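/- GENERATED FILE (helper35, build-time optimisation, NOTES/ZB.md): verbatim concatenation of the modules
   Fermat.Agent.STB.WeakApprox
   Fermat.Agent.STB.AbstractT2
   Fermat.Agent.STB.SmoothShape
   Fermat.Agent.STB.SmoothShapeAT
   Fermat.Agent.STB.SmoothFac
   Fermat.Agent.STB.SmoothPoint
   Fermat.Agent.S33.WildHorChart
   Fermat.Agent.STB.CrossFac
   Fermat.Agent.STB.CrossPoint
   Fermat.Agent.STB.SmoothTransport
   Fermat.Agent.STB.SmoothOnly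
   Fermat.Agent.STB.MainTwo
   Fermat.Agent.STB.MGNode
   Fermat.Agent.STB.MGNodeReg
   Fermat.Agent.STB.MGNodeFinal
   Fermat.Agent.S36.WeakApproxN
   Do not edit; do not import together with these modules. -/
import Mathlib
import Fermat.Agent.ZB.UNIP_007
import Fermat.Agent.ZB.UNIP_009
import Fermat.Agent.ZB.UNIP_010
import Fermat.Agent.ZB.UNIP_030
import Fermat.Agent.ZB.S34_001
import Fermat.Agent.ZB.UNIP_012
import Fermat.Agent.ZB.UNIP_029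
import Fermat.Agent.ZB.STB_004
import Fermat.Agent.ZB.UNIP_033
import Fermat.Agent.ZB.Common_003
import Fermat.Agent.ZB.UNIP_006

/-! ### bundled: `Fermat.Agent.STB.WeakApprox` -/
section ZBSTB_003_0

/-!
# STB-W (S35, plan `NOTES/S35-plan.md`, step (B5)): weak approximation for two valuation subrings

`F` a field, `V₁ V₂ : ValuationSubring F`.

* `stb_exists_sep_of_not_le` : if `V₁ ⊄ V₂` there is `a` which is a unit of `V₁` and lies in `𝔪(V₂)`.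
* `stb_idem` : from `a` (unit at `V₁`, in `𝔪(V₂)`) and `b` (in `𝔪(V₁)`, unit at `V₂`) the element
  `e = a / (a + b)` satisfies `e ≡ 1` at `V₁` and `e ≡ 0` at `V₂`.
* `StbArch V` : the archimedean property of `V` (`∀ x, ∀ y ∈ 𝔪, ∃ N, x y ^ N ∈ 𝔪`);
  `stbArch_of_piDisc` : it holds when all values are integral powers of the value of one `ϖ ∈ 𝔪`.
* `stb_weakApprox` : for `T₁ T₂ ≠ 0` there is `H ≠ 0` with `H / T₁ ≡ 1` at `V₁` and `H / T₂ ≡ 1`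
  at `V₂` (`H = T₁ e ^ N + T₂ (1 - e) ^ N`).
-/

set_option autoImplicit false

namespace Fermat.Agent.STB

variable {F : Type*} [Field F]

section Basic

variable (V : ValuationSubring F)

theorem stb_mem_nonunits_iff {x : F} : x ∈ V.nonunits ↔ V.valuation x < 1 :=
  ValuationSubring.mem_nonunits_iff V

theorem stb_zero_mem_nonunits : (0 : F) ∈ V.nonunits := by
  rw [stb_mem_nonunits_iff]; simp

/-- `x` is a unit of `V` -/
def StbUnit (x : F) : Prop := V.valuation x = 1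

variable {V}

theorem StbUnit.ne_zero {x : F} (h : StbUnit V x) : x ≠ 0 := by
  rintro rfl
  simp [StbUnit] at h

theorem StbUnit.inv {x : F} (h : StbUnit V x) : StbUnit V x⁻¹ := by
  unfold StbUnit at h ⊢
  rw [map_inv₀, h, inv_one]

theorem StbUnit.mul {x y : F} (hx : StbUnit V x) (hy : StbUnit V y) : StbUnit V (x * y) := by
  unfold StbUnit at hx hy ⊢
  rw [map_mul, hx, hy, one_mul]

theorem StbUnit.pow {x : F} (hx : StbUnit V x) (n : ℕ) : StbUnit V (x ^ n) := by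
  unfold StbUnit at hx ⊢
  rw [map_pow, hx, one_pow]

theorem stbUnit_iff_mem {x : F} (hx : x ≠ 0) : StbUnit V x ↔ x ∈ V ∧ x⁻¹ ∈ V := by
  unfold StbUnit
  constructor
  · intro h
    refine ⟨(V.valuation_le_one_iff x).1 h.le, (V.valuation_le_one_iff _).1 ?_⟩
    rw [map_inv₀, h, inv_one]
  · rintro ⟨h1, h2⟩
    have a1 := (V.valuation_le_one_iff x).2 h1
    have a2 := (V.valuation_le_one_iff _).2 h2
    rw [map_inv₀] at a2
    have hpos : 0 < V.valuation x := zero_lt_iff.2 ((Valuation.ne_zero_iff _).2 hx)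
    exact le_antisymm a1 ((inv_le_one₀ hpos).1 a2)

/-- an element of `V` which is not in the maximal ideal is a unit -/
theorem stbUnit_of_mem_of_not_mem {x : F} (h1 : x ∈ V) (h2 : x ∉ V.nonunits) : StbUnit V x := by
  unfold StbUnit
  rw [stb_mem_nonunits_iff, not_lt] at h2
  exact le_antisymm ((V.valuation_le_one_iff x).2 h1) h2

/-- `unit + nonunit` is a unit -/
theorem StbUnit.add_nonunit {x y : F} (hx : StbUnit V x) (hy : y ∈ V.nonunits) :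
    StbUnit V (x + y) := by
  unfold StbUnit at hx ⊢
  rw [stb_mem_nonunits_iff] at hy
  rw [add_comm]
  have := V.valuation.map_add_eq_of_lt_right (x := y) (y := x) (by rw [hx]; exact hy)
  rw [this, hx]

/-- a unit times a nonunit is a nonunit -/
theorem StbUnit.mul_nonunit {x y : F} (hx : StbUnit V x) (hy : y ∈ V.nonunits) :
    x * y ∈ V.nonunits := by
  unfold StbUnit at hx
  rw [stb_mem_nonunits_iff] at hy ⊢
  rw [map_mul, hx, one_mul]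
  exact hy

theorem stb_add_mem_nonunits {x y : F} (hx : x ∈ V.nonunits) (hy : y ∈ V.nonunits) :
    x + y ∈ V.nonunits := by
  rw [stb_mem_nonunits_iff] at hx hy ⊢
  exact lt_of_le_of_lt (V.valuation.map_add x y) (max_lt hx hy)

theorem stb_sub_mem_nonunits {x y : F} (hx : x ∈ V.nonunits) (hy : y ∈ V.nonunits) :
    x - y ∈ V.nonunits := by
  rw [stb_mem_nonunits_iff] at hx hy ⊢
  exact lt_of_le_of_lt (V.valuation.map_sub x y) (max_lt hx hy)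

theorem stb_neg_mem_nonunits {x : F} (hx : x ∈ V.nonunits) : -x ∈ V.nonunits := by
  rw [stb_mem_nonunits_iff] at hx ⊢
  rwa [Valuation.map_neg]

/-- an element `≡ 1` is a unit -/
theorem stbUnit_of_sub_one {x : F} (h : x - 1 ∈ V.nonunits) : StbUnit V x := by
  have h1 : StbUnit V (1 : F) := by simp [StbUnit]
  have := h1.add_nonunit h
  rwa [add_sub_cancel] at this

theorem stb_congr_mul {x y : F} (hx : x - 1 ∈ V.nonunits) (hy : y - 1 ∈ V.nonunits) :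
    x * y - 1 ∈ V.nonunits := by
  have e : x * y - 1 = y * (x - 1) + (y - 1) := by ring
  rw [e]
  exact stb_add_mem_nonunits ((stbUnit_of_sub_one hy).mul_nonunit hx) hy

theorem stb_congr_pow {x : F} (hx : x - 1 ∈ V.nonunits) (n : ℕ) : x ^ n - 1 ∈ V.nonunits := by
  induction n with
  | zero => rw [pow_zero, sub_self]; exact stb_zero_mem_nonunits V
  | succ n ih => rw [pow_succ]; exact stb_congr_mul ih hx

/-- an element of `V` times a nonunit is a nonunit -/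
theorem stb_mul_mem_nonunits {x y : F} (hx : x ∈ V) (hy : y ∈ V.nonunits) :
    x * y ∈ V.nonunits := by
  rw [stb_mem_nonunits_iff] at hy ⊢
  rw [map_mul]
  exact Right.mul_lt_one_of_le_of_lt ((V.valuation_le_one_iff x).2 hx) hy

theorem stb_nonunits_subset {x : F} (hx : x ∈ V.nonunits) : x ∈ V :=
  (V.valuation_le_one_iff x).1 ((stb_mem_nonunits_iff V).1 hx).le

end Basic

section Arch

/-- The archimedean property of a valuation subring (rank one). -/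
def StbArch (V : ValuationSubring F) : Prop :=
  ∀ x : F, ∀ y ∈ V.nonunits, ∃ N : ℕ, x * y ^ N ∈ V.nonunits

theorem StbArch.exists_forall_ge {V : ValuationSubring F} (h : StbArch V) (x : F) {y : F}
    (hy : y ∈ V.nonunits) : ∃ N : ℕ, ∀ n, N ≤ n → x * y ^ n ∈ V.nonunits := by
  obtain ⟨N, hN⟩ := h x y hy
  refine ⟨N, fun n hn => ?_⟩
  obtain ⟨k, rfl⟩ := Nat.exists_eq_add_of_le hn
  have e : x * y ^ (N + k) = y ^ k * (x * y ^ N) := by rw [pow_add]; ring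
  rw [e]
  exact stb_mul_mem_nonunits (V.pow_mem (stb_nonunits_subset hy) k) hN

/-- A valuation subring all of whose values are integral powers of the value of one element of the
maximal ideal is archimedean. -/
theorem stbArch_of_piDisc (V : ValuationSubring F) (ϖ : F) (hϖ : ϖ ∈ V.nonunits) (hϖ0 : ϖ ≠ 0)
    (hdisc : ∀ x : F, x ≠ 0 → ∃ n : ℤ, V.valuation x = V.valuation ϖ ^ n) : StbArch V := by
  intro x y hy
  rcases eq_or_ne x 0 with rfl | hx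
  · exact ⟨0, by rw [zero_mul]; exact stb_zero_mem_nonunits V⟩
  rcases eq_or_ne y 0 with rfl | hy0
  · exact ⟨1, by rw [pow_one, mul_zero]; exact stb_zero_mem_nonunits V⟩
  set γ := V.valuation ϖ with hγ
  have hγlt : γ < 1 := (stb_mem_nonunits_iff V).1 hϖ
  have hγpos : 0 < γ := zero_lt_iff.2 ((Valuation.ne_zero_iff _).2 hϖ0)
  obtain ⟨j, hj⟩ := hdisc x hx
  obtain ⟨k, hk⟩ := hdisc y hy0
  rw [stb_mem_nonunits_iff] at hy
  have hkpos : 0 < k := by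
    rw [hk] at hy
    exact (zpow_lt_one_iff_right_of_lt_one₀ hγpos hγlt).1 hy
  refine ⟨(1 - j).toNat, ?_⟩
  rw [stb_mem_nonunits_iff, map_mul, map_pow, hj, hk, ← zpow_natCast, ← zpow_mul,
    ← zpow_add₀ hγpos.ne']
  rw [zpow_lt_one_iff_right_of_lt_one₀ hγpos hγlt]
  have h1 : (1 - j) ≤ ((1 - j).toNat : ℤ) := Int.self_le_toNat _
  have h2 : (0 : ℤ) ≤ ((1 - j).toNat : ℤ) := Int.natCast_nonneg _
  nlinarith

end Arch

section Sep

variable {V₁ V₂ : ValuationSubring F}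

/-- Separation: if `V₁ ⊄ V₂` there is a unit of `V₁` lying in the maximal ideal of `V₂`. -/
theorem stb_exists_sep_of_not_le (h : ¬ V₁ ≤ V₂) : ∃ a : F, StbUnit V₁ a ∧ a ∈ V₂.nonunits := by
  obtain ⟨x, hx1, hx2⟩ := SetLike.not_le_iff_exists.1 h
  have hv2 : 1 < V₂.valuation x := by
    by_contra hcon
    exact hx2 ((V₂.valuation_le_one_iff x).1 (not_lt.1 hcon))
  by_cases hu : x ∈ V₁.nonunits
  · refine ⟨(1 + x)⁻¹, ?_, ?_⟩
    · have h1 : StbUnit V₁ (1 : F) := by simp [StbUnit]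
      exact (h1.add_nonunit hu).inv
    · rw [stb_mem_nonunits_iff, map_inv₀]
      have e : V₂.valuation (1 + x) = V₂.valuation x :=
        V₂.valuation.map_add_eq_of_lt_right (by rw [map_one]; exact hv2)
      rw [e]
      exact inv_lt_one_of_one_lt₀ hv2
  · refine ⟨x⁻¹, (stbUnit_of_mem_of_not_mem hx1 hu).inv, ?_⟩
    rw [stb_mem_nonunits_iff, map_inv₀]
    exact inv_lt_one_of_one_lt₀ hv2

/-- From `a` (unit at `V₁`, in `𝔪(V₂)`) and `b` (in `𝔪(V₁)`, unit at `V₂`): `e = a / (a + b)` is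
`≡ 1` at `V₁` and `≡ 0` at `V₂`. -/
theorem stb_idem {a b : F} (ha1 : StbUnit V₁ a) (ha2 : a ∈ V₂.nonunits)
    (hb1 : b ∈ V₁.nonunits) (hb2 : StbUnit V₂ b) :
    a / (a + b) - 1 ∈ V₁.nonunits ∧ a / (a + b) ∈ V₂.nonunits := by
  constructor
  · have hu : StbUnit V₁ (a + b) := ha1.add_nonunit hb1
    have e : a / (a + b) - 1 = -((a + b)⁻¹ * b) := by
      have := hu.ne_zero
      field_simp
      ring
    rw [e]
    exact stb_neg_mem_nonunits (hu.inv.mul_nonunit hb1)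
  · have hu : StbUnit V₂ (a + b) := by
      rw [add_comm]
      exact hb2.add_nonunit ha2
    rw [div_eq_mul_inv, mul_comm]
    exact hu.inv.mul_nonunit ha2

/-- **Weak approximation** (two valuations), from an element `e ≡ 1` at `V₁`, `e ≡ 0` at `V₂`. -/
theorem stb_weakApprox_of_idem {e : F} (he1 : e - 1 ∈ V₁.nonunits) (he2 : e ∈ V₂.nonunits)
    (h1 : StbArch V₁) (h2 : StbArch V₂) {T₁ T₂ : F} (hT₁ : T₁ ≠ 0) (hT₂ : T₂ ≠ 0) :
    ∃ H : F, H ≠ 0 ∧ H / T₁ - 1 ∈ V₁.nonunits ∧ H / T₂ - 1 ∈ V₂.nonunits := by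
  have he1' : 1 - e ∈ V₁.nonunits := by
    have := stb_neg_mem_nonunits he1
    rwa [neg_sub] at this
  have he2' : (1 - e) - 1 ∈ V₂.nonunits := by
    have := stb_neg_mem_nonunits he2
    have e' : (1 - e) - 1 = -e := by ring
    rwa [e']
  obtain ⟨N₁, hN₁⟩ := h1.exists_forall_ge (T₂ / T₁) he1'
  obtain ⟨N₂, hN₂⟩ := h2.exists_forall_ge (T₁ / T₂) he2
  set N := max N₁ N₂ with hN
  have hH1 : (T₁ * e ^ N + T₂ * (1 - e) ^ N) / T₁ - 1 ∈ V₁.nonunits := by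
    have e' : (T₁ * e ^ N + T₂ * (1 - e) ^ N) / T₁ - 1 =
        (e ^ N - 1) + T₂ / T₁ * (1 - e) ^ N := by
      field_simp
      ring
    rw [e']
    exact stb_add_mem_nonunits (stb_congr_pow he1 N) (hN₁ N (le_max_left _ _))
  have hH2 : (T₁ * e ^ N + T₂ * (1 - e) ^ N) / T₂ - 1 ∈ V₂.nonunits := by
    have e' : (T₁ * e ^ N + T₂ * (1 - e) ^ N) / T₂ - 1 =
        T₁ / T₂ * e ^ N + ((1 - e) ^ N - 1) := by
      field_simp
      ring
    rw [e']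
    exact stb_add_mem_nonunits (hN₂ N (le_max_right _ _)) (stb_congr_pow he2' N)
  refine ⟨T₁ * e ^ N + T₂ * (1 - e) ^ N, ?_, hH1, hH2⟩
  intro h0
  rw [h0, zero_div, zero_sub] at hH1
  have := stb_neg_mem_nonunits hH1
  rw [neg_neg, stb_mem_nonunits_iff, map_one] at this
  exact lt_irrefl _ this

/-- **Weak approximation** (two valuations), from separating elements `a`, `b`
(`a ∈ 𝔭₂ ∖ 𝔭₁`, `b ∈ 𝔭₁ ∖ 𝔭₂` in a common subring). -/
theorem stb_weakApprox {a b : F} (ha1 : StbUnit V₁ a) (ha2 : a ∈ V₂.nonunits)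
    (hb1 : b ∈ V₁.nonunits) (hb2 : StbUnit V₂ b)
    (h1 : StbArch V₁) (h2 : StbArch V₂) {T₁ T₂ : F} (hT₁ : T₁ ≠ 0) (hT₂ : T₂ ≠ 0) :
    ∃ H : F, H ≠ 0 ∧ H / T₁ - 1 ∈ V₁.nonunits ∧ H / T₂ - 1 ∈ V₂.nonunits :=
  stb_weakApprox_of_idem (stb_idem ha1 ha2 hb1 hb2).1 (stb_idem ha1 ha2 hb1 hb2).2 h1 h2 hT₁ hT₂

/-- **Weak approximation** for two incomparable archimedean valuation subrings. -/
theorem stb_weakApprox_of_not_le (h12 : ¬ V₁ ≤ V₂) (h21 : ¬ V₂ ≤ V₁)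
    (h1 : StbArch V₁) (h2 : StbArch V₂) {T₁ T₂ : F} (hT₁ : T₁ ≠ 0) (hT₂ : T₂ ≠ 0) :
    ∃ H : F, H ≠ 0 ∧ H / T₁ - 1 ∈ V₁.nonunits ∧ H / T₂ - 1 ∈ V₂.nonunits := by
  obtain ⟨a, ha1, ha2⟩ := stb_exists_sep_of_not_le h12
  obtain ⟨b, hb2, hb1⟩ := stb_exists_sep_of_not_le h21
  exact stb_weakApprox ha1 ha2 hb1 hb2 h1 h2 hT₁ hT₂

end Sep

end Fermat.Agent.STB


end ZBSTB_003_0

/-! ### bundled: `Fermat.Agent.STB.AbstractT2` -/
section ZBSTB_003_1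
/-
S35 phase 2, plan STB, piece STB-T "ASSEMBLY" (helper84): the abstract theorem (T″).

Chart setting of `UNIP/AbstractT.lean` (theorem (T′)): `A₀` a DVR (uniformizer `π`), `E = Frac A₀`,
`F / E(t)` finite, charts `B_t`, `B_{t⁻¹}`, vertical valuation rings `V c`, `κ = {c₁, c₂}`.
`Φ : F →+* F` (the square of a Frobenius lift), `Q : ℕ` (`= q²`), `m = p ^ r`.
`y ∈ F^×` TORIC: `y / (tt c) ^ m ≡ 1` at `V c` for global functions `tt c`.

* `stb_branch_unit` : the branch unit `α ∈ O^×`, `α ≡ t / γ` at `V` (from a local factorisation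
  `y = ε γ ^ m` at `O` and normality of the branch).
* `stb_point_one`   : the point datum of `PwiShape … m w′`, `w′ = Φ y / y ^ Q / H ^ m`, at a point `O`
  with ONE component `V` through it, NOT necessarily fixed by `Φ`: uses the local factorisations of
  `y` at `O` and at `O₁` (`= Φ⁻¹ O`, `Φ O₁ ⊆ O`).
* `stb_not_le_of_ne` : two distinct archimedean valuation rings with a common nonunit `≠ 0` are
  incomparable.
* `stb_loc_le`, `stb_loc_inter` : `(B_u)_𝔫 ⊆ V c` for `c` through `𝔫`; local form of (SS1).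
* `stb_main` : **(T″)**, per-point hypotheses in abstract form (`hpoint`).
* `stb_main_points` : **(T″)** with the per-point hypotheses `StbCross` (crossing points, fixed by
  `Φ`, Frobenius on the residue field; `stb_glue_frob` of helper76) / `StbSmooth` (points with one
  component).
-/

set_option autoImplicit false
set_option linter.unusedSectionVars false
set_option linter.unusedVariables false
set_option linter.style.haveILetI false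

namespace Fermat.Agent.STB

open Polynomial IntermediateField Fermat.Agent.INJ Fermat.Agent.UNIP

section Point

variable {F : Type*} [Field F]

/-- normality of the branch `V` of the local ring `O` (hypothesis `hres` of `stb_glue_frob`):
an element of `F` whose `n`-th power is congruent at `V` to a unit of `O` is congruent at `V` to an
element of `O`. -/
def StbRes (O : Subring F) (V : ValuationSubring F) : Prop :=
  ∀ (a : F) (e : O) (n : ℕ), IsUnit e → 0 < n → a ^ n - (e : F) ∈ V.nonunits →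
    ∃ α : O, a - (α : F) ∈ V.nonunits

/-- a local factorisation `y = ε γ ^ m` with `ε ∈ O^×` -/
def StbFacAt (O : Subring F) (m : ℕ) (y : F) : Prop :=
  ∃ (γ : F) (ε : O), IsUnit ε ∧ y = (ε : F) * γ ^ m

/-- **Branch unit.**  `y = ε γ ^ m` at `O`, `y ≡ t ^ m` at `V`, the branch is normal: there is a
unit `α` of `O` with `t / γ ≡ α` at `V`. -/
theorem stb_branch_unit (O : Subring F) [IsLocalRing O] (V : ValuationSubring F)
    (hOV : ∀ x ∈ O, x ∈ V) (hres : StbRes O V)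
    {m : ℕ} (hm : 0 < m) {y γ t : F} (ε : O) (hε : IsUnit ε) (hy : y = (ε : F) * γ ^ m)
    (ht : y / t ^ m - 1 ∈ V.nonunits) :
    ∃ α : O, IsUnit α ∧ t / γ - (α : F) ∈ V.nonunits ∧ V.valuation (α : F) = 1 := by
  have hr0 := stb_ne_zero_of_congr V ht
  have hy0 : y ≠ 0 := fun h => hr0 (by rw [h, zero_div])
  have htm0 : t ^ m ≠ 0 := fun h => hr0 (by rw [h, div_zero])
  have ht0 : t ≠ 0 := fun h => htm0 (by rw [h, zero_pow hm.ne'])
  have hγ0 : γ ≠ 0 := fun h => hy0 (by rw [hy, h, zero_pow hm.ne', mul_zero])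
  have hvε : V.valuation (ε : F) = 1 := stb_val_unit O V hOV hε
  have hε0 : (ε : F) ≠ 0 := fun h => by
    rw [h, map_zero] at hvε
    exact zero_ne_one hvε
  have h_am : (t / γ) ^ m - (ε : F) ∈ V.nonunits := by
    have e : (t / γ) ^ m - (ε : F) = (ε : F) * ((y / t ^ m)⁻¹ - 1) := by
      rw [hy, div_pow]
      field_simp
    rw [e]
    exact pwi_mul_mem_nonunits V (hOV _ ε.2) (stb_congr_inv V ht)
  obtain ⟨α, hα⟩ := hres (t / γ) ε m hε hm h_am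
  have hva : V.valuation (t / γ) = 1 := stb_val_of_pow V hm (stb_val_of_sub V hvε h_am)
  have haV : t / γ ∈ V := (V.valuation_le_one_iff _).1 hva.le
  have hα' : (α : F) - t / γ ∈ V.nonunits := by
    have := V.nonunits.neg_mem hα
    rwa [neg_sub] at this
  have hvα : V.valuation (α : F) = 1 := stb_val_of_sub V hva hα'
  refine ⟨α, ?_, hα, hvα⟩
  by_contra hu
  have h1 : α ∈ IsLocalRing.maximalIdeal O := (IsLocalRing.mem_maximalIdeal _).2 hu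
  have h2 : α ^ m ∈ IsLocalRing.maximalIdeal O := Ideal.pow_mem_of_mem _ h1 m hm
  have h3 : α ^ m - ε ∈ IsLocalRing.maximalIdeal O := by
    apply stb_mem_maximalIdeal_of_nonunits O V hOV
    have e : ((α ^ m - ε : O) : F)
        = ((α : F) ^ m - (t / γ) ^ m) + ((t / γ) ^ m - (ε : F)) := by
      push_cast
      ring
    rw [e]
    exact V.nonunits.add_mem (stb_pow_sub_pow V (hOV _ α.2) haV hα' m) h_am
  have h4 : ε ∈ IsLocalRing.maximalIdeal O := by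
    have := Ideal.sub_mem _ h2 h3
    rwa [sub_sub_cancel] at this
  exact (IsLocalRing.mem_maximalIdeal _).1 h4 hε

/-- **STB-T, point lemma for ONE component.**  `O` the local ring of a closed point with exactly
one vertical valuation `V` through it (`hinter`), `O₁` the local ring of its preimage under `Φ`
(`Φ O₁ ⊆ O`; the point need not be fixed).  `y` has local factorisations at `O` and at `O₁`, and is
toric at `V` (`y ≡ t ^ m`); `H ≡ Φ t / t ^ Q` at `V`.  Then `w′ = Φ y / y ^ Q / H ^ m` has the point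
datum of `PwiShape`: `w′ = ε′ γ′ ^ m`, `ε′ ∈ O`, `ε′ ≡ 1` mod `J`, `γ′ ≡ 1` at `V`. -/
theorem stb_point_one (O O₁ : Subring F) [IsLocalRing O] [IsLocalRing O₁] (J : Ideal O)
    (V : ValuationSubring F) (hOV : ∀ x ∈ O, x ∈ V) (hO₁V : ∀ x ∈ O₁, x ∈ V)
    (hinter : ∀ x : O, (x : F) ∈ V.nonunits → x ∈ J)
    (hres : StbRes O V) (hres₁ : StbRes O₁ V)
    (Φ : F →+* F) (Q : ℕ) (hΦ : ∀ x ∈ V.nonunits, Φ x ∈ V.nonunits)
    (hΦO : ∀ x ∈ O₁, Φ x ∈ O)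
    {m : ℕ} (hm : 0 < m) {y t H : F} (hfac : StbFacAt O m y) (hfac₁ : StbFacAt O₁ m y)
    (ht : y / t ^ m - 1 ∈ V.nonunits) (hH : H / (Φ t / t ^ Q) - 1 ∈ V.nonunits) :
    ∃ ε' γ' : F, ∃ hε' : ε' ∈ O, (⟨ε', hε'⟩ - 1 : O) ∈ J ∧ γ' - 1 ∈ V.nonunits ∧
      Φ y / y ^ Q / H ^ m = ε' * γ' ^ m := by
  obtain ⟨γ, ε, hε, hy⟩ := hfac
  obtain ⟨γ₁, ε₁, hε₁, hy₁⟩ := hfac₁
  obtain ⟨α, hαu, hα, hvα⟩ := stb_branch_unit O V hOV hres hm ε hε hy ht
  obtain ⟨α₁, hα₁u, hα₁, hvα₁⟩ := stb_branch_unit O₁ V hO₁V hres₁ hm ε₁ hε₁ hy₁ ht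
  have hr0 := stb_ne_zero_of_congr V ht
  have hy0 : y ≠ 0 := fun h => hr0 (by rw [h, zero_div])
  have htm0 : t ^ m ≠ 0 := fun h => hr0 (by rw [h, div_zero])
  have ht0 : t ≠ 0 := fun h => htm0 (by rw [h, zero_pow hm.ne'])
  have hγ0 : γ ≠ 0 := fun h => hy0 (by rw [hy, h, zero_pow hm.ne', mul_zero])
  have hγ₁0 : γ₁ ≠ 0 := fun h => hy0 (by rw [hy₁, h, zero_pow hm.ne', mul_zero])
  have hH0' := stb_ne_zero_of_congr V hH
  have hH0 : H ≠ 0 := fun h => hH0' (by rw [h, zero_div])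
  have hΦt0 : Φ t ≠ 0 := (_root_.map_ne_zero Φ).2 ht0
  have hΦγ₁0 : Φ γ₁ ≠ 0 := (_root_.map_ne_zero Φ).2 hγ₁0
  have hα0 : (α : F) ≠ 0 := fun h => by
    rw [h, map_zero] at hvα
    exact zero_ne_one hvα
  have hα₁0 : (α₁ : F) ≠ 0 := fun h => by
    rw [h, map_zero] at hvα₁
    exact zero_ne_one hvα₁
  have hΦα₁0 : Φ (α₁ : F) ≠ 0 := (_root_.map_ne_zero Φ).2 hα₁0
  have hε0 : (ε : F) ≠ 0 := fun h => hy0 (by rw [hy, h, zero_mul])
  have hε₁0 : (ε₁ : F) ≠ 0 := fun h => hy0 (by rw [hy₁, h, zero_mul])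
  -- units
  obtain ⟨uα₁, huα₁⟩ := hα₁u
  obtain ⟨uε, huε⟩ := hε
  have hinvα₁ : (((uα₁⁻¹ : O₁ˣ) : O₁) : F) = (α₁ : F)⁻¹ := by
    rw [stb_coe_inv O₁ uα₁, huα₁]
  have hinvε : (((uε⁻¹ : Oˣ) : O) : F) = (ε : F)⁻¹ := by
    rw [stb_coe_inv O uε, huε]
  -- `Φ α₁` is a unit of `V`
  have hvΦα₁ : V.valuation (Φ (α₁ : F)) = 1 := by
    have h1 : V.valuation (Φ (α₁ : F)) ≤ 1 :=
      (V.valuation_le_one_iff _).2 (hOV _ (hΦO _ α₁.2))
    have h2 : V.valuation (Φ (α₁ : F))⁻¹ ≤ 1 := by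
      have h3 : (Φ (α₁ : F))⁻¹ = Φ (((uα₁⁻¹ : O₁ˣ) : O₁) : F) := by
        rw [hinvα₁, map_inv₀]
      rw [h3]
      exact (V.valuation_le_one_iff _).2 (hOV _ (hΦO _ ((uα₁⁻¹ : O₁ˣ) : O₁).2))
    rw [map_inv₀] at h2
    refine le_antisymm h1 ?_
    by_contra hlt
    rw [not_le] at hlt
    have hne : V.valuation (Φ (α₁ : F)) ≠ 0 := (Valuation.ne_zero_iff _).2 hΦα₁0
    have h4 : (1 : _) < (V.valuation (Φ (α₁ : F)))⁻¹ := by
      rw [one_lt_inv₀ (zero_lt_iff.2 hne)]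
      exact hlt
    exact absurd h2 (not_le.2 h4)
  -- the elements of `O`
  set β : O := α ^ Q * ⟨Φ (((uα₁⁻¹ : O₁ˣ) : O₁) : F), hΦO _ ((uα₁⁻¹ : O₁ˣ) : O₁).2⟩ with hβ
  have hβF : (β : F) = (α : F) ^ Q / Φ (α₁ : F) := by
    rw [hβ]
    push_cast
    rw [hinvα₁, map_inv₀, div_eq_mul_inv]
  have hβ0 : (β : F) ≠ 0 := by
    rw [hβF]
    exact div_ne_zero (pow_ne_zero _ hα0) hΦα₁0
  set ε' : O := ⟨Φ (ε₁ : F), hΦO _ ε₁.2⟩ * ((uε⁻¹ : Oˣ) : O) ^ Q * β ^ m with hε'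
  have hε'F : (ε' : F) = Φ (ε₁ : F) / (ε : F) ^ Q * (β : F) ^ m := by
    rw [hε']
    push_cast
    rw [hinvε, inv_pow, div_eq_mul_inv]
  -- `γ'`
  have hγ' : Φ γ₁ / (γ ^ Q * H) / (β : F) - 1 ∈ V.nonunits := by
    have e : Φ γ₁ / (γ ^ Q * H) / (β : F)
        = (H / (Φ t / t ^ Q))⁻¹ * ((t / γ / (α : F)) ^ Q * (Φ (t / γ₁) / Φ (α₁ : F))⁻¹) := by
      rw [hβF, map_div₀, div_pow, div_pow]
      field_simp
    rw [e]
    refine pwi_congr_mul V (stb_congr_inv V hH) (pwi_congr_mul V ?_ (stb_congr_inv V ?_))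
    · exact pwi_congr_pow V (stb_div_congr V hvα hα) Q
    · apply stb_div_congr V hvΦα₁
      have := hΦ _ hα₁
      rwa [map_sub] at this
  have hw : Φ y / y ^ Q / H ^ m = (ε' : F) * (Φ γ₁ / (γ ^ Q * H) / (β : F)) ^ m := by
    have e1 : Φ y = Φ (ε₁ : F) * Φ γ₁ ^ m := by rw [hy₁, map_mul, map_pow]
    have e2 : y ^ Q = (ε : F) ^ Q * (γ ^ Q) ^ m := by
      rw [hy, mul_pow, ← pow_mul, ← pow_mul, mul_comm m Q]
    rw [hε'F, e1, e2, div_pow, div_pow, mul_pow]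
    field_simp
  refine ⟨ε', Φ γ₁ / (γ ^ Q * H) / (β : F), ε'.2, hinter _ ?_, hγ', hw⟩
  -- `ε' ≡ 1` at `V`
  have hvert := stb_vertical V Φ hΦ Q m ht hH
  have hγm := pwi_congr_pow V hγ' m
  have hγm0 := stb_ne_zero_of_congr V hγm
  have e : (((⟨(ε' : F), ε'.2⟩ - 1 : O) : O) : F)
      = Φ y / y ^ Q / H ^ m / (Φ γ₁ / (γ ^ Q * H) / (β : F)) ^ m - 1 := by
    rw [hw]
    push_cast
    field_simp
  rw [e]
  exact stb_congr_div V hvert hγm

/-- `V₁ ≤ V₂`, `V₁` archimedean, `V₂ ≠ F` (it has a nonzero nonunit) ⇒ `V₂ ≤ V₁`. -/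
theorem stb_le_of_le_of_arch {V₁ V₂ : ValuationSubring F} (h1 : StbArch V₁) {ϖ : F}
    (hϖ0 : ϖ ≠ 0) (hϖ₂ : ϖ ∈ V₂.nonunits) (hle : V₁ ≤ V₂) : V₂ ≤ V₁ := by
  intro x hx
  by_contra hx1
  have hx0 : x ≠ 0 := fun h => hx1 (by rw [h]; exact V₁.zero_mem)
  -- `x⁻¹ ∈ 𝔪(V₁)`
  have hxinv : x⁻¹ ∈ V₁.nonunits := by
    rw [ValuationSubring.mem_nonunits_iff, map_inv₀]
    have h2 : ¬ V₁.valuation x ≤ 1 := fun h => hx1 ((V₁.valuation_le_one_iff x).1 h)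
    rw [not_le] at h2
    have hne : V₁.valuation x ≠ 0 := (Valuation.ne_zero_iff _).2 hx0
    exact (inv_lt_one₀ (zero_lt_iff.2 hne)).2 h2
  obtain ⟨N, hN⟩ := h1 ϖ⁻¹ x⁻¹ hxinv
  have h3 : ϖ⁻¹ * x⁻¹ ^ N ∈ V₂ := hle (stb_nonunits_subset hN)
  have h4 : ϖ⁻¹ ∈ V₂ := by
    have e : ϖ⁻¹ = ϖ⁻¹ * x⁻¹ ^ N * x ^ N := by
      rw [inv_pow]
      field_simp
    rw [e]
    exact V₂.mul_mem _ _ h3 (V₂.pow_mem hx N)
  rw [ValuationSubring.mem_nonunits_iff] at hϖ₂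
  have h5 : V₂.valuation ϖ⁻¹ ≤ 1 := (V₂.valuation_le_one_iff _).2 h4
  rw [map_inv₀] at h5
  have hne : V₂.valuation ϖ ≠ 0 := (Valuation.ne_zero_iff _).2 hϖ0
  have h6 : (1 : _) < (V₂.valuation ϖ)⁻¹ := by
    rw [one_lt_inv₀ (zero_lt_iff.2 hne)]
    exact hϖ₂
  exact absurd h5 (not_le.2 h6)

/-- Two distinct archimedean valuation rings of `F` having a common nonzero nonunit are
incomparable. -/
theorem stb_not_le_of_ne {V₁ V₂ : ValuationSubring F} (h1 : StbArch V₁) {ϖ : F} (hϖ0 : ϖ ≠ 0)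
    (hϖ₂ : ϖ ∈ V₂.nonunits) (hne : V₁ ≠ V₂) : ¬ V₁ ≤ V₂ := fun hle =>
  hne (le_antisymm hle (stb_le_of_le_of_arch h1 hϖ0 hϖ₂ hle))

end Point

section Chart

variable {A₀ E F : Type*} [CommRing A₀] [IsDomain A₀] [IsDiscreteValuationRing A₀]
  [Field E] [Algebra A₀ E] [IsFractionRing A₀ E] [CharZero E]
  [Field F] [Algebra E F] [Algebra A₀ F] [IsScalarTower A₀ E F]
  {π : A₀} {κ : Type*}

/-- `(B_u)_𝔫 ⊆ W` if the component `W` passes through `𝔫`. -/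
theorem stb_loc_le {u : F} (𝔫 : AtPt (F := F) π u) (W : ValuationSubring F)
    (hBW : ∀ b : F, IsIntegral ↥(Algebra.adjoin A₀ {u}) b → b ∈ W)
    (hthr : atThrough 𝔫 W) : ∀ x ∈ atLoc 𝔫, x ∈ W := by
  rintro x ⟨b, s, hs, hsx⟩
  have hsW : (s : F) ∈ W := hBW _ (mem_zchClosure.mp s.2)
  have hbW : (b : F) ∈ W := hBW _ (mem_zchClosure.mp b.2)
  have hs1 : W.valuation (s : F) = 1 :=
    ats_valuation_eq_one W hsW fun h => hs (hthr s h)
  have h := congrArg W.valuation hsx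
  rw [map_mul] at h
  have hs1' : W.valuation (algebraMap ↥(zchClosure (A₀ := A₀) ({u} : Set F)) F s) = 1 := hs1
  rw [hs1', one_mul] at h
  rw [← W.valuation_le_one_iff, h]
  exact (W.valuation_le_one_iff _).2 hbW

/-- **Local form of (SS1).**  An element of `(B_u)_𝔫` lying in `𝔪(V c)` for all components `c`
through `𝔫` lies in `π (B_u)_𝔫`. -/
theorem stb_loc_inter (hπ0 : algebraMap A₀ F π ≠ 0) [Finite κ] {u : F}
    (V : κ → ValuationSubring F)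
    (hBV : ∀ c (b : F), IsIntegral ↥(Algebra.adjoin A₀ {u}) b → b ∈ V c)
    (hSS1 : ∀ b : F, IsIntegral ↥(Algebra.adjoin A₀ {u}) b → (∀ c, b ∈ (V c).nonunits) →
      ∃ b' : F, IsIntegral ↥(Algebra.adjoin A₀ {u}) b' ∧ b = algebraMap A₀ F π * b')
    (𝔫 : AtPt (F := F) π u) (x : atLoc 𝔫)
    (hx : ∀ c, atThrough 𝔫 (V c) → (x : F) ∈ (V c).nonunits) : x ∈ atLocIdeal 𝔫 := by
  classical
  haveI : Fintype κ := Fintype.ofFinite κ
  haveI := 𝔫.2.1.isPrime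
  obtain ⟨b, s, hs, hsx⟩ := x.2
  have hcov : ∀ c, ¬ atThrough 𝔫 (V c) →
      ∃ d : ↥(zchClosure (A₀ := A₀) ({u} : Set F)), d ∉ 𝔫.1 ∧ (d : F) ∈ (V c).nonunits :=
    fun c hc => ats_cov (V c) 𝔫.1 hc
  choose! f hf using hcov
  set S : Finset κ := Finset.univ.filter (fun c => ¬ atThrough 𝔫 (V c)) with hS
  set d : ↥(zchClosure (A₀ := A₀) ({u} : Set F)) := ∏ c ∈ S, f c with hd
  have hd𝔫 : d ∉ 𝔫.1 := by
    intro h
    obtain ⟨c, hc, hfc⟩ := (Ideal.IsPrime.prod_mem_iff).mp h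
    exact (hf c (Finset.mem_filter.mp hc).2).1 hfc
  have hmemV : ∀ c (z : ↥(zchClosure (A₀ := A₀) ({u} : Set F))), (z : F) ∈ V c := fun c z =>
    hBV c _ (mem_zchClosure.mp z.2)
  have hsxF : (s : F) * (x : F) = (b : F) := hsx
  have hall : ∀ c, ((d * b : ↥(zchClosure (A₀ := A₀) ({u} : Set F))) : F) ∈ (V c).nonunits := by
    intro c
    by_cases hc : atThrough 𝔫 (V c)
    · have h1 : (b : F) ∈ (V c).nonunits := by
        rw [← hsxF]
        exact pwi_mul_mem_nonunits (V c) (hmemV c s) (hx c hc)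
      show (d : F) * (b : F) ∈ (V c).nonunits
      exact pwi_mul_mem_nonunits (V c) (hmemV c d) h1
    · have hcS : c ∈ S := Finset.mem_filter.mpr ⟨Finset.mem_univ c, hc⟩
      have e : d * b = (∏ c' ∈ S.erase c, f c') * b * f c := by
        rw [hd, ← Finset.mul_prod_erase S f hcS]
        ring
      rw [e]
      show ((((∏ c' ∈ S.erase c, f c') * b : ↥(zchClosure (A₀ := A₀) ({u} : Set F))) : F)) *
        (f c : F) ∈ (V c).nonunits
      exact pwi_mul_mem_nonunits (V c) (hmemV c _) (hf c hc).2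
  obtain ⟨b', hb', hbb'⟩ := hSS1 _ (mem_zchClosure.mp (d * b).2) hall
  refine (ls_mem_localIdeal 𝔫.1 _).mpr ⟨(x : F) / algebraMap A₀ F π, ?_, ?_⟩
  · refine ⟨⟨b', mem_zchClosure.mpr hb'⟩, d * s, fun h => ?_, ?_⟩
    · rcases (inferInstance : 𝔫.1.IsPrime).mem_or_mem h with h' | h'
      · exact hd𝔫 h'
      · exact hs h'
    · show algebraMap ↥(zchClosure (A₀ := A₀) ({u} : Set F)) F (d * s) *
          ((x : F) / algebraMap A₀ F π) = b'
      have e : algebraMap ↥(zchClosure (A₀ := A₀) ({u} : Set F)) F (d * s) = (d : F) * (s : F) :=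
        rfl
      have e2 : ((d * b : ↥(zchClosure (A₀ := A₀) ({u} : Set F))) : F) = (d : F) * (b : F) := rfl
      rw [e2] at hbb'
      rw [e, mul_div_assoc', mul_assoc, hsxF, hbb']
      field_simp
  · show (x : F) = algebraMap A₀ F π * ((x : F) / algebraMap A₀ F π)
    field_simp

/-- the local rings `atO π t i` are local -/
theorem stb_atO_isLocalRing (t : F) (i : AtPt (F := F) π t ⊕ AtPt (F := F) π t⁻¹) :
    IsLocalRing (atO π t i) := by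
  rcases i with 𝔫 | 𝔫
  · haveI := 𝔫.2.1.isPrime
    exact ls_localSubring_isLocalRing Subtype.val_injective 𝔫.1
  · haveI := 𝔫.2.1.isPrime
    exact ls_localSubring_isLocalRing Subtype.val_injective 𝔫.1

/-- `atO π t i ⊆ V c` for the components through `i` -/
theorem stb_atO_le {t : F} (V : κ → ValuationSubring F)
    (hBV₁ : ∀ c (b : F), IsIntegral ↥(Algebra.adjoin A₀ {t}) b → b ∈ V c)
    (hBV₂ : ∀ c (b : F), IsIntegral ↥(Algebra.adjoin A₀ {t⁻¹}) b → b ∈ V c)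
    (i : AtPt (F := F) π t ⊕ AtPt (F := F) π t⁻¹) (c : κ) (hc : atInc π t V i c) :
    ∀ x ∈ atO π t i, x ∈ V c := by
  rcases i with 𝔫 | 𝔫
  · exact stb_loc_le 𝔫 (V c) (hBV₁ c) hc
  · exact stb_loc_le 𝔫 (V c) (hBV₂ c) hc

/-- local form of (SS1) at the points `i` -/
theorem stb_atO_inter (hπ : Irreducible π) {t : F} (ht : Transcendental E t)
    [FiniteDimensional E⟮t⟯ F] [Finite κ] (V : κ → ValuationSubring F)
    (hBV₁ : ∀ c (b : F), IsIntegral ↥(Algebra.adjoin A₀ {t}) b → b ∈ V c)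
    (hBV₂ : ∀ c (b : F), IsIntegral ↥(Algebra.adjoin A₀ {t⁻¹}) b → b ∈ V c)
    (hSS1 : ∀ b : F, IsIntegral ↥(Algebra.adjoin A₀ {t}) b → (∀ c, b ∈ (V c).nonunits) →
      ∃ b' : F, IsIntegral ↥(Algebra.adjoin A₀ {t}) b' ∧ b = algebraMap A₀ F π * b')
    (i : AtPt (F := F) π t ⊕ AtPt (F := F) π t⁻¹) (x : atO π t i)
    (hx : ∀ c, atInc π t V i c → (x : F) ∈ (V c).nonunits) : x ∈ atJ π t i := by
  have hπ0 : algebraMap A₀ F π ≠ 0 :=
    (map_ne_zero_iff _ (zch_algebraMap_injective (A₀ := A₀) (E := E) (L := F))).mpr hπ.ne_zero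
  rcases i with 𝔫 | 𝔫
  · exact stb_loc_inter hπ0 V hBV₁ hSS1 𝔫 x hx
  · exact stb_loc_inter hπ0 V hBV₂ (ats_SS1_inv ht hπ V hBV₁ hSS1) 𝔫 x hx

end Chart

section Main

variable {A₀ E F : Type*} [CommRing A₀] [IsDomain A₀] [IsDiscreteValuationRing A₀]
  [Field E] [Algebra A₀ E] [IsFractionRing A₀ E] [CharZero E]
  [Field F] [Algebra E F] [Algebra A₀ F] [IsScalarTower A₀ E F]
  {π : A₀} {κ : Type*}

/-- **(T″), abstract per-point form.**  Chart setting of (T′) with two components `V c₁ ≠ V c₂`;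
`Φ : F →+* F` preserving `𝔪(V c)`; `y` toric (`y ≡ (tt c) ^ (p ^ r)` at `V c`).  If for every `H`
with `H ≡ Φ (tt c) / (tt c) ^ Q` at `V c` the function `w′ = Φ y / y ^ Q / H ^ (p ^ r)` has the point
datum of `PwiShape` at every closed point (`hpoint`; see `stb_point_one`, `stb_glue_frob`), then
`Φ y / y ^ Q` is a `p ^ r`-th power in `F`. -/
theorem stb_main (hπ : Irreducible π) {t : F} (ht : Transcendental E t)
    [FiniteDimensional E⟮t⟯ F]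
    (hcl : ∀ x : F, IsAlgebraic E x → x ∈ (algebraMap E F).range)
    {p : ℕ} (hp : p.Prime) (hpu : IsUnit (p : A₀)) {ζ : A₀} (hζ : IsPrimitiveRoot ζ p)
    (hunit : ∀ a : A₀, IsUnit a → ∃ d : A₀, d ^ p = a)
    [Finite κ] (V : κ → ValuationSubring F) (c₁ c₂ : κ) (hκ : ∀ c, c = c₁ ∨ c = c₂)
    (hne : V c₁ ≠ V c₂)
    (hBV₁ : ∀ c (b : F), IsIntegral ↥(Algebra.adjoin A₀ {t}) b → b ∈ V c)
    (hBV₂ : ∀ c (b : F), IsIntegral ↥(Algebra.adjoin A₀ {t⁻¹}) b → b ∈ V c)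
    (hπV : ∀ c, algebraMap A₀ F π ∈ (V c).nonunits)
    (hSS1 : ∀ b : F, IsIntegral ↥(Algebra.adjoin A₀ {t}) b → (∀ c, b ∈ (V c).nonunits) →
      ∃ b' : F, IsIntegral ↥(Algebra.adjoin A₀ {t}) b' ∧ b = algebraMap A₀ F π * b')
    (harch : ∀ c (a x : F), a ∈ (V c).nonunits → ∃ N : ℕ, a ^ N * x ∈ (V c).nonunits)
    (Φ : F →+* F) (hΦV : ∀ c, ∀ x ∈ (V c).nonunits, Φ x ∈ (V c).nonunits) (Q r : ℕ)
    {y : F} (tt : κ → F) (htoric : ∀ c, y / tt c ^ (p ^ r) - 1 ∈ (V c).nonunits)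
    (hpoint : ∀ H : F, (∀ c, H / (Φ (tt c) / tt c ^ Q) - 1 ∈ (V c).nonunits) →
      ∀ i, ∃ ε' γ' : F, ∃ hε' : ε' ∈ atO π t i, (⟨ε', hε'⟩ - 1 : atO π t i) ∈ atJ π t i ∧
        (∀ c, atInc π t V i c → γ' - 1 ∈ (V c).nonunits) ∧
        Φ y / y ^ Q / H ^ (p ^ r) = ε' * γ' ^ (p ^ r)) :
    ∃ h : F, h ^ (p ^ r) = Φ y / y ^ Q := by
  have hm : 0 < p ^ r := pow_pos hp.pos r
  have hπ0 : algebraMap A₀ F π ≠ 0 :=
    (map_ne_zero_iff _ (zch_algebraMap_injective (A₀ := A₀) (E := E) (L := F))).mpr hπ.ne_zero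
  have htt0 : ∀ c, tt c ≠ 0 := by
    intro c h
    have h1 := stb_ne_zero_of_congr (V c) (htoric c)
    rw [h, zero_pow hm.ne', div_zero] at h1
    exact h1 rfl
  have hT0 : ∀ c, Φ (tt c) / tt c ^ Q ≠ 0 := fun c =>
    div_ne_zero ((_root_.map_ne_zero Φ).2 (htt0 c)) (pow_ne_zero _ (htt0 c))
  have hA : ∀ c, StbArch (V c) := by
    intro c x z hz
    obtain ⟨N, hN⟩ := harch c z x hz
    exact ⟨N, by rwa [mul_comm] at hN⟩
  have h12 : ¬ V c₁ ≤ V c₂ := stb_not_le_of_ne (hA c₁) hπ0 (hπV c₂) hne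
  have h21 : ¬ V c₂ ≤ V c₁ := stb_not_le_of_ne (hA c₂) hπ0 (hπV c₁) hne.symm
  obtain ⟨H, hH0, hH1, hH2⟩ :=
    stb_weakApprox_of_not_le h12 h21 (hA c₁) (hA c₂) (hT0 c₁) (hT0 c₂)
  have hH : ∀ c, H / (Φ (tt c) / tt c ^ Q) - 1 ∈ (V c).nonunits := by
    intro c
    rcases hκ c with rfl | rfl
    · exact hH1
    · exact hH2
  have hshape : PwiShape V (atO π t) (atJ π t) (atInc π t V) (p ^ r)
      (Φ y / y ^ Q / H ^ (p ^ r)) :=
    ⟨fun c => stb_vertical (V c) Φ (hΦV c) Q (p ^ r) (htoric c) (hH c), hpoint H hH⟩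
  obtain ⟨h, hh⟩ := at_pow_of_shape hπ ht hcl hp hpu hζ hunit V hBV₁ hBV₂ hπV hSS1 harch
    (at_hconn_two hπ ht hcl V hBV₁ hBV₂ hπV hSS1 c₁ c₂ hκ) r _ hshape
  refine ⟨h * H, ?_⟩
  rw [mul_pow, hh]
  field_simp

/-- the hypotheses at a CROSSING point `O` (both components through it, `Φ O ⊆ O`, `Φ` induces
the `Q`-power map on the residue field): those of `stb_glue_frob`. -/
def StbCross (O : Subring F) (V₁ V₂ : ValuationSubring F) (Φ : F →+* F) (Q m : ℕ) (y : F) :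
    Prop :=
  (∀ x : O, ¬ IsUnit x → ∃ a b : O, (a : F) ∈ V₁.nonunits ∧ (b : F) ∈ V₂.nonunits ∧ x = a + b) ∧
  StbRes O V₁ ∧ StbRes O V₂ ∧
  (∀ x : O, ∃ z : O, ¬ IsUnit z ∧ (z : F) = Φ (x : F) - (x : F) ^ Q) ∧
  StbFacAt O m y

/-- the hypotheses at a point `O` with ONE component `V` through it; `O₁` is the local ring of the
preimage of the point under `Φ`. -/
def StbSmooth (O O₁ : Subring F) (V : ValuationSubring F) (Φ : F →+* F) (m : ℕ) (y : F) : Prop :=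
  (∀ x ∈ O₁, Φ x ∈ O) ∧ StbRes O V ∧ StbRes O₁ V ∧ StbFacAt O m y ∧ StbFacAt O₁ m y

/-- **(T″).**  As `stb_main`, with the per-point hypotheses: every closed point `i` of the special
fibre is either a crossing point (`StbCross`) or has exactly one component `c` through it and a
preimage `i₁` under `Φ` on the same component (`StbSmooth`). -/
theorem stb_main_points (hπ : Irreducible π) {t : F} (ht : Transcendental E t)
    [FiniteDimensional E⟮t⟯ F]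
    (hcl : ∀ x : F, IsAlgebraic E x → x ∈ (algebraMap E F).range)
    {p : ℕ} (hp : p.Prime) (hpu : IsUnit (p : A₀)) {ζ : A₀} (hζ : IsPrimitiveRoot ζ p)
    (hunit : ∀ a : A₀, IsUnit a → ∃ d : A₀, d ^ p = a)
    [Finite κ] (V : κ → ValuationSubring F) (c₁ c₂ : κ) (hκ : ∀ c, c = c₁ ∨ c = c₂)
    (hne : V c₁ ≠ V c₂)
    (hBV₁ : ∀ c (b : F), IsIntegral ↥(Algebra.adjoin A₀ {t}) b → b ∈ V c)
    (hBV₂ : ∀ c (b : F), IsIntegral ↥(Algebra.adjoin A₀ {t⁻¹}) b → b ∈ V c)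
    (hπV : ∀ c, algebraMap A₀ F π ∈ (V c).nonunits)
    (hSS1 : ∀ b : F, IsIntegral ↥(Algebra.adjoin A₀ {t}) b → (∀ c, b ∈ (V c).nonunits) →
      ∃ b' : F, IsIntegral ↥(Algebra.adjoin A₀ {t}) b' ∧ b = algebraMap A₀ F π * b')
    (harch : ∀ c (a x : F), a ∈ (V c).nonunits → ∃ N : ℕ, a ^ N * x ∈ (V c).nonunits)
    (Φ : F →+* F) (hΦV : ∀ c, ∀ x ∈ (V c).nonunits, Φ x ∈ (V c).nonunits) (Q r : ℕ)
    {y : F} (tt : κ → F) (htoric : ∀ c, y / tt c ^ (p ^ r) - 1 ∈ (V c).nonunits)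
    (hpts : ∀ i : AtPt (F := F) π t ⊕ AtPt (F := F) π t⁻¹,
      (atInc π t V i c₁ ∧ atInc π t V i c₂ ∧
        StbCross (atO π t i) (V c₁) (V c₂) Φ Q (p ^ r) y) ∨
      (∃ c, atInc π t V i c ∧ (∀ c', atInc π t V i c' → c' = c) ∧
        ∃ i₁ : AtPt (F := F) π t ⊕ AtPt (F := F) π t⁻¹, atInc π t V i₁ c ∧
          StbSmooth (atO π t i) (atO π t i₁) (V c) Φ (p ^ r) y)) :
    ∃ h : F, h ^ (p ^ r) = Φ y / y ^ Q := by
  have hm : 0 < p ^ r := pow_pos hp.pos r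
  refine stb_main hπ ht hcl hp hpu hζ hunit V c₁ c₂ hκ hne hBV₁ hBV₂ hπV hSS1 harch Φ hΦV Q r
    tt htoric ?_
  intro H hH i
  haveI := stb_atO_isLocalRing (π := π) t i
  rcases hpts i with ⟨hi1, hi2, hsum, hres1, hres2, hfrob, γ, ε, hε, hy⟩ |
    ⟨c, hc, honly, i₁, hi₁, hΦO, hres, hres₁, hfac, hfac₁⟩
  · obtain ⟨ε', γ', hε', hJ, hγ1, hγ2, hw⟩ := stb_glue_frob (atO π t i) (atJ π t i) (V c₁) (V c₂)
      (stb_atO_le V hBV₁ hBV₂ i c₁ hi1) (stb_atO_le V hBV₁ hBV₂ i c₂ hi2)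
      (fun x h1 h2 => stb_atO_inter hπ ht V hBV₁ hBV₂ hSS1 i x (fun c _ => by
        rcases hκ c with rfl | rfl
        · exact h1
        · exact h2))
      (fun x hx => hsum x ((IsLocalRing.mem_maximalIdeal _).1 hx))
      hres1 hres2 Φ Q (hΦV c₁) (hΦV c₂)
      (fun x => by
        obtain ⟨z, hz, hzx⟩ := hfrob x
        exact ⟨z, (IsLocalRing.mem_maximalIdeal _).2 hz, hzx⟩)
      hm ε hε hy (htoric c₁) (htoric c₂) (hH c₁) (hH c₂)
    refine ⟨ε', γ', hε', hJ, fun c _ => ?_, hw⟩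
    rcases hκ c with rfl | rfl
    · exact hγ1
    · exact hγ2
  · haveI := stb_atO_isLocalRing (π := π) t i₁
    obtain ⟨ε', γ', hε', hJ, hγ, hw⟩ := stb_point_one (atO π t i) (atO π t i₁) (atJ π t i) (V c)
      (stb_atO_le V hBV₁ hBV₂ i c hc) (stb_atO_le V hBV₁ hBV₂ i₁ c hi₁)
      (fun x hx => stb_atO_inter hπ ht V hBV₁ hBV₂ hSS1 i x (fun c' hc' => by
        rw [honly c' hc']
        exact hx))
      hres hres₁ Φ Q (hΦV c) hΦO hm hfac hfac₁ (htoric c) (hH c)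
    refine ⟨ε', γ', hε', hJ, fun c' hc' => ?_, hw⟩
    rw [honly c' hc']
    exact hγ

end Main

end Fermat.Agent.STB


end ZBSTB_003_1

/-! ### bundled: `Fermat.Agent.STB.SmoothShape` -/
section ZBSTB_003_2

/-!
# STB-S (S35, plan `NOTES/S35-plan.md`, step (B4)/(F)): the local factorisation at a smooth point

Chart setting of `UNIP/UnitCrit.lean`, `UNIP/TubeOrd.lean`: `A₀` DVR, `π`, `E = Frac A₀`,
`Lf / E(t)` finite, `B` a noetherian chart, `𝔫` a prime of `B` containing `π`, `vert` the vertical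
primes with (SS1).  **Smooth point**: `𝔫 = (π, s)` locally (`NodesLocGen 𝔫 {π, s}`).

* `StbPUnit 𝔭 x`       : `x` is a unit of `B_𝔭` (`a x = c`, `a, c ∉ 𝔭`), with its calculus.
* `stb_tube_factor`    : abstract divisor bookkeeping, `y / (∏ f_P ^ (ord_P y / m)) ^ m` has order
  `0` everywhere.
* `stb_coord_smooth`   : the coordinate function `s - s(P)` of a rational point `P` of the tube
  (simple zero at `P`, no other zero in the tube) is a unit at every vertical prime through `𝔫`.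
* `stb_smooth_factor`  : **(F) at a smooth point.**  If `y` is a unit at the vertical primes through
  `𝔫`, `m ∣ ord_P y` on the tube of `𝔫` and the points of the tube in the support of `y` are
  `E`-rational, then `y = ε · γ ^ m` with `ε ∈ (B_𝔫)^×`.
* `stb_smooth_factor_pow` : the same if `y / π ^ (m k)` is a unit at the vertical primes through
  `𝔫`.
-/

set_option autoImplicit false
set_option linter.style.haveILetI false
set_option linter.unusedSectionVars false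
set_option linter.unusedVariables false

namespace Fermat.Agent.STB

open AlgebraicCurve IntermediateField Fermat.Agent.UNIP Fermat.Agent.S24 Fermat.Agent.INJ

section Calculus

variable {F : Type*} [Field F] {V : ValuationSubring F}

theorem stb_congr_one : (1 : F) - 1 ∈ V.nonunits := by
  rw [sub_self]; exact stb_zero_mem_nonunits V

theorem stbss_congr_inv {x : F} (hx : x - 1 ∈ V.nonunits) : x⁻¹ - 1 ∈ V.nonunits := by
  have hu := stbUnit_of_sub_one hx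
  have e : x⁻¹ - 1 = -(x⁻¹ * (x - 1)) := by
    have := hu.ne_zero
    field_simp
    ring
  rw [e]
  exact stb_neg_mem_nonunits (hu.inv.mul_nonunit hx)

theorem stb_congr_zpow {x : F} (hx : x - 1 ∈ V.nonunits) (n : ℤ) : x ^ n - 1 ∈ V.nonunits := by
  obtain ⟨k, rfl | rfl⟩ := n.eq_nat_or_neg
  · rw [zpow_natCast]; exact stb_congr_pow hx k
  · rw [zpow_neg, zpow_natCast]; exact stbss_congr_inv (stb_congr_pow hx k)

theorem stb_congr_prod {κ : Type*} (S : Finset κ) (f : κ → F)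
    (hf : ∀ k ∈ S, f k - 1 ∈ V.nonunits) : ∏ k ∈ S, f k - 1 ∈ V.nonunits := by
  classical
  induction S using Finset.induction_on with
  | empty => rw [Finset.prod_empty]; exact stb_congr_one
  | insert a S ha ih =>
    rw [Finset.prod_insert ha]
    exact stb_congr_mul (hf a (Finset.mem_insert_self a S))
      (ih fun k hk => hf k (Finset.mem_insert_of_mem hk))

theorem stbss_congr_div {x y : F} (hx : x - 1 ∈ V.nonunits) (hy : y - 1 ∈ V.nonunits) :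
    x / y - 1 ∈ V.nonunits := by
  rw [div_eq_mul_inv]
  exact stb_congr_mul hx (stbss_congr_inv hy)

end Calculus

section TubeFactor

variable {F : Type*} [Field F] {ι : Type*}

/-- **Tube factor, all places.**  If all multiplicities of `y` are divisible by `m` and every
point `i` of the support of `y` has a coordinate function `f i` (divisor `1 · i` on the tube), then
`y / g ^ m` has order `0` everywhere, `g = ∏ f i ^ (ord i y / m)`. -/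
theorem stb_tube_factor (ord : ι → F → ℤ)
    (hmul : ∀ i x y, x ≠ 0 → y ≠ 0 → ord i (x * y) = ord i x + ord i y)
    {y : F} (hy : y ≠ 0) (m : ℕ) (S : Finset ι) (hS : ∀ i, i ∈ S ↔ ord i y ≠ 0)
    (hm : ∀ i, (m : ℤ) ∣ ord i y)
    (f : ι → F) (hf0 : ∀ i, f i ≠ 0)
    (hf1 : ∀ i, i ∈ S → ord i (f i) = 1)
    (hf2 : ∀ i, i ∈ S → ∀ j, j ≠ i → ord j (f i) = 0) :
    (∏ i ∈ S, f i ^ (ord i y / (m : ℤ))) ≠ 0 ∧
      ∀ j, ord j (y / (∏ i ∈ S, f i ^ (ord i y / (m : ℤ))) ^ m) = 0 := by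
  classical
  set n : ι → ℤ := fun i => ord i y / (m : ℤ) with hn
  have hmn : ∀ i, (m : ℤ) * n i = ord i y := fun i => Int.mul_ediv_cancel' (hm i)
  set g : F := ∏ i ∈ S, f i ^ n i with hg
  have hg0 : g ≠ 0 := Finset.prod_ne_zero_iff.mpr fun i _ => zpow_ne_zero _ (hf0 i)
  refine ⟨hg0, fun j => ?_⟩
  have hordg : (m : ℤ) * ord j g = ord j y := by
    rw [hg, ls_ord_prod ord hmul j S _ (fun i _ => zpow_ne_zero _ (hf0 i))]
    have h1 : ∀ i ∈ S, ord j (f i ^ n i) = if j = i then n i else 0 := by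
      intro i hi
      rw [ls_ord_zpow ord hmul j (hf0 i)]
      by_cases hji : j = i
      · rw [if_pos hji, hji, hf1 i hi, mul_one]
      · rw [if_neg hji, hf2 i hi j hji, mul_zero]
    rw [Finset.sum_congr rfl h1, Finset.sum_ite_eq S j]
    by_cases hjS : j ∈ S
    · rw [if_pos hjS, hmn j]
    · rw [if_neg hjS, mul_zero]
      by_contra hne
      exact hjS ((hS j).mpr fun h0 => hne h0.symm)
  rw [ls_ord_div ord hmul j hy (pow_ne_zero _ hg0), ls_ord_pow ord hmul j hg0, hordg, sub_self]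

end TubeFactor

section PUnit

variable {F : Type*} [Field F] {B : Type*} [CommRing B] [Algebra B F]

/-- `x` is a unit of the local ring `B_𝔭`: `a x = c` with `a, c ∉ 𝔭`. -/
def StbPUnit (𝔭 : Ideal B) (x : F) : Prop :=
  ∃ a c : B, a ∉ 𝔭 ∧ c ∉ 𝔭 ∧ algebraMap B F a * x = algebraMap B F c

theorem stb_map_ne_zero_of_notMem (hinj : Function.Injective (algebraMap B F)) {𝔭 : Ideal B}
    {a : B} (ha : a ∉ 𝔭) : algebraMap B F a ≠ 0 := fun h0 =>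
  ha (by rw [hinj (h0.trans (map_zero _).symm)]; exact 𝔭.zero_mem)

theorem StbPUnit.ne_zero (hinj : Function.Injective (algebraMap B F)) {𝔭 : Ideal B} {x : F}
    (hx : StbPUnit 𝔭 x) : x ≠ 0 := by
  obtain ⟨a, c, -, hc, h⟩ := hx
  rintro rfl
  rw [mul_zero] at h
  exact stb_map_ne_zero_of_notMem hinj hc h.symm

theorem stbPUnit_one (𝔭 : Ideal B) [h𝔭 : 𝔭.IsPrime] : StbPUnit (F := F) 𝔭 1 := by
  have h1 : (1 : B) ∉ 𝔭 := fun h => h𝔭.ne_top ((Ideal.eq_top_iff_one 𝔭).mpr h)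
  exact ⟨1, 1, h1, h1, by simp⟩

theorem stbPUnit_algebraMap {𝔭 : Ideal B} [h𝔭 : 𝔭.IsPrime] {b : B} (hb : b ∉ 𝔭) :
    StbPUnit (F := F) 𝔭 (algebraMap B F b) := by
  have h1 : (1 : B) ∉ 𝔭 := fun h => h𝔭.ne_top ((Ideal.eq_top_iff_one 𝔭).mpr h)
  exact ⟨1, b, h1, hb, by simp⟩

theorem StbPUnit.mul {𝔭 : Ideal B} [h𝔭 : 𝔭.IsPrime] {x y : F} (hx : StbPUnit 𝔭 x)
    (hy : StbPUnit 𝔭 y) : StbPUnit 𝔭 (x * y) := by
  obtain ⟨a, c, ha, hc, h⟩ := hx
  obtain ⟨a', c', ha', hc', h'⟩ := hy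
  refine ⟨a * a', c * c', fun hm => ?_, fun hm => ?_, ?_⟩
  · rcases h𝔭.mem_or_mem hm with h1 | h1
    · exact ha h1
    · exact ha' h1
  · rcases h𝔭.mem_or_mem hm with h1 | h1
    · exact hc h1
    · exact hc' h1
  · rw [map_mul, map_mul, ← h, ← h']
    ring

theorem StbPUnit.inv (hinj : Function.Injective (algebraMap B F)) {𝔭 : Ideal B} {x : F}
    (hx : StbPUnit 𝔭 x) : StbPUnit 𝔭 x⁻¹ := by
  have hx0 := hx.ne_zero hinj
  obtain ⟨a, c, ha, hc, h⟩ := hx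
  refine ⟨c, a, hc, ha, ?_⟩
  rw [← h]
  field_simp

theorem StbPUnit.div (hinj : Function.Injective (algebraMap B F)) {𝔭 : Ideal B} [𝔭.IsPrime]
    {x y : F} (hx : StbPUnit 𝔭 x) (hy : StbPUnit 𝔭 y) : StbPUnit 𝔭 (x / y) := by
  rw [div_eq_mul_inv]
  exact hx.mul (hy.inv hinj)

theorem StbPUnit.pow {𝔭 : Ideal B} [𝔭.IsPrime] {x : F} (hx : StbPUnit 𝔭 x) (n : ℕ) :
    StbPUnit 𝔭 (x ^ n) := by
  induction n with
  | zero => rw [pow_zero]; exact stbPUnit_one 𝔭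
  | succ n ih => rw [pow_succ]; exact ih.mul hx

theorem StbPUnit.zpow (hinj : Function.Injective (algebraMap B F)) {𝔭 : Ideal B} [𝔭.IsPrime]
    {x : F} (hx : StbPUnit 𝔭 x) (n : ℤ) : StbPUnit 𝔭 (x ^ n) := by
  obtain ⟨k, rfl | rfl⟩ := n.eq_nat_or_neg
  · rw [zpow_natCast]; exact hx.pow k
  · rw [zpow_neg, zpow_natCast]; exact (hx.pow k).inv hinj

theorem stbPUnit_prod {𝔭 : Ideal B} [𝔭.IsPrime] {κ : Type*} (S : Finset κ) (f : κ → F)
    (hf : ∀ k ∈ S, StbPUnit 𝔭 (f k)) : StbPUnit 𝔭 (∏ k ∈ S, f k) := by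
  classical
  induction S using Finset.induction_on with
  | empty => rw [Finset.prod_empty]; exact stbPUnit_one 𝔭
  | insert a S ha ih =>
    rw [Finset.prod_insert ha]
    exact (hf a (Finset.mem_insert_self a S)).mul
      (ih fun k hk => hf k (Finset.mem_insert_of_mem hk))

/-- units of `B_𝔫` in the sense of `ls_localSubring` -/
theorem StbPUnit.mem_localSubring (hinj : Function.Injective (algebraMap B F)) {𝔫 : Ideal B}
    [𝔫.IsPrime] {x : F} (hx : StbPUnit 𝔫 x) :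
    x ∈ ls_localSubring (F := F) 𝔫 ∧ x⁻¹ ∈ ls_localSubring (F := F) 𝔫 := by
  obtain ⟨a, c, ha, hc, h⟩ := hx
  exact ls_unit_mem_localSubring hinj 𝔫 ha hc h

theorem stbPUnit_of_mem_localSubring (hinj : Function.Injective (algebraMap B F)) {𝔫 : Ideal B}
    [h𝔫 : 𝔫.IsPrime] {x : F} (hx0 : x ≠ 0) (hx : x ∈ ls_localSubring (F := F) 𝔫)
    (hx' : x⁻¹ ∈ ls_localSubring (F := F) 𝔫) : StbPUnit 𝔫 x := by
  obtain ⟨b, s, hs, hbs⟩ := hx
  obtain ⟨b₂, s₂, hs₂, hbs₂⟩ := hx'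
  refine ⟨s, b, hs, fun hb => ?_, hbs⟩
  have hprod : b * b₂ = s * s₂ := by
    apply hinj
    rw [map_mul, map_mul, ← hbs, ← hbs₂]
    field_simp
  have h3 : s * s₂ ∈ 𝔫 := by
    rw [← hprod]
    exact 𝔫.mul_mem_right _ hb
  rcases h𝔫.mem_or_mem h3 with h' | h'
  · exact hs h'
  · exact hs₂ h'

/-- a unit at `𝔫` is a unit at every prime `𝔭 ≤ 𝔫` -/
theorem StbPUnit.of_le {𝔭 𝔫 : Ideal B} (hle : 𝔭 ≤ 𝔫) {x : F} (hx : StbPUnit 𝔫 x) :
    StbPUnit 𝔭 x := by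
  obtain ⟨a, c, ha, hc, h⟩ := hx
  exact ⟨a, c, fun h' => ha (hle h'), fun h' => hc (hle h'), h⟩

/-- a prime `𝔭 ≤ 𝔫` containing local generators of `𝔫` is `𝔫` -/
theorem stb_eq_of_locGen {𝔫 𝔭 : Ideal B} [h𝔭 : 𝔭.IsPrime] (hle : 𝔭 ≤ 𝔫) (T : Set B)
    (hT : T ⊆ 𝔭) (hgen : NodesLocGen 𝔫 T) : 𝔭 = 𝔫 := by
  refine le_antisymm hle fun b hb => ?_
  obtain ⟨u, hu, hub⟩ := hgen b hb
  have h1 : u * b ∈ 𝔭 := (Ideal.span_le.mpr hT) hub
  rcases h𝔭.mem_or_mem h1 with h' | h'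
  · exact absurd (hle h') hu
  · exact h'

end PUnit

section Smooth

variable {A₀ E Lf B : Type*} [CommRing A₀] [IsDomain A₀] [IsDiscreteValuationRing A₀]
  [Field E] [CharZero E] [Algebra A₀ E] [IsFractionRing A₀ E]
  [Field Lf] [Algebra E Lf] [Algebra A₀ Lf] [IsScalarTower A₀ E Lf]
  [CommRing B] [Algebra B Lf] [Algebra A₀ B] [IsScalarTower A₀ B Lf]

/-- **Coordinate function at a smooth point**, with its vertical behaviour.  `𝔫 = (π, s)` locally,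
`P` a rational point of the tube of `𝔫`: `f = s - s(P) ∈ B` has a simple zero at `P`, no other zero
on the tube of `𝔫`, and lies in no prime `𝔭 ≠ 𝔫` with `π ∈ 𝔭 ≤ 𝔫`. -/
theorem stb_coord_smooth [IsNoetherianRing B] {π : A₀} (hπ : Irreducible π) (t : Lf)
    (ht : Transcendental E t) [FiniteDimensional E⟮t⟯ Lf]
    (hinj : Function.Injective (algebraMap B Lf))
    (hB : ∀ x : Lf, x ∈ (algebraMap B Lf).range ↔ IsIntegral (Algebra.adjoin A₀ {t}) x)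
    (𝔫 : Ideal B) [𝔫.IsPrime] (hπ𝔫 : algebraMap A₀ B π ∈ 𝔫)
    (s : B) (hs : s ∈ 𝔫) (hgen : NodesLocGen 𝔫 {algebraMap A₀ B π, s})
    (P : Place E Lf) (hP : UnipTubePoint t 𝔫 P) :
    ∃ b : B, b ∈ 𝔫 ∧ P.ord (algebraMap B Lf b) = 1 ∧
      (∀ Q : Place E Lf, LsTube B t 𝔫 Q → Q ≠ P → Q.ord (algebraMap B Lf b) = 0) ∧
      ∀ 𝔭 : Ideal B, 𝔭.IsPrime → algebraMap A₀ B π ∈ 𝔭 → 𝔭 ≤ 𝔫 → 𝔭 ≠ 𝔫 → b ∉ 𝔭 := by
  obtain ⟨ev, hev⟩ := unip_exists_tubeEv hπ t hinj hB 𝔫 hπ𝔫 P hP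
  have hd := unip_dense_of_tubePoint hπ t hinj hB 𝔫 hπ𝔫 P hP {s}
    (fun x hx => by rw [Set.mem_singleton_iff] at hx; rw [hx]; exact hs) hgen
  obtain ⟨h1, h2⟩ := unip_tubeOrd_disc hπ t ht hinj hB 𝔫 hπ𝔫 s (ev s) hd P hP (hev s)
  have e : algebraMap B Lf s - algebraMap A₀ Lf (ev s) =
      algebraMap B Lf (s - algebraMap A₀ B (ev s)) := by
    rw [map_sub, ← IsScalarTower.algebraMap_apply A₀ B Lf]
  rw [e] at h1 h2
  obtain ⟨c, hc⟩ := unip_tubeEv_dvd hπ hinj hP ev hev s hs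
  have hev𝔭 : ∀ 𝔭 : Ideal B, algebraMap A₀ B π ∈ 𝔭 → algebraMap A₀ B (ev s) ∈ 𝔭 := by
    intro 𝔭 h
    rw [hc, map_mul]
    exact 𝔭.mul_mem_right _ h
  refine ⟨s - algebraMap A₀ B (ev s), 𝔫.sub_mem hs (hev𝔭 𝔫 hπ𝔫), h1,
    fun Q hQ hQP => h2 Q hQ.1 hQ.2 hQP, fun 𝔭 h𝔭 hπ𝔭 hle hne hb => hne ?_⟩
  haveI := h𝔭
  refine stb_eq_of_locGen hle _ ?_ hgen
  intro x hx
  rcases hx with rfl | hx
  · exact hπ𝔭
  · rw [Set.mem_singleton_iff] at hx
    rw [hx]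
    have : s = (s - algebraMap A₀ B (ev s)) + algebraMap A₀ B (ev s) := by ring
    rw [this]
    exact 𝔭.add_mem hb (hev𝔭 𝔭 hπ𝔭)

/-- **(F) at a smooth point.**  `B` a chart, `𝔫 = (π, s)` locally.  Let `y ≠ 0` be a unit at every
vertical prime through `𝔫`, with `m ∣ ord_P y` for all places `P` of the tube of `𝔫`, the places
of the tube in the support of `y` being `E`-rational.  Then `y = ε · γ ^ m` with `ε` a unit of
`B_𝔫`. -/
theorem stb_smooth_factor [IsNoetherianRing B] {π : A₀} (hπ : Irreducible π) (t : Lf)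
    (ht : Transcendental E t) [FiniteDimensional E⟮t⟯ Lf]
    (hinj : Function.Injective (algebraMap B Lf))
    (hB : ∀ x : Lf, x ∈ (algebraMap B Lf).range ↔ IsIntegral (Algebra.adjoin A₀ {t}) x)
    (ϖ : B) (hϖ : algebraMap B Lf ϖ = algebraMap A₀ Lf π)
    (𝔫 : Ideal B) [𝔫.IsPrime] (hπ𝔫 : algebraMap A₀ B π ∈ 𝔫)
    (vert : Finset (Ideal B)) (hprime : ∀ 𝔭 ∈ vert, 𝔭.IsPrime) (hϖv : ∀ 𝔭 ∈ vert, ϖ ∈ 𝔭)
    (hSS1 : ∀ y : B, (∀ 𝔭 ∈ vert, y ∈ 𝔭) → ϖ ∣ y)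
    (s : B) (hs : s ∈ 𝔫) (hgen : NodesLocGen 𝔫 {algebraMap A₀ B π, s})
    {y : Lf} (hy : y ≠ 0) (m : ℕ)
    (hV : ∀ 𝔭 ∈ vert, 𝔭 ≤ 𝔫 → StbPUnit 𝔭 y)
    (hfin : {P : Place E Lf | LsTube B t 𝔫 P ∧ P.ord y ≠ 0}.Finite)
    (hm : ∀ P : Place E Lf, LsTube B t 𝔫 P → (m : ℤ) ∣ P.ord y)
    (hrat : ∀ P : Place E Lf, LsTube B t 𝔫 P → P.ord y ≠ 0 →
      ∀ f ∈ P.toValuationSubring,
        ∃ c : E, f - algebraMap E Lf c ∈ P.toValuationSubring.nonunits) :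
    ∃ γ ε : Lf, γ ≠ 0 ∧ ε ∈ ls_localSubring (F := Lf) 𝔫 ∧ ε⁻¹ ∈ ls_localSubring (F := Lf) 𝔫 ∧
      y = ε * γ ^ m := by
  classical
  by_cases h𝔫v : 𝔫 ∈ vert
  · obtain ⟨h1, h2⟩ := (hV 𝔫 h𝔫v le_rfl).mem_localSubring hinj
    exact ⟨1, y, one_ne_zero, h1, h2, by rw [one_pow, mul_one]⟩
  have hϖeq : ϖ = algebraMap A₀ B π := hinj (by
    rw [hϖ, ← IsScalarTower.algebraMap_apply A₀ B Lf])
  set T := {P : Place E Lf // LsTube B t 𝔫 P} with hT
  -- coordinate functions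
  have hex : ∀ P : T, ∃ f : Lf, f ≠ 0 ∧ (∀ 𝔭 ∈ vert, 𝔭 ≤ 𝔫 → StbPUnit 𝔭 f) ∧
      (P.1.ord y ≠ 0 → P.1.ord f = 1 ∧ ∀ Q : T, Q ≠ P → Q.1.ord f = 0) := by
    intro P
    by_cases hPy : P.1.ord y = 0
    · exact ⟨1, one_ne_zero, fun 𝔭 h𝔭 _ => by haveI := hprime 𝔭 h𝔭; exact stbPUnit_one 𝔭,
        fun h => absurd hPy h⟩
    · have hP : UnipTubePoint t 𝔫 P.1 := ⟨P.2.1, P.2.2, hrat P.1 P.2 hPy⟩
      obtain ⟨b, -, hb1, hb2, hb3⟩ :=
        stb_coord_smooth hπ t ht hinj hB 𝔫 hπ𝔫 s hs hgen P.1 hP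
      refine ⟨algebraMap B Lf b, fun h0 => ?_, fun 𝔭 h𝔭 hle => ?_, fun _ => ⟨hb1, fun Q hQ =>
        hb2 Q.1 Q.2 fun h => hQ (Subtype.ext h)⟩⟩
      · rw [h0, Place.ord_zero] at hb1
        exact zero_ne_one hb1
      · haveI := hprime 𝔭 h𝔭
        exact stbPUnit_algebraMap (hb3 𝔭 (hprime 𝔭 h𝔭) (hϖeq ▸ hϖv 𝔭 h𝔭) hle
          (fun h => h𝔫v (h ▸ h𝔭)))
  choose f hf0 hfV hf using hex
  have hfinT : {P : T | P.1.ord y ≠ 0}.Finite := by
    refine Set.Finite.of_finite_image (f := Subtype.val) (hfin.subset ?_)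
      Subtype.val_injective.injOn
    rintro _ ⟨P, hP, rfl⟩
    exact ⟨P.2, hP⟩
  obtain ⟨hg0, hord⟩ := stb_tube_factor (F := Lf) (ι := T) (fun P x => P.1.ord x)
    (fun P x y hx hy => Place.ord_mul P.1 hx hy) hy m hfinT.toFinset
    (fun P => by rw [Set.Finite.mem_toFinset]; rfl)
    (fun P => hm P.1 P.2) f hf0
    (fun P hP => (hf P (by rw [Set.Finite.mem_toFinset] at hP; exact hP)).1)
    (fun P hP Q hQ => (hf P (by rw [Set.Finite.mem_toFinset] at hP; exact hP)).2 Q hQ)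
  set g : Lf := ∏ P ∈ hfinT.toFinset, f P ^ (P.1.ord y / (m : ℤ)) with hg
  have hε0 : y / g ^ m ≠ 0 := div_ne_zero hy (pow_ne_zero _ hg0)
  obtain ⟨a, c, ha, hc, hac⟩ := unip_unitCrit_unit hπ t ht hinj hB ϖ hϖ 𝔫 vert hprime hϖv hSS1
    (y / g ^ m) hε0 (fun P hP hc => hord ⟨P, hP, hc⟩)
    (fun 𝔭 h𝔭 hle => by
      haveI := hprime 𝔭 h𝔭
      refine (hV 𝔭 h𝔭 hle).div hinj (StbPUnit.pow ?_ m)
      exact stbPUnit_prod _ _ fun P _ => (hfV P 𝔭 h𝔭 hle).zpow hinj _)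
  obtain ⟨h1, h2⟩ := ls_unit_mem_localSubring hinj 𝔫 ha hc hac
  refine ⟨g, y / g ^ m, hg0, h1, h2, ?_⟩
  field_simp

/-- **(F) at a smooth point, vertical multiplicity divisible by `m`.**  As `stb_smooth_factor`, if
`y / π ^ (m k)` is a unit at every vertical prime through `𝔫`. -/
theorem stb_smooth_factor_pow [IsNoetherianRing B] {π : A₀} (hπ : Irreducible π) (t : Lf)
    (ht : Transcendental E t) [FiniteDimensional E⟮t⟯ Lf]
    (hinj : Function.Injective (algebraMap B Lf))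
    (hB : ∀ x : Lf, x ∈ (algebraMap B Lf).range ↔ IsIntegral (Algebra.adjoin A₀ {t}) x)
    (ϖ : B) (hϖ : algebraMap B Lf ϖ = algebraMap A₀ Lf π)
    (𝔫 : Ideal B) [𝔫.IsPrime] (hπ𝔫 : algebraMap A₀ B π ∈ 𝔫)
    (vert : Finset (Ideal B)) (hprime : ∀ 𝔭 ∈ vert, 𝔭.IsPrime) (hϖv : ∀ 𝔭 ∈ vert, ϖ ∈ 𝔭)
    (hSS1 : ∀ y : B, (∀ 𝔭 ∈ vert, y ∈ 𝔭) → ϖ ∣ y)
    (s : B) (hs : s ∈ 𝔫) (hgen : NodesLocGen 𝔫 {algebraMap A₀ B π, s})
    {y : Lf} (hy : y ≠ 0) (m : ℕ) (k : ℤ)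
    (hV : ∀ 𝔭 ∈ vert, 𝔭 ≤ 𝔫 → StbPUnit 𝔭 (y / (algebraMap A₀ Lf π ^ k) ^ m))
    (hfin : {P : Place E Lf | LsTube B t 𝔫 P ∧ P.ord y ≠ 0}.Finite)
    (hm : ∀ P : Place E Lf, LsTube B t 𝔫 P → (m : ℤ) ∣ P.ord y)
    (hrat : ∀ P : Place E Lf, LsTube B t 𝔫 P → P.ord y ≠ 0 →
      ∀ f ∈ P.toValuationSubring,
        ∃ c : E, f - algebraMap E Lf c ∈ P.toValuationSubring.nonunits) :
    ∃ γ ε : Lf, γ ≠ 0 ∧ ε ∈ ls_localSubring (F := Lf) 𝔫 ∧ ε⁻¹ ∈ ls_localSubring (F := Lf) 𝔫 ∧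
      y = ε * γ ^ m := by
  have hπ0 : algebraMap A₀ Lf π ≠ 0 := unip_algebraMap_irreducible_ne_zero E hπ
  have hd0 : (algebraMap A₀ Lf π ^ k) ^ m ≠ 0 := pow_ne_zero _ (zpow_ne_zero _ hπ0)
  have hord : ∀ P : Place E Lf, P.ord (y / (algebraMap A₀ Lf π ^ k) ^ m) = P.ord y := by
    intro P
    have hmul : ∀ (i : Unit) (x z : Lf), x ≠ 0 → z ≠ 0 →
        (fun (_ : Unit) w => P.ord w) i (x * z) =
          (fun (_ : Unit) w => P.ord w) i x + (fun (_ : Unit) w => P.ord w) i z :=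
      fun _ x z hx hz => Place.ord_mul P hx hz
    have h1 := ls_ord_div (fun (_ : Unit) w => P.ord w) hmul () hy hd0
    have h2 := ls_ord_pow (fun (_ : Unit) w => P.ord w) hmul () (zpow_ne_zero k hπ0) m
    have h3 := ls_ord_zpow (fun (_ : Unit) w => P.ord w) hmul () hπ0 k
    have h1' : P.ord (y / (algebraMap A₀ Lf π ^ k) ^ m) =
        P.ord y - P.ord ((algebraMap A₀ Lf π ^ k) ^ m) := h1
    have h2' : P.ord ((algebraMap A₀ Lf π ^ k) ^ m) = m * P.ord (algebraMap A₀ Lf π ^ k) := h2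
    have h3' : P.ord (algebraMap A₀ Lf π ^ k) = k * P.ord (algebraMap A₀ Lf π) := h3
    rw [h1', h2', h3', unip_ord_const]
    ring
  obtain ⟨γ, ε, hγ, hε, hε', h⟩ := stb_smooth_factor hπ t ht hinj hB ϖ hϖ 𝔫 hπ𝔫 vert hprime hϖv
    hSS1 s hs hgen (div_ne_zero hy hd0) m hV
    (by simpa only [hord] using hfin) (fun P hP => by rw [hord]; exact hm P hP)
    (fun P hP hPy => hrat P hP (by rwa [hord] at hPy))
  refine ⟨γ * algebraMap A₀ Lf π ^ k, ε, mul_ne_zero hγ (zpow_ne_zero _ hπ0), hε, hε', ?_⟩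
  rw [mul_pow, ← mul_assoc, ← h]
  field_simp

end Smooth

end Fermat.Agent.STB


end ZBSTB_003_2

/-! ### bundled: `Fermat.Agent.STB.SmoothShapeAT` -/
section ZBSTB_003_3

/-!
# STB-S — (F) at a smooth point, in the language of `UNIP/AbstractT.lean`

Charts `B_u = zchClosure {u}`, vertical valuation rings `V : κ → ValuationSubring F`, as in
`at_local_factor` / `stb_local_factor` (STB-L).  No automorphism: the factorisation is for `y`
itself, at ANY smooth closed point `𝔫 = (π, s)` (fixed by Frobenius or not).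

* `stb_smooth_factor_at`     : `y` a unit at every `V c` through `𝔫`.
* `stb_smooth_factor_at_pow` : `y / π ^ (m k)` a unit at every `V c` through `𝔫`.
-/

set_option autoImplicit false
set_option linter.style.haveILetI false
set_option linter.unusedSectionVars false
set_option linter.unusedVariables false

namespace Fermat.Agent.STB

open Polynomial IntermediateField Fermat.Agent.INJ AlgebraicCurve Fermat.Agent.UNIP

section SmoothAT

variable {A₀ E F : Type*} [CommRing A₀] [IsDomain A₀] [IsDiscreteValuationRing A₀]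
  [Field E] [Algebra A₀ E] [IsFractionRing A₀ E] [CharZero E]
  [Field F] [Algebra E F] [Algebra A₀ F] [IsScalarTower A₀ E F]
  {π : A₀} {κ : Type*}

/-- **STB-S, (F) at a smooth point** (`𝔫 = (π, s)` locally), vertical multiplicity `m k`. -/
theorem stb_smooth_factor_at_pow (hπ : Irreducible π) {u : F} (hu : Transcendental E u)
    [FiniteDimensional E⟮u⟯ F] [Finite κ]
    [IsNoetherianRing ↥(zchClosure (A₀ := A₀) ({u} : Set F))]
    (V : κ → ValuationSubring F)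
    (hBV : ∀ c (b : F), IsIntegral ↥(Algebra.adjoin A₀ {u}) b → b ∈ V c)
    (hπV : ∀ c, algebraMap A₀ F π ∈ (V c).nonunits)
    (hSS1 : ∀ b : F, IsIntegral ↥(Algebra.adjoin A₀ {u}) b → (∀ c, b ∈ (V c).nonunits) →
      ∃ b' : F, IsIntegral ↥(Algebra.adjoin A₀ {u}) b' ∧ b = algebraMap A₀ F π * b')
    (hVloc : ∀ c (x : F), x ∈ V c → ∃ b s : F, IsIntegral ↥(Algebra.adjoin A₀ {u}) b ∧
      IsIntegral ↥(Algebra.adjoin A₀ {u}) s ∧ s ∉ (V c).nonunits ∧ s * x = b)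
    (𝔫 : Ideal ↥(zchClosure (A₀ := A₀) ({u} : Set F))) [𝔫.IsPrime]
    (hπ𝔫 : algebraMap A₀ ↥(zchClosure (A₀ := A₀) ({u} : Set F)) π ∈ 𝔫)
    (s : ↥(zchClosure (A₀ := A₀) ({u} : Set F))) (hs : s ∈ 𝔫)
    (hgen : NodesLocGen 𝔫 {algebraMap A₀ ↥(zchClosure (A₀ := A₀) ({u} : Set F)) π, s})
    {y : F} (hy : y ≠ 0) (m : ℕ) (k : ℤ)
    (hyV : ∀ c, (∀ b : ↥(zchClosure (A₀ := A₀) ({u} : Set F)), (b : F) ∈ (V c).nonunits → b ∈ 𝔫) →
      (V c).valuation (y / (algebraMap A₀ F π ^ k) ^ m) = 1)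
    (hfin : {P : Place E F | LsTube ↥(zchClosure (A₀ := A₀) ({u} : Set F)) u 𝔫 P ∧
      P.ord y ≠ 0}.Finite)
    (hm : ∀ P : Place E F, LsTube ↥(zchClosure (A₀ := A₀) ({u} : Set F)) u 𝔫 P →
      (m : ℤ) ∣ P.ord y)
    (hrat : ∀ P : Place E F, LsTube ↥(zchClosure (A₀ := A₀) ({u} : Set F)) u 𝔫 P →
      P.ord y ≠ 0 → ∀ f ∈ P.toValuationSubring,
        ∃ c : E, f - algebraMap E F c ∈ P.toValuationSubring.nonunits) :
    ∃ γ ε : F, γ ≠ 0 ∧ ε ∈ ls_localSubring (F := F) 𝔫 ∧ ε⁻¹ ∈ ls_localSubring (F := F) 𝔫 ∧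
      y = ε * γ ^ m := by
  classical
  haveI : Fintype κ := Fintype.ofFinite κ
  have hinj : Function.Injective (algebraMap ↥(zchClosure (A₀ := A₀) ({u} : Set F)) F) := Subtype.val_injective
  set ϖ : ↥(zchClosure (A₀ := A₀) ({u} : Set F)) := algebraMap A₀ ↥(zchClosure (A₀ := A₀) ({u} : Set F)) π with hϖdef
  have hϖ : algebraMap ↥(zchClosure (A₀ := A₀) ({u} : Set F)) F ϖ = algebraMap A₀ F π := rfl
  set vert : Finset (Ideal ↥(zchClosure (A₀ := A₀) ({u} : Set F))) :=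
    Finset.univ.image (fun c : κ => crossingIdeal (A₀ := A₀) {u} (V c) (hBV c)) with hvert
  have hvert_mem : ∀ 𝔭 ∈ vert, ∃ c : κ, 𝔭 = crossingIdeal (A₀ := A₀) {u} (V c) (hBV c) := by
    intro 𝔭 h𝔭
    obtain ⟨c, -, hc⟩ := Finset.mem_image.mp h𝔭
    exact ⟨c, hc.symm⟩
  have hprime : ∀ 𝔭 ∈ vert, 𝔭.IsPrime := by
    intro 𝔭 h𝔭
    obtain ⟨c, rfl⟩ := hvert_mem 𝔭 h𝔭
    exact at_crossingIdeal_isPrime (V c) (hBV c)
  have hϖv : ∀ 𝔭 ∈ vert, ϖ ∈ 𝔭 := by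
    intro 𝔭 h𝔭
    obtain ⟨c, rfl⟩ := hvert_mem 𝔭 h𝔭
    exact hπV c
  have hSS1' : ∀ y : ↥(zchClosure (A₀ := A₀) ({u} : Set F)), (∀ 𝔭 ∈ vert, y ∈ 𝔭) → ϖ ∣ y := by
    intro y hy
    obtain ⟨b', hb', hyb'⟩ := hSS1 (y : F) (mem_zchClosure.mp y.2) (fun c =>
      hy _ (Finset.mem_image.mpr ⟨c, Finset.mem_univ c, rfl⟩))
    exact ⟨⟨b', mem_zchClosure.mpr hb'⟩, Subtype.ext hyb'⟩
  have hV : ∀ 𝔭 ∈ vert, 𝔭 ≤ 𝔫 → StbPUnit 𝔭 (y / (algebraMap A₀ F π ^ k) ^ m) := by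
    intro 𝔭 h𝔭 hle
    obtain ⟨c, rfl⟩ := hvert_mem 𝔭 h𝔭
    haveI := at_crossingIdeal_isPrime (A₀ := A₀) (S := {u}) (V c) (hBV c)
    refine ls_vertical_unit_of_valuation hinj _ (V c) ?_ (hyV c fun b hb => hle hb)
    intro x hx
    obtain ⟨b, d, hb, hd, hdV, hdx⟩ := hVloc c x hx
    exact ⟨⟨b, mem_zchClosure.mpr hb⟩, ⟨d, mem_zchClosure.mpr hd⟩, hdV, hdx⟩
  exact stb_smooth_factor_pow hπ u hu hinj (unip_chart_range u) ϖ hϖ 𝔫 hπ𝔫 vert hprime hϖv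
    hSS1' s hs hgen hy m k hV hfin hm hrat

/-- **STB-S, (F) at a smooth point** (`𝔫 = (π, s)` locally): if `y ≠ 0` is a unit at every
vertical valuation through `𝔫`, `m ∣ ord_P y` on the tube of `𝔫` and the points of the tube in
the support of `y` are rational, then `y = ε · γ ^ m` with `ε ∈ O_𝔫^×`. -/
theorem stb_smooth_factor_at (hπ : Irreducible π) {u : F} (hu : Transcendental E u)
    [FiniteDimensional E⟮u⟯ F] [Finite κ]
    [IsNoetherianRing ↥(zchClosure (A₀ := A₀) ({u} : Set F))]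
    (V : κ → ValuationSubring F)
    (hBV : ∀ c (b : F), IsIntegral ↥(Algebra.adjoin A₀ {u}) b → b ∈ V c)
    (hπV : ∀ c, algebraMap A₀ F π ∈ (V c).nonunits)
    (hSS1 : ∀ b : F, IsIntegral ↥(Algebra.adjoin A₀ {u}) b → (∀ c, b ∈ (V c).nonunits) →
      ∃ b' : F, IsIntegral ↥(Algebra.adjoin A₀ {u}) b' ∧ b = algebraMap A₀ F π * b')
    (hVloc : ∀ c (x : F), x ∈ V c → ∃ b s : F, IsIntegral ↥(Algebra.adjoin A₀ {u}) b ∧
      IsIntegral ↥(Algebra.adjoin A₀ {u}) s ∧ s ∉ (V c).nonunits ∧ s * x = b)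
    (𝔫 : Ideal ↥(zchClosure (A₀ := A₀) ({u} : Set F))) [𝔫.IsPrime]
    (hπ𝔫 : algebraMap A₀ ↥(zchClosure (A₀ := A₀) ({u} : Set F)) π ∈ 𝔫)
    (s : ↥(zchClosure (A₀ := A₀) ({u} : Set F))) (hs : s ∈ 𝔫)
    (hgen : NodesLocGen 𝔫 {algebraMap A₀ ↥(zchClosure (A₀ := A₀) ({u} : Set F)) π, s})
    {y : F} (hy : y ≠ 0) (m : ℕ)
    (hyV : ∀ c, (∀ b : ↥(zchClosure (A₀ := A₀) ({u} : Set F)), (b : F) ∈ (V c).nonunits → b ∈ 𝔫) →
      (V c).valuation y = 1)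
    (hfin : {P : Place E F | LsTube ↥(zchClosure (A₀ := A₀) ({u} : Set F)) u 𝔫 P ∧
      P.ord y ≠ 0}.Finite)
    (hm : ∀ P : Place E F, LsTube ↥(zchClosure (A₀ := A₀) ({u} : Set F)) u 𝔫 P →
      (m : ℤ) ∣ P.ord y)
    (hrat : ∀ P : Place E F, LsTube ↥(zchClosure (A₀ := A₀) ({u} : Set F)) u 𝔫 P →
      P.ord y ≠ 0 → ∀ f ∈ P.toValuationSubring,
        ∃ c : E, f - algebraMap E F c ∈ P.toValuationSubring.nonunits) :
    ∃ γ ε : F, γ ≠ 0 ∧ ε ∈ ls_localSubring (F := F) 𝔫 ∧ ε⁻¹ ∈ ls_localSubring (F := F) 𝔫 ∧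
      y = ε * γ ^ m :=
  stb_smooth_factor_at_pow hπ hu V hBV hπV hSS1 hVloc 𝔫 hπ𝔫 s hs hgen hy m 0
    (fun c hc => by rw [zpow_zero, one_pow, div_one]; exact hyV c hc) hfin hm hrat

end SmoothAT

end Fermat.Agent.STB


end ZBSTB_003_3

/-! ### bundled: `Fermat.Agent.STB.SmoothFac` -/
section ZBSTB_003_4

/-!
# STB-S — (F) at a smooth point, in the form `StbFacAt` of `STB/AbstractT2.lean` (STB-T)

* `stb_facAt_of_mem`      : `ε, ε⁻¹ ∈ O`, `y = ε γ ^ m ≠ 0` gives `StbFacAt O m y`.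
* `stb_smooth_facAt`      : `StbFacAt (atLoc 𝔫) m y` at a smooth closed point `𝔫 = (π, s)` of the
  chart `u` (`= atO π t (Sum.inl 𝔫)` for `u = t`, `= atO π t (Sum.inr 𝔫)` for `u = t⁻¹`,
  definitionally).
* `stb_smooth_facAt_inl`, `stb_smooth_facAt_inr` : the same, stated for `atO π t i`.
-/

set_option autoImplicit false
set_option linter.style.haveILetI false
set_option linter.unusedSectionVars false
set_option linter.unusedVariables false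

namespace Fermat.Agent.STB

open Polynomial IntermediateField Fermat.Agent.INJ AlgebraicCurve Fermat.Agent.UNIP

section Fac

variable {F : Type*} [Field F]

/-- from `ε, ε⁻¹ ∈ O` and `y = ε γ ^ m` to the form `StbFacAt` -/
theorem stb_facAt_of_mem (O : Subring F) {m : ℕ} {y γ ε : F} (hy : y ≠ 0) (hε : ε ∈ O)
    (hε' : ε⁻¹ ∈ O) (h : y = ε * γ ^ m) : StbFacAt O m y := by
  have hε0 : ε ≠ 0 := by
    rintro rfl
    rw [zero_mul] at h
    exact hy h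
  refine ⟨γ, ⟨ε, hε⟩, ?_, h⟩
  exact IsUnit.of_mul_eq_one ⟨ε⁻¹, hε'⟩ (Subtype.ext (mul_inv_cancel₀ hε0))

end Fac

section SmoothFac

variable {A₀ E F : Type*} [CommRing A₀] [IsDomain A₀] [IsDiscreteValuationRing A₀]
  [Field E] [Algebra A₀ E] [IsFractionRing A₀ E] [CharZero E]
  [Field F] [Algebra E F] [Algebra A₀ F] [IsScalarTower A₀ E F]
  {π : A₀} {κ : Type*}

/-- **STB-S, (F) at a smooth closed point of the chart `u`**, in the form `StbFacAt`: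
`𝔫 = (π, s)` locally, `y / π ^ (m k)` a unit at every vertical valuation through `𝔫`, `m ∣ ord_P y`
on the tube of `𝔫`, the points of the tube in the support of `y` rational. -/
theorem stb_smooth_facAt (hπ : Irreducible π) {u : F} (hu : Transcendental E u)
    [FiniteDimensional E⟮u⟯ F] [Finite κ]
    [IsNoetherianRing ↥(zchClosure (A₀ := A₀) ({u} : Set F))]
    (V : κ → ValuationSubring F)
    (hBV : ∀ c (b : F), IsIntegral ↥(Algebra.adjoin A₀ {u}) b → b ∈ V c)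
    (hπV : ∀ c, algebraMap A₀ F π ∈ (V c).nonunits)
    (hSS1 : ∀ b : F, IsIntegral ↥(Algebra.adjoin A₀ {u}) b → (∀ c, b ∈ (V c).nonunits) →
      ∃ b' : F, IsIntegral ↥(Algebra.adjoin A₀ {u}) b' ∧ b = algebraMap A₀ F π * b')
    (hVloc : ∀ c (x : F), x ∈ V c → ∃ b s : F, IsIntegral ↥(Algebra.adjoin A₀ {u}) b ∧
      IsIntegral ↥(Algebra.adjoin A₀ {u}) s ∧ s ∉ (V c).nonunits ∧ s * x = b)
    (𝔫 : AtPt (F := F) π u)
    (s : ↥(zchClosure (A₀ := A₀) ({u} : Set F))) (hs : s ∈ 𝔫.1)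
    (hgen : NodesLocGen 𝔫.1 {algebraMap A₀ ↥(zchClosure (A₀ := A₀) ({u} : Set F)) π, s})
    {y : F} (hy : y ≠ 0) (m : ℕ) (k : ℤ)
    (hyV : ∀ c, atThrough 𝔫 (V c) → (V c).valuation (y / (algebraMap A₀ F π ^ k) ^ m) = 1)
    (hfin : {P : Place E F | LsTube ↥(zchClosure (A₀ := A₀) ({u} : Set F)) u 𝔫.1 P ∧
      P.ord y ≠ 0}.Finite)
    (hm : ∀ P : Place E F, LsTube ↥(zchClosure (A₀ := A₀) ({u} : Set F)) u 𝔫.1 P →
      (m : ℤ) ∣ P.ord y)
    (hrat : ∀ P : Place E F, LsTube ↥(zchClosure (A₀ := A₀) ({u} : Set F)) u 𝔫.1 P →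
      P.ord y ≠ 0 → ∀ f ∈ P.toValuationSubring,
        ∃ c : E, f - algebraMap E F c ∈ P.toValuationSubring.nonunits) :
    StbFacAt (atLoc 𝔫) m y := by
  haveI := 𝔫.2.1.isPrime
  obtain ⟨γ, ε, -, hε, hε', h⟩ := stb_smooth_factor_at_pow hπ hu V hBV hπV hSS1 hVloc 𝔫.1 𝔫.2.2
    s hs hgen hy m k hyV hfin hm hrat
  exact stb_facAt_of_mem _ hy hε hε' h

/-- `stb_smooth_facAt` for a point of the chart `t`, as a point of `AtPt π t ⊕ AtPt π t⁻¹` -/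
theorem stb_smooth_facAt_inl (hπ : Irreducible π) {t : F} (ht : Transcendental E t)
    [FiniteDimensional E⟮t⟯ F] [Finite κ]
    [IsNoetherianRing ↥(zchClosure (A₀ := A₀) ({t} : Set F))]
    (V : κ → ValuationSubring F)
    (hBV : ∀ c (b : F), IsIntegral ↥(Algebra.adjoin A₀ {t}) b → b ∈ V c)
    (hπV : ∀ c, algebraMap A₀ F π ∈ (V c).nonunits)
    (hSS1 : ∀ b : F, IsIntegral ↥(Algebra.adjoin A₀ {t}) b → (∀ c, b ∈ (V c).nonunits) →
      ∃ b' : F, IsIntegral ↥(Algebra.adjoin A₀ {t}) b' ∧ b = algebraMap A₀ F π * b')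
    (hVloc : ∀ c (x : F), x ∈ V c → ∃ b s : F, IsIntegral ↥(Algebra.adjoin A₀ {t}) b ∧
      IsIntegral ↥(Algebra.adjoin A₀ {t}) s ∧ s ∉ (V c).nonunits ∧ s * x = b)
    (𝔫 : AtPt (F := F) π t)
    (s : ↥(zchClosure (A₀ := A₀) ({t} : Set F))) (hs : s ∈ 𝔫.1)
    (hgen : NodesLocGen 𝔫.1 {algebraMap A₀ ↥(zchClosure (A₀ := A₀) ({t} : Set F)) π, s})
    {y : F} (hy : y ≠ 0) (m : ℕ) (k : ℤ)
    (hyV : ∀ c, atInc π t V (Sum.inl 𝔫) c →
      (V c).valuation (y / (algebraMap A₀ F π ^ k) ^ m) = 1)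
    (hfin : {P : Place E F | LsTube ↥(zchClosure (A₀ := A₀) ({t} : Set F)) t 𝔫.1 P ∧
      P.ord y ≠ 0}.Finite)
    (hm : ∀ P : Place E F, LsTube ↥(zchClosure (A₀ := A₀) ({t} : Set F)) t 𝔫.1 P →
      (m : ℤ) ∣ P.ord y)
    (hrat : ∀ P : Place E F, LsTube ↥(zchClosure (A₀ := A₀) ({t} : Set F)) t 𝔫.1 P →
      P.ord y ≠ 0 → ∀ f ∈ P.toValuationSubring,
        ∃ c : E, f - algebraMap E F c ∈ P.toValuationSubring.nonunits) :
    StbFacAt (atO π t (Sum.inl 𝔫)) m y :=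
  stb_smooth_facAt hπ ht V hBV hπV hSS1 hVloc 𝔫 s hs hgen hy m k hyV hfin hm hrat

/-- `stb_smooth_facAt` for a point of the chart `t⁻¹`, as a point of `AtPt π t ⊕ AtPt π t⁻¹` -/
theorem stb_smooth_facAt_inr (hπ : Irreducible π) {t : F} (ht' : Transcendental E t⁻¹)
    [FiniteDimensional E⟮t⁻¹⟯ F] [Finite κ]
    [IsNoetherianRing ↥(zchClosure (A₀ := A₀) ({t⁻¹} : Set F))]
    (V : κ → ValuationSubring F)
    (hBV : ∀ c (b : F), IsIntegral ↥(Algebra.adjoin A₀ {t⁻¹}) b → b ∈ V c)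
    (hπV : ∀ c, algebraMap A₀ F π ∈ (V c).nonunits)
    (hSS1 : ∀ b : F, IsIntegral ↥(Algebra.adjoin A₀ {t⁻¹}) b → (∀ c, b ∈ (V c).nonunits) →
      ∃ b' : F, IsIntegral ↥(Algebra.adjoin A₀ {t⁻¹}) b' ∧ b = algebraMap A₀ F π * b')
    (hVloc : ∀ c (x : F), x ∈ V c → ∃ b s : F, IsIntegral ↥(Algebra.adjoin A₀ {t⁻¹}) b ∧
      IsIntegral ↥(Algebra.adjoin A₀ {t⁻¹}) s ∧ s ∉ (V c).nonunits ∧ s * x = b)
    (𝔫 : AtPt (F := F) π t⁻¹)
    (s : ↥(zchClosure (A₀ := A₀) ({t⁻¹} : Set F))) (hs : s ∈ 𝔫.1)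
    (hgen : NodesLocGen 𝔫.1 {algebraMap A₀ ↥(zchClosure (A₀ := A₀) ({t⁻¹} : Set F)) π, s})
    {y : F} (hy : y ≠ 0) (m : ℕ) (k : ℤ)
    (hyV : ∀ c, atInc π t V (Sum.inr 𝔫) c →
      (V c).valuation (y / (algebraMap A₀ F π ^ k) ^ m) = 1)
    (hfin : {P : Place E F | LsTube ↥(zchClosure (A₀ := A₀) ({t⁻¹} : Set F)) t⁻¹ 𝔫.1 P ∧
      P.ord y ≠ 0}.Finite)
    (hm : ∀ P : Place E F, LsTube ↥(zchClosure (A₀ := A₀) ({t⁻¹} : Set F)) t⁻¹ 𝔫.1 P →
      (m : ℤ) ∣ P.ord y)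
    (hrat : ∀ P : Place E F, LsTube ↥(zchClosure (A₀ := A₀) ({t⁻¹} : Set F)) t⁻¹ 𝔫.1 P →
      P.ord y ≠ 0 → ∀ f ∈ P.toValuationSubring,
        ∃ c : E, f - algebraMap E F c ∈ P.toValuationSubring.nonunits) :
    StbFacAt (atO π t (Sum.inr 𝔫)) m y :=
  stb_smooth_facAt hπ ht' V hBV hπV hSS1 hVloc 𝔫 s hs hgen hy m k hyV hfin hm hrat

end SmoothFac

end Fermat.Agent.STB


end ZBSTB_003_4

/-! ### bundled: `Fermat.Agent.STB.SmoothPoint` -/
section ZBSTB_003_5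

/-!
# STB-S2 — the smooth-point disjunct `StbSmooth` of `stb_main_points`, from chart data

`stb_main_points` (STB-T, `STB/AbstractT2.lean`) asks at every closed point `i` with one
component `c` for `StbSmooth (atO π t i) (atO π t i₁) (V c) Φ m y`, `i₁` the preimage of `i`
under `Φ`.  Here it is assembled from chart data:

* (F) at `𝔫` and at `𝔫₁` : `stb_smooth_facAt` (STB-S), the vertical multiplicity of `y` being
  read off the toric hypothesis `y ≡ tt ^ m` at `V c` (`stb_sp_val_of_toric`) because `π` is a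
  uniformizer of `V c` (`stb_sp_unif`, `stb_sp_princ`);
* (N) at `𝔫` and at `𝔫₁` : `stb_gc_res` + `stb_gc_gen_disc` (STB-G, helper76).

Main statements: `stb_sp_smooth` (charts `u`, `u₁` arbitrary), `stb_sp_hunif` (the hypothesis
`hunif` from (SS1), `hVloc`, distinctness and the archimedean property).
-/

set_option autoImplicit false
set_option linter.style.haveILetI false
set_option linter.unusedSectionVars false
set_option linter.unusedVariables false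

namespace Fermat.Agent.STB

open Polynomial IntermediateField Fermat.Agent.INJ AlgebraicCurve Fermat.Agent.UNIP

section Unif

variable {F : Type*} [Field F]

/-- descent on the exponent: if `𝔪(V) = ϖ V` and `v(ϖ ^ N) < v(x)`, `x ∈ V`, then `x` is a unit
times a power of `ϖ` -/
theorem stb_sp_unif_aux (V : ValuationSubring F) {ϖ : F} (hϖ0 : ϖ ≠ 0)
    (hprinc : ∀ x ∈ V.nonunits, ∃ x' ∈ V, x = ϖ * x') :
    ∀ (N : ℕ) (x : F), x ∈ V → x ≠ 0 → ϖ ^ N * x⁻¹ ∈ V.nonunits →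
      ∃ k : ℕ, V.valuation (x / ϖ ^ k) = 1 := by
  intro N
  induction N with
  | zero =>
    intro x hx hx0 h
    exfalso
    rw [pow_zero, one_mul, ValuationSubring.mem_nonunits_iff, map_inv₀] at h
    have h1 : V.valuation x ≤ 1 := (V.valuation_le_one_iff x).2 hx
    have h2 : V.valuation x ≠ 0 := (Valuation.ne_zero_iff _).2 hx0
    have h3 : 1 < V.valuation x := by
      by_contra hcon
      rw [not_lt] at hcon
      have := (one_le_inv₀ (zero_lt_iff.2 h2)).2 hcon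
      exact absurd h (not_lt.2 this)
    exact absurd h1 (not_le.2 h3)
  | succ N ih =>
    intro x hx hx0 h
    by_cases hxn : x ∈ V.nonunits
    · obtain ⟨x', hx', rfl⟩ := hprinc x hxn
      have hx'0 : x' ≠ 0 := right_ne_zero_of_mul hx0
      have e : ϖ ^ (N + 1) * (ϖ * x')⁻¹ = ϖ ^ N * x'⁻¹ := by
        rw [pow_succ]
        field_simp
      rw [e] at h
      obtain ⟨k, hk⟩ := ih x' hx' hx'0 h
      refine ⟨k + 1, ?_⟩
      have e2 : ϖ * x' / ϖ ^ (k + 1) = x' / ϖ ^ k := by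
        rw [pow_succ]
        field_simp
      rw [e2]
      exact hk
    · refine ⟨0, ?_⟩
      rw [pow_zero, div_one]
      exact le_antisymm ((V.valuation_le_one_iff x).2 hx)
        (not_lt.1 fun h' => hxn ((ValuationSubring.mem_nonunits_iff V).2 h'))

/-- **`ϖ` is a uniformizer.**  If `𝔪(V) = ϖ V` and `V` is archimedean, every `x ≠ 0` is a unit
of `V` times an integral power of `ϖ`. -/
theorem stb_sp_unif (V : ValuationSubring F) (harch : StbArch V) {ϖ : F} (hϖ0 : ϖ ≠ 0)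
    (hϖ : ϖ ∈ V.nonunits) (hprinc : ∀ x ∈ V.nonunits, ∃ x' ∈ V, x = ϖ * x')
    {x : F} (hx0 : x ≠ 0) : ∃ k : ℤ, V.valuation (x / ϖ ^ k) = 1 := by
  rcases V.mem_or_inv_mem x with hx | hx
  · obtain ⟨N, hN⟩ := harch x⁻¹ ϖ hϖ
    rw [mul_comm] at hN
    obtain ⟨k, hk⟩ := stb_sp_unif_aux V hϖ0 hprinc N x hx hx0 hN
    exact ⟨k, by rw [zpow_natCast]; exact hk⟩
  · obtain ⟨N, hN⟩ := harch x⁻¹⁻¹ ϖ hϖ
    rw [mul_comm] at hN
    obtain ⟨k, hk⟩ := stb_sp_unif_aux V hϖ0 hprinc N x⁻¹ hx (inv_ne_zero hx0) hN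
    refine ⟨-(k : ℤ), ?_⟩
    have e : x / ϖ ^ (-(k : ℤ)) = (x⁻¹ / ϖ ^ k)⁻¹ := by
      rw [zpow_neg, zpow_natCast]
      field_simp
    rw [e, map_inv₀, hk, inv_one]

/-- the vertical multiplicity from the toric hypothesis: `y ≡ tt ^ m` at `V` and `tt = unit · ϖ ^ k`
give `y / (ϖ ^ k) ^ m` a unit of `V` -/
theorem stb_sp_val_of_toric (V : ValuationSubring F) {ϖ y tt : F} {m : ℕ} {k : ℤ}
    (htoric : y / tt ^ m - 1 ∈ V.nonunits) (hk : V.valuation (tt / ϖ ^ k) = 1) :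
    V.valuation (y / (ϖ ^ k) ^ m) = 1 := by
  have h1 : V.valuation (y / tt ^ m) = 1 := stbUnit_of_sub_one htoric
  have h10 : y / tt ^ m ≠ 0 := fun h => by rw [h, map_zero] at h1; exact zero_ne_one h1
  have htt : tt ^ m ≠ 0 := fun h => h10 (by rw [h, div_zero])
  have h20 : tt / ϖ ^ k ≠ 0 := fun h => by rw [h, map_zero] at hk; exact zero_ne_one hk
  have hϖk : ϖ ^ k ≠ 0 := fun h => h20 (by rw [h, div_zero])
  have e : y / (ϖ ^ k) ^ m = (y / tt ^ m) * (tt / ϖ ^ k) ^ m := by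
    rw [div_pow]
    field_simp
  rw [e, map_mul, map_pow, h1, hk, one_pow, one_mul]

/-- `y ≠ 0` from the toric hypothesis -/
theorem stb_sp_ne_zero_of_toric (V : ValuationSubring F) {y tt : F} {m : ℕ}
    (htoric : y / tt ^ m - 1 ∈ V.nonunits) : y ≠ 0 := by
  rintro rfl
  have h1 : V.valuation ((0 : F) / tt ^ m) = 1 := stbUnit_of_sub_one htoric
  rw [zero_div, map_zero] at h1
  exact zero_ne_one h1

end Unif

section Chart

variable {A₀ E F : Type*} [CommRing A₀] [IsDomain A₀] [IsDiscreteValuationRing A₀]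
  [Field E] [Algebra A₀ E] [IsFractionRing A₀ E] [CharZero E]
  [Field F] [Algebra E F] [Algebra A₀ F] [IsScalarTower A₀ E F]
  {π : A₀} {κ : Type*}

/-- **(N) at a smooth point of the chart `u`.** -/
theorem stb_sp_res {u : F}
    [IsNoetherianRing ↥(zchClosure (A₀ := A₀) ({u} : Set F))]
    (W : ValuationSubring F)
    (hBW : ∀ b : F, IsIntegral ↥(Algebra.adjoin A₀ {u}) b → b ∈ W)
    (hπW : algebraMap A₀ F π ∈ W.nonunits)
    (hWloc : ∀ x : F, x ∈ W → ∃ b s : F, IsIntegral ↥(Algebra.adjoin A₀ {u}) b ∧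
      IsIntegral ↥(Algebra.adjoin A₀ {u}) s ∧ s ∉ W.nonunits ∧ s * x = b)
    (𝔫 : AtPt (F := F) π u) (hthr : atThrough 𝔫 W)
    (s : ↥(zchClosure (A₀ := A₀) ({u} : Set F))) (hs : s ∈ 𝔫.1)
    (hgen : NodesLocGen 𝔫.1 {algebraMap A₀ ↥(zchClosure (A₀ := A₀) ({u} : Set F)) π, s}) :
    StbRes (atLoc 𝔫) W := by
  haveI := 𝔫.2.1.isPrime
  have hinj : Function.Injective (algebraMap ↥(zchClosure (A₀ := A₀) ({u} : Set F)) F) :=
    Subtype.val_injective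
  have hBW' : ∀ b : ↥(zchClosure (A₀ := A₀) ({u} : Set F)),
      algebraMap ↥(zchClosure (A₀ := A₀) ({u} : Set F)) F b ∈ W :=
    fun b => hBW _ (mem_zchClosure.mp b.2)
  intro a e n he hn h
  exact stb_gc_res hinj 𝔫.1 W hBW' hthr
    (fun x hx => by
      obtain ⟨b, d, hb, hd, hdW, hdx⟩ := hWloc x hx
      exact ⟨⟨b, mem_zchClosure.mpr hb⟩, ⟨d, mem_zchClosure.mpr hd⟩, hdW, hdx⟩)
    s hs (stb_gc_gen_disc 𝔫.1 W hBW' hgen hπW) a e n he hn h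

/-- **`𝔪(V c) = π · V c`** from (SS1), `V c = (B_u)_{𝔭_c}` and the incomparability of the
vertical primes. -/
theorem stb_sp_princ {u : F} [Finite κ] (V : κ → ValuationSubring F)
    (hBV : ∀ c (b : F), IsIntegral ↥(Algebra.adjoin A₀ {u}) b → b ∈ V c)
    (hSS1 : ∀ b : F, IsIntegral ↥(Algebra.adjoin A₀ {u}) b → (∀ c, b ∈ (V c).nonunits) →
      ∃ b' : F, IsIntegral ↥(Algebra.adjoin A₀ {u}) b' ∧ b = algebraMap A₀ F π * b')
    (hVloc : ∀ c (x : F), x ∈ V c → ∃ b s : F, IsIntegral ↥(Algebra.adjoin A₀ {u}) b ∧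
      IsIntegral ↥(Algebra.adjoin A₀ {u}) s ∧ s ∉ (V c).nonunits ∧ s * x = b)
    (c : κ) (hnle : ∀ c', c' ≠ c → ¬ V c ≤ V c') :
    ∀ x ∈ (V c).nonunits, ∃ x' ∈ V c, x = algebraMap A₀ F π * x' := by
  classical
  haveI : Fintype κ := Fintype.ofFinite κ
  -- an integral multiplier: unit at `c`, in `𝔪(V c')` for `c' ≠ c`
  have hd : ∀ c', c' ≠ c → ∃ d : F, IsIntegral ↥(Algebra.adjoin A₀ {u}) d ∧
      d ∈ (V c').nonunits ∧ d ∉ (V c).nonunits := by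
    intro c' hc'
    by_contra hcon
    push Not at hcon
    apply hnle c' hc'
    intro x hx
    obtain ⟨b, s, hb, hs, hsV, hsx⟩ := hVloc c x hx
    have hs' : s ∉ (V c').nonunits := fun h => hsV (hcon s hs h)
    have hs1 : (V c').valuation s = 1 := stb_gc_val_eq_one (V c') (hBV c' s hs) hs'
    have hs0 : s ≠ 0 := fun h => by rw [h, map_zero] at hs1; exact zero_ne_one hs1
    have hx' : x = s⁻¹ * b := by rw [← hsx]; field_simp
    rw [hx']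
    refine (V c').mul_mem _ _ ?_ (hBV c' b hb)
    rw [← (V c').valuation_le_one_iff, map_inv₀, hs1, inv_one]
  choose! d hdint hdc' hdc using hd
  set e : F := ∏ c' ∈ Finset.univ.filter (fun c' => c' ≠ c), d c' with he
  have heint : IsIntegral ↥(Algebra.adjoin A₀ {u}) e :=
    IsIntegral.prod _ fun c' hc' => hdint c' (Finset.mem_filter.mp hc').2
  have hec : (V c).valuation e = 1 := by
    rw [he, map_prod]
    refine Finset.prod_eq_one fun c' hc' => ?_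
    have hc'' := (Finset.mem_filter.mp hc').2
    exact stb_gc_val_eq_one (V c) (hBV c _ (hdint c' hc'')) (hdc c' hc'')
  have hec' : ∀ c', c' ≠ c → e ∈ (V c').nonunits := by
    intro c' hc'
    have hmem : c' ∈ Finset.univ.filter (fun c' => c' ≠ c) :=
      Finset.mem_filter.mpr ⟨Finset.mem_univ _, hc'⟩
    rw [he, ← Finset.mul_prod_erase _ _ hmem]
    rw [mul_comm]
    refine pwi_mul_mem_nonunits (V c') ?_ (hdc' c' hc')
    exact hBV c' _ (IsIntegral.prod _ fun c'' hc'' =>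
      hdint c'' (Finset.mem_filter.mp (Finset.mem_of_mem_erase hc'')).2)
  intro x hx
  obtain ⟨b, s, hb, hs, hsV, hsx⟩ := hVloc c x (stb_nonunits_subset hx)
  have hs1 : (V c).valuation s = 1 := stb_gc_val_eq_one (V c) (hBV c s hs) hsV
  have hs0 : s ≠ 0 := fun h => by rw [h, map_zero] at hs1; exact zero_ne_one hs1
  have he0 : e ≠ 0 := fun h => by rw [h, map_zero] at hec; exact zero_ne_one hec
  have hbc : b ∈ (V c).nonunits := by
    rw [← hsx]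
    exact pwi_mul_mem_nonunits (V c) (hBV c s hs) hx
  obtain ⟨b', hb', hbb'⟩ := hSS1 (e * b) (heint.mul hb) (fun c' => by
    by_cases hc' : c' = c
    · rw [hc']
      exact pwi_mul_mem_nonunits (V c) (hBV c e heint) hbc
    · rw [mul_comm]
      exact pwi_mul_mem_nonunits (V c') (hBV c' b hb) (hec' c' hc'))
  refine ⟨(e * s)⁻¹ * b', ?_, ?_⟩
  · refine (V c).mul_mem _ _ ?_ (hBV c b' hb')
    rw [← (V c).valuation_le_one_iff, map_inv₀, map_mul, hec, hs1, one_mul, inv_one]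
  · have e1 : algebraMap A₀ F π * ((e * s)⁻¹ * b') = (e * s)⁻¹ * (algebraMap A₀ F π * b') := by
      ring
    rw [e1, ← hbb', ← hsx]
    field_simp

/-- **`hunif`**: `π` is a uniformizer of every vertical valuation ring `V c`, from (SS1),
`V c = (B_u)_{𝔭_c}`, distinctness and the archimedean property. -/
theorem stb_sp_hunif (hπ0 : algebraMap A₀ F π ≠ 0) {u : F} [Finite κ]
    (V : κ → ValuationSubring F)
    (hBV : ∀ c (b : F), IsIntegral ↥(Algebra.adjoin A₀ {u}) b → b ∈ V c)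
    (hπV : ∀ c, algebraMap A₀ F π ∈ (V c).nonunits)
    (hSS1 : ∀ b : F, IsIntegral ↥(Algebra.adjoin A₀ {u}) b → (∀ c, b ∈ (V c).nonunits) →
      ∃ b' : F, IsIntegral ↥(Algebra.adjoin A₀ {u}) b' ∧ b = algebraMap A₀ F π * b')
    (hVloc : ∀ c (x : F), x ∈ V c → ∃ b s : F, IsIntegral ↥(Algebra.adjoin A₀ {u}) b ∧
      IsIntegral ↥(Algebra.adjoin A₀ {u}) s ∧ s ∉ (V c).nonunits ∧ s * x = b)
    (hne : ∀ c c', c ≠ c' → V c ≠ V c')
    (harch : ∀ c (a x : F), a ∈ (V c).nonunits → ∃ N : ℕ, a ^ N * x ∈ (V c).nonunits) :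
    ∀ c (x : F), x ≠ 0 → ∃ k : ℤ, (V c).valuation (x / algebraMap A₀ F π ^ k) = 1 := by
  have harch' : ∀ c, StbArch (V c) := fun c x a ha => by
    obtain ⟨N, hN⟩ := harch c a x ha
    exact ⟨N, by rw [mul_comm]; exact hN⟩
  intro c x hx
  exact stb_sp_unif (V c) (harch' c) hπ0 (hπV c)
    (stb_sp_princ V hBV hSS1 hVloc c fun c' hc' =>
      stb_not_le_of_ne (harch' c) hπ0 (hπV c') (hne c c' (Ne.symm hc'))) hx

/-- **`Φ (O_{𝔫₁}) ⊆ O_𝔫`** from the chart: `Φ` maps the chart `u₁` into the chart `u` and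
elements outside `𝔫₁` outside `𝔫` (i.e. `Φ⁻¹ 𝔫 ⊆ 𝔫₁`). -/
theorem stb_sp_map_loc {u u₁ : F} (𝔫 : AtPt (F := F) π u) (𝔫₁ : AtPt (F := F) π u₁)
    (Φ : F →+* F)
    (hΦB : ∀ b : ↥(zchClosure (A₀ := A₀) ({u₁} : Set F)),
      ∃ b' : ↥(zchClosure (A₀ := A₀) ({u} : Set F)), Φ (b : F) = (b' : F) ∧
        (b ∉ 𝔫₁.1 → b' ∉ 𝔫.1)) :
    ∀ x ∈ atLoc 𝔫₁, Φ x ∈ atLoc 𝔫 := by
  rintro x ⟨b, d, hd, hdx⟩
  obtain ⟨b', hb', -⟩ := hΦB b
  obtain ⟨d', hd', hd'n⟩ := hΦB d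
  refine ⟨b', d', hd'n hd, ?_⟩
  have h := congrArg Φ hdx
  rw [map_mul] at h
  change Φ (d : F) * Φ x = Φ (b : F) at h
  rw [hd', hb'] at h
  exact h

/-- **The smooth-point disjunct of `stb_main_points`.**  `𝔫` a smooth closed point of the chart
`u` (`𝔫 = (π, s)` locally), `𝔫₁` a smooth closed point of the chart `u₁` (`𝔫₁ = (π, s₁)`
locally), both on the component `c` only, `Φ (O_{𝔫₁}) ⊆ O_𝔫`; `y ≡ tt ^ m` at `V c` (toric),
`m ∣ ord_P y` on the tubes of `𝔫` and `𝔫₁`, the points of these tubes in the support of `y`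
rational.  Then `StbSmooth O_𝔫 O_{𝔫₁} (V c) Φ m y`. -/
theorem stb_sp_smooth (hπ : Irreducible π) {u u₁ : F} (hu : Transcendental E u)
    (hu₁ : Transcendental E u₁) [FiniteDimensional E⟮u⟯ F] [FiniteDimensional E⟮u₁⟯ F]
    [Finite κ]
    [IsNoetherianRing ↥(zchClosure (A₀ := A₀) ({u} : Set F))]
    [IsNoetherianRing ↥(zchClosure (A₀ := A₀) ({u₁} : Set F))]
    (V : κ → ValuationSubring F)
    (hBV : ∀ c (b : F), IsIntegral ↥(Algebra.adjoin A₀ {u}) b → b ∈ V c)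
    (hBV₁ : ∀ c (b : F), IsIntegral ↥(Algebra.adjoin A₀ {u₁}) b → b ∈ V c)
    (hπV : ∀ c, algebraMap A₀ F π ∈ (V c).nonunits)
    (hSS1 : ∀ b : F, IsIntegral ↥(Algebra.adjoin A₀ {u}) b → (∀ c, b ∈ (V c).nonunits) →
      ∃ b' : F, IsIntegral ↥(Algebra.adjoin A₀ {u}) b' ∧ b = algebraMap A₀ F π * b')
    (hSS1₁ : ∀ b : F, IsIntegral ↥(Algebra.adjoin A₀ {u₁}) b → (∀ c, b ∈ (V c).nonunits) →
      ∃ b' : F, IsIntegral ↥(Algebra.adjoin A₀ {u₁}) b' ∧ b = algebraMap A₀ F π * b')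
    (hVloc : ∀ c (x : F), x ∈ V c → ∃ b s : F, IsIntegral ↥(Algebra.adjoin A₀ {u}) b ∧
      IsIntegral ↥(Algebra.adjoin A₀ {u}) s ∧ s ∉ (V c).nonunits ∧ s * x = b)
    (hVloc₁ : ∀ c (x : F), x ∈ V c → ∃ b s : F, IsIntegral ↥(Algebra.adjoin A₀ {u₁}) b ∧
      IsIntegral ↥(Algebra.adjoin A₀ {u₁}) s ∧ s ∉ (V c).nonunits ∧ s * x = b)
    (c : κ)
    (hunif : ∀ x : F, x ≠ 0 → ∃ k : ℤ, (V c).valuation (x / algebraMap A₀ F π ^ k) = 1)
    (𝔫 : AtPt (F := F) π u) (𝔫₁ : AtPt (F := F) π u₁)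
    (s : ↥(zchClosure (A₀ := A₀) ({u} : Set F))) (hs : s ∈ 𝔫.1)
    (hgen : NodesLocGen 𝔫.1 {algebraMap A₀ ↥(zchClosure (A₀ := A₀) ({u} : Set F)) π, s})
    (s₁ : ↥(zchClosure (A₀ := A₀) ({u₁} : Set F))) (hs₁ : s₁ ∈ 𝔫₁.1)
    (hgen₁ : NodesLocGen 𝔫₁.1 {algebraMap A₀ ↥(zchClosure (A₀ := A₀) ({u₁} : Set F)) π, s₁})
    (hc : atThrough 𝔫 (V c)) (hc₁ : atThrough 𝔫₁ (V c))
    (honly : ∀ c', atThrough 𝔫 (V c') → c' = c) (honly₁ : ∀ c', atThrough 𝔫₁ (V c') → c' = c)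
    (Φ : F →+* F) (hΦO : ∀ x ∈ atLoc 𝔫₁, Φ x ∈ atLoc 𝔫)
    {y : F} (m : ℕ) (tt : F) (htoric : y / tt ^ m - 1 ∈ (V c).nonunits)
    (hfin : {P : Place E F | LsTube ↥(zchClosure (A₀ := A₀) ({u} : Set F)) u 𝔫.1 P ∧
      P.ord y ≠ 0}.Finite)
    (hm : ∀ P : Place E F, LsTube ↥(zchClosure (A₀ := A₀) ({u} : Set F)) u 𝔫.1 P →
      (m : ℤ) ∣ P.ord y)
    (hrat : ∀ P : Place E F, LsTube ↥(zchClosure (A₀ := A₀) ({u} : Set F)) u 𝔫.1 P →
      P.ord y ≠ 0 → ∀ f ∈ P.toValuationSubring,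
        ∃ c : E, f - algebraMap E F c ∈ P.toValuationSubring.nonunits)
    (hfin₁ : {P : Place E F | LsTube ↥(zchClosure (A₀ := A₀) ({u₁} : Set F)) u₁ 𝔫₁.1 P ∧
      P.ord y ≠ 0}.Finite)
    (hm₁ : ∀ P : Place E F, LsTube ↥(zchClosure (A₀ := A₀) ({u₁} : Set F)) u₁ 𝔫₁.1 P →
      (m : ℤ) ∣ P.ord y)
    (hrat₁ : ∀ P : Place E F, LsTube ↥(zchClosure (A₀ := A₀) ({u₁} : Set F)) u₁ 𝔫₁.1 P →
      P.ord y ≠ 0 → ∀ f ∈ P.toValuationSubring,
        ∃ c : E, f - algebraMap E F c ∈ P.toValuationSubring.nonunits) :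
    StbSmooth (atLoc 𝔫) (atLoc 𝔫₁) (V c) Φ m y := by
  have hy : y ≠ 0 := stb_sp_ne_zero_of_toric (V c) htoric
  obtain ⟨k, hval⟩ : ∃ k : ℤ, (V c).valuation (y / (algebraMap A₀ F π ^ k) ^ m) = 1 := by
    by_cases htt : tt = 0
    · have h1 : (V c).valuation (y / tt ^ m) = 1 := stbUnit_of_sub_one htoric
      by_cases hm0 : m = 0
      · refine ⟨0, ?_⟩
        rw [hm0, pow_zero, div_one] at h1
        rw [hm0, pow_zero, div_one]
        exact h1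
      · rw [htt, zero_pow hm0, div_zero, map_zero] at h1
        exact absurd h1 zero_ne_one
    · obtain ⟨k, hk⟩ := hunif tt htt
      exact ⟨k, stb_sp_val_of_toric (V c) htoric hk⟩
  refine ⟨hΦO, ?_, ?_, ?_, ?_⟩
  · exact stb_sp_res (V c) (hBV c) (hπV c) (hVloc c) 𝔫 hc s hs hgen
  · exact stb_sp_res (V c) (hBV₁ c) (hπV c) (hVloc₁ c) 𝔫₁ hc₁ s₁ hs₁ hgen₁
  · exact stb_smooth_facAt hπ hu V hBV hπV hSS1 hVloc 𝔫 s hs hgen hy m k
      (fun c' hc' => by rw [honly c' hc']; exact hval) hfin hm hrat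
  · exact stb_smooth_facAt hπ hu₁ V hBV₁ hπV hSS1₁ hVloc₁ 𝔫₁ s₁ hs₁ hgen₁ hy m k
      (fun c' hc' => by rw [honly₁ c' hc']; exact hval) hfin₁ hm₁ hrat₁

end Chart

end Fermat.Agent.STB


end ZBSTB_003_5

/-! ### bundled: `Fermat.Agent.S33.WildHorChart` -/
section ZBSTB_003_6
/-
S33 v2 — C4 WILD, piece T4c "WildHorChart" (helper92): step (H) at a CROSSING point, chart level.

Twin of `STB.stb_smooth_factor_at` (smooth points; it holds for every `m`, also `m = p` = the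
residue characteristic, so (H) at smooth points is `STB.stb_smooth_facAt` as it is).

* `whc_branch_pow`  : `B` noetherian, `𝔭 ≤ 𝔫` primes, `𝔫 = 𝔭 + (X)` locally: every `b ∉ 𝔭` is
                      `≡ unit · X ^ m` modulo `𝔭`, locally at `𝔫`  (the branch `(B/𝔭)_𝔫` is a
                      discrete valuation ring with uniformizer `X̄`; Krull).
* `whc_winding`     : the hypothesis `WhWinding B_𝔫 V X` of `wh_node_of_winding` from chart data.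
* `whc_node_factor` : **(H) at a crossing point** of the chart `B_u = zchClosure {u}`:
                      finite-thickness datum `X Y = q′ G`, `G ∉ 𝔫`, `𝔫 = (π, X, Y)` locally,
                      `X ∉ 𝔭₂ ∋ Y`;  `p ∣ ord_P y` on the tube, support rational, `y` split at
                      `V c₂`  ⇒  `y = ε γ ^ p`, `ε ∈ (B_u)_𝔫^×`.
* `whc_node_facAt`, `whc_node_facAt_inl/inr` : the same in the form `STB.StbFacAt (atLoc 𝔫) p y`
                      resp. for `atO π t i`.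
-/

set_option autoImplicit false
set_option linter.style.haveILetI false
set_option linter.unusedSectionVars false
set_option linter.unusedVariables false

namespace Fermat.Agent.S33

open Polynomial IntermediateField Fermat.Agent.INJ AlgebraicCurve Fermat.Agent.UNIP
  Fermat.Agent.STB

section Algebra

variable {B : Type*} [CommRing B]

/-- **The branch is a discrete valuation ring with uniformizer `X̄`** (element form).
`B` noetherian, `𝔭 ≤ 𝔫` primes, `X ∈ 𝔫`, `𝔫 = 𝔭 + (X)` locally at `𝔫` (`hgen`).  Every `b ∉ 𝔭` is,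
locally at `𝔫` and modulo `𝔭`, a unit times a power of `X`:  `u b ≡ e X ^ m mod 𝔭` with
`u, e ∉ 𝔫`. -/
theorem whc_branch_pow [IsNoetherianRing B] (𝔭 𝔫 : Ideal B) [h𝔭 : 𝔭.IsPrime] [h𝔫 : 𝔫.IsPrime]
    (h𝔭𝔫 : 𝔭 ≤ 𝔫) (X : B) (hX : X ∈ 𝔫)
    (hgen : ∀ b ∈ 𝔫, ∃ u : B, u ∉ 𝔫 ∧ ∃ c : B, u * b - c * X ∈ 𝔭)
    {b : B} (hb : b ∉ 𝔭) :
    ∃ (m : ℕ) (u e : B), u ∉ 𝔫 ∧ e ∉ 𝔫 ∧ u * b - e * X ^ m ∈ 𝔭 := by
  classical
  let R := B ⧸ 𝔭
  let mk : B →+* R := Ideal.Quotient.mk 𝔭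
  have hmk : Function.Surjective mk := Ideal.Quotient.mk_surjective
  let 𝔫' : Ideal R := 𝔫.map mk
  have hmem : ∀ x : B, mk x ∈ 𝔫' ↔ x ∈ 𝔫 := fun x => Ideal.mem_quotient_iff_mem h𝔭𝔫
  have h𝔫' : 𝔫'.IsPrime :=
    Ideal.map_isPrime_of_surjective hmk (by rw [Ideal.mk_ker]; exact h𝔭𝔫)
  let S := Localization.AtPrime 𝔫'
  have hinjS : Function.Injective (algebraMap R S) :=
    IsLocalization.injective S (Ideal.primeCompl_le_nonZeroDivisors 𝔫')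
  have : IsDomain S := IsLocalization.isDomain_localization (Ideal.primeCompl_le_nonZeroDivisors 𝔫')
  have : IsNoetherianRing S := IsLocalization.isNoetherianRing 𝔫'.primeCompl S inferInstance
  have hunit : ∀ x : B, x ∉ 𝔫 → IsUnit (algebraMap R S (mk x)) := fun x hx =>
    (IsLocalization.AtPrime.isUnit_to_map_iff S 𝔫' (mk x)).2 (fun h => hx ((hmem x).1 h))
  set ξ : S := algebraMap R S (mk X) with hξ
  -- the maximal ideal of `S` is generated by `ξ`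
  have hmax : IsLocalRing.maximalIdeal S = Ideal.span {ξ} := by
    apply le_antisymm
    · intro x hx
      obtain ⟨r, t, rfl⟩ := IsLocalization.exists_mk'_eq 𝔫'.primeCompl x
      have hr : r ∈ 𝔫' := by
        have h1 : algebraMap R S r ∈ IsLocalRing.maximalIdeal S := by
          have h2 : algebraMap R S r = IsLocalization.mk' S r t * algebraMap R S t := by
            rw [IsLocalization.mk'_spec]
          rw [h2]
          exact Ideal.mul_mem_right _ _ hx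
        exact (IsLocalization.AtPrime.to_map_mem_maximal_iff S 𝔫' r).1 h1
      obtain ⟨b₀, rfl⟩ := hmk r
      have hb₀ : b₀ ∈ 𝔫 := (hmem b₀).1 hr
      obtain ⟨u, hu, c, huc⟩ := hgen b₀ hb₀
      have e1 : mk u * mk b₀ = mk c * mk X := by
        rw [← map_mul, ← map_mul, ← sub_eq_zero, ← map_sub]
        exact Ideal.Quotient.eq_zero_iff_mem.2 huc
      obtain ⟨v, hv⟩ := hunit u hu
      have e2 : algebraMap R S (mk b₀) = ((v⁻¹ : Sˣ) : S) * algebraMap R S (mk c) * ξ := by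
        have e3 : (v : S) * algebraMap R S (mk b₀) = algebraMap R S (mk c) * ξ := by
          rw [hv, hξ, ← map_mul, e1, map_mul]
        rw [mul_assoc, ← e3, ← mul_assoc, Units.inv_mul, one_mul]
      rw [Ideal.mem_span_singleton']
      obtain ⟨w, hw⟩ := IsLocalization.map_units S t
      refine ⟨((w⁻¹ : Sˣ) : S) * (((v⁻¹ : Sˣ) : S) * algebraMap R S (mk c)), ?_⟩
      have e4 : IsLocalization.mk' S (mk b₀) t = ((w⁻¹ : Sˣ) : S) * algebraMap R S (mk b₀) := by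
        rw [IsLocalization.mk'_eq_iff_eq_mul, mul_comm _ (algebraMap R S (t : R)), ← hw,
          ← mul_assoc, Units.mul_inv, one_mul]
      rw [e4, e2]
      ring
    · rw [Ideal.span_le, Set.singleton_subset_iff]
      exact (IsLocalization.AtPrime.to_map_mem_maximal_iff S 𝔫' (mk X)).2 ((hmem X).2 hX)
  -- the image of `b`
  set b' : S := algebraMap R S (mk b) with hb'
  have hb'0 : b' ≠ 0 := by
    intro h0
    have h1 : mk b = 0 := hinjS (by rw [← hb', h0, map_zero])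
    exact hb (Ideal.Quotient.eq_zero_iff_mem.1 h1)
  -- Krull
  have hkrull : ∃ n : ℕ, b' ∉ IsLocalRing.maximalIdeal S ^ n := by
    by_contra hcon
    push Not at hcon
    have h1 : b' ∈ (⨅ n : ℕ, IsLocalRing.maximalIdeal S ^ n : Ideal S) := by
      rw [Ideal.mem_iInf]
      exact hcon
    rw [Ideal.iInf_pow_eq_bot_of_isLocalRing (IsLocalRing.maximalIdeal S)
      Ideal.IsPrime.ne_top'] at h1
    exact hb'0 (by simpa using h1)
  set n := Nat.find hkrull with hn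
  have hn1 : b' ∉ IsLocalRing.maximalIdeal S ^ n := Nat.find_spec hkrull
  have hn0 : n ≠ 0 := by
    intro h0
    rw [h0, pow_zero, Ideal.one_eq_top] at hn1
    exact hn1 Submodule.mem_top
  obtain ⟨m, hm⟩ := Nat.exists_eq_succ_of_ne_zero hn0
  have hmem_m : b' ∈ IsLocalRing.maximalIdeal S ^ m := by
    by_contra h
    have := Nat.find_min' hkrull h
    omega
  rw [hmax, Ideal.span_singleton_pow, Ideal.mem_span_singleton'] at hmem_m
  obtain ⟨y, hy⟩ := hmem_m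
  -- `y` is a unit
  have hyu : IsUnit y := by
    by_contra hnu
    have hy' : y ∈ IsLocalRing.maximalIdeal S := (IsLocalRing.mem_maximalIdeal y).2 hnu
    apply hn1
    have e0 : b' = ξ ^ m * y := by rw [← hy]; ring
    have hξm : ξ ^ m ∈ IsLocalRing.maximalIdeal S ^ m := by
      rw [hmax, Ideal.span_singleton_pow]
      exact Ideal.mem_span_singleton_self _
    rw [hm, pow_succ, e0]
    exact Ideal.mul_mem_mul hξm hy'
  obtain ⟨r, t, rfl⟩ := IsLocalization.exists_mk'_eq 𝔫'.primeCompl y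
  have hr : r ∉ 𝔫' := by
    intro h
    have h1 : algebraMap R S r ∈ IsLocalRing.maximalIdeal S :=
      (IsLocalization.AtPrime.to_map_mem_maximal_iff S 𝔫' r).2 h
    have h2 : algebraMap R S r = IsLocalization.mk' S r t * algebraMap R S t := by
      rw [IsLocalization.mk'_spec]
    rw [h2] at h1
    exact (IsLocalRing.mem_maximalIdeal _).1 h1
      (hyu.mul (IsLocalization.map_units S t))
  obtain ⟨e, rfl⟩ := hmk r
  obtain ⟨u, hu⟩ := hmk (t : R)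
  have hu𝔫 : u ∉ 𝔫 := fun h0 => t.2 (by rw [← hu]; exact (hmem u).2 h0)
  have he𝔫 : e ∉ 𝔫 := fun h0 => hr ((hmem e).2 h0)
  refine ⟨m, u, e, hu𝔫, he𝔫, ?_⟩
  apply Ideal.Quotient.eq_zero_iff_mem.1
  apply hinjS
  rw [map_zero, map_sub, map_sub, map_mul, map_mul, map_mul, map_mul, sub_eq_zero, hu, map_pow,
    map_pow]
  show algebraMap R S (t : R) * b' = algebraMap R S (mk e) * ξ ^ m
  rw [← hy]
  have e5 : algebraMap R S (t : R) * IsLocalization.mk' S (mk e) t = algebraMap R S (mk e) := by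
    rw [mul_comm, IsLocalization.mk'_spec]
  rw [← mul_assoc, e5]

end Algebra

section Chart

variable {F : Type*} [Field F] {B : Type*} [CommRing B] [Algebra B F]

/-- **The winding generator from chart data.**  `B` a noetherian chart, `𝔫` a prime, `V = B_𝔭` a
valuation ring through `𝔫` (`hBV`, `hthrough`, `hVloc`), `X ∈ 𝔫`, `X ∉ 𝔭`, `𝔫 = 𝔭 + (X)` locally
at `𝔫` (`hgen`).  Then `X` is a winding generator for the branch `𝔭` at `𝔫`. -/
theorem whc_winding [IsNoetherianRing B] (hinj : Function.Injective (algebraMap B F))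
    (𝔫 : Ideal B) [h𝔫 : 𝔫.IsPrime] (V : ValuationSubring F)
    (hBV : ∀ b : B, algebraMap B F b ∈ V)
    (hthrough : ∀ b : B, algebraMap B F b ∈ V.nonunits → b ∈ 𝔫)
    (hVloc : ∀ x ∈ V, ∃ b s : B, algebraMap B F s ∉ V.nonunits ∧
      algebraMap B F s * x = algebraMap B F b)
    (X : B) (hX : X ∈ 𝔫) (hXV : algebraMap B F X ∉ V.nonunits)
    (hgen : ∀ b ∈ 𝔫, ∃ u : B, u ∉ 𝔫 ∧ ∃ c : B, algebraMap B F (u * b - c * X) ∈ V.nonunits) :
    WhWinding (ls_localSubring (F := F) 𝔫) V (algebraMap B F X) := by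
  have hle : ∀ x ∈ ls_localSubring (F := F) 𝔫, x ∈ V := stb_gc_le 𝔫 V hBV hthrough
  have hval : V.valuation (algebraMap B F X) = 1 := stb_gc_val_eq_one V (hBV X) hXV
  have hX0 : algebraMap B F X ≠ 0 := wh_val_ne_zero V hval
  have hne0 : ∀ s : B, s ∉ 𝔫 → algebraMap B F s ≠ 0 := fun s hs =>
    stb_gc_algebraMap_ne_zero hinj 𝔫 hs
  have hvs : ∀ s : B, s ∉ 𝔫 → V.valuation (algebraMap B F s) = 1 := fun s hs =>
    stb_gc_val_eq_one V (hBV s) (fun h => hs (hthrough s h))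
  -- the vertical prime
  haveI h𝔭 : (stbGcVert V hBV).IsPrime := stb_gc_vert_isPrime V hBV
  have h𝔭𝔫 : stbGcVert V hBV ≤ 𝔫 := fun b hb => hthrough b hb
  have hdvrO : ∀ z : F, z ∈ ls_localSubring (F := F) 𝔫 → V.valuation z = 1 →
      ∃ m : ℤ, WhBranch (ls_localSubring (F := F) 𝔫) V (algebraMap B F X) z m := by
    rintro z ⟨b, s, hs, hsz⟩ hz
    have hs0 := hne0 s hs
    have hbV : V.valuation (algebraMap B F b) = 1 := by
      rw [← hsz, map_mul, hvs s hs, hz, one_mul]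
    have hb𝔭 : b ∉ stbGcVert V hBV := by
      intro h
      have h1 : V.valuation (algebraMap B F b) < 1 :=
        (ValuationSubring.mem_nonunits_iff V).1 h
      rw [hbV] at h1
      exact lt_irrefl _ h1
    obtain ⟨m, u, e, hu, he, h⟩ := whc_branch_pow (stbGcVert V hBV) 𝔫 h𝔭𝔫 X hX
      (fun b hb => hgen b hb) hb𝔭
    have hu0 := hne0 u hu
    have he0 := hne0 e he
    have hus : u * s ∉ 𝔫 := fun h' => (h𝔫.mem_or_mem h').elim hu hs
    refine ⟨m, algebraMap B F e / (algebraMap B F u * algebraMap B F s),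
      div_ne_zero he0 (mul_ne_zero hu0 hs0), ⟨e, u * s, hus, ?_⟩, ⟨u * s, e, he, ?_⟩, ?_⟩
    · rw [map_mul]; field_simp
    · rw [map_mul]; field_simp
    · have hz' : z = algebraMap B F b / algebraMap B F s := by
        rw [← hsz]; field_simp
      have e1 : z - algebraMap B F X ^ (m : ℤ) *
          (algebraMap B F e / (algebraMap B F u * algebraMap B F s))
          = (algebraMap B F u * algebraMap B F s)⁻¹ * algebraMap B F (u * b - e * X ^ m) := by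
        rw [hz', zpow_natCast, map_sub, map_mul, map_mul, map_pow]
        field_simp
      rw [e1]
      refine wh_val_mul_lt V ?_ ((ValuationSubring.mem_nonunits_iff V).1 h)
      rw [map_inv₀, map_mul, hvs u hu, hvs s hs, one_mul, inv_one]
  have hfrac : ∀ z : F, V.valuation z = 1 → ∃ a b : F, a ∈ ls_localSubring (F := F) 𝔫 ∧
      b ∈ ls_localSubring (F := F) 𝔫 ∧ V.valuation a = 1 ∧ V.valuation b = 1 ∧ z = a / b := by
    intro z hz
    obtain ⟨b, s, hs, hsz⟩ := hVloc z ((V.valuation_le_one_iff z).1 hz.le)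
    have hs1 : V.valuation (algebraMap B F s) = 1 := stb_gc_val_eq_one V (hBV s) hs
    have hs0 : algebraMap B F s ≠ 0 := wh_val_ne_zero V hs1
    refine ⟨algebraMap B F b, algebraMap B F s, ls_algebraMap_mem 𝔫 b, ls_algebraMap_mem 𝔫 s,
      ?_, hs1, ?_⟩
    · rw [← hsz, map_mul, hs1, hz, one_mul]
    · rw [← hsz]; field_simp
  refine ⟨hle, ls_algebraMap_mem 𝔫 X, ?_, hval, ?_, wh_branch_of_frac hle hval hdvrO hfrac⟩
  · rintro ⟨b, s, hs, hsx⟩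
    apply hs
    have e : algebraMap B F s = algebraMap B F (b * X) := by
      rw [map_mul, ← hsx]; field_simp
    rw [hinj e]
    exact 𝔫.mul_mem_left _ hX
  · rintro y ⟨b, s, hs, hsy⟩ hy
    have hy1 : V.valuation y = 1 := wh_val_of_one V hy
    have hy0 : y ≠ 0 := wh_val_ne_zero V hy1
    have hbs : b - s ∈ 𝔫 := by
      apply hthrough
      rw [ValuationSubring.mem_nonunits_iff]
      have e : algebraMap B F (b - s) = algebraMap B F s * (y - 1) := by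
        rw [map_sub, ← hsy]; ring
      rw [e]
      exact wh_val_mul_lt V (hvs s hs).le hy
    have hb : b ∉ 𝔫 := by
      intro hb
      apply hs
      have : s = b - (b - s) := by ring
      rw [this]
      exact 𝔫.sub_mem hb hbs
    refine ⟨s, b, hb, ?_⟩
    rw [← hsy]; field_simp

end Chart

section CoordNode

variable {A₀ E Lf B : Type*} [CommRing A₀] [IsDomain A₀] [IsDiscreteValuationRing A₀]
  [Field E] [CharZero E] [Algebra A₀ E] [IsFractionRing A₀ E]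
  [Field Lf] [Algebra E Lf] [Algebra A₀ Lf] [IsScalarTower A₀ E Lf]
  [CommRing B] [Algebra B Lf] [Algebra A₀ B] [IsScalarTower A₀ B Lf]

/-- **Coordinate function at a rational point of the tube of a crossing point of finite
thickness.**  `X Y = q′ G`, `G ∉ 𝔫`, `𝔫 = (π, X, Y)` locally: `X` is a unit at every place of the
tube, and `X − X(P)` has a simple zero at `P` and no other zero or pole on the tube. -/
theorem whc_coord_node [IsNoetherianRing B] {π : A₀} (hπ : Irreducible π) (t : Lf)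
    (ht : Transcendental E t) [FiniteDimensional E⟮t⟯ Lf]
    (hinj : Function.Injective (algebraMap B Lf))
    (hB : ∀ x : Lf, x ∈ (algebraMap B Lf).range ↔ IsIntegral (Algebra.adjoin A₀ {t}) x)
    (𝔫 : Ideal B) [𝔫.IsPrime] (hπ𝔫 : algebraMap A₀ B π ∈ 𝔫)
    (X Y G : B) (q' : A₀) (hq' : q' ≠ 0) (hX : X ∈ 𝔫) (hY : Y ∈ 𝔫)
    (hXY : X * Y = algebraMap A₀ B q' * G) (hG : G ∉ 𝔫)
    (hgen : NodesLocGen 𝔫 {algebraMap A₀ B π, X, Y}) :
    (∀ Q : Place E Lf, LsTube B t 𝔫 Q → Q.ord (algebraMap B Lf X) = 0) ∧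
    ∀ P : Place E Lf, UnipTubePoint t 𝔫 P → ∃ f : Lf, f ≠ 0 ∧ P.ord f = 1 ∧
      ∀ Q : Place E Lf, LsTube B t 𝔫 Q → Q ≠ P → Q.ord f = 0 := by
  have hG0 : G ≠ 0 := fun h => hG (by rw [h]; exact 𝔫.zero_mem)
  have hqB : algebraMap A₀ B q' ≠ 0 := by
    intro h
    apply hq'
    have h1 : algebraMap A₀ Lf q' = 0 := by
      rw [IsScalarTower.algebraMap_apply A₀ B Lf, h, map_zero]
    exact unip_algebraMap_injective E (by rw [h1, map_zero])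
  have hqF : algebraMap B Lf (algebraMap A₀ B q') ≠ 0 := fun h =>
    hqB (hinj (by rw [h, map_zero]))
  have hGF : algebraMap B Lf G ≠ 0 := fun h => hG0 (hinj (by rw [h, map_zero]))
  have hXYF : algebraMap B Lf X * algebraMap B Lf Y ≠ 0 := by
    rw [← map_mul, hXY, map_mul]
    exact mul_ne_zero hqF hGF
  have hXF : algebraMap B Lf X ≠ 0 := left_ne_zero_of_mul hXYF
  have hYF : algebraMap B Lf Y ≠ 0 := right_ne_zero_of_mul hXYF
  have htube : ∀ Q : Place E Lf, LsTube B t 𝔫 Q → Q.ord (algebraMap B Lf X) = 0 := by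
    intro Q hQ
    have h1 := unip_ord_chart_nonneg t hB Q hQ.1 X
    have h2 := unip_ord_chart_nonneg t hB Q hQ.1 Y
    have h3 : Q.ord (algebraMap B Lf (X * Y)) = 0 := by
      rw [hXY, map_mul, Place.ord_mul Q hqF hGF,
        unip_ord_eq_zero_of_notMem t hB 𝔫 Q hQ.1 hQ.2 hG, add_zero,
        ← IsScalarTower.algebraMap_apply A₀ B Lf, unip_ord_const]
    rw [map_mul, Place.ord_mul Q hXF hYF] at h3
    omega
  refine ⟨htube, fun P hP => ?_⟩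
  obtain ⟨ev, hev⟩ := unip_exists_tubeEv hπ t hinj hB 𝔫 hπ𝔫 P hP
  have hPtube : LsTube B t 𝔫 P := ⟨hP.ord_nonneg, hP.centre⟩
  -- `a = X(P) ≠ 0`
  have ha : ev X ≠ 0 := by
    intro h0
    have h1 := (unip_tubeEv_eq_zero_iff P ev hev X).1 h0
    rcases (unip_mem_nonunits_iff P _).1 h1 with h2 | h2
    · exact hXF h2
    · rw [htube P hPtube] at h2
      exact lt_irrefl _ h2
  -- `G(P)` is a unit
  have hGu : IsUnit (ev G) := by
    by_contra hnu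
    have h1 : ev G ∈ IsLocalRing.maximalIdeal A₀ := (IsLocalRing.mem_maximalIdeal _).2 hnu
    rw [hπ.maximalIdeal_eq, Ideal.mem_span_singleton] at h1
    obtain ⟨c, hc⟩ := h1
    apply hG
    have h2 : G - algebraMap A₀ B (ev G) ∈ 𝔫 := by
      apply unip_tubeEv_ker hinj hP ev hev
      rw [map_sub, AlgHom.commutes, Algebra.algebraMap_self_apply, sub_self]
    have h3 : algebraMap A₀ B (ev G) ∈ 𝔫 := by
      rw [hc, map_mul]
      exact 𝔫.mul_mem_right _ hπ𝔫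
    have : G = (G - algebraMap A₀ B (ev G)) + algebraMap A₀ B (ev G) := by ring
    rw [this]
    exact 𝔫.add_mem h2 h3
  obtain ⟨g', hg'⟩ := hGu.exists_right_inv
  obtain ⟨y', hy'⟩ := unip_tubeEv_dvd hπ hinj hP ev hev Y hY
  have hevXY : ev X * ev Y = q' * ev G := by
    rw [← map_mul, hXY, map_mul, AlgHom.commutes, Algebra.algebraMap_self_apply]
  have hq : q' = ev X * (π * (y' * g')) := by
    have : q' = q' * (ev G * g') := by rw [hg', mul_one]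
    rw [this, ← mul_assoc, ← hevXY, hy']
    ring
  have hd := unip_dense_of_tubePoint hπ t hinj hB 𝔫 hπ𝔫 P hP {X, Y}
    (fun x hx => by
      rcases hx with rfl | rfl
      · exact hX
      · exact hY) hgen
  obtain ⟨h1, h2⟩ := unip_tubeOrd_node hπ t ht hinj hB 𝔫 hπ𝔫 X Y G q' (ev X) (π * (y' * g')) hq
    (Dvd.intro _ rfl) ha hXY hd P hP (hev X)
  refine ⟨algebraMap B Lf X - algebraMap A₀ Lf (ev X), ?_, h1,
    fun Q hQ hQP => h2 Q hQ.1 hQ.2 hQP⟩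
  intro h0
  rw [h0, Place.ord_zero] at h1
  exact zero_ne_one h1

end CoordNode

section NodeAT

variable {A₀ E F : Type*} [CommRing A₀] [IsDomain A₀] [IsDiscreteValuationRing A₀]
  [Field E] [Algebra A₀ E] [IsFractionRing A₀ E] [CharZero E]
  [Field F] [Algebra E F] [Algebra A₀ F] [IsScalarTower A₀ E F]
  {π : A₀} {κ : Type*}

/-- **(H) at a crossing point of finite thickness**, chart `B_u = zchClosure {u}`.
`c₂` the branch used (`V c₂` goes through `𝔫`), `c₁` the other one; `X ∈ 𝔫`, `X ∉ 𝔪(V c₂)`,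
`Y ∈ 𝔪(V c₂)`, `X Y = q′ G` with `q′ ∈ A₀ ∖ {0}`, `G ∉ 𝔫`, `𝔫 = (π, X, Y)` locally.
`y ≠ 0` with `p ∣ ord_P y` on the tube of `𝔫`, the points of the tube in the support of `y`
rational, `y = c · h ^ p · (1 + z)` with `c ∈ (B_u)_𝔫^×`, `z ∈ 𝔪(V c₂)`.
Then `y = ε · γ ^ p` with `ε ∈ (B_u)_𝔫^×`. -/
theorem whc_node_factor (hπ : Irreducible π) {u : F} (hu : Transcendental E u)
    [FiniteDimensional E⟮u⟯ F] [Finite κ]
    [IsNoetherianRing ↥(zchClosure (A₀ := A₀) ({u} : Set F))]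
    (V : κ → ValuationSubring F)
    (hBV : ∀ c (b : F), IsIntegral ↥(Algebra.adjoin A₀ {u}) b → b ∈ V c)
    (hπV : ∀ c, algebraMap A₀ F π ∈ (V c).nonunits)
    (hSS1 : ∀ b : F, IsIntegral ↥(Algebra.adjoin A₀ {u}) b → (∀ c, b ∈ (V c).nonunits) →
      ∃ b' : F, IsIntegral ↥(Algebra.adjoin A₀ {u}) b' ∧ b = algebraMap A₀ F π * b')
    (hVloc : ∀ c (x : F), x ∈ V c → ∃ b s : F, IsIntegral ↥(Algebra.adjoin A₀ {u}) b ∧
      IsIntegral ↥(Algebra.adjoin A₀ {u}) s ∧ s ∉ (V c).nonunits ∧ s * x = b)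
    (hne : ∀ c c', c ≠ c' → V c ≠ V c')
    (harch : ∀ c (a x : F), a ∈ (V c).nonunits → ∃ N : ℕ, a ^ N * x ∈ (V c).nonunits)
    (𝔫 : Ideal ↥(zchClosure (A₀ := A₀) ({u} : Set F))) [𝔫.IsPrime]
    (hπ𝔫 : algebraMap A₀ ↥(zchClosure (A₀ := A₀) ({u} : Set F)) π ∈ 𝔫)
    (c₁ c₂ : κ)
    (hthr : ∀ c, (∀ b : ↥(zchClosure (A₀ := A₀) ({u} : Set F)),
      (b : F) ∈ (V c).nonunits → b ∈ 𝔫) → c = c₁ ∨ c = c₂)
    (h₂ : ∀ b : ↥(zchClosure (A₀ := A₀) ({u} : Set F)), (b : F) ∈ (V c₂).nonunits → b ∈ 𝔫)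
    (X Y G : ↥(zchClosure (A₀ := A₀) ({u} : Set F))) (q' : A₀) (hq' : q' ≠ 0)
    (hX : X ∈ 𝔫) (hX₂ : (X : F) ∉ (V c₂).nonunits) (hY₂ : (Y : F) ∈ (V c₂).nonunits)
    (hXY : X * Y = algebraMap A₀ ↥(zchClosure (A₀ := A₀) ({u} : Set F)) q' * G) (hG : G ∉ 𝔫)
    (hgen : NodesLocGen 𝔫 {algebraMap A₀ ↥(zchClosure (A₀ := A₀) ({u} : Set F)) π, X, Y})
    {y : F} (hy : y ≠ 0) (p : ℕ)
    (hfin : {P : Place E F | LsTube ↥(zchClosure (A₀ := A₀) ({u} : Set F)) u 𝔫 P ∧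
      P.ord y ≠ 0}.Finite)
    (hm : ∀ P : Place E F, LsTube ↥(zchClosure (A₀ := A₀) ({u} : Set F)) u 𝔫 P →
      (p : ℤ) ∣ P.ord y)
    (hrat : ∀ P : Place E F, LsTube ↥(zchClosure (A₀ := A₀) ({u} : Set F)) u 𝔫 P →
      P.ord y ≠ 0 → ∀ f ∈ P.toValuationSubring,
        ∃ c : E, f - algebraMap E F c ∈ P.toValuationSubring.nonunits)
    (hsplit : ∃ c h : F, c ≠ 0 ∧ c ∈ ls_localSubring (F := F) 𝔫 ∧
      c⁻¹ ∈ ls_localSubring (F := F) 𝔫 ∧ h ≠ 0 ∧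
      (V c₂).valuation (y / (c * h ^ p) - 1) < 1) :
    ∃ γ ε : F, γ ≠ 0 ∧ ε ∈ ls_localSubring (F := F) 𝔫 ∧ ε⁻¹ ∈ ls_localSubring (F := F) 𝔫 ∧
      y = ε * γ ^ p := by
  classical
  haveI : Fintype κ := Fintype.ofFinite κ
  have hinj : Function.Injective (algebraMap ↥(zchClosure (A₀ := A₀) ({u} : Set F)) F) :=
    Subtype.val_injective
  have hB := unip_chart_range (A₀ := A₀) u
  have hπ0 : algebraMap A₀ F π ≠ 0 := unip_algebraMap_irreducible_ne_zero E hπ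
  have hY : Y ∈ 𝔫 := h₂ Y hY₂
  have hBV' : ∀ c (b : ↥(zchClosure (A₀ := A₀) ({u} : Set F))),
      algebraMap ↥(zchClosure (A₀ := A₀) ({u} : Set F)) F b ∈ V c :=
    fun c b => hBV c _ (mem_zchClosure.mp b.2)
  -- the tube
  set T := {P : Place E F // LsTube ↥(zchClosure (A₀ := A₀) ({u} : Set F)) u 𝔫 P} with hT
  have hmul : ∀ (P : T) (x z : F), x ≠ 0 → z ≠ 0 →
      P.1.ord (x * z) = P.1.ord x + P.1.ord z := fun P x z hx hz => Place.ord_mul P.1 hx hz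
  -- coordinates
  obtain ⟨hXtube, hcoordP⟩ := whc_coord_node hπ u hu hinj hB 𝔫 hπ𝔫 X Y G q' hq' hX hY hXY hG
    hgen
  have hXF : (X : F) ≠ 0 := by
    intro h
    apply hX₂
    rw [h]
    exact (V c₂).nonunits.zero_mem
  -- normality
  set ϖ : ↥(zchClosure (A₀ := A₀) ({u} : Set F)) :=
    algebraMap A₀ ↥(zchClosure (A₀ := A₀) ({u} : Set F)) π with hϖdef
  have hϖ : algebraMap ↥(zchClosure (A₀ := A₀) ({u} : Set F)) F ϖ = algebraMap A₀ F π := rfl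
  set vert : Finset (Ideal ↥(zchClosure (A₀ := A₀) ({u} : Set F))) :=
    Finset.univ.image (fun c : κ => crossingIdeal (A₀ := A₀) {u} (V c) (hBV c)) with hvert
  have hvert_mem : ∀ 𝔭 ∈ vert, ∃ c : κ, 𝔭 = crossingIdeal (A₀ := A₀) {u} (V c) (hBV c) := by
    intro 𝔭 h𝔭
    obtain ⟨c, -, hc⟩ := Finset.mem_image.mp h𝔭
    exact ⟨c, hc.symm⟩
  have hprime : ∀ 𝔭 ∈ vert, 𝔭.IsPrime := by
    intro 𝔭 h𝔭
    obtain ⟨c, rfl⟩ := hvert_mem 𝔭 h𝔭
    exact at_crossingIdeal_isPrime (V c) (hBV c)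
  have hϖv : ∀ 𝔭 ∈ vert, ϖ ∈ 𝔭 := by
    intro 𝔭 h𝔭
    obtain ⟨c, rfl⟩ := hvert_mem 𝔭 h𝔭
    exact hπV c
  have hSS1' : ∀ b : ↥(zchClosure (A₀ := A₀) ({u} : Set F)), (∀ 𝔭 ∈ vert, b ∈ 𝔭) → ϖ ∣ b := by
    intro b hb
    obtain ⟨b', hb', hbb'⟩ := hSS1 (b : F) (mem_zchClosure.mp b.2) (fun c =>
      hb _ (Finset.mem_image.mpr ⟨c, Finset.mem_univ c, rfl⟩))
    exact ⟨⟨b', mem_zchClosure.mpr hb'⟩, Subtype.ext hbb'⟩
  have hN : ∀ z : F, z ≠ 0 → (∀ P : T, 0 ≤ P.1.ord z) → z ∈ V c₁ → z ∈ V c₂ →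
      z ∈ ls_localSubring (F := F) 𝔫 := by
    intro z hz0 hzT hz₁ hz₂
    obtain ⟨s, hs, b, hb⟩ := unip_unitCrit_mem hπ u hu hinj hB ϖ hϖ 𝔫 vert hprime hϖv hSS1' z
      (fun P hP hc => hzT ⟨P, hP, hc⟩)
      (fun 𝔭 h𝔭 hle => by
        obtain ⟨c, rfl⟩ := hvert_mem 𝔭 h𝔭
        have hzc : z ∈ V c := by
          rcases hthr c (fun b hb => hle hb) with h | h
          · rw [h]; exact hz₁
          · rw [h]; exact hz₂
        obtain ⟨b, d, hb, hd, hdV, hdz⟩ := hVloc c z hzc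
        exact ⟨⟨d, mem_zchClosure.mpr hd⟩, hdV, ⟨b, mem_zchClosure.mpr hb⟩, hdz.symm⟩)
    exact ⟨b, s, hs, hb.symm⟩
  -- `π` is a uniformizer of `V c₂`
  have hπunif := stb_sp_hunif (A₀ := A₀) hπ0 V hBV hπV hSS1 hVloc hne harch c₂
  have hπtube : WhTubeUnit (fun (P : T) x => P.1.ord x) (algebraMap A₀ F π) :=
    ⟨hπ0, fun P => unip_ord_const P.1 π⟩
  -- the winding generator
  have hW : WhWinding (ls_localSubring (F := F) 𝔫) (V c₂) (X : F) := by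
    refine whc_winding hinj 𝔫 (V c₂) (hBV' c₂) h₂ ?_ X hX hX₂ ?_
    · intro x hx
      obtain ⟨b, d, hb, hd, hdV, hdx⟩ := hVloc c₂ x hx
      exact ⟨⟨b, mem_zchClosure.mpr hb⟩, ⟨d, mem_zchClosure.mpr hd⟩, hdV, hdx⟩
    · exact stb_gc_gen_node' 𝔫 (V c₂) (hBV' c₂) hgen (hπV c₂) hY₂
  have hXtubeU : WhTubeUnit (fun (P : T) x => P.1.ord x) (X : F) :=
    ⟨hXF, fun P => hXtube P.1 P.2⟩
  -- finiteness of the support on the tube
  have hfinT : {P : T | P.1.ord y ≠ 0}.Finite := by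
    refine Set.Finite.of_finite_image (f := Subtype.val) (hfin.subset ?_)
      Subtype.val_injective.injOn
    rintro _ ⟨P, hP, rfl⟩
    exact ⟨P.2, hP⟩
  obtain ⟨γ, ε, hγ, -, hε, hε', h⟩ := wh_node_of_winding (fun (P : T) x => P.1.ord x) hmul
    (ls_localSubring (F := F) 𝔫) (V c₁) (V c₂) hN hπtube hπunif hW hXtubeU hy p hfinT
    (fun P => hm P.1 P.2)
    (fun P hP => by
      obtain ⟨f, hf0, hf1, hf⟩ := hcoordP P.1 ⟨P.2.1, P.2.2, hrat P.1 P.2 hP⟩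
      exact ⟨f, hf0, hf1, fun Q hQ => hf Q.1 Q.2 fun h => hQ (Subtype.ext h)⟩)
    hsplit
  exact ⟨γ, ε, hγ, hε, hε', h⟩

/-- `whc_node_factor` for `y ≡ 1` at `V c₂` (normal form (N)). -/
theorem whc_node_factor_one (hπ : Irreducible π) {u : F} (hu : Transcendental E u)
    [FiniteDimensional E⟮u⟯ F] [Finite κ]
    [IsNoetherianRing ↥(zchClosure (A₀ := A₀) ({u} : Set F))]
    (V : κ → ValuationSubring F)
    (hBV : ∀ c (b : F), IsIntegral ↥(Algebra.adjoin A₀ {u}) b → b ∈ V c)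
    (hπV : ∀ c, algebraMap A₀ F π ∈ (V c).nonunits)
    (hSS1 : ∀ b : F, IsIntegral ↥(Algebra.adjoin A₀ {u}) b → (∀ c, b ∈ (V c).nonunits) →
      ∃ b' : F, IsIntegral ↥(Algebra.adjoin A₀ {u}) b' ∧ b = algebraMap A₀ F π * b')
    (hVloc : ∀ c (x : F), x ∈ V c → ∃ b s : F, IsIntegral ↥(Algebra.adjoin A₀ {u}) b ∧
      IsIntegral ↥(Algebra.adjoin A₀ {u}) s ∧ s ∉ (V c).nonunits ∧ s * x = b)
    (hne : ∀ c c', c ≠ c' → V c ≠ V c')
    (harch : ∀ c (a x : F), a ∈ (V c).nonunits → ∃ N : ℕ, a ^ N * x ∈ (V c).nonunits)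
    (𝔫 : Ideal ↥(zchClosure (A₀ := A₀) ({u} : Set F))) [𝔫.IsPrime]
    (hπ𝔫 : algebraMap A₀ ↥(zchClosure (A₀ := A₀) ({u} : Set F)) π ∈ 𝔫)
    (c₁ c₂ : κ)
    (hthr : ∀ c, (∀ b : ↥(zchClosure (A₀ := A₀) ({u} : Set F)),
      (b : F) ∈ (V c).nonunits → b ∈ 𝔫) → c = c₁ ∨ c = c₂)
    (h₂ : ∀ b : ↥(zchClosure (A₀ := A₀) ({u} : Set F)), (b : F) ∈ (V c₂).nonunits → b ∈ 𝔫)
    (X Y G : ↥(zchClosure (A₀ := A₀) ({u} : Set F))) (q' : A₀) (hq' : q' ≠ 0)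
    (hX : X ∈ 𝔫) (hX₂ : (X : F) ∉ (V c₂).nonunits) (hY₂ : (Y : F) ∈ (V c₂).nonunits)
    (hXY : X * Y = algebraMap A₀ ↥(zchClosure (A₀ := A₀) ({u} : Set F)) q' * G) (hG : G ∉ 𝔫)
    (hgen : NodesLocGen 𝔫 {algebraMap A₀ ↥(zchClosure (A₀ := A₀) ({u} : Set F)) π, X, Y})
    {y : F} (p : ℕ)
    (hfin : {P : Place E F | LsTube ↥(zchClosure (A₀ := A₀) ({u} : Set F)) u 𝔫 P ∧
      P.ord y ≠ 0}.Finite)
    (hm : ∀ P : Place E F, LsTube ↥(zchClosure (A₀ := A₀) ({u} : Set F)) u 𝔫 P →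
      (p : ℤ) ∣ P.ord y)
    (hrat : ∀ P : Place E F, LsTube ↥(zchClosure (A₀ := A₀) ({u} : Set F)) u 𝔫 P →
      P.ord y ≠ 0 → ∀ f ∈ P.toValuationSubring,
        ∃ c : E, f - algebraMap E F c ∈ P.toValuationSubring.nonunits)
    (hone : (V c₂).valuation (y - 1) < 1) :
    ∃ γ ε : F, γ ≠ 0 ∧ ε ∈ ls_localSubring (F := F) 𝔫 ∧ ε⁻¹ ∈ ls_localSubring (F := F) 𝔫 ∧
      y = ε * γ ^ p := by
  have hy1 : (V c₂).valuation y = 1 := wh_val_of_one (V c₂) hone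
  refine whc_node_factor hπ hu V hBV hπV hSS1 hVloc hne harch 𝔫 hπ𝔫 c₁ c₂ hthr h₂ X Y G q' hq'
    hX hX₂ hY₂ hXY hG hgen (wh_val_ne_zero (V c₂) hy1) p hfin hm hrat
    ⟨1, 1, one_ne_zero, Subring.one_mem _, by rw [inv_one]; exact Subring.one_mem _,
      one_ne_zero, by rw [one_pow, mul_one, div_one]; exact hone⟩

/-- **(H) at a crossing point**, in the form `StbFacAt (atLoc 𝔫) p y` (closed point `𝔫` of the
chart `u`). -/
theorem whc_node_facAt (hπ : Irreducible π) {u : F} (hu : Transcendental E u)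
    [FiniteDimensional E⟮u⟯ F] [Finite κ]
    [IsNoetherianRing ↥(zchClosure (A₀ := A₀) ({u} : Set F))]
    (V : κ → ValuationSubring F)
    (hBV : ∀ c (b : F), IsIntegral ↥(Algebra.adjoin A₀ {u}) b → b ∈ V c)
    (hπV : ∀ c, algebraMap A₀ F π ∈ (V c).nonunits)
    (hSS1 : ∀ b : F, IsIntegral ↥(Algebra.adjoin A₀ {u}) b → (∀ c, b ∈ (V c).nonunits) →
      ∃ b' : F, IsIntegral ↥(Algebra.adjoin A₀ {u}) b' ∧ b = algebraMap A₀ F π * b')
    (hVloc : ∀ c (x : F), x ∈ V c → ∃ b s : F, IsIntegral ↥(Algebra.adjoin A₀ {u}) b ∧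
      IsIntegral ↥(Algebra.adjoin A₀ {u}) s ∧ s ∉ (V c).nonunits ∧ s * x = b)
    (hne : ∀ c c', c ≠ c' → V c ≠ V c')
    (harch : ∀ c (a x : F), a ∈ (V c).nonunits → ∃ N : ℕ, a ^ N * x ∈ (V c).nonunits)
    (𝔫 : AtPt (F := F) π u) (c₁ c₂ : κ)
    (hthr : ∀ c, atThrough 𝔫 (V c) → c = c₁ ∨ c = c₂) (h₂ : atThrough 𝔫 (V c₂))
    (X Y G : ↥(zchClosure (A₀ := A₀) ({u} : Set F))) (q' : A₀) (hq' : q' ≠ 0)
    (hX : X ∈ 𝔫.1) (hX₂ : (X : F) ∉ (V c₂).nonunits) (hY₂ : (Y : F) ∈ (V c₂).nonunits)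
    (hXY : X * Y = algebraMap A₀ ↥(zchClosure (A₀ := A₀) ({u} : Set F)) q' * G)
    (hG : G ∉ 𝔫.1)
    (hgen : NodesLocGen 𝔫.1 {algebraMap A₀ ↥(zchClosure (A₀ := A₀) ({u} : Set F)) π, X, Y})
    {y : F} (hy : y ≠ 0) (p : ℕ)
    (hfin : {P : Place E F | LsTube ↥(zchClosure (A₀ := A₀) ({u} : Set F)) u 𝔫.1 P ∧
      P.ord y ≠ 0}.Finite)
    (hm : ∀ P : Place E F, LsTube ↥(zchClosure (A₀ := A₀) ({u} : Set F)) u 𝔫.1 P →
      (p : ℤ) ∣ P.ord y)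
    (hrat : ∀ P : Place E F, LsTube ↥(zchClosure (A₀ := A₀) ({u} : Set F)) u 𝔫.1 P →
      P.ord y ≠ 0 → ∀ f ∈ P.toValuationSubring,
        ∃ c : E, f - algebraMap E F c ∈ P.toValuationSubring.nonunits)
    (hsplit : ∃ c h : F, c ≠ 0 ∧ c ∈ atLoc 𝔫 ∧ c⁻¹ ∈ atLoc 𝔫 ∧ h ≠ 0 ∧
      (V c₂).valuation (y / (c * h ^ p) - 1) < 1) :
    StbFacAt (atLoc 𝔫) p y := by
  haveI := 𝔫.2.1.isPrime
  obtain ⟨γ, ε, -, hε, hε', h⟩ := whc_node_factor hπ hu V hBV hπV hSS1 hVloc hne harch 𝔫.1 𝔫.2.2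
    c₁ c₂ hthr h₂ X Y G q' hq' hX hX₂ hY₂ hXY hG hgen hy p hfin hm hrat hsplit
  exact stb_facAt_of_mem _ hy hε hε' h

end NodeAT

section NodeATO

variable {A₀ E F : Type*} [CommRing A₀] [IsDomain A₀] [IsDiscreteValuationRing A₀]
  [Field E] [Algebra A₀ E] [IsFractionRing A₀ E] [CharZero E]
  [Field F] [Algebra E F] [Algebra A₀ F] [IsScalarTower A₀ E F]
  {π : A₀} {κ : Type*}

/-- `whc_node_facAt` for a crossing point of the chart `t`, as a point of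
`AtPt π t ⊕ AtPt π t⁻¹`. -/
theorem whc_node_facAt_inl (hπ : Irreducible π) {t : F} (ht : Transcendental E t)
    [FiniteDimensional E⟮t⟯ F] [Finite κ]
    [IsNoetherianRing ↥(zchClosure (A₀ := A₀) ({t} : Set F))]
    (V : κ → ValuationSubring F)
    (hBV : ∀ c (b : F), IsIntegral ↥(Algebra.adjoin A₀ {t}) b → b ∈ V c)
    (hπV : ∀ c, algebraMap A₀ F π ∈ (V c).nonunits)
    (hSS1 : ∀ b : F, IsIntegral ↥(Algebra.adjoin A₀ {t}) b → (∀ c, b ∈ (V c).nonunits) →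
      ∃ b' : F, IsIntegral ↥(Algebra.adjoin A₀ {t}) b' ∧ b = algebraMap A₀ F π * b')
    (hVloc : ∀ c (x : F), x ∈ V c → ∃ b s : F, IsIntegral ↥(Algebra.adjoin A₀ {t}) b ∧
      IsIntegral ↥(Algebra.adjoin A₀ {t}) s ∧ s ∉ (V c).nonunits ∧ s * x = b)
    (hne : ∀ c c', c ≠ c' → V c ≠ V c')
    (harch : ∀ c (a x : F), a ∈ (V c).nonunits → ∃ N : ℕ, a ^ N * x ∈ (V c).nonunits)
    (𝔫 : AtPt (F := F) π t) (c₁ c₂ : κ)
    (hthr : ∀ c, atInc π t V (Sum.inl 𝔫) c → c = c₁ ∨ c = c₂)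
    (h₂ : atInc π t V (Sum.inl 𝔫) c₂)
    (X Y G : ↥(zchClosure (A₀ := A₀) ({t} : Set F))) (q' : A₀) (hq' : q' ≠ 0)
    (hX : X ∈ 𝔫.1) (hX₂ : (X : F) ∉ (V c₂).nonunits) (hY₂ : (Y : F) ∈ (V c₂).nonunits)
    (hXY : X * Y = algebraMap A₀ ↥(zchClosure (A₀ := A₀) ({t} : Set F)) q' * G)
    (hG : G ∉ 𝔫.1)
    (hgen : NodesLocGen 𝔫.1 {algebraMap A₀ ↥(zchClosure (A₀ := A₀) ({t} : Set F)) π, X, Y})
    {y : F} (hy : y ≠ 0) (p : ℕ)
    (hfin : {P : Place E F | LsTube ↥(zchClosure (A₀ := A₀) ({t} : Set F)) t 𝔫.1 P ∧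
      P.ord y ≠ 0}.Finite)
    (hm : ∀ P : Place E F, LsTube ↥(zchClosure (A₀ := A₀) ({t} : Set F)) t 𝔫.1 P →
      (p : ℤ) ∣ P.ord y)
    (hrat : ∀ P : Place E F, LsTube ↥(zchClosure (A₀ := A₀) ({t} : Set F)) t 𝔫.1 P →
      P.ord y ≠ 0 → ∀ f ∈ P.toValuationSubring,
        ∃ c : E, f - algebraMap E F c ∈ P.toValuationSubring.nonunits)
    (hsplit : ∃ c h : F, c ≠ 0 ∧ c ∈ atO π t (Sum.inl 𝔫) ∧ c⁻¹ ∈ atO π t (Sum.inl 𝔫) ∧ h ≠ 0 ∧
      (V c₂).valuation (y / (c * h ^ p) - 1) < 1) :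
    StbFacAt (atO π t (Sum.inl 𝔫)) p y :=
  whc_node_facAt hπ ht V hBV hπV hSS1 hVloc hne harch 𝔫 c₁ c₂ hthr h₂ X Y G q' hq' hX hX₂ hY₂
    hXY hG hgen hy p hfin hm hrat hsplit

/-- `whc_node_facAt` for a crossing point of the chart `t⁻¹`, as a point of
`AtPt π t ⊕ AtPt π t⁻¹`. -/
theorem whc_node_facAt_inr (hπ : Irreducible π) {t : F} (ht' : Transcendental E t⁻¹)
    [FiniteDimensional E⟮t⁻¹⟯ F] [Finite κ]
    [IsNoetherianRing ↥(zchClosure (A₀ := A₀) ({t⁻¹} : Set F))]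
    (V : κ → ValuationSubring F)
    (hBV : ∀ c (b : F), IsIntegral ↥(Algebra.adjoin A₀ {t⁻¹}) b → b ∈ V c)
    (hπV : ∀ c, algebraMap A₀ F π ∈ (V c).nonunits)
    (hSS1 : ∀ b : F, IsIntegral ↥(Algebra.adjoin A₀ {t⁻¹}) b → (∀ c, b ∈ (V c).nonunits) →
      ∃ b' : F, IsIntegral ↥(Algebra.adjoin A₀ {t⁻¹}) b' ∧ b = algebraMap A₀ F π * b')
    (hVloc : ∀ c (x : F), x ∈ V c → ∃ b s : F, IsIntegral ↥(Algebra.adjoin A₀ {t⁻¹}) b ∧
      IsIntegral ↥(Algebra.adjoin A₀ {t⁻¹}) s ∧ s ∉ (V c).nonunits ∧ s * x = b)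
    (hne : ∀ c c', c ≠ c' → V c ≠ V c')
    (harch : ∀ c (a x : F), a ∈ (V c).nonunits → ∃ N : ℕ, a ^ N * x ∈ (V c).nonunits)
    (𝔫 : AtPt (F := F) π t⁻¹) (c₁ c₂ : κ)
    (hthr : ∀ c, atInc π t V (Sum.inr 𝔫) c → c = c₁ ∨ c = c₂)
    (h₂ : atInc π t V (Sum.inr 𝔫) c₂)
    (X Y G : ↥(zchClosure (A₀ := A₀) ({t⁻¹} : Set F))) (q' : A₀) (hq' : q' ≠ 0)
    (hX : X ∈ 𝔫.1) (hX₂ : (X : F) ∉ (V c₂).nonunits) (hY₂ : (Y : F) ∈ (V c₂).nonunits)
    (hXY : X * Y = algebraMap A₀ ↥(zchClosure (A₀ := A₀) ({t⁻¹} : Set F)) q' * G)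
    (hG : G ∉ 𝔫.1)
    (hgen : NodesLocGen 𝔫.1 {algebraMap A₀ ↥(zchClosure (A₀ := A₀) ({t⁻¹} : Set F)) π, X, Y})
    {y : F} (hy : y ≠ 0) (p : ℕ)
    (hfin : {P : Place E F | LsTube ↥(zchClosure (A₀ := A₀) ({t⁻¹} : Set F)) t⁻¹ 𝔫.1 P ∧
      P.ord y ≠ 0}.Finite)
    (hm : ∀ P : Place E F, LsTube ↥(zchClosure (A₀ := A₀) ({t⁻¹} : Set F)) t⁻¹ 𝔫.1 P →
      (p : ℤ) ∣ P.ord y)
    (hrat : ∀ P : Place E F, LsTube ↥(zchClosure (A₀ := A₀) ({t⁻¹} : Set F)) t⁻¹ 𝔫.1 P →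
      P.ord y ≠ 0 → ∀ f ∈ P.toValuationSubring,
        ∃ c : E, f - algebraMap E F c ∈ P.toValuationSubring.nonunits)
    (hsplit : ∃ c h : F, c ≠ 0 ∧ c ∈ atO π t (Sum.inr 𝔫) ∧ c⁻¹ ∈ atO π t (Sum.inr 𝔫) ∧ h ≠ 0 ∧
      (V c₂).valuation (y / (c * h ^ p) - 1) < 1) :
    StbFacAt (atO π t (Sum.inr 𝔫)) p y :=
  whc_node_facAt hπ ht' V hBV hπV hSS1 hVloc hne harch 𝔫 c₁ c₂ hthr h₂ X Y G q' hq' hX hX₂ hY₂
    hXY hG hgen hy p hfin hm hrat hsplit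

end NodeATO

end Fermat.Agent.S33


end ZBSTB_003_6

/-! ### bundled: `Fermat.Agent.STB.CrossFac` -/
section ZBSTB_003_7

/-!
# STB-L, part 2 — (F) at a point fixed by `g`, in the form `StbFacAt` of STB-T, from U5's data

`stb_cross_facAt` : `StbFacAt (atLoc 𝔫) m (g • x / x)` at a closed point `𝔫` of the chart `u`
(ramified base) fixed by `g` (crossing points for `g = Φ`), directly from the dichotomy of U5 on
the unramified chart `R` (`MgcRamified`), `at_local_factor` and `unip_hcoord_of_nodes`.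
`stb_cross_facAt_inl`, `stb_cross_facAt_inr` : the same for `atO π t i`.
-/

set_option autoImplicit false
set_option linter.style.haveILetI false
set_option linter.unusedSectionVars false
set_option linter.unusedVariables false

namespace Fermat.Agent.STB

open Polynomial IntermediateField Fermat.Agent.INJ AlgebraicCurve Fermat.Agent.UNIP

section CrossFac

variable {A₀ E F : Type*} [CommRing A₀] [IsDomain A₀] [IsDiscreteValuationRing A₀]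
  [Field E] [Algebra A₀ E] [IsFractionRing A₀ E] [CharZero E]
  [Field F] [Algebra E F] [Algebra A₀ F] [IsScalarTower A₀ E F]
  {π : A₀} {κ : Type*}

/-- `g • x / x ≠ 0` -/
theorem stb_smul_div_ne_zero (g : SemilinearAut E F) {x : F} (hx : x ≠ 0) : g • x / x ≠ 0 := by
  refine div_ne_zero (fun h0 => hx ?_) hx
  have := congrArg (fun y => g⁻¹ • y) h0
  simpa using this

/-- **STB-L, (F) at a closed point of the chart `u` fixed by `g`**, in the form `StbFacAt`. -/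
theorem stb_cross_facAt (hπ : Irreducible π) {u : F} (hu : Transcendental E u)
    [FiniteDimensional E⟮u⟯ F] [Finite κ]
    [IsNoetherianRing ↥(zchClosure (A₀ := A₀) ({u} : Set F))]
    (V : κ → ValuationSubring F)
    (hBV : ∀ c (b : F), IsIntegral ↥(Algebra.adjoin A₀ {u}) b → b ∈ V c)
    (hπV : ∀ c, algebraMap A₀ F π ∈ (V c).nonunits)
    (hSS1 : ∀ b : F, IsIntegral ↥(Algebra.adjoin A₀ {u}) b → (∀ c, b ∈ (V c).nonunits) →
      ∃ b' : F, IsIntegral ↥(Algebra.adjoin A₀ {u}) b' ∧ b = algebraMap A₀ F π * b')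
    (hVloc : ∀ c (x : F), x ∈ V c → ∃ b s : F, IsIntegral ↥(Algebra.adjoin A₀ {u}) b ∧
      IsIntegral ↥(Algebra.adjoin A₀ {u}) s ∧ s ∉ (V c).nonunits ∧ s * x = b)
    (g : SemilinearAut E F) (hgu : g • u = u)
    (𝔫 : AtPt (F := F) π u)
    (hgB : ∀ b : ↥(zchClosure (A₀ := A₀) ({u} : Set F)), b ∈ 𝔫.1 →
      ∃ b' : ↥(zchClosure (A₀ := A₀) ({u} : Set F)), b' ∈ 𝔫.1 ∧ g • (b : F) = b')
    (hgB' : ∀ b : ↥(zchClosure (A₀ := A₀) ({u} : Set F)), b ∈ 𝔫.1 →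
      ∃ b' : ↥(zchClosure (A₀ := A₀) ({u} : Set F)), b' ∈ 𝔫.1 ∧ g⁻¹ • (b : F) = b')
    (hgB₀ : ∀ b : F, IsIntegral ↥(Algebra.adjoin A₀ {u}) b →
      IsIntegral ↥(Algebra.adjoin A₀ {u}) (g • b))
    (hgB₀' : ∀ b : F, IsIntegral ↥(Algebra.adjoin A₀ {u}) b →
      IsIntegral ↥(Algebra.adjoin A₀ {u}) (g⁻¹ • b))
    (hgV : ∀ c (f : F), f ≠ 0 → (V c).valuation (g • f / f) = 1)
    (hgA : ∀ α : A₀, ∃ α' : A₀, g • algebraMap A₀ F α = algebraMap A₀ F α')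
    (q : A₀) (hq0 : q ≠ 0) (hqπ : π ∣ q) (hgq : g • algebraMap A₀ F q = algebraMap A₀ F q)
    {R : Type*} [CommRing R] (j : R →+* ↥(zchClosure (A₀ := A₀) ({u} : Set F))) (p : R)
    (hram : MgcRamified j (algebraMap A₀ ↥(zchClosure (A₀ := A₀) ({u} : Set F)) π) p)
    (hjp : j p = algebraMap A₀ ↥(zchClosure (A₀ := A₀) ({u} : Set F)) q)
    (c₁ c₂ : κ) (hκ : ∀ c, c = c₁ ∨ c = c₂)
    (hnode : (∃ s : R, j s ∈ 𝔫.1 ∧ NodesLocGen (𝔫.1.comap j) {p, s}) ∨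
      ((∀ x : R, ((j x : ↥(zchClosure (A₀ := A₀) ({u} : Set F))) : F) ∈ (V c₁).nonunits →
          j x ∈ 𝔫.1) ∧
       (∀ x : R, ((j x : ↥(zchClosure (A₀ := A₀) ({u} : Set F))) : F) ∈ (V c₂).nonunits →
          j x ∈ 𝔫.1) ∧
       ∃ X Y : R, ((j X : ↥(zchClosure (A₀ := A₀) ({u} : Set F))) : F) ∈ (V c₁).nonunits ∧
         ((j Y : ↥(zchClosure (A₀ := A₀) ({u} : Set F))) : F) ∈ (V c₂).nonunits ∧
         NodesLocGen (𝔫.1.comap j) {p, X, Y}))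
    {x : F} (hx : x ≠ 0) (m : ℕ)
    (hfin : {P : Place E F | LsTube ↥(zchClosure (A₀ := A₀) ({u} : Set F)) u 𝔫.1 P ∧
      g • P ≠ P ∧ P.ord x ≠ 0}.Finite)
    (hm : ∀ P : Place E F, LsTube ↥(zchClosure (A₀ := A₀) ({u} : Set F)) u 𝔫.1 P → g • P ≠ P →
      (m : ℤ) ∣ P.ord x)
    (hrat : ∀ P : Place E F, LsTube ↥(zchClosure (A₀ := A₀) ({u} : Set F)) u 𝔫.1 P →
      g • P ≠ P → P.ord x ≠ 0 → ∀ f ∈ P.toValuationSubring,
        ∃ c : E, f - algebraMap E F c ∈ P.toValuationSubring.nonunits) :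
    StbFacAt (atLoc 𝔫) m (g • x / x) := by
  haveI := 𝔫.2.1.isPrime
  obtain ⟨g₀, e, hg₀, he, he', h⟩ := at_local_factor hπ hu V hBV hπV hSS1 hVloc g hgu 𝔫.1 hgB hgB'
    hgB₀ hgB₀' hgV hx m hfin hm
    (unip_hcoord_of_nodes hπ hu V hBV hπV hSS1 hVloc g hgu 𝔫.1 𝔫.2.2 hgB hgB₀' hgV hgA q hq0 hqπ
      hgq j p hram hjp c₁ c₂ hκ hnode hrat)
  obtain ⟨-, hform⟩ := stb_factor_form g hx hg₀ m h
  exact stb_facAt_of_mem _ (stb_smul_div_ne_zero g hx) he he' hform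

/-- `stb_cross_facAt` for a point of the chart `t`, as a point of `AtPt π t ⊕ AtPt π t⁻¹` -/
theorem stb_cross_facAt_inl (hπ : Irreducible π) {t : F} (ht : Transcendental E t)
    [FiniteDimensional E⟮t⟯ F] [Finite κ]
    [IsNoetherianRing ↥(zchClosure (A₀ := A₀) ({t} : Set F))]
    (V : κ → ValuationSubring F)
    (hBV : ∀ c (b : F), IsIntegral ↥(Algebra.adjoin A₀ {t}) b → b ∈ V c)
    (hπV : ∀ c, algebraMap A₀ F π ∈ (V c).nonunits)
    (hSS1 : ∀ b : F, IsIntegral ↥(Algebra.adjoin A₀ {t}) b → (∀ c, b ∈ (V c).nonunits) →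
      ∃ b' : F, IsIntegral ↥(Algebra.adjoin A₀ {t}) b' ∧ b = algebraMap A₀ F π * b')
    (hVloc : ∀ c (x : F), x ∈ V c → ∃ b s : F, IsIntegral ↥(Algebra.adjoin A₀ {t}) b ∧
      IsIntegral ↥(Algebra.adjoin A₀ {t}) s ∧ s ∉ (V c).nonunits ∧ s * x = b)
    (g : SemilinearAut E F) (hgt : g • t = t)
    (𝔫 : AtPt (F := F) π t)
    (hgB : ∀ b : ↥(zchClosure (A₀ := A₀) ({t} : Set F)), b ∈ 𝔫.1 →
      ∃ b' : ↥(zchClosure (A₀ := A₀) ({t} : Set F)), b' ∈ 𝔫.1 ∧ g • (b : F) = b')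
    (hgB' : ∀ b : ↥(zchClosure (A₀ := A₀) ({t} : Set F)), b ∈ 𝔫.1 →
      ∃ b' : ↥(zchClosure (A₀ := A₀) ({t} : Set F)), b' ∈ 𝔫.1 ∧ g⁻¹ • (b : F) = b')
    (hgB₀ : ∀ b : F, IsIntegral ↥(Algebra.adjoin A₀ {t}) b →
      IsIntegral ↥(Algebra.adjoin A₀ {t}) (g • b))
    (hgB₀' : ∀ b : F, IsIntegral ↥(Algebra.adjoin A₀ {t}) b →
      IsIntegral ↥(Algebra.adjoin A₀ {t}) (g⁻¹ • b))
    (hgV : ∀ c (f : F), f ≠ 0 → (V c).valuation (g • f / f) = 1)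
    (hgA : ∀ α : A₀, ∃ α' : A₀, g • algebraMap A₀ F α = algebraMap A₀ F α')
    (q : A₀) (hq0 : q ≠ 0) (hqπ : π ∣ q) (hgq : g • algebraMap A₀ F q = algebraMap A₀ F q)
    {R : Type*} [CommRing R] (j : R →+* ↥(zchClosure (A₀ := A₀) ({t} : Set F))) (p : R)
    (hram : MgcRamified j (algebraMap A₀ ↥(zchClosure (A₀ := A₀) ({t} : Set F)) π) p)
    (hjp : j p = algebraMap A₀ ↥(zchClosure (A₀ := A₀) ({t} : Set F)) q)
    (c₁ c₂ : κ) (hκ : ∀ c, c = c₁ ∨ c = c₂)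
    (hnode : (∃ s : R, j s ∈ 𝔫.1 ∧ NodesLocGen (𝔫.1.comap j) {p, s}) ∨
      ((∀ x : R, ((j x : ↥(zchClosure (A₀ := A₀) ({t} : Set F))) : F) ∈ (V c₁).nonunits →
          j x ∈ 𝔫.1) ∧
       (∀ x : R, ((j x : ↥(zchClosure (A₀ := A₀) ({t} : Set F))) : F) ∈ (V c₂).nonunits →
          j x ∈ 𝔫.1) ∧
       ∃ X Y : R, ((j X : ↥(zchClosure (A₀ := A₀) ({t} : Set F))) : F) ∈ (V c₁).nonunits ∧
         ((j Y : ↥(zchClosure (A₀ := A₀) ({t} : Set F))) : F) ∈ (V c₂).nonunits ∧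
         NodesLocGen (𝔫.1.comap j) {p, X, Y}))
    {x : F} (hx : x ≠ 0) (m : ℕ)
    (hfin : {P : Place E F | LsTube ↥(zchClosure (A₀ := A₀) ({t} : Set F)) t 𝔫.1 P ∧
      g • P ≠ P ∧ P.ord x ≠ 0}.Finite)
    (hm : ∀ P : Place E F, LsTube ↥(zchClosure (A₀ := A₀) ({t} : Set F)) t 𝔫.1 P → g • P ≠ P →
      (m : ℤ) ∣ P.ord x)
    (hrat : ∀ P : Place E F, LsTube ↥(zchClosure (A₀ := A₀) ({t} : Set F)) t 𝔫.1 P →
      g • P ≠ P → P.ord x ≠ 0 → ∀ f ∈ P.toValuationSubring,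
        ∃ c : E, f - algebraMap E F c ∈ P.toValuationSubring.nonunits) :
    StbFacAt (atO π t (Sum.inl 𝔫)) m (g • x / x) :=
  stb_cross_facAt hπ ht V hBV hπV hSS1 hVloc g hgt 𝔫 hgB hgB' hgB₀ hgB₀' hgV hgA q hq0 hqπ hgq
    j p hram hjp c₁ c₂ hκ hnode hx m hfin hm hrat

/-- `stb_cross_facAt` for a point of the chart `t⁻¹`, as a point of `AtPt π t ⊕ AtPt π t⁻¹` -/
theorem stb_cross_facAt_inr (hπ : Irreducible π) {t : F} (ht' : Transcendental E t⁻¹)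
    [FiniteDimensional E⟮t⁻¹⟯ F] [Finite κ]
    [IsNoetherianRing ↥(zchClosure (A₀ := A₀) ({t⁻¹} : Set F))]
    (V : κ → ValuationSubring F)
    (hBV : ∀ c (b : F), IsIntegral ↥(Algebra.adjoin A₀ {t⁻¹}) b → b ∈ V c)
    (hπV : ∀ c, algebraMap A₀ F π ∈ (V c).nonunits)
    (hSS1 : ∀ b : F, IsIntegral ↥(Algebra.adjoin A₀ {t⁻¹}) b → (∀ c, b ∈ (V c).nonunits) →
      ∃ b' : F, IsIntegral ↥(Algebra.adjoin A₀ {t⁻¹}) b' ∧ b = algebraMap A₀ F π * b')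
    (hVloc : ∀ c (x : F), x ∈ V c → ∃ b s : F, IsIntegral ↥(Algebra.adjoin A₀ {t⁻¹}) b ∧
      IsIntegral ↥(Algebra.adjoin A₀ {t⁻¹}) s ∧ s ∉ (V c).nonunits ∧ s * x = b)
    (g : SemilinearAut E F) (hgt : g • t⁻¹ = t⁻¹)
    (𝔫 : AtPt (F := F) π t⁻¹)
    (hgB : ∀ b : ↥(zchClosure (A₀ := A₀) ({t⁻¹} : Set F)), b ∈ 𝔫.1 →
      ∃ b' : ↥(zchClosure (A₀ := A₀) ({t⁻¹} : Set F)), b' ∈ 𝔫.1 ∧ g • (b : F) = b')
    (hgB' : ∀ b : ↥(zchClosure (A₀ := A₀) ({t⁻¹} : Set F)), b ∈ 𝔫.1 →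
      ∃ b' : ↥(zchClosure (A₀ := A₀) ({t⁻¹} : Set F)), b' ∈ 𝔫.1 ∧ g⁻¹ • (b : F) = b')
    (hgB₀ : ∀ b : F, IsIntegral ↥(Algebra.adjoin A₀ {t⁻¹}) b →
      IsIntegral ↥(Algebra.adjoin A₀ {t⁻¹}) (g • b))
    (hgB₀' : ∀ b : F, IsIntegral ↥(Algebra.adjoin A₀ {t⁻¹}) b →
      IsIntegral ↥(Algebra.adjoin A₀ {t⁻¹}) (g⁻¹ • b))
    (hgV : ∀ c (f : F), f ≠ 0 → (V c).valuation (g • f / f) = 1)
    (hgA : ∀ α : A₀, ∃ α' : A₀, g • algebraMap A₀ F α = algebraMap A₀ F α')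
    (q : A₀) (hq0 : q ≠ 0) (hqπ : π ∣ q) (hgq : g • algebraMap A₀ F q = algebraMap A₀ F q)
    {R : Type*} [CommRing R] (j : R →+* ↥(zchClosure (A₀ := A₀) ({t⁻¹} : Set F))) (p : R)
    (hram : MgcRamified j (algebraMap A₀ ↥(zchClosure (A₀ := A₀) ({t⁻¹} : Set F)) π) p)
    (hjp : j p = algebraMap A₀ ↥(zchClosure (A₀ := A₀) ({t⁻¹} : Set F)) q)
    (c₁ c₂ : κ) (hκ : ∀ c, c = c₁ ∨ c = c₂)
    (hnode : (∃ s : R, j s ∈ 𝔫.1 ∧ NodesLocGen (𝔫.1.comap j) {p, s}) ∨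
      ((∀ x : R, ((j x : ↥(zchClosure (A₀ := A₀) ({t⁻¹} : Set F))) : F) ∈ (V c₁).nonunits →
          j x ∈ 𝔫.1) ∧
       (∀ x : R, ((j x : ↥(zchClosure (A₀ := A₀) ({t⁻¹} : Set F))) : F) ∈ (V c₂).nonunits →
          j x ∈ 𝔫.1) ∧
       ∃ X Y : R, ((j X : ↥(zchClosure (A₀ := A₀) ({t⁻¹} : Set F))) : F) ∈ (V c₁).nonunits ∧
         ((j Y : ↥(zchClosure (A₀ := A₀) ({t⁻¹} : Set F))) : F) ∈ (V c₂).nonunits ∧
         NodesLocGen (𝔫.1.comap j) {p, X, Y}))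
    {x : F} (hx : x ≠ 0) (m : ℕ)
    (hfin : {P : Place E F | LsTube ↥(zchClosure (A₀ := A₀) ({t⁻¹} : Set F)) t⁻¹ 𝔫.1 P ∧
      g • P ≠ P ∧ P.ord x ≠ 0}.Finite)
    (hm : ∀ P : Place E F, LsTube ↥(zchClosure (A₀ := A₀) ({t⁻¹} : Set F)) t⁻¹ 𝔫.1 P →
      g • P ≠ P → (m : ℤ) ∣ P.ord x)
    (hrat : ∀ P : Place E F, LsTube ↥(zchClosure (A₀ := A₀) ({t⁻¹} : Set F)) t⁻¹ 𝔫.1 P →
      g • P ≠ P → P.ord x ≠ 0 → ∀ f ∈ P.toValuationSubring,
        ∃ c : E, f - algebraMap E F c ∈ P.toValuationSubring.nonunits) :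
    StbFacAt (atO π t (Sum.inr 𝔫)) m (g • x / x) :=
  stb_cross_facAt hπ ht' V hBV hπV hSS1 hVloc g hgt 𝔫 hgB hgB' hgB₀ hgB₀' hgV hgA q hq0 hqπ hgq
    j p hram hjp c₁ c₂ hκ hnode hx m hfin hm hrat

end CrossFac

end Fermat.Agent.STB


end ZBSTB_003_7

/-! ### bundled: `Fermat.Agent.STB.CrossPoint` -/
section ZBSTB_003_8

/-!
# STB-C2 — the disjunct `StbCross` of `stb_main_points` at a crossing point, from chart data

Setting of `stb_cross_facAt` (STB-L part 2): `B' = zchClosure {u}` the chart over the ramified base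
`A₀`, `R` the chart over the unramified base (U5), `j : R →+* B'` with `MgcRamified j π p`,
`𝔫 : AtPt π u` a closed point fixed by `g`; crossing datum of U5 at `𝔫.comap j`:
`X, Y : R`, `j X ∈ 𝔪(V c₁)`, `j Y ∈ 𝔪(V c₂)`, `𝔫.comap j = (p, X, Y)` locally, and both components
pass through `𝔫 ∩ j R`.

* `stb_cp_through` : `atThrough 𝔫 V` from "through" on `j R`.
* `stb_cp_locGen`  : `NodesLocGen 𝔫 {π, j X, j Y}` on `B'`.
* `stb_cp_sum`     : **(S)**, `stb_cp_res₁`, `stb_cp_res₂` : **(N)**, `stb_cp_frob` : **(Fr)**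
  for `O = atLoc 𝔫` in the form used by `StbCross`.
* `stb_cp_cross`   : `atThrough 𝔫 (V c₁) ∧ atThrough 𝔫 (V c₂) ∧
  StbCross (atLoc 𝔫) (V c₁) (V c₂) Φ Q m (g • x / x)`, `Φ = g` as a ring endomorphism.
* `stb_cp_cross_inl`, `stb_cp_cross_inr` : the first disjunct of `hpts i` of `stb_main_points`
  for `i = Sum.inl 𝔫`, `i = Sum.inr 𝔫`.
-/

set_option autoImplicit false
set_option linter.style.haveILetI false
set_option linter.unusedSectionVars false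
set_option linter.unusedVariables false

namespace Fermat.Agent.STB

open Polynomial IntermediateField Fermat.Agent.INJ AlgebraicCurve Fermat.Agent.UNIP

section CrossPoint

variable {A₀ E F : Type*} [CommRing A₀] [IsDomain A₀] [IsDiscreteValuationRing A₀]
  [Field E] [Algebra A₀ E] [IsFractionRing A₀ E] [CharZero E]
  [Field F] [Algebra E F] [Algebra A₀ F] [IsScalarTower A₀ E F]
  {π : A₀} {κ : Type*}

/-- "through" on the ramified chart `B'` from "through" on the image of the unramified chart. -/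
theorem stb_cp_through {u : F} (W : ValuationSubring F)
    (hBW : ∀ b : F, IsIntegral ↥(Algebra.adjoin A₀ {u}) b → b ∈ W)
    (hπW : algebraMap A₀ F π ∈ W.nonunits)
    (𝔫 : AtPt (F := F) π u)
    {R : Type*} [CommRing R] (j : R →+* ↥(zchClosure (A₀ := A₀) ({u} : Set F))) (p : R)
    (hram : MgcRamified j (algebraMap A₀ ↥(zchClosure (A₀ := A₀) ({u} : Set F)) π) p)
    (hthr : ∀ x : R, ((j x : ↥(zchClosure (A₀ := A₀) ({u} : Set F))) : F) ∈ W.nonunits →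
      j x ∈ 𝔫.1) :
    atThrough 𝔫 W := by
  intro b hb
  obtain ⟨y, z, rfl⟩ := hram.decomp b
  have hzW : ((z : ↥(zchClosure (A₀ := A₀) ({u} : Set F))) : F) ∈ W :=
    hBW _ (mem_zchClosure.mp z.2)
  have hϖz : algebraMap A₀ F π * (z : F) ∈ W.nonunits := by
    rw [mul_comm]
    exact pwi_mul_mem_nonunits W hzW hπW
  have hjy : ((j y : ↥(zchClosure (A₀ := A₀) ({u} : Set F))) : F) ∈ W.nonunits := by
    have e : ((j y : ↥(zchClosure (A₀ := A₀) ({u} : Set F))) : F)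
        = ((j y + algebraMap A₀ ↥(zchClosure (A₀ := A₀) ({u} : Set F)) π * z :
            ↥(zchClosure (A₀ := A₀) ({u} : Set F))) : F) - algebraMap A₀ F π * (z : F) := by
      push_cast
      show _ = _ + algebraMap A₀ F π * (z : F) - _
      ring
    rw [e]
    exact W.nonunits.sub_mem hb hϖz
  exact Ideal.add_mem _ (hthr y hjy) (Ideal.mul_mem_right _ _ 𝔫.2.2)

/-- the crossing datum of U5 on the ramified chart: `𝔫 = (π, j X, j Y)` locally -/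
theorem stb_cp_locGen {u : F} (𝔫 : AtPt (F := F) π u)
    {R : Type*} [CommRing R] (j : R →+* ↥(zchClosure (A₀ := A₀) ({u} : Set F))) (p : R)
    (hram : MgcRamified j (algebraMap A₀ ↥(zchClosure (A₀ := A₀) ({u} : Set F)) π) p)
    (X Y : R) (hgen : NodesLocGen (𝔫.1.comap j) {p, X, Y}) :
    NodesLocGen 𝔫.1 {algebraMap A₀ ↥(zchClosure (A₀ := A₀) ({u} : Set F)) π, j X, j Y} :=
  hram.mgg_locGen_triple 𝔫.2.2 X Y hgen

/-- **(S)** at a crossing point of the chart `u`, in the form of `StbCross`. -/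
theorem stb_cp_sum {u : F} (V₁ V₂ : ValuationSubring F)
    (hBV₁ : ∀ b : F, IsIntegral ↥(Algebra.adjoin A₀ {u}) b → b ∈ V₁)
    (hBV₂ : ∀ b : F, IsIntegral ↥(Algebra.adjoin A₀ {u}) b → b ∈ V₂)
    (hπV₁ : algebraMap A₀ F π ∈ V₁.nonunits)
    (𝔫 : AtPt (F := F) π u) (hthr₁ : atThrough 𝔫 V₁) (hthr₂ : atThrough 𝔫 V₂)
    (X Y : ↥(zchClosure (A₀ := A₀) ({u} : Set F))) (hX : (X : F) ∈ V₁.nonunits) (hY : (Y : F) ∈ V₂.nonunits)
    (hgen : NodesLocGen 𝔫.1 {algebraMap A₀ ↥(zchClosure (A₀ := A₀) ({u} : Set F)) π, X, Y}) :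
    ∀ x : atLoc 𝔫, ¬ IsUnit x →
      ∃ a b : atLoc 𝔫, (a : F) ∈ V₁.nonunits ∧ (b : F) ∈ V₂.nonunits ∧ x = a + b := by
  haveI := 𝔫.2.1.isPrime
  haveI : IsLocalRing (ls_localSubring (F := F) 𝔫.1) :=
    ls_localSubring_isLocalRing Subtype.val_injective 𝔫.1
  intro x hx
  exact stb_gc_sum (B := ↥(zchClosure (A₀ := A₀) ({u} : Set F))) Subtype.val_injective 𝔫.1 V₁ V₂
    (fun b => hBV₁ _ (mem_zchClosure.mp b.2)) (fun b => hBV₂ _ (mem_zchClosure.mp b.2))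
    hthr₁ hthr₂ hgen hπV₁ hX hY x ((IsLocalRing.mem_maximalIdeal _).2 hx)

/-- **(N)** at a crossing point of the chart `u`, branch `V₁ ∋ π, X` (parameter `Y`). -/
theorem stb_cp_res₁ {u : F} [IsNoetherianRing ↥(zchClosure (A₀ := A₀) ({u} : Set F))] (V₁ : ValuationSubring F)
    (hBV₁ : ∀ b : F, IsIntegral ↥(Algebra.adjoin A₀ {u}) b → b ∈ V₁)
    (hπV₁ : algebraMap A₀ F π ∈ V₁.nonunits)
    (hVloc₁ : ∀ x : F, x ∈ V₁ → ∃ b s : F, IsIntegral ↥(Algebra.adjoin A₀ {u}) b ∧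
      IsIntegral ↥(Algebra.adjoin A₀ {u}) s ∧ s ∉ V₁.nonunits ∧ s * x = b)
    (𝔫 : AtPt (F := F) π u) (hthr₁ : atThrough 𝔫 V₁)
    (X Y : ↥(zchClosure (A₀ := A₀) ({u} : Set F))) (hX : (X : F) ∈ V₁.nonunits) (hY : Y ∈ 𝔫.1)
    (hgen : NodesLocGen 𝔫.1 {algebraMap A₀ ↥(zchClosure (A₀ := A₀) ({u} : Set F)) π, X, Y}) :
    StbRes (atLoc 𝔫) V₁ := by
  haveI := 𝔫.2.1.isPrime
  intro a e n he hn h
  exact stb_gc_res (B := ↥(zchClosure (A₀ := A₀) ({u} : Set F))) Subtype.val_injective 𝔫.1 V₁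
    (fun b => hBV₁ _ (mem_zchClosure.mp b.2)) hthr₁
    (fun x hx => by
      obtain ⟨b, s, hb, hs, hsV, hsx⟩ := hVloc₁ x hx
      exact ⟨⟨b, mem_zchClosure.mpr hb⟩, ⟨s, mem_zchClosure.mpr hs⟩, hsV, hsx⟩)
    Y hY
    (stb_gc_gen_node (B := ↥(zchClosure (A₀ := A₀) ({u} : Set F))) 𝔫.1 V₁ (fun b => hBV₁ _ (mem_zchClosure.mp b.2)) hgen hπV₁ hX)
    a e n he hn h

/-- **(N)** at a crossing point of the chart `u`, branch `V₂ ∋ π, Y` (parameter `X`). -/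
theorem stb_cp_res₂ {u : F} [IsNoetherianRing ↥(zchClosure (A₀ := A₀) ({u} : Set F))] (V₂ : ValuationSubring F)
    (hBV₂ : ∀ b : F, IsIntegral ↥(Algebra.adjoin A₀ {u}) b → b ∈ V₂)
    (hπV₂ : algebraMap A₀ F π ∈ V₂.nonunits)
    (hVloc₂ : ∀ x : F, x ∈ V₂ → ∃ b s : F, IsIntegral ↥(Algebra.adjoin A₀ {u}) b ∧
      IsIntegral ↥(Algebra.adjoin A₀ {u}) s ∧ s ∉ V₂.nonunits ∧ s * x = b)
    (𝔫 : AtPt (F := F) π u) (hthr₂ : atThrough 𝔫 V₂)
    (X Y : ↥(zchClosure (A₀ := A₀) ({u} : Set F))) (hX : X ∈ 𝔫.1) (hY : (Y : F) ∈ V₂.nonunits)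
    (hgen : NodesLocGen 𝔫.1 {algebraMap A₀ ↥(zchClosure (A₀ := A₀) ({u} : Set F)) π, X, Y}) :
    StbRes (atLoc 𝔫) V₂ := by
  haveI := 𝔫.2.1.isPrime
  intro a e n he hn h
  exact stb_gc_res (B := ↥(zchClosure (A₀ := A₀) ({u} : Set F))) Subtype.val_injective 𝔫.1 V₂
    (fun b => hBV₂ _ (mem_zchClosure.mp b.2)) hthr₂
    (fun x hx => by
      obtain ⟨b, s, hb, hs, hsV, hsx⟩ := hVloc₂ x hx
      exact ⟨⟨b, mem_zchClosure.mpr hb⟩, ⟨s, mem_zchClosure.mpr hs⟩, hsV, hsx⟩)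
    X hX
    (stb_gc_gen_node' (B := ↥(zchClosure (A₀ := A₀) ({u} : Set F))) 𝔫.1 V₂ (fun b => hBV₂ _ (mem_zchClosure.mp b.2)) hgen hπV₂ hY)
    a e n he hn h

/-- **(Fr)** at a point of the chart `u` fixed by `Φ`, in the form of `StbCross`. -/
theorem stb_cp_frob {u : F} (𝔫 : AtPt (F := F) π u) (Φ : F →+* F) (Q : ℕ)
    (hfrobB : ∀ b : ↥(zchClosure (A₀ := A₀) ({u} : Set F)), ∃ c : ↥(zchClosure (A₀ := A₀) ({u} : Set F)), c ∈ 𝔫.1 ∧ Φ (b : F) = (b : F) ^ Q + (c : F)) :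
    ∀ x : atLoc 𝔫, ∃ z : atLoc 𝔫, ¬ IsUnit z ∧ (z : F) = Φ (x : F) - (x : F) ^ Q := by
  haveI := 𝔫.2.1.isPrime
  haveI : IsLocalRing (ls_localSubring (F := F) 𝔫.1) :=
    ls_localSubring_isLocalRing Subtype.val_injective 𝔫.1
  intro x
  obtain ⟨z, hz, hzx⟩ := stb_gc_frob (B := ↥(zchClosure (A₀ := A₀) ({u} : Set F))) Subtype.val_injective 𝔫.1 Φ Q
    (fun b => by
      obtain ⟨c, hc, h⟩ := hfrobB b
      exact ⟨c, hc, h⟩) x
  exact ⟨z, (IsLocalRing.mem_maximalIdeal (R := ls_localSubring (F := F) 𝔫.1) z).1 hz, hzx⟩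

/-- **STB-C2.**  The hypotheses `StbCross` of `stb_main_points` at a crossing point `𝔫` of the
chart `u` fixed by `g` (`Φ = g` as a ring endomorphism of `F`), for `y = g • x / x`, from the
crossing datum of U5 on the unramified chart (`hthr₁ … hgen`), the Frobenius congruence on the
chart (`hfrobB`, STB-X) and the local factor (`stb_cross_facAt`, STB-L). -/
theorem stb_cp_cross (hπ : Irreducible π) {u : F} (hu : Transcendental E u)
    [FiniteDimensional E⟮u⟯ F] [Finite κ]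
    [IsNoetherianRing ↥(zchClosure (A₀ := A₀) ({u} : Set F))]
    (V : κ → ValuationSubring F)
    (hBV : ∀ c (b : F), IsIntegral ↥(Algebra.adjoin A₀ {u}) b → b ∈ V c)
    (hπV : ∀ c, algebraMap A₀ F π ∈ (V c).nonunits)
    (hSS1 : ∀ b : F, IsIntegral ↥(Algebra.adjoin A₀ {u}) b → (∀ c, b ∈ (V c).nonunits) →
      ∃ b' : F, IsIntegral ↥(Algebra.adjoin A₀ {u}) b' ∧ b = algebraMap A₀ F π * b')
    (hVloc : ∀ c (x : F), x ∈ V c → ∃ b s : F, IsIntegral ↥(Algebra.adjoin A₀ {u}) b ∧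
      IsIntegral ↥(Algebra.adjoin A₀ {u}) s ∧ s ∉ (V c).nonunits ∧ s * x = b)
    (g : SemilinearAut E F) (hgu : g • u = u)
    (𝔫 : AtPt (F := F) π u)
    (hgB : ∀ b : ↥(zchClosure (A₀ := A₀) ({u} : Set F)), b ∈ 𝔫.1 →
      ∃ b' : ↥(zchClosure (A₀ := A₀) ({u} : Set F)), b' ∈ 𝔫.1 ∧ g • (b : F) = b')
    (hgB' : ∀ b : ↥(zchClosure (A₀ := A₀) ({u} : Set F)), b ∈ 𝔫.1 →
      ∃ b' : ↥(zchClosure (A₀ := A₀) ({u} : Set F)), b' ∈ 𝔫.1 ∧ g⁻¹ • (b : F) = b')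
    (hgB₀ : ∀ b : F, IsIntegral ↥(Algebra.adjoin A₀ {u}) b →
      IsIntegral ↥(Algebra.adjoin A₀ {u}) (g • b))
    (hgB₀' : ∀ b : F, IsIntegral ↥(Algebra.adjoin A₀ {u}) b →
      IsIntegral ↥(Algebra.adjoin A₀ {u}) (g⁻¹ • b))
    (hgV : ∀ c (f : F), f ≠ 0 → (V c).valuation (g • f / f) = 1)
    (hgA : ∀ α : A₀, ∃ α' : A₀, g • algebraMap A₀ F α = algebraMap A₀ F α')
    (q : A₀) (hq0 : q ≠ 0) (hqπ : π ∣ q) (hgq : g • algebraMap A₀ F q = algebraMap A₀ F q)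
    {R : Type*} [CommRing R] (j : R →+* ↥(zchClosure (A₀ := A₀) ({u} : Set F))) (p : R)
    (hram : MgcRamified j (algebraMap A₀ ↥(zchClosure (A₀ := A₀) ({u} : Set F)) π) p)
    (hjp : j p = algebraMap A₀ ↥(zchClosure (A₀ := A₀) ({u} : Set F)) q)
    (c₁ c₂ : κ) (hκ : ∀ c, c = c₁ ∨ c = c₂)
    (hthr₁ : ∀ x : R, ((j x : ↥(zchClosure (A₀ := A₀) ({u} : Set F))) : F) ∈ (V c₁).nonunits → j x ∈ 𝔫.1)
    (hthr₂ : ∀ x : R, ((j x : ↥(zchClosure (A₀ := A₀) ({u} : Set F))) : F) ∈ (V c₂).nonunits → j x ∈ 𝔫.1)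
    (X Y : R) (hX : ((j X : ↥(zchClosure (A₀ := A₀) ({u} : Set F))) : F) ∈ (V c₁).nonunits)
    (hY : ((j Y : ↥(zchClosure (A₀ := A₀) ({u} : Set F))) : F) ∈ (V c₂).nonunits)
    (hgen : NodesLocGen (𝔫.1.comap j) {p, X, Y})
    (Φ : F →+* F) (hΦ : ∀ x : F, Φ x = g • x) (Q : ℕ)
    (hfrobB : ∀ b : ↥(zchClosure (A₀ := A₀) ({u} : Set F)), ∃ c : ↥(zchClosure (A₀ := A₀) ({u} : Set F)), c ∈ 𝔫.1 ∧ Φ (b : F) = (b : F) ^ Q + (c : F))
    {x : F} (hx : x ≠ 0) (m : ℕ)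
    (hfin : {P : Place E F | LsTube ↥(zchClosure (A₀ := A₀) ({u} : Set F)) u 𝔫.1 P ∧
      g • P ≠ P ∧ P.ord x ≠ 0}.Finite)
    (hm : ∀ P : Place E F, LsTube ↥(zchClosure (A₀ := A₀) ({u} : Set F)) u 𝔫.1 P → g • P ≠ P →
      (m : ℤ) ∣ P.ord x)
    (hrat : ∀ P : Place E F, LsTube ↥(zchClosure (A₀ := A₀) ({u} : Set F)) u 𝔫.1 P →
      g • P ≠ P → P.ord x ≠ 0 → ∀ f ∈ P.toValuationSubring,
        ∃ c : E, f - algebraMap E F c ∈ P.toValuationSubring.nonunits) :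
    atThrough 𝔫 (V c₁) ∧ atThrough 𝔫 (V c₂) ∧
      StbCross (atLoc 𝔫) (V c₁) (V c₂) Φ Q m (Φ x / x) := by
  haveI := 𝔫.2.1.isPrime
  have hT₁ : atThrough 𝔫 (V c₁) := stb_cp_through (V c₁) (hBV c₁) (hπV c₁) 𝔫 j p hram hthr₁
  have hT₂ : atThrough 𝔫 (V c₂) := stb_cp_through (V c₂) (hBV c₂) (hπV c₂) 𝔫 j p hram hthr₂
  have hG := stb_cp_locGen 𝔫 j p hram X Y hgen
  refine ⟨hT₁, hT₂, ?_, ?_, ?_, ?_, ?_⟩
  · exact stb_cp_sum (V c₁) (V c₂) (hBV c₁) (hBV c₂) (hπV c₁) 𝔫 hT₁ hT₂ (j X) (j Y) hX hY hG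
  · exact stb_cp_res₁ (V c₁) (hBV c₁) (hπV c₁) (hVloc c₁) 𝔫 hT₁ (j X) (j Y) hX (hT₂ _ hY) hG
  · exact stb_cp_res₂ (V c₂) (hBV c₂) (hπV c₂) (hVloc c₂) 𝔫 hT₂ (j X) (j Y) (hT₁ _ hX) hY hG
  · exact stb_cp_frob 𝔫 Φ Q hfrobB
  · rw [hΦ x]
    exact stb_cross_facAt hπ hu V hBV hπV hSS1 hVloc g hgu 𝔫 hgB hgB' hgB₀ hgB₀' hgV hgA q hq0
      hqπ hgq j p hram hjp c₁ c₂ hκ (Or.inr ⟨hthr₁, hthr₂, X, Y, hX, hY, hgen⟩) hx m hfin hm hrat

/-- **STB-C2, chart `t`**: the first disjunct of `hpts (Sum.inl 𝔫)` of `stb_main_points`. -/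
theorem stb_cp_cross_inl (hπ : Irreducible π) {t : F} (ht : Transcendental E t)
    [FiniteDimensional E⟮t⟯ F] [Finite κ]
    [IsNoetherianRing ↥(zchClosure (A₀ := A₀) ({t} : Set F))]
    (V : κ → ValuationSubring F)
    (hBV : ∀ c (b : F), IsIntegral ↥(Algebra.adjoin A₀ {t}) b → b ∈ V c)
    (hπV : ∀ c, algebraMap A₀ F π ∈ (V c).nonunits)
    (hSS1 : ∀ b : F, IsIntegral ↥(Algebra.adjoin A₀ {t}) b → (∀ c, b ∈ (V c).nonunits) →
      ∃ b' : F, IsIntegral ↥(Algebra.adjoin A₀ {t}) b' ∧ b = algebraMap A₀ F π * b')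
    (hVloc : ∀ c (x : F), x ∈ V c → ∃ b s : F, IsIntegral ↥(Algebra.adjoin A₀ {t}) b ∧
      IsIntegral ↥(Algebra.adjoin A₀ {t}) s ∧ s ∉ (V c).nonunits ∧ s * x = b)
    (g : SemilinearAut E F) (hgu : g • t = t)
    (𝔫 : AtPt (F := F) π t)
    (hgB : ∀ b : ↥(zchClosure (A₀ := A₀) ({t} : Set F)), b ∈ 𝔫.1 →
      ∃ b' : ↥(zchClosure (A₀ := A₀) ({t} : Set F)), b' ∈ 𝔫.1 ∧ g • (b : F) = b')
    (hgB' : ∀ b : ↥(zchClosure (A₀ := A₀) ({t} : Set F)), b ∈ 𝔫.1 →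
      ∃ b' : ↥(zchClosure (A₀ := A₀) ({t} : Set F)), b' ∈ 𝔫.1 ∧ g⁻¹ • (b : F) = b')
    (hgB₀ : ∀ b : F, IsIntegral ↥(Algebra.adjoin A₀ {t}) b →
      IsIntegral ↥(Algebra.adjoin A₀ {t}) (g • b))
    (hgB₀' : ∀ b : F, IsIntegral ↥(Algebra.adjoin A₀ {t}) b →
      IsIntegral ↥(Algebra.adjoin A₀ {t}) (g⁻¹ • b))
    (hgV : ∀ c (f : F), f ≠ 0 → (V c).valuation (g • f / f) = 1)
    (hgA : ∀ α : A₀, ∃ α' : A₀, g • algebraMap A₀ F α = algebraMap A₀ F α')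
    (q : A₀) (hq0 : q ≠ 0) (hqπ : π ∣ q) (hgq : g • algebraMap A₀ F q = algebraMap A₀ F q)
    {R : Type*} [CommRing R] (j : R →+* ↥(zchClosure (A₀ := A₀) ({t} : Set F))) (p : R)
    (hram : MgcRamified j (algebraMap A₀ ↥(zchClosure (A₀ := A₀) ({t} : Set F)) π) p)
    (hjp : j p = algebraMap A₀ ↥(zchClosure (A₀ := A₀) ({t} : Set F)) q)
    (c₁ c₂ : κ) (hκ : ∀ c, c = c₁ ∨ c = c₂)
    (hthr₁ : ∀ x : R, ((j x : ↥(zchClosure (A₀ := A₀) ({t} : Set F))) : F) ∈ (V c₁).nonunits → j x ∈ 𝔫.1)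
    (hthr₂ : ∀ x : R, ((j x : ↥(zchClosure (A₀ := A₀) ({t} : Set F))) : F) ∈ (V c₂).nonunits → j x ∈ 𝔫.1)
    (X Y : R) (hX : ((j X : ↥(zchClosure (A₀ := A₀) ({t} : Set F))) : F) ∈ (V c₁).nonunits)
    (hY : ((j Y : ↥(zchClosure (A₀ := A₀) ({t} : Set F))) : F) ∈ (V c₂).nonunits)
    (hgen : NodesLocGen (𝔫.1.comap j) {p, X, Y})
    (Φ : F →+* F) (hΦ : ∀ x : F, Φ x = g • x) (Q : ℕ)
    (hfrobB : ∀ b : ↥(zchClosure (A₀ := A₀) ({t} : Set F)), ∃ c : ↥(zchClosure (A₀ := A₀) ({t} : Set F)), c ∈ 𝔫.1 ∧ Φ (b : F) = (b : F) ^ Q + (c : F))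
    {x : F} (hx : x ≠ 0) (m : ℕ)
    (hfin : {P : Place E F | LsTube ↥(zchClosure (A₀ := A₀) ({t} : Set F)) t 𝔫.1 P ∧
      g • P ≠ P ∧ P.ord x ≠ 0}.Finite)
    (hm : ∀ P : Place E F, LsTube ↥(zchClosure (A₀ := A₀) ({t} : Set F)) t 𝔫.1 P → g • P ≠ P →
      (m : ℤ) ∣ P.ord x)
    (hrat : ∀ P : Place E F, LsTube ↥(zchClosure (A₀ := A₀) ({t} : Set F)) t 𝔫.1 P →
      g • P ≠ P → P.ord x ≠ 0 → ∀ f ∈ P.toValuationSubring,
        ∃ c : E, f - algebraMap E F c ∈ P.toValuationSubring.nonunits) :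
    atInc π t V (Sum.inl 𝔫) c₁ ∧ atInc π t V (Sum.inl 𝔫) c₂ ∧
      StbCross (atO π t (Sum.inl 𝔫)) (V c₁) (V c₂) Φ Q m (Φ x / x) :=
  stb_cp_cross hπ ht V hBV hπV hSS1 hVloc g hgu 𝔫 hgB hgB' hgB₀ hgB₀' hgV hgA q hq0 hqπ hgq
    j p hram hjp c₁ c₂ hκ hthr₁ hthr₂ X Y hX hY hgen Φ hΦ Q hfrobB hx m hfin hm hrat

/-- **STB-C2, chart `t⁻¹`**: the first disjunct of `hpts (Sum.inr 𝔫)` of `stb_main_points`. -/
theorem stb_cp_cross_inr (hπ : Irreducible π) {t : F} (ht' : Transcendental E t⁻¹)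
    [FiniteDimensional E⟮t⁻¹⟯ F] [Finite κ]
    [IsNoetherianRing ↥(zchClosure (A₀ := A₀) ({t⁻¹} : Set F))]
    (V : κ → ValuationSubring F)
    (hBV : ∀ c (b : F), IsIntegral ↥(Algebra.adjoin A₀ {t⁻¹}) b → b ∈ V c)
    (hπV : ∀ c, algebraMap A₀ F π ∈ (V c).nonunits)
    (hSS1 : ∀ b : F, IsIntegral ↥(Algebra.adjoin A₀ {t⁻¹}) b → (∀ c, b ∈ (V c).nonunits) →
      ∃ b' : F, IsIntegral ↥(Algebra.adjoin A₀ {t⁻¹}) b' ∧ b = algebraMap A₀ F π * b')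
    (hVloc : ∀ c (x : F), x ∈ V c → ∃ b s : F, IsIntegral ↥(Algebra.adjoin A₀ {t⁻¹}) b ∧
      IsIntegral ↥(Algebra.adjoin A₀ {t⁻¹}) s ∧ s ∉ (V c).nonunits ∧ s * x = b)
    (g : SemilinearAut E F) (hgu : g • t⁻¹ = t⁻¹)
    (𝔫 : AtPt (F := F) π t⁻¹)
    (hgB : ∀ b : ↥(zchClosure (A₀ := A₀) ({t⁻¹} : Set F)), b ∈ 𝔫.1 →
      ∃ b' : ↥(zchClosure (A₀ := A₀) ({t⁻¹} : Set F)), b' ∈ 𝔫.1 ∧ g • (b : F) = b')
    (hgB' : ∀ b : ↥(zchClosure (A₀ := A₀) ({t⁻¹} : Set F)), b ∈ 𝔫.1 →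
      ∃ b' : ↥(zchClosure (A₀ := A₀) ({t⁻¹} : Set F)), b' ∈ 𝔫.1 ∧ g⁻¹ • (b : F) = b')
    (hgB₀ : ∀ b : F, IsIntegral ↥(Algebra.adjoin A₀ {t⁻¹}) b →
      IsIntegral ↥(Algebra.adjoin A₀ {t⁻¹}) (g • b))
    (hgB₀' : ∀ b : F, IsIntegral ↥(Algebra.adjoin A₀ {t⁻¹}) b →
      IsIntegral ↥(Algebra.adjoin A₀ {t⁻¹}) (g⁻¹ • b))
    (hgV : ∀ c (f : F), f ≠ 0 → (V c).valuation (g • f / f) = 1)
    (hgA : ∀ α : A₀, ∃ α' : A₀, g • algebraMap A₀ F α = algebraMap A₀ F α')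
    (q : A₀) (hq0 : q ≠ 0) (hqπ : π ∣ q) (hgq : g • algebraMap A₀ F q = algebraMap A₀ F q)
    {R : Type*} [CommRing R] (j : R →+* ↥(zchClosure (A₀ := A₀) ({t⁻¹} : Set F))) (p : R)
    (hram : MgcRamified j (algebraMap A₀ ↥(zchClosure (A₀ := A₀) ({t⁻¹} : Set F)) π) p)
    (hjp : j p = algebraMap A₀ ↥(zchClosure (A₀ := A₀) ({t⁻¹} : Set F)) q)
    (c₁ c₂ : κ) (hκ : ∀ c, c = c₁ ∨ c = c₂)
    (hthr₁ : ∀ x : R, ((j x : ↥(zchClosure (A₀ := A₀) ({t⁻¹} : Set F))) : F) ∈ (V c₁).nonunits → j x ∈ 𝔫.1)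
    (hthr₂ : ∀ x : R, ((j x : ↥(zchClosure (A₀ := A₀) ({t⁻¹} : Set F))) : F) ∈ (V c₂).nonunits → j x ∈ 𝔫.1)
    (X Y : R) (hX : ((j X : ↥(zchClosure (A₀ := A₀) ({t⁻¹} : Set F))) : F) ∈ (V c₁).nonunits)
    (hY : ((j Y : ↥(zchClosure (A₀ := A₀) ({t⁻¹} : Set F))) : F) ∈ (V c₂).nonunits)
    (hgen : NodesLocGen (𝔫.1.comap j) {p, X, Y})
    (Φ : F →+* F) (hΦ : ∀ x : F, Φ x = g • x) (Q : ℕ)
    (hfrobB : ∀ b : ↥(zchClosure (A₀ := A₀) ({t⁻¹} : Set F)), ∃ c : ↥(zchClosure (A₀ := A₀) ({t⁻¹} : Set F)), c ∈ 𝔫.1 ∧ Φ (b : F) = (b : F) ^ Q + (c : F))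
    {x : F} (hx : x ≠ 0) (m : ℕ)
    (hfin : {P : Place E F | LsTube ↥(zchClosure (A₀ := A₀) ({t⁻¹} : Set F)) t⁻¹ 𝔫.1 P ∧
      g • P ≠ P ∧ P.ord x ≠ 0}.Finite)
    (hm : ∀ P : Place E F, LsTube ↥(zchClosure (A₀ := A₀) ({t⁻¹} : Set F)) t⁻¹ 𝔫.1 P → g • P ≠ P →
      (m : ℤ) ∣ P.ord x)
    (hrat : ∀ P : Place E F, LsTube ↥(zchClosure (A₀ := A₀) ({t⁻¹} : Set F)) t⁻¹ 𝔫.1 P →
      g • P ≠ P → P.ord x ≠ 0 → ∀ f ∈ P.toValuationSubring,
        ∃ c : E, f - algebraMap E F c ∈ P.toValuationSubring.nonunits) :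
    atInc π t V (Sum.inr 𝔫) c₁ ∧ atInc π t V (Sum.inr 𝔫) c₂ ∧
      StbCross (atO π t (Sum.inr 𝔫)) (V c₁) (V c₂) Φ Q m (Φ x / x) :=
  stb_cp_cross hπ ht' V hBV hπV hSS1 hVloc g hgu 𝔫 hgB hgB' hgB₀ hgB₀' hgV hgA q hq0 hqπ hgq
    j p hram hjp c₁ c₂ hκ hthr₁ hthr₂ X Y hX hY hgen Φ hΦ Q hfrobB hx m hfin hm hrat

end CrossPoint

end Fermat.Agent.STB


end ZBSTB_003_8

/-! ### bundled: `Fermat.Agent.STB.SmoothTransport` -/
section ZBSTB_003_9

/-!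
# STB-S3 — the preimage of a one-component point under `Φ`, and the whole smooth disjunct of `hpts`

`Φ : F ≃+* F` (in the application `Φ = φ²`, `φ` a Frobenius lift acting on the coefficients)
preserves the chart `B_u` (together with `Φ⁻¹`), maps `π` into `π A₀` (together with `Φ⁻¹`), and
preserves `𝔪(V c)` (together with `Φ⁻¹`).  For a closed point `𝔫` of the special fibre of `B_u`:

* `stbStEquiv`, `stbStPre` : the restriction `B_u ≃+* B_u` of `Φ`, the closed point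
  `𝔫₁ := Φ⁻¹ 𝔫`;
* `stb_st_through`, `stb_st_only`, `stb_st_locGen`, `stb_st_map_loc` : `𝔫₁` inherits "the
  component `c` passes through", "only `c` passes through", "`𝔫₁ = (π, Φ⁻¹ s)` locally",
  and `Φ (O_{𝔫₁}) ⊆ O_𝔫`;
* `stb_st_smooth` : **the smooth disjunct** — `StbSmooth (atLoc 𝔫) (atLoc (Φ⁻¹ 𝔫)) (V c) Φ m y`
  from the data at `𝔫` alone (plus the tube hypotheses at all points);
* `stb_st_hpts_inl`, `stb_st_hpts_inr` : exactly the second disjunct of `hpts` of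
  `stb_main_points` at `i = Sum.inl 𝔫`, resp. `i = Sum.inr 𝔫`;
* `stb_st_map_pi` : `Φ π ∈ π A₀` if `Φ` and `Φ⁻¹` preserve the constants `A₀`.
-/

set_option autoImplicit false
set_option linter.style.haveILetI false
set_option linter.unusedSectionVars false
set_option linter.unusedVariables false

namespace Fermat.Agent.STB

open Polynomial IntermediateField Fermat.Agent.INJ AlgebraicCurve Fermat.Agent.UNIP

section Transport

variable {A₀ E F : Type*} [CommRing A₀] [IsDomain A₀] [IsDiscreteValuationRing A₀]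
  [Field E] [Algebra A₀ E] [IsFractionRing A₀ E] [CharZero E]
  [Field F] [Algebra E F] [Algebra A₀ F] [IsScalarTower A₀ E F]
  {π : A₀} {κ : Type*}

/-- the restriction to the chart `B_u` of an automorphism of `F` preserving it -/
def stbStEquiv {u : F} (Φ : F ≃+* F)
    (hΦB : ∀ b : F, IsIntegral ↥(Algebra.adjoin A₀ {u}) b →
      IsIntegral ↥(Algebra.adjoin A₀ {u}) (Φ b))
    (hΦB' : ∀ b : F, IsIntegral ↥(Algebra.adjoin A₀ {u}) b →
      IsIntegral ↥(Algebra.adjoin A₀ {u}) (Φ.symm b)) :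
    ↥(zchClosure (A₀ := A₀) ({u} : Set F)) ≃+* ↥(zchClosure (A₀ := A₀) ({u} : Set F)) where
  toFun b := ⟨Φ (b : F), mem_zchClosure.mpr (hΦB _ (mem_zchClosure.mp b.2))⟩
  invFun b := ⟨Φ.symm (b : F), mem_zchClosure.mpr (hΦB' _ (mem_zchClosure.mp b.2))⟩
  left_inv b := Subtype.ext (Φ.symm_apply_apply _)
  right_inv b := Subtype.ext (Φ.apply_symm_apply _)
  map_mul' x y := Subtype.ext (map_mul Φ _ _)
  map_add' x y := Subtype.ext (map_add Φ _ _)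

theorem stbStEquiv_coe {u : F} (Φ : F ≃+* F)
    (hΦB : ∀ b : F, IsIntegral ↥(Algebra.adjoin A₀ {u}) b →
      IsIntegral ↥(Algebra.adjoin A₀ {u}) (Φ b))
    (hΦB' : ∀ b : F, IsIntegral ↥(Algebra.adjoin A₀ {u}) b →
      IsIntegral ↥(Algebra.adjoin A₀ {u}) (Φ.symm b))
    (b : ↥(zchClosure (A₀ := A₀) ({u} : Set F))) :
    ((stbStEquiv Φ hΦB hΦB' b : ↥(zchClosure (A₀ := A₀) ({u} : Set F))) : F) = Φ (b : F) := rfl

theorem stbStEquiv_symm_coe {u : F} (Φ : F ≃+* F)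
    (hΦB : ∀ b : F, IsIntegral ↥(Algebra.adjoin A₀ {u}) b →
      IsIntegral ↥(Algebra.adjoin A₀ {u}) (Φ b))
    (hΦB' : ∀ b : F, IsIntegral ↥(Algebra.adjoin A₀ {u}) b →
      IsIntegral ↥(Algebra.adjoin A₀ {u}) (Φ.symm b))
    (b : ↥(zchClosure (A₀ := A₀) ({u} : Set F))) :
    (((stbStEquiv Φ hΦB hΦB').symm b : ↥(zchClosure (A₀ := A₀) ({u} : Set F))) : F) =
      Φ.symm (b : F) := rfl

/-- `Φ π ∈ π A₀` if `Φ` and `Φ⁻¹` preserve the constants. -/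
theorem stb_st_map_pi (E : Type*) [Field E] [Algebra A₀ E] [IsFractionRing A₀ E]
    [Algebra E F] [IsScalarTower A₀ E F] (hπ : Irreducible π) (Φ : F ≃+* F)
    (hΦA : ∀ a : A₀, ∃ a' : A₀, Φ (algebraMap A₀ F a) = algebraMap A₀ F a')
    (hΦA' : ∀ a : A₀, ∃ a' : A₀, Φ.symm (algebraMap A₀ F a) = algebraMap A₀ F a') :
    ∃ a : A₀, Φ (algebraMap A₀ F π) = algebraMap A₀ F (π * a) := by
  have hinjA : Function.Injective (algebraMap A₀ F) := unip_algebraMap_injective E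
  obtain ⟨a', ha'⟩ := hΦA π
  have hnu : ¬ IsUnit a' := by
    intro hu
    obtain ⟨b', hb'⟩ := hu.exists_right_inv
    obtain ⟨b'', hb''⟩ := hΦA' b'
    have h1 : algebraMap A₀ F π * algebraMap A₀ F b'' = 1 := by
      have h2 : Φ.symm (algebraMap A₀ F a' * algebraMap A₀ F b') = 1 := by
        rw [← map_mul, hb', map_one, map_one]
      rw [map_mul, ← ha', Φ.symm_apply_apply, hb''] at h2
      exact h2
    have h3 : π * b'' = 1 := hinjA (by rw [map_mul, h1, map_one])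
    exact hπ.not_isUnit (IsUnit.of_mul_eq_one _ h3)
  have hmem : a' ∈ IsLocalRing.maximalIdeal A₀ := (IsLocalRing.mem_maximalIdeal _).mpr hnu
  rw [hπ.maximalIdeal_eq, Ideal.mem_span_singleton] at hmem
  obtain ⟨a, rfl⟩ := hmem
  exact ⟨a, ha'⟩

/-- **The preimage point** `𝔫₁ = Φ⁻¹ 𝔫`. -/
def stbStPre {u : F} (Φ : F ≃+* F)
    (hΦB : ∀ b : F, IsIntegral ↥(Algebra.adjoin A₀ {u}) b →
      IsIntegral ↥(Algebra.adjoin A₀ {u}) (Φ b))
    (hΦB' : ∀ b : F, IsIntegral ↥(Algebra.adjoin A₀ {u}) b →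
      IsIntegral ↥(Algebra.adjoin A₀ {u}) (Φ.symm b))
    (hΦπ : ∃ a : A₀, Φ (algebraMap A₀ F π) = algebraMap A₀ F (π * a))
    (𝔫 : AtPt (F := F) π u) : AtPt (F := F) π u :=
  ⟨Ideal.comap (stbStEquiv Φ hΦB hΦB') 𝔫.1, by
    haveI := 𝔫.2.1
    refine ⟨Ideal.comap_isMaximal_of_equiv (stbStEquiv Φ hΦB hΦB'), ?_⟩
    rw [Ideal.mem_comap]
    obtain ⟨a, ha⟩ := hΦπ
    have e : stbStEquiv Φ hΦB hΦB' (algebraMap A₀ ↥(zchClosure (A₀ := A₀) ({u} : Set F)) π) =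
        algebraMap A₀ ↥(zchClosure (A₀ := A₀) ({u} : Set F)) π *
          algebraMap A₀ ↥(zchClosure (A₀ := A₀) ({u} : Set F)) a := by
      apply Subtype.ext
      show Φ (algebraMap A₀ F π) = algebraMap A₀ F π * algebraMap A₀ F a
      rw [ha, map_mul]
    rw [e]
    exact 𝔫.1.mul_mem_right _ 𝔫.2.2⟩

theorem stb_st_mem_pre {u : F} (Φ : F ≃+* F)
    (hΦB : ∀ b : F, IsIntegral ↥(Algebra.adjoin A₀ {u}) b →
      IsIntegral ↥(Algebra.adjoin A₀ {u}) (Φ b))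
    (hΦB' : ∀ b : F, IsIntegral ↥(Algebra.adjoin A₀ {u}) b →
      IsIntegral ↥(Algebra.adjoin A₀ {u}) (Φ.symm b))
    (hΦπ : ∃ a : A₀, Φ (algebraMap A₀ F π) = algebraMap A₀ F (π * a))
    (𝔫 : AtPt (F := F) π u) (b : ↥(zchClosure (A₀ := A₀) ({u} : Set F))) :
    b ∈ (stbStPre Φ hΦB hΦB' hΦπ 𝔫).1 ↔ stbStEquiv Φ hΦB hΦB' b ∈ 𝔫.1 := Iff.rfl

/-- a component through `𝔫` passes through `Φ⁻¹ 𝔫` (`Φ` preserves `𝔪(W)`) -/
theorem stb_st_through {u : F} (Φ : F ≃+* F)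
    (hΦB : ∀ b : F, IsIntegral ↥(Algebra.adjoin A₀ {u}) b →
      IsIntegral ↥(Algebra.adjoin A₀ {u}) (Φ b))
    (hΦB' : ∀ b : F, IsIntegral ↥(Algebra.adjoin A₀ {u}) b →
      IsIntegral ↥(Algebra.adjoin A₀ {u}) (Φ.symm b))
    (hΦπ : ∃ a : A₀, Φ (algebraMap A₀ F π) = algebraMap A₀ F (π * a))
    (𝔫 : AtPt (F := F) π u) (W : ValuationSubring F)
    (hΦW : ∀ x ∈ W.nonunits, Φ x ∈ W.nonunits) (h : atThrough 𝔫 W) :
    atThrough (stbStPre Φ hΦB hΦB' hΦπ 𝔫) W := fun b hb =>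
  (stb_st_mem_pre Φ hΦB hΦB' hΦπ 𝔫 b).mpr (h _ (hΦW _ hb))

/-- a component through `Φ⁻¹ 𝔫` passes through `𝔫` (`Φ⁻¹` preserves `𝔪(W)`) -/
theorem stb_st_through_of_pre {u : F} (Φ : F ≃+* F)
    (hΦB : ∀ b : F, IsIntegral ↥(Algebra.adjoin A₀ {u}) b →
      IsIntegral ↥(Algebra.adjoin A₀ {u}) (Φ b))
    (hΦB' : ∀ b : F, IsIntegral ↥(Algebra.adjoin A₀ {u}) b →
      IsIntegral ↥(Algebra.adjoin A₀ {u}) (Φ.symm b))
    (hΦπ : ∃ a : A₀, Φ (algebraMap A₀ F π) = algebraMap A₀ F (π * a))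
    (𝔫 : AtPt (F := F) π u) (W : ValuationSubring F)
    (hΦW' : ∀ x ∈ W.nonunits, Φ.symm x ∈ W.nonunits)
    (h : atThrough (stbStPre Φ hΦB hΦB' hΦπ 𝔫) W) : atThrough 𝔫 W := fun b hb => by
  have h1 := h ((stbStEquiv Φ hΦB hΦB').symm b) (hΦW' _ hb)
  rw [stb_st_mem_pre, RingEquiv.apply_symm_apply] at h1
  exact h1

/-- `Φ (O_{𝔫₁}) ⊆ O_𝔫` for `𝔫₁ = Φ⁻¹ 𝔫` -/
theorem stb_st_map_loc {u : F} (Φ : F ≃+* F)
    (hΦB : ∀ b : F, IsIntegral ↥(Algebra.adjoin A₀ {u}) b →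
      IsIntegral ↥(Algebra.adjoin A₀ {u}) (Φ b))
    (hΦB' : ∀ b : F, IsIntegral ↥(Algebra.adjoin A₀ {u}) b →
      IsIntegral ↥(Algebra.adjoin A₀ {u}) (Φ.symm b))
    (hΦπ : ∃ a : A₀, Φ (algebraMap A₀ F π) = algebraMap A₀ F (π * a))
    (𝔫 : AtPt (F := F) π u) :
    ∀ x ∈ atLoc (stbStPre Φ hΦB hΦB' hΦπ 𝔫), Φ.toRingHom x ∈ atLoc 𝔫 :=
  stb_sp_map_loc 𝔫 (stbStPre Φ hΦB hΦB' hΦπ 𝔫) Φ.toRingHom fun b =>
    ⟨stbStEquiv Φ hΦB hΦB' b, rfl, fun hb => hb⟩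

/-- `𝔫₁ = (π, Φ⁻¹ s)` locally if `𝔫 = (π, s)` locally -/
theorem stb_st_locGen {u : F} (Φ : F ≃+* F)
    (hΦB : ∀ b : F, IsIntegral ↥(Algebra.adjoin A₀ {u}) b →
      IsIntegral ↥(Algebra.adjoin A₀ {u}) (Φ b))
    (hΦB' : ∀ b : F, IsIntegral ↥(Algebra.adjoin A₀ {u}) b →
      IsIntegral ↥(Algebra.adjoin A₀ {u}) (Φ.symm b))
    (hΦπ : ∃ a : A₀, Φ (algebraMap A₀ F π) = algebraMap A₀ F (π * a))
    (hΦπ' : ∃ a : A₀, Φ.symm (algebraMap A₀ F π) = algebraMap A₀ F (π * a))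
    (𝔫 : AtPt (F := F) π u)
    (s : ↥(zchClosure (A₀ := A₀) ({u} : Set F))) (hs : s ∈ 𝔫.1)
    (hgen : NodesLocGen 𝔫.1 {algebraMap A₀ ↥(zchClosure (A₀ := A₀) ({u} : Set F)) π, s}) :
    (stbStEquiv Φ hΦB hΦB').symm s ∈ (stbStPre Φ hΦB hΦB' hΦπ 𝔫).1 ∧
    NodesLocGen (stbStPre Φ hΦB hΦB' hΦπ 𝔫).1
      {algebraMap A₀ ↥(zchClosure (A₀ := A₀) ({u} : Set F)) π,
        (stbStEquiv Φ hΦB hΦB').symm s} := by
  refine ⟨?_, fun b hb => ?_⟩
  · rw [stb_st_mem_pre, RingEquiv.apply_symm_apply]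
    exact hs
  · rw [stb_st_mem_pre] at hb
    obtain ⟨v, hv, hvb⟩ := hgen _ hb
    rw [Ideal.mem_span_pair] at hvb
    obtain ⟨c₁, c₂, hc⟩ := hvb
    refine ⟨(stbStEquiv Φ hΦB hΦB').symm v, ?_, ?_⟩
    · rw [stb_st_mem_pre, RingEquiv.apply_symm_apply]
      exact hv
    · obtain ⟨a, ha⟩ := hΦπ'
      have e : (stbStEquiv Φ hΦB hΦB').symm
          (algebraMap A₀ ↥(zchClosure (A₀ := A₀) ({u} : Set F)) π) =
          algebraMap A₀ ↥(zchClosure (A₀ := A₀) ({u} : Set F)) π *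
            algebraMap A₀ ↥(zchClosure (A₀ := A₀) ({u} : Set F)) a := by
        apply Subtype.ext
        show Φ.symm (algebraMap A₀ F π) = algebraMap A₀ F π * algebraMap A₀ F a
        rw [ha, map_mul]
      have h1 := congrArg (stbStEquiv Φ hΦB hΦB').symm hc
      rw [map_add, map_mul, map_mul, map_mul, RingEquiv.symm_apply_apply, e] at h1
      rw [Ideal.mem_span_pair]
      refine ⟨(stbStEquiv Φ hΦB hΦB').symm c₁ *
        algebraMap A₀ ↥(zchClosure (A₀ := A₀) ({u} : Set F)) a,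
        (stbStEquiv Φ hΦB hΦB').symm c₂, ?_⟩
      rw [← h1]
      ring

/-- **The smooth disjunct, from the data at `𝔫` alone.**  `Φ` preserves the chart `B_u`, `π A₀`
and the `𝔪(V c')`, together with `Φ⁻¹`; `𝔫 = (π, s)` locally, only the component `c` passes
through `𝔫`; `y ≡ tt ^ m` at `V c`; tube hypotheses for `y` at every closed point of the chart.
Then `StbSmooth O_𝔫 O_{Φ⁻¹𝔫} (V c) Φ m y`, and `c` passes through `Φ⁻¹ 𝔫`. -/
theorem stb_st_smooth (hπ : Irreducible π) {u : F} (hu : Transcendental E u)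
    [FiniteDimensional E⟮u⟯ F] [Finite κ]
    [IsNoetherianRing ↥(zchClosure (A₀ := A₀) ({u} : Set F))]
    (V : κ → ValuationSubring F)
    (hBV : ∀ c (b : F), IsIntegral ↥(Algebra.adjoin A₀ {u}) b → b ∈ V c)
    (hπV : ∀ c, algebraMap A₀ F π ∈ (V c).nonunits)
    (hSS1 : ∀ b : F, IsIntegral ↥(Algebra.adjoin A₀ {u}) b → (∀ c, b ∈ (V c).nonunits) →
      ∃ b' : F, IsIntegral ↥(Algebra.adjoin A₀ {u}) b' ∧ b = algebraMap A₀ F π * b')
    (hVloc : ∀ c (x : F), x ∈ V c → ∃ b s : F, IsIntegral ↥(Algebra.adjoin A₀ {u}) b ∧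
      IsIntegral ↥(Algebra.adjoin A₀ {u}) s ∧ s ∉ (V c).nonunits ∧ s * x = b)
    (c : κ)
    (hunif : ∀ x : F, x ≠ 0 → ∃ k : ℤ, (V c).valuation (x / algebraMap A₀ F π ^ k) = 1)
    (Φ : F ≃+* F)
    (hΦB : ∀ b : F, IsIntegral ↥(Algebra.adjoin A₀ {u}) b →
      IsIntegral ↥(Algebra.adjoin A₀ {u}) (Φ b))
    (hΦB' : ∀ b : F, IsIntegral ↥(Algebra.adjoin A₀ {u}) b →
      IsIntegral ↥(Algebra.adjoin A₀ {u}) (Φ.symm b))
    (hΦπ : ∃ a : A₀, Φ (algebraMap A₀ F π) = algebraMap A₀ F (π * a))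
    (hΦπ' : ∃ a : A₀, Φ.symm (algebraMap A₀ F π) = algebraMap A₀ F (π * a))
    (hΦV : ∀ c', ∀ x ∈ (V c').nonunits, Φ x ∈ (V c').nonunits)
    (hΦV' : ∀ c', ∀ x ∈ (V c').nonunits, Φ.symm x ∈ (V c').nonunits)
    (𝔫 : AtPt (F := F) π u)
    (s : ↥(zchClosure (A₀ := A₀) ({u} : Set F))) (hs : s ∈ 𝔫.1)
    (hgen : NodesLocGen 𝔫.1 {algebraMap A₀ ↥(zchClosure (A₀ := A₀) ({u} : Set F)) π, s})
    (hc : atThrough 𝔫 (V c)) (honly : ∀ c', atThrough 𝔫 (V c') → c' = c)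
    {y : F} (m : ℕ) (tt : F) (htoric : y / tt ^ m - 1 ∈ (V c).nonunits)
    (hfin : ∀ 𝔫' : AtPt (F := F) π u, {P : Place E F |
      LsTube ↥(zchClosure (A₀ := A₀) ({u} : Set F)) u 𝔫'.1 P ∧ P.ord y ≠ 0}.Finite)
    (hm : ∀ 𝔫' : AtPt (F := F) π u, ∀ P : Place E F,
      LsTube ↥(zchClosure (A₀ := A₀) ({u} : Set F)) u 𝔫'.1 P → (m : ℤ) ∣ P.ord y)
    (hrat : ∀ 𝔫' : AtPt (F := F) π u, ∀ P : Place E F,
      LsTube ↥(zchClosure (A₀ := A₀) ({u} : Set F)) u 𝔫'.1 P → P.ord y ≠ 0 →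
        ∀ f ∈ P.toValuationSubring,
          ∃ c : E, f - algebraMap E F c ∈ P.toValuationSubring.nonunits) :
    atThrough (stbStPre Φ hΦB hΦB' hΦπ 𝔫) (V c) ∧
      StbSmooth (atLoc 𝔫) (atLoc (stbStPre Φ hΦB hΦB' hΦπ 𝔫)) (V c) Φ.toRingHom m y := by
  have hc₁ := stb_st_through Φ hΦB hΦB' hΦπ 𝔫 (V c) (hΦV c) hc
  obtain ⟨hs₁, hgen₁⟩ := stb_st_locGen Φ hΦB hΦB' hΦπ hΦπ' 𝔫 s hs hgen
  refine ⟨hc₁, ?_⟩
  exact stb_sp_smooth hπ hu hu V hBV hBV hπV hSS1 hSS1 hVloc hVloc c hunif 𝔫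
    (stbStPre Φ hΦB hΦB' hΦπ 𝔫) s hs hgen _ hs₁ hgen₁ hc hc₁ honly
    (fun c' hc' => honly c'
      (stb_st_through_of_pre Φ hΦB hΦB' hΦπ 𝔫 (V c') (hΦV' c') hc'))
    Φ.toRingHom (stb_st_map_loc Φ hΦB hΦB' hΦπ 𝔫) m tt htoric
    (hfin 𝔫) (hm 𝔫) (hrat 𝔫) (hfin _) (hm _) (hrat _)

/-- **The second disjunct of `hpts` of `stb_main_points`** at a one-component point of the chart
`t`. -/
theorem stb_st_hpts_inl (hπ : Irreducible π) {t : F} (hu : Transcendental E t)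
    [FiniteDimensional E⟮t⟯ F] [Finite κ]
    [IsNoetherianRing ↥(zchClosure (A₀ := A₀) ({t} : Set F))]
    (V : κ → ValuationSubring F)
    (hBV : ∀ c (b : F), IsIntegral ↥(Algebra.adjoin A₀ {t}) b → b ∈ V c)
    (hπV : ∀ c, algebraMap A₀ F π ∈ (V c).nonunits)
    (hSS1 : ∀ b : F, IsIntegral ↥(Algebra.adjoin A₀ {t}) b → (∀ c, b ∈ (V c).nonunits) →
      ∃ b' : F, IsIntegral ↥(Algebra.adjoin A₀ {t}) b' ∧ b = algebraMap A₀ F π * b')
    (hVloc : ∀ c (x : F), x ∈ V c → ∃ b s : F, IsIntegral ↥(Algebra.adjoin A₀ {t}) b ∧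
      IsIntegral ↥(Algebra.adjoin A₀ {t}) s ∧ s ∉ (V c).nonunits ∧ s * x = b)
    (c : κ)
    (hunif : ∀ x : F, x ≠ 0 → ∃ k : ℤ, (V c).valuation (x / algebraMap A₀ F π ^ k) = 1)
    (Φ : F ≃+* F)
    (hΦB : ∀ b : F, IsIntegral ↥(Algebra.adjoin A₀ {t}) b →
      IsIntegral ↥(Algebra.adjoin A₀ {t}) (Φ b))
    (hΦB' : ∀ b : F, IsIntegral ↥(Algebra.adjoin A₀ {t}) b →
      IsIntegral ↥(Algebra.adjoin A₀ {t}) (Φ.symm b))
    (hΦπ : ∃ a : A₀, Φ (algebraMap A₀ F π) = algebraMap A₀ F (π * a))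
    (hΦπ' : ∃ a : A₀, Φ.symm (algebraMap A₀ F π) = algebraMap A₀ F (π * a))
    (hΦV : ∀ c', ∀ x ∈ (V c').nonunits, Φ x ∈ (V c').nonunits)
    (hΦV' : ∀ c', ∀ x ∈ (V c').nonunits, Φ.symm x ∈ (V c').nonunits)
    (𝔫 : AtPt (F := F) π t)
    (s : ↥(zchClosure (A₀ := A₀) ({t} : Set F))) (hs : s ∈ 𝔫.1)
    (hgen : NodesLocGen 𝔫.1 {algebraMap A₀ ↥(zchClosure (A₀ := A₀) ({t} : Set F)) π, s})
    (hc : atInc π t V (Sum.inl 𝔫) c) (honly : ∀ c', atInc π t V (Sum.inl 𝔫) c' → c' = c)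
    {y : F} (m : ℕ) (tt : F) (htoric : y / tt ^ m - 1 ∈ (V c).nonunits)
    (hfin : ∀ 𝔫' : AtPt (F := F) π t, {P : Place E F |
      LsTube ↥(zchClosure (A₀ := A₀) ({t} : Set F)) t 𝔫'.1 P ∧ P.ord y ≠ 0}.Finite)
    (hm : ∀ 𝔫' : AtPt (F := F) π t, ∀ P : Place E F,
      LsTube ↥(zchClosure (A₀ := A₀) ({t} : Set F)) t 𝔫'.1 P → (m : ℤ) ∣ P.ord y)
    (hrat : ∀ 𝔫' : AtPt (F := F) π t, ∀ P : Place E F,
      LsTube ↥(zchClosure (A₀ := A₀) ({t} : Set F)) t 𝔫'.1 P → P.ord y ≠ 0 →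
        ∀ f ∈ P.toValuationSubring,
          ∃ c : E, f - algebraMap E F c ∈ P.toValuationSubring.nonunits) :
    ∃ c, atInc π t V (Sum.inl 𝔫) c ∧ (∀ c', atInc π t V (Sum.inl 𝔫) c' → c' = c) ∧
      ∃ i₁ : AtPt (F := F) π t ⊕ AtPt (F := F) π t⁻¹, atInc π t V i₁ c ∧
        StbSmooth (atO π t (Sum.inl 𝔫)) (atO π t i₁) (V c) Φ.toRingHom m y := by
  obtain ⟨hc₁, hsm⟩ := stb_st_smooth hπ hu V hBV hπV hSS1 hVloc c hunif Φ hΦB hΦB' hΦπ hΦπ'
    hΦV hΦV' 𝔫 s hs hgen hc honly m tt htoric hfin hm hrat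
  exact ⟨c, hc, honly, Sum.inl (stbStPre Φ hΦB hΦB' hΦπ 𝔫), hc₁, hsm⟩

/-- **The second disjunct of `hpts` of `stb_main_points`** at a one-component point of the chart
`t⁻¹`. -/
theorem stb_st_hpts_inr (hπ : Irreducible π) {t : F} (hu : Transcendental E t⁻¹)
    [FiniteDimensional E⟮t⁻¹⟯ F] [Finite κ]
    [IsNoetherianRing ↥(zchClosure (A₀ := A₀) ({t⁻¹} : Set F))]
    (V : κ → ValuationSubring F)
    (hBV : ∀ c (b : F), IsIntegral ↥(Algebra.adjoin A₀ {t⁻¹}) b → b ∈ V c)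
    (hπV : ∀ c, algebraMap A₀ F π ∈ (V c).nonunits)
    (hSS1 : ∀ b : F, IsIntegral ↥(Algebra.adjoin A₀ {t⁻¹}) b → (∀ c, b ∈ (V c).nonunits) →
      ∃ b' : F, IsIntegral ↥(Algebra.adjoin A₀ {t⁻¹}) b' ∧ b = algebraMap A₀ F π * b')
    (hVloc : ∀ c (x : F), x ∈ V c → ∃ b s : F, IsIntegral ↥(Algebra.adjoin A₀ {t⁻¹}) b ∧
      IsIntegral ↥(Algebra.adjoin A₀ {t⁻¹}) s ∧ s ∉ (V c).nonunits ∧ s * x = b)
    (c : κ)
    (hunif : ∀ x : F, x ≠ 0 → ∃ k : ℤ, (V c).valuation (x / algebraMap A₀ F π ^ k) = 1)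
    (Φ : F ≃+* F)
    (hΦB : ∀ b : F, IsIntegral ↥(Algebra.adjoin A₀ {t⁻¹}) b →
      IsIntegral ↥(Algebra.adjoin A₀ {t⁻¹}) (Φ b))
    (hΦB' : ∀ b : F, IsIntegral ↥(Algebra.adjoin A₀ {t⁻¹}) b →
      IsIntegral ↥(Algebra.adjoin A₀ {t⁻¹}) (Φ.symm b))
    (hΦπ : ∃ a : A₀, Φ (algebraMap A₀ F π) = algebraMap A₀ F (π * a))
    (hΦπ' : ∃ a : A₀, Φ.symm (algebraMap A₀ F π) = algebraMap A₀ F (π * a))
    (hΦV : ∀ c', ∀ x ∈ (V c').nonunits, Φ x ∈ (V c').nonunits)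
    (hΦV' : ∀ c', ∀ x ∈ (V c').nonunits, Φ.symm x ∈ (V c').nonunits)
    (𝔫 : AtPt (F := F) π t⁻¹)
    (s : ↥(zchClosure (A₀ := A₀) ({t⁻¹} : Set F))) (hs : s ∈ 𝔫.1)
    (hgen : NodesLocGen 𝔫.1 {algebraMap A₀ ↥(zchClosure (A₀ := A₀) ({t⁻¹} : Set F)) π, s})
    (hc : atInc π t V (Sum.inr 𝔫) c) (honly : ∀ c', atInc π t V (Sum.inr 𝔫) c' → c' = c)
    {y : F} (m : ℕ) (tt : F) (htoric : y / tt ^ m - 1 ∈ (V c).nonunits)
    (hfin : ∀ 𝔫' : AtPt (F := F) π t⁻¹, {P : Place E F |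
      LsTube ↥(zchClosure (A₀ := A₀) ({t⁻¹} : Set F)) t⁻¹ 𝔫'.1 P ∧ P.ord y ≠ 0}.Finite)
    (hm : ∀ 𝔫' : AtPt (F := F) π t⁻¹, ∀ P : Place E F,
      LsTube ↥(zchClosure (A₀ := A₀) ({t⁻¹} : Set F)) t⁻¹ 𝔫'.1 P → (m : ℤ) ∣ P.ord y)
    (hrat : ∀ 𝔫' : AtPt (F := F) π t⁻¹, ∀ P : Place E F,
      LsTube ↥(zchClosure (A₀ := A₀) ({t⁻¹} : Set F)) t⁻¹ 𝔫'.1 P → P.ord y ≠ 0 →
        ∀ f ∈ P.toValuationSubring,
          ∃ c : E, f - algebraMap E F c ∈ P.toValuationSubring.nonunits) :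
    ∃ c, atInc π t V (Sum.inr 𝔫) c ∧ (∀ c', atInc π t V (Sum.inr 𝔫) c' → c' = c) ∧
      ∃ i₁ : AtPt (F := F) π t ⊕ AtPt (F := F) π t⁻¹, atInc π t V i₁ c ∧
        StbSmooth (atO π t (Sum.inr 𝔫)) (atO π t i₁) (V c) Φ.toRingHom m y := by
  obtain ⟨hc₁, hsm⟩ := stb_st_smooth hπ hu V hBV hπV hSS1 hVloc c hunif Φ hΦB hΦB' hΦπ hΦπ'
    hΦV hΦV' 𝔫 s hs hgen hc honly m tt htoric hfin hm hrat
  exact ⟨c, hc, honly, Sum.inr (stbStPre Φ hΦB hΦB' hΦπ 𝔫), hc₁, hsm⟩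

end Transport

end Fermat.Agent.STB


end ZBSTB_003_9

/-! ### bundled: `Fermat.Agent.STB.SmoothOnly` -/
section ZBSTB_003_10

/-!
# STB-S4 — exactly one component passes through a smooth point

`B` noetherian, `𝔫` a maximal ideal with `𝔫 = (ϖ, s)` locally (`NodesLocGen 𝔫 {ϖ, s}`).
Then the primes `𝔭 ∋ ϖ`, `𝔭 ≤ 𝔫` are totally ordered by inclusion (`stb_sx_comparable`):
`B_𝔫 / ϖ` is a local ring with principal maximal ideal.  Since distinct vertical valuation rings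
are incomparable, exactly one component passes through a smooth point of the special fibre
(`stb_sx_only`, `stb_sx_exists_unique`).

Consequently the first alternative of the dichotomy of U5 (`hgen` alone) gives the whole second
disjunct of `hpts` in `stb_main_points`: `stb_sx_hpts_inl`, `stb_sx_hpts_inr`.
-/

set_option autoImplicit false
set_option linter.style.haveILetI false
set_option linter.unusedSectionVars false
set_option linter.unusedVariables false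

namespace Fermat.Agent.STB

open Polynomial IntermediateField Fermat.Agent.INJ AlgebraicCurve Fermat.Agent.UNIP

section Algebra

variable {B : Type*} [CommRing B]

/-- an element outside a maximal ideal is invertible modulo every power of it -/
theorem stb_sx_exists_inv_pow (𝔫 : Ideal B) [h𝔫 : 𝔫.IsMaximal] {v : B} (hv : v ∉ 𝔫) (k : ℕ) :
    ∃ w : B, 1 - w * v ∈ 𝔫 ^ k := by
  obtain ⟨w₀, i, hi, hw₀⟩ := h𝔫.exists_inv hv
  set n : B := 1 - w₀ * v with hn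
  have hn𝔫 : n ∈ 𝔫 := by
    have : n = i := by rw [hn, ← hw₀]; ring
    rw [this]
    exact hi
  refine ⟨w₀ * ∑ i ∈ Finset.range k, n ^ i, ?_⟩
  have e : 1 - w₀ * (∑ i ∈ Finset.range k, n ^ i) * v = n ^ k := by
    have h1 : w₀ * v = 1 - n := by rw [hn]; ring
    have h2 : w₀ * (∑ i ∈ Finset.range k, n ^ i) * v =
        (∑ i ∈ Finset.range k, n ^ i) * (w₀ * v) := by ring
    rw [h2, h1]
    have h3 := geom_sum_mul n k
    -- `(∑ n ^ i) * (n - 1) = n ^ k - 1`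
    have h4 : (∑ i ∈ Finset.range k, n ^ i) * (1 - n) =
        -((∑ i ∈ Finset.range k, n ^ i) * (n - 1)) := by ring
    rw [h4, h3]
    ring
  rw [e]
  exact Ideal.pow_mem_pow hn𝔫 k

/-- **Descent.**  `𝔫 = (ϖ, s)` locally, `𝔭 ≤ 𝔫` a prime with `s ∉ 𝔭`: every element of `𝔭` lies in
`(ϖ, s ^ k)` locally at `𝔫`, for every `k`. -/
theorem stb_sx_descent (𝔫 : Ideal B) [h𝔫 : 𝔫.IsPrime] (𝔭 : Ideal B) [h𝔭 : 𝔭.IsPrime]
    (hle : 𝔭 ≤ 𝔫) {ϖ s : B} (hϖ : ϖ ∈ 𝔭) (hgen : NodesLocGen 𝔫 {ϖ, s}) (hs : s ∉ 𝔭) (k : ℕ) :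
    ∀ x ∈ 𝔭, ∃ v : B, v ∉ 𝔫 ∧ ∃ a b : B, v * x = a * ϖ + b * s ^ k := by
  induction k with
  | zero =>
    intro x _
    exact ⟨1, fun h => h𝔫.ne_top ((Ideal.eq_top_iff_one 𝔫).mpr h), 0, x, by ring⟩
  | succ k ih =>
    intro x hx
    obtain ⟨v, hv, a, b, hvx⟩ := ih x hx
    have hb : b ∈ 𝔭 := by
      have h1 : b * s ^ k ∈ 𝔭 := by
        have : b * s ^ k = v * x - a * ϖ := by rw [hvx]; ring
        rw [this]
        exact 𝔭.sub_mem (𝔭.mul_mem_left _ hx) (𝔭.mul_mem_left _ hϖ)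
      rcases h𝔭.mem_or_mem h1 with h | h
      · exact h
      · exact absurd (h𝔭.mem_of_pow_mem _ h) hs
    obtain ⟨u, hu, hub⟩ := hgen b (hle hb)
    rw [Ideal.mem_span_pair] at hub
    obtain ⟨a', b', hab⟩ := hub
    refine ⟨u * v, fun h => ?_, u * a + a' * s ^ k, b', ?_⟩
    · rcases h𝔫.mem_or_mem h with h' | h'
      · exact hu h'
      · exact hv h'
    · have e : u * v * x = u * (v * x) := by ring
      rw [e, hvx, mul_add, ← mul_assoc u b, ← hab, pow_succ]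
      ring

/-- **Exclusion.**  `B` noetherian, `𝔫` maximal, `𝔫 = (ϖ, s)` locally; `𝔭₁, 𝔭₂ ≤ 𝔫` primes
containing `ϖ`, `s ∉ 𝔭₁`.  Then `𝔭₁ ≤ 𝔭₂`. -/
theorem stb_sx_le [IsNoetherianRing B] (𝔫 : Ideal B) [h𝔫 : 𝔫.IsMaximal] (𝔭₁ 𝔭₂ : Ideal B)
    [h𝔭₁ : 𝔭₁.IsPrime] [h𝔭₂ : 𝔭₂.IsPrime] (h1 : 𝔭₁ ≤ 𝔫) (h2 : 𝔭₂ ≤ 𝔫) {ϖ s : B}
    (hϖ1 : ϖ ∈ 𝔭₁) (hϖ2 : ϖ ∈ 𝔭₂) (hgen : NodesLocGen 𝔫 {ϖ, s}) (hs : s ∈ 𝔫)
    (hs1 : s ∉ 𝔭₁) : 𝔭₁ ≤ 𝔭₂ := by
  haveI : 𝔫.IsPrime := h𝔫.isPrime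
  intro x hx
  have hmem : ∀ N : ℕ, x ∈ 𝔫 ^ N ⊔ 𝔭₂ := by
    intro N
    obtain ⟨v, hv, a, b, hvx⟩ := stb_sx_descent 𝔫 𝔭₁ h1 hϖ1 hgen hs1 N x hx
    obtain ⟨w, hw⟩ := stb_sx_exists_inv_pow 𝔫 hv N
    have e : x = ((1 - w * v) * x + w * b * s ^ N) + w * a * ϖ := by
      have : w * b * s ^ N + w * a * ϖ = w * (v * x) := by rw [hvx]; ring
      calc x = (1 - w * v) * x + w * (v * x) := by ring
        _ = (1 - w * v) * x + (w * b * s ^ N + w * a * ϖ) := by rw [this]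
        _ = _ := by ring
    rw [e]
    refine Submodule.add_mem_sup (Ideal.add_mem _ (Ideal.mul_mem_right _ _ hw)
      (Ideal.mul_mem_left _ _ (Ideal.pow_mem_pow hs N))) (𝔭₂.mul_mem_left _ hϖ2)
  obtain ⟨r, hr, hrx⟩ := unip_krull_mem 𝔫 𝔭₂ x hmem
  rcases h𝔭₂.mem_or_mem hrx with h | h
  · exfalso
    have h3 : (1 : B) ∈ 𝔫 := by
      have : (1 : B) = (1 - r) + r := by ring
      rw [this]
      exact 𝔫.add_mem (h2 h) hr
    exact h𝔫.ne_top ((Ideal.eq_top_iff_one 𝔫).mpr h3)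
  · exact h

/-- **The primes over `ϖ` through a smooth point are comparable.** -/
theorem stb_sx_comparable [IsNoetherianRing B] (𝔫 : Ideal B) [h𝔫 : 𝔫.IsMaximal]
    (𝔭₁ 𝔭₂ : Ideal B) [h𝔭₁ : 𝔭₁.IsPrime] [h𝔭₂ : 𝔭₂.IsPrime] (h1 : 𝔭₁ ≤ 𝔫) (h2 : 𝔭₂ ≤ 𝔫)
    {ϖ s : B} (hϖ1 : ϖ ∈ 𝔭₁) (hϖ2 : ϖ ∈ 𝔭₂) (hgen : NodesLocGen 𝔫 {ϖ, s}) (hs : s ∈ 𝔫) :
    𝔭₁ ≤ 𝔭₂ ∨ 𝔭₂ ≤ 𝔭₁ := by
  by_cases hs1 : s ∈ 𝔭₁
  · right
    have h𝔭 : 𝔭₁ = 𝔫 := by
      refine stb_eq_of_locGen h1 _ ?_ hgen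
      intro y hy
      rcases hy with rfl | hy
      · exact hϖ1
      · rw [Set.mem_singleton_iff] at hy
        rw [hy]
        exact hs1
    rw [h𝔭]
    exact h2
  · exact Or.inl (stb_sx_le 𝔫 𝔭₁ 𝔭₂ h1 h2 hϖ1 hϖ2 hgen hs hs1)

end Algebra

section Chart

variable {A₀ E F : Type*} [CommRing A₀] [IsDomain A₀] [IsDiscreteValuationRing A₀]
  [Field E] [Algebra A₀ E] [IsFractionRing A₀ E] [CharZero E]
  [Field F] [Algebra E F] [Algebra A₀ F] [IsScalarTower A₀ E F]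
  {π : A₀} {κ : Type*}

/-- `𝔭_c ≤ 𝔭_{c'}` implies `V c' ≤ V c` (`V c' = (B_u)_{𝔭_{c'}}`) -/
theorem stb_sx_le_of_vert_le {u : F} (V : κ → ValuationSubring F)
    (hBV : ∀ c (b : F), IsIntegral ↥(Algebra.adjoin A₀ {u}) b → b ∈ V c)
    (hVloc : ∀ c (x : F), x ∈ V c → ∃ b s : F, IsIntegral ↥(Algebra.adjoin A₀ {u}) b ∧
      IsIntegral ↥(Algebra.adjoin A₀ {u}) s ∧ s ∉ (V c).nonunits ∧ s * x = b)
    (c c' : κ)
    (hle : ∀ b : F, IsIntegral ↥(Algebra.adjoin A₀ {u}) b → b ∈ (V c).nonunits →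
      b ∈ (V c').nonunits) : V c' ≤ V c := by
  intro x hx
  obtain ⟨b, s, hb, hs, hsV, hsx⟩ := hVloc c' x hx
  have hs' : s ∉ (V c).nonunits := fun h => hsV (hle s hs h)
  have hs1 : (V c).valuation s = 1 := stb_gc_val_eq_one (V c) (hBV c s hs) hs'
  have hs0 : s ≠ 0 := fun h => by rw [h, map_zero] at hs1; exact zero_ne_one hs1
  have hx' : x = s⁻¹ * b := by rw [← hsx]; field_simp
  rw [hx']
  refine (V c).mul_mem _ _ ?_ (hBV c b hb)
  rw [← (V c).valuation_le_one_iff, map_inv₀, hs1, inv_one]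

/-- **At most one component passes through a smooth point.** -/
theorem stb_sx_only {u : F} [IsNoetherianRing ↥(zchClosure (A₀ := A₀) ({u} : Set F))]
    (V : κ → ValuationSubring F)
    (hBV : ∀ c (b : F), IsIntegral ↥(Algebra.adjoin A₀ {u}) b → b ∈ V c)
    (hπV : ∀ c, algebraMap A₀ F π ∈ (V c).nonunits)
    (hVloc : ∀ c (x : F), x ∈ V c → ∃ b s : F, IsIntegral ↥(Algebra.adjoin A₀ {u}) b ∧
      IsIntegral ↥(Algebra.adjoin A₀ {u}) s ∧ s ∉ (V c).nonunits ∧ s * x = b)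
    (hnle : ∀ c c', c ≠ c' → ¬ V c ≤ V c')
    (𝔫 : AtPt (F := F) π u)
    (s : ↥(zchClosure (A₀ := A₀) ({u} : Set F))) (hs : s ∈ 𝔫.1)
    (hgen : NodesLocGen 𝔫.1 {algebraMap A₀ ↥(zchClosure (A₀ := A₀) ({u} : Set F)) π, s})
    (c c' : κ) (hc : atThrough 𝔫 (V c)) (hc' : atThrough 𝔫 (V c')) : c = c' := by
  by_contra hne
  haveI := 𝔫.2.1
  haveI h1p := at_crossingIdeal_isPrime (A₀ := A₀) (S := {u}) (V c) (hBV c)
  haveI h2p := at_crossingIdeal_isPrime (A₀ := A₀) (S := {u}) (V c') (hBV c')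
  rcases stb_sx_comparable 𝔫.1 (crossingIdeal (A₀ := A₀) {u} (V c) (hBV c))
    (crossingIdeal (A₀ := A₀) {u} (V c') (hBV c')) (fun b hb => hc b hb) (fun b hb => hc' b hb)
    (hπV c) (hπV c') hgen hs with h | h
  · exact hnle c' c (Ne.symm hne) (stb_sx_le_of_vert_le V hBV hVloc c c'
      fun b hb hbc => h (x := ⟨b, mem_zchClosure.mpr hb⟩) hbc)
  · exact hnle c c' hne (stb_sx_le_of_vert_le V hBV hVloc c' c
      fun b hb hbc => h (x := ⟨b, mem_zchClosure.mpr hb⟩) hbc)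

/-- **Exactly one component passes through a smooth point.** -/
theorem stb_sx_exists_unique {u : F} [Finite κ]
    [IsNoetherianRing ↥(zchClosure (A₀ := A₀) ({u} : Set F))]
    (V : κ → ValuationSubring F)
    (hBV : ∀ c (b : F), IsIntegral ↥(Algebra.adjoin A₀ {u}) b → b ∈ V c)
    (hπV : ∀ c, algebraMap A₀ F π ∈ (V c).nonunits)
    (hSS1 : ∀ b : F, IsIntegral ↥(Algebra.adjoin A₀ {u}) b → (∀ c, b ∈ (V c).nonunits) →
      ∃ b' : F, IsIntegral ↥(Algebra.adjoin A₀ {u}) b' ∧ b = algebraMap A₀ F π * b')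
    (hVloc : ∀ c (x : F), x ∈ V c → ∃ b s : F, IsIntegral ↥(Algebra.adjoin A₀ {u}) b ∧
      IsIntegral ↥(Algebra.adjoin A₀ {u}) s ∧ s ∉ (V c).nonunits ∧ s * x = b)
    (hnle : ∀ c c', c ≠ c' → ¬ V c ≤ V c')
    (𝔫 : AtPt (F := F) π u)
    (s : ↥(zchClosure (A₀ := A₀) ({u} : Set F))) (hs : s ∈ 𝔫.1)
    (hgen : NodesLocGen 𝔫.1 {algebraMap A₀ ↥(zchClosure (A₀ := A₀) ({u} : Set F)) π, s}) :
    ∃ c, atThrough 𝔫 (V c) ∧ ∀ c', atThrough 𝔫 (V c') → c' = c := by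
  haveI := 𝔫.2.1.isPrime
  obtain ⟨c, hc⟩ := ats_hpt_chart V hBV hSS1 𝔫.1 𝔫.2.2
  exact ⟨c, hc, fun c' hc' => stb_sx_only V hBV hπV hVloc hnle 𝔫 s hs hgen c' c hc' hc⟩

/-- **The second disjunct of `hpts` of `stb_main_points` at a smooth point of the chart `t`**,
from the first alternative of the dichotomy of U5 (`hgen`) alone. -/
theorem stb_sx_hpts_inl (hπ : Irreducible π) {t : F} (hu : Transcendental E t)
    [FiniteDimensional E⟮t⟯ F] [Finite κ]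
    [IsNoetherianRing ↥(zchClosure (A₀ := A₀) ({t} : Set F))]
    (V : κ → ValuationSubring F)
    (hBV : ∀ c (b : F), IsIntegral ↥(Algebra.adjoin A₀ {t}) b → b ∈ V c)
    (hπV : ∀ c, algebraMap A₀ F π ∈ (V c).nonunits)
    (hSS1 : ∀ b : F, IsIntegral ↥(Algebra.adjoin A₀ {t}) b → (∀ c, b ∈ (V c).nonunits) →
      ∃ b' : F, IsIntegral ↥(Algebra.adjoin A₀ {t}) b' ∧ b = algebraMap A₀ F π * b')
    (hVloc : ∀ c (x : F), x ∈ V c → ∃ b s : F, IsIntegral ↥(Algebra.adjoin A₀ {t}) b ∧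
      IsIntegral ↥(Algebra.adjoin A₀ {t}) s ∧ s ∉ (V c).nonunits ∧ s * x = b)
    (hne : ∀ c c', c ≠ c' → V c ≠ V c')
    (harch : ∀ c (a x : F), a ∈ (V c).nonunits → ∃ N : ℕ, a ^ N * x ∈ (V c).nonunits)
    (Φ : F ≃+* F)
    (hΦB : ∀ b : F, IsIntegral ↥(Algebra.adjoin A₀ {t}) b →
      IsIntegral ↥(Algebra.adjoin A₀ {t}) (Φ b))
    (hΦB' : ∀ b : F, IsIntegral ↥(Algebra.adjoin A₀ {t}) b →
      IsIntegral ↥(Algebra.adjoin A₀ {t}) (Φ.symm b))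
    (hΦπ : ∃ a : A₀, Φ (algebraMap A₀ F π) = algebraMap A₀ F (π * a))
    (hΦπ' : ∃ a : A₀, Φ.symm (algebraMap A₀ F π) = algebraMap A₀ F (π * a))
    (hΦV : ∀ c', ∀ x ∈ (V c').nonunits, Φ x ∈ (V c').nonunits)
    (hΦV' : ∀ c', ∀ x ∈ (V c').nonunits, Φ.symm x ∈ (V c').nonunits)
    (𝔫 : AtPt (F := F) π t)
    (s : ↥(zchClosure (A₀ := A₀) ({t} : Set F))) (hs : s ∈ 𝔫.1)
    (hgen : NodesLocGen 𝔫.1 {algebraMap A₀ ↥(zchClosure (A₀ := A₀) ({t} : Set F)) π, s})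
    {y : F} (m : ℕ) (tt : κ → F) (htoric : ∀ c, y / tt c ^ m - 1 ∈ (V c).nonunits)
    (hfin : ∀ 𝔫' : AtPt (F := F) π t, {P : Place E F |
      LsTube ↥(zchClosure (A₀ := A₀) ({t} : Set F)) t 𝔫'.1 P ∧ P.ord y ≠ 0}.Finite)
    (hm : ∀ 𝔫' : AtPt (F := F) π t, ∀ P : Place E F,
      LsTube ↥(zchClosure (A₀ := A₀) ({t} : Set F)) t 𝔫'.1 P → (m : ℤ) ∣ P.ord y)
    (hrat : ∀ 𝔫' : AtPt (F := F) π t, ∀ P : Place E F,
      LsTube ↥(zchClosure (A₀ := A₀) ({t} : Set F)) t 𝔫'.1 P → P.ord y ≠ 0 →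
        ∀ f ∈ P.toValuationSubring,
          ∃ c : E, f - algebraMap E F c ∈ P.toValuationSubring.nonunits) :
    ∃ c, atInc π t V (Sum.inl 𝔫) c ∧ (∀ c', atInc π t V (Sum.inl 𝔫) c' → c' = c) ∧
      ∃ i₁ : AtPt (F := F) π t ⊕ AtPt (F := F) π t⁻¹, atInc π t V i₁ c ∧
        StbSmooth (atO π t (Sum.inl 𝔫)) (atO π t i₁) (V c) Φ.toRingHom m y := by
  have hπ0 : algebraMap A₀ F π ≠ 0 := unip_algebraMap_irreducible_ne_zero E hπ
  have harch' : ∀ c, StbArch (V c) := fun c x a ha => by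
    obtain ⟨N, hN⟩ := harch c a x ha
    exact ⟨N, by rw [mul_comm]; exact hN⟩
  have hnle : ∀ c c', c ≠ c' → ¬ V c ≤ V c' := fun c c' hcc' =>
    stb_not_le_of_ne (harch' c) hπ0 (hπV c') (hne c c' hcc')
  obtain ⟨c, hc, honly⟩ := stb_sx_exists_unique V hBV hπV hSS1 hVloc hnle 𝔫 s hs hgen
  exact stb_st_hpts_inl hπ hu V hBV hπV hSS1 hVloc c
    (stb_sp_hunif hπ0 V hBV hπV hSS1 hVloc hne harch c) Φ hΦB hΦB' hΦπ hΦπ' hΦV hΦV' 𝔫 s hs
    hgen hc honly m (tt c) (htoric c) hfin hm hrat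

/-- **The second disjunct of `hpts` of `stb_main_points` at a smooth point of the chart `t⁻¹`**,
from the first alternative of the dichotomy of U5 (`hgen`) alone. -/
theorem stb_sx_hpts_inr (hπ : Irreducible π) {t : F} (hu : Transcendental E t⁻¹)
    [FiniteDimensional E⟮t⁻¹⟯ F] [Finite κ]
    [IsNoetherianRing ↥(zchClosure (A₀ := A₀) ({t⁻¹} : Set F))]
    (V : κ → ValuationSubring F)
    (hBV : ∀ c (b : F), IsIntegral ↥(Algebra.adjoin A₀ {t⁻¹}) b → b ∈ V c)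
    (hπV : ∀ c, algebraMap A₀ F π ∈ (V c).nonunits)
    (hSS1 : ∀ b : F, IsIntegral ↥(Algebra.adjoin A₀ {t⁻¹}) b → (∀ c, b ∈ (V c).nonunits) →
      ∃ b' : F, IsIntegral ↥(Algebra.adjoin A₀ {t⁻¹}) b' ∧ b = algebraMap A₀ F π * b')
    (hVloc : ∀ c (x : F), x ∈ V c → ∃ b s : F, IsIntegral ↥(Algebra.adjoin A₀ {t⁻¹}) b ∧
      IsIntegral ↥(Algebra.adjoin A₀ {t⁻¹}) s ∧ s ∉ (V c).nonunits ∧ s * x = b)
    (hne : ∀ c c', c ≠ c' → V c ≠ V c')
    (harch : ∀ c (a x : F), a ∈ (V c).nonunits → ∃ N : ℕ, a ^ N * x ∈ (V c).nonunits)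
    (Φ : F ≃+* F)
    (hΦB : ∀ b : F, IsIntegral ↥(Algebra.adjoin A₀ {t⁻¹}) b →
      IsIntegral ↥(Algebra.adjoin A₀ {t⁻¹}) (Φ b))
    (hΦB' : ∀ b : F, IsIntegral ↥(Algebra.adjoin A₀ {t⁻¹}) b →
      IsIntegral ↥(Algebra.adjoin A₀ {t⁻¹}) (Φ.symm b))
    (hΦπ : ∃ a : A₀, Φ (algebraMap A₀ F π) = algebraMap A₀ F (π * a))
    (hΦπ' : ∃ a : A₀, Φ.symm (algebraMap A₀ F π) = algebraMap A₀ F (π * a))
    (hΦV : ∀ c', ∀ x ∈ (V c').nonunits, Φ x ∈ (V c').nonunits)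
    (hΦV' : ∀ c', ∀ x ∈ (V c').nonunits, Φ.symm x ∈ (V c').nonunits)
    (𝔫 : AtPt (F := F) π t⁻¹)
    (s : ↥(zchClosure (A₀ := A₀) ({t⁻¹} : Set F))) (hs : s ∈ 𝔫.1)
    (hgen : NodesLocGen 𝔫.1 {algebraMap A₀ ↥(zchClosure (A₀ := A₀) ({t⁻¹} : Set F)) π, s})
    {y : F} (m : ℕ) (tt : κ → F) (htoric : ∀ c, y / tt c ^ m - 1 ∈ (V c).nonunits)
    (hfin : ∀ 𝔫' : AtPt (F := F) π t⁻¹, {P : Place E F |
      LsTube ↥(zchClosure (A₀ := A₀) ({t⁻¹} : Set F)) t⁻¹ 𝔫'.1 P ∧ P.ord y ≠ 0}.Finite)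
    (hm : ∀ 𝔫' : AtPt (F := F) π t⁻¹, ∀ P : Place E F,
      LsTube ↥(zchClosure (A₀ := A₀) ({t⁻¹} : Set F)) t⁻¹ 𝔫'.1 P → (m : ℤ) ∣ P.ord y)
    (hrat : ∀ 𝔫' : AtPt (F := F) π t⁻¹, ∀ P : Place E F,
      LsTube ↥(zchClosure (A₀ := A₀) ({t⁻¹} : Set F)) t⁻¹ 𝔫'.1 P → P.ord y ≠ 0 →
        ∀ f ∈ P.toValuationSubring,
          ∃ c : E, f - algebraMap E F c ∈ P.toValuationSubring.nonunits) :
    ∃ c, atInc π t V (Sum.inr 𝔫) c ∧ (∀ c', atInc π t V (Sum.inr 𝔫) c' → c' = c) ∧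
      ∃ i₁ : AtPt (F := F) π t ⊕ AtPt (F := F) π t⁻¹, atInc π t V i₁ c ∧
        StbSmooth (atO π t (Sum.inr 𝔫)) (atO π t i₁) (V c) Φ.toRingHom m y := by
  have hπ0 : algebraMap A₀ F π ≠ 0 := unip_algebraMap_irreducible_ne_zero E hπ
  have harch' : ∀ c, StbArch (V c) := fun c x a ha => by
    obtain ⟨N, hN⟩ := harch c a x ha
    exact ⟨N, by rw [mul_comm]; exact hN⟩
  have hnle : ∀ c c', c ≠ c' → ¬ V c ≤ V c' := fun c c' hcc' =>
    stb_not_le_of_ne (harch' c) hπ0 (hπV c') (hne c c' hcc')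
  obtain ⟨c, hc, honly⟩ := stb_sx_exists_unique V hBV hπV hSS1 hVloc hnle 𝔫 s hs hgen
  exact stb_st_hpts_inr hπ hu V hBV hπV hSS1 hVloc c
    (stb_sp_hunif hπ0 V hBV hπV hSS1 hVloc hne harch c) Φ hΦB hΦB' hΦπ hΦπ' hΦV hΦV' 𝔫 s hs
    hgen hc honly m (tt c) (htoric c) hfin hm hrat

end Chart

end Fermat.Agent.STB


end ZBSTB_003_10

/-! ### bundled: `Fermat.Agent.STB.MainTwo` -/
section ZBSTB_003_11

/-!
# STB-C4 — (T″) for two components from the dichotomy of U5: the twin of `at_main_two`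

`stb_main_two` : `stb_main_points` with the per-point hypothesis `hpts` discharged from

* the dichotomy of U5 at every closed point of the two charts `t`, `t⁻¹` (`StbNodeAt`, on the
  unramified charts `R₁`, `R₂`, `MgcRamified`),
* the Frobenius hypotheses at the crossing points (`StbCrossFrob`: `g 𝔫 = 𝔫`, `g ≡ (·)^Q mod 𝔫`;
  STB-X `stb_cross_hgB`, `stb_cross_hgB'`, `stb_cross_hfrobB`),
* global hypotheses on `x` (`p ^ r ∣ ord_P x`, rational support) and on `g`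
  (`g t = t`, `g A₀ = A₀`, `g` preserves the vertical valuations).

Conclusion: `g • y / y ^ Q` is a `p ^ r`-th power, `y = g • x / x` toric.
-/

set_option autoImplicit false
set_option linter.style.haveILetI false
set_option linter.unusedSectionVars false
set_option linter.unusedVariables false

namespace Fermat.Agent.STB

open Polynomial IntermediateField Fermat.Agent.INJ AlgebraicCurve Fermat.Agent.UNIP

section Aux

variable {A₀ E F : Type*} [CommRing A₀] [IsDomain A₀] [IsDiscreteValuationRing A₀]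
  [Field E] [Algebra A₀ E] [IsFractionRing A₀ E] [CharZero E]
  [Field F] [Algebra E F] [Algebra A₀ F] [IsScalarTower A₀ E F]
  {π : A₀} {κ : Type*}

/-- `g` preserves `A₀[u]` if it preserves `A₀` and fixes `u` -/
theorem stb_mt_adjoin_smul (g : SemilinearAut E F) {u : F} (hgu : g • u = u)
    (hgA : ∀ α : A₀, ∃ α' : A₀, g • algebraMap A₀ F α = algebraMap A₀ F α')
    {a : F} (ha : a ∈ Algebra.adjoin A₀ ({u} : Set F)) :
    g • a ∈ Algebra.adjoin A₀ ({u} : Set F) := by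
  induction ha using Algebra.adjoin_induction with
  | mem x hx =>
    rw [Set.mem_singleton_iff] at hx
    rw [hx, hgu]
    exact Algebra.subset_adjoin (Set.mem_singleton u)
  | algebraMap r =>
    obtain ⟨r', hr'⟩ := hgA r
    rw [hr']
    exact Subalgebra.algebraMap_mem _ r'
  | add x y _ _ hx hy =>
    rw [smul_add]
    exact Subalgebra.add_mem _ hx hy
  | mul x y _ _ hx hy =>
    rw [smul_mul']
    exact Subalgebra.mul_mem _ hx hy

/-- `g` preserves the chart `B_u` if it preserves `A₀` and fixes `u` -/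
theorem stb_mt_isIntegral_smul (g : SemilinearAut E F) {u : F} (hgu : g • u = u)
    (hgA : ∀ α : A₀, ∃ α' : A₀, g • algebraMap A₀ F α = algebraMap A₀ F α')
    {b : F} (hb : IsIntegral ↥(Algebra.adjoin A₀ ({u} : Set F)) b) :
    IsIntegral ↥(Algebra.adjoin A₀ ({u} : Set F)) (g • b) := by
  obtain ⟨P, hP, hPb⟩ := hb
  let φ : ↥(Algebra.adjoin A₀ ({u} : Set F)) →+* ↥(Algebra.adjoin A₀ ({u} : Set F)) :=
    { toFun := fun a => ⟨g • (a : F), stb_mt_adjoin_smul g hgu hgA a.2⟩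
      map_one' := Subtype.ext (smul_one g)
      map_mul' := fun a b => Subtype.ext (smul_mul' g (a : F) (b : F))
      map_zero' := Subtype.ext (smul_zero g)
      map_add' := fun a b => Subtype.ext (smul_add g (a : F) (b : F)) }
  refine ⟨P.map φ, hP.map φ, ?_⟩
  rw [Polynomial.eval₂_map]
  have e : (algebraMap ↥(Algebra.adjoin A₀ ({u} : Set F)) F).comp φ =
      ((SemilinearAut.toRingAut g : F ≃+* F).toRingHom).comp
        (algebraMap ↥(Algebra.adjoin A₀ ({u} : Set F)) F) := by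
    ext a
    rfl
  rw [e]
  have h := Polynomial.hom_eval₂ P (algebraMap ↥(Algebra.adjoin A₀ ({u} : Set F)) F)
    ((SemilinearAut.toRingAut g : F ≃+* F).toRingHom) b
  have e2 : (SemilinearAut.toRingAut g : F ≃+* F).toRingHom b = g • b := rfl
  rw [e2] at h
  rw [← h, hPb, map_zero]

/-- `ord_P (g x) = ord_{g⁻¹ P} x` -/
theorem stb_mt_ord_smul (g : SemilinearAut E F) (P : Place E F) (x : F) :
    P.ord (g • x) = (g⁻¹ • P).ord x := by
  have h := SemilinearAut.ord_smul g (g⁻¹ • P) x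
  rwa [smul_inv_smul] at h

/-- `ord_P (g x / x) = ord_{g⁻¹ P} x - ord_P x` -/
theorem stb_mt_ord_div (g : SemilinearAut E F) (P : Place E F) {x : F} (hx : x ≠ 0) :
    P.ord (g • x / x) = (g⁻¹ • P).ord x - P.ord x := by
  have hgx : g • x ≠ 0 := fun h0 => hx (by
    have := congrArg (fun y => g⁻¹ • y) h0
    simpa using this)
  rw [div_eq_mul_inv, Place.ord_mul P hgx (inv_ne_zero hx), Place.ord_inv, stb_mt_ord_smul]
  ring

/-- the translate of a rational place is rational -/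
theorem stb_mt_rat_smul (g : SemilinearAut E F) (P : Place E F)
    (hP : ∀ f ∈ P.toValuationSubring,
      ∃ c : E, f - algebraMap E F c ∈ P.toValuationSubring.nonunits) :
    ∀ f ∈ (g • P).toValuationSubring,
      ∃ c : E, f - algebraMap E F c ∈ (g • P).toValuationSubring.nonunits := by
  intro f hf
  have hf' : g⁻¹ • f ∈ P.toValuationSubring := by
    rw [SemilinearAut.smul_toValuationSubring] at hf
    exact (ValuationSubring.mem_pointwise_smul_iff_inv_smul_mem (g := g)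
      (S := P.toValuationSubring) (x := f)).mp hf
  obtain ⟨c, hc⟩ := hP _ hf'
  refine ⟨SemilinearAut.baseAut g c, ?_⟩
  have h := unip_smul_mem_nonunits g P hc
  rwa [smul_sub, smul_inv_smul, SemilinearAut.smul_algebraMap] at h

/-- a valuation-preserving automorphism preserves the maximal ideal -/
theorem stb_mt_map_nonunits (g : SemilinearAut E F) (W : ValuationSubring F)
    (hgW : ∀ f : F, f ≠ 0 → W.valuation (g • f / f) = 1) {x : F} (hx : x ∈ W.nonunits) :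
    g • x ∈ W.nonunits := by
  rcases eq_or_ne x 0 with rfl | hx0
  · rw [smul_zero]
    exact W.nonunits.zero_mem
  · rw [ValuationSubring.mem_nonunits_iff] at hx ⊢
    have e : g • x = (g • x / x) * x := by field_simp
    rw [e, map_mul, hgW x hx0, one_mul]
    exact hx

/-- the inverse of a valuation-preserving automorphism is valuation-preserving -/
theorem stb_mt_inv_valuation (g : SemilinearAut E F) (W : ValuationSubring F)
    (hgW : ∀ f : F, f ≠ 0 → W.valuation (g • f / f) = 1) (f : F) (hf : f ≠ 0) :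
    W.valuation (g⁻¹ • f / f) = 1 := by
  have hgf : g⁻¹ • f ≠ 0 := fun h0 => hf (by
    have := congrArg (fun y => g • y) h0
    simpa using this)
  have h := hgW (g⁻¹ • f) hgf
  rw [smul_inv_smul] at h
  have e : g⁻¹ • f / f = (f / g⁻¹ • f)⁻¹ := by rw [inv_div]
  rw [e, map_inv₀, h, inv_one]

end Aux

section Wiring

variable {A₀ E F : Type*} [CommRing A₀] [IsDomain A₀] [IsDiscreteValuationRing A₀]
  [Field E] [Algebra A₀ E] [IsFractionRing A₀ E] [CharZero E]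
  [Field F] [Algebra E F] [Algebra A₀ F] [IsScalarTower A₀ E F]
  {π : A₀} {κ : Type*}

/-- **The dichotomy of U5 at the closed point `𝔫` of the chart `u`**, on the unramified chart
`R` (`j : R →+* B_u`): smooth point `𝔫 ∩ R = (p, s)`, or crossing point `𝔫 ∩ R = (p, X, Y)` with
`X ∈ 𝔪(V₁)`, `Y ∈ 𝔪(V₂)` and both components through `𝔫 ∩ R`. -/
def StbNodeAt (V₁ V₂ : ValuationSubring F) {u : F} (𝔫 : AtPt (F := F) π u)
    {R : Type*} [CommRing R] (j : R →+* ↥(zchClosure (A₀ := A₀) ({u} : Set F))) (p : R) : Prop :=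
  (∃ s : R, j s ∈ 𝔫.1 ∧ NodesLocGen (𝔫.1.comap j) {p, s}) ∨
  ((∀ x : R, ((j x : ↥(zchClosure (A₀ := A₀) ({u} : Set F))) : F) ∈ V₁.nonunits → j x ∈ 𝔫.1) ∧
   (∀ x : R, ((j x : ↥(zchClosure (A₀ := A₀) ({u} : Set F))) : F) ∈ V₂.nonunits → j x ∈ 𝔫.1) ∧
   ∃ X Y : R, ((j X : ↥(zchClosure (A₀ := A₀) ({u} : Set F))) : F) ∈ V₁.nonunits ∧
     ((j Y : ↥(zchClosure (A₀ := A₀) ({u} : Set F))) : F) ∈ V₂.nonunits ∧
     NodesLocGen (𝔫.1.comap j) {p, X, Y})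

/-- **The Frobenius hypotheses at a crossing point `𝔫`** (STB-X): `g 𝔫 ⊆ 𝔫`, `g⁻¹ 𝔫 ⊆ 𝔫`, and
`g b ≡ b ^ Q mod 𝔫` on the chart. -/
def StbCrossFrob (g : SemilinearAut E F) (Q : ℕ) {u : F} (𝔫 : AtPt (F := F) π u) : Prop :=
  (∀ b : ↥(zchClosure (A₀ := A₀) ({u} : Set F)), b ∈ 𝔫.1 →
    ∃ b' : ↥(zchClosure (A₀ := A₀) ({u} : Set F)), b' ∈ 𝔫.1 ∧ g • (b : F) = b') ∧
  (∀ b : ↥(zchClosure (A₀ := A₀) ({u} : Set F)), b ∈ 𝔫.1 →
    ∃ b' : ↥(zchClosure (A₀ := A₀) ({u} : Set F)), b' ∈ 𝔫.1 ∧ g⁻¹ • (b : F) = b') ∧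
  (∀ b : ↥(zchClosure (A₀ := A₀) ({u} : Set F)), ∃ c : ↥(zchClosure (A₀ := A₀) ({u} : Set F)), c ∈ 𝔫.1 ∧
    g • (b : F) = (b : F) ^ Q + (c : F))

/-- **STB-C4, chart `t`**: the hypothesis `hpts (Sum.inl 𝔫)` of `stb_main_points` from the dichotomy of U5 at `𝔫`, the Frobenius hypotheses at crossing points and global hypotheses on `x`, `g`. -/
theorem stb_mt_hpts_inl (hπ : Irreducible π) {t : F} (ht : Transcendental E t)
    [FiniteDimensional E⟮t⟯ F] [Finite κ]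
    [IsNoetherianRing ↥(zchClosure (A₀ := A₀) ({t} : Set F))]
    (V : κ → ValuationSubring F) (c₁ c₂ : κ) (hκ : ∀ c, c = c₁ ∨ c = c₂) (hne : V c₁ ≠ V c₂)
    (hBV : ∀ c (b : F), IsIntegral ↥(Algebra.adjoin A₀ {t}) b → b ∈ V c)
    (hπV : ∀ c, algebraMap A₀ F π ∈ (V c).nonunits)
    (hSS1 : ∀ b : F, IsIntegral ↥(Algebra.adjoin A₀ {t}) b → (∀ c, b ∈ (V c).nonunits) →
      ∃ b' : F, IsIntegral ↥(Algebra.adjoin A₀ {t}) b' ∧ b = algebraMap A₀ F π * b')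
    (harch : ∀ c (a x : F), a ∈ (V c).nonunits → ∃ N : ℕ, a ^ N * x ∈ (V c).nonunits)
    (hVloc : ∀ c (x : F), x ∈ V c → ∃ b s : F, IsIntegral ↥(Algebra.adjoin A₀ {t}) b ∧
      IsIntegral ↥(Algebra.adjoin A₀ {t}) s ∧ s ∉ (V c).nonunits ∧ s * x = b)
    (g : SemilinearAut E F) (hgu : g • t = t)
    (hgV : ∀ c (f : F), f ≠ 0 → (V c).valuation (g • f / f) = 1)
    (hgA : ∀ α : A₀, ∃ α' : A₀, g • algebraMap A₀ F α = algebraMap A₀ F α')
    (hgA' : ∀ α : A₀, ∃ α' : A₀, g⁻¹ • algebraMap A₀ F α = algebraMap A₀ F α')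
    (q : A₀) (hq0 : q ≠ 0) (hqπ : π ∣ q) (hgq : g • algebraMap A₀ F q = algebraMap A₀ F q)
    {R : Type*} [CommRing R] (j : R →+* ↥(zchClosure (A₀ := A₀) ({t} : Set F))) (p : R)
    (hram : MgcRamified j (algebraMap A₀ ↥(zchClosure (A₀ := A₀) ({t} : Set F)) π) p)
    (hjp : j p = algebraMap A₀ ↥(zchClosure (A₀ := A₀) ({t} : Set F)) q)
    (𝔫 : AtPt (F := F) π t)
    (hnode : StbNodeAt (V c₁) (V c₂) 𝔫 j p)
    (Q : ℕ)
    (hfrob : atThrough 𝔫 (V c₁) → atThrough 𝔫 (V c₂) → StbCrossFrob g Q 𝔫)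
    (Φ : F →+* F) (hΦ : ∀ x : F, Φ x = g • x)
    {x : F} (hx : x ≠ 0) (m : ℕ)
    (hfin : {P : Place E F | P.ord x ≠ 0}.Finite)
    (hm : ∀ P : Place E F, (m : ℤ) ∣ P.ord x)
    (hrat : ∀ P : Place E F, P.ord x ≠ 0 → ∀ f ∈ P.toValuationSubring,
      ∃ c : E, f - algebraMap E F c ∈ P.toValuationSubring.nonunits)
    (tt : κ → F) (htoric : ∀ c, (Φ x / x) / tt c ^ m - 1 ∈ (V c).nonunits) :
    (atInc π t V (Sum.inl 𝔫) c₁ ∧ atInc π t V (Sum.inl 𝔫) c₂ ∧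
      StbCross (atO π t (Sum.inl 𝔫)) (V c₁) (V c₂) Φ Q m (Φ x / x)) ∨
    (∃ c, atInc π t V (Sum.inl 𝔫) c ∧ (∀ c', atInc π t V (Sum.inl 𝔫) c' → c' = c) ∧
      ∃ i₁ : AtPt (F := F) π t ⊕ AtPt (F := F) π t⁻¹, atInc π t V i₁ c ∧
        StbSmooth (atO π t (Sum.inl 𝔫)) (atO π t i₁) (V c) Φ m (Φ x / x)) := by
  have hΦeq : Φ = (SemilinearAut.toRingAut g : F ≃+* F).toRingHom := RingHom.ext hΦ
  subst hΦeq
  have hgB₀ : ∀ b : F, IsIntegral ↥(Algebra.adjoin A₀ {t}) b →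
      IsIntegral ↥(Algebra.adjoin A₀ {t}) (g • b) :=
    fun b hb => stb_mt_isIntegral_smul g hgu hgA hb
  have hgu' : g⁻¹ • t = t := by
    conv_lhs => rw [← hgu]
    rw [inv_smul_smul]
  have hgB₀' : ∀ b : F, IsIntegral ↥(Algebra.adjoin A₀ {t}) b →
      IsIntegral ↥(Algebra.adjoin A₀ {t}) (g⁻¹ • b) :=
    fun b hb => stb_mt_isIntegral_smul g⁻¹ hgu' hgA' hb
  rcases hnode with ⟨s, hs, hgen⟩ | ⟨hthr₁, hthr₂, X, Y, hX, hY, hgen⟩
  · -- smooth point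
    right
    have hne' : ∀ c c', c ≠ c' → V c ≠ V c' := by
      intro c c' hcc' h
      rcases hκ c with rfl | rfl <;> rcases hκ c' with rfl | rfl
      · exact hcc' rfl
      · exact hne h
      · exact hne h.symm
      · exact hcc' rfl
    have hyfin : ∀ 𝔫' : AtPt (F := F) π t, {P : Place E F |
        LsTube ↥(zchClosure (A₀ := A₀) ({t} : Set F)) t 𝔫'.1 P ∧ P.ord (g • x / x) ≠ 0}.Finite := by
      intro 𝔫'
      have h2 : {P : Place E F | (g⁻¹ • P).ord x ≠ 0}.Finite := by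
        have := hfin.image (fun P : Place E F => g • P)
        refine this.subset ?_
        intro P hP
        exact ⟨g⁻¹ • P, hP, smul_inv_smul g P⟩
      refine (hfin.union h2).subset ?_
      rintro P ⟨-, hP⟩
      rw [stb_mt_ord_div g P hx] at hP
      by_contra hcon
      rw [Set.mem_union, not_or] at hcon
      have h3 : P.ord x = 0 := not_not.mp hcon.1
      have h4 : (g⁻¹ • P).ord x = 0 := not_not.mp hcon.2
      exact hP (by rw [h3, h4, sub_zero])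
    have hym : ∀ 𝔫' : AtPt (F := F) π t, ∀ P : Place E F,
        LsTube ↥(zchClosure (A₀ := A₀) ({t} : Set F)) t 𝔫'.1 P → (m : ℤ) ∣ P.ord (g • x / x) := by
      intro 𝔫' P _
      rw [stb_mt_ord_div g P hx]
      exact dvd_sub (hm _) (hm _)
    have hyrat : ∀ 𝔫' : AtPt (F := F) π t, ∀ P : Place E F,
        LsTube ↥(zchClosure (A₀ := A₀) ({t} : Set F)) t 𝔫'.1 P → P.ord (g • x / x) ≠ 0 →
        ∀ f ∈ P.toValuationSubring,
          ∃ c : E, f - algebraMap E F c ∈ P.toValuationSubring.nonunits := by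
      intro 𝔫' P _ hP
      by_cases h3 : P.ord x = 0
      · have h4 : (g⁻¹ • P).ord x ≠ 0 := by
          intro h4
          rw [stb_mt_ord_div g P hx, h3, h4, sub_zero] at hP
          exact hP rfl
        have := stb_mt_rat_smul g (g⁻¹ • P) (hrat _ h4)
        rwa [smul_inv_smul] at this
      · exact hrat P h3
    exact stb_sx_hpts_inl hπ ht V hBV hπV hSS1 hVloc hne' harch (SemilinearAut.toRingAut g)
      hgB₀ hgB₀'
      (stb_st_map_pi E hπ (SemilinearAut.toRingAut g) hgA hgA')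
      (stb_st_map_pi E hπ (SemilinearAut.toRingAut g).symm hgA' hgA)
      (fun c x hx' => stb_mt_map_nonunits g (V c) (hgV c) hx')
      (fun c x hx' => stb_mt_map_nonunits g⁻¹ (V c) (stb_mt_inv_valuation g (V c) (hgV c)) hx')
      𝔫 (j s) hs (hram.mgg_locGen_pair 𝔫.2.2 s hgen) m tt htoric hyfin hym hyrat
  · -- crossing point
    left
    have hT₁ : atThrough 𝔫 (V c₁) := stb_cp_through (V c₁) (hBV c₁) (hπV c₁) 𝔫 j p hram hthr₁
    have hT₂ : atThrough 𝔫 (V c₂) := stb_cp_through (V c₂) (hBV c₂) (hπV c₂) 𝔫 j p hram hthr₂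
    obtain ⟨hgB, hgB', hfrobB⟩ := hfrob hT₁ hT₂
    exact stb_cp_cross_inl hπ ht V hBV hπV hSS1 hVloc g hgu 𝔫 hgB hgB' hgB₀ hgB₀' hgV hgA
      q hq0 hqπ hgq j p hram hjp c₁ c₂ hκ hthr₁ hthr₂ X Y hX hY hgen
      (SemilinearAut.toRingAut g : F ≃+* F).toRingHom (fun _ => rfl) Q hfrobB hx m
      (hfin.subset fun P hP => hP.2.2) (fun P _ _ => hm P) (fun P _ _ hP => hrat P hP)

/-- **STB-C4, chart `t⁻¹`**: the hypothesis `hpts (Sum.inr 𝔫)` of `stb_main_points`. -/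
theorem stb_mt_hpts_inr (hπ : Irreducible π) {t : F} (ht' : Transcendental E t⁻¹)
    [FiniteDimensional E⟮t⁻¹⟯ F] [Finite κ]
    [IsNoetherianRing ↥(zchClosure (A₀ := A₀) ({t⁻¹} : Set F))]
    (V : κ → ValuationSubring F) (c₁ c₂ : κ) (hκ : ∀ c, c = c₁ ∨ c = c₂) (hne : V c₁ ≠ V c₂)
    (hBV : ∀ c (b : F), IsIntegral ↥(Algebra.adjoin A₀ {t⁻¹}) b → b ∈ V c)
    (hπV : ∀ c, algebraMap A₀ F π ∈ (V c).nonunits)
    (hSS1 : ∀ b : F, IsIntegral ↥(Algebra.adjoin A₀ {t⁻¹}) b → (∀ c, b ∈ (V c).nonunits) →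
      ∃ b' : F, IsIntegral ↥(Algebra.adjoin A₀ {t⁻¹}) b' ∧ b = algebraMap A₀ F π * b')
    (harch : ∀ c (a x : F), a ∈ (V c).nonunits → ∃ N : ℕ, a ^ N * x ∈ (V c).nonunits)
    (hVloc : ∀ c (x : F), x ∈ V c → ∃ b s : F, IsIntegral ↥(Algebra.adjoin A₀ {t⁻¹}) b ∧
      IsIntegral ↥(Algebra.adjoin A₀ {t⁻¹}) s ∧ s ∉ (V c).nonunits ∧ s * x = b)
    (g : SemilinearAut E F) (hgu : g • t⁻¹ = t⁻¹)
    (hgV : ∀ c (f : F), f ≠ 0 → (V c).valuation (g • f / f) = 1)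
    (hgA : ∀ α : A₀, ∃ α' : A₀, g • algebraMap A₀ F α = algebraMap A₀ F α')
    (hgA' : ∀ α : A₀, ∃ α' : A₀, g⁻¹ • algebraMap A₀ F α = algebraMap A₀ F α')
    (q : A₀) (hq0 : q ≠ 0) (hqπ : π ∣ q) (hgq : g • algebraMap A₀ F q = algebraMap A₀ F q)
    {R : Type*} [CommRing R] (j : R →+* ↥(zchClosure (A₀ := A₀) ({t⁻¹} : Set F))) (p : R)
    (hram : MgcRamified j (algebraMap A₀ ↥(zchClosure (A₀ := A₀) ({t⁻¹} : Set F)) π) p)
    (hjp : j p = algebraMap A₀ ↥(zchClosure (A₀ := A₀) ({t⁻¹} : Set F)) q)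
    (𝔫 : AtPt (F := F) π t⁻¹)
    (hnode : StbNodeAt (V c₁) (V c₂) 𝔫 j p)
    (Q : ℕ)
    (hfrob : atThrough 𝔫 (V c₁) → atThrough 𝔫 (V c₂) → StbCrossFrob g Q 𝔫)
    (Φ : F →+* F) (hΦ : ∀ x : F, Φ x = g • x)
    {x : F} (hx : x ≠ 0) (m : ℕ)
    (hfin : {P : Place E F | P.ord x ≠ 0}.Finite)
    (hm : ∀ P : Place E F, (m : ℤ) ∣ P.ord x)
    (hrat : ∀ P : Place E F, P.ord x ≠ 0 → ∀ f ∈ P.toValuationSubring,
      ∃ c : E, f - algebraMap E F c ∈ P.toValuationSubring.nonunits)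
    (tt : κ → F) (htoric : ∀ c, (Φ x / x) / tt c ^ m - 1 ∈ (V c).nonunits) :
    (atInc π t V (Sum.inr 𝔫) c₁ ∧ atInc π t V (Sum.inr 𝔫) c₂ ∧
      StbCross (atO π t (Sum.inr 𝔫)) (V c₁) (V c₂) Φ Q m (Φ x / x)) ∨
    (∃ c, atInc π t V (Sum.inr 𝔫) c ∧ (∀ c', atInc π t V (Sum.inr 𝔫) c' → c' = c) ∧
      ∃ i₁ : AtPt (F := F) π t ⊕ AtPt (F := F) π t⁻¹, atInc π t V i₁ c ∧
        StbSmooth (atO π t (Sum.inr 𝔫)) (atO π t i₁) (V c) Φ m (Φ x / x)) := by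
  have hΦeq : Φ = (SemilinearAut.toRingAut g : F ≃+* F).toRingHom := RingHom.ext hΦ
  subst hΦeq
  have hgB₀ : ∀ b : F, IsIntegral ↥(Algebra.adjoin A₀ {t⁻¹}) b →
      IsIntegral ↥(Algebra.adjoin A₀ {t⁻¹}) (g • b) :=
    fun b hb => stb_mt_isIntegral_smul g hgu hgA hb
  have hgu' : g⁻¹ • t⁻¹ = t⁻¹ := by
    conv_lhs => rw [← hgu]
    rw [inv_smul_smul]
  have hgB₀' : ∀ b : F, IsIntegral ↥(Algebra.adjoin A₀ {t⁻¹}) b →
      IsIntegral ↥(Algebra.adjoin A₀ {t⁻¹}) (g⁻¹ • b) :=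
    fun b hb => stb_mt_isIntegral_smul g⁻¹ hgu' hgA' hb
  rcases hnode with ⟨s, hs, hgen⟩ | ⟨hthr₁, hthr₂, X, Y, hX, hY, hgen⟩
  · -- smooth point
    right
    have hne' : ∀ c c', c ≠ c' → V c ≠ V c' := by
      intro c c' hcc' h
      rcases hκ c with rfl | rfl <;> rcases hκ c' with rfl | rfl
      · exact hcc' rfl
      · exact hne h
      · exact hne h.symm
      · exact hcc' rfl
    have hyfin : ∀ 𝔫' : AtPt (F := F) π t⁻¹, {P : Place E F |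
        LsTube ↥(zchClosure (A₀ := A₀) ({t⁻¹} : Set F)) t⁻¹ 𝔫'.1 P ∧ P.ord (g • x / x) ≠ 0}.Finite := by
      intro 𝔫'
      have h2 : {P : Place E F | (g⁻¹ • P).ord x ≠ 0}.Finite := by
        have := hfin.image (fun P : Place E F => g • P)
        refine this.subset ?_
        intro P hP
        exact ⟨g⁻¹ • P, hP, smul_inv_smul g P⟩
      refine (hfin.union h2).subset ?_
      rintro P ⟨-, hP⟩
      rw [stb_mt_ord_div g P hx] at hP
      by_contra hcon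
      rw [Set.mem_union, not_or] at hcon
      have h3 : P.ord x = 0 := not_not.mp hcon.1
      have h4 : (g⁻¹ • P).ord x = 0 := not_not.mp hcon.2
      exact hP (by rw [h3, h4, sub_zero])
    have hym : ∀ 𝔫' : AtPt (F := F) π t⁻¹, ∀ P : Place E F,
        LsTube ↥(zchClosure (A₀ := A₀) ({t⁻¹} : Set F)) t⁻¹ 𝔫'.1 P → (m : ℤ) ∣ P.ord (g • x / x) := by
      intro 𝔫' P _
      rw [stb_mt_ord_div g P hx]
      exact dvd_sub (hm _) (hm _)
    have hyrat : ∀ 𝔫' : AtPt (F := F) π t⁻¹, ∀ P : Place E F,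
        LsTube ↥(zchClosure (A₀ := A₀) ({t⁻¹} : Set F)) t⁻¹ 𝔫'.1 P → P.ord (g • x / x) ≠ 0 →
        ∀ f ∈ P.toValuationSubring,
          ∃ c : E, f - algebraMap E F c ∈ P.toValuationSubring.nonunits := by
      intro 𝔫' P _ hP
      by_cases h3 : P.ord x = 0
      · have h4 : (g⁻¹ • P).ord x ≠ 0 := by
          intro h4
          rw [stb_mt_ord_div g P hx, h3, h4, sub_zero] at hP
          exact hP rfl
        have := stb_mt_rat_smul g (g⁻¹ • P) (hrat _ h4)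
        rwa [smul_inv_smul] at this
      · exact hrat P h3
    exact stb_sx_hpts_inr hπ ht' V hBV hπV hSS1 hVloc hne' harch (SemilinearAut.toRingAut g)
      hgB₀ hgB₀'
      (stb_st_map_pi E hπ (SemilinearAut.toRingAut g) hgA hgA')
      (stb_st_map_pi E hπ (SemilinearAut.toRingAut g).symm hgA' hgA)
      (fun c x hx' => stb_mt_map_nonunits g (V c) (hgV c) hx')
      (fun c x hx' => stb_mt_map_nonunits g⁻¹ (V c) (stb_mt_inv_valuation g (V c) (hgV c)) hx')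
      𝔫 (j s) hs (hram.mgg_locGen_pair 𝔫.2.2 s hgen) m tt htoric hyfin hym hyrat
  · -- crossing point
    left
    have hT₁ : atThrough 𝔫 (V c₁) := stb_cp_through (V c₁) (hBV c₁) (hπV c₁) 𝔫 j p hram hthr₁
    have hT₂ : atThrough 𝔫 (V c₂) := stb_cp_through (V c₂) (hBV c₂) (hπV c₂) 𝔫 j p hram hthr₂
    obtain ⟨hgB, hgB', hfrobB⟩ := hfrob hT₁ hT₂
    exact stb_cp_cross_inr hπ ht' V hBV hπV hSS1 hVloc g hgu 𝔫 hgB hgB' hgB₀ hgB₀' hgV hgA
      q hq0 hqπ hgq j p hram hjp c₁ c₂ hκ hthr₁ hthr₂ X Y hX hY hgen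
      (SemilinearAut.toRingAut g : F ≃+* F).toRingHom (fun _ => rfl) Q hfrobB hx m
      (hfin.subset fun P hP => hP.2.2) (fun P _ _ => hm P) (fun P _ _ hP => hrat P hP)

/-- **STB-C4**: the hypothesis `hpts` of `stb_main_points` (all closed points of both charts),
for `y = Φ x / x`, `Φ = g`, any `m`. -/
theorem stb_mt_hpts (hπ : Irreducible π) {t : F} (ht : Transcendental E t)
    [FiniteDimensional E⟮t⟯ F] [Finite κ]
    [IsNoetherianRing ↥(zchClosure (A₀ := A₀) ({t} : Set F))]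
    [IsNoetherianRing ↥(zchClosure (A₀ := A₀) ({t⁻¹} : Set F))]
    (V : κ → ValuationSubring F) (c₁ c₂ : κ) (hκ : ∀ c, c = c₁ ∨ c = c₂) (hne : V c₁ ≠ V c₂)
    (hBV₁ : ∀ c (b : F), IsIntegral ↥(Algebra.adjoin A₀ {t}) b → b ∈ V c)
    (hBV₂ : ∀ c (b : F), IsIntegral ↥(Algebra.adjoin A₀ {t⁻¹}) b → b ∈ V c)
    (hπV : ∀ c, algebraMap A₀ F π ∈ (V c).nonunits)
    (hSS1 : ∀ b : F, IsIntegral ↥(Algebra.adjoin A₀ {t}) b → (∀ c, b ∈ (V c).nonunits) →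
      ∃ b' : F, IsIntegral ↥(Algebra.adjoin A₀ {t}) b' ∧ b = algebraMap A₀ F π * b')
    (harch : ∀ c (a x : F), a ∈ (V c).nonunits → ∃ N : ℕ, a ^ N * x ∈ (V c).nonunits)
    (hVloc₁ : ∀ c (x : F), x ∈ V c → ∃ b s : F, IsIntegral ↥(Algebra.adjoin A₀ {t}) b ∧
      IsIntegral ↥(Algebra.adjoin A₀ {t}) s ∧ s ∉ (V c).nonunits ∧ s * x = b)
    (hVloc₂ : ∀ c (x : F), x ∈ V c → ∃ b s : F, IsIntegral ↥(Algebra.adjoin A₀ {t⁻¹}) b ∧
      IsIntegral ↥(Algebra.adjoin A₀ {t⁻¹}) s ∧ s ∉ (V c).nonunits ∧ s * x = b)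
    (g : SemilinearAut E F) (hgt : g • t = t)
    (hgV : ∀ c (f : F), f ≠ 0 → (V c).valuation (g • f / f) = 1)
    (hgA : ∀ α : A₀, ∃ α' : A₀, g • algebraMap A₀ F α = algebraMap A₀ F α')
    (hgA' : ∀ α : A₀, ∃ α' : A₀, g⁻¹ • algebraMap A₀ F α = algebraMap A₀ F α')
    (q : A₀) (hq0 : q ≠ 0) (hqπ : π ∣ q) (hgq : g • algebraMap A₀ F q = algebraMap A₀ F q)
    {R₁ : Type*} [CommRing R₁] (j₁ : R₁ →+* ↥(zchClosure (A₀ := A₀) ({t} : Set F))) (p₁ : R₁)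
    (hram₁ : MgcRamified j₁ (algebraMap A₀ ↥(zchClosure (A₀ := A₀) ({t} : Set F)) π) p₁)
    (hjp₁ : j₁ p₁ = algebraMap A₀ ↥(zchClosure (A₀ := A₀) ({t} : Set F)) q)
    {R₂ : Type*} [CommRing R₂] (j₂ : R₂ →+* ↥(zchClosure (A₀ := A₀) ({t⁻¹} : Set F))) (p₂ : R₂)
    (hram₂ : MgcRamified j₂ (algebraMap A₀ ↥(zchClosure (A₀ := A₀) ({t⁻¹} : Set F)) π) p₂)
    (hjp₂ : j₂ p₂ = algebraMap A₀ ↥(zchClosure (A₀ := A₀) ({t⁻¹} : Set F)) q)
    (hnode₁ : ∀ 𝔫 : AtPt (F := F) π t, StbNodeAt (V c₁) (V c₂) 𝔫 j₁ p₁)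
    (hnode₂ : ∀ 𝔫 : AtPt (F := F) π t⁻¹, StbNodeAt (V c₁) (V c₂) 𝔫 j₂ p₂)
    (Q : ℕ)
    (hfrob₁ : ∀ 𝔫 : AtPt (F := F) π t, atThrough 𝔫 (V c₁) → atThrough 𝔫 (V c₂) →
      StbCrossFrob g Q 𝔫)
    (hfrob₂ : ∀ 𝔫 : AtPt (F := F) π t⁻¹, atThrough 𝔫 (V c₁) → atThrough 𝔫 (V c₂) →
      StbCrossFrob g Q 𝔫)
    (Φ : F →+* F) (hΦ : ∀ x : F, Φ x = g • x)
    {x : F} (hx : x ≠ 0) (m : ℕ)
    (hfin : {P : Place E F | P.ord x ≠ 0}.Finite)
    (hm : ∀ P : Place E F, (m : ℤ) ∣ P.ord x)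
    (hrat : ∀ P : Place E F, P.ord x ≠ 0 → ∀ f ∈ P.toValuationSubring,
      ∃ c : E, f - algebraMap E F c ∈ P.toValuationSubring.nonunits)
    (tt : κ → F) (htoric : ∀ c, (Φ x / x) / tt c ^ m - 1 ∈ (V c).nonunits) :
    ∀ i : AtPt (F := F) π t ⊕ AtPt (F := F) π t⁻¹,
      (atInc π t V i c₁ ∧ atInc π t V i c₂ ∧
        StbCross (atO π t i) (V c₁) (V c₂) Φ Q m (Φ x / x)) ∨
      (∃ c, atInc π t V i c ∧ (∀ c', atInc π t V i c' → c' = c) ∧
        ∃ i₁ : AtPt (F := F) π t ⊕ AtPt (F := F) π t⁻¹, atInc π t V i₁ c ∧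
          StbSmooth (atO π t i) (atO π t i₁) (V c) Φ m (Φ x / x)) := by
  haveI : FiniteDimensional E⟮t⁻¹⟯ F := at_finiteDimensional_inv t
  have ht' : Transcendental E t⁻¹ := zch_transcendental_inv ht
  rintro (𝔫 | 𝔫)
  · exact stb_mt_hpts_inl hπ ht V c₁ c₂ hκ hne hBV₁ hπV hSS1 harch hVloc₁ g hgt hgV hgA hgA'
      q hq0 hqπ hgq j₁ p₁ hram₁ hjp₁ 𝔫 (hnode₁ 𝔫) Q (hfrob₁ 𝔫) Φ hΦ hx m hfin hm hrat tt htoric
  · exact stb_mt_hpts_inr hπ ht' V c₁ c₂ hκ hne hBV₂ hπV (ats_SS1_inv ht hπ V hBV₁ hSS1) harch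
      hVloc₂ g (at_smul_inv hgt) hgV hgA hgA' q hq0 hqπ hgq j₂ p₂ hram₂ hjp₂ 𝔫 (hnode₂ 𝔫) Q
      (hfrob₂ 𝔫) Φ hΦ hx m hfin hm hrat tt htoric

/-- **(T″) for two components, from the dichotomy of U5** — the twin of `at_main_two`.
`Φ = g` a semilinear automorphism fixing `t`, preserving `A₀` and the vertical valuations,
fixing the crossing points and inducing the `Q`-th power map on their residue fields;
`p ^ r ∣ div x`, rational support, `y = Φ x / x` toric.  Then `Φ y / y ^ Q` is a `p ^ r`-th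
power. -/
theorem stb_main_two (hπ : Irreducible π) {t : F} (ht : Transcendental E t)
    (hcl : ∀ x : F, IsAlgebraic E x → x ∈ (algebraMap E F).range)
    {p : ℕ} (hp : p.Prime) (hpu : IsUnit (p : A₀)) {ζ : A₀} (hζ : IsPrimitiveRoot ζ p)
    (hunit : ∀ a : A₀, IsUnit a → ∃ d : A₀, d ^ p = a)
    [FiniteDimensional E⟮t⟯ F] [Finite κ]
    [IsNoetherianRing ↥(zchClosure (A₀ := A₀) ({t} : Set F))]
    [IsNoetherianRing ↥(zchClosure (A₀ := A₀) ({t⁻¹} : Set F))]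
    (V : κ → ValuationSubring F) (c₁ c₂ : κ) (hκ : ∀ c, c = c₁ ∨ c = c₂) (hne : V c₁ ≠ V c₂)
    (hBV₁ : ∀ c (b : F), IsIntegral ↥(Algebra.adjoin A₀ {t}) b → b ∈ V c)
    (hBV₂ : ∀ c (b : F), IsIntegral ↥(Algebra.adjoin A₀ {t⁻¹}) b → b ∈ V c)
    (hπV : ∀ c, algebraMap A₀ F π ∈ (V c).nonunits)
    (hSS1 : ∀ b : F, IsIntegral ↥(Algebra.adjoin A₀ {t}) b → (∀ c, b ∈ (V c).nonunits) →
      ∃ b' : F, IsIntegral ↥(Algebra.adjoin A₀ {t}) b' ∧ b = algebraMap A₀ F π * b')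
    (harch : ∀ c (a x : F), a ∈ (V c).nonunits → ∃ N : ℕ, a ^ N * x ∈ (V c).nonunits)
    (hVloc₁ : ∀ c (x : F), x ∈ V c → ∃ b s : F, IsIntegral ↥(Algebra.adjoin A₀ {t}) b ∧
      IsIntegral ↥(Algebra.adjoin A₀ {t}) s ∧ s ∉ (V c).nonunits ∧ s * x = b)
    (hVloc₂ : ∀ c (x : F), x ∈ V c → ∃ b s : F, IsIntegral ↥(Algebra.adjoin A₀ {t⁻¹}) b ∧
      IsIntegral ↥(Algebra.adjoin A₀ {t⁻¹}) s ∧ s ∉ (V c).nonunits ∧ s * x = b)
    (g : SemilinearAut E F) (hgt : g • t = t)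
    (hgV : ∀ c (f : F), f ≠ 0 → (V c).valuation (g • f / f) = 1)
    (hgA : ∀ α : A₀, ∃ α' : A₀, g • algebraMap A₀ F α = algebraMap A₀ F α')
    (hgA' : ∀ α : A₀, ∃ α' : A₀, g⁻¹ • algebraMap A₀ F α = algebraMap A₀ F α')
    (q : A₀) (hq0 : q ≠ 0) (hqπ : π ∣ q) (hgq : g • algebraMap A₀ F q = algebraMap A₀ F q)
    {R₁ : Type*} [CommRing R₁] (j₁ : R₁ →+* ↥(zchClosure (A₀ := A₀) ({t} : Set F))) (p₁ : R₁)
    (hram₁ : MgcRamified j₁ (algebraMap A₀ ↥(zchClosure (A₀ := A₀) ({t} : Set F)) π) p₁)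
    (hjp₁ : j₁ p₁ = algebraMap A₀ ↥(zchClosure (A₀ := A₀) ({t} : Set F)) q)
    {R₂ : Type*} [CommRing R₂] (j₂ : R₂ →+* ↥(zchClosure (A₀ := A₀) ({t⁻¹} : Set F))) (p₂ : R₂)
    (hram₂ : MgcRamified j₂ (algebraMap A₀ ↥(zchClosure (A₀ := A₀) ({t⁻¹} : Set F)) π) p₂)
    (hjp₂ : j₂ p₂ = algebraMap A₀ ↥(zchClosure (A₀ := A₀) ({t⁻¹} : Set F)) q)
    (hnode₁ : ∀ 𝔫 : AtPt (F := F) π t, StbNodeAt (V c₁) (V c₂) 𝔫 j₁ p₁)
    (hnode₂ : ∀ 𝔫 : AtPt (F := F) π t⁻¹, StbNodeAt (V c₁) (V c₂) 𝔫 j₂ p₂)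
    (Q : ℕ)
    (hfrob₁ : ∀ 𝔫 : AtPt (F := F) π t, atThrough 𝔫 (V c₁) → atThrough 𝔫 (V c₂) →
      StbCrossFrob g Q 𝔫)
    (hfrob₂ : ∀ 𝔫 : AtPt (F := F) π t⁻¹, atThrough 𝔫 (V c₁) → atThrough 𝔫 (V c₂) →
      StbCrossFrob g Q 𝔫)
    (Φ : F →+* F) (hΦ : ∀ x : F, Φ x = g • x)
    {x : F} (hx : x ≠ 0) (r : ℕ)
    (hfin : {P : Place E F | P.ord x ≠ 0}.Finite)
    (hm : ∀ P : Place E F, ((p ^ r : ℕ) : ℤ) ∣ P.ord x)
    (hrat : ∀ P : Place E F, P.ord x ≠ 0 → ∀ f ∈ P.toValuationSubring,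
      ∃ c : E, f - algebraMap E F c ∈ P.toValuationSubring.nonunits)
    (tt : κ → F) (htoric : ∀ c, (Φ x / x) / tt c ^ (p ^ r) - 1 ∈ (V c).nonunits) :
    ∃ h : F, h ^ (p ^ r) = Φ (Φ x / x) / (Φ x / x) ^ Q :=
  stb_main_points hπ ht hcl hp hpu hζ hunit V c₁ c₂ hκ hne hBV₁ hBV₂ hπV hSS1 harch Φ
    (fun c y hy => by
      rw [hΦ]
      exact stb_mt_map_nonunits g (V c) (hgV c) hy) Q r tt htoric
    (stb_mt_hpts hπ ht V c₁ c₂ hκ hne hBV₁ hBV₂ hπV hSS1 harch hVloc₁ hVloc₂ g hgt hgV hgA hgA'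
      q hq0 hqπ hgq j₁ p₁ hram₁ hjp₁ j₂ p₂ hram₂ hjp₂ hnode₁ hnode₂ Q hfrob₁ hfrob₂ Φ hΦ hx
      (p ^ r) hfin hm hrat tt htoric)

end Wiring

end Fermat.Agent.STB


end ZBSTB_003_11

/-! ### bundled: `Fermat.Agent.STB.MGNode` -/
section ZBSTB_003_12

/-!
# STB-MG: `hnode₁` / `hnode₂` of `StbdInputs`, generic layers (helper3)

* `stbmn_ramified_of_associated` : `MgcRamified` does not depend on the uniformizer (up to a unit).
* `stbmn_stage` : abstract stage (setting of `UNIP/MGChartsStage.lean`): MG-4 `mgc_ramified` + the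
  dictionary "`x ∈ 𝔪(V_c)` ⇔ `ρ_c x = 0`" + the weak form of U5 on the unramified chart give
  `∃ j, MgcRamified j ϖ π ∧ j π = π ∧ ∀ 𝔫, StbNodeAt V₁ V₂ 𝔫 j π`, for ANY uniformizer `ϖ` of `A′`.
* `stbmn_modular` : the same for `K = F_N(E₀)`, `L = F_N(E′)`.
* `stbmn_rho_iff`, `stbmn_rho₀_iff` : the dictionary for `V = vtFam hB ιC hq hqM`.
* `stbmn_vt` : the vertical-valuation layer; inputs (SS1) and (SS2) ∨ (SS3) in the exact shape of
  `nodesReg_ker_J`, `nodesReg_chart_J` (resp. `nodesFull_…`).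

Final statements: `STB/MGNodeReg.lean` (generic base, `RegChart` form), `STB/MGNodeFinal.lean`
(`stbmn_hnode₁`, `stbmn_hnode₂`: unconditional, exact shape of `StbdInputs`).
-/

set_option autoImplicit false
set_option linter.style.haveILetI false
set_option linter.unusedSectionVars false
set_option linter.unusedVariables false

open Polynomial IntermediateField Fermat.Agent.INJ AlgebraicCurve ModularCurve Fermat.Agent.UNIP
open Fermat.Agent.AL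

namespace Fermat.Agent.STB

section Unif

/-- `MgcRamified` does not depend on the choice of the uniformizer (up to a unit). -/
theorem stbmn_ramified_of_associated {R R' : Type*} [CommRing R] [CommRing R']
    {j : R →+* R'} {ϖ₀ ϖ : R'} {p : R} (h : MgcRamified j ϖ₀ p) (hass : Associated ϖ₀ ϖ) :
    MgcRamified j ϖ p := by
  obtain ⟨w, hw⟩ := hass
  refine ⟨?_, ?_, ?_⟩
  · obtain ⟨z, hz⟩ := h.dvd
    refine ⟨(↑w⁻¹ : R') * z, ?_⟩
    rw [hz, ← hw]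
    have := w.mul_inv
    calc ϖ₀ * z = ϖ₀ * ((w : R') * (↑w⁻¹ : R')) * z := by rw [this, mul_one]
      _ = ϖ₀ * ↑w * (↑w⁻¹ * z) := by ring
  · intro x
    obtain ⟨c, z, hz⟩ := h.decomp x
    refine ⟨c, (↑w⁻¹ : R') * z, ?_⟩
    rw [hz, ← hw]
    have := w.mul_inv
    calc j c + ϖ₀ * z = j c + ϖ₀ * ((w : R') * (↑w⁻¹ : R')) * z := by rw [this, mul_one]
      _ = j c + ϖ₀ * ↑w * (↑w⁻¹ * z) := by ring
  · intro c hc
    apply h.cancel c
    obtain ⟨z, hz⟩ := hc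
    exact ⟨(w : R') * z, by rw [hz, ← hw]; ring⟩

end Unif

section Stage

universe u v

variable {A₀ E₀ K : Type u} [CommRing A₀] [IsDomain A₀] [IsDiscreteValuationRing A₀]
  [Field E₀] [CharZero E₀] [Algebra A₀ E₀] [IsFractionRing A₀ E₀]
  [Field K] [Algebra E₀ K] [Algebra A₀ K] [IsScalarTower A₀ E₀ K]

variable {A' E' L : Type v} [CommRing A'] [IsDomain A'] [IsDiscreteValuationRing A']
  [Field E'] [Algebra A' E'] [IsFractionRing A' E'] [CharZero E']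
  [Field L] [Algebra E' L] [Algebra A' L] [IsScalarTower A' E' L]
  [Algebra A₀ A'] [Algebra K L] [Algebra A₀ L] [IsScalarTower A₀ K L] [IsScalarTower A₀ A' L]

/-- **hnode, abstract stage.**  `B₀ = integralClosure A₀[τ] K` the chart over the unramified
base, `B' = zchClosure {τ}` the chart over `A'` (MG-4: `B'` has the same special fibre),
`V₁ V₂` two valuation subrings of `L` whose maximal ideals cut out `ker ρ₁`, `ker ρ₂` on `B₀`.
The dichotomy of U5 at every closed point of the special fibre of `B₀` gives `StbNodeAt` at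
every closed point of `B'`, for ANY uniformizer `ϖ` of `A'`. -/
theorem stbmn_stage {π : A₀} (hπ : Irreducible π) (τ : K) [FiniteDimensional E₀⟮τ⟯ K]
    (hπu : ¬ IsUnit (algebraMap A₀ (integralClosure (Algebra.adjoin A₀ {τ}) K) π))
    (hred : ∀ c : integralClosure (Algebra.adjoin A₀ {τ}) K,
      algebraMap A₀ (integralClosure (Algebra.adjoin A₀ {τ}) K) π ∣ c ^ 2 →
        algebraMap A₀ (integralClosure (Algebra.adjoin A₀ {τ}) K) π ∣ c)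
    [Algebra.IsIntegral A₀ A']
    {π' : A'} (hπ' : Irreducible π') {e : ℕ}
    (hram : π' ^ e ∣ algebraMap A₀ A' π)
    (g₀ : A₀[X]) (hgm : g₀.Monic) (hroot : aeval π' g₀ = 0) (hdeg : g₀.natDegree ≤ e)
    (htop : Algebra.adjoin K ({algebraMap A' L π'} : Set L) = ⊤)
    {ϖ : A'} (hϖ : Irreducible ϖ)
    (V₁ V₂ : ValuationSubring L)
    {S₁ S₂ : Type*} [CommRing S₁] [CommRing S₂]
    (ρ₁ : integralClosure (Algebra.adjoin A₀ {τ}) K →+* S₁)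
    (ρ₂ : integralClosure (Algebra.adjoin A₀ {τ}) K →+* S₂)
    (hρ₁ : ∀ x : integralClosure (Algebra.adjoin A₀ {τ}) K,
      algebraMap K L (x : K) ∈ V₁.nonunits ↔ ρ₁ x = 0)
    (hρ₂ : ∀ x : integralClosure (Algebra.adjoin A₀ {τ}) K,
      algebraMap K L (x : K) ∈ V₂.nonunits ↔ ρ₂ x = 0)
    (hU5 : ∀ 𝔪 : Ideal (integralClosure (Algebra.adjoin A₀ {τ}) K), 𝔪.IsMaximal →
      algebraMap A₀ (integralClosure (Algebra.adjoin A₀ {τ}) K) π ∈ 𝔪 →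
      (∃ s ∈ 𝔪, NodesLocGen 𝔪
        {algebraMap A₀ (integralClosure (Algebra.adjoin A₀ {τ}) K) π, s}) ∨
      ((∀ x, ρ₁ x = 0 → x ∈ 𝔪) ∧ (∀ x, ρ₂ x = 0 → x ∈ 𝔪) ∧
        ∃ X Y : integralClosure (Algebra.adjoin A₀ {τ}) K, ρ₁ X = 0 ∧ ρ₂ Y = 0 ∧
          NodesLocGen 𝔪 {algebraMap A₀ (integralClosure (Algebra.adjoin A₀ {τ}) K) π, X, Y})) :
    ∃ j : integralClosure (Algebra.adjoin A₀ {τ}) K →+*
        ↥(zchClosure (A₀ := A') ({algebraMap K L τ} : Set L)),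
      MgcRamified j (algebraMap A' ↥(zchClosure (A₀ := A') ({algebraMap K L τ} : Set L)) ϖ)
        (algebraMap A₀ (integralClosure (Algebra.adjoin A₀ {τ}) K) π) ∧
      j (algebraMap A₀ (integralClosure (Algebra.adjoin A₀ {τ}) K) π) =
        algebraMap A' ↥(zchClosure (A₀ := A') ({algebraMap K L τ} : Set L))
          (algebraMap A₀ A' π) ∧
      ∀ 𝔫 : AtPt (F := L) ϖ (algebraMap K L τ),
        StbNodeAt V₁ V₂ 𝔫 j (algebraMap A₀ (integralClosure (Algebra.adjoin A₀ {τ}) K) π) := by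
  have hinj : Function.Injective
      (algebraMap ↥(zchClosure (A₀ := A') ({algebraMap K L τ} : Set L)) L) :=
    Subtype.val_injective
  have hB : ∀ y : L,
      y ∈ (algebraMap ↥(zchClosure (A₀ := A') ({algebraMap K L τ} : Set L)) L).range ↔
        IsIntegral (Algebra.adjoin A' ({algebraMap K L τ} : Set L)) y := by
    intro y
    constructor
    · rintro ⟨b, rfl⟩
      exact mem_zchClosure.mp b.2
    · intro hy
      exact ⟨⟨y, mem_zchClosure.mpr hy⟩, rfl⟩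
  obtain ⟨j, hj, hR₀⟩ := mgc_ramified (E₀ := E₀)
    (B' := ↥(zchClosure (A₀ := A') ({algebraMap K L τ} : Set L))) hπ τ hπu hred hπ'.ne_zero
    hπ'.not_isUnit hram g₀ hgm hroot hdeg htop hinj hB
  have hass : Associated
      (algebraMap A' ↥(zchClosure (A₀ := A') ({algebraMap K L τ} : Set L)) π')
      (algebraMap A' ↥(zchClosure (A₀ := A') ({algebraMap K L τ} : Set L)) ϖ) :=
    (IsDiscreteValuationRing.associated_of_irreducible A' hπ' hϖ).map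
      (algebraMap A' ↥(zchClosure (A₀ := A') ({algebraMap K L τ} : Set L)))
  have hR : MgcRamified j
      (algebraMap A' ↥(zchClosure (A₀ := A') ({algebraMap K L τ} : Set L)) ϖ)
      (algebraMap A₀ (integralClosure (Algebra.adjoin A₀ {τ}) K) π) :=
    stbmn_ramified_of_associated hR₀ hass
  have hjL : ∀ x : integralClosure (Algebra.adjoin A₀ {τ}) K,
      ((j x : ↥(zchClosure (A₀ := A') ({algebraMap K L τ} : Set L))) : L) =
        algebraMap K L (x : K) := hj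
  refine ⟨j, hR, ?_, ?_⟩
  · apply hinj
    rw [hj, ← IsScalarTower.algebraMap_apply A' _ L,
      ← IsScalarTower.algebraMap_apply A₀ A' L]
    have : ((algebraMap A₀ (integralClosure (Algebra.adjoin A₀ {τ}) K) π :
        integralClosure (Algebra.adjoin A₀ {τ}) K) : K) = algebraMap A₀ K π := rfl
    rw [this, ← IsScalarTower.algebraMap_apply A₀ K L]
  · intro 𝔫
    haveI := 𝔫.2.1
    have hmax : (𝔫.1.comap j).IsMaximal := hR.mgg_comap_isMaximal 𝔫.1 𝔫.2.2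
    have hp : algebraMap A₀ (integralClosure (Algebra.adjoin A₀ {τ}) K) π ∈ 𝔫.1.comap j :=
      hR.mgg_mem_comap 𝔫.2.2
    rcases hU5 (𝔫.1.comap j) hmax hp with ⟨s, hs, hgen⟩ | ⟨h1, h2, X, Y, hX, hY, hgen⟩
    · exact Or.inl ⟨s, Ideal.mem_comap.1 hs, hgen⟩
    · refine Or.inr ⟨fun x hx => Ideal.mem_comap.1 (h1 x ((hρ₁ x).1 ?_)),
        fun x hx => Ideal.mem_comap.1 (h2 x ((hρ₂ x).1 ?_)), X, Y, ?_, ?_, hgen⟩
      · rw [← hjL x]; exact hx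
      · rw [← hjL x]; exact hx
      · rw [hjL X]; exact (hρ₁ X).2 hX
      · rw [hjL Y]; exact (hρ₂ Y).2 hY

end Stage


section Modular

universe u v

variable {A₀ E₀ : Type u} [CommRing A₀] [IsDomain A₀] [IsDiscreteValuationRing A₀]
  [Field E₀] [CharZero E₀] [Algebra A₀ E₀] [IsFractionRing A₀ E₀]
  {A' E' : Type v} [CommRing A'] [IsDomain A'] [IsDiscreteValuationRing A']
  [Field E'] [CharZero E'] [Algebra A' E'] [IsFractionRing A' E']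
  [Algebra E₀ E'] [Algebra A₀ A'] (N : ℕ)
  [Algebra A₀ (modularFunctionFieldFullC E₀ N)]
  [IsScalarTower A₀ E₀ (modularFunctionFieldFullC E₀ N)]
  [Algebra A' (modularFunctionFieldFullC E' N)]
  [IsScalarTower A' E' (modularFunctionFieldFullC E' N)]

/-- **hnode, modular layer.**  `K = F_N(E₀)`, `L = F_N(E')`, chart `t = ` the image of the
coordinate `τ` of `K`. -/
theorem stbmn_modular
    (hcomp : ∀ a : A₀, algebraMap A' E' (algebraMap A₀ A' a) =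
      algebraMap E₀ E' (algebraMap A₀ E₀ a))
    [Algebra.IsIntegral A₀ A']
    {π : A₀} (hπ : Irreducible π) (τ : modularFunctionFieldFullC E₀ N)
    [FiniteDimensional E₀⟮τ⟯ (modularFunctionFieldFullC E₀ N)]
    (hπu : ¬ IsUnit (algebraMap A₀
      (integralClosure (Algebra.adjoin A₀ {τ}) (modularFunctionFieldFullC E₀ N)) π))
    (hred : ∀ c : integralClosure (Algebra.adjoin A₀ {τ}) (modularFunctionFieldFullC E₀ N),
      algebraMap A₀ (integralClosure (Algebra.adjoin A₀ {τ})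
        (modularFunctionFieldFullC E₀ N)) π ∣ c ^ 2 →
      algebraMap A₀ (integralClosure (Algebra.adjoin A₀ {τ})
        (modularFunctionFieldFullC E₀ N)) π ∣ c)
    {π' : A'} (hπ' : Irreducible π') {e : ℕ}
    (hram : π' ^ e ∣ algebraMap A₀ A' π)
    (g₀ : A₀[X]) (hgm : g₀.Monic) (hroot : aeval π' g₀ = 0) (hdeg : g₀.natDegree ≤ e)
    (hadj : Algebra.adjoin E₀ ({algebraMap A' E' π'} : Set E') = ⊤)
    (halg : IsAlgebraic E₀ (algebraMap A' E' π'))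
    {t : modularFunctionFieldFullC E' N} (ht : mgcEmb E₀ E' N τ = t)
    {ϖ : A'} (hϖ : Irreducible ϖ)
    (V₁ V₂ : ValuationSubring (modularFunctionFieldFullC E' N))
    {S₁ S₂ : Type*} [CommRing S₁] [CommRing S₂]
    (ρ₁ : integralClosure (Algebra.adjoin A₀ {τ}) (modularFunctionFieldFullC E₀ N) →+* S₁)
    (ρ₂ : integralClosure (Algebra.adjoin A₀ {τ}) (modularFunctionFieldFullC E₀ N) →+* S₂)
    (hρ₁ : ∀ x : integralClosure (Algebra.adjoin A₀ {τ}) (modularFunctionFieldFullC E₀ N),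
      mgcEmb E₀ E' N (x : modularFunctionFieldFullC E₀ N) ∈ V₁.nonunits ↔ ρ₁ x = 0)
    (hρ₂ : ∀ x : integralClosure (Algebra.adjoin A₀ {τ}) (modularFunctionFieldFullC E₀ N),
      mgcEmb E₀ E' N (x : modularFunctionFieldFullC E₀ N) ∈ V₂.nonunits ↔ ρ₂ x = 0)
    (hU5 : ∀ 𝔪 : Ideal (integralClosure (Algebra.adjoin A₀ {τ})
        (modularFunctionFieldFullC E₀ N)), 𝔪.IsMaximal →
      algebraMap A₀ (integralClosure (Algebra.adjoin A₀ {τ})
        (modularFunctionFieldFullC E₀ N)) π ∈ 𝔪 →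
      (∃ s ∈ 𝔪, NodesLocGen 𝔪 {algebraMap A₀ (integralClosure (Algebra.adjoin A₀ {τ})
        (modularFunctionFieldFullC E₀ N)) π, s}) ∨
      ((∀ x, ρ₁ x = 0 → x ∈ 𝔪) ∧ (∀ x, ρ₂ x = 0 → x ∈ 𝔪) ∧
        ∃ X Y : integralClosure (Algebra.adjoin A₀ {τ}) (modularFunctionFieldFullC E₀ N),
          ρ₁ X = 0 ∧ ρ₂ Y = 0 ∧
          NodesLocGen 𝔪 {algebraMap A₀ (integralClosure (Algebra.adjoin A₀ {τ})
            (modularFunctionFieldFullC E₀ N)) π, X, Y})) :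
    ∃ j : integralClosure (Algebra.adjoin A₀ {τ}) (modularFunctionFieldFullC E₀ N) →+*
        ↥(zchClosure (A₀ := A') ({t} : Set (modularFunctionFieldFullC E' N))),
      MgcRamified j (algebraMap A' ↥(zchClosure (A₀ := A')
          ({t} : Set (modularFunctionFieldFullC E' N))) ϖ)
        (algebraMap A₀ (integralClosure (Algebra.adjoin A₀ {τ})
          (modularFunctionFieldFullC E₀ N)) π) ∧
      j (algebraMap A₀ (integralClosure (Algebra.adjoin A₀ {τ})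
          (modularFunctionFieldFullC E₀ N)) π) =
        algebraMap A' ↥(zchClosure (A₀ := A') ({t} : Set (modularFunctionFieldFullC E' N)))
          (algebraMap A₀ A' π) ∧
      ∀ 𝔫 : AtPt (F := modularFunctionFieldFullC E' N) ϖ t,
        StbNodeAt V₁ V₂ 𝔫 j (algebraMap A₀ (integralClosure (Algebra.adjoin A₀ {τ})
          (modularFunctionFieldFullC E₀ N)) π) := by
  letI := mgcAlgebra E₀ E' N
  letI := mgccAlgebra (A₀ := A₀) (E₀ := E₀) (E' := E') N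
  haveI := mgcc_isScalarTower (A₀ := A₀) (E₀ := E₀) (E' := E') N
  haveI := mgcc_isScalarTower' (A₀ := A₀) (E₀ := E₀) (A' := A') (E' := E') N hcomp
  subst ht
  exact stbmn_stage (E₀ := E₀) hπ τ hπu hred hπ' hram g₀ hgm hroot hdeg
    (mgcc_htop (E₀ := E₀) N hadj halg) hϖ V₁ V₂ ρ₁ ρ₂ hρ₁ hρ₂ hU5

end Modular

section Dict

variable {A₀ E₀ k : Type*} [CommRing A₀] [IsDomain A₀] [IsDiscreteValuationRing A₀]
  [Field E₀] [Algebra A₀ E₀] [IsFractionRing A₀ E₀] [Field k] {r : A₀ →+* k} {π : A₀}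
  (hB : VtBase (algebraMap A₀ E₀) r π) (hπu : ¬ IsUnit π) (ιC : E₀ →+* ℂ)
  {q M : ℕ} [NeZero q] [NeZero M] [NeZero (M * q)] (hq : q.Prime) (hqM : ¬ q ∣ M)
  [Algebra A₀ (modularFunctionFieldFullC E₀ (M * q))]
  [IsScalarTower A₀ E₀ (modularFunctionFieldFullC E₀ (M * q))]
  (t : modularFunctionFieldFullC E₀ (M * q))

/-- **Dictionary at `∞`**: on the chart, `𝔪(V_∞) = ker ρ`. -/
theorem stbmn_rho_iff (ht : (t : LaurentSeries E₀) ∈ gaussRing (algebraMap A₀ E₀) r)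
    (x : integralClosure (Algebra.adjoin A₀ {t}) (modularFunctionFieldFullC E₀ (M * q))) :
    (x : modularFunctionFieldFullC E₀ (M * q)) ∈ (vtFam hB ιC hq hqM true).nonunits ↔
      nodesFrobChartRed r hB.ne hπu hB.ker hB.rπ (nodesFrob_full_le (M * q)) t ht x = 0 := by
  rw [vtFam_mem_nonunits_iff]
  constructor
  · rintro ⟨h, h0⟩
    exact h0
  · intro h
    exact ⟨_, h⟩

/-- **Dictionary at `0`**: on the chart, `𝔪(V_0) = ker ρ₀`. -/
theorem stbmn_rho₀_iff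
    (hwt : (((atkinLehner E₀ ιC hq hqM).toAlgHom t : modularFunctionFieldFullC E₀ (M * q)) :
      LaurentSeries E₀) ∈ gaussRing (algebraMap A₀ E₀) r)
    (x : integralClosure (Algebra.adjoin A₀ {t}) (modularFunctionFieldFullC E₀ (M * q))) :
    (x : modularFunctionFieldFullC E₀ (M * q)) ∈ (vtFam hB ιC hq hqM false).nonunits ↔
      nodesSwapRho₀ r hB.ne hπu hB.ker hB.rπ (nodesFrob_full_le (M * q))
        (atkinLehner E₀ ιC hq hqM).toAlgHom t hwt x = 0 := by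
  rw [vtFam_mem_nonunits_iff]
  constructor
  · rintro ⟨h, h0⟩
    exact h0
  · intro h
    exact ⟨_, h⟩

end Dict

section VtLayer

universe u v

variable {A₀ E₀ : Type u} [CommRing A₀] [IsDomain A₀] [IsDiscreteValuationRing A₀]
  [Field E₀] [CharZero E₀] [Algebra A₀ E₀] [IsFractionRing A₀ E₀]
  {A' E' : Type v} [CommRing A'] [IsDomain A'] [IsDiscreteValuationRing A']
  [Field E'] [CharZero E'] [Algebra A' E'] [IsFractionRing A' E']
  [Algebra E₀ E'] [Algebra A₀ A']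
  {q M : ℕ} [NeZero q] [NeZero M] [NeZero (M * q)] (hq : q.Prime) (hqM : ¬ q ∣ M)
  [Algebra A₀ (modularFunctionFieldFullC E₀ (M * q))]
  [IsScalarTower A₀ E₀ (modularFunctionFieldFullC E₀ (M * q))]
  [Algebra A' (modularFunctionFieldFullC E' (M * q))]
  [IsScalarTower A' E' (modularFunctionFieldFullC E' (M * q))]
  {k : Type*} [Field k] {r : A₀ →+* k} {k' : Type*} [Field k'] {r' : A' →+* k'}

/-- the image of `π` in the chart, as an element of `F` -/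
theorem stbmn_unif_coe {π : A₀} (t : modularFunctionFieldFullC E₀ (M * q)) :
    ((algebraMap A₀ (integralClosure (Algebra.adjoin A₀ {t})
      (modularFunctionFieldFullC E₀ (M * q))) π :
        integralClosure (Algebra.adjoin A₀ {t}) (modularFunctionFieldFullC E₀ (M * q))) :
      modularFunctionFieldFullC E₀ (M * q)) =
      mgaConst E₀ (M * q) (algebraMap A₀ E₀ π) := by
  rw [mgaConst_apply, ← IsScalarTower.algebraMap_apply A₀ E₀]
  rfl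

/-- **hnode, vertical-valuation layer.**  The two valuation rings are `vtFam hB' ιC' hq hqM`
over the ramified base, `ρ`, `ρ₀` are the two reductions of U5 on the chart `τ` over the
unramified base; inputs: (SS1) `ker ρ ∩ ker ρ₀ = π B₀` and the dichotomy (SS2) ∨ (SS3) in the
exact shape of `nodes_modular_chart`. -/
theorem stbmn_vt
    (hcomp : ∀ a : A₀, algebraMap A' E' (algebraMap A₀ A' a) =
      algebraMap E₀ E' (algebraMap A₀ E₀ a))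
    [Algebra.IsIntegral A₀ A']
    {π : A₀} (hπ : Irreducible π) (hB : VtBase (algebraMap A₀ E₀) r π) (ιC₀ : E₀ →+* ℂ)
    (τ : modularFunctionFieldFullC E₀ (M * q))
    [FiniteDimensional E₀⟮τ⟯ (modularFunctionFieldFullC E₀ (M * q))]
    (hτ : (τ : LaurentSeries E₀) ∈ gaussRing (algebraMap A₀ E₀) r)
    (hwτ : (((atkinLehner E₀ ιC₀ hq hqM).toAlgHom τ : modularFunctionFieldFullC E₀ (M * q)) :
      LaurentSeries E₀) ∈ gaussRing (algebraMap A₀ E₀) r)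
    {π' : A'} (hπ' : Irreducible π') {e : ℕ}
    (hram : π' ^ e ∣ algebraMap A₀ A' π)
    (g₀ : A₀[X]) (hgm : g₀.Monic) (hroot : aeval π' g₀ = 0) (hdeg : g₀.natDegree ≤ e)
    (hadj : Algebra.adjoin E₀ ({algebraMap A' E' π'} : Set E') = ⊤)
    (halg : IsAlgebraic E₀ (algebraMap A' E' π'))
    {t : modularFunctionFieldFullC E' (M * q)} (ht : mgcEmb E₀ E' (M * q) τ = t)
    {ϖ : A'} (hϖ : Irreducible ϖ) (hB' : VtBase (algebraMap A' E') r' ϖ) (ιC' : E' →+* ℂ)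
    {κ : k →+* k'}
    (hc : VtCompat (algebraMap A₀ E₀) r (algebraMap A' E') r' (algebraMap E₀ E') κ)
    (hker : ∀ x : integralClosure (Algebra.adjoin A₀ {τ}) (modularFunctionFieldFullC E₀ (M * q)),
      nodesFrobChartRed r hB.ne hπ.not_isUnit hB.ker hB.rπ (nodesFrob_full_le (M * q)) τ hτ x
        = 0 →
      nodesSwapRho₀ r hB.ne hπ.not_isUnit hB.ker hB.rπ (nodesFrob_full_le (M * q))
        (atkinLehner E₀ ιC₀ hq hqM).toAlgHom τ hwτ x = 0 →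
      algebraMap A₀ (integralClosure (Algebra.adjoin A₀ {τ})
        (modularFunctionFieldFullC E₀ (M * q))) π ∣ x)
    (hU5 : ∀ 𝔫 : Ideal (integralClosure (Algebra.adjoin A₀ {τ})
        (modularFunctionFieldFullC E₀ (M * q))), 𝔫.IsMaximal →
      algebraMap A₀ (integralClosure (Algebra.adjoin A₀ {τ})
        (modularFunctionFieldFullC E₀ (M * q))) π ∈ 𝔫 →
      (∃ s ∈ 𝔫, NodesLocGen 𝔫 {algebraMap A₀ (integralClosure (Algebra.adjoin A₀ {τ})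
        (modularFunctionFieldFullC E₀ (M * q))) π, s}) ∨
      ((∀ x, nodesFrobChartRed r hB.ne hπ.not_isUnit hB.ker hB.rπ (nodesFrob_full_le (M * q))
          τ hτ x = 0 → x ∈ 𝔫) ∧
       (∀ x, nodesSwapRho₀ r hB.ne hπ.not_isUnit hB.ker hB.rπ (nodesFrob_full_le (M * q))
          (atkinLehner E₀ ιC₀ hq hqM).toAlgHom τ hwτ x = 0 → x ∈ 𝔫) ∧
        ∃ X Y : integralClosure (Algebra.adjoin A₀ {τ}) (modularFunctionFieldFullC E₀ (M * q)),
          nodesFrobChartRed r hB.ne hπ.not_isUnit hB.ker hB.rπ (nodesFrob_full_le (M * q))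
            τ hτ X = 0 ∧
          nodesSwapRho₀ r hB.ne hπ.not_isUnit hB.ker hB.rπ (nodesFrob_full_le (M * q))
            (atkinLehner E₀ ιC₀ hq hqM).toAlgHom τ hwτ Y = 0 ∧
          NodesSmoothAt (nodesSwapRho₀ r hB.ne hπ.not_isUnit hB.ker hB.rπ
            (nodesFrob_full_le (M * q)) (atkinLehner E₀ ιC₀ hq hqM).toAlgHom τ hwτ) 𝔫 X ∧
          NodesSmoothAt (nodesFrobChartRed r hB.ne hπ.not_isUnit hB.ker hB.rπ
            (nodesFrob_full_le (M * q)) τ hτ) 𝔫 Y ∧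
          algebraMap A₀ (integralClosure (Algebra.adjoin A₀ {τ})
            (modularFunctionFieldFullC E₀ (M * q))) π ∣ X * Y ∧
          NodesLocGen 𝔫 {algebraMap A₀ (integralClosure (Algebra.adjoin A₀ {τ})
            (modularFunctionFieldFullC E₀ (M * q))) π, X, Y})) :
    ∃ j : integralClosure (Algebra.adjoin A₀ {τ}) (modularFunctionFieldFullC E₀ (M * q)) →+*
        ↥(zchClosure (A₀ := A') ({t} : Set (modularFunctionFieldFullC E' (M * q)))),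
      MgcRamified j (algebraMap A' ↥(zchClosure (A₀ := A')
          ({t} : Set (modularFunctionFieldFullC E' (M * q)))) ϖ)
        (algebraMap A₀ (integralClosure (Algebra.adjoin A₀ {τ})
          (modularFunctionFieldFullC E₀ (M * q))) π) ∧
      j (algebraMap A₀ (integralClosure (Algebra.adjoin A₀ {τ})
          (modularFunctionFieldFullC E₀ (M * q))) π) =
        algebraMap A' ↥(zchClosure (A₀ := A')
          ({t} : Set (modularFunctionFieldFullC E' (M * q)))) (algebraMap A₀ A' π) ∧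
      ∀ 𝔫 : AtPt (F := modularFunctionFieldFullC E' (M * q)) ϖ t,
        StbNodeAt (vtFam hB' ιC' hq hqM true) (vtFam hB' ιC' hq hqM false) 𝔫 j
          (algebraMap A₀ (integralClosure (Algebra.adjoin A₀ {τ})
            (modularFunctionFieldFullC E₀ (M * q))) π) := by
  -- `ρ π = 0`, `ρ₀ π = 0`
  have hρπ : nodesFrobChartRed r hB.ne hπ.not_isUnit hB.ker hB.rπ (nodesFrob_full_le (M * q))
      τ hτ (algebraMap A₀ (integralClosure (Algebra.adjoin A₀ {τ})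
        (modularFunctionFieldFullC E₀ (M * q))) π) = 0 := by
    rw [← stbmn_rho_iff hB hπ.not_isUnit ιC₀ hq hqM τ hτ, stbmn_unif_coe]
    exact vtFam_unif_mem_nonunits hB ιC₀ hq hqM true
  have hρ₀π : nodesSwapRho₀ r hB.ne hπ.not_isUnit hB.ker hB.rπ (nodesFrob_full_le (M * q))
      (atkinLehner E₀ ιC₀ hq hqM).toAlgHom τ hwτ
      (algebraMap A₀ (integralClosure (Algebra.adjoin A₀ {τ})
        (modularFunctionFieldFullC E₀ (M * q))) π) = 0 := by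
    rw [← stbmn_rho₀_iff hB hπ.not_isUnit ιC₀ hq hqM τ hwτ, stbmn_unif_coe]
    exact vtFam_unif_mem_nonunits hB ιC₀ hq hqM false
  have hπu := mgc_not_isUnit_of_map_eq_zero _ hρπ
  have hred := mgc_hred_of_ker hρπ hρ₀π hker
  refine stbmn_modular (A₀ := A₀) (E₀ := E₀) (A' := A') (E' := E') (M * q) hcomp hπ τ hπu hred
    hπ' hram g₀ hgm hroot hdeg hadj halg ht hϖ
    (vtFam hB' ιC' hq hqM true) (vtFam hB' ιC' hq hqM false)
    (nodesFrobChartRed r hB.ne hπ.not_isUnit hB.ker hB.rπ (nodesFrob_full_le (M * q)) τ hτ)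
    (nodesSwapRho₀ r hB.ne hπ.not_isUnit hB.ker hB.rπ (nodesFrob_full_le (M * q))
      (atkinLehner E₀ ιC₀ hq hqM).toAlgHom τ hwτ) ?_ ?_ ?_
  · intro x
    exact (vtFam_baseChange_mem_nonunits_iff hB hB' ιC₀ ιC' hq hqM hc true _).trans
      (stbmn_rho_iff hB hπ.not_isUnit ιC₀ hq hqM τ hτ x)
  · intro x
    exact (vtFam_baseChange_mem_nonunits_iff hB hB' ιC₀ ιC' hq hqM hc false _).trans
      (stbmn_rho₀_iff hB hπ.not_isUnit ιC₀ hq hqM τ hwτ x)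
  · intro 𝔪 h𝔪 hp
    exact mgcoord_u5_weaken _ _ _ 𝔪 (hU5 𝔪 h𝔪 hp)

end VtLayer

end Fermat.Agent.STB


end ZBSTB_003_12

/-! ### bundled: `Fermat.Agent.STB.MGNodeReg` -/
section ZBSTB_003_13

/-!
# STB-MG hnode, generic plugging of U5 (`RegChart` form)

`stbmn_reg_J`, `stbmn_reg_Jinv` : the conclusion of `stbmn_vt` for the charts `j`, `1/j` of
`F_{Mq}(K₀)` (`K₀ ⊆ ℚ̄`), the U5 inputs (SS1), (SS2) ∨ (SS3) being supplied by
`nodesReg_ker_J`, `nodesReg_chart_J` (helper20) from `RegChart π (bgJ K₀ M)^{±1}` and a lift of the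
inverse Frobenius.  Generic base `A₀` (so that the long statements are never instantiated at the
concrete rings).
-/

set_option autoImplicit false
set_option linter.style.haveILetI false
set_option linter.unusedSectionVars false
set_option linter.unusedVariables false
set_option linter.style.longLine false

noncomputable section

namespace Fermat.Agent.STB

open ModularCurve AlgebraicCurve Fermat.Agent.INJ Fermat.Agent.UNIP Fermat.Agent.AL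
open IntermediateField Polynomial

section RegGeneric

variable (K₀ : IntermediateField ℚ NfQb) {A₀ : Type} [CommRing A₀] [IsDomain A₀]
  [IsDiscreteValuationRing A₀] [Algebra A₀ K₀] [IsFractionRing A₀ K₀]
  {A' E' : Type} [CommRing A'] [IsDomain A'] [IsDiscreteValuationRing A']
  [Field E'] [CharZero E'] [Algebra A' E'] [IsFractionRing A' E']
  [Algebra K₀ E'] [Algebra A₀ A']
  {q M : ℕ} [NeZero q] [NeZero M] [NeZero (M * q)] (hq : q.Prime) (hqM : ¬ q ∣ M)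
  [Algebra A₀ (modularFunctionFieldFullC K₀ M)]
  [IsScalarTower A₀ K₀ (modularFunctionFieldFullC K₀ M)]
  [Algebra A₀ (modularFunctionFieldFullC K₀ (M * q))]
  [IsScalarTower A₀ K₀ (modularFunctionFieldFullC K₀ (M * q))]
  [Algebra A' (modularFunctionFieldFullC E' (M * q))]
  [IsScalarTower A' E' (modularFunctionFieldFullC E' (M * q))]
  {k : Type*} [Field k] {r : A₀ →+* k} {k' : Type*} [Field k'] {r' : A' →+* k'}

theorem stbmn_incl_J_gen : nodesInstIncl K₀ M q (bgJ K₀ M) = bgJ K₀ (M * q) :=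
  Subtype.ext (nodesInstIncl_coe M q (bgJ K₀ M))

theorem stbmn_incl_Jinv_gen : nodesInstIncl K₀ M q (bgJ K₀ M)⁻¹ = (bgJ K₀ (M * q))⁻¹ := by
  rw [map_inv₀, stbmn_incl_J_gen]

theorem stbmn_fd_J :
    FiniteDimensional (↥K₀)⟮nodesInstIncl K₀ M q (bgJ K₀ M)⟯
      (modularFunctionFieldFullC K₀ (M * q)) := by
  rw [stbmn_incl_J_gen]
  exact mgcc_finiteDimensional_j K₀ (M * q)

theorem stbmn_fd_Jinv :
    FiniteDimensional (↥K₀)⟮nodesInstIncl K₀ M q (bgJ K₀ M)⁻¹⟯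
      (modularFunctionFieldFullC K₀ (M * q)) := by
  rw [stbmn_incl_Jinv_gen]
  exact mgcc_finiteDimensional_jinv K₀ (M * q)

/-- **hnode, chart `j`, generic base**: from `RegChart π (bgJ K₀ M)` and a lift `ψ` of the inverse
Frobenius. -/
theorem stbmn_reg_J [Fact q.Prime] [CharP k q]
    (hcomp : ∀ a : A₀, algebraMap A' E' (algebraMap A₀ A' a) =
      algebraMap K₀ E' (algebraMap A₀ K₀ a))
    [Algebra.IsIntegral A₀ A']
    {π : A₀} (hπ : Irreducible π) (hB : VtBase (algebraMap A₀ K₀) r π) (ιC₀ : K₀ →+* ℂ)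
    (h : RegChart (E := K₀) π (bgJ K₀ M))
    (ψA : A₀ →+* A₀) (ψE : K₀ →+* K₀) (θ : k →+* k)
    (hψ : ∀ a, ψE (algebraMap A₀ K₀ a) = algebraMap A₀ K₀ (ψA a))
    (hθ : ∀ a, r (ψA a) = θ (r a)) (hθq : ∀ x, θ x ^ q = x)
    {π' : A'} (hπ' : Irreducible π') {e : ℕ}
    (hram : π' ^ e ∣ algebraMap A₀ A' π)
    (g₀ : A₀[X]) (hgm : g₀.Monic) (hroot : aeval π' g₀ = 0) (hdeg : g₀.natDegree ≤ e)
    (hadj : Algebra.adjoin K₀ ({algebraMap A' E' π'} : Set E') = ⊤)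
    (halg : IsAlgebraic K₀ (algebraMap A' E' π'))
    {t : modularFunctionFieldFullC E' (M * q)}
    (ht : mgcEmb K₀ E' (M * q) (nodesInstIncl K₀ M q (bgJ K₀ M)) = t)
    {ϖ : A'} (hϖ : Irreducible ϖ) (hB' : VtBase (algebraMap A' E') r' ϖ) (ιC' : E' →+* ℂ)
    {κ : k →+* k'}
    (hc : VtCompat (algebraMap A₀ K₀) r (algebraMap A' E') r' (algebraMap K₀ E') κ) :
    ∃ j : (integralClosure (Algebra.adjoin A₀ {nodesInstIncl K₀ M q (bgJ K₀ M)}) (modularFunctionFieldFullC K₀ (M * q))) →+* ↥(zchClosure (A₀ := A') ({t} : Set (modularFunctionFieldFullC E' (M * q)))),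
      MgcRamified j (algebraMap A' ↥(zchClosure (A₀ := A') ({t} : Set (modularFunctionFieldFullC E' (M * q)))) ϖ) (algebraMap A₀ (integralClosure (Algebra.adjoin A₀ {nodesInstIncl K₀ M q (bgJ K₀ M)}) (modularFunctionFieldFullC K₀ (M * q))) π) ∧
      j (algebraMap A₀ (integralClosure (Algebra.adjoin A₀ {nodesInstIncl K₀ M q (bgJ K₀ M)}) (modularFunctionFieldFullC K₀ (M * q))) π) = algebraMap A' ↥(zchClosure (A₀ := A') ({t} : Set (modularFunctionFieldFullC E' (M * q)))) (algebraMap A₀ A' π) ∧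
      ∀ 𝔫 : AtPt (F := modularFunctionFieldFullC E' (M * q)) ϖ t,
        StbNodeAt (vtFam hB' ιC' hq hqM true) (vtFam hB' ιC' hq hqM false) 𝔫 j (algebraMap A₀ (integralClosure (Algebra.adjoin A₀ {nodesInstIncl K₀ M q (bgJ K₀ M)}) (modularFunctionFieldFullC K₀ (M * q))) π) := by
  haveI := stbmn_fd_J K₀ (M := M) (q := q)
  exact stbmn_vt (A₀ := A₀) (E₀ := K₀) (A' := A') (E' := E') hq hqM hcomp hπ hB ιC₀
    (nodesInstIncl K₀ M q (bgJ K₀ M))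
    (nodesInst_ht' r M q (bgJ K₀ M) (nodesFinal_J_mem K₀ r))
    (nodesFinal_wJ_mem K₀ r ιC₀ hq hqM)
    hπ' hram g₀ hgm hroot hdeg hadj halg ht hϖ hB' ιC' hc
    (fun x hx hx₀ => nodesReg_ker_J K₀ r ιC₀ hq hqM hπ hB.ker hB.rπ h x hx hx₀)
    (fun 𝔫 h𝔫 hπ𝔫 => nodesReg_chart_J K₀ r ιC₀ hq hqM ψA ψE θ hπ hB.ker hB.rπ h hψ hθ hθq
      𝔫 h𝔫 hπ𝔫)

/-- **hnode, chart `1/j`, generic base**: from `RegChart π (bgJ K₀ M)⁻¹` and a lift `ψ` of the inverse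
Frobenius. -/
theorem stbmn_reg_Jinv [Fact q.Prime] [CharP k q]
    (hcomp : ∀ a : A₀, algebraMap A' E' (algebraMap A₀ A' a) =
      algebraMap K₀ E' (algebraMap A₀ K₀ a))
    [Algebra.IsIntegral A₀ A']
    {π : A₀} (hπ : Irreducible π) (hB : VtBase (algebraMap A₀ K₀) r π) (ιC₀ : K₀ →+* ℂ)
    (h : RegChart (E := K₀) π (bgJ K₀ M)⁻¹)
    (ψA : A₀ →+* A₀) (ψE : K₀ →+* K₀) (θ : k →+* k)
    (hψ : ∀ a, ψE (algebraMap A₀ K₀ a) = algebraMap A₀ K₀ (ψA a))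
    (hθ : ∀ a, r (ψA a) = θ (r a)) (hθq : ∀ x, θ x ^ q = x)
    {π' : A'} (hπ' : Irreducible π') {e : ℕ}
    (hram : π' ^ e ∣ algebraMap A₀ A' π)
    (g₀ : A₀[X]) (hgm : g₀.Monic) (hroot : aeval π' g₀ = 0) (hdeg : g₀.natDegree ≤ e)
    (hadj : Algebra.adjoin K₀ ({algebraMap A' E' π'} : Set E') = ⊤)
    (halg : IsAlgebraic K₀ (algebraMap A' E' π'))
    {t : modularFunctionFieldFullC E' (M * q)}
    (ht : mgcEmb K₀ E' (M * q) (nodesInstIncl K₀ M q (bgJ K₀ M)⁻¹) = t)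
    {ϖ : A'} (hϖ : Irreducible ϖ) (hB' : VtBase (algebraMap A' E') r' ϖ) (ιC' : E' →+* ℂ)
    {κ : k →+* k'}
    (hc : VtCompat (algebraMap A₀ K₀) r (algebraMap A' E') r' (algebraMap K₀ E') κ) :
    ∃ j : (integralClosure (Algebra.adjoin A₀ {nodesInstIncl K₀ M q (bgJ K₀ M)⁻¹}) (modularFunctionFieldFullC K₀ (M * q))) →+* ↥(zchClosure (A₀ := A') ({t} : Set (modularFunctionFieldFullC E' (M * q)))),
      MgcRamified j (algebraMap A' ↥(zchClosure (A₀ := A') ({t} : Set (modularFunctionFieldFullC E' (M * q)))) ϖ) (algebraMap A₀ (integralClosure (Algebra.adjoin A₀ {nodesInstIncl K₀ M q (bgJ K₀ M)⁻¹}) (modularFunctionFieldFullC K₀ (M * q))) π) ∧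
      j (algebraMap A₀ (integralClosure (Algebra.adjoin A₀ {nodesInstIncl K₀ M q (bgJ K₀ M)⁻¹}) (modularFunctionFieldFullC K₀ (M * q))) π) = algebraMap A' ↥(zchClosure (A₀ := A') ({t} : Set (modularFunctionFieldFullC E' (M * q)))) (algebraMap A₀ A' π) ∧
      ∀ 𝔫 : AtPt (F := modularFunctionFieldFullC E' (M * q)) ϖ t,
        StbNodeAt (vtFam hB' ιC' hq hqM true) (vtFam hB' ιC' hq hqM false) 𝔫 j (algebraMap A₀ (integralClosure (Algebra.adjoin A₀ {nodesInstIncl K₀ M q (bgJ K₀ M)⁻¹}) (modularFunctionFieldFullC K₀ (M * q))) π) := by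
  haveI := stbmn_fd_Jinv K₀ (M := M) (q := q)
  exact stbmn_vt (A₀ := A₀) (E₀ := K₀) (A' := A') (E' := E') hq hqM hcomp hπ hB ιC₀
    (nodesInstIncl K₀ M q (bgJ K₀ M)⁻¹)
    (nodesInst_ht' r M q (bgJ K₀ M)⁻¹ (nodesFinal_Jinv_mem K₀ r))
    (nodesFinal_wJinv_mem K₀ r ιC₀ hq hqM)
    hπ' hram g₀ hgm hroot hdeg hadj halg ht hϖ hB' ιC' hc
    (fun x hx hx₀ => nodesReg_ker_Jinv K₀ r ιC₀ hq hqM hπ hB.ker hB.rπ h x hx hx₀)
    (fun 𝔫 h𝔫 hπ𝔫 => nodesReg_chart_Jinv K₀ r ιC₀ hq hqM ψA ψE θ hπ hB.ker hB.rπ h hψ hθ hθq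
      𝔫 h𝔫 hπ𝔫)

end RegGeneric

end Fermat.Agent.STB

end
end ZBSTB_003_13

/-! ### bundled: `Fermat.Agent.STB.MGNodeFinal` -/
section ZBSTB_003_14

/-!
# STB-MG: `hnode₁`, `hnode₂` of `StbdInputs` (helper76), UNCONDITIONAL

Setting of `UNIP/MGConcrete.lean` + `UNIP/MGVertInertia.lean`: `A` a valuation subring of `ℚ̄` over
`q`, `K₁ / ℚ` a finite Galois extension in `ℚ̄`, `E′ = mgcE A K₁ = ℚ̄^I · K₁`, `A′ = mgcA A K₁`
(a discrete valuation ring, ANY uniformizer `π`), `F′ = mgcF A K₁ (M q)`, `V = mgvV hπ ιC hq hqM`.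

* `stbmn_hnode₁ K₁ hq hqM hA h2 h3 hπ ιC`, `stbmn_hnode₂ …` : there are a ring `R₁` (the chart `j`
  resp. `1/j` of `F_{Mq}(ℚ̄^I)` over the UNRAMIFIED base `A ∩ ℚ̄^I`), a map `j₁ : R₁ → zchClosure {t}`
  and `p₁ ∈ R₁` (the image of `q`) with `MgcRamified j₁ π p₁`, `j₁ p₁ = q` and
  `StbNodeAt V_∞ V_0 𝔫 j₁ p₁` at every closed point `𝔫` of the special fibre of the chart.
  `h2 : q = 2 → 3 ∣ M`, `h3 : q = 3 → 2 ∣ M` (as in `u5c_*`, `stb_regChart_conc_J`).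

Inputs: `stbmn_reg_J` (generic; U5 = `nodesReg_ker_J` + `nodesReg_chart_J`), `stb_regChart_conc_J`
(helper45), the Frobenius lift `stbLiftA`, `beta0Inst_main`, `vt_compat_of_le`.
-/

set_option autoImplicit false
set_option linter.style.haveILetI false
set_option linter.unusedSectionVars false
set_option linter.unusedVariables false
set_option linter.style.longLine false

noncomputable section

namespace Fermat.Agent.STB

open ModularCurve AlgebraicCurve Fermat.Agent.ES Fermat.Agent.ES.G2 Fermat.Agent.INJ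
  Fermat.Agent.UNIP Fermat.Agent.AL
open IntermediateField Polynomial

section Concrete

variable {A : ValuationSubring Qb} (K₁ : IntermediateField ℚ Qb)
  {M q : ℕ} [NeZero M] [NeZero q] [NeZero (M * q)]

/-- `j ↦ j` -/
theorem stbmn_emb_J :
    letI := beta0InstFieldAlgebra A K₁
    mgcEmb ↥(beta0Field A) ↥(beta0Field A ⊔ K₁) (M * q)
      (nodesInstIncl ↥(beta0Field A) M q (bgJ ↥(beta0Field A) M)) = mgcT A K₁ (M * q) := by
  letI := beta0InstFieldAlgebra A K₁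
  rw [nodesFinal_incl_J]
  exact Subtype.ext (coeffMap_jqModC _)

/-- `1/j ↦ 1/j` -/
theorem stbmn_emb_Jinv :
    letI := beta0InstFieldAlgebra A K₁
    mgcEmb ↥(beta0Field A) ↥(beta0Field A ⊔ K₁) (M * q)
      (nodesInstIncl ↥(beta0Field A) M q (bgJ ↥(beta0Field A) M)⁻¹) = (mgcT A K₁ (M * q))⁻¹ := by
  letI := beta0InstFieldAlgebra A K₁
  rw [map_inv₀, map_inv₀, nodesFinal_incl_J]
  congr 1
  exact Subtype.ext (coeffMap_jqModC _)

variable [NumberField K₁] [IsGalois ℚ K₁] [IsDiscreteValuationRing ↥(mgcA A K₁)]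

set_option synthInstance.maxHeartbeats 400000 in
set_option maxHeartbeats 3200000 in
/-- **`hnode₁` of `StbdInputs`** (chart `j`), unconditional. -/
theorem stbmn_hnode₁ (hq : q.Prime) (hqM : ¬ q ∣ M) (hA : A.LiesOverPrime q)
    (h2 : q = 2 → 3 ∣ M) (h3 : q = 3 → 2 ∣ M)
    {π : ↥(mgcA A K₁)} (hπ : Irreducible π) (ιC : ↥(mgcE A K₁) →+* ℂ) :
    ∃ (R₁ : Type) (_ : CommRing R₁)
      (j₁ : R₁ →+* ↥(zchClosure (A₀ := ↥(mgcA A K₁))
        ({(mgcT A K₁ (M * q))} : Set ↥(mgcF A K₁ (M * q))))) (p₁ : R₁),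
      MgcRamified j₁ (algebraMap ↥(mgcA A K₁) ↥(zchClosure (A₀ := ↥(mgcA A K₁))
        ({(mgcT A K₁ (M * q))} : Set ↥(mgcF A K₁ (M * q)))) π) p₁ ∧
      j₁ p₁ = algebraMap ↥(mgcA A K₁) ↥(zchClosure (A₀ := ↥(mgcA A K₁))
        ({(mgcT A K₁ (M * q))} : Set ↥(mgcF A K₁ (M * q)))) ((q : ℕ) : ↥(mgcA A K₁)) ∧
      ∀ 𝔫 : AtPt (F := ↥(mgcF A K₁ (M * q))) π (mgcT A K₁ (M * q)),
        StbNodeAt (mgvV hπ ιC hq hqM true) (mgvV hπ ιC hq hqM false) 𝔫 j₁ p₁ := by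
  letI := beta0InstAlgebra A K₁
  letI := beta0InstFieldAlgebra A K₁
  haveI := beta0Ring_isDVR_base (A := A) hq hA
  haveI := beta0Inst_isIntegral (A := A) K₁ hq hA
  haveI : Fact q.Prime := ⟨hq⟩
  haveI : CharP (IsLocalRing.ResidueField ↥(beta0Ring A (beta0Field A))) q :=
    frobLift_charP A (beta0Field A) hq hA
  obtain ⟨φ, hφF⟩ := Fermat.Agent.Common.exists_isFrobeniusAt_of_liesOverPrime q hq A hA
  have hφ : ∀ x ∈ beta0Field A, φ x ∈ beta0Field A := fun x hx =>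
    beta0_decomp_apply_mem hφF.mem_decompositionSubgroup hx
  have hπ₀ : Irreducible ((q : ℕ) : ↥(beta0Ring A (beta0Field A))) := beta0Ring_irreducible_q hq hA
  obtain ⟨π₁, hπ₁, -, -, -, -, -, hram, ⟨g₀, hgm, hroot, hdeg, -⟩, hadj, halg⟩ :=
    beta0Inst_main (A := A) K₁ hq hA
  obtain ⟨κ, hκ⟩ := vt_compat_of_le (A := A)
    (le_sup_left : beta0Field A ≤ beta0Field A ⊔ K₁)
  obtain ⟨j, hj₁, hj₂, hj₃⟩ := stbmn_reg_J (beta0Field A) (A₀ := ↥(beta0Ring A (beta0Field A)))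
    (A' := ↥(beta0Ring A (beta0Field A ⊔ K₁))) (E' := ↥(beta0Field A ⊔ K₁)) hq hqM
    (fun a => mgcb_hcomp K₁ a) hπ₀ (vtBase_residue hπ₀)
    (ιC.comp (algebraMap ↥(beta0Field A) ↥(beta0Field A ⊔ K₁)))
    (stb_regChart_conc_J M hq hA le_rfl hπ₀ hqM h2 h3)
    ((stbLiftA hφF hφ).symm : ↥(beta0Ring A (beta0Field A)) →+* ↥(beta0Ring A (beta0Field A)))
    ((mgaRestrictEquiv (beta0Field A) φ hφ).symm : ↥(beta0Field A) →+* ↥(beta0Field A))
    (stbLiftTheta hφF hφ) (fun a => stbLift_hψ' hφF hφ a) (fun a => stbLift_hθ hφF hφ a)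
    (fun x => stbLift_hθq hφF hφ x)
    hπ₁ hram g₀ hgm hroot hdeg hadj halg
    (t := (mgcT A K₁ (M * q))) (stbmn_emb_J K₁)
    hπ (vtBase_residue hπ) ιC hκ
  refine ⟨↥(integralClosure (Algebra.adjoin ↥(beta0Ring A (beta0Field A)) {nodesInstIncl ↥(beta0Field A) M q (bgJ ↥(beta0Field A) M)}) (modularFunctionFieldFullC ↥(beta0Field A) (M * q))), inferInstance, j,
    (algebraMap ↥(beta0Ring A (beta0Field A)) (integralClosure (Algebra.adjoin ↥(beta0Ring A (beta0Field A)) {nodesInstIncl ↥(beta0Field A) M q (bgJ ↥(beta0Field A) M)}) (modularFunctionFieldFullC ↥(beta0Field A) (M * q))) ((q : ℕ) : ↥(beta0Ring A (beta0Field A)))), hj₁, ?_, hj₃⟩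
  rw [hj₂]
  congr 1

set_option synthInstance.maxHeartbeats 400000 in
set_option maxHeartbeats 3200000 in
/-- **`hnode₂` of `StbdInputs`** (chart `1/j`), unconditional. -/
theorem stbmn_hnode₂ (hq : q.Prime) (hqM : ¬ q ∣ M) (hA : A.LiesOverPrime q)
    (h2 : q = 2 → 3 ∣ M) (h3 : q = 3 → 2 ∣ M)
    {π : ↥(mgcA A K₁)} (hπ : Irreducible π) (ιC : ↥(mgcE A K₁) →+* ℂ) :
    ∃ (R₁ : Type) (_ : CommRing R₁)
      (j₁ : R₁ →+* ↥(zchClosure (A₀ := ↥(mgcA A K₁))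
        ({(mgcT A K₁ (M * q))⁻¹} : Set ↥(mgcF A K₁ (M * q))))) (p₁ : R₁),
      MgcRamified j₁ (algebraMap ↥(mgcA A K₁) ↥(zchClosure (A₀ := ↥(mgcA A K₁))
        ({(mgcT A K₁ (M * q))⁻¹} : Set ↥(mgcF A K₁ (M * q)))) π) p₁ ∧
      j₁ p₁ = algebraMap ↥(mgcA A K₁) ↥(zchClosure (A₀ := ↥(mgcA A K₁))
        ({(mgcT A K₁ (M * q))⁻¹} : Set ↥(mgcF A K₁ (M * q)))) ((q : ℕ) : ↥(mgcA A K₁)) ∧
      ∀ 𝔫 : AtPt (F := ↥(mgcF A K₁ (M * q))) π (mgcT A K₁ (M * q))⁻¹,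
        StbNodeAt (mgvV hπ ιC hq hqM true) (mgvV hπ ιC hq hqM false) 𝔫 j₁ p₁ := by
  letI := beta0InstAlgebra A K₁
  letI := beta0InstFieldAlgebra A K₁
  haveI := beta0Ring_isDVR_base (A := A) hq hA
  haveI := beta0Inst_isIntegral (A := A) K₁ hq hA
  haveI : Fact q.Prime := ⟨hq⟩
  haveI : CharP (IsLocalRing.ResidueField ↥(beta0Ring A (beta0Field A))) q :=
    frobLift_charP A (beta0Field A) hq hA
  obtain ⟨φ, hφF⟩ := Fermat.Agent.Common.exists_isFrobeniusAt_of_liesOverPrime q hq A hA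
  have hφ : ∀ x ∈ beta0Field A, φ x ∈ beta0Field A := fun x hx =>
    beta0_decomp_apply_mem hφF.mem_decompositionSubgroup hx
  have hπ₀ : Irreducible ((q : ℕ) : ↥(beta0Ring A (beta0Field A))) := beta0Ring_irreducible_q hq hA
  obtain ⟨π₁, hπ₁, -, -, -, -, -, hram, ⟨g₀, hgm, hroot, hdeg, -⟩, hadj, halg⟩ :=
    beta0Inst_main (A := A) K₁ hq hA
  obtain ⟨κ, hκ⟩ := vt_compat_of_le (A := A)
    (le_sup_left : beta0Field A ≤ beta0Field A ⊔ K₁)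
  obtain ⟨j, hj₁, hj₂, hj₃⟩ := stbmn_reg_Jinv (beta0Field A) (A₀ := ↥(beta0Ring A (beta0Field A)))
    (A' := ↥(beta0Ring A (beta0Field A ⊔ K₁))) (E' := ↥(beta0Field A ⊔ K₁)) hq hqM
    (fun a => mgcb_hcomp K₁ a) hπ₀ (vtBase_residue hπ₀)
    (ιC.comp (algebraMap ↥(beta0Field A) ↥(beta0Field A ⊔ K₁)))
    (stb_regChart_conc_Jinv M hq hA le_rfl hπ₀ hqM h2 h3)
    ((stbLiftA hφF hφ).symm : ↥(beta0Ring A (beta0Field A)) →+* ↥(beta0Ring A (beta0Field A)))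
    ((mgaRestrictEquiv (beta0Field A) φ hφ).symm : ↥(beta0Field A) →+* ↥(beta0Field A))
    (stbLiftTheta hφF hφ) (fun a => stbLift_hψ' hφF hφ a) (fun a => stbLift_hθ hφF hφ a)
    (fun x => stbLift_hθq hφF hφ x)
    hπ₁ hram g₀ hgm hroot hdeg hadj halg
    (t := (mgcT A K₁ (M * q))⁻¹) (stbmn_emb_Jinv K₁)
    hπ (vtBase_residue hπ) ιC hκ
  refine ⟨↥(integralClosure (Algebra.adjoin ↥(beta0Ring A (beta0Field A)) {nodesInstIncl ↥(beta0Field A) M q (bgJ ↥(beta0Field A) M)⁻¹}) (modularFunctionFieldFullC ↥(beta0Field A) (M * q))), inferInstance, j,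
    (algebraMap ↥(beta0Ring A (beta0Field A)) (integralClosure (Algebra.adjoin ↥(beta0Ring A (beta0Field A)) {nodesInstIncl ↥(beta0Field A) M q (bgJ ↥(beta0Field A) M)⁻¹}) (modularFunctionFieldFullC ↥(beta0Field A) (M * q))) ((q : ℕ) : ↥(beta0Ring A (beta0Field A)))), hj₁, ?_, hj₃⟩
  rw [hj₂]
  congr 1

end Concrete

end Fermat.Agent.STB


end
end ZBSTB_003_14

/-! ### bundled: `Fermat.Agent.S36.WeakApproxN` -/
section ZBSTB_003_15
/-
S36 (Carayol at `q² ∥ M`), geometric clause, piece G-AT2 (helper84): WEAK APPROXIMATION for a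
finite family of pairwise incomparable archimedean valuation subrings (Artin–Whaples), as needed
for the three vertical valuations `V_a, V_c, V_b` of level `q²`.

* `aqw_sep`          : `V₁, V₂` incomparable ⇒ `y` large at `V₁`, small at `V₂`.
* `aqw_large_small`  : `z` large at `V c`, small at all `V c'`, `c' ∈ S`.
* `aqw_idem`         : `e ≡ 1` at `V c`, `e ≡ 0` at all `V c'`, `c' ≠ c`.
* `aqw_weakApprox`   : for `T c ≠ 0` there is `H ≠ 0` with `H / T c ≡ 1` at `V c` for ALL `c`.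
(the case of two valuations is `STB.stb_weakApprox_of_not_le` of helper28.)
-/

set_option autoImplicit false
set_option linter.unusedSectionVars false
set_option linter.unusedVariables false
set_option linter.style.haveILetI false

namespace Fermat.Agent.S36

open Fermat.Agent.STB

variable {F : Type*} [Field F] {κ : Type*}

/-- an element outside `V` has its inverse in `𝔪(V)` -/
theorem aqw_inv_mem_of_not_mem (V : ValuationSubring F) {x : F} (hx : x ∉ V) :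
    x⁻¹ ∈ V.nonunits := by
  have hv : 1 < V.valuation x := by
    by_contra hcon
    exact hx ((V.valuation_le_one_iff x).1 (not_lt.1 hcon))
  rw [stb_mem_nonunits_iff, map_inv₀]
  exact inv_lt_one_of_one_lt₀ hv

/-- an element of `𝔪(V)`, nonzero, has its inverse outside `V` -/
theorem aqw_inv_not_mem (V : ValuationSubring F) {x : F} (hx : x ∈ V.nonunits) (hx0 : x ≠ 0) :
    x⁻¹ ∉ V := by
  intro h
  have h1 : x⁻¹ * x ∈ V.nonunits := stb_mul_mem_nonunits h hx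
  rw [inv_mul_cancel₀ hx0, stb_mem_nonunits_iff, map_one] at h1
  exact lt_irrefl _ h1

/-- `1 + x` is a unit of `V` for `x ∈ 𝔪(V)`, and so is its inverse -/
theorem aqw_one_add_inv (V : ValuationSubring F) {x : F} (hx : x ∈ V.nonunits) :
    StbUnit V (1 + x)⁻¹ := by
  have h1 : StbUnit V (1 : F) := by simp [StbUnit]
  exact (h1.add_nonunit hx).inv

theorem aqw_one_add_inv_sub (V : ValuationSubring F) {x : F} (hx : x ∈ V.nonunits) :
    (1 + x)⁻¹ - 1 ∈ V.nonunits := by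
  have h1 : StbUnit V (1 : F) := by simp [StbUnit]
  have hu := h1.add_nonunit hx
  have e : (1 + x)⁻¹ - 1 = -((1 + x)⁻¹ * x) := by
    have := hu.ne_zero
    field_simp
    ring
  rw [e]
  exact stb_neg_mem_nonunits (hu.inv.mul_nonunit hx)

/-- **Separation** of two incomparable valuation subrings: `y` large at `V₁`, small at `V₂`. -/
theorem aqw_sep {V₁ V₂ : ValuationSubring F} (h12 : ¬ V₁ ≤ V₂) (h21 : ¬ V₂ ≤ V₁) :
    ∃ y : F, y ≠ 0 ∧ y⁻¹ ∈ V₁.nonunits ∧ y ∈ V₂.nonunits := by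
  obtain ⟨x, hx2, hx1⟩ := SetLike.not_le_iff_exists.1 h21
  obtain ⟨x', hx'1, hx'2⟩ := SetLike.not_le_iff_exists.1 h12
  have hx0 : x ≠ 0 := fun h => hx1 (h ▸ V₁.zero_mem)
  have hx'0 : x' ≠ 0 := fun h => hx'2 (h ▸ V₂.zero_mem)
  refine ⟨x * x'⁻¹, mul_ne_zero hx0 (inv_ne_zero hx'0), ?_, ?_⟩
  · have e : (x * x'⁻¹)⁻¹ = x' * x⁻¹ := by
      field_simp
    rw [e]
    exact stb_mul_mem_nonunits hx'1 (aqw_inv_mem_of_not_mem V₁ hx1)
  · exact stb_mul_mem_nonunits hx2 (aqw_inv_mem_of_not_mem V₂ hx'2)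

/-- a uniform bound over a finite set -/
theorem aqw_uniform (S : Finset κ) (P : κ → ℕ → Prop)
    (h : ∀ c ∈ S, ∃ N, ∀ n, N ≤ n → P c n) : ∃ N, ∀ c ∈ S, ∀ n, N ≤ n → P c n := by
  classical
  induction S using Finset.induction_on with
  | empty => exact ⟨0, fun c hc => absurd hc (Finset.notMem_empty c)⟩
  | insert a S ha ih =>
    obtain ⟨N₁, hN₁⟩ := ih fun c hc => h c (Finset.mem_insert_of_mem hc)
    obtain ⟨N₂, hN₂⟩ := h a (Finset.mem_insert_self a S)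
    refine ⟨max N₁ N₂, fun c hc n hn => ?_⟩
    rcases Finset.mem_insert.mp hc with rfl | hc'
    · exact hN₂ n (le_trans (le_max_right _ _) hn)
    · exact hN₁ c hc' n (le_trans (le_max_left _ _) hn)

/-- **Artin–Whaples, inductive step.**  `z` large at `V c` and small at every `V c'`, `c' ∈ S`. -/
theorem aqw_large_small (V : κ → ValuationSubring F)
    (hinc : ∀ c c', c ≠ c' → ¬ V c ≤ V c') (hA : ∀ c, StbArch (V c)) (c : κ)
    {z₀ : F} (hz₀0 : z₀ ≠ 0) (hz₀ : z₀⁻¹ ∈ (V c).nonunits) (S : Finset κ) (hS : c ∉ S) :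
    ∃ z : F, z ≠ 0 ∧ z⁻¹ ∈ (V c).nonunits ∧ ∀ c' ∈ S, z ∈ (V c').nonunits := by
  classical
  induction S using Finset.induction_on with
  | empty => exact ⟨z₀, hz₀0, hz₀, fun c' hc' => absurd hc' (Finset.notMem_empty c')⟩
  | insert c₂ S hc₂ ih =>
    have hcc₂ : c ≠ c₂ := fun h => hS (h ▸ Finset.mem_insert_self _ S)
    have hcS : c ∉ S := fun h => hS (Finset.mem_insert_of_mem h)
    obtain ⟨z, hz0, hzc, hzS⟩ := ih hcS
    obtain ⟨y, hy0, hyc, hyc₂⟩ := aqw_sep (hinc c c₂ hcc₂) (hinc c₂ c (Ne.symm hcc₂))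
    -- uniform exponent
    obtain ⟨N, hN⟩ := aqw_uniform S (fun c' n => y * z ^ n ∈ (V c').nonunits)
      (fun c' hc' => (hA c').exists_forall_ge y (hzS c' hc'))
    have hzcN : ∀ n : ℕ, (z⁻¹) ^ (n + 1) ∈ (V c).nonunits := fun n => by
      rw [pow_succ]
      exact stb_mul_mem_nonunits ((V c).pow_mem (stb_nonunits_subset hzc) n) hzc
    by_cases hz₂ : z ∈ V c₂
    · -- `z' = z ^ (N + 1) * y`
      refine ⟨z ^ (N + 1) * y, mul_ne_zero (pow_ne_zero _ hz0) hy0, ?_, fun c' hc' => ?_⟩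
      · have e : (z ^ (N + 1) * y)⁻¹ = (z⁻¹) ^ (N + 1) * y⁻¹ := by
          rw [mul_inv, inv_pow]
        rw [e]
        exact stb_mul_mem_nonunits (stb_nonunits_subset (hzcN N)) hyc
      · rcases Finset.mem_insert.mp hc' with rfl | hc''
        · exact stb_mul_mem_nonunits ((V c').pow_mem hz₂ _) hyc₂
        · rw [mul_comm]
          exact hN c' hc'' (N + 1) (Nat.le_succ N)
    · -- `z' = y * z ^ (N + 1) / (1 + z ^ (N + 1))`
      have hz₂' : z⁻¹ ∈ (V c₂).nonunits := aqw_inv_mem_of_not_mem (V c₂) hz₂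
      have hz₂N : (z⁻¹) ^ (N + 1) ∈ (V c₂).nonunits := by
        rw [pow_succ]
        exact stb_mul_mem_nonunits ((V c₂).pow_mem (stb_nonunits_subset hz₂') N) hz₂'
      have hden0 : (1 : F) + z ^ (N + 1) ≠ 0 := by
        intro h
        have h1 : (1 : F) + (z⁻¹) ^ (N + 1) = 0 := by
          have e : (1 : F) + (z⁻¹) ^ (N + 1) = (z⁻¹) ^ (N + 1) * (1 + z ^ (N + 1)) := by
            rw [inv_pow]
            field_simp
            ring
          rw [e, h, mul_zero]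
        have h2 := (aqw_one_add_inv (V c₂) hz₂N).ne_zero
        exact h2 (by rw [h1, inv_zero])
      have hu0 : z ^ (N + 1) ≠ 0 := pow_ne_zero _ hz0
      have ekey : z ^ (N + 1) / (1 + z ^ (N + 1)) = (1 + (z⁻¹) ^ (N + 1))⁻¹ := by
        rw [inv_pow]
        apply eq_inv_of_mul_eq_one_left
        rw [div_mul_eq_mul_div, mul_add, mul_one, mul_inv_cancel₀ hu0, add_comm,
          div_self hden0]
      refine ⟨y * (z ^ (N + 1) / (1 + z ^ (N + 1))),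
        mul_ne_zero hy0 (div_ne_zero (pow_ne_zero _ hz0) hden0), ?_, fun c' hc' => ?_⟩
      · have e : (y * (z ^ (N + 1) / (1 + z ^ (N + 1))))⁻¹ = (1 + (z⁻¹) ^ (N + 1)) * y⁻¹ := by
          rw [ekey, mul_inv, inv_inv, mul_comm]
        rw [e]
        have h1 : StbUnit (V c) (1 : F) := by simp [StbUnit]
        exact (h1.add_nonunit (hzcN N)).mul_nonunit hyc
      · rcases Finset.mem_insert.mp hc' with rfl | hc''
        · rw [ekey, mul_comm]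
          exact (aqw_one_add_inv (V c') hz₂N).mul_nonunit hyc₂
        · have hzN : z ^ (N + 1) ∈ (V c').nonunits := by
            rw [pow_succ]
            exact stb_mul_mem_nonunits ((V c').pow_mem (stb_nonunits_subset (hzS c' hc'')) N)
              (hzS c' hc'')
          have e : y * (z ^ (N + 1) / (1 + z ^ (N + 1)))
              = (1 + z ^ (N + 1))⁻¹ * (y * z ^ (N + 1)) := by
            field_simp
          rw [e]
          exact (aqw_one_add_inv (V c') hzN).mul_nonunit (hN c' hc'' (N + 1) (Nat.le_succ N))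

/-- **Idempotents.**  `e ≡ 1` at `V c` and `e ≡ 0` at every other `V c'`. -/
theorem aqw_idem [Finite κ] (V : κ → ValuationSubring F)
    (hinc : ∀ c c', c ≠ c' → ¬ V c ≤ V c') (hA : ∀ c, StbArch (V c)) (c : κ) :
    ∃ e : F, e - 1 ∈ (V c).nonunits ∧ ∀ c', c' ≠ c → e ∈ (V c').nonunits := by
  classical
  letI : Fintype κ := Fintype.ofFinite κ
  by_cases hex : ∃ c₂, c₂ ≠ c
  · obtain ⟨c₂, hc₂⟩ := hex
    obtain ⟨y, hy0, hyc, -⟩ := aqw_sep (hinc c c₂ (Ne.symm hc₂)) (hinc c₂ c hc₂)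
    obtain ⟨z, hz0, hzc, hzS⟩ := aqw_large_small V hinc hA c hy0 hyc (Finset.univ.erase c)
      (Finset.notMem_erase c _)
    refine ⟨(1 + z⁻¹)⁻¹, aqw_one_add_inv_sub (V c) hzc, fun c' hc' => ?_⟩
    have hz' : z ∈ (V c').nonunits := hzS c' (Finset.mem_erase.mpr ⟨hc', Finset.mem_univ _⟩)
    have hden : (1 : F) + z ≠ 0 := by
      intro h
      have := (aqw_one_add_inv (V c') hz').ne_zero
      exact this (by rw [h, inv_zero])
    have e : (1 + z⁻¹)⁻¹ = (1 + z)⁻¹ * z := by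
      symm
      apply eq_inv_of_mul_eq_one_left
      rw [mul_assoc, mul_add, mul_one, mul_inv_cancel₀ hz0, add_comm z 1, inv_mul_cancel₀ hden]
    rw [e]
    exact (aqw_one_add_inv (V c') hz').mul_nonunit hz'
  · have hex : ∀ c₂, c₂ = c := fun c₂ => by
      by_contra h
      exact hex ⟨c₂, h⟩
    exact ⟨1, by rw [sub_self]; exact stb_zero_mem_nonunits _, fun c' hc' => absurd (hex c') hc'⟩

/-- **Weak approximation** for finitely many pairwise incomparable archimedean valuation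
subrings: for `T c ≠ 0` there is `H ≠ 0` with `H / T c ≡ 1` at `V c` for all `c`. -/
theorem aqw_weakApprox [Finite κ] (V : κ → ValuationSubring F)
    (hinc : ∀ c c', c ≠ c' → ¬ V c ≤ V c') (hA : ∀ c, StbArch (V c))
    (T : κ → F) (hT : ∀ c, T c ≠ 0) :
    ∃ H : F, H ≠ 0 ∧ ∀ c, H / T c - 1 ∈ (V c).nonunits := by
  classical
  letI : Fintype κ := Fintype.ofFinite κ
  rcases isEmpty_or_nonempty κ with hκ | ⟨⟨c₁⟩⟩
  · exact ⟨1, one_ne_zero, fun c => (hκ.false c).elim⟩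
  choose e he1 he0 using aqw_idem V hinc hA
  -- uniform exponent
  have hN : ∃ N, ∀ c ∈ (Finset.univ : Finset κ), ∀ n, N ≤ n →
      ∀ c' ∈ (Finset.univ : Finset κ), c' ≠ c → T c' / T c * e c' ^ n ∈ (V c).nonunits := by
    refine aqw_uniform _ _ fun c _ => ?_
    obtain ⟨N, hN⟩ := aqw_uniform ((Finset.univ : Finset κ).erase c)
      (fun c' n => T c' / T c * e c' ^ n ∈ (V c).nonunits)
      (fun c' hc' => (hA c).exists_forall_ge (T c' / T c)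
        (he0 c' c (Ne.symm (Finset.ne_of_mem_erase hc'))))
    exact ⟨N, fun n hn c' _ hc' => hN c' (Finset.mem_erase.mpr ⟨hc', Finset.mem_univ _⟩) n hn⟩
  obtain ⟨N, hN⟩ := hN
  have key : ∀ c, (∑ c', T c' * e c' ^ N) / T c - 1 ∈ (V c).nonunits := by
    intro c
    have e1 : (∑ c', T c' * e c' ^ N) / T c - 1
        = (e c ^ N - 1) + ∑ c' ∈ (Finset.univ : Finset κ).erase c, T c' / T c * e c' ^ N := by
      rw [← Finset.add_sum_erase Finset.univ _ (Finset.mem_univ c), add_div, Finset.sum_div]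
      have hTc := hT c
      have e2 : T c * e c ^ N / T c = e c ^ N := by field_simp
      rw [e2]
      have e3 : ∀ c' ∈ (Finset.univ : Finset κ).erase c,
          T c' * e c' ^ N / T c = T c' / T c * e c' ^ N := fun c' _ => by ring
      rw [Finset.sum_congr rfl e3]
      ring
    rw [e1]
    refine stb_add_mem_nonunits (stb_congr_pow (he1 c) N) ?_
    refine Finset.sum_induction _ (fun x => x ∈ (V c).nonunits)
      (fun a b ha hb => stb_add_mem_nonunits ha hb) (stb_zero_mem_nonunits _) fun c' hc' => ?_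
    exact hN c (Finset.mem_univ c) N le_rfl c' (Finset.mem_univ c') (Finset.ne_of_mem_erase hc')
  refine ⟨∑ c', T c' * e c' ^ N, ?_, key⟩
  intro h0
  have h1 := key c₁
  rw [h0, zero_div, zero_sub] at h1
  have := stb_neg_mem_nonunits h1
  rw [neg_neg, stb_mem_nonunits_iff, map_one] at this
  exact lt_irrefl _ this

end Fermat.Agent.S36


end ZBSTB_003_15
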