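/- GENERATED FILE (helper35, build-time optimisation, NOTES/ZB.md): verbatim concatenation of the modules
   Fermat.Agent.UNIP.MGChartsBeta0Coord
   Fermat.Agent.UNIP.MGChartsBeta0Data
   Fermat.Agent.UNIP.MGDataSS1
   Fermat.Agent.UNIP.MGDataAll
   Fermat.Agent.UNIP.MGChartsBeta0All
   Do not edit; do not import together with these modules. -/
import Fermat.Agent.ZB.UNIP_033
import Fermat.Agent.ZB.UNIP_032
import Fermat.Agent.ZB.RIB_003
import Fermat.Agent.ZB.UNIP_036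
import Fermat.Agent.ZB.UNIP_014
import Fermat.Agent.ZB.UNIP_010
import Fermat.Agent.ZB.STB_004
import Fermat.Agent.ZB.Common_003

/-! ### bundled: `Fermat.Agent.UNIP.MGChartsBeta0Coord` -/
section ZBUNIP_035_0
/-
UNIP (S34/S35), direct route, piece MG-5a "chart hypotheses of (T′)", beta0 instantiation, part 2
(helper16): the coordinates (G5) and the assembled conjuncts of `MgcData` (`MGFinal.lean`).

* `mgcb_hcoord_j`, `mgcb_hcoord_jinv` : `hcoord₁`, `hcoord₂` of `mgc_main` at one closed point and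
  one rational place, for ANY uniformizer `π` of `A' = mgcA A K₁`, from U5's output on the charts
  `j`, `1/j` of `F_N(E₀)` over `A₀ = beta0Ring A (beta0Field A)`.
* `mgcb_G3` : the six `AtTrivMod` conjuncts of `MgcData`, in order.
* `mgcb_G5` : the last conjunct of `MgcData` (`∀ u₀ ≠ 0, MgcRat A K₁ N u₀ → hcoord₁ ∧ hcoord₂`).
-/

set_option autoImplicit false
set_option linter.style.haveILetI false
set_option linter.unusedSectionVars false
set_option linter.unusedVariables false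

open Polynomial IntermediateField Fermat.Agent.INJ AlgebraicCurve ModularCurve

namespace Fermat.Agent.UNIP

section Coord

variable {A : ValuationSubring NfQb} (K₁ : IntermediateField ℚ NfQb) [NumberField K₁]
  [IsGalois ℚ K₁] {q : ℕ} (N : ℕ) [NeZero N]

/-- a closed point of the special fibre, for another uniformizer -/
def mgcbPt {A₀ F : Type*} [CommRing A₀] [IsDomain A₀]
    [IsDiscreteValuationRing A₀] [Field F] [Algebra A₀ F]
    {π₀ π : A₀} (hπ₀ : Irreducible π₀) (hπ : Irreducible π) {u : F}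
    (𝔫 : AtPt (F := F) π u) : AtPt (F := F) π₀ u :=
  ⟨𝔫.1, 𝔫.2.1, by
    obtain ⟨w, hw⟩ := (IsDiscreteValuationRing.associated_of_irreducible A₀ hπ hπ₀)
    rw [← hw, map_mul]
    exact Ideal.mul_mem_right _ _ 𝔫.2.2⟩

theorem mgcbPt_val {A₀ F : Type*} [CommRing A₀] [IsDomain A₀]
    [IsDiscreteValuationRing A₀] [Field F] [Algebra A₀ F]
    {π₀ π : A₀} (hπ₀ : Irreducible π₀) (hπ : Irreducible π) {u : F}
    (𝔫 : AtPt (F := F) π u) : (mgcbPt hπ₀ hπ 𝔫).1 = 𝔫.1 := rfl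

/-- **(G5) `hcoord₁` of `mgc_main`** at one closed point of the chart `j` and one rational place
moved by `σ ∈ I`. -/
theorem mgcb_hcoord_j [IsDiscreteValuationRing ↥(mgcA A K₁)]
    (hq : q.Prime) (hA : A.LiesOverPrime q)
    (hπu : ¬ IsUnit (algebraMap ↥(beta0Ring A (beta0Field A))
      (integralClosure (Algebra.adjoin ↥(beta0Ring A (beta0Field A)) {bgJ ↥(beta0Field A) N})
        (modularFunctionFieldFullC ↥(beta0Field A) N))
      ((q : ℕ) : ↥(beta0Ring A (beta0Field A)))))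
    (hred : ∀ c : integralClosure
        (Algebra.adjoin ↥(beta0Ring A (beta0Field A)) {bgJ ↥(beta0Field A) N})
        (modularFunctionFieldFullC ↥(beta0Field A) N),
      algebraMap ↥(beta0Ring A (beta0Field A)) (integralClosure
        (Algebra.adjoin ↥(beta0Ring A (beta0Field A)) {bgJ ↥(beta0Field A) N})
        (modularFunctionFieldFullC ↥(beta0Field A) N))
          ((q : ℕ) : ↥(beta0Ring A (beta0Field A))) ∣ c ^ 2 →
      algebraMap ↥(beta0Ring A (beta0Field A)) (integralClosure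
        (Algebra.adjoin ↥(beta0Ring A (beta0Field A)) {bgJ ↥(beta0Field A) N})
        (modularFunctionFieldFullC ↥(beta0Field A) N))
          ((q : ℕ) : ↥(beta0Ring A (beta0Field A))) ∣ c)
    (hU5 : ∀ 𝔫 : Ideal (integralClosure
        (Algebra.adjoin ↥(beta0Ring A (beta0Field A)) {bgJ ↥(beta0Field A) N})
        (modularFunctionFieldFullC ↥(beta0Field A) N)), 𝔫.IsMaximal →
      algebraMap ↥(beta0Ring A (beta0Field A)) (integralClosure
        (Algebra.adjoin ↥(beta0Ring A (beta0Field A)) {bgJ ↥(beta0Field A) N})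
        (modularFunctionFieldFullC ↥(beta0Field A) N))
          ((q : ℕ) : ↥(beta0Ring A (beta0Field A))) ∈ 𝔫 →
      (∃ s ∈ 𝔫, NodesLocGen 𝔫 {algebraMap ↥(beta0Ring A (beta0Field A)) (integralClosure
        (Algebra.adjoin ↥(beta0Ring A (beta0Field A)) {bgJ ↥(beta0Field A) N})
        (modularFunctionFieldFullC ↥(beta0Field A) N))
          ((q : ℕ) : ↥(beta0Ring A (beta0Field A))), s}) ∨
      (∃ X Y : integralClosure (Algebra.adjoin ↥(beta0Ring A (beta0Field A)) {bgJ ↥(beta0Field A) N})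
          (modularFunctionFieldFullC ↥(beta0Field A) N),
        X ∈ 𝔫 ∧ Y ∈ 𝔫 ∧
        algebraMap ↥(beta0Ring A (beta0Field A)) (integralClosure
          (Algebra.adjoin ↥(beta0Ring A (beta0Field A)) {bgJ ↥(beta0Field A) N})
          (modularFunctionFieldFullC ↥(beta0Field A) N))
            ((q : ℕ) : ↥(beta0Ring A (beta0Field A))) ∣ X * Y ∧
        NodesLocGen 𝔫 {algebraMap ↥(beta0Ring A (beta0Field A)) (integralClosure
          (Algebra.adjoin ↥(beta0Ring A (beta0Field A)) {bgJ ↥(beta0Field A) N})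
          (modularFunctionFieldFullC ↥(beta0Field A) N))
            ((q : ℕ) : ↥(beta0Ring A (beta0Field A))), X, Y}))
    {π : ↥(mgcA A K₁)} (hπ : Irreducible π)
    {σ : NfQb ≃ₐ[ℚ] NfQb} (hσ : σ ∈ A.inertiaSubgroupIn ℚ)
    (hσE : ∀ x ∈ mgcE A K₁, σ x ∈ mgcE A K₁)
    (𝔫 : AtPt (F := ↥(mgcF A K₁ N)) π (mgcT A K₁ N))
    (P : Place ↥(mgcE A K₁) ↥(mgcF A K₁ N))
    (hP : LsTube ↥(zchClosure (A₀ := ↥(mgcA A K₁)) ({(mgcT A K₁ N)} : Set ↥(mgcF A K₁ N)))
      (mgcT A K₁ N) 𝔫.1 P)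
    (hgP : mgcGal N σ hσE • P ≠ P)
    (hrat : ∀ f ∈ P.toValuationSubring, ∃ c : ↥(mgcE A K₁),
      f - algebraMap ↥(mgcE A K₁) ↥(mgcF A K₁ N) c ∈ P.toValuationSubring.nonunits) :
    ∃ f : ↥(mgcF A K₁ N), f ≠ 0 ∧ P.ord f = 1 ∧
      ∀ Q : Place ↥(mgcE A K₁) ↥(mgcF A K₁ N),
      LsTube ↥(zchClosure (A₀ := ↥(mgcA A K₁)) ({(mgcT A K₁ N)} : Set ↥(mgcF A K₁ N)))
        (mgcT A K₁ N) 𝔫.1 Q →
      mgcGal N σ hσE • Q ≠ Q → Q ≠ P → Q.ord f = 0 := by
  letI := beta0InstAlgebra A K₁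
  letI := beta0InstFieldAlgebra A K₁
  haveI := beta0Ring_isDVR_base (A := A) hq hA
  haveI := beta0Inst_isIntegral (A := A) K₁ hq hA
  obtain ⟨π₀, hπ₀, -, -, -, -, -, hram, ⟨g₀, hgm, hroot, hdeg, -⟩, hadj, halg⟩ :=
    beta0Inst_main (A := A) K₁ hq hA
  have hσE' := mgcb_stable_inv K₁ hσE
  have hsπ' : ∃ c : ↥(beta0Ring A (beta0Field A ⊔ K₁)),
      (mgaRestrictEquiv (beta0Field A ⊔ K₁) σ hσE)⁻¹
        (algebraMap ↥(beta0Ring A (beta0Field A ⊔ K₁)) ↥(beta0Field A ⊔ K₁) π₀) =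
      algebraMap ↥(beta0Ring A (beta0Field A ⊔ K₁)) ↥(beta0Field A ⊔ K₁) π₀ +
        algebraMap ↥(beta0Ring A (beta0Field A ⊔ K₁)) ↥(beta0Field A ⊔ K₁) π₀ *
          algebraMap ↥(beta0Ring A (beta0Field A ⊔ K₁)) ↥(beta0Field A ⊔ K₁) c := by
    rw [mgcb_restrict_inv (beta0Field A ⊔ K₁) hσE hσE']
    exact mgcb_hsπ ((A.inertiaSubgroupIn ℚ).inv_mem hσ) hσE' hπ₀
  exact mgcc_hcoord_j (A₀ := ↥(beta0Ring A (beta0Field A))) (E₀ := ↥(beta0Field A))
    (A' := ↥(beta0Ring A (beta0Field A ⊔ K₁))) (E' := ↥(beta0Field A ⊔ K₁)) N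
    (fun a => mgcb_hcomp K₁ a) (beta0Ring_irreducible_q hq hA) hπu hred hπ₀ hram g₀ hgm hroot
    hdeg hadj halg hU5 (mgaRestrictEquiv (beta0Field A ⊔ K₁) σ hσE)
    (fun a => mgcb_hsE₀ hσ le_sup_left hσE a) (fun a => mgcb_hsA hσ hσE a)
    (mgcb_hsπ hσ hσE hπ₀) hsπ' (mgcbPt hπ₀ hπ 𝔫) P hP hgP hrat

/-- **(G5) `hcoord₂` of `mgc_main`** at one closed point of the chart `1/j` and one rational
place moved by `σ ∈ I`. -/
theorem mgcb_hcoord_jinv [IsDiscreteValuationRing ↥(mgcA A K₁)]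
    (hq : q.Prime) (hA : A.LiesOverPrime q)
    (hπu : ¬ IsUnit (algebraMap ↥(beta0Ring A (beta0Field A))
      (integralClosure (Algebra.adjoin ↥(beta0Ring A (beta0Field A)) {(bgJ ↥(beta0Field A) N)⁻¹})
        (modularFunctionFieldFullC ↥(beta0Field A) N))
      ((q : ℕ) : ↥(beta0Ring A (beta0Field A)))))
    (hred : ∀ c : integralClosure
        (Algebra.adjoin ↥(beta0Ring A (beta0Field A)) {(bgJ ↥(beta0Field A) N)⁻¹})
        (modularFunctionFieldFullC ↥(beta0Field A) N),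
      algebraMap ↥(beta0Ring A (beta0Field A)) (integralClosure
        (Algebra.adjoin ↥(beta0Ring A (beta0Field A)) {(bgJ ↥(beta0Field A) N)⁻¹})
        (modularFunctionFieldFullC ↥(beta0Field A) N))
          ((q : ℕ) : ↥(beta0Ring A (beta0Field A))) ∣ c ^ 2 →
      algebraMap ↥(beta0Ring A (beta0Field A)) (integralClosure
        (Algebra.adjoin ↥(beta0Ring A (beta0Field A)) {(bgJ ↥(beta0Field A) N)⁻¹})
        (modularFunctionFieldFullC ↥(beta0Field A) N))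
          ((q : ℕ) : ↥(beta0Ring A (beta0Field A))) ∣ c)
    (hU5 : ∀ 𝔫 : Ideal (integralClosure
        (Algebra.adjoin ↥(beta0Ring A (beta0Field A)) {(bgJ ↥(beta0Field A) N)⁻¹})
        (modularFunctionFieldFullC ↥(beta0Field A) N)), 𝔫.IsMaximal →
      algebraMap ↥(beta0Ring A (beta0Field A)) (integralClosure
        (Algebra.adjoin ↥(beta0Ring A (beta0Field A)) {(bgJ ↥(beta0Field A) N)⁻¹})
        (modularFunctionFieldFullC ↥(beta0Field A) N))
          ((q : ℕ) : ↥(beta0Ring A (beta0Field A))) ∈ 𝔫 →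
      (∃ s ∈ 𝔫, NodesLocGen 𝔫 {algebraMap ↥(beta0Ring A (beta0Field A)) (integralClosure
        (Algebra.adjoin ↥(beta0Ring A (beta0Field A)) {(bgJ ↥(beta0Field A) N)⁻¹})
        (modularFunctionFieldFullC ↥(beta0Field A) N))
          ((q : ℕ) : ↥(beta0Ring A (beta0Field A))), s}) ∨
      (∃ X Y : integralClosure (Algebra.adjoin ↥(beta0Ring A (beta0Field A)) {(bgJ ↥(beta0Field A) N)⁻¹})
          (modularFunctionFieldFullC ↥(beta0Field A) N),
        X ∈ 𝔫 ∧ Y ∈ 𝔫 ∧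
        algebraMap ↥(beta0Ring A (beta0Field A)) (integralClosure
          (Algebra.adjoin ↥(beta0Ring A (beta0Field A)) {(bgJ ↥(beta0Field A) N)⁻¹})
          (modularFunctionFieldFullC ↥(beta0Field A) N))
            ((q : ℕ) : ↥(beta0Ring A (beta0Field A))) ∣ X * Y ∧
        NodesLocGen 𝔫 {algebraMap ↥(beta0Ring A (beta0Field A)) (integralClosure
          (Algebra.adjoin ↥(beta0Ring A (beta0Field A)) {(bgJ ↥(beta0Field A) N)⁻¹})
          (modularFunctionFieldFullC ↥(beta0Field A) N))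
            ((q : ℕ) : ↥(beta0Ring A (beta0Field A))), X, Y}))
    {π : ↥(mgcA A K₁)} (hπ : Irreducible π)
    {σ : NfQb ≃ₐ[ℚ] NfQb} (hσ : σ ∈ A.inertiaSubgroupIn ℚ)
    (hσE : ∀ x ∈ mgcE A K₁, σ x ∈ mgcE A K₁)
    (𝔫 : AtPt (F := ↥(mgcF A K₁ N)) π (mgcT A K₁ N)⁻¹)
    (P : Place ↥(mgcE A K₁) ↥(mgcF A K₁ N))
    (hP : LsTube ↥(zchClosure (A₀ := ↥(mgcA A K₁)) ({(mgcT A K₁ N)⁻¹} : Set ↥(mgcF A K₁ N)))
      (mgcT A K₁ N)⁻¹ 𝔫.1 P)
    (hgP : mgcGal N σ hσE • P ≠ P)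
    (hrat : ∀ f ∈ P.toValuationSubring, ∃ c : ↥(mgcE A K₁),
      f - algebraMap ↥(mgcE A K₁) ↥(mgcF A K₁ N) c ∈ P.toValuationSubring.nonunits) :
    ∃ f : ↥(mgcF A K₁ N), f ≠ 0 ∧ P.ord f = 1 ∧
      ∀ Q : Place ↥(mgcE A K₁) ↥(mgcF A K₁ N),
      LsTube ↥(zchClosure (A₀ := ↥(mgcA A K₁)) ({(mgcT A K₁ N)⁻¹} : Set ↥(mgcF A K₁ N)))
        (mgcT A K₁ N)⁻¹ 𝔫.1 Q →
      mgcGal N σ hσE • Q ≠ Q → Q ≠ P → Q.ord f = 0 := by
  letI := beta0InstAlgebra A K₁
  letI := beta0InstFieldAlgebra A K₁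
  haveI := beta0Ring_isDVR_base (A := A) hq hA
  haveI := beta0Inst_isIntegral (A := A) K₁ hq hA
  obtain ⟨π₀, hπ₀, -, -, -, -, -, hram, ⟨g₀, hgm, hroot, hdeg, -⟩, hadj, halg⟩ :=
    beta0Inst_main (A := A) K₁ hq hA
  have hσE' := mgcb_stable_inv K₁ hσE
  have hsπ' : ∃ c : ↥(beta0Ring A (beta0Field A ⊔ K₁)),
      (mgaRestrictEquiv (beta0Field A ⊔ K₁) σ hσE)⁻¹
        (algebraMap ↥(beta0Ring A (beta0Field A ⊔ K₁)) ↥(beta0Field A ⊔ K₁) π₀) =
      algebraMap ↥(beta0Ring A (beta0Field A ⊔ K₁)) ↥(beta0Field A ⊔ K₁) π₀ +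
        algebraMap ↥(beta0Ring A (beta0Field A ⊔ K₁)) ↥(beta0Field A ⊔ K₁) π₀ *
          algebraMap ↥(beta0Ring A (beta0Field A ⊔ K₁)) ↥(beta0Field A ⊔ K₁) c := by
    rw [mgcb_restrict_inv (beta0Field A ⊔ K₁) hσE hσE']
    exact mgcb_hsπ ((A.inertiaSubgroupIn ℚ).inv_mem hσ) hσE' hπ₀
  exact mgcc_hcoord_jinv (A₀ := ↥(beta0Ring A (beta0Field A))) (E₀ := ↥(beta0Field A))
    (A' := ↥(beta0Ring A (beta0Field A ⊔ K₁))) (E' := ↥(beta0Field A ⊔ K₁)) N
    (fun a => mgcb_hcomp K₁ a) (beta0Ring_irreducible_q hq hA) hπu hred hπ₀ hram g₀ hgm hroot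
    hdeg hadj halg hU5 (mgaRestrictEquiv (beta0Field A ⊔ K₁) σ hσE)
    (fun a => mgcb_hsE₀ hσ le_sup_left hσE a) (fun a => mgcb_hsA hσ hσE a)
    (mgcb_hsπ hσ hσE hπ₀) hsπ' (mgcbPt hπ₀ hπ 𝔫) P hP hgP hrat

end Coord

end Fermat.Agent.UNIP


end ZBUNIP_035_0

/-! ### bundled: `Fermat.Agent.UNIP.MGChartsBeta0Data` -/
section ZBUNIP_035_1
/-
UNIP (S34/S35), direct route, piece MG-5a "chart hypotheses of (T′)", beta0 instantiation, part 3
(helper16): the conjuncts (G3) and (G5) of `MgcData` (`MGFinal.lean`), verbatim.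

* `mgcb_G3` : the six `AtTrivMod` conjuncts of `MgcData A K₁ N σ τ hσE hτE`, in order;
* `mgcb_G5` : the last conjunct of `MgcData` (`∀ u₀ ≠ 0, MgcRat A K₁ N u₀ → hcoord₁ ∧ hcoord₂`);
both for ANY uniformizer `π` of `A' = mgcA A K₁`, `σ, τ ∈ I`, from U5's output on the charts
`j`, `1/j` of `F_N(E₀)` over `A₀ = beta0Ring A (beta0Field A)` (uniformizer `q`):
`hπu`, `hred` (⇐ (SS1)) and `hU5` (the dichotomy smooth point / crossing).
* `mgcb_u5` : the three U5 inputs of one chart from (SS1) in the two-maps form and the output of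
  `nodes_chart` / `nodes_modular_chart`.
-/

set_option autoImplicit false
set_option linter.style.haveILetI false
set_option linter.unusedSectionVars false
set_option linter.unusedVariables false

open Polynomial IntermediateField Fermat.Agent.INJ AlgebraicCurve ModularCurve

namespace Fermat.Agent.UNIP

section U5

/-- **The U5 inputs of one chart** (`hπu`, `hred`, `hU5` of `mgcb_G3`, `mgcb_G5`, `mgcc_*`,
`mgs_*`) from (SS1) in the two-maps form `ρ x = 0 → ρ₀ x = 0 → p ∣ x` (`ρ`, `ρ₀` into a reduced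
nontrivial ring, `ρ p = ρ₀ p = 0`) and the output of `nodes_chart` / `nodes_chart_hom` /
`nodes_modular_chart`. -/
theorem mgcb_u5 {B S : Type*} [CommRing B] [CommRing S] [IsReduced S] [Nontrivial S] {p : B}
    {ρ ρ₀ : B →+* S} (hρp : ρ p = 0) (hρ₀p : ρ₀ p = 0)
    (hker : ∀ x : B, ρ x = 0 → ρ₀ x = 0 → p ∣ x)
    (hnodes : ∀ 𝔫 : Ideal B, 𝔫.IsMaximal → p ∈ 𝔫 →
      (∃ s ∈ 𝔫, NodesLocGen 𝔫 {p, s}) ∨
      ((∀ x : B, ρ x = 0 → x ∈ 𝔫) ∧ (∀ x : B, ρ₀ x = 0 → x ∈ 𝔫) ∧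
        ∃ X Y : B, ρ X = 0 ∧ ρ₀ Y = 0 ∧ NodesSmoothAt ρ₀ 𝔫 X ∧ NodesSmoothAt ρ 𝔫 Y ∧
          p ∣ X * Y ∧ NodesLocGen 𝔫 {p, X, Y})) :
    ¬ IsUnit p ∧ (∀ c : B, p ∣ c ^ 2 → p ∣ c) ∧
    (∀ 𝔫 : Ideal B, 𝔫.IsMaximal → p ∈ 𝔫 →
      (∃ s ∈ 𝔫, NodesLocGen 𝔫 {p, s}) ∨
      (∃ X Y : B, X ∈ 𝔫 ∧ Y ∈ 𝔫 ∧ p ∣ X * Y ∧ NodesLocGen 𝔫 {p, X, Y})) :=
  ⟨mgc_not_isUnit_of_map_eq_zero ρ hρp, mgc_hred_of_ker hρp hρ₀p hker,
    fun 𝔫 h𝔫 hp => mgs_u5_of_nodes (hnodes 𝔫 h𝔫 hp)⟩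

end U5

section Data

variable {A : ValuationSubring NfQb} (K₁ : IntermediateField ℚ NfQb) [NumberField K₁]
  [IsGalois ℚ K₁] {q : ℕ} (N : ℕ) [NeZero N]

/-- **(G3)**: the six `AtTrivMod` conjuncts of `MgcData`. -/
theorem mgcb_G3 [IsDiscreteValuationRing ↥(mgcA A K₁)]
    (hq : q.Prime) (hA : A.LiesOverPrime q)
    (hπu₁ : ¬ IsUnit (algebraMap ↥(beta0Ring A (beta0Field A))
      (integralClosure (Algebra.adjoin ↥(beta0Ring A (beta0Field A)) {bgJ ↥(beta0Field A) N})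
        (modularFunctionFieldFullC ↥(beta0Field A) N))
      ((q : ℕ) : ↥(beta0Ring A (beta0Field A)))))
    (hred₁ : ∀ c : integralClosure
        (Algebra.adjoin ↥(beta0Ring A (beta0Field A)) {bgJ ↥(beta0Field A) N})
        (modularFunctionFieldFullC ↥(beta0Field A) N),
      algebraMap ↥(beta0Ring A (beta0Field A)) (integralClosure
        (Algebra.adjoin ↥(beta0Ring A (beta0Field A)) {bgJ ↥(beta0Field A) N})
        (modularFunctionFieldFullC ↥(beta0Field A) N))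
          ((q : ℕ) : ↥(beta0Ring A (beta0Field A))) ∣ c ^ 2 →
      algebraMap ↥(beta0Ring A (beta0Field A)) (integralClosure
        (Algebra.adjoin ↥(beta0Ring A (beta0Field A)) {bgJ ↥(beta0Field A) N})
        (modularFunctionFieldFullC ↥(beta0Field A) N))
          ((q : ℕ) : ↥(beta0Ring A (beta0Field A))) ∣ c)
    (hπu₂ : ¬ IsUnit (algebraMap ↥(beta0Ring A (beta0Field A))
      (integralClosure (Algebra.adjoin ↥(beta0Ring A (beta0Field A)) {(bgJ ↥(beta0Field A) N)⁻¹})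
        (modularFunctionFieldFullC ↥(beta0Field A) N))
      ((q : ℕ) : ↥(beta0Ring A (beta0Field A)))))
    (hred₂ : ∀ c : integralClosure
        (Algebra.adjoin ↥(beta0Ring A (beta0Field A)) {(bgJ ↥(beta0Field A) N)⁻¹})
        (modularFunctionFieldFullC ↥(beta0Field A) N),
      algebraMap ↥(beta0Ring A (beta0Field A)) (integralClosure
        (Algebra.adjoin ↥(beta0Ring A (beta0Field A)) {(bgJ ↥(beta0Field A) N)⁻¹})
        (modularFunctionFieldFullC ↥(beta0Field A) N))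
          ((q : ℕ) : ↥(beta0Ring A (beta0Field A))) ∣ c ^ 2 →
      algebraMap ↥(beta0Ring A (beta0Field A)) (integralClosure
        (Algebra.adjoin ↥(beta0Ring A (beta0Field A)) {(bgJ ↥(beta0Field A) N)⁻¹})
        (modularFunctionFieldFullC ↥(beta0Field A) N))
          ((q : ℕ) : ↥(beta0Ring A (beta0Field A))) ∣ c)
    {π : ↥(mgcA A K₁)} (hπ : Irreducible π)
    {σ τ : NfQb ≃ₐ[ℚ] NfQb} (hσ : σ ∈ A.inertiaSubgroupIn ℚ) (hτ : τ ∈ A.inertiaSubgroupIn ℚ)
    (hσE : ∀ x ∈ mgcE A K₁, σ x ∈ mgcE A K₁) (hτE : ∀ x ∈ mgcE A K₁, τ x ∈ mgcE A K₁) :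
    AtTrivMod π (mgcT A K₁ N) (mgcGal N σ hσE) ∧
    AtTrivMod π (mgcT A K₁ N) (mgcGal N σ hσE)⁻¹ ∧
    AtTrivMod π (mgcT A K₁ N)⁻¹ (mgcGal N σ hσE) ∧
    AtTrivMod π (mgcT A K₁ N)⁻¹ (mgcGal N σ hσE)⁻¹ ∧
    AtTrivMod π (mgcT A K₁ N) (mgcGal N τ hτE) ∧
    AtTrivMod π (mgcT A K₁ N)⁻¹ (mgcGal N τ hτE) :=
  ⟨mgcb_trivMod_j K₁ N hq hA hπu₁ hred₁ hπ hσ hσE,
    mgcb_trivMod_j_inv K₁ N hq hA hπu₁ hred₁ hπ hσ hσE,
    mgcb_trivMod_jinv K₁ N hq hA hπu₂ hred₂ hπ hσ hσE,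
    mgcb_trivMod_jinv_inv K₁ N hq hA hπu₂ hred₂ hπ hσ hσE,
    mgcb_trivMod_j K₁ N hq hA hπu₁ hred₁ hπ hτ hτE,
    mgcb_trivMod_jinv K₁ N hq hA hπu₂ hred₂ hπ hτ hτE⟩

/-- rationality of the places in the support, from `MgcRat` -/
theorem mgcb_rat {u₀ : ↥(mgcF A K₁ N)} (hR : MgcRat A K₁ N u₀)
    (P : Place ↥(mgcE A K₁) ↥(mgcF A K₁ N)) (hP : P.ord u₀ ≠ 0) :
    ∀ f ∈ P.toValuationSubring, ∃ c : ↥(mgcE A K₁),
      f - algebraMap ↥(mgcE A K₁) ↥(mgcF A K₁ N) c ∈ P.toValuationSubring.nonunits := by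
  refine hR P (1 : ↥(mgcE A K₁) ≃+* ↥(mgcE A K₁)) (1 : NfQb ≃ₐ[ℚ] NfQb) (fun a => rfl) ?_
  rw [map_one, one_smul]
  exact hP

/-- **(G5)**: the last conjunct of `MgcData`. -/
theorem mgcb_G5 [IsDiscreteValuationRing ↥(mgcA A K₁)]
    (hq : q.Prime) (hA : A.LiesOverPrime q)
    (hπu₁ : ¬ IsUnit (algebraMap ↥(beta0Ring A (beta0Field A))
      (integralClosure (Algebra.adjoin ↥(beta0Ring A (beta0Field A)) {bgJ ↥(beta0Field A) N})
        (modularFunctionFieldFullC ↥(beta0Field A) N))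
      ((q : ℕ) : ↥(beta0Ring A (beta0Field A)))))
    (hred₁ : ∀ c : integralClosure
        (Algebra.adjoin ↥(beta0Ring A (beta0Field A)) {bgJ ↥(beta0Field A) N})
        (modularFunctionFieldFullC ↥(beta0Field A) N),
      algebraMap ↥(beta0Ring A (beta0Field A)) (integralClosure
        (Algebra.adjoin ↥(beta0Ring A (beta0Field A)) {bgJ ↥(beta0Field A) N})
        (modularFunctionFieldFullC ↥(beta0Field A) N))
          ((q : ℕ) : ↥(beta0Ring A (beta0Field A))) ∣ c ^ 2 →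
      algebraMap ↥(beta0Ring A (beta0Field A)) (integralClosure
        (Algebra.adjoin ↥(beta0Ring A (beta0Field A)) {bgJ ↥(beta0Field A) N})
        (modularFunctionFieldFullC ↥(beta0Field A) N))
          ((q : ℕ) : ↥(beta0Ring A (beta0Field A))) ∣ c)
    (hU5₁ : ∀ 𝔫 : Ideal (integralClosure
        (Algebra.adjoin ↥(beta0Ring A (beta0Field A)) {bgJ ↥(beta0Field A) N})
        (modularFunctionFieldFullC ↥(beta0Field A) N)), 𝔫.IsMaximal →
      algebraMap ↥(beta0Ring A (beta0Field A)) (integralClosure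
        (Algebra.adjoin ↥(beta0Ring A (beta0Field A)) {bgJ ↥(beta0Field A) N})
        (modularFunctionFieldFullC ↥(beta0Field A) N))
          ((q : ℕ) : ↥(beta0Ring A (beta0Field A))) ∈ 𝔫 →
      (∃ s ∈ 𝔫, NodesLocGen 𝔫 {algebraMap ↥(beta0Ring A (beta0Field A)) (integralClosure
        (Algebra.adjoin ↥(beta0Ring A (beta0Field A)) {bgJ ↥(beta0Field A) N})
        (modularFunctionFieldFullC ↥(beta0Field A) N))
          ((q : ℕ) : ↥(beta0Ring A (beta0Field A))), s}) ∨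
      (∃ X Y : integralClosure (Algebra.adjoin ↥(beta0Ring A (beta0Field A)) {bgJ ↥(beta0Field A) N})
          (modularFunctionFieldFullC ↥(beta0Field A) N),
        X ∈ 𝔫 ∧ Y ∈ 𝔫 ∧
        algebraMap ↥(beta0Ring A (beta0Field A)) (integralClosure
          (Algebra.adjoin ↥(beta0Ring A (beta0Field A)) {bgJ ↥(beta0Field A) N})
          (modularFunctionFieldFullC ↥(beta0Field A) N))
            ((q : ℕ) : ↥(beta0Ring A (beta0Field A))) ∣ X * Y ∧
        NodesLocGen 𝔫 {algebraMap ↥(beta0Ring A (beta0Field A)) (integralClosure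
          (Algebra.adjoin ↥(beta0Ring A (beta0Field A)) {bgJ ↥(beta0Field A) N})
          (modularFunctionFieldFullC ↥(beta0Field A) N))
            ((q : ℕ) : ↥(beta0Ring A (beta0Field A))), X, Y}))
    (hπu₂ : ¬ IsUnit (algebraMap ↥(beta0Ring A (beta0Field A))
      (integralClosure (Algebra.adjoin ↥(beta0Ring A (beta0Field A)) {(bgJ ↥(beta0Field A) N)⁻¹})
        (modularFunctionFieldFullC ↥(beta0Field A) N))
      ((q : ℕ) : ↥(beta0Ring A (beta0Field A)))))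
    (hred₂ : ∀ c : integralClosure
        (Algebra.adjoin ↥(beta0Ring A (beta0Field A)) {(bgJ ↥(beta0Field A) N)⁻¹})
        (modularFunctionFieldFullC ↥(beta0Field A) N),
      algebraMap ↥(beta0Ring A (beta0Field A)) (integralClosure
        (Algebra.adjoin ↥(beta0Ring A (beta0Field A)) {(bgJ ↥(beta0Field A) N)⁻¹})
        (modularFunctionFieldFullC ↥(beta0Field A) N))
          ((q : ℕ) : ↥(beta0Ring A (beta0Field A))) ∣ c ^ 2 →
      algebraMap ↥(beta0Ring A (beta0Field A)) (integralClosure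
        (Algebra.adjoin ↥(beta0Ring A (beta0Field A)) {(bgJ ↥(beta0Field A) N)⁻¹})
        (modularFunctionFieldFullC ↥(beta0Field A) N))
          ((q : ℕ) : ↥(beta0Ring A (beta0Field A))) ∣ c)
    (hU5₂ : ∀ 𝔫 : Ideal (integralClosure
        (Algebra.adjoin ↥(beta0Ring A (beta0Field A)) {(bgJ ↥(beta0Field A) N)⁻¹})
        (modularFunctionFieldFullC ↥(beta0Field A) N)), 𝔫.IsMaximal →
      algebraMap ↥(beta0Ring A (beta0Field A)) (integralClosure
        (Algebra.adjoin ↥(beta0Ring A (beta0Field A)) {(bgJ ↥(beta0Field A) N)⁻¹})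
        (modularFunctionFieldFullC ↥(beta0Field A) N))
          ((q : ℕ) : ↥(beta0Ring A (beta0Field A))) ∈ 𝔫 →
      (∃ s ∈ 𝔫, NodesLocGen 𝔫 {algebraMap ↥(beta0Ring A (beta0Field A)) (integralClosure
        (Algebra.adjoin ↥(beta0Ring A (beta0Field A)) {(bgJ ↥(beta0Field A) N)⁻¹})
        (modularFunctionFieldFullC ↥(beta0Field A) N))
          ((q : ℕ) : ↥(beta0Ring A (beta0Field A))), s}) ∨
      (∃ X Y : integralClosure (Algebra.adjoin ↥(beta0Ring A (beta0Field A)) {(bgJ ↥(beta0Field A) N)⁻¹})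
          (modularFunctionFieldFullC ↥(beta0Field A) N),
        X ∈ 𝔫 ∧ Y ∈ 𝔫 ∧
        algebraMap ↥(beta0Ring A (beta0Field A)) (integralClosure
          (Algebra.adjoin ↥(beta0Ring A (beta0Field A)) {(bgJ ↥(beta0Field A) N)⁻¹})
          (modularFunctionFieldFullC ↥(beta0Field A) N))
            ((q : ℕ) : ↥(beta0Ring A (beta0Field A))) ∣ X * Y ∧
        NodesLocGen 𝔫 {algebraMap ↥(beta0Ring A (beta0Field A)) (integralClosure
          (Algebra.adjoin ↥(beta0Ring A (beta0Field A)) {(bgJ ↥(beta0Field A) N)⁻¹})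
          (modularFunctionFieldFullC ↥(beta0Field A) N))
            ((q : ℕ) : ↥(beta0Ring A (beta0Field A))), X, Y}))
    {π : ↥(mgcA A K₁)} (hπ : Irreducible π)
    {σ : NfQb ≃ₐ[ℚ] NfQb} (hσ : σ ∈ A.inertiaSubgroupIn ℚ)
    (hσE : ∀ x ∈ mgcE A K₁, σ x ∈ mgcE A K₁) :
    ∀ u₀ : ↥(mgcF A K₁ N), u₀ ≠ 0 → MgcRat A K₁ N u₀ →
      (∀ 𝔫 : AtPt (F := ↥(mgcF A K₁ N)) π (mgcT A K₁ N),
        ∀ P : Place ↥(mgcE A K₁) ↥(mgcF A K₁ N),
        LsTube ↥(zchClosure (A₀ := ↥(mgcA A K₁)) ({(mgcT A K₁ N)} : Set ↥(mgcF A K₁ N)))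
          (mgcT A K₁ N) 𝔫.1 P →
        mgcGal N σ hσE • P ≠ P → P.ord u₀ ≠ 0 →
        ∃ f : ↥(mgcF A K₁ N), f ≠ 0 ∧ P.ord f = 1 ∧
          ∀ Q : Place ↥(mgcE A K₁) ↥(mgcF A K₁ N),
          LsTube ↥(zchClosure (A₀ := ↥(mgcA A K₁)) ({(mgcT A K₁ N)} : Set ↥(mgcF A K₁ N)))
            (mgcT A K₁ N) 𝔫.1 Q →
          mgcGal N σ hσE • Q ≠ Q → Q ≠ P → Q.ord f = 0) ∧
      (∀ 𝔫 : AtPt (F := ↥(mgcF A K₁ N)) π (mgcT A K₁ N)⁻¹,
        ∀ P : Place ↥(mgcE A K₁) ↥(mgcF A K₁ N),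
        LsTube ↥(zchClosure (A₀ := ↥(mgcA A K₁)) ({(mgcT A K₁ N)⁻¹} : Set ↥(mgcF A K₁ N)))
          (mgcT A K₁ N)⁻¹ 𝔫.1 P →
        mgcGal N σ hσE • P ≠ P → P.ord u₀ ≠ 0 →
        ∃ f : ↥(mgcF A K₁ N), f ≠ 0 ∧ P.ord f = 1 ∧
          ∀ Q : Place ↥(mgcE A K₁) ↥(mgcF A K₁ N),
          LsTube ↥(zchClosure (A₀ := ↥(mgcA A K₁)) ({(mgcT A K₁ N)⁻¹} : Set ↥(mgcF A K₁ N)))
            (mgcT A K₁ N)⁻¹ 𝔫.1 Q →
          mgcGal N σ hσE • Q ≠ Q → Q ≠ P → Q.ord f = 0) :=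
  fun u₀ _ hR =>
    ⟨fun 𝔫 P hP hgP hPu => mgcb_hcoord_j K₁ N hq hA hπu₁ hred₁ hU5₁ hπ hσ hσE 𝔫 P hP hgP
        (mgcb_rat K₁ N hR P hPu),
      fun 𝔫 P hP hgP hPu => mgcb_hcoord_jinv K₁ N hq hA hπu₂ hred₂ hU5₂ hπ hσ hσE 𝔫 P hP hgP
        (mgcb_rat K₁ N hR P hPu)⟩

end Data

end Fermat.Agent.UNIP


end ZBUNIP_035_1

/-! ### bundled: `Fermat.Agent.UNIP.MGDataSS1` -/
section ZBUNIP_035_2

/-!
# UNIP MG-5, part 5: `hSS1` of `MgcData` for `V = mgvV`

* `mgd_mgvV_eq` : `mgvV` does not depend on the uniformizer.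
* `mgd_hSS1` : the conjunct `hSS1` of `MgcData` from (SS1) at the base `A₀ = A ∩ ℚ̄^I`
  (`hSS1₀`, for the two vertical valuation rings `mgvV` of `F_N(ℚ̄^I)`) — `mgcc_SS1` + the data of
  `Beta0Inst` + base change of `mgvV`.
-/

set_option autoImplicit false
set_option linter.style.haveILetI false
set_option linter.unusedSectionVars false
set_option linter.unusedVariables false

noncomputable section

namespace Fermat.Agent.UNIP

open ModularCurve AlgebraicCurve Fermat.Agent.ES Fermat.Agent.ES.G2 Fermat.Agent.INJ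
open IntermediateField Polynomial

section Eq

variable {A : ValuationSubring Qb} {K₀ : IntermediateField ℚ Qb}
  [IsDiscreteValuationRing ↥(beta0Ring A K₀)] {π π' : ↥(beta0Ring A K₀)}
  (hπ : Irreducible π) (hπ' : Irreducible π') (ιC : ↥K₀ →+* ℂ)
  {q M : ℕ} [NeZero q] [NeZero M] [NeZero (M * q)] (hq : q.Prime) (hqM : ¬ q ∣ M)

/-- `mgvV` does not depend on the uniformizer -/
theorem mgd_mgvV_eq (c : Bool) : mgvV hπ ιC hq hqM c = mgvV hπ' ιC hq hqM c := rfl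

end Eq

section SS1

variable {A : ValuationSubring Qb} (K₁ : IntermediateField ℚ Qb) [NumberField K₁]
  [IsGalois ℚ K₁] {M q : ℕ} [NeZero M] [NeZero q] [NeZero (M * q)]
  [IsDiscreteValuationRing ↥(mgcA A K₁)]
  [IsDiscreteValuationRing ↥(beta0Ring A (beta0Field A))]

/-- the two embeddings `F_N(E₀) → F_N(E′)` agree -/
theorem mgd_mgcEmb_eq (N : ℕ) (x : ↥(modularFunctionFieldFullC ↥(beta0Field A) N)) :
    letI := beta0InstFieldAlgebra A K₁
    mgcEmb ↥(beta0Field A) ↥(beta0Field A ⊔ K₁) N x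
      = mgaIncl (le_sup_left : beta0Field A ≤ beta0Field A ⊔ K₁) N x := rfl

set_option synthInstance.maxHeartbeats 400000 in
set_option maxHeartbeats 3200000 in
/-- **`hSS1` of `MgcData`** for `V = mgvV`, from (SS1) at the base. -/
theorem mgd_hSS1 (hq : q.Prime) (hqM : ¬ q ∣ M) (hA : A.LiesOverPrime q)
    {π : ↥(mgcA A K₁)} (hπ : Irreducible π)
    (hπ₀ : Irreducible ((q : ℕ) : ↥(beta0Ring A (beta0Field A))))
    (ιC₀ : ↥(beta0Field A) →+* ℂ) (ιC : ↥(mgcE A K₁) →+* ℂ)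
    (hπu₁ : ¬ IsUnit (algebraMap ↥(beta0Ring A (beta0Field A))
      (integralClosure
        (Algebra.adjoin ↥(beta0Ring A (beta0Field A)) {bgJ ↥(beta0Field A) (M * q)})
        (modularFunctionFieldFullC ↥(beta0Field A) (M * q)))
      ((q : ℕ) : ↥(beta0Ring A (beta0Field A)))))
    (hred₁ : ∀ c : integralClosure
        (Algebra.adjoin ↥(beta0Ring A (beta0Field A)) {bgJ ↥(beta0Field A) (M * q)})
        (modularFunctionFieldFullC ↥(beta0Field A) (M * q)),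
      algebraMap ↥(beta0Ring A (beta0Field A)) (integralClosure
        (Algebra.adjoin ↥(beta0Ring A (beta0Field A)) {bgJ ↥(beta0Field A) (M * q)})
        (modularFunctionFieldFullC ↥(beta0Field A) (M * q)))
          ((q : ℕ) : ↥(beta0Ring A (beta0Field A))) ∣ c ^ 2 →
      algebraMap ↥(beta0Ring A (beta0Field A)) (integralClosure
        (Algebra.adjoin ↥(beta0Ring A (beta0Field A)) {bgJ ↥(beta0Field A) (M * q)})
        (modularFunctionFieldFullC ↥(beta0Field A) (M * q)))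
          ((q : ℕ) : ↥(beta0Ring A (beta0Field A))) ∣ c)
    (hSS1₀ : ∀ x : integralClosure
        (Algebra.adjoin ↥(beta0Ring A (beta0Field A)) {bgJ ↥(beta0Field A) (M * q)})
        (modularFunctionFieldFullC ↥(beta0Field A) (M * q)),
      (∀ c, (x : ↥(modularFunctionFieldFullC ↥(beta0Field A) (M * q))) ∈
        (mgvV hπ₀ ιC₀ hq hqM c).nonunits) →
      algebraMap ↥(beta0Ring A (beta0Field A)) (integralClosure
        (Algebra.adjoin ↥(beta0Ring A (beta0Field A)) {bgJ ↥(beta0Field A) (M * q)})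
        (modularFunctionFieldFullC ↥(beta0Field A) (M * q)))
          ((q : ℕ) : ↥(beta0Ring A (beta0Field A))) ∣ x) :
    ∀ b : ↥(mgcF A K₁ (M * q)),
      IsIntegral ↥(Algebra.adjoin ↥(mgcA A K₁) {mgcT A K₁ (M * q)}) b →
      (∀ c, b ∈ (mgvV hπ ιC hq hqM c).nonunits) →
      ∃ b' : ↥(mgcF A K₁ (M * q)),
        IsIntegral ↥(Algebra.adjoin ↥(mgcA A K₁) {mgcT A K₁ (M * q)}) b' ∧
        b = algebraMap ↥(mgcA A K₁) ↥(mgcF A K₁ (M * q)) π * b' := by
  letI := beta0InstAlgebra A K₁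
  letI := beta0InstFieldAlgebra A K₁
  haveI := beta0Inst_isIntegral (A := A) K₁ hq hA
  haveI : FiniteDimensional (↥(beta0Field A))⟮bgJ ↥(beta0Field A) (M * q)⟯
      ↥(modularFunctionFieldFullC ↥(beta0Field A) (M * q)) :=
    bgFin_finiteDimensional_full (E := ↥(beta0Field A)) (N := M * q)
  obtain ⟨π₁, hπ₁, hπ₁0, hπ₁u, -, -, -, hram, ⟨g₀, hgm, hroot, hdeg, -⟩, hadj, halg⟩ :=
    beta0Inst_main (A := A) K₁ hq hA
  have key := mgcc_SS1 (A₀ := ↥(beta0Ring A (beta0Field A))) (E₀ := ↥(beta0Field A))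
    (A' := ↥(beta0Ring A (beta0Field A ⊔ K₁))) (E' := ↥(beta0Field A ⊔ K₁)) (M * q)
    (fun a => mgcb_hcomp K₁ a) hπ₀ (bgJ ↥(beta0Field A) (M * q)) hπu₁ hred₁ hπ₁0 hπ₁u hram
    g₀ hgm hroot hdeg hadj halg (t := mgcT A K₁ (M * q))
    (mgcc_emb_bgJ (E₀ := ↥(beta0Field A)) (E' := ↥(beta0Field A ⊔ K₁)) (M * q))
    (mgvV hπ₁ ιC hq hqM)
    (fun c b hb => mgv_hBV₁ hπ₁ ιC hq hqM c b hb)
    (fun c => mgv_hπV hπ₁ ιC hq hqM c)
    (fun x hx => hSS1₀ x (fun c =>
      (mgv_incl_mem_nonunits_iff hπ₀ hπ₁ ιC₀ ιC hq hqM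
        (le_sup_left : beta0Field A ≤ beta0Field A ⊔ K₁) c _).1 (hx c)))
  intro b hb hbV
  obtain ⟨b', hb', hbb'⟩ := key b hb hbV
  obtain ⟨w, hw⟩ := (IsDiscreteValuationRing.associated_of_irreducible _ hπ hπ₁)
  refine ⟨algebraMap ↥(mgcA A K₁) ↥(mgcF A K₁ (M * q)) (w : ↥(mgcA A K₁)) * b', ?_, ?_⟩
  · exact IsIntegral.mul (isIntegral_algebraMap
      (R := ↥(Algebra.adjoin ↥(mgcA A K₁) {mgcT A K₁ (M * q)}))
      (x := ⟨algebraMap ↥(mgcA A K₁) ↥(mgcF A K₁ (M * q)) (w : ↥(mgcA A K₁)),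
        Subalgebra.algebraMap_mem _ _⟩)) hb'
  · rw [hbb', ← hw, map_mul]
    ring

end SS1

end Fermat.Agent.UNIP

end
end ZBUNIP_035_2

/-! ### bundled: `Fermat.Agent.UNIP.MGDataAll` -/
section ZBUNIP_035_3

/-!
# UNIP MG-5, part 6: `MgcData` from the output of U5 at the base

`mgcData_of_base` : `MgcData A K₁ (M * q) σ τ hσ hτ` from the output of U5 on the two charts
`j`, `1 / j` of `F_{Mq}(ℚ̄^I)` over `A₀ = A ∩ ℚ̄^I` (uniformizer `q`): `hπu`, `hred`, `hU5`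
(the dichotomy smooth point / crossing) and (SS1) for the two vertical valuation rings `mgvV`.

All other conjuncts are proved: the V-block (`MGVertInertia`, `MGVertLocMain`, helper91), the
`AtTrivMod`s and the coordinates (`MGChartsBeta0*`, helper16), `hSS1` (`MGDataSS1`).
-/

set_option autoImplicit false
set_option linter.style.haveILetI false
set_option linter.unusedSectionVars false
set_option linter.unusedVariables false

noncomputable section

namespace Fermat.Agent.UNIP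

open ModularCurve AlgebraicCurve Fermat.Agent.ES Fermat.Agent.ES.G2 Fermat.Agent.INJ
open IntermediateField

section Base

set_option synthInstance.maxHeartbeats 400000 in
set_option maxHeartbeats 3200000 in
/-- **The output of U5 at the base** `A₀ = A ∩ ℚ̄^I` (uniformizer `q`), level `M q`: on the two
charts `j`, `1 / j` of `F_{Mq}(ℚ̄^I)`, `q` is not a unit, the special fibre is reduced, every
closed point of the special fibre is a smooth point or a crossing; and (SS1) for the two vertical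
valuation rings. -/
def MgcBase (A : ValuationSubring Qb) (M q : ℕ) [NeZero M] [NeZero q] [NeZero (M * q)]
    [IsDiscreteValuationRing ↥(beta0Ring A (beta0Field A))] (hq : q.Prime) (hqM : ¬ q ∣ M)
    (hπ₀ : Irreducible ((q : ℕ) : ↥(beta0Ring A (beta0Field A)))) : Prop :=
  (¬ IsUnit (algebraMap ↥(beta0Ring A (beta0Field A))
        (integralClosure
          (Algebra.adjoin ↥(beta0Ring A (beta0Field A)) {bgJ ↥(beta0Field A) (M * q)})
          (modularFunctionFieldFullC ↥(beta0Field A) (M * q)))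
        ((q : ℕ) : ↥(beta0Ring A (beta0Field A))))) ∧
  (∀ c : integralClosure
          (Algebra.adjoin ↥(beta0Ring A (beta0Field A)) {bgJ ↥(beta0Field A) (M * q)})
          (modularFunctionFieldFullC ↥(beta0Field A) (M * q)),
        algebraMap ↥(beta0Ring A (beta0Field A)) (integralClosure
          (Algebra.adjoin ↥(beta0Ring A (beta0Field A)) {bgJ ↥(beta0Field A) (M * q)})
          (modularFunctionFieldFullC ↥(beta0Field A) (M * q)))
            ((q : ℕ) : ↥(beta0Ring A (beta0Field A))) ∣ c ^ 2 →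
        algebraMap ↥(beta0Ring A (beta0Field A)) (integralClosure
          (Algebra.adjoin ↥(beta0Ring A (beta0Field A)) {bgJ ↥(beta0Field A) (M * q)})
          (modularFunctionFieldFullC ↥(beta0Field A) (M * q)))
            ((q : ℕ) : ↥(beta0Ring A (beta0Field A))) ∣ c) ∧
  (∀ 𝔫 : Ideal (integralClosure
          (Algebra.adjoin ↥(beta0Ring A (beta0Field A)) {bgJ ↥(beta0Field A) (M * q)})
          (modularFunctionFieldFullC ↥(beta0Field A) (M * q))), 𝔫.IsMaximal →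
        algebraMap ↥(beta0Ring A (beta0Field A)) (integralClosure
          (Algebra.adjoin ↥(beta0Ring A (beta0Field A)) {bgJ ↥(beta0Field A) (M * q)})
          (modularFunctionFieldFullC ↥(beta0Field A) (M * q)))
            ((q : ℕ) : ↥(beta0Ring A (beta0Field A))) ∈ 𝔫 →
        (∃ s ∈ 𝔫, NodesLocGen 𝔫 {algebraMap ↥(beta0Ring A (beta0Field A)) (integralClosure
          (Algebra.adjoin ↥(beta0Ring A (beta0Field A)) {bgJ ↥(beta0Field A) (M * q)})
          (modularFunctionFieldFullC ↥(beta0Field A) (M * q)))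
            ((q : ℕ) : ↥(beta0Ring A (beta0Field A))), s}) ∨
        (∃ X Y : integralClosure
            (Algebra.adjoin ↥(beta0Ring A (beta0Field A)) {bgJ ↥(beta0Field A) (M * q)})
            (modularFunctionFieldFullC ↥(beta0Field A) (M * q)),
          X ∈ 𝔫 ∧ Y ∈ 𝔫 ∧
          algebraMap ↥(beta0Ring A (beta0Field A)) (integralClosure
            (Algebra.adjoin ↥(beta0Ring A (beta0Field A)) {bgJ ↥(beta0Field A) (M * q)})
            (modularFunctionFieldFullC ↥(beta0Field A) (M * q)))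
              ((q : ℕ) : ↥(beta0Ring A (beta0Field A))) ∣ X * Y ∧
          NodesLocGen 𝔫 {algebraMap ↥(beta0Ring A (beta0Field A)) (integralClosure
            (Algebra.adjoin ↥(beta0Ring A (beta0Field A)) {bgJ ↥(beta0Field A) (M * q)})
            (modularFunctionFieldFullC ↥(beta0Field A) (M * q)))
              ((q : ℕ) : ↥(beta0Ring A (beta0Field A))), X, Y})) ∧
  (¬ IsUnit (algebraMap ↥(beta0Ring A (beta0Field A))
        (integralClosure
          (Algebra.adjoin ↥(beta0Ring A (beta0Field A)) {(bgJ ↥(beta0Field A) (M * q))⁻¹})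
          (modularFunctionFieldFullC ↥(beta0Field A) (M * q)))
        ((q : ℕ) : ↥(beta0Ring A (beta0Field A))))) ∧
  (∀ c : integralClosure
          (Algebra.adjoin ↥(beta0Ring A (beta0Field A)) {(bgJ ↥(beta0Field A) (M * q))⁻¹})
          (modularFunctionFieldFullC ↥(beta0Field A) (M * q)),
        algebraMap ↥(beta0Ring A (beta0Field A)) (integralClosure
          (Algebra.adjoin ↥(beta0Ring A (beta0Field A)) {(bgJ ↥(beta0Field A) (M * q))⁻¹})
          (modularFunctionFieldFullC ↥(beta0Field A) (M * q)))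
            ((q : ℕ) : ↥(beta0Ring A (beta0Field A))) ∣ c ^ 2 →
        algebraMap ↥(beta0Ring A (beta0Field A)) (integralClosure
          (Algebra.adjoin ↥(beta0Ring A (beta0Field A)) {(bgJ ↥(beta0Field A) (M * q))⁻¹})
          (modularFunctionFieldFullC ↥(beta0Field A) (M * q)))
            ((q : ℕ) : ↥(beta0Ring A (beta0Field A))) ∣ c) ∧
  (∀ 𝔫 : Ideal (integralClosure
          (Algebra.adjoin ↥(beta0Ring A (beta0Field A)) {(bgJ ↥(beta0Field A) (M * q))⁻¹})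
          (modularFunctionFieldFullC ↥(beta0Field A) (M * q))), 𝔫.IsMaximal →
        algebraMap ↥(beta0Ring A (beta0Field A)) (integralClosure
          (Algebra.adjoin ↥(beta0Ring A (beta0Field A)) {(bgJ ↥(beta0Field A) (M * q))⁻¹})
          (modularFunctionFieldFullC ↥(beta0Field A) (M * q)))
            ((q : ℕ) : ↥(beta0Ring A (beta0Field A))) ∈ 𝔫 →
        (∃ s ∈ 𝔫, NodesLocGen 𝔫 {algebraMap ↥(beta0Ring A (beta0Field A)) (integralClosure
          (Algebra.adjoin ↥(beta0Ring A (beta0Field A)) {(bgJ ↥(beta0Field A) (M * q))⁻¹})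
          (modularFunctionFieldFullC ↥(beta0Field A) (M * q)))
            ((q : ℕ) : ↥(beta0Ring A (beta0Field A))), s}) ∨
        (∃ X Y : integralClosure
            (Algebra.adjoin ↥(beta0Ring A (beta0Field A)) {(bgJ ↥(beta0Field A) (M * q))⁻¹})
            (modularFunctionFieldFullC ↥(beta0Field A) (M * q)),
          X ∈ 𝔫 ∧ Y ∈ 𝔫 ∧
          algebraMap ↥(beta0Ring A (beta0Field A)) (integralClosure
            (Algebra.adjoin ↥(beta0Ring A (beta0Field A)) {(bgJ ↥(beta0Field A) (M * q))⁻¹})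
            (modularFunctionFieldFullC ↥(beta0Field A) (M * q)))
              ((q : ℕ) : ↥(beta0Ring A (beta0Field A))) ∣ X * Y ∧
          NodesLocGen 𝔫 {algebraMap ↥(beta0Ring A (beta0Field A)) (integralClosure
            (Algebra.adjoin ↥(beta0Ring A (beta0Field A)) {(bgJ ↥(beta0Field A) (M * q))⁻¹})
            (modularFunctionFieldFullC ↥(beta0Field A) (M * q)))
              ((q : ℕ) : ↥(beta0Ring A (beta0Field A))), X, Y})) ∧
  (∀ x : integralClosure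
          (Algebra.adjoin ↥(beta0Ring A (beta0Field A)) {bgJ ↥(beta0Field A) (M * q)})
          (modularFunctionFieldFullC ↥(beta0Field A) (M * q)),
        (∀ c, (x : ↥(modularFunctionFieldFullC ↥(beta0Field A) (M * q))) ∈
          (mgvV hπ₀ (mgdIota (beta0Field A)) hq hqM c).nonunits) →
        algebraMap ↥(beta0Ring A (beta0Field A)) (integralClosure
          (Algebra.adjoin ↥(beta0Ring A (beta0Field A)) {bgJ ↥(beta0Field A) (M * q)})
          (modularFunctionFieldFullC ↥(beta0Field A) (M * q)))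
            ((q : ℕ) : ↥(beta0Ring A (beta0Field A))) ∣ x)

end Base

section AssemblyBase

variable {A : ValuationSubring Qb} (K₁ : IntermediateField ℚ Qb) [NumberField K₁]
  [IsGalois ℚ K₁] {M q : ℕ} [NeZero M] [NeZero q] [NeZero (M * q)]
  [IsDiscreteValuationRing ↥(mgcA A K₁)]
  [IsDiscreteValuationRing ↥(beta0Ring A (beta0Field A))]

set_option synthInstance.maxHeartbeats 400000 in
set_option maxHeartbeats 3200000 in
/-- **Assembly of `MgcData`** from the output of U5 at the base. -/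
theorem mgcData_of_base (hq : q.Prime) (hqM : ¬ q ∣ M) (hA : A.LiesOverPrime q)
    (hπ₀ : Irreducible ((q : ℕ) : ↥(beta0Ring A (beta0Field A))))
    (σ : Qb ≃ₐ[ℚ] Qb) (hσI : σ ∈ A.inertiaSubgroupIn ℚ)
    (τ : Qb ≃ₐ[ℚ] Qb) (hτI : τ ∈ A.inertiaSubgroupIn ℚ)
    (hσ : ∀ x ∈ mgcE A K₁, σ x ∈ mgcE A K₁) (hτ : ∀ x ∈ mgcE A K₁, τ x ∈ mgcE A K₁)
    -- U5 at the base, chart `j`
    (hπu₁ : ¬ IsUnit (algebraMap ↥(beta0Ring A (beta0Field A))
      (integralClosure
        (Algebra.adjoin ↥(beta0Ring A (beta0Field A)) {bgJ ↥(beta0Field A) (M * q)})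
        (modularFunctionFieldFullC ↥(beta0Field A) (M * q)))
      ((q : ℕ) : ↥(beta0Ring A (beta0Field A)))))
    (hred₁ : ∀ c : integralClosure
        (Algebra.adjoin ↥(beta0Ring A (beta0Field A)) {bgJ ↥(beta0Field A) (M * q)})
        (modularFunctionFieldFullC ↥(beta0Field A) (M * q)),
      algebraMap ↥(beta0Ring A (beta0Field A)) (integralClosure
        (Algebra.adjoin ↥(beta0Ring A (beta0Field A)) {bgJ ↥(beta0Field A) (M * q)})
        (modularFunctionFieldFullC ↥(beta0Field A) (M * q)))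
          ((q : ℕ) : ↥(beta0Ring A (beta0Field A))) ∣ c ^ 2 →
      algebraMap ↥(beta0Ring A (beta0Field A)) (integralClosure
        (Algebra.adjoin ↥(beta0Ring A (beta0Field A)) {bgJ ↥(beta0Field A) (M * q)})
        (modularFunctionFieldFullC ↥(beta0Field A) (M * q)))
          ((q : ℕ) : ↥(beta0Ring A (beta0Field A))) ∣ c)
    (hU5₁ : ∀ 𝔫 : Ideal (integralClosure
        (Algebra.adjoin ↥(beta0Ring A (beta0Field A)) {bgJ ↥(beta0Field A) (M * q)})
        (modularFunctionFieldFullC ↥(beta0Field A) (M * q))), 𝔫.IsMaximal →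
      algebraMap ↥(beta0Ring A (beta0Field A)) (integralClosure
        (Algebra.adjoin ↥(beta0Ring A (beta0Field A)) {bgJ ↥(beta0Field A) (M * q)})
        (modularFunctionFieldFullC ↥(beta0Field A) (M * q)))
          ((q : ℕ) : ↥(beta0Ring A (beta0Field A))) ∈ 𝔫 →
      (∃ s ∈ 𝔫, NodesLocGen 𝔫 {algebraMap ↥(beta0Ring A (beta0Field A)) (integralClosure
        (Algebra.adjoin ↥(beta0Ring A (beta0Field A)) {bgJ ↥(beta0Field A) (M * q)})
        (modularFunctionFieldFullC ↥(beta0Field A) (M * q)))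
          ((q : ℕ) : ↥(beta0Ring A (beta0Field A))), s}) ∨
      (∃ X Y : integralClosure
          (Algebra.adjoin ↥(beta0Ring A (beta0Field A)) {bgJ ↥(beta0Field A) (M * q)})
          (modularFunctionFieldFullC ↥(beta0Field A) (M * q)),
        X ∈ 𝔫 ∧ Y ∈ 𝔫 ∧
        algebraMap ↥(beta0Ring A (beta0Field A)) (integralClosure
          (Algebra.adjoin ↥(beta0Ring A (beta0Field A)) {bgJ ↥(beta0Field A) (M * q)})
          (modularFunctionFieldFullC ↥(beta0Field A) (M * q)))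
            ((q : ℕ) : ↥(beta0Ring A (beta0Field A))) ∣ X * Y ∧
        NodesLocGen 𝔫 {algebraMap ↥(beta0Ring A (beta0Field A)) (integralClosure
          (Algebra.adjoin ↥(beta0Ring A (beta0Field A)) {bgJ ↥(beta0Field A) (M * q)})
          (modularFunctionFieldFullC ↥(beta0Field A) (M * q)))
            ((q : ℕ) : ↥(beta0Ring A (beta0Field A))), X, Y}))
    -- U5 at the base, chart `1 / j`
    (hπu₂ : ¬ IsUnit (algebraMap ↥(beta0Ring A (beta0Field A))
      (integralClosure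
        (Algebra.adjoin ↥(beta0Ring A (beta0Field A)) {(bgJ ↥(beta0Field A) (M * q))⁻¹})
        (modularFunctionFieldFullC ↥(beta0Field A) (M * q)))
      ((q : ℕ) : ↥(beta0Ring A (beta0Field A)))))
    (hred₂ : ∀ c : integralClosure
        (Algebra.adjoin ↥(beta0Ring A (beta0Field A)) {(bgJ ↥(beta0Field A) (M * q))⁻¹})
        (modularFunctionFieldFullC ↥(beta0Field A) (M * q)),
      algebraMap ↥(beta0Ring A (beta0Field A)) (integralClosure
        (Algebra.adjoin ↥(beta0Ring A (beta0Field A)) {(bgJ ↥(beta0Field A) (M * q))⁻¹})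
        (modularFunctionFieldFullC ↥(beta0Field A) (M * q)))
          ((q : ℕ) : ↥(beta0Ring A (beta0Field A))) ∣ c ^ 2 →
      algebraMap ↥(beta0Ring A (beta0Field A)) (integralClosure
        (Algebra.adjoin ↥(beta0Ring A (beta0Field A)) {(bgJ ↥(beta0Field A) (M * q))⁻¹})
        (modularFunctionFieldFullC ↥(beta0Field A) (M * q)))
          ((q : ℕ) : ↥(beta0Ring A (beta0Field A))) ∣ c)
    (hU5₂ : ∀ 𝔫 : Ideal (integralClosure
        (Algebra.adjoin ↥(beta0Ring A (beta0Field A)) {(bgJ ↥(beta0Field A) (M * q))⁻¹})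
        (modularFunctionFieldFullC ↥(beta0Field A) (M * q))), 𝔫.IsMaximal →
      algebraMap ↥(beta0Ring A (beta0Field A)) (integralClosure
        (Algebra.adjoin ↥(beta0Ring A (beta0Field A)) {(bgJ ↥(beta0Field A) (M * q))⁻¹})
        (modularFunctionFieldFullC ↥(beta0Field A) (M * q)))
          ((q : ℕ) : ↥(beta0Ring A (beta0Field A))) ∈ 𝔫 →
      (∃ s ∈ 𝔫, NodesLocGen 𝔫 {algebraMap ↥(beta0Ring A (beta0Field A)) (integralClosure
        (Algebra.adjoin ↥(beta0Ring A (beta0Field A)) {(bgJ ↥(beta0Field A) (M * q))⁻¹})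
        (modularFunctionFieldFullC ↥(beta0Field A) (M * q)))
          ((q : ℕ) : ↥(beta0Ring A (beta0Field A))), s}) ∨
      (∃ X Y : integralClosure
          (Algebra.adjoin ↥(beta0Ring A (beta0Field A)) {(bgJ ↥(beta0Field A) (M * q))⁻¹})
          (modularFunctionFieldFullC ↥(beta0Field A) (M * q)),
        X ∈ 𝔫 ∧ Y ∈ 𝔫 ∧
        algebraMap ↥(beta0Ring A (beta0Field A)) (integralClosure
          (Algebra.adjoin ↥(beta0Ring A (beta0Field A)) {(bgJ ↥(beta0Field A) (M * q))⁻¹})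
          (modularFunctionFieldFullC ↥(beta0Field A) (M * q)))
            ((q : ℕ) : ↥(beta0Ring A (beta0Field A))) ∣ X * Y ∧
        NodesLocGen 𝔫 {algebraMap ↥(beta0Ring A (beta0Field A)) (integralClosure
          (Algebra.adjoin ↥(beta0Ring A (beta0Field A)) {(bgJ ↥(beta0Field A) (M * q))⁻¹})
          (modularFunctionFieldFullC ↥(beta0Field A) (M * q)))
            ((q : ℕ) : ↥(beta0Ring A (beta0Field A))), X, Y}))
    -- (SS1) at the base, for the two vertical valuation rings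
    (hSS1₀ : ∀ x : integralClosure
        (Algebra.adjoin ↥(beta0Ring A (beta0Field A)) {bgJ ↥(beta0Field A) (M * q)})
        (modularFunctionFieldFullC ↥(beta0Field A) (M * q)),
      (∀ c, (x : ↥(modularFunctionFieldFullC ↥(beta0Field A) (M * q))) ∈
        (mgvV hπ₀ (mgdIota (beta0Field A)) hq hqM c).nonunits) →
      algebraMap ↥(beta0Ring A (beta0Field A)) (integralClosure
        (Algebra.adjoin ↥(beta0Ring A (beta0Field A)) {bgJ ↥(beta0Field A) (M * q)})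
        (modularFunctionFieldFullC ↥(beta0Field A) (M * q)))
          ((q : ℕ) : ↥(beta0Ring A (beta0Field A))) ∣ x) :
    MgcData A K₁ (M * q) σ τ hσ hτ := by
  obtain ⟨π, hπ⟩ := IsDiscreteValuationRing.exists_irreducible ↥(mgcA A K₁)
  have hSS1 := mgd_hSS1 K₁ hq hqM hA hπ hπ₀ (mgdIota (beta0Field A)) (mgdIota (mgcE A K₁))
    hπu₁ hred₁ hSS1₀
  exact mgcData_of K₁ hq hqM hA hπ σ hσI τ hτI hσ hτ hπu₁ hred₁ hπu₂ hred₂ hSS1
    (mgv_hVloc₁ hπ (mgdIota (mgcE A K₁)) hq hqM hA hSS1)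
    (mgv_hVloc₂ hπ (mgdIota (mgcE A K₁)) hq hqM hA hSS1)
    (mgcb_G5 K₁ (M * q) hq hA hπu₁ hred₁ hU5₁ hπu₂ hred₂ hU5₂ hπ hσI hσ)

end AssemblyBase

section All

set_option synthInstance.maxHeartbeats 400000 in
set_option maxHeartbeats 3200000 in
/-- `MgcData` at all levels `N`, `q ∥ N`, from the output of U5 at the base. -/
theorem mgcData_all_of_base
    (h : ∀ (M q : ℕ) [NeZero M] [NeZero q] [NeZero (M * q)] (hq : q.Prime) (hqM : ¬ q ∣ M),
      (q = 2 → 3 ∣ M) → (q = 3 → 2 ∣ M) →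
      ∀ (A : ValuationSubring Qb) (_ : A.LiesOverPrime q)
        [IsDiscreteValuationRing ↥(beta0Ring A (beta0Field A))]
        (hπ₀ : Irreducible ((q : ℕ) : ↥(beta0Ring A (beta0Field A)))),
        MgcBase A M q hq hqM hπ₀)
    (N : ℕ) [NeZero N] (q : ℕ) (hq : q.Prime) (hqN : q ∣ N) (hq2 : ¬ q ^ 2 ∣ N)
    (h2 : q = 2 → 3 ∣ N) (h3 : q = 3 → 2 ∣ N)
    (A : ValuationSubring Qb) (hA : A.LiesOverPrime q) (K₁ : IntermediateField ℚ Qb)
    [NumberField K₁] [IsGalois ℚ K₁] [IsDiscreteValuationRing ↥(mgcA A K₁)]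
    (σ : Qb ≃ₐ[ℚ] Qb) (hσI : σ ∈ A.inertiaSubgroupIn ℚ)
    (τ : Qb ≃ₐ[ℚ] Qb) (hτI : τ ∈ A.inertiaSubgroupIn ℚ)
    (hσ : ∀ x ∈ mgcE A K₁, σ x ∈ mgcE A K₁) (hτ : ∀ x ∈ mgcE A K₁, τ x ∈ mgcE A K₁) :
    MgcData A K₁ N σ τ hσ hτ := by
  obtain ⟨M, hM⟩ := hqN
  have hN : N = M * q := by rw [hM, mul_comm]
  subst hN
  have hM0 : M ≠ 0 := fun h0 => NeZero.ne (M * q) (by rw [h0, zero_mul])
  haveI : NeZero M := ⟨hM0⟩
  haveI : NeZero q := ⟨hq.ne_zero⟩
  have hqM : ¬ q ∣ M := by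
    rintro ⟨M', rfl⟩
    exact hq2 ⟨M', by ring⟩
  have h2' : q = 2 → 3 ∣ M := fun hq2' => by
    have := h2 hq2'
    subst hq2'
    exact (Nat.Coprime.dvd_mul_right (by norm_num : Nat.Coprime 3 2)).1 this
  have h3' : q = 3 → 2 ∣ M := fun hq3' => by
    have := h3 hq3'
    subst hq3'
    exact (Nat.Coprime.dvd_mul_right (by norm_num : Nat.Coprime 2 3)).1 this
  haveI := beta0Ring_isDVR_base hq hA
  have hπ₀ := beta0Ring_irreducible_q hq hA
  obtain ⟨hπu₁, hred₁, hU5₁, hπu₂, hred₂, hU5₂, hSS1₀⟩ := h M q hq hqM h2' h3' A hA hπ₀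
  exact mgcData_of_base K₁ hq hqM hA hπ₀ σ hσI τ hτI hσ hτ hπu₁ hred₁ hU5₁ hπu₂ hred₂ hU5₂ hSS1₀

/-- **MG-5, final form (base).**  `StmtUnipKummer` from the output of U5 at the base. -/
theorem stmtUnipKummer_of_base
    (h : ∀ (M q : ℕ) [NeZero M] [NeZero q] [NeZero (M * q)] (hq : q.Prime) (hqM : ¬ q ∣ M),
      (q = 2 → 3 ∣ M) → (q = 3 → 2 ∣ M) →
      ∀ (A : ValuationSubring Qb) (_ : A.LiesOverPrime q)
        [IsDiscreteValuationRing ↥(beta0Ring A (beta0Field A))]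
        (hπ₀ : Irreducible ((q : ℕ) : ↥(beta0Ring A (beta0Field A)))),
        MgcBase A M q hq hqM hπ₀) : StmtUnipKummer :=
  stmtUnipKummer_of_data fun N _ q hq hqN hq2 h2 h3 A hA K₁ _ _ _ σ hσI τ hτI hσ hτ =>
    mgcData_all_of_base h N q hq hqN hq2 h2 h3 A hA K₁ σ hσI τ hτI hσ hτ

end All

end Fermat.Agent.UNIP

end
end ZBUNIP_035_3

/-! ### bundled: `Fermat.Agent.UNIP.MGChartsBeta0All` -/
section ZBUNIP_035_4
/-
UNIP (S34/S35), direct route: THE OUTPUT OF U5 AT THE BASE, all inputs discharged (helper16).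

`A` a valuation subring of `ℚ̄` over `q`, `q ∤ M`, (`q = 2 → 3 ∣ M`), (`q = 3 → 2 ∣ M`),
`A₀ = A ∩ ℚ̄^I` (uniformizer `q`):

* `mgcb_mgcBase : MgcBase A M q hq hqM hπ₀` (`MGDataAll.lean`, helper50): on the two charts `j`,
  `1 / j` of `F_{Mq}(ℚ̄^I)` over `A₀`, `q` is not a unit, the special fibre is reduced, every
  closed point of the special fibre is a smooth point or a crossing, and (SS1) holds for the two
  vertical valuation rings;
* `mgcb_all_SS1` : `hSS1` of `MgcData` / `StbdInputs` over `A' = mgcA A K₁`, any `π`, any `ιC`;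
* `mgcb_stmtUnipKummer : StmtUnipKummer`.

Inputs: U5 (`nodesReg_chart_J/_Jinv`, `nodesReg_ker_J/_Jinv`), `RegChart` at the base
(`stb_regChart_conc_J/_Jinv`, helper45), the Frobenius lift (`stbLift*`, helper45), existence of
Frobenius elements (`exists_isFrobeniusAt_of_liesOverPrime`), `hπu`, `hred` (`U5Concrete.lean`,
helper18), `MGChartsBeta0Reg.lean`, `MGChartsBeta0RegU5.lean`.
-/

set_option autoImplicit false
set_option linter.style.haveILetI false
set_option linter.unusedSectionVars false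
set_option linter.unusedVariables false
set_option linter.style.longLine false
set_option synthInstance.maxHeartbeats 400000
set_option maxHeartbeats 3200000

noncomputable section

namespace Fermat.Agent.UNIP

open ModularCurve Polynomial IntermediateField Fermat.Agent.INJ Fermat.Agent.AL AlgebraicCurve
open Fermat.Agent.ES Fermat.Agent.ES.G2 Fermat.Agent.STB

section Base

variable {A : ValuationSubring Qb} {q M : ℕ} [NeZero M] [NeZero q] [NeZero (M * q)]
  [IsDiscreteValuationRing ↥(beta0Ring A (beta0Field A))]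

/-- **The output of U5 at the base `A₀ = A ∩ ℚ̄^I`**, all inputs discharged. -/
theorem mgcb_mgcBase (hq : q.Prime) (hqM : ¬ q ∣ M) (hA : A.LiesOverPrime q)
    (h2 : q = 2 → 3 ∣ M) (h3 : q = 3 → 2 ∣ M)
    (hπ₀ : Irreducible ((q : ℕ) : ↥(beta0Ring A (beta0Field A)))) :
    MgcBase A M q hq hqM hπ₀ := by
  obtain ⟨φ, hφF⟩ := Fermat.Agent.Common.exists_isFrobeniusAt_of_liesOverPrime q hq A hA
  have hφ : ∀ x ∈ beta0Field A, φ x ∈ beta0Field A :=
    stb_stable_beta0 hφF.mem_decompositionSubgroup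
  have hJ : RegChart (E := ↥(beta0Field A)) ((q : ℕ) : ↥(beta0Ring A (beta0Field A)))
      (bgJ ↥(beta0Field A) M) :=
    stb_regChart_conc_J M hq hA le_rfl hπ₀ hqM h2 h3
  have hJi : RegChart (E := ↥(beta0Field A)) ((q : ℕ) : ↥(beta0Ring A (beta0Field A)))
      (bgJ ↥(beta0Field A) M)⁻¹ :=
    stb_regChart_conc_Jinv M hq hA le_rfl hπ₀ hqM h2 h3
  exact ⟨u5c_hπu₁ hq hA hqM h2 h3, u5c_hred₁ hq hA hqM h2 h3,
    fun 𝔫 h𝔫 hπ𝔫 => mgcb_reg_hU5_J hπ₀ (mgdIota (beta0Field A)) hq hqM hA hφF hφ hJ 𝔫 h𝔫 hπ𝔫,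
    u5c_hπu₂ hq hA hqM h2 h3, u5c_hred₂ hq hA hqM h2 h3,
    fun 𝔫 h𝔫 hπ𝔫 => mgcb_reg_hU5_Jinv hπ₀ (mgdIota (beta0Field A)) hq hqM hA hφF hφ hJi 𝔫 h𝔫 hπ𝔫,
    fun x hx => mgcb_reg_ker_J hπ₀ (mgdIota (beta0Field A)) hq hqM hA hJ x hx⟩

end Base

section SS1

variable {A : ValuationSubring Qb} (K₁ : IntermediateField ℚ Qb)
  {q M : ℕ} [NeZero M] [NeZero q] [NeZero (M * q)]
  [IsDiscreteValuationRing ↥(mgcA A K₁)]

/-- **`hSS1` of `MgcData A K₁ (M * q) σ τ` / `StbdInputs`** for `V = mgvV hπ ιC hq hqM`, ANY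
uniformizer `π` of `A' = mgcA A K₁`, ANY `ιC`; all inputs discharged (directly from U5 over
`A'`, `RegChart` at level `M` over `A'`). -/
theorem mgcb_all_SS1 (hq : q.Prime) (hqM : ¬ q ∣ M) (hA : A.LiesOverPrime q)
    (h2 : q = 2 → 3 ∣ M) (h3 : q = 3 → 2 ∣ M)
    {π : ↥(mgcA A K₁)} (hπ : Irreducible π) (ιC : ↥(mgcE A K₁) →+* ℂ) :
    ∀ b : ↥(mgcF A K₁ (M * q)),
      IsIntegral ↥(Algebra.adjoin ↥(mgcA A K₁) {mgcT A K₁ (M * q)}) b →
      (∀ c, b ∈ (mgvV hπ ιC hq hqM c).nonunits) →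
      ∃ b' : ↥(mgcF A K₁ (M * q)),
        IsIntegral ↥(Algebra.adjoin ↥(mgcA A K₁) {mgcT A K₁ (M * q)}) b' ∧
        b = algebraMap ↥(mgcA A K₁) ↥(mgcF A K₁ (M * q)) π * b' :=
  mgcb_reg_SS1_J (K₀ := mgcE A K₁) hπ ιC hq hqM hA
    (stb_regChart_conc_J M hq hA le_sup_left hπ hqM h2 h3)

end SS1

/-- **`StmtUnipKummer`.** -/
theorem mgcb_stmtUnipKummer : StmtUnipKummer :=
  stmtUnipKummer_of_base fun M q _ _ _ hq hqM h2 h3 A hA _ hπ₀ =>
    mgcb_mgcBase hq hqM hA h2 h3 hπ₀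

end Fermat.Agent.UNIP

end
end ZBUNIP_035_4
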