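/- GENERATED FILE (helper35, build-time optimisation, NOTES/ZB.md): verbatim concatenation of the modules
   Fermat.Agent.S15.RedLang
   Fermat.Agent.S15.RedFin
   Do not edit; do not import together with these modules. -/
import Mathlib
import Fermat.Agent.ZB.ES_020
import Fermat.Prelude.Def_AlgebraicCurve_BaseChangeGalois

/-! ### bundled: `Fermat.Agent.S15.RedLang` -/
section ZBZ2S15_033_0

/-!
# S15 block RED, piece FINRED — Lang's lemma for semilinear maps

`s15red_lang` : let `k` be an algebraically closed field, `q ≥ 2` with `(q : k) = 0`, `V ≠ 0` a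
finite dimensional `k`-vector space and `T : V → V` an injective additive map with
`T (a • v) = a ^ q • T v`.  Then `T` has a non-zero fixed vector.

Proof: `v₀ ≠ 0`, `n` minimal with `T^n v₀ = Σ_{i<n} c_i T^i v₀`; `w = Σ_{i<n} x_i T^i v₀` is fixed
iff `x_0 = c_0 y^q`, `x_{i+1} = x_i^q + c_{i+1} y^q`, `x_{n-1} = y`; this is a separable polynomial
equation in `y` of degree `≥ q`.
-/

set_option autoImplicit false

open Polynomial

namespace Fermat.Agent.S15

section Lang

variable {k : Type*} [Field k]

/-- the polynomials `X_0 = c_0 Y^q`, `X_{i+1} = X_i^q + c_{i+1} Y^q` -/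
noncomputable def s15red_langPoly (q : ℕ) (c : ℕ → k) : ℕ → k[X]
  | 0 => C (c 0) * X ^ q
  | (i + 1) => (s15red_langPoly q c i) ^ q + C (c (i + 1)) * X ^ q

theorem s15red_langPoly_zero (q : ℕ) (c : ℕ → k) :
    s15red_langPoly q c 0 = C (c 0) * X ^ q := rfl

theorem s15red_langPoly_succ (q : ℕ) (c : ℕ → k) (i : ℕ) :
    s15red_langPoly q c (i + 1) = (s15red_langPoly q c i) ^ q + C (c (i + 1)) * X ^ q := rfl

theorem s15red_langPoly_derivative (q : ℕ) (hq : (q : k) = 0) (c : ℕ → k) (i : ℕ) :
    derivative (s15red_langPoly q c i) = 0 := by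
  have hq' : (q : k[X]) = 0 := by
    rw [← map_natCast (C : k →+* k[X]), hq, map_zero]
  cases i with
  | zero =>
    rw [s15red_langPoly_zero, derivative_C_mul, derivative_X_pow, map_natCast, hq', zero_mul,
      mul_zero]
  | succ i =>
    rw [s15red_langPoly_succ, derivative_add, derivative_pow, derivative_C_mul, derivative_X_pow,
      map_natCast, hq', zero_mul, zero_mul, zero_mul, mul_zero, add_zero]

theorem s15red_langPoly_eval_zero (q : ℕ) (hq : q ≠ 0) (c : ℕ → k) (i : ℕ) :
    (s15red_langPoly q c i).eval 0 = 0 := by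
  induction i with
  | zero => simp [s15red_langPoly_zero, hq]
  | succ i ih => simp [s15red_langPoly_succ, ih, hq]

theorem s15red_langPoly_natDegree (q : ℕ) (hq : 2 ≤ q) (c : ℕ → k) (i : ℕ) :
    (s15red_langPoly q c i = 0 ∨ q ≤ (s15red_langPoly q c i).natDegree) ∧
      ((∃ j, j ≤ i ∧ c j ≠ 0) → s15red_langPoly q c i ≠ 0) := by
  have hq0 : q ≠ 0 := by omega
  induction i with
  | zero =>
    rw [s15red_langPoly_zero]
    by_cases h0 : c 0 = 0
    · refine ⟨Or.inl (by rw [h0, map_zero, zero_mul]), ?_⟩
      rintro ⟨j, hj, hcj⟩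
      obtain rfl : j = 0 := by omega
      exact absurd h0 hcj
    · refine ⟨Or.inr ?_, fun _ => ?_⟩
      · rw [natDegree_C_mul_X_pow q (c 0) h0]
      · intro h
        have := congrArg natDegree h
        rw [natDegree_C_mul_X_pow q (c 0) h0, natDegree_zero] at this
        omega
  | succ i ih =>
    rw [s15red_langPoly_succ]
    by_cases hX : s15red_langPoly q c i = 0
    · rw [hX, zero_pow hq0, zero_add]
      by_cases h0 : c (i + 1) = 0
      · refine ⟨Or.inl (by rw [h0, map_zero, zero_mul]), ?_⟩
        rintro ⟨j, hj, hcj⟩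
        rcases Nat.lt_or_ge j (i + 1) with hlt | hge
        · exact (ih.2 ⟨j, by omega, hcj⟩ hX).elim
        · obtain rfl : j = i + 1 := by omega
          exact absurd h0 hcj
      · refine ⟨Or.inr ?_, fun _ => ?_⟩
        · rw [natDegree_C_mul_X_pow q _ h0]
        · intro h
          have := congrArg natDegree h
          rw [natDegree_C_mul_X_pow q _ h0, natDegree_zero] at this
          omega
    · have hdeg : q ≤ (s15red_langPoly q c i).natDegree := ih.1.resolve_left hX
      have h1 : ((s15red_langPoly q c i) ^ q).natDegree = q * (s15red_langPoly q c i).natDegree :=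
        natDegree_pow _ _
      have h2 : (C (c (i + 1)) * X ^ q : k[X]).natDegree ≤ q := natDegree_C_mul_X_pow_le _ _
      have h3 : (C (c (i + 1)) * X ^ q : k[X]).natDegree <
          ((s15red_langPoly q c i) ^ q).natDegree := by
        rw [h1]
        have : q * 2 ≤ q * (s15red_langPoly q c i).natDegree :=
          Nat.mul_le_mul_left q (hq.trans hdeg)
        omega
      have h4 := natDegree_add_eq_left_of_natDegree_lt h3
      have h5 : q ≤ ((s15red_langPoly q c i) ^ q + C (c (i + 1)) * X ^ q).natDegree := by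
        rw [h4, h1]
        calc q = q * 1 := (mul_one q).symm
          _ ≤ q * (s15red_langPoly q c i).natDegree := Nat.mul_le_mul_left q (by omega)
      refine ⟨Or.inr h5, fun _ h => ?_⟩
      rw [h, natDegree_zero] at h5
      omega

/-- a polynomial of degree `≥ 2` with zero derivative has a non-zero "fixed point" -/
theorem s15red_exists_fixed [IsAlgClosed k] (P : k[X]) (hP : derivative P = 0)
    (hdeg : 2 ≤ P.natDegree) : ∃ y : k, y ≠ 0 ∧ P.eval y = y := by
  classical
  set R : k[X] := P - X with hR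
  have hRdeg : R.natDegree = P.natDegree := by
    apply natDegree_sub_eq_left_of_natDegree_lt
    rw [natDegree_X]
    omega
  have hRder : derivative R = -1 := by
    rw [hR, derivative_sub, hP, derivative_X, zero_sub]
  have hsep : R.Separable := by
    rw [separable_def, hRder]
    exact isCoprime_one_right.neg_right
  have hcard : Multiset.card R.roots = R.natDegree :=
    splits_iff_card_roots.mp (IsAlgClosed.splits R)
  have hnodup : R.roots.Nodup := nodup_roots hsep
  have hcard' : R.roots.toFinset.card = R.natDegree := by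
    rw [Multiset.toFinset_card_of_nodup hnodup, hcard]
  have h1 : 1 < R.roots.toFinset.card := by rw [hcard', hRdeg]; omega
  obtain ⟨y, hy, hy0⟩ := Finset.exists_mem_ne h1 0
  refine ⟨y, hy0, ?_⟩
  have hyr : y ∈ R.roots := Multiset.mem_toFinset.mp hy
  have := (mem_roots'.mp hyr).2
  rw [IsRoot.def, hR, eval_sub, eval_X, sub_eq_zero] at this
  exact this

end Lang

section Main

variable {k V : Type*} [Field k] [IsAlgClosed k] [AddCommGroup V] [Module k V]
  [FiniteDimensional k V]

omit [IsAlgClosed k] in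
/-- in a finite dimensional space some `T^n v₀` is a combination of the earlier ones -/
theorem s15red_exists_dep (u : ℕ → V) :
    ∃ n : ℕ, u n ∈ Submodule.span k (Set.range fun i : Fin n => u i) := by
  by_contra hcon
  rw [not_exists] at hcon
  have hli : ∀ n : ℕ, LinearIndependent k (fun i : Fin n => u i) := by
    intro n
    induction n with
    | zero => exact linearIndependent_empty_type
    | succ n ih =>
      rw [linearIndependent_finSucc']
      exact ⟨ih, hcon n⟩
  have := (hli (Module.finrank k V + 1)).fintype_card_le_finrank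
  rw [Fintype.card_fin] at this
  omega

/-- **Lang's lemma**: an injective `q`-semilinear endomorphism of a non-zero finite dimensional
vector space over an algebraically closed field in which `q = 0` has a non-zero fixed vector. -/
theorem s15red_lang (q : ℕ) (hq2 : 2 ≤ q) (hq : (q : k) = 0) (T : V →+ V)
    (hT : ∀ (a : k) (v : V), T (a • v) = a ^ q • T v) (hinj : Function.Injective T)
    (v₀ : V) (hv₀ : v₀ ≠ 0) : ∃ v : V, v ≠ 0 ∧ T v = v := by
  classical
  set u : ℕ → V := fun i => T^[i] v₀ with hu
  have hus : ∀ i, u (i + 1) = T (u i) := fun i => Function.iterate_succ_apply' T i v₀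
  have hex := s15red_exists_dep (k := k) u
  set n := Nat.find hex with hn
  have hspec := Nat.find_spec hex
  rw [← hn] at hspec
  -- `n ≥ 1`
  have hn0 : n ≠ 0 := by
    intro h0
    rw [h0] at hspec
    have : (Set.range fun i : Fin 0 => u i) = ∅ := Set.range_eq_empty _
    rw [this, Submodule.span_empty, Submodule.mem_bot] at hspec
    exact hv₀ hspec
  obtain ⟨m, hm⟩ : ∃ m, n = m + 1 := ⟨n - 1, by omega⟩
  have hmin : u m ∉ Submodule.span k (Set.range fun i : Fin m => u i) :=
    Nat.find_min hex (by omega)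
  -- the coefficients
  rw [Submodule.mem_span_range_iff_exists_fun] at hspec
  obtain ⟨c₀, hc₀⟩ := hspec
  set c : ℕ → k := fun j => if h : j < n then c₀ ⟨j, h⟩ else 0 with hc
  have hsum : ∑ j ∈ Finset.range n, c j • u j = u n := by
    rw [← hc₀, ← Fin.sum_univ_eq_sum_range (fun j => c j • u j) n]
    refine Finset.sum_congr rfl fun i _ => ?_
    rw [hc]
    simp only [i.isLt, dite_true, Fin.eta]
  have hune : u n ≠ 0 := by
    intro h
    have : T^[n] v₀ = T^[n] 0 := by
      rw [iterate_map_zero]
      exact h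
    exact hv₀ ((hinj.iterate n) this)
  have hcne : ∃ j, j ≤ m ∧ c j ≠ 0 := by
    by_contra hall
    apply hune
    rw [← hsum]
    refine Finset.sum_eq_zero fun j hj => ?_
    have hj' : c j = 0 := by
      by_contra hcj
      exact hall ⟨j, by have := Finset.mem_range.mp hj; omega, hcj⟩
    rw [hj', zero_smul]
  -- the polynomial
  set P := s15red_langPoly q c m with hP
  have hPne : P ≠ 0 := (s15red_langPoly_natDegree q hq2 c m).2 hcne
  have hPdeg : 2 ≤ P.natDegree :=
    hq2.trans ((s15red_langPoly_natDegree q hq2 c m).1.resolve_left hPne)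
  obtain ⟨y, hy0, hy⟩ := s15red_exists_fixed P (s15red_langPoly_derivative q hq c m) hPdeg
  set x : ℕ → k := fun i => (s15red_langPoly q c i).eval y with hx
  have hx0 : x 0 = c 0 * y ^ q := by
    simp [hx, s15red_langPoly_zero]
  have hxs : ∀ i, x (i + 1) = x i ^ q + c (i + 1) * y ^ q := by
    intro i
    simp [hx, s15red_langPoly_succ]
  have hxm : x m = y := hy
  -- the fixed vector
  refine ⟨∑ i ∈ Finset.range (m + 1), x i • u i, ?_, ?_⟩
  · intro hw
    rw [Finset.sum_range_succ, hxm] at hw
    apply hmin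
    have hum : u m = -(y⁻¹ • ∑ i ∈ Finset.range m, x i • u i) := by
      have h1 : y • u m = -∑ i ∈ Finset.range m, x i • u i := by
        rw [eq_neg_iff_add_eq_zero, add_comm]
        exact hw
      rw [← smul_neg, ← h1, smul_smul, inv_mul_cancel₀ hy0, one_smul]
    rw [hum]
    refine Submodule.neg_mem _ (Submodule.smul_mem _ _ (Submodule.sum_mem _ fun i hi => ?_))
    exact Submodule.smul_mem _ _
      (Submodule.subset_span ⟨⟨i, Finset.mem_range.mp hi⟩, rfl⟩)
  · rw [map_sum]
    have h1 : ∀ i ∈ Finset.range (m + 1), T (x i • u i) = x i ^ q • u (i + 1) := by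
      intro i _
      rw [hT, hus]
    rw [Finset.sum_congr rfl h1, Finset.sum_range_succ, hxm, ← hm, ← hsum, hm,
      Finset.sum_range_succ' (fun i => x i • u i), Finset.sum_range_succ' (fun i => c i • u i),
      smul_add, Finset.smul_sum, ← add_assoc, ← Finset.sum_add_distrib, hx0]
    congr 1
    · refine Finset.sum_congr rfl fun i _ => ?_
      rw [hxs, add_smul, smul_smul, mul_comm]
    · rw [smul_smul, mul_comm]

end Main

end Fermat.Agent.S15


end ZBZ2S15_033_0

/-! ### bundled: `Fermat.Agent.S15.RedFin` -/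
section ZBZ2S15_033_1

/-!
# S15 block RED, piece FINRED — abstract part: finitely many Frobenius-fixed divisor classes

`k` algebraically closed, `F/k` a function field in the prelude's language (residue fields `k`,
principal divisors, Riemann's inequality with genus `g`), `Fr` a semilinear automorphism of `F/k`
with `Fr a = a ^ q` on `k` (`q ≥ 2`, `q = 0` in `k`), `t ∈ F` with `Fr t = t` having a pole.

* `s15red_fixed_places_finite` : finitely many places are fixed by `σ` (`σ a = a ^ Q`, `σ t = t`).
* `s15red_fixed_eff_finite` : finitely many effective divisors of degree `d` are fixed by `Fr`.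
* `s15red_exists_fixed_eff` : a `Fr`-fixed class of degree `0` is `[E - D₀]` with `E ≥ 0` fixed by
  `Fr`, for every `Fr`-fixed divisor `D₀` of degree `≥ g` (Lang's lemma on `L(D + D₀)`).
* `s15red_fixed_classes_finite` : `{c : Pic0 k F | Fr • c = c}` is finite.
-/

set_option autoImplicit false

open AlgebraicCurve Module

namespace Fermat.Agent.S15

open Fermat.Agent.ES.R Fermat.Agent.S24 Fermat.Agent.W1

section Places

variable {k F : Type*} [Field k] [Field F] [Algebra k F]

/-- a function with a pole is not constant -/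
theorem s15red_sub_ne_zero {t : F} (hpole : ∃ P : Place k F, P.ord t < 0) (a : k) :
    t - algebraMap k F a ≠ 0 := by
  intro h
  obtain ⟨P, hP⟩ := hpole
  rw [sub_eq_zero.mp h, PlaceAux.ord_algebraMap] at hP
  exact lt_irrefl _ hP

theorem s15red_ne_zero {t : F} (hpole : ∃ P : Place k F, P.ord t < 0) : t ≠ 0 := by
  have := s15red_sub_ne_zero hpole 0
  rwa [map_zero, sub_zero] at this

/-- the value of `t` at a place which is not a pole -/
theorem s15red_exists_value
    (hres : ∀ v : Place k F, Function.Bijective (algebraMap k v.ResidueField))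
    {t : F} (hpole : ∃ P : Place k F, P.ord t < 0) (P : Place k F) (hPt : 0 ≤ P.ord t) :
    ∃ a : k, 0 < P.ord (t - algebraMap k F a) := by
  have ht0 := s15red_ne_zero hpole
  rcases hPt.lt_or_eq with h | h
  · exact ⟨0, by rwa [map_zero, sub_zero]⟩
  · obtain ⟨c, hc⟩ := exists_sub_smul_ord_gt P (hres P) (f := t) (g := 1) ht0 one_ne_zero
      (by rw [Place.ord_one]; exact h.symm)
    rw [← Algebra.algebraMap_eq_smul_one, Place.ord_one] at hc
    exact ⟨c, hc.resolve_left (s15red_sub_ne_zero hpole c)⟩

/-- the value of a `σ`-fixed function at a `σ`-fixed place is fixed by the base automorphism -/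
theorem s15red_value_of_fixed
    (hres : ∀ v : Place k F, Function.Bijective (algebraMap k v.ResidueField))
    (σ : SemilinearAut k F) (Q : ℕ) (hσ : ∀ a : k, SemilinearAut.baseAut σ a = a ^ Q)
    {t : F} (ht : σ • t = t) (hpole : ∃ P : Place k F, P.ord t < 0)
    (P : Place k F) (hP : σ • P = P) (hPt : 0 ≤ P.ord t) :
    ∃ a : k, a ^ Q = a ∧ 0 < P.ord (t - algebraMap k F a) := by
  obtain ⟨a, ha⟩ := s15red_exists_value hres hpole P hPt
  refine ⟨a, ?_, ha⟩
  have h1 : 0 < P.ord (t - algebraMap k F (a ^ Q)) := by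
    have h2 := SemilinearAut.ord_smul σ P (t - algebraMap k F a)
    rw [hP, smul_sub, ht, SemilinearAut.smul_algebraMap, hσ] at h2
    rw [h2]
    exact ha
  by_contra hne
  have hc : algebraMap k F (a ^ Q - a) ≠ 0 := by
    rw [Ne, map_eq_zero, sub_eq_zero]
    exact hne
  have hsum : (t - algebraMap k F a) + -(t - algebraMap k F (a ^ Q)) =
      algebraMap k F (a ^ Q - a) := by
    rw [map_sub]; ring
  have h3 := PlaceAux.le_ord_add P (s15red_sub_ne_zero hpole a)
    (neg_ne_zero.mpr (s15red_sub_ne_zero hpole (a ^ Q))) (by rw [hsum]; exact hc)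
  rw [hsum, PlaceAux.ord_algebraMap, PlaceAux.ord_neg] at h3
  rcases min_le_iff.mp h3 with h | h <;> omega

/-- the fixed points of `a ↦ a ^ Q` form a finite set -/
theorem s15red_pow_fixed_finite (Q : ℕ) (hQ : 2 ≤ Q) : {a : k | a ^ Q = a}.Finite := by
  classical
  have hne : (Polynomial.X ^ Q - Polynomial.X : Polynomial k) ≠ 0 := by
    intro h
    have h1 := congrArg Polynomial.natDegree h
    rw [Polynomial.natDegree_sub_eq_left_of_natDegree_lt (by
      rw [Polynomial.natDegree_X_pow, Polynomial.natDegree_X]; omega),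
      Polynomial.natDegree_X_pow, Polynomial.natDegree_zero] at h1
    omega
  refine Set.Finite.subset (Polynomial.X ^ Q - Polynomial.X : Polynomial k).roots.toFinset.finite_toSet
    fun a ha => ?_
  rw [Finset.mem_coe, Multiset.mem_toFinset, Polynomial.mem_roots hne, Polynomial.IsRoot.def,
    Polynomial.eval_sub, Polynomial.eval_pow, Polynomial.eval_X, sub_eq_zero]
  exact ha

/-- **finitely many fixed places** -/
theorem s15red_fixed_places_finite [hpd : HasPrincipalDivisors k F]
    (hres : ∀ v : Place k F, Function.Bijective (algebraMap k v.ResidueField))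
    (σ : SemilinearAut k F) (Q : ℕ) (hQ : 2 ≤ Q)
    (hσ : ∀ a : k, SemilinearAut.baseAut σ a = a ^ Q)
    {t : F} (ht : σ • t = t) (hpole : ∃ P : Place k F, P.ord t < 0) :
    {P : Place k F | σ • P = P}.Finite := by
  classical
  choose D hD _ using fun a : k => hpd.exists_divisor (t - algebraMap k F a)
    (s15red_sub_ne_zero hpole a)
  have hfin : ((D 0).support ∪ ⋃ a ∈ {a : k | a ^ Q = a}, ((D a).support : Set (Place k F)) :
      Set (Place k F)).Finite :=
    Set.Finite.union (Finset.finite_toSet _)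
      (Set.Finite.biUnion (s15red_pow_fixed_finite Q hQ) fun a _ => Finset.finite_toSet _)
  refine hfin.subset fun P hP => ?_
  by_cases hPt : 0 ≤ P.ord t
  · obtain ⟨a, haQ, ha⟩ := s15red_value_of_fixed hres σ Q hσ ht hpole P hP hPt
    right
    rw [Set.mem_iUnion₂]
    refine ⟨a, haQ, ?_⟩
    rw [Finset.mem_coe, Finsupp.mem_support_iff, hD a P]
    omega
  · left
    rw [Finset.mem_coe, Finsupp.mem_support_iff, hD 0 P, map_zero, sub_zero]
    omega

end Places

section Eff

variable {k F : Type*} [Field k] [Field F] [Algebra k F]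

theorem s15red_baseAut_pow (Fr : SemilinearAut k F) (q : ℕ)
    (hFr : ∀ a : k, SemilinearAut.baseAut Fr a = a ^ q) (M : ℕ) (a : k) :
    SemilinearAut.baseAut (Fr ^ M) a = a ^ (q ^ M) := by
  induction M generalizing a with
  | zero =>
    rw [pow_zero, pow_zero, pow_one]
    rfl
  | succ M ih =>
    have h1 : SemilinearAut.baseAut (Fr ^ (M + 1)) a =
        SemilinearAut.baseAut (Fr ^ M) (SemilinearAut.baseAut Fr a) := by
      rw [pow_succ]
      rfl
    rw [h1, hFr, ih, ← pow_mul, pow_succ']

theorem s15red_pow_smul_eq {G α : Type*} [Group G] [MulAction G α] (g : G) (x : α)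
    (h : g • x = x) (n : ℕ) : g ^ n • x = x :=
  MulAction.mem_stabilizer_iff.mp
    (Subgroup.pow_mem _ (MulAction.mem_stabilizer_iff.mpr h) n)

/-- the support of a `Fr`-fixed divisor is `Fr`-stable -/
theorem s15red_smul_mem_support (Fr : SemilinearAut k F) {E : Divisor k F} (hE : Fr • E = E)
    {P : Place k F} (hP : P ∈ E.support) (i : ℕ) : Fr ^ i • P ∈ E.support := by
  induction i with
  | zero => rwa [pow_zero, one_smul]
  | succ i ih =>
    rw [pow_succ', mul_smul, Finsupp.mem_support_iff, ← hE,
      SemilinearAut.divisor_smul_apply_smul, ← Finsupp.mem_support_iff]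
    exact ih

/-- a place in the support of a `Fr`-fixed divisor with at most `d` points is fixed by
`Fr ^ d!` -/
theorem s15red_pow_factorial_smul (Fr : SemilinearAut k F) {E : Divisor k F} (hE : Fr • E = E)
    (d : ℕ) (hcard : E.support.card ≤ d) {P : Place k F} (hP : P ∈ E.support) :
    Fr ^ d.factorial • P = P := by
  classical
  have hlt : E.support.card < (Finset.range (d + 1)).card := by
    rw [Finset.card_range]; omega
  obtain ⟨i, hi, j, hj, hij, hfij⟩ := Finset.exists_ne_map_eq_of_card_lt_of_maps_to hlt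
    (f := fun i : ℕ => Fr ^ i • P) (fun i _ => s15red_smul_mem_support Fr hE hP i)
  have key : ∀ i j : ℕ, i < j → j < d + 1 → Fr ^ i • P = Fr ^ j • P →
      Fr ^ d.factorial • P = P := by
    intro i j hlt hjd hfij
    have h1 : Fr ^ (j - i) • P = P := by
      have h2 : Fr ^ j = Fr ^ i * Fr ^ (j - i) := by
        rw [← pow_add]; congr 1; omega
      rw [h2, mul_smul] at hfij
      exact (MulAction.injective (Fr ^ i) hfij).symm
    obtain ⟨e, he⟩ : (j - i) ∣ d.factorial := Nat.dvd_factorial (by omega) (by omega)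
    rw [he, pow_mul]
    exact s15red_pow_smul_eq _ _ h1 e
  rw [Finset.mem_range] at hi hj
  rcases Nat.lt_or_gt_of_ne hij with h | h
  · exact key i j h hj hfij
  · exact key j i h hi hfij.symm

theorem s15red_card_support_le
    (hres : ∀ v : Place k F, Function.Bijective (algebraMap k v.ResidueField))
    {E : Divisor k F} (hE0 : 0 ≤ E) (d : ℕ) (hEd : Divisor.degree E = d) :
    E.support.card ≤ d := by
  classical
  have h1 : gpSum E.support ≤ E := by
    rw [Finsupp.le_def]
    intro v
    have h0 : (0 : ℤ) ≤ E v := by simpa using Finsupp.le_def.mp hE0 v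
    by_cases hv : v ∈ E.support
    · rw [gpSum_apply_of_mem hv]
      have := Finsupp.mem_support_iff.mp hv
      omega
    · rw [gpSum_apply_of_not_mem hv]
      exact h0
  have h2 := degree_mono h1
  rw [degree_gpSum hres, hEd] at h2
  exact_mod_cast h2

theorem s15red_apply_le
    (hres : ∀ v : Place k F, Function.Bijective (algebraMap k v.ResidueField))
    {E : Divisor k F} (hE0 : 0 ≤ E) (d : ℕ) (hEd : Divisor.degree E = d) (P : Place k F) :
    E P ≤ d := by
  classical
  have h1 : Finsupp.single P (E P) ≤ E := by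
    rw [Finsupp.le_def]
    intro v
    have h0 : (0 : ℤ) ≤ E v := by simpa using Finsupp.le_def.mp hE0 v
    by_cases hv : v = P
    · rw [hv, Finsupp.single_eq_same]
    · rw [Finsupp.single_eq_of_ne hv]
      exact h0
  have h2 := degree_mono h1
  rw [Divisor.degree_single, place_deg_eq_one P (hres P), hEd] at h2
  simpa using h2

/-- **finitely many `Fr`-fixed effective divisors of given degree** -/
theorem s15red_fixed_eff_finite [HasPrincipalDivisors k F]
    (hres : ∀ v : Place k F, Function.Bijective (algebraMap k v.ResidueField))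
    (Fr : SemilinearAut k F) (q : ℕ) (hq : 2 ≤ q)
    (hFr : ∀ a : k, SemilinearAut.baseAut Fr a = a ^ q)
    {t : F} (ht : Fr • t = t) (hpole : ∃ P : Place k F, P.ord t < 0) (d : ℕ) :
    {E : Divisor k F | 0 ≤ E ∧ Divisor.degree E = d ∧ Fr • E = E}.Finite := by
  classical
  have hQ : 2 ≤ q ^ d.factorial :=
    hq.trans (Nat.le_self_pow (Nat.factorial_ne_zero d) q)
  have hS := s15red_fixed_places_finite hres (Fr ^ d.factorial) (q ^ d.factorial) hQ
    (s15red_baseAut_pow Fr q hFr _) (s15red_pow_smul_eq Fr t ht _) hpole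
  refine Set.Finite.subset
    (Finset.finite_toSet (Finset.finsupp hS.toFinset (fun _ => Finset.Icc (0 : ℤ) d))) ?_
  rintro E ⟨hE0, hEd, hEF⟩
  rw [Finset.mem_coe, Finset.mem_finsupp_iff]
  refine ⟨fun P hP => ?_, fun P _ => ?_⟩
  · rw [Set.Finite.mem_toFinset]
    exact s15red_pow_factorial_smul Fr hEF d (s15red_card_support_le hres hE0 d hEd) hP
  · rw [Finset.mem_Icc]
    exact ⟨by simpa using Finsupp.le_def.mp hE0 P, s15red_apply_le hres hE0 d hEd P⟩

end Eff

section Classes

variable {k F : Type*} [Field k] [Field F] [Algebra k F]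

/-- the twisted Frobenius `f ↦ Fr f * h` preserves `L(D + D₀)` if `Fr D - D = div h` and
`Fr D₀ = D₀` -/
theorem s15red_twist_mem (Fr : SemilinearAut k F) {D D₀ : Divisor k F} (hD₀ : Fr • D₀ = D₀)
    {h : F} (hh0 : h ≠ 0) (hh : ∀ v : Place k F, (Fr • D - D) v = v.ord h)
    {f : F} (hf : f ∈ riemannRochSpace (D + D₀)) :
    Fr • f * h ∈ riemannRochSpace (D + D₀) := by
  rw [mem_riemannRochSpace_iff] at hf ⊢
  intro v
  by_cases hf0 : f = 0
  · left; rw [hf0, smul_zero, zero_mul]
  right
  have hFf : Fr • f ≠ 0 := by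
    intro h0
    exact hf0 ((smul_eq_zero_iff_eq Fr).mp h0)
  rw [Place.ord_mul _ hFf hh0, ← hh v, Finsupp.sub_apply, SemilinearAut.divisor_smul_apply]
  have h1 : v.ord (Fr • f) = (Fr⁻¹ • v).ord f := by
    have := SemilinearAut.ord_smul Fr (Fr⁻¹ • v) f
    rwa [smul_inv_smul] at this
  have h2 : D₀ (Fr⁻¹ • v) = D₀ v := by
    rw [← SemilinearAut.divisor_smul_apply, hD₀]
  have h3 := (hf (Fr⁻¹ • v)).resolve_left hf0
  rw [Finsupp.add_apply, h2] at h3
  rw [h1, Finsupp.add_apply]
  omega

/-- **a fixed class contains a fixed effective divisor** (up to the fixed divisor `D₀`) -/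
theorem s15red_exists_fixed_eff [IsAlgClosed k] [hpd : HasPrincipalDivisors k F]
    (hres : ∀ v : Place k F, Function.Bijective (algebraMap k v.ResidueField))
    (v₀ : Place k F) (g : ℕ) (hlow : GPRiemannLower k F g)
    (Fr : SemilinearAut k F) (q : ℕ) (hq2 : 2 ≤ q) (hq : (q : k) = 0)
    (hFr : ∀ a : k, SemilinearAut.baseAut Fr a = a ^ q)
    (D₀ : Divisor k F) (hD₀ : Fr • D₀ = D₀) (hdeg : (g : ℤ) ≤ Divisor.degree D₀)
    (c : Pic0 k F) (hc : Fr • c = c) :
    ∃ E : Divisor k F, 0 ≤ E ∧ Fr • E = E ∧ Divisor.degree E = Divisor.degree D₀ ∧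
      ∃ h : E - D₀ ∈ Divisor.degZero (K := k) (F := F), Pic0.mk ⟨E - D₀, h⟩ = c := by
  classical
  obtain ⟨D, rfl⟩ := Pic0.mk_surjective c
  -- `Fr D - D = div h`
  have hprin : Fr • (D : Divisor k F) - D ∈ Divisor.principal (K := k) (F := F) := by
    rw [SemilinearAut.pic0_smul_mk] at hc
    have h1 := QuotientAddGroup.eq.mp hc
    rw [AddSubgroup.mem_addSubgroupOf] at h1
    have h2 := AddSubgroup.neg_mem _ h1
    rw [AddSubgroup.coe_add, AddSubgroup.coe_neg, SemilinearAut.coe_degZeroSMulHom, neg_add,
      neg_neg, ← sub_eq_add_neg] at h2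
    exact h2
  obtain ⟨h, hh0, hh⟩ := hprin
  have hdegD : Divisor.degree (D : Divisor k F) = 0 := Divisor.mem_degZero.mp D.2
  -- `L(D + D₀) ≠ 0`
  have : Module.Finite k ↥(riemannRochSpace ((D : Divisor k F) + D₀)) := rr_finite v₀ hres _
  have hpos : 0 < finrank k ↥(riemannRochSpace ((D : Divisor k F) + D₀)) := by
    have := hlow ((D : Divisor k F) + D₀)
    rw [map_add, hdegD] at this
    omega
  obtain ⟨f₀, hf₀⟩ := Module.finrank_pos_iff_exists_ne_zero.mp hpos
  -- the twisted Frobenius
  let T : ↥(riemannRochSpace ((D : Divisor k F) + D₀)) →+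
      ↥(riemannRochSpace ((D : Divisor k F) + D₀)) :=
    { toFun := fun f => ⟨Fr • (f : F) * h, s15red_twist_mem Fr hD₀ hh0 hh f.2⟩
      map_zero' := by
        apply Subtype.ext
        show Fr • ((0 : ↥(riemannRochSpace ((D : Divisor k F) + D₀))) : F) * h = 0
        rw [Submodule.coe_zero, smul_zero, zero_mul]
      map_add' := by
        intro x y
        apply Subtype.ext
        show Fr • ((x + y : ↥(riemannRochSpace ((D : Divisor k F) + D₀))) : F) * h
          = Fr • (x : F) * h + Fr • (y : F) * h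
        rw [Submodule.coe_add, smul_add, add_mul] }
  have hTapp : ∀ f : ↥(riemannRochSpace ((D : Divisor k F) + D₀)),
      ((T f : ↥(riemannRochSpace ((D : Divisor k F) + D₀))) : F) = Fr • (f : F) * h :=
    fun _ => rfl
  have hT : ∀ (a : k) (f : ↥(riemannRochSpace ((D : Divisor k F) + D₀))),
      T (a • f) = a ^ q • T f := by
    intro a f
    apply Subtype.ext
    rw [hTapp, Submodule.coe_smul, Submodule.coe_smul, hTapp, Algebra.smul_def, Algebra.smul_def,
      smul_mul', SemilinearAut.smul_algebraMap, hFr, mul_assoc]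
  have hinj : Function.Injective T := by
    intro x y hxy
    have h1 := congrArg Subtype.val hxy
    rw [hTapp, hTapp] at h1
    have h2 := mul_right_cancel₀ hh0 h1
    exact Subtype.ext (MulAction.injective Fr h2)
  obtain ⟨f, hf0, hTf⟩ := s15red_lang q hq2 hq T hT hinj f₀ hf₀
  have hf0' : (f : F) ≠ 0 := fun h0 => hf0 (Subtype.ext h0)
  have hfix : Fr • (f : F) * h = (f : F) := by
    rw [← hTapp, hTf]
  have hFf : Fr • (f : F) ≠ 0 := fun h0 => hf0' ((smul_eq_zero_iff_eq Fr).mp h0)
  obtain ⟨Df, hDf, hDfdeg⟩ := hpd.exists_divisor (f : F) hf0'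
  have hfmem := mem_riemannRochSpace_iff.mp f.2
  have hD₀app : ∀ v : Place k F, D₀ (Fr⁻¹ • v) = D₀ v := by
    intro v
    rw [← SemilinearAut.divisor_smul_apply, hD₀]
  refine ⟨(D : Divisor k F) + D₀ + Df, ?_, ?_, ?_, ?_, ?_⟩
  · rw [Finsupp.le_def]
    intro v
    have := (hfmem v).resolve_left hf0'
    rw [Finsupp.add_apply] at this
    rw [Finsupp.add_apply, Finsupp.add_apply, hDf v, Finsupp.coe_zero, Pi.zero_apply]
    omega
  · ext v
    rw [SemilinearAut.divisor_smul_apply, Finsupp.add_apply, Finsupp.add_apply,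
      Finsupp.add_apply, Finsupp.add_apply, hDf, hDf, hD₀app]
    have h1 : v.ord (Fr • (f : F)) = (Fr⁻¹ • v).ord (f : F) := by
      have := SemilinearAut.ord_smul Fr (Fr⁻¹ • v) (f : F)
      rwa [smul_inv_smul] at this
    have h2 : v.ord (f : F) = v.ord (Fr • (f : F)) + v.ord h := by
      conv_lhs => rw [← hfix]
      exact Place.ord_mul _ hFf hh0
    have h3 := hh v
    rw [Finsupp.sub_apply, SemilinearAut.divisor_smul_apply] at h3
    rw [h2, h1, ← h3]
    ring
  · rw [map_add, map_add, hdegD, hDfdeg, zero_add, add_zero]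
  · rw [Divisor.mem_degZero, map_sub, map_add, map_add, hdegD, hDfdeg]
    ring
  · apply QuotientAddGroup.eq.mpr
    rw [AddSubgroup.mem_addSubgroupOf, AddSubgroup.coe_add, AddSubgroup.coe_neg]
    have h1 : -((D : Divisor k F) + D₀ + Df - D₀) + (D : Divisor k F) = -Df := by abel
    show -((D : Divisor k F) + D₀ + Df - D₀) + (D : Divisor k F) ∈ _
    rw [h1]
    exact AddSubgroup.neg_mem _ ⟨(f : F), hf0', hDf⟩

/-- **FINRED, abstract form**: the group of divisor classes of degree `0` fixed by a Frobenius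
is finite. -/
theorem s15red_fixed_classes_finite [IsAlgClosed k] [hpd : HasPrincipalDivisors k F]
    (hres : ∀ v : Place k F, Function.Bijective (algebraMap k v.ResidueField))
    (g : ℕ) (hlow : GPRiemannLower k F g)
    (Fr : SemilinearAut k F) (q : ℕ) (hq2 : 2 ≤ q) (hq : (q : k) = 0)
    (hFr : ∀ a : k, SemilinearAut.baseAut Fr a = a ^ q)
    {t : F} (ht : Fr • t = t) (hpole : ∃ P : Place k F, P.ord t < 0) :
    {c : Pic0 k F | Fr • c = c}.Finite := by
  classical
  obtain ⟨v₀, hv₀⟩ := hpole
  have hpole : ∃ P : Place k F, P.ord t < 0 := ⟨v₀, hv₀⟩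
  obtain ⟨Dt, hDt, -⟩ := hpd.exists_divisor t (s15red_ne_zero hpole)
  -- the poles of `t`
  set S : Finset (Place k F) := Dt.support.filter fun P => P.ord t < 0 with hS
  have hmemS : ∀ P : Place k F, P ∈ S ↔ P.ord t < 0 := by
    intro P
    rw [hS, Finset.mem_filter, Finsupp.mem_support_iff, hDt P]
    constructor
    · exact fun h => h.2
    · exact fun h => ⟨by omega, h⟩
  have hFt : Fr⁻¹ • t = t := by
    conv_lhs => rw [← ht]
    exact inv_smul_smul Fr t
  have hSinv : ∀ P : Place k F, Fr⁻¹ • P ∈ S ↔ P ∈ S := by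
    intro P
    rw [hmemS, hmemS]
    have := SemilinearAut.ord_smul Fr⁻¹ P t
    rw [hFt] at this
    rw [this]
  have hScard : 1 ≤ S.card := Finset.card_pos.mpr ⟨v₀, (hmemS v₀).mpr hv₀⟩
  set D₀ : Divisor k F := g • gpSum S with hD₀def
  have hD₀ : Fr • D₀ = D₀ := by
    ext v
    rw [SemilinearAut.divisor_smul_apply, hD₀def, Finsupp.smul_apply, Finsupp.smul_apply]
    by_cases hv : v ∈ S
    · rw [gpSum_apply_of_mem hv, gpSum_apply_of_mem ((hSinv v).mpr hv)]
    · rw [gpSum_apply_of_not_mem hv, gpSum_apply_of_not_mem (fun h => hv ((hSinv v).mp h))]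
  have hdegD₀ : Divisor.degree D₀ = ((g * S.card : ℕ) : ℤ) := by
    rw [hD₀def, map_nsmul, degree_gpSum hres]
    push_cast
    rw [nsmul_eq_mul]
  have hdeg : (g : ℤ) ≤ Divisor.degree D₀ := by
    rw [hdegD₀]
    have : g * 1 ≤ g * S.card := Nat.mul_le_mul_left g hScard
    exact_mod_cast (by omega : g ≤ g * S.card)
  have hfin := s15red_fixed_eff_finite hres Fr q hq2 hFr ht hpole (g * S.card)
  let Φ : Divisor k F → Pic0 k F := fun E =>
    if h : E - D₀ ∈ Divisor.degZero (K := k) (F := F) then Pic0.mk ⟨E - D₀, h⟩ else 0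
  refine (hfin.image Φ).subset fun c hc => ?_
  obtain ⟨E, hE0, hEF, hEdeg, h, hEc⟩ :=
    s15red_exists_fixed_eff hres v₀ g hlow Fr q hq2 hq hFr D₀ hD₀ hdeg c hc
  refine ⟨E, ⟨hE0, hEdeg.trans hdegD₀, hEF⟩, ?_⟩
  show (if h : E - D₀ ∈ Divisor.degZero (K := k) (F := F) then Pic0.mk ⟨E - D₀, h⟩ else 0) = c
  rw [dif_pos h]
  exact hEc

end Classes

end Fermat.Agent.S15


end ZBZ2S15_033_1
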