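/- GENERATED FILE (helper35, build-time optimisation, NOTES/ZB.md): verbatim concatenation of the modules
   Fermat.Agent.S15.Glue
   Fermat.Agent.S15.LocDivGroup
   Fermat.Agent.S15.FinRedInst
   Do not edit; do not import together with these modules. -/
import Mathlib
import Fermat.Agent.ZB.Z2S15_033
import Fermat.Agent.ZB.INJ_016
import Fermat.Agent.ZB.S18_003
import Fermat.Agent.ZB.DEU_005
import Fermat.Agent.ZB.W1_002
import Fermat.Agent.ZB.Common_003

/-! ### bundled: `Fermat.Agent.S15.Glue` -/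
section ZBZ2S15_001_0

/-!
# S15, piece GLUE (abstract): the endgame of Mazur's Step 3 as pure group theory

`J` an abelian group with an action of a group `G`; `Dv`, `Dl` two subgroups of `G`
(decomposition groups at a place over `v ∈ {2,3}` and at a place over `ℓ`); `r` a prime.
`c = z - u`, `cr` a nonzero multiple of `c` killed by `r`.

Inputs:
* `LocDivAbs D r w`  : `w` is infinitely `r`-divisible among the `D`-fixed points;
* `TorsBddAbs D r`   : the `D`-fixed `r`-power torsion has bounded exponent;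
* `FinAbs r cr w`    : the output of the Eisenstein descent (NOTES/S15-route.md, F5): there is `t`
  such that for every `k` some `G`-equivariant endomorphism `E` with `E cr = cr` and some
  `G`-fixed `m` satisfy `r ^ t • (E w - r ^ k • m) = 0`.

`glue_abstract` : `LocDiv` for `u` at `Dv` and for `z` at `Dl`, `TorsBdd` at both, and `FinAbs` for
`u` or for `z` are contradictory.
-/

set_option autoImplicit false

namespace Fermat.Agent.S15

variable {J : Type*} [AddCommGroup J] {G : Type*} [Group G] [DistribMulAction G J]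

/-- `w` is infinitely `r`-divisible among the points fixed by `D`. -/
def LocDivAbs (D : Subgroup G) (r : ℕ) (w : J) : Prop :=
  ∀ k : ℕ, ∃ y : J, (∀ σ ∈ D, σ • y = y) ∧ r ^ k • y = w

/-- the `r`-power torsion fixed by `D` has bounded exponent -/
def TorsBddAbs (J : Type*) [AddCommGroup J] {G : Type*} [Group G] [DistribMulAction G J]
    (D : Subgroup G) (r : ℕ) : Prop :=
  ∃ k₀ : ℕ, ∀ y : J, (∀ σ ∈ D, σ • y = y) → (∃ n : ℕ, r ^ n • y = 0) → r ^ k₀ • y = 0

/-- the output of the descent for the rational point `w` -/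
def FinAbs (G : Type*) [Group G] {J : Type*} [AddCommGroup J] [DistribMulAction G J]
    (r : ℕ) (cr w : J) : Prop :=
  ∃ t : ℕ, ∀ k : ℕ, ∃ E : J →+ J, (∀ (σ : G) (x : J), E (σ • x) = σ • E x) ∧ E cr = cr ∧
    ∃ m : J, (∀ σ : G, σ • m = m) ∧ r ^ t • (E w - r ^ k • m) = 0

theorem pow_smul_eq_zero_of_le {r k₀ k : ℕ} (h : k₀ ≤ k) {y : J} (hy : r ^ k₀ • y = 0) :
    r ^ k • y = 0 := by
  obtain ⟨d, rfl⟩ := Nat.exists_eq_add_of_le h
  rw [pow_add, mul_comm, mul_smul, hy, smul_zero]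

/-- one half of the glue: descent output for `w₁`, local divisibility of `w₁` at `D₁` and of
`w₂` at `D₂`, and `cr = ± a • (w₂ - w₁)`. -/
theorem glue_half (D₁ D₂ : Subgroup G) (r : ℕ) (w₁ w₂ cr : J) (a : ℤ)
    (hcr : cr = a • (w₂ - w₁)) (hcr0 : cr ≠ 0) (hrcr : r • cr = 0)
    (h₁ : LocDivAbs D₁ r w₁) (h₂ : LocDivAbs D₂ r w₂)
    (hY₁ : TorsBddAbs J D₁ r) (hY₂ : TorsBddAbs J D₂ r)
    (hfin : FinAbs G r cr w₁) : False := by
  obtain ⟨t, ht⟩ := hfin
  obtain ⟨k₁, hk₁⟩ := hY₁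
  obtain ⟨k₂, hk₂⟩ := hY₂
  set k := max k₁ k₂ with hk
  obtain ⟨E, hE, hEcr, m, hm, hτ⟩ := ht k
  obtain ⟨y₁, hy₁, hy₁w⟩ := h₁ k
  obtain ⟨y₂, hy₂, hy₂w⟩ := h₂ k
  -- `E w₁ = r ^ k • m`
  have hEw₁ : E w₁ = r ^ k • E y₁ := by rw [← hy₁w, map_nsmul]
  have hfix₁ : ∀ σ ∈ D₁, σ • (E y₁ - m) = E y₁ - m := by
    intro σ hσ
    rw [smul_sub, ← hE, hy₁ σ hσ, hm]
  have htors₁ : r ^ (t + k) • (E y₁ - m) = 0 := by
    rw [pow_add, mul_smul, smul_sub, ← hEw₁]
    exact hτ
  have hz₁ : r ^ k • (E y₁ - m) = 0 :=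
    pow_smul_eq_zero_of_le (le_max_left k₁ k₂) (hk₁ _ hfix₁ ⟨_, htors₁⟩)
  have hEw₁' : E w₁ = r ^ k • m := by
    rw [hEw₁]
    rw [smul_sub, sub_eq_zero] at hz₁
    exact hz₁
  -- `E w₂ = r ^ k • E y₂`
  have hEw₂ : E w₂ = r ^ k • E y₂ := by rw [← hy₂w, map_nsmul]
  have hEc : cr = r ^ k • (a • (E y₂ - m)) := by
    calc cr = E cr := hEcr.symm
      _ = a • (E w₂ - E w₁) := by rw [hcr, map_zsmul, map_sub]
      _ = a • (r ^ k • (E y₂ - m)) := by rw [hEw₂, hEw₁', ← smul_sub]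
      _ = r ^ k • (a • (E y₂ - m)) := by
          rw [← natCast_zsmul (a • (E y₂ - m)) (r ^ k), ← natCast_zsmul (E y₂ - m) (r ^ k),
            smul_smul, smul_smul, mul_comm]
  have hfix₂ : ∀ σ ∈ D₂, σ • (a • (E y₂ - m)) = a • (E y₂ - m) := by
    intro σ hσ
    rw [smul_comm, smul_sub, ← hE, hy₂ σ hσ, hm]
  have htors₂ : r ^ (k + 1) • (a • (E y₂ - m)) = 0 := by
    rw [pow_succ, mul_comm, mul_smul, ← hEc]
    exact hrcr
  have hz₂ : r ^ k • (a • (E y₂ - m)) = 0 :=
    pow_smul_eq_zero_of_le (le_max_right k₁ k₂) (hk₂ _ hfix₂ ⟨_, htors₂⟩)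
  exact hcr0 (hEc.trans hz₂)

/-- **GLUE (abstract)**. -/
theorem glue_abstract (Dv Dl : Subgroup G) (r : ℕ) (u z c cr : J) (a : ℕ)
    (hc : z - u = c) (hcr : cr = a • c) (hcr0 : cr ≠ 0) (hrcr : r • cr = 0)
    (hu : LocDivAbs Dv r u) (hz : LocDivAbs Dl r z)
    (hYv : TorsBddAbs J Dv r) (hYl : TorsBddAbs J Dl r)
    (hfin : FinAbs G r cr u ∨ FinAbs G r cr z) : False := by
  rcases hfin with h | h
  · refine glue_half Dv Dl r u z cr (a : ℤ) ?_ hcr0 hrcr hu hz hYv hYl h
    rw [hc, hcr, natCast_zsmul]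
  · refine glue_half Dl Dv r z u cr (-(a : ℤ)) ?_ hcr0 hrcr hz hu hYl hYv h
    rw [hcr, ← hc, neg_smul, natCast_zsmul, ← smul_neg, neg_sub]

end Fermat.Agent.S15


end ZBZ2S15_001_0

/-! ### bundled: `Fermat.Agent.S15.LocDivGroup` -/
section ZBZ2S15_001_1

/-!
# S15 / LOCDIV, abstract part 2: the group theory

`J`, `J'` abelian groups with an action of `G`, `D ≤ G`; `pull : J → J'`, `push : J' → J`
`D`-equivariant with `push ∘ pull = n`; `J1 ≤ J'` a `D`-stable subgroup which is `r`-divisible and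
has no `r`-torsion.  If `u ∈ J` is `D`-fixed with `pull u ∈ J1` and `r ∤ n`, then `u` is infinitely
`r`-divisible among the `D`-fixed points of `J` (`ld_locDivAbs`).
-/

set_option autoImplicit false

namespace Fermat.Agent.S15.LD

variable {J J' G : Type*} [AddCommGroup J] [AddCommGroup J'] [Group G] [DistribMulAction G J]
  [DistribMulAction G J']

/-- uniqueness of roots in `J1` makes them `D`-fixed -/
theorem ld_root_fixed (D : Subgroup G) (J1 : AddSubgroup J')
    (hstab : ∀ σ ∈ D, ∀ y ∈ J1, σ • y ∈ J1) (m : ℕ)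
    (htf : ∀ y ∈ J1, m • y = 0 → y = 0)
    (w z : J') (hw : ∀ σ ∈ D, σ • w = w) (hz : z ∈ J1) (hzw : m • z = w) :
    ∀ σ ∈ D, σ • z = z := by
  intro σ hσ
  have h1 : σ • z - z ∈ J1 := J1.sub_mem (hstab σ hσ z hz) hz
  have h2 : m • (σ • z - z) = 0 := by
    rw [smul_sub, smul_comm, hzw, hw σ hσ, sub_self]
  exact sub_eq_zero.mp (htf _ h1 h2)

/-- **LOCDIV, abstract.** -/
theorem ld_locDivAbs (D : Subgroup G) (r n : ℕ) (hrn : Nat.Coprime r n)
    (pull : J →+ J') (push : J' →+ J)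
    (hpull : ∀ σ ∈ D, ∀ x : J, pull (σ • x) = σ • pull x)
    (hpush : ∀ σ ∈ D, ∀ y : J', push (σ • y) = σ • push y)
    (hpp : ∀ x : J, push (pull x) = n • x)
    (J1 : AddSubgroup J') (hstab : ∀ σ ∈ D, ∀ y ∈ J1, σ • y ∈ J1)
    (hdiv : ∀ k : ℕ, ∀ y ∈ J1, ∃ z ∈ J1, r ^ k • z = y)
    (htf : ∀ k : ℕ, ∀ y ∈ J1, r ^ k • y = 0 → y = 0)
    (u : J) (hu : ∀ σ ∈ D, σ • u = u) (huJ : pull u ∈ J1) :
    LocDivAbs D r u := by
  intro k
  obtain ⟨z, hz, hzu⟩ := hdiv k (pull u) huJ
  have hzfix : ∀ σ ∈ D, σ • z = z :=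
    ld_root_fixed D J1 hstab (r ^ k) (htf k) (pull u) z
      (fun σ hσ => by rw [← hpull σ hσ, hu σ hσ]) hz hzu
  have hcop : IsCoprime ((r ^ k : ℕ) : ℤ) (n : ℤ) :=
    Nat.isCoprime_iff_coprime.mpr (Nat.Coprime.pow_left k hrn)
  obtain ⟨s, t, hst⟩ := hcop
  refine ⟨s • u + t • push z, ?_, ?_⟩
  · intro σ hσ
    rw [smul_add, smul_comm σ s u, smul_comm σ t (push z), hu σ hσ, ← hpush σ hσ, hzfix σ hσ]
  · have h1 : r ^ k • push z = n • u := by
      rw [← map_nsmul, hzu, hpp]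
    have h1' : ((r ^ k : ℕ) : ℤ) • push z = (n : ℤ) • u := by
      rw [natCast_zsmul, natCast_zsmul]; exact h1
    have h2 : ((r ^ k : ℕ) : ℤ) • (s • u + t • push z) = u := by
      rw [smul_add, smul_comm _ t (push z), h1', smul_smul, smul_smul, ← add_smul]
      have : ((r ^ k : ℕ) : ℤ) * s + t * (n : ℤ) = 1 := by
        rw [← hst]; ring
      rw [this, one_smul]
    rw [← natCast_zsmul]
    exact h2

end Fermat.Agent.S15.LD


end ZBZ2S15_001_1

/-! ### bundled: `Fermat.Agent.S15.FinRedInst` -/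
section ZBZ2S15_001_2

/-!
# S15 block RED, piece RED-INST: the bounded exponent of `J₀(N)[r^∞]^{D_A}` from a reduction map

* `finred_torsBdd_of_red` (abstract): if `red : J → J̄` is additive, injective on the `r`-power
  torsion, intertwines some `φ ∈ D` with a map `Fr̄` of `J̄`, and `Fr̄` has finitely many fixed
  points, then the `D`-fixed `r`-power torsion of `J` has bounded exponent (`TorsBddAbs`).
* `finred_torsBdd_of_levelUp` (abstract): `TorsBddAbs` descends along an equivariant homomorphism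
  which is injective on the `r`-power torsion.
* `finred_frob_resJ`, `finred_exists_pole` : the coefficientwise Frobenius `prFrobA` of
  `F̄ = modularFunctionFieldFullC k N` fixes `j̄`, and `j̄` has a pole.
* `finred_fixed_classes_finite` : `Pic⁰(F̄)` has finitely many classes fixed by `prFrobA`
  (given Riemann's inequality for `F̄`), by `s15red_fixed_classes_finite`.
* `HasRedFrob N A ℓ` : the interface to the reduction package (a reduction map `sp` on classes,
  Frobenius-equivariant, injective on torsion prime to `ℓ`; Riemann's inequality for `F̄`).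
* `finred_torsBdd_of_hasRedFrob` : `HasRedFrob N A ℓ → TorsBddAbs (JZero N) D_A r` for `r ≠ ℓ`.
-/

set_option autoImplicit false
set_option linter.unusedSectionVars false
set_option linter.style.haveILetI false
set_option synthInstance.maxHeartbeats 400000

noncomputable section

namespace Fermat.Agent.S15

open ModularCurve AlgebraicCurve HahnSeries Fermat.Agent.ES Fermat.Agent.ES.M Fermat.Agent.S24
  Fermat.Agent.W1 Fermat.Agent.PR Fermat.Agent.DEU

/-! ## 1. Abstract part -/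

section Abstract

variable {J Jb J' : Type*} [AddCommGroup J] [AddCommGroup Jb] [AddCommGroup J']
  {G : Type*} [Group G] [DistribMulAction G J] [DistribMulAction G J']

/-- bounded exponent of the `D`-fixed `r`-power torsion from a reduction map with finitely many
Frobenius-fixed points in the target -/
theorem finred_torsBdd_of_red (D : Subgroup G) (r : ℕ) (red : J →+ Jb) (Frb : Jb → Jb)
    (φ : G) (hφ : φ ∈ D) (hred : ∀ x : J, red (φ • x) = Frb (red x))
    (hinj : ∀ x : J, (∃ n : ℕ, r ^ n • x = 0) → red x = 0 → x = 0)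
    (hfin : {c : Jb | Frb c = c}.Finite) : TorsBddAbs J D r := by
  classical
  set T : Set J := {y | (∀ σ ∈ D, σ • y = y) ∧ ∃ n : ℕ, r ^ n • y = 0} with hT
  have hTfin : T.Finite := by
    refine Set.Finite.of_finite_image (f := red) (hfin.subset ?_) ?_
    · rintro _ ⟨y, hy, rfl⟩
      show Frb (red y) = red y
      rw [← hred, hy.1 φ hφ]
    · intro y₁ hy₁ y₂ hy₂ h12
      have h0 : y₁ - y₂ = 0 := by
        apply hinj
        · obtain ⟨n₁, hn₁⟩ := hy₁.2
          obtain ⟨n₂, hn₂⟩ := hy₂.2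
          refine ⟨n₁ + n₂, ?_⟩
          have e₁ : r ^ (n₁ + n₂) • y₁ = 0 := by
            rw [_root_.pow_add, mul_comm, mul_smul, hn₁, smul_zero]
          have e₂ : r ^ (n₁ + n₂) • y₂ = 0 := by
            rw [_root_.pow_add, mul_smul, hn₂, smul_zero]
          rw [smul_sub, e₁, e₂, sub_zero]
        · rw [map_sub, h12, sub_self]
      exact sub_eq_zero.mp h0
  choose! e he using fun (y : J) (hy : y ∈ T) => hy.2
  refine ⟨hTfin.toFinset.sup e, fun y hfix htors => ?_⟩
  have hyT : y ∈ T := ⟨hfix, htors⟩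
  exact pow_smul_eq_zero_of_le (Finset.le_sup (f := e) (hTfin.mem_toFinset.mpr hyT)) (he y hyT)

/-- `TorsBddAbs` descends along an equivariant homomorphism injective on `r`-power torsion -/
theorem finred_torsBdd_of_levelUp (D : Subgroup G) (r : ℕ) (ψ : J →+ J')
    (hequiv : ∀ (σ : G) (x : J), ψ (σ • x) = σ • ψ x)
    (hinj : ∀ x : J, (∃ n : ℕ, r ^ n • x = 0) → ψ x = 0 → x = 0)
    (h : TorsBddAbs J' D r) : TorsBddAbs J D r := by
  obtain ⟨k₀, hk₀⟩ := h
  refine ⟨k₀, fun y hfix htors => ?_⟩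
  obtain ⟨n, hn⟩ := htors
  apply hinj
  · exact ⟨n, by rw [smul_comm, hn, smul_zero]⟩
  · rw [map_nsmul]
    exact hk₀ (ψ y) (fun σ hσ => by rw [← hequiv, hfix σ hσ])
      ⟨n, by rw [← map_nsmul, hn, map_zero]⟩

end Abstract

/-! ## 2. The residue side `F̄` -/

section ResSide

/-- `j̄` has a pole (at the cusp `∞` of `F̄`) -/
theorem finred_exists_pole (k : Type*) [Field k] (N : ℕ) [NeZero N] :
    ∃ P : Place k ↥(modularFunctionFieldFullC k N),
      P.ord (⟨jqModC k, jqModC_mem_full k N⟩ : ↥(modularFunctionFieldFullC k N)) < 0 := by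
  obtain ⟨w, -, hnn, -⟩ := Fermat.Agent.S18.exists_cuspPlace (Fermat.Agent.S18.exists_pole_Fk k N)
  refine ⟨w, ?_⟩
  have hj0 : (⟨jqModC k, jqModC_mem_full k N⟩ : ↥(modularFunctionFieldFullC k N)) ≠ 0 := by
    intro h
    exact jqModC_ne_zero_of_nontrivial k (congrArg Subtype.val h)
  by_contra h
  have h1 := (hnn _ hj0).mp (not_lt.mp h) (-1) (by norm_num)
  simp only at h1
  rw [coeff_jqModC_neg_one] at h1
  exact one_ne_zero h1

variable (N : ℕ) [NeZero N] (A : ValuationSubring Kb)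

/-- the coefficientwise Frobenius fixes `j̄` -/
theorem finred_frob_resJ {ℓ : ℕ} (hℓ : ℓ.Prime) (hA : A.LiesOverPrime ℓ) :
    prFrobA N A hℓ hA •
        (⟨jqModC (kA A), jqModC_mem_full (kA A) N⟩ : ↥(modularFunctionFieldFullC (kA A) N)) =
      ⟨jqModC (kA A), jqModC_mem_full (kA A) N⟩ := by
  haveI : Fact ℓ.Prime := ⟨hℓ⟩
  haveI : CharP (kA A) ℓ := kron_charP_residueField hℓ hA
  apply Subtype.ext
  apply HahnSeries.ext
  funext n
  rw [prFrobA_smul_coeff]
  show (jqModC (kA A)).coeff n ^ ℓ = (jqModC (kA A)).coeff n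
  rw [coeff_jqModC_eq_intCast, ← frobenius_def, map_intCast]

/-- **finitely many Frobenius-fixed classes** in `Pic⁰(F̄)` -/
theorem finred_fixed_classes_finite {ℓ : ℕ} (hℓ : ℓ.Prime) (hA : A.LiesOverPrime ℓ) (g : ℕ)
    (hlow : GPRiemannLower (kA A) ↥(modularFunctionFieldFullC (kA A) N) g) :
    {c : JZeroC (kA A) N | prFrobA N A hℓ hA • c = c}.Finite := by
  haveI := modHyp_isAlgClosed A
  haveI := modHyp_hpdk N A hℓ hA
  haveI : Fact ℓ.Prime := ⟨hℓ⟩
  haveI : CharP (kA A) ℓ := kron_charP_residueField hℓ hA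
  exact s15red_fixed_classes_finite (modHyp_hresk N A) g hlow (prFrobA N A hℓ hA) ℓ hℓ.two_le
    (CharP.cast_eq_zero (kA A) ℓ) (baseAut_prFrobA_apply N A hℓ hA) (finred_frob_resJ N A hℓ hA)
    (finred_exists_pole (kA A) N)

end ResSide

/-! ## 3. The interface to the reduction package and the bounded exponent -/

section Main

variable (N : ℕ) [NeZero N] (A : ValuationSubring Kb)

/-- What FINRED needs from the reduction at `(N, A)`, `A` over `ℓ`: a reduction map on classes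
which is Frobenius-equivariant and injective on torsion prime to `ℓ`, and Riemann's inequality on
the residue side. -/
def HasRedFrob (ℓ : ℕ) : Prop :=
  ∃ (hℓ : ℓ.Prime) (hA : A.LiesOverPrime ℓ) (g : ℕ) (sp : JZero N →+ JZeroC (kA A) N),
    GPRiemannLower (kA A) ↥(modularFunctionFieldFullC (kA A) N) g ∧
    (∀ φ : Kb ≃ₐ[ℚ] Kb, A.IsFrobeniusAt φ ℓ →
      ∀ x : JZero N, sp (φ • x) = prFrobA N A hℓ hA • sp x) ∧
    (∀ m : ℕ, ¬ ℓ ∣ m → ∀ x : JZero N, m • x = 0 → sp x = 0 → x = 0)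

/-- **FINRED at `(N, A)`** from the reduction package. -/
theorem finred_torsBdd_of_hasRedFrob {ℓ : ℕ} (h : HasRedFrob N A ℓ) (r : ℕ) (hr : r.Prime)
    (hrℓ : r ≠ ℓ) : TorsBddAbs (JZero N) (A.decompositionSubgroup ℚ) r := by
  obtain ⟨hℓ, hA, g, sp, hlow, hfrob, hinj⟩ := h
  obtain ⟨φ, hφ⟩ := Fermat.Agent.Common.exists_isFrobeniusAt_of_liesOverPrime ℓ hℓ A hA
  refine finred_torsBdd_of_red (A.decompositionSubgroup ℚ) r sp
    (fun c => prFrobA N A hℓ hA • c) φ hφ.mem_decompositionSubgroup (hfrob φ hφ) ?_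
    (finred_fixed_classes_finite N A hℓ hA g hlow)
  rintro x ⟨n, hn⟩ hx
  refine hinj (r ^ n) ?_ x hn hx
  intro hd
  exact hrℓ ((Nat.prime_dvd_prime_iff_eq hℓ hr).mp (hℓ.dvd_of_dvd_pow hd)).symm

end Main

end Fermat.Agent.S15

end
end ZBZ2S15_001_2
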