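/- GENERATED FILE (helper35, build-time optimisation, NOTES/ZB.md): verbatim concatenation of the modules
   Fermat.Agent.S15.ModDefs
   Fermat.Agent.S15.ModPlan
   Fermat.Agent.S15.Plan
   Fermat.Agent.S15.ModAsmPlan
   Fermat.Agent.S15.ModUnifAlg
   Fermat.Agent.S15.ModUnifLat
   Fermat.Agent.S15.ModG0
   Fermat.Agent.S15.ModPlaceVal
   Fermat.Agent.S15.ModAsmP
   Fermat.Agent.S15.ModAddCore
   Fermat.Agent.S15.ModAdd
   Fermat.Agent.S15.ModFrickeP
   Fermat.Agent.S15.ModFrickeEst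
   Fermat.Agent.S15.ModFrickePlan
   Fermat.Agent.S15.ModTateAux
   Fermat.Agent.S15.ModTate
   Fermat.Agent.S15.ModFrickeAn
   Fermat.Agent.S15.ModFrickeQ
   Fermat.Agent.S15.ModFrickeForm
   Fermat.Agent.S15.ModFrRat
   Fermat.Agent.S15.ModFrickeLaurent
   Fermat.Agent.S15.ModFricke
   Fermat.Agent.S15.ModFrInt
   Fermat.Agent.S15.LocDivPlan
   Do not edit; do not import together with these modules. -/
import Mathlib
import Fermat.Agent.ZB.ES_012
import Fermat.Agent.ZB.W1_002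
import Fermat.Agent.ZB.S28_002
import Fermat.Prelude.Def_EllipticCurve_ZeroComponentAt
import Fermat.Prelude.Def_FLTPrelim_Ramification
import Fermat.Agent.ZB.Z2S15_001
import Fermat.Agent.ZB.ES_020
import Fermat.Agent.ZB.EC_003
import Fermat.Agent.ZB.ES_018
import Fermat.Agent.ZB.Z2S15_008
import Fermat.Agent.ZB.S20_001
import Fermat.Agent.ZB.S28_006
import Fermat.Agent.ZB.S24_003
import Fermat.Agent.ZB.S23_001
import Fermat.Agent.ZB.S24_002
import Fermat.Agent.ZB.S16_001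
import Fermat.Agent.ZB.S23_004
import Fermat.Agent.ZB.S28_001
import Fermat.Agent.ZB.ES_001

/-! ### bundled: `Fermat.Agent.S15.ModDefs` -/
section ZBZ2S15_002_0

/-!
# S15 / MOD — shared definitions (Mathlib only; sub-captain helper51)

The Fricke-product route for the piece MOD of the Mazur chain (`NOTES/S15-MOD.md`).

* `modXi W x = (c₄ x + b₂ b₄ - 18 b₆) / c₆` : the normalised `x`-coordinate `ξ°` of a point of a
  Weierstrass curve, `ξ° = (c₄ / c₆) (x - x_node)`.  It is invariant under changes of variables,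
  and at a prime of multiplicative reduction it is a unit exactly at the points that do not reduce
  to the node.
* `modLat τ` : the period pair `(τ, 1)`; `modCurve L` : the curve `y² = x³ - (g₂/4) x - g₃/4`
  of a lattice, parametrised by `z ↦ (℘ z, ℘' z / 2)`.
* `modXiAn τ z = g₂ / (18 g₃) ℘(z) + 1/12` : the analytic `ξ°`.
* `modPiAn N t τ = ∏_{k = 1}^{N - 1} (t - ξ°(k / N; τ))` : the Fricke product, a modular function
  for `Γ₀(N)`.
-/

set_option autoImplicit false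

noncomputable section

namespace Fermat.Agent.S15

open UpperHalfPlane PeriodPair

/-- The normalised `x`-coordinate `ξ° = (c₄ x + b₂ b₄ - 18 b₆) / c₆`. -/
def modXi {R : Type*} [Field R] (W : WeierstrassCurve R) (x : R) : R :=
  (W.c₄ * x + W.b₂ * W.b₄ - 18 * W.b₆) / W.c₆

/-- The period pair `(τ, 1)`. -/
def modLat (τ : ℍ) : PeriodPair where
  ω₁ := τ
  ω₂ := 1
  indep := by
    rw [LinearIndependent.pair_iff]
    intro a b hab
    have h2 : (a : ℂ) * τ + b = 0 := by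
      simpa [Complex.real_smul] using hab
    have h3 := congrArg Complex.im h2
    simp only [Complex.add_im, Complex.mul_im, Complex.ofReal_re, Complex.ofReal_im, zero_mul,
      add_zero, Complex.zero_im, UpperHalfPlane.coe_im] at h3
    have ha : a = 0 := by
      rcases mul_eq_zero.mp h3 with h | h
      · exact h
      · exact absurd h τ.im_pos.ne'
    subst ha
    have h4 := congrArg Complex.re h2
    simp at h4
    exact ⟨rfl, h4⟩

@[simp] theorem modLat_ω₁ (τ : ℍ) : (modLat τ).ω₁ = τ := rfl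
@[simp] theorem modLat_ω₂ (τ : ℍ) : (modLat τ).ω₂ = 1 := rfl

/-- The Weierstrass curve `y² = x³ - (g₂/4) x - g₃/4` of a lattice; the point attached to
`z ∉ Λ` is `(℘ z, ℘' z / 2)`. -/
def modCurve (L : PeriodPair) : WeierstrassCurve ℂ := ⟨0, 0, 0, -L.g₂ / 4, -L.g₃ / 4⟩

/-- The analytic `ξ°(z; τ) = g₂ / (18 g₃) · ℘(z) + 1/12` (junk if `g₃ τ = 0`). -/
def modXiAn (τ : ℍ) (z : ℂ) : ℂ :=
  (modLat τ).g₂ / (18 * (modLat τ).g₃) * ℘[modLat τ] z + 1 / 12

/-- The Fricke product `Π_t(τ) = ∏_{k = 1}^{N - 1} (t - ξ°(k / N; τ))`. -/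
def modPiAn (N : ℕ) (t : ℂ) (τ : ℍ) : ℂ :=
  ∏ k ∈ Finset.Ico 1 N, (t - modXiAn τ ((k : ℂ) / (N : ℂ)))

end Fermat.Agent.S15

end
end ZBZ2S15_002_0

/-! ### bundled: `Fermat.Agent.S15.ModPlan` -/
section ZBZ2S15_002_1

/-!
# S15 / MOD — interface of the Fricke-product route (sub-captain helper51)

Design: `NOTES/S15-MOD.md`.  `(E, Q)`: `W` an integral Weierstrass model, `Q` a rational point of
prime order `N`.  The place `x` of `F_N` attached to `(E, ⟨Q⟩)` is the place "at `τ₀`" where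
`(ℂ/(ℤτ₀+ℤ), 1/N) ≅ (E, Q)`; it is `G_ℚ`-fixed because the Fricke products
`Π_t = ∏_{k=1}^{N-1} (t - ξ°(k•Q))`, `t ∈ ℤ`, are rational functions with rational values at `x`
which separate the `N + 1` places over `j = j(E)`; its reduction at a prime `ℓ ≠ N` of
multiplicative reduction is read off from `Π₀(x) = ∏ ξ°(k•Q)`: a unit iff `Q ∈ E⁰`.

| piece | statement | file | owner |
|---|---|---|---|
| MOD-XI | `StmtModXi` | `S15/ModXi.lean` | helper13 |
| MOD-ADD | `StmtModAdd` | `S15/ModAdd*.lean` | helper51 |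
| MOD-UNIF | `StmtModAdd → StmtModUnif` | `S15/ModUnif.lean` | OPEN |
| MOD-TATE | `StmtModTate` | `S15/ModTate*.lean` | OPEN |
| MOD-FRICKE | `StmtModTate → StmtModFricke` | `S15/ModFricke*.lean` | OPEN |
| MOD-PLACE | `StmtModPlace` | `S15/ModPlace*.lean` | helper8 |
| MOD-RED | `StmtModRed` | `S15/ModRed.lean` | OPEN |
| MOD-ASM | `StmtModMain` from all of them | `S15/ModMain.lean` | helper51 |
-/

set_option autoImplicit false
set_option linter.unusedSectionVars false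
set_option synthInstance.maxHeartbeats 400000

noncomputable section

namespace Fermat.Agent.S15

open UpperHalfPlane AlgebraicCurve ModularCurve PeriodPair
open Fermat.Agent.S24 Fermat.Agent.S28 Fermat.Agent.W1 Fermat.Agent.ES.M
open scoped MatrixGroups WeierstrassCurve.Affine

/-- `ℚ̄` -/
local notation "Qb" => AlgebraicClosure ℚ

/-! ## MOD-XI : the `E`-side -/

/-- **MOD-XI.** At a prime `ℓ` of multiplicative reduction of the integral model `W`, a nonzero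
torsion point `P` of order prime to `ℓ` has integral coordinates, `ξ°(P)` is integral, and `P`
lies in the identity component iff `ξ°(P)` is a unit. -/
def StmtModXi : Prop :=
  ∀ (W : WeierstrassCurve ℤ) (ℓ : ℕ), ℓ.Prime → (ℓ : ℤ) ∣ W.Δ → ¬ (ℓ : ℤ) ∣ W.c₄ →
    ∀ A : ValuationSubring Qb, A.LiesOverPrime ℓ →
      ∀ (P : ((W.map (Int.castRingHom ℚ))⁄Qb).Point) (n : ℕ), ¬ ℓ ∣ n → n • P = 0 → P ≠ 0 →
        ∃ (x y : Qb) (h : ((W.map (Int.castRingHom ℚ))⁄Qb).toAffine.Nonsingular x y),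
          P = .some x y h ∧ x ∈ A ∧ modXi ((W.map (Int.castRingHom ℚ))⁄Qb) x ∈ A ∧
            (W.InZeroComponentAt A P ↔
              modXi ((W.map (Int.castRingHom ℚ))⁄Qb) x ∉ A.nonunits)

/-! ## MOD-ADD, MOD-UNIF : uniformisation -/

/-- **MOD-ADD.** `z ↦ (℘ z, ℘' z / 2)` is a group isomorphism `ℂ / Λ ≅ E_Λ(ℂ)`. -/
def StmtModAdd : Prop :=
  ∀ L : PeriodPair, L.g₂ ^ 3 - 27 * L.g₃ ^ 2 ≠ 0 →
    ∃ θ : ℂ →+ (modCurve L).toAffine.Point,
      (∀ z, θ z = 0 ↔ z ∈ L.lattice) ∧ Function.Surjective θ ∧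
        ∀ z, z ∉ L.lattice →
          ∃ h : (modCurve L).toAffine.Nonsingular (℘[L] z) (℘'[L] z / 2),
            θ z = .some (℘[L] z) (℘'[L] z / 2) h

/-- **MOD-UNIF.** Every complex Weierstrass curve with `c₄ c₆ Δ ≠ 0` and a point `Q` of exact
order `N` is uniformised by some `τ` in such a way that `Q` corresponds to `1 / N`; the
uniformisation respects `ξ°`. -/
def StmtModUnif : Prop :=
  ∀ W : WeierstrassCurve ℂ, W.Δ ≠ 0 → W.c₄ ≠ 0 → W.c₆ ≠ 0 →
    ∀ N : ℕ, 2 ≤ N → ∀ Q : W.toAffine.Point, addOrderOf Q = N →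
      ∃ (τ : ℍ) (θ : ℂ →+ W.toAffine.Point),
        Jfun τ * W.Δ = W.c₄ ^ 3 ∧ (modLat τ).g₃ ≠ 0 ∧
          (∀ z, θ z = 0 ↔ z ∈ (modLat τ).lattice) ∧ Function.Surjective θ ∧
            θ ((N : ℂ)⁻¹) = Q ∧
              ∀ z, z ∉ (modLat τ).lattice →
                ∃ (x y : ℂ) (h : W.toAffine.Nonsingular x y),
                  θ z = .some x y h ∧ modXi W x = modXiAn τ z

/-! ## MOD-TATE : the `q`-expansion of `℘` -/

/-- the general term of Tate's series -/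
def modTateTerm (q u : ℂ) (n : ℕ) : ℂ :=
  q ^ (n + 1) * u / (1 - q ^ (n + 1) * u) ^ 2 + q ^ (n + 1) * u⁻¹ / (1 - q ^ (n + 1) * u⁻¹) ^ 2
    - 2 * q ^ (n + 1) / (1 - q ^ (n + 1)) ^ 2

/-- **MOD-TATE.** For `|Im z| < Im τ`, `z ∉ ℤτ + ℤ`, with `q = e^{2πiτ}`, `u = e^{2πiz}`:
`℘(z) = (2πi)² (1/12 + u/(1-u)² + ∑_{n ≥ 1} (qⁿu/(1-qⁿu)² + qⁿu⁻¹/(1-qⁿu⁻¹)² - 2qⁿ/(1-qⁿ)²))`. -/
def StmtModTate : Prop :=
  ∀ (τ : ℍ) (z : ℂ), z ∉ (modLat τ).lattice → |z.im| < τ.im →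
    Summable (modTateTerm (Complex.exp (2 * Real.pi * Complex.I * τ))
      (Complex.exp (2 * Real.pi * Complex.I * z))) ∧
    ℘[modLat τ] z = (2 * Real.pi * Complex.I) ^ 2 *
      (1 / 12 + Complex.exp (2 * Real.pi * Complex.I * z) /
          (1 - Complex.exp (2 * Real.pi * Complex.I * z)) ^ 2 +
        ∑' n : ℕ, modTateTerm (Complex.exp (2 * Real.pi * Complex.I * τ))
          (Complex.exp (2 * Real.pi * Complex.I * z)) n)

/-! ## MOD-FRICKE : the Fricke products as elements of `F_N` -/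

/-- `f ∈ F_N` is, analytically, the function `φ` on the set where `g₃ ≠ 0`: `f = a / b` with
`a, b` holomorphic modular functions of level `N`, `b` without zeros where `g₃ ≠ 0`. -/
def IsAnalyticOn (N : ℕ) [NeZero N] (f : FF N) (φ : ℍ → ℂ) : Prop :=
  ∃ a b : modFunAlg N,
    ModularCurve.coeffMap embC (f : LaurentSeries Kb) * laurentOf (b : ℍ → ℂ)
      = laurentOf (a : ℍ → ℂ) ∧
    ∀ τ : ℍ, (modLat τ).g₃ ≠ 0 → (b : ℍ → ℂ) τ ≠ 0 ∧ (a : ℍ → ℂ) τ = φ τ * (b : ℍ → ℂ) τ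

/-- `f` is the Fricke product `Π_t` of level `N`. -/
def IsFrickeProd (N : ℕ) [NeZero N] (t : ℤ) (f : FF N) : Prop :=
  IsAnalyticOn N f (modPiAn N (t : ℂ))

/-- **MOD-FRICKE (a).** The Fricke products exist in `F_N` and are rational. -/
def StmtModFricke : Prop :=
  ∀ (N : ℕ) [NeZero N], N.Prime → ∀ t : ℤ, ∃ f : FF N, IsFrickeProd N t f ∧
    ∀ σ : Kb ≃ₐ[ℚ] Kb, galAct N σ • f = f

/-- **MOD-FRICKE (b).** `Π₀` has a `q`-expansion in `ℤ[1/N][[q]]` with constant term `± N⁻²`, its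
poles lie over `j = 1728`, and it vanishes at the cusp `0`. -/
def StmtModFricke0 : Prop :=
  ∀ (N : ℕ) [NeZero N], N.Prime → ∀ f : FF N, IsFrickeProd N 0 f →
    (∃ Y : PowerSeries ℚ, (f : LaurentSeries Kb) = coeffEmb Kb (HahnSeries.ofPowerSeries ℤ ℚ Y) ∧
      (∀ n, ∃ (k : ℕ) (m : ℤ), PowerSeries.coeff n Y * (N : ℚ) ^ k = m) ∧
      (PowerSeries.coeff 0 Y * (N : ℚ) ^ 2) ^ 2 = 1) ∧
    (∀ P : Place Kb (FF N), P.ord f < 0 → HasValueAt P (jF N) 1728) ∧
    0 < (cuspZero N).ord f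

/-! ## MOD-PLACE : the place at a point of `ℍ` -/

/-- `x` is the place of `F_N` at the point `τ`: the value at `x` of `f = a / b` (`a, b` holomorphic
modular functions, `b τ ≠ 0`) is `a τ / b τ`. -/
def IsPlaceAt (N : ℕ) [NeZero N] (τ : ℍ) (x : Place Kb (FF N)) : Prop :=
  ∀ (f : FF N) (a b : modFunAlg N),
    ModularCurve.coeffMap embC (f : LaurentSeries Kb) * laurentOf (b : ℍ → ℂ)
      = laurentOf (a : ℍ → ℂ) →
    (b : ℍ → ℂ) τ ≠ 0 → ∀ c : Kb, embC c * (b : ℍ → ℂ) τ = (a : ℍ → ℂ) τ → HasValueAt x f c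

/-- **MOD-PLACE.** For `τ` with algebraic `j`-invariant `j₀`: the place at `τ` exists and is
unique, and every place over `j = j₀` is the place at some `γ • τ`. -/
def StmtModPlace : Prop :=
  ∀ (N : ℕ) [NeZero N] (τ : ℍ) (j₀ : Kb), Jfun τ = embC j₀ →
    (∃ x : Place Kb (FF N), IsPlaceAt N τ x) ∧
    (∀ x x' : Place Kb (FF N), IsPlaceAt N τ x → IsPlaceAt N τ x' → x = x') ∧
    ∀ y : Place Kb (FF N), HasValueAt y (jF N) j₀ → ∃ γ : SL(2, ℤ), IsPlaceAt N (γ • τ) y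

/-! ## MOD-RED : the reduction criterion -/

/-- **MOD-RED.** Abstract reduction criterion.  `R` a reduction package of `F_N` at `A` with good
function `j` and without cancellation (`1 / (j - a)` is good for `a ∈ A`); `f ∈ R.O` a function
with poles only over `j = 1728`, a unit value at the cusp `∞` and a zero at the cusp `0`.  A place
`x` with `j(x) ∉ A` reduces to `r(∞)` if `f(x)` is a unit and to `r(0)` if not. -/
def StmtModRed : Prop :=
  ∀ (N : ℕ) [NeZero N], N.Prime → ∀ (A : ValuationSubring Kb) (g : ℕ)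
    (R : PRData Kb (FF N) (IsLocalRing.ResidueField A)
      ↥(modularFunctionFieldFullC (IsLocalRing.ResidueField A) N) A),
    ModPR N A g R (jF N) →
    (∀ a : A, R.GoodFn ((jF N - algebraMap Kb (FF N) (a : Kb))⁻¹)) →
    (∀ P : Place Kb (FF N), P.ord (jF N) < 0 → P = cuspInf N ∨ P = cuspZero N) →
    ∀ f : FF N, f ∈ R.O →
      (∀ P : Place Kb (FF N), P.ord f < 0 → HasValueAt P (jF N) 1728) →
      (∃ c₀ : Kb, HasValueAt (cuspInf N) f c₀ ∧ c₀ ∈ A ∧ c₀ ∉ A.nonunits) →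
      0 < (cuspZero N).ord f →
      ∀ (x : Place Kb (FF N)) (j₀ c : Kb), HasValueAt x (jF N) j₀ → j₀ ∉ A → HasValueAt x f c →
        c ∈ A ∧ (c ∉ A.nonunits → R.r x = R.r (cuspInf N)) ∧
          (c ∈ A.nonunits → R.r x = R.r (cuspZero N))

/-! ## MOD-ASM : the output -/

/-- **MOD, level `N`.** The place of `F_N` attached to `(E, ⟨Q⟩)`: it is `G_ℚ`-fixed, and at a
prime `ℓ ≠ N` of multiplicative reduction it reduces to the cusp `∞` if `Q ∈ E⁰` and to the cusp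
`0` if `Q ∉ E⁰`, for every reduction package `R` of `F_N` at `A ∣ ℓ` whose valuation ring
contains the functions with `A`-integral `q`-expansion. -/
def StmtModMain : Prop :=
  ∀ (N : ℕ) [NeZero N], N.Prime → 5 ≤ N → ∀ (W : WeierstrassCurve ℤ), W.Δ ≠ 0 →
    (∃ ℓ : ℕ, ℓ.Prime ∧ (ℓ : ℤ) ∣ W.Δ ∧ ¬ (ℓ : ℤ) ∣ W.c₄) →
    ∀ Q : ((W.map (Int.castRingHom ℚ))⁄Qb).Point,
      (∀ σ : Qb ≃ₐ[ℚ] Qb, σ • Q = Q) → addOrderOf Q = N →
      ∃ x : Place Kb (FF N), (∀ σ : Kb ≃ₐ[ℚ] Kb, galAct N σ • x = x) ∧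
        ∀ ℓ : ℕ, ℓ.Prime → ℓ ≠ N → (ℓ : ℤ) ∣ W.Δ → ¬ (ℓ : ℤ) ∣ W.c₄ →
          ∀ A : ValuationSubring Kb, A.LiesOverPrime ℓ → ∀ (g : ℕ)
            (R : PRData Kb (FF N) (IsLocalRing.ResidueField A)
              ↥(modularFunctionFieldFullC (IsLocalRing.ResidueField A) N) A),
            ModPR N A g R (jF N) →
            (∀ a : A, R.GoodFn ((jF N - algebraMap Kb (FF N) (a : Kb))⁻¹)) →
            (∀ f : FF N, GaussInt N A f → f ∈ R.O) →
              (W.InZeroComponentAt A Q → R.r x = R.r (cuspInf N)) ∧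
                (¬ W.InZeroComponentAt A Q → R.r x = R.r (cuspZero N))

end Fermat.Agent.S15

end
end ZBZ2S15_002_1

/-! ### bundled: `Fermat.Agent.S15.Plan` -/
section ZBZ2S15_002_2

/-!
# S15 (Mazur's key step) — the top-level interface.  Architecture: `NOTES/S15-route.md`.

In the frozen statement the ORDER of the rational point `Q` is called `p`; it is the LEVEL here.
`r` is the descent (Eisenstein) prime, `v` runs over primes `≠ p`.

All interfaces are PACKAGE-FREE: they mention only `JZero p`, its Galois action, places of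
`FF p`, the values of `j = jF p` and of the Fricke product `Π₀` (`IsFrickeProd p 0`, `ModPlan.lean`)
at a place, and membership of rational numbers in a valuation ring `A ⊂ ℚ̄`.  How the reduction at `v` is realised (directly for `v ≥ 5`, by level-up for `v ∈ {2,3}`)
is internal to the pieces.

* `IsDiffClass x y w`  : `w = [(x) − (y)]`.
* `IsTypeTwo x`        : the certificate at the LEVEL prime `p`: `v_p(p¹² · u(x)) ≤ 0` for
                `u = oggU p = Δ(pτ)/Δ(τ)`, i.e. `x` reduces at `p` to a smooth point of the component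
                of the cusp `0` (or into the residue disc of the cusp `0`).
* `StmtCusp`   (OGG-lite): `c ≠ 0`, `(p − 1) c = 0` for `c = cuspClass p = [(0) − (∞)]`.   DONE (helper80)
* `StmtMod`    (MOD + N3): for `W` with a multiplicative prime: the rational place `x` of
                `(E, ⟨Q⟩)` with `j(x) = a`, `Π₀(x) = c` rational and `IsTypeTwo x`;
                at a multiplicative prime `v ≠ p`, `A ∣ v`: `a ∉ A`, `c ∈ A`, and `Q ∈ E⁰` iff `c ∈ Aˣ`.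
* `StmtLocDiv` (MOD-RED + DIV¹ + S18, level-up at `v ∈ {2,3}`): if `a ∉ A`, `c ∈ A`, then
                `c ∈ 𝔪_A` ⇒ `[(x) − (0)]` is infinitely `r`-divisible in `J^{D_A}`,
                `c ∈ Aˣ` ⇒ `[(x) − (∞)]` is (`r ≠ v`).
* `StmtLocDivN` (LOCAL-N): for `A ∣ p` and `x` of type two, `[(x) − (0)]` is infinitely
                `r`-divisible in `J^{I_A}` (`r ≠ p`).
* `StmtFinRed` (FINRED): `J[r^∞]^{D_A}` has bounded exponent, `A ∣ v`, `v ≠ r`, `v ≠ p`.   DONE (helper89, helper49)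
* `StmtFin`    (FIN″, the Eisenstein descent = `StmtFinCore` of `SelPlan.lean`): `FinAbs` for every
                `G_ℚ`-fixed class which is infinitely `r`-divisible in `J^{I_A}`, `A ∣ p`.

`Fermat/Agent/S15/Top.lean` proves the frozen statement from these six Props and EC-loc.
-/

set_option autoImplicit false

noncomputable section

namespace Fermat.Agent.S15

open ModularCurve AlgebraicCurve WeierstrassCurve WeierstrassCurve.Affine
open Fermat.Agent.S24 Fermat.Agent.ES.M Fermat.Agent.W1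

/-- the absolute Galois group of `ℚ` -/
abbrev GalQ : Type := Kb ≃ₐ[ℚ] Kb

/-- `w = [(x) − (y)]` in `J₀(N)` -/
def IsDiffClass (N : ℕ) [NeZero N] (x y : Place Kb (FF N)) (w : JZero N) : Prop :=
  ∃ D : Divisor.degZero (K := Kb) (F := FF N),
    (D : Divisor Kb (FF N)) = Finsupp.single x 1 - Finsupp.single y 1 ∧ Pic0.mk D = w

/-- the place `x` is rational: fixed by `G_ℚ`, with rational values `a = j(x)`, `c = Π₀(x)`
(`Π₀` the Fricke product of `ModPlan.lean`) -/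
structure IsRatPlace (N : ℕ) [NeZero N] (x : Place Kb (FF N)) (a c : ℚ) : Prop where
  fixed : ∀ σ : GalQ, galAct N σ • x = x
  val_j : HasValueAt x (jF N) (algebraMap ℚ Kb a)
  val_pi : ∀ f : FF N, IsFrickeProd N 0 f → HasValueAt x f (algebraMap ℚ Kb c)

/-- **the certificate at the level prime** `N`: the value of `u = oggU N = Δ(Nτ)/Δ(τ)` at the
rational place `x` is a nonzero rational number `d` with `v_N(N¹² d) ≤ 0`.  (In the two-component
model of `X₀(N)` at `N` this says that `x` reduces to a smooth point of the component of the cusp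
`0`, or into the residue disc of the cusp `0`; it is "TYPE 2" of the package `LN-PKG`.) -/
def IsTypeTwo (N : ℕ) [NeZero N] (x : Place Kb (FF N)) : Prop :=
  ∃ d : ℚ, d ≠ 0 ∧ HasValueAt x (oggU N) (algebraMap ℚ Kb d) ∧ padicValRat N d ≤ -12

/-- the levels of `S15` -/
def IsMazurLevel (p : ℕ) : Prop := p.Prime ∧ p ∉ ({2, 3, 5, 7, 13} : Finset ℕ)

/-- **OGG-lite**: the cuspidal class is a nonzero torsion class. -/
def StmtCusp : Prop :=
  ∀ (p : ℕ) [NeZero p], IsMazurLevel p → cuspClass p ≠ 0 ∧ (p - 1) • cuspClass p = 0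

/-- **MOD** (+ N3): the rational place attached to `(E, ⟨Q⟩)`, for `W` with a prime of
multiplicative reduction. -/
def StmtMod : Prop :=
  ∀ (p : ℕ) [NeZero p], IsMazurLevel p → ∀ (W : WeierstrassCurve ℤ), W.Δ ≠ 0 →
    (∃ ℓ : ℕ, ℓ.Prime ∧ (ℓ : ℤ) ∣ W.Δ ∧ ¬ (ℓ : ℤ) ∣ W.c₄) →
    ∀ Q : ((W.map (Int.castRingHom ℚ))⁄(AlgebraicClosure ℚ)).Point,
      (∀ σ : AlgebraicClosure ℚ ≃ₐ[ℚ] AlgebraicClosure ℚ, σ • Q = Q) → addOrderOf Q = p →
      ∃ (x : Place Kb (FF p)) (a c : ℚ), IsRatPlace p x a c ∧ IsTypeTwo p x ∧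
        ∀ v : ℕ, v.Prime → v ≠ p → (v : ℤ) ∣ W.Δ → ¬ (v : ℤ) ∣ W.c₄ →
          ∀ A : ValuationSubring (AlgebraicClosure ℚ), A.LiesOverPrime v →
            algebraMap ℚ Kb a ∉ A ∧ algebraMap ℚ Kb c ∈ A ∧
              (W.InZeroComponentAt A Q ↔ algebraMap ℚ Kb c ∉ A.nonunits)

/-- **LOCDIV**: classes supported in the residue disc of a cusp are infinitely `r`-divisible among
the points fixed by the decomposition group. -/
def StmtLocDiv : Prop :=
  ∀ (p : ℕ) [NeZero p], IsMazurLevel p → ∀ v : ℕ, v.Prime → v ≠ p → ∀ r : ℕ, r.Prime → r ≠ v →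
    ∀ A : ValuationSubring Kb, A.LiesOverPrime v →
    ∀ (x : Place Kb (FF p)) (a c : ℚ), IsRatPlace p x a c →
      algebraMap ℚ Kb a ∉ A → algebraMap ℚ Kb c ∈ A →
      (algebraMap ℚ Kb c ∈ A.nonunits → ∀ u : JZero p, IsDiffClass p x (cuspZero p) u →
        LocDivAbs (A.decompositionSubgroup ℚ) r u) ∧
      (algebraMap ℚ Kb c ∉ A.nonunits → ∀ z : JZero p, IsDiffClass p x (cuspInf p) z →
        LocDivAbs (A.decompositionSubgroup ℚ) r z)

/-- **FINRED**: the `r`-power torsion fixed by a decomposition group at `v ≠ r, p` is finite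
(bounded exponent is all that is used). -/
def StmtFinRed : Prop :=
  ∀ (p : ℕ) [NeZero p], IsMazurLevel p → ∀ v : ℕ, v.Prime → v ≠ p → ∀ r : ℕ, r.Prime → r ≠ v →
    ∀ A : ValuationSubring Kb, A.LiesOverPrime v →
      TorsBddAbs (JZero p) (A.decompositionSubgroup ℚ) r

/-- **LOCDIV at the level prime**: the class `[(x) − (0)]` of a rational place of type two is
infinitely `r`-divisible among the points fixed by an inertia group at `p`. -/
def StmtLocDivN : Prop :=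
  ∀ (p : ℕ) [NeZero p], IsMazurLevel p → ∀ r : ℕ, r.Prime → r ≠ p →
    ∀ A : ValuationSubring Kb, A.LiesOverPrime p →
    ∀ (x : Place Kb (FF p)) (a c : ℚ), IsRatPlace p x a c → IsTypeTwo p x →
      ∀ u : JZero p, IsDiffClass p x (cuspZero p) u →
        LocDivAbs (A.inertiaSubgroupIn ℚ) r u

/-- **FIN″**: the Eisenstein descent at the prime `r ≠ p`: a `G_ℚ`-fixed class which is infinitely
`r`-divisible among the points fixed by an inertia group at the level `p` has finite Eisenstein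
part.  (This is `StmtFinCore` of `SelPlan.lean`, restricted to the levels of `S15`.) -/
def StmtFin : Prop :=
  ∀ (p : ℕ) [NeZero p], IsMazurLevel p → ∀ r : ℕ, r.Prime → r ≠ p →
    ∀ cr : JZero p, cr ≠ 0 → r • cr = 0 → (∃ n : ℕ, cr = n • cuspClass p) →
    ∀ A : ValuationSubring Kb, A.LiesOverPrime p →
    ∀ w : JZero p, (∀ σ : GalQ, σ • w = w) →
      LocDivAbs (A.inertiaSubgroupIn ℚ) r w → FinAbs GalQ r cr w

/-- **FIN″ for all rational points** (Mazur: the Eisenstein part of `J₀(p)(ℚ) ⊗ ℤ_r` is finite).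
This is the recommended target of the descent; it implies `StmtFin`. -/
def StmtFinAll : Prop :=
  ∀ (p : ℕ) [NeZero p], IsMazurLevel p → ∀ r : ℕ, r.Prime →
    ∀ cr : JZero p, cr ≠ 0 → r • cr = 0 → (∃ n : ℕ, cr = n • cuspClass p) →
    ∀ w : JZero p, (∀ σ : GalQ, σ • w = w) → FinAbs GalQ r cr w

end Fermat.Agent.S15

end
end ZBZ2S15_002_2

/-! ### bundled: `Fermat.Agent.S15.ModAsmPlan` -/
section ZBZ2S15_002_3

/-!
# S15 / MOD-ASM — the split of the assembly (sub-captain helper51)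

The output of MOD is `StmtModC` = `Plan.StmtMod` with the extra hypothesis that `W` has a prime of
multiplicative reduction (so `c₄ c₆ ≠ 0`; available in `S15`, where `2` is such a prime; without
it the place of `(E, ⟨Q⟩)` may lie over `j = 1728`, where the Fricke product has a pole).

* `StmtModAsmE` (curve side: XI + UNIF + G0): `(W, Q)` gives `τ₀`, `a = j(E)`, `c t = Π_t(τ₀) ∈ ℚ`,
  the `Γ₀(p)`-criterion at `τ₀`, and the reduction statement for `a`, `c 0`.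
* `StmtModAsmP` (place side: PLACE + FRICKE): such analytic data give a rational place.
* `stmtModC_of : StmtModAsmE → StmtModAsmP → StmtModC`.
-/

set_option autoImplicit false
set_option linter.unusedSectionVars false
set_option synthInstance.maxHeartbeats 400000

noncomputable section

namespace Fermat.Agent.S15

open UpperHalfPlane AlgebraicCurve ModularCurve PeriodPair
open Fermat.Agent.S24 Fermat.Agent.S28 Fermat.Agent.W1 Fermat.Agent.ES.M
open scoped MatrixGroups WeierstrassCurve.Affine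

/-- **MOD-ASM-P** (place side).  `τ₀` a point with rational `j`-invariant `a`, at which `g₃` does
not vanish (also at its translates), whose Fricke products `Π_t(τ₀) = c t` are rational for all
`t ∈ ℤ` and satisfy the `Γ₀(N)`-criterion: then the place of `F_N` at `τ₀` is rational. -/
def StmtModAsmP : Prop :=
  ∀ (N : ℕ) [NeZero N], N.Prime → ∀ (τ₀ : ℍ) (a : ℚ) (c : ℤ → ℚ),
    Jfun τ₀ = embC (algebraMap ℚ Kb a) →
    (∀ γ : SL(2, ℤ), (modLat (γ • τ₀)).g₃ ≠ 0) →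
    (∀ t : ℤ, modPiAn N (t : ℂ) τ₀ = embC (algebraMap ℚ Kb (c t))) →
    (∀ γ : SL(2, ℤ), (∀ t : ℤ, modPiAn N (t : ℂ) (γ • τ₀) = modPiAn N (t : ℂ) τ₀) →
      γ ∈ CongruenceSubgroup.Gamma0 N) →
    ∃ x : Place Kb (FF N), IsRatPlace N x a (c 0)

/-- **MOD-ASM-E** (curve side). -/
def StmtModAsmE : Prop :=
  ∀ (p : ℕ), p.Prime → 5 ≤ p → ∀ (W : WeierstrassCurve ℤ), W.Δ ≠ 0 →
    (∃ ℓ : ℕ, ℓ.Prime ∧ (ℓ : ℤ) ∣ W.Δ ∧ ¬ (ℓ : ℤ) ∣ W.c₄) →
    ∀ Q : ((W.map (Int.castRingHom ℚ))⁄(AlgebraicClosure ℚ)).Point,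
      (∀ σ : AlgebraicClosure ℚ ≃ₐ[ℚ] AlgebraicClosure ℚ, σ • Q = Q) → addOrderOf Q = p →
      ∃ (τ₀ : ℍ) (a : ℚ) (c : ℤ → ℚ),
        Jfun τ₀ = embC (algebraMap ℚ Kb a) ∧
        (∀ γ : SL(2, ℤ), (modLat (γ • τ₀)).g₃ ≠ 0) ∧
        (∀ t : ℤ, modPiAn p (t : ℂ) τ₀ = embC (algebraMap ℚ Kb (c t))) ∧
        (∀ γ : SL(2, ℤ), (∀ t : ℤ, modPiAn p (t : ℂ) (γ • τ₀) = modPiAn p (t : ℂ) τ₀) →
          γ ∈ CongruenceSubgroup.Gamma0 p) ∧
        ∀ v : ℕ, v.Prime → v ≠ p → (v : ℤ) ∣ W.Δ → ¬ (v : ℤ) ∣ W.c₄ →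
          ∀ A : ValuationSubring (AlgebraicClosure ℚ), A.LiesOverPrime v →
            algebraMap ℚ Kb a ∉ A ∧ algebraMap ℚ Kb (c 0) ∈ A ∧
              (W.InZeroComponentAt A Q ↔ algebraMap ℚ Kb (c 0) ∉ A.nonunits)

/-- **MOD** (output): `Plan.StmtMod` for curves with a prime of multiplicative reduction. -/
def StmtModC : Prop :=
  ∀ (p : ℕ) [NeZero p], IsMazurLevel p → ∀ (W : WeierstrassCurve ℤ), W.Δ ≠ 0 →
    (∃ ℓ : ℕ, ℓ.Prime ∧ (ℓ : ℤ) ∣ W.Δ ∧ ¬ (ℓ : ℤ) ∣ W.c₄) →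
    ∀ Q : ((W.map (Int.castRingHom ℚ))⁄(AlgebraicClosure ℚ)).Point,
      (∀ σ : AlgebraicClosure ℚ ≃ₐ[ℚ] AlgebraicClosure ℚ, σ • Q = Q) → addOrderOf Q = p →
      ∃ (x : Place Kb (FF p)) (a c : ℚ), IsRatPlace p x a c ∧
        ∀ v : ℕ, v.Prime → v ≠ p → (v : ℤ) ∣ W.Δ → ¬ (v : ℤ) ∣ W.c₄ →
          ∀ A : ValuationSubring (AlgebraicClosure ℚ), A.LiesOverPrime v →
            algebraMap ℚ Kb a ∉ A ∧ algebraMap ℚ Kb c ∈ A ∧
              (W.InZeroComponentAt A Q ↔ algebraMap ℚ Kb c ∉ A.nonunits)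

theorem modasm_five_le {p : ℕ} (hp : IsMazurLevel p) : 5 ≤ p := by
  obtain ⟨hp1, hp2⟩ := hp
  have h2 := hp1.two_le
  by_contra h
  have : p = 2 ∨ p = 3 ∨ p = 4 := by omega
  rcases this with rfl | rfl | rfl
  · exact hp2 (by decide)
  · exact hp2 (by decide)
  · exact absurd hp1 (by decide)

/-- The assembly of MOD. -/
theorem stmtModC_of (hE : StmtModAsmE) (hP : StmtModAsmP) : StmtModC := by
  intro p _ hp W hΔ hmult Q hfix hord
  obtain ⟨τ₀, a, c, hJ, hg₃, hc, hG0, hred⟩ := hE p hp.1 (modasm_five_le hp) W hΔ hmult Q hfix hord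
  obtain ⟨x, hx⟩ := hP p hp.1 τ₀ a c hJ hg₃ hc hG0
  exact ⟨x, a, c 0, hx, hred⟩

end Fermat.Agent.S15

end
end ZBZ2S15_002_3

/-! ### bundled: `Fermat.Agent.S15.ModUnifAlg` -/
section ZBZ2S15_002_4
/-
Item 15 (Mazur chain), piece `MOD-UNIF`, part 2 (helper13): algebra.

* `modXi_variableChange` : `ξ°` is invariant under changes of variables;
* `modunif_exists_vc` : a complex Weierstrass curve with `c₄ c₆ ≠ 0` whose `j`-invariant is the
  `j`-invariant of `(g₂, g₃)` is, after a change of variables, the curve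
  `y² = x³ - (g₂/4) x - g₃/4` of a homothetic pair `(v⁻⁴ g₂, v⁻⁶ g₃)`.
-/

set_option autoImplicit false

namespace Fermat.Agent.S15

open WeierstrassCurve Fermat.Agent.EC

section Inv

variable {R : Type*} [Field R] (W : WeierstrassCurve R) (C : VariableChange R)

/-- **`ξ°` is invariant under changes of variables.** -/
theorem modXi_variableChange (hc₆ : W.c₆ ≠ 0) (x : R) :
    modXi (C • W) x = modXi W (vcX C x) := by
  have hu : (C.u : R) ≠ 0 := C.u.ne_zero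
  unfold modXi vcX
  rw [variableChange_c₄, variableChange_c₆, variableChange_b₂, variableChange_b₄,
    variableChange_b₆]
  simp only [Units.val_inv_eq_inv_val]
  have hc₄ : W.c₄ = W.b₂ ^ 2 - 24 * W.b₄ := rfl
  rw [hc₄]
  field_simp
  ring

/-- `ξ°` on a short Weierstrass curve `y² = x³ - (g₂/4) x - g₃/4` -/
theorem modXi_short (g₂ g₃ : R) (h2 : (2 : R) ≠ 0) (h3 : (3 : R) ≠ 0) (hg₃ : g₃ ≠ 0) (x : R) :
    modXi (⟨0, 0, 0, -g₂ / 4, -g₃ / 4⟩ : WeierstrassCurve R) x = g₂ / (18 * g₃) * x + 1 / 12 := by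
  unfold modXi
  simp only [WeierstrassCurve.c₄, WeierstrassCurve.c₆, WeierstrassCurve.b₂, WeierstrassCurve.b₄,
    WeierstrassCurve.b₆]
  have h4 : (4 : R) ≠ 0 := by
    have : (4 : R) = 2 * 2 := by norm_num
    rw [this]; exact mul_ne_zero h2 h2
  have h12 : (12 : R) ≠ 0 := by
    have : (12 : R) = 4 * 3 := by norm_num
    rw [this]; exact mul_ne_zero h4 h3
  have h18 : (18 : R) ≠ 0 := by
    have : (18 : R) = 2 * (3 * 3) := by norm_num
    rw [this]; exact mul_ne_zero h2 (mul_ne_zero h3 h3)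
  have h216 : (216 : R) ≠ 0 := by
    have : (216 : R) = 12 * 18 := by norm_num
    rw [this]; exact mul_ne_zero h12 h18
  field_simp
  ring

/-- the change of variables to the short Weierstrass form with scaling `v = u⁻¹` -/
theorem modunif_vc_short (h2 : (2 : R) ≠ 0) (h3 : (3 : R) ≠ 0) (v : R) (hv : v ≠ 0) (g₂ g₃ : R)
    (h4 : v ^ 4 * W.c₄ = 12 * g₂) (h6 : v ^ 6 * W.c₆ = 216 * g₃) :
    ∃ C : VariableChange R, C • W = (⟨0, 0, 0, -g₂ / 4, -g₃ / 4⟩ : WeierstrassCurve R) ∧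
      (C.u : R) = v⁻¹ := by
  have h4' : (4 : R) ≠ 0 := by
    have : (4 : R) = 2 * 2 := by norm_num
    rw [this]; exact mul_ne_zero h2 h2
  have h12 : (12 : R) ≠ 0 := by
    have : (12 : R) = 4 * 3 := by norm_num
    rw [this]; exact mul_ne_zero h4' h3
  have h216 : (216 : R) ≠ 0 := by
    have : (216 : R) = 12 * (2 * (3 * 3)) := by norm_num
    rw [this]; exact mul_ne_zero h12 (mul_ne_zero h2 (mul_ne_zero h3 h3))
  have hg₂ : g₂ = v ^ 4 * W.c₄ / 12 := by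
    field_simp
    linear_combination -h4
  have hg₃ : g₃ = v ^ 6 * W.c₆ / 216 := by
    field_simp
    linear_combination -h6
  refine ⟨⟨Units.mk0 v⁻¹ (inv_ne_zero hv), -W.b₂ / 12, -W.a₁ / 2,
    -(W.a₃ + (-W.b₂ / 12) * W.a₁) / 2⟩, ?_, rfl⟩
  rw [hg₂, hg₃]
  ext
  · rw [variableChange_a₁]
    simp only [Units.val_inv_eq_inv_val, Units.val_mk0, inv_inv]
    field_simp
    ring
  · rw [variableChange_a₂]
    simp only [Units.val_inv_eq_inv_val, Units.val_mk0, inv_inv, WeierstrassCurve.b₂]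
    field_simp
    ring
  · rw [variableChange_a₃]
    simp only [Units.val_inv_eq_inv_val, Units.val_mk0, inv_inv, WeierstrassCurve.b₂]
    field_simp
    ring
  · rw [variableChange_a₄]
    simp only [Units.val_inv_eq_inv_val, Units.val_mk0, inv_inv, WeierstrassCurve.c₄,
      WeierstrassCurve.b₂, WeierstrassCurve.b₄]
    field_simp
    ring
  · rw [variableChange_a₆]
    simp only [Units.val_inv_eq_inv_val, Units.val_mk0, inv_inv, WeierstrassCurve.c₆,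
      WeierstrassCurve.b₂, WeierstrassCurve.b₄, WeierstrassCurve.b₆]
    field_simp
    ring

end Inv

/-- **Scaling.**  A complex curve with `c₄ c₆ Δ ≠ 0` and a pair `(g₂, g₃)` with the same
`j`-invariant `J`: there is `v ≠ 0` with `v⁴ c₄ = 12 g₂`, `v⁶ c₆ = 216 g₃`. -/
theorem modunif_exists_scale (W : WeierstrassCurve ℂ) (hc₄ : W.c₄ ≠ 0)
    (hc₆ : W.c₆ ≠ 0) (g₂ g₃ J : ℂ) (hD : g₂ ^ 3 - 27 * g₃ ^ 2 ≠ 0)
    (hJ : J * (g₂ ^ 3 - 27 * g₃ ^ 2) = 1728 * g₂ ^ 3) (hJW : J * W.Δ = W.c₄ ^ 3) :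
    g₂ ≠ 0 ∧ g₃ ≠ 0 ∧ ∃ v : ℂ, v ≠ 0 ∧ v ^ 4 * W.c₄ = 12 * g₂ ∧ v ^ 6 * W.c₆ = 216 * g₃ := by
  have hrel := W.c_relation
  have hJ0 : J ≠ 0 := by
    rintro rfl
    rw [zero_mul] at hJW
    exact pow_ne_zero 3 hc₄ hJW.symm
  have hg₂ : g₂ ≠ 0 := by
    rintro rfl
    have : J * (0 ^ 3 - 27 * g₃ ^ 2) = 0 := by rw [hJ]; ring
    rcases mul_eq_zero.mp this with h | h
    · exact hJ0 h
    · exact hD h
  have hJ1728 : J ≠ 1728 := by
    rintro rfl
    apply hc₆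
    have : W.c₆ ^ 2 = 0 := by linear_combination hrel - hJW
    exact pow_eq_zero_iff (two_ne_zero) |>.mp this
  have hg₃ : g₃ ≠ 0 := by
    rintro rfl
    apply hJ1728
    have h1 : (J - 1728) * g₂ ^ 3 = 0 := by linear_combination hJ
    rcases mul_eq_zero.mp h1 with h | h
    · linear_combination h
    · exact absurd h (pow_ne_zero 3 hg₂)
  refine ⟨hg₂, hg₃, ?_⟩
  -- `A = 12 g₂ / c₄`, `B = 216 g₃ / c₆`, `A³ = B²`
  have hAB : (12 * g₂) ^ 3 * W.c₆ ^ 2 = (216 * g₃) ^ 2 * W.c₄ ^ 3 := by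
    linear_combination (1728 * g₂ ^ 3) * hrel + (1728 * W.Δ) * hJ -
      (1728 * (g₂ ^ 3 - 27 * g₃ ^ 2)) * hJW
  obtain ⟨v, hv⟩ := IsAlgClosed.exists_pow_nat_eq ((216 * g₃ / W.c₆) / (12 * g₂ / W.c₄))
    (n := 2) (by norm_num)
  have hA0 : 12 * g₂ / W.c₄ ≠ 0 := div_ne_zero (mul_ne_zero (by norm_num) hg₂) hc₄
  have hB0 : 216 * g₃ / W.c₆ ≠ 0 := div_ne_zero (mul_ne_zero (by norm_num) hg₃) hc₆
  have hv0 : v ≠ 0 := by
    rintro rfl
    rw [zero_pow two_ne_zero] at hv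
    exact div_ne_zero hB0 hA0 hv.symm
  have hAB' : (12 * g₂ / W.c₄) ^ 3 = (216 * g₃ / W.c₆) ^ 2 := by
    rw [div_pow, div_pow, div_eq_div_iff (pow_ne_zero 3 hc₄) (pow_ne_zero 2 hc₆)]
    exact hAB
  have hv2 : v ^ 2 * (12 * g₂ / W.c₄) = 216 * g₃ / W.c₆ := by
    rw [hv, div_mul_cancel₀ _ hA0]
  have hv4 : v ^ 4 = 12 * g₂ / W.c₄ := by
    apply mul_right_cancel₀ (pow_ne_zero 2 hA0)
    calc v ^ 4 * (12 * g₂ / W.c₄) ^ 2 = (v ^ 2 * (12 * g₂ / W.c₄)) ^ 2 := by ring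
      _ = (216 * g₃ / W.c₆) ^ 2 := by rw [hv2]
      _ = (12 * g₂ / W.c₄) ^ 3 := hAB'.symm
      _ = 12 * g₂ / W.c₄ * (12 * g₂ / W.c₄) ^ 2 := by ring
  have hv6 : v ^ 6 = 216 * g₃ / W.c₆ := by
    calc v ^ 6 = v ^ 2 * v ^ 4 := by ring
      _ = v ^ 2 * (12 * g₂ / W.c₄) := by rw [hv4]
      _ = 216 * g₃ / W.c₆ := hv2
  refine ⟨v, hv0, ?_, ?_⟩
  · rw [hv4, div_mul_cancel₀ _ hc₄]
  · rw [hv6, div_mul_cancel₀ _ hc₆]

end Fermat.Agent.S15


end ZBZ2S15_002_4

/-! ### bundled: `Fermat.Agent.S15.ModUnifLat` -/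
section ZBZ2S15_002_5
/-
Item 15 (Mazur chain), piece `MOD-UNIF`, part 3 (helper13): lattices.

* homogeneity of `G_n`, `℘`, `℘'` under homotheties of lattices (`modunif_G_scale`,
  `modunif_wp_scale`);
* the invariants of `ℤ τ + ℤ`: `g₂ = (4π⁴/3) E₄`, `g₃ = (8π⁶/27) E₆`,
  `g₂³ - 27 g₃² = (2π)¹² Δ ≠ 0`, `J · (g₂³ - 27 g₃²) = 1728 g₂³`.
-/

set_option autoImplicit false

noncomputable section

namespace Fermat.Agent.S15

open Complex PeriodPair UpperHalfPlane ModularForm EisensteinSeries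
open Fermat.Agent.S24 Fermat.Agent.ES.RC

section Scale

variable (L L' : PeriodPair) (c : ℂ)

/-- the bijection `l' ↦ c l'` between homothetic lattices -/
def modunifLatEquiv (hc : c ≠ 0) (h : ∀ z, z ∈ L'.lattice ↔ c * z ∈ L.lattice) :
    L'.lattice ≃ L.lattice where
  toFun l := ⟨c * l, (h l).1 l.2⟩
  invFun l := ⟨c⁻¹ * l, (h _).2 (by rw [mul_inv_cancel_left₀ hc]; exact l.2)⟩
  left_inv l := by
    apply Subtype.ext
    simp [inv_mul_cancel_left₀ hc]
  right_inv l := by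
    apply Subtype.ext
    simp [mul_inv_cancel_left₀ hc]

variable {L L' c}

/-- homogeneity of the Eisenstein sums -/
theorem modunif_G_scale (hc : c ≠ 0) (h : ∀ z, z ∈ L'.lattice ↔ c * z ∈ L.lattice) (n : ℕ) :
    L'.G n = c ^ n * L.G n := by
  rw [PeriodPair.G, PeriodPair.G, ← (modunifLatEquiv L L' c hc h).tsum_eq, ← tsum_mul_left]
  refine tsum_congr fun l => ?_
  show ((l : ℂ) ^ n)⁻¹ = c ^ n * ((c * (l : ℂ)) ^ n)⁻¹
  rw [mul_pow, mul_inv, ← mul_assoc, mul_inv_cancel₀ (pow_ne_zero n hc), one_mul]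

theorem modunif_g₂_scale (hc : c ≠ 0) (h : ∀ z, z ∈ L'.lattice ↔ c * z ∈ L.lattice) :
    L'.g₂ = c ^ 4 * L.g₂ := by
  rw [PeriodPair.g₂, PeriodPair.g₂, modunif_G_scale hc h]
  ring

theorem modunif_g₃_scale (hc : c ≠ 0) (h : ∀ z, z ∈ L'.lattice ↔ c * z ∈ L.lattice) :
    L'.g₃ = c ^ 6 * L.g₃ := by
  rw [PeriodPair.g₃, PeriodPair.g₃, modunif_G_scale hc h]
  ring

/-- homogeneity of `℘` -/
theorem modunif_wp_scale (hc : c ≠ 0) (h : ∀ z, z ∈ L'.lattice ↔ c * z ∈ L.lattice) (z : ℂ) :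
    ℘[L'] z = c ^ 2 * ℘[L] (c * z) := by
  rw [PeriodPair.weierstrassP, PeriodPair.weierstrassP,
    ← (modunifLatEquiv L L' c hc h).tsum_eq, ← tsum_mul_left]
  refine tsum_congr fun l => ?_
  show 1 / (z - (l : ℂ)) ^ 2 - 1 / (l : ℂ) ^ 2 =
    c ^ 2 * (1 / (c * z - c * (l : ℂ)) ^ 2 - 1 / (c * (l : ℂ)) ^ 2)
  have h1 : c * z - c * (l : ℂ) = c * (z - l) := by ring
  rw [h1, mul_pow, mul_pow, mul_sub, one_div, one_div, one_div, one_div, mul_inv, mul_inv,
    ← mul_assoc, ← mul_assoc, mul_inv_cancel₀ (pow_ne_zero 2 hc), one_mul, one_mul]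

end Scale

section Tau

/-- `ζ(6) = π⁶ / 945` -/
theorem modunif_zeta_six : riemannZeta 6 = (Real.pi : ℂ) ^ 6 / 945 := by
  have h := riemannZeta_two_mul_nat (k := 3) (by norm_num)
  have hb : bernoulli 6 = 1 / 42 := by
    rw [bernoulli_eq_bernoulli'_of_ne_one (by norm_num)]
    have h1 : Nat.choose 6 2 = 15 := by decide
    have h2 : Nat.choose 6 3 = 20 := by decide
    have h3 : Nat.choose 6 4 = 15 := by decide
    have h4 : Nat.choose 6 5 = 6 := by decide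
    have h5 : bernoulli' 5 = 0 := bernoulli'_eq_zero_of_odd (by decide) (by norm_num)
    rw [bernoulli'_def]
    norm_num [Finset.sum_range_succ, Finset.sum_range_zero, h1, h2, h3, h4, h5]
  have h6 : ((2 * (3 : ℕ) : ℕ) : ℂ) = 6 := by norm_num
  have hfact : ((2 * 3).factorial : ℂ) = 720 := by
    norm_num [Nat.factorial]
  have h2k : (2 : ℂ) * ((3 : ℕ) : ℂ) = 6 := by norm_num
  rw [h2k] at h
  rw [h, hb]
  norm_num [Nat.factorial]
  ring

variable (τ : ℍ)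

theorem modunif_lattice_iff (z : ℂ) :
    z ∈ (modLat τ).lattice ↔ (1 : ℂ) * z ∈ (jinjPair τ 1 one_ne_zero).lattice := by
  rw [one_mul, mem_lattice, mem_lattice]
  simp only [modLat_ω₁, modLat_ω₂, jinjPair_ω₁, jinjPair_ω₂, one_mul]

/-- the Eisenstein sums of `ℤ τ + ℤ` -/
theorem modunif_G_tau {n : ℕ} (hn : 3 ≤ n) :
    (modLat τ).G n = 2 * riemannZeta n * E hn τ := by
  rw [modunif_G_scale one_ne_zero (modunif_lattice_iff τ), jinj_G_pair, jinjSum_eq τ hn]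
  simp

/-- `g₂(ℤτ + ℤ) = (4π⁴/3) E₄(τ)` -/
theorem modunif_g₂_tau : (modLat τ).g₂ = 4 * (Real.pi : ℂ) ^ 4 / 3 * E₄ τ := by
  rw [PeriodPair.g₂, modunif_G_tau τ (by norm_num : 3 ≤ 4)]
  have h4 : ((4 : ℕ) : ℂ) = 4 := by norm_num
  rw [h4, riemannZeta_four]
  ring

/-- `g₃(ℤτ + ℤ) = (8π⁶/27) E₆(τ)` -/
theorem modunif_g₃_tau : (modLat τ).g₃ = 8 * (Real.pi : ℂ) ^ 6 / 27 * E₆ τ := by
  rw [PeriodPair.g₃, modunif_G_tau τ (by norm_num : 3 ≤ 6)]
  have h6 : ((6 : ℕ) : ℂ) = 6 := by norm_num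
  rw [h6, modunif_zeta_six]
  ring

/-- `g₂³ - 27 g₃² = (2π)¹² Δ` -/
theorem modunif_disc_tau :
    (modLat τ).g₂ ^ 3 - 27 * (modLat τ).g₃ ^ 2 =
      (2 * (Real.pi : ℂ)) ^ 12 * ModularForm.discriminant τ := by
  rw [modunif_g₂_tau, modunif_g₃_tau, discriminant_eq_E₄_cube_sub_E₆_sq]
  ring

theorem modunif_disc_ne_zero : (modLat τ).g₂ ^ 3 - 27 * (modLat τ).g₃ ^ 2 ≠ 0 := by
  rw [modunif_disc_tau]
  refine mul_ne_zero (pow_ne_zero 12 (mul_ne_zero two_ne_zero ?_)) (discriminant_ne_zero τ)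
  exact_mod_cast Real.pi_ne_zero

/-- `J(τ) (g₂³ - 27 g₃²) = 1728 g₂³` -/
theorem modunif_Jfun_tau :
    Jfun τ * ((modLat τ).g₂ ^ 3 - 27 * (modLat τ).g₃ ^ 2) = 1728 * (modLat τ).g₂ ^ 3 := by
  rw [modunif_disc_tau, modunif_g₂_tau, Jfun]
  have hΔ := discriminant_ne_zero τ
  field_simp
  ring

end Tau

end Fermat.Agent.S15

end
end ZBZ2S15_002_5

/-! ### bundled: `Fermat.Agent.S15.ModG0` -/
section ZBZ2S15_002_6

/-!
# S15 / MOD-G0 — homogeneity of the analytic `ξ°` and the `Γ₀(N)`-criterion (helper56)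

Mathlib + `S15/ModDefs.lean` only.

* `modg0_xi_smul` : `ξ°(z; γτ) = ξ°((cτ+d) z; τ)` for `γ ∈ SL₂(ℤ)`
  (`Λ_{γτ} = (cτ+d)⁻¹ Λ_τ`, so `℘`, `g₂`, `g₃` have weights `2, 4, 6`; `ξ°` has weight `0`).
* `modg0_main` : if the Fricke products `Π_t(γτ) = Π_t(τ)` for all `t ∈ ℤ` and `ξ°(·; τ)` is
  injective modulo `±` and the lattice, then `γ ∈ Γ₀(N)`.
-/

set_option autoImplicit false

noncomputable section

namespace Fermat.Agent.S15

open Complex PeriodPair
open UpperHalfPlane hiding I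
open scoped MatrixGroups

/-- the automorphy factor `c τ + d` -/
def modg0J (γ : SL(2, ℤ)) (τ : ℍ) : ℂ := ((γ 1 0 : ℤ) : ℂ) * (τ : ℂ) + ((γ 1 1 : ℤ) : ℂ)

theorem modg0J_ne_zero (γ : SL(2, ℤ)) (τ : ℍ) : modg0J γ τ ≠ 0 := by
  have h := UpperHalfPlane.denom_ne_zero γ τ
  rwa [ModularGroup.denom_apply] at h

theorem modg0_coe_smul (γ : SL(2, ℤ)) (τ : ℍ) :
    ((γ • τ : ℍ) : ℂ) = (((γ 0 0 : ℤ) : ℂ) * τ + ((γ 0 1 : ℤ) : ℂ)) / modg0J γ τ := by
  rw [UpperHalfPlane.coe_specialLinearGroup_apply]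
  simp [modg0J]

theorem modg0_det (γ : SL(2, ℤ)) : γ 0 0 * γ 1 1 - γ 0 1 * γ 1 0 = 1 := by
  have h := γ.2
  rw [Matrix.det_fin_two] at h
  exact h

theorem modg0_det_complex (γ : SL(2, ℤ)) :
    ((γ 0 0 : ℤ) : ℂ) * ((γ 1 1 : ℤ) : ℂ) - ((γ 0 1 : ℤ) : ℂ) * ((γ 1 0 : ℤ) : ℂ) = 1 := by
  have h := modg0_det γ
  exact_mod_cast h

/-- `(cτ+d) · Λ_{γτ} ⊆ Λ_τ` -/
theorem modg0_mul_mem (γ : SL(2, ℤ)) (τ : ℍ) {l : ℂ} (hl : l ∈ (modLat (γ • τ)).lattice) :
    modg0J γ τ * l ∈ (modLat τ).lattice := by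
  rw [PeriodPair.mem_lattice] at hl ⊢
  obtain ⟨m, n, rfl⟩ := hl
  refine ⟨m * γ 0 0 + n * γ 1 0, m * γ 0 1 + n * γ 1 1, ?_⟩
  have hj := modg0J_ne_zero γ τ
  simp only [modLat_ω₁, modLat_ω₂, mul_one]
  rw [modg0_coe_smul]
  push_cast
  field_simp
  unfold modg0J
  ring

/-- `(cτ+d)⁻¹ · Λ_τ ⊆ Λ_{γτ}` -/
theorem modg0_div_mem (γ : SL(2, ℤ)) (τ : ℍ) {l : ℂ} (hl : l ∈ (modLat τ).lattice) :
    l / modg0J γ τ ∈ (modLat (γ • τ)).lattice := by
  rw [PeriodPair.mem_lattice] at hl ⊢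
  obtain ⟨m, n, rfl⟩ := hl
  refine ⟨m * γ 1 1 - n * γ 1 0, -(m * γ 0 1) + n * γ 0 0, ?_⟩
  have hj := modg0J_ne_zero γ τ
  have hdet := modg0_det_complex γ
  simp only [modLat_ω₁, modLat_ω₂, mul_one]
  rw [modg0_coe_smul]
  push_cast
  field_simp
  unfold modg0J
  linear_combination ((m : ℂ) * τ + n) * hdet

/-- multiplication by `cτ+d` as a bijection `Λ_{γτ} ≃ Λ_τ` -/
def modg0Equiv (γ : SL(2, ℤ)) (τ : ℍ) : (modLat (γ • τ)).lattice ≃ (modLat τ).lattice where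
  toFun l := ⟨modg0J γ τ * l.1, modg0_mul_mem γ τ l.2⟩
  invFun l := ⟨l.1 / modg0J γ τ, modg0_div_mem γ τ l.2⟩
  left_inv l := by
    apply Subtype.ext
    have hj := modg0J_ne_zero γ τ
    simp only
    field_simp
  right_inv l := by
    apply Subtype.ext
    have hj := modg0J_ne_zero γ τ
    simp only
    field_simp

@[simp] theorem modg0Equiv_apply (γ : SL(2, ℤ)) (τ : ℍ) (l : (modLat (γ • τ)).lattice) :
    ((modg0Equiv γ τ l : (modLat τ).lattice) : ℂ) = modg0J γ τ * (l : ℂ) := rfl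

/-- the Eisenstein sums have weight `n` -/
theorem modg0_G (γ : SL(2, ℤ)) (τ : ℍ) (n : ℕ) :
    (modLat (γ • τ)).G n = modg0J γ τ ^ n * (modLat τ).G n := by
  have hj := modg0J_ne_zero γ τ
  unfold PeriodPair.G
  rw [← (modg0Equiv γ τ).tsum_eq, ← tsum_mul_left]
  refine tsum_congr fun l => ?_
  rw [modg0Equiv_apply, mul_pow, mul_inv, ← mul_assoc, mul_inv_cancel₀ (pow_ne_zero n hj),
    one_mul]

theorem modg0_g₂ (γ : SL(2, ℤ)) (τ : ℍ) :
    (modLat (γ • τ)).g₂ = modg0J γ τ ^ 4 * (modLat τ).g₂ := by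
  unfold PeriodPair.g₂
  rw [modg0_G]
  ring

theorem modg0_g₃ (γ : SL(2, ℤ)) (τ : ℍ) :
    (modLat (γ • τ)).g₃ = modg0J γ τ ^ 6 * (modLat τ).g₃ := by
  unfold PeriodPair.g₃
  rw [modg0_G]
  ring

/-- `℘` has weight `2` -/
theorem modg0_P (γ : SL(2, ℤ)) (τ : ℍ) (z : ℂ) :
    ℘[modLat (γ • τ)] z = modg0J γ τ ^ 2 * ℘[modLat τ] (modg0J γ τ * z) := by
  have hj := modg0J_ne_zero γ τ
  unfold PeriodPair.weierstrassP
  rw [← (modg0Equiv γ τ).tsum_eq, ← tsum_mul_left]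
  refine tsum_congr fun l => ?_
  rw [modg0Equiv_apply, ← mul_sub, mul_pow, mul_pow]
  by_cases h1 : (z - (l : ℂ)) ^ 2 = 0
  · by_cases h2 : ((l : ℂ)) ^ 2 = 0
    · simp [h1, h2]
    · rw [h1]
      field_simp
  · by_cases h2 : ((l : ℂ)) ^ 2 = 0
    · rw [h2]
      field_simp
    · field_simp

/-- **MOD-G0 (1).** homogeneity of the analytic `ξ°` under `SL₂(ℤ)` -/
theorem modg0_xi_smul (τ : ℍ) (γ : SL(2, ℤ)) (z : ℂ) :
    modXiAn (γ • τ) z = modXiAn τ ((((γ 1 0 : ℤ) : ℂ) * (τ : ℂ) + ((γ 1 1 : ℤ) : ℂ)) * z) := by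
  have hj := modg0J_ne_zero γ τ
  unfold modXiAn
  rw [modg0_g₂, modg0_g₃, modg0_P]
  show _ = (modLat τ).g₂ / (18 * (modLat τ).g₃) * ℘[modLat τ] (modg0J γ τ * z) + 1 / 12
  by_cases hg : (modLat τ).g₃ = 0
  · simp [hg]
  · field_simp


/-! ## The `Γ₀(N)`-criterion -/

/-- coordinates of a lattice point of the form `(cτ+d)/N` -/
theorem modg0_lattice_coord (τ : ℍ) (N : ℕ) (hN : N ≠ 0) (c d : ℤ)
    (h : ((c : ℂ) * τ + d) / N ∈ (modLat τ).lattice) : (N : ℤ) ∣ c ∧ (N : ℤ) ∣ d := by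
  rw [PeriodPair.mem_lattice] at h
  obtain ⟨m, n, hmn⟩ := h
  simp only [modLat_ω₁, modLat_ω₂, mul_one] at hmn
  have hN' : (N : ℂ) ≠ 0 := by exact_mod_cast hN
  have h1 : ((N : ℂ) * m - c) * τ + ((N : ℂ) * n - d) = 0 := by
    have h2 : ((m : ℂ) * τ + n) * N = (c : ℂ) * τ + d := by
      rw [hmn]
      field_simp
    linear_combination h2
  have him := congrArg Complex.im h1
  have hre := congrArg Complex.re h1
  simp only [add_im, mul_im, sub_re, mul_re, natCast_re, intCast_re, natCast_im, intCast_im,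
    mul_zero, sub_zero, sub_im, zero_mul, add_zero, UpperHalfPlane.coe_im, zero_im, sub_self,
    add_re, UpperHalfPlane.coe_re, zero_re] at him hre
  have hc : (N : ℝ) * m - c = 0 := by
    rcases mul_eq_zero.mp him with h | h
    · exact h
    · exact absurd h τ.im_ne_zero
  rw [hc, zero_mul, zero_add] at hre
  constructor
  · refine ⟨m, ?_⟩
    have : ((N : ℤ) * m : ℤ) = c := by
      have h3 : ((N : ℝ) * m : ℝ) = c := by linarith
      exact_mod_cast h3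
    exact this.symm
  · refine ⟨n, ?_⟩
    have : ((N : ℤ) * n : ℤ) = d := by
      have h3 : ((N : ℝ) * n : ℝ) = d := by linarith
      exact_mod_cast h3
    exact this.symm

/-- the Fricke polynomial `∏ (X - ξ°(k/N; τ))` -/
def modg0Poly (N : ℕ) (τ : ℍ) : Polynomial ℂ :=
  ∏ k ∈ Finset.Ico 1 N, (Polynomial.X - Polynomial.C (modXiAn τ ((k : ℂ) / (N : ℂ))))

theorem modg0Poly_eval (N : ℕ) (τ : ℍ) (t : ℂ) :
    (modg0Poly N τ).eval t = modPiAn N t τ := by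
  unfold modg0Poly modPiAn
  rw [Polynomial.eval_prod]
  refine Finset.prod_congr rfl fun k _ => ?_
  simp

/-- **MOD-G0 (2).** the `Γ₀(N)`-criterion -/
theorem modg0_main (N : ℕ) (hN : 2 ≤ N) (τ : ℍ) (γ : SL(2, ℤ))
    (hinj : ∀ z₁ z₂ : ℂ, z₁ ∉ (modLat τ).lattice → z₂ ∉ (modLat τ).lattice →
      modXiAn τ z₁ = modXiAn τ z₂ →
        z₁ - z₂ ∈ (modLat τ).lattice ∨ z₁ + z₂ ∈ (modLat τ).lattice)
    (h : ∀ t : ℤ, modPiAn N t (γ • τ) = modPiAn N t τ) :
    γ ∈ CongruenceSubgroup.Gamma0 N := by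
  have hN0 : N ≠ 0 := by omega
  have hNC : (N : ℂ) ≠ 0 := by exact_mod_cast hN0
  -- the two Fricke polynomials agree
  have hpoly : modg0Poly N (γ • τ) = modg0Poly N τ := by
    refine Polynomial.eq_of_infinite_eval_eq _ _ ?_
    refine Set.infinite_of_injective_forall_mem (f := fun t : ℤ => (t : ℂ))
      Int.cast_injective (fun t => ?_)
    show (modg0Poly N (γ • τ)).eval (t : ℂ) = (modg0Poly N τ).eval (t : ℂ)
    rw [modg0Poly_eval, modg0Poly_eval]
    exact h t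
  -- `ξ°(1/N; γτ)` is a root
  have h1mem : 1 ∈ Finset.Ico 1 N := by
    rw [Finset.mem_Ico]
    omega
  have hroot : (modg0Poly N (γ • τ)).eval (modXiAn (γ • τ) (((1 : ℕ) : ℂ) / (N : ℂ))) = 0 := by
    rw [modg0Poly_eval]
    unfold modPiAn
    exact Finset.prod_eq_zero h1mem (sub_self _)
  rw [hpoly, modg0Poly_eval] at hroot
  unfold modPiAn at hroot
  obtain ⟨k, hk, hk0⟩ := Finset.prod_eq_zero_iff.mp hroot
  rw [Finset.mem_Ico] at hk
  have hxi : modXiAn τ ((((γ 1 0 : ℤ) : ℂ) * (τ : ℂ) + ((γ 1 1 : ℤ) : ℂ)) *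
      (((1 : ℕ) : ℂ) / (N : ℂ))) = modXiAn τ ((k : ℂ) / (N : ℂ)) := by
    rw [← modg0_xi_smul]
    exact sub_eq_zero.mp hk0
  -- the two points are not in the lattice
  have hz₂ : ((k : ℂ) / (N : ℂ)) ∉ (modLat τ).lattice := by
    intro hmem
    have h2 : (((0 : ℤ) : ℂ) * τ + ((k : ℤ) : ℂ)) / N ∈ (modLat τ).lattice := by
      simpa using hmem
    obtain ⟨-, hd⟩ := modg0_lattice_coord τ N hN0 0 k h2
    have h3 : N ∣ k := by exact_mod_cast hd
    have := Nat.le_of_dvd (by omega) h3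
    omega
  have hz₁ : ((((γ 1 0 : ℤ) : ℂ) * (τ : ℂ) + ((γ 1 1 : ℤ) : ℂ)) *
      (((1 : ℕ) : ℂ) / (N : ℂ))) ∉ (modLat τ).lattice := by
    intro hmem
    have h2 : (((γ 1 0 : ℤ) : ℂ) * τ + ((γ 1 1 : ℤ) : ℂ)) / N ∈ (modLat τ).lattice := by
      have e : (((γ 1 0 : ℤ) : ℂ) * τ + ((γ 1 1 : ℤ) : ℂ)) / N =
          (((γ 1 0 : ℤ) : ℂ) * (τ : ℂ) + ((γ 1 1 : ℤ) : ℂ)) * (((1 : ℕ) : ℂ) / (N : ℂ)) := by
        push_cast
        ring
      rw [e]
      exact hmem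
    obtain ⟨hc, hd⟩ := modg0_lattice_coord τ N hN0 _ _ h2
    have hdet := modg0_det γ
    have h3 : (N : ℤ) ∣ 1 := by
      rw [← hdet]
      exact dvd_sub (Dvd.dvd.mul_left hd _) (Dvd.dvd.mul_left hc _)
    have h4 : N ∣ 1 := by exact_mod_cast h3
    have := Nat.le_of_dvd one_pos h4
    omega
  -- injectivity
  have hc : (N : ℤ) ∣ γ 1 0 := by
    rcases hinj _ _ hz₁ hz₂ hxi with hm | hm
    · have h2 : (((γ 1 0 : ℤ) : ℂ) * τ + ((γ 1 1 - k : ℤ) : ℂ)) / N ∈ (modLat τ).lattice := by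
        have e : (((γ 1 0 : ℤ) : ℂ) * τ + ((γ 1 1 - k : ℤ) : ℂ)) / N =
            (((γ 1 0 : ℤ) : ℂ) * (τ : ℂ) + ((γ 1 1 : ℤ) : ℂ)) * (((1 : ℕ) : ℂ) / (N : ℂ))
              - (k : ℂ) / (N : ℂ) := by
          push_cast
          ring
        rw [e]
        exact hm
      exact (modg0_lattice_coord τ N hN0 _ _ h2).1
    · have h2 : (((γ 1 0 : ℤ) : ℂ) * τ + ((γ 1 1 + k : ℤ) : ℂ)) / N ∈ (modLat τ).lattice := by
        have e : (((γ 1 0 : ℤ) : ℂ) * τ + ((γ 1 1 + k : ℤ) : ℂ)) / N =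
            (((γ 1 0 : ℤ) : ℂ) * (τ : ℂ) + ((γ 1 1 : ℤ) : ℂ)) * (((1 : ℕ) : ℂ) / (N : ℂ))
              + (k : ℂ) / (N : ℂ) := by
          push_cast
          ring
        rw [e]
        exact hm
      exact (modg0_lattice_coord τ N hN0 _ _ h2).1
  rw [CongruenceSubgroup.Gamma0_mem]
  exact (ZMod.intCast_zmod_eq_zero_iff_dvd _ N).mpr hc

end Fermat.Agent.S15

end
end ZBZ2S15_002_6

/-! ### bundled: `Fermat.Agent.S15.ModPlaceVal` -/
section ZBZ2S15_002_7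

/-!
# S15 / MOD-PLACE (helper8), part 2: values of `f ∈ F_N` at the place at `τ₀`

Bridge between the two analytic frameworks: S24 (`Ban N`, `Man N`, `phi N`) and S28 / ES-RC
(`modFunAlg N`, `laurentOf`).

* `modAn N P` : the analytic function `P(J(dτ))_d` of a polynomial `P` over `ℚ̄`;
  `modAn_isModFun`, `modAn_laurentOf`.
* `modplace_exists_rep` : every `f ∈ F_N` is `P(j_d) / Q(j_d)`.
* `modplace_isPlaceAt` : `IsPlaceAt N τ₀ (modPlace N τ₀ c₀ h)`.
-/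

set_option autoImplicit false
set_option linter.unusedSectionVars false
set_option linter.style.haveILetI false

noncomputable section

open UpperHalfPlane AlgebraicCurve ModularCurve IntermediateField
open scoped MatrixGroups Manifold

namespace Fermat.Agent.S15

open Fermat.Agent.S24 Fermat.Agent.S28 Fermat.Agent.S23 Fermat.Agent.ES.RC Fermat.Agent.W1
open Fermat.Agent.ES.G2

attribute [local instance] algKbC

variable (N : ℕ) [NeZero N]

/-! ### The analytic function of a polynomial in the `j(q^d)` -/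

/-- the analytic function `P(J(dτ))_{d ∣ N}` -/
def modAn (P : MvPolynomial (Dv N) Kb) : ℍ → ℂ := MvPolynomial.aeval (R := Kb) (Jdfam N) P

theorem modAn_C (a : Kb) : modAn N (MvPolynomial.C a) = fun _ => embC a := by
  rw [modAn, MvPolynomial.aeval_C]
  rfl

theorem modAn_X (d : Dv N) : modAn N (MvPolynomial.X d) = Jd d.1 := by
  rw [modAn, MvPolynomial.aeval_X]
  rfl

theorem modAn_add (P Q : MvPolynomial (Dv N) Kb) : modAn N (P + Q) = modAn N P + modAn N Q := by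
  rw [modAn, map_add]
  rfl

theorem modAn_mul (P Q : MvPolynomial (Dv N) Kb) : modAn N (P * Q) = modAn N P * modAn N Q := by
  rw [modAn, map_mul]
  rfl

theorem modplace_Jd_eq (d : Dv N) :
    haveI : NeZero d.1 := ⟨fun h => NeZero.ne N (by have := d.2; rw [h] at this; simpa using this)⟩
    Jd d.1 = fun z => Jfun (scaleN d.1 z) := by
  haveI : NeZero d.1 := ⟨fun h => NeZero.ne N (by have := d.2; rw [h] at this; simpa using this)⟩
  funext z
  exact swap_Jd_eq (NeZero.ne d.1) z (scaleN d.1 z) (coe_scaleN d.1 z)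

theorem modplace_isModFun_Jd (d : Dv N) : IsModFun N (Jd d.1) := by
  haveI : NeZero d.1 := ⟨fun h => NeZero.ne N (by have := d.2; rw [h] at this; simpa using this)⟩
  rw [modplace_Jd_eq]
  exact rc_isModFun_Jfun_scaleN d.2

theorem modAn_isModFun (P : MvPolynomial (Dv N) Kb) : IsModFun N (modAn N P) := by
  induction P using MvPolynomial.induction_on with
  | C a => rw [modAn_C]; exact isModFun_const N _
  | add p q hp hq => rw [modAn_add]; exact hp.add hq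
  | mul_X p i hp => rw [modAn_mul, modAn_X]; exact hp.mul (modplace_isModFun_Jd N i)

theorem modplace_coeffMap_jBfam (d : Dv N) :
    coeffMap embC (jBfam N d) = laurentOf (Jd d.1) := by
  haveI : NeZero d.1 := ⟨fun h => NeZero.ne N (by have := d.2; rw [h] at this; simpa using this)⟩
  rw [modplace_Jd_eq, laurentOf_Jfun_scaleN]
  show coeffMap embC ((jdF N d.1 d.2 : FF N) : LaurentSeries Kb) = _
  rw [jdF_coe, ← jqModC_rat, ← intJd_eq, coeffEmb, coeffMap_intJd, coeffMap_intJd, intJd_eq]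
  rfl

theorem modAn_laurentOf (P : MvPolynomial (Dv N) Kb) :
    laurentOf (modAn N P) = coeffMap embC (MvPolynomial.aeval (jBfam N) P) := by
  induction P using MvPolynomial.induction_on with
  | C a =>
    rw [modAn_C, laurentOf_const, MvPolynomial.aeval_C, algebraMap_laurentSeries_eq_single,
      coeffMap_single]
    rfl
  | add p q hp hq =>
    rw [modAn_add, laurentOf_add (modAn_isModFun N p).isMerInf (modAn_isModFun N q).isMerInf,
      hp, hq, map_add, map_add]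
  | mul_X p i hp =>
    rw [modAn_mul, modAn_X, laurentOf_mul (modAn_isModFun N p).isMerInf
      (modplace_isModFun_Jd N i).isMerInf, hp, map_mul, map_mul, MvPolynomial.aeval_X,
      modplace_coeffMap_jBfam]

/-! ### Representation of the elements of `F_N` -/

theorem modplace_coe_aeval_jFfam (P : MvPolynomial (Dv N) Kb) :
    ((MvPolynomial.aeval (jFfam N) P : FF N) : LaurentSeries Kb) =
      MvPolynomial.aeval (jBfam N) P := by
  have h := MvPolynomial.comp_aeval_apply (jFfam N) (modularFunctionFieldBar N).val P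
  exact h

theorem modplace_phi_aeval (P : MvPolynomial (Dv N) Kb) :
    phi N (MvPolynomial.aeval (jFfam N) P) =
      algebraMap (Ban N) (Man N) (MvPolynomial.aeval (JdBanfam N) P) := by
  rw [← aeval_JdManfam]
  have h := MvPolynomial.comp_aeval_apply (jFfam N) (phi N) P
  rw [h]
  congr 2
  funext d
  exact phi_jdF N d.1 d.2

theorem modplace_coe_aeval_JdBanfam (P : MvPolynomial (Dv N) Kb) :
    ((MvPolynomial.aeval (JdBanfam N) P : Ban N) : ℍ → ℂ) = modAn N P :=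
  coe_aeval_JdBanfam N P

/-- every element of `F_N` is a quotient of polynomials in the `j(q^d)`, `d ∣ N` -/
theorem modplace_exists_rep (f : FF N) : ∃ P Q : MvPolynomial (Dv N) Kb,
    MvPolynomial.aeval (jFfam N) Q ≠ 0 ∧
      f * MvPolynomial.aeval (jFfam N) Q = MvPolynomial.aeval (jFfam N) P := by
  have hf : f ∈ (⊤ : IntermediateField Kb (FF N)) := IntermediateField.mem_top
  rw [FF_eq_adjoin_range, IntermediateField.mem_adjoin_range_iff] at hf
  obtain ⟨r, s, hrs⟩ := hf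
  by_cases hs : MvPolynomial.aeval (jFfam N) s = 0
  · refine ⟨0, 1, ?_, ?_⟩
    · rw [map_one]; exact one_ne_zero
    · rw [hrs, hs, div_zero, zero_mul, map_zero]
  · exact ⟨r, s, hs, by rw [hrs, div_mul_cancel₀ _ hs]⟩

/-! ### The comparison of two representations -/

variable {N}

/-- **bridge.**  If `f = P(j)/Q(j)` in `F_N` and `f = a / b` with `a`, `b` holomorphic modular
functions, then `P(J) · b = a · Q(J)` as functions on `ℍ`. -/
theorem modplace_bridge {f : FF N} {P Q : MvPolynomial (Dv N) Kb}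
    (hPQ : f * MvPolynomial.aeval (jFfam N) Q = MvPolynomial.aeval (jFfam N) P)
    {a b : ℍ → ℂ} (ha : IsModFun N a) (hb : IsModFun N b)
    (hab : coeffMap embC (f : LaurentSeries Kb) * laurentOf b = laurentOf a) :
    modAn N P * b = a * modAn N Q := by
  have hP := (modAn_isModFun N P).isMerInf
  have hQ := (modAn_isModFun N Q).isMerInf
  apply laurentOf_injective (hP.mul hb.isMerInf) (ha.isMerInf.mul hQ)
  rw [laurentOf_mul hP hb.isMerInf, laurentOf_mul ha.isMerInf hQ, modAn_laurentOf,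
    modAn_laurentOf, ← modplace_coe_aeval_jFfam, ← modplace_coe_aeval_jFfam, ← hPQ, ← hab]
  have : ((f * MvPolynomial.aeval (jFfam N) Q : FF N) : LaurentSeries Kb) =
      (f : LaurentSeries Kb) * ((MvPolynomial.aeval (jFfam N) Q : FF N) : LaurentSeries Kb) := rfl
  rw [this, map_mul]
  ring

/-! ### `IsPlaceAt` -/

theorem modplace_ordAt_ne_zero_iff {f : ℍ → ℂ} (hf : MDiff f) (τ₀ : ℍ) :
    ordAt τ₀ f ≠ 0 ↔ f τ₀ = 0 := by
  have han := ordAt_analyticAt hf τ₀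
  rw [ordAt, han.analyticOrderAt_ne_zero]
  simp

theorem modplace_ordAt_eq_zero {f : ℍ → ℂ} (hf : MDiff f) {τ₀ : ℍ} (h : f τ₀ ≠ 0) :
    ordAt τ₀ f = 0 := by
  by_contra h1
  exact h ((modplace_ordAt_ne_zero_iff hf τ₀).1 h1)

/-- **values.**  The place `modPlace N τ₀ c₀ h` is the place of `F_N` at the point `τ₀`. -/
theorem modplace_isPlaceAt {τ₀ : ℍ} {c₀ : Kb} (h : Jfun τ₀ = embC c₀) :
    IsPlaceAt N τ₀ (modPlace N τ₀ c₀ h) := by
  intro f a b hab hb c hc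
  show f - algebraMap Kb (FF N) c ∈ (modPlace N τ₀ c₀ h).toValuationSubring.nonunits
  set g : FF N := f - algebraMap Kb (FF N) c with hg
  rcases eq_or_ne g 0 with h0 | h0
  · rw [h0]
    exact (modPlace N τ₀ c₀ h).toValuationSubring.nonunits.zero_mem
  obtain ⟨P, Q, hQ, hPQ⟩ := modplace_exists_rep N g
  -- the analytic numerator of `g`
  have hc' : IsModFun N (fun _ : ℍ => embC c) := isModFun_const N _
  have ha' : IsModFun N ((a : ℍ → ℂ) - (fun _ : ℍ => embC c) * (b : ℍ → ℂ)) :=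
    a.2.sub (hc'.mul b.2)
  have hab' : coeffMap embC (g : LaurentSeries Kb) * laurentOf (b : ℍ → ℂ) =
      laurentOf ((a : ℍ → ℂ) - (fun _ : ℍ => embC c) * (b : ℍ → ℂ)) := by
    have e1 : ((g : FF N) : LaurentSeries Kb) =
        (f : LaurentSeries Kb) - algebraMap Kb (LaurentSeries Kb) c := rfl
    have e2 : (a : ℍ → ℂ) - (fun _ : ℍ => embC c) * (b : ℍ → ℂ) =
        (a : ℍ → ℂ) + (fun _ : ℍ => -embC c) * (b : ℍ → ℂ) := by
      funext z
      simp only [Pi.sub_apply, Pi.mul_apply, Pi.add_apply]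
      ring
    rw [e2, laurentOf_add a.2.isMerInf ((isModFun_const N _).isMerInf.mul b.2.isMerInf),
      laurentOf_mul (isModFun_const N _).isMerInf b.2.isMerInf, laurentOf_const, e1, map_sub,
      sub_mul, hab, algebraMap_laurentSeries_eq_single, coeffMap_single, map_neg]
    have : (HahnSeries.single 0 (embC c) : LaurentSeries ℂ) = HahnSeries.C (embC c) := rfl
    rw [this]
    ring
  have key := modplace_bridge hPQ ha' b.2 hab'
  -- the algebraic numerator and denominator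
  have hP0 : MvPolynomial.aeval (jFfam N) P ≠ 0 := by
    rw [← hPQ]
    exact mul_ne_zero h0 hQ
  set A : Ban N := MvPolynomial.aeval (JdBanfam N) P with hA
  set B : Ban N := MvPolynomial.aeval (JdBanfam N) Q with hB
  have hAM : algebraMap (Ban N) (Man N) A ≠ 0 := by
    rw [← modplace_phi_aeval]
    exact (map_ne_zero (phi N)).2 hP0
  have hBM : algebraMap (Ban N) (Man N) B ≠ 0 := by
    rw [← modplace_phi_aeval]
    exact (map_ne_zero (phi N)).2 hQ
  have hA0 : A ≠ 0 := fun h1 => hAM (by rw [h1, map_zero])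
  have hB0 : B ≠ 0 := fun h1 => hBM (by rw [h1, map_zero])
  have hphi : phi N g = algebraMap (Ban N) (Man N) A / algebraMap (Ban N) (Man N) B := by
    rw [eq_div_iff hBM, ← modplace_phi_aeval, ← modplace_phi_aeval, ← map_mul, hPQ]
  have hg0 : phi N g ≠ 0 := (map_ne_zero (phi N)).2 h0
  rw [← PlaceAux.ord_pos_iff_mem_nonunits _ h0, modPlace_ord_pos_iff,
    modPlaceMan_ord_pos_iff h hg0, hphi, vord_valMan_div τ₀ hA0 hB0]
  -- orders of the analytic functions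
  have hAd : MDiff (A : ℍ → ℂ) := mdifferentiable_of_mem_Ban A.2
  have hBd : MDiff (B : ℍ → ℂ) := mdifferentiable_of_mem_Ban B.2
  have hbd : MDiff (b : ℍ → ℂ) := rc_mdiff_of_isModFun b.2
  have ha'd := rc_mdiff_of_isModFun ha'
  have hkey : (A : ℍ → ℂ) * (b : ℍ → ℂ) =
      ((a : ℍ → ℂ) - (fun _ : ℍ => embC c) * (b : ℍ → ℂ)) * (B : ℍ → ℂ) := by
    rw [hA, hB, modplace_coe_aeval_JdBanfam, modplace_coe_aeval_JdBanfam]
    exact key
  have hord := congrArg (ordAt τ₀) hkey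
  rw [ordAt_mul hAd hbd, ordAt_mul ha'd hBd, modplace_ordAt_eq_zero hbd hb, add_zero] at hord
  have hA1 := coe_ordBan τ₀ hA0
  have hB1 := coe_ordBan τ₀ hB0
  have ha1 : ordAt τ₀ ((a : ℍ → ℂ) - (fun _ : ℍ => embC c) * (b : ℍ → ℂ)) ≠ 0 := by
    rw [modplace_ordAt_ne_zero_iff ha'd]
    simp only [Pi.sub_apply, Pi.mul_apply]
    rw [hc, sub_self]
  rw [← hA1, ← hB1] at hord
  have h1 : 1 ≤ ordAt τ₀ ((a : ℍ → ℂ) - (fun _ : ℍ => embC c) * (b : ℍ → ℂ)) :=
    Order.one_le_iff_ne_zero.2 ha1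
  have h2 : ((ordBan N τ₀ B : ℕ) : ℕ∞) + 1 ≤ (ordBan N τ₀ A : ℕ) := by
    rw [hord, add_comm]
    exact add_le_add_left h1 _
  have h3 : ordBan N τ₀ B + 1 ≤ ordBan N τ₀ A := by exact_mod_cast h2
  omega

/-! ### The statement `MOD-PLACE` -/

theorem modPlace_congr {τ τ' : ℍ} {c₀ : Kb} (h : Jfun τ = embC c₀) (h' : Jfun τ' = embC c₀)
    (e : τ = τ') : modPlace N τ c₀ h = modPlace N τ' c₀ h' := by
  subst e
  rfl

theorem modplace_hasValueAt_jF_iff (y : Place Kb (FF N)) (c₀ : Kb) :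
    HasValueAt y (Fermat.Agent.S24.jF N) c₀ ↔ 0 < y.ord (Fermat.Agent.S24.jF N - algebraMap Kb (FF N) c₀) :=
  (PlaceAux.ord_pos_iff_mem_nonunits y (jF_sub_ne_zero N c₀)).symm

/-- `HasValueAt` is `modVal` -/
theorem modplace_hasValueAt_iff (x : Place Kb (FF N)) (f : FF N) (c : Kb) :
    HasValueAt x f c ↔ f ∈ x.toValuationSubring ∧ modVal x f = c := by
  constructor
  · intro h
    have hf : f ∈ x.toValuationSubring := by
      have h1 : f - algebraMap Kb (FF N) c ∈ x.toValuationSubring :=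
        (ValuationSubring.mem_nonunits_iff_exists_mem_maximalIdeal.1 h).1
      have h2 := x.toValuationSubring.add_mem _ _ h1 (x.algebraMap_mem' c)
      rwa [sub_add_cancel] at h2
    exact ⟨hf, (modVal_eq_iff x hf c).2 h⟩
  · rintro ⟨hf, h⟩
    exact (modVal_eq_iff x hf c).1 h

/-- **MOD-PLACE** (form agreed with the sub-captain, 20:36Z): the canonical places `X γ` at the
points `γ • τ` of the fibre of `j` over `j₀ = J(τ)`. -/
def StmtModPlaceX : Prop :=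
  ∀ (N : ℕ) [NeZero N] (τ : ℍ) (j₀ : Kb), Jfun τ = embC j₀ →
    ∃ X : SL(2, ℤ) → Place Kb (FF N),
      (∀ γ, IsPlaceAt N (γ • τ) (X γ)) ∧
      (∀ γ δ, δ ∈ CongruenceSubgroup.Gamma0 N → X (δ * γ) = X γ) ∧
      ∀ y : Place Kb (FF N), HasValueAt y (Fermat.Agent.S24.jF N) j₀ → ∃ γ, y = X γ

/-- **MOD-PLACE.** -/
theorem stmtModPlaceX : StmtModPlaceX := by
  intro N _ τ j₀ h
  refine ⟨fun γ => modPlace N (γ • τ) j₀ (modplace_Jfun_smul h γ), ?_, ?_, ?_⟩
  · intro γ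
    exact modplace_isPlaceAt _
  · intro γ δ hδ
    show modPlace N ((δ * γ) • τ) j₀ _ = modPlace N (γ • τ) j₀ _
    rw [modPlace_congr (modplace_Jfun_smul h (δ * γ))
      (modplace_Jfun_smul (modplace_Jfun_smul h γ) δ) (mul_smul δ γ τ)]
    exact modplace_smul_gamma0 (modplace_Jfun_smul h γ) hδ
  · intro y hy
    exact modplace_fibre h y ((modplace_hasValueAt_jF_iff y j₀).1 hy)

/-! ### The Galois action on values -/

/-- `f(x) = c ⇒ (σ f)(σ x) = σ c`. -/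
theorem modplace_hasValueAt_galAct (σ : Kb ≃ₐ[ℚ] Kb) {x : Place Kb (FF N)} {f : FF N} {c : Kb}
    (h : HasValueAt x f c) : HasValueAt (galAct N σ • x) (galAct N σ • f) (σ c) := by
  show galAct N σ • f - algebraMap Kb (FF N) (σ c) ∈ (galAct N σ • x).toValuationSubring.nonunits
  have e : galAct N σ • f - algebraMap Kb (FF N) (σ c) =
      galAct N σ • (f - algebraMap Kb (FF N) c) := by
    rw [smul_sub, galAct_algebraMap]
  rw [e]
  rcases eq_or_ne (f - algebraMap Kb (FF N) c) 0 with h0 | h0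
  · rw [h0, smul_zero]
    exact (galAct N σ • x).toValuationSubring.nonunits.zero_mem
  · rw [← PlaceAux.ord_pos_iff_mem_nonunits _ (galAct_smul_ne_zero σ h0),
      SemilinearAut.ord_smul]
    exact (PlaceAux.ord_pos_iff_mem_nonunits x h0).2 h

/-- for a rational function `f` and a rational value `c`: `f(x) = c ⇒ f(σ x) = c`. -/
theorem modplace_hasValueAt_galAct_of_fixed (σ : Kb ≃ₐ[ℚ] Kb) {x : Place Kb (FF N)} {f : FF N}
    {c : Kb} (hf : galAct N σ • f = f) (hc : σ c = c) (h : HasValueAt x f c) :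
    HasValueAt (galAct N σ • x) f c := by
  have := modplace_hasValueAt_galAct σ h
  rwa [hf, hc] at this

/-- `σ x` lies over `j = j₀` if `x` does and `j₀` is `σ`-fixed -/
theorem modplace_hasValueAt_jF_galAct (σ : Kb ≃ₐ[ℚ] Kb) {x : Place Kb (FF N)} {j₀ : Kb}
    (hc : σ j₀ = j₀) (h : HasValueAt x (Fermat.Agent.S24.jF N) j₀) : HasValueAt (galAct N σ • x) (Fermat.Agent.S24.jF N) j₀ := by
  refine modplace_hasValueAt_galAct_of_fixed σ ?_ hc h
  have := galAct_jdF (N := N) σ 1 (one_dvd N)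
  rwa [jdF_one] at this

/-- uniqueness of values -/
theorem modplace_hasValueAt_unique {x : Place Kb (FF N)} {f : FF N} {c c' : Kb}
    (h : HasValueAt x f c) (h' : HasValueAt x f c') : c = c' := by
  rw [modplace_hasValueAt_iff] at h h'
  rw [← h.2, ← h'.2]

end Fermat.Agent.S15

end
end ZBZ2S15_002_7

/-! ### bundled: `Fermat.Agent.S15.ModAsmP` -/
section ZBZ2S15_002_8

/-!
# S15 / MOD-ASM-P — the place side of the assembly of MOD (helper8)

`stmtModAsmP_of : StmtModFricke → StmtModAsmP`.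

* `modasmp_converse` : the converse of `IsPlaceAt` for the canonical place `modPlace N τ c₀ h`:
  if `f` has the value `c` there and `f = a / b` with `a`, `b` holomorphic modular functions,
  `b τ ≠ 0`, then `a τ = embC c * b τ`.
* `modasmp_value` / `modasmp_value_conv` : the same for `IsAnalyticOn N f φ` at a point where
  `g₃ ≠ 0`: `f(x_τ) = c ↔ φ τ = embC c`.
* the place `x = modPlace N τ₀ a hJ` is `G_ℚ`-fixed: `σ x` lies over `j = a`, so `σ x` is the place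
  at `γ • τ₀`; the rational Fricke products `f_t` have the same rational values at `x` and at
  `σ x`, so `Π_t(γ τ₀) = Π_t(τ₀)` for all `t`, hence `γ ∈ Γ₀(N)` and `σ x = x`.
-/

set_option autoImplicit false
set_option linter.unusedSectionVars false
set_option linter.style.haveILetI false

noncomputable section

open UpperHalfPlane AlgebraicCurve ModularCurve IntermediateField
open scoped MatrixGroups Manifold

namespace Fermat.Agent.S15

open Fermat.Agent.S24 Fermat.Agent.S28 Fermat.Agent.S23 Fermat.Agent.ES.RC Fermat.Agent.W1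
open Fermat.Agent.ES.G2 Fermat.Agent.ES.M

attribute [local instance] algKbC

variable {N : ℕ} [NeZero N]

/-- the `q`-expansion of `a - c b` -/
theorem modasmp_sub_rep {f : FF N} {a b : ℍ → ℂ} (ha : IsModFun N a) (hb : IsModFun N b)
    (hab : coeffMap embC (f : LaurentSeries Kb) * laurentOf b = laurentOf a) (c : Kb) :
    IsModFun N (a - (fun _ : ℍ => embC c) * b) ∧
      coeffMap embC ((f - algebraMap Kb (FF N) c : FF N) : LaurentSeries Kb) * laurentOf b =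
        laurentOf (a - (fun _ : ℍ => embC c) * b) := by
  have hc' : IsModFun N (fun _ : ℍ => embC c) := isModFun_const N _
  refine ⟨ha.sub (hc'.mul hb), ?_⟩
  have e1 : ((f - algebraMap Kb (FF N) c : FF N) : LaurentSeries Kb) =
      (f : LaurentSeries Kb) - algebraMap Kb (LaurentSeries Kb) c := rfl
  have e2 : a - (fun _ : ℍ => embC c) * b = a + (fun _ : ℍ => -embC c) * b := by
    funext z
    simp only [Pi.sub_apply, Pi.mul_apply, Pi.add_apply]
    ring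
  rw [e2, laurentOf_add ha.isMerInf ((isModFun_const N _).isMerInf.mul hb.isMerInf),
    laurentOf_mul (isModFun_const N _).isMerInf hb.isMerInf, laurentOf_const, e1, map_sub,
    sub_mul, hab, algebraMap_laurentSeries_eq_single, coeffMap_single, map_neg]
  have : (HahnSeries.single 0 (embC c) : LaurentSeries ℂ) = HahnSeries.C (embC c) := rfl
  rw [this]
  ring

/-- **converse of `IsPlaceAt`** for the canonical place at `τ₀`. -/
theorem modasmp_converse {τ₀ : ℍ} {c₀ : Kb} (h : Jfun τ₀ = embC c₀) {f : FF N} {c : Kb}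
    (hv : HasValueAt (modPlace N τ₀ c₀ h) f c) {a b : ℍ → ℂ} (ha : IsModFun N a)
    (hb : IsModFun N b) (hab : coeffMap embC (f : LaurentSeries Kb) * laurentOf b = laurentOf a)
    (hb0 : b τ₀ ≠ 0) : a τ₀ = embC c * b τ₀ := by
  obtain ⟨ha', hab'⟩ := modasmp_sub_rep ha hb hab c
  have hv' : f - algebraMap Kb (FF N) c ∈ (modPlace N τ₀ c₀ h).toValuationSubring.nonunits := hv
  set g : FF N := f - algebraMap Kb (FF N) c with hg
  have hbd : MDiff b := rc_mdiff_of_isModFun hb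
  have ha'd := rc_mdiff_of_isModFun ha'
  suffices hz : (a - (fun _ : ℍ => embC c) * b) τ₀ = 0 by
    simp only [Pi.sub_apply, Pi.mul_apply] at hz
    exact sub_eq_zero.1 hz
  rcases eq_or_ne g 0 with h0 | h0
  · -- `f` is the constant `c`
    rw [h0] at hab'
    have h1 : laurentOf (a - (fun _ : ℍ => embC c) * b) = laurentOf (fun _ : ℍ => (0 : ℂ)) := by
      rw [← hab', laurentOf_const]
      simp
    have h2 := laurentOf_injective ha'.isMerInf (isModFun_const N 0).isMerInf h1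
    rw [h2]
  obtain ⟨P, Q, hQ, hPQ⟩ := modplace_exists_rep N g
  have key := modplace_bridge hPQ ha' hb hab'
  have hP0 : MvPolynomial.aeval (jFfam N) P ≠ 0 := by
    rw [← hPQ]
    exact mul_ne_zero h0 hQ
  set A : Ban N := MvPolynomial.aeval (JdBanfam N) P with hA
  set B : Ban N := MvPolynomial.aeval (JdBanfam N) Q with hB
  have hAM : algebraMap (Ban N) (Man N) A ≠ 0 := by
    rw [← modplace_phi_aeval]
    exact (map_ne_zero (phi N)).2 hP0
  have hBM : algebraMap (Ban N) (Man N) B ≠ 0 := by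
    rw [← modplace_phi_aeval]
    exact (map_ne_zero (phi N)).2 hQ
  have hA0 : A ≠ 0 := fun h1 => hAM (by rw [h1, map_zero])
  have hB0 : B ≠ 0 := fun h1 => hBM (by rw [h1, map_zero])
  have hphi : phi N g = algebraMap (Ban N) (Man N) A / algebraMap (Ban N) (Man N) B := by
    rw [eq_div_iff hBM, ← modplace_phi_aeval, ← modplace_phi_aeval, ← map_mul, hPQ]
  have hg0 : phi N g ≠ 0 := (map_ne_zero (phi N)).2 h0
  rw [← PlaceAux.ord_pos_iff_mem_nonunits _ h0, modPlace_ord_pos_iff,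
    modPlaceMan_ord_pos_iff h hg0, hphi, vord_valMan_div τ₀ hA0 hB0] at hv'
  have hAd : MDiff (A : ℍ → ℂ) := mdifferentiable_of_mem_Ban A.2
  have hBd : MDiff (B : ℍ → ℂ) := mdifferentiable_of_mem_Ban B.2
  have hkey : (A : ℍ → ℂ) * b = (a - (fun _ : ℍ => embC c) * b) * (B : ℍ → ℂ) := by
    rw [hA, hB, modplace_coe_aeval_JdBanfam, modplace_coe_aeval_JdBanfam]
    exact key
  have hord := congrArg (ordAt τ₀) hkey
  rw [ordAt_mul hAd hbd, ordAt_mul ha'd hBd, modplace_ordAt_eq_zero hbd hb0, add_zero] at hord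
  have hA1 := coe_ordBan τ₀ hA0
  have hB1 := coe_ordBan τ₀ hB0
  rw [← hA1, ← hB1] at hord
  by_contra hne
  have h1 : ordAt τ₀ (a - (fun _ : ℍ => embC c) * b) = 0 := modplace_ordAt_eq_zero ha'd hne
  rw [h1, zero_add] at hord
  have h3 : ordBan N τ₀ A = ordBan N τ₀ B := by exact_mod_cast hord
  omega

/-- the value at the place at `τ` of an element of `F_N` given analytically by `φ` -/
theorem modasmp_value {τ : ℍ} {c₀ : Kb} (h : Jfun τ = embC c₀) {f : FF N} {φ : ℍ → ℂ}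
    (hf : IsAnalyticOn N f φ) (hg : (modLat τ).g₃ ≠ 0) {c : Kb} (hc : φ τ = embC c) :
    HasValueAt (modPlace N τ c₀ h) f c := by
  obtain ⟨a, b, hab, hτ⟩ := hf
  obtain ⟨hb0, hφ⟩ := hτ τ hg
  refine modplace_isPlaceAt h f a b hab hb0 c ?_
  rw [hφ, hc]

/-- converse: the analytic value is the value at the place -/
theorem modasmp_value_conv {τ : ℍ} {c₀ : Kb} (h : Jfun τ = embC c₀) {f : FF N} {φ : ℍ → ℂ}
    (hf : IsAnalyticOn N f φ) (hg : (modLat τ).g₃ ≠ 0) {c : Kb}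
    (hv : HasValueAt (modPlace N τ c₀ h) f c) : φ τ = embC c := by
  obtain ⟨a, b, hab, hτ⟩ := hf
  obtain ⟨hb0, hφ⟩ := hτ τ hg
  have h1 := modasmp_converse h hv a.2 b.2 hab hb0
  rw [hφ] at h1
  exact mul_right_cancel₀ hb0 h1

/-- **MOD-ASM-P.** -/
theorem stmtModAsmP_of (hF : StmtModFricke) : StmtModAsmP := by
  intro N _ hN τ₀ a c hJ hg₃ hc hG0
  have hg0 : (modLat τ₀).g₃ ≠ 0 := by
    have := hg₃ 1
    rwa [one_smul] at this
  set j₀ : Kb := algebraMap ℚ Kb a with hj₀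
  set x : Place Kb (FF N) := modPlace N τ₀ j₀ hJ with hx
  have hvj : HasValueAt x (Fermat.Agent.S24.jF N) j₀ :=
    (modplace_hasValueAt_jF_iff x j₀).2 (modPlace_ord_jF_sub_pos hJ)
  refine ⟨x, ⟨?_, hvj, ?_⟩⟩
  · intro σ
    have hσj : σ j₀ = j₀ := σ.commutes a
    have hy := modplace_hasValueAt_jF_galAct σ hσj hvj
    obtain ⟨γ, hγ⟩ := modplace_fibre hJ (galAct N σ • x)
      ((modplace_hasValueAt_jF_iff _ j₀).1 hy)
    have hmem : γ ∈ CongruenceSubgroup.Gamma0 N := by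
      apply hG0 γ
      intro t
      obtain ⟨f, hf, hfix⟩ := hF N hN t
      have h1 : HasValueAt x f (algebraMap ℚ Kb (c t)) := modasmp_value hJ hf hg0 (hc t)
      have h2 : HasValueAt (galAct N σ • x) f (algebraMap ℚ Kb (c t)) :=
        modplace_hasValueAt_galAct_of_fixed σ (hfix σ) (σ.commutes (c t)) h1
      rw [hγ] at h2
      rw [modasmp_value_conv (modplace_Jfun_smul hJ γ) hf (hg₃ γ) h2, hc t]
    rw [hγ]
    exact modplace_smul_gamma0 hJ hmem
  · intro f hf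
    exact modasmp_value hJ hf hg0 (hc 0)

end Fermat.Agent.S15

end
end ZBZ2S15_002_8

/-! ### bundled: `Fermat.Agent.S15.ModAddCore` -/
section ZBZ2S15_002_9

/-!
# S15 / MOD-ADD — the uniformisation `ℂ / Λ ≅ E_Λ(ℂ)` (helper51)

Mathlib only.  `z ↦ (℘ z, ℘' z / 2)` is a surjective group homomorphism from `ℂ` onto the points of
`modCurve L : y² = x³ - (g₂/4) x - g₃/4`, with kernel the lattice (`modadd_main`).

* `modadd_collinear` : `P_z`, `P_v`, `-P_{z+v}` are collinear (Liouville);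
* `modaddTheta_add_generic` : the addition theorem when `℘ z`, `℘ v`, `℘ (z+v)` are distinct;
* `modaddTheta_add` : the general case, by perturbation (`θ(z+v) = θ(z+t) + θ(v-t)`, `t` small);
* `modadd_exists_P_eq` : `℘` takes every value (Liouville);
* `modadd_P_inj` : `℘ z₁ = ℘ z₂` only if `z₁ ≡ ± z₂` modulo the lattice.
-/

set_option autoImplicit false

noncomputable section

namespace Fermat.Agent.S15

open PeriodPair Filter Topology

variable (L : PeriodPair)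

theorem modadd_countable_lattice : (L.lattice : Set ℂ).Countable := by
  have : Countable L.lattice := L.latticeEquivProd.toEquiv.countable_iff.mpr inferInstance
  exact Set.countable_coe_iff.mp this

/-- `℘ = ℘[L - 0] + 1/z²`. -/
theorem modadd_P_eq (z : ℂ) : ℘[L] z = ℘[L - (0:ℂ)] z + 1 / z ^ 2 := by
  have := L.weierstrassPExcept_def (0 : L.lattice) z
  simp only [ZeroMemClass.coe_zero, sub_zero] at this
  rw [this]
  simp

/-- `℘' = ℘'[L - 0] - 2/z³`. -/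
theorem modadd_P'_eq (z : ℂ) : ℘'[L] z = ℘'[L - (0:ℂ)] z - 2 / z ^ 3 := by
  have := L.derivWeierstrassPExcept_def (0 : L.lattice) z
  simp only [ZeroMemClass.coe_zero, sub_zero] at this
  rw [this]
  ring

/-- The collinearity determinant of `P_z`, `P_v`, `-P_{z+v}`. -/
def modaddF (v z : ℂ) : ℂ :=
  ℘'[L] (z + v) * (℘[L] z - ℘[L] v) + ℘'[L] v * (℘[L] z - ℘[L] (z + v)) +
    ℘'[L] z * (℘[L] (z + v) - ℘[L] v)

/-- The analytic extension of `modaddF` at `0`. -/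
def modaddFext (v z : ℂ) : ℂ :=
  deriv (fun w ↦ ℘[L] (w + v)) z * (℘[L - (0:ℂ)] z - ℘[L] v) +
    ℘'[L] v * (℘[L - (0:ℂ)] z - ℘[L] (z + v)) +
    ℘'[L - (0:ℂ)] z * (℘[L] (z + v) - ℘[L] v) +
    deriv (dslope (dslope (fun w ↦ ℘[L] (w + v)) 0) 0) z

theorem modadd_analyticAt_shift {v : ℂ} (hv : v ∉ L.lattice) :
    AnalyticAt ℂ (fun w ↦ ℘[L] (w + v)) 0 := by
  have h1 : AnalyticAt ℂ ℘[L] ((0:ℂ) + v) := by
    rw [zero_add]; exact L.analyticOnNhd_weierstrassP v hv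
  exact h1.comp_of_eq (by fun_prop) rfl

theorem modadd_analyticAt_dslope {f : ℂ → ℂ} {a : ℂ} (hf : AnalyticAt ℂ f a) :
    AnalyticAt ℂ (dslope f a) a := by
  obtain ⟨p, hp⟩ := hf
  exact ⟨_, hp.has_fpower_series_dslope_fslope⟩

theorem modadd_Fext_analyticAt {v : ℂ} (hv : v ∉ L.lattice) :
    AnalyticAt ℂ (modaddFext L v) 0 := by
  have h0 := modadd_analyticAt_shift L hv
  have h1 := h0.deriv
  have h2 := (modadd_analyticAt_dslope (modadd_analyticAt_dslope h0)).deriv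
  have h3 : AnalyticAt ℂ ℘[L - (0:ℂ)] 0 := L.analyticAt_weierstrassPExcept 0
  have h4 : AnalyticAt ℂ ℘'[L - (0:ℂ)] 0 := L.analyticAt_derivWeierstrassPExcept 0
  unfold modaddFext
  fun_prop

theorem modadd_F_eq_Fext {v : ℂ} (hv : v ∉ L.lattice) :
    ∀ᶠ z in 𝓝[≠] (0:ℂ), modaddF L v z = modaddFext L v z := by
  have h0 := modadd_analyticAt_shift L hv
  have hd2 := modadd_analyticAt_dslope (modadd_analyticAt_dslope h0)
  have hU : ∀ᶠ z in 𝓝 (0:ℂ), z + v ∉ L.lattice := by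
    have : Tendsto (fun z : ℂ ↦ z + v) (𝓝 0) (𝓝 v) := by
      have : Continuous (fun z : ℂ ↦ z + v) := by fun_prop
      simpa using this.tendsto 0
    exact this.eventually (L.isClosed_lattice.isOpen_compl.mem_nhds hv)
  have hform : ∀ z : ℂ, ℘[L] (z + v) = ℘[L] v + ℘'[L] v * z +
      z ^ 2 * dslope (dslope (fun w ↦ ℘[L] (w + v)) 0) 0 z := by
    intro z
    have e1 := sub_smul_dslope (fun w ↦ ℘[L] (w + v)) 0 z
    have e2 := sub_smul_dslope (dslope (fun w ↦ ℘[L] (w + v)) 0) 0 z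
    have e3 : dslope (fun w ↦ ℘[L] (w + v)) 0 0 = ℘'[L] v := by
      rw [dslope_same]
      have : deriv (fun w ↦ ℘[L] (w + v)) 0 = deriv ℘[L] (0 + v) := deriv_comp_add_const _ _ _
      rw [this, L.deriv_weierstrassP, zero_add]
    simp only [sub_zero, smul_eq_mul, zero_add] at e1 e2
    rw [e3] at e2
    linear_combination (-1 : ℂ) * e1 - z * e2
  have hderiv : ∀ z : ℂ, deriv (fun w ↦ ℘[L] (w + v)) z = ℘'[L] (z + v) := by
    intro z
    have : deriv (fun w ↦ ℘[L] (w + v)) z = deriv ℘[L] (z + v) := deriv_comp_add_const _ _ _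
    rw [this, L.deriv_weierstrassP]
  have hderiv2 : ∀ᶠ z in 𝓝 (0:ℂ), ℘'[L] (z + v) = ℘'[L] v +
      2 * z * dslope (dslope (fun w ↦ ℘[L] (w + v)) 0) 0 z +
      z ^ 2 * deriv (dslope (dslope (fun w ↦ ℘[L] (w + v)) 0) 0) z := by
    filter_upwards [hd2.eventually_analyticAt] with z hz
    rw [← hderiv z]
    have hfun : (fun w ↦ ℘[L] (w + v)) = fun z ↦ ℘[L] v + ℘'[L] v * z +
      z ^ 2 * dslope (dslope (fun w ↦ ℘[L] (w + v)) 0) 0 z := funext hform
    have hD := hz.differentiableAt.hasDerivAt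
    have : HasDerivAt (fun z ↦ ℘[L] v + ℘'[L] v * z +
      z ^ 2 * dslope (dslope (fun w ↦ ℘[L] (w + v)) 0) 0 z)
      (℘'[L] v + 2 * z * dslope (dslope (fun w ↦ ℘[L] (w + v)) 0) 0 z +
      z ^ 2 * deriv (dslope (dslope (fun w ↦ ℘[L] (w + v)) 0) 0) z) z := by
      have a1 : HasDerivAt (fun z : ℂ ↦ ℘[L] v + ℘'[L] v * z) (℘'[L] v) z := by
        simpa using ((hasDerivAt_id z).const_mul (℘'[L] v)).const_add (℘[L] v)
      have a2 : HasDerivAt (fun z : ℂ ↦ z ^ 2) (2 * z) z := by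
        simpa using hasDerivAt_pow 2 z
      have a3 := a1.add (a2.mul hD)
      exact a3.congr_deriv (by ring)
    exact (congrArg (fun f ↦ deriv f z) hfun).trans this.deriv
  filter_upwards [mem_nhdsWithin_of_mem_nhds hU, mem_nhdsWithin_of_mem_nhds hderiv2,
    self_mem_nhdsWithin] with z hz1 hz2 hz3
  have hz0 : z ≠ 0 := hz3
  unfold modaddF modaddFext
  rw [hderiv z, modadd_P_eq L z, modadd_P'_eq L z, hz2, hform z]
  field_simp
  ring


/-- The entire extension of `modaddF`. -/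
def modaddR (v : ℂ) (z : ℂ) : ℂ :=
  letI := Classical.propDecidable
  if z ∈ L.lattice then modaddFext L v 0
  else if z + v ∈ L.lattice then - modaddFext L v 0
  else modaddF L v z

theorem modadd_mem_add_coe_iff (z : ℂ) (l : L.lattice) : z + l ∈ L.lattice ↔ z ∈ L.lattice := by
  simpa using (L.lattice.toAddSubgroup.add_mem_cancel_right (y := z) l.2)

theorem modadd_F_add_coe (v z : ℂ) (l : L.lattice) : modaddF L v (z + l) = modaddF L v z := by
  unfold modaddF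
  have e : z + (l : ℂ) + v = (z + v) + l := by ring
  rw [e]
  simp only [L.weierstrassP_add_coe, L.derivWeierstrassP_add_coe]

theorem modadd_R_add_coe (v z : ℂ) (l : L.lattice) : modaddR L v (z + l) = modaddR L v z := by
  unfold modaddR
  have e : z + (l : ℂ) + v = (z + v) + l := by ring
  rw [e, modadd_mem_add_coe_iff L z l, modadd_mem_add_coe_iff L (z + v) l, modadd_F_add_coe]

theorem modadd_F_neg (v z : ℂ) : modaddF L v (-z - v) = - modaddF L v z := by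
  unfold modaddF
  have e1 : -z - v + v = -z := by ring
  have e2 : -z - v = -(z + v) := by ring
  rw [e1, e2]
  simp only [L.weierstrassP_neg, L.derivWeierstrassP_neg]
  ring

theorem modadd_R_neg {v : ℂ} (hv : v ∉ L.lattice) (z : ℂ) :
    modaddR L v (-z - v) = - modaddR L v z := by
  classical
  have e1 : -z - v + v = -z := by ring
  have e2 : -z - v = -(z + v) := by ring
  have h1 : (-z - v ∈ L.lattice) ↔ z + v ∈ L.lattice := by
    rw [e2]; exact neg_mem_iff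
  have h2 : (-z - v + v ∈ L.lattice) ↔ z ∈ L.lattice := by
    rw [e1]; exact neg_mem_iff
  by_cases hz : z ∈ L.lattice
  · have hzv : z + v ∉ L.lattice := fun h ↦ hv (by
      have := sub_mem h hz
      simpa using this)
    simp [modaddR, h1, hz, hzv]
  · by_cases hzv : z + v ∈ L.lattice
    · simp [modaddR, h1, hz, hzv]
    · simp [modaddR, h1, hz, hzv, modadd_F_neg]

theorem modadd_R_eventuallyEq {v : ℂ} (hv : v ∉ L.lattice) :
    modaddR L v =ᶠ[𝓝 0] modaddFext L v := by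
  have hU : ∀ᶠ z in 𝓝 (0:ℂ), z + v ∉ L.lattice := by
    have : Tendsto (fun z : ℂ ↦ z + v) (𝓝 0) (𝓝 v) := by
      have : Continuous (fun z : ℂ ↦ z + v) := by fun_prop
      simpa using this.tendsto 0
    exact this.eventually (L.isClosed_lattice.isOpen_compl.mem_nhds hv)
  have h1 := modadd_F_eq_Fext L hv
  rw [eventually_nhdsWithin_iff] at h1
  filter_upwards [hU, h1, L.compl_lattice_sdiff_singleton_mem_nhds 0] with z hz1 hz2 hz3
  by_cases hz0 : z = 0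
  · subst hz0
    simp [modaddR]
  · have hz : z ∉ L.lattice := by
      intro h
      exact hz3 ⟨h, hz0⟩
    have := hz2 hz0
    simp [modaddR, hz, hz1, this]

theorem modadd_F_analyticAt (v : ℂ) {z : ℂ} (hz : z ∉ L.lattice) (hzv : z + v ∉ L.lattice) :
    AnalyticAt ℂ (modaddF L v) z := by
  have a1 : AnalyticAt ℂ ℘[L] z := L.analyticOnNhd_weierstrassP z hz
  have a2 : AnalyticAt ℂ ℘'[L] z := L.analyticOnNhd_derivWeierstrassP z hz
  have a3 : AnalyticAt ℂ (fun w ↦ ℘[L] (w + v)) z :=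
    (L.analyticOnNhd_weierstrassP (z + v) hzv).comp_of_eq (by fun_prop) rfl
  have a4 : AnalyticAt ℂ (fun w ↦ ℘'[L] (w + v)) z :=
    (L.analyticOnNhd_derivWeierstrassP (z + v) hzv).comp_of_eq (by fun_prop) rfl
  unfold modaddF
  fun_prop

theorem modadd_R_analyticAt_zero {v : ℂ} (hv : v ∉ L.lattice) :
    AnalyticAt ℂ (modaddR L v) 0 :=
  (modadd_Fext_analyticAt L hv).congr (modadd_R_eventuallyEq L hv).symm

theorem modadd_R_analyticAt_coe {v : ℂ} (hv : v ∉ L.lattice) (l : L.lattice) :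
    AnalyticAt ℂ (modaddR L v) l := by
  have h0 := modadd_R_analyticAt_zero L hv
  have h1 : AnalyticAt ℂ (fun z : ℂ ↦ z - l) (l : ℂ) := by fun_prop
  have h3 := h0.comp_of_eq h1 (by simp)
  refine h3.congr (Eventually.of_forall fun z ↦ ?_)
  simp only [Function.comp_apply]
  have := modadd_R_add_coe L v (z - l) l
  rw [sub_add_cancel] at this
  exact this.symm

theorem modadd_R_analyticAt {v : ℂ} (hv : v ∉ L.lattice) (z : ℂ) :
    AnalyticAt ℂ (modaddR L v) z := by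
  by_cases hz : z ∈ L.lattice
  · exact modadd_R_analyticAt_coe L hv ⟨z, hz⟩
  by_cases hzv : z + v ∈ L.lattice
  · -- use the antisymmetry
    have h0 := modadd_R_analyticAt_coe L hv (-⟨z + v, hzv⟩)
    have h1 : AnalyticAt ℂ (fun w : ℂ ↦ -w - v) z := by fun_prop
    have e : (fun w : ℂ ↦ -w - v) z = ((-⟨z + v, hzv⟩ : L.lattice) : ℂ) := by
      simp; ring
    have h3 := (h0.comp_of_eq h1 e).neg
    refine h3.congr (Eventually.of_forall fun w ↦ ?_)
    simp only [Function.comp_apply, Pi.neg_apply]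
    rw [modadd_R_neg L hv w, neg_neg]
  · have hF := modadd_F_analyticAt L v hz hzv
    refine hF.congr ?_
    have hU : ∀ᶠ w in 𝓝 z, w + v ∉ L.lattice := by
      have : Tendsto (fun w : ℂ ↦ w + v) (𝓝 z) (𝓝 (z + v)) := by
        have : Continuous (fun w : ℂ ↦ w + v) := by fun_prop
        exact this.tendsto z
      exact this.eventually (L.isClosed_lattice.isOpen_compl.mem_nhds hzv)
    filter_upwards [hU, L.isClosed_lattice.isOpen_compl.mem_nhds hz] with w hw1 hw2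
    have hw2' : w ∉ L.lattice := hw2
    simp [modaddR, hw1, hw2']

theorem modadd_R_eq_zero {v : ℂ} (hv : v ∉ L.lattice) (z : ℂ) : modaddR L v z = 0 := by
  have hd : Differentiable ℂ (modaddR L v) := fun x ↦ (modadd_R_analyticAt L hv x).differentiableAt
  have hb := (IsZLattice.isCompact_range_of_periodic L.lattice _
    hd.continuous fun z w hw ↦ by
      lift w to L.lattice using hw
      exact modadd_R_add_coe L v z w).isBounded
  have h1 := hd.apply_eq_apply_of_bounded hb 0 (-0 - v)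
  rw [modadd_R_neg L hv 0] at h1
  have h0 : modaddR L v 0 = 0 := by
    have : (2 : ℂ) * modaddR L v 0 = 0 := by linear_combination h1
    simpa using this
  rw [hd.apply_eq_apply_of_bounded hb z 0, h0]

/-- **Collinearity** of `P_z`, `P_v`, `-P_{z+v}`. -/
theorem modadd_collinear {z v : ℂ} (hz : z ∉ L.lattice) (hv : v ∉ L.lattice)
    (hzv : z + v ∉ L.lattice) :
    ℘'[L] (z + v) * (℘[L] z - ℘[L] v) + ℘'[L] v * (℘[L] z - ℘[L] (z + v)) +
      ℘'[L] z * (℘[L] (z + v) - ℘[L] v) = 0 := by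
  have := modadd_R_eq_zero L hv z
  simpa [modaddR, hz, hzv, modaddF] using this


/-! ## The points `(℘ z, ℘' z / 2)` -/

theorem modadd_equation {z : ℂ} (hz : z ∉ L.lattice) :
    (modCurve L).toAffine.Equation (℘[L] z) (℘'[L] z / 2) := by
  rw [WeierstrassCurve.Affine.equation_iff]
  have := L.derivWeierstrassP_sq z hz
  simp only [modCurve]
  linear_combination (1 / 4 : ℂ) * this

theorem modadd_nonsingular_of_equation (hΔ : L.g₂ ^ 3 - 27 * L.g₃ ^ 2 ≠ 0) {x y : ℂ}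
    (h : (modCurve L).toAffine.Equation x y) : (modCurve L).toAffine.Nonsingular x y := by
  rw [WeierstrassCurve.Affine.nonsingular_iff]
  refine ⟨h, ?_⟩
  rw [WeierstrassCurve.Affine.equation_iff] at h
  simp only [modCurve] at h ⊢
  by_contra hcon
  push Not at hcon
  obtain ⟨h1, h2⟩ := hcon
  have hy : y = 0 := by
    have : (2 : ℂ) * y = 0 := by linear_combination h2
    simpa using this
  subst hy
  apply hΔ
  have e1 : L.g₂ = 12 * x ^ 2 := by linear_combination (4 : ℂ) * h1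
  have e2 : L.g₃ = -8 * x ^ 3 := by
    have : L.g₃ = 4 * x ^ 3 - L.g₂ * x := by linear_combination (4 : ℂ) * h
    rw [this, e1]; ring
  rw [e1, e2]; ring

theorem modadd_nonsingular (hΔ : L.g₂ ^ 3 - 27 * L.g₃ ^ 2 ≠ 0) {z : ℂ} (hz : z ∉ L.lattice) :
    (modCurve L).toAffine.Nonsingular (℘[L] z) (℘'[L] z / 2) :=
  modadd_nonsingular_of_equation L hΔ (modadd_equation L hz)

/-- The uniformisation `z ↦ (℘ z, ℘' z / 2)`. -/
def modaddTheta (hΔ : L.g₂ ^ 3 - 27 * L.g₃ ^ 2 ≠ 0) (z : ℂ) : (modCurve L).toAffine.Point :=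
  letI := Classical.propDecidable
  if hz : z ∈ L.lattice then 0 else .some _ _ (modadd_nonsingular L hΔ hz)

variable {L} (hΔ : L.g₂ ^ 3 - 27 * L.g₃ ^ 2 ≠ 0)

theorem modaddTheta_of_mem {z : ℂ} (hz : z ∈ L.lattice) : modaddTheta L hΔ z = 0 := by
  simp [modaddTheta, hz]

theorem modaddTheta_of_notMem {z : ℂ} (hz : z ∉ L.lattice) :
    modaddTheta L hΔ z = .some _ _ (modadd_nonsingular L hΔ hz) := by
  simp [modaddTheta, hz]

theorem modaddTheta_eq_zero_iff (z : ℂ) : modaddTheta L hΔ z = 0 ↔ z ∈ L.lattice := by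
  constructor
  · intro h
    by_contra hz
    rw [modaddTheta_of_notMem hΔ hz] at h
    exact WeierstrassCurve.Affine.Point.some_ne_zero _ h
  · exact modaddTheta_of_mem hΔ

theorem modadd_some_congr {W : WeierstrassCurve.Affine ℂ} {x y x' y' : ℂ}
    (h : W.Nonsingular x y) (h' : W.Nonsingular x' y') (hx : x = x') (hy : y = y') :
    WeierstrassCurve.Affine.Point.some x y h = WeierstrassCurve.Affine.Point.some x' y' h' := by
  subst hx hy; rfl

theorem modaddTheta_add_coe (z : ℂ) (l : L.lattice) :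
    modaddTheta L hΔ (z + l) = modaddTheta L hΔ z := by
  by_cases hz : z ∈ L.lattice
  · rw [modaddTheta_of_mem hΔ hz, modaddTheta_of_mem hΔ ((modadd_mem_add_coe_iff L z l).2 hz)]
  · have hz' : z + l ∉ L.lattice := fun h ↦ hz ((modadd_mem_add_coe_iff L z l).1 h)
    rw [modaddTheta_of_notMem hΔ hz, modaddTheta_of_notMem hΔ hz']
    exact modadd_some_congr _ _ (L.weierstrassP_add_coe z l)
      (by rw [L.derivWeierstrassP_add_coe z l])

theorem modaddTheta_neg (z : ℂ) : modaddTheta L hΔ (-z) = - modaddTheta L hΔ z := by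
  by_cases hz : z ∈ L.lattice
  · rw [modaddTheta_of_mem hΔ hz, modaddTheta_of_mem hΔ (neg_mem hz), neg_zero]
  · have hz' : -z ∉ L.lattice := fun h ↦ hz (neg_mem_iff.1 h)
    rw [modaddTheta_of_notMem hΔ hz, modaddTheta_of_notMem hΔ hz',
      WeierstrassCurve.Affine.Point.neg_some]
    refine modadd_some_congr _ _ (L.weierstrassP_neg z) ?_
    rw [L.derivWeierstrassP_neg z]
    simp [WeierstrassCurve.Affine.negY, modCurve]
    ring

/-- The algebra behind the generic case: three distinct collinear points of the cubic. -/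
theorem modadd_alg {g₂ g₃ x₁ x₂ x₃ p₁ p₂ p₃ : ℂ} (e1 : p₁ ^ 2 = 4 * x₁ ^ 3 - g₂ * x₁ - g₃)
    (e2 : p₂ ^ 2 = 4 * x₂ ^ 3 - g₂ * x₂ - g₃) (e3 : p₃ ^ 2 = 4 * x₃ ^ 3 - g₂ * x₃ - g₃)
    (hcol : p₃ * (x₁ - x₂) + p₂ * (x₁ - x₃) + p₁ * (x₃ - x₂) = 0)
    (h12 : x₁ ≠ x₂) (h31 : x₃ ≠ x₁) (h32 : x₃ ≠ x₂) :
    x₃ = ((p₁ / 2 - p₂ / 2) / (x₁ - x₂)) ^ 2 - x₁ - x₂ ∧
      p₃ / 2 = -(((p₁ / 2 - p₂ / 2) / (x₁ - x₂)) * (x₃ - x₁) + p₁ / 2) := by
  have hd : x₁ - x₂ ≠ 0 := sub_ne_zero.2 h12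
  have hd31 : x₃ - x₁ ≠ 0 := sub_ne_zero.2 h31
  have hd32 : x₃ - x₂ ≠ 0 := sub_ne_zero.2 h32
  obtain ⟨ℓ, hℓ⟩ : ∃ ℓ : ℂ, ℓ = (p₁ / 2 - p₂ / 2) / (x₁ - x₂) := ⟨_, rfl⟩
  rw [← hℓ]
  have hℓ' : ℓ * (x₁ - x₂) = p₁ / 2 - p₂ / 2 := by
    rw [hℓ]; field_simp
  -- collinearity: `-p₃/2 = ℓ (x₃ - x₁) + p₁/2`
  have hy3 : -(p₃ / 2) = ℓ * (x₃ - x₁) + p₁ / 2 := by
    apply mul_left_cancel₀ hd
    linear_combination (-1 / 2 : ℂ) * hcol - (x₃ - x₁) * hℓ'
  have hp2 : p₂ / 2 = ℓ * (x₂ - x₁) + p₁ / 2 := by linear_combination hℓ'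
  have hx3 : x₃ = ℓ ^ 2 - x₁ - x₂ := by
    have h1' : x₁ ^ 3 - g₂ / 4 * x₁ - g₃ / 4 - (p₁ / 2) ^ 2 = 0 := by
      linear_combination (-1 / 4 : ℂ) * e1
    have h2' : x₂ ^ 3 - g₂ / 4 * x₂ - g₃ / 4 - (ℓ * (x₂ - x₁) + p₁ / 2) ^ 2 = 0 := by
      rw [← hp2]; linear_combination (-1 / 4 : ℂ) * e2
    have h3' : x₃ ^ 3 - g₂ / 4 * x₃ - g₃ / 4 - (ℓ * (x₃ - x₁) + p₁ / 2) ^ 2 = 0 := by
      rw [← hy3]; linear_combination (-1 / 4 : ℂ) * e3
    have key : (x₁ - x₂) * ((x₃ - x₁) * ((x₃ - x₂) * (x₃ - (ℓ ^ 2 - x₁ - x₂)))) = 0 := by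
      linear_combination (x₂ - x₃) * h1' - (x₁ - x₃) * h2' + (x₁ - x₂) * h3'
    have := (mul_eq_zero.1 key).resolve_left hd
    have := (mul_eq_zero.1 this).resolve_left hd31
    have := (mul_eq_zero.1 this).resolve_left hd32
    exact sub_eq_zero.1 this
  exact ⟨hx3, by linear_combination (-1 : ℂ) * hy3⟩

/-- The generic case of the addition theorem. -/
theorem modaddTheta_add_generic {z v : ℂ} (hz : z ∉ L.lattice) (hv : v ∉ L.lattice)
    (hzv : z + v ∉ L.lattice) (h12 : ℘[L] z ≠ ℘[L] v) (h31 : ℘[L] (z + v) ≠ ℘[L] z)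
    (h32 : ℘[L] (z + v) ≠ ℘[L] v) :
    modaddTheta L hΔ (z + v) = modaddTheta L hΔ z + modaddTheta L hΔ v := by
  rw [modaddTheta_of_notMem hΔ hz, modaddTheta_of_notMem hΔ hv, modaddTheta_of_notMem hΔ hzv,
    WeierstrassCurve.Affine.Point.add_of_X_ne h12]
  have hcol := modadd_collinear L hz hv hzv
  have e1 := L.derivWeierstrassP_sq z hz
  have e2 := L.derivWeierstrassP_sq v hv
  have e3 := L.derivWeierstrassP_sq (z + v) hzv
  have hcol' : ℘'[L] (z + v) * (℘[L] z - ℘[L] v) + ℘'[L] v * (℘[L] z - ℘[L] (z + v)) +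
      ℘'[L] z * (℘[L] (z + v) - ℘[L] v) = 0 := hcol
  obtain ⟨hx, hy⟩ := modadd_alg e1 e2 e3 hcol' h12 h31 h32
  refine modadd_some_congr _ _ ?_ ?_
  · rw [WeierstrassCurve.Affine.slope_of_X_ne h12]
    simp only [WeierstrassCurve.Affine.addX, modCurve]
    rw [hx]; ring
  · rw [WeierstrassCurve.Affine.slope_of_X_ne h12]
    simp only [WeierstrassCurve.Affine.addY, WeierstrassCurve.Affine.negY,
      WeierstrassCurve.Affine.negAddY, WeierstrassCurve.Affine.addX, modCurve]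
    rw [hy]
    have : ((℘'[L] z / 2 - ℘'[L] v / 2) / (℘[L] z - ℘[L] v)) ^ 2 = ℘[L] (z + v) + ℘[L] z + ℘[L] v := by
      rw [hx]; ring
    linear_combination ((℘'[L] z / 2 - ℘'[L] v / 2) / (℘[L] z - ℘[L] v)) * this


variable (L)

/-! ## Genericity -/

theorem modadd_preconnected_compl {S : Set ℂ} (hS : S.Countable) : IsPreconnected Sᶜ := by
  have h : 1 < Module.rank ℝ ℂ := by
    rw [Complex.rank_real_complex]
    exact Nat.one_lt_ofNat
  exact (hS.isConnected_compl_of_one_lt_rank h).isPreconnected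

theorem modadd_ev_notMem : ∀ᶠ t in 𝓝[≠] (0:ℂ), t ∉ L.lattice := by
  rw [eventually_nhdsWithin_iff]
  filter_upwards [L.compl_lattice_sdiff_singleton_mem_nhds 0] with t ht ht0 hmem
  exact ht ⟨hmem, ht0⟩

theorem modadd_ev_add_notMem {a : ℂ} (ha : a ∉ L.lattice) :
    ∀ᶠ t in 𝓝 (0:ℂ), a + t ∉ L.lattice := by
  have : Tendsto (fun t : ℂ ↦ a + t) (𝓝 0) (𝓝 a) := by
    have : Continuous (fun t : ℂ ↦ a + t) := by fun_prop
    simpa using this.tendsto 0
  exact this.eventually (L.isClosed_lattice.isOpen_compl.mem_nhds ha)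

theorem modadd_ev_sub_notMem {a : ℂ} (ha : a ∉ L.lattice) :
    ∀ᶠ t in 𝓝 (0:ℂ), a - t ∉ L.lattice := by
  have : Tendsto (fun t : ℂ ↦ a - t) (𝓝 0) (𝓝 a) := by
    have : Continuous (fun t : ℂ ↦ a - t) := by fun_prop
    simpa using this.tendsto 0
  exact this.eventually (L.isClosed_lattice.isOpen_compl.mem_nhds ha)

/-- `℘` is eventually different from any function continuous at `0`. -/
theorem modadd_ev_P_ne {b : ℂ → ℂ} (hb : ContinuousAt b 0) :
    ∀ᶠ t in 𝓝[≠] (0:ℂ), ℘[L] t ≠ b t := by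
  have hE : ContinuousAt ℘[L - (0:ℂ)] 0 := (L.analyticAt_weierstrassPExcept 0).continuousAt
  have hc : ContinuousAt (fun t : ℂ ↦ t ^ 2 * ℘[L - (0:ℂ)] t + 1 - t ^ 2 * b t) 0 := by
    fun_prop
  have h1 : (fun t : ℂ ↦ t ^ 2 * ℘[L - (0:ℂ)] t + 1 - t ^ 2 * b t) 0 ≠ 0 := by simp
  have h2 := hc.eventually_ne h1
  rw [eventually_nhdsWithin_iff]
  filter_upwards [h2] with t ht ht0 heq
  have ht0' : t ≠ 0 := ht0
  apply ht
  rw [← heq, modadd_P_eq L t]
  field_simp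
  ring

theorem modadd_analyticAt_add {a : ℂ} (ha : a ∉ L.lattice) :
    AnalyticAt ℂ (fun t ↦ ℘[L] (a + t)) 0 := by
  have h1 : AnalyticAt ℂ ℘[L] (a + 0) := by
    rw [add_zero]; exact L.analyticOnNhd_weierstrassP a ha
  exact h1.comp_of_eq (by fun_prop) rfl

theorem modadd_analyticAt_sub {a : ℂ} (ha : a ∉ L.lattice) :
    AnalyticAt ℂ (fun t ↦ ℘[L] (a - t)) 0 := by
  have h1 : AnalyticAt ℂ ℘[L] (a - 0) := by
    rw [sub_zero]; exact L.analyticOnNhd_weierstrassP a ha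
  exact h1.comp_of_eq (by fun_prop) rfl

/-- `℘` is not locally constant. -/
theorem modadd_ev_ne_const {a : ℂ} (ha : a ∉ L.lattice) (c : ℂ) :
    ∀ᶠ t in 𝓝[≠] (0:ℂ), ℘[L] (a + t) ≠ c := by
  rcases (modadd_analyticAt_add L ha).eventually_eq_or_eventually_ne
    (analyticAt_const (v := c)) with h | h
  · exfalso
    -- `℘ = c` near `a`, hence on the complement of the lattice
    have h1 : ℘[L] =ᶠ[𝓝 a] fun _ ↦ c := by
      have ht : Tendsto (fun w : ℂ ↦ w - a) (𝓝 a) (𝓝 0) := by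
        have : Continuous (fun w : ℂ ↦ w - a) := by fun_prop
        simpa using this.tendsto a
      filter_upwards [ht.eventually h] with w hw
      simpa using hw
    have h2 : Set.EqOn ℘[L] (fun _ ↦ c) (L.lattice : Set ℂ)ᶜ :=
      L.analyticOnNhd_weierstrassP.eqOn_of_preconnected_of_eventuallyEq analyticOnNhd_const
        (modadd_preconnected_compl (modadd_countable_lattice L)) ha h1
    have h3 := (modadd_ev_P_ne L (b := fun _ ↦ c) continuousAt_const).and (modadd_ev_notMem L)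
    obtain ⟨t, ht1, ht2⟩ := h3.exists
    exact ht1 (h2 ht2)
  · exact h

/-- `t ↦ ℘(a + t)` and `t ↦ ℘(b - t)` differ near `0` if `a + b` is not a period. -/
theorem modadd_ev_ne_pair {a b : ℂ} (ha : a ∉ L.lattice) (hb : b ∉ L.lattice)
    (hab : a + b ∉ L.lattice) :
    ∀ᶠ t in 𝓝[≠] (0:ℂ), ℘[L] (a + t) ≠ ℘[L] (b - t) := by
  rcases (modadd_analyticAt_add L ha).eventually_eq_or_eventually_ne
    (modadd_analyticAt_sub L hb) with h | h
  · exfalso
    -- the domain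
    set S : Set ℂ := ((fun l : ℂ ↦ l - a) '' (L.lattice : Set ℂ)) ∪
      ((fun l : ℂ ↦ b - l) '' (L.lattice : Set ℂ)) with hS
    have hSc : S.Countable :=
      ((modadd_countable_lattice L).image _).union ((modadd_countable_lattice L).image _)
    have hmem : ∀ t : ℂ, t ∈ Sᶜ → a + t ∉ L.lattice ∧ b - t ∉ L.lattice := by
      intro t ht
      constructor
      · intro h1
        exact ht (Or.inl ⟨a + t, h1, by ring⟩)
      · intro h1
        exact ht (Or.inr ⟨b - t, h1, by ring⟩)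
    have hf : AnalyticOnNhd ℂ (fun t ↦ ℘[L] (a + t)) Sᶜ := by
      intro t ht
      exact (L.analyticOnNhd_weierstrassP (a + t) (hmem t ht).1).comp_of_eq (by fun_prop) rfl
    have hg : AnalyticOnNhd ℂ (fun t ↦ ℘[L] (b - t)) Sᶜ := by
      intro t ht
      exact (L.analyticOnNhd_weierstrassP (b - t) (hmem t ht).2).comp_of_eq (by fun_prop) rfl
    have h0 : (0:ℂ) ∈ Sᶜ := by
      rintro (⟨l, hl, hl'⟩ | ⟨l, hl, hl'⟩)
      · apply ha
        have : a = l := by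
          simp only at hl'
          linear_combination (-1 : ℂ) * hl'
        rw [this]; exact hl
      · apply hb
        have : b = l := by
          simp only at hl'
          linear_combination hl'
        rw [this]; exact hl
    have h2 := hf.eqOn_of_preconnected_of_eventuallyEq hg (modadd_preconnected_compl hSc) h0 h
    -- near `t = -a`
    have hcont : ContinuousAt (fun s : ℂ ↦ ℘[L] (a + b - s)) 0 :=
      (modadd_analyticAt_sub L hab).continuousAt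
    have h3 := ((modadd_ev_P_ne L hcont).and (modadd_ev_notMem L)).and
      (mem_nhdsWithin_of_mem_nhds (modadd_ev_sub_notMem L hab))
    obtain ⟨s, ⟨hs1, hs2⟩, hs3⟩ := h3.exists
    have hs3' : a + b - s ∉ L.lattice := hs3
    have hin : (-a + s) ∈ Sᶜ := by
      rintro (⟨l, hl, hl'⟩ | ⟨l, hl, hl'⟩)
      · apply hs2
        have : s = l := by
          simp only at hl'
          linear_combination (-1 : ℂ) * hl'
        rw [this]; exact hl
      · apply hs3'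
        have : a + b - s = l := by
          simp only at hl'
          linear_combination hl'
        rw [this]; exact hl
    have h4 := h2 hin
    simp only at h4
    have e1 : a + (-a + s) = s := by ring
    have e2 : b - (-a + s) = a + b - s := by ring
    rw [e1, e2] at h4
    exact hs1 h4
  · exact h



/-! ## The addition theorem -/

theorem modadd_tendsto_neg : Tendsto (fun t : ℂ ↦ -t) (𝓝[≠] (0:ℂ)) (𝓝[≠] (0:ℂ)) := by
  refine tendsto_nhdsWithin_of_tendsto_nhds_of_eventually_within _ ?_ ?_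
  · have : Tendsto (fun t : ℂ ↦ -t) (𝓝 (0:ℂ)) (𝓝 (0:ℂ)) := by
      have : Continuous (fun t : ℂ ↦ -t) := by fun_prop
      simpa using this.tendsto 0
    exact this.mono_left nhdsWithin_le_nhds
  · filter_upwards [self_mem_nhdsWithin] with t ht
    have ht0 : t ≠ 0 := ht
    simpa using ht0

variable {L}

theorem modaddTheta_add_small {z : ℂ} (hz : z ∉ L.lattice) :
    ∀ᶠ t in 𝓝[≠] (0:ℂ),
      modaddTheta L hΔ (z + t) = modaddTheta L hΔ z + modaddTheta L hΔ t := by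
  have h1 := modadd_ev_notMem L
  have h2 : ∀ᶠ t in 𝓝[≠] (0:ℂ), z + t ∉ L.lattice :=
    (modadd_ev_add_notMem L hz).filter_mono nhdsWithin_le_nhds
  have h3 := modadd_ev_P_ne L (b := fun _ ↦ ℘[L] z) continuousAt_const
  have h4 := modadd_ev_ne_const L hz (℘[L] z)
  have h5 := modadd_ev_P_ne L (b := fun t ↦ ℘[L] (z + t)) (modadd_analyticAt_add L hz).continuousAt
  filter_upwards [h1, h2, h3, h4, h5] with t ht1 ht2 ht3 ht4 ht5
  exact modaddTheta_add_generic hΔ hz ht1 ht2 (Ne.symm ht3) ht4 (Ne.symm ht5)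

/-- **The addition theorem.** -/
theorem modaddTheta_add (z v : ℂ) :
    modaddTheta L hΔ (z + v) = modaddTheta L hΔ z + modaddTheta L hΔ v := by
  by_cases hz : z ∈ L.lattice
  · rw [modaddTheta_of_mem hΔ hz, zero_add, add_comm]
    exact modaddTheta_add_coe hΔ v ⟨z, hz⟩
  by_cases hv : v ∈ L.lattice
  · rw [modaddTheta_of_mem hΔ hv, add_zero]
    exact modaddTheta_add_coe hΔ z ⟨v, hv⟩
  by_cases hzv : z + v ∈ L.lattice
  · rw [modaddTheta_of_mem hΔ hzv]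
    have h1 : modaddTheta L hΔ (-z + (z + v)) = modaddTheta L hΔ (-z) :=
      modaddTheta_add_coe hΔ (-z) ⟨z + v, hzv⟩
    have e : -z + (z + v) = v := by ring
    rw [e] at h1
    rw [h1, modaddTheta_neg, add_neg_cancel]
  -- the generic perturbation
  have a1 := modaddTheta_add_small hΔ hz
  have a2 := modadd_tendsto_neg.eventually (modaddTheta_add_small hΔ hv)
  have b1 : ∀ᶠ t in 𝓝[≠] (0:ℂ), z + t ∉ L.lattice :=
    (modadd_ev_add_notMem L hz).filter_mono nhdsWithin_le_nhds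
  have b2 : ∀ᶠ t in 𝓝[≠] (0:ℂ), v - t ∉ L.lattice :=
    (modadd_ev_sub_notMem L hv).filter_mono nhdsWithin_le_nhds
  have b3 := modadd_ev_ne_pair L hz hv hzv
  have b4 := modadd_ev_ne_const L hz (℘[L] (z + v))
  have b5 := modadd_tendsto_neg.eventually (modadd_ev_ne_const L hv (℘[L] (z + v)))
  obtain ⟨t, ⟨⟨⟨⟨⟨⟨ha1, ha2⟩, hb1⟩, hb2⟩, hb3⟩, hb4⟩, hb5⟩⟩ :=
    ((((((a1.and a2).and b1).and b2).and b3).and b4).and b5).exists
  have e : z + t + (v - t) = z + v := by ring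
  have e' : v + -t = v - t := by ring
  rw [e'] at ha2 hb5
  have hgen := modaddTheta_add_generic hΔ (z := z + t) (v := v - t) hb1 hb2 (by rw [e]; exact hzv)
    hb3 (by rw [e]; exact Ne.symm hb4) (by rw [e]; exact Ne.symm hb5)
  rw [e] at hgen
  rw [hgen, ha1, ha2, modaddTheta_neg]
  abel

/-! ## Surjectivity -/

variable (L)

/-- `1 / (℘ - x₀)`, extended by `0` to the lattice. -/
def modaddInv (x₀ : ℂ) (z : ℂ) : ℂ :=
  letI := Classical.propDecidable
  if z ∈ L.lattice then 0 else (℘[L] z - x₀)⁻¹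

theorem modaddInv_add_coe (x₀ z : ℂ) (l : L.lattice) :
    modaddInv L x₀ (z + l) = modaddInv L x₀ z := by
  unfold modaddInv
  rw [modadd_mem_add_coe_iff L z l, L.weierstrassP_add_coe]

/-- `℘` takes every value. -/
theorem modadd_exists_P_eq (x₀ : ℂ) : ∃ z, z ∉ L.lattice ∧ ℘[L] z = x₀ := by
  by_contra hcon
  push Not at hcon
  have h0 : AnalyticAt ℂ (modaddInv L x₀) 0 := by
    have hE : AnalyticAt ℂ ℘[L - (0:ℂ)] 0 := L.analyticAt_weierstrassPExcept 0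
    have hA : AnalyticAt ℂ (fun t : ℂ ↦ t ^ 2 / (t ^ 2 * (℘[L - (0:ℂ)] t - x₀) + 1)) 0 := by
      apply AnalyticAt.div (by fun_prop) (by fun_prop)
      simp
    refine hA.congr ?_
    filter_upwards [L.compl_lattice_sdiff_singleton_mem_nhds 0] with t ht
    by_cases ht0 : t = 0
    · subst ht0
      simp [modaddInv]
    · have htL : t ∉ L.lattice := fun h ↦ ht ⟨h, ht0⟩
      have hne := sub_ne_zero.2 (hcon t htL)
      rw [modadd_P_eq L t] at hne
      have hne' : t ^ 2 * (℘[L - (0:ℂ)] t - x₀) + 1 ≠ 0 := by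
        intro h
        apply hne
        field_simp
        linear_combination h
      simp only [modaddInv, htL, if_false]
      rw [modadd_P_eq L t]
      have e : ℘[L - (0:ℂ)] t + 1 / t ^ 2 - x₀ =
          (t ^ 2 * (℘[L - (0:ℂ)] t - x₀) + 1) / t ^ 2 := by
        field_simp
        ring
      rw [e, inv_div]
  have hall : ∀ z, AnalyticAt ℂ (modaddInv L x₀) z := by
    intro z
    by_cases hz : z ∈ L.lattice
    · have h1 : AnalyticAt ℂ (fun w : ℂ ↦ w - z) z := by fun_prop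
      have h3 := h0.comp_of_eq h1 (by simp)
      refine h3.congr (Eventually.of_forall fun w ↦ ?_)
      simp only [Function.comp_apply]
      have := modaddInv_add_coe L x₀ (w - z) ⟨z, hz⟩
      simp only [sub_add_cancel] at this
      exact this.symm
    · have h1 : AnalyticAt ℂ (fun w ↦ (℘[L] w - x₀)⁻¹) z := by
        have := L.analyticOnNhd_weierstrassP z hz
        exact (this.sub analyticAt_const).inv (sub_ne_zero.2 (hcon z hz))
      refine h1.congr ?_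
      filter_upwards [L.isClosed_lattice.isOpen_compl.mem_nhds hz] with w hw
      have hw' : w ∉ L.lattice := hw
      simp [modaddInv, hw']
  have hd : Differentiable ℂ (modaddInv L x₀) := fun x ↦ (hall x).differentiableAt
  have hb := (IsZLattice.isCompact_range_of_periodic L.lattice _
    hd.continuous fun z w hw ↦ by
      lift w to L.lattice using hw
      exact modaddInv_add_coe L x₀ z w).isBounded
  have h1 := hd.apply_eq_apply_of_bounded hb (L.ω₁ / 2) 0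
  have hω := L.ω₁_div_two_notMem_lattice
  simp only [modaddInv, hω, if_false, zero_mem, if_true, inv_eq_zero] at h1
  exact hcon _ hω (sub_eq_zero.1 h1)

variable {L}

theorem modaddTheta_surjective : Function.Surjective (modaddTheta L hΔ) := by
  intro P
  rcases P with _ | ⟨x, y, h⟩
  · exact ⟨0, modaddTheta_of_mem hΔ (zero_mem _)⟩
  · obtain ⟨z, hz, hzx⟩ := modadd_exists_P_eq L x
    have heq := h.1
    rw [WeierstrassCurve.Affine.equation_iff] at heq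
    simp only [modCurve] at heq
    have hsq := L.derivWeierstrassP_sq z hz
    rw [hzx] at hsq
    have hy : (y - ℘'[L] z / 2) * (y + ℘'[L] z / 2) = 0 := by
      linear_combination heq - (1 / 4 : ℂ) * hsq
    rcases mul_eq_zero.1 hy with h1 | h1
    · refine ⟨z, ?_⟩
      rw [modaddTheta_of_notMem hΔ hz]
      exact modadd_some_congr _ _ hzx (by linear_combination (-1 : ℂ) * h1)
    · refine ⟨-z, ?_⟩
      have hz' : -z ∉ L.lattice := fun h ↦ hz (neg_mem_iff.1 h)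
      rw [modaddTheta_of_notMem hΔ hz']
      refine modadd_some_congr _ _ ?_ ?_
      · rw [L.weierstrassP_neg, hzx]
      · rw [L.derivWeierstrassP_neg]
        linear_combination (-1 : ℂ) * h1

/-! ## The main theorem -/

/-- The uniformisation as a homomorphism. -/
def modaddHom : ℂ →+ (modCurve L).toAffine.Point :=
  AddMonoidHom.mk' (modaddTheta L hΔ) (modaddTheta_add hΔ)

@[simp] theorem modaddHom_apply (z : ℂ) : modaddHom hΔ z = modaddTheta L hΔ z := rfl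

/-- **MOD-ADD.** `z ↦ (℘ z, ℘' z / 2)` is a surjective homomorphism `ℂ → E_Λ(ℂ)` with kernel
`Λ`. -/
theorem modadd_main (L : PeriodPair) (hΔ : L.g₂ ^ 3 - 27 * L.g₃ ^ 2 ≠ 0) :
    ∃ θ : ℂ →+ (modCurve L).toAffine.Point,
      (∀ z, θ z = 0 ↔ z ∈ L.lattice) ∧ Function.Surjective θ ∧
        ∀ z, z ∉ L.lattice →
          ∃ h : (modCurve L).toAffine.Nonsingular (℘[L] z) (℘'[L] z / 2),
            θ z = .some (℘[L] z) (℘'[L] z / 2) h :=
  ⟨modaddHom hΔ, fun z ↦ modaddTheta_eq_zero_iff hΔ z, modaddTheta_surjective hΔ,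
    fun _ hz ↦ ⟨modadd_nonsingular L hΔ hz, modaddTheta_of_notMem hΔ hz⟩⟩

/-- `℘` is injective modulo `±` and the lattice. -/
theorem modadd_P_inj (L : PeriodPair) (hΔ : L.g₂ ^ 3 - 27 * L.g₃ ^ 2 ≠ 0) {z₁ z₂ : ℂ}
    (h1 : z₁ ∉ L.lattice) (h2 : z₂ ∉ L.lattice) (h : ℘[L] z₁ = ℘[L] z₂) :
    z₁ - z₂ ∈ L.lattice ∨ z₁ + z₂ ∈ L.lattice := by
  have e1 := L.derivWeierstrassP_sq z₁ h1
  have e2 := L.derivWeierstrassP_sq z₂ h2
  rw [h] at e1
  have hy : (℘'[L] z₁ - ℘'[L] z₂) * (℘'[L] z₁ + ℘'[L] z₂) = 0 := by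
    linear_combination e1 - e2
  rcases mul_eq_zero.1 hy with h3 | h3
  · left
    rw [← modaddTheta_eq_zero_iff hΔ, sub_eq_add_neg, modaddTheta_add, modaddTheta_neg,
      modaddTheta_of_notMem hΔ h1, modaddTheta_of_notMem hΔ h2]
    rw [add_neg_eq_zero]
    exact modadd_some_congr _ _ h (by linear_combination (1 / 2 : ℂ) * h3)
  · right
    rw [← modaddTheta_eq_zero_iff hΔ, modaddTheta_add, add_eq_zero_iff_eq_neg,
      ← modaddTheta_neg]
    have h2' : -z₂ ∉ L.lattice := fun h ↦ h2 (neg_mem_iff.1 h)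
    rw [modaddTheta_of_notMem hΔ h1, modaddTheta_of_notMem hΔ h2']
    refine modadd_some_congr _ _ ?_ ?_
    · rw [L.weierstrassP_neg, h]
    · rw [L.derivWeierstrassP_neg]
      linear_combination (1 / 2 : ℂ) * h3

end Fermat.Agent.S15

end
end ZBZ2S15_002_9

/-! ### bundled: `Fermat.Agent.S15.ModAdd` -/
section ZBZ2S15_002_10

/-!
# S15 / MOD-ADD — `stmtModAdd : StmtModAdd` (helper51)

The proof is in `ModAddCore.lean` (Mathlib only).
-/

set_option autoImplicit false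

noncomputable section

namespace Fermat.Agent.S15

/-- **MOD-ADD.** `z ↦ (℘ z, ℘' z / 2)` is a group isomorphism `ℂ / Λ ≅ E_Λ(ℂ)`. -/
theorem stmtModAdd : StmtModAdd := fun L hΔ ↦ modadd_main L hΔ

end Fermat.Agent.S15

end
end ZBZ2S15_002_10

/-! ### bundled: `Fermat.Agent.S15.ModFrickeP` -/
section ZBZ2S15_002_11

/-!
# S15 / MOD-FRICKE (1): the division values `P_{a,b}(τ) = ℘((aτ + b)/N; ℤτ + ℤ) / (2πi)²`

* `mfr_weierstrassP_scale` : `℘[L'] z = s² ℘[L] (s z)` if `L = s L'`;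
* `mfr_weierstrassP_smul` : `℘(z; γτ) = (cτ + d)² ℘((cτ + d) z; τ)` for `γ ∈ SL(2, ℤ)`;
* `mfrP N a b τ`, `mfrP_smul` : `P_{a,b}(γ τ) = (cτ + d)² P_{(a,b)γ}(τ)`;
* `mfrP_add_mul`, `mfrP_neg`, `mfrP_congr` : `P_{a,b}` depends only on `±(a, b) mod N`.
-/

set_option autoImplicit false

noncomputable section

namespace Fermat.Agent.S15

open UpperHalfPlane PeriodPair Complex
open Fermat.Agent.S23
open scoped MatrixGroups Real

/-- scaling of `℘`: if `L = s · L'` then `℘[L'] z = s² ℘[L] (s z)`. -/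
theorem mfr_weierstrassP_scale (L L' : PeriodPair) (s : ℂ) (hs : s ≠ 0)
    (h : ∀ x : ℂ, x ∈ L'.lattice ↔ s * x ∈ L.lattice) (z : ℂ) :
    ℘[L'] z = s ^ 2 * ℘[L] (s * z) := by
  unfold weierstrassP
  let e : L'.lattice ≃ L.lattice :=
    { toFun := fun x => ⟨s * x, (h x).mp x.2⟩
      invFun := fun y => ⟨s⁻¹ * y, (h _).mpr (by rw [mul_inv_cancel_left₀ hs]; exact y.2)⟩
      left_inv := fun x => by
        apply Subtype.ext
        show s⁻¹ * (s * (x : ℂ)) = x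
        rw [inv_mul_cancel_left₀ hs]
      right_inv := fun y => by
        apply Subtype.ext
        show s * (s⁻¹ * (y : ℂ)) = y
        rw [mul_inv_cancel_left₀ hs] }
  rw [← e.tsum_eq, ← tsum_mul_left]
  refine tsum_congr fun x => ?_
  show 1 / (z - (x : ℂ)) ^ 2 - 1 / (x : ℂ) ^ 2 =
    s ^ 2 * (1 / (s * z - s * (x : ℂ)) ^ 2 - 1 / (s * (x : ℂ)) ^ 2)
  have h2 : s ^ 2 ≠ 0 := pow_ne_zero 2 hs
  have key : ∀ y : ℂ, s ^ 2 * (1 / (s * y) ^ 2) = 1 / y ^ 2 := by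
    intro y
    rw [mul_pow, one_div, one_div, mul_inv, ← mul_assoc, mul_inv_cancel₀ h2, one_mul]
  rw [mul_sub, ← mul_sub s z, key, key]

/-- the lattice of `γ τ` -/
theorem mfr_mem_lattice_smul (γ : SL(2, ℤ)) (τ : ℍ) (x : ℂ) :
    x ∈ (modLat (γ • τ)).lattice ↔
      ((γ 1 0 : ℂ) * τ + (γ 1 1 : ℂ)) * x ∈ (modLat τ).lattice := by
  have hden := P8_denom_ne_zero γ τ
  have hdet : (γ 0 0 : ℂ) * (γ 1 1 : ℂ) - (γ 0 1 : ℂ) * (γ 1 0 : ℂ) = 1 := by
    have h := γ.det_coe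
    rw [Matrix.det_fin_two] at h
    exact_mod_cast h
  rw [mem_lattice, mem_lattice]
  simp only [modLat_ω₁, modLat_ω₂, P8_coe_smul, mul_one]
  constructor
  · rintro ⟨m, n, rfl⟩
    refine ⟨m * γ 0 0 + n * γ 1 0, m * γ 0 1 + n * γ 1 1, ?_⟩
    push_cast
    field_simp
    ring
  · rintro ⟨m', n', h⟩
    refine ⟨m' * γ 1 1 - n' * γ 1 0, -m' * γ 0 1 + n' * γ 0 0, ?_⟩
    have hx : x = ((m' : ℂ) * τ + n') / ((γ 1 0 : ℂ) * τ + (γ 1 1 : ℂ)) := by
      rw [eq_div_iff hden, mul_comm x]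
      exact h.symm
    rw [hx]
    push_cast
    field_simp
    linear_combination ((m' : ℂ) * τ + n') * hdet

/-- `℘(z; γ τ) = (c τ + d)² ℘((c τ + d) z; τ)` -/
theorem mfr_weierstrassP_smul (γ : SL(2, ℤ)) (τ : ℍ) (z : ℂ) :
    ℘[modLat (γ • τ)] z =
      ((γ 1 0 : ℂ) * τ + (γ 1 1 : ℂ)) ^ 2 *
        ℘[modLat τ] (((γ 1 0 : ℂ) * τ + (γ 1 1 : ℂ)) * z) :=
  mfr_weierstrassP_scale (modLat τ) (modLat (γ • τ)) _ (P8_denom_ne_zero γ τ)
    (mfr_mem_lattice_smul γ τ) z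

/-- the division value `P_{a,b}(τ) = ℘((a τ + b)/N; ℤτ + ℤ) / (2πi)²` -/
def mfrP (N : ℕ) (a b : ℤ) (τ : ℍ) : ℂ :=
  ℘[modLat τ] (((a : ℂ) * τ + (b : ℂ)) / (N : ℂ)) / (2 * π * Complex.I) ^ 2

/-- `P_{a,b}(γ τ) = (c τ + d)² P_{(a,b)γ}(τ)` -/
theorem mfrP_smul (N : ℕ) (a b : ℤ) (γ : SL(2, ℤ)) (τ : ℍ) :
    mfrP N a b (γ • τ) = ((γ 1 0 : ℂ) * τ + (γ 1 1 : ℂ)) ^ 2 *
      mfrP N (a * γ 0 0 + b * γ 1 0) (a * γ 0 1 + b * γ 1 1) τ := by
  have hden := P8_denom_ne_zero γ τ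
  unfold mfrP
  rw [mfr_weierstrassP_smul, mul_div_assoc]
  congr 3
  rw [P8_coe_smul]
  push_cast
  field_simp
  ring

theorem mfrP_add_mul (N : ℕ) [NeZero N] (a b m n : ℤ) (τ : ℍ) :
    mfrP N (a + N * m) (b + N * n) τ = mfrP N a b τ := by
  have hN : (N : ℂ) ≠ 0 := Nat.cast_ne_zero.mpr (NeZero.ne N)
  unfold mfrP
  have hl : (m : ℂ) * τ + (n : ℂ) ∈ (modLat τ).lattice :=
    mem_lattice.mpr ⟨m, n, by simp⟩
  have h1 : (((a + N * m : ℤ) : ℂ) * τ + ((b + N * n : ℤ) : ℂ)) / (N : ℂ) =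
      ((a : ℂ) * τ + (b : ℂ)) / (N : ℂ) + ((⟨_, hl⟩ : (modLat τ).lattice) : ℂ) := by
    push_cast
    field_simp
    ring
  rw [h1, weierstrassP_add_coe]

theorem mfrP_neg (N : ℕ) (a b : ℤ) (τ : ℍ) : mfrP N (-a) (-b) τ = mfrP N a b τ := by
  unfold mfrP
  have h1 : (((-a : ℤ) : ℂ) * τ + ((-b : ℤ) : ℂ)) / (N : ℂ) =
      -(((a : ℂ) * τ + (b : ℂ)) / (N : ℂ)) := by
    push_cast
    ring
  rw [h1, weierstrassP_neg]

theorem mfrP_congr (N : ℕ) [NeZero N] {a a' b b' : ℤ} (ha : a ≡ a' [ZMOD N])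
    (hb : b ≡ b' [ZMOD N]) (τ : ℍ) : mfrP N a b τ = mfrP N a' b' τ := by
  obtain ⟨m, hm⟩ := ha.symm.dvd
  obtain ⟨n, hn⟩ := hb.symm.dvd
  have h1 : a = a' + N * m := by linarith
  have h2 : b = b' + N * n := by linarith
  rw [h1, h2, mfrP_add_mul]

/-- the argument of `P_{a,b}` is not a lattice point unless `N ∣ a` and `N ∣ b` -/
theorem mfr_notMem_lattice (N : ℕ) [NeZero N] (a b : ℤ) (h : ¬ ((N : ℤ) ∣ a ∧ (N : ℤ) ∣ b))
    (τ : ℍ) : ((a : ℂ) * τ + (b : ℂ)) / (N : ℂ) ∉ (modLat τ).lattice := by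
  have hN : (N : ℂ) ≠ 0 := Nat.cast_ne_zero.mpr (NeZero.ne N)
  intro hmem
  obtain ⟨m, n, hmn⟩ := mem_lattice.mp hmem
  simp only [modLat_ω₁, modLat_ω₂, mul_one] at hmn
  rw [eq_div_iff hN] at hmn
  have h0 : ((N * m - a : ℤ) : ℂ) * τ + ((N * n - b : ℤ) : ℂ) = 0 := by
    push_cast
    linear_combination hmn
  have him := congrArg Complex.im h0
  simp only [Complex.add_im, Complex.mul_im, Complex.intCast_re, Complex.intCast_im, zero_mul,
    add_zero, Complex.zero_im, UpperHalfPlane.coe_im] at him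
  have ha : ((N * m - a : ℤ) : ℝ) = 0 := by
    rcases mul_eq_zero.mp him with h | h
    · exact h
    · exact absurd h τ.im_pos.ne'
  have ha' : N * m - a = 0 := by exact_mod_cast ha
  rw [ha'] at h0
  simp only [Int.cast_zero, zero_mul, zero_add] at h0
  have hb' : N * n - b = 0 := by exact_mod_cast h0
  exact h ⟨⟨m, by linarith⟩, ⟨n, by linarith⟩⟩

end Fermat.Agent.S15

end
end ZBZ2S15_002_11

/-! ### bundled: `Fermat.Agent.S15.ModFrickeEst` -/
section ZBZ2S15_002_12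

/-!
# S15 / MOD-FRICKE (2): estimates for Tate's series (Mathlib only)

`U(w) = w / (1 - w)²`; Tate's general term is
`U(qⁿ u) + U(qⁿ u⁻¹) - 2 U(qⁿ)`.  For `‖q‖, ‖q u‖, ‖q u⁻¹‖ ≤ ρ < 1` it is bounded by
`4 ρⁿ / (1 - ρ)²`.
-/

set_option autoImplicit false

noncomputable section

namespace Fermat.Agent.S15

open Complex Filter Topology
open scoped Real

/-- `U(w) = w / (1 - w)²` -/
def mfrU (w : ℂ) : ℂ := w / (1 - w) ^ 2

/-- Tate's general term in terms of `U` (same expression as `modTateTerm` of `ModPlan`). -/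
def mfrTerm (q u : ℂ) (n : ℕ) : ℂ :=
  mfrU (q ^ (n + 1) * u) + mfrU (q ^ (n + 1) * u⁻¹) - 2 * mfrU (q ^ (n + 1))

theorem mfr_one_sub_ne_zero {w : ℂ} (hw : ‖w‖ < 1) : (1 : ℂ) - w ≠ 0 := by
  intro h
  have : w = 1 := by linear_combination -h
  rw [this, norm_one] at hw
  exact lt_irrefl _ hw

theorem norm_mfrU_le {w : ℂ} {ρ : ℝ} (hρ : ρ < 1) (hw : ‖w‖ ≤ ρ) :
    ‖mfrU w‖ ≤ ‖w‖ / (1 - ρ) ^ 2 := by
  have h1 : 0 < 1 - ρ := by linarith
  have h2 : 1 - ρ ≤ ‖(1 : ℂ) - w‖ := by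
    have := norm_sub_norm_le (1 : ℂ) w
    rw [norm_one] at this
    linarith
  unfold mfrU
  rw [norm_div, norm_pow]
  apply div_le_div_of_nonneg_left (norm_nonneg w) (by positivity)
  exact pow_le_pow_left₀ h1.le h2 2

theorem norm_mfrTerm_le {q u : ℂ} {ρ : ℝ} (hρ0 : 0 ≤ ρ) (hρ : ρ < 1) (hq : ‖q‖ ≤ ρ)
    (hqu : ‖q * u‖ ≤ ρ) (hqu' : ‖q * u⁻¹‖ ≤ ρ) (n : ℕ) :
    ‖mfrTerm q u n‖ ≤ 4 * ρ ^ (n + 1) / (1 - ρ) ^ 2 := by
  have h1 : 0 < 1 - ρ := by linarith
  have hρn : ρ ^ (n + 1) ≤ ρ := by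
    calc ρ ^ (n + 1) ≤ ρ ^ 1 := pow_le_pow_of_le_one hρ0 hρ.le (by omega)
      _ = ρ := pow_one ρ
  have hqn : ‖q ^ n‖ ≤ ρ ^ n := by
    rw [norm_pow]; exact pow_le_pow_left₀ (norm_nonneg q) hq n
  have ha : ‖q ^ (n + 1) * u‖ ≤ ρ ^ (n + 1) := by
    rw [pow_succ, mul_assoc, norm_mul, pow_succ]
    exact mul_le_mul hqn hqu (norm_nonneg _) (by positivity)
  have hb : ‖q ^ (n + 1) * u⁻¹‖ ≤ ρ ^ (n + 1) := by
    rw [pow_succ, mul_assoc, norm_mul, pow_succ]
    exact mul_le_mul hqn hqu' (norm_nonneg _) (by positivity)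
  have hc : ‖q ^ (n + 1)‖ ≤ ρ ^ (n + 1) := by
    rw [norm_pow]; exact pow_le_pow_left₀ (norm_nonneg q) hq (n + 1)
  have hUa := norm_mfrU_le hρ (ha.trans hρn)
  have hUb := norm_mfrU_le hρ (hb.trans hρn)
  have hUc := norm_mfrU_le hρ (hc.trans hρn)
  have hd : 0 < (1 - ρ) ^ 2 := by positivity
  have hUa' : ‖mfrU (q ^ (n + 1) * u)‖ ≤ ρ ^ (n + 1) / (1 - ρ) ^ 2 :=
    hUa.trans (div_le_div_of_nonneg_right ha hd.le)
  have hUb' : ‖mfrU (q ^ (n + 1) * u⁻¹)‖ ≤ ρ ^ (n + 1) / (1 - ρ) ^ 2 :=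
    hUb.trans (div_le_div_of_nonneg_right hb hd.le)
  have hUc' : ‖mfrU (q ^ (n + 1))‖ ≤ ρ ^ (n + 1) / (1 - ρ) ^ 2 :=
    hUc.trans (div_le_div_of_nonneg_right hc hd.le)
  unfold mfrTerm
  calc ‖mfrU (q ^ (n + 1) * u) + mfrU (q ^ (n + 1) * u⁻¹) - 2 * mfrU (q ^ (n + 1))‖
      ≤ ‖mfrU (q ^ (n + 1) * u)‖ + ‖mfrU (q ^ (n + 1) * u⁻¹)‖ + 2 * ‖mfrU (q ^ (n + 1))‖ := by
        refine (norm_sub_le _ _).trans ?_
        refine add_le_add (norm_add_le _ _) ?_
        rw [norm_mul]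
        simp
    _ ≤ ρ ^ (n + 1) / (1 - ρ) ^ 2 + ρ ^ (n + 1) / (1 - ρ) ^ 2 +
          2 * (ρ ^ (n + 1) / (1 - ρ) ^ 2) := by
        gcongr
    _ = 4 * ρ ^ (n + 1) / (1 - ρ) ^ 2 := by ring

theorem mfr_summable_bound {ρ : ℝ} (hρ0 : 0 ≤ ρ) (hρ : ρ < 1) :
    Summable fun n : ℕ => 4 * ρ ^ (n + 1) / (1 - ρ) ^ 2 := by
  have h := (summable_geometric_of_lt_one hρ0 hρ).mul_left (4 * ρ / (1 - ρ) ^ 2)
  refine h.congr fun n => ?_
  rw [pow_succ]
  ring

theorem mfr_tsum_bound {ρ : ℝ} (hρ0 : 0 ≤ ρ) (hρ : ρ < 1) :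
    ∑' n : ℕ, 4 * ρ ^ (n + 1) / (1 - ρ) ^ 2 = 4 * ρ / (1 - ρ) ^ 3 := by
  have h1 : 0 < 1 - ρ := by linarith
  have h : ∀ n : ℕ, 4 * ρ ^ (n + 1) / (1 - ρ) ^ 2 = 4 * ρ / (1 - ρ) ^ 2 * ρ ^ n := by
    intro n
    rw [pow_succ]
    ring
  simp_rw [h]
  rw [tsum_mul_left, tsum_geometric_of_lt_one hρ0 hρ]
  field_simp

theorem mfr_summable_mfrTerm {q u : ℂ} {ρ : ℝ} (hρ0 : 0 ≤ ρ) (hρ : ρ < 1) (hq : ‖q‖ ≤ ρ)
    (hqu : ‖q * u‖ ≤ ρ) (hqu' : ‖q * u⁻¹‖ ≤ ρ) : Summable (mfrTerm q u) :=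
  Summable.of_norm_bounded (mfr_summable_bound hρ0 hρ) (norm_mfrTerm_le hρ0 hρ hq hqu hqu')

theorem norm_tsum_mfrTerm_le {q u : ℂ} {ρ : ℝ} (hρ0 : 0 ≤ ρ) (hρ : ρ < 1) (hq : ‖q‖ ≤ ρ)
    (hqu : ‖q * u‖ ≤ ρ) (hqu' : ‖q * u⁻¹‖ ≤ ρ) :
    ‖∑' n, mfrTerm q u n‖ ≤ 4 * ρ / (1 - ρ) ^ 3 := by
  rw [← mfr_tsum_bound hρ0 hρ]
  exact tsum_of_norm_bounded (mfr_summable_bound hρ0 hρ).hasSum
    (norm_mfrTerm_le hρ0 hρ hq hqu hqu')

theorem mfrU_differentiableAt {w : ℂ} (hw : w ≠ 1) : DifferentiableAt ℂ mfrU w := by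
  unfold mfrU
  refine DifferentiableAt.div differentiableAt_id ?_ ?_
  · exact ((differentiableAt_const _).sub differentiableAt_id).pow 2
  · exact pow_ne_zero 2 (sub_ne_zero.mpr hw.symm)

/-! ### the functions `q(τ) = e^{2πiτ}` and `u(τ) = e^{2πi(aτ+b)/N}` -/

/-- `q(τ) = e^{2πiτ}` -/
def mfrQ (τ : ℂ) : ℂ := cexp (2 * π * I * τ)

/-- `u(τ) = e^{2πi(aτ + b)/N}` -/
def mfrUu (N : ℕ) (a b : ℤ) (τ : ℂ) : ℂ := cexp (2 * π * I * (((a : ℂ) * τ + (b : ℂ)) / (N : ℂ)))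

theorem norm_mfrQ (τ : ℂ) : ‖mfrQ τ‖ = Real.exp (-(2 * π * τ.im)) := by
  unfold mfrQ
  rw [Complex.norm_exp]
  congr 1
  simp [Complex.mul_re]

theorem norm_mfrUu (N : ℕ) (a b : ℤ) (τ : ℂ) :
    ‖mfrUu N a b τ‖ = Real.exp (-(2 * π * ((a : ℝ) * τ.im / (N : ℝ)))) := by
  unfold mfrUu
  rw [Complex.norm_exp]
  congr 1
  have h : (((a : ℂ) * τ + (b : ℂ)) / (N : ℂ)).im = (a : ℝ) * τ.im / (N : ℝ) := by
    have hN : ((N : ℂ)) = ((N : ℝ) : ℂ) := by push_cast; rfl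
    rw [hN, Complex.div_ofReal_im]
    simp [Complex.add_im, Complex.mul_im]
  rw [Complex.mul_re, h]
  simp

theorem mfrQ_differentiable : Differentiable ℂ mfrQ := by
  unfold mfrQ
  fun_prop

theorem mfrUu_differentiable (N : ℕ) (a b : ℤ) : Differentiable ℂ (mfrUu N a b) := by
  unfold mfrUu
  fun_prop

theorem mfrUu_ne_zero (N : ℕ) (a b : ℤ) (τ : ℂ) : mfrUu N a b τ ≠ 0 := Complex.exp_ne_zero _

theorem mfrUu_inv_differentiable (N : ℕ) (a b : ℤ) :
    Differentiable ℂ (fun τ => (mfrUu N a b τ)⁻¹) := fun τ =>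
  (mfrUu_differentiable N a b τ).inv (mfrUu_ne_zero N a b τ)

/-- the three norm bounds, for `0 ≤ a < N` and `A ≤ Im τ` -/
theorem mfr_norm_bounds (N : ℕ) [NeZero N] (a b : ℤ) (ha0 : 0 ≤ a) (haN : a < N) {A : ℝ}
    (hA : 0 < A) {τ : ℂ} (hτ : A ≤ τ.im) :
    ‖mfrQ τ‖ ≤ Real.exp (-(2 * π * A / N)) ∧
    ‖mfrQ τ * mfrUu N a b τ‖ ≤ Real.exp (-(2 * π * A / N)) ∧
    ‖mfrQ τ * (mfrUu N a b τ)⁻¹‖ ≤ Real.exp (-(2 * π * A / N)) := by
  have hNpos : (0 : ℝ) < N := Nat.cast_pos.mpr (Nat.pos_of_ne_zero (NeZero.ne N))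
  have hN1 : (1 : ℝ) ≤ N := by exact_mod_cast Nat.pos_of_ne_zero (NeZero.ne N)
  have ha0' : (0 : ℝ) ≤ a := by exact_mod_cast ha0
  have haN' : (a : ℝ) + 1 ≤ N := by exact_mod_cast haN
  have hπ := Real.pi_pos
  have hτ0 : 0 < τ.im := lt_of_lt_of_le hA hτ
  have hAN : A / N ≤ τ.im := by
    calc A / N ≤ A := div_le_self hA.le hN1
      _ ≤ τ.im := hτ
  refine ⟨?_, ?_, ?_⟩
  · rw [norm_mfrQ, Real.exp_le_exp]
    have : 2 * π * A / N = 2 * π * (A / N) := by ring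
    rw [this]
    have := mul_le_mul_of_nonneg_left hAN (by positivity : (0 : ℝ) ≤ 2 * π)
    linarith
  · rw [norm_mul, norm_mfrQ, norm_mfrUu, ← Real.exp_add, Real.exp_le_exp]
    have h1 : 2 * π * A / N = 2 * π * (A / N) := by ring
    rw [h1]
    have h2 := mul_le_mul_of_nonneg_left hAN (by positivity : (0 : ℝ) ≤ 2 * π)
    have h3 : 0 ≤ 2 * π * ((a : ℝ) * τ.im / N) := by positivity
    linarith
  · rw [norm_mul, norm_inv, norm_mfrQ, norm_mfrUu, ← Real.exp_neg, ← Real.exp_add,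
      Real.exp_le_exp]
    have h1 : -(2 * π * τ.im) + - -(2 * π * ((a : ℝ) * τ.im / N)) =
        -(2 * π * (τ.im * ((N - a) / N))) := by
      field_simp
      ring
    rw [h1]
    have h2 : A / N ≤ τ.im * ((N - a) / N) := by
      rw [div_le_iff₀ hNpos]
      have : τ.im * ((N - a) / N) * N = τ.im * (N - a) := by field_simp
      rw [this]
      calc A ≤ τ.im := hτ
        _ = τ.im * 1 := (mul_one _).symm
        _ ≤ τ.im * (N - a) := by
          apply mul_le_mul_of_nonneg_left _ hτ0.le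
          linarith
    have h3 : 2 * π * A / N = 2 * π * (A / N) := by ring
    rw [h3]
    have := mul_le_mul_of_nonneg_left h2 (by positivity : (0 : ℝ) ≤ 2 * π)
    linarith

theorem mfr_rho_lt_one (N : ℕ) [NeZero N] {A : ℝ} (hA : 0 < A) :
    Real.exp (-(2 * π * A / N)) < 1 := by
  have hNpos : (0 : ℝ) < N := Nat.cast_pos.mpr (Nat.pos_of_ne_zero (NeZero.ne N))
  rw [Real.exp_lt_one_iff]
  have := Real.pi_pos
  have : 0 < 2 * π * A / N := by positivity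
  linarith

end Fermat.Agent.S15

end
end ZBZ2S15_002_12

/-! ### bundled: `Fermat.Agent.S15.ModFrickePlan` -/
section ZBZ2S15_002_13

/-!
# S15 / MOD-FRICKE — sub-pieces (owner of MOD-FRICKE: helper71)

`IsAnalyticOn N f φ` (ModPlan): `f = a / b` with `a, b ∈ modFunAlg N`, `b ≠ 0` and `a = φ b` where
`g₃ ≠ 0`.  General facts about it, independent of the Fricke products:

| piece | Prop | file |
|---|---|---|
| FR-UNIQ | `StmtFrUniq` : `f` is determined by `φ` | `S15/ModFrUniq.lean` |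
| FR-WN | `StmtFrWN` : `w_N f = (a ∘ w_N) / (b ∘ w_N)` | `S15/ModFrWN.lean` |
| FR-INT | `StmtFrInt` : a holomorphic modular function has its poles at the cusps | `S15/ModFrInt.lean` |
| FR-RAT | `StmtFrRat` : the norm of Tate's series from `ℚ(ζ_N)` is rational, `N`-integral | `S15/ModFrRat.lean` |
-/

set_option autoImplicit false
set_option linter.unusedSectionVars false

noncomputable section

namespace Fermat.Agent.S15

open UpperHalfPlane AlgebraicCurve ModularCurve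
open Fermat.Agent.S24 Fermat.Agent.S28 Fermat.Agent.ES.M
open scoped MatrixGroups

/-- **FR-UNIQ.** An element of `F_N` is determined by its analytic function. -/
def StmtFrUniq : Prop :=
  ∀ (N : ℕ) [NeZero N] (f f' : FF N) (φ : ℍ → ℂ),
    IsAnalyticOn N f φ → IsAnalyticOn N f' φ → f = f'

/-- **FR-WN.** The Fricke involution of `F_N` is the substitution `τ ↦ -1/(Nτ)`. -/
def StmtFrWN : Prop :=
  ∀ (N : ℕ) [NeZero N] (f : FF N) (a b : ℍ → ℂ), IsModFun N a → IsModFun N b →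
    ModularCurve.coeffMap embC (f : LaurentSeries Kb) * laurentOf b = laurentOf a →
      IsModFun N (fun τ => a (fricke N τ)) ∧ IsModFun N (fun τ => b (fricke N τ)) ∧
        ModularCurve.coeffMap embC ((frickeAut N f : FF N) : LaurentSeries Kb) *
            laurentOf (fun τ => b (fricke N τ)) = laurentOf (fun τ => a (fricke N τ))

/-- **FR-INT.** An element of `F_N` which is a holomorphic modular function has poles only at
the cusps. -/
def StmtFrInt : Prop :=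
  ∀ (N : ℕ) [NeZero N] (f : FF N) (a : ℍ → ℂ), IsModFun N a →
    ModularCurve.coeffMap embC (f : LaurentSeries Kb) = laurentOf a → PolesAtCusps N f

/-- Tate's series without its constant `1/12`, at `u ≠ 1`, `|u| = 1`:
`u/(1-u)² + ∑_{e ≥ 1} (∑_{m ∣ e} m (u^m + u^{-m} - 2)) q^e`. -/
def mfrSeries (u : ℂ) : PowerSeries ℂ :=
  PowerSeries.mk fun e =>
    if e = 0 then u / (1 - u) ^ 2
    else ∑ m ∈ e.divisors, (m : ℂ) * (u ^ m + (u⁻¹) ^ m - 2)

/-- **FR-RAT.** For `A, B ∈ ℤ[[q]]` the product `N^{2(N-1)} ∏_{k=1}^{N-1} (A + B · S(ζ_N^k))`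
(`S = mfrSeries`) lies in `ℤ[[q]]`; if `A(0) = 0` and `B(0) = 1` its constant term is
`± N^{2(N-2)}`. -/
def StmtFrRat : Prop :=
  ∀ (N : ℕ), N.Prime → ∀ A B : PowerSeries ℤ,
    ∃ Y : PowerSeries ℤ,
      Y.map (Int.castRingHom ℂ) =
        PowerSeries.C ((N : ℂ) ^ (2 * (N - 1))) *
          ∏ k ∈ Finset.Ico 1 N,
            (A.map (Int.castRingHom ℂ) + B.map (Int.castRingHom ℂ) *
              mfrSeries (Complex.exp (2 * Real.pi * Complex.I * ((k : ℂ) / (N : ℂ))))) ∧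
      (PowerSeries.constantCoeff A = 0 → PowerSeries.constantCoeff B = 1 →
        PowerSeries.constantCoeff Y ^ 2 = ((N : ℤ) ^ (2 * (N - 2))) ^ 2)

end Fermat.Agent.S15

end
end ZBZ2S15_002_13

/-! ### bundled: `Fermat.Agent.S15.ModTateAux` -/
section ZBZ2S15_002_14

/-!
# S15 / MOD-TATE — the `q`-expansion of the Weierstrass `℘` function (helper56)

Mathlib only.  `mtateS w = ∑_{n ∈ ℤ} 1/(w+n)² = (2πi)² e(w)/(1-e(w))²` for every `w ∉ ℤ`
(`mtateS_eq`: upper half plane by `EisensteinSeries.qExpansion_identity`, lower half plane by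
`w ↦ -w`, real axis by continuity); the lattice sum of `℘` is summed by rows (`mtate_rows`), and
the rows `±k` together give the `k`-th term of the series of Tate (`mtate_pair`, `mtate_main`).
-/

set_option autoImplicit false

noncomputable section

namespace Fermat.Agent.S15

open Complex Filter Topology
open UpperHalfPlane hiding I
open scoped Real
open PeriodPair

/-- `x / (1 - x)²` -/
def mtateG (x : ℂ) : ℂ := x / (1 - x) ^ 2

theorem mtateG_inv (x : ℂ) : mtateG x⁻¹ = mtateG x := by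
  unfold mtateG
  by_cases hx : x = 0
  · simp [hx]
  by_cases h1 : 1 - x = 0
  · have : x = 1 := by linear_combination -h1
    simp [this]
  have h3 : 1 - x⁻¹ = -(1 - x) / x := by field_simp; ring
  rw [h3]
  field_simp

/-- the row sum `∑ 1/(w+n)²` -/
def mtateS (w : ℂ) : ℂ := ∑' n : ℤ, 1 / (w + n) ^ 2

theorem mtate_summable (w : ℂ) : Summable fun n : ℤ => 1 / (w + n) ^ 2 := by
  have := EisensteinSeries.linear_right_summable w 1 (k := 2) le_rfl
  refine this.congr fun n => ?_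
  simp [zpow_ofNat]

theorem mtateS_upper (w : ℍ) :
    mtateS (w : ℂ) = (2 * π * I) ^ 2 * mtateG (cexp (2 * π * I * w)) := by
  have h := EisensteinSeries.qExpansion_identity (k := 1) le_rfl w
  have hn : ‖cexp (2 * π * I * w)‖ < 1 := by
    simpa using UpperHalfPlane.norm_exp_two_pi_I_lt_one w
  have h2 := tsum_coe_mul_geometric_of_norm_lt_one hn
  unfold mtateS mtateG
  simp only [one_add_one_eq_two, pow_one, Nat.factorial_one, Nat.cast_one, div_one] at h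
  rw [h, h2]
  ring

theorem mtateS_neg (w : ℂ) : mtateS (-w) = mtateS w := by
  unfold mtateS
  rw [← (Equiv.neg ℤ).tsum_eq]
  refine tsum_congr fun n => ?_
  simp only [Equiv.neg_apply, Int.cast_neg]
  congr 1
  ring

theorem mtateS_lower (w : ℂ) (hw : w.im < 0) :
    mtateS w = (2 * π * I) ^ 2 * mtateG (cexp (2 * π * I * w)) := by
  have h := mtateS_upper ⟨-w, by simpa using hw⟩
  rw [← mtateS_neg, ← mtateG_inv, ← Complex.exp_neg]
  simpa using h

theorem mtate_exp_ne_one {w : ℂ} (hw : w ∈ Complex.integerComplement) :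
    cexp (2 * π * I * w) ≠ 1 := by
  intro h
  rw [Complex.exp_eq_one_iff] at h
  obtain ⟨n, hn⟩ := h
  apply hw
  refine ⟨n, ?_⟩
  have h2 : (2 * π * I : ℂ) ≠ 0 := by simp [Real.pi_ne_zero]
  apply mul_left_cancel₀ h2
  rw [hn]; ring

theorem mtateS_continuousAt {w₀ : ℂ} (hw : w₀ ∈ Complex.integerComplement) :
    ContinuousAt mtateS w₀ := by
  obtain ⟨ε, hε, hball⟩ := Metric.isOpen_iff.mp Complex.isOpen_compl_range_intCast w₀ hw
  have hge : ∀ n : ℤ, ε ≤ ‖w₀ + n‖ := by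
    intro n
    by_contra hlt
    push Not at hlt
    have hmem : ((-n : ℤ) : ℂ) ∈ Metric.ball w₀ ε := by
      rw [Metric.mem_ball, dist_comm, dist_eq_norm]
      simpa [sub_neg_eq_add] using hlt
    exact hball hmem ⟨-n, rfl⟩
  have hcont : ContinuousOn mtateS (Metric.ball w₀ (ε / 2)) := by
    unfold mtateS
    refine continuousOn_tsum (u := fun n : ℤ => 4 * ‖1 / (w₀ + n) ^ 2‖) ?_ ?_ ?_
    · intro n
      have hne : ∀ w ∈ Metric.ball w₀ (ε / 2), (w + n) ^ 2 ≠ 0 := by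
        intro w hwb h0
        have h1 : w + n = 0 := by simpa using h0
        have hmem : ((-n : ℤ) : ℂ) ∈ Metric.ball w₀ ε := by
          have : w = ((-n : ℤ) : ℂ) := by push_cast; linear_combination h1
          rw [← this]
          exact Metric.ball_subset_ball (by linarith) hwb
        exact hball hmem ⟨-n, rfl⟩
      exact ContinuousOn.div continuousOn_const (by fun_prop) hne
    · exact ((mtate_summable w₀).norm).mul_left 4
    · intro n w hwb
      have h1 : ‖w - w₀‖ < ε / 2 := by simpa [dist_eq_norm] using hwb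
      have h2 : ‖w₀ + n‖ / 2 ≤ ‖w + n‖ := by
        have h3 : ‖w₀ + n‖ ≤ ‖w + n‖ + ‖w - w₀‖ := by
          have : w₀ + n = (w + n) - (w - w₀) := by ring
          rw [this]
          exact norm_sub_le _ _
        have := hge n
        linarith
      have h0 : 0 < ‖w₀ + n‖ := lt_of_lt_of_le hε (hge n)
      have h4 : 0 < ‖w + n‖ := by linarith
      simp only [one_div]
      rw [norm_inv, norm_inv, norm_pow, norm_pow, ← div_eq_mul_inv, inv_eq_one_div,
        div_le_div_iff₀ (by positivity) (by positivity)]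
      nlinarith [sq_nonneg (‖w + n‖ - ‖w₀ + n‖ / 2), norm_nonneg (w + n)]
  exact hcont.continuousAt (Metric.ball_mem_nhds w₀ (by positivity))

theorem mtateS_eq {w : ℂ} (hw : w ∈ Complex.integerComplement) :
    mtateS w = (2 * π * I) ^ 2 * mtateG (cexp (2 * π * I * w)) := by
  rcases lt_trichotomy w.im 0 with h | h | h
  · exact mtateS_lower w h
  · -- continuity
    have hc1 : ContinuousAt mtateS w := mtateS_continuousAt hw
    have hc2 : ContinuousAt (fun w : ℂ => (2 * π * I) ^ 2 * mtateG (cexp (2 * π * I * w))) w := by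
      unfold mtateG
      refine ContinuousAt.mul continuousAt_const (ContinuousAt.div (by fun_prop) (by fun_prop) ?_)
      have := mtate_exp_ne_one hw
      intro h0
      apply this
      have : 1 - cexp (2 * π * I * w) = 0 := by simpa using h0
      linear_combination -this
    have hpath : Tendsto (fun t : ℝ => w + t * I) (𝓝[>] 0) (𝓝 w) := by
      have : ContinuousAt (fun t : ℝ => w + t * I) 0 := by fun_prop
      have h2 := this.tendsto
      simp only [ofReal_zero, zero_mul, add_zero] at h2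
      exact h2.mono_left nhdsWithin_le_nhds
    have h1 := hc1.tendsto.comp hpath
    have h2 := hc2.tendsto.comp hpath
    refine tendsto_nhds_unique (h1.congr' ?_) h2
    refine eventually_nhdsWithin_of_forall fun t ht => ?_
    have hpos : 0 < (w + t * I).im := by
      have ht' : 0 < t := ht
      simpa [h] using ht'
    exact mtateS_upper ⟨w + t * I, hpos⟩
  · exact mtateS_upper ⟨w, h⟩


/-! ## `∑ 1/n² = π²/3` over `ℤ` -/

theorem mtate_zeta_two : HasSum (fun n : ℤ => 1 / ((n : ℂ)) ^ 2) ((π : ℂ) ^ 2 / 3) := by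
  have h0 : HasSum (fun n : ℕ => 1 / ((n : ℂ)) ^ 2) ((π : ℂ) ^ 2 / 6) := by
    have h := Complex.hasSum_ofReal.mpr hasSum_zeta_two
    simpa using h
  have h1 : HasSum (fun n : ℕ => 1 / (((n : ℤ) : ℂ)) ^ 2) ((π : ℂ) ^ 2 / 6) := by
    simpa using h0
  have h2 : HasSum (fun n : ℕ => 1 / (((-(n : ℤ) : ℤ) : ℂ)) ^ 2) ((π : ℂ) ^ 2 / 6) := by
    simpa using h0
  have h3 := HasSum.of_nat_of_neg (f := fun n : ℤ => 1 / ((n : ℂ)) ^ 2) h1 h2
  have hv : (π : ℂ) ^ 2 / 3 = (π : ℂ) ^ 2 / 6 + (π : ℂ) ^ 2 / 6 - 1 / (((0 : ℤ) : ℂ)) ^ 2 := by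
    simp
    ring
  rw [hv]
  exact h3

theorem mtateS_zero : mtateS 0 = (π : ℂ) ^ 2 / 3 := by
  unfold mtateS
  rw [← mtate_zeta_two.tsum_eq]
  simp

theorem mtate_hasSum_sub (w : ℂ) : HasSum (fun n : ℤ => 1 / (w - n) ^ 2) (mtateS w) := by
  have h := (mtate_summable w).hasSum
  have h2 := (Equiv.neg ℤ).hasSum_iff.mpr h
  refine (h2.congr_fun ?_ : _)
  intro n
  simp [sub_eq_add_neg]

/-! ## the rows of the lattice sum -/

theorem mtate_row (τ z : ℂ) (m : ℤ) :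
    HasSum (fun n : ℤ => 1 / (z - ((m : ℂ) * τ + (n : ℂ))) ^ 2 - 1 / ((m : ℂ) * τ + (n : ℂ)) ^ 2)
      (mtateS (z - (m : ℂ) * τ) - mtateS ((m : ℂ) * τ)) := by
  have h1 := mtate_hasSum_sub (z - (m : ℂ) * τ)
  have h2 := (mtate_summable ((m : ℂ) * τ)).hasSum
  refine ((h1.sub h2).congr_fun ?_ : _)
  intro n
  simp only [sub_sub]

theorem mtate_rows (τ : ℍ) (z : ℂ) :
    HasSum (fun m : ℤ => mtateS (z - (m : ℂ) * τ) - mtateS ((m : ℂ) * τ)) (℘[modLat τ] z) := by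
  have h := (modLat τ).hasSum_weierstrassP z
  have h2 := ((modLat τ).latticeEquivProd.symm.toEquiv.hasSum_iff).mpr h
  have h3 : HasSum (fun p : ℤ × ℤ =>
      1 / (z - ((p.1 : ℂ) * τ + (p.2 : ℂ))) ^ 2 - 1 / ((p.1 : ℂ) * τ + (p.2 : ℂ)) ^ 2)
      (℘[modLat τ] z) := by
    refine (h2.congr_fun ?_ : _)
    intro p
    simp only [Function.comp_apply, LinearEquiv.coe_toEquiv]
    rw [(modLat τ).latticeEquiv_symm_apply p]
    simp
  exact h3.prod_fiberwise fun m => mtate_row τ z m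


/-! ## assembling the rows -/

theorem mtate_int_mul_mem (τ : ℍ) (m : ℤ) (hm : m ≠ 0) :
    (m : ℂ) * (τ : ℂ) ∈ Complex.integerComplement := by
  rw [Complex.mem_integerComplement_iff]
  rintro ⟨n, hn⟩
  have him := congrArg Complex.im hn
  simp only [intCast_im, mul_im, intCast_re, zero_mul, add_zero, UpperHalfPlane.coe_im] at him
  rcases mul_eq_zero.mp him.symm with h | h
  · exact hm (by exact_mod_cast h)
  · exact τ.im_ne_zero h

theorem mtate_sub_mem (τ : ℍ) (z : ℂ) (hz : z ∉ (modLat τ).lattice) (m : ℤ) :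
    z - (m : ℂ) * (τ : ℂ) ∈ Complex.integerComplement := by
  rw [Complex.mem_integerComplement_iff]
  rintro ⟨n, hn⟩
  apply hz
  rw [PeriodPair.mem_lattice]
  refine ⟨m, n, ?_⟩
  simp only [modLat_ω₁, modLat_ω₂, mul_one]
  rw [hn]
  ring

theorem mtate_exp_nat (τ : ℂ) (k : ℕ) :
    cexp (2 * π * I * ((k : ℂ) * τ)) = cexp (2 * π * I * τ) ^ k := by
  rw [← Complex.exp_nat_mul]
  congr 1
  ring

/-- the value of the pair of rows `±k`, `k ≥ 1` -/
theorem mtate_pair (τ : ℍ) (z : ℂ) (hz : z ∉ (modLat τ).lattice) (k : ℕ) (hk : k ≠ 0) :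
    (mtateS (z - ((k : ℤ) : ℂ) * τ) - mtateS (((k : ℤ) : ℂ) * τ))
      + (mtateS (z - ((-(k : ℤ) : ℤ) : ℂ) * τ) - mtateS (((-(k : ℤ) : ℤ) : ℂ) * τ))
      = (2 * π * I) ^ 2 *
        (mtateG (cexp (2 * π * I * τ) ^ k * cexp (2 * π * I * z))
          + mtateG (cexp (2 * π * I * τ) ^ k * (cexp (2 * π * I * z))⁻¹)
          - 2 * mtateG (cexp (2 * π * I * τ) ^ k)) := by
  have hk' : (k : ℤ) ≠ 0 := by exact_mod_cast hk
  have h1 := mtateS_eq (mtate_sub_mem τ z hz k)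
  have h2 := mtateS_eq (mtate_int_mul_mem τ k hk')
  have h3 := mtateS_eq (mtate_sub_mem τ z hz (-(k : ℤ)))
  have h4 : mtateS (((-(k : ℤ) : ℤ) : ℂ) * τ) = mtateS (((k : ℤ) : ℂ) * τ) := by
    rw [← mtateS_neg]
    congr 1
    push_cast
    ring
  have e1 : cexp (2 * π * I * (z - ((k : ℤ) : ℂ) * τ))
      = (cexp (2 * π * I * τ) ^ k * (cexp (2 * π * I * z))⁻¹)⁻¹ := by
    rw [← mtate_exp_nat, ← Complex.exp_neg, ← Complex.exp_add, ← Complex.exp_neg]
    congr 1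
    push_cast
    ring
  have e2 : cexp (2 * π * I * (((k : ℤ) : ℂ) * τ)) = cexp (2 * π * I * τ) ^ k := by
    rw [← mtate_exp_nat]
    simp
  have e3 : cexp (2 * π * I * (z - ((-(k : ℤ) : ℤ) : ℂ) * τ))
      = cexp (2 * π * I * τ) ^ k * cexp (2 * π * I * z) := by
    rw [← mtate_exp_nat, ← Complex.exp_add]
    congr 1
    push_cast
    ring
  rw [h4, h1, h2, h3, e1, e2, e3, mtateG_inv]
  ring

theorem mtate_const_ne_zero : ((2 * π * I) ^ 2 : ℂ) ≠ 0 := by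
  simp [Real.pi_ne_zero]

/-- **Tate's series**, as a `HasSum`. -/
theorem mtate_main (τ : ℍ) (z : ℂ) (hz : z ∉ (modLat τ).lattice) :
    HasSum (fun n : ℕ =>
        mtateG (cexp (2 * π * I * τ) ^ (n + 1) * cexp (2 * π * I * z))
          + mtateG (cexp (2 * π * I * τ) ^ (n + 1) * (cexp (2 * π * I * z))⁻¹)
          - 2 * mtateG (cexp (2 * π * I * τ) ^ (n + 1)))
      (℘[modLat τ] z / (2 * π * I) ^ 2 - 1 / 12 - mtateG (cexp (2 * π * I * z))) := by
  have hR := mtate_rows τ z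
  have h1 := hR.nat_add_neg
  have h2 := (hasSum_nat_add_iff' 1).mpr h1
  have hz0 : z ∈ Complex.integerComplement := by
    simpa using mtate_sub_mem τ z hz 0
  have hR0 := mtateS_eq hz0
  have h3 : HasSum (fun n : ℕ => (2 * π * I) ^ 2 *
        (mtateG (cexp (2 * π * I * τ) ^ (n + 1) * cexp (2 * π * I * z))
          + mtateG (cexp (2 * π * I * τ) ^ (n + 1) * (cexp (2 * π * I * z))⁻¹)
          - 2 * mtateG (cexp (2 * π * I * τ) ^ (n + 1))))
      (℘[modLat τ] z - ((2 * π * I) ^ 2 * mtateG (cexp (2 * π * I * z)) - (π : ℂ) ^ 2 / 3)) := by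
    have hv : ℘[modLat τ] z - ((2 * π * I) ^ 2 * mtateG (cexp (2 * π * I * z)) - (π : ℂ) ^ 2 / 3)
        = ℘[modLat τ] z + (mtateS (z - ((0 : ℤ) : ℂ) * τ) - mtateS (((0 : ℤ) : ℂ) * τ))
          - ∑ i ∈ Finset.range 1,
            ((mtateS (z - (((i : ℕ) : ℤ) : ℂ) * τ) - mtateS ((((i : ℕ) : ℤ) : ℂ) * τ))
              + (mtateS (z - ((-((i : ℕ) : ℤ) : ℤ) : ℂ) * τ)
                - mtateS (((-((i : ℕ) : ℤ) : ℤ) : ℂ) * τ))) := by
      simp only [Finset.range_one, Finset.sum_singleton, Nat.cast_zero, Int.cast_zero, neg_zero,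
        zero_mul, sub_zero, mtateS_zero, hR0]
      ring
    rw [hv]
    refine (h2.congr_fun ?_ : _)
    intro n
    have := mtate_pair τ z hz (n + 1) (Nat.succ_ne_zero n)
    simpa using this.symm
  have h4 := h3.mul_left ((2 * π * I) ^ 2)⁻¹
  have hc := mtate_const_ne_zero
  have hv2 : ((2 * π * I) ^ 2)⁻¹ *
      (℘[modLat τ] z - ((2 * π * I) ^ 2 * mtateG (cexp (2 * π * I * z)) - (π : ℂ) ^ 2 / 3))
      = ℘[modLat τ] z / (2 * π * I) ^ 2 - 1 / 12 - mtateG (cexp (2 * π * I * z)) := by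
    have hπ : (π : ℂ) ≠ 0 := by exact_mod_cast Real.pi_ne_zero
    have hI : (2 * π * I) ^ 2 = -(4 * (π : ℂ) ^ 2) := by
      rw [mul_pow, mul_pow, Complex.I_sq]; ring
    rw [hI]
    field_simp
    ring
  rw [hv2] at h4
  refine (h4.congr_fun ?_ : _)
  intro n
  field_simp

end Fermat.Agent.S15

end
end ZBZ2S15_002_14

/-! ### bundled: `Fermat.Agent.S15.ModTate` -/
section ZBZ2S15_002_15

/-!
# S15 / MOD-TATE — `StmtModTate` (helper56)

The `q`-expansion of Mathlib's `℘` for the lattice `ℤτ + ℤ`: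
`℘(z) = (2πi)² (1/12 + u/(1-u)² + ∑_{n ≥ 1} (qⁿu/(1-qⁿu)² + qⁿu⁻¹/(1-qⁿu⁻¹)² - 2qⁿ/(1-qⁿ)²))`.
The proof (in `ModTateAux.lean`) does not use the hypothesis `|Im z| < Im τ`.
-/

set_option autoImplicit false

noncomputable section

namespace Fermat.Agent.S15

open Complex
open scoped Real
open PeriodPair

/-- `modTateTerm` in terms of `mtateG`. -/
theorem mtate_term_eq (q u : ℂ) (n : ℕ) :
    modTateTerm q u n
      = mtateG (q ^ (n + 1) * u) + mtateG (q ^ (n + 1) * u⁻¹) - 2 * mtateG (q ^ (n + 1)) := by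
  unfold modTateTerm mtateG
  ring

/-- Tate's series as a `HasSum` of `modTateTerm`. -/
theorem mtate_hasSum (τ : UpperHalfPlane) (z : ℂ) (hz : z ∉ (modLat τ).lattice) :
    HasSum (modTateTerm (cexp (2 * π * I * τ)) (cexp (2 * π * I * z)))
      (℘[modLat τ] z / (2 * π * I) ^ 2 - 1 / 12
        - cexp (2 * π * I * z) / (1 - cexp (2 * π * I * z)) ^ 2) := by
  refine ((mtate_main τ z hz).congr_fun ?_ : _)
  intro n
  exact mtate_term_eq _ _ n

/-- **MOD-TATE.** -/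
theorem stmtModTate : StmtModTate := by
  intro τ z hz _
  have h := mtate_hasSum τ z hz
  refine ⟨h.summable, ?_⟩
  rw [h.tsum_eq]
  have hc := mtate_const_ne_zero
  field_simp
  ring

end Fermat.Agent.S15

end
end ZBZ2S15_002_15

/-! ### bundled: `Fermat.Agent.S15.ModFrickeAn` -/
section ZBZ2S15_002_16

/-!
# S15 / MOD-FRICKE (3): the division values `P_{a,b}` are holomorphic and bounded at `i∞`

From Tate's series (`mtate_hasSum`, helper56):
* `mfrP_hasSum`, `mfrP_eq_mfrTate` : `P_{a,b}(τ) = 1/12 + U(u) + ∑ₙ (U(qⁿu) + U(qⁿu⁻¹) - 2U(qⁿ))`;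
* `mfrP_mdiff` : `P_{a,b}` is holomorphic on `ℍ`;
* `mfrP_isBoundedAtImInfty` : `P_{a,b}` is bounded at `i∞`;
* `mfrP_tendsto` : `P_{a,b} → 1/12` at `i∞` if `N ∤ a`.
-/

set_option autoImplicit false

noncomputable section

namespace Fermat.Agent.S15

open UpperHalfPlane PeriodPair Complex Filter Topology
open Fermat.Agent.S23
open scoped Real MatrixGroups Manifold

theorem mfrTerm_eq_modTateTerm (q u : ℂ) (n : ℕ) : mfrTerm q u n = modTateTerm q u n := by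
  unfold mfrTerm modTateTerm mfrU
  ring

/-- Tate's formula for `P_{a,b}` -/
theorem mfrP_hasSum (N : ℕ) [NeZero N] (a b : ℤ) (hab : ¬ ((N : ℤ) ∣ a ∧ (N : ℤ) ∣ b))
    (τ : ℍ) :
    HasSum (mfrTerm (mfrQ τ) (mfrUu N a b τ))
      (mfrP N a b τ - 1 / 12 - mfrU (mfrUu N a b τ)) := by
  have h := mtate_hasSum τ _ (mfr_notMem_lattice N a b hab τ)
  have h2 : mfrTerm (mfrQ τ) (mfrUu N a b τ) =
      modTateTerm (cexp (2 * π * Complex.I * τ))
        (cexp (2 * π * Complex.I * (((a : ℂ) * τ + (b : ℂ)) / (N : ℂ)))) :=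
    funext fun n => mfrTerm_eq_modTateTerm _ _ n
  rw [h2]
  exact h

theorem mfrUu_ne_one (N : ℕ) [NeZero N] (a b : ℤ) (hab : ¬ ((N : ℤ) ∣ a ∧ (N : ℤ) ∣ b))
    (τ : ℍ) : mfrUu N a b τ ≠ 1 := by
  intro h
  unfold mfrUu at h
  rw [Complex.exp_eq_one_iff] at h
  obtain ⟨n, hn⟩ := h
  have h2 : (2 * π * Complex.I : ℂ) ≠ 0 := by
    simp [Real.pi_ne_zero]
  have hz : ((a : ℂ) * τ + (b : ℂ)) / (N : ℂ) = n := by
    have : (2 * π * Complex.I) * (((a : ℂ) * τ + (b : ℂ)) / (N : ℂ)) = (2 * π * Complex.I) * n := by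
      rw [hn]; ring
    exact mul_left_cancel₀ h2 this
  apply mfr_notMem_lattice N a b hab τ
  rw [hz]
  exact mem_lattice.mpr ⟨0, n, by simp⟩

/-- Tate's function of `τ ∈ ℂ` -/
def mfrTate (N : ℕ) (a b : ℤ) (τ : ℂ) : ℂ :=
  1 / 12 + mfrU (mfrUu N a b τ) + ∑' n, mfrTerm (mfrQ τ) (mfrUu N a b τ) n

theorem mfrP_eq_mfrTate (N : ℕ) [NeZero N] (a b : ℤ) (hab : ¬ ((N : ℤ) ∣ a ∧ (N : ℤ) ∣ b))
    (τ : ℍ) : mfrP N a b τ = mfrTate N a b τ := by
  rw [mfrTate, (mfrP_hasSum N a b hab τ).tsum_eq]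
  ring

theorem mfr_pow_mul_norm_le {q v : ℂ} {ρ : ℝ} (hρ0 : 0 ≤ ρ) (hq : ‖q‖ ≤ ρ) (hqv : ‖q * v‖ ≤ ρ)
    (n : ℕ) : ‖q ^ (n + 1) * v‖ ≤ ρ ^ (n + 1) := by
  have hqn : ‖q ^ n‖ ≤ ρ ^ n := by
    rw [norm_pow]; exact pow_le_pow_left₀ (norm_nonneg q) hq n
  rw [pow_succ, mul_assoc, norm_mul, pow_succ]
  exact mul_le_mul hqn hqv (norm_nonneg _) (by positivity)

theorem mfrTerm_differentiableAt {f g : ℂ → ℂ} {τ : ℂ} (n : ℕ) (hf : DifferentiableAt ℂ f τ)
    (hg : DifferentiableAt ℂ g τ) (hg0 : g τ ≠ 0)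
    (h1 : ‖f τ ^ (n + 1) * g τ‖ < 1) (h2 : ‖f τ ^ (n + 1) * (g τ)⁻¹‖ < 1)
    (h3 : ‖f τ ^ (n + 1)‖ < 1) :
    DifferentiableAt ℂ (fun τ => mfrTerm (f τ) (g τ) n) τ := by
  have ne_one : ∀ {w : ℂ}, ‖w‖ < 1 → w ≠ 1 := by
    intro w hw h
    rw [h, norm_one] at hw
    exact lt_irrefl _ hw
  unfold mfrTerm
  have hfn : DifferentiableAt ℂ (fun τ => f τ ^ (n + 1)) τ := hf.pow (n + 1)
  have e1 : DifferentiableAt ℂ (fun τ => mfrU (f τ ^ (n + 1) * g τ)) τ :=
    DifferentiableAt.comp (g := mfrU) (f := fun τ => f τ ^ (n + 1) * g τ) τ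
      (mfrU_differentiableAt (ne_one h1)) (hfn.mul hg)
  have e2 : DifferentiableAt ℂ (fun τ => mfrU (f τ ^ (n + 1) * (g τ)⁻¹)) τ :=
    DifferentiableAt.comp (g := mfrU) (f := fun τ => f τ ^ (n + 1) * (g τ)⁻¹) τ
      (mfrU_differentiableAt (ne_one h2)) (hfn.mul (hg.inv hg0))
  have e3 : DifferentiableAt ℂ (fun τ => mfrU (f τ ^ (n + 1))) τ :=
    DifferentiableAt.comp (g := mfrU) (f := fun τ => f τ ^ (n + 1)) τ
      (mfrU_differentiableAt (ne_one h3)) hfn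
  exact (e1.add e2).sub (e3.const_mul 2)

theorem mfrTate_differentiableOn (N : ℕ) [NeZero N] (a b : ℤ) (ha0 : 0 ≤ a) (haN : a < N)
    (hab : ¬ ((N : ℤ) ∣ a ∧ (N : ℤ) ∣ b)) :
    DifferentiableOn ℂ (mfrTate N a b) {τ | 0 < τ.im} := by
  intro τ₀ hτ₀
  have hτ₀' : 0 < τ₀.im := hτ₀
  set A : ℝ := τ₀.im / 2 with hAdef
  have hA : 0 < A := by positivity
  set S : Set ℂ := {τ | A < τ.im} with hSdef
  have hS : IsOpen S := isOpen_lt continuous_const Complex.continuous_im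
  have hmem : τ₀ ∈ S := by
    show A < τ₀.im
    rw [hAdef]; linarith
  set ρ : ℝ := Real.exp (-(2 * π * A / N)) with hρdef
  have hρ0 : 0 ≤ ρ := (Real.exp_pos _).le
  have hρ1 : ρ < 1 := mfr_rho_lt_one N hA
  have hpos : ∀ τ ∈ S, 0 < τ.im := fun τ hτ => lt_trans hA hτ
  suffices h : DifferentiableOn ℂ (mfrTate N a b) S from
    (h.differentiableAt (hS.mem_nhds hmem)).differentiableWithinAt
  unfold mfrTate
  refine ((differentiableOn_const _).add ?_).add ?_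
  · intro τ hτ
    have hne : mfrUu N a b τ ≠ 1 := mfrUu_ne_one N a b hab ⟨τ, hpos τ hτ⟩
    have : DifferentiableAt ℂ (fun τ => mfrU (mfrUu N a b τ)) τ :=
      (mfrU_differentiableAt hne).comp τ (mfrUu_differentiable N a b τ)
    exact this.differentiableWithinAt
  · refine differentiableOn_tsum_of_summable_norm (mfr_summable_bound hρ0 hρ1) ?_ hS ?_
    · intro n τ hτ
      obtain ⟨b1, b2, b3⟩ := mfr_norm_bounds N a b ha0 haN hA (le_of_lt hτ)
      have hρn : ρ ^ (n + 1) < 1 := pow_lt_one₀ hρ0 hρ1 (by omega)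
      have h1 := mfr_pow_mul_norm_le hρ0 b1 b2 n
      have h2 := mfr_pow_mul_norm_le hρ0 b1 b3 n
      have h3 : ‖mfrQ τ ^ (n + 1)‖ ≤ ρ ^ (n + 1) := by
        rw [norm_pow]; exact pow_le_pow_left₀ (norm_nonneg _) b1 (n + 1)
      exact (mfrTerm_differentiableAt n (mfrQ_differentiable τ) (mfrUu_differentiable N a b τ)
        (mfrUu_ne_zero N a b τ) (lt_of_le_of_lt h1 hρn) (lt_of_le_of_lt h2 hρn)
        (lt_of_le_of_lt h3 hρn)).differentiableWithinAt
    · intro n τ hτ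
      obtain ⟨b1, b2, b3⟩ := mfr_norm_bounds N a b ha0 haN hA (le_of_lt hτ)
      exact norm_mfrTerm_le hρ0 hρ1 b1 b2 b3 n

/-- reduction of `a` modulo `N` -/
theorem mfrP_emod (N : ℕ) [NeZero N] (a b : ℤ) : mfrP N a b = mfrP N (a % N) b :=
  funext fun τ => mfrP_congr N (Int.mod_modEq a N).symm (Int.ModEq.refl b) τ

theorem mfr_emod_cond (N : ℕ) (a b : ℤ) (hab : ¬ ((N : ℤ) ∣ a ∧ (N : ℤ) ∣ b)) :
    ¬ ((N : ℤ) ∣ a % N ∧ (N : ℤ) ∣ b) := by
  rintro ⟨h1, h2⟩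
  refine hab ⟨?_, h2⟩
  have h3 : a % N % N = 0 := Int.emod_eq_zero_of_dvd h1
  rw [Int.emod_emod_of_dvd a (dvd_refl _)] at h3
  exact Int.dvd_of_emod_eq_zero h3

/-- `P_{a,b}` is holomorphic on `ℍ` -/
theorem mfrP_mdiff (N : ℕ) [NeZero N] (a b : ℤ) (hab : ¬ ((N : ℤ) ∣ a ∧ (N : ℤ) ∣ b)) :
    MDiff (mfrP N a b) := by
  have hNpos : (0 : ℤ) < N := by exact_mod_cast Nat.pos_of_ne_zero (NeZero.ne N)
  have key : ∀ a b : ℤ, 0 ≤ a → a < N → ¬ ((N : ℤ) ∣ a ∧ (N : ℤ) ∣ b) →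
      MDiff (mfrP N a b) := by
    intro a b ha0 haN hab
    rw [UpperHalfPlane.mdifferentiable_iff]
    refine (mfrTate_differentiableOn N a b ha0 haN hab).congr ?_
    intro τ hτ
    have hτ' : 0 < τ.im := hτ
    simp only [Function.comp_apply]
    rw [ofComplex_apply_of_im_pos hτ']
    exact mfrP_eq_mfrTate N a b hab ⟨τ, hτ'⟩
  rw [mfrP_emod]
  exact key (a % N) b (Int.emod_nonneg _ hNpos.ne') (Int.emod_lt_of_pos _ hNpos)
    (mfr_emod_cond N a b hab)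

/-- bound for `P_{a,b} - 1/12 - U(u)` -/
theorem mfrP_norm_sub_le (N : ℕ) [NeZero N] (a b : ℤ) (ha0 : 0 ≤ a) (haN : a < N)
    (hab : ¬ ((N : ℤ) ∣ a ∧ (N : ℤ) ∣ b)) {A : ℝ} (hA : 0 < A) (τ : ℍ) (hτ : A ≤ τ.im) :
    ‖mfrP N a b τ - 1 / 12 - mfrU (mfrUu N a b τ)‖ ≤
      4 * Real.exp (-(2 * π * A / N)) / (1 - Real.exp (-(2 * π * A / N))) ^ 3 := by
  have hρ0 : 0 ≤ Real.exp (-(2 * π * A / N)) := (Real.exp_pos _).le
  have hρ1 := mfr_rho_lt_one N hA
  obtain ⟨b1, b2, b3⟩ := mfr_norm_bounds N a b ha0 haN hA (τ := (τ : ℂ)) hτ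
  rw [← (mfrP_hasSum N a b hab τ).tsum_eq]
  exact norm_tsum_mfrTerm_le hρ0 hρ1 b1 b2 b3

/-- `‖U(u)‖` is small if `0 < a` -/
theorem mfrU_norm_le (N : ℕ) [NeZero N] (a b : ℤ) (ha0 : 0 < a) {A : ℝ} (hA : 0 < A) (τ : ℍ)
    (hτ : A ≤ τ.im) :
    ‖mfrU (mfrUu N a b τ)‖ ≤
      Real.exp (-(2 * π * A / N)) / (1 - Real.exp (-(2 * π * A / N))) ^ 2 := by
  have hNpos : (0 : ℝ) < N := Nat.cast_pos.mpr (Nat.pos_of_ne_zero (NeZero.ne N))
  have hρ1 := mfr_rho_lt_one N hA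
  have ha1 : (1 : ℝ) ≤ a := by exact_mod_cast ha0
  have hu : ‖mfrUu N a b τ‖ ≤ Real.exp (-(2 * π * A / N)) := by
    rw [norm_mfrUu, Real.exp_le_exp]
    have hπ := Real.pi_pos
    have h1 : A / N ≤ (a : ℝ) * (τ : ℂ).im / N := by
      apply div_le_div_of_nonneg_right _ hNpos.le
      calc A ≤ (τ : ℂ).im := hτ
        _ = 1 * (τ : ℂ).im := (one_mul _).symm
        _ ≤ (a : ℝ) * (τ : ℂ).im := by
          apply mul_le_mul_of_nonneg_right ha1
          exact le_trans hA.le hτ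
    have h2 := mul_le_mul_of_nonneg_left h1 (by positivity : (0 : ℝ) ≤ 2 * π)
    have h3 : 2 * π * A / N = 2 * π * (A / N) := by ring
    rw [h3]
    linarith
  refine (norm_mfrU_le hρ1 hu).trans ?_
  apply div_le_div_of_nonneg_right hu
  have : 0 < 1 - Real.exp (-(2 * π * A / N)) := by linarith
  positivity

theorem mfrUu_zero_const (N : ℕ) (b : ℤ) (τ : ℂ) : mfrUu N 0 b τ = mfrUu N 0 b 0 := by
  unfold mfrUu
  simp

/-- `P_{a,b}` is bounded at `i∞` -/
theorem mfrP_isBoundedAtImInfty (N : ℕ) [NeZero N] (a b : ℤ)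
    (hab : ¬ ((N : ℤ) ∣ a ∧ (N : ℤ) ∣ b)) : IsBoundedAtImInfty (mfrP N a b) := by
  have hNpos : (0 : ℤ) < N := by exact_mod_cast Nat.pos_of_ne_zero (NeZero.ne N)
  have key : ∀ a b : ℤ, 0 ≤ a → a < N → ¬ ((N : ℤ) ∣ a ∧ (N : ℤ) ∣ b) →
      IsBoundedAtImInfty (mfrP N a b) := by
    intro a b ha0 haN hab
    rw [isBoundedAtImInfty_iff]
    set ρ : ℝ := Real.exp (-(2 * π * 1 / N)) with hρdef
    refine ⟨1 / 12 + (‖mfrU (mfrUu N 0 b 0)‖ + ρ / (1 - ρ) ^ 2) + 4 * ρ / (1 - ρ) ^ 3, 1, ?_⟩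
    intro τ hτ
    have hρ1 : ρ < 1 := mfr_rho_lt_one N one_pos
    have hρ0 : 0 ≤ ρ := (Real.exp_pos _).le
    have h1 := mfrP_norm_sub_le N a b ha0 haN hab one_pos τ hτ
    have h2 : ‖mfrU (mfrUu N a b τ)‖ ≤ ‖mfrU (mfrUu N 0 b 0)‖ + ρ / (1 - ρ) ^ 2 := by
      rcases eq_or_lt_of_le ha0 with h0 | h0
      · rw [← h0, mfrUu_zero_const]
        have : 0 ≤ ρ / (1 - ρ) ^ 2 := by
          have : 0 < 1 - ρ := by linarith
          positivity
        linarith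
      · have := mfrU_norm_le N a b h0 one_pos τ hτ
        have h3 := norm_nonneg (mfrU (mfrUu N 0 b 0))
        linarith
    have h3 : mfrP N a b τ = 1 / 12 + mfrU (mfrUu N a b τ) +
        (mfrP N a b τ - 1 / 12 - mfrU (mfrUu N a b τ)) := by ring
    rw [h3]
    refine (norm_add_le _ _).trans (add_le_add ((norm_add_le _ _).trans (add_le_add ?_ h2)) h1)
    rw [norm_div, norm_one]
    simp
  rw [mfrP_emod]
  exact key (a % N) b (Int.emod_nonneg _ hNpos.ne') (Int.emod_lt_of_pos _ hNpos)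
    (mfr_emod_cond N a b hab)

/-- `P_{a,b} → 1/12` at `i∞` for `0 < a < N` -/
theorem mfrP_tendsto (N : ℕ) [NeZero N] (a b : ℤ) (ha0 : 0 < a) (haN : a < N) :
    Tendsto (mfrP N a b) atImInfty (𝓝 (1 / 12)) := by
  have hNpos : (0 : ℝ) < N := Nat.cast_pos.mpr (Nat.pos_of_ne_zero (NeZero.ne N))
  have hab : ¬ ((N : ℤ) ∣ a ∧ (N : ℤ) ∣ b) := by
    rintro ⟨h1, -⟩
    have := Int.le_of_dvd ha0 h1
    omega
  rw [tendsto_iff_norm_sub_tendsto_zero]
  set G : ℝ → ℝ := fun ρ => ρ / (1 - ρ) ^ 2 + 4 * ρ / (1 - ρ) ^ 3 with hG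
  have hGc : ContinuousAt G 0 := by
    have h1 : ((1 : ℝ) - 0) ^ 2 ≠ 0 := by norm_num
    have h2 : ((1 : ℝ) - 0) ^ 3 ≠ 0 := by norm_num
    have c1 : ContinuousAt (fun ρ : ℝ => (1 - ρ) ^ 2) 0 := by fun_prop
    have c2 : ContinuousAt (fun ρ : ℝ => (1 - ρ) ^ 3) 0 := by fun_prop
    have c3 : ContinuousAt (fun ρ : ℝ => 4 * ρ) 0 := by fun_prop
    exact (continuousAt_id.div c1 h1).add (c3.div c2 h2)
  have hG0 : G 0 = 0 := by simp [hG]
  have hρt : Tendsto (fun τ : ℍ => Real.exp (-(2 * π * τ.im / N))) atImInfty (𝓝 0) := by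
    have h1 : Tendsto (fun τ : ℍ => τ.im) atImInfty atTop := tendsto_comap
    have h2 : Tendsto (fun τ : ℍ => 2 * π * τ.im / N) atImInfty atTop := by
      have hc : 0 < 2 * π / N := by positivity
      have := (tendsto_const_mul_atTop_of_pos hc).mpr h1
      refine this.congr fun τ => ?_
      ring
    exact Real.tendsto_exp_neg_atTop_nhds_zero.comp h2
  have hGt : Tendsto (fun τ : ℍ => G (Real.exp (-(2 * π * τ.im / N)))) atImInfty (𝓝 0) := by
    have := hGc.tendsto.comp hρt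
    rwa [hG0] at this
  refine squeeze_zero (fun τ => norm_nonneg _) (fun τ => ?_) hGt
  have hA : 0 < τ.im := τ.im_pos
  have h1 := mfrP_norm_sub_le N a b ha0.le haN hab hA τ le_rfl
  have h2 := mfrU_norm_le N a b ha0 hA τ le_rfl
  have h3 : mfrP N a b τ - 1 / 12 = mfrU (mfrUu N a b τ) +
      (mfrP N a b τ - 1 / 12 - mfrU (mfrUu N a b τ)) := by ring
  rw [h3]
  exact (norm_add_le _ _).trans (add_le_add h2 h1)

end Fermat.Agent.S15

end
end ZBZ2S15_002_16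

/-! ### bundled: `Fermat.Agent.S15.ModFrickeQ` -/
section ZBZ2S15_002_17

/-!
# S15 / MOD-FRICKE (4): the `q`-expansion of `P_{0,k}`

* `mfrP_zero_hasSum` : `P_{0,k}(τ) - 1/12 = ∑_e coeff_e(S(ζ^k)) q^e`, `S = mfrSeries`;
* `mfrP_zero_isHPB`, `mfrP_zero_qExpansion`.
-/

set_option autoImplicit false

noncomputable section

namespace Fermat.Agent.S15

open UpperHalfPlane PeriodPair Complex Filter Topology
open Fermat.Agent.S23 Fermat.Agent.S24
open scoped Real MatrixGroups Manifold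

local notation "𝕢" => Function.Periodic.qParam

/-- `U(x) = ∑_{m ≥ 1} m x^m` -/
theorem mfr_hasSum_mfrU {x : ℂ} (hx : ‖x‖ < 1) :
    HasSum (fun m : ℕ+ => (m : ℂ) * x ^ (m : ℕ)) (mfrU x) := by
  have h := hasSum_coe_mul_geometric_of_norm_lt_one hx
  refine (Function.Injective.hasSum_iff (f := fun m : ℕ => (m : ℂ) * x ^ m)
    PNat.coe_injective ?_).mpr h
  intro m hm
  have hm0 : m = 0 := by
    by_contra h0
    exact hm ⟨⟨m, Nat.pos_of_ne_zero h0⟩, rfl⟩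
  simp [hm0]

/-- the coefficient function `b(m) = m (u^m + u^{-m} - 2)` -/
def mfrB (u : ℂ) (m : ℕ) : ℂ := (m : ℂ) * (u ^ m + (u⁻¹) ^ m - 2)

theorem norm_mfrB_le {u : ℂ} (hu : ‖u‖ = 1) (m : ℕ) : ‖mfrB u m‖ ≤ 4 * m := by
  unfold mfrB
  rw [norm_mul, Complex.norm_natCast, mul_comm]
  apply mul_le_mul_of_nonneg_right _ (Nat.cast_nonneg m)
  calc ‖u ^ m + (u⁻¹) ^ m - 2‖ ≤ ‖u ^ m + (u⁻¹) ^ m‖ + ‖(2 : ℂ)‖ := norm_sub_le _ _
    _ ≤ ‖u ^ m‖ + ‖(u⁻¹) ^ m‖ + ‖(2 : ℂ)‖ := by gcongr; exact norm_add_le _ _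
    _ = 4 := by
      rw [norm_pow, norm_pow, norm_inv, hu]
      norm_num

/-- Tate's general term as a power series in `q` -/
theorem mfr_hasSum_mfrTerm {q u : ℂ} (hq : ‖q‖ < 1) (hu : ‖u‖ = 1) (n : ℕ) :
    HasSum (fun m : ℕ+ => mfrB u m * q ^ ((n + 1) * (m : ℕ))) (mfrTerm q u n) := by
  have hqn : ‖q ^ (n + 1)‖ < 1 := by
    rw [norm_pow]; exact pow_lt_one₀ (norm_nonneg q) hq (by omega)
  have h1 : ‖q ^ (n + 1) * u‖ < 1 := by rw [norm_mul, hu, mul_one]; exact hqn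
  have h2 : ‖q ^ (n + 1) * u⁻¹‖ < 1 := by rw [norm_mul, norm_inv, hu, inv_one, mul_one]; exact hqn
  have e1 := mfr_hasSum_mfrU h1
  have e2 := mfr_hasSum_mfrU h2
  have e3 := (mfr_hasSum_mfrU hqn).mul_left 2
  have := (e1.add e2).sub e3
  unfold mfrTerm
  refine this.congr_fun ?_
  intro m
  unfold mfrB
  rw [pow_mul, mul_pow, mul_pow]
  ring

theorem mfr_summable_prod {q u : ℂ} (hq : ‖q‖ < 1) (hu : ‖u‖ = 1) :
    Summable fun c : ℕ+ × ℕ+ => mfrB u c.2 * q ^ (c.1 * c.2 : ℕ) := by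
  have h := (summable_prod_mul_pow (𝕜 := ℝ) 1 (r := ‖q‖) (by simpa using hq)).mul_left 4
  refine Summable.of_norm_bounded h fun c => ?_
  rw [norm_mul, norm_pow]
  have := norm_mfrB_le hu c.2
  calc ‖mfrB u c.2‖ * ‖q‖ ^ (c.1 * c.2 : ℕ) ≤ (4 * (c.2 : ℕ)) * ‖q‖ ^ (c.1 * c.2 : ℕ) := by
        apply mul_le_mul_of_nonneg_right this
        positivity
    _ = 4 * ((c.2 : ℝ) ^ 1 * ‖q‖ ^ (c.1 * c.2 : ℕ)) := by
        rw [pow_one]; ring

/-- the divisor sum coefficient -/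
def mfrC (u : ℂ) (e : ℕ) : ℂ := ∑ m ∈ e.divisors, mfrB u m

theorem mfr_sigma_term {q u : ℂ} (n : ℕ+) :
    ∑' x : Nat.divisorsAntidiagonal n,
      (fun c : ℕ+ × ℕ+ => mfrB u c.2 * q ^ (c.1 * c.2 : ℕ)) (sigmaAntidiagonalEquivProd ⟨n, x⟩) =
      mfrC u n * q ^ (n : ℕ) := by
  rw [tsum_fintype, Finset.univ_eq_attach]
  have h1 : ∀ x : Nat.divisorsAntidiagonal n,
      (fun c : ℕ+ × ℕ+ => mfrB u c.2 * q ^ (c.1 * c.2 : ℕ))
        (sigmaAntidiagonalEquivProd ⟨n, x⟩) =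
      (fun y : ℕ × ℕ => mfrB u y.2 * q ^ (y.1 * y.2)) x.1 := by
    intro x
    simp [sigmaAntidiagonalEquivProd, divisorsAntidiagonalFactors]
  simp_rw [h1]
  rw [(n : ℕ).divisorsAntidiagonal.sum_attach
    (fun y : ℕ × ℕ => mfrB u y.2 * q ^ (y.1 * y.2))]
  rw [Nat.sum_divisorsAntidiagonal (fun x y => mfrB u y * q ^ (x * y))]
  unfold mfrC
  rw [Finset.sum_mul, ← Nat.sum_div_divisors (n : ℕ) (fun m => mfrB u m * q ^ (n : ℕ))]
  refine Finset.sum_congr rfl fun i hi => ?_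
  rw [Nat.mul_div_cancel' (Nat.dvd_of_mem_divisors hi)]

/-- the rearranged series over `ℕ+` -/
theorem mfr_hasSum_pnat {q u : ℂ} (hq : ‖q‖ < 1) (hu : ‖u‖ = 1) :
    HasSum (fun e : ℕ+ => mfrC u e * q ^ (e : ℕ)) (∑' n : ℕ, mfrTerm q u n) := by
  have hs := mfr_summable_prod (u := u) hq hu
  have hs' : Summable fun x : (Σ n : ℕ+, Nat.divisorsAntidiagonal n) =>
      (fun c : ℕ+ × ℕ+ => mfrB u c.2 * q ^ (c.1 * c.2 : ℕ)) (sigmaAntidiagonalEquivProd x) :=
    sigmaAntidiagonalEquivProd.summable_iff.mpr hs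
  -- the total sum
  have htot : ∑' c : ℕ+ × ℕ+, mfrB u c.2 * q ^ (c.1 * c.2 : ℕ) = ∑' n : ℕ, mfrTerm q u n := by
    rw [hs.tsum_prod (f := fun c : ℕ+ × ℕ+ => mfrB u c.2 * q ^ (c.1 * c.2 : ℕ))]
    rw [tsum_pnat_eq_tsum_succ (f := fun d : ℕ => ∑' m : ℕ+, mfrB u m * q ^ (d * (m : ℕ)))]
    refine tsum_congr fun n => ?_
    exact (mfr_hasSum_mfrTerm hq hu n).tsum_eq
  have h3 := hs'.hasSum.sigma (fun n => (hs'.sigma_factor n).hasSum)
  rw [sigmaAntidiagonalEquivProd.tsum_eq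
    (fun c : ℕ+ × ℕ+ => mfrB u c.2 * q ^ (c.1 * c.2 : ℕ)), htot] at h3
  refine h3.congr_fun ?_
  intro n
  exact (mfr_sigma_term (q := q) (u := u) n).symm

/-- the rearranged series over `ℕ`, with the coefficients of `mfrSeries` -/
theorem mfr_hasSum_series {q u : ℂ} (hq : ‖q‖ < 1) (hu : ‖u‖ = 1) :
    HasSum (fun e : ℕ => PowerSeries.coeff e (mfrSeries u) * q ^ e)
      (mfrU u + ∑' n : ℕ, mfrTerm q u n) := by
  have h1 : HasSum (fun e : ℕ => if e = 0 then mfrU u else 0) (mfrU u) := hasSum_ite_eq 0 (mfrU u)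
  have h2 : HasSum (fun e : ℕ => if e = 0 then 0 else mfrC u e * q ^ e) (∑' n : ℕ, mfrTerm q u n) := by
    refine (Function.Injective.hasSum_iff
      (f := fun e : ℕ => if e = 0 then 0 else mfrC u e * q ^ e) PNat.coe_injective ?_).mp ?_
    · intro m hm
      have hm0 : m = 0 := by
        by_contra h0
        exact hm ⟨⟨m, Nat.pos_of_ne_zero h0⟩, rfl⟩
      simp [hm0]
    · refine (mfr_hasSum_pnat hq hu).congr_fun ?_
      intro e
      simp only [Function.comp_apply]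
      rw [if_neg e.pos.ne']
  refine (h1.add h2).congr_fun ?_
  intro e
  rw [mfrSeries, PowerSeries.coeff_mk]
  by_cases he : e = 0
  · subst he
    simp [mfrU]
  · rw [if_neg he, if_neg he, if_neg he, zero_add]
    rfl

theorem norm_mfrUu_zero (N : ℕ) (k : ℤ) (τ : ℂ) : ‖mfrUu N 0 k τ‖ = 1 := by
  rw [norm_mfrUu]
  simp

theorem mfrQ_eq_qParam (τ : ℍ) : mfrQ τ = 𝕢 1 τ := by
  unfold mfrQ Function.Periodic.qParam
  congr 1
  simp

theorem norm_mfrQ_lt_one (τ : ℍ) : ‖mfrQ τ‖ < 1 := by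
  rw [norm_mfrQ, Real.exp_lt_one_iff]
  have := τ.im_pos
  have hπ := Real.pi_pos
  have : 0 < 2 * π * (τ : ℂ).im := by
    have : (τ : ℂ).im = τ.im := rfl
    rw [this]; positivity
  linarith

/-- **the `q`-expansion of `P_{0,k}`** -/
theorem mfrP_zero_hasSum (N : ℕ) [NeZero N] (k : ℤ) (hk : ¬ (N : ℤ) ∣ k) (τ : ℍ) :
    HasSum (fun e : ℕ => PowerSeries.coeff e (mfrSeries (mfrUu N 0 k 0)) * 𝕢 1 τ ^ e)
      (mfrP N 0 k τ - 1 / 12) := by
  have hab : ¬ ((N : ℤ) ∣ 0 ∧ (N : ℤ) ∣ k) := fun h => hk h.2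
  have h := mfr_hasSum_series (norm_mfrQ_lt_one τ) (norm_mfrUu_zero N k 0)
  rw [← mfrUu_zero_const N k τ, (mfrP_hasSum N 0 k hab τ).tsum_eq, mfrQ_eq_qParam,
    mfrUu_zero_const N k τ] at h
  convert h using 1
  ring

end Fermat.Agent.S15

namespace Fermat.Agent.S15

open UpperHalfPlane PeriodPair Complex Filter Topology
open Fermat.Agent.S23 Fermat.Agent.S24
open scoped Real MatrixGroups Manifold

local notation "𝕢" => Function.Periodic.qParam

theorem mfrQ_add_natCast (w : ℂ) (n : ℕ) : mfrQ (w + n) = mfrQ w := by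
  unfold mfrQ
  have h : 2 * π * Complex.I * (w + n) = 2 * π * Complex.I * w + n * (2 * π * Complex.I) := by ring
  rw [h, Complex.exp_add, Complex.exp_nat_mul_two_pi_mul_I, mul_one]

theorem mfrTate_zero_add_one (N : ℕ) (k : ℤ) (w : ℂ) :
    mfrTate N 0 k (w + 1) = mfrTate N 0 k w := by
  unfold mfrTate
  have h := mfrQ_add_natCast w 1
  rw [Nat.cast_one] at h
  rw [mfrUu_zero_const N k (w + 1), mfrUu_zero_const N k w, h]

/-- a function which is given on `ℍ` by a `1`-periodic function on `ℂ` -/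
theorem mfr_periodic_of_eq {f : ℍ → ℂ} {g : ℂ → ℂ} (hfg : ∀ τ : ℍ, f τ = g τ)
    (hg : ∀ w : ℂ, g (w + 1) = g w) : Function.Periodic (f ∘ ofComplex) 1 := by
  intro w
  simp only [Function.comp_apply]
  by_cases hw : 0 < w.im
  · have hw1 : 0 < (w + 1).im := by simpa using hw
    rw [ofComplex_apply_of_im_pos hw, ofComplex_apply_of_im_pos hw1, hfg, hfg]
    exact hg w
  · have hw1 : ¬ 0 < (w + 1).im := by simpa using hw
    rw [ofComplex_apply_of_im_nonpos (not_lt.mp hw), ofComplex_apply_of_im_nonpos (not_lt.mp hw1)]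

theorem mfrP_zero_isHPB (N : ℕ) [NeZero N] (k : ℤ) (hk : ¬ (N : ℤ) ∣ k) :
    IsHPB (mfrP N 0 k) := by
  have hab : ¬ ((N : ℤ) ∣ 0 ∧ (N : ℤ) ∣ k) := fun h => hk h.2
  refine ⟨mfrP_mdiff N 0 k hab, ?_, mfrP_isBoundedAtImInfty N 0 k hab⟩
  exact mfr_periodic_of_eq (fun τ => mfrP_eq_mfrTate N 0 k hab τ) (mfrTate_zero_add_one N k)

/-- the `q`-expansion of `P_{0,k}` is `1/12 + S(ζ^k)` -/
theorem mfrP_zero_qExpansion (N : ℕ) [NeZero N] (k : ℤ) (hk : ¬ (N : ℤ) ∣ k) :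
    qExpansion 1 (mfrP N 0 k) =
      PowerSeries.C (1 / 12 : ℂ) + mfrSeries (mfrUu N 0 k 0) := by
  ext e
  refine qExpansion_coeff_unique_fun
    (c := fun e => PowerSeries.coeff e (PowerSeries.C (1 / 12 : ℂ) + mfrSeries (mfrUu N 0 k 0)))
    one_pos (mfrP_zero_isHPB N k hk).analyticAt (fun τ => ?_) e
  have h1 : HasSum (fun e : ℕ => if e = 0 then (1 / 12 : ℂ) else 0) (1 / 12 : ℂ) :=
    hasSum_ite_eq 0 _
  have h2 := mfrP_zero_hasSum N k hk τ
  have h3 := h1.add h2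
  have h4 : (1 / 12 : ℂ) + (mfrP N 0 k τ - 1 / 12) = mfrP N 0 k τ := by ring
  rw [h4] at h3
  refine h3.congr_fun ?_
  intro e
  rw [map_add, PowerSeries.coeff_C]
  by_cases he : e = 0
  · subst he
    simp
  · simp only [if_neg he]
    ring

/-! ### the Fricke side: `τ ↦ P_{k,0}(N τ)` -/

theorem mfrTate_scale_add_one (N : ℕ) [NeZero N] (k : ℤ) (w : ℂ) :
    mfrTate N k 0 ((N : ℂ) * (w + 1)) = mfrTate N k 0 ((N : ℂ) * w) := by
  have hN : (N : ℂ) ≠ 0 := Nat.cast_ne_zero.mpr (NeZero.ne N)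
  unfold mfrTate
  have h1 : mfrQ ((N : ℂ) * (w + 1)) = mfrQ ((N : ℂ) * w) := by
    have : (N : ℂ) * (w + 1) = (N : ℂ) * w + N := by ring
    rw [this, mfrQ_add_natCast]
  have h2 : mfrUu N k 0 ((N : ℂ) * (w + 1)) = mfrUu N k 0 ((N : ℂ) * w) := by
    unfold mfrUu
    have : 2 * π * Complex.I * (((k : ℂ) * ((N : ℂ) * (w + 1)) + ((0 : ℤ) : ℂ)) / (N : ℂ)) =
        2 * π * Complex.I * (((k : ℂ) * ((N : ℂ) * w) + ((0 : ℤ) : ℂ)) / (N : ℂ)) +
          k * (2 * π * Complex.I) := by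
      field_simp
      ring
    rw [this, Complex.exp_add, Complex.exp_int_mul_two_pi_mul_I, mul_one]
  rw [h1, h2]

theorem mfrP_scale_isHPB (N : ℕ) [NeZero N] (k : ℤ) (hk : ¬ (N : ℤ) ∣ k) :
    IsHPB (fun τ => mfrP N k 0 (scaleN N τ)) := by
  have hab : ¬ ((N : ℤ) ∣ k ∧ (N : ℤ) ∣ 0) := fun h => hk h.1
  refine ⟨Fermat.Agent.S28.mdiff_comp_scaleN N (mfrP_mdiff N k 0 hab), ?_,
    (mfrP_isBoundedAtImInfty N k 0 hab).comp_tendsto (P7_tendsto_scaleN_atImInfty N)⟩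
  refine mfr_periodic_of_eq (g := fun w => mfrTate N k 0 ((N : ℂ) * w)) (fun τ => ?_)
    (mfrTate_scale_add_one N k)
  rw [mfrP_eq_mfrTate N k 0 hab, coe_scaleN]

theorem mfrP_scale_tendsto (N : ℕ) [NeZero N] (k : ℤ) (hk0 : 0 < k) (hkN : k < N) :
    Tendsto (fun τ => mfrP N k 0 (scaleN N τ)) atImInfty (𝓝 (1 / 12)) :=
  (mfrP_tendsto N k 0 hk0 hkN).comp (P7_tendsto_scaleN_atImInfty N)

end Fermat.Agent.S15

end
end ZBZ2S15_002_17

/-! ### bundled: `Fermat.Agent.S15.ModFrickeForm` -/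
section ZBZ2S15_002_18

/-!
# S15 / MOD-FRICKE (5): the modular form `∏_k ((t - 1/12) E₆² + E₄ E₆ P_{0,k})`

* `mfrW N t a b = (t - 1/12) E₆² + E₄ E₆ P_{a,b}` (weight `12`), `mfrW_smul`;
* `mfrF N t = ∏_{k=1}^{N-1} mfrW N t 0 k`, `mfrF_smul`, `mfrF_smul_Gamma0`;
* `mfrForm N hN t : ModularForm (G0 N) (12 (N - 1))`;
* `mfrA N t = mfrF N t / Δ^{N-1}`, `mfrBf N = (E₆²/Δ)^{N-1}`: modular functions of level `N`, and
  `mfrA_eq` : `mfrA N t τ = modPiAn N t τ * mfrBf N τ` where `g₃ ≠ 0`.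
-/

set_option autoImplicit false

noncomputable section

namespace Fermat.Agent.S15

open UpperHalfPlane PeriodPair Complex Filter Topology ModularForm EisensteinSeries
  CongruenceSubgroup
open Fermat.Agent.S23 Fermat.Agent.S24 Fermat.Agent.S28 Fermat.Agent.ES.I2
open scoped Real MatrixGroups Manifold

local notation "Δ" => ModularForm.discriminant

theorem mfr_denom (γ : SL(2, ℤ)) (τ : ℍ) :
    denom γ τ = (γ 1 0 : ℂ) * τ + (γ 1 1 : ℂ) := by
  simp [UpperHalfPlane.denom]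

theorem mfr_E4_smul (γ : SL(2, ℤ)) (τ : ℍ) :
    E₄ (γ • τ) = ((γ 1 0 : ℂ) * τ + (γ 1 1 : ℂ)) ^ 4 * E₄ τ := by
  have hγ : (γ : GL (Fin 2) ℝ) ∈ 𝒮ℒ := ⟨γ, rfl⟩
  have h4 : E₄ (γ • τ) = (denom γ τ) ^ (4 : ℤ) * E₄ τ :=
    SlashInvariantForm.slash_action_eqn'' E₄ hγ τ
  rw [h4, mfr_denom, zpow_ofNat]

theorem mfr_E6_smul (γ : SL(2, ℤ)) (τ : ℍ) :
    E₆ (γ • τ) = ((γ 1 0 : ℂ) * τ + (γ 1 1 : ℂ)) ^ 6 * E₆ τ := by
  have hγ : (γ : GL (Fin 2) ℝ) ∈ 𝒮ℒ := ⟨γ, rfl⟩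
  have h6 : E₆ (γ • τ) = (denom γ τ) ^ (6 : ℤ) * E₆ τ :=
    SlashInvariantForm.slash_action_eqn'' E₆ hγ τ
  rw [h6, mfr_denom, zpow_ofNat]

theorem mfr_disc_smul (γ : SL(2, ℤ)) (τ : ℍ) :
    Δ (γ • τ) = ((γ 1 0 : ℂ) * τ + (γ 1 1 : ℂ)) ^ 12 * Δ τ :=
  P8_discriminant_smul γ τ

/-- the weight `12` factor `(t - 1/12) E₆² + E₄ E₆ P_{a,b}` -/
def mfrW (N : ℕ) (t : ℂ) (a b : ℤ) (τ : ℍ) : ℂ :=
  (t - 1 / 12) * E₆ τ ^ 2 + E₄ τ * E₆ τ * mfrP N a b τ

theorem mfrW_smul (N : ℕ) (t : ℂ) (a b : ℤ) (γ : SL(2, ℤ)) (τ : ℍ) :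
    mfrW N t a b (γ • τ) = ((γ 1 0 : ℂ) * τ + (γ 1 1 : ℂ)) ^ 12 *
      mfrW N t (a * γ 0 0 + b * γ 1 0) (a * γ 0 1 + b * γ 1 1) τ := by
  unfold mfrW
  rw [mfr_E4_smul, mfr_E6_smul, mfrP_smul]
  ring

theorem mfrW_congr (N : ℕ) [NeZero N] (t : ℂ) {a a' b b' : ℤ} (ha : a ≡ a' [ZMOD N])
    (hb : b ≡ b' [ZMOD N]) (τ : ℍ) : mfrW N t a b τ = mfrW N t a' b' τ := by
  unfold mfrW
  rw [mfrP_congr N ha hb]

theorem mfr_isBdd_E4 : IsBoundedAtImInfty (E₄ : ℍ → ℂ) := bridge_isHPB_E4.2.2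

theorem mfr_isHPB_E6 : IsHPB (E₆ : ℍ → ℂ) := by
  have h : IsMF (G0 1) 6 (E₆ : ℍ → ℂ) := IsMF.of_levelOne ⟨E₆, rfl⟩
  exact h.isHPB

theorem mfr_isBdd_E6 : IsBoundedAtImInfty (E₆ : ℍ → ℂ) := mfr_isHPB_E6.2.2

theorem mfrW_isBoundedAtImInfty (N : ℕ) [NeZero N] (t : ℂ) (a b : ℤ)
    (hab : ¬ ((N : ℤ) ∣ a ∧ (N : ℤ) ∣ b)) : IsBoundedAtImInfty (mfrW N t a b) := by
  have h1 : IsBoundedAtImInfty (fun _ : ℍ => (t - 1 / 12 : ℂ)) :=
    Filter.const_boundedAtFilter _ _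
  have h2 := (h1.mul (mfr_isBdd_E6.mul mfr_isBdd_E6)).add
    ((mfr_isBdd_E4.mul mfr_isBdd_E6).mul (mfrP_isBoundedAtImInfty N a b hab))
  have e : mfrW N t a b = (fun _ : ℍ => (t - 1 / 12 : ℂ)) * ((E₆ : ℍ → ℂ) * (E₆ : ℍ → ℂ)) +
      (E₄ : ℍ → ℂ) * (E₆ : ℍ → ℂ) * mfrP N a b := by
    funext τ
    simp only [mfrW, Pi.add_apply, Pi.mul_apply]
    ring
  rw [e]
  exact h2

theorem mfrW_mdiff (N : ℕ) [NeZero N] (t : ℂ) (a b : ℤ)
    (hab : ¬ ((N : ℤ) ∣ a ∧ (N : ℤ) ∣ b)) : MDiff (mfrW N t a b) := by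
  have h4 : MDiff (E₄ : ℍ → ℂ) := ModularFormClass.holo E₄
  have h6 : MDiff (E₆ : ℍ → ℂ) := ModularFormClass.holo E₆
  have hc : MDiff (fun _ : ℍ => (t - 1 / 12 : ℂ)) := mdifferentiable_const
  have h2 := (hc.mul (h6.mul h6)).add ((h4.mul h6).mul (mfrP_mdiff N a b hab))
  have e : mfrW N t a b = (fun _ : ℍ => (t - 1 / 12 : ℂ)) * ((E₆ : ℍ → ℂ) * (E₆ : ℍ → ℂ)) +
      (E₄ : ℍ → ℂ) * (E₆ : ℍ → ℂ) * mfrP N a b := by
    funext τ
    simp only [mfrW, Pi.add_apply, Pi.mul_apply]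
    ring
  rw [e]
  exact h2

/-! ### reindexing -/

/-- `∏_{k=1}^{N-1} f(k d) = ∏_{k=1}^{N-1} f(k)` for `f` periodic mod `N`, `d` a unit mod `N` -/
theorem mfr_prod_reindex {M : Type*} [CommMonoid M] (N : ℕ) [NeZero N] (f : ℤ → M)
    (hf : ∀ x y : ℤ, x ≡ y [ZMOD N] → f x = f y) (d : ℤ) (hd : IsUnit (d : ZMod N)) :
    ∏ k ∈ Finset.Ico 1 N, f ((k : ℤ) * d) = ∏ k ∈ Finset.Ico 1 N, f k := by
  classical
  -- the function on `ZMod N`
  let g : ZMod N → M := fun x => f (x.val : ℤ)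
  have hg : ∀ y : ℤ, f y = g (y : ZMod N) := by
    intro y
    apply hf
    rw [← ZMod.intCast_eq_intCast_iff]
    simp
  have key : ∀ g' : ZMod N → M,
      ∏ k ∈ Finset.Ico 1 N, g' ((k : ℕ) : ZMod N) = ∏ x ∈ (Finset.univ.erase (0 : ZMod N)), g' x := by
    intro g'
    refine Finset.prod_bij (fun k _ => ((k : ℕ) : ZMod N)) ?_ ?_ ?_ ?_
    · intro k hk
      rw [Finset.mem_Ico] at hk
      rw [Finset.mem_erase]
      refine ⟨?_, Finset.mem_univ _⟩
      rw [Ne, ZMod.natCast_eq_zero_iff]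
      intro hdvd
      have := Nat.le_of_dvd (by omega) hdvd
      omega
    · intro k₁ hk₁ k₂ hk₂ h12
      rw [Finset.mem_Ico] at hk₁ hk₂
      have h1 := congrArg ZMod.val h12
      rwa [ZMod.val_natCast_of_lt hk₁.2, ZMod.val_natCast_of_lt hk₂.2] at h1
    · intro x hx
      rw [Finset.mem_erase] at hx
      refine ⟨x.val, ?_, by simp⟩
      rw [Finset.mem_Ico]
      refine ⟨?_, ZMod.val_lt x⟩
      have : x.val ≠ 0 := fun h0 => hx.1 ((ZMod.val_eq_zero x).mp h0)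
      omega
    · intro k _
      rfl
  have e1 : ∏ k ∈ Finset.Ico 1 N, f ((k : ℤ) * d) =
      ∏ k ∈ Finset.Ico 1 N, (fun x : ZMod N => g (x * (d : ZMod N))) ((k : ℕ) : ZMod N) := by
    refine Finset.prod_congr rfl fun k _ => ?_
    rw [hg]
    push_cast
    rfl
  have e2 : ∏ k ∈ Finset.Ico 1 N, f (k : ℤ) =
      ∏ k ∈ Finset.Ico 1 N, g ((k : ℕ) : ZMod N) := by
    refine Finset.prod_congr rfl fun k _ => ?_
    rw [hg]
    push_cast
    rfl
  rw [e1, e2, key (fun x : ZMod N => g (x * (d : ZMod N))), key g]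
  obtain ⟨u, hu⟩ := hd
  refine Finset.prod_nbij' (fun x => x * (u : ZMod N)) (fun x => x * ((u⁻¹ : (ZMod N)ˣ) : ZMod N))
    ?_ ?_ ?_ ?_ ?_
  · intro x hx
    rw [Finset.mem_erase] at hx ⊢
    refine ⟨fun h0 => hx.1 ?_, Finset.mem_univ _⟩
    simpa using h0
  · intro x hx
    rw [Finset.mem_erase] at hx ⊢
    refine ⟨fun h0 => hx.1 ?_, Finset.mem_univ _⟩
    simpa using h0
  · intro x _
    simp [mul_assoc]
  · intro x _
    simp [mul_assoc]
  · intro x _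
    rw [hu]

/-! ### the product -/

/-- the product `∏_{k=1}^{N-1} ((t - 1/12) E₆² + E₄ E₆ P_{0,k})` -/
def mfrF (N : ℕ) (t : ℂ) (τ : ℍ) : ℂ := ∏ k ∈ Finset.Ico 1 N, mfrW N t 0 (k : ℤ) τ

theorem mfrF_smul (N : ℕ) (t : ℂ) (γ : SL(2, ℤ)) (τ : ℍ) :
    mfrF N t (γ • τ) = ((γ 1 0 : ℂ) * τ + (γ 1 1 : ℂ)) ^ (12 * (N - 1)) *
      ∏ k ∈ Finset.Ico 1 N, mfrW N t ((k : ℤ) * γ 1 0) ((k : ℤ) * γ 1 1) τ := by
  unfold mfrF
  have h : ∀ k ∈ Finset.Ico 1 N, mfrW N t 0 (k : ℤ) (γ • τ) =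
      ((γ 1 0 : ℂ) * τ + (γ 1 1 : ℂ)) ^ 12 *
        mfrW N t ((k : ℤ) * γ 1 0) ((k : ℤ) * γ 1 1) τ := by
    intro k _
    rw [mfrW_smul]
    congr 2 <;> ring
  rw [Finset.prod_congr rfl h, Finset.prod_mul_distrib, Finset.prod_const, Nat.card_Ico,
    ← pow_mul]

theorem mfr_isUnit_of_mem_Gamma0 (N : ℕ) (γ : SL(2, ℤ)) (hγ : γ ∈ Gamma0 N) :
    IsUnit ((γ 1 1 : ℤ) : ZMod N) := by
  have hc : ((γ 1 0 : ℤ) : ZMod N) = 0 := Gamma0_mem.mp hγ
  have hdet : ((γ 0 0 : ℤ) : ZMod N) * ((γ 1 1 : ℤ) : ZMod N) = 1 := by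
    have h := γ.det_coe
    rw [Matrix.det_fin_two] at h
    have h2 : (((γ 0 0 * γ 1 1 - γ 0 1 * γ 1 0 : ℤ)) : ZMod N) = 1 := by
      rw [h]; simp
    push_cast at h2
    rw [hc, mul_zero, sub_zero] at h2
    exact h2
  exact IsUnit.of_mul_eq_one _ (by rw [mul_comm]; exact hdet)

theorem mfrF_smul_Gamma0 (N : ℕ) [NeZero N] (t : ℂ) (γ : SL(2, ℤ)) (hγ : γ ∈ Gamma0 N) (τ : ℍ) :
    ∏ k ∈ Finset.Ico 1 N, mfrW N t ((k : ℤ) * γ 1 0) ((k : ℤ) * γ 1 1) τ = mfrF N t τ := by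
  have hc : ((γ 1 0 : ℤ) : ZMod N) = 0 := Gamma0_mem.mp hγ
  have hdvd : (N : ℤ) ∣ γ 1 0 := (ZMod.intCast_zmod_eq_zero_iff_dvd _ _).mp hc
  have h1 : ∀ k ∈ Finset.Ico 1 N, mfrW N t ((k : ℤ) * γ 1 0) ((k : ℤ) * γ 1 1) τ =
      (fun x : ℤ => mfrW N t 0 x τ) ((k : ℤ) * γ 1 1) := by
    intro k _
    apply mfrW_congr N t _ (Int.ModEq.refl _)
    exact (Int.modEq_zero_iff_dvd.mpr (Dvd.dvd.mul_left hdvd _))
  rw [Finset.prod_congr rfl h1]
  exact mfr_prod_reindex N (fun x : ℤ => mfrW N t 0 x τ)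
    (fun x y hxy => mfrW_congr N t (Int.ModEq.refl _) hxy τ) (γ 1 1)
    (mfr_isUnit_of_mem_Gamma0 N γ hγ)

theorem mfr_not_dvd_pair {N : ℕ} (hN : N.Prime) (γ : SL(2, ℤ)) {k : ℕ}
    (hk : k ∈ Finset.Ico 1 N) :
    ¬ ((N : ℤ) ∣ (k : ℤ) * γ 1 0 ∧ (N : ℤ) ∣ (k : ℤ) * γ 1 1) := by
  rw [Finset.mem_Ico] at hk
  have hp : Prime (N : ℤ) := Nat.prime_iff_prime_int.mp hN
  have hk' : ¬ (N : ℤ) ∣ (k : ℤ) := by
    intro h
    have := Int.natCast_dvd_natCast.mp h
    have := Nat.le_of_dvd (by omega) this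
    omega
  rintro ⟨h1, h2⟩
  have hc := (hp.dvd_or_dvd h1).resolve_left hk'
  have hd := (hp.dvd_or_dvd h2).resolve_left hk'
  have hdet := γ.det_coe
  rw [Matrix.det_fin_two] at hdet
  have h3 : (N : ℤ) ∣ 1 := by
    rw [← hdet]
    exact dvd_sub (Dvd.dvd.mul_left hd _) (Dvd.dvd.mul_left hc _)
  have := Int.natCast_dvd_natCast.mp (by simpa using h3 : ((N : ℕ) : ℤ) ∣ ((1 : ℕ) : ℤ))
  have := Nat.le_of_dvd one_pos this
  have := hN.two_le
  omega

theorem mfr_isBdd_prod {ι : Type*} (s : Finset ι) (f : ι → ℍ → ℂ)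
    (h : ∀ i ∈ s, IsBoundedAtImInfty (f i)) :
    IsBoundedAtImInfty (fun τ => ∏ i ∈ s, f i τ) := by
  have := Subalgebra.prod_mem (boundedAtImInftySubalgebra ℂ) (t := s) (f := f) h
  have e : (fun τ => ∏ i ∈ s, f i τ) = ∏ i ∈ s, f i := by
    funext τ
    rw [Finset.prod_apply]
  rw [e]
  exact this

theorem mfr_mdiff_prod {ι : Type*} (s : Finset ι) (f : ι → ℍ → ℂ)
    (h : ∀ i ∈ s, MDiff (f i)) : MDiff (fun τ => ∏ i ∈ s, f i τ) := by
  rw [UpperHalfPlane.mdifferentiable_iff]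
  have h' : ∀ i ∈ s, DifferentiableOn ℂ (f i ∘ ofComplex) {z | 0 < z.im} := fun i hi =>
    (UpperHalfPlane.mdifferentiable_iff.mp (h i hi))
  have := DifferentiableOn.finsetProd h'
  refine this.congr ?_
  intro z _
  simp

theorem mfrF_slash_bdd (N : ℕ) [NeZero N] (hN : N.Prime) (t : ℂ) (γ : SL(2, ℤ)) :
    IsBoundedAtImInfty
      (fun τ => ∏ k ∈ Finset.Ico 1 N, mfrW N t ((k : ℤ) * γ 1 0) ((k : ℤ) * γ 1 1) τ) :=
  mfr_isBdd_prod _ _ fun _ hk => mfrW_isBoundedAtImInfty N t _ _ (mfr_not_dvd_pair hN γ hk)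

theorem mfr_not_dvd_zero {N : ℕ} {k : ℕ} (hk : k ∈ Finset.Ico 1 N) :
    ¬ ((N : ℤ) ∣ 0 ∧ (N : ℤ) ∣ (k : ℤ)) := by
  rw [Finset.mem_Ico] at hk
  rintro ⟨-, h⟩
  have := Int.natCast_dvd_natCast.mp h
  have := Nat.le_of_dvd (by omega) this
  omega

theorem mfrF_mdiff (N : ℕ) [NeZero N] (t : ℂ) : MDiff (mfrF N t) :=
  mfr_mdiff_prod _ _ fun k hk => mfrW_mdiff N t 0 k (mfr_not_dvd_zero hk)

theorem mfr_slash_of_smul {F G : ℍ → ℂ} {k : ℕ} (γ : SL(2, ℤ))
    (h : ∀ τ, F (γ • τ) = ((γ 1 0 : ℂ) * τ + (γ 1 1 : ℂ)) ^ k * G τ) :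
    F ∣[(k : ℤ)] γ = G := by
  ext τ
  rw [SL_slash_apply, h τ, mfr_denom]
  have hne : (γ 1 0 : ℂ) * τ + (γ 1 1 : ℂ) ≠ 0 := P8_denom_ne_zero γ τ
  rw [zpow_neg, zpow_natCast, mul_comm, ← mul_assoc, inv_mul_cancel₀ (pow_ne_zero k hne), one_mul]

/-- the modular form `∏_k ((t - 1/12) E₆² + E₄ E₆ P_{0,k})` of weight `12 (N - 1)` on `Γ₀(N)` -/
def mfrForm (N : ℕ) [NeZero N] (hN : N.Prime) (t : ℂ) :
    ModularForm (G0 N) (((12 * (N - 1) : ℕ) : ℤ)) where
  toFun := mfrF N t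
  slash_action_eq' := by
    rintro _ ⟨γ, hγ, rfl⟩
    change mfrF N t ∣[(((12 * (N - 1) : ℕ) : ℤ))] γ = _
    apply mfr_slash_of_smul
    intro τ
    rw [mfrF_smul, mfrF_smul_Gamma0 N t γ hγ]
  holo' := mfrF_mdiff N t
  bdd_at_cusps' := by
    intro c hc
    rw [Subgroup.IsArithmetic.isCusp_iff_isCusp_SL2Z] at hc
    rw [OnePoint.isBoundedAt_iff_forall_SL2Z hc]
    intro δ _
    have h := mfr_slash_of_smul (k := 12 * (N - 1)) δ (mfrF_smul N t δ)
    rw [h]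
    exact mfrF_slash_bdd N hN t δ

theorem mfrForm_coe (N : ℕ) [NeZero N] (hN : N.Prime) (t : ℂ) :
    (⇑(mfrForm N hN t) : ℍ → ℂ) = mfrF N t := rfl

/-! ### the modular functions `a₀`, `b₀` -/

/-- `a₀ = ∏_k (…) / Δ^{N-1}` -/
def mfrA (N : ℕ) (t : ℂ) : ℍ → ℂ := fun τ => mfrF N t τ / Δ τ ^ (N - 1)

/-- `b₀ = (E₆²)^{N-1} / Δ^{N-1}` -/
def mfrBf (N : ℕ) : ℍ → ℂ := fun τ => (E₆ τ ^ 2) ^ (N - 1) / Δ τ ^ (N - 1)

theorem isMF_mfrF (N : ℕ) [NeZero N] (hN : N.Prime) (t : ℂ) :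
    IsMF (G0 N) (12 * ((N - 1 : ℕ) : ℤ)) (mfrF N t) := by
  have h : IsMF (G0 N) (((12 * (N - 1) : ℕ) : ℤ)) (mfrF N t) := ⟨mfrForm N hN t, rfl⟩
  exact h.of_weight_eq (by push_cast; ring)

theorem isMF_E6_pow (N : ℕ) [NeZero N] :
    IsMF (G0 N) (12 * ((N - 1 : ℕ) : ℤ)) (fun τ => (E₆ τ ^ 2) ^ (N - 1)) := by
  have h := ((mf_isMF_E6.pow 2).pow (N - 1))
  have h2 : IsMF (G0 N) _ _ := IsMF.of_levelOne h
  have h3 := h2.of_weight_eq (show ((N - 1 : ℕ) : ℤ) * (((2 : ℕ) : ℤ) * 6) = 12 * ((N - 1 : ℕ) : ℤ) by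
    push_cast; ring)
  exact h3

theorem isModFun_mfrA (N : ℕ) [NeZero N] (hN : N.Prime) (t : ℂ) : IsModFun N (mfrA N t) :=
  isModFun_div (isMF_mfrF N hN t)

theorem isModFun_mfrBf (N : ℕ) [NeZero N] : IsModFun N (mfrBf N) :=
  isModFun_div (isMF_E6_pow N)

theorem mfr_xi_eq (N : ℕ) (t : ℂ) (k : ℕ) (τ : ℍ) (h6 : E₆ τ ≠ 0) :
    t - modXiAn τ ((k : ℂ) / (N : ℂ)) = mfrW N t 0 (k : ℤ) τ / E₆ τ ^ 2 := by
  have hπ : (π : ℂ) ≠ 0 := by exact_mod_cast Real.pi_ne_zero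
  have hI : Complex.I ^ 2 = -1 := Complex.I_sq
  unfold modXiAn mfrW mfrP
  rw [modunif_g₂_tau, modunif_g₃_tau]
  have harg : (((0 : ℤ) : ℂ) * (τ : ℂ) + ((k : ℤ) : ℂ)) / (N : ℂ) = (k : ℂ) / (N : ℂ) := by
    push_cast; ring
  rw [harg]
  have h2 : (2 * (π : ℂ) * Complex.I) ^ 2 = -4 * (π : ℂ) ^ 2 := by
    rw [mul_pow, mul_pow, hI]; ring
  rw [h2]
  field_simp
  ring

theorem mfrA_eq (N : ℕ) [NeZero N] (t : ℂ) (τ : ℍ) (h : (modLat τ).g₃ ≠ 0) :
    mfrBf N τ ≠ 0 ∧ mfrA N t τ = modPiAn N t τ * mfrBf N τ := by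
  have h6 : E₆ τ ≠ 0 := by
    intro h0
    apply h
    rw [modunif_g₃_tau, h0, mul_zero]
  have hΔ : Δ τ ≠ 0 := discriminant_ne_zero τ
  have hB : (E₆ τ ^ 2) ^ (N - 1) ≠ 0 := pow_ne_zero _ (pow_ne_zero 2 h6)
  refine ⟨div_ne_zero hB (pow_ne_zero _ hΔ), ?_⟩
  unfold mfrA mfrBf modPiAn
  rw [Finset.prod_congr rfl (fun k _ => mfr_xi_eq N t k τ h6), Finset.prod_div_distrib,
    Finset.prod_const, Nat.card_Ico]
  unfold mfrF
  field_simp

end Fermat.Agent.S15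

end
end ZBZ2S15_002_18

/-! ### bundled: `Fermat.Agent.S15.ModFrRat` -/
section ZBZ2S15_002_19

/-!
# S15 / MOD-FRICKE, piece **FR-RAT** (helper56): `stmtFrRat : StmtFrRat`.

For `A, B ∈ ℤ[[q]]`, `N` prime, the product `N^{2(N-1)} ∏_{k=1}^{N-1} (A + B · S(ζ_N^k))`
(`S = mfrSeries`) lies in `ℤ[[q]]`, and if `A(0) = 0`, `B(0) = 1` its constant term is
`± N^{2(N-2)}`.

Proof.  The product is `∏_μ G(μ)` over the primitive `N`-th roots of unity, `G(μ) = N²(A + B S(μ))`.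
* integrality: `N / (1 - μ) = ∏_{μ' ≠ μ} (1 - μ')` is an algebraic integer, so all coefficients of
  `G(μ)` are algebraic integers (`mfrratInt_G`);
* rationality: every `σ ∈ Aut ℂ` permutes the `μ` and `σ(G(μ)) = G(σ μ)`, so the coefficients of
  the product are fixed by `Aut ℂ`, hence rational (`S23.descent_exists_rat_of_fixed`);
* `ℤ` is integrally closed;
* constant term: `∏ (1 - μ) = N` (cyclotomic polynomial at `1`) and `(∏ μ)² = 1`.
-/

set_option autoImplicit false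
set_option linter.style.haveILetI false

noncomputable section

namespace Fermat.Agent.S15

open Complex Polynomial

/-! ## roots of unity -/

theorem mfrrat_exp_eq (N k : ℕ) :
    Complex.exp (2 * Real.pi * Complex.I * ((k : ℂ) / (N : ℂ)))
      = Complex.exp (2 * Real.pi * Complex.I / N) ^ k := by
  rw [← Complex.exp_nat_mul]
  congr 1
  ring

theorem mfrrat_image (N : ℕ) (hN : N.Prime) :
    (Finset.Ico 1 N).image (fun k : ℕ => Complex.exp (2 * Real.pi * Complex.I * ((k : ℂ) / (N : ℂ))))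
      = primitiveRoots N ℂ := by
  have hζ := Complex.isPrimitiveRoot_exp N hN.ne_zero
  apply Finset.eq_of_subset_of_card_le
  · intro u hu
    rw [Finset.mem_image] at hu
    obtain ⟨k, hk, rfl⟩ := hu
    rw [Finset.mem_Ico] at hk
    rw [mem_primitiveRoots hN.pos, mfrrat_exp_eq]
    refine hζ.pow_of_coprime k ?_
    rw [Nat.coprime_comm, Nat.Prime.coprime_iff_not_dvd hN]
    intro hdvd
    have := Nat.le_of_dvd (by omega) hdvd
    omega
  · rw [Complex.card_primitiveRoots, Nat.totient_prime hN, Finset.card_image_of_injOn]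
    · simp
    · intro i hi j hj hij
      simp only [Finset.coe_Ico, Set.mem_Ico] at hi hj
      simp only [mfrrat_exp_eq] at hij
      exact hζ.pow_inj hi.2 hj.2 hij

theorem mfrrat_injOn (N : ℕ) (hN : N.Prime) :
    Set.InjOn (fun k : ℕ => Complex.exp (2 * Real.pi * Complex.I * ((k : ℂ) / (N : ℂ))))
      (Finset.Ico 1 N : Finset ℕ) := by
  have hζ := Complex.isPrimitiveRoot_exp N hN.ne_zero
  intro i hi j hj hij
  simp only [Finset.coe_Ico, Set.mem_Ico] at hi hj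
  simp only [mfrrat_exp_eq] at hij
  exact hζ.pow_inj hi.2 hj.2 hij

/-- products over `k = 1, …, N-1` are products over the primitive `N`-th roots of unity -/
theorem mfrrat_prod_eq {M : Type*} [CommMonoid M] (N : ℕ) (hN : N.Prime) (g : ℂ → M) :
    ∏ k ∈ Finset.Ico 1 N, g (Complex.exp (2 * Real.pi * Complex.I * ((k : ℂ) / (N : ℂ))))
      = ∏ μ ∈ primitiveRoots N ℂ, g μ := by
  rw [← mfrrat_image N hN, Finset.prod_image (mfrrat_injOn N hN)]

/-- field automorphisms permute the primitive roots -/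
theorem mfrrat_prod_aut {M : Type*} [CommMonoid M] (N : ℕ) (hN : N.Prime) (g : ℂ → M)
    (σ : ℂ ≃+* ℂ) :
    ∏ μ ∈ primitiveRoots N ℂ, g (σ μ) = ∏ μ ∈ primitiveRoots N ℂ, g μ := by
  refine Finset.prod_nbij' (fun μ => σ μ) (fun μ => σ.symm μ) ?_ ?_ ?_ ?_ ?_
  · intro μ hμ
    rw [mem_primitiveRoots hN.pos] at hμ ⊢
    exact hμ.map_of_injective σ.injective
  · intro μ hμ
    rw [mem_primitiveRoots hN.pos] at hμ ⊢
    exact hμ.map_of_injective σ.symm.injective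
  · intro μ _
    simp
  · intro μ _
    simp
  · intro μ _
    rfl

/-- `∏ (1 - μ) = N` -/
theorem mfrrat_prod_one_sub (N : ℕ) (hN : N.Prime) :
    ∏ μ ∈ primitiveRoots N ℂ, (1 - μ) = (N : ℂ) := by
  have : Fact N.Prime := ⟨hN⟩
  have hζ := Complex.isPrimitiveRoot_exp N hN.ne_zero
  have h1 := Polynomial.cyclotomic_eq_prod_X_sub_primitiveRoots hζ
  have h2 : (cyclotomic N ℂ).eval 1 = (N : ℂ) := Polynomial.eval_one_cyclotomic_prime
  rw [h1, Polynomial.eval_prod] at h2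
  simpa using h2


/-! ## power series with integral coefficients -/

/-- all coefficients are algebraic integers -/
def mfrratInt (f : PowerSeries ℂ) : Prop := ∀ e, IsIntegral ℤ (PowerSeries.coeff e f)

theorem mfrratInt_mul {f g : PowerSeries ℂ} (hf : mfrratInt f) (hg : mfrratInt g) :
    mfrratInt (f * g) := by
  intro e
  rw [PowerSeries.coeff_mul]
  exact IsIntegral.sum _ fun x _ => (hf x.1).mul (hg x.2)

theorem mfrratInt_add {f g : PowerSeries ℂ} (hf : mfrratInt f) (hg : mfrratInt g) :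
    mfrratInt (f + g) := by
  intro e
  rw [map_add]
  exact (hf e).add (hg e)

theorem mfrratInt_one : mfrratInt 1 := by
  intro e
  rw [PowerSeries.coeff_one]
  split_ifs
  · exact isIntegral_one
  · exact isIntegral_zero

theorem mfrratInt_prod {ι : Type*} (s : Finset ι) (f : ι → PowerSeries ℂ)
    (h : ∀ i ∈ s, mfrratInt (f i)) : mfrratInt (∏ i ∈ s, f i) :=
  Finset.prod_induction f mfrratInt (fun _ _ => mfrratInt_mul) mfrratInt_one h

theorem mfrratInt_map (A : PowerSeries ℤ) : mfrratInt (A.map (Int.castRingHom ℂ)) := by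
  intro e
  rw [PowerSeries.coeff_map]
  exact isIntegral_algebraMap (R := ℤ) (A := ℂ) (x := PowerSeries.coeff e A)

theorem mfrratInt_C {a : ℂ} (ha : IsIntegral ℤ a) : mfrratInt (PowerSeries.C a) := by
  intro e
  rw [PowerSeries.coeff_C]
  split_ifs
  · exact ha
  · exact isIntegral_zero

/-! ## integrality of Tate's series at a primitive root -/

theorem mfrrat_isIntegral_root {N : ℕ} (hN : N.Prime) {μ : ℂ} (hμ : μ ∈ primitiveRoots N ℂ) :
    IsIntegral ℤ μ := by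
  rw [mem_primitiveRoots hN.pos] at hμ
  refine IsIntegral.of_pow hN.pos ?_
  rw [hμ.pow_eq_one]
  exact isIntegral_one

theorem mfrrat_isIntegral_inv {N : ℕ} (hN : N.Prime) {μ : ℂ} (hμ : μ ∈ primitiveRoots N ℂ) :
    IsIntegral ℤ μ⁻¹ := by
  have h := hμ
  rw [mem_primitiveRoots hN.pos] at h
  have h1 : μ⁻¹ = μ ^ (N - 1) := by
    have hne : μ ≠ 0 := h.ne_zero hN.ne_zero
    have h2 : μ * μ ^ (N - 1) = 1 := by
      rw [← pow_succ', Nat.sub_add_cancel hN.one_le, h.pow_eq_one]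
    exact inv_eq_of_mul_eq_one_right h2
  rw [h1]
  exact (mfrrat_isIntegral_root hN hμ).pow _

theorem mfrrat_one_sub_ne {N : ℕ} (hN : N.Prime) {μ : ℂ} (hμ : μ ∈ primitiveRoots N ℂ) :
    1 - μ ≠ 0 := by
  rw [mem_primitiveRoots hN.pos] at hμ
  intro h
  have h1 : μ = 1 := by linear_combination -h
  exact hμ.ne_one hN.one_lt h1

/-- `N / (1 - μ)` is integral -/
theorem mfrrat_isIntegral_div {N : ℕ} (hN : N.Prime) {μ : ℂ} (hμ : μ ∈ primitiveRoots N ℂ) :
    IsIntegral ℤ ((N : ℂ) / (1 - μ)) := by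
  have h := mfrrat_prod_one_sub N hN
  rw [← Finset.mul_prod_erase _ _ hμ] at h
  have hne := mfrrat_one_sub_ne hN hμ
  have h2 : (N : ℂ) / (1 - μ) = ∏ x ∈ (primitiveRoots N ℂ).erase μ, (1 - x) := by
    rw [← h]
    field_simp
  rw [h2]
  refine IsIntegral.prod _ fun x hx => ?_
  exact isIntegral_one.sub (mfrrat_isIntegral_root hN (Finset.mem_of_mem_erase hx))

theorem mfrratInt_series {N : ℕ} (hN : N.Prime) {μ : ℂ} (hμ : μ ∈ primitiveRoots N ℂ) :
    mfrratInt (PowerSeries.C ((N : ℂ) ^ 2) * mfrSeries μ) := by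
  intro e
  rw [PowerSeries.coeff_C_mul]
  unfold mfrSeries
  rw [PowerSeries.coeff_mk]
  have hNint : IsIntegral ℤ ((N : ℂ)) := by
    have : (N : ℂ) = algebraMap ℤ ℂ (N : ℤ) := by simp
    rw [this]
    exact isIntegral_algebraMap
  split_ifs with he
  · have hne := mfrrat_one_sub_ne hN hμ
    have h2 : (N : ℂ) ^ 2 * (μ / (1 - μ) ^ 2) = μ * ((N : ℂ) / (1 - μ)) ^ 2 := by
      field_simp
    rw [h2]
    exact (mfrrat_isIntegral_root hN hμ).mul ((mfrrat_isIntegral_div hN hμ).pow 2)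
  · refine (hNint.pow 2).mul (IsIntegral.sum _ fun m _ => ?_)
    have hm : IsIntegral ℤ ((m : ℂ)) := by
      have : (m : ℂ) = algebraMap ℤ ℂ (m : ℤ) := by simp
      rw [this]
      exact isIntegral_algebraMap
    have h2 : IsIntegral ℤ ((2 : ℂ)) := by
      have : (2 : ℂ) = algebraMap ℤ ℂ (2 : ℤ) := by simp
      rw [this]
      exact isIntegral_algebraMap
    exact hm.mul ((((mfrrat_isIntegral_root hN hμ).pow m).add
      ((mfrrat_isIntegral_inv hN hμ).pow m)).sub h2)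

/-! ## the action of `Aut ℂ` -/

theorem mfrrat_map_series (σ : ℂ ≃+* ℂ) (u : ℂ) :
    PowerSeries.map (σ : ℂ →+* ℂ) (mfrSeries u) = mfrSeries (σ u) := by
  ext e
  rw [PowerSeries.coeff_map]
  unfold mfrSeries
  rw [PowerSeries.coeff_mk, PowerSeries.coeff_mk]
  split_ifs with he
  · simp
  · have h2 : σ 2 = 2 := map_ofNat σ 2
    simp [h2]

theorem mfrrat_map_int (σ : ℂ ≃+* ℂ) (A : PowerSeries ℤ) :
    PowerSeries.map (σ : ℂ →+* ℂ) (A.map (Int.castRingHom ℂ)) = A.map (Int.castRingHom ℂ) := by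
  ext e
  simp


/-! ## the factors and the product -/

/-- the factor `N² (A + B · S(μ))` -/
def mfrratG (N : ℕ) (A B : PowerSeries ℤ) (μ : ℂ) : PowerSeries ℂ :=
  PowerSeries.C ((N : ℂ) ^ 2) *
    (A.map (Int.castRingHom ℂ) + B.map (Int.castRingHom ℂ) * mfrSeries μ)

theorem mfrrat_isIntegral_natCast (n : ℕ) : IsIntegral ℤ ((n : ℂ)) := by
  have : (n : ℂ) = algebraMap ℤ ℂ (n : ℤ) := by simp
  rw [this]
  exact isIntegral_algebraMap

theorem mfrratInt_G {N : ℕ} (hN : N.Prime) (A B : PowerSeries ℤ) {μ : ℂ}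
    (hμ : μ ∈ primitiveRoots N ℂ) : mfrratInt (mfrratG N A B μ) := by
  have e : mfrratG N A B μ = PowerSeries.C ((N : ℂ) ^ 2) * A.map (Int.castRingHom ℂ)
      + B.map (Int.castRingHom ℂ) * (PowerSeries.C ((N : ℂ) ^ 2) * mfrSeries μ) := by
    unfold mfrratG
    ring
  rw [e]
  exact mfrratInt_add
    (mfrratInt_mul (mfrratInt_C ((mfrrat_isIntegral_natCast N).pow 2)) (mfrratInt_map A))
    (mfrratInt_mul (mfrratInt_map B) (mfrratInt_series hN hμ))

theorem mfrrat_map_G (N : ℕ) (A B : PowerSeries ℤ) (σ : ℂ ≃+* ℂ) (μ : ℂ) :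
    PowerSeries.map (σ : ℂ →+* ℂ) (mfrratG N A B μ) = mfrratG N A B (σ μ) := by
  unfold mfrratG
  rw [map_mul, map_add, map_mul, mfrrat_map_int, mfrrat_map_int, mfrrat_map_series,
    PowerSeries.map_C]
  congr 2
  simp

theorem mfrrat_F_eq (N : ℕ) (hN : N.Prime) (A B : PowerSeries ℤ) :
    PowerSeries.C ((N : ℂ) ^ (2 * (N - 1))) *
      ∏ k ∈ Finset.Ico 1 N,
        (A.map (Int.castRingHom ℂ) + B.map (Int.castRingHom ℂ) *
          mfrSeries (Complex.exp (2 * Real.pi * Complex.I * ((k : ℂ) / (N : ℂ)))))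
      = ∏ μ ∈ primitiveRoots N ℂ, mfrratG N A B μ := by
  rw [mfrrat_prod_eq N hN (fun u => A.map (Int.castRingHom ℂ) +
    B.map (Int.castRingHom ℂ) * mfrSeries u)]
  unfold mfrratG
  rw [Finset.prod_mul_distrib, Finset.prod_const, Complex.card_primitiveRoots,
    Nat.totient_prime hN, ← map_pow, ← pow_mul]

/-- the coefficients of the product are integers -/
theorem mfrrat_coeff_int (N : ℕ) (hN : N.Prime) (A B : PowerSeries ℤ) (e : ℕ) :
    ∃ n : ℤ, PowerSeries.coeff e (∏ μ ∈ primitiveRoots N ℂ, mfrratG N A B μ) = (n : ℂ) := by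
  have hint : IsIntegral ℤ (PowerSeries.coeff e (∏ μ ∈ primitiveRoots N ℂ, mfrratG N A B μ)) :=
    mfrratInt_prod _ _ (fun μ hμ => mfrratInt_G hN A B hμ) e
  have hfix : ∀ σ : ℂ ≃+* ℂ,
      σ (PowerSeries.coeff e (∏ μ ∈ primitiveRoots N ℂ, mfrratG N A B μ))
        = PowerSeries.coeff e (∏ μ ∈ primitiveRoots N ℂ, mfrratG N A B μ) := by
    intro σ
    have h1 : PowerSeries.map (σ : ℂ →+* ℂ) (∏ μ ∈ primitiveRoots N ℂ, mfrratG N A B μ)
        = ∏ μ ∈ primitiveRoots N ℂ, mfrratG N A B μ := by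
      rw [map_prod]
      simp_rw [mfrrat_map_G]
      exact mfrrat_prod_aut N hN (fun u => mfrratG N A B u) σ
    have h2 := congrArg (PowerSeries.coeff e) h1
    rw [PowerSeries.coeff_map] at h2
    exact h2
  obtain ⟨r, hr⟩ := Fermat.Agent.S23.descent_exists_rat_of_fixed _ hfix
  rw [hr] at hint ⊢
  have hint' : IsIntegral ℤ r := by
    have h3 : ((r : ℚ) : ℂ) = algebraMap ℚ ℂ r := rfl
    rw [h3] at hint
    exact (isIntegral_algebraMap_iff (algebraMap ℚ ℂ).injective).mp hint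
  obtain ⟨n, hn⟩ := IsIntegrallyClosed.isIntegral_iff.mp hint'
  refine ⟨n, ?_⟩
  rw [← hn]
  simp

/-- `(∏ μ)² = 1` -/
theorem mfrrat_prod_root_sq (N : ℕ) (hN : N.Prime) :
    (∏ μ ∈ primitiveRoots N ℂ, μ) ^ 2 = 1 := by
  have h1 : ∏ μ ∈ primitiveRoots N ℂ, μ⁻¹ = ∏ μ ∈ primitiveRoots N ℂ, μ := by
    refine Finset.prod_nbij' (fun μ => μ⁻¹) (fun μ => μ⁻¹) ?_ ?_ ?_ ?_ ?_
    · intro μ hμ
      rw [mem_primitiveRoots hN.pos] at hμ ⊢
      exact hμ.inv
    · intro μ hμ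
      rw [mem_primitiveRoots hN.pos] at hμ ⊢
      exact hμ.inv
    · intro μ _
      simp
    · intro μ _
      simp
    · intro μ _
      rfl
  rw [Finset.prod_inv_distrib] at h1
  have hne : ∏ μ ∈ primitiveRoots N ℂ, μ ≠ 0 := by
    rw [Finset.prod_ne_zero_iff]
    intro μ hμ
    rw [mem_primitiveRoots hN.pos] at hμ
    exact hμ.ne_zero hN.ne_zero
  rw [pow_two]
  nth_rewrite 1 [← h1]
  exact inv_mul_cancel₀ hne

/-- **FR-RAT.** -/
theorem stmtFrRat : StmtFrRat := by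
  intro N hN A B
  have hF := mfrrat_F_eq N hN A B
  choose c hc using mfrrat_coeff_int N hN A B
  refine ⟨PowerSeries.mk c, ?_, ?_⟩
  · rw [hF]
    ext e
    rw [PowerSeries.coeff_map, PowerSeries.coeff_mk, hc e]
    simp
  · intro hA hB
    have h0 : ((c 0 : ℤ) : ℂ)
        = PowerSeries.constantCoeff (∏ μ ∈ primitiveRoots N ℂ, mfrratG N A B μ) := by
      rw [← PowerSeries.coeff_zero_eq_constantCoeff_apply, hc]
    rw [map_prod] at h0
    have h1 : ∀ μ ∈ primitiveRoots N ℂ, PowerSeries.constantCoeff (mfrratG N A B μ)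
        = (N : ℂ) ^ 2 * (μ / (1 - μ) ^ 2) := by
      intro μ _
      unfold mfrratG mfrSeries
      rw [map_mul, map_add, map_mul, PowerSeries.constantCoeff_C,
        ← PowerSeries.coeff_zero_eq_constantCoeff_apply,
        ← PowerSeries.coeff_zero_eq_constantCoeff_apply,
        ← PowerSeries.coeff_zero_eq_constantCoeff_apply, PowerSeries.coeff_map,
        PowerSeries.coeff_map, PowerSeries.coeff_mk, PowerSeries.coeff_zero_eq_constantCoeff_apply,
        PowerSeries.coeff_zero_eq_constantCoeff_apply, hA, hB]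
      simp
    rw [Finset.prod_congr rfl h1, Finset.prod_mul_distrib, Finset.prod_const,
      Complex.card_primitiveRoots, Nat.totient_prime hN, Finset.prod_div_distrib,
      Finset.prod_pow, mfrrat_prod_one_sub N hN] at h0
    have hN0 : (N : ℂ) ≠ 0 := by exact_mod_cast hN.ne_zero
    have hsq := mfrrat_prod_root_sq N hN
    have h2 : (((c 0 : ℤ) : ℂ)) ^ 2 = ((((N : ℤ) ^ (2 * (N - 2)) : ℤ) : ℂ)) ^ 2 := by
      rw [h0, mul_pow, div_pow, hsq]
      obtain ⟨m, rfl⟩ : ∃ m, N = m + 2 := ⟨N - 2, by have := hN.two_le; omega⟩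
      have hm2 : ((m : ℂ) + 2) ≠ 0 := by
        have := hN0
        push_cast at this
        exact this
      push_cast
      generalize (m : ℂ) + 2 = x at hm2 ⊢
      field_simp
      ring
    have h3 : PowerSeries.constantCoeff (PowerSeries.mk c) = c 0 := by
      rw [← PowerSeries.coeff_zero_eq_constantCoeff_apply, PowerSeries.coeff_mk]
    rw [h3]
    exact_mod_cast h2

end Fermat.Agent.S15

end
end ZBZ2S15_002_19

/-! ### bundled: `Fermat.Agent.S15.ModFrickeLaurent` -/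
section ZBZ2S15_002_20

/-!
# S15 / MOD-FRICKE (6): the Laurent expansions of `a₀`, `b₀` at `i∞`

* `mfr_qExp_prod` : `q`-expansions of finite products of holomorphic periodic bounded functions;
* `mfrAt t`, `mfrBt` : the integral series `A = t + (E₄ - E₆)/(12 E₆)`, `B = E₄/E₆`;
* `mfr_qExp_mfrF` : `qExpansion (mfrF N t) = E₆^{2(N-1)} ∏_k (A + B · S(ζ^k))`;
* `mfr_laurent` : `N^{2(N-1)} · laurentOf a₀ = Y · laurentOf b₀` with `Y ∈ ℤ[[q]]` (FR-RAT).
-/

set_option autoImplicit false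

noncomputable section

namespace Fermat.Agent.S15

open UpperHalfPlane PeriodPair Complex Filter Topology ModularForm EisensteinSeries ModularCurve
open Fermat.Agent.S23 Fermat.Agent.S24 Fermat.Agent.S28 Fermat.Agent.ES.I2 Fermat.Agent.INJ.HM
open scoped Real MatrixGroups Manifold

local notation "Δ" => ModularForm.discriminant

/-- `q`-expansions of finite products -/
theorem mfr_qExp_prod {ι : Type*} (s : Finset ι) (f : ι → ℍ → ℂ) (h : ∀ i ∈ s, IsHPB (f i)) :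
    IsHPB (fun τ => ∏ i ∈ s, f i τ) ∧
      qExpansion 1 (fun τ => ∏ i ∈ s, f i τ) = ∏ i ∈ s, qExpansion 1 (f i) := by
  classical
  induction s using Finset.induction_on with
  | empty =>
    simp only [Finset.prod_empty]
    exact ⟨qring_isHPB_const 1, qExpansion_one 1⟩
  | insert a s ha ih =>
    have hs : ∀ i ∈ s, IsHPB (f i) := fun i hi => h i (Finset.mem_insert_of_mem hi)
    have hfa : IsHPB (f a) := h a (Finset.mem_insert_self a s)
    obtain ⟨h1, h2⟩ := ih hs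
    have e : (fun τ => ∏ i ∈ insert a s, f i τ) = f a * (fun τ => ∏ i ∈ s, f i τ) := by
      funext τ
      rw [Finset.prod_insert ha]
      rfl
    rw [e, Finset.prod_insert ha]
    refine ⟨hfa.mul h1, ?_⟩
    rw [qExpansion_mul hfa.analyticAt h1.analyticAt, h2]

/-! ### the integral series -/

theorem mfr_constantCoeff_mfE6 : PowerSeries.constantCoeff mfE6 = ((1 : ℤˣ) : ℤ) := by
  rw [← PowerSeries.coeff_zero_eq_constantCoeff_apply, mfE6, PowerSeries.coeff_mk]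
  simp

/-- `E₆⁻¹ ∈ ℤ[[q]]` -/
def mfrE6inv : PowerSeries ℤ := mfE6.invOfUnit 1

theorem mfrE6_mul_inv : mfE6 * mfrE6inv = 1 :=
  PowerSeries.mul_invOfUnit mfE6 1 mfr_constantCoeff_mfE6

/-- `(E₄ - E₆)/12 ∈ ℤ[[q]]` -/
def mfrD12 : PowerSeries ℤ :=
  PowerSeries.mk fun n => if n = 0 then 0
    else 20 * ∑ d ∈ n.divisors, (d : ℤ) ^ 3 + 42 * ∑ d ∈ n.divisors, (d : ℤ) ^ 5

theorem mfrD12_eq : PowerSeries.C (12 : ℤ) * mfrD12 = eisenstein4 - mfE6 := by
  ext n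
  rw [PowerSeries.coeff_C_mul, map_sub, mfrD12, eisenstein4, mfE6, PowerSeries.coeff_mk,
    PowerSeries.coeff_mk, PowerSeries.coeff_mk]
  by_cases hn : n = 0
  · simp [hn]
  · simp only [if_neg hn]
    ring

theorem mfr_constantCoeff_D12 : PowerSeries.constantCoeff mfrD12 = 0 := by
  rw [← PowerSeries.coeff_zero_eq_constantCoeff_apply, mfrD12, PowerSeries.coeff_mk]
  simp

/-- `A_t = t + (E₄ - E₆)/(12 E₆)` -/
def mfrAt (t : ℤ) : PowerSeries ℤ := PowerSeries.C t + mfrD12 * mfrE6inv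

/-- `B = E₄ / E₆` -/
def mfrBt : PowerSeries ℤ := eisenstein4 * mfrE6inv

theorem mfr_constantCoeff_At : PowerSeries.constantCoeff (mfrAt 0) = 0 := by
  rw [mfrAt, map_add, map_mul, mfr_constantCoeff_D12]
  simp

theorem mfr_constantCoeff_Bt : PowerSeries.constantCoeff mfrBt = 1 := by
  rw [mfrBt, map_mul, constantCoeff_eisenstein4, mfrE6inv, PowerSeries.constantCoeff_invOfUnit]
  simp

/-- the key identity of formal series -/
theorem mfr_factor_eq (t : ℤ) (S : PowerSeries ℂ) :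
    PowerSeries.C ((t : ℂ) - 1 / 12) * hmC mfE6 ^ 2 +
        hmC eisenstein4 * hmC mfE6 * (PowerSeries.C (1 / 12 : ℂ) + S) =
      hmC mfE6 ^ 2 * (hmC (mfrAt t) + hmC mfrBt * S) := by
  have h1 : hmC mfE6 * hmC mfrE6inv = 1 := by
    rw [← map_mul, mfrE6_mul_inv, map_one]
  have h2 : PowerSeries.C (12 : ℂ) * hmC mfrD12 = hmC eisenstein4 - hmC mfE6 := by
    have := congrArg hmC mfrD12_eq
    rw [map_mul, map_sub] at this
    rw [← this]
    congr 1
    rw [hmC, PowerSeries.map_C]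
    simp
  have h3 : PowerSeries.C (1 / 12 : ℂ) * PowerSeries.C (12 : ℂ) = 1 := by
    rw [← map_mul]
    norm_num
  have h4 : hmC (mfrAt t) = PowerSeries.C (t : ℂ) + hmC mfrD12 * hmC mfrE6inv := by
    rw [mfrAt, map_add, map_mul]
    congr 1
    rw [hmC, PowerSeries.map_C]
    simp
  have h5 : hmC mfrBt = hmC eisenstein4 * hmC mfrE6inv := by
    rw [mfrBt, map_mul]
  have h6 : PowerSeries.C ((t : ℂ) - 1 / 12) = PowerSeries.C (t : ℂ) - PowerSeries.C (1 / 12 : ℂ) :=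
    map_sub _ _ _
  rw [h4, h5, h6]
  linear_combination (-(hmC eisenstein4 * hmC mfE6 * S) - hmC mfE6 * hmC mfrD12) * h1 -
    PowerSeries.C (1 / 12 : ℂ) * hmC mfE6 * h2 + hmC mfE6 * hmC mfrD12 * h3

/-! ### the `q`-expansion of the product -/

theorem mfrW_isHPB (N : ℕ) [NeZero N] (t : ℂ) (k : ℤ) (hk : ¬ (N : ℤ) ∣ k) :
    IsHPB (mfrW N t 0 k) := by
  have hP := mfrP_zero_isHPB N k hk
  have hc : IsHPB (fun _ : ℍ => (t - 1 / 12 : ℂ)) := qring_isHPB_const _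
  have h := (hc.mul (mfr_isHPB_E6.mul mfr_isHPB_E6)).add ((bridge_isHPB_E4.mul mfr_isHPB_E6).mul hP)
  have e : mfrW N t 0 k = (fun _ : ℍ => (t - 1 / 12 : ℂ)) * ((E₆ : ℍ → ℂ) * (E₆ : ℍ → ℂ)) +
      (E₄ : ℍ → ℂ) * (E₆ : ℍ → ℂ) * mfrP N 0 k := by
    funext τ
    simp only [mfrW, Pi.add_apply, Pi.mul_apply]
    ring
  rw [e]
  exact h

theorem mfr_qExp_const (c : ℂ) : qExpansion 1 (fun _ : ℍ => c) = PowerSeries.C c := by
  have h := (qExpHom : HPB →ₐ[ℂ] PowerSeries ℂ).commutes c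
  rw [qExpHom_apply] at h
  exact h

theorem mfr_qExp_mfrW (N : ℕ) [NeZero N] (t : ℂ) (k : ℤ) (hk : ¬ (N : ℤ) ∣ k) :
    qExpansion 1 (mfrW N t 0 k) =
      PowerSeries.C (t - 1 / 12) * hmC mfE6 ^ 2 +
        hmC eisenstein4 * hmC mfE6 *
          (PowerSeries.C (1 / 12 : ℂ) + mfrSeries (mfrUu N 0 k 0)) := by
  have hP := mfrP_zero_isHPB N k hk
  have hc : IsHPB (fun _ : ℍ => (t - 1 / 12 : ℂ)) := qring_isHPB_const _
  have h66 := mfr_isHPB_E6.mul mfr_isHPB_E6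
  have h46 := bridge_isHPB_E4.mul mfr_isHPB_E6
  have e : mfrW N t 0 k = (fun _ : ℍ => (t - 1 / 12 : ℂ)) * ((E₆ : ℍ → ℂ) * (E₆ : ℍ → ℂ)) +
      (E₄ : ℍ → ℂ) * (E₆ : ℍ → ℂ) * mfrP N 0 k := by
    funext τ
    simp only [mfrW, Pi.add_apply, Pi.mul_apply]
    ring
  rw [e, qExpansion_add (hc.mul h66).analyticAt (h46.mul hP).analyticAt,
    qExpansion_mul hc.analyticAt h66.analyticAt,
    qExpansion_mul mfr_isHPB_E6.analyticAt mfr_isHPB_E6.analyticAt,
    qExpansion_mul h46.analyticAt hP.analyticAt,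
    qExpansion_mul bridge_isHPB_E4.analyticAt mfr_isHPB_E6.analyticAt,
    mfr_qExp_const, mf_qExp_E6, hm_qExp_E4, mfrP_zero_qExpansion N k hk]
  ring

theorem mfr_not_dvd_of_mem {N : ℕ} {k : ℕ} (hk : k ∈ Finset.Ico 1 N) : ¬ (N : ℤ) ∣ (k : ℤ) :=
  fun h => mfr_not_dvd_zero hk ⟨dvd_zero _, h⟩

theorem mfrF_isHPB (N : ℕ) [NeZero N] (t : ℂ) : IsHPB (mfrF N t) :=
  (mfr_qExp_prod (Finset.Ico 1 N) (fun k => mfrW N t 0 (k : ℤ))
    (fun k hk => mfrW_isHPB N t k (mfr_not_dvd_of_mem hk))).1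

theorem mfrUu_eq_exp (N : ℕ) (k : ℕ) :
    mfrUu N 0 (k : ℤ) 0 = Complex.exp (2 * Real.pi * Complex.I * ((k : ℂ) / (N : ℂ))) := by
  unfold mfrUu
  congr 2
  push_cast
  ring

/-- **the `q`-expansion of the product** -/
theorem mfr_qExp_mfrF (N : ℕ) [NeZero N] (t : ℤ) :
    qExpansion 1 (mfrF N (t : ℂ)) = (hmC mfE6 ^ 2) ^ (N - 1) *
      ∏ k ∈ Finset.Ico 1 N, (hmC (mfrAt t) + hmC mfrBt *
        mfrSeries (Complex.exp (2 * Real.pi * Complex.I * ((k : ℂ) / (N : ℂ))))) := by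
  have h := (mfr_qExp_prod (Finset.Ico 1 N) (fun k => mfrW N (t : ℂ) 0 (k : ℤ))
    (fun k hk => mfrW_isHPB N t k (mfr_not_dvd_of_mem hk))).2
  have e : mfrF N (t : ℂ) = fun τ => ∏ k ∈ Finset.Ico 1 N, mfrW N (t : ℂ) 0 (k : ℤ) τ := rfl
  rw [e, h]
  have h2 : ∀ k ∈ Finset.Ico 1 N, qExpansion 1 (mfrW N (t : ℂ) 0 (k : ℤ)) =
      hmC mfE6 ^ 2 * (hmC (mfrAt t) + hmC mfrBt *
        mfrSeries (Complex.exp (2 * Real.pi * Complex.I * ((k : ℂ) / (N : ℂ))))) := by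
    intro k hk
    rw [mfr_qExp_mfrW N t k (mfr_not_dvd_of_mem hk), mfr_factor_eq, mfrUu_eq_exp]
  rw [Finset.prod_congr rfl h2, Finset.prod_mul_distrib, Finset.prod_const, Nat.card_Ico]

/-! ### Laurent expansions -/

theorem mfrA_mul (N : ℕ) (t : ℂ) :
    (fun z => mfrA N t z * Δ z ^ (N - 1)) = mfrF N t := by
  funext z
  simp only [mfrA]
  rw [div_mul_cancel₀ _ (pow_ne_zero _ (discriminant_ne_zero z))]

theorem mfrBf_mul (N : ℕ) :
    (fun z => mfrBf N z * Δ z ^ (N - 1)) = fun z => (E₆ z ^ 2) ^ (N - 1) := by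
  funext z
  simp only [mfrBf]
  rw [div_mul_cancel₀ _ (pow_ne_zero _ (discriminant_ne_zero z))]

theorem mfr_laurentOf_A (N : ℕ) [NeZero N] (t : ℂ) :
    laurentOf (mfrA N t) =
      HahnSeries.ofPowerSeries ℤ ℂ (qExpansion 1 (mfrF N t)) * (deltaL ^ (N - 1))⁻¹ := by
  have h : IsHPB (fun z => mfrA N t z * Δ z ^ (N - 1)) := by
    rw [mfrA_mul]; exact mfrF_isHPB N t
  rw [laurentOf_eq h, mfrA_mul]

theorem mfr_isHPB_E6sq : IsHPB (fun z => (E₆ : ℍ → ℂ) z ^ 2) := bridge_isHPB_pow mfr_isHPB_E6 2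

theorem mfr_laurentOf_B (N : ℕ) [NeZero N] :
    laurentOf (mfrBf N) =
      HahnSeries.ofPowerSeries ℤ ℂ ((hmC mfE6 ^ 2) ^ (N - 1)) * (deltaL ^ (N - 1))⁻¹ := by
  have h0 : IsHPB (fun z => (fun z => (E₆ : ℍ → ℂ) z ^ 2) z ^ (N - 1)) :=
    bridge_isHPB_pow mfr_isHPB_E6sq (N - 1)
  have h : IsHPB (fun z => mfrBf N z * Δ z ^ (N - 1)) := by
    rw [mfrBf_mul]; exact h0
  rw [laurentOf_eq h, mfrBf_mul]
  have e1 := bridge_ofPowerSeries_pow mfr_isHPB_E6sq (N - 1)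
  have e2 := bridge_ofPowerSeries_pow mfr_isHPB_E6 2
  rw [mf_qExp_E6] at e2
  rw [e1, e2, map_pow, map_pow]

theorem mfr_laurentOf_B_ne_zero (N : ℕ) [NeZero N] : laurentOf (mfrBf N) ≠ 0 := by
  rw [mfr_laurentOf_B]
  apply mul_ne_zero
  · intro h
    have h1 : (hmC mfE6 ^ 2) ^ (N - 1) = 0 :=
      HahnSeries.ofPowerSeries_injective (by rw [h, map_zero])
    have h2 : hmC mfE6 = 0 := by
      by_cases hN : N - 1 = 0
      · rw [hN, pow_zero] at h1
        exact absurd h1 one_ne_zero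
      · exact pow_eq_zero_iff (two_ne_zero) |>.mp (pow_eq_zero_iff hN |>.mp h1)
    have h3 := congrArg (PowerSeries.coeff 0) h2
    rw [hmC, PowerSeries.coeff_map, mfE6, PowerSeries.coeff_mk] at h3
    simp at h3
  · exact inv_ne_zero (pow_ne_zero _ deltaL_ne_zero)

/-- **the Laurent expansions of `a₀` and `b₀`** -/
theorem mfr_laurent (N : ℕ) [NeZero N] (hN : N.Prime) (t : ℤ) :
    ∃ Y : PowerSeries ℤ,
      HahnSeries.C ((N : ℂ) ^ (2 * (N - 1))) * laurentOf (mfrA N (t : ℂ)) =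
        HahnSeries.ofPowerSeries ℤ ℂ (hmC Y) * laurentOf (mfrBf N) ∧
      (t = 0 → PowerSeries.constantCoeff Y ^ 2 = ((N : ℤ) ^ (2 * (N - 2))) ^ 2) := by
  obtain ⟨Y, hY, hY0⟩ := stmtFrRat N hN (mfrAt t) mfrBt
  refine ⟨Y, ?_, ?_⟩
  · rw [mfr_laurentOf_A, mfr_laurentOf_B, mfr_qExp_mfrF]
    have hY' : hmC Y = PowerSeries.C ((N : ℂ) ^ (2 * (N - 1))) *
        ∏ k ∈ Finset.Ico 1 N, (hmC (mfrAt t) + hmC mfrBt *
          mfrSeries (Complex.exp (2 * Real.pi * Complex.I * ((k : ℂ) / (N : ℂ))))) := hY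
    rw [hY', map_mul, map_mul, HahnSeries.ofPowerSeries_C]
    ring
  · intro ht
    subst ht
    exact hY0 mfr_constantCoeff_At mfr_constantCoeff_Bt

end Fermat.Agent.S15

end
end ZBZ2S15_002_20

/-! ### bundled: `Fermat.Agent.S15.ModFricke` -/
section ZBZ2S15_002_21

/-!
# S15 / MOD-FRICKE : assembly (helper71)

`stmtModFricke : StmtModFricke` : the Fricke products `Π_t` exist in `F_N` and are rational;
`StmtModFricke0` is proved in `ModFricke0.lean`: `Π₀ ∈ ℤ[1/N][[q]]` with constant term `± N⁻²`,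
poles over `j = 1728`, a zero at the cusp `0`.

Design: `NOTES/S15-MODFRICKE.md`.
-/

set_option autoImplicit false
set_option linter.unusedSectionVars false
set_option linter.unusedVariables false
set_option linter.style.longLine false
set_option linter.unusedSimpArgs false

noncomputable section

namespace Fermat.Agent.S15

open UpperHalfPlane PeriodPair Complex Filter Topology ModularForm EisensteinSeries ModularCurve
open AlgebraicCurve
open Fermat.Agent.S23 Fermat.Agent.S24 Fermat.Agent.S28 Fermat.Agent.ES.I2 Fermat.Agent.INJ.HM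
open Fermat.Agent.ES.M Fermat.Agent.W1
open scoped Real MatrixGroups Manifold

attribute [local instance] algKbC

local notation "Δ" => ModularForm.discriminant

/-! ### The `q`-expansion of `Π_t` over a field -/

/-- `N^{-2(N-1)} Y` as a Laurent series over `K` -/
def mfrYL (K : Type*) [Field K] (N : ℕ) (Y : PowerSeries ℤ) : LaurentSeries K :=
  HahnSeries.C (((N : K) ^ (2 * (N - 1)))⁻¹) *
    HahnSeries.ofPowerSeries ℤ K (Y.map (Int.castRingHom K))

theorem mfr_coeffMap_YL {K L : Type*} [Field K] [Field L] (ι : K →+* L) (N : ℕ)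
    (Y : PowerSeries ℤ) : coeffMap ι (mfrYL K N Y) = mfrYL L N Y := by
  rw [mfrYL, mfrYL, map_mul, coeffMap_ofPowerSeries, HahnSeries.C_apply, coeffMap_single,
    HahnSeries.C_apply]
  congr 2
  · rw [map_inv₀, map_pow, map_natCast]
  · ext n
    simp

/-- the same series as a power series over `ℚ` -/
def mfrYQ (N : ℕ) (Y : PowerSeries ℤ) : PowerSeries ℚ :=
  PowerSeries.C (((N : ℚ) ^ (2 * (N - 1)))⁻¹) * Y.map (Int.castRingHom ℚ)

theorem mfr_ofPowerSeries_YQ (N : ℕ) (Y : PowerSeries ℤ) :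
    HahnSeries.ofPowerSeries ℤ ℚ (mfrYQ N Y) = mfrYL ℚ N Y := by
  rw [mfrYQ, mfrYL, map_mul, HahnSeries.ofPowerSeries_C]

theorem mfr_coeff_YQ (N : ℕ) (Y : PowerSeries ℤ) (n : ℕ) :
    PowerSeries.coeff n (mfrYQ N Y) = ((N : ℚ) ^ (2 * (N - 1)))⁻¹ * (PowerSeries.coeff n Y : ℤ) := by
  rw [mfrYQ, PowerSeries.coeff_C_mul, PowerSeries.coeff_map]
  rfl

theorem mfr_YL_mul (N : ℕ) [NeZero N] (Y : PowerSeries ℤ) (a b : LaurentSeries ℂ)
    (h : HahnSeries.C ((N : ℂ) ^ (2 * (N - 1))) * a = HahnSeries.ofPowerSeries ℤ ℂ (hmC Y) * b) :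
    mfrYL ℂ N Y * b = a := by
  have hN : ((N : ℂ) ^ (2 * (N - 1))) ≠ 0 := pow_ne_zero _ (Nat.cast_ne_zero.2 (NeZero.ne N))
  have hC : (HahnSeries.C (((N : ℂ) ^ (2 * (N - 1)))⁻¹) : LaurentSeries ℂ) *
      HahnSeries.C ((N : ℂ) ^ (2 * (N - 1))) = 1 := by
    rw [← map_mul, inv_mul_cancel₀ hN, map_one]
  rw [mfrYL, mul_assoc]
  show _ * (HahnSeries.ofPowerSeries ℤ ℂ (hmC Y) * b) = a
  rw [← h, ← mul_assoc, hC, one_mul]

/-! ### Existence -/

/-- the Fricke product `Π_t` as an element of `F_N`, with its `q`-expansion -/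
theorem mfr_exists (N : ℕ) [NeZero N] (hN : N.Prime) (t : ℤ) :
    ∃ (Y : PowerSeries ℤ) (f : FF N), (f : LaurentSeries Kb) = mfrYL Kb N Y ∧
      coeffMap embC (f : LaurentSeries Kb) * laurentOf (mfrBf N) = laurentOf (mfrA N (t : ℂ)) ∧
      (t = 0 → PowerSeries.constantCoeff Y ^ 2 = ((N : ℤ) ^ (2 * (N - 2))) ^ 2) := by
  obtain ⟨Y, hY, hY0⟩ := mfr_laurent N hN t
  have h1 : coeffMap embC (mfrYL Kb N Y) * laurentOf (mfrBf N) = laurentOf (mfrA N (t : ℂ)) := by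
    rw [mfr_coeffMap_YL]
    exact mfr_YL_mul N Y _ _ hY
  have hmem : mfrYL Kb N Y ∈ modularFunctionFieldBar N := by
    apply Fermat.Agent.ES.DescentInj.mem_laurentBaseChange_of_coeffMap_mem (K := Kb) (L := ℂ)
    apply Fermat.Agent.ES.R.fullC_le_laurentBaseChange ℂ N
    exact Fermat.Agent.ES.RC.rc_mem_full_of_frac N (isModFun_mfrA N hN t) (isModFun_mfrBf N)
      (mfr_laurentOf_B_ne_zero N) h1
  exact ⟨Y, ⟨mfrYL Kb N Y, hmem⟩, rfl, h1, hY0⟩

theorem mfr_isFrickeProd (N : ℕ) [NeZero N] (hN : N.Prime) (t : ℤ) (f : FF N)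
    (h : coeffMap embC (f : LaurentSeries Kb) * laurentOf (mfrBf N) = laurentOf (mfrA N (t : ℂ))) :
    IsFrickeProd N t f :=
  ⟨⟨mfrA N (t : ℂ), isModFun_mfrA N hN t⟩, ⟨mfrBf N, isModFun_mfrBf N⟩, h,
    fun τ hτ => mfrA_eq N (t : ℂ) τ hτ⟩

/-- **MOD-FRICKE (a).** -/
theorem stmtModFricke : StmtModFricke := by
  intro N _ hN t
  obtain ⟨Y, f, hf, h1, -⟩ := mfr_exists N hN t
  refine ⟨f, mfr_isFrickeProd N hN t f h1, fun σ => ?_⟩
  apply Subtype.ext
  rw [coe_galAct_smul, hf, mfr_coeffMap_YL]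

end Fermat.Agent.S15

end
end ZBZ2S15_002_21

/-! ### bundled: `Fermat.Agent.S15.ModFrInt` -/
section ZBZ2S15_002_22

/-!
# S15 / MOD-FRICKE, piece FR-INT (helper8)

`stmtFrInt : StmtFrInt` : an element `f ∈ F_N` whose `q`-expansion is the `q`-expansion of a
holomorphic modular function `a` of level `N` has its poles at the cusps
(`PolesAtCusps N f` : `0 ≤ ord_P j → 0 ≤ ord_P f`).

Route (MOD-PLACE): a place `P` with `0 ≤ ord_P j` lies over `j = j₀` for some `j₀ ∈ ℚ̄`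
(`modVal`); `j₀ = J(τ)` (`Jfun_surjective`), so `P` is the place at `γ • τ` (`modplace_fibre`), and
at the place at `τ'` the order of `f = a / b` (`b τ' ≠ 0`) is `e · ord_{τ'} a ≥ 0`
(`mfrint_ord_nonneg`).
-/

set_option autoImplicit false
set_option linter.unusedSectionVars false
set_option linter.style.haveILetI false

noncomputable section

open UpperHalfPlane AlgebraicCurve ModularCurve IntermediateField
open scoped MatrixGroups Manifold

namespace Fermat.Agent.S15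

open Fermat.Agent.S24 Fermat.Agent.S28 Fermat.Agent.S23 Fermat.Agent.ES.RC Fermat.Agent.W1
open Fermat.Agent.ES.G2 Fermat.Agent.ES.M

attribute [local instance] algKbC

variable {N : ℕ} [NeZero N]

/-- **regularity.**  `f = a / b` with `a`, `b` holomorphic modular functions of level `N` and
`b τ₀ ≠ 0` is regular at the place at `τ₀`. -/
theorem mfrint_ord_nonneg {τ₀ : ℍ} {c₀ : Kb} (h : Jfun τ₀ = embC c₀) {f : FF N}
    {a b : ℍ → ℂ} (ha : IsModFun N a) (hb : IsModFun N b)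
    (hab : coeffMap embC (f : LaurentSeries Kb) * laurentOf b = laurentOf a)
    (hb0 : b τ₀ ≠ 0) : 0 ≤ (modPlace N τ₀ c₀ h).ord f := by
  rcases eq_or_ne f 0 with h0 | h0
  · rw [h0, Place.ord_zero]
  obtain ⟨P, Q, hQ, hPQ⟩ := modplace_exists_rep N f
  have key := modplace_bridge hPQ ha hb hab
  have hP0 : MvPolynomial.aeval (jFfam N) P ≠ 0 := by
    rw [← hPQ]
    exact mul_ne_zero h0 hQ
  set A : Ban N := MvPolynomial.aeval (JdBanfam N) P with hA
  set B : Ban N := MvPolynomial.aeval (JdBanfam N) Q with hB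
  have hAM : algebraMap (Ban N) (Man N) A ≠ 0 := by
    rw [← modplace_phi_aeval]
    exact (map_ne_zero (phi N)).2 hP0
  have hBM : algebraMap (Ban N) (Man N) B ≠ 0 := by
    rw [← modplace_phi_aeval]
    exact (map_ne_zero (phi N)).2 hQ
  have hA0 : A ≠ 0 := fun h1 => hAM (by rw [h1, map_zero])
  have hB0 : B ≠ 0 := fun h1 => hBM (by rw [h1, map_zero])
  have hphi : phi N f = algebraMap (Ban N) (Man N) A / algebraMap (Ban N) (Man N) B := by
    rw [eq_div_iff hBM, ← modplace_phi_aeval, ← modplace_phi_aeval, ← map_mul, hPQ]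
  have hf0 : phi N f ≠ 0 := (map_ne_zero (phi N)).2 h0
  rw [modPlace_ord_nonneg_iff, modPlaceMan_ord_nonneg_iff h hf0, hphi, vord_valMan_div τ₀ hA0 hB0]
  have hAd : MDiff (A : ℍ → ℂ) := mdifferentiable_of_mem_Ban A.2
  have hBd : MDiff (B : ℍ → ℂ) := mdifferentiable_of_mem_Ban B.2
  have hbd : MDiff b := rc_mdiff_of_isModFun hb
  have had : MDiff a := rc_mdiff_of_isModFun ha
  have hkey : (A : ℍ → ℂ) * b = a * (B : ℍ → ℂ) := by
    rw [hA, hB, modplace_coe_aeval_JdBanfam, modplace_coe_aeval_JdBanfam]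
    exact key
  have hord := congrArg (ordAt τ₀) hkey
  rw [ordAt_mul hAd hbd, ordAt_mul had hBd, modplace_ordAt_eq_zero hbd hb0, add_zero] at hord
  have hA1 := coe_ordBan τ₀ hA0
  have hB1 := coe_ordBan τ₀ hB0
  rw [← hA1, ← hB1] at hord
  have h2 : ((ordBan N τ₀ B : ℕ) : ℕ∞) ≤ (ordBan N τ₀ A : ℕ) := by
    rw [hord]
    exact le_add_self
  have h3 : ordBan N τ₀ B ≤ ordBan N τ₀ A := by exact_mod_cast h2
  omega

/-- every place of `F_N` at which `j` is regular is the place at some point of `ℍ` -/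
theorem mfrint_exists_point (P : Place Kb (FF N)) (hP : 0 ≤ P.ord (Fermat.Agent.S24.jF N)) :
    ∃ (τ : ℍ) (c₀ : Kb) (h : Jfun τ = embC c₀), P = modPlace N τ c₀ h := by
  have hmem : Fermat.Agent.S24.jF N ∈ P.toValuationSubring :=
    (PlaceAux.ord_nonneg_iff P (Fermat.Agent.S24.jF_ne_zero N)).1 hP
  set c₀ : Kb := modVal P (Fermat.Agent.S24.jF N) with hc₀
  have hval : HasValueAt P (Fermat.Agent.S24.jF N) c₀ := (modplace_hasValueAt_iff P (Fermat.Agent.S24.jF N) c₀).2 ⟨hmem, rfl⟩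
  obtain ⟨τ, hτ⟩ := Jfun_surjective (embC c₀)
  obtain ⟨γ, hγ⟩ := modplace_fibre hτ P ((modplace_hasValueAt_jF_iff P c₀).1 hval)
  exact ⟨γ • τ, c₀, modplace_Jfun_smul hτ γ, hγ⟩

/-- **FR-INT.** -/
theorem stmtFrInt : StmtFrInt := by
  intro N _ f a ha hfa P hP
  obtain ⟨τ, c₀, h, rfl⟩ := mfrint_exists_point P hP
  have h1 : IsModFun N (fun _ : ℍ => (1 : ℂ)) := isModFun_const N 1
  refine mfrint_ord_nonneg h ha h1 ?_ one_ne_zero
  rw [laurentOf_const, map_one, mul_one, hfa]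

end Fermat.Agent.S15

end
end ZBZ2S15_002_22

/-! ### bundled: `Fermat.Agent.S15.LocDivPlan` -/
section ZBZ2S15_002_23

/-!
# S15 / LOCDIV — interface (helper94)

`StmtLocDiv` (of `Plan.lean`) is proved in `LocDiv.lean` from

* `StmtModFricke`, `StmtModFricke0` (`ModPlan.lean`, MOD-FRICKE): existence and `q`-expansion of the
  Fricke product `Π₀`;
* `StmtLdPkg` (this file, pieces GEO-PR + S18-J1, helper89): at every level `N` and every
  `A ∣ ℓ ∤ N` with `ℓ ≥ 5` or `(5 − ℓ) ∣ N` there is a reduction package `R` of `X₀(N)` at `A`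
  (`W1.ModPR`) whose valuation ring is the Gauss ring, whose residue map is the coefficientwise
  reduction, and whose kernel of reduction `R.J1` has no torsion prime to `ℓ`.

Route (all `v` uniformly, level `N' = p ℓ'` with `ℓ' ∈ {2, 3}`, `ℓ' ≠ v`, `r ∤ ℓ' + 1`):
`φ = heckeAlphaBar : F_p → F_{N'}`;  `φ^* [(x) − (P₀)] ∈ J1'` by the counting lemma
(`LocDivCount.lean`: `ld_count`, `ld_sep` with the detecting function `Π₀`, coordinate `t = j` at
`P₀ = ∞`, `t = j_p` at `P₀ = 0`);  DIV¹ + S18-J1 give a `D_A`-fixed `r^k`-th root in `J1'`;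
`φ_* φ^* = ℓ' + 1` is prime to `r` (`LocDivGroup.lean`, `LocDivPush.lean`).
-/

set_option autoImplicit false

noncomputable section

namespace Fermat.Agent.S15

open ModularCurve AlgebraicCurve
open Fermat.Agent.S24 Fermat.Agent.ES.M Fermat.Agent.W1

/-- the reduction package needed by LOCDIV: `ModPR` + Gauss compatibility + (S18-J1) -/
structure LdPkg (N : ℕ) [NeZero N] (A : ValuationSubring Kb) (g : ℕ)
    (R : PRData Kb (FF N) (kA A) ↥(modularFunctionFieldFullC (kA A) N) A) : Prop where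
  modPR : ModPR N A g R (jF N)
  mem_iff : ∀ x : FF N, x ∈ R.O ↔ GaussInt N A x
  red_spec : ∀ x : R.O, GaussRed N A (x : FF N)
    ((R.red x : ↥(modularFunctionFieldFullC (kA A) N)) : LaurentSeries (kA A))
  tf : ∀ m : ℕ, (m : Kb) ∉ A.nonunits → ∀ y : JZero N, y ∈ R.J1 → m • y = 0 → y = 0

/-- **GEO-PR + S18-J1**: the package exists. -/
def StmtLdPkg : Prop :=
  ∀ (N : ℕ) [NeZero N] (ℓ : ℕ), ℓ.Prime → ¬ ℓ ∣ N → (5 ≤ ℓ ∨ (5 - ℓ) ∣ N) →
    ∀ A : ValuationSubring Kb, A.LiesOverPrime ℓ →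
      ∃ (g : ℕ) (R : PRData Kb (FF N) (kA A) ↥(modularFunctionFieldFullC (kA A) N) A),
        LdPkg N A g R

end Fermat.Agent.S15

end
end ZBZ2S15_002_23
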