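/- GENERATED FILE (helper35, build-time optimisation, NOTES/ZB.md): verbatim concatenation of the modules
   Fermat.Agent.S15.N3FForm
   Fermat.Agent.S15.N3FQ
   Do not edit; do not import together with these modules. -/
import Fermat.Agent.ZB.Z2S15_002
import Fermat.Agent.ZB.S20_001

/-! ### bundled: `Fermat.Agent.S15.N3FForm` -/
section ZBZ2S15_011_0

/-!
# S15 / N3-F (helper71), part 1: the weight `6` functions `(℘'((aτ+b)/N)/(2πi)³)²`

`R_{a,b} = n3fR N a b := 4 P³ − E₄ P / 12 + E₆ / 216`, `P = P_{a,b} = mfrP N a b`; then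
`R_{a,b} · (2πi)⁶ = ℘'((aτ+b)/N; τ)²` (`n3fR_eq`), `R_{a,b}(γτ) = (cτ+d)⁶ R_{(a,b)γ}(τ)`,
`R_{0,k}(τ) ≠ 0` for `N` odd, `0 < k < N` (`n3fR_ne_zero`).

`n3fG N = ∏_{k=1}^{N-1} R_{0,k}²` is a modular form of weight `12 (N − 1)` on `Γ₀(N)` without
zeros on `ℍ` (`isMF_n3fG`), and `n3fH N = N¹² Δ(Nτ) n3fG / Δ(τ)^N` is a holomorphic modular function
of level `N` without zeros (`isModFun_n3fH`, `n3fH_ne_zero`).

The main theorem of N3-F, `n3fH = 1`, is in `N3FMain.lean`.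
-/

set_option autoImplicit false
set_option linter.unusedSectionVars false
set_option linter.unusedVariables false
set_option linter.style.longLine false
set_option linter.unusedSimpArgs false

noncomputable section

namespace Fermat.Agent.S15

open UpperHalfPlane PeriodPair Complex Filter Topology ModularForm EisensteinSeries
open CongruenceSubgroup
open Fermat.Agent.S23 Fermat.Agent.S24 Fermat.Agent.S28 Fermat.Agent.ES.I2
open scoped Real MatrixGroups Manifold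

local notation "Δ" => ModularForm.discriminant

/-! ### zeros of `℘'` -/

theorem n3f_some_congr {W : WeierstrassCurve ℂ} {x y x' y' : ℂ}
    (h : W.toAffine.Nonsingular x y) (h' : W.toAffine.Nonsingular x' y') (hx : x = x')
    (hy : y = y') : (WeierstrassCurve.Affine.Point.some x y h : W.toAffine.Point) =
      WeierstrassCurve.Affine.Point.some x' y' h' := by
  subst hx
  subst hy
  rfl

/-- `℘'(z) = 0` only at the points of order `2`. -/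
theorem n3f_deriv_ne_zero (L : PeriodPair) (hΔ : L.g₂ ^ 3 - 27 * L.g₃ ^ 2 ≠ 0) {z : ℂ}
    (hz : z ∉ L.lattice) (h2 : z + z ∉ L.lattice) : ℘'[L] z ≠ 0 := by
  intro h0
  obtain ⟨θ, hker, -, hθ⟩ := stmtModAdd L hΔ
  have hnz : -z ∉ L.lattice := fun h => hz (by simpa using L.lattice.neg_mem h)
  obtain ⟨h1, e1⟩ := hθ z hz
  obtain ⟨h1', e1'⟩ := hθ (-z) hnz
  have e : θ (-z) = θ z := by
    rw [e1, e1']
    apply n3f_some_congr
    · exact L.weierstrassP_neg z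
    · rw [L.derivWeierstrassP_neg, h0, neg_zero]
  have e2 : θ (z + z) = 0 := by
    rw [map_add]
    nth_rewrite 2 [← e]
    rw [map_neg, add_neg_cancel]
  exact h2 ((hker _).1 e2)

/-! ### the functions `R_{a,b}` -/

/-- `(℘'((aτ+b)/N)/(2πi)³)² = 4 P³ − E₄ P / 12 + E₆ / 216` -/
def n3fR (N : ℕ) (a b : ℤ) (τ : ℍ) : ℂ :=
  4 * mfrP N a b τ ^ 3 - E₄ τ * mfrP N a b τ / 12 + E₆ τ / 216

theorem n3f_two_pi_I_ne : (2 * (π : ℂ) * Complex.I) ≠ 0 :=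
  mul_ne_zero (mul_ne_zero two_ne_zero (by exact_mod_cast Real.pi_ne_zero)) Complex.I_ne_zero

theorem n3fR_eq (N : ℕ) [NeZero N] (a b : ℤ) (hab : ¬ ((N : ℤ) ∣ a ∧ (N : ℤ) ∣ b)) (τ : ℍ) :
    n3fR N a b τ * (2 * π * Complex.I) ^ 6 =
      ℘'[modLat τ] (((a : ℂ) * τ + (b : ℂ)) / (N : ℂ)) ^ 2 := by
  have hz := mfr_notMem_lattice N a b hab τ
  rw [(modLat τ).derivWeierstrassP_sq _ hz, modunif_g₂_tau, modunif_g₃_tau]
  have hP : ℘[modLat τ] (((a : ℂ) * τ + (b : ℂ)) / (N : ℂ)) =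
      mfrP N a b τ * (2 * π * Complex.I) ^ 2 := by
    unfold mfrP
    rw [div_mul_cancel₀ _ (pow_ne_zero 2 n3f_two_pi_I_ne)]
  rw [hP]
  unfold n3fR
  have hI2 : Complex.I ^ 2 = -1 := Complex.I_sq
  have hI4 : Complex.I ^ 4 = 1 := by rw [show (4 : ℕ) = 2 * 2 by norm_num, pow_mul, hI2]; norm_num
  have hI6 : Complex.I ^ 6 = -1 := by
    rw [show (6 : ℕ) = 2 * 3 by norm_num, pow_mul, hI2]; norm_num
  have e6 : (2 * (π : ℂ) * Complex.I) ^ 6 = -(64 * (π : ℂ) ^ 6) := by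
    rw [mul_pow, mul_pow, hI6]; ring
  have e2 : (2 * (π : ℂ) * Complex.I) ^ 2 = -(4 * (π : ℂ) ^ 2) := by
    rw [mul_pow, mul_pow, hI2]; ring
  rw [e6, e2]
  ring

theorem n3fR_ne_zero (N : ℕ) [NeZero N] (hN : N.Prime) (hodd : N ≠ 2) (k : ℕ)
    (hk : k ∈ Finset.Ico 1 N) (τ : ℍ) : n3fR N 0 (k : ℤ) τ ≠ 0 := by
  intro h0
  have hab := mfr_not_dvd_zero hk
  have h1 := n3fR_eq N 0 (k : ℤ) hab τ
  rw [h0, zero_mul] at h1
  have h2 : ℘'[modLat τ] ((((0 : ℤ) : ℂ) * τ + ((k : ℤ) : ℂ)) / (N : ℂ)) = 0 :=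
    pow_eq_zero_iff (two_ne_zero) |>.1 h1.symm
  refine n3f_deriv_ne_zero (modLat τ) (modunif_disc_ne_zero τ) (mfr_notMem_lattice N 0 k hab τ) ?_ h2
  have hab2 : ¬ ((N : ℤ) ∣ 0 ∧ (N : ℤ) ∣ (2 * k : ℤ)) := by
    rintro ⟨-, h⟩
    have hp : Prime (N : ℤ) := Nat.prime_iff_prime_int.mp hN
    rcases hp.dvd_or_dvd h with h3 | h3
    · have h4 : N ∣ 2 := by exact_mod_cast h3
      have := (Nat.prime_dvd_prime_iff_eq hN Nat.prime_two).1 h4
      exact hodd this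
    · exact hab ⟨dvd_zero _, h3⟩
  have h3 := mfr_notMem_lattice N 0 (2 * k) hab2 τ
  have e : (((0 : ℤ) : ℂ) * τ + ((k : ℤ) : ℂ)) / (N : ℂ) +
      (((0 : ℤ) : ℂ) * τ + ((k : ℤ) : ℂ)) / (N : ℂ) =
      (((0 : ℤ) : ℂ) * τ + ((2 * k : ℤ) : ℂ)) / (N : ℂ) := by
    push_cast
    ring
  rw [e]
  exact h3

theorem n3fR_smul (N : ℕ) (a b : ℤ) (γ : SL(2, ℤ)) (τ : ℍ) :
    n3fR N a b (γ • τ) = ((γ 1 0 : ℂ) * τ + (γ 1 1 : ℂ)) ^ 6 *
      n3fR N (a * γ 0 0 + b * γ 1 0) (a * γ 0 1 + b * γ 1 1) τ := by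
  unfold n3fR
  rw [mfr_E4_smul, mfr_E6_smul, mfrP_smul]
  ring

theorem n3fR_congr (N : ℕ) [NeZero N] {a a' b b' : ℤ} (ha : a ≡ a' [ZMOD N])
    (hb : b ≡ b' [ZMOD N]) (τ : ℍ) : n3fR N a b τ = n3fR N a' b' τ := by
  unfold n3fR
  rw [mfrP_congr N ha hb]

theorem n3fR_fun_eq (N : ℕ) (a b : ℤ) :
    n3fR N a b = (fun _ : ℍ => (4 : ℂ)) * (mfrP N a b * (mfrP N a b * mfrP N a b)) +
      (fun _ : ℍ => (-(1 / 12) : ℂ)) * ((E₄ : ℍ → ℂ) * mfrP N a b) +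
      (fun _ : ℍ => ((1 / 216) : ℂ)) * (E₆ : ℍ → ℂ) := by
  funext τ
  simp only [n3fR, Pi.add_apply, Pi.mul_apply]
  ring

theorem n3fR_isBoundedAtImInfty (N : ℕ) [NeZero N] (a b : ℤ)
    (hab : ¬ ((N : ℤ) ∣ a ∧ (N : ℤ) ∣ b)) : IsBoundedAtImInfty (n3fR N a b) := by
  have hP := mfrP_isBoundedAtImInfty N a b hab
  have hc : ∀ c : ℂ, IsBoundedAtImInfty (fun _ : ℍ => c) := fun c =>
    Filter.const_boundedAtFilter _ _
  rw [n3fR_fun_eq]
  exact (((hc 4).mul (hP.mul (hP.mul hP))).add ((hc _).mul (mfr_isBdd_E4.mul hP))).add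
    ((hc _).mul mfr_isBdd_E6)

theorem n3fR_mdiff (N : ℕ) [NeZero N] (a b : ℤ)
    (hab : ¬ ((N : ℤ) ∣ a ∧ (N : ℤ) ∣ b)) : MDiff (n3fR N a b) := by
  have hP := mfrP_mdiff N a b hab
  have h4 : MDiff (E₄ : ℍ → ℂ) := ModularFormClass.holo E₄
  have h6 : MDiff (E₆ : ℍ → ℂ) := ModularFormClass.holo E₆
  have hc : ∀ c : ℂ, MDiff (fun _ : ℍ => c) := fun c => mdifferentiable_const
  rw [n3fR_fun_eq]
  exact (((hc 4).mul (hP.mul (hP.mul hP))).add ((hc _).mul (h4.mul hP))).add ((hc _).mul h6)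

/-! ### products over `k = 1, …, N − 1` are modular forms -/

/-- a family `W_{a,b}` of weight `κ` which transforms like the `N`-division values gives a
modular form `∏_k W_{0,k}` of weight `κ (N − 1)` on `Γ₀(N)` -/
theorem n3f_isMF_prod (N : ℕ) [NeZero N] (hN : N.Prime) (κ : ℕ) (W : ℤ → ℤ → ℍ → ℂ)
    (hsmul : ∀ (a b : ℤ) (γ : SL(2, ℤ)) (τ : ℍ), W a b (γ • τ) =
      ((γ 1 0 : ℂ) * τ + (γ 1 1 : ℂ)) ^ κ *
        W (a * γ 0 0 + b * γ 1 0) (a * γ 0 1 + b * γ 1 1) τ)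
    (hcongr : ∀ (a a' b b' : ℤ), a ≡ a' [ZMOD N] → b ≡ b' [ZMOD N] → ∀ τ, W a b τ = W a' b' τ)
    (hbdd : ∀ a b : ℤ, ¬ ((N : ℤ) ∣ a ∧ (N : ℤ) ∣ b) → IsBoundedAtImInfty (W a b))
    (hmd : ∀ a b : ℤ, ¬ ((N : ℤ) ∣ a ∧ (N : ℤ) ∣ b) → MDiff (W a b)) :
    IsMF (G0 N) (((κ * (N - 1) : ℕ) : ℤ)) (fun τ => ∏ k ∈ Finset.Ico 1 N, W 0 (k : ℤ) τ) := by
  have hsm : ∀ (γ : SL(2, ℤ)) (τ : ℍ), (∏ k ∈ Finset.Ico 1 N, W 0 (k : ℤ) (γ • τ)) =
      ((γ 1 0 : ℂ) * τ + (γ 1 1 : ℂ)) ^ (κ * (N - 1)) *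
        ∏ k ∈ Finset.Ico 1 N, W ((k : ℤ) * γ 1 0) ((k : ℤ) * γ 1 1) τ := by
    intro γ τ
    have h : ∀ k ∈ Finset.Ico 1 N, W 0 (k : ℤ) (γ • τ) =
        ((γ 1 0 : ℂ) * τ + (γ 1 1 : ℂ)) ^ κ * W ((k : ℤ) * γ 1 0) ((k : ℤ) * γ 1 1) τ := by
      intro k _
      rw [hsmul]
      congr 2 <;> ring
    rw [Finset.prod_congr rfl h, Finset.prod_mul_distrib, Finset.prod_const, Nat.card_Ico,
      ← pow_mul]
  have hG0 : ∀ (γ : SL(2, ℤ)) (hγ : γ ∈ Gamma0 N) (τ : ℍ),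
      ∏ k ∈ Finset.Ico 1 N, W ((k : ℤ) * γ 1 0) ((k : ℤ) * γ 1 1) τ =
        ∏ k ∈ Finset.Ico 1 N, W 0 (k : ℤ) τ := by
    intro γ hγ τ
    have hc : ((γ 1 0 : ℤ) : ZMod N) = 0 := Gamma0_mem.mp hγ
    have hdvd : (N : ℤ) ∣ γ 1 0 := (ZMod.intCast_zmod_eq_zero_iff_dvd _ _).mp hc
    have h1 : ∀ k ∈ Finset.Ico 1 N, W ((k : ℤ) * γ 1 0) ((k : ℤ) * γ 1 1) τ =
        (fun x : ℤ => W 0 x τ) ((k : ℤ) * γ 1 1) := by
      intro k _
      exact hcongr _ _ _ _ (Int.modEq_zero_iff_dvd.mpr (Dvd.dvd.mul_left hdvd _))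
        (Int.ModEq.refl _) τ
    rw [Finset.prod_congr rfl h1]
    exact mfr_prod_reindex N (fun x : ℤ => W 0 x τ)
      (fun x y hxy => hcongr _ _ _ _ (Int.ModEq.refl _) hxy τ) (γ 1 1)
      (mfr_isUnit_of_mem_Gamma0 N γ hγ)
  refine ⟨{ toFun := fun τ => ∏ k ∈ Finset.Ico 1 N, W 0 (k : ℤ) τ
            slash_action_eq' := ?_
            holo' := mfr_mdiff_prod (Finset.Ico 1 N) (fun (k : ℕ) => W 0 (k : ℤ))
              fun k hk => hmd 0 k (mfr_not_dvd_zero hk)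
            bdd_at_cusps' := ?_ }, rfl⟩
  · rintro _ ⟨γ, hγ, rfl⟩
    change (fun τ => ∏ k ∈ Finset.Ico 1 N, W 0 (k : ℤ) τ) ∣[(((κ * (N - 1) : ℕ) : ℤ))] γ = _
    apply mfr_slash_of_smul (F := fun τ => ∏ k ∈ Finset.Ico 1 N, W 0 (k : ℤ) τ)
    intro τ
    show (∏ k ∈ Finset.Ico 1 N, W 0 (k : ℤ) (γ • τ)) = _
    rw [hsm, hG0 γ hγ]
  · intro c hc
    rw [Subgroup.IsArithmetic.isCusp_iff_isCusp_SL2Z] at hc
    rw [OnePoint.isBoundedAt_iff_forall_SL2Z hc]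
    intro δ _
    have h := mfr_slash_of_smul (F := fun τ => ∏ k ∈ Finset.Ico 1 N, W 0 (k : ℤ) τ)
      (G := fun τ => ∏ k ∈ Finset.Ico 1 N, W ((k : ℤ) * δ 1 0) ((k : ℤ) * δ 1 1) τ)
      (k := κ * (N - 1)) δ (hsm δ)
    rw [h]
    exact mfr_isBdd_prod _ _ fun _ hk => hbdd _ _ (mfr_not_dvd_pair hN δ hk)

/-! ### the form `G = ∏_k R_{0,k}²` and the function `H = N¹² Δ(Nτ) G / Δ(τ)^N` -/

/-- `G = ∏_{k=1}^{N-1} R_{0,k}²` -/
def n3fG (N : ℕ) (τ : ℍ) : ℂ := ∏ k ∈ Finset.Ico 1 N, n3fR N 0 (k : ℤ) τ ^ 2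

theorem isMF_n3fG (N : ℕ) [NeZero N] (hN : N.Prime) :
    IsMF (G0 N) (12 * ((N - 1 : ℕ) : ℤ)) (n3fG N) := by
  have h := n3f_isMF_prod N hN 12 (fun a b τ => n3fR N a b τ ^ 2)
    (fun a b γ τ => by
      show n3fR N a b (γ • τ) ^ 2 = _
      rw [n3fR_smul, mul_pow, ← pow_mul])
    (fun a a' b b' ha hb τ => by
      show n3fR N a b τ ^ 2 = n3fR N a' b' τ ^ 2
      rw [n3fR_congr N ha hb])
    (fun a b hab => by
      have h := (n3fR_isBoundedAtImInfty N a b hab).mul (n3fR_isBoundedAtImInfty N a b hab)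
      have e : (fun τ => n3fR N a b τ ^ 2) = n3fR N a b * n3fR N a b := by
        funext τ
        simp only [Pi.mul_apply]
        ring
      rw [e]
      exact h)
    (fun a b hab => by
      have h := (n3fR_mdiff N a b hab).mul (n3fR_mdiff N a b hab)
      have e : (fun τ => n3fR N a b τ ^ 2) = n3fR N a b * n3fR N a b := by
        funext τ
        simp only [Pi.mul_apply]
        ring
      rw [e]
      exact h)
  exact h.of_weight_eq (by push_cast; ring)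

theorem n3fG_ne_zero (N : ℕ) [NeZero N] (hN : N.Prime) (hodd : N ≠ 2) (τ : ℍ) : n3fG N τ ≠ 0 :=
  Finset.prod_ne_zero_iff.2 fun k hk => pow_ne_zero 2 (n3fR_ne_zero N hN hodd k hk τ)

/-- `Δ(Nτ)` is a modular form of weight `12` on `Γ₀(N)` -/
theorem isMF_n3f_deltaN (N : ℕ) [NeZero N] : IsMF (G0 N) 12 (fun z => Δ (scaleN N z)) := by
  have := isMF_comp_scaleN N ((CuspForm.discriminant : CuspForm 𝒮ℒ 12) : ModularForm 𝒮ℒ 12)
  convert this using 1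
  ext z
  exact (congrFun CuspForm.coe_discriminant (scaleN N z)).symm

/-- `H = N¹² Δ(Nτ) ∏_k R_{0,k}² / Δ(τ)^N` -/
def n3fH (N : ℕ) [NeZero N] (τ : ℍ) : ℂ :=
  (N : ℂ) ^ 12 * (Δ (scaleN N τ) * n3fG N τ) / Δ τ ^ N

theorem isModFun_n3fH (N : ℕ) [NeZero N] (hN : N.Prime) : IsModFun N (n3fH N) := by
  have h1 := ((isMF_n3f_deltaN N).mul (isMF_n3fG N hN)).const_smul ((N : ℂ) ^ 12)
  have h2 := h1.of_weight_eq (show (12 : ℤ) + 12 * ((N - 1 : ℕ) : ℤ) = 12 * (N : ℤ) by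
    have := hN.one_le
    push_cast [Nat.cast_sub this]
    ring)
  have h3 := isModFun_div h2
  convert h3 using 1
  funext z
  simp only [n3fH, Pi.smul_apply, Pi.mul_apply, smul_eq_mul]

theorem n3fH_ne_zero (N : ℕ) [NeZero N] (hN : N.Prime) (hodd : N ≠ 2) (τ : ℍ) :
    n3fH N τ ≠ 0 := by
  unfold n3fH
  refine div_ne_zero (mul_ne_zero (pow_ne_zero _ (Nat.cast_ne_zero.2 (NeZero.ne N)))
    (mul_ne_zero (discriminant_ne_zero _) (n3fG_ne_zero N hN hodd τ)))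
    (pow_ne_zero _ (discriminant_ne_zero τ))

/-! ### the `q`-expansion of `G` -/

/-- the formal factor `4 S³ − E₄ S / 12 + E₆ / 216`, `S = 1/12 + mfrSeries u` -/
def n3fRS (u : ℂ) : PowerSeries ℂ :=
  PowerSeries.C (4 : ℂ) * (PowerSeries.C (1 / 12 : ℂ) + mfrSeries u) ^ 3 -
    PowerSeries.C (1 / 12 : ℂ) * PowerSeries.map (Int.castRingHom ℂ) ModularCurve.eisenstein4 *
      (PowerSeries.C (1 / 12 : ℂ) + mfrSeries u) +
    PowerSeries.C (1 / 216 : ℂ) * PowerSeries.map (Int.castRingHom ℂ) mfE6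

/-- **N3F-Q** (formal; Mathlib + `mfrSeries`): the product `∏_k (4 S_k³ − E₄ S_k/12 + E₆/216)²`,
`S_k = 1/12 + mfrSeries ζ_N^k`, has rational coefficients and constant term `N⁻¹²`.
(`Aut(ℂ)` permutes the `ζ^k`; at `q = 0` the factor is `(u(1+u)/(1−u)³)²`,
`∏ (1 − ζ^k) = N`, `∏ (1 + ζ^k) = 1`, `(∏ ζ^k)² = 1`.) -/
def StmtN3FQ : Prop :=
  ∀ (N : ℕ), N.Prime → N ≠ 2 →
    ∃ Y : PowerSeries ℚ,
      Y.map (algebraMap ℚ ℂ) =
        ∏ k ∈ Finset.Ico 1 N,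
          n3fRS (Complex.exp (2 * Real.pi * Complex.I * ((k : ℂ) / (N : ℂ)))) ^ 2 ∧
      PowerSeries.constantCoeff Y * (N : ℚ) ^ 12 = 1

theorem n3fR_isHPB (N : ℕ) [NeZero N] (k : ℤ) (hk : ¬ (N : ℤ) ∣ k) : IsHPB (n3fR N 0 k) := by
  have hP := mfrP_zero_isHPB N k hk
  have hc : ∀ c : ℂ, IsHPB (fun _ : ℍ => c) := fun c => qring_isHPB_const c
  rw [n3fR_fun_eq]
  exact (((hc 4).mul (hP.mul (hP.mul hP))).add ((hc _).mul (bridge_isHPB_E4.mul hP))).add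
    ((hc _).mul mfr_isHPB_E6)

open Fermat.Agent.INJ.HM in
theorem n3f_qExp_R (N : ℕ) [NeZero N] (k : ℤ) (hk : ¬ (N : ℤ) ∣ k) :
    qExpansion 1 (n3fR N 0 k) = n3fRS (mfrUu N 0 k 0) := by
  have hP := mfrP_zero_isHPB N k hk
  have hc : ∀ c : ℂ, IsHPB (fun _ : ℍ => c) := fun c => qring_isHPB_const c
  have hPP := hP.mul hP
  have hPPP := hP.mul hPP
  have h4P := bridge_isHPB_E4.mul hP
  rw [n3fR_fun_eq,
    qExpansion_add (((hc 4).mul hPPP).add ((hc _).mul h4P)).analyticAt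
      ((hc (1 / 216)).mul mfr_isHPB_E6).analyticAt,
    qExpansion_add ((hc 4).mul hPPP).analyticAt ((hc (-(1 / 12))).mul h4P).analyticAt,
    qExpansion_mul (hc 4).analyticAt hPPP.analyticAt,
    qExpansion_mul hP.analyticAt hPP.analyticAt,
    qExpansion_mul hP.analyticAt hP.analyticAt,
    qExpansion_mul (hc (-(1 / 12))).analyticAt h4P.analyticAt,
    qExpansion_mul bridge_isHPB_E4.analyticAt hP.analyticAt,
    qExpansion_mul (hc (1 / 216)).analyticAt mfr_isHPB_E6.analyticAt,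
    mfr_qExp_const, mfr_qExp_const, mfr_qExp_const, mf_qExp_E6, hm_qExp_E4,
    mfrP_zero_qExpansion N k hk]
  unfold n3fRS
  rw [map_neg]
  ring

theorem n3fG_isHPB (N : ℕ) [NeZero N] : IsHPB (n3fG N) :=
  (mfr_qExp_prod (Finset.Ico 1 N) (fun k : ℕ => fun τ => n3fR N 0 (k : ℤ) τ ^ 2)
    (fun k hk => bridge_isHPB_pow (n3fR_isHPB N k (mfr_not_dvd_of_mem hk)) 2)).1

theorem n3f_qExp_G (N : ℕ) [NeZero N] :
    qExpansion 1 (n3fG N) = ∏ k ∈ Finset.Ico 1 N,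
      n3fRS (Complex.exp (2 * Real.pi * Complex.I * ((k : ℂ) / (N : ℂ)))) ^ 2 := by
  have h := (mfr_qExp_prod (Finset.Ico 1 N) (fun k : ℕ => fun τ => n3fR N 0 (k : ℤ) τ ^ 2)
    (fun k hk => bridge_isHPB_pow (n3fR_isHPB N k (mfr_not_dvd_of_mem hk)) 2)).2
  have e : n3fG N = fun τ => ∏ k ∈ Finset.Ico 1 N, n3fR N 0 (k : ℤ) τ ^ 2 := rfl
  rw [e, h]
  refine Finset.prod_congr rfl fun k hk => ?_
  have hR := n3fR_isHPB N k (mfr_not_dvd_of_mem hk)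
  have e2 : (fun τ => n3fR N 0 (k : ℤ) τ ^ 2) = n3fR N 0 (k : ℤ) * n3fR N 0 (k : ℤ) := by
    funext τ
    simp only [Pi.mul_apply]
    ring
  rw [e2, qExpansion_mul hR.analyticAt hR.analyticAt, n3f_qExp_R N k (mfr_not_dvd_of_mem hk),
    mfrUu_eq_exp, pow_two]

end Fermat.Agent.S15

end
end ZBZ2S15_011_0

/-! ### bundled: `Fermat.Agent.S15.N3FQ` -/
section ZBZ2S15_011_1

/-!
# S15 / N3F-Q (helper56): the formal product `∏_k (4 S_k³ − E₄ S_k / 12 + E₆ / 216)²`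

`S_k = 1/12 + mfrSeries ζ_N^k`.  The product has rational coefficients (it is fixed by `Aut ℂ`,
which permutes the primitive `N`-th roots of unity) and constant term `N⁻¹²`
(at `q = 0` the factor is `(u (1 + u) / (1 − u)³)²`, `∏ (1 − μ) = N`, `∏ (1 + μ) = 1`,
`(∏ μ)² = 1`).
-/

set_option autoImplicit false
set_option linter.unusedSectionVars false
set_option linter.unusedVariables false
set_option linter.style.longLine false
set_option linter.unusedSimpArgs false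

noncomputable section

namespace Fermat.Agent.S15

open Complex Polynomial
open Fermat.Agent.ES.I2

/-- `Aut ℂ` acts on the factor through its action on `u` -/
theorem n3fq_map_RS (σ : ℂ ≃+* ℂ) (u : ℂ) :
    PowerSeries.map (σ : ℂ →+* ℂ) (n3fRS u) = n3fRS (σ u) := by
  unfold n3fRS
  rw [map_add, map_sub, map_mul, map_mul, map_mul, map_mul, map_pow, map_add,
    mfrrat_map_int, mfrrat_map_int, mfrrat_map_series, PowerSeries.map_C, PowerSeries.map_C,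
    PowerSeries.map_C]
  have h4 : (σ : ℂ →+* ℂ) 4 = 4 := map_ofNat σ 4
  have h12 : (σ : ℂ →+* ℂ) (1 / 12) = 1 / 12 := by
    rw [map_div₀, map_one]
    congr 1
    exact map_ofNat σ 12
  have h216 : (σ : ℂ →+* ℂ) (1 / 216) = 1 / 216 := by
    rw [map_div₀, map_one]
    congr 1
    exact map_ofNat σ 216
  rw [h4, h12, h216]

/-- the coefficients of the product are rational -/
theorem n3fq_coeff_rat (N : ℕ) (hN : N.Prime) (e : ℕ) :
    ∃ r : ℚ, PowerSeries.coeff e (∏ μ ∈ primitiveRoots N ℂ, n3fRS μ ^ 2) = (r : ℂ) := by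
  have hfix : ∀ σ : ℂ ≃+* ℂ,
      σ (PowerSeries.coeff e (∏ μ ∈ primitiveRoots N ℂ, n3fRS μ ^ 2))
        = PowerSeries.coeff e (∏ μ ∈ primitiveRoots N ℂ, n3fRS μ ^ 2) := by
    intro σ
    have h1 : PowerSeries.map (σ : ℂ →+* ℂ) (∏ μ ∈ primitiveRoots N ℂ, n3fRS μ ^ 2)
        = ∏ μ ∈ primitiveRoots N ℂ, n3fRS μ ^ 2 := by
      rw [map_prod]
      simp_rw [map_pow, n3fq_map_RS]
      exact mfrrat_prod_aut N hN (fun u => n3fRS u ^ 2) σ
    have h2 := congrArg (PowerSeries.coeff e) h1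
    rw [PowerSeries.coeff_map] at h2
    exact h2
  exact Fermat.Agent.S23.descent_exists_rat_of_fixed _ hfix

/-- the constant term of the factor -/
theorem n3fq_const (u : ℂ) (hu : 1 - u ≠ 0) :
    PowerSeries.constantCoeff (n3fRS u) = (u * (1 + u) / (1 - u) ^ 3) ^ 2 := by
  have hS : PowerSeries.constantCoeff (mfrSeries u) = u / (1 - u) ^ 2 := by
    rw [← PowerSeries.coeff_zero_eq_constantCoeff_apply, mfrSeries, PowerSeries.coeff_mk]
    simp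
  have h4 : PowerSeries.constantCoeff
      (PowerSeries.map (Int.castRingHom ℂ) ModularCurve.eisenstein4) = 1 := by
    rw [← PowerSeries.coeff_zero_eq_constantCoeff_apply, PowerSeries.coeff_map,
      PowerSeries.coeff_zero_eq_constantCoeff_apply, ModularCurve.constantCoeff_eisenstein4]
    simp
  have h6 : PowerSeries.constantCoeff (PowerSeries.map (Int.castRingHom ℂ) mfE6) = 1 := by
    rw [← PowerSeries.coeff_zero_eq_constantCoeff_apply, PowerSeries.coeff_map,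
      PowerSeries.coeff_zero_eq_constantCoeff_apply, mfr_constantCoeff_mfE6]
    simp
  unfold n3fRS
  rw [map_add, map_sub, map_mul, map_mul, map_mul, map_mul, map_pow, map_add, hS, h4, h6,
    PowerSeries.constantCoeff_C, PowerSeries.constantCoeff_C, PowerSeries.constantCoeff_C]
  field_simp
  ring

/-- `∏ (1 + μ) = 1` for `N` an odd prime -/
theorem n3fq_prod_one_add (N : ℕ) (hN : N.Prime) (hodd : N ≠ 2) :
    ∏ μ ∈ primitiveRoots N ℂ, (1 + μ) = 1 := by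
  have : Fact N.Prime := ⟨hN⟩
  have hζ := Complex.isPrimitiveRoot_exp N hN.ne_zero
  have h1 := Polynomial.cyclotomic_eq_prod_X_sub_primitiveRoots hζ
  have hoddN : Odd N := hN.odd_of_ne_two hodd
  have h2 : (cyclotomic N ℂ).eval (-1) = 1 := by
    rw [Polynomial.cyclotomic_prime, Polynomial.eval_finsetSum]
    simp only [Polynomial.eval_pow, Polynomial.eval_X]
    have h3 := geom_sum_mul (-1 : ℂ) N
    rw [hoddN.neg_one_pow] at h3
    have h4 : (∑ i ∈ Finset.range N, (-1 : ℂ) ^ i) * (-2) = 1 * (-2) := by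
      rw [one_mul]
      have : (-1 : ℂ) - 1 = -2 := by norm_num
      rw [← this]
      exact h3
    exact mul_right_cancel₀ (by norm_num) h4
  rw [h1, Polynomial.eval_prod] at h2
  simp only [Polynomial.eval_sub, Polynomial.eval_X, Polynomial.eval_C] at h2
  have h5 : ∏ μ ∈ primitiveRoots N ℂ, (-1 - μ) = ∏ μ ∈ primitiveRoots N ℂ, (1 + μ) := by
    have e : ∀ μ : ℂ, -1 - μ = -(1 + μ) := fun μ => by ring
    simp_rw [e]
    rw [Finset.prod_neg, Complex.card_primitiveRoots, Nat.totient_prime hN]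
    have hev : Even (N - 1) := by
      obtain ⟨m, hm⟩ := hoddN
      exact ⟨m, by omega⟩
    rw [hev.neg_one_pow, one_mul]
  rw [← h5]
  exact h2

/-- **N3F-Q.** -/
theorem stmtN3FQ : StmtN3FQ := by
  intro N hN hodd
  have hP := mfrrat_prod_eq N hN (fun u => n3fRS u ^ 2)
  choose c hc using n3fq_coeff_rat N hN
  refine ⟨PowerSeries.mk c, ?_, ?_⟩
  · rw [hP]
    ext e
    rw [PowerSeries.coeff_map, PowerSeries.coeff_mk, hc e]
    rfl
  · have h0 := hc 0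
    rw [PowerSeries.coeff_zero_eq_constantCoeff_apply, map_prod] at h0
    have hne : ∀ μ ∈ primitiveRoots N ℂ, (1 : ℂ) - μ ≠ 0 := by
      intro μ hμ
      exact mfrrat_one_sub_ne hN hμ
    have h1 : ∏ μ ∈ primitiveRoots N ℂ, PowerSeries.constantCoeff (n3fRS μ ^ 2)
        = ∏ μ ∈ primitiveRoots N ℂ, ((μ * (1 + μ)) ^ 4 / ((1 - μ) ^ 12)) := by
      refine Finset.prod_congr rfl fun μ hμ => ?_
      rw [map_pow, n3fq_const μ (hne μ hμ)]
      have := hne μ hμ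
      field_simp
    rw [h1, Finset.prod_div_distrib, Finset.prod_pow, Finset.prod_pow, Finset.prod_mul_distrib,
      mfrrat_prod_one_sub N hN, n3fq_prod_one_add N hN hodd, mul_one] at h0
    have h2 : (∏ μ ∈ primitiveRoots N ℂ, μ) ^ 4 = 1 := by
      have := mfrrat_prod_root_sq N hN
      calc (∏ μ ∈ primitiveRoots N ℂ, μ) ^ 4 = ((∏ μ ∈ primitiveRoots N ℂ, μ) ^ 2) ^ 2 := by ring
        _ = 1 := by rw [this]; norm_num
    rw [h2] at h0
    have hN0 : (N : ℂ) ≠ 0 := Nat.cast_ne_zero.2 hN.ne_zero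
    have h3 : ((c 0 * (N : ℚ) ^ 12 : ℚ) : ℂ) = ((1 : ℚ) : ℂ) := by
      push_cast
      rw [← h0]
      field_simp
    have h4 : PowerSeries.constantCoeff (PowerSeries.mk c) = c 0 := by
      rw [← PowerSeries.coeff_zero_eq_constantCoeff_apply, PowerSeries.coeff_mk]
    rw [h4]
    exact_mod_cast h3

end Fermat.Agent.S15

end
end ZBZ2S15_011_1
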