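/- GENERATED FILE (helper35, build-time optimisation, NOTES/ZB.md): verbatim concatenation of the modules
   Fermat.Agent.W1.LevelUpGen
   Fermat.Agent.S15.LocDivPush
   Fermat.Agent.RT.K6.AuxAbs
   Do not edit; do not import together with these modules. -/
import Mathlib
import Fermat.Agent.ZB.ES_010
import Fermat.Agent.ZB.ES_007
import Fermat.Agent.ZB.STB_001
import Fermat.Agent.ZB.ES_020

/-! ### bundled: `Fermat.Agent.W1.LevelUpGen` -/
section ZBW1_004_0

/-!
# W1 GEO-LVL, generic part: pull-back of divisor classes along a finite map of function fields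

`F`, `F'` function fields over `K`, `φ : F →ₐ[K] F'` integral with the fundamental identity.

* `lvlPic0 φ hφ hFI : Pic0 K F →+ Pic0 K F'` — the pull-back `φ^*` on `Pic⁰`;
* `lvlPic0_smul` — equivariance for semilinear automorphisms intertwined by `φ`;
* `lvl_eq_zero_of_root` — the Kummer criterion of injectivity: if `p • x = 0`, `φ^* x = 0`, the
  functions of `F'` without zeros and poles are `p`-th powers, and the `p`-th roots in `F'` of the
  Kummer functions of `F` lie in `φ(F)`, then `x = 0`;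
* `lvl_eq_zero_of_torsion` — the same for `p`-power torsion.
-/

set_option autoImplicit false
set_option linter.style.haveILetI false
set_option linter.unusedSectionVars false

noncomputable section

namespace Fermat.Agent.W1

open AlgebraicCurve AlgebraicCurve.SemilinearAut Fermat.Agent.ES

section Generic

variable {K F F' : Type*} [Field K] [Field F] [Field F'] [Algebra K F] [Algebra K F']
  [HasPrincipalDivisors K F'] (φ : F →ₐ[K] F') (hφ : φ.toRingHom.IsIntegral)
  (hFI : FundamentalIdentityAlong K φ hφ)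

/-- pull-back on divisors of degree `0` -/
def lvlDegZero :
    Divisor.degZero (K := K) (F := F) →+ Divisor.degZero (K := K) (F := F') :=
  ((Divisor.pullbackAlong φ hφ).domRestrict
    (Divisor.degZero (K := K) (F := F))).codRestrict _
    (fun D => Divisor.pullbackAlong_mem_degZero φ hφ hFI D.2)

@[simp]
theorem coe_lvlDegZero (D : Divisor.degZero (K := K) (F := F)) :
    (lvlDegZero φ hφ hFI D : Divisor K F') = Divisor.pullbackAlong φ hφ (D : Divisor K F) :=
  rfl

/-- **the pull-back `φ^*` on `Pic⁰`** -/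
def lvlPic0 : Pic0 K F →+ Pic0 K F' :=
  QuotientAddGroup.map _ _ (lvlDegZero φ hφ hFI) (by
    rintro ⟨D, hD0⟩ hD
    simp only [AddSubgroup.mem_addSubgroupOf] at hD ⊢
    exact Divisor.isPrincipal_pullbackAlong φ hφ hD)

theorem lvlPic0_mk (D : Divisor.degZero (K := K) (F := F)) :
    lvlPic0 φ hφ hFI (Pic0.mk D) = Pic0.mk (lvlDegZero φ hφ hFI D) :=
  rfl

/-- the pull-back is equivariant for semilinear automorphisms intertwined by `φ` -/
theorem lvlPic0_smul {g : SemilinearAut K F} {g' : SemilinearAut K F'}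
    (h : IntertwinesAlong (φ : F →+* F') g g') (x : Pic0 K F) :
    lvlPic0 φ hφ hFI (g • x) = g' • lvlPic0 φ hφ hFI x := by
  obtain ⟨D, rfl⟩ := Pic0.mk_surjective x
  rw [SemilinearAut.pic0_smul_mk, lvlPic0_mk, lvlPic0_mk, SemilinearAut.pic0_smul_mk]
  refine congrArg Pic0.mk (Subtype.ext ?_)
  rw [coe_lvlDegZero, SemilinearAut.coe_degZeroSMulHom, SemilinearAut.coe_degZeroSMulHom,
    coe_lvlDegZero]
  exact pullbackAlong_smul φ hφ h (D : Divisor K F)

/-- the order of `φ u` at a place of `F'` when `n • D = div u` -/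
theorem lvl_ord_map_eq {n : ℕ} {D : Divisor K F} {u : F}
    (hD : ∀ v : Place K F, (n : ℤ) * D v = v.ord u) (w : Place K F') :
    w.ord (φ u) = (n : ℤ) * Divisor.pullbackAlong φ hφ D w := by
  letI := algebraAlong φ
  haveI := isScalarTower_along φ
  haveI := isIntegral_along φ hφ
  have h1 : Divisor.pullback F' ((n : ℤ) • D) w = w.ord (algebraMap F F' u) :=
    Divisor.pullback_apply_eq_ord (D := (n : ℤ) • D) (f := u) (fun v => by
      rw [Finsupp.smul_apply, smul_eq_mul]; exact hD v) w
  have h2 : Divisor.pullback F' ((n : ℤ) • D) w = (n : ℤ) * Divisor.pullback F' D w := by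
    rw [map_zsmul, Finsupp.smul_apply, smul_eq_mul]
  show w.ord (algebraMap F F' u) = (n : ℤ) * Divisor.pullback F' D w
  rw [← h1, h2]

/-- **Kummer criterion.**  Let `p • x = 0` and `φ^* x = 0`.  If the functions of `F'` without
zeros and poles are `p`-th powers and every `p`-th root in `F'` of a Kummer function `φ u`
(all orders of `u` divisible by `p`) lies in `φ(F)`, then `x = 0`. -/
theorem lvl_eq_zero_of_root {p : ℕ} (hp : p ≠ 0)
    (hconst : ∀ c : F', c ≠ 0 → (∀ w : Place K F', w.ord c = 0) → ∃ d : F', d ^ p = c)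
    (hroot : ∀ (u : F) (g : F'), u ≠ 0 → (∀ v : Place K F, (p : ℤ) ∣ v.ord u) →
      g ^ p = φ u → ∃ h : F, φ h = g)
    {x : Pic0 K F} (hx : p • x = 0) (hφx : lvlPic0 φ hφ hFI x = 0) : x = 0 := by
  obtain ⟨u, hK⟩ := exists_kummerRel hx
  obtain ⟨D, rfl, hu, hD⟩ := hK
  rw [lvlPic0_mk, pic0_mk_eq_zero_iff] at hφx
  obtain ⟨f, hf, hfD⟩ := hφx
  have hφu : φ u ≠ 0 := (map_ne_zero φ).mpr hu
  have hfp : f ^ p ≠ 0 := pow_ne_zero p hf
  -- `φ u / f ^ p` has no zeros and no poles
  have hc : ∀ w : Place K F', w.ord (φ u / f ^ p) = 0 := by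
    intro w
    have h1 := lvl_ord_map_eq φ hφ hD w
    have h2 : w.ord (f ^ p) = (p : ℤ) * w.ord f := by
      have := w.ord_zpow f (p : ℤ)
      rwa [zpow_natCast] at this
    have h3 : w.ord (φ u / f ^ p) = w.ord (φ u) - w.ord (f ^ p) := by
      rw [div_eq_mul_inv, w.ord_mul hφu (inv_ne_zero hfp), w.ord_inv]
      ring
    rw [h3, h1, h2, ← hfD w, coe_lvlDegZero]
    ring
  obtain ⟨d, hd⟩ := hconst (φ u / f ^ p) (div_ne_zero hφu hfp) hc
  have hg : (d * f) ^ p = φ u := by
    rw [mul_pow, hd, div_mul_cancel₀ _ hfp]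
  obtain ⟨h, hh⟩ := hroot u (d * f) hu (fun v => ⟨_, (hD v).symm⟩) hg
  have huh : u = h ^ p := by
    apply φ.toRingHom.injective
    show φ u = φ (h ^ p)
    rw [map_pow, hh, hg]
  have hK' : KummerRel p (Pic0.mk D) ((1 : F) * h ^ p) := by
    rw [one_mul, ← huh]
    exact ⟨D, rfl, hu, hD⟩
  exact hK'.eq_zero_of_pow hp (fun v => v.ord_one)

/-- the same for `p`-power torsion -/
theorem lvl_eq_zero_of_torsion {p : ℕ} (hp : p ≠ 0)
    (hconst : ∀ c : F', c ≠ 0 → (∀ w : Place K F', w.ord c = 0) → ∃ d : F', d ^ p = c)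
    (hroot : ∀ (u : F) (g : F'), u ≠ 0 → (∀ v : Place K F, (p : ℤ) ∣ v.ord u) →
      g ^ p = φ u → ∃ h : F, φ h = g)
    (x : Pic0 K F) (hx : ∃ n : ℕ, (p ^ n) • x = 0) (hφx : lvlPic0 φ hφ hFI x = 0) : x = 0 := by
  obtain ⟨n, hn⟩ := hx
  induction n generalizing x with
  | zero => simpa using hn
  | succ n ih =>
    have h1 : p • ((p ^ n) • x) = 0 := by
      rw [← mul_smul, ← pow_succ']
      exact hn
    have h2 : lvlPic0 φ hφ hFI ((p ^ n) • x) = 0 := by
      rw [map_nsmul, hφx, smul_zero]
    exact ih x hφx (lvl_eq_zero_of_root φ hφ hFI hp hconst hroot h1 h2)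

end Generic

end Fermat.Agent.W1

end
end ZBW1_004_0

/-! ### bundled: `Fermat.Agent.S15.LocDivPush` -/
section ZBW1_004_1

/-!
# S15 / LOCDIV, abstract part 3: `φ_* ∘ φ^* = deg φ` and the equivariance of `φ_*`

`φ : F → F'` a finite map of function fields over `K` (all places of degree one).

* `ld_push_pull_divisor` : `φ_* (φ^* D) = [F' : F] • D` on divisors;
* `ld_push_pull` : `φ_* (φ^* x) = [F' : F] • x` on `Pic⁰`;
* `ld_push_smul` : `φ_*` is equivariant for semilinear automorphisms intertwined by `φ`.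
-/

set_option autoImplicit false
set_option linter.unusedSectionVars false
set_option linter.style.haveILetI false

open AlgebraicCurve AlgebraicCurve.SemilinearAut Module

namespace Fermat.Agent.S15.LD

open Fermat.Agent.ES Fermat.Agent.W1 Fermat.Agent.STB

variable {K F F' : Type*} [Field K] [Field F] [Field F'] [Algebra K F] [Algebra K F']
  [HasPrincipalDivisors K F']

/-- `φ_* (φ^* D) = [F' : F] • D` -/
theorem ld_push_pull_divisor
    (hres : ∀ v : Place K F, Function.Bijective (algebraMap K v.ResidueField))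
    (hres' : ∀ v : Place K F', Function.Bijective (algebraMap K v.ResidueField))
    (φ : F →ₐ[K] F') (hφ : φ.toRingHom.IsIntegral) (hFI : FundamentalIdentityAlong K φ hφ)
    (D : Divisor K F) :
    Divisor.pushforwardAlong φ hφ (Divisor.pullbackAlong φ hφ D) = finrankAlong K φ • D := by
  classical
  letI := algebraAlong φ
  haveI := isScalarTower_along φ
  haveI := isIntegral_along φ hφ
  haveI : FundamentalIdentity K F F' := hFI
  induction D using Finsupp.induction with
  | zero => simp
  | single_add v n D _ _ ih =>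
    rw [map_add, map_add, ih, smul_add]
    congr 1
    rw [Divisor.pullbackAlong_single, map_sum]
    have h1 : ∀ W ∈ Place.fiberAlong φ hφ v,
        Divisor.pushforwardAlong φ hφ (Finsupp.single W (n * (W.ramificationIndexAlong φ : ℤ)))
          = Finsupp.single v (n * (W.ramificationIndexAlong φ : ℤ)) := by
      intro W hW
      rw [Divisor.pushforwardAlong_single, Place.mem_fiberAlong.mp hW]
      have hdeg : (W.restrict F).deg * W.inertiaDeg F = W.deg :=
        W.deg_restrict_mul_inertiaDeg (F := F)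
      rw [Fermat.Agent.ES.R.place_deg_eq_one W (hres' W), Fermat.Agent.ES.R.place_deg_eq_one _ (hres _), one_mul] at hdeg
      have : Place.inertiaDegAlong φ hφ W = 1 := hdeg
      rw [this]
      simp
    rw [Finset.sum_congr rfl h1, ← Finsupp.single_finsetSum, ← Finset.mul_sum]
    have h2 := FundamentalIdentity.sum_ramificationIndex_mul_deg (K := K) (F := F) (F' := F') v
    rw [Fermat.Agent.ES.R.place_deg_eq_one v (hres v)] at h2
    have h3 : ∑ W ∈ Place.fiberAlong φ hφ v, (W.ramificationIndexAlong φ : ℤ)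
        = (finrankAlong K φ : ℤ) := by
      have : ∑ w ∈ v.fiber F', (w.ramificationIndex F : ℤ) * (w.deg : ℤ)
          = ∑ w ∈ v.fiber F', (w.ramificationIndex F : ℤ) := by
        refine Finset.sum_congr rfl fun w _ => ?_
        rw [Fermat.Agent.ES.R.place_deg_eq_one w (hres' w)]
        simp
      rw [this] at h2
      have h4 : ∑ w ∈ v.fiber F', (w.ramificationIndex F : ℤ) = (Module.finrank F F' : ℤ) := by
        simpa using h2
      exact h4
    rw [h3, Finsupp.smul_single, nsmul_eq_mul, mul_comm]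

/-- `φ_* (φ^* x) = [F' : F] • x` on `Pic⁰` -/
theorem ld_push_pull
    (hres : ∀ v : Place K F, Function.Bijective (algebraMap K v.ResidueField))
    (hres' : ∀ v : Place K F', Function.Bijective (algebraMap K v.ResidueField))
    (φ : F →ₐ[K] F') (hφ : φ.toRingHom.IsIntegral) (hFI : FundamentalIdentityAlong K φ hφ)
    (hfin : FiniteAlong K φ) (hN : NormFormulaAlong K φ hfin) (x : Pic0 K F) :
    stbPush φ hφ hfin hN (lvlPic0 φ hφ hFI x) = finrankAlong K φ • x := by
  obtain ⟨D, rfl⟩ := Pic0.mk_surjective x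
  rw [lvlPic0_mk, stbPush_mk]
  have : finrankAlong K φ • Pic0.mk D = Pic0.mk (finrankAlong K φ • D) := rfl
  rw [this]
  refine congrArg Pic0.mk (Subtype.ext ?_)
  rw [coe_stbPushDegZero, coe_lvlDegZero, ld_push_pull_divisor hres hres' φ hφ hFI]
  rfl

/-- `φ_*` is equivariant -/
theorem ld_push_smul (φ : F →ₐ[K] F') (hφ : φ.toRingHom.IsIntegral)
    (hfin : FiniteAlong K φ) (hN : NormFormulaAlong K φ hfin)
    {g : SemilinearAut K F} {g' : SemilinearAut K F'}
    (h : IntertwinesAlong (φ : F →+* F') g g') (y : Pic0 K F') :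
    stbPush φ hφ hfin hN (g' • y) = g • stbPush φ hφ hfin hN y := by
  obtain ⟨D, rfl⟩ := Pic0.mk_surjective y
  rw [SemilinearAut.pic0_smul_mk, stbPush_mk, stbPush_mk, SemilinearAut.pic0_smul_mk]
  refine congrArg Pic0.mk (Subtype.ext ?_)
  rw [coe_stbPushDegZero, SemilinearAut.coe_degZeroSMulHom, SemilinearAut.coe_degZeroSMulHom,
    coe_stbPushDegZero]
  exact pushforwardAlong_smul φ hφ h (D : Divisor K F')

end Fermat.Agent.S15.LD


end ZBW1_004_1

/-! ### bundled: `Fermat.Agent.RT.K6.AuxAbs` -/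
section ZBW1_004_2

/-!
# RT-K6 / AUX, abstract part (helper94): descent of an operator identity on torsion classes
along a finite map of function fields of degree prime to the exponent

`φ : F → F'` a finite map of function fields over `K` (all places of degree one), `D = [F' : F]`,
`g, h` semilinear automorphisms of `F` and `g', h'` of `F'` intertwined by `φ`.

* `rtk6aux_pull_chi`  : `φ^*` commutes with the operator `(g − 1)(h g − 1)` (in the expanded form
  `g • h • g • x − g • x − h • g • x + x` of `RT/K6/Plan.lean`);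
* `rtk6aux_abs`       : if `(g' − 1)(h' g' − 1)` kills the `m`-torsion of `Pic⁰ F'` and `m` is prime
  to `D`, then `(g − 1)(h g − 1)` kills the `m`-torsion of `Pic⁰ F`
  (`D • z = φ_* φ^* z = 0` and `m • z = 0`).
-/

set_option autoImplicit false
set_option linter.unusedSectionVars false
set_option linter.style.haveILetI false

noncomputable section

open AlgebraicCurve AlgebraicCurve.SemilinearAut Module

namespace Fermat.Agent.RT.K6

open Fermat.Agent.ES Fermat.Agent.W1 Fermat.Agent.STB Fermat.Agent.S15.LD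

variable {K F F' : Type*} [Field K] [Field F] [Field F'] [Algebra K F] [Algebra K F']
  [HasPrincipalDivisors K F']

/-- the operator `(g − 1)(h g − 1)`, expanded -/
def rtk6auxChi (g h : SemilinearAut K F) (x : Pic0 K F) : Pic0 K F :=
  g • h • (g • x) - g • x - h • (g • x) + x

theorem rtk6aux_smul_nsmul (g : SemilinearAut K F) (m : ℕ) (x : Pic0 K F) :
    g • (m • x) = m • (g • x) :=
  map_nsmul (DistribSMul.toAddMonoidHom (Pic0 K F) g) m x

theorem rtk6auxChi_nsmul (g h : SemilinearAut K F) (m : ℕ) (x : Pic0 K F) :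
    rtk6auxChi g h (m • x) = m • rtk6auxChi g h x := by
  unfold rtk6auxChi
  rw [rtk6aux_smul_nsmul g, rtk6aux_smul_nsmul h, rtk6aux_smul_nsmul g, nsmul_add, nsmul_sub,
    nsmul_sub]

/-- `φ^*` commutes with `(g − 1)(h g − 1)` -/
theorem rtk6aux_pull_chi (φ : F →ₐ[K] F') (hφ : φ.toRingHom.IsIntegral)
    (hFI : FundamentalIdentityAlong K φ hφ)
    {g h : SemilinearAut K F} {g' h' : SemilinearAut K F'}
    (hg : IntertwinesAlong (φ : F →+* F') g g') (hh : IntertwinesAlong (φ : F →+* F') h h')
    (x : Pic0 K F) :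
    lvlPic0 φ hφ hFI (rtk6auxChi g h x) = rtk6auxChi g' h' (lvlPic0 φ hφ hFI x) := by
  unfold rtk6auxChi
  rw [map_add, map_sub, map_sub, lvlPic0_smul φ hφ hFI hg, lvlPic0_smul φ hφ hFI hh,
    lvlPic0_smul φ hφ hFI hg]

/-- **AUX, abstract**: descent of `(g − 1)(h g − 1) = 0` on `m`-torsion along a map of degree
prime to `m`. -/
theorem rtk6aux_abs
    (hres : ∀ v : Place K F, Function.Bijective (algebraMap K v.ResidueField))
    (hres' : ∀ v : Place K F', Function.Bijective (algebraMap K v.ResidueField))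
    (φ : F →ₐ[K] F') (hφ : φ.toRingHom.IsIntegral) (hFI : FundamentalIdentityAlong K φ hφ)
    (hfin : FiniteAlong K φ) (hN : NormFormulaAlong K φ hfin)
    {g h : SemilinearAut K F} {g' h' : SemilinearAut K F'}
    (hg : IntertwinesAlong (φ : F →+* F') g g') (hh : IntertwinesAlong (φ : F →+* F') h h')
    (m : ℕ) (hcop : Nat.Coprime m (finrankAlong K φ))
    (H' : ∀ y : Pic0 K F', m • y = 0 → rtk6auxChi g' h' y = 0)
    (x : Pic0 K F) (hx : m • x = 0) : rtk6auxChi g h x = 0 := by
  set z := rtk6auxChi g h x with hz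
  have hmz : m • z = 0 := by
    rw [hz, ← rtk6auxChi_nsmul, hx]
    have h0 := rtk6auxChi_nsmul g h 0 x
    rwa [zero_nsmul, zero_nsmul] at h0
  have hpull : lvlPic0 φ hφ hFI z = 0 := by
    rw [hz, rtk6aux_pull_chi φ hφ hFI hg hh]
    apply H'
    rw [← map_nsmul, hx, map_zero]
  have hD : finrankAlong K φ • z = 0 := by
    rw [← ld_push_pull hres hres' φ hφ hFI hfin hN z, hpull, map_zero]
  -- Bezout
  have hb := Nat.gcd_eq_gcd_ab m (finrankAlong K φ)
  rw [hcop.gcd_eq_one] at hb
  have e1 : ((m : ℤ) * m.gcdA (finrankAlong K φ)) • z = 0 := by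
    rw [mul_comm, mul_zsmul, natCast_zsmul, hmz, zsmul_zero]
  have e2 : (((finrankAlong K φ : ℕ) : ℤ) * m.gcdB (finrankAlong K φ)) • z = 0 := by
    rw [mul_comm, mul_zsmul, natCast_zsmul, hD, zsmul_zero]
  have h1 : ((1 : ℕ) : ℤ) • z = 0 := by
    rw [hb, add_zsmul, e1, e2, add_zero]
  rwa [Nat.cast_one, one_zsmul] at h1

end Fermat.Agent.RT.K6

end
end ZBW1_004_2
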