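/- GENERATED FILE (helper35, build-time optimisation, NOTES/ZB.md): verbatim concatenation of the modules
   Fermat.Agent.S15.LocDivCount
   Fermat.Agent.S15.LocDivCore
   Do not edit; do not import together with these modules. -/
import Fermat.Agent.ZB.ES_020
import Fermat.Agent.ZB.W1_002
import Fermat.Prelude.Def_AlgebraicCurve_Correspondence
import Fermat.Agent.ZB.Z2S15_002
import Fermat.Agent.ZB.Z2S15_001
import Fermat.Agent.ZB.W1_004
import Fermat.Agent.ZB.Z2S15_014
import Fermat.Agent.ZB.S15_001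
import Fermat.Agent.ZB.W1_005
import Fermat.Agent.ZB.ES_005
import Fermat.Agent.ZB.ES_001
import Fermat.Agent.ZB.S28_002
import Fermat.Agent.ZB.S05_002

/-! ### bundled: `Fermat.Agent.S15.LocDivCount` -/
section ZBZ2S15_013_0

/-!
# S15 / LOCDIV, abstract part 1: values along a finite map, separation, and the counting lemma

`φ : F → F'` a finite map of function fields over `K`, `R` a reduction package of `F'` at `A`.

* `ld_hasValueAt_map` : `(φ f)(w) = f(w|_F)`;
* `ld_exists_pole` : a place where `f ∈ O` takes a value outside `A` reduces to the reduction of a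
  pole of `f`;
* `ld_unit_iff` : two places with the same reduction, away from the reductions of the poles of
  `f ∈ O`: `f(w₁)` is a unit of `A` iff `f(w₂)` is;
* `ld_count` : **counting lemma.**  `t ∈ F` with a simple pole at `P₀`, `x` a place of `F` with
  `t(x) = a ∉ A`.  If every pole of `φ t` which has the same reduction as a place over `x` lies
  over `P₀`, then `r_* (φ^* ((x) − (P₀))) = 0`.
-/

set_option autoImplicit false
set_option linter.unusedSectionVars false
set_option linter.style.haveILetI false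

open AlgebraicCurve Module

namespace Fermat.Agent.S15.LD

open Fermat.Agent.S24 Fermat.Agent.W1

section Values

variable {K F F' : Type} [Field K] [Field F] [Field F'] [Algebra K F] [Algebra K F']

/-- `(φ f)(w) = f(w|_F)` -/
theorem ld_hasValueAt_map (φ : F →ₐ[K] F') (hφ : φ.toRingHom.IsIntegral) (w : Place K F')
    (f : F) (a : K) :
    HasValueAt w (φ f) a ↔ HasValueAt (w.restrictAlong φ hφ) f a := by
  letI := algebraAlong φ
  haveI := isScalarTower_along φ
  haveI := isIntegral_along φ hφ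
  have h1 : φ f - algebraMap K F' a = algebraMap F F' (f - algebraMap K F a) := by
    rw [map_sub]
    show φ f - algebraMap K F' a = φ f - φ (algebraMap K F a)
    rw [φ.commutes]
  unfold HasValueAt
  rw [h1]
  show _ ↔ f - algebraMap K F a ∈ (w.restrict F).toValuationSubring.nonunits
  rw [ValuationSubring.mem_nonunits_iff_or, ValuationSubring.mem_nonunits_iff_or,
    Place.mem_restrict_iff, map_inv₀, map_eq_zero]

/-- the order of `φ f` at `w` is negative iff the order of `f` at `w|_F` is -/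
theorem ld_ord_map_neg_iff (φ : F →ₐ[K] F') (hφ : φ.toRingHom.IsIntegral) (w : Place K F')
    (f : F) : w.ord (φ f) < 0 ↔ (w.restrictAlong φ hφ).ord f < 0 := by
  letI := algebraAlong φ
  haveI := isScalarTower_along φ
  haveI := isIntegral_along φ hφ
  rw [Place.ord_restrictAlong φ hφ w f]
  have he : 0 < (Place.ramificationIndexAlong φ w : ℤ) := by
    exact_mod_cast (Place.ramificationIndex_pos (F := F) w)
  constructor
  · intro h
    by_contra hn
    exact absurd h (not_lt.mpr (mul_nonneg he.le (not_lt.mp hn)))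
  · intro h
    exact mul_neg_of_pos_of_neg he h

end Values

section Eval

variable {K F k Fk : Type} [Field K] [Field F] [Algebra K F] [Field k] [Field Fk] [Algebra k Fk]
variable {A : ValuationSubring K} {R : PRData K F k Fk A} {g : ℕ}

/-- a place where `f ∈ O` takes a value outside `A` reduces to the reduction of a pole of `f` -/
theorem ld_exists_pole (hR : R.IsPR) (hn : IsNiceCurve K F g) (hnk : IsNiceCurve k Fk g)
    (f : R.O) (P : Place K F) (a : K) (ha : a ∉ A) (hP : HasValueAt P (f : F) a) :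
    ∃ P' : Place K F, P'.ord (f : F) < 0 ∧ R.r P' = R.r P := by
  by_contra hcon
  have hcon' : ∀ P' : Place K F, P'.ord (f : F) < 0 → R.r P' ≠ R.r P :=
    fun P' hP' h => hcon ⟨P', hP', h⟩
  obtain ⟨a', ha', -⟩ := stmtEval K F k Fk A R g hR hn hnk f P hcon'
  exact ha (hasValueAt_unique P hP ha' ▸ a'.2)

/-- two places with the same reduction, away from the reductions of the poles of `f ∈ O`: the
values of `f` lie in `A` and have the same reduction -/
theorem ld_res_eq (hR : R.IsPR) (hn : IsNiceCurve K F g) (hnk : IsNiceCurve k Fk g)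
    (f : R.O) (w₁ w₂ : Place K F) (hw : R.r w₁ = R.r w₂)
    (hno : ∀ P' : Place K F, P'.ord (f : F) < 0 → R.r P' ≠ R.r w₁)
    (c₁ c₂ : K) (h₁ : HasValueAt w₁ (f : F) c₁) (h₂ : HasValueAt w₂ (f : F) c₂) :
    ∃ (hc₁ : c₁ ∈ A) (hc₂ : c₂ ∈ A), R.res ⟨c₁, hc₁⟩ = R.res ⟨c₂, hc₂⟩ := by
  obtain ⟨a₁, ha₁, hb₁⟩ := stmtEval K F k Fk A R g hR hn hnk f w₁ hno
  obtain ⟨a₂, ha₂, hb₂⟩ := stmtEval K F k Fk A R g hR hn hnk f w₂ (fun P' hP' => hw ▸ hno P' hP')
  have e₁ : c₁ = a₁ := hasValueAt_unique w₁ h₁ ha₁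
  have e₂ : c₂ = a₂ := hasValueAt_unique w₂ h₂ ha₂
  subst e₁ e₂
  refine ⟨a₁.2, a₂.2, ?_⟩
  rw [hw] at hb₁
  exact hasValueAt_unique _ hb₁ hb₂

/-- … hence `f(w₁)` is a non-unit of `A` iff `f(w₂)` is -/
theorem ld_unit_iff (hR : R.IsPR) (hn : IsNiceCurve K F g) (hnk : IsNiceCurve k Fk g)
    (f : R.O) (w₁ w₂ : Place K F) (hw : R.r w₁ = R.r w₂)
    (hno : ∀ P' : Place K F, P'.ord (f : F) < 0 → R.r P' ≠ R.r w₁)
    (c₁ c₂ : K) (h₁ : HasValueAt w₁ (f : F) c₁) (h₂ : HasValueAt w₂ (f : F) c₂) :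
    c₁ ∈ A ∧ c₂ ∈ A ∧ (c₁ ∈ A.nonunits ↔ c₂ ∈ A.nonunits) := by
  obtain ⟨hc₁, hc₂, he⟩ := ld_res_eq hR hn hnk f w₁ w₂ hw hno c₁ c₂ h₁ h₂
  refine ⟨hc₁, hc₂, ?_⟩
  rw [← hR.res_eq_zero_iff ⟨c₁, hc₁⟩, ← hR.res_eq_zero_iff ⟨c₂, hc₂⟩, he]

end Eval

/-! ### The counting lemma -/

section Count

variable {K F F' k Fk : Type} [Field K] [Field F] [Field F'] [Algebra K F] [Algebra K F']
  [Field k] [Field Fk] [Algebra k Fk]

/-- a divisor with nonnegative coefficients and degree `0` is `0` -/
theorem ld_eq_zero_of_nonneg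
    (hresk : ∀ v : Place k Fk, Function.Bijective (algebraMap k v.ResidueField))
    (G : Divisor k Fk) (hG : ∀ Q, 0 ≤ G Q) (hdeg : Divisor.degree G = 0) : G = 0 := by
  classical
  have h1 : Divisor.degree G = ∑ Q ∈ G.support, G Q := by
    rw [Divisor.degree, Finsupp.liftAddHom_apply, Finsupp.sum]
    refine Finset.sum_congr rfl fun Q _ => ?_
    rw [AddMonoidHom.coe_mulRight, Fermat.Agent.ES.R.place_deg_eq_one Q (hresk Q)]
    simp
  rw [h1] at hdeg
  have h2 := (Finset.sum_eq_zero_iff_of_nonneg (fun Q _ => hG Q)).mp hdeg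
  ext Q
  by_cases hQ : Q ∈ G.support
  · exact h2 Q hQ
  · rw [Finsupp.notMem_support_iff] at hQ
    rw [hQ]; rfl

variable {A : ValuationSubring K} {R : PRData K F' k Fk A} [HasPrincipalDivisors K F']

/-- **Counting lemma.**  `t ∈ F` has a simple pole at `P₀`, `x` is a place of `F` with
`t(x) = a ∉ A`.  If every pole of `φ t` which has the same reduction as some place over `x` lies
over `P₀`, then `r_* (φ^* ((x) − (P₀))) = 0`. -/
theorem ld_count (hR : R.IsPR)
    (hres : ∀ v : Place K F, Function.Bijective (algebraMap K v.ResidueField))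
    (hres' : ∀ v : Place K F', Function.Bijective (algebraMap K v.ResidueField))
    (hresk : ∀ v : Place k Fk, Function.Bijective (algebraMap k v.ResidueField))
    (φ : F →ₐ[K] F') (hφ : φ.toRingHom.IsIntegral) (hFI : FundamentalIdentityAlong K φ hφ)
    (t : F) (ht : φ t ∈ R.O) (P₀ x : Place K F) (hP₀ : P₀.ord t = -1) (a : K) (ha : a ∉ A)
    (hxa : HasValueAt x t a)
    (hA : ∀ w c' : Place K F', w.restrictAlong φ hφ = x → c'.ord (φ t) < 0 → R.r w = R.r c' →
      c'.restrictAlong φ hφ = P₀) :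
    Finsupp.mapDomain R.r
      (Divisor.pullbackAlong φ hφ (Finsupp.single x 1 - Finsupp.single P₀ 1)) = 0 := by
  classical
  letI := algebraAlong φ
  haveI := isScalarTower_along φ
  haveI := isIntegral_along φ hφ
  -- basic facts on `t`
  have ht0 : t ≠ 0 := by
    rintro rfl
    rw [Place.ord_zero] at hP₀
    omega
  have hta : t - algebraMap K F a ≠ 0 := by
    intro h
    have : t = algebraMap K F a := sub_eq_zero.mp h
    rw [this, PlaceAux.ord_algebraMap] at hP₀
    omega
  have hxP₀ : x ≠ P₀ := by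
    rintro rfl
    have h1 : 0 ≤ x.ord t := ge_ord_nonneg_of_mem x (HasValueAt.mem x hxa)
    omega
  have hxord : 1 ≤ x.ord (t - algebraMap K F a) := (hasValueAt_iff_ord_pos x hta).mp hxa
  -- the function `u = 1 - a⁻¹ t`
  have hainv : a⁻¹ ∈ A := (A.mem_or_inv_mem a).resolve_left ha
  have hainv' : a⁻¹ ∈ A.nonunits := by
    rw [ValuationSubring.mem_nonunits_iff_or, inv_inv]
    exact Or.inr ha
  have ha0 : a ≠ 0 := fun h => ha (h ▸ A.zero_mem)
  have hcm : algebraMap K F' a⁻¹ ∈ R.O := hR.algebraMap_mem ⟨a⁻¹, hainv⟩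
  set u : R.O := 1 - ⟨algebraMap K F' a⁻¹, hcm⟩ * ⟨φ t, ht⟩ with hu
  have hred : R.red u = 1 := by
    rw [hu, map_sub, map_one, map_mul]
    have h1 : R.red ⟨algebraMap K F' a⁻¹, hcm⟩ = 0 := by
      rw [hR.red_algebraMap ⟨a⁻¹, hainv⟩ hcm, (hR.res_eq_zero_iff ⟨a⁻¹, hainv⟩).mpr hainv',
        map_zero]
    rw [h1, zero_mul, sub_zero]
  have hred0 : R.red u ≠ 0 := by rw [hred]; exact one_ne_zero
  have hucoe : (u : F') = -(algebraMap K F' a⁻¹) * (φ t - algebraMap K F' a) := by
    have h0 : (u : F') = 1 - algebraMap K F' a⁻¹ * φ t := by rw [hu]; rfl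
    have : algebraMap K F' a⁻¹ * algebraMap K F' a = 1 := by
      rw [← map_mul, inv_mul_cancel₀ ha0, map_one]
    rw [h0]
    linear_combination (-1 : F') * this
  have hφta : φ t - algebraMap K F' a = algebraMap F F' (t - algebraMap K F a) := by
    rw [map_sub]
    show φ t - algebraMap K F' a = φ t - φ (algebraMap K F a)
    rw [φ.commutes]
  have hφta0 : φ t - algebraMap K F' a ≠ 0 := by
    rw [hφta]
    exact (map_ne_zero _).mpr hta
  have hc0 : -(algebraMap K F' a⁻¹) ≠ 0 := by
    rw [neg_ne_zero]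
    exact (map_ne_zero _).mpr (inv_ne_zero ha0)
  have hordu : ∀ w : Place K F', w.ord (u : F') = w.ord (φ t - algebraMap K F' a) := by
    intro w
    rw [hucoe, w.ord_mul hc0 hφta0, PlaceAux.ord_neg, PlaceAux.ord_algebraMap, zero_add]
  obtain ⟨D, hD, -⟩ := HasPrincipalDivisors.exists_divisor (K := K) (u : F') (ge_coe_ne_zero hred0)
  have hrD : ∀ Q, Finsupp.mapDomain R.r D Q = 0 := by
    intro Q
    rw [hR.r_div u hred0 D hD Q, hred, Place.ord_one]
  -- the two pull-backs
  set E := Divisor.pullbackAlong φ hφ (Finsupp.single x 1) with hE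
  set C := Divisor.pullbackAlong φ hφ (Finsupp.single P₀ 1) with hC
  have hEw : ∀ w : Place K F', E w =
      if w.restrictAlong φ hφ = x then (Place.ramificationIndexAlong φ w : ℤ) else 0 := by
    intro w
    rw [hE, Divisor.pullbackAlong_apply, Finsupp.single_apply]
    split_ifs with h1 h2 h2
    · rw [mul_one]
    · exact absurd h1.symm h2
    · exact absurd h2.symm h1
    · rw [mul_zero]
  have hCw : ∀ w : Place K F', C w =
      if w.restrictAlong φ hφ = P₀ then (Place.ramificationIndexAlong φ w : ℤ) else 0 := by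
    intro w
    rw [hC, Divisor.pullbackAlong_apply, Finsupp.single_apply]
    split_ifs with h1 h2 h2
    · rw [mul_one]
    · exact absurd h1.symm h2
    · exact absurd h2.symm h1
    · rw [mul_zero]
  have he : ∀ w : Place K F', 0 < (Place.ramificationIndexAlong φ w : ℤ) := fun w => by
    exact_mod_cast (Place.ramificationIndex_pos (F := F) w)
  have hE0 : ∀ w, 0 ≤ E w := fun w => by
    rw [hEw]; split_ifs; exact (he w).le; exact le_rfl
  have hC0 : ∀ w, 0 ≤ C w := fun w => by
    rw [hCw]; split_ifs; exact (he w).le; exact le_rfl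
  -- the local inequality
  have hloc : ∀ w : Place K F', (w.ord (φ t) < 0 → w.restrictAlong φ hφ = P₀) →
      E w - C w ≤ D w := by
    intro w hw
    rw [hD w, hordu w]
    by_cases hpole : w.ord (φ t) < 0
    · have hwP := hw hpole
      have h1 : w.ord (φ t - algebraMap K F' a) = w.ord (φ t) := by
        rcases eq_or_ne a 0 with rfl | _
        · rw [map_zero, sub_zero]
        rw [sub_eq_add_neg]
        refine PlaceAux.ord_add_eq_of_lt w ((map_ne_zero φ).mpr ht0) ?_ ?_
        · rw [neg_ne_zero]; exact (map_ne_zero _).mpr ha0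
        · rw [PlaceAux.ord_neg, PlaceAux.ord_algebraMap]; exact hpole
      rw [h1, Place.ord_restrictAlong φ hφ w t, hwP, hP₀, hEw, hCw, if_pos hwP,
        if_neg (fun h => hxP₀ (h.symm.trans hwP))]
      linarith
    · have hCz : C w = 0 := by
        rw [hCw, if_neg]
        intro h
        apply hpole
        rw [Place.ord_restrictAlong φ hφ w t, h, hP₀]
        have := he w
        linarith
      rw [hCz, sub_zero, hEw]
      split_ifs with hx
      · rw [hφta]
        show _ ≤ w.ord (φ (t - algebraMap K F a))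
        rw [Place.ord_restrictAlong φ hφ w, hx]
        have := he w
        nlinarith
      · have hmem : φ t - algebraMap K F' a ∈ w.toValuationSubring :=
          sub_mem (ge_mem_of_not_ord_neg w hpole) (w.algebraMap_mem' a)
        exact ge_ord_nonneg_of_mem w hmem
  -- pointwise inequality of the push-forwards
  have hle : ∀ Q, Finsupp.mapDomain R.r E Q ≤ Finsupp.mapDomain R.r C Q := by
    intro Q
    by_cases hQ : ∃ w₀ : Place K F', w₀.restrictAlong φ hφ = x ∧ R.r w₀ = Q
    · obtain ⟨w₀, hw₀x, hw₀Q⟩ := hQ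
      have hkey : Finsupp.mapDomain R.r (E - C - D) Q ≤ 0 := by
        rw [ge_mapDomain_apply]
        refine Finset.sum_nonpos fun w _ => ?_
        split_ifs with hwQ
        · have := hloc w (fun hpole => hA w₀ w hw₀x hpole (hw₀Q.trans hwQ.symm))
          rw [Finsupp.sub_apply, Finsupp.sub_apply]
          linarith
        · exact le_rfl
      rw [Finsupp.mapDomain_sub, Finsupp.mapDomain_sub, Finsupp.sub_apply, Finsupp.sub_apply,
        hrD Q] at hkey
      linarith
    · have h1 : Finsupp.mapDomain R.r E Q = 0 := by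
        rw [ge_mapDomain_apply]
        refine Finset.sum_eq_zero fun w _ => ?_
        split_ifs with hwQ
        · rw [hEw, if_neg]
          intro hx
          exact hQ ⟨w, hx, hwQ⟩
        · rfl
      rw [h1, ge_mapDomain_apply]
      refine Finset.sum_nonneg fun w _ => ?_
      split_ifs
      · exact hC0 w
      · exact le_rfl
  -- degrees
  have hdeg : Divisor.degree (Finsupp.mapDomain R.r C - Finsupp.mapDomain R.r E) = 0 := by
    rw [map_sub, c1_degree_mapDomain hres' hresk, c1_degree_mapDomain hres' hresk, hE, hC,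
      Divisor.degree_pullbackAlong φ hφ hFI, Divisor.degree_pullbackAlong φ hφ hFI,
      Divisor.degree_single, Divisor.degree_single,
      Fermat.Agent.ES.R.place_deg_eq_one x (hres x),
      Fermat.Agent.ES.R.place_deg_eq_one P₀ (hres P₀), sub_self]
  have hzero := ld_eq_zero_of_nonneg hresk _ (fun Q => by
    rw [Finsupp.sub_apply]; linarith [hle Q]) hdeg
  rw [map_sub, Finsupp.mapDomain_sub]
  have := sub_eq_zero.mp hzero
  rw [← hE, ← hC, this, sub_self]

/-- **Separation.**  `f ∈ F` a detecting function: `φ f ∈ O`, its poles do not reduce to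
reductions of poles of `φ t`, and at every pole `P ≠ P₀` of `t` the value of `f` is a unit iff
`f(x)` is not.  Then every pole of `φ t` with the same reduction as a place over `x` lies over
`P₀`. -/
theorem ld_sep {g : ℕ} (hR : R.IsPR) (hn : IsNiceCurve K F' g) (hnk : IsNiceCurve k Fk g)
    (φ : F →ₐ[K] F') (hφ : φ.toRingHom.IsIntegral)
    (t f : F) (hf : φ f ∈ R.O) (P₀ x : Place K F) (c : K) (hxc : HasValueAt x f c)
    (hno : ∀ P' c' : Place K F', P'.ord (φ f) < 0 → c'.ord (φ t) < 0 → R.r P' ≠ R.r c')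
    (hdet : ∀ P : Place K F, P.ord t < 0 → P ≠ P₀ →
      ∃ cP : K, HasValueAt P f cP ∧ ¬ (cP ∈ A.nonunits ↔ c ∈ A.nonunits)) :
    ∀ w c' : Place K F', w.restrictAlong φ hφ = x → c'.ord (φ t) < 0 → R.r w = R.r c' →
      c'.restrictAlong φ hφ = P₀ := by
  intro w c' hw hc' hr
  by_contra hne
  have hP : (c'.restrictAlong φ hφ).ord t < 0 := (ld_ord_map_neg_iff φ hφ c' t).mp hc'
  obtain ⟨cP, hcP, hnot⟩ := hdet _ hP hne
  have h1 : HasValueAt c' (φ f) cP := (ld_hasValueAt_map φ hφ c' f cP).mpr hcP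
  have h2 : HasValueAt w (φ f) c := (ld_hasValueAt_map φ hφ w f c).mpr (hw ▸ hxc)
  exact hnot (ld_unit_iff hR hn hnk ⟨φ f, hf⟩ c' w hr.symm
    (fun P' hP' => hno P' c' hP' hc') cP c h1 h2).2.2

end Count

end Fermat.Agent.S15.LD


end ZBZ2S15_013_0

/-! ### bundled: `Fermat.Agent.S15.LocDivCore` -/
section ZBZ2S15_013_1

/-!
# S15 / LOCDIV: the core theorem at the level `N' = p ℓ'`

`ld_case` : `p` a prime, `ℓ'` a prime `≠ p`, `A ∣ v ∤ p ℓ'`, `R` a package (`LdPkg`) of `X₀(p ℓ')`
at `A`, `φ = heckeAlphaBar : F_p → F_{pℓ'}`.  Let `t ∈ F_p` be a coordinate with a simple pole at a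
`G_ℚ`-fixed place `P₀` and poles only at the cusps, `f ∈ F_p` a detecting function, `x` a
`D_A`-fixed place with `t(x) ∉ A`.  Then `[(x) − (P₀)]` is infinitely `r`-divisible among the
`D_A`-fixed points of `J₀(p)`, for every prime `r ≠ v` with `r ∤ ℓ' + 1`.
-/

set_option autoImplicit false
set_option linter.unusedSectionVars false
set_option linter.style.haveILetI false
set_option synthInstance.maxHeartbeats 400000
set_option maxHeartbeats 1600000

noncomputable section

namespace Fermat.Agent.S15.LD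

open ModularCurve AlgebraicCurve AlgebraicCurve.SemilinearAut
open Fermat.Agent.S24 Fermat.Agent.ES Fermat.Agent.ES.M Fermat.Agent.W1 Fermat.Agent.STB
  Fermat.Agent.S15

variable (p ℓ' : ℕ) [NeZero p] [NeZero ℓ']

/-- the inclusion `α : F_p → F_{p ℓ'}` -/
abbrev ldφ : FF p →ₐ[Kb] FF (p * ℓ') := heckeAlphaBar Kb p ℓ'

theorem ldφ_integral : (ldφ p ℓ').toRingHom.IsIntegral := H.heckeAlphaBarIntegral p ℓ'

theorem ldφ_coe (x : FF p) : ((ldφ p ℓ' x : FF (p * ℓ')) : LaurentSeries Kb) = (x : LaurentSeries Kb) :=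
  coe_heckeAlphaBar p ℓ' x

theorem ldφ_jF : ldφ p ℓ' (jF p) = jF (p * ℓ') := Subtype.ext (ldφ_coe p ℓ' _)

/-- The fundamental identity along `α`. -/
theorem ldφ_fundamentalIdentity :
    haveI := H.hasPrincipalDivisors_FF (p * ℓ')
    FundamentalIdentityAlong Kb (ldφ p ℓ') (ldφ_integral p ℓ') := by
  have hP := H.hasPrincipalDivisors_FF (p * ℓ')
  refine H.fundamentalIdentityAlong_of_sumRamificationInertia (heckeAlphaBar Kb p ℓ')
    (H.heckeAlphaBarIntegral p ℓ') ?_
  let _ := algebraAlong (heckeAlphaBar Kb p ℓ')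
  have := isScalarTower_along (heckeAlphaBar Kb p ℓ')
  have : FiniteDimensional (FF p) (FF (p * ℓ')) := H.finiteAlong_heckeAlphaBar p ℓ'
  exact H.sumRamificationInertia (H.residue_bijective_FF p) (H.residue_bijective_FF (p * ℓ'))

/-- the pull-back `α^* : J₀(p) → J₀(p ℓ')` -/
def ldPull : JZero p →+ JZero (p * ℓ') :=
  haveI := H.hasPrincipalDivisors_FF (p * ℓ')
  lvlPic0 (ldφ p ℓ') (ldφ_integral p ℓ') (ldφ_fundamentalIdentity p ℓ')

/-- the push-forward `α_* : J₀(p ℓ') → J₀(p)` -/
def ldPush : JZero (p * ℓ') →+ JZero p :=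
  stbPush (ldφ p ℓ') (ldφ_integral p ℓ') (H.finiteAlong_heckeAlphaBar p ℓ')
    (H.normFormulaAlong_heckeAlphaBar p ℓ')

theorem ldPull_smul (σ : GalQ) (x : JZero p) : ldPull p ℓ' (σ • x) = σ • ldPull p ℓ' x := by
  haveI := H.hasPrincipalDivisors_FF (p * ℓ')
  rw [galois_smul_pic0_def, galois_smul_pic0_def]
  exact lvlPic0_smul (ldφ p ℓ') (ldφ_integral p ℓ') (ldφ_fundamentalIdentity p ℓ')
    (intertwines_heckeAlphaBar p ℓ' σ) x

theorem ldPush_smul (σ : GalQ) (y : JZero (p * ℓ')) : ldPush p ℓ' (σ • y) = σ • ldPush p ℓ' y := by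
  haveI := H.hasPrincipalDivisors_FF (p * ℓ')
  rw [galois_smul_pic0_def, galois_smul_pic0_def]
  exact ld_push_smul (ldφ p ℓ') (ldφ_integral p ℓ') (H.finiteAlong_heckeAlphaBar p ℓ')
    (H.normFormulaAlong_heckeAlphaBar p ℓ') (intertwines_heckeAlphaBar p ℓ' σ) y

theorem ldPush_pull (hℓ' : ℓ'.Prime) (hℓ'p : ¬ ℓ' ∣ p) (x : JZero p) :
    ldPush p ℓ' (ldPull p ℓ' x) = (ℓ' + 1) • x := by
  haveI := H.hasPrincipalDivisors_FF (p * ℓ')
  have h := ld_push_pull (H.residue_bijective_FF p) (H.residue_bijective_FF (p * ℓ'))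
    (ldφ p ℓ') (ldφ_integral p ℓ') (ldφ_fundamentalIdentity p ℓ')
    (H.finiteAlong_heckeAlphaBar p ℓ') (H.normFormulaAlong_heckeAlphaBar p ℓ') x
  have hd : finrankAlong Kb (ldφ p ℓ') = ℓ' + 1 := G2.hdeg_finrank p ℓ' hℓ' hℓ'p
  rw [hd] at h
  exact h

end Fermat.Agent.S15.LD

end
end ZBZ2S15_013_1
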