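/- GENERATED FILE (helper35, build-time optimisation, NOTES/ZB.md): verbatim concatenation of the modules
   Fermat.Agent.S15.LocDivNC
   Fermat.Agent.S15.LocDivCase
   Do not edit; do not import together with these modules. -/
import Fermat.Agent.ZB.Z2S15_002
import Fermat.Agent.ZB.DEU_005
import Fermat.Agent.ZB.W1_002
import Fermat.Agent.ZB.ES_020
import Fermat.Agent.ZB.Z2S15_013

/-! ### bundled: `Fermat.Agent.S15.LocDivNC` -/
section ZBZ2S15_015_0

/-!
# S15 / LOCDIV, piece LD-PKG ("no cancellation" and integrality), for helper94's `LocDiv.lean`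

`R` a reduction package of `X₀(N)` at `A ∣ ℓ ∤ N` with `hP : LdPkg N A g R`
(`S15/LocDivPlan.lean`).

* `ldnc_red_jF` : `red j = j̄`;
* `ldnc_no_meet` : a place `P` where `j` takes a value `a₀ ∈ A` does not reduce to the reduction of
  a pole of `j`  (`(j - a₀)⁻¹` is a good function: `DEU.deuGood_of_finrank_le`);
* `ldnc_mem_jdF` : `j(q^d) ∈ R.O` for `d ∣ N`;
* `ldnc_mem_of_int` : a function whose `q`-expansion is a power series with coefficients in
  `ℚ ∩ A` lies in `R.O`.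
-/

set_option autoImplicit false
set_option linter.unusedSectionVars false
set_option linter.style.haveILetI false
set_option synthInstance.maxHeartbeats 400000
set_option maxHeartbeats 1000000

noncomputable section

namespace Fermat.Agent.S15

open ModularCurve AlgebraicCurve HahnSeries IntermediateField
open Fermat.Agent.S24 Fermat.Agent.ES Fermat.Agent.ES.M Fermat.Agent.W1 Fermat.Agent.DEU

/-! ### generic lemmas -/

section Generic

variable {K F : Type*} [Field K] [Field F] [Algebra K F]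

theorem ldnc_adjoin_sub (x : F) (a : K) : K⟮x - algebraMap K F a⟯ = K⟮x⟯ := by
  apply le_antisymm
  · rw [adjoin_simple_le_iff]
    exact sub_mem (mem_adjoin_simple_self K x) (IntermediateField.algebraMap_mem _ a)
  · rw [adjoin_simple_le_iff]
    have h := add_mem (mem_adjoin_simple_self K (x - algebraMap K F a))
      (IntermediateField.algebraMap_mem K⟮x - algebraMap K F a⟯ a)
    rwa [sub_add_cancel] at h

theorem ldnc_adjoin_inv_sub (x : F) (a : K) : K⟮(x - algebraMap K F a)⁻¹⟯ = K⟮x⟯ := by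
  rw [deuGood_adjoin_inv, ldnc_adjoin_sub]

theorem ldnc_transcendental_inv_sub {x : F} (hx : Transcendental K x) (a : K) :
    Transcendental K (x - algebraMap K F a)⁻¹ := by
  intro halg
  apply hx
  have h1 : IsAlgebraic K (x - algebraMap K F a) := by simpa using halg.inv
  have h2 := h1.add (isAlgebraic_algebraMap (R := K) (A := F) a)
  rwa [sub_add_cancel] at h2

theorem ldnc_sub_ne_zero {x : F} (hx : Transcendental K x) (a : K) :
    x - algebraMap K F a ≠ 0 := by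
  intro h
  apply hx
  rw [sub_eq_zero.mp h]
  exact isAlgebraic_algebraMap a

/-- the instances for `E = K(x)` transported along an equality of intermediate fields -/
theorem ldnc_transport (E E' : IntermediateField K F) (h : E' = E) [FiniteDimensional E F]
    [Algebra.IsSeparable E F] :
    FiniteDimensional E' F ∧ Algebra.IsSeparable E' F ∧
      Module.finrank E' F = Module.finrank E F := by
  subst h
  exact ⟨inferInstance, inferInstance, rfl⟩

end Generic

variable {N : ℕ} [NeZero N] {A : ValuationSubring Kb} {g : ℕ}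
  {R : PRData Kb (FF N) (kA A) ↥(modularFunctionFieldFullC (kA A) N) A}

/-- the reduction of `j` is `j̄` -/
theorem ldnc_red_jF (hP : LdPkg N A g R) (ht : jF N ∈ R.O) :
    R.red ⟨jF N, ht⟩ = deuGood_jk (kA A) N :=
  Subtype.ext (deuInst_gaussRed_unique N A (hP.red_spec ⟨jF N, ht⟩) (deuGood_gaussRed_jF N A))

/-- **integrality of the generators** -/
theorem ldnc_mem_jdF (hP : LdPkg N A g R) (d : ℕ) (hd : d ∣ N) : jdF N d hd ∈ R.O := by
  haveI : NeZero d := ⟨fun h => NeZero.ne N (by subst h; simpa using hd)⟩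
  rw [hP.mem_iff]
  have h := deuVal_gaussRed_gen N A hd
  have e : jdF N d hd =
      ⟨qExpand Kb d (jqModC Kb), Fermat.Agent.INJ.nf_fullC_le_bar N (jqModCd_mem_full Kb N hd)⟩ :=
    Subtype.ext (Fermat.Agent.ES.I2.i2e_jdF_coe N d hd)
  rw [e]
  exact ⟨_, h⟩

/-- **integrality of functions with `A`-integral power series expansion** -/
theorem ldnc_mem_of_int (hP : LdPkg N A g R) (f : FF N) (Y : PowerSeries ℚ)
    (hf : (f : LaurentSeries Kb) = coeffEmb Kb (HahnSeries.ofPowerSeries ℤ ℚ Y))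
    (hY : ∀ n, algebraMap ℚ Kb (PowerSeries.coeff n Y) ∈ A) : f ∈ R.O := by
  rw [hP.mem_iff]
  set YA : PowerSeries A :=
    PowerSeries.mk fun n => ⟨algebraMap ℚ Kb (PowerSeries.coeff n Y), hY n⟩ with hYA
  set Y₁ : LaurentSeries A := HahnSeries.ofPowerSeries ℤ A YA with hY₁
  have hI : kronIncl A Y₁ = (f : LaurentSeries Kb) := by
    rw [hf, coeffEmb]
    show coeffMap A.subtype (HahnSeries.ofPowerSeries ℤ A YA) =
      coeffMap (algebraMap ℚ Kb) (HahnSeries.ofPowerSeries ℤ ℚ Y)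
    rw [coeffMap_ofPowerSeries, coeffMap_ofPowerSeries]
    congr 1
    ext n
    rw [PowerSeries.coeff_map, PowerSeries.coeff_map, hYA, PowerSeries.coeff_mk]
    rfl
  refine ⟨kronRed A Y₁, Y₁, 1, ?_, ?_, ?_, ?_, ?_⟩
  · rw [hI]; exact f.2
  · rw [map_one]; exact one_mem _
  · rw [map_one]; exact one_ne_zero
  · rw [map_one, mul_one, hI]
  · rw [map_one, mul_one]

/-- **no cancellation**: a place where `j` takes a value in `A` does not reduce to the reduction
of a pole of `j`. -/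
theorem ldnc_no_meet {ℓ : ℕ} (hℓ : ℓ.Prime) (hℓN : ¬ ℓ ∣ N) (hA : A.LiesOverPrime ℓ)
    (hP : LdPkg N A g R) (a₀ : A) (P c : Place Kb (FF N))
    (hPa : HasValueAt P (jF N) (a₀ : Kb)) (hc : c.ord (jF N) < 0) :
    R.r P ≠ R.r c := by
  obtain ⟨ht, hgood⟩ := hP.modPR.good
  have hjred := ldnc_red_jF hP ht
  have hPR := hP.modPR.isPR
  -- the residue side
  have hNk : ((N : ℕ) : kA A) ≠ 0 := redF_natCast_ne_zero N A ℓ hℓ hℓN hA
  haveI : IsAlgClosed (kA A) := Fermat.Agent.RED.isAlgClosed_residueField A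
  haveI : Fact ℓ.Prime := ⟨hℓ⟩
  haveI : CharP (kA A) ℓ := kron_charP_residueField hℓ hA
  haveI := deuGood_finiteDimensional_jk (kA A) N hNk
  haveI := deuGood_isSeparable_jk (kA A) N ℓ hNk
  haveI : FiniteDimensional Kb⟮jF N⟯ (FF N) :=
    FiniteDimensional.of_finrank_pos (by
      rw [Fermat.Agent.ES.I2.i2e_finrank N]
      exact Nat.pos_of_ne_zero (Fermat.Agent.ES.I2.i2e_dedekindPsi_ne_zero N))
  set jb : ↥(modularFunctionFieldFullC (kA A) N) := deuGood_jk (kA A) N with hjb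
  set ab : kA A := R.res a₀ with hab
  -- `u = j - a₀`
  set u : FF N := jF N - algebraMap Kb (FF N) (a₀ : Kb) with hu
  have ha₀O : algebraMap Kb (FF N) (a₀ : Kb) ∈ R.O := (hPR.algebraMap_mem_iff _).mpr a₀.2
  have huO : u ∈ R.O := sub_mem ht ha₀O
  have hu0 : u ≠ 0 := ldnc_sub_ne_zero (transcendental_jF N) _
  have hredu : R.red ⟨u, huO⟩ = jb - algebraMap (kA A) _ ab := by
    have e : (⟨u, huO⟩ : R.O) = ⟨jF N, ht⟩ - ⟨algebraMap Kb (FF N) (a₀ : Kb), ha₀O⟩ := rfl
    rw [e, map_sub, hjred, hPR.red_algebraMap a₀ ha₀O]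
  have hub0 : jb - algebraMap (kA A) ↥(modularFunctionFieldFullC (kA A) N) ab ≠ 0 :=
    ldnc_sub_ne_zero (deuGood_transcendental_jk (kA A) N) _
  -- `t' = u⁻¹ ∈ O`
  have hunon : u ∉ R.O.nonunits := by
    intro h
    have := (hPR.red_eq_zero_iff ⟨u, huO⟩).mpr h
    rw [hredu] at this
    exact hub0 this
  have hunit : IsUnit (⟨u, huO⟩ : R.O) := by
    by_contra hnu
    apply hunon
    rw [ValuationSubring.mem_nonunits_iff_exists_mem_maximalIdeal]
    exact ⟨huO, (IsLocalRing.mem_maximalIdeal _).mpr hnu⟩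
  obtain ⟨w, hw⟩ := hunit.exists_right_inv
  have hw' : u * (w : FF N) = 1 := congrArg Subtype.val hw
  have hwu : (w : FF N) = u⁻¹ := eq_inv_of_mul_eq_one_right hw'
  have ht'O : u⁻¹ ∈ R.O := hwu ▸ w.2
  have hredt : R.red ⟨u⁻¹, ht'O⟩ = (jb - algebraMap (kA A) _ ab)⁻¹ := by
    have e : (⟨u⁻¹, ht'O⟩ : R.O) * ⟨u, huO⟩ = 1 := Subtype.ext (inv_mul_cancel₀ hu0)
    have h1 := congrArg R.red e
    rw [map_mul, map_one, hredu] at h1
    exact eq_inv_of_mul_eq_one_left h1
  have hredt0 : R.red ⟨u⁻¹, ht'O⟩ ≠ 0 := by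
    rw [hredt]
    exact inv_ne_zero hub0
  -- the instances for `K(t')`, `k(t̄')`
  obtain ⟨i1, i2, i3⟩ := ldnc_transport Kb⟮jF N⟯ Kb⟮u⁻¹⟯ (ldnc_adjoin_inv_sub (jF N) (a₀ : Kb))
  obtain ⟨i4, i5, i6⟩ := ldnc_transport (kA A)⟮jb⟯
    (kA A)⟮(jb - algebraMap (kA A) ↥(modularFunctionFieldFullC (kA A) N) ab)⁻¹⟯
    (ldnc_adjoin_inv_sub jb ab)
  haveI := i1
  haveI := i2
  haveI := i4
  haveI := i5
  -- `P` is a pole of `t'`
  have hPu : 0 < P.ord u := (hasValueAt_iff_ord_pos P hu0).mp hPa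
  have hPt : P.ord u⁻¹ < 0 := by
    rw [Place.ord_inv]
    omega
  have key : (R.r P).ord (jb - algebraMap (kA A) ↥(modularFunctionFieldFullC (kA A) N) ab)⁻¹ < 0 := by
    refine deuGood_of_finrank_le R.r u⁻¹ _ ?_
      (ldnc_transcendental_inv_sub (transcendental_jF N) _)
      (ldnc_transcendental_inv_sub (deuGood_transcendental_jk (kA A) N) _) ?_ P hPt
    · intro D hD Q
      have h2 := hPR.r_div ⟨u⁻¹, ht'O⟩ hredt0 D hD Q
      rwa [hredt] at h2
    · rw [i3, i6, Fermat.Agent.ES.I2.i2e_finrank N, deuGood_finrank_jk (kA A) N hNk]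
  -- so `j̄` is regular at `r P`
  have hpos : 0 < (R.r P).ord (jb - algebraMap (kA A) ↥(modularFunctionFieldFullC (kA A) N) ab) := by
    rw [Place.ord_inv] at key
    omega
  have hval : HasValueAt (R.r P) jb ab := (hasValueAt_iff_ord_pos (R.r P) hub0).mpr hpos
  have hnn : 0 ≤ (R.r P).ord jb := ge_ord_nonneg_of_mem (R.r P) (HasValueAt.mem (R.r P) hval)
  -- and `j̄` has a pole at `r c`
  have hneg : (R.r c).ord jb < 0 := by
    have := hgood c hc
    rwa [hjred] at this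
  intro h
  rw [h] at hnn
  omega

end Fermat.Agent.S15

end
end ZBZ2S15_015_0

/-! ### bundled: `Fermat.Agent.S15.LocDivCase` -/
section ZBZ2S15_015_1

/-!
# S15 / LOCDIV: the core theorem `ld_case`

See `LocDivCore.lean` for the setting.  `ld_case` is the common part of the two cases of
`StmtLocDiv` (coordinate `t = j` at the cusp `∞`, `t = j_p` at the cusp `0`).
-/

set_option autoImplicit false
set_option linter.unusedSectionVars false
set_option linter.style.haveILetI false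
set_option synthInstance.maxHeartbeats 400000
set_option maxHeartbeats 1600000

noncomputable section

namespace Fermat.Agent.S15.LD

open ModularCurve AlgebraicCurve AlgebraicCurve.SemilinearAut
open Fermat.Agent.S24 Fermat.Agent.ES Fermat.Agent.ES.M Fermat.Agent.W1 Fermat.Agent.STB
  Fermat.Agent.S15

/-- a prime different from the residue characteristic is a unit of `A` -/
theorem ld_prime_unit {A : ValuationSubring Kb} {v : ℕ} (hv : v.Prime) (hA : A.LiesOverPrime v)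
    {r : ℕ} (hr : r.Prime) (hrv : r ≠ v) : (r : Kb) ∉ A.nonunits := by
  rw [Fermat.Agent.S05.natCast_mem_nonunits_iff A hv hA r]
  intro h
  exact hrv ((Nat.prime_dvd_prime_iff_eq hv hr).mp h).symm

theorem ld_pow_unit {A : ValuationSubring Kb} {r : ℕ} (hr : (r : Kb) ∉ A.nonunits) (k : ℕ) :
    ((r ^ k : ℕ) : Kb) ∉ A.nonunits := by
  rw [A.mem_nonunits_iff, not_lt] at hr ⊢
  rw [Nat.cast_pow, map_pow]
  exact one_le_pow₀ hr

/-- the class `[(x) − (P₀)]` is fixed by every `σ` fixing `x` and `P₀` -/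
theorem ld_diffClass_fixed {N : ℕ} [NeZero N] {x P₀ : Place Kb (FF N)} {u : JZero N}
    (hu : IsDiffClass N x P₀ u) (σ : GalQ) (hx : galAct N σ • x = x)
    (hP₀ : galAct N σ • P₀ = P₀) : σ • u = u := by
  obtain ⟨D, hD, rfl⟩ := hu
  rw [galois_smul_pic0_def, SemilinearAut.pic0_smul_mk]
  congr 1
  apply Subtype.ext
  rw [SemilinearAut.coe_degZeroSMulHom, hD, smul_sub, SemilinearAut.smul_single,
    SemilinearAut.smul_single]
  change Finsupp.single (galAct N σ • x) 1 - Finsupp.single (galAct N σ • P₀) 1 = _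
  rw [hx, hP₀]

variable {p ℓ' : ℕ} [NeZero p] [NeZero ℓ']

/-- **LOCDIV, core.** -/
theorem ld_case (hℓ' : ℓ'.Prime) (hℓ'p : ¬ ℓ' ∣ p)
    {A : ValuationSubring Kb} {v : ℕ} (hv : v.Prime) (hA : A.LiesOverPrime v)
    (hvN : ¬ v ∣ p * ℓ') {g : ℕ}
    {R : PRData Kb (FF (p * ℓ')) (kA A) ↥(modularFunctionFieldFullC (kA A) (p * ℓ')) A}
    (hP : LdPkg (p * ℓ') A g R)
    {r : ℕ} (hr : r.Prime) (hrv : r ≠ v) (hrn : Nat.Coprime r (ℓ' + 1))
    (t f : FF p) (P₀ x : Place Kb (FF p)) (a c : Kb)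
    (hP₀ : P₀.ord t = -1) (hP₀fix : ∀ σ : GalQ, galAct p σ • P₀ = P₀)
    (hxfix : ∀ σ ∈ A.decompositionSubgroup ℚ, galAct p σ • x = x)
    (ht : ldφ p ℓ' t ∈ R.O) (hf : ldφ p ℓ' f ∈ R.O)
    (ha : a ∉ A) (hxa : HasValueAt x t a) (hxc : HasValueAt x f c)
    (hpoles_t : ∀ P : Place Kb (FF p), P.ord t < 0 → P.ord (jF p) < 0)
    (hpoles_f : ∀ P : Place Kb (FF p), P.ord f < 0 → ∃ a₀ : A, HasValueAt P (jF p) (a₀ : Kb))
    (hdet : ∀ P : Place Kb (FF p), P.ord t < 0 → P ≠ P₀ →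
      ∃ cP : Kb, HasValueAt P f cP ∧ ¬ (cP ∈ A.nonunits ↔ c ∈ A.nonunits))
    (u : JZero p) (hu : IsDiffClass p x P₀ u) :
    LocDivAbs (A.decompositionSubgroup ℚ) r u := by
  haveI := H.hasPrincipalDivisors_FF (p * ℓ')
  have hR := hP.modPR.isPR
  have hn := hP.modPR.nice
  have hnk := hP.modPR.nice_k
  have hφ := ldφ_integral p ℓ'
  -- poles of `φ f` do not meet poles of `φ t`
  have hno : ∀ P' c' : Place Kb (FF (p * ℓ')), P'.ord (ldφ p ℓ' f) < 0 →
      c'.ord (ldφ p ℓ' t) < 0 → R.r P' ≠ R.r c' := by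
    intro P' c' hP' hc'
    obtain ⟨a₀, ha₀⟩ := hpoles_f _ ((ld_ord_map_neg_iff (ldφ p ℓ') hφ P' f).mp hP')
    have h1 : HasValueAt P' (jF (p * ℓ')) (a₀ : Kb) := by
      rw [← ldφ_jF p ℓ']
      exact (ld_hasValueAt_map (ldφ p ℓ') hφ P' (jF p) a₀).mpr ha₀
    have h2 : c'.ord (jF (p * ℓ')) < 0 := by
      rw [← ldφ_jF p ℓ']
      exact (ld_ord_map_neg_iff (ldφ p ℓ') hφ c' (jF p)).mpr
        (hpoles_t _ ((ld_ord_map_neg_iff (ldφ p ℓ') hφ c' t).mp hc'))
    exact ldnc_no_meet hv hvN hA hP a₀ P' c' h1 h2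
  have hsep := ld_sep hR hn hnk (ldφ p ℓ') hφ t f hf P₀ x c hxc hno hdet
  have hcount := ld_count hR (H.residue_bijective_FF p) (H.residue_bijective_FF (p * ℓ'))
    hnk.hres (ldφ p ℓ') hφ (ldφ_fundamentalIdentity p ℓ') t ht P₀ x hP₀ a ha hxa hsep
  -- the pull-back of `u` lies in `J1`
  have huJ : ldPull p ℓ' u ∈ R.J1 := by
    obtain ⟨D, hD, rfl⟩ := hu
    refine ⟨lvlDegZero (ldφ p ℓ') hφ (ldφ_fundamentalIdentity p ℓ') D, rfl, ?_⟩
    rw [coe_lvlDegZero, hD, hcount]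
    exact AddSubgroup.zero_mem _
  have hrunit : (r : Kb) ∉ A.nonunits := ld_prime_unit hv hA hr hrv
  refine ld_locDivAbs (A.decompositionSubgroup ℚ) r (ℓ' + 1) hrn (ldPull p ℓ') (ldPush p ℓ')
    (fun σ _ x => ldPull_smul p ℓ' σ x) (fun σ _ y => ldPush_smul p ℓ' σ y)
    (ldPush_pull p ℓ' hℓ' hℓ'p) R.J1 ?_ ?_ ?_ u ?_ huJ
  · intro σ hσ y hy
    obtain ⟨σb, h1, h2⟩ := hP.modPR.decomp σ hσ
    rw [galois_smul_pic0_def]
    exact kc_smul_mem_J1 _ σb h1 h2 hy
  · intro k y hy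
    exact div1_pow hR hn hnk hP.modPR.orth hrunit k hy
  · intro k y hy h
    exact hP.tf (r ^ k) (ld_pow_unit hrunit k) y hy h
  · intro σ hσ
    exact ld_diffClass_fixed hu σ (hxfix σ hσ) (hP₀fix σ)

end Fermat.Agent.S15.LD

end
end ZBZ2S15_015_1
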