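/- GENERATED FILE (helper35, build-time optimisation, NOTES/ZB.md): verbatim concatenation of the modules
   Fermat.Agent.S15.LocDivAux
   Do not edit; do not import together with these modules. -/
import Fermat.Agent.ZB.Z2S15_002
import Fermat.Agent.ZB.S05_002

/-! ### bundled: `Fermat.Agent.S15.LocDivAux` -/
section ZBZ2S15_017_0

/-!
# S15 / LOCDIV, piece LD-AUX: four auxiliary lemmas

* `lda_exists_level` : choice of the auxiliary prime `ℓ' ∈ {2, 3}`;
* `lda_int_mem` : `ℤ[1/p] ⊂ A` for `A ∣ v ≠ p`;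
* `lda_unit_of_sq` : `± p⁻²` is a unit of `A`;
* `lda_exists_over` : a place of positive degree has a place above it (fundamental identity).
-/

set_option autoImplicit false
set_option linter.unusedSectionVars false
set_option linter.style.haveILetI false

noncomputable section

namespace Fermat.Agent.S15.LD

open ModularCurve AlgebraicCurve
open Fermat.Agent.S24 Fermat.Agent.ES.M Fermat.Agent.W1 Fermat.Agent.S15

/-- choice of the auxiliary level prime `ℓ'` -/
theorem lda_exists_level {p v r : ℕ} (hp : p.Prime) (hp2 : p ≠ 2) (hp3 : p ≠ 3) (hv : v.Prime)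
    (hvp : v ≠ p) (hr : r.Prime) (hrv : r ≠ v) :
    ∃ ℓ' : ℕ, ℓ'.Prime ∧ ¬ ℓ' ∣ p ∧ ¬ v ∣ p * ℓ' ∧ (5 ≤ v ∨ (5 - v) ∣ p * ℓ') ∧
      Nat.Coprime r (ℓ' + 1) := by
  have h2p : ¬ 2 ∣ p := fun h => hp2 ((Nat.prime_dvd_prime_iff_eq Nat.prime_two hp).1 h).symm
  have h3p : ¬ 3 ∣ p := fun h => hp3 ((Nat.prime_dvd_prime_iff_eq Nat.prime_three hp).1 h).symm
  have hvp' : ¬ v ∣ p := fun h => hvp ((Nat.prime_dvd_prime_iff_eq hv hp).1 h)
  have hcop3 : r ≠ 3 → Nat.Coprime r 3 := fun h =>
    (Nat.coprime_primes hr Nat.prime_three).2 h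
  have hcop4 : r ≠ 2 → Nat.Coprime r 4 := fun h => by
    have h2 : Nat.Coprime r 2 := (Nat.coprime_primes hr Nat.prime_two).2 h
    have : Nat.Coprime r (2 ^ 2) := Nat.Coprime.pow_right 2 h2
    simpa using this
  by_cases hv2 : v = 2
  · subst hv2
    refine ⟨3, Nat.prime_three, h3p, ?_, Or.inr ?_, hcop4 hrv⟩
    · intro h
      rcases (Nat.Prime.dvd_mul Nat.prime_two).1 h with h | h
      · exact h2p h
      · omega
    · exact Dvd.intro_left p rfl
  by_cases hv3 : v = 3
  · subst hv3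
    refine ⟨2, Nat.prime_two, h2p, ?_, Or.inr ?_, hcop3 hrv⟩
    · intro h
      rcases (Nat.Prime.dvd_mul Nat.prime_three).1 h with h | h
      · exact h3p h
      · omega
    · exact Dvd.intro_left p rfl
  have hv5 : 5 ≤ v := by
    have h2 := hv.two_le
    rcases Nat.lt_or_ge v 5 with h | h
    · exfalso
      have h4 : v = 4 := by omega
      subst h4
      exact absurd hv (by decide)
    · exact h
  by_cases hr3 : r = 3
  · subst hr3
    refine ⟨3, Nat.prime_three, h3p, ?_, Or.inl hv5, hcop4 (by decide)⟩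
    intro h
    rcases (Nat.Prime.dvd_mul hv).1 h with h | h
    · exact hvp' h
    · exact hv3 ((Nat.prime_dvd_prime_iff_eq hv Nat.prime_three).1 h)
  · refine ⟨2, Nat.prime_two, h2p, ?_, Or.inl hv5, hcop3 hr3⟩
    intro h
    rcases (Nat.Prime.dvd_mul hv).1 h with h | h
    · exact hvp' h
    · exact hv2 ((Nat.prime_dvd_prime_iff_eq hv Nat.prime_two).1 h)

/-- `p` is a unit of `A` when `A` lies over `v ≠ p` -/
theorem lda_val_p {A : ValuationSubring Kb} {v p : ℕ} (hv : v.Prime) (hA : A.LiesOverPrime v)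
    (hp : p.Prime) (hvp : v ≠ p) : A.valuation ((p : ℕ) : Kb) = 1 :=
  (Fermat.Agent.S05.valuation_natCast_eq_one_iff A hv hA p).2
    (fun h => hvp ((Nat.prime_dvd_prime_iff_eq hv hp).1 h))

/-- `ℤ[1/p] ⊂ A` -/
theorem lda_int_mem {A : ValuationSubring Kb} {v p : ℕ} (hv : v.Prime) (hA : A.LiesOverPrime v)
    (hp : p.Prime) (hvp : v ≠ p) (y : ℚ) (hy : ∃ (k : ℕ) (m : ℤ), y * (p : ℚ) ^ k = m) :
    algebraMap ℚ Kb y ∈ A := by
  obtain ⟨k, m, hkm⟩ := hy
  have hvp1 := lda_val_p hv hA hp hvp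
  have h1 : algebraMap ℚ Kb y * ((p : ℕ) : Kb) ^ k = (m : Kb) := by
    have := congrArg (algebraMap ℚ Kb) hkm
    simpa using this
  rw [← A.valuation_le_one_iff]
  have h2 : A.valuation (algebraMap ℚ Kb y) = A.valuation (m : Kb) := by
    rw [← h1, map_mul, map_pow, hvp1, one_pow, mul_one]
  rw [h2, A.valuation_le_one_iff]
  exact intCast_mem A m

/-- `± p⁻²` is a unit of `A` -/
theorem lda_unit_of_sq {A : ValuationSubring Kb} {v p : ℕ} (hv : v.Prime)
    (hA : A.LiesOverPrime v) (hp : p.Prime) (hvp : v ≠ p) (y : ℚ)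
    (hy : (y * (p : ℚ) ^ 2) ^ 2 = 1) :
    algebraMap ℚ Kb y ∈ A ∧ algebraMap ℚ Kb y ∉ A.nonunits := by
  have hvp1 := lda_val_p hv hA hp hvp
  have h1 : (algebraMap ℚ Kb y * ((p : ℕ) : Kb) ^ 2) ^ 2 = 1 := by
    have := congrArg (algebraMap ℚ Kb) hy
    simpa using this
  have h2 : A.valuation (algebraMap ℚ Kb y) ^ 2 = 1 := by
    have := congrArg A.valuation h1
    rw [map_pow, map_mul, map_pow, hvp1, one_pow, mul_one, map_one] at this
    exact this
  have h3 : A.valuation (algebraMap ℚ Kb y) = 1 := by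
    rcases pow_eq_one_iff.1 h2 with h | h
    · exact h
    · exact absurd h two_ne_zero
  refine ⟨(A.valuation_le_one_iff _).1 h3.le, ?_⟩
  rw [ValuationSubring.mem_nonunits_iff, h3]
  exact lt_irrefl _

/-- a place of nonzero degree has a place above it -/
theorem lda_exists_over {K F F' : Type*} [Field K] [Field F] [Field F'] [Algebra K F]
    [Algebra K F'] [HasPrincipalDivisors K F'] (φ : F →ₐ[K] F') (hφ : φ.toRingHom.IsIntegral)
    (hFI : FundamentalIdentityAlong K φ hφ) (hn : finrankAlong K φ ≠ 0) (x : Place K F)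
    (hx : x.deg ≠ 0) :
    ∃ w : Place K F', w.restrictAlong φ hφ = x := by
  letI := algebraAlong φ
  haveI := isScalarTower_along φ
  haveI := isIntegral_along φ hφ
  haveI : FundamentalIdentity K F F' := hFI
  by_contra hne
  have hempty : x.fiber F' = ∅ := by
    rw [Finset.eq_empty_iff_forall_notMem]
    intro w hw
    exact hne ⟨w, Place.mem_fiber.1 hw⟩
  have h := FundamentalIdentity.sum_ramificationIndex_mul_deg (K := K) (F := F) (F' := F') x
  rw [hempty, Finset.sum_empty] at h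
  have h0 : ((Module.finrank F F' : ℤ)) * (x.deg : ℤ) ≠ 0 := by
    refine mul_ne_zero ?_ ?_
    · exact_mod_cast hn
    · exact_mod_cast hx
  exact h0 h.symm

end Fermat.Agent.S15.LD

end
end ZBZ2S15_017_0
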