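/- GENERATED FILE (helper35, build-time optimisation, NOTES/ZB.md): verbatim concatenation of the modules
   Fermat.Agent.S15.Div1Poly
   Fermat.Agent.S15.Div1Aux
   Fermat.Agent.S15.Div1
   Fermat.Agent.S15.Div1Final
   Fermat.Agent.RIB.SurjQ
   Fermat.Agent.RIB.MP.RedLift
   Fermat.Agent.RIB.MP.RedLiftRed
   Fermat.Agent.R38.TresBridge
   Fermat.Agent.R38.HolTriv
   Fermat.Agent.R38.HolBridge
   Fermat.Agent.R38.HolTrivFinal
   Fermat.Agent.R38.PlanFac
   Fermat.Agent.R38.PlanMono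
   Do not edit; do not import together with these modules. -/
import Mathlib
import Fermat.Agent.ZB.UNIP_035
import Fermat.Agent.ZB.ES_020
import Fermat.Agent.ZB.W1_002
import Fermat.Agent.ZB.INJ_034
import Fermat.Agent.ZB.S05_002
import Fermat.Agent.ZB.ES_007
import Fermat.Agent.ZB.RIB_001
import Fermat.Agent.ZB.ES_005
import Fermat.Agent.ZB.STB_002
import Fermat.Agent.ZB.ES_002
import Fermat.Agent.ZB.RED_001
import Fermat.Agent.ZB.ES_009
import Fermat.Agent.ZB.ES_001

/-! ### bundled: `Fermat.Agent.S15.Div1Poly` -/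
section ZBS15_001_0

/-!
# S15/DIV¹, part 4: the polynomial system `w ^ m = h h'` in coordinates (helper94)

Pure algebra.  `φ : A →+* F`, families `e₁, e₂, e₃, e₄` in `F`;
`cmb φ e c = Σ φ (c i) * e i`.  The unknowns are the coefficients of
`w = cmb e₁ _`, `h = cmb e₂ _`, `h' = cmb e₃ _` (variables `Fin n₁ ⊕ Fin n₂ ⊕ Fin n₃`).

* `polyPhi` : the polynomial `W ^ m - H H'` over `F`;
* `coeff_polyPhi_mem` : its coefficients lie in `S m` for any multiplicative family of additive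
  subgroups `S j` with `e₁ ∈ S 1`, `e₂ i * e₃ j ∈ S m`;
* `exists_system` : if the coefficients are `A`-combinations of `e₄`, there are polynomials
  `q d` over `A` with `Σ φ (q d (s)) * e₄ d = w ^ m - h h'` and the corresponding formula for the
  differential.
-/

set_option autoImplicit false

open MvPolynomial

namespace Fermat.Agent.S15.Div1

variable {A F : Type} [CommRing A] [CommRing F] (φ : A →+* F)

/-- `Σ φ (c i) * e i` -/
def cmb {n : ℕ} (e : Fin n → F) (c : Fin n → A) : F := ∑ i, φ (c i) * e i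

section poly

variable {σ : Type}

/-- the linear form `Σ e i * X (ι i)` -/
noncomputable def polyL {n : ℕ} (e : Fin n → F) (ι : Fin n → σ) : MvPolynomial σ F :=
  ∑ i, C (e i) * X (ι i)

theorem eval_polyL {n : ℕ} (e : Fin n → F) (ι : Fin n → σ) (t : σ → F) :
    eval t (polyL e ι) = ∑ i, t (ι i) * e i := by
  simp only [polyL, map_sum, map_mul, eval_C, eval_X]
  exact Finset.sum_congr rfl fun i _ => mul_comm _ _

theorem pderiv_polyL [DecidableEq σ] {n : ℕ} (e : Fin n → F) (ι : Fin n → σ) (j : σ) :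
    pderiv j (polyL e ι) = ∑ i, C (e i) * Pi.single (M := fun _ => MvPolynomial σ F) j 1 (ι i) := by
  simp only [polyL, map_sum, pderiv_C_mul, pderiv_X]

theorem coeff_polyL_mem {n : ℕ} (e : Fin n → F) (ι : Fin n → σ) (S : AddSubgroup F)
    (he : ∀ i, e i ∈ S) (μ : σ →₀ ℕ) : coeff μ (polyL e ι) ∈ S := by
  classical
  rw [polyL, coeff_sum]
  refine AddSubgroup.sum_mem _ fun i _ => ?_
  rw [coeff_C_mul, coeff_X]
  split_ifs
  · rw [mul_one]; exact he i
  · rw [mul_zero]; exact S.zero_mem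

theorem coeff_mul_mem {S₁ S₂ S₃ : AddSubgroup F} (hmul : ∀ x ∈ S₁, ∀ y ∈ S₂, x * y ∈ S₃)
    {p q : MvPolynomial σ F} (hp : ∀ μ, coeff μ p ∈ S₁) (hq : ∀ μ, coeff μ q ∈ S₂)
    (μ : σ →₀ ℕ) : coeff μ (p * q) ∈ S₃ := by
  classical
  rw [coeff_mul]
  exact AddSubgroup.sum_mem _ fun x _ => hmul _ (hp _) _ (hq _)

theorem coeff_pow_mem (S : ℕ → AddSubgroup F) (h1 : (1 : F) ∈ S 0)
    (hmul : ∀ i j, ∀ x ∈ S i, ∀ y ∈ S j, x * y ∈ S (i + j))
    {p : MvPolynomial σ F} (hp : ∀ μ, coeff μ p ∈ S 1) (m : ℕ) (μ : σ →₀ ℕ) :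
    coeff μ (p ^ m) ∈ S m := by
  classical
  induction m generalizing μ with
  | zero =>
    rw [pow_zero, coeff_one]
    split_ifs
    · exact h1
    · exact (S 0).zero_mem
  | succ m ih =>
    rw [pow_succ]
    exact coeff_mul_mem (hmul m 1) ih hp μ

/-- polynomials with coefficients in the `A`-span of `e` are combinations of the `e d` with
polynomial coefficients over `A` -/
theorem exists_coord {n : ℕ} (e : Fin n → F) (p : MvPolynomial σ F)
    (hp : ∀ μ, ∃ c : Fin n → A, coeff μ p = cmb φ e c) :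
    ∃ q : Fin n → MvPolynomial σ A, p = ∑ d, C (e d) * map φ (q d) := by
  classical
  choose c hc using hp
  refine ⟨fun d => ∑ μ ∈ p.support, monomial μ (c μ d), ?_⟩
  have h1 : ∀ d, C (e d) * map φ (∑ μ ∈ p.support, monomial μ (c μ d))
      = ∑ μ ∈ p.support, monomial μ (φ (c μ d) * e d) := by
    intro d
    rw [map_sum, Finset.mul_sum]
    refine Finset.sum_congr rfl fun μ _ => ?_
    rw [map_monomial, C_mul_monomial, mul_comm]
  simp only [h1]
  rw [Finset.sum_comm]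
  conv_lhs => rw [p.as_sum]
  refine Finset.sum_congr rfl fun μ _ => ?_
  rw [hc μ, cmb, map_sum]

end poly

section system

variable {n₁ n₂ n₃ n₄ : ℕ} (e₁ : Fin n₁ → F) (e₂ : Fin n₂ → F) (e₃ : Fin n₃ → F)
  (e₄ : Fin n₄ → F)

/-- the first block of a point -/
def pt₁ {X : Type} (s : Fin n₁ ⊕ Fin n₂ ⊕ Fin n₃ → X) : Fin n₁ → X := fun a => s (Sum.inl a)

/-- the second block of a point -/
def pt₂ {X : Type} (s : Fin n₁ ⊕ Fin n₂ ⊕ Fin n₃ → X) : Fin n₂ → X :=
  fun b => s (Sum.inr (Sum.inl b))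

/-- the third block of a point -/
def pt₃ {X : Type} (s : Fin n₁ ⊕ Fin n₂ ⊕ Fin n₃ → X) : Fin n₃ → X :=
  fun c => s (Sum.inr (Sum.inr c))

/-- `W = Σ e₁ a X_a` -/
noncomputable def polyW : MvPolynomial (Fin n₁ ⊕ Fin n₂ ⊕ Fin n₃) F := polyL e₁ Sum.inl

/-- `H = Σ e₂ b X_b` -/
noncomputable def polyH : MvPolynomial (Fin n₁ ⊕ Fin n₂ ⊕ Fin n₃) F :=
  polyL e₂ (fun b => Sum.inr (Sum.inl b))

/-- `H' = Σ e₃ c X_c` -/
noncomputable def polyH' : MvPolynomial (Fin n₁ ⊕ Fin n₂ ⊕ Fin n₃) F :=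
  polyL e₃ (fun c => Sum.inr (Sum.inr c))

/-- `W ^ m - H H'` -/
noncomputable def polyPhi (m : ℕ) : MvPolynomial (Fin n₁ ⊕ Fin n₂ ⊕ Fin n₃) F :=
  polyW e₁ ^ m - polyH e₂ * polyH' e₃

theorem coeff_polyPhi_mem (S : ℕ → AddSubgroup F) (h1 : (1 : F) ∈ S 0)
    (hmul : ∀ i j, ∀ x ∈ S i, ∀ y ∈ S j, x * y ∈ S (i + j)) (he₁ : ∀ a, e₁ a ∈ S 1) (m : ℕ)
    (he₂₃ : ∀ b c, e₂ b * e₃ c ∈ S m) (μ : Fin n₁ ⊕ Fin n₂ ⊕ Fin n₃ →₀ ℕ) :
    coeff μ (polyPhi (n₂ := n₂) (n₃ := n₃) e₁ e₂ e₃ m) ∈ S m := by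
  classical
  rw [polyPhi, coeff_sub]
  refine AddSubgroup.sub_mem _ (coeff_pow_mem S h1 hmul
    (fun μ => coeff_polyL_mem e₁ _ (S 1) he₁ μ) m μ) ?_
  -- the product `H H'`
  rw [polyH, polyH', polyL, polyL, Finset.sum_mul, coeff_sum]
  refine AddSubgroup.sum_mem _ fun b _ => ?_
  rw [Finset.mul_sum, coeff_sum]
  refine AddSubgroup.sum_mem _ fun c _ => ?_
  have e : C (e₂ b) * X (Sum.inr (Sum.inl b)) * (C (e₃ c) * X (Sum.inr (Sum.inr c)))
      = C (e₂ b * e₃ c) * (X (Sum.inr (Sum.inl b)) * X (Sum.inr (Sum.inr c)) :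
        MvPolynomial (Fin n₁ ⊕ Fin n₂ ⊕ Fin n₃) F) := by
    rw [C_mul]; ring
  rw [e, coeff_C_mul]
  have hX : (X (Sum.inr (Sum.inl b)) * X (Sum.inr (Sum.inr c)) :
      MvPolynomial (Fin n₁ ⊕ Fin n₂ ⊕ Fin n₃) F)
      = monomial (Finsupp.single (Sum.inr (Sum.inl b)) 1 + Finsupp.single (Sum.inr (Sum.inr c)) 1)
        (1 : F) := by
    rw [X, X, monomial_mul, one_mul]
  rw [hX, coeff_monomial]
  split_ifs
  · rw [mul_one]; exact he₂₃ b c
  · rw [mul_zero]; exact (S m).zero_mem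

theorem eval_polyPhi (m : ℕ) (s : Fin n₁ ⊕ Fin n₂ ⊕ Fin n₃ → A) :
    eval (fun j => φ (s j)) (polyPhi e₁ e₂ e₃ m)
      = cmb φ e₁ (pt₁ s) ^ m - cmb φ e₂ (pt₂ s) * cmb φ e₃ (pt₃ s) := by
  simp only [polyPhi, polyW, polyH, polyH', map_sub, map_pow, map_mul, eval_polyL, cmb, pt₁, pt₂,
    pt₃]

/-- the differential of `W ^ m - H H'` at `s` in the direction `v` -/
theorem deriv_polyPhi (m : ℕ) (s v : Fin n₁ ⊕ Fin n₂ ⊕ Fin n₃ → A) :
    ∑ j, φ (v j) * eval (fun j => φ (s j)) (pderiv j (polyPhi e₁ e₂ e₃ m))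
      = m * cmb φ e₁ (pt₁ s) ^ (m - 1) * cmb φ e₁ (pt₁ v)
        - cmb φ e₂ (pt₂ v) * cmb φ e₃ (pt₃ s) - cmb φ e₂ (pt₂ s) * cmb φ e₃ (pt₃ v) := by
  classical
  have hL : ∀ {n : ℕ} (e : Fin n → F) (ι : Fin n → Fin n₁ ⊕ Fin n₂ ⊕ Fin n₃)
      (_ : Function.Injective ι),
      ∑ j, φ (v j) * eval (fun j => φ (s j)) (pderiv j (polyL e ι)) = ∑ i, φ (v (ι i)) * e i := by
    intro n e ι hι
    simp only [pderiv_polyL, map_sum, map_mul, eval_C, Finset.mul_sum]
    rw [Finset.sum_comm]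
    refine Finset.sum_congr rfl fun i _ => ?_
    rw [Finset.sum_eq_single (ι i)]
    · rw [Pi.single_eq_same, map_one, mul_one, mul_comm]
    · intro j _ hj
      rw [Pi.single_eq_of_ne (Ne.symm hj), map_zero, mul_zero, mul_zero]
    · intro h; exact absurd (Finset.mem_univ _) h
  have h₁ := hL e₁ Sum.inl Sum.inl_injective
  have h₂ := hL e₂ (fun b => Sum.inr (Sum.inl b))
    (fun a b h => Sum.inl_injective (Sum.inr_injective h))
  have h₃ := hL e₃ (fun c => Sum.inr (Sum.inr c))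
    (fun a b h => Sum.inr_injective (Sum.inr_injective h))
  have hj : ∀ j, φ (v j) * eval (fun j => φ (s j)) (pderiv j (polyPhi e₁ e₂ e₃ m))
      = m * cmb φ e₁ (pt₁ s) ^ (m - 1)
          * (φ (v j) * eval (fun j => φ (s j)) (pderiv j (polyL e₁ Sum.inl)))
        - (φ (v j) * eval (fun j => φ (s j))
            (pderiv j (polyL e₂ (fun b => Sum.inr (Sum.inl b))))) * cmb φ e₃ (pt₃ s)
        - cmb φ e₂ (pt₂ s) * (φ (v j) * eval (fun j => φ (s j))
            (pderiv j (polyL e₃ (fun c => Sum.inr (Sum.inr c))))) := by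
    intro j
    simp only [polyPhi, polyW, polyH, polyH', map_sub, pderiv_pow, pderiv_mul, map_mul, map_add,
      map_pow, map_natCast, eval_polyL, cmb, pt₁, pt₂, pt₃]
    ring
  simp only [hj, Finset.sum_sub_distrib, ← Finset.mul_sum, ← Finset.sum_mul, h₁, h₂, h₃]
  rfl

/-- **the system**: polynomials `q d` over `A` computing the coordinates of `w ^ m - h h'` and of
its differential. -/
theorem exists_system (m : ℕ)
    (hp : ∀ μ, ∃ c : Fin n₄ → A, coeff μ (polyPhi e₁ e₂ e₃ m) = cmb φ e₄ c) :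
    ∃ q : Fin n₄ → MvPolynomial (Fin n₁ ⊕ Fin n₂ ⊕ Fin n₃) A,
      (∀ s : Fin n₁ ⊕ Fin n₂ ⊕ Fin n₃ → A,
        cmb φ e₄ (fun d => eval s (q d))
          = cmb φ e₁ (pt₁ s) ^ m - cmb φ e₂ (pt₂ s) * cmb φ e₃ (pt₃ s)) ∧
      ∀ s v : Fin n₁ ⊕ Fin n₂ ⊕ Fin n₃ → A,
        cmb φ e₄ (fun d => ∑ j, eval s (pderiv j (q d)) * v j)
          = m * cmb φ e₁ (pt₁ s) ^ (m - 1) * cmb φ e₁ (pt₁ v)
            - cmb φ e₂ (pt₂ v) * cmb φ e₃ (pt₃ s) - cmb φ e₂ (pt₂ s) * cmb φ e₃ (pt₃ v) := by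
  classical
  obtain ⟨q, hq⟩ := exists_coord φ e₄ (polyPhi e₁ e₂ e₃ m) hp
  have hev : ∀ (s : Fin n₁ ⊕ Fin n₂ ⊕ Fin n₃ → A) (p : MvPolynomial (Fin n₁ ⊕ Fin n₂ ⊕ Fin n₃) A),
      eval (fun j => φ (s j)) (map φ p) = φ (eval s p) := by
    intro s p
    rw [eval_map, eval₂_comp]
    rfl
  refine ⟨q, fun s => ?_, fun s v => ?_⟩
  · rw [← eval_polyPhi, hq]
    simp only [cmb, map_sum, map_mul, eval_C, hev]
    exact Finset.sum_congr rfl fun d _ => mul_comm _ _
  · rw [← deriv_polyPhi, hq]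
    simp only [cmb, map_sum, map_mul, pderiv_C_mul, pderiv_map, eval_C, hev, Finset.mul_sum,
      Finset.sum_mul]
    rw [Finset.sum_comm]
    refine Finset.sum_congr rfl fun j _ => Finset.sum_congr rfl fun d _ => ?_
    ring

end system

end Fermat.Agent.S15.Div1


end ZBS15_001_0

/-! ### bundled: `Fermat.Agent.S15.Div1Aux` -/
section ZBS15_001_1

/-!
# S15/DIV¹, part 5: auxiliary lemmas for the assembly (helper94)

* `rr_mul_mem` : `L(D₁) · L(D₂) ⊂ L(D₁ + D₂)`;
* `latticeSub R D` : the additive subgroup `L(D) ∩ O`;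
* `exists_rep` : a class of the kernel of reduction has a representative `D` with `r_* D = 0`;
* `ob_of_chart` : orthonormal bases for divisors whose reduction is `Σ T + X`, `X ≥ 0`, `T`
  non-special;
* `IsOB.nonunit_of_red_const` : the normalisation argument.
-/

set_option autoImplicit false

open AlgebraicCurve Module WithZero

namespace Fermat.Agent.S15.Div1

open Fermat.Agent.W1 Fermat.Agent.ES.R Fermat.Agent.S24

variable {K F k Fk : Type} [Field K] [Field F] [Algebra K F] [Field k] [Field Fk] [Algebra k Fk]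
variable {A : ValuationSubring K} {R : PRData K F k Fk A}

theorem rr_mul_mem {D₁ D₂ : Divisor K F} {x y : F} (hx : x ∈ riemannRochSpace D₁)
    (hy : y ∈ riemannRochSpace D₂) : x * y ∈ riemannRochSpace (D₁ + D₂) := by
  intro v
  show v.adicValuation (x * y) ≤ exp ((D₁ + D₂) v)
  rw [map_mul, Finsupp.add_apply, exp_add]
  exact mul_le_mul' (hx v) (hy v)

/-- `L(D) ∩ O` -/
def latticeSub (R : PRData K F k Fk A) (D : Divisor K F) : AddSubgroup F where
  carrier := {x | x ∈ riemannRochSpace D ∧ x ∈ R.O}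
  zero_mem' := ⟨Submodule.zero_mem _, R.O.zero_mem⟩
  add_mem' := fun hx hy => ⟨Submodule.add_mem _ hx.1 hy.1, R.O.add_mem _ _ hx.2 hy.2⟩
  neg_mem' := fun hx => ⟨Submodule.neg_mem _ hx.1, R.O.neg_mem _ hx.2⟩

theorem mem_latticeSub {D : Divisor K F} {x : F} :
    x ∈ latticeSub R D ↔ x ∈ riemannRochSpace D ∧ x ∈ R.O := Iff.rfl

/-- the ring homomorphism `A → F` -/
def phiA (A : ValuationSubring K) (F : Type) [Field F] [Algebra K F] : A →+* F :=
  (algebraMap K F).comp A.subtype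

theorem cmb_eq_comb {n : ℕ} (e : Fin n → F) (c : Fin n → A) : cmb (phiA A F) e c = comb e c := by
  unfold cmb comb phiA
  refine Finset.sum_congr rfl fun i _ => ?_
  rw [Algebra.smul_def]
  rfl

/-- a class of the kernel of reduction has a representative whose reduction is `0` -/
theorem exists_rep (hR : R.IsPR) [HasPrincipalDivisors K F] {x : Pic0 K F} (hx : x ∈ R.J1) :
    ∃ (D : Divisor K F) (hD : D ∈ Divisor.degZero (K := K) (F := F)),
      Pic0.mk ⟨D, hD⟩ = x ∧ Finsupp.mapDomain R.r D = 0 := by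
  obtain ⟨D₀, rfl, fb, hfb0, hfb⟩ := hx
  obtain ⟨u, hu⟩ := hR.red_surjective fb
  have hu0 : (u : F) ≠ 0 := by
    intro h0
    have : u = 0 := Subtype.ext h0
    rw [this, map_zero] at hu
    exact hfb0 hu.symm
  obtain ⟨Z, hZ, hZdeg⟩ := HasPrincipalDivisors.exists_divisor (K := K) (u : F) hu0
  have hrZ : Finsupp.mapDomain R.r Z = Finsupp.mapDomain R.r (D₀ : Divisor K F) := by
    ext Q
    rw [hR.r_div u (by rw [hu]; exact hfb0) Z hZ Q, hu, hfb Q]
  have hdeg : (D₀ : Divisor K F) - Z ∈ Divisor.degZero (K := K) (F := F) := by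
    rw [Divisor.mem_degZero, map_sub, hZdeg, Divisor.mem_degZero.mp D₀.2, sub_zero]
  refine ⟨(D₀ : Divisor K F) - Z, hdeg, ?_, ?_⟩
  · unfold Pic0.mk
    rw [QuotientAddGroup.eq, AddSubgroup.mem_addSubgroupOf]
    have h2 : ((-(⟨(D₀ : Divisor K F) - Z, hdeg⟩ : Divisor.degZero (K := K) (F := F)) + D₀ :
        Divisor.degZero (K := K) (F := F)) : Divisor K F) = Z := by
      rw [AddSubgroup.coe_add, AddSubgroup.coe_neg]
      show -((D₀ : Divisor K F) - Z) + (D₀ : Divisor K F) = Z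
      abel
    rw [h2]
    exact ⟨(u : F), hu0, hZ⟩
  · rw [c1_mapDomain_sub, hrZ, sub_self]

/-- orthonormal bases for the divisors whose reduction is `Σ T + X`, `X ≥ 0`, `T` non-special -/
theorem ob_of_chart {g : ℕ} (hR : R.IsPR) (hF : IsNiceCurve K F g) (hFk : IsNiceCurve k Fk g)
    (hO : R.Orth) {T : Finset (Place k Fk)} (hTcard : T.card = g)
    (hT : finrank k ↥(riemannRochSpace (gpSum T)) = 1) (D : Divisor K F) (X : Divisor k Fk)
    (hX : 0 ≤ X) (hr : Finsupp.mapDomain R.r D = gpSum T + X) :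
    ∃ (n : ℕ) (e : Fin n → F), IsOB R D e ∧ (n : ℤ) = Divisor.degree X + 1 := by
  have := hFk.hpd
  have h1 := gp_finrank_chart_add hFk.hres hFk.lower hTcard hT hX
  have h2 : Divisor.degree D = g + Divisor.degree X := by
    rw [← c1_degree_mapDomain hF.hres hFk.hres R.r D, hr, map_add, degree_gpSum hFk.hres, hTcard]
  obtain ⟨n, e, he, hn⟩ := exists_isOB hR hF hFk hO D (by rw [hr, h1, h2]; linarith)
  refine ⟨n, e, he, ?_⟩
  rw [hn, hr, h1]

theorem res_eq_of_sub_nonunit (hR : R.IsPR) {a b : A} (h : ((b - a : A) : K) ∈ A.nonunits) :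
    R.res b = R.res a := by
  have := (hR.res_eq_zero_iff (b - a)).mpr h
  rwa [map_sub, sub_eq_zero] at this

/-- normalisation: if `red (comb α) = 1`, `α a₁` is a unit, `v a₁ ∈ 𝔪` and `red (comb v)` is a
constant, then `red (comb v) = 0`. -/
theorem IsOB.red_eq_zero_of_const (hR : R.IsPR) {D : Divisor K F} {n : ℕ} {e : Fin n → F}
    (h : IsOB R D e) (α v : Fin n → A) (hα : R.red ⟨comb e α, h.comb_memO hR α⟩ = 1)
    (a₁ : Fin n) (ha₁ : ((α a₁ : A) : K) ∉ A.nonunits) (hv₁ : ((v a₁ : A) : K) ∈ A.nonunits)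
    (c : k) (hc : R.red ⟨comb e v, h.comb_memO hR v⟩ = algebraMap k Fk c) :
    R.red ⟨comb e v, h.comb_memO hR v⟩ = 0 := by
  have h1 : ∑ i, (R.res (v i) - c * R.res (α i)) • R.red ⟨e i, h.memO i⟩ = 0 := by
    have e1 := h.red_comb hR v
    have e2 := h.red_comb hR α
    rw [hc] at e1
    rw [hα] at e2
    simp only [sub_smul, mul_smul, Finset.sum_sub_distrib, ← Finset.smul_sum, ← e1, ← e2]
    rw [Algebra.algebraMap_eq_smul_one, sub_self]
  have h2 := Fintype.linearIndependent_iff.mp h.li _ h1 a₁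
  rw [(hR.res_eq_zero_iff (v a₁)).mpr hv₁, zero_sub, neg_eq_zero] at h2
  have h3 : R.res (α a₁) ≠ 0 := fun h0 => ha₁ ((hR.res_eq_zero_iff (α a₁)).mp h0)
  have hc0 : c = 0 := (mul_eq_zero.mp h2).resolve_right h3
  rw [hc, hc0, map_zero]

/-- a combination with reduction `1` has a unit coefficient -/
theorem IsOB.exists_unit_coeff (hR : R.IsPR) {D : Divisor K F} {n : ℕ} {e : Fin n → F}
    (h : IsOB R D e) (α : Fin n → A) (hα : R.red ⟨comb e α, h.comb_memO hR α⟩ = 1) :
    ∃ a₁ : Fin n, ((α a₁ : A) : K) ∉ A.nonunits := by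
  by_contra hne
  rw [not_exists] at hne
  have := h.red_eq_zero_of_nonunit hR α fun i => not_not.mp (hne i)
  rw [hα] at this
  exact one_ne_zero this

end Fermat.Agent.S15.Div1


end ZBS15_001_1

/-! ### bundled: `Fermat.Agent.S15.Div1` -/
section ZBS15_001_2

/-!
# S15/DIV¹: the kernel of reduction is `m`-divisible (helper94)

`stmtDiv1_of : StmtHenselMv → StmtDiv1`.

`x = [D]` with `r_* D = 0` (`exists_rep`).  `TN`, `TR` disjoint non-special sets of `g` places of
the reduced curve, `Nd`, `Rd` lifts.  Orthonormal bases `e₁, e₂, e₃, e₄` of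
`L(Nd + Rd)`, `L(D + m Nd)`, `L(m Rd - D)`, `L(m (Nd + Rd))`.  The system: the coordinates of
`w ^ m - h h'` in `e₄`, and two normalisations.  It is square, the point `(α, β, γ)` (lifts of
`1, 1, 1`) solves it modulo `𝔪`, and the differential is injective modulo `𝔪`
(`tangent_const` and the normalisations).  `StmtHenselMv` gives an exact solution and
`div1_divisor` the class `y`.
-/

set_option autoImplicit false

open AlgebraicCurve Module MvPolynomial

namespace Fermat.Agent.S15.Div1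

open Fermat.Agent.W1 Fermat.Agent.ES.R Fermat.Agent.S24

section sys

variable {A : Type} [CommRing A] {σ : Type}

theorem eval_X_sub_C (i₀ : σ) (c : A) (a : σ → A) : eval a (X i₀ - C c) = a i₀ - c := by
  rw [map_sub, eval_X, eval_C]

theorem sum_pderiv_X_sub_C [Fintype σ] (i₀ : σ) (c : A) (a v : σ → A) :
    ∑ j, eval a (pderiv j (X i₀ - C c)) * v j = v i₀ := by
  classical
  rw [Finset.sum_eq_single i₀]
  · rw [map_sub, pderiv_X_self, pderiv_C, sub_zero, map_one, one_mul]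
  · intro j _ hj
    rw [map_sub, pderiv_X_of_ne (Ne.symm hj), pderiv_C, sub_zero, map_zero, zero_mul]
  · intro h; exact absurd (Finset.mem_univ _) h

end sys

variable {K F k Fk : Type} [Field K] [Field F] [Algebra K F] [Field k] [Field Fk] [Algebra k Fk]
variable {A : ValuationSubring K} {R : PRData K F k Fk A}

theorem zero_mem_nonunits' : (0 : K) ∈ A.nonunits := by
  rw [A.mem_nonunits_iff, map_zero]; exact zero_lt_one

theorem natCast_res (hR : R.IsPR) {m : ℕ} (hm : (m : K) ∉ A.nonunits) : (m : k) ≠ 0 := by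
  intro h0
  apply hm
  have h1 : R.res (m : A) = 0 := by rw [map_natCast]; exact h0
  have h2 := (hR.res_eq_zero_iff (m : A)).mp h1
  simpa using h2

theorem natCast_memO (hR : R.IsPR) (m : ℕ) : (m : F) ∈ R.O := by
  have := gao_algebraMap_mem hR (a := (m : K)) (by exact_mod_cast (m : A).2)
  rwa [map_natCast] at this

theorem stmtDiv1_of (hH : StmtHenselMv) : StmtDiv1 := by
  intro K F k Fk _ _ _ _ _ _ _ A R g hR hF hFk hO m hm x hx
  classical
  have hpd := hF.hpd
  have hpdk := hFk.hpd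
  have hm0 : m ≠ 0 := by
    rintro rfl
    exact hm (by rw [Nat.cast_zero]; exact zero_mem_nonunits')
  have hmk : (m : k) ≠ 0 := natCast_res hR hm
  obtain ⟨D, hDdeg, rfl, hD0⟩ := exists_rep hR hx
  obtain ⟨v₀, -⟩ := hFk.infinite.nonempty
  -- the two non-special sets
  obtain ⟨TN, hTNcard, -, hTN⟩ := gp_exists_chart hFk.hres hFk.upper hFk.infinite ∅
  obtain ⟨TR, hTRcard, hdisj', hTR⟩ := gp_exists_chart hFk.hres hFk.upper hFk.infinite TN
  have hdisj : Disjoint TN TR := hdisj'.symm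
  -- lifts
  have hsurj : Function.Surjective R.r := stmtOnto K F k Fk A R g hR hF hFk
  set ℓ := Function.surjInv hsurj with hℓdef
  have hℓ : R.r ∘ ℓ = id := funext fun Q => Function.surjInv_eq hsurj Q
  set Nd : Divisor K F := Finsupp.mapDomain ℓ (gpSum TN) with hNddef
  set Rd : Divisor K F := Finsupp.mapDomain ℓ (gpSum TR) with hRddef
  have hNd : Finsupp.mapDomain R.r Nd = gpSum TN := by
    rw [hNddef, ← Finsupp.mapDomain_comp, hℓ, Finsupp.mapDomain_id]
  have hRd : Finsupp.mapDomain R.r Rd = gpSum TR := by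
    rw [hRddef, ← Finsupp.mapDomain_comp, hℓ, Finsupp.mapDomain_id]
  obtain ⟨m', rfl⟩ : ∃ m', m = m' + 1 := Nat.exists_eq_succ_of_ne_zero hm0
  -- reductions of the four divisors
  have hrB : Finsupp.mapDomain R.r (Nd + Rd) = gpSum TN + gpSum TR := by
    rw [Finsupp.mapDomain_add, hNd, hRd]
  have hrE : Finsupp.mapDomain R.r (D + (m' + 1) • Nd) = (m' + 1) • gpSum TN := by
    rw [Finsupp.mapDomain_add, mapDomain_nsmul, hD0, hNd, zero_add]
  have hrE' : Finsupp.mapDomain R.r ((m' + 1) • Rd - D) = (m' + 1) • gpSum TR := by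
    rw [c1_mapDomain_sub, mapDomain_nsmul, hD0, hRd, sub_zero]
  have hrM : Finsupp.mapDomain R.r ((m' + 1) • (Nd + Rd))
      = (m' + 1) • (gpSum TN + gpSum TR) := by
    rw [mapDomain_nsmul, hrB]
  -- the four orthonormal bases
  obtain ⟨n₁, e₁, h₁, hn₁⟩ := ob_of_chart hR hF hFk hO hTNcard hTN (Nd + Rd) (gpSum TR)
    (gpSum_nonneg _) hrB
  obtain ⟨n₂, e₂, h₂, hn₂⟩ := ob_of_chart hR hF hFk hO hTNcard hTN (D + (m' + 1) • Nd)
    (m' • gpSum TN) (smul_gpSum_nonneg _ _) (by rw [hrE, succ_nsmul']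
  )
  obtain ⟨n₃, e₃, h₃, hn₃⟩ := ob_of_chart hR hF hFk hO hTRcard hTR ((m' + 1) • Rd - D)
    (m' • gpSum TR) (smul_gpSum_nonneg _ _) (by rw [hrE', succ_nsmul'])
  obtain ⟨n₄, e₄, h₄, hn₄⟩ := ob_of_chart hR hF hFk hO hTNcard hTN ((m' + 1) • (Nd + Rd))
    (m' • gpSum TN + (m' + 1) • gpSum TR)
    (add_nonneg (smul_gpSum_nonneg _ _) (smul_gpSum_nonneg _ _))
    (by rw [hrM, smul_add, succ_nsmul' (gpSum TN)]; abel)
  have hdegN : Divisor.degree (gpSum TN) = g := by rw [degree_gpSum hFk.hres, hTNcard]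
  have hdegR : Divisor.degree (gpSum TR) = g := by rw [degree_gpSum hFk.hres, hTRcard]
  rw [hdegR] at hn₁
  rw [map_nsmul, hdegN] at hn₂
  rw [map_nsmul, hdegR] at hn₃
  rw [map_add, map_nsmul, map_nsmul, hdegN, hdegR] at hn₄
  have hcard : Fintype.card (Fin n₄ ⊕ Bool) = Fintype.card (Fin n₁ ⊕ Fin n₂ ⊕ Fin n₃) := by
    simp only [Fintype.card_sum, Fintype.card_fin, Fintype.card_bool]
    have : ((n₄ + 2 : ℕ) : ℤ) = ((n₁ + (n₂ + n₃) : ℕ) : ℤ) := by
      push_cast
      rw [hn₁, hn₂, hn₃, hn₄]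
      simp only [nsmul_eq_mul]
      push_cast
      ring
    exact_mod_cast this
  -- lifts of `1`
  have h1B : (1 : Fk) ∈ riemannRochSpace (Finsupp.mapDomain R.r (Nd + Rd)) := by
    rw [hrB]; exact gp_one_mem_rr (add_nonneg (gpSum_nonneg _) (gpSum_nonneg _))
  have h1E : (1 : Fk) ∈ riemannRochSpace (Finsupp.mapDomain R.r (D + (m' + 1) • Nd)) := by
    rw [hrE]; exact gp_one_mem_rr (smul_gpSum_nonneg _ _)
  have h1E' : (1 : Fk) ∈ riemannRochSpace (Finsupp.mapDomain R.r ((m' + 1) • Rd - D)) := by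
    rw [hrE']; exact gp_one_mem_rr (smul_gpSum_nonneg _ _)
  obtain ⟨α, hα⟩ := h₁.exists_lift hR h1B
  obtain ⟨β, hβ⟩ := h₂.exists_lift hR h1E
  obtain ⟨γ, hγ⟩ := h₃.exists_lift hR h1E'
  obtain ⟨a₁, ha₁⟩ := h₁.exists_unit_coeff hR α hα
  obtain ⟨b₁, hb₁⟩ := h₂.exists_unit_coeff hR β hβ
  -- the polynomial system
  have hp : ∀ μ, ∃ c : Fin n₄ → A,
      coeff μ (polyPhi e₁ e₂ e₃ (m' + 1)) = cmb (phiA A F) e₄ c := by
    intro μ
    have hmem := coeff_polyPhi_mem e₁ e₂ e₃ (fun j => latticeSub R (j • (Nd + Rd)))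
      (by
        refine ⟨?_, R.O.one_mem⟩
        rw [zero_smul]; exact gp_one_mem_rr le_rfl)
      (fun i j x hx y hy => ⟨by rw [add_smul]; exact rr_mul_mem hx.1 hy.1,
        R.O.mul_mem _ _ hx.2 hy.2⟩)
      (fun a => ⟨by rw [one_smul]; exact h₁.mem_rr a, h₁.memO a⟩) (m' + 1)
      (fun b c => ⟨by
        have := rr_mul_mem (h₂.mem_rr b) (h₃.mem_rr c)
        have e : D + (m' + 1) • Nd + ((m' + 1) • Rd - D) = (m' + 1) • (Nd + Rd) := by
          rw [smul_add]; abel
        rwa [e] at this, R.O.mul_mem _ _ (h₂.memO b) (h₃.memO c)⟩) μ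
    obtain ⟨c, hc⟩ := h₄.exists_coeff hR hmem.1 hmem.2
    exact ⟨c, by rw [hc, cmb_eq_comb]⟩
  obtain ⟨q, hq1, hq2⟩ := exists_system (phiA A F) e₁ e₂ e₃ e₄ (m' + 1) hp
  simp only [cmb_eq_comb] at hq1 hq2
  set f : Fin n₄ ⊕ Bool → MvPolynomial (Fin n₁ ⊕ Fin n₂ ⊕ Fin n₃) A := fun i =>
    match i with
    | Sum.inl d => q d
    | Sum.inr false => X (Sum.inl a₁) - C (α a₁)
    | Sum.inr true => X (Sum.inr (Sum.inl b₁)) - C (β b₁) with hf
  set a₀ : Fin n₁ ⊕ Fin n₂ ⊕ Fin n₃ → A := Sum.elim α (Sum.elim β γ) with ha₀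
  have hp₁ : pt₁ a₀ = α := rfl
  have hp₂ : pt₂ a₀ = β := rfl
  have hp₃ : pt₃ a₀ = γ := rfl
  -- (i) the point solves the system modulo `𝔪`
  have hi : ∀ i, ((eval a₀ (f i) : A) : K) ∈ A.nonunits := by
    intro i
    rcases i with d | b
    · have e1 := hq1 a₀
      rw [hp₁, hp₂, hp₃] at e1
      refine h₄.coeff_nonunit hR (fun d => eval a₀ (q d)) ?_ d
      have e2 : (⟨comb e₄ fun d => eval a₀ (q d), h₄.comb_memO hR _⟩ : R.O)
          = ⟨comb e₁ α, h₁.comb_memO hR α⟩ ^ (m' + 1)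
            - ⟨comb e₂ β, h₂.comb_memO hR β⟩ * ⟨comb e₃ γ, h₃.comb_memO hR γ⟩ :=
        Subtype.ext e1
      rw [e2, map_sub, map_pow, map_mul, hα, hβ, hγ, one_pow, mul_one, sub_self]
    · cases b
      · show ((eval a₀ (X (Sum.inl a₁) - C (α a₁)) : A) : K) ∈ A.nonunits
        rw [eval_X_sub_C]
        have : a₀ (Sum.inl a₁) - α a₁ = 0 := sub_self _
        rw [this]; exact zero_mem_nonunits'
      · show ((eval a₀ (X (Sum.inr (Sum.inl b₁)) - C (β b₁)) : A) : K) ∈ A.nonunits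
        rw [eval_X_sub_C]
        have : a₀ (Sum.inr (Sum.inl b₁)) - β b₁ = 0 := sub_self _
        rw [this]; exact zero_mem_nonunits'
  -- (ii) the differential is injective modulo `𝔪`
  have hii : ∀ v : Fin n₁ ⊕ Fin n₂ ⊕ Fin n₃ → A,
      (∀ i, ((∑ j, eval a₀ (pderiv j (f i)) * v j : A) : K) ∈ A.nonunits) →
      ∀ j, ((v j : A) : K) ∈ A.nonunits := by
    intro v hv
    have hv₁ : ((v (Sum.inl a₁) : A) : K) ∈ A.nonunits := by
      have := hv (Sum.inr false)
      have e : ∑ j, eval a₀ (pderiv j (f (Sum.inr false))) * v j = v (Sum.inl a₁) :=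
        sum_pderiv_X_sub_C _ _ _ _
      rwa [e] at this
    have hv₂ : ((v (Sum.inr (Sum.inl b₁)) : A) : K) ∈ A.nonunits := by
      have := hv (Sum.inr true)
      have e : ∑ j, eval a₀ (pderiv j (f (Sum.inr true))) * v j = v (Sum.inr (Sum.inl b₁)) :=
        sum_pderiv_X_sub_C _ _ _ _
      rwa [e] at this
    have e1 := hq2 a₀ v
    rw [hp₁, hp₂, hp₃] at e1
    have hred0 := h₄.red_eq_zero_of_nonunit hR
      (fun d => ∑ j, eval a₀ (pderiv j (q d)) * v j) (fun d => hv (Sum.inl d))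
    have e2 : (⟨comb e₄ fun d => ∑ j, eval a₀ (pderiv j (q d)) * v j, h₄.comb_memO hR _⟩ : R.O)
        = ⟨((m' + 1 : ℕ) : F), natCast_memO hR _⟩
            * ⟨comb e₁ α, h₁.comb_memO hR α⟩ ^ (m' + 1 - 1)
            * ⟨comb e₁ (pt₁ v), h₁.comb_memO hR _⟩
          - ⟨comb e₂ (pt₂ v), h₂.comb_memO hR _⟩ * ⟨comb e₃ γ, h₃.comb_memO hR γ⟩
          - ⟨comb e₂ β, h₂.comb_memO hR β⟩ * ⟨comb e₃ (pt₃ v), h₃.comb_memO hR _⟩ :=
      Subtype.ext e1
    have hmO : (⟨((m' + 1 : ℕ) : F), natCast_memO hR _⟩ : R.O) = ((m' + 1 : ℕ) : R.O) :=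
      Subtype.ext (by push_cast; rfl)
    rw [e2, map_sub, map_sub, map_mul, map_mul, map_mul, map_mul, map_pow, hα, hβ, hγ, one_pow,
      mul_one, mul_one, one_mul, hmO, map_natCast] at hred0
    have heq : ((m' + 1 : ℕ) : Fk) * R.red ⟨comb e₁ (pt₁ v), h₁.comb_memO hR _⟩
        = R.red ⟨comb e₂ (pt₂ v), h₂.comb_memO hR _⟩
          + R.red ⟨comb e₃ (pt₃ v), h₃.comb_memO hR _⟩ := by
      linear_combination hred0
    have hu := h₁.red_comb_mem_rr hR (pt₁ v)
    have hvv := h₂.red_comb_mem_rr hR (pt₂ v)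
    have hhh := h₃.red_comb_mem_rr hR (pt₃ v)
    rw [hrB] at hu
    rw [hrE] at hvv
    rw [hrE'] at hhh
    obtain ⟨⟨c₁, hc₁⟩, ⟨c₂, hc₂⟩, -⟩ := tangent_const hFk.hres v₀ hdisj hTN hTR (m' + 1) hmk
      hu hvv hhh heq
    have hu0 := h₁.red_eq_zero_of_const hR α (pt₁ v) hα a₁ ha₁ hv₁ c₁ hc₁
    have hv0 := h₂.red_eq_zero_of_const hR β (pt₂ v) hβ b₁ hb₁ hv₂ c₂ hc₂
    have hh0 : R.red ⟨comb e₃ (pt₃ v), h₃.comb_memO hR _⟩ = 0 := by
      rw [hu0, hv0, mul_zero, zero_add] at heq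
      exact heq.symm
    intro j
    rcases j with a | b | c
    · exact h₁.coeff_nonunit hR (pt₁ v) hu0 a
    · exact h₂.coeff_nonunit hR (pt₂ v) hv0 b
    · exact h₃.coeff_nonunit hR (pt₃ v) hh0 c
  -- the exact solution
  obtain ⟨b, hb, hfb⟩ := hH K A (Fin n₁ ⊕ Fin n₂ ⊕ Fin n₃) (Fin n₄ ⊕ Bool) hcard f a₀ hi hii
  have hres : ∀ j, R.res (b j) = R.res (a₀ j) := fun j => res_eq_of_sub_nonunit hR (hb j)
  have hw1 : R.red ⟨comb e₁ (pt₁ b), h₁.comb_memO hR _⟩ = 1 := by
    rw [← hα, h₁.red_comb hR, h₁.red_comb hR]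
    exact Finset.sum_congr rfl fun i _ => by rw [pt₁, hres]; rfl
  have hh1 : R.red ⟨comb e₂ (pt₂ b), h₂.comb_memO hR _⟩ = 1 := by
    rw [← hβ, h₂.red_comb hR, h₂.red_comb hR]
    exact Finset.sum_congr rfl fun i _ => by rw [pt₂, hres]; rfl
  have hh'1 : R.red ⟨comb e₃ (pt₃ b), h₃.comb_memO hR _⟩ = 1 := by
    rw [← hγ, h₃.red_comb hR, h₃.red_comb hR]
    exact Finset.sum_congr rfl fun i _ => by rw [pt₃, hres]; rfl
  have heq : comb e₁ (pt₁ b) ^ (m' + 1) = comb e₂ (pt₂ b) * comb e₃ (pt₃ b) := by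
    have e1 := hq1 b
    have e2 : (comb e₄ fun d => eval b (q d)) = 0 := by
      unfold comb
      refine Finset.sum_eq_zero fun d _ => ?_
      have := hfb (Sum.inl d)
      have e3 : eval b (q d) = 0 := this
      show ((eval b (q d) : A) : K) • e₄ d = 0
      rw [e3]; simp
    rw [e2] at e1
    exact (sub_eq_zero.mp e1.symm)
  exact div1_divisor hR hF hdisj Nd Rd D hNd hRd hD0 hDdeg (m' + 1) (Nat.succ_ne_zero _)
    _ _ _ (h₁.comb_memO hR _) (h₂.comb_memO hR _) (h₃.comb_memO hR _) hw1 hh1 hh'1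
    (h₁.comb_mem_rr _) (h₂.comb_mem_rr _) (h₃.comb_mem_rr _) heq

end Fermat.Agent.S15.Div1


end ZBS15_001_2

/-! ### bundled: `Fermat.Agent.S15.Div1Final` -/
section ZBS15_001_3

/-!
# S15/DIV¹, final: the kernel of reduction is divisible by every unit `m` of `A`

`stmtDiv1 : StmtDiv1` (unconditional): `K` algebraically closed, `A ⊂ K` a valuation ring,
`R : PRData K F k Fk A` a reduction package (`IsPR`, `Orth`, nice curves of the same genus);
for `m : ℕ` with `(m : K) ∉ A.nonunits` every class `x ∈ R.J1` is `m • y` with `y ∈ R.J1`.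

Geometry: helper94 (`Div1.lean`); multi-variable Hensel: helper24 (`Div1Hensel.lean`).
-/

set_option autoImplicit false

namespace Fermat.Agent.S15

theorem stmtDiv1 : StmtDiv1 := Div1.stmtDiv1_of stmtHenselMv

open Fermat.Agent.W1 AlgebraicCurve in
/-- divisibility by a power: `p ^ n` is a unit as soon as `p` is. -/
theorem div1_pow {K F k Fk : Type} [Field K] [Field F] [Algebra K F] [Field k] [Field Fk]
    [Algebra k Fk] [IsAlgClosed K] {A : ValuationSubring K} {R : PRData K F k Fk A} {g : ℕ}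
    (hR : R.IsPR) (hF : IsNiceCurve K F g) (hFk : IsNiceCurve k Fk g) (hO : R.Orth)
    {p : ℕ} (hp : (p : K) ∉ A.nonunits) (n : ℕ) {x : Pic0 K F} (hx : x ∈ R.J1) :
    ∃ y : Pic0 K F, y ∈ R.J1 ∧ (p ^ n) • y = x := by
  refine stmtDiv1 K F k Fk A R g hR hF hFk hO (p ^ n) ?_ x hx
  rw [A.mem_nonunits_iff, not_lt] at hp ⊢
  rw [Nat.cast_pow, map_pow]
  exact one_le_pow₀ hp

end Fermat.Agent.S15


end ZBS15_001_3

/-! ### bundled: `Fermat.Agent.RIB.SurjQ` -/
section ZBS15_001_4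

/-!
# (SURJ-q): the specialization map is onto the torsion prime to the residue characteristic

Abstract part (reduction package `R : PRData K F k Fk A` of `W1/PlanGeo.lean`, `K` algebraically
closed, nice curves of the same genus):

* `surjq_sp_surjective` : `sp : Pic⁰(F) → Pic⁰(F̄)`, `[D] ↦ [r_* D]`, is onto
  (`W1.stmtOnto`: every place of `F̄` is the reduction of a place of `F`);
* `surjq_exists_torsion_lift` : for `m` a unit of `A`, every `y ∈ Pic⁰(F̄)[m]` is `sp x` with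
  `m • x = 0`  (`S15.stmtDiv1`: the kernel of reduction is `m`-divisible).

Modular part (`ModPRG`, the reduction package of `X₀(N)` at `A ∣ ℓ`, `ℓ ∤ N`, of
`S15/RedPkg.lean`; it exists by `s15red_exists_pkg` for `5 ≤ ℓ ∨ (5 - ℓ) ∣ N`):

* `surjq_modular_sp_surjective` : `sp : J₀(N) → Pic⁰(F̄_N)` is onto;
* `surjq_modular` : **(SURJ-q)** for `ℓ ∤ m`, every `y ∈ Pic⁰(F̄_N)[m]` is `sp x`, `m • x = 0`;
* `surjq_modular_unique` : this `x` is unique (S18);
* `surjq_modular_bijOn` : `sp` is a bijection `J₀(N)[m] → Pic⁰(F̄_N)[m]`;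
* `surjq_exists` : existence of the package with all of this, for `ℓ ∤ N`, `5 ≤ ℓ ∨ (5 - ℓ) ∣ N`.
-/

set_option autoImplicit false
set_option linter.unusedSectionVars false
set_option linter.style.haveILetI false
set_option synthInstance.maxHeartbeats 400000
set_option maxHeartbeats 1600000

open ModularCurve AlgebraicCurve Module

namespace Fermat.Agent.RIB

open Fermat.Agent.W1 Fermat.Agent.S15 Fermat.Agent.S24 Fermat.Agent.ES.M Fermat.Agent.DEU

/-! ## 1. Abstract part -/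

section Abstract

variable {K F k Fk : Type} [Field K] [Field F] [Algebra K F] [Field k] [Field Fk] [Algebra k Fk]
variable {A : ValuationSubring K}

/-- the specialization map is onto -/
theorem surjq_sp_surjective (R : PRData K F k Fk A) (hR : R.IsPR) {g : ℕ}
    (hF : IsNiceCurve K F g) (hFk : IsNiceCurve k Fk g) :
    Function.Surjective (s15red_sp R hR hF.hres hFk.hres) := by
  intro y
  obtain ⟨E, rfl⟩ := Pic0.mk_surjective y
  have honto : Function.Surjective R.r := stmtOnto K F k Fk A R g hR hF hFk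
  obtain ⟨s, hs⟩ := honto.hasRightInverse
  have hrs : R.r ∘ s = id := funext hs
  have hmap : Finsupp.mapDomain R.r (Finsupp.mapDomain s (E : Divisor k Fk)) =
      (E : Divisor k Fk) := by
    rw [← Finsupp.mapDomain_comp, hrs, Finsupp.mapDomain_id]
  have hdeg : Finsupp.mapDomain s (E : Divisor k Fk) ∈ Divisor.degZero (K := K) (F := F) := by
    rw [Divisor.mem_degZero, ← c1_degree_mapDomain hF.hres hFk.hres R.r, hmap]
    exact Divisor.mem_degZero.mp E.2
  refine ⟨Pic0.mk ⟨_, hdeg⟩, ?_⟩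
  rw [s15red_sp_mk]
  congr 1
  exact Subtype.ext hmap

/-- **(SURJ), abstract form**: torsion classes of order prime to the residue characteristic
lift to torsion classes. -/
theorem surjq_exists_torsion_lift [IsAlgClosed K] (R : PRData K F k Fk A) (hR : R.IsPR) {g : ℕ}
    (hF : IsNiceCurve K F g) (hFk : IsNiceCurve k Fk g) (hO : R.Orth)
    {m : ℕ} (hm : (m : K) ∉ A.nonunits) (y : Pic0 k Fk) (hy : m • y = 0) :
    ∃ x : Pic0 K F, m • x = 0 ∧ s15red_sp R hR hF.hres hFk.hres x = y := by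
  obtain ⟨x₀, hx₀⟩ := surjq_sp_surjective R hR hF hFk y
  have h1 : m • x₀ ∈ R.J1 := by
    rw [← s15red_sp_eq_zero_iff R hR hF.hres hFk.hres, map_nsmul, hx₀, hy]
  obtain ⟨z, hz, hmz⟩ := stmtDiv1 K F k Fk A R g hR hF hFk hO m hm (m • x₀) h1
  refine ⟨x₀ - z, ?_, ?_⟩
  · rw [nsmul_sub, hmz, sub_self]
  · rw [map_sub, (s15red_sp_eq_zero_iff R hR hF.hres hFk.hres z).mpr hz, sub_zero, hx₀]

end Abstract

/-! ## 2. Modular part -/

section Modular

variable {N : ℕ} [NeZero N] {A : ValuationSubring Kb} {ℓ : ℕ} {hℓ : ℓ.Prime}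
  {hA : A.LiesOverPrime ℓ} {hRedF : StmtRedF N A}
  {r : Place Kb (FF N) → Place (kA A) ↥(modularFunctionFieldFullC (kA A) N)}
  {sp : JZero N →+ JZeroC (kA A) N} {Pinf : Place Kb (FF N)}
  {Qinf : Place (kA A) ↥(modularFunctionFieldFullC (kA A) N)}

/-- the specialization map of the package is the generic one -/
theorem surjq_sp_eq (h : ModPRG N A hℓ hA hRedF r sp Pinf Qinf) (x : JZero N) :
    sp x = s15red_sp (modPRData N A hRedF r) h.modPR.isPR h.modPR.nice.hres
      h.modPR.nice_k.hres x := by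
  obtain ⟨D, rfl⟩ := Pic0.mk_surjective x
  rw [s15red_sp_mk]
  exact h.sp_mk D (s15red_degZeroHom (modPRData N A hRedF r) h.modPR.nice.hres
    h.modPR.nice_k.hres D).2

/-- the specialization map `J₀(N) → Pic⁰(F̄_N)` is onto -/
theorem surjq_modular_sp_surjective (h : ModPRG N A hℓ hA hRedF r sp Pinf Qinf) :
    Function.Surjective sp := by
  intro y
  obtain ⟨x, hx⟩ := surjq_sp_surjective (modPRData N A hRedF r) h.modPR.isPR h.modPR.nice
    h.modPR.nice_k y
  exact ⟨x, by rw [surjq_sp_eq h, hx]⟩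

/-- **(SURJ-q)**: every class of `Pic⁰(F̄_N)` killed by `m`, `ℓ ∤ m`, is the specialization of a
class of `J₀(N)` killed by `m`. -/
theorem surjq_modular (h : ModPRG N A hℓ hA hRedF r sp Pinf Qinf) {m : ℕ} (hm : ¬ ℓ ∣ m)
    (y : JZeroC (kA A) N) (hy : m • y = 0) :
    ∃ x : JZero N, m • x = 0 ∧ sp x = y := by
  have hmu : ((m : ℕ) : Kb) ∉ A.nonunits := by
    rw [Fermat.Agent.S05.natCast_mem_nonunits_iff A hℓ hA]
    exact hm
  obtain ⟨x, hx, hxy⟩ := surjq_exists_torsion_lift (modPRData N A hRedF r) h.modPR.isPR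
    h.modPR.nice h.modPR.nice_k h.modPR.orth hmu y hy
  exact ⟨x, hx, by rw [surjq_sp_eq h, hxy]⟩

/-- the lift of (SURJ-q) is unique (S18) -/
theorem surjq_modular_unique (h : ModPRG N A hℓ hA hRedF r sp Pinf Qinf) {m : ℕ} (hm : ¬ ℓ ∣ m)
    {x x' : JZero N} (hx : m • x = 0) (hx' : m • x' = 0) (hsp : sp x = sp x') : x = x' := by
  have h0 : x - x' = 0 := h.s18 m hm (x - x') (by rw [nsmul_sub, hx, hx', sub_zero])
    (by rw [map_sub, hsp, sub_self])
  exact sub_eq_zero.mp h0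

/-- `sp` is a bijection from the `m`-torsion of `J₀(N)` onto the `m`-torsion of `Pic⁰(F̄_N)` -/
theorem surjq_modular_bijOn (h : ModPRG N A hℓ hA hRedF r sp Pinf Qinf) {m : ℕ} (hm : ¬ ℓ ∣ m) :
    Set.BijOn sp {x : JZero N | m • x = 0} {y : JZeroC (kA A) N | m • y = 0} := by
  refine ⟨fun x hx => ?_, fun x hx x' hx' hsp => surjq_modular_unique h hm hx hx' hsp,
    fun y hy => ?_⟩
  · show m • sp x = 0
    rw [← map_nsmul, (hx : m • x = 0), map_zero]
  · obtain ⟨x, hx, hxy⟩ := surjq_modular h hm y hy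
    exact ⟨x, hx, hxy⟩

end Modular

/-- **(SURJ-q), existence form**: for `ℓ ∤ N`, `5 ≤ ℓ` or `(5 - ℓ) ∣ N`, and a place `A ∣ ℓ`
there is a reduction package of `X₀(N)` whose specialization map is onto and restricts to a
bijection on the `m`-torsion for every `m` prime to `ℓ`. -/
theorem surjq_exists (N : ℕ) [NeZero N] (ℓ : ℕ) (hℓ : ℓ.Prime) (hℓN : ¬ ℓ ∣ N)
    (h5 : 5 ≤ ℓ ∨ (5 - ℓ) ∣ N) (A : ValuationSubring Kb) (hA : A.LiesOverPrime ℓ) :
    ∃ (r : Place Kb (FF N) → Place (kA A) ↥(modularFunctionFieldFullC (kA A) N))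
      (sp : JZero N →+ JZeroC (kA A) N) (Pinf : Place Kb (FF N))
      (Qinf : Place (kA A) ↥(modularFunctionFieldFullC (kA A) N)),
      ModPRG N A hℓ hA (stmtRedF N A ℓ hℓ hℓN hA) r sp Pinf Qinf ∧
      Function.Surjective sp ∧
      ∀ m : ℕ, ¬ ℓ ∣ m →
        Set.BijOn sp {x : JZero N | m • x = 0} {y : JZeroC (kA A) N | m • y = 0} := by
  obtain ⟨r, sp, Pinf, Qinf, h⟩ := s15red_exists_pkg N ℓ hℓ hℓN h5 A hA
  exact ⟨r, sp, Pinf, Qinf, h, surjq_modular_sp_surjective h,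
    fun m hm => surjq_modular_bijOn h hm⟩

end Fermat.Agent.RIB


end ZBS15_001_4

/-! ### bundled: `Fermat.Agent.RIB.MP.RedLift` -/
section ZBS15_001_5

/-!
# MP-RED-LIFT: Kummer functions on the special fibre lift (function-level (SURJ-q))

Abstract part (reduction package `R : PRData K F k Fk A`, nice curves of the same genus, `K`
algebraically closed, `m` a unit of `A`):

* `ribmp_rl_const_of_ord_eq_zero` : a function without zeros and poles is a nonzero constant;
* `ribmp_rl_kummerRel_red` : if `v ∈ O` is a Kummer function of `x` with `red v ≠ 0`, then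
  `red v` is a Kummer function of `sp x`;
* `ribmp_rl_abstract` : if `ū` is a Kummer function (exponent `m`) of `ȳ ∈ Pic⁰(F̄)`, there are
  `x ∈ Pic⁰(F)` and `v ∈ O` with `m • x = 0`, `sp x = ȳ`, `v` a Kummer function of `x` and
  `red v = ū`.

Modular part (`ModPRG`, the reduction package of `X₀(N)` at `A ∣ ℓ`, `ℓ ∤ N`):

* `ribmp_rl_modular` : the same with `sp` of the package and `GaussRed N A v ū`.
-/

set_option autoImplicit false
set_option linter.unusedSectionVars false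
set_option linter.style.haveILetI false
set_option synthInstance.maxHeartbeats 400000
set_option maxHeartbeats 1600000

open ModularCurve AlgebraicCurve Module

namespace Fermat.Agent.RIB.MP

open Fermat.Agent.W1 Fermat.Agent.S15 Fermat.Agent.S24 Fermat.Agent.ES.M Fermat.Agent.DEU
  Fermat.Agent.ES Fermat.Agent.ES.R Fermat.Agent.RIB

/-! ## 1. Abstract part -/

section Abstract

variable {K F k Fk : Type} [Field K] [Field F] [Algebra K F] [Field k] [Field Fk] [Algebra k Fk]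
variable {A : ValuationSubring K}

/-- a function without zeros and poles is a nonzero constant -/
theorem ribmp_rl_const_of_ord_eq_zero [HasPrincipalDivisors k Fk]
    (hres : ∀ v : Place k Fk, Function.Bijective (algebraMap k v.ResidueField))
    (v₀ : Place k Fk) {c : Fk} (hc0 : c ≠ 0) (hc : ∀ v : Place k Fk, v.ord c = 0) :
    ∃ a : k, a ≠ 0 ∧ c = algebraMap k Fk a := by
  obtain ⟨a, ha⟩ := exists_sub_smul_ord_gt v₀ (hres v₀) hc0 (one_ne_zero (α := Fk))
    (by rw [hc v₀, v₀.ord_one])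
  have key : c - a • (1 : Fk) = 0 := by
    rcases ha with h | h
    · exact h
    · by_contra hne
      rw [v₀.ord_one] at h
      have hmem : c - a • (1 : Fk) ∈ riemannRochSpace (-(Finsupp.single v₀ (1 : ℤ))) := by
        rw [mem_riemannRochSpace_iff]
        intro v
        right
        by_cases hv : v = v₀
        · subst hv
          simp only [Finsupp.coe_neg, Pi.neg_apply, Finsupp.single_eq_same, neg_neg]
          omega
        · have h1 : (-(Finsupp.single v₀ (1 : ℤ)) : Divisor k Fk) v = 0 := by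
            simp only [Finsupp.coe_neg, Pi.neg_apply, neg_eq_zero]
            exact Finsupp.single_eq_of_ne (Ne.symm (Ne.symm hv))
          rw [h1, neg_zero]
          have h2 := (v.adicValuation_le_one_iff (f := c - a • (1 : Fk))).mp (by
            refine (Valuation.map_sub _ _ _).trans (max_le ?_ ?_)
            · exact (v.adicValuation_le_one_iff).mpr (Or.inr (hc v).ge)
            · rw [Algebra.smul_def, mul_one]
              exact v.adicValuation_algebraMap_le_one a)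
          exact h2.resolve_left hne
      have hdeg : Divisor.degree (-(Finsupp.single v₀ (1 : ℤ)) : Divisor k Fk) < 0 := by
        rw [map_neg, Divisor.degree_single, place_deg_eq_one v₀ (hres v₀)]
        norm_num
      rw [rr_eq_bot_of_degree_neg hdeg, Submodule.mem_bot] at hmem
      exact hne hmem
  have hca : c = algebraMap k Fk a := by
    rw [sub_eq_zero, Algebra.smul_def, mul_one] at key
    exact key
  refine ⟨a, ?_, hca⟩
  rintro rfl
  rw [map_zero] at hca
  exact hc0 hca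

/-- the reduction of a Kummer function is a Kummer function of the specialization -/
theorem ribmp_rl_kummerRel_red (R : PRData K F k Fk A) (hR : R.IsPR)
    (hres : ∀ v : Place K F, Function.Bijective (algebraMap K v.ResidueField))
    (hresk : ∀ v : Place k Fk, Function.Bijective (algebraMap k v.ResidueField))
    {m : ℕ} {x : Pic0 K F} (v : R.O) (hv : KummerRel m x (v : F)) (hred : R.red v ≠ 0) :
    KummerRel m (s15red_sp R hR hres hresk x) (R.red v) := by
  obtain ⟨D, rfl, hv0, hD⟩ := hv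
  refine ⟨s15red_degZeroHom R hres hresk D, (s15red_sp_mk R hR hres hresk D).symm, hred,
    fun Q => ?_⟩
  rw [s15red_coe_degZeroHom]
  have h1 := hR.r_div v hred ((m : ℤ) • (D : Divisor K F)) (fun P => by
    rw [Finsupp.smul_apply, smul_eq_mul]
    exact hD P) Q
  rw [← h1, Finsupp.mapDomain_smul, Finsupp.smul_apply, smul_eq_mul]

/-- multiplying a Kummer function by an `m`-th power -/
theorem ribmp_rl_kummerRel_mul_pow [HasPrincipalDivisors K F] {m : ℕ} {x : Pic0 K F} {u : F}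
    (h : KummerRel m x u) {g : F} (hg : g ≠ 0) : KummerRel m x (u * g ^ m) := by
  obtain ⟨Dg, hDg, hdeg⟩ := HasPrincipalDivisors.exists_divisor (K := K) g hg
  have h0 : KummerRel m (0 : Pic0 K F) (g ^ m) := by
    refine ⟨⟨Dg, Divisor.mem_degZero.mpr hdeg⟩, ?_, pow_ne_zero m hg, fun v => ?_⟩
    · rw [pic0_mk_eq_zero_iff]
      exact ⟨g, hg, hDg⟩
    · have h1 : v.ord (g ^ m) = (m : ℤ) * v.ord g := by
        have := v.ord_zpow g (m : ℤ)
        rwa [zpow_natCast] at this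
      rw [h1]
      show (m : ℤ) * Dg v = _
      rw [hDg v]
  have := h.add h0
  rwa [add_zero] at this

/-- **MP-RED-LIFT, abstract form.**  A Kummer function `ū` of a class `ȳ` of the special fibre
is the reduction of a Kummer function `v` of a class `x` with `m • x = 0`, `sp x = ȳ`. -/
theorem ribmp_rl_abstract [IsAlgClosed K] (R : PRData K F k Fk A) (hR : R.IsPR) {g : ℕ}
    (hF : IsNiceCurve K F g) (hFk : IsNiceCurve k Fk g) (hO : R.Orth)
    {m : ℕ} (hm : (m : K) ∉ A.nonunits) (y : Pic0 k Fk) (ub : Fk) (hy : KummerRel m y ub) :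
    ∃ (x : Pic0 K F) (v : R.O), m • x = 0 ∧ s15red_sp R hR hF.hres hFk.hres x = y ∧
      KummerRel m x (v : F) ∧ R.red v = ub := by
  haveI := hF.hpd
  haveI := hFk.hpd
  obtain ⟨x, hx, hxy⟩ := surjq_exists_torsion_lift R hR hF hFk hO hm y hy.nsmul_eq_zero
  obtain ⟨v₀, hv₀⟩ := exists_kummerRel hx
  obtain ⟨a, ha, h1, hred1⟩ := hR.prim v₀ hv₀.ne_zero
  have ha0 : algebraMap K F a ≠ 0 := (map_ne_zero_iff _ (algebraMap K F).injective).mpr ha
  have hv₁ : KummerRel m x (algebraMap K F a * v₀) :=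
    hv₀.const_mul ha0 (fun v => PlaceAux.ord_algebraMap v a)
  have hK1 : KummerRel m y (R.red ⟨algebraMap K F a * v₀, h1⟩) := by
    have := ribmp_rl_kummerRel_red R hR hF.hres hFk.hres ⟨algebraMap K F a * v₀, h1⟩ hv₁ hred1
    rwa [hxy] at this
  obtain ⟨gb, cb, hgb, hcb, hcbord, heq⟩ := hy.exists_eq_mul_pow hK1
  obtain ⟨Q₀, -⟩ := hFk.infinite.nonempty
  obtain ⟨ab, hab, rfl⟩ := ribmp_rl_const_of_ord_eq_zero hFk.hres Q₀ hcb hcbord
  -- lift the constant and the function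
  obtain ⟨b, hb⟩ := hR.res_surjective ab
  obtain ⟨G, hG⟩ := hR.red_surjective gb
  have hbO : algebraMap K F (b : K) ∈ R.O := (hR.algebraMap_mem_iff _).mpr b.2
  have hredb : R.red ⟨algebraMap K F (b : K), hbO⟩ = algebraMap k Fk ab := by
    rw [hR.red_algebraMap b hbO, hb]
  set w : R.O := ⟨algebraMap K F (b : K), hbO⟩ * G ^ m with hw
  have hredw : R.red w = algebraMap k Fk ab * gb ^ m := by
    rw [hw, map_mul, map_pow, hredb, hG]
  have hredw0 : R.red w ≠ 0 := by
    rw [hredw]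
    exact mul_ne_zero hcb (pow_ne_zero m hgb)
  have hwu : IsUnit w := by
    have h2 : (w : F) ∉ R.O.nonunits := fun h => hredw0 ((hR.red_eq_zero_iff w).mpr h)
    have h3 : w ∉ nonunits R.O := by
      intro h4
      apply h2
      rw [ValuationSubring.mem_nonunits_iff_exists_mem_maximalIdeal]
      exact ⟨w.2, h4⟩
    simpa [mem_nonunits_iff] using h3
  obtain ⟨wi, hwi⟩ := isUnit_iff_exists_inv.mp hwu
  have hb0 : (b : K) ≠ 0 := by
    rintro h0
    have : R.res b = 0 := by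
      rw [hR.res_eq_zero_iff, h0]
      exact (ValuationSubring.mem_nonunits_iff_or A).mpr (Or.inl rfl)
    rw [hb] at this
    exact hab this
  have hG0 : (G : F) ≠ 0 := by
    rintro h0
    have : G = 0 := Subtype.ext h0
    rw [this, map_zero] at hG
    exact hgb hG.symm
  have hwiF : (wi : F) = (algebraMap K F (b : K))⁻¹ * ((G : F)⁻¹) ^ m := by
    have h5 : (w : F) * (wi : F) = 1 := by
      have := congrArg (Subtype.val) hwi
      simpa using this
    have h6 : (w : F) = algebraMap K F (b : K) * (G : F) ^ m := by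
      rw [hw]
      simp
    have hb0' : algebraMap K F (b : K) ≠ 0 :=
      (map_ne_zero_iff _ (algebraMap K F).injective).mpr hb0
    rw [h6] at h5
    rw [inv_pow]
    field_simp
    rw [← h5]
    ring
  refine ⟨x, ⟨algebraMap K F a * v₀, h1⟩ * wi, hx, hxy, ?_, ?_⟩
  · show KummerRel m x ((algebraMap K F a * v₀) * (wi : F))
    rw [hwiF]
    have e : algebraMap K F a * v₀ * ((algebraMap K F (b : K))⁻¹ * ((G : F)⁻¹) ^ m) =
        algebraMap K F (b : K)⁻¹ * ((algebraMap K F a * v₀) * ((G : F)⁻¹) ^ m) := by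
      rw [map_inv₀]
      ring
    rw [e]
    refine (ribmp_rl_kummerRel_mul_pow hv₁ (inv_ne_zero hG0)).const_mul ?_
      (fun v => PlaceAux.ord_algebraMap v _)
    exact (map_ne_zero_iff _ (algebraMap K F).injective).mpr (inv_ne_zero hb0)
  · have h7 : R.red w * R.red wi = 1 := by
      rw [← map_mul, hwi, map_one]
    rw [map_mul, heq]
    calc algebraMap k Fk ab * ub * gb ^ m * R.red wi
        = ub * (algebraMap k Fk ab * gb ^ m * R.red wi) := by ring
      _ = ub * (R.red w * R.red wi) := by rw [hredw]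
      _ = ub := by rw [h7, mul_one]

end Abstract

/-! ## 2. Modular part -/

section Modular

variable {N : ℕ} [NeZero N] {A : ValuationSubring Kb} {ℓ : ℕ} {hℓ : ℓ.Prime}
  {hA : A.LiesOverPrime ℓ} {hRedF : StmtRedF N A}
  {r : Place Kb (FF N) → Place (kA A) ↥(modularFunctionFieldFullC (kA A) N)}
  {sp : JZero N →+ JZeroC (kA A) N} {Pinf : Place Kb (FF N)}
  {Qinf : Place (kA A) ↥(modularFunctionFieldFullC (kA A) N)}

/-- **MP-RED-LIFT.**  For `ℓ ∤ m`: a Kummer function `ū` (exponent `m`) of a class `ȳ` of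
`Pic⁰(F̄_N)` is the Gauss reduction of a Kummer function `v` of a class `x ∈ J₀(N)[m]` with
`sp x = ȳ`. -/
theorem ribmp_rl_modular (h : ModPRG N A hℓ hA hRedF r sp Pinf Qinf) {m : ℕ} (hm : ¬ ℓ ∣ m)
    (y : JZeroC (kA A) N) (ub : ↥(modularFunctionFieldFullC (kA A) N))
    (hy : KummerRel m y ub) :
    ∃ (x : JZero N) (v : FF N), m • x = 0 ∧ sp x = y ∧ KummerRel m x v ∧
      GaussRed N A v (ub : LaurentSeries (kA A)) := by
  have hmu : ((m : ℕ) : Kb) ∉ A.nonunits := by
    rw [Fermat.Agent.S05.natCast_mem_nonunits_iff A hℓ hA]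
    exact hm
  obtain ⟨x, v, hx, hxy, hv, hred⟩ := ribmp_rl_abstract (modPRData N A hRedF r) h.modPR.isPR
    h.modPR.nice h.modPR.nice_k h.modPR.orth hmu y ub hy
  refine ⟨x, (v : FF N), hx, by rw [surjq_sp_eq h, hxy], hv, ?_⟩
  rw [deuValRed_iff N A hRedF]
  exact ⟨v.2, congrArg Subtype.val hred⟩

end Modular

end Fermat.Agent.RIB.MP


end ZBS15_001_5

/-! ### bundled: `Fermat.Agent.RIB.MP.RedLiftRed` -/
section ZBS15_001_6

/-!
# MP-RED-LIFT, part 2: from Gauss reductions to `RedInf` / `RedZero`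

`N = M₁ q`, `A ⊂ ℚ̄` a valuation ring over `q`, `k = kA A`, `F̄_{M₁} = modularFunctionFieldFullC k M₁`.

* `ribmp_rl_bridge` : `GaussRed (M₁ q) A u ū`, `GaussRed M₁ A v ū`, `ū ≠ 0`
  `⇒ ReducesToOne A (M₁ q) (u / α v)` (`α = heckeAlphaBar Qb M₁ q`);
* `ribmp_rl_redInf` : if a Kummer function `u` of `x ∈ J₀(M₁ q)` (exponent `m`, `q ∤ m`) has Gauss
  reduction `ū ∈ F̄_{M₁}`, `ū ≠ 0`, all of whose orders are divisible by `m`, then
  `∃ y ∈ J₀(M₁)[m], RedInf A m x y`;
* `ribmp_rl_redZero` : the same with `w_q u` and `RedZero`.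
The reduction package `h : ModPRG M₁ A …` of `X₀(M₁)` at `A` is a hypothesis
(`S15.s15red_exists_pkg`: it exists for `5 ≤ q ∨ (5 - q) ∣ M₁`).
-/

set_option autoImplicit false
set_option linter.unusedSectionVars false
set_option linter.style.haveILetI false
set_option synthInstance.maxHeartbeats 400000
set_option maxHeartbeats 1600000

open ModularCurve AlgebraicCurve Module

namespace Fermat.Agent.RIB.MP

open Fermat.Agent.W1 Fermat.Agent.S15 Fermat.Agent.S24 Fermat.Agent.ES.M Fermat.Agent.DEU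
  Fermat.Agent.ES Fermat.Agent.ES.G2 Fermat.Agent.RIB

section Bridge

variable {M₁ q : ℕ} [NeZero M₁] [NeZero q] [NeZero (M₁ * q)] {A : ValuationSubring Qb}

/-- **the bridge**: two functions with the same nonzero Gauss reduction have a quotient which
reduces to one -/
theorem ribmp_rl_bridge {u : modularFunctionFieldBar (M₁ * q)} {v : modularFunctionFieldBar M₁}
    {ub : LaurentSeries (kA A)} (hub : ub ≠ 0) (hu : GaussRed (M₁ * q) A u ub)
    (hv : GaussRed M₁ A v ub) :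
    ReducesToOne A (M₁ * q) (u / heckeAlphaBar Qb M₁ q v) := by
  obtain ⟨Y₁, Y₂, hY₁, hY₂, hY₂0, hYe, hYr⟩ := hu
  obtain ⟨Z₁, Z₂, hZ₁, hZ₂, hZ₂0, hZe, hZr⟩ := hv
  have hmem : ∀ {f : LaurentSeries Qb}, f ∈ modularFunctionFieldBar M₁ →
      f ∈ modularFunctionFieldBar (M₁ * q) := by
    intro f hf
    have h := (heckeAlphaBar Qb M₁ q ⟨f, hf⟩).2
    rwa [coe_heckeAlphaBar] at h
  have hZ₁0 : kronRed A Z₁ ≠ 0 := by
    rw [← hZr]
    exact mul_ne_zero hub hZ₂0
  have hv0 : (v : LaurentSeries Qb) ≠ 0 := by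
    intro h0
    rw [h0, zero_mul] at hZe
    have : Z₁ = 0 := kronIncl_injective (by rw [← hZe, map_zero])
    rw [this, map_zero] at hZ₁0
    exact hZ₁0 rfl
  refine ⟨kronIncl A (Y₁ * Z₂), kronIncl A (Y₂ * Z₁), ?_, ?_, ?_, ?_, ?_, ?_⟩
  · rw [map_mul]
    exact mul_mem hY₁ (hmem hZ₂)
  · rw [map_mul]
    exact mul_mem hY₂ (hmem hZ₁)
  · rw [kronPrim_kronIncl_iff, map_mul, ← hYr]
    exact mul_ne_zero (mul_ne_zero hub hY₂0) hZ₂0
  · rw [kronPrim_kronIncl_iff, map_mul]
    exact mul_ne_zero hY₂0 hZ₁0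
  · rw [kronCongr_kronIncl_iff, map_mul, map_mul, ← hYr, ← hZr]
    ring
  · have hcoe : ((u / heckeAlphaBar Qb M₁ q v : modularFunctionFieldBar (M₁ * q)) :
        LaurentSeries Qb) = (u : LaurentSeries Qb) / (v : LaurentSeries Qb) := by
      rw [IntermediateField.coe_div, coe_heckeAlphaBar]
    rw [hcoe, map_mul, map_mul, ← hYe, ← hZe]
    field_simp

end Bridge

section Red

variable {M₁ q : ℕ} [NeZero M₁] [NeZero q] [NeZero (M₁ * q)] {A : ValuationSubring Qb}
  {hq : q.Prime} {hA : A.LiesOverPrime q} {hRedF : StmtRedF M₁ A}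
  {r : Place Kb (FF M₁) → Place (kA A) ↥(modularFunctionFieldFullC (kA A) M₁)}
  {sp : JZero M₁ →+ JZeroC (kA A) M₁} {Pinf : Place Kb (FF M₁)}
  {Qinf : Place (kA A) ↥(modularFunctionFieldFullC (kA A) M₁)}

/-- a Kummer function at level `M₁ q` whose Gauss reduction lies in `F̄_{M₁}` and has all orders
divisible by `m` is congruent to a Kummer function of a class of `J₀(M₁)[m]` -/
theorem ribmp_rl_exists (h : ModPRG M₁ A hq hA hRedF r sp Pinf Qinf) {m : ℕ} (hm : ¬ q ∣ m)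
    {u : modularFunctionFieldBar (M₁ * q)} {ub : LaurentSeries (kA A)}
    (hubF : ub ∈ modularFunctionFieldFullC (kA A) M₁) (hub : ub ≠ 0)
    (hred : GaussRed (M₁ * q) A u ub)
    (hdvd : ∀ Q : Place (kA A) ↥(modularFunctionFieldFullC (kA A) M₁),
      (m : ℤ) ∣ Q.ord (⟨ub, hubF⟩ : ↥(modularFunctionFieldFullC (kA A) M₁))) :
    ∃ (y : JZero M₁) (v : modularFunctionFieldBar M₁), m • y = 0 ∧ KummerRel m y v ∧
      GaussConst A (M₁ * q) (u / heckeAlphaBar Qb M₁ q v) := by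
  haveI := h.modPR.nice_k.hpd
  have hm0 : m ≠ 0 := by
    rintro rfl
    exact hm (dvd_zero q)
  have hub' : (⟨ub, hubF⟩ : ↥(modularFunctionFieldFullC (kA A) M₁)) ≠ 0 :=
    fun h0 => hub (congrArg Subtype.val h0)
  obtain ⟨yb, -, hyb⟩ := exists_kummerRel_of_dvd hm0 hub' hdvd
  obtain ⟨y, v, hy, -, hv, hvred⟩ := ribmp_rl_modular h hm yb ⟨ub, hubF⟩ hyb
  exact ⟨y, v, hy, hv, GaussConst.of_reducesToOne (ribmp_rl_bridge hub hred hvred)⟩

/-- **MP-RED, the lifting step at `v_∞`** -/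
theorem ribmp_rl_redInf (h : ModPRG M₁ A hq hA hRedF r sp Pinf Qinf) {m : ℕ} (hm : ¬ q ∣ m)
    {x : JZero (M₁ * q)} {u : modularFunctionFieldBar (M₁ * q)} (hxu : KummerRel m x u)
    {ub : LaurentSeries (kA A)} (hubF : ub ∈ modularFunctionFieldFullC (kA A) M₁) (hub : ub ≠ 0)
    (hred : GaussRed (M₁ * q) A u ub)
    (hdvd : ∀ Q : Place (kA A) ↥(modularFunctionFieldFullC (kA A) M₁),
      (m : ℤ) ∣ Q.ord (⟨ub, hubF⟩ : ↥(modularFunctionFieldFullC (kA A) M₁))) :
    ∃ y : JZero M₁, m • y = 0 ∧ RedInf A m x y := by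
  obtain ⟨y, v, hy, hv, hG⟩ := ribmp_rl_exists h hm hubF hub hred hdvd
  exact ⟨y, hy, u, v, hxu, hv, hG⟩

/-- **MP-RED, the lifting step at `v_0 = v_∞ ∘ w_q`** -/
theorem ribmp_rl_redZero (hqM : ¬ q ∣ M₁) (h : ModPRG M₁ A hq hA hRedF r sp Pinf Qinf) {m : ℕ}
    (hm : ¬ q ∣ m) {x : JZero (M₁ * q)} {u : modularFunctionFieldBar (M₁ * q)}
    (hxu : KummerRel m x u) {ub : LaurentSeries (kA A)}
    (hubF : ub ∈ modularFunctionFieldFullC (kA A) M₁) (hub : ub ≠ 0)
    (hred : GaussRed (M₁ * q) A (Fermat.Agent.UNIP.atkinLehnerBar hq hqM u) ub)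
    (hdvd : ∀ Q : Place (kA A) ↥(modularFunctionFieldFullC (kA A) M₁),
      (m : ℤ) ∣ Q.ord (⟨ub, hubF⟩ : ↥(modularFunctionFieldFullC (kA A) M₁))) :
    ∃ y : JZero M₁, m • y = 0 ∧ RedZero hq hqM A m x y := by
  obtain ⟨y, v, hy, hv, hG⟩ := ribmp_rl_exists h hm hubF hub hred hdvd
  exact ⟨y, hy, u, v, hxu, hv, hG⟩

end Red

end Fermat.Agent.RIB.MP


end ZBS15_001_6

/-! ### bundled: `Fermat.Agent.R38.TresBridge` -/
section ZBS15_001_7

/-!
# TRES-BR: the bridge of row 38  (FAC-p + SURJ-p ⇒ `StmtTresRed`)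

Wild twin (`m = p =` residue characteristic) of MP-RED-LIFT (`RIB/MP/RedLift*.lean`, helper85).
There the exponent `m` is prime to the residue characteristic and the lifting of torsion classes
is `RIB.surjq_exists_torsion_lift`; here the lifting of `p`-torsion is a HYPOTHESIS (SURJ-p), and
everything else goes through for any exponent.

Abstract part (`R : W1.PRData K F k Fk A`, `R.IsPR`, nice curves of the same genus):

* `tresbr_abstract` : if `m • x = 0` and `ū` is a Kummer function (exponent `m`) of `sp x`, there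
  is a Kummer function `v ∈ O` of `x` with `red v = ū`;
* `tresbr_torsion_lift` : if the kernel of reduction `J¹` is `m`-divisible, every class of
  `Pic⁰(F̄)[m]` is `sp x` with `m • x = 0`.

Modular part (`h : S15.ModPRG M A hp hA hRedF r sp Pinf Qinf`, the reduction package of `X₀(M)`
at `A ∣ p`, `p ∤ M`):

* `tresbr_modular` : the same with `sp` of the package and `GaussRed M A v ū`;
* `tresbr_bridge` : `R38Red A u ū`, `R38Red A v ū` ⇒ `GaussConst A (M q) (u / α v)`;
* `tresbr_exists`, `tresbr_redInf` : a Kummer function `u` of `x ∈ J₀(M p)` whose Gauss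
  reduction `ū` (`R38Red A u ū`, `R38/TresRed.lean`) lies in `F̄_M` and has all orders divisible
  by `m` gives `y ∈ J₀(M)[m]` with `RedInf A m x y`, PROVIDED the `m`-torsion of `Pic⁰(F̄_M)`
  lifts (`SurjAt h m`).

Props and wiring:

* `StmtFacP`  (FAC-p, sub-wall A): the Gauss reduction of a Kummer function of `eisKill ℓ x`
  lies in `F̄_M` and its divisor is divisible by `p`;
* `StmtSurjP` (SURJ-p, sub-wall B): the `p`-torsion of `Pic⁰(F̄_M)` lifts to `J₀(M)[p]`;
  `StmtDiv1P` : the kernel of reduction is `p`-divisible; `stmtSurjP_of_div1P`;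
* `stmtTresRed_of : StmtFacP → StmtSurjP → StmtTresRed`.
-/

set_option autoImplicit false
set_option linter.unusedSectionVars false
set_option linter.style.haveILetI false
set_option synthInstance.maxHeartbeats 400000
set_option maxHeartbeats 1600000

open ModularCurve AlgebraicCurve Module

namespace Fermat.Agent.R38

open Fermat.Agent.W1 Fermat.Agent.S15 Fermat.Agent.S24 Fermat.Agent.ES.M Fermat.Agent.DEU
  Fermat.Agent.ES Fermat.Agent.ES.G2 Fermat.Agent.RIB Fermat.Agent.RIB.MP Fermat.Agent.STB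

/-! ## 1. Abstract part -/

section Abstract

variable {K F k Fk : Type} [Field K] [Field F] [Algebra K F] [Field k] [Field Fk] [Algebra k Fk]
variable {A : ValuationSubring K}

/-- **the lifting of Kummer functions, any exponent.**  If `m • x = 0` and `ū` is a Kummer
function of `sp x`, then `x` has a Kummer function `v ∈ O` with `red v = ū`. -/
theorem tresbr_abstract (R : PRData K F k Fk A) (hR : R.IsPR) {g : ℕ}
    (hF : IsNiceCurve K F g) (hFk : IsNiceCurve k Fk g) {m : ℕ}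
    {x : Pic0 K F} (hx : m • x = 0) (ub : Fk)
    (hy : KummerRel m (s15red_sp R hR hF.hres hFk.hres x) ub) :
    ∃ v : R.O, KummerRel m x (v : F) ∧ R.red v = ub := by
  haveI := hF.hpd
  haveI := hFk.hpd
  obtain ⟨v₀, hv₀⟩ := exists_kummerRel hx
  obtain ⟨a, ha, h1, hred1⟩ := hR.prim v₀ hv₀.ne_zero
  have ha0 : algebraMap K F a ≠ 0 := (map_ne_zero_iff _ (algebraMap K F).injective).mpr ha
  have hv₁ : KummerRel m x (algebraMap K F a * v₀) :=
    hv₀.const_mul ha0 (fun v => PlaceAux.ord_algebraMap v a)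
  have hK1 : KummerRel m (s15red_sp R hR hF.hres hFk.hres x)
      (R.red ⟨algebraMap K F a * v₀, h1⟩) :=
    ribmp_rl_kummerRel_red R hR hF.hres hFk.hres ⟨algebraMap K F a * v₀, h1⟩ hv₁ hred1
  obtain ⟨gb, cb, hgb, hcb, hcbord, heq⟩ := hy.exists_eq_mul_pow hK1
  obtain ⟨Q₀, -⟩ := hFk.infinite.nonempty
  obtain ⟨ab, hab, rfl⟩ := ribmp_rl_const_of_ord_eq_zero hFk.hres Q₀ hcb hcbord
  -- lift the constant and the function
  obtain ⟨b, hb⟩ := hR.res_surjective ab
  obtain ⟨G, hG⟩ := hR.red_surjective gb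
  have hbO : algebraMap K F (b : K) ∈ R.O := (hR.algebraMap_mem_iff _).mpr b.2
  have hredb : R.red ⟨algebraMap K F (b : K), hbO⟩ = algebraMap k Fk ab := by
    rw [hR.red_algebraMap b hbO, hb]
  set w : R.O := ⟨algebraMap K F (b : K), hbO⟩ * G ^ m with hw
  have hredw : R.red w = algebraMap k Fk ab * gb ^ m := by
    rw [hw, map_mul, map_pow, hredb, hG]
  have hredw0 : R.red w ≠ 0 := by
    rw [hredw]
    exact mul_ne_zero hcb (pow_ne_zero m hgb)
  have hwu : IsUnit w := by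
    have h2 : (w : F) ∉ R.O.nonunits := fun h => hredw0 ((hR.red_eq_zero_iff w).mpr h)
    have h3 : w ∉ nonunits R.O := by
      intro h4
      apply h2
      rw [ValuationSubring.mem_nonunits_iff_exists_mem_maximalIdeal]
      exact ⟨w.2, h4⟩
    simpa [mem_nonunits_iff] using h3
  obtain ⟨wi, hwi⟩ := isUnit_iff_exists_inv.mp hwu
  have hb0 : (b : K) ≠ 0 := by
    rintro h0
    have : R.res b = 0 := by
      rw [hR.res_eq_zero_iff, h0]
      exact (ValuationSubring.mem_nonunits_iff_or A).mpr (Or.inl rfl)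
    rw [hb] at this
    exact hab this
  have hG0 : (G : F) ≠ 0 := by
    rintro h0
    have : G = 0 := Subtype.ext h0
    rw [this, map_zero] at hG
    exact hgb hG.symm
  have hwiF : (wi : F) = (algebraMap K F (b : K))⁻¹ * ((G : F)⁻¹) ^ m := by
    have h5 : (w : F) * (wi : F) = 1 := by
      have := congrArg (Subtype.val) hwi
      simpa using this
    have h6 : (w : F) = algebraMap K F (b : K) * (G : F) ^ m := by
      rw [hw]
      simp
    have hb0' : algebraMap K F (b : K) ≠ 0 :=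
      (map_ne_zero_iff _ (algebraMap K F).injective).mpr hb0
    rw [h6] at h5
    rw [inv_pow]
    field_simp
    rw [← h5]
    ring
  refine ⟨⟨algebraMap K F a * v₀, h1⟩ * wi, ?_, ?_⟩
  · show KummerRel m x ((algebraMap K F a * v₀) * (wi : F))
    rw [hwiF]
    have e : algebraMap K F a * v₀ * ((algebraMap K F (b : K))⁻¹ * ((G : F)⁻¹) ^ m) =
        algebraMap K F (b : K)⁻¹ * ((algebraMap K F a * v₀) * ((G : F)⁻¹) ^ m) := by
      rw [map_inv₀]
      ring
    rw [e]
    refine (ribmp_rl_kummerRel_mul_pow hv₁ (inv_ne_zero hG0)).const_mul ?_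
      (fun v => PlaceAux.ord_algebraMap v _)
    exact (map_ne_zero_iff _ (algebraMap K F).injective).mpr (inv_ne_zero hb0)
  · have h7 : R.red w * R.red wi = 1 := by
      rw [← map_mul, hwi, map_one]
    rw [map_mul, heq]
    calc algebraMap k Fk ab * ub * gb ^ m * R.red wi
        = ub * (algebraMap k Fk ab * gb ^ m * R.red wi) := by ring
      _ = ub * (R.red w * R.red wi) := by rw [hredw]
      _ = ub := by rw [h7, mul_one]

/-- **(SURJ), abstract form, any exponent**: if the kernel of reduction is `m`-divisible, the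
`m`-torsion of `Pic⁰(F̄)` lifts to `m`-torsion. -/
theorem tresbr_torsion_lift (R : PRData K F k Fk A) (hR : R.IsPR) {g : ℕ}
    (hF : IsNiceCurve K F g) (hFk : IsNiceCurve k Fk g) {m : ℕ}
    (hdiv : ∀ z ∈ R.J1, ∃ z' ∈ R.J1, m • z' = z) (y : Pic0 k Fk) (hy : m • y = 0) :
    ∃ x : Pic0 K F, m • x = 0 ∧ s15red_sp R hR hF.hres hFk.hres x = y := by
  obtain ⟨x₀, hx₀⟩ := surjq_sp_surjective R hR hF hFk y
  have h1 : m • x₀ ∈ R.J1 := by
    rw [← s15red_sp_eq_zero_iff R hR hF.hres hFk.hres, map_nsmul, hx₀, hy]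
  obtain ⟨z, hz, hmz⟩ := hdiv (m • x₀) h1
  refine ⟨x₀ - z, ?_, ?_⟩
  · rw [nsmul_sub, hmz, sub_self]
  · rw [map_sub, (s15red_sp_eq_zero_iff R hR hF.hres hFk.hres z).mpr hz, sub_zero, hx₀]

end Abstract

/-! ## 2. Modular part -/

section Modular

variable {N : ℕ} [NeZero N] {A : ValuationSubring Kb} {ℓ : ℕ} {hℓ : ℓ.Prime}
  {hA : A.LiesOverPrime ℓ} {hRedF : StmtRedF N A}
  {r : Place Kb (FF N) → Place (kA A) ↥(modularFunctionFieldFullC (kA A) N)}
  {sp : JZero N →+ JZeroC (kA A) N} {Pinf : Place Kb (FF N)}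
  {Qinf : Place (kA A) ↥(modularFunctionFieldFullC (kA A) N)}

/-- the `m`-torsion of `Pic⁰(F̄_N)` lifts to `J₀(N)[m]` along the specialization map of the
package `h`.  (For `ℓ ∤ m` this is `RIB.surjq_modular`.) -/
def SurjAt (_h : ModPRG N A hℓ hA hRedF r sp Pinf Qinf) (m : ℕ) : Prop :=
  ∀ y : JZeroC (kA A) N, m • y = 0 → ∃ x : JZero N, m • x = 0 ∧ sp x = y

/-- (SURJ-q) is `SurjAt` for exponents prime to the residue characteristic -/
theorem tresbr_surjAt_of_not_dvd (h : ModPRG N A hℓ hA hRedF r sp Pinf Qinf) {m : ℕ}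
    (hm : ¬ ℓ ∣ m) : SurjAt h m :=
  fun y hy => surjq_modular h hm y hy

/-- `SurjAt` from the divisibility of the kernel of reduction -/
theorem tresbr_surjAt_of_div (h : ModPRG N A hℓ hA hRedF r sp Pinf Qinf) {m : ℕ}
    (hdiv : ∀ z ∈ (modPRData N A hRedF r).J1, ∃ z' ∈ (modPRData N A hRedF r).J1, m • z' = z) :
    SurjAt h m := by
  intro y hy
  obtain ⟨x, hx, hxy⟩ := tresbr_torsion_lift (modPRData N A hRedF r) h.modPR.isPR
    h.modPR.nice h.modPR.nice_k hdiv y hy
  exact ⟨x, hx, by rw [surjq_sp_eq h, hxy]⟩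

/-- **the lifting of Kummer functions, modular form, any exponent**: if `m • x = 0` and `ū` is a
Kummer function of `sp x`, then `x` has a Kummer function `v` with Gauss reduction `ū`. -/
theorem tresbr_modular (h : ModPRG N A hℓ hA hRedF r sp Pinf Qinf) {m : ℕ}
    {x : JZero N} (hx : m • x = 0) (ub : ↥(modularFunctionFieldFullC (kA A) N))
    (hy : KummerRel m (sp x) ub) :
    ∃ v : FF N, KummerRel m x v ∧ GaussRed N A v (ub : LaurentSeries (kA A)) := by
  rw [surjq_sp_eq h] at hy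
  obtain ⟨v, hv, hred⟩ := tresbr_abstract (modPRData N A hRedF r) h.modPR.isPR
    h.modPR.nice h.modPR.nice_k hx ub hy
  refine ⟨(v : FF N), hv, ?_⟩
  rw [deuValRed_iff N A hRedF]
  exact ⟨v.2, congrArg Subtype.val hred⟩

end Modular

/-! ## 3. The lifting step at `v_∞` -/

section Red

variable {M q : ℕ} [NeZero M] [NeZero q] [NeZero (M * q)] {A : ValuationSubring Qb}
  {hq : q.Prime} {hA : A.LiesOverPrime q} {hRedF : StmtRedF M A}
  {r : Place Kb (FF M) → Place (kA A) ↥(modularFunctionFieldFullC (kA A) M)}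
  {sp : JZero M →+ JZeroC (kA A) M} {Pinf : Place Kb (FF M)}
  {Qinf : Place (kA A) ↥(modularFunctionFieldFullC (kA A) M)}

/-- two functions with the same Gauss reduction have a Gauss-constant quotient -/
theorem tresbr_bridge {ℓ : ℕ} (hℓ : ℓ.Prime) (hAℓ : A.LiesOverPrime ℓ)
    {u : modularFunctionFieldBar (M * q)} {v : modularFunctionFieldBar M}
    {ub : LaurentSeries (kA A)} (hu : R38Red A (u : LaurentSeries Qb) ub)
    (hv : R38Red A (v : LaurentSeries Qb) ub) :
    GaussConst A (M * q) (u / heckeAlphaBar Qb M q v) := by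
  have hcoe : ((u / heckeAlphaBar Qb M q v : modularFunctionFieldBar (M * q)) :
      LaurentSeries Qb) = (u : LaurentSeries Qb) / (v : LaurentSeries Qb) := by
    rw [IntermediateField.coe_div, coe_heckeAlphaBar]
  have hub : ub ≠ 0 := hu.ne_zero_right
  have h1 : R38Red A ((u / heckeAlphaBar Qb M q v : modularFunctionFieldBar (M * q)) :
      LaurentSeries Qb) (HahnSeries.C (1 : kA A)) := by
    rw [hcoe, map_one, ← div_self hub]
    exact hu.div hv
  have hne : u / heckeAlphaBar Qb M q v ≠ 0 := by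
    intro h0
    apply h1.ne_zero_left
    rw [h0]
    rfl
  exact tresgeo_gaussConst_of_red hℓ hAℓ hne h1

/-- a Kummer function at level `M q` whose Gauss reduction lies in `F̄_M` and has all orders
divisible by `m` is congruent to a Kummer function of a class of `J₀(M)[m]`, if the
`m`-torsion of `Pic⁰(F̄_M)` lifts -/
theorem tresbr_exists (h : ModPRG M A hq hA hRedF r sp Pinf Qinf) {m : ℕ} (hm0 : m ≠ 0)
    (hsurj : SurjAt h m)
    {u : modularFunctionFieldBar (M * q)} {ub : LaurentSeries (kA A)}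
    (hubF : ub ∈ modularFunctionFieldFullC (kA A) M)
    (hred : R38Red A (u : LaurentSeries Qb) ub)
    (hdvd : ∀ Q : Place (kA A) ↥(modularFunctionFieldFullC (kA A) M),
      (m : ℤ) ∣ Q.ord (⟨ub, hubF⟩ : ↥(modularFunctionFieldFullC (kA A) M))) :
    ∃ (y : JZero M) (v : modularFunctionFieldBar M), m • y = 0 ∧ KummerRel m y v ∧
      GaussConst A (M * q) (u / heckeAlphaBar Qb M q v) := by
  haveI := h.modPR.nice_k.hpd
  have hub : ub ≠ 0 := hred.ne_zero_right
  have hub' : (⟨ub, hubF⟩ : ↥(modularFunctionFieldFullC (kA A) M)) ≠ 0 :=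
    fun h0 => hub (congrArg Subtype.val h0)
  obtain ⟨yb, -, hyb⟩ := exists_kummerRel_of_dvd hm0 hub' hdvd
  obtain ⟨y, hy, hyyb⟩ := hsurj yb hyb.nsmul_eq_zero
  obtain ⟨v, hv, hvred⟩ := tresbr_modular h hy ⟨ub, hubF⟩ (by rw [hyyb]; exact hyb)
  exact ⟨y, v, hy, hv, tresbr_bridge hq hA hred (tresgeo_red_of_gaussRed hvred hub)⟩

/-- **TRES-RED, the lifting step at `v_∞`** (any exponent `m ≠ 0`) -/
theorem tresbr_redInf (h : ModPRG M A hq hA hRedF r sp Pinf Qinf) {m : ℕ} (hm0 : m ≠ 0)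
    (hsurj : SurjAt h m)
    {x : JZero (M * q)} {u : modularFunctionFieldBar (M * q)} (hxu : KummerRel m x u)
    {ub : LaurentSeries (kA A)} (hubF : ub ∈ modularFunctionFieldFullC (kA A) M)
    (hred : R38Red A (u : LaurentSeries Qb) ub)
    (hdvd : ∀ Q : Place (kA A) ↥(modularFunctionFieldFullC (kA A) M),
      (m : ℤ) ∣ Q.ord (⟨ub, hubF⟩ : ↥(modularFunctionFieldFullC (kA A) M))) :
    ∃ y : JZero M, m • y = 0 ∧ RedInf A m x y := by
  obtain ⟨y, v, hy, hv, hG⟩ := tresbr_exists h hm0 hsurj hubF hred hdvd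
  exact ⟨y, hy, u, v, hxu, hv, hG⟩

end Red

/-! ## 4. The Props of the two sub-walls and the wiring -/

/-- **(FAC-p)** (sub-wall A).  For `x ∈ J₀(M p)[p]`, new, fixed by the peu ramifié subgroup and
moved by inertia along one line: `T_ℓ x − (ℓ + 1) x` has a Kummer function `u` whose Gauss
reduction `ū` at `v_∞` lies in `F̄_M = k(X₀(M))` and has a divisor divisible by `p`. -/
def StmtFacP : Prop :=
  ∀ (M p : ℕ) [NeZero M] [NeZero p] [NeZero (M * p)] (_ : p.Prime) (_ : ¬ p ∣ M), 5 ≤ p →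
    ∀ A : ValuationSubring Qb, A.LiesOverPrime p →
    ∀ x : JZero (M * p), p • x = 0 → stbPushAlpha M p x = 0 → stbPushBeta M p x = 0 →
      PeuFixed A p x → InertiaLine A x →
    ∀ ℓ : Nat.Primes, ¬ (ℓ : ℕ) ∣ M * p * p →
      ∃ (u : modularFunctionFieldBar (M * p)) (ub : LaurentSeries (kA A))
        (hubF : ub ∈ modularFunctionFieldFullC (kA A) M),
        KummerRel p (eisKill ℓ x) u ∧ R38Red A (u : LaurentSeries Qb) ub ∧
          ∀ Q : Place (kA A) ↥(modularFunctionFieldFullC (kA A) M),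
            (p : ℤ) ∣ Q.ord (⟨ub, hubF⟩ : ↥(modularFunctionFieldFullC (kA A) M))

/-- **(SURJ-p)** (sub-wall B), package form: for every reduction package of `X₀(M)` at `A ∣ p`
the `p`-torsion of `Pic⁰(F̄_M)` lifts to `J₀(M)[p]`. -/
def StmtSurjP : Prop :=
  ∀ (M p : ℕ) [NeZero M] (hp : p.Prime), ¬ p ∣ M → 5 ≤ p →
    ∀ (A : ValuationSubring Kb) (hA : A.LiesOverPrime p) (hRedF : StmtRedF M A)
      (r : Place Kb (FF M) → Place (kA A) ↥(modularFunctionFieldFullC (kA A) M))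
      (sp : JZero M →+ JZeroC (kA A) M) (Pinf : Place Kb (FF M))
      (Qinf : Place (kA A) ↥(modularFunctionFieldFullC (kA A) M))
      (h : ModPRG M A hp hA hRedF r sp Pinf Qinf), SurjAt h p

/-- **(DIV¹-p)**: for every reduction package of `X₀(M)` at `A ∣ p` the kernel of reduction is
`p`-divisible.  (`S15.stmtDiv1` is the same for exponents which are units of `A`.) -/
def StmtDiv1P : Prop :=
  ∀ (M p : ℕ) [NeZero M] (hp : p.Prime), ¬ p ∣ M → 5 ≤ p →
    ∀ (A : ValuationSubring Kb) (hA : A.LiesOverPrime p) (hRedF : StmtRedF M A)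
      (r : Place Kb (FF M) → Place (kA A) ↥(modularFunctionFieldFullC (kA A) M))
      (sp : JZero M →+ JZeroC (kA A) M) (Pinf : Place Kb (FF M))
      (Qinf : Place (kA A) ↥(modularFunctionFieldFullC (kA A) M)),
      ModPRG M A hp hA hRedF r sp Pinf Qinf →
        ∀ z ∈ (modPRData M A hRedF r).J1, ∃ z' ∈ (modPRData M A hRedF r).J1, p • z' = z

/-- (SURJ-p) from the divisibility of the kernel of reduction -/
theorem stmtSurjP_of_div1P (hD : StmtDiv1P) : StmtSurjP :=
  fun M p _ hp hpM h5 A hA hRedF r sp Pinf Qinf h =>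
    tresbr_surjAt_of_div h (hD M p hp hpM h5 A hA hRedF r sp Pinf Qinf h)

/-- **TRES-BR**: (FAC-p) and (SURJ-p) give TRES-RED. -/
theorem stmtTresRed_of (hFac : StmtFacP) (hSurj : StmtSurjP) : StmtTresRed := by
  intro M p _ _ _ hp hpM h5 A hA x hx hα hβ hpeu hline ℓ hℓ
  obtain ⟨u, ub, hubF, hxu, hred, hdvd⟩ := hFac M p hp hpM h5 A hA x hx hα hβ hpeu hline ℓ hℓ
  obtain ⟨hRedF, r, sp, Pinf, Qinf, h⟩ :
      ∃ (hRedF : StmtRedF M A)
        (r : Place Kb (FF M) → Place (kA A) ↥(modularFunctionFieldFullC (kA A) M))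
        (sp : JZero M →+ JZeroC (kA A) M) (Pinf : Place Kb (FF M))
        (Qinf : Place (kA A) ↥(modularFunctionFieldFullC (kA A) M)),
        ModPRG M A hp hA hRedF r sp Pinf Qinf := by
    obtain ⟨r, sp, Pinf, Qinf, h⟩ := s15red_exists_pkg M p hp hpM (Or.inl h5) A hA
    exact ⟨_, r, sp, Pinf, Qinf, h⟩
  exact tresbr_redInf h hp.ne_zero (hSurj M p hp hpM h5 A hA hRedF r sp Pinf Qinf h) hxu hubF
    hred hdvd

end Fermat.Agent.R38


end ZBS15_001_7

/-! ### bundled: `Fermat.Agent.R38.HolTriv` -/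
section ZBS15_001_8

/-!
# Row 38, PKG-TRES, route HOL-dlog, the LAST STEP (D) (helper52, for helper42's glue BR′)

`r38holtriv_main` : a Kummer function `u` of `x ∈ J₀(M p)` whose Gauss reduction `r` at `v_∞`
lies in `F̄_M = k(X₀(M))` and has `dlog r = θ r / r = 0` gives `TrivInf A p x`
(`x` has a Gauss-constant Kummer function).

Proof.  (1) `dlog r = 0` ⇒ `r = gᵖ` with `g ∈ F̄_M` (`tres1_dlog_eq_zero_iff`, helper66);
(2) lift `g` to `G ∈ F_M` with Gauss reduction `g` (the reduction package of `X₀(M)` at `A`,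
`S15.s15red_exists_pkg`; `red` is onto); (3) `u / α (Gᵖ)` is a Kummer function of `x`
(`ribmp_rl_kummerRel_mul_pow`) and it is Gauss-constant (`tresbr_bridge`).
-/

set_option autoImplicit false
set_option linter.unusedSectionVars false
set_option linter.style.haveILetI false
set_option synthInstance.maxHeartbeats 400000
set_option maxHeartbeats 1600000

open ModularCurve AlgebraicCurve Module

namespace Fermat.Agent.R38

open Fermat.Agent.W1 Fermat.Agent.S15 Fermat.Agent.S24 Fermat.Agent.ES.M Fermat.Agent.DEU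
  Fermat.Agent.ES Fermat.Agent.ES.G2 Fermat.Agent.RIB Fermat.Agent.RIB.MP Fermat.Agent.STB

/-- **step (1)**: in `F̄_M` (over a perfect field of characteristic `p`) a nonzero function with
`dlog = 0` is a `p`-th power. -/
theorem r38holtriv_pow (k : Type) [Field k] (p : ℕ) [Fact p.Prime] [CharP k p] [PerfectRing k p]
    (M : ℕ) [NeZero M] {r : LaurentSeries k} (hrF : r ∈ modularFunctionFieldFullC k M)
    (hr0 : r ≠ 0) (h0 : r38dlog r = 0) :
    ∃ g ∈ modularFunctionFieldFullC k M, g ^ p = r := by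
  have hθ : Fermat.Agent.S28.Deriv.thetaFun (jqModC k) ≠ 0 := by
    intro h
    have h1 := congrArg (fun z : LaurentSeries k => z.coeff (-1)) h
    simp only [Fermat.Agent.S28.Deriv.thetaFun_coeff, HahnSeries.coeff_zero,
      coeff_jqModC_neg_one] at h1
    simp at h1
  exact (tres1_dlog_eq_zero_iff p (modularFunctionFieldFullC k M)
    (deuResF_transcendental_j k M) (deuResF_finiteDimensional k M)
    (jqModC_mem_full k M) hθ hrF hr0).mp h0

/-- **the last step (D) of HOL-dlog**: `dlog` of the Gauss reduction vanishes ⇒ `TrivInf`. -/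
theorem r38holtriv_main {M p : ℕ} [NeZero M] [NeZero p] [NeZero (M * p)] (hp : p.Prime)
    (hpM : ¬ p ∣ M) (h5 : 5 ≤ p) (A : ValuationSubring Qb) (hA : A.LiesOverPrime p)
    {x : JZero (M * p)} {u : modularFunctionFieldBar (M * p)} (hxu : KummerRel p x u)
    {r : LaurentSeries (kA A)} (hrF : r ∈ modularFunctionFieldFullC (kA A) M)
    (hred : R38Red A (u : LaurentSeries Qb) r) (h0 : r38dlog r = 0) :
    RIB.MP.TrivInf A p x := by
  haveI : Fact p.Prime := ⟨hp⟩
  haveI : CharP (kA A) p := kron_charP_residueField hp hA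
  haveI : IsAlgClosed (kA A) := Fermat.Agent.RED.isAlgClosed_residueField A
  haveI : PerfectRing (kA A) p := inferInstance
  have hr0 : r ≠ 0 := hred.ne_zero_right
  -- (1) `r = gᵖ`
  obtain ⟨g, hgF, hgr⟩ := r38holtriv_pow (kA A) p M hrF hr0 h0
  have hg0 : g ≠ 0 := by
    rintro rfl
    rw [zero_pow hp.ne_zero] at hgr
    exact hr0 hgr.symm
  -- (2) the package and the lift of `g`
  obtain ⟨rr, sp, Pinf, Qinf, h⟩ := s15red_exists_pkg M p hp hpM (Or.inl h5) A hA
  obtain ⟨G, hG⟩ := h.modPR.isPR.red_surjective ⟨g, hgF⟩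
  have hGred : GaussRed M A (G : FF M) g := by
    rw [deuValRed_iff M A (stmtRedF M A p hp hpM hA)]
    exact ⟨G.2, congrArg Subtype.val hG⟩
  have hGR : R38Red A (((G : FF M) : modularFunctionFieldBar M) : LaurentSeries Qb) g :=
    tresgeo_red_of_gaussRed hGred hg0
  -- `v = Gᵖ` has Gauss reduction `gᵖ = r`
  have hvR : R38Red A ((((G : FF M) ^ p : modularFunctionFieldBar M)) : LaurentSeries Qb) r := by
    have := hGR.pow p
    rw [hgr] at this
    exact this
  -- (3) the bridge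
  have hGC := tresbr_bridge (M := M) (q := p) hp hA hred hvR
  have hG0 : (G : FF M) ≠ 0 := by
    intro hG0
    apply hGR.ne_zero_left
    rw [hG0]
    rfl
  have hαG0 : heckeAlphaBar Qb M p (G : FF M) ≠ 0 :=
    (map_ne_zero_iff _ (heckeAlphaBar Qb M p).injective).mpr hG0
  refine ⟨u / heckeAlphaBar Qb M p ((G : FF M) ^ p), ?_, hGC⟩
  have e : u / heckeAlphaBar Qb M p ((G : FF M) ^ p) =
      u * ((heckeAlphaBar Qb M p (G : FF M))⁻¹) ^ p := by
    rw [map_pow, inv_pow, div_eq_mul_inv]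
  rw [e]
  haveI := Fermat.Agent.ES.H.hasPrincipalDivisors_FF (M * p)
  exact ribmp_rl_kummerRel_mul_pow hxu (inv_ne_zero hαG0)

end Fermat.Agent.R38


end ZBS15_001_8

/-! ### bundled: `Fermat.Agent.R38.HolBridge` -/
section ZBS15_001_9

/-!
# Row 38, TRES, route HOL-dlog: the bridge BR′  (helper42)

`stmtTresTriv_of_hol : StmtFacP → StmtHolSpanAll → StmtHolTriv → StmtTresTriv`.

`x ∈ PDiv (M p) p`, `p x = 0`, new, `t₀ x = n₀ x`, `T_ℓ₁ x = n₁ x`, fixed by the peu ramifié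
subgroup, moved by inertia along one line; `x′ = T_ℓ₁ x − (ℓ₁ + 1) x = c₁ x`.
 1. (FAC-p) a Kummer function `u` of `x′` has a Gauss reduction `r ∈ F̄_M` with `p ∣ div r`.
 2. (HOL-SPAN) `b := dlog r ∈ S̄`.
 3. (T2) the relation `HolRel a b` ("`b = dlog` of the Gauss reduction of a Kummer function of
    `a`") is additive, functional, and stable under the good `T_ℓ` (`R38Red.dlog_kronHecke`),
    hence under `t₀`: `t₀ b = b̄(t₀ x′) = n₀ b`.
 4. (KILL) `t₀ b = 0`; so `n₀ b = 0`, `b = 0` (`p ∤ n₀`).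
 5. (D) `dlog r = 0` ⇒ `r = gᵖ`, lift `g` ⇒ `TrivInf x′` ⇒ `TrivInf x` (`p ∤ c₁`).

* `HolRel`, `holRel_zero/_add/_neg/_zsmul/_hecke/_unique`;
* `StmtHolTriv` : step (D) as a Prop (helper52, `R38/HolTriv.lean`);
* `stmtTresTriv_of_hol`.
-/

set_option autoImplicit false
set_option linter.unusedSectionVars false
set_option linter.style.haveILetI false
set_option synthInstance.maxHeartbeats 400000
set_option maxHeartbeats 1600000

noncomputable section

namespace Fermat.Agent.R38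

open ModularCurve AlgebraicCurve HahnSeries Fermat.Agent.ES Fermat.Agent.ES.G2 Fermat.Agent.ES.M
  Fermat.Agent.STB Fermat.Agent.RIB.MP Fermat.Agent.S24 ExtCitation

/-! ## The relation -/

section Rel

variable {N : ℕ} [NeZero N] {A : ValuationSubring Qb} {p : ℕ}

/-- `b` is the logarithmic derivative of the Gauss reduction (at `A`) of a Kummer function
(exponent `p`) of the class `a`. -/
def HolRel (A : ValuationSubring Qb) (p : ℕ) (a : JZero N) (b : LaurentSeries (kA A)) : Prop :=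
  ∃ (u : modularFunctionFieldBar N) (r : LaurentSeries (kA A)),
    KummerRel p a u ∧ R38Red A (u : LaurentSeries Qb) r ∧ r38dlog r = b

theorem holRel_zero : HolRel A p (0 : JZero N) 0 :=
  ⟨1, 1, KummerRel.zero, R38Red.one, r38dlog_one⟩

theorem holRel_add {a a' : JZero N} {b b' : LaurentSeries (kA A)} (h : HolRel A p a b)
    (h' : HolRel A p a' b') : HolRel A p (a + a') (b + b') := by
  obtain ⟨u, r, hu, hr, rfl⟩ := h
  obtain ⟨u', r', hu', hr', rfl⟩ := h'
  exact ⟨u * u', r * r', hu.add hu', hr.mul hr', hr.dlog_mul hr'⟩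

theorem holRel_neg {a : JZero N} {b : LaurentSeries (kA A)} (h : HolRel A p a b) :
    HolRel A p (-a) (-b) := by
  obtain ⟨u, r, hu, hr, rfl⟩ := h
  exact ⟨u⁻¹, r⁻¹, hu.neg, hr.inv, r38dlog_inv r⟩

theorem holRel_zsmul (n : ℤ) {a : JZero N} {b : LaurentSeries (kA A)} (h : HolRel A p a b) :
    HolRel A p (n • a) (n • b) :=
  tresalg_rel_zsmul (fun a b => HolRel A p a b) holRel_zero
    (fun _ _ _ _ h1 h2 => holRel_add h1 h2) (fun _ _ h1 => holRel_neg h1) n h

/-- the relation is stable under the good Hecke operators -/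
theorem holRel_hecke {q : ℕ} (hq : q.Prime) (hA : A.LiesOverPrime q) (ℓ : Nat.Primes)
    (hℓN : ¬ (ℓ : ℕ) ∣ N) (hℓq : (ℓ : ℕ) ≠ q) {a : JZero N} {b : LaurentSeries (kA A)}
    (h : HolRel A p a b) :
    HolRel A p (heckeOperatorBar N ℓ a) (r38holOp (kA A) ℓ b) := by
  haveI : NeZero (ℓ : ℕ) := ⟨ℓ.2.ne_zero⟩
  obtain ⟨u, r, hu, hr, rfl⟩ := h
  obtain ⟨ζ, hζ⟩ := frob_exists_primitiveRoot (ℓ : ℕ) ℓ.2.ne_zero
  have hu₁ := KummerRel.hecke N ℓ hu
  have hcoe := heckeNormFun_coe N stmtHeckeNorm (ℓ : ℕ) ℓ.2 hℓN ζ hζ u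
  obtain ⟨r₁, hr₁⟩ := tresgeo_exists_red hq hA hu₁.ne_zero
  haveI : CharP (kA A) q := kron_charP_residueField hq hA
  have hℓk : (((ℓ : ℕ) : ℕ) : kA A) ≠ 0 := by
    intro h0
    have hd : q ∣ (ℓ : ℕ) := (CharP.cast_eq_zero_iff (kA A) q (ℓ : ℕ)).1 h0
    exact hℓq ((Nat.prime_dvd_prime_iff_eq hq ℓ.2).1 hd).symm
  refine ⟨heckeNormFun N (ℓ : ℕ) u, r₁, hu₁, hr₁, ?_⟩
  rw [hcoe] at hr₁
  rw [r38holOp_apply]
  exact R38Red.dlog_kronHecke ℓ.2 hℓk ζ hζ hr hr₁

/-- the relation is functional -/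
theorem holRel_unique (hp : p.Prime) (hA : A.LiesOverPrime p) {a : JZero N}
    {b b' : LaurentSeries (kA A)} (h : HolRel A p a b) (h' : HolRel A p a b') : b' = b := by
  haveI : Fact p.Prime := ⟨hp⟩
  haveI : CharP (kA A) p := kron_charP_residueField hp hA
  obtain ⟨u, r, hu, hr, rfl⟩ := h
  obtain ⟨u', r', hu', hr', rfl⟩ := h'
  obtain ⟨g, c, hg, hc0, hc, he⟩ := hu.exists_eq_mul_pow hu'
  obtain ⟨c₀, rfl⟩ := mu_exists_const_of_ord_eq_zero c hc
  have hc₀ : c₀ ≠ 0 := by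
    rintro rfl
    exact hc0 (map_zero _)
  obtain ⟨s, hs⟩ := tresgeo_exists_red hp hA hg
  have he' : (u' : LaurentSeries Qb) =
      HahnSeries.C c₀ * (u : LaurentSeries Qb) * (g : LaurentSeries Qb) ^ p := by
    rw [← tresgeo_coe_algebraMap (N := N) c₀, he]
    rfl
  exact R38Red.dlog_eq_of_eq_mul_pow p hc₀ hr hr' hs he'

end Rel

/-! ## Step (D) as a Prop -/

/-- **(D)** a Kummer function whose Gauss reduction lies in `F̄_M` and has `dlog = 0` can be
made Gauss-constant: `r = gᵖ` (`tres1_dlog_eq_zero_iff`), lift `g`.  (helper52,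
`R38/HolTriv.lean`.) -/
def StmtHolTriv : Prop :=
  ∀ (M p : ℕ) [NeZero M] [NeZero p] [NeZero (M * p)] (_ : p.Prime) (_ : ¬ p ∣ M), 5 ≤ p →
    ∀ (A : ValuationSubring Qb), A.LiesOverPrime p →
    ∀ (x : JZero (M * p)) (u : modularFunctionFieldBar (M * p)), KummerRel p x u →
    ∀ r : LaurentSeries (kA A), r ∈ modularFunctionFieldFullC (kA A) M →
      R38Red A (u : LaurentSeries Qb) r → r38dlog r = 0 → TrivInf A p x

/-! ## The bridge -/

/-- **BR′**: (FAC-p), (HOL-SPAN), (KILL, landed) and (D) give `StmtTresTriv`. -/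
theorem stmtTresTriv_of_hol (hFac : StmtFacP) (hSpan : StmtHolSpanAll) (hD : StmtHolTriv) :
    StmtTresTriv := by
  intro M p _ _ hpF h5 hpM
  letI := pDivGalois (M * p) p
  letI := pDivModule (M * p) p
  intro A hA x hx hα hβ t₀ ht₀ hK n₀ hn₀ hpn₀ ℓ₁ hℓ₁ n₁ hn₁ hpn₁ hpeu hline
  have hp : p.Prime := hpF.out
  haveI : CharP (kA A) p := kron_charP_residueField hp hA
  -- translation to `JZero`
  have hx' : p • (x : JZero (M * p)) = 0 := by
    have := congrArg Subtype.val hx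
    simpa using this
  have hα' : stbPushAlpha M p (x : JZero (M * p)) = 0 := by
    have := congrArg Subtype.val hα
    rwa [stbPushAlphaP_coe] at this
  have hβ' : stbPushBeta M p (x : JZero (M * p)) = 0 := by
    have := congrArg Subtype.val hβ
    rwa [stbPushBetaP_coe] at this
  have hpeu' : PeuFixed A p (x : JZero (M * p)) := by
    intro σ hσ
    have := congrArg Subtype.val (hpeu σ hσ)
    rwa [pDivGalois_coe] at this
  have hline' : InertiaLine A (x : JZero (M * p)) := by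
    obtain ⟨z₀, hz⟩ := hline
    refine ⟨(z₀ : JZero (M * p)), fun σ hσ => ?_⟩
    obtain ⟨k, hk⟩ := hz σ hσ
    refine ⟨k, ?_⟩
    have := congrArg Subtype.val hk
    simpa [pDivGalois_coe] using this
  have hℓ₁' : ¬ ((ℓ₁ : Nat.Primes) : ℕ) ∣ M * p * p := hℓ₁
  have hcomm := stb_tfComm (p := p) (M * p) hp
  -- the eigenvalue of `T_ℓ₁`
  have hT : heckeOperatorBar (M * p) ℓ₁ (x : JZero (M * p)) = n₁ • (x : JZero (M * p)) := by
    have h1 : (heckeGen ℓ₁ • x : PDiv (M * p) p) = pDivOp (M * p) p ℓ₁ x :=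
      tfModule_heckeGen_smul hcomm ℓ₁ x
    have h2 := congrArg Subtype.val (h1.symm.trans hn₁)
    rw [pDivOp_of_good hℓ₁'] at h2
    rw [h2]
    exact AddSubgroup.coe_zsmul _ _ _
  set c₁ : ℤ := n₁ - (((ℓ₁ : Nat.Primes) : ℕ) + 1) with hc₁
  have heis : eisKill ℓ₁ (x : JZero (M * p)) = ((c₁ • x : PDiv (M * p) p) : JZero (M * p)) := by
    rw [eisKill, hT, AddSubgroup.coe_zsmul, hc₁, sub_smul]
    congr 1
  -- step 1: (FAC-p)
  obtain ⟨u, r, hrF, hxu, hred, hdvd⟩ :=
    hFac M p hp hpM h5 A hA (x : JZero (M * p)) hx' hα' hβ' hpeu' hline' ℓ₁ hℓ₁'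
  -- step 2: (HOL-SPAN)
  have hb : r38dlog r ∈ holSpan (kA A) M :=
    hSpan M p hp h5 hpM A hA r hred.ne_zero_right ⟨hrF, hdvd⟩
  -- step 3: (T2)
  have hrel : HolRel A p ((c₁ • x : PDiv (M * p) p) : JZero (M * p)) (r38dlog r) := by
    rw [← heis]
    exact ⟨u, r, hxu, hred, rfl⟩
  have hpoly := tresalg_tfEval_rel hcomm (r38hol_tfComm (kA A))
    (fun (a : PDiv (M * p) p) (b : LaurentSeries (kA A)) => HolRel A p (a : JZero (M * p)) b)
    holRel_zero
    (fun a a' b b' h1 h2 => by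
      show HolRel A p ((a + a' : PDiv (M * p) p) : JZero (M * p)) (b + b')
      rw [AddSubgroup.coe_add]
      exact holRel_add h1 h2)
    (fun a b h1 => by
      show HolRel A p ((-a : PDiv (M * p) p) : JZero (M * p)) (-b)
      rw [AddSubgroup.coe_neg]
      exact holRel_neg h1)
    (goodPrimes (M * p) p)
    (fun ℓ hℓ a b h1 => by
      show HolRel A p ((pDivOp (M * p) p ℓ a : PDiv (M * p) p) : JZero (M * p))
        (r38holOp (kA A) ℓ b)
      rw [pDivOp_of_good hℓ]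
      have hℓ' : ¬ ((ℓ : Nat.Primes) : ℕ) ∣ M * p * p := hℓ
      exact holRel_hecke hp hA ℓ (fun h => hℓ' (h.mul_right p))
        (fun h => hℓ' (by rw [h]; exact dvd_mul_left p (M * p))) h1)
    t₀ ht₀ (c₁ • x) (r38dlog r) hrel
  have hnew : tfEval hcomm t₀ (c₁ • x) = n₀ • (c₁ • x) := by
    rw [map_zsmul, ← stb_pDiv_smul_def (M * p) hp, hn₀, smul_comm]
  rw [hnew, AddSubgroup.coe_zsmul] at hpoly
  have heig : n₀ • r38dlog r = tfEval (r38hol_tfComm (kA A)) t₀ (r38dlog r) :=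
    holRel_unique hp hA hpoly (holRel_zsmul n₀ hrel)
  -- step 4: (KILL)
  have hkill : tfEval (r38hol_tfComm (kA A)) t₀ (r38dlog r) = 0 := by
    have := stmtHolKill M (kA A) (goodPrimes (M * p) p)
      (fun ℓ hℓ h => hℓ ((h.mul_right p).mul_right p)) t₀ ht₀ hK (r38dlog r) hb
    rwa [r38hol_smul_def] at this
  rw [hkill] at heig
  have hn₀k : ((n₀ : ℤ) : kA A) ≠ 0 := by
    intro h0
    exact hpn₀ ((CharP.intCast_eq_zero_iff (kA A) p n₀).1 h0)
  have hb0 : r38dlog r = 0 := by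
    rw [← Int.cast_smul_eq_zsmul (kA A)] at heig
    exact (smul_eq_zero.1 heig).resolve_left hn₀k
  -- step 5: (D)
  have htriv : TrivInf A p (eisKill ℓ₁ (x : JZero (M * p))) :=
    hD M p hp hpM h5 A hA _ u hxu r hrF hred hb0
  rw [heis, AddSubgroup.coe_zsmul] at htriv
  exact tresalg_trivInf_of_zsmul hp hpn₁ hx' htriv

end Fermat.Agent.R38

end


end ZBS15_001_9

/-! ### bundled: `Fermat.Agent.R38.HolTrivFinal` -/
section ZBS15_001_10

/-!
# Row 38, PKG-TRES, route HOL-dlog: step (D) in the form of the bridge BR′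

`stmtHolTriv : StmtHolTriv` (`R38/HolBridge.lean`) from helper52's `r38holtriv_main`
(`R38/HolTriv.lean`).
-/

set_option autoImplicit false
set_option linter.style.haveILetI false
set_option synthInstance.maxHeartbeats 400000
set_option maxHeartbeats 1600000

namespace Fermat.Agent.R38

/-- **step (D)** of HOL-dlog, in the form consumed by `stmtTresTriv_of_hol`. -/
theorem stmtHolTriv : StmtHolTriv :=
  fun _ _ _ _ _ hp hpM h5 A hA _ _ hxu _ hrF hred h0 =>
    r38holtriv_main hp hpM h5 A hA hxu hrF hred h0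

end Fermat.Agent.R38


end ZBS15_001_10

/-! ### bundled: `Fermat.Agent.R38.PlanFac` -/
section ZBS15_001_11
/-
ROW 38, (FAC-p) = MONO + EIS — the INTERFACE between the two halves (captain helper44).
Owner tables: NOTES/R38-TRES.md (row 38), NOTES/R38-FAC.md (MONO, sub-captain helper92).

* `StmtFacMono` — OUTPUT of MONO (FAC-ASM: `R38/TresMono*.lean`), INPUT of FAC-EIS (helper60):
  for `x ∈ J₀(M p)[p]` new, fixed by the peu ramifié subgroup and moved by inertia along one line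
  (NO Hecke operator in the hypotheses), a Kummer function `u` of `x` has a Gauss reduction `r`
  at `v_∞` in `F̄_M = k(X₀(M))` with
      `p ∣ a · ord_Q r − b · ord_Q h`  at the places `Q` off the cusps (`0 ≤ ord_Q j̄`),
      `p ∣ ord_Q r`                    at the cusps (`ord_Q j̄ < 0`),
  where `p ∤ a` and `h ∈ F̄_M` is "Eisenstein": `T̄_ℓ h = c · h ^ (ℓ + 1)` on `q`-expansions for
  all primes `ℓ ≠ p`   [`h` = reduction of the Ogg unit `Δ(q^p)/Δ(q)`, `a = 12 (p − 1)`,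
  `b = ∓ c̃`, `c̃ = m^0 − m^∞` the difference of the vertical valuations of `u″` on the cover].
* `StmtFacEis := StmtFacMono → StmtFacP`  (the deliverable of FAC-EIS; `StmtFacP` is in
  `R38/TresBridge.lean`, helper42).

Definitions and statements only.
-/

set_option autoImplicit false
set_option linter.style.haveILetI false

noncomputable section

namespace Fermat.Agent.R38

open ModularCurve AlgebraicCurve Fermat.Agent.ES Fermat.Agent.ES.G2 Fermat.Agent.STB
  Fermat.Agent.RIB.MP Fermat.Agent.S24 Fermat.Agent.DEU Fermat.Agent.ES.M Fermat.Agent.W1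
  Fermat.Agent.S15 Fermat.Agent.RIB

/-- **(FAC-MONO)**: the output of the monodromy argument on the cover (no Hecke operator in the
hypotheses). -/
def StmtFacMono : Prop :=
  ∀ (M p : ℕ) [NeZero M] [NeZero p] [NeZero (M * p)] (_ : p.Prime) (_ : ¬ p ∣ M), 5 ≤ p →
    ∀ A : ValuationSubring Qb, A.LiesOverPrime p →
    ∀ x : JZero (M * p), p • x = 0 → stbPushAlpha M p x = 0 → stbPushBeta M p x = 0 →
      PeuFixed A p x → InertiaLine A x →
      ∃ (u : modularFunctionFieldBar (M * p)) (r h : LaurentSeries (kA A))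
        (hr : r ∈ modularFunctionFieldFullC (kA A) M)
        (hh : h ∈ modularFunctionFieldFullC (kA A) M) (a b : ℤ),
        KummerRel p x u ∧ R38Red A (u : LaurentSeries Qb) r ∧ h ≠ 0 ∧ ¬ (p : ℤ) ∣ a ∧
        (∀ Q : Place (kA A) ↥(modularFunctionFieldFullC (kA A) M),
          0 ≤ Q.ord (⟨jqModC (kA A), jqModC_mem_full (kA A) M⟩ :
              ↥(modularFunctionFieldFullC (kA A) M)) →
            (p : ℤ) ∣ a * Q.ord (⟨r, hr⟩ : ↥(modularFunctionFieldFullC (kA A) M)) -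
              b * Q.ord (⟨h, hh⟩ : ↥(modularFunctionFieldFullC (kA A) M))) ∧
        (∀ Q : Place (kA A) ↥(modularFunctionFieldFullC (kA A) M),
          Q.ord (⟨jqModC (kA A), jqModC_mem_full (kA A) M⟩ :
              ↥(modularFunctionFieldFullC (kA A) M)) < 0 →
            (p : ℤ) ∣ Q.ord (⟨r, hr⟩ : ↥(modularFunctionFieldFullC (kA A) M))) ∧
        (∀ (ℓ : ℕ) [NeZero ℓ], ℓ.Prime → ℓ ≠ p → ∀ ζ : (kA A)ˣ, IsPrimitiveRoot ζ ℓ →
          ∃ c : kA A, c ≠ 0 ∧ kronHecke ℓ ζ h = HahnSeries.C c * h ^ (ℓ + 1))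

/-- **(FAC-EIS)**: the Eisenstein step on the `k`-side (push–pull in `F̄_{Mℓ} / F̄_M`). -/
def StmtFacEis : Prop :=
  StmtFacMono → StmtFacP

/-- (FAC-p) from its two halves. -/
theorem stmtFacP_of (hEis : StmtFacEis) (hMono : StmtFacMono) : StmtFacP :=
  hEis hMono

end Fermat.Agent.R38

end


end ZBS15_001_11

/-! ### bundled: `Fermat.Agent.R38.PlanMono` -/
section ZBS15_001_12
/-
ROW 38, FAC-MONO — the top of the assembly (captain helper44).

`StmtFacMono` (`R38/PlanFac.lean`) is split along FAC-LINE (`tresline_main`, `R38/TresLine.lean`):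

* `FacMonoConcl M p A x`  — the conclusion of `StmtFacMono` for one class `x`;
* `StmtMonoFix`   (ASM-NOCOVER, `R38/TresMonoFix*.lean`): the inertia group FIXES `x` — no cover;
* `StmtMonoCover` (ASM-MAIN, `R38/TresMono*.lean`): there is `σ₀ ∈ I` such that
  `z₀ = σ₀ x − x ≠ 0` is `p`-torsion, new, trivial at `v_∞`, TORIC, and spans the line
  (the cover is `F_N(w₀^{1/p})`, `w₀ = σ₀ u / u`);
* `stmtFacMono_of : StmtTresT0 → StmtMonoFix → StmtMonoCover → StmtFacMono`.
-/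

set_option autoImplicit false
set_option linter.style.haveILetI false

noncomputable section

namespace Fermat.Agent.R38

open ModularCurve AlgebraicCurve Fermat.Agent.ES Fermat.Agent.ES.G2 Fermat.Agent.STB
  Fermat.Agent.RIB.MP Fermat.Agent.S24 Fermat.Agent.DEU Fermat.Agent.ES.M Fermat.Agent.W1
  Fermat.Agent.S15 Fermat.Agent.RIB ExtCitation

/-- the conclusion of `StmtFacMono` for the class `x` -/
def FacMonoConcl (M p : ℕ) [NeZero M] [NeZero p] [NeZero (M * p)] (A : ValuationSubring Qb)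
    (x : JZero (M * p)) : Prop :=
  ∃ (u : modularFunctionFieldBar (M * p)) (r h : LaurentSeries (kA A))
    (hr : r ∈ modularFunctionFieldFullC (kA A) M)
    (hh : h ∈ modularFunctionFieldFullC (kA A) M) (a b : ℤ),
    KummerRel p x u ∧ R38Red A (u : LaurentSeries Qb) r ∧ h ≠ 0 ∧ ¬ (p : ℤ) ∣ a ∧
    (∀ Q : Place (kA A) ↥(modularFunctionFieldFullC (kA A) M),
      0 ≤ Q.ord (⟨jqModC (kA A), jqModC_mem_full (kA A) M⟩ :
          ↥(modularFunctionFieldFullC (kA A) M)) →
        (p : ℤ) ∣ a * Q.ord (⟨r, hr⟩ : ↥(modularFunctionFieldFullC (kA A) M)) -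
          b * Q.ord (⟨h, hh⟩ : ↥(modularFunctionFieldFullC (kA A) M))) ∧
    (∀ Q : Place (kA A) ↥(modularFunctionFieldFullC (kA A) M),
      Q.ord (⟨jqModC (kA A), jqModC_mem_full (kA A) M⟩ :
          ↥(modularFunctionFieldFullC (kA A) M)) < 0 →
        (p : ℤ) ∣ Q.ord (⟨r, hr⟩ : ↥(modularFunctionFieldFullC (kA A) M))) ∧
    (∀ (ℓ : ℕ) [NeZero ℓ], ℓ.Prime → ℓ ≠ p → ∀ ζ : (kA A)ˣ, IsPrimitiveRoot ζ ℓ →
      ∃ c : kA A, c ≠ 0 ∧ kronHecke ℓ ζ h = HahnSeries.C c * h ^ (ℓ + 1))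

/-- **ASM-NOCOVER**: the case where the inertia group fixes `x`. -/
def StmtMonoFix : Prop :=
  ∀ (M p : ℕ) [NeZero M] [NeZero p] [NeZero (M * p)] (_ : p.Prime) (_ : ¬ p ∣ M), 5 ≤ p →
    ∀ A : ValuationSubring Qb, A.LiesOverPrime p →
    ∀ x : JZero (M * p), p • x = 0 → stbPushAlpha M p x = 0 → stbPushBeta M p x = 0 →
      (∀ σ ∈ A.inertiaSubgroupIn ℚ, σ • x = x) → FacMonoConcl M p A x

/-- **ASM-MAIN**: the case of a nonzero toric line (the cover `F_N(w₀^{1/p})`). -/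
def StmtMonoCover : Prop :=
  ∀ (M p : ℕ) [NeZero M] [NeZero p] [NeZero (M * p)] [Fact p.Prime] (_ : ¬ p ∣ M), 5 ≤ p →
    ∀ A : ValuationSubring Qb, A.LiesOverPrime p →
    ∀ x : JZero (M * p), p • x = 0 → stbPushAlpha M p x = 0 → stbPushBeta M p x = 0 →
      PeuFixed A p x →
    ∀ σ₀ ∈ A.inertiaSubgroupIn ℚ, σ₀ • x - x ≠ 0 → p • (σ₀ • x - x) = 0 →
      stbPushAlpha M p (σ₀ • x - x) = 0 → stbPushBeta M p (σ₀ • x - x) = 0 →
      TrivInf A p (σ₀ • x - x) →
      (∀ τ ∈ A.inertiaSubgroupIn ℚ, τ • (σ₀ • x - x) = cycloExp p τ • (σ₀ • x - x)) →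
      (∀ σ ∈ A.inertiaSubgroupIn ℚ, ∃ k : ℤ, σ • x - x = k • (σ₀ • x - x)) →
      FacMonoConcl M p A x

/-- **FAC-MONO from its two cases.** -/
theorem stmtFacMono_of (hT0 : StmtTresT0) (hFix : StmtMonoFix) (hCov : StmtMonoCover) :
    StmtFacMono := by
  intro M p _ _ _ hp hpM h5 A hA x hx hα hβ hpeu hline
  haveI : Fact p.Prime := ⟨hp⟩
  have hp2 : p ≠ 2 := by omega
  rcases tresline_main M p hT0 hp2 hpM A hA x hx hα hβ hline with hfix |
    ⟨σ₀, hσ₀, hz, hpz, hzα, hzβ, htriv, htor, hspan⟩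
  · exact hFix M p hp hpM h5 A hA x hx hα hβ hfix
  · exact hCov M p hpM h5 A hA x hx hα hβ hpeu σ₀ hσ₀ hz hpz hzα hzβ htriv htor hspan

end Fermat.Agent.R38

end


end ZBS15_001_12
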