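/- GENERATED FILE (helper35, build-time optimisation, NOTES/ZB.md): verbatim concatenation of the modules
   Fermat.Agent.S15.PkgTVConj
   Fermat.Agent.S15.PkgTVInt
   Fermat.Agent.S15.PkgTV
   Fermat.Agent.S15.PkgPoly
   Do not edit; do not import together with these modules. -/
import Fermat.Agent.ZB.ES_001
import Fermat.Agent.ZB.INJ_012
import Fermat.Agent.ZB.S20_001
import Fermat.Agent.ZB.ES_003
import Fermat.Agent.ZB.W1_002
import Fermat.Agent.ZB.UNIP_015
import Fermat.Agent.ZB.S28_002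

/-! ### bundled: `Fermat.Agent.S15.PkgTVConj` -/
section ZBZ2S15_028_0

/-!
# S15 / LN-PKG, piece PKG-tv, part 1: the conjugates of `u ∈ F_N` over `ℚ̄(j)` (helper10)

`N` a prime.  The `N + 1` ring homomorphisms `F_N → Ω̄`, `Ω = ℚ̄((t))`,
`σ_∞ u = u(t^N)`, `σ_b u = (w_N u)(ζ^b t)` (`b < N`) agree on `ℚ̄(j)` and are pairwise distinct,
hence they are ALL the `ℚ̄(t₀)`-embeddings of `F_N` for every `t₀` with `ℚ̄(t₀)` of index `N + 1`
on which they agree (`t₀ = j`, `t₀ = 1/j`).  Consequence (`pkgtv_minpoly_coeff_mem`): if all the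
`σ_i u` lie in a subring `S` of `Ω̄`, so do the coefficients of the minimal polynomial of `u`.

Everything here is independent of valuation rings.
-/

set_option autoImplicit false
set_option linter.unusedSectionVars false
set_option linter.unusedVariables false
set_option linter.style.haveILetI false

noncomputable section

namespace Fermat.Agent.S15.LN

open ModularCurve AlgebraicCurve Polynomial IntermediateField
open Fermat.Agent.ES Fermat.Agent.ES.M Fermat.Agent.ES.G2 Fermat.Agent.S24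

variable (N : ℕ) [NeZero N]

/-- the embedding `σ_∞ : F_N → ℚ̄((t))‾`, `u ↦ u(t^N)` -/
def pkgtvInf : FF N →+* HnOmegaBar :=
  (algebraMap HnOmega HnOmegaBar).comp
    ((qExpand Kb N).comp (algebraMap (FF N) (LaurentSeries Kb)))

theorem pkgtvInf_apply (x : FF N) :
    pkgtvInf N x = algebraMap HnOmega HnOmegaBar (qExpand Kb N (x : LaurentSeries Kb)) := rfl

/-- the embedding `σ_c : F_N → ℚ̄((t))‾`, `u ↦ (w_N u)(c t)` -/
def pkgtvRot (c : Kbˣ) : FF N →+* HnOmegaBar :=
  (algebraMap HnOmega HnOmegaBar).comp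
    ((kronRot c).comp
      ((algebraMap (FF N) (LaurentSeries Kb)).comp
        ((frickeAut N : FF N ≃ₐ[Kb] FF N) : FF N →+* FF N)))

theorem pkgtvRot_apply (c : Kbˣ) (x : FF N) :
    pkgtvRot N c x =
      algebraMap HnOmega HnOmegaBar (kronRot c ((frickeAut N x : FF N) : LaurentSeries Kb)) := rfl

/-- the family of the `N + 1` conjugations -/
def pkgtvFam (ζ : Kbˣ) : Option (Fin N) → (FF N →+* HnOmegaBar)
  | none => pkgtvInf N
  | some b => pkgtvRot N (ζ ^ (b : ℕ))

theorem pkgtv_coe_jF : ((jF N : FF N) : LaurentSeries Kb) = jBar := rfl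

theorem pkgtv_coe_jN : ((jdF N N dvd_rfl : FF N) : LaurentSeries Kb) = qExpand Kb N jBar := by
  rw [jdF_coe, jBar, coeffEmb, coeffMap_qExpand]

theorem pkgtvInf_jF : pkgtvInf N (jF N) = algebraMap HnOmega HnOmegaBar (qExpand Kb N jBar) := rfl

theorem pkgtvRot_jF (c : Kbˣ) (hc : c ^ N = 1) :
    pkgtvRot N c (jF N) = algebraMap HnOmega HnOmegaBar (qExpand Kb N jBar) := by
  rw [pkgtvRot_apply, frickeAut_jF, pkgtv_coe_jN, qExpand_kronRot_pow, hc, kronRot_one]

theorem pkgtvInf_jN :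
    pkgtvInf N (jdF N N dvd_rfl) =
      algebraMap HnOmega HnOmegaBar (qExpand Kb N (qExpand Kb N jBar)) := by
  rw [pkgtvInf_apply, pkgtv_coe_jN]

theorem pkgtvRot_jN (c : Kbˣ) :
    pkgtvRot N c (jdF N N dvd_rfl) = algebraMap HnOmega HnOmegaBar (kronRot c jBar) := by
  rw [pkgtvRot_apply, ← frickeAut_jF, frickeAut_frickeAut, pkgtv_coe_jF]

theorem pkgtvFam_jF (ζ : Kbˣ) (hζ : ζ ^ N = 1) (i : Option (Fin N)) :
    pkgtvFam N ζ i (jF N) = pkgtvInf N (jF N) := by
  cases i with
  | none => rfl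
  | some b =>
      rw [pkgtvInf_jF]
      refine pkgtvRot_jF N _ ?_
      rw [← pow_mul, mul_comm, pow_mul, hζ, one_pow]

theorem pkgtv_coe_algebraMap (a : Kb) :
    ((algebraMap Kb (FF N) a : FF N) : LaurentSeries Kb) = HahnSeries.C a := by
  have h : ((algebraMap Kb (FF N) a : FF N) : LaurentSeries Kb) =
      algebraMap Kb (LaurentSeries Kb) a := rfl
  rw [h, LaurentSeries.algebraMap_apply]

theorem pkgtvFam_algebraMap (ζ : Kbˣ) (i : Option (Fin N)) (a : Kb) :
    pkgtvFam N ζ i (algebraMap Kb (FF N) a) =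
      algebraMap HnOmega HnOmegaBar (HahnSeries.C a) := by
  cases i with
  | none =>
      show pkgtvInf N _ = _
      rw [pkgtvInf_apply]
      have h : ((algebraMap Kb (FF N) a : FF N) : LaurentSeries Kb) = HahnSeries.C a :=
        pkgtv_coe_algebraMap N a
      rw [h, qExpand_C]
  | some b =>
      show pkgtvRot N _ _ = _
      rw [pkgtvRot_apply, AlgEquiv.commutes]
      have h : ((algebraMap Kb (FF N) a : FF N) : LaurentSeries Kb) = HahnSeries.C a :=
        pkgtv_coe_algebraMap N a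
      rw [h]
      congr 1
      ext n
      rw [kronRot_coeff]
      by_cases hn : n = 0
      · subst hn
        simp
      · have h0 : (HahnSeries.C a : LaurentSeries Kb).coeff n = 0 :=
          HahnSeries.coeff_single_of_ne hn
        rw [h0, mul_zero]

/-- the conjugations agree on `ℚ̄(t₀)` as soon as they agree at `t₀` -/
theorem pkgtvFam_eq_on (ζ : Kbˣ) (t₀ : FF N)
    (ht₀ : ∀ i, pkgtvFam N ζ i t₀ = pkgtvInf N t₀) (i : Option (Fin N)) (x : FF N)
    (hx : x ∈ Kb⟮t₀⟯) : pkgtvFam N ζ i x = pkgtvInf N x := by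
  induction hx using IntermediateField.adjoin_induction with
  | mem y hy =>
      rw [Set.mem_singleton_iff] at hy
      subst hy
      exact ht₀ i
  | algebraMap a =>
      rw [pkgtvFam_algebraMap]
      exact (pkgtvFam_algebraMap N ζ none a).symm
  | add a b _ _ iha ihb => rw [map_add, map_add, iha, ihb]
  | mul a b _ _ iha ihb => rw [map_mul, map_mul, iha, ihb]
  | inv a _ iha => rw [map_inv₀, map_inv₀, iha]

theorem pkgtv_jBar_coeff : (jBar : LaurentSeries Kb).coeff (-1) = 1 := hn_jBar_coeff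

theorem pkgtvFam_injective (hN : N.Prime) (ζ : Kbˣ) (hζ : IsPrimitiveRoot ζ N) :
    Function.Injective (pkgtvFam N ζ) := by
  have hcoef : ∀ b : Fin N, (kronRot (ζ ^ (b : ℕ)) jBar).coeff (-1)
      = (((ζ ^ (b : ℕ)) ^ (-1 : ℤ) : Kbˣ) : Kb) := by
    intro b
    rw [kronRot_coeff, pkgtv_jBar_coeff, mul_one]
  have hinf : (qExpand Kb N (qExpand Kb N jBar)).coeff (-1) = 0 := by
    apply qExpand_coeff_of_not_dvd
    intro hdvd
    have h1 : ((N : ℤ)) ∣ 1 := (dvd_neg).1 hdvd
    have h2 : N ∣ 1 := by exact_mod_cast h1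
    exact hN.one_lt.ne' (Nat.dvd_one.1 h2)
  have hvalInf : pkgtvFam N ζ none (jdF N N dvd_rfl)
      = algebraMap HnOmega HnOmegaBar (qExpand Kb N (qExpand Kb N jBar)) := pkgtvInf_jN N
  have hvalRot : ∀ b : Fin N, pkgtvFam N ζ (some b) (jdF N N dvd_rfl)
      = algebraMap HnOmega HnOmegaBar (kronRot (ζ ^ (b : ℕ)) jBar) :=
    fun b => pkgtvRot_jN N _
  intro i i' h
  have h' : pkgtvFam N ζ i (jdF N N dvd_rfl) = pkgtvFam N ζ i' (jdF N N dvd_rfl) := by rw [h]
  cases i with
  | none =>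
      cases i' with
      | none => rfl
      | some b' =>
          exfalso
          rw [hvalInf, hvalRot] at h'
          have h2 := congrArg (fun g : LaurentSeries Kb => g.coeff (-1))
            (hn_algebraMap_injective h')
          simp only [hinf, hcoef] at h2
          exact Units.ne_zero _ h2.symm
  | some b =>
      cases i' with
      | none =>
          exfalso
          rw [hvalInf, hvalRot] at h'
          have h2 := congrArg (fun g : LaurentSeries Kb => g.coeff (-1))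
            (hn_algebraMap_injective h')
          simp only [hinf, hcoef] at h2
          exact Units.ne_zero _ h2
      | some b' =>
          rw [hvalRot, hvalRot] at h'
          have h2 := congrArg (fun g : LaurentSeries Kb => g.coeff (-1))
            (hn_algebraMap_injective h')
          simp only [hcoef] at h2
          have h3 : (ζ ^ (b : ℕ)) ^ (-1 : ℤ) = (ζ ^ (b' : ℕ)) ^ (-1 : ℤ) := Units.ext h2
          have h4 : ζ ^ (b : ℕ) = ζ ^ (b' : ℕ) := by
            have := congrArg (fun u : Kbˣ => u⁻¹) h3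
            simpa using this
          have h5 : (b : ℕ) = (b' : ℕ) := hζ.pow_inj b.2 b'.2 h4
          exact congrArg some (Fin.ext h5)

/-- generic form: a complete list of embeddings with values in a subring -/
theorem pkgtv_minpoly_coeff_mem_gen {F F' E : Type*} [Field F] [Field F'] [Field E]
    [Algebra F F'] [Algebra F E] [FiniteDimensional F F'] [CharZero F]
    [IsAlgClosed E] {ι : Type*} [Fintype ι] (e : ι → (F' →ₐ[F] E)) (he : Function.Injective e)
    (hcard : Fintype.card ι = Module.finrank F F') (S : Subring E) (u : F')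
    (hu : ∀ i, e i u ∈ S) (n : ℕ) :
    algebraMap F E ((minpoly F u).coeff n) ∈ S := by
  classical
  have hbij : Function.Bijective e := by
    rw [Fintype.bijective_iff_injective_and_card]
    exact ⟨he, by rw [hcard, AlgHom.card F F' E]⟩
  set p : E[X] := (minpoly F u).map (algebraMap F E) with hp
  have hint : IsIntegral F u := Algebra.IsIntegral.isIntegral u
  have hmonic : p.Monic := (minpoly.monic hint).map _
  have hsplit : p.Splits := IsAlgClosed.splits p
  have hroots : ∀ r ∈ p.roots, r ∈ S := by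
    intro r hr
    have h1 : r ∈ (minpoly F u).rootSet E := by
      rw [Polynomial.mem_rootSet_of_ne (minpoly.ne_zero hint), Polynomial.aeval_def,
        Polynomial.eval₂_eq_eval_map]
      exact (Polynomial.mem_roots'.1 hr).2
    rw [← Algebra.IsAlgebraic.range_eval_eq_rootSet_minpoly E u] at h1
    obtain ⟨ψ, hψ⟩ := h1
    obtain ⟨i, hi⟩ := hbij.2 ψ
    have h2 : r = e i u := by
      rw [← hψ, ← hi]
    rw [h2]
    exact hu i
  have hlift : p ∈ Polynomial.lifts S.subtype := by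
    rw [hsplit.eq_prod_roots_of_monic hmonic]
    refine Subsemiring.multiset_prod_mem _ _ ?_
    intro f hf
    rw [Multiset.mem_map] at hf
    obtain ⟨r, hr, rfl⟩ := hf
    rw [Polynomial.mem_lifts]
    refine ⟨X - C ⟨r, hroots r hr⟩, ?_⟩
    simp
  have hc := (Polynomial.lifts_iff_coeff_lifts p).1 hlift n
  obtain ⟨s, hs⟩ := hc
  have h3 : p.coeff n = algebraMap F E ((minpoly F u).coeff n) := by
    rw [hp, Polynomial.coeff_map]
  rw [← h3, ← hs]
  exact s.2

/-- **the conjugates are all the roots**: if the `σ_i u` lie in a subring `S` of `Ω̄`, then so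
do the coefficients of the minimal polynomial of `u` over `ℚ̄(t₀)` (embedded by `σ_∞`). -/
theorem pkgtv_minpoly_coeff_mem (hN : N.Prime) (ζ : Kbˣ) (hζ : IsPrimitiveRoot ζ N) (t₀ : FF N)
    (ht₀ : ∀ i, pkgtvFam N ζ i t₀ = pkgtvInf N t₀)
    (hdeg : Module.finrank Kb⟮t₀⟯ (FF N) = N + 1)
    (S : Subring HnOmegaBar) (u : FF N) (hu : ∀ i, pkgtvFam N ζ i u ∈ S) (n : ℕ) :
    pkgtvInf N (((minpoly Kb⟮t₀⟯ u).coeff n : Kb⟮t₀⟯) : FF N) ∈ S := by
  classical
  let algE : Algebra Kb⟮t₀⟯ HnOmegaBar :=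
    ((pkgtvInf N).comp (algebraMap Kb⟮t₀⟯ (FF N))).toAlgebra
  have hfin : FiniteDimensional Kb⟮t₀⟯ (FF N) :=
    FiniteDimensional.of_finrank_pos (by rw [hdeg]; omega)
  have hchar : CharZero Kb⟮t₀⟯ :=
    charZero_of_injective_algebraMap (algebraMap Kb Kb⟮t₀⟯).injective
  let e : Option (Fin N) → (FF N →ₐ[Kb⟮t₀⟯] HnOmegaBar) := fun i =>
    { pkgtvFam N ζ i with
      commutes' := fun x => pkgtvFam_eq_on N ζ t₀ ht₀ i (x : FF N) x.2 }
  have he : Function.Injective e := by
    intro i i' h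
    apply pkgtvFam_injective N hN ζ hζ
    have := congrArg (fun g : FF N →ₐ[Kb⟮t₀⟯] HnOmegaBar => (g : FF N →+* HnOmegaBar)) h
    exact this
  have hcard : Fintype.card (Option (Fin N)) = Module.finrank Kb⟮t₀⟯ (FF N) := by
    rw [hdeg, Fintype.card_option, Fintype.card_fin]
  exact pkgtv_minpoly_coeff_mem_gen e he hcard S u hu n

end Fermat.Agent.S15.LN

end
end ZBZ2S15_028_0

/-! ### bundled: `Fermat.Agent.S15.PkgTVInt` -/
section ZBZ2S15_028_1

/-!
# S15 / LN-PKG, piece PKG-tv, part 2: integrality over `A[t]` (helper10)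

* `pkgtv_isIntegral` : regular wherever `t` is ⟹ integral over `ℚ̄[t]` (any transcendental `t`);
* `pkgtv_kronInt_gen` : Lemma R (a) for a root of a monic polynomial over `ℚ̄[J]`, `J` integral;
* `pkgtv_coeff_mem_inv`, `pkgtv_coeff_mem` : a polynomial in `1/j` (resp. `j`) with integral
  `q`-expansion has its coefficients in `A`;
* `pkgtv_minpoly_kronInt` : the coefficients of the minimal polynomial over `ℚ̄[t]` of `u` have
  integral `q`-expansions if `u` and `w_N u` have.
-/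

set_option autoImplicit false
set_option linter.unusedSectionVars false
set_option linter.unusedVariables false
set_option linter.style.haveILetI false

noncomputable section

namespace Fermat.Agent.S15.LN

open ModularCurve AlgebraicCurve Polynomial IntermediateField IsDedekindDomain
open Fermat.Agent.ES Fermat.Agent.ES.M Fermat.Agent.ES.G2 Fermat.Agent.S24 Fermat.Agent.ES.LR

variable (N : ℕ) [NeZero N]

/-! ### regular wherever `t` is ⟹ integral over `ℚ̄[t]` -/

theorem pkgtv_isIntegral (t : FF N) (ht : Transcendental Kb t) [FiniteDimensional Kb⟮t⟯ (FF N)]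
    (x : FF N) (hx : ∀ P : Place Kb (FF N), 0 ≤ P.ord t → 0 ≤ P.ord x) :
    letI := polyAlgebra (K := Kb) t
    IsIntegral Kb[X] x := by
  letI := polyAlgebra (K := Kb) t
  obtain ⟨hDed, hFrac, -⟩ := intClosure_facts (K := Kb) t ht
  have hj0 : t ≠ 0 := fun h => ht (h ▸ isAlgebraic_zero)
  have hall : ∀ w : HeightOneSpectrum (intClosure (K := Kb) t),
      w.valuation (FF N) x ≤ 1 := by
    intro w
    set P : Place Kb (FF N) := placeOfPrime (PlacesAux.hK (K := Kb) t) w with hP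
    have hjmem : t ∈ P.toValuationSubring := by
      rw [hP, placeOfPrime_toValuationSubring, Valuation.mem_valuationSubring_iff]
      have h1 := w.valuation_le_one (K := FF N)
        (algebraMap Kb[X] (intClosure (K := Kb) t) X)
      have h2 : algebraMap (intClosure (K := Kb) t) (FF N)
          (algebraMap Kb[X] (intClosure (K := Kb) t) X) = t :=
        PlacesAux.algebraMap_X (K := Kb) t
      exact le_of_eq_of_le (congrArg (w.valuation (FF N)) h2).symm h1
    have hj : 0 ≤ P.ord t := (PlaceAux.ord_nonneg_iff P hj0).2 hjmem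
    have hxmem := PlaceAux.mem_of_ord_nonneg P (hx P hj)
    rwa [hP, placeOfPrime_toValuationSubring, Valuation.mem_valuationSubring_iff] at hxmem
  obtain ⟨r, hr⟩ := HeightOneSpectrum.mem_integers_of_valuation_le_one (FF N) x hall
  rw [← hr]
  exact r.2

/-! ### Lemma R (a), general coordinate -/

theorem pkgtv_kronInt_gen (A : ValuationSubring Kb) (hA : Arch A) (J : LaurentSeries Kb)
    (hJ : KronInt A J) (x : FF N) (p : Kb[X][X]) (hp : p.Monic)
    (hz : Polynomial.eval₂ (Polynomial.aeval J).toRingHom (x : LaurentSeries Kb) p = 0)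
    (hG : GaussInt N A x) : KronInt A (x : LaurentSeries Kb) := by
  obtain ⟨w, Y₁, Y₂, -, -, hY₂, hfrac, -⟩ := hG
  have hY₂0 : kronIncl A Y₂ ≠ 0 := by
    intro h0
    apply hY₂
    have h1 : Y₂ = 0 := kronIncl_injective (A := A) (h0.trans (map_zero _).symm)
    rw [h1, map_zero]
  obtain ⟨c, hc0, hcx⟩ := exists_kronInt_C_mul hA hJ (kronInt_kronIncl Y₁)
    (kronInt_kronIncl Y₂) hY₂0 hfrac p hp hz
  exact kronInt_of_bounded hA hc0 hcx (kronInt_kronIncl Y₁) ((kronPrim_kronIncl_iff Y₂).2 hY₂)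
    hfrac

/-- the integrality equation of `x` over `ℚ̄[t]`, read in `ℚ̄((q))` -/
theorem pkgtv_eval₂_coe (t x : FF N) (p : Kb[X][X])
    (hpz : Polynomial.eval₂ (Polynomial.aeval (R := Kb) t).toRingHom x p = 0) :
    Polynomial.eval₂ (Polynomial.aeval (R := Kb) (t : LaurentSeries Kb)).toRingHom
      (x : LaurentSeries Kb) p = 0 := by
  have hcomp : (modularFunctionFieldBar N).val.toRingHom.comp
      (Polynomial.aeval (R := Kb) t).toRingHom =
      (Polynomial.aeval (t : LaurentSeries Kb)).toRingHom := by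
    have h1 : (Polynomial.aeval (R := Kb) (t : LaurentSeries Kb)) =
        (modularFunctionFieldBar N).val.comp (Polynomial.aeval t) :=
      Polynomial.aeval_algHom (modularFunctionFieldBar N).val t
    rw [h1]
    rfl
  have h1 := Polynomial.hom_eval₂ p (Polynomial.aeval (R := Kb) t).toRingHom
    (modularFunctionFieldBar N).val.toRingHom x
  rw [hpz, map_zero, hcomp] at h1
  exact h1.symm

/-- transport of an integrality equation by an automorphism -/
theorem pkgtv_eval₂_aut (w : FF N ≃ₐ[Kb] FF N) (t x : FF N) (p : Kb[X][X])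
    (hpz : Polynomial.eval₂ (Polynomial.aeval (R := Kb) t).toRingHom x p = 0) :
    Polynomial.eval₂ (Polynomial.aeval (R := Kb) (w t)).toRingHom (w x) p = 0 := by
  have hcomp : ((w : FF N →ₐ[Kb] FF N) : FF N →+* FF N).comp
      (Polynomial.aeval (R := Kb) t).toRingHom =
      (Polynomial.aeval (w t)).toRingHom := by
    have h1 : (Polynomial.aeval (R := Kb) (w t)) =
        (w : FF N →ₐ[Kb] FF N).comp (Polynomial.aeval t) :=
      Polynomial.aeval_algHom (w : FF N →ₐ[Kb] FF N) t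
    rw [h1]
    rfl
  have h1 := Polynomial.hom_eval₂ p (Polynomial.aeval (R := Kb) t).toRingHom
    ((w : FF N →ₐ[Kb] FF N) : FF N →+* FF N) x
  rw [hpz, map_zero, hcomp] at h1
  exact h1.symm

/-! ### `1/j` as a power series -/

/-- `1/j = q · (unit)` as a power series with integer coefficients -/
def pkgtvJinvZ : PowerSeries ℤ := PowerSeries.X * PowerSeries.invOfUnit jNum 1

theorem pkgtv_constantCoeff_jinvZ : PowerSeries.constantCoeff pkgtvJinvZ = 0 := by
  rw [pkgtvJinvZ, map_mul, PowerSeries.constantCoeff_X, zero_mul]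

/-- `1/j` as a power series over `ℚ̄` -/
def pkgtvJinvPS : PowerSeries Kb := pkgtvJinvZ.map (Int.castRingHom Kb)

theorem pkgtv_constantCoeff_jinvPS : PowerSeries.constantCoeff pkgtvJinvPS = 0 := by
  rw [pkgtvJinvPS, ← PowerSeries.coeff_zero_eq_constantCoeff, PowerSeries.coeff_map,
    PowerSeries.coeff_zero_eq_constantCoeff, pkgtv_constantCoeff_jinvZ, map_zero]

theorem pkgtv_jBar_mul_jinv :
    (jBar : LaurentSeries Kb) * HahnSeries.ofPowerSeries ℤ Kb pkgtvJinvPS = 1 := by
  have hj : (jBar : LaurentSeries Kb) = HahnSeries.single (-1 : ℤ) 1 *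
      HahnSeries.ofPowerSeries ℤ Kb (jNum.map (Int.castRingHom Kb)) := by
    rw [Fermat.Agent.INJ.hmMem_jBar_eq]
    rfl
  have h1 : jNum * PowerSeries.invOfUnit jNum 1 = 1 :=
    PowerSeries.mul_invOfUnit jNum 1 (by rw [constantCoeff_jNum]; rfl)
  have h2 : (jNum.map (Int.castRingHom Kb)) * pkgtvJinvPS = PowerSeries.X := by
    rw [pkgtvJinvPS, ← map_mul, pkgtvJinvZ, ← mul_assoc, mul_comm jNum PowerSeries.X, mul_assoc,
      h1, mul_one, PowerSeries.map_X]
  rw [hj, mul_assoc, ← map_mul, h2, HahnSeries.ofPowerSeries_X, HahnSeries.single_mul_single]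
  simp

theorem pkgtv_jBar_ne_zero : (jBar : LaurentSeries Kb) ≠ 0 := by
  intro h
  have := pkgtv_jBar_mul_jinv
  rw [h, zero_mul] at this
  exact zero_ne_one this

theorem pkgtv_jBar_inv :
    (jBar : LaurentSeries Kb)⁻¹ = HahnSeries.ofPowerSeries ℤ Kb pkgtvJinvPS :=
  inv_eq_of_mul_eq_one_right pkgtv_jBar_mul_jinv

theorem pkgtv_kronInt_jinv (A : ValuationSubring Kb) : KronInt A (jBar : LaurentSeries Kb)⁻¹ := by
  rw [pkgtv_jBar_inv]
  intro n
  by_cases hn : n < 0
  · rw [ofPowerSeries_coeff_of_neg _ hn]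
    exact A.zero_mem
  · obtain ⟨m, rfl⟩ := Int.eq_ofNat_of_zero_le (not_lt.1 hn)
    rw [HahnSeries.ofPowerSeries_apply_coeff, pkgtvJinvPS, PowerSeries.coeff_map]
    exact arch_intCast_mem A _

/-! ### a polynomial in `1/j` or `j` with integral expansion -/

section PolyCoeff

variable {L : Type*} [Field L] {A : ValuationSubring L}

theorem pkgtv_kronInt_sub {f g : LaurentSeries L} (hf : KronInt A f) (hg : KronInt A g) :
    KronInt A (f - g) := by
  rw [← mem_intSub] at hf hg ⊢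
  exact Subring.sub_mem _ hf hg

theorem pkgtv_kronInt_add {f g : LaurentSeries L} (hf : KronInt A f) (hg : KronInt A g) :
    KronInt A (f + g) := by
  rw [← mem_intSub] at hf hg ⊢
  exact Subring.add_mem _ hf hg

/-- the constant term of a polynomial in a power series without constant term -/
theorem pkgtv_aeval_coeff_zero (S : PowerSeries L) (hS : PowerSeries.constantCoeff S = 0)
    (d : L[X]) :
    (Polynomial.aeval (HahnSeries.ofPowerSeries ℤ L S) d).coeff 0 = d.coeff 0 := by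
  have h1 : Polynomial.aeval (HahnSeries.ofPowerSeries ℤ L S) d =
      HahnSeries.ofPowerSeries ℤ L (Polynomial.aeval S d) := by
    rw [Polynomial.aeval_def, Polynomial.aeval_def]
    have h := Polynomial.hom_eval₂ d (algebraMap L (PowerSeries L))
      (HahnSeries.ofPowerSeries ℤ L) S
    rw [h]
    congr 1
  rw [h1, show (0 : ℤ) = ((0 : ℕ) : ℤ) from rfl, HahnSeries.ofPowerSeries_apply_coeff,
    PowerSeries.coeff_zero_eq_constantCoeff]
  have h2 := Polynomial.hom_eval₂ d (algebraMap L (PowerSeries L))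
    (PowerSeries.constantCoeff (R := L)) S
  rw [Polynomial.aeval_def]
  erw [h2]
  rw [hS]
  have h3 : (PowerSeries.constantCoeff (R := L)).comp (algebraMap L (PowerSeries L)) =
      RingHom.id L := by
    ext a
    simp
  rw [h3, Polynomial.eval₂_id, ← Polynomial.coeff_zero_eq_eval_zero]

/-- **coefficients in `A`, coordinate `s = q · (unit)`** -/
theorem pkgtv_coeff_mem_ps (S : PowerSeries L) (hS : PowerSeries.constantCoeff S = 0)
    (s' : LaurentSeries L) (hs' : KronInt A s')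
    (hss' : HahnSeries.ofPowerSeries ℤ L S * s' = 1) (d : L[X])
    (hd : KronInt A (Polynomial.aeval (HahnSeries.ofPowerSeries ℤ L S) d)) :
    ∀ k, d.coeff k ∈ A := by
  induction d using Polynomial.recOnHorner with
  | M0 =>
      intro k
      rw [Polynomial.coeff_zero]
      exact A.zero_mem
  | MC p a hp0 ha ih =>
      have h0 := hd 0
      rw [pkgtv_aeval_coeff_zero S hS, Polynomial.coeff_add, hp0, zero_add,
        Polynomial.coeff_C_zero] at h0
      have h1 : KronInt A (Polynomial.aeval (HahnSeries.ofPowerSeries ℤ L S) p) := by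
        have h2 : Polynomial.aeval (HahnSeries.ofPowerSeries ℤ L S) p =
            Polynomial.aeval (HahnSeries.ofPowerSeries ℤ L S) (p + C a) - HahnSeries.C a := by
          rw [map_add, Polynomial.aeval_C, LaurentSeries.algebraMap_apply, add_sub_cancel_right]
        rw [h2]
        exact pkgtv_kronInt_sub hd (kronInt_C h0)
      intro k
      rw [Polynomial.coeff_add]
      refine A.add_mem _ _ (ih h1 k) ?_
      rw [Polynomial.coeff_C]
      split_ifs
      · exact h0
      · exact A.zero_mem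
  | MX p hp ih =>
      have h1 : KronInt A (Polynomial.aeval (HahnSeries.ofPowerSeries ℤ L S) p) := by
        have h2 : Polynomial.aeval (HahnSeries.ofPowerSeries ℤ L S) p =
            Polynomial.aeval (HahnSeries.ofPowerSeries ℤ L S) (p * X) * s' := by
          rw [map_mul, Polynomial.aeval_X, mul_assoc, hss', mul_one]
        rw [h2]
        exact hd.mul hs'
      intro k
      cases k with
      | zero =>
          rw [Polynomial.coeff_mul_X_zero]
          exact A.zero_mem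
      | succ k =>
          rw [Polynomial.coeff_mul_X]
          exact ih h1 k

end PolyCoeff

/-- **coefficients in `A`, coordinate `1/j`** -/
theorem pkgtv_coeff_mem_inv (A : ValuationSubring Kb) (d : Kb[X])
    (hd : KronInt A (Polynomial.aeval (jBar : LaurentSeries Kb)⁻¹ d)) : ∀ k, d.coeff k ∈ A := by
  rw [pkgtv_jBar_inv] at hd
  refine pkgtv_coeff_mem_ps pkgtvJinvPS pkgtv_constantCoeff_jinvPS jBar (kronInt_jBar A) ?_ d hd
  rw [mul_comm]
  exact pkgtv_jBar_mul_jinv

/-- **coefficients in `A`, coordinate `j`** -/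
theorem pkgtv_coeff_mem (A : ValuationSubring Kb) (d : Kb[X])
    (hd : KronInt A (Polynomial.aeval (jBar : LaurentSeries Kb) d)) : ∀ k, d.coeff k ∈ A := by
  letI : Invertible (jBar : LaurentSeries Kb) := invertibleOfNonzero pkgtv_jBar_ne_zero
  have h1 := Polynomial.eval₂_reverse_mul_pow (algebraMap Kb (LaurentSeries Kb))
    (jBar : LaurentSeries Kb) d
  rw [invOf_eq_inv] at h1
  have h2 : Polynomial.aeval (jBar : LaurentSeries Kb)⁻¹ d.reverse =
      Polynomial.aeval (jBar : LaurentSeries Kb) d * ((jBar : LaurentSeries Kb)⁻¹) ^ d.natDegree := by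
    rw [Polynomial.aeval_def, Polynomial.aeval_def, ← h1, mul_assoc, ← mul_pow,
      mul_inv_cancel₀ pkgtv_jBar_ne_zero, one_pow, mul_one]
  have h3 : KronInt A (Polynomial.aeval (jBar : LaurentSeries Kb)⁻¹ d.reverse) := by
    rw [h2]
    exact hd.mul ((pkgtv_kronInt_jinv A).pow _)
  have h4 := pkgtv_coeff_mem_inv A d.reverse h3
  intro k
  by_cases hk : k ≤ d.natDegree
  · have h5 := h4 (Polynomial.revAt d.natDegree k)
    rwa [Polynomial.coeff_reverse, Polynomial.revAt_invol] at h5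
  · rw [Polynomial.coeff_eq_zero_of_natDegree_lt (not_le.1 hk)]
    exact A.zero_mem

/-! ### the conjugates of an element with integral expansions -/

/-- the subring of `Ω̄` of the images of the `A`-integral series -/
def pkgtvS (A : ValuationSubring Kb) : Subring HnOmegaBar :=
  (intSub A).map (algebraMap HnOmega HnOmegaBar)

theorem pkgtv_mem_S {A : ValuationSubring Kb} {f : LaurentSeries Kb} :
    algebraMap HnOmega HnOmegaBar f ∈ pkgtvS A ↔ KronInt A f := by
  rw [pkgtvS, Subring.mem_map]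
  constructor
  · rintro ⟨g, hg, hgf⟩
    have h : g = f := hn_algebraMap_injective hgf
    rw [← h]
    exact mem_intSub.1 hg
  · intro hf
    exact ⟨f, mem_intSub.2 hf, rfl⟩

theorem pkgtv_kronInt_kronRot (A : ValuationSubring Kb) (c : Kbˣ) (n : ℕ) (hn : n ≠ 0)
    (hc : c ^ n = 1) {f : LaurentSeries Kb} (hf : KronInt A f) : KronInt A (kronRot c f) := by
  obtain ⟨F, rfl⟩ := hf.exists_lift
  obtain ⟨cA, rfl⟩ := kron_exists_unit_lift A hn c hc
  have h1 : kronRot (Units.map (A.subtype : A →* Kb) cA) (kronIncl A F)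
      = kronIncl A (kronRot cA F) := (coeffMap_kronRot A.subtype cA F).symm
  rw [h1]
  exact kronInt_kronIncl _

theorem pkgtv_kronInt_of_qExpand (A : ValuationSubring Kb) (M : ℕ) [NeZero M]
    {f : LaurentSeries Kb} (h : KronInt A (qExpand Kb M f)) : KronInt A f := by
  intro n
  have h1 := h ((M : ℤ) * n)
  rwa [qExpand_coeff_mul] at h1

theorem pkgtvFam_mem_S (A : ValuationSubring Kb) (ζ : Kbˣ) (hζ : ζ ^ N = 1) (u : FF N)
    (hu₁ : KronInt A (u : LaurentSeries Kb))
    (hu₂ : KronInt A ((frickeAut N u : FF N) : LaurentSeries Kb)) (i : Option (Fin N)) :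
    pkgtvFam N ζ i u ∈ pkgtvS A := by
  cases i with
  | none =>
      show pkgtvInf N u ∈ _
      rw [pkgtvInf_apply, pkgtv_mem_S]
      exact hu₁.qExpand N
  | some b =>
      show pkgtvRot N _ u ∈ _
      rw [pkgtvRot_apply, pkgtv_mem_S]
      refine pkgtv_kronInt_kronRot A _ N (NeZero.ne N) ?_ hu₂
      rw [← pow_mul, mul_comm, pow_mul, hζ, one_pow]

/-- a primitive `N`-th root of unity in `ℚ̄` -/
theorem pkgtv_exists_primitiveRoot (n : ℕ) (hn : n ≠ 0) : ∃ ζ : Kbˣ, IsPrimitiveRoot ζ n := by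
  haveI : NeZero ((n : ℕ) : Kb) := ⟨by exact_mod_cast hn⟩
  haveI := IsSepClosed.hasEnoughRootsOfUnity Kb n
  obtain ⟨ζ, hζ⟩ := HasEnoughRootsOfUnity.exists_primitiveRoot Kb n
  obtain ⟨u, rfl⟩ := hζ.isUnit hn
  exact ⟨u, IsPrimitiveRoot.coe_units_iff.mp hζ⟩

/-- the minimal polynomial over `ℚ̄(t)` comes from `ℚ̄[t]` -/
theorem pkgtv_minpoly_eq (t : FF N) (ht : Transcendental Kb t) (u : FF N)
    (hint : letI := polyAlgebra (K := Kb) t; IsIntegral Kb[X] u) :
    letI := polyAlgebra (K := Kb) t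
    letI := polyAlgebraAdjoin (K := Kb) t
    minpoly Kb⟮t⟯ u = (minpoly Kb[X] u).map (algebraMap Kb[X] Kb⟮t⟯) := by
  letI := polyAlgebra (K := Kb) t
  letI := polyAlgebraAdjoin (K := Kb) t
  haveI := polyAlgebraAdjoin_tower (K := Kb) t
  haveI := polyAlgebraAdjoin_isFractionRing (K := Kb) t ht
  exact minpoly.isIntegrallyClosed_eq_field_fractions' Kb⟮t⟯ hint

/-- **the coefficients of the minimal polynomial have integral expansions** -/
theorem pkgtv_minpoly_kronInt (hN : N.Prime) (A : ValuationSubring Kb) (t : FF N)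
    (ht : Transcendental Kb t)
    (htfam : ∀ ζ : Kbˣ, ζ ^ N = 1 → ∀ i, pkgtvFam N ζ i t = pkgtvInf N t)
    (hdeg : Module.finrank Kb⟮t⟯ (FF N) = N + 1)
    (u : FF N) (hint : letI := polyAlgebra (K := Kb) t; IsIntegral Kb[X] u)
    (hu₁ : KronInt A (u : LaurentSeries Kb))
    (hu₂ : KronInt A ((frickeAut N u : FF N) : LaurentSeries Kb)) (n : ℕ) :
    letI := polyAlgebra (K := Kb) t
    KronInt A (Polynomial.aeval (t : LaurentSeries Kb) ((minpoly Kb[X] u).coeff n)) := by
  letI := polyAlgebra (K := Kb) t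
  letI := polyAlgebraAdjoin (K := Kb) t
  haveI := polyAlgebraAdjoin_tower (K := Kb) t
  obtain ⟨ζ, hζ⟩ := pkgtv_exists_primitiveRoot N (NeZero.ne N)
  have key := pkgtv_minpoly_coeff_mem N hN ζ hζ t (htfam ζ hζ.pow_eq_one) hdeg (pkgtvS A) u
    (pkgtvFam_mem_S N A ζ hζ.pow_eq_one u hu₁ hu₂) n
  rw [pkgtv_minpoly_eq N t ht u hint, Polynomial.coeff_map] at key
  set d : Kb[X] := (minpoly Kb[X] u).coeff n with hd
  have h1 : ((algebraMap Kb[X] Kb⟮t⟯ d : Kb⟮t⟯) : FF N) = Polynomial.aeval t d := by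
    have h := (IsScalarTower.algebraMap_apply Kb[X] Kb⟮t⟯ (FF N) d).symm
    exact h
  have h2 : ((Polynomial.aeval t d : FF N) : LaurentSeries Kb) =
      Polynomial.aeval (t : LaurentSeries Kb) d := by
    have h := Polynomial.aeval_algHom_apply (modularFunctionFieldBar N).val t d
    exact h.symm
  rw [h1, pkgtvInf_apply, pkgtv_mem_S, h2] at key
  exact pkgtv_kronInt_of_qExpand A N key

end Fermat.Agent.S15.LN

end
end ZBZ2S15_028_1

/-! ### bundled: `Fermat.Agent.S15.PkgTV` -/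
section ZBZ2S15_028_2

/-!
# S15 / LN-PKG, piece PKG-tv: `stmtPkgTV : StmtPkgTV` (helper10)

An element `u` of both Gauss rings of `F_N` (`N` prime) which is regular wherever `t` is
(`t = j` or `t = 1/j`) is integral over `A[t]`: its minimal polynomial over `ℚ̄[t]` has
coefficients in `A[t]`.

The core `pkgtv_pkgInt` holds for EVERY valuation ring `A` of `ℚ̄` of rank one (`Arch A`), not
only for those over `N`; `pkgtv_pkgInt_prime` is the version over a prime `ℓ`.
-/

set_option autoImplicit false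
set_option linter.unusedSectionVars false
set_option linter.unusedVariables false
set_option linter.style.haveILetI false

noncomputable section

namespace Fermat.Agent.S15.LN

open ModularCurve AlgebraicCurve Polynomial IntermediateField
open Fermat.Agent.ES Fermat.Agent.ES.M Fermat.Agent.ES.G2 Fermat.Agent.S24 Fermat.Agent.ES.LR
  Fermat.Agent.DEU

variable (N : ℕ) [NeZero N]

theorem pkgtv_adjoin_inv (x : FF N) : Kb⟮x⁻¹⟯ = Kb⟮x⟯ := by
  apply le_antisymm
  · rw [IntermediateField.adjoin_simple_le_iff]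
    exact inv_mem (mem_adjoin_simple_self Kb x)
  · rw [IntermediateField.adjoin_simple_le_iff]
    have h := inv_mem (mem_adjoin_simple_self Kb x⁻¹)
    rwa [inv_inv] at h

theorem pkgtv_finrank_of_eq {E₁ E₂ : IntermediateField Kb (FF N)} (h : E₁ = E₂) :
    Module.finrank E₁ (FF N) = Module.finrank E₂ (FF N) := by
  subst h
  rfl

theorem pkgtv_finrank_j (hN : N.Prime) : Module.finrank Kb⟮jF N⟯ (FF N) = N + 1 := by
  rw [Fermat.Agent.INJ.hmMem_finrank_jF, Fermat.Agent.S20.dedekindPsi_prime hN]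

theorem pkgtv_finrank_jinv (hN : N.Prime) : Module.finrank Kb⟮(jF N)⁻¹⟯ (FF N) = N + 1 := by
  rw [pkgtv_finrank_of_eq N (pkgtv_adjoin_inv N (jF N)), pkgtv_finrank_j N hN]

theorem pkgtv_transcendental_jinv : Transcendental Kb (jF N)⁻¹ := by
  intro h
  apply transcendental_jF N
  have h2 := h.inv
  rwa [inv_inv] at h2

theorem pkgtv_coe_inv (x : FF N) : ((x⁻¹ : FF N) : LaurentSeries Kb) = (x : LaurentSeries Kb)⁻¹ :=
  rfl

/-- the coordinate `t`: all that is used -/
structure PkgtvCoord (A : ValuationSubring Kb) (t : FF N) : Prop where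
  transc : Transcendental Kb t
  finrank : Module.finrank Kb⟮t⟯ (FF N) = N + 1
  fam : ∀ ζ : Kbˣ, ζ ^ N = 1 → ∀ i, pkgtvFam N ζ i t = pkgtvInf N t
  int₁ : KronInt A (t : LaurentSeries Kb)
  int₂ : KronInt A ((frickeAut N t : FF N) : LaurentSeries Kb)
  coeff : ∀ d : Kb[X], KronInt A (Polynomial.aeval (t : LaurentSeries Kb) d) → ∀ k, d.coeff k ∈ A

theorem pkgtvCoord_j (hN : N.Prime) (A : ValuationSubring Kb) : PkgtvCoord N A (jF N) where
  transc := transcendental_jF N
  finrank := pkgtv_finrank_j N hN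
  fam := fun ζ hζ i => pkgtvFam_jF N ζ hζ i
  int₁ := kronInt_jBar A
  int₂ := by
    rw [frickeAut_jF, pkgtv_coe_jN]
    exact (kronInt_jBar A).qExpand N
  coeff := fun d hd => pkgtv_coeff_mem A d hd

theorem pkgtvCoord_jinv (hN : N.Prime) (A : ValuationSubring Kb) :
    PkgtvCoord N A (jF N)⁻¹ where
  transc := pkgtv_transcendental_jinv N
  finrank := pkgtv_finrank_jinv N hN
  fam := fun ζ hζ i => by
    rw [map_inv₀, map_inv₀, pkgtvFam_jF N ζ hζ i]
  int₁ := pkgtv_kronInt_jinv A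
  int₂ := by
    rw [map_inv₀, frickeAut_jF, pkgtv_coe_inv, pkgtv_coe_jN, ← map_inv₀]
    exact (pkgtv_kronInt_jinv A).qExpand N
  coeff := fun d hd => pkgtv_coeff_mem_inv A d hd

/-- **PKG-tv, core**, for a coordinate `t` and a valuation ring of rank one: the minimal
polynomial of `u` over `ℚ̄[t]` has all its coefficients in `A[X]`. -/
theorem pkgtv_minpoly_coeff (hN : N.Prime) (A : ValuationSubring Kb) (hA : Arch A) (t : FF N)
    (ht : PkgtvCoord N A t) (u : FF N) (hu₁ : GaussInt N A u)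
    (hu₂ : GaussInt N A (frickeAut N u))
    (hreg : ∀ P : Place Kb (FF N), 0 ≤ P.ord t → 0 ≤ P.ord u) :
    letI := polyAlgebra (K := Kb) t
    IsIntegral Kb[X] u ∧ ∀ n k, ((minpoly Kb[X] u).coeff n).coeff k ∈ A := by
  letI := polyAlgebra (K := Kb) t
  haveI hfin : FiniteDimensional Kb⟮t⟯ (FF N) :=
    FiniteDimensional.of_finrank_pos (by rw [ht.finrank]; omega)
  have hint : IsIntegral Kb[X] u := pkgtv_isIntegral N t ht.transc u hreg
  refine ⟨hint, ?_⟩
  obtain ⟨p, hp, hpz⟩ := hint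
  have hK₁ : KronInt A (u : LaurentSeries Kb) :=
    pkgtv_kronInt_gen N A hA _ ht.int₁ u p hp (pkgtv_eval₂_coe N t u p hpz) hu₁
  have hK₂ : KronInt A ((frickeAut N u : FF N) : LaurentSeries Kb) :=
    pkgtv_kronInt_gen N A hA _ ht.int₂ (frickeAut N u) p hp
      (pkgtv_eval₂_coe N (frickeAut N t) (frickeAut N u) p
        (pkgtv_eval₂_aut N (frickeAut N) t u p hpz)) hu₂
  intro n k
  exact ht.coeff _ (pkgtv_minpoly_kronInt N hN A t ht.transc ht.fam ht.finrank u ⟨p, hp, hpz⟩
    hK₁ hK₂ n) k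

/-- a polynomial with coefficients in `A`, evaluated at `t`, lies in `A[t]` -/
theorem pkgtv_aeval_mem_pkgPoly (A : ValuationSubring Kb) (t : FF N) (d : Kb[X])
    (hd : ∀ k, d.coeff k ∈ A) : Polynomial.aeval t d ∈ pkgPoly N A t := by
  rw [Polynomial.aeval_eq_sum_range]
  refine Subring.sum_mem _ fun k _ => ?_
  rw [Algebra.smul_def]
  have h1 : algebraMap Kb (FF N) (d.coeff k) ∈ pkgPoly N A t :=
    Subring.subset_closure (Set.mem_union_left _ ⟨d.coeff k, hd k, rfl⟩)
  have h2 : t ∈ pkgPoly N A t :=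
    Subring.subset_closure (Set.mem_union_right _ (Set.mem_singleton t))
  exact Subring.mul_mem _ h1 (Subring.pow_mem _ h2 _)

/-- **PKG-tv** for a coordinate `t` and a valuation ring of rank one -/
theorem pkgtv_pkgInt_coord (hN : N.Prime) (A : ValuationSubring Kb) (hA : Arch A) (t : FF N)
    (ht : PkgtvCoord N A t) (u : FF N) (hu₁ : GaussInt N A u)
    (hu₂ : GaussInt N A (frickeAut N u))
    (hreg : ∀ P : Place Kb (FF N), 0 ≤ P.ord t → 0 ≤ P.ord u) : PkgInt N A t u := by
  letI := polyAlgebra (K := Kb) t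
  obtain ⟨hint, hcoef⟩ := pkgtv_minpoly_coeff N hN A hA t ht u hu₁ hu₂ hreg
  refine ⟨(minpoly Kb[X] u).map (algebraMap Kb[X] (FF N)), (minpoly.monic hint).map _, ?_, ?_⟩
  · intro i
    rw [Polynomial.coeff_map]
    exact pkgtv_aeval_mem_pkgPoly N A t _ (hcoef i)
  · rw [Polynomial.eval_map, ← Polynomial.aeval_def]
    exact minpoly.aeval _ _

/-- **PKG-tv** for `t = j`, `t = 1/j` and a valuation ring of rank one -/
theorem pkgtv_pkgInt (hN : N.Prime) (A : ValuationSubring Kb) (hA : Arch A) (t : FF N)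
    (ht : t = jF N ∨ t = (jF N)⁻¹) (u : FF N) (hu₁ : GaussInt N A u)
    (hu₂ : GaussInt N A (frickeAut N u))
    (hreg : ∀ P : Place Kb (FF N), 0 ≤ P.ord t → 0 ≤ P.ord u) : PkgInt N A t u := by
  rcases ht with rfl | rfl
  · exact pkgtv_pkgInt_coord N hN A hA _ (pkgtvCoord_j N hN A) u hu₁ hu₂ hreg
  · exact pkgtv_pkgInt_coord N hN A hA _ (pkgtvCoord_jinv N hN A) u hu₁ hu₂ hreg

/-- **PKG-tv** over any prime `ℓ` (the level `N` is a prime, `ℓ = N` allowed) -/
theorem pkgtv_pkgInt_prime (hN : N.Prime) (ℓ : ℕ) (hℓ : ℓ.Prime) (A : ValuationSubring Kb)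
    (hA : A.LiesOverPrime ℓ) (t : FF N)
    (ht : t = jF N ∨ t = (jF N)⁻¹) (u : FF N) (hu₁ : GaussInt N A u)
    (hu₂ : GaussInt N A (frickeAut N u))
    (hreg : ∀ P : Place Kb (FF N), 0 ≤ P.ord t → 0 ≤ P.ord u) : PkgInt N A t u :=
  pkgtv_pkgInt N hN A (arch_Qbar A hℓ hA) t ht u hu₁ hu₂ hreg

/-- **PKG-tv** -/
theorem stmtPkgTV : StmtPkgTV := fun N _ hN _ A hA t ht u hu₁ hu₂ hreg =>
  pkgtv_pkgInt_prime N hN N hN A hA t ht u hu₁ hu₂ hreg

end Fermat.Agent.S15.LN

end
end ZBZ2S15_028_2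

/-! ### bundled: `Fermat.Agent.S15.PkgPoly` -/
section ZBZ2S15_028_3

/-!
# S15 / LN-PKG, piece PKG-poly: `stmtPkgPoly : StmtPkgPoly` (helper10)

The reductions of an element integral over `A[t]` (`t = j` or `t = 1/j`) are POLYNOMIALS in `t̄`
on both components: reduce the monic equation; `k[t̄]` is integrally closed in `k(j̄)`.

* `pkgpoly_red_mem_j`, `pkgpoly_red_mem_jinv` : from `PkgInt`;
* `stmtPkgPoly` : from `stmtPkgTV`.
-/

set_option autoImplicit false
set_option linter.unusedSectionVars false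
set_option linter.unusedVariables false
set_option linter.style.haveILetI false

noncomputable section

namespace Fermat.Agent.S15.LN

open ModularCurve AlgebraicCurve Polynomial IntermediateField
open Fermat.Agent.ES Fermat.Agent.ES.M Fermat.Agent.S24 Fermat.Agent.ES.LR Fermat.Agent.DEU
  Fermat.Agent.INJ Fermat.Agent.W1

/-! ### generic algebra -/

/-- reduction of a monic equation -/
theorem pkgpoly_reduce_equation {F E : Type*} [Field F] [CommRing E] (O : ValuationSubring F)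
    (red : O →+* E) (S : Subring E) (R : Subring F)
    (hR : ∀ x ∈ R, ∃ h : x ∈ O, red ⟨x, h⟩ ∈ S) (b : F) (hb : b ∈ O)
    (p : F[X]) (hp : p.Monic) (hpc : ∀ i, p.coeff i ∈ R) (hpb : p.eval b = 0) :
    ∃ q : E[X], q.Monic ∧ (∀ i, q.coeff i ∈ S) ∧ q.eval (red ⟨b, hb⟩) = 0 := by
  have hlift : p ∈ Polynomial.lifts O.subtype := by
    rw [Polynomial.lifts_iff_coeff_lifts]
    intro i
    obtain ⟨h, -⟩ := hR _ (hpc i)
    exact ⟨⟨p.coeff i, h⟩, rfl⟩
  obtain ⟨p₁, hp₁, -, hmonic⟩ := Polynomial.lifts_and_natDegree_eq_and_monic hlift hp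
  refine ⟨p₁.map red, hmonic.map red, ?_, ?_⟩
  · intro i
    rw [Polynomial.coeff_map]
    obtain ⟨h, hS⟩ := hR _ (hpc i)
    have h1 : p₁.coeff i = ⟨p.coeff i, h⟩ := by
      apply Subtype.ext
      have h2 : p.coeff i = O.subtype (p₁.coeff i) := by
        rw [← hp₁, Polynomial.coeff_map]
      exact h2.symm
    rw [h1]
    exact hS
  · rw [Polynomial.eval_map, Polynomial.eval₂_hom]
    have h0 : p₁.eval (⟨b, hb⟩ : O) = 0 := by
      apply Subtype.ext
      have h1 := Polynomial.eval₂_hom (p := p₁) O.subtype (⟨b, hb⟩ : O)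
      rw [← Polynomial.eval_map, hp₁] at h1
      have h2 : O.subtype ⟨b, hb⟩ = b := rfl
      rw [h2, hpb] at h1
      exact h1.symm
    rw [h0, map_zero]

/-- `k[x]` is integrally closed in `k(x)` -/
theorem pkgpoly_mem_range_aeval {k F : Type*} [Field k] [Field F] [Algebra k F] (x : F)
    (hx : Transcendental k x) (y : F) (hy : y ∈ k⟮x⟯) (q : k[X][X]) (hq : q.Monic)
    (hqy : Polynomial.eval₂ (Polynomial.aeval (R := k) x).toRingHom y q = 0) :
    ∃ r : k[X], Polynomial.aeval x r = y := by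
  letI := polyAlgebraAdjoin (K := k) x
  haveI := polyAlgebraAdjoin_isFractionRing (K := k) x hx
  have hint : IsIntegral k[X] (⟨y, hy⟩ : k⟮x⟯) := by
    refine ⟨q, hq, ?_⟩
    apply Subtype.ext
    have h1 := Polynomial.hom_eval₂ q (algebraMap k[X] k⟮x⟯) (k⟮x⟯).val.toRingHom ⟨y, hy⟩
    have hcomp : (k⟮x⟯).val.toRingHom.comp (algebraMap k[X] k⟮x⟯) =
        (Polynomial.aeval (R := k) x).toRingHom := by
      have h2 : (Polynomial.aeval (R := k) x) =
          (k⟮x⟯).val.comp (Polynomial.aeval (AdjoinSimple.gen k x)) := by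
        rw [← Polynomial.aeval_algHom]
        simp
      rw [h2]
      rfl
    rw [hcomp] at h1
    have h3 : (k⟮x⟯).val.toRingHom ⟨y, hy⟩ = y := rfl
    rw [h3, hqy] at h1
    exact h1
  obtain ⟨r, hr⟩ := IsIntegrallyClosed.isIntegral_iff.1 hint
  refine ⟨r, ?_⟩
  have h4 := congrArg (fun z : k⟮x⟯ => (z : F)) hr
  have h5 : ((algebraMap k[X] k⟮x⟯ r : k⟮x⟯) : F) = Polynomial.aeval x r := by
    change ((Polynomial.aeval (AdjoinSimple.gen k x) r : k⟮x⟯) : F) = _
    rw [← IntermediateField.coe_val, ← Polynomial.aeval_algHom_apply]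
    simp
  rw [← h5]
  exact h4

theorem pkgpoly_adjoin_inv {k F : Type*} [Field k] [Field F] [Algebra k F] (x : F) :
    k⟮x⁻¹⟯ = k⟮x⟯ := by
  apply le_antisymm
  · rw [IntermediateField.adjoin_simple_le_iff]
    exact inv_mem (mem_adjoin_simple_self k x)
  · rw [IntermediateField.adjoin_simple_le_iff]
    have h := inv_mem (mem_adjoin_simple_self k x⁻¹)
    rwa [inv_inv] at h

/-! ### the package -/

variable (N : ℕ) [NeZero N] (A : ValuationSubring Kb)

/-- `FFk A = k(j̄)` -/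
theorem pkgpoly_mem_adjoin_jbar (y : FFk A) :
    (y : LaurentSeries (kA A)) ∈ (kA A)⟮jqModC (kA A)⟯ := by
  have h : ∀ z : LaurentSeries (kA A), z ∈ modularFunctionFieldFullC (kA A) 1 →
      z ∈ (kA A)⟮jqModC (kA A)⟯ := by
    intro z hz
    rw [Fermat.Agent.S28.UB.full_one] at hz
    exact hz
  exact h _ y.2

theorem pkgpoly_mem_adjoin_jbar_inv (y : FFk A) :
    (y : LaurentSeries (kA A)) ∈ (kA A)⟮(jqModC (kA A))⁻¹⟯ := by
  rw [pkgpoly_adjoin_inv]
  exact pkgpoly_mem_adjoin_jbar A y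

/-- the ring `A[t]` reduces into `k[T]` -/
theorem pkgpoly_closure (O : ValuationSubring (FF N)) (red : O →+* FFk A)
    (S : Subalgebra (kA A) (FFk A))
    (hconst : ∀ a : A, ∃ h : algebraMap Kb (FF N) (a : Kb) ∈ O,
      red ⟨_, h⟩ = algebraMap (kA A) (FFk A) (IsLocalRing.residue A a))
    (t : FF N) (ht : ∃ h : t ∈ O, red ⟨t, h⟩ ∈ S) :
    ∀ x ∈ pkgPoly N A t, ∃ h : x ∈ O, red ⟨x, h⟩ ∈ S.toSubring := by
  intro x hx
  induction hx using Subring.closure_induction with
  | mem x hx =>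
      rcases hx with ⟨a, ha, rfl⟩ | hx
      · obtain ⟨h, he⟩ := hconst ⟨a, ha⟩
        refine ⟨h, ?_⟩
        rw [he]
        exact S.algebraMap_mem _
      · rw [Set.mem_singleton_iff] at hx
        subst hx
        exact ht
  | zero =>
      refine ⟨O.zero_mem, ?_⟩
      have h : (⟨0, O.zero_mem⟩ : O) = 0 := rfl
      rw [h, map_zero]
      exact Subring.zero_mem _
  | one =>
      refine ⟨O.one_mem, ?_⟩
      have h : (⟨1, O.one_mem⟩ : O) = 1 := rfl
      rw [h, map_one]
      exact Subring.one_mem _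
  | add x y _ _ ihx ihy =>
      obtain ⟨hx, hx'⟩ := ihx
      obtain ⟨hy, hy'⟩ := ihy
      refine ⟨O.add_mem _ _ hx hy, ?_⟩
      have h : (⟨x + y, O.add_mem _ _ hx hy⟩ : O) = ⟨x, hx⟩ + ⟨y, hy⟩ := rfl
      rw [h, map_add]
      exact Subring.add_mem _ hx' hy'
  | neg x _ ihx =>
      obtain ⟨hx, hx'⟩ := ihx
      refine ⟨O.neg_mem _ hx, ?_⟩
      have h : (⟨-x, O.neg_mem _ hx⟩ : O) = -⟨x, hx⟩ := rfl
      rw [h, map_neg]
      exact Subring.neg_mem _ hx'
  | mul x y _ _ ihx ihy =>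
      obtain ⟨hx, hx'⟩ := ihx
      obtain ⟨hy, hy'⟩ := ihy
      refine ⟨O.mul_mem _ _ hx hy, ?_⟩
      have h : (⟨x * y, O.mul_mem _ _ hx hy⟩ : O) = ⟨x, hx⟩ * ⟨y, hy⟩ := rfl
      rw [h, map_mul]
      exact Subring.mul_mem _ hx' hy'

/-- the reduction of an element integral over `A[t]` is a polynomial in `T` -/
theorem pkgpoly_red_mem_gen (T : FFk A)
    (hT : Transcendental (kA A) (T : LaurentSeries (kA A)))
    (hTtop : ∀ y : FFk A, (y : LaurentSeries (kA A)) ∈ (kA A)⟮(T : LaurentSeries (kA A))⟯)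
    (O : ValuationSubring (FF N)) (red : O →+* FFk A)
    (hconst : ∀ a : A, ∃ h : algebraMap Kb (FF N) (a : Kb) ∈ O,
      red ⟨_, h⟩ = algebraMap (kA A) (FFk A) (IsLocalRing.residue A a))
    (t : FF N) (ht : ∃ h : t ∈ O, red ⟨t, h⟩ ∈ Algebra.adjoin (kA A) {T})
    (b : FF N) (hb : b ∈ O) (hint : PkgInt N A t b) :
    red ⟨b, hb⟩ ∈ Algebra.adjoin (kA A) {T} := by
  obtain ⟨p, hp, hpc, hpb⟩ := hint
  obtain ⟨q, hq, hqc, hqb⟩ := pkgpoly_reduce_equation O red
    (Algebra.adjoin (kA A) {T}).toSubring (pkgPoly N A t)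
    (pkgpoly_closure N A O red _ hconst t ht) b hb p hp hpc hpb
  have hlift : q ∈ Polynomial.lifts (Polynomial.aeval (R := kA A) T).toRingHom := by
    rw [Polynomial.lifts_iff_coeff_lifts]
    intro i
    have h := hqc i
    rw [Subalgebra.mem_toSubring, Algebra.adjoin_singleton_eq_range_aeval] at h
    obtain ⟨r, hr⟩ := h
    exact ⟨r, hr⟩
  obtain ⟨q', hq', -, hmonic⟩ := Polynomial.lifts_and_natDegree_eq_and_monic hlift hq
  have h1 : Polynomial.eval₂ (Polynomial.aeval (R := kA A) T).toRingHom (red ⟨b, hb⟩) q' = 0 := by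
    rw [← Polynomial.eval_map, hq']
    exact hqb
  have hcomp : (modularFunctionFieldFullC (kA A) 1).val.toRingHom.comp
      (Polynomial.aeval (R := kA A) T).toRingHom =
      (Polynomial.aeval (T : LaurentSeries (kA A))).toRingHom := by
    have h2 : (Polynomial.aeval (R := kA A) (T : LaurentSeries (kA A))) =
        (modularFunctionFieldFullC (kA A) 1).val.comp (Polynomial.aeval T) :=
      Polynomial.aeval_algHom (modularFunctionFieldFullC (kA A) 1).val T
    rw [h2]
    rfl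
  have h3 := Polynomial.hom_eval₂ q' (Polynomial.aeval (R := kA A) T).toRingHom
    (modularFunctionFieldFullC (kA A) 1).val.toRingHom (red ⟨b, hb⟩)
  rw [h1, map_zero, hcomp] at h3
  obtain ⟨r, hr⟩ := pkgpoly_mem_range_aeval (T : LaurentSeries (kA A)) hT
    ((red ⟨b, hb⟩ : FFk A) : LaurentSeries (kA A)) (hTtop _) q' hmonic h3.symm
  rw [Algebra.adjoin_singleton_eq_range_aeval]
  refine ⟨r, ?_⟩
  apply Subtype.ext
  rw [← hr]
  exact (Polynomial.aeval_algHom_apply (modularFunctionFieldFullC (kA A) 1).val T r).symm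

/-- reduction of an inverse -/
theorem pkgpoly_red_inv (O : ValuationSubring (FF N)) (red : O →+* FFk A)
    (hzero : ∀ x : O, red x = 0 ↔ (x : FF N) ∈ O.nonunits)
    (t : FF N) (ht : t ∈ O) (h0 : red ⟨t, ht⟩ ≠ 0) :
    ∃ h : t⁻¹ ∈ O, red ⟨t⁻¹, h⟩ = (red ⟨t, ht⟩)⁻¹ := by
  have h1 : t ∉ O.nonunits := fun h => h0 ((hzero ⟨t, ht⟩).2 h)
  rw [ValuationSubring.mem_nonunits_iff_or, not_or, not_not] at h1
  refine ⟨h1.2, ?_⟩
  have h2 : (⟨t⁻¹, h1.2⟩ : O) * ⟨t, ht⟩ = 1 := Subtype.ext (inv_mul_cancel₀ h1.1)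
  have h3 := congrArg red h2
  rw [map_mul, map_one] at h3
  exact eq_inv_of_mul_eq_one_left h3

variable (hB : PkgBase N A)

include hB in
theorem pkgpoly_hconst₁ (a : A) : ∃ h : algebraMap Kb (FF N) (a : Kb) ∈ pkgO₁ N A,
    pkgRed₁ N A hB ⟨_, h⟩ = algebraMap (kA A) (FFk A) (IsLocalRing.residue A a) :=
  ⟨(pkg_algebraMap_mem_iff₁ N A hB _).2 a.2, pkg_red₁_algebraMap N A hB a _⟩

include hB in
theorem pkgpoly_hconst₂ (a : A) : ∃ h : algebraMap Kb (FF N) (a : Kb) ∈ pkgO₂ N A,
    pkgRed₂ N A hB ⟨_, h⟩ = algebraMap (kA A) (FFk A) (IsLocalRing.residue A a) :=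
  ⟨(pkg_algebraMap_mem_iff₂ N A hB _).2 a.2, pkg_red₂_algebraMap N A hB a _⟩

theorem pkgpoly_Jbar_ne_zero : pkgJbar A ≠ 0 := by
  intro h
  have h1 := Fermat.Agent.S28.kdj_transcendental_jqModC (kA A)
  apply h1
  have h2 : jqModC (kA A) = 0 := by
    rw [← pkg_coe_Jbar, h]
    rfl
  rw [h2]
  exact isAlgebraic_zero

/-- `red₂ j = j̄ ^ N` -/
theorem pkgpoly_red₂_j (hN : N.Prime) (hA : A.LiesOverPrime N) :
    ∃ h : jF N ∈ pkgO₂ N A, pkgRed₂ N A hB ⟨_, h⟩ = pkgJbar A ^ N := by
  obtain ⟨h, he⟩ := pkg_red₁_jN N A hB hN hA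
  have h2 : jF N ∈ pkgO₂ N A := by
    rw [mem_pkgO₂, frickeAut_jF]
    exact h
  refine ⟨h2, ?_⟩
  have h3 : pkgSwap N A ⟨jF N, h2⟩ = ⟨jdF N N dvd_rfl, h⟩ :=
    Subtype.ext ((coe_pkgSwap N A _).trans (frickeAut_jF N))
  show pkgRed₁ N A hB (pkgSwap N A ⟨jF N, h2⟩) = _
  rw [h3, he]

/-- **PKG-poly, chart `j`**: the reductions of an element integral over `A[j]` are polynomials
in `j̄`. -/
theorem pkgpoly_red_mem_j (hN : N.Prime) (hA : A.LiesOverPrime N) (b : FF N)
    (hint : PkgInt N A (jF N) b) (h₁ : b ∈ pkgO₁ N A) (h₂ : b ∈ pkgO₂ N A) :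
    pkgRed₁ N A hB ⟨b, h₁⟩ ∈ Algebra.adjoin (kA A) {pkgJbar A} ∧
      pkgRed₂ N A hB ⟨b, h₂⟩ ∈ Algebra.adjoin (kA A) {pkgJbar A} := by
  have hT : Transcendental (kA A) ((pkgJbar A : FFk A) : LaurentSeries (kA A)) :=
    Fermat.Agent.S28.kdj_transcendental_jqModC (kA A)
  have hTtop : ∀ y : FFk A, (y : LaurentSeries (kA A)) ∈
      (kA A)⟮((pkgJbar A : FFk A) : LaurentSeries (kA A))⟯ := pkgpoly_mem_adjoin_jbar A
  constructor
  · refine pkgpoly_red_mem_gen N A (pkgJbar A) hT hTtop (pkgO₁ N A) (pkgRed₁ N A hB)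
      (pkgpoly_hconst₁ N A hB) (jF N) ?_ b h₁ hint
    obtain ⟨h, he⟩ := pkg_red₁_j N A hB
    exact ⟨h, by rw [he]; exact Algebra.self_mem_adjoin_singleton _ _⟩
  · refine pkgpoly_red_mem_gen N A (pkgJbar A) hT hTtop (pkgO₂ N A) (pkgRed₂ N A hB)
      (pkgpoly_hconst₂ N A hB) (jF N) ?_ b h₂ hint
    obtain ⟨h, he⟩ := pkgpoly_red₂_j N A hB hN hA
    exact ⟨h, by rw [he]; exact Subalgebra.pow_mem _ (Algebra.self_mem_adjoin_singleton _ _) _⟩

/-- **PKG-poly, chart `1/j`**: the reductions of an element integral over `A[1/j]` are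
polynomials in `1/j̄`. -/
theorem pkgpoly_red_mem_jinv (hN : N.Prime) (hA : A.LiesOverPrime N) (b : FF N)
    (hint : PkgInt N A (jF N)⁻¹ b) (h₁ : b ∈ pkgO₁ N A) (h₂ : b ∈ pkgO₂ N A) :
    pkgRed₁ N A hB ⟨b, h₁⟩ ∈ Algebra.adjoin (kA A) {(pkgJbar A)⁻¹} ∧
      pkgRed₂ N A hB ⟨b, h₂⟩ ∈ Algebra.adjoin (kA A) {(pkgJbar A)⁻¹} := by
  have hT : Transcendental (kA A) (((pkgJbar A)⁻¹ : FFk A) : LaurentSeries (kA A)) := by
    intro h
    apply Fermat.Agent.S28.kdj_transcendental_jqModC (kA A)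
    have h2 := h.inv
    rwa [show (((pkgJbar A)⁻¹ : FFk A) : LaurentSeries (kA A)) = (jqModC (kA A))⁻¹ from rfl,
      inv_inv] at h2
  have hTtop : ∀ y : FFk A, (y : LaurentSeries (kA A)) ∈
      (kA A)⟮(((pkgJbar A)⁻¹ : FFk A) : LaurentSeries (kA A))⟯ :=
    pkgpoly_mem_adjoin_jbar_inv A
  constructor
  · refine pkgpoly_red_mem_gen N A (pkgJbar A)⁻¹ hT hTtop (pkgO₁ N A) (pkgRed₁ N A hB)
      (pkgpoly_hconst₁ N A hB) (jF N)⁻¹ ?_ b h₁ hint
    obtain ⟨h, he⟩ := pkg_red₁_j N A hB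
    obtain ⟨h', he'⟩ := pkgpoly_red_inv N A (pkgO₁ N A) (pkgRed₁ N A hB)
      (pkg_red₁_eq_zero_iff N A hB) (jF N) h (by rw [he]; exact pkgpoly_Jbar_ne_zero A)
    exact ⟨h', by rw [he', he]; exact Algebra.self_mem_adjoin_singleton _ _⟩
  · refine pkgpoly_red_mem_gen N A (pkgJbar A)⁻¹ hT hTtop (pkgO₂ N A) (pkgRed₂ N A hB)
      (pkgpoly_hconst₂ N A hB) (jF N)⁻¹ ?_ b h₂ hint
    obtain ⟨h, he⟩ := pkgpoly_red₂_j N A hB hN hA
    obtain ⟨h', he'⟩ := pkgpoly_red_inv N A (pkgO₂ N A) (pkgRed₂ N A hB)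
      (pkg_red₂_eq_zero_iff N A hB) (jF N) h
      (by rw [he]; exact pow_ne_zero _ (pkgpoly_Jbar_ne_zero A))
    refine ⟨h', ?_⟩
    rw [he', he, ← inv_pow]
    exact Subalgebra.pow_mem _ (Algebra.self_mem_adjoin_singleton _ _) _

/-- **PKG-poly** -/
theorem stmtPkgPoly : StmtPkgPoly := fun N _ hN h5 A hA hB f h₁ h₂ hreg =>
  pkgpoly_red_mem_j N A hB hN hA f
    (stmtPkgTV N hN h5 A hA (jF N) (Or.inl rfl) f h₁ h₂ hreg) h₁ h₂

end Fermat.Agent.S15.LN

end
end ZBZ2S15_028_3
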