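/- GENERATED FILE (helper35, build-time optimisation, NOTES/ZB.md): verbatim concatenation of the modules
   Fermat.Agent.S15.PkgTVFibreCore
   Do not edit; do not import together with these modules. -/
import Mathlib

/-! ### bundled: `Fermat.Agent.S15.PkgTVFibreCore` -/
section ZBZ2S15_030_0

/-!
# S15 / LN-PKG, piece PKG-tv (fibre form), generic algebra (helper10)

`PkgSplitIn P T₀` : the polynomial `P` is a product of factors `X - C g`, `g ∈ T₀`.
Transport along ring homomorphisms (`map`, `of_map` for an injective one) and the roots.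
-/

set_option autoImplicit false
set_option linter.unusedSectionVars false
set_option linter.unusedVariables false

noncomputable section

namespace Fermat.Agent.S15.LN

open Polynomial

variable {R S : Type*} [CommRing R] [CommRing S]

/-- `P` is a product of linear factors `X - C g` with `g ∈ T₀` -/
def PkgSplitIn (P : R[X]) (T₀ : Set R) : Prop :=
  ∃ s : Multiset R, P = (s.map fun g => X - C g).prod ∧ ∀ g ∈ s, g ∈ T₀

theorem PkgSplitIn.mono {P : R[X]} {T₀ T₁ : Set R} (h : PkgSplitIn P T₀) (hT : T₀ ⊆ T₁) :
    PkgSplitIn P T₁ := by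
  obtain ⟨s, hs, hmem⟩ := h
  exact ⟨s, hs, fun g hg => hT (hmem g hg)⟩

theorem PkgSplitIn.map {P : R[X]} {T₀ : Set R} (h : PkgSplitIn P T₀) (φ : R →+* S) :
    PkgSplitIn (P.map φ) (φ '' T₀) := by
  obtain ⟨s, hs, hmem⟩ := h
  refine ⟨s.map φ, ?_, ?_⟩
  · rw [hs, Polynomial.map_multiset_prod, Multiset.map_map, Multiset.map_map]
    congr 1
    refine Multiset.map_congr rfl fun g _ => ?_
    simp
  · intro r hr
    rw [Multiset.mem_map] at hr
    obtain ⟨g, hg, rfl⟩ := hr
    exact ⟨g, hmem g hg, rfl⟩

theorem PkgSplitIn.of_map {P : R[X]} {T₀ : Set R} (φ : R →+* S) (hφ : Function.Injective φ)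
    (h : PkgSplitIn (P.map φ) (φ '' T₀)) : PkgSplitIn P T₀ := by
  classical
  obtain ⟨s, hs, hmem⟩ := h
  let L : S → R := fun r => if h : ∃ g, g ∈ T₀ ∧ φ g = r then h.choose else 0
  have hL : ∀ r ∈ s, L r ∈ T₀ ∧ φ (L r) = r := by
    intro r hr
    have h : ∃ g, g ∈ T₀ ∧ φ g = r := hmem r hr
    have h1 : L r = h.choose := dif_pos h
    rw [h1]
    exact h.choose_spec
  refine ⟨s.map L, ?_, ?_⟩
  · apply Polynomial.map_injective φ hφ
    rw [hs, Polynomial.map_multiset_prod, Multiset.map_map, Multiset.map_map]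
    congr 1
    refine Multiset.map_congr rfl fun r hr => ?_
    simp [(hL r hr).2]
  · intro g hg
    rw [Multiset.mem_map] at hg
    obtain ⟨r, hr, rfl⟩ := hg
    exact (hL r hr).1

theorem PkgSplitIn.root [IsDomain R] {P : R[X]} {T₀ : Set R} (h : PkgSplitIn P T₀) {c : R}
    (hc : P.eval c = 0) : c ∈ T₀ := by
  obtain ⟨s, hs, hmem⟩ := h
  rw [hs, Polynomial.eval_multiset_prod, Multiset.map_map, Multiset.prod_eq_zero_iff,
    Multiset.mem_map] at hc
  obtain ⟨g, hg, hg0⟩ := hc
  simp only [Function.comp_apply, eval_sub, eval_X, eval_C] at hg0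
  rw [sub_eq_zero.1 hg0]
  exact hmem g hg

/-- the minimal polynomial over a field splits into the conjugates given by a complete list of
embeddings -/
theorem pkgSplitIn_minpoly {F F' E : Type*} [Field F] [Field F'] [Field E]
    [Algebra F F'] [Algebra F E] [FiniteDimensional F F'] [CharZero F]
    [IsAlgClosed E] {ι : Type*} [Fintype ι] (e : ι → (F' →ₐ[F] E)) (he : Function.Injective e)
    (hcard : Fintype.card ι = Module.finrank F F') (u : F') :
    PkgSplitIn ((minpoly F u).map (algebraMap F E)) (Set.range fun i => e i u) := by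
  classical
  have hbij : Function.Bijective e := by
    rw [Fintype.bijective_iff_injective_and_card]
    exact ⟨he, by rw [hcard, AlgHom.card F F' E]⟩
  set p : E[X] := (minpoly F u).map (algebraMap F E) with hp
  have hint : IsIntegral F u := Algebra.IsIntegral.isIntegral u
  have hmonic : p.Monic := (minpoly.monic hint).map _
  have hsplit : p.Splits := IsAlgClosed.splits p
  refine ⟨p.roots, hsplit.eq_prod_roots_of_monic hmonic, ?_⟩
  intro r hr
  have h1 : r ∈ (minpoly F u).rootSet E := by
    rw [Polynomial.mem_rootSet_of_ne (minpoly.ne_zero hint), Polynomial.aeval_def,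
      Polynomial.eval₂_eq_eval_map]
    exact (Polynomial.mem_roots'.1 hr).2
  rw [← Algebra.IsAlgebraic.range_eval_eq_rootSet_minpoly E u] at h1
  obtain ⟨ψ, hψ⟩ := h1
  obtain ⟨i, hi⟩ := hbij.2 ψ
  exact ⟨i, by rw [← hψ, ← hi]⟩

/-- if the conjugates `e i u` are pairwise distinct, the minimal polynomial is
`∏_i (X - e i u)` (in particular it has degree `[F' : F]`) -/
theorem pkgfib_minpoly_eq_prod {F F' E : Type*} [Field F] [Field F'] [Field E]
    [Algebra F F'] [Algebra F E] [FiniteDimensional F F'] [CharZero F]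
    [IsAlgClosed E] {ι : Type*} [Fintype ι] (e : ι → (F' →ₐ[F] E)) (he : Function.Injective e)
    (hcard : Fintype.card ι = Module.finrank F F') (u : F')
    (hu : Function.Injective fun i => e i u) :
    (minpoly F u).map (algebraMap F E) = ∏ i, (X - C (e i u)) := by
  classical
  have hbij : Function.Bijective e := by
    rw [Fintype.bijective_iff_injective_and_card]
    exact ⟨he, by rw [hcard, AlgHom.card F F' E]⟩
  set p : E[X] := (minpoly F u).map (algebraMap F E) with hp
  have hint : IsIntegral F u := Algebra.IsIntegral.isIntegral u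
  have hmonic : p.Monic := (minpoly.monic hint).map _
  have hsplit : p.Splits := IsAlgClosed.splits p
  have hsep : p.Separable := ((minpoly.irreducible hint).separable).map
  have hnodup : p.roots.Nodup := Polynomial.nodup_roots hsep
  have hnodup' : (Finset.univ.val.map fun i => e i u).Nodup :=
    Multiset.Nodup.map hu Finset.univ.nodup
  have hroots : p.roots = Finset.univ.val.map fun i => e i u := by
    rw [Multiset.Nodup.ext hnodup hnodup']
    intro r
    have h1 : r ∈ p.roots ↔ r ∈ (minpoly F u).rootSet E := by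
      rw [Polynomial.mem_rootSet_of_ne (minpoly.ne_zero hint), Polynomial.aeval_def,
        Polynomial.eval₂_eq_eval_map, Polynomial.mem_roots hmonic.ne_zero]
      rfl
    rw [h1, ← Algebra.IsAlgebraic.range_eval_eq_rootSet_minpoly E u, Multiset.mem_map]
    constructor
    · rintro ⟨ψ, hψ⟩
      obtain ⟨i, hi⟩ := hbij.2 ψ
      exact ⟨i, Finset.mem_univ_val i, by rw [← hψ, ← hi]⟩
    · rintro ⟨i, -, hi⟩
      exact ⟨e i, hi⟩
  rw [hsplit.eq_prod_roots_of_monic hmonic, hroots, Multiset.map_map]
  rfl

end Fermat.Agent.S15.LN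

end
end ZBZ2S15_030_0
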