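/- GENERATED FILE (helper35, build-time optimisation, NOTES/ZB.md): verbatim concatenation of the modules
   Fermat.Agent.S15.PkgEvPlan
   Fermat.Agent.S15.PkgTVFibre
   Fermat.Agent.S15.PkgUniqPlan
   Fermat.Agent.S15.PkgMinHRed
   Fermat.Agent.S15.PkgMinHMain
   Do not edit; do not import together with these modules. -/
import Fermat.Agent.ZB.W1_002
import Fermat.Agent.ZB.Z2S15_030
import Fermat.Agent.ZB.Z2S15_028
import Fermat.Agent.ZB.UNIP_015
import Fermat.Agent.ZB.Z2S15_014
import Fermat.Agent.ZB.Z2S15_031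

/-! ### bundled: `Fermat.Agent.S15.PkgEvPlan` -/
section ZBZ2S15_029_0

/-!
# S15 / LN-PKG, piece PKG-ev: the exact inputs (helper72)

`PKG-ev` (`StmtPkgEv` of `PlanPKG.lean`) is proved in `S15/PkgEv.lean` from the two statements
below, both in the two charts `t = j`, `t = 1/j`:

* `StmtPkgPoly2` : the reductions of an element of the chart ring of `t` are polynomials in `t̄`;
* `StmtPkgFibre` (TV2, set form): for `f` in the chart ring of `t`, with reductions `F₁(t̄)`,
  `F₂(t̄)`, and a place `P` with `t(P) = ã ∈ A`: `f(P) ∈ A` and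
  `f(P)‾ ∈ {F₁(a), F₂(b)}`, `a = ã‾`, `b ^ N = a`.
-/

set_option autoImplicit false
set_option linter.unusedSectionVars false

noncomputable section

open AlgebraicCurve Module ModularCurve Polynomial

namespace Fermat.Agent.S15.LN

open Fermat.Agent.W1 Fermat.Agent.S24 Fermat.Agent.S15 Fermat.Agent.ES.M Fermat.Agent.DEU
  Fermat.Agent.INJ

variable (N : ℕ) [NeZero N] (A : ValuationSubring Kb)

/-- the coordinate `t` of a chart (`j` or `1/j`) together with its reduction `t̄` -/
def PkgCoord (t : FF N) (tb : FFk A) : Prop :=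
  (t = jF N ∧ tb = pkgJbar A) ∨ (t = (jF N)⁻¹ ∧ tb = (pkgJbar A)⁻¹)

/-- `f` lies in the chart ring of `t`: in both Gauss rings and regular wherever `t` is -/
def PkgChart (t f : FF N) : Prop :=
  f ∈ pkgO₁ N A ∧ f ∈ pkgO₂ N A ∧ ∀ P : Place Kb (FF N), 0 ≤ P.ord t → 0 ≤ P.ord f

/-- **PKG-poly in both charts**: the reductions of an element of the chart ring of `t` are
polynomials in `t̄`. -/
def StmtPkgPoly2 : Prop :=
  ∀ (N : ℕ) [NeZero N], N.Prime → 5 ≤ N → ∀ A : ValuationSubring Kb, A.LiesOverPrime N →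
    ∀ hB : PkgBase N A, ∀ (t : FF N) (tb : FFk A), PkgCoord N A t tb →
      ∀ (f : FF N) (h₁ : f ∈ pkgO₁ N A) (h₂ : f ∈ pkgO₂ N A),
        (∀ P : Place Kb (FF N), 0 ≤ P.ord t → 0 ≤ P.ord f) →
          (∃ F₁ : (kA A)[X], pkgRed₁ N A hB ⟨f, h₁⟩ = Polynomial.aeval tb F₁) ∧
            ∃ F₂ : (kA A)[X], pkgRed₂ N A hB ⟨f, h₂⟩ = Polynomial.aeval tb F₂

/-- **TV2 (fibre formula, set form)**: the value at a place `P` above `t = ã ∈ A` of an element
`f` of the chart ring of `t` lies in `A`, and reduces to `F₁(a)` or to `F₂(b)`, `b ^ N = a`,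
where `f̄₁ = F₁(t̄)`, `f̄₂ = F₂(t̄)`. -/
def StmtPkgFibre : Prop :=
  ∀ (N : ℕ) [NeZero N], N.Prime → 5 ≤ N → ∀ A : ValuationSubring Kb, A.LiesOverPrime N →
    ∀ hB : PkgBase N A, ∀ (t : FF N) (tb : FFk A), PkgCoord N A t tb →
      ∀ (f : FF N) (h₁ : f ∈ pkgO₁ N A) (h₂ : f ∈ pkgO₂ N A),
        (∀ P : Place Kb (FF N), 0 ≤ P.ord t → 0 ≤ P.ord f) →
          ∀ F₁ F₂ : (kA A)[X], pkgRed₁ N A hB ⟨f, h₁⟩ = Polynomial.aeval tb F₁ →
            pkgRed₂ N A hB ⟨f, h₂⟩ = Polynomial.aeval tb F₂ →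
              ∀ (P : Place Kb (FF N)) (a : A), HasValueAt P t (a : Kb) →
                ∃ c : A, HasValueAt P f (c : Kb) ∧
                  ∀ b : kA A, b ^ N = IsLocalRing.residue A a →
                    IsLocalRing.residue A c = F₁.eval (IsLocalRing.residue A a) ∨
                      IsLocalRing.residue A c = F₂.eval b

end Fermat.Agent.S15.LN

end
end ZBZ2S15_029_0

/-! ### bundled: `Fermat.Agent.S15.PkgTVFibre` -/
section ZBZ2S15_029_1

/-!
# S15 / LN-PKG, piece PKG-tv, fibre form: `stmtPkgFibre : StmtPkgFibre` (helper10)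

For `f` in the chart ring of `t` (`t = j` or `1/j`) with reductions `F₁(t̄)`, `F₂(t̄)` and a place
`P` with `t(P) = ã ∈ A`: `f(P) ∈ A` and `f(P)‾ ∈ {F₁(a), F₂(b)}`, `b ^ N = a = ã‾`.

Proof: the minimal polynomial `m ∈ A[X][T]` of `f` over `ℚ̄[t]` splits over `A((t))` into the
conjugates `f(t^N)`, `(w_N f)(ζ^b t)`; modulo the maximal ideal of `A` and in the polynomial ring
`k[Y]`, `Y = t̄(t)`: `m̄(Y^N, T) = ∏ (T - R)`, `R ∈ {F₁(Y^N), F₂(Y)}`; specialise `Y ↦ b`.
-/

set_option autoImplicit false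
set_option linter.unusedSectionVars false
set_option linter.unusedVariables false
set_option linter.style.haveILetI false

noncomputable section

namespace Fermat.Agent.S15.LN

open ModularCurve AlgebraicCurve Polynomial IntermediateField
open Fermat.Agent.ES Fermat.Agent.ES.M Fermat.Agent.ES.G2 Fermat.Agent.S24 Fermat.Agent.ES.LR
  Fermat.Agent.DEU Fermat.Agent.W1

variable (N : ℕ) [NeZero N]

/-! ### Step 1: the splitting over `Ω̄` -/

theorem pkgfib_split_Omega (hN : N.Prime) (ζ : Kbˣ) (hζ : IsPrimitiveRoot ζ N) (t₀ : FF N)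
    (ht₀ : ∀ i, pkgtvFam N ζ i t₀ = pkgtvInf N t₀)
    (hdeg : Module.finrank Kb⟮t₀⟯ (FF N) = N + 1) (u : FF N) :
    PkgSplitIn ((minpoly Kb⟮t₀⟯ u).map ((pkgtvInf N).comp (algebraMap Kb⟮t₀⟯ (FF N))))
      (Set.range fun i => pkgtvFam N ζ i u) := by
  classical
  let algE : Algebra Kb⟮t₀⟯ HnOmegaBar :=
    ((pkgtvInf N).comp (algebraMap Kb⟮t₀⟯ (FF N))).toAlgebra
  have hfin : FiniteDimensional Kb⟮t₀⟯ (FF N) :=
    FiniteDimensional.of_finrank_pos (by rw [hdeg]; omega)
  have hchar : CharZero Kb⟮t₀⟯ :=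
    charZero_of_injective_algebraMap (algebraMap Kb Kb⟮t₀⟯).injective
  let e : Option (Fin N) → (FF N →ₐ[Kb⟮t₀⟯] HnOmegaBar) := fun i =>
    { pkgtvFam N ζ i with
      commutes' := fun x => pkgtvFam_eq_on N ζ t₀ ht₀ i (x : FF N) x.2 }
  have he : Function.Injective e := by
    intro i i' h
    apply pkgtvFam_injective N hN ζ hζ
    have := congrArg (fun g : FF N →ₐ[Kb⟮t₀⟯] HnOmegaBar => (g : FF N →+* HnOmegaBar)) h
    exact this
  have hcard : Fintype.card (Option (Fin N)) = Module.finrank Kb⟮t₀⟯ (FF N) := by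
    rw [hdeg, Fintype.card_option, Fintype.card_fin]
  exact pkgSplitIn_minpoly e he hcard u

/-- the splitting of the minimal polynomial over `ℚ̄[t₀]` -/
theorem pkgfib_split_K (hN : N.Prime) (ζ : Kbˣ) (hζ : IsPrimitiveRoot ζ N) (t₀ : FF N)
    (ht : Transcendental Kb t₀)
    (ht₀ : ∀ i, pkgtvFam N ζ i t₀ = pkgtvInf N t₀)
    (hdeg : Module.finrank Kb⟮t₀⟯ (FF N) = N + 1) (u : FF N)
    (hint : letI := polyAlgebra (K := Kb) t₀; IsIntegral Kb[X] u) :
    letI := polyAlgebra (K := Kb) t₀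
    PkgSplitIn ((minpoly Kb[X] u).map
        ((pkgtvInf N).comp (Polynomial.aeval (R := Kb) t₀).toRingHom))
      (Set.range fun i => pkgtvFam N ζ i u) := by
  letI := polyAlgebra (K := Kb) t₀
  letI := polyAlgebraAdjoin (K := Kb) t₀
  haveI := polyAlgebraAdjoin_tower (K := Kb) t₀
  have h := pkgfib_split_Omega N hN ζ hζ t₀ ht₀ hdeg u
  rw [pkgtv_minpoly_eq N t₀ ht u hint, Polynomial.map_map] at h
  have hcomp : ((pkgtvInf N).comp (algebraMap Kb⟮t₀⟯ (FF N))).comp (algebraMap Kb[X] Kb⟮t₀⟯) =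
      (pkgtvInf N).comp (Polynomial.aeval (R := Kb) t₀).toRingHom := by
    refine RingHom.ext fun d => ?_
    show pkgtvInf N ((algebraMap Kb[X] Kb⟮t₀⟯ d : Kb⟮t₀⟯) : FF N) =
      pkgtvInf N (Polynomial.aeval t₀ d)
    congr 1
    exact (IsScalarTower.algebraMap_apply Kb[X] Kb⟮t₀⟯ (FF N) d).symm
  rw [hcomp] at h
  exact h

/-! ### Step 2: descent to `A((t))` -/

theorem pkgfib_kronIncl_C (A : ValuationSubring Kb) (a : A) :
    kronIncl A (HahnSeries.C a) = HahnSeries.C (a : Kb) :=
  coeffMap_single A.subtype 0 a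

/-- the embedding `A((t)) → Ω̄` -/
def pkgfibIota (A : ValuationSubring Kb) : LaurentSeries A →+* HnOmegaBar :=
  (algebraMap HnOmega HnOmegaBar).comp (kronIncl A)

theorem pkgfibIota_injective (A : ValuationSubring Kb) : Function.Injective (pkgfibIota A) :=
  fun _ _ h => kronIncl_injective (hn_algebraMap_injective h)

theorem pkgfib_split_A (A : ValuationSubring Kb) (hN : N.Prime) (ζA : Aˣ)
    (hζ : IsPrimitiveRoot (Units.map (A.subtype : A →* Kb) ζA) N)
    (t₀ : FF N) (ht : Transcendental Kb t₀)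
    (ht₀ : ∀ i, pkgtvFam N (Units.map (A.subtype : A →* Kb) ζA) i t₀ = pkgtvInf N t₀)
    (hdeg : Module.finrank Kb⟮t₀⟯ (FF N) = N + 1) (u : FF N)
    (hint : letI := polyAlgebra (K := Kb) t₀; IsIntegral Kb[X] u)
    (JA F1A F2A : LaurentSeries A) (hJ : kronIncl A JA = (t₀ : LaurentSeries Kb))
    (hF1 : kronIncl A F1A = (u : LaurentSeries Kb))
    (hF2 : kronIncl A F2A = ((frickeAut N u : FF N) : LaurentSeries Kb))
    (mA : A[X][X])
    (hmA : letI := polyAlgebra (K := Kb) t₀
      mA.map (Polynomial.mapRingHom A.subtype) = minpoly Kb[X] u) :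
    PkgSplitIn (mA.map (Polynomial.eval₂RingHom (HahnSeries.C : A →+* LaurentSeries A)
        (qExpand A N JA)))
      {G | G = qExpand A N F1A ∨ ∃ b : Fin N, G = kronRot (ζA ^ (b : ℕ)) F2A} := by
  letI := polyAlgebra (K := Kb) t₀
  have h := pkgfib_split_K N hN _ hζ t₀ ht ht₀ hdeg u hint
  apply PkgSplitIn.of_map (pkgfibIota A) (pkgfibIota_injective A)
  have hcomp : (pkgfibIota A).comp (Polynomial.eval₂RingHom
      (HahnSeries.C : A →+* LaurentSeries A) (qExpand A N JA)) =
      ((pkgtvInf N).comp (Polynomial.aeval (R := Kb) t₀).toRingHom).comp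
        (Polynomial.mapRingHom A.subtype) := by
    apply Polynomial.ringHom_ext
    · intro a
      show pkgfibIota A (Polynomial.eval₂ HahnSeries.C (qExpand A N JA) (C a)) =
        pkgtvInf N (Polynomial.aeval t₀ (Polynomial.map A.subtype (C a)))
      rw [Polynomial.eval₂_C, Polynomial.map_C, Polynomial.aeval_C]
      have h1 := pkgtvFam_algebraMap N (1 : Kbˣ) none (a : Kb)
      have h2 : pkgtvFam N (1 : Kbˣ) none = pkgtvInf N := rfl
      rw [h2] at h1
      show algebraMap HnOmega HnOmegaBar (kronIncl A (HahnSeries.C a)) = _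
      rw [pkgfib_kronIncl_C]
      exact h1.symm
    · show pkgfibIota A (Polynomial.eval₂ HahnSeries.C (qExpand A N JA) X) =
        pkgtvInf N (Polynomial.aeval t₀ (Polynomial.map A.subtype X))
      rw [Polynomial.eval₂_X, Polynomial.map_X, Polynomial.aeval_X, pkgtvInf_apply, ← hJ]
      show algebraMap HnOmega HnOmegaBar (kronIncl A (qExpand A N JA)) = _
      rw [kronIncl, coeffMap_qExpand]
  rw [Polynomial.map_map, hcomp, ← Polynomial.map_map, hmA]
  refine h.mono ?_
  rintro r ⟨i, rfl⟩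
  cases i with
  | none =>
      refine ⟨qExpand A N F1A, Or.inl rfl, ?_⟩
      show algebraMap HnOmega HnOmegaBar (kronIncl A (qExpand A N F1A)) = pkgtvInf N u
      rw [pkgtvInf_apply, ← hF1, kronIncl, coeffMap_qExpand]
  | some b =>
      refine ⟨kronRot (ζA ^ (b : ℕ)) F2A, Or.inr ⟨b, rfl⟩, ?_⟩
      show algebraMap HnOmega HnOmegaBar (kronIncl A (kronRot (ζA ^ (b : ℕ)) F2A)) =
        pkgtvRot N _ u
      rw [pkgtvRot_apply, ← hF2, kronIncl, coeffMap_kronRot, map_pow]

/-! ### Step 3: reduction modulo the maximal ideal -/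

section Red

variable {L : Type*} [Field L] (A : ValuationSubring L) (M : ℕ) [NeZero M]

theorem pkgfib_kronRed_C (a : A) :
    kronRed A (HahnSeries.C a) = HahnSeries.C (IsLocalRing.residue A a) :=
  coeffMap_single (IsLocalRing.residue A) 0 a

theorem pkgfib_split_k (hM : M.Prime) (hA : A.LiesOverPrime M) (ζA : Aˣ) (hζ : ζA ^ M = 1)
    (JA F1A F2A : LaurentSeries A) (mA : A[X][X])
    (h : PkgSplitIn (mA.map (Polynomial.eval₂RingHom (HahnSeries.C : A →+* LaurentSeries A)
        (qExpand A M JA)))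
      {G | G = qExpand A M F1A ∨ ∃ b : Fin M, G = kronRot (ζA ^ (b : ℕ)) F2A}) :
    PkgSplitIn ((mA.map (Polynomial.mapRingHom (IsLocalRing.residue A))).map
        (Polynomial.eval₂RingHom
          (HahnSeries.C : IsLocalRing.ResidueField A →+* LaurentSeries (IsLocalRing.ResidueField A))
          (qExpand (IsLocalRing.ResidueField A) M (kronRed A JA))))
      {G | G = qExpand (IsLocalRing.ResidueField A) M (kronRed A F1A) ∨ G = kronRed A F2A} := by
  have h1 := h.map (kronRed A)
  have hcomp : (kronRed A).comp (Polynomial.eval₂RingHom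
      (HahnSeries.C : A →+* LaurentSeries A) (qExpand A M JA)) =
      (Polynomial.eval₂RingHom
          (HahnSeries.C : IsLocalRing.ResidueField A →+* LaurentSeries (IsLocalRing.ResidueField A))
          (qExpand (IsLocalRing.ResidueField A) M (kronRed A JA))).comp
        (Polynomial.mapRingHom (IsLocalRing.residue A)) := by
    apply Polynomial.ringHom_ext
    · intro a
      show kronRed A (Polynomial.eval₂ HahnSeries.C (qExpand A M JA) (C a)) =
        Polynomial.eval₂ HahnSeries.C (qExpand (IsLocalRing.ResidueField A) M (kronRed A JA))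
          (Polynomial.map (IsLocalRing.residue A) (C a))
      rw [Polynomial.eval₂_C, Polynomial.map_C, Polynomial.eval₂_C, pkgfib_kronRed_C]
    · show kronRed A (Polynomial.eval₂ HahnSeries.C (qExpand A M JA) X) =
        Polynomial.eval₂ HahnSeries.C (qExpand (IsLocalRing.ResidueField A) M (kronRed A JA))
          (Polynomial.map (IsLocalRing.residue A) X)
      rw [Polynomial.eval₂_X, Polynomial.map_X, Polynomial.eval₂_X, kronRed, coeffMap_qExpand]
  rw [Polynomial.map_map, hcomp, ← Polynomial.map_map] at h1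
  refine h1.mono ?_
  rintro r ⟨G, hG, rfl⟩
  rcases hG with rfl | ⟨b, rfl⟩
  · left
    show kronRed A (qExpand A M F1A) = _
    rw [kronRed, coeffMap_qExpand]
  · right
    show kronRed A (kronRot (ζA ^ (b : ℕ)) F2A) = _
    rw [kronRed, coeffMap_kronRot, map_pow, kron_unit_red_eq_one hM hA ζA hζ, one_pow,
      kronRot_one]

end Red

/-! ### Step 4: the polynomial ring `k[Y]`, and the specialisation -/

section Poly

variable {k : Type*} [Field k] (M : ℕ) [NeZero M]

theorem pkgfib_qExpand_aeval (J : LaurentSeries k) (F : k[X]) :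
    qExpand k M (Polynomial.aeval J F) = Polynomial.aeval (qExpand k M J) F := by
  rw [Polynomial.aeval_def, Polynomial.aeval_def]
  have h := Polynomial.hom_eval₂ F (algebraMap k (LaurentSeries k)) (qExpand k M) J
  rw [h]
  congr 1
  ext a
  simp [LaurentSeries.algebraMap_apply]

theorem pkgfib_split_poly (Jk : LaurentSeries k) (hJk : Transcendental k Jk)
    (hfrob : qExpand k M Jk = Jk ^ M) (F₁ F₂ : k[X]) (m : k[X][X])
    (h : PkgSplitIn (m.map (Polynomial.eval₂RingHom
        (HahnSeries.C : k →+* LaurentSeries k) (qExpand k M Jk)))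
      {G | G = qExpand k M (Polynomial.aeval Jk F₁) ∨ G = Polynomial.aeval Jk F₂}) :
    PkgSplitIn (m.map ((Polynomial.expand k M : k[X] →ₐ[k] k[X]) : k[X] →+* k[X]))
      {R | R = Polynomial.expand k M F₁ ∨ R = F₂} := by
  have hinj : Function.Injective (Polynomial.aeval (R := k) Jk).toRingHom :=
    transcendental_iff_injective.1 hJk
  apply PkgSplitIn.of_map (Polynomial.aeval (R := k) Jk).toRingHom hinj
  have hcomp : (Polynomial.aeval (R := k) Jk).toRingHom.comp
      ((Polynomial.expand k M : k[X] →ₐ[k] k[X]) : k[X] →+* k[X]) =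
      Polynomial.eval₂RingHom (HahnSeries.C : k →+* LaurentSeries k) (qExpand k M Jk) := by
    apply Polynomial.ringHom_ext
    · intro a
      show Polynomial.aeval Jk (Polynomial.expand k M (C a)) =
        Polynomial.eval₂ HahnSeries.C (qExpand k M Jk) (C a)
      rw [Polynomial.expand_C, Polynomial.aeval_C, Polynomial.eval₂_C,
        LaurentSeries.algebraMap_apply]
    · show Polynomial.aeval Jk (Polynomial.expand k M X) =
        Polynomial.eval₂ HahnSeries.C (qExpand k M Jk) X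
      rw [Polynomial.expand_X, map_pow, Polynomial.aeval_X, Polynomial.eval₂_X, hfrob]
  rw [Polynomial.map_map, hcomp]
  refine h.mono ?_
  rintro G (rfl | rfl)
  · refine ⟨Polynomial.expand k M F₁, Or.inl rfl, ?_⟩
    show Polynomial.aeval Jk (Polynomial.expand k M F₁) = _
    rw [Polynomial.expand_aeval, pkgfib_qExpand_aeval, hfrob]
  · exact ⟨F₂, Or.inr rfl, rfl⟩

theorem pkgfib_split_eval (F₁ F₂ : k[X]) (m : k[X][X]) (b : k)
    (h : PkgSplitIn (m.map ((Polynomial.expand k M : k[X] →ₐ[k] k[X]) : k[X] →+* k[X]))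
      {R | R = Polynomial.expand k M F₁ ∨ R = F₂}) :
    PkgSplitIn (m.map (Polynomial.evalRingHom (b ^ M)))
      {r | r = F₁.eval (b ^ M) ∨ r = F₂.eval b} := by
  have h1 := h.map (Polynomial.evalRingHom b)
  have hcomp : (Polynomial.evalRingHom b).comp
      ((Polynomial.expand k M : k[X] →ₐ[k] k[X]) : k[X] →+* k[X]) =
      Polynomial.evalRingHom (b ^ M) := by
    refine RingHom.ext fun p => ?_
    show Polynomial.eval b (Polynomial.expand k M p) = Polynomial.eval (b ^ M) p
    exact Polynomial.expand_eval M p b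
  rw [Polynomial.map_map, hcomp] at h1
  refine h1.mono ?_
  rintro r ⟨R, hR, rfl⟩
  rcases hR with rfl | rfl
  · left
    show Polynomial.eval b (Polynomial.expand k M F₁) = _
    exact Polynomial.expand_eval M F₁ b
  · right
    rfl

/-- **the fibre over `b ^ M`**: a root of `m̄(b^M, T)` is `F₁(b^M)` or `F₂(b)` -/
theorem pkgfib_root (Jk : LaurentSeries k) (hJk : Transcendental k Jk)
    (hfrob : qExpand k M Jk = Jk ^ M) (F₁ F₂ : k[X]) (m : k[X][X])
    (h : PkgSplitIn (m.map (Polynomial.eval₂RingHom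
        (HahnSeries.C : k →+* LaurentSeries k) (qExpand k M Jk)))
      {G | G = qExpand k M (Polynomial.aeval Jk F₁) ∨ G = Polynomial.aeval Jk F₂})
    (b c : k) (hc : Polynomial.eval₂ (Polynomial.evalRingHom (b ^ M)) c m = 0) :
    c = F₁.eval (b ^ M) ∨ c = F₂.eval b := by
  have h1 := pkgfib_split_eval M F₁ F₂ m b (pkgfib_split_poly M Jk hJk hfrob F₁ F₂ m h)
  exact h1.root (by rw [Polynomial.eval_map]; exact hc)

end Poly

/-! ### Step 5: values at a place -/

section Value

variable {K F : Type} [Field K] [Field F] [Algebra K F] (P : Place K F)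

theorem pkgfib_hv_aeval {t : F} {a : K} (ht : HasValueAt P t a) (d : K[X]) :
    HasValueAt P (Polynomial.aeval t d) (d.eval a) := by
  induction d using Polynomial.induction_on' with
  | add p q hp hq =>
      rw [map_add, Polynomial.eval_add]
      exact Fermat.Agent.S15.LD.ld_hv_add P hp hq
  | monomial n c =>
      rw [Polynomial.aeval_monomial, Polynomial.eval_monomial]
      exact Fermat.Agent.S15.LD.ld_hv_mul P (Fermat.Agent.S15.LD.ld_hv_const P c)
        (Fermat.Agent.S15.LD.ld_hv_pow P ht n)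

theorem pkgfib_hv_eval₂ {t f : F} {a c : K} (ht : HasValueAt P t a) (hf : HasValueAt P f c)
    (m : K[X][X]) :
    HasValueAt P (Polynomial.eval₂ (Polynomial.aeval (R := K) t).toRingHom f m)
      (Polynomial.eval₂ (Polynomial.evalRingHom a) c m) := by
  induction m using Polynomial.induction_on' with
  | add p q hp hq =>
      rw [Polynomial.eval₂_add, Polynomial.eval₂_add]
      exact Fermat.Agent.S15.LD.ld_hv_add P hp hq
  | monomial n d =>
      rw [Polynomial.eval₂_monomial, Polynomial.eval₂_monomial]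
      exact Fermat.Agent.S15.LD.ld_hv_mul P (pkgfib_hv_aeval P ht d)
        (Fermat.Agent.S15.LD.ld_hv_pow P hf n)

/-- the value of a root is a root of the specialised polynomial -/
theorem pkgfib_eval₂_value {t f : F} {a c : K} (ht : HasValueAt P t a) (hf : HasValueAt P f c)
    (m : K[X][X]) (hm : Polynomial.eval₂ (Polynomial.aeval (R := K) t).toRingHom f m = 0) :
    Polynomial.eval₂ (Polynomial.evalRingHom a) c m = 0 := by
  have h1 := pkgfib_hv_eval₂ P ht hf m
  rw [hm] at h1
  have h2 : HasValueAt P (0 : F) (0 : K) := by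
    have := Fermat.Agent.S15.LD.ld_hv_const P (0 : K)
    rwa [map_zero] at this
  exact hasValueAt_unique P h1 h2

end Value

/-- naturality of the double evaluation -/
theorem pkgfib_map_eval₂ {R S : Type*} [CommRing R] [CommRing S] (g : R →+* S) (a c : R)
    (m : R[X][X]) :
    g (Polynomial.eval₂ (Polynomial.evalRingHom a) c m) =
      Polynomial.eval₂ (Polynomial.evalRingHom (g a)) (g c)
        (m.map (Polynomial.mapRingHom g)) := by
  rw [Polynomial.hom_eval₂, Polynomial.eval₂_map]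
  congr 1
  apply Polynomial.ringHom_ext
  · intro r
    simp
  · simp

/-- a double polynomial with coefficients in a subring lifts -/
theorem pkgfib_exists_lift {K : Type*} [Field K] (A : ValuationSubring K) (m : K[X][X])
    (hm : m.Monic) (hcoef : ∀ n k, (m.coeff n).coeff k ∈ A) :
    ∃ mA : A[X][X], mA.Monic ∧ mA.map (Polynomial.mapRingHom A.subtype) = m := by
  have hlift : m ∈ Polynomial.lifts (Polynomial.mapRingHom A.subtype) := by
    rw [Polynomial.lifts_iff_coeff_lifts]
    intro n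
    have h1 : m.coeff n ∈ Polynomial.lifts A.subtype := by
      rw [Polynomial.lifts_iff_coeff_lifts]
      intro k
      exact ⟨⟨_, hcoef n k⟩, rfl⟩
    rw [Polynomial.mem_lifts] at h1
    obtain ⟨q, hq⟩ := h1
    exact ⟨q, hq⟩
  obtain ⟨mA, h1, -, h2⟩ := Polynomial.lifts_and_natDegree_eq_and_monic hlift hm
  exact ⟨mA, h2, h1⟩

/-! ### The fibre formula -/

/-- the coordinate `t` with its reduction `t̄`: all that is used -/
structure PkgfibCoord (A : ValuationSubring Kb) (t : FF N) (tb : FFk A) : Prop where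
  coord : PkgtvCoord N A t
  lift : ∃ JA : LaurentSeries A, kronIncl A JA = (t : LaurentSeries Kb) ∧
    kronRed A JA = (tb : LaurentSeries (kA A))
  transc : Transcendental (kA A) (tb : LaurentSeries (kA A))
  frob : qExpand (kA A) N (tb : LaurentSeries (kA A)) = (tb : LaurentSeries (kA A)) ^ N

theorem pkgfib_coe_aeval (A : ValuationSubring Kb) (tb : FFk A) (F : (kA A)[X]) :
    ((Polynomial.aeval tb F : FFk A) : LaurentSeries (kA A)) =
      Polynomial.aeval (tb : LaurentSeries (kA A)) F :=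
  (Polynomial.aeval_algHom_apply (modularFunctionFieldFullC (kA A) 1).val tb F).symm

/-- **the fibre formula**, for a coordinate -/
theorem pkgfib_main (hN : N.Prime) (A : ValuationSubring Kb) (hA : A.LiesOverPrime N)
    (hB : PkgBase N A) (t : FF N) (tb : FFk A) (htc : PkgfibCoord N A t tb)
    (f : FF N) (h₁ : f ∈ pkgO₁ N A) (h₂ : f ∈ pkgO₂ N A)
    (hreg : ∀ P : Place Kb (FF N), 0 ≤ P.ord t → 0 ≤ P.ord f)
    (F₁ F₂ : (kA A)[X]) (hF₁ : pkgRed₁ N A hB ⟨f, h₁⟩ = Polynomial.aeval tb F₁)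
    (hF₂ : pkgRed₂ N A hB ⟨f, h₂⟩ = Polynomial.aeval tb F₂)
    (P : Place Kb (FF N)) (a : A) (hP : HasValueAt P t (a : Kb)) :
    ∃ c : A, HasValueAt P f (c : Kb) ∧
      ∀ b : kA A, b ^ N = IsLocalRing.residue A a →
        IsLocalRing.residue A c = F₁.eval (IsLocalRing.residue A a) ∨
          IsLocalRing.residue A c = F₂.eval b := by
  letI := polyAlgebra (K := Kb) t
  have hArch := arch_Qbar A hN hA
  obtain ⟨hint, hcoef⟩ := pkgtv_minpoly_coeff N hN A hArch t htc.coord f h₁ h₂ hreg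
  have hint' := hint
  obtain ⟨p, hp, hpz⟩ := hint'
  have hK₁ : KronInt A (f : LaurentSeries Kb) :=
    pkgtv_kronInt_gen N A hArch _ htc.coord.int₁ f p hp (pkgtv_eval₂_coe N t f p hpz) h₁
  have hK₂ : KronInt A ((frickeAut N f : FF N) : LaurentSeries Kb) :=
    pkgtv_kronInt_gen N A hArch _ htc.coord.int₂ (frickeAut N f) p hp
      (pkgtv_eval₂_coe N (frickeAut N t) (frickeAut N f) p
        (pkgtv_eval₂_aut N (frickeAut N) t f p hpz)) h₂
  obtain ⟨F1A, hF1A⟩ := hK₁.exists_lift
  obtain ⟨F2A, hF2A⟩ := hK₂.exists_lift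
  obtain ⟨JA, hJA, hJk⟩ := htc.lift
  obtain ⟨ζ, hζ⟩ := pkgtv_exists_primitiveRoot N (NeZero.ne N)
  obtain ⟨ζA, hζA⟩ := kron_exists_unit_lift A (NeZero.ne N) ζ hζ.pow_eq_one
  have hζAN : ζA ^ N = 1 := by
    have hinj : Function.Injective (Units.map (A.subtype : A →* Kb)) :=
      Units.map_injective Subtype.val_injective
    apply hinj
    rw [map_pow, hζA, hζ.pow_eq_one, map_one]
  obtain ⟨mA, hmAmonic, hmA⟩ := pkgfib_exists_lift A (minpoly Kb[X] f) (minpoly.monic hint) hcoef
  -- the chain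
  have hsA := pkgfib_split_A N A hN ζA (by rw [hζA]; exact hζ) t htc.coord.transc
    (fun i => htc.coord.fam _ (by rw [hζA]; exact hζ.pow_eq_one) i) htc.coord.finrank f hint
    JA F1A F2A hJA hF1A hF2A mA hmA
  have hsk := pkgfib_split_k A N hN hA ζA hζAN JA F1A F2A mA hsA
  have hr1 : kronRed A F1A = Polynomial.aeval (tb : LaurentSeries (kA A)) F₁ := by
    have hG : GaussRed N A f (kronRed A F1A) :=
      ⟨F1A, 1, by rw [hF1A]; exact f.2, by rw [map_one]; exact one_mem _,
        by rw [map_one]; exact one_ne_zero, by rw [map_one, mul_one, hF1A],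
        by rw [map_one, mul_one]⟩
    have h := pkg_red₁_eq N A hB h₁ hG
    rw [← h, hF₁, pkgfib_coe_aeval]
  have hr2 : kronRed A F2A = Polynomial.aeval (tb : LaurentSeries (kA A)) F₂ := by
    have hG : GaussRed N A (frickeAut N f) (kronRed A F2A) :=
      ⟨F2A, 1, by rw [hF2A]; exact (frickeAut N f).2, by rw [map_one]; exact one_mem _,
        by rw [map_one]; exact one_ne_zero, by rw [map_one, mul_one, hF2A],
        by rw [map_one, mul_one]⟩
    have h := pkg_red₂_eq N A hB h₂ hG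
    rw [← h, hF₂, pkgfib_coe_aeval]
  rw [hJk, hr1, hr2] at hsk
  -- the value
  have hfP : f ∈ P.toValuationSubring :=
    PlaceAux.mem_of_ord_nonneg P (hreg P (Fermat.Agent.S15.LD.ld_ord_nonneg_of_hv P hP))
  obtain ⟨c, hc⟩ := ge_exists_value P (Fermat.Agent.ES.H.residue_bijective_FF N P) hfP
  have hmf : Polynomial.eval₂ (Polynomial.aeval (R := Kb) t).toRingHom f (minpoly Kb[X] f) = 0 :=
    minpoly.aeval Kb[X] f
  have hroot : Polynomial.eval₂ (Polynomial.evalRingHom (a : Kb)) c (minpoly Kb[X] f) = 0 :=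
    pkgfib_eval₂_value P hP hc _ hmf
  have hcomp : (Polynomial.evalRingHom (a : Kb)).comp (Polynomial.mapRingHom A.subtype) =
      (algebraMap A Kb).comp (Polynomial.evalRingHom a) := by
    apply Polynomial.ringHom_ext
    · intro r
      simp
    · simp
  have hcA : c ∈ A := by
    have hI : IsIntegral A c := by
      refine ⟨mA.map (Polynomial.evalRingHom a), hmAmonic.map _, ?_⟩
      rw [Polynomial.eval₂_map, ← hcomp, ← Polynomial.eval₂_map, hmA]
      exact hroot
    obtain ⟨y, hy⟩ := IsIntegrallyClosed.isIntegral_iff.1 hI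
    rw [← hy]
    exact y.2
  refine ⟨⟨c, hcA⟩, hc, fun b hb => ?_⟩
  have h0 : Polynomial.eval₂ (Polynomial.evalRingHom a) (⟨c, hcA⟩ : A) mA = 0 := by
    apply Subtype.val_injective
    have h := pkgfib_map_eval₂ A.subtype a (⟨c, hcA⟩ : A) mA
    rw [hmA] at h
    exact h.trans hroot
  have h1 := congrArg (IsLocalRing.residue A) h0
  rw [pkgfib_map_eval₂, map_zero] at h1
  rw [← hb] at h1 ⊢
  exact pkgfib_root N (tb : LaurentSeries (kA A)) htc.transc htc.frob F₁ F₂ _ hsk b _ h1

/-! ### The two coordinates -/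

theorem pkgfib_jq_mul_jinv (R : Type*) [CommRing R] :
    jqModC R * HahnSeries.ofPowerSeries ℤ R (pkgtvJinvZ.map (Int.castRingHom R)) = 1 := by
  have hj : jqModC R = HahnSeries.single (-1 : ℤ) 1 *
      HahnSeries.ofPowerSeries ℤ R (jNum.map (Int.castRingHom R)) := rfl
  have h1 : jNum * PowerSeries.invOfUnit jNum 1 = 1 :=
    PowerSeries.mul_invOfUnit jNum 1 (by rw [constantCoeff_jNum]; rfl)
  have h2 : (jNum.map (Int.castRingHom R)) * (pkgtvJinvZ.map (Int.castRingHom R)) =
      PowerSeries.X := by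
    rw [← map_mul, pkgtvJinvZ, ← mul_assoc, mul_comm jNum PowerSeries.X, mul_assoc,
      h1, mul_one, PowerSeries.map_X]
  rw [hj, mul_assoc, ← map_mul, h2, HahnSeries.ofPowerSeries_X, HahnSeries.single_mul_single]
  simp

theorem pkgfib_jinv_eq (k : Type*) [Field k] :
    (jqModC k)⁻¹ = HahnSeries.ofPowerSeries ℤ k (pkgtvJinvZ.map (Int.castRingHom k)) :=
  inv_eq_of_mul_eq_one_right (pkgfib_jq_mul_jinv k)

theorem pkgfibCoord_j (hN : N.Prime) (A : ValuationSubring Kb) (hA : A.LiesOverPrime N) :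
    PkgfibCoord N A (jF N) (pkgJbar A) where
  coord := pkgtvCoord_j N hN A
  lift := by
    refine ⟨coeffMap (Int.castRingHom A) (jqModC ℤ), ?_, ?_⟩
    · rw [pkg_kronIncl_int, coeffMap_jqModC, pkg_coe_jF]
    · rw [pkg_kronRed_int, coeffMap_jqModC]
      rfl
  transc := Fermat.Agent.S28.kdj_transcendental_jqModC (kA A)
  frob := by
    haveI : CharP (kA A) N := kron_charP_residueField hN hA
    exact pkg_jN_eq_pow N (kA A) hN

theorem pkgfibCoord_jinv (hN : N.Prime) (A : ValuationSubring Kb) (hA : A.LiesOverPrime N) :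
    PkgfibCoord N A (jF N)⁻¹ (pkgJbar A)⁻¹ where
  coord := pkgtvCoord_jinv N hN A
  lift := by
    refine ⟨coeffMap (Int.castRingHom A) (HahnSeries.ofPowerSeries ℤ ℤ pkgtvJinvZ), ?_, ?_⟩
    · rw [pkg_kronIncl_int, coeffMap_ofPowerSeries, pkgtv_coe_inv, pkgtv_coe_jF, pkgtv_jBar_inv]
      rfl
    · rw [pkg_kronRed_int, coeffMap_ofPowerSeries, ← pkgfib_jinv_eq]
      rfl
  transc := by
    intro h
    apply Fermat.Agent.S28.kdj_transcendental_jqModC (kA A)
    have h2 := h.inv
    rwa [show (((pkgJbar A)⁻¹ : FFk A) : LaurentSeries (kA A)) = (jqModC (kA A))⁻¹ from rfl,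
      inv_inv] at h2
  frob := by
    haveI : CharP (kA A) N := kron_charP_residueField hN hA
    rw [show (((pkgJbar A)⁻¹ : FFk A) : LaurentSeries (kA A)) = (jqModC (kA A))⁻¹ from rfl,
      map_inv₀, pkg_jN_eq_pow N (kA A) hN, inv_pow]

/-- **TV2, the fibre formula (set form)** -/
theorem stmtPkgFibre : StmtPkgFibre := by
  intro N _ hN h5 A hA hB t tb htb f h₁ h₂ hreg F₁ F₂ hF₁ hF₂ P a hP
  rcases htb with ⟨rfl, rfl⟩ | ⟨rfl, rfl⟩
  · exact pkgfib_main N hN A hA hB _ _ (pkgfibCoord_j N hN A hA) f h₁ h₂ hreg F₁ F₂ hF₁ hF₂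
      P a hP
  · exact pkgfib_main N hN A hA hB _ _ (pkgfibCoord_jinv N hN A hA) f h₁ h₂ hreg F₁ F₂ hF₁ hF₂
      P a hP

end Fermat.Agent.S15.LN

end
end ZBZ2S15_029_1

/-! ### bundled: `Fermat.Agent.S15.PkgUniqPlan` -/
section ZBZ2S15_029_2

/-!
# S15 / LN-PKG, piece PKG-uniq: exact statements (helper25)

Input of PKG-rdiv: above a value `b ∈ A` of the coordinate `t` (`t = j` or `t = 1/j`) there is at
most ONE place of type 1, and `t - b` is a uniformizer there (`e = 1`).

Route (three pieces):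
* `PkgIsSimple` (abstract, `S15/PkgSimple.lean`): `F = K(t, f)`, `m(t, f) = 0`, `m` monic in `T`,
  `c` a SIMPLE root of `m(b, T)`: then there is at most one place `P` with `t(P) = b`, `f(P) = c`,
  and `ord_P (t - b) = 1`.
* `StmtPkgMinH` : for the separating function `f = pkgSep` of the chart (`h = 1/oggU` for `t = j`,
  `h · t^(N-1)` for `t = 1/j`): `F_N = ℚ̄(t, f)` and `f` is a root of a monic `m ∈ A[X][T]` whose
  reduction is `(T - F₁(X)) · T ^ N`, `F₁(t̄) = f̄₁` (the `N + 1` conjugates: one reduces to `f̄₁`,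
  the others to `f̄₂ = 0`).
* the assembly `StmtPkgUniq` (with PKG-ev for the chart `1/j` at `|b| < 1`).
-/

set_option autoImplicit false
set_option linter.unusedSectionVars false

noncomputable section

open AlgebraicCurve Module ModularCurve Polynomial

namespace Fermat.Agent.S15.LN

open Fermat.Agent.W1 Fermat.Agent.S24 Fermat.Agent.S15 Fermat.Agent.ES.M Fermat.Agent.DEU
  Fermat.Agent.INJ

/-! ## The abstract statement -/

section Abstract

variable (K F : Type) [Field K] [Field F] [Algebra K F]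

/-- evaluation of a polynomial in two variables at `(t, f)` -/
def pkgEv₂ (t f : F) : K[X][X] →+* F :=
  Polynomial.eval₂RingHom ((Polynomial.aeval t : K[X] →ₐ[K] F) : K[X] →+* F) f

/-- **PKG-simple**: a simple point of the plane model carries exactly one place, unramified
over the `t`-line. -/
def StmtPkgSimple : Prop :=
  ∀ (K F : Type) [Field K] [Field F] [Algebra K F] (t f : F) (m : K[X][X]) (b c : K),
    IntermediateField.adjoin K {t, f} = ⊤ → pkgEv₂ K F t f m = 0 →
      ((Polynomial.derivative m).eval (C c)).eval b ≠ 0 →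
        ∀ P P' : Place K F, HasValueAt P t b → HasValueAt P f c → HasValueAt P' t b →
          HasValueAt P' f c → P.ord (t - algebraMap K F b) = 1 ∧ P' = P

end Abstract

variable (N : ℕ) [NeZero N] (A : ValuationSubring Kb)

/-! ## The separating functions -/

/-- the separating function of the chart `j`: `h = Δ(τ)/Δ(Nτ)` -/
def pkgSepJ : FF N := (oggU N)⁻¹

/-- the separating function of the chart `1/j`: `h · j ^ (1 - N)` -/
def pkgSepI : FF N := (oggU N)⁻¹ * ((jF N)⁻¹) ^ (N - 1)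

/-- evaluation of a polynomial in two variables over `A` at `(t, f)` -/
def pkgEvA (t f : FF N) : (↥A)[X][X] →+* FF N :=
  (pkgEv₂ Kb (FF N) t f).comp
    (Polynomial.mapRingHom (Polynomial.mapRingHom A.subtype))

/-- the facts on the separating function `f` of the chart `t` -/
structure PkgIsMin (hB : PkgBase N A) (t : FF N) (tb : FFk A) (f : FF N) : Prop where
  /-- `f` generates `F_N` over `ℚ̄(t)` -/
  gen : IntermediateField.adjoin Kb {t, f} = ⊤
  /-- `f` is a root of a monic polynomial over `A[t]` with reduction `(T - F₁(X)) T ^ N` -/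
  min : ∃ (m : (↥A)[X][X]) (F₁ : (kA A)[X]), m.Monic ∧ pkgEvA N A t f m = 0 ∧
    (∃ h₁ : f ∈ pkgO₁ N A, pkgRed₁ N A hB ⟨f, h₁⟩ = Polynomial.aeval tb F₁) ∧
    m.map (Polynomial.mapRingHom (IsLocalRing.residue A)) = (X - C F₁) * X ^ N

/-- **PKG-minh** -/
def StmtPkgMinH : Prop :=
  ∀ (N : ℕ) [NeZero N], N.Prime → 5 ≤ N → ∀ A : ValuationSubring Kb, A.LiesOverPrime N →
    ∀ hB : PkgBase N A, PkgIsMin N A hB (jF N) (pkgJbar A) (pkgSepJ N) ∧
      PkgIsMin N A hB (jF N)⁻¹ (pkgJbar A)⁻¹ (pkgSepI N)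

/-- **PKG-uniq**: at most one place of type 1 above a value `b ∈ A` of the coordinate `t`, and
it is unramified over the `t`-line. -/
def StmtPkgUniq : Prop :=
  ∀ (N : ℕ) [NeZero N], N.Prime → 5 ≤ N → ∀ A : ValuationSubring Kb, A.LiesOverPrime N →
    ∀ t : FF N, t = jF N ∨ t = (jF N)⁻¹ → ∀ (b : A) (P P' : Place Kb (FF N)),
      PkgType₁ N A P → PkgType₁ N A P' → HasValueAt P t (b : Kb) → HasValueAt P' t (b : Kb) →
        P.ord (t - algebraMap Kb (FF N) (b : Kb)) = 1 ∧ P' = P

/-- the assembly of PKG-uniq -/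
def StmtPkgUniqAsm : Prop :=
  StmtPkgSimple → StmtPkgMinH → StmtPkgEv → StmtPkgType → StmtPkgVal → StmtPkgUniq

end Fermat.Agent.S15.LN

end
end ZBZ2S15_029_2

/-! ### bundled: `Fermat.Agent.S15.PkgMinHRed` -/
section ZBZ2S15_029_3

/-!
# S15 / LN-PKG, piece PKG-minh, part 2: reductions (helper52)

* `pkgmh_mem_of_kronInt` : an element of `F_N` with `A`-integral `q`-expansion lies in the Gauss
  ring `pkgO₁`;
* `pkgmh_red_aeval` : the reduction of `p(t)`, `p ∈ A[X]`, is `p̄(t̄)`;
* `pkgmh_isMin` : **the abstract form of PKG-minh** for a coordinate `t` and a function `u` with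
  `w_N u = c₀ · v`, `c₀ ∈ 𝔪_A`, `v` integral, `ord_q (w_N u)` prime to `N`.
-/

set_option autoImplicit false
set_option linter.unusedSectionVars false
set_option linter.unusedVariables false
set_option linter.style.haveILetI false

noncomputable section

namespace Fermat.Agent.S15.LN

open ModularCurve AlgebraicCurve Polynomial IntermediateField
open Fermat.Agent.ES Fermat.Agent.ES.M Fermat.Agent.ES.G2 Fermat.Agent.S24 Fermat.Agent.ES.LR
  Fermat.Agent.DEU Fermat.Agent.W1 Fermat.Agent.S15 Fermat.Agent.INJ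

variable (N : ℕ) [NeZero N] (A : ValuationSubring Kb)

/-! ### Integral expansions -/

theorem pkgmh_gaussRed_of_lift (x : FF N) (Y : LaurentSeries A)
    (hx : kronIncl A Y = (x : LaurentSeries Kb)) : GaussRed N A x (kronRed A Y) := by
  refine ⟨Y, 1, ?_, ?_, ?_, ?_, ?_⟩
  · rw [hx]; exact x.2
  · rw [map_one]; exact one_mem _
  · rw [map_one]; exact one_ne_zero
  · rw [map_one, mul_one, hx]
  · rw [map_one, mul_one]

theorem pkgmh_mem_of_kronInt (x : FF N) (hx : KronInt A (x : LaurentSeries Kb)) :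
    x ∈ pkgO₁ N A := by
  obtain ⟨Y, hY⟩ := hx.exists_lift
  exact ⟨_, pkgmh_gaussRed_of_lift N A x Y hY⟩

theorem pkgmh_coe_mul (x y : FF N) :
    ((x * y : FF N) : LaurentSeries Kb) = (x : LaurentSeries Kb) * (y : LaurentSeries Kb) := rfl

theorem pkgmh_coe_add (x y : FF N) :
    ((x + y : FF N) : LaurentSeries Kb) = (x : LaurentSeries Kb) + (y : LaurentSeries Kb) := rfl

theorem pkgmh_coe_pow (x : FF N) (n : ℕ) :
    ((x ^ n : FF N) : LaurentSeries Kb) = (x : LaurentSeries Kb) ^ n := rfl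

theorem pkgmh_coe_aeval (t : FF N) (d : Kb[X]) :
    ((Polynomial.aeval t d : FF N) : LaurentSeries Kb) =
      Polynomial.aeval (t : LaurentSeries Kb) d := by
  have h := Polynomial.aeval_algHom_apply (modularFunctionFieldBar N).val t d
  exact h.symm

/-! ### The reduction of a polynomial in `t` -/

section Red

variable (hB : PkgBase N A)

/-- `A → pkgO₁` -/
def pkgmhConst : ↥A →+* ↥(pkgO₁ N A) :=
  ((algebraMap Kb (FF N)).comp A.subtype).codRestrict (pkgO₁ N A).toSubring fun a =>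
    (pkg_algebraMap_mem_iff₁ N A hB (a : Kb)).mpr a.2

theorem coe_pkgmhConst (a : A) :
    ((pkgmhConst N A hB a : ↥(pkgO₁ N A)) : FF N) = algebraMap Kb (FF N) (a : Kb) := rfl

theorem pkgmh_red_const (a : A) :
    pkgRed₁ N A hB (pkgmhConst N A hB a) =
      algebraMap (kA A) (FFk A) (IsLocalRing.residue A a) :=
  pkg_red₁_algebraMap N A hB a _

/-- **the reduction of `p(t)`, `p ∈ A[X]`, is `p̄(t̄)`** -/
theorem pkgmh_red_aeval (t : FF N) (ht₁ : t ∈ pkgO₁ N A) (p : (↥A)[X]) :
    ∃ h : Polynomial.aeval t (p.map A.subtype) ∈ pkgO₁ N A,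
      pkgRed₁ N A hB ⟨_, h⟩ =
        Polynomial.aeval (pkgRed₁ N A hB ⟨t, ht₁⟩) (p.map (IsLocalRing.residue A)) := by
  set y : ↥(pkgO₁ N A) := Polynomial.eval₂ (pkgmhConst N A hB) ⟨t, ht₁⟩ p with hy
  have h1 : (y : FF N) = Polynomial.aeval t (p.map A.subtype) := by
    have h := Polynomial.hom_eval₂ p (pkgmhConst N A hB) (pkgO₁ N A).subtype ⟨t, ht₁⟩
    rw [Polynomial.aeval_def, Polynomial.eval₂_map]
    exact h
  have h2 : pkgRed₁ N A hB y =
      Polynomial.aeval (pkgRed₁ N A hB ⟨t, ht₁⟩) (p.map (IsLocalRing.residue A)) := by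
    have h := Polynomial.hom_eval₂ p (pkgmhConst N A hB) (pkgRed₁ N A hB) ⟨t, ht₁⟩
    rw [Polynomial.aeval_def, Polynomial.eval₂_map, hy, h]
    congr 1
    exact RingHom.ext fun a => pkgmh_red_const N A hB a
  refine ⟨h1 ▸ y.2, ?_⟩
  rw [← h2]
  congr 1
  exact Subtype.ext h1.symm

end Red

end Fermat.Agent.S15.LN

end
end ZBZ2S15_029_3

/-! ### bundled: `Fermat.Agent.S15.PkgMinHMain` -/
section ZBZ2S15_029_4

/-!
# S15 / LN-PKG, piece PKG-minh, part 3: the abstract form (helper52)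

`pkgmh_isMin` : for a coordinate `t` (`PkgtvCoord`) with `t ∈ pkgO₁` and a function `u`,
regular wherever `t` is, with `u ∈ pkgO₁`, `w_N u = c₀ · v`, `c₀ ∈ 𝔪_A ∖ {0}`, `v` integral and
`ord_q (w_N u)` prime to `N`:  `PkgIsMin N A hB t t̄ u`.
-/

set_option autoImplicit false
set_option linter.unusedSectionVars false
set_option linter.unusedVariables false
set_option linter.style.haveILetI false

noncomputable section

namespace Fermat.Agent.S15.LN

open ModularCurve AlgebraicCurve Polynomial IntermediateField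
open Fermat.Agent.ES Fermat.Agent.ES.M Fermat.Agent.ES.G2 Fermat.Agent.S24 Fermat.Agent.ES.LR
  Fermat.Agent.DEU Fermat.Agent.W1 Fermat.Agent.S15 Fermat.Agent.INJ

variable (N : ℕ) [NeZero N] (A : ValuationSubring Kb)

/-- a polynomial all of whose coefficients have their coefficients in `A` comes from
`A[X][X]` -/
theorem pkgmh_lift (μ : Kb[X][X]) (hμ : μ.Monic) (h : ∀ n k, (μ.coeff n).coeff k ∈ A) :
    ∃ m : (↥A)[X][X], m.map (Polynomial.mapRingHom A.subtype) = μ ∧ m.Monic ∧
      m.natDegree = μ.natDegree := by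
  have h1 : μ ∈ Polynomial.lifts (Polynomial.mapRingHom A.subtype) := by
    rw [Polynomial.lifts_iff_coeff_lifts]
    intro n
    have h2 : μ.coeff n ∈ Polynomial.lifts A.subtype := by
      rw [Polynomial.lifts_iff_coeff_lifts]
      intro k
      exact ⟨⟨_, h n k⟩, rfl⟩
    rw [Polynomial.mem_lifts] at h2
    obtain ⟨q, hq⟩ := h2
    exact ⟨q, hq⟩
  obtain ⟨m, hm, hdeg, hmon⟩ := Polynomial.lifts_and_degree_eq_and_monic h1 hμ
  exact ⟨m, hm, hmon, Polynomial.natDegree_eq_of_degree_eq hdeg⟩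

theorem pkgmh_residue_eq_zero {c₀ : Kb} (hc₀ : c₀ ∈ A.nonunits) (x : A) (a : Kb) (ha : a ∈ A)
    (hx : (x : Kb) = c₀ * a) : IsLocalRing.residue A x = 0 := by
  rw [IsLocalRing.residue_eq_zero_iff, ← ValuationSubring.coe_mem_nonunits_iff, hx]
  rw [ValuationSubring.mem_nonunits_iff] at hc₀ ⊢
  rw [map_mul]
  exact mul_lt_one_of_nonneg_of_lt_one_left zero_le hc₀ ((A.valuation_le_one_iff a).2 ha)

section Main

variable (hN : N.Prime) (hA : Arch A) (hB : PkgBase N A) (t : FF N)
  (ht : PkgtvCoord N A t) (ht₁ : t ∈ pkgO₁ N A)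
  (u : FF N) (hreg : ∀ P : Place Kb (FF N), 0 ≤ P.ord t → 0 ≤ P.ord u)
  (hu₁ : u ∈ pkgO₁ N A)
  {c₀ : Kb} (hc₀ : c₀ ∈ A.nonunits) (hc₀' : c₀ ≠ 0) (v : LaurentSeries Kb) (hv : KronInt A v)
  (huv : ((frickeAut N u : FF N) : LaurentSeries Kb) = HahnSeries.C c₀ * v)
  (hord : ¬ (N : ℤ) ∣ ((frickeAut N u : FF N) : LaurentSeries Kb).order)

include hN hA hB ht ht₁ hreg hu₁ hc₀ hc₀' hv huv hord in
/-- **PKG-minh, abstract form** -/
theorem pkgmh_isMin : PkgIsMin N A hB t (pkgRed₁ N A hB ⟨t, ht₁⟩) u := by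
  letI := polyAlgebra (K := Kb) t
  letI := polyAlgebraAdjoin (K := Kb) t
  haveI := polyAlgebraAdjoin_tower (K := Kb) t
  haveI hfin : FiniteDimensional Kb⟮t⟯ (FF N) :=
    FiniteDimensional.of_finrank_pos (by rw [ht.finrank]; omega)
  have hc₀A : c₀ ∈ A := A.nonunits_subset hc₀
  have hint : IsIntegral Kb[X] u := pkgtv_isIntegral N t ht.transc u hreg
  -- integrality of the expansions
  have hK₁ : KronInt A (u : LaurentSeries Kb) := by
    obtain ⟨p, hp, hpz⟩ := hint
    exact pkgtv_kronInt_gen N A hA _ ht.int₁ u p hp (pkgtv_eval₂_coe N t u p hpz) hu₁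
  have hK₂ : KronInt A ((frickeAut N u : FF N) : LaurentSeries Kb) := by
    rw [huv]
    exact (kronInt_C hc₀A).mul hv
  obtain ⟨ζ, hζ⟩ := pkgtv_exists_primitiveRoot N (NeZero.ne N)
  have hinj := pkgmh_fam_injective N hN ζ hζ u (pkgmh_fricke_ne_zero N u hord) hord
  have hgen := pkgmh_gen N hN ζ hζ t (ht.fam ζ hζ.pow_eq_one) ht.finrank u hinj
  -- the minimal polynomial over `ℚ̄[t]`
  set μ : Kb[X][X] := minpoly Kb[X] u with hμ
  have hμmon : μ.Monic := minpoly.monic hint
  have hμdeg : μ.natDegree = N + 1 := by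
    have h1 := pkgmh_natDegree N hN ζ hζ t (ht.fam ζ hζ.pow_eq_one) ht.finrank u hinj
    rw [pkgtv_minpoly_eq N t ht.transc u hint, hμmon.natDegree_map] at h1
    exact h1
  have hcoefA : ∀ n k, (μ.coeff n).coeff k ∈ A := fun n k =>
    ht.coeff _ (pkgtv_minpoly_kronInt N hN A t ht.transc ht.fam ht.finrank u hint hK₁ hK₂ n) k
  obtain ⟨m, hm, hmmon, hmdeg⟩ := pkgmh_lift A μ hμmon hcoefA
  rw [hμdeg] at hmdeg
  have hmcoef : ∀ n, (m.coeff n).map A.subtype = μ.coeff n := by
    intro n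
    rw [← hm, Polynomial.coeff_map]
    rfl
  refine ⟨hgen, m, -((m.coeff N).map (IsLocalRing.residue A)), hmmon, ?_, ?_, ?_⟩
  · -- `m(t, u) = 0`
    show pkgEv₂ Kb (FF N) t u (m.map (Polynomial.mapRingHom A.subtype)) = 0
    rw [hm]
    exact minpoly.aeval Kb[X] u
  · -- the reduction of `u`
    refine ⟨hu₁, ?_⟩
    obtain ⟨hpm, hpred⟩ := pkgmh_red_aeval N A hB t ht₁ (m.coeff N)
    rw [map_neg, ← hpred]
    -- `x = p(t) + u` is `c₀ ·` integral
    have htop := pkgmh_coeff_top N hN A t ht u hint hK₁ hc₀A hc₀' v hv huv hord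
    set y : FF N := algebraMap Kb (FF N) c₀⁻¹ *
      (Polynomial.aeval t ((m.coeff N).map A.subtype) + u) with hy
    have hyK : KronInt A (y : LaurentSeries Kb) := by
      rw [hy, pkgmh_coe_mul, pkgtv_coe_algebraMap, pkgmh_coe_add, pkgmh_coe_aeval, hmcoef]
      exact htop
    have hyO : y ∈ pkgO₁ N A := pkgmh_mem_of_kronInt N A y hyK
    have hcO : algebraMap Kb (FF N) c₀ ∈ pkgO₁ N A :=
      (pkg_algebraMap_mem_iff₁ N A hB c₀).mpr hc₀A
    have hsum : (⟨Polynomial.aeval t ((m.coeff N).map A.subtype), hpm⟩ : ↥(pkgO₁ N A)) +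
        ⟨u, hu₁⟩ = ⟨algebraMap Kb (FF N) c₀, hcO⟩ * ⟨y, hyO⟩ := by
      apply Subtype.ext
      show Polynomial.aeval t ((m.coeff N).map A.subtype) + u = algebraMap Kb (FF N) c₀ * y
      rw [hy, ← mul_assoc, ← map_mul, mul_inv_cancel₀ hc₀', map_one, one_mul]
    have hred0 : pkgRed₁ N A hB ⟨algebraMap Kb (FF N) c₀, hcO⟩ = 0 := by
      have h1 := pkg_red₁_algebraMap N A hB ⟨c₀, hc₀A⟩ hcO
      rw [h1, pkgmh_residue_eq_zero A hc₀ ⟨c₀, hc₀A⟩ 1 A.one_mem (by simp), map_zero]
    have h2 := congrArg (pkgRed₁ N A hB) hsum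
    rw [map_add, map_mul, hred0, zero_mul] at h2
    exact eq_neg_of_add_eq_zero_right h2
  · -- the reduction of `m`
    ext n : 1
    rw [Polynomial.coeff_map]
    have hrhs : ((X - C (-((m.coeff N).map (IsLocalRing.residue A)))) * X ^ N :
        (kA A)[X][X]).coeff n =
        (if n = N + 1 then 1 else 0) + (if n = N then (m.coeff N).map (IsLocalRing.residue A)
          else 0) := by
      rw [sub_mul, ← pow_succ', Polynomial.coeff_sub, Polynomial.coeff_X_pow,
        Polynomial.coeff_C_mul, Polynomial.coeff_X_pow]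
      split_ifs <;> simp
    rw [hrhs]
    rcases lt_trichotomy n N with hn | hn | hn
    · rw [if_neg (by omega), if_neg (by omega), add_zero]
      ext k
      rw [Polynomial.coe_mapRingHom, Polynomial.coeff_map, Polynomial.coeff_zero]
      obtain ⟨a, ha, hak⟩ := pkgmh_coeff_small N hN A t ht u hint hK₁ hc₀A hc₀' v hv huv hord
        n hn k
      refine pkgmh_residue_eq_zero A hc₀ _ a ha ?_
      rw [← hak, ← hmcoef n, Polynomial.coeff_map]
      rfl
    · subst hn
      rw [if_neg (by omega), if_pos rfl, zero_add]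
      rfl
    · rcases eq_or_lt_of_le (Nat.succ_le_of_lt hn) with h1 | h1
      · have h2 : n = N + 1 := h1.symm
        subst h2
        rw [if_pos rfl, if_neg (by omega), add_zero]
        have h3 : m.coeff (N + 1) = 1 := by
          have := hmmon.coeff_natDegree
          rwa [hmdeg] at this
        rw [h3, map_one]
      · rw [if_neg (by omega), if_neg (by omega), add_zero,
          Polynomial.coeff_eq_zero_of_natDegree_lt (by rw [hmdeg]; exact h1), map_zero]

end Main

end Fermat.Agent.S15.LN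

end
end ZBZ2S15_029_4
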