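/- GENERATED FILE (helper35, build-time optimisation, NOTES/ZB.md): verbatim concatenation of the modules
   Fermat.Agent.S15.LNBasic
   Fermat.Agent.S15.PkgOrthAbs
   Fermat.Agent.S15.PkgOrth
   Fermat.Agent.S15.LNRR
   Fermat.Agent.S15.LNDerived
   Fermat.Agent.S15.LNRR2
   Fermat.Agent.S15.LNOrth
   Fermat.Agent.S15.LNDivAux
   Fermat.Agent.S15.LNGlue
   Fermat.Agent.S15.LNDiv
   Fermat.Agent.S15.LNTorus
   Fermat.Agent.S15.LNQ
   Fermat.Agent.S15.LNLocDiv
   Fermat.Agent.S15.PkgRdivCore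
   Fermat.Agent.S15.PkgSimple
   Do not edit; do not import together with these modules. -/
import Fermat.Agent.ZB.W1_002
import Fermat.Agent.ZB.ES_020
import Fermat.Agent.ZB.Z2S15_024
import Fermat.Agent.ZB.ES_003
import Fermat.Agent.ZB.S15_001
import Fermat.Agent.ZB.RED_001
import Fermat.Agent.ZB.S05_002
import Fermat.Agent.ZB.Z2S15_029

/-! ### bundled: `Fermat.Agent.S15.LNBasic` -/
section ZBZ2S15_022_0

/-!
# S15 block LOCAL-N, piece LN-BASIC (helper5): basic API of the two-component package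

* values: `ln_hasValueAt_const/add/mul/smul/inv`, `ln_ord_eq_zero_of_value`;
* `ln_mem_princBar` : `princBar` is the set `IsPrincBar` (which is a subgroup);
* `ln_mem_Lbar` : `Lbar D` is the set of glued pairs of `L(r_{1*}D) × L(r_{2*}D)`;
* `ln_push₁_apply`, `ln_push₂_apply`, `ln_push₁_cross`, `ln_push₂_cross`;
* `ln_isPrincBar_of_biunit` : for `u ∈ O₁^× ∩ O₂^×` with divisor of smooth type,
  `(r_{1*}, r_{2*})(div u)` is principal on the nodal curve;
* `ln_mem_J0`, `ln_mem_J1`, `ln_J1_le_J0`, `ln_mk_eq_iff`.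
(`slope`, `onto`, `glue_unit` and their consequences are in `LNDerived.lean`.)
-/

set_option autoImplicit false

noncomputable section

open AlgebraicCurve Module

namespace Fermat.Agent.S15.LN

open Fermat.Agent.W1 Fermat.Agent.S24

open scoped Classical

/-! ### Values -/

section Values

variable {K F : Type} [Field K] [Field F] [Algebra K F]

theorem ln_nonunits_add {B : ValuationSubring F} {x y : F} (hx : x ∈ B.nonunits)
    (hy : y ∈ B.nonunits) : x + y ∈ B.nonunits := by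
  have h := ge_nonunits_sub hx (ge_nonunits_sub (ge_zero_mem_nonunits B) hy)
  have e : x - (0 - y) = x + y := by ring
  rwa [e] at h

theorem ln_hasValueAt_const (P : Place K F) (a : K) : HasValueAt P (algebraMap K F a) a :=
  hasValueAt_of_eq P (sub_self _)

theorem ln_hasValueAt_zero (P : Place K F) : HasValueAt P (0 : F) (0 : K) := by
  have h := ln_hasValueAt_const P (0 : K)
  rwa [map_zero] at h

theorem ln_hasValueAt_one (P : Place K F) : HasValueAt P (1 : F) (1 : K) := by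
  have h := ln_hasValueAt_const P (1 : K)
  rwa [map_one] at h

theorem ln_hasValueAt_add {P : Place K F} {f g : F} {a b : K} (hf : HasValueAt P f a)
    (hg : HasValueAt P g b) : HasValueAt P (f + g) (a + b) := by
  unfold HasValueAt at *
  have e : f + g - algebraMap K F (a + b) = (f - algebraMap K F a) + (g - algebraMap K F b) := by
    rw [map_add]; ring
  rw [e]
  exact ln_nonunits_add hf hg

theorem ln_hasValueAt_mul {P : Place K F} {f g : F} {a b : K} (hf : HasValueAt P f a)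
    (hg : HasValueAt P g b) : HasValueAt P (f * g) (a * b) := by
  have hgm : g ∈ P.toValuationSubring := HasValueAt.mem P hg
  unfold HasValueAt at *
  have e : f * g - algebraMap K F (a * b) =
      g * (f - algebraMap K F a) + algebraMap K F a * (g - algebraMap K F b) := by
    rw [map_mul]; ring
  rw [e]
  exact ln_nonunits_add (ge_nonunits_mul_mem hgm hf)
    (ge_nonunits_mul_mem (P.algebraMap_mem' a) hg)

theorem ln_hasValueAt_smul {P : Place K F} {f : F} {a : K} (c : K) (hf : HasValueAt P f a) :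
    HasValueAt P (c • f) (c * a) := by
  rw [Algebra.smul_def]
  exact ln_hasValueAt_mul (ln_hasValueAt_const P c) hf

theorem ln_not_nonunit_of_value {P : Place K F} {f : F} {a : K} (hf : HasValueAt P f a)
    (ha : a ≠ 0) : f ∉ P.toValuationSubring.nonunits := by
  intro h
  have h1 := ge_nonunits_sub h hf
  have e : f - (f - algebraMap K F a) = algebraMap K F a := by ring
  rw [e, ge_algebraMap_mem_nonunits_iff] at h1
  exact ha h1

theorem ln_inv_mem_of_value {P : Place K F} {f : F} {a : K} (hf : HasValueAt P f a)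
    (ha : a ≠ 0) : f⁻¹ ∈ P.toValuationSubring := by
  have h := ln_not_nonunit_of_value hf ha
  rw [ValuationSubring.mem_nonunits_iff_or, not_or, not_not] at h
  exact h.2

theorem ln_ne_zero_of_value {P : Place K F} {f : F} {a : K} (hf : HasValueAt P f a)
    (ha : a ≠ 0) : f ≠ 0 := by
  rintro rfl
  exact ln_not_nonunit_of_value hf ha (ge_zero_mem_nonunits _)

theorem ln_hasValueAt_inv {P : Place K F} {f : F} {a : K} (hf : HasValueAt P f a)
    (ha : a ≠ 0) : HasValueAt P f⁻¹ a⁻¹ := by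
  have hf0 := ln_ne_zero_of_value hf ha
  have hinv := ln_inv_mem_of_value hf ha
  have hA : algebraMap K F a ≠ 0 := (map_ne_zero _).mpr ha
  unfold HasValueAt at *
  have e : f⁻¹ - algebraMap K F a⁻¹ =
      (f⁻¹ * algebraMap K F a⁻¹) * ((0 : F) - (f - algebraMap K F a)) := by
    rw [map_inv₀]
    field_simp
    ring
  rw [e]
  exact ge_nonunits_mul_mem (mul_mem hinv (P.algebraMap_mem' _))
    (ge_nonunits_sub (ge_zero_mem_nonunits _) hf)

theorem ln_ord_eq_zero_of_value {P : Place K F} {f : F} {a : K} (hf : HasValueAt P f a)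
    (ha : a ≠ 0) : P.ord f = 0 := by
  have h1 := ge_ord_nonneg_of_mem P (HasValueAt.mem P hf)
  have h2 := ge_ord_nonneg_of_mem P (ln_inv_mem_of_value hf ha)
  rw [Place.ord_inv] at h2
  omega

theorem ln_ord_algebraMap (P : Place K F) {a : K} (ha : a ≠ 0) :
    P.ord (algebraMap K F a) = 0 :=
  ln_ord_eq_zero_of_value (ln_hasValueAt_const P a) ha

theorem ln_ord_const_mul (P : Place K F) {a : K} (ha : a ≠ 0) (u : F) :
    P.ord (algebraMap K F a * u) = P.ord u := by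
  rcases eq_or_ne u 0 with rfl | hu
  · simp
  · rw [Place.ord_mul _ ((map_ne_zero _).mpr ha) hu, ln_ord_algebraMap P ha, zero_add]

end Values

/-! ### The package -/

section TR

variable {K F k F₁ F₂ : Type} [Field K] [Field F] [Algebra K F] [Field k]
  [Field F₁] [Algebra k F₁] [Field F₂] [Algebra k F₂]
variable {A : ValuationSubring K} (R : TRData K F k F₁ F₂ A)

theorem ln_gluedUnit_glued {f₁ : F₁} {f₂ : F₂} (h : R.GluedUnit f₁ f₂) : R.Glued f₁ f₂ :=
  fun x hx => let ⟨a, _, h1, h2⟩ := h x hx; ⟨a, h1, h2⟩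

theorem ln_gluedUnit_one : R.GluedUnit (1 : F₁) (1 : F₂) :=
  fun x _ => ⟨1, one_ne_zero, ln_hasValueAt_one x.1, ln_hasValueAt_one x.2⟩

variable {R} in
theorem ln_gluedUnit_mul {f₁ g₁ : F₁} {f₂ g₂ : F₂} (hf : R.GluedUnit f₁ f₂)
    (hg : R.GluedUnit g₁ g₂) : R.GluedUnit (f₁ * g₁) (f₂ * g₂) := by
  intro x hx
  obtain ⟨a, ha, h1, h2⟩ := hf x hx
  obtain ⟨b, hb, h3, h4⟩ := hg x hx
  exact ⟨a * b, mul_ne_zero ha hb, ln_hasValueAt_mul h1 h3, ln_hasValueAt_mul h2 h4⟩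

variable {R} in
theorem ln_gluedUnit_inv {f₁ : F₁} {f₂ : F₂} (hf : R.GluedUnit f₁ f₂) :
    R.GluedUnit f₁⁻¹ f₂⁻¹ := by
  intro x hx
  obtain ⟨a, ha, h1, h2⟩ := hf x hx
  exact ⟨a⁻¹, inv_ne_zero ha, ln_hasValueAt_inv h1 ha, ln_hasValueAt_inv h2 ha⟩

theorem ln_glued_zero : R.Glued (0 : F₁) (0 : F₂) :=
  fun x _ => ⟨0, ln_hasValueAt_zero x.1, ln_hasValueAt_zero x.2⟩

variable {R} in
theorem ln_glued_add {f₁ g₁ : F₁} {f₂ g₂ : F₂} (hf : R.Glued f₁ f₂) (hg : R.Glued g₁ g₂) :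
    R.Glued (f₁ + g₁) (f₂ + g₂) := by
  intro x hx
  obtain ⟨a, h1, h2⟩ := hf x hx
  obtain ⟨b, h3, h4⟩ := hg x hx
  exact ⟨a + b, ln_hasValueAt_add h1 h3, ln_hasValueAt_add h2 h4⟩

variable {R} in
theorem ln_glued_smul (c : k) {f₁ : F₁} {f₂ : F₂} (hf : R.Glued f₁ f₂) :
    R.Glued (c • f₁) (c • f₂) := by
  intro x hx
  obtain ⟨a, h1, h2⟩ := hf x hx
  exact ⟨c * a, ln_hasValueAt_smul c h1, ln_hasValueAt_smul c h2⟩

/-! #### `princBar` -/

theorem ln_isPrincBar_zero : R.IsPrincBar 0 :=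
  ⟨1, 1, one_ne_zero, one_ne_zero, ln_gluedUnit_one R, fun Q => by simp, fun Q => by simp⟩

variable {R} in
theorem ln_isPrincBar_add {E E' : Divisor k F₁ × Divisor k F₂} (h : R.IsPrincBar E)
    (h' : R.IsPrincBar E') : R.IsPrincBar (E + E') := by
  obtain ⟨f₁, f₂, hf₁, hf₂, hg, h1, h2⟩ := h
  obtain ⟨g₁, g₂, hg₁, hg₂, hg', h3, h4⟩ := h'
  refine ⟨f₁ * g₁, f₂ * g₂, mul_ne_zero hf₁ hg₁, mul_ne_zero hf₂ hg₂, ln_gluedUnit_mul hg hg',
    fun Q => ?_, fun Q => ?_⟩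
  · rw [Prod.fst_add, Finsupp.add_apply, h1, h3, Q.ord_mul hf₁ hg₁]
  · rw [Prod.snd_add, Finsupp.add_apply, h2, h4, Q.ord_mul hf₂ hg₂]

variable {R} in
theorem ln_isPrincBar_neg {E : Divisor k F₁ × Divisor k F₂} (h : R.IsPrincBar E) :
    R.IsPrincBar (-E) := by
  obtain ⟨f₁, f₂, hf₁, hf₂, hg, h1, h2⟩ := h
  refine ⟨f₁⁻¹, f₂⁻¹, inv_ne_zero hf₁, inv_ne_zero hf₂, ln_gluedUnit_inv hg,
    fun Q => ?_, fun Q => ?_⟩
  · rw [Prod.fst_neg, Finsupp.neg_apply, h1, Q.ord_inv]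
  · rw [Prod.snd_neg, Finsupp.neg_apply, h2, Q.ord_inv]

theorem ln_mem_princBar {E : Divisor k F₁ × Divisor k F₂} :
    E ∈ R.princBar ↔ R.IsPrincBar E := by
  constructor
  · intro h
    unfold TRData.princBar at h
    induction h using AddSubgroup.closure_induction with
    | mem x hx => exact hx
    | zero => exact ln_isPrincBar_zero R
    | add x y _ _ hx hy => exact ln_isPrincBar_add hx hy
    | neg x _ hx => exact ln_isPrincBar_neg hx
  · intro h
    exact AddSubgroup.subset_closure h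

/-! #### `Lbar` -/

theorem ln_mem_Lbar {D : Divisor K F} {f : F₁ × F₂} :
    f ∈ R.Lbar D ↔ f.1 ∈ riemannRochSpace (R.push₁ D) ∧
      f.2 ∈ riemannRochSpace (R.push₂ D) ∧ R.Glued f.1 f.2 := by
  constructor
  · intro h
    unfold TRData.Lbar at h
    induction h using Submodule.span_induction with
    | mem x hx => exact hx
    | zero => exact ⟨Submodule.zero_mem _, Submodule.zero_mem _, ln_glued_zero R⟩
    | add x y _ _ hx hy =>
      exact ⟨Submodule.add_mem _ hx.1 hy.1, Submodule.add_mem _ hx.2.1 hy.2.1,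
        ln_glued_add hx.2.2 hy.2.2⟩
    | smul c x _ hx =>
      exact ⟨Submodule.smul_mem _ c hx.1, Submodule.smul_mem _ c hx.2.1,
        ln_glued_smul c hx.2.2⟩
  · intro h
    exact Submodule.subset_span h

/-! #### The push-forwards -/

theorem ln_pt₁_apply (P : Place K F) (n : ℤ) (Q : Place k F₁) :
    R.pt₁ P n Q = if R.r P = some (Sum.inl Q) then n else 0 := by
  unfold TRData.pt₁
  split
  · rename_i Q' hQ'
    rw [hQ', Finsupp.singleAddHom_apply, Finsupp.single_apply]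
    by_cases h : Q' = Q
    · subst h; simp
    · rw [if_neg h, if_neg]
      intro h'
      exact h (Sum.inl.inj (Option.some.inj h'))
  · rename_i h
    rw [if_neg]
    · rfl
    · intro h'
      exact h Q h'

theorem ln_pt₂_apply (P : Place K F) (n : ℤ) (Q : Place k F₂) :
    R.pt₂ P n Q = if R.r P = some (Sum.inr Q) then n else 0 := by
  unfold TRData.pt₂
  split
  · rename_i Q' hQ'
    rw [hQ', Finsupp.singleAddHom_apply, Finsupp.single_apply]
    by_cases h : Q' = Q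
    · subst h; simp
    · rw [if_neg h, if_neg]
      intro h'
      exact h (Sum.inr.inj (Option.some.inj h'))
  · rename_i h
    rw [if_neg]
    · rfl
    · intro h'
      exact h Q h'

theorem ln_push₁_apply (D : Divisor K F) (Q : Place k F₁) :
    R.push₁ D Q = ∑ P ∈ D.support, if R.r P = some (Sum.inl Q) then D P else 0 := by
  unfold TRData.push₁
  rw [Finsupp.liftAddHom_apply, Finsupp.sum, Finsupp.finsetSum_apply]
  exact Finset.sum_congr rfl fun P _ => ln_pt₁_apply R P (D P) Q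

theorem ln_push₂_apply (D : Divisor K F) (Q : Place k F₂) :
    R.push₂ D Q = ∑ P ∈ D.support, if R.r P = some (Sum.inr Q) then D P else 0 := by
  unfold TRData.push₂
  rw [Finsupp.liftAddHom_apply, Finsupp.sum, Finsupp.finsetSum_apply]
  exact Finset.sum_congr rfl fun P _ => ln_pt₂_apply R P (D P) Q

variable {R} in
theorem ln_push₁_cross (hR : R.IsTR) (D : Divisor K F) {x : Place k F₁ × Place k F₂}
    (hx : x ∈ R.X) : R.push₁ D x.1 = 0 := by
  rw [ln_push₁_apply]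
  refine Finset.sum_eq_zero fun P _ => ?_
  rw [if_neg]
  intro h
  exact hR.cross₁ P x.1 h x hx rfl

variable {R} in
theorem ln_push₂_cross (hR : R.IsTR) (D : Divisor K F) {x : Place k F₁ × Place k F₂}
    (hx : x ∈ R.X) : R.push₂ D x.2 = 0 := by
  rw [ln_push₂_apply]
  refine Finset.sum_eq_zero fun P _ => ?_
  rw [if_neg]
  intro h
  exact hR.cross₂ P x.2 h x hx rfl

/-! #### Units at both Gauss valuations -/

variable {R} in
theorem ln_inv_mem₁ (hR : R.IsTR) {u : F} (h₁ : u ∈ R.O₁) (hu : R.red₁ ⟨u, h₁⟩ ≠ 0) :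
    u⁻¹ ∈ R.O₁ := by
  have h := mt (hR.red₁_eq_zero_iff ⟨u, h₁⟩).mpr hu
  rw [ValuationSubring.mem_nonunits_iff_or, not_or, not_not] at h
  exact h.2

variable {R} in
theorem ln_inv_mem₂ (hR : R.IsTR) {u : F} (h₂ : u ∈ R.O₂) (hu : R.red₂ ⟨u, h₂⟩ ≠ 0) :
    u⁻¹ ∈ R.O₂ := by
  have h := mt (hR.red₂_eq_zero_iff ⟨u, h₂⟩).mpr hu
  rw [ValuationSubring.mem_nonunits_iff_or, not_or, not_not] at h
  exact h.2

variable {R} in
theorem ln_ne_zero₁ (hR : R.IsTR) {u : F} (h₁ : u ∈ R.O₁) (hu : R.red₁ ⟨u, h₁⟩ ≠ 0) :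
    u ≠ 0 := by
  rintro rfl
  exact hu ((hR.red₁_eq_zero_iff _).mpr (ge_zero_mem_nonunits _))

variable {R} in
theorem ln_red₁_inv (hR : R.IsTR) {u : F} (h₁ : u ∈ R.O₁) (hu : R.red₁ ⟨u, h₁⟩ ≠ 0)
    (h₁' : u⁻¹ ∈ R.O₁) : R.red₁ ⟨u⁻¹, h₁'⟩ = (R.red₁ ⟨u, h₁⟩)⁻¹ := by
  have hu0 := ln_ne_zero₁ hR h₁ hu
  have e : (⟨u, h₁⟩ : R.O₁) * ⟨u⁻¹, h₁'⟩ = 1 := Subtype.ext (mul_inv_cancel₀ hu0)
  have h := congrArg R.red₁ e
  rw [map_mul, map_one] at h
  exact eq_inv_of_mul_eq_one_right h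

variable {R} in
theorem ln_ne_zero₂ (hR : R.IsTR) {u : F} (h₂ : u ∈ R.O₂) (hu : R.red₂ ⟨u, h₂⟩ ≠ 0) :
    u ≠ 0 := by
  rintro rfl
  exact hu ((hR.red₂_eq_zero_iff _).mpr (ge_zero_mem_nonunits _))

variable {R} in
theorem ln_red₂_inv (hR : R.IsTR) {u : F} (h₂ : u ∈ R.O₂) (hu : R.red₂ ⟨u, h₂⟩ ≠ 0)
    (h₂' : u⁻¹ ∈ R.O₂) : R.red₂ ⟨u⁻¹, h₂'⟩ = (R.red₂ ⟨u, h₂⟩)⁻¹ := by
  have hu0 := ln_ne_zero₂ hR h₂ hu
  have e : (⟨u, h₂⟩ : R.O₂) * ⟨u⁻¹, h₂'⟩ = 1 := Subtype.ext (mul_inv_cancel₀ hu0)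
  have h := congrArg R.red₂ e
  rw [map_mul, map_one] at h
  exact eq_inv_of_mul_eq_one_right h

variable {R} in
/-- a unit at both Gauss valuations whose zeros and poles are of smooth type reduces to a
glued unit -/
theorem ln_gluedUnit_of_biunit (hR : R.IsTR) {u : F} (h₁ : u ∈ R.O₁) (h₂ : u ∈ R.O₂)
    (hu₁ : R.red₁ ⟨u, h₁⟩ ≠ 0) (hu₂ : R.red₂ ⟨u, h₂⟩ ≠ 0)
    (hsm : ∀ P : Place K F, P.ord u ≠ 0 → (R.r P).isSome) :
    R.GluedUnit (R.red₁ ⟨u, h₁⟩) (R.red₂ ⟨u, h₂⟩) := by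
  intro x hx
  have hi₁ := ln_inv_mem₁ hR h₁ hu₁
  have hi₂ := ln_inv_mem₂ hR h₂ hu₂
  obtain ⟨a, ha1, ha2⟩ := hR.glue u h₁ h₂ (fun P hP => hsm P (ne_of_lt hP)) x hx
  obtain ⟨b, hb1, hb2⟩ := hR.glue u⁻¹ hi₁ hi₂ (fun P hP => hsm P (by
    rw [Place.ord_inv] at hP
    intro h0
    rw [h0] at hP
    exact absurd hP (by simp))) x hx
  rw [ln_red₁_inv hR h₁ hu₁] at hb1
  have hprod := ln_hasValueAt_mul ha1 hb1
  rw [mul_inv_cancel₀ hu₁] at hprod
  have hab : a * b = 1 := hasValueAt_unique x.1 hprod (ln_hasValueAt_one x.1)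
  exact ⟨a, left_ne_zero_of_mul_eq_one hab, ha1, ha2⟩

variable {R} in
/-- **`r_*(div u) = div(ū)` on the nodal curve**, for `u` a unit at both Gauss valuations whose
divisor is of smooth type -/
theorem ln_isPrincBar_of_biunit (hR : R.IsTR) {u : F} (h₁ : u ∈ R.O₁) (h₂ : u ∈ R.O₂)
    (hu₁ : R.red₁ ⟨u, h₁⟩ ≠ 0) (hu₂ : R.red₂ ⟨u, h₂⟩ ≠ 0) (D : Divisor K F)
    (hD : ∀ P, D P = P.ord u) (hsm : D ∈ R.smDiv) :
    R.IsPrincBar (R.push₁ D, R.push₂ D) := by
  have hg := ln_gluedUnit_of_biunit hR h₁ h₂ hu₁ hu₂ (fun P hP => hsm P (by rwa [hD]))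
  refine ⟨R.red₁ ⟨u, h₁⟩, R.red₂ ⟨u, h₂⟩, hu₁, hu₂, hg, fun Q => ?_, fun Q => ?_⟩
  · by_cases hQ : ∀ x ∈ R.X, x.1 ≠ Q
    · exact hR.r_div₁ ⟨u, h₁⟩ hu₁ D hD Q hQ
    · push Not at hQ
      obtain ⟨x, hx, rfl⟩ := hQ
      obtain ⟨a, ha, h1, -⟩ := hg x hx
      show R.push₁ D x.1 = _
      rw [ln_push₁_cross hR D hx, ln_ord_eq_zero_of_value h1 ha]
  · by_cases hQ : ∀ x ∈ R.X, x.2 ≠ Q
    · exact hR.r_div₂ ⟨u, h₂⟩ hu₂ D hD Q hQ
    · push Not at hQ
      obtain ⟨x, hx, rfl⟩ := hQ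
      obtain ⟨a, ha, -, h2⟩ := hg x hx
      show R.push₂ D x.2 = _
      rw [ln_push₂_cross hR D hx, ln_ord_eq_zero_of_value h2 ha]

/-! #### `div00`, `div1`, `J0`, `J1` -/

theorem ln_mem_div00 {D : Divisor K F} :
    D ∈ R.div00 ↔ D ∈ R.smDiv ∧ Divisor.degree (R.push₁ D) = 0 ∧
      Divisor.degree (R.push₂ D) = 0 := by
  unfold TRData.div00
  rw [AddSubgroup.mem_inf, AddSubgroup.mem_inf, AddMonoidHom.mem_ker, AddMonoidHom.mem_ker,
    AddMonoidHom.comp_apply, AddMonoidHom.comp_apply, and_assoc]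

theorem ln_mem_div1 {D : Divisor K F} :
    D ∈ R.div1 ↔ D ∈ R.div00 ∧ R.IsPrincBar (R.push₁ D, R.push₂ D) := by
  unfold TRData.div1
  rw [AddSubgroup.mem_inf, AddSubgroup.mem_comap, ln_mem_princBar]
  rfl

theorem ln_div1_le_div00 : R.div1 ≤ R.div00 := fun _ h => ((ln_mem_div1 R).mp h).1

theorem ln_mem_J0 {x : Pic0 K F} :
    x ∈ R.J0 ↔ ∃ D : Divisor.degZero (K := K) (F := F),
      (D : Divisor K F) ∈ R.div00 ∧ Pic0.mk D = x := by
  unfold TRData.J0
  rw [AddSubgroup.mem_map]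
  rfl

theorem ln_mem_J1 {x : Pic0 K F} :
    x ∈ R.J1 ↔ ∃ D : Divisor.degZero (K := K) (F := F),
      (D : Divisor K F) ∈ R.div1 ∧ Pic0.mk D = x := by
  unfold TRData.J1
  rw [AddSubgroup.mem_map]
  rfl

theorem ln_J1_le_J0 : R.J1 ≤ R.J0 := by
  intro x hx
  obtain ⟨D, hD, rfl⟩ := (ln_mem_J1 R).mp hx
  exact (ln_mem_J0 R).mpr ⟨D, ln_div1_le_div00 R hD, rfl⟩

theorem ln_mk_eq_iff {D D' : Divisor.degZero (K := K) (F := F)} :
    Pic0.mk D = Pic0.mk D' ↔
      ((D' : Divisor K F) - (D : Divisor K F)) ∈ Divisor.principal (K := K) (F := F) := by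
  unfold Pic0.mk
  rw [QuotientAddGroup.eq, AddSubgroup.mem_addSubgroupOf]
  have e : ((-D + D' : Divisor.degZero (K := K) (F := F)) : Divisor K F) =
      (D' : Divisor K F) - (D : Divisor K F) := by
    rw [AddSubgroup.coe_add, AddSubgroup.coe_neg]; abel
  rw [e]

end TR

end Fermat.Agent.S15.LN

end
end ZBZ2S15_022_0

/-! ### bundled: `Fermat.Agent.S15.PkgOrthAbs` -/
section ZBZ2S15_022_1

/-!
# S15 / LOCAL-N / LN-PKG, piece PKG-orth (2): `Orth` from `IsTR` and (Q2) for the max-norm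

`pkgorth_of_isTR`: for a two-component reduction package `R` with `R.IsTR`, principal divisors,
finite-dimensional Riemann–Roch spaces, and (Q2) for the norm `max (|·|₁, |·|₂)` (every linearly
independent family can be replaced by a linearly independent family in its span, integral at both
Gauss valuations, whose pairs of reductions are linearly independent), the property `R.Orth`
holds: the reductions lie in the glued space `L̄(r_* D)` by `r_div₁`, `r_div₂` (at the smooth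
points) and `glue` (at the crossing points).
-/

set_option autoImplicit false

noncomputable section

open AlgebraicCurve Module

namespace Fermat.Agent.S15.LN

open Fermat.Agent.W1 Fermat.Agent.S24

open scoped Classical

variable {K F k F₁ F₂ : Type} [Field K] [Field F] [Algebra K F] [Field k]
  [Field F₁] [Algebra k F₁] [Field F₂] [Algebra k F₂] {A : ValuationSubring K}
  (R : TRData K F k F₁ F₂ A)

/-- (Q2) for the norm `max (|·|₁, |·|₂)` -/
def TRData.Q2max (R : TRData K F k F₁ F₂ A) : Prop :=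
  ∀ (r : ℕ) (a : Fin r → F), LinearIndependent K a →
    ∃ (b : Fin r → F) (h₁ : ∀ i, b i ∈ R.O₁) (h₂ : ∀ i, b i ∈ R.O₂),
      (∀ i, b i ∈ Submodule.span K (Set.range a)) ∧ LinearIndependent K b ∧
        LinearIndependent k (fun i => ((R.red₁ ⟨b i, h₁ i⟩, R.red₂ ⟨b i, h₂ i⟩) : F₁ × F₂))

theorem pkgorth_push₁_nonneg (D : Divisor K F) (hD : ∀ P, 0 ≤ D P) (Q : Place k F₁) :
    0 ≤ R.push₁ D Q := by
  rw [ln_push₁_apply]
  refine Finset.sum_nonneg fun P _ => ?_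
  split_ifs
  · exact hD P
  · exact le_rfl

theorem pkgorth_push₂_nonneg (D : Divisor K F) (hD : ∀ P, 0 ≤ D P) (Q : Place k F₂) :
    0 ≤ R.push₂ D Q := by
  rw [ln_push₂_apply]
  refine Finset.sum_nonneg fun P _ => ?_
  split_ifs
  · exact hD P
  · exact le_rfl

theorem pkgorth_ord_nonneg_of_value {k' F' : Type} [Field k'] [Field F'] [Algebra k' F']
    {Q : Place k' F'} {f : F'} {a : k'} (h : HasValueAt Q f a) : 0 ≤ Q.ord f := by
  exact ge_ord_nonneg_of_mem Q (HasValueAt.mem Q h)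

variable {R}

/-- the first reduction of an element of `L(D)`, `D` of smooth type, lies in `L(r_{1*} D)` -/
theorem pkgorth_red₁_mem (hR : R.IsTR) (hpd : HasPrincipalDivisors K F) {D : Divisor K F}
    (hD : D ∈ R.smDiv) {e : F} (he : e ∈ riemannRochSpace D) (h₁ : e ∈ R.O₁) (h₂ : e ∈ R.O₂) :
    R.red₁ ⟨e, h₁⟩ ∈ riemannRochSpace (R.push₁ D) := by
  rw [mem_riemannRochSpace_iff] at he ⊢
  intro Q
  by_cases h0 : R.red₁ ⟨e, h₁⟩ = 0
  · exact Or.inl h0
  right
  have he0 : e ≠ 0 := by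
    rintro rfl
    exact h0 (map_zero R.red₁)
  by_cases hQ : ∃ x ∈ R.X, x.1 = Q
  · obtain ⟨x, hx, rfl⟩ := hQ
    rw [ln_push₁_cross hR D hx, neg_zero]
    have hpoles : ∀ P : Place K F, P.ord e < 0 → (R.r P).isSome := by
      intro P hP
      apply hD P
      intro hDP
      rcases he P with h | h
      · exact he0 h
      · rw [hDP] at h
        omega
    obtain ⟨a, ha, -⟩ := hR.glue e h₁ h₂ hpoles x hx
    exact pkgorth_ord_nonneg_of_value ha
  · have hQ' : ∀ x ∈ R.X, x.1 ≠ Q := fun x hx h => hQ ⟨x, hx, h⟩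
    obtain ⟨E, hE, -⟩ := HasPrincipalDivisors.exists_divisor (K := K) e he0
    have h1 := hR.r_div₁ ⟨e, h₁⟩ h0 E hE Q hQ'
    have h2 : 0 ≤ R.push₁ (E + D) Q := by
      apply pkgorth_push₁_nonneg
      intro P
      rw [Finsupp.add_apply, hE]
      rcases he P with h | h
      · exact absurd h he0
      · omega
    rw [map_add, Finsupp.add_apply, h1] at h2
    omega

/-- the second reduction of an element of `L(D)`, `D` of smooth type, lies in `L(r_{2*} D)` -/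
theorem pkgorth_red₂_mem (hR : R.IsTR) (hpd : HasPrincipalDivisors K F) {D : Divisor K F}
    (hD : D ∈ R.smDiv) {e : F} (he : e ∈ riemannRochSpace D) (h₁ : e ∈ R.O₁) (h₂ : e ∈ R.O₂) :
    R.red₂ ⟨e, h₂⟩ ∈ riemannRochSpace (R.push₂ D) := by
  rw [mem_riemannRochSpace_iff] at he ⊢
  intro Q
  by_cases h0 : R.red₂ ⟨e, h₂⟩ = 0
  · exact Or.inl h0
  right
  have he0 : e ≠ 0 := by
    rintro rfl
    exact h0 (map_zero R.red₂)
  by_cases hQ : ∃ x ∈ R.X, x.2 = Q
  · obtain ⟨x, hx, rfl⟩ := hQ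
    rw [ln_push₂_cross hR D hx, neg_zero]
    have hpoles : ∀ P : Place K F, P.ord e < 0 → (R.r P).isSome := by
      intro P hP
      apply hD P
      intro hDP
      rcases he P with h | h
      · exact he0 h
      · rw [hDP] at h
        omega
    obtain ⟨a, -, ha⟩ := hR.glue e h₁ h₂ hpoles x hx
    exact pkgorth_ord_nonneg_of_value ha
  · have hQ' : ∀ x ∈ R.X, x.2 ≠ Q := fun x hx h => hQ ⟨x, hx, h⟩
    obtain ⟨E, hE, -⟩ := HasPrincipalDivisors.exists_divisor (K := K) e he0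
    have h1 := hR.r_div₂ ⟨e, h₂⟩ h0 E hE Q hQ'
    have h2 : 0 ≤ R.push₂ (E + D) Q := by
      apply pkgorth_push₂_nonneg
      intro P
      rw [Finsupp.add_apply, hE]
      rcases he P with h | h
      · exact absurd h he0
      · omega
    rw [map_add, Finsupp.add_apply, h1] at h2
    omega

/-- the pair of reductions of an element of `L(D)`, `D` of smooth type, lies in `L̄(r_* D)` -/
theorem pkgorth_red_mem_Lbar (hR : R.IsTR) (hpd : HasPrincipalDivisors K F) {D : Divisor K F}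
    (hD : D ∈ R.smDiv) {e : F} (he : e ∈ riemannRochSpace D) (h₁ : e ∈ R.O₁) (h₂ : e ∈ R.O₂) :
    ((R.red₁ ⟨e, h₁⟩, R.red₂ ⟨e, h₂⟩) : F₁ × F₂) ∈ R.Lbar D := by
  rw [ln_mem_Lbar]
  refine ⟨pkgorth_red₁_mem hR hpd hD he h₁ h₂, pkgorth_red₂_mem hR hpd hD he h₁ h₂, ?_⟩
  apply hR.glue e h₁ h₂
  intro P hP
  apply hD P
  intro hDP
  rw [mem_riemannRochSpace_iff] at he
  rcases he P with h | h
  · rw [h, Place.ord_zero] at hP
    omega
  · rw [hDP] at h
    omega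

/-- **PKG-orth, abstract form**: `IsTR` and (Q2) for the max-norm give `Orth`. -/
theorem pkgorth_of_isTR (hR : R.IsTR) (hpd : HasPrincipalDivisors K F)
    (hfin : ∀ D : Divisor K F, Module.Finite K ↥(riemannRochSpace D)) (hQ2 : R.Q2max) :
    R.Orth := by
  intro D hD
  have := hfin D
  let B := Module.finBasis K ↥(riemannRochSpace D)
  let a : Fin (Module.finrank K ↥(riemannRochSpace D)) → F := fun i => ((B i : _) : F)
  have ha : LinearIndependent K a :=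
    B.linearIndependent.map' (riemannRochSpace D).subtype (Submodule.ker_subtype _)
  have haspan : Submodule.span K (Set.range a) = riemannRochSpace D := by
    have h1 : Set.range a = (riemannRochSpace D).subtype '' Set.range B := by
      ext x
      constructor
      · rintro ⟨i, rfl⟩
        exact ⟨B i, ⟨i, rfl⟩, rfl⟩
      · rintro ⟨_, ⟨i, rfl⟩, rfl⟩
        exact ⟨i, rfl⟩
    rw [h1, Submodule.span_image, B.span_eq, Submodule.map_top, Submodule.range_subtype]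
  obtain ⟨b, h₁, h₂, hbspan, hbli, hred⟩ := hQ2 _ a ha
  have hbL : ∀ i, b i ∈ riemannRochSpace D := fun i => haspan ▸ hbspan i
  refine ⟨_, b, h₁, h₂, ?_, hred, fun i => pkgorth_red_mem_Lbar hR hpd hD (hbL i) (h₁ i) (h₂ i)⟩
  -- `b` spans `L(D)`: `n` independent vectors in a space of dimension `n`
  apply le_antisymm
  · rw [Submodule.span_le]
    rintro _ ⟨i, rfl⟩
    exact hbL i
  · let b' : Fin (Module.finrank K ↥(riemannRochSpace D)) → ↥(riemannRochSpace D) :=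
      fun i => ⟨b i, hbL i⟩
    have hb'li : LinearIndependent K b' := by
      apply LinearIndependent.of_comp (riemannRochSpace D).subtype
      exact hbli
    have hb'span : Submodule.span K (Set.range b') = ⊤ :=
      hb'li.span_eq_top_of_card_eq_finrank' (by simp)
    intro x hx
    have hx' : (⟨x, hx⟩ : ↥(riemannRochSpace D)) ∈ Submodule.span K (Set.range b') := by
      rw [hb'span]
      exact Submodule.mem_top
    have h3 := Submodule.apply_mem_span_image_of_mem_span (riemannRochSpace D).subtype hx'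
    have h4 : (riemannRochSpace D).subtype '' Set.range b' = Set.range b := by
      ext y
      constructor
      · rintro ⟨_, ⟨i, rfl⟩, rfl⟩
        exact ⟨i, rfl⟩
      · rintro ⟨i, rfl⟩
        exact ⟨b' i, ⟨i, rfl⟩, rfl⟩
    rw [h4] at h3
    exact h3

end Fermat.Agent.S15.LN

end
end ZBZ2S15_022_1

/-! ### bundled: `Fermat.Agent.S15.PkgOrth` -/
section ZBZ2S15_022_2

/-!
# S15 / LOCAL-N / LN-PKG, piece PKG-orth (3): `StmtPkgOrth` from the axioms `IsTR` of the package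

* `pkgo_coe_red₁`, `pkgo_coe_red₂` : the reductions of the package as Laurent series (`GaussRed`);
* `pkgo_q2max` : (Q2) for the max-norm holds for `pkgTR N A hB` (no hypothesis);
* `pkgo_orth_of_isTR` : `(pkgTR N A hB).IsTR → (pkgTR N A hB).Orth`;
* `stmtPkgOrth_of_isTR` : `StmtPkgOrth` from `IsTR` at all `(N, A)`.
-/

set_option autoImplicit false
set_option linter.unusedSectionVars false

noncomputable section

open AlgebraicCurve Module ModularCurve

namespace Fermat.Agent.S15.LN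

open Fermat.Agent.W1 Fermat.Agent.S24 Fermat.Agent.S15 Fermat.Agent.ES.M Fermat.Agent.DEU
  Fermat.Agent.INJ

variable (N : ℕ) [NeZero N] (A : ValuationSubring Kb)

theorem pkgo_coe_equivOfEq {k E : Type*} [Field k] [Field E] [Algebra k E]
    {S T : IntermediateField k E} (h : S = T) (x : S) :
    ((IntermediateField.equivOfEq h x : T) : E) = x := rfl

theorem pkgo_red₁_eq (hB : PkgBase N A) (y : pkgO₁ N A) :
    pkgRed₁ N A hB y = IntermediateField.equivOfEq hB.fieldEq (deuValRed N A hB.redF y) := rfl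

/-- the first reduction, as a Laurent series, is the Gauss reduction at level `N` -/
theorem pkgo_coe_red₁_eq (hB : PkgBase N A) (y : pkgO₁ N A) :
    ((pkgRed₁ N A hB y : FFk A) : LaurentSeries (kA A)) =
      ((deuValRed N A hB.redF y : ↥(modularFunctionFieldFullC (kA A) N)) :
        LaurentSeries (kA A)) := by
  rw [pkgo_red₁_eq]
  exact pkgo_coe_equivOfEq _ _

/-- the first reduction as a Laurent series -/
theorem pkgo_coe_red₁ (hB : PkgBase N A) {x : FF N} (h : x ∈ pkgO₁ N A)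
    {w : LaurentSeries (kA A)} (hw : GaussRed N A x w) :
    ((pkgRed₁ N A hB ⟨x, h⟩ : FFk A) : LaurentSeries (kA A)) = w := by
  obtain ⟨h', hw'⟩ := (deuValRed_iff N A hB.redF x w).mp hw
  rw [pkgo_coe_red₁_eq]
  exact hw'

/-- the first reduction is a Gauss reduction -/
theorem pkgo_gaussRed_red₁ (hB : PkgBase N A) {x : FF N} (h : x ∈ pkgO₁ N A) :
    GaussRed N A x ((pkgRed₁ N A hB ⟨x, h⟩ : FFk A) : LaurentSeries (kA A)) := by
  rw [pkgo_coe_red₁_eq]
  exact (deuValRed_iff N A hB.redF x _).mpr ⟨h, rfl⟩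

theorem pkgo_red₂_eq (hB : PkgBase N A) {x : FF N} (h : x ∈ pkgO₂ N A) :
    pkgRed₂ N A hB ⟨x, h⟩ = pkgRed₁ N A hB ⟨frickeAut N x, h⟩ := rfl

/-- the second reduction as a Laurent series -/
theorem pkgo_coe_red₂ (hB : PkgBase N A) {x : FF N} (h : x ∈ pkgO₂ N A)
    {w : LaurentSeries (kA A)} (hw : GaussRed N A (frickeAut N x) w) :
    ((pkgRed₂ N A hB ⟨x, h⟩ : FFk A) : LaurentSeries (kA A)) = w := by
  rw [pkgo_red₂_eq]
  exact pkgo_coe_red₁ N A hB (x := frickeAut N x) h hw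

/-- the second reduction is a Gauss reduction of `w_N x` -/
theorem pkgo_gaussRed_red₂ (hB : PkgBase N A) {x : FF N} (h : x ∈ pkgO₂ N A) :
    GaussRed N A (frickeAut N x) ((pkgRed₂ N A hB ⟨x, h⟩ : FFk A) : LaurentSeries (kA A)) := by
  rw [pkgo_red₂_eq]
  exact pkgo_gaussRed_red₁ N A hB (x := frickeAut N x) h

/-- the scalar multiplication of `F̄` as a product of Laurent series -/
theorem pkgo_coe_smul (c : kA A) (x : FFk A) :
    ((c • x : FFk A) : LaurentSeries (kA A)) = HahnSeries.C c * (x : LaurentSeries (kA A)) := by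
  rw [Algebra.smul_def, ← algebraMap_eq_hahnC]
  rfl

theorem pkgo_coe_sum_smul {r : ℕ} (g : Fin r → kA A) (x : Fin r → FFk A) :
    ((∑ i, g i • x i : FFk A) : LaurentSeries (kA A)) =
      ∑ i, HahnSeries.C (g i) * (x i : LaurentSeries (kA A)) := by
  rw [IntermediateField.coe_sum]
  exact Finset.sum_congr rfl fun i _ => pkgo_coe_smul A (g i) (x i)

/-- **(Q2) for the max-norm of the package** -/
theorem pkgo_q2max (hB : PkgBase N A) : (pkgTR N A hB).Q2max := by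
  intro r a ha
  obtain ⟨b, w₁, w₂, hbspan, hbli, hG₁, hG₂, hw⟩ :=
    pkgq2_main N A ((frickeAut N : FF N ≃ₐ[Kb] FF N).toLinearMap) r a ha
  have h₁ : ∀ i, b i ∈ pkgO₁ N A := fun i => ⟨w₁ i, hG₁ i⟩
  have h₂ : ∀ i, b i ∈ pkgO₂ N A := fun i => ⟨w₂ i, hG₂ i⟩
  refine ⟨b, h₁, h₂, hbspan, hbli, ?_⟩
  rw [Fintype.linearIndependent_iff]
  intro g hg
  apply Fintype.linearIndependent_iff.mp hw g
  have hg₁ : ∑ i, g i • pkgRed₁ N A hB ⟨b i, h₁ i⟩ = 0 := by
    have := congrArg Prod.fst hg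
    rw [Prod.fst_sum] at this
    exact this
  have hg₂ : ∑ i, g i • pkgRed₂ N A hB ⟨b i, h₂ i⟩ = 0 := by
    have := congrArg Prod.snd hg
    rw [Prod.snd_sum] at this
    exact this
  have hc₁ := congrArg (fun z : FFk A => (z : LaurentSeries (kA A))) hg₁
  have hc₂ := congrArg (fun z : FFk A => (z : LaurentSeries (kA A))) hg₂
  simp only [pkgo_coe_sum_smul] at hc₁ hc₂
  have hz : (((0 : FFk A) : FFk A) : LaurentSeries (kA A)) = 0 := rfl
  rw [hz] at hc₁ hc₂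
  apply Prod.ext
  · rw [Prod.fst_sum]
    show ∑ i, g i • w₁ i = 0
    rw [← hc₁]
    refine Finset.sum_congr rfl fun i _ => ?_
    rw [pkgo_coe_red₁ N A hB (h₁ i) (hG₁ i), HahnSeries.C_mul_eq_smul]
  · rw [Prod.snd_sum]
    show ∑ i, g i • w₂ i = 0
    rw [← hc₂]
    refine Finset.sum_congr rfl fun i _ => ?_
    rw [pkgo_coe_red₂ N A hB (h₂ i) (hG₂ i), HahnSeries.C_mul_eq_smul]

/-- **PKG-orth** for the package, from its axioms `IsTR` -/
theorem pkgo_orth_of_isTR (hB : PkgBase N A) (hTR : (pkgTR N A hB).IsTR) :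
    (pkgTR N A hB).Orth :=
  pkgorth_of_isTR hTR (Fermat.Agent.ES.H.hasPrincipalDivisors_FF N) (lw_rr_finite N)
    (pkgo_q2max N A hB)

/-- **PKG-orth**: `StmtPkgOrth` from the axioms `IsTR` of the package at all `(N, A)`. -/
theorem stmtPkgOrth_of_isTR
    (h : ∀ (N : ℕ) [NeZero N], N.Prime → 5 ≤ N → ∀ A : ValuationSubring Kb,
      A.LiesOverPrime N → ∀ hB : PkgBase N A, (pkgTR N A hB).IsTR) : StmtPkgOrth :=
  fun N _ hN h5 A hA hB => pkgo_orth_of_isTR N A hB (h N hN h5 A hA hB)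

end Fermat.Agent.S15.LN

end
end ZBZ2S15_022_2

/-! ### bundled: `Fermat.Agent.S15.LNRR` -/
section ZBZ2S15_022_3

/-!
# S15 block LOCAL-N, piece LN-RR (helper10): Riemann–Roch on the nodal curve

`k` a field, `F₁`, `F₂` two function fields of genus `0` over `k` (`IsNiceCurve k F_i 0`),
`X` a finite set of pairs (point of `C₁`, point of `C₂`): the crossing points of the nodal curve
`C₁ ∪ C₂`, of arithmetic genus `g = #X − 1`.

* `lnVal P f` : the value of `f` at the place `P` (`0` if `f` has a pole);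
  `lnEvalRR` : evaluation at `P` as a linear form on `L(E)`, `E P ≤ 0`.
* `ln_rr_finrank_genus0` : `dim L(E) = deg E + 1` for `deg E ≥ −1` on a curve of genus `0`.
* `ln_rr_mem_sub_gpSum` : `L(E − ΣS)` = the functions of `L(E)` vanishing on `S`.
* `ln_rr_interp` : **Lagrange interpolation** on a curve of genus `0`: prescribed values on `S`
  inside `L(E)`, if `E = 0` on `S` and `#S ≤ deg E + 1`.
* `lnLbar X E₁ E₂` : the glued Riemann–Roch space `L̄(E₁, E₂)`; `ln_rr_Lbar_eq` :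
  `R.Lbar D = lnLbar R.X (r_{1*} D) (r_{2*} D)`.
* `IsNodal X g` : the hypotheses; `ln_rr_isNodal` : they hold for `R.IsToric g`.
* `ln_rr_finite`, `ln_rr_lower` : `deg E₁ + deg E₂ + 1 − g ≤ dim L̄(E)` (`E` away from `X`);
* `ln_rr_upper₁`, `ln_rr_upper₂`, `ln_rr_finrank₁`, `ln_rr_finrank₂` : equality if
  `deg E₁ ≥ g`, `deg E₂ ≥ −1` (resp. with the components exchanged).
-/

set_option autoImplicit false
set_option linter.unusedSectionVars false
set_option linter.unusedVariables false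
set_option linter.style.haveILetI false

noncomputable section

open AlgebraicCurve Module

namespace Fermat.Agent.S15.LN

open Fermat.Agent.W1 Fermat.Agent.S24 Fermat.Agent.ES.R

open scoped Classical

/-! ### One curve -/

section Curve

variable {k F : Type} [Field k] [Field F] [Algebra k F]

theorem ln_rr_single_nonneg (v₀ : Place k F) (n : ℕ) :
    (0 : Divisor k F) ≤ Finsupp.single v₀ (n : ℤ) := by
  rw [Finsupp.le_def]
  intro v
  by_cases hv : v = v₀
  · subst hv; simp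
  · simp [Finsupp.single_eq_of_ne (Ne.symm (Ne.symm hv))]

/-- on a curve with places of degree one: `dim L(E) ≤ deg E + 1` if `deg E ≥ -1` -/
theorem ln_rr_finrank_le_degree [HasPrincipalDivisors k F]
    (hres : ∀ v : Place k F, Function.Bijective (algebraMap k v.ResidueField))
    (v₀ : Place k F) (E : Divisor k F) (hE : -1 ≤ Divisor.degree E) :
    (finrank k ↥(riemannRochSpace E) : ℤ) ≤ Divisor.degree E + 1 := by
  set n : ℕ := (Divisor.degree E + 1).toNat with hn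
  have hn' : (n : ℤ) = Divisor.degree E + 1 := Int.toNat_of_nonneg (by linarith)
  set A : Divisor k F := E - Finsupp.single v₀ (n : ℤ) with hA
  have hAE : A ≤ E := by
    rw [hA]
    exact sub_le_self _ (ln_rr_single_nonneg v₀ n)
  have hdegA : Divisor.degree A = -1 := by
    rw [hA, map_sub, Divisor.degree_single, place_deg_eq_one v₀ (hres v₀), hn']
    push_cast
    ring
  have h0 : riemannRochSpace A = ⊥ := rr_eq_bot_of_degree_neg (by rw [hdegA]; norm_num)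
  have h1 := rr_finrank_le hres hAE
  rw [h0, finrank_bot, hdegA] at h1
  push_cast at h1
  linarith

/-- **Riemann–Roch in genus `0`**: `dim L(E) = deg E + 1` if `deg E ≥ -1` -/
theorem ln_rr_finrank_genus0 (hF : IsNiceCurve k F 0) (E : Divisor k F)
    (hE : -1 ≤ Divisor.degree E) :
    (finrank k ↥(riemannRochSpace E) : ℤ) = Divisor.degree E + 1 := by
  haveI := hF.hpd
  obtain ⟨v₀, -⟩ := hF.infinite.nonempty
  have h1 := ln_rr_finrank_le_degree hF.hres v₀ E hE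
  have h2 := hF.lower E
  push_cast at h2
  linarith

theorem ln_rr_finite_genus0 (hF : IsNiceCurve k F 0) (E : Divisor k F) :
    Module.Finite k ↥(riemannRochSpace E) := by
  haveI := hF.hpd
  obtain ⟨v₀, -⟩ := hF.infinite.nonempty
  exact rr_finite v₀ hF.hres E

/-! #### Values -/

/-- the value of `f` at `P` (`0` if there is none) -/
def lnVal (P : Place k F) (f : F) : k :=
  if h : ∃ a : k, HasValueAt P f a then h.choose else 0

theorem ln_rr_val_eq {P : Place k F} {f : F} {a : k} (h : HasValueAt P f a) :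
    lnVal P f = a := by
  unfold lnVal
  have h' : ∃ a : k, HasValueAt P f a := ⟨a, h⟩
  rw [dif_pos h']
  exact hasValueAt_unique P h'.choose_spec h

theorem ln_rr_hasValueAt_val {P : Place k F}
    (hres : Function.Bijective (algebraMap k P.ResidueField)) {f : F}
    (hf : f ∈ P.toValuationSubring) : HasValueAt P f (lnVal P f) := by
  obtain ⟨a, ha⟩ := ge_exists_value P hres hf
  rw [ln_rr_val_eq ha]
  exact ha

theorem ln_rr_mem_of_rr {P : Place k F} {E : Divisor k F} (hE : E P ≤ 0) {f : F}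
    (hf : f ∈ riemannRochSpace E) : f ∈ P.toValuationSubring := by
  rcases mem_riemannRochSpace_iff.mp hf P with h | h
  · rw [h]; exact zero_mem _
  · exact PlaceAux.mem_of_ord_nonneg P (by linarith)

theorem ln_rr_hasValueAt_of_rr {P : Place k F}
    (hres : Function.Bijective (algebraMap k P.ResidueField)) {E : Divisor k F} (hE : E P ≤ 0)
    {f : F} (hf : f ∈ riemannRochSpace E) : HasValueAt P f (lnVal P f) :=
  ln_rr_hasValueAt_val hres (ln_rr_mem_of_rr hE hf)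

/-- evaluation at `P` as a linear form on `L(E)`, `E P ≤ 0` -/
def lnEvalRR (P : Place k F) (hres : Function.Bijective (algebraMap k P.ResidueField))
    (E : Divisor k F) (hE : E P ≤ 0) : ↥(riemannRochSpace E) →ₗ[k] k where
  toFun f := lnVal P (f : F)
  map_add' f g := ln_rr_val_eq (ln_hasValueAt_add (ln_rr_hasValueAt_of_rr hres hE f.2)
    (ln_rr_hasValueAt_of_rr hres hE g.2))
  map_smul' c f := ln_rr_val_eq (ln_hasValueAt_smul c (ln_rr_hasValueAt_of_rr hres hE f.2))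

theorem lnEvalRR_apply (P : Place k F) (hres : Function.Bijective (algebraMap k P.ResidueField))
    (E : Divisor k F) (hE : E P ≤ 0) (f : ↥(riemannRochSpace E)) :
    lnEvalRR P hres E hE f = lnVal P (f : F) := rfl

theorem ln_rr_hasValueAt_zero_iff (P : Place k F) {f : F} :
    HasValueAt P f 0 ↔ f = 0 ∨ 0 < P.ord f := by
  unfold HasValueAt
  rw [map_zero, sub_zero]
  constructor
  · intro h
    by_cases hf : f = 0
    · exact Or.inl hf
    · exact Or.inr ((PlaceAux.ord_pos_iff_mem_nonunits P hf).mpr h)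
  · rintro (rfl | h)
    · exact ge_zero_mem_nonunits _
    · have hf : f ≠ 0 := by
        rintro rfl
        simp at h
      exact (PlaceAux.ord_pos_iff_mem_nonunits P hf).mp h

/-- `L(E − ΣS)` is the space of the functions of `L(E)` vanishing on `S` (`E = 0` on `S`) -/
theorem ln_rr_mem_sub_gpSum {E : Divisor k F} {S : Finset (Place k F)}
    (hE : ∀ s ∈ S, E s = 0) {f : F} :
    f ∈ riemannRochSpace (E - gpSum S) ↔
      f ∈ riemannRochSpace E ∧ ∀ s ∈ S, HasValueAt s f 0 := by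
  constructor
  · intro h
    refine ⟨rr_mono (sub_le_self _ (gpSum_nonneg S)) h, fun s hs => ?_⟩
    rw [ln_rr_hasValueAt_zero_iff]
    rcases mem_riemannRochSpace_iff.mp h s with h0 | h1
    · exact Or.inl h0
    · right
      rw [Finsupp.sub_apply, hE s hs, gpSum_apply_of_mem hs] at h1
      linarith
  · rintro ⟨h, hS⟩
    rw [mem_riemannRochSpace_iff]
    intro v
    by_cases hv : v ∈ S
    · rcases (ln_rr_hasValueAt_zero_iff v).mp (hS v hv) with h0 | h1
      · exact Or.inl h0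
      · right
        rw [Finsupp.sub_apply, hE v hv, gpSum_apply_of_mem hv]
        linarith
    · rcases mem_riemannRochSpace_iff.mp h v with h0 | h1
      · exact Or.inl h0
      · right
        rw [Finsupp.sub_apply, gpSum_apply_of_not_mem hv, sub_zero]
        exact h1

/-! #### Interpolation -/

/-- the evaluation map `L(E) → k^S` -/
def lnEvalS (hres : ∀ v : Place k F, Function.Bijective (algebraMap k v.ResidueField))
    (E : Divisor k F) (S : Finset (Place k F)) (hE : ∀ s ∈ S, E s = 0) :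
    ↥(riemannRochSpace E) →ₗ[k] (↥S → k) :=
  LinearMap.pi fun s => lnEvalRR s.1 (hres s.1) E (le_of_eq (hE s.1 s.2))

theorem ln_rr_ker_evalS (hres : ∀ v : Place k F, Function.Bijective (algebraMap k v.ResidueField))
    (E : Divisor k F) (S : Finset (Place k F)) (hE : ∀ s ∈ S, E s = 0) :
    (LinearMap.ker (lnEvalS hres E S hE)).map (riemannRochSpace E).subtype =
      riemannRochSpace (E - gpSum S) := by
  ext f
  rw [Submodule.mem_map, ln_rr_mem_sub_gpSum hE]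
  constructor
  · rintro ⟨y, hy, rfl⟩
    refine ⟨y.2, fun s hs => ?_⟩
    rw [LinearMap.mem_ker] at hy
    have h1 : lnEvalS hres E S hE y ⟨s, hs⟩ = 0 := by rw [hy]; rfl
    have h2 := ln_rr_hasValueAt_of_rr (hres s) (le_of_eq (hE s hs)) y.2
    have h3 : lnVal s (y : F) = 0 := h1
    rw [h3] at h2
    exact h2
  · rintro ⟨hf, hS⟩
    refine ⟨⟨f, hf⟩, ?_, rfl⟩
    rw [LinearMap.mem_ker]
    funext s
    show lnVal s.1 f = 0
    exact ln_rr_val_eq (hS s.1 s.2)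

/-- **Lagrange interpolation** on a curve of genus `0` -/
theorem ln_rr_interp (hF : IsNiceCurve k F 0) (E : Divisor k F) (S : Finset (Place k F))
    (hE : ∀ s ∈ S, E s = 0) (hdeg : (S.card : ℤ) ≤ Divisor.degree E + 1) (c : Place k F → k) :
    ∃ f ∈ riemannRochSpace E, ∀ s ∈ S, HasValueAt s f (c s) := by
  haveI := hF.hpd
  haveI := ln_rr_finite_genus0 hF E
  set Φ := lnEvalS hF.hres E S hE with hΦ
  have hdS : Divisor.degree (gpSum S) = S.card := degree_gpSum hF.hres S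
  have h1 := ln_rr_finrank_genus0 hF E (by
    have : (0 : ℤ) ≤ S.card := Int.natCast_nonneg _
    linarith)
  have h2 := ln_rr_finrank_genus0 hF (E - gpSum S) (by rw [map_sub, hdS]; linarith)
  rw [map_sub, hdS] at h2
  have h3 : finrank k ↥(LinearMap.ker Φ) = finrank k ↥(riemannRochSpace (E - gpSum S)) := by
    rw [← ln_rr_ker_evalS hF.hres E S hE, Submodule.finrank_map_subtype_eq]
  have h4 := LinearMap.finrank_range_add_finrank_ker Φ
  have h5 : finrank k ↥(LinearMap.range Φ) = S.card := by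
    have : ((finrank k ↥(LinearMap.range Φ) : ℕ) : ℤ) = S.card := by
      have h4' : ((finrank k ↥(LinearMap.range Φ) : ℕ) : ℤ) + finrank k ↥(LinearMap.ker Φ)
          = finrank k ↥(riemannRochSpace E) := by exact_mod_cast h4
      rw [h3, h2, h1] at h4'
      linarith
    exact_mod_cast this
  have h6 : LinearMap.range Φ = ⊤ := by
    apply Submodule.eq_top_of_finrank_eq
    rw [h5, Module.finrank_fintype_fun_eq_card, Fintype.card_coe]
  have h7 : (fun s : ↥S => c s.1) ∈ LinearMap.range Φ := by rw [h6]; exact Submodule.mem_top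
  obtain ⟨f, hf⟩ := h7
  refine ⟨f.1, f.2, fun s hs => ?_⟩
  have h8 := ln_rr_hasValueAt_of_rr (hF.hres s) (le_of_eq (hE s hs)) f.2
  have h9 : lnVal s (f : F) = c s := congrFun hf ⟨s, hs⟩
  rw [h9] at h8
  exact h8

end Curve

/-! ### The nodal curve -/

section Nodal

variable {k F₁ F₂ : Type} [Field k] [Field F₁] [Algebra k F₁] [Field F₂] [Algebra k F₂]

/-- regular at every crossing point with the same value on both branches
(`R.Glued` is `lnGlued R.X`) -/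
def lnGlued (X : Finset (Place k F₁ × Place k F₂)) (f₁ : F₁) (f₂ : F₂) : Prop :=
  ∀ x ∈ X, ∃ a : k, HasValueAt x.1 f₁ a ∧ HasValueAt x.2 f₂ a

/-- the glued Riemann–Roch space `L̄(E₁, E₂)` of the nodal curve -/
def lnLbar (X : Finset (Place k F₁ × Place k F₂)) (E₁ : Divisor k F₁) (E₂ : Divisor k F₂) :
    Submodule k (F₁ × F₂) where
  carrier := {f | f.1 ∈ riemannRochSpace E₁ ∧ f.2 ∈ riemannRochSpace E₂ ∧ lnGlued X f.1 f.2}
  zero_mem' := ⟨Submodule.zero_mem _, Submodule.zero_mem _,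
    fun x _ => ⟨0, ln_hasValueAt_zero x.1, ln_hasValueAt_zero x.2⟩⟩
  add_mem' := by
    rintro f f' ⟨h1, h2, h3⟩ ⟨h1', h2', h3'⟩
    refine ⟨Submodule.add_mem _ h1 h1', Submodule.add_mem _ h2 h2', fun x hx => ?_⟩
    obtain ⟨a, ha1, ha2⟩ := h3 x hx
    obtain ⟨b, hb1, hb2⟩ := h3' x hx
    exact ⟨a + b, ln_hasValueAt_add ha1 hb1, ln_hasValueAt_add ha2 hb2⟩
  smul_mem' := by
    rintro c f ⟨h1, h2, h3⟩
    refine ⟨Submodule.smul_mem _ c h1, Submodule.smul_mem _ c h2, fun x hx => ?_⟩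
    obtain ⟨a, ha1, ha2⟩ := h3 x hx
    exact ⟨c * a, ln_hasValueAt_smul c ha1, ln_hasValueAt_smul c ha2⟩

theorem ln_rr_mem_lnLbar {X : Finset (Place k F₁ × Place k F₂)} {E₁ : Divisor k F₁}
    {E₂ : Divisor k F₂} {f : F₁ × F₂} :
    f ∈ lnLbar X E₁ E₂ ↔ f.1 ∈ riemannRochSpace E₁ ∧ f.2 ∈ riemannRochSpace E₂ ∧
      ∀ x ∈ X, ∃ a : k, HasValueAt x.1 f.1 a ∧ HasValueAt x.2 f.2 a := Iff.rfl

/-- the hypotheses on the nodal curve: two components of genus `0` crossing at `g + 1` points -/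
structure IsNodal (X : Finset (Place k F₁ × Place k F₂)) (g : ℕ) : Prop where
  nice₁ : IsNiceCurve k F₁ 0
  nice₂ : IsNiceCurve k F₂ 0
  inj₁ : ∀ x ∈ X, ∀ y ∈ X, x.1 = y.1 → x = y
  inj₂ : ∀ x ∈ X, ∀ y ∈ X, x.2 = y.2 → x = y
  card : X.card = g + 1

/-- the crossing points on the first component -/
def lnX₁ (X : Finset (Place k F₁ × Place k F₂)) : Finset (Place k F₁) := X.image Prod.fst

/-- the crossing points on the second component -/
def lnX₂ (X : Finset (Place k F₁ × Place k F₂)) : Finset (Place k F₂) := X.image Prod.snd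

theorem ln_rr_mem_X₁ {X : Finset (Place k F₁ × Place k F₂)} {Q : Place k F₁} :
    Q ∈ lnX₁ X ↔ ∃ x ∈ X, x.1 = Q := by
  unfold lnX₁
  rw [Finset.mem_image]

theorem ln_rr_mem_X₂ {X : Finset (Place k F₁ × Place k F₂)} {Q : Place k F₂} :
    Q ∈ lnX₂ X ↔ ∃ x ∈ X, x.2 = Q := by
  unfold lnX₂
  rw [Finset.mem_image]

variable {X : Finset (Place k F₁ × Place k F₂)} {g : ℕ}

theorem IsNodal.card_X₁ (h : IsNodal X g) : (lnX₁ X).card = g + 1 := by
  unfold lnX₁
  rw [Finset.card_image_of_injOn, h.card]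
  intro x hx y hy hxy
  exact h.inj₁ x hx y hy hxy

theorem IsNodal.card_X₂ (h : IsNodal X g) : (lnX₂ X).card = g + 1 := by
  unfold lnX₂
  rw [Finset.card_image_of_injOn, h.card]
  intro x hx y hy hxy
  exact h.inj₂ x hx y hy hxy

theorem IsNodal.symm (h : IsNodal X g) :
    IsNodal (X.map ⟨Prod.swap, Prod.swap_injective⟩) g where
  nice₁ := h.nice₂
  nice₂ := h.nice₁
  inj₁ := by
    intro x hx y hy hxy
    rw [Finset.mem_map] at hx hy
    obtain ⟨x', hx', rfl⟩ := hx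
    obtain ⟨y', hy', rfl⟩ := hy
    have := h.inj₂ x' hx' y' hy' hxy
    rw [this]
  inj₂ := by
    intro x hx y hy hxy
    rw [Finset.mem_map] at hx hy
    obtain ⟨x', hx', rfl⟩ := hx
    obtain ⟨y', hy', rfl⟩ := hy
    have := h.inj₁ x' hx' y' hy' hxy
    rw [this]
  card := by rw [Finset.card_map, h.card]

/-- exchanging the two components -/
def lnSwap (k F₁ F₂ : Type) [Field k] [Field F₁] [Algebra k F₁] [Field F₂] [Algebra k F₂] :
    (F₁ × F₂) ≃ₗ[k] (F₂ × F₁) :=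
  LinearEquiv.prodComm k F₁ F₂

theorem ln_rr_map_swap (X : Finset (Place k F₁ × Place k F₂)) (E₁ : Divisor k F₁)
    (E₂ : Divisor k F₂) :
    (lnLbar X E₁ E₂).map (lnSwap k F₁ F₂).toLinearMap =
      lnLbar (X.map ⟨Prod.swap, Prod.swap_injective⟩) E₂ E₁ := by
  ext f
  rw [Submodule.mem_map]
  constructor
  · rintro ⟨y, ⟨h1, h2, h3⟩, rfl⟩
    refine ⟨h2, h1, fun x hx => ?_⟩
    rw [Finset.mem_map] at hx
    obtain ⟨x', hx', rfl⟩ := hx
    obtain ⟨a, ha1, ha2⟩ := h3 x' hx'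
    exact ⟨a, ha2, ha1⟩
  · rintro ⟨h1, h2, h3⟩
    refine ⟨(f.2, f.1), ⟨h2, h1, fun x hx => ?_⟩, rfl⟩
    obtain ⟨a, ha1, ha2⟩ := h3 (Prod.swap x) (by
      rw [Finset.mem_map]
      exact ⟨x, hx, rfl⟩)
    exact ⟨a, ha2, ha1⟩

theorem ln_rr_finrank_swap (X : Finset (Place k F₁ × Place k F₂)) (E₁ : Divisor k F₁)
    (E₂ : Divisor k F₂) :
    finrank k ↥(lnLbar (X.map ⟨Prod.swap, Prod.swap_injective⟩) E₂ E₁) =
      finrank k ↥(lnLbar X E₁ E₂) := by
  rw [← ln_rr_map_swap]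
  exact (Submodule.equivMapOfInjective _ (lnSwap k F₁ F₂).injective _).finrank_eq.symm

/-- the embedding of `L(E₁) × L(E₂)` -/
def lnIncl (E₁ : Divisor k F₁) (E₂ : Divisor k F₂) :
    (↥(riemannRochSpace E₁) × ↥(riemannRochSpace E₂)) →ₗ[k] (F₁ × F₂) :=
  (riemannRochSpace E₁).subtype.prodMap (riemannRochSpace E₂).subtype

theorem lnIncl_injective (E₁ : Divisor k F₁) (E₂ : Divisor k F₂) :
    Function.Injective (lnIncl E₁ E₂) := by
  intro a b hab
  have h1 : (a.1 : F₁) = b.1 := congrArg Prod.fst hab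
  have h2 : (a.2 : F₂) = b.2 := congrArg Prod.snd hab
  exact Prod.ext (Subtype.ext h1) (Subtype.ext h2)

/-- the difference of the values at the crossing points, on `L(E₁) × L(E₂)` -/
def lnDiff (hres₁ : ∀ v : Place k F₁, Function.Bijective (algebraMap k v.ResidueField))
    (hres₂ : ∀ v : Place k F₂, Function.Bijective (algebraMap k v.ResidueField))
    (X : Finset (Place k F₁ × Place k F₂)) (E₁ : Divisor k F₁) (E₂ : Divisor k F₂)
    (h₁ : ∀ x ∈ X, E₁ x.1 ≤ 0) (h₂ : ∀ x ∈ X, E₂ x.2 ≤ 0) :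
    (↥(riemannRochSpace E₁) × ↥(riemannRochSpace E₂)) →ₗ[k] (↥X → k) :=
  LinearMap.pi fun x =>
    (lnEvalRR x.1.1 (hres₁ _) E₁ (h₁ x.1 x.2)).comp (LinearMap.fst k _ _) -
      (lnEvalRR x.1.2 (hres₂ _) E₂ (h₂ x.1 x.2)).comp (LinearMap.snd k _ _)

theorem lnDiff_apply (hres₁ : ∀ v : Place k F₁, Function.Bijective (algebraMap k v.ResidueField))
    (hres₂ : ∀ v : Place k F₂, Function.Bijective (algebraMap k v.ResidueField))
    (X : Finset (Place k F₁ × Place k F₂)) (E₁ : Divisor k F₁) (E₂ : Divisor k F₂)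
    (h₁ : ∀ x ∈ X, E₁ x.1 ≤ 0) (h₂ : ∀ x ∈ X, E₂ x.2 ≤ 0)
    (f : ↥(riemannRochSpace E₁) × ↥(riemannRochSpace E₂)) (x : ↥X) :
    lnDiff hres₁ hres₂ X E₁ E₂ h₁ h₂ f x = lnVal x.1.1 (f.1 : F₁) - lnVal x.1.2 (f.2 : F₂) :=
  rfl

theorem ln_rr_ker_diff
    (hres₁ : ∀ v : Place k F₁, Function.Bijective (algebraMap k v.ResidueField))
    (hres₂ : ∀ v : Place k F₂, Function.Bijective (algebraMap k v.ResidueField))
    (X : Finset (Place k F₁ × Place k F₂)) (E₁ : Divisor k F₁) (E₂ : Divisor k F₂)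
    (h₁ : ∀ x ∈ X, E₁ x.1 ≤ 0) (h₂ : ∀ x ∈ X, E₂ x.2 ≤ 0) :
    (LinearMap.ker (lnDiff hres₁ hres₂ X E₁ E₂ h₁ h₂)).map (lnIncl E₁ E₂) = lnLbar X E₁ E₂ := by
  ext f
  rw [Submodule.mem_map]
  constructor
  · rintro ⟨y, hy, rfl⟩
    refine ⟨y.1.2, y.2.2, fun x hx => ?_⟩
    rw [LinearMap.mem_ker] at hy
    have h := congrFun hy ⟨x, hx⟩
    rw [lnDiff_apply] at h
    have h' : lnVal x.1 (y.1 : F₁) = lnVal x.2 (y.2 : F₂) := sub_eq_zero.mp h
    refine ⟨lnVal x.1 (y.1 : F₁), ln_rr_hasValueAt_of_rr (hres₁ _) (h₁ x hx) y.1.2, ?_⟩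
    rw [h']
    exact ln_rr_hasValueAt_of_rr (hres₂ _) (h₂ x hx) y.2.2
  · rintro ⟨hf1, hf2, hg⟩
    refine ⟨(⟨f.1, hf1⟩, ⟨f.2, hf2⟩), ?_, rfl⟩
    rw [LinearMap.mem_ker]
    funext x
    rw [lnDiff_apply]
    obtain ⟨a, ha1, ha2⟩ := hg x.1 x.2
    show lnVal x.1.1 f.1 - lnVal x.1.2 f.2 = 0
    rw [ln_rr_val_eq ha1, ln_rr_val_eq ha2, sub_self]

theorem ln_rr_Lbar_le_prod (X : Finset (Place k F₁ × Place k F₂)) (E₁ : Divisor k F₁)
    (E₂ : Divisor k F₂) :
    lnLbar X E₁ E₂ ≤ LinearMap.range (lnIncl E₁ E₂) := by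
  rintro f ⟨h1, h2, -⟩
  exact ⟨(⟨f.1, h1⟩, ⟨f.2, h2⟩), rfl⟩

theorem ln_rr_finite (h : IsNodal X g) (E₁ : Divisor k F₁) (E₂ : Divisor k F₂) :
    Module.Finite k ↥(lnLbar X E₁ E₂) := by
  haveI := ln_rr_finite_genus0 h.nice₁ E₁
  haveI := ln_rr_finite_genus0 h.nice₂ E₂
  haveI : Module.Finite k ↥(LinearMap.range (lnIncl (k := k) E₁ E₂)) :=
    Module.Finite.range _
  exact Submodule.finiteDimensional_of_le (ln_rr_Lbar_le_prod X E₁ E₂)

/-- **Riemann's inequality on the nodal curve** -/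
theorem ln_rr_lower (h : IsNodal X g) (E₁ : Divisor k F₁) (E₂ : Divisor k F₂)
    (h₁ : ∀ x ∈ X, E₁ x.1 ≤ 0) (h₂ : ∀ x ∈ X, E₂ x.2 ≤ 0) :
    Divisor.degree E₁ + Divisor.degree E₂ + 1 - g ≤ (finrank k ↥(lnLbar X E₁ E₂) : ℤ) := by
  haveI := ln_rr_finite_genus0 h.nice₁ E₁
  haveI := ln_rr_finite_genus0 h.nice₂ E₂
  set Φ := lnDiff h.nice₁.hres h.nice₂.hres X E₁ E₂ h₁ h₂ with hΦ
  have h3 : finrank k ↥(lnLbar X E₁ E₂) = finrank k ↥(LinearMap.ker Φ) := by
    rw [← ln_rr_ker_diff h.nice₁.hres h.nice₂.hres X E₁ E₂ h₁ h₂]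
    exact (Submodule.equivMapOfInjective _ (lnIncl_injective E₁ E₂) _).finrank_eq.symm
  have h4 := LinearMap.finrank_range_add_finrank_ker Φ
  rw [Module.finrank_prod] at h4
  have h5 : finrank k ↥(LinearMap.range Φ) ≤ g + 1 := by
    have := Submodule.finrank_le (LinearMap.range Φ)
    rw [Module.finrank_fintype_fun_eq_card, Fintype.card_coe, h.card] at this
    exact this
  have h6 := h.nice₁.lower E₁
  have h7 := h.nice₂.lower E₂
  push_cast at h6 h7
  rw [h3]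
  have h4' : ((finrank k ↥(LinearMap.range Φ) : ℕ) : ℤ) + finrank k ↥(LinearMap.ker Φ)
      = finrank k ↥(riemannRochSpace E₁) + finrank k ↥(riemannRochSpace E₂) := by
    exact_mod_cast h4
  have h5' : ((finrank k ↥(LinearMap.range Φ) : ℕ) : ℤ) ≤ g + 1 := by exact_mod_cast h5
  linarith

/-- the functions of `L̄(E₁, E₂)` with `f₂ = 0` -/
theorem ln_rr_fst_mem_of_snd_eq_zero (h : IsNodal X g) {E₁ : Divisor k F₁} {E₂ : Divisor k F₂}
    (h₁ : ∀ x ∈ X, E₁ x.1 = 0) {f : F₁ × F₂} (hf : f ∈ lnLbar X E₁ E₂) (hf2 : f.2 = 0) :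
    f.1 ∈ riemannRochSpace (E₁ - gpSum (lnX₁ X)) := by
  obtain ⟨hf1, -, hg⟩ := hf
  rw [ln_rr_mem_sub_gpSum (fun s hs => by
    obtain ⟨x, hx, rfl⟩ := ln_rr_mem_X₁.mp hs
    exact h₁ x hx)]
  refine ⟨hf1, fun s hs => ?_⟩
  obtain ⟨x, hx, rfl⟩ := ln_rr_mem_X₁.mp hs
  obtain ⟨a, ha1, ha2⟩ := hg x hx
  rw [hf2] at ha2
  have ha : a = 0 := hasValueAt_unique x.2 ha2 (ln_hasValueAt_zero x.2)
  rw [ha] at ha1
  exact ha1

/-- **the upper bound**: `dim L̄(E₁, E₂) ≤ dim L(E₁ − ΣX₁) + dim L(E₂)` -/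
theorem ln_rr_finrank_le_add (h : IsNodal X g) (E₁ : Divisor k F₁) (E₂ : Divisor k F₂)
    (h₁ : ∀ x ∈ X, E₁ x.1 = 0) :
    finrank k ↥(lnLbar X E₁ E₂) ≤
      finrank k ↥(riemannRochSpace (E₁ - gpSum (lnX₁ X))) + finrank k ↥(riemannRochSpace E₂) := by
  haveI := ln_rr_finite_genus0 h.nice₁ (E₁ - gpSum (lnX₁ X))
  haveI := ln_rr_finite_genus0 h.nice₂ E₂
  haveI := ln_rr_finite h E₁ E₂
  -- the projection to the second component
  set ψ : ↥(lnLbar X E₁ E₂) →ₗ[k] ↥(riemannRochSpace E₂) :=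
    LinearMap.codRestrict (riemannRochSpace E₂)
      ((LinearMap.snd k F₁ F₂).comp (lnLbar X E₁ E₂).subtype) (fun f => f.2.2.1) with hψ
  -- the kernel injects into `L(E₁ − ΣX₁)`
  set θ : ↥(LinearMap.ker ψ) →ₗ[k] ↥(riemannRochSpace (E₁ - gpSum (lnX₁ X))) :=
    LinearMap.codRestrict (riemannRochSpace (E₁ - gpSum (lnX₁ X)))
      ((LinearMap.fst k F₁ F₂).comp ((lnLbar X E₁ E₂).subtype.comp (LinearMap.ker ψ).subtype))
      (fun f => by
        have hf2 : (f.1 : F₁ × F₂).2 = 0 := by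
          have := f.2
          rw [LinearMap.mem_ker] at this
          exact congrArg Subtype.val this
        exact ln_rr_fst_mem_of_snd_eq_zero h h₁ f.1.2 hf2) with hθ
  have hθinj : Function.Injective θ := by
    intro a b hab
    have h1 : ((a.1 : F₁ × F₂)).1 = ((b.1 : F₁ × F₂)).1 := congrArg Subtype.val hab
    have ha2 : (a.1 : F₁ × F₂).2 = 0 := by
      have := a.2
      rw [LinearMap.mem_ker] at this
      exact congrArg Subtype.val this
    have hb2 : (b.1 : F₁ × F₂).2 = 0 := by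
      have := b.2
      rw [LinearMap.mem_ker] at this
      exact congrArg Subtype.val this
    exact Subtype.ext (Subtype.ext (Prod.ext h1 (ha2.trans hb2.symm)))
  have h3 := LinearMap.finrank_le_finrank_of_injective hθinj
  have h4 := LinearMap.finrank_range_add_finrank_ker ψ
  have h5 := Submodule.finrank_le (LinearMap.range ψ)
  omega

/-- **Riemann–Roch on the nodal curve, upper bound**: `deg E₁ ≥ g`, `deg E₂ ≥ −1` -/
theorem ln_rr_upper₁ (h : IsNodal X g) (E₁ : Divisor k F₁) (E₂ : Divisor k F₂)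
    (h₁ : ∀ x ∈ X, E₁ x.1 = 0) (hd₁ : (g : ℤ) ≤ Divisor.degree E₁)
    (hd₂ : -1 ≤ Divisor.degree E₂) :
    (finrank k ↥(lnLbar X E₁ E₂) : ℤ) ≤ Divisor.degree E₁ + Divisor.degree E₂ + 1 - g := by
  have h3 := ln_rr_finrank_le_add h E₁ E₂ h₁
  have hdX : Divisor.degree (gpSum (lnX₁ X)) = g + 1 := by
    rw [degree_gpSum h.nice₁.hres, h.card_X₁]
    push_cast
    rfl
  have h4 := ln_rr_finrank_genus0 h.nice₁ (E₁ - gpSum (lnX₁ X)) (by
    rw [map_sub, hdX]; linarith)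
  have h5 := ln_rr_finrank_genus0 h.nice₂ E₂ hd₂
  rw [map_sub, hdX] at h4
  have h3' : (finrank k ↥(lnLbar X E₁ E₂) : ℤ) ≤
      finrank k ↥(riemannRochSpace (E₁ - gpSum (lnX₁ X))) + finrank k ↥(riemannRochSpace E₂) := by
    exact_mod_cast h3
  linarith

/-- **Riemann–Roch on the nodal curve**: `deg E₁ ≥ g`, `deg E₂ ≥ −1`, `E` away from `X` -/
theorem ln_rr_finrank₁ (h : IsNodal X g) (E₁ : Divisor k F₁) (E₂ : Divisor k F₂)
    (h₁ : ∀ x ∈ X, E₁ x.1 = 0) (h₂ : ∀ x ∈ X, E₂ x.2 ≤ 0) (hd₁ : (g : ℤ) ≤ Divisor.degree E₁)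
    (hd₂ : -1 ≤ Divisor.degree E₂) :
    (finrank k ↥(lnLbar X E₁ E₂) : ℤ) = Divisor.degree E₁ + Divisor.degree E₂ + 1 - g :=
  le_antisymm (ln_rr_upper₁ h E₁ E₂ h₁ hd₁ hd₂)
    (ln_rr_lower h E₁ E₂ (fun x hx => le_of_eq (h₁ x hx)) h₂)

/-- the upper bound with the components exchanged: `deg E₂ ≥ g`, `deg E₁ ≥ −1` -/
theorem ln_rr_upper₂ (h : IsNodal X g) (E₁ : Divisor k F₁) (E₂ : Divisor k F₂)
    (h₂ : ∀ x ∈ X, E₂ x.2 = 0) (hd₁ : -1 ≤ Divisor.degree E₁)
    (hd₂ : (g : ℤ) ≤ Divisor.degree E₂) :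
    (finrank k ↥(lnLbar X E₁ E₂) : ℤ) ≤ Divisor.degree E₁ + Divisor.degree E₂ + 1 - g := by
  rw [← ln_rr_finrank_swap]
  have := ln_rr_upper₁ h.symm E₂ E₁ (by
    intro x hx
    rw [Finset.mem_map] at hx
    obtain ⟨x', hx', rfl⟩ := hx
    exact h₂ x' hx') hd₂ hd₁
  linarith

/-- Riemann–Roch on the nodal curve with the components exchanged -/
theorem ln_rr_finrank₂ (h : IsNodal X g) (E₁ : Divisor k F₁) (E₂ : Divisor k F₂)
    (h₁ : ∀ x ∈ X, E₁ x.1 ≤ 0) (h₂ : ∀ x ∈ X, E₂ x.2 = 0) (hd₁ : -1 ≤ Divisor.degree E₁)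
    (hd₂ : (g : ℤ) ≤ Divisor.degree E₂) :
    (finrank k ↥(lnLbar X E₁ E₂) : ℤ) = Divisor.degree E₁ + Divisor.degree E₂ + 1 - g :=
  le_antisymm (ln_rr_upper₂ h E₁ E₂ h₂ hd₁ hd₂)
    (ln_rr_lower h E₁ E₂ h₁ (fun x hx => le_of_eq (h₂ x hx)))

end Nodal

end Fermat.Agent.S15.LN

end
end ZBZ2S15_022_3

/-! ### bundled: `Fermat.Agent.S15.LNDerived` -/
section ZBZ2S15_022_4

/-!
# S15 block LOCAL-N (helper5): `onto`, `slope`, `glue_unit` from `r_div`, `glue` and degrees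

For a two-component reduction `R` with `R.IsToric g`:

* `ln_degree_split` : `deg D = deg r_{1*} D + deg r_{2*} D + Σ_{P of node type} D(P)`;
* `ln_onto₁`, `ln_onto₂` : every smooth point of the special fibre is the reduction of a place;
* `ln_red₂_ne_zero` : a unit `u` of `O₁` in `O₂`, with divisor of smooth type and
  `deg r_{1*}(div u) = 0`, is a unit of `O₂` (otherwise `ū₁` glues with `0`, so it vanishes at
  every node, and `deg div ū₁ > 0`);
* `ln_slope` : such a `u` is a constant times a unit at both Gauss valuations;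
* `ln_glue_unit` : if `u ∈ O₁ ∩ O₂` has no pole of node type and reduces to a glued unit, then
  its zeros are of smooth type;
* `ln_principal_mem_div1`, `ln_mem_div1_of_mk_eq`, `ln_mem_J1_iff_of_rep` : the kernel of
  reduction does not depend on the representative of type `(0, 0)`.
-/

set_option autoImplicit false

noncomputable section

open AlgebraicCurve Module

namespace Fermat.Agent.S15.LN

open Fermat.Agent.W1 Fermat.Agent.S24 Fermat.Agent.ES.R

open scoped Classical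

section Deg

variable {K F : Type} [Field K] [Field F] [Algebra K F]

theorem ln_degree_eq_sum (hdeg : ∀ v : Place K F, v.deg = 1) (D : Divisor K F) :
    Divisor.degree D = ∑ v ∈ D.support, D v := by
  rw [degree_eq_sum, Finsupp.sum]
  refine Finset.sum_congr rfl fun v _ => ?_
  rw [hdeg v]; simp

theorem ln_degree_pos (hdeg : ∀ v : Place K F, v.deg = 1) {G : Divisor K F} (hG : 0 ≤ G)
    (Q₀ : Place K F) (h : 0 < G Q₀) : 0 < Divisor.degree G := by
  rw [ln_degree_eq_sum hdeg]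
  have hmem : Q₀ ∈ G.support := Finsupp.mem_support_iff.mpr (ne_of_gt h)
  have hnn : ∀ v ∈ G.support, 0 ≤ G v := fun v _ => by simpa using Finsupp.le_def.mp hG v
  calc 0 < G Q₀ := h
    _ ≤ ∑ v ∈ G.support, G v := Finset.single_le_sum hnn hmem

end Deg

section TR

variable {K F k F₁ F₂ : Type} [Field K] [Field F] [Algebra K F] [Field k]
  [Field F₁] [Algebra k F₁] [Field F₂] [Algebra k F₂]
variable {A : ValuationSubring K} (R : TRData K F k F₁ F₂ A)

theorem ln_degree_pt₁ (hdeg₁ : ∀ Q : Place k F₁, Q.deg = 1) (P : Place K F) (n : ℤ) :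
    Divisor.degree (R.pt₁ P n) = if ∃ Q, R.r P = some (Sum.inl Q) then n else 0 := by
  unfold TRData.pt₁
  split
  · rename_i Q hQ
    rw [if_pos ⟨Q, hQ⟩, Finsupp.singleAddHom_apply, Divisor.degree_single, hdeg₁ Q]
    simp
  · rename_i h
    rw [if_neg]
    · simp
    · rintro ⟨Q, hQ⟩
      exact h Q hQ

theorem ln_degree_pt₂ (hdeg₂ : ∀ Q : Place k F₂, Q.deg = 1) (P : Place K F) (n : ℤ) :
    Divisor.degree (R.pt₂ P n) = if ∃ Q, R.r P = some (Sum.inr Q) then n else 0 := by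
  unfold TRData.pt₂
  split
  · rename_i Q hQ
    rw [if_pos ⟨Q, hQ⟩, Finsupp.singleAddHom_apply, Divisor.degree_single, hdeg₂ Q]
    simp
  · rename_i h
    rw [if_neg]
    · simp
    · rintro ⟨Q, hQ⟩
      exact h Q hQ

theorem ln_degree_push₁ (hdeg₁ : ∀ Q : Place k F₁, Q.deg = 1) (D : Divisor K F) :
    Divisor.degree (R.push₁ D) =
      ∑ P ∈ D.support, if ∃ Q, R.r P = some (Sum.inl Q) then D P else 0 := by
  unfold TRData.push₁
  rw [Finsupp.liftAddHom_apply, Finsupp.sum, map_sum]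
  exact Finset.sum_congr rfl fun P _ => ln_degree_pt₁ R hdeg₁ P (D P)

theorem ln_degree_push₂ (hdeg₂ : ∀ Q : Place k F₂, Q.deg = 1) (D : Divisor K F) :
    Divisor.degree (R.push₂ D) =
      ∑ P ∈ D.support, if ∃ Q, R.r P = some (Sum.inr Q) then D P else 0 := by
  unfold TRData.push₂
  rw [Finsupp.liftAddHom_apply, Finsupp.sum, map_sum]
  exact Finset.sum_congr rfl fun P _ => ln_degree_pt₂ R hdeg₂ P (D P)

/-- the degree of a divisor is the sum of the degrees on the two components and of the part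
of node type -/
theorem ln_degree_split (hdeg : ∀ P : Place K F, P.deg = 1)
    (hdeg₁ : ∀ Q : Place k F₁, Q.deg = 1) (hdeg₂ : ∀ Q : Place k F₂, Q.deg = 1)
    (D : Divisor K F) :
    Divisor.degree D = Divisor.degree (R.push₁ D) + Divisor.degree (R.push₂ D) +
      ∑ P ∈ D.support, if R.r P = none then D P else 0 := by
  rw [ln_degree_eq_sum hdeg, ln_degree_push₁ R hdeg₁, ln_degree_push₂ R hdeg₂,
    ← Finset.sum_add_distrib, ← Finset.sum_add_distrib]
  refine Finset.sum_congr rfl fun P _ => ?_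
  rcases h : R.r P with _ | (Q | Q)
  · simp
  · simp
  · simp

variable {R}

theorem IsToric_deg {g : ℕ} (hT : R.IsToric g) : ∀ P : Place K F, P.deg = 1 :=
  fun P => place_deg_eq_one P (hT.nice.hres P)

theorem IsToric_deg₁ {g : ℕ} (hT : R.IsToric g) : ∀ Q : Place k F₁, Q.deg = 1 :=
  fun Q => place_deg_eq_one Q (hT.nice₁.hres Q)

theorem IsToric_deg₂ {g : ℕ} (hT : R.IsToric g) : ∀ Q : Place k F₂, Q.deg = 1 :=
  fun Q => place_deg_eq_one Q (hT.nice₂.hres Q)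

theorem IsToric_X_nonempty {g : ℕ} (hT : R.IsToric g) : R.X.Nonempty := by
  rw [← Finset.card_pos, hT.card]
  exact Nat.succ_pos g

/-! ### `onto` -/

theorem ln_onto₁ (hR : R.IsTR) (hpd : HasPrincipalDivisors K F) (Q : Place k F₁)
    (hQ : ∀ x ∈ R.X, x.1 ≠ Q) : ∃ P, R.r P = some (Sum.inl Q) := by
  obtain ⟨π, hπ⟩ := IsDiscreteValuationRing.exists_irreducible Q.toValuationSubring
  have hord : Q.ord (π : F₁) = 1 := Q.ord_coe_irreducible hπ
  obtain ⟨u, hu⟩ := hR.red₁_surjective (π : F₁)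
  have hu0 : R.red₁ u ≠ 0 := by
    rw [hu]
    intro h0
    rw [h0, Place.ord_zero] at hord
    exact zero_ne_one hord
  have hu0' : (u : F) ≠ 0 := ln_ne_zero₁ hR u.2 hu0
  obtain ⟨D, hD, -⟩ := hpd.exists_divisor (u : F) hu0'
  have h1 := hR.r_div₁ u hu0 D hD Q hQ
  rw [hu, hord, ln_push₁_apply] at h1
  have hne : (∑ P ∈ D.support, if R.r P = some (Sum.inl Q) then D P else 0) ≠ 0 := by
    rw [h1]; exact one_ne_zero
  obtain ⟨P, -, hP2⟩ := Finset.exists_ne_zero_of_sum_ne_zero hne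
  by_cases h : R.r P = some (Sum.inl Q)
  · exact ⟨P, h⟩
  · rw [if_neg h] at hP2
    exact absurd rfl hP2

theorem ln_onto₂ (hR : R.IsTR) (hpd : HasPrincipalDivisors K F) (Q : Place k F₂)
    (hQ : ∀ x ∈ R.X, x.2 ≠ Q) : ∃ P, R.r P = some (Sum.inr Q) := by
  obtain ⟨π, hπ⟩ := IsDiscreteValuationRing.exists_irreducible Q.toValuationSubring
  have hord : Q.ord (π : F₂) = 1 := Q.ord_coe_irreducible hπ
  obtain ⟨u, hu⟩ := hR.red₂_surjective (π : F₂)
  have hu0 : R.red₂ u ≠ 0 := by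
    rw [hu]
    intro h0
    rw [h0, Place.ord_zero] at hord
    exact zero_ne_one hord
  have hu0' : (u : F) ≠ 0 := ln_ne_zero₂ hR u.2 hu0
  obtain ⟨D, hD, -⟩ := hpd.exists_divisor (u : F) hu0'
  have h1 := hR.r_div₂ u hu0 D hD Q hQ
  rw [hu, hord, ln_push₂_apply] at h1
  have hne : (∑ P ∈ D.support, if R.r P = some (Sum.inr Q) then D P else 0) ≠ 0 := by
    rw [h1]; exact one_ne_zero
  obtain ⟨P, -, hP2⟩ := Finset.exists_ne_zero_of_sum_ne_zero hne
  by_cases h : R.r P = some (Sum.inr Q)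
  · exact ⟨P, h⟩
  · rw [if_neg h] at hP2
    exact absurd rfl hP2

/-! ### `slope` -/

/-- the divisor of the reduction `ū₁` is `r_{1*}(div u)` plus an effective divisor supported
on the nodes at which `ū₁` vanishes. -/
theorem ln_red₂_ne_zero {g : ℕ} (hT : R.IsToric g) {u : F} (h₁ : u ∈ R.O₁)
    (hu₁ : R.red₁ ⟨u, h₁⟩ ≠ 0) (h₂ : u ∈ R.O₂) (D : Divisor K F) (hD : ∀ P, D P = P.ord u)
    (hsm : D ∈ R.smDiv) (hdeg : Divisor.degree (R.push₁ D) = 0) :
    R.red₂ ⟨u, h₂⟩ ≠ 0 := by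
  intro h0
  have hR := hT.isTR
  have hpd₁ := hT.nice₁.hpd
  set f : F₁ := R.red₁ ⟨u, h₁⟩ with hf
  have hglue := hR.glue u h₁ h₂ (fun P hP => hsm P (by rw [hD]; exact ne_of_lt hP))
  rw [h0] at hglue
  -- `f` vanishes at every node
  have hval : ∀ x ∈ R.X, 0 < x.1.ord f := by
    intro x hx
    obtain ⟨a, ha1, ha2⟩ := hglue x hx
    have ha0 : a = 0 := hasValueAt_unique x.2 ha2 (ln_hasValueAt_zero x.2)
    rw [ha0] at ha1
    have hne : f - algebraMap k F₁ 0 ≠ 0 := by rwa [map_zero, sub_zero]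
    have := (hasValueAt_iff_ord_pos x.1 hne).mp ha1
    rwa [map_zero, sub_zero] at this
  obtain ⟨E, hE, hE0⟩ := hpd₁.exists_divisor f hu₁
  obtain ⟨x₀, hx₀⟩ := IsToric_X_nonempty hT
  have hnn : 0 ≤ E - R.push₁ D := by
    rw [Finsupp.le_def]
    intro Q
    rw [Finsupp.zero_apply, Finsupp.sub_apply, sub_nonneg]
    by_cases hQ : ∀ x ∈ R.X, x.1 ≠ Q
    · rw [hR.r_div₁ ⟨u, h₁⟩ hu₁ D hD Q hQ, hE]
    · push Not at hQ
      obtain ⟨x, hx, rfl⟩ := hQ
      rw [ln_push₁_cross hR D hx, hE]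
      exact (hval x hx).le
  have hpos : 0 < (E - R.push₁ D) x₀.1 := by
    rw [Finsupp.sub_apply, ln_push₁_cross hR D hx₀, sub_zero, hE]
    exact hval x₀ hx₀
  have := ln_degree_pos (IsToric_deg₁ hT) hnn x₀.1 hpos
  rw [map_sub, hE0, hdeg, sub_zero] at this
  exact lt_irrefl _ this

/-- **slope**: a function whose divisor is of smooth type and of degree `0` on `C₁` is a
constant times a unit at both Gauss valuations. -/
theorem ln_slope {g : ℕ} (hT : R.IsToric g) (u : F) (hu : u ≠ 0) (D : Divisor K F)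
    (hD : ∀ P, D P = P.ord u) (hsm : D ∈ R.smDiv) (hdeg : Divisor.degree (R.push₁ D) = 0) :
    ∃ a : K, a ≠ 0 ∧ ∃ (h₁ : algebraMap K F a * u ∈ R.O₁) (h₂ : algebraMap K F a * u ∈ R.O₂),
      R.red₁ ⟨algebraMap K F a * u, h₁⟩ ≠ 0 ∧ R.red₂ ⟨algebraMap K F a * u, h₂⟩ ≠ 0 := by
  have hR := hT.isTR
  obtain ⟨a, ha, h₁, hr₁⟩ := hR.prim₁ u hu
  set w : F := algebraMap K F a * u with hw
  have hDw : ∀ P, D P = P.ord w := fun P => by rw [hD P, hw, ln_ord_const_mul P ha]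
  by_cases h₂ : w ∈ R.O₂
  · exact ⟨a, ha, h₁, h₂, hr₁, ln_red₂_ne_zero hT h₁ hr₁ h₂ D hDw hsm hdeg⟩
  · exfalso
    have hi₂ : w⁻¹ ∈ R.O₂ := (R.O₂.mem_or_inv_mem w).resolve_left h₂
    have hi₁ : w⁻¹ ∈ R.O₁ := ln_inv_mem₁ hR h₁ hr₁
    have hri₁ : R.red₁ ⟨w⁻¹, hi₁⟩ ≠ 0 := by
      rw [ln_red₁_inv hR h₁ hr₁]
      exact inv_ne_zero hr₁
    have hnon : w⁻¹ ∈ R.O₂.nonunits := by
      rw [ValuationSubring.mem_nonunits_iff_or]
      right
      rwa [inv_inv]
    have h0 : R.red₂ ⟨w⁻¹, hi₂⟩ = 0 := (hR.red₂_eq_zero_iff _).mpr hnon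
    refine ln_red₂_ne_zero hT hi₁ hri₁ hi₂ (-D) (fun P => ?_) (R.smDiv.neg_mem hsm) ?_ h0
    · rw [Finsupp.neg_apply, hDw P, Place.ord_inv]
    · rw [map_neg, map_neg, hdeg, neg_zero]

/-! ### `glue_unit` -/

/-- if `u ∈ O₁ ∩ O₂` has no pole of node type and its reductions are a glued unit, then the
zeros of `u` are of smooth type. -/
theorem ln_glue_unit {g : ℕ} (hT : R.IsToric g) (u : F) (h₁ : u ∈ R.O₁) (h₂ : u ∈ R.O₂)
    (hpole : ∀ P : Place K F, P.ord u < 0 → (R.r P).isSome)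
    (hg : R.GluedUnit (R.red₁ ⟨u, h₁⟩) (R.red₂ ⟨u, h₂⟩)) :
    ∀ P : Place K F, 0 < P.ord u → (R.r P).isSome := by
  have hR := hT.isTR
  obtain ⟨x₀, hx₀⟩ := IsToric_X_nonempty hT
  obtain ⟨a₀, ha₀, hv1, hv2⟩ := hg x₀ hx₀
  have hu₁ : R.red₁ ⟨u, h₁⟩ ≠ 0 := ln_ne_zero_of_value hv1 ha₀
  have hu₂ : R.red₂ ⟨u, h₂⟩ ≠ 0 := ln_ne_zero_of_value hv2 ha₀
  have hu0 : u ≠ 0 := ln_ne_zero₁ hR h₁ hu₁
  obtain ⟨D, hD, hD0⟩ := hT.nice.hpd.exists_divisor u hu0
  obtain ⟨E₁, hE₁, hE₁0⟩ := hT.nice₁.hpd.exists_divisor _ hu₁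
  obtain ⟨E₂, hE₂, hE₂0⟩ := hT.nice₂.hpd.exists_divisor _ hu₂
  have hp1 : R.push₁ D = E₁ := by
    ext Q
    rw [hE₁]
    by_cases hQ : ∀ x ∈ R.X, x.1 ≠ Q
    · exact hR.r_div₁ ⟨u, h₁⟩ hu₁ D hD Q hQ
    · push Not at hQ
      obtain ⟨x, hx, rfl⟩ := hQ
      obtain ⟨a, ha, h1, -⟩ := hg x hx
      rw [ln_push₁_cross hR D hx, ln_ord_eq_zero_of_value h1 ha]
  have hp2 : R.push₂ D = E₂ := by
    ext Q
    rw [hE₂]
    by_cases hQ : ∀ x ∈ R.X, x.2 ≠ Q
    · exact hR.r_div₂ ⟨u, h₂⟩ hu₂ D hD Q hQ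
    · push Not at hQ
      obtain ⟨x, hx, rfl⟩ := hQ
      obtain ⟨a, ha, -, h2⟩ := hg x hx
      rw [ln_push₂_cross hR D hx, ln_ord_eq_zero_of_value h2 ha]
  have hsplit := ln_degree_split R (IsToric_deg hT) (IsToric_deg₁ hT) (IsToric_deg₂ hT) D
  rw [hD0, hp1, hp2, hE₁0, hE₂0, zero_add, zero_add] at hsplit
  have hnn : ∀ P ∈ D.support, 0 ≤ (if R.r P = none then D P else 0) := by
    intro P _
    by_cases h : R.r P = none
    · rw [if_pos h, hD P]
      by_contra hneg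
      have := hpole P (not_le.mp hneg)
      rw [h] at this
      exact absurd this (by simp)
    · rw [if_neg h]
  intro P hP
  by_contra hns
  have hnone : R.r P = none := by
    rcases h : R.r P with _ | y
    · rfl
    · rw [h] at hns; exact absurd rfl hns
  have hmem : P ∈ D.support := Finsupp.mem_support_iff.mpr (by rw [hD P]; exact ne_of_gt hP)
  have hle := Finset.single_le_sum hnn hmem
  rw [← hsplit, if_pos hnone, hD P] at hle
  exact absurd hP (not_lt.mpr hle)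

/-! ### The kernel of reduction does not depend on the representative -/

/-- a principal divisor of type `(0, 0)` reduces to a principal divisor of the nodal curve -/
theorem ln_principal_mem_div1 {g : ℕ} (hT : R.IsToric g) {D : Divisor K F} (hD : D ∈ R.div00)
    (hp : D ∈ Divisor.principal (K := K) (F := F)) : D ∈ R.div1 := by
  obtain ⟨u, hu0, hu⟩ := hp
  obtain ⟨hsm, hd1, -⟩ := (ln_mem_div00 R).mp hD
  obtain ⟨a, ha, h₁, h₂, hr₁, hr₂⟩ := ln_slope hT u hu0 D hu hsm hd1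
  refine (ln_mem_div1 R).mpr ⟨hD, ?_⟩
  exact ln_isPrincBar_of_biunit hT.isTR h₁ h₂ hr₁ hr₂ D
    (fun P => by rw [hu P, ln_ord_const_mul P ha]) hsm

/-- the kernel of reduction does not depend on the representative of type `(0, 0)` -/
theorem ln_mem_div1_of_mk_eq {g : ℕ} (hT : R.IsToric g)
    {D D' : Divisor.degZero (K := K) (F := F)}
    (h : Pic0.mk D = Pic0.mk D') (hD : (D : Divisor K F) ∈ R.div1)
    (hD' : (D' : Divisor K F) ∈ R.div00) : (D' : Divisor K F) ∈ R.div1 := by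
  have hp := (ln_mk_eq_iff).mp h
  have h00 : (D' : Divisor K F) - (D : Divisor K F) ∈ R.div00 :=
    R.div00.sub_mem hD' (ln_div1_le_div00 R hD)
  have h1 := ln_principal_mem_div1 hT h00 hp
  have := R.div1.add_mem h1 hD
  rwa [sub_add_cancel] at this

/-- membership in `J1` can be tested on any representative of type `(0, 0)` -/
theorem ln_mem_J1_iff_of_rep {g : ℕ} (hT : R.IsToric g)
    {D : Divisor.degZero (K := K) (F := F)} (hD : (D : Divisor K F) ∈ R.div00) :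
    Pic0.mk D ∈ R.J1 ↔ (D : Divisor K F) ∈ R.div1 := by
  constructor
  · intro h
    obtain ⟨D₁, hD₁, h1⟩ := (ln_mem_J1 R).mp h
    exact ln_mem_div1_of_mk_eq hT h1 hD₁ hD
  · intro h
    exact (ln_mem_J1 R).mpr ⟨D, h, rfl⟩

end TR

end Fermat.Agent.S15.LN

end
end ZBZ2S15_022_4

/-! ### bundled: `Fermat.Agent.S15.LNRR2` -/
section ZBZ2S15_022_5

/-!
# S15 block LOCAL-N, piece LN-RR part 2 (helper10): charts, tangent, wrappers for `TRData`

Notation of `S15/LNRR.lean`.  A CHART is a set `T` of `g` smooth points of the first component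
`C₁`; it is automatically non-special: `L̄(ΣT, 0) = k · (1, 1)`.

* `ln_rr_chart₁` : `dim L̄(ΣT, 0) = 1`; `ln_rr_const_of_chart₁` : its elements are constants;
* `ln_rr_exists_chart₁` : charts exist outside any finite set;
* `ln_rr_finrank_chart_add₁` : `dim L̄(ΣT + A₁, A₂) = deg A₁ + deg A₂ + 1` for `A ≥ 0` away from
  `X`;
* `ln_rr_tangent_const` : the tangent computation of DIV¹ on the nodal curve;
* `ln_rr_isNodal`, `ln_rr_Lbar_eq`, `ln_rr_Lbar_finite`, `ln_rr_Lbar_lower`,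
  `ln_rr_Lbar_finrank₁/₂`, `ln_rr_Lbar_finrank_smDiv₁` : the statements for `R.Lbar D`;
* `ln_rr_exists_lift₁/₂`, `ln_rr_exists_lift_div₁/₂` : lifts of (sums of) smooth points of the
  special fibre to divisors of smooth type.
-/

set_option autoImplicit false
set_option linter.unusedSectionVars false
set_option linter.unusedVariables false
set_option linter.style.haveILetI false

noncomputable section

open AlgebraicCurve Module WithZero

namespace Fermat.Agent.S15.LN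

open Fermat.Agent.W1 Fermat.Agent.S24 Fermat.Agent.ES.R Fermat.Agent.S15.Div1

open scoped Classical

/-! ### Charts -/

section Chart

variable {k F₁ F₂ : Type} [Field k] [Field F₁] [Algebra k F₁] [Field F₂] [Algebra k F₂]
variable {X : Finset (Place k F₁ × Place k F₂)} {g : ℕ}

theorem ln_rr_one_mem (X : Finset (Place k F₁ × Place k F₂)) {E₁ : Divisor k F₁}
    {E₂ : Divisor k F₂} (h₁ : 0 ≤ E₁) (h₂ : 0 ≤ E₂) :
    ((1 : F₁), (1 : F₂)) ∈ lnLbar X E₁ E₂ :=
  ⟨gp_one_mem_rr h₁, gp_one_mem_rr h₂,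
    fun x _ => ⟨1, ln_hasValueAt_one x.1, ln_hasValueAt_one x.2⟩⟩

theorem ln_rr_const_mem (X : Finset (Place k F₁ × Place k F₂)) {E₁ : Divisor k F₁}
    {E₂ : Divisor k F₂} (h₁ : 0 ≤ E₁) (h₂ : 0 ≤ E₂) (c : k) :
    (algebraMap k F₁ c, algebraMap k F₂ c) ∈ lnLbar X E₁ E₂ := by
  have h := (lnLbar X E₁ E₂).smul_mem c (ln_rr_one_mem X h₁ h₂)
  have e : c • ((1 : F₁), (1 : F₂)) = (algebraMap k F₁ c, algebraMap k F₂ c) := by
    rw [Prod.smul_mk, Algebra.algebraMap_eq_smul_one, Algebra.algebraMap_eq_smul_one]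
  rwa [e] at h

/-- if `dim L̄(E) ≤ 1`, `E ≥ 0`, then `L̄(E)` consists of constants -/
theorem ln_rr_const_of_finrank_le_one (h : IsNodal X g) {E₁ : Divisor k F₁} {E₂ : Divisor k F₂}
    (h₁ : 0 ≤ E₁) (h₂ : 0 ≤ E₂) (hd : finrank k ↥(lnLbar X E₁ E₂) ≤ 1) {f : F₁ × F₂}
    (hf : f ∈ lnLbar X E₁ E₂) : ∃ c : k, f = (algebraMap k F₁ c, algebraMap k F₂ c) := by
  haveI := ln_rr_finite h E₁ E₂
  rw [finrank_le_one_iff] at hd
  obtain ⟨w, hw⟩ := hd
  obtain ⟨c₁, hc₁⟩ := hw ⟨((1 : F₁), (1 : F₂)), ln_rr_one_mem X h₁ h₂⟩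
  obtain ⟨c₂, hc₂⟩ := hw ⟨f, hf⟩
  have hc₁0 : c₁ ≠ 0 := by
    rintro rfl
    rw [zero_smul] at hc₁
    have h0 : ((1 : F₁), (1 : F₂)) = 0 := (congrArg Subtype.val hc₁).symm
    exact one_ne_zero (congrArg Prod.fst h0)
  refine ⟨c₂ * c₁⁻¹, ?_⟩
  have e1 : (w : F₁ × F₂) = c₁⁻¹ • ((1 : F₁), (1 : F₂)) := by
    have h1 : c₁ • (w : F₁ × F₂) = ((1 : F₁), (1 : F₂)) := congrArg Subtype.val hc₁
    rw [← h1, smul_smul, inv_mul_cancel₀ hc₁0, one_smul]
  have e2 : f = c₂ • (w : F₁ × F₂) := (congrArg Subtype.val hc₂).symm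
  rw [e2, e1, smul_smul, Prod.smul_mk, Algebra.algebraMap_eq_smul_one,
    Algebra.algebraMap_eq_smul_one]

/-- **charts are non-special**: `dim L̄(ΣT, 0) = 1` for `g` smooth points of `C₁` -/
theorem ln_rr_chart₁ (h : IsNodal X g) (T : Finset (Place k F₁)) (hT : T.card = g)
    (hTX : ∀ x ∈ X, x.1 ∉ T) :
    finrank k ↥(lnLbar X (gpSum T) (0 : Divisor k F₂)) = 1 := by
  have h1 := ln_rr_finrank₁ h (gpSum T) (0 : Divisor k F₂)
    (fun x hx => gpSum_apply_of_not_mem (hTX x hx)) (fun x hx => by simp)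
    (by rw [degree_gpSum h.nice₁.hres, hT]) (by simp)
  rw [degree_gpSum h.nice₁.hres, hT, map_zero] at h1
  have h2 : (finrank k ↥(lnLbar X (gpSum T) (0 : Divisor k F₂)) : ℤ) = 1 := by linarith
  exact_mod_cast h2

/-- the elements of `L̄(ΣT, 0)` are the constants -/
theorem ln_rr_const_of_chart₁ (h : IsNodal X g) (T : Finset (Place k F₁)) (hT : T.card = g)
    (hTX : ∀ x ∈ X, x.1 ∉ T) {f : F₁ × F₂} (hf : f ∈ lnLbar X (gpSum T) (0 : Divisor k F₂)) :
    ∃ c : k, f = (algebraMap k F₁ c, algebraMap k F₂ c) :=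
  ln_rr_const_of_finrank_le_one h (gpSum_nonneg T) le_rfl (ln_rr_chart₁ h T hT hTX).le hf

/-- charts exist outside any finite set -/
theorem ln_rr_exists_chart₁ (h : IsNodal X g) (S : Finset (Place k F₁)) :
    ∃ T : Finset (Place k F₁), T.card = g ∧ Disjoint T S ∧ (∀ x ∈ X, x.1 ∉ T) ∧
      finrank k ↥(lnLbar X (gpSum T) (0 : Divisor k F₂)) = 1 := by
  have hinf : (Set.univ \ (↑(S ∪ lnX₁ X) : Set (Place k F₁))).Infinite :=
    h.nice₁.infinite.sdiff (Finset.finite_toSet _)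
  obtain ⟨T, hTsub, hTcard⟩ := hinf.exists_subset_card_eq g
  have hT1 : ∀ Q ∈ T, Q ∉ S ∪ lnX₁ X := fun Q hQ => by
    have := hTsub hQ
    exact fun hmem => this.2 (Finset.mem_coe.mpr hmem)
  have hTX : ∀ x ∈ X, x.1 ∉ T := fun x hx hxT =>
    hT1 x.1 hxT (Finset.mem_union_right _ (ln_rr_mem_X₁.mpr ⟨x, hx, rfl⟩))
  refine ⟨T, hTcard, ?_, hTX, ln_rr_chart₁ h T hTcard hTX⟩
  rw [Finset.disjoint_left]
  intro Q hQ hQS
  exact hT1 Q hQ (Finset.mem_union_left _ hQS)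

/-- `dim L̄(ΣT + A₁, A₂) = deg A₁ + deg A₂ + 1` for a chart `T` and `A ≥ 0` away from `X` -/
theorem ln_rr_finrank_chart_add₁ (h : IsNodal X g) (T : Finset (Place k F₁)) (hT : T.card = g)
    (hTX : ∀ x ∈ X, x.1 ∉ T) {A₁ : Divisor k F₁} {A₂ : Divisor k F₂} (hA₁ : 0 ≤ A₁)
    (hA₂ : 0 ≤ A₂) (hX₁ : ∀ x ∈ X, A₁ x.1 = 0) (hX₂ : ∀ x ∈ X, A₂ x.2 = 0) :
    (finrank k ↥(lnLbar X (gpSum T + A₁) A₂) : ℤ) =
      Divisor.degree A₁ + Divisor.degree A₂ + 1 := by
  haveI := h.nice₁.hpd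
  haveI := h.nice₂.hpd
  have hd₁ := degree_nonneg hA₁
  have hd₂ := degree_nonneg hA₂
  have h1 := ln_rr_finrank₁ h (gpSum T + A₁) A₂
    (fun x hx => by
      rw [Finsupp.add_apply, gpSum_apply_of_not_mem (hTX x hx), hX₁ x hx, add_zero])
    (fun x hx => le_of_eq (hX₂ x hx))
    (by rw [map_add, degree_gpSum h.nice₁.hres, hT]; linarith) (by linarith)
  rw [map_add, degree_gpSum h.nice₁.hres, hT] at h1
  linarith

/-! ### The tangent computation -/

/-- the first step of the tangent computation, on one curve -/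
theorem ln_rr_tangent_step {F : Type} [Field F] [Algebra k F] {TN TR : Finset (Place k F)}
    (hdisj : Disjoint TN TR) (m : ℕ) {du dv dh : F}
    (hu : du ∈ riemannRochSpace (gpSum TN + gpSum TR))
    (hv : dv ∈ riemannRochSpace (m • gpSum TN))
    (hh : dh ∈ riemannRochSpace (m • gpSum TR))
    (heq : (m : F) * du = dv + dh) :
    dv ∈ riemannRochSpace (gpSum TN) ∧ dh ∈ riemannRochSpace (gpSum TR) := by
  have hmu : ∀ v : Place k F, v.adicValuation ((m : F) * du) ≤ v.adicValuation du := by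
    intro v
    rw [map_mul, natCast_eq_algebraMap (K := k)]
    exact mul_le_of_le_one_left' (v.adicValuation_algebraMap_le_one _)
  have h01 : exp (0 : ℤ) ≤ (exp (1 : ℤ) : ℤᵐ⁰) := exp_le_exp.mpr (by norm_num)
  constructor
  · refine mem_rr_gpSum_of_simple m hv fun v hvN => ?_
    have hvR : v ∉ TR := fun h => Finset.disjoint_left.mp hdisj hvN h
    have e1 : dv = (m : F) * du - dh := by rw [heq]; ring
    rw [e1]
    refine (Valuation.map_sub _ _ _).trans (max_le ?_ ?_)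
    · refine (hmu v).trans ?_
      have := hu v
      rwa [Finsupp.add_apply, gpSum_apply_of_mem hvN, gpSum_apply_of_not_mem hvR,
        add_zero] at this
    · have := hh v
      rw [smul_gpSum_apply_of_not_mem m hvR] at this
      exact this.trans h01
  · refine mem_rr_gpSum_of_simple m hh fun v hvR => ?_
    have hvN : v ∉ TN := fun h => Finset.disjoint_left.mp hdisj h hvR
    have e1 : dh = (m : F) * du - dv := by rw [heq]; ring
    rw [e1]
    refine (Valuation.map_sub _ _ _).trans (max_le ?_ ?_)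
    · refine (hmu v).trans ?_
      have := hu v
      rwa [Finsupp.add_apply, gpSum_apply_of_mem hvR, gpSum_apply_of_not_mem hvN,
        zero_add] at this
    · have := hv v
      rw [smul_gpSum_apply_of_not_mem m hvN] at this
      exact this.trans h01

/-- **the tangent computation on the nodal curve**: `TN`, `TR` disjoint charts on `C₁`, `m`
invertible in `k`; if `m · δu = δv + δh` with `δu ∈ L̄(ΣTN + ΣTR, 0)`, `δv ∈ L̄(m ΣTN, 0)`,
`δh ∈ L̄(m ΣTR, 0)`, then `δu`, `δv`, `δh` are constants. -/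
theorem ln_rr_tangent_const (h : IsNodal X g) {TN TR : Finset (Place k F₁)}
    (hdisj : Disjoint TN TR) (hN : TN.card = g) (hR : TR.card = g)
    (hNX : ∀ x ∈ X, x.1 ∉ TN) (hRX : ∀ x ∈ X, x.1 ∉ TR) (m : ℕ) (hm : (m : k) ≠ 0)
    {du dv dh : F₁ × F₂}
    (hu : du ∈ lnLbar X (gpSum TN + gpSum TR) (0 : Divisor k F₂))
    (hv : dv ∈ lnLbar X (m • gpSum TN) (0 : Divisor k F₂))
    (hh : dh ∈ lnLbar X (m • gpSum TR) (0 : Divisor k F₂))
    (heq : (m : k) • du = dv + dh) :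
    (∃ c : k, du = (algebraMap k F₁ c, algebraMap k F₂ c)) ∧
      (∃ c : k, dv = (algebraMap k F₁ c, algebraMap k F₂ c)) ∧
      ∃ c : k, dh = (algebraMap k F₁ c, algebraMap k F₂ c) := by
  have heq1 : (m : F₁) * du.1 = dv.1 + dh.1 := by
    have := congrArg Prod.fst heq
    rw [Prod.smul_fst, Prod.fst_add, Algebra.smul_def, map_natCast] at this
    exact this
  obtain ⟨hv1, hh1⟩ := ln_rr_tangent_step hdisj m hu.1 hv.1 hh.1 heq1
  obtain ⟨c₂, hc₂⟩ := ln_rr_const_of_chart₁ h TN hN hNX (f := dv) ⟨hv1, hv.2.1, hv.2.2⟩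
  obtain ⟨c₃, hc₃⟩ := ln_rr_const_of_chart₁ h TR hR hRX (f := dh) ⟨hh1, hh.2.1, hh.2.2⟩
  refine ⟨⟨(m : k)⁻¹ * (c₂ + c₃), ?_⟩, ⟨c₂, hc₂⟩, ⟨c₃, hc₃⟩⟩
  have e1 : du = (m : k)⁻¹ • (dv + dh) := by
    rw [← heq, smul_smul, inv_mul_cancel₀ hm, one_smul]
  rw [e1, hc₂, hc₃, Prod.mk_add_mk, Prod.smul_mk, ← map_add, ← map_add, Algebra.smul_def,
    Algebra.smul_def, ← map_mul, ← map_mul]

end Chart

/-! ### The statements for a two-component reduction -/

section TR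

variable {K F k F₁ F₂ : Type} [Field K] [Field F] [Algebra K F] [Field k]
  [Field F₁] [Algebra k F₁] [Field F₂] [Algebra k F₂]
variable {A : ValuationSubring K} {R : TRData K F k F₁ F₂ A} {g : ℕ}

theorem ln_rr_isNodal (hT : R.IsToric g) : IsNodal R.X g :=
  ⟨hT.nice₁, hT.nice₂, hT.isTR.cross_inj₁, hT.isTR.cross_inj₂, hT.card⟩

theorem ln_rr_Lbar_eq (R : TRData K F k F₁ F₂ A) (D : Divisor K F) :
    R.Lbar D = lnLbar R.X (R.push₁ D) (R.push₂ D) := by
  ext f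
  rw [ln_mem_Lbar]
  rfl

theorem ln_rr_Lbar_finite (hT : R.IsToric g) (D : Divisor K F) :
    Module.Finite k ↥(R.Lbar D) := by
  rw [ln_rr_Lbar_eq]
  exact ln_rr_finite (ln_rr_isNodal hT) _ _

/-- Riemann's inequality for `L̄(r_* D)` -/
theorem ln_rr_Lbar_lower (hT : R.IsToric g) (D : Divisor K F) :
    Divisor.degree (R.push₁ D) + Divisor.degree (R.push₂ D) + 1 - g ≤
      (finrank k ↥(R.Lbar D) : ℤ) := by
  rw [ln_rr_Lbar_eq]
  exact ln_rr_lower (ln_rr_isNodal hT) _ _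
    (fun x hx => le_of_eq (ln_push₁_cross hT.isTR D hx))
    (fun x hx => le_of_eq (ln_push₂_cross hT.isTR D hx))

/-- Riemann–Roch for `L̄(r_* D)`: `deg r_{1*} D ≥ g`, `deg r_{2*} D ≥ −1` -/
theorem ln_rr_Lbar_finrank₁ (hT : R.IsToric g) (D : Divisor K F)
    (hd₁ : (g : ℤ) ≤ Divisor.degree (R.push₁ D)) (hd₂ : -1 ≤ Divisor.degree (R.push₂ D)) :
    (finrank k ↥(R.Lbar D) : ℤ) =
      Divisor.degree (R.push₁ D) + Divisor.degree (R.push₂ D) + 1 - g := by
  rw [ln_rr_Lbar_eq]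
  exact ln_rr_finrank₁ (ln_rr_isNodal hT) _ _
    (fun x hx => ln_push₁_cross hT.isTR D hx)
    (fun x hx => le_of_eq (ln_push₂_cross hT.isTR D hx)) hd₁ hd₂

/-- Riemann–Roch for `L̄(r_* D)`: `deg r_{1*} D ≥ −1`, `deg r_{2*} D ≥ g` -/
theorem ln_rr_Lbar_finrank₂ (hT : R.IsToric g) (D : Divisor K F)
    (hd₁ : -1 ≤ Divisor.degree (R.push₁ D)) (hd₂ : (g : ℤ) ≤ Divisor.degree (R.push₂ D)) :
    (finrank k ↥(R.Lbar D) : ℤ) =
      Divisor.degree (R.push₁ D) + Divisor.degree (R.push₂ D) + 1 - g := by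
  rw [ln_rr_Lbar_eq]
  exact ln_rr_finrank₂ (ln_rr_isNodal hT) _ _
    (fun x hx => le_of_eq (ln_push₁_cross hT.isTR D hx))
    (fun x hx => ln_push₂_cross hT.isTR D hx) hd₁ hd₂

/-- the degree of a divisor of smooth type is the sum of the degrees on the components -/
theorem ln_rr_degree_smDiv (hT : R.IsToric g) {D : Divisor K F} (hD : D ∈ R.smDiv) :
    Divisor.degree D = Divisor.degree (R.push₁ D) + Divisor.degree (R.push₂ D) := by
  rw [ln_degree_split R (IsToric_deg hT) (IsToric_deg₁ hT) (IsToric_deg₂ hT) D]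
  have h0 : ∑ P ∈ D.support, (if R.r P = none then D P else 0) = 0 := by
    refine Finset.sum_eq_zero fun P hP => ?_
    rw [if_neg]
    intro hnone
    have := hD P (Finsupp.mem_support_iff.mp hP)
    rw [hnone] at this
    exact absurd this (by simp)
  rw [h0, add_zero]

/-- Riemann–Roch for `L̄(r_* D)`, `D` of smooth type: `dim L̄(r_* D) = deg D + 1 − g` if
`deg r_{1*} D ≥ g`, `deg r_{2*} D ≥ −1` -/
theorem ln_rr_Lbar_finrank_smDiv₁ (hT : R.IsToric g) {D : Divisor K F} (hD : D ∈ R.smDiv)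
    (hd₁ : (g : ℤ) ≤ Divisor.degree (R.push₁ D)) (hd₂ : -1 ≤ Divisor.degree (R.push₂ D)) :
    (finrank k ↥(R.Lbar D) : ℤ) = Divisor.degree D + 1 - g := by
  rw [ln_rr_Lbar_finrank₁ hT D hd₁ hd₂, ln_rr_degree_smDiv hT hD]

/-! #### Lifts -/

theorem ln_rr_push₁_single (R : TRData K F k F₁ F₂ A) {P : Place K F} {Q : Place k F₁}
    (hP : R.r P = some (Sum.inl Q)) (n : ℤ) :
    R.push₁ (Finsupp.single P n) = Finsupp.single Q n := by
  unfold TRData.push₁
  rw [Finsupp.liftAddHom_apply_single]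
  unfold TRData.pt₁
  rw [hP]
  rfl

theorem ln_rr_push₂_single_inl (R : TRData K F k F₁ F₂ A) {P : Place K F} {Q : Place k F₁}
    (hP : R.r P = some (Sum.inl Q)) (n : ℤ) :
    R.push₂ (Finsupp.single P n) = 0 := by
  unfold TRData.push₂
  rw [Finsupp.liftAddHom_apply_single]
  unfold TRData.pt₂
  rw [hP]
  rfl

theorem ln_rr_push₂_single (R : TRData K F k F₁ F₂ A) {P : Place K F} {Q : Place k F₂}
    (hP : R.r P = some (Sum.inr Q)) (n : ℤ) :
    R.push₂ (Finsupp.single P n) = Finsupp.single Q n := by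
  unfold TRData.push₂
  rw [Finsupp.liftAddHom_apply_single]
  unfold TRData.pt₂
  rw [hP]
  rfl

theorem ln_rr_push₁_single_inr (R : TRData K F k F₁ F₂ A) {P : Place K F} {Q : Place k F₂}
    (hP : R.r P = some (Sum.inr Q)) (n : ℤ) :
    R.push₁ (Finsupp.single P n) = 0 := by
  unfold TRData.push₁
  rw [Finsupp.liftAddHom_apply_single]
  unfold TRData.pt₁
  rw [hP]
  rfl

theorem ln_rr_single_mem_smDiv (R : TRData K F k F₁ F₂ A) {P : Place K F}
    (hP : (R.r P).isSome) (n : ℤ) : Finsupp.single P n ∈ R.smDiv := by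
  intro P' hP'
  by_cases h : P' = P
  · rw [h]; exact hP
  · exact absurd (Finsupp.single_eq_of_ne (Ne.symm (Ne.symm h))) hP'

/-- a divisor supported on the smooth points of `C₁` lifts to a divisor of smooth type -/
theorem ln_rr_exists_lift_div₁ (hT : R.IsToric g) (E : Divisor k F₁)
    (hE : ∀ x ∈ R.X, E x.1 = 0) :
    ∃ D : Divisor K F, D ∈ R.smDiv ∧ R.push₁ D = E ∧ R.push₂ D = 0 ∧ (0 ≤ E → 0 ≤ D) := by
  induction E using Finsupp.induction with
  | zero =>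
    exact ⟨0, R.smDiv.zero_mem, map_zero _, map_zero _, fun _ => le_rfl⟩
  | single_add Q n E hQ hn ih =>
    have hEQ : E Q = 0 := Finsupp.notMem_support_iff.mp hQ
    have hQX : ∀ x ∈ R.X, x.1 ≠ Q := by
      intro x hx hxQ
      have := hE x hx
      rw [Finsupp.add_apply, hxQ, Finsupp.single_eq_same, hEQ, add_zero] at this
      exact hn this
    have hE' : ∀ x ∈ R.X, E x.1 = 0 := by
      intro x hx
      have := hE x hx
      rwa [Finsupp.add_apply, Finsupp.single_eq_of_ne (hQX x hx), zero_add] at this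
    obtain ⟨D, hD, h1, h2, h3⟩ := ih hE'
    obtain ⟨P, hP⟩ := ln_onto₁ hT.isTR hT.nice.hpd Q hQX
    refine ⟨Finsupp.single P n + D,
      R.smDiv.add_mem (ln_rr_single_mem_smDiv R (by rw [hP]; rfl) n) hD, ?_, ?_, ?_⟩
    · rw [map_add, ln_rr_push₁_single R hP, h1]
    · rw [map_add, ln_rr_push₂_single_inl R hP, h2, add_zero]
    · intro hnn
      have hn0 : 0 ≤ n := by
        have := Finsupp.le_def.mp hnn Q
        rwa [Finsupp.coe_zero, Pi.zero_apply, Finsupp.add_apply, Finsupp.single_eq_same, hEQ,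
          add_zero] at this
      have hE0 : 0 ≤ E := by
        rw [Finsupp.le_def]
        intro v
        by_cases hv : v = Q
        · rw [hv, hEQ]; rfl
        · have := Finsupp.le_def.mp hnn v
          rwa [Finsupp.coe_zero, Pi.zero_apply, Finsupp.add_apply,
            Finsupp.single_eq_of_ne (Ne.symm (Ne.symm hv)), zero_add] at this
      refine add_nonneg ?_ (h3 hE0)
      rw [Finsupp.le_def]
      intro v
      by_cases hv : v = P
      · rw [hv, Finsupp.single_eq_same]; exact hn0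
      · rw [Finsupp.single_eq_of_ne (Ne.symm (Ne.symm hv))]; rfl

/-- a divisor supported on the smooth points of `C₂` lifts to a divisor of smooth type -/
theorem ln_rr_exists_lift_div₂ (hT : R.IsToric g) (E : Divisor k F₂)
    (hE : ∀ x ∈ R.X, E x.2 = 0) :
    ∃ D : Divisor K F, D ∈ R.smDiv ∧ R.push₁ D = 0 ∧ R.push₂ D = E ∧ (0 ≤ E → 0 ≤ D) := by
  induction E using Finsupp.induction with
  | zero =>
    exact ⟨0, R.smDiv.zero_mem, map_zero _, map_zero _, fun _ => le_rfl⟩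
  | single_add Q n E hQ hn ih =>
    have hEQ : E Q = 0 := Finsupp.notMem_support_iff.mp hQ
    have hQX : ∀ x ∈ R.X, x.2 ≠ Q := by
      intro x hx hxQ
      have := hE x hx
      rw [Finsupp.add_apply, hxQ, Finsupp.single_eq_same, hEQ, add_zero] at this
      exact hn this
    have hE' : ∀ x ∈ R.X, E x.2 = 0 := by
      intro x hx
      have := hE x hx
      rwa [Finsupp.add_apply, Finsupp.single_eq_of_ne (hQX x hx), zero_add] at this
    obtain ⟨D, hD, h1, h2, h3⟩ := ih hE'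
    obtain ⟨P, hP⟩ := ln_onto₂ hT.isTR hT.nice.hpd Q hQX
    refine ⟨Finsupp.single P n + D,
      R.smDiv.add_mem (ln_rr_single_mem_smDiv R (by rw [hP]; rfl) n) hD, ?_, ?_, ?_⟩
    · rw [map_add, ln_rr_push₁_single_inr R hP, h1, add_zero]
    · rw [map_add, ln_rr_push₂_single R hP, h2]
    · intro hnn
      have hn0 : 0 ≤ n := by
        have := Finsupp.le_def.mp hnn Q
        rwa [Finsupp.coe_zero, Pi.zero_apply, Finsupp.add_apply, Finsupp.single_eq_same, hEQ,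
          add_zero] at this
      have hE0 : 0 ≤ E := by
        rw [Finsupp.le_def]
        intro v
        by_cases hv : v = Q
        · rw [hv, hEQ]; rfl
        · have := Finsupp.le_def.mp hnn v
          rwa [Finsupp.coe_zero, Pi.zero_apply, Finsupp.add_apply,
            Finsupp.single_eq_of_ne (Ne.symm (Ne.symm hv)), zero_add] at this
      refine add_nonneg ?_ (h3 hE0)
      rw [Finsupp.le_def]
      intro v
      by_cases hv : v = P
      · rw [hv, Finsupp.single_eq_same]; exact hn0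
      · rw [Finsupp.single_eq_of_ne (Ne.symm (Ne.symm hv))]; rfl

/-- a chart lifts to an effective divisor of smooth type -/
theorem ln_rr_exists_lift₁ (hT : R.IsToric g) (T : Finset (Place k F₁))
    (hTX : ∀ x ∈ R.X, x.1 ∉ T) :
    ∃ Nd : Divisor K F, 0 ≤ Nd ∧ Nd ∈ R.smDiv ∧ R.push₁ Nd = gpSum T ∧ R.push₂ Nd = 0 := by
  obtain ⟨D, hD, h1, h2, h3⟩ := ln_rr_exists_lift_div₁ hT (gpSum T)
    (fun x hx => gpSum_apply_of_not_mem (hTX x hx))
  exact ⟨D, h3 (gpSum_nonneg T), hD, h1, h2⟩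

end TR

end Fermat.Agent.S15.LN

end
end ZBZ2S15_022_5

/-! ### bundled: `Fermat.Agent.S15.LNOrth` -/
section ZBZ2S15_022_6

/-!
# S15 block LOCAL-N, pieces LN-DIV / LN-TF, part 1 (helper5): orthonormal bases on the nodal curve

Transplant of `S15/Div1Orth.lean`, `W1/GeoOrthApprox.lean` (helper94) to a two-component
reduction `R : TRData K F k F₁ F₂ A`:

* `R.O₁₂ = O₁ ∩ O₂` (a subring of `F`), `R.red₁₂ : O₁ ∩ O₂ →+* F₁ × F₂`;
* `ln_ob_coeff_mem`, `ln_ob_linearIndependent`, `ln_ob_red_sum` : orthonormal families;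
* `IsOB₂ R D e` : `e` is a basis of `L(D)` in `O₁ ∩ O₂` whose reductions are a basis of
  `L̄(r_* D) = R.Lbar D`; `exists_isOB₂` (from `Orth` and the nodal Riemann–Roch of LN-RR);
* the API `IsOB₂.red_comb`, `exists_coeff`, `exists_lift`, `coeff_nonunit`, … .
-/

set_option autoImplicit false
set_option linter.unusedSectionVars false
set_option linter.unusedVariables false
set_option linter.style.haveILetI false

noncomputable section

open AlgebraicCurve Module WithZero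

namespace Fermat.Agent.S15.LN

open Fermat.Agent.W1 Fermat.Agent.S24 Fermat.Agent.ES.R Fermat.Agent.S15.Div1

variable {K F k F₁ F₂ : Type} [Field K] [Field F] [Algebra K F] [Field k]
  [Field F₁] [Algebra k F₁] [Field F₂] [Algebra k F₂]
variable {A : ValuationSubring K} {R : TRData K F k F₁ F₂ A} {g : ℕ}

/-! ### `O₁ ∩ O₂` and its reduction -/

/-- `O₁ ∩ O₂` -/
def TRData.O₁₂ (R : TRData K F k F₁ F₂ A) : Subring F := R.O₁.toSubring ⊓ R.O₂.toSubring

theorem ln_ob_mem {u : F} : u ∈ R.O₁₂ ↔ u ∈ R.O₁ ∧ u ∈ R.O₂ := Iff.rfl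

/-- the reduction `O₁ ∩ O₂ → F₁ × F₂` -/
def TRData.red₁₂ (R : TRData K F k F₁ F₂ A) : R.O₁₂ →+* F₁ × F₂ where
  toFun x := (R.red₁ ⟨x.1, x.2.1⟩, R.red₂ ⟨x.1, x.2.2⟩)
  map_one' := Prod.ext (map_one R.red₁) (map_one R.red₂)
  map_mul' x y := Prod.ext (map_mul R.red₁ ⟨x.1, x.2.1⟩ ⟨y.1, y.2.1⟩)
    (map_mul R.red₂ ⟨x.1, x.2.2⟩ ⟨y.1, y.2.2⟩)
  map_zero' := Prod.ext (map_zero R.red₁) (map_zero R.red₂)
  map_add' x y := Prod.ext (map_add R.red₁ ⟨x.1, x.2.1⟩ ⟨y.1, y.2.1⟩)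
    (map_add R.red₂ ⟨x.1, x.2.2⟩ ⟨y.1, y.2.2⟩)

theorem ln_ob_red_apply {u : F} (h : u ∈ R.O₁₂) :
    R.red₁₂ ⟨u, h⟩ = (R.red₁ ⟨u, h.1⟩, R.red₂ ⟨u, h.2⟩) := rfl

theorem ln_ob_red_fst {u : F} (h : u ∈ R.O₁₂) : (R.red₁₂ ⟨u, h⟩).1 = R.red₁ ⟨u, h.1⟩ := rfl

theorem ln_ob_red_snd {u : F} (h : u ∈ R.O₁₂) : (R.red₁₂ ⟨u, h⟩).2 = R.red₂ ⟨u, h.2⟩ := rfl

theorem ln_ob_algebraMap_mem (hR : R.IsTR) {a : K} (ha : a ∈ A) : algebraMap K F a ∈ R.O₁₂ :=
  ⟨(hR.algebraMap_mem_iff₁ a).mpr ha, (hR.algebraMap_mem_iff₂ a).mpr ha⟩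

theorem ln_ob_smul_mem (hR : R.IsTR) {a : K} (ha : a ∈ A) {u : F} (hu : u ∈ R.O₁₂) :
    a • u ∈ R.O₁₂ := by
  rw [Algebra.smul_def]
  exact R.O₁₂.mul_mem (ln_ob_algebraMap_mem hR ha) hu

theorem ln_ob_red_algebraMap (hR : R.IsTR) (a : A) (h : algebraMap K F (a : K) ∈ R.O₁₂) :
    R.red₁₂ ⟨algebraMap K F (a : K), h⟩ = (algebraMap k F₁ (R.res a), algebraMap k F₂ (R.res a)) :=
  Prod.ext (hR.red₁_algebraMap a h.1) (hR.red₂_algebraMap a h.2)

theorem ln_ob_red_smul (hR : R.IsTR) {a : K} (ha : a ∈ A) {u : F} (hu : u ∈ R.O₁₂)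
    (h : a • u ∈ R.O₁₂) :
    R.red₁₂ ⟨a • u, h⟩ = R.res ⟨a, ha⟩ • R.red₁₂ ⟨u, hu⟩ := by
  have h1 : (⟨a • u, h⟩ : R.O₁₂) =
      ⟨algebraMap K F a, ln_ob_algebraMap_mem hR ha⟩ * ⟨u, hu⟩ := by
    apply Subtype.ext
    simp [Algebra.smul_def]
  rw [h1, map_mul, ln_ob_red_algebraMap hR ⟨a, ha⟩]
  refine Prod.ext ?_ ?_
  · rw [Prod.fst_mul, Prod.smul_fst, Algebra.smul_def]
  · rw [Prod.snd_mul, Prod.smul_snd, Algebra.smul_def]

theorem ln_ob_red_smul_nonunit (hR : R.IsTR) {a : K} (ha : a ∈ A.nonunits) {u : F}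
    (hu : u ∈ R.O₁₂) (h : a • u ∈ R.O₁₂) : R.red₁₂ ⟨a • u, h⟩ = 0 := by
  have haA : a ∈ A := A.nonunits_subset ha
  rw [ln_ob_red_smul hR haA hu]
  have h1 : R.res ⟨a, haA⟩ = 0 := (hR.res_eq_zero_iff ⟨a, haA⟩).mpr ha
  rw [h1, zero_smul]

theorem ln_ob_red_sum (hR : R.IsTR) {ι : Type*} [Fintype ι] (a : ι → K) (ha : ∀ j, a j ∈ A)
    (u : ι → F) (hu : ∀ j, u j ∈ R.O₁₂) (h : ∑ j, a j • u j ∈ R.O₁₂) :
    R.red₁₂ ⟨∑ j, a j • u j, h⟩ = ∑ j, R.res ⟨a j, ha j⟩ • R.red₁₂ ⟨u j, hu j⟩ := by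
  have h1 : (⟨∑ j, a j • u j, h⟩ : R.O₁₂) =
      ∑ j, (⟨a j • u j, ln_ob_smul_mem hR (ha j) (hu j)⟩ : R.O₁₂) := by
    apply Subtype.ext
    rw [AddSubmonoidClass.coe_finsetSum]
  rw [h1, map_sum]
  exact Finset.sum_congr rfl fun j _ => ln_ob_red_smul hR (ha j) (hu j) _

/-- If the reductions of the `u j` are linearly independent, `b j ∈ A` and `b j₀ = 1`, then
`Σ b j • u j` has a non-zero reduction. -/
theorem ln_ob_red_ne_zero (hR : R.IsTR) {ι : Type*} [Fintype ι] (u : ι → F)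
    (hu : ∀ j, u j ∈ R.O₁₂) (hli : LinearIndependent k fun j => R.red₁₂ ⟨u j, hu j⟩)
    (b : ι → K) (hb : ∀ j, b j ∈ A) (j₀ : ι) (hj₀ : b j₀ = 1) (h : ∑ j, b j • u j ∈ R.O₁₂) :
    R.red₁₂ ⟨∑ j, b j • u j, h⟩ ≠ 0 := by
  intro h0
  rw [ln_ob_red_sum hR b hb u hu h] at h0
  have h1 := Fintype.linearIndependent_iff.mp hli _ h0 j₀
  have h2 : (⟨b j₀, hb j₀⟩ : A) = 1 := Subtype.ext hj₀
  rw [h2, map_one] at h1
  exact one_ne_zero h1

/-- The coefficients of an element of `O₁ ∩ O₂` with respect to an orthonormal family lie in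
`A`. -/
theorem ln_ob_coeff_mem (hR : R.IsTR) {ι : Type*} [Fintype ι] (u : ι → F)
    (hu : ∀ j, u j ∈ R.O₁₂) (hli : LinearIndependent k fun j => R.red₁₂ ⟨u j, hu j⟩)
    (a : ι → K) (h : ∑ j, a j • u j ∈ R.O₁₂) : ∀ j, a j ∈ A := by
  by_contra hne
  rw [not_forall] at hne
  obtain ⟨j₁, hj₁⟩ := hne
  obtain ⟨j₀, h10, hmax⟩ := gao_normalise (A := A) a j₁
  have hj₀ : 1 < A.valuation (a j₀) :=
    lt_of_lt_of_le (by rwa [← not_le, A.valuation_le_one_iff]) h10
  have hpos : 0 < A.valuation (a j₀) := zero_lt_one.trans hj₀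
  have ha0 : a j₀ ≠ 0 := (Valuation.ne_zero_iff _).mp hpos.ne'
  have hb : ∀ j, a j / a j₀ ∈ A := fun j => gao_div_mem (hmax j)
  have hsum := gao_sum_div a (a j₀) u
  have hinv : (a j₀)⁻¹ ∈ A.nonunits := by
    rw [A.mem_nonunits_iff, map_inv₀]; exact inv_lt_one_of_one_lt₀ hj₀
  have hmem : ∑ j, (a j / a j₀) • u j ∈ R.O₁₂ :=
    sum_mem fun j _ => ln_ob_smul_mem hR (hb j) (hu j)
  refine ln_ob_red_ne_zero hR u hu hli _ hb j₀ (div_self ha0) hmem ?_
  have h1 : (⟨∑ j, (a j / a j₀) • u j, hmem⟩ : R.O₁₂) =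
      ⟨(a j₀)⁻¹ • ∑ j, a j • u j, hsum ▸ hmem⟩ := Subtype.ext hsum
  rw [h1]
  exact ln_ob_red_smul_nonunit hR hinv h _

/-- An orthonormal family is linearly independent over `K`. -/
theorem ln_ob_linearIndependent (hR : R.IsTR) {ι : Type*} [Fintype ι] (u : ι → F)
    (hu : ∀ j, u j ∈ R.O₁₂) (hli : LinearIndependent k fun j => R.red₁₂ ⟨u j, hu j⟩) :
    LinearIndependent K u := by
  rw [Fintype.linearIndependent_iff]
  intro a ha
  by_contra hne
  rw [not_forall] at hne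
  obtain ⟨j₁, hj₁⟩ := hne
  obtain ⟨j₀, h10, hmax⟩ := gao_normalise (A := A) a j₁
  have hpos : 0 < A.valuation (a j₀) :=
    lt_of_lt_of_le (zero_lt_iff.mpr ((Valuation.ne_zero_iff _).mpr hj₁)) h10
  have ha0 : a j₀ ≠ 0 := (Valuation.ne_zero_iff _).mp hpos.ne'
  have hb : ∀ j, a j / a j₀ ∈ A := fun j => gao_div_mem (hmax j)
  have hsum : ∑ j, (a j / a j₀) • u j = 0 := by
    rw [gao_sum_div, ha, smul_zero]
  have hmem : ∑ j, (a j / a j₀) • u j ∈ R.O₁₂ := hsum ▸ R.O₁₂.zero_mem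
  refine ln_ob_red_ne_zero hR u hu hli _ hb j₀ (div_self ha0) hmem ?_
  have h1 : (⟨∑ j, (a j / a j₀) • u j, hmem⟩ : R.O₁₂) = 0 := Subtype.ext hsum
  rw [h1, map_zero]

/-! ### Orthonormal bases whose reductions span -/

/-- an orthonormal basis of `L(D)` whose reductions are a basis of `L̄(r_* D)` -/
structure IsOB₂ (R : TRData K F k F₁ F₂ A) (D : Divisor K F) {n : ℕ} (e : Fin n → F) : Prop where
  memO : ∀ i, e i ∈ R.O₁₂
  span : Submodule.span K (Set.range e) = riemannRochSpace D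
  li : LinearIndependent k (fun i => R.red₁₂ ⟨e i, memO i⟩)
  redMem : ∀ i, R.red₁₂ ⟨e i, memO i⟩ ∈ R.Lbar D
  redSpan : ∀ y ∈ R.Lbar D, ∃ c : Fin n → k, y = ∑ i, c i • R.red₁₂ ⟨e i, memO i⟩

theorem exists_isOB₂ (hT : R.IsToric g) {D : Divisor K F} (hD : D ∈ R.smDiv)
    (hdim : (finrank k ↥(R.Lbar D) : ℤ) ≤ Divisor.degree D + 1 - g) :
    ∃ (n : ℕ) (e : Fin n → F), IsOB₂ R D e ∧ n = finrank k ↥(R.Lbar D) := by
  classical
  obtain ⟨n, e, h₁, h₂, hspan, hli, hmem⟩ := hT.orth D hD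
  have he : ∀ i, e i ∈ R.O₁₂ := fun i => ⟨h₁ i, h₂ i⟩
  have hfin := ln_rr_Lbar_finite hT D
  have hli' : LinearIndependent k (fun i => R.red₁₂ ⟨e i, he i⟩) := hli
  -- `n = dim L(D)`
  have hliK : LinearIndependent K e := ln_ob_linearIndependent hT.isTR e he hli'
  have hn : finrank K ↥(riemannRochSpace D) = n := by
    rw [← hspan, finrank_span_eq_card hliK, Fintype.card_fin]
  have hlow := hT.nice.lower D
  rw [hn] at hlow
  -- the reductions, in the subtype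
  set eb : Fin n → ↥(R.Lbar D) := fun i => ⟨R.red₁₂ ⟨e i, he i⟩, hmem i⟩ with heb
  have hli'' : LinearIndependent k eb := by
    apply LinearIndependent.of_comp (Submodule.subtype _)
    exact hli'
  have hle : n ≤ finrank k ↥(R.Lbar D) := by
    have := hli''.fintype_card_le_finrank
    simpa using this
  have hcard : n = finrank k ↥(R.Lbar D) := by
    have : (finrank k ↥(R.Lbar D) : ℤ) ≤ n := by linarith
    omega
  have htop : Submodule.span k (Set.range eb) = ⊤ :=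
    hli''.span_eq_top_of_card_eq_finrank' (by rw [Fintype.card_fin]; exact hcard)
  refine ⟨n, e, ⟨he, hspan, hli', hmem, ?_⟩, hcard⟩
  intro y hy
  have hy' : (⟨y, hy⟩ : ↥(R.Lbar D)) ∈ Submodule.span k (Set.range eb) := by rw [htop]; trivial
  obtain ⟨c, hc⟩ := (Submodule.mem_span_range_iff_exists_fun k).mp hy'
  refine ⟨c, ?_⟩
  have := congrArg Subtype.val hc
  simp only [heb, Submodule.coe_sum, Submodule.coe_smul] at this
  exact this.symm

namespace IsOB₂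

variable {D : Divisor K F} {n : ℕ} {e : Fin n → F}

theorem mem_rr (h : IsOB₂ R D e) (i : Fin n) : e i ∈ riemannRochSpace D := by
  rw [← h.span]
  exact Submodule.subset_span ⟨i, rfl⟩

theorem comb_memO (hR : R.IsTR) (h : IsOB₂ R D e) (c : Fin n → A) : comb e c ∈ R.O₁₂ :=
  sum_mem fun i _ => ln_ob_smul_mem hR (c i).2 (h.memO i)

theorem comb_mem_rr (h : IsOB₂ R D e) (c : Fin n → A) : comb e c ∈ riemannRochSpace D :=
  Submodule.sum_mem _ fun i _ => Submodule.smul_mem _ _ (h.mem_rr i)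

theorem red_comb (hR : R.IsTR) (h : IsOB₂ R D e) (c : Fin n → A) :
    R.red₁₂ ⟨comb e c, h.comb_memO hR c⟩ = ∑ i, R.res (c i) • R.red₁₂ ⟨e i, h.memO i⟩ :=
  ln_ob_red_sum hR (fun i => ((c i : A) : K)) (fun i => (c i).2) e h.memO _

theorem red_comb_mem (hR : R.IsTR) (h : IsOB₂ R D e) (c : Fin n → A) :
    R.red₁₂ ⟨comb e c, h.comb_memO hR c⟩ ∈ R.Lbar D := by
  rw [h.red_comb hR]
  exact Submodule.sum_mem _ fun i _ => Submodule.smul_mem _ _ (h.redMem i)

/-- the coefficients of an element of `L(D) ∩ O₁ ∩ O₂` are in `A` -/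
theorem exists_coeff (hR : R.IsTR) (h : IsOB₂ R D e) {x : F} (hx : x ∈ riemannRochSpace D)
    (hxO : x ∈ R.O₁₂) : ∃ c : Fin n → A, x = comb e c := by
  rw [← h.span] at hx
  obtain ⟨a, ha⟩ := (Submodule.mem_span_range_iff_exists_fun K).mp hx
  have hA : ∀ j, a j ∈ A := ln_ob_coeff_mem hR e h.memO h.li a (by rw [ha]; exact hxO)
  exact ⟨fun j => ⟨a j, hA j⟩, ha.symm⟩

/-- lifting an element of `L̄(r_* D)` -/
theorem exists_lift (hR : R.IsTR) (h : IsOB₂ R D e) {y : F₁ × F₂} (hy : y ∈ R.Lbar D) :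
    ∃ c : Fin n → A, R.red₁₂ ⟨comb e c, h.comb_memO hR c⟩ = y := by
  obtain ⟨cb, hcb⟩ := h.redSpan y hy
  choose c hc using fun i => hR.res_surjective (cb i)
  refine ⟨c, ?_⟩
  rw [h.red_comb hR, hcb]
  exact Finset.sum_congr rfl fun i _ => by rw [hc i]

/-- the reduction determines the coefficients modulo `𝔪` -/
theorem res_eq_of_red_eq (hR : R.IsTR) (h : IsOB₂ R D e) (c c' : Fin n → A)
    (hcc : R.red₁₂ ⟨comb e c, h.comb_memO hR c⟩ = R.red₁₂ ⟨comb e c', h.comb_memO hR c'⟩) :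
    ∀ i, R.res (c i) = R.res (c' i) := by
  rw [h.red_comb hR, h.red_comb hR] at hcc
  have h0 : ∑ i, (R.res (c i) - R.res (c' i)) • R.red₁₂ ⟨e i, h.memO i⟩ = 0 := by
    simp only [sub_smul, Finset.sum_sub_distrib, hcc, sub_self]
  intro i
  have := Fintype.linearIndependent_iff.mp h.li _ h0 i
  exact sub_eq_zero.mp this

/-- if the reduction vanishes, the coefficients are in `𝔪` -/
theorem coeff_nonunit (hR : R.IsTR) (h : IsOB₂ R D e) (c : Fin n → A)
    (h0 : R.red₁₂ ⟨comb e c, h.comb_memO hR c⟩ = 0) : ∀ i, ((c i : A) : K) ∈ A.nonunits := by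
  rw [h.red_comb hR] at h0
  intro i
  have := Fintype.linearIndependent_iff.mp h.li _ h0 i
  exact (hR.res_eq_zero_iff (c i)).mp this

/-- conversely -/
theorem red_eq_zero_of_nonunit (hR : R.IsTR) (h : IsOB₂ R D e) (c : Fin n → A)
    (hc : ∀ i, ((c i : A) : K) ∈ A.nonunits) : R.red₁₂ ⟨comb e c, h.comb_memO hR c⟩ = 0 := by
  rw [h.red_comb hR]
  refine Finset.sum_eq_zero fun i _ => ?_
  rw [(hR.res_eq_zero_iff (c i)).mpr (hc i), zero_smul]

/-- normalisation: if `red (comb α) = 1`, `α a₁` is a unit, `v a₁ ∈ 𝔪` and `red (comb v)` is a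
constant, then `red (comb v) = 0`. -/
theorem red_eq_zero_of_const (hR : R.IsTR) (h : IsOB₂ R D e) (α v : Fin n → A)
    (hα : R.red₁₂ ⟨comb e α, h.comb_memO hR α⟩ = 1)
    (a₁ : Fin n) (ha₁ : ((α a₁ : A) : K) ∉ A.nonunits) (hv₁ : ((v a₁ : A) : K) ∈ A.nonunits)
    (c : k) (hc : R.red₁₂ ⟨comb e v, h.comb_memO hR v⟩ = (algebraMap k F₁ c, algebraMap k F₂ c)) :
    R.red₁₂ ⟨comb e v, h.comb_memO hR v⟩ = 0 := by
  have hc' : R.red₁₂ ⟨comb e v, h.comb_memO hR v⟩ = c • (1 : F₁ × F₂) := by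
    rw [hc]
    exact Prod.ext (Algebra.algebraMap_eq_smul_one c) (Algebra.algebraMap_eq_smul_one c)
  have h1 : ∑ i, (R.res (v i) - c * R.res (α i)) • R.red₁₂ ⟨e i, h.memO i⟩ = 0 := by
    have e1 := h.red_comb hR v
    have e2 := h.red_comb hR α
    rw [hc'] at e1
    rw [hα] at e2
    simp only [sub_smul, mul_smul, Finset.sum_sub_distrib, ← Finset.smul_sum, ← e1, ← e2]
    rw [sub_self]
  have h2 := Fintype.linearIndependent_iff.mp h.li _ h1 a₁
  rw [(hR.res_eq_zero_iff (v a₁)).mpr hv₁, zero_sub, neg_eq_zero] at h2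
  have h3 : R.res (α a₁) ≠ 0 := fun h0 => ha₁ ((hR.res_eq_zero_iff (α a₁)).mp h0)
  have hc0 : c = 0 := (mul_eq_zero.mp h2).resolve_right h3
  rw [hc', hc0, zero_smul]

/-- a combination with reduction `1` has a unit coefficient -/
theorem exists_unit_coeff (hR : R.IsTR) (h : IsOB₂ R D e) (α : Fin n → A)
    (hα : R.red₁₂ ⟨comb e α, h.comb_memO hR α⟩ = 1) :
    ∃ a₁ : Fin n, ((α a₁ : A) : K) ∉ A.nonunits := by
  by_contra hne
  rw [not_exists] at hne
  have := h.red_eq_zero_of_nonunit hR α fun i => not_not.mp (hne i)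
  rw [hα] at this
  exact one_ne_zero this

end IsOB₂

/-- `L(D) ∩ O₁ ∩ O₂` -/
def lnLatticeSub (R : TRData K F k F₁ F₂ A) (D : Divisor K F) : AddSubgroup F where
  carrier := {x | x ∈ riemannRochSpace D ∧ x ∈ R.O₁₂}
  zero_mem' := ⟨Submodule.zero_mem _, R.O₁₂.zero_mem⟩
  add_mem' := fun hx hy => ⟨Submodule.add_mem _ hx.1 hy.1, R.O₁₂.add_mem hx.2 hy.2⟩
  neg_mem' := fun hx => ⟨Submodule.neg_mem _ hx.1, R.O₁₂.neg_mem hx.2⟩

theorem ln_ob_res_eq_of_sub_nonunit (hR : R.IsTR) {a b : A}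
    (h : ((b - a : A) : K) ∈ A.nonunits) : R.res b = R.res a := by
  have := (hR.res_eq_zero_iff (b - a)).mpr h
  rwa [map_sub, sub_eq_zero] at this

/-- orthonormal bases for the divisors of smooth type with `deg r_{1*} D ≥ g`,
`deg r_{2*} D ≥ −1` (they are non-special on the nodal curve) -/
theorem ln_ob_exists₁ (hT : R.IsToric g) {D : Divisor K F} (hD : D ∈ R.smDiv)
    (hd₁ : (g : ℤ) ≤ Divisor.degree (R.push₁ D)) (hd₂ : -1 ≤ Divisor.degree (R.push₂ D)) :
    ∃ (n : ℕ) (e : Fin n → F), IsOB₂ R D e ∧ (n : ℤ) = Divisor.degree D + 1 - g := by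
  have h1 := ln_rr_Lbar_finrank_smDiv₁ hT hD hd₁ hd₂
  obtain ⟨n, e, he, hn⟩ := exists_isOB₂ hT hD h1.le
  exact ⟨n, e, he, by rw [hn, h1]⟩

end Fermat.Agent.S15.LN

end
end ZBZ2S15_022_6

/-! ### bundled: `Fermat.Agent.S15.LNDivAux` -/
section ZBZ2S15_022_7

/-!
# S15 block LOCAL-N, pieces LN-DIV / LN-TF, part 2 (helper5): divisors

* `ln_div_smooth` : the divisor of `u ∈ L(E) ∩ O₁ ∩ O₂`, `E` of smooth type, whose reduction is a
  glued unit, is of smooth type and `r_*(div u) = div(ū)` on both components;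
* `ln_exists_lift_pair` : lifting of the elements of `L̄(r_* D)`;
* `ln_exists_rep` : a class of `J¹` has a representative `D` of smooth type with `r_* D = 0`;
* `ln_mem_J1_of_push_zero` : conversely;
* `ln_le_push₁`, `ln_support_of_push₂_zero` : supports of effective divisors of smooth type;
* `ln_div1_divisor` : from a solution of `w ^ m = h h'` to the class `y` with `m y = [D]`
  (transplant of `Div1.div1_divisor`).
-/

set_option autoImplicit false
set_option linter.unusedSectionVars false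
set_option linter.unusedVariables false
set_option linter.style.haveILetI false

noncomputable section

open AlgebraicCurve Module WithZero

namespace Fermat.Agent.S15.LN

open Fermat.Agent.W1 Fermat.Agent.S24 Fermat.Agent.ES.R Fermat.Agent.S15.Div1

open scoped Classical

variable {K F k F₁ F₂ : Type} [Field K] [Field F] [Algebra K F] [Field k]
  [Field F₁] [Algebra k F₁] [Field F₂] [Algebra k F₂]
variable {A : ValuationSubring K} {R : TRData K F k F₁ F₂ A} {g : ℕ}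

theorem ln_ne_zero_of_red₁ {u : F} (h₁ : u ∈ R.O₁) (hu : R.red₁ ⟨u, h₁⟩ ≠ 0) : u ≠ 0 := by
  rintro rfl
  have : (⟨0, h₁⟩ : R.O₁) = 0 := rfl
  rw [this, map_zero] at hu
  exact hu rfl

theorem ln_ne_zero_of_red_eq_one {u : F} (hu : u ∈ R.O₁₂) (hu1 : R.red₁₂ ⟨u, hu⟩ = 1) :
    u ≠ 0 := by
  refine ln_ne_zero_of_red₁ hu.1 ?_
  have := congrArg Prod.fst hu1
  rw [ln_ob_red_fst] at this
  rw [this]
  exact one_ne_zero

/-- the poles of an element of `L(E)`, `E` of smooth type, are of smooth type -/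
theorem ln_pole_smooth {u : F} {E : Divisor K F} (hE : E ∈ R.smDiv)
    (huE : u ∈ riemannRochSpace E) : ∀ P : Place K F, P.ord u < 0 → (R.r P).isSome := by
  intro P hP
  refine hE P ?_
  rcases mem_riemannRochSpace_iff.mp huE P with h0 | h1
  · rw [h0, Place.ord_zero] at hP
    exact absurd hP (lt_irrefl _)
  · intro h0
    rw [h0, neg_zero] at h1
    omega

/-- the divisor of a function of `L(E) ∩ O₁ ∩ O₂` whose reduction is a glued unit -/
theorem ln_div_smooth (hT : R.IsToric g) {u : F} (hu : u ∈ R.O₁₂)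
    {E : Divisor K F} (hE : E ∈ R.smDiv) (huE : u ∈ riemannRochSpace E)
    (hg : R.GluedUnit (R.red₁ ⟨u, hu.1⟩) (R.red₂ ⟨u, hu.2⟩))
    {Z : Divisor K F} (hZ : ∀ P, Z P = P.ord u) :
    Z ∈ R.smDiv ∧ (∀ Q, R.push₁ Z Q = Q.ord (R.red₁ ⟨u, hu.1⟩)) ∧
      ∀ Q, R.push₂ Z Q = Q.ord (R.red₂ ⟨u, hu.2⟩) := by
  have hR := hT.isTR
  obtain ⟨x₀, hx₀⟩ := IsToric_X_nonempty hT
  obtain ⟨a₀, ha₀, hv1, hv2⟩ := hg x₀ hx₀
  have hu₁ : R.red₁ ⟨u, hu.1⟩ ≠ 0 := ln_ne_zero_of_value hv1 ha₀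
  have hu₂ : R.red₂ ⟨u, hu.2⟩ ≠ 0 := ln_ne_zero_of_value hv2 ha₀
  have hpole := ln_pole_smooth hE huE
  have hzero := ln_glue_unit hT u hu.1 hu.2 hpole hg
  refine ⟨?_, fun Q => ?_, fun Q => ?_⟩
  · intro P hP
    rw [hZ] at hP
    rcases lt_or_gt_of_ne hP with h | h
    · exact hpole P h
    · exact hzero P h
  · by_cases hQ : ∀ x ∈ R.X, x.1 ≠ Q
    · exact hR.r_div₁ ⟨u, hu.1⟩ hu₁ Z hZ Q hQ
    · push Not at hQ
      obtain ⟨x, hx, rfl⟩ := hQ
      obtain ⟨a, ha, h1, -⟩ := hg x hx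
      rw [ln_push₁_cross hR Z hx, ln_ord_eq_zero_of_value h1 ha]
  · by_cases hQ : ∀ x ∈ R.X, x.2 ≠ Q
    · exact hR.r_div₂ ⟨u, hu.2⟩ hu₂ Z hZ Q hQ
    · push Not at hQ
      obtain ⟨x, hx, rfl⟩ := hQ
      obtain ⟨a, ha, -, h2⟩ := hg x hx
      rw [ln_push₂_cross hR Z hx, ln_ord_eq_zero_of_value h2 ha]

/-- the divisor of a function of `L(E) ∩ O₁ ∩ O₂` with reduction `1` -/
theorem ln_div_one (hT : R.IsToric g) {u : F} (hu : u ∈ R.O₁₂)
    {E : Divisor K F} (hE : E ∈ R.smDiv) (huE : u ∈ riemannRochSpace E)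
    (hu1 : R.red₁₂ ⟨u, hu⟩ = 1) {Z : Divisor K F} (hZ : ∀ P, Z P = P.ord u) :
    Z ∈ R.smDiv ∧ R.push₁ Z = 0 ∧ R.push₂ Z = 0 := by
  have e1 : R.red₁ ⟨u, hu.1⟩ = 1 := congrArg Prod.fst hu1
  have e2 : R.red₂ ⟨u, hu.2⟩ = 1 := congrArg Prod.snd hu1
  have hg : R.GluedUnit (R.red₁ ⟨u, hu.1⟩) (R.red₂ ⟨u, hu.2⟩) := by
    rw [e1, e2]; exact ln_gluedUnit_one R
  obtain ⟨h0, h1, h2⟩ := ln_div_smooth hT hu hE huE hg hZ
  refine ⟨h0, ?_, ?_⟩
  · ext Q
    rw [h1 Q, e1, Place.ord_one]; rfl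
  · ext Q
    rw [h2 Q, e2, Place.ord_one]; rfl

/-- lifting of the elements of `L̄(r_* D)` -/
theorem ln_exists_lift_pair (hT : R.IsToric g) {D : Divisor K F} (hD : D ∈ R.smDiv)
    (hd₁ : (g : ℤ) ≤ Divisor.degree (R.push₁ D)) (hd₂ : -1 ≤ Divisor.degree (R.push₂ D))
    {y : F₁ × F₂} (hy : y ∈ R.Lbar D) :
    ∃ (u : F) (hu : u ∈ R.O₁₂), u ∈ riemannRochSpace D ∧ R.red₁₂ ⟨u, hu⟩ = y := by
  obtain ⟨n, e, he, -⟩ := ln_ob_exists₁ hT hD hd₁ hd₂
  obtain ⟨c, hc⟩ := he.exists_lift hT.isTR hy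
  exact ⟨comb e c, he.comb_memO hT.isTR c, he.comb_mem_rr c, hc⟩

/-- a divisor of smooth type with `r_* D = 0` is in the kernel of reduction -/
theorem ln_mem_J1_of_push_zero {D : Divisor K F} (hD : D ∈ R.smDiv) (h1 : R.push₁ D = 0)
    (h2 : R.push₂ D = 0) (hdeg : D ∈ Divisor.degZero (K := K) (F := F)) :
    Pic0.mk ⟨D, hdeg⟩ ∈ R.J1 := by
  refine (ln_mem_J1 R).mpr ⟨⟨D, hdeg⟩, (ln_mem_div1 R).mpr ⟨(ln_mem_div00 R).mpr ⟨hD, ?_, ?_⟩, ?_⟩,
    rfl⟩
  · show Divisor.degree (R.push₁ D) = 0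
    rw [h1, map_zero]
  · show Divisor.degree (R.push₂ D) = 0
    rw [h2, map_zero]
  · show R.IsPrincBar (R.push₁ D, R.push₂ D)
    rw [h1, h2]
    exact ln_isPrincBar_zero R

/-- a class of the kernel of reduction has a representative of smooth type whose reduction
is `0` -/
theorem ln_exists_rep (hT : R.IsToric g) {x : Pic0 K F} (hx : x ∈ R.J1) :
    ∃ (D : Divisor K F) (hD : D ∈ Divisor.degZero (K := K) (F := F)),
      Pic0.mk ⟨D, hD⟩ = x ∧ D ∈ R.smDiv ∧ R.push₁ D = 0 ∧ R.push₂ D = 0 := by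
  have hR := hT.isTR
  have hpd := hT.nice.hpd
  obtain ⟨D₀, hD₀, rfl⟩ := (ln_mem_J1 R).mp hx
  obtain ⟨h00, f₁, f₂, hf₁, hf₂, hgu, hd₁, hd₂⟩ := (ln_mem_div1 R).mp hD₀
  obtain ⟨hsm, hdeg1, hdeg2⟩ := (ln_mem_div00 R).mp h00
  have hd₁' : ∀ Q, R.push₁ (D₀ : Divisor K F) Q = Q.ord f₁ := hd₁
  have hd₂' : ∀ Q, R.push₂ (D₀ : Divisor K F) Q = Q.ord f₂ := hd₂
  have hNod := ln_rr_isNodal hT
  obtain ⟨T, hTcard, -, hTX, -⟩ := ln_rr_exists_chart₁ hNod (F₂ := F₂) ∅
  obtain ⟨Nd, hNd0, hNdsm, hNd1, hNd2⟩ := ln_rr_exists_lift₁ hT T hTX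
  set E : Divisor K F := -(D₀ : Divisor K F) + Nd with hEdef
  have hEsm : E ∈ R.smDiv := R.smDiv.add_mem (R.smDiv.neg_mem hsm) hNdsm
  have hE1 : R.push₁ E = -R.push₁ (D₀ : Divisor K F) + gpSum T := by
    rw [hEdef, map_add, map_neg, hNd1]
  have hE2 : R.push₂ E = -R.push₂ (D₀ : Divisor K F) := by
    rw [hEdef, map_add, map_neg, hNd2, add_zero]
  have hdE1 : (g : ℤ) ≤ Divisor.degree (R.push₁ E) := by
    rw [hE1, map_add, map_neg, hdeg1, degree_gpSum hT.nice₁.hres, hTcard]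
    simp
  have hdE2 : -1 ≤ Divisor.degree (R.push₂ E) := by
    rw [hE2, map_neg, hdeg2]
    simp
  have hy : ((f₁, f₂) : F₁ × F₂) ∈ R.Lbar E := by
    rw [ln_mem_Lbar]
    refine ⟨?_, ?_, ln_gluedUnit_glued R hgu⟩
    · rw [mem_riemannRochSpace_iff]
      intro v
      right
      rw [hE1, Finsupp.add_apply, Finsupp.neg_apply, hd₁' v]
      have := Finsupp.le_def.mp (gpSum_nonneg T) v
      simp only [Finsupp.coe_zero, Pi.zero_apply] at this
      show -(-v.ord f₁ + gpSum T v) ≤ v.ord f₁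
      omega
    · rw [mem_riemannRochSpace_iff]
      intro v
      right
      rw [hE2, Finsupp.neg_apply, hd₂' v]
      show -(-v.ord f₂) ≤ v.ord f₂
      omega
  obtain ⟨u, hu, huE, hured⟩ := ln_exists_lift_pair hT hEsm hdE1 hdE2 hy
  have e1 : R.red₁ ⟨u, hu.1⟩ = f₁ := congrArg Prod.fst hured
  have e2 : R.red₂ ⟨u, hu.2⟩ = f₂ := congrArg Prod.snd hured
  have hu0 : u ≠ 0 := ln_ne_zero_of_red₁ hu.1 (by rw [e1]; exact hf₁)
  obtain ⟨Z, hZ, hZdeg⟩ := HasPrincipalDivisors.exists_divisor (K := K) u hu0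
  have hg : R.GluedUnit (R.red₁ ⟨u, hu.1⟩) (R.red₂ ⟨u, hu.2⟩) := by
    rw [e1, e2]; exact hgu
  obtain ⟨hZsm, hZ1, hZ2⟩ := ln_div_smooth hT hu hEsm huE hg hZ
  have hp1 : R.push₁ Z = R.push₁ (D₀ : Divisor K F) := by
    ext Q
    rw [hZ1 Q, e1, hd₁' Q]
  have hp2 : R.push₂ Z = R.push₂ (D₀ : Divisor K F) := by
    ext Q
    rw [hZ2 Q, e2, hd₂' Q]
  have hdeg : (D₀ : Divisor K F) - Z ∈ Divisor.degZero (K := K) (F := F) := by
    rw [Divisor.mem_degZero, map_sub, hZdeg, Divisor.mem_degZero.mp D₀.2, sub_zero]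
  refine ⟨(D₀ : Divisor K F) - Z, hdeg, ?_, R.smDiv.sub_mem hsm hZsm, ?_, ?_⟩
  · rw [ln_mk_eq_iff]
    have e : ((D₀ : Divisor K F) - ((D₀ : Divisor K F) - Z)) = Z := by abel
    show ((D₀ : Divisor K F) - ((D₀ : Divisor K F) - Z)) ∈ Divisor.principal (K := K) (F := F)
    rw [e]
    exact ⟨u, hu0, hZ⟩
  · rw [map_sub, hp1, sub_self]
  · rw [map_sub, hp2, sub_self]

/-! ### Supports of effective divisors of smooth type -/

theorem ln_le_push₁ {E : Divisor K F} (hE : 0 ≤ E) {P : Place K F} {Q : Place k F₁}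
    (hP : R.r P = some (Sum.inl Q)) : E P ≤ R.push₁ E Q := by
  rw [ln_push₁_apply]
  have hnn : ∀ P' ∈ E.support, (0 : ℤ) ≤ if R.r P' = some (Sum.inl Q) then E P' else 0 := by
    intro P' _
    split_ifs
    · simpa using Finsupp.le_def.mp hE P'
    · exact le_rfl
  by_cases hmem : P ∈ E.support
  · have := Finset.single_le_sum hnn hmem
    rwa [if_pos hP] at this
  · rw [Finsupp.notMem_support_iff.mp hmem]
    exact Finset.sum_nonneg hnn

theorem ln_le_push₂ {E : Divisor K F} (hE : 0 ≤ E) {P : Place K F} {Q : Place k F₂}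
    (hP : R.r P = some (Sum.inr Q)) : E P ≤ R.push₂ E Q := by
  rw [ln_push₂_apply]
  have hnn : ∀ P' ∈ E.support, (0 : ℤ) ≤ if R.r P' = some (Sum.inr Q) then E P' else 0 := by
    intro P' _
    split_ifs
    · simpa using Finsupp.le_def.mp hE P'
    · exact le_rfl
  by_cases hmem : P ∈ E.support
  · have := Finset.single_le_sum hnn hmem
    rwa [if_pos hP] at this
  · rw [Finsupp.notMem_support_iff.mp hmem]
    exact Finset.sum_nonneg hnn

/-- an effective divisor of smooth type with `r_{2*} E = 0` is supported on the places reducing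
to the support of `r_{1*} E` -/
theorem ln_support_of_push₂_zero {E : Divisor K F} (hE : 0 ≤ E) (hsm : E ∈ R.smDiv)
    (h2 : R.push₂ E = 0) {P : Place K F} (hP : E P ≠ 0) :
    ∃ Q, R.r P = some (Sum.inl Q) ∧ R.push₁ E Q ≠ 0 := by
  have hpos : 0 < E P := by
    have : 0 ≤ E P := by simpa using Finsupp.le_def.mp hE P
    omega
  have hs := hsm P hP
  rcases h : R.r P with _ | (Q | Q)
  · rw [h] at hs
    exact absurd hs (by simp)
  · refine ⟨Q, rfl, ?_⟩
    have := ln_le_push₁ (R := R) hE h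
    omega
  · exfalso
    have := ln_le_push₂ (R := R) hE h
    rw [h2] at this
    have h0 : (0 : Divisor k F₂) Q = 0 := rfl
    omega

theorem ln_smul_gpSum_ne_zero {T : Finset (Place k F₁)} {m : ℕ} {Q : Place k F₁}
    (h : (m • gpSum T) Q ≠ 0) : Q ∈ T := by
  by_contra hQ
  exact h (smul_gpSum_apply_of_not_mem m hQ)

/-! ### From the solution to the class -/

theorem ln_div1_divisor (hT : R.IsToric g)
    {TN TR : Finset (Place k F₁)} (hdisj : Disjoint TN TR)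
    (Nd Rd D : Divisor K F) (hNdsm : Nd ∈ R.smDiv) (hRdsm : Rd ∈ R.smDiv) (hDsm : D ∈ R.smDiv)
    (hNd1 : R.push₁ Nd = gpSum TN) (hNd2 : R.push₂ Nd = 0)
    (hRd1 : R.push₁ Rd = gpSum TR) (hRd2 : R.push₂ Rd = 0)
    (hD1 : R.push₁ D = 0) (hD2 : R.push₂ D = 0) (hDdeg : D ∈ Divisor.degZero (K := K) (F := F))
    (m : ℕ) (hm : m ≠ 0) (w h h' : F) (hwO : w ∈ R.O₁₂) (hhO : h ∈ R.O₁₂) (hh'O : h' ∈ R.O₁₂)
    (hw1 : R.red₁₂ ⟨w, hwO⟩ = 1) (hh1 : R.red₁₂ ⟨h, hhO⟩ = 1) (hh'1 : R.red₁₂ ⟨h', hh'O⟩ = 1)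
    (hw : w ∈ riemannRochSpace (Nd + Rd)) (hh : h ∈ riemannRochSpace (D + m • Nd))
    (hh' : h' ∈ riemannRochSpace (m • Rd - D)) (heq : w ^ m = h * h') :
    ∃ y : Pic0 K F, y ∈ R.J1 ∧ m • y = Pic0.mk ⟨D, hDdeg⟩ := by
  have hpd := hT.nice.hpd
  have hw0 := ln_ne_zero_of_red_eq_one hwO hw1
  have hh0 := ln_ne_zero_of_red_eq_one hhO hh1
  have hh'0 := ln_ne_zero_of_red_eq_one hh'O hh'1
  obtain ⟨Zw, hZw, -⟩ := HasPrincipalDivisors.exists_divisor (K := K) w hw0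
  obtain ⟨Zh, hZh, hZhdeg⟩ := HasPrincipalDivisors.exists_divisor (K := K) h hh0
  obtain ⟨Zh', hZh', -⟩ := HasPrincipalDivisors.exists_divisor (K := K) h' hh'0
  have hEsm : D + m • Nd ∈ R.smDiv := R.smDiv.add_mem hDsm (R.smDiv.nsmul_mem hNdsm m)
  have hE'sm : m • Rd - D ∈ R.smDiv := R.smDiv.sub_mem (R.smDiv.nsmul_mem hRdsm m) hDsm
  obtain ⟨hZhsm, hZh1, hZh2⟩ := ln_div_one hT hhO hEsm hh hh1 hZh
  obtain ⟨hZh'sm, hZh'1, hZh'2⟩ := ln_div_one hT hh'O hE'sm hh' hh'1 hZh'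
  -- the three effective divisors
  have hDw : 0 ≤ Zw + (Nd + Rd) := div_add_nonneg hw0 hw hZw
  have hDh : 0 ≤ Zh + (D + m • Nd) := div_add_nonneg hh0 hh hZh
  have hDh' : 0 ≤ Zh' + (m • Rd - D) := div_add_nonneg hh'0 hh' hZh'
  have hZ : m • Zw = Zh + Zh' := by
    ext v
    rw [Finsupp.smul_apply, Finsupp.add_apply, hZw, hZh, hZh', ← v.ord_mul hh0 hh'0, ← heq,
      div1_ord_pow, nsmul_eq_mul]
  have hsum : m • (Zw + (Nd + Rd)) = (Zh + (D + m • Nd)) + (Zh' + (m • Rd - D)) := by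
    rw [smul_add, smul_add, hZ]; abel
  have hDhsm : Zh + (D + m • Nd) ∈ R.smDiv := R.smDiv.add_mem hZhsm hEsm
  have hDh'sm : Zh' + (m • Rd - D) ∈ R.smDiv := R.smDiv.add_mem hZh'sm hE'sm
  have hrDh1 : R.push₁ (Zh + (D + m • Nd)) = m • gpSum TN := by
    rw [map_add, map_add, map_nsmul, hZh1, hD1, hNd1, zero_add, zero_add]
  have hrDh2 : R.push₂ (Zh + (D + m • Nd)) = 0 := by
    rw [map_add, map_add, map_nsmul, hZh2, hD2, hNd2, zero_add, zero_add, smul_zero]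
  have hrDh'1 : R.push₁ (Zh' + (m • Rd - D)) = m • gpSum TR := by
    rw [map_add, map_sub, map_nsmul, hZh'1, hD1, hRd1, zero_add, sub_zero]
  have hrDh'2 : R.push₂ (Zh' + (m • Rd - D)) = 0 := by
    rw [map_add, map_sub, map_nsmul, hZh'2, hD2, hRd2, zero_add, sub_zero, smul_zero]
  -- the divisor `D'`
  set D' : Divisor K F :=
    Finsupp.filter (fun P => ∃ Q ∈ TN, R.r P = some (Sum.inl Q)) (Zw + (Nd + Rd)) with hD'
  have hmD' : m • D' = Zh + (D + m • Nd) := by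
    ext P
    rw [Finsupp.smul_apply, hD', Finsupp.filter_apply]
    by_cases hP : ∃ Q ∈ TN, R.r P = some (Sum.inl Q)
    · rw [if_pos hP]
      obtain ⟨Q, hQ, hPQ⟩ := hP
      have hQR : Q ∉ TR := fun h => Finset.disjoint_left.mp hdisj hQ h
      have h1 : (Zh' + (m • Rd - D)) P = 0 := by
        by_contra hne
        obtain ⟨Q', hPQ', hQ'⟩ := ln_support_of_push₂_zero hDh' hDh'sm hrDh'2 hne
        rw [hPQ] at hPQ'
        have hQQ : Q = Q' := Sum.inl.inj (Option.some.inj hPQ')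
        rw [hrDh'1, ← hQQ] at hQ'
        exact hQR (ln_smul_gpSum_ne_zero hQ')
      have h2 := DFunLike.congr_fun hsum P
      rw [Finsupp.smul_apply, Finsupp.add_apply _ (Zh' + (m • Rd - D)), h1, add_zero] at h2
      exact h2
    · rw [if_neg hP, smul_zero]
      symm
      by_contra hne
      obtain ⟨Q', hPQ', hQ'⟩ := ln_support_of_push₂_zero hDh hDhsm hrDh2 hne
      rw [hrDh1] at hQ'
      exact hP ⟨Q', ln_smul_gpSum_ne_zero hQ', hPQ'⟩
  -- `m (D' - Nd) = D + div h`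
  have hkey : m • (D' - Nd) = D + Zh := by
    rw [smul_sub, hmD']; abel
  have hmZ : (m : ℤ) ≠ 0 := by exact_mod_cast hm
  have hdeg : D' - Nd ∈ Divisor.degZero (K := K) (F := F) := by
    rw [Divisor.mem_degZero]
    have h1 : Divisor.degree (m • (D' - Nd)) = 0 := by
      rw [hkey, map_add, hZhdeg, Divisor.mem_degZero.mp hDdeg, add_zero]
    rw [map_nsmul, nsmul_eq_mul] at h1
    exact (mul_eq_zero.mp h1).resolve_left hmZ
  have hsm' : D' - Nd ∈ R.smDiv := by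
    intro P hP
    have h1 : (D + Zh) P ≠ 0 := by
      rw [← hkey, Finsupp.smul_apply, nsmul_eq_mul]
      exact mul_ne_zero hmZ hP
    exact R.smDiv.add_mem hDsm hZhsm P h1
  have hred1 : R.push₁ (D' - Nd) = 0 := by
    have h1 : m • R.push₁ (D' - Nd) = 0 := by
      rw [← map_nsmul, hkey, map_add, hD1, hZh1, add_zero]
    ext Q
    have h2 := DFunLike.congr_fun h1 Q
    rw [Finsupp.smul_apply, nsmul_eq_mul] at h2
    simpa using (mul_eq_zero.mp h2).resolve_left hmZ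
  have hred2 : R.push₂ (D' - Nd) = 0 := by
    have h1 : m • R.push₂ (D' - Nd) = 0 := by
      rw [← map_nsmul, hkey, map_add, hD2, hZh2, add_zero]
    ext Q
    have h2 := DFunLike.congr_fun h1 Q
    rw [Finsupp.smul_apply, nsmul_eq_mul] at h2
    simpa using (mul_eq_zero.mp h2).resolve_left hmZ
  refine ⟨Pic0.mk ⟨D' - Nd, hdeg⟩, ln_mem_J1_of_push_zero hsm' hred1 hred2 hdeg, ?_⟩
  have h1 : m • Pic0.mk ⟨D' - Nd, hdeg⟩ =
      Pic0.mk (m • (⟨D' - Nd, hdeg⟩ : Divisor.degZero (K := K) (F := F))) := rfl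
  rw [h1]
  unfold Pic0.mk
  rw [QuotientAddGroup.eq, AddSubgroup.mem_addSubgroupOf]
  have h2 : ((-(m • (⟨D' - Nd, hdeg⟩ : Divisor.degZero (K := K) (F := F))) +
      ⟨D, hDdeg⟩ : Divisor.degZero (K := K) (F := F)) : Divisor K F) = -Zh := by
    rw [AddSubgroup.coe_add, AddSubgroup.coe_neg, AddSubgroup.coe_nsmul]
    show -(m • (D' - Nd)) + D = -Zh
    rw [hkey]; abel
  rw [h2]
  exact AddSubgroup.neg_mem _ ⟨h, hh0, hZh⟩

end Fermat.Agent.S15.LN

end
end ZBZ2S15_022_7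

/-! ### bundled: `Fermat.Agent.S15.LNGlue` -/
section ZBZ2S15_022_8

/-!
# S15 block LOCAL-N, pieces LN-GLUE and (N3)-geo (helper5)

* `stmtLNGlue : StmtLNGlue` : the abstract pieces LN-TF, LN-DIV, LN-Q, LN-CNT and the modular
  package `ModTR` give the interface `LNPkg.IsLN` consumed by the descent;
* `stmtN3Geo : StmtN3Geo` : two places of smooth type on the same component differ by an element
  of `J⁰`.
-/

set_option autoImplicit false
set_option linter.unusedSectionVars false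
set_option linter.unusedVariables false
set_option linter.style.haveILetI false

noncomputable section

open AlgebraicCurve Module ModularCurve

namespace Fermat.Agent.S15.LN

open Fermat.Agent.W1 Fermat.Agent.S24 Fermat.Agent.S15

section Act

variable {K F k F₁ F₂ : Type} [Field K] [Field F] [Algebra K F] [Field k]
  [Field F₁] [Algebra k F₁] [Field F₂] [Algebra k F₂]
variable {A : ValuationSubring K} {R : TRData K F k F₁ F₂ A}

theorem ln_pt₁_congr {P P' : Place K F} (h : R.r P = R.r P') : R.pt₁ P = R.pt₁ P' := by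
  unfold TRData.pt₁
  rw [h]

theorem ln_pt₂_congr {P P' : Place K F} (h : R.r P = R.r P') : R.pt₂ P = R.pt₂ P' := by
  unfold TRData.pt₂
  rw [h]

theorem ln_push₁_single' (P : Place K F) (n : ℤ) :
    R.push₁ (Finsupp.single P n) = R.pt₁ P n := by
  unfold TRData.push₁
  rw [Finsupp.liftAddHom_apply_single]

theorem ln_push₂_single' (P : Place K F) (n : ℤ) :
    R.push₂ (Finsupp.single P n) = R.pt₂ P n := by
  unfold TRData.push₂
  rw [Finsupp.liftAddHom_apply_single]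

/-- a semilinear automorphism which does not move the reductions does not change `r_{1*}` -/
theorem ln_push₁_smul (s : SemilinearAut K F) (hs : ∀ P : Place K F, R.r (s • P) = R.r P)
    (D : Divisor K F) : R.push₁ (s • D) = R.push₁ D := by
  induction D using Finsupp.induction with
  | zero => rw [smul_zero]
  | single_add v n D _ _ ih =>
    rw [smul_add, map_add, map_add, ih, SemilinearAut.smul_single, ln_push₁_single',
      ln_push₁_single', ln_pt₁_congr (hs v)]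

theorem ln_push₂_smul (s : SemilinearAut K F) (hs : ∀ P : Place K F, R.r (s • P) = R.r P)
    (D : Divisor K F) : R.push₂ (s • D) = R.push₂ D := by
  induction D using Finsupp.induction with
  | zero => rw [smul_zero]
  | single_add v n D _ _ ih =>
    rw [smul_add, map_add, map_add, ih, SemilinearAut.smul_single, ln_push₂_single',
      ln_push₂_single', ln_pt₂_congr (hs v)]

theorem ln_smDiv_smul (s : SemilinearAut K F) (hs : ∀ P : Place K F, R.r (s • P) = R.r P)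
    {D : Divisor K F} (hD : D ∈ R.smDiv) : s • D ∈ R.smDiv := by
  intro P hP
  rw [SemilinearAut.divisor_smul_apply] at hP
  have h1 := hD _ hP
  have h2 := hs (s⁻¹ • P)
  rw [smul_inv_smul] at h2
  rwa [h2]

/-- a semilinear automorphism which does not move the reductions acts trivially on `J⁰ / J¹` -/
theorem ln_smul_sub_mem_J1 (s : SemilinearAut K F) (hs : ∀ P : Place K F, R.r (s • P) = R.r P)
    {x : Pic0 K F} (hx : x ∈ R.J0) : s • x - x ∈ R.J1 := by
  obtain ⟨D, hD, rfl⟩ := (ln_mem_J0 R).mp hx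
  obtain ⟨hsm, -, -⟩ := (ln_mem_div00 R).mp hD
  rw [SemilinearAut.pic0_smul_mk]
  have hdeg : s • (D : Divisor K F) - (D : Divisor K F) ∈ Divisor.degZero (K := K) (F := F) :=
    (Divisor.degZero (K := K) (F := F)).sub_mem (SemilinearAut.smul_mem_degZero s D.2) D.2
  have e : Pic0.mk (SemilinearAut.degZeroSMulHom s D) - Pic0.mk D =
      Pic0.mk ⟨s • (D : Divisor K F) - (D : Divisor K F), hdeg⟩ := rfl
  rw [e]
  refine ln_mem_J1_of_push_zero (R.smDiv.sub_mem (ln_smDiv_smul s hs hsm) hsm) ?_ ?_ hdeg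
  · rw [map_sub, ln_push₁_smul s hs, sub_self]
  · rw [map_sub, ln_push₂_smul s hs, sub_self]

/-- two places of smooth type on the first component differ by an element of `J⁰` -/
theorem ln_single_sub_mem_div00₁ (hdeg₁ : ∀ Q : Place k F₁, Q.deg = 1) {P P' : Place K F}
    {Q Q' : Place k F₁} (hP : R.r P = some (Sum.inl Q)) (hP' : R.r P' = some (Sum.inl Q')) :
    (Finsupp.single P 1 - Finsupp.single P' 1 : Divisor K F) ∈ R.div00 := by
  rw [ln_mem_div00]
  refine ⟨R.smDiv.sub_mem (ln_rr_single_mem_smDiv R (by rw [hP]; rfl) 1)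
    (ln_rr_single_mem_smDiv R (by rw [hP']; rfl) 1), ?_, ?_⟩
  · rw [map_sub, ln_rr_push₁_single R hP, ln_rr_push₁_single R hP', map_sub,
      Divisor.degree_single, Divisor.degree_single, hdeg₁ Q, hdeg₁ Q', sub_self]
  · rw [map_sub, ln_rr_push₂_single_inl R hP, ln_rr_push₂_single_inl R hP', sub_self, map_zero]

/-- two places of smooth type on the second component differ by an element of `J⁰` -/
theorem ln_single_sub_mem_div00₂ (hdeg₂ : ∀ Q : Place k F₂, Q.deg = 1) {P P' : Place K F}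
    {Q Q' : Place k F₂} (hP : R.r P = some (Sum.inr Q)) (hP' : R.r P' = some (Sum.inr Q')) :
    (Finsupp.single P 1 - Finsupp.single P' 1 : Divisor K F) ∈ R.div00 := by
  rw [ln_mem_div00]
  refine ⟨R.smDiv.sub_mem (ln_rr_single_mem_smDiv R (by rw [hP]; rfl) 1)
    (ln_rr_single_mem_smDiv R (by rw [hP']; rfl) 1), ?_, ?_⟩
  · rw [map_sub, ln_rr_push₁_single_inr R hP, ln_rr_push₁_single_inr R hP', sub_self, map_zero]
  · rw [map_sub, ln_rr_push₂_single R hP, ln_rr_push₂_single R hP', map_sub,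
      Divisor.degree_single, Divisor.degree_single, hdeg₂ Q, hdeg₂ Q', sub_self]

end Act

/-- **LN-GLUE** -/
theorem stmtLNGlue : StmtLNGlue := by
  intro hTF hDiv hQ hCnt N _ A g F₁ F₂ _ _ _ _ R hM
  haveI : IsAlgClosed (IsLocalRing.ResidueField A) := RED.isAlgClosed_residueField A
  have hT := hM.isToric
  refine ⟨ln_J1_le_J0 R, hM.decomp0, hM.decomp1, ?_, hM.hecke, ?_, ?_, ?_, ?_⟩
  · intro σ hσ x hx
    rw [galois_smul_pic0_def]
    exact ln_smul_sub_mem_J1 (R := R) (galAct N σ) (fun P => hM.inertia σ hσ P) hx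
  · intro m hm x hx hmx
    exact hTF Kb (FF N) (IsLocalRing.ResidueField A) F₁ F₂ A R g hT m hm x hx hmx
  · intro m hm x hx
    exact hDiv Kb (FF N) (IsLocalRing.ResidueField A) F₁ F₂ A R g hT m hm x hx
  · intro m hm x hx
    exact hQ Kb (FF N) (IsLocalRing.ResidueField A) F₁ F₂ A R g hT m hm x hx
  · intro m hm
    exact hCnt Kb (FF N) (IsLocalRing.ResidueField A) F₁ F₂ A R g hT m hm

/-- **(N3)**, geometric half -/
theorem stmtN3Geo : StmtN3Geo := by
  intro N _ A g F₁ F₂ _ _ _ _ R hM P P' D hD h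
  have hT := hM.isToric
  refine (ln_mem_J0 R).mpr ⟨D, ?_, rfl⟩
  rw [hD]
  rcases h with ⟨Q, Q', hP, hP'⟩ | ⟨Q, Q', hP, hP'⟩
  · exact ln_single_sub_mem_div00₁ (IsToric_deg₁ hT) hP hP'
  · exact ln_single_sub_mem_div00₂ (IsToric_deg₂ hT) hP hP'

end Fermat.Agent.S15.LN

end
end ZBZ2S15_022_8

/-! ### bundled: `Fermat.Agent.S15.LNDiv` -/
section ZBZ2S15_022_9

/-!
# S15 block LOCAL-N, piece LN-DIV (helper5): the kernel of reduction `J¹` is `m`-divisible

`stmtTorDiv : StmtTorDiv`.  Transplant of `S15/Div1.lean` (helper94) to the nodal curve.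

`x = [D]`, `D` of smooth type, `r_* D = 0` (`ln_exists_rep`).  `TN`, `TR` disjoint charts of the
first component (`g` smooth points each), `Nd`, `Rd` lifts.  Orthonormal bases `e₁, e₂, e₃, e₄` of
`L(Nd + Rd)`, `L(D + m Nd)`, `L(m Rd - D)`, `L(m (Nd + Rd))` (all non-special on the nodal curve).
The system: the coordinates of `w ^ m - h h'` in `e₄`, and two normalisations.  It is square,
the point `(α, β, γ)` (lifts of `1, 1, 1`) solves it modulo `𝔪`, and the differential is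
injective modulo `𝔪` (`ln_rr_tangent_const` of LN-RR and the normalisations).  `stmtHenselMv`
gives an exact solution and `ln_div1_divisor` the class `y`.
-/

set_option autoImplicit false
set_option linter.unusedSectionVars false
set_option linter.unusedVariables false
set_option linter.style.haveILetI false

noncomputable section

open AlgebraicCurve Module MvPolynomial

namespace Fermat.Agent.S15.LN

open Fermat.Agent.W1 Fermat.Agent.S24 Fermat.Agent.ES.R Fermat.Agent.S15.Div1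

variable {K F k F₁ F₂ : Type} [Field K] [Field F] [Algebra K F] [Field k]
  [Field F₁] [Algebra k F₁] [Field F₂] [Algebra k F₂]
variable {A : ValuationSubring K} {R : TRData K F k F₁ F₂ A} {g : ℕ}

theorem ln_natCast_res (hR : R.IsTR) {m : ℕ} (hm : (m : K) ∉ A.nonunits) : (m : k) ≠ 0 := by
  intro h0
  apply hm
  have h1 : R.res (m : A) = 0 := by rw [map_natCast]; exact h0
  have h2 := (hR.res_eq_zero_iff (m : A)).mp h1
  simpa using h2

theorem ln_natCast_memO (hR : R.IsTR) (m : ℕ) : (m : F) ∈ R.O₁₂ := by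
  have := ln_ob_algebraMap_mem hR (a := (m : K)) (by exact_mod_cast (m : A).2)
  rwa [map_natCast] at this

theorem ln_one_mem_Lbar (hT : R.IsToric g) {D : Divisor K F} (h1 : 0 ≤ R.push₁ D)
    (h2 : 0 ≤ R.push₂ D) : (1 : F₁ × F₂) ∈ R.Lbar D := by
  rw [ln_rr_Lbar_eq]
  exact ln_rr_one_mem R.X h1 h2

theorem stmtTorDiv_of (hH : StmtHenselMv) : StmtTorDiv := by
  intro K F k F₁ F₂ _ _ _ _ _ _ _ _ _ A R g hT m hm x hx
  classical
  have hR := hT.isTR
  have hpd := hT.nice.hpd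
  have hNod := ln_rr_isNodal hT
  have hm0 : m ≠ 0 := by
    rintro rfl
    exact hm (by rw [Nat.cast_zero]; exact zero_mem_nonunits')
  have hmk : (m : k) ≠ 0 := ln_natCast_res hR hm
  obtain ⟨D, hDdeg, rfl, hDsm, hD1, hD2⟩ := ln_exists_rep hT hx
  -- the two charts
  obtain ⟨TN, hTNcard, -, hTNX, -⟩ := ln_rr_exists_chart₁ hNod (F₂ := F₂) ∅
  obtain ⟨TR, hTRcard, hdisj', hTRX, -⟩ := ln_rr_exists_chart₁ hNod (F₂ := F₂) TN
  have hdisj : Disjoint TN TR := hdisj'.symm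
  -- lifts
  obtain ⟨Nd, hNd0, hNdsm, hNd1, hNd2⟩ := ln_rr_exists_lift₁ hT TN hTNX
  obtain ⟨Rd, hRd0, hRdsm, hRd1, hRd2⟩ := ln_rr_exists_lift₁ hT TR hTRX
  obtain ⟨m', rfl⟩ : ∃ m', m = m' + 1 := Nat.exists_eq_succ_of_ne_zero hm0
  have hdegN : Divisor.degree (gpSum TN) = g := by rw [degree_gpSum hT.nice₁.hres, hTNcard]
  have hdegR : Divisor.degree (gpSum TR) = g := by rw [degree_gpSum hT.nice₁.hres, hTRcard]
  have hg0 : (0 : ℤ) ≤ g := Int.natCast_nonneg g
  have hm'0 : (0 : ℤ) ≤ m' := Int.natCast_nonneg m'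
  have hmg : (0 : ℤ) ≤ (m' : ℤ) * g := mul_nonneg hm'0 hg0
  -- the four divisors are of smooth type
  have hBsm : Nd + Rd ∈ R.smDiv := R.smDiv.add_mem hNdsm hRdsm
  have hEsm : D + (m' + 1) • Nd ∈ R.smDiv := R.smDiv.add_mem hDsm (R.smDiv.nsmul_mem hNdsm _)
  have hE'sm : (m' + 1) • Rd - D ∈ R.smDiv := R.smDiv.sub_mem (R.smDiv.nsmul_mem hRdsm _) hDsm
  have hMsm : (m' + 1) • (Nd + Rd) ∈ R.smDiv := R.smDiv.nsmul_mem hBsm _
  -- their reductions
  have hB1 : R.push₁ (Nd + Rd) = gpSum TN + gpSum TR := by rw [map_add, hNd1, hRd1]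
  have hB2 : R.push₂ (Nd + Rd) = 0 := by rw [map_add, hNd2, hRd2, add_zero]
  have hE1 : R.push₁ (D + (m' + 1) • Nd) = (m' + 1) • gpSum TN := by
    rw [map_add, map_nsmul, hD1, hNd1, zero_add]
  have hE2 : R.push₂ (D + (m' + 1) • Nd) = 0 := by
    rw [map_add, map_nsmul, hD2, hNd2, smul_zero, add_zero]
  have hE'1 : R.push₁ ((m' + 1) • Rd - D) = (m' + 1) • gpSum TR := by
    rw [map_sub, map_nsmul, hD1, hRd1, sub_zero]
  have hE'2 : R.push₂ ((m' + 1) • Rd - D) = 0 := by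
    rw [map_sub, map_nsmul, hD2, hRd2, smul_zero, sub_zero]
  have hM1 : R.push₁ ((m' + 1) • (Nd + Rd)) = (m' + 1) • (gpSum TN + gpSum TR) := by
    rw [map_nsmul, hB1]
  have hM2 : R.push₂ ((m' + 1) • (Nd + Rd)) = 0 := by
    rw [map_nsmul, hB2, smul_zero]
  -- degrees
  have hdB : Divisor.degree (Nd + Rd) = g + g := by
    rw [ln_rr_degree_smDiv hT hBsm, hB1, hB2, map_add, hdegN, hdegR, map_zero, add_zero]
  have hdE : Divisor.degree (D + (m' + 1) • Nd) = (m' + 1) * g := by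
    rw [ln_rr_degree_smDiv hT hEsm, hE1, hE2, map_nsmul, hdegN, map_zero, add_zero,
      nsmul_eq_mul]
    push_cast; ring
  have hdE' : Divisor.degree ((m' + 1) • Rd - D) = (m' + 1) * g := by
    rw [ln_rr_degree_smDiv hT hE'sm, hE'1, hE'2, map_nsmul, hdegR, map_zero, add_zero,
      nsmul_eq_mul]
    push_cast; ring
  have hdM : Divisor.degree ((m' + 1) • (Nd + Rd)) = (m' + 1) * (g + g) := by
    rw [ln_rr_degree_smDiv hT hMsm, hM1, hM2, map_nsmul, map_add, hdegN, hdegR, map_zero,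
      add_zero, nsmul_eq_mul]
    push_cast; ring
  -- the four orthonormal bases
  obtain ⟨n₁, e₁, h₁, hn₁⟩ := ln_ob_exists₁ hT hBsm
    (by rw [hB1, map_add, hdegN, hdegR]; linarith) (by rw [hB2, map_zero]; norm_num)
  obtain ⟨n₂, e₂, h₂, hn₂⟩ := ln_ob_exists₁ hT hEsm
    (by rw [hE1, map_nsmul, hdegN, nsmul_eq_mul]; push_cast; nlinarith)
    (by rw [hE2, map_zero]; norm_num)
  obtain ⟨n₃, e₃, h₃, hn₃⟩ := ln_ob_exists₁ hT hE'sm
    (by rw [hE'1, map_nsmul, hdegR, nsmul_eq_mul]; push_cast; nlinarith)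
    (by rw [hE'2, map_zero]; norm_num)
  obtain ⟨n₄, e₄, h₄, hn₄⟩ := ln_ob_exists₁ hT hMsm
    (by rw [hM1, map_nsmul, map_add, hdegN, hdegR, nsmul_eq_mul]; push_cast; nlinarith)
    (by rw [hM2, map_zero]; norm_num)
  rw [hdB] at hn₁
  rw [hdE] at hn₂
  rw [hdE'] at hn₃
  rw [hdM] at hn₄
  have hcard : Fintype.card (Fin n₄ ⊕ Bool) = Fintype.card (Fin n₁ ⊕ Fin n₂ ⊕ Fin n₃) := by
    simp only [Fintype.card_sum, Fintype.card_fin, Fintype.card_bool]
    have : ((n₄ + 2 : ℕ) : ℤ) = ((n₁ + (n₂ + n₃) : ℕ) : ℤ) := by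
      push_cast
      rw [hn₁, hn₂, hn₃, hn₄]
      ring
    exact_mod_cast this
  -- lifts of `1`
  have h1B : (1 : F₁ × F₂) ∈ R.Lbar (Nd + Rd) :=
    ln_one_mem_Lbar hT (by rw [hB1]; exact add_nonneg (gpSum_nonneg _) (gpSum_nonneg _))
      (by rw [hB2])
  have h1E : (1 : F₁ × F₂) ∈ R.Lbar (D + (m' + 1) • Nd) :=
    ln_one_mem_Lbar hT (by rw [hE1]; exact smul_gpSum_nonneg _ _) (by rw [hE2])
  have h1E' : (1 : F₁ × F₂) ∈ R.Lbar ((m' + 1) • Rd - D) :=
    ln_one_mem_Lbar hT (by rw [hE'1]; exact smul_gpSum_nonneg _ _) (by rw [hE'2])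
  obtain ⟨α, hα⟩ := h₁.exists_lift hR h1B
  obtain ⟨β, hβ⟩ := h₂.exists_lift hR h1E
  obtain ⟨γ, hγ⟩ := h₃.exists_lift hR h1E'
  obtain ⟨a₁, ha₁⟩ := h₁.exists_unit_coeff hR α hα
  obtain ⟨b₁, hb₁⟩ := h₂.exists_unit_coeff hR β hβ
  -- the polynomial system
  have hp : ∀ μ, ∃ c : Fin n₄ → A,
      coeff μ (polyPhi e₁ e₂ e₃ (m' + 1)) = cmb (phiA A F) e₄ c := by
    intro μ
    have hmem := coeff_polyPhi_mem e₁ e₂ e₃ (fun j => lnLatticeSub R (j • (Nd + Rd)))
      (by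
        refine ⟨?_, R.O₁₂.one_mem⟩
        rw [zero_smul]; exact gp_one_mem_rr le_rfl)
      (fun i j x hx y hy => ⟨by rw [add_smul]; exact rr_mul_mem hx.1 hy.1,
        R.O₁₂.mul_mem hx.2 hy.2⟩)
      (fun a => ⟨by rw [one_smul]; exact h₁.mem_rr a, h₁.memO a⟩) (m' + 1)
      (fun b c => ⟨by
        have := rr_mul_mem (h₂.mem_rr b) (h₃.mem_rr c)
        have e : D + (m' + 1) • Nd + ((m' + 1) • Rd - D) = (m' + 1) • (Nd + Rd) := by
          rw [smul_add]; abel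
        rwa [e] at this, R.O₁₂.mul_mem (h₂.memO b) (h₃.memO c)⟩) μ
    obtain ⟨c, hc⟩ := h₄.exists_coeff hR hmem.1 hmem.2
    exact ⟨c, by rw [hc, cmb_eq_comb]⟩
  obtain ⟨q, hq1, hq2⟩ := exists_system (phiA A F) e₁ e₂ e₃ e₄ (m' + 1) hp
  simp only [cmb_eq_comb] at hq1 hq2
  set f : Fin n₄ ⊕ Bool → MvPolynomial (Fin n₁ ⊕ Fin n₂ ⊕ Fin n₃) A := fun i =>
    match i with
    | Sum.inl d => q d
    | Sum.inr false => X (Sum.inl a₁) - C (α a₁)
    | Sum.inr true => X (Sum.inr (Sum.inl b₁)) - C (β b₁) with hf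
  set a₀ : Fin n₁ ⊕ Fin n₂ ⊕ Fin n₃ → A := Sum.elim α (Sum.elim β γ) with ha₀
  have hp₁ : pt₁ a₀ = α := rfl
  have hp₂ : pt₂ a₀ = β := rfl
  have hp₃ : pt₃ a₀ = γ := rfl
  -- (i) the point solves the system modulo `𝔪`
  have hi : ∀ i, ((eval a₀ (f i) : A) : K) ∈ A.nonunits := by
    intro i
    rcases i with d | b
    · have e1 := hq1 a₀
      rw [hp₁, hp₂, hp₃] at e1
      refine h₄.coeff_nonunit hR (fun d => eval a₀ (q d)) ?_ d
      have e2 : (⟨comb e₄ fun d => eval a₀ (q d), h₄.comb_memO hR _⟩ : R.O₁₂)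
          = ⟨comb e₁ α, h₁.comb_memO hR α⟩ ^ (m' + 1)
            - ⟨comb e₂ β, h₂.comb_memO hR β⟩ * ⟨comb e₃ γ, h₃.comb_memO hR γ⟩ :=
        Subtype.ext e1
      rw [e2, map_sub, map_pow, map_mul, hα, hβ, hγ, one_pow, mul_one, sub_self]
    · cases b
      · show ((eval a₀ (X (Sum.inl a₁) - C (α a₁)) : A) : K) ∈ A.nonunits
        rw [eval_X_sub_C]
        have : a₀ (Sum.inl a₁) - α a₁ = 0 := sub_self _
        rw [this]; exact zero_mem_nonunits'
      · show ((eval a₀ (X (Sum.inr (Sum.inl b₁)) - C (β b₁)) : A) : K) ∈ A.nonunits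
        rw [eval_X_sub_C]
        have : a₀ (Sum.inr (Sum.inl b₁)) - β b₁ = 0 := sub_self _
        rw [this]; exact zero_mem_nonunits'
  -- (ii) the differential is injective modulo `𝔪`
  have hii : ∀ v : Fin n₁ ⊕ Fin n₂ ⊕ Fin n₃ → A,
      (∀ i, ((∑ j, eval a₀ (pderiv j (f i)) * v j : A) : K) ∈ A.nonunits) →
      ∀ j, ((v j : A) : K) ∈ A.nonunits := by
    intro v hv
    have hv₁ : ((v (Sum.inl a₁) : A) : K) ∈ A.nonunits := by
      have := hv (Sum.inr false)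
      have e : ∑ j, eval a₀ (pderiv j (f (Sum.inr false))) * v j = v (Sum.inl a₁) :=
        sum_pderiv_X_sub_C _ _ _ _
      rwa [e] at this
    have hv₂ : ((v (Sum.inr (Sum.inl b₁)) : A) : K) ∈ A.nonunits := by
      have := hv (Sum.inr true)
      have e : ∑ j, eval a₀ (pderiv j (f (Sum.inr true))) * v j = v (Sum.inr (Sum.inl b₁)) :=
        sum_pderiv_X_sub_C _ _ _ _
      rwa [e] at this
    have e1 := hq2 a₀ v
    rw [hp₁, hp₂, hp₃] at e1
    have hred0 := h₄.red_eq_zero_of_nonunit hR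
      (fun d => ∑ j, eval a₀ (pderiv j (q d)) * v j) (fun d => hv (Sum.inl d))
    have e2 : (⟨comb e₄ fun d => ∑ j, eval a₀ (pderiv j (q d)) * v j, h₄.comb_memO hR _⟩ : R.O₁₂)
        = ⟨((m' + 1 : ℕ) : F), ln_natCast_memO hR _⟩
            * ⟨comb e₁ α, h₁.comb_memO hR α⟩ ^ (m' + 1 - 1)
            * ⟨comb e₁ (pt₁ v), h₁.comb_memO hR _⟩
          - ⟨comb e₂ (pt₂ v), h₂.comb_memO hR _⟩ * ⟨comb e₃ γ, h₃.comb_memO hR γ⟩
          - ⟨comb e₂ β, h₂.comb_memO hR β⟩ * ⟨comb e₃ (pt₃ v), h₃.comb_memO hR _⟩ :=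
      Subtype.ext e1
    have hmO : (⟨((m' + 1 : ℕ) : F), ln_natCast_memO hR _⟩ : R.O₁₂) = ((m' + 1 : ℕ) : R.O₁₂) :=
      Subtype.ext (by push_cast; rfl)
    rw [e2, map_sub, map_sub, map_mul, map_mul, map_mul, map_mul, map_pow, hα, hβ, hγ, one_pow,
      mul_one, mul_one, one_mul, hmO, map_natCast] at hred0
    have heq : ((m' + 1 : ℕ) : k) • R.red₁₂ ⟨comb e₁ (pt₁ v), h₁.comb_memO hR _⟩
        = R.red₁₂ ⟨comb e₂ (pt₂ v), h₂.comb_memO hR _⟩
          + R.red₁₂ ⟨comb e₃ (pt₃ v), h₃.comb_memO hR _⟩ := by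
      rw [Nat.cast_smul_eq_nsmul, nsmul_eq_mul]
      linear_combination hred0
    have hu := h₁.red_comb_mem hR (pt₁ v)
    have hvv := h₂.red_comb_mem hR (pt₂ v)
    have hhh := h₃.red_comb_mem hR (pt₃ v)
    rw [ln_rr_Lbar_eq, hB1, hB2] at hu
    rw [ln_rr_Lbar_eq, hE1, hE2] at hvv
    rw [ln_rr_Lbar_eq, hE'1, hE'2] at hhh
    obtain ⟨⟨c₁, hc₁⟩, ⟨c₂, hc₂⟩, -⟩ := ln_rr_tangent_const hNod hdisj hTNcard hTRcard hTNX hTRX
      (m' + 1) hmk hu hvv hhh heq
    have hu0 := h₁.red_eq_zero_of_const hR α (pt₁ v) hα a₁ ha₁ hv₁ c₁ hc₁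
    have hv0 := h₂.red_eq_zero_of_const hR β (pt₂ v) hβ b₁ hb₁ hv₂ c₂ hc₂
    have hh0 : R.red₁₂ ⟨comb e₃ (pt₃ v), h₃.comb_memO hR _⟩ = 0 := by
      rw [hu0, hv0, smul_zero, zero_add] at heq
      exact heq.symm
    intro j
    rcases j with a | b | c
    · exact h₁.coeff_nonunit hR (pt₁ v) hu0 a
    · exact h₂.coeff_nonunit hR (pt₂ v) hv0 b
    · exact h₃.coeff_nonunit hR (pt₃ v) hh0 c
  -- the exact solution
  obtain ⟨b, hb, hfb⟩ := hH K A (Fin n₁ ⊕ Fin n₂ ⊕ Fin n₃) (Fin n₄ ⊕ Bool) hcard f a₀ hi hii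
  have hres : ∀ j, R.res (b j) = R.res (a₀ j) := fun j => ln_ob_res_eq_of_sub_nonunit hR (hb j)
  have hw1 : R.red₁₂ ⟨comb e₁ (pt₁ b), h₁.comb_memO hR _⟩ = 1 := by
    rw [← hα, h₁.red_comb hR, h₁.red_comb hR]
    exact Finset.sum_congr rfl fun i _ => by rw [pt₁, hres]; rfl
  have hh1 : R.red₁₂ ⟨comb e₂ (pt₂ b), h₂.comb_memO hR _⟩ = 1 := by
    rw [← hβ, h₂.red_comb hR, h₂.red_comb hR]
    exact Finset.sum_congr rfl fun i _ => by rw [pt₂, hres]; rfl
  have hh'1 : R.red₁₂ ⟨comb e₃ (pt₃ b), h₃.comb_memO hR _⟩ = 1 := by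
    rw [← hγ, h₃.red_comb hR, h₃.red_comb hR]
    exact Finset.sum_congr rfl fun i _ => by rw [pt₃, hres]; rfl
  have heq : comb e₁ (pt₁ b) ^ (m' + 1) = comb e₂ (pt₂ b) * comb e₃ (pt₃ b) := by
    have e1 := hq1 b
    have e2 : (comb e₄ fun d => eval b (q d)) = 0 := by
      unfold comb
      refine Finset.sum_eq_zero fun d _ => ?_
      have := hfb (Sum.inl d)
      have e3 : eval b (q d) = 0 := this
      show ((eval b (q d) : A) : K) • e₄ d = 0
      rw [e3]; simp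
    rw [e2] at e1
    exact (sub_eq_zero.mp e1.symm)
  exact ln_div1_divisor hT hdisj Nd Rd D hNdsm hRdsm hDsm hNd1 hNd2 hRd1 hRd2 hD1 hD2 hDdeg
    (m' + 1) (Nat.succ_ne_zero _)
    _ _ _ (h₁.comb_memO hR _) (h₂.comb_memO hR _) (h₃.comb_memO hR _) hw1 hh1 hh'1
    (h₁.comb_mem_rr _) (h₂.comb_mem_rr _) (h₃.comb_mem_rr _) heq

/-- **LN-DIV**: the kernel of reduction of a two-component toric reduction is divisible by every
`m` which is a unit of `A`. -/
theorem stmtTorDiv : StmtTorDiv := stmtTorDiv_of stmtHenselMv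

end Fermat.Agent.S15.LN

end
end ZBZ2S15_022_9

/-! ### bundled: `Fermat.Agent.S15.LNTorus` -/
section ZBZ2S15_022_10

/-!
# S15 block LOCAL-N (helper10): the torus of the nodal curve

`Pic⁰` of the nodal curve `C₁ ∪ C₂` (two curves of genus `0` crossing at `X`) is the torus
`(k^×)^X / k^×`.  We describe it by an explicit map, normalised at a base point `x₀ ∈ X`.

* `ln_rr_principal_genus0` : on a curve of genus `0` every divisor of degree `0` is principal;
* `lnNorm Q₀ E` : THE function with divisor `E` and value `1` at `Q₀` (`deg E = 0`, `E Q₀ = 0`);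
  `lnNorm_spec`, `lnNorm_unique`, `lnNorm_add`, `lnNorm_zero`, `lnNorm_neg`, `lnNorm_nsmul`;
* `lnTau x₀ E₁ E₂ x = f₁(x.1) / f₂(x.2)`, `f_i = lnNorm x₀.i E_i` : the class of `(E₁, E₂)` in the
  torus; `lnTau_ne_zero`, `lnTau_base`, `lnTau_add`, `lnTau_neg`, `lnTau_nsmul`;
* `lnTau_eq_one_iff` : `(E₁, E₂)` is principal on the nodal curve iff `lnTau = 1` on `X`;
* `lnTau_surj` : every `s : X → k^×` with `s x₀ = 1` is `lnTau x₀ 0 E₂`.
-/

set_option autoImplicit false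
set_option linter.unusedSectionVars false
set_option linter.unusedVariables false
set_option linter.style.haveILetI false

noncomputable section

open AlgebraicCurve Module

namespace Fermat.Agent.S15.LN

open Fermat.Agent.W1 Fermat.Agent.S24 Fermat.Agent.ES.R

open scoped Classical

/-! ### One curve of genus `0` -/

section Genus0

variable {k F : Type} [Field k] [Field F] [Algebra k F]

/-- an effective divisor of degree `0` is `0` -/
theorem ln_tor_eq_zero_of_nonneg (hdeg : ∀ v : Place k F, v.deg = 1) {G : Divisor k F}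
    (hG : 0 ≤ G) (h0 : Divisor.degree G = 0) : G = 0 := by
  ext Q
  by_contra hne
  have hQ : 0 ≤ G Q := by simpa using Finsupp.le_def.mp hG Q
  have hpos : 0 < G Q := lt_of_le_of_ne hQ (Ne.symm hne)
  have := ln_degree_pos hdeg hG Q hpos
  omega

/-- on a curve of genus `0` every divisor of degree `0` is principal -/
theorem ln_rr_principal_genus0 (hF : IsNiceCurve k F 0) (E : Divisor k F)
    (hE : Divisor.degree E = 0) : ∃ f : F, f ≠ 0 ∧ ∀ Q : Place k F, E Q = Q.ord f := by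
  haveI := hF.hpd
  haveI := ln_rr_finite_genus0 hF (-E)
  have h1 := ln_rr_finrank_genus0 hF (-E) (by rw [map_neg, hE]; norm_num)
  rw [map_neg, hE] at h1
  have h2 : 0 < finrank k ↥(riemannRochSpace (-E)) := by
    have : (finrank k ↥(riemannRochSpace (-E)) : ℤ) = 1 := by simpa using h1
    omega
  obtain ⟨⟨f, hf⟩, hf0⟩ := Module.finrank_pos_iff_exists_ne_zero.mp h2
  have hf0' : f ≠ 0 := fun h => hf0 (Subtype.ext h)
  obtain ⟨D, hD, hDdeg⟩ := HasPrincipalDivisors.exists_divisor (K := k) f hf0'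
  have hG : 0 ≤ D - E := by
    rw [Finsupp.le_def]
    intro Q
    rcases mem_riemannRochSpace_iff.mp hf Q with h | h
    · exact absurd h hf0'
    · rw [Finsupp.neg_apply, neg_neg] at h
      rw [Finsupp.coe_zero, Pi.zero_apply, Finsupp.sub_apply, hD]
      linarith
  have hG0 := ln_tor_eq_zero_of_nonneg (fun v => place_deg_eq_one v (hF.hres v)) hG
    (by rw [map_sub, hDdeg, hE, sub_zero])
  refine ⟨f, hf0', fun Q => ?_⟩
  have := DFunLike.congr_fun hG0 Q
  rw [Finsupp.sub_apply, hD, Finsupp.coe_zero, Pi.zero_apply] at this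
  linarith

/-- a function without zero or pole at `Q` has a nonzero value at `Q` -/
theorem ln_tor_exists_value (hres : ∀ v : Place k F, Function.Bijective (algebraMap k v.ResidueField))
    {Q : Place k F} {f : F} (hf : f ≠ 0) (hord : Q.ord f = 0) :
    ∃ a : k, a ≠ 0 ∧ HasValueAt Q f a := by
  have hmem : f ∈ Q.toValuationSubring := PlaceAux.mem_of_ord_nonneg Q (le_of_eq hord.symm)
  obtain ⟨a, ha⟩ := ge_exists_value Q (hres Q) hmem
  refine ⟨a, ?_, ha⟩
  rintro rfl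
  rcases (ln_rr_hasValueAt_zero_iff Q).mp ha with h | h
  · exact hf h
  · omega

theorem ln_tor_val_ne_zero (hres : ∀ v : Place k F, Function.Bijective (algebraMap k v.ResidueField))
    {Q : Place k F} {f : F} (hf : f ≠ 0) (hord : Q.ord f = 0) :
    lnVal Q f ≠ 0 ∧ HasValueAt Q f (lnVal Q f) := by
  obtain ⟨a, ha, hv⟩ := ln_tor_exists_value hres hf hord
  rw [ln_rr_val_eq hv]
  exact ⟨ha, hv⟩

/-- a function without zeros and poles is constant (genus `0`; true in general) -/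
theorem ln_tor_const_of_ord_eq_zero (hF : IsNiceCurve k F 0) {u : F}
    (hu : ∀ Q : Place k F, Q.ord u = 0) : ∃ c : k, u = algebraMap k F c := by
  haveI := hF.hpd
  obtain ⟨v₀, -⟩ := hF.infinite.nonempty
  have h1 := ln_rr_finrank_genus0 hF (0 : Divisor k F) (by simp)
  rw [map_zero] at h1
  have h2 : finrank k ↥(riemannRochSpace (0 : Divisor k F)) ≤ 1 := by
    have : (finrank k ↥(riemannRochSpace (0 : Divisor k F)) : ℤ) = 1 := by simpa using h1
    omega
  refine c1_const_of_finrank_le_one hF.hres v₀ le_rfl h2 ?_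
  rw [mem_riemannRochSpace_iff]
  intro v
  right
  rw [hu v]
  simp

/-- two functions with the same divisor and the same nonzero value at one point are equal -/
theorem ln_tor_eq_of_same_div (hF : IsNiceCurve k F 0) {f f' : F} (hf : f ≠ 0) (hf' : f' ≠ 0)
    (h : ∀ Q : Place k F, Q.ord f = Q.ord f') {Q₀ : Place k F} {a : k} (ha : a ≠ 0)
    (hv : HasValueAt Q₀ f a) (hv' : HasValueAt Q₀ f' a) : f = f' := by
  obtain ⟨c, hc⟩ := ln_tor_const_of_ord_eq_zero hF (u := f' * f⁻¹) (fun Q => by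
    rw [Q.ord_mul hf' (inv_ne_zero hf), Q.ord_inv, h Q]
    ring)
  have e : f' = algebraMap k F c * f := by
    rw [← hc]
    field_simp
  have hv2 : HasValueAt Q₀ f' (c * a) := by
    rw [e]
    exact ln_hasValueAt_mul (ln_hasValueAt_const Q₀ c) hv
  have hca : c * a = a := hasValueAt_unique Q₀ hv2 hv'
  have hc1 : c = 1 := by
    have : (c - 1) * a = 0 := by rw [sub_mul, hca, one_mul, sub_self]
    rcases mul_eq_zero.mp this with h1 | h1
    · exact sub_eq_zero.mp h1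
    · exact absurd h1 ha
  rw [e, hc1, map_one, one_mul]

/-- the property defining `lnNorm` -/
def IsNormFn (Q₀ : Place k F) (E : Divisor k F) (f : F) : Prop :=
  f ≠ 0 ∧ (∀ Q : Place k F, E Q = Q.ord f) ∧ HasValueAt Q₀ f 1

/-- THE function with divisor `E` and value `1` at `Q₀` -/
def lnNorm (Q₀ : Place k F) (E : Divisor k F) : F :=
  if h : ∃ f : F, IsNormFn Q₀ E f then h.choose else 1

theorem lnNorm_exists (hF : IsNiceCurve k F 0) (Q₀ : Place k F) (E : Divisor k F)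
    (hE : Divisor.degree E = 0) (hQ₀ : E Q₀ = 0) : ∃ f : F, IsNormFn Q₀ E f := by
  obtain ⟨f, hf0, hf⟩ := ln_rr_principal_genus0 hF E hE
  obtain ⟨a, ha, hva⟩ := ln_tor_exists_value hF.hres hf0 (by rw [← hf, hQ₀])
  refine ⟨algebraMap k F a⁻¹ * f, mul_ne_zero ((map_ne_zero _).mpr (inv_ne_zero ha)) hf0,
    fun Q => ?_, ?_⟩
  · rw [ln_ord_const_mul Q (inv_ne_zero ha), hf]
  · have := ln_hasValueAt_mul (ln_hasValueAt_const Q₀ a⁻¹) hva
    rwa [inv_mul_cancel₀ ha] at this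

theorem lnNorm_spec (hF : IsNiceCurve k F 0) (Q₀ : Place k F) (E : Divisor k F)
    (hE : Divisor.degree E = 0) (hQ₀ : E Q₀ = 0) : IsNormFn Q₀ E (lnNorm Q₀ E) := by
  unfold lnNorm
  rw [dif_pos (lnNorm_exists hF Q₀ E hE hQ₀)]
  exact (lnNorm_exists hF Q₀ E hE hQ₀).choose_spec

theorem lnNorm_unique (hF : IsNiceCurve k F 0) {Q₀ : Place k F} {E : Divisor k F} {f : F}
    (hf : IsNormFn Q₀ E f) : lnNorm Q₀ E = f := by
  have hex : ∃ f : F, IsNormFn Q₀ E f := ⟨f, hf⟩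
  have hs : IsNormFn Q₀ E (lnNorm Q₀ E) := by
    unfold lnNorm
    rw [dif_pos hex]
    exact hex.choose_spec
  exact ln_tor_eq_of_same_div hF hs.1 hf.1 (fun Q => by rw [← hs.2.1 Q, hf.2.1 Q]) one_ne_zero
    hs.2.2 hf.2.2

theorem IsNormFn.mul {Q₀ : Place k F} {E E' : Divisor k F} {f f' : F} (h : IsNormFn Q₀ E f)
    (h' : IsNormFn Q₀ E' f') : IsNormFn Q₀ (E + E') (f * f') := by
  refine ⟨mul_ne_zero h.1 h'.1, fun Q => ?_, ?_⟩
  · rw [Finsupp.add_apply, h.2.1, h'.2.1, Q.ord_mul h.1 h'.1]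
  · have := ln_hasValueAt_mul h.2.2 h'.2.2
    rwa [one_mul] at this

theorem IsNormFn.inv {Q₀ : Place k F} {E : Divisor k F} {f : F} (h : IsNormFn Q₀ E f) :
    IsNormFn Q₀ (-E) f⁻¹ := by
  refine ⟨inv_ne_zero h.1, fun Q => ?_, ?_⟩
  · rw [Finsupp.neg_apply, h.2.1, Q.ord_inv]
  · have := ln_hasValueAt_inv h.2.2 one_ne_zero
    rwa [inv_one] at this

theorem IsNormFn.one (Q₀ : Place k F) : IsNormFn Q₀ (0 : Divisor k F) (1 : F) :=
  ⟨one_ne_zero, fun Q => by simp, ln_hasValueAt_one Q₀⟩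

theorem IsNormFn.pow {Q₀ : Place k F} {E : Divisor k F} {f : F} (h : IsNormFn Q₀ E f)
    (m : ℕ) : IsNormFn Q₀ (m • E) (f ^ m) := by
  induction m with
  | zero =>
    rw [zero_smul, pow_zero]
    exact IsNormFn.one Q₀
  | succ n ih =>
    rw [succ_nsmul, pow_succ]
    exact ih.mul h

theorem lnNorm_zero (hF : IsNiceCurve k F 0) (Q₀ : Place k F) :
    lnNorm Q₀ (0 : Divisor k F) = 1 :=
  lnNorm_unique hF (IsNormFn.one Q₀)

theorem lnNorm_add (hF : IsNiceCurve k F 0) (Q₀ : Place k F) {E E' : Divisor k F}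
    (hE : Divisor.degree E = 0) (hQ₀ : E Q₀ = 0) (hE' : Divisor.degree E' = 0)
    (hQ₀' : E' Q₀ = 0) : lnNorm Q₀ (E + E') = lnNorm Q₀ E * lnNorm Q₀ E' :=
  lnNorm_unique hF ((lnNorm_spec hF Q₀ E hE hQ₀).mul (lnNorm_spec hF Q₀ E' hE' hQ₀'))

theorem lnNorm_neg (hF : IsNiceCurve k F 0) (Q₀ : Place k F) {E : Divisor k F}
    (hE : Divisor.degree E = 0) (hQ₀ : E Q₀ = 0) : lnNorm Q₀ (-E) = (lnNorm Q₀ E)⁻¹ :=
  lnNorm_unique hF (lnNorm_spec hF Q₀ E hE hQ₀).inv

theorem lnNorm_nsmul (hF : IsNiceCurve k F 0) (Q₀ : Place k F) {E : Divisor k F}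
    (hE : Divisor.degree E = 0) (hQ₀ : E Q₀ = 0) (m : ℕ) :
    lnNorm Q₀ (m • E) = lnNorm Q₀ E ^ m :=
  lnNorm_unique hF ((lnNorm_spec hF Q₀ E hE hQ₀).pow m)

/-- the value of `lnNorm` at a point outside the support -/
theorem lnNorm_val (hF : IsNiceCurve k F 0) (Q₀ : Place k F) {E : Divisor k F}
    (hE : Divisor.degree E = 0) (hQ₀ : E Q₀ = 0) {Q : Place k F} (hQ : E Q = 0) :
    lnVal Q (lnNorm Q₀ E) ≠ 0 ∧ HasValueAt Q (lnNorm Q₀ E) (lnVal Q (lnNorm Q₀ E)) := by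
  have hs := lnNorm_spec hF Q₀ E hE hQ₀
  exact ln_tor_val_ne_zero hF.hres hs.1 (by rw [← hs.2.1, hQ])

theorem lnNorm_val_base (hF : IsNiceCurve k F 0) (Q₀ : Place k F) {E : Divisor k F}
    (hE : Divisor.degree E = 0) (hQ₀ : E Q₀ = 0) : lnVal Q₀ (lnNorm Q₀ E) = 1 :=
  ln_rr_val_eq (lnNorm_spec hF Q₀ E hE hQ₀).2.2

end Genus0

/-! ### The torus of the nodal curve -/

section Torus

variable {k F₁ F₂ : Type} [Field k] [Field F₁] [Algebra k F₁] [Field F₂] [Algebra k F₂]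
variable {X : Finset (Place k F₁ × Place k F₂)} {g : ℕ}

/-- pairs of divisors of degree `(0, 0)` supported away from the crossing points -/
structure IsDiv00 (X : Finset (Place k F₁ × Place k F₂)) (E₁ : Divisor k F₁)
    (E₂ : Divisor k F₂) : Prop where
  deg₁ : Divisor.degree E₁ = 0
  deg₂ : Divisor.degree E₂ = 0
  away₁ : ∀ x ∈ X, E₁ x.1 = 0
  away₂ : ∀ x ∈ X, E₂ x.2 = 0

theorem IsDiv00.zero (X : Finset (Place k F₁ × Place k F₂)) :
    IsDiv00 X (0 : Divisor k F₁) (0 : Divisor k F₂) :=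
  ⟨map_zero _, map_zero _, fun _ _ => rfl, fun _ _ => rfl⟩

theorem IsDiv00.add {E₁ E₁' : Divisor k F₁} {E₂ E₂' : Divisor k F₂} (h : IsDiv00 X E₁ E₂)
    (h' : IsDiv00 X E₁' E₂') : IsDiv00 X (E₁ + E₁') (E₂ + E₂') :=
  ⟨by rw [map_add, h.deg₁, h'.deg₁, add_zero], by rw [map_add, h.deg₂, h'.deg₂, add_zero],
    fun x hx => by rw [Finsupp.add_apply, h.away₁ x hx, h'.away₁ x hx, add_zero],
    fun x hx => by rw [Finsupp.add_apply, h.away₂ x hx, h'.away₂ x hx, add_zero]⟩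

theorem IsDiv00.neg {E₁ : Divisor k F₁} {E₂ : Divisor k F₂} (h : IsDiv00 X E₁ E₂) :
    IsDiv00 X (-E₁) (-E₂) :=
  ⟨by rw [map_neg, h.deg₁, neg_zero], by rw [map_neg, h.deg₂, neg_zero],
    fun x hx => by rw [Finsupp.neg_apply, h.away₁ x hx, neg_zero],
    fun x hx => by rw [Finsupp.neg_apply, h.away₂ x hx, neg_zero]⟩

theorem IsDiv00.nsmul {E₁ : Divisor k F₁} {E₂ : Divisor k F₂} (h : IsDiv00 X E₁ E₂) (m : ℕ) :
    IsDiv00 X (m • E₁) (m • E₂) :=
  ⟨by rw [map_nsmul, h.deg₁, smul_zero], by rw [map_nsmul, h.deg₂, smul_zero],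
    fun x hx => by rw [Finsupp.smul_apply, h.away₁ x hx, smul_zero],
    fun x hx => by rw [Finsupp.smul_apply, h.away₂ x hx, smul_zero]⟩

/-- the class of `(E₁, E₂)` in the torus, normalised at the crossing point `x₀` -/
def lnTau (x₀ : Place k F₁ × Place k F₂) (E₁ : Divisor k F₁) (E₂ : Divisor k F₂)
    (x : Place k F₁ × Place k F₂) : k :=
  lnVal x.1 (lnNorm x₀.1 E₁) / lnVal x.2 (lnNorm x₀.2 E₂)

variable {x₀ : Place k F₁ × Place k F₂}

theorem lnTau_ne_zero (h : IsNodal X g) (hx₀ : x₀ ∈ X) {E₁ : Divisor k F₁} {E₂ : Divisor k F₂}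
    (hE : IsDiv00 X E₁ E₂) {x : Place k F₁ × Place k F₂} (hx : x ∈ X) :
    lnTau x₀ E₁ E₂ x ≠ 0 := by
  unfold lnTau
  exact div_ne_zero
    (lnNorm_val h.nice₁ x₀.1 hE.deg₁ (hE.away₁ x₀ hx₀) (hE.away₁ x hx)).1
    (lnNorm_val h.nice₂ x₀.2 hE.deg₂ (hE.away₂ x₀ hx₀) (hE.away₂ x hx)).1

theorem lnTau_base (h : IsNodal X g) (hx₀ : x₀ ∈ X) {E₁ : Divisor k F₁} {E₂ : Divisor k F₂}
    (hE : IsDiv00 X E₁ E₂) : lnTau x₀ E₁ E₂ x₀ = 1 := by
  unfold lnTau
  rw [lnNorm_val_base h.nice₁ x₀.1 hE.deg₁ (hE.away₁ x₀ hx₀),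
    lnNorm_val_base h.nice₂ x₀.2 hE.deg₂ (hE.away₂ x₀ hx₀), div_one]

theorem lnTau_zero (h : IsNodal X g) (x₀ x : Place k F₁ × Place k F₂) :
    lnTau x₀ (0 : Divisor k F₁) (0 : Divisor k F₂) x = 1 := by
  unfold lnTau
  rw [lnNorm_zero h.nice₁, lnNorm_zero h.nice₂, ln_rr_val_eq (ln_hasValueAt_one x.1),
    ln_rr_val_eq (ln_hasValueAt_one x.2), div_one]

theorem lnTau_add (h : IsNodal X g) (hx₀ : x₀ ∈ X) {E₁ E₁' : Divisor k F₁}
    {E₂ E₂' : Divisor k F₂} (hE : IsDiv00 X E₁ E₂) (hE' : IsDiv00 X E₁' E₂')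
    {x : Place k F₁ × Place k F₂} (hx : x ∈ X) :
    lnTau x₀ (E₁ + E₁') (E₂ + E₂') x = lnTau x₀ E₁ E₂ x * lnTau x₀ E₁' E₂' x := by
  unfold lnTau
  rw [lnNorm_add h.nice₁ x₀.1 hE.deg₁ (hE.away₁ x₀ hx₀) hE'.deg₁ (hE'.away₁ x₀ hx₀),
    lnNorm_add h.nice₂ x₀.2 hE.deg₂ (hE.away₂ x₀ hx₀) hE'.deg₂ (hE'.away₂ x₀ hx₀)]
  have a1 := lnNorm_val h.nice₁ x₀.1 hE.deg₁ (hE.away₁ x₀ hx₀) (hE.away₁ x hx)
  have a2 := lnNorm_val h.nice₂ x₀.2 hE.deg₂ (hE.away₂ x₀ hx₀) (hE.away₂ x hx)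
  have b1 := lnNorm_val h.nice₁ x₀.1 hE'.deg₁ (hE'.away₁ x₀ hx₀) (hE'.away₁ x hx)
  have b2 := lnNorm_val h.nice₂ x₀.2 hE'.deg₂ (hE'.away₂ x₀ hx₀) (hE'.away₂ x hx)
  rw [ln_rr_val_eq (ln_hasValueAt_mul a1.2 b1.2), ln_rr_val_eq (ln_hasValueAt_mul a2.2 b2.2)]
  have := a2.1
  have := b2.1
  field_simp

theorem lnTau_neg (h : IsNodal X g) (hx₀ : x₀ ∈ X) {E₁ : Divisor k F₁} {E₂ : Divisor k F₂}
    (hE : IsDiv00 X E₁ E₂) {x : Place k F₁ × Place k F₂} (hx : x ∈ X) :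
    lnTau x₀ (-E₁) (-E₂) x = (lnTau x₀ E₁ E₂ x)⁻¹ := by
  have h1 := lnTau_add h hx₀ hE hE.neg hx
  rw [add_neg_cancel, add_neg_cancel, lnTau_zero h] at h1
  exact eq_inv_of_mul_eq_one_right h1.symm

theorem lnTau_nsmul (h : IsNodal X g) (hx₀ : x₀ ∈ X) {E₁ : Divisor k F₁} {E₂ : Divisor k F₂}
    (hE : IsDiv00 X E₁ E₂) {x : Place k F₁ × Place k F₂} (hx : x ∈ X) (m : ℕ) :
    lnTau x₀ (m • E₁) (m • E₂) x = lnTau x₀ E₁ E₂ x ^ m := by
  induction m with
  | zero => rw [zero_smul, zero_smul, pow_zero, lnTau_zero h]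
  | succ n ih =>
    rw [succ_nsmul, succ_nsmul, lnTau_add h hx₀ (hE.nsmul n) hE hx, ih, pow_succ]

/-- `(E₁, E₂)` is the divisor of a function on the nodal curve which is a unit at the crossing
points (`R.IsPrincBar (E₁, E₂)` for `X = R.X`) -/
def lnIsPrinc (X : Finset (Place k F₁ × Place k F₂)) (E₁ : Divisor k F₁) (E₂ : Divisor k F₂) :
    Prop :=
  ∃ (f₁ : F₁) (f₂ : F₂), f₁ ≠ 0 ∧ f₂ ≠ 0 ∧
    (∀ x ∈ X, ∃ a : k, a ≠ 0 ∧ HasValueAt x.1 f₁ a ∧ HasValueAt x.2 f₂ a) ∧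
    (∀ Q, E₁ Q = Q.ord f₁) ∧ ∀ Q, E₂ Q = Q.ord f₂

/-- **the kernel of the map to the torus**: `(E₁, E₂)` is principal on the nodal curve iff
`lnTau = 1` -/
theorem lnTau_eq_one_iff (h : IsNodal X g) (hx₀ : x₀ ∈ X) {E₁ : Divisor k F₁}
    {E₂ : Divisor k F₂} (hE : IsDiv00 X E₁ E₂) :
    (∀ x ∈ X, lnTau x₀ E₁ E₂ x = 1) ↔ lnIsPrinc X E₁ E₂ := by
  have s1 := lnNorm_spec h.nice₁ x₀.1 E₁ hE.deg₁ (hE.away₁ x₀ hx₀)
  have s2 := lnNorm_spec h.nice₂ x₀.2 E₂ hE.deg₂ (hE.away₂ x₀ hx₀)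
  constructor
  · intro hτ
    refine ⟨lnNorm x₀.1 E₁, lnNorm x₀.2 E₂, s1.1, s2.1, fun x hx => ?_, s1.2.1, s2.2.1⟩
    have a1 := lnNorm_val h.nice₁ x₀.1 hE.deg₁ (hE.away₁ x₀ hx₀) (hE.away₁ x hx)
    have a2 := lnNorm_val h.nice₂ x₀.2 hE.deg₂ (hE.away₂ x₀ hx₀) (hE.away₂ x hx)
    have h1 := hτ x hx
    unfold lnTau at h1
    have h2 : lnVal x.1 (lnNorm x₀.1 E₁) = lnVal x.2 (lnNorm x₀.2 E₂) := by
      rw [div_eq_one_iff_eq a2.1] at h1
      exact h1
    refine ⟨lnVal x.1 (lnNorm x₀.1 E₁), a1.1, a1.2, ?_⟩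
    rw [h2]
    exact a2.2
  · rintro ⟨f₁, f₂, hf₁, hf₂, hg, hd₁, hd₂⟩ x hx
    obtain ⟨a₀, ha₀, hv₁, hv₂⟩ := hg x₀ hx₀
    -- `f_i = a₀ · lnNorm`
    have e1 : lnNorm x₀.1 E₁ = algebraMap k F₁ a₀⁻¹ * f₁ := by
      refine lnNorm_unique h.nice₁ ⟨mul_ne_zero ((map_ne_zero _).mpr (inv_ne_zero ha₀)) hf₁,
        fun Q => ?_, ?_⟩
      · rw [ln_ord_const_mul Q (inv_ne_zero ha₀), hd₁]
      · have := ln_hasValueAt_mul (ln_hasValueAt_const x₀.1 a₀⁻¹) hv₁
        rwa [inv_mul_cancel₀ ha₀] at this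
    have e2 : lnNorm x₀.2 E₂ = algebraMap k F₂ a₀⁻¹ * f₂ := by
      refine lnNorm_unique h.nice₂ ⟨mul_ne_zero ((map_ne_zero _).mpr (inv_ne_zero ha₀)) hf₂,
        fun Q => ?_, ?_⟩
      · rw [ln_ord_const_mul Q (inv_ne_zero ha₀), hd₂]
      · have := ln_hasValueAt_mul (ln_hasValueAt_const x₀.2 a₀⁻¹) hv₂
        rwa [inv_mul_cancel₀ ha₀] at this
    obtain ⟨a, ha, hw₁, hw₂⟩ := hg x hx
    unfold lnTau
    rw [e1, e2, ln_rr_val_eq (ln_hasValueAt_mul (ln_hasValueAt_const x.1 a₀⁻¹) hw₁),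
      ln_rr_val_eq (ln_hasValueAt_mul (ln_hasValueAt_const x.2 a₀⁻¹) hw₂)]
    exact div_self (mul_ne_zero (inv_ne_zero ha₀) ha)

/-- **the map to the torus is onto** -/
theorem lnTau_surj (h : IsNodal X g) (hx₀ : x₀ ∈ X) (s : Place k F₁ × Place k F₂ → k)
    (hs : ∀ x ∈ X, s x ≠ 0) (hs₀ : s x₀ = 1) :
    ∃ E₂ : Divisor k F₂, IsDiv00 X (0 : Divisor k F₁) E₂ ∧
      ∀ x ∈ X, lnTau x₀ (0 : Divisor k F₁) E₂ x = s x := by
  haveI := h.nice₂.hpd
  -- a smooth point of `C₂`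
  have hinf : (Set.univ \ (↑(lnX₂ X) : Set (Place k F₂))).Infinite :=
    h.nice₂.infinite.sdiff (Finset.finite_toSet _)
  obtain ⟨Q₂, hQ₂⟩ := hinf.nonempty
  have hQ₂X : Q₂ ∉ lnX₂ X := fun hmem => hQ₂.2 (Finset.mem_coe.mpr hmem)
  -- the values to interpolate
  set c : Place k F₂ → k := fun Q =>
    if hQ : ∃ x ∈ X, x.2 = Q then (s hQ.choose)⁻¹ else 0 with hc
  have hcx : ∀ x ∈ X, c x.2 = (s x)⁻¹ := by
    intro x hx
    have hQ : ∃ y ∈ X, y.2 = x.2 := ⟨x, hx, rfl⟩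
    have hy := hQ.choose_spec
    have : hQ.choose = x := h.inj₂ _ hy.1 x hx hy.2
    simp only [hc]
    rw [dif_pos hQ, this]
  set E : Divisor k F₂ := Finsupp.single Q₂ (g : ℤ) with hEdef
  have hEX : ∀ s' ∈ lnX₂ X, E s' = 0 := by
    intro s' hs'
    rw [hEdef, Finsupp.single_eq_of_ne]
    rintro rfl
    exact hQ₂X hs'
  have hEdeg : Divisor.degree E = g := by
    rw [hEdef, Divisor.degree_single, place_deg_eq_one Q₂ (h.nice₂.hres Q₂)]
    push_cast
    ring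
  obtain ⟨f, -, hfv⟩ := ln_rr_interp h.nice₂ E (lnX₂ X) hEX (by
    rw [h.card_X₂, hEdeg]
    push_cast
    rfl) c
  have hfx : ∀ x ∈ X, HasValueAt x.2 f (s x)⁻¹ := by
    intro x hx
    have := hfv x.2 (ln_rr_mem_X₂.mpr ⟨x, hx, rfl⟩)
    rwa [hcx x hx] at this
  have hf0 : f ≠ 0 := ln_ne_zero_of_value (hfx x₀ hx₀) (inv_ne_zero (hs x₀ hx₀))
  obtain ⟨E₂, hE₂, hE₂deg⟩ := HasPrincipalDivisors.exists_divisor (K := k) f hf0
  have hE00 : IsDiv00 X (0 : Divisor k F₁) E₂ :=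
    ⟨map_zero _, hE₂deg, fun _ _ => rfl, fun x hx => by
      rw [hE₂, ln_ord_eq_zero_of_value (hfx x hx) (inv_ne_zero (hs x hx))]⟩
  refine ⟨E₂, hE00, fun x hx => ?_⟩
  have e2 : lnNorm x₀.2 E₂ = f := by
    refine lnNorm_unique h.nice₂ ⟨hf0, hE₂, ?_⟩
    have := hfx x₀ hx₀
    rwa [hs₀, inv_one] at this
  unfold lnTau
  rw [lnNorm_zero h.nice₁, e2, ln_rr_val_eq (ln_hasValueAt_one x.1), ln_rr_val_eq (hfx x hx),
    one_div, inv_inv]

end Torus

end Fermat.Agent.S15.LN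

end
end ZBZ2S15_022_10

/-! ### bundled: `Fermat.Agent.S15.LNQ` -/
section ZBZ2S15_022_11

/-!
# S15 block LOCAL-N, piece LN-Q (helper10): `J⁰ / J¹` is divisible

`stmtTorQuot : StmtTorQuot` (unconditional).  For `x = [D] ∈ J⁰` the class of `r_* D` in the torus
`(k^×)^X / k^×` is an `m`-th power (`k` algebraically closed); an `m`-th root is the class of
`(0, div g₂)` by interpolation on `C₂`, which lifts to a divisor `D'` of type `(0, 0)`
(`ln_onto₂`); then `D − m D'` reduces to a principal divisor of the nodal curve.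

Also, for LN-CNT:
* `ln_q_isDiv00`, `ln_q_degree_eq_zero`, `ln_q_mem_div1_iff` (`D ∈ div1 ↔ lnTau = 1` on `X`),
  `ln_q_exists_div` (the map `div00 → torus` is onto), `ln_q_tau_add/neg/nsmul/sub`.
-/

set_option autoImplicit false
set_option linter.unusedSectionVars false
set_option linter.unusedVariables false
set_option linter.style.haveILetI false

noncomputable section

open AlgebraicCurve Module

namespace Fermat.Agent.S15.LN

open Fermat.Agent.W1 Fermat.Agent.S24 Fermat.Agent.ES.R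

open scoped Classical

section TR

variable {K F k F₁ F₂ : Type} [Field K] [Field F] [Algebra K F] [Field k]
  [Field F₁] [Algebra k F₁] [Field F₂] [Algebra k F₂]
variable {A : ValuationSubring K} {R : TRData K F k F₁ F₂ A} {g : ℕ}
variable {x₀ : Place k F₁ × Place k F₂}

theorem ln_q_isPrincBar_iff (R : TRData K F k F₁ F₂ A) (E₁ : Divisor k F₁)
    (E₂ : Divisor k F₂) : R.IsPrincBar (E₁, E₂) ↔ lnIsPrinc R.X E₁ E₂ := Iff.rfl

theorem ln_q_isDiv00 (hT : R.IsToric g) {D : Divisor K F} (hD : D ∈ R.div00) :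
    IsDiv00 R.X (R.push₁ D) (R.push₂ D) :=
  ⟨((ln_mem_div00 R).mp hD).2.1, ((ln_mem_div00 R).mp hD).2.2,
    fun x hx => ln_push₁_cross hT.isTR D hx, fun x hx => ln_push₂_cross hT.isTR D hx⟩

theorem ln_q_degree_eq_zero (hT : R.IsToric g) {D : Divisor K F} (hD : D ∈ R.div00) :
    Divisor.degree D = 0 := by
  obtain ⟨h1, h2, h3⟩ := (ln_mem_div00 R).mp hD
  rw [ln_rr_degree_smDiv hT h1, h2, h3, add_zero]

/-- **the kernel of reduction**: `D ∈ div1` iff the class of `r_* D` in the torus is `1` -/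
theorem ln_q_mem_div1_iff (hT : R.IsToric g) (hx₀ : x₀ ∈ R.X) {D : Divisor K F}
    (hD : D ∈ R.div00) :
    D ∈ R.div1 ↔ ∀ x ∈ R.X, lnTau x₀ (R.push₁ D) (R.push₂ D) x = 1 := by
  rw [ln_mem_div1, lnTau_eq_one_iff (ln_rr_isNodal hT) hx₀ (ln_q_isDiv00 hT hD)]
  exact ⟨fun h => h.2, fun h => ⟨hD, h⟩⟩

theorem ln_q_tau_add (hT : R.IsToric g) (hx₀ : x₀ ∈ R.X) {D D' : Divisor K F}
    (hD : D ∈ R.div00) (hD' : D' ∈ R.div00) {x : Place k F₁ × Place k F₂} (hx : x ∈ R.X) :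
    lnTau x₀ (R.push₁ (D + D')) (R.push₂ (D + D')) x =
      lnTau x₀ (R.push₁ D) (R.push₂ D) x * lnTau x₀ (R.push₁ D') (R.push₂ D') x := by
  rw [map_add, map_add]
  exact lnTau_add (ln_rr_isNodal hT) hx₀ (ln_q_isDiv00 hT hD) (ln_q_isDiv00 hT hD') hx

theorem ln_q_tau_neg (hT : R.IsToric g) (hx₀ : x₀ ∈ R.X) {D : Divisor K F}
    (hD : D ∈ R.div00) {x : Place k F₁ × Place k F₂} (hx : x ∈ R.X) :
    lnTau x₀ (R.push₁ (-D)) (R.push₂ (-D)) x = (lnTau x₀ (R.push₁ D) (R.push₂ D) x)⁻¹ := by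
  rw [map_neg, map_neg]
  exact lnTau_neg (ln_rr_isNodal hT) hx₀ (ln_q_isDiv00 hT hD) hx

theorem ln_q_tau_sub (hT : R.IsToric g) (hx₀ : x₀ ∈ R.X) {D D' : Divisor K F}
    (hD : D ∈ R.div00) (hD' : D' ∈ R.div00) {x : Place k F₁ × Place k F₂} (hx : x ∈ R.X) :
    lnTau x₀ (R.push₁ (D - D')) (R.push₂ (D - D')) x =
      lnTau x₀ (R.push₁ D) (R.push₂ D) x / lnTau x₀ (R.push₁ D') (R.push₂ D') x := by
  rw [sub_eq_add_neg, ln_q_tau_add hT hx₀ hD (R.div00.neg_mem hD') hx,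
    ln_q_tau_neg hT hx₀ hD' hx, div_eq_mul_inv]

theorem ln_q_tau_nsmul (hT : R.IsToric g) (hx₀ : x₀ ∈ R.X) {D : Divisor K F}
    (hD : D ∈ R.div00) {x : Place k F₁ × Place k F₂} (hx : x ∈ R.X) (m : ℕ) :
    lnTau x₀ (R.push₁ (m • D)) (R.push₂ (m • D)) x =
      lnTau x₀ (R.push₁ D) (R.push₂ D) x ^ m := by
  rw [map_nsmul, map_nsmul]
  exact lnTau_nsmul (ln_rr_isNodal hT) hx₀ (ln_q_isDiv00 hT hD) hx m

theorem ln_q_tau_ne_zero (hT : R.IsToric g) (hx₀ : x₀ ∈ R.X) {D : Divisor K F}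
    (hD : D ∈ R.div00) {x : Place k F₁ × Place k F₂} (hx : x ∈ R.X) :
    lnTau x₀ (R.push₁ D) (R.push₂ D) x ≠ 0 :=
  lnTau_ne_zero (ln_rr_isNodal hT) hx₀ (ln_q_isDiv00 hT hD) hx

theorem ln_q_tau_base (hT : R.IsToric g) (hx₀ : x₀ ∈ R.X) {D : Divisor K F}
    (hD : D ∈ R.div00) : lnTau x₀ (R.push₁ D) (R.push₂ D) x₀ = 1 :=
  lnTau_base (ln_rr_isNodal hT) hx₀ (ln_q_isDiv00 hT hD)

/-- **the map `div00 → torus` is onto** -/
theorem ln_q_exists_div (hT : R.IsToric g) (hx₀ : x₀ ∈ R.X)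
    (s : Place k F₁ × Place k F₂ → k) (hs : ∀ x ∈ R.X, s x ≠ 0) (hs₀ : s x₀ = 1) :
    ∃ D : Divisor K F, D ∈ R.div00 ∧
      ∀ x ∈ R.X, lnTau x₀ (R.push₁ D) (R.push₂ D) x = s x := by
  obtain ⟨E₂, hE, hτ⟩ := lnTau_surj (ln_rr_isNodal hT) hx₀ s hs hs₀
  obtain ⟨D, hD, h1, h2, -⟩ := ln_rr_exists_lift_div₂ hT E₂ hE.away₂
  refine ⟨D, (ln_mem_div00 R).mpr ⟨hD, by rw [h1]; exact map_zero _, by rw [h2]; exact hE.deg₂⟩,
    fun x hx => ?_⟩
  rw [h1, h2]
  exact hτ x hx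

theorem ln_q_mk_sub_nsmul (D D' : Divisor.degZero (K := K) (F := F)) (m : ℕ) :
    Pic0.mk D - m • Pic0.mk D' = Pic0.mk (D - m • D') := by
  show pic0Hom K F D - m • pic0Hom K F D' = pic0Hom K F (D - m • D')
  rw [map_sub, map_nsmul]

end TR


/-- **LN-Q**: `J⁰ / J¹` is divisible. -/
theorem stmtTorQuot : StmtTorQuot := by
  intro K F k F₁ F₂ _ _ _ _ _ _ _ _ _ _ A R g hT m hm x hx
  obtain ⟨x₀, hx₀⟩ := IsToric_X_nonempty hT
  obtain ⟨D, hD, rfl⟩ := (ln_mem_J0 R).mp hx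
  -- `m`-th roots of the class of `D`
  have hroot : ∀ x : Place k F₁ × Place k F₂,
      ∃ c : k, c ^ m = lnTau x₀ (R.push₁ (D : Divisor K F)) (R.push₂ (D : Divisor K F)) x :=
    fun x => IsAlgClosed.exists_pow_nat_eq _ (Nat.pos_of_ne_zero hm)
  choose c hc using hroot
  set s : Place k F₁ × Place k F₂ → k := fun x => if x = x₀ then 1 else c x with hs
  have hs₀ : s x₀ = 1 := by simp [hs]
  have hsm : ∀ x ∈ R.X,
      s x ^ m = lnTau x₀ (R.push₁ (D : Divisor K F)) (R.push₂ (D : Divisor K F)) x := by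
    intro x hx
    by_cases h : x = x₀
    · rw [h, hs₀, one_pow, ln_q_tau_base hT hx₀ hD]
    · have : s x = c x := by simp [hs, h]
      rw [this, hc]
  have hs0 : ∀ x ∈ R.X, s x ≠ 0 := fun x hx h0 =>
    ln_q_tau_ne_zero hT hx₀ hD hx (by rw [← hsm x hx, h0, zero_pow hm])
  obtain ⟨D', hD', hτ'⟩ := ln_q_exists_div hT hx₀ s hs0 hs₀
  have hdeg' : D' ∈ Divisor.degZero (K := K) (F := F) := ln_q_degree_eq_zero hT hD'
  set D'z : Divisor.degZero (K := K) (F := F) := ⟨D', hdeg'⟩ with hD'z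
  refine ⟨Pic0.mk D'z, (ln_mem_J0 R).mpr ⟨D'z, hD', rfl⟩, ?_⟩
  have hmD' : m • D' ∈ R.div00 := R.div00.nsmul_mem hD' m
  have h1 : (D : Divisor K F) - m • D' ∈ R.div1 := by
    rw [ln_q_mem_div1_iff hT hx₀ (R.div00.sub_mem hD hmD')]
    intro x hx
    rw [ln_q_tau_sub hT hx₀ hD hmD' hx, ln_q_tau_nsmul hT hx₀ hD' hx, hτ' x hx, hsm x hx]
    exact div_self (ln_q_tau_ne_zero hT hx₀ hD hx)
  have key : Pic0.mk D - m • Pic0.mk D'z = Pic0.mk (D - m • D'z) := ln_q_mk_sub_nsmul D D'z m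
  rw [key]
  refine (ln_mem_J1 R).mpr ⟨D - m • D'z, ?_, rfl⟩
  have e : ((D - m • D'z : Divisor.degZero (K := K) (F := F)) : Divisor K F)
      = (D : Divisor K F) - m • D' := by
    rw [AddSubgroup.coe_sub, AddSubgroup.coe_nsmul]
  rw [e]
  exact h1

end Fermat.Agent.S15.LN

end
end ZBZ2S15_022_11

/-! ### bundled: `Fermat.Agent.S15.LNLocDiv` -/
section ZBZ2S15_022_12

/-!
# S15 block LOCAL-N: the local divisibility at the level `p` (helper5)

`ln_locDiv_core` : `StmtTorTF → StmtModTRmin →` for a place `x` of `X₀(p)` fixed by `G_ℚ` and of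
type `2` at `A ∣ p` (certificate: `p¹² · oggU p` has at `x` a value `≠ 0` with inverse in `A`),
the class `[(x) − (0)]` is divisible by every power of `r ≠ p` among the points of `J₀(p)` fixed
by the inertia group of `A`.

Proof: `x` and the cusp `0` are of smooth type on the component `C₂` (`ModTRmin.type₂`,
`ModTRmin.cuspZero`), so `u = [(x) − (0)] ∈ J⁰`; `u` is fixed by `G_ℚ`; `J⁰` is `m`-divisible
(LN-Q `stmtTorQuot` + LN-DIV `stmtTorDiv`), and an `m`-th root `y ∈ J⁰` of a fixed point is fixed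
by inertia: `σ y − y ∈ J¹` (`ln_smul_sub_mem_J1`) is killed by `m`, and `J¹` has no `m`-torsion
(LN-TF).
-/

set_option autoImplicit false
set_option linter.unusedSectionVars false
set_option linter.unusedVariables false
set_option linter.style.haveILetI false

noncomputable section

open AlgebraicCurve Module ModularCurve

namespace Fermat.Agent.S15.LN

open Fermat.Agent.W1 Fermat.Agent.S24 Fermat.Agent.S15

theorem ln_pow_not_nonunit {p r : ℕ} (hp : p.Prime) (hr : r.Prime) (hrp : r ≠ p)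
    {A : ValuationSubring Kb} (hA : A.LiesOverPrime p) (k : ℕ) :
    ((r ^ k : ℕ) : Kb) ∉ A.nonunits := by
  rw [S05.natCast_mem_nonunits_iff A hp hA]
  intro h
  have h1 := hp.dvd_of_dvd_pow h
  exact hrp ((Nat.prime_dvd_prime_iff_eq hp hr).mp h1).symm

/-- the class `[(x) − (0)]` of a `G_ℚ`-fixed place is `G_ℚ`-fixed -/
theorem ln_diff_fixed {N : ℕ} [NeZero N] {x : Place Kb (FF N)}
    (hfix : ∀ σ : Kb ≃ₐ[ℚ] Kb, galAct N σ • x = x)
    {D : Divisor.degZero (K := Kb) (F := FF N)}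
    (hD : (D : Divisor Kb (FF N)) = Finsupp.single x 1 - Finsupp.single (cuspZero N) 1)
    (σ : Kb ≃ₐ[ℚ] Kb) : σ • (Pic0.mk D : JZero N) = Pic0.mk D := by
  rw [galois_smul_pic0_def, SemilinearAut.pic0_smul_mk]
  congr 1
  apply Subtype.ext
  rw [SemilinearAut.coe_degZeroSMulHom, hD, smul_sub, SemilinearAut.smul_single,
    SemilinearAut.smul_single]
  change Finsupp.single (galAct N σ • x) 1 - Finsupp.single (galAct N σ • cuspZero N) 1 = _
  rw [galAct_smul_cuspZero, hfix σ]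

/-- roots in `J⁰` of an inertia-fixed point of `J⁰` which are fixed by inertia -/
theorem ln_exists_root_min (hTF : StmtTorTF) {N : ℕ} [NeZero N] {A : ValuationSubring Kb}
    {g : ℕ} {F₁ F₂ : Type} [Field F₁] [Field F₂]
    [Algebra (IsLocalRing.ResidueField A) F₁] [Algebra (IsLocalRing.ResidueField A) F₂]
    {R : TRData Kb (FF N) (IsLocalRing.ResidueField A) F₁ F₂ A} (hM : ModTRmin N A g R)
    {m : ℕ} (hm : (m : Kb) ∉ A.nonunits) {x : JZero N} (hx : x ∈ R.J0)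
    (hfix : ∀ σ ∈ A.inertiaSubgroupIn ℚ, σ • x = x) :
    ∃ y : JZero N, y ∈ R.J0 ∧ (∀ σ ∈ A.inertiaSubgroupIn ℚ, σ • y = y) ∧ m • y = x := by
  haveI : IsAlgClosed (IsLocalRing.ResidueField A) := RED.isAlgClosed_residueField A
  have hT := hM.isToric
  have hm0 : m ≠ 0 := by
    rintro rfl
    apply hm
    rw [Nat.cast_zero, ValuationSubring.mem_nonunits_iff, map_zero]
    exact zero_lt_one
  obtain ⟨y₁, hy₁, h1⟩ :=
    stmtTorQuot Kb (FF N) (IsLocalRing.ResidueField A) F₁ F₂ A R g hT m hm0 x hx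
  obtain ⟨z, hz, hzm⟩ :=
    stmtTorDiv Kb (FF N) (IsLocalRing.ResidueField A) F₁ F₂ A R g hT m hm _ h1
  have hy : m • (y₁ + z) = x := by
    rw [nsmul_add, hzm]; abel
  refine ⟨y₁ + z, R.J0.add_mem hy₁ (ln_J1_le_J0 R hz), ?_, hy⟩
  intro σ hσ
  have h2 : σ • (y₁ + z) - (y₁ + z) ∈ R.J1 := by
    rw [galois_smul_pic0_def]
    exact ln_smul_sub_mem_J1 (R := R) (galAct N σ) (fun P => hM.inertia σ hσ P)
      (R.J0.add_mem hy₁ (ln_J1_le_J0 R hz))
  have h3 : m • (σ • (y₁ + z) - (y₁ + z)) = 0 := by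
    have e : σ • (m • (y₁ + z)) = m • (σ • (y₁ + z)) :=
      map_nsmul (DistribSMul.toAddMonoidHom (JZero N) σ) m (y₁ + z)
    rw [nsmul_sub, ← e, hy, hfix σ hσ, sub_self]
  exact sub_eq_zero.mp
    (hTF Kb (FF N) (IsLocalRing.ResidueField A) F₁ F₂ A R g hT m hm _ h2 h3)

theorem ln_locDiv_core (hTF : StmtTorTF) (hPkg : StmtModTRmin) (p : ℕ) [NeZero p] (hp : p.Prime)
    (h5 : 5 ≤ p) (r : ℕ) (hr : r.Prime) (hrp : r ≠ p) (A : ValuationSubring Kb)
    (hA : A.LiesOverPrime p) (x : Place Kb (FF p))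
    (hfix : ∀ σ : Kb ≃ₐ[ℚ] Kb, galAct p σ • x = x) (d : Kb) (hd : HasValueAt x (oggU p) d)
    (hd0 : d ≠ 0) (hd2 : ((p : Kb) ^ 12 * d)⁻¹ ∈ A)
    (D : Divisor.degZero (K := Kb) (F := FF p))
    (hD : (D : Divisor Kb (FF p)) = Finsupp.single x 1 - Finsupp.single (cuspZero p) 1)
    (k : ℕ) :
    ∃ y : JZero p, (∀ σ ∈ A.inertiaSubgroupIn ℚ, σ • y = y) ∧ r ^ k • y = Pic0.mk D := by
  obtain ⟨g, F₁, F₂, _, _, _, _, R, hM⟩ := hPkg p hp h5 A hA
  obtain ⟨Q, hQ⟩ := hM.type₂ x d hd hd0 hd2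
  obtain ⟨Q', hQ'⟩ := hM.cuspZero
  have hu0 : (Pic0.mk D : JZero p) ∈ R.J0 := by
    refine (ln_mem_J0 R).mpr ⟨D, ?_, rfl⟩
    rw [hD]
    exact ln_single_sub_mem_div00₂ (IsToric_deg₂ hM.isToric) hQ hQ'
  obtain ⟨y, -, hI, hy⟩ := ln_exists_root_min hTF hM (ln_pow_not_nonunit hp hr hrp hA k) hu0
    (fun σ _ => ln_diff_fixed hfix hD σ)
  exact ⟨y, hI, hy⟩

end Fermat.Agent.S15.LN

end
end ZBZ2S15_022_12

/-! ### bundled: `Fermat.Agent.S15.PkgRdivCore` -/
section ZBZ2S15_022_13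

/-!
# S15 / LN-PKG, piece PKG-rdiv, part 1: the abstract Hartogs lemma (helper24)

`O₁, O₂` two valuation rings of `F`, `red₁ : O₁ → Fk`, `t` a coordinate, `Q` a place of `Fk`.
If

* (`base`) the reduction of an element of `O₁ ∩ O₂` which is regular wherever `t` is, is regular
  at `Q`,
* (`E`) there is `E ∈ O₁`, regular wherever `t` is, whose reduction is a unit at `Q`, and which is
  so small in `O₂` that `g · E ^ M ∈ O₂` for `M ≫ 0`,
* (`sep`) every place `P` outside the tube at which `t` is regular is a zero of a function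
  `φ ∈ O₁`, regular wherever `t` is, whose reduction is a unit at `Q`,

then the reduction of every `w ∈ O₁` which is regular on the tube is regular at `Q`
(`pkgrd_hartogs_core`).
-/

set_option autoImplicit false
set_option linter.unusedSectionVars false
set_option linter.unusedVariables false

noncomputable section

open AlgebraicCurve

namespace Fermat.Agent.S15.LN

open Fermat.Agent.W1

variable {K F k Fk : Type} [Field K] [Field F] [Algebra K F] [Field k] [Field Fk] [Algebra k Fk]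

/-- the hypotheses of the abstract Hartogs lemma -/
structure PkgrdSep (O₁ O₂ : ValuationSubring F) (red₁ : O₁ →+* Fk)
    (Tube : Place K F → Prop) (t E : F) (Q : Place k Fk) : Prop where
  base : ∀ (f : F) (h₁ : f ∈ O₁), f ∈ O₂ →
    (∀ P : Place K F, 0 ≤ P.ord t → 0 ≤ P.ord f) → 0 ≤ Q.ord (red₁ ⟨f, h₁⟩)
  E_mem : E ∈ O₁
  E_ne : red₁ ⟨E, E_mem⟩ ≠ 0
  E_unit : Q.ord (red₁ ⟨E, E_mem⟩) = 0
  E_reg : ∀ P : Place K F, 0 ≤ P.ord t → 0 ≤ P.ord E
  E_small : ∀ g : F, ∃ M : ℕ, g * E ^ M ∈ O₂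
  tube_reg : ∀ P : Place K F, Tube P → 0 ≤ P.ord t
  sep : ∀ P : Place K F, 0 ≤ P.ord t → ¬ Tube P →
    ∃ (φ : F) (h : φ ∈ O₁), red₁ ⟨φ, h⟩ ≠ 0 ∧ Q.ord (red₁ ⟨φ, h⟩) = 0 ∧ 0 < P.ord φ ∧
      ∀ P' : Place K F, 0 ≤ P'.ord t → 0 ≤ P'.ord φ

variable {O₁ O₂ : ValuationSubring F} {red₁ : O₁ →+* Fk} {Tube : Place K F → Prop} {t E : F}
  {Q : Place k Fk}

theorem pkgrd_ord_mul_nonneg (P : Place K F) {f g : F} (hf : 0 ≤ P.ord f) (hg : 0 ≤ P.ord g) :
    0 ≤ P.ord (f * g) :=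
  ge_ord_nonneg_of_mem P (P.toValuationSubring.mul_mem _ _
    (ge_mem_of_not_ord_neg P (not_lt.mpr hf)) (ge_mem_of_not_ord_neg P (not_lt.mpr hg)))

theorem pkgrd_ord_pow_nonneg (P : Place K F) {f : F} (hf : 0 ≤ P.ord f) (n : ℕ) :
    0 ≤ P.ord (f ^ n) :=
  ge_ord_nonneg_of_mem P (pow_mem (ge_mem_of_not_ord_neg P (not_lt.mpr hf)) n)

theorem pkgrd_ord_pow (P : Place K F) (f : F) (n : ℕ) : P.ord (f ^ n) = n * P.ord f := by
  rw [← zpow_natCast, Place.ord_zpow]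

/-- the case without poles in the chart -/
theorem pkgrd_hartogs_base (S : PkgrdSep (K := K) O₁ O₂ red₁ Tube t E Q) (w : F) (hw : w ∈ O₁)
    (hreg : ∀ P : Place K F, 0 ≤ P.ord t → 0 ≤ P.ord w) : 0 ≤ Q.ord (red₁ ⟨w, hw⟩) := by
  obtain ⟨M, hM⟩ := S.E_small w
  have hEM : E ^ M ∈ O₁ := pow_mem S.E_mem M
  have hf₁ : w * E ^ M ∈ O₁ := O₁.mul_mem _ _ hw hEM
  have h1 := S.base (w * E ^ M) hf₁ hM
    (fun P hP => pkgrd_ord_mul_nonneg P (hreg P hP) (pkgrd_ord_pow_nonneg P (S.E_reg P hP) M))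
  have e : red₁ ⟨w * E ^ M, hf₁⟩ = red₁ ⟨w, hw⟩ * red₁ ⟨E, S.E_mem⟩ ^ M := by
    rw [← map_pow, ← map_mul]
    rfl
  rw [e] at h1
  by_cases h0 : red₁ ⟨w, hw⟩ = 0
  · rw [h0, Place.ord_zero]
  · rw [Place.ord_mul _ h0 (pow_ne_zero _ S.E_ne), pkgrd_ord_pow, S.E_unit, mul_zero,
      add_zero] at h1
    exact h1

/-- induction on a finite set containing the poles in the chart -/
theorem pkgrd_hartogs_ind (S : PkgrdSep (K := K) O₁ O₂ red₁ Tube t E Q)
    (T : Finset (Place K F)) :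
    ∀ (w : F) (hw : w ∈ O₁), (∀ P : Place K F, Tube P → 0 ≤ P.ord w) →
      (∀ P : Place K F, 0 ≤ P.ord t → P.ord w < 0 → P ∈ T) → 0 ≤ Q.ord (red₁ ⟨w, hw⟩) := by
  classical
  induction T using Finset.induction_on with
  | empty =>
      intro w hw _ hT
      refine pkgrd_hartogs_base S w hw fun P hP => ?_
      by_contra hneg
      exact absurd (hT P hP (not_le.mp hneg)) (Finset.notMem_empty P)
  | insert P₀ T hP₀ ih =>
      intro w hw htube hT
      by_cases hcase : 0 ≤ P₀.ord t ∧ P₀.ord w < 0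
      · obtain ⟨ht₀, hw₀⟩ := hcase
        have hnt : ¬ Tube P₀ := fun h => absurd (htube P₀ h) (not_le.mpr hw₀)
        obtain ⟨φ, hφ, hφne, hφQ, hφP, hφreg⟩ := S.sep P₀ ht₀ hnt
        set n : ℕ := (-P₀.ord w).toNat with hn
        have hnpos : (n : ℤ) = -P₀.ord w := Int.toNat_of_nonneg (by omega)
        have hφn : φ ^ n ∈ O₁ := pow_mem hφ n
        have hw' : w * φ ^ n ∈ O₁ := O₁.mul_mem _ _ hw hφn
        have hφ0 : φ ≠ 0 := by
          intro h
          apply hφne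
          have : (⟨φ, hφ⟩ : O₁) = 0 := Subtype.ext h
          rw [this, map_zero]
        have hw0 : w ≠ 0 := by
          intro h
          rw [h, Place.ord_zero] at hw₀
          exact lt_irrefl _ hw₀
        have key := ih (w * φ ^ n) hw'
          (fun P hP => pkgrd_ord_mul_nonneg P (htube P hP)
            (pkgrd_ord_pow_nonneg P (hφreg P (S.tube_reg P hP)) n))
          (fun P hP hneg => by
            have hord : P.ord (w * φ ^ n) = P.ord w + n * P.ord φ := by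
              rw [Place.ord_mul _ hw0 (pow_ne_zero _ hφ0), pkgrd_ord_pow]
            have hφP' := hφreg P hP
            have hnn : (0 : ℤ) ≤ n := Int.natCast_nonneg n
            have hwneg : P.ord w < 0 := by
              rw [hord] at hneg
              nlinarith
            rcases Finset.mem_insert.mp (hT P hP hwneg) with rfl | hmem
            · exfalso
              rw [hord, hnpos] at hneg
              nlinarith
            · exact hmem)
        have e : red₁ ⟨w * φ ^ n, hw'⟩ = red₁ ⟨w, hw⟩ * red₁ ⟨φ, hφ⟩ ^ n := by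
          rw [← map_pow, ← map_mul]
          rfl
        rw [e] at key
        by_cases h0 : red₁ ⟨w, hw⟩ = 0
        · rw [h0, Place.ord_zero]
        · rw [Place.ord_mul _ h0 (pow_ne_zero _ hφne), pkgrd_ord_pow, hφQ, mul_zero,
            add_zero] at key
          exact key
      · refine ih w hw htube fun P hP hneg => ?_
        rcases Finset.mem_insert.mp (hT P hP hneg) with rfl | hmem
        · exact absurd ⟨hP, hneg⟩ hcase
        · exact hmem

/-- **the abstract Hartogs lemma** -/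
theorem pkgrd_hartogs_core (hpd : HasPrincipalDivisors K F)
    (S : PkgrdSep (K := K) O₁ O₂ red₁ Tube t E Q) (w : F) (hw : w ∈ O₁)
    (htube : ∀ P : Place K F, Tube P → 0 ≤ P.ord w) : 0 ≤ Q.ord (red₁ ⟨w, hw⟩) := by
  rcases eq_or_ne w 0 with rfl | hw0
  · have : (⟨0, hw⟩ : O₁) = 0 := rfl
    rw [this, map_zero, Place.ord_zero]
  · obtain ⟨D, hD, -⟩ := hpd.exists_divisor w hw0
    refine pkgrd_hartogs_ind S D.support w hw htube fun P _ hneg => ?_
    rw [Finsupp.mem_support_iff, hD]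
    exact ne_of_lt hneg

end Fermat.Agent.S15.LN

end
end ZBZ2S15_022_13

/-! ### bundled: `Fermat.Agent.S15.PkgSimple` -/
section ZBZ2S15_022_14

/-!
# S15 / LN-PKG, piece PKG-uniq, abstract part: a simple point of a plane model carries exactly
one place, unramified over the `t`-line (helper25)

`stmtPkgSimple : StmtPkgSimple`.  No completion, no Dedekind–Kummer: the Taylor expansion of the
relation `m(t, f) = 0` at the simple point `(b, c)` gives `(f - c) U = -(t - b) V` with `U` a unit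
at the point, and a descent on `ord_P (p(t, f))` computes the order of every polynomial in
`t, f` from the polynomial alone.
-/

set_option autoImplicit false
set_option linter.unusedSectionVars false

noncomputable section

open AlgebraicCurve Polynomial

namespace Fermat.Agent.S15.LN

open Fermat.Agent.W1 Fermat.Agent.S24

section Simple

variable {K F : Type} [Field K] [Field F] [Algebra K F]

/-- the value of a polynomial in two variables at the point `(b, c)` -/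
def pkgsVal (b c : K) (p : K[X][X]) : K := (p.eval (C c)).eval b

theorem pkgsVal_add (b c : K) (p q : K[X][X]) :
    pkgsVal b c (p + q) = pkgsVal b c p + pkgsVal b c q := by
  simp [pkgsVal]

theorem pkgsVal_mul (b c : K) (p q : K[X][X]) :
    pkgsVal b c (p * q) = pkgsVal b c p * pkgsVal b c q := by
  simp [pkgsVal]

theorem pkgsVal_sub (b c : K) (p q : K[X][X]) :
    pkgsVal b c (p - q) = pkgsVal b c p - pkgsVal b c q := by
  simp [pkgsVal]

variable (t f : F)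

theorem pkgs_ev_C (q : K[X]) : pkgEv₂ K F t f (C q) = Polynomial.aeval t q := by
  simp [pkgEv₂]

theorem pkgs_ev_X : pkgEv₂ K F t f X = f := by
  simp [pkgEv₂]

theorem pkgs_ev_CX : pkgEv₂ K F t f (C X) = t := by
  rw [pkgs_ev_C, aeval_X]

theorem pkgs_ev_CC (a : K) : pkgEv₂ K F t f (C (C a)) = algebraMap K F a := by
  rw [pkgs_ev_C, aeval_C]

variable {t f}

/-- values of polynomials in `t` -/
theorem pkgs_hasValueAt_aeval {P : Place K F} {b : K} (ht : HasValueAt P t b) (q : K[X]) :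
    HasValueAt P (Polynomial.aeval t q) (q.eval b) := by
  induction q using Polynomial.induction_on' with
  | add p q hp hq =>
    rw [map_add, eval_add]
    exact ln_hasValueAt_add hp hq
  | monomial n a =>
    rw [aeval_monomial, eval_monomial]
    refine ln_hasValueAt_mul (ln_hasValueAt_const P a) ?_
    induction n with
    | zero => simpa using ln_hasValueAt_one P
    | succ n ih =>
      rw [pow_succ, pow_succ]
      exact ln_hasValueAt_mul ih ht

theorem pkgs_hasValueAt_pow {P : Place K F} {x : F} {a : K} (h : HasValueAt P x a) (n : ℕ) :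
    HasValueAt P (x ^ n) (a ^ n) := by
  induction n with
  | zero => simpa using ln_hasValueAt_one P
  | succ n ih =>
    rw [pow_succ, pow_succ]
    exact ln_hasValueAt_mul ih h

/-- values of polynomials in `t, f` -/
theorem pkgs_hasValueAt_ev {P : Place K F} {b c : K} (ht : HasValueAt P t b)
    (hf : HasValueAt P f c) (p : K[X][X]) :
    HasValueAt P (pkgEv₂ K F t f p) (pkgsVal b c p) := by
  induction p using Polynomial.induction_on' with
  | add p q hp hq =>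
    rw [map_add, pkgsVal_add]
    exact ln_hasValueAt_add hp hq
  | monomial n q =>
    have e1 : (monomial n q : K[X][X]) = C q * X ^ n := by
      rw [← C_mul_X_pow_eq_monomial]
    rw [e1, map_mul, map_pow, pkgs_ev_C, pkgs_ev_X, pkgsVal_mul]
    have e2 : pkgsVal b c (C q) = q.eval b := by simp [pkgsVal]
    have e3 : pkgsVal b c ((X : K[X][X]) ^ n) = c ^ n := by simp [pkgsVal]
    rw [e2, e3]
    exact ln_hasValueAt_mul (pkgs_hasValueAt_aeval ht q) (pkgs_hasValueAt_pow hf n)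

/-- a polynomial vanishing at `(b, c)` lies in the ideal `(X - b, T - c)` -/
theorem pkgs_decomp (b c : K) (p : K[X][X]) (hp : pkgsVal b c p = 0) :
    ∃ p₁ p₂ : K[X][X], p = C (X - C b) * p₁ + (X - C (C c)) * p₂ := by
  obtain ⟨p₂, hp₂⟩ := Polynomial.X_sub_C_dvd_sub_C_eval (a := C c) (p := p)
  have hq : (X - C b) ∣ p.eval (C c) := by
    rw [Polynomial.dvd_iff_isRoot]
    exact hp
  obtain ⟨q₁, hq₁⟩ := hq
  refine ⟨C q₁, p₂, ?_⟩
  rw [← C_mul, ← hq₁, ← hp₂]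
  ring

/-- the Taylor expansion of the relation at the point -/
theorem pkgs_taylor (b c : K) (m : K[X][X]) (hm : pkgEv₂ K F t f m = 0)
    (hval : pkgsVal b c m = 0) :
    ∃ U V : K[X][X], pkgsVal b c U = pkgsVal b c (derivative m) ∧
      (f - algebraMap K F c) * pkgEv₂ K F t f U =
        -((t - algebraMap K F b) * pkgEv₂ K F t f V) := by
  obtain ⟨U, hU⟩ := Polynomial.X_sub_C_dvd_sub_C_eval (a := C c) (p := m)
  have hq : (X - C b) ∣ m.eval (C c) := by
    rw [Polynomial.dvd_iff_isRoot]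
    exact hval
  obtain ⟨q₁, hq₁⟩ := hq
  have hm' : m = (X - C (C c)) * U + C (X - C b) * C q₁ := by
    rw [← C_mul, ← hq₁, ← hU]
    ring
  refine ⟨U, C q₁, ?_, ?_⟩
  · have hd : derivative m = U + (X - C (C c)) * derivative U := by
      conv_lhs => rw [hm']
      simp only [derivative_add, derivative_mul, derivative_sub, derivative_X, derivative_C,
        sub_zero, one_mul, mul_zero, zero_mul, add_zero]
    rw [hd, pkgsVal_add, pkgsVal_mul]
    have : pkgsVal b c (X - C (C c)) = 0 := by simp [pkgsVal]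
    rw [this, zero_mul, add_zero]
  · have h1 := hm
    rw [hm'] at h1
    simp only [map_add, map_mul, map_sub, pkgs_ev_X, pkgs_ev_CC, pkgs_ev_CX] at h1
    linear_combination h1

/-- every element of `K(t, f)` is a quotient of polynomials in `t, f` -/
theorem pkgs_rep (hgen : IntermediateField.adjoin K {t, f} = ⊤) (x : F) :
    ∃ p q : K[X][X], pkgEv₂ K F t f q ≠ 0 ∧ x = pkgEv₂ K F t f p / pkgEv₂ K F t f q := by
  have hx : x ∈ IntermediateField.adjoin K {t, f} := by rw [hgen]; trivial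
  induction hx using IntermediateField.adjoin_induction with
  | mem x hx =>
    rcases hx with rfl | hx
    · exact ⟨C X, 1, by rw [map_one]; exact one_ne_zero, by rw [pkgs_ev_CX, map_one, div_one]⟩
    · rw [Set.mem_singleton_iff] at hx
      subst hx
      exact ⟨X, 1, by rw [map_one]; exact one_ne_zero, by rw [pkgs_ev_X, map_one, div_one]⟩
  | algebraMap a =>
    exact ⟨C (C a), 1, by rw [map_one]; exact one_ne_zero, by rw [pkgs_ev_CC, map_one, div_one]⟩
  | add x y _ _ hx hy =>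
    obtain ⟨p, q, hq, rfl⟩ := hx
    obtain ⟨p', q', hq', rfl⟩ := hy
    refine ⟨p * q' + p' * q, q * q', ?_, ?_⟩
    · rw [map_mul]; exact mul_ne_zero hq hq'
    · simp only [map_add, map_mul]
      field_simp
  | inv x _ hx =>
    obtain ⟨p, q, hq, rfl⟩ := hx
    by_cases hp : pkgEv₂ K F t f p = 0
    · refine ⟨0, 1, by rw [map_one]; exact one_ne_zero, ?_⟩
      rw [hp, zero_div, inv_zero, map_zero, zero_div]
    · exact ⟨q, p, hp, by rw [inv_div]⟩
  | mul x y _ _ hx hy =>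
    obtain ⟨p, q, hq, rfl⟩ := hx
    obtain ⟨p', q', hq', rfl⟩ := hy
    refine ⟨p * p', q * q', ?_, ?_⟩
    · rw [map_mul]; exact mul_ne_zero hq hq'
    · simp only [map_mul]
      field_simp

/-- the step of the descent -/
theorem pkgs_step {b c : K} {U V : K[X][X]}
    (hrel : (f - algebraMap K F c) * pkgEv₂ K F t f U =
      -((t - algebraMap K F b) * pkgEv₂ K F t f V))
    {p p₁ p₂ : K[X][X]} (hp : p = C (X - C b) * p₁ + (X - C (C c)) * p₂) :
    pkgEv₂ K F t f p * pkgEv₂ K F t f U =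
      (t - algebraMap K F b) * pkgEv₂ K F t f (p₁ * U - V * p₂) := by
  rw [hp]
  simp only [map_add, map_mul, map_sub, pkgs_ev_X, pkgs_ev_CC, pkgs_ev_CX]
  linear_combination (pkgEv₂ K F t f p₂) * hrel

section Descent

variable {b c : K} {U V : K[X][X]} {P : Place K F}

theorem pkgs_ord_ev_nonneg (ht : HasValueAt P t b) (hf : HasValueAt P f c) (p : K[X][X]) :
    0 ≤ P.ord (pkgEv₂ K F t f p) :=
  ge_ord_nonneg_of_mem P (HasValueAt.mem P (pkgs_hasValueAt_ev ht hf p))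

theorem pkgs_ord_ev_unit (ht : HasValueAt P t b) (hf : HasValueAt P f c) {p : K[X][X]}
    (hp : pkgsVal b c p ≠ 0) : pkgEv₂ K F t f p ≠ 0 ∧ P.ord (pkgEv₂ K F t f p) = 0 :=
  ⟨ln_ne_zero_of_value (pkgs_hasValueAt_ev ht hf p) hp,
    ln_ord_eq_zero_of_value (pkgs_hasValueAt_ev ht hf p) hp⟩

/-- the order of a polynomial in `t, f` which vanishes at the point, in one step -/
theorem pkgs_ord_step (ht : HasValueAt P t b) (hf : HasValueAt P f c)
    (hU : pkgsVal b c U ≠ 0)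
    (hrel : (f - algebraMap K F c) * pkgEv₂ K F t f U =
      -((t - algebraMap K F b) * pkgEv₂ K F t f V))
    (ht0 : t - algebraMap K F b ≠ 0)
    {p p₁ p₂ : K[X][X]} (hp : p = C (X - C b) * p₁ + (X - C (C c)) * p₂)
    (hp0 : pkgEv₂ K F t f p ≠ 0) :
    pkgEv₂ K F t f (p₁ * U - V * p₂) ≠ 0 ∧
      P.ord (pkgEv₂ K F t f p) =
        P.ord (t - algebraMap K F b) + P.ord (pkgEv₂ K F t f (p₁ * U - V * p₂)) := by
  have h1 := pkgs_step hrel hp
  obtain ⟨hU0, hUord⟩ := pkgs_ord_ev_unit ht hf hU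
  have h2 : pkgEv₂ K F t f (p₁ * U - V * p₂) ≠ 0 := by
    intro h0
    rw [h0, mul_zero] at h1
    exact mul_ne_zero hp0 hU0 h1
  refine ⟨h2, ?_⟩
  have h3 := congrArg P.ord h1
  rw [P.ord_mul hp0 hU0, P.ord_mul ht0 h2, hUord, add_zero] at h3
  exact h3

/-- `e = ord_P (t - b)` divides the order of every polynomial in `t, f` -/
theorem pkgs_dvd_ord_ev (ht : HasValueAt P t b) (hf : HasValueAt P f c)
    (hU : pkgsVal b c U ≠ 0)
    (hrel : (f - algebraMap K F c) * pkgEv₂ K F t f U =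
      -((t - algebraMap K F b) * pkgEv₂ K F t f V))
    (ht0 : t - algebraMap K F b ≠ 0) :
    ∀ (n : ℕ) (p : K[X][X]), pkgEv₂ K F t f p ≠ 0 → P.ord (pkgEv₂ K F t f p) = n →
      P.ord (t - algebraMap K F b) ∣ P.ord (pkgEv₂ K F t f p) := by
  have he : 0 < P.ord (t - algebraMap K F b) := (hasValueAt_iff_ord_pos P ht0).mp ht
  intro n
  induction n using Nat.strong_induction_on with
  | _ n ih =>
    intro p hp0 hn
    by_cases hv : pkgsVal b c p = 0
    · obtain ⟨p₁, p₂, hp⟩ := pkgs_decomp b c p hv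
      obtain ⟨h2, h3⟩ := pkgs_ord_step ht hf hU hrel ht0 hp hp0
      have h4 := pkgs_ord_ev_nonneg ht hf (p₁ * U - V * p₂)
      obtain ⟨n', hn'⟩ := Int.eq_ofNat_of_zero_le h4
      have hlt : n' < n := by
        have : (n' : ℤ) < n := by rw [← hn', ← hn, h3]; omega
        exact_mod_cast this
      have h5 := ih n' hlt _ h2 hn'
      rw [h3]
      exact dvd_add (dvd_refl _) h5
    · rw [(pkgs_ord_ev_unit ht hf hv).2]
      exact dvd_zero _

/-- `t - b` is a uniformizer at `P` -/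
theorem pkgs_ord_eq_one (hgen : IntermediateField.adjoin K {t, f} = ⊤)
    (ht : HasValueAt P t b) (hf : HasValueAt P f c) (hU : pkgsVal b c U ≠ 0)
    (hrel : (f - algebraMap K F c) * pkgEv₂ K F t f U =
      -((t - algebraMap K F b) * pkgEv₂ K F t f V))
    (ht0 : t - algebraMap K F b ≠ 0) : P.ord (t - algebraMap K F b) = 1 := by
  have he : 0 < P.ord (t - algebraMap K F b) := (hasValueAt_iff_ord_pos P ht0).mp ht
  have key : ∀ p : K[X][X], pkgEv₂ K F t f p ≠ 0 →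
      P.ord (t - algebraMap K F b) ∣ P.ord (pkgEv₂ K F t f p) := by
    intro p hp0
    obtain ⟨n, hn⟩ := Int.eq_ofNat_of_zero_le (pkgs_ord_ev_nonneg ht hf p)
    exact pkgs_dvd_ord_ev ht hf hU hrel ht0 n p hp0 hn
  obtain ⟨π, hπ⟩ := IsDiscreteValuationRing.exists_irreducible P.toValuationSubring
  have hπ1 : P.ord (π : F) = 1 := P.ord_coe_irreducible hπ
  have hπ0 : (π : F) ≠ 0 := by
    intro h
    rw [h, Place.ord_zero] at hπ1
    exact zero_ne_one hπ1
  obtain ⟨p, q, hq, hpq⟩ := pkgs_rep hgen (π : F)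
  have hp0 : pkgEv₂ K F t f p ≠ 0 := by
    intro h
    rw [h, zero_div] at hpq
    exact hπ0 hpq
  have h1 : P.ord (π : F) = P.ord (pkgEv₂ K F t f p) - P.ord (pkgEv₂ K F t f q) := by
    rw [hpq, div_eq_mul_inv, P.ord_mul hp0 (inv_ne_zero hq), Place.ord_inv]
    ring
  have h2 : P.ord (t - algebraMap K F b) ∣ 1 := by
    rw [← hπ1, h1]
    exact dvd_sub (key p hp0) (key q hq)
  exact Int.eq_one_of_dvd_one he.le h2

/-- the same descent computes the orders at two places above the point -/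
theorem pkgs_ord_ev_eq {P' : Place K F} (ht : HasValueAt P t b) (hf : HasValueAt P f c)
    (ht' : HasValueAt P' t b) (hf' : HasValueAt P' f c) (hU : pkgsVal b c U ≠ 0)
    (hrel : (f - algebraMap K F c) * pkgEv₂ K F t f U =
      -((t - algebraMap K F b) * pkgEv₂ K F t f V))
    (ht0 : t - algebraMap K F b ≠ 0)
    (he : P.ord (t - algebraMap K F b) = 1) (he' : P'.ord (t - algebraMap K F b) = 1) :
    ∀ (n : ℕ) (p : K[X][X]), pkgEv₂ K F t f p ≠ 0 → P.ord (pkgEv₂ K F t f p) = n →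
      P'.ord (pkgEv₂ K F t f p) = n := by
  intro n
  induction n using Nat.strong_induction_on with
  | _ n ih =>
    intro p hp0 hn
    by_cases hv : pkgsVal b c p = 0
    · obtain ⟨p₁, p₂, hp⟩ := pkgs_decomp b c p hv
      obtain ⟨h2, h3⟩ := pkgs_ord_step ht hf hU hrel ht0 hp hp0
      obtain ⟨-, h3'⟩ := pkgs_ord_step ht' hf' hU hrel ht0 hp hp0
      have h4 := pkgs_ord_ev_nonneg ht hf (p₁ * U - V * p₂)
      obtain ⟨n', hn'⟩ := Int.eq_ofNat_of_zero_le h4
      have hlt : n' < n := by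
        have : (n' : ℤ) < n := by rw [← hn', ← hn, h3, he]; omega
        exact_mod_cast this
      have h5 := ih n' hlt _ h2 hn'
      rw [h3', he', h5, ← hn, h3, he, hn']
    · rw [(pkgs_ord_ev_unit ht' hf' hv).2, ← hn, (pkgs_ord_ev_unit ht hf hv).2]

/-- two places above the simple point are equal -/
theorem pkgs_place_eq {P' : Place K F} (hgen : IntermediateField.adjoin K {t, f} = ⊤)
    (ht : HasValueAt P t b) (hf : HasValueAt P f c)
    (ht' : HasValueAt P' t b) (hf' : HasValueAt P' f c) (hU : pkgsVal b c U ≠ 0)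
    (hrel : (f - algebraMap K F c) * pkgEv₂ K F t f U =
      -((t - algebraMap K F b) * pkgEv₂ K F t f V))
    (ht0 : t - algebraMap K F b ≠ 0) : P' = P := by
  have he := pkgs_ord_eq_one hgen ht hf hU hrel ht0
  have he' := pkgs_ord_eq_one hgen ht' hf' hU hrel ht0
  have key : ∀ p : K[X][X], pkgEv₂ K F t f p ≠ 0 →
      P'.ord (pkgEv₂ K F t f p) = P.ord (pkgEv₂ K F t f p) := by
    intro p hp0
    obtain ⟨n, hn⟩ := Int.eq_ofNat_of_zero_le (pkgs_ord_ev_nonneg ht hf p)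
    rw [hn]
    exact pkgs_ord_ev_eq ht hf ht' hf' hU hrel ht0 he he' n p hp0 hn
  have hord : ∀ x : F, x ≠ 0 → P'.ord x = P.ord x := by
    intro x hx
    obtain ⟨p, q, hq, hpq⟩ := pkgs_rep hgen x
    have hp0 : pkgEv₂ K F t f p ≠ 0 := by
      intro h
      rw [h, zero_div] at hpq
      exact hx hpq
    rw [hpq, div_eq_mul_inv, P'.ord_mul hp0 (inv_ne_zero hq), P.ord_mul hp0 (inv_ne_zero hq),
      Place.ord_inv, Place.ord_inv, key p hp0, key q hq]
  apply Place.ext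
  ext x
  rcases eq_or_ne x 0 with rfl | hx
  · simp
  · rw [← PlaceAux.ord_nonneg_iff _ hx, ← PlaceAux.ord_nonneg_iff _ hx, hord x hx]

end Descent

/-- there is no place if `t` is the constant `b` -/
theorem pkgs_ne_const (hgen : IntermediateField.adjoin K {t, f} = ⊤) {b c : K}
    {U V : K[X][X]} {P : Place K F} (ht : HasValueAt P t b) (hf : HasValueAt P f c)
    (hU : pkgsVal b c U ≠ 0)
    (hrel : (f - algebraMap K F c) * pkgEv₂ K F t f U =
      -((t - algebraMap K F b) * pkgEv₂ K F t f V)) : t - algebraMap K F b ≠ 0 := by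
  intro h0
  have hU0 := (pkgs_ord_ev_unit ht hf hU).1
  rw [h0, zero_mul, neg_zero] at hrel
  have hf0 : f - algebraMap K F c = 0 := (mul_eq_zero.mp hrel).resolve_right hU0
  have htb : t = algebraMap K F b := sub_eq_zero.mp h0
  have hfc : f = algebraMap K F c := sub_eq_zero.mp hf0
  apply P.ne_top'
  rw [eq_top_iff]
  intro x _
  have hx : x ∈ IntermediateField.adjoin K {t, f} := by rw [hgen]; trivial
  have hle : IntermediateField.adjoin K {t, f} ≤ ⊥ := by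
    rw [IntermediateField.adjoin_le_iff]
    rintro y (rfl | hy)
    · rw [htb]; exact IntermediateField.algebraMap_mem _ _
    · rw [Set.mem_singleton_iff] at hy
      rw [hy, hfc]; exact IntermediateField.algebraMap_mem _ _
  obtain ⟨a, rfl⟩ := IntermediateField.mem_bot.mp (hle hx)
  exact P.algebraMap_mem' a

end Simple

/-- **PKG-simple** -/
theorem stmtPkgSimple : StmtPkgSimple := by
  intro K F _ _ _ t f m b c hgen hm hd P P' ht hf ht' hf'
  have hval : pkgsVal b c m = 0 := by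
    have h1 := pkgs_hasValueAt_ev ht hf m
    rw [hm] at h1
    exact (hasValueAt_unique P h1 (ln_hasValueAt_zero P))
  obtain ⟨U, V, hUV, hrel⟩ := pkgs_taylor b c m hm hval
  have hU : pkgsVal b c U ≠ 0 := by
    rw [hUV]
    exact hd
  have ht0 := pkgs_ne_const hgen ht hf hU hrel
  exact ⟨pkgs_ord_eq_one hgen ht hf hU hrel ht0,
    pkgs_place_eq hgen ht hf ht' hf' hU hrel ht0⟩

end Fermat.Agent.S15.LN

end
end ZBZ2S15_022_14
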