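/- GENERATED FILE (helper35, build-time optimisation, NOTES/ZB.md): verbatim concatenation of the modules
   Fermat.Agent.S15.PkgCardSer
   Fermat.Agent.S15.PkgCardB
   Fermat.Agent.S15.PkgCardPlan
   Do not edit; do not import together with these modules. -/
import Fermat.Agent.ZB.S28_002
import Fermat.Agent.ZB.DEU_003
import Fermat.Agent.ZB.ES_003
import Fermat.Agent.ZB.INJ_011
import Fermat.Agent.ZB.UNIP_015
import Fermat.Agent.ZB.ES_001

/-! ### bundled: `Fermat.Agent.S15.PkgCardSer` -/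
section ZBZ2S15_026_0

/-!
# S15 / LOCAL-N / LN-PKG, piece PKG-card (1): pole orders of `q`-expansions and polynomials in `j̄`

* `PkgcPoleLe a x` : the Laurent series `x` has a pole of order at most `a` at `q = 0`;
* `pkgcPoleLe_aeval`, `pkgc_natDegree_le` : for a polynomial `P` over a field,
  `P(j)` has a pole of order at most `a` iff `deg P ≤ a` (`j = q⁻¹ + 744 + …`);
* `pkgc_gaussRed_of_incl` : an element of `F_N` with `A`-integral `q`-expansion `Y` has Gauss
  reduction `Ȳ`; `pkgc_exists_lift` : Lemma R in this form.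
-/

set_option autoImplicit false

noncomputable section

namespace Fermat.Agent.S15.LN

open ModularCurve AlgebraicCurve HahnSeries Polynomial Fermat.Agent.ES Fermat.Agent.S24
  Fermat.Agent.ES.M Fermat.Agent.DEU Fermat.Agent.INJ

/-- the Laurent series `x` has a pole of order at most `a` at `q = 0` -/
def PkgcPoleLe {R : Type*} [Zero R] (a : ℤ) (x : LaurentSeries R) : Prop :=
  ∀ m : ℤ, m < -a → x.coeff m = 0

section Basic

variable {R : Type*} [CommRing R]

theorem pkgcPoleLe_zero (a : ℤ) : PkgcPoleLe a (0 : LaurentSeries R) := fun _ _ => rfl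

theorem PkgcPoleLe.mono {a b : ℤ} {x : LaurentSeries R} (h : PkgcPoleLe a x) (hab : a ≤ b) :
    PkgcPoleLe b x := fun m hm => h m (by omega)

theorem PkgcPoleLe.add {a : ℤ} {x y : LaurentSeries R} (hx : PkgcPoleLe a x)
    (hy : PkgcPoleLe a y) : PkgcPoleLe a (x + y) := by
  intro m hm
  rw [HahnSeries.coeff_add, hx m hm, hy m hm, add_zero]

theorem PkgcPoleLe.sub {a : ℤ} {x y : LaurentSeries R} (hx : PkgcPoleLe a x)
    (hy : PkgcPoleLe a y) : PkgcPoleLe a (x - y) := by
  intro m hm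
  rw [HahnSeries.coeff_sub, hx m hm, hy m hm, sub_zero]

theorem PkgcPoleLe.C_mul {a : ℤ} {x : LaurentSeries R} (hx : PkgcPoleLe a x) (c : R) :
    PkgcPoleLe a (HahnSeries.C c * x) := by
  intro m hm
  rw [HahnSeries.C_mul_eq_smul, HahnSeries.coeff_smul, hx m hm, smul_zero]

theorem PkgcPoleLe.coeffMap {S : Type*} [CommRing S] (f : R →+* S) {a : ℤ} {x : LaurentSeries R}
    (hx : PkgcPoleLe a x) : PkgcPoleLe a (coeffMap f x) := by
  intro m hm
  rw [coeffMap_coeff, hx m hm, map_zero]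

theorem pkgcPoleLe_of_coeffMap {S : Type*} [CommRing S] (f : R →+* S)
    (hf : Function.Injective f) {a : ℤ} {x : LaurentSeries R}
    (hx : PkgcPoleLe a (coeffMap f x)) : PkgcPoleLe a x := by
  intro m hm
  have := hx m hm
  rw [coeffMap_coeff] at this
  exact hf (this.trans (map_zero f).symm)

theorem pkgcPoleLe_iff_order {a : ℤ} {x : LaurentSeries R} (hx : x ≠ 0) :
    PkgcPoleLe a x ↔ -a ≤ x.order :=
  (HahnSeries.le_order_iff_forall hx).symm

/-- every Laurent series has a pole of finite order -/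
theorem pkgc_exists_poleLe (x : LaurentSeries R) (a : ℕ) :
    ∃ n : ℕ, PkgcPoleLe ((a : ℤ) + n) x := by
  rcases eq_or_ne x 0 with rfl | hx
  · exact ⟨0, pkgcPoleLe_zero _⟩
  · refine ⟨(-x.order).toNat, ?_⟩
    rw [pkgcPoleLe_iff_order hx]
    have := Int.self_le_toNat (-x.order)
    omega

end Basic

section Poly

variable (k : Type*) [Field k]

theorem pkgc_order_j : (jqModC k).order = -1 := bgConst_order_jqModC k

theorem pkgc_order_j_neg : (jqModC k).order < 0 := by
  rw [pkgc_order_j]; norm_num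

theorem pkgc_leadingCoeff_j : (jqModC k).leadingCoeff = 1 := by
  rw [HahnSeries.leadingCoeff_eq, pkgc_order_j, coeff_jqModC_neg_one]

variable {k}

/-- `P ↦ P(j)` is injective -/
theorem pkgc_aeval_injective : Function.Injective (Polynomial.aeval (R := k) (jqModC k)) :=
  Fermat.Agent.S28.aeval_injective_of_order_neg (pkgc_order_j_neg k)

theorem pkgc_order_aeval {P : k[X]} (hP : P ≠ 0) :
    (Polynomial.aeval (jqModC k) P).order = -(P.natDegree : ℤ) := by
  rw [Fermat.Agent.S28.order_aeval_of_order_neg (pkgc_order_j_neg k) hP, pkgc_order_j]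
  ring

/-- a polynomial of degree `≤ a` in `j` has a pole of order `≤ a` -/
theorem pkgcPoleLe_aeval {a : ℤ} {P : k[X]} (hP : (P.natDegree : ℤ) ≤ a) :
    PkgcPoleLe a (Polynomial.aeval (jqModC k) P) := by
  rcases eq_or_ne P 0 with rfl | h0
  · rw [map_zero]; exact pkgcPoleLe_zero a
  · rw [pkgcPoleLe_iff_order (Fermat.Agent.S28.aeval_ne_zero_of_order_neg (pkgc_order_j_neg k) h0),
      pkgc_order_aeval h0]
    omega

/-- a polynomial in `j` with a pole of order `≤ a` has degree `≤ a` -/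
theorem pkgc_natDegree_le {a : ℕ} {P : k[X]}
    (h : PkgcPoleLe (a : ℤ) (Polynomial.aeval (jqModC k) P)) : P.natDegree ≤ a := by
  rcases eq_or_ne P 0 with rfl | h0
  · simp
  · rw [pkgcPoleLe_iff_order (Fermat.Agent.S28.aeval_ne_zero_of_order_neg (pkgc_order_j_neg k) h0),
      pkgc_order_aeval h0] at h
    omega

/-- the coefficient of `q ^ (-deg P)` in `P(j)` is the leading coefficient of `P` -/
theorem pkgc_coeff_aeval {P : k[X]} (hP : P ≠ 0) :
    (Polynomial.aeval (jqModC k) P).coeff (-(P.natDegree : ℤ)) = P.leadingCoeff := by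
  have h1 := Fermat.Agent.S28.leadingCoeff_aeval_of_order_neg (pkgc_order_j_neg k) hP
  rw [pkgc_leadingCoeff_j, one_pow, mul_one, HahnSeries.leadingCoeff_eq,
    pkgc_order_aeval hP] at h1
  exact h1

end Poly

section Gauss

variable (N : ℕ) [NeZero N] (A : ValuationSubring Kb)

omit [NeZero N] in
/-- an element with `A`-integral `q`-expansion `Y` has Gauss reduction `Ȳ` -/
theorem pkgc_gaussRed_of_incl {x : FF N} {Y : LaurentSeries A}
    (h : kronIncl A Y = (x : LaurentSeries Kb)) : GaussRed N A x (kronRed A Y) := by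
  refine ⟨Y, 1, ?_, ?_, ?_, ?_, ?_⟩
  · rw [h]; exact x.2
  · rw [map_one]; exact one_mem _
  · rw [map_one]; exact one_ne_zero
  · rw [map_one, mul_one, h]
  · rw [map_one, mul_one]

/-- Lemma R: a Gauss-integral function with poles only at the cusps has an integral
`q`-expansion, whose reduction is the Gauss reduction -/
theorem pkgc_exists_lift {ℓ : ℕ} (hℓ : ℓ.Prime) (hA : A.LiesOverPrime ℓ) {x : FF N}
    (hx : PolesAtCusps N x) {w : LaurentSeries (kA A)} (hw : GaussRed N A x w) :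
    ∃ Y : LaurentSeries A, kronIncl A Y = (x : LaurentSeries Kb) ∧ kronRed A Y = w := by
  have hI : KronInt A (x : LaurentSeries Kb) :=
    Fermat.Agent.ES.LR.stmtLRa N ℓ hℓ A hA x hx ⟨w, hw⟩
  obtain ⟨Y, hY⟩ := hI.exists_lift
  exact ⟨Y, hY, deuInst_gaussRed_unique N A (pkgc_gaussRed_of_incl N A hY) hw⟩

end Gauss

end Fermat.Agent.S15.LN

end
end ZBZ2S15_026_0

/-! ### bundled: `Fermat.Agent.S15.PkgCardB` -/
section ZBZ2S15_026_1

/-!
# S15 / LOCAL-N / LN-PKG, piece PKG-card (2): the chart ring `B` in Gauss form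

* `PkgcB N A f u v` : `f` has poles only at the cusps and Gauss reductions `u` (at `∞`) and
  `v` (at `0`, i.e. `v` is the Gauss reduction of `w_N f`);
* ring operations, constants, `j`, `j_N`, `h = 1/oggU`, the swap `w_N`;
* `pkgc_coeff_mem` (orthonormality): if the pairs of reductions of `b i` are linearly independent
  and `∑ c i • b i` is integral for both Gauss norms, then `c i ∈ A`.
-/

set_option autoImplicit false
set_option linter.unusedSectionVars false

noncomputable section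

namespace Fermat.Agent.S15.LN

open ModularCurve AlgebraicCurve HahnSeries Polynomial Fermat.Agent.ES Fermat.Agent.S24
  Fermat.Agent.ES.M Fermat.Agent.DEU Fermat.Agent.INJ Fermat.Agent.S15

variable (N : ℕ) [NeZero N] (A : ValuationSubring Kb)

/-! ### Poles only at the cusps -/

theorem pkgc_poles_iff {x : FF N} : PolesAtCusps N x ↔
    ∀ P : Place Kb (FF N), jF N ∈ P.toValuationSubring → x ∈ P.toValuationSubring := by
  constructor
  · intro h P hP
    exact PlaceAux.mem_of_ord_nonneg P (h P ((PlaceAux.ord_nonneg_iff P fr_jF_ne_zero).mpr hP))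
  · intro h P hP
    rcases eq_or_ne x 0 with rfl | hx
    · rw [Place.ord_zero]
    · exact (PlaceAux.ord_nonneg_iff P hx).mpr
        (h P ((PlaceAux.ord_nonneg_iff P fr_jF_ne_zero).mp hP))

theorem pkgc_poles_zero : PolesAtCusps N (0 : FF N) :=
  (pkgc_poles_iff N).mpr fun _ _ => zero_mem _

theorem pkgc_poles_const (a : Kb) : PolesAtCusps N (algebraMap Kb (FF N) a) :=
  (pkgc_poles_iff N).mpr fun P _ => P.algebraMap_mem' a

theorem pkgc_poles_jF : PolesAtCusps N (jF N) := fun _ h => h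

variable {N}

theorem pkgc_poles_add {x y : FF N} (hx : PolesAtCusps N x) (hy : PolesAtCusps N y) :
    PolesAtCusps N (x + y) :=
  (pkgc_poles_iff N).mpr fun P hP =>
    add_mem ((pkgc_poles_iff N).mp hx P hP) ((pkgc_poles_iff N).mp hy P hP)

theorem pkgc_poles_sub {x y : FF N} (hx : PolesAtCusps N x) (hy : PolesAtCusps N y) :
    PolesAtCusps N (x - y) :=
  (pkgc_poles_iff N).mpr fun P hP =>
    sub_mem ((pkgc_poles_iff N).mp hx P hP) ((pkgc_poles_iff N).mp hy P hP)

theorem pkgc_poles_mul {x y : FF N} (hx : PolesAtCusps N x) (hy : PolesAtCusps N y) :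
    PolesAtCusps N (x * y) :=
  (pkgc_poles_iff N).mpr fun P hP =>
    mul_mem ((pkgc_poles_iff N).mp hx P hP) ((pkgc_poles_iff N).mp hy P hP)

theorem pkgc_poles_pow {x : FF N} (hx : PolesAtCusps N x) (n : ℕ) :
    PolesAtCusps N (x ^ n) :=
  (pkgc_poles_iff N).mpr fun P hP => pow_mem ((pkgc_poles_iff N).mp hx P hP) n

theorem pkgc_poles_sum {ι : Type*} (s : Finset ι) {x : ι → FF N}
    (hx : ∀ i ∈ s, PolesAtCusps N (x i)) : PolesAtCusps N (∑ i ∈ s, x i) :=
  (pkgc_poles_iff N).mpr fun P hP => sum_mem fun i hi => (pkgc_poles_iff N).mp (hx i hi) P hP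

variable (N)

theorem pkgc_poles_jN : PolesAtCusps N (jdF N N dvd_rfl) := by
  have h := fricke_polesAtCusps (pkgc_poles_jF N)
  rwa [frickeAut_jF] at h

/-! ### Gauss reductions of sums and scalar multiples -/

variable {N A}

theorem pkgc_gaussRed_sub {x x' : FF N} {w w' : LaurentSeries (kA A)}
    (h : GaussRed N A x w) (h' : GaussRed N A x' w') : GaussRed N A (x - x') (w - w') := by
  rw [sub_eq_add_neg, sub_eq_add_neg]
  exact deuInst_gaussRed_add N A h (deuInst_gaussRed_neg N A h')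

theorem pkgc_gaussRed_sum {ι : Type*} (s : Finset ι) {x : ι → FF N}
    {w : ι → LaurentSeries (kA A)} (h : ∀ i ∈ s, GaussRed N A (x i) (w i)) :
    GaussRed N A (∑ i ∈ s, x i) (∑ i ∈ s, w i) := by
  classical
  induction s using Finset.induction_on with
  | empty =>
    rw [Finset.sum_empty, Finset.sum_empty]
    exact deuInst_gaussRed_zero N A
  | insert a s ha ih =>
    rw [Finset.sum_insert ha, Finset.sum_insert ha]
    exact deuInst_gaussRed_add N A (h a (Finset.mem_insert_self a s))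
      (ih fun i hi => h i (Finset.mem_insert_of_mem hi))

theorem pkgc_gaussRed_smul (a : A) {x : FF N} {w : LaurentSeries (kA A)}
    (h : GaussRed N A x w) :
    GaussRed N A ((a : Kb) • x) (HahnSeries.C (IsLocalRing.residue A a) * w) := by
  rw [Algebra.smul_def]
  exact deuInst_gaussRed_mul N A (deuInst_gaussRed_const N A a) h

theorem pkgc_gaussRed_pow {x : FF N} {w : LaurentSeries (kA A)} (h : GaussRed N A x w) (n : ℕ) :
    GaussRed N A (x ^ n) (w ^ n) := by
  induction n with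
  | zero =>
    rw [pow_zero, pow_zero]
    exact deuInst_gaussRed_one N A
  | succ n ih =>
    rw [pow_succ, pow_succ]
    exact deuInst_gaussRed_mul N A ih h

/-- a multiple by a nonunit of `A` reduces to `0` -/
theorem pkgc_gaussRed_smul_nonunit {a : Kb} (ha : a ∈ A.nonunits) {x : FF N}
    {w : LaurentSeries (kA A)} (h : GaussRed N A x w) : GaussRed N A (a • x) 0 := by
  have haA : a ∈ A := A.nonunits_subset ha
  have h1 := pkgc_gaussRed_smul ⟨a, haA⟩ h
  have h2 : IsLocalRing.residue A ⟨a, haA⟩ = 0 := by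
    rw [IsLocalRing.residue_eq_zero_iff, ← ValuationSubring.coe_mem_nonunits_iff]
    exact ha
  rw [h2, map_zero, zero_mul] at h1
  exact h1

variable (N A)

/-! ### The chart ring -/

/-- `f ∈ B` with reductions `(u, v)` on the two components -/
def PkgcB (f : FF N) (u v : LaurentSeries (kA A)) : Prop :=
  PolesAtCusps N f ∧ GaussRed N A f u ∧ GaussRed N A (frickeAut N f) v

variable {N A}

theorem PkgcB.add {f g : FF N} {u v u' v' : LaurentSeries (kA A)} (hf : PkgcB N A f u v)
    (hg : PkgcB N A g u' v') : PkgcB N A (f + g) (u + u') (v + v') := by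
  refine ⟨pkgc_poles_add hf.1 hg.1, deuInst_gaussRed_add N A hf.2.1 hg.2.1, ?_⟩
  rw [map_add]
  exact deuInst_gaussRed_add N A hf.2.2 hg.2.2

theorem PkgcB.sub {f g : FF N} {u v u' v' : LaurentSeries (kA A)} (hf : PkgcB N A f u v)
    (hg : PkgcB N A g u' v') : PkgcB N A (f - g) (u - u') (v - v') := by
  refine ⟨pkgc_poles_sub hf.1 hg.1, pkgc_gaussRed_sub hf.2.1 hg.2.1, ?_⟩
  rw [map_sub]
  exact pkgc_gaussRed_sub hf.2.2 hg.2.2

theorem PkgcB.mul {f g : FF N} {u v u' v' : LaurentSeries (kA A)} (hf : PkgcB N A f u v)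
    (hg : PkgcB N A g u' v') : PkgcB N A (f * g) (u * u') (v * v') := by
  refine ⟨pkgc_poles_mul hf.1 hg.1, deuInst_gaussRed_mul N A hf.2.1 hg.2.1, ?_⟩
  rw [map_mul]
  exact deuInst_gaussRed_mul N A hf.2.2 hg.2.2

theorem PkgcB.pow {f : FF N} {u v : LaurentSeries (kA A)} (hf : PkgcB N A f u v) (n : ℕ) :
    PkgcB N A (f ^ n) (u ^ n) (v ^ n) := by
  refine ⟨pkgc_poles_pow hf.1 n, pkgc_gaussRed_pow hf.2.1 n, ?_⟩
  rw [map_pow]
  exact pkgc_gaussRed_pow hf.2.2 n

theorem pkgcB_zero : PkgcB N A (0 : FF N) 0 0 := by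
  refine ⟨pkgc_poles_zero N, deuInst_gaussRed_zero N A, ?_⟩
  rw [map_zero]
  exact deuInst_gaussRed_zero N A

theorem pkgcB_const (a : A) : PkgcB N A (algebraMap Kb (FF N) (a : Kb))
    (HahnSeries.C (IsLocalRing.residue A a)) (HahnSeries.C (IsLocalRing.residue A a)) := by
  refine ⟨pkgc_poles_const N _, deuInst_gaussRed_const N A a, ?_⟩
  rw [AlgEquiv.commutes]
  exact deuInst_gaussRed_const N A a

theorem PkgcB.smul (a : A) {f : FF N} {u v : LaurentSeries (kA A)} (hf : PkgcB N A f u v) :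
    PkgcB N A ((a : Kb) • f) (HahnSeries.C (IsLocalRing.residue A a) * u)
      (HahnSeries.C (IsLocalRing.residue A a) * v) := by
  rw [Algebra.smul_def]
  exact (pkgcB_const a).mul hf

/-- a multiple by a nonunit of `A` reduces to `(0, 0)` -/
theorem PkgcB.smul_nonunit {a : Kb} (ha : a ∈ A.nonunits) {f : FF N}
    {u v : LaurentSeries (kA A)} (hf : PkgcB N A f u v) : PkgcB N A (a • f) 0 0 := by
  have haA : a ∈ A := A.nonunits_subset ha
  have h1 := hf.smul ⟨a, haA⟩
  have h2 : IsLocalRing.residue A ⟨a, haA⟩ = 0 := by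
    rw [IsLocalRing.residue_eq_zero_iff, ← ValuationSubring.coe_mem_nonunits_iff]
    exact ha
  rw [h2, map_zero, zero_mul, zero_mul] at h1
  exact h1

/-- the swap `w_N` -/
theorem PkgcB.swap {f : FF N} {u v : LaurentSeries (kA A)} (hf : PkgcB N A f u v) :
    PkgcB N A (frickeAut N f) v u := by
  refine ⟨fricke_polesAtCusps hf.1, hf.2.2, ?_⟩
  rw [frickeAut_frickeAut]
  exact hf.2.1

theorem PkgcB.unique {f : FF N} {u v u' v' : LaurentSeries (kA A)} (hf : PkgcB N A f u v)
    (hf' : PkgcB N A f u' v') : u = u' ∧ v = v' :=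
  ⟨deuInst_gaussRed_unique N A hf.2.1 hf'.2.1, deuInst_gaussRed_unique N A hf.2.2 hf'.2.2⟩

theorem PkgcB.sum {ι : Type*} (s : Finset ι) {f : ι → FF N} {u v : ι → LaurentSeries (kA A)}
    (h : ∀ i ∈ s, PkgcB N A (f i) (u i) (v i)) :
    PkgcB N A (∑ i ∈ s, f i) (∑ i ∈ s, u i) (∑ i ∈ s, v i) := by
  refine ⟨pkgc_poles_sum s fun i hi => (h i hi).1, pkgc_gaussRed_sum s fun i hi => (h i hi).2.1,
    ?_⟩
  rw [map_sum]
  exact pkgc_gaussRed_sum s fun i hi => (h i hi).2.2

variable (N A)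

/-- `j ∈ B` with reductions `(j̄, j̄ ^ N)` -/
theorem pkgcB_j (hN : N.Prime) (hA : A.LiesOverPrime N) :
    PkgcB N A (jF N) (jqModC (kA A)) (jqModC (kA A) ^ N) := by
  have : CharP (kA A) N := kron_charP_residueField hN hA
  refine ⟨pkgc_poles_jF N, pkg_gaussRed_j N A, ?_⟩
  rw [frickeAut_jF, ← pkg_jN_eq_pow N (kA A) hN]
  exact pkg_gaussRed_jN N A

/-- `j_N ∈ B` with reductions `(j̄ ^ N, j̄)` -/
theorem pkgcB_jN (hN : N.Prime) (hA : A.LiesOverPrime N) :
    PkgcB N A (jdF N N dvd_rfl) (jqModC (kA A) ^ N) (jqModC (kA A)) := by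
  have h := (pkgcB_j N A hN hA).swap
  rwa [frickeAut_jF] at h

/-! ### Orthonormality -/

variable {N A}

theorem pkgc_fricke_smul (a : Kb) (x : FF N) : frickeAut N (a • x) = a • frickeAut N x := by
  rw [Algebra.smul_def, map_mul, AlgEquiv.commutes, ← Algebra.smul_def]

/-- in a finite family of elements of `ℚ̄` one has maximal valuation -/
theorem pkgc_exists_max {n : ℕ} (c : Fin n → Kb) (i₀ : Fin n) :
    ∃ j, ∀ i, A.valuation (c i) ≤ A.valuation (c j) := by
  obtain ⟨j, -, hj⟩ := Finset.exists_max_image Finset.univ (fun i => A.valuation (c i))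
    ⟨i₀, Finset.mem_univ _⟩
  exact ⟨j, fun i => hj i (Finset.mem_univ _)⟩

/-- **orthonormality**: if the pairs of reductions of the `b i` are linearly independent and
`∑ c i • b i` is integral for both Gauss norms, then the `c i` lie in `A`. -/
theorem pkgc_coeff_mem {n : ℕ} {b : Fin n → FF N} {w₁ w₂ : Fin n → LaurentSeries (kA A)}
    (hG₁ : ∀ i, GaussRed N A (b i) (w₁ i)) (hG₂ : ∀ i, GaussRed N A (frickeAut N (b i)) (w₂ i))
    (hli : LinearIndependent (kA A) (fun i => ((w₁ i, w₂ i) :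
      LaurentSeries (kA A) × LaurentSeries (kA A))))
    (c : Fin n → Kb) {u v : LaurentSeries (kA A)} (hu : GaussRed N A (∑ i, c i • b i) u)
    (hv : GaussRed N A (frickeAut N (∑ i, c i • b i)) v) (i : Fin n) : c i ∈ A := by
  obtain ⟨j, hj⟩ := pkgc_exists_max (A := A) c i
  by_cases hcj : c j ∈ A
  · rw [← ValuationSubring.valuation_le_one_iff]
    exact (hj i).trans ((ValuationSubring.valuation_le_one_iff A _).mpr hcj)
  exfalso
  have hcj0 : c j ≠ 0 := by
    intro h
    exact hcj (h ▸ A.zero_mem)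
  have hinv : (c j)⁻¹ ∈ A.nonunits := by
    rw [ValuationSubring.mem_nonunits_iff, map_inv₀]
    have h1 : 1 < A.valuation (c j) := by
      rw [← not_le, ValuationSubring.valuation_le_one_iff]
      exact hcj
    exact inv_lt_one_of_one_lt₀ h1
  have hd : ∀ i, c i / c j ∈ A := by
    intro i
    rw [← ValuationSubring.valuation_le_one_iff, map_div₀]
    exact div_le_one_of_le₀ (hj i) zero_le
  -- the scaled element
  have hsc : (c j)⁻¹ • ∑ i, c i • b i = ∑ i, ((⟨c i / c j, hd i⟩ : A) : Kb) • b i := by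
    rw [Finset.smul_sum]
    refine Finset.sum_congr rfl fun i _ => ?_
    rw [smul_smul]
    congr 1
    show (c j)⁻¹ * c i = c i / c j
    rw [div_eq_mul_inv, mul_comm]
  have h1 : GaussRed N A ((c j)⁻¹ • ∑ i, c i • b i) 0 := pkgc_gaussRed_smul_nonunit hinv hu
  have h2 : GaussRed N A (frickeAut N ((c j)⁻¹ • ∑ i, c i • b i)) 0 := by
    rw [pkgc_fricke_smul]
    exact pkgc_gaussRed_smul_nonunit hinv hv
  have h3 : GaussRed N A (∑ i, ((⟨c i / c j, hd i⟩ : A) : Kb) • b i)
      (∑ i, HahnSeries.C (IsLocalRing.residue A ⟨c i / c j, hd i⟩) * w₁ i) :=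
    pkgc_gaussRed_sum _ fun i _ => pkgc_gaussRed_smul _ (hG₁ i)
  have h4 : GaussRed N A (frickeAut N (∑ i, ((⟨c i / c j, hd i⟩ : A) : Kb) • b i))
      (∑ i, HahnSeries.C (IsLocalRing.residue A ⟨c i / c j, hd i⟩) * w₂ i) := by
    rw [map_sum]
    refine pkgc_gaussRed_sum _ fun i _ => ?_
    rw [pkgc_fricke_smul]
    exact pkgc_gaussRed_smul _ (hG₂ i)
  rw [hsc] at h1 h2
  have e₁ := deuInst_gaussRed_unique N A h3 h1
  have e₂ := deuInst_gaussRed_unique N A h4 h2
  have hzero : ∑ i, IsLocalRing.residue A ⟨c i / c j, hd i⟩ •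
      ((w₁ i, w₂ i) : LaurentSeries (kA A) × LaurentSeries (kA A)) = 0 := by
    apply Prod.ext
    · rw [Prod.fst_sum]
      show ∑ i, IsLocalRing.residue A ⟨c i / c j, hd i⟩ • w₁ i = 0
      rw [← e₁]
      exact Finset.sum_congr rfl fun i _ => (HahnSeries.C_mul_eq_smul).symm
    · rw [Prod.snd_sum]
      show ∑ i, IsLocalRing.residue A ⟨c i / c j, hd i⟩ • w₂ i = 0
      rw [← e₂]
      exact Finset.sum_congr rfl fun i _ => (HahnSeries.C_mul_eq_smul).symm
  have h5 := Fintype.linearIndependent_iff.mp hli _ hzero j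
  have h6 : (⟨c j / c j, hd j⟩ : A) = 1 := by
    apply Subtype.ext
    show c j / c j = 1
    exact div_self hcj0
  rw [h6, map_one] at h5
  exact one_ne_zero h5

end Fermat.Agent.S15.LN

end
end ZBZ2S15_026_1

/-! ### bundled: `Fermat.Agent.S15.PkgCardPlan` -/
section ZBZ2S15_026_2

/-!
# S15 / LOCAL-N / LN-PKG, piece PKG-card: the exported statements (helper89)

`k = kA A`, `j̄ = jqModC k ∈ k((q))`, `w = frickeAut N`.
`PkgcB N A f u v` (`PkgCardB.lean`): `f` has poles only at the cusps, `GaussRed N A f u`,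
`GaussRed N A (w f) v`, i.e. `f ∈ B` with reductions `(u, v)` (as Laurent series; use
`pkg_red₁_eq`, `pkg_red₂_eq`, `pkg_gaussRed_red₁/₂` of `PkgVal.lean` to pass to `pkgRed₁/₂`).

* `PkgcPoly N A` : PKG-poly in Gauss form (from `StmtPkgPoly`: `pkgc_poly_of_stmt`);
* `PkgIsGoursat N A S` : the Goursat description of `red(B)` with `Z = S`:
  `S ⊂ k` finite, `s ^ (N ^ 2) = s` and `s ^ N ∈ S` on `S`;
  `glued` : `f ∈ B` with reductions `(P(j̄), Q(j̄))` ⇒ `P(s) = Q(s ^ N)` for `s ∈ S`;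
  `lift` : conversely every such pair `(P, Q)` is the reduction of some `f ∈ B`;
  `zeros` : `S` is the set of zeros of `H`, where `H(j̄) = h̄₁ = (uS k N)⁻¹`;
* `StmtPkgGoursat` : `PkgcPoly N A → ∃ S, PkgIsGoursat N A S`;
* `StmtPkgCount` : moreover `S.card = gN N + 1` (with Riemann for `F_N`).
-/

set_option autoImplicit false

noncomputable section

namespace Fermat.Agent.S15.LN

open ModularCurve AlgebraicCurve HahnSeries Polynomial Fermat.Agent.ES Fermat.Agent.S24
  Fermat.Agent.ES.M Fermat.Agent.DEU Fermat.Agent.INJ Fermat.Agent.S15 Fermat.Agent.W1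
  Fermat.Agent.S28.UB Fermat.Agent.S28

variable (N : ℕ) [NeZero N] (A : ValuationSubring Kb)

/-- **PKG-poly in Gauss form**: the reductions of an element of `B` are polynomials in `j̄` -/
def PkgcPoly : Prop :=
  ∀ (f : FF N) (u v : LaurentSeries (kA A)), PkgcB N A f u v →
    (∃ P : (kA A)[X], Polynomial.aeval (jqModC (kA A)) P = u) ∧
      ∃ Q : (kA A)[X], Polynomial.aeval (jqModC (kA A)) Q = v

/-- **the Goursat description of `red(B)`**, with `Z = S` -/
structure PkgIsGoursat (S : Finset (kA A)) : Prop where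
  frob : ∀ s ∈ S, s ^ (N ^ 2) = s
  pow_mem : ∀ s ∈ S, s ^ N ∈ S
  glued : ∀ (f : FF N) (P Q : (kA A)[X]),
    PkgcB N A f (Polynomial.aeval (jqModC (kA A)) P) (Polynomial.aeval (jqModC (kA A)) Q) →
      ∀ s ∈ S, P.eval s = Q.eval (s ^ N)
  lift : ∀ P Q : (kA A)[X], (∀ s ∈ S, P.eval s = Q.eval (s ^ N)) →
    ∃ f : FF N,
      PkgcB N A f (Polynomial.aeval (jqModC (kA A)) P) (Polynomial.aeval (jqModC (kA A)) Q)
  zeros : ∃ H : (kA A)[X], H ≠ 0 ∧ Polynomial.aeval (jqModC (kA A)) H = (uS (kA A) N)⁻¹ ∧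
    ∀ a : kA A, a ∈ S ↔ H.eval a = 0

/-- **Goursat + (Z = S)** -/
def StmtPkgGoursat : Prop :=
  ∀ (N : ℕ) [NeZero N], N.Prime → 5 ≤ N → ∀ A : ValuationSubring Kb, A.LiesOverPrime N →
    PkgcPoly N A → ∃ S : Finset (kA A), PkgIsGoursat N A S

/-- **the count**: `#S = g + 1` -/
def StmtPkgCount : Prop :=
  ∀ (N : ℕ) [NeZero N], N.Prime → 5 ≤ N → ∀ A : ValuationSubring Kb, A.LiesOverPrime N →
    PkgcPoly N A → IsNiceCurve Kb (FF N) (gN N) →
      ∀ S : Finset (kA A), PkgIsGoursat N A S → S.card = gN N + 1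

/-- the crossing set in terms of `S` -/
def StmtPkgXset : Prop :=
  ∀ (N : ℕ) [NeZero N], N.Prime → 5 ≤ N → ∀ A : ValuationSubring Kb, A.LiesOverPrime N →
    ∀ (hB : PkgBase N A) (S : Finset (kA A)), PkgIsGoursat N A S →
      ∀ x : Place (kA A) (FFk A) × Place (kA A) (FFk A),
        x ∈ pkgXset N A hB ↔
          ∃ s ∈ S, HasValueAt x.1 (pkgJbar A) s ∧ HasValueAt x.2 (pkgJbar A) (s ^ N)

end Fermat.Agent.S15.LN

end
end ZBZ2S15_026_2
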