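/- GENERATED FILE (helper35, build-time optimisation, NOTES/ZB.md): verbatim concatenation of the modules
   Fermat.Agent.S15.OggDiv
   Fermat.Agent.S15.OggLc
   Fermat.Agent.S15.OggOrder
   Fermat.Agent.S15.OggCusp
   Fermat.Agent.S15.N3FOne
   Fermat.Agent.S15.LocDivBridge
   Fermat.Agent.S15.ModFricke0
   Fermat.Agent.S15.PkgType
   Fermat.Agent.S15.PkgCardE
   Fermat.Agent.S15.PkgCardLift
   Fermat.Agent.S15.PkgCross
   Fermat.Agent.S15.PkgCrossG
   Fermat.Agent.S15.PkgEvAux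
   Fermat.Agent.S15.PkgEvCore
   Fermat.Agent.S15.PkgEvSep
   Fermat.Agent.S15.PkgEvCusp
   Fermat.Agent.S15.PkgEv
   Fermat.Agent.S15.PkgGlue
   Fermat.Agent.S15.PkgRdivSep
   Fermat.Agent.S15.PkgRdivH
   Fermat.Agent.S15.PkgRdivAsm
   Fermat.Agent.S15.PkgUniq
   Do not edit; do not import together with these modules. -/
import Fermat.Agent.ZB.ES_012
import Fermat.Agent.ZB.ES_003
import Fermat.Agent.ZB.INJ_012
import Fermat.Agent.ZB.S20_001
import Fermat.Agent.ZB.S24_011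
import Fermat.Agent.ZB.S24_012
import Fermat.Prelude.Def_ModularCurve_ModularUnit
import Fermat.Agent.ZB.Z2S15_002
import Fermat.Agent.ZB.Z2S15_011
import Fermat.Agent.ZB.Z2S15_015
import Fermat.Agent.ZB.Z2S15_016
import Fermat.Agent.ZB.Z2S15_017
import Fermat.Agent.ZB.ES_001
import Fermat.Agent.ZB.Z2S15_019
import Fermat.Agent.ZB.Z2S15_020
import Fermat.Agent.ZB.W1_002
import Fermat.Agent.ZB.Z2S15_021
import Fermat.Agent.ZB.Z2S15_022
import Fermat.Agent.ZB.ES_020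
import Fermat.Agent.ZB.Z2S15_026
import Fermat.Agent.ZB.ES_028
import Fermat.Agent.ZB.UNIP_015
import Fermat.Agent.ZB.Z2S15_028
import Fermat.Agent.ZB.Z2S15_029
import Fermat.Agent.ZB.RED_001
import Fermat.Agent.ZB.DEU_004
import Fermat.Agent.ZB.DEU_005
import Fermat.Agent.ZB.S28_002

/-! ### bundled: `Fermat.Agent.S15.OggDiv` -/
section ZBZ2S15_005_0

/-!
# S15, piece OGG (2): the divisor of the modular unit and the torsion of the cuspidal class

For a prime `N`: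

* `ogg_pole_cases` : the only poles of `j` on `X₀(N)` are the two cusps `∞` and `0`
  (`1 + N = ψ(N) = [F_N : ℚ̄(j)]`);
* `ogg_ord_of_ne`, `ogg_ord_cuspInf`, `ogg_ord_cuspZero` : `div(u_N) = (N - 1)((∞) - (0))`;
* `ogg_torsion` : `(N - 1) • c = 0` for the cuspidal class `c = [(0) - (∞)]`;
* `ogg_const_of_ord_eq_zero` : an element of `F_N` without zeros and poles is a constant.
-/

set_option autoImplicit false
set_option linter.style.haveILetI false

noncomputable section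

namespace Fermat.Agent.S15

open ModularCurve AlgebraicCurve IntermediateField
open Fermat.Agent.S24 Fermat.Agent.ES.M

/-- For a prime `N`, the only poles of `j` are the cusps `∞` and `0`. -/
theorem ogg_pole_cases (N : ℕ) [NeZero N] (hN : N.Prime) (P : Place Kb (FF N))
    (hP : P.ord (jF N) < 0) : P = cuspInf N ∨ P = cuspZero N := by
  classical
  by_contra hne
  push Not at hne
  obtain ⟨h1, h2⟩ := hne
  haveI := Fermat.Agent.ES.H.finiteDimensional_adjoin_jF N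
  have htr : Transcendental Kb (jF N)⁻¹ := transcendental_jF_inv N
  haveI hfd : FiniteDimensional Kb⟮(jF N)⁻¹⟯ (FF N) :=
    pd_finiteDimensional_adjoin_of_transcendental (jF N) (transcendental_jF N) _ htr
  obtain ⟨V, hV, hsum⟩ := sum_ord_eq_finrank (K := Kb) (jF N)⁻¹ htr
  rw [pd_finrank_eq_of_eq (pd_adjoin_inv_eq (K := Kb) (jF N)), Fermat.Agent.INJ.hmMem_finrank_jF,
    Fermat.Agent.S20.dedekindPsi_prime hN] at hsum
  have hNpos : (0 : ℤ) < N := by exact_mod_cast hN.pos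
  have hI : cuspInf N ∈ V := by
    rw [hV, Place.ord_inv, cuspInf_ord_jF]; norm_num
  have hZ : cuspZero N ∈ V := by
    rw [hV, Place.ord_inv, cuspZero_ord_jF, neg_neg]; exact hNpos
  have hPV : P ∈ V := by
    rw [hV, Place.ord_inv]; omega
  have hZI : cuspZero N ≠ cuspInf N := cuspZero_ne_cuspInf N hN.two_le
  have hsub : ({cuspInf N, cuspZero N, P} : Finset (Place Kb (FF N))) ⊆ V := by
    intro v hv
    simp only [Finset.mem_insert, Finset.mem_singleton] at hv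
    rcases hv with rfl | rfl | rfl
    · exact hI
    · exact hZ
    · exact hPV
  have hle := Finset.sum_le_sum_of_subset_of_nonneg (f := fun v => v.ord (jF N)⁻¹) hsub
    (fun v hv _ => ((hV v).mp hv).le)
  rw [Finset.sum_insert (by
      simp only [Finset.mem_insert, Finset.mem_singleton, not_or]
      exact ⟨fun h => hZI h.symm, fun h => h1 h.symm⟩),
    Finset.sum_insert (by
      simp only [Finset.mem_singleton]
      exact fun h => h2 h.symm),
    Finset.sum_singleton, hsum] at hle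
  simp only [Place.ord_inv, cuspInf_ord_jF, cuspZero_ord_jF, neg_neg] at hle
  push_cast at hle
  omega

/-- For a prime `N`, the modular unit has neither zero nor pole outside the two cusps. -/
theorem ogg_ord_of_ne (N : ℕ) [NeZero N] (hN : N.Prime) (P : Place Kb (FF N))
    (h1 : P ≠ cuspInf N) (h2 : P ≠ cuspZero N) : P.ord (oggU N) = 0 := by
  apply ogg_ord_eq_zero N hN P
  by_contra h
  push Not at h
  rcases ogg_pole_cases N hN P h with h | h
  · exact h1 h
  · exact h2 h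

theorem ogg_ord_cuspInf (N : ℕ) [NeZero N] : (cuspInf N).ord (oggU N) = (N : ℤ) - 1 :=
  ogg_ord_cuspInfty N (cuspInf_isCuspInfty N)

/-- For a prime `N`, the modular unit has a pole of order `N - 1` at the cusp `0`. -/
theorem ogg_ord_cuspZero (N : ℕ) [NeZero N] (hN : N.Prime) :
    (cuspZero N).ord (oggU N) = -((N : ℤ) - 1) := by
  classical
  haveI := Fermat.Agent.ES.H.hasPrincipalDivisors_FF N
  obtain ⟨D, hD, hdeg⟩ := HasPrincipalDivisors.exists_divisor (K := Kb) (oggU N) (oggU_ne_zero N)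
  have hZI : cuspZero N ≠ cuspInf N := cuspZero_ne_cuspInf N hN.two_le
  have hDeq : D = Finsupp.single (cuspInf N) ((N : ℤ) - 1) +
      Finsupp.single (cuspZero N) (D (cuspZero N)) := by
    ext v
    rw [Finsupp.add_apply]
    by_cases hv1 : v = cuspInf N
    · subst hv1
      rw [Finsupp.single_eq_same, Finsupp.single_eq_of_ne (Ne.symm hZI), add_zero, hD,
        ogg_ord_cuspInf]
    · by_cases hv2 : v = cuspZero N
      · subst hv2
        rw [Finsupp.single_eq_same, Finsupp.single_eq_of_ne hv1, zero_add]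
      · rw [Finsupp.single_eq_of_ne hv1, Finsupp.single_eq_of_ne hv2, hD,
          ogg_ord_of_ne N hN v hv1 hv2, add_zero]
  rw [hDeq, map_add, Divisor.degree_single, Divisor.degree_single, cuspInf_deg, cuspZero_deg,
    hD] at hdeg
  push_cast at hdeg
  linarith

/-- The divisor of the modular unit: `div(u_N⁻¹) = (N - 1) • ((0) - (∞))`. -/
theorem ogg_div (N : ℕ) [NeZero N] (hN : N.Prime) (v : Place Kb (FF N)) :
    ((N - 1) • (cuspDiv N : Divisor Kb (FF N))) v = v.ord (oggU N)⁻¹ := by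
  classical
  have hZI : cuspZero N ≠ cuspInf N := cuspZero_ne_cuspInf N hN.two_le
  have hN1 : ((N - 1 : ℕ) : ℤ) = (N : ℤ) - 1 := by
    have := hN.one_le
    push_cast [Nat.cast_sub this]
    ring
  rw [Place.ord_inv, coe_cuspDiv, Finsupp.smul_apply, Finsupp.sub_apply, nsmul_eq_mul, hN1]
  by_cases hv1 : v = cuspInf N
  · subst hv1
    rw [Finsupp.single_eq_same, Finsupp.single_eq_of_ne (Ne.symm hZI), ogg_ord_cuspInf]
    push_cast
    ring
  · by_cases hv2 : v = cuspZero N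
    · subst hv2
      rw [Finsupp.single_eq_same, Finsupp.single_eq_of_ne hv1, ogg_ord_cuspZero N hN]
      push_cast
      ring
    · rw [Finsupp.single_eq_of_ne hv1, Finsupp.single_eq_of_ne hv2, ogg_ord_of_ne N hN v hv1 hv2]
      simp

/-- **Ogg (upper bound)**: for a prime `N`, the cuspidal class `c = [(0) - (∞)]` of `J₀(N)` is
killed by `N - 1`. -/
theorem ogg_torsion (N : ℕ) [NeZero N] (hN : N.Prime) : (N - 1) • cuspClass N = 0 := by
  have h1 : (N - 1) • cuspClass N = Pic0.mk ((N - 1) • cuspDiv N) := rfl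
  rw [h1, Pic0.mk, QuotientAddGroup.eq_zero_iff, AddSubgroup.mem_addSubgroupOf,
    AddSubgroup.coe_nsmul, Divisor.mem_principal]
  exact ⟨(oggU N)⁻¹, inv_ne_zero (oggU_ne_zero N), fun v => ogg_div N hN v⟩

/-- An element of `F_N` without zeros and poles is a constant. -/
theorem ogg_const_of_ord_eq_zero (N : ℕ) [NeZero N] (f : FF N)
    (hf : ∀ v : Place Kb (FF N), v.ord f = 0) : ∃ a : Kb, algebraMap Kb (FF N) a = f := by
  by_cases halg : IsAlgebraic Kb f
  · obtain ⟨a, ha⟩ := mem_range_algebraMap_of_isAlgebraic halg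
    exact ⟨a, ha⟩
  · exfalso
    have htr : Transcendental Kb f := halg
    haveI := Fermat.Agent.ES.H.finiteDimensional_adjoin_jF N
    haveI hfd : FiniteDimensional Kb⟮f⟯ (FF N) :=
      pd_finiteDimensional_adjoin_of_transcendental (jF N) (transcendental_jF N) _ htr
    obtain ⟨V, hV, hsum⟩ := sum_ord_eq_finrank (K := Kb) f htr
    have hVe : V = ∅ := by
      ext v
      simp [hV v, hf v]
    rw [hVe, Finset.sum_empty] at hsum
    have hpos : 0 < Module.finrank Kb⟮f⟯ (FF N) := Module.finrank_pos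
    have h0 : Module.finrank Kb⟮f⟯ (FF N) = 0 := by exact_mod_cast hsum.symm
    omega

end Fermat.Agent.S15

end
end ZBZ2S15_005_0

/-! ### bundled: `Fermat.Agent.S15.OggLc` -/
section ZBZ2S15_005_1

/-!
# S15, piece OGG (4): functions with cuspidal divisor, leading coefficients

* `IsCuspFn N m f` : `f ≠ 0` and `div(f) = m • ((0) − (∞))`;
* stability under products, inverses, powers, the Fricke involution (`m ↦ -m`) and the Galois
  action; `IsCuspFn N 0 f` iff `f` is a nonzero constant;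
* `oggLc f` : the leading coefficient of the `q`-expansion of `f`; multiplicative, Galois
  equivariant, `oggLc (oggU N) = 1`.
-/

set_option autoImplicit false
set_option linter.style.haveILetI false
set_option linter.unusedSectionVars false

noncomputable section

namespace Fermat.Agent.S15

open ModularCurve AlgebraicCurve
open Fermat.Agent.S24 Fermat.Agent.S28 Fermat.Agent.ES.M

/-! ### Functions with cuspidal divisor -/

/-- `f ≠ 0` and `div(f) = m • ((0) − (∞))`. -/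
def IsCuspFn (N : ℕ) [NeZero N] (m : ℤ) (f : FF N) : Prop :=
  f ≠ 0 ∧ ∀ v : Place Kb (FF N), v.ord f = m * (cuspDiv N : Divisor Kb (FF N)) v

variable {N : ℕ} [NeZero N]

theorem IsCuspFn.mul {m n : ℤ} {f g : FF N} (hf : IsCuspFn N m f) (hg : IsCuspFn N n g) :
    IsCuspFn N (m + n) (f * g) :=
  ⟨mul_ne_zero hf.1 hg.1, fun v => by rw [v.ord_mul hf.1 hg.1, hf.2, hg.2]; ring⟩

theorem IsCuspFn.inv {m : ℤ} {f : FF N} (hf : IsCuspFn N m f) : IsCuspFn N (-m) f⁻¹ :=
  ⟨inv_ne_zero hf.1, fun v => by rw [Place.ord_inv, hf.2]; ring⟩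

theorem isCuspFn_one : IsCuspFn N 0 (1 : FF N) :=
  ⟨one_ne_zero, fun v => by rw [Place.ord_one, zero_mul]⟩

theorem IsCuspFn.pow {m : ℤ} {f : FF N} (hf : IsCuspFn N m f) (e : ℕ) :
    IsCuspFn N (e * m) (f ^ e) := by
  induction e with
  | zero => simpa using isCuspFn_one (N := N)
  | succ e ih =>
    have := ih.mul hf
    rw [pow_succ]
    convert this using 1
    push_cast
    ring

theorem isCuspFn_const {a : Kb} (ha : a ≠ 0) : IsCuspFn N 0 (algebraMap Kb (FF N) a) :=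
  ⟨(map_ne_zero _).mpr ha, fun v => by rw [PlaceAux.ord_algebraMap, zero_mul]⟩

theorem IsCuspFn.exists_const {f : FF N} (hf : IsCuspFn N 0 f) :
    ∃ a : Kb, a ≠ 0 ∧ algebraMap Kb (FF N) a = f := by
  obtain ⟨a, ha⟩ := ogg_const_of_ord_eq_zero N f (fun v => by rw [hf.2, zero_mul])
  refine ⟨a, ?_, ha⟩
  rintro rfl
  rw [map_zero] at ha
  exact hf.1 ha.symm

/-- The modular unit has divisor `-(N - 1) • ((0) − (∞))`. -/
theorem isCuspFn_oggU (hN : N.Prime) : IsCuspFn N (-((N : ℤ) - 1)) (oggU N) := by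
  refine ⟨oggU_ne_zero N, fun v => ?_⟩
  have h := ogg_div N hN v
  have hN1 : ((N - 1 : ℕ) : ℤ) = (N : ℤ) - 1 := by
    have := hN.one_le
    push_cast [Nat.cast_sub this]
    ring
  rw [Place.ord_inv, Finsupp.smul_apply, nsmul_eq_mul, hN1] at h
  linarith

/-- A relation `g • c = 0` gives a function with divisor `g • ((0) − (∞))`. -/
theorem exists_isCuspFn_of_smul_eq_zero {g : ℕ} (hg : g • cuspClass N = 0) :
    ∃ h : FF N, IsCuspFn N g h := by
  have h1 : g • cuspClass N = Pic0.mk (g • cuspDiv N) := rfl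
  rw [h1, Pic0.mk, QuotientAddGroup.eq_zero_iff, AddSubgroup.mem_addSubgroupOf,
    AddSubgroup.coe_nsmul, Divisor.mem_principal] at hg
  obtain ⟨h, h0, hh⟩ := hg
  refine ⟨h, h0, fun v => ?_⟩
  rw [← hh v, Finsupp.smul_apply, nsmul_eq_mul]

/-! ### The Fricke involution -/

theorem fricke_smul_cuspInf : frickeAut N • cuspInf N = cuspZero N := rfl

theorem fricke_smul_cuspDiv :
    frickeAut N • (cuspDiv N : Divisor Kb (FF N)) = -(cuspDiv N : Divisor Kb (FF N)) := by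
  rw [coe_cuspDiv, smul_sub, Divisor.smul_single, Divisor.smul_single, fricke_smul_cuspZero,
    fricke_smul_cuspInf, neg_sub]

theorem cuspDiv_fricke_smul (v : Place Kb (FF N)) :
    (cuspDiv N : Divisor Kb (FF N)) (frickeAut N • v) = -(cuspDiv N : Divisor Kb (FF N)) v := by
  have h := Divisor.smul_apply_smul (frickeAut N) (cuspDiv N : Divisor Kb (FF N)) v
  rw [fricke_smul_cuspDiv, Finsupp.neg_apply] at h
  linarith

theorem IsCuspFn.fricke {m : ℤ} {f : FF N} (hf : IsCuspFn N m f) :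
    IsCuspFn N (-m) (frickeAut N f) := by
  refine ⟨(map_ne_zero (frickeAut N)).mpr hf.1, fun v => ?_⟩
  rw [← fr_ord_frickeAut, hf.2, cuspDiv_fricke_smul]
  ring

/-! ### The Galois action -/

theorem galAct_smul_cuspDiv (σ : Kb ≃ₐ[ℚ] Kb) :
    galAct N σ • (cuspDiv N : Divisor Kb (FF N)) = (cuspDiv N : Divisor Kb (FF N)) := by
  rw [coe_cuspDiv, smul_sub, SemilinearAut.smul_single, SemilinearAut.smul_single,
    galAct_smul_cuspZero, galAct_smul_cuspInf]

theorem cuspDiv_galAct_smul (σ : Kb ≃ₐ[ℚ] Kb) (v : Place Kb (FF N)) :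
    (cuspDiv N : Divisor Kb (FF N)) (galAct N σ • v) = (cuspDiv N : Divisor Kb (FF N)) v := by
  have h := SemilinearAut.divisor_smul_apply_smul (galAct N σ) (cuspDiv N : Divisor Kb (FF N)) v
  rwa [galAct_smul_cuspDiv] at h

theorem IsCuspFn.galSmul {m : ℤ} {f : FF N} (hf : IsCuspFn N m f) (σ : Kb ≃ₐ[ℚ] Kb) :
    IsCuspFn N m (galAct N σ • f) := by
  refine ⟨galAct_smul_ne_zero σ hf.1, fun v => ?_⟩
  have h := SemilinearAut.ord_smul (galAct N σ) ((galAct N σ)⁻¹ • v) f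
  rw [smul_inv_smul] at h
  rw [h, hf.2, galAct_inv, cuspDiv_galAct_smul]

/-! ### Leading coefficients -/

/-- The leading coefficient of the `q`-expansion. -/
def oggLc (f : FF N) : Kb := (f : LaurentSeries Kb).leadingCoeff

theorem oggLc_mul (f g : FF N) : oggLc (f * g) = oggLc f * oggLc g :=
  HahnSeries.leadingCoeff_mul _ _

theorem oggLc_one : oggLc (1 : FF N) = 1 := HahnSeries.leadingCoeff_one

theorem oggLc_pow (f : FF N) (e : ℕ) : oggLc (f ^ e) = oggLc f ^ e := by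
  induction e with
  | zero => simpa using oggLc_one (N := N)
  | succ e ih => rw [pow_succ, oggLc_mul, ih, pow_succ]

theorem oggLc_algebraMap (a : Kb) : oggLc (algebraMap Kb (FF N) a) = a := by
  have h : ((algebraMap Kb (FF N) a : FF N) : LaurentSeries Kb) = HahnSeries.single 0 a := by
    rw [← ModularCurve.algebraMap_laurentSeries_eq_single]
    rfl
  rw [oggLc, h, HahnSeries.leadingCoeff_of_single]

theorem oggLc_ne_zero {f : FF N} (hf : f ≠ 0) : oggLc f ≠ 0 := by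
  rw [oggLc, HahnSeries.leadingCoeff_ne_zero]
  intro h
  exact hf (Subtype.ext h)

theorem oggLc_galAct (σ : Kb ≃ₐ[ℚ] Kb) (f : FF N) : oggLc (galAct N σ • f) = σ (oggLc f) := by
  rw [oggLc, oggLc, HahnSeries.leadingCoeff_eq, HahnSeries.leadingCoeff_eq, order_galAct_smul,
    coe_galAct_smul, coeffMap_coeff]
  rfl

theorem ogg_leadingCoeff_qExpand (k : Type*) [Field k] (p : ℕ) [NeZero p] (x : LaurentSeries k) :
    (qExpand k p x).leadingCoeff = x.leadingCoeff := by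
  rw [HahnSeries.leadingCoeff_eq, HahnSeries.leadingCoeff_eq, order_qExpand, qExpand_coeff_mul]

theorem ogg_leadingCoeff_uS (k : Type*) [Field k] (p : ℕ) [NeZero p] :
    (uS k p).leadingCoeff = 1 := by
  rw [uS_eq_qExpand_mul, HahnSeries.leadingCoeff_mul, ogg_leadingCoeff_qExpand,
    ← HahnSeries.leadingCoeff_mul, deltaS_mul_deltaInvS, HahnSeries.leadingCoeff_one]

theorem oggLc_oggU : oggLc (oggU N) = 1 := ogg_leadingCoeff_uS Kb N

end Fermat.Agent.S15

end
end ZBZ2S15_005_1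

/-! ### bundled: `Fermat.Agent.S15.OggOrder` -/
section ZBZ2S15_005_2

/-!
# S15, piece OGG (5): the order of the cuspidal class (Ogg's theorem, lower bound)

For a prime `N` and `c = [(0) − (∞)] ∈ J₀(N)`:

* `ogg_dvd_twelve` : if `g • c = 0` and `e * g = N - 1` then `e ∣ 12`;
* `ogg_cuspClass_ne_zero` : `c ≠ 0` unless `N - 1 ∣ 12`;
* `ogg_dvd_of_smul_eq_zero` : `r • c = 0 → (N - 1) / gcd (N - 1, 12) ∣ r`;
* `ogg_stmtCusp` : for `N ∉ {2, 3, 5, 7, 13}` : `c ≠ 0 ∧ (N - 1) • c = 0`.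

Proof (Ogg): let `div(h) = g • ((0) − (∞))`, `h` with leading coefficient `1` at `∞`.  Then
`h ^ e · u_N = 1` (no zeros or poles, leading coefficient `1`), `h` is `G_ℚ`-invariant (same
reason), `h · w_N(h) = μ` is a constant, fixed by `G_ℚ`, hence rational, and
`μ ^ e = N ^ 12` by `w_N(u_N) · u_N = N⁻¹²`.  Compare `N`-adic valuations.
-/

set_option autoImplicit false
set_option linter.style.haveILetI false
set_option linter.unusedSectionVars false

noncomputable section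

namespace Fermat.Agent.S15

open ModularCurve AlgebraicCurve
open Fermat.Agent.S24 Fermat.Agent.S28 Fermat.Agent.ES.M

variable {N : ℕ} [NeZero N]

/-- `ℚ̄/ℚ` is Galois (for the `Algebra ℚ ℚ̄` instance found by unification). -/
theorem ogg_isGalois : IsGalois ℚ Kb := by
  have h1 : @IsGalois ℚ _ (AlgebraicClosure ℚ) _ (AlgebraicClosure.instAlgebra ℚ) :=
    inferInstance
  convert h1
  exact Subsingleton.elim _ _

/-- Normalisation of the leading coefficient. -/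
theorem exists_isCuspFn_lc_one {m : ℤ} {h : FF N} (hh : IsCuspFn N m h) :
    ∃ h' : FF N, IsCuspFn N m h' ∧ oggLc h' = 1 := by
  refine ⟨algebraMap Kb (FF N) (oggLc h)⁻¹ * h, ?_, ?_⟩
  · have := (isCuspFn_const (N := N) (inv_ne_zero (oggLc_ne_zero hh.1))).mul hh
    rwa [zero_add] at this
  · rw [oggLc_mul, oggLc_algebraMap, inv_mul_cancel₀ (oggLc_ne_zero hh.1)]

/-- Two functions with the same cuspidal divisor and the same leading coefficient are equal. -/
theorem IsCuspFn.eq_of_lc {m : ℤ} {f g : FF N} (hf : IsCuspFn N m f) (hg : IsCuspFn N m g)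
    (h : oggLc f = oggLc g) : f = g := by
  have h1 := hf.mul hg.inv
  rw [add_neg_cancel] at h1
  obtain ⟨a, -, ha⟩ := h1.exists_const
  have h2 : f = algebraMap Kb (FF N) a * g := by
    rw [ha, mul_assoc, inv_mul_cancel₀ hg.1, mul_one]
  have h3 : oggLc f = a * oggLc g := by
    conv_lhs => rw [h2]
    rw [oggLc_mul, oggLc_algebraMap]
  have h4 : a = 1 := by
    rw [h] at h3
    have := mul_right_cancel₀ (oggLc_ne_zero hg.1) (h3.symm.trans (one_mul _).symm)
    exact this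
  rw [h2, h4, map_one, one_mul]

/-- **Ogg**: if `g • c = 0` and `e * g = N - 1`, then `e ∣ 12`. -/
theorem ogg_dvd_twelve (hN : N.Prime) {g e : ℕ} (hge : e * g = N - 1)
    (hg : g • cuspClass N = 0) : e ∣ 12 := by
  obtain ⟨h₀, hh₀⟩ := exists_isCuspFn_of_smul_eq_zero hg
  obtain ⟨h, hh, hlc⟩ := exists_isCuspFn_lc_one hh₀
  have hgeZ : (e : ℤ) * (g : ℤ) = (N : ℤ) - 1 := by
    have h1 := hN.one_le
    have h2 : ((e * g : ℕ) : ℤ) = ((N - 1 : ℕ) : ℤ) := by rw [hge]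
    push_cast [Nat.cast_sub h1] at h2
    linarith
  -- `h ^ e * u = 1`
  have h1 : IsCuspFn N 0 (h ^ e * oggU N) := by
    have := (hh.pow e).mul (isCuspFn_oggU hN)
    rwa [hgeZ, add_neg_cancel] at this
  have e1 : h ^ e * oggU N = 1 :=
    h1.eq_of_lc isCuspFn_one (by
      rw [oggLc_mul, oggLc_pow, hlc, one_pow, oggLc_oggU, one_mul, oggLc_one])
  -- `h` is Galois invariant
  have hσ : ∀ σ : Kb ≃ₐ[ℚ] Kb, galAct N σ • h = h := fun σ =>
    (hh.galSmul σ).eq_of_lc hh (by rw [oggLc_galAct, hlc, map_one])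
  -- the constant `μ = h · w(h)`
  have h2 : IsCuspFn N 0 (h * frickeAut N h) := by
    have := hh.mul hh.fricke
    rwa [add_neg_cancel] at this
  obtain ⟨μ, hμ0, hμ⟩ := h2.exists_const
  have hμσ : ∀ σ : Kb ≃ₐ[ℚ] Kb, σ μ = μ := by
    intro σ
    have h3 : galAct N σ • (h * frickeAut N h) = h * frickeAut N h := by
      rw [smul_mul', ← fricke_galAct, hσ σ]
    rw [← hμ, galAct_algebraMap] at h3
    exact (algebraMap Kb (FF N)).injective h3
  haveI := ogg_isGalois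
  obtain ⟨m, hm⟩ := (InfiniteGalois.mem_range_algebraMap_iff_fixed (k := ℚ) (K := Kb) μ).mpr hμσ
  -- `μ ^ e = N ^ 12`
  have e2 : frickeAut N h ^ e * frickeAut N (oggU N) = 1 := by
    rw [← map_pow, ← map_mul, e1, map_one]
  have e3 : algebraMap Kb (FF N) (μ ^ e * ((N : Kb) ^ 12)⁻¹) = 1 := by
    rw [map_mul, map_pow, hμ, ← ogg_fricke, mul_pow]
    calc h ^ e * frickeAut N h ^ e * (frickeAut N (oggU N) * oggU N)
        = (h ^ e * oggU N) * (frickeAut N h ^ e * frickeAut N (oggU N)) := by ring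
      _ = 1 := by rw [e1, e2, one_mul]
  have hN0 : (N : Kb) ≠ 0 := Nat.cast_ne_zero.mpr hN.ne_zero
  have e4 : μ ^ e = (N : Kb) ^ 12 := by
    have h5 := (algebraMap Kb (FF N)).injective (e3.trans (map_one _).symm)
    exact (mul_inv_eq_one₀ (pow_ne_zero 12 hN0)).mp h5
  have e5 : m ^ e = (N : ℚ) ^ 12 := by
    apply (algebraMap ℚ Kb).injective
    rw [map_pow, hm, e4, map_pow, map_natCast]
  -- valuations
  haveI := Fact.mk hN
  have hNQ : (N : ℚ) ≠ 0 := Nat.cast_ne_zero.mpr hN.ne_zero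
  have hm0 : m ≠ 0 := by
    rintro rfl
    rw [map_zero] at hm
    exact hμ0 hm.symm
  have e6 := congrArg (padicValRat N) e5
  rw [padicValRat.pow m, padicValRat.pow (N : ℚ), padicValRat.self hN.one_lt, mul_one] at e6
  exact Int.natCast_dvd_natCast.mp ⟨padicValRat N m, by push_cast at e6 ⊢; linarith⟩

/-- The cuspidal class is nonzero unless `N - 1 ∣ 12`. -/
theorem ogg_cuspClass_ne_zero (hN : N.Prime) (h12 : ¬ (N - 1 ∣ 12)) : cuspClass N ≠ 0 := by
  intro h
  apply h12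
  exact ogg_dvd_twelve hN (g := 1) (e := N - 1) (by ring) (by rw [one_smul]; exact h)

/-- **Ogg (lower bound)**: the order of the cuspidal class is divisible by
`(N - 1) / gcd (N - 1, 12)`. -/
theorem ogg_dvd_of_smul_eq_zero (hN : N.Prime) {r : ℕ} (hr : r • cuspClass N = 0) :
    eisensteinNumerator N ∣ r := by
  have h1 : addOrderOf (cuspClass N) ∣ r := addOrderOf_dvd_of_nsmul_eq_zero hr
  have h2 : addOrderOf (cuspClass N) ∣ N - 1 := addOrderOf_dvd_of_nsmul_eq_zero (ogg_torsion N hN)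
  have h3 : addOrderOf (cuspClass N) ∣ Nat.gcd r (N - 1) := Nat.dvd_gcd h1 h2
  have hg : Nat.gcd r (N - 1) • cuspClass N = 0 := addOrderOf_dvd_iff_nsmul_eq_zero.mp h3
  have hgd : Nat.gcd r (N - 1) ∣ N - 1 := Nat.gcd_dvd_right _ _
  have he : (N - 1) / Nat.gcd r (N - 1) ∣ 12 :=
    ogg_dvd_twelve hN (Nat.div_mul_cancel hgd) hg
  have he' : (N - 1) / Nat.gcd r (N - 1) ∣ Nat.gcd (N - 1) 12 :=
    Nat.dvd_gcd (Nat.div_dvd_of_dvd hgd) he
  have h4 : (N - 1) / Nat.gcd (N - 1) 12 ∣ (N - 1) / ((N - 1) / Nat.gcd r (N - 1)) :=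
    Nat.div_dvd_div_left (Nat.gcd_dvd_left _ _) he'
  have hN1 : N - 1 ≠ 0 := by have := hN.two_le; omega
  rw [Nat.div_div_self hgd hN1] at h4
  exact h4.trans (Nat.gcd_dvd_left _ _)

/-- **OGG-lite**: for a prime `N ∉ {2, 3, 5, 7, 13}` the cuspidal class is a nonzero torsion
class. -/
theorem ogg_stmtCusp (hN : N.Prime) (h : N ∉ ({2, 3, 5, 7, 13} : Finset ℕ)) :
    cuspClass N ≠ 0 ∧ (N - 1) • cuspClass N = 0 := by
  refine ⟨ogg_cuspClass_ne_zero hN ?_, ogg_torsion N hN⟩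
  intro h12
  have h1 : N - 1 ≤ 12 := Nat.le_of_dvd (by norm_num) h12
  have h2 : N ≤ 13 := by omega
  have h3 := hN.two_le
  apply h
  interval_cases N <;> first | (exfalso; revert h12; decide) | (exfalso; revert hN; decide) | simp

end Fermat.Agent.S15

end
end ZBZ2S15_005_2

/-! ### bundled: `Fermat.Agent.S15.OggCusp` -/
section ZBZ2S15_005_3

/-!
# S15, piece OGG: the interface statement `StmtCusp` of `S15/Plan.lean`
-/

set_option autoImplicit false

namespace Fermat.Agent.S15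

/-- **OGG-lite** (`StmtCusp` of `S15/Plan.lean`): for a prime `p ∉ {2, 3, 5, 7, 13}` the cuspidal
class `c = [(0) − (∞)] ∈ J₀(p)` is nonzero and killed by `p - 1`. -/
theorem stmtCusp_proved : StmtCusp := fun _ _ hp => ogg_stmtCusp hp.1 hp.2

end Fermat.Agent.S15


end ZBZ2S15_005_3

/-! ### bundled: `Fermat.Agent.S15.N3FOne` -/
section ZBZ2S15_005_4

/-!
# S15 / N3-F (helper71), part 2: the product formula `N¹² Δ(Nτ) ∏_k R_{0,k}(τ)² = Δ(τ)^N`

`n3fH_eq_one : n3fH N τ = 1` for an odd prime `N`.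

* `n3fo_mem` : a Laurent series over `ℚ̄` whose image over `ℂ` is the expansion of a modular
  function of level `N` lies in `F_N`;
* `n3fo_const` : an element of `F_N` which is the expansion of a modular function without zeros
  on `ℍ` and has order `0` at `∞` is a constant (the degree of a principal divisor is `0` and the
  only places over `j = ∞` are the two cusps);
* `n3foX` : the expansion of `n3fH`, with rational coefficients by `stmtN3FQ`.
-/

set_option autoImplicit false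
set_option linter.unusedSectionVars false
set_option linter.unusedVariables false
set_option linter.style.longLine false
set_option linter.unusedSimpArgs false
set_option linter.style.haveILetI false

noncomputable section

namespace Fermat.Agent.S15

open UpperHalfPlane PeriodPair Complex Filter Topology ModularForm EisensteinSeries ModularCurve
open AlgebraicCurve
open Fermat.Agent.S23 Fermat.Agent.S24 Fermat.Agent.S28 Fermat.Agent.ES.I2 Fermat.Agent.INJ.HM
open Fermat.Agent.ES.M Fermat.Agent.W1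
open scoped Real MatrixGroups Manifold

attribute [local instance] algKbC

local notation "Δ" => ModularForm.discriminant

/-! ### membership in `F_N` -/

theorem n3fo_mem (N : ℕ) [NeZero N] {h : ℍ → ℂ} (hmod : IsModFun N h) {x : LaurentSeries Kb}
    (hx : coeffMap embC x = laurentOf h) : x ∈ modularFunctionFieldBar N := by
  apply Fermat.Agent.ES.DescentInj.mem_laurentBaseChange_of_coeffMap_mem (K := Kb) (L := ℂ)
  apply Fermat.Agent.ES.R.fullC_le_laurentBaseChange ℂ N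
  have e : coeffMap (algebraMap Kb ℂ) x = laurentOf h := hx
  rw [e]
  exact Fermat.Agent.ES.RC.rc_laurentOf_mem_full N hmod

/-! ### a modular function without zeros and poles is a constant -/

theorem n3fo_ne_zero (N : ℕ) [NeZero N] {h : ℍ → ℂ} (hmod : IsModFun N h)
    (hne : ∀ τ, h τ ≠ 0) (f : FF N)
    (hf : coeffMap embC (f : LaurentSeries Kb) = laurentOf h) : f ≠ 0 := by
  rintro rfl
  have h0 : laurentOf h = 0 := by
    rw [← hf]
    exact map_zero (coeffMap embC)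
  have h1 := (laurentOf_eq_zero_iff hmod.isMerInf).1 h0
  exact hne UpperHalfPlane.I (congrFun h1 _)

theorem n3fo_ord_point (N : ℕ) [NeZero N] {h : ℍ → ℂ} (hmod : IsModFun N h)
    (hne : ∀ τ, h τ ≠ 0) (f : FF N)
    (hf : coeffMap embC (f : LaurentSeries Kb) = laurentOf h) (P : Place Kb (FF N))
    (hP : 0 ≤ P.ord (jF N)) : P.ord f = 0 := by
  obtain ⟨τ, c₀, hτ, rfl⟩ := mfrint_exists_point P hP
  have h1 : IsModFun N (fun _ : ℍ => (1 : ℂ)) := isModFun_const N 1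
  have hL0 : laurentOf h ≠ 0 := fun h0 =>
    hne UpperHalfPlane.I (congrFun ((laurentOf_eq_zero_iff hmod.isMerInf).1 h0) _)
  have a1 : 0 ≤ (modPlace N τ c₀ hτ).ord f :=
    mfrint_ord_nonneg hτ hmod h1 (by rw [laurentOf_const, map_one, mul_one, hf]) one_ne_zero
  have a2 : 0 ≤ (modPlace N τ c₀ hτ).ord f⁻¹ := by
    refine mfrint_ord_nonneg hτ h1 hmod ?_ (hne τ)
    show coeffMap embC ((f : LaurentSeries Kb)⁻¹) * laurentOf h = _
    rw [map_inv₀, hf, inv_mul_cancel₀ hL0, laurentOf_const, map_one]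
  rw [Place.ord_inv] at a2
  omega

theorem n3fo_const (N : ℕ) [NeZero N] (hN : N.Prime) {h : ℍ → ℂ} (hmod : IsModFun N h)
    (hne : ∀ τ, h τ ≠ 0) (f : FF N)
    (hf : coeffMap embC (f : LaurentSeries Kb) = laurentOf h)
    (hord : (f : LaurentSeries Kb).order = 0) : ∃ a : Kb, algebraMap Kb (FF N) a = f := by
  classical
  have hf0 : f ≠ 0 := n3fo_ne_zero N hmod hne f hf
  have hInf : (cuspInf N).ord f = 0 := by rw [cuspInf_ord hf0, hord]
  have hother : ∀ v : Place Kb (FF N), v ≠ cuspInf N → v ≠ cuspZero N → v.ord f = 0 := by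
    intro v h1 h2
    apply n3fo_ord_point N hmod hne f hf
    by_contra hlt
    push Not at hlt
    rcases ogg_pole_cases N hN v hlt with h | h
    · exact h1 h
    · exact h2 h
  have hZero : (cuspZero N).ord f = 0 := by
    haveI := Fermat.Agent.ES.H.hasPrincipalDivisors_FF N
    obtain ⟨D, hD, hdeg⟩ := HasPrincipalDivisors.exists_divisor (K := Kb) f hf0
    have hDeq : D = Finsupp.single (cuspZero N) (D (cuspZero N)) := by
      ext v
      by_cases hv2 : v = cuspZero N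
      · subst hv2
        rw [Finsupp.single_eq_same]
      · rw [Finsupp.single_eq_of_ne hv2, hD]
        by_cases hv1 : v = cuspInf N
        · subst hv1
          exact hInf
        · exact hother v hv1 hv2
    rw [hDeq, Divisor.degree_single, cuspZero_deg, hD] at hdeg
    simpa using hdeg
  apply ogg_const_of_ord_eq_zero
  intro v
  by_cases hv1 : v = cuspInf N
  · subst hv1
    exact hInf
  · by_cases hv2 : v = cuspZero N
    · subst hv2
      exact hZero
    · exact hother v hv1 hv2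

/-! ### the expansion of `n3fH` -/

/-- `N¹² · u_N · Y · Δ^{-(N-1)}` over a field `K` of characteristic `0` -/
def n3foX (K : Type*) [Field K] [Algebra ℚ K] (N : ℕ) [NeZero N] (Y : PowerSeries ℚ) :
    LaurentSeries K :=
  HahnSeries.C ((N : K) ^ 12) * uS K N *
    (HahnSeries.ofPowerSeries ℤ K (Y.map (algebraMap ℚ K)) * deltaInvS K ^ (N - 1))

theorem n3fo_coeffMap_deltaInvS {K L : Type*} [Field K] [Field L] (ι : K →+* L) :
    coeffMap ι (deltaInvS K) = deltaInvS L := by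
  have h1 : coeffMap ι (deltaInvS K) * coeffMap ι (deltaS K) = 1 := by
    rw [← map_mul, deltaInvS_mul_deltaS, map_one]
  rw [coeffMap_deltaS] at h1
  rw [deltaInvS_eq_inv L]
  exact eq_inv_of_mul_eq_one_left h1

theorem n3fo_coeffMap_C {K L : Type*} [Field K] [Field L] (ι : K →+* L) (a : K) :
    coeffMap ι (HahnSeries.C a : LaurentSeries K) = HahnSeries.C (ι a) := by
  rw [HahnSeries.C_apply, coeffMap_single, HahnSeries.C_apply]

theorem n3fo_coeffMap_X {K L : Type*} [Field K] [Field L] [Algebra ℚ K] [Algebra ℚ L]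
    (ι : K →+* L) (N : ℕ) [NeZero N] (Y : PowerSeries ℚ) :
    coeffMap ι (n3foX K N Y) = n3foX L N Y := by
  have e : (Y.map (algebraMap ℚ K)).map ι = Y.map (algebraMap ℚ L) := by
    ext n
    simp only [PowerSeries.coeff_map]
    exact RingHom.congr_fun (Subsingleton.elim (ι.comp (algebraMap ℚ K)) (algebraMap ℚ L)) _
  unfold n3foX
  rw [map_mul, map_mul, map_mul, map_pow (coeffMap ι), coeffMap_uS, n3fo_coeffMap_deltaInvS,
    coeffMap_ofPowerSeries, e, n3fo_coeffMap_C, map_pow, map_natCast]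

/-- the expansion of `n3fH` -/
theorem n3fo_laurentOf (N : ℕ) [NeZero N] (Y : PowerSeries ℚ)
    (hY : Y.map (algebraMap ℚ ℂ) = qExpansion 1 (n3fG N)) :
    laurentOf (n3fH N) = n3foX ℂ N Y := by
  have hN1 : 1 ≤ N := Nat.one_le_iff_ne_zero.2 (NeZero.ne N)
  have hg : IsHPB (fun z => (fun z => n3fG N z / Δ z ^ (N - 1)) z * Δ z ^ (N - 1)) := by
    have e : (fun z => (fun z => n3fG N z / Δ z ^ (N - 1)) z * Δ z ^ (N - 1)) = n3fG N := by
      funext z
      exact div_mul_cancel₀ _ (pow_ne_zero _ (discriminant_ne_zero z))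
    rw [e]
    exact n3fG_isHPB N
  have hgM : IsMerInf (fun z => n3fG N z / Δ z ^ (N - 1)) := ⟨N - 1, hg⟩
  have hu : IsMerInf (fun z => Δ (scaleN N z) / Δ z) := (isModFun_unit N).isMerInf
  have hc : IsMerInf (fun _ : ℍ => ((N : ℂ) ^ 12)) := isMerInf_const _
  have e1 : n3fH N = (fun _ : ℍ => ((N : ℂ) ^ 12)) * (fun z => Δ (scaleN N z) / Δ z) *
      (fun z => n3fG N z / Δ z ^ (N - 1)) := by
    funext z
    simp only [Pi.mul_apply, n3fH]
    have hD := discriminant_ne_zero z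
    have e2 : Δ z ^ N = Δ z * Δ z ^ (N - 1) := by
      rw [← pow_succ', Nat.sub_add_cancel hN1]
    rw [e2]
    field_simp
  rw [e1, laurentOf_mul (hc.mul hu) hgM, laurentOf_mul hc hu, laurentOf_const,
    laurentOf_unit_eq_uS, laurentOf_eq hg, n3foX, hY, deltaInvS_complex, inv_pow]
  congr 3
  congr 1
  funext z
  exact div_mul_cancel₀ _ (pow_ne_zero _ (discriminant_ne_zero z))

/-! ### order and leading coefficient -/

theorem n3fo_order_nonneg {K : Type*} [Field K] (p : PowerSeries K) :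
    0 ≤ (HahnSeries.ofPowerSeries ℤ K p).order := by
  by_contra hlt
  push Not at hlt
  have h1 := ModularCurve.ofPowerSeries_coeff_of_neg p hlt
  rw [HahnSeries.coeff_order_eq_zero] at h1
  rw [h1, HahnSeries.order_zero] at hlt
  exact lt_irrefl _ hlt

theorem n3fo_order_zero {K : Type*} [Field K] {p : PowerSeries K}
    (h0 : PowerSeries.coeff 0 p ≠ 0) : (HahnSeries.ofPowerSeries ℤ K p).order = 0 := by
  refine le_antisymm (HahnSeries.order_le_of_coeff_ne_zero ?_) (n3fo_order_nonneg p)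
  have := HahnSeries.ofPowerSeries_apply_coeff (Γ := ℤ) p 0
  rw [Nat.cast_zero] at this
  rwa [this]

theorem n3fo_X_mul (K : Type*) [Field K] [Algebra ℚ K] (N : ℕ) [NeZero N] (Y : PowerSeries ℚ) :
    n3foX K N Y * deltaS K ^ (N - 1) =
      HahnSeries.C ((N : K) ^ 12) * uS K N *
        HahnSeries.ofPowerSeries ℤ K (Y.map (algebraMap ℚ K)) := by
  have h : deltaInvS K ^ (N - 1) * deltaS K ^ (N - 1) = 1 := by
    rw [← mul_pow, deltaInvS_mul_deltaS, one_pow]
  rw [n3foX, mul_assoc, mul_assoc _ (deltaInvS K ^ (N - 1)), h, mul_one]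

theorem n3fo_lc_deltaS (K : Type*) [Field K] : (deltaS K).leadingCoeff = 1 := by
  rw [HahnSeries.leadingCoeff_eq, order_deltaS, coeff_deltaS_one]

theorem n3fo_lc_ofPowerSeries {K : Type*} [Field K] {p : PowerSeries K}
    (h0 : PowerSeries.coeff 0 p ≠ 0) :
    (HahnSeries.ofPowerSeries ℤ K p).leadingCoeff = PowerSeries.coeff 0 p := by
  rw [HahnSeries.leadingCoeff_eq, n3fo_order_zero h0]
  have := HahnSeries.ofPowerSeries_apply_coeff (Γ := ℤ) p 0
  rw [Nat.cast_zero] at this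
  exact this

theorem n3fo_X_ne_zero (K : Type*) [Field K] [Algebra ℚ K] [CharZero K] (N : ℕ) [NeZero N]
    (Y : PowerSeries ℚ) (hY0 : PowerSeries.constantCoeff Y ≠ 0) : n3foX K N Y ≠ 0 := by
  have hN0 : ((N : K) ^ 12) ≠ 0 := pow_ne_zero _ (Nat.cast_ne_zero.2 (NeZero.ne N))
  have hY1 : PowerSeries.coeff 0 (Y.map (algebraMap ℚ K)) ≠ 0 := by
    rw [PowerSeries.coeff_map, PowerSeries.coeff_zero_eq_constantCoeff_apply]
    exact (map_ne_zero (algebraMap ℚ K)).2 hY0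
  have hY2 : HahnSeries.ofPowerSeries ℤ K (Y.map (algebraMap ℚ K)) ≠ 0 := by
    intro h
    apply hY1
    have := HahnSeries.ofPowerSeries_injective (Γ := ℤ) (R := K)
      (h.trans (map_zero (HahnSeries.ofPowerSeries ℤ K)).symm)
    rw [this, map_zero]
  unfold n3foX
  refine mul_ne_zero (mul_ne_zero ?_ (uS_ne_zero N K))
    (mul_ne_zero hY2 (pow_ne_zero _ (deltaInvS_ne_zero K)))
  rw [HahnSeries.C_apply]
  exact HahnSeries.single_ne_zero hN0

theorem n3fo_X_order (K : Type*) [Field K] [Algebra ℚ K] [CharZero K] (N : ℕ) [NeZero N]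
    (Y : PowerSeries ℚ) (hY0 : PowerSeries.constantCoeff Y ≠ 0) : (n3foX K N Y).order = 0 := by
  have hN0 : ((N : K) ^ 12) ≠ 0 := pow_ne_zero _ (Nat.cast_ne_zero.2 (NeZero.ne N))
  have hN1 : 1 ≤ N := Nat.one_le_iff_ne_zero.2 (NeZero.ne N)
  have hY1 : PowerSeries.coeff 0 (Y.map (algebraMap ℚ K)) ≠ 0 := by
    rw [PowerSeries.coeff_map, PowerSeries.coeff_zero_eq_constantCoeff_apply]
    exact (map_ne_zero (algebraMap ℚ K)).2 hY0
  have hY2 : HahnSeries.ofPowerSeries ℤ K (Y.map (algebraMap ℚ K)) ≠ 0 := by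
    intro h
    apply hY1
    have := HahnSeries.ofPowerSeries_injective (Γ := ℤ) (R := K)
      (h.trans (map_zero (HahnSeries.ofPowerSeries ℤ K)).symm)
    rw [this, map_zero]
  have hC : (HahnSeries.C ((N : K) ^ 12) : LaurentSeries K) ≠ 0 := by
    rw [HahnSeries.C_apply]
    exact HahnSeries.single_ne_zero hN0
  have h := congrArg HahnSeries.order (n3fo_X_mul K N Y)
  rw [HahnSeries.order_mul (n3fo_X_ne_zero K N Y hY0) (pow_ne_zero _ (deltaS_ne_zero K)),
    HahnSeries.order_mul (mul_ne_zero hC (uS_ne_zero N K)) hY2,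
    HahnSeries.order_mul hC (uS_ne_zero N K), HahnSeries.order_C, order_uS,
    n3fo_order_zero hY1, Fermat.Agent.ES.DescentInj.order_pow', order_deltaS] at h
  have e : ((N - 1 : ℕ) : ℤ) = (N : ℤ) - 1 := by
    push_cast [Nat.cast_sub hN1]
    ring
  rw [nsmul_eq_mul, e] at h
  linarith

theorem n3fo_X_lc (K : Type*) [Field K] [Algebra ℚ K] [CharZero K] (N : ℕ) [NeZero N]
    (Y : PowerSeries ℚ) (hY0 : PowerSeries.constantCoeff Y ≠ 0) :
    (n3foX K N Y).leadingCoeff = (N : K) ^ 12 * algebraMap ℚ K (PowerSeries.constantCoeff Y) := by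
  have hY1 : PowerSeries.coeff 0 (Y.map (algebraMap ℚ K)) ≠ 0 := by
    rw [PowerSeries.coeff_map, PowerSeries.coeff_zero_eq_constantCoeff_apply]
    exact (map_ne_zero (algebraMap ℚ K)).2 hY0
  have h := congrArg HahnSeries.leadingCoeff (n3fo_X_mul K N Y)
  have hp : ∀ n : ℕ, (deltaS K ^ n).leadingCoeff = 1 := by
    intro n
    induction n with
    | zero => rw [pow_zero, HahnSeries.leadingCoeff_one]
    | succ n ih => rw [pow_succ, HahnSeries.leadingCoeff_mul, ih, n3fo_lc_deltaS, mul_one]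
  rw [HahnSeries.leadingCoeff_mul, HahnSeries.leadingCoeff_mul, HahnSeries.leadingCoeff_mul,
    hp, mul_one, ogg_leadingCoeff_uS, mul_one, n3fo_lc_ofPowerSeries hY1, HahnSeries.C_apply,
    HahnSeries.leadingCoeff_of_single, PowerSeries.coeff_map,
    PowerSeries.coeff_zero_eq_constantCoeff_apply] at h
  exact h

/-! ### the product formula -/

/-- **N3-F, product formula**: `N¹² Δ(Nτ) ∏_{k=1}^{N-1} R_{0,k}(τ)² = Δ(τ)^N` for an odd prime
`N`. -/
theorem n3fH_eq_one (N : ℕ) [NeZero N] (hN : N.Prime) (hodd : N ≠ 2) (τ : ℍ) : n3fH N τ = 1 := by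
  obtain ⟨Y, hY, hY0⟩ := stmtN3FQ N hN hodd
  have hNQ : ((N : ℚ) ^ 12) ≠ 0 := pow_ne_zero _ (Nat.cast_ne_zero.2 (NeZero.ne N))
  have hYc : PowerSeries.constantCoeff Y ≠ 0 := by
    intro h
    rw [h, zero_mul] at hY0
    exact zero_ne_one hY0
  have hmod := isModFun_n3fH N hN
  have hL : coeffMap embC (n3foX Kb N Y) = laurentOf (n3fH N) := by
    rw [n3fo_coeffMap_X, n3fo_laurentOf N Y (by rw [hY, n3f_qExp_G])]
  have hmem := n3fo_mem N hmod hL
  obtain ⟨a, ha⟩ := n3fo_const N hN hmod (n3fH_ne_zero N hN hodd) ⟨n3foX Kb N Y, hmem⟩ hL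
    (n3fo_X_order Kb N Y hYc)
  have ha1 : a = 1 := by
    have h1 := oggLc_algebraMap (N := N) a
    rw [ha] at h1
    rw [← h1]
    show (n3foX Kb N Y).leadingCoeff = 1
    rw [n3fo_X_lc Kb N Y hYc]
    have h2 := congrArg (algebraMap ℚ Kb) hY0
    rw [map_mul, map_pow, map_natCast, map_one, mul_comm] at h2
    exact h2
  have hX : n3foX Kb N Y = 1 := by
    have h1 := congrArg (fun z : FF N => (z : LaurentSeries Kb)) ha
    simp only at h1
    rw [← h1, ha1, map_one]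
    rfl
  have hfun : n3fH N = fun _ => (1 : ℂ) := by
    apply laurentOf_injective hmod.isMerInf (isMerInf_const 1)
    rw [← hL, hX, map_one, laurentOf_const, map_one]
  exact congrFun hfun τ

end Fermat.Agent.S15

end
end ZBZ2S15_005_4

/-! ### bundled: `Fermat.Agent.S15.LocDivBridge` -/
section ZBZ2S15_005_5

/-!
# S15 / LOCDIV: the bridge `Π₀(x)` non-unit `⇒ j_p(x) ∉ A`

`ld_bridge` : at the level `p ℓ'` with a package `R`; `f` a detecting function on `X₀(p)` (unit at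
the cusp `∞`, zero at the cusp `0`, poles where `j ∈ A`), `x` a place of `F_p` with `j(x) ∉ A` and
`f(x)` a non-unit.  Then `x` is not a pole of `j_p` and `j_p(x) ∉ A`.

Proof: a place `w` over `x` reduces to the reduction of a cusp `c'` over the cusp `0`; the function
`G = j_p^p / j` has the value `1` at the cusp `0` and its poles (zeros of `j`, the cusp `∞`) do not
reduce to `r(c')`, so `G(x) = j_p(x)^p / j(x)` is a unit of `A`.
-/

set_option autoImplicit false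
set_option linter.unusedSectionVars false
set_option linter.style.haveILetI false
set_option synthInstance.maxHeartbeats 400000
set_option maxHeartbeats 1600000

noncomputable section

namespace Fermat.Agent.S15.LD

open ModularCurve AlgebraicCurve AlgebraicCurve.SemilinearAut
open Fermat.Agent.S24 Fermat.Agent.ES Fermat.Agent.ES.M Fermat.Agent.W1 Fermat.Agent.STB
  Fermat.Agent.S15 Fermat.Agent.DEU

variable {p ℓ' : ℕ} [NeZero p] [NeZero ℓ']

theorem ldφ_jdF : ldφ p ℓ' (jdF p p dvd_rfl) = jdF (p * ℓ') p (dvd_mul_right p ℓ') :=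
  Subtype.ext (ldφ_coe p ℓ' _)

/-- the poles of `j_p` are poles of `j` -/
theorem ld_pole_jdF {N : ℕ} [NeZero N] (P : Place Kb (FF N)) (d : ℕ) (hd : d ∣ N)
    (h : P.ord (jdF N d hd) < 0) : P.ord (jF N) < 0 := by
  by_contra hn
  have hj : jF N ∈ P.toValuationSubring := ge_mem_of_not_ord_neg P hn
  have := ge_ord_nonneg_of_mem P (fr_jdF_mem P.toValuationSubring hj d hd)
  omega

/-- **the bridge** -/
theorem ld_bridge (hp : p.Prime) (hℓ' : ℓ'.Prime) (hℓ'p : ¬ ℓ' ∣ p)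
    {A : ValuationSubring Kb} {v : ℕ} (hv : v.Prime) (hA : A.LiesOverPrime v)
    (hvN : ¬ v ∣ p * ℓ') {g : ℕ}
    {R : PRData Kb (FF (p * ℓ')) (kA A) ↥(modularFunctionFieldFullC (kA A) (p * ℓ')) A}
    (hP : LdPkg (p * ℓ') A g R)
    (f : FF p) (hf : ldφ p ℓ' f ∈ R.O) (x : Place Kb (FF p)) (a c c₀ : Kb)
    (ha : a ∉ A) (hxa : HasValueAt x (jF p) a) (hxc : HasValueAt x f c)
    (hc : c ∈ A.nonunits)
    (hpoles_f : ∀ P : Place Kb (FF p), P.ord f < 0 → ∃ a₀ : A, HasValueAt P (jF p) (a₀ : Kb))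
    (hfinf : HasValueAt (cuspInf p) f c₀) (hc₀ : c₀ ∉ A.nonunits)
    (hfzero : HasValueAt (cuspZero p) f 0) :
    ∃ b : Kb, HasValueAt x (jdF p p dvd_rfl) b ∧ b ∉ A := by
  haveI := H.hasPrincipalDivisors_FF (p * ℓ')
  have hR := hP.modPR.isPR
  have hn := hP.modPR.nice
  have hnk := hP.modPR.nice_k
  have hφ := ldφ_integral p ℓ'
  have hjmem : jF (p * ℓ') ∈ R.O := hP.modPR.good.1
  have ha0 : a ≠ 0 := fun h => ha (h ▸ A.zero_mem)
  -- poles of `φ f` do not meet poles of `j`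
  have hno_f : ∀ P' c' : Place Kb (FF (p * ℓ')), P'.ord (ldφ p ℓ' f) < 0 →
      c'.ord (jF (p * ℓ')) < 0 → R.r P' ≠ R.r c' := by
    intro P' c' hP' hc'
    obtain ⟨a₀, ha₀⟩ := hpoles_f _ ((ld_ord_map_neg_iff (ldφ p ℓ') hφ P' f).mp hP')
    have h1 : HasValueAt P' (jF (p * ℓ')) (a₀ : Kb) := by
      rw [← ldφ_jF p ℓ']
      exact (ld_hasValueAt_map (ldφ p ℓ') hφ P' (jF p) a₀).mpr ha₀
    exact ldnc_no_meet hv hvN hA hP a₀ P' c' h1 hc'
  -- Step 1: the value `b`
  have hj : jF p ∈ x.toValuationSubring := HasValueAt.mem x hxa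
  have hjp : jdF p p dvd_rfl ∈ x.toValuationSubring := fr_jdF_mem x.toValuationSubring hj p dvd_rfl
  obtain ⟨b, hb⟩ := ge_exists_value x (H.residue_bijective_FF p x) hjp
  refine ⟨b, hb, ?_⟩
  -- Step 2: a place over `x`
  have hfr : finrankAlong Kb (ldφ p ℓ') = ℓ' + 1 := G2.hdeg_finrank p ℓ' hℓ' hℓ'p
  obtain ⟨w, hw⟩ := lda_exists_over (ldφ p ℓ') hφ (ldφ_fundamentalIdentity p ℓ')
    (by rw [hfr]; exact Nat.succ_ne_zero _) x
    (by rw [Fermat.Agent.ES.R.place_deg_eq_one x (H.residue_bijective_FF p x)]; exact one_ne_zero)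
  -- Step 3: it reduces to the reduction of a cusp
  have hwa : HasValueAt w (jF (p * ℓ')) a := by
    rw [← ldφ_jF p ℓ']
    refine (ld_hasValueAt_map (ldφ p ℓ') hφ w (jF p) a).mpr ?_
    rw [hw]; exact hxa
  obtain ⟨c', hc'pole, hc'r⟩ := ld_exists_pole hR hn hnk ⟨jF (p * ℓ'), hjmem⟩ w a ha hwa
  have hc'pole' : c'.ord (jF (p * ℓ')) < 0 := hc'pole
  have hQpole : (c'.restrictAlong (ldφ p ℓ') hφ).ord (jF p) < 0 := by
    refine (ld_ord_map_neg_iff (ldφ p ℓ') hφ c' (jF p)).mp ?_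
    rw [ldφ_jF]; exact hc'pole'
  have hwc : HasValueAt w (ldφ p ℓ' f) c := by
    refine (ld_hasValueAt_map (ldφ p ℓ') hφ w f c).mpr ?_
    rw [hw]; exact hxc
  -- Step 4: the cusp lies over the cusp `0`
  have hQ : c'.restrictAlong (ldφ p ℓ') hφ = cuspZero p := by
    rcases ogg_pole_cases p hp _ hQpole with hQ | hQ
    · exfalso
      have h1 : HasValueAt c' (ldφ p ℓ' f) c₀ := by
        refine (ld_hasValueAt_map (ldφ p ℓ') hφ c' f c₀).mpr ?_
        rw [hQ]; exact hfinf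
      have h3 := ld_unit_iff hR hn hnk ⟨ldφ p ℓ' f, hf⟩ c' w hc'r
        (fun P' hP' => hno_f P' c' hP' hc'pole') c₀ c h1 hwc
      exact hc₀ (h3.2.2.mpr hc)
    · exact hQ
  have hc'f : HasValueAt c' (ldφ p ℓ' f) 0 := by
    refine (ld_hasValueAt_map (ldφ p ℓ') hφ c' f 0).mpr ?_
    rw [hQ]; exact hfzero
  -- Step 5: the function `G`
  set G : FF p := jdF p p dvd_rfl ^ p / jF p with hG
  have hjinv : (jF (p * ℓ'))⁻¹ ∈ R.O := by
    by_contra h
    have h1 : jF (p * ℓ') ∈ R.O.nonunits :=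
      (ValuationSubring.mem_nonunits_iff_or _).mpr (Or.inr h)
    have h2 := (hR.red_eq_zero_iff ⟨jF (p * ℓ'), hjmem⟩).mpr h1
    rw [ldnc_red_jF hP hjmem] at h2
    exact deuGood_transcendental_jk (kA A) (p * ℓ') (h2 ▸ isAlgebraic_zero)
  have hGmem : ldφ p ℓ' G ∈ R.O := by
    rw [hG, map_div₀, map_pow, ldφ_jF, ldφ_jdF, div_eq_mul_inv]
    exact mul_mem (pow_mem (ldnc_mem_jdF hP p (dvd_mul_right p ℓ')) p) hjinv
  -- Step 6: values of `G`
  have hGc' : HasValueAt c' (ldφ p ℓ' G) 1 := by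
    refine (ld_hasValueAt_map (ldφ p ℓ') hφ c' G 1).mpr ?_
    rw [hQ]; exact ldc_hv_cuspZero_ratio p
  have hGx : HasValueAt x G (b ^ p / a) := ld_hv_div x (ld_hv_pow x hb p) hxa ha0
  have hGw : HasValueAt w (ldφ p ℓ' G) (b ^ p / a) := by
    refine (ld_hasValueAt_map (ldφ p ℓ') hφ w G _).mpr ?_
    rw [hw]; exact hGx
  -- Step 7: the poles of `φ G` do not reduce to `r c'`
  have hjF0 : jF p ≠ 0 := fr_jF_ne_zero
  have hjd0 : jdF p p dvd_rfl ≠ 0 := fr_jdF_ne_zero p dvd_rfl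
  have hordG : ∀ Q : Place Kb (FF p), Q.ord G = (p : ℤ) * Q.ord (jdF p p dvd_rfl) -
      Q.ord (jF p) := by
    intro Q
    rw [hG, div_eq_mul_inv, Q.ord_mul (pow_ne_zero _ hjd0) (inv_ne_zero hjF0), Q.ord_inv]
    have := Q.ord_zpow (jdF p p dvd_rfl) (p : ℤ)
    rw [zpow_natCast] at this
    rw [this]; ring
  have hnoG : ∀ P' : Place Kb (FF (p * ℓ')), P'.ord (ldφ p ℓ' G) < 0 → R.r P' ≠ R.r c' := by
    intro P' hP'
    have hQ' : (P'.restrictAlong (ldφ p ℓ') hφ).ord G < 0 :=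
      (ld_ord_map_neg_iff (ldφ p ℓ') hφ P' G).mp hP'
    rw [hordG] at hQ'
    by_cases hj0 : 0 < (P'.restrictAlong (ldφ p ℓ') hφ).ord (jF p)
    · have h1 : HasValueAt P' (jF (p * ℓ')) (((0 : A) : A) : Kb) := by
        rw [← ldφ_jF p ℓ']
        refine (ld_hasValueAt_map (ldφ p ℓ') hφ P' (jF p) _).mpr ?_
        exact ld_hv_zero_of_ord_pos _ hj0
      exact ldnc_no_meet hv hvN hA hP 0 P' c' h1 hc'pole'
    · have hp0 : (0 : ℤ) < p := by exact_mod_cast hp.pos
      have hjdneg : (P'.restrictAlong (ldφ p ℓ') hφ).ord (jdF p p dvd_rfl) < 0 := by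
        by_contra hcon
        have : 0 ≤ (p : ℤ) * (P'.restrictAlong (ldφ p ℓ') hφ).ord (jdF p p dvd_rfl) :=
          mul_nonneg hp0.le (not_lt.mp hcon)
        omega
      rcases ogg_pole_cases p hp _ (ld_pole_jdF _ p dvd_rfl hjdneg) with hc | hc
      · intro hr
        have h1 : HasValueAt P' (ldφ p ℓ' f) c₀ := by
          refine (ld_hasValueAt_map (ldφ p ℓ') hφ P' f c₀).mpr ?_
          rw [hc]; exact hfinf
        have h3 := ld_unit_iff hR hn hnk ⟨ldφ p ℓ' f, hf⟩ P' c' hr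
          (fun P'' hP'' => by rw [hr]; exact hno_f P'' c' hP'' hc'pole') c₀ 0 h1 hc'f
        exact hc₀ (h3.2.2.mpr (ge_zero_mem_nonunits _))
      · exfalso
        rw [hc, cuspZero_ord_jdF, cuspZero_ord_jF, Nat.div_self hp.pos] at hQ'
        push_cast at hQ'
        omega
  -- Step 8: `G(x)` is a unit
  have h8 := ld_unit_iff hR hn hnk ⟨ldφ p ℓ' G, hGmem⟩ c' w hc'r
    (fun P' hP' => hnoG P' hP') 1 (b ^ p / a) hGc' hGw
  obtain ⟨-, hyA, hyiff⟩ := h8
  have h1non : (1 : Kb) ∉ A.nonunits := by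
    rw [ValuationSubring.mem_nonunits_iff_or]
    push Not
    exact ⟨one_ne_zero, by rw [inv_one]; exact A.one_mem⟩
  have hynon : b ^ p / a ∉ A.nonunits := fun h => h1non (hyiff.mpr h)
  rw [ValuationSubring.mem_nonunits_iff_or] at hynon
  push Not at hynon
  obtain ⟨hy0, hyinv⟩ := hynon
  intro hbA
  apply ha
  have hb0 : b ^ p ≠ 0 := by
    intro h
    rw [h, zero_div] at hy0
    exact hy0 rfl
  have e : a = b ^ p * (b ^ p / a)⁻¹ := by
    field_simp
  rw [e]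
  exact A.mul_mem _ _ (pow_mem hbA p) hyinv

end Fermat.Agent.S15.LD

end
end ZBZ2S15_005_5

/-! ### bundled: `Fermat.Agent.S15.ModFricke0` -/
section ZBZ2S15_005_6

/-!
# S15 / MOD-FRICKE (b) : the Fricke product `Π₀` (helper71)

`stmtModFricke0 : StmtModFricke0` : `Π₀ ∈ ℤ[1/N][[q]]` with constant term `± N⁻²`, its poles lie
over `j = 1728`, and it vanishes at the cusp `0`.

* `q`-expansion: `mfr_exists` (`ModFricke.lean`), uniqueness `stmtFrUniq`;
* cusp `0`: `Π₀ ∘ w_N = ∏_k V_k / (E₆² ∘ N)^{N-1}` with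
  `V_k = mfrV N k = (-(1/12) E₆² + E₄ E₆ P_{k,0}) ∘ (τ ↦ Nτ)`, every `V_k` tends to `0` at `i∞`
  (`mfrV_tendsto`), and `stmtFrWN`;
* poles: where `j` is regular, `Π₀ = a₀ / b₀` with `b₀ = (E₆²/Δ)^{N-1}` (`mfrint_ord_nonneg`),
  `E₆ τ = 0 ⇒ j(τ) = 1728`; at the poles of `j`: `ogg_pole_cases` and the two expansions.

Design: `NOTES/S15-MODFRICKE.md`.
-/

set_option autoImplicit false
set_option linter.unusedSectionVars false
set_option linter.unusedVariables false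
set_option linter.style.longLine false
set_option linter.unusedSimpArgs false

noncomputable section

namespace Fermat.Agent.S15

open UpperHalfPlane PeriodPair Complex Filter Topology ModularForm EisensteinSeries ModularCurve
open AlgebraicCurve
open Fermat.Agent.S23 Fermat.Agent.S24 Fermat.Agent.S28 Fermat.Agent.ES.I2 Fermat.Agent.INJ.HM
open Fermat.Agent.ES.M Fermat.Agent.W1
open scoped Real MatrixGroups Manifold

attribute [local instance] algKbC

local notation "Δ" => ModularForm.discriminant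

/-! ### limits at `i∞` -/

theorem mfr_tendsto_E4 : Tendsto (E₄ : ℍ → ℂ) atImInfty (𝓝 1) := by
  have h := bridge_isHPB_E4.tendsto_coeff_zero
  rw [hm_qExp_E4] at h
  have e : PowerSeries.coeff 0 (hmC ModularCurve.eisenstein4) = 1 := by
    rw [hmC, PowerSeries.coeff_map, PowerSeries.coeff_zero_eq_constantCoeff_apply,
      constantCoeff_eisenstein4]
    simp
  rwa [e] at h

theorem mfr_tendsto_E6 : Tendsto (E₆ : ℍ → ℂ) atImInfty (𝓝 1) := by
  have h := mfr_isHPB_E6.tendsto_coeff_zero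
  rw [mf_qExp_E6] at h
  have e : PowerSeries.coeff 0 (hmC mfE6) = 1 := by
    rw [hmC, PowerSeries.coeff_map, PowerSeries.coeff_zero_eq_constantCoeff_apply,
      mfr_constantCoeff_mfE6]
    simp
  rwa [e] at h

/-! ### the factors at the cusp `0` -/

/-- the factor `(-(1/12) E₆² + E₄ E₆ P_{k,0})(Nτ)` of `Π₀ ∘ w_N` -/
def mfrV (N : ℕ) [NeZero N] (k : ℤ) (τ : ℍ) : ℂ := mfrW N 0 k 0 (scaleN N τ)

theorem mfrV_eq (N : ℕ) [NeZero N] (k : ℤ) :
    mfrV N k = (fun _ : ℍ => ((0 : ℂ) - 1 / 12)) *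
        ((fun τ => E₆ (scaleN N τ)) * (fun τ => E₆ (scaleN N τ))) +
      (fun τ => E₄ (scaleN N τ)) * (fun τ => E₆ (scaleN N τ)) *
        (fun τ => mfrP N k 0 (scaleN N τ)) := by
  funext τ
  simp only [mfrV, mfrW, Pi.add_apply, Pi.mul_apply]
  ring

theorem mfrV_isHPB (N : ℕ) [NeZero N] (k : ℤ) (hk : ¬ (N : ℤ) ∣ k) : IsHPB (mfrV N k) := by
  have hP := mfrP_scale_isHPB N k hk
  have h4 := bridge_isHPB_comp_scaleN N bridge_isHPB_E4
  have h6 := bridge_isHPB_comp_scaleN N mfr_isHPB_E6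
  have hc : IsHPB (fun _ : ℍ => ((0 : ℂ) - 1 / 12)) := qring_isHPB_const _
  rw [mfrV_eq]
  exact (hc.mul (h6.mul h6)).add ((h4.mul h6).mul hP)

theorem mfrV_tendsto (N : ℕ) [NeZero N] (k : ℤ) (hk0 : 0 < k) (hkN : k < N) :
    Tendsto (mfrV N k) atImInfty (𝓝 0) := by
  have hs := P7_tendsto_scaleN_atImInfty N
  have h4 : Tendsto (fun τ => E₄ (scaleN N τ)) atImInfty (𝓝 1) := mfr_tendsto_E4.comp hs
  have h6 : Tendsto (fun τ => E₆ (scaleN N τ)) atImInfty (𝓝 1) := mfr_tendsto_E6.comp hs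
  have hP := mfrP_scale_tendsto N k hk0 hkN
  have hc : Tendsto (fun _ : ℍ => ((0 : ℂ) - 1 / 12)) atImInfty (𝓝 ((0 : ℂ) - 1 / 12)) :=
    tendsto_const_nhds
  have h := (hc.mul (h6.mul h6)).add ((h4.mul h6).mul hP)
  have e : ((0 : ℂ) - 1 / 12) * (1 * 1) + 1 * 1 * (1 / 12) = 0 := by norm_num
  rw [e] at h
  rw [mfrV_eq]
  exact h

/-- `a₀ ∘ w_N`, cleared of its denominator -/
def mfrA' (N : ℕ) [NeZero N] (τ : ℍ) : ℂ := ∏ k ∈ Finset.Ico 1 N, mfrV N (k : ℤ) τ

/-- `b₀ ∘ w_N`, cleared of its denominator -/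
def mfrB' (N : ℕ) [NeZero N] (τ : ℍ) : ℂ := (E₆ (scaleN N τ) ^ 2) ^ (N - 1)

/-- the common denominator `Δ(Nτ)^{N-1}` -/
def mfrD' (N : ℕ) [NeZero N] (τ : ℍ) : ℂ := Δ (scaleN N τ) ^ (N - 1)

theorem mfrA'_isHPB (N : ℕ) [NeZero N] : IsHPB (mfrA' N) :=
  (mfr_qExp_prod (Finset.Ico 1 N) (fun k : ℕ => mfrV N (k : ℤ))
    (fun k hk => mfrV_isHPB N k (mfr_not_dvd_of_mem hk))).1

theorem mfrB'_isHPB (N : ℕ) [NeZero N] : IsHPB (mfrB' N) :=
  bridge_isHPB_pow (bridge_isHPB_pow (bridge_isHPB_comp_scaleN N mfr_isHPB_E6) 2) (N - 1)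

theorem mfrD'_isHPB (N : ℕ) [NeZero N] : IsHPB (mfrD' N) :=
  bridge_isHPB_pow (bridge_isHPB_comp_scaleN N bridge_isHPB_discriminant) (N - 1)

theorem mfrA'_tendsto (N : ℕ) [NeZero N] (hN : 2 ≤ N) : Tendsto (mfrA' N) atImInfty (𝓝 0) := by
  have h : Tendsto (fun τ => ∏ k ∈ Finset.Ico 1 N, mfrV N (k : ℤ) τ) atImInfty
      (𝓝 (∏ k ∈ Finset.Ico 1 N, (0 : ℂ))) := by
    refine tendsto_finsetProd _ fun k hk => ?_
    rw [Finset.mem_Ico] at hk
    exact mfrV_tendsto N k (by exact_mod_cast hk.1) (by exact_mod_cast hk.2)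
  rw [Finset.prod_const, Nat.card_Ico, zero_pow (by omega)] at h
  exact h

theorem mfrB'_tendsto (N : ℕ) [NeZero N] : Tendsto (mfrB' N) atImInfty (𝓝 1) := by
  have h6 : Tendsto (fun τ => E₆ (scaleN N τ)) atImInfty (𝓝 1) :=
    mfr_tendsto_E6.comp (P7_tendsto_scaleN_atImInfty N)
  have h := (h6.pow 2).pow (N - 1)
  rw [one_pow, one_pow] at h
  exact h

theorem mfr_S10 : (ModularGroup.S 1 0 : ℤ) = 1 := rfl

theorem mfr_S11 : (ModularGroup.S 1 1 : ℤ) = 0 := rfl

theorem mfrA_fricke (N : ℕ) [NeZero N] (τ : ℍ) :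
    mfrA N 0 (fricke N τ) * mfrD' N τ = mfrA' N τ := by
  have hσ : ((scaleN N τ : ℍ) : ℂ) ≠ 0 := UpperHalfPlane.ne_zero _
  have hΔ : Δ (scaleN N τ) ≠ 0 := discriminant_ne_zero _
  have hP : ∏ k ∈ Finset.Ico 1 N, mfrW N 0 ((k : ℤ) * ModularGroup.S 1 0)
      ((k : ℤ) * ModularGroup.S 1 1) (scaleN N τ) = mfrA' N τ := by
    refine Finset.prod_congr rfl fun k _ => ?_
    rw [mfr_S10, mfr_S11, mul_one, mul_zero]
    rfl
  simp only [mfrA, mfrD', fricke]
  rw [mfrF_smul, mfr_disc_smul, hP, mfr_S10, mfr_S11, Int.cast_one, Int.cast_zero, one_mul,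
    add_zero, mul_pow, ← pow_mul]
  field_simp

theorem mfrBf_fricke (N : ℕ) [NeZero N] (τ : ℍ) :
    mfrBf N (fricke N τ) * mfrD' N τ = mfrB' N τ := by
  have hσ : ((scaleN N τ : ℍ) : ℂ) ≠ 0 := UpperHalfPlane.ne_zero _
  have hΔ : Δ (scaleN N τ) ≠ 0 := discriminant_ne_zero _
  simp only [mfrBf, mfrD', mfrB', fricke]
  rw [mfr_E6_smul, mfr_disc_smul, mfr_S10, mfr_S11, Int.cast_one, Int.cast_zero, one_mul,
    add_zero, mul_pow, mul_pow, mul_pow, ← pow_mul, ← pow_mul, ← pow_mul]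
  field_simp
  ring

/-! ### orders of power series -/

theorem mfr_order_nonneg {K : Type*} [Field K] (p : PowerSeries K) :
    0 ≤ (HahnSeries.ofPowerSeries ℤ K p).order := by
  by_contra hlt
  push Not at hlt
  have h1 := ModularCurve.ofPowerSeries_coeff_of_neg p hlt
  rw [HahnSeries.coeff_order_eq_zero] at h1
  rw [h1, HahnSeries.order_zero] at hlt
  exact lt_irrefl _ hlt

theorem mfr_order_pos {K : Type*} [Field K] {p : PowerSeries K} (hp : p ≠ 0)
    (h0 : PowerSeries.coeff 0 p = 0) : 0 < (HahnSeries.ofPowerSeries ℤ K p).order := by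
  have hne : HahnSeries.ofPowerSeries ℤ K p ≠ 0 := fun h =>
    hp (HahnSeries.ofPowerSeries_injective (by rw [h, map_zero]))
  rcases lt_or_eq_of_le (mfr_order_nonneg p) with h | h
  · exact h
  · exfalso
    have h1 : (HahnSeries.ofPowerSeries ℤ K p).coeff (HahnSeries.ofPowerSeries ℤ K p).order = 0 := by
      rw [← h]
      have := HahnSeries.ofPowerSeries_apply_coeff (Γ := ℤ) p 0
      rw [Nat.cast_zero] at this
      rw [this, h0]
    exact hne (HahnSeries.coeff_order_eq_zero.1 h1)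

theorem mfr_order_zero {K : Type*} [Field K] {p : PowerSeries K}
    (h0 : PowerSeries.coeff 0 p ≠ 0) : (HahnSeries.ofPowerSeries ℤ K p).order = 0 := by
  refine le_antisymm (HahnSeries.order_le_of_coeff_ne_zero ?_) (mfr_order_nonneg p)
  have := HahnSeries.ofPowerSeries_apply_coeff (Γ := ℤ) p 0
  rw [Nat.cast_zero] at this
  rwa [this]

/-! ### the zero at the cusp `0` -/

theorem mfr_cuspZero (hWN : StmtFrWN) (N : ℕ) [NeZero N] (hN : N.Prime) (f : FF N) (hf0 : f ≠ 0)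
    (h : coeffMap embC (f : LaurentSeries Kb) * laurentOf (mfrBf N) = laurentOf (mfrA N 0)) :
    0 < (cuspZero N).ord f := by
  obtain ⟨ha, hb, hab⟩ := hWN N f (mfrA N 0) (mfrBf N) (isModFun_mfrA N hN 0) (isModFun_mfrBf N) h
  have hw0 : frickeAut N f ≠ 0 := (map_ne_zero (frickeAut N)).2 hf0
  rw [cuspZero_ord, cuspInf_ord hw0, ← Fermat.Agent.ES.DescentInj.order_coeffMap embC]
  set X : LaurentSeries ℂ := coeffMap embC ((frickeAut N f : FF N) : LaurentSeries Kb) with hX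
  have hX0 : X ≠ 0 := fun h0 => hw0 (Subtype.ext
    (Fermat.Agent.ES.DescentInj.coeffMap_inj embC (by
      rw [← hX, h0]; exact (map_zero (coeffMap embC)).symm)))
  have e1 : (fun τ => mfrA N 0 (fricke N τ)) * mfrD' N = mfrA' N := funext (mfrA_fricke N)
  have e2 : (fun τ => mfrBf N (fricke N τ)) * mfrD' N = mfrB' N := funext (mfrBf_fricke N)
  have l1 : laurentOf (mfrA' N) = laurentOf (fun τ => mfrA N 0 (fricke N τ)) * laurentOf (mfrD' N) := by
    rw [← e1, laurentOf_mul ha.isMerInf (IsHPB.isMerInf (mfrD'_isHPB N))]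
  have l2 : laurentOf (mfrB' N) = laurentOf (fun τ => mfrBf N (fricke N τ)) * laurentOf (mfrD' N) := by
    rw [← e2, laurentOf_mul hb.isMerInf (IsHPB.isMerInf (mfrD'_isHPB N))]
  have key : X * laurentOf (mfrB' N) = laurentOf (mfrA' N) := by
    rw [l1, l2, ← mul_assoc, hab]
  rw [laurentOf_of_isHPB (mfrA'_isHPB N), laurentOf_of_isHPB (mfrB'_isHPB N)] at key
  have hB0 : PowerSeries.coeff 0 (qExpansion 1 (mfrB' N)) = 1 :=
    (mfrB'_isHPB N).coeff_zero_of_tendsto (mfrB'_tendsto N)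
  have hA0 : PowerSeries.coeff 0 (qExpansion 1 (mfrA' N)) = 0 :=
    (mfrA'_isHPB N).coeff_zero_of_tendsto (mfrA'_tendsto N hN.two_le)
  have hBord : (HahnSeries.ofPowerSeries ℤ ℂ (qExpansion 1 (mfrB' N))).order = 0 :=
    mfr_order_zero (by rw [hB0]; exact one_ne_zero)
  have hBne : HahnSeries.ofPowerSeries ℤ ℂ (qExpansion 1 (mfrB' N)) ≠ 0 := by
    intro h0
    have := HahnSeries.ofPowerSeries_injective (h0.trans (map_zero _).symm)
    rw [this] at hB0
    simp at hB0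
  have hAne : qExpansion 1 (mfrA' N) ≠ 0 := by
    intro h0
    rw [h0, map_zero] at key
    exact (mul_ne_zero hX0 hBne) key
  have hAord := mfr_order_pos hAne hA0
  rw [← key, HahnSeries.order_mul hX0 hBne, hBord, add_zero] at hAord
  exact hAord

/-! ### the poles -/

theorem mfr_Jfun_of_E6 (τ : ℍ) (h6 : E₆ τ = 0) : Jfun τ = 1728 := by
  have hΔ : Δ τ ≠ 0 := discriminant_ne_zero τ
  have h1 := discriminant_eq_E₄_cube_sub_E₆_sq τ
  rw [h6] at h1
  rw [Jfun, div_eq_iff hΔ, h1]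
  ring

theorem mfr_poles (N : ℕ) [NeZero N] (hN : N.Prime) (t : ℤ) (f : FF N)
    (h : coeffMap embC (f : LaurentSeries Kb) * laurentOf (mfrBf N) = laurentOf (mfrA N (t : ℂ)))
    (hInf : 0 ≤ (cuspInf N).ord f) (hZero : 0 ≤ (cuspZero N).ord f)
    (P : Place Kb (FF N)) (hP : P.ord f < 0) : HasValueAt P (jF N) 1728 := by
  by_cases hj : 0 ≤ P.ord (jF N)
  · obtain ⟨τ, c₀, hτ, rfl⟩ := mfrint_exists_point P hj
    by_cases hb : mfrBf N τ = 0
    · have h6 : E₆ τ = 0 := by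
        have hΔ : Δ τ ^ (N - 1) ≠ 0 := pow_ne_zero _ (discriminant_ne_zero τ)
        simp only [mfrBf] at hb
        rw [div_eq_zero_iff] at hb
        rcases hb with hb | hb
        · exact pow_eq_zero_iff (two_ne_zero) |>.1 (pow_eq_zero_iff (by
            have := hN.two_le; omega) |>.1 hb)
        · exact absurd hb hΔ
      have hJ := mfr_Jfun_of_E6 τ h6
      have hc : c₀ = 1728 := by
        apply embC.injective
        rw [← hτ, hJ, map_ofNat]
      subst hc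
      exact (modplace_hasValueAt_jF_iff _ _).2 (modPlace_ord_jF_sub_pos hτ)
    · exact absurd (mfrint_ord_nonneg hτ (isModFun_mfrA N hN t) (isModFun_mfrBf N) h hb)
        (not_le.2 hP)
  · rcases ogg_pole_cases N hN P (not_le.1 hj) with rfl | rfl
    · exact absurd hInf (not_le.2 hP)
    · exact absurd hZero (not_le.2 hP)

/-! ### MOD-FRICKE (b) -/

theorem mfr_const_sq (N : ℕ) (hN : 2 ≤ N) (y : ℤ) (hy : y ^ 2 = ((N : ℤ) ^ (2 * (N - 2))) ^ 2) :
    (((N : ℚ) ^ (2 * (N - 1)))⁻¹ * (y : ℚ) * (N : ℚ) ^ 2) ^ 2 = 1 := by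
  have hN0 : (N : ℚ) ≠ 0 := by
    have : N ≠ 0 := by omega
    exact_mod_cast this
  have hy' : (y : ℚ) ^ 2 = ((N : ℚ) ^ (2 * (N - 2))) ^ 2 := by exact_mod_cast hy
  have e1 : 2 * (N - 1) = 2 * (N - 2) + 2 := by omega
  rw [e1, pow_add]
  have e2 : (((N : ℚ) ^ (2 * (N - 2)) * (N : ℚ) ^ 2)⁻¹ * (y : ℚ) * (N : ℚ) ^ 2) ^ 2 =
      (y : ℚ) ^ 2 / ((N : ℚ) ^ (2 * (N - 2))) ^ 2 := by
    field_simp
  rw [e2, hy', div_self (pow_ne_zero _ (pow_ne_zero _ hN0))]

/-- **MOD-FRICKE (b)**, from FR-WN. -/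
theorem stmtModFricke0_of (hWN : StmtFrWN) : StmtModFricke0 := by
  intro N _ hN f hf
  obtain ⟨Y, f₀, hf₀, h1, hY0⟩ := mfr_exists N hN 0
  have hY := hY0 rfl
  have hff : f = f₀ := stmtFrUniq N f f₀ _ hf (mfr_isFrickeProd N hN 0 f₀ h1)
  subst hff
  have hN0 : (N : ℚ) ≠ 0 := by exact_mod_cast NeZero.ne N
  have hexp : (f : LaurentSeries Kb) = coeffEmb Kb (HahnSeries.ofPowerSeries ℤ ℚ (mfrYQ N Y)) := by
    rw [hf₀, mfr_ofPowerSeries_YQ, coeffEmb, mfr_coeffMap_YL]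
  have hc0 : (PowerSeries.coeff 0 (mfrYQ N Y) * (N : ℚ) ^ 2) ^ 2 = 1 := by
    rw [mfr_coeff_YQ, PowerSeries.coeff_zero_eq_constantCoeff_apply]
    exact mfr_const_sq N hN.two_le _ hY
  have hYne : mfrYQ N Y ≠ 0 := by
    intro h0
    rw [h0] at hc0
    simp at hc0
  have hfne : f ≠ 0 := by
    intro h0
    rw [h0] at hexp
    have h2 : HahnSeries.ofPowerSeries ℤ ℚ (mfrYQ N Y) = 0 :=
      (coeffEmb Kb).injective (by rw [← hexp, map_zero]; rfl)
    exact hYne (HahnSeries.ofPowerSeries_injective (by rw [h2, map_zero]))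
  have hInf : 0 ≤ (cuspInf N).ord f := by
    rw [cuspInf_ord hfne, hexp, coeffEmb, coeffMap_ofPowerSeries]
    exact mfr_order_nonneg _
  have h1' : coeffMap embC (f : LaurentSeries Kb) * laurentOf (mfrBf N) = laurentOf (mfrA N 0) := by
    rw [h1, Int.cast_zero]
  have hZero : 0 < (cuspZero N).ord f := mfr_cuspZero hWN N hN f hfne h1'
  refine ⟨⟨mfrYQ N Y, hexp, fun n => ⟨2 * (N - 1), PowerSeries.coeff n Y, ?_⟩, hc0⟩,
    mfr_poles N hN 0 f h1 hInf hZero.le, hZero⟩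
  rw [mfr_coeff_YQ]
  field_simp

/-- **MOD-FRICKE (b).** -/
theorem stmtModFricke0 : StmtModFricke0 := stmtModFricke0_of stmtFrWN

end Fermat.Agent.S15

end
end ZBZ2S15_005_6

/-! ### bundled: `Fermat.Agent.S15.PkgType` -/
section ZBZ2S15_005_7

/-!
# S15 / LOCAL-N, piece PKG-type: bookkeeping of the types of the places (helper25)

`stmtPkgType : StmtPkgType`: the reduction of a place of type 1 exists and is unique, the two
types exclude each other, the map `pkgR` is characterised by `PkgRel₁`, the cusps, and the places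
of `k(j̄)` are the values of `j̄` and the pole of `j̄`.
-/

set_option autoImplicit false
set_option linter.unusedSectionVars false

noncomputable section

open AlgebraicCurve Module ModularCurve

namespace Fermat.Agent.S15.LN

open Fermat.Agent.W1 Fermat.Agent.S24 Fermat.Agent.S15 Fermat.Agent.ES.M Fermat.Agent.DEU
  Fermat.Agent.INJ

/-! ## The coordinates `j̄` and `1 / j̄` of `k(j̄)` -/

section Coord

variable (E : Type) [Field E]

theorem pkgty_coe_aeval (M : ℕ) (x : ↥(modularFunctionFieldFullC E M)) (p : Polynomial E) :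
    ((Polynomial.aeval x p : ↥(modularFunctionFieldFullC E M)) : LaurentSeries E) =
      Polynomial.aeval (x : LaurentSeries E) p :=
  (Polynomial.aeval_algHom_apply (modularFunctionFieldFullC E M).val x p).symm

theorem pkgty_top : IntermediateField.adjoin E {bgJ E 1} = ⊤ := by
  rw [eq_top_iff]
  intro z _
  have hz : (z : LaurentSeries E) ∈ IntermediateField.adjoin E {jqModC E} := by
    have h : ∀ y : LaurentSeries E, y ∈ modularFunctionFieldFullC E 1 →
        y ∈ IntermediateField.adjoin E {jqModC E} := by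
      intro y hy
      rw [Fermat.Agent.S28.UB.full_one] at hy
      exact hy
    exact h _ z.2
  obtain ⟨r, s, h⟩ := (IntermediateField.mem_adjoin_simple_iff E _).mp hz
  refine (IntermediateField.mem_adjoin_simple_iff E z).mpr ⟨r, s, ?_⟩
  apply Subtype.ext
  rw [h]
  push_cast
  rw [pkgty_coe_aeval, pkgty_coe_aeval]
  rfl

theorem pkgty_coord : PkgIsCoord E (bgJ E 1) :=
  ⟨bgConst_transcendental_bgJ E 1, pkgty_top E⟩

theorem pkgty_coord_inv {F : Type} [Field F] [Algebra E F] {t : F} (ht : PkgIsCoord E t) :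
    PkgIsCoord E t⁻¹ := by
  refine ⟨fun h => ht.transc ?_, ?_⟩
  · have := h.inv
    rwa [inv_inv] at this
  · rw [eq_top_iff, ← ht.top, IntermediateField.adjoin_le_iff, Set.singleton_subset_iff]
    have h1 : t⁻¹ ∈ IntermediateField.adjoin E {t⁻¹} :=
      IntermediateField.subset_adjoin E _ rfl
    have h2 := (IntermediateField.adjoin E {t⁻¹}).inv_mem h1
    rwa [inv_inv] at h2

end Coord

variable (N : ℕ) [NeZero N] (A : ValuationSubring Kb)

theorem pkgty_coordJ : PkgIsCoord (kA A) (pkgJbar A) := pkgty_coord (kA A)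

theorem pkgty_Jbar_ne_zero : pkgJbar A ≠ 0 := fun h =>
  (pkgty_coordJ A).transc (h ▸ isAlgebraic_zero)

/-! ## The places of `k(j̄)` -/

theorem pkgty_place_exists (a : kA A) :
    ∃ Q : Place (kA A) (FFk A), HasValueAt Q (pkgJbar A) a :=
  pkgrp_place_exists (pkgty_coordJ A) a

theorem pkgty_place_ext (Q Q' : Place (kA A) (FFk A)) (a : kA A)
    (h : HasValueAt Q (pkgJbar A) a) (h' : HasValueAt Q' (pkgJbar A) a) : Q = Q' :=
  pkgrp_place_ext (pkgty_coordJ A) Q Q' a h h'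

theorem pkgty_place_exists_inv (a : kA A) :
    ∃ Q : Place (kA A) (FFk A), HasValueAt Q (pkgJbar A)⁻¹ a :=
  pkgrp_place_exists (pkgty_coord_inv (kA A) (pkgty_coordJ A)) a

theorem pkgty_place_ext_inv (Q Q' : Place (kA A) (FFk A)) (a : kA A)
    (h : HasValueAt Q (pkgJbar A)⁻¹ a) (h' : HasValueAt Q' (pkgJbar A)⁻¹ a) : Q = Q' :=
  pkgrp_place_ext (pkgty_coord_inv (kA A) (pkgty_coordJ A)) Q Q' a h h'

section Gen

variable {K F : Type} [Field K] [Field F] [Algebra K F]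

/-- a pole of `t` is a zero of `1 / t` -/
theorem pkgty_value_inv_of_pole {P : Place K F} {t : F} (h : P.ord t < 0) :
    HasValueAt P t⁻¹ 0 := by
  have ht0 : t ≠ 0 := by
    rintro rfl
    simp at h
  have h1 : t⁻¹ - algebraMap K F 0 ≠ 0 := by
    rw [map_zero, sub_zero]
    exact inv_ne_zero ht0
  rw [hasValueAt_iff_ord_pos P h1, map_zero, sub_zero, Place.ord_inv]
  omega

theorem pkgty_pole_of_value_inv {P : Place K F} {t : F} (ht0 : t ≠ 0)
    (h : HasValueAt P t⁻¹ 0) : P.ord t < 0 := by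
  have h1 : t⁻¹ - algebraMap K F 0 ≠ 0 := by
    rw [map_zero, sub_zero]
    exact inv_ne_zero ht0
  rw [hasValueAt_iff_ord_pos P h1, map_zero, sub_zero, Place.ord_inv] at h
  omega

theorem pkgty_value_zero_of_ord_pos {P : Place K F} {t : F} (h : 0 < P.ord t) :
    HasValueAt P t 0 := by
  have ht0 : t ≠ 0 := by
    rintro rfl
    simp at h
  have h1 : t - algebraMap K F 0 ≠ 0 := by
    rw [map_zero, sub_zero]
    exact ht0
  rw [hasValueAt_iff_ord_pos P h1, map_zero, sub_zero]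
  exact h

/-- regular or the inverse vanishes -/
theorem pkgty_mem_or_pole (P : Place K F) (t : F) :
    t ∈ P.toValuationSubring ∨ P.ord t < 0 := by
  by_cases h : P.ord t < 0
  · exact Or.inr h
  · exact Or.inl (ge_mem_of_not_ord_neg P h)

end Gen

theorem pkgty_place_ext_inf (Q Q' : Place (kA A) (FFk A))
    (h : Q.ord (pkgJbar A) < 0) (h' : Q'.ord (pkgJbar A) < 0) : Q = Q' :=
  pkgty_place_ext_inv A Q Q' 0 (pkgty_value_inv_of_pole h) (pkgty_value_inv_of_pole h')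

/-! ## The action of `w_N` on values -/

theorem pkgty_hasValueAt_fricke (P : Place Kb (FF N)) (f : FF N) (a : Kb) :
    HasValueAt (frickeAut N • P) f a ↔ HasValueAt P (frickeAut N f) a := by
  by_cases h0 : f - algebraMap Kb (FF N) a = 0
  · have h0' : frickeAut N f - algebraMap Kb (FF N) a = 0 := by
      have := congrArg (frickeAut N) h0
      rwa [map_sub, AlgEquiv.commutes, map_zero] at this
    exact ⟨fun _ => hasValueAt_of_eq P h0', fun _ => hasValueAt_of_eq _ h0⟩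
  · have h0' : frickeAut N f - algebraMap Kb (FF N) a ≠ 0 := by
      intro h
      apply h0
      have h1 : frickeAut N (f - algebraMap Kb (FF N) a) = 0 := by
        rw [map_sub, AlgEquiv.commutes]
        exact h
      exact (map_eq_zero_iff _ (frickeAut N).injective).mp h1
    rw [hasValueAt_iff_ord_pos _ h0, hasValueAt_iff_ord_pos _ h0', fr_ord_frickeAut, map_sub,
      AlgEquiv.commutes]

/-! ## The fields of `PkgIsType` -/

theorem pkgty_exists_value (P : Place Kb (FF N)) {f : FF N} (hf : f ∈ P.toValuationSubring) :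
    ∃ a : Kb, HasValueAt P f a :=
  ge_exists_value P (Fermat.Agent.ES.H.residue_bijective_FF N P) hf

theorem pkgty_exists_rel (P : Place Kb (FF N)) (hP : PkgType₁ N A P) :
    ∃ Q, PkgRel₁ N A P Q := by
  rcases pkgty_mem_or_pole P (jF N) with h | h
  · obtain ⟨c, hc⟩ := pkgty_exists_value N P h
    by_cases hcA : c ∈ A
    · obtain ⟨Q, hQ⟩ := pkgty_place_exists A (IsLocalRing.residue A ⟨c, hcA⟩)
      exact ⟨Q, hP, Or.inl ⟨⟨c, hcA⟩, hc, hQ⟩⟩
    · have hc0 : c ≠ 0 := fun h0 => hcA (h0 ▸ A.zero_mem)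
      have hci : c⁻¹ ∈ A := (A.mem_or_inv_mem c).resolve_left hcA
      obtain ⟨Q, hQ⟩ := pkgty_place_exists_inv A (IsLocalRing.residue A ⟨c⁻¹, hci⟩)
      exact ⟨Q, hP, Or.inr ⟨⟨c⁻¹, hci⟩, ln_hasValueAt_inv hc hc0, hQ⟩⟩
  · obtain ⟨Q, hQ⟩ := pkgty_place_exists_inv A (IsLocalRing.residue A 0)
    refine ⟨Q, hP, Or.inr ⟨0, ?_, hQ⟩⟩
    exact pkgty_value_inv_of_pole h

theorem pkgty_rel_unique (P : Place Kb (FF N)) (Q Q' : Place (kA A) (FFk A))
    (h : PkgRel₁ N A P Q) (h' : PkgRel₁ N A P Q') : Q = Q' := by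
  have hj0 : jF N ≠ 0 := fr_jF_ne_zero
  -- the mixed case
  have mixed : ∀ (Q Q' : Place (kA A) (FFk A)) (a a' : A), HasValueAt P (jF N) (a : Kb) →
      HasValueAt Q (pkgJbar A) (IsLocalRing.residue A a) →
      HasValueAt P (jF N)⁻¹ (a' : Kb) →
      HasValueAt Q' (pkgJbar A)⁻¹ (IsLocalRing.residue A a') → Q = Q' := by
    intro Q Q' a a' h1 h2 h3 h4
    have h5 := ln_hasValueAt_mul h1 h3
    rw [mul_inv_cancel₀ hj0] at h5
    have h6 : (a : Kb) * (a' : Kb) = 1 := hasValueAt_unique P h5 (ln_hasValueAt_one P)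
    have h7 : a * a' = 1 := Subtype.ext h6
    have h8 : IsLocalRing.residue A a * IsLocalRing.residue A a' = 1 := by
      rw [← map_mul, h7, map_one]
    have h9 : IsLocalRing.residue A a' ≠ 0 := right_ne_zero_of_mul_eq_one h8
    have h10 := ln_hasValueAt_inv h4 h9
    rw [inv_inv, ← eq_inv_of_mul_eq_one_left h8] at h10
    exact pkgty_place_ext A Q Q' _ h2 h10
  rcases h.2 with ⟨a, h1, h2⟩ | ⟨a, h1, h2⟩ <;> rcases h'.2 with ⟨a', h3, h4⟩ | ⟨a', h3, h4⟩
  · have e : a = a' := Subtype.ext (hasValueAt_unique P h1 h3)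
    subst e
    exact pkgty_place_ext A Q Q' _ h2 h4
  · exact mixed Q Q' a a' h1 h2 h3 h4
  · exact (mixed Q' Q a' a h3 h4 h1 h2).symm
  · have e : a = a' := Subtype.ext (hasValueAt_unique P h1 h3)
    subst e
    exact pkgty_place_ext_inv A Q Q' _ h2 h4

theorem pkgty_not_both (hA : A.LiesOverPrime N) (P : Place Kb (FF N))
    (hP : PkgType₁ N A P) : ¬ PkgType₁ N A (frickeAut N • P) := by
  rintro ⟨b, hbA, hb⟩
  obtain ⟨a, haA, ha⟩ := hP
  rw [pkgty_hasValueAt_fricke] at hb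
  have h1 := ln_hasValueAt_mul hb ha
  rw [ogg_fricke] at h1
  have h2 : b * a = ((N : Kb) ^ 12)⁻¹ := hasValueAt_unique P h1 (ln_hasValueAt_const P _)
  have hN0 : ((N : Kb) ^ 12) ≠ 0 := pow_ne_zero _ (Nat.cast_ne_zero.mpr (NeZero.ne N))
  have h3 : (N : Kb) ^ 12 * (b * a) = 1 := by
    rw [h2, mul_inv_cancel₀ hN0]
  have hmem : (N : Kb) ^ 12 ∈ A.nonunits := by
    rw [ValuationSubring.mem_nonunits_iff, map_pow]
    exact pow_lt_one₀ zero_le' ((ValuationSubring.mem_nonunits_iff A).mp hA) (by norm_num)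
  have h4 : (N : Kb) ^ 12 * (b * a) ∈ A.nonunits := by
    rw [ValuationSubring.mem_nonunits_iff, map_mul]
    have hba : A.valuation (b * a) ≤ 1 :=
      (A.valuation_le_one_iff _).mpr (A.mul_mem _ _ hbA haA)
    calc A.valuation ((N : Kb) ^ 12) * A.valuation (b * a)
        ≤ A.valuation ((N : Kb) ^ 12) * 1 := by gcongr
      _ = A.valuation ((N : Kb) ^ 12) := mul_one _
      _ < 1 := (ValuationSubring.mem_nonunits_iff A).mp hmem
  rw [h3, ValuationSubring.mem_nonunits_iff, map_one] at h4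
  exact lt_irrefl _ h4

theorem pkgty_r_inl_iff (P : Place Kb (FF N)) (Q : Place (kA A) (FFk A)) :
    pkgR N A P = some (Sum.inl Q) ↔ PkgRel₁ N A P Q := by
  classical
  constructor
  · intro h
    unfold pkgR at h
    split_ifs at h with h1 h2
    · have e : h1.choose = Q := Sum.inl.inj (Option.some.inj h)
      rw [← e]
      exact h1.choose_spec
    · exact absurd (Option.some.inj h) (by simp)
  · intro h
    have h1 : ∃ Q, PkgRel₁ N A P Q := ⟨Q, h⟩
    unfold pkgR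
    rw [dif_pos h1, pkgty_rel_unique N A P _ _ h1.choose_spec h]

theorem pkgty_r_inr_iff (hA : A.LiesOverPrime N) (P : Place Kb (FF N))
    (Q : Place (kA A) (FFk A)) :
    pkgR N A P = some (Sum.inr Q) ↔ PkgRel₁ N A (frickeAut N • P) Q := by
  classical
  constructor
  · intro h
    unfold pkgR at h
    split_ifs at h with h1 h2
    · exact absurd (Option.some.inj h) (by simp)
    · have e : h2.choose = Q := Sum.inr.inj (Option.some.inj h)
      rw [← e]
      exact h2.choose_spec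
  · intro h
    have h1 : ¬ ∃ Q, PkgRel₁ N A P Q := by
      rintro ⟨Q', hQ'⟩
      exact pkgty_not_both N A hA P hQ'.1 h.1
    have h2 : ∃ Q, PkgRel₁ N A (frickeAut N • P) Q := ⟨Q, h⟩
    unfold pkgR
    rw [dif_neg h1, dif_pos h2, pkgty_rel_unique N A _ _ _ h2.choose_spec h]

theorem pkgty_rel_cuspInf (hN : 2 ≤ N) :
    ∃ Q, PkgRel₁ N A (S15.cuspInf N) Q ∧ Q.ord (pkgJbar A) < 0 := by
  obtain ⟨Q, hQ⟩ := pkgty_place_exists_inv A (IsLocalRing.residue A 0)
  rw [map_zero] at hQ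
  refine ⟨Q, ⟨⟨0, A.zero_mem, ?_⟩, Or.inr ⟨0, ?_, ?_⟩⟩, ?_⟩
  · apply pkgty_value_zero_of_ord_pos
    rw [ogg_ord_cuspInf]
    have : (2 : ℤ) ≤ N := by exact_mod_cast hN
    omega
  · apply pkgty_value_inv_of_pole
    rw [cuspInf_ord_jF]
    norm_num
  · rw [map_zero]
    exact hQ
  · exact pkgty_pole_of_value_inv (pkgty_Jbar_ne_zero A) hQ

/-- **PKG-type** -/
theorem pkgty_isType (hN : N.Prime) (hA : A.LiesOverPrime N) : PkgIsType N A where
  exists_rel := pkgty_exists_rel N A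
  rel_unique := pkgty_rel_unique N A
  not_both := pkgty_not_both N A hA
  r_inl_iff := pkgty_r_inl_iff N A
  r_inr_iff := pkgty_r_inr_iff N A hA
  cuspInf := by
    obtain ⟨Q, hQ, hord⟩ := pkgty_rel_cuspInf N A hN.two_le
    exact ⟨Q, (pkgty_r_inl_iff N A _ _).mpr hQ, hord⟩
  cuspZero := by
    obtain ⟨Q, hQ, hord⟩ := pkgty_rel_cuspInf N A hN.two_le
    refine ⟨Q, (pkgty_r_inr_iff N A hA _ _).mpr ?_, hord⟩
    rw [fricke_smul_cuspZero]
    exact hQ
  place_ext := pkgty_place_ext A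
  place_exists := pkgty_place_exists A
  place_ext_inf := pkgty_place_ext_inf A

/-- **PKG-type** -/
theorem stmtPkgType : StmtPkgType := fun N _ hN _ A hA => pkgty_isType N A hN hA

end Fermat.Agent.S15.LN

end
end ZBZ2S15_005_7

/-! ### bundled: `Fermat.Agent.S15.PkgCardE` -/
section ZBZ2S15_005_8

/-!
# S15 / LOCAL-N / LN-PKG, piece PKG-card (3): the pole-control elements `e = h ^ i * j ^ m`

`h = 1 / oggU = Δ(q)/Δ(q^N)`: `div h = (N - 1)((0) - (∞))`, leading coefficient `1`,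
`|h|₁ = 1`, `|h|₂ < 1`.

* `pkgcB_h` : `h ∈ B` with reductions `((uS k N)⁻¹, 0)`;
* `pkgcB_wh` : `w_N h = N ^ 12 • oggU ∈ B` with reductions `(0, (uS k N)⁻¹)`;
* `pkgc_exists_E` : for `a ≥ N (N - 1)` there is `e ∈ B` whose `q`-expansion is
  `q ^ (-a) + …`, and such that `w_N e` has no pole at `q = 0`.
-/

set_option autoImplicit false
set_option linter.unusedSectionVars false

noncomputable section

namespace Fermat.Agent.S15.LN

open ModularCurve AlgebraicCurve HahnSeries Polynomial Fermat.Agent.ES Fermat.Agent.S24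
  Fermat.Agent.ES.M Fermat.Agent.DEU Fermat.Agent.INJ Fermat.Agent.S15 Fermat.Agent.S28

variable (N : ℕ) [NeZero N] (A : ValuationSubring Kb)

/-! ### `h` and `w_N h` -/

/-- `h` has poles only at the cusps -/
theorem pkgc_poles_h (hN : N.Prime) : PolesAtCusps N (oggU N)⁻¹ := by
  classical
  intro P hP
  rw [← ogg_div N hN P, coe_cuspDiv, Finsupp.smul_apply, Finsupp.sub_apply]
  have hne : P ≠ cuspInf N := by
    rintro rfl
    rw [cuspInf_ord_jF] at hP
    omega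
  rw [Finsupp.single_eq_of_ne hne, sub_zero]
  apply smul_nonneg (Nat.zero_le _)
  rw [Finsupp.single_apply]
  split_ifs <;> norm_num

/-- `w_N h = N ^ 12 • oggU` -/
theorem pkgc_fricke_h : frickeAut N (oggU N)⁻¹ = ((N : Kb) ^ 12) • oggU N := by
  have hfr := ogg_fricke N
  have hu0 : oggU N ≠ 0 := oggU_ne_zero N
  have hN0 : ((N : Kb) ^ 12) ≠ 0 := pow_ne_zero _ (Nat.cast_ne_zero.mpr (NeZero.ne N))
  have hN0' : algebraMap Kb (FF N) ((N : Kb) ^ 12) ≠ 0 := (_root_.map_ne_zero _).mpr hN0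
  have hw0 : frickeAut N (oggU N) ≠ 0 := (_root_.map_ne_zero _).mpr hu0
  rw [map_inv₀, Algebra.smul_def]
  rw [inv_eq_iff_eq_inv, mul_inv]
  have h1 : frickeAut N (oggU N) = algebraMap Kb (FF N) (((N : Kb) ^ 12)⁻¹) * (oggU N)⁻¹ := by
    rw [← hfr, mul_assoc, mul_inv_cancel₀ hu0, mul_one]
  rw [h1, map_inv₀]

theorem pkgc_natCast_pow_nonunit (hA : A.LiesOverPrime N) : ((N : Kb) ^ 12) ∈ A.nonunits := by
  have h1 : (N : Kb) ∈ A.nonunits := hA
  rw [ValuationSubring.mem_nonunits_iff] at h1 ⊢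
  rw [map_pow]
  exact pow_lt_one₀ zero_le h1 (by norm_num)

/-- `h ∈ B` with reductions `(h̄₁, 0)` -/
theorem pkgcB_h (hN : N.Prime) (hA : A.LiesOverPrime N) :
    PkgcB N A (oggU N)⁻¹ (uS (kA A) N)⁻¹ 0 := by
  refine ⟨pkgc_poles_h N hN, pkg_gaussRed_h N A, ?_⟩
  rw [pkgc_fricke_h]
  exact pkgc_gaussRed_smul_nonunit (pkgc_natCast_pow_nonunit N A hA) (pkg_gaussRed_oggU N A)

/-- `w_N h ∈ B` with reductions `(0, h̄₁)` -/
theorem pkgcB_wh (hN : N.Prime) (hA : A.LiesOverPrime N) :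
    PkgcB N A (frickeAut N (oggU N)⁻¹) 0 (uS (kA A) N)⁻¹ :=
  (pkgcB_h N A hN hA).swap

/-! ### The elements `e = h ^ i * j ^ m` -/

/-- `e = h ^ i * j ^ m` -/
def pkgcE (i m : ℕ) : FF N := (oggU N)⁻¹ ^ i * jF N ^ m

theorem pkgcE_ne_zero (i m : ℕ) : pkgcE N i m ≠ 0 :=
  mul_ne_zero (pow_ne_zero _ (inv_ne_zero (oggU_ne_zero N))) (pow_ne_zero _ fr_jF_ne_zero)

theorem pkgc_ord_pow (P : Place Kb (FF N)) {f : FF N} (hf : f ≠ 0) (n : ℕ) :
    P.ord (f ^ n) = n * P.ord f := by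
  induction n with
  | zero => rw [pow_zero, Place.ord_one]; simp
  | succ n ih =>
    rw [pow_succ, Place.ord_mul _ (pow_ne_zero _ hf) hf, ih]
    push_cast
    ring

theorem pkgcE_ord (P : Place Kb (FF N)) (i m : ℕ) :
    P.ord (pkgcE N i m) = -(i * P.ord (oggU N)) + m * P.ord (jF N) := by
  rw [pkgcE, Place.ord_mul _ (pow_ne_zero _ (inv_ne_zero (oggU_ne_zero N)))
    (pow_ne_zero _ fr_jF_ne_zero), pkgc_ord_pow N P (inv_ne_zero (oggU_ne_zero N)),
    pkgc_ord_pow N P fr_jF_ne_zero, Place.ord_inv]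
  ring

theorem pkgcE_order (i m : ℕ) :
    ((pkgcE N i m : FF N) : LaurentSeries Kb).order = -((i : ℤ) * ((N : ℤ) - 1) + m) := by
  rw [← cuspInf_ord (pkgcE_ne_zero N i m), pkgcE_ord, ogg_ord_cuspInf, cuspInf_ord_jF]
  ring

theorem pkgcE_fricke_order (hN : N.Prime) (i m : ℕ) :
    ((frickeAut N (pkgcE N i m) : FF N) : LaurentSeries Kb).order =
      (i : ℤ) * ((N : ℤ) - 1) - m * N := by
  have h0 : frickeAut N (pkgcE N i m) ≠ 0 := (_root_.map_ne_zero _).mpr (pkgcE_ne_zero N i m)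
  rw [← cuspInf_ord h0, ← cuspZero_ord, pkgcE_ord, ogg_ord_cuspZero N hN, cuspZero_ord_jF]
  ring

theorem pkgc_oggLc_inv {f : FF N} (hf : f ≠ 0) : oggLc f⁻¹ = (oggLc f)⁻¹ := by
  have h1 : oggLc f * oggLc f⁻¹ = 1 := by
    rw [← oggLc_mul, mul_inv_cancel₀ hf, oggLc_one]
  exact eq_inv_of_mul_eq_one_right h1

theorem pkgc_oggLc_jF : oggLc (jF N) = 1 := by
  rw [oggLc, pkg_coe_jF, pkgc_leadingCoeff_j]

theorem pkgcE_lc (i m : ℕ) : oggLc (pkgcE N i m) = 1 := by
  rw [pkgcE, oggLc_mul, oggLc_pow, oggLc_pow, pkgc_oggLc_inv N (oggU_ne_zero N), oggLc_oggU,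
    pkgc_oggLc_jF, inv_one, one_pow, one_pow, mul_one]

/-- the coefficient of `q ^ (-a)` in `e` is `1`, `a = i (N - 1) + m` -/
theorem pkgcE_coeff (i m : ℕ) :
    ((pkgcE N i m : FF N) : LaurentSeries Kb).coeff (-((i : ℤ) * ((N : ℤ) - 1) + m)) = 1 := by
  have h := pkgcE_lc N i m
  rw [oggLc, HahnSeries.leadingCoeff_eq, pkgcE_order] at h
  exact h

theorem pkgcE_poleLe (i m : ℕ) :
    PkgcPoleLe ((i : ℤ) * ((N : ℤ) - 1) + m) ((pkgcE N i m : FF N) : LaurentSeries Kb) := by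
  have h0 : ((pkgcE N i m : FF N) : LaurentSeries Kb) ≠ 0 := fun h =>
    pkgcE_ne_zero N i m (Subtype.ext h)
  rw [pkgcPoleLe_iff_order h0, pkgcE_order]

theorem pkgcE_fricke_poleLe (hN : N.Prime) (i m : ℕ) (h : m * N ≤ i * (N - 1)) :
    PkgcPoleLe 0 ((frickeAut N (pkgcE N i m) : FF N) : LaurentSeries Kb) := by
  have h0 : frickeAut N (pkgcE N i m) ≠ 0 := (_root_.map_ne_zero _).mpr (pkgcE_ne_zero N i m)
  have h0' : ((frickeAut N (pkgcE N i m) : FF N) : LaurentSeries Kb) ≠ 0 := fun h =>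
    h0 (Subtype.ext h)
  rw [pkgcPoleLe_iff_order h0', pkgcE_fricke_order N hN, neg_zero]
  have h1 : ((m * N : ℕ) : ℤ) ≤ ((i * (N - 1) : ℕ) : ℤ) := by exact_mod_cast h
  have hN1 : ((N - 1 : ℕ) : ℤ) = (N : ℤ) - 1 := by
    have := hN.one_le
    push_cast [Nat.cast_sub this]
    ring
  push_cast at h1
  rw [hN1] at h1
  linarith

theorem pkgcB_E (hN : N.Prime) (hA : A.LiesOverPrime N) (i m : ℕ) :
    ∃ u v : LaurentSeries (kA A), PkgcB N A (pkgcE N i m) u v :=
  ⟨_, _, ((pkgcB_h N A hN hA).pow i).mul ((pkgcB_j N A hN hA).pow m)⟩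

/-- **the pole-control elements**: for `a ≥ N (N - 1)` there is `e ∈ B` with `q`-expansion
`q ^ (-a) + …` such that `w_N e` has no pole at `q = 0`. -/
theorem pkgc_exists_E (hN : N.Prime) (hA : A.LiesOverPrime N) (a : ℕ) (ha : N * (N - 1) ≤ a) :
    ∃ e : FF N, (∃ u v : LaurentSeries (kA A), PkgcB N A e u v) ∧
      PkgcPoleLe (a : ℤ) ((e : FF N) : LaurentSeries Kb) ∧
      ((e : FF N) : LaurentSeries Kb).coeff (-(a : ℤ)) = 1 ∧
      PkgcPoleLe 0 ((frickeAut N e : FF N) : LaurentSeries Kb) := by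
  have hN2 := hN.two_le
  have hpos : 0 < N - 1 := by omega
  set i := a / (N - 1) with hi
  set m := a % (N - 1) with hm
  have hdm : (N - 1) * i + m = a := Nat.div_add_mod a (N - 1)
  have hmlt : m < N - 1 := Nat.mod_lt a hpos
  have hiN : N ≤ i := by
    rw [hi, Nat.le_div_iff_mul_le hpos]
    exact ha
  have hcast : (i : ℤ) * ((N : ℤ) - 1) + m = (a : ℤ) := by
    have hN1 : ((N - 1 : ℕ) : ℤ) = (N : ℤ) - 1 := by
      push_cast [Nat.cast_sub hN.one_le]
      ring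
    rw [← hN1]
    have : (((N - 1) * i + m : ℕ) : ℤ) = (a : ℤ) := by rw [hdm]
    push_cast at this
    linarith
  refine ⟨pkgcE N i m, pkgcB_E N A hN hA i m, ?_, ?_, ?_⟩
  · rw [← hcast]
    exact pkgcE_poleLe N i m
  · rw [← hcast]
    exact pkgcE_coeff N i m
  · apply pkgcE_fricke_poleLe N hN
    calc m * N ≤ (N - 1) * N := Nat.mul_le_mul_right N hmlt.le
      _ = N * (N - 1) := Nat.mul_comm _ _
      _ ≤ i * (N - 1) := Nat.mul_le_mul_right (N - 1) hiN

end Fermat.Agent.S15.LN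

end
end ZBZ2S15_005_8

/-! ### bundled: `Fermat.Agent.S15.PkgCardLift` -/
section ZBZ2S15_005_9

/-!
# S15 / LOCAL-N / LN-PKG, piece PKG-card (4): lifting with pole control

* `pkgc_reduce_inf` : an element `f ∈ B` whose first reduction has a pole of order `≤ a` at
  `q = 0` (`a + 1 ≥ N (N - 1)`) can be replaced by `f' ∈ B` with the same reductions and with a
  pole of order `≤ a` at the cusp `∞`, without increasing the pole at the cusp `0`;
* `pkgc_reduce` : the same at both cusps;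
* `pkgcD a b = a (∞) + b (0)`, `pkgc_mem_rr_iff` : `L(a (∞) + b (0))` in terms of `q`-expansions.
-/

set_option autoImplicit false
set_option linter.unusedSectionVars false

noncomputable section

namespace Fermat.Agent.S15.LN

open ModularCurve AlgebraicCurve HahnSeries Polynomial Fermat.Agent.ES Fermat.Agent.S24
  Fermat.Agent.ES.M Fermat.Agent.DEU Fermat.Agent.INJ Fermat.Agent.S15 Fermat.Agent.S28

variable (N : ℕ) [NeZero N] (A : ValuationSubring Kb)

theorem pkgc_coe_sub (x y : FF N) :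
    ((x - y : FF N) : LaurentSeries Kb) = (x : LaurentSeries Kb) - (y : LaurentSeries Kb) := rfl

theorem PkgcPoleLe.smul {R : Type*} [CommRing R] {a : ℤ} {x : LaurentSeries R}
    (hx : PkgcPoleLe a x) (c : R) : PkgcPoleLe a (c • x) := by
  intro m hm
  rw [HahnSeries.coeff_smul, hx m hm, smul_zero]

/-- **pole reduction at the cusp `∞`** -/
theorem pkgc_reduce_inf (hN : N.Prime) (hA : A.LiesOverPrime N) (a : ℕ)
    (ha : N * (N - 1) ≤ a + 1) :
    ∀ (n : ℕ) (f : FF N) (u v : LaurentSeries (kA A)), PkgcB N A f u v →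
      PkgcPoleLe (a : ℤ) u → PkgcPoleLe ((a : ℤ) + n) ((f : FF N) : LaurentSeries Kb) →
      ∃ f' : FF N, PkgcB N A f' u v ∧ PkgcPoleLe (a : ℤ) ((f' : FF N) : LaurentSeries Kb) ∧
        ∀ b : ℕ, PkgcPoleLe (b : ℤ) ((frickeAut N f : FF N) : LaurentSeries Kb) →
          PkgcPoleLe (b : ℤ) ((frickeAut N f' : FF N) : LaurentSeries Kb) := by
  intro n
  induction n with
  | zero =>
    intro f u v hf _ hfa
    refine ⟨f, hf, ?_, fun b hb => hb⟩
    simpa using hfa
  | succ n ih =>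
    intro f u v hf hu hfa
    -- the pole-control element
    obtain ⟨e, ⟨eu, ev, he⟩, hepole, hecoeff, hewpole⟩ :=
      pkgc_exists_E N A hN hA (a + n + 1) (by omega)
    -- the leading coefficient
    obtain ⟨Y, hY, hYred⟩ := pkgc_exists_lift N A hN hA hf.1 hf.2.1
    set c : A := Y.coeff (-((a + n + 1 : ℕ) : ℤ)) with hc
    have hcres : IsLocalRing.residue A c = 0 := by
      have h1 : u.coeff (-((a + n + 1 : ℕ) : ℤ)) = 0 := hu _ (by push_cast; omega)
      rw [← hYred, coeffMap_coeff] at h1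
      exact h1
    have hcnu : (c : Kb) ∈ A.nonunits := by
      rw [ValuationSubring.coe_mem_nonunits_iff, ← IsLocalRing.residue_eq_zero_iff]
      exact hcres
    have hfc : ((f : FF N) : LaurentSeries Kb).coeff (-((a + n + 1 : ℕ) : ℤ)) = (c : Kb) := by
      rw [← hY, coeffMap_coeff]
      rfl
    -- the corrected element
    have hf₁ : PkgcB N A (f - (c : Kb) • e) u v := by
      have := hf.sub (he.smul_nonunit hcnu)
      rwa [sub_zero, sub_zero] at this
    have hpole₁ : PkgcPoleLe ((a : ℤ) + n) ((f - (c : Kb) • e : FF N) : LaurentSeries Kb) := by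
      intro m hm
      rw [pkgc_coe_sub, q2_coe_smul, HahnSeries.coeff_sub, HahnSeries.coeff_smul]
      by_cases hm' : m < -((a + n + 1 : ℕ) : ℤ)
      · have h1 : ((f : FF N) : LaurentSeries Kb).coeff m = 0 :=
          hfa m (by push_cast at hm' ⊢; omega)
        rw [h1, hepole m hm', smul_zero, sub_zero]
      · have hmeq : m = -((a + n + 1 : ℕ) : ℤ) := by push_cast at hm' ⊢; omega
        rw [hmeq, hfc, hecoeff, smul_eq_mul, mul_one, sub_self]
    obtain ⟨f', hf', hpole', hw'⟩ := ih (f - (c : Kb) • e) u v hf₁ hu hpole₁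
    refine ⟨f', hf', hpole', fun b hb => hw' b ?_⟩
    rw [map_sub, pkgc_fricke_smul, pkgc_coe_sub, q2_coe_smul]
    exact hb.sub ((hewpole.mono (by positivity)).smul _)

/-- **pole reduction at both cusps** -/
theorem pkgc_reduce (hN : N.Prime) (hA : A.LiesOverPrime N) (a b : ℕ)
    (ha : N * (N - 1) ≤ a + 1) (hb : N * (N - 1) ≤ b + 1) {f : FF N}
    {u v : LaurentSeries (kA A)} (hf : PkgcB N A f u v) (hu : PkgcPoleLe (a : ℤ) u)
    (hv : PkgcPoleLe (b : ℤ) v) :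
    ∃ f' : FF N, PkgcB N A f' u v ∧ PkgcPoleLe (a : ℤ) ((f' : FF N) : LaurentSeries Kb) ∧
      PkgcPoleLe (b : ℤ) ((frickeAut N f' : FF N) : LaurentSeries Kb) := by
  obtain ⟨n₀, hn₀⟩ := pkgc_exists_poleLe ((f : FF N) : LaurentSeries Kb) a
  obtain ⟨n₁, hn₁⟩ := pkgc_exists_poleLe ((frickeAut N f : FF N) : LaurentSeries Kb) b
  obtain ⟨f₁, hf₁, hp₁, hw₁⟩ := pkgc_reduce_inf N A hN hA a ha n₀ f u v hf hu hn₀
  have hwf₁ : PkgcPoleLe ((b : ℤ) + n₁) ((frickeAut N f₁ : FF N) : LaurentSeries Kb) := by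
    have := hw₁ (b + n₁) (by push_cast; exact hn₁)
    push_cast at this
    exact this
  obtain ⟨g, hg, hpg, hwg⟩ :=
    pkgc_reduce_inf N A hN hA b hb n₁ (frickeAut N f₁) v u hf₁.swap hv hwf₁
  refine ⟨frickeAut N g, hg.swap, ?_, ?_⟩
  · apply hwg a
    rw [frickeAut_frickeAut]
    exact hp₁
  · rw [frickeAut_frickeAut]
    exact hpg

/-! ### The space `L(a (∞) + b (0))` -/

/-- the divisor `a (∞) + b (0)` -/
def pkgcD (a b : ℕ) : Divisor Kb (FF N) :=
  Finsupp.single (cuspInf N) (a : ℤ) + Finsupp.single (cuspZero N) (b : ℤ)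

theorem pkgc_degree_D (a b : ℕ) : Divisor.degree (pkgcD N a b) = (a : ℤ) + b := by
  rw [pkgcD, map_add, Divisor.degree_single, Divisor.degree_single, cuspInf_deg, cuspZero_deg]
  simp

theorem pkgc_D_inf (hN : N.Prime) (a b : ℕ) : pkgcD N a b (cuspInf N) = a := by
  classical
  rw [pkgcD, Finsupp.add_apply, Finsupp.single_eq_same,
    Finsupp.single_eq_of_ne (cuspZero_ne_cuspInf N hN.two_le).symm, add_zero]

theorem pkgc_D_zero (hN : N.Prime) (a b : ℕ) : pkgcD N a b (cuspZero N) = b := by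
  classical
  rw [pkgcD, Finsupp.add_apply, Finsupp.single_eq_same,
    Finsupp.single_eq_of_ne (cuspZero_ne_cuspInf N hN.two_le), zero_add]

theorem pkgc_D_of_ne (a b : ℕ) {P : Place Kb (FF N)} (h1 : P ≠ cuspInf N)
    (h2 : P ≠ cuspZero N) : pkgcD N a b P = 0 := by
  classical
  rw [pkgcD, Finsupp.add_apply, Finsupp.single_eq_of_ne h1, Finsupp.single_eq_of_ne h2,
    add_zero]

theorem pkgc_poleLe_iff_ord (a : ℕ) {f : FF N} (hf : f ≠ 0) :
    PkgcPoleLe (a : ℤ) ((f : FF N) : LaurentSeries Kb) ↔ -(a : ℤ) ≤ (cuspInf N).ord f := by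
  have h0 : ((f : FF N) : LaurentSeries Kb) ≠ 0 := fun h => hf (Subtype.ext h)
  rw [pkgcPoleLe_iff_order h0, cuspInf_ord hf]

/-- `L(a (∞) + b (0))` in terms of `q`-expansions -/
theorem pkgc_mem_rr_iff (hN : N.Prime) (a b : ℕ) (f : FF N) :
    f ∈ riemannRochSpace (pkgcD N a b) ↔ PolesAtCusps N f ∧
      PkgcPoleLe (a : ℤ) ((f : FF N) : LaurentSeries Kb) ∧
        PkgcPoleLe (b : ℤ) ((frickeAut N f : FF N) : LaurentSeries Kb) := by
  rcases eq_or_ne f 0 with rfl | hf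
  · refine ⟨fun _ => ⟨pkgc_poles_zero N, pkgcPoleLe_zero _, ?_⟩, fun _ => Submodule.zero_mem _⟩
    rw [map_zero]
    exact pkgcPoleLe_zero _
  have hwf : frickeAut N f ≠ 0 := (_root_.map_ne_zero _).mpr hf
  rw [mem_riemannRochSpace_iff, pkgc_poleLe_iff_ord N a hf, pkgc_poleLe_iff_ord N b hwf,
    ← cuspZero_ord]
  constructor
  · intro h
    refine ⟨fun P hP => ?_, ?_, ?_⟩
    · have h1 : P ≠ cuspInf N := by
        rintro rfl
        rw [cuspInf_ord_jF] at hP
        omega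
      have h2 : P ≠ cuspZero N := by
        rintro rfl
        rw [cuspZero_ord_jF] at hP
        have : (0 : ℤ) < N := by exact_mod_cast hN.pos
        omega
      rcases h P with h | h
      · exact absurd h hf
      · rw [pkgc_D_of_ne N a b h1 h2] at h
        omega
    · rcases h (cuspInf N) with h | h
      · exact absurd h hf
      · rwa [pkgc_D_inf N hN] at h
    · rcases h (cuspZero N) with h | h
      · exact absurd h hf
      · rwa [pkgc_D_zero N hN] at h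
  · rintro ⟨hp, h1, h2⟩ P
    right
    by_cases hP1 : P = cuspInf N
    · subst hP1
      rwa [pkgc_D_inf N hN]
    by_cases hP2 : P = cuspZero N
    · subst hP2
      rwa [pkgc_D_zero N hN]
    rw [pkgc_D_of_ne N a b hP1 hP2, neg_zero]
    apply hp
    by_contra hneg
    rcases ogg_pole_cases N hN P (not_le.mp hneg) with h | h
    · exact hP1 h
    · exact hP2 h

end Fermat.Agent.S15.LN

end
end ZBZ2S15_005_9

/-! ### bundled: `Fermat.Agent.S15.PkgCross` -/
section ZBZ2S15_005_10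

/-!
# S15 / LN-PKG, piece PKG-cross (helper8): the crossing points

`PkgIsCross N A hB` (`PlanPKG.lean`) from

* `PkgIsType N A` (PKG-type, helper25): `place_ext`, `r_inl_iff`, `r_inr_iff`;
* `StmtPkgEv` (PKG-ev, helper72) for `b = h = (oggU N)⁻¹`, which is integral over `A[j]` by
  `stmtPkgTV` (PKG-tv, helper10, landed);
* `PkgIsFrob N A hB` (the export of PKG-card, helper89): the crossing set is finite and
  symmetric.  Two constructors: `pkgcr_isFrob_of_pointwise` (from `HasPrincipalDivisors` on the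
  component and the pointwise Frobenius statement `PkgFrobPt`).

Main statements: `pkgcr_isCross`, `stmtPkgCross_of`.
-/

set_option autoImplicit false
set_option linter.unusedSectionVars false

noncomputable section

open AlgebraicCurve Module ModularCurve

namespace Fermat.Agent.S15.LN

open Fermat.Agent.W1 Fermat.Agent.S24 Fermat.Agent.S15 Fermat.Agent.ES.M Fermat.Agent.DEU
  Fermat.Agent.INJ

variable (N : ℕ) [NeZero N] (A : ValuationSubring Kb)

/-! ## The hypotheses -/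

/-- the export of PKG-card: the crossing set is finite and symmetric under `w_N` -/
structure PkgIsFrob (hB : PkgBase N A) : Prop where
  finite : (pkgXset N A hB).Finite
  symm : ∀ x ∈ pkgXset N A hB, (x.2, x.1) ∈ pkgXset N A hB

/-- the pointwise form of the Frobenius symmetry: the zeros of `h̄₁` lie in `𝔽_{N²}` and are
stable under `a ↦ a ^ N` -/
def PkgFrobPt (hB : PkgBase N A) : Prop :=
  ∀ (Q Q' : Place (kA A) (FFk A)) (a : kA A), 0 < Q.ord (pkgHbar N A hB) →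
    HasValueAt Q (pkgJbar A) a → HasValueAt Q' (pkgJbar A) (a ^ N) →
      a ^ (N ^ 2) = a ∧ 0 < Q'.ord (pkgHbar N A hB)

/-- the instance of PKG-ev at `(N, A, hB)` for the coordinate `j` -/
def PkgEvJ (hB : PkgBase N A) : Prop :=
  ∀ (P : Place Kb (FF N)) (Q : Place (kA A) (FFk A)), pkgR N A P = some (Sum.inl Q) →
    (∃ a : A, HasValueAt P (jF N) (a : Kb)) → ∀ (b : FF N), PkgInt N A (jF N) b →
      ∀ hb₁ : b ∈ pkgO₁ N A,
      ∃ c : A, HasValueAt P b (c : Kb) ∧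
        HasValueAt Q (pkgRed₁ N A hB ⟨b, hb₁⟩) (IsLocalRing.residue A c)

variable {N A}

theorem pkgcr_evJ_of_stmt (hEv : StmtPkgEv) (hN : N.Prime) (h5 : 5 ≤ N)
    (hA : A.LiesOverPrime N) (hB : PkgBase N A) : PkgEvJ N A hB :=
  fun P Q hPQ ha b hb hb₁ => hEv N hN h5 A hA hB (jF N) (Or.inl rfl) P Q hPQ ha b hb hb₁

/-! ## Membership in `pkgX` -/

theorem pkgcr_mem_X_iff {hB : PkgBase N A} (hfin : (pkgXset N A hB).Finite)
    (x : Place (kA A) (FFk A) × Place (kA A) (FFk A)) :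
    x ∈ pkgX N A hB ↔ x ∈ pkgXset N A hB := by
  unfold pkgX
  rw [dif_pos hfin]
  exact Set.Finite.mem_toFinset hfin

theorem pkgcr_mem_Xset_of_mem_X {hB : PkgBase N A}
    {x : Place (kA A) (FFk A) × Place (kA A) (FFk A)} (hx : x ∈ pkgX N A hB) :
    x ∈ pkgXset N A hB := by
  unfold pkgX at hx
  by_cases hfin : (pkgXset N A hB).Finite
  · rw [dif_pos hfin] at hx
    exact (Set.Finite.mem_toFinset hfin).mp hx
  · rw [dif_neg hfin] at hx
    exact absurd hx (Finset.notMem_empty _)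

theorem pkgcr_mem_Xset_iff {hB : PkgBase N A}
    (x : Place (kA A) (FFk A) × Place (kA A) (FFk A)) :
    x ∈ pkgXset N A hB ↔ 0 < x.1.ord (pkgHbar N A hB) ∧
      ∃ a : kA A, HasValueAt x.1 (pkgJbar A) a ∧ HasValueAt x.2 (pkgJbar A) (a ^ N) :=
  Iff.rfl

/-! ## Injectivity of the two projections -/

theorem pkgcr_injOn_fst (hT : PkgIsType N A) (hB : PkgBase N A) :
    Set.InjOn Prod.fst (pkgXset N A hB) := by
  rintro ⟨x₁, x₂⟩ ⟨-, a, ha₁, ha₂⟩ ⟨y₁, y₂⟩ ⟨-, b, hb₁, hb₂⟩ h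
  simp only at h ha₁ ha₂ hb₁ hb₂
  subst h
  have hab : a = b := hasValueAt_unique x₁ ha₁ hb₁
  subst hab
  rw [hT.place_ext x₂ y₂ _ ha₂ hb₂]

theorem pkgcr_pow_injective (hN : N.Prime) (hA : A.LiesOverPrime N) {a b : kA A}
    (h : a ^ N = b ^ N) : a = b := by
  have : Fact N.Prime := ⟨hN⟩
  have : CharP (kA A) N := Fermat.Agent.ES.kron_charP_residueField hN hA
  exact frobenius_inj (kA A) N h

theorem pkgcr_injOn_snd (hT : PkgIsType N A) (hN : N.Prime) (hA : A.LiesOverPrime N)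
    (hB : PkgBase N A) : Set.InjOn Prod.snd (pkgXset N A hB) := by
  rintro ⟨x₁, x₂⟩ ⟨-, a, ha₁, ha₂⟩ ⟨y₁, y₂⟩ ⟨-, b, hb₁, hb₂⟩ h
  simp only at h ha₁ ha₂ hb₁ hb₂
  subst h
  have hab : a = b := pkgcr_pow_injective hN hA (hasValueAt_unique x₂ ha₂ hb₂)
  subst hab
  rw [hT.place_ext x₁ y₁ _ ha₁ hb₁]

/-! ## Finiteness and symmetry from the pointwise statement -/

theorem pkgcr_finite_zeros (hpd : HasPrincipalDivisors (kA A) (FFk A)) {f : FFk A}
    (hf : f ≠ 0) : {Q : Place (kA A) (FFk A) | 0 < Q.ord f}.Finite := by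
  obtain ⟨D, hD, -⟩ := hpd.exists_divisor f hf
  refine Set.Finite.subset D.support.finite_toSet fun Q hQ => ?_
  rw [Finset.mem_coe, Finsupp.mem_support_iff, hD]
  exact ne_of_gt hQ

theorem pkgcr_finite (hT : PkgIsType N A) (hpd : HasPrincipalDivisors (kA A) (FFk A))
    (hB : PkgBase N A) : (pkgXset N A hB).Finite := by
  refine Set.Finite.of_finite_image ?_ (pkgcr_injOn_fst hT hB)
  refine Set.Finite.subset (pkgcr_finite_zeros hpd (pkg_Hbar_ne_zero N A hB)) ?_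
  rintro Q ⟨x, hx, rfl⟩
  exact hx.1

theorem pkgcr_symm_of_pointwise {hB : PkgBase N A} (hF : PkgFrobPt N A hB)
    (x : Place (kA A) (FFk A) × Place (kA A) (FFk A)) (hx : x ∈ pkgXset N A hB) :
    (x.2, x.1) ∈ pkgXset N A hB := by
  obtain ⟨hord, a, ha₁, ha₂⟩ := hx
  obtain ⟨hpow, hord'⟩ := hF x.1 x.2 a hord ha₁ ha₂
  refine ⟨hord', a ^ N, ha₂, ?_⟩
  have e : (a ^ N) ^ N = a := by rw [← pow_mul, ← pow_two, hpow]
  change HasValueAt x.1 (pkgJbar A) ((a ^ N) ^ N)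
  rw [e]
  exact ha₁

theorem pkgcr_isFrob_of_pointwise (hT : PkgIsType N A)
    (hpd : HasPrincipalDivisors (kA A) (FFk A)) {hB : PkgBase N A} (hF : PkgFrobPt N A hB) :
    PkgIsFrob N A hB where
  finite := pkgcr_finite hT hpd hB
  symm := pkgcr_symm_of_pointwise hF

/-! ## `h` is integral over `A[j]` -/

theorem pkgcr_h_mem₂ (hN : N.Prime) (hA : A.LiesOverPrime N) : (oggU N)⁻¹ ∈ pkgO₂ N A :=
  ge_nonunits_mem (pkg_h_mem₂ N A (pkg_base N A hN hA) hA)

theorem pkgcr_h_regular (hN : N.Prime) (P : Place Kb (FF N)) (hP : 0 ≤ P.ord (jF N)) :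
    0 ≤ P.ord (oggU N)⁻¹ := by
  have hZI : cuspZero N ≠ cuspInf N := cuspZero_ne_cuspInf N hN.two_le
  by_cases h1 : P = cuspInf N
  · subst h1
    rw [cuspInf_ord_jF] at hP
    omega
  · by_cases h2 : P = cuspZero N
    · subst h2
      rw [cuspZero_ord_jF] at hP
      have : (0 : ℤ) < N := by exact_mod_cast hN.pos
      omega
    · rw [Place.ord_inv, ogg_ord_of_ne N hN P h1 h2]
      simp

theorem pkgcr_h_int (hN : N.Prime) (h5 : 5 ≤ N) (hA : A.LiesOverPrime N) :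
    PkgInt N A (jF N) (oggU N)⁻¹ :=
  stmtPkgTV N hN h5 A hA (jF N) (Or.inl rfl) (oggU N)⁻¹ (pkg_h_mem₁ N A) (pkgcr_h_mem₂ hN hA)
    (pkgcr_h_regular hN)

theorem pkgcr_red₁_h (hB : PkgBase N A) (h : (oggU N)⁻¹ ∈ pkgO₁ N A) :
    pkgRed₁ N A hB ⟨(oggU N)⁻¹, h⟩ = pkgHbar N A hB := by
  unfold pkgHbar
  rw [dif_pos h]

/-! ## `cross₁`, `cross₂` -/

theorem pkgcr_Jbar_ne_zero : pkgJbar A ≠ 0 := by
  intro h
  have h1 : ((pkgJbar A : FFk A) : LaurentSeries (kA A)) = 0 := by rw [h]; rfl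
  rw [pkg_coe_Jbar] at h1
  exact jqModC_ne_zero_of_nontrivial (kA A) h1

/-- a place of type `1` whose reduction has a finite `j̄`-value has an integral `j`-value -/
theorem pkgcr_j_value {P : Place Kb (FF N)} {Q : Place (kA A) (FFk A)}
    (hrel : PkgRel₁ N A P Q) {a : kA A} (ha : HasValueAt Q (pkgJbar A) a) :
    ∃ c : A, HasValueAt P (jF N) (c : Kb) := by
  rcases hrel.2 with ⟨c, hc, -⟩ | ⟨c, hc, hcQ⟩
  · exact ⟨c, hc⟩
  · -- `j̄(Q) · (1/j̄)(Q) = 1`
    have hmul := ln_hasValueAt_mul ha hcQ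
    rw [mul_inv_cancel₀ (pkgcr_Jbar_ne_zero (A := A))] at hmul
    have h1 : a * IsLocalRing.residue A c = 1 :=
      hasValueAt_unique Q hmul (ln_hasValueAt_one Q)
    have hres : IsLocalRing.residue A c ≠ 0 := by
      intro h0
      rw [h0, mul_zero] at h1
      exact zero_ne_one h1
    have hcu : IsUnit c := by
      by_contra hnu
      exact hres ((IsLocalRing.residue_eq_zero_iff c).mpr ((IsLocalRing.mem_maximalIdeal c).mpr hnu))
    have hc0 : (c : Kb) ≠ 0 := by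
      intro h0
      apply hres
      have : c = 0 := Subtype.ext h0
      rw [this, map_zero]
    obtain ⟨u, hu⟩ := hcu
    refine ⟨((u⁻¹ : Aˣ) : A), ?_⟩
    have hinv := ln_hasValueAt_inv hc hc0
    rw [inv_inv] at hinv
    have e : (((u⁻¹ : Aˣ) : A) : Kb) = (c : Kb)⁻¹ := by
      rw [← hu]
      have h2 : ((u : A) : Kb) * (((u⁻¹ : Aˣ) : A) : Kb) = 1 := by
        rw [← MulMemClass.coe_mul, Units.mul_inv]
        rfl
      exact eq_inv_of_mul_eq_one_right h2
    rw [e]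
    exact hinv

theorem pkgcr_cross₁_set (hT : PkgIsType N A) (hN : N.Prime) (h5 : 5 ≤ N)
    (hA : A.LiesOverPrime N) (hB : PkgBase N A) (hEv : PkgEvJ N A hB)
    (P : Place Kb (FF N)) (Q : Place (kA A) (FFk A)) (hPQ : pkgR N A P = some (Sum.inl Q))
    (x : Place (kA A) (FFk A) × Place (kA A) (FFk A)) (hx : x ∈ pkgXset N A hB) : x.1 ≠ Q := by
  rintro rfl
  obtain ⟨hord, a, ha₁, -⟩ := hx
  have hrel : PkgRel₁ N A P x.1 := (hT.r_inl_iff P x.1).mp hPQ
  obtain ⟨c, hc, hcQ⟩ := hEv P x.1 hPQ (pkgcr_j_value hrel ha₁) (oggU N)⁻¹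
    (pkgcr_h_int hN h5 hA) (pkg_h_mem₁ N A)
  rw [pkgcr_red₁_h] at hcQ
  obtain ⟨d, hdA, hd⟩ := hrel.1
  have hmul := ln_hasValueAt_mul hc hd
  rw [inv_mul_cancel₀ (oggU_ne_zero N)] at hmul
  have h1 : (c : Kb) * d = 1 := hasValueAt_unique P hmul (ln_hasValueAt_one P)
  have hres : IsLocalRing.residue A c ≠ 0 := by
    intro h0
    have hcm : c ∈ IsLocalRing.maximalIdeal A := (IsLocalRing.residue_eq_zero_iff c).mp h0
    rw [IsLocalRing.mem_maximalIdeal] at hcm
    apply hcm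
    refine ⟨⟨c, ⟨d, hdA⟩, Subtype.ext h1, Subtype.ext ?_⟩, rfl⟩
    change d * (c : Kb) = 1
    rw [mul_comm]
    exact h1
  have h0 := ln_ord_eq_zero_of_value hcQ hres
  omega

theorem pkgcr_isCross (hT : PkgIsType N A) (hN : N.Prime) (h5 : 5 ≤ N)
    (hA : A.LiesOverPrime N) (hB : PkgBase N A) (hEv : PkgEvJ N A hB)
    (hF : PkgIsFrob N A hB) : PkgIsCross N A hB where
  finite := hF.finite
  cross₁ := fun P Q hPQ x hx =>
    pkgcr_cross₁_set hT hN h5 hA hB hEv P Q hPQ x (pkgcr_mem_Xset_of_mem_X hx)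
  cross₂ := by
    intro P Q hPQ x hx
    have hrel : PkgRel₁ N A (frickeAut N • P) Q := (hT.r_inr_iff P Q).mp hPQ
    have hPQ' : pkgR N A (frickeAut N • P) = some (Sum.inl Q) :=
      (hT.r_inl_iff (frickeAut N • P) Q).mpr hrel
    exact pkgcr_cross₁_set hT hN h5 hA hB hEv (frickeAut N • P) Q hPQ' (x.2, x.1)
      (hF.symm x (pkgcr_mem_Xset_of_mem_X hx))
  cross_inj₁ := fun x hx y hy h =>
    pkgcr_injOn_fst hT hB (pkgcr_mem_Xset_of_mem_X hx) (pkgcr_mem_Xset_of_mem_X hy) h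
  cross_inj₂ := fun x hx y hy h =>
    pkgcr_injOn_snd hT hN hA hB (pkgcr_mem_Xset_of_mem_X hx) (pkgcr_mem_Xset_of_mem_X hy) h
  symm := fun x hx =>
    (pkgcr_mem_X_iff hF.finite _).mpr (hF.symm x (pkgcr_mem_Xset_of_mem_X hx))

/-- **PKG-cross**, from PKG-type, PKG-ev and the export of PKG-card. -/
theorem stmtPkgCross_of (hT : StmtPkgType) (hEv : StmtPkgEv)
    (hF : ∀ (N : ℕ) [NeZero N], N.Prime → 5 ≤ N → ∀ A : ValuationSubring Kb,
      A.LiesOverPrime N → ∀ hB : PkgBase N A, PkgIsFrob N A hB) : StmtPkgCross :=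
  fun N _ hN h5 A hA hB =>
    pkgcr_isCross (hT N hN h5 A hA) hN h5 hA hB (pkgcr_evJ_of_stmt hEv hN h5 hA hB)
      (hF N hN h5 A hA hB)

end Fermat.Agent.S15.LN

end
end ZBZ2S15_005_10

/-! ### bundled: `Fermat.Agent.S15.PkgCrossG` -/
section ZBZ2S15_005_11

/-!
# S15 / LN-PKG, piece PKG-cross (helper8), part 2: the crossing set and Goursat

* `pkgcr_hasValueAt_aeval` : the value of a polynomial in `t` at a place;
* `stmtPkgXset : StmtPkgXset` (`PkgCardPlan.lean`), unconditional: if `S` is the Goursat set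
  (`PkgIsGoursat N A S`, only the field `zeros` is used), the crossing set is
  `{(Q_s, Q_{s ^ N}) | s ∈ S}`;
* `pkgcr_isFrob_of_goursat` : `PkgIsGoursat N A S ⇒ PkgIsFrob N A hB` (finite and symmetric);
* `stmtPkgCross_of_goursat` : PKG-cross from PKG-type, PKG-ev and the Goursat description.
-/

set_option autoImplicit false
set_option linter.unusedSectionVars false

noncomputable section

open AlgebraicCurve Module ModularCurve Polynomial

namespace Fermat.Agent.S15.LN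

open Fermat.Agent.W1 Fermat.Agent.S24 Fermat.Agent.S15 Fermat.Agent.ES.M Fermat.Agent.DEU Fermat.Agent.S28
  Fermat.Agent.INJ

/-! ## Values of polynomials -/

section Values

variable {K F : Type} [Field K] [Field F] [Algebra K F]

theorem pkgcr_hasValueAt_pow {P : Place K F} {t : F} {a : K} (h : HasValueAt P t a) (n : ℕ) :
    HasValueAt P (t ^ n) (a ^ n) := by
  induction n with
  | zero => rw [pow_zero, pow_zero]; exact ln_hasValueAt_one P
  | succ n ih => rw [pow_succ, pow_succ]; exact ln_hasValueAt_mul ih h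

theorem pkgcr_hasValueAt_aeval {P : Place K F} {t : F} {a : K} (h : HasValueAt P t a)
    (p : K[X]) : HasValueAt P (Polynomial.aeval t p) (p.eval a) := by
  induction p using Polynomial.induction_on' with
  | add p q hp hq =>
    rw [map_add, Polynomial.eval_add]
    exact ln_hasValueAt_add hp hq
  | monomial n c =>
    rw [Polynomial.aeval_monomial, Polynomial.eval_monomial]
    exact ln_hasValueAt_mul (ln_hasValueAt_const P c) (pkgcr_hasValueAt_pow h n)

theorem pkgcr_ord_pos_of_value_zero {P : Place K F} {f : F} (hf : f ≠ 0)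
    (h : HasValueAt P f 0) : 0 < P.ord f := by
  have h1 : f - algebraMap K F 0 ≠ 0 := by rwa [map_zero, sub_zero]
  have h2 := (hasValueAt_iff_ord_pos P h1).mp h
  rwa [map_zero, sub_zero] at h2

end Values

variable {N : ℕ} [NeZero N] {A : ValuationSubring Kb}

/-! ## `h̄₁` as a polynomial in `j̄` -/

theorem pkgcr_coe_aeval (H : (kA A)[X]) :
    ((Polynomial.aeval (pkgJbar A) H : FFk A) : LaurentSeries (kA A)) =
      Polynomial.aeval (jqModC (kA A)) H := by
  have h := Polynomial.aeval_algHom_apply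
    (modularFunctionFieldFullC (kA A) 1).val (pkgJbar A) H
  rw [IntermediateField.val_mk] at h
  exact h.symm

/-- `h̄₁ = H(j̄)` in `k(j̄)` -/
theorem pkgcr_Hbar_eq_aeval (hB : PkgBase N A) {H : (kA A)[X]}
    (hH : Polynomial.aeval (jqModC (kA A)) H = (uS (kA A) N)⁻¹) :
    pkgHbar N A hB = Polynomial.aeval (pkgJbar A) H := by
  apply Subtype.ext
  rw [pkg_coe_Hbar, pkgcr_coe_aeval, hH]

/-- the order of `h̄₁` at a point with finite `j̄`-value `a` is positive iff `H(a) = 0` -/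
theorem pkgcr_ord_Hbar_pos_iff (hB : PkgBase N A) {H : (kA A)[X]}
    (hH : Polynomial.aeval (jqModC (kA A)) H = (uS (kA A) N)⁻¹)
    {Q : Place (kA A) (FFk A)} {a : kA A} (ha : HasValueAt Q (pkgJbar A) a) :
    0 < Q.ord (pkgHbar N A hB) ↔ H.eval a = 0 := by
  have hval : HasValueAt Q (pkgHbar N A hB) (H.eval a) := by
    rw [pkgcr_Hbar_eq_aeval hB hH]
    exact pkgcr_hasValueAt_aeval ha H
  constructor
  · intro hpos
    by_contra hne
    have := ln_ord_eq_zero_of_value hval hne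
    omega
  · intro h0
    rw [h0] at hval
    exact pkgcr_ord_pos_of_value_zero (pkg_Hbar_ne_zero N A hB) hval

/-! ## The crossing set in terms of the Goursat set -/

theorem pkgcr_mem_Xset_iff_of_zeros (hB : PkgBase N A) {S : Finset (kA A)}
    (hz : ∃ H : (kA A)[X], H ≠ 0 ∧ Polynomial.aeval (jqModC (kA A)) H = (uS (kA A) N)⁻¹ ∧
      ∀ a : kA A, a ∈ S ↔ H.eval a = 0)
    (x : Place (kA A) (FFk A) × Place (kA A) (FFk A)) :
    x ∈ pkgXset N A hB ↔
      ∃ s ∈ S, HasValueAt x.1 (pkgJbar A) s ∧ HasValueAt x.2 (pkgJbar A) (s ^ N) := by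
  obtain ⟨H, -, hH, hS⟩ := hz
  constructor
  · rintro ⟨hord, a, ha₁, ha₂⟩
    exact ⟨a, (hS a).mpr ((pkgcr_ord_Hbar_pos_iff hB hH ha₁).mp hord), ha₁, ha₂⟩
  · rintro ⟨s, hs, hs₁, hs₂⟩
    exact ⟨(pkgcr_ord_Hbar_pos_iff hB hH hs₁).mpr ((hS s).mp hs), s, hs₁, hs₂⟩

/-- **the crossing set in terms of `S`** (unconditional) -/
theorem stmtPkgXset : StmtPkgXset :=
  fun _ _ _ _ _ _ hB _ hG x => pkgcr_mem_Xset_iff_of_zeros hB hG.zeros x

/-! ## Goursat gives finiteness and symmetry -/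

theorem pkgcr_isFrob_of_goursat (hT : PkgIsType N A) (hB : PkgBase N A) {S : Finset (kA A)}
    (hG : PkgIsGoursat N A S) : PkgIsFrob N A hB where
  finite := by
    classical
    choose Qof hQof using hT.place_exists
    refine Set.Finite.subset ((S.finite_toSet).image fun s => (Qof s, Qof (s ^ N))) ?_
    intro x hx
    obtain ⟨s, hs, hs₁, hs₂⟩ := (pkgcr_mem_Xset_iff_of_zeros hB hG.zeros x).mp hx
    refine ⟨s, hs, ?_⟩
    exact Prod.ext (hT.place_ext _ _ s (hQof s) hs₁) (hT.place_ext _ _ (s ^ N) (hQof (s ^ N)) hs₂)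
  symm := by
    intro x hx
    obtain ⟨s, hs, hs₁, hs₂⟩ := (pkgcr_mem_Xset_iff_of_zeros hB hG.zeros x).mp hx
    refine (pkgcr_mem_Xset_iff_of_zeros hB hG.zeros (x.2, x.1)).mpr
      ⟨s ^ N, hG.pow_mem s hs, hs₂, ?_⟩
    have e : (s ^ N) ^ N = s := by rw [← pow_mul, ← pow_two, hG.frob s hs]
    change HasValueAt x.1 (pkgJbar A) ((s ^ N) ^ N)
    rw [e]
    exact hs₁

/-- **PKG-cross**, from PKG-type, PKG-ev and the Goursat description of `red(B)`. -/
theorem stmtPkgCross_of_goursat (hT : StmtPkgType) (hEv : StmtPkgEv)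
    (hG : ∀ (N : ℕ) [NeZero N], N.Prime → 5 ≤ N → ∀ A : ValuationSubring Kb,
      A.LiesOverPrime N → ∃ S : Finset (kA A), PkgIsGoursat N A S) : StmtPkgCross :=
  stmtPkgCross_of hT hEv fun N _ hN h5 A hA hB => by
    obtain ⟨S, hS⟩ := hG N hN h5 A hA
    exact pkgcr_isFrob_of_goursat (hT N hN h5 A hA) hB hS

end Fermat.Agent.S15.LN

end
end ZBZ2S15_005_11

/-! ### bundled: `Fermat.Agent.S15.PkgEvAux` -/
section ZBZ2S15_005_12

/-!
# S15 / LN-PKG, piece PKG-ev, part 1: auxiliary lemmas (helper72)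

* `pkgev_mem_of_monic` : a valuation ring is integrally closed (explicit monic polynomial);
* `pkgev_hv_pow`, `pkgev_hv_aeval` : values of powers and of polynomials;
* `pkgev_rel_of_r` : `pkgR P = some (inl Q) → PkgRel₁ P Q`;
* `pkgev_chart_of_int` : `PkgInt N A t f → PkgChart N A t f`;
* `stmtPkgPoly2 : StmtPkgPoly2`.
-/

set_option autoImplicit false
set_option linter.unusedSectionVars false
set_option linter.unusedVariables false
set_option linter.style.haveILetI false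

noncomputable section

namespace Fermat.Agent.S15.LN

open ModularCurve AlgebraicCurve Polynomial IntermediateField
open Fermat.Agent.ES Fermat.Agent.ES.M Fermat.Agent.S24 Fermat.Agent.ES.LR Fermat.Agent.DEU
  Fermat.Agent.INJ Fermat.Agent.W1 Fermat.Agent.S15

/-! ### generic algebra -/

/-- a valuation ring is integrally closed, in the form used here -/
theorem pkgev_mem_of_monic {F : Type*} [Field F] (O : ValuationSubring F) (R : Subring F)
    (hR : ∀ x ∈ R, x ∈ O) (b : F) (p : F[X]) (hp : p.Monic) (hpc : ∀ i, p.coeff i ∈ R)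
    (hpb : p.eval b = 0) : b ∈ O := by
  have hlift : p ∈ Polynomial.lifts O.subtype := by
    rw [Polynomial.lifts_iff_coeff_lifts]
    intro i
    exact ⟨⟨p.coeff i, hR _ (hpc i)⟩, rfl⟩
  obtain ⟨p₁, hp₁, -, hmonic⟩ := Polynomial.lifts_and_natDegree_eq_and_monic hlift hp
  have hint : IsIntegral O b := by
    refine ⟨p₁, hmonic, ?_⟩
    have h1 : Polynomial.eval₂ (algebraMap O F) b p₁ = (p₁.map O.subtype).eval b := by
      rw [Polynomial.eval_map]
      rfl
    rw [h1, hp₁, hpb]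
  obtain ⟨z, hz⟩ := IsIntegrallyClosed.isIntegral_iff.mp hint
  rw [← hz]
  exact z.2

section Values

variable {K F : Type} [Field K] [Field F] [Algebra K F]

theorem pkgev_hv_pow {P : Place K F} {f : F} {a : K} (hf : HasValueAt P f a) (n : ℕ) :
    HasValueAt P (f ^ n) (a ^ n) := by
  induction n with
  | zero =>
      rw [pow_zero, pow_zero]
      exact ln_hasValueAt_one P
  | succ n ih =>
      rw [pow_succ, pow_succ]
      exact ln_hasValueAt_mul ih hf

/-- the value of a polynomial in `x` -/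
theorem pkgev_hv_aeval {P : Place K F} {x : F} {a : K} (hx : HasValueAt P x a) (G : K[X]) :
    HasValueAt P (Polynomial.aeval x G) (G.eval a) := by
  induction G using Polynomial.induction_on' with
  | add p q hp hq =>
      rw [map_add, Polynomial.eval_add]
      exact ln_hasValueAt_add hp hq
  | monomial n c =>
      rw [Polynomial.aeval_monomial, Polynomial.eval_monomial]
      exact ln_hasValueAt_mul (ln_hasValueAt_const P c) (pkgev_hv_pow hx n)

end Values

/-! ### the package -/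

variable (N : ℕ) [NeZero N] (A : ValuationSubring Kb)

/-- the reduction of a place: `pkgR P = some (inl Q)` means `PkgRel₁ P Q` (by definition) -/
theorem pkgev_rel_of_r {P : Place Kb (FF N)} {Q : Place (kA A) (FFk A)}
    (h : pkgR N A P = some (Sum.inl Q)) : PkgRel₁ N A P Q := by
  classical
  unfold pkgR at h
  split_ifs at h with h1 h2
  · have h3 := h1.choose_spec
    have h4 : h1.choose = Q := by
      have h5 := Option.some.inj h
      exact Sum.inl.inj h5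
    rw [← h4]
    exact h3
  · have h5 := Option.some.inj h
    exact absurd h5 (by simp)

/-- a valuation ring containing the constants of `A` and `t` contains `A[t]` -/
theorem pkgev_pkgPoly_le (O : ValuationSubring (FF N))
    (hconst : ∀ a : Kb, a ∈ A → algebraMap Kb (FF N) a ∈ O) (t : FF N) (ht : t ∈ O) :
    ∀ x ∈ pkgPoly N A t, x ∈ O := by
  intro x hx
  have h : pkgPoly N A t ≤ O.toSubring := by
    unfold pkgPoly
    rw [Subring.closure_le]
    rintro y (⟨a, ha, rfl⟩ | hy)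
    · exact hconst a ha
    · rw [Set.mem_singleton_iff] at hy
      rw [hy]
      exact ht
  exact h hx

/-- an element integral over `A[t]` lies in every valuation ring containing `A` and `t` -/
theorem pkgev_mem_of_int (O : ValuationSubring (FF N))
    (hconst : ∀ a : Kb, a ∈ A → algebraMap Kb (FF N) a ∈ O) (t : FF N) (ht : t ∈ O)
    (f : FF N) (hf : PkgInt N A t f) : f ∈ O := by
  obtain ⟨p, hp, hpc, hpf⟩ := hf
  exact pkgev_mem_of_monic O (pkgPoly N A t) (pkgev_pkgPoly_le N A O hconst t ht) f p hp hpc hpf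

variable (hB : PkgBase N A)

include hB in
/-- the coordinate lies in both Gauss rings -/
theorem pkgev_coord_mem (hN : N.Prime) (hA : A.LiesOverPrime N) {t : FF N} {tb : FFk A}
    (ht : PkgCoord N A t tb) : t ∈ pkgO₁ N A ∧ t ∈ pkgO₂ N A := by
  obtain ⟨h1, he1⟩ := pkg_red₁_j N A hB
  obtain ⟨h2, he2⟩ := pkgpoly_red₂_j N A hB hN hA
  rcases ht with ⟨rfl, -⟩ | ⟨rfl, -⟩
  · exact ⟨h1, h2⟩
  · obtain ⟨h1', -⟩ := pkgpoly_red_inv N A (pkgO₁ N A) (pkgRed₁ N A hB)
      (pkg_red₁_eq_zero_iff N A hB) (jF N) h1 (by rw [he1]; exact pkgpoly_Jbar_ne_zero A)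
    obtain ⟨h2', -⟩ := pkgpoly_red_inv N A (pkgO₂ N A) (pkgRed₂ N A hB)
      (pkg_red₂_eq_zero_iff N A hB) (jF N) h2
      (by rw [he2]; exact pow_ne_zero _ (pkgpoly_Jbar_ne_zero A))
    exact ⟨h1', h2'⟩

include hB in
/-- the reductions of the coordinate: `red₁ t = t̄`, `red₂ t = t̄ ^ N` -/
theorem pkgev_coord_red (hN : N.Prime) (hA : A.LiesOverPrime N) {t : FF N} {tb : FFk A}
    (ht : PkgCoord N A t tb) (h₁ : t ∈ pkgO₁ N A) (h₂ : t ∈ pkgO₂ N A) :
    pkgRed₁ N A hB ⟨t, h₁⟩ = tb ∧ pkgRed₂ N A hB ⟨t, h₂⟩ = tb ^ N := by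
  obtain ⟨h1, he1⟩ := pkg_red₁_j N A hB
  obtain ⟨h2, he2⟩ := pkgpoly_red₂_j N A hB hN hA
  rcases ht with ⟨rfl, rfl⟩ | ⟨rfl, rfl⟩
  · exact ⟨he1, he2⟩
  · obtain ⟨h1', he1'⟩ := pkgpoly_red_inv N A (pkgO₁ N A) (pkgRed₁ N A hB)
      (pkg_red₁_eq_zero_iff N A hB) (jF N) h1 (by rw [he1]; exact pkgpoly_Jbar_ne_zero A)
    obtain ⟨h2', he2'⟩ := pkgpoly_red_inv N A (pkgO₂ N A) (pkgRed₂ N A hB)
      (pkg_red₂_eq_zero_iff N A hB) (jF N) h2
      (by rw [he2]; exact pow_ne_zero _ (pkgpoly_Jbar_ne_zero A))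
    refine ⟨?_, ?_⟩
    · rw [he1', he1]
    · rw [he2', he2, inv_pow]

include hB in
/-- **integral over `A[t]` ⟹ in the chart ring of `t`** -/
theorem pkgev_chart_of_int (hN : N.Prime) (hA : A.LiesOverPrime N) {t : FF N} {tb : FFk A}
    (ht : PkgCoord N A t tb) (f : FF N) (hf : PkgInt N A t f) : PkgChart N A t f := by
  obtain ⟨ht₁, ht₂⟩ := pkgev_coord_mem N A hB hN hA ht
  refine ⟨?_, ?_, ?_⟩
  · exact pkgev_mem_of_int N A (pkgO₁ N A)
      (fun a ha => (pkg_algebraMap_mem_iff₁ N A hB a).2 ha) t ht₁ f hf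
  · exact pkgev_mem_of_int N A (pkgO₂ N A)
      (fun a ha => (pkg_algebraMap_mem_iff₂ N A hB a).2 ha) t ht₂ f hf
  · intro P hP
    have htne : t ≠ 0 := by
      rcases ht with ⟨rfl, -⟩ | ⟨rfl, -⟩
      · exact fr_jF_ne_zero
      · exact inv_ne_zero fr_jF_ne_zero
    have htP : t ∈ P.toValuationSubring := (PlaceAux.ord_nonneg_iff P htne).mp hP
    exact ge_ord_nonneg_of_mem P
      (pkgev_mem_of_int N A P.toValuationSubring (fun a _ => P.algebraMap_mem' a) t htP f hf)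

/-- **PKG-poly in both charts** -/
theorem stmtPkgPoly2 : StmtPkgPoly2 := by
  intro N _ hN h5 A hA hB t tb ht f h₁ h₂ hreg
  have hint : PkgInt N A t f := by
    rcases ht with ⟨rfl, -⟩ | ⟨rfl, -⟩
    · exact stmtPkgTV N hN h5 A hA _ (Or.inl rfl) f h₁ h₂ hreg
    · exact stmtPkgTV N hN h5 A hA _ (Or.inr rfl) f h₁ h₂ hreg
  have key : pkgRed₁ N A hB ⟨f, h₁⟩ ∈ Algebra.adjoin (kA A) {tb} ∧
      pkgRed₂ N A hB ⟨f, h₂⟩ ∈ Algebra.adjoin (kA A) {tb} := by
    rcases ht with ⟨rfl, rfl⟩ | ⟨rfl, rfl⟩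
    · exact pkgpoly_red_mem_j N A hB hN hA f hint h₁ h₂
    · exact pkgpoly_red_mem_jinv N A hB hN hA f hint h₁ h₂
  obtain ⟨k1, k2⟩ := key
  rw [Algebra.adjoin_singleton_eq_range_aeval] at k1 k2
  obtain ⟨F₁, hF₁⟩ := k1
  obtain ⟨F₂, hF₂⟩ := k2
  exact ⟨⟨F₁, hF₁.symm⟩, ⟨F₂, hF₂.symm⟩⟩

end Fermat.Agent.S15.LN

end
end ZBZ2S15_005_12

/-! ### bundled: `Fermat.Agent.S15.PkgEvCore` -/
section ZBZ2S15_005_13

/-!
# S15 / LN-PKG, piece PKG-ev, part 2: the additive argument (helper72)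

`ev_P(f) = f(P)‾`, `ρ(f) = F₁(a)`, `ρ'(f) = F₂(b)` are additive in `f`, and (TV2)
`ev_P(f) ∈ {ρ(f), ρ'(f)}`.  If some `s` of the chart ring has `ev_P(s) ≠ ρ'(s)`, then `ev_P = ρ`
(`pkgev_of_sep`).  Also: the value of the reduced coordinate at the reduced place
(`pkgev_coord_value`).
-/

set_option autoImplicit false
set_option linter.unusedSectionVars false
set_option linter.unusedVariables false
set_option linter.style.haveILetI false

noncomputable section

namespace Fermat.Agent.S15.LN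

open ModularCurve AlgebraicCurve Polynomial IntermediateField
open Fermat.Agent.ES Fermat.Agent.ES.M Fermat.Agent.S24 Fermat.Agent.ES.LR Fermat.Agent.DEU
  Fermat.Agent.INJ Fermat.Agent.W1 Fermat.Agent.S15

section Values

variable {K F : Type} [Field K] [Field F] [Algebra K F]

theorem pkgev_value_mul_eq_one {P : Place K F} {x : F} (hx : x ≠ 0) {a a' : K}
    (h : HasValueAt P x a) (h' : HasValueAt P x⁻¹ a') : a * a' = 1 := by
  have h1 := ln_hasValueAt_mul h h'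
  rw [mul_inv_cancel₀ hx] at h1
  exact hasValueAt_unique P h1 (ln_hasValueAt_one P)

end Values

variable (N : ℕ) [NeZero N] (A : ValuationSubring Kb)

/-- two elements of `A` with product `1`: the residues are inverse to each other -/
theorem pkgev_residue_inv {a a' : A} (h : (a : Kb) * (a' : Kb) = 1) :
    IsLocalRing.residue A a' = (IsLocalRing.residue A a)⁻¹ := by
  have h1 : a * a' = 1 := Subtype.ext h
  have h2 : IsLocalRing.residue A a * IsLocalRing.residue A a' = 1 := by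
    rw [← map_mul, h1, map_one]
  exact eq_inv_of_mul_eq_one_right h2

/-- **the value of the reduced coordinate at the reduced place** -/
theorem pkgev_coord_value {t : FF N} {tb : FFk A} (ht : PkgCoord N A t tb)
    {P : Place Kb (FF N)} {Q : Place (kA A) (FFk A)} (hPQ : PkgRel₁ N A P Q) (a : A)
    (hPa : HasValueAt P t (a : Kb)) : HasValueAt Q tb (IsLocalRing.residue A a) := by
  have hj0 : jF N ≠ 0 := fr_jF_ne_zero
  have hjb0 : pkgJbar A ≠ 0 := pkgpoly_Jbar_ne_zero A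
  obtain ⟨-, hrel⟩ := hPQ
  rcases ht with ⟨rfl, rfl⟩ | ⟨rfl, rfl⟩
  · rcases hrel with ⟨a', h1, h2⟩ | ⟨a', h1, h2⟩
    · have e : (a' : Kb) = (a : Kb) := hasValueAt_unique P h1 hPa
      have e' : a' = a := Subtype.ext e
      rw [← e']
      exact h2
    · have e := pkgev_value_mul_eq_one hj0 hPa h1
      have e2 := pkgev_residue_inv A e
      have hne : IsLocalRing.residue A a' ≠ 0 := by
        intro h0
        have h3 : (a * a' : A) = 1 := Subtype.ext e
        have h4 := congrArg (IsLocalRing.residue A) h3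
        rw [map_mul, h0, mul_zero, map_one] at h4
        exact zero_ne_one h4
      have h5 := ln_hasValueAt_inv h2 hne
      rw [inv_inv] at h5
      have e3 : IsLocalRing.residue A a = (IsLocalRing.residue A a')⁻¹ := by
        rw [e2, inv_inv]
      rw [e3]
      exact h5
  · rcases hrel with ⟨a', h1, h2⟩ | ⟨a', h1, h2⟩
    · have e := pkgev_value_mul_eq_one hj0 h1 hPa
      have e2 := pkgev_residue_inv A e
      have hne : IsLocalRing.residue A a' ≠ 0 := by
        intro h0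
        have h3 : (a' * a : A) = 1 := Subtype.ext e
        have h4 := congrArg (IsLocalRing.residue A) h3
        rw [map_mul, h0, zero_mul, map_one] at h4
        exact zero_ne_one h4
      have h5 := ln_hasValueAt_inv h2 hne
      rw [e2]
      exact h5
    · have e : (a' : Kb) = (a : Kb) := hasValueAt_unique P h1 hPa
      have e' : a' = a := Subtype.ext e
      rw [← e']
      exact h2

/-- sums in the chart ring -/
theorem pkgev_chart_add {t f g : FF N} (hf : PkgChart N A t f) (hg : PkgChart N A t g) :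
    PkgChart N A t (f + g) := by
  refine ⟨add_mem hf.1 hg.1, add_mem hf.2.1 hg.2.1, fun P hP => ?_⟩
  have h1 := ge_mem_of_not_ord_neg P (not_lt.mpr (hf.2.2 P hP))
  have h2 := ge_mem_of_not_ord_neg P (not_lt.mpr (hg.2.2 P hP))
  exact ge_ord_nonneg_of_mem P (add_mem h1 h2)

/-- **the additive argument**: a separating element `s` forces `f(P)‾ = F₁(a)` for every `f`
of the chart ring. -/
theorem pkgev_of_sep (hFib : StmtPkgFibre) (hN : N.Prime) (h5 : 5 ≤ N)
    (hA : A.LiesOverPrime N) (hB : PkgBase N A) {t : FF N} {tb : FFk A}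
    (ht : PkgCoord N A t tb) (P : Place Kb (FF N)) (a : A) (hPa : HasValueAt P t (a : Kb))
    (b : kA A) (hb : b ^ N = IsLocalRing.residue A a)
    (s : FF N) (hs : PkgChart N A t s) (S₁ S₂ : (kA A)[X])
    (hS₁ : pkgRed₁ N A hB ⟨s, hs.1⟩ = Polynomial.aeval tb S₁)
    (hS₂ : pkgRed₂ N A hB ⟨s, hs.2.1⟩ = Polynomial.aeval tb S₂)
    (hsep : ∀ c : A, HasValueAt P s (c : Kb) → IsLocalRing.residue A c ≠ S₂.eval b)
    (f : FF N) (hf : PkgChart N A t f) (F₁ F₂ : (kA A)[X])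
    (hF₁ : pkgRed₁ N A hB ⟨f, hf.1⟩ = Polynomial.aeval tb F₁)
    (hF₂ : pkgRed₂ N A hB ⟨f, hf.2.1⟩ = Polynomial.aeval tb F₂) :
    ∃ c : A, HasValueAt P f (c : Kb) ∧
      IsLocalRing.residue A c = F₁.eval (IsLocalRing.residue A a) := by
  obtain ⟨c, hc, hcv⟩ := hFib N hN h5 A hA hB t tb ht f hf.1 hf.2.1 hf.2.2 F₁ F₂ hF₁ hF₂ P a hPa
  obtain ⟨cs, hcs, hcsv⟩ := hFib N hN h5 A hA hB t tb ht s hs.1 hs.2.1 hs.2.2 S₁ S₂ hS₁ hS₂ P a
    hPa
  have hfs := pkgev_chart_add N A hf hs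
  have hFS₁ : pkgRed₁ N A hB ⟨f + s, hfs.1⟩ = Polynomial.aeval tb (F₁ + S₁) := by
    have e : (⟨f + s, hfs.1⟩ : pkgO₁ N A) = ⟨f, hf.1⟩ + ⟨s, hs.1⟩ := rfl
    rw [e, map_add, map_add, hF₁, hS₁]
  have hFS₂ : pkgRed₂ N A hB ⟨f + s, hfs.2.1⟩ = Polynomial.aeval tb (F₂ + S₂) := by
    have e : (⟨f + s, hfs.2.1⟩ : pkgO₂ N A) = ⟨f, hf.2.1⟩ + ⟨s, hs.2.1⟩ := rfl
    rw [e, map_add, map_add, hF₂, hS₂]
  obtain ⟨c', hc', hcv'⟩ := hFib N hN h5 A hA hB t tb ht (f + s) hfs.1 hfs.2.1 hfs.2.2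
    (F₁ + S₁) (F₂ + S₂) hFS₁ hFS₂ P a hPa
  have e1 : (c' : Kb) = (c : Kb) + (cs : Kb) :=
    hasValueAt_unique P hc' (ln_hasValueAt_add hc hcs)
  have e2 : c' = c + cs := Subtype.ext e1
  have hsv : IsLocalRing.residue A cs = S₁.eval (IsLocalRing.residue A a) := by
    rcases hcsv b hb with h | h
    · exact h
    · exact absurd h (hsep cs hcs)
  refine ⟨c, hc, ?_⟩
  rcases hcv b hb with h | h
  · exact h
  · rcases hcv' b hb with h' | h'
    · rw [e2, map_add, Polynomial.eval_add, hsv] at h'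
      exact add_right_cancel h'
    · rw [e2, map_add, Polynomial.eval_add, h] at h'
      exact absurd (add_left_cancel h') (hsep cs hcs)

end Fermat.Agent.S15.LN

end
end ZBZ2S15_005_13

/-! ### bundled: `Fermat.Agent.S15.PkgEvSep` -/
section ZBZ2S15_005_14

/-!
# S15 / LN-PKG, piece PKG-ev, part 3: the separating elements (helper72)

`P` a place of type 1 (`oggU(P) = a₀ ∈ A`), `h = 1 / oggU`.
* chart `j` : `s = h` (`pkgev_sep_j`);
* chart `1/j`, `t(P)` a unit : `s = t^(N-1) · h` (`pkgev_sep_unit`);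
* chart `1/j`, `t(P) ∈ 𝔪_A` : `s = (N¹² · oggU)^N · t^(N-1)` (`pkgev_sep_cusp`).
-/

set_option autoImplicit false
set_option linter.unusedSectionVars false
set_option linter.unusedVariables false
set_option linter.style.haveILetI false

noncomputable section

namespace Fermat.Agent.S15.LN

open ModularCurve AlgebraicCurve Polynomial IntermediateField
open Fermat.Agent.ES Fermat.Agent.ES.M Fermat.Agent.S24 Fermat.Agent.ES.LR Fermat.Agent.DEU
  Fermat.Agent.INJ Fermat.Agent.W1 Fermat.Agent.S15 Fermat.Agent.S28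

/-! ### orders -/

section Ord

variable {K F : Type} [Field K] [Field F] [Algebra K F]

theorem pkgev_ord_pow (P : Place K F) {x : F} (hx : x ≠ 0) (n : ℕ) :
    P.ord (x ^ n) = n * P.ord x := by
  induction n with
  | zero => simp
  | succ n ih =>
      rw [pow_succ, P.ord_mul (pow_ne_zero n hx) hx, ih]
      push_cast
      ring

end Ord

theorem pkgev_order_inv {k : Type*} [Field k] {x : LaurentSeries k} (hx : x ≠ 0) :
    x⁻¹.order = -x.order := by
  have h1 : (x * x⁻¹).order = x.order + x⁻¹.order := HahnSeries.order_mul hx (inv_ne_zero hx)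
  rw [mul_inv_cancel₀ hx, HahnSeries.order_one] at h1
  omega

/-- the constant term of a polynomial in a series of positive order -/
theorem pkgev_aeval_coeff_zero {k : Type*} [Field k] (y : LaurentSeries k) (hy : 0 < y.order)
    (G : k[X]) : (Polynomial.aeval y G).coeff 0 = G.eval 0 := by
  obtain ⟨n, hn⟩ := Int.eq_ofNat_of_zero_le hy.le
  have hn0 : n ≠ 0 := by
    rintro rfl
    rw [hn] at hy
    exact lt_irrefl _ hy
  have h1 := LaurentSeries.single_order_mul_powerSeriesPart y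
  have h2 : y = HahnSeries.ofPowerSeries ℤ k (PowerSeries.X ^ n * LaurentSeries.powerSeriesPart y) := by
    rw [map_mul, map_pow, HahnSeries.ofPowerSeries_X, HahnSeries.single_pow, one_pow, nsmul_one]
    rw [hn] at h1
    exact h1.symm
  have h3 : PowerSeries.constantCoeff
      (PowerSeries.X ^ n * LaurentSeries.powerSeriesPart y) = 0 := by
    rw [map_mul, map_pow, PowerSeries.constantCoeff_X, zero_pow hn0, zero_mul]
  rw [h2, pkgtv_aeval_coeff_zero _ h3, Polynomial.coeff_zero_eq_eval_zero]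

variable (N : ℕ) [NeZero N] (A : ValuationSubring Kb)

/-- a unit of `A` has nonzero residue -/
theorem pkgev_residue_ne_zero_of_mul {c c' : A} {u : kA A} (hu : u ≠ 0)
    (h : IsLocalRing.residue A c * IsLocalRing.residue A c' = u) :
    IsLocalRing.residue A c ≠ 0 := by
  intro h0
  rw [h0, zero_mul] at h
  exact hu h.symm

variable (hB : PkgBase N A)

/-! ### chart `j` -/

include hB in
theorem pkgev_chart_h (hN : N.Prime) (hA : A.LiesOverPrime N) :
    PkgChart N A (jF N) (oggU N)⁻¹ := by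
  refine ⟨pkg_h_mem₁ N A, ge_nonunits_mem (pkg_h_mem₂ N A hB hA), fun P hP => ?_⟩
  rw [Place.ord_inv, ogg_ord_eq_zero N hN P hP, neg_zero]

/-- **the separating element in the chart `j`** -/
theorem pkgev_sep_j (hN : N.Prime) (h5 : 5 ≤ N) (hA : A.LiesOverPrime N)
    (P : Place Kb (FF N)) (hP : PkgType₁ N A P) (b : kA A) :
    ∃ (s : FF N) (hs : PkgChart N A (jF N) s) (S₁ S₂ : (kA A)[X]),
      pkgRed₁ N A hB ⟨s, hs.1⟩ = Polynomial.aeval (pkgJbar A) S₁ ∧
      pkgRed₂ N A hB ⟨s, hs.2.1⟩ = Polynomial.aeval (pkgJbar A) S₂ ∧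
      ∀ c : A, HasValueAt P s (c : Kb) → IsLocalRing.residue A c ≠ S₂.eval b := by
  have hs := pkgev_chart_h N A hB hN hA
  obtain ⟨⟨S₁, hS₁⟩, -⟩ := stmtPkgPoly2 N hN h5 A hA hB (jF N) (pkgJbar A) (Or.inl ⟨rfl, rfl⟩)
    _ hs.1 hs.2.1 hs.2.2
  refine ⟨(oggU N)⁻¹, hs, S₁, 0, hS₁, ?_, ?_⟩
  · rw [map_zero]
    exact (pkg_red₂_eq_zero_iff N A hB ⟨_, hs.2.1⟩).2 (pkg_h_mem₂ N A hB hA)
  · intro c hc
    obtain ⟨a₀, ha₀, hv₀⟩ := hP
    have e := pkgev_value_mul_eq_one (oggU_ne_zero N) hv₀ hc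
    have e1 : (c * ⟨a₀, ha₀⟩ : A) = 1 := Subtype.ext (by
      rw [mul_comm] at e
      exact e)
    have e2 : IsLocalRing.residue A c * IsLocalRing.residue A ⟨a₀, ha₀⟩ = 1 := by
      rw [← map_mul, e1, map_one]
    rw [Polynomial.eval_zero]
    exact pkgev_residue_ne_zero_of_mul A one_ne_zero e2

/-! ### chart `1/j`, unit value -/

include hB in
theorem pkgev_chart_unit (hN : N.Prime) (hA : A.LiesOverPrime N) :
    PkgChart N A (jF N)⁻¹ ((jF N)⁻¹ ^ (N - 1) * (oggU N)⁻¹) := by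
  have hj0 : jF N ≠ 0 := fr_jF_ne_zero
  have hu0 : oggU N ≠ 0 := oggU_ne_zero N
  obtain ⟨ht₁, ht₂⟩ := pkgev_coord_mem N A hB hN hA (t := (jF N)⁻¹) (tb := (pkgJbar A)⁻¹)
    (Or.inr ⟨rfl, rfl⟩)
  refine ⟨mul_mem (pow_mem ht₁ _) (pkg_h_mem₁ N A),
    mul_mem (pow_mem ht₂ _) (ge_nonunits_mem (pkg_h_mem₂ N A hB hA)), fun P hP => ?_⟩
  have hN1 : ((N - 1 : ℕ) : ℤ) = (N : ℤ) - 1 := by
    have := hN.one_le
    push_cast [Nat.cast_sub this]
    ring
  have hNpos : (1 : ℤ) ≤ N := by exact_mod_cast hN.one_le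
  rw [P.ord_mul (pow_ne_zero _ (inv_ne_zero hj0)) (inv_ne_zero hu0),
    pkgev_ord_pow P (inv_ne_zero hj0), Place.ord_inv, Place.ord_inv, hN1]
  rw [Place.ord_inv] at hP
  by_cases hj : 0 ≤ P.ord (jF N)
  · rw [ogg_ord_eq_zero N hN P hj]
    have : P.ord (jF N) = 0 := by omega
    rw [this]
    simp
  · rcases ogg_pole_cases N hN P (not_le.mp hj) with rfl | rfl
    · rw [cuspInf_ord_jF, ogg_ord_cuspInf]
      ring_nf
      exact le_refl _
    · rw [cuspZero_ord_jF, ogg_ord_cuspZero N hN]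
      nlinarith

/-- **the separating element in the chart `1/j`, unit value** -/
theorem pkgev_sep_unit (hN : N.Prime) (h5 : 5 ≤ N) (hA : A.LiesOverPrime N)
    (P : Place Kb (FF N)) (hP : PkgType₁ N A P) (a : A) (hPa : HasValueAt P (jF N)⁻¹ (a : Kb))
    (ha : IsLocalRing.residue A a ≠ 0) (b : kA A) :
    ∃ (s : FF N) (hs : PkgChart N A (jF N)⁻¹ s) (S₁ S₂ : (kA A)[X]),
      pkgRed₁ N A hB ⟨s, hs.1⟩ = Polynomial.aeval (pkgJbar A)⁻¹ S₁ ∧
      pkgRed₂ N A hB ⟨s, hs.2.1⟩ = Polynomial.aeval (pkgJbar A)⁻¹ S₂ ∧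
      ∀ c : A, HasValueAt P s (c : Kb) → IsLocalRing.residue A c ≠ S₂.eval b := by
  have hs := pkgev_chart_unit N A hB hN hA
  obtain ⟨ht₁, ht₂⟩ := pkgev_coord_mem N A hB hN hA (t := (jF N)⁻¹) (tb := (pkgJbar A)⁻¹)
    (Or.inr ⟨rfl, rfl⟩)
  obtain ⟨⟨S₁, hS₁⟩, -⟩ := stmtPkgPoly2 N hN h5 A hA hB (jF N)⁻¹ (pkgJbar A)⁻¹
    (Or.inr ⟨rfl, rfl⟩) _ hs.1 hs.2.1 hs.2.2
  refine ⟨_, hs, S₁, 0, hS₁, ?_, ?_⟩
  · rw [map_zero]
    exact (pkg_red₂_eq_zero_iff N A hB ⟨_, hs.2.1⟩).2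
      (ge_nonunits_mul_mem (pow_mem ht₂ _) (pkg_h_mem₂ N A hB hA))
  · intro c hc
    obtain ⟨a₀, ha₀, hv₀⟩ := hP
    have h1 := ln_hasValueAt_mul hc hv₀
    have e0 : (jF N)⁻¹ ^ (N - 1) * (oggU N)⁻¹ * oggU N = (jF N)⁻¹ ^ (N - 1) := by
      rw [mul_assoc, inv_mul_cancel₀ (oggU_ne_zero N), mul_one]
    rw [e0] at h1
    have e := hasValueAt_unique P h1 (pkgev_hv_pow hPa (N - 1))
    have e1 : (c * ⟨a₀, ha₀⟩ : A) = a ^ (N - 1) := Subtype.ext e
    have e2 : IsLocalRing.residue A c * IsLocalRing.residue A ⟨a₀, ha₀⟩ =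
        IsLocalRing.residue A a ^ (N - 1) := by
      rw [← map_mul, e1, map_pow]
    rw [Polynomial.eval_zero]
    exact pkgev_residue_ne_zero_of_mul A (pow_ne_zero _ ha) e2

end Fermat.Agent.S15.LN

end
end ZBZ2S15_005_14

/-! ### bundled: `Fermat.Agent.S15.PkgEvCusp` -/
section ZBZ2S15_005_15

/-!
# S15 / LN-PKG, piece PKG-ev, part 4: the separating element near the cusp `∞` (helper72)

Chart `1/j`, `t(P) ∈ 𝔪_A`: `s = (N¹² · oggU)^N · t^(N-1)` lies in the chart ring of `1/j`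
(`ord_0 s = 0`), `s(P) ∈ 𝔪_A`, and `red₂ s = h̄₁^N · j̄^(-N(N-1))` is a polynomial in `1/j̄`
with NONZERO constant term (`pkgev_sep_cusp`).
-/

set_option autoImplicit false
set_option linter.unusedSectionVars false
set_option linter.unusedVariables false
set_option linter.style.haveILetI false

noncomputable section

namespace Fermat.Agent.S15.LN

open ModularCurve AlgebraicCurve Polynomial IntermediateField
open Fermat.Agent.ES Fermat.Agent.ES.M Fermat.Agent.S24 Fermat.Agent.ES.LR Fermat.Agent.DEU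
  Fermat.Agent.INJ Fermat.Agent.W1 Fermat.Agent.S15 Fermat.Agent.S28

variable (N : ℕ) [NeZero N] (A : ValuationSubring Kb)

/-- `w_N (N¹² · oggU) = h` -/
theorem pkgev_fricke_cN_oggU :
    frickeAut N (algebraMap Kb (FF N) ((N : Kb) ^ 12) * oggU N) = (oggU N)⁻¹ := by
  have hfr := ogg_fricke N
  have hu0 := oggU_ne_zero N
  have hN0 : ((N : Kb) ^ 12) ≠ 0 := pow_ne_zero _ (Nat.cast_ne_zero.mpr (NeZero.ne N))
  have h1 : frickeAut N (oggU N) = algebraMap Kb (FF N) ((N : Kb) ^ 12)⁻¹ * (oggU N)⁻¹ := by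
    rw [← hfr, mul_inv_cancel_right₀ hu0]
  rw [map_mul, AlgEquiv.commutes, h1, ← mul_assoc, ← map_mul, mul_inv_cancel₀ hN0, map_one,
    one_mul]

/-- the separating element near the cusp -/
def pkgevS : FF N :=
  (algebraMap Kb (FF N) ((N : Kb) ^ 12) * oggU N) ^ N * (jF N)⁻¹ ^ (N - 1)

theorem pkgev_fricke_S :
    frickeAut N (pkgevS N) = (oggU N)⁻¹ ^ N * (jdF N N dvd_rfl)⁻¹ ^ (N - 1) := by
  unfold pkgevS
  rw [map_mul, map_pow (frickeAut N), map_pow (frickeAut N), pkgev_fricke_cN_oggU, map_inv₀,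
    frickeAut_jF]

variable (hB : PkgBase N A)

include hB in
theorem pkgev_cN_oggU_mem (hA : A.LiesOverPrime N) :
    algebraMap Kb (FF N) ((N : Kb) ^ 12) * oggU N ∈ pkgO₁ N A ∧
      algebraMap Kb (FF N) ((N : Kb) ^ 12) * oggU N ∈ pkgO₂ N A := by
  constructor
  · refine mul_mem ((pkg_algebraMap_mem_iff₁ N A hB _).2 (pow_mem (pkg_natCast_mem N A hA) 12)) ?_
    exact ⟨_, pkg_gaussRed_oggU N A⟩
  · rw [mem_pkgO₂, pkgev_fricke_cN_oggU]
    exact pkg_h_mem₁ N A

include hB in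
theorem pkgev_chart_S (hN : N.Prime) (hA : A.LiesOverPrime N) :
    PkgChart N A (jF N)⁻¹ (pkgevS N) := by
  have hj0 : jF N ≠ 0 := fr_jF_ne_zero
  have hu0 : oggU N ≠ 0 := oggU_ne_zero N
  have hN0 : ((N : Kb) ^ 12) ≠ 0 := pow_ne_zero _ (Nat.cast_ne_zero.mpr (NeZero.ne N))
  have hc0 : algebraMap Kb (FF N) ((N : Kb) ^ 12) ≠ 0 := (_root_.map_ne_zero _).mpr hN0
  obtain ⟨ht₁, ht₂⟩ := pkgev_coord_mem N A hB hN hA (t := (jF N)⁻¹) (tb := (pkgJbar A)⁻¹)
    (Or.inr ⟨rfl, rfl⟩)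
  obtain ⟨hc₁, hc₂⟩ := pkgev_cN_oggU_mem N A hB hA
  refine ⟨mul_mem (pow_mem hc₁ _) (pow_mem ht₁ _), mul_mem (pow_mem hc₂ _) (pow_mem ht₂ _),
    fun P hP => ?_⟩
  have hN1 : ((N - 1 : ℕ) : ℤ) = (N : ℤ) - 1 := by
    have := hN.one_le
    push_cast [Nat.cast_sub this]
    ring
  have hNpos : (1 : ℤ) ≤ N := by exact_mod_cast hN.one_le
  unfold pkgevS
  rw [P.ord_mul (pow_ne_zero _ (mul_ne_zero hc0 hu0)) (pow_ne_zero _ (inv_ne_zero hj0)),
    pkgev_ord_pow P (mul_ne_zero hc0 hu0), pkgev_ord_pow P (inv_ne_zero hj0),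
    ln_ord_const_mul P hN0, Place.ord_inv, hN1]
  rw [Place.ord_inv] at hP
  by_cases hj : 0 ≤ P.ord (jF N)
  · rw [ogg_ord_eq_zero N hN P hj]
    have : P.ord (jF N) = 0 := by omega
    rw [this]
    simp
  · rcases ogg_pole_cases N hN P (not_le.mp hj) with rfl | rfl
    · rw [cuspInf_ord_jF, ogg_ord_cuspInf]
      nlinarith
    · rw [cuspZero_ord_jF, ogg_ord_cuspZero N hN]
      ring_nf
      exact le_refl _

include hB in
/-- `red₂ s = h̄₁^N · (j̄^N)^(-(N-1))` -/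
theorem pkgev_red₂_S (hN : N.Prime) (hA : A.LiesOverPrime N) (h₂ : pkgevS N ∈ pkgO₂ N A) :
    pkgRed₂ N A hB ⟨pkgevS N, h₂⟩ = pkgHbar N A hB ^ N * ((pkgJbar A ^ N)⁻¹) ^ (N - 1) := by
  obtain ⟨hjN, hejN⟩ := pkg_red₁_jN N A hB hN hA
  obtain ⟨hjNinv, hejNinv⟩ := pkgpoly_red_inv N A (pkgO₁ N A) (pkgRed₁ N A hB)
    (pkg_red₁_eq_zero_iff N A hB) (jdF N N dvd_rfl) hjN
    (by rw [hejN]; exact pow_ne_zero _ (pkgpoly_Jbar_ne_zero A))
  have hsw : pkgSwap N A ⟨pkgevS N, h₂⟩ =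
      (⟨(oggU N)⁻¹, pkg_h_mem₁ N A⟩ : pkgO₁ N A) ^ N *
        (⟨(jdF N N dvd_rfl)⁻¹, hjNinv⟩ : pkgO₁ N A) ^ (N - 1) := by
    apply Subtype.ext
    rw [coe_pkgSwap]
    exact pkgev_fricke_S N
  have hH : pkgHbar N A hB = pkgRed₁ N A hB ⟨(oggU N)⁻¹, pkg_h_mem₁ N A⟩ := by
    unfold pkgHbar
    rw [dif_pos (pkg_h_mem₁ N A)]
  show pkgRed₁ N A hB (pkgSwap N A ⟨pkgevS N, h₂⟩) = _
  rw [hsw, map_mul, map_pow, map_pow, ← hH, hejNinv, hejN]

/-- the `q`-expansion of `h̄₁^N · (j̄^N)^(-(N-1))` has order `0` -/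
theorem pkgev_order_S (hN : N.Prime) :
    (((pkgHbar N A hB ^ N * ((pkgJbar A ^ N)⁻¹) ^ (N - 1) : FFk A) : LaurentSeries (kA A))).order
      = 0 ∧
    ((pkgHbar N A hB ^ N * ((pkgJbar A ^ N)⁻¹) ^ (N - 1) : FFk A) : LaurentSeries (kA A)) ≠ 0 := by
  have hu0 : uS (kA A) N ≠ 0 := uS_ne_zero N (kA A)
  have hJ0 : jqModC (kA A) ≠ 0 := by
    intro h
    have := bgConst_order_jqModC (kA A)
    rw [h, HahnSeries.order_zero] at this
    omega
  have e : ((pkgHbar N A hB ^ N * ((pkgJbar A ^ N)⁻¹) ^ (N - 1) : FFk A) :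
      LaurentSeries (kA A)) = ((uS (kA A) N)⁻¹) ^ N * ((jqModC (kA A) ^ N)⁻¹) ^ (N - 1) := by
    have h1 : ((pkgHbar N A hB ^ N * ((pkgJbar A ^ N)⁻¹) ^ (N - 1) : FFk A) :
        LaurentSeries (kA A)) =
        ((pkgHbar N A hB : FFk A) : LaurentSeries (kA A)) ^ N *
          ((((pkgJbar A : FFk A) : LaurentSeries (kA A)) ^ N)⁻¹) ^ (N - 1) := rfl
    rw [h1, pkg_coe_Hbar, pkg_coe_Jbar]
  have hN1 : ((N - 1 : ℕ) : ℤ) = (N : ℤ) - 1 := by
    have := hN.one_le
    push_cast [Nat.cast_sub this]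
    ring
  have hx1 : ((uS (kA A) N)⁻¹) ^ N ≠ 0 := pow_ne_zero _ (inv_ne_zero hu0)
  have hx2 : ((jqModC (kA A) ^ N)⁻¹) ^ (N - 1) ≠ 0 :=
    pow_ne_zero _ (inv_ne_zero (pow_ne_zero _ hJ0))
  rw [e]
  refine ⟨?_, mul_ne_zero hx1 hx2⟩
  rw [HahnSeries.order_mul hx1 hx2, HahnSeries.order_pow, HahnSeries.order_pow,
    pkgev_order_inv hu0, pkgev_order_inv (pow_ne_zero _ hJ0), HahnSeries.order_pow, order_uS,
    bgConst_order_jqModC, nsmul_eq_mul, nsmul_eq_mul, nsmul_eq_mul, hN1]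
  ring

include hB in
/-- **the separating element in the chart `1/j`, value in the maximal ideal** -/
theorem pkgev_sep_cusp (hN : N.Prime) (h5 : 5 ≤ N) (hA : A.LiesOverPrime N)
    (P : Place Kb (FF N)) (hP : PkgType₁ N A P) (a : A) (hPa : HasValueAt P (jF N)⁻¹ (a : Kb))
    (ha : IsLocalRing.residue A a = 0) (b : kA A) (hb : b ^ N = IsLocalRing.residue A a) :
    ∃ (s : FF N) (hs : PkgChart N A (jF N)⁻¹ s) (S₁ S₂ : (kA A)[X]),
      pkgRed₁ N A hB ⟨s, hs.1⟩ = Polynomial.aeval (pkgJbar A)⁻¹ S₁ ∧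
      pkgRed₂ N A hB ⟨s, hs.2.1⟩ = Polynomial.aeval (pkgJbar A)⁻¹ S₂ ∧
      ∀ c : A, HasValueAt P s (c : Kb) → IsLocalRing.residue A c ≠ S₂.eval b := by
  have hs := pkgev_chart_S N A hB hN hA
  obtain ⟨⟨S₁, hS₁⟩, ⟨S₂, hS₂⟩⟩ := stmtPkgPoly2 N hN h5 A hA hB (jF N)⁻¹ (pkgJbar A)⁻¹
    (Or.inr ⟨rfl, rfl⟩) _ hs.1 hs.2.1 hs.2.2
  refine ⟨_, hs, S₁, S₂, hS₁, hS₂, ?_⟩
  -- `b = 0`
  have hb0 : b = 0 := by
    rw [ha] at hb
    exact pow_eq_zero_iff (NeZero.ne N) |>.mp hb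
  -- the constant term of `S₂`
  have hS0 : S₂.eval 0 ≠ 0 := by
    obtain ⟨hord, hne⟩ := pkgev_order_S N A hB hN
    rw [← pkgev_red₂_S N A hB hN hA hs.2.1, hS₂] at hord hne
    have hJ0 : jqModC (kA A) ≠ 0 := by
      intro h
      have := bgConst_order_jqModC (kA A)
      rw [h, HahnSeries.order_zero] at this
      omega
    have hy : (0 : ℤ) < ((jqModC (kA A))⁻¹).order := by
      rw [pkgev_order_inv hJ0, bgConst_order_jqModC]
      norm_num
    have e : ((Polynomial.aeval (pkgJbar A)⁻¹ S₂ : FFk A) : LaurentSeries (kA A)) =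
        Polynomial.aeval ((jqModC (kA A))⁻¹) S₂ := by
      have h := Polynomial.aeval_algHom_apply (modularFunctionFieldFullC (kA A) 1).val
        (pkgJbar A)⁻¹ S₂
      exact h.symm
    rw [e] at hord hne
    have h1 := pkgev_aeval_coeff_zero _ hy S₂
    rw [← h1]
    have h2 : (Polynomial.aeval ((jqModC (kA A))⁻¹) S₂).coeff 0 =
        (Polynomial.aeval ((jqModC (kA A))⁻¹) S₂).leadingCoeff := by
      rw [HahnSeries.leadingCoeff_eq, hord]
    rw [h2]
    exact fun h => hne (HahnSeries.leadingCoeff_eq_zero.mp h)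
  intro c hc
  obtain ⟨a₀, ha₀, hv₀⟩ := hP
  have hN12 : (N : Kb) ^ 12 ∈ A := pow_mem (pkg_natCast_mem N A hA) 12
  have hv : HasValueAt P (pkgevS N) ((((N : Kb) ^ 12) * a₀) ^ N * (a : Kb) ^ (N - 1)) :=
    ln_hasValueAt_mul (pkgev_hv_pow (ln_hasValueAt_mul (ln_hasValueAt_const P _) hv₀) N)
      (pkgev_hv_pow hPa (N - 1))
  have e := hasValueAt_unique P hc hv
  have e1 : c = (⟨(N : Kb) ^ 12, hN12⟩ * ⟨a₀, ha₀⟩ : A) ^ N * a ^ (N - 1) := Subtype.ext e
  have hN1 : N - 1 ≠ 0 := by omega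
  rw [hb0, e1, map_mul, map_pow, map_pow, ha, zero_pow hN1, mul_zero]
  exact hS0.symm

end Fermat.Agent.S15.LN

end
end ZBZ2S15_005_15

/-! ### bundled: `Fermat.Agent.S15.PkgEv` -/
section ZBZ2S15_005_16

/-!
# S15 / LN-PKG, piece PKG-ev: `stmtPkgEv_of : StmtPkgFibre → StmtPkgEv` (helper72)

Evaluation = the dictionary place ↔ closed point of the chart: if the place `P` (of type 1)
reduces to the point `Q` of the first component, `b` is integral over `A[t]` (`t = j` or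
`t = 1/j`) and `t(P) ∈ A`, then `b(P) ∈ A` and `b(P)‾ = b̄₁(Q)`.

Input: the fibre formula `StmtPkgFibre` (TV2, set form; `S15/PkgEvPlan.lean`).  No
multiplicities are used: `f ↦ f(P)‾`, `f ↦ F₁(a)`, `f ↦ F₂(b)` are additive, the first one takes
its values in the set of the two others, and a separating element exists
(`S15/PkgEvSep.lean`, `S15/PkgEvCusp.lean`).

Also exported: `pkgev_main` (the same for an element of the chart ring `PkgChart`, with the
polynomial `F₁`: `b(P)‾ = F₁(t(P)‾)`).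
-/

set_option autoImplicit false
set_option linter.unusedSectionVars false
set_option linter.unusedVariables false
set_option linter.style.haveILetI false

noncomputable section

namespace Fermat.Agent.S15.LN

open ModularCurve AlgebraicCurve Polynomial IntermediateField
open Fermat.Agent.ES Fermat.Agent.ES.M Fermat.Agent.S24 Fermat.Agent.ES.LR Fermat.Agent.DEU
  Fermat.Agent.INJ Fermat.Agent.W1 Fermat.Agent.S15 Fermat.Agent.S28

variable (N : ℕ) [NeZero N] (A : ValuationSubring Kb)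

/-- **PKG-ev, polynomial form**: for a place `P` of type 1 with `t(P) = a ∈ A` and `f` in the
chart ring of `t` with `f̄₁ = F₁(t̄)`: `f(P) ∈ A` and `f(P)‾ = F₁(ā)`. -/
theorem pkgev_main (hFib : StmtPkgFibre) (hN : N.Prime) (h5 : 5 ≤ N) (hA : A.LiesOverPrime N)
    (hB : PkgBase N A) {t : FF N} {tb : FFk A} (hc : PkgCoord N A t tb)
    (P : Place Kb (FF N)) (hP : PkgType₁ N A P) (a : A) (hPa : HasValueAt P t (a : Kb))
    (f : FF N) (hf : PkgChart N A t f) (F₁ : (kA A)[X])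
    (hF₁ : pkgRed₁ N A hB ⟨f, hf.1⟩ = Polynomial.aeval tb F₁) :
    ∃ c : A, HasValueAt P f (c : Kb) ∧
      IsLocalRing.residue A c = F₁.eval (IsLocalRing.residue A a) := by
  obtain ⟨-, ⟨F₂, hF₂⟩⟩ := stmtPkgPoly2 N hN h5 A hA hB t tb hc f hf.1 hf.2.1 hf.2.2
  haveI : IsAlgClosed (kA A) := Fermat.Agent.RED.isAlgClosed_residueField A
  obtain ⟨β, hβ⟩ := IsAlgClosed.exists_pow_nat_eq (IsLocalRing.residue A a) hN.pos
  have hsep : ∃ (s : FF N) (hs : PkgChart N A t s) (S₁ S₂ : (kA A)[X]),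
      pkgRed₁ N A hB ⟨s, hs.1⟩ = Polynomial.aeval tb S₁ ∧
      pkgRed₂ N A hB ⟨s, hs.2.1⟩ = Polynomial.aeval tb S₂ ∧
      ∀ c : A, HasValueAt P s (c : Kb) → IsLocalRing.residue A c ≠ S₂.eval β := by
    rcases hc with ⟨rfl, rfl⟩ | ⟨rfl, rfl⟩
    · exact pkgev_sep_j N A hB hN h5 hA P hP β
    · by_cases h0 : IsLocalRing.residue A a = 0
      · exact pkgev_sep_cusp N A hB hN h5 hA P hP a hPa h0 β hβ
      · exact pkgev_sep_unit N A hB hN h5 hA P hP a hPa h0 β
  obtain ⟨s, hs, S₁, S₂, hS₁, hS₂, hsv⟩ := hsep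
  exact pkgev_of_sep N A hFib hN h5 hA hB hc P a hPa β hβ s hs S₁ S₂ hS₁ hS₂ hsv f hf F₁ F₂
    hF₁ hF₂

/-- **PKG-ev** from the fibre formula -/
theorem stmtPkgEv_of (hFib : StmtPkgFibre) : StmtPkgEv := by
  intro N _ hN h5 A hA hB t ht P Q hr ha b hint hb₁
  obtain ⟨a, hPa⟩ := ha
  have hrel := pkgev_rel_of_r N A hr
  obtain ⟨tb, hc⟩ : ∃ tb : FFk A, PkgCoord N A t tb := by
    rcases ht with rfl | rfl
    · exact ⟨pkgJbar A, Or.inl ⟨rfl, rfl⟩⟩
    · exact ⟨(pkgJbar A)⁻¹, Or.inr ⟨rfl, rfl⟩⟩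
  have hchart := pkgev_chart_of_int N A hB hN hA hc b hint
  obtain ⟨⟨F₁, hF₁⟩, -⟩ := stmtPkgPoly2 N hN h5 A hA hB t tb hc b hchart.1 hchart.2.1
    hchart.2.2
  obtain ⟨c, hcP, hcv⟩ := pkgev_main N A hFib hN h5 hA hB hc P hrel.1 a hPa b hchart F₁ hF₁
  refine ⟨c, hcP, ?_⟩
  have hQ := pkgev_coord_value N A hc hrel a hPa
  have h1 := pkgev_hv_aeval hQ F₁
  have e : pkgRed₁ N A hB ⟨b, hb₁⟩ = Polynomial.aeval tb F₁ := hF₁
  rw [e, hcv]
  exact h1

end Fermat.Agent.S15.LN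

end
end ZBZ2S15_005_16

/-! ### bundled: `Fermat.Agent.S15.PkgGlue` -/
section ZBZ2S15_005_17

/-!
# S15 / LOCAL-N / LN-PKG, piece PKG-glue (helper13): normality at the crossing points

`StmtPkgGlue` (`PlanPKG.lean`): a function `u ∈ O₁ ∩ O₂` whose poles are places of smooth type
is regular at the crossing points, with the same value on both branches.

Inputs (all at `(N, A, hB)`):
* `StmtPkgPoly` (helper10, landed): the reductions of `f ∈ B` are polynomials in `j̄`;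
* `PkgIsGoursat N A S` + the description `StmtPkgXset` of the crossing set (helper89/helper8):
  `f ∈ B` with reductions `(P(j̄), Q(j̄))` has `P(s) = Q(s ^ N)` for `s ∈ S`, and the crossing
  points are the pairs `(Q_s, Q_{s^N})`, `s ∈ S`;
* `PkgIsType N A` (helper25, landed), `PkgIsCross N A hB` (helper8): a place of smooth type
  does not reduce to a crossing point.

Proof.
(A) `pkggl_glued_B`: for `f ∈ B` the statement is `glued` of Goursat.
(B) `pkggl_clear`: for a place `P` of smooth type at which `j` is regular there is `e ∈ B`,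
    a unit at the crossing points with the same value on both branches, with `e(P) = 0`:
    `e = j - a` (`a = j(P) ∈ A`) or `e = a⁻¹ j - 1` (`a ∉ A`) if `P` is of type 1, and the same
    with `j_N = w_N j` if `P` is of type 2.
(C) `pkggl_glue`: `f = u · ∏ e_P ^ n_P ∈ B`, and `ū = f̄ / ∏ ē_P ^ n_P`.

Main statements: `pkggl_glue`, `stmtPkgGlue_of`.
-/

set_option autoImplicit false
set_option linter.unusedSectionVars false

noncomputable section

open AlgebraicCurve Module ModularCurve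

namespace Fermat.Agent.S15.LN

open Fermat.Agent.W1 Fermat.Agent.S24 Fermat.Agent.S15 Fermat.Agent.ES.M Fermat.Agent.DEU
  Fermat.Agent.INJ

/-! ## Values of polynomials -/

section Gen

variable {K F : Type} [Field K] [Field F] [Algebra K F]

theorem pkggl_hasValueAt_pow {P : Place K F} {f : F} {a : K} (h : HasValueAt P f a) (n : ℕ) :
    HasValueAt P (f ^ n) (a ^ n) := by
  induction n with
  | zero =>
    rw [pow_zero, pow_zero]
    exact ln_hasValueAt_one P
  | succ n ih =>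
    rw [pow_succ, pow_succ]
    exact ln_hasValueAt_mul ih h

theorem pkggl_hasValueAt_sub {P : Place K F} {f g : F} {a b : K} (hf : HasValueAt P f a)
    (hg : HasValueAt P g b) : HasValueAt P (f - g) (a - b) := by
  have h := ln_hasValueAt_add hf (ln_hasValueAt_smul (-1 : K) hg)
  have e1 : f + (-1 : K) • g = f - g := by
    rw [neg_smul, one_smul, sub_eq_add_neg]
  have e2 : a + -1 * b = a - b := by ring
  rwa [e1, e2] at h

theorem pkggl_hasValueAt_aeval {P : Place K F} {t : F} {a : K} (h : HasValueAt P t a)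
    (p : Polynomial K) : HasValueAt P (Polynomial.aeval t p) (p.eval a) := by
  induction p using Polynomial.induction_on' with
  | add p q hp hq =>
    rw [map_add, Polynomial.eval_add]
    exact ln_hasValueAt_add hp hq
  | monomial n c =>
    rw [Polynomial.aeval_monomial, Polynomial.eval_monomial]
    exact ln_hasValueAt_mul (ln_hasValueAt_const P c) (pkggl_hasValueAt_pow h n)

/-- division by a function with a nonzero value -/
theorem pkggl_hasValueAt_of_mul {P : Place K F} {f g : F} {a c : K}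
    (hfg : HasValueAt P (f * g) a) (hg : HasValueAt P g c) (hc : c ≠ 0) :
    HasValueAt P f (a * c⁻¹) := by
  have hg0 : g ≠ 0 := ln_ne_zero_of_value hg hc
  have h := ln_hasValueAt_mul hfg (ln_hasValueAt_inv hg hc)
  rwa [mul_inv_cancel_right₀ hg0] at h

theorem pkggl_ord_pow (P : Place K F) (f : F) (n : ℕ) : P.ord (f ^ n) = n * P.ord f := by
  have h := Place.ord_zpow P f (n : ℤ)
  rwa [zpow_natCast] at h

end Gen

variable (N : ℕ) [NeZero N] (A : ValuationSubring Kb)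

/-! ## The good elements: elements of `B`, units at the crossing points -/

/-- `e ∈ B`, and `e` is a unit at the crossing points with the same value on both branches -/
def PkgGlGood (hB : PkgBase N A) (e : FF N) : Prop :=
  PolesAtCusps N e ∧ ∃ (h₁ : e ∈ pkgO₁ N A) (h₂ : e ∈ pkgO₂ N A),
    (pkgTR N A hB).GluedUnit (pkgRed₁ N A hB ⟨e, h₁⟩) (pkgRed₂ N A hB ⟨e, h₂⟩)

variable {N A}

theorem pkggl_red₁_mul (hB : PkgBase N A) {e e' : FF N} (h₁ : e ∈ pkgO₁ N A)
    (h₁' : e' ∈ pkgO₁ N A) :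
    pkgRed₁ N A hB ⟨e * e', (pkgO₁ N A).mul_mem _ _ h₁ h₁'⟩ =
      pkgRed₁ N A hB ⟨e, h₁⟩ * pkgRed₁ N A hB ⟨e', h₁'⟩ := by
  have hmul : (⟨e * e', (pkgO₁ N A).mul_mem _ _ h₁ h₁'⟩ : pkgO₁ N A) = ⟨e, h₁⟩ * ⟨e', h₁'⟩ :=
    rfl
  rw [hmul, map_mul]

theorem pkggl_red₂_mul (hB : PkgBase N A) {e e' : FF N} (h₂ : e ∈ pkgO₂ N A)
    (h₂' : e' ∈ pkgO₂ N A) :
    pkgRed₂ N A hB ⟨e * e', (pkgO₂ N A).mul_mem _ _ h₂ h₂'⟩ =
      pkgRed₂ N A hB ⟨e, h₂⟩ * pkgRed₂ N A hB ⟨e', h₂'⟩ := by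
  have hmul : (⟨e * e', (pkgO₂ N A).mul_mem _ _ h₂ h₂'⟩ : pkgO₂ N A) = ⟨e, h₂⟩ * ⟨e', h₂'⟩ :=
    rfl
  rw [hmul, map_mul]

theorem pkggl_red₁_sub (hB : PkgBase N A) {e e' : FF N} (h₁ : e ∈ pkgO₁ N A)
    (h₁' : e' ∈ pkgO₁ N A) :
    pkgRed₁ N A hB ⟨e - e', (pkgO₁ N A).toSubring.sub_mem h₁ h₁'⟩ =
      pkgRed₁ N A hB ⟨e, h₁⟩ - pkgRed₁ N A hB ⟨e', h₁'⟩ := by
  have hsub : (⟨e - e', (pkgO₁ N A).toSubring.sub_mem h₁ h₁'⟩ : pkgO₁ N A) =
      ⟨e, h₁⟩ - ⟨e', h₁'⟩ := rfl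
  rw [hsub, map_sub]

theorem pkggl_red₂_sub (hB : PkgBase N A) {e e' : FF N} (h₂ : e ∈ pkgO₂ N A)
    (h₂' : e' ∈ pkgO₂ N A) :
    pkgRed₂ N A hB ⟨e - e', (pkgO₂ N A).toSubring.sub_mem h₂ h₂'⟩ =
      pkgRed₂ N A hB ⟨e, h₂⟩ - pkgRed₂ N A hB ⟨e', h₂'⟩ := by
  have hsub : (⟨e - e', (pkgO₂ N A).toSubring.sub_mem h₂ h₂'⟩ : pkgO₂ N A) =
      ⟨e, h₂⟩ - ⟨e', h₂'⟩ := rfl
  rw [hsub, map_sub]

theorem pkggl_red₁_one (hB : PkgBase N A) :
    pkgRed₁ N A hB ⟨1, (pkgO₁ N A).one_mem⟩ = 1 := by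
  have h1 : (⟨1, (pkgO₁ N A).one_mem⟩ : pkgO₁ N A) = 1 := rfl
  rw [h1, map_one]

theorem pkggl_red₂_one (hB : PkgBase N A) :
    pkgRed₂ N A hB ⟨1, (pkgO₂ N A).one_mem⟩ = 1 := by
  have h1 : (⟨1, (pkgO₂ N A).one_mem⟩ : pkgO₂ N A) = 1 := rfl
  rw [h1, map_one]

theorem pkggl_good_one (hB : PkgBase N A) : PkgGlGood N A hB 1 := by
  have hp : PolesAtCusps N (1 : FF N) := by
    have h := pkgc_poles_const N (1 : Kb)
    rwa [map_one] at h
  have key : (pkgTR N A hB).GluedUnit (pkgRed₁ N A hB ⟨1, (pkgO₁ N A).one_mem⟩)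
      (pkgRed₂ N A hB ⟨1, (pkgO₂ N A).one_mem⟩) := by
    rw [pkggl_red₁_one, pkggl_red₂_one]
    exact ln_gluedUnit_one _
  exact ⟨hp, (pkgO₁ N A).one_mem, (pkgO₂ N A).one_mem, key⟩

theorem pkggl_good_mul {hB : PkgBase N A} {e e' : FF N} (he : PkgGlGood N A hB e)
    (he' : PkgGlGood N A hB e') : PkgGlGood N A hB (e * e') := by
  obtain ⟨hp, h₁, h₂, hg⟩ := he
  obtain ⟨hp', h₁', h₂', hg'⟩ := he'
  have hm₁ : e * e' ∈ pkgO₁ N A := (pkgO₁ N A).mul_mem _ _ h₁ h₁'
  have hm₂ : e * e' ∈ pkgO₂ N A := (pkgO₂ N A).mul_mem _ _ h₂ h₂'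
  have hpp : PolesAtCusps N (e * e') := pkgc_poles_mul hp hp'
  have key : (pkgTR N A hB).GluedUnit (pkgRed₁ N A hB ⟨e * e', hm₁⟩)
      (pkgRed₂ N A hB ⟨e * e', hm₂⟩) := by
    rw [pkggl_red₁_mul hB h₁ h₁', pkggl_red₂_mul hB h₂ h₂']
    exact ln_gluedUnit_mul hg hg'
  exact ⟨hpp, hm₁, hm₂, key⟩

theorem pkggl_good_pow {hB : PkgBase N A} {e : FF N} (he : PkgGlGood N A hB e) (n : ℕ) :
    PkgGlGood N A hB (e ^ n) := by
  induction n with
  | zero =>
    rw [pow_zero]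
    exact pkggl_good_one hB
  | succ n ih =>
    rw [pow_succ]
    exact pkggl_good_mul ih he

theorem PkgGlGood.poles {hB : PkgBase N A} {e : FF N} (he : PkgGlGood N A hB e) :
    PolesAtCusps N e := he.1

/-! ## (A) the chart ring -/

/-- the description of the crossing set by the finite set `S` (an instance of `StmtPkgXset`) -/
def PkgGlXset (hB : PkgBase N A) (S : Finset (kA A)) : Prop :=
  ∀ x : Place (kA A) (FFk A) × Place (kA A) (FFk A),
    x ∈ pkgXset N A hB ↔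
      ∃ s ∈ S, HasValueAt x.1 (pkgJbar A) s ∧ HasValueAt x.2 (pkgJbar A) (s ^ N)

/-- the instance of PKG-poly at `(N, A, hB)` -/
def PkgGlPoly (hB : PkgBase N A) : Prop :=
  ∀ (f : FF N) (h₁ : f ∈ pkgO₁ N A) (h₂ : f ∈ pkgO₂ N A), PolesAtCusps N f →
    pkgRed₁ N A hB ⟨f, h₁⟩ ∈ Algebra.adjoin (kA A) {pkgJbar A} ∧
      pkgRed₂ N A hB ⟨f, h₂⟩ ∈ Algebra.adjoin (kA A) {pkgJbar A}

/-- **(A)**: the elements of the chart ring `B` are glued. -/
theorem pkggl_glued_B {hB : PkgBase N A} {S : Finset (kA A)} (hPoly : PkgGlPoly hB)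
    (hG : PkgIsGoursat N A S) (hX : PkgGlXset hB S) (f : FF N) (h₁ : f ∈ pkgO₁ N A)
    (h₂ : f ∈ pkgO₂ N A) (hreg : PolesAtCusps N f) :
    (pkgTR N A hB).Glued (pkgRed₁ N A hB ⟨f, h₁⟩) (pkgRed₂ N A hB ⟨f, h₂⟩) := by
  obtain ⟨hp₁, hp₂⟩ := hPoly f h₁ h₂ hreg
  rw [Algebra.adjoin_singleton_eq_range_aeval] at hp₁ hp₂
  obtain ⟨P, hP⟩ := hp₁
  obtain ⟨Q, hQ⟩ := hp₂
  have hP' : Polynomial.aeval (pkgJbar A) P = pkgRed₁ N A hB ⟨f, h₁⟩ := hP
  have hQ' : Polynomial.aeval (pkgJbar A) Q = pkgRed₂ N A hB ⟨f, h₂⟩ := hQ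
  have hcB : PkgcB N A f (Polynomial.aeval (jqModC (kA A)) P)
      (Polynomial.aeval (jqModC (kA A)) Q) := by
    refine ⟨hreg, ?_, ?_⟩
    · have h := pkg_gaussRed_red₁ N A hB ⟨f, h₁⟩
      rw [← hP', pkgty_coe_aeval] at h
      exact h
    · have h := pkg_gaussRed_red₂ N A hB ⟨f, h₂⟩
      rw [← hQ', pkgty_coe_aeval] at h
      exact h
  intro x hx
  obtain ⟨s, hs, hv₁, hv₂⟩ := (hX x).mp (pkgcr_mem_Xset_of_mem_X hx)
  refine ⟨P.eval s, ?_, ?_⟩
  · rw [← hP']
    exact pkggl_hasValueAt_aeval hv₁ P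
  · rw [← hQ', hG.glued f P Q hcB s hs]
    exact pkggl_hasValueAt_aeval hv₂ Q

/-! ## (B) clearing one pole -/

/-- the constants of `A` in the two Gauss rings, with their reductions -/
theorem pkggl_const (hB : PkgBase N A) (a : A) :
    ∃ (h₁ : algebraMap Kb (FF N) (a : Kb) ∈ pkgO₁ N A)
      (h₂ : algebraMap Kb (FF N) (a : Kb) ∈ pkgO₂ N A),
      pkgRed₁ N A hB ⟨_, h₁⟩ = algebraMap (kA A) (FFk A) (IsLocalRing.residue A a) ∧
        pkgRed₂ N A hB ⟨_, h₂⟩ = algebraMap (kA A) (FFk A) (IsLocalRing.residue A a) := by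
  have h₁ : algebraMap Kb (FF N) (a : Kb) ∈ pkgO₁ N A :=
    (pkg_algebraMap_mem_iff₁ N A hB _).mpr a.2
  have h₂ : algebraMap Kb (FF N) (a : Kb) ∈ pkgO₂ N A :=
    (pkg_algebraMap_mem_iff₂ N A hB _).mpr a.2
  exact ⟨h₁, h₂, pkg_red₁_algebraMap N A hB a h₁, pkg_red₂_algebraMap N A hB a h₂⟩

/-- `t - a` is good if the common value of `t̄` at the crossing points is never `ā` -/
theorem pkggl_good_sub (hB : PkgBase N A) (t : FF N) (ht₁ : t ∈ pkgO₁ N A)
    (ht₂ : t ∈ pkgO₂ N A) (htreg : PolesAtCusps N t) (a : A)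
    (h : ∀ x ∈ pkgX N A hB, ∃ v : kA A, v ≠ IsLocalRing.residue A a ∧
      HasValueAt x.1 (pkgRed₁ N A hB ⟨t, ht₁⟩) v ∧ HasValueAt x.2 (pkgRed₂ N A hB ⟨t, ht₂⟩) v) :
    PkgGlGood N A hB (t - algebraMap Kb (FF N) (a : Kb)) := by
  obtain ⟨hc₁, hc₂, hr₁, hr₂⟩ := pkggl_const hB a
  have hm₁ : t - algebraMap Kb (FF N) (a : Kb) ∈ pkgO₁ N A :=
    (pkgO₁ N A).toSubring.sub_mem ht₁ hc₁
  have hm₂ : t - algebraMap Kb (FF N) (a : Kb) ∈ pkgO₂ N A :=
    (pkgO₂ N A).toSubring.sub_mem ht₂ hc₂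
  have hpp : PolesAtCusps N (t - algebraMap Kb (FF N) (a : Kb)) :=
    pkgc_poles_sub htreg (pkgc_poles_const N _)
  have key : (pkgTR N A hB).GluedUnit (pkgRed₁ N A hB ⟨_, hm₁⟩) (pkgRed₂ N A hB ⟨_, hm₂⟩) := by
    rw [pkggl_red₁_sub hB ht₁ hc₁, pkggl_red₂_sub hB ht₂ hc₂, hr₁, hr₂]
    intro x hx
    obtain ⟨v, hv, hv₁, hv₂⟩ := h x hx
    exact ⟨v - IsLocalRing.residue A a, sub_ne_zero.mpr hv,
      pkggl_hasValueAt_sub hv₁ (ln_hasValueAt_const _ _),
      pkggl_hasValueAt_sub hv₂ (ln_hasValueAt_const _ _)⟩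
  exact ⟨hpp, hm₁, hm₂, key⟩

/-- `c t - 1` is good if `c` is a nonunit of `A` -/
theorem pkggl_good_scaled (hB : PkgBase N A) (t : FF N) (ht₁ : t ∈ pkgO₁ N A)
    (ht₂ : t ∈ pkgO₂ N A) (htreg : PolesAtCusps N t) (c : Kb) (hc : c ∈ A.nonunits) :
    PkgGlGood N A hB (algebraMap Kb (FF N) c * t - 1) := by
  have hcA : c ∈ A := A.nonunits_subset hc
  obtain ⟨hc₁, hc₂, hr₁, hr₂⟩ := pkggl_const hB ⟨c, hcA⟩
  have hres : IsLocalRing.residue A ⟨c, hcA⟩ = 0 := by
    rw [IsLocalRing.residue_eq_zero_iff, ← ValuationSubring.coe_mem_nonunits_iff]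
    exact hc
  rw [hres, map_zero] at hr₁ hr₂
  have hct₁ : algebraMap Kb (FF N) c * t ∈ pkgO₁ N A := (pkgO₁ N A).mul_mem _ _ hc₁ ht₁
  have hct₂ : algebraMap Kb (FF N) c * t ∈ pkgO₂ N A := (pkgO₂ N A).mul_mem _ _ hc₂ ht₂
  have hm₁ : algebraMap Kb (FF N) c * t - 1 ∈ pkgO₁ N A :=
    (pkgO₁ N A).toSubring.sub_mem hct₁ (pkgO₁ N A).one_mem
  have hm₂ : algebraMap Kb (FF N) c * t - 1 ∈ pkgO₂ N A :=
    (pkgO₂ N A).toSubring.sub_mem hct₂ (pkgO₂ N A).one_mem
  have hp1 : PolesAtCusps N (1 : FF N) := (pkggl_good_one hB).1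
  have hpp : PolesAtCusps N (algebraMap Kb (FF N) c * t - 1) :=
    pkgc_poles_sub (pkgc_poles_mul (pkgc_poles_const N _) htreg) hp1
  have key : (pkgTR N A hB).GluedUnit (pkgRed₁ N A hB ⟨_, hm₁⟩) (pkgRed₂ N A hB ⟨_, hm₂⟩) := by
    rw [pkggl_red₁_sub hB hct₁ (pkgO₁ N A).one_mem, pkggl_red₂_sub hB hct₂ (pkgO₂ N A).one_mem,
      pkggl_red₁_mul hB hc₁ ht₁, pkggl_red₂_mul hB hc₂ ht₂, hr₁, hr₂, zero_mul, zero_mul,
      pkggl_red₁_one, pkggl_red₂_one]
    intro x _
    exact ⟨0 - 1, by norm_num,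
      pkggl_hasValueAt_sub (ln_hasValueAt_zero _) (ln_hasValueAt_one _),
      pkggl_hasValueAt_sub (ln_hasValueAt_zero _) (ln_hasValueAt_one _)⟩
  exact ⟨hpp, hm₁, hm₂, key⟩

/-- **clearing, general coordinate**: `t ∈ B` nonconstant and regular at `P`; if the common
value of `t̄` at the crossing points is never the reduction of `t(P)`, there is a good `e` with
`e(P) = 0`. -/
theorem pkggl_clear_gen (hB : PkgBase N A) (t : FF N) (ht₁ : t ∈ pkgO₁ N A)
    (ht₂ : t ∈ pkgO₂ N A) (htreg : PolesAtCusps N t)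
    (htc : ∀ a : Kb, t ≠ algebraMap Kb (FF N) a) (P : Place Kb (FF N))
    (htP : t ∈ P.toValuationSubring)
    (h : ∀ a : A, HasValueAt P t (a : Kb) → ∀ x ∈ pkgX N A hB,
      ∃ v : kA A, v ≠ IsLocalRing.residue A a ∧
        HasValueAt x.1 (pkgRed₁ N A hB ⟨t, ht₁⟩) v ∧
          HasValueAt x.2 (pkgRed₂ N A hB ⟨t, ht₂⟩) v) :
    ∃ e : FF N, PkgGlGood N A hB e ∧ 0 < P.ord e := by
  obtain ⟨a, ha⟩ := pkgty_exists_value N P htP
  by_cases haA : a ∈ A
  · refine ⟨t - algebraMap Kb (FF N) a, pkggl_good_sub hB t ht₁ ht₂ htreg ⟨a, haA⟩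
      (h ⟨a, haA⟩ ha), ?_⟩
    have hne : t - algebraMap Kb (FF N) a ≠ 0 := sub_ne_zero.mpr (htc a)
    exact (hasValueAt_iff_ord_pos P hne).mp ha
  · have ha0 : a ≠ 0 := by
      rintro rfl
      exact haA A.zero_mem
    have hinv : a⁻¹ ∈ A.nonunits := by
      rw [ValuationSubring.mem_nonunits_iff, map_inv₀]
      have h1 : 1 < A.valuation a := by
        rw [← not_le, ValuationSubring.valuation_le_one_iff]
        exact haA
      exact inv_lt_one_of_one_lt₀ h1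
    refine ⟨algebraMap Kb (FF N) a⁻¹ * t - 1, pkggl_good_scaled hB t ht₁ ht₂ htreg a⁻¹ hinv, ?_⟩
    have hne : algebraMap Kb (FF N) a⁻¹ * t - 1 ≠ 0 := by
      intro h0
      apply htc a
      have h1 : algebraMap Kb (FF N) a⁻¹ * t = 1 := sub_eq_zero.mp h0
      have h2 : algebraMap Kb (FF N) a * (algebraMap Kb (FF N) a⁻¹ * t) = t := by
        rw [← mul_assoc, ← map_mul, mul_inv_cancel₀ ha0, map_one, one_mul]
      rw [← h2, h1, mul_one]
    have hval : HasValueAt P (algebraMap Kb (FF N) a⁻¹ * t - 1) 0 := by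
      have h1 := pkggl_hasValueAt_sub (ln_hasValueAt_mul (ln_hasValueAt_const P a⁻¹) ha)
        (ln_hasValueAt_one P)
      rwa [inv_mul_cancel₀ ha0, sub_self] at h1
    have hne' : algebraMap Kb (FF N) a⁻¹ * t - 1 - algebraMap Kb (FF N) 0 ≠ 0 := by
      rw [map_zero, sub_zero]
      exact hne
    have h3 := (hasValueAt_iff_ord_pos P hne').mp hval
    rwa [map_zero, sub_zero] at h3

/-! ## (B') the places of smooth type -/

/-- the value of `j̄` at the reduction of a place of type 1 -/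
theorem pkggl_rel_value {P : Place Kb (FF N)} {Q : Place (kA A) (FFk A)}
    (hrel : PkgRel₁ N A P Q) (a : A) (ha : HasValueAt P (jF N) (a : Kb)) :
    HasValueAt Q (pkgJbar A) (IsLocalRing.residue A a) := by
  rcases hrel.2 with ⟨a', ha', hQ⟩ | ⟨a', ha', hQ⟩
  · have e : a' = a := Subtype.ext (hasValueAt_unique P ha' ha)
    rw [← e]
    exact hQ
  · have hmul := ln_hasValueAt_mul ha ha'
    rw [mul_inv_cancel₀ (fr_jF_ne_zero (N := N))] at hmul
    have h1 : (a : Kb) * (a' : Kb) = 1 := hasValueAt_unique P hmul (ln_hasValueAt_one P)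
    have h2 : IsLocalRing.residue A a * IsLocalRing.residue A a' = 1 := by
      rw [← map_mul]
      have h3 : a * a' = 1 := Subtype.ext h1
      rw [h3, map_one]
    have hne : IsLocalRing.residue A a' ≠ 0 := right_ne_zero_of_mul_eq_one h2
    have hinv := ln_hasValueAt_inv hQ hne
    rw [inv_inv] at hinv
    have e : (IsLocalRing.residue A a')⁻¹ = IsLocalRing.residue A a :=
      (eq_inv_of_mul_eq_one_left h2).symm
    rw [e] at hinv
    exact hinv

/-- the crossing points in terms of `S`, with the values of `j̄` and `j̄ ^ N` -/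
theorem pkggl_cross_values {hB : PkgBase N A} {S : Finset (kA A)} (hG : PkgIsGoursat N A S)
    (hX : PkgGlXset hB S) (x : Place (kA A) (FFk A) × Place (kA A) (FFk A))
    (hx : x ∈ pkgX N A hB) :
    ∃ s ∈ S, HasValueAt x.1 (pkgJbar A) s ∧ HasValueAt x.2 (pkgJbar A) (s ^ N) ∧
      HasValueAt x.2 (pkgJbar A ^ N) s := by
  obtain ⟨s, hs, hv₁, hv₂⟩ := (hX x).mp (pkgcr_mem_Xset_of_mem_X hx)
  refine ⟨s, hs, hv₁, hv₂, ?_⟩
  have h := pkggl_hasValueAt_pow hv₂ N
  have e : (s ^ N) ^ N = s := by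
    rw [← pow_mul, ← pow_two]
    exact hG.frob s hs
  rwa [e] at h

theorem pkggl_jF_nonconst (a : Kb) : jF N ≠ algebraMap Kb (FF N) a := by
  intro h
  apply transcendental_jF N
  rw [h]
  exact isAlgebraic_algebraMap a

/-- **clearing at a place of type 1** -/
theorem pkggl_clear₁ (hN : N.Prime) (hA : A.LiesOverPrime N) {hB : PkgBase N A}
    {S : Finset (kA A)} (hG : PkgIsGoursat N A S) (hX : PkgGlXset hB S) (hT : PkgIsType N A)
    (hC : PkgIsCross N A hB) (P : Place Kb (FF N)) (Q : Place (kA A) (FFk A))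
    (hPQ : pkgR N A P = some (Sum.inl Q)) (hj : 0 ≤ P.ord (jF N)) :
    ∃ e : FF N, PkgGlGood N A hB e ∧ 0 < P.ord e := by
  obtain ⟨h₁, hr₁⟩ := pkg_red₁_j N A hB
  obtain ⟨h₂, hr₂⟩ := pkgpoly_red₂_j N A hB hN hA
  refine pkggl_clear_gen hB (jF N) h₁ h₂ (pkgc_poles_jF N) pkggl_jF_nonconst P
    (PlaceAux.mem_of_ord_nonneg P hj) ?_
  intro a ha x hx
  obtain ⟨s, hs, hv₁, hv₂, hv₃⟩ := pkggl_cross_values hG hX x hx
  refine ⟨s, ?_, ?_, ?_⟩
  · intro hsa
    have hQ := pkggl_rel_value ((hT.r_inl_iff P Q).mp hPQ) a ha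
    rw [← hsa] at hQ
    exact hC.cross₁ P Q hPQ x hx (hT.place_ext _ _ s hv₁ hQ)
  · rw [hr₁]
    exact hv₁
  · rw [hr₂]
    exact hv₃

theorem pkggl_red₂_jN (hB : PkgBase N A) :
    ∃ h : jdF N N dvd_rfl ∈ pkgO₂ N A, pkgRed₂ N A hB ⟨_, h⟩ = pkgJbar A := by
  obtain ⟨h, he⟩ := pkg_red₁_j N A hB
  have hw : frickeAut N (jdF N N dvd_rfl) = jF N := by
    rw [← frickeAut_jF, frickeAut_frickeAut]
  have h2 : jdF N N dvd_rfl ∈ pkgO₂ N A := by
    rw [mem_pkgO₂, hw]
    exact h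
  refine ⟨h2, ?_⟩
  have h3 : pkgSwap N A ⟨jdF N N dvd_rfl, h2⟩ = ⟨jF N, h⟩ :=
    Subtype.ext ((coe_pkgSwap N A _).trans hw)
  show pkgRed₁ N A hB (pkgSwap N A ⟨jdF N N dvd_rfl, h2⟩) = _
  rw [h3, he]

theorem pkggl_jN_nonconst (a : Kb) : jdF N N dvd_rfl ≠ algebraMap Kb (FF N) a := by
  intro h
  apply pkggl_jF_nonconst (N := N) a
  have h1 := congrArg (frickeAut N) h
  rw [AlgEquiv.commutes, ← frickeAut_jF, frickeAut_frickeAut] at h1
  exact h1

/-- **clearing at a place of type 2** -/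
theorem pkggl_clear₂ (hN : N.Prime) (hA : A.LiesOverPrime N) {hB : PkgBase N A}
    {S : Finset (kA A)} (hG : PkgIsGoursat N A S) (hX : PkgGlXset hB S) (hT : PkgIsType N A)
    (hC : PkgIsCross N A hB) (P : Place Kb (FF N)) (Q : Place (kA A) (FFk A))
    (hPQ : pkgR N A P = some (Sum.inr Q)) (hj : 0 ≤ P.ord (jF N)) :
    ∃ e : FF N, PkgGlGood N A hB e ∧ 0 < P.ord e := by
  obtain ⟨h₁, hr₁⟩ := pkg_red₁_jN N A hB hN hA
  obtain ⟨h₂, hr₂⟩ := pkggl_red₂_jN hB
  have hjP : jF N ∈ P.toValuationSubring := PlaceAux.mem_of_ord_nonneg P hj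
  refine pkggl_clear_gen hB (jdF N N dvd_rfl) h₁ h₂ (pkgc_poles_jN N) pkggl_jN_nonconst P
    (fr_jdF_mem P.toValuationSubring hjP N dvd_rfl) ?_
  intro b hb x hx
  obtain ⟨s, hs, hv₁, hv₂, -⟩ := pkggl_cross_values hG hX x hx
  refine ⟨s ^ N, ?_, ?_, ?_⟩
  · intro hsb
    have hrel : PkgRel₁ N A (frickeAut N • P) Q := (hT.r_inr_iff P Q).mp hPQ
    have hb' : HasValueAt (frickeAut N • P) (jF N) (b : Kb) := by
      rw [pkgty_hasValueAt_fricke, frickeAut_jF]
      exact hb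
    have hQ := pkggl_rel_value hrel b hb'
    rw [← hsb] at hQ
    exact hC.cross₂ P Q hPQ x hx (hT.place_ext _ _ (s ^ N) hv₂ hQ)
  · rw [hr₁]
    exact pkggl_hasValueAt_pow hv₁ N
  · rw [hr₂]
    exact hv₂

/-- **(B)**: clearing at a place of smooth type at which `j` is regular -/
theorem pkggl_clear (hN : N.Prime) (hA : A.LiesOverPrime N) {hB : PkgBase N A}
    {S : Finset (kA A)} (hG : PkgIsGoursat N A S) (hX : PkgGlXset hB S) (hT : PkgIsType N A)
    (hC : PkgIsCross N A hB) (P : Place Kb (FF N)) (hP : (pkgR N A P).isSome)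
    (hj : 0 ≤ P.ord (jF N)) :
    ∃ e : FF N, PkgGlGood N A hB e ∧ 0 < P.ord e := by
  obtain ⟨y, hy⟩ := Option.isSome_iff_exists.mp hP
  rcases y with Q | Q
  · exact pkggl_clear₁ hN hA hG hX hT hC P Q hy hj
  · exact pkggl_clear₂ hN hA hG hX hT hC P Q hy hj

/-! ## (C) clearing all poles -/

theorem pkggl_ne_zero_of_ord_pos {P : Place Kb (FF N)} {e : FF N} (h : 0 < P.ord e) : e ≠ 0 := by
  rintro rfl
  rw [Place.ord_zero] at h
  exact lt_irrefl _ h

/-- a good element vanishing to prescribed orders at finitely many places of smooth type -/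
theorem pkggl_clear_all {hB : PkgBase N A}
    (hclear : ∀ P : Place Kb (FF N), (pkgR N A P).isSome → 0 ≤ P.ord (jF N) →
      ∃ e : FF N, PkgGlGood N A hB e ∧ 0 < P.ord e)
    (n : Place Kb (FF N) → ℕ) (T : Finset (Place Kb (FF N)))
    (hT : ∀ P ∈ T, (pkgR N A P).isSome ∧ 0 ≤ P.ord (jF N)) :
    ∃ E : FF N, PkgGlGood N A hB E ∧ E ≠ 0 ∧ ∀ P ∈ T, (n P : ℤ) ≤ P.ord E := by
  classical
  induction T using Finset.induction_on with
  | empty =>
    exact ⟨1, pkggl_good_one hB, one_ne_zero, fun P hP => absurd hP (Finset.notMem_empty P)⟩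
  | insert P T hPT ih =>
    obtain ⟨E', hE', hE'0, hE'ord⟩ := ih fun P' hP' => hT P' (Finset.mem_insert_of_mem hP')
    obtain ⟨hPs, hPj⟩ := hT P (Finset.mem_insert_self P T)
    obtain ⟨e, he, heord⟩ := hclear P hPs hPj
    have he0 : e ≠ 0 := pkggl_ne_zero_of_ord_pos heord
    have hpow0 : e ^ n P ≠ 0 := pow_ne_zero _ he0
    refine ⟨e ^ n P * E', pkggl_good_mul (pkggl_good_pow he _) hE', mul_ne_zero hpow0 hE'0, ?_⟩
    intro P' hP'
    rw [Place.ord_mul P' hpow0 hE'0, pkggl_ord_pow]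
    rcases Finset.mem_insert.mp hP' with rfl | hP'T
    · have h1 : 0 ≤ P'.ord E' := hE'.1 P' hPj
      have h2 : (n P' : ℤ) * 1 ≤ (n P' : ℤ) * P'.ord e :=
        mul_le_mul_of_nonneg_left heord (Int.natCast_nonneg _)
      omega
    · have h1 : 0 ≤ P'.ord e := he.1 P' (hT P' hP').2
      have h2 : 0 ≤ (n P : ℤ) * P'.ord e := mul_nonneg (Int.natCast_nonneg _) h1
      have h3 := hE'ord P' hP'T
      omega

theorem pkggl_red₁_zero (hB : PkgBase N A) :
    pkgRed₁ N A hB ⟨0, (pkgO₁ N A).zero_mem⟩ = 0 := by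
  have h1 : (⟨0, (pkgO₁ N A).zero_mem⟩ : pkgO₁ N A) = 0 := rfl
  rw [h1, map_zero]

theorem pkggl_red₂_zero (hB : PkgBase N A) :
    pkgRed₂ N A hB ⟨0, (pkgO₂ N A).zero_mem⟩ = 0 := by
  have h1 : (⟨0, (pkgO₂ N A).zero_mem⟩ : pkgO₂ N A) = 0 := rfl
  rw [h1, map_zero]

/-- **(C)**: a function of both Gauss rings whose poles are places of smooth type is glued. -/
theorem pkggl_glue_of_clear {hB : PkgBase N A}
    (hglB : ∀ (f : FF N) (h₁ : f ∈ pkgO₁ N A) (h₂ : f ∈ pkgO₂ N A), PolesAtCusps N f →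
      (pkgTR N A hB).Glued (pkgRed₁ N A hB ⟨f, h₁⟩) (pkgRed₂ N A hB ⟨f, h₂⟩))
    (hclear : ∀ P : Place Kb (FF N), (pkgR N A P).isSome → 0 ≤ P.ord (jF N) →
      ∃ e : FF N, PkgGlGood N A hB e ∧ 0 < P.ord e)
    (u : FF N) (h₁ : u ∈ pkgO₁ N A) (h₂ : u ∈ pkgO₂ N A)
    (hu : ∀ P : Place Kb (FF N), P.ord u < 0 → (pkgR N A P).isSome) :
    (pkgTR N A hB).Glued (pkgRed₁ N A hB ⟨u, h₁⟩) (pkgRed₂ N A hB ⟨u, h₂⟩) := by
  classical
  rcases eq_or_ne u 0 with rfl | hu0
  · rw [pkggl_red₁_zero, pkggl_red₂_zero]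
    exact ln_glued_zero _
  obtain ⟨D, hD, -⟩ := (Fermat.Agent.ES.H.hasPrincipalDivisors_FF N).exists_divisor u hu0
  obtain ⟨E, hE, hE0, hEord⟩ := pkggl_clear_all hclear (fun P => (-P.ord u).toNat)
    (D.support.filter fun P => P.ord u < 0 ∧ 0 ≤ P.ord (jF N)) (by
      intro P hP
      obtain ⟨-, hP1, hP2⟩ := Finset.mem_filter.mp hP
      exact ⟨hu P hP1, hP2⟩)
  obtain ⟨hEp, hE₁, hE₂, hEg⟩ := hE
  have hf₁ : u * E ∈ pkgO₁ N A := (pkgO₁ N A).mul_mem _ _ h₁ hE₁
  have hf₂ : u * E ∈ pkgO₂ N A := (pkgO₂ N A).mul_mem _ _ h₂ hE₂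
  have hfp : PolesAtCusps N (u * E) := by
    intro P hPj
    rw [Place.ord_mul P hu0 hE0]
    have h1 : 0 ≤ P.ord E := hEp P hPj
    by_cases hneg : P.ord u < 0
    · have hmem : P ∈ D.support.filter fun P => P.ord u < 0 ∧ 0 ≤ P.ord (jF N) := by
        refine Finset.mem_filter.mpr ⟨?_, hneg, hPj⟩
        rw [Finsupp.mem_support_iff, hD]
        exact ne_of_lt hneg
      have h2 := hEord P hmem
      have h3 : ((-P.ord u).toNat : ℤ) = -P.ord u := Int.toNat_of_nonneg (by omega)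
      omega
    · omega
  have hgl := hglB (u * E) hf₁ hf₂ hfp
  rw [pkggl_red₁_mul hB h₁ hE₁, pkggl_red₂_mul hB h₂ hE₂] at hgl
  intro x hx
  obtain ⟨a, ha₁, ha₂⟩ := hgl x hx
  obtain ⟨c, hc, hc₁, hc₂⟩ := hEg x hx
  exact ⟨a * c⁻¹, pkggl_hasValueAt_of_mul ha₁ hc₁ hc, pkggl_hasValueAt_of_mul ha₂ hc₂ hc⟩

/-- **PKG-glue** at `(N, A, hB)` -/
theorem pkggl_glue (hN : N.Prime) (hA : A.LiesOverPrime N) {hB : PkgBase N A}
    {S : Finset (kA A)} (hPoly : PkgGlPoly hB) (hG : PkgIsGoursat N A S) (hX : PkgGlXset hB S)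
    (hT : PkgIsType N A) (hC : PkgIsCross N A hB) (u : FF N) (h₁ : u ∈ pkgO₁ N A)
    (h₂ : u ∈ pkgO₂ N A) (hu : ∀ P : Place Kb (FF N), P.ord u < 0 → (pkgR N A P).isSome) :
    (pkgTR N A hB).Glued (pkgRed₁ N A hB ⟨u, h₁⟩) (pkgRed₂ N A hB ⟨u, h₂⟩) :=
  pkggl_glue_of_clear (pkggl_glued_B hPoly hG hX) (pkggl_clear hN hA hG hX hT hC) u h₁ h₂ hu

/-- **PKG-glue**, from PKG-poly, the Goursat description of `red(B)` with the description of
the crossing set, PKG-type and PKG-cross. -/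
theorem stmtPkgGlue_of (hPoly : StmtPkgPoly)
    (hGou : ∀ (N : ℕ) [NeZero N], N.Prime → 5 ≤ N → ∀ A : ValuationSubring Kb,
      A.LiesOverPrime N → ∃ S : Finset (kA A), PkgIsGoursat N A S)
    (hXs : StmtPkgXset) (hT : StmtPkgType) (hC : StmtPkgCross) : StmtPkgGlue := by
  intro N _ hN h5 A hA hB u h₁ h₂ hu
  obtain ⟨S, hG⟩ := hGou N hN h5 A hA
  exact pkggl_glue hN hA (fun f h₁ h₂ hreg => hPoly N hN h5 A hA hB f h₁ h₂ hreg) hG
    (hXs N hN h5 A hA hB S hG) (hT N hN h5 A hA) (hC N hN h5 A hA hB) u h₁ h₂ hu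

end Fermat.Agent.S15.LN

end
end ZBZ2S15_005_17

/-! ### bundled: `Fermat.Agent.S15.PkgRdivSep` -/
section ZBZ2S15_005_18

/-!
# S15 / LN-PKG, piece PKG-rdiv, part 2: the separating functions (helper24)

The tube `PkgrdTube` of a point of the first component, and the construction of the separating
functions `φ` of the abstract Hartogs lemma (`PkgRdivCore.lean`):

* `pkgrd_nt1` : at a place which is not of type 1, `h = 1/oggU` has a value in the maximal ideal;
* `pkgrd_sep` : every place outside the tube at which `t` is regular is a zero of some `φ ∈ O₁`,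
  regular wherever `t` is, whose reduction is a unit at `Q`;
* `pkgrd_small` : `g · h ^ M ∈ O₂` for `M ≫ 0`.
-/

set_option autoImplicit false
set_option linter.unusedSectionVars false
set_option linter.unusedVariables false
set_option linter.style.haveILetI false

noncomputable section

open AlgebraicCurve Module ModularCurve

namespace Fermat.Agent.S15.LN

open Fermat.Agent.W1 Fermat.Agent.S24 Fermat.Agent.S15 Fermat.Agent.ES.M Fermat.Agent.DEU
  Fermat.Agent.INJ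

variable (N : ℕ) [NeZero N] (A : ValuationSubring Kb)

/-- `P` lies in the tube of the point `t̄ = a` of the first component: `P` is of type 1 and
`t(P) ∈ A` reduces to `a` -/
def PkgrdTube (t : FF N) (a : kA A) (P : Place Kb (FF N)) : Prop :=
  PkgType₁ N A P ∧ ∃ c : A, HasValueAt P t (c : Kb) ∧ IsLocalRing.residue A c = a

variable {N A}

theorem pkgrd_hasValueAt_sub {K F : Type} [Field K] [Field F] [Algebra K F] {P : Place K F}
    {f g : F} {a b : K} (hf : HasValueAt P f a) (hg : HasValueAt P g b) :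
    HasValueAt P (f - g) (a - b) := by
  have h := ln_hasValueAt_add hf (ln_hasValueAt_smul (-1 : K) hg)
  have e1 : f + (-1 : K) • g = f - g := by
    rw [neg_smul, one_smul, sub_eq_add_neg]
  have e2 : a + (-1 : K) * b = a - b := by ring
  rwa [e1, e2] at h

theorem pkgrd_hasValueAt_pow {K F : Type} [Field K] [Field F] [Algebra K F] {P : Place K F}
    {f : F} {a : K} (hf : HasValueAt P f a) (n : ℕ) : HasValueAt P (f ^ n) (a ^ n) := by
  induction n with
  | zero => simpa using ln_hasValueAt_one P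
  | succ n ih =>
      rw [pow_succ, pow_succ]
      exact ln_hasValueAt_mul ih hf

theorem pkgrd_ord_pos_of_value_zero {K F : Type} [Field K] [Field F] [Algebra K F]
    {P : Place K F} {f : F} (hf : HasValueAt P f 0) (h0 : f ≠ 0) : 0 < P.ord f := by
  have h1 : f - algebraMap K F 0 ≠ 0 := by
    rw [map_zero, sub_zero]
    exact h0
  have h2 := (hasValueAt_iff_ord_pos P h1).mp hf
  rwa [map_zero, sub_zero] at h2

theorem pkgrd_inv_mem_nonunits {x : Kb} (hx : x ∉ A) : x⁻¹ ∈ A.nonunits := by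
  rw [ValuationSubring.mem_nonunits_iff_or, inv_inv]
  exact Or.inr hx

theorem pkgrd_residue_eq_zero {x : Kb} (hx : x ∈ A.nonunits) (h : x ∈ A) :
    IsLocalRing.residue A ⟨x, h⟩ = 0 := by
  rw [IsLocalRing.residue_eq_zero_iff, ← ValuationSubring.coe_mem_nonunits_iff]
  exact hx

/-- at a place which is not of type 1 the function `h = 1/oggU` has a value in the maximal
ideal of `A` -/
theorem pkgrd_nt1 {P : Place Kb (FF N)} (hnt : ¬ PkgType₁ N A P) :
    ∃ σ : Kb, σ ∈ A.nonunits ∧ HasValueAt P (oggU N)⁻¹ σ := by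
  rcases pkgty_mem_or_pole P (oggU N) with hreg | hpole
  · obtain ⟨d, hd⟩ := pkgty_exists_value N P hreg
    have hdA : d ∉ A := fun h => hnt ⟨d, h, hd⟩
    have hd0 : d ≠ 0 := fun h => hdA (h ▸ A.zero_mem)
    exact ⟨d⁻¹, pkgrd_inv_mem_nonunits hdA, ln_hasValueAt_inv hd hd0⟩
  · exact ⟨0, ge_zero_mem_nonunits A, pkgty_value_inv_of_pole hpole⟩

variable (hB : PkgBase N A)

include hB in
theorem pkgrd_const_mem (c : A) : algebraMap Kb (FF N) (c : Kb) ∈ pkgO₁ N A :=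
  (pkg_algebraMap_mem_iff₁ N A hB _).mpr c.2

/-- **the separating functions** -/
theorem pkgrd_sep (t : FF N) (tb : FFk A) (E : FF N) (Q : Place (kA A) (FFk A)) (a : kA A)
    (ht₁ : t ∈ pkgO₁ N A) (htred : pkgRed₁ N A hB ⟨t, ht₁⟩ = tb) (hQ : HasValueAt Q tb a)
    (hE₁ : E ∈ pkgO₁ N A) (hEne : pkgRed₁ N A hB ⟨E, hE₁⟩ ≠ 0)
    (hEQ : Q.ord (pkgRed₁ N A hB ⟨E, hE₁⟩) = 0)
    (hEreg : ∀ P : Place Kb (FF N), 0 ≤ P.ord t → 0 ≤ P.ord E)
    (hEval : ∀ P : Place Kb (FF N), ¬ PkgType₁ N A P → ∀ c : A, HasValueAt P t (c : Kb) →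
      ∃ σ : Kb, σ ∈ A.nonunits ∧ HasValueAt P E σ)
    (P : Place Kb (FF N)) (hP : 0 ≤ P.ord t) (hnt : ¬ PkgrdTube N A t a P) :
    ∃ (φ : FF N) (h : φ ∈ pkgO₁ N A), pkgRed₁ N A hB ⟨φ, h⟩ ≠ 0 ∧
      Q.ord (pkgRed₁ N A hB ⟨φ, h⟩) = 0 ∧ 0 < P.ord φ ∧
        ∀ P' : Place Kb (FF N), 0 ≤ P'.ord t → 0 ≤ P'.ord φ := by
  have htP : t ∈ P.toValuationSubring := ge_mem_of_not_ord_neg P (not_lt.mpr hP)
  obtain ⟨β, hβ⟩ := pkgty_exists_value N P htP
  have hne_of : ∀ (φ : FF N) (h : φ ∈ pkgO₁ N A), pkgRed₁ N A hB ⟨φ, h⟩ ≠ 0 → φ ≠ 0 := by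
    intro φ h hne h0
    apply hne
    have : (⟨φ, h⟩ : pkgO₁ N A) = 0 := Subtype.ext h0
    rw [this, map_zero]
  by_cases hβA : β ∈ A
  · by_cases hres : IsLocalRing.residue A ⟨β, hβA⟩ = a
    · -- over the disc, not of type 1
      have hnt1 : ¬ PkgType₁ N A P := fun h => hnt ⟨h, ⟨β, hβA⟩, hβ, hres⟩
      obtain ⟨σ, hσ, hσP⟩ := hEval P hnt1 ⟨β, hβA⟩ hβ
      have hσA : σ ∈ A := ge_nonunits_mem hσ
      have hc₁ := pkgrd_const_mem hB ⟨σ, hσA⟩
      have hφ : E - algebraMap Kb (FF N) σ ∈ pkgO₁ N A := sub_mem hE₁ hc₁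
      have hred : pkgRed₁ N A hB ⟨E - algebraMap Kb (FF N) σ, hφ⟩ =
          pkgRed₁ N A hB ⟨E, hE₁⟩ := by
        have e : (⟨E - algebraMap Kb (FF N) σ, hφ⟩ : pkgO₁ N A) =
            ⟨E, hE₁⟩ - ⟨algebraMap Kb (FF N) ((⟨σ, hσA⟩ : A) : Kb), hc₁⟩ := rfl
        rw [e, map_sub, pkg_red₁_algebraMap N A hB ⟨σ, hσA⟩ hc₁, pkgrd_residue_eq_zero hσ hσA,
          map_zero, sub_zero]
      refine ⟨E - algebraMap Kb (FF N) σ, hφ, ?_, ?_, ?_, ?_⟩
      · rw [hred]; exact hEne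
      · rw [hred]; exact hEQ
      · have hv : HasValueAt P (E - algebraMap Kb (FF N) σ) 0 := by
          have := pkgrd_hasValueAt_sub hσP (ln_hasValueAt_const P σ)
          rwa [sub_self] at this
        exact pkgrd_ord_pos_of_value_zero hv (hne_of _ hφ (by rw [hred]; exact hEne))
      · intro P' hP'
        exact ge_ord_nonneg_of_mem P' (sub_mem
          (ge_mem_of_not_ord_neg P' (not_lt.mpr (hEreg P' hP'))) (P'.algebraMap_mem' σ))
    · -- another residue disc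
      have hc₁ := pkgrd_const_mem hB ⟨β, hβA⟩
      have hφ : t - algebraMap Kb (FF N) β ∈ pkgO₁ N A := sub_mem ht₁ hc₁
      have hred : pkgRed₁ N A hB ⟨t - algebraMap Kb (FF N) β, hφ⟩ =
          tb - algebraMap (kA A) (FFk A) (IsLocalRing.residue A ⟨β, hβA⟩) := by
        have e : (⟨t - algebraMap Kb (FF N) β, hφ⟩ : pkgO₁ N A) =
            ⟨t, ht₁⟩ - ⟨algebraMap Kb (FF N) ((⟨β, hβA⟩ : A) : Kb), hc₁⟩ := rfl
        rw [e, map_sub, pkg_red₁_algebraMap N A hB ⟨β, hβA⟩ hc₁, htred]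
      have hval : HasValueAt Q (tb - algebraMap (kA A) (FFk A)
          (IsLocalRing.residue A ⟨β, hβA⟩)) (a - IsLocalRing.residue A ⟨β, hβA⟩) :=
        pkgrd_hasValueAt_sub hQ (ln_hasValueAt_const Q _)
      have hne : a - IsLocalRing.residue A ⟨β, hβA⟩ ≠ 0 := fun h => hres (sub_eq_zero.mp h).symm
      refine ⟨t - algebraMap Kb (FF N) β, hφ, ?_, ?_, ?_, ?_⟩
      · rw [hred]; exact ln_ne_zero_of_value hval hne
      · rw [hred]; exact ln_ord_eq_zero_of_value hval hne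
      · have hv : HasValueAt P (t - algebraMap Kb (FF N) β) 0 := by
          have := pkgrd_hasValueAt_sub hβ (ln_hasValueAt_const P β)
          rwa [sub_self] at this
        exact pkgrd_ord_pos_of_value_zero hv
          (hne_of _ hφ (by rw [hred]; exact ln_ne_zero_of_value hval hne))
      · intro P' hP'
        exact ge_ord_nonneg_of_mem P' (sub_mem
          (ge_mem_of_not_ord_neg P' (not_lt.mpr hP')) (P'.algebraMap_mem' β))
  · -- `|t(P)| > 1`
    have hβinv : β⁻¹ ∈ A.nonunits := pkgrd_inv_mem_nonunits hβA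
    have hβinvA : β⁻¹ ∈ A := ge_nonunits_mem hβinv
    have hβ0 : β ≠ 0 := fun h => hβA (h ▸ A.zero_mem)
    have hc₁ := pkgrd_const_mem hB ⟨β⁻¹, hβinvA⟩
    have hφ : 1 - algebraMap Kb (FF N) β⁻¹ * t ∈ pkgO₁ N A :=
      sub_mem (one_mem _) (mul_mem hc₁ ht₁)
    have hred : pkgRed₁ N A hB ⟨1 - algebraMap Kb (FF N) β⁻¹ * t, hφ⟩ = 1 := by
      have e : (⟨1 - algebraMap Kb (FF N) β⁻¹ * t, hφ⟩ : pkgO₁ N A) =
          1 - ⟨algebraMap Kb (FF N) ((⟨β⁻¹, hβinvA⟩ : A) : Kb), hc₁⟩ * ⟨t, ht₁⟩ := rfl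
      rw [e, map_sub, map_mul, map_one, pkg_red₁_algebraMap N A hB ⟨β⁻¹, hβinvA⟩ hc₁,
        pkgrd_residue_eq_zero hβinv hβinvA, map_zero, zero_mul, sub_zero]
    refine ⟨1 - algebraMap Kb (FF N) β⁻¹ * t, hφ, ?_, ?_, ?_, ?_⟩
    · rw [hred]; exact one_ne_zero
    · rw [hred, Place.ord_one]
    · have hv : HasValueAt P (1 - algebraMap Kb (FF N) β⁻¹ * t) 0 := by
        have := pkgrd_hasValueAt_sub (ln_hasValueAt_one P)
          (ln_hasValueAt_mul (ln_hasValueAt_const P β⁻¹) hβ)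
        rwa [inv_mul_cancel₀ hβ0, sub_self] at this
      exact pkgrd_ord_pos_of_value_zero hv (hne_of _ hφ (by rw [hred]; exact one_ne_zero))
    · intro P' hP'
      exact ge_ord_nonneg_of_mem P' (sub_mem (one_mem _)
        (mul_mem (P'.algebraMap_mem' β⁻¹) (ge_mem_of_not_ord_neg P' (not_lt.mpr hP'))))

end Fermat.Agent.S15.LN

end
end ZBZ2S15_005_18

/-! ### bundled: `Fermat.Agent.S15.PkgRdivH` -/
section ZBZ2S15_005_19

/-!
# S15 / LN-PKG, piece PKG-rdiv, part 3: Hartogs at the smooth points (helper24)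

`pkgrd_hartogs` : `Q` a point of the first component which is not a crossing point, seen in the
chart `t` (`t = j`, or `t = 1/j` at the cusp); if `w ∈ O₁` is regular on the tube of `Q` then
`red₁ w` is regular at `Q`.  Unconditional (inputs: `stmtPkgTV`, `stmtPkgPoly2`).
-/

set_option autoImplicit false
set_option linter.unusedSectionVars false
set_option linter.unusedVariables false
set_option linter.style.haveILetI false

noncomputable section

open AlgebraicCurve Module ModularCurve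

namespace Fermat.Agent.S15.LN

open Fermat.Agent.W1 Fermat.Agent.S24 Fermat.Agent.S15 Fermat.Agent.ES.M Fermat.Agent.DEU
  Fermat.Agent.INJ

variable {N : ℕ} [NeZero N] {A : ValuationSubring Kb} (hB : PkgBase N A)

/-! ## `g · h ^ M ∈ O₂` -/

theorem pkgrd_oggU_mem₁ : oggU N ∈ pkgO₁ N A := ⟨_, pkg_gaussRed_oggU N A⟩

theorem pkgrd_fricke_h :
    frickeAut N (oggU N)⁻¹ = algebraMap Kb (FF N) ((N : Kb) ^ 12) * oggU N := by
  have hfr := ogg_fricke N
  have hu0 : oggU N ≠ 0 := oggU_ne_zero N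
  have hN0 : ((N : Kb) ^ 12) ≠ 0 := pow_ne_zero _ (Nat.cast_ne_zero.mpr (NeZero.ne N))
  rw [map_inv₀, inv_eq_iff_eq_inv, mul_inv, ← map_inv₀, ← hfr, mul_inv_cancel_right₀ hu0]

include hB in
theorem pkgrd_h_pow_mem₂ (hA : A.LiesOverPrime N) (c : Kb) (n : ℕ)
    (hc : (N : Kb) ^ n * c ∈ A) : algebraMap Kb (FF N) c * (oggU N)⁻¹ ^ n ∈ pkgO₂ N A := by
  rw [mem_pkgO₂, map_mul, AlgEquiv.commutes, map_pow, pkgrd_fricke_h, mul_pow, ← map_pow,
    ← mul_assoc, ← map_mul]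
  refine mul_mem ((pkg_algebraMap_mem_iff₁ N A hB _).mpr ?_) (pow_mem pkgrd_oggU_mem₁ n)
  have e : c * ((N : Kb) ^ 12) ^ n = (N : Kb) ^ (11 * n) * ((N : Kb) ^ n * c) := by
    rw [← pow_mul]
    ring
  rw [e]
  exact mul_mem (pow_mem (pkg_natCast_mem N A hA) _) hc

include hB in
/-- `g · (t₀ · h) ^ M ∈ O₂` for a suitable `M` -/
theorem pkgrd_small (hN : N.Prime) (hA : A.LiesOverPrime N) (t₀ : FF N) (ht₀ : t₀ ∈ pkgO₂ N A)
    (g : FF N) : ∃ M : ℕ, g * (t₀ * (oggU N)⁻¹) ^ M ∈ pkgO₂ N A := by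
  rcases eq_or_ne g 0 with rfl | hg
  · exact ⟨0, by rw [zero_mul]; exact zero_mem _⟩
  · obtain ⟨c, hc0, hmem, -⟩ := pkg_prim₂ N A hB g hg
    obtain ⟨n, hn⟩ := pkg_arch N A hN hA c⁻¹ (inv_ne_zero hc0)
    refine ⟨n, ?_⟩
    have e : g * (t₀ * (oggU N)⁻¹) ^ n =
        (algebraMap Kb (FF N) c * g) * (algebraMap Kb (FF N) c⁻¹ * (oggU N)⁻¹ ^ n) * t₀ ^ n := by
      have hc' : algebraMap Kb (FF N) c ≠ 0 := (map_ne_zero _).mpr hc0
      rw [map_inv₀, mul_pow]
      field_simp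
    rw [e]
    exact mul_mem (mul_mem hmem (pkgrd_h_pow_mem₂ hB hA c⁻¹ n hn)) (pow_mem ht₀ n)

/-! ## The base case -/

include hB in
/-- the reduction of an element of the chart ring is regular at every point where `t̄` is -/
theorem pkgrd_base (hN : N.Prime) (h5 : 5 ≤ N) (hA : A.LiesOverPrime N) {t : FF N} {tb : FFk A}
    (ht : PkgCoord N A t tb) (Q : Place (kA A) (FFk A)) (a : kA A) (hQ : HasValueAt Q tb a)
    (f : FF N) (h₁ : f ∈ pkgO₁ N A) (h₂ : f ∈ pkgO₂ N A)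
    (hreg : ∀ P : Place Kb (FF N), 0 ≤ P.ord t → 0 ≤ P.ord f) :
    0 ≤ Q.ord (pkgRed₁ N A hB ⟨f, h₁⟩) := by
  obtain ⟨⟨F₁, hF₁⟩, -⟩ := stmtPkgPoly2 N hN h5 A hA hB t tb ht f h₁ h₂ hreg
  rw [hF₁]
  exact ge_ord_nonneg_of_mem Q (HasValueAt.mem Q (pkgev_hv_aeval hQ F₁))

/-! ## The two charts -/

include hB in
/-- the separating function of the chart `j` is a unit at the points which are not crossing
points -/
theorem pkgrd_unit_j (hN : N.Prime) (h5 : 5 ≤ N) (hA : A.LiesOverPrime N)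
    (Q : Place (kA A) (FFk A)) (a : kA A) (hQ : HasValueAt Q (pkgJbar A) a)
    (hnc : ∀ x ∈ pkgX N A hB, x.1 ≠ Q) : Q.ord (pkgHbar N A hB) = 0 := by
  have hT : PkgIsType N A := pkgty_isType N A hN hA
  have hpd : HasPrincipalDivisors (kA A) (FFk A) := modHyp_hpdk 1 A hN hA
  have hfin := pkgcr_finite hT hpd hB
  have hch := pkgev_chart_h N A hB hN hA
  have h1 : 0 ≤ Q.ord (pkgHbar N A hB) := by
    have := pkgrd_base hB hN h5 hA (Or.inl ⟨rfl, rfl⟩) Q a hQ _ hch.1 hch.2.1 hch.2.2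
    rwa [pkgcr_red₁_h] at this
  have h2 : ¬ 0 < Q.ord (pkgHbar N A hB) := by
    intro hpos
    obtain ⟨Q', hQ'⟩ := pkgty_place_exists A (a ^ N)
    have hx : (Q, Q') ∈ pkgXset N A hB := ⟨hpos, a, hQ, hQ'⟩
    exact hnc (Q, Q') ((pkgcr_mem_X_iff hfin _).mpr hx) rfl
  omega

/-- the cusp of the first component: the orders are the `q`-orders -/
theorem pkgrd_cusp_ord (Q : Place (kA A) (FFk A)) (hQ : HasValueAt Q (pkgJbar A)⁻¹ 0)
    (x : FFk A) (hx : x ≠ 0) : Q.ord x = (x : LaurentSeries (kA A)).order := by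
  obtain ⟨Qc, hQc, -⟩ := deuAnchor_exists_cusp (kA A) 1
  have hj : Qc.ord (pkgJbar A) < 0 := by
    rw [hQc _ (pkgty_Jbar_ne_zero A), pkg_coe_Jbar, deuAnchor_order_jqModC]
    norm_num
  have hQ' : Q.ord (pkgJbar A) < 0 := pkgty_pole_of_value_inv (pkgty_Jbar_ne_zero A) hQ
  rw [pkgty_place_ext_inf A Q Qc hQ' hj]
  exact hQc x hx

include hB in
/-- the separating function of the chart `1/j` is a unit at the cusp -/
theorem pkgrd_unit_inv (hN : N.Prime) (Q : Place (kA A) (FFk A))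
    (hQ : HasValueAt Q (pkgJbar A)⁻¹ 0) :
    Q.ord ((pkgJbar A)⁻¹ ^ (N - 1) * pkgHbar N A hB) = 0 := by
  have hj0 : pkgJbar A ≠ 0 := pkgty_Jbar_ne_zero A
  have hH0 : pkgHbar N A hB ≠ 0 := pkg_Hbar_ne_zero N A hB
  have hN1 : ((N - 1 : ℕ) : ℤ) = (N : ℤ) - 1 := by
    have := hN.one_le
    push_cast [Nat.cast_sub this]
    ring
  rw [Q.ord_mul (pow_ne_zero _ (inv_ne_zero hj0)) hH0, pkgev_ord_pow Q (inv_ne_zero hj0),
    Place.ord_inv, pkgrd_cusp_ord Q hQ _ hj0, pkgrd_cusp_ord Q hQ _ hH0, pkg_coe_Jbar,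
    pkg_coe_Hbar, deuAnchor_order_jqModC, pkgev_order_inv (Fermat.Agent.S28.uS_ne_zero N (kA A)),
    Fermat.Agent.S28.order_uS, hN1]
  ring

/-! ## The hypotheses of the abstract lemma -/

include hB in
theorem pkgrd_sepData (hN : N.Prime) (h5 : 5 ≤ N) (hA : A.LiesOverPrime N) {t : FF N}
    {tb : FFk A} (ht : PkgCoord N A t tb) (t₀ : FF N)
    (hch : PkgChart N A t (t₀ * (oggU N)⁻¹)) (ht₀ : t₀ ∈ pkgO₂ N A)
    (ht₀val : ∀ (P : Place Kb (FF N)) (c : A), HasValueAt P t (c : Kb) →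
      ∃ d : Kb, d ∈ A ∧ HasValueAt P t₀ d)
    (Q : Place (kA A) (FFk A)) (a : kA A) (hQ : HasValueAt Q tb a)
    (hne : pkgRed₁ N A hB ⟨t₀ * (oggU N)⁻¹, hch.1⟩ ≠ 0)
    (hunit : Q.ord (pkgRed₁ N A hB ⟨t₀ * (oggU N)⁻¹, hch.1⟩) = 0) :
    PkgrdSep (K := Kb) (pkgO₁ N A) (pkgO₂ N A) (pkgRed₁ N A hB) (PkgrdTube N A t a) t
      (t₀ * (oggU N)⁻¹) Q where
  base := fun f h₁ h₂ hreg => pkgrd_base hB hN h5 hA ht Q a hQ f h₁ h₂ hreg
  E_mem := hch.1
  E_ne := hne
  E_unit := hunit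
  E_reg := hch.2.2
  E_small := pkgrd_small hB hN hA t₀ ht₀
  tube_reg := fun P hP => by
    obtain ⟨-, c, hc, -⟩ := hP
    exact ge_ord_nonneg_of_mem P (HasValueAt.mem P hc)
  sep := fun P hP hnt => by
    obtain ⟨ht₁, ht₂⟩ := pkgev_coord_mem N A hB hN hA ht
    refine pkgrd_sep hB t tb (t₀ * (oggU N)⁻¹) Q a ht₁
      (pkgev_coord_red N A hB hN hA ht ht₁ ht₂).1 hQ hch.1 hne hunit hch.2.2 ?_ P hP hnt
    intro P' hnt1 c hc
    obtain ⟨σ, hσ, hσP⟩ := pkgrd_nt1 hnt1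
    obtain ⟨d, hd, hdP⟩ := ht₀val P' c hc
    exact ⟨d * σ, ge_nonunits_mul_mem hd hσ, ln_hasValueAt_mul hdP hσP⟩

include hB in
/-- **Hartogs at the smooth points of the first component**: if `w ∈ O₁` is regular on the tube
of the point `Q` (`t̄(Q) = a`, `Q` not a crossing point; in the chart `1/j`: the cusp `a = 0`),
then `red₁ w` is regular at `Q`. -/
theorem pkgrd_hartogs (hN : N.Prime) (h5 : 5 ≤ N) (hA : A.LiesOverPrime N) {t : FF N}
    {tb : FFk A} (ht : PkgCoord N A t tb) (Q : Place (kA A) (FFk A)) (a : kA A)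
    (hQ : HasValueAt Q tb a) (hcusp : t = (jF N)⁻¹ → a = 0)
    (hnc : ∀ x ∈ pkgX N A hB, x.1 ≠ Q) (w : pkgO₁ N A)
    (hw : ∀ P : Place Kb (FF N), PkgrdTube N A t a P → 0 ≤ P.ord (w : FF N)) :
    0 ≤ Q.ord (pkgRed₁ N A hB w) := by
  have hpd := Fermat.Agent.ES.H.hasPrincipalDivisors_FF N
  rcases ht with ⟨rfl, rfl⟩ | ⟨rfl, rfl⟩
  · -- chart `j`
    have hch0 := pkgev_chart_h N A hB hN hA
    have hch : PkgChart N A (jF N) (1 * (oggU N)⁻¹) := by rw [one_mul]; exact hch0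
    have hred : pkgRed₁ N A hB ⟨1 * (oggU N)⁻¹, hch.1⟩ = pkgHbar N A hB := by
      have e : (⟨1 * (oggU N)⁻¹, hch.1⟩ : pkgO₁ N A) = ⟨(oggU N)⁻¹, hch0.1⟩ :=
        Subtype.ext (one_mul _)
      rw [e, pkgcr_red₁_h]
    have S := pkgrd_sepData hB hN h5 hA (t := jF N) (tb := pkgJbar A) (Or.inl ⟨rfl, rfl⟩) 1 hch
      (one_mem _) (fun P c _ => ⟨1, one_mem _, ln_hasValueAt_one P⟩) Q a hQ
      (by rw [hred]; exact pkg_Hbar_ne_zero N A hB)
      (by rw [hred]; exact pkgrd_unit_j hB hN h5 hA Q a hQ hnc)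
    exact pkgrd_hartogs_core hpd S w.1 w.2 hw
  · -- chart `1/j`
    have ha : a = 0 := hcusp rfl
    subst ha
    have hco : PkgCoord N A (jF N)⁻¹ (pkgJbar A)⁻¹ := Or.inr ⟨rfl, rfl⟩
    obtain ⟨ht₁, ht₂⟩ := pkgev_coord_mem N A hB hN hA hco
    have hch := pkgev_chart_unit N A hB hN hA
    have hred : pkgRed₁ N A hB ⟨(jF N)⁻¹ ^ (N - 1) * (oggU N)⁻¹, hch.1⟩ =
        (pkgJbar A)⁻¹ ^ (N - 1) * pkgHbar N A hB := by
      have e : (⟨(jF N)⁻¹ ^ (N - 1) * (oggU N)⁻¹, hch.1⟩ : pkgO₁ N A) =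
          ⟨(jF N)⁻¹, ht₁⟩ ^ (N - 1) * ⟨(oggU N)⁻¹, pkg_h_mem₁ N A⟩ := rfl
      rw [e, map_mul, map_pow, (pkgev_coord_red N A hB hN hA hco ht₁ ht₂).1, pkgcr_red₁_h]
    have S := pkgrd_sepData hB hN h5 hA hco ((jF N)⁻¹ ^ (N - 1)) hch (pow_mem ht₂ _)
      (fun P c hc => ⟨(c : Kb) ^ (N - 1), pow_mem c.2 _, pkgrd_hasValueAt_pow hc _⟩) Q 0 hQ
      (by
        rw [hred]
        exact mul_ne_zero (pow_ne_zero _ (inv_ne_zero (pkgty_Jbar_ne_zero A)))
          (pkg_Hbar_ne_zero N A hB))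
      (by rw [hred]; exact pkgrd_unit_inv hB hN Q hQ)
    exact pkgrd_hartogs_core hpd S w.1 w.2 hw

end Fermat.Agent.S15.LN

end
end ZBZ2S15_005_19

/-! ### bundled: `Fermat.Agent.S15.PkgRdivAsm` -/
section ZBZ2S15_005_20

/-!
# S15 / LN-PKG, piece PKG-rdiv, part 4: the assembly (helper24)

`stmtPkgRdiv_of : StmtPkgUniq → StmtPkgRdiv`.

`u ∈ O₁ˣ`, `Q` a smooth point of the first component with `t̄(Q) = a` (`t = j`, or `t = 1/j` at
the cusp).  For `P` in the tube of `Q` put `φ_P = t - t(P)`: a unit of `O₁` with reduction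
`π = t̄ - a`, a uniformizer at `Q`; by `StmtPkgUniq` its only zero on the tube is `P`, a simple
one.  So `w = u · ∏ φ_P ^ (- ord_P u)` has neither zeros nor poles on the tube, hence `red₁ w` is
a unit at `Q` by Hartogs (`pkgrd_hartogs`, for `w` and `w⁻¹`), i.e.
`ord_Q (red₁ u) = Σ_{P in the tube} ord_P u`.
-/

set_option autoImplicit false
set_option linter.unusedSectionVars false
set_option linter.unusedVariables false
set_option linter.style.haveILetI false

noncomputable section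

open AlgebraicCurve Module ModularCurve Polynomial IsDedekindDomain

namespace Fermat.Agent.S15.LN

open Fermat.Agent.W1 Fermat.Agent.S24 Fermat.Agent.S15 Fermat.Agent.ES.M Fermat.Agent.DEU
  Fermat.Agent.INJ

/-! ## Generalities -/

/-- the coordinate minus its value is a uniformizer -/
theorem pkgrd_ord_coord {k F : Type} [Field k] [Field F] [Algebra k F] {t : F}
    (ht : PkgIsCoord k t) (Q : Place k F) (a : k) (hQ : HasValueAt Q t a) :
    Q.ord (t - algebraMap k F a) = 1 := by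
  letI := polyAlgebra (K := k) t
  haveI := pkgrp_isFractionRing ht
  have hQ' := pkgrp_hasValueAt_placeOfPrime ht a
  have e := pkgrp_place_ext ht Q _ a hQ hQ'
  rw [e]
  have h1 : t - algebraMap k F a = algebraMap k[X] F (X - C a) := by
    rw [polyAlgebra_algebraMap_apply, map_sub, aeval_X, aeval_C]
  have hne : t - algebraMap k F a ≠ 0 := by
    rw [h1]
    intro h
    have hinj := (faithfulSMul_iff_algebraMap_injective k[X] F).mp (pkgrp_faithful ht)
    exact X_sub_C_ne_zero a (hinj (by rw [h, map_zero]))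
  rw [placeOfPrime_ord _ _ hne, h1, HeightOneSpectrum.valuation_of_algebraMap,
    HeightOneSpectrum.intValuation_singleton _ (X_sub_C_ne_zero a) rfl, WithZero.log_exp]
  simp

theorem pkgrd_add_one {G : Type*} [Group G] (o : G → ℤ)
    (ho : ∀ x y, o (x * y) = o x + o y) : o 1 = 0 := by
  have := ho 1 1
  rw [mul_one] at this
  omega

theorem pkgrd_add_inv {G : Type*} [Group G] (o : G → ℤ)
    (ho : ∀ x y, o (x * y) = o x + o y) (x : G) : o x⁻¹ = -o x := by
  have h2 := ho x x⁻¹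
  rw [mul_inv_cancel, pkgrd_add_one o ho] at h2
  omega

theorem pkgrd_add_zpow {G : Type*} [Group G] (o : G → ℤ)
    (ho : ∀ x y, o (x * y) = o x + o y) (x : G) (n : ℤ) : o (x ^ n) = n * o x := by
  induction n using Int.induction_on with
  | zero => rw [zpow_zero, pkgrd_add_one o ho, zero_mul]
  | succ n ih =>
      rw [zpow_add_one, ho, ih]
      ring
  | pred n ih =>
      rw [zpow_sub_one, ho, ih, pkgrd_add_inv o ho]
      ring

theorem pkgrd_add_prod_zpow {G ι : Type*} [CommGroup G] (o : G → ℤ)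
    (ho : ∀ x y, o (x * y) = o x + o y) (T : Finset ι) (Φ : ι → G) (n : ι → ℤ) :
    o (∏ i ∈ T, Φ i ^ n i) = ∑ i ∈ T, n i * o (Φ i) := by
  classical
  induction T using Finset.induction_on with
  | empty => rw [Finset.prod_empty, Finset.sum_empty, pkgrd_add_one o ho]
  | insert i T hi ih =>
      rw [Finset.prod_insert hi, Finset.sum_insert hi, ho, ih, pkgrd_add_zpow o ho]

/-! ## The abstract count -/

/-- **the abstract count**, for a commutative group `G` (the units of `O₁`) with the additive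
functions `oP P` (the order at `P`) and `oQ` (the order at `Q` of the reduction). -/
theorem pkgrd_count_group {G ι : Type*} [CommGroup G] (oP : ι → G → ℤ) (oQ : G → ℤ)
    (hoP : ∀ P x y, oP P (x * y) = oP P x + oP P y) (hoQ : ∀ x y, oQ (x * y) = oQ x + oQ y)
    (Tube : ι → Prop) (hart : ∀ W : G, (∀ P, Tube P → oP P W = 0) → 0 ≤ oQ W)
    (Φ : ι → G) (hΦQ : ∀ P, oQ (Φ P) = 1)
    (hΦP : ∀ P P', Tube P → Tube P' → (P = P' → oP P' (Φ P) = 1) ∧ (P ≠ P' → oP P' (Φ P) = 0))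
    (U : G) (D : ι →₀ ℤ) (hD : ∀ P, D P = oP P U)
    (T : Finset ι) (hTmem : ∀ P, P ∈ T ↔ P ∈ D.support ∧ Tube P) :
    oQ U = ∑ P ∈ T, D P := by
  classical
  have hΦP' : ∀ P P', Tube P → Tube P' → oP P' (Φ P) = if P = P' then 1 else 0 := by
    intro P P' hP hP'
    by_cases hPP : P = P'
    · rw [if_pos hPP]
      exact (hΦP P P' hP hP').1 hPP
    · rw [if_neg hPP]
      exact (hΦP P P' hP hP').2 hPP
  obtain ⟨V, hV⟩ : ∃ V : G, V = ∏ P ∈ T, Φ P ^ D P := ⟨_, rfl⟩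
  obtain ⟨W, hW⟩ : ∃ W : G, W = U * V⁻¹ := ⟨_, rfl⟩
  have hVP : ∀ P', Tube P' → oP P' V = D P' := by
    intro P' hP'
    rw [hV, pkgrd_add_prod_zpow (oP P') (hoP P') T Φ (fun P => D P)]
    have h1 : ∀ P ∈ T, D P * oP P' (Φ P) = if P = P' then D P' else 0 := by
      intro P hPT
      rw [hΦP' P P' ((hTmem P).mp hPT).2 hP']
      by_cases hPP : P = P'
      · subst hPP
        rw [if_pos rfl, if_pos rfl, mul_one]
      · rw [if_neg hPP, if_neg hPP, mul_zero]
    rw [Finset.sum_congr rfl h1, Finset.sum_ite_eq' T P' (fun _ => D P')]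
    by_cases hmem : P' ∈ T
    · rw [if_pos hmem]
    · rw [if_neg hmem]
      have : P' ∉ D.support := fun h => hmem ((hTmem P').mpr ⟨h, hP'⟩)
      rw [Finsupp.notMem_support_iff] at this
      exact this.symm
  have hWP : ∀ P', Tube P' → oP P' W = 0 := by
    intro P' hP'
    rw [hW, hoP, pkgrd_add_inv (oP P') (hoP P'), hVP P' hP', ← hD]
    ring
  have hW1 : 0 ≤ oQ W := hart W hWP
  have hW2 : 0 ≤ oQ W⁻¹ := hart W⁻¹ (fun P hP => by
    rw [pkgrd_add_inv (oP P) (hoP P), hWP P hP, neg_zero])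
  rw [pkgrd_add_inv oQ hoQ] at hW2
  have hW0 : oQ W = 0 := by omega
  have hVQ : oQ V = ∑ P ∈ T, D P := by
    rw [hV, pkgrd_add_prod_zpow oQ hoQ T Φ (fun P => D P)]
    exact Finset.sum_congr rfl fun P _ => by rw [hΦQ, mul_one]
  have hUWV : U = W * V := by
    rw [hW, inv_mul_cancel_right]
  rw [hUWV, hoQ, hW0, hVQ, zero_add]

section Abstract

variable {K F k Fk : Type} [Field K] [Field F] [Algebra K F] [Field k] [Field Fk] [Algebra k Fk]
  {O₁ : ValuationSubring F} (red₁ : O₁ →+* Fk)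

/-- the order at `P` of a unit of `O₁` -/
def pkgrdOrdP (P : Place K F) (x : O₁ˣ) : ℤ :=
  P.ord (((x : O₁)) : F)

/-- the order at `Q` of the reduction of a unit of `O₁` -/
def pkgrdOrdQ (Q : Place k Fk) (x : O₁ˣ) : ℤ :=
  Q.ord (red₁ (x : O₁))

theorem pkgrd_unit_coe_ne_zero (x : O₁ˣ) : (((x : O₁)) : F) ≠ 0 := by
  intro h
  exact x.ne_zero (Subtype.ext h)

theorem pkgrdOrdP_mul (P : Place K F) (x y : O₁ˣ) :
    pkgrdOrdP P (x * y) = pkgrdOrdP P x + pkgrdOrdP P y := by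
  unfold pkgrdOrdP
  rw [Units.val_mul, MulMemClass.coe_mul,
    P.ord_mul (pkgrd_unit_coe_ne_zero x) (pkgrd_unit_coe_ne_zero y)]

theorem pkgrdOrdQ_mul (Q : Place k Fk) (x y : O₁ˣ) :
    pkgrdOrdQ red₁ Q (x * y) = pkgrdOrdQ red₁ Q x + pkgrdOrdQ red₁ Q y := by
  unfold pkgrdOrdQ
  rw [Units.val_mul, map_mul,
    Q.ord_mul (x.isUnit.map red₁).ne_zero (y.isUnit.map red₁).ne_zero]

/-- **the abstract count**: Hartogs on the tube and uniformizers `φ_P` with reduction `π` give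
`Σ_{P in the tube} ord_P u = ord_Q (red₁ u)`. -/
theorem pkgrd_count_core (Q : Place k Fk) (Tube : Place K F → Prop)
    (hart : ∀ w : O₁, (∀ P : Place K F, Tube P → 0 ≤ P.ord (w : F)) → 0 ≤ Q.ord (red₁ w))
    (hunit : ∀ x : O₁, red₁ x ≠ 0 → IsUnit x)
    (φ : Place K F → O₁) (π : Fk) (hπ : Q.ord π = 1) (hφred : ∀ P, red₁ (φ P) = π)
    (hφP : ∀ P P' : Place K F, Tube P → Tube P' →
      (P = P' → P'.ord ((φ P : O₁) : F) = 1) ∧ (P ≠ P' → P'.ord ((φ P : O₁) : F) = 0))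
    (u : O₁) (hu : red₁ u ≠ 0) (D : Place K F →₀ ℤ) (hD : ∀ P, D P = P.ord (u : F))
    (T : Finset (Place K F)) (hTmem : ∀ P, P ∈ T ↔ P ∈ D.support ∧ Tube P) :
    Q.ord (red₁ u) = ∑ P ∈ T, D P := by
  have hπ0 : π ≠ 0 := by
    intro h
    rw [h, Place.ord_zero] at hπ
    exact zero_ne_one hπ
  have hφunit : ∀ P, IsUnit (φ P) := fun P => hunit _ (by rw [hφred]; exact hπ0)
  obtain ⟨Φ, hΦ⟩ : ∃ Φ : Place K F → O₁ˣ, ∀ P, ((Φ P : O₁ˣ) : O₁) = φ P :=
    ⟨fun P => (hφunit P).unit, fun P => rfl⟩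
  obtain ⟨U, hUcoe⟩ : ∃ U : O₁ˣ, ((U : O₁ˣ) : O₁) = u := ⟨(hunit u hu).unit, rfl⟩
  have key := pkgrd_count_group (G := O₁ˣ) (fun P x => pkgrdOrdP P x) (pkgrdOrdQ red₁ Q)
    (fun P x y => pkgrdOrdP_mul P x y) (pkgrdOrdQ_mul red₁ Q) Tube
    (fun W hW => hart (W : O₁) (fun P hP => le_of_eq (hW P hP).symm)) Φ
    (fun P => by
      unfold pkgrdOrdQ
      rw [hΦ, hφred, hπ])
    (fun P P' hP hP' => by
      unfold pkgrdOrdP
      rw [hΦ]
      exact hφP P P' hP hP') U D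
    (fun P => by
      unfold pkgrdOrdP
      rw [hUcoe, hD]) T hTmem
  rw [← key, ← hUcoe]
  rfl

end Abstract

variable {N : ℕ} [NeZero N] {A : ValuationSubring Kb} (hB : PkgBase N A)

include hB in
theorem pkgrd_isUnit (x : pkgO₁ N A) (hx : pkgRed₁ N A hB x ≠ 0) : IsUnit x := by
  by_contra h
  apply hx
  rw [pkg_red₁_eq_zero_iff N A hB x, ValuationSubring.coe_mem_nonunits_iff,
    IsLocalRing.mem_maximalIdeal, mem_nonunits_iff]
  exact h

/-! ## The tube -/

theorem pkgrd_j_ne_inv : jF N ≠ (jF N)⁻¹ := by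
  intro h
  have h1 := congrArg (cuspInf N).ord h
  rw [Place.ord_inv, cuspInf_ord_jF] at h1
  omega

/-- the places reducing to `Q` are the places of the tube of `Q` -/
theorem pkgrd_tube_iff (hN : N.Prime) (hA : A.LiesOverPrime N) {t : FF N} {tb : FFk A}
    (ht : PkgCoord N A t tb) (Q : Place (kA A) (FFk A)) (a : kA A) (hQ : HasValueAt Q tb a)
    (hcusp : t = (jF N)⁻¹ → a = 0) (P : Place Kb (FF N)) :
    pkgR N A P = some (Sum.inl Q) ↔ PkgrdTube N A t a P := by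
  have hT : PkgIsType N A := pkgty_isType N A hN hA
  rw [hT.r_inl_iff]
  constructor
  · intro hrel
    have hex : ∃ c : A, HasValueAt P t (c : Kb) := by
      rcases ht with ⟨rfl, rfl⟩ | ⟨rfl, rfl⟩
      · exact pkgcr_j_value hrel hQ
      · have ha : a = 0 := hcusp rfl
        subst ha
        rcases hrel.2 with ⟨c, -, hcQ⟩ | ⟨c, hc, -⟩
        · exfalso
          have hmul := ln_hasValueAt_mul hcQ hQ
          rw [mul_inv_cancel₀ (pkgty_Jbar_ne_zero A), mul_zero] at hmul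
          exact one_ne_zero (hasValueAt_unique Q (ln_hasValueAt_one Q) hmul)
        · exact ⟨c, hc⟩
    obtain ⟨c, hc⟩ := hex
    exact ⟨hrel.1, c, hc, hasValueAt_unique Q (pkgev_coord_value N A ht hrel c hc) hQ⟩
  · rintro ⟨hty, c, hc, hres⟩
    refine ⟨hty, ?_⟩
    rcases ht with ⟨rfl, rfl⟩ | ⟨rfl, rfl⟩
    · exact Or.inl ⟨c, hc, by rw [hres]; exact hQ⟩
    · exact Or.inr ⟨c, hc, by rw [hres]; exact hQ⟩

/-! ## The main computation -/

include hB in
/-- **PKG-rdiv in a chart** -/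
theorem pkgrd_main (hU : StmtPkgUniq) (hN : N.Prime) (h5 : 5 ≤ N) (hA : A.LiesOverPrime N)
    {t : FF N} {tb : FFk A} (ht : PkgCoord N A t tb) (Q : Place (kA A) (FFk A)) (a : kA A)
    (hQ : HasValueAt Q tb a) (hcusp : t = (jF N)⁻¹ → a = 0)
    (hnc : ∀ x ∈ pkgX N A hB, x.1 ≠ Q) (u : pkgO₁ N A) (hu : pkgRed₁ N A hB u ≠ 0)
    (D : Divisor Kb (FF N)) (hD : ∀ P, D P = P.ord (u : FF N)) :
    (pkgTR N A hB).push₁ D Q = Q.ord (pkgRed₁ N A hB u) := by
  classical
  obtain ⟨ht₁, ht₂⟩ := pkgev_coord_mem N A hB hN hA ht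
  have htred := (pkgev_coord_red N A hB hN hA ht ht₁ ht₂).1
  have htj : t = jF N ∨ t = (jF N)⁻¹ := by
    rcases ht with ⟨rfl, -⟩ | ⟨rfl, -⟩
    · exact Or.inl rfl
    · exact Or.inr rfl
  have htco : PkgIsCoord (kA A) tb := by
    rcases ht with ⟨-, rfl⟩ | ⟨-, rfl⟩
    · exact pkgty_coordJ A
    · exact pkgty_coord_inv (kA A) (pkgty_coordJ A)
  obtain ⟨c₀, hc₀⟩ := IsLocalRing.residue_surjective (R := A) a
  -- the values of `t` on the tube
  obtain ⟨c, hc_res, hc_val⟩ : ∃ c : Place Kb (FF N) → A,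
      (∀ P, IsLocalRing.residue A (c P) = a) ∧
        ∀ P, PkgrdTube N A t a P → HasValueAt P t ((c P : A) : Kb) := by
    refine ⟨fun P => if h : PkgrdTube N A t a P then h.2.choose else c₀, ?_, ?_⟩
    · intro P
      by_cases h : PkgrdTube N A t a P
      · simp only [dif_pos h]
        exact h.2.choose_spec.2
      · simp only [dif_neg h]
        exact hc₀
    · intro P h
      simp only [dif_pos h]
      exact h.2.choose_spec.1
  -- the uniformizer at `Q`
  obtain ⟨π, hπdef⟩ : ∃ π : FFk A, π = tb - algebraMap (kA A) (FFk A) a := ⟨_, rfl⟩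
  have hπ : Q.ord π = 1 := by
    rw [hπdef]
    exact pkgrd_ord_coord htco Q a hQ
  -- the functions `φ_P`
  have hφmem : ∀ P, t - algebraMap Kb (FF N) ((c P : A) : Kb) ∈ pkgO₁ N A := fun P =>
    sub_mem ht₁ (pkgrd_const_mem hB (c P))
  have hφred : ∀ P, pkgRed₁ N A hB ⟨_, hφmem P⟩ = π := by
    intro P
    have e : (⟨t - algebraMap Kb (FF N) ((c P : A) : Kb), hφmem P⟩ : pkgO₁ N A) =
        ⟨t, ht₁⟩ - ⟨algebraMap Kb (FF N) ((c P : A) : Kb), pkgrd_const_mem hB (c P)⟩ := rfl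
    rw [e, map_sub, pkg_red₁_algebraMap N A hB (c P) _, htred, hc_res, hπdef]
  -- the orders of `φ_P` on the tube
  have hφP : ∀ P P' : Place Kb (FF N), PkgrdTube N A t a P → PkgrdTube N A t a P' →
      (P = P' → P'.ord (t - algebraMap Kb (FF N) ((c P : A) : Kb)) = 1) ∧
        (P ≠ P' → P'.ord (t - algebraMap Kb (FF N) ((c P : A) : Kb)) = 0) := by
    intro P P' hP hP'
    constructor
    · intro hPP
      subst hPP
      exact (hU N hN h5 A hA t htj (c P) P P hP.1 hP.1 (hc_val P hP) (hc_val P hP)).1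
    · intro hPP
      have hne : ((c P' : A) : Kb) ≠ ((c P : A) : Kb) := by
        intro heq
        have h1 := hc_val P' hP'
        rw [heq] at h1
        exact hPP (hU N hN h5 A hA t htj (c P) P P' hP.1 hP'.1 (hc_val P hP) h1).2.symm
      have hv := pkgrd_hasValueAt_sub (hc_val P' hP') (ln_hasValueAt_const P' ((c P : A) : Kb))
      exact ln_ord_eq_zero_of_value hv (sub_ne_zero.mpr hne)
  have key := pkgrd_count_core (K := Kb) (pkgRed₁ N A hB) Q (PkgrdTube N A t a)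
    (fun w hw => pkgrd_hartogs hB hN h5 hA ht Q a hQ hcusp hnc w hw)
    (fun x hx => pkgrd_isUnit hB x hx)
    (fun P => ⟨_, hφmem P⟩) π hπ hφred hφP u hu D hD
    (D.support.filter (fun P => PkgrdTube N A t a P))
    (fun P => Finset.mem_filter)
  have hr : ∀ P, ((pkgTR N A hB).r P = some (Sum.inl Q)) ↔ PkgrdTube N A t a P :=
    fun P => pkgrd_tube_iff hN hA ht Q a hQ hcusp P
  rw [key, ln_push₁_apply, Finset.sum_filter]
  refine (Finset.sum_congr rfl fun P _ => ?_).symm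
  by_cases h : PkgrdTube N A t a P
  · rw [if_pos h, if_pos ((hr P).mpr h)]
  · rw [if_neg h, if_neg (fun h' => h ((hr P).mp h'))]

/-- **PKG-rdiv**, from PKG-uniq. -/
theorem stmtPkgRdiv_of (hU : StmtPkgUniq) : StmtPkgRdiv := by
  intro N _ hN h5 A hA hB u hu D hD Q hnc
  rcases pkgty_mem_or_pole Q (pkgJbar A) with hmem | hpole
  · obtain ⟨a, ha⟩ := ge_exists_value Q (modHyp_hresk 1 A Q) hmem
    exact pkgrd_main hB hU hN h5 hA (t := jF N) (tb := pkgJbar A) (Or.inl ⟨rfl, rfl⟩) Q a ha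
      (fun h => absurd h pkgrd_j_ne_inv) hnc u hu D hD
  · exact pkgrd_main hB hU hN h5 hA (t := (jF N)⁻¹) (tb := (pkgJbar A)⁻¹) (Or.inr ⟨rfl, rfl⟩)
      Q 0 (pkgty_value_inv_of_pole hpole) (fun _ => rfl) hnc u hu D hD

end Fermat.Agent.S15.LN

end
end ZBZ2S15_005_20

/-! ### bundled: `Fermat.Agent.S15.PkgUniq` -/
section ZBZ2S15_005_21

/-!
# S15 / LN-PKG, piece PKG-uniq: the assembly (helper25)

`stmtPkgUniq_of : StmtPkgMinH → StmtPkgFibre → StmtPkgUniq`: above a value `b ∈ A` of the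
coordinate `t` (`t = j` or `t = 1/j`) there is at most one place of type 1, and `t - b` is a
uniformizer there.

Proof: the separating function `f` of the chart is a root of a monic `m ∈ A[X][T]` with
`m ≡ (T - F₁(X)) T ^ N`; at a place `P` of type 1 above `b` the value `c = f(P)` lies in `A` with
`c̄ = F₁(b̄) ≠ 0`, so `c` is the unique root of `m(b, T)` with this residue, and it is a simple
root; `stmtPkgSimple` applies.
-/

set_option autoImplicit false
set_option linter.unusedSectionVars false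
set_option linter.unusedVariables false

noncomputable section

open AlgebraicCurve Module ModularCurve Polynomial

namespace Fermat.Agent.S15.LN

open Fermat.Agent.W1 Fermat.Agent.S24 Fermat.Agent.S15 Fermat.Agent.ES.M Fermat.Agent.DEU
  Fermat.Agent.INJ Fermat.Agent.S28

/-! ## A monic polynomial with reduction `(T - u) T ^ n`, `u ≠ 0` -/

section Root

variable {R k : Type*} [CommRing R] [IsDomain R] [Field k]

theorem pkguq_root (φ : R →+* k) (g : R[X]) (u : k) (n : ℕ) (hu : u ≠ 0)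
    (hg : g.map φ = (X - C u) * X ^ n) (c c' : R) (hc : g.eval c = 0) (hc' : g.eval c' = 0)
    (hcu : φ c = u) : (φ c' = u → c' = c) ∧ (derivative g).eval c ≠ 0 := by
  obtain ⟨g₁, hg₁⟩ : (X - C c) ∣ g := (Polynomial.dvd_iff_isRoot).mpr hc
  have h1 : (X - C u) * (g₁.map φ) = (X - C u) * X ^ n := by
    rw [← hg, hg₁, Polynomial.map_mul, Polynomial.map_sub, Polynomial.map_X, Polynomial.map_C,
      hcu]
  have h2 : g₁.map φ = X ^ n := mul_left_cancel₀ (X_sub_C_ne_zero u) h1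
  have h3 : ∀ x : R, φ x = u → g₁.eval x ≠ 0 := by
    intro x hx h0
    have h4 : (g₁.map φ).eval (φ x) = 0 := by
      rw [Polynomial.eval_map, Polynomial.eval₂_hom, h0, map_zero]
    rw [h2, eval_pow, eval_X, hx] at h4
    exact pow_ne_zero n hu h4
  constructor
  · intro hcu'
    rw [hg₁, eval_mul, eval_sub, eval_X, eval_C] at hc'
    rcases mul_eq_zero.mp hc' with h | h
    · exact sub_eq_zero.mp h
    · exact absurd h (h3 c' hcu')
  · rw [hg₁, derivative_mul, derivative_sub, derivative_X, derivative_C, sub_zero, one_mul,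
      eval_add, eval_mul, eval_sub, eval_X, eval_C, sub_self, zero_mul, add_zero]
    exact h3 c hcu

end Root

variable (N : ℕ) [NeZero N] (A : ValuationSubring Kb)

/-! ## The core -/

theorem pkguq_evA_eq (t f : FF N) (m : (↥A)[X][X]) :
    pkgEvA N A t f m =
      pkgEv₂ Kb (FF N) t f (m.map (Polynomial.mapRingHom A.subtype)) := rfl

/-- the value of `m(t, f)` at a place, `m ∈ A[X][T]` -/
theorem pkguq_value (t f : FF N) (m : (↥A)[X][X]) (P : Place Kb (FF N)) (b c : A)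
    (ht : HasValueAt P t (b : Kb)) (hf : HasValueAt P f (c : Kb)) :
    HasValueAt P (pkgEvA N A t f m) ((m.evalEval b c : A) : Kb) := by
  have h := pkgs_hasValueAt_ev ht hf (m.map (Polynomial.mapRingHom A.subtype))
  have e : pkgsVal (b : Kb) (c : Kb) (m.map (Polynomial.mapRingHom A.subtype)) =
      ((m.evalEval b c : A) : Kb) :=
    Polynomial.map_mapRingHom_evalEval A.subtype m b c
  rw [e] at h
  exact h

theorem pkguq_core (hB : PkgBase N A) {t : FF N} {tb : FFk A} {f : FF N}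
    (hmin : PkgIsMin N A hB t tb f)
    (hval : ∀ F₁ : (kA A)[X], (∃ h₁ : f ∈ pkgO₁ N A,
        pkgRed₁ N A hB ⟨f, h₁⟩ = Polynomial.aeval tb F₁) →
      ∀ (P : Place Kb (FF N)) (b : A), PkgType₁ N A P → HasValueAt P t (b : Kb) →
        ∃ c : A, HasValueAt P f (c : Kb) ∧
          IsLocalRing.residue A c = F₁.eval (IsLocalRing.residue A b) ∧
          IsLocalRing.residue A c ≠ 0)
    (b : A) (P P' : Place Kb (FF N)) (hP : PkgType₁ N A P) (hP' : PkgType₁ N A P')
    (hb : HasValueAt P t (b : Kb)) (hb' : HasValueAt P' t (b : Kb)) :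
    P.ord (t - algebraMap Kb (FF N) (b : Kb)) = 1 ∧ P' = P := by
  obtain ⟨m, F₁, hmonic, hev, hF₁, hred⟩ := hmin.min
  obtain ⟨c, hc, hcres, hc0⟩ := hval F₁ hF₁ P b hP hb
  obtain ⟨c', hc', hcres', -⟩ := hval F₁ hF₁ P' b hP' hb'
  -- the polynomial `g = m(b, T) ∈ A[T]`
  set g : (↥A)[X] := m.map (Polynomial.evalRingHom b) with hg
  have hgeval : ∀ x : A, g.eval x = m.evalEval b x := fun x =>
    Polynomial.map_evalRingHom_eval b x m
  have hroot : ∀ (P : Place Kb (FF N)) (c : A), HasValueAt P t (b : Kb) →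
      HasValueAt P f (c : Kb) → g.eval c = 0 := by
    intro P c h1 h2
    have h3 := pkguq_value N A t f m P b c h1 h2
    rw [hev] at h3
    have h4 := hasValueAt_unique P h3 (ln_hasValueAt_zero P)
    rw [hgeval]
    exact Subtype.ext h4
  have hgred : g.map (IsLocalRing.residue A) =
      (X - C (F₁.eval (IsLocalRing.residue A b))) * X ^ N := by
    have h1 : g.map (IsLocalRing.residue A) =
        (m.map (Polynomial.mapRingHom (IsLocalRing.residue A))).map
          (Polynomial.evalRingHom (IsLocalRing.residue A b)) := by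
      rw [hg, Polynomial.map_map, Polynomial.map_map]
      congr 1
      refine RingHom.ext fun q => ?_
      show IsLocalRing.residue A (q.eval b) =
        (q.map (IsLocalRing.residue A)).eval (IsLocalRing.residue A b)
      rw [Polynomial.eval_map, Polynomial.eval₂_hom]
    rw [h1, hred]
    simp
  have hkey := pkguq_root (IsLocalRing.residue A) g (F₁.eval (IsLocalRing.residue A b)) N
    (hcres ▸ hc0) hgred c c' (hroot P c hb hc) (hroot P' c' hb' hc') hcres
  have hcc : c' = c := hkey.1 hcres'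
  have hder : pkgsVal (b : Kb) (c : Kb)
      (derivative (m.map (Polynomial.mapRingHom A.subtype))) ≠ 0 := by
    have e1 : derivative (m.map (Polynomial.mapRingHom A.subtype)) =
        (derivative m).map (Polynomial.mapRingHom A.subtype) := Polynomial.derivative_map _ _
    have e2 : pkgsVal (b : Kb) (c : Kb) ((derivative m).map (Polynomial.mapRingHom A.subtype)) =
        (((derivative m).evalEval b c : A) : Kb) :=
      Polynomial.map_mapRingHom_evalEval A.subtype (derivative m) b c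
    have e3 : (derivative m).evalEval b c = (derivative g).eval c := by
      rw [hg, Polynomial.derivative_map]
      exact (Polynomial.map_evalRingHom_eval b c (derivative m)).symm
    rw [e1, e2, e3]
    intro h0
    exact hkey.2 (Subtype.ext h0)
  have hmK : pkgEv₂ Kb (FF N) t f (m.map (Polynomial.mapRingHom A.subtype)) = 0 := hev
  rw [hcc] at hc'
  exact stmtPkgSimple Kb (FF N) t f _ (b : Kb) (c : Kb) hmin.gen hmK hder P P' hb hc hb' hc'

/-! ## The chart `j` -/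

theorem pkguq_val_j (hFib : StmtPkgFibre) (hN : N.Prime) (h5 : 5 ≤ N) (hA : A.LiesOverPrime N)
    (hB : PkgBase N A) (F₁ : (kA A)[X])
    (hF₁ : ∃ h₁ : pkgSepJ N ∈ pkgO₁ N A,
      pkgRed₁ N A hB ⟨pkgSepJ N, h₁⟩ = Polynomial.aeval (pkgJbar A) F₁)
    (P : Place Kb (FF N)) (b : A) (hP : PkgType₁ N A P) (hb : HasValueAt P (jF N) (b : Kb)) :
    ∃ c : A, HasValueAt P (pkgSepJ N) (c : Kb) ∧
      IsLocalRing.residue A c = F₁.eval (IsLocalRing.residue A b) ∧
      IsLocalRing.residue A c ≠ 0 := by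
  obtain ⟨h₁, hF₁⟩ := hF₁
  have hs : PkgChart N A (jF N) (pkgSepJ N) := pkgev_chart_h N A hB hN hA
  obtain ⟨c, hc, hcres⟩ := pkgev_main N A hFib hN h5 hA hB (Or.inl ⟨rfl, rfl⟩) P hP b hb
    (pkgSepJ N) hs F₁ hF₁
  refine ⟨c, hc, hcres, ?_⟩
  obtain ⟨a₀, ha₀, hv₀⟩ := hP
  have e := pkgev_value_mul_eq_one (oggU_ne_zero N) hv₀ hc
  have e1 : (c * ⟨a₀, ha₀⟩ : A) = 1 := Subtype.ext (by
    rw [mul_comm] at e
    exact e)
  have e2 : IsLocalRing.residue A c * IsLocalRing.residue A ⟨a₀, ha₀⟩ = 1 := by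
    rw [← map_mul, e1, map_one]
  exact pkgev_residue_ne_zero_of_mul A one_ne_zero e2

/-! ## The chart `1/j` -/

theorem pkguq_sepI_eq : pkgSepI N = (jF N)⁻¹ ^ (N - 1) * (oggU N)⁻¹ := by
  unfold pkgSepI
  exact mul_comm _ _

theorem pkguq_chart_I (hN : N.Prime) (hA : A.LiesOverPrime N) (hB : PkgBase N A) :
    PkgChart N A (jF N)⁻¹ (pkgSepI N) := by
  rw [pkguq_sepI_eq]
  exact pkgev_chart_unit N A hB hN hA

/-- the reduction of the separating function of the chart `1/j` -/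
theorem pkguq_red_I (hN : N.Prime) (hA : A.LiesOverPrime N) (hB : PkgBase N A)
    (h₁ : pkgSepI N ∈ pkgO₁ N A) :
    ((pkgRed₁ N A hB ⟨pkgSepI N, h₁⟩ : FFk A) : LaurentSeries (kA A)) =
      ((jqModC (kA A))⁻¹) ^ (N - 1) * (uS (kA A) N)⁻¹ := by
  obtain ⟨ht₁, ht₂⟩ := pkgev_coord_mem N A hB hN hA (t := (jF N)⁻¹) (tb := (pkgJbar A)⁻¹)
    (Or.inr ⟨rfl, rfl⟩)
  obtain ⟨hr, -⟩ := pkgev_coord_red N A hB hN hA (t := (jF N)⁻¹) (tb := (pkgJbar A)⁻¹)
    (Or.inr ⟨rfl, rfl⟩) ht₁ ht₂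
  have e1 : (⟨pkgSepI N, h₁⟩ : pkgO₁ N A) =
      (⟨(jF N)⁻¹, ht₁⟩ : pkgO₁ N A) ^ (N - 1) * ⟨(oggU N)⁻¹, pkg_h_mem₁ N A⟩ :=
    Subtype.ext (pkguq_sepI_eq N)
  have hH : pkgRed₁ N A hB ⟨(oggU N)⁻¹, pkg_h_mem₁ N A⟩ = pkgHbar N A hB := by
    unfold pkgHbar
    rw [dif_pos (pkg_h_mem₁ N A)]
  rw [e1, map_mul, map_pow, hr, hH]
  have h1 : (((pkgJbar A)⁻¹ ^ (N - 1) * pkgHbar N A hB : FFk A) : LaurentSeries (kA A)) =
      (((pkgJbar A : FFk A) : LaurentSeries (kA A))⁻¹) ^ (N - 1) *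
        ((pkgHbar N A hB : FFk A) : LaurentSeries (kA A)) := rfl
  rw [h1, pkg_coe_Hbar, pkg_coe_Jbar]

theorem pkguq_const_I (hN : N.Prime) (hA : A.LiesOverPrime N) (hB : PkgBase N A)
    (F₁ : (kA A)[X])
    (hF₁ : ∃ h₁ : pkgSepI N ∈ pkgO₁ N A,
      pkgRed₁ N A hB ⟨pkgSepI N, h₁⟩ = Polynomial.aeval (pkgJbar A)⁻¹ F₁) :
    F₁.eval 0 ≠ 0 := by
  obtain ⟨h₁, hF₁⟩ := hF₁
  have hu0 : uS (kA A) N ≠ 0 := uS_ne_zero N (kA A)
  have hJ0 : jqModC (kA A) ≠ 0 := by
    intro h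
    have := bgConst_order_jqModC (kA A)
    rw [h, HahnSeries.order_zero] at this
    omega
  have hN1 : ((N - 1 : ℕ) : ℤ) = (N : ℤ) - 1 := by
    have := hN.one_le
    push_cast [Nat.cast_sub this]
    ring
  have hx1 : ((jqModC (kA A))⁻¹) ^ (N - 1) ≠ 0 := pow_ne_zero _ (inv_ne_zero hJ0)
  have hx2 : (uS (kA A) N)⁻¹ ≠ 0 := inv_ne_zero hu0
  have hne : ((jqModC (kA A))⁻¹) ^ (N - 1) * (uS (kA A) N)⁻¹ ≠ 0 := mul_ne_zero hx1 hx2
  have hord : (((jqModC (kA A))⁻¹) ^ (N - 1) * (uS (kA A) N)⁻¹).order = 0 := by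
    rw [HahnSeries.order_mul hx1 hx2, HahnSeries.order_pow, pkgev_order_inv hJ0,
      pkgev_order_inv hu0, order_uS, bgConst_order_jqModC, nsmul_eq_mul, hN1]
    ring
  have hred := pkguq_red_I N A hN hA hB h₁
  rw [hF₁] at hred
  have e : ((Polynomial.aeval (pkgJbar A)⁻¹ F₁ : FFk A) : LaurentSeries (kA A)) =
      Polynomial.aeval ((jqModC (kA A))⁻¹) F₁ := by
    have h := Polynomial.aeval_algHom_apply (modularFunctionFieldFullC (kA A) 1).val
      (pkgJbar A)⁻¹ F₁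
    exact h.symm
  rw [e] at hred
  rw [← hred] at hord hne
  have hy : (0 : ℤ) < ((jqModC (kA A))⁻¹).order := by
    rw [pkgev_order_inv hJ0, bgConst_order_jqModC]
    norm_num
  have h1 := pkgev_aeval_coeff_zero _ hy F₁
  rw [← h1]
  have h2 : (Polynomial.aeval ((jqModC (kA A))⁻¹) F₁).coeff 0 =
      (Polynomial.aeval ((jqModC (kA A))⁻¹) F₁).leadingCoeff := by
    rw [HahnSeries.leadingCoeff_eq, hord]
  rw [h2]
  exact fun h => hne (HahnSeries.leadingCoeff_eq_zero.mp h)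

theorem pkguq_val_I (hFib : StmtPkgFibre) (hN : N.Prime) (h5 : 5 ≤ N) (hA : A.LiesOverPrime N)
    (hB : PkgBase N A) (F₁ : (kA A)[X])
    (hF₁ : ∃ h₁ : pkgSepI N ∈ pkgO₁ N A,
      pkgRed₁ N A hB ⟨pkgSepI N, h₁⟩ = Polynomial.aeval (pkgJbar A)⁻¹ F₁)
    (P : Place Kb (FF N)) (b : A) (hP : PkgType₁ N A P)
    (hb : HasValueAt P (jF N)⁻¹ (b : Kb)) :
    ∃ c : A, HasValueAt P (pkgSepI N) (c : Kb) ∧
      IsLocalRing.residue A c = F₁.eval (IsLocalRing.residue A b) ∧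
      IsLocalRing.residue A c ≠ 0 := by
  have hconst := pkguq_const_I N A hN hA hB F₁ hF₁
  obtain ⟨h₁, hF₁⟩ := hF₁
  have hs : PkgChart N A (jF N)⁻¹ (pkgSepI N) := pkguq_chart_I N A hN hA hB
  obtain ⟨c, hc, hcres⟩ := pkgev_main N A hFib hN h5 hA hB (Or.inr ⟨rfl, rfl⟩) P hP b hb
    (pkgSepI N) hs F₁ hF₁
  refine ⟨c, hc, hcres, ?_⟩
  by_cases h0 : IsLocalRing.residue A b = 0
  · rw [hcres, h0]
    exact hconst
  · obtain ⟨a₀, ha₀, hv₀⟩ := hP
    have h1 := ln_hasValueAt_mul hc hv₀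
    have e0 : pkgSepI N * oggU N = (jF N)⁻¹ ^ (N - 1) := by
      rw [pkguq_sepI_eq, mul_assoc, inv_mul_cancel₀ (oggU_ne_zero N), mul_one]
    rw [e0] at h1
    have e := hasValueAt_unique P h1 (pkgev_hv_pow hb (N - 1))
    have e1 : (c * ⟨a₀, ha₀⟩ : A) = b ^ (N - 1) := Subtype.ext e
    have e2 : IsLocalRing.residue A c * IsLocalRing.residue A ⟨a₀, ha₀⟩ =
        IsLocalRing.residue A b ^ (N - 1) := by
      rw [← map_mul, e1, map_pow]
    exact pkgev_residue_ne_zero_of_mul A (pow_ne_zero _ h0) e2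

/-! ## The assembly -/

/-- **PKG-uniq** -/
theorem stmtPkgUniq_of (hM : StmtPkgMinH) (hFib : StmtPkgFibre) : StmtPkgUniq := by
  intro N _ hN h5 A hA t ht b P P' hP hP' hb hb'
  have hB : PkgBase N A := pkg_base N A hN hA
  obtain ⟨hJ, hI⟩ := hM N hN h5 A hA hB
  rcases ht with rfl | rfl
  · exact pkguq_core N A hB hJ
      (fun F₁ hF₁ P b hP hb => pkguq_val_j N A hFib hN h5 hA hB F₁ hF₁ P b hP hb)
      b P P' hP hP' hb hb'
  · exact pkguq_core N A hB hI
      (fun F₁ hF₁ P b hP hb => pkguq_val_I N A hFib hN h5 hA hB F₁ hF₁ P b hP hb)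
      b P P' hP hP' hb hb'

end Fermat.Agent.S15.LN

end
end ZBZ2S15_005_21
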