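/- GENERATED FILE (helper35, build-time optimisation, NOTES/ZB.md): verbatim concatenation of the modules
   Fermat.Agent.S15.ModXiField
   Do not edit; do not import together with these modules. -/
import Mathlib

/-! ### bundled: `Fermat.Agent.S15.ModXiField` -/
section ZBZ2S15_006_0
/-
Item 15 (Mazur chain), piece `MOD-XI`, part 1 (helper13): the node of a singular Weierstrass
cubic with `c₄ ≠ 0`, in EVERY characteristic (also 2 and 3).

`W` over a field `k`, `Δ = 0`, `c₄ ≠ 0`.  A point `(x, y)` of the curve is singular iff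
`c₄ x + b₂ b₄ - 18 b₆ = 0`.
-/

set_option autoImplicit false

namespace Fermat.Agent.S15

open WeierstrassCurve

/-- the numerator `c₄ x + b₂ b₄ - 18 b₆` of `ξ°` -/
def modXiNum {R : Type*} [CommRing R] (W : WeierstrassCurve R) (x : R) : R :=
  W.c₄ * x + W.b₂ * W.b₄ - 18 * W.b₆

theorem modXiNum_map {R S : Type*} [CommRing R] [CommRing S] (W : WeierstrassCurve R)
    (f : R →+* S) (x : R) : modXiNum (W.map f) (f x) = f (modXiNum W x) := by
  simp only [modXiNum, WeierstrassCurve.map_c₄, WeierstrassCurve.map_b₂, WeierstrassCurve.map_b₄,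
    WeierstrassCurve.map_b₆, map_sub, map_add, map_mul, map_ofNat]

variable {k : Type*} [Field k] (W : WeierstrassCurve k)

variable {W}

/-- **Certificate**: at a singular point of the curve, `c₄ x + b₂ b₄ - 18 b₆ = 0`
(an identity in the ideal `(F, F_x, F_y)` over `ℤ`). -/
theorem modxi_cert {x y : k} (h : W.toAffine.Equation x y)
    (hx : W.a₁ * y - (3 * x ^ 2 + 2 * W.a₂ * x + W.a₄) = 0)
    (hy : 2 * y + W.a₁ * x + W.a₃ = 0) : modXiNum W x = 0 := by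
  have he := (Affine.equation_iff _ _).1 h
  unfold modXiNum
  simp only [WeierstrassCurve.c₄, WeierstrassCurve.b₂, WeierstrassCurve.b₄,
    WeierstrassCurve.b₆]
  linear_combination (-2 * (W.a₁ ^ 2 + 4 * W.a₂ + 12 * x)) * hx +
    ((W.a₁ ^ 2 + 4 * W.a₂ + 12 * x) * W.a₁ - 18 * (2 * y + W.a₁ * x + W.a₃)) * hy + 72 * he

/-- a point of the curve with `c₄ x + b₂ b₄ - 18 b₆ ≠ 0` is nonsingular -/
theorem modxi_nonsingular_of_ne {x y : k} (h : W.toAffine.Equation x y)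
    (hne : modXiNum W x ≠ 0) : W.toAffine.Nonsingular x y := by
  rw [Affine.nonsingular_iff']
  refine ⟨h, ?_⟩
  by_contra hcon
  rw [not_or, not_not, not_not] at hcon
  exact hne (modxi_cert h hcon.1 hcon.2)

/-- `c₄² (6x² + b₂x + b₄) = -72 Δ` modulo `c₄ x + b₂ b₄ - 18 b₆` -/
theorem modxi_g₁ {x : k} (h0 : modXiNum W x = 0) :
    W.c₄ ^ 2 * (6 * x ^ 2 + W.b₂ * x + W.b₄) = -72 * W.Δ := by
  unfold modXiNum at h0
  simp only [WeierstrassCurve.Δ, WeierstrassCurve.c₄, WeierstrassCurve.b₂, WeierstrassCurve.b₄,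
    WeierstrassCurve.b₆, WeierstrassCurve.b₈] at h0 ⊢
  linear_combination (6 * ((W.a₁ ^ 2 + 4 * W.a₂) ^ 2 - 24 * (2 * W.a₄ + W.a₁ * W.a₃)) * x +
    6 * (18 * (W.a₃ ^ 2 + 4 * W.a₆) - (W.a₁ ^ 2 + 4 * W.a₂) * (2 * W.a₄ + W.a₁ * W.a₃)) +
    (W.a₁ ^ 2 + 4 * W.a₂) * ((W.a₁ ^ 2 + 4 * W.a₂) ^ 2 - 24 * (2 * W.a₄ + W.a₁ * W.a₃))) * h0

/-- the cubic `4x³ + b₂x² + 2b₄x + b₆` vanishes at the node: `c₄³ · G = (…) · Δ` modulo
`c₄ x + b₂ b₄ - 18 b₆` -/
theorem modxi_G {x : k} (hΔ : W.Δ = 0) (hc : W.c₄ ≠ 0) (h0 : modXiNum W x = 0) :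
    4 * x ^ 3 + W.b₂ * x ^ 2 + 2 * W.b₄ * x + W.b₆ = 0 := by
  have hx : x = (18 * W.b₆ - W.b₂ * W.b₄) / W.c₄ := by
    unfold modXiNum at h0
    field_simp
    linear_combination h0
  have h1 : W.c₄ ^ 3 * (4 * x ^ 3 + W.b₂ * x ^ 2 + 2 * W.b₄ * x + W.b₆) =
      W.c₆ * (4 * W.Δ) := by
    rw [hx]
    field_simp
    simp only [WeierstrassCurve.Δ, WeierstrassCurve.c₄, WeierstrassCurve.c₆, WeierstrassCurve.b₂,
      WeierstrassCurve.b₄, WeierstrassCurve.b₆, WeierstrassCurve.b₈]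
    ring
  rw [hΔ, mul_zero, mul_zero] at h1
  exact (mul_eq_zero.mp h1).resolve_left (pow_ne_zero 3 hc)

/-- translation invariance of `Δ`, at a point of the curve with `F_y = 0`:
`Δ = F_x² ((b₂ + 12x)² + 64 F_x)` -/
theorem modxi_Δ_eq {x y : k} (h : W.toAffine.Equation x y)
    (hy : 2 * y + W.a₁ * x + W.a₃ = 0) :
    W.Δ = (W.a₁ * y - (3 * x ^ 2 + 2 * W.a₂ * x + W.a₄)) ^ 2 *
      ((W.b₂ + 12 * x) ^ 2 + 64 * (W.a₁ * y - (3 * x ^ 2 + 2 * W.a₂ * x + W.a₄))) := by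
  have he := (Affine.equation_iff _ _).1 h
  have ha₃ : W.a₃ = -(2 * y + W.a₁ * x) := by linear_combination hy
  have ha₆ : W.a₆ = y ^ 2 + W.a₁ * x * y + W.a₃ * y - (x ^ 3 + W.a₂ * x ^ 2 + W.a₄ * x) := by
    linear_combination -he
  simp only [WeierstrassCurve.Δ, WeierstrassCurve.b₂, WeierstrassCurve.b₄,
    WeierstrassCurve.b₆, WeierstrassCurve.b₈]
  rw [ha₆, ha₃]
  ring

/-- a point of a singular curve (`c₄ ≠ 0`) with `c₄ x + b₂ b₄ - 18 b₆ = 0` is singular -/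
theorem modxi_singular {x y : k} (hΔ : W.Δ = 0) (hc : W.c₄ ≠ 0) (h : W.toAffine.Equation x y)
    (h0 : modXiNum W x = 0) :
    W.a₁ * y - (3 * x ^ 2 + 2 * W.a₂ * x + W.a₄) = 0 ∧ 2 * y + W.a₁ * x + W.a₃ = 0 := by
  have he := (Affine.equation_iff _ _).1 h
  have hG := modxi_G hΔ hc h0
  have hη : 2 * y + W.a₁ * x + W.a₃ = 0 := by
    have h2 : (2 * y + W.a₁ * x + W.a₃) ^ 2 = 0 := by
      simp only [WeierstrassCurve.b₂, WeierstrassCurve.b₄, WeierstrassCurve.b₆] at hG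
      linear_combination 4 * he + hG
    exact pow_eq_zero_iff (two_ne_zero) |>.mp h2
  refine ⟨?_, hη⟩
  by_contra hFx
  have hg := modxi_g₁ h0
  rw [hΔ, mul_zero] at hg
  have hg₁ : 6 * x ^ 2 + W.b₂ * x + W.b₄ = 0 :=
    (mul_eq_zero.mp hg).resolve_left (pow_ne_zero 2 hc)
  have h2F : (2 : k) * (W.a₁ * y - (3 * x ^ 2 + 2 * W.a₂ * x + W.a₄)) = 0 := by
    simp only [WeierstrassCurve.b₂, WeierstrassCurve.b₄] at hg₁
    linear_combination W.a₁ * hη - hg₁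
  have h2 : (2 : k) = 0 := (mul_eq_zero.mp h2F).resolve_right hFx
  have hkey := modxi_Δ_eq h hη
  rw [hΔ] at hkey
  have hsec : (W.b₂ + 12 * x) ^ 2 +
      64 * (W.a₁ * y - (3 * x ^ 2 + 2 * W.a₂ * x + W.a₄)) = 0 :=
    (mul_eq_zero.mp hkey.symm).resolve_left (pow_ne_zero 2 hFx)
  have hb₂sq : W.b₂ ^ 2 = 0 := by
    linear_combination hsec - (12 * x * W.b₂ + 72 * x ^ 2 +
      32 * (W.a₁ * y - (3 * x ^ 2 + 2 * W.a₂ * x + W.a₄))) * h2
  apply hc
  have hc₄ : W.c₄ = W.b₂ ^ 2 - 24 * W.b₄ := rfl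
  rw [hc₄]
  linear_combination hb₂sq - 12 * W.b₄ * h2

/-- **The node criterion** (every characteristic): on a singular Weierstrass cubic with
`c₄ ≠ 0`, a point is nonsingular iff `c₄ x + b₂ b₄ - 18 b₆ ≠ 0`. -/
theorem modxi_nonsingular_iff (hΔ : W.Δ = 0) (hc : W.c₄ ≠ 0) {x y : k}
    (h : W.toAffine.Equation x y) :
    W.toAffine.Nonsingular x y ↔ modXiNum W x ≠ 0 := by
  constructor
  · intro hns h0
    obtain ⟨h1, h2⟩ := modxi_singular hΔ hc h h0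
    rw [Affine.nonsingular_iff'] at hns
    rcases hns.2 with h3 | h3
    · exact h3 h1
    · exact h3 h2
  · exact modxi_nonsingular_of_ne h

end Fermat.Agent.S15


end ZBZ2S15_006_0
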