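/- GENERATED FILE (helper35, build-time optimisation, NOTES/ZB.md): verbatim concatenation of the modules
   Fermat.Agent.S15.NodalCount
   Fermat.Agent.S15.ECLoc
   Fermat.Agent.S15.Top
   Fermat.Agent.S15.ModXi
   Fermat.Agent.S15.N3Plan
   Fermat.Agent.S15.N3AsmP
   Fermat.Agent.S15.N3FAsm
   Fermat.Agent.S15.N3FFinal
   Fermat.Agent.S12.VeluNode
   Do not edit; do not import together with these modules. -/
import Mathlib
import Fermat.Agent.ZB.Z2S15_003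
import Fermat.Agent.ZB.RED_001
import Fermat.Agent.ZB.S51_001
import Fermat.Prelude.Def_EllipticCurve_ZeroComponentAt
import Fermat.Prelude.Def_FLTPrelim_Ramification
import Fermat.Agent.ZB.Z2S15_002
import Fermat.Agent.ZB.Common_001
import Fermat.Agent.ZB.ES_003
import Fermat.Agent.ZB.Z2S15_006
import Fermat.Agent.ZB.Z2S15_011
import Fermat.Agent.ZB.Z2S15_005

/-! ### bundled: `Fermat.Agent.S15.NodalCount` -/
section ZBZ2S15_004_0
/-
Item 15 (Mazur chain), piece `EC-loc`, part 2 (helper8): the number of nonsingular points of a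
nodal Weierstrass cubic over a finite field of odd characteristic.

`W` over a field `k`, `2 ≠ 0`, `Δ = 0`, `c₄ ≠ 0`.  The node is `(x₀, ·)` with
`x₀ = (18 b₆ - b₂ b₄) / c₄`; with `η = 2y + a₁x + a₃` the curve is
`η² = (x - x₀)² (4x + b₂ + 8x₀)`, and `t = η / (x - x₀)` is a bijection from the nonsingular affine
points onto `{t | t² ≠ γ}`, `γ = 12 x₀ + b₂`, `γ² = c₄`.  Hence `#W_ns(k) = q + 1 - #{t² = γ}`,
which is `q - 1` or `q + 1`.
-/

set_option autoImplicit false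

namespace Fermat.Agent.S15.ECL

open WeierstrassCurve

variable {k : Type*} [Field k] (W : WeierstrassCurve k)

/-- the `x`-coordinate of the node -/
noncomputable def nodeX : k := (18 * W.b₆ - W.b₂ * W.b₄) / W.c₄

/-- `γ = 12 x₀ + b₂`, a square root of `c₄` -/
noncomputable def nodeG : k := 12 * nodeX W + W.b₂

variable {W}

theorem node_rel1 (hΔ : W.Δ = 0) (hc : W.c₄ ≠ 0) :
    12 * nodeX W ^ 2 + 2 * W.b₂ * nodeX W + 2 * W.b₄ = 0 := by
  have h1 : W.c₄ ^ 2 * (12 * nodeX W ^ 2 + 2 * W.b₂ * nodeX W + 2 * W.b₄) = -144 * W.Δ := by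
    unfold nodeX
    field_simp
    simp only [WeierstrassCurve.Δ, WeierstrassCurve.c₄, WeierstrassCurve.b₂, WeierstrassCurve.b₄,
      WeierstrassCurve.b₆, WeierstrassCurve.b₈]
    ring
  rw [hΔ, mul_zero] at h1
  exact (mul_eq_zero.mp h1).resolve_left (pow_ne_zero 2 hc)

theorem node_rel2 (hΔ : W.Δ = 0) (hc : W.c₄ ≠ 0) :
    W.b₂ * nodeX W ^ 2 + 8 * nodeX W ^ 3 - W.b₆ = 0 := by
  have h1 : W.c₄ ^ 3 * (W.b₂ * nodeX W ^ 2 + 8 * nodeX W ^ 3 - W.b₆) =
      (W.b₂ ^ 3 - 432 * W.b₆) * (4 * W.Δ) := by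
    unfold nodeX
    field_simp
    simp only [WeierstrassCurve.Δ, WeierstrassCurve.c₄, WeierstrassCurve.b₂, WeierstrassCurve.b₄,
      WeierstrassCurve.b₆, WeierstrassCurve.b₈]
    ring
  rw [hΔ, mul_zero, mul_zero] at h1
  exact (mul_eq_zero.mp h1).resolve_left (pow_ne_zero 3 hc)

theorem nodeG_sq (hΔ : W.Δ = 0) (hc : W.c₄ ≠ 0) : nodeG W ^ 2 = W.c₄ := by
  have h1 := node_rel1 hΔ hc
  unfold nodeG
  rw [WeierstrassCurve.c₄]
  linear_combination 12 * h1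

theorem nodeG_ne_zero (hΔ : W.Δ = 0) (hc : W.c₄ ≠ 0) : nodeG W ≠ 0 := by
  intro h0
  apply hc
  rw [← nodeG_sq hΔ hc, h0]
  ring

/-- the curve in the form `η² = (x - x₀)² (4x + b₂ + 8x₀)` -/
theorem node_equation_iff (h2 : (2 : k) ≠ 0) (hΔ : W.Δ = 0) (hc : W.c₄ ≠ 0) (x y : k) :
    W.toAffine.Equation x y ↔
      (2 * y + W.a₁ * x + W.a₃) ^ 2 = (x - nodeX W) ^ 2 * (4 * x + W.b₂ + 8 * nodeX W) := by
  have h1 := node_rel1 hΔ hc
  have h3 := node_rel2 hΔ hc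
  have h4 : (4 : k) ≠ 0 := by
    have : (4 : k) = 2 * 2 := by norm_num
    rw [this]
    exact mul_ne_zero h2 h2
  have hf : (x - nodeX W) ^ 2 * (4 * x + W.b₂ + 8 * nodeX W) =
      4 * x ^ 3 + W.b₂ * x ^ 2 + 2 * W.b₄ * x + W.b₆ := by
    linear_combination (-x) * h1 + h3
  rw [hf, Affine.equation_iff]
  simp only [WeierstrassCurve.b₂, WeierstrassCurve.b₄, WeierstrassCurve.b₆]
  constructor
  · intro h
    linear_combination 4 * h
  · intro h
    apply mul_left_cancel₀ h4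
    linear_combination h

/-- on the curve, the nonsingular points are those with `x ≠ x₀` -/
theorem node_nonsingular_iff (h2 : (2 : k) ≠ 0) (hΔ : W.Δ = 0) (hc : W.c₄ ≠ 0) (x y : k) :
    W.toAffine.Nonsingular x y ↔ W.toAffine.Equation x y ∧ x ≠ nodeX W := by
  have h1 := node_rel1 hΔ hc
  have hG := nodeG_ne_zero hΔ hc
  have h4 : (4 : k) ≠ 0 := by
    have : (4 : k) = 2 * 2 := by norm_num
    rw [this]
    exact mul_ne_zero h2 h2
  rw [Affine.nonsingular_iff']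
  refine and_congr_right fun heq => ?_
  have he := (node_equation_iff h2 hΔ hc x y).mp heq
  -- `4 F_x = 2 a₁ η - f'(x)`
  have hFx : 4 * (W.a₁ * y - (3 * x ^ 2 + 2 * W.a₂ * x + W.a₄)) =
      2 * W.a₁ * (2 * y + W.a₁ * x + W.a₃) -
        (x - nodeX W) * (12 * (x + nodeX W) + 2 * W.b₂) := by
    have h1' := h1
    simp only [WeierstrassCurve.b₂, WeierstrassCurve.b₄] at h1' ⊢
    linear_combination -h1'
  constructor
  · rintro hns rfl
    rw [sub_self] at he hFx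
    have hη : 2 * y + W.a₁ * nodeX W + W.a₃ = 0 := by
      have : (2 * y + W.a₁ * nodeX W + W.a₃) ^ 2 = 0 := by rw [he]; ring
      exact pow_eq_zero_iff (two_ne_zero) |>.mp this
    rw [hη, mul_zero, zero_mul, sub_zero] at hFx
    rcases hns with h | h
    · exact h ((mul_eq_zero.mp hFx).resolve_left h4)
    · exact h hη
  · intro hx
    by_contra hcon
    push Not at hcon
    obtain ⟨hFx0, hη⟩ := hcon
    have hxx : x - nodeX W ≠ 0 := sub_ne_zero.mpr hx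
    rw [hη] at he
    rw [hFx0, hη, mul_zero, mul_zero] at hFx
    have e1 : 4 * x + W.b₂ + 8 * nodeX W = 0 := by
      have : (x - nodeX W) ^ 2 * (4 * x + W.b₂ + 8 * nodeX W) = 0 := by rw [← he]; ring
      exact (mul_eq_zero.mp this).resolve_left (pow_ne_zero 2 hxx)
    have e2 : 12 * (x + nodeX W) + 2 * W.b₂ = 0 := by
      have : (x - nodeX W) * (12 * (x + nodeX W) + 2 * W.b₂) = 0 := by
        linear_combination hFx
      exact (mul_eq_zero.mp this).resolve_left hxx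
    apply hG
    unfold nodeG
    linear_combination 3 * e1 - e2

/-! ### The parametrisation -/

/-- the parameter `t = η / (x - x₀)` of an affine point -/
noncomputable def nodeT (W : WeierstrassCurve k) (x y : k) : k :=
  (2 * y + W.a₁ * x + W.a₃) / (x - nodeX W)

/-- the point with parameter `t`: `x`-coordinate -/
noncomputable def nodePX (W : WeierstrassCurve k) (t : k) : k :=
  (t ^ 2 - W.b₂ - 8 * nodeX W) / 4

/-- the point with parameter `t`: `y`-coordinate -/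
noncomputable def nodePY (W : WeierstrassCurve k) (t : k) : k :=
  (t * (t ^ 2 - nodeG W) / 4 - W.a₁ * nodePX W t - W.a₃) / 2

theorem node_four_ne_zero (h2 : (2 : k) ≠ 0) : (4 : k) ≠ 0 := by
  have : (4 : k) = 2 * 2 := by norm_num
  rw [this]
  exact mul_ne_zero h2 h2

theorem nodeT_sq (h2 : (2 : k) ≠ 0) (hΔ : W.Δ = 0) (hc : W.c₄ ≠ 0) {x y : k}
    (h : W.toAffine.Nonsingular x y) : nodeT W x y ^ 2 = 4 * x + W.b₂ + 8 * nodeX W := by
  obtain ⟨heq, hx⟩ := (node_nonsingular_iff h2 hΔ hc x y).mp h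
  have he := (node_equation_iff h2 hΔ hc x y).mp heq
  have hxx : x - nodeX W ≠ 0 := sub_ne_zero.mpr hx
  unfold nodeT
  rw [div_pow, he]
  field_simp

theorem nodeT_sq_ne (h2 : (2 : k) ≠ 0) (hΔ : W.Δ = 0) (hc : W.c₄ ≠ 0) {x y : k}
    (h : W.toAffine.Nonsingular x y) : nodeT W x y ^ 2 ≠ nodeG W := by
  obtain ⟨-, hx⟩ := (node_nonsingular_iff h2 hΔ hc x y).mp h
  rw [nodeT_sq h2 hΔ hc h]
  intro h0
  apply sub_ne_zero.mpr hx
  apply mul_left_cancel₀ (node_four_ne_zero h2)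
  unfold nodeG at h0
  linear_combination h0

theorem nodePX_sub (h2 : (2 : k) ≠ 0) (t : k) :
    nodePX W t - nodeX W = (t ^ 2 - nodeG W) / 4 := by
  have h4 := node_four_ne_zero h2
  unfold nodePX nodeG
  field_simp
  ring

theorem nodePY_eta (h2 : (2 : k) ≠ 0) (t : k) :
    2 * nodePY W t + W.a₁ * nodePX W t + W.a₃ = t * (nodePX W t - nodeX W) := by
  rw [nodePX_sub h2]
  unfold nodePY
  field_simp
  ring

theorem nodeP_nonsingular (h2 : (2 : k) ≠ 0) (hΔ : W.Δ = 0) (hc : W.c₄ ≠ 0) {t : k}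
    (ht : t ^ 2 ≠ nodeG W) : W.toAffine.Nonsingular (nodePX W t) (nodePY W t) := by
  have h4 := node_four_ne_zero h2
  rw [node_nonsingular_iff h2 hΔ hc]
  constructor
  · rw [node_equation_iff h2 hΔ hc, nodePY_eta h2]
    have e : 4 * nodePX W t + W.b₂ + 8 * nodeX W = t ^ 2 := by
      unfold nodePX
      field_simp
      ring
    rw [e]
    ring
  · intro h0
    have e := nodePX_sub (W := W) h2 t
    rw [h0, sub_self] at e
    have : t ^ 2 - nodeG W = 0 := by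
      have := e.symm
      rw [div_eq_zero_iff] at this
      exact this.resolve_right h4
    exact ht (sub_eq_zero.mp this)

theorem nodeT_nodeP (h2 : (2 : k) ≠ 0) {t : k} (ht : t ^ 2 ≠ nodeG W) :
    nodeT W (nodePX W t) (nodePY W t) = t := by
  have h4 := node_four_ne_zero h2
  have hne : nodePX W t - nodeX W ≠ 0 := by
    rw [nodePX_sub h2]
    exact div_ne_zero (sub_ne_zero.mpr ht) h4
  unfold nodeT
  rw [nodePY_eta h2, mul_div_assoc, div_self hne, mul_one]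

theorem nodePX_nodeT (h2 : (2 : k) ≠ 0) (hΔ : W.Δ = 0) (hc : W.c₄ ≠ 0) {x y : k}
    (h : W.toAffine.Nonsingular x y) : nodePX W (nodeT W x y) = x := by
  have h4 := node_four_ne_zero h2
  unfold nodePX
  rw [nodeT_sq h2 hΔ hc h]
  field_simp
  ring

theorem nodePY_nodeT (h2 : (2 : k) ≠ 0) (hΔ : W.Δ = 0) (hc : W.c₄ ≠ 0) {x y : k}
    (h : W.toAffine.Nonsingular x y) : nodePY W (nodeT W x y) = y := by
  have hx := nodePX_nodeT h2 hΔ hc h
  have h1 := nodePY_eta (W := W) h2 (nodeT W x y)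
  rw [hx] at h1
  obtain ⟨-, hxx⟩ := (node_nonsingular_iff h2 hΔ hc x y).mp h
  have h3 : nodeT W x y * (x - nodeX W) = 2 * y + W.a₁ * x + W.a₃ := by
    unfold nodeT
    exact div_mul_cancel₀ _ (sub_ne_zero.mpr hxx)
  rw [h3] at h1
  apply mul_left_cancel₀ h2
  linear_combination h1

theorem node_some_congr {x y x' y' : k} (h : W.toAffine.Nonsingular x y)
    (h' : W.toAffine.Nonsingular x' y') (hx : x = x') (hy : y = y') :
    Affine.Point.some x y h = Affine.Point.some x' y' h' := by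
  subst hx; subst hy; rfl

/-- **The parametrisation** of the nonsingular points of a nodal cubic. -/
noncomputable def nodalEquiv (h2 : (2 : k) ≠ 0) (hΔ : W.Δ = 0) (hc : W.c₄ ≠ 0) :
    W.toAffine.Point ≃ Option {t : k // t ^ 2 ≠ nodeG W} where
  toFun P :=
    match P with
    | .zero => none
    | .some x y h => some ⟨nodeT W x y, nodeT_sq_ne h2 hΔ hc h⟩
  invFun o :=
    match o with
    | none => .zero
    | some t => .some (nodePX W t.1) (nodePY W t.1) (nodeP_nonsingular h2 hΔ hc t.2)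
  left_inv P := by
    rcases P with _ | ⟨x, y, h⟩
    · rfl
    · exact node_some_congr _ _ (nodePX_nodeT h2 hΔ hc h) (nodePY_nodeT h2 hΔ hc h)
  right_inv o := by
    rcases o with _ | ⟨t, ht⟩
    · rfl
    · show some (⟨nodeT W (nodePX W t) (nodePY W t), _⟩ : {t : k // t ^ 2 ≠ nodeG W}) = _
      congr 1
      exact Subtype.ext (nodeT_nodeP h2 ht)

/-! ### The count -/

open Classical in
theorem node_card_sq (h2 : (2 : k) ≠ 0) [Finite k] {γ : k} (hγ : γ ≠ 0) :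
    Nat.card {t : k // t ^ 2 = γ} = 0 ∨ Nat.card {t : k // t ^ 2 = γ} = 2 := by
  have := Fintype.ofFinite k
  rw [Nat.card_eq_fintype_card]
  by_cases hex : ∃ t₀ : k, t₀ ^ 2 = γ
  · right
    obtain ⟨t₀, ht₀⟩ := hex
    have ht0 : t₀ ≠ 0 := by
      rintro rfl
      apply hγ
      rw [← ht₀]
      ring
    have hne : t₀ ≠ -t₀ := by
      intro h
      have : 2 * t₀ = 0 := by linear_combination h
      rcases mul_eq_zero.mp this with h | h
      · exact h2 h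
      · exact ht0 h
    rw [Fintype.card_subtype]
    have hset : (Finset.univ.filter fun t : k => t ^ 2 = γ) = {t₀, -t₀} := by
      ext t
      simp only [Finset.mem_filter, Finset.mem_univ, true_and, Finset.mem_insert,
        Finset.mem_singleton]
      constructor
      · intro ht
        have : (t - t₀) * (t + t₀) = 0 := by linear_combination ht - ht₀
        rcases mul_eq_zero.mp this with h | h
        · left; exact sub_eq_zero.mp h
        · right; exact eq_neg_of_add_eq_zero_left h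
      · rintro (rfl | rfl)
        · exact ht₀
        · rw [neg_sq]; exact ht₀
    rw [hset, Finset.card_pair hne]
  · left
    rw [Fintype.card_eq_zero_iff]
    exact ⟨fun t => hex ⟨t.1, t.2⟩⟩

open Classical in
theorem node_card_compl [Finite k] (γ : k) :
    Nat.card {t : k // t ^ 2 ≠ γ} + Nat.card {t : k // t ^ 2 = γ} = Nat.card k := by
  have := Fintype.ofFinite k
  rw [Nat.card_eq_fintype_card, Nat.card_eq_fintype_card, Nat.card_eq_fintype_card,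
    Fintype.card_subtype_compl]
  have hle : Fintype.card {t : k // t ^ 2 = γ} ≤ Fintype.card k := Fintype.card_subtype_le _
  omega

/-- **The number of nonsingular points of a nodal cubic** over a finite field of odd
characteristic is `q - 1` or `q + 1`. -/
theorem nodal_card [Finite k] (h2 : (2 : k) ≠ 0) (hΔ : W.Δ = 0)
    (hc : W.c₄ ≠ 0) :
    Nat.card W.toAffine.Point + 1 = Nat.card k ∨
      Nat.card W.toAffine.Point = Nat.card k + 1 := by
  have h1 : Nat.card W.toAffine.Point = Nat.card (Option {t : k // t ^ 2 ≠ nodeG W}) :=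
    Nat.card_congr (nodalEquiv h2 hΔ hc)
  rw [h1, Finite.card_option]
  have h3 := node_card_compl (nodeG W)
  rcases node_card_sq h2 (nodeG_ne_zero hΔ hc) with h | h
  · right
    omega
  · left
    omega

end Fermat.Agent.S15.ECL


end ZBZ2S15_004_0

/-! ### bundled: `Fermat.Agent.S15.ECLoc` -/
section ZBZ2S15_004_1
/-
Item 15 (Mazur chain), piece `EC-loc` (helper8).

`W : WeierstrassCurve ℤ`, `Q` a `G_ℚ`-fixed point of `W(ℚ̄)` of prime order `p`, `ℓ ≠ p` an odd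
prime of multiplicative reduction (`ℓ ∣ Δ`, `ℓ ∤ c₄`), `A` a valuation subring of `ℚ̄` over `ℓ`:

* `ecloc_dvd` : if `Q` lies in the identity component at `A` then `p ∣ ℓ - 1` or `p ∣ ℓ + 1`;
* `ecloc_inZero_iff_rat`, `ecloc_indep` : for a rational `Q`, `InZeroComponentAt A Q` does not
  depend on the choice of `A` over `ℓ` (any `ℓ`).
-/

set_option autoImplicit false
set_option linter.unusedSectionVars false

namespace Fermat.Agent.S15

open WeierstrassCurve WeierstrassCurve.Affine Fermat.Agent.RED Fermat.Agent.S05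
  Fermat.Agent.S15.ECL

/-- `ℚ̄` -/
local notation "Qb" => AlgebraicClosure ℚ

section Rat

variable {ℓ : ℕ} [Fact ℓ.Prime] (A : ValuationSubring Qb)

/-- the residue class mod `ℓ` of a rational number (junk value if `ℓ` divides the denominator) -/
noncomputable def eclocRatRes (ℓ : ℕ) (r : ℚ) : ZMod ℓ := (r.num : ZMod ℓ) * ((r.den : ZMod ℓ))⁻¹

/-- a rational number lies in `A` iff `ℓ` does not divide its denominator -/
theorem ecloc_rat_mem_iff (hA : A.LiesOverPrime ℓ) (r : ℚ) :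
    algebraMap ℚ Qb r ∈ A ↔ ¬ ℓ ∣ r.den := by
  have hℓ : ℓ.Prime := Fact.out
  have hr : algebraMap ℚ Qb r * (r.den : Qb) = (r.num : Qb) := by
    have h1 : r * (r.den : ℚ) = (r.num : ℚ) := Rat.mul_den_eq_num r
    have h2 := congrArg (algebraMap ℚ Qb) h1
    rw [map_mul, map_natCast, map_intCast] at h2
    exact h2
  constructor
  · intro hmem hdvd
    have hden : (r.den : Qb) ∈ A.nonunits := (natCast_mem_nonunits_iff A hℓ hA r.den).2 hdvd
    have hnum : (r.num : Qb) ∈ A.nonunits := by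
      rw [← hr]
      exact vs_mul_mem_nonunits A hmem hden
    have h3 : (ℓ : ℤ) ∣ r.num := (intCast_mem_nonunits_iff A hℓ hA r.num).1 hnum
    have h4 : ℓ ∣ r.num.natAbs := Int.natCast_dvd.mp h3
    have h5 : ℓ ∣ Nat.gcd r.num.natAbs r.den := Nat.dvd_gcd h4 hdvd
    rw [Nat.Coprime.gcd_eq_one r.reduced] at h5
    exact hℓ.one_lt.ne' (Nat.dvd_one.mp h5)
  · intro hnd
    have hden : A.valuation ((r.den : ℕ) : Qb) = 1 :=
      (valuation_natCast_eq_one_iff A hℓ hA r.den).2 hnd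
    have hnum : A.valuation ((r.num : ℤ) : Qb) ≤ 1 :=
      (A.valuation_le_one_iff _).2 (intCast_mem A r.num)
    rw [← A.valuation_le_one_iff]
    have h1 := congrArg A.valuation hr
    rw [map_mul, hden, mul_one] at h1
    rw [h1]
    exact hnum

/-- the residue of a rational element of `A` is the image of its residue class mod `ℓ` -/
theorem ecloc_residue_rat (ι : ZMod ℓ →+* IsLocalRing.ResidueField A) (hA : A.LiesOverPrime ℓ)
    (r : ℚ) (hr : algebraMap ℚ Qb r ∈ A) :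
    IsLocalRing.residue A ⟨algebraMap ℚ Qb r, hr⟩ = ι (eclocRatRes ℓ r) := by
  have hℓ : ℓ.Prime := Fact.out
  have hnd : ¬ ℓ ∣ r.den := (ecloc_rat_mem_iff A hA r).1 hr
  have hdz : ((r.den : ℕ) : ZMod ℓ) ≠ 0 := by
    intro h0
    exact hnd ((ZMod.natCast_eq_zero_iff r.den ℓ).1 h0)
  have hdk : ((r.den : ℕ) : IsLocalRing.ResidueField A) ≠ 0 := by
    rw [← map_natCast ι]
    exact (map_ne_zero ι).mpr hdz
  have h1 : (⟨algebraMap ℚ Qb r, hr⟩ : A) * ((r.den : ℕ) : A) = ((r.num : ℤ) : A) := by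
    apply Subtype.ext
    have h1 : r * (r.den : ℚ) = (r.num : ℚ) := Rat.mul_den_eq_num r
    have h2 := congrArg (algebraMap ℚ Qb) h1
    rw [map_mul, map_natCast, map_intCast] at h2
    push_cast
    exact h2
  have h2 := congrArg (IsLocalRing.residue A) h1
  rw [map_mul, map_natCast, map_intCast] at h2
  unfold eclocRatRes
  rw [map_mul, map_inv₀, map_intCast, map_natCast, ← h2]
  field_simp

end Rat

section Transport

variable (W : WeierstrassCurve ℤ) (A : ValuationSubring Qb)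

/-- the reduced curve of the brick `RED` is the reduced curve of `InZeroComponentAt` -/
theorem ecloc_curveRes_eq :
    curveRes A (modelA W A) = W.map (Int.castRingHom (IsLocalRing.ResidueField A)) := by
  show (W.map (Int.castRingHom A)).map (IsLocalRing.residue A) = _
  rw [WeierstrassCurve.map_map]
  congr 1

variable {W A} [DecidableEq (IsLocalRing.ResidueField A)]

theorem ecloc_nsRes_iff {x y : Qb} (hx : x ∈ A) (hy : y ∈ A) :
    NsRes (modelA W A) ⟨x, hx⟩ ⟨y, hy⟩ ↔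
      (W.map (Int.castRingHom (IsLocalRing.ResidueField A))).toAffine.Nonsingular
        (IsLocalRing.residue A ⟨x, hx⟩) (IsLocalRing.residue A ⟨y, hy⟩) := by
  show (curveRes A (modelA W A)).toAffine.Nonsingular _ _ ↔ _
  rw [ecloc_curveRes_eq]

/-- `InZeroComponentAt` in terms of the brick `RED` -/
theorem ecloc_inE0_iff (Q : ((W.map (Int.castRingHom ℚ))⁄Qb).Point) :
    InE0 (pointCongr (baseChange_eq_curveK W A) Q) ↔ W.InZeroComponentAt A Q := by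
  rcases Q with _ | ⟨x, y, h⟩
  · have h0 : (Point.zero : ((W.map (Int.castRingHom ℚ))⁄Qb).Point) = 0 := rfl
    rw [h0, pointCongr_zero]
    exact ⟨fun _ => Or.inl rfl, fun _ => inE0_zero⟩
  · rw [pointCongr_some, inE0_some_iff]
    constructor
    · rintro (hx | ⟨hx, hy, hns⟩)
      · exact Or.inr ⟨x, y, h, rfl, Or.inl hx⟩
      · exact Or.inr ⟨x, y, h, rfl, Or.inr ⟨hx, hy, (ecloc_nsRes_iff hx hy).1 hns⟩⟩
    · rintro (h0 | ⟨x', y', h', he, hh⟩)
      · exact absurd h0 (Point.some_ne_zero _)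
      · obtain ⟨rfl, rfl⟩ : x = x' ∧ y = y' := by
          have := Point.some.inj he
          exact ⟨this.1, this.2⟩
        rcases hh with hx | ⟨hx, hy, hns⟩
        · exact Or.inl hx
        · exact Or.inr ⟨hx, hy, (ecloc_nsRes_iff hx hy).2 hns⟩

end Transport

section Main

variable (W : WeierstrassCurve ℤ) {ℓ : ℕ}

/-- the number of nonsingular points mod `ℓ` at an odd prime of multiplicative reduction -/
theorem ecloc_card [Fact ℓ.Prime] (hℓ2 : ℓ ≠ 2) (hℓΔ : (ℓ : ℤ) ∣ W.Δ)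
    (hℓc₄ : ¬ (ℓ : ℤ) ∣ W.c₄) :
    Nat.card (W⁄(ZMod ℓ)).Point + 1 = ℓ ∨ Nat.card (W⁄(ZMod ℓ)).Point = ℓ + 1 := by
  have hℓ : ℓ.Prime := Fact.out
  have h2 : (2 : ZMod ℓ) ≠ 0 := by
    intro h0
    have h1 : ((2 : ℕ) : ZMod ℓ) = 0 := by exact_mod_cast h0
    rw [ZMod.natCast_eq_zero_iff] at h1
    exact hℓ2 ((Nat.prime_dvd_prime_iff_eq hℓ Nat.prime_two).1 h1)
  have hΔ : (W⁄(ZMod ℓ)).Δ = 0 := by
    show (W.map (Int.castRingHom (ZMod ℓ))).Δ = 0
    rw [WeierstrassCurve.map_Δ]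
    exact (ZMod.intCast_zmod_eq_zero_iff_dvd W.Δ ℓ).2 hℓΔ
  have hc : (W⁄(ZMod ℓ)).c₄ ≠ 0 := by
    show (W.map (Int.castRingHom (ZMod ℓ))).c₄ ≠ 0
    rw [WeierstrassCurve.map_c₄]
    intro h0
    exact hℓc₄ ((ZMod.intCast_zmod_eq_zero_iff_dvd W.c₄ ℓ).1 h0)
  have := nodal_card (W := (W⁄(ZMod ℓ))) h2 hΔ hc
  rw [Nat.card_zmod] at this
  exact this

/-- a `G_ℚ`-fixed affine point has rational coordinates -/
theorem ecloc_rat_of_fixed {x y : Qb} (h : ((W.map (Int.castRingHom ℚ))⁄Qb).Nonsingular x y)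
    (hfix : ∀ σ : Qb ≃ₐ[ℚ] Qb, σ • (Point.some x y h : ((W.map (Int.castRingHom ℚ))⁄Qb).Point) =
      Point.some x y h) :
    ∃ rx ry : ℚ, algebraMap ℚ Qb rx = x ∧ algebraMap ℚ Qb ry = y := by
  have hx : ∀ σ : Qb ≃ₐ[ℚ] Qb, σ x = x ∧ σ y = y := by
    intro σ
    have h1 := hfix σ
    rw [galois_smul_some] at h1
    have h2 := Point.some.inj h1
    exact ⟨h2.1, h2.2⟩
  obtain ⟨rx, hrx⟩ := Fermat.Agent.S51.galois_fixed_rat x fun σ => (hx σ).1
  obtain ⟨ry, hry⟩ := Fermat.Agent.S51.galois_fixed_rat y fun σ => (hx σ).2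
  exact ⟨rx, ry, hrx, hry⟩

/-- **EC-loc.**  A rational point of prime order `p` which lies in the identity component at an
odd prime `ℓ ≠ p` of multiplicative reduction: `p ∣ ℓ - 1` or `p ∣ ℓ + 1`. -/
theorem ecloc_dvd {p : ℕ} (hp : p.Prime) (hℓ : ℓ.Prime) (hℓ2 : ℓ ≠ 2) (hℓp : ℓ ≠ p)
    (hℓΔ : (ℓ : ℤ) ∣ W.Δ) (hℓc₄ : ¬ (ℓ : ℤ) ∣ W.c₄)
    (Q : ((W.map (Int.castRingHom ℚ))⁄Qb).Point)
    (hQfix : ∀ σ : Qb ≃ₐ[ℚ] Qb, σ • Q = Q) (hQord : addOrderOf Q = p)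
    (A : ValuationSubring Qb) (hA : A.LiesOverPrime ℓ) (h0 : W.InZeroComponentAt A Q) :
    p ∣ ℓ - 1 ∨ p ∣ ℓ + 1 := by
  have : Fact ℓ.Prime := ⟨hℓ⟩
  let _ : DecidableEq (IsLocalRing.ResidueField A) := Classical.decEq _
  have hchar : CharP (IsLocalRing.ResidueField A) ℓ := charP_residueField A hℓ hA
  let ι : ZMod ℓ →+* IsLocalRing.ResidueField A := ZMod.castHom (dvd_refl ℓ) _
  let f : ZMod ℓ →ₐ[ℤ] IsLocalRing.ResidueField A := ι.toIntAlgHom
  have hfι : ∀ z, f z = ι z := fun z => rfl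
  -- the point in the setting of the brick `RED`
  have hE0 : InE0 (pointCongr (baseChange_eq_curveK W A) Q) := (ecloc_inE0_iff Q).2 h0
  have hord' : addOrderOf (pointCongr (baseChange_eq_curveK W A) Q) = p := by
    rw [AddEquiv.addOrderOf_eq, hQord]
  have hpA : ((p : ℕ) : Qb) ∉ A.nonunits := fun h =>
    hℓp ((Nat.prime_dvd_prime_iff_eq hℓ hp).1 ((natCast_mem_nonunits_iff A hℓ hA p).1 h))
  have hred := addOrderOf_redPt0 hp hpA hE0 hord'
  -- coordinates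
  rcases Q with _ | ⟨x, y, h⟩
  · exfalso
    have h1 : (Point.zero : ((W.map (Int.castRingHom ℚ))⁄Qb).Point) = 0 := rfl
    rw [h1, addOrderOf_zero] at hQord
    exact hp.one_lt.ne hQord
  obtain ⟨rx, ry, rfl, rfl⟩ := ecloc_rat_of_fixed W h hQfix
  rw [pointCongr_some] at hE0 hred
  rcases hE0 with hx | ⟨hx, hy, hns⟩
  · exfalso
    rw [redPt0_of_not_mem _ hx, addOrderOf_zero] at hred
    exact hp.one_lt.ne hred
  rw [redPt0_coe (a := ⟨_, hx⟩) (b := ⟨_, hy⟩) _ hns] at hred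
  -- the point over `𝔽_ℓ`
  have ex := ecloc_residue_rat A ι hA rx hx
  have ey := ecloc_residue_rat A ι hA ry hy
  have hk : (W⁄(IsLocalRing.ResidueField A)).Nonsingular (f (eclocRatRes ℓ rx)) (f (eclocRatRes ℓ ry)) := by
    rw [hfι, hfι, ← ex, ← ey]
    exact (ecloc_nsRes_iff hx hy).1 hns
  have h₀ : (W⁄(ZMod ℓ)).Nonsingular (eclocRatRes ℓ rx) (eclocRatRes ℓ ry) :=
    (WeierstrassCurve.Affine.baseChange_nonsingular W (f := f) f.injective _ _).1 hk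
  have hmap : Point.map (W' := W) f (Point.some _ _ h₀) =
      pointCongr (ecloc_curveRes_eq W A) (Point.some _ _ hns) := by
    rw [Point.map_some, pointCongr_some]
    exact some_congr _ _ (by rw [hfι, ← ex]) (by rw [hfι, ← ey])
  have hord₀ : addOrderOf (Point.some _ _ h₀ : (W⁄(ZMod ℓ)).Point) = p := by
    have e1 := addOrderOf_injective (Point.map (W' := W) f) (Point.map_injective f)
      (Point.some _ _ h₀)
    have e2 := AddEquiv.addOrderOf_eq (pointCongr (ecloc_curveRes_eq W A)) (Point.some _ _ hns)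
    have e3 := congrArg addOrderOf hmap
    exact e1.symm.trans (e3.trans (e2.trans hred))
  have hdvd : p ∣ Nat.card (W⁄(ZMod ℓ)).Point := by
    rw [← hord₀]
    exact addOrderOf_dvd_natCard _
  rcases ecloc_card W hℓ2 hℓΔ hℓc₄ with hc | hc
  · left
    have : Nat.card (W⁄(ZMod ℓ)).Point = ℓ - 1 := by omega
    rw [← this]
    exact hdvd
  · right
    rw [← hc]
    exact hdvd

/-- `A`-free description of "`(rx, ry)` lies in the identity component at `ℓ`" -/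
def EclocRatInE0 (ℓ : ℕ) (rx ry : ℚ) : Prop :=
  ℓ ∣ rx.den ∨
    (¬ ℓ ∣ rx.den ∧ ¬ ℓ ∣ ry.den ∧ (W⁄(ZMod ℓ)).Nonsingular (eclocRatRes ℓ rx) (eclocRatRes ℓ ry))

/-- for a rational point, `InZeroComponentAt A` has a description which does not involve `A` -/
theorem ecloc_inZero_iff_rat (hℓ : ℓ.Prime) (A : ValuationSubring Qb) (hA : A.LiesOverPrime ℓ)
    (rx ry : ℚ)
    (h : ((W.map (Int.castRingHom ℚ))⁄Qb).Nonsingular (algebraMap ℚ Qb rx) (algebraMap ℚ Qb ry)) :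
    W.InZeroComponentAt A (Point.some _ _ h) ↔ EclocRatInE0 W ℓ rx ry := by
  have : Fact ℓ.Prime := ⟨hℓ⟩
  have hchar : CharP (IsLocalRing.ResidueField A) ℓ := charP_residueField A hℓ hA
  let ι : ZMod ℓ →+* IsLocalRing.ResidueField A := ZMod.castHom (dvd_refl ℓ) _
  let f : ZMod ℓ →ₐ[ℤ] IsLocalRing.ResidueField A := ι.toIntAlgHom
  have hfι : ∀ z, f z = ι z := fun z => rfl
  have key : ∀ (hx : algebraMap ℚ Qb rx ∈ A) (hy : algebraMap ℚ Qb ry ∈ A),
      (W.map (Int.castRingHom (IsLocalRing.ResidueField A))).toAffine.Nonsingular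
          (IsLocalRing.residue A ⟨_, hx⟩) (IsLocalRing.residue A ⟨_, hy⟩) ↔
        (W⁄(ZMod ℓ)).Nonsingular (eclocRatRes ℓ rx) (eclocRatRes ℓ ry) := by
    intro hx hy
    rw [ecloc_residue_rat A ι hA rx hx, ecloc_residue_rat A ι hA ry hy, ← hfι, ← hfι]
    exact WeierstrassCurve.Affine.baseChange_nonsingular W (f := f) f.injective _ _
  constructor
  · rintro (h0 | ⟨x', y', h', he, hh⟩)
    · exact absurd h0 (Point.some_ne_zero _)
    · obtain ⟨hx', hy'⟩ : algebraMap ℚ Qb rx = x' ∧ algebraMap ℚ Qb ry = y' := by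
        have := Point.some.inj he
        exact ⟨this.1, this.2⟩
      subst hx' hy'
      rcases hh with hx | ⟨hx, hy, hns⟩
      · left
        by_contra hnd
        exact hx ((ecloc_rat_mem_iff A hA rx).2 hnd)
      · right
        exact ⟨(ecloc_rat_mem_iff A hA rx).1 hx, (ecloc_rat_mem_iff A hA ry).1 hy,
          (key hx hy).1 hns⟩
  · rintro (hd | ⟨hdx, hdy, hns⟩)
    · exact Or.inr ⟨_, _, h, rfl, Or.inl fun hx => (ecloc_rat_mem_iff A hA rx).1 hx hd⟩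
    · have hx := (ecloc_rat_mem_iff A hA rx).2 hdx
      have hy := (ecloc_rat_mem_iff A hA ry).2 hdy
      exact Or.inr ⟨_, _, h, rfl, Or.inr ⟨hx, hy, (key hx hy).2 hns⟩⟩

/-- **independence of the place.**  For a `G_ℚ`-fixed point, `InZeroComponentAt A` only depends on
the prime `ℓ` below `A`. -/
theorem ecloc_indep (hℓ : ℓ.Prime) (Q : ((W.map (Int.castRingHom ℚ))⁄Qb).Point)
    (hQfix : ∀ σ : Qb ≃ₐ[ℚ] Qb, σ • Q = Q)
    (A A' : ValuationSubring Qb) (hA : A.LiesOverPrime ℓ) (hA' : A'.LiesOverPrime ℓ) :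
    W.InZeroComponentAt A Q ↔ W.InZeroComponentAt A' Q := by
  rcases Q with _ | ⟨x, y, h⟩
  · exact ⟨fun _ => Or.inl rfl, fun _ => Or.inl rfl⟩
  obtain ⟨rx, ry, rfl, rfl⟩ := ecloc_rat_of_fixed W h hQfix
  exact (ecloc_inZero_iff_rat W hℓ A hA rx ry h).trans
    (ecloc_inZero_iff_rat W hℓ A' hA' rx ry h).symm

/-- `ecloc_dvd` in the form used by the glue: the conclusion of `S15` at `ℓ` holds as soon as
`p ∤ ℓ ± 1`. -/
theorem ecloc_not_inZero {p : ℕ} (hp : p.Prime) (hℓ : ℓ.Prime) (hℓ2 : ℓ ≠ 2) (hℓp : ℓ ≠ p)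
    (hℓΔ : (ℓ : ℤ) ∣ W.Δ) (hℓc₄ : ¬ (ℓ : ℤ) ∣ W.c₄)
    (Q : ((W.map (Int.castRingHom ℚ))⁄Qb).Point)
    (hQfix : ∀ σ : Qb ≃ₐ[ℚ] Qb, σ • Q = Q) (hQord : addOrderOf Q = p)
    (hnd : ¬ p ∣ ℓ - 1) (hnd' : ¬ p ∣ ℓ + 1)
    (A : ValuationSubring Qb) (hA : A.LiesOverPrime ℓ) : ¬ W.InZeroComponentAt A Q := fun h0 =>
  (ecloc_dvd W hp hℓ hℓ2 hℓp hℓΔ hℓc₄ Q hQfix hQord A hA h0).elim hnd hnd'

/-- to prove the conclusion of `S15` at every place over `ℓ` it suffices to refute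
`InZeroComponentAt` at one place over `ℓ` -/
theorem ecloc_not_inZero_of_exists (hℓ : ℓ.Prime) (Q : ((W.map (Int.castRingHom ℚ))⁄Qb).Point)
    (hQfix : ∀ σ : Qb ≃ₐ[ℚ] Qb, σ • Q = Q)
    (A₀ : ValuationSubring Qb) (hA₀ : A₀.LiesOverPrime ℓ) (h₀ : ¬ W.InZeroComponentAt A₀ Q)
    (A : ValuationSubring Qb) (hA : A.LiesOverPrime ℓ) : ¬ W.InZeroComponentAt A Q := fun h =>
  h₀ ((ecloc_indep W hℓ Q hQfix A A₀ hA hA₀).1 h)

end Main

end Fermat.Agent.S15


end ZBZ2S15_004_1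

/-! ### bundled: `Fermat.Agent.S15.Top` -/
section ZBZ2S15_004_2

/-!
# S15 (Mazur's key step) from the six interface Props of `Plan.lean` and EC-loc

`s15_of_inputs : StmtCusp → StmtMod → StmtLocDiv → StmtLocDivN → StmtFinRed → StmtFin →
  S15Statement`,   `stmtFin_of_all : StmtFinAll → StmtFin`.
-/

set_option autoImplicit false

noncomputable section

namespace Fermat.Agent.S15

open ModularCurve AlgebraicCurve WeierstrassCurve WeierstrassCurve.Affine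
open Fermat.Agent.S24 Fermat.Agent.ES.M Fermat.Agent.W1

/-- the frozen statement `S15` -/
def S15Statement : Prop :=
  ∀ {p : ℕ} (_ : p.Prime) (_ : p ∉ ({2, 3, 5, 7, 13} : Finset ℕ))
    (W : WeierstrassCurve ℤ) (_ : W.Δ ≠ 0)
    (Q : ((W.map (Int.castRingHom ℚ))⁄(AlgebraicClosure ℚ)).Point)
    (_ : ∀ σ : AlgebraicClosure ℚ ≃ₐ[ℚ] AlgebraicClosure ℚ, σ • Q = Q)
    (_ : addOrderOf Q = p)
    (_ : (2 : ℤ) ∣ W.Δ) (_ : ¬ (2 : ℤ) ∣ W.c₄)
    (_ : ∀ A : ValuationSubring (AlgebraicClosure ℚ), A.LiesOverPrime 2 →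
      ¬ W.InZeroComponentAt A Q)
    (_ : (3 : ℤ) ∣ W.Δ) (_ : ¬ (3 : ℤ) ∣ W.c₄)
    (_ : ∀ A : ValuationSubring (AlgebraicClosure ℚ), A.LiesOverPrime 3 →
      ¬ W.InZeroComponentAt A Q)
    {ℓ : ℕ} (_ : ℓ.Prime) (_ : ℓ ≠ p) (_ : (ℓ : ℤ) ∣ W.Δ) (_ : ¬ (ℓ : ℤ) ∣ W.c₄)
    (A : ValuationSubring (AlgebraicClosure ℚ)) (_ : A.LiesOverPrime ℓ),
    ¬ W.InZeroComponentAt A Q

/-- a nonzero torsion element has a nonzero multiple of prime order `r`, `r` dividing any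
exponent -/
theorem exists_prime_multiple {J : Type*} [AddCommGroup J] {c : J} (hc : c ≠ 0) {n : ℕ}
    (hn : n ≠ 0) (hnc : n • c = 0) :
    ∃ (r a : ℕ), r.Prime ∧ r ∣ n ∧ a • c ≠ 0 ∧ r • (a • c) = 0 := by
  set d := addOrderOf c with hd
  have hdn : d ∣ n := addOrderOf_dvd_of_nsmul_eq_zero hnc
  have hd0 : d ≠ 0 := fun h => hn (by rw [h] at hdn; exact zero_dvd_iff.1 hdn)
  have hd1 : d ≠ 1 := fun h => hc (AddMonoid.addOrderOf_eq_one_iff.1 h)
  refine ⟨d.minFac, d / d.minFac, Nat.minFac_prime hd1, (Nat.minFac_dvd d).trans hdn, ?_, ?_⟩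
  · intro h
    have h1 : d ∣ d / d.minFac := addOrderOf_dvd_of_nsmul_eq_zero h
    have h2 : d / d.minFac < d :=
      Nat.div_lt_self (Nat.pos_of_ne_zero hd0) (Nat.minFac_prime hd1).one_lt
    have h3 : 0 < d / d.minFac :=
      Nat.div_pos (Nat.minFac_le (Nat.pos_of_ne_zero hd0)) (Nat.minFac_pos d)
    exact absurd (Nat.le_of_dvd h3 h1) (not_le.2 h2)
  · rw [smul_smul, Nat.mul_div_cancel' (Nat.minFac_dvd d)]
    exact addOrderOf_nsmul_eq_zero c

theorem isDiffClass_sub {N : ℕ} [NeZero N] {x : Place Kb (FF N)} {u z : JZero N}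
    (hu : IsDiffClass N x (cuspZero N) u) (hz : IsDiffClass N x (cuspInf N) z) :
    z - u = cuspClass N := by
  obtain ⟨D, hD, rfl⟩ := hu
  obtain ⟨E, hE, rfl⟩ := hz
  have h : E - D = cuspDiv N := by
    apply Subtype.ext
    rw [AddSubgroup.coe_sub, hD, hE, coe_cuspDiv]
    abel
  show Pic0.mk E - Pic0.mk D = Pic0.mk (cuspDiv N)
  rw [← h]
  rfl

/-- existence of the two classes of a place of degree one -/
theorem exists_isDiffClass {N : ℕ} [NeZero N] (x y : Place Kb (FF N)) (h : x.deg = y.deg) :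
    ∃ w : JZero N, IsDiffClass N x y w := by
  refine ⟨Pic0.mk ⟨Finsupp.single x 1 - Finsupp.single y 1, ?_⟩, ⟨_, rfl, rfl⟩⟩
  rw [Divisor.mem_degZero, map_sub, Divisor.degree_single, Divisor.degree_single, h]
  simp

/-- the class `[(x) − (y)]` of two `G_ℚ`-fixed places is `G_ℚ`-fixed -/
theorem isDiffClass_fixed {N : ℕ} [NeZero N] {x y : Place Kb (FF N)} {w : JZero N}
    (hw : IsDiffClass N x y w) (hx : ∀ σ : GalQ, galAct N σ • x = x)
    (hy : ∀ σ : GalQ, galAct N σ • y = y) (σ : GalQ) : σ • w = w := by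
  obtain ⟨D, hD, rfl⟩ := hw
  rw [galois_smul_pic0_def, SemilinearAut.pic0_smul_mk]
  congr 1
  apply Subtype.ext
  rw [SemilinearAut.coe_degZeroSMulHom, hD, smul_sub, SemilinearAut.smul_single,
    SemilinearAut.smul_single]
  change Finsupp.single (galAct N σ • x) 1 - Finsupp.single (galAct N σ • y) 1 = _
  rw [hx σ, hy σ]

/-- the descent for all rational points gives the descent in the form of `Plan.lean` -/
theorem stmtFin_of_all (h : StmtFinAll) : StmtFin := by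
  intro p _ hML r hr _ cr hcr0 hrcr hcr A _ w hw _
  exact h p hML r hr cr hcr0 hrcr hcr w hw

/-- the arithmetic of the case `r = ℓ`: `ℓ ∣ p - 1`, `ℓ` odd, `p ∣ ℓ ± 1` is impossible -/
theorem not_dvd_of_dvd_pred {p ℓ : ℕ} (hp : p.Prime) (hℓ : ℓ.Prime) (hℓ2 : ℓ ≠ 2)
    (h : ℓ ∣ p - 1) : ¬ (p ∣ ℓ - 1 ∨ p ∣ ℓ + 1) := by
  have hp1 : 0 < p - 1 := Nat.sub_pos_of_lt hp.one_lt
  have hle : ℓ ≤ p - 1 := Nat.le_of_dvd hp1 h
  have hℓ1 : 0 < ℓ - 1 := Nat.sub_pos_of_lt hℓ.one_lt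
  rintro (h1 | h1)
  · have := Nat.le_of_dvd hℓ1 h1
    omega
  · have h2 : p ≤ ℓ + 1 := Nat.le_of_dvd (Nat.succ_pos _) h1
    have h3 : ℓ + 1 = p := by omega
    -- `ℓ` odd, so `p = ℓ + 1` is even, hence `p = 2`, `ℓ = 1`
    rcases hℓ.eq_two_or_odd with h4 | h4
    · exact hℓ2 h4
    · have h5 : 2 ∣ p := by omega
      have h6 := (Nat.prime_dvd_prime_iff_eq Nat.prime_two hp).1 h5
      have := hℓ.one_lt
      omega

/-- **S15 from the interface.** -/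
theorem s15_of_inputs (hCusp : StmtCusp) (hMod : StmtMod) (hLoc : StmtLocDiv)
    (hLocN : StmtLocDivN) (hFR : StmtFinRed) (hFin : StmtFin) : S15Statement := by
  intro p hp hp' W hΔ Q hQfix hQord h2Δ h2c₄ h2 h3Δ h3c₄ h3 ℓ hℓ hℓp hℓΔ hℓc₄ A hA hQ0
  have : NeZero p := ⟨hp.ne_zero⟩
  have hML : IsMazurLevel p := ⟨hp, hp'⟩
  -- `ℓ ∉ {2, 3}`
  have hℓ2 : ℓ ≠ 2 := by
    rintro rfl
    exact h2 A hA hQ0
  have hℓ3 : ℓ ≠ 3 := by
    rintro rfl
    exact h3 A hA hQ0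
  have hp2 : p ≠ 2 := fun h => hp' (by rw [h]; decide)
  have hp3 : p ≠ 3 := fun h => hp' (by rw [h]; decide)
  -- the descent prime
  obtain ⟨hc0, hc1⟩ := hCusp p hML
  have hp1 : p - 1 ≠ 0 := Nat.sub_ne_zero_of_lt hp.one_lt
  obtain ⟨r, n, hr, hrdvd, hcr0, hrcr⟩ := exists_prime_multiple hc0 hp1 hc1
  -- `r ≠ ℓ` by EC-loc
  have hrℓ : r ≠ ℓ := by
    rintro rfl
    exact not_dvd_of_dvd_pred hp hℓ hℓ2 hrdvd
      (ecloc_dvd W hp hℓ hℓ2 hℓp hℓΔ hℓc₄ Q hQfix hQord A hA hQ0)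
  -- the rational place
  obtain ⟨x, a, b, hx, hx2, hval⟩ := hMod p hML W hΔ
    ⟨2, Nat.prime_two, by exact_mod_cast h2Δ, by exact_mod_cast h2c₄⟩ Q hQfix hQord
  have hxdeg : x.deg = 1 :=
    Fermat.Agent.ES.R.place_deg_eq_one x (Fermat.Agent.ES.H.residue_bijective_FF p x)
  obtain ⟨u, hu⟩ := exists_isDiffClass x (cuspZero p) (by rw [cuspZero_deg, hxdeg])
  obtain ⟨z, hz⟩ := exists_isDiffClass x (cuspInf p) (by rw [cuspInf_deg, hxdeg])
  have hzu : z - u = cuspClass p := isDiffClass_sub hu hz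
  -- the auxiliary prime `v ∈ {2, 3}`, `v ≠ r`, at which `Q` is not in the identity component
  obtain ⟨v, hv, hvp, hrv, hvΔ, hvc₄, hvQ⟩ : ∃ v : ℕ, v.Prime ∧ v ≠ p ∧ r ≠ v ∧
      (v : ℤ) ∣ W.Δ ∧ ¬ (v : ℤ) ∣ W.c₄ ∧
      ∀ A : ValuationSubring (AlgebraicClosure ℚ), A.LiesOverPrime v →
        ¬ W.InZeroComponentAt A Q := by
    by_cases hr2 : r = 2
    · exact ⟨3, Nat.prime_three, fun h => hp3 h.symm, by omega, by exact_mod_cast h3Δ,
        by exact_mod_cast h3c₄, h3⟩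
    · exact ⟨2, Nat.prime_two, fun h => hp2 h.symm, hr2, by exact_mod_cast h2Δ,
        by exact_mod_cast h2c₄, h2⟩
  obtain ⟨Av, hAv⟩ := Fermat.Agent.Common.exists_liesOverPrime v hv
  -- local divisibility
  obtain ⟨hva, hvc, hvb⟩ := hval v hv hvp hvΔ hvc₄ Av hAv
  have huLoc : LocDivAbs (Av.decompositionSubgroup ℚ) r u :=
    (hLoc p hML v hv hvp r hr hrv Av hAv x a b hx hva hvc).1
      (by_contra fun h => hvQ Av hAv (hvb.2 h)) u hu
  obtain ⟨hℓa, hℓc, hℓb⟩ := hval ℓ hℓ hℓp hℓΔ hℓc₄ A hA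
  have hzLoc : LocDivAbs (A.decompositionSubgroup ℚ) r z :=
    (hLoc p hML ℓ hℓ hℓp r hr hrℓ A hA x a b hx hℓa hℓc).2 (hℓb.1 hQ0) z hz
  -- the descent at the level prime
  have hrp : r ≠ p := by
    intro h
    have := Nat.le_of_dvd (Nat.pos_of_ne_zero hp1) hrdvd
    omega
  obtain ⟨Ap, hAp⟩ := Fermat.Agent.Common.exists_liesOverPrime p hp
  have huN : LocDivAbs (Ap.inertiaSubgroupIn ℚ) r u :=
    hLocN p hML r hr hrp Ap hAp x a b hx hx2 u hu
  have hufix : ∀ σ : GalQ, σ • u = u :=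
    isDiffClass_fixed hu hx.fixed (fun σ => galAct_smul_cuspZero σ)
  -- the glue
  exact glue_abstract (Av.decompositionSubgroup ℚ) (A.decompositionSubgroup ℚ) r u z
    (cuspClass p) (n • cuspClass p) n hzu rfl hcr0 hrcr huLoc hzLoc
    (hFR p hML v hv hvp r hr hrv Av hAv) (hFR p hML ℓ hℓ hℓp r hr hrℓ A hA)
    (Or.inl (hFin p hML r hr hrp (n • cuspClass p) hcr0 hrcr ⟨n, rfl⟩ Ap hAp u hufix huN))

end Fermat.Agent.S15

end
end ZBZ2S15_004_2

/-! ### bundled: `Fermat.Agent.S15.ModXi` -/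
section ZBZ2S15_004_3
/-
Item 15 (Mazur chain), piece `MOD-XI` (helper13): the `ξ°`-criterion on the `E`-side.

`W : WeierstrassCurve ℤ`, `ℓ` a prime of multiplicative reduction (`ℓ ∣ Δ`, `ℓ ∤ c₄`; EVERY `ℓ`, also
`2` and `3`), `A` a valuation subring of `ℚ̄` over `ℓ`.  For a point `P = (x, y)` with integral
coordinates, `ξ°(P) = (c₄ x + b₂ b₄ - 18 b₆) / c₆ ∈ A`, and

  `P` lies in the identity component at `A`  ↔  `ξ°(P)` is a unit of `A`.

Consequently, for a point `Q` of prime order `p ≠ ℓ`, the algebraic Fricke product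
`modPiAlg W Q p 0 = ∏_{k=1}^{p-1} (0 - ξ°(k • Q))` is a unit of `A` iff `Q` lies in the identity
component at `A`.
-/

set_option autoImplicit false
set_option linter.unusedSectionVars false

namespace Fermat.Agent.S15

open WeierstrassCurve WeierstrassCurve.Affine Fermat.Agent.RED Fermat.Agent.S05
  Fermat.Agent.S15.ECL

/-- `ℚ̄` -/
local notation "Qb" => AlgebraicClosure ℚ

/-! ### Generic definitions -/

/-- the `x`-coordinate of a point (junk value `0` at the origin) -/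
def modPtX {R : Type*} [CommRing R] {W : WeierstrassCurve.Affine R} : W.Point → R
  | .zero => 0
  | .some x _ _ => x

@[simp] theorem modPtX_zero {R : Type*} [CommRing R] {W : WeierstrassCurve.Affine R} :
    modPtX (0 : W.Point) = 0 := rfl

@[simp] theorem modPtX_some {R : Type*} [CommRing R] {W : WeierstrassCurve.Affine R} {x y : R}
    (h : W.Nonsingular x y) : modPtX (Point.some x y h) = x := rfl

/-- **The algebraic Fricke product** `Π_t(W, Q) = ∏_{k=1}^{N-1} (t - ξ°(k • Q))`. -/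
noncomputable def modPiAlg {R : Type*} [Field R] [DecidableEq R] (W : WeierstrassCurve R)
    (Q : W.toAffine.Point) (N : ℕ) (t : R) : R :=
  ∏ k ∈ Finset.Ico 1 N, (t - modXi W (modPtX (k • Q)))

theorem modXi_eq_num {R : Type*} [Field R] (W : WeierstrassCurve R) (x : R) :
    modXi W x = modXiNum W x / W.c₆ := rfl

/-- `ξ°` determines `x` (if `c₄ ≠ 0`, `c₆ ≠ 0`) -/
theorem modXi_inj {R : Type*} [Field R] {W : WeierstrassCurve R} (h4 : W.c₄ ≠ 0) (h6 : W.c₆ ≠ 0)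
    {x x' : R} (h : modXi W x = modXi W x') : x = x' := by
  unfold modXi at h
  rw [div_left_inj' h6] at h
  apply mul_left_cancel₀ h4
  linear_combination h

/-! ### The criterion at a multiplicative prime -/

section Local

variable (W : WeierstrassCurve ℤ) {ℓ : ℕ} (A : ValuationSubring Qb)

/-- the numerator of `ξ°` over `ℚ̄`, in terms of the integral invariants -/
theorem modxi_num_Qb (x : Qb) :
    modXiNum ((W.map (Int.castRingHom ℚ)).baseChange Qb) x =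
      ((W.c₄ : ℤ) : Qb) * x + ((W.b₂ : ℤ) : Qb) * ((W.b₄ : ℤ) : Qb) - 18 * ((W.b₆ : ℤ) : Qb) := by
  simp only [modXiNum, WeierstrassCurve.baseChange, WeierstrassCurve.map_c₄,
    WeierstrassCurve.map_b₂, WeierstrassCurve.map_b₄, WeierstrassCurve.map_b₆, eq_intCast,
    map_intCast]

theorem modxi_c₆_Qb :
    ((W.map (Int.castRingHom ℚ)).baseChange Qb).c₆ = ((W.c₆ : ℤ) : Qb) := by
  simp only [WeierstrassCurve.baseChange, WeierstrassCurve.map_c₆, eq_intCast, map_intCast]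

theorem modxi_c₄_Qb :
    ((W.map (Int.castRingHom ℚ)).baseChange Qb).c₄ = ((W.c₄ : ℤ) : Qb) := by
  simp only [WeierstrassCurve.baseChange, WeierstrassCurve.map_c₄, eq_intCast, map_intCast]

/-- at a prime of multiplicative reduction, `ℓ ∤ c₆` -/
theorem modxi_not_dvd_c₆ (hℓ : ℓ.Prime) (hℓΔ : (ℓ : ℤ) ∣ W.Δ) (hℓc₄ : ¬ (ℓ : ℤ) ∣ W.c₄) :
    ¬ (ℓ : ℤ) ∣ W.c₆ := by
  intro h6
  have hp : Prime (ℓ : ℤ) := Nat.prime_iff_prime_int.mp hℓ
  have hrel := W.c_relation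
  have h3 : (ℓ : ℤ) ∣ W.c₄ ^ 3 := by
    have : W.c₄ ^ 3 = 1728 * W.Δ + W.c₆ ^ 2 := by linear_combination -hrel
    rw [this]
    exact dvd_add (Dvd.dvd.mul_left hℓΔ _) (Dvd.dvd.pow h6 two_ne_zero)
  exact hℓc₄ (hp.dvd_of_dvd_pow h3)

variable {W A}

/-- the residue of an element of `A` vanishes iff the element is a nonunit -/
theorem modxi_residue_eq_zero_iff (a : A) :
    IsLocalRing.residue A a = 0 ↔ (a : Qb) ∈ A.nonunits := by
  rw [IsLocalRing.residue_eq_zero_iff, ValuationSubring.coe_mem_nonunits_iff]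

/-- an integer vanishes in the residue field iff `ℓ` divides it -/
theorem modxi_res_int (hℓ : ℓ.Prime) (hA : A.LiesOverPrime ℓ) (n : ℤ) :
    ((n : ℤ) : IsLocalRing.ResidueField A) = 0 ↔ (ℓ : ℤ) ∣ n := by
  have h1 : ((n : ℤ) : IsLocalRing.ResidueField A) = IsLocalRing.residue A (n : A) := by
    rw [map_intCast]
  rw [h1, modxi_residue_eq_zero_iff, ← intCast_mem_nonunits_iff A hℓ hA n]
  simp

/-- the reduced curve is singular -/
theorem modxi_res_Δ (hℓ : ℓ.Prime) (hA : A.LiesOverPrime ℓ) (hℓΔ : (ℓ : ℤ) ∣ W.Δ) :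
    (W.map (Int.castRingHom (IsLocalRing.ResidueField A))).Δ = 0 := by
  rw [WeierstrassCurve.map_Δ, eq_intCast]
  exact (modxi_res_int hℓ hA _).2 hℓΔ

/-- the reduced curve has `c₄ ≠ 0` -/
theorem modxi_res_c₄ (hℓ : ℓ.Prime) (hA : A.LiesOverPrime ℓ) (hℓc₄ : ¬ (ℓ : ℤ) ∣ W.c₄) :
    (W.map (Int.castRingHom (IsLocalRing.ResidueField A))).c₄ ≠ 0 := by
  rw [WeierstrassCurve.map_c₄, eq_intCast]
  exact fun h => hℓc₄ ((modxi_res_int hℓ hA _).1 h)

/-- the numerator of `ξ°` as an element of `A` -/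
noncomputable def modXiNumA (W : WeierstrassCurve ℤ) (A : ValuationSubring Qb) (a : A) : A :=
  modXiNum (modelA W A) a

theorem modXiNumA_coe (a : A) :
    ((modXiNumA W A a : A) : Qb) =
      modXiNum ((W.map (Int.castRingHom ℚ)).baseChange Qb) (a : Qb) := by
  rw [modxi_num_Qb]
  simp only [modXiNumA, modXiNum, WeierstrassCurve.map_c₄, WeierstrassCurve.map_b₂,
    WeierstrassCurve.map_b₄, WeierstrassCurve.map_b₆, eq_intCast]
  push_cast
  rfl

theorem modXiNumA_res (a : A) :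
    IsLocalRing.residue A (modXiNumA W A a) =
      modXiNum (W.map (Int.castRingHom (IsLocalRing.ResidueField A)))
        (IsLocalRing.residue A a) := by
  have h := modXiNum_map (modelA W A) (IsLocalRing.residue A) a
  rw [← ecloc_curveRes_eq]
  exact h.symm

theorem modxi_num_val_le {x : Qb} (hx : x ∈ A) :
    A.valuation (modXiNum ((W.map (Int.castRingHom ℚ)).baseChange Qb) x) ≤ 1 := by
  have h := modXiNumA_coe (W := W) (A := A) ⟨x, hx⟩
  rw [A.valuation_le_one_iff]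
  have h2 : modXiNum ((W.map (Int.castRingHom ℚ)).baseChange Qb) x =
      ((modXiNumA W A ⟨x, hx⟩ : A) : Qb) := h.symm
  rw [h2]
  exact (modXiNumA W A ⟨x, hx⟩).2

/-- **MOD-XI, numerator form.**  At a prime of multiplicative reduction, an integral point lies in
the identity component iff `c₄ x + b₂ b₄ - 18 b₆` is a unit. -/
theorem modxi_inZero_iff_num (hℓ : ℓ.Prime) (hA : A.LiesOverPrime ℓ) (hℓΔ : (ℓ : ℤ) ∣ W.Δ)
    (hℓc₄ : ¬ (ℓ : ℤ) ∣ W.c₄) {x y : Qb}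
    (h : ((W.map (Int.castRingHom ℚ))⁄Qb).Nonsingular x y) (hx : x ∈ A) :
    W.InZeroComponentAt A (Point.some x y h) ↔
      A.valuation (modXiNum ((W.map (Int.castRingHom ℚ)).baseChange Qb) x) = 1 := by
  have h' : (curveK A (modelA W A)).toAffine.Nonsingular x y := (baseChange_eq_curveK W A) ▸ h
  have hy : y ∈ A := y_mem_of_x_mem A (modelA W A) h'.1 hx
  have heq : (W.map (Int.castRingHom (IsLocalRing.ResidueField A))).toAffine.Equation
      (IsLocalRing.residue A ⟨x, hx⟩) (IsLocalRing.residue A ⟨y, hy⟩) := by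
    have h1 := (equation_of_coe A (modelA W A) (a := ⟨x, hx⟩) (b := ⟨y, hy⟩) h'.1).map
      (IsLocalRing.residue A)
    rw [← ecloc_curveRes_eq]
    exact h1
  have key := modxi_nonsingular_iff (modxi_res_Δ hℓ hA hℓΔ) (modxi_res_c₄ hℓ hA hℓc₄) heq
  have hval : A.valuation (modXiNum ((W.map (Int.castRingHom ℚ)).baseChange Qb) x) = 1 ↔
      modXiNum (W.map (Int.castRingHom (IsLocalRing.ResidueField A)))
        (IsLocalRing.residue A ⟨x, hx⟩) ≠ 0 := by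
    rw [← modXiNumA_res, Ne, modxi_residue_eq_zero_iff, modXiNumA_coe,
      ValuationSubring.mem_nonunits_iff, not_lt]
    exact ⟨fun h => h.ge, fun h => le_antisymm (modxi_num_val_le hx) h⟩
  rw [hval, ← key]
  constructor
  · rintro (h0 | ⟨x', y', h'', he, hh⟩)
    · exact absurd h0 (Point.some_ne_zero _)
    · obtain ⟨rfl, rfl⟩ : x = x' ∧ y = y' := by
        have := Point.some.inj he
        exact ⟨this.1, this.2⟩
      rcases hh with hx' | ⟨_, _, hns⟩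
      · exact absurd hx hx'
      · exact hns
  · intro hns
    exact Or.inr ⟨x, y, h, rfl, Or.inr ⟨hx, hy, hns⟩⟩

/-- `c₆` is a unit at a prime of multiplicative reduction -/
theorem modxi_val_c₆ (hℓ : ℓ.Prime) (hA : A.LiesOverPrime ℓ) (hℓΔ : (ℓ : ℤ) ∣ W.Δ)
    (hℓc₄ : ¬ (ℓ : ℤ) ∣ W.c₄) :
    A.valuation ((W.map (Int.castRingHom ℚ)).baseChange Qb).c₆ = 1 := by
  rw [modxi_c₆_Qb]
  exact (valuation_intCast_eq_one_iff A hℓ hA _).2 (modxi_not_dvd_c₆ W hℓ hℓΔ hℓc₄)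

/-- the valuation of `ξ°` is the valuation of its numerator -/
theorem modxi_val_eq (hℓ : ℓ.Prime) (hA : A.LiesOverPrime ℓ) (hℓΔ : (ℓ : ℤ) ∣ W.Δ)
    (hℓc₄ : ¬ (ℓ : ℤ) ∣ W.c₄) (x : Qb) :
    A.valuation (modXi ((W.map (Int.castRingHom ℚ)).baseChange Qb) x) =
      A.valuation (modXiNum ((W.map (Int.castRingHom ℚ)).baseChange Qb) x) := by
  rw [modXi_eq_num, map_div₀, modxi_val_c₆ hℓ hA hℓΔ hℓc₄, div_one]

/-- `ξ°` of an integral point is integral -/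
theorem modxi_val_le (hℓ : ℓ.Prime) (hA : A.LiesOverPrime ℓ) (hℓΔ : (ℓ : ℤ) ∣ W.Δ)
    (hℓc₄ : ¬ (ℓ : ℤ) ∣ W.c₄) {x : Qb} (hx : x ∈ A) :
    A.valuation (modXi ((W.map (Int.castRingHom ℚ)).baseChange Qb) x) ≤ 1 := by
  rw [modxi_val_eq hℓ hA hℓΔ hℓc₄]
  exact modxi_num_val_le hx

/-- **MOD-XI.**  At a prime `ℓ` of multiplicative reduction (every `ℓ`, also `2` and `3`), an
integral point `P = (x, y)` lies in the identity component at `A ∣ ℓ` iff `ξ°(P)` is a unit of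
`A`. -/
theorem modxi_inZero_iff (hℓ : ℓ.Prime) (hA : A.LiesOverPrime ℓ) (hℓΔ : (ℓ : ℤ) ∣ W.Δ)
    (hℓc₄ : ¬ (ℓ : ℤ) ∣ W.c₄) {x y : Qb}
    (h : ((W.map (Int.castRingHom ℚ))⁄Qb).Nonsingular x y) (hx : x ∈ A) :
    W.InZeroComponentAt A (Point.some x y h) ↔
      A.valuation (modXi ((W.map (Int.castRingHom ℚ)).baseChange Qb) x) = 1 := by
  rw [modxi_val_eq hℓ hA hℓΔ hℓc₄]
  exact modxi_inZero_iff_num hℓ hA hℓΔ hℓc₄ h hx

/-- a torsion point of order prime to `ℓ` has an integral `x`-coordinate (any integral model) -/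
theorem modxi_mem_of_torsion (hℓ : ℓ.Prime) (hA : A.LiesOverPrime ℓ) {n : ℕ} (hn : ¬ ℓ ∣ n)
    {x y : Qb} (h : ((W.map (Int.castRingHom ℚ))⁄Qb).Nonsingular x y)
    (htors : n • (Point.some x y h : ((W.map (Int.castRingHom ℚ))⁄Qb).Point) = 0) : x ∈ A := by
  have h' : (curveK A (modelA W A)).toAffine.Nonsingular x y := (baseChange_eq_curveK W A) ▸ h
  have hnA : (n : Qb) ∉ A.nonunits := fun hmem => hn ((natCast_mem_nonunits_iff A hℓ hA n).1 hmem)
  have h2 : n • (Point.some x y h' : (curveK A (modelA W A)).toAffine.Point) = 0 := by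
    have h3 := congrArg (pointCongr (baseChange_eq_curveK W A)) htors
    rw [map_nsmul, pointCongr_some, map_zero] at h3
    exact h3
  exact no_torsion_of_not_mem A (curveK A (modelA W A)) (curveK_a₁_mem A _) (curveK_a₂_mem A _)
    (curveK_a₃_mem A _) (curveK_a₄_mem A _) (curveK_a₆_mem A _) n hnA h' h2

end Local

/-! ### The algebraic Fricke product -/

section Product

variable {W : WeierstrassCurve ℤ} {ℓ p : ℕ} {A : ValuationSubring Qb}

/-- for `Q` of prime order `p` and `1 ≤ k < p`, `k • Q` is an affine point killed by `p` -/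
theorem modpi_exists_some (Q : ((W.map (Int.castRingHom ℚ))⁄Qb).Point)
    (hQ : addOrderOf Q = p) {k : ℕ} (hk : k ∈ Finset.Ico 1 p) :
    ∃ (x y : Qb) (h : ((W.map (Int.castRingHom ℚ))⁄Qb).Nonsingular x y),
      k • Q = Point.some x y h ∧
        p • (Point.some x y h : ((W.map (Int.castRingHom ℚ))⁄Qb).Point) = 0 := by
  rw [Finset.mem_Ico] at hk
  have hne : k • Q ≠ 0 := by
    intro h0
    have h1 := addOrderOf_dvd_of_nsmul_eq_zero h0
    rw [hQ] at h1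
    exact absurd (Nat.le_of_dvd (by omega) h1) (by omega)
  have hpk : p • (k • Q) = 0 := by
    rw [smul_comm, ← hQ, addOrderOf_nsmul_eq_zero, smul_zero]
  rcases hkQ : k • Q with _ | ⟨x, y, h⟩
  · exact absurd hkQ hne
  · refine ⟨x, y, h, rfl, ?_⟩
    rw [← hkQ]
    exact hpk

/-- the identity component is stable under multiples -/
theorem modpi_inZero_nsmul {Q : ((W.map (Int.castRingHom ℚ))⁄Qb).Point}
    (hQ0 : W.InZeroComponentAt A Q) (k : ℕ) : W.InZeroComponentAt A (k • Q) := by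
  classical
  rw [← ecloc_inE0_iff] at hQ0 ⊢
  rw [map_nsmul]
  exact (E0 A (modelA W A)).nsmul_mem hQ0 k

/-- each factor of the Fricke product is integral -/
theorem modpi_factor_val_le (hp : p.Prime) (hℓ : ℓ.Prime) (hℓp : ℓ ≠ p) (hA : A.LiesOverPrime ℓ)
    (hℓΔ : (ℓ : ℤ) ∣ W.Δ) (hℓc₄ : ¬ (ℓ : ℤ) ∣ W.c₄)
    (Q : ((W.map (Int.castRingHom ℚ))⁄Qb).Point) (hQ : addOrderOf Q = p) {k : ℕ}
    (hk : k ∈ Finset.Ico 1 p) :
    A.valuation (modXi ((W.map (Int.castRingHom ℚ)).baseChange Qb) (modPtX (k • Q))) ≤ 1 := by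
  obtain ⟨x, y, h, hkQ, htors⟩ := modpi_exists_some Q hQ hk
  have hnd : ¬ ℓ ∣ p := fun hd => hℓp ((Nat.prime_dvd_prime_iff_eq hℓ hp).1 hd)
  have hx : x ∈ A := modxi_mem_of_torsion hℓ hA hnd h htors
  rw [hkQ, modPtX_some]
  exact modxi_val_le hℓ hA hℓΔ hℓc₄ hx

/-- a factor of the Fricke product is a unit iff the point lies in the identity component -/
theorem modpi_factor_val_eq_one_iff (hp : p.Prime) (hℓ : ℓ.Prime) (hℓp : ℓ ≠ p)
    (hA : A.LiesOverPrime ℓ) (hℓΔ : (ℓ : ℤ) ∣ W.Δ) (hℓc₄ : ¬ (ℓ : ℤ) ∣ W.c₄)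
    (Q : ((W.map (Int.castRingHom ℚ))⁄Qb).Point) (hQ : addOrderOf Q = p) {k : ℕ}
    (hk : k ∈ Finset.Ico 1 p) :
    A.valuation (modXi ((W.map (Int.castRingHom ℚ)).baseChange Qb) (modPtX (k • Q))) = 1 ↔
      W.InZeroComponentAt A (k • Q) := by
  obtain ⟨x, y, h, hkQ, htors⟩ := modpi_exists_some Q hQ hk
  have hnd : ¬ ℓ ∣ p := fun hd => hℓp ((Nat.prime_dvd_prime_iff_eq hℓ hp).1 hd)
  have hx : x ∈ A := modxi_mem_of_torsion hℓ hA hnd h htors
  rw [hkQ, modPtX_some]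
  exact (modxi_inZero_iff hℓ hA hℓΔ hℓc₄ h hx).symm

/-- the Fricke product at an integral `t` is integral -/
theorem modpi_val_le (hp : p.Prime) (hℓ : ℓ.Prime) (hℓp : ℓ ≠ p) (hA : A.LiesOverPrime ℓ)
    (hℓΔ : (ℓ : ℤ) ∣ W.Δ) (hℓc₄ : ¬ (ℓ : ℤ) ∣ W.c₄)
    (Q : ((W.map (Int.castRingHom ℚ))⁄Qb).Point) (hQ : addOrderOf Q = p) {t : Qb} (ht : t ∈ A) :
    A.valuation (modPiAlg ((W.map (Int.castRingHom ℚ)).baseChange Qb) Q p t) ≤ 1 := by
  unfold modPiAlg
  rw [map_prod]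
  refine Finset.prod_le_one' fun k hk => ?_
  exact A.valuation.map_sub_le ((A.valuation_le_one_iff _).2 ht)
    (modpi_factor_val_le hp hℓ hℓp hA hℓΔ hℓc₄ Q hQ hk)

/-- **MOD-XI for the Fricke product.**  `Π₀(W, Q)` is a unit at `A ∣ ℓ` iff `Q` lies in the identity
component at `A`. -/
theorem modpi_val_eq_one_iff (hp : p.Prime) (hℓ : ℓ.Prime) (hℓp : ℓ ≠ p) (hA : A.LiesOverPrime ℓ)
    (hℓΔ : (ℓ : ℤ) ∣ W.Δ) (hℓc₄ : ¬ (ℓ : ℤ) ∣ W.c₄)
    (Q : ((W.map (Int.castRingHom ℚ))⁄Qb).Point) (hQ : addOrderOf Q = p) :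
    A.valuation (modPiAlg ((W.map (Int.castRingHom ℚ)).baseChange Qb) Q p 0) = 1 ↔
      W.InZeroComponentAt A Q := by
  have hval : A.valuation (modPiAlg ((W.map (Int.castRingHom ℚ)).baseChange Qb) Q p 0) =
      ∏ k ∈ Finset.Ico 1 p,
        A.valuation (modXi ((W.map (Int.castRingHom ℚ)).baseChange Qb) (modPtX (k • Q))) := by
    unfold modPiAlg
    rw [map_prod]
    refine Finset.prod_congr rfl fun k _ => ?_
    rw [zero_sub, Valuation.map_neg]
  rw [hval]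
  have h1 : 1 ∈ Finset.Ico 1 p := Finset.mem_Ico.2 ⟨le_rfl, hp.one_lt⟩
  constructor
  · intro hprod
    by_contra hQ0
    have hlt : A.valuation (modXi ((W.map (Int.castRingHom ℚ)).baseChange Qb)
        (modPtX ((1 : ℕ) • Q))) < 1 := by
      refine lt_of_le_of_ne (modpi_factor_val_le hp hℓ hℓp hA hℓΔ hℓc₄ Q hQ h1) ?_
      intro h2
      have h3 := (modpi_factor_val_eq_one_iff hp hℓ hℓp hA hℓΔ hℓc₄ Q hQ h1).1 h2
      rw [one_nsmul] at h3
      exact hQ0 h3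
    have h4 : ∏ k ∈ Finset.Ico 1 p,
        A.valuation (modXi ((W.map (Int.castRingHom ℚ)).baseChange Qb) (modPtX (k • Q))) < 1 := by
      rw [← Finset.mul_prod_erase _ _ h1]
      calc _ ≤ A.valuation (modXi ((W.map (Int.castRingHom ℚ)).baseChange Qb)
            (modPtX ((1 : ℕ) • Q))) * 1 := by
            refine mul_le_mul' le_rfl (Finset.prod_le_one' fun k hk => ?_)
            exact modpi_factor_val_le hp hℓ hℓp hA hℓΔ hℓc₄ Q hQ (Finset.mem_of_mem_erase hk)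
        _ < 1 := by rw [mul_one]; exact hlt
    rw [hprod] at h4
    exact lt_irrefl _ h4
  · intro hQ0
    refine Finset.prod_eq_one fun k hk => ?_
    exact (modpi_factor_val_eq_one_iff hp hℓ hℓp hA hℓΔ hℓc₄ Q hQ hk).2
      (modpi_inZero_nsmul hQ0 k)

/-- `Π₀(W, Q)` is a nonunit at `A ∣ ℓ` iff `Q` does not lie in the identity component at `A` -/
theorem modpi_val_lt_one_iff (hp : p.Prime) (hℓ : ℓ.Prime) (hℓp : ℓ ≠ p) (hA : A.LiesOverPrime ℓ)
    (hℓΔ : (ℓ : ℤ) ∣ W.Δ) (hℓc₄ : ¬ (ℓ : ℤ) ∣ W.c₄)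
    (Q : ((W.map (Int.castRingHom ℚ))⁄Qb).Point) (hQ : addOrderOf Q = p) :
    A.valuation (modPiAlg ((W.map (Int.castRingHom ℚ)).baseChange Qb) Q p 0) < 1 ↔
      ¬ W.InZeroComponentAt A Q := by
  rw [← modpi_val_eq_one_iff hp hℓ hℓp hA hℓΔ hℓc₄ Q hQ]
  have hle := modpi_val_le hp hℓ hℓp hA hℓΔ hℓc₄ Q hQ (t := 0) (zero_mem _)
  exact ⟨fun h => h.ne, fun h => lt_of_le_of_ne hle h⟩

/-- `ξ°` of a rational number is rational -/
theorem modxi_rat (W : WeierstrassCurve ℤ) (r : ℚ) :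
    modXi ((W.map (Int.castRingHom ℚ)).baseChange Qb) (algebraMap ℚ Qb r) ∈
      (algebraMap ℚ Qb).fieldRange := by
  rw [modXi_eq_num, modxi_num_Qb, modxi_c₆_Qb]
  refine div_mem (sub_mem (add_mem (mul_mem (intCast_mem _ _) ⟨r, rfl⟩)
    (mul_mem (intCast_mem _ _) (intCast_mem _ _))) (mul_mem ?_ (intCast_mem _ _)))
    (intCast_mem _ _)
  exact ofNat_mem _ 18

/-- the `x`-coordinates of the multiples of a `G_ℚ`-fixed point are rational -/
theorem modpi_ptX_rat (Q : ((W.map (Int.castRingHom ℚ))⁄Qb).Point)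
    (hQfix : ∀ σ : Qb ≃ₐ[ℚ] Qb, σ • Q = Q) (k : ℕ) :
    ∃ r : ℚ, algebraMap ℚ Qb r = modPtX (k • Q) := by
  rcases hkQ : k • Q with _ | ⟨x, y, h⟩
  · exact ⟨0, by simp [modPtX]⟩
  · have hfix : ∀ σ : Qb ≃ₐ[ℚ] Qb,
        σ • (Point.some x y h : ((W.map (Int.castRingHom ℚ))⁄Qb).Point) = Point.some x y h := by
      intro σ
      have h1 : σ • (k • Q) = k • (σ • Q) :=
        map_nsmul (DistribSMul.toAddMonoidHom
          ((W.map (Int.castRingHom ℚ))⁄Qb).Point σ) k Q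
      rw [← hkQ, h1, hQfix σ]
    obtain ⟨rx, ry, hrx, -⟩ := ecloc_rat_of_fixed W h hfix
    exact ⟨rx, hrx⟩

/-- **Rationality of the Fricke product**: for a `G_ℚ`-fixed point `Q` and rational `t`,
`Π_t(W, Q) ∈ ℚ`. -/
theorem modpi_rat (Q : ((W.map (Int.castRingHom ℚ))⁄Qb).Point)
    (hQfix : ∀ σ : Qb ≃ₐ[ℚ] Qb, σ • Q = Q) (N : ℕ) (t : ℚ) :
    ∃ r : ℚ, algebraMap ℚ Qb r =
      modPiAlg ((W.map (Int.castRingHom ℚ)).baseChange Qb) Q N (algebraMap ℚ Qb t) := by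
  have hmem : modPiAlg ((W.map (Int.castRingHom ℚ)).baseChange Qb) Q N (algebraMap ℚ Qb t) ∈
      (algebraMap ℚ Qb).fieldRange := by
    unfold modPiAlg
    refine prod_mem fun k _ => sub_mem ⟨t, rfl⟩ ?_
    obtain ⟨r, hr⟩ := modpi_ptX_rat Q hQfix k
    rw [← hr]
    exact modxi_rat W r
  exact hmem

end Product

end Fermat.Agent.S15


end ZBZ2S15_004_3

/-! ### bundled: `Fermat.Agent.S15.N3Plan` -/
section ZBZ2S15_004_4

/-!
# S15 / block N3 — the certificate `IsTypeTwo` at the level prime (captain helper51)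

Design: `NOTES/S15-N3.md` (helper17), piece table: `NOTES/S15-N3plan.md`.

`N = p` the level, `x` the place of `F_N` at `τ₀`, `(ℂ/(ℤτ₀ + ℤ), 1/N) ≅ (E, Q)`,
`u = oggU N = Δ(q^N)/Δ(q)`, `g = N¹² u`.

* `n3Psi W x = 4x³ + b₂x² + 2b₄x + b₆ = (2y + a₁x + a₃)²` on the curve.
* `N3Rel N τ d` : `d · N¹² · ∏_{k=1}^{N-1} ℘'(k/N; τ)⁴ = Δ(ℤτ + ℤ)^{N-1}`; it characterises
  `d = u(τ) = Δ(Nτ)/Δ(τ)` (product formula `N¹² Δ(Nτ) ∏ ℘'(k/N)⁴ = Δ(τ)^N`).
* `N3Dich p a d` : the dichotomy of the curve side,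
  `v(g) ≤ (p-1)V⁺` or `(p-1)V⁺ + 2(p-1) ≤ v(g)`, `v(g) = v_p(d) + 12`, `V⁺ = max(0, -v_p(a))`.

Pieces:
* `StmtN3F`   (N3-F, analytic + place): `N3Rel N τ₀ (embC d)` ⇒ `u` has the value `d` at the
              place at `τ₀`.
* `StmtN3Eq`  (N3-EQ, modular equation of `g` over `ℤ[j]` + Newton polygon).
* `StmtN3EC`  (N3-EC, elementary valuations on the curve).
* `StmtModAsmE2`, `StmtModAsmP2` : the two halves of MOD-ASM, extended by `d`.
* `stmtMod_of_n3` : the assembly, proving `Plan.StmtMod` (v2).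
-/

set_option autoImplicit false
set_option linter.unusedSectionVars false
set_option synthInstance.maxHeartbeats 400000

noncomputable section

namespace Fermat.Agent.S15

open UpperHalfPlane AlgebraicCurve ModularCurve PeriodPair
open Fermat.Agent.S24 Fermat.Agent.S28 Fermat.Agent.W1 Fermat.Agent.ES.M
open scoped MatrixGroups WeierstrassCurve.Affine

/-- `ψ₂² = 4x³ + b₂x² + 2b₄x + b₆`; on the curve it is `(2y + a₁x + a₃)²`. -/
def n3Psi {R : Type*} [CommRing R] (W : WeierstrassCurve R) (x : R) : R :=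
  4 * x ^ 3 + W.b₂ * x ^ 2 + 2 * W.b₄ * x + W.b₆

/-- the discriminant `g₂³ - 27 g₃²` of a lattice -/
def n3Disc (L : PeriodPair) : ℂ := L.g₂ ^ 3 - 27 * L.g₃ ^ 2

/-- `d · N¹² · ∏_{k=1}^{N-1} ℘'(k/N; τ)⁴ = Δ(ℤτ + ℤ)^{N-1}`: the relation which characterises
`d = Δ(Nτ)/Δ(τ)`. -/
def N3Rel (N : ℕ) (τ : ℍ) (d : ℂ) : Prop :=
  d * (N : ℂ) ^ 12 * ∏ k ∈ Finset.Ico 1 N, (℘'[modLat τ] ((k : ℂ) / (N : ℂ))) ^ 4 =
    n3Disc (modLat τ) ^ (N - 1)

/-- the algebraic twin of `N3Rel`: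
`d · N¹² · ∏_{k=1}^{N-1} ψ₂²(x(kQ))² = Δ(W)^{N-1}` -/
def N3RelAlg (N : ℕ) (W : WeierstrassCurve ℤ)
    (Q : ((W.map (Int.castRingHom ℚ))⁄(AlgebraicClosure ℚ)).Point) (d : ℚ) : Prop :=
  algebraMap ℚ Kb d * (N : Kb) ^ 12 *
      ∏ k ∈ Finset.Ico 1 N,
        (n3Psi ((W.map (Int.castRingHom ℚ)).baseChange Kb) (modPtX (k • Q))) ^ 2 =
    ((W.Δ : ℤ) : Kb) ^ (N - 1)

/-- the dichotomy of the curve side: with `v = v_p`, `g = p¹² d`, `V⁺ = max(0, -v(a))`:
`v(g) ≤ (p-1)V⁺` (no multiple of `Q` in the kernel of reduction) or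
`(p-1)V⁺ + 2(p-1) ≤ v(g)` (all of them). -/
def N3Dich (p : ℕ) (a d : ℚ) : Prop :=
  padicValRat p d + 12 ≤ ((p : ℤ) - 1) * max 0 (-padicValRat p a) ∨
    ((p : ℤ) - 1) * max 0 (-padicValRat p a) + 2 * ((p : ℤ) - 1) ≤ padicValRat p d + 12

/-- **N3-F** (analytic + place): if `d · N¹² ∏ ℘'(k/N; τ₀)⁴ = Δ(τ₀)^{N-1}` then the modular
unit `u_N` has the value `d` at the place at `τ₀`.
(Product formula `N¹² Δ(Nτ) ∏_k ℘'(k/N; τ)⁴ = Δ(τ)^N`, then `IsPlaceAt`.) -/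
def StmtN3F : Prop :=
  ∀ (N : ℕ) [NeZero N], N.Prime → 5 ≤ N → ∀ (τ₀ : ℍ) (j₀ : Kb), Jfun τ₀ = embC j₀ →
    (modLat τ₀).g₃ ≠ 0 →
    ∀ x : Place Kb (FF N), IsPlaceAt N τ₀ x → ∀ d : Kb, N3Rel N τ₀ (embC d) →
      HasValueAt x (oggU N) d

/-- **N3-EQ** (modular equation of `g = N¹² u_N` over `ℤ[j]` + Newton polygon at `N`):
`(MB)` `v(j) ≥ 0 ⇒ v(g) ≤ 12`; `(DICH)` `v(j) = -V < 0 ⇒ v(g) = 12 + (N-1)V` or
`v(g) = -(N-1)V/N`. -/
def StmtN3Eq : Prop :=
  ∀ (N : ℕ) [NeZero N], N.Prime → ∀ (P : Place Kb (FF N)) (a d : ℚ), d ≠ 0 →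
    HasValueAt P (jF N) (algebraMap ℚ Kb a) → HasValueAt P (oggU N) (algebraMap ℚ Kb d) →
    (0 ≤ padicValRat N a → padicValRat N d ≤ 0) ∧
    (padicValRat N a < 0 →
      padicValRat N d = -(((N : ℤ) - 1) * padicValRat N a) ∨
        (N : ℤ) * (padicValRat N d + 12) = ((N : ℤ) - 1) * padicValRat N a)

/-- **N3-EC** (elementary valuations on the curve, `NOTES/S15-N3.md` (EC), with N3-SUB). -/
def StmtN3EC : Prop :=
  ∀ (p : ℕ), p.Prime → 5 ≤ p → ∀ (W : WeierstrassCurve ℤ), W.Δ ≠ 0 →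
    ∀ Q : ((W.map (Int.castRingHom ℚ))⁄(AlgebraicClosure ℚ)).Point,
      (∀ σ : AlgebraicClosure ℚ ≃ₐ[ℚ] AlgebraicClosure ℚ, σ • Q = Q) → addOrderOf Q = p →
      ∀ d : ℚ, N3RelAlg p W Q d → N3Dich p ((W.c₄ : ℚ) ^ 3 / (W.Δ : ℚ)) d

/-- **MOD-ASM-P2** (place side): `StmtModAsmP` with the value of `u_N`. -/
def StmtModAsmP2 : Prop :=
  ∀ (N : ℕ) [NeZero N], N.Prime → 5 ≤ N → ∀ (τ₀ : ℍ) (a : ℚ) (c : ℤ → ℚ) (d : ℚ),
    Jfun τ₀ = embC (algebraMap ℚ Kb a) →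
    (∀ γ : SL(2, ℤ), (modLat (γ • τ₀)).g₃ ≠ 0) →
    (∀ t : ℤ, modPiAn N (t : ℂ) τ₀ = embC (algebraMap ℚ Kb (c t))) →
    (∀ γ : SL(2, ℤ), (∀ t : ℤ, modPiAn N (t : ℂ) (γ • τ₀) = modPiAn N (t : ℂ) τ₀) →
      γ ∈ CongruenceSubgroup.Gamma0 N) →
    N3Rel N τ₀ (embC (algebraMap ℚ Kb d)) →
    ∃ x : Place Kb (FF N), IsRatPlace N x a (c 0) ∧
      HasValueAt x (oggU N) (algebraMap ℚ Kb d)

/-- **MOD-ASM-E2** (curve side): `StmtModAsmE` with the value `d` of `u_N` at `τ₀` and the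
dichotomy of the curve side at the level prime. -/
def StmtModAsmE2 : Prop :=
  ∀ (p : ℕ), p.Prime → 5 ≤ p → ∀ (W : WeierstrassCurve ℤ), W.Δ ≠ 0 →
    (∃ ℓ : ℕ, ℓ.Prime ∧ (ℓ : ℤ) ∣ W.Δ ∧ ¬ (ℓ : ℤ) ∣ W.c₄) →
    ∀ Q : ((W.map (Int.castRingHom ℚ))⁄(AlgebraicClosure ℚ)).Point,
      (∀ σ : AlgebraicClosure ℚ ≃ₐ[ℚ] AlgebraicClosure ℚ, σ • Q = Q) → addOrderOf Q = p →
      ∃ (τ₀ : ℍ) (a : ℚ) (c : ℤ → ℚ) (d : ℚ),
        Jfun τ₀ = embC (algebraMap ℚ Kb a) ∧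
        (∀ γ : SL(2, ℤ), (modLat (γ • τ₀)).g₃ ≠ 0) ∧
        (∀ t : ℤ, modPiAn p (t : ℂ) τ₀ = embC (algebraMap ℚ Kb (c t))) ∧
        (∀ γ : SL(2, ℤ), (∀ t : ℤ, modPiAn p (t : ℂ) (γ • τ₀) = modPiAn p (t : ℂ) τ₀) →
          γ ∈ CongruenceSubgroup.Gamma0 p) ∧
        (∀ v : ℕ, v.Prime → v ≠ p → (v : ℤ) ∣ W.Δ → ¬ (v : ℤ) ∣ W.c₄ →
          ∀ A : ValuationSubring (AlgebraicClosure ℚ), A.LiesOverPrime v →
            algebraMap ℚ Kb a ∉ A ∧ algebraMap ℚ Kb (c 0) ∈ A ∧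
              (W.InZeroComponentAt A Q ↔ algebraMap ℚ Kb (c 0) ∉ A.nonunits)) ∧
        d ≠ 0 ∧ N3Rel p τ₀ (embC (algebraMap ℚ Kb d)) ∧ N3Dich p a d

theorem n3_eleven_le {p : ℕ} (hp : IsMazurLevel p) : 11 ≤ p := by
  obtain ⟨hp1, hp2⟩ := hp
  have h2 := hp1.two_le
  by_contra h
  have : p = 2 ∨ p = 3 ∨ p = 4 ∨ p = 5 ∨ p = 6 ∨ p = 7 ∨ p = 8 ∨ p = 9 ∨ p = 10 := by omega
  rcases this with rfl | rfl | rfl | rfl | rfl | rfl | rfl | rfl | rfl
  · exact hp2 (by decide)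
  · exact hp2 (by decide)
  · exact absurd hp1 (by decide)
  · exact hp2 (by decide)
  · exact absurd hp1 (by decide)
  · exact hp2 (by decide)
  · exact absurd hp1 (by decide)
  · exact absurd hp1 (by decide)
  · exact absurd hp1 (by decide)

/-- the arithmetic of N3: `(MB)/(DICH)` and the dichotomy of the curve side give
`v_p(d) ≤ -12`. -/
theorem n3_arith {p : ℕ} (hp : 11 ≤ p) {a d : ℚ}
    (hMB : 0 ≤ padicValRat p a → padicValRat p d ≤ 0)
    (hDI : padicValRat p a < 0 →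
      padicValRat p d = -(((p : ℤ) - 1) * padicValRat p a) ∨
        (p : ℤ) * (padicValRat p d + 12) = ((p : ℤ) - 1) * padicValRat p a)
    (hEC : N3Dich p a d) : padicValRat p d ≤ -12 := by
  have hp' : (11 : ℤ) ≤ (p : ℤ) := by exact_mod_cast hp
  unfold N3Dich at hEC
  generalize padicValRat p a = va at *
  generalize padicValRat p d = vd at *
  rcases le_or_gt 0 va with h0 | h0
  · have hmax : max 0 (-va) = 0 := max_eq_left (by omega)
    rw [hmax, mul_zero] at hEC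
    have := hMB h0
    rcases hEC with h | h
    · omega
    · omega
  · have hmax : max 0 (-va) = -va := max_eq_right (by omega)
    rw [hmax] at hEC
    rcases hDI h0 with h | h
    · rcases hEC with h' | h'
      · rw [h] at h'
        have : ((p : ℤ) - 1) * -va = -(((p : ℤ) - 1) * va) := by ring
        omega
      · rw [h] at h'
        have : ((p : ℤ) - 1) * -va = -(((p : ℤ) - 1) * va) := by ring
        omega
    · have h1 : ((p : ℤ) - 1) * va < 0 := mul_neg_of_pos_of_neg (by omega) h0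
      have h2 : (p : ℤ) * (vd + 12) < 0 := by rw [h]; exact h1
      have h3 : vd + 12 < 0 := by
        by_contra hcon
        push Not at hcon
        have : 0 ≤ (p : ℤ) * (vd + 12) := mul_nonneg (by omega) hcon
        omega
      omega

/-- **The assembly of MOD with the certificate at the level prime.** -/
theorem stmtMod_of_n3 (hE : StmtModAsmE2) (hP : StmtModAsmP2) (hEq : StmtN3Eq) : StmtMod := by
  intro p _ hp W hΔ hmult Q hfix hord
  have hp11 := n3_eleven_le hp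
  obtain ⟨τ₀, a, c, d, hJ, hg₃, hc, hG0, hred, hd0, hrel, hdich⟩ :=
    hE p hp.1 (modasm_five_le hp) W hΔ hmult Q hfix hord
  obtain ⟨x, hx, hval⟩ := hP p hp.1 (modasm_five_le hp) τ₀ a c d hJ hg₃ hc hG0 hrel
  obtain ⟨hMB, hDI⟩ := hEq p hp.1 x a d hd0 hx.val_j hval
  exact ⟨x, a, c 0, hx, ⟨d, hd0, hval, n3_arith hp11 hMB hDI hdich⟩, hred⟩

end Fermat.Agent.S15

end
end ZBZ2S15_004_4

/-! ### bundled: `Fermat.Agent.S15.N3AsmP` -/
section ZBZ2S15_004_5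

/-!
# S15 / N3-ASM-P2 — the place side of MOD with the value of the modular unit (helper51)

`stmtModAsmP2_of : StmtModFricke → StmtN3F → StmtModAsmP2`: the proof of `stmtModAsmP_of`
(helper8) for the canonical place `modPlace N τ₀ a hJ`, which is a place at `τ₀`
(`modplace_isPlaceAt`), so `StmtN3F` gives the value of `oggU N` there.
-/

set_option autoImplicit false
set_option linter.unusedSectionVars false
set_option linter.style.haveILetI false

noncomputable section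

open UpperHalfPlane AlgebraicCurve ModularCurve IntermediateField
open scoped MatrixGroups Manifold

namespace Fermat.Agent.S15

open Fermat.Agent.S24 Fermat.Agent.S28 Fermat.Agent.S23 Fermat.Agent.ES.RC Fermat.Agent.W1
open Fermat.Agent.ES.G2 Fermat.Agent.ES.M

attribute [local instance] algKbC

/-- **N3-ASM-P2.** -/
theorem stmtModAsmP2_of (hF : StmtModFricke) (h3 : StmtN3F) : StmtModAsmP2 := by
  intro N _ hN hN5 τ₀ a c d hJ hg₃ hc hG0 hrel
  have hg0 : (modLat τ₀).g₃ ≠ 0 := by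
    have := hg₃ 1
    rwa [one_smul] at this
  set j₀ : Kb := algebraMap ℚ Kb a with hj₀
  set x : Place Kb (FF N) := modPlace N τ₀ j₀ hJ with hx
  have hvj : HasValueAt x (Fermat.Agent.S24.jF N) j₀ :=
    (modplace_hasValueAt_jF_iff x j₀).2 (modPlace_ord_jF_sub_pos hJ)
  refine ⟨x, ⟨?_, hvj, ?_⟩, ?_⟩
  · intro σ
    have hσj : σ j₀ = j₀ := σ.commutes a
    have hy := modplace_hasValueAt_jF_galAct σ hσj hvj
    obtain ⟨γ, hγ⟩ := modplace_fibre hJ (galAct N σ • x)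
      ((modplace_hasValueAt_jF_iff _ j₀).1 hy)
    have hmem : γ ∈ CongruenceSubgroup.Gamma0 N := by
      apply hG0 γ
      intro t
      obtain ⟨f, hf, hfix⟩ := hF N hN t
      have h1 : HasValueAt x f (algebraMap ℚ Kb (c t)) := modasmp_value hJ hf hg0 (hc t)
      have h2 : HasValueAt (galAct N σ • x) f (algebraMap ℚ Kb (c t)) :=
        modplace_hasValueAt_galAct_of_fixed σ (hfix σ) (σ.commutes (c t)) h1
      rw [hγ] at h2
      rw [modasmp_value_conv (modplace_Jfun_smul hJ γ) hf (hg₃ γ) h2, hc t]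
    rw [hγ]
    exact modplace_smul_gamma0 hJ hmem
  · intro f hf
    exact modasmp_value hJ hf hg0 (hc 0)
  · exact h3 N hN hN5 τ₀ j₀ hJ hg0 x (modplace_isPlaceAt hJ) (algebraMap ℚ Kb d) hrel

end Fermat.Agent.S15

end
end ZBZ2S15_004_5

/-! ### bundled: `Fermat.Agent.S15.N3FAsm` -/
section ZBZ2S15_004_6

/-!
# S15 / N3-F (B) (helper56): from the product formula `n3fH = 1` to `StmtN3F`

`n3fH N τ = N¹² Δ(Nτ) ∏_k R_{0,k}(τ)² / Δ(τ)^N = 1` and `R_{0,k} (2πi)⁶ = ℘'(k/N; τ)²`,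
`g₂³ − 27 g₃² = (2π)¹² Δ` give `N¹² Δ(Nτ) ∏_k ℘'(k/N)⁴ = (g₂³ − 27 g₃²)^{N-1} Δ(τ)`, so `N3Rel N τ d`
forces `d = Δ(Nτ)/Δ(τ)`; then the place at `τ₀` evaluates `u_N = Δ(q^N)/Δ(q)`.
-/

set_option autoImplicit false
set_option linter.unusedSectionVars false
set_option linter.unusedVariables false
set_option linter.style.longLine false
set_option linter.unusedSimpArgs false

noncomputable section

namespace Fermat.Agent.S15

open UpperHalfPlane AlgebraicCurve ModularCurve PeriodPair Complex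
open Fermat.Agent.S23 Fermat.Agent.S24 Fermat.Agent.S28 Fermat.Agent.W1 Fermat.Agent.ES.M
open scoped MatrixGroups Real

local notation "Δ" => ModularForm.discriminant

/-- `∏_k ℘'(k/N)⁴ = (2πi)^{12(N-1)} ∏_k R_{0,k}²` -/
theorem n3fa_prod (N : ℕ) [NeZero N] (τ : ℍ) :
    ∏ k ∈ Finset.Ico 1 N, (℘'[modLat τ] ((k : ℂ) / (N : ℂ))) ^ 4 =
      ((2 * (π : ℂ) * Complex.I) ^ 12) ^ (N - 1) * n3fG N τ := by
  unfold n3fG
  have hcard : (Finset.Ico 1 N).card = N - 1 := by simp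
  rw [← hcard, ← Finset.prod_const, ← Finset.prod_mul_distrib]
  refine Finset.prod_congr rfl fun k hk => ?_
  have hk' := Finset.mem_Ico.1 hk
  have hab : ¬ ((N : ℤ) ∣ (0 : ℤ) ∧ (N : ℤ) ∣ (k : ℤ)) := by
    rintro ⟨-, h⟩
    have h1 := Int.natCast_dvd_natCast.1 h
    have h2 := Nat.le_of_dvd (by omega) h1
    omega
  have h := n3fR_eq N 0 (k : ℤ) hab τ
  have e : (((0 : ℤ) : ℂ) * (τ : ℂ) + (((k : ℤ) : ℤ) : ℂ)) / (N : ℂ) = (k : ℂ) / (N : ℂ) := by
    push_cast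
    ring
  rw [e] at h
  calc (℘'[modLat τ] ((k : ℂ) / (N : ℂ))) ^ 4
      = ((℘'[modLat τ] ((k : ℂ) / (N : ℂ))) ^ 2) ^ 2 := by ring
    _ = (n3fR N 0 (k : ℤ) τ * (2 * (π : ℂ) * Complex.I) ^ 6) ^ 2 := by rw [h]
    _ = (2 * (π : ℂ) * Complex.I) ^ 12 * n3fR N 0 (k : ℤ) τ ^ 2 := by ring

theorem n3fa_two_pi_pow : (2 * (π : ℂ) * Complex.I) ^ 12 = (2 * (π : ℂ)) ^ 12 := by
  have hI4 : Complex.I ^ 4 = 1 := Complex.I_pow_four
  calc (2 * (π : ℂ) * Complex.I) ^ 12 = (2 * (π : ℂ)) ^ 12 * (Complex.I ^ 4) ^ 3 := by ring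
    _ = (2 * (π : ℂ)) ^ 12 := by rw [hI4]; ring

/-- the product formula determines `d` -/
theorem n3fa_value (N : ℕ) [NeZero N] (τ : ℍ) (h1 : n3fH N τ = 1) (d : ℂ)
    (hrel : N3Rel N τ d) : d = Δ (scaleN N τ) / Δ τ := by
  have hΔ : Δ τ ≠ 0 := ModularForm.discriminant_ne_zero τ
  have hΔN : Δ (scaleN N τ) ≠ 0 := ModularForm.discriminant_ne_zero _
  have hπ : (2 * (π : ℂ)) ^ 12 ≠ 0 :=
    pow_ne_zero 12 (mul_ne_zero two_ne_zero (by exact_mod_cast Real.pi_ne_zero))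
  have hN1 : 1 ≤ N := Nat.one_le_iff_ne_zero.2 (NeZero.ne N)
  unfold N3Rel n3Disc at hrel
  rw [n3fa_prod, n3fa_two_pi_pow, modunif_disc_tau] at hrel
  -- `d N¹² G = Δ^{N-1}`
  have h2 : d * (N : ℂ) ^ 12 * n3fG N τ = Δ τ ^ (N - 1) := by
    have hπ' : ((2 * (π : ℂ)) ^ 12) ^ (N - 1) ≠ 0 := pow_ne_zero _ hπ
    apply mul_left_cancel₀ hπ'
    calc ((2 * (π : ℂ)) ^ 12) ^ (N - 1) * (d * (N : ℂ) ^ 12 * n3fG N τ)
        = d * (N : ℂ) ^ 12 * (((2 * (π : ℂ)) ^ 12) ^ (N - 1) * n3fG N τ) := by ring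
      _ = ((2 * (π : ℂ)) ^ 12 * Δ τ) ^ (N - 1) := hrel
      _ = ((2 * (π : ℂ)) ^ 12) ^ (N - 1) * Δ τ ^ (N - 1) := mul_pow _ _ _
  -- `N¹² Δ(Nτ) G = Δ^N`
  unfold n3fH at h1
  rw [div_eq_one_iff_eq (pow_ne_zero _ hΔ)] at h1
  have h3 : Δ τ ^ N = Δ τ ^ (N - 1) * Δ τ := by
    rw [← pow_succ, Nat.sub_add_cancel hN1]
  rw [h3, ← h2] at h1
  rw [eq_div_iff hΔ]
  have hG : (N : ℂ) ^ 12 * n3fG N τ ≠ 0 := by
    intro h0
    have : Δ τ ^ (N - 1) = 0 := by
      rw [← h2, mul_assoc, h0, mul_zero]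
    exact pow_ne_zero _ hΔ this
  apply mul_left_cancel₀ hG
  calc (N : ℂ) ^ 12 * n3fG N τ * (d * Δ τ)
      = d * (N : ℂ) ^ 12 * n3fG N τ * Δ τ := by ring
    _ = (N : ℂ) ^ 12 * (Δ (scaleN N τ) * n3fG N τ) := h1.symm
    _ = (N : ℂ) ^ 12 * n3fG N τ * Δ (scaleN N τ) := by ring

/-- **N3-F**, from the product formula `n3fH = 1`. -/
theorem stmtN3F_of_one
    (h1 : ∀ (N : ℕ) [NeZero N], N.Prime → N ≠ 2 → ∀ τ : ℍ, n3fH N τ = 1) : StmtN3F := by
  intro N _ hN h5 τ₀ j₀ hJ hg₃ x hx d hrel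
  have hval := n3fa_value N τ₀ (h1 N hN (by omega) τ₀) (embC d) hrel
  have ha : (fun z : ℍ => Δ (scaleN N z) / Δ z) ∈ modFunAlg N := isModFun_unit N
  have hb : (1 : ℍ → ℂ) ∈ modFunAlg N := (modFunAlg N).one_mem
  refine hx (oggU N) ⟨_, ha⟩ ⟨_, hb⟩ ?_ ?_ d ?_
  · show ModularCurve.coeffMap embC ((oggU N : FF N) : LaurentSeries Kb) *
      laurentOf (1 : ℍ → ℂ) = laurentOf (fun z : ℍ => Δ (scaleN N z) / Δ z)
    rw [coe_oggU, coeffMap_uS, laurentOf_one, mul_one, laurentOf_unit_eq_uS]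
  · show (1 : ℍ → ℂ) τ₀ ≠ 0
    simp
  · show embC d * (1 : ℍ → ℂ) τ₀ = Δ (scaleN N τ₀) / Δ τ₀
    rw [Pi.one_apply, mul_one, hval]

end Fermat.Agent.S15

end
end ZBZ2S15_004_6

/-! ### bundled: `Fermat.Agent.S15.N3FFinal` -/
section ZBZ2S15_004_7

/-!
# S15 / N3-F : final statement (helper71 + helper56)

`stmtN3F : StmtN3F` : if `d · N¹² ∏_k ℘'(k/N; τ₀)⁴ = Δ(ℤτ₀ + ℤ)^{N-1}` then the modular unit
`u_N` has the value `d` at the place at `τ₀`.

* `N3FForm.lean` : the modular forms `R_{a,b}`, `G`, the modular function `H`;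
* `N3FQ.lean` (helper56) : rationality of the expansion of `G`, constant term `N⁻¹²`;
* `N3FOne.lean` : `H = 1` (the product formula);
* `N3FAsm.lean` (helper56) : from `H = 1` to `StmtN3F`.
-/

set_option autoImplicit false

namespace Fermat.Agent.S15

/-- **N3-F.** -/
theorem stmtN3F : StmtN3F :=
  stmtN3F_of_one (fun N _ hN hodd τ => n3fH_eq_one N hN hodd τ)

end Fermat.Agent.S15


end ZBZ2S15_004_7

/-! ### bundled: `Fermat.Agent.S12.VeluNode` -/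
section ZBZ2S15_004_8
/-
Item 12 (S12 glue), piece `VELU / V-NODE` (helper60).

The group of nonsingular points of a SPLIT nodal Weierstrass cubic over a field `k` of
characteristic `≠ 2`: an injective homomorphism `ψ : W_ns(k) → kˣ` with
`(x - x₀) (1 - u)² = β u` for `u = ψ(x, y)`, where `x₀` is the `x`-coordinate of the node and
`β = b₂ + 12 x₀` (`β² = c₄`, `β³ = -c₆`); the node is split iff `β = γ²` is a square.

`StmtVeluNode` of `VeluPlan.lean` is false as stated (sign of `β`, and the nonsplit case);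
this file proves the corrected `StmtVeluNodeFix`.

With `η = 2y + a₁x + a₃`, `X = x - x₀`, the curve is `η² = X² (4X + β)`, and
`ψ(x, y) = (η - γ X) / (η + γ X)`.  Additivity: on a line `η = L X + c` the three intersection
points satisfy `∏ (η_i - γ X_i) = c³ = ∏ (η_i + γ X_i)`.
-/

set_option autoImplicit false

noncomputable section

namespace Fermat.Agent.S12

open WeierstrassCurve Fermat.Agent.S15.ECL

variable {k : Type*} [Field k]

/-! ### The algebraic core -/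

theorem velunode_core {L c γ β X₁ X₂ X₃ : k} (h4 : (4 : k) ≠ 0) (hγ : γ ^ 2 = β)
    (h1 : 4 * (X₁ + X₂ + X₃) = L ^ 2 - β)
    (h2 : 4 * (X₁ * X₂ + X₁ * X₃ + X₂ * X₃) = -2 * L * c)
    (h3 : 4 * (X₁ * X₂ * X₃) = c ^ 2) :
    ((L - γ) * X₁ + c) * ((L - γ) * X₂ + c) * ((L - γ) * X₃ + c) = c ^ 3 := by
  apply mul_left_cancel₀ h4
  linear_combination (L - γ) ^ 3 * h3 + (L - γ) ^ 2 * c * h2 + (L - γ) * c ^ 2 * h1
    + c ^ 2 * (L - γ) * hγ

theorem velunode_vieta {L c β X₁ X₂ X₃ : k}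
    (hf₁ : (L * X₁ + c) ^ 2 = X₁ ^ 2 * (4 * X₁ + β))
    (hf₂ : (L * X₂ + c) ^ 2 = X₂ ^ 2 * (4 * X₂ + β))
    (h1 : 4 * (X₁ + X₂ + X₃) = L ^ 2 - β)
    (hcase : X₁ ≠ X₂ ∨ (X₁ = X₂ ∧ L * (L * X₁ + c) = 6 * X₁ ^ 2 + β * X₁)) :
    4 * (X₁ * X₂ + X₁ * X₃ + X₂ * X₃) = -2 * L * c ∧ 4 * (X₁ * X₂ * X₃) = c ^ 2 := by
  have h2 : 4 * (X₁ * X₂ + X₁ * X₃ + X₂ * X₃) = -2 * L * c := by
    rcases hcase with hne | ⟨rfl, ht⟩
    · have h0 : (X₁ - X₂) * (4 * (X₁ * X₂ + X₁ * X₃ + X₂ * X₃) + 2 * L * c) = 0 := by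
        linear_combination hf₁ - hf₂ + (X₁ - X₂) * (X₁ + X₂) * h1
      rcases mul_eq_zero.1 h0 with h | h
      · exact absurd (sub_eq_zero.1 h) hne
      · linear_combination h
    · linear_combination 2 * X₁ * h1 + 2 * ht
  refine ⟨h2, ?_⟩
  linear_combination -hf₁ - X₁ ^ 2 * h1 + X₁ * h2

/-- Three collinear points. -/
theorem velunode_line {L γ β X₁ X₂ X₃ η₁ η₂ η₃ : k} (h4 : (4 : k) ≠ 0) (hγ : γ ^ 2 = β)
    (hf₁ : η₁ ^ 2 = X₁ ^ 2 * (4 * X₁ + β)) (hf₂ : η₂ ^ 2 = X₂ ^ 2 * (4 * X₂ + β))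
    (hL : η₁ - η₂ = L * (X₁ - X₂))
    (hcase : X₁ ≠ X₂ ∨ (X₁ = X₂ ∧ L * η₁ = 6 * X₁ ^ 2 + β * X₁))
    (h1 : 4 * (X₁ + X₂ + X₃) = L ^ 2 - β)
    (h3 : η₃ = -(L * (X₃ - X₁) + η₁)) :
    (η₁ - γ * X₁) * (η₂ - γ * X₂) * (η₃ + γ * X₃) =
      (η₁ + γ * X₁) * (η₂ + γ * X₂) * (η₃ - γ * X₃) := by
  obtain ⟨c, hc⟩ : ∃ c, c = η₁ - L * X₁ := ⟨_, rfl⟩
  have e₁ : η₁ = L * X₁ + c := by rw [hc]; ring
  have e₂ : η₂ = L * X₂ + c := by rw [hc]; linear_combination -hL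
  have e₃ : η₃ = -(L * X₃ + c) := by rw [h3, hc]; ring
  rw [e₁] at hf₁ hcase
  rw [e₂] at hf₂
  obtain ⟨h2, h3'⟩ := velunode_vieta hf₁ hf₂ h1 hcase
  have k1 := velunode_core h4 hγ h1 h2 h3'
  have hγ' : (-γ) ^ 2 = β := by rw [← hγ]; ring
  have k2 := velunode_core h4 hγ' h1 h2 h3'
  rw [e₁, e₂, e₃]
  linear_combination -k1 + k2

/-! ### The map -/

/-- `η - γ X` -/
def velunodeN (W : WeierstrassCurve k) (γ x y : k) : k :=
  (2 * y + W.a₁ * x + W.a₃) - γ * (x - nodeX W)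

/-- `η + γ X` -/
def velunodeD (W : WeierstrassCurve k) (γ x y : k) : k :=
  (2 * y + W.a₁ * x + W.a₃) + γ * (x - nodeX W)

variable {W : WeierstrassCurve k}

theorem velunode_eta_sq (h2 : (2 : k) ≠ 0) (hΔ : W.Δ = 0) (hc : W.c₄ ≠ 0) {x y : k}
    (h : W.toAffine.Equation x y) :
    (2 * y + W.a₁ * x + W.a₃) ^ 2 = (x - nodeX W) ^ 2 * (4 * (x - nodeX W) + nodeG W) := by
  rw [(node_equation_iff h2 hΔ hc x y).1 h]
  unfold nodeG
  ring

theorem velunode_ND (h2 : (2 : k) ≠ 0) (hΔ : W.Δ = 0) (hc : W.c₄ ≠ 0) {γ : k}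
    (hγ : γ ^ 2 = nodeG W) {x y : k} (h : W.toAffine.Equation x y) :
    velunodeN W γ x y * velunodeD W γ x y = 4 * (x - nodeX W) ^ 3 := by
  have he := velunode_eta_sq h2 hΔ hc h
  unfold velunodeN velunodeD
  linear_combination he - (x - nodeX W) ^ 2 * hγ

theorem velunode_N_ne (h2 : (2 : k) ≠ 0) (hΔ : W.Δ = 0) (hc : W.c₄ ≠ 0) {γ : k}
    (hγ : γ ^ 2 = nodeG W) {x y : k} (h : W.toAffine.Nonsingular x y) :
    velunodeN W γ x y ≠ 0 := by
  obtain ⟨heq, hx⟩ := (node_nonsingular_iff h2 hΔ hc x y).1 h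
  intro h0
  have := velunode_ND h2 hΔ hc hγ heq
  rw [h0, zero_mul] at this
  exact mul_ne_zero (node_four_ne_zero h2) (pow_ne_zero 3 (sub_ne_zero.2 hx)) this.symm

theorem velunode_D_ne (h2 : (2 : k) ≠ 0) (hΔ : W.Δ = 0) (hc : W.c₄ ≠ 0) {γ : k}
    (hγ : γ ^ 2 = nodeG W) {x y : k} (h : W.toAffine.Nonsingular x y) :
    velunodeD W γ x y ≠ 0 := by
  obtain ⟨heq, hx⟩ := (node_nonsingular_iff h2 hΔ hc x y).1 h
  intro h0
  have := velunode_ND h2 hΔ hc hγ heq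
  rw [h0, mul_zero] at this
  exact mul_ne_zero (node_four_ne_zero h2) (pow_ne_zero 3 (sub_ne_zero.2 hx)) this.symm

/-- the value `u = (η - γ X) / (η + γ X)` of `ψ` -/
def velunodeU (W : WeierstrassCurve k) (γ : k) : W.toAffine.Point → k
  | .zero => 1
  | .some x y _ => velunodeN W γ x y / velunodeD W γ x y

theorem velunodeU_zero (γ : k) : velunodeU W γ 0 = 1 := rfl

theorem velunodeU_some (γ : k) {x y : k} (h : W.toAffine.Nonsingular x y) :
    velunodeU W γ (.some x y h) = velunodeN W γ x y / velunodeD W γ x y := rfl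

theorem velunodeU_ne_zero (h2 : (2 : k) ≠ 0) (hΔ : W.Δ = 0) (hc : W.c₄ ≠ 0) {γ : k}
    (hγ : γ ^ 2 = nodeG W) (P : W.toAffine.Point) : velunodeU W γ P ≠ 0 := by
  rcases P with _ | ⟨x, y, h⟩
  · exact one_ne_zero
  · exact div_ne_zero (velunode_N_ne h2 hΔ hc hγ h) (velunode_D_ne h2 hΔ hc hγ h)

theorem velunode_six (h2 : (2 : k) ≠ 0) (hΔ : W.Δ = 0) (hc : W.c₄ ≠ 0) (x : k) :
    6 * x ^ 2 + W.b₂ * x + W.b₄ = 6 * (x - nodeX W) ^ 2 + nodeG W * (x - nodeX W) := by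
  have h1 := node_rel1 hΔ hc
  apply mul_left_cancel₀ h2
  unfold nodeG
  linear_combination h1

theorem velunodeU_add [DecidableEq k] (h2 : (2 : k) ≠ 0) (hΔ : W.Δ = 0) (hc : W.c₄ ≠ 0) {γ : k}
    (hγ : γ ^ 2 = nodeG W) (P Q : W.toAffine.Point) :
    velunodeU W γ (P + Q) = velunodeU W γ P * velunodeU W γ Q := by
  have h4 := node_four_ne_zero h2
  rcases P with _ | ⟨x₁, y₁, h₁⟩
  · change velunodeU W γ (0 + Q) = velunodeU W γ 0 * _
    rw [zero_add, velunodeU_zero, one_mul]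
  rcases Q with _ | ⟨x₂, y₂, h₂⟩
  · change velunodeU W γ (_ + 0) = _ * velunodeU W γ 0
    rw [add_zero, velunodeU_zero, mul_one]
  have hN₁ := velunode_N_ne h2 hΔ hc hγ h₁
  have hD₁ := velunode_D_ne h2 hΔ hc hγ h₁
  have hN₂ := velunode_N_ne h2 hΔ hc hγ h₂
  have hD₂ := velunode_D_ne h2 hΔ hc hγ h₂
  by_cases hxy : x₁ = x₂ ∧ y₁ = W.toAffine.negY x₂ y₂
  · rw [Affine.Point.add_of_Y_eq hxy.1 hxy.2, velunodeU_zero, velunodeU_some, velunodeU_some]
    obtain ⟨rfl, hy⟩ := hxy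
    have e1 : velunodeN W γ x₁ y₁ = -velunodeD W γ x₁ y₂ := by
      unfold velunodeN velunodeD
      rw [hy, Affine.negY]; ring
    have e2 : velunodeD W γ x₁ y₁ = -velunodeN W γ x₁ y₂ := by
      unfold velunodeN velunodeD
      rw [hy, Affine.negY]; ring
    rw [e1, e2]
    field_simp
  · rw [Affine.Point.add_some hxy, velunodeU_some, velunodeU_some, velunodeU_some]
    have h₃ := Affine.nonsingular_add h₁ h₂ hxy
    have hN₃ := velunode_N_ne h2 hΔ hc hγ h₃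
    have hD₃ := velunode_D_ne h2 hΔ hc hγ h₃
    obtain ⟨ℓ, hℓ⟩ : ∃ ℓ, ℓ = W.toAffine.slope x₁ x₂ y₁ y₂ := ⟨_, rfl⟩
    rw [← hℓ] at h₃ hN₃ hD₃ ⊢
    have hf₁ := velunode_eta_sq h2 hΔ hc h₁.1
    have hf₂ := velunode_eta_sq h2 hΔ hc h₂.1
    -- the line
    have hL : (2 * y₁ + W.a₁ * x₁ + W.a₃) - (2 * y₂ + W.a₁ * x₂ + W.a₃)
        = (2 * ℓ + W.a₁) * ((x₁ - nodeX W) - (x₂ - nodeX W)) ∧
        ((x₁ - nodeX W) ≠ (x₂ - nodeX W) ∨ ((x₁ - nodeX W) = (x₂ - nodeX W) ∧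
          (2 * ℓ + W.a₁) * (2 * y₁ + W.a₁ * x₁ + W.a₃)
            = 6 * (x₁ - nodeX W) ^ 2 + nodeG W * (x₁ - nodeX W))) := by
      by_cases hx : x₁ = x₂
      · have hy : y₁ ≠ W.toAffine.negY x₂ y₂ := fun h => hxy ⟨hx, h⟩
        have hyy : y₁ = y₂ := (Affine.Y_eq_of_X_eq h₁.1 h₂.1 hx).resolve_right hy
        subst hx hyy
        refine ⟨by ring, Or.inr ⟨rfl, ?_⟩⟩
        rw [Affine.slope_of_Y_ne rfl hy] at hℓ
        have hη : y₁ - W.toAffine.negY x₁ y₁ ≠ 0 := sub_ne_zero.2 hy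
        have hℓ' : ℓ * (y₁ - W.toAffine.negY x₁ y₁)
            = 3 * x₁ ^ 2 + 2 * W.a₂ * x₁ + W.a₄ - W.a₁ * y₁ := by
          rw [hℓ]; exact div_mul_cancel₀ _ hη
        rw [Affine.negY] at hℓ'
        rw [← velunode_six h2 hΔ hc]
        simp only [WeierstrassCurve.b₂, WeierstrassCurve.b₄]
        linear_combination 2 * hℓ'
      · refine ⟨?_, Or.inl fun h => hx (by linear_combination h)⟩
        rw [Affine.slope_of_X_ne hx] at hℓ
        have hℓ' : ℓ * (x₁ - x₂) = y₁ - y₂ := by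
          rw [hℓ]; exact div_mul_cancel₀ _ (sub_ne_zero.2 hx)
        linear_combination -2 * hℓ'
    have h1 : 4 * ((x₁ - nodeX W) + (x₂ - nodeX W) + (W.toAffine.addX x₁ x₂ ℓ - nodeX W))
        = (2 * ℓ + W.a₁) ^ 2 - nodeG W := by
      simp only [Affine.addX, nodeG, WeierstrassCurve.b₂]
      ring
    have h3 : 2 * W.toAffine.addY x₁ x₂ y₁ ℓ + W.a₁ * W.toAffine.addX x₁ x₂ ℓ + W.a₃
        = -((2 * ℓ + W.a₁) * ((W.toAffine.addX x₁ x₂ ℓ - nodeX W) - (x₁ - nodeX W))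
          + (2 * y₁ + W.a₁ * x₁ + W.a₃)) := by
      simp only [Affine.addY, Affine.negAddY, Affine.negY]
      ring
    have key := velunode_line h4 hγ hf₁ hf₂ hL.1 hL.2 h1 h3
    rw [div_mul_div_comm, div_eq_div_iff hD₃ (mul_ne_zero hD₁ hD₂)]
    unfold velunodeN velunodeD
    linear_combination -key

/-- The homomorphism `ψ`. -/
def velunodePsi [DecidableEq k] (h2 : (2 : k) ≠ 0) (hΔ : W.Δ = 0) (hc : W.c₄ ≠ 0) {γ : k}
    (hγ : γ ^ 2 = nodeG W) : W.toAffine.Point →+ Additive kˣ :=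
  AddMonoidHom.mk' (fun P => Additive.ofMul (Units.mk0 (velunodeU W γ P)
    (velunodeU_ne_zero h2 hΔ hc hγ P))) (by
    intro P Q
    apply Additive.toMul.injective
    apply Units.ext
    simp only [toMul_add, toMul_ofMul, Units.val_mul, Units.val_mk0]
    exact velunodeU_add h2 hΔ hc hγ P Q)

theorem velunodePsi_val [DecidableEq k] (h2 : (2 : k) ≠ 0) (hΔ : W.Δ = 0) (hc : W.c₄ ≠ 0) {γ : k}
    (hγ : γ ^ 2 = nodeG W) (P : W.toAffine.Point) :
    ((Additive.toMul (velunodePsi h2 hΔ hc hγ P) : kˣ) : k) = velunodeU W γ P := rfl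

theorem velunode_gamma_ne (hΔ : W.Δ = 0) (hc : W.c₄ ≠ 0) {γ : k} (hγ : γ ^ 2 = nodeG W) :
    γ ≠ 0 := by
  rintro rfl
  exact nodeG_ne_zero hΔ hc (by rw [← hγ]; ring)

theorem velunodePsi_injective [DecidableEq k] (h2 : (2 : k) ≠ 0) (hΔ : W.Δ = 0) (hc : W.c₄ ≠ 0)
    {γ : k} (hγ : γ ^ 2 = nodeG W) : Function.Injective (velunodePsi h2 hΔ hc hγ) := by
  rw [injective_iff_map_eq_zero]
  intro P hP
  rcases P with _ | ⟨x, y, h⟩
  · rfl
  · exfalso
    have hv := velunodePsi_val h2 hΔ hc hγ (.some x y h)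
    rw [hP] at hv
    simp only [toMul_zero, Units.val_one] at hv
    rw [velunodeU_some] at hv
    have hD := velunode_D_ne h2 hΔ hc hγ h
    have hND : velunodeN W γ x y = velunodeD W γ x y := by
      rw [eq_comm, div_eq_one_iff_eq hD] at hv
      exact hv
    obtain ⟨-, hx⟩ := (node_nonsingular_iff h2 hΔ hc x y).1 h
    have : 2 * (γ * (x - nodeX W)) = 0 := by
      unfold velunodeN velunodeD at hND
      linear_combination -hND
    rcases mul_eq_zero.1 this with h' | h'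
    · exact h2 h'
    · rcases mul_eq_zero.1 h' with h'' | h''
      · exact velunode_gamma_ne hΔ hc hγ h''
      · exact hx (sub_eq_zero.1 h'')

theorem velunodeU_rel (h2 : (2 : k) ≠ 0) (hΔ : W.Δ = 0) (hc : W.c₄ ≠ 0) {γ : k}
    (hγ : γ ^ 2 = nodeG W) {x y : k} (h : W.toAffine.Nonsingular x y) :
    (x - nodeX W) * (1 - velunodeU W γ (.some x y h)) ^ 2
      = nodeG W * velunodeU W γ (.some x y h) := by
  have hD := velunode_D_ne h2 hΔ hc hγ h
  have hND := velunode_ND h2 hΔ hc hγ h.1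
  rw [velunodeU_some]
  have e : 1 - velunodeN W γ x y / velunodeD W γ x y
      = 2 * γ * (x - nodeX W) / velunodeD W γ x y := by
    field_simp
    unfold velunodeN velunodeD
    ring
  rw [e, div_pow, ← hγ]
  field_simp
  linear_combination (-γ ^ 2) * hND

/-- `c₆ = -β³`. -/
theorem velunode_c₆ (hΔ : W.Δ = 0) (hc : W.c₄ ≠ 0) : W.c₆ = -nodeG W ^ 3 := by
  have h1 := node_rel1 hΔ hc
  have h3 := node_rel2 hΔ hc
  unfold nodeG
  simp only [WeierstrassCurve.c₆]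
  linear_combination 18 * W.b₂ * h1 + 216 * h3

/-- The main theorem, split node given by a square root `γ` of `β = nodeG W`. -/
theorem velunode_main [DecidableEq k] (h2 : (2 : k) ≠ 0) (hΔ : W.Δ = 0) (hc : W.c₄ ≠ 0)
    {γ : k} (hγ : γ ^ 2 = nodeG W) :
    ∃ ψ : W.toAffine.Point →+ Additive kˣ, Function.Injective ψ ∧
      (∀ P, ((Additive.toMul (ψ P) : kˣ) : k) = velunodeU W γ P) ∧
      ∀ (x y : k) (h : W.toAffine.Nonsingular x y),
        (x - nodeX W) * (1 - ((Additive.toMul (ψ (.some x y h)) : kˣ) : k)) ^ 2 =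
          nodeG W * ((Additive.toMul (ψ (.some x y h)) : kˣ) : k) :=
  ⟨velunodePsi h2 hΔ hc hγ, velunodePsi_injective h2 hΔ hc hγ,
    velunodePsi_val h2 hΔ hc hγ, fun x y h => by
      rw [velunodePsi_val]; exact velunodeU_rel h2 hΔ hc hγ h⟩

/-- **V-NODE, corrected.**  (`β` is an output, and the node has to be split:
`-c₆ / c₄ = b₂ + 12 x₀` is a square.) -/
def StmtVeluNodeFix : Prop :=
  ∀ (k : Type) [Field k] [DecidableEq k] (W : WeierstrassCurve k), (2 : k) ≠ 0 → W.Δ = 0 →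
    W.c₄ ≠ 0 → (∃ γ : k, γ ^ 2 * W.c₄ = -W.c₆) →
    ∃ (β x₀ : k) (ψ : W.toAffine.Point →+ Additive kˣ), β ^ 2 = W.c₄ ∧
      W.c₄ * x₀ = 18 * W.b₆ - W.b₂ * W.b₄ ∧ Function.Injective ψ ∧
      (∀ x : k, 6 * x ^ 2 + W.b₂ * x + W.b₄ = 6 * (x - x₀) ^ 2 + β * (x - x₀)) ∧
      ∀ (x y : k) (h : W.toAffine.Nonsingular x y),
        (x - x₀) * (1 - ((Additive.toMul (ψ (.some x y h)) : kˣ) : k)) ^ 2 =
          β * ((Additive.toMul (ψ (.some x y h)) : kˣ) : k)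

theorem stmtVeluNodeFix : StmtVeluNodeFix := by
  intro k _ _ W h2 hΔ hc ⟨γ, hγ⟩
  have hG := nodeG_sq hΔ hc
  have hG0 := nodeG_ne_zero hΔ hc
  have hγ' : γ ^ 2 = nodeG W := by
    rw [velunode_c₆ hΔ hc, ← hG] at hγ
    have : nodeG W ^ 2 * (γ ^ 2 - nodeG W) = 0 := by linear_combination hγ
    rcases mul_eq_zero.1 this with h | h
    · exact absurd ((pow_eq_zero_iff two_ne_zero).1 h) hG0
    · exact sub_eq_zero.1 h
  obtain ⟨ψ, hinj, -, hrel⟩ := velunode_main h2 hΔ hc hγ'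
  refine ⟨nodeG W, nodeX W, ψ, hG, ?_, hinj, velunode_six h2 hΔ hc, hrel⟩
  unfold nodeX
  field_simp

/-- Over a field in which every element is a square (e.g. an algebraically closed field). -/
theorem velunode_of_all_sq (k : Type) [Field k] [DecidableEq k] (W : WeierstrassCurve k)
    (h2 : (2 : k) ≠ 0) (hΔ : W.Δ = 0) (hc : W.c₄ ≠ 0) (hsq : ∀ a : k, ∃ b : k, b ^ 2 = a) :
    ∃ (β x₀ : k) (ψ : W.toAffine.Point →+ Additive kˣ), β ^ 2 = W.c₄ ∧
      W.c₄ * x₀ = 18 * W.b₆ - W.b₂ * W.b₄ ∧ Function.Injective ψ ∧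
      (∀ x : k, 6 * x ^ 2 + W.b₂ * x + W.b₄ = 6 * (x - x₀) ^ 2 + β * (x - x₀)) ∧
      ∀ (x y : k) (h : W.toAffine.Nonsingular x y),
        (x - x₀) * (1 - ((Additive.toMul (ψ (.some x y h)) : kˣ) : k)) ^ 2 =
          β * ((Additive.toMul (ψ (.some x y h)) : kˣ) : k) := by
  obtain ⟨γ, hγ⟩ := hsq (nodeG W)
  refine stmtVeluNodeFix k W h2 hΔ hc ⟨γ, ?_⟩
  rw [velunode_c₆ hΔ hc, ← nodeG_sq hΔ hc, hγ]
  ring

end Fermat.Agent.S12

end
end ZBZ2S15_004_8
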