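/- GENERATED FILE (helper35, build-time optimisation, NOTES/ZB.md): verbatim concatenation of the modules
   Fermat.Agent.S15.ModUnifArith
   Fermat.Agent.S15.ModUnifRow
   Fermat.Agent.S15.ModUnif
   Fermat.Agent.S15.ModAsmE
   Fermat.Agent.S15.N3AsmE
   Do not edit; do not import together with these modules. -/
import Mathlib
import Fermat.Agent.ZB.Z2S15_002
import Fermat.Agent.ZB.S24_003
import Fermat.Agent.ZB.Z2S15_004

/-! ### bundled: `Fermat.Agent.S15.ModUnifArith` -/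
section ZBZ2S15_007_0
/-
Item 15 (Mazur chain), piece `MOD-UNIF`, part 1 (helper13): arithmetic.

A vector `(a, b)` with `gcd(a, b, N) = 1` is congruent modulo `N` to a primitive vector, which is the
bottom row of a matrix of `SL(2, ℤ)`.
-/

set_option autoImplicit false

namespace Fermat.Agent.S15

/-- If `gcd(a, b, N) = 1` and `b ≠ 0` there is `t` with `gcd(a + t N, b) = 1`. -/
theorem modunif_exists_coprime_add {a b N : ℤ} (hb : b ≠ 0)
    (h : ∀ q : ℤ, Prime q → q ∣ a → q ∣ b → ¬ q ∣ N) :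
    ∃ t : ℤ, IsCoprime (a + t * N) b := by
  classical
  -- `t` = the product of the primes dividing `b` and not `a`
  set S : Finset ℕ := b.natAbs.primeFactors.filter (fun q => ¬ (q : ℤ) ∣ a) with hS
  refine ⟨∏ q ∈ S, (q : ℤ), ?_⟩
  rw [Int.isCoprime_iff_gcd_eq_one]
  by_contra hg
  obtain ⟨q, hq, hqd⟩ := Nat.exists_prime_and_dvd hg
  have hq' : Prime (q : ℤ) := Nat.prime_iff_prime_int.mp hq
  have hqa : (q : ℤ) ∣ a + (∏ q ∈ S, (q : ℤ)) * N :=
    (Int.natCast_dvd_natCast.2 hqd).trans (Int.gcd_dvd_left _ _)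
  have hqb : (q : ℤ) ∣ b := (Int.natCast_dvd_natCast.2 hqd).trans (Int.gcd_dvd_right _ _)
  have hqb' : q ∈ b.natAbs.primeFactors := by
    rw [Nat.mem_primeFactors]
    exact ⟨hq, Int.natCast_dvd.mp hqb, Int.natAbs_ne_zero.mpr hb⟩
  by_cases hqa0 : (q : ℤ) ∣ a
  · -- then `q ∤ N` and `q ∤ t`
    have hqN : ¬ (q : ℤ) ∣ N := h q hq' hqa0 hqb
    have hqt : (q : ℤ) ∣ (∏ q ∈ S, (q : ℤ)) * N := (dvd_add_right hqa0).mp hqa
    rcases hq'.dvd_or_dvd hqt with h1 | h1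
    · obtain ⟨r, hr, hqr⟩ := (Prime.dvd_finsetProd_iff hq' _).1 h1
      rw [hS, Finset.mem_filter, Nat.mem_primeFactors] at hr
      have hqr' : q ∣ r := Int.natCast_dvd_natCast.mp hqr
      have : q = r := (Nat.prime_dvd_prime_iff_eq hq hr.1.1).1 hqr'
      subst this
      exact hr.2 hqa0
    · exact hqN h1
  · -- then `q ∣ t`
    have hqS : q ∈ S := by
      rw [hS, Finset.mem_filter]
      exact ⟨hqb', hqa0⟩
    have hqt : (q : ℤ) ∣ (∏ q ∈ S, (q : ℤ)) * N :=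
      Dvd.dvd.mul_right (Finset.dvd_prod_of_mem _ hqS) _
    exact hqa0 ((dvd_add_left hqt).mp hqa)

/-- **Primitive lift.**  If no prime divides `a`, `b` and `N`, and `N ≠ 0`, then `(a, b)` is
congruent modulo `N` to a pair of coprime integers. -/
theorem modunif_exists_coprime {a b N : ℤ} (hN : N ≠ 0)
    (h : ∀ q : ℤ, Prime q → q ∣ a → q ∣ b → ¬ q ∣ N) :
    ∃ a' b' : ℤ, IsCoprime a' b' ∧ N ∣ a' - a ∧ N ∣ b' - b := by
  by_cases hb : b = 0
  · -- replace `b` by `N`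
    subst hb
    have h' : ∀ q : ℤ, Prime q → q ∣ a → q ∣ N → ¬ q ∣ N := fun q hq ha hqN =>
      h q hq ha (dvd_zero q)
    obtain ⟨t, ht⟩ := modunif_exists_coprime_add (a := a) (b := N) (N := N) hN h'
    exact ⟨a + t * N, N, ht, ⟨t, by ring⟩, ⟨1, by ring⟩⟩
  · obtain ⟨t, ht⟩ := modunif_exists_coprime_add hb h
    exact ⟨a + t * N, b, ht, ⟨t, by ring⟩, ⟨0, by ring⟩⟩

end Fermat.Agent.S15


end ZBZ2S15_007_0

/-! ### bundled: `Fermat.Agent.S15.ModUnifRow` -/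
section ZBZ2S15_007_1
/-
Item 15 (Mazur chain), piece `MOD-UNIF`, part 4 (helper13): moving a point of exact order `N` of
`ℂ / (ℤτ₁ + ℤ)` to `1 / N` by an element of `SL(2, ℤ)`.
-/

set_option autoImplicit false

noncomputable section

namespace Fermat.Agent.S15

open Complex PeriodPair UpperHalfPlane
open scoped MatrixGroups

/-- membership in `ℤτ + ℤ` -/
theorem modunif_mem_modLat (τ : ℍ) (z : ℂ) :
    z ∈ (modLat τ).lattice ↔ ∃ m n : ℤ, (m : ℂ) * τ + n = z := by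
  rw [mem_lattice]
  simp only [modLat_ω₁, modLat_ω₂, mul_one]

/-- **The row.**  A point `Q` of exact order `N` of a group uniformised by `ℂ / (ℤτ₁ + ℤ)` is the
image of `(a τ₁ + b) / N` for a primitive vector `(a, b)`. -/
theorem modunif_exists_row (τ₁ : ℍ) {G : Type*} [AddCommGroup G] (θ₁ : ℂ →+ G)
    (hker : ∀ z, θ₁ z = 0 ↔ z ∈ (modLat τ₁).lattice) (hsurj : Function.Surjective θ₁)
    (N : ℕ) (hN : 2 ≤ N) (Q : G) (hQ : addOrderOf Q = N) :
    ∃ a b : ℤ, IsCoprime a b ∧ θ₁ (((a : ℂ) * τ₁ + b) / N) = Q := by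
  have hN0 : (N : ℂ) ≠ 0 := by
    have : N ≠ 0 := by omega
    exact_mod_cast this
  have hNz : (N : ℤ) ≠ 0 := by
    have : N ≠ 0 := by omega
    exact_mod_cast this
  obtain ⟨z, hz⟩ := hsurj Q
  have hNQ : θ₁ ((N : ℂ) * z) = 0 := by
    have h1 : (N : ℂ) * z = N • z := by rw [nsmul_eq_mul]
    rw [h1, map_nsmul, hz, ← hQ, addOrderOf_nsmul_eq_zero]
  obtain ⟨a, b, hab⟩ := (modunif_mem_modLat τ₁ _).1 ((hker _).1 hNQ)
  -- no prime divides `a`, `b` and `N`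
  have hprim : ∀ q : ℤ, Prime q → q ∣ a → q ∣ b → ¬ q ∣ (N : ℤ) := by
    rintro q hq ⟨a₁, rfl⟩ ⟨b₁, rfl⟩ ⟨N₁, hN₁⟩
    have hq0 : (q : ℂ) ≠ 0 := by exact_mod_cast hq.ne_zero
    have hN₁z : (N₁ : ℂ) * z = (a₁ : ℂ) * τ₁ + b₁ := by
      apply mul_left_cancel₀ hq0
      have h2 : ((N : ℤ) : ℂ) = (q : ℂ) * N₁ := by exact_mod_cast congrArg (Int.cast : ℤ → ℂ) hN₁
      have h3 : ((N : ℤ) : ℂ) = (N : ℂ) := by norm_cast
      push_cast at hab
      linear_combination -hab + (h3 - h2) * z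
    have h4 : θ₁ ((N₁ : ℂ) * z) = 0 := (hker _).2 ((modunif_mem_modLat τ₁ _).2 ⟨a₁, b₁, hN₁z.symm⟩)
    have h5 : N₁ • Q = 0 := by
      have h1 : (N₁ : ℂ) * z = N₁ • z := by rw [zsmul_eq_mul]
      rw [h1, map_zsmul, hz] at h4
      exact h4
    have h6 : (addOrderOf Q : ℤ) ∣ N₁ := (addOrderOf_dvd_iff_zsmul_eq_zero).2 h5
    rw [hQ] at h6
    obtain ⟨m, hm⟩ := h6
    have hN₁0 : N₁ ≠ 0 := by
      rintro rfl
      rw [mul_zero] at hN₁
      exact hNz hN₁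
    have h7 : q * m = 1 := by
      apply mul_left_cancel₀ hN₁0
      rw [hN₁] at hm
      linear_combination -hm
    exact hq.not_isUnit (IsUnit.of_mul_eq_one _ h7)
  obtain ⟨a', b', hcop, ⟨k₁, hk₁⟩, ⟨k₂, hk₂⟩⟩ := modunif_exists_coprime hNz hprim
  refine ⟨a', b', hcop, ?_⟩
  have hsplit : ((a' : ℂ) * τ₁ + b') / N = z + ((k₁ : ℂ) * τ₁ + k₂) := by
    have h1 : (a' : ℂ) = a + N * k₁ := by
      have := congrArg (Int.cast : ℤ → ℂ) hk₁
      push_cast at this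
      linear_combination this
    have h2 : (b' : ℂ) = b + N * k₂ := by
      have := congrArg (Int.cast : ℤ → ℂ) hk₂
      push_cast at this
      linear_combination this
    rw [div_eq_iff hN0, h1, h2]
    linear_combination hab
  rw [hsplit, map_add, hz,
    (hker _).2 ((modunif_mem_modLat τ₁ _).2 ⟨k₁, k₂, rfl⟩), add_zero]

/-- a primitive vector `(a, b)` gives `a τ₁ + b ≠ 0` -/
theorem modunif_row_ne_zero (τ₁ : ℍ) {a b : ℤ} (h : IsCoprime a b) :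
    (a : ℂ) * τ₁ + b ≠ 0 := by
  intro h0
  have him := congrArg Complex.im h0
  simp only [Complex.add_im, Complex.mul_im, Complex.intCast_re, Complex.intCast_im, zero_mul,
    add_zero, Complex.zero_im, UpperHalfPlane.coe_im] at him
  have ha : a = 0 := by
    rcases mul_eq_zero.mp him with h1 | h1
    · exact_mod_cast h1
    · exact absurd h1 τ₁.im_pos.ne'
  subst ha
  have hb : b = 0 := by
    have : (b : ℂ) = 0 := by simpa using h0
    exact_mod_cast this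
  subst hb
  obtain ⟨x, y, hxy⟩ := h
  simp at hxy

/-- **The change of basis.**  For a primitive vector `(a, b)` there is `τ ∈ SL(2, ℤ) τ₁` with
`ℤτ + ℤ = (a τ₁ + b)⁻¹ (ℤτ₁ + ℤ)`. -/
theorem modunif_exists_tau (τ₁ : ℍ) {a b : ℤ} (h : IsCoprime a b) :
    ∃ τ : ℍ, ∀ z, z ∈ (modLat τ).lattice ↔ ((a : ℂ) * τ₁ + b) * z ∈ (modLat τ₁).lattice := by
  have hω := modunif_row_ne_zero τ₁ h
  obtain ⟨x, y, hxy⟩ := h
  have hdet : (!![y, -x; a, b] : Matrix (Fin 2) (Fin 2) ℤ).det = 1 := by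
    rw [Matrix.det_fin_two_of]
    linear_combination hxy
  let γ : SL(2, ℤ) := ⟨!![y, -x; a, b], hdet⟩
  have hτ : ((γ • τ₁ : ℍ) : ℂ) * ((a : ℂ) * τ₁ + b) = (y : ℂ) * τ₁ - x := by
    rw [UpperHalfPlane.coe_specialLinearGroup_apply]
    have h1 : (((algebraMap ℤ ℝ (γ 1 0) : ℝ) : ℂ) * τ₁ + ((algebraMap ℤ ℝ (γ 1 1) : ℝ) : ℂ)) =
        (a : ℂ) * τ₁ + b := by simp [γ]
    have h2 : (((algebraMap ℤ ℝ (γ 0 0) : ℝ) : ℂ) * τ₁ + ((algebraMap ℤ ℝ (γ 0 1) : ℝ) : ℂ)) =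
        (y : ℂ) * τ₁ - x := by
      simp [γ]
      ring
    rw [h1, h2, div_mul_cancel₀ _ hω]
  have hxyC : (x : ℂ) * a + y * b = 1 := by exact_mod_cast congrArg (Int.cast : ℤ → ℂ) hxy
  refine ⟨γ • τ₁, fun z => ?_⟩
  rw [modunif_mem_modLat, modunif_mem_modLat]
  constructor
  · rintro ⟨m, n, rfl⟩
    refine ⟨m * y + n * a, -(m * x) + n * b, ?_⟩
    push_cast
    linear_combination (-(m : ℂ)) * hτ
  · rintro ⟨m', n', hmn⟩
    refine ⟨m' * b - n' * a, m' * x + n' * y, ?_⟩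
    apply mul_left_cancel₀ hω
    rw [← hmn]
    push_cast
    linear_combination ((m' : ℂ) * b - n' * a) * hτ + ((m' : ℂ) * τ₁ + n') * hxyC

end Fermat.Agent.S15

end
end ZBZ2S15_007_1

/-! ### bundled: `Fermat.Agent.S15.ModUnif` -/
section ZBZ2S15_007_2
/-
Item 15 (Mazur chain), piece `MOD-UNIF` (helper13): `StmtModAdd → StmtModUnif`.

Every complex Weierstrass curve `W` with `c₄ c₆ Δ ≠ 0` and a point `Q` of exact order `N` is
uniformised by some `τ ∈ ℍ`, `θ : ℂ / (ℤτ + ℤ) ≅ W(ℂ)`, with `θ(1/N) = Q` and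
`ξ°_W(θ z) = ξ°(z; τ)`.

Proof: `J` is surjective (S24), so `J(τ₁) = j(W)`; the curve of `ℤτ₁ + ℤ` is `W` after a change of
variables (scaling by `v`, `v⁴ c₄ = 12 g₂`, `v⁶ c₆ = 216 g₃`); `ξ°` is invariant under changes of
variables; `Q = θ₁((aτ₁ + b)/N)` with `(a, b)` primitive, and `(a, b)` is the bottom row of some
`γ ∈ SL(2, ℤ)`: take `τ = γ τ₁`, `θ(z) = θ₁((aτ₁ + b) z)`.
-/

set_option autoImplicit false

noncomputable section

namespace Fermat.Agent.S15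

open Complex PeriodPair UpperHalfPlane WeierstrassCurve
open Fermat.Agent.S24 Fermat.Agent.EC

/-- **First uniformisation**: some `τ₁` with `J(τ₁) = j(W)` and `θ₁ : ℂ / (ℤτ₁ + ℤ) ≅ W(ℂ)`
respecting `ξ°`. -/
theorem modunif_first (hAdd : StmtModAdd) (W : WeierstrassCurve ℂ) (hΔ : W.Δ ≠ 0)
    (hc₄ : W.c₄ ≠ 0) (hc₆ : W.c₆ ≠ 0) :
    ∃ (τ₁ : ℍ) (θ₁ : ℂ →+ W.toAffine.Point),
      Jfun τ₁ * W.Δ = W.c₄ ^ 3 ∧ (modLat τ₁).g₃ ≠ 0 ∧
      (∀ z, θ₁ z = 0 ↔ z ∈ (modLat τ₁).lattice) ∧ Function.Surjective θ₁ ∧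
      ∀ z, z ∉ (modLat τ₁).lattice → ∃ (x y : ℂ) (h : W.toAffine.Nonsingular x y),
        θ₁ z = .some x y h ∧ modXi W x = modXiAn τ₁ z := by
  obtain ⟨τ₁, hτ₁⟩ := Jfun_surjective (W.c₄ ^ 3 / W.Δ)
  have hJW : Jfun τ₁ * W.Δ = W.c₄ ^ 3 := by rw [hτ₁, div_mul_cancel₀ _ hΔ]
  have hD := modunif_disc_ne_zero τ₁
  have hJ := modunif_Jfun_tau τ₁
  obtain ⟨-, hg₃, v, hv, h4, h6⟩ :=
    modunif_exists_scale W hc₄ hc₆ (modLat τ₁).g₂ (modLat τ₁).g₃ (Jfun τ₁) hD hJ hJW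
  obtain ⟨C, hC, -⟩ := modunif_vc_short W two_ne_zero three_ne_zero v hv
    (modLat τ₁).g₂ (modLat τ₁).g₃ h4 h6
  have hC' : modCurve (modLat τ₁) = C • W := hC.symm
  obtain ⟨θL, hkerL, hsurjL, hvalL⟩ := hAdd (modLat τ₁) hD
  let e₁ : (modCurve (modLat τ₁)).toAffine.Point ≃+ (C • W).toAffine.Point := vcCast hC'
  let e₂ : (C • W).toAffine.Point ≃+ W.toAffine.Point := vcEquiv W C
  let θ₁ : ℂ →+ W.toAffine.Point := e₂.toAddMonoidHom.comp (e₁.toAddMonoidHom.comp θL)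
  have hθ₁ : ∀ z, θ₁ z = e₂ (e₁ (θL z)) := fun z => rfl
  refine ⟨τ₁, θ₁, hJW, hg₃, ?_, ?_, ?_⟩
  · intro z
    rw [hθ₁, AddEquiv.map_eq_zero_iff, AddEquiv.map_eq_zero_iff]
    exact hkerL z
  · exact e₂.surjective.comp (e₁.surjective.comp hsurjL)
  · intro z hz
    obtain ⟨h, hθ⟩ := hvalL z hz
    have h1 : θ₁ z = vcFun W C (Affine.Point.some (℘[modLat τ₁] z) (℘'[modLat τ₁] z / 2)
        (hC' ▸ h)) := by
      rw [hθ₁, hθ]
      show vcEquiv W C (vcCast hC' _) = _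
      rw [vcCast_some, vcEquiv_apply]
    rw [vcFun_some] at h1
    refine ⟨_, _, _, h1, ?_⟩
    rw [← modXi_variableChange W C hc₆, hC, modXi_short _ _ two_ne_zero three_ne_zero hg₃]
    rfl

/-- **MOD-UNIF.** -/
theorem stmtModUnif_of_add (hAdd : StmtModAdd) : StmtModUnif := by
  intro W hΔ hc₄ hc₆ N hN Q hQ
  obtain ⟨τ₁, θ₁, hJW, hg₃, hker, hsurj, hval⟩ := modunif_first hAdd W hΔ hc₄ hc₆
  obtain ⟨a, b, hcop, hab⟩ := modunif_exists_row τ₁ θ₁ hker hsurj N hN Q hQ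
  obtain ⟨τ, hτ⟩ := modunif_exists_tau τ₁ hcop
  have hω := modunif_row_ne_zero τ₁ hcop
  let θ : ℂ →+ W.toAffine.Point := θ₁.comp (AddMonoidHom.mulLeft ((a : ℂ) * τ₁ + b))
  have hθ : ∀ z, θ z = θ₁ (((a : ℂ) * τ₁ + b) * z) := fun z => rfl
  have hg₂s := modunif_g₂_scale hω hτ
  have hg₃s := modunif_g₃_scale hω hτ
  have hwp := modunif_wp_scale hω hτ
  refine ⟨τ, θ, ?_, ?_, ?_, ?_, ?_, ?_⟩
  · have h1 := modunif_Jfun_tau τ
    have h2 := modunif_Jfun_tau τ₁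
    have hD₁ := modunif_disc_ne_zero τ₁
    rw [hg₂s, hg₃s] at h1
    have h3 : Jfun τ = Jfun τ₁ := by
      apply mul_right_cancel₀ hD₁
      apply mul_left_cancel₀ (pow_ne_zero 12 hω)
      linear_combination h1 - ((a : ℂ) * τ₁ + b) ^ 12 * h2
    rw [h3]
    exact hJW
  · rw [hg₃s]
    exact mul_ne_zero (pow_ne_zero 6 hω) hg₃
  · intro z
    rw [hθ, hker, hτ]
  · intro P
    obtain ⟨z₁, hz₁⟩ := hsurj P
    refine ⟨((a : ℂ) * τ₁ + b)⁻¹ * z₁, ?_⟩
    rw [hθ, mul_inv_cancel_left₀ hω, hz₁]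
  · rw [hθ, ← div_eq_mul_inv]
    exact hab
  · intro z hz
    have hz₁ : ((a : ℂ) * τ₁ + b) * z ∉ (modLat τ₁).lattice := fun h => hz ((hτ z).2 h)
    obtain ⟨x, y, h, hxy, hxi⟩ := hval _ hz₁
    refine ⟨x, y, h, hxy, ?_⟩
    rw [hxi]
    unfold modXiAn
    rw [hg₂s, hg₃s, hwp z]
    field_simp

end Fermat.Agent.S15

end
end ZBZ2S15_007_2

/-! ### bundled: `Fermat.Agent.S15.ModAsmE` -/
section ZBZ2S15_007_3
/-
S15 / MOD-ASM-E (helper13): the curve side of the assembly of MOD.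

`stmtModAsmE_of : StmtModAdd → StmtModAsmE`.

From `(W, Q)` (`W` over `ℤ` with a prime of multiplicative reduction, `Q` a `G_ℚ`-fixed point of
order `p`): `Q_ℂ` the image of `Q` in `W(ℂ)` under the fixed embedding `embC`; MOD-UNIF gives
`τ₀` and `θ : ℂ / Λ_{τ₀} ≅ W(ℂ)` with `θ (1/p) = Q_ℂ`, respecting `ξ°`.  Then
`a = c₄³ / Δ`, `c t = Π_t(W, Q) ∈ ℚ` (MOD-XI, `modpi_rat`), `Π_t(τ₀) = embC (c t)`, the
`Γ₀(p)`-criterion is `modg0_main` (MOD-G0), and the reduction clause is `modpi_val_lt_one_iff`.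
-/

set_option autoImplicit false
set_option linter.unusedSectionVars false
set_option synthInstance.maxHeartbeats 400000

noncomputable section

namespace Fermat.Agent.S15

open UpperHalfPlane PeriodPair WeierstrassCurve WeierstrassCurve.Affine
open Fermat.Agent.S24 Fermat.Agent.S05
open scoped MatrixGroups

/-- `ℚ̄` -/
local notation "Qb" => AlgebraicClosure ℚ

/-- the fixed embedding `ℚ̄ → ℂ` as a `ℚ`-algebra homomorphism -/
def modasmeEmb : Qb →ₐ[ℚ] ℂ := embC.toRatAlgHom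

theorem modasmeEmb_apply (x : Qb) : modasmeEmb x = embC x := rfl

/-! ### Generic compatibility of `ξ°` with field maps -/

section Generic

variable {F K : Type*} [Field F] [Field K] [Algebra ℚ F] [Algebra ℚ K]

theorem modasme_c₄ (W : WeierstrassCurve ℤ) :
    ((W.map (Int.castRingHom ℚ)).baseChange K).c₄ = ((W.c₄ : ℤ) : K) := by
  simp only [WeierstrassCurve.baseChange, WeierstrassCurve.map_c₄, eq_intCast, map_intCast]

theorem modasme_c₆ (W : WeierstrassCurve ℤ) :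
    ((W.map (Int.castRingHom ℚ)).baseChange K).c₆ = ((W.c₆ : ℤ) : K) := by
  simp only [WeierstrassCurve.baseChange, WeierstrassCurve.map_c₆, eq_intCast, map_intCast]

theorem modasme_Δ (W : WeierstrassCurve ℤ) :
    ((W.map (Int.castRingHom ℚ)).baseChange K).Δ = ((W.Δ : ℤ) : K) := by
  simp only [WeierstrassCurve.baseChange, WeierstrassCurve.map_Δ, eq_intCast, map_intCast]

theorem modasme_xi (W : WeierstrassCurve ℤ) (f : F →ₐ[ℚ] K) (x : F) :
    modXi ((W.map (Int.castRingHom ℚ)).baseChange K) (f x) =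
      f (modXi ((W.map (Int.castRingHom ℚ)).baseChange F) x) := by
  simp only [modXi, WeierstrassCurve.baseChange, WeierstrassCurve.map_c₄,
    WeierstrassCurve.map_c₆, WeierstrassCurve.map_b₂, WeierstrassCurve.map_b₄,
    WeierstrassCurve.map_b₆, eq_intCast, map_intCast, map_div₀, map_sub, map_add, map_mul,
    map_ofNat]

end Generic

/-! ### The assembly -/

/-- **MOD-ASM-E.** -/
theorem stmtModAsmE_of (hAdd : StmtModAdd) : StmtModAsmE := by
  intro p hp hp5 W hΔ hmult Q hfix hord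
  obtain ⟨ℓ, hℓ, hℓΔ, hℓc₄⟩ := hmult
  have hc₄ : W.c₄ ≠ 0 := fun h => hℓc₄ (h ▸ dvd_zero _)
  have hc₆ : W.c₆ ≠ 0 := fun h => modxi_not_dvd_c₆ W hℓ hℓΔ hℓc₄ (h ▸ dvd_zero _)
  have hΔC : ((W.map (Int.castRingHom ℚ)).baseChange ℂ).Δ ≠ 0 := by
    rw [modasme_Δ]
    exact_mod_cast hΔ
  have hc₄C : ((W.map (Int.castRingHom ℚ)).baseChange ℂ).c₄ ≠ 0 := by
    rw [modasme_c₄]
    exact_mod_cast hc₄
  have hc₆C : ((W.map (Int.castRingHom ℚ)).baseChange ℂ).c₆ ≠ 0 := by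
    rw [modasme_c₆]
    exact_mod_cast hc₆
  let QC : ((W.map (Int.castRingHom ℚ))⁄ℂ).Point := Point.map modasmeEmb Q
  have hordC : addOrderOf QC = p := by
    rw [← hord]
    exact addOrderOf_injective (Point.map modasmeEmb) (Point.map_injective modasmeEmb) Q
  obtain ⟨τ, θ, hJ, hg₃, hker, hsurj, hθQ, hval⟩ :=
    stmtModUnif_of_add hAdd _ hΔC hc₄C hc₆C p hp.two_le QC hordC
  -- the values of `ξ°` at the multiples of `Q`
  have hkey : ∀ k ∈ Finset.Ico 1 p,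
      modXiAn τ ((k : ℂ) / (p : ℂ)) =
        embC (modXi ((W.map (Int.castRingHom ℚ)).baseChange Qb) (modPtX (k • Q))) := by
    intro k hk
    obtain ⟨x, y, h, hkQ, -⟩ := modpi_exists_some Q hord hk
    have h1 : θ ((k : ℂ) / (p : ℂ)) = Point.map modasmeEmb (k • Q) := by
      rw [map_nsmul]
      have h2 : Point.map modasmeEmb Q = θ ((p : ℂ)⁻¹) := hθQ.symm
      rw [h2, ← map_nsmul]
      congr 1
      rw [nsmul_eq_mul, div_eq_mul_inv]
    rw [hkQ, Point.map_some] at h1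
    have hnot : ((k : ℂ) / (p : ℂ)) ∉ (modLat τ).lattice := by
      intro hmem
      have h3 := (hker _).2 hmem
      rw [h1] at h3
      exact Point.some_ne_zero _ h3
    obtain ⟨x', y', h', hθ', hxi⟩ := hval _ hnot
    rw [h1] at hθ'
    have hx : modasmeEmb x = x' := (Point.some.inj hθ').1
    rw [hkQ, modPtX_some, ← hxi, ← hx, modasme_xi]
    rfl
  -- the rational numbers `c t`
  have hcspec : ∀ t : ℤ, ∃ r : ℚ, algebraMap ℚ Qb r =
      modPiAlg ((W.map (Int.castRingHom ℚ)).baseChange Qb) Q p ((t : ℤ) : Qb) := by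
    intro t
    obtain ⟨r, hr⟩ := modpi_rat Q hfix p (t : ℚ)
    refine ⟨r, ?_⟩
    rw [hr, map_intCast]
  choose c hc using hcspec
  have hPi : ∀ t : ℤ, modPiAn p (t : ℂ) τ = embC (algebraMap ℚ Kb (c t)) := by
    intro t
    rw [hc t]
    unfold modPiAn modPiAlg
    rw [map_prod]
    refine Finset.prod_congr rfl fun k hk => ?_
    rw [map_sub, map_intCast, hkey k hk]
  have hJ' : Jfun τ = embC (algebraMap ℚ Kb ((W.c₄ : ℚ) ^ 3 / (W.Δ : ℚ))) := by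
    rw [modasme_Δ, modasme_c₄] at hJ
    have hΔ' : ((W.Δ : ℤ) : ℂ) ≠ 0 := by exact_mod_cast hΔ
    rw [map_div₀, map_div₀, map_pow, map_pow, map_intCast, map_intCast, map_intCast,
      map_intCast, eq_div_iff hΔ']
    exact hJ
  -- injectivity of `ξ°` modulo `±` and the lattice
  have hinj : ∀ z₁ z₂ : ℂ, z₁ ∉ (modLat τ).lattice → z₂ ∉ (modLat τ).lattice →
      modXiAn τ z₁ = modXiAn τ z₂ →
        z₁ - z₂ ∈ (modLat τ).lattice ∨ z₁ + z₂ ∈ (modLat τ).lattice := by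
    intro z₁ z₂ hz₁ hz₂ hxi
    obtain ⟨x₁, y₁, h₁, hθ₁, hxi₁⟩ := hval z₁ hz₁
    obtain ⟨x₂, y₂, h₂, hθ₂, hxi₂⟩ := hval z₂ hz₂
    have hx : x₁ = x₂ := modXi_inj hc₄C hc₆C (by rw [hxi₁, hxi₂, hxi])
    subst hx
    rcases Affine.Y_eq_of_X_eq h₁.1 h₂.1 rfl with hy | hy
    · left
      subst hy
      rw [← hker, map_sub, hθ₁, hθ₂]
      exact sub_self _
    · right
      rw [← hker, map_add, hθ₁, hθ₂]
      exact Point.add_of_Y_eq rfl hy
  refine ⟨τ, (W.c₄ : ℚ) ^ 3 / (W.Δ : ℚ), c, hJ', ?_, hPi, ?_, ?_⟩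
  · intro γ
    rw [modg0_g₃]
    exact mul_ne_zero (pow_ne_zero 6 (modg0J_ne_zero γ τ)) hg₃
  · intro γ h
    exact modg0_main p hp.two_le τ γ hinj h
  · intro v hv hvp hvΔ hvc₄ A hA
    have hc0 : algebraMap ℚ Kb (c 0) =
        modPiAlg ((W.map (Int.castRingHom ℚ)).baseChange Qb) Q p 0 := by
      rw [hc 0, Int.cast_zero]
    refine ⟨?_, ?_, ?_⟩
    · intro hmem
      have h1 : A.valuation (algebraMap ℚ Kb ((W.c₄ : ℚ) ^ 3 / (W.Δ : ℚ))) ≤ 1 :=
        (A.valuation_le_one_iff _).2 hmem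
      have h2 : A.valuation ((W.Δ : ℤ) : Qb) < 1 :=
        (valuation_intCast_lt_one_iff A hv hA _).2 hvΔ
      have h3 : A.valuation ((W.c₄ : ℤ) : Qb) = 1 :=
        (valuation_intCast_eq_one_iff A hv hA _).2 hvc₄
      have hΔ' : ((W.Δ : ℤ) : Qb) ≠ 0 := by exact_mod_cast hΔ
      have h4 : algebraMap ℚ Kb ((W.c₄ : ℚ) ^ 3 / (W.Δ : ℚ)) * ((W.Δ : ℤ) : Qb) =
          ((W.c₄ : ℤ) : Qb) ^ 3 := by
        rw [map_div₀, map_pow, map_intCast, map_intCast, div_mul_cancel₀ _ hΔ']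
      have h5 := congrArg A.valuation h4
      rw [map_mul, map_pow, h3, one_pow] at h5
      have h6 : A.valuation (algebraMap ℚ Kb ((W.c₄ : ℚ) ^ 3 / (W.Δ : ℚ))) *
          A.valuation ((W.Δ : ℤ) : Qb) < 1 := by
        calc _ ≤ 1 * A.valuation ((W.Δ : ℤ) : Qb) := mul_le_mul' h1 le_rfl
          _ = A.valuation ((W.Δ : ℤ) : Qb) := one_mul _
          _ < 1 := h2
      rw [h5] at h6
      exact lt_irrefl _ h6
    · rw [hc0, ← A.valuation_le_one_iff]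
      exact modpi_val_le hp hv hvp hA hvΔ hvc₄ Q hord (t := 0) (zero_mem _)
    · rw [hc0, ValuationSubring.mem_nonunits_iff,
        modpi_val_lt_one_iff hp hv hvp hA hvΔ hvc₄ Q hord, not_not]

end Fermat.Agent.S15

end
end ZBZ2S15_007_3

/-! ### bundled: `Fermat.Agent.S15.N3AsmE` -/
section ZBZ2S15_007_4

/-!
# S15 / N3-ASM-E2 — the curve side of MOD with the value of the modular unit (helper51)

`stmtModAsmE2_of : StmtModAdd → StmtN3EC → StmtModAsmE2`.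

The proof of `stmtModAsmE_of` (helper13) with one more output: the rational number
`d = Δ(W)^{p-1} / (p¹² ∏_k ψ₂²(x(kQ))²)`.  No uniformisation of the `y`-coordinate is needed:
`η² = ψ₂²(x)` is a function of `x`, and `ψ₂²(x)² / Δ` is a universal function of `j` and `ξ°`
(`n3_key_alg`), so `ψ₂²(x(θ z))² Δ(Λ) = ℘'(z)⁴ Δ(W)` follows from MOD-UNIF.
-/

set_option autoImplicit false
set_option linter.unusedSectionVars false
set_option synthInstance.maxHeartbeats 400000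

noncomputable section

namespace Fermat.Agent.S15

open UpperHalfPlane PeriodPair WeierstrassCurve WeierstrassCurve.Affine
open Fermat.Agent.S24 Fermat.Agent.S05
open scoped MatrixGroups

/-- `ℚ̄` -/
local notation "Qb" => AlgebraicClosure ℚ

/-! ### Algebra -/

section Alg

variable {K : Type*} [Field K] [CharZero K]

/-- `ψ₂²` in the short coordinate `X = x + b₂/12` -/
theorem n3Psi_short (W : WeierstrassCurve K) (x : K) :
    n3Psi W x = 4 * (x + W.b₂ / 12) ^ 3 - W.c₄ / 12 * (x + W.b₂ / 12) - W.c₆ / 216 := by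
  simp only [n3Psi, WeierstrassCurve.c₄, WeierstrassCurve.c₆]
  ring

/-- `ξ°` in the short coordinate -/
theorem n3_modXi_short (W : WeierstrassCurve K) (h6 : W.c₆ ≠ 0) (x : K) :
    modXi W x * W.c₆ = W.c₄ * (x + W.b₂ / 12) + W.c₆ / 12 := by
  unfold modXi
  rw [div_mul_cancel₀ _ h6]
  simp only [WeierstrassCurve.c₄, WeierstrassCurve.c₆]
  ring

/-- the universal identity: two curves `(c₄, c₆, Δ)`, `(12 G₂, 216 G₃, G₂³ - 27 G₃²)` with the
same `j` and points with the same `ξ°` have the same `ψ₂²(x)² / Δ`. -/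
theorem n3_key_alg (c₄ c₆ Δ G₂ G₃ X P : K) (hc₄ : c₄ ≠ 0) (hG₃ : G₃ ≠ 0)
    (hrel : 1728 * Δ = c₄ ^ 3 - c₆ ^ 2)
    (hJ : c₄ ^ 3 * (G₂ ^ 3 - 27 * G₃ ^ 2) = 1728 * G₂ ^ 3 * Δ)
    (hξ : 18 * G₃ * c₄ * X = G₂ * c₆ * P) :
    (4 * X ^ 3 - c₄ / 12 * X - c₆ / 216) ^ 2 * (G₂ ^ 3 - 27 * G₃ ^ 2) =
      (4 * P ^ 3 - G₂ * P - G₃) ^ 2 * Δ := by
  -- `c₆² G₂³ = 27 G₃² c₄³`
  have h4 : c₆ ^ 2 * G₂ ^ 3 = 27 * G₃ ^ 2 * c₄ ^ 3 := by
    linear_combination G₂ ^ 3 * hrel + hJ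
  have h5 : (G₂ ^ 3 - 27 * G₃ ^ 2) * c₆ ^ 2 = 46656 * G₃ ^ 2 * Δ := by
    linear_combination (G₂ ^ 3 - 27 * G₃ ^ 2) * hrel + hJ
  have hG₂ : G₂ ≠ 0 := by
    rintro rfl
    have h : 27 * G₃ ^ 2 * c₄ ^ 3 = 0 := by rw [← h4]; ring
    exact (mul_ne_zero (mul_ne_zero (by norm_num) (pow_ne_zero 2 hG₃)) (pow_ne_zero 3 hc₄)) h
  have h18 : 18 * G₃ * c₄ ≠ 0 := mul_ne_zero (mul_ne_zero (by norm_num) hG₃) hc₄
  obtain ⟨lam, hlam'⟩ : ∃ lam : K, lam * (18 * G₃ * c₄) = G₂ * c₆ :=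
    ⟨G₂ * c₆ / (18 * G₃ * c₄), div_mul_cancel₀ _ h18⟩
  have hX : X = lam * P := by
    apply mul_left_cancel₀ h18
    linear_combination hξ - P * hlam'
  have ha : 12 * G₂ * lam ^ 2 = c₄ := by
    apply mul_left_cancel₀ (pow_ne_zero 2 h18)
    linear_combination (12 * G₂ * (lam * (18 * G₃ * c₄) + G₂ * c₆)) * hlam' + 12 * h4
  have hb : 216 * G₃ * lam ^ 3 = c₆ := by
    apply mul_left_cancel₀ (mul_ne_zero h18 hG₂)
    linear_combination (324 * G₃ ^ 2 * c₄ * lam) * ha + (18 * G₃ * c₄) * hlam'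
  have hc : (G₂ ^ 3 - 27 * G₃ ^ 2) * lam ^ 6 = Δ := by
    apply mul_left_cancel₀ (mul_ne_zero (by norm_num : (46656 : K) ≠ 0) (pow_ne_zero 2 hG₃))
    linear_combination ((G₂ ^ 3 - 27 * G₃ ^ 2) * (216 * G₃ * lam ^ 3 + c₆)) * hb + h5
  have hψ : 4 * X ^ 3 - c₄ / 12 * X - c₆ / 216 = lam ^ 3 * (4 * P ^ 3 - G₂ * P - G₃) := by
    rw [hX, ← ha, ← hb]
    ring
  rw [hψ]
  linear_combination ((4 * P ^ 3 - G₂ * P - G₃) ^ 2) * hc

end Alg

/-! ### The analytic key -/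

/-- MOD-UNIF for `ψ₂²`: if `x` is the `x`-coordinate of the point of `W` attached to `z`
(same `ξ°`) and `j(τ) = j(W)`, then `ψ₂²(x)² Δ(ℤτ + ℤ) = ℘'(z)⁴ Δ(W)`. -/
theorem n3_key (W : WeierstrassCurve ℂ) (hc₄ : W.c₄ ≠ 0) (hc₆ : W.c₆ ≠ 0) (τ : ℍ)
    (hJ : Jfun τ * W.Δ = W.c₄ ^ 3) (hg₃ : (modLat τ).g₃ ≠ 0) {z : ℂ}
    (hz : z ∉ (modLat τ).lattice) {x : ℂ} (hxi : modXi W x = modXiAn τ z) :
    (n3Psi W x) ^ 2 * n3Disc (modLat τ) = (℘'[modLat τ] z) ^ 4 * W.Δ := by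
  have hD := modunif_disc_ne_zero τ
  have hJτ := modunif_Jfun_tau τ
  have hode := (modLat τ).derivWeierstrassP_sq z hz
  have hshort := n3_modXi_short W hc₆ x
  rw [hxi] at hshort
  unfold modXiAn at hshort
  have h18 : (18 : ℂ) * (modLat τ).g₃ ≠ 0 := mul_ne_zero (by norm_num) hg₃
  have hξ : 18 * (modLat τ).g₃ * W.c₄ * (x + W.b₂ / 12) =
      (modLat τ).g₂ * W.c₆ * ℘[modLat τ] z := by
    have h1 : (modLat τ).g₂ / (18 * (modLat τ).g₃) * (18 * (modLat τ).g₃) = (modLat τ).g₂ :=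
      div_mul_cancel₀ _ h18
    linear_combination (-(18 * (modLat τ).g₃)) * hshort + (℘[modLat τ] z * W.c₆) * h1
  have hJ' : W.c₄ ^ 3 * ((modLat τ).g₂ ^ 3 - 27 * (modLat τ).g₃ ^ 2) =
      1728 * (modLat τ).g₂ ^ 3 * W.Δ := by
    linear_combination (-((modLat τ).g₂ ^ 3 - 27 * (modLat τ).g₃ ^ 2)) * hJ + W.Δ * hJτ
  have hkey := n3_key_alg W.c₄ W.c₆ W.Δ (modLat τ).g₂ (modLat τ).g₃ (x + W.b₂ / 12)
    (℘[modLat τ] z) hc₄ hg₃ W.c_relation hJ' hξ
  rw [n3Psi_short, n3Disc, hkey, ← hode]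
  ring

/-! ### The curve side -/

section Curve

variable {F : Type*} [Field F] [DecidableEq F]

/-- on the curve `ψ₂²(x) = (y - negY)²` -/
theorem n3Psi_eq_sq (W : WeierstrassCurve F) {x y : F} (h : W.toAffine.Equation x y) :
    n3Psi W x = (y - W.toAffine.negY x y) ^ 2 := by
  rw [WeierstrassCurve.Affine.equation_iff] at h
  simp only [n3Psi, WeierstrassCurve.Affine.negY, WeierstrassCurve.b₂, WeierstrassCurve.b₄,
    WeierstrassCurve.b₆]
  linear_combination (-4 : F) * h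

/-- a point at which `ψ₂²` vanishes is of order `2` -/
theorem n3Psi_add_self (W : WeierstrassCurve F) {x y : F} (h : W.toAffine.Nonsingular x y)
    (h0 : n3Psi W x = 0) :
    (Point.some x y h : W.toAffine.Point) + Point.some x y h = 0 := by
  rw [n3Psi_eq_sq W h.1] at h0
  have h1 : y = W.toAffine.negY x y := sub_eq_zero.1 ((pow_eq_zero_iff (two_ne_zero)).1 h0)
  exact Point.add_self_of_Y_eq h1

end Curve

section Generic

variable {F K : Type*} [Field F] [Field K] [Algebra ℚ F] [Algebra ℚ K]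

theorem n3Psi_map (W : WeierstrassCurve ℤ) (f : F →ₐ[ℚ] K) (x : F) :
    n3Psi ((W.map (Int.castRingHom ℚ)).baseChange K) (f x) =
      f (n3Psi ((W.map (Int.castRingHom ℚ)).baseChange F) x) := by
  simp only [n3Psi, WeierstrassCurve.baseChange, WeierstrassCurve.map_b₂,
    WeierstrassCurve.map_b₄, WeierstrassCurve.map_b₆, eq_intCast, map_intCast, map_add,
    map_mul, map_pow, map_ofNat]

theorem n3Psi_mem_range (W : WeierstrassCurve ℤ) {x : K}
    (hx : x ∈ (algebraMap ℚ K).fieldRange) :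
    n3Psi ((W.map (Int.castRingHom ℚ)).baseChange K) x ∈ (algebraMap ℚ K).fieldRange := by
  simp only [n3Psi, WeierstrassCurve.baseChange, WeierstrassCurve.map_b₂,
    WeierstrassCurve.map_b₄, WeierstrassCurve.map_b₆, eq_intCast, map_intCast]
  have h4 : (4 : K) ∈ (algebraMap ℚ K).fieldRange := ⟨4, by simp⟩
  have h2 : (2 : K) ∈ (algebraMap ℚ K).fieldRange := ⟨2, by simp⟩
  exact add_mem (add_mem (add_mem (mul_mem h4 (pow_mem hx 3))
    (mul_mem (intCast_mem _ _) (pow_mem hx 2))) (mul_mem (mul_mem h2 (intCast_mem _ _)) hx))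
    (intCast_mem _ _)

end Generic

variable {W : WeierstrassCurve ℤ} {p : ℕ}

/-- `ψ₂²` does not vanish at the multiples `k • Q`, `0 < k < p`, of a point of odd prime
order `p`. -/
theorem n3Psi_ne_zero (hp : p.Prime) (hp5 : 5 ≤ p)
    (Q : ((W.map (Int.castRingHom ℚ))⁄Qb).Point) (hord : addOrderOf Q = p) {k : ℕ}
    (hk : k ∈ Finset.Ico 1 p) :
    n3Psi ((W.map (Int.castRingHom ℚ)).baseChange Qb) (modPtX (k • Q)) ≠ 0 := by
  obtain ⟨x, y, h, hkQ, -⟩ := modpi_exists_some Q hord hk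
  rw [hkQ, modPtX_some]
  intro h0
  have h1 := n3Psi_add_self _ h h0
  rw [← hkQ, ← two_nsmul, ← mul_nsmul'] at h1
  have h2 := addOrderOf_dvd_of_nsmul_eq_zero h1
  rw [hord] at h2
  rw [Finset.mem_Ico] at hk
  rcases (Nat.Prime.dvd_mul hp).1 h2 with h3 | h3
  · exact absurd (Nat.le_of_dvd (by omega) h3) (by omega)
  · exact absurd (Nat.le_of_dvd (by omega) h3) (by omega)

/-! ### The assembly -/

/-- **N3-ASM-E2.** -/
theorem stmtModAsmE2_of (hAdd : StmtModAdd) (hEC : StmtN3EC) : StmtModAsmE2 := by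
  intro p hp hp5 W hΔ hmult Q hfix hord
  obtain ⟨ℓ, hℓ, hℓΔ, hℓc₄⟩ := hmult
  have hc₄ : W.c₄ ≠ 0 := fun h => hℓc₄ (h ▸ dvd_zero _)
  have hc₆ : W.c₆ ≠ 0 := fun h => modxi_not_dvd_c₆ W hℓ hℓΔ hℓc₄ (h ▸ dvd_zero _)
  have hΔC : ((W.map (Int.castRingHom ℚ)).baseChange ℂ).Δ ≠ 0 := by
    rw [modasme_Δ]
    exact_mod_cast hΔ
  have hc₄C : ((W.map (Int.castRingHom ℚ)).baseChange ℂ).c₄ ≠ 0 := by
    rw [modasme_c₄]
    exact_mod_cast hc₄
  have hc₆C : ((W.map (Int.castRingHom ℚ)).baseChange ℂ).c₆ ≠ 0 := by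
    rw [modasme_c₆]
    exact_mod_cast hc₆
  let QC : ((W.map (Int.castRingHom ℚ))⁄ℂ).Point := Point.map modasmeEmb Q
  have hordC : addOrderOf QC = p := by
    rw [← hord]
    exact addOrderOf_injective (Point.map modasmeEmb) (Point.map_injective modasmeEmb) Q
  obtain ⟨τ, θ, hJ, hg₃, hker, hsurj, hθQ, hval⟩ :=
    stmtModUnif_of_add hAdd _ hΔC hc₄C hc₆C p hp.two_le QC hordC
  -- the multiples of `1/p` are not in the lattice
  have hnotk : ∀ k ∈ Finset.Ico 1 p, ((k : ℂ) / (p : ℂ)) ∉ (modLat τ).lattice := by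
    intro k hk
    obtain ⟨x, y, h, hkQ, -⟩ := modpi_exists_some Q hord hk
    have h1 : θ ((k : ℂ) / (p : ℂ)) = Point.map modasmeEmb (k • Q) := by
      rw [map_nsmul]
      have h2 : Point.map modasmeEmb Q = θ ((p : ℂ)⁻¹) := hθQ.symm
      rw [h2, ← map_nsmul]
      congr 1
      rw [nsmul_eq_mul, div_eq_mul_inv]
    rw [hkQ, Point.map_some] at h1
    intro hmem
    have h3 := (hker _).2 hmem
    rw [h1] at h3
    exact Point.some_ne_zero _ h3
  -- the values of `ξ°` at the multiples of `Q`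
  have hkey : ∀ k ∈ Finset.Ico 1 p,
      modXiAn τ ((k : ℂ) / (p : ℂ)) =
        embC (modXi ((W.map (Int.castRingHom ℚ)).baseChange Qb) (modPtX (k • Q))) := by
    intro k hk
    obtain ⟨x, y, h, hkQ, -⟩ := modpi_exists_some Q hord hk
    have h1 : θ ((k : ℂ) / (p : ℂ)) = Point.map modasmeEmb (k • Q) := by
      rw [map_nsmul]
      have h2 : Point.map modasmeEmb Q = θ ((p : ℂ)⁻¹) := hθQ.symm
      rw [h2, ← map_nsmul]
      congr 1
      rw [nsmul_eq_mul, div_eq_mul_inv]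
    rw [hkQ, Point.map_some] at h1
    obtain ⟨x', y', h', hθ', hxi⟩ := hval _ (hnotk k hk)
    rw [h1] at hθ'
    have hx : modasmeEmb x = x' := (Point.some.inj hθ').1
    rw [hkQ, modPtX_some, ← hxi, ← hx, modasme_xi]
    rfl
  -- the rational numbers `c t`
  have hcspec : ∀ t : ℤ, ∃ r : ℚ, algebraMap ℚ Qb r =
      modPiAlg ((W.map (Int.castRingHom ℚ)).baseChange Qb) Q p ((t : ℤ) : Qb) := by
    intro t
    obtain ⟨r, hr⟩ := modpi_rat Q hfix p (t : ℚ)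
    refine ⟨r, ?_⟩
    rw [hr, map_intCast]
  choose c hc using hcspec
  have hPi : ∀ t : ℤ, modPiAn p (t : ℂ) τ = embC (algebraMap ℚ Kb (c t)) := by
    intro t
    rw [hc t]
    unfold modPiAn modPiAlg
    rw [map_prod]
    refine Finset.prod_congr rfl fun k hk => ?_
    rw [map_sub, map_intCast, hkey k hk]
  have hJ' : Jfun τ = embC (algebraMap ℚ Kb ((W.c₄ : ℚ) ^ 3 / (W.Δ : ℚ))) := by
    rw [modasme_Δ, modasme_c₄] at hJ
    have hΔ' : ((W.Δ : ℤ) : ℂ) ≠ 0 := by exact_mod_cast hΔ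
    rw [map_div₀, map_div₀, map_pow, map_pow, map_intCast, map_intCast, map_intCast,
      map_intCast, eq_div_iff hΔ']
    exact hJ
  -- injectivity of `ξ°` modulo `±` and the lattice
  have hinj : ∀ z₁ z₂ : ℂ, z₁ ∉ (modLat τ).lattice → z₂ ∉ (modLat τ).lattice →
      modXiAn τ z₁ = modXiAn τ z₂ →
        z₁ - z₂ ∈ (modLat τ).lattice ∨ z₁ + z₂ ∈ (modLat τ).lattice := by
    intro z₁ z₂ hz₁ hz₂ hxi
    obtain ⟨x₁, y₁, h₁, hθ₁, hxi₁⟩ := hval z₁ hz₁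
    obtain ⟨x₂, y₂, h₂, hθ₂, hxi₂⟩ := hval z₂ hz₂
    have hx : x₁ = x₂ := modXi_inj hc₄C hc₆C (by rw [hxi₁, hxi₂, hxi])
    subst hx
    rcases Affine.Y_eq_of_X_eq h₁.1 h₂.1 rfl with hy | hy
    · left
      subst hy
      rw [← hker, map_sub, hθ₁, hθ₂]
      exact sub_self _
    · right
      rw [← hker, map_add, hθ₁, hθ₂]
      exact Point.add_of_Y_eq rfl hy
  -- the rational number `d`
  set S : Qb := ∏ k ∈ Finset.Ico 1 p,
    (n3Psi ((W.map (Int.castRingHom ℚ)).baseChange Qb) (modPtX (k • Q))) ^ 2 with hS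
  have hS0 : S ≠ 0 :=
    Finset.prod_ne_zero_iff.2 fun k hk => pow_ne_zero 2 (n3Psi_ne_zero hp hp5 Q hord hk)
  have hSmem : S ∈ (algebraMap ℚ Qb).fieldRange := by
    refine prod_mem fun k _ => pow_mem (n3Psi_mem_range W ?_) 2
    obtain ⟨r, hr⟩ := modpi_ptX_rat Q hfix k
    exact ⟨r, hr⟩
  have hp0 : (p : Qb) ≠ 0 := Nat.cast_ne_zero.2 hp.ne_zero
  have hΔQ : ((W.Δ : ℤ) : Qb) ≠ 0 := by exact_mod_cast hΔ
  have hDmem : ((W.Δ : ℤ) : Qb) ^ (p - 1) / ((p : Qb) ^ 12 * S) ∈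
      (algebraMap ℚ Qb).fieldRange :=
    div_mem (pow_mem (intCast_mem _ _) _) (mul_mem (pow_mem (natCast_mem _ _) _) hSmem)
  obtain ⟨d, hd⟩ := hDmem
  have hrelAlg : N3RelAlg p W Q d := by
    unfold N3RelAlg
    rw [hd, ← hS]
    field_simp
  have hd0 : d ≠ 0 := by
    rintro rfl
    rw [map_zero] at hd
    have := hd.symm
    rw [div_eq_zero_iff] at this
    rcases this with h | h
    · exact pow_ne_zero _ hΔQ h
    · exact mul_ne_zero (pow_ne_zero 12 hp0) hS0 h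
  -- the analytic relation
  have hrel : N3Rel p τ (embC (algebraMap ℚ Kb d)) := by
    unfold N3Rel
    have hΔ' : ((W.Δ : ℤ) : ℂ) ≠ 0 := by exact_mod_cast hΔ
    have hk1 : ∀ k ∈ Finset.Ico 1 p,
        (embC (n3Psi ((W.map (Int.castRingHom ℚ)).baseChange Qb) (modPtX (k • Q)))) ^ 2 *
            n3Disc (modLat τ) =
          (℘'[modLat τ] ((k : ℂ) / (p : ℂ))) ^ 4 * ((W.Δ : ℤ) : ℂ) := by
      intro k hk
      have hxi : modXi ((W.map (Int.castRingHom ℚ)).baseChange ℂ)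
          (modasmeEmb (modPtX (k • Q))) = modXiAn τ ((k : ℂ) / (p : ℂ)) := by
        rw [modasme_xi, hkey k hk]
        rfl
      have h1 := n3_key _ hc₄C hc₆C τ hJ hg₃ (hnotk k hk) hxi
      rw [n3Psi_map, modasme_Δ] at h1
      exact h1
    have hprod := Finset.prod_congr (rfl : Finset.Ico 1 p = Finset.Ico 1 p) hk1
    rw [Finset.prod_mul_distrib, Finset.prod_mul_distrib, Finset.prod_const, Finset.prod_const,
      Nat.card_Ico] at hprod
    have halg := congrArg embC hrelAlg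
    rw [map_mul, map_mul, map_pow, map_natCast, map_prod, map_pow, map_intCast] at halg
    simp only [map_pow] at halg
    generalize (∏ k ∈ Finset.Ico 1 p, (℘'[modLat τ] ((k : ℂ) / (p : ℂ))) ^ 4) = PP at hprod ⊢
    generalize (∏ k ∈ Finset.Ico 1 p,
      (embC (n3Psi ((W.map (Int.castRingHom ℚ)).baseChange Qb) (modPtX (k • Q)))) ^ 2) = PS
      at hprod halg
    apply mul_right_cancel₀ (pow_ne_zero (p - 1) hΔ')
    linear_combination (-(embC (algebraMap ℚ Kb d) * (p : ℂ) ^ 12)) * hprod +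
      (n3Disc (modLat τ) ^ (p - 1)) * halg
  refine ⟨τ, (W.c₄ : ℚ) ^ 3 / (W.Δ : ℚ), c, d, hJ', ?_, hPi, ?_, ?_, hd0, hrel,
    hEC p hp hp5 W hΔ Q hfix hord d hrelAlg⟩
  · intro γ
    rw [modg0_g₃]
    exact mul_ne_zero (pow_ne_zero 6 (modg0J_ne_zero γ τ)) hg₃
  · intro γ h
    exact modg0_main p hp.two_le τ γ hinj h
  · intro v hv hvp hvΔ hvc₄ A hA
    have hc0 : algebraMap ℚ Kb (c 0) =
        modPiAlg ((W.map (Int.castRingHom ℚ)).baseChange Qb) Q p 0 := by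
      rw [hc 0, Int.cast_zero]
    refine ⟨?_, ?_, ?_⟩
    · intro hmem
      have h1 : A.valuation (algebraMap ℚ Kb ((W.c₄ : ℚ) ^ 3 / (W.Δ : ℚ))) ≤ 1 :=
        (A.valuation_le_one_iff _).2 hmem
      have h2 : A.valuation ((W.Δ : ℤ) : Qb) < 1 :=
        (valuation_intCast_lt_one_iff A hv hA _).2 hvΔ
      have h3 : A.valuation ((W.c₄ : ℤ) : Qb) = 1 :=
        (valuation_intCast_eq_one_iff A hv hA _).2 hvc₄
      have hΔ' : ((W.Δ : ℤ) : Qb) ≠ 0 := by exact_mod_cast hΔ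
      have h4 : algebraMap ℚ Kb ((W.c₄ : ℚ) ^ 3 / (W.Δ : ℚ)) * ((W.Δ : ℤ) : Qb) =
          ((W.c₄ : ℤ) : Qb) ^ 3 := by
        rw [map_div₀, map_pow, map_intCast, map_intCast, div_mul_cancel₀ _ hΔ']
      have h5 := congrArg A.valuation h4
      rw [map_mul, map_pow, h3, one_pow] at h5
      have h6 : A.valuation (algebraMap ℚ Kb ((W.c₄ : ℚ) ^ 3 / (W.Δ : ℚ))) *
          A.valuation ((W.Δ : ℤ) : Qb) < 1 := by
        calc _ ≤ 1 * A.valuation ((W.Δ : ℤ) : Qb) := mul_le_mul' h1 le_rfl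
          _ = A.valuation ((W.Δ : ℤ) : Qb) := one_mul _
          _ < 1 := h2
      rw [h5] at h6
      exact lt_irrefl _ h6
    · rw [hc0, ← A.valuation_le_one_iff]
      exact modpi_val_le hp hv hvp hA hvΔ hvc₄ Q hord (t := 0) (zero_mem _)
    · rw [hc0, ValuationSubring.mem_nonunits_iff,
        modpi_val_lt_one_iff hp hv hvp hA hvΔ hvc₄ Q hord, not_not]

end Fermat.Agent.S15

end
end ZBZ2S15_007_4
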