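/- GENERATED FILE (helper35, build-time optimisation, NOTES/ZB.md): verbatim concatenation of the modules
   Fermat.Agent.S36.N2PtsFac
   Do not edit; do not import together with these modules. -/
import Mathlib
import Fermat.Agent.ZB.STB_003
import Fermat.Agent.ZB.S04_001

/-! ### bundled: `Fermat.Agent.S36.N2PtsFac` -/
section ZBS36_003_0
/-
S36 (Carayol at `q² ∥ M`), geometry, piece N2-pts (helper45), ABSTRACT part 2:
**UFD ⇒ local factorisation** (`STB.StbFacAt`, the field `fac` of `S36PtInput`).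

`O` a UFD with fraction field `F` (the local ring `B_𝔫` of the chart at a closed point, REG),
`E ⊆ F` the constant field.  THE DICTIONARY: every prime element `f` of `O` is either
* VERTICAL: `(f) = 𝔪(V c) ∩ O` for a component `V c` through the point, or
* HORIZONTAL: `E ⊆ O_(f)`; then `O_(f)` is (the valuation ring of) a `Place E F`
  (`s36n2pPlace`) and `ord_P` is the `f`-adic order (`s36n2p_ord`).
If `y ∈ F^×` is a unit at the components through the point and `m ∣ ord_P y` for every place `P`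
of `F / E`, then `y = ε γ ^ m` with `ε ∈ O^×`  (`s36n2p_fac_core`, `s36n2p_facAt`).

Mathlib + the prelude definition of `Place` only.
-/

set_option autoImplicit false
set_option linter.unusedSectionVars false
set_option linter.unusedVariables false
set_option linter.style.haveILetI false

namespace Fermat.Agent.S36

open AlgebraicCurve UniqueFactorizationMonoid

section Core

variable {O F : Type*} [CommRing O] [IsDomain O] [UniqueFactorizationMonoid O]
  [Field F] [Algebra O F] [IsFractionRing O F]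

/-- `a = f ^ n a'`, `f ∤ a'` -/
theorem s36n2p_exists_mult {f a : O} (hf : Prime f) (ha : a ≠ 0) :
    ∃ (n : ℕ) (a' : O), a = f ^ n * a' ∧ ¬ f ∣ a' := by
  have hfin : FiniteMultiplicity f a := FiniteMultiplicity.of_not_isUnit hf.not_isUnit ha
  obtain ⟨c, hc, hc'⟩ := hfin.exists_eq_pow_mul_and_not_dvd
  exact ⟨_, c, hc, hc'⟩

/-- uniqueness of the exponent -/
theorem s36n2p_mult_unique {f a' a'' : O} (hf : Prime f) {n k : ℕ}
    (h : f ^ n * a' = f ^ k * a'') (ha' : ¬ f ∣ a') (ha'' : ¬ f ∣ a'') : n = k := by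
  have hf0 : f ≠ 0 := hf.ne_zero
  wlog hnk : n ≤ k generalizing n k a' a''
  · exact (this h.symm ha'' ha' (le_of_not_ge hnk)).symm
  obtain ⟨d, rfl⟩ := Nat.exists_eq_add_of_le hnk
  rcases Nat.eq_zero_or_pos d with rfl | hd
  · rfl
  · exfalso
    rw [pow_add, mul_assoc] at h
    have h2 := mul_left_cancel₀ (pow_ne_zero n hf0) h
    apply ha'
    rw [h2]
    exact Dvd.dvd.mul_right (dvd_pow_self f hd.ne') _

/-- an element of a UFD all of whose prime multiplicities are divisible by `m` is a unit times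
an `m`-th power -/
theorem s36n2p_pow_of_mult (m : ℕ) {a : O} (ha : a ≠ 0)
    (h : ∀ f : O, Prime f → ∀ (n : ℕ) (a' : O), a = f ^ n * a' → ¬ f ∣ a' → m ∣ n) :
    ∃ (u : Oˣ) (c : O), a = u * c ^ m := by
  classical
  letI : StrongNormalizationMonoid O := UniqueFactorizationMonoid.strongNormalizationMonoid
  have hcount : ∀ p ∈ normalizedFactors a, m ∣ (normalizedFactors a).count p := by
    intro p hp
    have hpprime : Prime p := prime_of_normalized_factor p hp
    have hnorm : normalize p = p := normalize_normalized_factor p hp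
    obtain ⟨n, a', hn, ha'⟩ := s36n2p_exists_mult hpprime ha
    have h1 : p ^ n ∣ a := ⟨a', hn⟩
    have h2 : ¬ p ^ (n + 1) ∣ a := by
      rintro ⟨c, hc⟩
      apply ha'
      rw [hn, pow_succ, mul_assoc] at hc
      have := mul_left_cancel₀ (pow_ne_zero n hpprime.ne_zero) hc
      exact ⟨c, this⟩
    rw [count_normalizedFactors_eq hpprime.irreducible hnorm h1 h2]
    exact h p hpprime n a' hn ha'
  obtain ⟨S, hS⟩ := Multiset.exists_smul_of_dvd_count _ hcount
  have hassoc : Associated (normalizedFactors a).prod a := prod_normalizedFactors ha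
  rw [hS, Multiset.prod_nsmul] at hassoc
  obtain ⟨u, hu⟩ := hassoc
  exact ⟨u, S.prod, by rw [← hu]; ring⟩

end Core

section Loc

variable {O F : Type*} [CommRing O] [IsDomain O] [UniqueFactorizationMonoid O]
  [Field F] [Algebra O F] [IsFractionRing O F]

/-- the localisation `O_(f)` of the UFD `O` at the prime element `f`, as a valuation subring of
its fraction field -/
def s36n2pLoc (f : O) (hf : Prime f) : ValuationSubring F where
  carrier := {x | ∃ a b : O, ¬ f ∣ b ∧ x * algebraMap O F b = algebraMap O F a}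
  mul_mem' := by
    rintro x y ⟨a, b, hb, hx⟩ ⟨a', b', hb', hy⟩
    refine ⟨a * a', b * b', fun h => ?_, ?_⟩
    · rcases hf.dvd_or_dvd h with h' | h'
      · exact hb h'
      · exact hb' h'
    · rw [map_mul, map_mul, ← hx, ← hy]; ring
  one_mem' := ⟨1, 1, hf.not_dvd_one, by simp⟩
  add_mem' := by
    rintro x y ⟨a, b, hb, hx⟩ ⟨a', b', hb', hy⟩
    refine ⟨a * b' + a' * b, b * b', fun h => ?_, ?_⟩
    · rcases hf.dvd_or_dvd h with h' | h'
      · exact hb h'
      · exact hb' h'
    · rw [map_add, map_mul, map_mul, map_mul, ← hx, ← hy]; ring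
  zero_mem' := ⟨0, 1, hf.not_dvd_one, by simp⟩
  neg_mem' := by
    rintro x ⟨a, b, hb, hx⟩
    exact ⟨-a, b, hb, by rw [map_neg, ← hx]; ring⟩
  mem_or_inv_mem' := by
    intro x
    obtain ⟨a, b, hab, hx⟩ := IsFractionRing.exists_reduced_fraction O x
    have hb0 : algebraMap O F (b : O) ≠ 0 :=
      IsFractionRing.to_map_ne_zero_of_mem_nonZeroDivisors b.2
    have hxb : x * algebraMap O F (b : O) = algebraMap O F a := by
      rw [← hx, IsLocalization.mk'_spec]
    by_cases hfb : f ∣ (b : O)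
    · right
      have hfa : ¬ f ∣ a := fun hfa => hf.not_isUnit (hab hfa hfb)
      have ha0 : algebraMap O F a ≠ 0 := by
        intro h0
        apply hfa
        have : a = 0 := (IsFractionRing.injective O F) (by rw [h0, map_zero])
        rw [this]
        exact dvd_zero f
      have hx0 : x ≠ 0 := fun h0 => ha0 (by rw [← hxb, h0, zero_mul])
      refine ⟨(b : O), a, hfa, ?_⟩
      rw [← hxb]
      field_simp
    · left
      exact ⟨a, (b : O), hfb, hxb⟩

theorem s36n2p_mem_loc {f : O} (hf : Prime f) {x : F} :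
    x ∈ s36n2pLoc (F := F) f hf ↔
      ∃ a b : O, ¬ f ∣ b ∧ x * algebraMap O F b = algebraMap O F a := Iff.rfl

theorem s36n2p_algebraMap_mem_loc {f : O} (hf : Prime f) (a : O) :
    algebraMap O F a ∈ s36n2pLoc (F := F) f hf :=
  ⟨a, 1, hf.not_dvd_one, by simp⟩

/-- `a / b`, `f ∤ a`, `f ∤ b`, is a unit of `O_(f)` -/
theorem s36n2p_unit_mem_loc {f : O} (hf : Prime f) {a b : O} (ha : ¬ f ∣ a) (hb : ¬ f ∣ b) :
    algebraMap O F a / algebraMap O F b ∈ s36n2pLoc (F := F) f hf ∧
      (algebraMap O F a / algebraMap O F b)⁻¹ ∈ s36n2pLoc (F := F) f hf := by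
  have ha0 : algebraMap O F a ≠ 0 := fun h0 => ha (by
    have : a = 0 := (IsFractionRing.injective O F) (by rw [h0, map_zero])
    rw [this]; exact dvd_zero f)
  have hb0 : algebraMap O F b ≠ 0 := fun h0 => hb (by
    have : b = 0 := (IsFractionRing.injective O F) (by rw [h0, map_zero])
    rw [this]; exact dvd_zero f)
  exact ⟨⟨a, b, hb, by field_simp⟩, ⟨b, a, ha, by field_simp⟩⟩

/-- `f⁻¹ ∉ O_(f)` -/
theorem s36n2p_inv_not_mem_loc {f : O} (hf : Prime f) :
    (algebraMap O F f)⁻¹ ∉ s36n2pLoc (F := F) f hf := by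
  rintro ⟨a, b, hb, h⟩
  have hf0 : algebraMap O F f ≠ 0 := fun h0 => hf.ne_zero
    ((IsFractionRing.injective O F) (by rw [h0, map_zero]))
  apply hb
  refine ⟨a, (IsFractionRing.injective O F) ?_⟩
  rw [map_mul, ← h]
  field_simp

/-- every `x ≠ 0` is `f ^ n · a' / b'`, `n ∈ ℤ`, `f ∤ a'`, `f ∤ b'`; if `x = a / b` with `a`, `b`
without common factor `f`, then `n` is the multiplicity of `f` in `a` minus that in `b`. -/
theorem s36n2p_shape {f : O} (hf : Prime f) {x : F} (hx : x ≠ 0) :
    ∃ (n : ℤ) (a' b' : O), ¬ f ∣ a' ∧ ¬ f ∣ b' ∧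
      x = algebraMap O F f ^ n * (algebraMap O F a' / algebraMap O F b') := by
  obtain ⟨a, b, hab, hxab⟩ := IsFractionRing.exists_reduced_fraction O x
  have hb0' : (b : O) ≠ 0 := nonZeroDivisors.ne_zero b.2
  have hb0 : algebraMap O F (b : O) ≠ 0 :=
    IsFractionRing.to_map_ne_zero_of_mem_nonZeroDivisors b.2
  have hxb : x * algebraMap O F (b : O) = algebraMap O F a := by
    rw [← hxab, IsLocalization.mk'_spec]
  have ha0' : a ≠ 0 := by
    rintro rfl
    rw [map_zero] at hxb
    rcases mul_eq_zero.mp hxb with h | h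
    · exact hx h
    · exact hb0 h
  obtain ⟨n, a', hn, ha'⟩ := s36n2p_exists_mult hf ha0'
  obtain ⟨k, b', hk, hb'⟩ := s36n2p_exists_mult hf hb0'
  have hf0 : algebraMap O F f ≠ 0 := fun h0 => hf.ne_zero
    ((IsFractionRing.injective O F) (by rw [h0, map_zero]))
  have hb'0 : algebraMap O F b' ≠ 0 := fun h0 => hb' (by
    have : b' = 0 := (IsFractionRing.injective O F) (by rw [h0, map_zero])
    rw [this]; exact dvd_zero f)
  refine ⟨(n : ℤ) - k, a', b', ha', hb', ?_⟩
  have e : x = algebraMap O F a / algebraMap O F (b : O) := by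
    rw [← hxb]; field_simp
  rw [e, hn, hk, map_mul, map_mul, map_pow, map_pow, zpow_sub₀ hf0, zpow_natCast, zpow_natCast]
  field_simp

/-- the prime element `f` as an element of `O_(f)` -/
def s36n2pUnif (f : O) (hf : Prime f) : ↥(s36n2pLoc (F := F) f hf) :=
  ⟨algebraMap O F f, s36n2p_algebraMap_mem_loc hf f⟩

theorem s36n2pUnif_not_isUnit {f : O} (hf : Prime f) :
    ¬ IsUnit (s36n2pUnif (F := F) f hf) := by
  intro h
  obtain ⟨u, hu⟩ := h
  apply s36n2p_inv_not_mem_loc (F := F) hf
  have h1 : ((u : ↥(s36n2pLoc (F := F) f hf)) : F) *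
      (((u⁻¹ : (↥(s36n2pLoc (F := F) f hf))ˣ) : ↥(s36n2pLoc (F := F) f hf)) : F) = 1 := by
    exact congrArg Subtype.val u.mul_inv
  rw [hu] at h1
  have h2 : (algebraMap O F f)⁻¹ =
      (((u⁻¹ : (↥(s36n2pLoc (F := F) f hf))ˣ) : ↥(s36n2pLoc (F := F) f hf)) : F) :=
    (eq_inv_of_mul_eq_one_right h1).symm ▸ rfl
  rw [h2]
  exact (((u⁻¹ : (↥(s36n2pLoc (F := F) f hf))ˣ) : ↥(s36n2pLoc (F := F) f hf))).2

/-- every nonzero element of `O_(f)` is a unit times a power of `f` -/
theorem s36n2p_loc_shape {f : O} (hf : Prime f) (x : ↥(s36n2pLoc (F := F) f hf)) (hx : x ≠ 0) :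
    ∃ (n : ℕ) (u : (↥(s36n2pLoc (F := F) f hf))ˣ), s36n2pUnif (F := F) f hf ^ n * u = x := by
  have hx0 : (x : F) ≠ 0 := fun h => hx (Subtype.ext h)
  obtain ⟨n, a', b', ha', hb', hxn⟩ := s36n2p_shape (F := F) hf hx0
  obtain ⟨hu1, hu2⟩ := s36n2p_unit_mem_loc (F := F) hf ha' hb'
  have hf0 : algebraMap O F f ≠ 0 := fun h0 => hf.ne_zero
    ((IsFractionRing.injective O F) (by rw [h0, map_zero]))
  have hu0 : algebraMap O F a' / algebraMap O F b' ≠ 0 := by
    intro h0
    rw [h0, mul_zero] at hxn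
    exact hx0 hxn
  obtain ⟨ha0, hb0⟩ := div_ne_zero_iff.mp hu0
  have hn : 0 ≤ n := by
    by_contra hneg
    rw [not_le] at hneg
    apply s36n2p_inv_not_mem_loc (F := F) hf
    obtain ⟨k, hk⟩ := Int.exists_eq_neg_ofNat hneg.le
    have hk1 : 1 ≤ k := by
      rcases Nat.eq_zero_or_pos k with rfl | h
      · simp at hk; omega
      · exact h
    obtain ⟨d, rfl⟩ := Nat.exists_eq_add_of_le hk1
    have e : (algebraMap O F f)⁻¹ = (algebraMap O F a' / algebraMap O F b')⁻¹ *
        ((algebraMap O F f) ^ d * (x : F)) := by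
      rw [hxn, hk, zpow_neg, zpow_natCast, pow_add, pow_one]
      field_simp
    rw [e]
    exact mul_mem hu2 (mul_mem (pow_mem (s36n2p_algebraMap_mem_loc hf f) d) x.2)
  obtain ⟨k, rfl⟩ := Int.eq_ofNat_of_zero_le hn
  let u : (↥(s36n2pLoc (F := F) f hf))ˣ :=
    ⟨⟨_, hu1⟩, ⟨_, hu2⟩, Subtype.ext (mul_inv_cancel₀ hu0), Subtype.ext (inv_mul_cancel₀ hu0)⟩
  refine ⟨k, u, Subtype.ext ?_⟩
  rw [hxn, zpow_natCast]
  rfl

theorem s36n2pUnif_irreducible {f : O} (hf : Prime f) :
    Irreducible (s36n2pUnif (F := F) f hf) := by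
  have hϖ0 : s36n2pUnif (F := F) f hf ≠ 0 := by
    intro h
    have h1 := congrArg (fun z : ↥(s36n2pLoc (F := F) f hf) => (z : F)) h
    have hf0 : algebraMap O F f ≠ 0 := fun h0 => hf.ne_zero
      ((IsFractionRing.injective O F) (by rw [h0, map_zero]))
    exact hf0 h1
  refine ⟨s36n2pUnif_not_isUnit hf, fun x y hxy => ?_⟩
  have hx0 : x ≠ 0 := by
    rintro rfl
    rw [zero_mul] at hxy
    exact hϖ0 hxy
  have hy0 : y ≠ 0 := by
    rintro rfl
    rw [mul_zero] at hxy
    exact hϖ0 hxy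
  obtain ⟨n, u, hu⟩ := s36n2p_loc_shape hf x hx0
  obtain ⟨k, u', hu'⟩ := s36n2p_loc_shape hf y hy0
  rcases Nat.eq_zero_or_pos n with rfl | hn
  · left
    rw [← hu, pow_zero, one_mul]
    exact u.isUnit
  rcases Nat.eq_zero_or_pos k with rfl | hk
  · right
    rw [← hu', pow_zero, one_mul]
    exact u'.isUnit
  exfalso
  apply s36n2pUnif_not_isUnit (F := F) hf
  obtain ⟨n', rfl⟩ := Nat.exists_eq_add_of_le hn
  obtain ⟨k', rfl⟩ := Nat.exists_eq_add_of_le hk
  have e : s36n2pUnif (F := F) f hf * 1 = s36n2pUnif (F := F) f hf *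
      (s36n2pUnif (F := F) f hf * (s36n2pUnif (F := F) f hf ^ (n' + k') * (u * u'))) := by
    rw [mul_one]
    nth_rewrite 1 [hxy]
    rw [← hu, ← hu']
    ring
  have h1 := mul_left_cancel₀ hϖ0 e
  exact IsUnit.of_mul_eq_one _ h1.symm

theorem s36n2p_loc_hasUnitMulPow {f : O} (hf : Prime f) :
    IsDiscreteValuationRing.HasUnitMulPowIrreducibleFactorization
      ↥(s36n2pLoc (F := F) f hf) :=
  ⟨s36n2pUnif f hf, s36n2pUnif_irreducible hf, fun {x} hx => by
    obtain ⟨n, u, hu⟩ := s36n2p_loc_shape hf x hx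
    exact ⟨n, u, hu⟩⟩

end Loc

section PlaceSec

variable {E O F : Type*} [Field E] [CommRing O] [IsDomain O] [UniqueFactorizationMonoid O]
  [Field F] [Algebra O F] [IsFractionRing O F] [Algebra E F]

/-- **The place of a horizontal prime element** `f` of the UFD `O` (`E ⊆ O_(f)`). -/
def s36n2pPlace (f : O) (hf : Prime f)
    (hE : ∀ e : E, ∃ a b : O, ¬ f ∣ b ∧
      algebraMap E F e * algebraMap O F b = algebraMap O F a) : Place E F where
  toValuationSubring := s36n2pLoc f hf
  algebraMap_mem' := hE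
  ne_top' := fun h => s36n2p_inv_not_mem_loc (F := F) hf (by rw [h]; exact ValuationSubring.mem_top _)
  isPrincipalIdealRing' :=
    (IsDiscreteValuationRing.ofHasUnitMulPowIrreducibleFactorization
      (s36n2p_loc_hasUnitMulPow hf)).toIsPrincipalIdealRing

/-- **`ord_P` is the `f`-adic order.** -/
theorem s36n2p_ord (f : O) (hf : Prime f)
    (hE : ∀ e : E, ∃ a b : O, ¬ f ∣ b ∧
      algebraMap E F e * algebraMap O F b = algebraMap O F a)
    {x : F} {n : ℤ} {a' b' : O} (ha' : ¬ f ∣ a') (hb' : ¬ f ∣ b')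
    (hx : x = algebraMap O F f ^ n * (algebraMap O F a' / algebraMap O F b')) :
    (s36n2pPlace (E := E) f hf hE).ord x = n := by
  obtain ⟨hu1, hu2⟩ := s36n2p_unit_mem_loc (F := F) hf ha' hb'
  have hu0 : algebraMap O F a' / algebraMap O F b' ≠ 0 := by
    have ha0 : algebraMap O F a' ≠ 0 := fun h0 => ha' (by
      have : a' = 0 := (IsFractionRing.injective O F) (by rw [h0, map_zero])
      rw [this]; exact dvd_zero f)
    have hb0 : algebraMap O F b' ≠ 0 := fun h0 => hb' (by
      have : b' = 0 := (IsFractionRing.injective O F) (by rw [h0, map_zero])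
      rw [this]; exact dvd_zero f)
    exact div_ne_zero ha0 hb0
  let u : ((s36n2pPlace (E := E) f hf hE).toValuationSubring)ˣ :=
    ⟨⟨_, hu1⟩, ⟨_, hu2⟩, Subtype.ext (mul_inv_cancel₀ hu0), Subtype.ext (inv_mul_cancel₀ hu0)⟩
  have h := (s36n2pPlace (E := E) f hf hE).ord_unit_smul_zpow u
    (π := s36n2pUnif f hf) (s36n2pUnif_irreducible hf) n
  rw [hx, mul_comm]
  exact h

end PlaceSec

section Main

variable {E O F : Type*} [Field E] [CommRing O] [IsDomain O] [UniqueFactorizationMonoid O]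
  [Field F] [Algebra O F] [IsFractionRing O F] [Algebra E F] {κ : Type*}

/-- **THE DICTIONARY** for the prime elements of `O`: every prime element is VERTICAL
(`(f) = 𝔪(V c) ∩ O` for a component `V c` through the point) or HORIZONTAL (`E ⊆ O_(f)`). -/
def S36n2pDict (E : Type*) [Field E] [Algebra E F] (O : Type*) [CommRing O] [Algebra O F]
    (thr : κ → Prop) (V : κ → ValuationSubring F) : Prop :=
  ∀ f : O, Prime f →
    (∃ c, thr c ∧ algebraMap O F f ∈ (V c).nonunits ∧
      ∀ x : O, algebraMap O F x ∈ (V c).nonunits → f ∣ x) ∨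
    (∀ e : E, ∃ a b : O, ¬ f ∣ b ∧ algebraMap E F e * algebraMap O F b = algebraMap O F a)

/-- the multiplicities of a prime element in the numerator and the denominator of a reduced
fraction of `y` are divisible by `m` -/
theorem s36n2p_mult_dvd (thr : κ → Prop) (V : κ → ValuationSubring F)
    (hOV : ∀ c, thr c → ∀ x : O, algebraMap O F x ∈ V c)
    (hdict : S36n2pDict E O thr V) (m : ℕ) {y : F}
    (hhor : ∀ P : Place E F, (m : ℤ) ∣ P.ord y)
    (hunit : ∀ c, thr c → (V c).valuation y = 1)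
    {a b : O} (hab : IsRelPrime a b) (hyab : y * algebraMap O F b = algebraMap O F a)
    {f : O} (hf : Prime f) {n k : ℕ} {a' b' : O} (ha : a = f ^ n * a') (ha' : ¬ f ∣ a')
    (hb : b = f ^ k * b') (hb' : ¬ f ∣ b') : m ∣ n ∧ m ∣ k := by
  have hnk : n = 0 ∨ k = 0 := by
    by_contra hcon
    rw [not_or] at hcon
    apply hf.not_isUnit
    refine hab ?_ ?_
    · rw [ha]; exact Dvd.dvd.mul_right (dvd_pow_self f hcon.1) _
    · rw [hb]; exact Dvd.dvd.mul_right (dvd_pow_self f hcon.2) _
  have hinj := IsFractionRing.injective O F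
  have hne : ∀ z : O, ¬ f ∣ z → algebraMap O F z ≠ 0 := fun z hz h0 => hz (by
    have : z = 0 := hinj (by rw [h0, map_zero])
    rw [this]; exact dvd_zero f)
  have hf0 : algebraMap O F f ≠ 0 := fun h0 => hf.ne_zero (hinj (by rw [h0, map_zero]))
  rcases hdict f hf with ⟨c, hc, hfc, hcf⟩ | hE
  · -- vertical: both multiplicities vanish
    have hval : ∀ z : O, ¬ f ∣ z → (V c).valuation (algebraMap O F z) = 1 := fun z hz =>
      le_antisymm (((V c).valuation_le_one_iff _).2 (hOV c hc z))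
        (not_lt.1 fun h => hz (hcf z ((ValuationSubring.mem_nonunits_iff (V c)).2 h)))
    have hvf : (V c).valuation (algebraMap O F f) < 1 :=
      (ValuationSubring.mem_nonunits_iff (V c)).1 hfc
    have hvpow : ∀ j : ℕ, 0 < j → (V c).valuation (algebraMap O F f) ^ j < 1 := by
      intro j hj
      exact pow_lt_one₀ zero_le hvf hj.ne'
    have hva : (V c).valuation (algebraMap O F a) = (V c).valuation (algebraMap O F f) ^ n := by
      rw [ha, map_mul (algebraMap O F), map_pow (algebraMap O F), map_mul, map_pow,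
        hval a' ha', mul_one]
    have hvb : (V c).valuation (algebraMap O F b) = (V c).valuation (algebraMap O F f) ^ k := by
      rw [hb, map_mul (algebraMap O F), map_pow (algebraMap O F), map_mul, map_pow,
        hval b' hb', mul_one]
    have h1 := congrArg (V c).valuation hyab
    rw [map_mul, hunit c hc, one_mul, hva, hvb] at h1
    rcases Nat.eq_zero_or_pos n with rfl | hn
    · rcases Nat.eq_zero_or_pos k with rfl | hk
      · exact ⟨dvd_zero m, dvd_zero m⟩
      · exfalso
        rw [pow_zero] at h1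
        exact absurd h1 (hvpow k hk).ne
    · rcases hnk with h | rfl
      · omega
      · exfalso
        rw [pow_zero] at h1
        exact absurd h1.symm (hvpow n hn).ne
  · -- horizontal: the place of `f`
    have hb0 : algebraMap O F b ≠ 0 := by
      rw [hb, map_mul, map_pow]
      exact mul_ne_zero (pow_ne_zero k hf0) (hne b' hb')
    have hy : y = algebraMap O F f ^ ((n : ℤ) - k) * (algebraMap O F a' / algebraMap O F b') := by
      have e : y = algebraMap O F a / algebraMap O F b := by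
        rw [← hyab]; field_simp
      have hb'0 := hne b' hb'
      rw [e, ha, hb, map_mul, map_mul, map_pow, map_pow, zpow_sub₀ hf0, zpow_natCast,
        zpow_natCast]
      field_simp
    have hord := s36n2p_ord (E := E) f hf hE ha' hb' hy
    have hdvd := hhor (s36n2pPlace (E := E) f hf hE)
    rw [hord] at hdvd
    rcases hnk with rfl | rfl
    · refine ⟨dvd_zero m, ?_⟩
      have : (m : ℤ) ∣ (k : ℤ) := by
        have h2 := (dvd_neg (a := (m : ℤ))).mpr hdvd
        simpa using h2
      exact Int.natCast_dvd_natCast.mp this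
    · refine ⟨?_, dvd_zero m⟩
      have : (m : ℤ) ∣ (n : ℤ) := by simpa using hdvd
      exact Int.natCast_dvd_natCast.mp this

/-- **UFD + dictionary ⇒ local factorisation**, abstract form. -/
theorem s36n2p_fac_core (thr : κ → Prop) (V : κ → ValuationSubring F)
    (hOV : ∀ c, thr c → ∀ x : O, algebraMap O F x ∈ V c)
    (hdict : S36n2pDict E O thr V) (m : ℕ) {y : F} (hy : y ≠ 0)
    (hhor : ∀ P : Place E F, (m : ℤ) ∣ P.ord y)
    (hunit : ∀ c, thr c → (V c).valuation y = 1) :
    ∃ (γ : F) (ε : Oˣ), y = algebraMap O F (ε : O) * γ ^ m := by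
  obtain ⟨a, b, hab, hyab⟩ := IsFractionRing.exists_reduced_fraction O y
  have hinj := IsFractionRing.injective O F
  have hb0' : (b : O) ≠ 0 := nonZeroDivisors.ne_zero b.2
  have hb0 : algebraMap O F (b : O) ≠ 0 :=
    IsFractionRing.to_map_ne_zero_of_mem_nonZeroDivisors b.2
  have hyb : y * algebraMap O F (b : O) = algebraMap O F a := by
    rw [← hyab, IsLocalization.mk'_spec]
  have ha0' : a ≠ 0 := by
    rintro rfl
    rw [map_zero] at hyb
    rcases mul_eq_zero.mp hyb with h | h
    · exact hy h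
    · exact hb0 h
  obtain ⟨u, c, hc⟩ := s36n2p_pow_of_mult m ha0' (fun f hf n a' hn ha' => by
    obtain ⟨k, b', hk, hb'⟩ := s36n2p_exists_mult hf hb0'
    exact (s36n2p_mult_dvd thr V hOV hdict m hhor hunit hab hyb hf hn ha' hk hb').1)
  obtain ⟨u', d, hd⟩ := s36n2p_pow_of_mult m hb0' (fun f hf k b' hk hb' => by
    obtain ⟨n, a', hn, ha'⟩ := s36n2p_exists_mult hf ha0'
    exact (s36n2p_mult_dvd thr V hOV hdict m hhor hunit hab hyb hf hn ha' hk hb').2)
  have hu'0 : algebraMap O F ((u' : Oˣ) : O) ≠ 0 := fun h0 =>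
    u'.ne_zero (hinj (by rw [h0, map_zero]))
  have e : y = algebraMap O F a / algebraMap O F (b : O) := by
    rw [← hyb]; field_simp
  have hinv : algebraMap O F ((u'⁻¹ : Oˣ) : O) = (algebraMap O F ((u' : Oˣ) : O))⁻¹ := by
    apply eq_inv_of_mul_eq_one_left
    rw [← map_mul, Units.inv_mul, map_one]
  rcases Nat.eq_zero_or_pos m with rfl | hm
  · refine ⟨1, u * u'⁻¹, ?_⟩
    rw [pow_zero, mul_one] at hc hd
    rw [e, hc, hd, Units.val_mul, map_mul, hinv, pow_zero, mul_one, div_eq_mul_inv]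
  have hd0 : algebraMap O F d ≠ 0 := by
    intro h0
    apply hb0
    rw [hd, map_mul, map_pow, h0, zero_pow hm.ne', mul_zero]
  refine ⟨algebraMap O F c / algebraMap O F d, u * u'⁻¹, ?_⟩
  rw [e, hc, hd, Units.val_mul, map_mul, map_mul, map_mul, map_pow, map_pow, hinv, div_pow]
  field_simp

/-- **The dictionary from the local Krull property.**  `S` the (finite) set of the components
through the point, `ϖ` the uniformizer of the base, `E ⊆ O[1/ϖ]`, and
(KR-loc): a product of `e c`-th powers of elements `y c ∈ 𝔪(V c) ∩ O`, `c ∈ S`, is divisible by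
`ϖ` in `O`. -/
theorem s36n2p_dict_of_KR (thr : κ → Prop) (V : κ → ValuationSubring F)
    (hOV : ∀ c, thr c → ∀ x : O, algebraMap O F x ∈ V c)
    (S : Finset κ) (hS : ∀ c ∈ S, thr c) (e : κ → ℕ) (ϖ : O) (hϖ0 : ϖ ≠ 0)
    (hϖ : ∀ c ∈ S, algebraMap O F ϖ ∈ (V c).nonunits)
    (hKR : ∀ y : κ → O, (∀ c ∈ S, algebraMap O F (y c) ∈ (V c).nonunits) →
      ϖ ∣ ∏ c ∈ S, y c ^ e c)
    (hE : ∀ x : E, ∃ (n : ℕ) (a : O), algebraMap E F x * algebraMap O F ϖ ^ n = algebraMap O F a) :
    S36n2pDict E O thr V := by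
  classical
  intro f hf
  by_cases hfϖ : f ∣ ϖ
  · left
    -- some component of `S` is contained in `(f)`
    have hex : ∃ c ∈ S, ∀ x : O, algebraMap O F x ∈ (V c).nonunits → f ∣ x := by
      by_contra hcon
      push Not at hcon
      choose! y hy hfy using hcon
      have h1 : ϖ ∣ ∏ c ∈ S, y c ^ e c := hKR y hy
      have h2 : f ∣ ∏ c ∈ S, y c ^ e c := dvd_trans hfϖ h1
      obtain ⟨c, hc, hfc⟩ := (Prime.dvd_finsetProd_iff hf _).1 h2
      exact hfy c hc (hf.dvd_of_dvd_pow hfc)
    obtain ⟨c, hc, hcf⟩ := hex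
    refine ⟨c, hS c hc, ?_, hcf⟩
    -- `f ∈ 𝔪(V c)`
    obtain ⟨n, ϖ', hn, hϖ'⟩ := s36n2p_exists_mult hf hϖ0
    have hn0 : n ≠ 0 := by
      rintro rfl
      rw [pow_zero, one_mul] at hn
      exact hϖ' (hn ▸ hfϖ)
    have hvϖ' : (V c).valuation (algebraMap O F ϖ') = 1 :=
      le_antisymm (((V c).valuation_le_one_iff _).2 (hOV c (hS c hc) ϖ'))
        (not_lt.1 fun h => hϖ' (hcf ϖ' ((ValuationSubring.mem_nonunits_iff (V c)).2 h)))
    have h1 := (ValuationSubring.mem_nonunits_iff (V c)).1 (hϖ c hc)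
    rw [hn, map_mul, map_pow, map_mul, map_pow, hvϖ', mul_one] at h1
    rw [ValuationSubring.mem_nonunits_iff]
    by_contra hcon
    rw [not_lt] at hcon
    have hle : (V c).valuation (algebraMap O F f) ≤ 1 :=
      ((V c).valuation_le_one_iff _).2 (hOV c (hS c hc) f)
    have heq : (V c).valuation (algebraMap O F f) = 1 := le_antisymm hle hcon
    rw [heq, one_pow] at h1
    exact lt_irrefl _ h1
  · right
    intro x
    obtain ⟨n, a, hna⟩ := hE x
    exact ⟨a, ϖ ^ n, fun h => hfϖ (hf.dvd_of_dvd_pow h), by rw [map_pow]; exact hna⟩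

end Main

section SubringForm

variable {E F : Type*} [Field E] [Field F] [Algebra E F] {κ : Type*}

/-- a subring of `F` with `F = Frac O` -/
theorem s36n2p_isFractionRing (O : Subring F)
    (hfrac : ∀ x : F, ∃ a b : O, (b : F) ≠ 0 ∧ x * (b : F) = (a : F)) : IsFractionRing O F :=
  IsFractionRing.of_field (R := O) (K := F) (fun z => by
    obtain ⟨a, b, hb, h⟩ := hfrac z
    exact ⟨a, b, by
      show z = (a : F) / (b : F)
      rw [eq_div_iff hb]; exact h⟩)

/-- **UFD + dictionary ⇒ `StbFacAt`** (the field `fac` of `S36PtInput`, with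
`Hor y := ∀ P : Place E F, (m : ℤ) ∣ P.ord y`). -/
theorem s36n2p_facAt (O : Subring F) [UniqueFactorizationMonoid O]
    (hfrac : ∀ x : F, ∃ a b : O, (b : F) ≠ 0 ∧ x * (b : F) = (a : F))
    (thr : κ → Prop) (V : κ → ValuationSubring F)
    (hOV : ∀ c, thr c → ∀ x ∈ O, x ∈ V c)
    (hdict : S36n2pDict E O thr V) (m : ℕ) (y : F) (hy : y ≠ 0)
    (hhor : ∀ P : Place E F, (m : ℤ) ∣ P.ord y)
    (hunit : ∀ c, thr c → (V c).valuation y = 1) :
    Fermat.Agent.STB.StbFacAt O m y := by
  haveI := s36n2p_isFractionRing O hfrac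
  obtain ⟨γ, ε, h⟩ := s36n2p_fac_core (E := E) (O := O) thr V (fun c hc x => hOV c hc x x.2)
    hdict m hy hhor hunit
  exact ⟨γ, (ε : O), ε.isUnit, h⟩

end SubringForm

end Fermat.Agent.S36


end ZBS36_003_0
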