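/- GENERATED FILE (helper35, build-time optimisation, NOTES/ZB.md): verbatim concatenation of the modules
   Fermat.Agent.S36.ThinUnitInt
   Fermat.Agent.S36.ThinUnit
   Fermat.Agent.S33.WildUnit
   Do not edit; do not import together with these modules. -/
import Fermat.Agent.ZB.S28_002
import Fermat.Agent.ZB.S28_006
import Fermat.Agent.ZB.S36_003
import Fermat.Agent.ZB.ES_012
import Fermat.Agent.ZB.UNIP_014
import Fermat.Agent.ZB.UNIP_007

/-! ### bundled: `Fermat.Agent.S36.ThinUnitInt` -/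
section ZBS36_002_0

/-!
# S36 / G-thin (T1), part 1: the integral relations of the modular unit

`u_q = Δ(Q^q)/Δ(Q)` (`S28.uS`), `u_q⁻¹ = Δ(Q)/Δ(Q^q)` (`S28.uInvS`), `q` prime.

* `s36tuW q hq : ℤ[Y][X]`, monic of `X`-degree `q + 1`, with
  `W(q¹² u_q, j) = 0` and `W(u_q⁻¹, j(Q^q)) = 0` over every commutative ring
  (`s36tuW_series`, `s36tuW_series'`).

So `U = q¹² u_q` is integral over `ℤ[j]` and `V = u_q⁻¹` is integral over `ℤ[j(Q^q)]`, hence over
`ℤ[j]` (modular equation).  Source: the relations of `S28/ModUnit.lean` over `ℂ`, rescaled by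
`q¹²` and descended to `ℤ` (`S28.exists_descent`).
-/

set_option autoImplicit false

noncomputable section

namespace Fermat.Agent.S36

open ModularCurve Polynomial Fermat.Agent.S28

/-- The rescaled relations of the modular unit over `ℂ`. -/
theorem s36tu_unit_complex (q : ℕ) [NeZero q] (hq : q.Prime) :
    ∃ W : Polynomial (Polynomial ℂ), W.Monic ∧ W.natDegree = q + 1 ∧
      W.eval₂ (Polynomial.aeval (R := ℂ) (jqModC ℂ)).toRingHom
        (HahnSeries.C ((q : ℂ) ^ 12) * uS ℂ q) = 0 ∧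
      W.eval₂ (Polynomial.aeval (R := ℂ) (qExpand ℂ q (jqModC ℂ))).toRingHom (uInvS ℂ q) = 0 := by
  obtain ⟨U, hm, hd, h1, h2⟩ := unitHyp_complex q hq
  have hq0 : (q : ℂ) ≠ 0 := Nat.cast_ne_zero.mpr hq.ne_zero
  have hC : ∀ (y : LaurentSeries ℂ) (c : ℂ),
      (Polynomial.aeval (R := ℂ) y).toRingHom (Polynomial.C c) = HahnSeries.C c := by
    intro y c
    simp only [AlgHom.toRingHom_eq_coe, RingHom.coe_coe, aeval_C]
    rw [algebraMap_eq_hahnC']
  refine ⟨Polynomial.scaleRoots U (Polynomial.C ((q : ℂ) ^ 12)),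
    (Polynomial.monic_scaleRoots_iff _).mpr hm, by rw [Polynomial.natDegree_scaleRoots, hd], ?_, ?_⟩
  · have h := Polynomial.scaleRoots_eval₂_mul (p := U)
      (Polynomial.aeval (R := ℂ) (jqModC ℂ)).toRingHom (uS ℂ q) (Polynomial.C ((q : ℂ) ^ 12))
    rw [hC, h1, mul_zero] at h
    exact h
  · have h := Polynomial.scaleRoots_eval₂_mul (p := U)
      (Polynomial.aeval (R := ℂ) (qExpand ℂ q (jqModC ℂ))).toRingHom
      (HahnSeries.C (((q : ℂ)⁻¹) ^ 12) * uInvS ℂ q) (Polynomial.C ((q : ℂ) ^ 12))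
    rw [hC, h2, mul_zero, ← mul_assoc, ← map_mul, inv_pow,
      mul_inv_cancel₀ (pow_ne_zero _ hq0), map_one, one_mul] at h
    exact h

/-- **The integral relations of the modular unit**: a monic `W ∈ ℤ[Y][X]` of `X`-degree `q + 1`
with `W(q¹² u_q, j) = 0` and `W(u_q⁻¹, j(Q^q)) = 0` in `ℤ((Q))`. -/
theorem s36tu_unit_int (q : ℕ) [NeZero q] (hq : q.Prime) :
    ∃ W : Polynomial (Polynomial ℤ), W.Monic ∧ W.natDegree = q + 1 ∧
      W.eval₂ (Polynomial.aeval (R := ℤ) (jqModC ℤ)).toRingHom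
        (HahnSeries.C ((q : ℤ) ^ 12) * uS ℤ q) = 0 ∧
      W.eval₂ (Polynomial.aeval (R := ℤ) (qExpand ℤ q (jqModC ℤ))).toRingHom (uInvS ℤ q) = 0 := by
  obtain ⟨W, hm, hd, h1, h2⟩ := s36tu_unit_complex q hq
  obtain ⟨hlow, hunit⟩ := jqModC_lowest ℤ
  have hjι : coeffMap (Int.castRingHom ℂ) (jqModC ℤ) = jqModC ℂ := coeffMap_jqModC _
  have huι : coeffMap (Int.castRingHom ℂ) (HahnSeries.C ((q : ℤ) ^ 12) * uS ℤ q) =
      HahnSeries.C ((q : ℂ) ^ 12) * uS ℂ q := by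
    rw [map_mul, coeffMap_hahnC, coeffMap_uS, map_pow, map_natCast]
  have hu'ι : coeffMap (Int.castRingHom ℂ) (uInvS ℤ q) = uInvS ℂ q := coeffMap_uInvS q _
  have hu' : coeffMap (Int.castRingHom ℂ) (uInvS ℤ q) ≠ 0 := by
    rw [hu'ι]; exact uInvS_ne_zero q ℂ
  have hcop : IsCoprime (coeffMap (Int.castRingHom ℂ) (uInvS ℤ q)).order (q : ℤ) := by
    rw [hu'ι, order_uInvS]; exact isCoprime_one_sub_natCast q
  obtain ⟨W', hW'm, hW'd, -, hr1, hr2⟩ :=
    exists_descent (Int.castRingHom ℂ) Int.cast_injective hq.two_le (j := jqModC ℤ)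
      (u := HahnSeries.C ((q : ℤ) ^ 12) * uS ℤ q) (u' := uInvS ℤ q) (by norm_num) hlow hunit
      hu' hcop hm hd (by rw [huι, hjι]; exact h1) (by rw [hu'ι, hjι]; exact h2)
  exact ⟨W', hW'm, hW'd, hr1, hr2⟩

/-- The integral polynomial of the modular unit of prime level `q`: `W ∈ ℤ[Y][X]`. -/
def s36tuW (q : ℕ) [NeZero q] (hq : q.Prime) : Polynomial (Polynomial ℤ) :=
  Classical.choose (s36tu_unit_int q hq)

variable (q : ℕ) [NeZero q] (hq : q.Prime)

theorem s36tuW_monic : (s36tuW q hq).Monic :=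
  (Classical.choose_spec (s36tu_unit_int q hq)).1

theorem s36tuW_natDegree : (s36tuW q hq).natDegree = q + 1 :=
  (Classical.choose_spec (s36tu_unit_int q hq)).2.1

theorem s36tu_aeval_eq_evalInt (x : LaurentSeries ℤ) :
    (Polynomial.aeval (R := ℤ) x).toRingHom = evalInt x := by
  rw [ringHom_eq_evalInt (Polynomial.aeval (R := ℤ) x).toRingHom]
  congr 1
  simp

/-- `W(q¹² u_q, j) = 0` over every commutative ring. -/
theorem s36tuW_series (R : Type*) [CommRing R] :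
    (s36tuW q hq).eval₂ (evalInt (jqModC R)) (HahnSeries.C ((q : R) ^ 12) * uS R q) = 0 := by
  have h : (s36tuW q hq).eval₂ (Polynomial.aeval (R := ℤ) (jqModC ℤ)).toRingHom
      (HahnSeries.C ((q : ℤ) ^ 12) * uS ℤ q) = 0 :=
    (Classical.choose_spec (s36tu_unit_int q hq)).2.2.1
  rw [s36tu_aeval_eq_evalInt] at h
  have h2 := congrArg (coeffMap (Int.castRingHom R)) h
  rw [map_eval₂_evalInt, map_zero, map_mul, coeffMap_hahnC, coeffMap_uS, coeffMap_jqModC,
    map_pow, map_natCast] at h2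
  exact h2

/-- `W(u_q⁻¹, j(Q^q)) = 0` over every commutative ring. -/
theorem s36tuW_series' (R : Type*) [CommRing R] :
    (s36tuW q hq).eval₂ (evalInt (qExpand R q (jqModC R))) (uInvS R q) = 0 := by
  have h : (s36tuW q hq).eval₂ (Polynomial.aeval (R := ℤ) (qExpand ℤ q (jqModC ℤ))).toRingHom
      (uInvS ℤ q) = 0 :=
    (Classical.choose_spec (s36tu_unit_int q hq)).2.2.2
  rw [s36tu_aeval_eq_evalInt] at h
  have h2 := congrArg (coeffMap (Int.castRingHom R)) h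
  rw [map_eval₂_evalInt, map_zero, coeffMap_uInvS, coeffMap_qExpand, coeffMap_jqModC] at h2
  exact h2

end Fermat.Agent.S36

end
end ZBS36_002_0

/-! ### bundled: `Fermat.Agent.S36.ThinUnit` -/
section ZBS36_002_1

/-!
# S36 / G-thin (T1) + (T2): the modular unit on the chart of level `M q`

Setting of `UNIP/NodesModular.lean`: `A` a domain with fraction field `E` (characteristic `0`),
`r : A →+* k`, `ker r = (π)`, `char k = q`, `q ∤ M` prime, `ιC : E →+* ℂ`,
`F = modularFunctionFieldFullC E (M * q)`, `w = AL.atkinLehner E ιC hq hqM`.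

* `s36tuU E ιC : F` with `q`-expansion `q¹² Δ(Q^q)/Δ(Q)`, `s36tuV E ιC : F` with `q`-expansion
  `Δ(Q)/Δ(Q^q)`; `s36tuU_mul_V : U V = q¹²`, `s36tu_w_U : w U = V`, `s36tu_w_V : w V = U`;
* `s36tu_isIntegral_U`, `s36tu_isIntegral_V` : `U`, `V` are integral over `A[j]`;
* `s36tu_U_mem_gauss`, `s36tu_V_mem_gauss`, `s36tu_gaussRed_U : Ū = 0`,
  `s36tu_gaussRed_V : V̄ = Δ̄ · (Δ̄⁻¹)^q` (`= Δ̄^{1-q} =: P`);
* `s36tu_mem_of_gauss` (Krull property from (SS1)): `x ∈ F` with `π^n x ∈ B`, `x` and `w x`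
  Gauss-integral, lies in `B`;
* `s36tu_hu  : ρ f = 0 → U ∣ f ^ 12` and `s36tu_hu₀ : ρ₀ f = 0 → V ∣ f ^ 12` in `B`;
* `s36tu_rho_U`, `s36tu_rho_V`, `s36tu_rho₀_U`, `s36tu_rho₀_V` : `ρ U = 0`, `ρ V = P`, `ρ₀ U = P`,
  `ρ₀ V = 0`;
* (T2) `s36tu_PH : P · ((θ j̄)^{q-1})⁶ = G(j̄)^{q-1}` for every `G` with `(θ j̄)⁶ = G(j̄) Δ̄`.
-/

set_option autoImplicit false
set_option linter.unusedSectionVars false
set_option linter.unusedVariables false
set_option linter.style.haveILetI false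
set_option synthInstance.maxHeartbeats 400000
set_option maxHeartbeats 1000000

noncomputable section

namespace Fermat.Agent.S36

open ModularCurve Polynomial IntermediateField
open Fermat.Agent.INJ Fermat.Agent.AL Fermat.Agent.S28 Fermat.Agent.UNIP

/-! ## The two units in the function field -/

section FF

variable (E : Type*) [Field E] [CharZero E] (ιC : E →+* ℂ)
  {q M : ℕ} [NeZero q] [NeZero M] [NeZero (M * q)] (hq : q.Prime) (hqM : ¬ q ∣ M)

/-- `U = q¹² Δ(Q^q)/Δ(Q)` in `F_{Mq}`. -/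
def s36tuU : modularFunctionFieldFullC E (M * q) :=
  algebraMap E (modularFunctionFieldFullC E (M * q)) ((q : E) ^ 12) * s36tuU0 E ιC

/-- `V = Δ(Q)/Δ(Q^q)` in `F_{Mq}`. -/
def s36tuV : modularFunctionFieldFullC E (M * q) := (s36tuU0 E ιC)⁻¹

theorem s36tuU_coe :
    ((s36tuU E ιC (q := q) (M := M) : modularFunctionFieldFullC E (M * q)) : LaurentSeries E) =
      HahnSeries.C ((q : E) ^ 12) * uS E q := by
  show algebraMap E (LaurentSeries E) ((q : E) ^ 12) * uS E q = _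
  rw [algebraMap_eq_hahnC']

theorem s36tuV_coe :
    ((s36tuV E ιC (q := q) (M := M) : modularFunctionFieldFullC E (M * q)) : LaurentSeries E) =
      uInvS E q := by
  show (uS E q)⁻¹ = _
  rw [uInvS_eq_inv]

theorem s36tu_q_ne_zero : ((q : E) ^ 12) ≠ 0 :=
  pow_ne_zero _ (Nat.cast_ne_zero.mpr (NeZero.ne q))

theorem s36tuU_mul_V :
    s36tuU E ιC (q := q) (M := M) * s36tuV E ιC =
      algebraMap E (modularFunctionFieldFullC E (M * q)) ((q : E) ^ 12) := by
  rw [s36tuU, s36tuV, mul_assoc, mul_inv_cancel₀ (s36tuU0_ne_zero E ιC), mul_one]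

theorem s36tuU_ne_zero : s36tuU E ιC (q := q) (M := M) ≠ 0 := by
  rw [s36tuU]
  refine mul_ne_zero ?_ (s36tuU0_ne_zero E ιC)
  rw [Ne, map_eq_zero_iff _ (algebraMap E (modularFunctionFieldFullC E (M * q))).injective]
  exact s36tu_q_ne_zero E

theorem s36tuV_ne_zero : s36tuV E ιC (q := q) (M := M) ≠ 0 :=
  inv_ne_zero (s36tuU0_ne_zero E ιC)

theorem s36tu_w_U0 :
    atkinLehner E ιC hq hqM (s36tuU0 E ιC) =
      algebraMap E (modularFunctionFieldFullC E (M * q)) (((q : E) ^ 12)⁻¹) *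
        (s36tuU0 E ιC)⁻¹ := by
  rw [eq_mul_inv_iff_mul_eq₀ (s36tuU0_ne_zero E ιC)]
  exact s36tu_atkinLehner_uS E ιC hq hqM

/-- `w_q U = V`. -/
theorem s36tu_w_U : atkinLehner E ιC hq hqM (s36tuU E ιC) = s36tuV E ιC := by
  rw [s36tuU, map_mul, AlgEquiv.commutes, s36tu_w_U0, ← mul_assoc, ← map_mul,
    mul_inv_cancel₀ (s36tu_q_ne_zero E), map_one, one_mul]
  rfl

/-- `w_q V = U`. -/
theorem s36tu_w_V : atkinLehner E ιC hq hqM (s36tuV E ιC) = s36tuU E ιC := by
  rw [← s36tu_w_U E ιC hq hqM, atkinLehner_invol]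

end FF

/-! ## Integrality over `A[j]` -/

section Int

variable {A E : Type*} [CommRing A] [Field E] [CharZero E] [Algebra A E] (ιC : E →+* ℂ)
  {q M : ℕ} [NeZero q] [NeZero M] [NeZero (M * q)] (hq : q.Prime)
  [Algebra A (modularFunctionFieldFullC E (M * q))]
  [IsScalarTower A E (modularFunctionFieldFullC E (M * q))]

/-- `W(U, J) = 0` in `F_{Mq}`. -/
theorem s36tu_eval_U :
    (s36tuW q hq).eval₂ (evalInt (nodesFrobJ E M q)) (s36tuU E ιC) = 0 := by
  apply (modularFunctionFieldFullC E (M * q)).val.toRingHom.injective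
  rw [map_eval₂_evalInt, map_zero]
  have h := s36tuW_series q hq E
  rw [← s36tuU_coe E ιC (M := M)] at h
  exact h

/-- `W(V, Jq) = 0` in `F_{Mq}`. -/
theorem s36tu_eval_V :
    (s36tuW q hq).eval₂ (evalInt (nodesFrobJq E M q)) (s36tuV E ιC) = 0 := by
  apply (modularFunctionFieldFullC E (M * q)).val.toRingHom.injective
  rw [map_eval₂_evalInt, map_zero]
  have h := s36tuW_series' q hq E
  rw [← s36tuV_coe E ιC (M := M)] at h
  exact h

include hq in
/-- `U` is integral over `A[j]`. -/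
theorem s36tu_isIntegral_U :
    IsIntegral (Algebra.adjoin A {nodesFrobJ E M q}) (s36tuU E ιC (q := q) (M := M)) :=
  nodesSwap_isIntegral_of_evalInt (A := A) (S := modularFunctionFieldFullC E (M * q))
    (s36tuW_monic q hq) (s36tu_eval_U ιC hq)

include hq in
/-- `V` is integral over `A[j]`. -/
theorem s36tu_isIntegral_V :
    IsIntegral (Algebra.adjoin A {nodesFrobJ E M q}) (s36tuV E ιC (q := q) (M := M)) :=
  cusp_isIntegral_adjoin_trans (A := A) (F := modularFunctionFieldFullC E (M * q))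
    (u := nodesFrobJ E M q) (T := nodesFrobJq E M q)
    (nodesSwap_isIntegral_of_evalInt (A := A) (S := modularFunctionFieldFullC E (M * q))
      (nodesSwapPhi_monic q hq) (nodesSwapPhi_eval q hq E M))
    (nodesSwap_isIntegral_of_evalInt (A := A) (S := modularFunctionFieldFullC E (M * q))
      (s36tuW_monic q hq) (s36tu_eval_V ιC hq))

end Int

/-! ## Gauss ring and reductions -/

section Gauss

variable {A E k : Type*} [CommRing A] [IsDomain A] [Field E] [CharZero E] [Algebra A E]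
  [IsFractionRing A E] [Field k] (r : A →+* k) (ιC : E →+* ℂ)
  {q M : ℕ} [NeZero q] [NeZero M] [NeZero (M * q)]

theorem s36tu_uS_coe' : uS E q = coeffMap (algebraMap A E) (uS A q) :=
  (coeffMap_uS q (algebraMap A E)).symm

theorem s36tu_uInvS_coe' : uInvS E q = coeffMap (algebraMap A E) (uInvS A q) :=
  (coeffMap_uInvS q (algebraMap A E)).symm

theorem s36tu_U_coe' :
    HahnSeries.C ((q : E) ^ 12) * uS E q =
      coeffMap (algebraMap A E) (HahnSeries.C ((q : A) ^ 12) * uS A q) := by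
  have h : coeffMap (algebraMap A E) (HahnSeries.C ((q : A) ^ 12) * uS A q) =
      HahnSeries.C ((q : E) ^ 12) * uS E q := by
    rw [map_mul, Fermat.Agent.S28.coeffMap_hahnC, coeffMap_uS, map_pow, map_natCast]
  exact h.symm

theorem s36tu_uS_mem_gauss : uS E q ∈ gaussRing (algebraMap A E) r := by
  rw [s36tu_uS_coe' (A := A)]
  exact coeffMap_mem_gaussRing _ r _

theorem s36tu_U_mem_gauss :
    ((s36tuU E ιC (q := q) (M := M) : modularFunctionFieldFullC E (M * q)) : LaurentSeries E) ∈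
      gaussRing (algebraMap A E) r := by
  rw [s36tuU_coe, s36tu_U_coe' (A := A)]
  exact coeffMap_mem_gaussRing _ r _

theorem s36tu_V_mem_gauss :
    ((s36tuV E ιC (q := q) (M := M) : modularFunctionFieldFullC E (M * q)) : LaurentSeries E) ∈
      gaussRing (algebraMap A E) r := by
  rw [s36tuV_coe, s36tu_uInvS_coe' (A := A)]
  exact coeffMap_mem_gaussRing _ r _

/-- The reduction of `U = q¹² u_q` vanishes. -/
theorem s36tu_gaussRed_U [CharP k q]
    (h : ((s36tuU E ιC (q := q) (M := M) : modularFunctionFieldFullC E (M * q)) :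
      LaurentSeries E) ∈ gaussRing (algebraMap A E) r) :
    gaussRed r (IsFractionRing.injective A E) ⟨_, h⟩ = 0 := by
  have h1 : (⟨_, h⟩ : gaussRing (algebraMap A E) r) =
      ⟨coeffMap (algebraMap A E) (HahnSeries.C ((q : A) ^ 12) * uS A q),
        coeffMap_mem_gaussRing _ r _⟩ :=
    Subtype.ext ((s36tuU_coe E ιC).trans (s36tu_U_coe' (A := A)))
  rw [h1, gaussRed_coeffMap, map_mul, Fermat.Agent.S28.coeffMap_hahnC, map_pow, map_natCast,
    CharP.cast_eq_zero k q, zero_pow (by norm_num), map_zero, zero_mul]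

/-- The reduction of `V = Δ(Q)/Δ(Q^q)` is `P = Δ̄ · (Δ̄⁻¹)^q = Δ̄^{1-q}`. -/
theorem s36tu_gaussRed_V [hqf : Fact q.Prime] [CharP k q]
    (h : ((s36tuV E ιC (q := q) (M := M) : modularFunctionFieldFullC E (M * q)) :
      LaurentSeries E) ∈ gaussRing (algebraMap A E) r) :
    gaussRed r (IsFractionRing.injective A E) ⟨_, h⟩ = deltaS k * deltaInvS k ^ q := by
  have h1 : (⟨_, h⟩ : gaussRing (algebraMap A E) r) =
      ⟨coeffMap (algebraMap A E) (uInvS A q), coeffMap_mem_gaussRing _ r _⟩ :=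
    Subtype.ext ((s36tuV_coe E ιC).trans (s36tu_uInvS_coe' (A := A)))
  rw [h1, gaussRed_coeffMap, coeffMap_uInvS, uInvS_eq_mul_qExpand]
  congr 1
  exact nodesFrob_qExpand_int (k := k) q deltaInvZ

end Gauss


/-! ## The chart -/

section Chart

variable {A E k : Type*} [CommRing A] [IsDomain A] [WfDvdMonoid A] [Field E] [CharZero E]
  [Algebra A E] [IsFractionRing A E] [Field k] (r : A →+* k) {π : A} (ιC : E →+* ℂ)
  {q M : ℕ} [NeZero q] [NeZero M] [NeZero (M * q)] (hq : q.Prime) (hqM : ¬ q ∣ M)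
  [Algebra A (modularFunctionFieldFullC E (M * q))]
  [IsScalarTower A E (modularFunctionFieldFullC E (M * q))]
  (hπ0 : π ≠ 0) (hπ : ¬ IsUnit π) (hr : ∀ a, r a = 0 → π ∣ a) (hrπ : r π = 0)
  (w : modularFunctionFieldFullC E (M * q) →ₐ[E] modularFunctionFieldFullC E (M * q))
  (T : modularFunctionFieldFullC E (M * q))
  (hT : (T : LaurentSeries E) ∈ gaussRing (algebraMap A E) r)
  (hwT : ((w T : modularFunctionFieldFullC E (M * q)) : LaurentSeries E) ∈
    gaussRing (algebraMap A E) r)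

omit [WfDvdMonoid A] [CharZero E] in
theorem s36tu_coe_algebraMap (a : A) :
    ((algebraMap A (modularFunctionFieldFullC E (M * q)) a :
      modularFunctionFieldFullC E (M * q)) : LaurentSeries E) =
      HahnSeries.C (algebraMap A E a) :=
  nodesFrob_algebraMap_coe a

omit [WfDvdMonoid A] [CharZero E] in
theorem s36tu_coe_algebraMapE (a : E) :
    ((algebraMap E (modularFunctionFieldFullC E (M * q)) a :
      modularFunctionFieldFullC E (M * q)) : LaurentSeries E) = HahnSeries.C a := by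
  show algebraMap E (LaurentSeries E) a = _
  rw [algebraMap_eq_hahnC']

omit [WfDvdMonoid A] [CharZero E] in
theorem s36tu_algebraMap_ne_zero {a : A} (ha : a ≠ 0) :
    algebraMap A (modularFunctionFieldFullC E (M * q)) a ≠ 0 := by
  rw [IsScalarTower.algebraMap_apply A E (modularFunctionFieldFullC E (M * q)), Ne,
    map_eq_zero_iff _ (algebraMap E (modularFunctionFieldFullC E (M * q))).injective,
    map_eq_zero_iff _ (IsFractionRing.injective A E)]
  exact ha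

omit [WfDvdMonoid A] [CharZero E] in
theorem s36tu_w_algebraMap (a : A) :
    w (algebraMap A (modularFunctionFieldFullC E (M * q)) a) =
      algebraMap A (modularFunctionFieldFullC E (M * q)) a := by
  rw [IsScalarTower.algebraMap_apply A E (modularFunctionFieldFullC E (M * q)), AlgHom.commutes]

omit [CharZero E] in
/-- **Krull property of the chart, from (SS1)**: an element `x` of the function field with
`π^n x ∈ B` such that `x` and `w x` are Gauss-integral lies in `B`. -/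
theorem s36tu_mem_of_gauss
    (hSS1 : ∀ x : integralClosure (Algebra.adjoin A {T}) (modularFunctionFieldFullC E (M * q)),
      nodesFrobChartRed r hπ0 hπ hr hrπ (nodesFrob_full_le (M * q)) T hT x = 0 →
      nodesSwapRho₀ r hπ0 hπ hr hrπ (nodesFrob_full_le (M * q)) w T hwT x = 0 →
      algebraMap A (integralClosure (Algebra.adjoin A {T})
        (modularFunctionFieldFullC E (M * q))) π ∣ x)
    (n : ℕ) (x : modularFunctionFieldFullC E (M * q))
    (hx : IsIntegral (Algebra.adjoin A {T})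
      (algebraMap A (modularFunctionFieldFullC E (M * q)) (π ^ n) * x))
    (hxG : (x : LaurentSeries E) ∈ gaussRing (algebraMap A E) r)
    (hwxG : ((w x : modularFunctionFieldFullC E (M * q)) : LaurentSeries E) ∈
      gaussRing (algebraMap A E) r) :
    IsIntegral (Algebra.adjoin A {T}) x := by
  induction n with
  | zero => simpa using hx
  | succ n ih =>
    apply ih
    set y : integralClosure (Algebra.adjoin A {T}) (modularFunctionFieldFullC E (M * q)) :=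
      ⟨algebraMap A (modularFunctionFieldFullC E (M * q)) (π ^ (n + 1)) * x, hx⟩ with hy
    have hyG : (((y : modularFunctionFieldFullC E (M * q))) : LaurentSeries E) ∈
        gaussRing (algebraMap A E) r :=
      nodesFrob_G1_id r hπ0 hπ hr hrπ (nodesFrob_full_le (M * q)) T hT y.2
    have hwyG : ((w (y : modularFunctionFieldFullC E (M * q)) :
        modularFunctionFieldFullC E (M * q)) : LaurentSeries E) ∈ gaussRing (algebraMap A E) r :=
      nodesFrob_G1 r hπ0 hπ hr hrπ (nodesFrob_full_le (M * q)) w T hwT y.2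
    have hρ : nodesFrobChartRed r hπ0 hπ hr hrπ (nodesFrob_full_le (M * q)) T hT y = 0 := by
      rw [nodesFrobChartRed_apply r hπ0 hπ hr hrπ (nodesFrob_full_le (M * q)) T hT y hyG,
        gaussRed_eq_zero_iff_dvd r (IsFractionRing.injective A E) hrπ hr]
      refine ⟨⟨HahnSeries.C (algebraMap A E (π ^ n)) * (x : LaurentSeries E),
        Subring.mul_mem _ (hahnC_mem_gaussRing r _) hxG⟩, ?_⟩
      show ((algebraMap A (modularFunctionFieldFullC E (M * q)) (π ^ (n + 1)) :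
          modularFunctionFieldFullC E (M * q)) : LaurentSeries E) * (x : LaurentSeries E) =
        HahnSeries.C (algebraMap A E π) *
          (HahnSeries.C (algebraMap A E (π ^ n)) * (x : LaurentSeries E))
      rw [s36tu_coe_algebraMap, pow_succ', map_mul, map_mul, mul_assoc]
    have hρ₀ : nodesSwapRho₀ r hπ0 hπ hr hrπ (nodesFrob_full_le (M * q)) w T hwT y = 0 := by
      rw [nodesSwapRho₀_apply r hπ0 hπ hr hrπ (nodesFrob_full_le (M * q)) w T hwT y hwyG,
        gaussRed_eq_zero_iff_dvd r (IsFractionRing.injective A E) hrπ hr]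
      refine ⟨⟨HahnSeries.C (algebraMap A E (π ^ n)) *
        ((w x : modularFunctionFieldFullC E (M * q)) : LaurentSeries E),
        Subring.mul_mem _ (hahnC_mem_gaussRing r _) hwxG⟩, ?_⟩
      have e1 : w (y : modularFunctionFieldFullC E (M * q)) =
          algebraMap A (modularFunctionFieldFullC E (M * q)) (π ^ (n + 1)) * w x := by
        show w (algebraMap A (modularFunctionFieldFullC E (M * q)) (π ^ (n + 1)) * x) = _
        rw [map_mul, s36tu_w_algebraMap]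
      show ((w (y : modularFunctionFieldFullC E (M * q)) :
          modularFunctionFieldFullC E (M * q)) : LaurentSeries E) =
        HahnSeries.C (algebraMap A E π) *
          (HahnSeries.C (algebraMap A E (π ^ n)) *
            ((w x : modularFunctionFieldFullC E (M * q)) : LaurentSeries E))
      rw [e1]
      show ((algebraMap A (modularFunctionFieldFullC E (M * q)) (π ^ (n + 1)) :
          modularFunctionFieldFullC E (M * q)) : LaurentSeries E) *
            ((w x : modularFunctionFieldFullC E (M * q)) : LaurentSeries E) = _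
      rw [s36tu_coe_algebraMap, pow_succ', map_mul, map_mul, mul_assoc]
    obtain ⟨y', hy'⟩ := hSS1 y hρ hρ₀
    have h1 : algebraMap A (modularFunctionFieldFullC E (M * q)) (π ^ (n + 1)) * x =
        algebraMap A (modularFunctionFieldFullC E (M * q)) π *
          (y' : modularFunctionFieldFullC E (M * q)) :=
      congrArg (fun z : integralClosure (Algebra.adjoin A {T})
        (modularFunctionFieldFullC E (M * q)) => (z : modularFunctionFieldFullC E (M * q))) hy'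
    have h2 : algebraMap A (modularFunctionFieldFullC E (M * q)) (π ^ n) * x =
        (y' : modularFunctionFieldFullC E (M * q)) := by
      apply mul_left_cancel₀ (s36tu_algebraMap_ne_zero (E := E) (M := M) (q := q) hπ0)
      rw [← h1, ← mul_assoc, ← map_mul, ← pow_succ']
    rw [h2]
    exact y'.2

omit [WfDvdMonoid A] in
/-- Gauss-integrality of `q⁻¹² y¹² v` when `π ∣ y` and `q ∼ π`. -/
theorem s36tu_gauss_aux (hqπ : Associated (q : A) π) {y v : LaurentSeries E}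
    (hy : ∃ g : gaussRing (algebraMap A E) r,
      y = HahnSeries.C (algebraMap A E π) * (g : LaurentSeries E))
    (hv : v ∈ gaussRing (algebraMap A E) r) :
    HahnSeries.C (((q : E) ^ 12)⁻¹) * (y ^ 12 * v) ∈ gaussRing (algebraMap A E) r := by
  obtain ⟨g, hg⟩ := hy
  obtain ⟨c, hc⟩ := hqπ
  have hq0 : (q : E) ≠ 0 := Nat.cast_ne_zero.mpr (NeZero.ne q)
  have hπE : algebraMap A E π = (q : E) * algebraMap A E (c : A) := by
    rw [← hc, map_mul, map_natCast]
  have e : HahnSeries.C (((q : E) ^ 12)⁻¹) * (y ^ 12 * v) =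
      HahnSeries.C (algebraMap A E ((c : A) ^ 12)) * ((g : LaurentSeries E) ^ 12 * v) := by
    have e1 : (HahnSeries.C (((q : E) ^ 12)⁻¹) : LaurentSeries E) *
        HahnSeries.C (algebraMap A E π) ^ 12 = HahnSeries.C (algebraMap A E ((c : A) ^ 12)) := by
      rw [← map_pow, ← map_mul, hπE, map_pow]
      congr 1
      field_simp
    rw [hg, mul_pow, ← e1]
    ring
  rw [e]
  exact Subring.mul_mem _ (hahnC_mem_gaussRing r _)
    (Subring.mul_mem _ (Subring.pow_mem _ g.2 12) hv)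

omit [WfDvdMonoid A] [CharZero E] in
theorem s36tu_isIntegral_algebraMap (a : A) :
    IsIntegral (Algebra.adjoin A {T}) (algebraMap A (modularFunctionFieldFullC E (M * q)) a) :=
  isIntegral_algebraMap (R := Algebra.adjoin A {T})
    (x := (⟨algebraMap A (modularFunctionFieldFullC E (M * q)) a,
      Subalgebra.algebraMap_mem _ a⟩ : Algebra.adjoin A {T}))

omit [WfDvdMonoid A] [CharZero E] in
theorem s36tu_algebraMap_natCast_pow :
    algebraMap A (modularFunctionFieldFullC E (M * q)) ((q : A) ^ 12) =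
      algebraMap E (modularFunctionFieldFullC E (M * q)) ((q : E) ^ 12) := by
  rw [IsScalarTower.algebraMap_apply A E (modularFunctionFieldFullC E (M * q)), map_pow,
    map_natCast]

omit [WfDvdMonoid A] in
/-- `π¹² · (q⁻¹² z) = c¹² z` for `q c = π`. -/
theorem s36tu_pi_pow_mul {c : A} (hc : (q : A) * c = π)
    (z : modularFunctionFieldFullC E (M * q)) :
    algebraMap A (modularFunctionFieldFullC E (M * q)) (π ^ 12) *
      (algebraMap E (modularFunctionFieldFullC E (M * q)) (((q : E) ^ 12)⁻¹) * z) =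
      algebraMap A (modularFunctionFieldFullC E (M * q)) (c ^ 12) * z := by
  have hq0 : ((q : E) ^ 12) ≠ 0 := s36tu_q_ne_zero E
  have h1 : algebraMap E (modularFunctionFieldFullC E (M * q)) ((q : E) ^ 12) *
      algebraMap E (modularFunctionFieldFullC E (M * q)) (((q : E) ^ 12)⁻¹) = 1 := by
    rw [← map_mul, mul_inv_cancel₀ hq0, map_one]
  rw [← hc, mul_pow, map_mul, s36tu_algebraMap_natCast_pow]
  linear_combination (algebraMap A (modularFunctionFieldFullC E (M * q)) (c ^ 12) * z) * h1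

/-- **(T1), `hu` at `∞`**: on the chart `B`, `ρ f = 0` implies `U ∣ f ^ 12`
(`U = q¹² Δ(Q^q)/Δ(Q)`). -/
theorem s36tu_hu
    (hw : ∀ x, w x = atkinLehner E ιC hq hqM x) (hqπ : Associated (q : A) π)
    (hSS1 : ∀ x : integralClosure (Algebra.adjoin A {T}) (modularFunctionFieldFullC E (M * q)),
      nodesFrobChartRed r hπ0 hπ hr hrπ (nodesFrob_full_le (M * q)) T hT x = 0 →
      nodesSwapRho₀ r hπ0 hπ hr hrπ (nodesFrob_full_le (M * q)) w T hwT x = 0 →
      algebraMap A (integralClosure (Algebra.adjoin A {T})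
        (modularFunctionFieldFullC E (M * q))) π ∣ x)
    (hU : IsIntegral (Algebra.adjoin A {T}) (s36tuU E ιC (q := q) (M := M)))
    (hV : IsIntegral (Algebra.adjoin A {T}) (s36tuV E ιC (q := q) (M := M)))
    (f : integralClosure (Algebra.adjoin A {T}) (modularFunctionFieldFullC E (M * q)))
    (hf : nodesFrobChartRed r hπ0 hπ hr hrπ (nodesFrob_full_le (M * q)) T hT f = 0) :
    (⟨s36tuU E ιC, hU⟩ :
      integralClosure (Algebra.adjoin A {T}) (modularFunctionFieldFullC E (M * q))) ∣ f ^ 12 := by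
  have hfG := nodesFrob_G1_id r hπ0 hπ hr hrπ (nodesFrob_full_le (M * q)) T hT f.2
  have hwfG := nodesFrob_G1 r hπ0 hπ hr hrπ (nodesFrob_full_le (M * q)) w T hwT f.2
  rw [nodesFrobChartRed_apply r hπ0 hπ hr hrπ (nodesFrob_full_le (M * q)) T hT f hfG,
    gaussRed_eq_zero_iff_dvd r (IsFractionRing.injective A E) hrπ hr] at hf
  have hq0 : ((q : E) ^ 12) ≠ 0 := s36tu_q_ne_zero E
  have h1 : algebraMap E (modularFunctionFieldFullC E (M * q)) ((q : E) ^ 12) *
      algebraMap E (modularFunctionFieldFullC E (M * q)) (((q : E) ^ 12)⁻¹) = 1 := by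
    rw [← map_mul, mul_inv_cancel₀ hq0, map_one]
  have h2 : s36tuU0 E ιC (q := q) (M := M) * (s36tuU0 E ιC (q := q) (M := M))⁻¹ = 1 :=
    mul_inv_cancel₀ (s36tuU0_ne_zero E ιC)
  set x : modularFunctionFieldFullC E (M * q) :=
    algebraMap E (modularFunctionFieldFullC E (M * q)) (((q : E) ^ 12)⁻¹) *
      ((f : modularFunctionFieldFullC E (M * q)) ^ 12 * s36tuV E ιC) with hx
  -- `π¹² x ∈ B`
  have hxint : IsIntegral (Algebra.adjoin A {T})
      (algebraMap A (modularFunctionFieldFullC E (M * q)) (π ^ 12) * x) := by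
    obtain ⟨c, hc⟩ := hqπ
    rw [hx, s36tu_pi_pow_mul hc]
    exact (s36tu_isIntegral_algebraMap T _).mul ((f.2.pow 12).mul hV)
  -- `x` is Gauss-integral
  have hxG : (x : LaurentSeries E) ∈ gaussRing (algebraMap A E) r := by
    have e : (x : LaurentSeries E) = HahnSeries.C (((q : E) ^ 12)⁻¹) *
        (((f : modularFunctionFieldFullC E (M * q)) : LaurentSeries E) ^ 12 *
          ((s36tuV E ιC (q := q) (M := M) : modularFunctionFieldFullC E (M * q)) :
            LaurentSeries E)) := by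
      rw [← s36tu_coe_algebraMapE (E := E) (M := M) (q := q)]
      rfl
    rw [e]
    exact s36tu_gauss_aux r hqπ hf (s36tu_V_mem_gauss r ιC)
  -- `w x` is Gauss-integral
  have hwxG : ((w x : modularFunctionFieldFullC E (M * q)) : LaurentSeries E) ∈
      gaussRing (algebraMap A E) r := by
    have e2 : w x = w (f : modularFunctionFieldFullC E (M * q)) ^ 12 * s36tuU0 E ιC := by
      rw [hx, map_mul, map_mul, map_pow, AlgHom.commutes, hw (s36tuV E ιC), s36tu_w_V, s36tuU]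
      linear_combination (w (f : modularFunctionFieldFullC E (M * q)) ^ 12 * s36tuU0 E ιC) * h1
    rw [e2]
    exact Subring.mul_mem _ (Subring.pow_mem _ hwfG 12) (s36tu_uS_mem_gauss r)
  have hxB := s36tu_mem_of_gauss r hπ0 hπ hr hrπ w T hT hwT hSS1 12 x hxint hxG hwxG
  refine ⟨⟨x, hxB⟩, Subtype.ext ?_⟩
  show (f : modularFunctionFieldFullC E (M * q)) ^ 12 = s36tuU E ιC * x
  rw [hx, s36tuU, s36tuV]
  linear_combination (-((f : modularFunctionFieldFullC E (M * q)) ^ 12) *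
    (s36tuU0 E ιC (q := q) (M := M) * (s36tuU0 E ιC (q := q) (M := M))⁻¹)) * h1 +
    (-((f : modularFunctionFieldFullC E (M * q)) ^ 12)) * h2

/-- **(T1), `hu` at `0`**: on the chart `B`, `ρ₀ f = 0` implies `V ∣ f ^ 12`
(`V = Δ(Q)/Δ(Q^q) = w_q U`). -/
theorem s36tu_hu₀
    (hw : ∀ x, w x = atkinLehner E ιC hq hqM x) (hqπ : Associated (q : A) π)
    (hSS1 : ∀ x : integralClosure (Algebra.adjoin A {T}) (modularFunctionFieldFullC E (M * q)),
      nodesFrobChartRed r hπ0 hπ hr hrπ (nodesFrob_full_le (M * q)) T hT x = 0 →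
      nodesSwapRho₀ r hπ0 hπ hr hrπ (nodesFrob_full_le (M * q)) w T hwT x = 0 →
      algebraMap A (integralClosure (Algebra.adjoin A {T})
        (modularFunctionFieldFullC E (M * q))) π ∣ x)
    (hU : IsIntegral (Algebra.adjoin A {T}) (s36tuU E ιC (q := q) (M := M)))
    (hV : IsIntegral (Algebra.adjoin A {T}) (s36tuV E ιC (q := q) (M := M)))
    (f : integralClosure (Algebra.adjoin A {T}) (modularFunctionFieldFullC E (M * q)))
    (hf : nodesSwapRho₀ r hπ0 hπ hr hrπ (nodesFrob_full_le (M * q)) w T hwT f = 0) :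
    (⟨s36tuV E ιC, hV⟩ :
      integralClosure (Algebra.adjoin A {T}) (modularFunctionFieldFullC E (M * q))) ∣ f ^ 12 := by
  have hfG := nodesFrob_G1_id r hπ0 hπ hr hrπ (nodesFrob_full_le (M * q)) T hT f.2
  have hwfG := nodesFrob_G1 r hπ0 hπ hr hrπ (nodesFrob_full_le (M * q)) w T hwT f.2
  rw [nodesSwapRho₀_apply r hπ0 hπ hr hrπ (nodesFrob_full_le (M * q)) w T hwT f hwfG,
    gaussRed_eq_zero_iff_dvd r (IsFractionRing.injective A E) hrπ hr] at hf
  have hq0 : ((q : E) ^ 12) ≠ 0 := s36tu_q_ne_zero E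
  have h1 : algebraMap E (modularFunctionFieldFullC E (M * q)) ((q : E) ^ 12) *
      algebraMap E (modularFunctionFieldFullC E (M * q)) (((q : E) ^ 12)⁻¹) = 1 := by
    rw [← map_mul, mul_inv_cancel₀ hq0, map_one]
  have h2 : s36tuU0 E ιC (q := q) (M := M) * (s36tuU0 E ιC (q := q) (M := M))⁻¹ = 1 :=
    mul_inv_cancel₀ (s36tuU0_ne_zero E ιC)
  set x : modularFunctionFieldFullC E (M * q) :=
    algebraMap E (modularFunctionFieldFullC E (M * q)) (((q : E) ^ 12)⁻¹) *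
      ((f : modularFunctionFieldFullC E (M * q)) ^ 12 * s36tuU E ιC) with hx
  have hxint : IsIntegral (Algebra.adjoin A {T})
      (algebraMap A (modularFunctionFieldFullC E (M * q)) (π ^ 12) * x) := by
    obtain ⟨c, hc⟩ := hqπ
    rw [hx, s36tu_pi_pow_mul hc]
    exact (s36tu_isIntegral_algebraMap T _).mul ((f.2.pow 12).mul hU)
  have hxG : (x : LaurentSeries E) ∈ gaussRing (algebraMap A E) r := by
    have e2 : x = (f : modularFunctionFieldFullC E (M * q)) ^ 12 * s36tuU0 E ιC := by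
      rw [hx, s36tuU]
      linear_combination ((f : modularFunctionFieldFullC E (M * q)) ^ 12 * s36tuU0 E ιC) * h1
    rw [e2]
    exact Subring.mul_mem _ (Subring.pow_mem _ hfG 12) (s36tu_uS_mem_gauss r)
  have hwxG : ((w x : modularFunctionFieldFullC E (M * q)) : LaurentSeries E) ∈
      gaussRing (algebraMap A E) r := by
    have e3 : w x = algebraMap E (modularFunctionFieldFullC E (M * q)) (((q : E) ^ 12)⁻¹) *
        (w (f : modularFunctionFieldFullC E (M * q)) ^ 12 * s36tuV E ιC) := by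
      rw [hx, map_mul, map_mul, map_pow, AlgHom.commutes, hw (s36tuU E ιC), s36tu_w_U]
    have e : ((w x : modularFunctionFieldFullC E (M * q)) : LaurentSeries E) =
        HahnSeries.C (((q : E) ^ 12)⁻¹) *
        (((w (f : modularFunctionFieldFullC E (M * q)) :
          modularFunctionFieldFullC E (M * q)) : LaurentSeries E) ^ 12 *
          ((s36tuV E ιC (q := q) (M := M) : modularFunctionFieldFullC E (M * q)) :
            LaurentSeries E)) := by
      rw [e3, ← s36tu_coe_algebraMapE (E := E) (M := M) (q := q)]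
      rfl
    rw [e]
    exact s36tu_gauss_aux r hqπ hf (s36tu_V_mem_gauss r ιC)
  have hxB := s36tu_mem_of_gauss r hπ0 hπ hr hrπ w T hT hwT hSS1 12 x hxint hxG hwxG
  refine ⟨⟨x, hxB⟩, Subtype.ext ?_⟩
  show (f : modularFunctionFieldFullC E (M * q)) ^ 12 = s36tuV E ιC * x
  rw [hx, s36tuU, s36tuV]
  linear_combination (-((f : modularFunctionFieldFullC E (M * q)) ^ 12) *
    (s36tuU0 E ιC (q := q) (M := M) * (s36tuU0 E ιC (q := q) (M := M))⁻¹)) * h1 +
    (-((f : modularFunctionFieldFullC E (M * q)) ^ 12)) * h2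

/-! ### The four reductions -/

omit [CharZero E] in
theorem s36tu_gaussRed_congr {x y : LaurentSeries E} (h : x = y)
    (hx : x ∈ gaussRing (algebraMap A E) r) (hy : y ∈ gaussRing (algebraMap A E) r) :
    gaussRed r (IsFractionRing.injective A E) ⟨x, hx⟩ =
      gaussRed r (IsFractionRing.injective A E) ⟨y, hy⟩ := by
  subst h
  rfl

/-- `ρ U = 0`. -/
theorem s36tu_rho_U [CharP k q]
    (hU : IsIntegral (Algebra.adjoin A {T}) (s36tuU E ιC (q := q) (M := M))) :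
    nodesFrobChartRed r hπ0 hπ hr hrπ (nodesFrob_full_le (M * q)) T hT ⟨s36tuU E ιC, hU⟩ = 0 := by
  exact (nodesFrobChartRed_apply r hπ0 hπ hr hrπ (nodesFrob_full_le (M * q)) T hT
    ⟨s36tuU E ιC, hU⟩ (s36tu_U_mem_gauss r ιC)).trans (s36tu_gaussRed_U r ιC _)

/-- `ρ V = P = Δ̄ (Δ̄⁻¹)^q`. -/
theorem s36tu_rho_V [Fact q.Prime] [CharP k q]
    (hV : IsIntegral (Algebra.adjoin A {T}) (s36tuV E ιC (q := q) (M := M))) :
    nodesFrobChartRed r hπ0 hπ hr hrπ (nodesFrob_full_le (M * q)) T hT ⟨s36tuV E ιC, hV⟩ =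
      deltaS k * deltaInvS k ^ q := by
  exact (nodesFrobChartRed_apply r hπ0 hπ hr hrπ (nodesFrob_full_le (M * q)) T hT
    ⟨s36tuV E ιC, hV⟩ (s36tu_V_mem_gauss r ιC)).trans (s36tu_gaussRed_V r ιC _)

/-- `ρ₀ U = P = Δ̄ (Δ̄⁻¹)^q`. -/
theorem s36tu_rho₀_U [Fact q.Prime] [CharP k q]
    (hw : ∀ x, w x = atkinLehner E ιC hq hqM x)
    (hU : IsIntegral (Algebra.adjoin A {T}) (s36tuU E ιC (q := q) (M := M))) :
    nodesSwapRho₀ r hπ0 hπ hr hrπ (nodesFrob_full_le (M * q)) w T hwT ⟨s36tuU E ιC, hU⟩ =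
      deltaS k * deltaInvS k ^ q := by
  have e : w (s36tuU E ιC) = s36tuV E ιC := by rw [hw, s36tu_w_U]
  have hG : ((w (s36tuU E ιC (q := q) (M := M)) : modularFunctionFieldFullC E (M * q)) :
      LaurentSeries E) ∈ gaussRing (algebraMap A E) r := by
    rw [e]; exact s36tu_V_mem_gauss r ιC
  exact ((nodesSwapRho₀_apply r hπ0 hπ hr hrπ (nodesFrob_full_le (M * q)) w T hwT
    ⟨s36tuU E ιC, hU⟩ hG).trans
    (s36tu_gaussRed_congr r (congrArg (fun z : modularFunctionFieldFullC E (M * q) =>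
      (z : LaurentSeries E)) e) hG (s36tu_V_mem_gauss r ιC))).trans (s36tu_gaussRed_V r ιC _)

/-- `ρ₀ V = 0`. -/
theorem s36tu_rho₀_V [CharP k q]
    (hw : ∀ x, w x = atkinLehner E ιC hq hqM x)
    (hV : IsIntegral (Algebra.adjoin A {T}) (s36tuV E ιC (q := q) (M := M))) :
    nodesSwapRho₀ r hπ0 hπ hr hrπ (nodesFrob_full_le (M * q)) w T hwT ⟨s36tuV E ιC, hV⟩ = 0 := by
  have e : w (s36tuV E ιC) = s36tuU E ιC := by rw [hw, s36tu_w_V]
  have hG : ((w (s36tuV E ιC (q := q) (M := M)) : modularFunctionFieldFullC E (M * q)) :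
      LaurentSeries E) ∈ gaussRing (algebraMap A E) r := by
    rw [e]; exact s36tu_U_mem_gauss r ιC
  exact ((nodesSwapRho₀_apply r hπ0 hπ hr hrπ (nodesFrob_full_le (M * q)) w T hwT
    ⟨s36tuV E ιC, hV⟩ hG).trans
    (s36tu_gaussRed_congr r (congrArg (fun z : modularFunctionFieldFullC E (M * q) =>
      (z : LaurentSeries E)) e) hG (s36tu_U_mem_gauss r ιC))).trans (s36tu_gaussRed_U r ιC _)

end Chart

/-! ## (T2): `P · H⁶ = G(j̄)^{q-1}` -/

section T2

variable (k : Type*) [Field k]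

/-- **(T2)**: `P = Δ̄ (Δ̄⁻¹)^q`, `H = (θ j̄)^{q-1}`, `(θ j̄)⁶ = G(j̄) Δ̄`  ⟹  `P · H⁶ = G(j̄)^{q-1}`. -/
theorem s36tu_PH (q : ℕ) (hq : 1 ≤ q) (G : Polynomial k)
    (hG : Deriv.thetaFun (jqModC k) ^ 6 = Polynomial.aeval (jqModC k) G * deltaS k) :
    deltaS k * deltaInvS k ^ q * (Deriv.thetaFun (jqModC k) ^ (q - 1)) ^ 6 =
      Polynomial.aeval (jqModC k) G ^ (q - 1) := by
  obtain ⟨n, rfl⟩ : ∃ n, q = n + 1 := ⟨q - 1, by omega⟩
  have h1 := deltaS_mul_deltaInvS k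
  rw [Nat.add_sub_cancel, ← pow_mul, mul_comm n 6, pow_mul, hG, mul_pow]
  calc deltaS k * deltaInvS k ^ (n + 1) * (Polynomial.aeval (jqModC k) G ^ n * deltaS k ^ n)
      = Polynomial.aeval (jqModC k) G ^ n * (deltaS k * deltaInvS k) ^ (n + 1) := by ring
    _ = _ := by rw [h1, one_pow, mul_one]

/-- (T2) with the polynomial `G` of `S28` (`cprime_field`). -/
theorem s36tu_exists_PH (q : ℕ) (hq : 1 ≤ q) :
    ∃ G : Polynomial k, G ≠ 0 ∧
      Deriv.thetaFun (jqModC k) ^ 6 = Polynomial.aeval (jqModC k) G * deltaS k ∧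
      deltaS k * deltaInvS k ^ q * (Deriv.thetaFun (jqModC k) ^ (q - 1)) ^ 6 =
        Polynomial.aeval (jqModC k) G ^ (q - 1) := by
  obtain ⟨G, hG0, hG⟩ := CPrime.cprime_field k
  exact ⟨G, hG0, hG, s36tu_PH k q hq G hG⟩

end T2

end Fermat.Agent.S36

end
end ZBS36_002_1

/-! ### bundled: `Fermat.Agent.S33.WildUnit` -/
section ZBS36_002_2

/-!
# S33 v2, C4 (WILD), piece T5f-U: the modular unit `U = q¹² Δ(Q^q)/Δ(Q)` and the vertical
valuation rings `V_∞ = mgvV … true`, `V_0 = mgvV … false`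

`U = S36.s36tuU`, `V' = S36.s36tuV`, `U V' = q¹²`, `w_q U = V'`.

* generic base `hB : VtBase (algebraMap A E) r π`, `char k = q`:
  `wun_U_mem_true : U ∈ 𝔪(V_∞)`, `wun_U_not_mem_false : U ∉ 𝔪(V_0)`,
  `wun_V_mem_false : V' ∈ 𝔪(V_0)`, `wun_V_not_mem_true : V' ∉ 𝔪(V_∞)`,
  `wun_U_mem`, `wun_V_mem` (`U, V' ∈ V c` for both `c`).
* concrete setting (`A ∩ K₀` a DVR, `A` over `q`), `V = mgvV hπ ιC hq hqM`:
  `wun_mgv_U`, `wun_mgv_V`, `wun_mgv_U_mem`, `wun_mgv_V_mem`,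
  `wun_mgv_isIntegral_U`, `wun_mgv_isIntegral_V` (integral over `A′[bgJ]`),
  `wun_mgv_U_mul_V : U * V' = algebraMap A′ F q ^ 12`, `wun_mgv_q_ne_zero`, `wun_mgv_pi_dvd_q`,
  `wun_mgv_sep_true : j_q − j^q ∈ 𝔪(V_∞)`, `wun_mgv_sep_false : j_q^q − j ∈ 𝔪(V_0)`,
  `wun_mgv_e_sub_one : j_q (j⁻¹)^q − 1 ∈ 𝔪(V_∞)`,
  `wun_mgv_e_pow_sub : (j_q (j⁻¹)^q)^q − (j⁻¹)^(q²−1) ∈ 𝔪(V_0)`.
-/

set_option autoImplicit false
set_option linter.unusedSectionVars false
set_option linter.unusedVariables false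
set_option linter.style.haveILetI false

noncomputable section

namespace Fermat.Agent.S33

open ModularCurve Fermat.Agent.INJ Fermat.Agent.ES Fermat.Agent.ES.G2 Fermat.Agent.UNIP
  Fermat.Agent.AL Fermat.Agent.S36 Fermat.Agent.S28

section Gen

variable {A E k : Type*} [CommRing A] [IsDomain A] [Field E] [CharZero E] [Algebra A E]
  [IsFractionRing A E] [Field k] {r : A →+* k} {π : A} (hB : VtBase (algebraMap A E) r π)
  (ιC : E →+* ℂ) {q M : ℕ} [NeZero q] [NeZero M] [NeZero (M * q)] (hq : q.Prime)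
  (hqM : ¬ q ∣ M)

/-- `P = Δ̄ (Δ̄⁻¹)^q ≠ 0` -/
theorem wun_P_ne_zero (k : Type*) [Field k] (q : ℕ) : deltaS k * deltaInvS k ^ q ≠ 0 :=
  mul_ne_zero (deltaS_ne_zero k) (pow_ne_zero _ (deltaInvS_ne_zero k))

/-- the `Q`-expansion of `U` at the cusp `0` is the `Q`-expansion of `V'` at `∞` -/
theorem wun_emb_false_U :
    vtEmbFam ιC hq hqM false (s36tuU E ιC) =
      ((s36tuV E ιC : modularFunctionFieldFullC E (M * q)) : LaurentSeries E) := by
  show ((atkinLehner E ιC hq hqM (s36tuU E ιC) : modularFunctionFieldFullC E (M * q)) :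
    LaurentSeries E) = _
  rw [s36tu_w_U]

/-- the `Q`-expansion of `V'` at the cusp `0` is the `Q`-expansion of `U` at `∞` -/
theorem wun_emb_false_V :
    vtEmbFam ιC hq hqM false (s36tuV E ιC) =
      ((s36tuU E ιC : modularFunctionFieldFullC E (M * q)) : LaurentSeries E) := by
  show ((atkinLehner E ιC hq hqM (s36tuV E ιC) : modularFunctionFieldFullC E (M * q)) :
    LaurentSeries E) = _
  rw [s36tu_w_V]

/-- `U ∈ V c` for both `c` -/
theorem wun_U_mem (c : Bool) : s36tuU E ιC ∈ vtFam hB ιC hq hqM c := by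
  rw [mem_vtFam]
  cases c
  · rw [wun_emb_false_U]; exact s36tu_V_mem_gauss r ιC
  · exact s36tu_U_mem_gauss r ιC

/-- `V' ∈ V c` for both `c` -/
theorem wun_V_mem (c : Bool) : s36tuV E ιC ∈ vtFam hB ιC hq hqM c := by
  rw [mem_vtFam]
  cases c
  · rw [wun_emb_false_V]; exact s36tu_U_mem_gauss r ιC
  · exact s36tu_V_mem_gauss r ιC

variable [Fact q.Prime] [CharP k q]

/-- **`U ∈ 𝔪(V_∞)`** -/
theorem wun_U_mem_true : s36tuU E ιC ∈ (vtFam hB ιC hq hqM true).nonunits := by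
  rw [vtFam_mem_nonunits_iff]
  exact ⟨s36tu_U_mem_gauss r ιC, s36tu_gaussRed_U r ιC _⟩

/-- **`V' ∉ 𝔪(V_∞)`** -/
theorem wun_V_not_mem_true : s36tuV E ιC ∉ (vtFam hB ιC hq hqM true).nonunits := by
  rw [vtFam_mem_nonunits_iff]
  rintro ⟨h, h0⟩
  exact wun_P_ne_zero k q ((s36tu_gaussRed_V r ιC h).symm.trans h0)

/-- **`U ∉ 𝔪(V_0)`** -/
theorem wun_U_not_mem_false : s36tuU E ιC ∉ (vtFam hB ιC hq hqM false).nonunits := by
  rw [vtFam_mem_nonunits_iff]
  rintro ⟨h, h0⟩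
  have e2 : (⟨_, h⟩ : gaussRing (algebraMap A E) r) =
      ⟨_, s36tu_V_mem_gauss (E := E) (M := M) (q := q) r ιC⟩ :=
    Subtype.ext (wun_emb_false_U ιC hq hqM)
  rw [e2] at h0
  exact wun_P_ne_zero k q ((s36tu_gaussRed_V r ιC _).symm.trans h0)

/-- **`V' ∈ 𝔪(V_0)`** -/
theorem wun_V_mem_false : s36tuV E ιC ∈ (vtFam hB ιC hq hqM false).nonunits := by
  rw [vtFam_mem_nonunits_iff]
  have hmem : vtEmbFam ιC hq hqM false (s36tuV E ιC) ∈ gaussRing (algebraMap A E) r := by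
    rw [wun_emb_false_V]; exact s36tu_U_mem_gauss r ιC
  refine ⟨hmem, ?_⟩
  have e2 : (⟨_, hmem⟩ : gaussRing (algebraMap A E) r) =
      ⟨_, s36tu_U_mem_gauss (E := E) (M := M) (q := q) r ιC⟩ :=
    Subtype.ext (wun_emb_false_V ιC hq hqM)
  rw [e2]
  exact s36tu_gaussRed_U r ιC _

end Gen

section Abs

variable {F : Type*} [Field F]

/-- the negative of a non-unit is a non-unit -/
theorem wun_neg_mem_nonunits (V : ValuationSubring F) {a : F} (ha : a ∈ V.nonunits) :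
    -a ∈ V.nonunits := by
  rw [ValuationSubring.mem_nonunits_iff] at ha ⊢
  rwa [Valuation.map_neg]

/-- a member of `V` outside `𝔪(V)` has valuation `1` -/
theorem wun_valuation_eq_one (V : ValuationSubring F) {a : F} (ha : a ∈ V)
    (ha' : a ∉ V.nonunits) : V.valuation a = 1 := by
  refine le_antisymm ((V.valuation_le_one_iff a).2 ha) ?_
  rw [ValuationSubring.mem_nonunits_iff, not_lt] at ha'
  exact ha'

end Abs

section Mgv

variable {A : ValuationSubring Qb} {K₀ : IntermediateField ℚ Qb}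
  [IsDiscreteValuationRing ↥(beta0Ring A K₀)] {π : ↥(beta0Ring A K₀)} (hπ : Irreducible π)
  (ιC : ↥K₀ →+* ℂ) {q M : ℕ} [NeZero q] [NeZero M] [NeZero (M * q)]
  (hq : q.Prime) (hqM : ¬ q ∣ M)

/-- `U, V' ∈ V c` for both `c` -/
theorem wun_mgv_U_mem (c : Bool) : s36tuU ↥K₀ ιC ∈ mgvV hπ ιC hq hqM c :=
  wun_U_mem (vtBase_residue hπ) ιC hq hqM c

theorem wun_mgv_V_mem (c : Bool) : s36tuV ↥K₀ ιC ∈ mgvV hπ ιC hq hqM c :=
  wun_V_mem (vtBase_residue hπ) ιC hq hqM c

/-- **(a)** `U ∈ 𝔪(V_∞)`, `U ∉ 𝔪(V_0)`: in `wthc_final`/`wthc_of_nodes` take `c₁ = true`,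
`c₂ = false`. -/
theorem wun_mgv_U (hA : A.LiesOverPrime q) :
    s36tuU ↥K₀ ιC ∈ (mgvV hπ ιC hq hqM true).nonunits ∧
      s36tuU ↥K₀ ιC ∉ (mgvV hπ ιC hq hqM false).nonunits := by
  haveI : Fact q.Prime := ⟨hq⟩
  haveI : CharP (IsLocalRing.ResidueField ↥(beta0Ring A K₀)) q := mgvl_charP hq hA
  exact ⟨wun_U_mem_true (vtBase_residue hπ) ιC hq hqM,
    wun_U_not_mem_false (vtBase_residue hπ) ιC hq hqM⟩

/-- **(a′)** `V' ∈ 𝔪(V_0)`, `V' ∉ 𝔪(V_∞)`. -/
theorem wun_mgv_V (hA : A.LiesOverPrime q) :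
    s36tuV ↥K₀ ιC ∈ (mgvV hπ ιC hq hqM false).nonunits ∧
      s36tuV ↥K₀ ιC ∉ (mgvV hπ ιC hq hqM true).nonunits := by
  haveI : Fact q.Prime := ⟨hq⟩
  haveI : CharP (IsLocalRing.ResidueField ↥(beta0Ring A K₀)) q := mgvl_charP hq hA
  exact ⟨wun_V_mem_false (vtBase_residue hπ) ιC hq hqM,
    wun_V_not_mem_true (vtBase_residue hπ) ιC hq hqM⟩

/-- `v_0(U) = 1` -/
theorem wun_mgv_U_valuation_false (hA : A.LiesOverPrime q) :
    (mgvV hπ ιC hq hqM false).valuation (s36tuU ↥K₀ ιC) = 1 :=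
  wun_valuation_eq_one _ (wun_mgv_U_mem hπ ιC hq hqM false) (wun_mgv_U hπ ιC hq hqM hA).2

/-- `v_∞(V') = 1` -/
theorem wun_mgv_V_valuation_true (hA : A.LiesOverPrime q) :
    (mgvV hπ ιC hq hqM true).valuation (s36tuV ↥K₀ ιC) = 1 :=
  wun_valuation_eq_one _ (wun_mgv_V_mem hπ ιC hq hqM true) (wun_mgv_V hπ ιC hq hqM hA).2

omit [IsDiscreteValuationRing ↥(beta0Ring A K₀)] in
include hq in
/-- **(b)** `U` is integral over `A′[j]` -/
theorem wun_mgv_isIntegral_U :
    IsIntegral (Algebra.adjoin ↥(beta0Ring A K₀) {bgJ ↥K₀ (M * q)})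
      (s36tuU ↥K₀ ιC (q := q) (M := M)) :=
  s36tu_isIntegral_U (A := ↥(beta0Ring A K₀)) (E := ↥K₀) (M := M) ιC hq

omit [IsDiscreteValuationRing ↥(beta0Ring A K₀)] in
include hq in
/-- **(b)** `V'` is integral over `A′[j]` -/
theorem wun_mgv_isIntegral_V :
    IsIntegral (Algebra.adjoin ↥(beta0Ring A K₀) {bgJ ↥K₀ (M * q)})
      (s36tuV ↥K₀ ιC (q := q) (M := M)) :=
  s36tu_isIntegral_V (A := ↥(beta0Ring A K₀)) (E := ↥K₀) (M := M) ιC hq

omit [IsDiscreteValuationRing ↥(beta0Ring A K₀)] in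
/-- `U V' = q¹²` (`hUV` of `wthc_final`, `q := (q : A′)`, `N = 12`) -/
theorem wun_mgv_U_mul_V :
    s36tuU ↥K₀ ιC (q := q) (M := M) * s36tuV ↥K₀ ιC =
      algebraMap ↥(beta0Ring A K₀) ↥(modularFunctionFieldFullC ↥K₀ (M * q))
        ((q : ℕ) : ↥(beta0Ring A K₀)) ^ 12 := by
  rw [s36tuU_mul_V, map_pow, map_natCast, map_natCast]

omit [IsDiscreteValuationRing ↥(beta0Ring A K₀)] in
/-- `q ≠ 0` in `A′` -/
theorem wun_mgv_q_ne_zero : ((q : ℕ) : ↥(beta0Ring A K₀)) ≠ 0 :=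
  Nat.cast_ne_zero.mpr (NeZero.ne q)

include hπ hq in
/-- `π ∣ q` in `A′` -/
theorem wun_mgv_pi_dvd_q (hA : A.LiesOverPrime q) : π ∣ ((q : ℕ) : ↥(beta0Ring A K₀)) := by
  have hqm : ((q : ℕ) : ↥(beta0Ring A K₀)) ∈ IsLocalRing.maximalIdeal ↥(beta0Ring A K₀) := by
    rw [IsLocalRing.mem_maximalIdeal, mem_nonunits_iff]
    intro hu
    haveI := mgvl_charP (K₀ := K₀) hq hA
    have h1 := (IsLocalRing.residue ↥(beta0Ring A K₀)).isUnit_map hu
    rw [map_natCast, CharP.cast_eq_zero] at h1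
    exact not_isUnit_zero h1
  rw [(IsDiscreteValuationRing.irreducible_iff_uniformizer π).mp hπ,
    Ideal.mem_span_singleton] at hqm
  exact hqm

/-- **(c)** `j_q − j^q ∈ 𝔪(V_∞)` (Kronecker) -/
theorem wun_mgv_sep_true (hA : A.LiesOverPrime q) :
    nodesFrobJq ↥K₀ M q - bgJ ↥K₀ (M * q) ^ q ∈ (mgvV hπ ιC hq hqM true).nonunits :=
  (mgvl_hsep hπ ιC hq hqM hA).1

/-- **(c)** `j_q^q − j ∈ 𝔪(V_0)` -/
theorem wun_mgv_sep_false (hA : A.LiesOverPrime q) :
    nodesFrobJq ↥K₀ M q ^ q - bgJ ↥K₀ (M * q) ∈ (mgvV hπ ιC hq hqM false).nonunits := by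
  have h := (mgvl_hsep' hπ ιC hq hqM hA).1
  rw [nodesFrob_atkinLehner_C] at h
  have h2 := wun_neg_mem_nonunits _ h
  rw [neg_sub] at h2
  exact h2

/-- step 2 of (A): `e − 1 ∈ 𝔪(V_∞)`, `e = j_q / j^q` -/
theorem wun_mgv_e_sub_one (hA : A.LiesOverPrime q) :
    nodesFrobJq ↥K₀ M q * (bgJ ↥K₀ (M * q))⁻¹ ^ q - 1 ∈ (mgvV hπ ιC hq hqM true).nonunits := by
  have hJ0 : bgJ ↥K₀ (M * q) ≠ 0 := by
    intro h0
    have h1 := mgv_T_valuation hπ ιC hq hqM true
    rw [h0, map_zero] at h1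
    exact zero_ne_one h1
  have e : nodesFrobJq ↥K₀ M q * (bgJ ↥K₀ (M * q))⁻¹ ^ q - 1 =
      (bgJ ↥K₀ (M * q))⁻¹ ^ q * (nodesFrobJq ↥K₀ M q - bgJ ↥K₀ (M * q) ^ q) := by
    rw [mul_sub, ← mul_pow, inv_mul_cancel₀ hJ0, one_pow,
      mul_comm ((bgJ ↥K₀ (M * q))⁻¹ ^ q)]
  rw [e]
  exact mgvl_mul_mem_nonunits _ ((mgvV hπ ιC hq hqM true).pow_mem
    (mgv_T_inv_mem hπ ιC hq hqM true) q) (wun_mgv_sep_true hπ ιC hq hqM hA)

/-- step 3 of (A): `e^q − x^(q²−1) ∈ 𝔪(V_0)`, `e = j_q / j^q`, `x = 1/j` -/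
theorem wun_mgv_e_pow_sub (hA : A.LiesOverPrime q) :
    (nodesFrobJq ↥K₀ M q * (bgJ ↥K₀ (M * q))⁻¹ ^ q) ^ q - (bgJ ↥K₀ (M * q))⁻¹ ^ (q ^ 2 - 1) ∈
      (mgvV hπ ιC hq hqM false).nonunits := by
  have hJ0 : bgJ ↥K₀ (M * q) ≠ 0 := by
    intro h0
    have h1 := mgv_T_valuation hπ ιC hq hqM true
    rw [h0, map_zero] at h1
    exact zero_ne_one h1
  have hq1 : 1 ≤ q ^ 2 := Nat.one_le_pow _ _ hq.pos
  have e : (nodesFrobJq ↥K₀ M q * (bgJ ↥K₀ (M * q))⁻¹ ^ q) ^ q -
      (bgJ ↥K₀ (M * q))⁻¹ ^ (q ^ 2 - 1) =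
      (bgJ ↥K₀ (M * q))⁻¹ ^ (q ^ 2) * (nodesFrobJq ↥K₀ M q ^ q - bgJ ↥K₀ (M * q)) := by
    have h1 : (bgJ ↥K₀ (M * q))⁻¹ ^ (q ^ 2 - 1) =
        (bgJ ↥K₀ (M * q))⁻¹ ^ (q ^ 2) * bgJ ↥K₀ (M * q) := by
      conv_rhs => rw [← Nat.sub_add_cancel hq1, pow_succ, mul_assoc, inv_mul_cancel₀ hJ0, mul_one]
    rw [h1, mul_pow, ← pow_mul, pow_two]
    ring
  rw [e]
  exact mgvl_mul_mem_nonunits _ ((mgvV hπ ιC hq hqM false).pow_mem
    (mgv_T_inv_mem hπ ιC hq hqM false) _) (wun_mgv_sep_false hπ ιC hq hqM hA)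

end Mgv

section Mgc

variable {A : ValuationSubring Qb} {K₁ : IntermediateField ℚ Qb}
  [IsDiscreteValuationRing ↥(mgcA A K₁)] {π : ↥(mgcA A K₁)} (hπ : Irreducible π)
  (ιC : ↥(mgcE A K₁) →+* ℂ) {p M : ℕ} [NeZero p] [NeZero M] [NeZero (M * p)]
  (hp : p.Prime) (hpM : ¬ p ∣ M)

/-- **(U)** the tube-unit in the `mgc` setting (`STB/MGData.lean`, `q := p`): `U = s36tuU`,
`V' = s36tuV`, orientation `c₁ = true` (`V_∞`), `c₂ = false` (`V_0`). -/
theorem wun_exists (hA : A.LiesOverPrime p) :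
    ∃ U V' : ↥(mgcF A K₁ (M * p)),
      IsIntegral ↥(Algebra.adjoin ↥(mgcA A K₁) {mgcT A K₁ (M * p)}) U ∧
      IsIntegral ↥(Algebra.adjoin ↥(mgcA A K₁) {mgcT A K₁ (M * p)}) V' ∧
      U * V' = algebraMap ↥(mgcA A K₁) ↥(mgcF A K₁ (M * p)) ((p : ℕ) : ↥(mgcA A K₁)) ^ 12 ∧
      U ∈ (mgvV hπ ιC hp hpM true).nonunits ∧ U ∉ (mgvV hπ ιC hp hpM false).nonunits :=
  ⟨s36tuU ↥(mgcE A K₁) ιC, s36tuV ↥(mgcE A K₁) ιC,
    wun_mgv_isIntegral_U (K₀ := mgcE A K₁) ιC hp, wun_mgv_isIntegral_V (K₀ := mgcE A K₁) ιC hp,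
    wun_mgv_U_mul_V (K₀ := mgcE A K₁) ιC, (wun_mgv_U hπ ιC hp hpM hA).1,
    (wun_mgv_U hπ ιC hp hpM hA).2⟩

/-- the mirrored form: `V' ∈ 𝔪(V_0)`, `V' ∉ 𝔪(V_∞)` -/
theorem wun_exists' (hA : A.LiesOverPrime p) :
    ∃ U V' : ↥(mgcF A K₁ (M * p)),
      IsIntegral ↥(Algebra.adjoin ↥(mgcA A K₁) {mgcT A K₁ (M * p)}) U ∧
      IsIntegral ↥(Algebra.adjoin ↥(mgcA A K₁) {mgcT A K₁ (M * p)}) V' ∧
      U * V' = algebraMap ↥(mgcA A K₁) ↥(mgcF A K₁ (M * p)) ((p : ℕ) : ↥(mgcA A K₁)) ^ 12 ∧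
      U ∈ (mgvV hπ ιC hp hpM true).nonunits ∧ U ∉ (mgvV hπ ιC hp hpM false).nonunits ∧
      V' ∈ (mgvV hπ ιC hp hpM false).nonunits ∧ V' ∉ (mgvV hπ ιC hp hpM true).nonunits :=
  ⟨s36tuU ↥(mgcE A K₁) ιC, s36tuV ↥(mgcE A K₁) ιC,
    wun_mgv_isIntegral_U (K₀ := mgcE A K₁) ιC hp, wun_mgv_isIntegral_V (K₀ := mgcE A K₁) ιC hp,
    wun_mgv_U_mul_V (K₀ := mgcE A K₁) ιC, (wun_mgv_U hπ ιC hp hpM hA).1,
    (wun_mgv_U hπ ιC hp hpM hA).2, (wun_mgv_V hπ ιC hp hpM hA).1,
    (wun_mgv_V hπ ιC hp hpM hA).2⟩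

/-- the two non-unit facts of **(e)** in the `mgc` setting, `e = j_p (j⁻¹)^p` -/
theorem wun_e_facts (hA : A.LiesOverPrime p) :
    nodesFrobJq ↥(mgcE A K₁) M p * (mgcT A K₁ (M * p))⁻¹ ^ p - 1 ∈
        (mgvV hπ ιC hp hpM true).nonunits ∧
      (nodesFrobJq ↥(mgcE A K₁) M p * (mgcT A K₁ (M * p))⁻¹ ^ p) ^ p -
          (mgcT A K₁ (M * p))⁻¹ ^ (p ^ 2 - 1) ∈ (mgvV hπ ιC hp hpM false).nonunits :=
  ⟨wun_mgv_e_sub_one hπ ιC hp hpM hA, wun_mgv_e_pow_sub hπ ιC hp hpM hA⟩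

end Mgc

end Fermat.Agent.S33

end
end ZBS36_002_2
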