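/- GENERATED FILE (helper35, build-time optimisation, NOTES/ZB.md): verbatim concatenation of the modules
   Fermat.Agent.S15.N3EqNewton
   Fermat.Agent.S15.N3EqVal
   Fermat.Agent.S15.N3EqPlace
   Fermat.Agent.S15.N3Eq
   Fermat.Agent.S15.N3Mod
   Do not edit; do not import together with these modules. -/
import Mathlib
import Fermat.Agent.ZB.Z2S15_009
import Fermat.Agent.ZB.ES_012
import Fermat.Agent.ZB.ES_020
import Fermat.Agent.ZB.Z2S15_004
import Fermat.Agent.ZB.Z2S15_007
import Fermat.Agent.ZB.Z2S15_002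

/-! ### bundled: `Fermat.Agent.S15.N3EqNewton` -/
section ZBZ2S15_010_0

/-!
# S15 / N3-EQ (2): the Newton polygon of the modular equation, abstract form

`v : Valuation F Γ₀`, `G ∈ F[Y]` monic of degree `N + 1`, `y` a root.

* `n3eq_val_eval_le`, `n3eq_val_eval_eq` : valuations of the values of a polynomial with integral
  coefficients at a point `a` with `v a ≥ 1`;
* `n3eq_newton_mb` : **(MB)** integral coefficients, `v (G.coeff 0) = κ ≠ 0` ⟹ `κ ≤ v y ≤ 1`;
* `n3eq_newton_dich` : **(DICH)** `1 < A`, `v (G.coeff k) ≤ A ^ (N - k)` (`1 ≤ k ≤ N`),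
  `v (G.coeff 1) = A ^ (N - 1)`, `v (G.coeff 0) = κ`, `0 < κ ≤ 1`
  ⟹ `v y ^ N = A ^ (N - 1)` or `v y * A ^ (N - 1) = κ`.
-/

set_option autoImplicit false

namespace Fermat.Agent.S15

open Polynomial

section Newton

variable {F Γ₀ : Type*} [Field F] [LinearOrderedCommGroupWithZero Γ₀] (v : Valuation F Γ₀)

/-- `v (c(a)) ≤ A ^ m` for `c` with integral coefficients of degree `≤ m`, `v a ≤ A`, `1 ≤ A`. -/
theorem n3eq_val_eval_le (c : Polynomial F) (hc : ∀ j, v (c.coeff j) ≤ 1) {a : F} {A : Γ₀}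
    (hA1 : 1 ≤ A) (ha : v a ≤ A) {m : ℕ} (hm : c.natDegree ≤ m) : v (c.eval a) ≤ A ^ m := by
  rw [Polynomial.eval_eq_sum_range]
  apply Valuation.map_sum_le
  intro j hj
  rw [map_mul, map_pow]
  have hj' : j ≤ m := (Nat.lt_succ_iff.mp (Finset.mem_range.mp hj)).trans hm
  calc v (c.coeff j) * v a ^ j ≤ 1 * A ^ j :=
        mul_le_mul' (hc j) (pow_le_pow_left₀ zero_le ha j)
    _ = A ^ j := one_mul _
    _ ≤ A ^ m := pow_le_pow_right₀ hA1 hj'

/-- `v (c(a)) = A ^ deg c` for `c` with integral coefficients and unit leading coefficient,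
`v a = A > 1`. -/
theorem n3eq_val_eval_eq (c : Polynomial F) (hc : ∀ j, v (c.coeff j) ≤ 1)
    (hlc : v c.leadingCoeff = 1) {a : F} {A : Γ₀} (hA1 : 1 < A) (ha : v a = A) :
    v (c.eval a) = A ^ c.natDegree := by
  have hA0 : A ≠ 0 := (lt_trans zero_lt_one hA1).ne'
  rw [Polynomial.eval_eq_sum_range, Finset.sum_range_succ]
  have htop : v (c.coeff c.natDegree * a ^ c.natDegree) = A ^ c.natDegree := by
    rw [map_mul, map_pow, ha, ← Polynomial.leadingCoeff, hlc, one_mul]
  have hrest : v (∑ j ∈ Finset.range c.natDegree, c.coeff j * a ^ j) < A ^ c.natDegree := by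
    apply Valuation.map_sum_lt v (pow_ne_zero _ hA0)
    intro j hj
    rw [map_mul, map_pow, ha]
    calc v (c.coeff j) * A ^ j ≤ 1 * A ^ j := mul_le_mul' (hc j) le_rfl
      _ = A ^ j := one_mul _
      _ < A ^ c.natDegree := pow_lt_pow_right₀ hA1 (Finset.mem_range.mp hj)
  rw [← htop] at hrest ⊢
  exact Valuation.map_add_eq_of_lt_right v hrest

/-- **(MB)**: a root of a monic polynomial with integral coefficients and constant term of
valuation `κ` has valuation between `κ` and `1`. -/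
theorem n3eq_newton_mb (G : Polynomial F) (hmonic : G.Monic) {κ : Γ₀}
    (hint : ∀ k, v (G.coeff k) ≤ 1) (h0 : v (G.coeff 0) = κ)
    {y : F} (hy : G.eval y = 0) : κ ≤ v y ∧ v y ≤ 1 := by
  have hy1 : v y ≤ 1 := by
    by_contra hcon
    push Not at hcon
    have hY0 : v y ≠ 0 := (lt_trans zero_lt_one hcon).ne'
    rw [Polynomial.eval_eq_sum_range, Finset.sum_range_succ] at hy
    have htop : v (G.coeff G.natDegree * y ^ G.natDegree) = v y ^ G.natDegree := by
      rw [map_mul, map_pow, ← Polynomial.leadingCoeff, hmonic.leadingCoeff, map_one, one_mul]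
    have hrest : v (∑ j ∈ Finset.range G.natDegree, G.coeff j * y ^ j) < v y ^ G.natDegree := by
      apply Valuation.map_sum_lt v (pow_ne_zero _ hY0)
      intro j hj
      rw [map_mul, map_pow]
      calc v (G.coeff j) * v y ^ j ≤ 1 * v y ^ j := mul_le_mul' (hint j) le_rfl
        _ = v y ^ j := one_mul _
        _ < v y ^ G.natDegree := pow_lt_pow_right₀ hcon (Finset.mem_range.mp hj)
    rw [← htop] at hrest
    have h1 := Valuation.map_add_eq_of_lt_right v hrest
    rw [hy, map_zero, htop] at h1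
    exact pow_ne_zero _ hY0 h1.symm
  refine ⟨?_, hy1⟩
  have hsplit : G.eval y = G.divX.eval y * y + G.coeff 0 := by
    conv_lhs => rw [← Polynomial.divX_mul_X_add G]
    simp
  rw [hsplit] at hy
  have h2 : G.coeff 0 = -(G.divX.eval y * y) := by linear_combination hy
  have hB : v (G.divX.eval y) ≤ 1 := by
    have := n3eq_val_eval_le v G.divX (fun j => by rw [Polynomial.coeff_divX]; exact hint _)
      le_rfl hy1 (m := G.divX.natDegree) le_rfl
    simpa using this
  rw [← h0, h2, Valuation.map_neg, map_mul]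
  calc v (G.divX.eval y) * v y ≤ 1 * v y := mul_le_mul' hB le_rfl
    _ = v y := one_mul _

/-- **(DICH)**: the Newton polygon of the modular equation at a place where `j` has a pole. -/
theorem n3eq_newton_dich (G : Polynomial F) (N : ℕ) (hN : 1 ≤ N) (hmonic : G.Monic)
    (hdeg : G.natDegree = N + 1) {A κ : Γ₀} (hA : 1 < A) (hκ0 : κ ≠ 0) (hκ1 : κ ≤ 1)
    (hmid : ∀ k, 1 ≤ k → k ≤ N → v (G.coeff k) ≤ A ^ (N - k))
    (h1 : v (G.coeff 1) = A ^ (N - 1)) (h0 : v (G.coeff 0) = κ)
    {y : F} (hy : G.eval y = 0) :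
    v y ^ N = A ^ (N - 1) ∨ v y * A ^ (N - 1) = κ := by
  have hA0 : A ≠ 0 := (lt_trans zero_lt_one hA).ne'
  have hA1 : 1 ≤ A := hA.le
  -- `y ≠ 0`
  have hy0 : y ≠ 0 := by
    rintro rfl
    rw [← Polynomial.coeff_zero_eq_eval_zero] at hy
    rw [hy, map_zero] at h0
    exact hκ0 h0.symm
  have hY0 : v y ≠ 0 := (Valuation.ne_zero_iff v).mpr hy0
  have hYpos : 0 < v y := zero_lt_iff.mpr hY0
  have hcN : G.coeff (N + 1) = 1 := by
    rw [← hdeg]; exact hmonic.coeff_natDegree
  rw [Polynomial.eval_eq_sum_range, hdeg] at hy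
  rcases lt_trichotomy (v y ^ N) (A ^ (N - 1)) with hlt | heq | hgt
  · -- the term `c_1 y` dominates
    right
    have hYA : v y < A := by
      have h2 : v y ^ N < A ^ N :=
        lt_of_lt_of_le hlt (pow_le_pow_right₀ hA1 (Nat.sub_le N 1))
      exact lt_of_pow_lt_pow_left₀ N zero_le h2
    have hB0 : A ^ (N - 1) * v y ≠ 0 := mul_ne_zero (pow_ne_zero _ hA0) hY0
    -- split off `k = 0` and `k = 1`
    rw [Finset.sum_range_succ', Finset.sum_range_succ'] at hy
    simp only [pow_zero, mul_one, zero_add, pow_one] at hy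
    have hrest : v (∑ k ∈ Finset.range N, G.coeff (k + 1 + 1) * y ^ (k + 1 + 1))
        < A ^ (N - 1) * v y := by
      apply Valuation.map_sum_lt v hB0
      intro k hk
      have hkN : k < N := Finset.mem_range.mp hk
      rw [map_mul, map_pow]
      have hpowlt : v y ^ (k + 1) < A ^ (k + 1) :=
        pow_lt_pow_left₀ hYA zero_le (Nat.succ_ne_zero k)
      rcases Nat.lt_or_ge (k + 1) N with hk2 | hk2
      · -- `k + 2 ≤ N`
        have hc := hmid (k + 1 + 1) (by omega) (by omega)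
        have e1 : A ^ (N - 1) = A ^ (N - (k + 1 + 1)) * A ^ (k + 1) := by
          rw [← pow_add]; congr 1; omega
        calc v (G.coeff (k + 1 + 1)) * v y ^ (k + 1 + 1)
            ≤ A ^ (N - (k + 1 + 1)) * v y ^ (k + 1 + 1) := mul_le_mul' hc le_rfl
          _ = A ^ (N - (k + 1 + 1)) * v y ^ (k + 1) * v y := by rw [pow_succ, mul_assoc]
          _ < A ^ (N - (k + 1 + 1)) * A ^ (k + 1) * v y := by
              apply mul_lt_mul_of_pos_right _ hYpos
              exact mul_lt_mul_of_pos_left hpowlt (pow_pos (zero_lt_iff.mpr hA0) _)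
          _ = A ^ (N - 1) * v y := by rw [e1]
      · -- `k + 2 = N + 1`
        have hkeq : k + 1 = N := by omega
        rw [hkeq, hcN, map_one, one_mul, pow_succ]
        exact mul_lt_mul_of_pos_right hlt hYpos
    have hone : v (G.coeff 1 * y) = A ^ (N - 1) * v y := by rw [map_mul, h1]
    rw [← hone] at hrest
    have hsum := Valuation.map_add_eq_of_lt_right v hrest
    have hc0 : G.coeff 0 = -(∑ k ∈ Finset.range N, G.coeff (k + 1 + 1) * y ^ (k + 1 + 1)
        + G.coeff 1 * y) := by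
      linear_combination hy
    rw [← h0, hc0, Valuation.map_neg, hsum, hone, mul_comm]
  · left; exact heq
  · exfalso
    have hY1 : 1 < v y := by
      by_contra hcon
      push Not at hcon
      have : v y ^ N ≤ 1 := pow_le_one₀ zero_le hcon
      exact absurd (lt_of_lt_of_le hgt this) (not_lt.mpr (one_le_pow₀ hA1))
    rw [Finset.sum_range_succ] at hy
    have htop : v (G.coeff (N + 1) * y ^ (N + 1)) = v y ^ (N + 1) := by
      rw [hcN, one_mul, map_pow]
    have hT0 : v y ^ (N + 1) ≠ 0 := pow_ne_zero _ hY0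
    have hrest : v (∑ k ∈ Finset.range (N + 1), G.coeff k * y ^ k) < v y ^ (N + 1) := by
      apply Valuation.map_sum_lt v hT0
      intro k hk
      have hkN : k ≤ N := Nat.lt_succ_iff.mp (Finset.mem_range.mp hk)
      rw [map_mul, map_pow]
      rcases Nat.eq_zero_or_pos k with hk0 | hk0
      · subst hk0
        rw [pow_zero, mul_one, h0]
        exact lt_of_le_of_lt hκ1 (one_lt_pow₀ hY1 (Nat.succ_ne_zero N))
      · have hc := hmid k hk0 hkN
        -- `A ^ (N - k) < v y ^ (N + 1 - k)`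
        have hkey : A ^ (N - k) < v y ^ (N - k + 1) := by
          by_contra hcon
          push Not at hcon
          rcases le_or_gt (v y) A with hle | hlt'
          · have e2 : v y ^ N = v y ^ (N - k + 1) * v y ^ (k - 1) := by
              rw [← pow_add]; congr 1; omega
            have e3 : A ^ (N - 1) = A ^ (N - k) * A ^ (k - 1) := by
              rw [← pow_add]; congr 1; omega
            have : v y ^ N ≤ A ^ (N - 1) := by
              rw [e2, e3]
              exact mul_le_mul' hcon (pow_le_pow_left₀ zero_le hle _)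
            exact absurd hgt (not_lt.mpr this)
          · have h3 : A ^ (N - k + 1) < v y ^ (N - k + 1) :=
              pow_lt_pow_left₀ hlt' zero_le (Nat.succ_ne_zero _)
            have h4 : A ^ (N - k) ≤ A ^ (N - k + 1) := pow_le_pow_right₀ hA1 (Nat.le_succ _)
            exact absurd (lt_of_le_of_lt h4 h3) (not_lt.mpr hcon)
        have e4 : v y ^ (N + 1) = v y ^ (N - k + 1) * v y ^ k := by
          rw [← pow_add]; congr 1; omega
        calc v (G.coeff k) * v y ^ k ≤ A ^ (N - k) * v y ^ k := mul_le_mul' hc le_rfl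
          _ < v y ^ (N - k + 1) * v y ^ k :=
              mul_lt_mul_of_pos_right hkey (pow_pos hYpos _)
          _ = v y ^ (N + 1) := e4.symm
    rw [← htop] at hrest
    have hsum := Valuation.map_add_eq_of_lt_right v hrest
    rw [hy, map_zero, htop] at hsum
    exact hT0 hsum.symm

end Newton

end Fermat.Agent.S15


end ZBZ2S15_010_0

/-! ### bundled: `Fermat.Agent.S15.N3EqVal` -/
section ZBZ2S15_010_1

/-!
# S15 / N3-EQ (3): (MB) and (DICH) for the modular equation of `g = N¹² Δ(Nτ)/Δ(τ)`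

`W = s36tuW N hN ∈ ℤ[j][X]` is the modular equation of `g` (`S36/ThinUnitInt.lean`), with the
coefficient facts of `N3EqCoeff.lean`.  For ANY valued field `(F, v)` and `a, g ∈ F` with
`W(a, g) = 0` (`W.eval₂ (evalInt a) g = 0`):

* `n3eq_mb`   : `v a ≤ 1` ⟹ `v N ^ 12 ≤ v g ≤ 1`;
* `n3eq_dich` : `1 < v a`, `N ≠ 0` in `F` ⟹ `v g ^ N = v a ^ (N - 1)` (disc of the cusp `0`)
                or `v g * v a ^ (N - 1) = v N ^ 12` (disc of the cusp `∞`).

For `F = ℚ` and the `r`-adic valuation (`r` ANY prime), in additive form: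

* `n3eq_mb_padic`   : `0 ≤ v_r(a)` ⟹ `0 ≤ v_r(g) ≤ 12 v_r(N)`;
* `n3eq_dich_padic` : `v_r(a) < 0` ⟹ `N v_r(g) = (N - 1) v_r(a)` or
                      `v_r(g) = 12 v_r(N) - (N - 1) v_r(a)`.
-/

set_option autoImplicit false

noncomputable section

namespace Fermat.Agent.S15

open Polynomial Fermat.Agent.S28 Fermat.Agent.S36

section Val

variable {F Γ₀ : Type*} [Field F] [LinearOrderedCommGroupWithZero Γ₀] (v : Valuation F Γ₀)

theorem n3eq_val_natCast_le_one (n : ℕ) : v (n : F) ≤ 1 := by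
  induction n with
  | zero => simp
  | succ n ih =>
    rw [Nat.cast_succ]
    exact (v.map_add _ _).trans (max_le ih (by rw [map_one]))

theorem n3eq_val_intCast_le_one (n : ℤ) : v (n : F) ≤ 1 := by
  rcases Int.natAbs_eq n with h | h
  · rw [h, Int.cast_natCast]
    exact n3eq_val_natCast_le_one v _
  · rw [h, Int.cast_neg, Int.cast_natCast, Valuation.map_neg]
    exact n3eq_val_natCast_le_one v _

theorem n3eq_evalInt_eq_eval (a : F) (c : Polynomial ℤ) :
    evalInt a c = (c.map (Int.castRingHom F)).eval a := by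
  rw [evalInt, Polynomial.coe_eval₂RingHom, Polynomial.eval_map]

theorem n3eq_val_coeff_map_le_one (c : Polynomial ℤ) (j : ℕ) :
    v ((c.map (Int.castRingHom F)).coeff j) ≤ 1 := by
  rw [Polynomial.coeff_map]
  exact n3eq_val_intCast_le_one v _

/-- integrality of `c(a)`, `c ∈ ℤ[Y]`, `v a ≤ 1` -/
theorem n3eq_val_evalInt_le_one (c : Polynomial ℤ) {a : F} (ha : v a ≤ 1) :
    v (evalInt a c) ≤ 1 := by
  rw [n3eq_evalInt_eq_eval]
  have h := n3eq_val_eval_le v (c.map (Int.castRingHom F)) (n3eq_val_coeff_map_le_one v c)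
    (A := 1) le_rfl ha (m := (c.map (Int.castRingHom F)).natDegree) le_rfl
  simpa using h

variable (N : ℕ) [NeZero N] (hN : N.Prime)

/-- the modular equation of `g` specialised at `j = a` -/
def n3eqG (a : F) : Polynomial F := (s36tuW N hN).map (evalInt a)

theorem n3eqG_monic (a : F) : (n3eqG N hN a).Monic := (s36tuW_monic N hN).map _

theorem n3eqG_natDegree (a : F) : (n3eqG N hN a).natDegree = N + 1 := by
  rw [n3eqG, (s36tuW_monic N hN).natDegree_map, s36tuW_natDegree]

theorem n3eqG_coeff (a : F) (k : ℕ) :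
    (n3eqG N hN a).coeff k = evalInt a ((s36tuW N hN).coeff k) := by
  rw [n3eqG, Polynomial.coeff_map]

theorem n3eqG_eval (a g : F) : (n3eqG N hN a).eval g = (s36tuW N hN).eval₂ (evalInt a) g := by
  rw [n3eqG, Polynomial.eval_map]

theorem n3eqG_val_coeff_zero (a : F) : v ((n3eqG N hN a).coeff 0) = v (N : F) ^ 12 := by
  obtain ⟨ε, hε, h0⟩ := n3eq_W_coeff_zero N hN
  rw [n3eqG_coeff, h0, n3eq_evalInt_eq_eval, Polynomial.map_C, Polynomial.eval_C]
  rcases hε with rfl | rfl
  · simp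
  · simp

/-- **(MB)**: `j` integral ⟹ `g` integral and `g ∣ N¹²`. -/
theorem n3eq_mb {a g : F} (h : (s36tuW N hN).eval₂ (evalInt a) g = 0) (ha : v a ≤ 1) :
    v (N : F) ^ 12 ≤ v g ∧ v g ≤ 1 := by
  rw [← n3eqG_eval] at h
  refine n3eq_newton_mb v (n3eqG N hN a) (n3eqG_monic N hN a) (fun k => ?_)
    (n3eqG_val_coeff_zero v N hN a) h
  rw [n3eqG_coeff]
  exact n3eq_val_evalInt_le_one v _ ha

/-- **(DICH)**: `j` has a pole ⟹ `g` is in the residue disc of the cusp `0` or of the cusp `∞`. -/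
theorem n3eq_dich {a g : F} (h : (s36tuW N hN).eval₂ (evalInt a) g = 0) (ha : 1 < v a)
    (hNF : (N : F) ≠ 0) :
    v g ^ N = v a ^ (N - 1) ∨ v g * v a ^ (N - 1) = v (N : F) ^ 12 := by
  rw [← n3eqG_eval] at h
  have hN1 : 1 ≤ N := hN.one_lt.le
  refine n3eq_newton_dich v (n3eqG N hN a) N hN1 (n3eqG_monic N hN a) (n3eqG_natDegree N hN a)
    ha (pow_ne_zero _ ((Valuation.ne_zero_iff v).mpr hNF))
    (pow_le_one₀ zero_le (n3eq_val_natCast_le_one v N)) (fun k hk1 hkN => ?_) ?_
    (n3eqG_val_coeff_zero v N hN a) h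
  · rw [n3eqG_coeff, n3eq_evalInt_eq_eval]
    refine n3eq_val_eval_le v _ (n3eq_val_coeff_map_le_one v _) ha.le le_rfl ?_
    exact (Polynomial.natDegree_map_le).trans (n3eq_W_natDegree_coeff_le N hN k hk1 hkN)
  · obtain ⟨hdeg, hlc⟩ := n3eq_W_coeff_one N hN
    rw [n3eqG_coeff, n3eq_evalInt_eq_eval]
    have hlc0 : (Int.castRingHom F) ((s36tuW N hN).coeff 1).leadingCoeff ≠ 0 := by
      rcases hlc with h1 | h1 <;> rw [h1] <;> simp
    have hd : (((s36tuW N hN).coeff 1).map (Int.castRingHom F)).natDegree = N - 1 := by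
      rw [Polynomial.natDegree_map_of_leadingCoeff_ne_zero _ hlc0, hdeg]
    have hl : v (((s36tuW N hN).coeff 1).map (Int.castRingHom F)).leadingCoeff = 1 := by
      rw [Polynomial.leadingCoeff_map_of_leadingCoeff_ne_zero _ hlc0]
      rcases hlc with h1 | h1 <;> rw [h1] <;> simp
    have := n3eq_val_eval_eq v _ (n3eq_val_coeff_map_le_one v ((s36tuW N hN).coeff 1)) hl ha rfl
    rw [hd] at this
    exact this

end Val

section Root

variable {F : Type*} [Field F] (N : ℕ) [NeZero N] (hN : N.Prime)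

theorem n3eqG_coeff_zero (a : F) :
    ∃ ε : F, (ε = 1 ∨ ε = -1) ∧ (n3eqG N hN a).coeff 0 = ε * (N : F) ^ 12 := by
  obtain ⟨ε, hε, h0⟩ := n3eq_W_coeff_zero N hN
  refine ⟨(ε : F), ?_, ?_⟩
  · rcases hε with rfl | rfl
    · left; simp
    · right; simp
  · rw [n3eqG_coeff, h0, n3eq_evalInt_eq_eval, Polynomial.map_C, Polynomial.eval_C]
    simp

/-- a root of the modular equation is nonzero (`N ≠ 0` in `F`) -/
theorem n3eq_root_ne_zero {a g : F} (h : (s36tuW N hN).eval₂ (evalInt a) g = 0)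
    (hNF : (N : F) ≠ 0) : g ≠ 0 := by
  rintro rfl
  rw [← n3eqG_eval, ← Polynomial.coeff_zero_eq_eval_zero] at h
  obtain ⟨ε, hε, h0⟩ := n3eqG_coeff_zero N hN a
  rw [h0] at h
  have hε0 : ε ≠ 0 := by
    rcases hε with rfl | rfl
    · exact one_ne_zero
    · exact neg_ne_zero.mpr one_ne_zero
  exact mul_ne_zero hε0 (pow_ne_zero _ hNF) h

end Root

section Padic

variable (N : ℕ) [NeZero N] (hN : N.Prime) (r : ℕ) [Fact r.Prime]

theorem n3eq_padicValuation_eq {x : ℚ} (hx : x ≠ 0) :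
    Rat.padicValuation r x = WithZero.exp (-padicValRat r x) := by
  simp [Rat.padicValuation, hx]

theorem n3eq_padicValuation_le_one_iff {x : ℚ} (hx : x ≠ 0) :
    Rat.padicValuation r x ≤ 1 ↔ 0 ≤ padicValRat r x := by
  rw [n3eq_padicValuation_eq r hx, ← WithZero.exp_zero, WithZero.exp_le_exp]
  omega

/-- **(MB)**, `r`-adic form. -/
theorem n3eq_mb_padic {a g : ℚ} (h : (s36tuW N hN).eval₂ (evalInt a) g = 0)
    (ha : 0 ≤ padicValRat r a) :
    0 ≤ padicValRat r g ∧ padicValRat r g ≤ 12 * padicValRat r (N : ℚ) := by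
  have hNQ : (N : ℚ) ≠ 0 := Nat.cast_ne_zero.mpr (NeZero.ne N)
  have hg : g ≠ 0 := n3eq_root_ne_zero N hN h hNQ
  have hav : Rat.padicValuation r a ≤ 1 := by
    rcases eq_or_ne a 0 with rfl | ha0
    · simp
    · exact (n3eq_padicValuation_le_one_iff r ha0).mpr ha
  obtain ⟨h1, h2⟩ := n3eq_mb (Rat.padicValuation r) N hN h hav
  refine ⟨(n3eq_padicValuation_le_one_iff r hg).mp h2, ?_⟩
  rw [n3eq_padicValuation_eq r hNQ, n3eq_padicValuation_eq r hg, ← WithZero.exp_nsmul,
    WithZero.exp_le_exp] at h1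
  simp only [nsmul_eq_mul, Nat.cast_ofNat] at h1
  omega

/-- **(DICH)**, `r`-adic form. -/
theorem n3eq_dich_padic {a g : ℚ} (h : (s36tuW N hN).eval₂ (evalInt a) g = 0)
    (ha : padicValRat r a < 0) :
    (N : ℤ) * padicValRat r g = ((N : ℤ) - 1) * padicValRat r a ∨
      padicValRat r g = 12 * padicValRat r (N : ℚ) - ((N : ℤ) - 1) * padicValRat r a := by
  have hNQ : (N : ℚ) ≠ 0 := Nat.cast_ne_zero.mpr (NeZero.ne N)
  have hg : g ≠ 0 := n3eq_root_ne_zero N hN h hNQ
  have ha0 : a ≠ 0 := by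
    rintro rfl
    simp at ha
  have hav : 1 < Rat.padicValuation r a := by
    rw [n3eq_padicValuation_eq r ha0, ← WithZero.exp_zero, WithZero.exp_lt_exp]
    omega
  have hN1 : 1 ≤ N := hN.one_lt.le
  have hcast : ((N - 1 : ℕ) : ℤ) = (N : ℤ) - 1 := by
    rw [Nat.cast_sub hN1, Nat.cast_one]
  rcases n3eq_dich (Rat.padicValuation r) N hN h hav hNQ with h1 | h1
  · left
    rw [n3eq_padicValuation_eq r hg, n3eq_padicValuation_eq r ha0, ← WithZero.exp_nsmul,
      ← WithZero.exp_nsmul, WithZero.exp_inj] at h1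
    simp only [nsmul_eq_mul] at h1
    rw [hcast] at h1
    linarith
  · right
    rw [n3eq_padicValuation_eq r hg, n3eq_padicValuation_eq r ha0, n3eq_padicValuation_eq r hNQ,
      ← WithZero.exp_nsmul, ← WithZero.exp_nsmul, ← WithZero.exp_add, WithZero.exp_inj] at h1
    simp only [nsmul_eq_mul, Nat.cast_ofNat] at h1
    rw [hcast] at h1
    linarith

end Padic

end Fermat.Agent.S15

end
end ZBZ2S15_010_1

/-! ### bundled: `Fermat.Agent.S15.N3EqPlace` -/
section ZBZ2S15_010_2

/-!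
# S15 / N3-EQ (4): the modular equation of `g = N¹² · oggU N` in `F_N`, values at a place

* `n3eq_modEq` : `W(j, N¹² u_N) = 0` in `F_N` (`W = s36tuW N hN ∈ ℤ[j][X]`);
* `n3eq_value_eq` : a relation `Φ(f, g) = 0`, `Φ ∈ ℤ[Y][X]`, specialises to the values at a place;
* `n3eq_value` : `j(P) = a`, `u_N(P) = d` ⟹ `W(a, N¹² d) = 0` in `ℚ̄`;  `n3eq_value_rat` in `ℚ`;
* `n3eq_main` : **N3-EQ** — (MB) and (DICH) for the rational values `a = j(P)`, `d = u_N(P)` at the
  level prime `N`.
-/

set_option autoImplicit false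

noncomputable section

namespace Fermat.Agent.S15

open ModularCurve AlgebraicCurve Polynomial
open Fermat.Agent.S24 Fermat.Agent.S28 Fermat.Agent.ES.M Fermat.Agent.W1 Fermat.Agent.S36

/-- The modular equation of `g = N¹² u_N` over `ℤ[j]`, in `F_N`. -/
theorem n3eq_modEq (N : ℕ) [NeZero N] (hN : N.Prime) :
    (s36tuW N hN).eval₂ (evalInt (jF N)) (algebraMap Kb (FF N) ((N : Kb) ^ 12) * oggU N) = 0 := by
  apply Subtype.ext
  have h := map_eval₂_evalInt (algebraMap (FF N) (LaurentSeries Kb)) (s36tuW N hN) (jF N)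
    (algebraMap Kb (FF N) ((N : Kb) ^ 12) * oggU N)
  have e1 : algebraMap (FF N) (LaurentSeries Kb) (jF N) = jqModC Kb := by
    rw [← ogg_jBar_eq]; rfl
  have e2 : algebraMap (FF N) (LaurentSeries Kb) (algebraMap Kb (FF N) ((N : Kb) ^ 12) * oggU N) =
      HahnSeries.C ((N : Kb) ^ 12) * uS Kb N := by
    rw [map_mul]
    congr 1
    rw [← LaurentSeries.algebraMap_apply]
    rfl
  rw [e1, e2, s36tuW_series] at h
  exact h

section Value

variable {K F : Type} [Field K] [Field F] [Algebra K F]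

/-- A relation `Φ(f, g) = 0` with `Φ ∈ ℤ[Y][X]` specialises to the values at a place. -/
theorem n3eq_value_eq (P : Place K F) (Φ : Polynomial (Polynomial ℤ)) {f g : F} {a b : K}
    (hf : HasValueAt P f a) (hg : HasValueAt P g b) (h : Φ.eval₂ (evalInt f) g = 0) :
    Φ.eval₂ (evalInt a) b = 0 := by
  have haB : algebraMap K F a ∈ P.toValuationSubring := P.algebraMap_mem' a
  have hbB : algebraMap K F b ∈ P.toValuationSubring := P.algebraMap_mem' b
  unfold HasValueAt at hf hg
  rw [ValuationSubring.mem_nonunits_iff_exists_mem_maximalIdeal] at hf hg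
  obtain ⟨hf1, hf2⟩ := hf
  obtain ⟨hg1, hg2⟩ := hg
  have hfB : f ∈ P.toValuationSubring := by
    have := P.toValuationSubring.add_mem _ _ hf1 haB
    rwa [sub_add_cancel] at this
  have hgB : g ∈ P.toValuationSubring := by
    have := P.toValuationSubring.add_mem _ _ hg1 hbB
    rwa [sub_add_cancel] at this
  let res : P.toValuationSubring →+* IsLocalRing.ResidueField P.toValuationSubring :=
    IsLocalRing.residue P.toValuationSubring
  have rf : res ⟨f, hfB⟩ = res ⟨algebraMap K F a, haB⟩ := by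
    rw [← sub_eq_zero, ← map_sub]
    exact (IsLocalRing.residue_eq_zero_iff _).mpr hf2
  have rg : res ⟨g, hgB⟩ = res ⟨algebraMap K F b, hbB⟩ := by
    rw [← sub_eq_zero, ← map_sub]
    exact (IsLocalRing.residue_eq_zero_iff _).mpr hg2
  -- the relation in `B`
  have hB : Φ.eval₂ (evalInt (⟨f, hfB⟩ : P.toValuationSubring)) ⟨g, hgB⟩ = 0 := by
    apply Subtype.ext
    have := map_eval₂_evalInt P.toValuationSubring.subtype Φ (⟨f, hfB⟩ : P.toValuationSubring)
      ⟨g, hgB⟩
    exact this.trans h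
  have h1 := congrArg res hB
  rw [map_eval₂_evalInt, map_zero, rf, rg] at h1
  -- the constants
  let ι : K →+* P.toValuationSubring :=
    (algebraMap K F).codRestrict P.toValuationSubring.toSubring P.algebraMap_mem'
  have h2 := map_eval₂_evalInt (res.comp ι) Φ a b
  have e1 : (res.comp ι) a = res ⟨algebraMap K F a, haB⟩ := rfl
  have e2 : (res.comp ι) b = res ⟨algebraMap K F b, hbB⟩ := rfl
  rw [e1, e2, h1] at h2
  exact (map_eq_zero (res.comp ι)).mp h2

theorem n3eq_hasValueAt_const_mul (P : Place K F) (c : K) {g : F} {b : K}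
    (hg : HasValueAt P g b) : HasValueAt P (algebraMap K F c * g) (c * b) := by
  unfold HasValueAt at hg ⊢
  have e : algebraMap K F c * g - algebraMap K F (c * b) =
      algebraMap K F c * (g - algebraMap K F b) := by
    rw [map_mul]; ring
  rw [e]
  exact ge_nonunits_mul_mem (P.algebraMap_mem' c) hg

end Value

/-- `j(P) = a`, `u_N(P) = d` ⟹ `W(a, N¹² d) = 0`. -/
theorem n3eq_value (N : ℕ) [NeZero N] (hN : N.Prime) (P : Place Kb (FF N)) {a d : Kb}
    (ha : HasValueAt P (jF N) a) (hd : HasValueAt P (oggU N) d) :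
    (s36tuW N hN).eval₂ (evalInt a) ((N : Kb) ^ 12 * d) = 0 :=
  n3eq_value_eq P (s36tuW N hN) ha (n3eq_hasValueAt_const_mul P _ hd) (n3eq_modEq N hN)

/-- The same for rational values. -/
theorem n3eq_value_rat (N : ℕ) [NeZero N] (hN : N.Prime) (P : Place Kb (FF N)) {a d : ℚ}
    (ha : HasValueAt P (jF N) (algebraMap ℚ Kb a))
    (hd : HasValueAt P (oggU N) (algebraMap ℚ Kb d)) :
    (s36tuW N hN).eval₂ (evalInt a) ((N : ℚ) ^ 12 * d) = 0 := by
  have h := n3eq_value N hN P ha hd
  have h2 := map_eval₂_evalInt (algebraMap ℚ Kb) (s36tuW N hN) a ((N : ℚ) ^ 12 * d)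
  rw [map_mul, map_pow, map_natCast, h] at h2
  exact (map_eq_zero (algebraMap ℚ Kb)).mp h2

/-- **N3-EQ**: (MB) and (DICH) at the level prime `N` for the rational values `a = j(P)` and
`d = u_N(P)` (`g = N¹² d`, `v_N(g) = v_N(d) + 12`). -/
theorem n3eq_main (N : ℕ) [NeZero N] (hN : N.Prime) (P : Place Kb (FF N)) (a d : ℚ)
    (ha : HasValueAt P (jF N) (algebraMap ℚ Kb a))
    (hd : HasValueAt P (oggU N) (algebraMap ℚ Kb d)) :
    (0 ≤ padicValRat N a → -12 ≤ padicValRat N d ∧ padicValRat N d ≤ 0) ∧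
    (padicValRat N a < 0 →
      padicValRat N d = -(((N : ℤ) - 1) * padicValRat N a) ∨
      (N : ℤ) * (padicValRat N d + 12) = ((N : ℤ) - 1) * padicValRat N a) := by
  have : Fact N.Prime := ⟨hN⟩
  have hNQ : (N : ℚ) ≠ 0 := Nat.cast_ne_zero.mpr hN.ne_zero
  have h := n3eq_value_rat N hN P ha hd
  have hg : (N : ℚ) ^ 12 * d ≠ 0 := n3eq_root_ne_zero N hN h hNQ
  have hd0 : d ≠ 0 := right_ne_zero_of_mul hg
  have hvN : padicValRat N (N : ℚ) = 1 := padicValRat.self hN.one_lt
  have hv : padicValRat N ((N : ℚ) ^ 12 * d) = padicValRat N d + 12 := by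
    rw [padicValRat.mul (pow_ne_zero _ hNQ) hd0, padicValRat.pow, hvN]
    ring
  constructor
  · intro ha0
    have := n3eq_mb_padic N hN N h ha0
    rw [hv, hvN] at this
    constructor <;> omega
  · intro ha0
    have := n3eq_dich_padic N hN N h ha0
    rw [hv, hvN] at this
    rcases this with h1 | h1
    · right; exact h1
    · left; linarith

end Fermat.Agent.S15

end
end ZBZ2S15_010_2

/-! ### bundled: `Fermat.Agent.S15.N3Eq` -/
section ZBZ2S15_010_3

/-!
# S15 / N3-EQ: `stmtN3Eq : StmtN3Eq` (the interface of `N3Plan.lean`), from `n3eq_main`.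
-/

set_option autoImplicit false

namespace Fermat.Agent.S15

/-- **N3-EQ**: the modular equation of `g = N¹² u_N` over `ℤ[j]` and its Newton polygon at `N`. -/
theorem stmtN3Eq : StmtN3Eq := by
  intro N _ hN P a d _ ha hd
  obtain ⟨h1, h2⟩ := n3eq_main N hN P a d ha hd
  exact ⟨fun h => (h1 h).2, h2⟩

end Fermat.Agent.S15


end ZBZ2S15_010_3

/-! ### bundled: `Fermat.Agent.S15.N3Mod` -/
section ZBZ2S15_010_4

/-!
# S15 / N3 — `Plan.StmtMod` (v2) from the two open pieces N3-F and N3-EC (helper51)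

`stmtMod_of_n3F_EC : StmtN3F → StmtN3EC → StmtMod`, with the finished pieces plugged in:
`stmtModAdd` (MOD-ADD), `stmtModFricke` (MOD-FRICKE, helper71), `stmtN3Eq` (N3-EQ, helper80),
`stmtModAsmE2_of`, `stmtModAsmP2_of`, `stmtMod_of_n3`.
-/

set_option autoImplicit false

namespace Fermat.Agent.S15

/-- `Plan.StmtMod` (v2) from N3-F and N3-EC. -/
theorem stmtMod_of_n3F_EC (hF : StmtN3F) (hEC : StmtN3EC) : StmtMod :=
  stmtMod_of_n3 (stmtModAsmE2_of stmtModAdd hEC) (stmtModAsmP2_of stmtModFricke hF) stmtN3Eq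

end Fermat.Agent.S15


end ZBZ2S15_010_4
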