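/- GENERATED FILE (helper35, build-time optimisation, NOTES/ZB.md): verbatim concatenation of the modules
   Fermat.Agent.S15.N3ECVal
   Fermat.Agent.S15.N3ECModel
   Fermat.Agent.S15.N3ECPt
   Fermat.Agent.S15.N3ECDich
   Fermat.Agent.S15.N3EC
   Fermat.Agent.S15.N3Main
   Do not edit; do not import together with these modules. -/
import Fermat.Agent.ZB.S05_002
import Fermat.Agent.ZB.S13_004
import Fermat.Agent.ZB.EC_003
import Fermat.Agent.ZB.Z2S15_004
import Fermat.Agent.ZB.Common_001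
import Fermat.Agent.ZB.S05_001
import Fermat.Agent.ZB.Z2S15_010

/-! ### bundled: `Fermat.Agent.S15.N3ECVal` -/
section ZBZ2S15_012_0
/-
S15 block N3, piece N3-EC (helper52), part 1: a valuation ring of a field of characteristic `0`
lying over `p` and the `p`-adic valuation of rational numbers.

`L` a field with `Algebra ℚ L`, `A` a valuation subring of `L` with `(p : L) ∈ 𝔪_A`, `r : ℚ`,
`r ≠ 0`:

* `n3ec_rat_mem_iff`     : `r ∈ A ↔ 0 ≤ padicValRat p r`;
* `n3ec_rat_not_mem_iff` : `r ∉ A ↔ padicValRat p r < 0`;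
* `n3ec_rat_val_one_iff` : `v r = 1 ↔ padicValRat p r = 0`;
* `n3ec_mem_of_pow_mem`  : `x ^ n ∈ A → x ∈ A` (`n ≠ 0`).
-/

set_option autoImplicit false
set_option linter.style.haveILetI false
set_option linter.unusedSectionVars false

namespace Fermat.Agent.S15

open Fermat.Agent.S05

section Val

variable {L : Type*} [Field L] [Algebra ℚ L] (A : ValuationSubring L) {p : ℕ}

theorem n3ec_algebraMap_eq (r : ℚ) :
    algebraMap ℚ L r = (r.num : L) / (r.den : L) := by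
  have h1 : (r : ℚ) = (r.num : ℚ) / (r.den : ℚ) := (Rat.num_div_den r).symm
  conv_lhs => rw [h1]
  rw [map_div₀, map_intCast, map_natCast]

theorem n3ec_den_ne_zero [CharZero L] (r : ℚ) : (r.den : L) ≠ 0 :=
  Nat.cast_ne_zero.mpr r.den_ne_zero

theorem n3ec_padicValRat_nonneg_iff (hp : p.Prime) (r : ℚ) :
    0 ≤ padicValRat p r ↔ ¬ p ∣ r.den := by
  haveI : Fact p.Prime := ⟨hp⟩
  rw [padicValRat_def]
  constructor
  · intro h hd
    have hnum : ¬ (p : ℤ) ∣ r.num := by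
      intro hn
      have h1 : p ∣ r.num.natAbs := Int.natCast_dvd.mp hn
      have h2 : p ∣ Nat.gcd r.num.natAbs r.den := Nat.dvd_gcd h1 hd
      rw [r.reduced] at h2
      exact hp.one_lt.ne' (Nat.dvd_one.mp h2)
    have h3 : padicValInt p r.num = 0 := padicValInt.eq_zero_of_not_dvd hnum
    have h4 : 1 ≤ padicValNat p r.den := one_le_padicValNat_of_dvd r.den_ne_zero hd
    rw [h3] at h
    omega
  · intro hd
    rw [padicValNat.eq_zero_of_not_dvd hd]
    simp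

theorem n3ec_rat_mem_iff [CharZero L] (hp : p.Prime) (hA : A.LiesOverPrime p) (r : ℚ) :
    algebraMap ℚ L r ∈ A ↔ 0 ≤ padicValRat p r := by
  rw [n3ec_padicValRat_nonneg_iff hp, n3ec_algebraMap_eq]
  have hden0 := n3ec_den_ne_zero (L := L) r
  constructor
  · intro h hd
    have hnum : ¬ (p : ℤ) ∣ r.num := by
      intro hn
      have h1 : p ∣ r.num.natAbs := Int.natCast_dvd.mp hn
      have h2 : p ∣ Nat.gcd r.num.natAbs r.den := Nat.dvd_gcd h1 hd
      rw [r.reduced] at h2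
      exact hp.one_lt.ne' (Nat.dvd_one.mp h2)
    have hdn : (r.den : L) ∈ A.nonunits := (natCast_mem_nonunits_iff A hp hA r.den).mpr hd
    have hnn : (r.num : L) ∉ A.nonunits := fun h' =>
      hnum ((intCast_mem_nonunits_iff A hp hA r.num).mp h')
    apply hnn
    rw [ValuationSubring.mem_nonunits_iff] at hdn ⊢
    have h1 : (r.num : L) = (r.num : L) / (r.den : L) * (r.den : L) := by
      field_simp
    rw [h1, map_mul]
    have h2 := (ValuationSubring.valuation_le_one_iff A _).mpr h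
    exact mul_lt_one_of_nonneg_of_lt_one_right h2 zero_le hdn
  · intro hd
    have hdn : (r.den : L) ∉ A.nonunits := fun h' =>
      hd ((natCast_mem_nonunits_iff A hp hA r.den).mp h')
    have hdA : (r.den : L) ∈ A := natCast_mem A r.den
    have hv : A.valuation (r.den : L) = 1 := by
      rw [ValuationSubring.mem_nonunits_iff] at hdn
      exact le_antisymm ((ValuationSubring.valuation_le_one_iff A _).mpr hdA) (not_lt.mp hdn)
    rw [← ValuationSubring.valuation_le_one_iff, map_div₀, hv, div_one]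
    exact (ValuationSubring.valuation_le_one_iff A _).mpr (intCast_mem A r.num)

theorem n3ec_rat_not_mem_iff [CharZero L] (hp : p.Prime) (hA : A.LiesOverPrime p) (r : ℚ) :
    algebraMap ℚ L r ∉ A ↔ padicValRat p r < 0 := by
  rw [n3ec_rat_mem_iff A hp hA, not_le]

theorem n3ec_rat_val_one_iff [CharZero L] (hp : p.Prime) (hA : A.LiesOverPrime p) {r : ℚ}
    (hr : r ≠ 0) : A.valuation (algebraMap ℚ L r) = 1 ↔ padicValRat p r = 0 := by
  haveI : Fact p.Prime := ⟨hp⟩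
  have h1 := n3ec_rat_mem_iff A hp hA r
  have h2 := n3ec_rat_mem_iff A hp hA r⁻¹
  rw [padicValRat.inv, map_inv₀] at h2
  rw [← ValuationSubring.valuation_le_one_iff] at h1 h2
  rw [map_inv₀] at h2
  have hr' : A.valuation (algebraMap ℚ L r) ≠ 0 := by
    rw [ne_eq, map_eq_zero]
    exact fun h => hr ((map_eq_zero_iff _ (algebraMap ℚ L).injective).mp h)
  constructor
  · intro h
    have h3 : 0 ≤ padicValRat p r := h1.mp h.le
    have h4 : 0 ≤ -padicValRat p r := h2.mp (by rw [h, inv_one])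
    omega
  · intro h
    have h3 : A.valuation (algebraMap ℚ L r) ≤ 1 := h1.mpr h.ge
    have h4 : (A.valuation (algebraMap ℚ L r))⁻¹ ≤ 1 := h2.mpr (by rw [h]; simp)
    have h5 : 1 ≤ A.valuation (algebraMap ℚ L r) := by
      rw [inv_le_one₀ (zero_lt_iff.mpr hr')] at h4
      exact h4
    exact le_antisymm h3 h5

omit [Algebra ℚ L] in
theorem n3ec_mem_of_pow_mem {x : L} {n : ℕ} (hn : n ≠ 0) (h : x ^ n ∈ A) : x ∈ A := by
  rw [← ValuationSubring.valuation_le_one_iff] at h ⊢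
  rw [map_pow] at h
  exact (pow_le_one_iff_of_nonneg zero_le hn).mp h

omit [Algebra ℚ L] in
theorem n3ec_pow_mem_iff {x : L} {n : ℕ} (hn : n ≠ 0) : x ^ n ∈ A ↔ x ∈ A :=
  ⟨n3ec_mem_of_pow_mem A hn, fun h => pow_mem h n⟩

end Val

end Fermat.Agent.S15


end ZBZ2S15_012_0

/-! ### bundled: `Fermat.Agent.S15.N3ECModel` -/
section ZBZ2S15_012_1
/-
S15 block N3, piece N3-EC (helper52), part 2: the short model scaled by `u`.

`K` a field with `2, 3 ≠ 0`, `W` a Weierstrass curve over `K`, `u ∈ Kˣ`,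
`C = n3ecC W u = (u, r, s, t)` with `r = -b₂/12`, `s = -a₁/2`, `t = -(a₃ + r a₁)/2`:

* `n3ec_model_a₁/a₂/a₃` : `C • W` is short; `n3ec_model_a₄`, `n3ec_model_a₆` :
  `a₄ = -c₄ / (48 u⁴)`, `a₆ = -c₆ / (864 u⁶)`;
* `n3ec_model_int` : `C • W` has coefficients in a valuation ring `A` with `v 2 = v 3 = 1` as soon
  as `c₄ / u⁴ ∈ A`, `c₆ / u⁶ ∈ A`;
* `n3ec_eta_scale` : `2 Y + a₁ X + a₃ = u³ (2 y + a₁' x + a₃')` for `(X, Y) = (vcX x, vcY x y)`
  (any change of variables);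
* `n3ec_model_X` : `u² x = X + b₂/12`;
* `n3ec_symm_some` : the preimage of an affine point under `vcEquiv` is an affine point.
-/

set_option autoImplicit false
set_option linter.style.haveILetI false
set_option linter.unusedSectionVars false

noncomputable section

namespace Fermat.Agent.S15

open WeierstrassCurve WeierstrassCurve.Affine Fermat.Agent.EC

section Model

variable {K : Type*} [Field K] (W : WeierstrassCurve K) (u : Kˣ)

/-- the change of variables to the short model, scaled by `u` -/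
def n3ecC : VariableChange K :=
  ⟨u, -W.b₂ / 12, -W.a₁ / 2, -(W.a₃ + (-W.b₂ / 12) * W.a₁) / 2⟩

@[simp] theorem n3ecC_u : (n3ecC W u).u = u := rfl
@[simp] theorem n3ecC_r : (n3ecC W u).r = -W.b₂ / 12 := rfl
@[simp] theorem n3ecC_s : (n3ecC W u).s = -W.a₁ / 2 := rfl
@[simp] theorem n3ecC_t : (n3ecC W u).t = -(W.a₃ + (-W.b₂ / 12) * W.a₁) / 2 := rfl

variable (h2 : (2 : K) ≠ 0) (h3 : (3 : K) ≠ 0)

include h2 in
theorem n3ec_model_a₁ : (n3ecC W u • W).a₁ = 0 := by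
  rw [variableChange_a₁, n3ecC_s]
  have : W.a₁ + 2 * (-W.a₁ / 2) = 0 := by field_simp; ring
  rw [this, mul_zero]

include h2 h3 in
theorem n3ec_model_a₂ : (n3ecC W u • W).a₂ = 0 := by
  have h12 : (12 : K) ≠ 0 := by
    have : (12 : K) = 2 * 2 * 3 := by norm_num
    rw [this]
    exact mul_ne_zero (mul_ne_zero h2 h2) h3
  rw [variableChange_a₂, n3ecC_s, n3ecC_r]
  have : W.a₂ - -W.a₁ / 2 * W.a₁ + 3 * (-W.b₂ / 12) - (-W.a₁ / 2) ^ 2 = 0 := by
    simp only [WeierstrassCurve.b₂]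
    field_simp
    ring
  rw [this, mul_zero]

include h2 in
theorem n3ec_model_a₃ : (n3ecC W u • W).a₃ = 0 := by
  rw [variableChange_a₃, n3ecC_r, n3ecC_t]
  have : W.a₃ + -W.b₂ / 12 * W.a₁ + 2 * (-(W.a₃ + -W.b₂ / 12 * W.a₁) / 2) = 0 := by
    field_simp
    ring
  rw [this, mul_zero]

include h2 h3 in
theorem n3ec_model_c₄ : (n3ecC W u • W).c₄ = -48 * (n3ecC W u • W).a₄ := by
  have e : (n3ecC W u • W).c₄ = (n3ecC W u • W).b₂ ^ 2 - 24 * (n3ecC W u • W).b₄ := rfl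
  rw [e]
  simp only [WeierstrassCurve.b₂, WeierstrassCurve.b₄, n3ec_model_a₁ W u h2,
    n3ec_model_a₂ W u h2 h3, n3ec_model_a₃ W u h2]
  ring

include h2 h3 in
theorem n3ec_model_c₆ : (n3ecC W u • W).c₆ = -864 * (n3ecC W u • W).a₆ := by
  have e : (n3ecC W u • W).c₆ = -(n3ecC W u • W).b₂ ^ 3 +
      36 * (n3ecC W u • W).b₂ * (n3ecC W u • W).b₄ - 216 * (n3ecC W u • W).b₆ := rfl
  rw [e]
  simp only [WeierstrassCurve.b₂, WeierstrassCurve.b₄, WeierstrassCurve.b₆, n3ec_model_a₁ W u h2,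
    n3ec_model_a₂ W u h2 h3, n3ec_model_a₃ W u h2]
  ring

include h2 h3 in
theorem n3ec_model_a₄ : (n3ecC W u • W).a₄ = -(W.c₄ * ((u⁻¹ : Kˣ) : K) ^ 4) / 48 := by
  have h48 : (48 : K) ≠ 0 := by
    have : (48 : K) = 2 * 2 * 2 * 2 * 3 := by norm_num
    rw [this]
    exact mul_ne_zero (mul_ne_zero (mul_ne_zero (mul_ne_zero h2 h2) h2) h2) h3
  have h1 := n3ec_model_c₄ W u h2 h3
  rw [variableChange_c₄, n3ecC_u] at h1
  field_simp
  linear_combination h1

include h2 h3 in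
theorem n3ec_model_a₆ : (n3ecC W u • W).a₆ = -(W.c₆ * ((u⁻¹ : Kˣ) : K) ^ 6) / 864 := by
  have h864 : (864 : K) ≠ 0 := by
    have : (864 : K) = 2 * 2 * 2 * 2 * 2 * (3 * 3 * 3) := by norm_num
    rw [this]
    exact mul_ne_zero (mul_ne_zero (mul_ne_zero (mul_ne_zero (mul_ne_zero h2 h2) h2) h2) h2)
      (mul_ne_zero (mul_ne_zero h3 h3) h3)
  have h1 := n3ec_model_c₆ W u h2 h3
  rw [variableChange_c₆, n3ecC_u] at h1
  field_simp
  linear_combination h1

end Model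

section Int

variable {K : Type*} [Field K] [DecidableEq K] (A : ValuationSubring K) (W : WeierstrassCurve K)
  (u : Kˣ)

theorem n3ec_val_ne_zero {x : K} (h : A.valuation x = 1) : x ≠ 0 := by
  intro h0
  rw [h0, map_zero] at h
  exact zero_ne_one h

theorem n3ec_div_mem {x c : K} (hx : x ∈ A) (hc : A.valuation c = 1) : x / c ∈ A := by
  rw [← ValuationSubring.valuation_le_one_iff] at hx ⊢
  rw [map_div₀, hc, div_one]
  exact hx

/-- `C • W` is integral at `A` -/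
theorem n3ec_model_int (h2 : A.valuation (2 : K) = 1) (h3 : A.valuation (3 : K) = 1)
    (hc₄ : W.c₄ * ((u⁻¹ : Kˣ) : K) ^ 4 ∈ A) (hc₆ : W.c₆ * ((u⁻¹ : Kˣ) : K) ^ 6 ∈ A) :
    N3Int A (n3ecC W u • W) := by
  have h2' := n3ec_val_ne_zero A h2
  have h3' := n3ec_val_ne_zero A h3
  have h48 : A.valuation (48 : K) = 1 := by
    have : (48 : K) = 2 * 2 * 2 * 2 * 3 := by norm_num
    rw [this]
    simp only [map_mul, h2, h3, mul_one]
  have h864 : A.valuation (864 : K) = 1 := by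
    have : (864 : K) = 2 * 2 * 2 * 2 * 2 * (3 * 3 * 3) := by norm_num
    rw [this]
    simp only [map_mul, h2, h3, mul_one]
  refine ⟨?_, ?_, ?_, ?_, ?_⟩
  · rw [n3ec_model_a₁ W u h2']
    exact A.zero_mem
  · rw [n3ec_model_a₂ W u h2' h3']
    exact A.zero_mem
  · rw [n3ec_model_a₃ W u h2']
    exact A.zero_mem
  · rw [n3ec_model_a₄ W u h2' h3']
    exact n3ec_div_mem A (neg_mem hc₄) h48
  · rw [n3ec_model_a₆ W u h2' h3']
    exact n3ec_div_mem A (neg_mem hc₆) h864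

end Int

section Points

variable {K : Type*} [Field K] [DecidableEq K] (W : WeierstrassCurve K) (C : VariableChange K)

/-- `η` scales by `u³` under a change of variables -/
theorem n3ec_eta_scale (x y : K) :
    2 * vcY C x y + W.a₁ * vcX C x + W.a₃ =
      (C.u : K) ^ 3 * (2 * y + (C • W).a₁ * x + (C • W).a₃) := by
  have hu := vc_u_ne_zero C
  simp only [variableChange_a₁, variableChange_a₃, vc_inv_u, vcX, vcY]
  field_simp
  ring

/-- the preimage of an affine point is an affine point -/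
theorem n3ec_symm_some {X Y : K} (h : W.toAffine.Nonsingular X Y) :
    ∃ (x y : K) (h' : (C • W).toAffine.Nonsingular x y),
      (vcEquiv W C).symm (Point.some X Y h) = Point.some x y h' ∧ vcX C x = X ∧ vcY C x y = Y := by
  have hP : vcEquiv W C ((vcEquiv W C).symm (Point.some X Y h)) = Point.some X Y h :=
    (vcEquiv W C).apply_symm_apply _
  rcases hQ : (vcEquiv W C).symm (Point.some X Y h) with _ | ⟨x, y, h'⟩
  · rw [hQ] at hP
    exact absurd hP.symm (Point.some_ne_zero _)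
  · rw [hQ, vcEquiv_apply, vcFun_some, Point.some.injEq] at hP
    exact ⟨x, y, h', rfl, hP.1, hP.2⟩

theorem n3ec_model_X (u : Kˣ) (x : K) :
    (u : K) ^ 2 * x = vcX (n3ecC W u) x + W.b₂ / 12 := by
  simp only [vcX, n3ecC_u, n3ecC_r]
  ring

end Points

end Fermat.Agent.S15

end
end ZBZ2S15_012_1

/-! ### bundled: `Fermat.Agent.S15.N3ECPt` -/
section ZBZ2S15_012_2
/-
S15 block N3, piece N3-EC (helper52), part 3: the valuations of `η` at one point.

`p ≥ 5` a prime, `L` a field of characteristic `0`, `A` a valuation subring of `L` over `p`,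
`W` a Weierstrass curve over `ℚ`, `u ∈ Lˣ`, `W' = n3ecC W_L u • W_L` the short model scaled by `u`,
`P = (x₀, y₀)` a rational point of `W`, `P' = (x', y')` the corresponding point of `W'`,
`xs = x₀ + b₂/12`, `η₀ = 2 y₀ + a₁ x₀ + a₃ ≠ 0`, `v = padicValRat p`.

* `n3ec_parity` : if `j` is integral at `p` then `v Δ` is even or divisible by `3`;
* `n3ec_pt_alpha` : `x' ∉ A ⇒ xs ≠ 0 ∧ 4 v η₀ = 6 v xs`;
* case `u¹² = Δ`: `n3ec_int_beta` (`x' ∈ A ⇒ v Δ ≤ 4 v η₀`), `n3ec_int_alpha`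
  (`x' ∉ A ⇒ 6 v xs < v Δ`), `n3ec_int_model` (`W'` is integral if `j` is);
* case `u⁴ = c₄`: `n3ec_non_beta` (`x' ∈ A ⇒ 3 v c₄ ≤ 4 v η₀`), `n3ec_non_alpha`
  (`x' ∉ A ⇒ 2 v xs < v c₄`), `n3ec_non_model` (`W'` is integral if `j` is not).
-/

set_option autoImplicit false
set_option linter.style.haveILetI false
set_option linter.unusedSectionVars false

noncomputable section

namespace Fermat.Agent.S15

open WeierstrassCurve WeierstrassCurve.Affine Fermat.Agent.EC Fermat.Agent.S05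

/-! ### Arithmetic -/

section Arith

variable {p : ℕ}

theorem n3ec_padicValRat_1728 (hp : p.Prime) (hp5 : 5 ≤ p) : padicValRat p 1728 = 0 := by
  haveI : Fact p.Prime := ⟨hp⟩
  have h1 : (1728 : ℚ) = ((1728 : ℕ) : ℚ) := by norm_num
  rw [h1, padicValRat.of_nat]
  have h2 : ¬ p ∣ 1728 := by
    intro hd
    have e : (1728 : ℕ) = 2 ^ 6 * 3 ^ 3 := by norm_num
    rw [e] at hd
    rcases (Nat.Prime.dvd_mul hp).mp hd with h | h
    · have := (Nat.prime_dvd_prime_iff_eq hp Nat.prime_two).mp (hp.dvd_of_dvd_pow h)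
      omega
    · have := (Nat.prime_dvd_prime_iff_eq hp Nat.prime_three).mp (hp.dvd_of_dvd_pow h)
      omega
  rw [padicValNat.eq_zero_of_not_dvd h2]
  rfl

/-- if `j` is integral at `p ≥ 5` then `v_p(Δ)` is even or divisible by `3` -/
theorem n3ec_parity (hp : p.Prime) (hp5 : 5 ≤ p) {Δ c₄ c₆ : ℚ}
    (hrel : 1728 * Δ = c₄ ^ 3 - c₆ ^ 2) (hΔ : Δ ≠ 0)
    (hj : c₄ = 0 ∨ padicValRat p Δ ≤ 3 * padicValRat p c₄) :
    padicValRat p Δ % 2 = 0 ∨ padicValRat p Δ % 3 = 0 := by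
  haveI : Fact p.Prime := ⟨hp⟩
  by_contra hcon
  rw [not_or] at hcon
  have h1728 := n3ec_padicValRat_1728 hp hp5
  have h1728' : (1728 : ℚ) ≠ 0 := by norm_num
  have hv : padicValRat p (-(1728 * Δ)) = padicValRat p Δ := by
    rw [padicValRat.neg, padicValRat.mul h1728' hΔ, h1728, zero_add]
  have hne : -(1728 * Δ) ≠ 0 := neg_ne_zero.mpr (mul_ne_zero h1728' hΔ)
  have hc6 : c₆ ^ 2 = -(1728 * Δ) + c₄ ^ 3 := by linear_combination hrel
  have key : padicValRat p (c₆ ^ 2) = padicValRat p Δ := by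
    rcases hj with h0 | hle
    · rw [hc6, h0]
      simp only [ne_eq, OfNat.ofNat_ne_zero, not_false_eq_true, zero_pow, add_zero]
      exact hv
    · have hc4 : c₄ ≠ 0 := by
        intro h0
        rw [h0, padicValRat.zero, mul_zero] at hle
        have h0' : c₆ ^ 2 = -(1728 * Δ) := by rw [hc6, h0]; ring
        have hc60 : c₆ ≠ 0 := by
          intro h
          rw [h] at h0'
          exact hne (by rw [← h0']; ring)
        have h2 := congrArg (padicValRat p) h0'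
        rw [padicValRat.pow c₆, hv] at h2
        omega
      have hlt : padicValRat p (-(1728 * Δ)) < padicValRat p (c₄ ^ 3) := by
        rw [hv, padicValRat.pow c₄]
        have : padicValRat p Δ ≠ 3 * padicValRat p c₄ := by
          intro h
          omega
        push_cast
        omega
      have hsum : -(1728 * Δ) + c₄ ^ 3 ≠ 0 := by
        intro h
        have h3 : c₄ ^ 3 = 1728 * Δ := by linear_combination h
        have h4 := congrArg (padicValRat p) h3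
        rw [padicValRat.pow c₄, padicValRat.mul h1728' hΔ, h1728, zero_add] at h4
        push_cast at h4
        omega
      rw [hc6, padicValRat.add_eq_of_lt hsum hne (pow_ne_zero 3 hc4) hlt, hv]
  have hc60 : c₆ ≠ 0 := by
    intro h
    rw [h] at hc6
    rcases hj with h0 | hle
    · rw [h0] at hc6
      exact hne (by linear_combination -hc6)
    · rw [h] at key
      simp only [ne_eq, OfNat.ofNat_ne_zero, not_false_eq_true, zero_pow, padicValRat.zero] at key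
      omega
  rw [padicValRat.pow c₆] at key
  push_cast at key
  omega

end Arith

/-! ### One point -/

section Point

variable {L : Type*} [Field L] [DecidableEq L] [Algebra ℚ L] [CharZero L]
  (A : ValuationSubring L) {p : ℕ} (W : WeierstrassCurve ℚ) (u : Lˣ)

/-- the curve over `L` -/
abbrev n3ecWL : WeierstrassCurve L := W.map (algebraMap ℚ L)

/-- the short model over `L`, scaled by `u` -/
abbrev n3ecW' : WeierstrassCurve L := n3ecC (n3ecWL (L := L) W) u • n3ecWL (L := L) W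

theorem n3ec_val_two (hp : p.Prime) (hp5 : 5 ≤ p) (hA : A.LiesOverPrime p) :
    A.valuation (2 : L) = 1 := by
  have h1 : ((2 : ℕ) : L) ∉ A.nonunits := fun h => by
    have := (natCast_mem_nonunits_iff A hp hA 2).mp h
    have := Nat.le_of_dvd (by norm_num) this
    omega
  rw [ValuationSubring.mem_nonunits_iff, not_lt] at h1
  have h2 : A.valuation ((2 : ℕ) : L) ≤ 1 :=
    (ValuationSubring.valuation_le_one_iff A _).mpr (natCast_mem A 2)
  have h3 := le_antisymm h2 h1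
  exact_mod_cast h3

theorem n3ec_val_three (hp : p.Prime) (hp5 : 5 ≤ p) (hA : A.LiesOverPrime p) :
    A.valuation (3 : L) = 1 := by
  have h1 : ((3 : ℕ) : L) ∉ A.nonunits := fun h => by
    have := (natCast_mem_nonunits_iff A hp hA 3).mp h
    have := Nat.le_of_dvd (by norm_num) this
    omega
  rw [ValuationSubring.mem_nonunits_iff, not_lt] at h1
  have h2 : A.valuation ((3 : ℕ) : L) ≤ 1 :=
    (ValuationSubring.valuation_le_one_iff A _).mpr (natCast_mem A 3)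
  have h3 := le_antisymm h2 h1
  exact_mod_cast h3

omit [DecidableEq L] [Algebra ℚ L] [CharZero L] in
theorem n3ec_inv_u_units : ((u⁻¹ : Lˣ) : L) = (u : L)⁻¹ := by simp

variable {x₀ y₀ : ℚ} {x' y' : L}

/-- `4 v(η₀) = 6 v(xs)` at a point of the kernel of reduction -/
theorem n3ec_pt_alpha (hp : p.Prime) (hp5 : 5 ≤ p) (hA : A.LiesOverPrime p)
    (hint : N3Int A (n3ecW' (L := L) W u))
    (h' : (n3ecW' (L := L) W u).toAffine.Equation x' y')
    (hX : (u : L) ^ 2 * x' = algebraMap ℚ L (x₀ + W.b₂ / 12))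
    (hE : (u : L) ^ 3 * (2 * y' + (n3ecW' (L := L) W u).a₁ * x' + (n3ecW' (L := L) W u).a₃) =
      algebraMap ℚ L (2 * y₀ + W.a₁ * x₀ + W.a₃))
    (hη : 2 * y₀ + W.a₁ * x₀ + W.a₃ ≠ 0) (hx' : x' ∉ A) :
    x₀ + W.b₂ / 12 ≠ 0 ∧
      4 * padicValRat p (2 * y₀ + W.a₁ * x₀ + W.a₃) = 6 * padicValRat p (x₀ + W.b₂ / 12) := by
  haveI : Fact p.Prime := ⟨hp⟩
  have hu : (u : L) ≠ 0 := u.ne_zero
  set xs : ℚ := x₀ + W.b₂ / 12 with hxs
  set η₀ : ℚ := 2 * y₀ + W.a₁ * x₀ + W.a₃ with hη₀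
  have hxs0 : xs ≠ 0 := by
    intro h0
    rw [h0, map_zero] at hX
    rcases mul_eq_zero.mp hX with h | h
    · exact pow_ne_zero 2 hu h
    · exact hx' (h ▸ A.zero_mem)
  refine ⟨hxs0, ?_⟩
  have h2 := n3ec_val_two A hp hp5 hA
  have hv1 := n3sub_val_eta hint h2 h' hx'
  have hv2 := n3sub_val_sq hint h' hx'
  -- `v(η')⁴ = v(x')⁶`
  have hv3 : A.valuation (2 * y' + (n3ecW' (L := L) W u).a₁ * x' + (n3ecW' (L := L) W u).a₃) ^ 4
      = A.valuation x' ^ 6 := by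
    rw [hv1, show (4 : ℕ) = 2 * 2 from rfl, pow_mul, hv2, ← pow_mul]
  -- multiply by `v(u)¹²`
  have hv4 : A.valuation (algebraMap ℚ L (η₀ ^ 4)) = A.valuation (algebraMap ℚ L (xs ^ 6)) := by
    have e1 : A.valuation (algebraMap ℚ L (η₀ ^ 4)) = A.valuation (u : L) ^ 12 *
        A.valuation (2 * y' + (n3ecW' (L := L) W u).a₁ * x' + (n3ecW' (L := L) W u).a₃) ^ 4 := by
      rw [map_pow, ← hE, map_pow, map_mul, map_pow, mul_pow, ← pow_mul]
    have e2 : A.valuation (algebraMap ℚ L (xs ^ 6)) = A.valuation (u : L) ^ 12 *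
        A.valuation x' ^ 6 := by
      rw [map_pow, ← hX, map_pow, map_mul, map_pow, mul_pow, ← pow_mul]
    rw [e1, e2, hv3]
  have hxs6 : xs ^ 6 ≠ 0 := pow_ne_zero 6 hxs0
  have hη4 : η₀ ^ 4 ≠ 0 := pow_ne_zero 4 hη
  have hv5 : A.valuation (algebraMap ℚ L (η₀ ^ 4 / xs ^ 6)) = 1 := by
    rw [map_div₀, map_div₀, hv4]
    refine div_self ?_
    rw [ne_eq, map_eq_zero, map_eq_zero_iff _ (algebraMap ℚ L).injective]
    exact hxs6
  have hv6 := (n3ec_rat_val_one_iff A hp hA (div_ne_zero hη4 hxs6)).mp hv5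
  rw [padicValRat.div hη4 hxs6, padicValRat.pow η₀, padicValRat.pow xs] at hv6
  push_cast at hv6
  omega

/-! ### The case `u¹² = Δ` (`j` integral) -/

section IntCase

variable (hu : (u : L) ^ 12 = algebraMap ℚ L W.Δ)

include hu in
theorem n3ec_int_model (hp : p.Prime) (hp5 : 5 ≤ p) (hA : A.LiesOverPrime p) (hΔ : W.Δ ≠ 0)
    (hj : W.c₄ = 0 ∨ padicValRat p W.Δ ≤ 3 * padicValRat p W.c₄) :
    N3Int A (n3ecW' (L := L) W u) := by
  haveI : Fact p.Prime := ⟨hp⟩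
  have hu0 : (u : L) ≠ 0 := u.ne_zero
  have hΔL : algebraMap ℚ L W.Δ ≠ 0 := by
    rw [← hu]
    exact pow_ne_zero 12 hu0
  -- `c₄³/Δ ∈ A`
  have hjA : algebraMap ℚ L (W.c₄ ^ 3 / W.Δ) ∈ A := by
    rw [n3ec_rat_mem_iff A hp hA]
    rcases hj with h0 | hle
    · rw [h0]
      simp
    · by_cases h0 : W.c₄ = 0
      · rw [h0]
        simp
      · rw [padicValRat.div (pow_ne_zero 3 h0) hΔ, padicValRat.pow]
        push_cast
        omega
  refine n3ec_model_int A _ u (n3ec_val_two A hp hp5 hA) (n3ec_val_three A hp hp5 hA) ?_ ?_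
  · apply n3ec_mem_of_pow_mem A (n := 3) (by norm_num)
    have e : ((n3ecWL (L := L) W).c₄ * ((u⁻¹ : Lˣ) : L) ^ 4) ^ 3 =
        algebraMap ℚ L (W.c₄ ^ 3 / W.Δ) := by
      rw [map_div₀, map_pow, ← hu, WeierstrassCurve.map_c₄, n3ec_inv_u_units]
      field_simp
    rw [e]
    exact hjA
  · apply n3ec_mem_of_pow_mem A (n := 2) (by norm_num)
    have hrel := W.c_relation
    have e : ((n3ecWL (L := L) W).c₆ * ((u⁻¹ : Lˣ) : L) ^ 6) ^ 2 =
        algebraMap ℚ L (W.c₄ ^ 3 / W.Δ) - algebraMap ℚ L 1728 := by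
      have h1 : W.c₆ ^ 2 = W.c₄ ^ 3 - 1728 * W.Δ := by linear_combination hrel
      have h2 : algebraMap ℚ L (W.c₄ ^ 3 / W.Δ) - algebraMap ℚ L 1728 =
          algebraMap ℚ L (W.c₆ ^ 2 / W.Δ) := by
        rw [← map_sub, h1]
        congr 1
        field_simp
      rw [h2, map_div₀, map_pow, ← hu, WeierstrassCurve.map_c₆, n3ec_inv_u_units]
      field_simp
    rw [e]
    refine sub_mem hjA ?_
    rw [n3ec_rat_mem_iff A hp hA, n3ec_padicValRat_1728 hp hp5]

variable {x₀ y₀ : ℚ} {x' y' : L}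

include hu in
theorem n3ec_int_beta (hp : p.Prime) (hA : A.LiesOverPrime p) (hΔ : W.Δ ≠ 0)
    (hint : N3Int A (n3ecW' (L := L) W u))
    (h' : (n3ecW' (L := L) W u).toAffine.Equation x' y')
    (hE : (u : L) ^ 3 * (2 * y' + (n3ecW' (L := L) W u).a₁ * x' + (n3ecW' (L := L) W u).a₃) =
      algebraMap ℚ L (2 * y₀ + W.a₁ * x₀ + W.a₃))
    (hη : 2 * y₀ + W.a₁ * x₀ + W.a₃ ≠ 0) (hx' : x' ∈ A) :
    padicValRat p W.Δ ≤ 4 * padicValRat p (2 * y₀ + W.a₁ * x₀ + W.a₃) := by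
  haveI : Fact p.Prime := ⟨hp⟩
  have hu0 : (u : L) ≠ 0 := u.ne_zero
  have hmem := n3sub_eta_mem hint h' hx'
  have e : algebraMap ℚ L ((2 * y₀ + W.a₁ * x₀ + W.a₃) ^ 4 / W.Δ) =
      (2 * y' + (n3ecW' (L := L) W u).a₁ * x' + (n3ecW' (L := L) W u).a₃) ^ 4 := by
    rw [map_div₀, map_pow, ← hE, ← hu]
    field_simp
  have h1 : algebraMap ℚ L ((2 * y₀ + W.a₁ * x₀ + W.a₃) ^ 4 / W.Δ) ∈ A := by
    rw [e]
    exact pow_mem hmem 4
  rw [n3ec_rat_mem_iff A hp hA, padicValRat.div (pow_ne_zero 4 hη) hΔ, padicValRat.pow] at h1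
  push_cast at h1
  omega

include hu in
theorem n3ec_int_alpha (hp : p.Prime) (hA : A.LiesOverPrime p) (hΔ : W.Δ ≠ 0)
    (hX : (u : L) ^ 2 * x' = algebraMap ℚ L (x₀ + W.b₂ / 12))
    (hxs : x₀ + W.b₂ / 12 ≠ 0) (hx' : x' ∉ A) :
    6 * padicValRat p (x₀ + W.b₂ / 12) < padicValRat p W.Δ := by
  haveI : Fact p.Prime := ⟨hp⟩
  have hu0 : (u : L) ≠ 0 := u.ne_zero
  have e : algebraMap ℚ L ((x₀ + W.b₂ / 12) ^ 6 / W.Δ) = x' ^ 6 := by
    rw [map_div₀, map_pow, ← hX, ← hu]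
    field_simp
  have h1 : algebraMap ℚ L ((x₀ + W.b₂ / 12) ^ 6 / W.Δ) ∉ A := by
    rw [e]
    exact fun h => hx' (n3ec_mem_of_pow_mem A (by norm_num) h)
  rw [n3ec_rat_not_mem_iff A hp hA, padicValRat.div (pow_ne_zero 6 hxs) hΔ, padicValRat.pow]
    at h1
  push_cast at h1
  omega

end IntCase

/-! ### The case `u⁴ = c₄` (`j` not integral) -/

section NonCase

variable (hu : (u : L) ^ 4 = algebraMap ℚ L W.c₄)

include hu in
theorem n3ec_non_model (hp : p.Prime) (hp5 : 5 ≤ p) (hA : A.LiesOverPrime p) (hΔ : W.Δ ≠ 0)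
    (hc₄ : W.c₄ ≠ 0) (hj : 3 * padicValRat p W.c₄ < padicValRat p W.Δ) :
    N3Int A (n3ecW' (L := L) W u) := by
  haveI : Fact p.Prime := ⟨hp⟩
  have hu0 : (u : L) ≠ 0 := u.ne_zero
  have hcL : algebraMap ℚ L W.c₄ ≠ 0 := by
    rw [← hu]
    exact pow_ne_zero 4 hu0
  have hjA : algebraMap ℚ L (W.Δ / W.c₄ ^ 3) ∈ A := by
    rw [n3ec_rat_mem_iff A hp hA, padicValRat.div hΔ (pow_ne_zero 3 hc₄), padicValRat.pow]
    push_cast
    omega
  refine n3ec_model_int A _ u (n3ec_val_two A hp hp5 hA) (n3ec_val_three A hp hp5 hA) ?_ ?_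
  · have e : (n3ecWL (L := L) W).c₄ * ((u⁻¹ : Lˣ) : L) ^ 4 = 1 := by
      rw [WeierstrassCurve.map_c₄, ← hu, n3ec_inv_u_units]
      field_simp
    rw [e]
    exact A.one_mem
  · apply n3ec_mem_of_pow_mem A (n := 2) (by norm_num)
    have hrel := W.c_relation
    have e : ((n3ecWL (L := L) W).c₆ * ((u⁻¹ : Lˣ) : L) ^ 6) ^ 2 =
        1 - algebraMap ℚ L 1728 * algebraMap ℚ L (W.Δ / W.c₄ ^ 3) := by
      have h1 : W.c₆ ^ 2 = W.c₄ ^ 3 - 1728 * W.Δ := by linear_combination hrel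
      have h2 : 1 - algebraMap ℚ L 1728 * algebraMap ℚ L (W.Δ / W.c₄ ^ 3) =
          algebraMap ℚ L (W.c₆ ^ 2 / W.c₄ ^ 3) := by
        rw [← map_mul, ← map_one (algebraMap ℚ L), ← map_sub, h1]
        congr 1
        field_simp
      have hu12 : (u : L) ^ 12 = algebraMap ℚ L (W.c₄ ^ 3) := by
        rw [map_pow, ← hu, ← pow_mul]
      rw [h2, map_div₀, ← hu12, map_pow, WeierstrassCurve.map_c₆, n3ec_inv_u_units]
      field_simp
    rw [e]
    refine sub_mem A.one_mem (mul_mem ?_ hjA)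
    rw [n3ec_rat_mem_iff A hp hA, n3ec_padicValRat_1728 hp hp5]

variable {x₀ y₀ : ℚ} {x' y' : L}

include hu in
theorem n3ec_non_beta (hp : p.Prime) (hA : A.LiesOverPrime p) (hc₄ : W.c₄ ≠ 0)
    (hint : N3Int A (n3ecW' (L := L) W u))
    (h' : (n3ecW' (L := L) W u).toAffine.Equation x' y')
    (hE : (u : L) ^ 3 * (2 * y' + (n3ecW' (L := L) W u).a₁ * x' + (n3ecW' (L := L) W u).a₃) =
      algebraMap ℚ L (2 * y₀ + W.a₁ * x₀ + W.a₃))
    (hη : 2 * y₀ + W.a₁ * x₀ + W.a₃ ≠ 0) (hx' : x' ∈ A) :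
    3 * padicValRat p W.c₄ ≤ 4 * padicValRat p (2 * y₀ + W.a₁ * x₀ + W.a₃) := by
  haveI : Fact p.Prime := ⟨hp⟩
  have hu0 : (u : L) ≠ 0 := u.ne_zero
  have hmem := n3sub_eta_mem hint h' hx'
  have hu12 : (u : L) ^ 12 = algebraMap ℚ L (W.c₄ ^ 3) := by
    rw [map_pow, ← hu, ← pow_mul]
  have e : algebraMap ℚ L ((2 * y₀ + W.a₁ * x₀ + W.a₃) ^ 4 / W.c₄ ^ 3) =
      (2 * y' + (n3ecW' (L := L) W u).a₁ * x' + (n3ecW' (L := L) W u).a₃) ^ 4 := by
    rw [map_div₀, ← hu12, map_pow, ← hE]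
    field_simp
  have h1 : algebraMap ℚ L ((2 * y₀ + W.a₁ * x₀ + W.a₃) ^ 4 / W.c₄ ^ 3) ∈ A := by
    rw [e]
    exact pow_mem hmem 4
  rw [n3ec_rat_mem_iff A hp hA, padicValRat.div (pow_ne_zero 4 hη) (pow_ne_zero 3 hc₄),
    padicValRat.pow, padicValRat.pow] at h1
  push_cast at h1
  omega

include hu in
theorem n3ec_non_alpha (hp : p.Prime) (hA : A.LiesOverPrime p) (hc₄ : W.c₄ ≠ 0)
    (hX : (u : L) ^ 2 * x' = algebraMap ℚ L (x₀ + W.b₂ / 12))
    (hxs : x₀ + W.b₂ / 12 ≠ 0) (hx' : x' ∉ A) :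
    2 * padicValRat p (x₀ + W.b₂ / 12) < padicValRat p W.c₄ := by
  haveI : Fact p.Prime := ⟨hp⟩
  have hu0 : (u : L) ≠ 0 := u.ne_zero
  have e : algebraMap ℚ L ((x₀ + W.b₂ / 12) ^ 2 / W.c₄) = x' ^ 2 := by
    rw [map_div₀, map_pow, ← hX, ← hu]
    field_simp
  have h1 : algebraMap ℚ L ((x₀ + W.b₂ / 12) ^ 2 / W.c₄) ∉ A := by
    rw [e]
    exact fun h => hx' (n3ec_mem_of_pow_mem A (by norm_num) h)
  rw [n3ec_rat_not_mem_iff A hp hA, padicValRat.div (pow_ne_zero 2 hxs) hc₄, padicValRat.pow]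
    at h1
  push_cast at h1
  omega

end NonCase

end Point

end Fermat.Agent.S15

end
end ZBZ2S15_012_2

/-! ### bundled: `Fermat.Agent.S15.N3ECDich` -/
section ZBZ2S15_012_3
/-
S15 block N3, piece N3-EC (helper52), part 4: the dichotomy for the multiples of a point of
prime order `p ≥ 5`.

`W / ℚ`, `Q ∈ W(L)` with `p • Q = 0`, `k • Q = (x₀ k, y₀ k)` rational for `1 ≤ k < p`,
`η k = 2 y₀ k + a₁ x₀ k + a₃ ≠ 0`, `v = padicValRat p`:

* `n3ec_dich_int` (`j` integral at `p`) :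
    `(∀ k, v Δ ≤ 4 v (η k)) ∨ (∀ k, 4 v (η k) ≤ v Δ - 2)`;
* `n3ec_dich_non` (`j` not integral at `p`) :
    `(∀ k, 3 v c₄ ≤ 4 v (η k)) ∨ (∀ k, 4 v (η k) ≤ 3 v c₄ - 3)`.
-/

set_option autoImplicit false
set_option linter.style.haveILetI false
set_option linter.unusedSectionVars false

noncomputable section

namespace Fermat.Agent.S15

open WeierstrassCurve WeierstrassCurve.Affine Fermat.Agent.EC Fermat.Agent.S05

section Dich

variable {L : Type*} [Field L] [DecidableEq L] [Algebra ℚ L] [CharZero L]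
  (A : ValuationSubring L) {p : ℕ} (W : WeierstrassCurve ℚ) (u : Lˣ)

/-- the point of the scaled short model corresponding to `Q` -/
def n3ecQ' (Q : (n3ecWL (L := L) W).toAffine.Point) : (n3ecW' (L := L) W u).toAffine.Point :=
  (vcEquiv (n3ecWL (L := L) W) (n3ecC (n3ecWL (L := L) W) u)).symm Q

theorem n3ecQ'_nsmul (Q : (n3ecWL (L := L) W).toAffine.Point) (k : ℕ) :
    k • n3ecQ' W u Q = n3ecQ' W u (k • Q) :=
  (map_nsmul (vcEquiv (n3ecWL (L := L) W) (n3ecC (n3ecWL (L := L) W) u)).symm k Q).symm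

theorem n3ecQ'_zero : n3ecQ' W u (0 : (n3ecWL (L := L) W).toAffine.Point) = 0 :=
  map_zero (vcEquiv (n3ecWL (L := L) W) (n3ecC (n3ecWL (L := L) W) u)).symm

/-- the data of one rational point on the scaled short model -/
theorem n3ec_pt_data {x₀ y₀ : ℚ}
    (h : (n3ecWL (L := L) W).toAffine.Nonsingular (algebraMap ℚ L x₀) (algebraMap ℚ L y₀)) :
    ∃ (x' y' : L) (h' : (n3ecW' (L := L) W u).toAffine.Nonsingular x' y'),
      n3ecQ' W u (Point.some _ _ h) = Point.some x' y' h' ∧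
      (u : L) ^ 2 * x' = algebraMap ℚ L (x₀ + W.b₂ / 12) ∧
      (u : L) ^ 3 * (2 * y' + (n3ecW' (L := L) W u).a₁ * x' + (n3ecW' (L := L) W u).a₃) =
        algebraMap ℚ L (2 * y₀ + W.a₁ * x₀ + W.a₃) := by
  obtain ⟨x', y', h', hQ, hx, hy⟩ :=
    n3ec_symm_some (n3ecWL (L := L) W) (n3ecC (n3ecWL (L := L) W) u) h
  refine ⟨x', y', h', hQ, ?_, ?_⟩
  · have h1 := n3ec_model_X (n3ecWL (L := L) W) u x'
    rw [h1, hx, WeierstrassCurve.map_b₂, map_add, map_div₀]
    congr 2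
    exact (map_ofNat (algebraMap ℚ L) 12).symm
  · have h1 := n3ec_eta_scale (n3ecWL (L := L) W) (n3ecC (n3ecWL (L := L) W) u) x' y'
    rw [n3ecC_u] at h1
    rw [← h1, hx, hy, WeierstrassCurve.map_a₁, WeierstrassCurve.map_a₃, map_add, map_add, map_mul,
      map_mul]
    congr 3
    exact (map_ofNat (algebraMap ℚ L) 2).symm

variable (Q : (n3ecWL (L := L) W).toAffine.Point) (x₀ y₀ : ℕ → ℚ)

/-- **the dichotomy**, `j` integral at `p` -/
theorem n3ec_dich_int (hp : p.Prime) (hp5 : 5 ≤ p) (hA : A.LiesOverPrime p) (hΔ : W.Δ ≠ 0)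
    (hu : (u : L) ^ 12 = algebraMap ℚ L W.Δ)
    (hj : W.c₄ = 0 ∨ padicValRat p W.Δ ≤ 3 * padicValRat p W.c₄)
    (hQ : p • Q = 0)
    (hpt : ∀ k ∈ Finset.Ico 1 p, ∃ h, k • Q =
      Point.some (algebraMap ℚ L (x₀ k)) (algebraMap ℚ L (y₀ k)) h)
    (hη : ∀ k ∈ Finset.Ico 1 p, 2 * y₀ k + W.a₁ * x₀ k + W.a₃ ≠ 0) :
    (∀ k ∈ Finset.Ico 1 p,
        padicValRat p W.Δ ≤ 4 * padicValRat p (2 * y₀ k + W.a₁ * x₀ k + W.a₃)) ∨
      (∀ k ∈ Finset.Ico 1 p,
        4 * padicValRat p (2 * y₀ k + W.a₁ * x₀ k + W.a₃) ≤ padicValRat p W.Δ - 2) := by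
  have hint := n3ec_int_model A W u hu hp hp5 hA hΔ hj
  have hpar := n3ec_parity hp hp5 W.c_relation hΔ hj
  have hQ' : p • n3ecQ' W u Q = 0 := by rw [n3ecQ'_nsmul, hQ, n3ecQ'_zero]
  by_cases hker : n3ecQ' W u Q ∈ n3subKer A _ hint
  · right
    intro k hk
    obtain ⟨h, hkQ⟩ := hpt k hk
    obtain ⟨x', y', h', hQk, hX, hE⟩ := n3ec_pt_data W u h
    have hmem : k • n3ecQ' W u Q ∈ n3subKer A _ hint := n3sub_nsmul_mem hint hker k
    rw [n3ecQ'_nsmul, hkQ, hQk, n3sub_mem_ker_some] at hmem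
    obtain ⟨hxs, h46⟩ := n3ec_pt_alpha A W u hp hp5 hA hint h'.1 hX hE (hη k hk) hmem
    have hlt := n3ec_int_alpha A W u hu hp hA hΔ hX hxs hmem
    omega
  · left
    intro k hk
    obtain ⟨h, hkQ⟩ := hpt k hk
    obtain ⟨x', y', h', hQk, hX, hE⟩ := n3ec_pt_data W u h
    have hkp : ¬ p ∣ k := by
      rw [Finset.mem_Ico] at hk
      exact Nat.not_dvd_of_pos_of_lt (by omega) hk.2
    have hmem : k • n3ecQ' W u Q ∉ n3subKer A _ hint := fun hm =>
      hker (n3sub_mem_of_nsmul_mem hint hp hQ' hkp hm)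
    rw [n3ecQ'_nsmul, hkQ, hQk, n3sub_mem_ker_some, not_not] at hmem
    exact n3ec_int_beta A W u hu hp hA hΔ hint h'.1 hE (hη k hk) hmem

/-- **the dichotomy**, `j` not integral at `p` -/
theorem n3ec_dich_non (hp : p.Prime) (hp5 : 5 ≤ p) (hA : A.LiesOverPrime p) (hΔ : W.Δ ≠ 0)
    (hc₄ : W.c₄ ≠ 0) (hu : (u : L) ^ 4 = algebraMap ℚ L W.c₄)
    (hj : 3 * padicValRat p W.c₄ < padicValRat p W.Δ)
    (hQ : p • Q = 0)
    (hpt : ∀ k ∈ Finset.Ico 1 p, ∃ h, k • Q =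
      Point.some (algebraMap ℚ L (x₀ k)) (algebraMap ℚ L (y₀ k)) h)
    (hη : ∀ k ∈ Finset.Ico 1 p, 2 * y₀ k + W.a₁ * x₀ k + W.a₃ ≠ 0) :
    (∀ k ∈ Finset.Ico 1 p,
        3 * padicValRat p W.c₄ ≤ 4 * padicValRat p (2 * y₀ k + W.a₁ * x₀ k + W.a₃)) ∨
      (∀ k ∈ Finset.Ico 1 p,
        4 * padicValRat p (2 * y₀ k + W.a₁ * x₀ k + W.a₃) ≤ 3 * padicValRat p W.c₄ - 3) := by
  have hint := n3ec_non_model A W u hu hp hp5 hA hΔ hc₄ hj
  have hQ' : p • n3ecQ' W u Q = 0 := by rw [n3ecQ'_nsmul, hQ, n3ecQ'_zero]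
  by_cases hker : n3ecQ' W u Q ∈ n3subKer A _ hint
  · right
    intro k hk
    obtain ⟨h, hkQ⟩ := hpt k hk
    obtain ⟨x', y', h', hQk, hX, hE⟩ := n3ec_pt_data W u h
    have hmem : k • n3ecQ' W u Q ∈ n3subKer A _ hint := n3sub_nsmul_mem hint hker k
    rw [n3ecQ'_nsmul, hkQ, hQk, n3sub_mem_ker_some] at hmem
    obtain ⟨hxs, h46⟩ := n3ec_pt_alpha A W u hp hp5 hA hint h'.1 hX hE (hη k hk) hmem
    have hlt := n3ec_non_alpha A W u hu hp hA hc₄ hX hxs hmem
    omega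
  · left
    intro k hk
    obtain ⟨h, hkQ⟩ := hpt k hk
    obtain ⟨x', y', h', hQk, hX, hE⟩ := n3ec_pt_data W u h
    have hkp : ¬ p ∣ k := by
      rw [Finset.mem_Ico] at hk
      exact Nat.not_dvd_of_pos_of_lt (by omega) hk.2
    have hmem : k • n3ecQ' W u Q ∉ n3subKer A _ hint := fun hm =>
      hker (n3sub_mem_of_nsmul_mem hint hp hQ' hkp hm)
    rw [n3ecQ'_nsmul, hkQ, hQk, n3sub_mem_ker_some, not_not] at hmem
    exact n3ec_non_beta A W u hu hp hA hc₄ hint h'.1 hE (hη k hk) hmem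

end Dich

end Fermat.Agent.S15

end
end ZBZ2S15_012_3

/-! ### bundled: `Fermat.Agent.S15.N3EC` -/
section ZBZ2S15_012_4
/-
S15 block N3, piece N3-EC (helper52): `stmtN3EC : StmtN3EC`.

`W / ℤ`, `Q ∈ W(ℚ̄)` Galois-fixed of prime order `p ≥ 5`, `d ∈ ℚ` with
`d p¹² ∏_{k=1}^{p-1} ψ₂²(x(kQ))² = Δ^{p-1}`.  Then, with `v = v_p`, `V⁺ = max(0, -v(j))`:
`v(d) + 12 ≤ (p-1)V⁺` or `(p-1)V⁺ + 2(p-1) ≤ v(d) + 12`.

Proof: `NOTES/S15-N3.md` (EC): on the short model scaled by `u` (`u¹² = Δ` resp. `u⁴ = c₄`)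
the kernel of reduction at a place `A ∣ p` of `ℚ̄` is a subgroup (N3-SUB, helper8), so either no
multiple `kQ` lies in it (then `η'(kQ) ∈ A`) or all of them do (then `4 v(η) = 6 v(x) < v(u¹²)`,
and the gap comes from `v(x) ∈ 2ℤ` and `v(Δ) ≢ ±1 mod 6`).
-/

set_option autoImplicit false
set_option linter.style.haveILetI false
set_option linter.unusedSectionVars false

noncomputable section

namespace Fermat.Agent.S15

open WeierstrassCurve WeierstrassCurve.Affine Fermat.Agent.EC Fermat.Agent.S05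
open Fermat.Agent.S24 Fermat.Agent.Common

section Aux

theorem n3ec_padicValRat_prod {p : ℕ} [Fact p.Prime] {ι : Type*} (s : Finset ι) (f : ι → ℚ)
    (hf : ∀ i ∈ s, f i ≠ 0) :
    padicValRat p (∏ i ∈ s, f i) = ∑ i ∈ s, padicValRat p (f i) := by
  classical
  induction s using Finset.induction_on with
  | empty => simp
  | insert a s ha ih =>
    rw [Finset.prod_insert ha, Finset.sum_insert ha,
      padicValRat.mul (hf a (Finset.mem_insert_self a s))
        (Finset.prod_ne_zero_iff.mpr fun i hi => hf i (Finset.mem_insert_of_mem hi)),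
      ih fun i hi => hf i (Finset.mem_insert_of_mem hi)]

/-- a Galois-fixed affine point of `W(ℚ̄)` has rational coordinates -/
theorem n3ec_rational (Wq : WeierstrassCurve ℚ) (P : (Wq⁄Kb).Point)
    (hfix : ∀ σ : Kb ≃ₐ[ℚ] Kb, σ • P = P) (hP : P ≠ 0) :
    ∃ (x₀ y₀ : ℚ) (h : (Wq⁄Kb).Nonsingular (algebraMap ℚ Kb x₀) (algebraMap ℚ Kb y₀)),
      P = Point.some _ _ h := by
  rcases P with _ | ⟨x, y, h⟩
  · exact absurd rfl hP
  · have hxy : ∀ σ : Kb ≃ₐ[ℚ] Kb, σ x = x ∧ σ y = y := by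
      intro σ
      have h1 := hfix σ
      rw [galois_smul_some] at h1
      injection h1 with hx hy
      exact ⟨hx, hy⟩
    obtain ⟨x₀, hx₀⟩ := exists_rat_of_fixed x fun σ => (hxy σ).1
    obtain ⟨y₀, hy₀⟩ := exists_rat_of_fixed y fun σ => (hxy σ).2
    subst hx₀
    subst hy₀
    exact ⟨x₀, y₀, h, rfl⟩

/-- `ψ₂² = η²` on the curve -/
theorem n3ec_psi_eq {K : Type*} [Field K] (W : WeierstrassCurve K) {x y : K}
    (h : W.toAffine.Equation x y) :
    n3Psi W x = (2 * y + W.a₁ * x + W.a₃) ^ 2 := by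
  have h1 := (Affine.equation_iff x y).mp h
  simp only [n3Psi, WeierstrassCurve.b₂, WeierstrassCurve.b₄, WeierstrassCurve.b₆]
  linear_combination -4 * h1

end Aux

section Main

/-- **N3-EC**, for a curve over `ℚ`. -/
theorem n3ec_main (p : ℕ) (hp : p.Prime) (hp5 : 5 ≤ p) (Wq : WeierstrassCurve ℚ)
    (hΔq0 : Wq.Δ ≠ 0) (Q : (Wq⁄Kb).Point) (hfix : ∀ σ : Kb ≃ₐ[ℚ] Kb, σ • Q = Q)
    (hord : addOrderOf Q = p) (d : ℚ)
    (hrel : algebraMap ℚ Kb d * (p : Kb) ^ 12 *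
        ∏ k ∈ Finset.Ico 1 p, (n3Psi (Wq.baseChange Kb) (modPtX (k • Q))) ^ 2 =
      algebraMap ℚ Kb Wq.Δ ^ (p - 1)) :
    N3Dich p (Wq.c₄ ^ 3 / Wq.Δ) d := by
  haveI : Fact p.Prime := ⟨hp⟩
  -- the multiples of `Q`
  have hpQ : p • Q = 0 := by rw [← hord]; exact addOrderOf_nsmul_eq_zero Q
  have hkQ : ∀ k ∈ Finset.Ico 1 p, k • Q ≠ 0 := by
    intro k hk h0
    rw [Finset.mem_Ico] at hk
    have h1 : addOrderOf Q ∣ k := addOrderOf_dvd_iff_nsmul_eq_zero.mpr h0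
    rw [hord] at h1
    exact Nat.not_dvd_of_pos_of_lt (by omega) hk.2 h1
  have hfixk : ∀ k : ℕ, ∀ σ : Kb ≃ₐ[ℚ] Kb, σ • (k • Q) = k • Q := by
    intro k σ
    have h1 := map_nsmul (DistribSMul.toAddMonoidHom ((Wq⁄Kb).Point) σ) k Q
    have h2 : σ • (k • Q) = k • (σ • Q) := h1
    rw [h2, hfix σ]
  have hrat : ∀ k, k ∈ Finset.Ico 1 p → ∃ (x₀ y₀ : ℚ)
      (h : (Wq⁄Kb).Nonsingular (algebraMap ℚ Kb x₀) (algebraMap ℚ Kb y₀)),
      k • Q = Point.some _ _ h := fun k hk => n3ec_rational Wq (k • Q) (hfixk k) (hkQ k hk)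
  choose! x₀ y₀ hxy using hrat
  have hpt : ∀ k ∈ Finset.Ico 1 p, ∃ h, k • Q =
      Point.some (algebraMap ℚ Kb (x₀ k)) (algebraMap ℚ Kb (y₀ k)) h := hxy
  -- the relation over `ℚ`
  have hψ : ∀ k ∈ Finset.Ico 1 p,
      (n3Psi (Wq.baseChange Kb) (modPtX (k • Q))) ^ 2 =
        algebraMap ℚ Kb ((2 * y₀ k + Wq.a₁ * x₀ k + Wq.a₃) ^ 4) := by
    intro k hk
    obtain ⟨h, hk'⟩ := hpt k hk
    rw [hk', modPtX_some, n3ec_psi_eq _ h.1]
    have e1 : (Wq.baseChange Kb).a₁ = algebraMap ℚ Kb Wq.a₁ := rfl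
    have e3 : (Wq.baseChange Kb).a₃ = algebraMap ℚ Kb Wq.a₃ := rfl
    rw [e1, e3, map_pow, map_add, map_add, map_mul, map_mul, map_ofNat]
    ring
  have hrelQ : d * (p : ℚ) ^ 12 * ∏ k ∈ Finset.Ico 1 p, (2 * y₀ k + Wq.a₁ * x₀ k + Wq.a₃) ^ 4 =
      Wq.Δ ^ (p - 1) := by
    have h1 := hrel
    rw [Finset.prod_congr rfl hψ] at h1
    apply (algebraMap ℚ Kb).injective
    rw [map_mul, map_mul, map_pow, map_natCast, map_prod, h1, map_pow]
  have hΔpow : Wq.Δ ^ (p - 1) ≠ 0 := pow_ne_zero _ hΔq0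
  have hd0 : d ≠ 0 := by
    intro h
    rw [h, zero_mul, zero_mul] at hrelQ
    exact hΔpow hrelQ.symm
  have hprod0 : ∏ k ∈ Finset.Ico 1 p, (2 * y₀ k + Wq.a₁ * x₀ k + Wq.a₃) ^ 4 ≠ 0 := by
    intro h
    rw [h, mul_zero] at hrelQ
    exact hΔpow hrelQ.symm
  have hη : ∀ k ∈ Finset.Ico 1 p, 2 * y₀ k + Wq.a₁ * x₀ k + Wq.a₃ ≠ 0 := by
    intro k hk h
    apply hprod0
    exact Finset.prod_eq_zero hk (by rw [h]; ring)
  have hp0 : (p : ℚ) ≠ 0 := Nat.cast_ne_zero.mpr hp.ne_zero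
  -- valuations
  have hval : padicValRat p d + 12 +
      ∑ k ∈ Finset.Ico 1 p, 4 * padicValRat p (2 * y₀ k + Wq.a₁ * x₀ k + Wq.a₃) =
      ((p : ℤ) - 1) * padicValRat p Wq.Δ := by
    have h1 := congrArg (padicValRat p) hrelQ
    rw [padicValRat.mul (mul_ne_zero hd0 (pow_ne_zero 12 hp0)) hprod0,
      padicValRat.mul hd0 (pow_ne_zero 12 hp0), padicValRat.pow, padicValRat.self hp.one_lt,
      padicValRat.pow, n3ec_padicValRat_prod _ _ fun k hk => pow_ne_zero 4 (hη k hk)] at h1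
    have h2 : ∀ k ∈ Finset.Ico 1 p,
        padicValRat p ((2 * y₀ k + Wq.a₁ * x₀ k + Wq.a₃) ^ 4) =
          4 * padicValRat p (2 * y₀ k + Wq.a₁ * x₀ k + Wq.a₃) := by
      intro k _
      rw [padicValRat.pow]
      rfl
    rw [Finset.sum_congr rfl h2] at h1
    have h3 : ((p - 1 : ℕ) : ℤ) = (p : ℤ) - 1 := by
      have := hp.one_le
      omega
    rw [h3] at h1
    rw [← h1]
    push_cast
    ring
  have hcard : ((Finset.Ico 1 p).card : ℤ) = (p : ℤ) - 1 := by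
    rw [Nat.card_Ico]
    have := hp.one_le
    omega
  -- `G = ∑ (v Δ - 4 v η)`
  have hG : padicValRat p d + 12 =
      ∑ k ∈ Finset.Ico 1 p,
        (padicValRat p Wq.Δ - 4 * padicValRat p (2 * y₀ k + Wq.a₁ * x₀ k + Wq.a₃)) := by
    rw [Finset.sum_sub_distrib, Finset.sum_const, nsmul_eq_mul, hcard]
    linarith
  obtain ⟨A, hA⟩ := exists_liesOverPrime p hp
  unfold N3Dich
  by_cases hj : Wq.c₄ = 0 ∨ padicValRat p Wq.Δ ≤ 3 * padicValRat p Wq.c₄
  · -- `j` integral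
    have hV : max 0 (-padicValRat p (Wq.c₄ ^ 3 / Wq.Δ)) = 0 := by
      apply max_eq_left
      rcases hj with h0 | hle
      · rw [h0]
        simp
      · by_cases h0 : Wq.c₄ = 0
        · rw [h0]
          simp
        · rw [padicValRat.div (pow_ne_zero 3 h0) hΔq0, padicValRat.pow]
          push_cast
          omega
    rw [hV, mul_zero, zero_add]
    obtain ⟨u₀, hu₀⟩ := IsAlgClosed.exists_pow_nat_eq (algebraMap ℚ Kb Wq.Δ)
      (by norm_num : 0 < 12)
    have hu₀0 : u₀ ≠ 0 := by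
      intro h
      rw [h, zero_pow (by norm_num)] at hu₀
      exact hΔq0 ((map_eq_zero_iff _ (algebraMap ℚ Kb).injective).mp hu₀.symm)
    rcases n3ec_dich_int A Wq (Units.mk0 u₀ hu₀0) Q x₀ y₀ hp hp5 hA hΔq0 hu₀ hj hpQ hpt hη
      with hβ | hα
    · left
      rw [hG]
      refine Finset.sum_nonpos fun k hk => ?_
      have := hβ k hk
      omega
    · right
      rw [hG]
      have h1 : ∑ _k ∈ Finset.Ico 1 p, (2 : ℤ) ≤ ∑ k ∈ Finset.Ico 1 p,
          (padicValRat p Wq.Δ - 4 * padicValRat p (2 * y₀ k + Wq.a₁ * x₀ k + Wq.a₃)) := by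
        refine Finset.sum_le_sum fun k hk => ?_
        have := hα k hk
        omega
      rw [Finset.sum_const, nsmul_eq_mul, hcard] at h1
      linarith
  · -- `j` not integral
    rw [not_or, not_le] at hj
    obtain ⟨hc₄, hlt⟩ := hj
    have hV : max 0 (-padicValRat p (Wq.c₄ ^ 3 / Wq.Δ)) =
        padicValRat p Wq.Δ - 3 * padicValRat p Wq.c₄ := by
      rw [padicValRat.div (pow_ne_zero 3 hc₄) hΔq0, padicValRat.pow]
      push_cast
      rw [max_eq_right (by omega)]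
      ring
    rw [hV]
    obtain ⟨u₀, hu₀⟩ := IsAlgClosed.exists_pow_nat_eq (algebraMap ℚ Kb Wq.c₄)
      (by norm_num : 0 < 4)
    have hu₀0 : u₀ ≠ 0 := by
      intro h
      rw [h, zero_pow (by norm_num)] at hu₀
      exact hc₄ ((map_eq_zero_iff _ (algebraMap ℚ Kb).injective).mp hu₀.symm)
    rcases n3ec_dich_non A Wq (Units.mk0 u₀ hu₀0) Q x₀ y₀ hp hp5 hA hΔq0 hc₄ hu₀ hlt hpQ hpt hη
      with hβ | hα
    · left
      rw [hG]
      have h1 : ∑ k ∈ Finset.Ico 1 p,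
          (padicValRat p Wq.Δ - 4 * padicValRat p (2 * y₀ k + Wq.a₁ * x₀ k + Wq.a₃)) ≤
          ∑ _k ∈ Finset.Ico 1 p, (padicValRat p Wq.Δ - 3 * padicValRat p Wq.c₄) := by
        refine Finset.sum_le_sum fun k hk => ?_
        have := hβ k hk
        omega
      rw [Finset.sum_const, nsmul_eq_mul, hcard] at h1
      exact h1
    · right
      rw [hG]
      have h1 : ∑ _k ∈ Finset.Ico 1 p, (padicValRat p Wq.Δ - 3 * padicValRat p Wq.c₄ + 3) ≤
          ∑ k ∈ Finset.Ico 1 p,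
          (padicValRat p Wq.Δ - 4 * padicValRat p (2 * y₀ k + Wq.a₁ * x₀ k + Wq.a₃)) := by
        refine Finset.sum_le_sum fun k hk => ?_
        have := hα k hk
        omega
      rw [Finset.sum_const, nsmul_eq_mul, hcard] at h1
      have hp1 : (0 : ℤ) ≤ (p : ℤ) - 1 := by
        have := hp.one_le
        omega
      nlinarith

/-- **N3-EC.** -/
theorem stmtN3EC : StmtN3EC := by
  intro p hp hp5 W hΔ Q hfix hord d hrel
  have hΔq : (W.map (Int.castRingHom ℚ)).Δ = (W.Δ : ℚ) := by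
    rw [WeierstrassCurve.map_Δ]
    rfl
  have hc₄q : (W.map (Int.castRingHom ℚ)).c₄ = (W.c₄ : ℚ) := by
    rw [WeierstrassCurve.map_c₄]
    rfl
  have hΔq0 : (W.map (Int.castRingHom ℚ)).Δ ≠ 0 := by
    rw [hΔq]
    exact_mod_cast hΔ
  have hrel' : algebraMap ℚ Kb d * (p : Kb) ^ 12 *
      ∏ k ∈ Finset.Ico 1 p,
        (n3Psi ((W.map (Int.castRingHom ℚ)).baseChange Kb) (modPtX (k • Q))) ^ 2 =
      algebraMap ℚ Kb (W.map (Int.castRingHom ℚ)).Δ ^ (p - 1) := by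
    rw [hΔq, map_intCast]
    exact hrel
  have h := n3ec_main p hp hp5 (W.map (Int.castRingHom ℚ)) hΔq0 Q hfix hord d hrel'
  rw [hΔq, hc₄q] at h
  exact h

end Main

end Fermat.Agent.S15

end
end ZBZ2S15_012_4

/-! ### bundled: `Fermat.Agent.S15.N3Main` -/
section ZBZ2S15_012_5

/-!
# S15 / MOD — `Plan.StmtMod` (v2), unconditional (helper51, captain of the blocks MOD and N3)

`stmtMod : StmtMod` : the rational place `x` of `X₀(p)` attached to `(E, ⟨Q⟩)`, with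
`j(x) = j(E)`, the value `Π₀(x)` of the Fricke product deciding the component of `Q` at the
primes of multiplicative reduction `≠ p`, and the certificate `IsTypeTwo p x` at the level prime.

Pieces: MOD-ADD (helper51), MOD-XI/UNIF/ASM-E (helper13), MOD-TATE/G0/FR-RAT (helper56),
MOD-PLACE/ASM-P/FR-WN (helper8), MOD-RED (helper6), MOD-FRICKE + N3-F (helper71, helper56),
N3-SUB (helper8), N3-EQ (helper80), N3-EC (helper52), N3-ASM (helper51); design of N3: helper17,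
helper25.
-/

set_option autoImplicit false

namespace Fermat.Agent.S15

/-- **MOD** (the interface Prop `StmtMod` of `S15/Plan.lean`, version 2), unconditional. -/
theorem stmtMod : StmtMod := stmtMod_of_n3F_EC stmtN3F stmtN3EC

end Fermat.Agent.S15


end ZBZ2S15_012_5
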