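/- GENERATED FILE (helper35, build-time optimisation, NOTES/ZB.md): verbatim concatenation of the modules
   Fermat.Agent.S15.RedLdPkg
   Fermat.Agent.S15.LocDiv
   Fermat.Agent.S15.LocDivFinal
   Do not edit; do not import together with these modules. -/
import Fermat.Agent.ZB.Z2S15_002
import Fermat.Agent.ZB.INJ_034
import Fermat.Agent.ZB.Z2S15_005

/-! ### bundled: `Fermat.Agent.S15.RedLdPkg` -/
section ZBZ2S15_018_0

/-!
# S15 block RED — the package for LOCDIV: `s15red_stmtLdPkg : StmtLdPkg`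
-/

set_option autoImplicit false
set_option synthInstance.maxHeartbeats 400000
set_option maxHeartbeats 1600000

open ModularCurve AlgebraicCurve

namespace Fermat.Agent.S15

open Fermat.Agent.S24 Fermat.Agent.ES.M Fermat.Agent.W1 Fermat.Agent.DEU

/-- a natural number which is a unit of `A ∣ ℓ` is prime to `ℓ` -/
theorem s15red_not_dvd_of_unit {A : ValuationSubring Kb} {ℓ : ℕ} (hA : A.LiesOverPrime ℓ)
    {m : ℕ} (hm : (m : Kb) ∉ A.nonunits) : ¬ ℓ ∣ m := by
  rintro ⟨c, rfl⟩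
  apply hm
  have hℓ : (ℓ : Kb) ∈ A.nonunits := hA
  have hc : ((c : ℕ) : Kb) ∈ A := natCast_mem A c
  rw [Nat.cast_mul]
  rw [ValuationSubring.mem_nonunits_iff_exists_mem_maximalIdeal] at hℓ ⊢
  obtain ⟨hℓA, hℓm⟩ := hℓ
  refine ⟨A.mul_mem _ _ hℓA hc, ?_⟩
  have : (⟨(ℓ : Kb) * (c : Kb), A.mul_mem _ _ hℓA hc⟩ : A) = ⟨(ℓ : Kb), hℓA⟩ * ⟨(c : Kb), hc⟩ :=
    rfl
  rw [this]
  exact Ideal.mul_mem_right _ _ hℓm

/-- **the package for LOCDIV** -/
theorem s15red_stmtLdPkg : StmtLdPkg := by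
  intro N _ ℓ hℓ hℓN hcase A hA
  obtain ⟨r, sp, Pinf, Qinf, h⟩ := s15red_exists_pkg N ℓ hℓ hℓN hcase A hA
  refine ⟨gN N, modPRData N A (stmtRedF N A ℓ hℓ hℓN hA) r, ?_⟩
  exact
    { modPR := h.modPR
      mem_iff := fun _ => Iff.rfl
      red_spec := fun x =>
        (deuValRed_iff N A (stmtRedF N A ℓ hℓ hℓN hA) (x : FF N) _).mpr ⟨x.2, rfl⟩
      tf := fun m hm y hy hmy =>
        h.s18 m (s15red_not_dvd_of_unit hA hm) y hmy ((h.sp_eq_zero_iff y).mpr hy) }

end Fermat.Agent.S15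


end ZBZ2S15_018_0

/-! ### bundled: `Fermat.Agent.S15.LocDiv` -/
section ZBZ2S15_018_1

/-!
# S15 / LOCDIV: `StmtLocDiv` from the Fricke product

`stmtLocDiv_of : StmtModFricke → StmtModFricke0 → StmtLocDiv`  (the package `StmtLdPkg` is
unconditional: `s15red_stmtLdPkg`, helper89).

For `A ∣ v ≠ p` and a prime `r ≠ v` choose `ℓ' ∈ {2, 3}` with `v ∤ p ℓ'`, `(5 − v) ∣ p ℓ'` if
`v < 5`, `r ∤ ℓ' + 1`, and a package `R` of `X₀(p ℓ')` at `A`.  The detecting function is the Fricke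
product `Π₀` (a unit at the cusp `∞`, zero at the cusp `0`, poles over `j = 1728`).

* `Π₀(x)` a unit: `ld_case` with the coordinate `t = j` at `P₀ = ∞`;
* `Π₀(x)` a non-unit: `ld_bridge` gives `j_p(x) ∉ A`, then `ld_case` with `t = j_p` at `P₀ = 0`.
-/

set_option autoImplicit false
set_option linter.unusedSectionVars false
set_option linter.style.haveILetI false
set_option synthInstance.maxHeartbeats 400000
set_option maxHeartbeats 1600000

noncomputable section

namespace Fermat.Agent.S15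

open ModularCurve AlgebraicCurve
open Fermat.Agent.S24 Fermat.Agent.ES Fermat.Agent.ES.M Fermat.Agent.W1 Fermat.Agent.S15.LD

/-- **LOCDIV** from the package and the Fricke product. -/
theorem stmtLocDiv_of_pkg (hPkg : StmtLdPkg) (hF : StmtModFricke) (hF0 : StmtModFricke0) :
    StmtLocDiv := by
  intro p _ hML v hv hvp r hr hrv A hA x a c hx ha hc
  have hp : p.Prime := hML.1
  have hp2 : p ≠ 2 := fun h => hML.2 (by rw [h]; decide)
  have hp3 : p ≠ 3 := fun h => hML.2 (by rw [h]; decide)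
  obtain ⟨ℓ', hℓ', hℓ'p, hvN, hcase, hrn⟩ := lda_exists_level hp hp2 hp3 hv hvp hr hrv
  haveI : NeZero ℓ' := ⟨hℓ'.ne_zero⟩
  obtain ⟨g, R, hP⟩ := hPkg (p * ℓ') v hv hvN hcase A hA
  -- the Fricke product
  obtain ⟨f, hfF, -⟩ := hF p hp 0
  obtain ⟨⟨Y, hY, hYint, hY0⟩, hfpoles, hfzero⟩ := hF0 p hp f hfF
  have hxc : HasValueAt x f (algebraMap ℚ Kb c) := hx.val_pi f hfF
  have hfinf : HasValueAt (cuspInf p) f (algebraMap ℚ Kb (PowerSeries.coeff 0 Y)) :=
    ldc_hv_cuspInf p f Y hY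
  obtain ⟨-, hc₀⟩ := lda_unit_of_sq hv hA hp hvp (PowerSeries.coeff 0 Y) hY0
  have hf0 : HasValueAt (cuspZero p) f 0 := ld_hv_zero_of_ord_pos _ hfzero
  have hfmem : ldφ p ℓ' f ∈ R.O := by
    refine ldnc_mem_of_int hP (ldφ p ℓ' f) Y ?_ (fun n => lda_int_mem hv hA hp hvp _ (hYint n))
    rw [ldφ_coe, hY]
  have h1728 : ((1728 : ℕ) : Kb) ∈ A := by
    rw [← map_natCast (algebraMap ℤ Kb)]
    simpa using A.toSubring.natCast_mem 1728
  have hpoles_f : ∀ P : Place Kb (FF p), P.ord f < 0 →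
      ∃ a₀ : A, HasValueAt P (jF p) (a₀ : Kb) := by
    intro P hP'
    refine ⟨⟨((1728 : ℕ) : Kb), h1728⟩, ?_⟩
    have := hfpoles P hP'
    simpa using this
  constructor
  · -- the cusp `0`
    intro hcnon u hu
    obtain ⟨b, hb, hbA⟩ := ld_bridge hp hℓ' hℓ'p hv hA hvN hP f hfmem x _ _ _ ha hx.val_j hxc
      hcnon hpoles_f hfinf hc₀ hf0
    refine ld_case hℓ' hℓ'p hv hA hvN hP hr hrv hrn (jdF p p dvd_rfl) f (cuspZero p) x b
      (algebraMap ℚ Kb c) ?_ (fun σ => galAct_smul_cuspZero σ) (fun σ _ => hx.fixed σ) ?_ hfmem hbA hb hxc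
      (fun P h => ld_pole_jdF P p dvd_rfl h) hpoles_f ?_ u hu
    · rw [cuspZero_ord_jdF, Nat.div_self hp.pos]
      rfl
    · rw [ldφ_jdF]
      exact ldnc_mem_jdF hP p (dvd_mul_right p ℓ')
    · intro P hP' hne
      rcases ogg_pole_cases p hp P (ld_pole_jdF P p dvd_rfl hP') with h | h
      · refine ⟨_, h ▸ hfinf, fun hiff => hc₀ (hiff.mpr hcnon)⟩
      · exact absurd h hne
  · -- the cusp `∞`
    intro hcunit z hz
    refine ld_case hℓ' hℓ'p hv hA hvN hP hr hrv hrn (jF p) f (cuspInf p) x (algebraMap ℚ Kb a)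
      (algebraMap ℚ Kb c) (cuspInf_ord_jF p) (fun σ => galAct_smul_cuspInf σ) (fun σ _ => hx.fixed σ) ?_
      hfmem ha hx.val_j hxc (fun P h => h) hpoles_f ?_ z hz
    · rw [ldφ_jF]
      exact hP.modPR.good.1
    · intro P hP' hne
      rcases ogg_pole_cases p hp P hP' with h | h
      · exact absurd h hne
      · refine ⟨0, h ▸ hf0, fun hiff => hcunit (hiff.mp (ge_zero_mem_nonunits _))⟩

/-- **LOCDIV**, with the package of helper89. -/
theorem stmtLocDiv_of (hF : StmtModFricke) (hF0 : StmtModFricke0) : StmtLocDiv :=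
  stmtLocDiv_of_pkg s15red_stmtLdPkg hF hF0

end Fermat.Agent.S15

end
end ZBZ2S15_018_1

/-! ### bundled: `Fermat.Agent.S15.LocDivFinal` -/
section ZBZ2S15_018_2

/-!
# S15 / LOCDIV, final: `stmtLocDiv : StmtLocDiv` (unconditional)

`StmtLocDiv` (`Plan.lean`): for a Mazur level `p`, `A ∣ v ≠ p`, a prime `r ≠ v` and a rational place
`x` of `X₀(p)` with `j(x) ∉ A`, `Π₀(x) ∈ A`: the class `[(x) − (0)]` (if `Π₀(x)` is a non-unit) resp.
`[(x) − (∞)]` (if `Π₀(x)` is a unit) is infinitely `r`-divisible among the `D_A`-fixed points of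
`J₀(p)`.

Inputs: `stmtLocDiv_of` (helper94, with helper49's `LocDivNC/Cusp/Aux`), the reduction package
`s15red_stmtLdPkg` (helper89), DIV¹ (`stmtDiv1`, helper94 + helper24) and the Fricke product
`stmtModFricke`, `stmtModFricke0` (helper71).
-/

set_option autoImplicit false

namespace Fermat.Agent.S15

/-- **LOCDIV.** -/
theorem stmtLocDiv : StmtLocDiv := stmtLocDiv_of stmtModFricke stmtModFricke0

end Fermat.Agent.S15


end ZBZ2S15_018_2
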