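/- GENERATED FILE (helper35, build-time optimisation, NOTES/ZB.md): verbatim concatenation of the modules
   Fermat.Agent.S08
   Fermat.Agent.S15.PkgNice
   Do not edit; do not import together with these modules. -/
import Fermat.Statements.S08
import Fermat.Prelude.Thm_ModularForm_sturm_bound_Gamma0
import Fermat.Prelude.Thm_CongruenceSubgroup_one_mem_strictPeriods_Gamma0
import Fermat.Agent.ZB.W1_002
import Fermat.Agent.ZB.DEU_005
import Fermat.Agent.ZB.Common_001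

/-! ### bundled: `Fermat.Agent.S08` -/
section ZBZ2S08_001_0

set_option autoImplicit false
open WeierstrassCurve WeierstrassCurve.Affine WeierstrassCurve.Affine.Point
open CuspForm ModularFormClass UpperHalfPlane

namespace Fermat.Agent.S08

theorem result (f : CuspForm (CongruenceSubgroup.Gamma0 1) 2) : f = 0 := by
  have htop : CongruenceSubgroup.Gamma0 1 = ⊤ := by
    ext x
    simp only [CongruenceSubgroup.Gamma0_mem, Subgroup.mem_top, iff_true]
    exact Subsingleton.elim _ _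
  have hidx : (CongruenceSubgroup.Gamma0 1).index = 1 := by
    rw [htop]; exact Subgroup.index_top
  have hg : (CuspForm.toModularFormₗ f) = 0 := by
    apply ModularForm.sturm_bound_Gamma0 1
    intro n hn
    rw [hidx] at hn
    have hn0 : n = 0 := by
      have : ((2 : ℤ) * ((1 : ℕ) : ℤ)).toNat / 12 = 0 := by norm_num
      omega
    subst hn0
    exact CuspFormClass.qExpansion_coeff_zero (k := 2)
      (Γ := Subgroup.map (Matrix.SpecialLinearGroup.mapGL ℝ) (CongruenceSubgroup.Gamma0 1))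
      f one_pos (CongruenceSubgroup.one_mem_strictPeriods_Gamma0 1)
  exact CuspForm.toModularFormₗ_injective (by rw [hg, _root_.map_zero])

end Fermat.Agent.S08


end ZBZ2S08_001_0

/-! ### bundled: `Fermat.Agent.S15.PkgNice` -/
section ZBZ2S08_001_1

/-!
# S15 / LN-PKG, piece PKG-nice: `stmtPkgNice : StmtPkgNice` (helper10)

* `pkgnice_FF` : `IsNiceCurve ℚ̄ (FF N) (gN N)` for EVERY level `N` (reduction at a prime
  `ℓ ≥ 5`, `ℓ ∤ N`; Deuring's dimension count `DEU.deuAnchor_hyp`);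
* `pkgnice_k` : `IsNiceCurve k (FFk A) 0` for `A` over a prime `ℓ ≥ 5` (level `1`, `gN 1 = 0` by
  S08).
-/

set_option autoImplicit false
set_option linter.unusedSectionVars false
set_option linter.unusedVariables false
set_option linter.style.haveILetI false
set_option synthInstance.maxHeartbeats 400000
set_option maxHeartbeats 1600000

open ModularCurve AlgebraicCurve HahnSeries Module

namespace Fermat.Agent.S15.LN

open Fermat.Agent.ES Fermat.Agent.S24 Fermat.Agent.ES.M Fermat.Agent.W1 Fermat.Agent.DEU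

/-- the genus of `X₀(1)` is `0` -/
theorem pkgnice_gN_one : gN 1 = 0 := by
  unfold gN
  haveI : Subsingleton (CuspForm (CongruenceSubgroup.Gamma0 1) 2) :=
    ⟨fun f g => by rw [Fermat.Agent.S08.result f, Fermat.Agent.S08.result g]⟩
  exact Module.finrank_zero_of_subsingleton

/-- `IsNiceCurve` for the generic fibre, from the reduction at `A'` over `ℓ ≥ 5`, `ℓ ∤ N` -/
theorem pkgnice_FF_of (N : ℕ) [NeZero N] (ℓ : ℕ) (hℓ : ℓ.Prime) (h5 : 5 ≤ ℓ) (hℓN : ¬ ℓ ∣ N)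
    (A' : ValuationSubring Kb) (hA' : A'.LiesOverPrime ℓ) : IsNiceCurve Kb (FF N) (gN N) := by
  have hRedF : StmtRedF N A' := stmtRedF N A' ℓ hℓ hℓN hA'
  obtain ⟨Pinf, Qinf, n₀, -, hQ, H⟩ := deuAnchor_hyp N A' hRedF
    (Fermat.Agent.ES.LR.stmtLRa N ℓ hℓ A' hA')
    (Fermat.Agent.ES.I2.stmtI2All N ℓ hℓ h5 hℓN A' hA') (Fermat.Agent.ES.R.stmtR N)
    (modHyp_hresk N A') (modHyp_hpdk N A' hℓ hA')
  exact modPR_nice H

/-- the reduction at `A` over `ℓ ≥ 5`, `ℓ ∤ N`, is a nice curve of genus `gN N` -/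
theorem pkgnice_k_of (N : ℕ) [NeZero N] (ℓ : ℕ) (hℓ : ℓ.Prime) (h5 : 5 ≤ ℓ) (hℓN : ¬ ℓ ∣ N)
    (A : ValuationSubring Kb) (hA : A.LiesOverPrime ℓ) :
    IsNiceCurve (kA A) ↥(modularFunctionFieldFullC (kA A) N) (gN N) := by
  have hRedF : StmtRedF N A := stmtRedF N A ℓ hℓ hℓN hA
  obtain ⟨Pinf, Qinf, n₀, -, hQ, H⟩ := deuAnchor_hyp N A hRedF
    (Fermat.Agent.ES.LR.stmtLRa N ℓ hℓ A hA)
    (Fermat.Agent.ES.I2.stmtI2All N ℓ hℓ h5 hℓN A hA) (Fermat.Agent.ES.R.stmtR N)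
    (modHyp_hresk N A) (modHyp_hpdk N A hℓ hA)
  exact modPR_nice_k H hQ

/-- **the generic fibre**: `IsNiceCurve ℚ̄ (FF N) (gN N)`, every level -/
theorem pkgnice_FF (N : ℕ) [NeZero N] : IsNiceCurve Kb (FF N) (gN N) := by
  obtain ⟨ℓ, hℓ5, hℓ⟩ := Nat.exists_infinite_primes (max 5 (N + 1))
  have h5 : 5 ≤ ℓ := le_trans (le_max_left _ _) hℓ5
  have hN : N < ℓ := lt_of_lt_of_le (Nat.lt_succ_self N) (le_trans (le_max_right _ _) hℓ5)
  have hℓN : ¬ ℓ ∣ N := fun h =>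
    absurd (Nat.le_of_dvd (Nat.pos_of_ne_zero (NeZero.ne N)) h) (not_le.2 hN)
  obtain ⟨A', hA'⟩ := Fermat.Agent.Common.exists_liesOverPrime ℓ hℓ
  exact pkgnice_FF_of N ℓ hℓ h5 hℓN A' hA'

/-- **the components**: `k(j̄)` is a nice curve of genus `0` -/
theorem pkgnice_k (ℓ : ℕ) (hℓ : ℓ.Prime) (h5 : 5 ≤ ℓ) (A : ValuationSubring Kb)
    (hA : A.LiesOverPrime ℓ) : IsNiceCurve (kA A) (FFk A) 0 := by
  have h1 : ¬ ℓ ∣ 1 := fun h => hℓ.one_lt.ne' (Nat.dvd_one.1 h)
  have h := pkgnice_k_of 1 ℓ hℓ h5 h1 A hA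
  rwa [pkgnice_gN_one] at h

/-- **PKG-nice** -/
theorem stmtPkgNice : StmtPkgNice := fun N _ hN h5 A hA =>
  ⟨pkgnice_FF N, pkgnice_k N hN h5 A hA⟩

end Fermat.Agent.S15.LN


end ZBZ2S08_001_1
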