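/- GENERATED FILE (helper35, build-time optimisation, NOTES/ZB.md): verbatim concatenation of the modules
   Fermat.Agent.S15.PkgInertia
   Do not edit; do not import together with these modules. -/
import Fermat.Agent.ZB.W1_002
import Fermat.Agent.ZB.ES_002

/-! ### bundled: `Fermat.Agent.S15.PkgInertia` -/
section ZBZ2S15_023_0

/-!
# S15 block LOCAL-N, wall LN-PKG, piece PKG-gal (INERTIA only)  (helper94)

`stmtPkgInertia : StmtPkgInertia`: for `N` a prime, `A ⊂ ℚ̄` a valuation ring, `σ` in the inertia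
group of `A` and `P` a place of `F_N`:  `pkgR N A (galAct N σ • P) = pkgR N A P`.

Proof: `oggU = Δ(Nτ)/Δ(τ)`, `j` and `1/j` have rational `q`-expansions, so they are fixed by
`galAct N σ`; hence `f(P) = a ⇒ f(σP) = σ(a)`; for `σ` in the decomposition group `σ(a) ∈ A`,
for `σ` in the inertia group `res σ(a) = res a`.  So `PkgRel₁ N A (σ P) = PkgRel₁ N A P` as
predicates; the Fricke involution commutes with `galAct` (`fricke_galAct`), so the same holds
for `w_N • P`; and `pkgR` depends on `P` only through these two predicates.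

No hypothesis on `N` or `A` is needed (the statement keeps them to have the shape of the plan).
-/

set_option autoImplicit false
set_option linter.unusedSectionVars false

noncomputable section

open AlgebraicCurve Module ModularCurve

namespace Fermat.Agent.S15.LN

open Fermat.Agent.W1 Fermat.Agent.S24 Fermat.Agent.S15 Fermat.Agent.ES.M Fermat.Agent.DEU
  Fermat.Agent.INJ Fermat.Agent.ES

variable {N : ℕ} [NeZero N] {A : ValuationSubring Kb}

/-- the modular unit `Δ(Nτ)/Δ(τ)` has rational coefficients -/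
theorem pkgin_galAct_oggU (σ : Kb ≃ₐ[ℚ] Kb) : galAct N σ • oggU N = oggU N := by
  apply Subtype.ext
  rw [coe_galAct_smul, coe_oggU]
  exact Fermat.Agent.S28.coeffMap_uS (R := Kb) (p := N) (σ : Kb →+* Kb)

theorem pkgin_galAct_jF (σ : Kb ≃ₐ[ℚ] Kb) : galAct N σ • jF N = jF N := by
  have := galAct_jdF (N := N) σ 1 (one_dvd N)
  rwa [jdF_one] at this

theorem pkgin_galAct_jF_inv (σ : Kb ≃ₐ[ℚ] Kb) : galAct N σ • (jF N)⁻¹ = (jF N)⁻¹ := by
  rw [smul_inv'', pkgin_galAct_jF]

/-- `f(P) = c ⇒ (σ f)(σ P) = σ c` -/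
theorem pkgin_hv_galAct (σ : Kb ≃ₐ[ℚ] Kb) {P : Place Kb (FF N)} {f : FF N} {c : Kb}
    (h : HasValueAt P f c) : HasValueAt (galAct N σ • P) (galAct N σ • f) (σ c) := by
  show galAct N σ • f - algebraMap Kb (FF N) (σ c) ∈ (galAct N σ • P).toValuationSubring.nonunits
  have e : galAct N σ • f - algebraMap Kb (FF N) (σ c) =
      galAct N σ • (f - algebraMap Kb (FF N) c) := by
    rw [smul_sub, galAct_algebraMap]
  rw [e]
  rcases eq_or_ne (f - algebraMap Kb (FF N) c) 0 with h0 | h0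
  · rw [h0, smul_zero]
    exact (galAct N σ • P).toValuationSubring.nonunits.zero_mem
  · rw [← PlaceAux.ord_pos_iff_mem_nonunits _ (galAct_smul_ne_zero σ h0),
      SemilinearAut.ord_smul]
    exact (PlaceAux.ord_pos_iff_mem_nonunits P h0).2 h

theorem pkgin_hv_galAct_fixed (σ : Kb ≃ₐ[ℚ] Kb) {P : Place Kb (FF N)} {f : FF N} {c : Kb}
    (hf : galAct N σ • f = f) (h : HasValueAt P f c) : HasValueAt (galAct N σ • P) f (σ c) := by
  have := pkgin_hv_galAct σ h
  rwa [hf] at this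

/-- the Fricke involution commutes with the Galois action on the places -/
theorem pkgin_fricke_galAct_place (σ : Kb ≃ₐ[ℚ] Kb) (P : Place Kb (FF N)) :
    frickeAut N • (galAct N σ • P) = galAct N σ • (frickeAut N • P) := by
  apply place_ext_ord
  intro f _
  rw [fr_ord_frickeAut, galAct_ord_smul, galAct_ord_smul, fr_ord_frickeAut, galAct_inv,
    fricke_galAct]

theorem pkgin_inv_smul_smul (σ : Kb ≃ₐ[ℚ] Kb) (P : Place Kb (FF N)) :
    galAct N σ⁻¹ • (galAct N σ • P) = P := by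
  rw [← galAct_inv, inv_smul_smul]

/-- the decomposition group preserves the type -/
theorem pkgin_type₁ {σ : Kb ≃ₐ[ℚ] Kb} (hσ : σ ∈ A.decompositionSubgroup ℚ)
    {P : Place Kb (FF N)} (h : PkgType₁ N A P) : PkgType₁ N A (galAct N σ • P) := by
  obtain ⟨a, ha, hv⟩ := h
  exact ⟨σ a, (kronDecompHom σ hσ ⟨a, ha⟩).2, pkgin_hv_galAct_fixed σ (pkgin_galAct_oggU σ) hv⟩

/-- the inertia group preserves the reduction of a place of type 1 -/
theorem pkgin_rel₁ {σ : Kb ≃ₐ[ℚ] Kb} (hσ : σ ∈ A.inertiaSubgroupIn ℚ)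
    {P : Place Kb (FF N)} {Q : Place (kA A) (FFk A)} (h : PkgRel₁ N A P Q) :
    PkgRel₁ N A (galAct N σ • P) Q := by
  have hd : σ ∈ A.decompositionSubgroup ℚ := kron_mem_decomposition_of_mem_inertia hσ
  obtain ⟨h1, h2⟩ := h
  refine ⟨pkgin_type₁ hd h1, ?_⟩
  rcases h2 with ⟨a, ha, hQ⟩ | ⟨a, ha, hQ⟩
  · refine Or.inl ⟨kronDecompHom σ hd a, ?_, ?_⟩
    · rw [kronDecompHom_coe]
      exact pkgin_hv_galAct_fixed σ (pkgin_galAct_jF σ) ha
    · rw [kron_residue_inertia hσ a]
      exact hQ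
  · refine Or.inr ⟨kronDecompHom σ hd a, ?_, ?_⟩
    · rw [kronDecompHom_coe]
      exact pkgin_hv_galAct_fixed σ (pkgin_galAct_jF_inv σ) ha
    · rw [kron_residue_inertia hσ a]
      exact hQ

theorem pkgin_rel₁_eq {σ : Kb ≃ₐ[ℚ] Kb} (hσ : σ ∈ A.inertiaSubgroupIn ℚ)
    (P : Place Kb (FF N)) : PkgRel₁ N A (galAct N σ • P) = PkgRel₁ N A P := by
  funext Q
  apply propext
  refine ⟨fun h => ?_, fun h => pkgin_rel₁ hσ h⟩
  have := pkgin_rel₁ ((A.inertiaSubgroupIn ℚ).inv_mem hσ) h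
  rwa [pkgin_inv_smul_smul] at this

open Classical in
/-- the shape of the definition of `pkgR` -/
def pkginSel {α : Type*} (p q : α → Prop) : Option (α ⊕ α) :=
  if h : ∃ Q, p Q then some (Sum.inl h.choose)
  else if h : ∃ Q, q Q then some (Sum.inr h.choose)
  else none

theorem pkgin_pkgR_eq (P : Place Kb (FF N)) :
    pkgR N A P = pkginSel (PkgRel₁ N A P) (PkgRel₁ N A (frickeAut N • P)) := rfl

/-- `pkgR` depends on the place only through the two predicates `PkgRel₁` -/
theorem pkgin_pkgR_congr {P P' : Place Kb (FF N)} (h1 : PkgRel₁ N A P = PkgRel₁ N A P')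
    (h2 : PkgRel₁ N A (frickeAut N • P) = PkgRel₁ N A (frickeAut N • P')) :
    pkgR N A P = pkgR N A P' := by
  rw [pkgin_pkgR_eq, pkgin_pkgR_eq, h1, h2]

/-- **PKG-gal, inertia**: the inertia group does not move the reduction of a place. -/
theorem pkgin_main {σ : Kb ≃ₐ[ℚ] Kb} (hσ : σ ∈ A.inertiaSubgroupIn ℚ) (P : Place Kb (FF N)) :
    pkgR N A (galAct N σ • P) = pkgR N A P := by
  apply pkgin_pkgR_congr (pkgin_rel₁_eq hσ P)
  rw [pkgin_fricke_galAct_place, pkgin_rel₁_eq hσ]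

/-- the statement of the piece PKG-gal (inertia only), in the shape of `PlanPKG.lean` -/
def StmtPkgInertia : Prop :=
  ∀ (N : ℕ) [NeZero N], N.Prime → 5 ≤ N → ∀ A : ValuationSubring Kb, A.LiesOverPrime N →
    ∀ σ ∈ A.inertiaSubgroupIn ℚ, ∀ P : Place Kb (FF N),
      pkgR N A (galAct N σ • P) = pkgR N A P

/-- **PKG-gal (inertia)**, unconditional -/
theorem stmtPkgInertia : StmtPkgInertia := fun _ _ _ _ _ _ _ hσ P => pkgin_main hσ P

end Fermat.Agent.S15.LN

end
end ZBZ2S15_023_0
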