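/- GENERATED FILE (helper35, build-time optimisation, NOTES/ZB.md): verbatim concatenation of the modules
   Fermat.Agent.S15.LNGoursat
   Fermat.Agent.S15.PkgCardDim
   Fermat.Agent.S15.PkgCardGoursat
   Fermat.Agent.S15.PkgCardFinal
   Fermat.Agent.S15.PkgCardTop
   Fermat.Agent.S15.PkgCrossFinal
   Fermat.Agent.S15.PkgGlueFinal
   Fermat.Agent.S15.PkgWire
   Do not edit; do not import together with these modules. -/
import Mathlib
import Fermat.Agent.ZB.Z2S15_005
import Fermat.Agent.ZB.Z2S15_026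
import Fermat.Agent.ZB.Z2S15_024
import Fermat.Agent.ZB.ES_003
import Fermat.Agent.ZB.DEU_005
import Fermat.Agent.ZB.ES_002
import Fermat.Agent.ZB.Z2S15_028
import Fermat.Agent.ZB.Z2S08_001
import Fermat.Agent.ZB.Z2S15_025

/-! ### bundled: `Fermat.Agent.S15.LNGoursat` -/
section ZBZ2S15_027_0

/-!
# S15 / LOCAL-N, piece PKG-card (abstract core): Goursat for the two-component reduction

`k` an algebraically closed field, `q ≥ 2` with `q = 0` in `k`, `R ⊂ k[X] × k[X]` a subalgebra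
containing `(X, X ^ q)` and `(X ^ q, X)` (the reductions of `j` and `j_N` on the two components of
the special fibre of `X₀(N)` at `N = q`).

* `lngo_goursat` : there is a finite set `S` of roots of `X ^ (q ^ 2) - X` with
  `R = {(f₁, f₂) | ∀ s ∈ S, f₁ (s) = f₂ (s ^ q)}`: the two affine lines are glued along `S`
  by `s ↦ s ^ q`, and the crossings are ordinary (the gluing ring is reduced).
* `lngo_finrank_glued` : the glued pairs of degrees `≤ a`, `≤ b` form a space of dimension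
  `a + b + 2 - #S` (if `#S ≤ a + 1`).
* `lngo_card` : if `R ∩ (P_a × P_b)` has dimension `a + b + 1 - g` then `#S = g + 1`.
-/

set_option autoImplicit false

open Polynomial

namespace Fermat.Agent.S15.LN

section Goursat

variable {k : Type*} [Field k]

theorem lngo_aeval_pair (u v g : k[X]) :
    aeval ((u, v) : k[X] × k[X]) g = (g.comp u, g.comp v) := by
  apply Prod.ext
  · have := aeval_algHom_apply (AlgHom.fst k k[X] k[X]) ((u, v) : k[X] × k[X]) g
    rw [comp_eq_aeval]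
    exact this.symm
  · have := aeval_algHom_apply (AlgHom.snd k k[X] k[X]) ((u, v) : k[X] × k[X]) g
    rw [comp_eq_aeval]
    exact this.symm

theorem lngo_aeval_mem (R : Subalgebra k (k[X] × k[X])) {x : k[X] × k[X]} (hx : x ∈ R)
    (g : k[X]) : aeval x g ∈ R :=
  (Algebra.adjoin_le (Set.singleton_subset_iff.mpr hx)) (aeval_mem_adjoin_singleton k x)

/-- `(g, g (X ^ q)) ∈ R` -/
theorem lngo_fst_mem (R : Subalgebra k (k[X] × k[X])) (q : ℕ)
    (ha : ((X, X ^ q) : k[X] × k[X]) ∈ R) (g : k[X]) :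
    ((g, g.comp (X ^ q)) : k[X] × k[X]) ∈ R := by
  have h := lngo_aeval_mem R ha g
  rwa [lngo_aeval_pair, comp_X] at h

/-- `(g (X ^ q), g) ∈ R` -/
theorem lngo_snd_mem (R : Subalgebra k (k[X] × k[X])) (q : ℕ)
    (hb : ((X ^ q, X) : k[X] × k[X]) ∈ R) (g : k[X]) :
    ((g.comp (X ^ q), g) : k[X] × k[X]) ∈ R := by
  have h := lngo_aeval_mem R hb g
  rwa [lngo_aeval_pair, comp_X] at h

/-- the ideal `I₁ = {f | (f, 0) ∈ R}` -/
def lngoIdeal (R : Subalgebra k (k[X] × k[X])) (q : ℕ)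
    (ha : ((X, X ^ q) : k[X] × k[X]) ∈ R) : Ideal k[X] where
  carrier := {f | ((f, 0) : k[X] × k[X]) ∈ R}
  add_mem' := by
    intro f g hf hg
    have := R.add_mem hf hg
    rwa [Prod.mk_add_mk, add_zero] at this
  zero_mem' := R.zero_mem
  smul_mem' := by
    intro g f hf
    have := R.mul_mem (lngo_fst_mem R q ha g) hf
    rwa [Prod.mk_mul_mk, mul_zero] at this

theorem lngo_mem_ideal (R : Subalgebra k (k[X] × k[X])) (q : ℕ)
    (ha : ((X, X ^ q) : k[X] × k[X]) ∈ R) (f : k[X]) :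
    f ∈ lngoIdeal R q ha ↔ ((f, 0) : k[X] × k[X]) ∈ R := Iff.rfl

/-- membership in `R` through the ideal `I₁` -/
theorem lngo_mem_iff (R : Subalgebra k (k[X] × k[X])) (q : ℕ)
    (ha : ((X, X ^ q) : k[X] × k[X]) ∈ R) (hb : ((X ^ q, X) : k[X] × k[X]) ∈ R)
    (f : k[X] × k[X]) : f ∈ R ↔ f.1 - f.2.comp (X ^ q) ∈ lngoIdeal R q ha := by
  rw [lngo_mem_ideal]
  have h2 := lngo_snd_mem R q hb f.2
  have heq : ((f.1 - f.2.comp (X ^ q), 0) : k[X] × k[X]) = f - (f.2.comp (X ^ q), f.2) := by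
    apply Prod.ext
    · rfl
    · show (0 : k[X]) = f.2 - f.2
      rw [sub_self]
  rw [heq]
  constructor
  · intro h
    exact R.sub_mem h h2
  · intro h
    have := R.add_mem h h2
    rwa [sub_add_cancel] at this

/-- `X - X ^ (q ^ 2) ∈ I₁` -/
theorem lngo_frob_mem (R : Subalgebra k (k[X] × k[X])) (q : ℕ)
    (ha : ((X, X ^ q) : k[X] × k[X]) ∈ R) (hb : ((X ^ q, X) : k[X] × k[X]) ∈ R) :
    (X - X ^ (q ^ 2) : k[X]) ∈ lngoIdeal R q ha := by
  rw [lngo_mem_ideal]
  have h := R.sub_mem ha (R.pow_mem hb q)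
  have heq : ((X, X ^ q) : k[X] × k[X]) - ((X ^ q, X) : k[X] × k[X]) ^ q =
      ((X - X ^ (q ^ 2), 0) : k[X] × k[X]) := by
    apply Prod.ext
    · show (X : k[X]) - (X ^ q) ^ q = X - X ^ (q ^ 2)
      rw [← pow_mul, sq]
    · show (X : k[X]) ^ q - X ^ q = 0
      rw [sub_self]
  rwa [heq] at h

theorem lngo_frob_separable (q : ℕ) (hq : (q : k) = 0) :
    (X - X ^ (q ^ 2) : k[X]).Separable := by
  rw [separable_def]
  have hder : derivative (X - X ^ (q ^ 2) : k[X]) = 1 := by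
    rw [derivative_sub, derivative_X, derivative_X_pow]
    have : ((q ^ 2 : ℕ) : k[X]) = 0 := by
      rw [← map_natCast (C : k →+* k[X]), Nat.cast_pow, hq, zero_pow (by norm_num), map_zero]
    rw [map_natCast, this, zero_mul, sub_zero]
  rw [hder]
  exact isCoprime_one_right

/-- a separable polynomial over an algebraically closed field divides every polynomial
vanishing at its roots -/
theorem lngo_dvd_of_roots [IsAlgClosed k] {P f : k[X]} (hP : P.Separable)
    (h : ∀ s, P.IsRoot s → f.IsRoot s) : P ∣ f := by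
  classical
  rcases eq_or_ne f 0 with rfl | hf0
  · exact dvd_zero _
  have hP0 : P ≠ 0 := hP.ne_zero
  have hnodup := nodup_roots hP
  have hle : P.roots ≤ f.roots :=
    (Multiset.le_iff_subset hnodup).mpr
      (fun s hs => (mem_roots hf0).mpr (h s ((mem_roots hP0).mp hs)))
  have hdvd := (Multiset.prod_X_sub_C_dvd_iff_le_roots hf0 P.roots).mpr hle
  have hsplit := (IsAlgClosed.splits P).eq_prod_roots
  rw [hsplit]
  have hunit : IsUnit (C P.leadingCoeff : k[X]) :=
    isUnit_C.mpr (IsUnit.mk0 _ (leadingCoeff_ne_zero.mpr hP0))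
  exact hunit.mul_left_dvd.mpr hdvd

/-- **Goursat for the two-component reduction.** -/
theorem lngo_goursat [IsAlgClosed k] (q : ℕ) (hq : (q : k) = 0)
    (R : Subalgebra k (k[X] × k[X])) (ha : ((X, X ^ q) : k[X] × k[X]) ∈ R)
    (hb : ((X ^ q, X) : k[X] × k[X]) ∈ R) :
    ∃ S : Finset k, (∀ s ∈ S, s ^ (q ^ 2) = s) ∧
      ∀ f : k[X] × k[X], f ∈ R ↔ ∀ s ∈ S, f.1.eval s = f.2.eval (s ^ q) := by
  classical
  set I := lngoIdeal R q ha with hI
  have hU : (X - X ^ (q ^ 2) : k[X]) ∈ I := lngo_frob_mem R q ha hb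
  have hUsep := lngo_frob_separable (k := k) q hq
  -- the generator
  set P := Submodule.IsPrincipal.generator I with hP
  have hspan : I = Ideal.span {P} := (Ideal.span_singleton_generator I).symm
  have hPU : P ∣ (X - X ^ (q ^ 2) : k[X]) := by
    rw [hspan] at hU
    exact Ideal.mem_span_singleton.mp hU
  have hPsep : P.Separable := hUsep.of_dvd hPU
  have hP0 : P ≠ 0 := hPsep.ne_zero
  have hmemI : ∀ f : k[X], f ∈ I ↔ ∀ s ∈ P.roots.toFinset, f.eval s = 0 := by
    intro f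
    constructor
    · intro hf s hs
      rw [hspan] at hf
      obtain ⟨g, rfl⟩ := Ideal.mem_span_singleton.mp hf
      have hs' : P.IsRoot s := (mem_roots hP0).mp (Multiset.mem_toFinset.mp hs)
      rw [eval_mul, hs'.eq_zero, zero_mul]
    · intro h
      rw [hspan]
      refine Ideal.mem_span_singleton.mpr (lngo_dvd_of_roots hPsep fun s hs => ?_)
      exact h s (Multiset.mem_toFinset.mpr ((mem_roots hP0).mpr hs))
  refine ⟨P.roots.toFinset, fun s hs => ?_, fun f => ?_⟩
  · have hs' : P.IsRoot s := (mem_roots hP0).mp (Multiset.mem_toFinset.mp hs)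
    obtain ⟨g, hg⟩ := hPU
    have := congrArg (eval s) hg
    rw [eval_mul, hs'.eq_zero, zero_mul, eval_sub, eval_X, eval_pow, eval_X, sub_eq_zero] at this
    exact this.symm
  · rw [lngo_mem_iff R q ha hb f, hmemI]
    refine forall₂_congr fun s _ => ?_
    rw [eval_sub, eval_comp, eval_pow, eval_X, sub_eq_zero]

end Goursat

section Count

variable {k : Type*} [Field k]

/-- the gluing defect `(f₁, f₂) ↦ (f₁ (s) - f₂ (s ^ q))_{s ∈ S}` -/
noncomputable def lngoEv (S : Finset k) (q : ℕ) : (k[X] × k[X]) →ₗ[k] (S → k) where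
  toFun f := fun s => f.1.eval (s : k) - f.2.eval ((s : k) ^ q)
  map_add' := by
    intro f g
    funext s
    simp only [Prod.fst_add, Prod.snd_add, eval_add, Pi.add_apply]
    ring
  map_smul' := by
    intro c f
    funext s
    simp only [Prod.smul_fst, Prod.smul_snd, eval_smul, Pi.smul_apply, smul_eq_mul,
      RingHom.id_apply]
    ring

theorem lngoEv_apply (S : Finset k) (q : ℕ) (f : k[X] × k[X]) (s : S) :
    lngoEv S q f s = f.1.eval (s : k) - f.2.eval ((s : k) ^ q) := rfl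

theorem lngoEv_eq_zero_iff (S : Finset k) (q : ℕ) (f : k[X] × k[X]) :
    lngoEv S q f = 0 ↔ ∀ s ∈ S, f.1.eval s = f.2.eval (s ^ q) := by
  constructor
  · intro h s hs
    have := congrFun h ⟨s, hs⟩
    rw [lngoEv_apply, Pi.zero_apply, sub_eq_zero] at this
    exact this
  · intro h
    funext s
    rw [lngoEv_apply, Pi.zero_apply, sub_eq_zero]
    exact h s s.2

/-- pairs of polynomials of degrees `≤ a`, `≤ b` -/
noncomputable def lngoW (k : Type*) [Field k] (a b : ℕ) : Submodule k (k[X] × k[X]) :=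
  (degreeLT k (a + 1)).prod (degreeLT k (b + 1))

theorem lngo_mem_W (a b : ℕ) (f : k[X] × k[X]) :
    f ∈ lngoW k a b ↔ f.1.degree < (a + 1 : ℕ) ∧ f.2.degree < (b + 1 : ℕ) := by
  rw [lngoW, Submodule.mem_prod, mem_degreeLT, mem_degreeLT]

/-- `P_a × P_b` as a product of modules -/
noncomputable def lngoWEquiv (a b : ℕ) :
    ↥(lngoW k a b) ≃ₗ[k] ↥(degreeLT k (a + 1)) × ↥(degreeLT k (b + 1)) where
  toFun x := (⟨x.1.1, (Submodule.mem_prod.mp x.2).1⟩, ⟨x.1.2, (Submodule.mem_prod.mp x.2).2⟩)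
  invFun y := ⟨(y.1.1, y.2.1), Submodule.mem_prod.mpr ⟨y.1.2, y.2.2⟩⟩
  map_add' := fun _ _ => rfl
  map_smul' := fun _ _ => rfl
  left_inv := fun _ => rfl
  right_inv := fun _ => rfl

theorem lngo_finrank_W (a b : ℕ) : Module.finrank k ↥(lngoW k a b) = a + b + 2 := by
  rw [(lngoWEquiv (k := k) a b).finrank_eq, Module.finrank_prod,
    (degreeLTEquiv k (a + 1)).finrank_eq, (degreeLTEquiv k (b + 1)).finrank_eq,
    Module.finrank_fin_fun, Module.finrank_fin_fun]
  ring

instance lngo_finite_W (a b : ℕ) : Module.Finite k ↥(lngoW k a b) :=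
  Module.Finite.equiv (lngoWEquiv (k := k) a b).symm

/-- the gluing defect is onto on `P_a × 0` if `#S ≤ a + 1` (Lagrange) -/
theorem lngoEv_surjective (S : Finset k) (q a b : ℕ) (hS : S.card ≤ a + 1) :
    Function.Surjective ((lngoEv S q).domRestrict (lngoW k a b)) := by
  classical
  intro c
  set r : k → k := fun x => if h : x ∈ S then c ⟨x, h⟩ else 0 with hr
  have hinj : Set.InjOn (id : k → k) S := Function.injective_id.injOn
  have hdeg : (Lagrange.interpolate S id r).degree < (a + 1 : ℕ) :=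
    lt_of_lt_of_le (Lagrange.degree_interpolate_lt r hinj) (by exact_mod_cast hS)
  refine ⟨⟨(Lagrange.interpolate S id r, 0), ?_⟩, ?_⟩
  · rw [lngo_mem_W]
    refine ⟨hdeg, ?_⟩
    rw [degree_zero]
    exact WithBot.bot_lt_coe _
  · funext s
    rw [LinearMap.domRestrict_apply, lngoEv_apply]
    show eval (s : k) (Lagrange.interpolate S id r) - eval ((s : k) ^ q) 0 = c s
    rw [eval_zero, sub_zero]
    have := Lagrange.eval_interpolate_at_node r hinj s.2
    rw [id] at this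
    rw [this, hr]
    simp only [s.2, dite_true, Subtype.coe_eta]

/-- **dimension of the glued pairs**: `dim {(f₁, f₂) ∈ P_a × P_b glued along S} + #S = a + b + 2` -/
theorem lngo_finrank_glued (S : Finset k) (q a b : ℕ) (hS : S.card ≤ a + 1) :
    Module.finrank k ↥(LinearMap.ker (lngoEv S q) ⊓ lngoW k a b) + S.card = a + b + 2 := by
  classical
  set g := (lngoEv S q).domRestrict (lngoW k a b) with hg
  have hsurj := lngoEv_surjective S q a b hS
  have h1 := LinearMap.finrank_range_add_finrank_ker g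
  rw [LinearMap.range_eq_top.mpr hsurj, finrank_top, Module.finrank_fintype_fun_eq_card,
    Fintype.card_coe, lngo_finrank_W] at h1
  have hker : LinearMap.ker g =
      Submodule.comap (lngoW k a b).subtype (LinearMap.ker (lngoEv S q) ⊓ lngoW k a b) := by
    ext w
    rw [LinearMap.mem_ker, Submodule.mem_comap, Submodule.mem_inf, LinearMap.mem_ker, hg,
      LinearMap.domRestrict_apply]
    constructor
    · intro h
      exact ⟨h, w.2⟩
    · intro h
      exact h.1
  have h2 : Module.finrank k ↥(LinearMap.ker g) =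
      Module.finrank k ↥(LinearMap.ker (lngoEv S q) ⊓ lngoW k a b) := by
    rw [hker]
    exact (Submodule.comapSubtypeEquivOfLe
      (inf_le_right : LinearMap.ker (lngoEv S q) ⊓ lngoW k a b ≤ lngoW k a b)).finrank_eq
  rw [h2] at h1
  omega

/-- **the number of crossing points**: if `R` is glued along `S` and `R ∩ (P_a × P_b)` has
dimension `a + b + 1 - g`, then `#S = g + 1`. -/
theorem lngo_card (R : Subalgebra k (k[X] × k[X])) (S : Finset k) (q : ℕ)
    (hR : ∀ f : k[X] × k[X], f ∈ R ↔ ∀ s ∈ S, f.1.eval s = f.2.eval (s ^ q))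
    (a b g : ℕ) (hS : S.card ≤ a + 1)
    (hdim : Module.finrank k ↥(Subalgebra.toSubmodule R ⊓ lngoW k a b) + g = a + b + 1) :
    S.card = g + 1 := by
  have h1 := lngo_finrank_glued S q a b hS
  have heq : Subalgebra.toSubmodule R ⊓ lngoW k a b =
      LinearMap.ker (lngoEv S q) ⊓ lngoW k a b := by
    ext f
    rw [Submodule.mem_inf, Submodule.mem_inf, LinearMap.mem_ker, lngoEv_eq_zero_iff,
      Subalgebra.mem_toSubmodule, hR]
  rw [heq] at hdim
  omega

/-- the crossing set has at most `q ^ 2` points -/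
theorem lngo_card_le (S : Finset k) (q : ℕ) (hq : 2 ≤ q) (hS : ∀ s ∈ S, s ^ (q ^ 2) = s) :
    S.card ≤ q ^ 2 := by
  classical
  have hq2 : 1 < q ^ 2 := by nlinarith
  have hne : (X ^ (q ^ 2) - X : k[X]) ≠ 0 := by
    intro h
    have h1 := congrArg natDegree h
    rw [natDegree_sub_eq_left_of_natDegree_lt (by rw [natDegree_X_pow, natDegree_X]; exact hq2),
      natDegree_X_pow, natDegree_zero] at h1
    omega
  have hsub : S ⊆ (X ^ (q ^ 2) - X : k[X]).roots.toFinset := by
    intro s hs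
    rw [Multiset.mem_toFinset, mem_roots hne, IsRoot.def, eval_sub, eval_pow, eval_X,
      sub_eq_zero]
    exact hS s hs
  calc S.card ≤ (X ^ (q ^ 2) - X : k[X]).roots.toFinset.card := Finset.card_le_card hsub
    _ ≤ Multiset.card (X ^ (q ^ 2) - X : k[X]).roots := Multiset.toFinset_card_le _
    _ ≤ (X ^ (q ^ 2) - X : k[X]).natDegree := card_roots' _
    _ = q ^ 2 := by
      rw [natDegree_sub_eq_left_of_natDegree_lt
        (by rw [natDegree_X_pow, natDegree_X]; exact hq2), natDegree_X_pow]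

end Count

end Fermat.Agent.S15.LN


end ZBZ2S15_027_0

/-! ### bundled: `Fermat.Agent.S15.PkgCardDim` -/
section ZBZ2S15_027_1

/-!
# S15 / LOCAL-N / LN-PKG, piece PKG-card (5): the reduction of the chart ring and its dimensions

* `pkgcR N A` : the subalgebra `red(B) ∩ (k[j̄] × k[j̄])` of `k[X] × k[X]`;
* `pkgcR_j_mem`, `pkgcR_jN_mem` : it contains `(X, X ^ N)` and `(X ^ N, X)`;
* `pkgc_finrank` : under PKG-poly, `dim (R ∩ (P_a × P_a)) = dim L(a (∞) + a (0))` for
  `a + 1 ≥ N (N - 1)` (orthonormal bases + lifting with pole control);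
* `pkgc_card` : with Riemann for `F_N`: if `R` is glued along `S` then `#S = g + 1`.
-/

set_option autoImplicit false
set_option linter.unusedSectionVars false

noncomputable section

namespace Fermat.Agent.S15.LN

open ModularCurve AlgebraicCurve HahnSeries Polynomial Fermat.Agent.ES Fermat.Agent.S24
  Fermat.Agent.ES.M Fermat.Agent.DEU Fermat.Agent.INJ Fermat.Agent.S15 Fermat.Agent.S28
  Fermat.Agent.W1

/-! ### Linear algebra -/

section LinAlg

variable {K F : Type*} [Field K] [AddCommGroup F] [Module K F]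

/-- a basis of a finite-dimensional subspace, as a family of vectors of the ambient space -/
theorem pkgc_exists_basis (V : Submodule K F) [Module.Finite K V] :
    ∃ a : Fin (Module.finrank K V) → F, LinearIndependent K a ∧
      Submodule.span K (Set.range a) = V := by
  let B := Module.finBasis K V
  refine ⟨fun i => ((B i : V) : F),
    B.linearIndependent.map' V.subtype (Submodule.ker_subtype _), ?_⟩
  have h1 : (Set.range fun i => ((B i : V) : F)) = V.subtype '' Set.range B := by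
    ext x
    constructor
    · rintro ⟨i, rfl⟩
      exact ⟨B i, ⟨i, rfl⟩, rfl⟩
    · rintro ⟨_, ⟨i, rfl⟩, rfl⟩
      exact ⟨i, rfl⟩
  rw [h1, Submodule.span_image, B.span_eq, Submodule.map_top, Submodule.range_subtype]

/-- `dim V` linearly independent vectors of `V` span `V` -/
theorem pkgc_le_span (V : Submodule K F) [Module.Finite K V]
    (b : Fin (Module.finrank K V) → F) (hb : ∀ i, b i ∈ V) (hli : LinearIndependent K b) :
    V ≤ Submodule.span K (Set.range b) := by
  let b' : Fin (Module.finrank K V) → V := fun i => ⟨b i, hb i⟩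
  have hb'li : LinearIndependent K b' := by
    apply LinearIndependent.of_comp V.subtype
    exact hli
  have hb'span : Submodule.span K (Set.range b') = ⊤ :=
    hb'li.span_eq_top_of_card_eq_finrank' (by simp)
  intro x hx
  have hx' : (⟨x, hx⟩ : V) ∈ Submodule.span K (Set.range b') := by
    rw [hb'span]
    exact Submodule.mem_top
  have h3 := Submodule.apply_mem_span_image_of_mem_span V.subtype hx'
  have h4 : V.subtype '' Set.range b' = Set.range b := by
    ext y
    constructor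
    · rintro ⟨_, ⟨i, rfl⟩, rfl⟩
      exact ⟨i, rfl⟩
    · rintro ⟨i, rfl⟩
      exact ⟨b' i, ⟨i, rfl⟩, rfl⟩
  rw [h4] at h3
  exact h3

end LinAlg

variable (N : ℕ) [NeZero N] (A : ValuationSubring Kb)

/-! ### The subalgebra -/

theorem pkgc_aeval_C (c : kA A) :
    Polynomial.aeval (jqModC (kA A)) (Polynomial.C c) = HahnSeries.C c := by
  rw [Polynomial.aeval_C, Fermat.Agent.ES.M.algebraMap_eq_hahnC]

/-- the reduction of the chart ring -/
def pkgcR : Subalgebra (kA A) ((kA A)[X] × (kA A)[X]) where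
  carrier := {x | ∃ f : FF N, PkgcB N A f (Polynomial.aeval (jqModC (kA A)) x.1)
    (Polynomial.aeval (jqModC (kA A)) x.2)}
  mul_mem' := by
    rintro x y ⟨f, hf⟩ ⟨g, hg⟩
    refine ⟨f * g, ?_⟩
    rw [Prod.fst_mul, Prod.snd_mul, map_mul, map_mul]
    exact hf.mul hg
  add_mem' := by
    rintro x y ⟨f, hf⟩ ⟨g, hg⟩
    refine ⟨f + g, ?_⟩
    rw [Prod.fst_add, Prod.snd_add, map_add, map_add]
    exact hf.add hg
  algebraMap_mem' := by
    intro c
    obtain ⟨a, rfl⟩ := IsLocalRing.residue_surjective c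
    refine ⟨algebraMap Kb (FF N) (a : Kb), ?_⟩
    have h1 : (algebraMap (kA A) ((kA A)[X] × (kA A)[X]) (IsLocalRing.residue A a)) =
        (Polynomial.C (IsLocalRing.residue A a), Polynomial.C (IsLocalRing.residue A a)) := rfl
    rw [h1]
    show PkgcB N A _ (Polynomial.aeval (jqModC (kA A)) (Polynomial.C (IsLocalRing.residue A a)))
      (Polynomial.aeval (jqModC (kA A)) (Polynomial.C (IsLocalRing.residue A a)))
    rw [pkgc_aeval_C]
    exact pkgcB_const a

theorem mem_pkgcR {x : (kA A)[X] × (kA A)[X]} : x ∈ pkgcR N A ↔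
    ∃ f : FF N, PkgcB N A f (Polynomial.aeval (jqModC (kA A)) x.1)
      (Polynomial.aeval (jqModC (kA A)) x.2) := Iff.rfl

theorem pkgcR_j_mem (hN : N.Prime) (hA : A.LiesOverPrime N) :
    ((X, X ^ N) : (kA A)[X] × (kA A)[X]) ∈ pkgcR N A := by
  refine ⟨jF N, ?_⟩
  show PkgcB N A _ (Polynomial.aeval (jqModC (kA A)) X) (Polynomial.aeval (jqModC (kA A)) (X ^ N))
  rw [map_pow, Polynomial.aeval_X]
  exact pkgcB_j N A hN hA

theorem pkgcR_jN_mem (hN : N.Prime) (hA : A.LiesOverPrime N) :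
    ((X ^ N, X) : (kA A)[X] × (kA A)[X]) ∈ pkgcR N A := by
  refine ⟨jdF N N dvd_rfl, ?_⟩
  show PkgcB N A _ (Polynomial.aeval (jqModC (kA A)) (X ^ N)) (Polynomial.aeval (jqModC (kA A)) X)
  rw [map_pow, Polynomial.aeval_X]
  exact pkgcB_jN N A hN hA

/-! ### Pole orders of the reductions -/

variable {N A}

/-- the pole order does not increase under reduction -/
theorem pkgc_poleLe_red {ℓ : ℕ} (hℓ : ℓ.Prime) (hA : A.LiesOverPrime ℓ) {f : FF N}
    (hf : PolesAtCusps N f) {u : LaurentSeries (kA A)} (hu : GaussRed N A f u) {a : ℤ}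
    (h : PkgcPoleLe a ((f : FF N) : LaurentSeries Kb)) : PkgcPoleLe a u := by
  obtain ⟨Y, hY, hYred⟩ := pkgc_exists_lift N A hℓ hA hf hu
  rw [← hYred]
  apply PkgcPoleLe.coeffMap
  apply pkgcPoleLe_of_coeffMap A.subtype Subtype.val_injective
  rw [hY]
  exact h

theorem pkgc_aeval_sum_C {n : ℕ} (g : Fin n → kA A) (P : Fin n → (kA A)[X]) :
    Polynomial.aeval (jqModC (kA A)) (∑ i, Polynomial.C (g i) * P i) =
      ∑ i, HahnSeries.C (g i) * Polynomial.aeval (jqModC (kA A)) (P i) := by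
  rw [map_sum]
  refine Finset.sum_congr rfl fun i _ => ?_
  rw [map_mul, pkgc_aeval_C]

variable (N A)

/-! ### The dimension count -/

theorem pkgc_natDegree_of_degree_lt {k : Type*} [Field k] {P : k[X]} {a : ℕ}
    (h : P.degree < ((a + 1 : ℕ) : WithBot ℕ)) : P.natDegree ≤ a := by
  rcases eq_or_ne P 0 with rfl | h0
  · simp
  · have := (Polynomial.natDegree_lt_iff_degree_lt h0).mpr h
    omega

/-- **the dimension count**: `dim (R ∩ (P_a × P_a)) = dim L(a (∞) + a (0))` -/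
theorem pkgc_finrank (hN : N.Prime) (hA : A.LiesOverPrime N) (hPoly : PkgcPoly N A) (a : ℕ)
    (ha : N * (N - 1) ≤ a + 1) :
    Module.finrank (kA A) ↥(Subalgebra.toSubmodule (pkgcR N A) ⊓ lngoW (kA A) a a) =
      Module.finrank Kb ↥(riemannRochSpace (pkgcD N a a)) := by
  classical
  have := lw_rr_finite N (pkgcD N a a)
  obtain ⟨a₀, ha₀, ha₀span⟩ := pkgc_exists_basis (riemannRochSpace (pkgcD N a a))
  obtain ⟨b, w₁, w₂, hbspan, hbli, hG₁, hG₂, hw⟩ :=
    pkgq2_main N A ((frickeAut N : FF N ≃ₐ[Kb] FF N).toLinearMap) _ a₀ ha₀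
  have hG₂' : ∀ i, GaussRed N A (frickeAut N (b i)) (w₂ i) := hG₂
  have hbV : ∀ i, b i ∈ riemannRochSpace (pkgcD N a a) := fun i => ha₀span ▸ hbspan i
  have hbB : ∀ i, PkgcB N A (b i) (w₁ i) (w₂ i) := fun i =>
    ⟨((pkgc_mem_rr_iff N hN a a (b i)).mp (hbV i)).1, hG₁ i, hG₂' i⟩
  -- `b` spans `V`
  have hbspanV := pkgc_le_span (riemannRochSpace (pkgcD N a a)) b hbV hbli
  -- the polynomials
  have hP' := fun i => (hPoly (b i) (w₁ i) (w₂ i) (hbB i)).1
  have hQ' := fun i => (hPoly (b i) (w₁ i) (w₂ i) (hbB i)).2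
  choose P hP using hP'
  choose Q hQ using hQ'
  set p : Fin (Module.finrank Kb ↥(riemannRochSpace (pkgcD N a a))) →
    (kA A)[X] × (kA A)[X] := fun i => (P i, Q i) with hp
  have hpR : ∀ i, p i ∈ Subalgebra.toSubmodule (pkgcR N A) ⊓ lngoW (kA A) a a := by
    intro i
    have hmem := (pkgc_mem_rr_iff N hN a a (b i)).mp (hbV i)
    refine ⟨⟨b i, ?_⟩, ?_⟩
    · show PkgcB N A (b i) (Polynomial.aeval (jqModC (kA A)) (P i))
        (Polynomial.aeval (jqModC (kA A)) (Q i))
      rw [hP i, hQ i]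
      exact hbB i
    · rw [SetLike.mem_coe, lngo_mem_W]
      have h1 : PkgcPoleLe (a : ℤ) (w₁ i) := pkgc_poleLe_red hN hA hmem.1 (hG₁ i) hmem.2.1
      have h2 : PkgcPoleLe (a : ℤ) (w₂ i) :=
        pkgc_poleLe_red hN hA (fricke_polesAtCusps hmem.1) (hG₂' i) hmem.2.2
      rw [← hP i] at h1
      rw [← hQ i] at h2
      have h3 := pkgc_natDegree_le h1
      have h4 := pkgc_natDegree_le h2
      constructor
      · exact lt_of_le_of_lt Polynomial.degree_le_natDegree
          (by exact_mod_cast Nat.lt_succ_of_le h3)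
      · exact lt_of_le_of_lt Polynomial.degree_le_natDegree
          (by exact_mod_cast Nat.lt_succ_of_le h4)
  -- linear independence of the pairs of polynomials
  have hpli : LinearIndependent (kA A) p := by
    rw [Fintype.linearIndependent_iff]
    intro g hg
    apply Fintype.linearIndependent_iff.mp hw g
    have hg₁ : ∑ i, Polynomial.C (g i) * P i = 0 := by
      have h := congrArg Prod.fst hg
      rw [Prod.fst_sum] at h
      refine Eq.trans (Finset.sum_congr rfl fun i _ => ?_) h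
      exact (Polynomial.smul_eq_C_mul _).symm
    have hg₂ : ∑ i, Polynomial.C (g i) * Q i = 0 := by
      have h := congrArg Prod.snd hg
      rw [Prod.snd_sum] at h
      refine Eq.trans (Finset.sum_congr rfl fun i _ => ?_) h
      exact (Polynomial.smul_eq_C_mul _).symm
    have e₁ := pkgc_aeval_sum_C g P
    have e₂ := pkgc_aeval_sum_C g Q
    rw [hg₁, map_zero] at e₁
    rw [hg₂, map_zero] at e₂
    apply Prod.ext
    · rw [Prod.fst_sum]
      show ∑ i, g i • w₁ i = 0
      rw [e₁]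
      refine Finset.sum_congr rfl fun i _ => ?_
      rw [hP i, HahnSeries.C_mul_eq_smul]
    · rw [Prod.snd_sum]
      show ∑ i, g i • w₂ i = 0
      rw [e₂]
      refine Finset.sum_congr rfl fun i _ => ?_
      rw [hQ i, HahnSeries.C_mul_eq_smul]
  -- the span
  have hspan : Submodule.span (kA A) (Set.range p) =
      Subalgebra.toSubmodule (pkgcR N A) ⊓ lngoW (kA A) a a := by
    apply le_antisymm
    · rw [Submodule.span_le]
      rintro _ ⟨i, rfl⟩
      exact hpR i
    · rintro ⟨P₀, Q₀⟩ ⟨⟨f, hf⟩, hW⟩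
      have hf' : PkgcB N A f (Polynomial.aeval (jqModC (kA A)) P₀)
          (Polynomial.aeval (jqModC (kA A)) Q₀) := hf
      rw [SetLike.mem_coe, lngo_mem_W] at hW
      have hdP : (P₀.natDegree : ℤ) ≤ a := by
        exact_mod_cast pkgc_natDegree_of_degree_lt hW.1
      have hdQ : (Q₀.natDegree : ℤ) ≤ a := by
        exact_mod_cast pkgc_natDegree_of_degree_lt hW.2
      obtain ⟨f', hf'B, hp1, hp2⟩ := pkgc_reduce N A hN hA a a ha ha hf'
        (pkgcPoleLe_aeval hdP) (pkgcPoleLe_aeval hdQ)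
      have hf'V : f' ∈ riemannRochSpace (pkgcD N a a) :=
        (pkgc_mem_rr_iff N hN a a f').mpr ⟨hf'B.1, hp1, hp2⟩
      obtain ⟨c, hc⟩ := (Submodule.mem_span_range_iff_exists_fun Kb).1 (hbspanV hf'V)
      have hcA : ∀ i, c i ∈ A := fun i =>
        pkgc_coeff_mem hG₁ hG₂' hw c (hc ▸ hf'B.2.1) (hc ▸ hf'B.2.2) i
      have hsum : PkgcB N A (∑ i, ((⟨c i, hcA i⟩ : A) : Kb) • b i)
          (∑ i, HahnSeries.C (IsLocalRing.residue A ⟨c i, hcA i⟩) * w₁ i)
          (∑ i, HahnSeries.C (IsLocalRing.residue A ⟨c i, hcA i⟩) * w₂ i) :=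
        PkgcB.sum _ fun i _ => (hbB i).smul _
      have hsum' : PkgcB N A f'
          (∑ i, HahnSeries.C (IsLocalRing.residue A ⟨c i, hcA i⟩) * w₁ i)
          (∑ i, HahnSeries.C (IsLocalRing.residue A ⟨c i, hcA i⟩) * w₂ i) := by
        rw [← hc]
        exact hsum
      obtain ⟨e₁, e₂⟩ := hf'B.unique hsum'
      have hP₀ : P₀ = ∑ i, Polynomial.C (IsLocalRing.residue A ⟨c i, hcA i⟩) * P i := by
        apply pkgc_aeval_injective
        rw [pkgc_aeval_sum_C, e₁]
        exact Finset.sum_congr rfl fun i _ => by rw [hP i]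
      have hQ₀ : Q₀ = ∑ i, Polynomial.C (IsLocalRing.residue A ⟨c i, hcA i⟩) * Q i := by
        apply pkgc_aeval_injective
        rw [pkgc_aeval_sum_C, e₂]
        exact Finset.sum_congr rfl fun i _ => by rw [hQ i]
      have hx : ((P₀, Q₀) : (kA A)[X] × (kA A)[X]) =
          ∑ i, IsLocalRing.residue A ⟨c i, hcA i⟩ • p i := by
        apply Prod.ext
        · rw [Prod.fst_sum]
          show P₀ = ∑ i, IsLocalRing.residue A ⟨c i, hcA i⟩ • P i
          rw [hP₀]
          exact Finset.sum_congr rfl fun i _ => (Polynomial.smul_eq_C_mul _).symm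
        · rw [Prod.snd_sum]
          show Q₀ = ∑ i, IsLocalRing.residue A ⟨c i, hcA i⟩ • Q i
          rw [hQ₀]
          exact Finset.sum_congr rfl fun i _ => (Polynomial.smul_eq_C_mul _).symm
      rw [hx]
      exact Submodule.sum_mem _ fun i _ =>
        Submodule.smul_mem _ _ (Submodule.subset_span ⟨i, rfl⟩)
  rw [← hspan, finrank_span_eq_card hpli, Fintype.card_fin]

/-- **the count**: if `red(B)` is glued along `S` then `#S = g + 1`. -/
theorem pkgc_card (hN : N.Prime) (hA : A.LiesOverPrime N) (hPoly : PkgcPoly N A)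
    (hnice : IsNiceCurve Kb (FF N) (gN N)) (S : Finset (kA A))
    (hfrob : ∀ s ∈ S, s ^ (N ^ 2) = s)
    (hS : ∀ f : (kA A)[X] × (kA A)[X], f ∈ pkgcR N A ↔
      ∀ s ∈ S, f.1.eval s = f.2.eval (s ^ N)) :
    S.card = gN N + 1 := by
  obtain ⟨c, hc⟩ := hnice.upper
  set a : ℕ := N ^ 2 + c.toNat with ha
  have hN2 := hN.two_le
  have hSle : S.card ≤ a + 1 := by
    have := lngo_card_le S N hN2 hfrob
    omega
  have haN : N * (N - 1) ≤ a + 1 := by
    have : N * (N - 1) ≤ N ^ 2 := by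
      rw [pow_two]
      exact Nat.mul_le_mul_left N (Nat.sub_le N 1)
    omega
  have hdeg : Divisor.degree (pkgcD N a a) = (a : ℤ) + a := pkgc_degree_D N a a
  have hcdeg : c ≤ Divisor.degree (pkgcD N a a) := by
    rw [hdeg]
    have := Int.self_le_toNat c
    have h2 : ((a : ℕ) : ℤ) = (N : ℤ) ^ 2 + (c.toNat : ℤ) := by rw [ha]; push_cast; ring
    have h3 : (0 : ℤ) ≤ (N : ℤ) ^ 2 := by positivity
    have h4 : (0 : ℤ) ≤ (a : ℤ) := by positivity
    omega
  have hup := hc (pkgcD N a a) hcdeg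
  have hlo := hnice.lower (pkgcD N a a)
  rw [hdeg] at hup hlo
  have hfin := pkgc_finrank N A hN hA hPoly a haN
  apply lngo_card (pkgcR N A) S N hS a a (gN N) hSle
  rw [hfin]
  have : (Module.finrank Kb ↥(riemannRochSpace (pkgcD N a a)) : ℤ) + gN N = (a : ℤ) + a + 1 := by
    linarith
  exact_mod_cast this

end Fermat.Agent.S15.LN

end
end ZBZ2S15_027_1

/-! ### bundled: `Fermat.Agent.S15.PkgCardGoursat` -/
section ZBZ2S15_027_2

/-!
# S15 / LOCAL-N / LN-PKG, piece PKG-card (6): Goursat for `red(B)`, `Z = S`, and the count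

* `pkgc_pow_div` : a Gauss-nonunit has a power divisible by any nonzero constant;
* `pkgc_goursat : PkgcPoly N A → ∃ S, PkgIsGoursat N A S` (`stmtPkgGoursat`);
* `pkgc_count` (`stmtPkgCount`) : `#S = g + 1`.
-/

set_option autoImplicit false
set_option linter.unusedSectionVars false

noncomputable section

namespace Fermat.Agent.S15.LN

open ModularCurve AlgebraicCurve HahnSeries Polynomial Fermat.Agent.ES Fermat.Agent.S24
  Fermat.Agent.ES.M Fermat.Agent.DEU Fermat.Agent.INJ Fermat.Agent.S15 Fermat.Agent.S28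
  Fermat.Agent.W1

variable (N : ℕ) [NeZero N] (A : ValuationSubring Kb)

/-! ### Powers of a Gauss-nonunit -/

variable {N A}

/-- a Gauss-nonunit has a power divisible by any nonzero constant -/
theorem pkgc_pow_div {ℓ : ℕ} (hℓ : ℓ.Prime) (hA : A.LiesOverPrime ℓ) {ψ : FF N}
    (hψ : GaussRed N A ψ 0) {d : Kb} (hd : d ≠ 0) :
    ∃ (M : ℕ) (v : LaurentSeries (kA A)), 0 < M ∧ GaussRed N A (d⁻¹ • ψ ^ M) v := by
  rcases eq_or_ne ψ 0 with rfl | hψ0
  · refine ⟨1, 0, one_pos, ?_⟩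
    rw [pow_one, smul_zero]
    exact deuInst_gaussRed_zero N A
  obtain ⟨c, hc, w, hw0, hw⟩ := deuInst_exists_scale N A ψ hψ0
  have hcinv : c⁻¹ ∈ A.nonunits := by
    by_contra hnot
    have hcA : c ∈ A := by
      rw [ValuationSubring.mem_nonunits_iff, map_inv₀, not_lt] at hnot
      rw [← ValuationSubring.valuation_le_one_iff]
      have h0 : A.valuation c ≠ 0 := (_root_.map_ne_zero _).mpr hc
      exact (one_le_inv₀ (zero_lt_iff.mpr h0)).mp hnot
    have h1 := pkgc_gaussRed_smul ⟨c, hcA⟩ hψ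
    rw [mul_zero, Algebra.smul_def] at h1
    exact hw0 (deuInst_gaussRed_unique N A hw h1)
  obtain ⟨M, hM⟩ := Fermat.Agent.ES.LR.arch_Qbar A hℓ hA c⁻¹ d hcinv hd
  have hmem : c⁻¹ ^ (M + 1) / d ∈ A := by
    have h2 : c⁻¹ ^ (M + 1) / d = c⁻¹ ^ M / d * c⁻¹ := by
      rw [pow_succ]
      ring
    rw [h2]
    exact mul_mem hM (A.nonunits_subset hcinv)
  refine ⟨M + 1, HahnSeries.C (IsLocalRing.residue A ⟨c⁻¹ ^ (M + 1) / d, hmem⟩) * w ^ (M + 1),
    Nat.succ_pos M, ?_⟩
  have heq : d⁻¹ • ψ ^ (M + 1) =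
      ((⟨c⁻¹ ^ (M + 1) / d, hmem⟩ : A) : Kb) • (algebraMap Kb (FF N) c * ψ) ^ (M + 1) := by
    rw [Algebra.smul_def, Algebra.smul_def, mul_pow, ← mul_assoc, ← map_pow, ← map_mul]
    congr 2
    show d⁻¹ = c⁻¹ ^ (M + 1) / d * c ^ (M + 1)
    rw [inv_pow]
    field_simp
  rw [heq]
  exact pkgc_gaussRed_smul _ (pkgc_gaussRed_pow hw (M + 1))

variable (N A)

/-! ### `oggU` -/

/-- `w_N (oggU) = N⁻¹² • h` -/
theorem pkgc_fricke_oggU : frickeAut N (oggU N) = (((N : Kb) ^ 12)⁻¹) • (oggU N)⁻¹ := by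
  have hfr := ogg_fricke N
  have hu0 : oggU N ≠ 0 := oggU_ne_zero N
  rw [Algebra.smul_def, ← hfr, mul_assoc, mul_inv_cancel₀ hu0, mul_one]

theorem pkgc_poles_oggU (hN : N.Prime) : PolesAtCusps N (oggU N) := by
  have h1 : PolesAtCusps N (frickeAut N (oggU N)⁻¹) := fricke_polesAtCusps (pkgc_poles_h N hN)
  rw [pkgc_fricke_h] at h1
  have hN0 : ((N : Kb) ^ 12) ≠ 0 := pow_ne_zero _ (Nat.cast_ne_zero.mpr (NeZero.ne N))
  have h2 : oggU N = algebraMap Kb (FF N) (((N : Kb) ^ 12)⁻¹) * (((N : Kb) ^ 12) • oggU N) := by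
    rw [Algebra.smul_def, ← mul_assoc, ← map_mul, inv_mul_cancel₀ hN0, map_one, one_mul]
  rw [h2]
  exact pkgc_poles_mul (pkgc_poles_const N _) h1

/-- `oggU · φ ^ M ∈ B` for `M` large, if the second reduction of `φ ∈ B` is `0` -/
theorem pkgc_oggU_mul_pow (hN : N.Prime) (hA : A.LiesOverPrime N) {φ : FF N}
    {u : LaurentSeries (kA A)} (hφ : PkgcB N A φ u 0) :
    ∃ (M : ℕ) (v : LaurentSeries (kA A)),
      PkgcB N A (oggU N * φ ^ M) (uS (kA A) N * u ^ M) v := by
  have hN0 : ((N : Kb) ^ 12) ≠ 0 := pow_ne_zero _ (Nat.cast_ne_zero.mpr (NeZero.ne N))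
  obtain ⟨M, v, -, hv⟩ := pkgc_pow_div hN hA hφ.2.2 hN0
  refine ⟨M, HahnSeries.C 1 * (uS (kA A) N)⁻¹ * v, ?_,
    deuInst_gaussRed_mul N A (pkg_gaussRed_oggU N A) (pkgc_gaussRed_pow hφ.2.1 M), ?_⟩
  · exact pkgc_poles_mul (pkgc_poles_oggU N hN) (pkgc_poles_pow hφ.1 M)
  · have heq : frickeAut N (oggU N * φ ^ M) =
        ((1 : A) : Kb) • ((oggU N)⁻¹ * (((N : Kb) ^ 12)⁻¹ • frickeAut N φ ^ M)) := by
      rw [map_mul, map_pow, pkgc_fricke_oggU]
      simp only [Algebra.smul_def, OneMemClass.coe_one, map_one, one_mul]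
      ring
    rw [heq]
    have h1 := pkgc_gaussRed_smul (1 : A) (deuInst_gaussRed_mul N A (pkg_gaussRed_h N A) hv)
    rw [map_one, ← mul_assoc] at h1
    exact h1

/-! ### Goursat -/

/-- **Goursat + (Z = S)** for the reduction of the chart ring -/
theorem pkgc_goursat (hN : N.Prime) (hA : A.LiesOverPrime N) (hPoly : PkgcPoly N A) :
    ∃ S : Finset (kA A), PkgIsGoursat N A S := by
  classical
  have : IsAlgClosed (kA A) := modHyp_isAlgClosed A
  have : CharP (kA A) N := kron_charP_residueField hN hA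
  have hq : ((N : ℕ) : kA A) = 0 := CharP.cast_eq_zero (kA A) N
  obtain ⟨S, hfrob, hS⟩ := lngo_goursat N hq (pkgcR N A) (pkgcR_j_mem N A hN hA)
    (pkgcR_jN_mem N A hN hA)
  -- the polynomial `H`
  obtain ⟨⟨H, hH⟩, -⟩ := hPoly _ _ _ (pkgcB_h N A hN hA)
  have hH0 : H ≠ 0 := by
    rintro rfl
    rw [map_zero] at hH
    exact inv_ne_zero (uS_ne_zero N (kA A)) hH.symm
  have hHR : ((H, 0) : (kA A)[X] × (kA A)[X]) ∈ pkgcR N A := by
    refine ⟨(oggU N)⁻¹, ?_⟩
    show PkgcB N A _ (Polynomial.aeval (jqModC (kA A)) H) (Polynomial.aeval (jqModC (kA A)) 0)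
    rw [hH, map_zero]
    exact pkgcB_h N A hN hA
  have hHR' : ((0, H) : (kA A)[X] × (kA A)[X]) ∈ pkgcR N A := by
    refine ⟨frickeAut N (oggU N)⁻¹, ?_⟩
    show PkgcB N A _ (Polynomial.aeval (jqModC (kA A)) 0) (Polynomial.aeval (jqModC (kA A)) H)
    rw [hH, map_zero]
    exact pkgcB_wh N A hN hA
  -- `Z = S`
  have hzeros : ∀ a : kA A, a ∈ S ↔ H.eval a = 0 := by
    intro a
    constructor
    · intro ha
      have := (hS _).mp hHR a ha
      simpa using this
    · intro ha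
      by_contra hnot
      set PS : (kA A)[X] := ∏ s ∈ S, (X - Polynomial.C s) with hPS
      have hPSR : ((PS, 0) : (kA A)[X] × (kA A)[X]) ∈ pkgcR N A := by
        rw [hS]
        intro s hs
        show PS.eval s = (0 : (kA A)[X]).eval (s ^ N)
        rw [Polynomial.eval_zero, hPS, Polynomial.eval_prod]
        apply Finset.prod_eq_zero hs
        simp
      obtain ⟨φ, hφ⟩ := hPSR
      have hφ' : PkgcB N A φ (Polynomial.aeval (jqModC (kA A)) PS) 0 := by
        have : PkgcB N A φ (Polynomial.aeval (jqModC (kA A)) PS)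
            (Polynomial.aeval (jqModC (kA A)) 0) := hφ
        rwa [map_zero] at this
      obtain ⟨M, v, hM⟩ := pkgc_oggU_mul_pow N A hN hA hφ'
      obtain ⟨⟨G, hG⟩, -⟩ := hPoly _ _ _ hM
      have hGH : G * H = PS ^ M := by
        apply pkgc_aeval_injective
        rw [map_mul, map_pow, hG, hH, mul_comm (uS (kA A) N), mul_assoc,
          mul_inv_cancel₀ (uS_ne_zero N (kA A)), mul_one]
      have h1 := congrArg (Polynomial.eval a) hGH
      rw [Polynomial.eval_mul, ha, mul_zero, Polynomial.eval_pow] at h1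
      have h2 : PS.eval a = 0 := by
        by_contra h
        exact pow_ne_zero M h h1.symm
      rw [hPS, Polynomial.eval_prod, Finset.prod_eq_zero_iff] at h2
      obtain ⟨s, hs, hsa⟩ := h2
      rw [Polynomial.eval_sub, Polynomial.eval_X, Polynomial.eval_C, sub_eq_zero] at hsa
      exact hnot (hsa ▸ hs)
  refine ⟨S, hfrob, ?_, ?_, ?_, H, hH0, hH, hzeros⟩
  · intro s hs
    rw [hzeros]
    have := (hS _).mp hHR' s hs
    simpa using this.symm
  · intro f P Q hf s hs
    exact (hS (P, Q)).mp ⟨f, hf⟩ s hs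
  · intro P Q h
    exact (hS (P, Q)).mpr h

theorem stmtPkgGoursat : StmtPkgGoursat :=
  fun N _ hN _ A hA hPoly => pkgc_goursat N A hN hA hPoly

/-- **the count** -/
theorem pkgc_count (hN : N.Prime) (hA : A.LiesOverPrime N) (hPoly : PkgcPoly N A)
    (hnice : IsNiceCurve Kb (FF N) (gN N)) (S : Finset (kA A)) (hG : PkgIsGoursat N A S) :
    S.card = gN N + 1 := by
  apply pkgc_card N A hN hA hPoly hnice S hG.frob
  intro f
  constructor
  · rintro ⟨g, hg⟩ s hs
    exact hG.glued g f.1 f.2 hg s hs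
  · intro h
    exact hG.lift f.1 f.2 h

theorem stmtPkgCount : StmtPkgCount :=
  fun N _ hN _ A hA hPoly hnice S hG => pkgc_count N A hN hA hPoly hnice S hG

end Fermat.Agent.S15.LN

end
end ZBZ2S15_027_2

/-! ### bundled: `Fermat.Agent.S15.PkgCardFinal` -/
section ZBZ2S15_027_3

/-!
# S15 / LOCAL-N / LN-PKG, piece PKG-card (7): `StmtPkgCard`

* `pkgc_poly : PkgcPoly N A` (from `stmtPkgPoly`, helper10);
* `pkgc_goursat_main : ∃ S, PkgIsGoursat N A S` — UNCONDITIONAL (`N` prime `≥ 5`, `A ∣ N`);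
* `pkgc_card_X` : `(pkgX N A hB).card = gN N + 1` from Riemann for `F_N`;
* `stmtPkgCard_of_nice : StmtPkgNice → StmtPkgCard`.
-/

set_option autoImplicit false
set_option linter.unusedSectionVars false

noncomputable section

namespace Fermat.Agent.S15.LN

open ModularCurve AlgebraicCurve HahnSeries Polynomial Fermat.Agent.ES Fermat.Agent.S24
  Fermat.Agent.ES.M Fermat.Agent.DEU Fermat.Agent.INJ Fermat.Agent.S15 Fermat.Agent.S28
  Fermat.Agent.W1

variable (N : ℕ) [NeZero N] (A : ValuationSubring Kb)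

/-- **PKG-poly in Gauss form** -/
theorem pkgc_poly (hN : N.Prime) (h5 : 5 ≤ N) (hA : A.LiesOverPrime N) : PkgcPoly N A := by
  intro f u v hf
  have hB := pkg_base N A hN hA
  have h₁ : f ∈ pkgO₁ N A := ⟨u, hf.2.1⟩
  have h₂ : f ∈ pkgO₂ N A := ⟨v, hf.2.2⟩
  obtain ⟨hp₁, hp₂⟩ := stmtPkgPoly N hN h5 A hA hB f h₁ h₂ hf.1
  rw [Algebra.adjoin_singleton_eq_range_aeval] at hp₁ hp₂
  obtain ⟨P, hP⟩ := hp₁
  obtain ⟨Q, hQ⟩ := hp₂
  refine ⟨⟨P, ?_⟩, ⟨Q, ?_⟩⟩
  · rw [← pkgcr_coe_aeval]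
    have h := congrArg (fun z : FFk A => (z : LaurentSeries (kA A))) hP
    exact h.trans (pkg_red₁_eq N A hB h₁ hf.2.1)
  · rw [← pkgcr_coe_aeval]
    have h := congrArg (fun z : FFk A => (z : LaurentSeries (kA A))) hQ
    exact h.trans (pkg_red₂_eq N A hB h₂ hf.2.2)

/-- **Goursat + (Z = S)**, unconditional -/
theorem pkgc_goursat_main (hN : N.Prime) (h5 : 5 ≤ N) (hA : A.LiesOverPrime N) :
    ∃ S : Finset (kA A), PkgIsGoursat N A S :=
  pkgc_goursat N A hN hA (pkgc_poly N A hN h5 hA)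

/-- the crossing points correspond to `S` -/
theorem pkgc_card_X_eq (hN : N.Prime) (h5 : 5 ≤ N) (hA : A.LiesOverPrime N) (hB : PkgBase N A)
    (S : Finset (kA A)) (hG : PkgIsGoursat N A S) : (pkgX N A hB).card = S.card := by
  classical
  have hT := pkgty_isType N A hN hA
  have hfin : (pkgXset N A hB).Finite := (pkgcr_isFrob_of_goursat hT hB hG).finite
  choose Qof hQof using pkgty_place_exists A
  have himg : pkgX N A hB = S.image fun s => (Qof s, Qof (s ^ N)) := by
    ext x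
    rw [pkgcr_mem_X_iff hfin, stmtPkgXset N hN h5 A hA hB S hG x, Finset.mem_image]
    constructor
    · rintro ⟨s, hs, h1, h2⟩
      refine ⟨s, hs, Prod.ext ?_ ?_⟩
      · exact pkgty_place_ext A _ _ s (hQof s) h1
      · exact pkgty_place_ext A _ _ (s ^ N) (hQof (s ^ N)) h2
    · rintro ⟨s, hs, rfl⟩
      exact ⟨s, hs, hQof s, hQof (s ^ N)⟩
  rw [himg]
  apply Finset.card_image_of_injOn
  intro s _ s' _ h
  have h1 : Qof s = Qof s' := congrArg Prod.fst h
  have h2 := hQof s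
  rw [h1] at h2
  exact hasValueAt_unique _ h2 (hQof s')

/-- **PKG-card** from Riemann for `F_N` -/
theorem pkgc_card_X (hN : N.Prime) (h5 : 5 ≤ N) (hA : A.LiesOverPrime N) (hB : PkgBase N A)
    (hnice : IsNiceCurve Kb (FF N) (gN N)) : (pkgX N A hB).card = gN N + 1 := by
  obtain ⟨S, hG⟩ := pkgc_goursat_main N A hN h5 hA
  rw [pkgc_card_X_eq N A hN h5 hA hB S hG]
  exact pkgc_count N A hN hA (pkgc_poly N A hN h5 hA) hnice S hG

/-- **PKG-card** -/
theorem stmtPkgCard_of_nice (hnice : StmtPkgNice) : StmtPkgCard :=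
  fun N _ hN h5 A hA hB => pkgc_card_X N A hN h5 hA hB (hnice N hN h5 A hA).1

end Fermat.Agent.S15.LN

end
end ZBZ2S15_027_3

/-! ### bundled: `Fermat.Agent.S15.PkgCardTop` -/
section ZBZ2S15_027_4

/-!
# S15 / LN-PKG, piece PKG-card: `stmtPkgCard : StmtPkgCard`, unconditional (helper89)

`stmtPkgCard_of_nice` (PkgCardFinal, helper89) applied to `stmtPkgNice` (PkgNice, helper10).
-/

set_option autoImplicit false

namespace Fermat.Agent.S15.LN

/-- **PKG-card**, unconditional: the number of crossing points is `gN N + 1`. -/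
theorem stmtPkgCard : StmtPkgCard := stmtPkgCard_of_nice stmtPkgNice

end Fermat.Agent.S15.LN


end ZBZ2S15_027_4

/-! ### bundled: `Fermat.Agent.S15.PkgCrossFinal` -/
section ZBZ2S15_027_5

/-!
# S15 / LN-PKG, piece PKG-cross (helper8), part 3: the final form

With `stmtPkgType` (helper25), `stmtPkgPoly` (helper10) and `stmtPkgGoursat` (helper89) landed:

* `pkgcr_poly : PkgcPoly N A` (PKG-poly in Gauss form, from `stmtPkgPoly`);
* `pkgcr_exists_goursat : ∃ S, PkgIsGoursat N A S`, unconditional;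
* `pkgcr_isFrob : PkgIsFrob N A hB`, unconditional (the crossing set is finite and symmetric);
* **`stmtPkgCross_of_ev : StmtPkgEv → StmtPkgCross`**.
-/

set_option autoImplicit false
set_option linter.unusedSectionVars false

noncomputable section

open AlgebraicCurve Module ModularCurve Polynomial

namespace Fermat.Agent.S15.LN

open Fermat.Agent.W1 Fermat.Agent.S24 Fermat.Agent.S15 Fermat.Agent.ES.M Fermat.Agent.DEU
  Fermat.Agent.INJ Fermat.Agent.S28

variable {N : ℕ} [NeZero N] {A : ValuationSubring Kb}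

/-- an element of `k[j̄] ⊂ k(j̄)` is a polynomial in `j̄`, as a Laurent series -/
theorem pkgcr_exists_aeval {y : FFk A} (hy : y ∈ Algebra.adjoin (kA A) {pkgJbar A}) :
    ∃ P : (kA A)[X], Polynomial.aeval (jqModC (kA A)) P = (y : LaurentSeries (kA A)) := by
  rw [Algebra.adjoin_singleton_eq_range_aeval] at hy
  obtain ⟨P, hP⟩ := hy
  refine ⟨P, ?_⟩
  rw [← pkgcr_coe_aeval, ← hP]
  rfl

/-- **PKG-poly in Gauss form** -/
theorem pkgcr_poly (hN : N.Prime) (h5 : 5 ≤ N) (hA : A.LiesOverPrime N) : PkgcPoly N A := by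
  intro f u v hf
  have hB : PkgBase N A := pkg_base N A hN hA
  obtain ⟨h₁, e₁⟩ := pkg_red₁_of_gaussRed N A hB hf.2.1
  obtain ⟨h₂, e₂⟩ := pkg_red₂_of_gaussRed N A hB hf.2.2
  obtain ⟨hp₁, hp₂⟩ := stmtPkgPoly N hN h5 A hA hB f h₁ h₂ hf.1
  obtain ⟨P, hP⟩ := pkgcr_exists_aeval hp₁
  obtain ⟨Q, hQ⟩ := pkgcr_exists_aeval hp₂
  exact ⟨⟨P, by rw [hP, e₁]⟩, ⟨Q, by rw [hQ, e₂]⟩⟩

/-- the Goursat set exists -/
theorem pkgcr_exists_goursat (hN : N.Prime) (h5 : 5 ≤ N) (hA : A.LiesOverPrime N) :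
    ∃ S : Finset (kA A), PkgIsGoursat N A S :=
  stmtPkgGoursat N hN h5 A hA (pkgcr_poly hN h5 hA)

/-- the crossing set is finite and symmetric -/
theorem pkgcr_isFrob (hN : N.Prime) (h5 : 5 ≤ N) (hA : A.LiesOverPrime N) (hB : PkgBase N A) :
    PkgIsFrob N A hB := by
  obtain ⟨S, hS⟩ := pkgcr_exists_goursat hN h5 hA
  exact pkgcr_isFrob_of_goursat (stmtPkgType N hN h5 A hA) hB hS

/-- the crossing set is finite -/
theorem pkgcr_Xset_finite (hN : N.Prime) (h5 : 5 ≤ N) (hA : A.LiesOverPrime N)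
    (hB : PkgBase N A) : (pkgXset N A hB).Finite :=
  (pkgcr_isFrob hN h5 hA hB).finite

/-- membership in `pkgX` -/
theorem pkgcr_mem_X (hN : N.Prime) (h5 : 5 ≤ N) (hA : A.LiesOverPrime N)
    (hB : PkgBase N A) (x : Place (kA A) (FFk A) × Place (kA A) (FFk A)) :
    x ∈ pkgX N A hB ↔ x ∈ pkgXset N A hB :=
  pkgcr_mem_X_iff (pkgcr_Xset_finite hN h5 hA hB) x

/-- the crossing points in terms of a Goursat set -/
theorem pkgcr_mem_X_goursat (hN : N.Prime) (h5 : 5 ≤ N) (hA : A.LiesOverPrime N)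
    (hB : PkgBase N A) {S : Finset (kA A)} (hS : PkgIsGoursat N A S)
    (x : Place (kA A) (FFk A) × Place (kA A) (FFk A)) :
    x ∈ pkgX N A hB ↔
      ∃ s ∈ S, HasValueAt x.1 (pkgJbar A) s ∧ HasValueAt x.2 (pkgJbar A) (s ^ N) :=
  (pkgcr_mem_X hN h5 hA hB x).trans (pkgcr_mem_Xset_iff_of_zeros hB hS.zeros x)

/-- **PKG-cross** for one `(N, A, hB)`, from the instance of PKG-ev for the coordinate `j` -/
theorem pkgcr_isCross_of_evJ (hN : N.Prime) (h5 : 5 ≤ N) (hA : A.LiesOverPrime N)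
    (hB : PkgBase N A) (hEv : PkgEvJ N A hB) : PkgIsCross N A hB :=
  pkgcr_isCross (stmtPkgType N hN h5 A hA) hN h5 hA hB hEv (pkgcr_isFrob hN h5 hA hB)

/-- **PKG-cross**, from PKG-ev only. -/
theorem stmtPkgCross_of_ev (hEv : StmtPkgEv) : StmtPkgCross :=
  fun _ _ hN h5 _ hA hB =>
    pkgcr_isCross_of_evJ hN h5 hA hB (pkgcr_evJ_of_stmt hEv hN h5 hA hB)

end Fermat.Agent.S15.LN

end
end ZBZ2S15_027_5

/-! ### bundled: `Fermat.Agent.S15.PkgGlueFinal` -/
section ZBZ2S15_027_6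

/-!
# S15 / LOCAL-N / LN-PKG, piece PKG-glue (helper13): the wiring

With the landed pieces `stmtPkgPoly` (helper10), `stmtPkgGoursat` (helper89), `stmtPkgXset`,
`stmtPkgCross_of_goursat` (helper8), `stmtPkgType` (helper25) the statements PKG-glue and
PKG-cross have ONE open input: PKG-ev (`StmtPkgEv`).

* `pkggl_pkgcPoly` : `PkgcPoly N A` (PKG-poly in Gauss form);
* `pkggl_exists_goursat` : `∃ S, PkgIsGoursat N A S`;
* `pkggl_cross_of_ev : StmtPkgEv → StmtPkgCross`;
* `stmtPkgGlue_of_cross : StmtPkgCross → StmtPkgGlue`;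
* `stmtPkgGlue_of_ev : StmtPkgEv → StmtPkgGlue`.
-/

set_option autoImplicit false
set_option linter.unusedSectionVars false

noncomputable section

open AlgebraicCurve Module ModularCurve

namespace Fermat.Agent.S15.LN

open Fermat.Agent.W1 Fermat.Agent.S24 Fermat.Agent.S15 Fermat.Agent.ES.M Fermat.Agent.DEU
  Fermat.Agent.INJ

variable {N : ℕ} [NeZero N] {A : ValuationSubring Kb}

/-- **PKG-poly in Gauss form** -/
theorem pkggl_pkgcPoly (hN : N.Prime) (h5 : 5 ≤ N) (hA : A.LiesOverPrime N) :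
    PkgcPoly N A := by
  have hB : PkgBase N A := pkg_base N A hN hA
  intro f u v hf
  obtain ⟨hp, hu, hv⟩ := hf
  obtain ⟨h₁, e₁⟩ := pkg_red₁_of_gaussRed N A hB hu
  obtain ⟨h₂, e₂⟩ := pkg_red₂_of_gaussRed N A hB hv
  obtain ⟨hp₁, hp₂⟩ := stmtPkgPoly N hN h5 A hA hB f h₁ h₂ hp
  rw [Algebra.adjoin_singleton_eq_range_aeval] at hp₁ hp₂
  obtain ⟨P, hP⟩ := hp₁
  obtain ⟨Q, hQ⟩ := hp₂
  have hP' : Polynomial.aeval (pkgJbar A) P = pkgRed₁ N A hB ⟨f, h₁⟩ := hP
  have hQ' : Polynomial.aeval (pkgJbar A) Q = pkgRed₂ N A hB ⟨f, h₂⟩ := hQ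
  refine ⟨⟨P, ?_⟩, ⟨Q, ?_⟩⟩
  · rw [← e₁, ← hP', pkgty_coe_aeval]
    rfl
  · rw [← e₂, ← hQ', pkgty_coe_aeval]
    rfl

/-- **Goursat** -/
theorem pkggl_exists_goursat (hN : N.Prime) (h5 : 5 ≤ N) (hA : A.LiesOverPrime N) :
    ∃ S : Finset (kA A), PkgIsGoursat N A S :=
  stmtPkgGoursat N hN h5 A hA (pkggl_pkgcPoly hN h5 hA)

/-- **PKG-cross** from PKG-ev -/
theorem pkggl_cross_of_ev (hEv : StmtPkgEv) : StmtPkgCross :=
  stmtPkgCross_of_goursat stmtPkgType hEv fun _ _ hN h5 _ hA => pkggl_exists_goursat hN h5 hA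

/-- **PKG-glue** from PKG-cross -/
theorem stmtPkgGlue_of_cross (hC : StmtPkgCross) : StmtPkgGlue :=
  stmtPkgGlue_of stmtPkgPoly (fun _ _ hN h5 _ hA => pkggl_exists_goursat hN h5 hA) stmtPkgXset
    stmtPkgType hC

/-- **PKG-glue** from PKG-ev -/
theorem stmtPkgGlue_of_ev (hEv : StmtPkgEv) : StmtPkgGlue :=
  stmtPkgGlue_of_cross (pkggl_cross_of_ev hEv)

end Fermat.Agent.S15.LN

end
end ZBZ2S15_027_6

/-! ### bundled: `Fermat.Agent.S15.PkgWire` -/
section ZBZ2S15_027_7

/-!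
# S15 / LOCAL-N / LN-PKG: the wiring check (helper13)

The landed reductions of the wall LN-PKG compose:

* `stmtPkgEv_of : StmtPkgFibre → StmtPkgEv` (helper72);
* `stmtPkgCross_of_ev : StmtPkgEv → StmtPkgCross` (helper8);
* `stmtPkgGlue_of_ev : StmtPkgEv → StmtPkgGlue` (helper13);
* `stmtPkgCard`, `stmtPkgNice` (helper89, helper10);
* `stmtLocDivN_of_pieces` (helper5, helper17).

So LOCAL-N has exactly TWO open inputs: the fibre formula `StmtPkgFibre` (PKG-tv2) and
`StmtPkgRdiv`: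

  `stmtLocDivN_of_open : StmtPkgFibre → StmtPkgRdiv → StmtLocDivN`.
-/

set_option autoImplicit false

namespace Fermat.Agent.S15.LN

/-- **LOCDIV at the level prime** from PKG-ev and PKG-rdiv -/
theorem stmtLocDivN_of_ev (hEv : StmtPkgEv) (hRdiv : StmtPkgRdiv) : StmtLocDivN :=
  stmtLocDivN_of_pieces (stmtPkgCross_of_ev hEv) hRdiv (stmtPkgGlue_of_ev hEv) stmtPkgCard
    stmtPkgNice

/-- **LOCDIV at the level prime** from the fibre formula and PKG-rdiv -/
theorem stmtLocDivN_of_open (hFib : StmtPkgFibre) (hRdiv : StmtPkgRdiv) : StmtLocDivN :=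
  stmtLocDivN_of_ev (stmtPkgEv_of hFib) hRdiv

end Fermat.Agent.S15.LN


end ZBZ2S15_027_7
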