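/- GENERATED FILE (helper35, build-time optimisation, NOTES/ZB.md): verbatim concatenation of the modules
   Fermat.Agent.ES1.KumG
   Fermat.Agent.ES1.InjCoreStmtG
   Fermat.Agent.ES1.InjCoreG
   Do not edit; do not import together with these modules. -/
import Mathlib
import Fermat.Prelude.Def_ModularCurve_ReductionModL
import Fermat.Agent.ZB.INJ_002
import Fermat.Agent.ZB.INJ_003
import Fermat.Agent.ZB.INJ_009

/-! ### bundled: `Fermat.Agent.ES1.KumG` -/
section ZBES1_011_0

/-!
# ES₁/INJ₁: the Kummer field `Lf = F(h) ⊆ E((q))` for a GENERAL intermediate field `F`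
(copy of `INJ/Concrete.lean` with `modularFunctionFieldFullC E N` replaced by `F`)

`E` a field, `F = F ⊆ E((q))`, `h ∈ E((q))`.
* `kumFieldG F h : IntermediateField E (LaurentSeries E)` is `E(F ∪ {h})`;
* `kumInclG : F →ₐ[E] kumFieldG`, the algebra structure `kumAlgebraG` of `kumFieldG` over `F`
  (a `def`, to be installed with `letI`), `kumGenG : kumFieldG` the element `h`;
* `kumField_adjoin_genG` : `F⟮h⟯ = ⊤` in `kumFieldG`.
-/

set_option autoImplicit false

open ModularCurve IntermediateField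

namespace Fermat.Agent.ES1

variable {E : Type*} [Field E] (F : IntermediateField E (LaurentSeries E)) (h : LaurentSeries E)

/-- the field `F_N(h)` inside `E((q))` -/
noncomputable def kumFieldG : IntermediateField E (LaurentSeries E) :=
  IntermediateField.adjoin E
    ((F : Set (LaurentSeries E)) ∪ {h})

theorem le_kumFieldG : F ≤ kumFieldG F h := by
  intro x hx
  exact IntermediateField.subset_adjoin E _ (Or.inl hx)

theorem mem_kumField_selfG : h ∈ kumFieldG F h :=
  IntermediateField.subset_adjoin E _ (Or.inr rfl)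

/-- the inclusion `F_N → F_N(h)` -/
noncomputable def kumInclG : F →ₐ[E] kumFieldG F h :=
  IntermediateField.inclusion (le_kumFieldG F h)

theorem coe_kumInclG (x : F) :
    ((kumInclG F h x : kumFieldG F h) : LaurentSeries E) = (x : LaurentSeries E) :=
  IntermediateField.coe_inclusion _ _

theorem kumIncl_injectiveG : Function.Injective (kumInclG F h) :=
  (kumInclG F h).toRingHom.injective

/-- the generator `h` of `F_N(h)` -/
noncomputable def kumGenG : kumFieldG F h := ⟨h, mem_kumField_selfG F h⟩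

@[simp] theorem coe_kumGenG : ((kumGenG F h : kumFieldG F h) : LaurentSeries E) = h := rfl

/-- `F_N(h)` as an algebra over `F_N` -/
@[reducible] noncomputable def kumAlgebraG :
    Algebra F (kumFieldG F h) :=
  (kumInclG F h).toRingHom.toAlgebra

theorem kum_algebraMap_eqG (x : F) :
    letI := kumAlgebraG F h
    algebraMap F (kumFieldG F h) x = kumInclG F h x := rfl

theorem kum_isScalarTowerG :
    letI := kumAlgebraG F h
    IsScalarTower E F (kumFieldG F h) := by
  letI := kumAlgebraG F h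
  refine IsScalarTower.of_algebraMap_eq fun c => ?_
  rw [kum_algebraMap_eqG]
  exact ((kumInclG F h).commutes c).symm

/-- `F_N(h)` is generated by `h` over `F_N`. -/
theorem kumField_adjoin_genG :
    letI := kumAlgebraG F h
    IntermediateField.adjoin F {kumGenG F h} = ⊤ := by
  letI := kumAlgebraG F h
  haveI := kum_isScalarTowerG F h
  rw [eq_top_iff]
  rintro ⟨x, hx⟩ -
  let M : IntermediateField E (LaurentSeries E) :=
    IntermediateField.lift
      ((IntermediateField.adjoin F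
        {kumGenG F h}).restrictScalars E)
  have hM : kumFieldG F h ≤ M := by
    rw [kumFieldG, IntermediateField.adjoin_le_iff]
    rintro y (hy | hy)
    · refine ⟨kumInclG F h ⟨y, hy⟩, ?_, ?_⟩
      · have : kumInclG F h ⟨y, hy⟩ =
            algebraMap F (kumFieldG F h) ⟨y, hy⟩ :=
          (kum_algebraMap_eqG F h _).symm
        rw [this]
        exact IntermediateField.algebraMap_mem
          (IntermediateField.adjoin F {kumGenG F h}) _
      · show ((kumInclG F h ⟨y, hy⟩ : kumFieldG F h) : LaurentSeries E) = y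
        exact coe_kumInclG F h _
    · rw [Set.mem_singleton_iff] at hy
      subst hy
      exact ⟨kumGenG F y, IntermediateField.mem_adjoin_simple_self _ _, rfl⟩
  obtain ⟨z, hz, hzx⟩ := hM hx
  have : z = ⟨x, hx⟩ := Subtype.ext hzx
  rw [← this]
  exact hz

end Fermat.Agent.ES1


end ZBES1_011_0

/-! ### bundled: `Fermat.Agent.ES1.InjCoreStmtG` -/
section ZBES1_011_1

/-!
# ES₁/INJ₁: the line-independent core for a GENERAL intermediate field `F ⊂ E((q))`
(copy of `INJ/InjCoreStmt.lean`, `modularFunctionFieldFullC E N` replaced by `F`)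

`A₀` a discrete valuation ring, `E = Frac A₀` of characteristic `0`, `r : A₀ → k` with kernel
`(π)`, `F = F ⊂ E((q))` with Gauss key data `kd` for a coordinate `t₀`
of order `-1`, `Y₁ ≡ Y₂ ≢ 0 mod π` in `A₀((q))` with images in `F`, `h ∈ E((q))` with
`h ^ p = Y₁ / Y₂`, `h ∉ F`.  If `F` satisfies `(a)` and `Lf = F(h) = kumFieldG F h` satisfies
finiteness, `(b)`, `(b')` of the tame specialization theorem (for the coordinate `t₀`), we get a
contradiction.

`InjCoreStmt` is proved in `INJ/InjCore.lean` (`injCore : TameSpecStmt.{0} → InjCoreStmt`); the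
instantiations for the three lines (`j`, `hm2`, `hm3`) prove `InjCoreStmt → StmtInjNF N ℓ p`.
-/

set_option autoImplicit false

namespace Fermat.Agent.ES1

open Fermat.Agent.INJ

open Polynomial ModularCurve IntermediateField AlgebraicCurve

/-- The line-independent core of (INJ), as a statement. -/
def InjCoreStmtG : Prop :=
  ∀ {A₀ E k : Type} [CommRing A₀] [IsDomain A₀] [IsDiscreteValuationRing A₀]
    [Field E] [Algebra A₀ E] [IsFractionRing A₀ E] [CharZero E]
    [Field k] (r : A₀ →+* k) (F : IntermediateField E (LaurentSeries E)) (h : LaurentSeries E)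
    {π : A₀} (_ : Irreducible π) (_ : r π = 0) (_ : ∀ a, r a = 0 → π ∣ a)
    {t₀ : LaurentSeries A₀} {n : ℕ} {x : Fin n → LaurentSeries A₀}
    (kd : GaussKD r F t₀ x)
    (_ : (coeffMap (algebraMap A₀ E) t₀).order = -1)
    {p : ℕ} (_ : p.Prime) (_ : ¬ π ∣ (p : A₀))
    (ζ u : A₀) (_ : IsPrimitiveRoot ζ p) (_ : (ζ - 1) * u = 1)
    (Y₁ Y₂ : LaurentSeries A₀)
    (_ : coeffMap (algebraMap A₀ E) Y₁ ∈ F)
    (_ : coeffMap (algebraMap A₀ E) Y₂ ∈ F)
    (_ : coeffMap r Y₁ = coeffMap r Y₂) (_ : coeffMap r Y₂ ≠ 0)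
    (_ : h ^ p * coeffMap (algebraMap A₀ E) Y₂ = coeffMap (algebraMap A₀ E) Y₁)
    (_ : h ∉ F)
    (_ : ∀ [Algebra A₀ F]
      [IsScalarTower A₀ E F],
      TSGoodBasis (A₀ := A₀) (E := E) (Lf := F) π
        ⟨coeffMap (algebraMap A₀ E) t₀, kd.t_mem⟩)
    (_ : FiniteDimensional
      E⟮(⟨coeffMap (algebraMap A₀ E) t₀, le_kumFieldG F h kd.t_mem⟩ : kumFieldG F h)⟯
      (kumFieldG F h))
    (S : Finset A₀) (_ : ∀ c ∈ S, ∀ c' ∈ S, c ≠ c' → ¬ π ∣ c - c')
    (e : ℕ) (_ : IsUnit (e : A₀)) (_ : ∃ ζ : A₀, IsPrimitiveRoot ζ e)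
    (_ : ∀ [Algebra A₀ (kumFieldG F h)] [IsScalarTower A₀ E (kumFieldG F h)],
      TSUnramified (A₀ := A₀) (E := E) (Lf := kumFieldG F h)
        ⟨coeffMap (algebraMap A₀ E) t₀, le_kumFieldG F h kd.t_mem⟩ S ∧
      TSTame (A₀ := A₀) (E := E) (Lf := kumFieldG F h)
        ⟨coeffMap (algebraMap A₀ E) t₀, le_kumFieldG F h kd.t_mem⟩ S e),
    False

end Fermat.Agent.ES1


end ZBES1_011_1

/-! ### bundled: `Fermat.Agent.ES1.InjCoreG` -/
section ZBES1_011_2

/-!
# ES₁/INJ₁: the line-independent core of (INJ) for a GENERAL intermediate field `F ⊂ E((q))`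

Copy of the proof of `INJ/InjCore.lean` (`injCore`), with `modularFunctionFieldFullC E N`
replaced by an arbitrary intermediate field `F` carrying Gauss key data.
-/

set_option autoImplicit false
set_option linter.unusedSectionVars false
set_option linter.style.haveILetI false

noncomputable section

namespace Fermat.Agent.ES1

open Polynomial ModularCurve IntermediateField AlgebraicCurve Fermat.Agent.S28 Fermat.Agent.INJ

open ChartGB

section Core

variable {A₀ E k : Type} [CommRing A₀] [IsDomain A₀] [IsDiscreteValuationRing A₀]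
  [Field E] [Algebra A₀ E] [IsFractionRing A₀ E] [CharZero E]
  [Field k] (r : A₀ →+* k) (F : IntermediateField E (LaurentSeries E)) (h : LaurentSeries E)

local notation "FN" => F
local notation "LN" => kumFieldG F h
local notation "ι" => algebraMap A₀ E

/-- **The line-independent core of (INJ).** -/
theorem injCoreG (hTS : TameSpecStmt.{0})
    {π : A₀} (hπ : Irreducible π) (hrπ : r π = 0) (hr : ∀ a, r a = 0 → π ∣ a)
    {t₀ : LaurentSeries A₀} {n : ℕ} {x : Fin n → LaurentSeries A₀}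
    (kd : GaussKD r FN t₀ x)
    (ht₀ : (coeffMap ι t₀).order = -1)
    {p : ℕ} (hp : p.Prime) (hpπ : ¬ π ∣ (p : A₀))
    (ζ u : A₀) (hζ : IsPrimitiveRoot ζ p) (hζu : (ζ - 1) * u = 1)
    (Y₁ Y₂ : LaurentSeries A₀)
    (h₁ : coeffMap ι Y₁ ∈ FN) (h₂ : coeffMap ι Y₂ ∈ FN)
    (hred : coeffMap r Y₁ = coeffMap r Y₂) (hne : coeffMap r Y₂ ≠ 0)
    (hh : h ^ p * coeffMap ι Y₂ = coeffMap ι Y₁)
    (hnot : h ∉ FN)
    (hgoodF : ∀ [Algebra A₀ FN] [IsScalarTower A₀ E FN],
      TSGoodBasis (A₀ := A₀) (E := E) (Lf := FN) π ⟨coeffMap ι t₀, kd.t_mem⟩)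
    (hfin : FiniteDimensional
      E⟮(⟨coeffMap ι t₀, le_kumFieldG F h kd.t_mem⟩ : LN)⟯ LN)
    (S : Finset A₀) (hS : ∀ c ∈ S, ∀ c' ∈ S, c ≠ c' → ¬ π ∣ c - c')
    (e : ℕ) (he : IsUnit (e : A₀)) (hζe : ∃ ζ : A₀, IsPrimitiveRoot ζ e)
    (hram : ∀ [Algebra A₀ LN] [IsScalarTower A₀ E LN],
      TSUnramified (A₀ := A₀) (E := E) (Lf := LN)
        ⟨coeffMap ι t₀, le_kumFieldG F h kd.t_mem⟩ S ∧
      TSTame (A₀ := A₀) (E := E) (Lf := LN)
        ⟨coeffMap ι t₀, le_kumFieldG F h kd.t_mem⟩ S e) :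
    False := by
  classical
  have hinj : Function.Injective ι := IsFractionRing.injective A₀ E
  have hcinj : Function.Injective (coeffMap ι) := coeffMap_inj_of_injective ι hinj
  -- instances
  letI algF : Algebra A₀ FN := coreAlg A₀ FN
  haveI towF : IsScalarTower A₀ E FN := coreAlg_isScalarTower A₀ FN
  letI algL : Algebra A₀ LN := coreAlg A₀ LN
  haveI towL : IsScalarTower A₀ E LN := coreAlg_isScalarTower A₀ LN
  letI algFL : Algebra FN LN := kumAlgebraG F h
  haveI towEFL : IsScalarTower E FN LN := kum_isScalarTowerG F h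
  haveI towAFL : IsScalarTower A₀ FN LN := IsScalarTower.of_algebraMap_eq (fun a => by
    show algebraMap E LN (ι a) = kumInclG F h (algebraMap E FN (ι a))
    exact ((kumInclG F h).commutes _).symm)
  -- the coordinate
  set tF : FN := ⟨coeffMap ι t₀, kd.t_mem⟩ with htFdef
  set tL : LN := ⟨coeffMap ι t₀, le_kumFieldG F h kd.t_mem⟩ with htLdef
  have htrF : Transcendental E tF :=
    bgConst_transcendental FN tF (by
      show (coeffMap ι t₀).order ≠ 0
      rw [ht₀]; norm_num)
  have htrL : Transcendental E tL :=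
    bgConst_transcendental LN tL (by
      show (coeffMap ι t₀).order ≠ 0
      rw [ht₀]; norm_num)
  have htLF : algebraMap FN LN tF = tL := by
    apply Subtype.ext
    rw [kum_algebraMap_eqG, coe_kumInclG]
  -- `Y₁ - Y₂ = π D`
  obtain ⟨D, hD⟩ := exists_eq_C_mul_of_coeffMap_eq_zero r hr (Y₁ - Y₂)
    (by rw [map_sub, hred, sub_self])
  have hιπ : ι π ≠ 0 := fun h0 => hπ.ne_zero (hinj (by rw [h0, map_zero]))
  have hDeq : coeffMap ι Y₁ - coeffMap ι Y₂ = HahnSeries.C (ι π) * coeffMap ι D := by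
    rw [← map_sub, hD, map_mul, Fermat.Agent.INJ.coeffMap_hahnC]
  have hCeq : (HahnSeries.C (ι π) : LaurentSeries E) = algebraMap E (LaurentSeries E) (ι π) :=
    (algebraMap_laurentSeries_eq_single E (ι π)).symm
  have hCmem : (HahnSeries.C (ι π) : LaurentSeries E) ∈ FN := by
    rw [hCeq]
    exact IntermediateField.algebraMap_mem FN _
  have hC0 : (HahnSeries.C (ι π) : LaurentSeries E) ≠ 0 := by
    intro h0
    apply hιπ
    have := congrArg (fun z : LaurentSeries E => z.coeff 0) h0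
    simpa using this
  have hDmem : coeffMap ι D ∈ FN := by
    have h1 : coeffMap ι D = (HahnSeries.C (ι π))⁻¹ * (coeffMap ι Y₁ - coeffMap ι Y₂) := by
      rw [hDeq, ← mul_assoc, inv_mul_cancel₀ hC0, one_mul]
    rw [h1]
    exact mul_mem (inv_mem hCmem) (sub_mem h₁ h₂)
  set y₁ : FN := ⟨coeffMap ι Y₁, h₁⟩ with hy₁def
  set y₂ : FN := ⟨coeffMap ι Y₂, h₂⟩ with hy₂def
  set d : FN := ⟨coeffMap ι D, hDmem⟩ with hddef
  have hy₂0 : y₂ ≠ 0 := by
    intro h0
    apply hne
    have h1 : coeffMap ι Y₂ = 0 := congrArg Subtype.val h0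
    have h2 : Y₂ = 0 := hcinj (by rw [h1, map_zero])
    rw [h2, map_zero]
  have hyd : y₁ - y₂ = algebraMap A₀ FN π * d := by
    apply Subtype.ext
    show coeffMap ι Y₁ - coeffMap ι Y₂ = _
    rw [hDeq, hCeq]
    rfl
  -- common denominator
  have hFF : ∀ f ∈ FN, ∃ z : FN, (FN).val z = f := fun f hf => ⟨⟨f, hf⟩, rfl⟩
  have hτF : (FN).val tF = coeffMap ι t₀ := rfl
  obtain ⟨g₁, hg₁, hi₁⟩ := bgInt_exists_mul_isIntegral (FN).val kd hπ.ne_zero hπ.not_isUnit hr
    hFF hτF y₁ h₁ (coeffMap_mem_gaussRing ι r Y₁)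
  obtain ⟨g₂, hg₂, hi₂⟩ := bgInt_exists_mul_isIntegral (FN).val kd hπ.ne_zero hπ.not_isUnit hr
    hFF hτF y₂ h₂ (coeffMap_mem_gaussRing ι r Y₂)
  obtain ⟨g₃, hg₃, hi₃⟩ := bgInt_exists_mul_isIntegral (FN).val kd hπ.ne_zero hπ.not_isUnit hr
    hFF hτF d hDmem (coeffMap_mem_gaussRing ι r D)
  set g : A₀[X] := g₁ * g₂ * g₃ with hgdef
  have hg : g.map r ≠ 0 := by
    rw [hgdef, Polynomial.map_mul, Polynomial.map_mul]
    exact mul_ne_zero (mul_ne_zero hg₁ hg₂) hg₃
  have hG₁ : IsIntegral (Algebra.adjoin A₀ {tF}) (aeval tF g * y₁) := by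
    have : aeval tF g * y₁ = aeval tF (g₂ * g₃) * (aeval tF g₁ * y₁) := by
      rw [hgdef]; simp only [map_mul]; ring
    rw [this]; exact core_isIntegral_aeval_mul _ _ hi₁
  have hG₂ : IsIntegral (Algebra.adjoin A₀ {tF}) (aeval tF g * y₂) := by
    have : aeval tF g * y₂ = aeval tF (g₁ * g₃) * (aeval tF g₂ * y₂) := by
      rw [hgdef]; simp only [map_mul]; ring
    rw [this]; exact core_isIntegral_aeval_mul _ _ hi₂
  have hG₃ : IsIntegral (Algebra.adjoin A₀ {tF}) (aeval tF g * d) := by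
    have : aeval tF g * d = aeval tF (g₁ * g₂) * (aeval tF g₃ * d) := by
      rw [hgdef]; simp only [map_mul]; ring
    rw [this]; exact core_isIntegral_aeval_mul _ _ hi₃
  -- reductions
  have hrg : coeffMap r (aeval t₀ g) ≠ 0 := by
    rw [redDVR_coeffMap_aeval]
    intro h0
    exact hg ((transcendental_iff.mp kd.transc) _ h0)
  have hne₁ : coeffMap r Y₁ ≠ 0 := by rw [hred]; exact hne
  have hGcoe : ((aeval tF g : FN) : LaurentSeries E) = coeffMap ι (aeval t₀ g) :=
    bgInt_map_aeval (FN).val hτF g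
  -- `s = g(t) y₂`, `W = s ^ (p - 1) * (g(t) y₁)`
  set s : FN := aeval tF g * y₂ with hsdef
  set W : FN := s ^ (p - 1) * (aeval tF g * y₁) with hWdef
  have hs0 : s ≠ 0 := by
    rw [hsdef]
    refine mul_ne_zero ?_ hy₂0
    intro h0
    apply hrg
    have h1 : coeffMap ι (aeval t₀ g) = 0 := by rw [← hGcoe, h0]; rfl
    have h2 : aeval t₀ g = 0 := hcinj (by rw [h1, map_zero])
    rw [h2, map_zero]
  have hscoe : ((s : FN) : LaurentSeries E) = coeffMap ι (aeval t₀ g * Y₂) := by
    rw [map_mul, ← hGcoe]; rfl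
  have hWcoe : ((W : FN) : LaurentSeries E) =
      coeffMap ι ((aeval t₀ g * Y₂) ^ (p - 1) * (aeval t₀ g * Y₁)) := by
    rw [map_mul, map_pow, ← hscoe, map_mul, ← hGcoe]; rfl
  have hsred : coeffMap r (aeval t₀ g * Y₂) ≠ 0 := by
    rw [map_mul]; exact mul_ne_zero hrg hne
  have hWred : coeffMap r ((aeval t₀ g * Y₂) ^ (p - 1) * (aeval t₀ g * Y₁)) ≠ 0 := by
    rw [map_mul, map_pow, map_mul (coeffMap r) (aeval t₀ g) Y₁]
    exact mul_ne_zero (pow_ne_zero _ hsred) (mul_ne_zero hrg hne₁)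
  have hsint : IsIntegral (Algebra.adjoin A₀ {tF}) s := hG₂
  have hWint : IsIntegral (Algebra.adjoin A₀ {tF}) W := (hG₂.pow _).mul hG₁
  -- the norm of `W`
  obtain ⟨hWg, hWgred⟩ := core_gaussRed_ne_zero r hinj _ hWcoe hWred
  obtain ⟨nW, -, hnW, hnorm⟩ := bgInt_norm (FN).val kd hπ hrπ hr hFF hτF htrF W W.2 hWg hWgred
    hWint
  -- the Kummer generator
  set hL : LN := kumGenG F h with hLdef
  set w : FN := y₁ / y₂ with hwdef
  have hY₂0 : coeffMap ι Y₂ ≠ 0 := fun h0 => hy₂0 (Subtype.ext h0)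
  have hhL : hL ^ p = algebraMap FN LN w := by
    apply Subtype.ext
    rw [kum_algebraMap_eqG, coe_kumInclG]
    show h ^ p = coeffMap ι Y₁ / coeffMap ι Y₂
    rw [eq_div_iff hY₂0]; exact hh
  have hAFinj : Function.Injective (algebraMap A₀ FN) := by
    intro a b hab
    have h1 : algebraMap E FN (ι a) = algebraMap E FN (ι b) := hab
    exact hinj ((algebraMap E FN).injective h1)
  have hζF : IsPrimitiveRoot (algebraMap A₀ FN ζ) p := hζ.map_of_injective hAFinj
  have hwnot : ∀ y : FN, y ^ p ≠ w := by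
    intro y hy
    obtain ⟨z, hz⟩ := core_mem_of_pow_eq hp.pos hζF hhL y hy
    apply hnot
    have hz' : ((z : FN) : LaurentSeries E) = h := by
      have := congrArg Subtype.val hz
      rwa [kum_algebraMap_eqG, coe_kumInclG] at this
    rw [← hz']; exact z.2
  have htop : FN⟮hL⟯ = ⊤ := kumField_adjoin_genG F h
  have hdeg : Module.finrank FN LN = p := bg_finrank hp hζF hhL htop hwnot
  set H : LN := hL * algebraMap FN LN s with hHdef
  have hgenH : FN⟮H⟯ = ⊤ := KumU.adjoin_mul_base hL s hs0 htop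
  have hHW : H ^ p = algebraMap FN LN W := by
    rw [hHdef, mul_pow, hhL, ← map_pow, ← map_mul]
    congr 1
    have hpow : s ^ p = s ^ (p - 1) * s := by
      rw [← pow_succ, Nat.sub_add_cancel hp.pos]
    rw [hWdef, hwdef, hpow, hsdef]
    field_simp
  have hgoodL : TSGoodBasis (A₀ := A₀) (E := E) (Lf := LN) π (algebraMap FN LN tF) :=
    BGBasis.tsGoodBasis_kummer π hπ.prime tF hp.pos hpπ H W hHW hWint hdeg hgenH nW hnW hnorm
      hgoodF
  rw [htLF] at hgoodL
  -- the tame specialization theorem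
  obtain ⟨P₀, -, hP₀, -⟩ := bgConst_exists_place LN tL ht₀
  haveI := hfin
  have hprime : Prime (algebraMap A₀ (integralClosure (Algebra.adjoin A₀ {tL}) LN) π) :=
    hTS A₀ E LN π hπ tL htrL (bgConst_mem_range_of_isAlgebraic LN) hgoodL S hS hram.1 e he hζe
      hram.2 ⟨P₀, hP₀⟩
  -- the automorphism
  obtain ⟨σ, hσfix, hσh⟩ := bg_aut' hp hζF hhL htop hwnot
  have hAL : ∀ a : A₀, algebraMap A₀ LN a = algebraMap FN LN (algebraMap A₀ FN a) :=
    fun a => IsScalarTower.algebraMap_apply A₀ FN LN a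
  have hσA : ∀ a : A₀, σ (algebraMap A₀ LN a) = algebraMap A₀ LN a := by
    intro a
    rw [hAL, hσfix]
  have hσt : σ tL = tL := by rw [← htLF, hσfix]
  have hσh' : σ hL = algebraMap A₀ LN ζ * hL := by rw [hσh, hAL]
  -- integrality in `Lf`
  have hintL : ∀ z : FN, IsIntegral (Algebra.adjoin A₀ {tF}) z →
      IsIntegral (Algebra.adjoin A₀ {tL}) (algebraMap FN LN z) := by
    intro z hz
    have := BGBasis.isIntegral_adjoin_map (Lf := LN) tF z hz
    rwa [htLF] at this
  have hsC : IsIntegral (Algebra.adjoin A₀ {tL}) (algebraMap FN LN s) := hintL s hsint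
  have hcC : IsIntegral (Algebra.adjoin A₀ {tL}) (algebraMap FN LN (aeval tF g * d)) :=
    hintL _ hG₃
  have hshC : IsIntegral (Algebra.adjoin A₀ {tL}) (algebraMap FN LN s * hL) := by
    have hH : IsIntegral (Algebra.adjoin A₀ {tL}) H := by
      apply IsIntegral.of_pow hp.pos
      rw [hHW]
      exact hintL W hWint
    rwa [hHdef, mul_comm] at hH
  -- `s` is not divisible by `π`
  have hFL : ∀ f ∈ FN, ∃ z : LN, (LN).val z = f :=
    fun f hf => ⟨⟨f, le_kumFieldG F h hf⟩, rfl⟩
  have hτL : (LN).val tL = coeffMap ι t₀ := rfl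
  have hsLcoe : (LN).val (algebraMap FN LN s) = coeffMap ι (aeval t₀ g * Y₂) := by
    rw [← hscoe, kum_algebraMap_eqG]
    exact coe_kumInclG F h s
  have hsLF : (LN).val (algebraMap FN LN s) ∈ FN := by
    rw [hsLcoe, ← hscoe]; exact s.2
  obtain ⟨hsg, hsgred⟩ := core_gaussRed_ne_zero r hinj _ hsLcoe hsred
  have hs : ¬ ∃ z' : LN, IsIntegral (Algebra.adjoin A₀ {tL}) z' ∧
      algebraMap FN LN s = algebraMap A₀ LN π * z' :=
    core_not_dvd (LN).val kd hπ hrπ hr hFL hτL htrL (algebraMap FN LN s) hsLF hsg hsgred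
  -- the product formula
  have hζL : IsPrimitiveRoot (algebraMap A₀ LN ζ) p := by
    rw [hAL]
    exact hζF.map_of_injective (algebraMap FN LN).injective
  have hprod : ∏ i ∈ Finset.range p, (hL - algebraMap A₀ LN ζ ^ i) = hL ^ p - 1 := by
    have h1 := X_pow_sub_C_eq_prod hζL hp.pos (one_pow p : (1 : LN) ^ p = 1)
    have h2 := congrArg (Polynomial.eval hL) h1
    rw [Polynomial.eval_sub, Polynomial.eval_pow, Polynomial.eval_X, Polynomial.eval_C,
      Polynomial.eval_prod] at h2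
    rw [h2]
    refine Finset.prod_congr rfl fun i _ => ?_
    rw [Polynomial.eval_sub, Polynomial.eval_X, Polynomial.eval_C, mul_one]
  -- the congruence
  have hw : (hL ^ p - 1) * algebraMap FN LN s
      = algebraMap A₀ LN π * algebraMap FN LN (aeval tF g * d) := by
    rw [hhL, hAL, ← map_one (algebraMap FN LN), ← map_sub, ← map_mul, ← map_mul]
    congr 1
    have h1 : (w - 1) * y₂ = y₁ - y₂ := by
      rw [hwdef]; field_simp
    calc (w - 1) * s = aeval tF g * ((w - 1) * y₂) := by rw [hsdef]; ring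
      _ = aeval tF g * (algebraMap A₀ FN π * d) := by rw [h1, hyd]
      _ = algebraMap A₀ FN π * (aeval tF g * d) := by ring
  exact endGame π tL hprime σ hσA hσt ζ u hζu hsC hsC hcC (hσfix s) hs hs hshC hσh' hprod hw

end Core

/-- `InjCoreStmt` follows from the tame specialization theorem. -/
theorem injCoreStmtG_of_tameSpec (hTS : TameSpecStmt.{0}) : InjCoreStmtG := by
  intro A₀ E k _ _ _ _ _ _ _ _ r F h π hπ hrπ hr t₀ n x kd ht₀ p hp hpπ ζ u hζ hζu Y₁ Y₂ h₁ h₂
    hred hne hh hnot hgoodF hfin S hS e he hζe hram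
  exact injCoreG r F h hTS hπ hrπ hr kd ht₀ hp hpπ ζ u hζ hζu Y₁ Y₂ h₁ h₂ hred hne hh hnot
    hgoodF hfin S hS e he hζe hram

end Fermat.Agent.ES1

end
end ZBES1_011_2
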