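/- GENERATED FILE (helper35, build-time optimisation, NOTES/ZB.md): verbatim concatenation of the modules
   Fermat.Agent.S48.Plan
   Fermat.Agent.S48.Plan2
   Fermat.Agent.ES1.Package
   Fermat.Agent.ES1.Inf.PkgDefs
   Fermat.Agent.S48.SigmaStmt
   Do not edit; do not import together with these modules. -/
import Mathlib
import Fermat.Prelude.Def_GaloisRep_Residual
import Fermat.Prelude.Def_Deformations_MatrixRepresentation
import Fermat.Agent.ZB.ES_001

/-! ### bundled: `Fermat.Agent.S48.Plan` -/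
section ZBS48_002_0

/-!
# S48 (Deligne–Serre): statements of the pieces (definitions only, no proofs)

Route (NOTES/S48-plan.md, v2).  `f` = the weight one form of the statement, `a_p = qCoeff f p`.

* `StmtInt`      (INT)   `a_p` is an algebraic integer (`p ∤ N`).
* `StmtDensity`  (DENS)  for every `η > 0` there is a finite `Y ⊂ ℂ` with
                         `∑_{p ∈ P} p^{-s} ≤ η log (1/(s-1)) + C` for finite sets `P` of primes with `a_p ∉ Y`.
* `StmtRes`      (RES)   for every large prime `ℓ` and every maximal ideal `𝔪 ∋ ℓ` of `ℤ̄`: a residual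
                         representation `G_ℚ → GL₂(ℤ̄/𝔪)`, of finite level, unramified outside `N ℓ`,
                         with `tr Frob_p = a_p mod 𝔪`, `det Frob_p = ε(p) mod 𝔪`.
                         (= weight one Eisenstein series + lifting lemma + the Eichler–Shimura package
                         for `Γ₁(N ℓ)`: the mountain.)
* `StmtChebDensity` (CD) Chebotarev, lower Dirichlet density, for conjugation stable sets.
* `StmtLift`     (LIFT)  a representation of a finite group of order prime to `ℓ` over `ℤ̄/𝔪` lifts to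
                         `ℂ`, compatibly with traces and determinants.
* `StmtTraceSpan`, `StmtTraceDiag`, `StmtSemi` (GT') the Burnside trace bound: if most elements of
                         the image have their trace in a set of `M` elements, the image has at most
                         `2 M⁴` elements.  (Replaces Dickson's classification.)

Secondary (consumed by INT / DENS / RES):
* `StmtNeben`    (N)     `f` has nebentypus `ε`.
* `StmtSigma`    (SIG)   the conjugates `∑ σ(a_n) qⁿ` of `f` are weight one cusp forms on `Γ₁(N)`.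
-/

set_option autoImplicit false

open CongruenceSubgroup UpperHalfPlane
open scoped MatrixGroups

namespace Fermat.Agent.S48

/-- the absolute Galois group of `ℚ` -/
abbrev GalQ : Type := AlgebraicClosure ℚ ≃ₐ[ℚ] AlgebraicClosure ℚ

/-- the ring of algebraic integers inside `ℂ` -/
abbrev Zb : Type := integralClosure ℤ ℂ

/-- the hypotheses of S48 on the form `f` -/
def IsHeckeEigen (N : ℕ) (ε : DirichletCharacter ℂ N) (f : CuspForm (Gamma1 N) 1) : Prop :=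
  ModularFormClass.qCoeff f 1 = 1 ∧
    ∀ p : ℕ, p.Prime → ¬ p ∣ N → ∀ n : ℕ,
      ModularFormClass.qCoeff f (p * n) +
          ε (p : ZMod N) * (if p ∣ n then ModularFormClass.qCoeff f (n / p) else 0) =
        ModularFormClass.qCoeff f p * ModularFormClass.qCoeff f n

/-- `ρ` is trivial on `Gal(ℚ̄/F)` for a finite Galois extension `F/ℚ` -/
def FiniteLevel {M : Type} [MulOneClass M] (ρ : GalQ →* M) : Prop :=
  ∃ F : IntermediateField ℚ (AlgebraicClosure ℚ), FiniteDimensional ℚ F ∧ IsGalois ℚ F ∧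
    ∀ σ : GalQ, (∀ x ∈ F, σ x = x) → ρ σ = 1

/-! ### Top level pieces -/

/-- (INT) the coefficients `a_p`, `p ∤ N`, are algebraic integers. -/
def StmtInt : Prop :=
  ∀ (N : ℕ) [NeZero N] (ε : DirichletCharacter ℂ N) (f : CuspForm (Gamma1 N) 1),
    IsHeckeEigen N ε f → ∀ p : ℕ, p.Prime → ¬ p ∣ N →
      ∃ a : Zb, (a : ℂ) = ModularFormClass.qCoeff f p

/-- (DENS) Rankin + conjugates: outside a set of primes of upper Dirichlet density `≤ η`, the
`a_p` take finitely many values. -/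
def StmtDensity : Prop :=
  ∀ (N : ℕ) [NeZero N] (ε : DirichletCharacter ℂ N) (f : CuspForm (Gamma1 N) 1),
    IsHeckeEigen N ε f → ∀ η : ℝ, 0 < η →
      ∃ (Y : Finset ℂ) (C : ℝ), ∀ s : ℝ, 1 < s → s ≤ 2 → ∀ P : Finset ℕ,
        (∀ p ∈ P, p.Prime ∧ ¬ p ∣ N ∧ ModularFormClass.qCoeff f p ∉ Y) →
          ∑ p ∈ P, (p : ℝ) ^ (-s) ≤ η * Real.log (1 / (s - 1)) + C

/-- (RES) the residual representations. -/
def StmtRes : Prop :=
  ∀ (N : ℕ) [NeZero N] (ε : DirichletCharacter ℂ N) (f : CuspForm (Gamma1 N) 1),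
    IsHeckeEigen N ε f → ∃ ℓ₀ : ℕ, ∀ ℓ : ℕ, ℓ.Prime → ℓ₀ ≤ ℓ →
      ∀ 𝔪 : Ideal Zb, 𝔪.IsMaximal → ((ℓ : ℕ) : Zb) ∈ 𝔪 →
        ∃ ρ : GalQ →* GL (Fin 2) (Zb ⧸ 𝔪), FiniteLevel ρ ∧
          ∀ p : ℕ, p.Prime → ¬ p ∣ N * ℓ →
            ∀ A : ValuationSubring (AlgebraicClosure ℚ), A.LiesOverPrime p →
              (∀ σ ∈ A.inertiaSubgroupIn ℚ, ρ σ = 1) ∧
              ∀ τ : GalQ, A.IsFrobeniusAt τ p →
                ∃ a e : Zb, (a : ℂ) = ModularFormClass.qCoeff f p ∧ (e : ℂ) = ε (p : ZMod N) ∧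
                  Matrix.trace (ρ τ : Matrix (Fin 2) (Fin 2) (Zb ⧸ 𝔪)) = Ideal.Quotient.mk 𝔪 a ∧
                  Matrix.det (ρ τ : Matrix (Fin 2) (Fin 2) (Zb ⧸ 𝔪)) = Ideal.Quotient.mk 𝔪 e

/-- (CD) Chebotarev's density theorem, as a lower bound for the Dirichlet density of the primes
whose Frobenius elements lie in a conjugation stable set `C ⊆ Gal(F/ℚ)`. -/
def StmtChebDensity : Prop :=
  ∀ (F : IntermediateField ℚ (AlgebraicClosure ℚ)) [FiniteDimensional ℚ F] [IsGalois ℚ F]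
    (S : Finset ℕ) (C : Set (F ≃ₐ[ℚ] F)), (∀ g σ : F ≃ₐ[ℚ] F, σ ∈ C → g * σ * g⁻¹ ∈ C) →
    ∀ δ : ℝ, 0 < δ → ∃ s₀ : ℝ, 1 < s₀ ∧ ∀ s : ℝ, 1 < s → s < s₀ →
      ∃ P : Finset ℕ,
        (∀ p ∈ P, p.Prime ∧ p ∉ S ∧
          ∀ A : ValuationSubring (AlgebraicClosure ℚ), A.LiesOverPrime p →
            ∀ τ : GalQ, A.IsFrobeniusAt τ p → AlgEquiv.restrictNormal τ F ∈ C) ∧
        ((C.ncard : ℝ) / (Nat.card (F ≃ₐ[ℚ] F) : ℝ) - δ) * Real.log (1 / (s - 1)) ≤
          ∑ p ∈ P, (p : ℝ) ^ (-s)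

/-- (LIFT) lifting to characteristic zero. -/
def StmtLift : Prop :=
  ∀ (𝔪 : Ideal Zb), 𝔪.IsMaximal → ∀ (G : Type) [Group G] [Finite G],
    ((Nat.card G : ℕ) : Zb) ∉ 𝔪 → ∀ ρbar : G →* GL (Fin 2) (Zb ⧸ 𝔪),
      ∃ ρ : G →* GL (Fin 2) ℂ, ∀ g : G, ∃ t d : Zb,
        (t : ℂ) = Matrix.trace (ρ g : Matrix (Fin 2) (Fin 2) ℂ) ∧
        Ideal.Quotient.mk 𝔪 t = Matrix.trace (ρbar g : Matrix (Fin 2) (Fin 2) (Zb ⧸ 𝔪)) ∧
        (d : ℂ) = Matrix.det (ρ g : Matrix (Fin 2) (Fin 2) ℂ) ∧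
        Ideal.Quotient.mk 𝔪 d = Matrix.det (ρbar g : Matrix (Fin 2) (Fin 2) (Zb ⧸ 𝔪))

/-- (GT', irreducible case) Burnside trace bound. -/
def StmtTraceSpan : Prop :=
  ∀ (k : Type) [Field k] (G : Type) [Group G] [Finite G] (ρ : G →* GL (Fin 2) k)
    (Y : Finset k),
    Submodule.span k (Set.range fun g : G => (ρ g : Matrix (Fin 2) (Fin 2) k)) = ⊤ →
    8 * Nat.card {g : G // Matrix.trace (ρ g : Matrix (Fin 2) (Fin 2) k) ∉ Y} ≤ Nat.card G →
      Nat.card ρ.range ≤ 2 * Y.card ^ 4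

/-- (GT', diagonal case). -/
def StmtTraceDiag : Prop :=
  ∀ (k : Type) [Field k] (G : Type) [Group G] [Finite G] (ρ : G →* GL (Fin 2) k)
    (Y E : Finset k),
    (∀ g : G, (ρ g : Matrix (Fin 2) (Fin 2) k) 0 1 = 0 ∧ (ρ g : Matrix (Fin 2) (Fin 2) k) 1 0 = 0) →
    (∀ g : G, Matrix.det (ρ g : Matrix (Fin 2) (Fin 2) k) ∈ E) →
    8 * Nat.card {g : G // Matrix.trace (ρ g : Matrix (Fin 2) (Fin 2) k) ∉ Y} ≤ Nat.card G →
      Nat.card ρ.range ≤ 4 * Y.card * E.card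

/-- (GT', semisimplification) over an algebraically closed field a two dimensional
representation can be replaced by one with the same traces and determinants which is either
absolutely irreducible (spans the matrix algebra) or diagonal. -/
def StmtSemi : Prop :=
  ∀ (K : Type) [Field K] [IsAlgClosed K] (G : Type) [Group G] (ρ : G →* GL (Fin 2) K),
    ∃ ρ' : G →* GL (Fin 2) K,
      (∀ g : G, ρ g = 1 → ρ' g = 1) ∧
      (∀ g : G, Matrix.trace (ρ' g : Matrix (Fin 2) (Fin 2) K) =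
          Matrix.trace (ρ g : Matrix (Fin 2) (Fin 2) K) ∧
        Matrix.det (ρ' g : Matrix (Fin 2) (Fin 2) K) =
          Matrix.det (ρ g : Matrix (Fin 2) (Fin 2) K)) ∧
      (Submodule.span K (Set.range fun g : G => (ρ' g : Matrix (Fin 2) (Fin 2) K)) = ⊤ ∨
        ∀ g : G, (ρ' g : Matrix (Fin 2) (Fin 2) K) 0 1 = 0 ∧
          (ρ' g : Matrix (Fin 2) (Fin 2) K) 1 0 = 0)

/-! ### Secondary pieces -/

/-- (N) `f` has nebentypus `ε`: `f(γ z) = ε(d) (c z + d) f(z)` for `γ ∈ Γ₀(N)`. -/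
def StmtNeben : Prop :=
  ∀ (N : ℕ) [NeZero N] (ε : DirichletCharacter ℂ N) (f : CuspForm (Gamma1 N) 1),
    IsHeckeEigen N ε f → ∀ γ : SL(2, ℤ), γ ∈ Gamma0 N → ∀ z : ℍ,
      f (γ • z) = ε ((γ 1 1 : ℤ) : ZMod N) * ((γ 1 0 : ℂ) * (z : ℂ) + (γ 1 1 : ℂ)) * f z

/-- (SIG) the conjugates of `f` are cusp forms of weight one on `Γ₁(N)`. -/
def StmtSigma : Prop :=
  ∀ (N : ℕ) [NeZero N] (ε : DirichletCharacter ℂ N) (f : CuspForm (Gamma1 N) 1),
    IsHeckeEigen N ε f → ∀ σ : ℂ →+* ℂ,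
      ∃ g : CuspForm (Gamma1 N) 1, ∀ n : ℕ,
        ModularFormClass.qCoeff g n = σ (ModularFormClass.qCoeff f n)

end Fermat.Agent.S48


end ZBS48_002_0

/-! ### bundled: `Fermat.Agent.S48.Plan2` -/
section ZBS48_002_1

/-!
# S48 (Deligne–Serre): the pieces of `StmtRes` (interface only, no proofs)

`StmtRes` (the residual representations of the weight one form `f`) is cut into

* `StmtIntPlus` (INT+)  WLOG `f` has algebraic coefficients with bounded denominators: there is a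
                        normalised eigenform `h` of weight one, nebentypus `ε`, with the same `a_p`
                        (`p ∤ N`) and `D · a_n(h) ∈ ℤ̄` for all `n`; and `a_p ∈ ℤ̄` (so `StmtInt` follows).
* `StmtE1`      (E1)    for a prime `ℓ ≥ 5` and `𝔪 ∣ ℓ`: a modular form `E` of weight one on `Γ₁(ℓ)` with
                        nebentypus `ω⁻¹` (`ω` = Teichmüller character of `𝔪`), integral `q`-expansion,
                        constant term a unit mod `𝔪`, all other coefficients in `𝔪`.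
* `StmtDSL1`    (DSL)   lifting lemma: a weight two cusp form on `Γ₁(M)` with nebentypus `θ` and integral
                        `q`-expansion which is an eigenform mod `𝔪` (and `≢ 0`) is congruent to a genuine
                        eigenvector of the `T_p`, `p ∤ M ℓ`.  (Integrality of the eigenvalues `b_p` is NOT
                        part of it: it is a clause of `StmtES1`.  Proof: `S49.exists_eigenvector_of_injective`
                        for `R = ℤ̄[T_p] ⊂ End V` and the maximal ideal `{t : t g ≡ 0 mod 𝔪}`.)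
* `StmtES1`     (ES₁)   the Eichler–Shimura package for `Γ₁(M)`: an eigenvector of the `T_p`, `p ∤ M ℓ`,
                        in `S₂(Γ₁(M))` with nebentypus `θ` has a residual representation mod `𝔪`.
                        (The analogue of S42 = `EigenformResidualAttachmentAt` with nebentypus.)

`f · E` has weight two, level `N ℓ`, nebentypus `ε ω⁻¹`, and `p · (ε ω⁻¹)(p) ≡ ε(p)` mod `𝔪`.
-/

set_option autoImplicit false

open CongruenceSubgroup UpperHalfPlane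
open scoped MatrixGroups

namespace Fermat.Agent.S48

/-- `g` transforms under `Γ₀(M)` with weight `k` and character `θ` -/
def HasNebenK (M : ℕ) (θ : DirichletCharacter ℂ M) (k : ℕ) (g : ℍ → ℂ) : Prop :=
  ∀ γ : SL(2, ℤ), γ ∈ Gamma0 M → ∀ z : ℍ,
    g (γ • z) = θ ((γ 1 1 : ℤ) : ZMod M) * ((γ 1 0 : ℂ) * (z : ℂ) + (γ 1 1 : ℂ)) ^ k * g z

/-- the `q`-expansion form of `T_p g = b_p g` in weight `k`, nebentypus `θ`, for `p ∤ L` -/
def IsEigenAway (M : ℕ) (θ : DirichletCharacter ℂ M) (k : ℕ) (L : ℕ) (g : ℍ → ℂ) (b : ℕ → ℂ) :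
    Prop :=
  ∀ p : ℕ, p.Prime → ¬ p ∣ L → ∀ n : ℕ,
    ModularFormClass.qCoeff g (p * n) +
        (p : ℂ) ^ (k - 1) * θ (p : ZMod M) *
          (if p ∣ n then ModularFormClass.qCoeff g (n / p) else 0) =
      b p * ModularFormClass.qCoeff g n

/-- (INT+) WLOG the coefficients of `f` are algebraic with bounded denominators. -/
def StmtIntPlus : Prop :=
  ∀ (N : ℕ) [NeZero N] (ε : DirichletCharacter ℂ N) (f : CuspForm (Gamma1 N) 1),
    IsHeckeEigen N ε f →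
      ∃ (h : CuspForm (Gamma1 N) 1) (D : ℕ), D ≠ 0 ∧ IsHeckeEigen N ε h ∧ HasNebenK N ε 1 h ∧
        (∀ n : ℕ, ∃ c : Zb, (c : ℂ) = (D : ℂ) * ModularFormClass.qCoeff h n) ∧
        ∀ p : ℕ, p.Prime → ¬ p ∣ N →
          ModularFormClass.qCoeff h p = ModularFormClass.qCoeff f p ∧
          ∃ a : Zb, (a : ℂ) = ModularFormClass.qCoeff f p

/-- (E1) the weight one Eisenstein series which is congruent to a unit mod `𝔪`. -/
def StmtE1 : Prop :=
  ∀ (ℓ : ℕ) [NeZero ℓ], ℓ.Prime → 5 ≤ ℓ → ∀ 𝔪 : Ideal Zb, 𝔪.IsMaximal → ((ℓ : ℕ) : Zb) ∈ 𝔪 →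
    ∃ (ψ : DirichletCharacter ℂ ℓ) (E : ModularForm (Gamma1 ℓ) 1) (c : ℕ → Zb),
      (∀ a : ℕ, ¬ ℓ ∣ a → ∃ w : Zb, (w : ℂ) = ψ (a : ZMod ℓ) ∧ (a : Zb) * w - 1 ∈ 𝔪) ∧
      HasNebenK ℓ ψ 1 E ∧ (∀ n : ℕ, (c n : ℂ) = ModularFormClass.qCoeff E n) ∧
      c 0 ∉ 𝔪 ∧ ∀ n : ℕ, n ≠ 0 → c n ∈ 𝔪

/-- (DSL) the lifting lemma of Deligne–Serre, for weight two, level `Γ₁(M)`, nebentypus `θ`. -/
def StmtDSL1 : Prop :=
  ∀ (M : ℕ) [NeZero M] (θ : DirichletCharacter ℂ M) (g : CuspForm (Gamma1 M) 2),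
    HasNebenK M θ 2 g →
    ∀ (ℓ : ℕ), ℓ.Prime → ∀ 𝔪 : Ideal Zb, 𝔪.IsMaximal → ((ℓ : ℕ) : Zb) ∈ 𝔪 →
    ∀ c : ℕ → Zb, (∀ n : ℕ, (c n : ℂ) = ModularFormClass.qCoeff g n) → (∃ n : ℕ, c n ∉ 𝔪) →
    ∀ a e : ℕ → Zb, (∀ p : ℕ, p.Prime → ¬ p ∣ M → (e p : ℂ) = θ (p : ZMod M)) →
      (∀ p : ℕ, p.Prime → ¬ p ∣ M * ℓ → ∀ n : ℕ,
        c (p * n) + (p : Zb) * e p * (if p ∣ n then c (n / p) else 0) - a p * c n ∈ 𝔪) →
      ∃ (g' : CuspForm (Gamma1 M) 2) (b : ℕ → ℂ), (g' : ℍ → ℂ) ≠ 0 ∧ HasNebenK M θ 2 g' ∧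
        IsEigenAway M θ 2 (M * ℓ) g' b ∧
        ∀ p : ℕ, p.Prime → ¬ p ∣ M * ℓ → ∀ t : Zb, (t : ℂ) = b p → t - a p ∈ 𝔪

/-- (ES₁) residual representations of eigenvectors of weight two on `Γ₁(M)` with nebentypus. -/
def StmtES1 : Prop :=
  ∀ (M : ℕ) [NeZero M] (θ : DirichletCharacter ℂ M) (g : CuspForm (Gamma1 M) 2),
    (g : ℍ → ℂ) ≠ 0 → HasNebenK M θ 2 g →
    ∀ (ℓ : ℕ), ℓ.Prime → ∀ 𝔪 : Ideal Zb, 𝔪.IsMaximal → ((ℓ : ℕ) : Zb) ∈ 𝔪 →
    ∀ b : ℕ → ℂ, IsEigenAway M θ 2 (M * ℓ) g b →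
      ∃ ρ : GalQ →* GL (Fin 2) (Zb ⧸ 𝔪), FiniteLevel ρ ∧
        ∀ p : ℕ, p.Prime → ¬ p ∣ M * ℓ →
          ∀ A : ValuationSubring (AlgebraicClosure ℚ), A.LiesOverPrime p →
            (∀ σ ∈ A.inertiaSubgroupIn ℚ, ρ σ = 1) ∧
            ∀ τ : GalQ, A.IsFrobeniusAt τ p →
              ∃ t d : Zb, (t : ℂ) = b p ∧ (d : ℂ) = (p : ℂ) * θ (p : ZMod M) ∧
                Matrix.trace (ρ τ : Matrix (Fin 2) (Fin 2) (Zb ⧸ 𝔪)) = Ideal.Quotient.mk 𝔪 t ∧
                Matrix.det (ρ τ : Matrix (Fin 2) (Fin 2) (Zb ⧸ 𝔪)) = Ideal.Quotient.mk 𝔪 d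

/-- (RES-glue) `StmtRes` from its pieces: `g := (D h) · E` on `Γ₁(N ℓ)`. -/
def StmtResOfPieces : Prop :=
  StmtIntPlus → StmtE1 → StmtDSL1 → StmtES1 → StmtRes

end Fermat.Agent.S48


end ZBS48_002_1

/-! ### bundled: `Fermat.Agent.ES1.Package` -/
section ZBS48_002_2

/-!
# ES₁ / TOP — the contract (interface between the geometry of `J_H` and the glue)

`Fermat.Agent.ES1.ES1Data M θ p V` is the list of properties of a finite abelian group `V`
(e.g. `J_H(L; M)[p](ℚ̄)` with `L = M`, `H ≤ ker θ`) with an action of `G_ℚ` and of the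
Hecke–diamond polynomial ring `HDAlg M = ℤ[T_ℓ (ℓ prime), δ_c (c ∈ (ℤ/M)ˣ)]` which the
construction of the residual representation of an eigenvector of weight two on `Γ₁(M)` with
nebentypus `θ` consumes (`Fermat.Agent.S48.StmtES1`):

* `diamond_one`, `diamond_mul` : the `δ_c` form a group action on `V`;
* `frob`  : the Eichler–Shimura relation `δ_ℓ τ² − T_ℓ τ + ℓ = 0` on `V` for every Frobenius `τ` at
            every place over every prime `ℓ ∤ M p` (`δ_ℓ = δ_c` for the class `c` of `ℓ` mod `M`);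
* `unram` : inertia at places over `ℓ ∤ M p` acts trivially;
* `supp`  : for every eigenvector `g ≠ 0` of the `T_ℓ`, `ℓ ∤ M p`, with nebentypus `θ` and
            eigenvalues `b_ℓ`, and every maximal ideal `𝔪 ∋ p` of `ℤ̄`, some nonzero `v ∈ V` is killed
            by every polynomial `t` in the good variables (`T_ℓ`, `ℓ ∤ M p`, and all `δ_c`) whose
            value at ONE of the two eigen-systems
              `s = false` : `T_ℓ ↦ b_ℓ`,            `δ_c ↦ θ(c)`,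
              `s = true`  : `T_ℓ ↦ b_ℓ · θ(ℓ)⁻¹`,   `δ_c ↦ θ(c)⁻¹`
            lies in `𝔪` (the producer chooses `s`; the glue twists by `θ ∘ χ_M` when `s = false`).

Integrality of the `b_ℓ` is NOT part of the contract: it is the separate statement `StmtInt1`.

`ES1Pkg M θ p` : such a `V` exists.  Any construction is allowed.
The glue is `Fermat/Agent/ES1/Top.lean`: `StmtInt1 → (∀ M θ p, ES1Pkg M θ p) → S48.StmtES1`.
-/

set_option autoImplicit false

open CongruenceSubgroup UpperHalfPlane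

namespace Fermat.Agent.ES1

open Fermat.Agent.S48

/-- the variables of the Hecke–diamond polynomial ring: `T_ℓ` (`ℓ` prime) and `δ_c`
(`c ∈ (ℤ/M)ˣ`) -/
abbrev HDVar (M : ℕ) : Type := Nat.Primes ⊕ (ZMod M)ˣ

/-- the Hecke–diamond polynomial ring `ℤ[T_ℓ, δ_c]` -/
abbrev HDAlg (M : ℕ) : Type := MvPolynomial (HDVar M) ℤ

/-- the variable `T_ℓ` -/
noncomputable def es1top_tGen (M : ℕ) (ℓ : Nat.Primes) : HDAlg M := MvPolynomial.X (Sum.inl ℓ)

/-- the variable `δ_c` -/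
noncomputable def es1top_dGen (M : ℕ) (c : (ZMod M)ˣ) : HDAlg M := MvPolynomial.X (Sum.inr c)

/-- the good variables at level `M` and residue characteristic `p`: the `T_ℓ` with `ℓ ∤ M p`
and all the `δ_c` -/
def es1top_goodVars (M p : ℕ) : Set (HDVar M) :=
  {x | ∀ ℓ : Nat.Primes, x = Sum.inl ℓ → ¬ (ℓ : ℕ) ∣ M * p}

/-- the values of the variables at the eigen-system number `s` of `(θ, b)`:
`s = false`: `(T_ℓ, δ_c) ↦ (b_ℓ, θ(c))`; `s = true`: `(T_ℓ, δ_c) ↦ (b_ℓ θ(ℓ)⁻¹, θ(c)⁻¹)` -/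
noncomputable def es1top_sys {M : ℕ} (θ : DirichletCharacter ℂ M) (b : ℕ → ℂ) (s : Bool) :
    HDVar M → ℂ :=
  Sum.elim
    (fun ℓ : Nat.Primes => if s then b ℓ * θ⁻¹ ((ℓ : ℕ) : ZMod M) else b ℓ)
    (fun c : (ZMod M)ˣ => if s then θ⁻¹ (c : ZMod M) else θ (c : ZMod M))

/-- the value of a Hecke–diamond polynomial at the eigen-system number `s` of `(θ, b)` -/
noncomputable def es1top_value {M : ℕ} (θ : DirichletCharacter ℂ M) (b : ℕ → ℂ) (s : Bool) :
    HDAlg M →ₐ[ℤ] ℂ :=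
  MvPolynomial.aeval (es1top_sys θ b s)

/-- The Eichler–Shimura data of level `Γ₁(M)`, nebentypus `θ`, residue characteristic `p`, on a
`G_ℚ × ℤ[T_ℓ, δ_c]`-module `V`. -/
structure ES1Data (M : ℕ) (θ : DirichletCharacter ℂ M) (p : ℕ) (V : Type) [AddCommGroup V]
    [Module (HDAlg M) V] [DistribMulAction GalQ V] : Prop where
  /-- `V` is finite -/
  finite : Finite V
  /-- Galois commutes with the Hecke operators and the diamonds -/
  smul_comm : ∀ (σ : GalQ) (t : HDAlg M) (v : V), σ • t • v = t • σ • v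
  /-- every vector is fixed by an open subgroup -/
  finite_level : ∀ v : V, ∃ E : IntermediateField ℚ (AlgebraicClosure ℚ),
    FiniteDimensional ℚ E ∧ ∀ σ : GalQ, (∀ x ∈ E, σ x = x) → σ • v = v
  /-- `δ_1 = 1` on `V` -/
  diamond_one : ∀ v : V, es1top_dGen M 1 • v = v
  /-- `δ_{cd} = δ_c δ_d` on `V` -/
  diamond_mul : ∀ (c d : (ZMod M)ˣ) (v : V),
    es1top_dGen M (c * d) • v = es1top_dGen M c • es1top_dGen M d • v
  /-- the Eichler–Shimura relation `δ_ℓ τ² − T_ℓ τ + ℓ = 0` -/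
  frob : ∀ ℓ : ℕ, (hℓ : ℓ.Prime) → ¬ ℓ ∣ M * p →
    ∀ c : (ZMod M)ˣ, (c : ZMod M) = (ℓ : ZMod M) →
    ∀ A : ValuationSubring (AlgebraicClosure ℚ), A.LiesOverPrime ℓ →
      ∀ τ : GalQ, A.IsFrobeniusAt τ ℓ →
        ∀ v : V, es1top_dGen M c • (τ • τ • v) - es1top_tGen M ⟨ℓ, hℓ⟩ • (τ • v) + ℓ • v = 0
  /-- unramified outside `M p` -/
  unram : ∀ ℓ : ℕ, ℓ.Prime → ¬ ℓ ∣ M * p →
    ∀ A : ValuationSubring (AlgebraicClosure ℚ), A.LiesOverPrime ℓ →
      ∀ σ ∈ A.inertiaSubgroupIn ℚ, ∀ v : V, σ • v = v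
  /-- every eigen-system mod `𝔪` occurs in `V` (in one of the two normalisations) -/
  supp : ∀ g : CuspForm (Gamma1 M) 2, (g : ℍ → ℂ) ≠ 0 → HasNebenK M θ 2 g →
    ∀ b : ℕ → ℂ, IsEigenAway M θ 2 (M * p) g b →
    ∀ 𝔪 : Ideal Zb, 𝔪.IsMaximal → ((p : ℕ) : Zb) ∈ 𝔪 →
      ∃ (s : Bool) (v : V), v ≠ 0 ∧ ∀ t ∈ MvPolynomial.supported ℤ (es1top_goodVars M p),
        (∃ z ∈ 𝔪, (z : ℂ) = es1top_value θ b s t) → t • v = 0

/-- The Eichler–Shimura package exists at level `Γ₁(M)`, nebentypus `θ`, residue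
characteristic `p`. -/
def ES1Pkg (M : ℕ) (θ : DirichletCharacter ℂ M) (p : ℕ) : Prop :=
  ∃ (V : Type) (_ : AddCommGroup V) (_ : Module (HDAlg M) V) (_ : DistribMulAction GalQ V),
    ES1Data M θ p V

/-- (INT₁) an eigenvalue of `T_ℓ` (or `U_ℓ`) on a nonzero cusp form of weight two on `Γ₁(M)` with
nebentypus `θ` is an algebraic integer. -/
def StmtInt1 : Prop :=
  ∀ (M : ℕ) [NeZero M] (θ : DirichletCharacter ℂ M) (g : CuspForm (Gamma1 M) 2),
    (g : ℍ → ℂ) ≠ 0 → HasNebenK M θ 2 g → ∀ ℓ : ℕ, ℓ.Prime → ∀ β : ℂ,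
      (∀ n : ℕ, ModularFormClass.qCoeff g (ℓ * n) +
          (ℓ : ℂ) * θ (ℓ : ZMod M) * (if ℓ ∣ n then ModularFormClass.qCoeff g (n / ℓ) else 0) =
        β * ModularFormClass.qCoeff g n) →
      IsIntegral ℤ β

end Fermat.Agent.ES1


end ZBS48_002_2

/-! ### bundled: `Fermat.Agent.ES1.Inf.PkgDefs` -/
section ZBS48_002_3

/-!
# ES₁-inf — the `p`-adic Eichler–Shimura package for `J_H(L; M)`: the contract (helper38)

`L` the level, `M ∣ L` the modulus of the diamonds, `H ≤ (ℤ/M)ˣ`, `Γ = gammaH L M H`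
(`= {γ ∈ Γ₀(L) : a(γ) mod M ∈ H}`), `p` a prime not dividing `L`.
`HDAlg M = ℤ[T_ℓ (ℓ prime), δ_c (c ∈ (ℤ/M)ˣ)]`.

* `es1inf_goodVars L M p` : the good variables — `T_ℓ` with `ℓ ∤ L p`, and all `δ_c`;
* `ES1DataInf L M p J` : the clauses of `ES.ESDataInf` with diamonds (fork of `ES1Data` for all
  the `pⁿ`-torsion at once): `finite`, `divisible`, `smul_comm`, `finite_level`, `diamond_one`,
  `diamond_mul`, `frob` (`δ_c τ² x − T_ℓ τ x + ℓ x = 0`, `c ≡ ℓ` mod `M`), `unram`, and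
  `bad_zero` (the bad `T_ℓ` act by `0`: normalisation only).

The producer is `ES1/Inf/PkgData.lean` (`J = es1infJ L M H p`, the `p`-divisible torsion of
`JH L M H`); the faithfulness clauses are in `ES1/Inf/PkgFaith.lean`.
-/

set_option autoImplicit false

namespace Fermat.Agent.ES1

open Fermat.Agent.S48 Fermat.Agent.ES

/-- the good variables at level `L` (diamonds mod `M`) and residue characteristic `p`: the
`T_ℓ` with `ℓ ∤ L p` and all the `δ_c` -/
def es1inf_goodVars (L M p : ℕ) : Set (HDVar M) :=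
  {x | ∀ ℓ : Nat.Primes, x = Sum.inl ℓ → ¬ (ℓ : ℕ) ∣ L * p}

theorem es1inf_inr_mem_goodVars (L M p : ℕ) (c : (ZMod M)ˣ) :
    (Sum.inr c : HDVar M) ∈ es1inf_goodVars L M p := by
  intro ℓ h
  exact absurd h (by simp)

theorem es1inf_inl_mem_goodVars {L M p : ℕ} {ℓ : Nat.Primes} :
    (Sum.inl ℓ : HDVar M) ∈ es1inf_goodVars L M p ↔ ¬ (ℓ : ℕ) ∣ L * p := by
  constructor
  · intro h
    exact h ℓ rfl
  · intro h ℓ' h'
    have : ℓ = ℓ' := Sum.inl.inj h'
    subst this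
    exact h

theorem es1inf_tGen_mem_supported {L M p : ℕ} {ℓ : Nat.Primes} (h : ¬ (ℓ : ℕ) ∣ L * p) :
    es1top_tGen M ℓ ∈ MvPolynomial.supported ℤ (es1inf_goodVars L M p) :=
  MvPolynomial.X_mem_supported.mpr (es1inf_inl_mem_goodVars.mpr h)

theorem es1inf_dGen_mem_supported (L M p : ℕ) (c : (ZMod M)ˣ) :
    es1top_dGen M c ∈ MvPolynomial.supported ℤ (es1inf_goodVars L M p) :=
  MvPolynomial.X_mem_supported.mpr (es1inf_inr_mem_goodVars L M p c)

/-- **The Eichler–Shimura data of level `Γ_H(L; M)`, `p`-adic form**, on a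
`G_ℚ × ℤ[T_ℓ, δ_c]`-module `J`; all the clauses are about the `p`-power torsion of `J`. -/
structure ES1DataInf (L M p : ℕ) (J : Type) [AddCommGroup J] [Module (HDAlg M) J]
    [DistribMulAction GalQ J] : Prop where
  /-- `J[pⁿ]` is finite -/
  finite : ∀ n : ℕ, {x : J | p ^ n • x = 0}.Finite
  /-- the `p`-power torsion is `p`-divisible -/
  divisible : ∀ x : J, IsPPowerTorsion p x → ∃ y : J, IsPPowerTorsion p y ∧ p • y = x
  /-- Galois commutes with the Hecke operators and the diamonds -/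
  smul_comm : ∀ (σ : GalQ) (t : HDAlg M) (x : J), σ • t • x = t • σ • x
  /-- every `p`-power torsion element is fixed by an open subgroup -/
  finite_level : ∀ x : J, IsPPowerTorsion p x →
    ∃ E : IntermediateField ℚ (AlgebraicClosure ℚ),
      FiniteDimensional ℚ E ∧ ∀ σ : GalQ, (∀ a ∈ E, σ a = a) → σ • x = x
  /-- `δ_1 = 1` -/
  diamond_one : ∀ x : J, IsPPowerTorsion p x → es1top_dGen M 1 • x = x
  /-- `δ_{cd} = δ_c δ_d` -/
  diamond_mul : ∀ (c d : (ZMod M)ˣ) (x : J), IsPPowerTorsion p x →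
    es1top_dGen M (c * d) • x = es1top_dGen M c • es1top_dGen M d • x
  /-- the bad Hecke variables act by `0` (normalisation) -/
  bad_zero : ∀ ℓ : Nat.Primes, (ℓ : ℕ) ∣ L * p → ∀ x : J, es1top_tGen M ℓ • x = 0
  /-- the Eichler–Shimura relation `δ_ℓ τ² − T_ℓ τ + ℓ = 0` -/
  frob : ∀ ℓ : ℕ, (hℓ : ℓ.Prime) → ¬ ℓ ∣ L * p →
    ∀ c : (ZMod M)ˣ, (c : ZMod M) = (ℓ : ZMod M) →
    ∀ A : ValuationSubring (AlgebraicClosure ℚ), A.LiesOverPrime ℓ →
      ∀ τ : GalQ, A.IsFrobeniusAt τ ℓ →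
        ∀ x : J, IsPPowerTorsion p x →
          es1top_dGen M c • (τ • τ • x) - es1top_tGen M ⟨ℓ, hℓ⟩ • (τ • x) + ℓ • x = 0
  /-- unramified outside `L p` -/
  unram : ∀ ℓ : ℕ, ℓ.Prime → ¬ ℓ ∣ L * p →
    ∀ A : ValuationSubring (AlgebraicClosure ℚ), A.LiesOverPrime ℓ →
      ∀ σ ∈ A.inertiaSubgroupIn ℚ, ∀ x : J, IsPPowerTorsion p x → σ • x = x

end Fermat.Agent.ES1


end ZBS48_002_3

/-! ### bundled: `Fermat.Agent.S48.SigmaStmt` -/
section ZBS48_002_4

/-!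
# S48 / SIG: statement

`HasNeben N χ g` : the weight one cusp form `g` on `Γ₁(N)` has nebentypus `χ` on `Γ₀(N)`.
`StmtSigmaGen`   : the conjugates `∑ σ(a_n) qⁿ` of a weight one cusp form with nebentypus `χ` are
weight one cusp forms with nebentypus `σ ∘ χ`.
-/

set_option autoImplicit false

open CongruenceSubgroup UpperHalfPlane
open scoped MatrixGroups

namespace Fermat.Agent.S48

/-- `g` has nebentypus `χ`: `g(γ z) = χ(d) (c z + d) g(z)` for `γ ∈ Γ₀(N)`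
(the same shape as `StmtNeben`). -/
def HasNeben (N : ℕ) [NeZero N] (χ : DirichletCharacter ℂ N) (g : CuspForm (Gamma1 N) 1) : Prop :=
  ∀ γ : SL(2, ℤ), γ ∈ Gamma0 N → ∀ z : ℍ,
    g (γ • z) = χ ((γ 1 1 : ℤ) : ZMod N) * ((γ 1 0 : ℂ) * (z : ℂ) + (γ 1 1 : ℂ)) * g z

/-- (SIG, general form) the conjugates of a weight one cusp form with nebentypus `χ` are weight
one cusp forms with nebentypus `σ ∘ χ`. -/
def StmtSigmaGen : Prop :=
  ∀ (N : ℕ) [NeZero N] (χ : DirichletCharacter ℂ N) (g : CuspForm (Gamma1 N) 1),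
    HasNeben N χ g → ∀ σ : ℂ →+* ℂ,
      ∃ g' : CuspForm (Gamma1 N) 1, HasNeben N (χ.ringHomComp σ) g' ∧
        ∀ n : ℕ, ModularFormClass.qCoeff g' n = σ (ModularFormClass.qCoeff g n)

end Fermat.Agent.S48


end ZBS48_002_4
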