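/- GENERATED FILE (helper35, build-time optimisation, NOTES/ZB.md): verbatim concatenation of the modules
   Fermat.Agent.S48.EisOdd
   Fermat.Agent.ES1.F2Series
   Fermat.Agent.RT.K6.BLam
   Fermat.Agent.RT.K6.BConst
   Fermat.Agent.S48.Sigma
   Fermat.Agent.S48.Int
   Fermat.Agent.ES1.Int1
   Do not edit; do not import together with these modules. -/
import Mathlib
import Fermat.Agent.ZB.ES_017
import Fermat.Prelude.Def_FLTPrelim_Modularity
import Fermat.Agent.ZB.S23_001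
import Fermat.Agent.ZB.S48_002
import Fermat.Agent.ZB.S49_001

/-! ### bundled: `Fermat.Agent.S48.EisOdd` -/
section ZBS48_001_0

/-!
# S48 / EIS3: Eisenstein series with nebentypus on `Γ₁(N)`

For `k ≥ 3` and a Dirichlet character `χ` modulo `N ≠ 1` with `χ(-1) = (-1)^k` the series
`G_χ(z) = ∑_{(c,d) ∈ ℤ²} χ(c) (c z + d)^{-k}` is a modular form of weight `k` on `Γ₁(N)` with
nebentypus `χ` on `Γ₀(N)`, and
`G_χ = 2 (-2πi)^k / (k-1)! · ∑_{n ≥ 1} (∑_{c ∣ n} χ(c) (n/c)^{k-1}) qⁿ`.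
-/

set_option autoImplicit false
set_option linter.unusedSectionVars false

open EisensteinSeries UpperHalfPlane ModularForm CongruenceSubgroup Matrix Filter Topology
open Fermat.Agent.ES
open scoped MatrixGroups Manifold Real

noncomputable section

namespace Fermat.Agent.S48

/-! ## A twisted Lambert series rearrangement -/

/-- `∑_d ∑_c a_d c^k r^{dc} = ∑_e (∑_{d ∣ e} a_d (e/d)^k) r^e` for bounded `a`. -/
theorem eisOdd_summable_twist (k : ℕ) {r : ℂ} (hr : ‖r‖ < 1) (a : ℕ → ℂ)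
    (ha : ∀ n, ‖a n‖ ≤ 1) :
    Summable fun c : ℕ+ × ℕ+ => a c.1 * ((c.2 : ℂ) ^ k * r ^ (c.1 * c.2 : ℕ)) := by
  have h := summable_prod_mul_pow (𝕜 := ℝ) k (r := ‖r‖) (by simpa using hr)
  refine Summable.of_norm_bounded h fun c => ?_
  rw [norm_mul, norm_mul, norm_pow, norm_pow, Complex.norm_natCast]
  calc ‖a c.1‖ * ((c.2 : ℝ) ^ k * ‖r‖ ^ (c.1 * c.2 : ℕ))
      ≤ 1 * ((c.2 : ℝ) ^ k * ‖r‖ ^ (c.1 * c.2 : ℕ)) := by
        apply mul_le_mul_of_nonneg_right (ha _)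
        positivity
    _ = _ := by rw [one_mul]

theorem eisOdd_tsum_twist (k : ℕ) {r : ℂ} (hr : ‖r‖ < 1) (a : ℕ → ℂ)
    (ha : ∀ n, ‖a n‖ ≤ 1) :
    ∑' d : ℕ+, ∑' c : ℕ+, a d * ((c : ℂ) ^ k * r ^ (d * c : ℕ)) =
      ∑' e : ℕ+, (∑ d ∈ (e : ℕ).divisors, a d * ((e / d : ℕ) : ℂ) ^ k) * r ^ (e : ℕ) := by
  have hs := eisOdd_summable_twist k hr a ha
  rw [← hs.tsum_prod (f := fun c : ℕ+ × ℕ+ => a c.1 * ((c.2 : ℂ) ^ k * r ^ (c.1 * c.2 : ℕ)))]
  rw [← sigmaAntidiagonalEquivProd.tsum_eq]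
  have hs' : Summable fun x : (Σ n : ℕ+, Nat.divisorsAntidiagonal n) =>
      (fun c : ℕ+ × ℕ+ => a c.1 * ((c.2 : ℂ) ^ k * r ^ (c.1 * c.2 : ℕ)))
        (sigmaAntidiagonalEquivProd x) :=
    sigmaAntidiagonalEquivProd.summable_iff.mpr hs
  rw [hs'.tsum_sigma]
  refine tsum_congr fun n => ?_
  rw [tsum_fintype, Finset.univ_eq_attach]
  have h1 : ∀ x : Nat.divisorsAntidiagonal n,
      (fun c : ℕ+ × ℕ+ => a c.1 * ((c.2 : ℂ) ^ k * r ^ (c.1 * c.2 : ℕ)))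
        (sigmaAntidiagonalEquivProd ⟨n, x⟩) =
      (fun y : ℕ × ℕ => a y.1 * ((y.2 : ℂ) ^ k * r ^ (y.1 * y.2))) x.1 := by
    intro x
    simp [sigmaAntidiagonalEquivProd, divisorsAntidiagonalFactors]
  simp_rw [h1]
  rw [(n : ℕ).divisorsAntidiagonal.sum_attach
    (fun y : ℕ × ℕ => a y.1 * ((y.2 : ℂ) ^ k * r ^ (y.1 * y.2)))]
  rw [Nat.sum_divisorsAntidiagonal (fun x y => a x * ((y : ℂ) ^ k * r ^ (x * y)))]
  rw [Finset.sum_mul]
  refine Finset.sum_congr rfl fun i hi => ?_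
  rw [Nat.mul_div_cancel' (Nat.dvd_of_mem_divisors hi)]
  ring

/-! ## The series and its `q`-expansion -/

variable {N : ℕ} (χ : DirichletCharacter ℂ N)

/-- the coefficient `κ(c, d) = χ(c)` -/
def eisOddKap (v : Fin 2 → ℤ) : ℂ := χ ((v 0 : ℤ) : ZMod N)

theorem norm_eisOddKap_le (v : Fin 2 → ℤ) : ‖eisOddKap χ v‖ ≤ 1 := χ.norm_le_one _

/-- `G_χ(z) = ∑_{(c,d)} χ(c) (c z + d)^{-k}` -/
def eisOddFun (k : ℤ) : ℍ → ℂ := eisC (eisOddKap χ) k

theorem eisOdd_chi_zero (hN : N ≠ 1) : χ ((0 : ℤ) : ZMod N) = 0 := by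
  rw [Int.cast_zero]
  apply MulChar.map_nonunit
  intro h0
  apply hN
  rw [isUnit_zero_iff] at h0
  exact ZMod.subsingleton_iff.mp (subsingleton_of_zero_eq_one h0)

open Complex Nat in
/-- the `q`-expansion of `G_χ`, as an identity of functions -/
theorem eisOddFun_tsum {k : ℕ} (hk : 3 ≤ k) (hχ : χ (-1) = (-1 : ℂ) ^ k) (hN : N ≠ 1) (z : ℍ) :
    eisOddFun χ k z = 2 * ((-2 * π * Complex.I) ^ k / (k - 1)!) *
      ∑' e : ℕ+, (∑ d ∈ (e : ℕ).divisors, χ (d : ZMod N) * ((e / d : ℕ) : ℂ) ^ (k - 1)) *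
        cexp (2 * π * Complex.I * z) ^ (e : ℕ) := by
  have hk' : (3 : ℤ) ≤ k := by exact_mod_cast hk
  have hsumv := eisC_summable (κ := eisOddKap χ) (C := 1) (norm_eisOddKap_le χ) hk' z
  have hsum : Summable fun x : ℤ × ℤ =>
      χ ((x.1 : ℤ) : ZMod N) * eisSummand k ![x.1, x.2] z := by
    refine (finTwoArrowEquiv ℤ).summable_iff.mp (hsumv.congr fun v => ?_)
    simp [eisOddKap, show ![v 0, v 1] = v from List.ofFn_inj.mp rfl]
  have hG : eisOddFun χ k z = ∑' x : ℤ × ℤ,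
      χ ((x.1 : ℤ) : ZMod N) * eisSummand k ![x.1, x.2] z := by
    unfold eisOddFun eisC
    rw [← (finTwoArrowEquiv ℤ).symm.tsum_eq]
    refine tsum_congr fun x => ?_
    simp [eisOddKap]
  rw [hG, Summable.tsum_prod hsum]
  -- evenness in `c`
  have heven : Function.Even fun c : ℤ =>
      ∑' d : ℤ, χ ((c : ℤ) : ZMod N) * eisSummand k ![c, d] z := by
    intro c
    simp only
    rw [← tsum_comp_neg (fun d : ℤ => χ (((-c : ℤ) : ℤ) : ZMod N) * eisSummand k ![-c, d] z)]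
    refine tsum_congr fun d => ?_
    have h1 : χ (((-c : ℤ) : ℤ) : ZMod N) = (-1 : ℂ) ^ k * χ ((c : ℤ) : ZMod N) := by
      rw [Int.cast_neg, ← neg_one_mul, map_mul, hχ]
    have h2 : eisSummand k ![-c, -d] z = (-1 : ℂ) ^ k * eisSummand k ![c, d] z := by
      simp only [eisSummand, Matrix.cons_val_zero, Matrix.cons_val_one, Int.cast_neg]
      have : (-(c : ℂ) * (z : ℂ) + -(d : ℂ)) = -1 * ((c : ℂ) * z + d) := by ring
      rw [this, mul_zpow]
      congr 1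
      rw [_root_.zpow_neg, zpow_natCast]
      rcases Nat.even_or_odd k with he | ho
      · rw [he.neg_one_pow, inv_one]
      · rw [ho.neg_one_pow]; norm_num
    rw [h1, h2]
    have h3 : ((-1 : ℂ) ^ k) * ((-1 : ℂ) ^ k) = 1 := by
      rw [← mul_pow]; norm_num
    calc (-1 : ℂ) ^ k * χ ((c : ℤ) : ZMod N) * ((-1 : ℂ) ^ k * eisSummand k ![c, d] z)
        = ((-1 : ℂ) ^ k * (-1 : ℂ) ^ k) * (χ ((c : ℤ) : ZMod N) * eisSummand k ![c, d] z) := by
          ring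
      _ = _ := by rw [h3, one_mul]
  rw [tsum_int_eq_zero_add_two_mul_tsum_pnat heven hsum.prod]
  -- the term `c = 0` vanishes
  have h0 : (∑' d : ℤ, χ ((0 : ℤ) : ZMod N) * eisSummand k ![0, d] z) = 0 := by
    rw [eisOdd_chi_zero χ hN]
    simp
  rw [h0, zero_add, nsmul_eq_mul, Nat.cast_ofNat, mul_assoc]
  congr 1
  -- the inner sums
  have H (b : ℕ+) := qExpansion_identity_pnat (k := k - 1) (by omega)
    ⟨b * z, by simpa using z.2⟩
  simp_rw [show k - 1 + 1 = k by omega, one_div] at H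
  have hin : ∀ b : ℕ+, ∑' d : ℤ, χ (((b : ℕ) : ℤ) : ZMod N) * eisSummand k ![((b : ℕ) : ℤ), d] z
      = ((-2 * π * Complex.I) ^ k / (k - 1)!) *
        ∑' n : ℕ+, χ ((b : ℕ) : ZMod N) *
          (((n : ℕ) : ℂ) ^ (k - 1) * cexp (2 * π * Complex.I * z) ^ ((b : ℕ) * (n : ℕ))) := by
    intro b
    have hb : ((((b : ℕ) : ℤ) : ZMod N)) = ((b : ℕ) : ZMod N) := by push_cast; rfl
    have h1 : ∑' d : ℤ, eisSummand k ![((b : ℕ) : ℤ), d] z
        = ∑' d : ℤ, ((((b : ℕ) : ℂ) * (z : ℂ) + d) ^ k)⁻¹ := by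
      refine tsum_congr fun d => ?_
      simp [eisSummand]
    have h2 : ∑' n : ℕ+, ((n : ℕ) : ℂ) ^ (k - 1) *
          cexp (2 * π * Complex.I * (((b : ℕ) : ℂ) * (z : ℂ))) ^ (n : ℕ)
        = ∑' n : ℕ+, ((n : ℕ) : ℂ) ^ (k - 1) *
          cexp (2 * π * Complex.I * z) ^ ((b : ℕ) * (n : ℕ)) := by
      refine tsum_congr fun n => ?_
      congr 1
      rw [← Complex.exp_nat_mul, ← Complex.exp_nat_mul]
      congr 1
      push_cast
      ring
    rw [tsum_mul_left, tsum_mul_left, hb, h1, H b, h2]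
    ring
  simp_rw [hin]
  rw [tsum_mul_left]
  congr 1
  have := eisOdd_tsum_twist (k - 1) (norm_exp_two_pi_I_lt_one z) (fun n => χ (n : ZMod N))
    (fun n => χ.norm_le_one _)
  simpa using this

/-! ## Automorphy, holomorphy, cusps -/

/-- `κ(v A)` only depends on `v` modulo `N` -/
theorem eisOddKap_vecMul_congr {v w : Fin 2 → ℤ}
    (h : ∀ i, ((v i : ℤ) : ZMod N) = ((w i : ℤ) : ZMod N)) (A : Matrix (Fin 2) (Fin 2) ℤ) :
    eisOddKap χ (v ᵥ* A) = eisOddKap χ (w ᵥ* A) := by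
  unfold eisOddKap
  congr 1
  simp only [Matrix.vecMul, dotProduct, Fin.sum_univ_two]
  push_cast
  rw [h 0, h 1]

/-- the coefficient under `Γ₀(N)` -/
theorem eisOddKap_vecMul_inv (A : SL(2, ℤ)) (hA : A ∈ Gamma0 N) (v : Fin 2 → ℤ) :
    eisOddKap χ (v ᵥ* ((A⁻¹ : SL(2, ℤ)) : Matrix (Fin 2) (Fin 2) ℤ))
      = χ ((A 1 1 : ℤ) : ZMod N) * eisOddKap χ v := by
  have hA' : ((A 1 0 : ℤ) : ZMod N) = 0 := Gamma0_mem.mp hA
  unfold eisOddKap
  rw [← map_mul]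
  congr 1
  rw [Matrix.SpecialLinearGroup.coe_inv, Matrix.adjugate_fin_two]
  simp only [Matrix.vecMul, dotProduct, Fin.sum_univ_two, Matrix.of_apply, Matrix.cons_val_zero,
    Matrix.cons_val_one]
  push_cast
  rw [hA']
  ring

/-- nebentypus: `G_χ ∣[k] γ = χ(d) G_χ` for `γ ∈ Γ₀(N)` -/
theorem eisOddFun_slash (k : ℤ) (A : SL(2, ℤ)) (hA : A ∈ Gamma0 N) :
    eisOddFun χ k ∣[k] A = χ ((A 1 1 : ℤ) : ZMod N) • eisOddFun χ k := by
  unfold eisOddFun
  rw [eisC_slash, ← eisC_const_mul]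
  congr 1
  funext v
  exact eisOddKap_vecMul_inv χ A hA v

theorem eisOddFun_mdiff {k : ℤ} (hk : 3 ≤ k) : MDiff (eisOddFun χ k) :=
  eisC_mdiff (C := 1) (norm_eisOddKap_le χ) hk

/-- every translate is bounded at `i∞` -/
theorem eisOddFun_slash_isBoundedAtImInfty [NeZero N] {k : ℤ} (hk : 3 ≤ k) (δ : SL(2, ℤ)) :
    IsBoundedAtImInfty (eisOddFun χ k ∣[k] δ) := by
  unfold eisOddFun
  rw [eisC_slash]
  refine eisC_isBoundedAtImInfty (C := 1) (fun v => norm_eisOddKap_le χ _) hk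
    (Nat.pos_of_ne_zero (NeZero.ne N)) ?_
  intro z
  have h := eis_slash_T_zpow_apply
    (eisC (fun v => eisOddKap χ (v ᵥ* ((δ⁻¹ : SL(2, ℤ)) : Matrix (Fin 2) (Fin 2) ℤ))) k) k
    (N : ℤ) z
  rw [show (((N : ℤ) : ℝ)) = (N : ℝ) by simp] at h
  rw [← h, eisC_slash]
  congr 2
  funext v
  refine eisOddKap_vecMul_congr χ (fun i => ?_) _
  rw [← _root_.zpow_neg, ModularGroup.coe_T_zpow]
  fin_cases i <;>
    simp [Matrix.vecMul, dotProduct, Fin.sum_univ_two]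

/-! ## The modular form on `Γ₁(N)` -/

theorem eisOdd_T_mem_Gamma1 (N : ℕ) : ModularGroup.T ∈ Gamma1 N := by
  rw [Gamma1_mem]
  simp [ModularGroup.T]

theorem eisOdd_one_mem_strictPeriods (N : ℕ) :
    (1 : ℝ) ∈ ((Gamma1 N : Subgroup SL(2, ℤ)) : Subgroup (GL (Fin 2) ℝ)).strictPeriods := by
  rw [Subgroup.strictPeriods_eq_zmultiples_one_of_T_mem (eisOdd_T_mem_Gamma1 N)]
  exact AddSubgroup.mem_zmultiples 1

/-- `G_χ` as a modular form on `Γ₁(N)` -/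
def eisOddForm [NeZero N] {k : ℤ} (hk : 3 ≤ k) : ModularForm (Gamma1 N) k where
  toFun := eisOddFun χ k
  slash_action_eq' := by
    rintro _ ⟨γ, hγ, rfl⟩
    change eisOddFun χ k ∣[k] γ = _
    rw [eisOddFun_slash χ k γ (Gamma1_in_Gamma0 N hγ)]
    have h1 : ((γ 1 1 : ℤ) : ZMod N) = 1 := ((Gamma1_mem N γ).mp hγ).2.1
    rw [h1, map_one, one_smul]
  holo' := eisOddFun_mdiff χ hk
  bdd_at_cusps' := by
    intro c hc
    rw [Subgroup.IsArithmetic.isCusp_iff_isCusp_SL2Z] at hc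
    rw [OnePoint.isBoundedAt_iff_forall_SL2Z hc]
    intro δ _
    exact eisOddFun_slash_isBoundedAtImInfty χ hk δ

@[simp] theorem eisOddForm_apply [NeZero N] {k : ℤ} (hk : 3 ≤ k) (z : ℍ) :
    eisOddForm χ hk z = eisOddFun χ k z := rfl

/-- the normalising constant `2 (-2πi)^k / (k-1)!` -/
def eisOddConst (k : ℕ) : ℂ := 2 * ((-2 * π * Complex.I) ^ k / (k - 1).factorial)

theorem eisOddConst_ne_zero (k : ℕ) : eisOddConst k ≠ 0 := by
  unfold eisOddConst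
  have h1 : (-2 * (π : ℂ) * Complex.I) ≠ 0 := by
    simp [Real.pi_ne_zero, Complex.I_ne_zero]
  have h2 : (((k - 1).factorial : ℕ) : ℂ) ≠ 0 := by
    exact_mod_cast (Nat.factorial_pos _).ne'
  exact mul_ne_zero two_ne_zero (div_ne_zero (pow_ne_zero _ h1) h2)

/-- the coefficients `∑_{d ∣ n} χ(d) (n/d)^{k-1}` -/
def eisOddCoeff (k : ℕ) (n : ℕ) : ℂ :=
  if n = 0 then 0 else ∑ d ∈ n.divisors, χ (d : ZMod N) * ((n / d : ℕ) : ℂ) ^ (k - 1)

/-- the normalised form `H_χ = G_χ / (2 (-2πi)^k/(k-1)!)` -/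
def eisOddNorm [NeZero N] {k : ℕ} (hk : 3 ≤ k) : ModularForm (Gamma1 N) k :=
  (eisOddConst k)⁻¹ • eisOddForm χ (k := (k : ℤ)) (by exact_mod_cast hk)

theorem eisOddNorm_apply [NeZero N] {k : ℕ} (hk : 3 ≤ k) (z : ℍ) :
    eisOddNorm χ hk z = (eisOddConst k)⁻¹ * eisOddFun χ k z := rfl

open Complex in
/-- the `q`-expansion of `H_χ` -/
theorem eisOddNorm_hasSum [NeZero N] {k : ℕ} (hk : 3 ≤ k) (hχ : χ (-1) = (-1 : ℂ) ^ k)
    (hN : N ≠ 1) (τ : ℍ) :
    HasSum (fun n : ℕ => eisOddCoeff χ k n • Function.Periodic.qParam 1 τ ^ n)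
      (eisOddNorm χ hk τ) := by
  have hq : Function.Periodic.qParam 1 (τ : ℂ) = cexp (2 * π * Complex.I * τ) := by
    simp [Function.Periodic.qParam]
  rw [eisOddNorm_apply, eisOddFun_tsum χ hk hχ hN τ, ← eisOddConst, ← mul_assoc,
    inv_mul_cancel₀ (eisOddConst_ne_zero k), one_mul, hq]
  -- summability
  have hr := norm_exp_two_pi_I_lt_one τ
  have hsum : Summable fun e : ℕ+ =>
      (∑ d ∈ (e : ℕ).divisors, χ (d : ZMod N) * ((e / d : ℕ) : ℂ) ^ (k - 1)) *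
        cexp (2 * π * Complex.I * τ) ^ (e : ℕ) := by
    have hs := eisOdd_summable_twist (k - 1) hr (fun n => χ (n : ZMod N))
      (fun n => χ.norm_le_one _)
    have hs' := sigmaAntidiagonalEquivProd.summable_iff.mpr hs
    have h3 := hs'.sigma
    refine h3.congr fun n => ?_
    rw [tsum_fintype, Finset.univ_eq_attach]
    have h1 : ∀ x : Nat.divisorsAntidiagonal n,
        ((fun c : ℕ+ × ℕ+ => (fun n => χ (n : ZMod N)) c.1 *
          ((c.2 : ℂ) ^ (k - 1) * cexp (2 * π * Complex.I * τ) ^ (c.1 * c.2 : ℕ))) ∘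
            sigmaAntidiagonalEquivProd) ⟨n, x⟩ =
        (fun y : ℕ × ℕ => χ (y.1 : ZMod N) *
          ((y.2 : ℂ) ^ (k - 1) * cexp (2 * π * Complex.I * τ) ^ (y.1 * y.2))) x.1 := by
      intro x
      simp [sigmaAntidiagonalEquivProd, divisorsAntidiagonalFactors]
    simp_rw [h1]
    rw [(n : ℕ).divisorsAntidiagonal.sum_attach
      (fun y : ℕ × ℕ => χ (y.1 : ZMod N) *
        ((y.2 : ℂ) ^ (k - 1) * cexp (2 * π * Complex.I * τ) ^ (y.1 * y.2)))]
    rw [Nat.sum_divisorsAntidiagonal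
      (fun x y => χ (x : ZMod N) * ((y : ℂ) ^ (k - 1) * cexp (2 * π * Complex.I * τ) ^ (x * y)))]
    rw [Finset.sum_mul]
    refine Finset.sum_congr rfl fun i hi => ?_
    rw [Nat.mul_div_cancel' (Nat.dvd_of_mem_divisors hi)]
    ring
  -- from `ℕ+` to `ℕ`
  have hF : HasSum (fun e : ℕ+ => eisOddCoeff χ k (e : ℕ) • cexp (2 * π * Complex.I * τ) ^ (e : ℕ))
      (∑' e : ℕ+, (∑ d ∈ (e : ℕ).divisors, χ (d : ZMod N) * ((e / d : ℕ) : ℂ) ^ (k - 1)) *
        cexp (2 * π * Complex.I * τ) ^ (e : ℕ)) := by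
    have h3 := hsum.hasSum
    refine h3.congr_fun ?_
    intro e
    simp [eisOddCoeff, e.ne_zero]
  refine (Function.Injective.hasSum_iff PNat.coe_injective ?_).mp hF
  intro x hx
  have hx0 : x = 0 := by
    by_contra h
    exact hx ⟨⟨x, Nat.pos_of_ne_zero h⟩, rfl⟩
  simp [hx0, eisOddCoeff]

/-- the `q`-coefficients of `H_χ` -/
theorem eisOddNorm_qCoeff [NeZero N] {k : ℕ} (hk : 3 ≤ k) (hχ : χ (-1) = (-1 : ℂ) ^ k)
    (hN : N ≠ 1) (n : ℕ) :
    ModularFormClass.qCoeff (eisOddNorm χ hk) n = eisOddCoeff χ k n := by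
  have := ModularFormClass.qExpansion_coeff_unique (f := eisOddNorm χ hk)
    (c := eisOddCoeff χ k) one_pos (eisOdd_one_mem_strictPeriods N)
    (fun τ => eisOddNorm_hasSum χ hk hχ hN τ) n
  exact this.symm

/-- the nebentypus of `G_χ`, pointwise -/
theorem eisOddFun_smul (k : ℤ) (γ : SL(2, ℤ)) (hγ : γ ∈ Gamma0 N) (z : ℍ) :
    eisOddFun χ k (γ • z) = χ ((γ 1 1 : ℤ) : ZMod N) *
      ((γ 1 0 : ℂ) * (z : ℂ) + (γ 1 1 : ℂ)) ^ k * eisOddFun χ k z := by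
  have h1 := congrFun (eisOddFun_slash χ k γ hγ) z
  rw [SL_slash_apply, Pi.smul_apply, smul_eq_mul] at h1
  have hd : denom γ z = (γ 1 0 : ℂ) * (z : ℂ) + (γ 1 1 : ℂ) := by
    rw [ModularGroup.denom_apply]
  rw [hd] at h1
  have hne : ((γ 1 0 : ℂ) * (z : ℂ) + (γ 1 1 : ℂ)) ^ k ≠ 0 := by
    rw [← hd]
    exact zpow_ne_zero k (denom_ne_zero γ z)
  rw [_root_.zpow_neg] at h1
  field_simp at h1
  rw [h1]
  ring

/-- the nebentypus of `H_χ` -/
theorem eisOddNorm_smul [NeZero N] {k : ℕ} (hk : 3 ≤ k) (γ : SL(2, ℤ)) (hγ : γ ∈ Gamma0 N)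
    (z : ℍ) :
    eisOddNorm χ hk (γ • z) = χ ((γ 1 1 : ℤ) : ZMod N) *
      ((γ 1 0 : ℂ) * (z : ℂ) + (γ 1 1 : ℂ)) ^ k * eisOddNorm χ hk z := by
  rw [eisOddNorm_apply, eisOddNorm_apply, eisOddFun_smul χ k γ hγ z, zpow_natCast]
  ring

/-- **EIS3.**  For `k ≥ 3` and a Dirichlet character `χ` modulo `N ≠ 1` with
`χ(-1) = (-1)^k` there is a modular form `H` of weight `k` on `Γ₁(N)` with nebentypus `χ` on
`Γ₀(N)`, vanishing constant term and `n`-th coefficient `∑_{d ∣ n} χ(d) (n/d)^{k-1}`. -/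
theorem exists_eisOdd (N : ℕ) [NeZero N] (hN : N ≠ 1) {k : ℕ} (hk : 3 ≤ k)
    (χ : DirichletCharacter ℂ N) (hχ : χ (-1) = (-1 : ℂ) ^ k) :
    ∃ H : ModularForm (Gamma1 N) k,
      (∀ γ : SL(2, ℤ), γ ∈ Gamma0 N → ∀ z : ℍ,
        H (γ • z) = χ ((γ 1 1 : ℤ) : ZMod N) *
          ((γ 1 0 : ℂ) * (z : ℂ) + (γ 1 1 : ℂ)) ^ k * H z) ∧
      ModularFormClass.qCoeff H 0 = 0 ∧
      ∀ n : ℕ, n ≠ 0 → ModularFormClass.qCoeff H n =
        ∑ d ∈ n.divisors, χ (d : ZMod N) * ((n / d : ℕ) : ℂ) ^ (k - 1) := by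
  refine ⟨eisOddNorm χ hk, fun γ hγ z => eisOddNorm_smul χ hk γ hγ z, ?_, fun n hn => ?_⟩
  · rw [eisOddNorm_qCoeff χ hk hχ hN]
    simp [eisOddCoeff]
  · rw [eisOddNorm_qCoeff χ hk hχ hN]
    simp [eisOddCoeff, hn]

/-- the case of odd weight and odd character (`N ≠ 1` is automatic) -/
theorem exists_eisOdd_of_odd (N : ℕ) [NeZero N] {k : ℕ} (hk : 3 ≤ k) (hodd : Odd k)
    (χ : DirichletCharacter ℂ N) (hχ : χ (-1) = -1) :
    ∃ H : ModularForm (Gamma1 N) k,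
      (∀ γ : SL(2, ℤ), γ ∈ Gamma0 N → ∀ z : ℍ,
        H (γ • z) = χ ((γ 1 1 : ℤ) : ZMod N) *
          ((γ 1 0 : ℂ) * (z : ℂ) + (γ 1 1 : ℂ)) ^ k * H z) ∧
      ModularFormClass.qCoeff H 0 = 0 ∧
      ∀ n : ℕ, n ≠ 0 → ModularFormClass.qCoeff H n =
        ∑ d ∈ n.divisors, χ (d : ZMod N) * ((n / d : ℕ) : ℂ) ^ (k - 1) := by
  have hN : N ≠ 1 := by
    rintro rfl
    have h1 : (-1 : ZMod 1) = 1 := Subsingleton.elim _ _
    rw [h1, map_one] at hχ
    norm_num at hχ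
  exact exists_eisOdd N hN hk χ (by rw [hχ, hodd.neg_one_pow])

end Fermat.Agent.S48

end
end ZBS48_001_0

/-! ### bundled: `Fermat.Agent.ES1.F2Series` -/
section ZBS48_001_1

/-!
# ES₁ / F2 (part 1): the `q`-expansion of an odd Eisenstein series of weight `3`

For an odd bounded weight `w : ℤ/M → ℂ` (`w (-x) = - w x`, `‖w x‖ ≤ 1`) the series
`∑_{(c,d) ∈ ℤ²} w(c) (c z + d)⁻³` equals
`2 · ((-2πi)³/2!) · ∑_{e ≥ 1} (∑_{d ∣ e} w(d) (e/d)²) qᵉ`, `q = e^{2πiz}`.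
(Same proof as `S48/EisOdd.lean` `eisOddFun_tsum`, with a general weight.)
-/

set_option autoImplicit false

open EisensteinSeries UpperHalfPlane ModularForm CongruenceSubgroup Matrix Filter Topology
open Fermat.Agent.ES Fermat.Agent.S48
open scoped MatrixGroups Manifold Real

noncomputable section

namespace Fermat.Agent.ES1

variable {M : ℕ}

/-- the coefficient `κ(c, d) = w(c)` -/
def f2KapW (w : ZMod M → ℂ) (v : Fin 2 → ℤ) : ℂ := w ((v 0 : ℤ) : ZMod M)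

theorem f2_w_zero {w : ZMod M → ℂ} (hodd : ∀ x, w (-x) = -w x) : w 0 = 0 := by
  have h := hodd 0
  rw [neg_zero] at h
  have h2 : (2 : ℂ) * w 0 = 0 := by linear_combination h
  rcases mul_eq_zero.mp h2 with h3 | h3
  · exact absurd h3 two_ne_zero
  · exact h3

open Complex Nat in
/-- the `q`-expansion, as an identity of functions -/
theorem f2_eisC_tsum (w : ZMod M → ℂ) (hw : ∀ x, ‖w x‖ ≤ 1) (hodd : ∀ x, w (-x) = -w x)
    (z : ℍ) :
    eisC (f2KapW w) 3 z = 2 * ((-2 * π * Complex.I) ^ 3 / (3 - 1)!) *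
      ∑' e : ℕ+, (∑ d ∈ (e : ℕ).divisors, w (d : ZMod M) * ((e / d : ℕ) : ℂ) ^ (3 - 1)) *
        cexp (2 * π * Complex.I * z) ^ (e : ℕ) := by
  have hk' : (3 : ℤ) ≤ ((3 : ℕ) : ℤ) := le_refl _
  have hsumv := eisC_summable (κ := f2KapW w) (C := 1) (fun v => hw _) (k := 3) (le_refl _) z
  have hsum : Summable fun x : ℤ × ℤ =>
      w ((x.1 : ℤ) : ZMod M) * eisSummand 3 ![x.1, x.2] z := by
    refine (finTwoArrowEquiv ℤ).summable_iff.mp (hsumv.congr fun v => ?_)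
    simp [f2KapW, show ![v 0, v 1] = v from List.ofFn_inj.mp rfl]
  have hG : eisC (f2KapW w) 3 z = ∑' x : ℤ × ℤ,
      w ((x.1 : ℤ) : ZMod M) * eisSummand 3 ![x.1, x.2] z := by
    unfold eisC
    rw [← (finTwoArrowEquiv ℤ).symm.tsum_eq]
    refine tsum_congr fun x => ?_
    simp [f2KapW]
  rw [hG, Summable.tsum_prod hsum]
  -- evenness in `c`
  have heven : Function.Even fun c : ℤ =>
      ∑' d : ℤ, w ((c : ℤ) : ZMod M) * eisSummand 3 ![c, d] z := by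
    intro c
    simp only
    rw [← tsum_comp_neg (fun d : ℤ => w (((-c : ℤ) : ℤ) : ZMod M) * eisSummand 3 ![-c, d] z)]
    refine tsum_congr fun d => ?_
    have h1 : w (((-c : ℤ) : ℤ) : ZMod M) = -w ((c : ℤ) : ZMod M) := by
      rw [Int.cast_neg, hodd]
    have h2 : eisSummand 3 ![-c, -d] z = -eisSummand 3 ![c, d] z := by
      simp only [eisSummand, Matrix.cons_val_zero, Matrix.cons_val_one, Int.cast_neg]
      have : (-(c : ℂ) * (z : ℂ) + -(d : ℂ)) = -1 * ((c : ℂ) * z + d) := by ring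
      rw [this, mul_zpow]
      have h3 : ((-1 : ℂ)) ^ (-(3 : ℤ)) = -1 := by
        rw [_root_.zpow_neg]
        norm_num [zpow_ofNat]
      rw [h3]
      ring
    rw [h1, h2]
    ring
  rw [tsum_int_eq_zero_add_two_mul_tsum_pnat heven hsum.prod]
  -- the term `c = 0` vanishes
  have h0 : (∑' d : ℤ, w ((0 : ℤ) : ZMod M) * eisSummand 3 ![0, d] z) = 0 := by
    rw [Int.cast_zero, f2_w_zero hodd]
    simp
  rw [h0, zero_add, nsmul_eq_mul, Nat.cast_ofNat, mul_assoc]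
  congr 1
  -- the inner sums
  have H (b : ℕ+) := qExpansion_identity_pnat (k := 3 - 1) (by omega)
    ⟨b * z, by simpa using z.2⟩
  simp_rw [show 3 - 1 + 1 = 3 by omega, one_div] at H
  have hin : ∀ b : ℕ+, ∑' d : ℤ, w (((b : ℕ) : ℤ) : ZMod M) * eisSummand 3 ![((b : ℕ) : ℤ), d] z
      = ((-2 * π * Complex.I) ^ 3 / (3 - 1)!) *
        ∑' n : ℕ+, w ((b : ℕ) : ZMod M) *
          (((n : ℕ) : ℂ) ^ (3 - 1) * cexp (2 * π * Complex.I * z) ^ ((b : ℕ) * (n : ℕ))) := by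
    intro b
    have hb : ((((b : ℕ) : ℤ) : ZMod M)) = ((b : ℕ) : ZMod M) := by push_cast; rfl
    have h1 : ∑' d : ℤ, eisSummand 3 ![((b : ℕ) : ℤ), d] z
        = ∑' d : ℤ, ((((b : ℕ) : ℂ) * (z : ℂ) + d) ^ 3)⁻¹ := by
      refine tsum_congr fun d => ?_
      simp [eisSummand]
    have h2 : ∑' n : ℕ+, ((n : ℕ) : ℂ) ^ (3 - 1) *
          cexp (2 * π * Complex.I * (((b : ℕ) : ℂ) * (z : ℂ))) ^ (n : ℕ)
        = ∑' n : ℕ+, ((n : ℕ) : ℂ) ^ (3 - 1) *
          cexp (2 * π * Complex.I * z) ^ ((b : ℕ) * (n : ℕ)) := by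
      refine tsum_congr fun n => ?_
      congr 1
      rw [← Complex.exp_nat_mul, ← Complex.exp_nat_mul]
      congr 1
      push_cast
      ring
    rw [tsum_mul_left, tsum_mul_left, hb, h1, H b, h2]
    ring
  simp_rw [hin]
  rw [tsum_mul_left]
  congr 1
  have := eisOdd_tsum_twist (3 - 1) (norm_exp_two_pi_I_lt_one z) (fun n => w (n : ZMod M))
    (fun n => hw _)
  simpa using this

end Fermat.Agent.ES1

end
end ZBS48_001_1

/-! ### bundled: `Fermat.Agent.RT.K6.BLam` -/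
section ZBS48_001_2

/-!
# RT-K6 / B (1): the `q`-expansion of a weight `3` Eisenstein series at the "other" cusp

For a bounded odd weight `ω : ℤ → ℤ → ℂ` with `ω c (d + r) = ω c d`, the series
`E(z) = ∑_{(c,d)} ω(c,d) (c · r z + d)⁻³` is
`∑_d ω(0,d) d⁻³ + 2 · ((-2πi)³/2!) · r⁻³ · ∑_{m ≥ 1} (∑_{c ∣ m} (∑_{j < r} ω(c,j) ζ^{j (m/c)}) (m/c)²) q^m`,
`ζ = e^{2πi/r}`, `q = e^{2πiz}` (helper96).
-/

set_option autoImplicit false

open EisensteinSeries UpperHalfPlane ModularForm CongruenceSubgroup Matrix Filter Topology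
open Fermat.Agent.ES Fermat.Agent.S48 Fermat.Agent.S23
open scoped MatrixGroups Manifold Real

noncomputable section

namespace Fermat.Agent.RT.K6

/-! ### splitting a sum over `ℤ` into residue classes -/

theorem rtk6b_summable_residue (r : ℕ) [NeZero r] (F : ℤ → ℂ) (hF : Summable F) (j : Fin r) :
    Summable fun k : ℤ => F (k * r + (j : ℕ)) := by
  have h1 : Summable fun p : ℤ × Fin r => F ((Int.divModEquiv r).symm p) :=
    (Int.divModEquiv r).symm.summable_iff.mpr hF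
  exact h1.prod_symm.prod_factor j

theorem rtk6b_tsum_residue (r : ℕ) [NeZero r] (F : ℤ → ℂ) (hF : Summable F) :
    ∑' d : ℤ, F d = ∑ j : Fin r, ∑' k : ℤ, F (k * r + (j : ℕ)) := by
  have h1 : Summable fun p : ℤ × Fin r => F ((Int.divModEquiv r).symm p) :=
    (Int.divModEquiv r).symm.summable_iff.mpr hF
  rw [← (Int.divModEquiv r).symm.tsum_eq F, Summable.tsum_prod h1]
  have h3 : ∀ k : ℤ, ∑' j : Fin r, F ((Int.divModEquiv r).symm (k, j)) =
      ∑ j : Fin r, F (k * r + (j : ℕ)) := fun k => by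
    rw [tsum_fintype]; rfl
  simp_rw [h3]
  rw [Summable.tsum_finsetSum]
  intro j _
  exact h1.prod_symm.prod_factor j

/-! ### a Lambert series rearrangement with a twist depending on both variables -/

theorem rtk6b_summable_twist (k : ℕ) {q : ℂ} (hq : ‖q‖ < 1) (A : ℕ → ℕ → ℂ) {B : ℝ}
    (hA : ∀ c n, ‖A c n‖ ≤ B) :
    Summable fun c : ℕ+ × ℕ+ => A c.1 c.2 * ((c.2 : ℂ) ^ k * q ^ (c.1 * c.2 : ℕ)) := by
  have h := (summable_prod_mul_pow (𝕜 := ℝ) k (r := ‖q‖) (by simpa using hq)).mul_left B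
  refine Summable.of_norm_bounded h fun c => ?_
  rw [norm_mul, norm_mul, norm_pow, norm_pow, Complex.norm_natCast]
  apply mul_le_mul_of_nonneg_right (hA _ _)
  positivity

theorem rtk6b_tsum_twist (k : ℕ) {q : ℂ} (hq : ‖q‖ < 1) (A : ℕ → ℕ → ℂ) {B : ℝ}
    (hA : ∀ c n, ‖A c n‖ ≤ B) :
    ∑' d : ℕ+, ∑' c : ℕ+, A d c * ((c : ℂ) ^ k * q ^ (d * c : ℕ)) =
      ∑' e : ℕ+, (∑ d ∈ (e : ℕ).divisors, A d (e / d) * ((e / d : ℕ) : ℂ) ^ k) * q ^ (e : ℕ) := by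
  have hs := rtk6b_summable_twist k hq A hA
  rw [← hs.tsum_prod (f := fun c : ℕ+ × ℕ+ => A c.1 c.2 * ((c.2 : ℂ) ^ k * q ^ (c.1 * c.2 : ℕ)))]
  rw [← sigmaAntidiagonalEquivProd.tsum_eq]
  have hs' : Summable fun x : (Σ n : ℕ+, Nat.divisorsAntidiagonal n) =>
      (fun c : ℕ+ × ℕ+ => A c.1 c.2 * ((c.2 : ℂ) ^ k * q ^ (c.1 * c.2 : ℕ)))
        (sigmaAntidiagonalEquivProd x) :=
    sigmaAntidiagonalEquivProd.summable_iff.mpr hs
  rw [hs'.tsum_sigma]
  refine tsum_congr fun n => ?_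
  rw [tsum_fintype, Finset.univ_eq_attach]
  have h1 : ∀ x : Nat.divisorsAntidiagonal n,
      (fun c : ℕ+ × ℕ+ => A c.1 c.2 * ((c.2 : ℂ) ^ k * q ^ (c.1 * c.2 : ℕ)))
        (sigmaAntidiagonalEquivProd ⟨n, x⟩) =
      (fun y : ℕ × ℕ => A y.1 y.2 * ((y.2 : ℂ) ^ k * q ^ (y.1 * y.2))) x.1 := by
    intro x
    simp [sigmaAntidiagonalEquivProd, divisorsAntidiagonalFactors]
  simp_rw [h1]
  rw [(n : ℕ).divisorsAntidiagonal.sum_attach
    (fun y : ℕ × ℕ => A y.1 y.2 * ((y.2 : ℂ) ^ k * q ^ (y.1 * y.2)))]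
  rw [Nat.sum_divisorsAntidiagonal (fun x y => A x y * ((y : ℂ) ^ k * q ^ (x * y)))]
  rw [Finset.sum_mul]
  refine Finset.sum_congr rfl fun i hi => ?_
  rw [Nat.mul_div_cancel' (Nat.dvd_of_mem_divisors hi)]
  ring

theorem rtk6b_summable_divisor_sum (k : ℕ) {q : ℂ} (hq : ‖q‖ < 1) (A : ℕ → ℕ → ℂ) {B : ℝ}
    (hA : ∀ c n, ‖A c n‖ ≤ B) :
    Summable fun e : ℕ+ =>
      (∑ d ∈ (e : ℕ).divisors, A d (e / d) * ((e / d : ℕ) : ℂ) ^ k) * q ^ (e : ℕ) := by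
  have hs := rtk6b_summable_twist k hq A hA
  have hs' := sigmaAntidiagonalEquivProd.summable_iff.mpr hs
  have h3 := hs'.sigma
  refine h3.congr fun n => ?_
  rw [tsum_fintype, Finset.univ_eq_attach]
  have h1 : ∀ x : Nat.divisorsAntidiagonal n,
      ((fun c : ℕ+ × ℕ+ => A c.1 c.2 * ((c.2 : ℂ) ^ k * q ^ (c.1 * c.2 : ℕ))) ∘
          sigmaAntidiagonalEquivProd) ⟨n, x⟩ =
      (fun y : ℕ × ℕ => A y.1 y.2 * ((y.2 : ℂ) ^ k * q ^ (y.1 * y.2))) x.1 := by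
    intro x
    simp [sigmaAntidiagonalEquivProd, divisorsAntidiagonalFactors]
  simp_rw [h1]
  rw [(n : ℕ).divisorsAntidiagonal.sum_attach
    (fun y : ℕ × ℕ => A y.1 y.2 * ((y.2 : ℂ) ^ k * q ^ (y.1 * y.2)))]
  rw [Nat.sum_divisorsAntidiagonal (fun x y => A x y * ((y : ℂ) ^ k * q ^ (x * y)))]
  rw [Finset.sum_mul]
  refine Finset.sum_congr rfl fun i hi => ?_
  rw [Nat.mul_div_cancel' (Nat.dvd_of_mem_divisors hi)]
  ring

/-! ### the `q`-expansion -/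

theorem rtk6b_per_int {r : ℕ} {ω : ℤ → ℤ → ℂ} (hper : ∀ c d, ω c (d + r) = ω c d) (c d k : ℤ) :
    ω c (k * r + d) = ω c d := by
  induction k using Int.induction_on with
  | zero => simp
  | succ n ih =>
    have : ((n : ℤ) + 1) * r + d = (n * r + d) + r := by ring
    rw [this, hper, ih]
  | pred n ih =>
    have h := hper c ((-(n : ℤ) - 1) * r + d)
    have : (-(n : ℤ) - 1) * r + d + r = -(n : ℤ) * r + d := by ring
    rw [this] at h
    rw [← h, ih]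

/-- the point `b z + j / r` of `ℍ` -/
def rtk6bPt (r : ℕ) [NeZero r] (b : ℕ+) (j : ℕ) (z : ℍ) : ℍ :=
  ⟨(b : ℕ) * (z : ℂ) + (j : ℂ) / (r : ℂ), by
    have h1 : (((b : ℕ) : ℂ) * (z : ℂ) + (j : ℂ) / (r : ℂ)).im = (b : ℕ) * z.im := by
      have h2 : ((j : ℂ) / (r : ℂ)).im = 0 := by
        rw [show ((j : ℂ) / (r : ℂ)) = (((j : ℝ) / (r : ℝ) : ℝ) : ℂ) by push_cast; rfl]
        exact Complex.ofReal_im _
      rw [Complex.add_im, h2, add_zero, Complex.mul_im, Complex.natCast_re, Complex.natCast_im,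
        zero_mul, add_zero]
      rfl
    rw [h1]
    exact mul_pos (Nat.cast_pos.mpr b.pos) z.im_pos⟩

theorem coe_rtk6bPt (r : ℕ) [NeZero r] (b : ℕ+) (j : ℕ) (z : ℍ) :
    ((rtk6bPt r b j z : ℍ) : ℂ) = (b : ℕ) * (z : ℂ) + (j : ℂ) / (r : ℂ) := rfl

/-- `ζ_j = e^{2πi j / r}` -/
def rtk6bZ (r : ℕ) (j : ℕ) : ℂ := Complex.exp (2 * π * Complex.I * (j : ℂ) / (r : ℂ))

theorem norm_rtk6bZ (r j : ℕ) : ‖rtk6bZ r j‖ = 1 := by
  unfold rtk6bZ
  rw [Complex.norm_exp]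
  have : (2 * (π : ℂ) * Complex.I * (j : ℂ) / (r : ℂ)).re = 0 := by
    rw [show (2 * (π : ℂ) * Complex.I * (j : ℂ) / (r : ℂ)) =
      (((2 * π * (j : ℝ) / (r : ℝ) : ℝ) : ℂ)) * Complex.I by push_cast; ring]
    rw [Complex.re_ofReal_mul, Complex.I_re, mul_zero]
  rw [this, Real.exp_zero]

theorem rtk6b_exp_pt (r : ℕ) [NeZero r] (b : ℕ+) (j : ℕ) (z : ℍ) (n : ℕ) :
    Complex.exp (2 * π * Complex.I * (rtk6bPt r b j z : ℍ)) ^ n =
      rtk6bZ r j ^ n * Complex.exp (2 * π * Complex.I * z) ^ ((b : ℕ) * n) := by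
  rw [coe_rtk6bPt, rtk6bZ, ← Complex.exp_nat_mul, ← Complex.exp_nat_mul, ← Complex.exp_nat_mul,
    ← Complex.exp_add]
  congr 1
  push_cast
  ring

/-- the twist `A(c, n) = ∑_{j < r} ω(c, j) ζ_j^n` -/
def rtk6bA (r : ℕ) (ω : ℤ → ℤ → ℂ) (c n : ℕ) : ℂ :=
  ∑ j : Fin r, ω c (j : ℕ) * rtk6bZ r j ^ n

theorem norm_rtk6bA_le (r : ℕ) (ω : ℤ → ℤ → ℂ) (hω : ∀ c d, ‖ω c d‖ ≤ 1) (c n : ℕ) :
    ‖rtk6bA r ω c n‖ ≤ r := by
  unfold rtk6bA
  refine (norm_sum_le _ _).trans ?_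
  have : ∀ j ∈ (Finset.univ : Finset (Fin r)), ‖ω c (j : ℕ) * rtk6bZ r j ^ n‖ ≤ 1 := by
    intro j _
    rw [norm_mul, norm_pow, norm_rtk6bZ, one_pow, mul_one]
    exact hω _ _
  refine (Finset.sum_le_sum this).trans ?_
  simp

open Complex Nat in
/-- the inner sum over `d`, for `c = b ≥ 1` -/
theorem rtk6b_inner (r : ℕ) [NeZero r] (ω : ℤ → ℤ → ℂ) (hω : ∀ c d, ‖ω c d‖ ≤ 1)
    (hper : ∀ c d, ω c (d + r) = ω c d) (z : ℍ) (b : ℕ+) :
    ∑' d : ℤ, ω ((b : ℕ) : ℤ) d * eisSummand 3 ![((b : ℕ) : ℤ), d] (scaleN r z) =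
      ((-2 * π * Complex.I) ^ 3 / (3 - 1)!) * ((r : ℂ) ^ 3)⁻¹ *
        ∑' n : ℕ+, rtk6bA r ω b n *
          (((n : ℕ) : ℂ) ^ (3 - 1) * cexp (2 * π * Complex.I * z) ^ ((b : ℕ) * (n : ℕ))) := by
  have hr0 : (r : ℂ) ≠ 0 := Nat.cast_ne_zero.mpr (NeZero.ne r)
  have hsumv := eisC_summable (κ := fun v => ω (v 0) (v 1)) (C := 1) (fun v => hω _ _)
    (k := 3) (le_refl _) (scaleN r z)
  have hsum : Summable fun x : ℤ × ℤ => ω x.1 x.2 * eisSummand 3 ![x.1, x.2] (scaleN r z) := by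
    refine (finTwoArrowEquiv ℤ).summable_iff.mp (hsumv.congr fun v => ?_)
    simp [show ![v 0, v 1] = v from List.ofFn_inj.mp rfl]
  have hF := hsum.prod_factor ((b : ℕ) : ℤ)
  rw [rtk6b_tsum_residue r _ hF]
  have H (j : ℕ) := qExpansion_identity_pnat (k := 3 - 1) (by omega) (rtk6bPt r b j z)
  simp_rw [show 3 - 1 + 1 = 3 by omega] at H
  have hterm : ∀ (j : Fin r) (k : ℤ),
      ω ((b : ℕ) : ℤ) (k * r + (j : ℕ)) *
        eisSummand 3 ![((b : ℕ) : ℤ), k * r + (j : ℕ)] (scaleN r z) =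
      ω ((b : ℕ) : ℤ) (j : ℕ) * ((r : ℂ) ^ 3)⁻¹ *
        (1 / (((rtk6bPt r b j z : ℍ) : ℂ) + k) ^ 3) := by
    intro j k
    rw [rtk6b_per_int hper]
    have h1 : eisSummand 3 ![((b : ℕ) : ℤ), k * r + (j : ℕ)] (scaleN r z) =
        ((((b : ℕ) : ℂ) * ((r : ℂ) * z) + ((k : ℂ) * r + (j : ℕ))) ^ 3)⁻¹ := by
      simp [eisSummand, coe_scaleN]
    rw [h1, coe_rtk6bPt]
    have h2 : ((b : ℕ) : ℂ) * ((r : ℂ) * z) + ((k : ℂ) * r + (j : ℕ)) =
        (r : ℂ) * (((b : ℕ) : ℂ) * (z : ℂ) + ((j : ℕ) : ℂ) / (r : ℂ) + k) := by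
      field_simp
      ring
    rw [h2, mul_pow, mul_inv, one_div]
    ring
  simp_rw [hterm, tsum_mul_left, H, rtk6b_exp_pt]
  -- interchange the finite sum and the series
  have hq := norm_exp_two_pi_I_lt_one z
  have hsumj : ∀ j : Fin r, Summable fun n : ℕ+ =>
      ω ((b : ℕ) : ℤ) (j : ℕ) * rtk6bZ r j ^ (n : ℕ) *
        (((n : ℕ) : ℂ) ^ (3 - 1) * cexp (2 * π * Complex.I * z) ^ ((b : ℕ) * (n : ℕ))) := by
    intro j
    have h := rtk6b_summable_twist (3 - 1) hq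
      (fun _ n => ω ((b : ℕ) : ℤ) (j : ℕ) * rtk6bZ r j ^ n) (B := 1) (fun c n => by
        rw [norm_mul, norm_pow, norm_rtk6bZ, one_pow, mul_one]
        exact hω _ _)
    exact h.prod_factor b
  have hrhs : ∑' n : ℕ+, rtk6bA r ω b n *
        (((n : ℕ) : ℂ) ^ (3 - 1) * cexp (2 * π * Complex.I * z) ^ ((b : ℕ) * (n : ℕ))) =
      ∑ j : Fin r, ∑' n : ℕ+, ω ((b : ℕ) : ℤ) (j : ℕ) * rtk6bZ r j ^ (n : ℕ) *
        (((n : ℕ) : ℂ) ^ (3 - 1) * cexp (2 * π * Complex.I * z) ^ ((b : ℕ) * (n : ℕ))) := by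
    rw [← Summable.tsum_finsetSum (fun j _ => hsumj j)]
    refine tsum_congr fun n => ?_
    unfold rtk6bA
    rw [Finset.sum_mul]
  rw [hrhs, Finset.mul_sum]
  refine Finset.sum_congr rfl fun j _ => ?_
  rw [← tsum_mul_left, ← tsum_mul_left, ← tsum_mul_left]
  refine tsum_congr fun n => ?_
  ring

open Complex Nat in
/-- **the `q`-expansion at the other cusp**, as an identity of functions -/
theorem rtk6b_eisC_tsum (r : ℕ) [NeZero r] (ω : ℤ → ℤ → ℂ) (hω : ∀ c d, ‖ω c d‖ ≤ 1)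
    (hper : ∀ c d, ω c (d + r) = ω c d) (hodd : ∀ c d, ω (-c) (-d) = -ω c d) (z : ℍ) :
    eisC (fun v => ω (v 0) (v 1)) 3 (scaleN r z) =
      (∑' d : ℤ, ω 0 d * ((d : ℂ) ^ 3)⁻¹) +
      2 * (((-2 * π * Complex.I) ^ 3 / (3 - 1)!) * ((r : ℂ) ^ 3)⁻¹ *
        ∑' e : ℕ+, (∑ c ∈ (e : ℕ).divisors,
          rtk6bA r ω c (e / c) * ((e / c : ℕ) : ℂ) ^ (3 - 1)) *
            cexp (2 * π * Complex.I * z) ^ (e : ℕ)) := by
  have hsumv := eisC_summable (κ := fun v => ω (v 0) (v 1)) (C := 1) (fun v => hω _ _)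
    (k := 3) (le_refl _) (scaleN r z)
  have hsum : Summable fun x : ℤ × ℤ => ω x.1 x.2 * eisSummand 3 ![x.1, x.2] (scaleN r z) := by
    refine (finTwoArrowEquiv ℤ).summable_iff.mp (hsumv.congr fun v => ?_)
    simp [show ![v 0, v 1] = v from List.ofFn_inj.mp rfl]
  have hG : eisC (fun v => ω (v 0) (v 1)) 3 (scaleN r z) = ∑' x : ℤ × ℤ,
      ω x.1 x.2 * eisSummand 3 ![x.1, x.2] (scaleN r z) := by
    unfold eisC
    rw [← (finTwoArrowEquiv ℤ).symm.tsum_eq]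
    refine tsum_congr fun x => ?_
    simp
  rw [hG, Summable.tsum_prod hsum]
  have heven : Function.Even fun c : ℤ =>
      ∑' d : ℤ, ω c d * eisSummand 3 ![c, d] (scaleN r z) := by
    intro c
    simp only
    rw [← tsum_comp_neg (fun d : ℤ => ω (-c) d * eisSummand 3 ![-c, d] (scaleN r z))]
    refine tsum_congr fun d => ?_
    have h2 : eisSummand 3 ![-c, -d] (scaleN r z) = -eisSummand 3 ![c, d] (scaleN r z) := by
      simp only [eisSummand, Matrix.cons_val_zero, Matrix.cons_val_one, Int.cast_neg]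
      have : (-(c : ℂ) * ((scaleN r z : ℍ) : ℂ) + -(d : ℂ)) =
          -1 * ((c : ℂ) * (scaleN r z : ℍ) + d) := by ring
      rw [this, mul_zpow]
      have h3 : ((-1 : ℂ)) ^ (-(3 : ℤ)) = -1 := by
        rw [_root_.zpow_neg]
        norm_num [zpow_ofNat]
      rw [h3]
      ring
    rw [hodd, h2]
    ring
  rw [tsum_int_eq_zero_add_two_mul_tsum_pnat heven hsum.prod]
  have h0 : (∑' d : ℤ, ω 0 d * eisSummand 3 ![0, d] (scaleN r z)) =
      ∑' d : ℤ, ω 0 d * ((d : ℂ) ^ 3)⁻¹ := by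
    refine tsum_congr fun d => ?_
    simp [eisSummand]
  rw [h0, nsmul_eq_mul, Nat.cast_ofNat]
  congr 2
  simp_rw [rtk6b_inner r ω hω hper z]
  rw [tsum_mul_left]
  congr 1
  exact rtk6b_tsum_twist (3 - 1) (norm_exp_two_pi_I_lt_one z) (rtk6bA r ω)
    (norm_rtk6bA_le r ω hω)

end Fermat.Agent.RT.K6

end
end ZBS48_001_2

/-! ### bundled: `Fermat.Agent.RT.K6.BConst` -/
section ZBS48_001_3

/-!
# RT-K6 / B (2): the constant term `∑_d u(d) d⁻³` of an `r`-periodic weight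

By finite Fourier inversion and the Fourier series of the Bernoulli polynomial `B₃`
(`hasSum_one_div_pow_mul_fourier_mul_bernoulliFun`):
`∑_{d ∈ ℤ} u(d) d⁻³ = −(2πi)³/3! · r⁻¹ · ∑_{j<r} (∑_{b<r} u(b) ζ^{−bj}) B₃(j/r)` (helper96).
-/

set_option autoImplicit false

open Filter Topology
open scoped Real

noncomputable section

namespace Fermat.Agent.RT.K6

/-- `B₃(j / r) ∈ ℚ` -/
def rtk6bB3 (r j : ℕ) : ℚ := (Polynomial.bernoulli 3).eval ((j : ℚ) / (r : ℚ))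

theorem rtk6b_bernoulliFun (r j : ℕ) :
    bernoulliFun 3 ((j : ℝ) / (r : ℝ)) = ((rtk6bB3 r j : ℚ) : ℝ) := by
  unfold bernoulliFun rtk6bB3
  rw [Polynomial.eval_map]
  have h : ((j : ℝ) / (r : ℝ)) = algebraMap ℚ ℝ ((j : ℚ) / (r : ℚ)) := by
    simp
  rw [h, Polynomial.eval₂_at_apply]
  rfl

theorem rtk6bZ_pow (r : ℕ) (j n : ℕ) : rtk6bZ r j ^ n = rtk6bZ r (j * n) := by
  unfold rtk6bZ
  rw [← Complex.exp_nat_mul]
  congr 1
  push_cast
  ring

theorem rtk6bZ_add (r : ℕ) (j k : ℕ) : rtk6bZ r (j + k) = rtk6bZ r j * rtk6bZ r k := by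
  unfold rtk6bZ
  rw [← Complex.exp_add]
  congr 1
  push_cast
  ring

theorem rtk6bZ_self_mul (r : ℕ) [NeZero r] (k : ℕ) : rtk6bZ r (r * k) = 1 := by
  unfold rtk6bZ
  have hr0 : (r : ℂ) ≠ 0 := Nat.cast_ne_zero.mpr (NeZero.ne r)
  have : 2 * (π : ℂ) * Complex.I * ((r * k : ℕ) : ℂ) / (r : ℂ) = (k : ℂ) * (2 * π * Complex.I) := by
    push_cast
    field_simp
  rw [this]
  exact Complex.exp_nat_mul_two_pi_mul_I k

/-- `e^{2πi x / r}` for an integer `x` -/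
def rtk6bZi (r : ℕ) (x : ℤ) : ℂ := Complex.exp (2 * π * Complex.I * (x : ℂ) / (r : ℂ))

theorem rtk6bZi_natCast (r j : ℕ) : rtk6bZi r (j : ℤ) = rtk6bZ r j := by
  unfold rtk6bZi rtk6bZ
  push_cast
  rfl

theorem rtk6bZi_add (r : ℕ) (x y : ℤ) : rtk6bZi r (x + y) = rtk6bZi r x * rtk6bZi r y := by
  unfold rtk6bZi
  rw [← Complex.exp_add]
  congr 1
  push_cast
  ring

theorem rtk6bZi_mul_nat (r : ℕ) (x : ℤ) (n : ℕ) : rtk6bZi r (x * n) = rtk6bZi r x ^ n := by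
  unfold rtk6bZi
  rw [← Complex.exp_nat_mul]
  congr 1
  push_cast
  ring

theorem rtk6bZi_eq_one_iff (r : ℕ) [NeZero r] (x : ℤ) : rtk6bZi r x = 1 ↔ (r : ℤ) ∣ x := by
  unfold rtk6bZi
  have hr0 : (r : ℂ) ≠ 0 := Nat.cast_ne_zero.mpr (NeZero.ne r)
  rw [Complex.exp_eq_one_iff]
  constructor
  · rintro ⟨n, hn⟩
    have h2 : (x : ℂ) = ((n * r : ℤ) : ℂ) := by
      have hpi : (2 * (π : ℂ) * Complex.I) ≠ 0 := Complex.two_pi_I_ne_zero
      have h3 : 2 * (π : ℂ) * Complex.I * (x : ℂ) = 2 * (π : ℂ) * Complex.I * ((n : ℂ) * r) := by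
        have h4 := hn
        rw [div_eq_iff hr0] at h4
        rw [h4]
        ring
      have := mul_left_cancel₀ hpi h3
      rw [this]
      push_cast
      rfl
    have h4 : x = n * r := by exact_mod_cast h2
    exact ⟨n, by rw [h4]; ring⟩
  · rintro ⟨n, rfl⟩
    refine ⟨n, ?_⟩
    push_cast
    field_simp

theorem rtk6bZi_pow_self (r : ℕ) [NeZero r] (x : ℤ) : rtk6bZi r x ^ r = 1 := by
  rw [← rtk6bZi_mul_nat, rtk6bZi_eq_one_iff]
  exact dvd_mul_left _ _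

/-- orthogonality of the characters of `ℤ/r` -/
theorem rtk6b_orth (r : ℕ) [NeZero r] (x : ℤ) :
    ∑ j : Fin r, rtk6bZi r x ^ (j : ℕ) = if (r : ℤ) ∣ x then (r : ℂ) else 0 := by
  rw [Fin.sum_univ_eq_sum_range (fun j => rtk6bZi r x ^ j) r]
  split_ifs with h
  · rw [(rtk6bZi_eq_one_iff r x).mpr h]
    simp
  · have hne : rtk6bZi r x ≠ 1 := fun h1 => h ((rtk6bZi_eq_one_iff r x).mp h1)
    rw [geom_sum_eq hne, rtk6bZi_pow_self, sub_self, zero_div]

/-- the finite Fourier transform `û(j) = ∑_{b<r} u(b) ζ^{-bj}` -/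
def rtk6bHat (r : ℕ) (u : ℤ → ℂ) (j : ℕ) : ℂ :=
  ∑ b : Fin r, u ((b : ℕ) : ℤ) * rtk6bZi r (-((b : ℕ) : ℤ)) ^ j

theorem rtk6b_inversion (r : ℕ) [NeZero r] (u : ℤ → ℂ) (hper : ∀ d, u (d + r) = u d) (d : ℤ) :
    ∑ j : Fin r, rtk6bHat r u j * rtk6bZi r d ^ (j : ℕ) = (r : ℂ) * u d := by
  unfold rtk6bHat
  simp_rw [Finset.sum_mul]
  rw [Finset.sum_comm]
  have h1 : ∀ b : Fin r, ∑ j : Fin r,
      u ((b : ℕ) : ℤ) * rtk6bZi r (-((b : ℕ) : ℤ)) ^ (j : ℕ) * rtk6bZi r d ^ (j : ℕ) =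
      u ((b : ℕ) : ℤ) * (if (r : ℤ) ∣ (d - (b : ℕ)) then (r : ℂ) else 0) := by
    intro b
    rw [← rtk6b_orth r (d - (b : ℕ)), Finset.mul_sum]
    refine Finset.sum_congr rfl fun j _ => ?_
    rw [mul_assoc, ← mul_pow, ← rtk6bZi_add]
    congr 3
    ring
  simp_rw [h1]
  -- the unique `b` with `b ≡ d`
  have hr : (0 : ℤ) < (r : ℤ) := by exact_mod_cast Nat.pos_of_ne_zero (NeZero.ne r)
  set b₀ : Fin r := ⟨(d % r).toNat, by
    have h2 := Int.emod_lt_of_pos d hr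
    have h3 := Int.emod_nonneg d hr.ne'
    omega⟩ with hb₀
  have hb₀' : ((b₀ : ℕ) : ℤ) = d % r := by
    rw [hb₀]
    exact Int.toNat_of_nonneg (Int.emod_nonneg d hr.ne')
  rw [Finset.sum_eq_single b₀]
  · have hdvd : (r : ℤ) ∣ d - ((b₀ : ℕ) : ℤ) := by
      rw [hb₀']
      exact (Int.mod_modEq d r).dvd
    rw [if_pos hdvd]
    obtain ⟨k, hk⟩ := hdvd
    have hd : d = k * r + ((b₀ : ℕ) : ℤ) := by linear_combination hk
    have hu : u d = u ((b₀ : ℕ) : ℤ) := by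
      have hper' : ∀ c d : ℤ, (fun _ : ℤ => u) c (d + r) = (fun _ : ℤ => u) c d := fun _ d => hper d
      have := rtk6b_per_int (ω := fun _ => u) hper' 0 ((b₀ : ℕ) : ℤ) k
      rw [hd]
      exact this
    rw [hu]
    ring
  · intro b _ hb
    have hnd : ¬ (r : ℤ) ∣ d - ((b : ℕ) : ℤ) := by
      intro hdvd
      apply hb
      apply Fin.ext
      have h2 : d % r = ((b : ℕ) : ℤ) % r := ((Int.modEq_iff_dvd.mpr hdvd : _ ≡ _ [ZMOD _])).symm
      have h3 : ((b : ℕ) : ℤ) % r = (b : ℕ) := Int.emod_eq_of_lt (by positivity)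
        (by exact_mod_cast b.2)
      have h4 : ((b₀ : ℕ) : ℤ) = ((b : ℕ) : ℤ) := by rw [hb₀', h2, h3]
      exact_mod_cast h4.symm
    rw [if_neg hnd, mul_zero]
  · intro h
    exact absurd (Finset.mem_univ _) h

open Complex in
/-- **the constant term** -/
theorem rtk6b_const (r : ℕ) [NeZero r] (u : ℤ → ℂ) (hper : ∀ d, u (d + r) = u d) :
    ∑' d : ℤ, u d * ((d : ℂ) ^ 3)⁻¹ =
      (-(2 * π * Complex.I) ^ 3 / (3 : ℕ).factorial) * ((r : ℂ)⁻¹ *
        ∑ j : Fin r, rtk6bHat r u j * ((rtk6bB3 r j : ℚ) : ℂ)) := by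
  have hr0 : (r : ℂ) ≠ 0 := Nat.cast_ne_zero.mpr (NeZero.ne r)
  have hrR : (0 : ℝ) < (r : ℝ) := Nat.cast_pos.mpr (Nat.pos_of_ne_zero (NeZero.ne r))
  have H : ∀ j : Fin r, HasSum (fun d : ℤ => 1 / (d : ℂ) ^ 3 * rtk6bZi r d ^ (j : ℕ))
      (-(2 * π * Complex.I) ^ 3 / (3 : ℕ).factorial * ((rtk6bB3 r j : ℚ) : ℂ)) := by
    intro j
    have hx : ((j : ℕ) : ℝ) / (r : ℝ) ∈ Set.Icc (0 : ℝ) 1 := by
      constructor
      · positivity
      · rw [div_le_one hrR]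
        exact_mod_cast j.2.le
    have h := hasSum_one_div_pow_mul_fourier_mul_bernoulliFun (k := 3) (by norm_num) hx
    rw [rtk6b_bernoulliFun] at h
    have h2 : ((((rtk6bB3 r j : ℚ) : ℝ)) : ℂ) = ((rtk6bB3 r j : ℚ) : ℂ) := by push_cast; rfl
    rw [h2] at h
    refine h.congr_fun ?_
    intro d
    rw [fourier_coe_apply, ← rtk6bZi_mul_nat]
    unfold rtk6bZi
    congr 2
    push_cast
    field_simp
  have H2 : HasSum (fun d : ℤ => ∑ j : Fin r, (r : ℂ)⁻¹ * rtk6bHat r u j *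
      (1 / (d : ℂ) ^ 3 * rtk6bZi r d ^ (j : ℕ)))
      (∑ j : Fin r, (r : ℂ)⁻¹ * rtk6bHat r u j *
        (-(2 * π * Complex.I) ^ 3 / (3 : ℕ).factorial * ((rtk6bB3 r j : ℚ) : ℂ))) :=
    hasSum_sum fun j _ => (H j).mul_left _
  have H3 : (fun d : ℤ => ∑ j : Fin r, (r : ℂ)⁻¹ * rtk6bHat r u j *
      (1 / (d : ℂ) ^ 3 * rtk6bZi r d ^ (j : ℕ))) = fun d : ℤ => u d * ((d : ℂ) ^ 3)⁻¹ := by
    funext d
    have h := rtk6b_inversion r u hper d
    have : ∑ j : Fin r, (r : ℂ)⁻¹ * rtk6bHat r u j * (1 / (d : ℂ) ^ 3 * rtk6bZi r d ^ (j : ℕ)) =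
        (r : ℂ)⁻¹ * (1 / (d : ℂ) ^ 3) * ∑ j : Fin r, rtk6bHat r u j * rtk6bZi r d ^ (j : ℕ) := by
      rw [Finset.mul_sum]
      refine Finset.sum_congr rfl fun j _ => ?_
      ring
    rw [this, h]
    field_simp
  rw [H3] at H2
  rw [H2.tsum_eq, Finset.mul_sum, Finset.mul_sum]
  refine Finset.sum_congr rfl fun j _ => ?_
  ring

end Fermat.Agent.RT.K6

end
end ZBS48_001_3

/-! ### bundled: `Fermat.Agent.S48.Sigma` -/
section ZBS48_001_4

/-!
# S48 / SIG: the conjugates of a weight one cusp form with nebentypus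

`stmtSigmaGen : StmtSigmaGen` and `stmtSigma_of_neben : StmtNeben → StmtSigma`.

Route: `g` of weight one with nebentypus `χ`, `H = H_{χ⁻¹}` the Eisenstein series of weight three
with nebentypus `χ⁻¹` (`S48/EisOdd.lean`).  Then `g H ∈ S₄(Γ₀(N))` and `g^m ∈ S_m(Γ₀(N))`
(`m = φ(N)`), whose conjugates are cusp forms by S23 (`main_stmtSigma`).  The quotient
`g' = (g H)^σ / H^σ` satisfies `g'^m = (g^m)^σ`, hence is holomorphic (removable singularities,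
`S23/Removable.lean`) and vanishes at all cusps.
-/

set_option autoImplicit false

open CongruenceSubgroup UpperHalfPlane ModularForm Filter Topology
open Fermat.Agent.S23
open scoped MatrixGroups Manifold

noncomputable section

namespace Fermat.Agent.S48

/-! ## Generalities on forms on `Γ₁(N)` -/

/-- modular forms on `Γ₁(N)` are holomorphic, `1`-periodic and bounded at `i∞` -/
theorem sigma_isHPB {N : ℕ} {k : ℤ} {F : Type*} [FunLike F ℍ ℂ]
    [ModularFormClass F (Gamma1 N) k] (f : F) : IsHPB (⇑f : ℍ → ℂ) := by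
  have h1 := eisOdd_one_mem_strictPeriods N
  have : Fact (IsCusp OnePoint.infty
      ((Gamma1 N : Subgroup SL(2, ℤ)) : Subgroup (GL (Fin 2) ℝ))) :=
    ⟨Subgroup.isCusp_of_mem_strictPeriods one_pos h1⟩
  exact ⟨ModularFormClass.holo f, SlashInvariantFormClass.periodic_comp_ofComplex f h1,
    ModularFormClass.bdd_at_infty f⟩

/-- every translate of a cusp form on `Γ₁(N)` vanishes at `i∞` -/
theorem sigma_slash_isZeroAtImInfty {N : ℕ} [NeZero N] {k : ℤ} (f : CuspForm (Gamma1 N) k)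
    (γ : SL(2, ℤ)) : IsZeroAtImInfty ((⇑f : ℍ → ℂ) ∣[k] γ) := by
  have hc : IsCusp (Matrix.SpecialLinearGroup.mapGL ℝ γ • (OnePoint.infty : OnePoint ℝ)) 𝒮ℒ :=
    isCusp_SL2Z_iff'.mpr ⟨γ, rfl⟩
  have hc' : IsCusp (Matrix.SpecialLinearGroup.mapGL ℝ γ • (OnePoint.infty : OnePoint ℝ))
      ((Gamma1 N : Subgroup SL(2, ℤ)) : Subgroup (GL (Fin 2) ℝ)) := by
    rw [Subgroup.IsArithmetic.isCusp_iff_isCusp_SL2Z]
    exact hc
  have h := CuspFormClass.zero_at_cusps f hc'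
  rw [OnePoint.isZeroAt_iff_forall_SL2Z hc] at h
  exact h γ rfl

/-- every translate of a modular form on `Γ₁(N)` is bounded at `i∞` -/
theorem sigma_slash_isBoundedAtImInfty {N : ℕ} [NeZero N] {k : ℤ} (f : ModularForm (Gamma1 N) k)
    (γ : SL(2, ℤ)) : IsBoundedAtImInfty ((⇑f : ℍ → ℂ) ∣[k] γ) := by
  have hc : IsCusp (Matrix.SpecialLinearGroup.mapGL ℝ γ • (OnePoint.infty : OnePoint ℝ)) 𝒮ℒ :=
    isCusp_SL2Z_iff'.mpr ⟨γ, rfl⟩
  have hc' : IsCusp (Matrix.SpecialLinearGroup.mapGL ℝ γ • (OnePoint.infty : OnePoint ℝ))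
      ((Gamma1 N : Subgroup SL(2, ℤ)) : Subgroup (GL (Fin 2) ℝ)) := by
    rw [Subgroup.IsArithmetic.isCusp_iff_isCusp_SL2Z]
    exact hc
  have h := ModularFormClass.bdd_at_cusps f hc'
  rw [OnePoint.isBoundedAt_iff_forall_SL2Z hc] at h
  exact h γ rfl

/-- every translate of a cusp form on `Γ₀(N)` vanishes at `i∞` -/
theorem sigma_slash_isZeroAtImInfty_G0 {N : ℕ} [NeZero N] {k : ℤ} (f : CuspForm (G0 N) k)
    (γ : SL(2, ℤ)) : IsZeroAtImInfty ((⇑f : ℍ → ℂ) ∣[k] γ) := by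
  have hc : IsCusp (Matrix.SpecialLinearGroup.mapGL ℝ γ • (OnePoint.infty : OnePoint ℝ)) 𝒮ℒ :=
    isCusp_SL2Z_iff'.mpr ⟨γ, rfl⟩
  have hc' : IsCusp (Matrix.SpecialLinearGroup.mapGL ℝ γ • (OnePoint.infty : OnePoint ℝ))
      (G0 N) := by
    rw [show G0 N = ((Gamma0 N : Subgroup SL(2, ℤ)) : Subgroup (GL (Fin 2) ℝ)) from rfl,
      Subgroup.IsArithmetic.isCusp_iff_isCusp_SL2Z]
    exact hc
  have h := CuspFormClass.zero_at_cusps f hc'
  rw [OnePoint.isZeroAt_iff_forall_SL2Z hc] at h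
  exact h γ rfl

/-- the lower right entry of an element of `Γ₀(N)` is a unit modulo `N` -/
theorem sigma_isUnit_of_mem_Gamma0 {N : ℕ} {γ : SL(2, ℤ)} (hγ : γ ∈ Gamma0 N) :
    IsUnit (((γ 1 1 : ℤ) : ZMod N)) := by
  have hdet : (γ 0 0 * γ 1 1 - γ 0 1 * γ 1 0 : ℤ) = 1 := by
    have := γ.det_coe
    rw [Matrix.det_fin_two] at this
    exact this
  have hc : ((γ 1 0 : ℤ) : ZMod N) = 0 := (Gamma0_mem).mp hγ
  have h1 : ((γ 0 0 : ℤ) : ZMod N) * ((γ 1 1 : ℤ) : ZMod N) = 1 := by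
    have := congrArg (fun x : ℤ => (x : ZMod N)) hdet
    simp only [Int.cast_sub, Int.cast_mul, Int.cast_one, hc, mul_zero, sub_zero] at this
    exact this
  exact IsUnit.of_mul_eq_one _ (by rw [mul_comm]; exact h1)

/-- the lower right entry of an element of `Γ₁(N)` is `1` modulo `N` -/
theorem sigma_eq_one_of_mem_Gamma1 {N : ℕ} {γ : SL(2, ℤ)} (hγ : γ ∈ Gamma1 N) :
    ((γ 1 1 : ℤ) : ZMod N) = 1 := ((Gamma1_mem N γ).mp hγ).2.1

/-- pointwise form of the invariance of a cusp form on `Γ₀(N)` -/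
theorem sigma_G0_smul {N : ℕ} {k : ℤ} (f : CuspForm (G0 N) k) {γ : SL(2, ℤ)}
    (hγ : γ ∈ Gamma0 N) (z : ℍ) :
    f (γ • z) = ((γ 1 0 : ℂ) * (z : ℂ) + (γ 1 1 : ℂ)) ^ k * f z := by
  have h := SlashInvariantForm.slash_action_eqn_SL'' (Γ := Gamma0 N) (k := k) f hγ z
  rw [h, ModularGroup.denom_apply]

/-- pointwise form of the invariance of a cusp form on `Γ₁(N)` -/
theorem sigma_G1_smul {N : ℕ} {k : ℤ} (f : CuspForm (Gamma1 N) k) {γ : SL(2, ℤ)}
    (hγ : γ ∈ Gamma1 N) (z : ℍ) :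
    f (γ • z) = ((γ 1 0 : ℂ) * (z : ℂ) + (γ 1 1 : ℂ)) ^ k * f z := by
  have h := SlashInvariantForm.slash_action_eqn_SL'' (Γ := Gamma1 N) (k := k) f hγ z
  rw [h, ModularGroup.denom_apply]

/-- from the pointwise transformation law to slash invariance -/
theorem sigma_slash_eq_of_smul {k : ℤ} {F : ℍ → ℂ} {γ : SL(2, ℤ)}
    (h : ∀ z : ℍ, F (γ • z) = ((γ 1 0 : ℂ) * (z : ℂ) + (γ 1 1 : ℂ)) ^ k * F z) :
    F ∣[k] γ = F := by
  funext z
  rw [SL_slash_apply, h z, ModularGroup.denom_apply]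
  have hne : ((γ 1 0 : ℂ) * (z : ℂ) + (γ 1 1 : ℂ)) ≠ 0 := by
    rw [← ModularGroup.denom_apply]
    exact denom_ne_zero γ z
  rw [_root_.zpow_neg]
  field_simp

/-- a holomorphic function with the transformation law of weight `k` on `Γ₀(N)`, all of whose
translates vanish at `i∞`, is a cusp form on `Γ₀(N)` -/
theorem sigma_exists_cuspForm_G0 {N : ℕ} (k : ℤ) (F : ℍ → ℂ) (hF : MDiff F)
    (hinv : ∀ γ : SL(2, ℤ), γ ∈ Gamma0 N → ∀ z : ℍ,
      F (γ • z) = ((γ 1 0 : ℂ) * (z : ℂ) + (γ 1 1 : ℂ)) ^ k * F z)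
    (hz : ∀ γ : SL(2, ℤ), IsZeroAtImInfty (F ∣[k] γ)) :
    ∃ f : CuspForm (G0 N) k, (⇑f : ℍ → ℂ) = F := by
  refine ⟨{ toFun := F
            slash_action_eq' := ?_
            holo' := hF
            zero_at_cusps' := ?_ }, rfl⟩
  · intro γ hγ
    obtain ⟨γ₀, hγ₀, rfl⟩ := Subgroup.mem_map.mp hγ
    exact sigma_slash_eq_of_smul (hinv γ₀ hγ₀)
  · intro c hc
    have hc' : IsCusp c 𝒮ℒ := hc.mono (Subgroup.map_le_range _ _)
    rw [OnePoint.isZeroAt_iff_forall_SL2Z hc']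
    intro γ _
    exact hz γ

/-- a holomorphic function with the transformation law of weight `k` on `Γ₁(N)`, all of whose
translates vanish at `i∞`, is a cusp form on `Γ₁(N)` -/
theorem sigma_exists_cuspForm_G1 {N : ℕ} (k : ℤ) (F : ℍ → ℂ) (hF : MDiff F)
    (hinv : ∀ γ : SL(2, ℤ), γ ∈ Gamma1 N → ∀ z : ℍ,
      F (γ • z) = ((γ 1 0 : ℂ) * (z : ℂ) + (γ 1 1 : ℂ)) ^ k * F z)
    (hz : ∀ γ : SL(2, ℤ), IsZeroAtImInfty (F ∣[k] γ)) :
    ∃ f : CuspForm (Gamma1 N) k, (⇑f : ℍ → ℂ) = F := by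
  refine ⟨{ toFun := F
            slash_action_eq' := ?_
            holo' := hF
            zero_at_cusps' := ?_ }, rfl⟩
  · intro γ hγ
    obtain ⟨γ₀, hγ₀, rfl⟩ := Subgroup.mem_map.mp hγ
    exact sigma_slash_eq_of_smul (hinv γ₀ hγ₀)
  · intro c hc
    have hc' : IsCusp c 𝒮ℒ := hc.mono (Subgroup.map_le_range _ _)
    rw [OnePoint.isZeroAt_iff_forall_SL2Z hc']
    intro γ _
    exact hz γ

/-- if a power of `F` tends to zero at `i∞`, so does `F` -/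
theorem sigma_isZeroAtImInfty_of_pow {m : ℕ} {F : ℍ → ℂ}
    (h : IsZeroAtImInfty (fun z => F z ^ m)) : IsZeroAtImInfty F := by
  rw [IsZeroAtImInfty, ZeroAtFilter, Metric.tendsto_nhds] at h ⊢
  intro ε hε
  filter_upwards [h (ε ^ m) (pow_pos hε m)] with z hz
  rw [dist_zero_right] at hz ⊢
  rw [norm_pow] at hz
  exact lt_of_pow_lt_pow_left₀ m hε.le hz

/-- the slash of a power -/
theorem sigma_pow_slash (m : ℕ) (F : ℍ → ℂ) (γ : SL(2, ℤ)) (z : ℍ) :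
    ((fun w => F w ^ m) ∣[(m : ℤ)] γ) z = ((F ∣[(1 : ℤ)] γ) z) ^ m := by
  rw [SL_slash_apply, SL_slash_apply, mul_pow, ← zpow_natCast (denom γ z ^ (-1 : ℤ)) m,
    ← zpow_mul]
  congr 2
  ring

/-! ## The core: division by the Eisenstein series -/

/-- **Core of SIG.**  Let `G'` be a cusp form of weight four on `Γ₀(N)`, `H' ≠ 0` a modular form
of weight three on `Γ₁(N)` with nebentypus `ψ'`, `P` a cusp form of weight `m ≥ 1` on `Γ₀(N)` with
`G'^m = P H'^m`.  Then `G' / H'` is a cusp form of weight one on `Γ₁(N)` with nebentypus `ψ`,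
for every `ψ` with `ψ ψ' = 1` on units. -/
theorem sigma_core {N : ℕ} [NeZero N] {m : ℕ} (hm : 1 ≤ m) (ψ ψ' : DirichletCharacter ℂ N)
    (hψ : ∀ a : ZMod N, IsUnit a → ψ a * ψ' a = 1)
    (G' : CuspForm (G0 N) 4) (P : CuspForm (G0 N) m) (H' : ModularForm (Gamma1 N) 3)
    (hH' : ∀ γ : SL(2, ℤ), γ ∈ Gamma0 N → ∀ z : ℍ,
      H' (γ • z) = ψ' ((γ 1 1 : ℤ) : ZMod N) *
        ((γ 1 0 : ℂ) * (z : ℂ) + (γ 1 1 : ℂ)) ^ 3 * H' z)
    (hH0 : (⇑H' : ℍ → ℂ) ≠ 0)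
    (hrel : ∀ z, G' z ^ m = P z * H' z ^ m) :
    ∃ g' : CuspForm (Gamma1 N) 1, HasNeben N ψ g' ∧ ∀ z, g' z * H' z = G' z := by
  classical
  -- the holomorphic quotient
  set a : ℕ → ℍ → ℂ := fun j => if j = m then fun z => - P z else 0 with ha
  have hmd : ∀ j, j < m → MDiff (a (j + 1)) := by
    intro j _
    by_cases hj : j + 1 = m
    · simp only [ha, hj, if_true]
      exact (CuspFormClass.holo P).neg
    · simp only [ha, hj, if_false]
      exact mdifferentiable_const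
  have hsum : ∀ (X Y : ℂ) (z : ℍ),
      ∑ j ∈ Finset.range m, a (j + 1) z * X ^ (m - (j + 1)) * Y ^ (j + 1) = - P z * Y ^ m := by
    intro X Y z
    rw [Finset.sum_eq_single (m - 1)]
    · have h1 : m - 1 + 1 = m := by omega
      simp [ha, h1]
    · intro j _ hj
      have h1 : j + 1 ≠ m := by omega
      simp [ha, h1]
    · intro h
      exact absurd (Finset.mem_range.mpr (by omega)) h
  obtain ⟨f, hfd, hfmul, hfeq⟩ := rem_exists_mdiff_quotient (n := m) (⇑G') (⇑H') a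
    (CuspFormClass.holo G') (ModularFormClass.holo H') hmd hH0 (by
      intro z
      rw [hsum, hrel z]
      ring)
  have hfm : ∀ z, f z ^ m = P z := by
    intro z
    have h1 := hfeq z
    have h2 := hsum (f z) 1 z
    simp only [one_pow, mul_one] at h2
    rw [h2] at h1
    linear_combination h1
  -- nebentypus
  have hneb : ∀ γ : SL(2, ℤ), γ ∈ Gamma0 N → ∀ z : ℍ,
      f (γ • z) = ψ ((γ 1 1 : ℤ) : ZMod N) * ((γ 1 0 : ℂ) * (z : ℂ) + (γ 1 1 : ℂ)) * f z := by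
    intro γ hγ
    have hu := sigma_isUnit_of_mem_Gamma0 hγ
    have hc : Continuous ((f ∣[(1 : ℤ)] γ) - ψ ((γ 1 1 : ℤ) : ZMod N) • f) := by
      have h1 : MDiff (f ∣[(1 : ℤ)] γ) := hfd.slash 1 _
      exact h1.continuous.sub (hfd.continuous.const_smul _)
    have hden : ∀ z : ℍ, denom γ z = (γ 1 0 : ℂ) * (z : ℂ) + (γ 1 1 : ℂ) := fun z => by
      rw [ModularGroup.denom_apply]
    have hmul : ∀ z : ℍ, ((f ∣[(1 : ℤ)] γ) - ψ ((γ 1 1 : ℤ) : ZMod N) • f) z * H' z = 0 := by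
      intro z
      have hne : ((γ 1 0 : ℂ) * (z : ℂ) + (γ 1 1 : ℂ)) ≠ 0 := by
        rw [← hden]
        exact denom_ne_zero γ z
      have e1 := hfmul (γ • z)
      rw [hH' γ hγ z, sigma_G0_smul G' hγ z, ← hfmul z] at e1
      have e2 := hψ _ hu
      have e4 : ((γ 1 0 : ℂ) * (z : ℂ) + (γ 1 1 : ℂ)) ^ (4 : ℤ) =
          ((γ 1 0 : ℂ) * (z : ℂ) + (γ 1 1 : ℂ)) ^ 4 := by
        norm_cast
      rw [e4] at e1
      rw [Pi.sub_apply, Pi.smul_apply, smul_eq_mul, SL_slash_apply, hden, _root_.zpow_neg,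
        zpow_one]
      have e3 : ((γ 1 0 : ℂ) * (z : ℂ) + (γ 1 1 : ℂ)) ^ 4 *
          ((f (γ • z) * ((γ 1 0 : ℂ) * (z : ℂ) + (γ 1 1 : ℂ))⁻¹ -
            ψ ((γ 1 1 : ℤ) : ZMod N) * f z) * H' z) = 0 := by
        have e5 : ((γ 1 0 : ℂ) * (z : ℂ) + (γ 1 1 : ℂ)) *
            ((γ 1 0 : ℂ) * (z : ℂ) + (γ 1 1 : ℂ))⁻¹ = 1 := mul_inv_cancel₀ hne
        linear_combination (ψ ((γ 1 1 : ℤ) : ZMod N)) * e1 +
          (- f (γ • z) * ((γ 1 0 : ℂ) * (z : ℂ) + (γ 1 1 : ℂ)) ^ 3 * H' z) * e2 +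
          (f (γ • z) * ((γ 1 0 : ℂ) * (z : ℂ) + (γ 1 1 : ℂ)) ^ 3 * H' z) * e5
      exact (mul_eq_zero.mp e3).resolve_left (pow_ne_zero 4 hne)
    have h0 := rem_eq_zero_of_mul_eq_zero (ModularFormClass.holo H') hH0 hc hmul
    intro z
    have hne : ((γ 1 0 : ℂ) * (z : ℂ) + (γ 1 1 : ℂ)) ≠ 0 := by
      rw [← hden]
      exact denom_ne_zero γ z
    have := congrFun h0 z
    rw [Pi.sub_apply, Pi.smul_apply, smul_eq_mul, SL_slash_apply, hden, _root_.zpow_neg,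
      zpow_one, Pi.zero_apply] at this
    field_simp at this
    linear_combination this
  -- the cusp form
  obtain ⟨g', hg'⟩ := sigma_exists_cuspForm_G1 (N := N) 1 f hfd (by
      intro γ hγ z
      rw [hneb γ (Gamma1_in_Gamma0 N hγ) z, sigma_eq_one_of_mem_Gamma1 hγ, map_one, one_mul,
        zpow_one]) (by
      intro γ
      apply sigma_isZeroAtImInfty_of_pow (m := m)
      have hP : (⇑P : ℍ → ℂ) = fun w => f w ^ m := funext fun w => (hfm w).symm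
      have h1 : (fun z => ((f ∣[(1 : ℤ)] γ) z) ^ m) = (⇑P : ℍ → ℂ) ∣[(m : ℤ)] γ := by
        rw [hP]
        funext z
        exact (sigma_pow_slash m f γ z).symm
      rw [h1]
      exact sigma_slash_isZeroAtImInfty_G0 P γ)
  refine ⟨g', ?_, ?_⟩
  · intro γ hγ z
    have : ∀ w, g' w = f w := fun w => congrFun hg' w
    rw [this, this]
    exact hneb γ hγ z
  · intro z
    have : g' z = f z := congrFun hg' z
    rw [this]
    exact hfmul z

/-! ## `q`-expansions in the ring `HPB` -/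

/-- cusp forms on `Γ₀(N)` are holomorphic, `1`-periodic and bounded at `i∞` -/
theorem sigma_isHPB_G0 {N : ℕ} [NeZero N] {k : ℤ} (f : CuspForm (G0 N) k) :
    IsHPB (⇑f : ℍ → ℂ) :=
  (IsCF.isMF (Γ := G0 N) (κ := k) ⟨f, rfl⟩).isHPB

theorem sigma_isHPB_pow {f : ℍ → ℂ} (hf : IsHPB f) (m : ℕ) : IsHPB (f ^ m) :=
  pow_mem (S := HPB) hf m

theorem sigma_qExpansion_mul {f g : ℍ → ℂ} (hf : IsHPB f) (hg : IsHPB g) :
    qExpansion 1 (f * g) = qExpansion 1 f * qExpansion 1 g :=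
  UpperHalfPlane.qExpansion_mul hf.analyticAt hg.analyticAt

theorem sigma_qExpansion_pow {f : ℍ → ℂ} (hf : IsHPB f) (m : ℕ) :
    qExpansion 1 (f ^ m) = qExpansion 1 f ^ m := by
  induction m with
  | zero => simpa using UpperHalfPlane.qExpansion_one 1
  | succ n ih => rw [pow_succ, pow_succ, sigma_qExpansion_mul (sigma_isHPB_pow hf n) hf, ih]

theorem sigma_eq_of_qExpansion_eq {f g : ℍ → ℂ} (hf : IsHPB f) (hg : IsHPB g)
    (h : qExpansion 1 f = qExpansion 1 g) : f = g := by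
  have := qExpHom_injective (a₁ := (⟨f, hf⟩ : HPB)) (a₂ := ⟨g, hg⟩) h
  exact congrArg Subtype.val this

/-! ## The products `g H` and `g ^ m` -/

/-- a nonzero form with nebentypus `χ` has `χ(-1) = -1` -/
theorem sigma_neg_one {N : ℕ} [NeZero N] {χ : DirichletCharacter ℂ N}
    {g : CuspForm (Gamma1 N) 1} (hg : HasNeben N χ g) (h0 : (⇑g : ℍ → ℂ) ≠ 0) :
    χ (-1) = -1 := by
  obtain ⟨z, hz⟩ : ∃ z, g z ≠ 0 := by
    by_contra h
    push Not at h
    exact h0 (funext h)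
  have hmem : (-1 : SL(2, ℤ)) ∈ Gamma0 N := by
    rw [Gamma0_mem]
    simp
  have h1 := hg (-1) hmem z
  rw [ModularGroup.SL_neg_smul, one_smul] at h1
  have h2 : ((((-1 : SL(2, ℤ)) 1 1 : ℤ)) : ZMod N) = -1 := by simp
  have h3 : ((((-1 : SL(2, ℤ)) 1 1 : ℤ)) : ℂ) = -1 := by simp
  have h4 : ((((-1 : SL(2, ℤ)) 1 0 : ℤ)) : ℂ) = 0 := by simp
  rw [h2, h3, h4] at h1
  have h5 : (χ (-1) + 1) * g z = 0 := by linear_combination h1
  have h6 := (mul_eq_zero.mp h5).resolve_right hz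
  linear_combination h6

/-- `g H ∈ S₄(Γ₀(N))` -/
theorem sigma_exists_mul {N : ℕ} [NeZero N] (χ χ' : DirichletCharacter ℂ N)
    (hχ : ∀ a : ZMod N, IsUnit a → χ a * χ' a = 1)
    (g : CuspForm (Gamma1 N) 1) (hg : HasNeben N χ g) (H : ModularForm (Gamma1 N) 3)
    (hH : ∀ γ : SL(2, ℤ), γ ∈ Gamma0 N → ∀ z : ℍ,
      H (γ • z) = χ' ((γ 1 1 : ℤ) : ZMod N) *
        ((γ 1 0 : ℂ) * (z : ℂ) + (γ 1 1 : ℂ)) ^ 3 * H z) :
    ∃ G : CuspForm (G0 N) 4, (⇑G : ℍ → ℂ) = ⇑g * ⇑H := by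
  apply sigma_exists_cuspForm_G0 (N := N) 4 (⇑g * ⇑H)
    ((CuspFormClass.holo g).mul (ModularFormClass.holo H))
  · intro γ hγ z
    have e := hχ _ (sigma_isUnit_of_mem_Gamma0 hγ)
    rw [Pi.mul_apply, Pi.mul_apply, hg γ hγ z, hH γ hγ z]
    have e4 : ((γ 1 0 : ℂ) * (z : ℂ) + (γ 1 1 : ℂ)) ^ (4 : ℤ) =
        ((γ 1 0 : ℂ) * (z : ℂ) + (γ 1 1 : ℂ)) ^ 4 := by
      norm_cast
    rw [e4]
    linear_combination (((γ 1 0 : ℂ) * (z : ℂ) + (γ 1 1 : ℂ)) ^ 4 * g z * H z) * e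
  · intro γ
    have h1 : ((⇑g * ⇑H : ℍ → ℂ) ∣[(4 : ℤ)] γ) =
        ((⇑g : ℍ → ℂ) ∣[(1 : ℤ)] γ) * ((⇑H : ℍ → ℂ) ∣[(3 : ℤ)] γ) := by
      rw [← mul_slash_SL2]
      norm_num
    rw [h1]
    exact (sigma_slash_isZeroAtImInfty g γ).mul_boundedAtFilter
      (sigma_slash_isBoundedAtImInfty H γ)

/-- `g ^ m ∈ S_m(Γ₀(N))` if `χ ^ m = 1` -/
theorem sigma_exists_pow {N : ℕ} [NeZero N] (χ : DirichletCharacter ℂ N) {m : ℕ} (hm : 1 ≤ m)
    (hχm : ∀ a : ZMod N, IsUnit a → χ a ^ m = 1)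
    (g : CuspForm (Gamma1 N) 1) (hg : HasNeben N χ g) :
    ∃ P : CuspForm (G0 N) m, (⇑P : ℍ → ℂ) = (⇑g : ℍ → ℂ) ^ m := by
  apply sigma_exists_cuspForm_G0 (N := N) m ((⇑g : ℍ → ℂ) ^ m)
    ((CuspFormClass.holo g).pow m)
  · intro γ hγ z
    have e := hχm _ (sigma_isUnit_of_mem_Gamma0 hγ)
    rw [Pi.pow_apply, Pi.pow_apply, hg γ hγ z, mul_pow, mul_pow, e, one_mul, zpow_natCast]
  · intro γ
    have h1 : (((⇑g : ℍ → ℂ) ^ m) ∣[(m : ℤ)] γ) =
        fun z => (((⇑g : ℍ → ℂ) ∣[(1 : ℤ)] γ) z) ^ m := by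
      funext z
      exact sigma_pow_slash m (⇑g) γ z
    rw [h1]
    have h2 := (sigma_slash_isZeroAtImInfty g γ)
    rw [IsZeroAtImInfty, ZeroAtFilter] at h2 ⊢
    have h3 := h2.pow m
    rwa [zero_pow (by omega)] at h3

/-! ## The theorem -/

/-- the `q`-expansion of the Eisenstein series of the conjugate character -/
theorem sigma_qExpansion_eis {N : ℕ} [NeZero N] (χ' : DirichletCharacter ℂ N) (σ : ℂ →+* ℂ)
    (H H' : ModularForm (Gamma1 N) 3)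
    (hH0 : ModularFormClass.qCoeff H 0 = 0)
    (hHn : ∀ n : ℕ, n ≠ 0 → ModularFormClass.qCoeff H n =
      ∑ d ∈ n.divisors, χ' (d : ZMod N) * ((n / d : ℕ) : ℂ) ^ (3 - 1))
    (hH'0 : ModularFormClass.qCoeff H' 0 = 0)
    (hH'n : ∀ n : ℕ, n ≠ 0 → ModularFormClass.qCoeff H' n =
      ∑ d ∈ n.divisors, (χ'.ringHomComp σ) (d : ZMod N) * ((n / d : ℕ) : ℂ) ^ (3 - 1)) :
    qExpansion 1 (⇑H' : ℍ → ℂ) = PowerSeries.map σ (qExpansion 1 (⇑H : ℍ → ℂ)) := by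
  ext n
  rw [PowerSeries.coeff_map]
  change ModularFormClass.qCoeff H' n = σ (ModularFormClass.qCoeff H n)
  rcases Nat.eq_zero_or_pos n with rfl | hn
  · rw [hH0, hH'0, map_zero]
  · rw [hHn n hn.ne', hH'n n hn.ne', map_sum]
    refine Finset.sum_congr rfl fun d _ => ?_
    rw [map_mul, map_pow, MulChar.ringHomComp_apply, map_natCast σ]

/-- **SIG, general form.**  The conjugates of a weight one cusp form on `Γ₁(N)` with nebentypus
`χ` are weight one cusp forms with nebentypus `σ ∘ χ`. -/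
theorem stmtSigmaGen : StmtSigmaGen := by
  intro N _ χ g hg σ
  by_cases h0 : (⇑g : ℍ → ℂ) = 0
  · refine ⟨0, ?_, ?_⟩
    · intro γ _ z
      simp
    · intro n
      have h1 : ModularFormClass.qCoeff (⇑(0 : CuspForm (Gamma1 N) 1)) n = 0 := by
        change (qExpansion 1 (0 : ℍ → ℂ)).coeff n = 0
        rw [UpperHalfPlane.qExpansion_zero]
        simp
      have h2 : ModularFormClass.qCoeff (⇑g) n = 0 := by
        rw [h0]
        change (qExpansion 1 (0 : ℍ → ℂ)).coeff n = 0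
        rw [UpperHalfPlane.qExpansion_zero]
        simp
      rw [h1, h2, map_zero]
  · -- the characters
    have hχ1 : χ (-1) = -1 := sigma_neg_one hg h0
    have hne : ∀ a : ZMod N, IsUnit a → χ a ≠ 0 := fun a ha => (ha.map χ).ne_zero
    have hinv : ∀ a : ZMod N, IsUnit a → χ a * χ⁻¹ a = 1 := by
      intro a ha
      rw [MulChar.inv_apply_eq_inv', mul_inv_cancel₀ (hne a ha)]
    have hψ : ∀ a : ZMod N, IsUnit a → (χ.ringHomComp σ) a * (χ⁻¹.ringHomComp σ) a = 1 := by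
      intro a ha
      rw [MulChar.ringHomComp_apply, MulChar.ringHomComp_apply, ← map_mul, hinv a ha, map_one]
    have hχ'1 : χ⁻¹ (-1) = -1 := by
      rw [MulChar.inv_apply_eq_inv', hχ1]
      norm_num
    have hψ'1 : (χ⁻¹.ringHomComp σ) (-1) = -1 := by
      rw [MulChar.ringHomComp_apply, hχ'1, map_neg, map_one]
    -- the Eisenstein series
    obtain ⟨H, hHneb, hH0, hHn⟩ :=
      exists_eisOdd_of_odd N (k := 3) le_rfl (by decide) χ⁻¹ hχ'1
    obtain ⟨H', hH'neb, hH'0, hH'n⟩ :=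
      exists_eisOdd_of_odd N (k := 3) le_rfl (by decide) (χ⁻¹.ringHomComp σ) hψ'1
    have hqH : qExpansion 1 (⇑H' : ℍ → ℂ) = PowerSeries.map σ (qExpansion 1 (⇑H : ℍ → ℂ)) :=
      sigma_qExpansion_eis χ⁻¹ σ H H' hH0 hHn hH'0 hH'n
    have hqH'1 : (qExpansion 1 (⇑H' : ℍ → ℂ)).coeff 1 = 1 := by
      change ModularFormClass.qCoeff H' 1 = 1
      rw [hH'n 1 one_ne_zero]
      simp
    have hqH'ne : qExpansion 1 (⇑H' : ℍ → ℂ) ≠ 0 := by
      intro h
      rw [h] at hqH'1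
      simp at hqH'1
    have hH'ne : (⇑H' : ℍ → ℂ) ≠ 0 := by
      intro h
      apply hqH'ne
      rw [h]
      exact UpperHalfPlane.qExpansion_zero 1
    -- the auxiliary cusp forms on `Γ₀(N)`
    set m : ℕ := Nat.totient N with hm
    have hm1 : 1 ≤ m := Nat.totient_pos.mpr (Nat.pos_of_ne_zero (NeZero.ne N))
    have hχm : ∀ a : ZMod N, IsUnit a → χ a ^ m = 1 := by
      rintro _ ⟨u, rfl⟩
      rw [← map_pow, ← Units.val_pow_eq_pow_val, ZMod.pow_totient, Units.val_one, map_one]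
    obtain ⟨G, hG⟩ := sigma_exists_mul χ χ⁻¹ hinv g hg H (by
      intro γ hγ z
      have := hHneb γ hγ z
      simpa using this)
    obtain ⟨Gm, hGm⟩ := sigma_exists_pow χ hm1 hχm g hg
    obtain ⟨G', hG'⟩ := main_stmtSigma N 4 σ G
    obtain ⟨P, hP⟩ := main_stmtSigma N (m : ℤ) σ Gm
    -- `q`-expansions
    have bg : IsHPB (⇑g : ℍ → ℂ) := sigma_isHPB g
    have bH : IsHPB (⇑H : ℍ → ℂ) := sigma_isHPB H
    have bH' : IsHPB (⇑H' : ℍ → ℂ) := sigma_isHPB H'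
    have bG' : IsHPB (⇑G' : ℍ → ℂ) := sigma_isHPB_G0 G'
    have bP : IsHPB (⇑P : ℍ → ℂ) := sigma_isHPB_G0 P
    have hqG : qExpansion 1 (⇑G : ℍ → ℂ) = qExpansion 1 (⇑g : ℍ → ℂ) * qExpansion 1 (⇑H : ℍ → ℂ) := by
      rw [hG, sigma_qExpansion_mul bg bH]
    have hqGm : qExpansion 1 (⇑Gm : ℍ → ℂ) = qExpansion 1 (⇑g : ℍ → ℂ) ^ m := by
      rw [hGm, sigma_qExpansion_pow bg]
    have hrelF : (⇑G' : ℍ → ℂ) ^ m = (⇑P : ℍ → ℂ) * (⇑H' : ℍ → ℂ) ^ m := by
      apply sigma_eq_of_qExpansion_eq (sigma_isHPB_pow bG' m) (bP.mul (sigma_isHPB_pow bH' m))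
      rw [sigma_qExpansion_pow bG', sigma_qExpansion_mul bP (sigma_isHPB_pow bH' m),
        sigma_qExpansion_pow bH', hG', hP, hqH, hqG, hqGm, map_mul, map_pow, mul_pow]
    have hrel : ∀ z, G' z ^ m = P z * H' z ^ m := fun z => congrFun hrelF z
    -- the quotient
    obtain ⟨g', hg'neb, hg'mul⟩ := sigma_core hm1 (χ.ringHomComp σ) (χ⁻¹.ringHomComp σ) hψ
      G' P H' (by
        intro γ hγ z
        have := hH'neb γ hγ z
        simpa using this) hH'ne hrel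
    refine ⟨g', hg'neb, ?_⟩
    have bg' : IsHPB (⇑g' : ℍ → ℂ) := sigma_isHPB g'
    have hmulF : (⇑g' : ℍ → ℂ) * (⇑H' : ℍ → ℂ) = (⇑G' : ℍ → ℂ) := funext hg'mul
    have hq : qExpansion 1 (⇑g' : ℍ → ℂ) * qExpansion 1 (⇑H' : ℍ → ℂ) =
        PowerSeries.map σ (qExpansion 1 (⇑g : ℍ → ℂ)) * qExpansion 1 (⇑H' : ℍ → ℂ) := by
      rw [← sigma_qExpansion_mul bg' bH', hmulF, hG', hqG, map_mul, hqH]
    have hq' : qExpansion 1 (⇑g' : ℍ → ℂ) = PowerSeries.map σ (qExpansion 1 (⇑g : ℍ → ℂ)) :=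
      mul_right_cancel₀ hqH'ne hq
    intro n
    change (qExpansion 1 (⇑g' : ℍ → ℂ)).coeff n = σ ((qExpansion 1 (⇑g : ℍ → ℂ)).coeff n)
    rw [hq', PowerSeries.coeff_map]

/-- **SIG.**  The conjugates of a Hecke eigenform of weight one are cusp forms. -/
theorem stmtSigma_of_neben (hN : StmtNeben) : StmtSigma := by
  intro N _ ε f hf σ
  obtain ⟨g', -, hq⟩ := stmtSigmaGen N ε f (hN N ε f hf) σ
  exact ⟨g', hq⟩

end Fermat.Agent.S48

end
end ZBS48_001_4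

/-! ### bundled: `Fermat.Agent.S48.Int` -/
section ZBS48_001_5

/-!
# S48 / INT: the eigenvalues `a_p` (`p ∤ N`) are algebraic integers

`stmtInt_of_neben : StmtNeben → StmtInt`.

Route (no descent): `H = H_{ε⁻¹}` the Eisenstein series of weight three, `f H ∈ S₄(Γ₀(N))` is a
`ℂ`-linear combination `∑ xᵢ Fᵢ` of forms with integral `q`-expansion (S23), so the `q`-coefficients
of `f H` lie in the finitely generated `ℤ`-module `M = ∑ ℤ[ε] xᵢ`.  As `H = q + …` has coefficients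
in `ℤ[ε]`, all `a_n(f)` lie in `M`.  The `ℤ[ε]`-span of the `a_{p^r}` is contained in `M`, hence
finitely generated, and stable under multiplication by `a_p` (Hecke recursion).
-/

set_option autoImplicit false

open CongruenceSubgroup UpperHalfPlane ModularForm Filter Topology
open Fermat.Agent.S23
open scoped MatrixGroups Manifold

noncomputable section

namespace Fermat.Agent.S48

/-! ## The ring `ℤ[ε]` -/

/-- the values of a Dirichlet character are integral -/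
theorem int_isIntegral_char {N : ℕ} [NeZero N] (ε : DirichletCharacter ℂ N) (a : ZMod N) :
    IsIntegral ℤ (ε a) := by
  by_cases ha : IsUnit a
  · obtain ⟨u, rfl⟩ := ha
    have h : (ε u) ^ (Nat.totient N) = 1 := by
      rw [← map_pow, ← Units.val_pow_eq_pow_val, ZMod.pow_totient, Units.val_one, map_one]
    refine IsIntegral.of_pow (Nat.totient_pos.mpr (Nat.pos_of_ne_zero (NeZero.ne N))) ?_
    rw [h]
    exact isIntegral_one
  · rw [MulChar.map_nonunit ε ha]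
    exact isIntegral_zero

/-- the ring `ℤ[ε]` generated by the values of `ε` -/
def intRing {N : ℕ} (ε : DirichletCharacter ℂ N) : Subalgebra ℤ ℂ :=
  Algebra.adjoin ℤ (Set.range ε)

theorem intRing_fg {N : ℕ} [NeZero N] (ε : DirichletCharacter ℂ N) :
    (intRing ε).toSubmodule.FG :=
  fg_adjoin_of_finite (Set.finite_range ε) (by
    rintro _ ⟨a, rfl⟩
    exact int_isIntegral_char ε a)

theorem int_char_mem {N : ℕ} (ε : DirichletCharacter ℂ N) (a : ZMod N) : ε a ∈ intRing ε :=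
  Algebra.subset_adjoin ⟨a, rfl⟩

theorem int_char_inv_mem {N : ℕ} (ε : DirichletCharacter ℂ N) (a : ZMod N) :
    ε⁻¹ a ∈ intRing ε := by
  rw [MulChar.inv_apply]
  exact int_char_mem ε _

/-! ## Sequences with values in a finitely generated module -/

/-- the sequence `a` takes its values in a finitely generated `ℤ`-module stable under `R` -/
def IntBdd (R : Subalgebra ℤ ℂ) (a : ℕ → ℂ) : Prop :=
  ∃ M : Submodule ℤ ℂ, M.FG ∧ (∀ ρ ∈ R, ∀ y ∈ M, ρ * y ∈ M) ∧ ∀ n, a n ∈ M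

theorem intBdd_zero (R : Subalgebra ℤ ℂ) : IntBdd R (fun _ => 0) :=
  ⟨⊥, Submodule.fg_bot, fun ρ _ y hy => by
    rw [Submodule.mem_bot] at hy ⊢
    rw [hy, mul_zero], fun _ => Submodule.zero_mem _⟩

theorem intBdd_of_int (R : Subalgebra ℤ ℂ) (hR : R.toSubmodule.FG) {a : ℕ → ℂ}
    (ha : ∀ n, ∃ m : ℤ, a n = (m : ℂ)) : IntBdd R a := by
  refine ⟨R.toSubmodule, hR, fun ρ hρ y hy => ?_, fun n => ?_⟩
  · exact R.mul_mem hρ hy
  · obtain ⟨m, hm⟩ := ha n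
    rw [hm]
    exact R.intCast_mem m

theorem IntBdd.add {R : Subalgebra ℤ ℂ} {a b : ℕ → ℂ} (ha : IntBdd R a) (hb : IntBdd R b) :
    IntBdd R (fun n => a n + b n) := by
  obtain ⟨M₁, h1, s1, m1⟩ := ha
  obtain ⟨M₂, h2, s2, m2⟩ := hb
  refine ⟨M₁ ⊔ M₂, h1.sup h2, fun ρ hρ y hy => ?_, fun n => ?_⟩
  · obtain ⟨y₁, hy₁, y₂, hy₂, rfl⟩ := Submodule.mem_sup.mp hy
    rw [mul_add]
    exact Submodule.add_mem_sup (s1 ρ hρ y₁ hy₁) (s2 ρ hρ y₂ hy₂)
  · exact Submodule.add_mem_sup (m1 n) (m2 n)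

theorem IntBdd.const_mul {R : Subalgebra ℤ ℂ} {a : ℕ → ℂ} (ha : IntBdd R a) (c : ℂ) :
    IntBdd R (fun n => c * a n) := by
  obtain ⟨M, h1, s1, m1⟩ := ha
  refine ⟨M.map (LinearMap.mulLeft ℤ c), h1.map _, fun ρ hρ y hy => ?_, fun n => ?_⟩
  · obtain ⟨x, hx, rfl⟩ := Submodule.mem_map.mp hy
    refine Submodule.mem_map.mpr ⟨ρ * x, s1 ρ hρ x hx, ?_⟩
    simp only [LinearMap.mulLeft_apply]
    ring
  · exact Submodule.mem_map.mpr ⟨a n, m1 n, rfl⟩

/-- the `q`-coefficients of a cusp form on `Γ₀(N)` lie in a finitely generated `ℤ`-module -/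
theorem intBdd_cuspForm (N : ℕ) [NeZero N] (k : ℤ) (R : Subalgebra ℤ ℂ) (hR : R.toSubmodule.FG)
    (G : CuspForm (Gamma0 N) k) : IntBdd R (fun n => ModularFormClass.qCoeff (⇑G) n) := by
  have hG : G ∈ Submodule.span ℂ
      ((CuspForm.intLattice N k : Submodule ℤ (CuspForm (Gamma0 N) k)) :
        Set (CuspForm (Gamma0 N) k)) := by
    have h := hasIntegralStructure N k
    unfold CuspForm.HasIntegralStructure at h
    rw [h]
    exact Submodule.mem_top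
  refine Submodule.span_induction
    (p := fun (G : CuspForm (Gamma0 N) k) _ => IntBdd R (fun n => ModularFormClass.qCoeff (⇑G) n))
    ?_ ?_ ?_ ?_ hG
  · intro x hx
    exact intBdd_of_int R hR ((Fermat.Agent.S49.mem_intLattice_iff x).mp hx)
  · have h0 : (fun n => ModularFormClass.qCoeff (⇑(0 : CuspForm (Gamma0 N) k)) n) =
        fun _ => 0 := by
      funext n
      exact (Fermat.Agent.S49.qCoeffLin N k n).map_zero
    rw [h0]
    exact intBdd_zero R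
  · intro x y _ _ hx hy
    have h0 : (fun n => ModularFormClass.qCoeff (⇑(x + y)) n) =
        fun n => ModularFormClass.qCoeff (⇑x) n + ModularFormClass.qCoeff (⇑y) n := by
      funext n
      exact Fermat.Agent.S49.qCoeff_add x y n
    rw [h0]
    exact hx.add hy
  · intro c x _ hx
    have h0 : (fun n => ModularFormClass.qCoeff (⇑(c • x)) n) =
        fun n => c * ModularFormClass.qCoeff (⇑x) n := by
      funext n
      exact Fermat.Agent.S49.qCoeff_smul c x n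
    rw [h0]
    exact hx.const_mul c

/-- division by `q + …`: if `g = a * h` (Cauchy product), `h₀ = 0`, `h₁ = 1`, the values of `g`
lie in `M` and `M` is stable under multiplication by the `h_n`, then the values of `a` lie in
`M`. -/
theorem int_mem_of_mul (M : Submodule ℤ ℂ) (a h g : ℕ → ℂ) (h0 : h 0 = 0) (h1 : h 1 = 1)
    (hstab : ∀ n, ∀ y ∈ M, h n * y ∈ M)
    (hmul : ∀ n, g n = ∑ ij ∈ Finset.HasAntidiagonal.antidiagonal n, a ij.1 * h ij.2)
    (hg : ∀ n, g n ∈ M) : ∀ n, a n ∈ M := by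
  intro n
  induction n using Nat.strong_induction_on with
  | _ n ih =>
    have e := hmul (n + 1)
    rw [Finset.Nat.sum_antidiagonal_eq_sum_range_succ (fun i j => a i * h j) (n + 1),
      Finset.sum_range_succ, Finset.sum_range_succ] at e
    have e1 : n + 1 - n = 1 := by omega
    have e2 : n + 1 - (n + 1) = 0 := by omega
    rw [e1, e2, h0, h1, mul_zero, add_zero, mul_one] at e
    have e3 : a n = g (n + 1) - ∑ x ∈ Finset.range n, a x * h (n + 1 - x) := by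
      rw [e]
      ring
    rw [e3]
    refine Submodule.sub_mem _ (hg _) (Submodule.sum_mem _ fun i hi => ?_)
    rw [mul_comm]
    exact hstab _ _ (ih i (Finset.mem_range.mp hi))

/-! ## The coefficients of a form with nebentypus -/

/-- a cusp form with a nonzero `q`-coefficient is nonzero -/
theorem int_ne_zero_of_qCoeff {g : ℍ → ℂ} {n : ℕ} (h : ModularFormClass.qCoeff g n ≠ 0) :
    g ≠ 0 := by
  rintro rfl
  apply h
  change (qExpansion 1 (0 : ℍ → ℂ)).coeff n = 0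
  rw [UpperHalfPlane.qExpansion_zero]
  simp

/-- the `q`-coefficients of a weight one form with nebentypus `ε` lie in a finitely generated
`ℤ`-module which is stable under `ℤ[ε]` -/
theorem int_coeff_bdd {N : ℕ} [NeZero N] (ε : DirichletCharacter ℂ N)
    (f : CuspForm (Gamma1 N) 1) (hneb : HasNeben N ε f) (h0 : (⇑f : ℍ → ℂ) ≠ 0) :
    IntBdd (intRing ε) (fun n => ModularFormClass.qCoeff (⇑f) n) := by
  have hε1 : ε (-1) = -1 := sigma_neg_one hneb h0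
  have hne : ∀ a : ZMod N, IsUnit a → ε a ≠ 0 := fun a ha => (ha.map ε).ne_zero
  have hinv : ∀ a : ZMod N, IsUnit a → ε a * ε⁻¹ a = 1 := by
    intro a ha
    rw [MulChar.inv_apply_eq_inv', mul_inv_cancel₀ (hne a ha)]
  have hε'1 : ε⁻¹ (-1) = -1 := by
    rw [MulChar.inv_apply_eq_inv', hε1]
    norm_num
  obtain ⟨H, hHneb, hH0, hHn⟩ :=
    exists_eisOdd_of_odd N (k := 3) le_rfl (by decide) ε⁻¹ hε'1
  obtain ⟨G, hG⟩ := sigma_exists_mul ε ε⁻¹ hinv f hneb H (by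
    intro γ hγ z
    have := hHneb γ hγ z
    simpa using this)
  obtain ⟨M, hM, hstab, hmem⟩ := intBdd_cuspForm N 4 (intRing ε) (intRing_fg ε) G
  refine ⟨M, hM, hstab, ?_⟩
  have hHmem : ∀ n, ModularFormClass.qCoeff (⇑H) n ∈ intRing ε := by
    intro n
    rcases Nat.eq_zero_or_pos n with rfl | hn
    · rw [hH0]
      exact (intRing ε).zero_mem
    · rw [hHn n hn.ne']
      refine (intRing ε).sum_mem fun d _ => ?_
      exact (intRing ε).mul_mem (int_char_inv_mem ε _)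
        ((intRing ε).pow_mem ((intRing ε).natCast_mem _) _)
  refine int_mem_of_mul M (fun n => ModularFormClass.qCoeff (⇑f) n)
    (fun n => ModularFormClass.qCoeff (⇑H) n) (fun n => ModularFormClass.qCoeff (⇑G) n)
    hH0 ?_ (fun n y hy => hstab _ (hHmem n) y hy) ?_ hmem
  · rw [hHn 1 one_ne_zero]
    simp
  · intro n
    change (qExpansion 1 (⇑G : ℍ → ℂ)).coeff n = _
    rw [hG, sigma_qExpansion_mul (sigma_isHPB f) (sigma_isHPB H), PowerSeries.coeff_mul]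
    rfl

/-! ## The theorem -/

/-- **INT.**  The eigenvalues `a_p`, `p ∤ N`, of a Hecke eigenform of weight one are algebraic
integers. -/
theorem stmtInt_of_neben (hN : StmtNeben) : StmtInt := by
  intro N _ ε f hf p hp hpN
  have hneb : HasNeben N ε f := hN N ε f hf
  have h0 : (⇑f : ℍ → ℂ) ≠ 0 := by
    apply int_ne_zero_of_qCoeff (n := 1)
    rw [hf.1]
    exact one_ne_zero
  obtain ⟨M, hM, hstab, hmem⟩ := int_coeff_bdd ε f hneb h0
  set a : ℂ := ModularFormClass.qCoeff (⇑f) p with ha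
  set c : ℕ → ℂ := fun r => ModularFormClass.qCoeff (⇑f) (p ^ r) with hc
  have hc0 : c 0 = 1 := by
    simp only [hc, pow_zero]
    exact hf.1
  have hrec0 : a * c 0 = c 1 := by
    rw [hc0, mul_one]
    simp only [hc, pow_one]
    rfl
  have hrec : ∀ r, a * c (r + 1) = c (r + 2) + ε (p : ZMod N) * c r := by
    intro r
    have h := hf.2 p hp hpN (p ^ (r + 1))
    have hd : p ∣ p ^ (r + 1) := dvd_pow_self p (Nat.succ_ne_zero r)
    rw [if_pos hd] at h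
    have e1 : p * p ^ (r + 1) = p ^ (r + 2) := by ring
    have e2 : p ^ (r + 1) / p = p ^ r := by
      rw [pow_succ, Nat.mul_div_cancel _ hp.pos]
    rw [e1, e2] at h
    simp only [hc, ha]
    exact h.symm
  let C : Submodule ℤ ℂ := Submodule.span ℤ {y | ∃ ρ ∈ intRing ε, ∃ r, y = ρ * c r}
  have hCM : C ≤ M := by
    apply Submodule.span_le.mpr
    rintro _ ⟨ρ, hρ, r, rfl⟩
    exact hstab ρ hρ _ (hmem _)
  have hfg : C.FG := Submodule.FG.of_le hM hCM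
  have hone : (1 : ℂ) ∈ C := by
    apply Submodule.subset_span
    exact ⟨1, (intRing ε).one_mem, 0, by rw [hc0, mul_one]⟩
  have hne : C ≠ ⊥ := by
    intro h
    rw [h, Submodule.mem_bot] at hone
    exact one_ne_zero hone
  have hgen : ∀ ρ ∈ intRing ε, ∀ r, ρ * c r ∈ C := fun ρ hρ r =>
    Submodule.subset_span ⟨ρ, hρ, r, rfl⟩
  have hst : ∀ y ∈ C, a • y ∈ C := by
    intro y hy
    refine Submodule.span_induction (p := fun y _ => a • y ∈ C) ?_ ?_ ?_ ?_ hy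
    · rintro _ ⟨ρ, hρ, r, rfl⟩
      rw [smul_eq_mul]
      rcases r with _ | r
      · have : a * (ρ * c 0) = ρ * c 1 := by rw [← hrec0]; ring
        rw [this]
        exact hgen ρ hρ 1
      · have : a * (ρ * c (r + 1)) = ρ * c (r + 2) + (ρ * ε (p : ZMod N)) * c r := by
          rw [mul_left_comm, hrec r]
          ring
        rw [this]
        exact C.add_mem (hgen ρ hρ _)
          (hgen _ ((intRing ε).mul_mem hρ (int_char_mem ε _)) _)
    · rw [smul_zero]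
      exact C.zero_mem
    · intro x y _ _ hx hy
      rw [smul_add]
      exact C.add_mem hx hy
    · intro m x _ hx
      rw [smul_comm]
      exact C.smul_mem m hx
  have hint : IsIntegral ℤ a := isIntegral_of_smul_mem_submodule C hne hfg a hst
  exact ⟨⟨a, hint⟩, rfl⟩

end Fermat.Agent.S48

end
end ZBS48_001_5

/-! ### bundled: `Fermat.Agent.ES1.Int1` -/
section ZBS48_001_6

/-!
# ES₁ / INT — `StmtInt1`: the eigenvalues of `T_ℓ` on `S₂(Γ₁(M), θ)` are algebraic integers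

`es1int_stmtInt1 : StmtInt1`.

Route (fork of `S48/Int.lean`): for `g ≠ 0` of weight two with nebentypus `θ` (so `θ(-1) = 1`):

* if `-1 ≠ 1` in `ℤ/M`, there is a character `α` mod `M` with `α(-1) = -1`; with `β = (θ α)⁻¹`
  (odd) and the Eisenstein series `H_α`, `H_β = q + …` of weight three, `g H_α H_β ∈ S₈(Γ₀(M))`;
* otherwise `(ℤ/M)ˣ = 1` and `g ∈ S₂(Γ₀(M))`.

By S23 the `q`-coefficients of a cusp form on `Γ₀(M)` lie in a finitely generated `ℤ`-module, hence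
(division by `q + …`) so do those of `g`.  The `ℤ[θ]`-span of the `a_n(g)` is then a nonzero
finitely generated `ℤ`-module which is stable under multiplication by the eigenvalue.
-/

set_option autoImplicit false

open CongruenceSubgroup UpperHalfPlane ModularForm Filter Topology
open Fermat.Agent.S23
open scoped MatrixGroups Manifold

noncomputable section

namespace Fermat.Agent.ES1

open Fermat.Agent.S48

/-- the ring `ℤ[α, θ]` generated by the values of two characters -/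
def es1int_ring {M : ℕ} (α θ : DirichletCharacter ℂ M) : Subalgebra ℤ ℂ :=
  Algebra.adjoin ℤ (Set.range α ∪ Set.range θ)

theorem es1int_ring_fg {M : ℕ} [NeZero M] (α θ : DirichletCharacter ℂ M) :
    (es1int_ring α θ).toSubmodule.FG :=
  fg_adjoin_of_finite ((Set.finite_range α).union (Set.finite_range θ)) (by
    rintro _ (⟨a, rfl⟩ | ⟨a, rfl⟩)
    · exact int_isIntegral_char α a
    · exact int_isIntegral_char θ a)

theorem es1int_left_mem {M : ℕ} (α θ : DirichletCharacter ℂ M) (a : ZMod M) :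
    α a ∈ es1int_ring α θ :=
  Algebra.subset_adjoin (Or.inl ⟨a, rfl⟩)

theorem es1int_right_mem {M : ℕ} (α θ : DirichletCharacter ℂ M) (a : ZMod M) :
    θ a ∈ es1int_ring α θ :=
  Algebra.subset_adjoin (Or.inr ⟨a, rfl⟩)

theorem es1int_left_inv_mem {M : ℕ} (α θ : DirichletCharacter ℂ M) (a : ZMod M) :
    α⁻¹ a ∈ es1int_ring α θ := by
  rw [MulChar.inv_apply]
  exact es1int_left_mem α θ _

theorem es1int_right_inv_mem {M : ℕ} (α θ : DirichletCharacter ℂ M) (a : ZMod M) :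
    θ⁻¹ a ∈ es1int_ring α θ := by
  rw [MulChar.inv_apply]
  exact es1int_right_mem α θ _

/-- a nonzero form of weight two with nebentypus `θ` has `θ(-1) = 1` -/
theorem es1int_neg_one {M : ℕ} [NeZero M] {θ : DirichletCharacter ℂ M}
    {g : CuspForm (Gamma1 M) 2} (hg : HasNebenK M θ 2 g) (h0 : (⇑g : ℍ → ℂ) ≠ 0) :
    θ (-1) = 1 := by
  obtain ⟨z, hz⟩ : ∃ z, g z ≠ 0 := by
    by_contra h
    push Not at h
    exact h0 (funext h)
  have hmem : (-1 : SL(2, ℤ)) ∈ Gamma0 M := by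
    rw [Gamma0_mem]
    simp
  have h1 := hg (-1) hmem z
  rw [ModularGroup.SL_neg_smul, one_smul] at h1
  have h2 : ((((-1 : SL(2, ℤ)) 1 1 : ℤ)) : ZMod M) = -1 := by simp
  have h3 : ((((-1 : SL(2, ℤ)) 1 1 : ℤ)) : ℂ) = -1 := by simp
  have h4 : ((((-1 : SL(2, ℤ)) 1 0 : ℤ)) : ℂ) = 0 := by simp
  rw [h2, h3, h4] at h1
  have h5 : (θ (-1) - 1) * g z = 0 := by linear_combination -h1
  have h6 := (mul_eq_zero.mp h5).resolve_right hz
  linear_combination h6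

/-- a nonzero cusp form has a nonzero `q`-coefficient -/
theorem es1int_exists_qCoeff_ne {M : ℕ} {g : CuspForm (Gamma1 M) 2} (h0 : (⇑g : ℍ → ℂ) ≠ 0) :
    ∃ n : ℕ, ModularFormClass.qCoeff (⇑g) n ≠ 0 := by
  by_contra h
  push Not at h
  apply h0
  have hz : IsHPB (0 : ℍ → ℂ) := (HPB).zero_mem
  apply sigma_eq_of_qExpansion_eq (sigma_isHPB g) hz
  ext n
  rw [UpperHalfPlane.qExpansion_zero, map_zero]
  exact h n

/-- an odd character exists if `-1 ≠ 1` in `ℤ/M` -/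
theorem es1int_exists_odd {M : ℕ} [NeZero M] (h : (-1 : ZMod M) ≠ 1) :
    ∃ α : DirichletCharacter ℂ M, α (-1) = -1 := by
  obtain ⟨α, hα⟩ := MulChar.exists_apply_ne_one_of_hasEnoughRootsOfUnity (ZMod M) ℂ h
  refine ⟨α, ?_⟩
  have h2 : α (-1) * α (-1) = 1 := by
    rw [← map_mul, neg_one_mul, neg_neg, map_one]
  have h3 : (α (-1) - 1) * (α (-1) + 1) = 0 := by linear_combination h2
  rcases mul_eq_zero.mp h3 with h4 | h4
  · exact absurd (sub_eq_zero.mp h4) hα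
  · linear_combination h4

/-- the units of `ℤ/M` are trivial if `-1 = 1` -/
theorem es1int_unit_eq_one {M : ℕ} [NeZero M] (h : (-1 : ZMod M) = 1) (u : (ZMod M)ˣ) :
    u = 1 := by
  have h2 : ((2 : ℕ) : ZMod M) = 0 := by
    have : (1 : ZMod M) + 1 = 0 := by
      nth_rewrite 1 [← h]
      ring
    rw [← this]
    norm_num
  have hdvd : M ∣ 2 := (ZMod.natCast_eq_zero_iff 2 M).mp h2
  have hM : M = 1 ∨ M = 2 := by
    have hle : M ≤ 2 := Nat.le_of_dvd (by norm_num) hdvd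
    have hpos : 0 < M := Nat.pos_of_ne_zero (NeZero.ne M)
    interval_cases M
    · exact Or.inl rfl
    · exact Or.inr rfl
  have hcard : Fintype.card (ZMod M)ˣ = 1 := by
    rw [ZMod.card_units_eq_totient]
    rcases hM with rfl | rfl
    · rfl
    · rfl
  have : Subsingleton (ZMod M)ˣ := Fintype.card_le_one_iff_subsingleton.mp hcard.le
  exact Subsingleton.elim _ _

/-- the coefficients of the Eisenstein series of weight three lie in every subalgebra which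
contains the values of the character -/
theorem es1int_eis_mem {M : ℕ} (R : Subalgebra ℤ ℂ) (χ : DirichletCharacter ℂ M)
    (hχ : ∀ a : ZMod M, χ a ∈ R) (H : ℍ → ℂ)
    (hH0 : ModularFormClass.qCoeff H 0 = 0)
    (hHn : ∀ n : ℕ, n ≠ 0 → ModularFormClass.qCoeff H n =
      ∑ d ∈ n.divisors, χ (d : ZMod M) * ((n / d : ℕ) : ℂ) ^ (3 - 1)) (n : ℕ) :
    ModularFormClass.qCoeff H n ∈ R := by
  rcases Nat.eq_zero_or_pos n with rfl | hn
  · rw [hH0]
    exact R.zero_mem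
  · rw [hHn n hn.ne']
    refine R.sum_mem fun d _ => ?_
    exact R.mul_mem (hχ _) (R.pow_mem (R.natCast_mem _) _)

theorem es1int_eis_one {M : ℕ} (χ : DirichletCharacter ℂ M) (H : ℍ → ℂ)
    (hHn : ∀ n : ℕ, n ≠ 0 → ModularFormClass.qCoeff H n =
      ∑ d ∈ n.divisors, χ (d : ZMod M) * ((n / d : ℕ) : ℂ) ^ (3 - 1)) :
    ModularFormClass.qCoeff H 1 = 1 := by
  rw [hHn 1 one_ne_zero]
  simp

/-- the `q`-coefficients of a nonzero form of weight two with nebentypus `θ` lie in a finitely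
generated `ℤ`-module which is stable under `ℤ[θ]` -/
theorem es1int_coeff_bdd {M : ℕ} [NeZero M] (θ : DirichletCharacter ℂ M)
    (g : CuspForm (Gamma1 M) 2) (hneb : HasNebenK M θ 2 g) (h0 : (⇑g : ℍ → ℂ) ≠ 0) :
    IntBdd (intRing θ) (fun n => ModularFormClass.qCoeff (⇑g) n) := by
  have hθ1 : θ (-1) = 1 := es1int_neg_one hneb h0
  by_cases hm : (-1 : ZMod M) = 1
  · -- the units are trivial: `g` is a form on `Γ₀(M)`
    have hθu : ∀ a : ZMod M, IsUnit a → θ a = 1 := by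
      intro a ha
      obtain ⟨u, rfl⟩ := ha
      rw [es1int_unit_eq_one hm u, Units.val_one, map_one]
    obtain ⟨G, hG⟩ := sigma_exists_cuspForm_G0 (N := M) 2 (⇑g) (CuspFormClass.holo g) (by
      intro γ hγ z
      have := hneb γ hγ z
      rw [hθu _ (sigma_isUnit_of_mem_Gamma0 hγ), one_mul] at this
      rw [this]
      norm_cast) (fun γ => sigma_slash_isZeroAtImInfty g γ)
    have h := intBdd_cuspForm M 2 (intRing θ) (intRing_fg θ) G
    rw [hG] at h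
    exact h
  · obtain ⟨α, hα⟩ := es1int_exists_odd hm
    set β : DirichletCharacter ℂ M := θ⁻¹ * α⁻¹ with hβ
    have hβ1 : β (-1) = -1 := by
      rw [hβ, MulChar.mul_apply, MulChar.inv_apply_eq_inv', MulChar.inv_apply_eq_inv', hθ1, hα]
      norm_num
    have hne : ∀ (χ : DirichletCharacter ℂ M) (a : ZMod M), IsUnit a → χ a ≠ 0 :=
      fun χ a ha => (ha.map χ).ne_zero
    have hprod : ∀ a : ZMod M, IsUnit a → θ a * α a * β a = 1 := by
      intro a ha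
      rw [hβ, MulChar.mul_apply, MulChar.inv_apply_eq_inv', MulChar.inv_apply_eq_inv']
      have h1 := hne θ a ha
      have h2 := hne α a ha
      field_simp
    obtain ⟨Hα, hHαneb, hHα0, hHαn⟩ := exists_eisOdd_of_odd M (k := 3) le_rfl (by decide) α hα
    obtain ⟨Hβ, hHβneb, hHβ0, hHβn⟩ := exists_eisOdd_of_odd M (k := 3) le_rfl (by decide) β hβ1
    obtain ⟨G, hG⟩ := sigma_exists_cuspForm_G0 (N := M) 8 (⇑g * ⇑Hα * ⇑Hβ)
      (((CuspFormClass.holo g).mul (ModularFormClass.holo Hα)).mul (ModularFormClass.holo Hβ))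
      (by
        intro γ hγ z
        have e := hprod _ (sigma_isUnit_of_mem_Gamma0 hγ)
        rw [Pi.mul_apply, Pi.mul_apply, Pi.mul_apply, Pi.mul_apply, hneb γ hγ z, hHαneb γ hγ z,
          hHβneb γ hγ z]
        have e8 : ((γ 1 0 : ℂ) * (z : ℂ) + (γ 1 1 : ℂ)) ^ (8 : ℤ) =
            ((γ 1 0 : ℂ) * (z : ℂ) + (γ 1 1 : ℂ)) ^ 8 := by
          norm_cast
        rw [e8]
        linear_combination
          (((γ 1 0 : ℂ) * (z : ℂ) + (γ 1 1 : ℂ)) ^ 8 * g z * Hα z * Hβ z) * e)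
      (by
        intro γ
        have h1 : ((⇑g * ⇑Hα * ⇑Hβ : ℍ → ℂ) ∣[(8 : ℤ)] γ) =
            ((⇑g : ℍ → ℂ) ∣[(2 : ℤ)] γ) * ((⇑Hα : ℍ → ℂ) ∣[(3 : ℤ)] γ) *
              ((⇑Hβ : ℍ → ℂ) ∣[(3 : ℤ)] γ) := by
          rw [← mul_slash_SL2, ← mul_slash_SL2]
          norm_num
        rw [h1]
        exact ((sigma_slash_isZeroAtImInfty g γ).mul_boundedAtFilter
          (sigma_slash_isBoundedAtImInfty Hα γ)).mul_boundedAtFilter
          (sigma_slash_isBoundedAtImInfty Hβ γ))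
    obtain ⟨W, hW, hstab, hmem⟩ :=
      intBdd_cuspForm M 8 (es1int_ring α θ) (es1int_ring_fg α θ) G
    have hle : intRing θ ≤ es1int_ring α θ :=
      Algebra.adjoin_mono Set.subset_union_right
    refine ⟨W, hW, fun ρ hρ y hy => hstab ρ (hle hρ) y hy, ?_⟩
    have hαmem := es1int_eis_mem (es1int_ring α θ) α (es1int_left_mem α θ) (⇑Hα) hHα0 hHαn
    have hβmem := es1int_eis_mem (es1int_ring α θ) β (fun a => by
      rw [hβ, MulChar.mul_apply]
      exact (es1int_ring α θ).mul_mem (es1int_right_inv_mem α θ a) (es1int_left_inv_mem α θ a))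
      (⇑Hβ) hHβ0 hHβn
    have hgH : IsHPB ((⇑g : ℍ → ℂ) * ⇑Hα) := (sigma_isHPB g).mul (sigma_isHPB Hα)
    -- first division: the coefficients of `g H_α`
    have h1 : ∀ n, (qExpansion 1 ((⇑g : ℍ → ℂ) * ⇑Hα)).coeff n ∈ W := by
      refine int_mem_of_mul W (fun n => (qExpansion 1 ((⇑g : ℍ → ℂ) * ⇑Hα)).coeff n)
        (fun n => ModularFormClass.qCoeff (⇑Hβ) n) (fun n => ModularFormClass.qCoeff (⇑G) n)
        hHβ0 (es1int_eis_one β (⇑Hβ) hHβn) (fun n y hy => hstab _ (hβmem n) y hy) ?_ hmem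
      intro n
      change (qExpansion 1 (⇑G : ℍ → ℂ)).coeff n = _
      rw [hG, sigma_qExpansion_mul hgH (sigma_isHPB Hβ), PowerSeries.coeff_mul]
      rfl
    -- second division: the coefficients of `g`
    refine int_mem_of_mul W (fun n => ModularFormClass.qCoeff (⇑g) n)
      (fun n => ModularFormClass.qCoeff (⇑Hα) n)
      (fun n => (qExpansion 1 ((⇑g : ℍ → ℂ) * ⇑Hα)).coeff n)
      hHα0 (es1int_eis_one α (⇑Hα) hHαn) (fun n y hy => hstab _ (hαmem n) y hy) ?_ h1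
    intro n
    show (qExpansion 1 ((⇑g : ℍ → ℂ) * ⇑Hα)).coeff n = _
    rw [sigma_qExpansion_mul (sigma_isHPB g) (sigma_isHPB Hα), PowerSeries.coeff_mul]
    rfl

/-- **ES₁ / INT.** -/
theorem es1int_stmtInt1 : StmtInt1 := by
  intro M _ θ g h0 hneb ℓ hℓ β hβ
  obtain ⟨W, hW, hstab, hmem⟩ := es1int_coeff_bdd θ g hneb h0
  set a : ℕ → ℂ := fun n => ModularFormClass.qCoeff (⇑g) n with ha
  obtain ⟨n₀, hn₀⟩ := es1int_exists_qCoeff_ne h0
  let C : Submodule ℤ ℂ := Submodule.span ℤ {y | ∃ ρ ∈ intRing θ, ∃ n, y = ρ * a n}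
  have hCW : C ≤ W := by
    apply Submodule.span_le.mpr
    rintro _ ⟨ρ, hρ, n, rfl⟩
    exact hstab ρ hρ _ (hmem _)
  have hfg : C.FG := Submodule.FG.of_le hW hCW
  have hgen : ∀ ρ ∈ intRing θ, ∀ n, ρ * a n ∈ C := fun ρ hρ n =>
    Submodule.subset_span ⟨ρ, hρ, n, rfl⟩
  have hne : C ≠ ⊥ := by
    intro h
    have h1 : (1 : ℂ) * a n₀ ∈ C := hgen 1 (intRing θ).one_mem n₀
    rw [h, Submodule.mem_bot, one_mul] at h1
    exact hn₀ h1
  have hst : ∀ y ∈ C, β • y ∈ C := by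
    intro y hy
    refine Submodule.span_induction (p := fun y _ => β • y ∈ C) ?_ ?_ ?_ ?_ hy
    · rintro _ ⟨ρ, hρ, n, rfl⟩
      rw [smul_eq_mul]
      have h := hβ n
      have e : β * (ρ * a n) = ρ * a (ℓ * n) +
          (ρ * ((ℓ : ℂ) * θ (ℓ : ZMod M))) * (if ℓ ∣ n then a (n / ℓ) else 0) := by
        rw [mul_left_comm, ← h]
        ring
      rw [e]
      refine C.add_mem (hgen ρ hρ _) ?_
      split_ifs
      · exact hgen _ ((intRing θ).mul_mem hρ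
          ((intRing θ).mul_mem ((intRing θ).natCast_mem _) (int_char_mem θ _))) _
      · rw [mul_zero]
        exact C.zero_mem
    · rw [smul_zero]
      exact C.zero_mem
    · intro x y _ _ hx hy
      rw [smul_add]
      exact C.add_mem hx hy
    · intro m x _ hx
      rw [smul_comm]
      exact C.smul_mem m hx
  exact isIntegral_of_smul_mem_submodule C hne hfg β hst

end Fermat.Agent.ES1

end
end ZBS48_001_6
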