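/- GENERATED FILE (helper35, build-time optimisation, NOTES/ZB.md): verbatim concatenation of the modules
   Fermat.Agent.ES1.Defs
   Fermat.Agent.ES1.F2
   Fermat.Agent.ES1.F2Q
   Fermat.Agent.ES1.F2G
   Fermat.Agent.ES1.Formal
   Fermat.Agent.ES1.InjPlan
   Fermat.Agent.ES1.HMaps
   Fermat.Agent.ES1.ConjPlan
   Fermat.Agent.ES1.ConjUse
   Fermat.Agent.ES1.ConjDeg
   Fermat.Agent.ES1.RamPlan
   Fermat.Agent.ES1.NFEmbH
   Fermat.Agent.ES1.InjInstFin
   Fermat.Agent.ES1.InjDescentH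
   Fermat.Agent.ES1.RamLineH
   Fermat.Agent.ES1.G2.PrimH
   Fermat.Agent.ES1.DescentLevelH
   Fermat.Agent.RT.K6.BSer
   Fermat.Agent.ES1.InjInstJ
   Fermat.Agent.ES1.InjInstRamH
   Fermat.Agent.ES1.InjInstH2
   Fermat.Agent.ES1.InjInstH3
   Fermat.Agent.ES1.ConjNF
   Fermat.Agent.ES1.InjInstAll
   Do not edit; do not import together with these modules. -/
import Mathlib
import Fermat.Agent.ZB.S28_001
import Fermat.Prelude.Def_ModularCurve_ArithmeticGalois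
import Fermat.Agent.ZB.S48_001
import Fermat.Agent.ZB.S23_005
import Fermat.Agent.ZB.INJ_005
import Fermat.Agent.ZB.INJ_002
import Fermat.Agent.ZB.INJ_003
import Fermat.Agent.ZB.S24_001
import Fermat.Prelude.Def_ModularCurve_HeckeOperator
import Fermat.Prelude.Thm_ModularCurve_coeffMap_qExpand
import Fermat.Agent.ZB.INJ_009
import Fermat.Agent.ZB.ES1_011
import Fermat.Agent.ZB.INJ_024
import Fermat.Agent.ZB.S24_017
import Fermat.Agent.ZB.S24_018
import Fermat.Agent.ZB.INJ_012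
import Fermat.Agent.ZB.INJ_011
import Fermat.Agent.ZB.ES_001
import Fermat.Agent.ZB.S20_001
import Fermat.Agent.ZB.S24_003
import Fermat.Agent.ZB.INJ_007
import Fermat.Agent.ZB.S28_002
import Fermat.Agent.ZB.INJ_016
import Fermat.Agent.ZB.INJ_014
import Fermat.Agent.ZB.INJ_034

/-! ### bundled: `Fermat.Agent.ES1.Defs` -/
section ZBES1_002_0

/-!
# ES₁ — the function field of `X_H(L; M)` inside `K((q))` (definitions only; captain helper36)

`M ∣ L` levels, `H ≤ (ℤ/M)ˣ`.  `Γ = Γ_H(M) ∩ Γ₀(L) = {γ ∈ Γ₀(L) : γ₁₁ mod M ∈ ±H}`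
(`H = 1`: `Γ₁(M) ∩ Γ₀(L)`; `H = ⊤`: `Γ₀(L)`).

Generators, all in `ℤ((q))` (classical `q`-expansions at `∞`):
* `j(q^d)`, `d ∣ L` (the prelude's generators of the function field of `X₀(L)`);
* `S_{M,H,a}(q^e)`, `e · M ∣ L`, `a ∈ (ℤ/M)ˣ`, where
  `Y_{M,a} = Σ_{n ≥ 1} (Σ_{m ∣ n, n/m ≡ a (M)} m² − Σ_{m ∣ n, n/m ≡ −a (M)} m²) qⁿ`
  is the `q`-expansion of the weight 3 Eisenstein series
  `𝕐_a(τ) = c · Σ_{c ≡ a (M), d ∈ ℤ} (cτ + d)⁻³` on `Γ₁(M)` (`𝕐_a ∣ γ = 𝕐_{a·γ₀₀}` for `γ ∈ Γ₀(M)`),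
  `G_{M,a} = Y_{M,a}⁴ / Δ` (weight `0`, holomorphic on `ℍ`), and
  `S_{M,H,a} = Σ_{a' ∈ [1, M/2], a' ∈ ±aH} G_{M,a'}`.
  For `a'` prime to `M`, `1 ≤ a' < M/2`: `G_{M,a'} = q^(4a'−1) (1 + …)`.  So the conjugates
  `S_{M,H,a}` (`a ∈ (ℤ/M)ˣ/±H`) have pairwise different leading exponents and leading
  coefficient `1` IN EVERY CHARACTERISTIC.
-/

set_option autoImplicit false

noncomputable section

open HahnSeries ModularCurve AlgebraicCurve

namespace Fermat.Agent.ES1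

/-- the `n`-th coefficient of the formal weight 3 Eisenstein series `Y_{M,a}` -/
def eisYCoeff (M : ℕ) (a : ZMod M) (n : ℕ) : ℤ :=
  ∑ m ∈ n.divisors, ((if ((n / m : ℕ) : ZMod M) = a then (m : ℤ) ^ 2 else 0) -
    (if ((n / m : ℕ) : ZMod M) = -a then (m : ℤ) ^ 2 else 0))

/-- the formal weight 3 Eisenstein series `Y_{M,a} ∈ ℤ[[q]]` -/
def eisYZ (M : ℕ) (a : ZMod M) : PowerSeries ℤ := PowerSeries.mk (eisYCoeff M a)

/-- `G_{M,a} = Y_{M,a}⁴ / Δ ∈ ℤ((q))` -/
def gZ (M : ℕ) (a : ZMod M) : LaurentSeries ℤ :=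
  HahnSeries.ofPowerSeries ℤ ℤ (eisYZ M a ^ 4) * Fermat.Agent.S28.deltaInvZ

open Classical in
/-- the `a' ∈ [1, M/2]` whose class mod `M` lies in `± a H` -/
def cosetReps (M : ℕ) (H : Subgroup (ZMod M)ˣ) (a : (ZMod M)ˣ) : Finset ℕ :=
  (Finset.Icc 1 (M / 2)).filter fun a' =>
    ∃ h ∈ H, (a' : ZMod M) = ((a * h : (ZMod M)ˣ) : ZMod M) ∨
      (a' : ZMod M) = -((a * h : (ZMod M)ˣ) : ZMod M)

/-- `S_{M,H,a} = Σ_{a' ∈ ± a H} G_{M,a'} ∈ ℤ((q))` -/
def sZ (M : ℕ) (H : Subgroup (ZMod M)ˣ) (a : (ZMod M)ˣ) : LaurentSeries ℤ :=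
  ∑ a' ∈ cosetReps M H a, gZ M (a' : ZMod M)

/-- `S_{M,H,a}` with coefficients in a commutative ring `R` -/
def sS (R : Type*) [CommRing R] (M : ℕ) (H : Subgroup (ZMod M)ˣ) (a : (ZMod M)ˣ) :
    LaurentSeries R :=
  coeffMap (Int.castRingHom R) (sZ M H a)

section Field

variable (K : Type*) [Field K] (L M : ℕ) (H : Subgroup (ZMod M)ˣ)

/-- the new generators `S_{M,H,a}(q^e)`, `e · M ∣ L` -/
def diamondExpansionsC : Set (LaurentSeries K) :=
  {x | ∃ (e : ℕ) (_ : NeZero e) (a : (ZMod M)ˣ), e * M ∣ L ∧ x = qExpand K e (sS K M H a)}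

/-- **The function field of `X_H(L; M)` over `K`**, inside `K((q))`. -/
def fieldC : IntermediateField K (LaurentSeries K) :=
  IntermediateField.adjoin K (divisorExpansionsC K L ∪ diamondExpansionsC K L M H)

theorem full_le_fieldC : modularFunctionFieldFullC K L ≤ fieldC K L M H :=
  IntermediateField.adjoin.mono K _ _ Set.subset_union_left

theorem qExpand_sS_mem {e : ℕ} [NeZero e] (he : e * M ∣ L) (a : (ZMod M)ˣ) :
    qExpand K e (sS K M H a) ∈ fieldC K L M H :=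
  IntermediateField.subset_adjoin K _ (Or.inr ⟨e, ‹_›, a, he, rfl⟩)

theorem jd_mem_fieldC {d : ℕ} [NeZero d] (hd : d ∣ L) :
    qExpand K d (jqModC K) ∈ fieldC K L M H :=
  full_le_fieldC K L M H (jqModCd_mem_full K L hd)

theorem fieldC_mono {L L' : ℕ} (h : L ∣ L') : fieldC K L M H ≤ fieldC K L' M H := by
  refine IntermediateField.adjoin.mono K _ _ ?_
  rintro x (⟨d, hne, hd, rfl⟩ | ⟨e, hne, a, he, rfl⟩)
  · exact Or.inl ⟨d, hne, hd.trans h, rfl⟩
  · exact Or.inr ⟨e, hne, a, he.trans h, rfl⟩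

end Field

section Rational

variable (L M : ℕ) (H : Subgroup (ZMod M)ˣ)

/-- the function field over `ℚ` -/
def fieldQ : IntermediateField ℚ (LaurentSeries ℚ) := fieldC ℚ L M H

/-- the function field over `ℚ̄` (in the prelude's base change form) -/
abbrev fieldBar : IntermediateField (AlgebraicClosure ℚ) (LaurentSeries (AlgebraicClosure ℚ)) :=
  laurentBaseChange (AlgebraicClosure ℚ) (fieldQ L M H)

/-- **The Jacobian `J_H(L; M)(ℚ̄)`** `= Pic⁰` of the function field; it carries the prelude's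
action of `Gal(ℚ̄/ℚ)` (coefficientwise on `ℚ̄((q))`). -/
abbrev JH : Type _ := Pic0 (AlgebraicClosure ℚ) (fieldBar L M H)

example : DistribMulAction (AlgebraicClosure ℚ ≃ₐ[ℚ] AlgebraicClosure ℚ) (JH L M H) :=
  inferInstance

end Rational

end Fermat.Agent.ES1

end
end ZBES1_002_0

/-! ### bundled: `Fermat.Agent.ES1.F2` -/
section ZBES1_002_1

/-!
# ES₁ / F2: the analytic weight `3` Eisenstein series `𝕐_λ`, `𝕐_a`

* `f2Y M lam` (`lam : Fin 2 → ZMod M` a functional on `(ℤ/M)²`):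
  `𝕐_λ(z) = c⁻¹ · ∑_{v ∈ ℤ²} w(λ(v)) (v₀ z + v₁)⁻³`, `w = 1_{1} - 1_{-1}`, `c = 2·(-2πi)³/2!`.
  Holomorphic, `𝕐_λ ∣[3] γ = 𝕐_{γ·λ}` for all `γ ∈ SL(2,ℤ)` (`f2Act`), every translate bounded
  at `i∞`.
* `f2Ya M a` (`a : ZMod M`): `𝕐_a(z) = c⁻¹ · ∑_{v} (1_{v₀ ≡ a} - 1_{v₀ ≡ -a}) (v₀ z + v₁)⁻³`
  `= ∑_{n ≥ 1} eisYCoeff M a n · qⁿ`; `𝕐_a ∣[3] γ = 𝕐_{a·γ₀₀}` for `γ ∈ Γ₀(M)`;
  `𝕐_a = 𝕐_λ` for `λ = (a⁻¹, 0)`, `a` a unit.
* `f2Form M a : ModularForm (Gamma1 M) 3` with `q`-expansion `eisYZ M a`.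
-/

set_option autoImplicit false

open EisensteinSeries UpperHalfPlane ModularForm CongruenceSubgroup Matrix Filter Topology
open Fermat.Agent.ES Fermat.Agent.S48
open scoped MatrixGroups Manifold Real

noncomputable section

namespace Fermat.Agent.ES1

variable (M : ℕ)

/-! ## Periodic coefficient functions -/

/-- `κ` only depends on `v` modulo `M` -/
def F2Per (κ : (Fin 2 → ℤ) → ℂ) : Prop :=
  ∀ v v' : Fin 2 → ℤ, (∀ i, ((v i : ℤ) : ZMod M) = ((v' i : ℤ) : ZMod M)) → κ v = κ v'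

variable {M}

theorem F2Per.vecMul {κ : (Fin 2 → ℤ) → ℂ} (h : F2Per M κ) (A : Matrix (Fin 2) (Fin 2) ℤ) :
    F2Per M (fun v => κ (v ᵥ* A)) := by
  intro v v' hv
  refine h _ _ fun i => ?_
  simp only [Matrix.vecMul, dotProduct, Fin.sum_univ_two]
  push_cast
  rw [hv 0, hv 1]

theorem f2_slash_T_vecMul {κ : (Fin 2 → ℤ) → ℂ} (h : F2Per M κ) (v : Fin 2 → ℤ) :
    κ (v ᵥ* (((ModularGroup.T ^ (M : ℤ))⁻¹ : SL(2, ℤ)) : Matrix (Fin 2) (Fin 2) ℤ)) = κ v := by
  refine h _ _ fun i => ?_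
  rw [← _root_.zpow_neg, ModularGroup.coe_T_zpow]
  fin_cases i <;>
    simp [Matrix.vecMul, dotProduct, Fin.sum_univ_two]

/-- a periodic bounded series is bounded at `i∞`, as are all its translates -/
theorem f2_isBoundedAtImInfty [NeZero M] {κ : (Fin 2 → ℤ) → ℂ} {C : ℝ} (hκ : ∀ v, ‖κ v‖ ≤ C)
    (h : F2Per M κ) (δ : SL(2, ℤ)) : IsBoundedAtImInfty (eisC κ 3 ∣[(3 : ℤ)] δ) := by
  rw [eisC_slash]
  have h' := h.vecMul ((δ⁻¹ : SL(2, ℤ)) : Matrix (Fin 2) (Fin 2) ℤ)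
  refine eisC_isBoundedAtImInfty (C := C) (fun v => hκ _) (le_refl _)
    (Nat.pos_of_ne_zero (NeZero.ne M)) ?_
  intro z
  have h1 := eis_slash_T_zpow_apply
    (eisC (fun v => κ (v ᵥ* ((δ⁻¹ : SL(2, ℤ)) : Matrix (Fin 2) (Fin 2) ℤ))) 3) 3
    (M : ℤ) z
  rw [show (((M : ℤ) : ℝ)) = (M : ℝ) by simp] at h1
  rw [← h1, eisC_slash]
  congr 2
  funext v
  exact f2_slash_T_vecMul h' v

variable (M)

/-! ## The weights -/

/-- the normalising constant `2 (-2πi)³ / 2!` -/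
def f2Const : ℂ := eisOddConst 3

theorem f2Const_ne_zero : f2Const ≠ 0 := eisOddConst_ne_zero 3

/-- the odd indicator of `{a, -a} ⊂ ℤ/M` -/
def f2Wa (a x : ZMod M) : ℂ := (if x = a then 1 else 0) - (if x = -a then 1 else 0)

theorem f2Wa_neg (a x : ZMod M) : f2Wa M a (-x) = -f2Wa M a x := by
  unfold f2Wa
  have h1 : (-x = a) ↔ (x = -a) := neg_eq_iff_eq_neg
  have h2 : (-x = -a) ↔ (x = a) := neg_inj
  simp only [h1, h2]
  ring

theorem norm_f2Wa_le (a x : ZMod M) : ‖f2Wa M a x‖ ≤ 1 := by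
  unfold f2Wa
  split_ifs <;> simp

/-- the value of the functional `λ` at `v` -/
def f2Lam (lam : Fin 2 → ZMod M) (v : Fin 2 → ℤ) : ZMod M :=
  lam 0 * ((v 0 : ℤ) : ZMod M) + lam 1 * ((v 1 : ℤ) : ZMod M)

/-- the coefficient function of `𝕐_λ` (normalised) -/
def f2Kap (lam : Fin 2 → ZMod M) (v : Fin 2 → ℤ) : ℂ :=
  f2Const⁻¹ * f2Wa M 1 (f2Lam M lam v)

/-- the coefficient function of `𝕐_a` (normalised) -/
def f2KapA (a : ZMod M) (v : Fin 2 → ℤ) : ℂ :=
  f2Const⁻¹ * f2KapW (f2Wa M a) v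

theorem norm_f2Kap_le (lam : Fin 2 → ZMod M) (v : Fin 2 → ℤ) :
    ‖f2Kap M lam v‖ ≤ ‖f2Const⁻¹‖ := by
  rw [f2Kap, norm_mul]
  exact mul_le_of_le_one_right (norm_nonneg _) (norm_f2Wa_le M _ _)

theorem norm_f2KapA_le (a : ZMod M) (v : Fin 2 → ℤ) : ‖f2KapA M a v‖ ≤ ‖f2Const⁻¹‖ := by
  rw [f2KapA, norm_mul]
  exact mul_le_of_le_one_right (norm_nonneg _) (norm_f2Wa_le M _ _)

theorem f2Per_f2Kap (lam : Fin 2 → ZMod M) : F2Per M (f2Kap M lam) := by
  intro v v' hv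
  unfold f2Kap f2Lam
  rw [hv 0, hv 1]

theorem f2Per_f2KapA (a : ZMod M) : F2Per M (f2KapA M a) := by
  intro v v' hv
  unfold f2KapA f2KapW
  rw [hv 0]

/-! ## The functions -/

/-- `𝕐_λ` -/
def f2Y (lam : Fin 2 → ZMod M) : ℍ → ℂ := eisC (f2Kap M lam) 3

/-- `𝕐_a` -/
def f2Ya (a : ZMod M) : ℍ → ℂ := eisC (f2KapA M a) 3

theorem f2Y_mdiff (lam : Fin 2 → ZMod M) : MDiff (f2Y M lam) :=
  eisC_mdiff (norm_f2Kap_le M lam) (le_refl _)

theorem f2Ya_mdiff (a : ZMod M) : MDiff (f2Ya M a) :=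
  eisC_mdiff (norm_f2KapA_le M a) (le_refl _)

/-- the action of `SL(2,ℤ)` on functionals: `(γ·λ)(v) = λ(v γ⁻¹)` -/
def f2Act (A : SL(2, ℤ)) (lam : Fin 2 → ZMod M) : Fin 2 → ZMod M :=
  ![((A 1 1 : ℤ) : ZMod M) * lam 0 - ((A 0 1 : ℤ) : ZMod M) * lam 1,
    -((A 1 0 : ℤ) : ZMod M) * lam 0 + ((A 0 0 : ℤ) : ZMod M) * lam 1]

theorem f2Lam_vecMul_inv (A : SL(2, ℤ)) (lam : Fin 2 → ZMod M) (v : Fin 2 → ℤ) :
    f2Lam M lam (v ᵥ* ((A⁻¹ : SL(2, ℤ)) : Matrix (Fin 2) (Fin 2) ℤ)) =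
      f2Lam M (f2Act M A lam) v := by
  rw [Matrix.SpecialLinearGroup.coe_inv, Matrix.adjugate_fin_two]
  simp only [f2Lam, f2Act, Matrix.vecMul, dotProduct, Fin.sum_univ_two, Matrix.of_apply,
    Matrix.cons_val_zero, Matrix.cons_val_one]
  push_cast
  ring

/-- `𝕐_λ ∣[3] γ = 𝕐_{γ·λ}` for all `γ ∈ SL(2,ℤ)` -/
theorem f2Y_slash (lam : Fin 2 → ZMod M) (A : SL(2, ℤ)) :
    f2Y M lam ∣[(3 : ℤ)] A = f2Y M (f2Act M A lam) := by
  unfold f2Y
  rw [eisC_slash]
  congr 1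
  funext v
  unfold f2Kap
  rw [f2Lam_vecMul_inv]

theorem f2Y_slash_isBoundedAtImInfty [NeZero M] (lam : Fin 2 → ZMod M) (δ : SL(2, ℤ)) :
    IsBoundedAtImInfty (f2Y M lam ∣[(3 : ℤ)] δ) :=
  f2_isBoundedAtImInfty (norm_f2Kap_le M lam) (f2Per_f2Kap M lam) δ

theorem f2Ya_slash_isBoundedAtImInfty [NeZero M] (a : ZMod M) (δ : SL(2, ℤ)) :
    IsBoundedAtImInfty (f2Ya M a ∣[(3 : ℤ)] δ) :=
  f2_isBoundedAtImInfty (norm_f2KapA_le M a) (f2Per_f2KapA M a) δ

/-- `𝕐_a = 𝕐_λ` for `λ = (a⁻¹, 0)` -/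
theorem f2Ya_eq_f2Y (a : (ZMod M)ˣ) :
    f2Ya M (a : ZMod M) = f2Y M ![((a⁻¹ : (ZMod M)ˣ) : ZMod M), 0] := by
  unfold f2Ya f2Y
  congr 1
  funext v
  unfold f2KapA f2Kap f2KapW f2Lam f2Wa
  simp only [Matrix.cons_val_zero, Matrix.cons_val_one, zero_mul, add_zero]
  have h1 : ∀ x : ZMod M, (((a⁻¹ : (ZMod M)ˣ) : ZMod M) * x = 1) ↔ (x = (a : ZMod M)) := by
    intro x
    constructor
    · intro h
      have := congrArg (fun y => (a : ZMod M) * y) h
      simpa [← mul_assoc] using this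
    · rintro rfl
      simp
  have h2 : ∀ x : ZMod M, (((a⁻¹ : (ZMod M)ˣ) : ZMod M) * x = -1) ↔ (x = -(a : ZMod M)) := by
    intro x
    constructor
    · intro h
      have := congrArg (fun y => (a : ZMod M) * y) h
      simpa [← mul_assoc] using this
    · rintro rfl
      simp
  simp only [h1, h2]

/-- `𝕐_a ∣[3] γ = 𝕐_{a·γ₀₀}` for `γ ∈ Γ₀(M)` -/
theorem f2Ya_slash (a : ZMod M) (A : SL(2, ℤ)) (hA : A ∈ Gamma0 M) :
    f2Ya M a ∣[(3 : ℤ)] A = f2Ya M (a * ((A 0 0 : ℤ) : ZMod M)) := by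
  have hA' : ((A 1 0 : ℤ) : ZMod M) = 0 := Gamma0_mem.mp hA
  have hdet : ((A 0 0 : ℤ) : ZMod M) * ((A 1 1 : ℤ) : ZMod M) = 1 := by
    have h := A.2
    rw [Matrix.det_fin_two] at h
    have h2 : (((A 0 0 * A 1 1 - A 0 1 * A 1 0 : ℤ)) : ZMod M) = 1 := by
      have h3 : (A 0 0 * A 1 1 - A 0 1 * A 1 0 : ℤ) = 1 := h
      rw [h3, Int.cast_one]
    push_cast at h2
    rw [hA', mul_zero, sub_zero] at h2
    exact h2
  unfold f2Ya
  rw [eisC_slash]
  congr 1
  funext v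
  unfold f2KapA f2KapW f2Wa
  rw [Matrix.SpecialLinearGroup.coe_inv, Matrix.adjugate_fin_two]
  simp only [Matrix.vecMul, dotProduct, Fin.sum_univ_two, Matrix.of_apply,
    Matrix.cons_val_zero, Matrix.cons_val_one]
  push_cast
  rw [hA']
  have h1 : ∀ x b : ZMod M, (x * ((A 1 1 : ℤ) : ZMod M) + 0 = b) ↔
      (x = b * ((A 0 0 : ℤ) : ZMod M)) := by
    intro x b
    rw [add_zero]
    constructor
    · intro h
      rw [← h, mul_assoc, mul_comm ((A 1 1 : ℤ) : ZMod M), hdet, mul_one]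
    · intro h
      rw [h, mul_assoc, hdet, mul_one]
  simp only [mul_zero, neg_zero, h1, neg_mul]

end Fermat.Agent.ES1

end
end ZBES1_002_1

/-! ### bundled: `Fermat.Agent.ES1.F2Q` -/
section ZBES1_002_2

/-!
# ES₁ / F2 (part 3): the `q`-expansion of `𝕐_a` and the modular form `f2Form M a`

* `f2Ya_hasSum` : `𝕐_a(τ) = ∑_{n} eisYCoeff M a n · qⁿ`, `q = e^{2πiτ}`;
* `f2Form M a : ModularForm (Gamma1 M) 3`, `f2Form_qExpansion`: its `q`-expansion is the formal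
  series `eisYZ M a` of `ES1/Defs.lean`.
-/

set_option autoImplicit false

open EisensteinSeries UpperHalfPlane ModularForm CongruenceSubgroup Matrix Filter Topology
open Fermat.Agent.ES Fermat.Agent.S48
open scoped MatrixGroups Manifold Real

noncomputable section

namespace Fermat.Agent.ES1

variable (M : ℕ)

/-- summability of the rearranged Lambert series -/
theorem f2_summable_divisor_sum (k : ℕ) {r : ℂ} (hr : ‖r‖ < 1) (a : ℕ → ℂ)
    (ha : ∀ n, ‖a n‖ ≤ 1) :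
    Summable fun e : ℕ+ =>
      (∑ d ∈ (e : ℕ).divisors, a d * ((e / d : ℕ) : ℂ) ^ k) * r ^ (e : ℕ) := by
  have hs := eisOdd_summable_twist k hr a ha
  have hs' := sigmaAntidiagonalEquivProd.summable_iff.mpr hs
  have h3 := hs'.sigma
  refine h3.congr fun n => ?_
  rw [tsum_fintype, Finset.univ_eq_attach]
  have h1 : ∀ x : Nat.divisorsAntidiagonal n,
      ((fun c : ℕ+ × ℕ+ => a c.1 * ((c.2 : ℂ) ^ k * r ^ (c.1 * c.2 : ℕ))) ∘
          sigmaAntidiagonalEquivProd) ⟨n, x⟩ =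
      (fun y : ℕ × ℕ => a y.1 * ((y.2 : ℂ) ^ k * r ^ (y.1 * y.2))) x.1 := by
    intro x
    simp [sigmaAntidiagonalEquivProd, divisorsAntidiagonalFactors]
  simp_rw [h1]
  rw [(n : ℕ).divisorsAntidiagonal.sum_attach
    (fun y : ℕ × ℕ => a y.1 * ((y.2 : ℂ) ^ k * r ^ (y.1 * y.2)))]
  rw [Nat.sum_divisorsAntidiagonal (fun x y => a x * ((y : ℂ) ^ k * r ^ (x * y)))]
  rw [Finset.sum_mul]
  refine Finset.sum_congr rfl fun i hi => ?_
  rw [Nat.mul_div_cancel' (Nat.dvd_of_mem_divisors hi)]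
  ring

/-- the coefficients of `ES1/Defs.lean` -/
theorem f2_coeff_eq (a : ZMod M) (e : ℕ) :
    ∑ d ∈ e.divisors, f2Wa M a (d : ZMod M) * ((e / d : ℕ) : ℂ) ^ 2 = (eisYCoeff M a e : ℂ) := by
  unfold eisYCoeff
  rw [← Nat.sum_div_divisors e (fun d => f2Wa M a (d : ZMod M) * ((e / d : ℕ) : ℂ) ^ 2)]
  push_cast
  refine Finset.sum_congr rfl fun m hm => ?_
  have hdvd := Nat.dvd_of_mem_divisors hm
  have hne : e ≠ 0 := (Nat.mem_divisors.mp hm).2
  rw [Nat.div_div_self hdvd hne]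
  unfold f2Wa
  split_ifs <;> simp

theorem f2Ya_eq_smul (a : ZMod M) :
    f2Ya M a = f2Const⁻¹ • eisC (f2KapW (f2Wa M a)) 3 := by
  unfold f2Ya
  rw [← eisC_const_mul]
  rfl

open Complex in
/-- the `q`-expansion of `𝕐_a` -/
theorem f2Ya_hasSum (a : ZMod M) (τ : ℍ) :
    HasSum (fun n : ℕ => (eisYCoeff M a n : ℂ) • Function.Periodic.qParam 1 τ ^ n)
      (f2Ya M a τ) := by
  have hq : Function.Periodic.qParam 1 (τ : ℂ) = cexp (2 * π * Complex.I * τ) := by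
    simp [Function.Periodic.qParam]
  rw [f2Ya_eq_smul, Pi.smul_apply, smul_eq_mul,
    f2_eisC_tsum (f2Wa M a) (norm_f2Wa_le M a) (f2Wa_neg M a) τ]
  have hc : (2 : ℂ) * ((-2 * π * Complex.I) ^ 3 / ((3 - 1).factorial : ℕ)) = f2Const := rfl
  rw [hc, ← mul_assoc, inv_mul_cancel₀ f2Const_ne_zero, one_mul, hq]
  have hr := norm_exp_two_pi_I_lt_one τ
  have hsum := f2_summable_divisor_sum (3 - 1) hr (fun n => f2Wa M a (n : ZMod M))
    (fun n => norm_f2Wa_le M a _)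
  have hF : HasSum (fun e : ℕ+ => (eisYCoeff M a (e : ℕ) : ℂ) •
        cexp (2 * π * Complex.I * τ) ^ (e : ℕ))
      (∑' e : ℕ+, (∑ d ∈ (e : ℕ).divisors, f2Wa M a (d : ZMod M) *
        ((e / d : ℕ) : ℂ) ^ (3 - 1)) * cexp (2 * π * Complex.I * τ) ^ (e : ℕ)) := by
    have h3 := hsum.hasSum
    refine h3.congr_fun ?_
    intro e
    rw [smul_eq_mul, ← f2_coeff_eq]
  refine (Function.Injective.hasSum_iff PNat.coe_injective ?_).mp hF
  intro x hx
  have hx0 : x = 0 := by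
    by_contra h
    exact hx ⟨⟨x, Nat.pos_of_ne_zero h⟩, rfl⟩
  simp [hx0, eisYCoeff]

/-- `𝕐_a` as a modular form on `Γ₁(M)` -/
def f2Form [NeZero M] (a : ZMod M) : ModularForm (Gamma1 M) 3 where
  toFun := f2Ya M a
  slash_action_eq' := by
    rintro _ ⟨γ, hγ, rfl⟩
    change f2Ya M a ∣[(3 : ℤ)] γ = _
    rw [f2Ya_slash M a γ (Gamma1_in_Gamma0 M hγ)]
    have h1 : ((γ 0 0 : ℤ) : ZMod M) = 1 := ((Gamma1_mem M γ).mp hγ).1
    rw [h1, mul_one]
  holo' := f2Ya_mdiff M a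
  bdd_at_cusps' := by
    intro c hc
    rw [Subgroup.IsArithmetic.isCusp_iff_isCusp_SL2Z] at hc
    rw [OnePoint.isBoundedAt_iff_forall_SL2Z hc]
    intro δ _
    exact f2Ya_slash_isBoundedAtImInfty M a δ

@[simp] theorem f2Form_apply [NeZero M] (a : ZMod M) (z : ℍ) : f2Form M a z = f2Ya M a z := rfl

theorem f2Form_coe [NeZero M] (a : ZMod M) : (⇑(f2Form M a) : ℍ → ℂ) = f2Ya M a := rfl

/-- the `q`-coefficients of `𝕐_a` -/
theorem f2Form_qCoeff [NeZero M] (a : ZMod M) (n : ℕ) :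
    ModularFormClass.qCoeff (f2Form M a) n = (eisYCoeff M a n : ℂ) := by
  have := ModularFormClass.qExpansion_coeff_unique (f := f2Form M a)
    (c := fun n => (eisYCoeff M a n : ℂ)) one_pos (eisOdd_one_mem_strictPeriods M)
    (fun τ => f2Ya_hasSum M a τ) n
  exact this.symm

/-- the `q`-expansion of `𝕐_a` is the formal series `Y_{M,a}` -/
theorem f2Form_qExpansion [NeZero M] (a : ZMod M) :
    UpperHalfPlane.qExpansion 1 (⇑(f2Form M a)) = (eisYZ M a).map (Int.castRingHom ℂ) := by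
  ext n
  have h := f2Form_qCoeff M a n
  rw [ModularFormClass.qCoeff] at h
  rw [h, PowerSeries.coeff_map, eisYZ, PowerSeries.coeff_mk]
  rfl

end Fermat.Agent.ES1

end
end ZBES1_002_2

/-! ### bundled: `Fermat.Agent.ES1.F2G` -/
section ZBES1_002_3

/-!
# ES₁ / F2 (part 4): the modular functions `G_λ = 𝕐_λ⁴ / Δ`

* `f2Ya_isHPB` : `𝕐_a` is holomorphic, `1`-periodic and bounded at `i∞`;
* `f2G M lam`, `f2Ga M a` : the weight `0` functions `𝕐_λ⁴/Δ`, `𝕐_a⁴/Δ`; holomorphic on `ℍ`;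
* `f2G_smul` : `G_λ(γ z) = G_{γ·λ}(z)` for all `γ ∈ SL(2,ℤ)`;
  `f2Ga_smul` : `G_a(γ z) = G_{a·γ₀₀}(z)` for `γ ∈ Γ₀(M)`;
* `f2Ga_isMerInf`, `laurentOf_f2Ga` : the Laurent expansion of `G_a` at `i∞` is the formal
  `gZ M a` of `ES1/Defs.lean` (with complex coefficients).
-/

set_option autoImplicit false

open EisensteinSeries UpperHalfPlane ModularForm CongruenceSubgroup Matrix Filter Topology
open Fermat.Agent.ES Fermat.Agent.S48 Fermat.Agent.S23 Fermat.Agent.S28 ModularCurve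
open scoped MatrixGroups Manifold Real

noncomputable section

namespace Fermat.Agent.ES1

local notation "Δ" => ModularForm.discriminant

variable (M : ℕ)

/-- `𝕐_a` is holomorphic, `1`-periodic and bounded at `i∞` -/
theorem f2Ya_isHPB [NeZero M] (a : ZMod M) : IsHPB (f2Ya M a) := by
  refine ⟨f2Ya_mdiff M a, ?_, ?_⟩
  · exact SlashInvariantFormClass.periodic_comp_ofComplex (f2Form M a)
      (eisOdd_one_mem_strictPeriods M)
  · have h := f2Ya_slash_isBoundedAtImInfty M a 1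
    rwa [SlashAction.slash_one] at h

theorem f2Ya_qExpansion [NeZero M] (a : ZMod M) :
    UpperHalfPlane.qExpansion 1 (f2Ya M a) = (eisYZ M a).map (Int.castRingHom ℂ) :=
  f2Form_qExpansion M a

/-- `G_λ = 𝕐_λ⁴ / Δ` -/
def f2G (lam : Fin 2 → ZMod M) : ℍ → ℂ := fun z => f2Y M lam z ^ 4 / Δ z

/-- `G_a = 𝕐_a⁴ / Δ` -/
def f2Ga (a : ZMod M) : ℍ → ℂ := fun z => f2Ya M a z ^ 4 / Δ z

theorem f2_mdiff_pow_div {f : ℍ → ℂ} (hf : MDiff f) : MDiff (fun z => f z ^ 4 / Δ z) := by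
  have hΔ : MDiff (CuspForm.discriminant : ℍ → ℂ) :=
    ModularFormClass.holo CuspForm.discriminant
  rw [UpperHalfPlane.mdifferentiable_iff] at hf hΔ ⊢
  have : ((fun z => f z ^ 4 / Δ z) ∘ ofComplex) =
      fun z => (f ∘ ofComplex) z ^ 4 /
        ((CuspForm.discriminant : ℍ → ℂ) ∘ ofComplex) z := by
    ext z; simp [CuspForm.coe_discriminant]
  rw [this]
  refine DifferentiableOn.div (hf.pow 4) hΔ (fun z _ => ?_)
  exact ModularForm.discriminant_ne_zero _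

theorem f2G_mdiff (lam : Fin 2 → ZMod M) : MDiff (f2G M lam) :=
  f2_mdiff_pow_div (f2Y_mdiff M lam)

theorem f2Ga_mdiff (a : ZMod M) : MDiff (f2Ga M a) :=
  f2_mdiff_pow_div (f2Ya_mdiff M a)

/-- pointwise form of a weight `3` slash identity -/
theorem f2_smul_of_slash {f g : ℍ → ℂ} (A : SL(2, ℤ)) (h : f ∣[(3 : ℤ)] A = g) (z : ℍ) :
    f (A • z) = denom A z ^ (3 : ℕ) * g z := by
  have h1 := congrFun h z
  rw [SL_slash_apply] at h1
  have hne : denom A z ≠ 0 := denom_ne_zero _ z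
  have h2 : denom A z ^ (-(3 : ℤ)) * denom A z ^ (3 : ℕ) = 1 := by
    rw [← zpow_natCast (denom A z) 3, ← zpow_add₀ hne]
    norm_num
  calc f (A • z) = (f (A • z) * denom A z ^ (-(3 : ℤ))) * denom A z ^ (3 : ℕ) := by
        rw [mul_assoc, h2, mul_one]
    _ = denom A z ^ (3 : ℕ) * g z := by rw [h1, mul_comm]

theorem f2_G_smul_of_slash {f g : ℍ → ℂ} (A : SL(2, ℤ)) (h : f ∣[(3 : ℤ)] A = g) (z : ℍ) :
    f (A • z) ^ 4 / Δ (A • z) = g z ^ 4 / Δ z := by
  rw [f2_smul_of_slash A h z, thetaMatrix_discriminant_smul A z]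
  have hne : denom A z ≠ 0 := denom_ne_zero _ z
  have hΔ : Δ z ≠ 0 := discriminant_ne_zero z
  field_simp

theorem f2Y_smul (lam : Fin 2 → ZMod M) (A : SL(2, ℤ)) (z : ℍ) :
    f2Y M lam (A • z) = denom A z ^ (3 : ℕ) * f2Y M (f2Act M A lam) z :=
  f2_smul_of_slash A (f2Y_slash M lam A) z

/-- `G_λ(γ z) = G_{γ·λ}(z)` for all `γ ∈ SL(2,ℤ)` -/
theorem f2G_smul (lam : Fin 2 → ZMod M) (A : SL(2, ℤ)) (z : ℍ) :
    f2G M lam (A • z) = f2G M (f2Act M A lam) z :=
  f2_G_smul_of_slash A (f2Y_slash M lam A) z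

/-- `G_a(γ z) = G_{a·γ₀₀}(z)` for `γ ∈ Γ₀(M)` -/
theorem f2Ga_smul (a : ZMod M) (A : SL(2, ℤ)) (hA : A ∈ Gamma0 M) (z : ℍ) :
    f2Ga M a (A • z) = f2Ga M (a * ((A 0 0 : ℤ) : ZMod M)) z :=
  f2_G_smul_of_slash A (f2Ya_slash M a A hA) z

theorem f2Ga_eq_f2G (a : (ZMod M)ˣ) :
    f2Ga M (a : ZMod M) = f2G M ![((a⁻¹ : (ZMod M)ˣ) : ZMod M), 0] := by
  unfold f2Ga f2G
  rw [f2Ya_eq_f2Y]

theorem f2Ga_mul_discriminant (a : ZMod M) (z : ℍ) :
    f2Ga M a z * Δ z ^ 1 = f2Ya M a z ^ 4 := by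
  rw [pow_one, f2Ga, div_mul_cancel₀ _ (discriminant_ne_zero z)]

theorem f2Ga_isHPB_mul [NeZero M] (a : ZMod M) :
    IsHPB (fun z => f2Ga M a z * Δ z ^ 1) := by
  have h := bridge_isHPB_pow (f2Ya_isHPB M a) 4
  convert h using 1
  funext z
  exact f2Ga_mul_discriminant M a z

/-- `G_a` is meromorphic at `i∞` -/
theorem f2Ga_isMerInf [NeZero M] (a : ZMod M) : IsMerInf (f2Ga M a) :=
  ⟨1, f2Ga_isHPB_mul M a⟩

/-- the formal `G_{M,a}` with complex coefficients -/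
theorem f2_coeffMap_gZ (a : ZMod M) :
    coeffMap (Int.castRingHom ℂ) (gZ M a) =
      HahnSeries.ofPowerSeries ℤ ℂ ((eisYZ M a).map (Int.castRingHom ℂ)) ^ 4 * deltaL⁻¹ := by
  rw [gZ, map_mul, coeffMap_ofPowerSeries, map_pow, map_pow, ← deltaInvS_complex]
  rfl

/-- **the Laurent expansion of `G_a` at `i∞` is the formal `G_{M,a}`** -/
theorem laurentOf_f2Ga [NeZero M] (a : ZMod M) :
    laurentOf (f2Ga M a) = coeffMap (Int.castRingHom ℂ) (gZ M a) := by
  rw [laurentOf_eq (f2Ga_isHPB_mul M a), f2_coeffMap_gZ, pow_one]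
  congr 1
  have h2 : (fun z => f2Ga M a z * Δ z ^ 1) = fun z => f2Ya M a z ^ 4 := by
    funext z
    exact f2Ga_mul_discriminant M a z
  rw [h2, bridge_ofPowerSeries_pow (f2Ya_isHPB M a), f2Ya_qExpansion]

end Fermat.Agent.ES1

end
end ZBES1_002_3

/-! ### bundled: `Fermat.Agent.ES1.Formal` -/
section ZBES1_002_4

/-!
# ES₁ / F1 — formal facts on the generators `S_{M,H,a}` (helper81)

* `MonicAt x n` : the Laurent series `x` is `qⁿ (1 + …)` (lowest term `qⁿ`, coefficient `1`);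
  calculus (`coeffMap`, `qExpand`, products over `ℤ`, sums with different orders).
* `es1f_monicAt_eisY`, `es1f_monicAt_gZ` : `Y_{M,a'} = q^{a'}(1 + …)`, `G_{M,a'} = q^{4a'-1}(1 + …)`
  for `1 ≤ a'`, `2a' < M`.
* `cosetReps` : nonempty for `M ≥ 2`, its elements have `2a' < M` for `M ≥ 3`, it only depends on the
  class of `a` in `(ℤ/M)ˣ/±H`, and different classes have disjoint `cosetReps`.
* `es1fLead M H a` : the least element of `cosetReps M H a`;
  `es1f_monicAt_sS` : `S_{M,H,a} = q^{4·lead-1}(1 + …)` over EVERY commutative ring (`M ≥ 3`);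
  `es1f_sS_ne`, `es1f_sS_sub` : the `S_{M,H,a}` of different classes are different, their
  difference is `± q^n (1 + …)`.
* `es1f_coeffMap_sS`, `es1f_coeffMap_mem_fieldC`, `es1f_fieldBar_eq` : base change.
-/

set_option autoImplicit false
set_option linter.style.haveILetI false

noncomputable section

open HahnSeries ModularCurve AlgebraicCurve

namespace Fermat.Agent.ES1

/-! ## Series of the form `qⁿ (1 + …)` -/

section Monic

variable {R S : Type*} [CommRing R] [CommRing S]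

/-- `x = qⁿ (1 + …)` -/
def MonicAt (x : LaurentSeries R) (n : ℤ) : Prop :=
  x.coeff n = 1 ∧ ∀ k : ℤ, k < n → x.coeff k = 0

theorem MonicAt.coeffMap {x : LaurentSeries R} {n : ℤ} (h : MonicAt x n) (f : R →+* S) :
    MonicAt (coeffMap f x) n :=
  ⟨by rw [coeffMap_coeff, h.1, map_one], fun k hk => by rw [coeffMap_coeff, h.2 k hk, map_zero]⟩

theorem MonicAt.ne_zero [Nontrivial R] {x : LaurentSeries R} {n : ℤ} (h : MonicAt x n) :
    x ≠ 0 := by
  rintro rfl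
  have := h.1
  rw [HahnSeries.coeff_zero] at this
  exact zero_ne_one this

theorem MonicAt.order_eq [Nontrivial R] {x : LaurentSeries R} {n : ℤ} (h : MonicAt x n) :
    x.order = n := by
  apply le_antisymm
  · exact HahnSeries.order_le_of_coeff_ne_zero (by rw [h.1]; exact one_ne_zero)
  · by_contra hlt
    push Not at hlt
    exact (HahnSeries.coeff_order_eq_zero.not.mpr h.ne_zero) (h.2 _ hlt)

theorem MonicAt.leadingCoeff_eq [Nontrivial R] {x : LaurentSeries R} {n : ℤ}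
    (h : MonicAt x n) : x.leadingCoeff = 1 := by
  rw [HahnSeries.leadingCoeff_eq, h.order_eq, h.1]

theorem es1f_monicAt_of_order {x : LaurentSeries R} (hx : x.leadingCoeff = 1) [Nontrivial R] :
    MonicAt x x.order := by
  refine ⟨by rw [← HahnSeries.leadingCoeff_eq, hx], fun k hk =>
    HahnSeries.coeff_eq_zero_of_lt_order hk⟩

theorem MonicAt.unique [Nontrivial R] {x : LaurentSeries R} {n m : ℤ} (h : MonicAt x n)
    (h' : MonicAt x m) : n = m := by
  rw [← h.order_eq, ← h'.order_eq]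

/-- products (over a domain) -/
theorem MonicAt.mul [IsDomain R] {x y : LaurentSeries R} {n m : ℤ} (hx : MonicAt x n)
    (hy : MonicAt y m) : MonicAt (x * y) (n + m) := by
  have h1 : (x * y).order = n + m := by
    rw [HahnSeries.order_mul hx.ne_zero hy.ne_zero, hx.order_eq, hy.order_eq]
  have h2 : (x * y).leadingCoeff = 1 := by
    rw [HahnSeries.leadingCoeff_mul, hx.leadingCoeff_eq, hy.leadingCoeff_eq, mul_one]
  have := es1f_monicAt_of_order h2
  rwa [h1] at this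

theorem MonicAt.pow [IsDomain R] {x : LaurentSeries R} {n : ℤ} (hx : MonicAt x n) (k : ℕ) :
    MonicAt (x ^ k) (k * n) := by
  induction k with
  | zero =>
    rw [pow_zero, Nat.cast_zero, zero_mul]
    refine ⟨by rw [HahnSeries.coeff_one, if_pos rfl], fun j hj => ?_⟩
    rw [HahnSeries.coeff_one, if_neg (ne_of_lt hj)]
  | succ k ih =>
    have := ih.mul hx
    rw [pow_succ]
    convert this using 1
    push_cast
    ring

/-- adding terms of higher order -/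
theorem MonicAt.add {x y : LaurentSeries R} {n : ℤ} (hx : MonicAt x n)
    (hy : ∀ k : ℤ, k ≤ n → y.coeff k = 0) : MonicAt (x + y) n :=
  ⟨by rw [HahnSeries.coeff_add, hx.1, hy n le_rfl, add_zero],
    fun k hk => by rw [HahnSeries.coeff_add, hx.2 k hk, hy k hk.le, add_zero]⟩

theorem MonicAt.coeff_of_le {x : LaurentSeries R} {n m : ℤ} (hx : MonicAt x m) (h : n < m)
    (k : ℤ) (hk : k ≤ n) : x.coeff k = 0 :=
  hx.2 k (lt_of_le_of_lt hk h)

/-- a sum of series `q^{φ i}(1 + …)` with `φ` injective on the index set -/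
theorem es1f_monicAt_sum {ι : Type*} [LinearOrder ι] (s : Finset ι) (hs : s.Nonempty)
    (f : ι → LaurentSeries R) (φ : ι → ℤ) (hφ : ∀ i ∈ s, ∀ j ∈ s, i < j → φ i < φ j)
    (hf : ∀ i ∈ s, MonicAt (f i) (φ i)) :
    MonicAt (∑ i ∈ s, f i) (φ (s.min' hs)) := by
  classical
  have hmem := s.min'_mem hs
  rw [← Finset.add_sum_erase s f hmem]
  refine (hf _ hmem).add fun k hk => ?_
  rw [HahnSeries.coeff_sum]
  refine Finset.sum_eq_zero fun i hi => ?_
  have hi' := Finset.mem_of_mem_erase hi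
  have hne : i ≠ s.min' hs := Finset.ne_of_mem_erase hi
  have hlt : s.min' hs < i := lt_of_le_of_ne (s.min'_le i hi') (Ne.symm hne)
  exact (hf i hi').2 k (lt_of_le_of_lt hk (hφ _ hmem _ hi' hlt))

/-- `x(q^e)` -/
theorem MonicAt.qExpand {x : LaurentSeries R} {n : ℤ} (hx : MonicAt x n) (e : ℕ) [NeZero e] :
    MonicAt (qExpand R e x) (e * n) := by
  refine ⟨by rw [qExpand_coeff_mul, hx.1], fun k hk => ?_⟩
  by_cases hd : (e : ℤ) ∣ k
  · obtain ⟨m, rfl⟩ := hd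
    rw [qExpand_coeff_mul]
    have he : (0 : ℤ) < e := by exact_mod_cast Nat.pos_of_ne_zero (NeZero.ne e)
    exact hx.2 m (lt_of_mul_lt_mul_left hk he.le)
  · exact qExpand_coeff_of_not_dvd e x hd

/-- power series with lowest term `qⁿ` -/
theorem es1f_monicAt_ofPowerSeries {p : PowerSeries R} {n : ℕ} (h1 : PowerSeries.coeff n p = 1)
    (h0 : ∀ k < n, PowerSeries.coeff k p = 0) :
    MonicAt (HahnSeries.ofPowerSeries ℤ R p) n := by
  refine ⟨by rw [HahnSeries.ofPowerSeries_apply_coeff, h1], fun k hk => ?_⟩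
  rcases le_or_gt 0 k with hk0 | hk0
  · lift k to ℕ using hk0
    rw [HahnSeries.ofPowerSeries_apply_coeff]
    exact h0 k (by exact_mod_cast hk)
  · exact ofPowerSeries_coeff_of_neg _ hk0

end Monic

/-! ## The Eisenstein series `Y_{M,a'}` and `G_{M,a'}` -/

section Eis

variable {M a' : ℕ}

theorem es1f_cast_eq_iff (ha : 2 * a' < M) {d : ℕ} (hd : d ≤ a') :
    (d : ZMod M) = (a' : ZMod M) ↔ d = a' := by
  constructor
  · intro h
    rw [ZMod.natCast_eq_natCast_iff] at h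
    exact Nat.ModEq.eq_of_lt_of_lt h (by omega) (by omega)
  · rintro rfl; rfl

theorem es1f_cast_ne_neg (ha : 2 * a' < M) {d : ℕ} (hd1 : 1 ≤ d) (hd : d ≤ a') :
    (d : ZMod M) ≠ -(a' : ZMod M) := by
  intro h
  have h1 : ((d + a' : ℕ) : ZMod M) = 0 := by
    rw [Nat.cast_add, h, neg_add_cancel]
  rw [ZMod.natCast_eq_zero_iff] at h1
  have := Nat.le_of_dvd (by omega) h1
  omega

theorem es1f_eisYCoeff_of_lt (ha : 2 * a' < M) {n : ℕ} (hn : n < a') :
    eisYCoeff M (a' : ZMod M) n = 0 := by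
  unfold eisYCoeff
  refine Finset.sum_eq_zero fun m hm => ?_
  have hm' := Nat.mem_divisors.mp hm
  have hd1 : 1 ≤ n / m := Nat.div_pos (Nat.le_of_dvd (Nat.pos_of_ne_zero hm'.2) hm'.1)
    (Nat.pos_of_dvd_of_pos hm'.1 (Nat.pos_of_ne_zero hm'.2))
  have hd : n / m ≤ a' := (Nat.div_le_self n m).trans hn.le
  have h1 : ¬ ((n / m : ℕ) : ZMod M) = (a' : ZMod M) := by
    rw [es1f_cast_eq_iff ha hd]
    have := Nat.div_le_self n m
    omega
  rw [if_neg h1, if_neg (es1f_cast_ne_neg ha hd1 hd), sub_zero]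

theorem es1f_eisYCoeff_self (h1 : 1 ≤ a') (ha : 2 * a' < M) :
    eisYCoeff M (a' : ZMod M) a' = 1 := by
  unfold eisYCoeff
  have h1mem : 1 ∈ a'.divisors := Nat.mem_divisors.mpr ⟨one_dvd _, by omega⟩
  rw [Finset.sum_eq_single_of_mem 1 h1mem]
  · rw [Nat.div_one, if_pos rfl, if_neg (es1f_cast_ne_neg ha h1 le_rfl)]
    norm_num
  · intro m hm hm1
    have hm' := Nat.mem_divisors.mp hm
    have hmpos : 0 < m := Nat.pos_of_dvd_of_pos hm'.1 (by omega)
    have hd1 : 1 ≤ a' / m := Nat.div_pos (Nat.le_of_dvd (by omega) hm'.1) hmpos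
    have hd : a' / m ≤ a' := Nat.div_le_self a' m
    have hlt : a' / m < a' := Nat.div_lt_self (by omega) (by omega)
    have h2 : ¬ ((a' / m : ℕ) : ZMod M) = (a' : ZMod M) := by
      rw [es1f_cast_eq_iff ha hd]
      omega
    rw [if_neg h2, if_neg (es1f_cast_ne_neg ha hd1 hd), sub_zero]

/-- `Y_{M,a'} = q^{a'} (1 + …)` -/
theorem es1f_monicAt_eisY (h1 : 1 ≤ a') (ha : 2 * a' < M) :
    MonicAt (HahnSeries.ofPowerSeries ℤ ℤ (eisYZ M (a' : ZMod M))) a' := by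
  refine es1f_monicAt_ofPowerSeries ?_ fun k hk => ?_
  · rw [eisYZ, PowerSeries.coeff_mk]
    exact es1f_eisYCoeff_self h1 ha
  · rw [eisYZ, PowerSeries.coeff_mk]
    exact es1f_eisYCoeff_of_lt ha hk

/-- `Δ⁻¹ = q⁻¹ (1 + …)` -/
theorem es1f_monicAt_deltaInvZ : MonicAt Fermat.Agent.S28.deltaInvZ (-1) := by
  have h1 : MonicAt (HahnSeries.single (-1 : ℤ) (1 : ℤ) : LaurentSeries ℤ) (-1) :=
    ⟨HahnSeries.coeff_single_same _ _, fun k hk => HahnSeries.coeff_single_of_ne (ne_of_lt hk)⟩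
  have h2 : MonicAt (HahnSeries.ofPowerSeries ℤ ℤ dedekindEtaUnitInv) ((0 : ℕ) : ℤ) :=
    es1f_monicAt_ofPowerSeries (by
      rw [PowerSeries.coeff_zero_eq_constantCoeff_apply]
      exact constantCoeff_dedekindEtaUnitInv) (fun k hk => absurd hk (Nat.not_lt_zero k))
  have := h1.mul h2
  simpa [Fermat.Agent.S28.deltaInvZ] using this

/-- `G_{M,a'} = q^{4a'-1} (1 + …)` -/
theorem es1f_monicAt_gZ (h1 : 1 ≤ a') (ha : 2 * a' < M) :
    MonicAt (gZ M (a' : ZMod M)) (4 * (a' : ℤ) - 1) := by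
  have h := ((es1f_monicAt_eisY h1 ha).pow 4).mul es1f_monicAt_deltaInvZ
  rw [← map_pow] at h
  have e : ((4 : ℕ) : ℤ) * (a' : ℤ) + -1 = 4 * (a' : ℤ) - 1 := by push_cast; ring
  rw [e] at h
  exact h

end Eis

/-! ## The classes `± a H` and `cosetReps` -/

section Coset

variable {M : ℕ} {H : Subgroup (ZMod M)ˣ}

/-- `x ∈ ± a H` -/
def InPM (H : Subgroup (ZMod M)ˣ) (a : (ZMod M)ˣ) (x : ZMod M) : Prop :=
  ∃ h ∈ H, x = ((a * h : (ZMod M)ˣ) : ZMod M) ∨ x = -((a * h : (ZMod M)ˣ) : ZMod M)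

theorem es1f_mem_cosetReps {a : (ZMod M)ˣ} {a' : ℕ} :
    a' ∈ cosetReps M H a ↔ (1 ≤ a' ∧ a' ≤ M / 2) ∧ InPM H a (a' : ZMod M) := by
  classical
  unfold cosetReps
  simp only [Finset.mem_filter, Finset.mem_Icc]
  rfl

theorem InPM.self (a : (ZMod M)ˣ) : InPM H a (a : ZMod M) :=
  ⟨1, H.one_mem, Or.inl (by rw [mul_one])⟩

theorem InPM.neg {a : (ZMod M)ˣ} {x : ZMod M} (h : InPM H a x) : InPM H a (-x) := by
  obtain ⟨h₀, hh₀, hx | hx⟩ := h
  · exact ⟨h₀, hh₀, Or.inr (by rw [hx])⟩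
  · exact ⟨h₀, hh₀, Or.inl (by rw [hx, neg_neg])⟩

theorem InPM.isUnit {a : (ZMod M)ˣ} {x : ZMod M} (h : InPM H a x) : IsUnit x := by
  obtain ⟨h₀, -, hx | hx⟩ := h
  · rw [hx]; exact (a * h₀).isUnit
  · rw [hx]; exact (a * h₀).isUnit.neg

/-- transitivity: `b ∈ ± a H`, `x ∈ ± b H` ⇒ `x ∈ ± a H` -/
theorem InPM.trans {a b : (ZMod M)ˣ} {x : ZMod M} (hab : InPM H a (b : ZMod M))
    (hx : InPM H b x) : InPM H a x := by
  obtain ⟨h₁, hh₁, hb | hb⟩ := hab
  · obtain ⟨h₂, hh₂, hx | hx⟩ := hx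
    · exact ⟨h₁ * h₂, H.mul_mem hh₁ hh₂, Or.inl (by
        rw [hx, Units.val_mul, hb, Units.val_mul, Units.val_mul, Units.val_mul]; ring)⟩
    · exact ⟨h₁ * h₂, H.mul_mem hh₁ hh₂, Or.inr (by
        rw [hx, Units.val_mul, hb, Units.val_mul, Units.val_mul, Units.val_mul]; ring)⟩
  · obtain ⟨h₂, hh₂, hx | hx⟩ := hx
    · exact ⟨h₁ * h₂, H.mul_mem hh₁ hh₂, Or.inr (by
        rw [hx, Units.val_mul, hb, Units.val_mul, Units.val_mul, Units.val_mul]; ring)⟩
    · exact ⟨h₁ * h₂, H.mul_mem hh₁ hh₂, Or.inl (by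
        rw [hx, Units.val_mul, hb, Units.val_mul, Units.val_mul, Units.val_mul]; ring)⟩

/-- symmetry -/
theorem InPM.symm {a b : (ZMod M)ˣ} (hab : InPM H a (b : ZMod M)) : InPM H b (a : ZMod M) := by
  obtain ⟨h₁, hh₁, hb | hb⟩ := hab
  · refine ⟨h₁⁻¹, H.inv_mem hh₁, Or.inl ?_⟩
    rw [Units.val_mul, hb, Units.val_mul, mul_assoc, ← Units.val_mul, mul_inv_cancel,
      Units.val_one, mul_one]
  · refine ⟨h₁⁻¹, H.inv_mem hh₁, Or.inr ?_⟩
    rw [Units.val_mul, hb, Units.val_mul, neg_mul, neg_neg, mul_assoc, ← Units.val_mul,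
      mul_inv_cancel, Units.val_one, mul_one]

/-- two classes with a common element are equal -/
theorem InPM.of_common {a b : (ZMod M)ˣ} {x : ZMod M} (ha : InPM H a x) (hb : InPM H b x) :
    InPM H a (b : ZMod M) := by
  obtain ⟨h₂, hh₂, hx | hx⟩ := hb
  · -- `x = b h₂`, so `b = x h₂⁻¹`
    have hb' : (b : ZMod M) = x * ((h₂⁻¹ : (ZMod M)ˣ) : ZMod M) := by
      rw [hx, Units.val_mul, mul_assoc, ← Units.val_mul, mul_inv_cancel, Units.val_one, mul_one]
    obtain ⟨h₁, hh₁, hx' | hx'⟩ := ha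
    · exact ⟨h₁ * h₂⁻¹, H.mul_mem hh₁ (H.inv_mem hh₂), Or.inl (by
        rw [hb', hx', Units.val_mul, Units.val_mul, Units.val_mul]; ring)⟩
    · exact ⟨h₁ * h₂⁻¹, H.mul_mem hh₁ (H.inv_mem hh₂), Or.inr (by
        rw [hb', hx', Units.val_mul, Units.val_mul, Units.val_mul]; ring)⟩
  · have hb' : (b : ZMod M) = -(x * ((h₂⁻¹ : (ZMod M)ˣ) : ZMod M)) := by
      rw [hx, Units.val_mul, neg_mul, neg_neg, mul_assoc, ← Units.val_mul, mul_inv_cancel,
        Units.val_one, mul_one]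
    obtain ⟨h₁, hh₁, hx' | hx'⟩ := ha
    · exact ⟨h₁ * h₂⁻¹, H.mul_mem hh₁ (H.inv_mem hh₂), Or.inr (by
        rw [hb', hx', Units.val_mul, Units.val_mul, Units.val_mul]; ring)⟩
    · exact ⟨h₁ * h₂⁻¹, H.mul_mem hh₁ (H.inv_mem hh₂), Or.inl (by
        rw [hb', hx', Units.val_mul, Units.val_mul, Units.val_mul]; ring)⟩

/-- `cosetReps` only depends on the class `± a H` -/
theorem es1f_cosetReps_eq {a b : (ZMod M)ˣ} (hab : InPM H a (b : ZMod M)) :
    cosetReps M H b = cosetReps M H a := by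
  ext a'
  rw [es1f_mem_cosetReps, es1f_mem_cosetReps]
  exact ⟨fun h => ⟨h.1, hab.trans h.2⟩, fun h => ⟨h.1, hab.symm.trans h.2⟩⟩

/-- different classes have disjoint `cosetReps` -/
theorem es1f_inPM_of_mem {a b : (ZMod M)ˣ} {a' : ℕ} (ha : a' ∈ cosetReps M H a)
    (hb : a' ∈ cosetReps M H b) : InPM H a (b : ZMod M) :=
  (es1f_mem_cosetReps.mp ha).2.of_common (es1f_mem_cosetReps.mp hb).2

/-- the elements of `cosetReps` are `< M/2` (for `M ≥ 3`) -/
theorem es1f_two_mul_lt (hM : 3 ≤ M) {a : (ZMod M)ˣ} {a' : ℕ}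
    (ha : a' ∈ cosetReps M H a) : 1 ≤ a' ∧ 2 * a' < M := by
  obtain ⟨⟨h1, h2⟩, h3⟩ := es1f_mem_cosetReps.mp ha
  refine ⟨h1, ?_⟩
  have hcop : Nat.Coprime a' M := (ZMod.isUnit_iff_coprime a' M).mp h3.isUnit
  by_contra hlt
  have heq : 2 * a' = M := by omega
  have hdvd : a' ∣ M := ⟨2, by omega⟩
  have h4 : a' = 1 := Nat.Coprime.eq_one_of_dvd hcop hdvd
  omega

/-- `cosetReps` is not empty (for `M ≥ 3`) -/
theorem es1f_cosetReps_nonempty (hM : 3 ≤ M) (a : (ZMod M)ˣ) : (cosetReps M H a).Nonempty := by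
  haveI : NeZero M := ⟨by omega⟩
  haveI : Fact (1 < M) := ⟨by omega⟩
  have hx0 : (a : ZMod M).val ≠ 0 := by
    rw [Ne, ZMod.val_eq_zero]
    exact a.ne_zero
  have hxlt : (a : ZMod M).val < M := ZMod.val_lt _
  have hcast : (((a : ZMod M).val : ℕ) : ZMod M) = (a : ZMod M) := ZMod.natCast_zmod_val _
  by_cases hle : (a : ZMod M).val ≤ M / 2
  · refine ⟨(a : ZMod M).val, es1f_mem_cosetReps.mpr ⟨⟨by omega, hle⟩, ?_⟩⟩
    rw [hcast]
    exact InPM.self a
  · refine ⟨M - (a : ZMod M).val, es1f_mem_cosetReps.mpr ⟨⟨by omega, by omega⟩, ?_⟩⟩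
    have h1 : ((M - (a : ZMod M).val : ℕ) : ZMod M) = -(a : ZMod M) := by
      rw [Nat.cast_sub hxlt.le, hcast, ZMod.natCast_self, zero_sub]
    rw [h1]
    exact (InPM.self a).neg

end Coset

/-! ## The generators `S_{M,H,a}` -/

section Lead

variable (M : ℕ) (H : Subgroup (ZMod M)ˣ)

/-- the least element of `cosetReps M H a` (and `0` if there is none) -/
def es1fLead (a : (ZMod M)ˣ) : ℕ :=
  if h : (cosetReps M H a).Nonempty then (cosetReps M H a).min' h else 0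

variable {M H}

theorem es1f_lead_mem (hM : 3 ≤ M) (a : (ZMod M)ˣ) : es1fLead M H a ∈ cosetReps M H a := by
  rw [es1fLead, dif_pos (es1f_cosetReps_nonempty hM a)]
  exact Finset.min'_mem _ _

theorem es1f_lead_eq_of_inPM {a b : (ZMod M)ˣ} (hab : InPM H a (b : ZMod M)) :
    es1fLead M H b = es1fLead M H a := by
  unfold es1fLead
  simp only [es1f_cosetReps_eq hab]

theorem es1f_lead_eq_iff (hM : 3 ≤ M) {a b : (ZMod M)ˣ} :
    es1fLead M H a = es1fLead M H b ↔ InPM H a (b : ZMod M) := by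
  constructor
  · intro h
    have ha := es1f_lead_mem (H := H) hM a
    have hb := es1f_lead_mem (H := H) hM b
    rw [← h] at hb
    exact es1f_inPM_of_mem ha hb
  · intro h
    exact (es1f_lead_eq_of_inPM h).symm

/-- `S_{M,H,a} = q^{4·lead-1} (1 + …)` over `ℤ` -/
theorem es1f_monicAt_sZ (hM : 3 ≤ M) (a : (ZMod M)ˣ) :
    MonicAt (sZ M H a) (4 * (es1fLead M H a : ℤ) - 1) := by
  have hne := es1f_cosetReps_nonempty (H := H) hM a
  have h := es1f_monicAt_sum (cosetReps M H a) hne (fun a' : ℕ => gZ M (a' : ZMod M))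
    (fun a' : ℕ => 4 * (a' : ℤ) - 1) (fun i _ j _ hij => by
      have : (i : ℤ) < j := by exact_mod_cast hij
      linarith)
    (fun i hi => by
      obtain ⟨h1, h2⟩ := es1f_two_mul_lt hM hi
      exact es1f_monicAt_gZ h1 h2)
  rw [es1fLead, dif_pos hne]
  exact h

variable (R : Type*) [CommRing R]

/-- `S_{M,H,a} = q^{4·lead-1} (1 + …)` over every commutative ring -/
theorem es1f_monicAt_sS (hM : 3 ≤ M) (a : (ZMod M)ˣ) :
    MonicAt (sS R M H a) (4 * (es1fLead M H a : ℤ) - 1) :=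
  (es1f_monicAt_sZ hM a).coeffMap _

theorem es1f_sS_ne_zero [Nontrivial R] (hM : 3 ≤ M) (a : (ZMod M)ˣ) : sS R M H a ≠ 0 :=
  (es1f_monicAt_sS R hM a).ne_zero

theorem es1f_order_sS [Nontrivial R] (hM : 3 ≤ M) (a : (ZMod M)ˣ) :
    (sS R M H a).order = 4 * (es1fLead M H a : ℤ) - 1 :=
  (es1f_monicAt_sS R hM a).order_eq

theorem es1f_sS_eq_of_inPM {a b : (ZMod M)ˣ} (hab : InPM H a (b : ZMod M)) :
    sS R M H b = sS R M H a := by
  unfold sS sZ
  rw [es1f_cosetReps_eq hab]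

/-- the `S_{M,H,a}` of different classes are different: their difference is `± q^n (1 + …)` -/
theorem es1f_sS_sub (hM : 3 ≤ M) {a b : (ZMod M)ˣ} (hab : ¬ InPM H a (b : ZMod M)) :
    ∃ n : ℤ, MonicAt (sS R M H a - sS R M H b) n ∨ MonicAt (sS R M H b - sS R M H a) n := by
  have hne : es1fLead M H a ≠ es1fLead M H b := fun h => hab ((es1f_lead_eq_iff hM).mp h)
  have ha := es1f_monicAt_sS R (H := H) hM a
  have hb := es1f_monicAt_sS R (H := H) hM b
  rcases lt_or_gt_of_ne hne with hlt | hlt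
  · refine ⟨4 * (es1fLead M H a : ℤ) - 1, Or.inl ?_⟩
    rw [sub_eq_add_neg]
    refine ha.add fun k hk => ?_
    rw [HahnSeries.coeff_neg, hb.2 k (by
      have : (es1fLead M H a : ℤ) < es1fLead M H b := by exact_mod_cast hlt
      linarith), neg_zero]
  · refine ⟨4 * (es1fLead M H b : ℤ) - 1, Or.inr ?_⟩
    rw [sub_eq_add_neg]
    refine hb.add fun k hk => ?_
    rw [HahnSeries.coeff_neg, ha.2 k (by
      have : (es1fLead M H b : ℤ) < es1fLead M H a := by exact_mod_cast hlt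
      linarith), neg_zero]

theorem es1f_sS_ne [Nontrivial R] (hM : 3 ≤ M) {a b : (ZMod M)ˣ}
    (hab : ¬ InPM H a (b : ZMod M)) : sS R M H a ≠ sS R M H b := by
  intro h
  obtain ⟨n, hn | hn⟩ := es1f_sS_sub R hM hab
  · rw [h, sub_self] at hn
    exact hn.ne_zero rfl
  · rw [h, sub_self] at hn
    exact hn.ne_zero rfl

theorem es1f_sS_eq_iff [Nontrivial R] (hM : 3 ≤ M) {a b : (ZMod M)ˣ} :
    sS R M H a = sS R M H b ↔ InPM H a (b : ZMod M) :=
  ⟨fun h => by_contra fun hab => es1f_sS_ne R hM hab h, fun h => (es1f_sS_eq_of_inPM R h).symm⟩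

end Lead

/-! ## Base change -/

section BaseChange

variable {R S : Type*} [CommRing R] [CommRing S]

theorem es1f_coeffMap_sS (f : R →+* S) (M : ℕ) (H : Subgroup (ZMod M)ˣ) (a : (ZMod M)ˣ) :
    coeffMap f (sS R M H a) = sS S M H a := by
  unfold sS
  rw [coeffMap_coeffMap]
  exact coeffMap_congr (RingHom.ext_int _ _) _

theorem es1f_coeffMap_qExpand_sS (f : R →+* S) (M : ℕ) (H : Subgroup (ZMod M)ˣ)
    (a : (ZMod M)ˣ) (e : ℕ) [NeZero e] :
    coeffMap f (qExpand R e (sS R M H a)) = qExpand S e (sS S M H a) := by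
  rw [coeffMap_qExpand, es1f_coeffMap_sS]

variable {K K' : Type*} [Field K] [Field K']

/-- `coeffMap f` maps the field of `X_H(L; M)` over `K` into the one over `K'`. -/
theorem es1f_coeffMap_mem_fieldC (f : K →+* K') (L M : ℕ) (H : Subgroup (ZMod M)ˣ)
    {x : LaurentSeries K} (hx : x ∈ fieldC K L M H) : coeffMap f x ∈ fieldC K' L M H := by
  have hx' : x ∈ Subfield.closure
      (Set.range (algebraMap K (LaurentSeries K)) ∪
        (divisorExpansionsC K L ∪ diamondExpansionsC K L M H)) := hx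
  clear hx
  induction hx' using Subfield.closure_induction with
  | mem y hy =>
      rcases hy with ⟨c, rfl⟩ | ⟨d, hd, hdN, rfl⟩ | ⟨e, he, a, heL, rfl⟩
      · rw [Fermat.Agent.INJ.nf_coeffMap_algebraMap]
        exact (fieldC K' L M H).algebraMap_mem _
      · have : coeffMap f (qExpand K d (jqModC K)) = qExpand K' d (jqModC K') :=
          coeffMap_jqNModC f d
        rw [this]
        exact jd_mem_fieldC K' L M H hdN
      · rw [es1f_coeffMap_qExpand_sS]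
        exact qExpand_sS_mem K' L M H heL a
  | one => simp
  | add x y _ _ hx hy => simpa using add_mem hx hy
  | neg x _ hx => simpa using neg_mem hx
  | inv x _ hx => simpa using inv_mem hx
  | mul x y _ _ hx hy => simpa using mul_mem hx hy

/-- the two descriptions of the field over `ℚ̄` -/
theorem es1f_fieldBar_eq (L M : ℕ) (H : Subgroup (ZMod M)ˣ) :
    fieldBar L M H = fieldC (AlgebraicClosure ℚ) L M H := by
  apply le_antisymm
  · show laurentBaseChange (AlgebraicClosure ℚ) (fieldQ L M H) ≤ _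
    rw [laurentBaseChange, IntermediateField.adjoin_le_iff]
    rintro _ ⟨x, hx, rfl⟩
    exact es1f_coeffMap_mem_fieldC (algebraMap ℚ (AlgebraicClosure ℚ)) L M H hx
  · rw [fieldC, IntermediateField.adjoin_le_iff]
    rintro _ (⟨d, hd, hdN, rfl⟩ | ⟨e, he, a, heL, rfl⟩)
    · have h1 : qExpand (AlgebraicClosure ℚ) d (jqModC (AlgebraicClosure ℚ)) =
          coeffEmb (AlgebraicClosure ℚ) (qExpand ℚ d (jqModC ℚ)) :=
        (coeffMap_jqNModC (algebraMap ℚ (AlgebraicClosure ℚ)) d).symm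
      rw [h1]
      exact coeffEmb_mem_laurentBaseChange _ (jd_mem_fieldC ℚ L M H hdN)
    · have h1 : qExpand (AlgebraicClosure ℚ) e (sS (AlgebraicClosure ℚ) M H a) =
          coeffEmb (AlgebraicClosure ℚ) (qExpand ℚ e (sS ℚ M H a)) :=
        (es1f_coeffMap_qExpand_sS (algebraMap ℚ (AlgebraicClosure ℚ)) M H a e).symm
      rw [h1]
      exact coeffEmb_mem_laurentBaseChange _ (qExpand_sS_mem ℚ L M H heL a)

end BaseChange

end Fermat.Agent.ES1

end
end ZBES1_002_4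

/-! ### bundled: `Fermat.Agent.ES1.InjPlan` -/
section ZBES1_002_5

/-!
# ES₁ / INJ₁ — interface (statements only; captain helper36)

* `ConjFamily r F₀ F S` : `F = F₀(S 0) ⊂ E((q))`, the `S i ∈ A₀((q))` are the conjugates of `S 0`
  over `F₀` (automorphisms of `F / F₀`), with pairwise different reductions modulo `π`.
  (For `F₀ = modularFunctionFieldFullC E L`, `F = fieldC E L M H`, `S i = S_{M,H,aᵢ}`:
  `mem` by definition, `gen`, `aut`, `poly` from piece F3, `red_ne` from piece F1.)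
* `StmtKDLift` (piece INJ₁-KD, helper98): Gauss key data for `F₀` + a conjugate family + the
  hypotheses of the tame specialization theorem for `F` ⇒ Gauss key data for `F`
  ("Igusa for `Γ_H`" with no new modular input).
* `StmtINJH L M H ℓ p`, `StmtINJHAll` : (INJ) for `fieldBar L M H` (the goal of INJ₁).
* `StmtInjNFH` : its number-field form (fork of `INJ.StmtInjNF`).
-/

set_option autoImplicit false

namespace Fermat.Agent.ES1

open Polynomial ModularCurve IntermediateField AlgebraicCurve Fermat.Agent.INJ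

/-- A family of conjugate generators of `F / F₀` with Gauss-distinct reductions. -/
structure ConjFamily {A₀ E k : Type} [CommRing A₀] [Field E] [Algebra A₀ E] [Field k]
    (r : A₀ →+* k) (F₀ F : IntermediateField E (LaurentSeries E)) {m : ℕ}
    (S : Fin (m + 1) → LaurentSeries A₀) : Prop where
  /-- `F₀ ⊆ F` -/
  le : F₀ ≤ F
  /-- the conjugates lie in `F` -/
  mem : ∀ i, coeffMap (algebraMap A₀ E) (S i) ∈ F
  /-- `F = F₀(S 0)` -/
  gen : F ≤ IntermediateField.adjoin E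
    ((F₀ : Set (LaurentSeries E)) ∪ {coeffMap (algebraMap A₀ E) (S 0)})
  /-- `S 0` is a root of a monic polynomial of degree `m + 1` over `F₀` -/
  poly : ∃ P : Polynomial F₀, P.Monic ∧ P.natDegree = m + 1 ∧
    Polynomial.eval₂ F₀.val.toRingHom (coeffMap (algebraMap A₀ E) (S 0)) P = 0
  /-- the `S i` are conjugate to `S 0` by automorphisms of `F` over `F₀` -/
  aut : ∀ i, ∃ σ : F ≃ₐ[E] F, (∀ f : F, (f : LaurentSeries E) ∈ F₀ → σ f = f) ∧
    ((σ ⟨coeffMap (algebraMap A₀ E) (S 0), mem 0⟩ : F) : LaurentSeries E)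
      = coeffMap (algebraMap A₀ E) (S i)
  /-- the reductions are pairwise different -/
  red_ne : ∀ i j, i ≠ j → coeffMap r (S i) ≠ coeffMap r (S j)

/-- **(INJ₁-KD)** Gauss key data for `F = F₀(S)` from Gauss key data for `F₀`, a conjugate
family and the hypotheses of the tame specialization theorem for `F`. -/
def StmtKDLift : Prop :=
  ∀ {A₀ E k : Type} [CommRing A₀] [IsDomain A₀] [IsDiscreteValuationRing A₀]
    [Field E] [Algebra A₀ E] [IsFractionRing A₀ E] [CharZero E]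
    [Field k] (r : A₀ →+* k) (F₀ F : IntermediateField E (LaurentSeries E))
    {π : A₀} (_ : Irreducible π) (_ : r π = 0) (_ : ∀ a, r a = 0 → π ∣ a)
    {t₀ : LaurentSeries A₀} {n : ℕ} {x : Fin n → LaurentSeries A₀}
    (kd : GaussKD r F₀ t₀ x)
    (_ : (coeffMap (algebraMap A₀ E) t₀).order = -1)
    {m : ℕ} (S : Fin (m + 1) → LaurentSeries A₀) (hS : ConjFamily r F₀ F S)
    (_ : ∀ [Algebra A₀ F₀] [IsScalarTower A₀ E F₀],
      TSGoodBasis (A₀ := A₀) (E := E) (Lf := F₀) π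
        ⟨coeffMap (algebraMap A₀ E) t₀, kd.t_mem⟩)
    (_ : FiniteDimensional
      E⟮(⟨coeffMap (algebraMap A₀ E) t₀, hS.le kd.t_mem⟩ : F)⟯ F)
    (Sg : Finset A₀) (_ : ∀ c ∈ Sg, ∀ c' ∈ Sg, c ≠ c' → ¬ π ∣ c - c')
    (e : ℕ) (_ : IsUnit (e : A₀)) (_ : ∃ ζ : A₀, IsPrimitiveRoot ζ e)
    (_ : ∀ [Algebra A₀ F] [IsScalarTower A₀ E F],
      TSUnramified (A₀ := A₀) (E := E) (Lf := F)
        ⟨coeffMap (algebraMap A₀ E) t₀, hS.le kd.t_mem⟩ Sg ∧
      TSTame (A₀ := A₀) (E := E) (Lf := F)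
        ⟨coeffMap (algebraMap A₀ E) t₀, hS.le kd.t_mem⟩ Sg e),
    ∃ (n' : ℕ) (x' : Fin n' → LaurentSeries A₀), GaussKD r F t₀ x'

/-- **(INJ₁)** at level `(L; M, H)`, residue characteristic `ℓ`, exponent `p`
(= `INJ.StmtINJ` with `fieldBar L M H` in place of `modularFunctionFieldBar N`). -/
def StmtINJH (L M : ℕ) (H : Subgroup (ZMod M)ˣ) (ℓ p : ℕ) : Prop :=
  ∀ A : ValuationSubring (AlgebraicClosure ℚ), A.LiesOverPrime ℓ →
    ∀ (Y₁ Y₂ : LaurentSeries A)
      (h₁ : coeffMap A.subtype Y₁ ∈ fieldBar L M H)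
      (h₂ : coeffMap A.subtype Y₂ ∈ fieldBar L M H),
      coeffMap (IsLocalRing.residue A) Y₁ = coeffMap (IsLocalRing.residue A) Y₂ →
      coeffMap (IsLocalRing.residue A) Y₂ ≠ 0 →
      (∀ P : Place (AlgebraicClosure ℚ) (fieldBar L M H),
        (p : ℤ) ∣ P.ord (⟨coeffMap A.subtype Y₁, h₁⟩ : fieldBar L M H)
          - P.ord (⟨coeffMap A.subtype Y₂, h₂⟩ : fieldBar L M H)) →
      ∃ h : fieldBar L M H,
        h ^ p * (⟨coeffMap A.subtype Y₂, h₂⟩ : fieldBar L M H)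
          = ⟨coeffMap A.subtype Y₁, h₁⟩

/-- The goal of INJ₁. -/
def StmtINJHAll : Prop :=
  ∀ (L M : ℕ) (H : Subgroup (ZMod M)ˣ) (ℓ p : ℕ), L ≠ 0 → M ∣ L → ℓ.Prime → p.Prime →
    ¬ ℓ ∣ L → ℓ ≠ p → StmtINJH L M H ℓ p

/-- **(INJ₁), number-field form** (fork of `INJ.StmtInjNF`). -/
def StmtInjNFH (L M : ℕ) (H : Subgroup (ZMod M)ˣ) (ℓ p : ℕ) : Prop :=
  ∀ A : ValuationSubring NfQb, A.LiesOverPrime ℓ →
  ∀ K₀ : IntermediateField ℚ NfQb, FiniteDimensional ℚ K₀ →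
    (∃ ζ : K₀, IsPrimitiveRoot ζ p) → (∃ ζ : K₀, IsPrimitiveRoot ζ (6 * L)) →
    ∀ (Y₁ Y₂ : LaurentSeries (nfSub A K₀)) (h : LaurentSeries K₀)
      (h₁ : coeffMap (algebraMap (nfSub A K₀) K₀) Y₁ ∈ fieldC K₀ L M H)
      (h₂ : coeffMap (algebraMap (nfSub A K₀) K₀) Y₂ ∈ fieldC K₀ L M H),
      coeffMap (nfRes A K₀) Y₁ = coeffMap (nfRes A K₀) Y₂ →
      coeffMap (nfRes A K₀) Y₂ ≠ 0 →
      h ^ p * coeffMap (algebraMap (nfSub A K₀) K₀) Y₂
        = coeffMap (algebraMap (nfSub A K₀) K₀) Y₁ →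
      (∀ Q : Place K₀ (fieldC K₀ L M H),
        (p : ℤ) ∣ Q.ord (⟨_, h₁⟩ : fieldC K₀ L M H)
          - Q.ord (⟨_, h₂⟩ : fieldC K₀ L M H)) →
      h ∈ fieldC K₀ L M H

end Fermat.Agent.ES1


end ZBES1_002_5

/-! ### bundled: `Fermat.Agent.ES1.HMaps` -/
section ZBES1_002_6

/-!
# ES₁, piece (H), part 1: the degeneracy maps `α`, `β : fieldBar L M H → fieldBar (L ℓ) M H`

* `es1h_qExpand_mem_fieldC` : `q ↦ q^ℓ` maps `fieldC K L M H` into `fieldC K (L ℓ) M H`;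
* `es1hAlphaC`, `es1hBetaC` : the two degeneracy maps over any field `K` (inclusion, `qExpand ℓ`);
* `es1hAlpha`, `es1hBeta` : the same on the prelude's base change form `fieldBar` (over `ℚ̄`),
  the function field of `JH L M H`.
-/

set_option autoImplicit false

noncomputable section

open HahnSeries ModularCurve AlgebraicCurve IntermediateField

namespace Fermat.Agent.ES1

section Generic

variable (Lf : Type*) [Field Lf] [Algebra ℚ Lf]

/-- `laurentBaseChange` is monotone (public copy of the prelude's private lemma). -/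
theorem es1h_laurentBaseChange_mono {F₀ F₁ : IntermediateField ℚ (LaurentSeries ℚ)}
    (h : F₀ ≤ F₁) : laurentBaseChange Lf F₀ ≤ laurentBaseChange Lf F₁ := by
  rw [laurentBaseChange, IntermediateField.adjoin_le_iff]
  rintro _ ⟨y, hy, rfl⟩
  exact coeffEmb_mem_laurentBaseChange Lf (h hy)

variable {Lf}

/-- `q ↦ q^n` on base changes (public copy of the prelude's private lemma). -/
theorem es1h_qExpand_mem_laurentBaseChange {F₀ : IntermediateField ℚ (LaurentSeries ℚ)} (n : ℕ)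
    [NeZero n] {F₁ : IntermediateField ℚ (LaurentSeries ℚ)} (hF : ∀ y ∈ F₀, qExpand ℚ n y ∈ F₁)
    {x : LaurentSeries Lf} (hx : x ∈ laurentBaseChange Lf F₀) :
    qExpand Lf n x ∈ laurentBaseChange Lf F₁ := by
  rw [mem_laurentBaseChange_iff] at hx
  induction hx using Subfield.closure_induction with
  | mem y hy =>
      rcases hy with ⟨a, rfl⟩ | ⟨z, hz, rfl⟩
      · rw [algebraMap_laurentSeries_eq_single, qExpand_single, mul_zero,
          ← algebraMap_laurentSeries_eq_single]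
        exact (laurentBaseChange Lf F₁).algebraMap_mem _
      · have h1 : qExpand Lf n (coeffEmb Lf z) = coeffEmb Lf (qExpand ℚ n z) :=
          (coeffMap_qExpand (algebraMap ℚ Lf) n z).symm
        rw [h1]
        exact coeffEmb_mem_laurentBaseChange Lf (hF z hz)
  | one => simp
  | add x y _ _ hx hy => simpa using add_mem hx hy
  | neg x _ hx => simpa using neg_mem hx
  | inv x _ hx => simpa using inv_mem hx
  | mul x y _ _ hx hy => simpa using mul_mem hx hy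

end Generic

section FieldC

variable (K : Type*) [Field K] (L M : ℕ) (H : Subgroup (ZMod M)ˣ) (ℓ : ℕ) [NeZero ℓ]

/-- `q ↦ q^ℓ` maps the function field of level `L` into the one of level `L ℓ`. -/
theorem es1h_qExpand_mem_fieldC {y : LaurentSeries K} (hy : y ∈ fieldC K L M H) :
    qExpand K ℓ y ∈ fieldC K (L * ℓ) M H := by
  have hy' : y ∈ Subfield.closure
      (Set.range (algebraMap K (LaurentSeries K)) ∪
        (divisorExpansionsC K L ∪ diamondExpansionsC K L M H)) := hy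
  clear hy
  induction hy' using Subfield.closure_induction with
  | mem y hy =>
      rcases hy with ⟨c, rfl⟩ | ⟨d, hd, hdN, rfl⟩ | ⟨e, he, a, heL, rfl⟩
      · rw [algebraMap_laurentSeries_eq_single, qExpand_single, mul_zero,
          ← algebraMap_laurentSeries_eq_single]
        exact (fieldC K (L * ℓ) M H).algebraMap_mem _
      · have : NeZero (ℓ * d) := ⟨Nat.mul_ne_zero (NeZero.ne ℓ) (NeZero.ne d)⟩
        rw [qExpand_qExpand]
        exact jd_mem_fieldC K (L * ℓ) M H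
          ((mul_dvd_mul_left ℓ hdN).trans (dvd_of_eq (mul_comm ℓ L)))
      · have : NeZero (ℓ * e) := ⟨Nat.mul_ne_zero (NeZero.ne ℓ) (NeZero.ne e)⟩
        rw [qExpand_qExpand]
        refine qExpand_sS_mem K (L * ℓ) M H ?_ a
        rw [mul_assoc]
        exact (mul_dvd_mul_left ℓ heL).trans (dvd_of_eq (mul_comm ℓ L))
  | one => simp
  | add x y _ _ hx hy => simpa using add_mem hx hy
  | neg x _ hx => simpa using neg_mem hx
  | inv x _ hx => simpa using inv_mem hx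
  | mul x y _ _ hx hy => simpa using mul_mem hx hy

/-- the degeneracy map `α` (inclusion) over `K` -/
def es1hAlphaC : fieldC K L M H →ₐ[K] fieldC K (L * ℓ) M H :=
  IntermediateField.inclusion (fieldC_mono K M H (dvd_mul_right L ℓ))

omit [NeZero ℓ] in
@[simp]
theorem coe_es1hAlphaC (x : fieldC K L M H) :
    (es1hAlphaC K L M H ℓ x : LaurentSeries K) = (x : LaurentSeries K) :=
  IntermediateField.coe_inclusion _ x

/-- the degeneracy map `β` (`q ↦ q^ℓ`) over `K`, as a ring homomorphism -/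
def es1hBetaCRingHom : fieldC K L M H →+* fieldC K (L * ℓ) M H where
  toFun x := ⟨qExpand K ℓ (x : LaurentSeries K), es1h_qExpand_mem_fieldC K L M H ℓ x.2⟩
  map_one' := Subtype.ext (map_one (qExpand K ℓ))
  map_mul' _ _ := Subtype.ext (map_mul (qExpand K ℓ) _ _)
  map_zero' := Subtype.ext (map_zero (qExpand K ℓ))
  map_add' _ _ := Subtype.ext (map_add (qExpand K ℓ) _ _)

/-- the degeneracy map `β` (`q ↦ q^ℓ`) over `K` -/
def es1hBetaC : fieldC K L M H →ₐ[K] fieldC K (L * ℓ) M H :=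
  { es1hBetaCRingHom K L M H ℓ with
    commutes' := fun a => Subtype.ext <| by
      show qExpand K ℓ (algebraMap K (LaurentSeries K) a) = algebraMap K (LaurentSeries K) a
      rw [algebraMap_laurentSeries_eq_single, qExpand_single, mul_zero] }

@[simp]
theorem coe_es1hBetaC (x : fieldC K L M H) :
    (es1hBetaC K L M H ℓ x : LaurentSeries K) = qExpand K ℓ (x : LaurentSeries K) :=
  rfl

end FieldC

section Bar

variable (L M : ℕ) (H : Subgroup (ZMod M)ˣ) (ℓ : ℕ) [NeZero ℓ]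

omit [NeZero ℓ] in
theorem es1h_fieldBar_mono {L L' : ℕ} (h : L ∣ L') : fieldBar L M H ≤ fieldBar L' M H :=
  es1h_laurentBaseChange_mono _ (fieldC_mono ℚ M H h)

/-- **the degeneracy map `α`** (inclusion) `fieldBar L M H → fieldBar (L ℓ) M H` -/
def es1hAlpha : fieldBar L M H →ₐ[AlgebraicClosure ℚ] fieldBar (L * ℓ) M H :=
  IntermediateField.inclusion (es1h_fieldBar_mono M H (dvd_mul_right L ℓ))

omit [NeZero ℓ] in
@[simp]
theorem coe_es1hAlpha (x : fieldBar L M H) :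
    (es1hAlpha L M H ℓ x : LaurentSeries (AlgebraicClosure ℚ)) = x :=
  IntermediateField.coe_inclusion _ x

/-- the degeneracy map `β` as a ring homomorphism -/
def es1hBetaRingHom : fieldBar L M H →+* fieldBar (L * ℓ) M H where
  toFun x := ⟨qExpand (AlgebraicClosure ℚ) ℓ (x : LaurentSeries (AlgebraicClosure ℚ)),
    es1h_qExpand_mem_laurentBaseChange ℓ
      (fun _ hy => es1h_qExpand_mem_fieldC ℚ L M H ℓ hy) x.2⟩
  map_one' := Subtype.ext (map_one (qExpand (AlgebraicClosure ℚ) ℓ))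
  map_mul' _ _ := Subtype.ext (map_mul (qExpand (AlgebraicClosure ℚ) ℓ) _ _)
  map_zero' := Subtype.ext (map_zero (qExpand (AlgebraicClosure ℚ) ℓ))
  map_add' _ _ := Subtype.ext (map_add (qExpand (AlgebraicClosure ℚ) ℓ) _ _)

/-- **the degeneracy map `β`** (`q ↦ q^ℓ`) `fieldBar L M H → fieldBar (L ℓ) M H` -/
def es1hBeta : fieldBar L M H →ₐ[AlgebraicClosure ℚ] fieldBar (L * ℓ) M H :=
  { es1hBetaRingHom L M H ℓ with
    commutes' := fun a => Subtype.ext <| by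
      show qExpand (AlgebraicClosure ℚ) ℓ (algebraMap (AlgebraicClosure ℚ)
        (LaurentSeries (AlgebraicClosure ℚ)) a) = algebraMap (AlgebraicClosure ℚ)
        (LaurentSeries (AlgebraicClosure ℚ)) a
      rw [algebraMap_laurentSeries_eq_single, qExpand_single, mul_zero] }

@[simp]
theorem coe_es1hBeta (x : fieldBar L M H) :
    (es1hBeta L M H ℓ x : LaurentSeries (AlgebraicClosure ℚ)) =
      qExpand (AlgebraicClosure ℚ) ℓ (x : LaurentSeries (AlgebraicClosure ℚ)) :=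
  rfl

/-- `j(q) ∈ fieldBar L M H` -/
theorem es1h_jBar_mem : Fermat.Agent.S24.jBar ∈ fieldBar L M H := by
  refine coeffEmb_mem_laurentBaseChange _ ?_
  have h := jd_mem_fieldC ℚ L M H (one_dvd L)
  rwa [qExpand_one_apply] at h

/-- `j` as an element of `fieldBar L M H` -/
def es1hJ : fieldBar L M H := ⟨Fermat.Agent.S24.jBar, es1h_jBar_mem L M H⟩

@[simp]
theorem coe_es1hJ : ((es1hJ L M H : fieldBar L M H) : LaurentSeries (AlgebraicClosure ℚ)) =
    Fermat.Agent.S24.jBar := rfl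

end Bar

end Fermat.Agent.ES1

end
end ZBES1_002_6

/-! ### bundled: `Fermat.Agent.ES1.ConjPlan` -/
section ZBES1_002_7

/-!
# ES₁ / F3-conj — interface: the diamond automorphisms of `fieldC K L M H` over the `Γ₀(L)`-field

Characteristic `0`, `K` algebraic over `ℚ` (so `K` embeds into `ℂ`).  `M ∣ L`, `H ≤ (ℤ/M)ˣ`.

* `IsRepFam H a` : `a : Fin (m + 1) → (ℤ/M)ˣ` is a system of representatives of
  `(ℤ/M)ˣ / ±H`, with `a 0 = 1`.
* `StmtDiamondH` (**piece F3-conj**): for such `K`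
  * `gen`  : `fieldC K L M H = F₀(S_{M,H,1})`, `F₀ = modularFunctionFieldFullC K L`;
  * `poly` : `S_{M,H,1}` is a root of a monic polynomial of degree `m + 1` over `F₀`
             (`∏ᵢ (X − S_{M,H,aᵢ})`, whose coefficients are `Γ₀(L)`-invariant);
  * `aut`  : for every `c ∈ (ℤ/M)ˣ` there is an automorphism `δ_c` of `fieldC K L M H` over `F₀`
             with `δ_c (S_{M,H,b}(q^e)) = S_{M,H,bc}(q^e)` for all `b` and all `e` with `e·M ∣ L`.
  Proof (owner: see `NOTES/ES1-plan.md`): over `ℂ`, `S_{M,H,b}(eτ)` is a modular function for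
  `Γ = Γ_H(M) ∩ Γ₀(L)` (F2: `f2Ga_smul`, `laurentOf_f2Ga`), `Γ₀(L)` permutes the `S_{M,H,aᵢ}`
  (pairwise different: F1), Lagrange (`es1rc_tower`) + `rc_laurentOf_mem_full` (RC for `Γ₀(L)`),
  then descent `ℂ → K` (`ES/DescentInj.lean`: `mem_laurentBaseChange_of_coeffMap_mem`).
  Consequences (captain): the `ConjFamily` instances for INJ₁ and `StmtRelDegH`
  (`ES1/DescentLevelH.lean`): `[fieldBar L M H : modularFunctionFieldBar L] = m + 1` for all `L`.
-/

set_option autoImplicit false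

noncomputable section

namespace Fermat.Agent.ES1

open Polynomial ModularCurve IntermediateField AlgebraicCurve

/-- a system of representatives of `(ℤ/M)ˣ / ±H`, starting with `1` -/
structure IsRepFam {M : ℕ} (H : Subgroup (ZMod M)ˣ) {m : ℕ} (a : Fin (m + 1) → (ZMod M)ˣ) :
    Prop where
  zero : a 0 = 1
  inj : ∀ i j, InPM H (a i) ((a j : (ZMod M)ˣ) : ZMod M) → i = j
  surj : ∀ c : (ZMod M)ˣ, ∃ i, InPM H (a i) (c : ZMod M)

/-- **(F3-conj)** generation by `S_{M,H,1}`, its polynomial over the `Γ₀(L)`-field, and the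
diamond automorphisms, over a field `K` of characteristic `0` algebraic over `ℚ`. -/
def StmtDiamondH : Prop :=
  ∀ (K : Type) [Field K] [CharZero K] [Algebra.IsAlgebraic ℚ K] (L M : ℕ)
    (H : Subgroup (ZMod M)ˣ) {m : ℕ} (a : Fin (m + 1) → (ZMod M)ˣ),
    L ≠ 0 → M ∣ L → IsRepFam H a →
    (fieldC K L M H ≤ IntermediateField.adjoin K
      ((modularFunctionFieldFullC K L : Set (LaurentSeries K)) ∪ {sS K M H 1})) ∧
    (∃ P : Polynomial (modularFunctionFieldFullC K L), P.Monic ∧ P.natDegree = m + 1 ∧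
      Polynomial.eval₂ (modularFunctionFieldFullC K L).val.toRingHom (sS K M H 1) P = 0) ∧
    (∀ c : (ZMod M)ˣ, ∃ σ : fieldC K L M H ≃ₐ[K] fieldC K L M H,
      (∀ f : fieldC K L M H, (f : LaurentSeries K) ∈ modularFunctionFieldFullC K L → σ f = f) ∧
      ∀ (e : ℕ) [NeZero e] (he : e * M ∣ L) (b : (ZMod M)ˣ),
        ((σ ⟨qExpand K e (sS K M H b), qExpand_sS_mem K L M H he b⟩ : fieldC K L M H) :
          LaurentSeries K) = qExpand K e (sS K M H (b * c)))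

end Fermat.Agent.ES1

end
end ZBES1_002_7

/-! ### bundled: `Fermat.Agent.ES1.ConjUse` -/
section ZBES1_002_8

/-!
# ES₁ / F3-conj — consequences of `StmtDiamondH` (captain helper36)

* `es1cu_sS_injective` : `i ↦ S_{M,H,aᵢ}` is injective for a system of representatives.
* `conjFamily_of_diamond` : the `ConjFamily` instance consumed by INJ₁ (`StmtKDLift`).
* `es1cu_relfinrank` : `[fieldC K L M H : modularFunctionFieldFullC K L] = m + 1`.
-/

set_option autoImplicit false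

noncomputable section

namespace Fermat.Agent.ES1

open Polynomial ModularCurve IntermediateField AlgebraicCurve

section Rep

variable {M : ℕ} {H : Subgroup (ZMod M)ˣ} {m : ℕ} {a : Fin (m + 1) → (ZMod M)ˣ}

theorem es1cu_units_subsingleton (hM0 : M ≠ 0) (hM : ¬ 3 ≤ M) : Subsingleton (ZMod M)ˣ := by
  have h : M = 1 ∨ M = 2 := by omega
  rcases h with rfl | rfl
  · infer_instance
  · infer_instance

/-- the `S_{M,H,aᵢ}` are pairwise different, over every nontrivial ring -/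
theorem es1cu_sS_injective (R : Type*) [CommRing R] [Nontrivial R] (hM0 : M ≠ 0)
    (ha : IsRepFam H a) : Function.Injective fun i => sS R M H (a i) := by
  intro i j hij
  by_cases hM : 3 ≤ M
  · exact ha.inj i j ((es1f_sS_eq_iff R hM).mp hij)
  · have := es1cu_units_subsingleton hM0 hM
    refine ha.inj i j ?_
    rw [Subsingleton.elim (a j) (a i)]
    exact InPM.self _

end Rep

/-- **The conjugate family of INJ₁.** -/
theorem conjFamily_of_diamond (hD : StmtDiamondH)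
    {A₀ E k : Type} [CommRing A₀] [Field E] [Algebra A₀ E] [CharZero E]
    [Algebra.IsAlgebraic ℚ E] [Field k] (r : A₀ →+* k) (L M : ℕ) (H : Subgroup (ZMod M)ˣ)
    {m : ℕ} (a : Fin (m + 1) → (ZMod M)ˣ) (hL : L ≠ 0) (hML : M ∣ L) (ha : IsRepFam H a) :
    ConjFamily r (modularFunctionFieldFullC E L) (fieldC E L M H)
      (fun i => sS A₀ M H (a i)) := by
  obtain ⟨hgen, hpoly, haut⟩ := hD E L M H a hL hML ha
  have hM0 : M ≠ 0 := fun h => hL (by rw [h] at hML; exact Nat.eq_zero_of_zero_dvd hML)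
  have h1 : (1 : ℕ) * M ∣ L := by rwa [one_mul]
  have hmem : ∀ c : (ZMod M)ˣ, sS E M H c ∈ fieldC E L M H := by
    intro c
    have := qExpand_sS_mem E L M H (e := 1) h1 c
    rwa [qExpand_one_apply] at this
  have hq1 : ∀ c : (ZMod M)ˣ, qExpand E 1 (sS E M H c) = sS E M H c :=
    fun c => qExpand_one_apply _
  refine
    { le := full_le_fieldC E L M H
      mem := fun i => by rw [es1f_coeffMap_sS]; exact hmem _
      gen := by
        have : coeffMap (algebraMap A₀ E) (sS A₀ M H (a 0)) = sS E M H 1 := by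
          rw [es1f_coeffMap_sS, ha.zero]
        rw [this]; exact hgen
      poly := by
        have : coeffMap (algebraMap A₀ E) (sS A₀ M H (a 0)) = sS E M H 1 := by
          rw [es1f_coeffMap_sS, ha.zero]
        rw [this]; exact hpoly
      aut := fun i => by
        obtain ⟨σ, hσ, hσS⟩ := haut (a i)
        refine ⟨σ, hσ, ?_⟩
        have h2 := hσS 1 h1 1
        have h3 : (⟨coeffMap (algebraMap A₀ E) (sS A₀ M H (a 0)),
            (by rw [es1f_coeffMap_sS]; exact hmem _)⟩ : fieldC E L M H)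
            = ⟨qExpand E 1 (sS E M H 1), qExpand_sS_mem E L M H h1 1⟩ := by
          apply Subtype.ext
          show coeffMap (algebraMap A₀ E) (sS A₀ M H (a 0)) = qExpand E 1 (sS E M H 1)
          rw [es1f_coeffMap_sS, ha.zero, hq1]
        rw [h3, h2, hq1, one_mul, es1f_coeffMap_sS]
      red_ne := fun i j hij h => by
        rw [es1f_coeffMap_sS, es1f_coeffMap_sS] at h
        exact hij (es1cu_sS_injective k hM0 ha h) }

/-- a conjugate `σ s` of a root `s` of a polynomial over `F₀` is a root, for an automorphism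
`σ` of `F ⊇ F₀` fixing `F₀` -/
theorem es1cu_root_conj {K Ω : Type*} [Field K] [Field Ω] [Algebra K Ω]
    {F₀ F : IntermediateField K Ω} (σ : F ≃ₐ[K] F)
    (hσ : ∀ f : F, (f : Ω) ∈ F₀ → σ f = f) (hle : F₀ ≤ F) (p : Polynomial F₀) (s : F)
    (hs : Polynomial.eval₂ (algebraMap F₀ Ω) (s : Ω) p = 0) :
    Polynomial.eval₂ (algebraMap F₀ Ω) ((σ s : F) : Ω) p = 0 := by
  have h1 : Polynomial.eval₂ (IntermediateField.inclusion hle).toRingHom s p = 0 := by
    apply Subtype.ext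
    have := Polynomial.hom_eval₂ p (IntermediateField.inclusion hle).toRingHom
      F.val.toRingHom s
    rw [ZeroMemClass.coe_zero]
    refine Eq.trans ?_ hs
    exact this
  have h3 := Polynomial.hom_eval₂ p (IntermediateField.inclusion hle).toRingHom
    (σ : F →+* F) s
  have h4 : ((σ : F →+* F).comp (IntermediateField.inclusion hle).toRingHom)
      = (IntermediateField.inclusion hle).toRingHom := by
    ext x
    exact congrArg Subtype.val (hσ _ x.2)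
  rw [h4, h1, map_zero] at h3
  have h6 := Polynomial.hom_eval₂ p (IntermediateField.inclusion hle).toRingHom
    F.val.toRingHom ((σ : F →+* F) s)
  rw [← h3, map_zero] at h6
  exact h6.symm

/-- degree of `F = F₀(s)` from a monic polynomial of degree `m + 1` and `m + 1` conjugates -/
theorem es1cu_relfinrank_generic {K Ω : Type*} [Field K] [Field Ω] [Algebra K Ω]
    {F₀ F : IntermediateField K Ω} (hle : F₀ ≤ F) (s : Ω) (hs : s ∈ F)
    (hgen : F ≤ IntermediateField.adjoin K ((F₀ : Set Ω) ∪ {s}))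
    (P : Polynomial F₀) (hPm : P.Monic) (hPr : Polynomial.eval₂ (algebraMap F₀ Ω) s P = 0)
    {m : ℕ} (hPd : P.natDegree = m + 1) (S : Fin (m + 1) → Ω) (hSinj : Function.Injective S)
    (haut : ∀ i, ∃ σ : F ≃ₐ[K] F, (∀ f : F, (f : Ω) ∈ F₀ → σ f = f) ∧
      ((σ ⟨s, hs⟩ : F) : Ω) = S i) :
    F₀.relfinrank F = m + 1 := by
  classical
  have hint : IsIntegral F₀ s := ⟨P, hPm, hPr⟩
  have hFeq : F = (F₀⟮s⟯).restrictScalars K := by
    rw [IntermediateField.restrictScalars_adjoin]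
    refine le_antisymm hgen ?_
    rw [IntermediateField.adjoin_le_iff]
    rintro x (hx | hx)
    · exact hle hx
    · rw [Set.mem_singleton_iff] at hx
      rw [hx]; exact hs
  have hext : IntermediateField.extendScalars hle = F₀⟮s⟯ := by
    apply IntermediateField.restrictScalars_injective K
    rw [IntermediateField.extendScalars_restrictScalars]
    exact hFeq
  rw [IntermediateField.relfinrank_eq_finrank_of_le hle, hext,
    IntermediateField.adjoin.finrank hint]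
  apply le_antisymm
  · have hdvd : minpoly F₀ s ∣ P := minpoly.dvd F₀ s hPr
    have := Polynomial.natDegree_le_of_dvd hdvd hPm.ne_zero
    rwa [hPd] at this
  · set Z : Finset Ω := Finset.univ.image S with hZ
    have hZcard : Z.card = m + 1 := by
      rw [hZ, Finset.card_image_of_injective _ hSinj]
      simp
    have hne : (minpoly F₀ s).map (algebraMap F₀ Ω) ≠ 0 :=
      Polynomial.map_ne_zero (minpoly.ne_zero hint)
    have hsub : Z.val ⊆ ((minpoly F₀ s).map (algebraMap F₀ Ω)).roots := by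
      intro x hx
      rw [Finset.mem_val, hZ, Finset.mem_image] at hx
      obtain ⟨i, -, rfl⟩ := hx
      rw [Polynomial.mem_roots hne, Polynomial.IsRoot, Polynomial.eval_map]
      obtain ⟨σ, hσ, hσS⟩ := haut i
      rw [← hσS]
      exact es1cu_root_conj σ hσ hle (minpoly F₀ s) ⟨s, hs⟩ (minpoly.aeval F₀ s)
    have := Polynomial.card_le_degree_of_subset_roots hsub
    rw [hZcard, Polynomial.natDegree_map] at this
    exact this

/-- **The degree** `[fieldC K L M H : modularFunctionFieldFullC K L] = #((ℤ/M)ˣ/±H)`. -/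
theorem es1cu_relfinrank (hD : StmtDiamondH)
    (K : Type) [Field K] [CharZero K] [Algebra.IsAlgebraic ℚ K] (L M : ℕ)
    (H : Subgroup (ZMod M)ˣ) {m : ℕ} (a : Fin (m + 1) → (ZMod M)ˣ)
    (hL : L ≠ 0) (hML : M ∣ L) (ha : IsRepFam H a) :
    (modularFunctionFieldFullC K L).relfinrank (fieldC K L M H) = m + 1 := by
  obtain ⟨hgen, ⟨P, hPm, hPd, hPr⟩, haut⟩ := hD K L M H a hL hML ha
  have hM0 : M ≠ 0 := fun h => hL (by rw [h] at hML; exact Nat.eq_zero_of_zero_dvd hML)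
  have h1 : (1 : ℕ) * M ∣ L := by rwa [one_mul]
  have hq1 : ∀ c : (ZMod M)ˣ, qExpand K 1 (sS K M H c) = sS K M H c :=
    fun c => qExpand_one_apply _
  have hmem : ∀ c : (ZMod M)ˣ, sS K M H c ∈ fieldC K L M H := by
    intro c
    have := qExpand_sS_mem K L M H (e := 1) h1 c
    rwa [qExpand_one_apply] at this
  refine es1cu_relfinrank_generic (full_le_fieldC K L M H) (sS K M H 1) (hmem 1) hgen P hPm hPr
    hPd (fun i => sS K M H (a i)) (es1cu_sS_injective K hM0 ha) fun i => ?_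
  obtain ⟨σ, hσ, hσS⟩ := haut (a i)
  refine ⟨σ, hσ, ?_⟩
  have h2 := hσS 1 h1 1
  have h3 : (⟨sS K M H 1, hmem 1⟩ : fieldC K L M H)
      = ⟨qExpand K 1 (sS K M H 1), qExpand_sS_mem K L M H h1 1⟩ := by
    apply Subtype.ext
    show sS K M H 1 = qExpand K 1 (sS K M H 1)
    rw [hq1]
  rw [h3, h2, hq1, one_mul]

end Fermat.Agent.ES1

end
end ZBES1_002_8

/-! ### bundled: `Fermat.Agent.ES1.ConjDeg` -/
section ZBES1_002_9

/-!
# ES₁ / F3-conj — the degree `[fieldBar L M H : modularFunctionFieldBar L]` (captain helper36)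

* `exists_isRepFam` : systems of representatives of `(ℤ/M)ˣ/±H` exist.
* `StmtRelDegH` : the degree of `fieldBar L M H` over `modularFunctionFieldBar L` is positive and
  does not depend on `L` (consumed by the level descent `ES1/DescentLevelH.lean` and by G2/HN).
* `stmtRelDegH_of_diamond : StmtDiamondH → StmtRelDegH`.
-/

set_option autoImplicit false

noncomputable section

namespace Fermat.Agent.ES1

open Polynomial ModularCurve IntermediateField AlgebraicCurve Fermat.Agent.INJ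

/-- the equivalence relation `b ∈ ± a H` on `(ℤ/M)ˣ` -/
def repSetoid {M : ℕ} (H : Subgroup (ZMod M)ˣ) : Setoid (ZMod M)ˣ where
  r a b := InPM H a (b : ZMod M)
  iseqv :=
    { refl := fun a => InPM.self a
      symm := fun h => h.symm
      trans := fun h₁ h₂ => h₁.trans h₂ }

theorem exists_isRepFam {M : ℕ} (hM : M ≠ 0) (H : Subgroup (ZMod M)ˣ) :
    ∃ (m : ℕ) (a : Fin (m + 1) → (ZMod M)ˣ), IsRepFam H a := by
  classical
  haveI : NeZero M := ⟨hM⟩
  haveI : Finite (Quotient (repSetoid H)) := Quotient.finite _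
  haveI : Nonempty (Quotient (repSetoid H)) := ⟨Quotient.mk _ 1⟩
  obtain ⟨n, ⟨e₀⟩⟩ := Finite.exists_equiv_fin (Quotient (repSetoid H))
  have hn : n ≠ 0 := by
    rintro rfl
    exact (e₀ (Quotient.mk _ 1)).elim0
  obtain ⟨m, rfl⟩ := Nat.exists_eq_succ_of_ne_zero hn
  -- move the class of `1` to the index `0`
  let e : Fin (m + 1) ≃ Quotient (repSetoid H) :=
    (Equiv.swap 0 (e₀ (Quotient.mk _ 1))).trans e₀.symm
  have he0 : e 0 = Quotient.mk _ 1 := by
    simp [e]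
  let a : Fin (m + 1) → (ZMod M)ˣ := fun i => if i = 0 then 1 else (e i).out
  have hae : ∀ i, (Quotient.mk (repSetoid H) (a i)) = e i := by
    intro i
    by_cases hi : i = 0
    · simp only [a, hi, if_true, he0]
    · simp only [a, hi, if_false]
      exact Quotient.out_eq _
  refine ⟨m, a, ⟨by simp [a], fun i j h => ?_, fun c => ?_⟩⟩
  · have h1 : Quotient.mk (repSetoid H) (a i) = Quotient.mk (repSetoid H) (a j) :=
      Quotient.sound h
    rw [hae, hae] at h1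
    exact e.injective h1
  · refine ⟨e.symm (Quotient.mk _ c), ?_⟩
    have h1 := hae (e.symm (Quotient.mk _ c))
    rw [Equiv.apply_symm_apply] at h1
    exact Quotient.exact h1

/-- The degree `[K_Γ : K_{Γ₀(L)}]` over `ℚ̄` is positive and independent of `L`. -/
def StmtRelDegH : Prop :=
  ∀ (M : ℕ) (H : Subgroup (ZMod M)ˣ), ∃ d : ℕ, d ≠ 0 ∧ ∀ L : ℕ, L ≠ 0 → M ∣ L →
    (modularFunctionFieldBar L).relfinrank (fieldBar L M H) = d

theorem stmtRelDegH_of_diamond (hD : StmtDiamondH) : StmtRelDegH := by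
  intro M H
  by_cases hM : M = 0
  · refine ⟨1, one_ne_zero, fun L hL hML => ?_⟩
    rw [hM] at hML
    exact absurd (Nat.eq_zero_of_zero_dvd hML) hL
  · obtain ⟨m, a, ha⟩ := exists_isRepFam hM H
    refine ⟨m + 1, Nat.succ_ne_zero m, fun L hL hML => ?_⟩
    rw [nf_bar_eq_fullC, es1f_fieldBar_eq]
    haveI : Algebra.IsAlgebraic ℚ NfQb := by
      have h := AlgebraicClosure.isAlgebraic ℚ
      convert h
      · rfl
      · exact Subsingleton.elim _ _
    exact es1cu_relfinrank hD NfQb L M H a hL hML ha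

end Fermat.Agent.ES1

end
end ZBES1_002_9

/-! ### bundled: `Fermat.Agent.ES1.RamPlan` -/
section ZBES1_002_10

/-!
# ES₁ — interface between F4 (realization of `fieldBar L M H`) and INJ₁ / H / G1

`jFH L M H : fieldBar L M H` is `j(q)`;  `StmtRamJH L M H` is the ramification of
`fieldBar L M H` over the `j`-line (the exact analogue of `INJ.ramJ_zero`, `ramJ_1728`,
`ramJ_gen`, `ramJ_inf`, `ramJ_cases` + finiteness), the deliverable of piece F4.
-/

set_option autoImplicit false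

noncomputable section

namespace Fermat.Agent.ES1

open ModularCurve AlgebraicCurve IntermediateField Fermat.Agent.S24

variable (L M : ℕ) (H : Subgroup (ZMod M)ˣ)

theorem jBar_mem_fieldBar [NeZero L] : jBar ∈ fieldBar L M H := by
  refine coeffEmb_mem_laurentBaseChange Kb ?_
  have h := jqd_mem_full L (one_dvd L)
  rw [qExpand_one_apply] at h
  exact full_le_fieldC ℚ L M H h

/-- `j` as an element of the function field `fieldBar L M H` -/
def jFH [NeZero L] : fieldBar L M H := ⟨jBar, jBar_mem_fieldBar L M H⟩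

/-- **(F4)** ramification of `fieldBar L M H` over the `j`-line. -/
structure RamJH [NeZero L] : Prop where
  /-- the function field is finite over `ℚ̄(j)` -/
  finite : FiniteDimensional Kb⟮jFH L M H⟯ (fieldBar L M H)
  /-- over `j = 0`: the ramification index divides `3` -/
  zero : ∀ v : Place Kb (fieldBar L M H), 0 < v.ord (jFH L M H) → v.ord (jFH L M H) ∣ 3
  /-- over `j = 1728`: the ramification index divides `2` -/
  e1728 : ∀ v : Place Kb (fieldBar L M H),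
    0 < v.ord (jFH L M H - algebraMap Kb (fieldBar L M H) 1728) →
      v.ord (jFH L M H - algebraMap Kb (fieldBar L M H) 1728) ∣ 2
  /-- over `j = c`, `c ≠ 0, 1728`: unramified -/
  gen : ∀ c : Kb, c ≠ 0 → c ≠ 1728 → ∀ v : Place Kb (fieldBar L M H),
    0 < v.ord (jFH L M H - algebraMap Kb (fieldBar L M H) c) →
      v.ord (jFH L M H - algebraMap Kb (fieldBar L M H) c) = 1
  /-- over `j = ∞`: the ramification index divides `L` -/
  inf : ∀ v : Place Kb (fieldBar L M H), v.ord (jFH L M H) < 0 →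
    v.ord (jFH L M H)⁻¹ ∣ (L : ℤ)

/-- the deliverable of F4 -/
def StmtRamJH : Prop :=
  ∀ (L M : ℕ) (H : Subgroup (ZMod M)ˣ) [NeZero L], M ∣ L → RamJH L M H

end Fermat.Agent.ES1

end
end ZBES1_002_10

/-! ### bundled: `Fermat.Agent.ES1.NFEmbH` -/
section ZBES1_002_11

/-!
# ES₁/INJ₁: the embedding `fieldC K₀ L M H → fieldBar L M H` for a subfield `K₀ ⊆ ℚ̄`
(fork of `INJ/NFEmb.lean` and of the generic part of `INJ/BGRam.lean`)
-/

set_option autoImplicit false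
set_option linter.style.haveILetI false
set_option linter.unusedSectionVars false

open ModularCurve AlgebraicCurve IntermediateField

namespace Fermat.Agent.ES1

open Fermat.Agent.INJ Fermat.Agent.S24

variable (K₀ : IntermediateField ℚ NfQb) (L M : ℕ) (H : Subgroup (ZMod M)ˣ)

theorem nfH_coeffMap_mem_bar {x : LaurentSeries K₀} (hx : x ∈ fieldC K₀ L M H) :
    coeffMap (algebraMap K₀ NfQb) x ∈ fieldBar L M H := by
  rw [es1f_fieldBar_eq]
  exact es1f_coeffMap_mem_fieldC _ L M H hx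

/-- the embedding `fieldC K₀ L M H → fieldBar L M H` -/
noncomputable def nfEmbH : fieldC K₀ L M H →+* fieldBar L M H where
  toFun x := ⟨coeffMap (algebraMap K₀ NfQb) x, nfH_coeffMap_mem_bar K₀ L M H x.2⟩
  map_one' := by ext1; simp
  map_mul' x y := by ext1; simp
  map_zero' := by ext1; simp
  map_add' x y := by ext1; simp

@[simp]
theorem nfEmbH_coe (x : fieldC K₀ L M H) :
    ((nfEmbH K₀ L M H x : fieldBar L M H) : LaurentSeries NfQb)
      = coeffMap (algebraMap K₀ NfQb) (x : LaurentSeries K₀) := rfl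

theorem nfEmbH_injective : Function.Injective (nfEmbH K₀ L M H) := (nfEmbH K₀ L M H).injective

theorem nfEmbH_algebraMap (c : K₀) :
    nfEmbH K₀ L M H (algebraMap K₀ (fieldC K₀ L M H) c)
      = algebraMap NfQb (fieldBar L M H) (algebraMap K₀ NfQb c) := by
  ext1
  show coeffMap (algebraMap K₀ NfQb) (algebraMap K₀ (LaurentSeries K₀) c) = _
  rw [nf_coeffMap_algebraMap]
  rfl

/-- `fieldBar L M H` is generated over `ℚ̄` by the image of `fieldC K₀ L M H`. -/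
theorem nfEmbH_adjoin_range :
    IntermediateField.adjoin NfQb (Set.range (nfEmbH K₀ L M H)) = ⊤ := by
  apply IntermediateField.lift_injective
  rw [IntermediateField.lift_top, IntermediateField.lift_adjoin]
  apply le_antisymm
  · rw [IntermediateField.adjoin_le_iff]
    rintro _ ⟨_, ⟨y, rfl⟩, rfl⟩
    exact (nfEmbH K₀ L M H y).2
  · refine le_trans (le_of_eq (es1f_fieldBar_eq L M H)) ?_
    rw [fieldC, IntermediateField.adjoin_le_iff]
    rintro _ (⟨d, hd, hdN, rfl⟩ | ⟨e, he, a, heL, rfl⟩)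
    · refine IntermediateField.subset_adjoin NfQb _
        ⟨nfEmbH K₀ L M H ⟨qExpand K₀ d (jqModC K₀), jd_mem_fieldC K₀ L M H hdN⟩, ⟨_, rfl⟩, ?_⟩
      exact coeffMap_jqNModC (algebraMap K₀ NfQb) d
    · refine IntermediateField.subset_adjoin NfQb _
        ⟨nfEmbH K₀ L M H ⟨qExpand K₀ e (sS K₀ M H a), qExpand_sS_mem K₀ L M H heL a⟩,
          ⟨_, rfl⟩, ?_⟩
      exact es1f_coeffMap_qExpand_sS (algebraMap K₀ NfQb) M H a e

/-- `fieldBar L M H` as an algebra over `fieldC K₀ L M H` -/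
@[reducible] noncomputable def nfH_algebra : Algebra (fieldC K₀ L M H) (fieldBar L M H) :=
  (nfEmbH K₀ L M H).toAlgebra

theorem nfH_algebraMap_eq (x : fieldC K₀ L M H) :
    letI := nfH_algebra K₀ L M H
    algebraMap (fieldC K₀ L M H) (fieldBar L M H) x = nfEmbH K₀ L M H x := rfl

theorem nfH_tower :
    letI := nfH_algebra K₀ L M H
    IsScalarTower K₀ (fieldC K₀ L M H) (fieldBar L M H) := by
  letI := nfH_algebra K₀ L M H
  refine IsScalarTower.of_algebraMap_eq fun c => ?_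
  rw [nfH_algebraMap_eq, nfEmbH_algebraMap]
  rfl

theorem nfH_isAlgebraic : Algebra.IsAlgebraic K₀ Kb := by
  haveI : Algebra.IsAlgebraic ℚ Kb := AlgebraicClosure.isAlgebraic ℚ
  exact Algebra.IsAlgebraic.tower_top (K := ℚ) K₀

/-- every place of `fieldC K₀ L M H / K₀` extends to `fieldBar L M H / ℚ̄` with the same `ord` -/
theorem nfH_hext (Q : Place K₀ (fieldC K₀ L M H)) :
    ∃ v : Place Kb (fieldBar L M H), ∀ y : fieldC K₀ L M H,
      v.ord (nfEmbH K₀ L M H y) = Q.ord y := by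
  letI := nfH_algebra K₀ L M H
  haveI := nfH_tower K₀ L M H
  haveI := nfH_isAlgebraic K₀
  exact PlaceExt.exists_place_extend_charZero (E := K₀) (K := Kb) (L' := fieldBar L M H)
    (nfEmbH_adjoin_range K₀ L M H) Q

variable (h : LaurentSeries K₀)

/-- every place of `fieldC K₀ L M H (h) / K₀`, `h ^ p = w`, `div w ∈ p · Div`, restricts to
`fieldC K₀ L M H` with the same `ord` (number-field form of the hypothesis). -/
theorem nfH_hkum (p : ℕ) (hp : p ≠ 0) (w : fieldC K₀ L M H)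
    (hw : h ^ p = (w : LaurentSeries K₀)) (hh0 : h ≠ 0)
    (hdiv : ∀ Q : Place K₀ (fieldC K₀ L M H), (p : ℤ) ∣ Q.ord w)
    (P : Place K₀ (kumFieldG (fieldC K₀ L M H) h)) :
    ∃ Q : Place K₀ (fieldC K₀ L M H),
      ∀ y : fieldC K₀ L M H, P.ord (kumInclG (fieldC K₀ L M H) h y) = Q.ord y := by
  letI := kumAlgebraG (fieldC K₀ L M H) h
  haveI := kum_isScalarTowerG (fieldC K₀ L M H) h
  have hh : (kumGenG (fieldC K₀ L M H) h) ^ p
      = algebraMap (fieldC K₀ L M H) (kumFieldG (fieldC K₀ L M H) h) w := by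
    apply Subtype.ext
    rw [kum_algebraMap_eqG, coe_kumInclG]
    exact hw
  have hg0 : kumGenG (fieldC K₀ L M H) h ≠ 0 := by
    intro h0
    apply hh0
    have := congrArg Subtype.val h0
    exact this
  exact KumU.exists_place_restrict_kummer (E := K₀) w (kumGenG (fieldC K₀ L M H) h) p hp hh hg0
    (kumField_adjoin_genG (fieldC K₀ L M H) h) hdiv P

/-- `p ∣ ord y₁ − ord y₂` gives `p ∣ ord (y₁ / y₂)` -/
theorem nfH_hdiv_quot (p : ℕ) (y₁ y₂ : fieldC K₀ L M H) (hy₁ : y₁ ≠ 0) (hy₂ : y₂ ≠ 0)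
    (hdiv : ∀ Q : Place K₀ (fieldC K₀ L M H), (p : ℤ) ∣ Q.ord y₁ - Q.ord y₂) :
    ∀ Q : Place K₀ (fieldC K₀ L M H), (p : ℤ) ∣ Q.ord (y₁ / y₂) := by
  intro Q
  rw [div_eq_mul_inv, Q.ord_mul hy₁ (inv_ne_zero hy₂), Q.ord_inv, ← sub_eq_add_neg]
  exact hdiv Q

/-- `j` as an element of `fieldC K₀ L M H` -/
noncomputable def jCH [NeZero L] : fieldC K₀ L M H :=
  ⟨jqModC K₀, by
    have h := jd_mem_fieldC K₀ L M H (one_dvd L)
    rwa [qExpand_one_apply] at h⟩

@[simp] theorem coe_jCH [NeZero L] :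
    ((jCH K₀ L M H : fieldC K₀ L M H) : LaurentSeries K₀) = jqModC K₀ := rfl

end Fermat.Agent.ES1


end ZBES1_002_11

/-! ### bundled: `Fermat.Agent.ES1.InjInstFin` -/
section ZBES1_002_12

/-!
# ES₁/INJ₁-inst: generic finiteness over `E(t)` and the interface of the instantiations

* `injH1_fin_tower` : `F'/F` finite, `F/E(t)` finite ⇒ `F'/E(t)` finite;
* `injH1_fin_of_gen` : intermediate fields `F ≤ F' ≤ E(F ∪ {s})` of `Ω/E`, `s` integral over `F`,
  `F/E(t)` finite ⇒ `F'/E(t)` finite (fork of `INJ/BGFin.lean` for a general field);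
* `StmtConjFamNF L M H ℓ` : the conjugate family of `fieldC K₀ L M H` over
  `modularFunctionFieldFullC K₀ L` in the number-field setting of `StmtInjNFH`
  (from F1 + F3-conj = `StmtDiamondH`).
-/

set_option autoImplicit false
set_option linter.style.haveILetI false
set_option linter.unusedSectionVars false

noncomputable section

open IntermediateField Polynomial

namespace Fermat.Agent.ES1

section Tower

variable {E F F' : Type*} [Field E] [Field F] [Field F'] [Algebra E F] [Algebra E F']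
  [Algebra F F'] [IsScalarTower E F F']

/-- the image of `E(t)` lies in `E(t')`, `t'` the image of `t` -/
theorem injH1_algebraMap_mem_adjoin (t : F) (a : F) (ha : a ∈ E⟮t⟯) :
    algebraMap F F' a ∈ E⟮algebraMap F F' t⟯ := by
  have h1 : (E⟮t⟯).map (IsScalarTower.toAlgHom E F F') = E⟮algebraMap F F' t⟯ := by
    rw [IntermediateField.adjoin_map, Set.image_singleton]
    rfl
  rw [← h1]
  exact ⟨a, ha, rfl⟩

/-- **tower**: `F'/F` finite and `F/E(t)` finite ⇒ `F'/E(t)` finite. -/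
theorem injH1_fin_tower (t : F) [FiniteDimensional E⟮t⟯ F] [FiniteDimensional F F'] :
    FiniteDimensional E⟮algebraMap F F' t⟯ F' := by
  classical
  obtain ⟨s, hs⟩ := (Module.finite_def (R := E⟮t⟯) (M := F)).mp inferInstance
  obtain ⟨s', hs'⟩ := (Module.finite_def (R := F) (M := F')).mp inferInstance
  refine (Module.finite_def (R := E⟮algebraMap F F' t⟯) (M := F')).mpr
    ⟨Finset.image₂ (fun b c => algebraMap F F' b * c) s s', ?_⟩
  rw [eq_top_iff]
  intro y hy'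
  clear hy'
  set G : Set F' :=
    ((Finset.image₂ (fun b c => algebraMap F F' b * c) s s' : Finset F') : Set F') with hG
  have hmemG : ∀ b ∈ s, ∀ c ∈ s', algebraMap F F' b * c ∈ G := fun b hb c hc =>
    Finset.mem_coe.mpr (Finset.mem_image₂_of_mem hb hc)
  have hGmem : ∀ z ∈ G, ∃ b ∈ s, ∃ c ∈ s', algebraMap F F' b * c = z := fun z hz =>
    Finset.mem_image₂.mp (Finset.mem_coe.mp hz)
  clear_value G
  -- multiples of the generators
  have key : ∀ a : F, ∀ c ∈ s',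
      algebraMap F F' a * c ∈ Submodule.span E⟮algebraMap F F' t⟯ G := by
    intro a c hc
    have ha : a ∈ Submodule.span E⟮t⟯ (s : Set F) := by rw [hs]; trivial
    induction ha using Submodule.span_induction with
    | mem b hb => exact Submodule.subset_span (hmemG b hb c hc)
    | zero => rw [map_zero, zero_mul]; exact zero_mem _
    | add a b _ _ ha hb => rw [map_add, add_mul]; exact add_mem ha hb
    | smul l b _ hb =>
      have h1 : algebraMap F F' (l • b) * c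
          = (⟨algebraMap F F' (l : F), injH1_algebraMap_mem_adjoin t _ l.2⟩ :
              E⟮algebraMap F F' t⟯) • (algebraMap F F' b * c) := by
        rw [Algebra.smul_def, map_mul, mul_assoc]
        rfl
      rw [h1]
      exact Submodule.smul_mem _ _ hb
  have key2 : ∀ a : F, ∀ u ∈ Submodule.span E⟮algebraMap F F' t⟯ G,
      algebraMap F F' a * u ∈ Submodule.span E⟮algebraMap F F' t⟯ G := by
    intro a u hu
    induction hu using Submodule.span_induction with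
    | mem z hz =>
      obtain ⟨b₀, hb₀, c₀, hc₀, rfl⟩ := hGmem z hz
      have := key (a * b₀) c₀ hc₀
      rwa [map_mul, mul_assoc] at this
    | zero => rw [mul_zero]; exact zero_mem _
    | add u v _ _ hu hv => rw [mul_add]; exact add_mem hu hv
    | smul l u _ hu =>
      have h1 : algebraMap F F' a * (l • u) = l • (algebraMap F F' a * u) := by
        rw [Algebra.smul_def, Algebra.smul_def]; ring
      rw [h1]
      exact Submodule.smul_mem _ _ hu
  have hy : y ∈ Submodule.span F (s' : Set F') := by rw [hs']; trivial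
  induction hy using Submodule.span_induction with
  | mem c hc =>
    have := key 1 c hc
    rwa [map_one, one_mul] at this
  | zero => exact zero_mem _
  | add a b _ _ ha hb => exact add_mem ha hb
  | smul a b _ hb =>
    rw [Algebra.smul_def]
    exact key2 a b hb

end Tower

section Gen

variable {E Ω : Type*} [Field E] [Field Ω] [Algebra E Ω]

/-- `F'` as an algebra over `F ≤ F'` -/
@[reducible] def injH1Alg (F F' : IntermediateField E Ω) (hle : F ≤ F') : Algebra F F' :=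
  (IntermediateField.inclusion hle).toRingHom.toAlgebra

theorem injH1Alg_tower (F F' : IntermediateField E Ω) (hle : F ≤ F') :
    letI := injH1Alg F F' hle
    IsScalarTower E F F' := by
  letI := injH1Alg F F' hle
  refine IsScalarTower.of_algebraMap_eq fun c => ?_
  exact ((IntermediateField.inclusion hle).commutes c).symm

/-- `F ≤ F' ≤ E(F ∪ {s})`, `s` integral over `F` ⇒ `F'/F` is finite. -/
theorem injH1_finite_of_gen (F F' : IntermediateField E Ω) (hle : F ≤ F') (s : Ω)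
    (hgen : F' ≤ IntermediateField.adjoin E ((F : Set Ω) ∪ {s}))
    (hs : IsIntegral F s) :
    letI := injH1Alg F F' hle
    FiniteDimensional F F' := by
  letI := injH1Alg F F' hle
  haveI : FiniteDimensional F (IntermediateField.adjoin F {s}) :=
    IntermediateField.adjoin.finiteDimensional hs
  have hmem : ∀ x ∈ F', x ∈ IntermediateField.adjoin F {s} := by
    intro x hx
    have h1 : IntermediateField.adjoin E ((F : Set Ω) ∪ {s})
        ≤ (IntermediateField.adjoin F {s}).restrictScalars E := by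
      rw [IntermediateField.adjoin_le_iff]
      rintro y (hy | hy)
      · exact (IntermediateField.adjoin F {s}).algebraMap_mem (⟨y, hy⟩ : F)
      · rw [Set.mem_singleton_iff] at hy
        subst hy
        exact IntermediateField.mem_adjoin_simple_self F y
    exact h1 (hgen hx)
  let φ : F' →ₗ[F] IntermediateField.adjoin F {s} :=
    { toFun := fun x => ⟨x, hmem x x.2⟩
      map_add' := fun x y => rfl
      map_smul' := fun a x => by
        apply Subtype.ext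
        rfl }
  have hφ : Function.Injective φ := by
    intro x y hxy
    apply Subtype.ext
    have h2 : ((φ x : IntermediateField.adjoin F {s}) : Ω) = (φ y : IntermediateField.adjoin F {s}) :=
      congrArg Subtype.val hxy
    exact h2
  exact Module.Finite.of_injective φ hφ

/-- **finiteness over `E(t)`**: `F ≤ F' ≤ E(F ∪ {s})`, `s` integral over `F`, `F/E(t)` finite
⇒ `F'/E(t)` finite. -/
theorem injH1_fin_of_gen (F F' : IntermediateField E Ω) (hle : F ≤ F') (s : Ω)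
    (hgen : F' ≤ IntermediateField.adjoin E ((F : Set Ω) ∪ {s}))
    (hs : IsIntegral F s) (t : Ω) (ht : t ∈ F)
    (hfin : FiniteDimensional E⟮(⟨t, ht⟩ : F)⟯ F) :
    FiniteDimensional E⟮(⟨t, hle ht⟩ : F')⟯ F' := by
  letI := injH1Alg F F' hle
  haveI := injH1Alg_tower F F' hle
  haveI := injH1_finite_of_gen F F' hle s hgen hs
  exact injH1_fin_tower (E := E) (F := F) (F' := F') (⟨t, ht⟩ : F)

/-- integrality from a monic polynomial with `eval₂` -/
theorem injH1_isIntegral_of_eval₂ (F : IntermediateField E Ω) (s : Ω)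
    (h : ∃ P : Polynomial F, P.Monic ∧ Polynomial.eval₂ F.val.toRingHom s P = 0) :
    IsIntegral F s := by
  obtain ⟨P, hP, h0⟩ := h
  exact ⟨P, hP, h0⟩

/-- integrality of a `p`-th root -/
theorem injH1_isIntegral_of_pow (F : IntermediateField E Ω) (s : Ω) (p : ℕ) (hp : p ≠ 0)
    (h : s ^ p ∈ F) : IsIntegral F s := by
  refine ⟨Polynomial.X ^ p - Polynomial.C (⟨s ^ p, h⟩ : F),
    Polynomial.monic_X_pow_sub_C _ hp, ?_⟩
  rw [Polynomial.eval₂_sub, Polynomial.eval₂_pow, Polynomial.eval₂_X, Polynomial.eval₂_C]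
  exact sub_self _

end Gen

section Interface

open ModularCurve Fermat.Agent.INJ

/-- **(F1 + F3-conj ⇒ INJ₁-inst)** the conjugate family of `fieldC K₀ L M H` over
`modularFunctionFieldFullC K₀ L`, in the number-field setting of `StmtInjNFH`
(`A₀ = nfSub A K₀`, `E = K₀`, `r = nfRes A K₀`). -/
def StmtConjFamNF (L M : ℕ) (H : Subgroup (ZMod M)ˣ) (ℓ : ℕ) : Prop :=
  ∀ A : ValuationSubring NfQb, A.LiesOverPrime ℓ →
  ∀ K₀ : IntermediateField ℚ NfQb, FiniteDimensional ℚ K₀ →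
    ∃ (m : ℕ) (S : Fin (m + 1) → LaurentSeries (nfSub A K₀)),
      ConjFamily (nfRes A K₀) (modularFunctionFieldFullC K₀ L) (fieldC K₀ L M H) S

end Interface

end Fermat.Agent.ES1

end
end ZBES1_002_12

/-! ### bundled: `Fermat.Agent.ES1.InjDescentH` -/
section ZBES1_002_13

/-!
# ES₁ / INJ₁-L1: descent from `ℚ̄` to a number field for `fieldBar L M H`
(fork of `INJ/NumField.lean` (descent part) and of `INJ/InjDescent.lean`)

`stmtINJH_of_stmtInjNFH : StmtInjNFH L M H ℓ p → StmtINJH L M H ℓ p`.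
-/

set_option autoImplicit false
set_option linter.style.haveILetI false
set_option synthInstance.maxHeartbeats 400000
set_option maxHeartbeats 1000000

noncomputable section

namespace Fermat.Agent.ES1

open ModularCurve AlgebraicCurve Fermat.Agent.INJ

section Descent

variable (L M : ℕ) (H : Subgroup (ZMod M)ˣ)

/-- the descent predicate -/
def InjdhDescends (y : LaurentSeries NfQb) : Prop :=
  ∃ K₀ : IntermediateField ℚ NfQb, FiniteDimensional ℚ K₀ ∧
    ∃ y₀ : LaurentSeries K₀, y₀ ∈ fieldC K₀ L M H ∧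
      coeffMap (algebraMap K₀ NfQb) y₀ = y

variable {L M H}

/-- enlarging the number field -/
theorem injdh_mono_aux {K₀ K₁ : IntermediateField ℚ NfQb} (h : K₀ ≤ K₁)
    {y₀ : LaurentSeries K₀} (hy₀ : y₀ ∈ fieldC K₀ L M H) :
    coeffMap (IntermediateField.inclusion h).toRingHom y₀ ∈ fieldC K₁ L M H :=
  es1f_coeffMap_mem_fieldC _ L M H hy₀

theorem injdh_descends_algebraMap (c : NfQb) :
    InjdhDescends L M H (algebraMap NfQb (LaurentSeries NfQb) c) := by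
  have hc : IsIntegral ℚ c := (AlgebraicClosure.isAlgebraic ℚ).isIntegral.isIntegral c
  refine ⟨IntermediateField.adjoin ℚ {c}, IntermediateField.adjoin.finiteDimensional hc,
    algebraMap _ _
      (⟨c, IntermediateField.mem_adjoin_simple_self ℚ c⟩ : IntermediateField.adjoin ℚ {c}),
    (fieldC _ L M H).algebraMap_mem _, ?_⟩
  rw [nf_coeffMap_algebraMap]
  rfl

theorem injdh_descends_coeffEmb {z : LaurentSeries ℚ} (hz : z ∈ fieldQ L M H) :
    InjdhDescends L M H (coeffEmb NfQb z) := by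
  refine ⟨⊥, inferInstance, coeffMap (algebraMap ℚ (⊥ : IntermediateField ℚ NfQb)) z,
    es1f_coeffMap_mem_fieldC _ L M H hz, ?_⟩
  rw [coeffMap_coeffMap]
  exact coeffMap_congr (RingHom.ext fun c => rfl) z

theorem injdh_binary {y y' : LaurentSeries NfQb} (hy : InjdhDescends L M H y)
    (hy' : InjdhDescends L M H y') :
    ∃ K₀ : IntermediateField ℚ NfQb, FiniteDimensional ℚ K₀ ∧
      ∃ y₀ y₀' : LaurentSeries K₀, y₀ ∈ fieldC K₀ L M H ∧
        y₀' ∈ fieldC K₀ L M H ∧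
        coeffMap (algebraMap K₀ NfQb) y₀ = y ∧ coeffMap (algebraMap K₀ NfQb) y₀' = y' := by
  obtain ⟨K₁, hK₁, y₁, hy₁, rfl⟩ := hy
  obtain ⟨K₂, hK₂, y₂, hy₂, rfl⟩ := hy'
  have h1 : K₁ ≤ K₁ ⊔ K₂ := le_sup_left
  have h2 : K₂ ≤ K₁ ⊔ K₂ := le_sup_right
  exact ⟨K₁ ⊔ K₂, IntermediateField.finiteDimensional_sup K₁ K₂, _, _,
    injdh_mono_aux h1 hy₁, injdh_mono_aux h2 hy₂,
    nf_coeffMap_inclusion h1 y₁, nf_coeffMap_inclusion h2 y₂⟩

/-- Every element of `fieldBar L M H` is defined over a number field. -/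
theorem injdh_exists_descent {y : LaurentSeries NfQb} (hy : y ∈ fieldBar L M H) :
    InjdhDescends L M H y := by
  have hy' := mem_laurentBaseChange_iff.mp hy
  clear hy
  induction hy' using Subfield.closure_induction with
  | mem y hy =>
      rcases hy with ⟨a, rfl⟩ | ⟨z, hz, rfl⟩
      · exact injdh_descends_algebraMap a
      · exact injdh_descends_coeffEmb hz
  | one =>
      have := injdh_descends_algebraMap (L := L) (M := M) (H := H) (1 : NfQb)
      rwa [map_one] at this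
  | add x y _ _ hx hy =>
      obtain ⟨K₀, hK₀, x₀, y₀, hx₀, hy₀, rfl, rfl⟩ := injdh_binary hx hy
      exact ⟨K₀, hK₀, x₀ + y₀, add_mem hx₀ hy₀, map_add _ _ _⟩
  | neg x _ hx =>
      obtain ⟨K₀, hK₀, x₀, hx₀, rfl⟩ := hx
      exact ⟨K₀, hK₀, -x₀, neg_mem hx₀, map_neg _ _⟩
  | inv x _ hx =>
      obtain ⟨K₀, hK₀, x₀, hx₀, rfl⟩ := hx
      exact ⟨K₀, hK₀, x₀⁻¹, inv_mem hx₀, map_inv₀ _ _⟩
  | mul x y _ _ hx hy =>
      obtain ⟨K₀, hK₀, x₀, y₀, hx₀, hy₀, rfl, rfl⟩ := injdh_binary hx hy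
      exact ⟨K₀, hK₀, x₀ * y₀, mul_mem hx₀ hy₀, map_mul _ _ _⟩

/-- the descent can be done over any larger number field -/
theorem injdh_exists_of_le {y : LaurentSeries NfQb} (hy : InjdhDescends L M H y) :
    ∃ K₀ : IntermediateField ℚ NfQb, FiniteDimensional ℚ K₀ ∧
      ∀ K₁ : IntermediateField ℚ NfQb, K₀ ≤ K₁ →
        ∃ y₁ : LaurentSeries K₁, y₁ ∈ fieldC K₁ L M H ∧
          coeffMap (algebraMap K₁ NfQb) y₁ = y := by
  obtain ⟨K₀, hK₀, y₀, hy₀, rfl⟩ := hy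
  exact ⟨K₀, hK₀, fun K₁ h => ⟨_, injdh_mono_aux h hy₀, nf_coeffMap_inclusion h y₀⟩⟩

/-- Finitely many elements of `fieldBar L M H` and finitely many constants live over one number
field. -/
theorem injdh_exists_descent_finset (S : Finset NfQb) (Y : Finset (LaurentSeries NfQb))
    (hY : ∀ y ∈ Y, y ∈ fieldBar L M H) :
    ∃ K₀ : IntermediateField ℚ NfQb, FiniteDimensional ℚ K₀ ∧ (∀ s ∈ S, s ∈ K₀) ∧
      ∀ K₁ : IntermediateField ℚ NfQb, K₀ ≤ K₁ → ∀ y ∈ Y,
        ∃ y₁ : LaurentSeries K₁, y₁ ∈ fieldC K₁ L M H ∧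
          coeffMap (algebraMap K₁ NfQb) y₁ = y := by
  classical
  induction Y using Finset.induction_on with
  | empty =>
      refine ⟨IntermediateField.adjoin ℚ (S : Set NfQb), ?_, ?_, ?_⟩
      · exact IntermediateField.finiteDimensional_adjoin
          (fun x _ => (AlgebraicClosure.isAlgebraic ℚ).isIntegral.isIntegral x)
      · exact fun s hs => IntermediateField.subset_adjoin ℚ _ hs
      · intro K₁ _ y hy
        exact absurd hy (Finset.notMem_empty y)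
  | insert a Y _ ih =>
      obtain ⟨K₀, hK₀, hS, hK⟩ := ih (fun y hy => hY y (Finset.mem_insert_of_mem hy))
      obtain ⟨Ka, hKa, hKa'⟩ :=
        injdh_exists_of_le (injdh_exists_descent (hY a (Finset.mem_insert_self a Y)))
      refine ⟨K₀ ⊔ Ka, IntermediateField.finiteDimensional_sup K₀ Ka,
        fun s hs => (le_sup_left : K₀ ≤ K₀ ⊔ Ka) (hS s hs), ?_⟩
      intro K₁ hK₁ y hy
      rcases Finset.mem_insert.mp hy with rfl | hy
      · exact hKa' K₁ (le_trans le_sup_right hK₁)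
      · exact hK K₁ (le_trans le_sup_left hK₁) y hy

end Descent

/-- `j ∈ fieldBar L M H` -/
theorem injdh_jqModC_mem (L M : ℕ) (H : Subgroup (ZMod M)ˣ) :
    jqModC NfQb ∈ fieldBar L M H := by
  rw [es1f_fieldBar_eq]
  have h := jd_mem_fieldC NfQb L M H (one_dvd L)
  rwa [qExpand_one_apply] at h

/-- the cusp place of `fieldBar L M H` -/
theorem injdh_exists_cusp (L M : ℕ) (H : Subgroup (ZMod M)ˣ) :
    ∃ P₀ : Place NfQb (fieldBar L M H), ∀ x : fieldBar L M H, x ≠ 0 →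
      P₀.ord x = (x : LaurentSeries NfQb).order := by
  obtain ⟨P₀, h, -, -⟩ := bgConst_exists_place (fieldBar L M H)
    ⟨jqModC NfQb, injdh_jqModC_mem L M H⟩ (bgConst_order_jqModC NfQb)
  exact ⟨P₀, h⟩

/-- **(INJ₁), layer 1**: the number-field form implies the form over `ℚ̄`. -/
theorem stmtINJH_of_stmtInjNFH {L M : ℕ} {H : Subgroup (ZMod M)ˣ} {ℓ p : ℕ} (hL : L ≠ 0)
    (hp : p.Prime) : StmtInjNFH L M H ℓ p → StmtINJH L M H ℓ p := by
  intro hNF A hA Y₁ Y₂ h₁ h₂ hred hne hdiv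
  classical
  set y₁ : LaurentSeries NfQb := coeffMap A.subtype Y₁ with hy₁
  set y₂ : LaurentSeries NfQb := coeffMap A.subtype Y₂ with hy₂
  have hAinj : Function.Injective (A.subtype : A →+* NfQb) := Subtype.val_injective
  -- 1. nonvanishing and the order
  have hY₂0 : Y₂ ≠ 0 := by
    rintro rfl
    exact hne (map_zero _)
  have hY₁0 : Y₁ ≠ 0 := by
    rintro rfl
    rw [map_zero] at hred
    exact hne hred.symm
  have hy₁0 : y₁ ≠ 0 := fun h => hY₁0 ((nf_coeffMap_eq_zero_iff _ hAinj Y₁).mp h)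
  have hy₂0 : y₂ ≠ 0 := fun h => hY₂0 ((nf_coeffMap_eq_zero_iff _ hAinj Y₂).mp h)
  have hord : (p : ℤ) ∣ y₁.order - y₂.order := by
    obtain ⟨P₀, hP₀⟩ := injdh_exists_cusp L M H
    have h := hdiv P₀
    rwa [hP₀ ⟨y₁, h₁⟩ (fun h0 => hy₁0 (congrArg Subtype.val h0)),
      hP₀ ⟨y₂, h₂⟩ (fun h0 => hy₂0 (congrArg Subtype.val h0))] at h
  -- 2. constants
  have ha₁ : y₁.leadingCoeff ≠ 0 := HahnSeries.leadingCoeff_ne_zero.mpr hy₁0
  have ha₂ : y₂.leadingCoeff ≠ 0 := HahnSeries.leadingCoeff_ne_zero.mpr hy₂0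
  obtain ⟨c₀, hc₀⟩ := IsAlgClosed.exists_pow_nat_eq (y₁.leadingCoeff / y₂.leadingCoeff) hp.pos
  haveI : NeZero ((p : ℕ) : ℚ) := ⟨by exact_mod_cast hp.ne_zero⟩
  haveI : NeZero ((6 * L : ℕ) : ℚ) := ⟨by
    have : 6 * L ≠ 0 := by omega
    exact_mod_cast this⟩
  obtain ⟨ζp, hζp⟩ := HasEnoughRootsOfUnity.exists_primitiveRoot NfQb p
  obtain ⟨ζN, hζN⟩ := HasEnoughRootsOfUnity.exists_primitiveRoot NfQb (6 * L)
  -- 3. the number field
  obtain ⟨K₀, hK₀, hS, hK⟩ := injdh_exists_descent_finset (L := L) (M := M) (H := H)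
    ({c₀, ζp, ζN} : Finset NfQb)
    ({y₁, y₂} : Finset (LaurentSeries NfQb)) (by
      intro y hy
      rcases Finset.mem_insert.mp hy with rfl | hy
      · exact h₁
      · rw [Finset.mem_singleton] at hy
        rw [hy]
        exact h₂)
  have hc₀K : c₀ ∈ K₀ := hS c₀ (by simp)
  have hζpK : ζp ∈ K₀ := hS ζp (by simp)
  have hζNK : ζN ∈ K₀ := hS ζN (by simp)
  obtain ⟨z₁, hz₁, hz₁y⟩ := hK K₀ le_rfl y₁ (by simp)
  obtain ⟨z₂, hz₂, hz₂y⟩ := hK K₀ le_rfl y₂ (by simp)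
  have hginj : Function.Injective (algebraMap K₀ NfQb) := (algebraMap K₀ NfQb).injective
  have hz₁0 : z₁ ≠ 0 := by
    rintro rfl
    rw [map_zero] at hz₁y
    exact hy₁0 hz₁y.symm
  have hz₂0 : z₂ ≠ 0 := by
    rintro rfl
    rw [map_zero] at hz₂y
    exact hy₂0 hz₂y.symm
  -- 4. integrality of the coefficients
  have hfinj : Function.Injective (algebraMap (nfSub A K₀) K₀) := Subtype.val_injective
  have hcoef : ∀ (Y : LaurentSeries A) (z : LaurentSeries K₀),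
      coeffMap (algebraMap K₀ NfQb) z = coeffMap A.subtype Y →
      ∃ Z : LaurentSeries (nfSub A K₀), coeffMap (algebraMap (nfSub A K₀) K₀) Z = z ∧
        coeffMap (nfRes A K₀) Z = coeffMap (IsLocalRing.residue A) Y := by
    intro Y z hz
    have hmem : ∀ n, z.coeff n ∈ nfSub A K₀ := by
      intro n
      have h := congrArg (fun w => w.coeff n) hz
      simp only [coeffMap_coeff] at h
      show algebraMap K₀ NfQb (z.coeff n) ∈ A
      rw [h]
      exact (Y.coeff n).2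
    obtain ⟨Z, hZ⟩ := injDesc_exists_coeffMap (algebraMap (nfSub A K₀) K₀) hfinj z
      (fun n => ⟨⟨z.coeff n, hmem n⟩, rfl⟩)
    refine ⟨Z, hZ, ?_⟩
    ext n
    rw [coeffMap_coeff, coeffMap_coeff, nfRes_apply]
    congr 1
    apply Subtype.ext
    rw [coe_nfSubIncl]
    have h1 := congrArg (fun w => w.coeff n) hZ
    have h2 := congrArg (fun w => w.coeff n) hz
    simp only [coeffMap_coeff] at h1 h2
    have h3 : ((Z.coeff n : nfSub A K₀) : K₀) = z.coeff n := h1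
    rw [h3, h2]
    rfl
  obtain ⟨Z₁, hZ₁, hZ₁r⟩ := hcoef Y₁ z₁ hz₁y
  obtain ⟨Z₂, hZ₂, hZ₂r⟩ := hcoef Y₂ z₂ hz₂y
  -- 5. the `p`-th root
  have hpK : ((p : ℕ) : K₀) ≠ 0 := by exact_mod_cast hp.ne_zero
  set f : LaurentSeries K₀ := z₁ * z₂⁻¹ with hf
  have hf0 : f ≠ 0 := mul_ne_zero hz₁0 (inv_ne_zero hz₂0)
  have hfz : f * z₂ = z₁ := by
    rw [hf, mul_assoc, inv_mul_cancel₀ hz₂0, mul_one]
  have hlc : f.leadingCoeff * z₂.leadingCoeff = z₁.leadingCoeff := by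
    rw [← HahnSeries.leadingCoeff_mul, hfz]
  have hfo : f.order + z₂.order = z₁.order := by
    rw [← HahnSeries.order_mul_of_ne_zero, hfz]
    exact mul_ne_zero (HahnSeries.leadingCoeff_ne_zero.mpr hf0)
      (HahnSeries.leadingCoeff_ne_zero.mpr hz₂0)
  have ho₁ : z₁.order = y₁.order := by
    rw [← hz₁y, nf_order_coeffMap _ hginj]
  have ho₂ : z₂.order = y₂.order := by
    rw [← hz₂y, nf_order_coeffMap _ hginj]
  have hl₁ : algebraMap K₀ NfQb z₁.leadingCoeff = y₁.leadingCoeff := by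
    rw [← hz₁y, nf_leadingCoeff_coeffMap _ hginj]
  have hl₂ : algebraMap K₀ NfQb z₂.leadingCoeff = y₂.leadingCoeff := by
    rw [← hz₂y, nf_leadingCoeff_coeffMap _ hginj]
  have hford : (p : ℤ) ∣ f.order := by
    have : f.order = y₁.order - y₂.order := by rw [← ho₁, ← ho₂, ← hfo]; ring
    rw [this]
    exact hord
  have hfc : ∃ c : K₀, c ^ p = f.leadingCoeff := by
    refine ⟨⟨c₀, hc₀K⟩, ?_⟩
    apply hginj
    rw [map_pow]
    have h1 : algebraMap K₀ NfQb (⟨c₀, hc₀K⟩ : K₀) = c₀ := rfl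
    rw [h1, hc₀]
    have h2 := congrArg (algebraMap K₀ NfQb) hlc
    rw [map_mul, hl₁, hl₂] at h2
    rw [div_eq_iff ha₂]
    exact h2.symm
  obtain ⟨h0, hh0⟩ := bgRoot p hpK f hf0 hford hfc
  -- 6. + 7.
  have hmem₁ : coeffMap (algebraMap (nfSub A K₀) K₀) Z₁ ∈ fieldC K₀ L M H := by
    rw [hZ₁]; exact hz₁
  have hmem₂ : coeffMap (algebraMap (nfSub A K₀) K₀) Z₂ ∈ fieldC K₀ L M H := by
    rw [hZ₂]; exact hz₂
  have hh0mem : h0 ∈ fieldC K₀ L M H := by
    refine hNF A hA K₀ hK₀ ⟨⟨ζp, hζpK⟩, ?_⟩ ⟨⟨ζN, hζNK⟩, ?_⟩ Z₁ Z₂ h0 hmem₁ hmem₂ ?_ ?_ ?_ ?_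
    · exact IsPrimitiveRoot.of_map_of_injective (f := algebraMap K₀ NfQb) hζp hginj
    · exact IsPrimitiveRoot.of_map_of_injective (f := algebraMap K₀ NfQb) hζN hginj
    · rw [hZ₁r, hZ₂r, hred]
    · rw [hZ₂r]; exact hne
    · rw [hZ₁, hZ₂, hh0, hfz]
    · intro Q
      obtain ⟨v, hv⟩ := nfH_hext K₀ L M H Q
      have e₁ : nfEmbH K₀ L M H ⟨_, hmem₁⟩ = (⟨y₁, h₁⟩ : fieldBar L M H) := by
        apply Subtype.ext
        rw [nfEmbH_coe]
        show coeffMap (algebraMap K₀ NfQb) (coeffMap (algebraMap (nfSub A K₀) K₀) Z₁) = y₁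
        rw [hZ₁, hz₁y]
      have e₂ : nfEmbH K₀ L M H ⟨_, hmem₂⟩ = (⟨y₂, h₂⟩ : fieldBar L M H) := by
        apply Subtype.ext
        rw [nfEmbH_coe]
        show coeffMap (algebraMap K₀ NfQb) (coeffMap (algebraMap (nfSub A K₀) K₀) Z₂) = y₂
        rw [hZ₂, hz₂y]
      rw [← hv, ← hv, e₁, e₂]
      exact hdiv v
  refine ⟨nfEmbH K₀ L M H ⟨h0, hh0mem⟩, ?_⟩
  apply Subtype.ext
  show (coeffMap (algebraMap K₀ NfQb) h0) ^ p * y₂ = y₁
  rw [← hz₁y, ← hz₂y, ← map_pow, ← map_mul, hh0, hfz]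

end Fermat.Agent.ES1

end
end ZBES1_002_13

/-! ### bundled: `Fermat.Agent.ES1.RamLineH` -/
section ZBES1_002_14

/-!
# ES₁/INJ₁: hypotheses `(b)`, `(b')` of the tame specialization theorem over the `j`-line
for `fieldC K₀ L M H` and its Kummer extensions (fork of `INJ/RamJLine.lean`, `INJ/BGRam.lean`,
`INJ/BGRamNF.lean`), from the ramification data `RamJH L M H` (piece F4).
-/

set_option autoImplicit false
set_option linter.style.haveILetI false
set_option linter.unusedSectionVars false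
set_option synthInstance.maxHeartbeats 400000
set_option maxHeartbeats 1000000

namespace Fermat.Agent.ES1

open Polynomial IntermediateField AlgebraicCurve Fermat.Agent.S24 Fermat.Agent.INJ ModularCurve

section JLine

variable {A₀ E Lf : Type} {F₀ : Type*}
  [CommRing A₀] [Field E] [Algebra A₀ E] [Field Lf] [Algebra E Lf] [Algebra A₀ Lf]
  [IsScalarTower A₀ E Lf]
  [Algebra E Kb] [Field F₀] [Algebra E F₀] [Algebra F₀ Lf] [IsScalarTower E F₀ Lf]
  (L M : ℕ) (H : Subgroup (ZMod M)ˣ) [NeZero L]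
  [Algebra F₀ (fieldBar L M H)] [Algebra E (fieldBar L M H)] [IsScalarTower E F₀ (fieldBar L M H)]
  [IsScalarTower E Kb (fieldBar L M H)]

/-- every place of `fieldBar` lies over a point of the `j`-line -/
theorem ramJH_cases (hR : RamJH L M H) (v : Place Kb (fieldBar L M H)) :
    (∃ c : Kb, 0 < v.ord (jFH L M H - algebraMap Kb (fieldBar L M H) c)) ∨
      v.ord (jFH L M H) < 0 := by
  by_cases hv : v.ord (jFH L M H) < 0
  · exact Or.inr hv
  · left
    have hmem : jFH L M H ∈ v.toValuationSubring := PlaceAux.mem_of_ord_nonneg v (not_lt.mp hv)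
    have htr : Transcendental Kb (jFH L M H) := by
      intro halg
      apply transcendental_jBar
      have := (isAlgebraic_algHom_iff (fieldBar L M H).val (Subtype.val_injective)).mpr halg
      exact this
    haveI := hR.finite
    have halg : Algebra.IsAlgebraic Kb⟮jFH L M H⟯ (fieldBar L M H) :=
      Algebra.IsAlgebraic.of_finite _ _
    obtain ⟨c, hc⟩ := exists_sub_mem_nonunits (jFH L M H) htr halg v _ hmem
    refine ⟨c, (PlaceAux.ord_pos_iff_mem_nonunits v ?_).mpr hc⟩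
    intro h0
    exact htr ⟨Polynomial.X - Polynomial.C c, Polynomial.X_sub_C_ne_zero c, by simpa using h0⟩

/-- **B2-b over the `j`-line** for `fieldBar L M H`. -/
theorem ramBH_jline [CharZero E] [Algebra.IsAlgebraic E Kb] (hR : RamJH L M H)
    (t₀ : F₀) (ht₀ : algebraMap F₀ (fieldBar L M H) t₀ = jFH L M H) (S : Finset A₀)
    (hS : ∀ c ∈ S, algebraMap E Kb (algebraMap A₀ E c) = 0 ∨
      algebraMap E Kb (algebraMap A₀ E c) = 1728)
    (h0 : ∃ c ∈ S, algebraMap E Kb (algebraMap A₀ E c) = 0)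
    (h1728 : ∃ c ∈ S, algebraMap E Kb (algebraMap A₀ E c) = 1728)
    (e : ℕ) (h6 : 6 ∣ e) (hN : L ∣ e)
    (hkum : ∀ P : Place E Lf, ∃ Q : Place E F₀,
      ∀ y : F₀, P.ord (algebraMap F₀ Lf y) = Q.ord y)
    (hext : ∀ Q : Place E F₀, ∃ v : Place Kb (fieldBar L M H),
      ∀ y : F₀, v.ord (algebraMap F₀ (fieldBar L M H) y) = Q.ord y) :
    TSUnramified (E := E) (algebraMap F₀ Lf t₀) S ∧
      TSTame (E := E) (algebraMap F₀ Lf t₀) S e := by
  refine ramB_assemble A₀ E Kb t₀ S e hkum hext ?_ ?_ ?_ ?_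
  · intro v hv
    rw [ht₀] at hv ⊢
    rcases ramJH_cases L M H hR v with h | h
    · exact h
    · omega
  · intro v c₀ hc₀ hv
    rw [ht₀] at hv ⊢
    obtain ⟨c, hc, hc0⟩ := h0
    obtain ⟨c', hc', hc1728⟩ := h1728
    refine hR.gen c₀ ?_ ?_ v hv
    · rw [← hc0]; exact hc₀ c hc
    · rw [← hc1728]; exact hc₀ c' hc'
  · intro v c hc hv
    rw [ht₀] at hv ⊢
    rcases hS c hc with h | h
    · rw [h] at hv ⊢
      rw [map_zero, sub_zero] at hv ⊢
      exact (hR.zero v hv).trans (by exact_mod_cast (by omega : 3 ∣ e))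
    · rw [h] at hv ⊢
      exact (hR.e1728 v hv).trans (by exact_mod_cast (by omega : 2 ∣ e))
  · intro v hv
    rw [ht₀] at hv ⊢
    have h := hR.inf v hv
    rw [v.ord_inv, neg_dvd] at h
    exact h.trans (by exact_mod_cast hN)

end JLine

section NF

variable (K₀ : IntermediateField ℚ NfQb) (L M : ℕ) (H : Subgroup (ZMod M)ˣ) [NeZero L]

theorem nfEmbH_jCH : nfEmbH K₀ L M H (jCH K₀ L M H) = jFH L M H := by
  apply Subtype.ext
  rw [nfEmbH_coe, coe_jCH]
  show coeffMap (algebraMap K₀ NfQb) (jqModC K₀) = jBar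
  rw [hmMem_jBar_eq]
  exact map_jqModC (algebraMap K₀ NfQb)

/-- **(b), (b') over the `j`-line for `fieldC K₀ L M H` itself** (number-field form). -/
theorem nfH_ram_jline_self (hR : RamJH L M H) {A₀ : Type} [CommRing A₀] [Algebra A₀ K₀]
    [Algebra A₀ (fieldC K₀ L M H)] [IsScalarTower A₀ K₀ (fieldC K₀ L M H)]
    (S : Finset A₀)
    (hS : ∀ c ∈ S, algebraMap A₀ K₀ c = 0 ∨ algebraMap A₀ K₀ c = 1728)
    (h0 : ∃ c ∈ S, algebraMap A₀ K₀ c = 0)
    (h1728 : ∃ c ∈ S, algebraMap A₀ K₀ c = 1728)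
    (e : ℕ) (h6 : 6 ∣ e) (hN : L ∣ e) :
    TSUnramified (E := K₀) (jCH K₀ L M H) S ∧ TSTame (E := K₀) (jCH K₀ L M H) S e := by
  letI := nfH_algebra K₀ L M H
  haveI := nfH_tower K₀ L M H
  haveI := nfH_isAlgebraic K₀
  refine ramBH_jline (E := K₀) (Lf := fieldC K₀ L M H) (F₀ := fieldC K₀ L M H) L M H hR
    (jCH K₀ L M H) (nfEmbH_jCH K₀ L M H) S ?_ ?_ ?_ e h6 hN (fun P => ⟨P, fun y => rfl⟩)
    (nfH_hext K₀ L M H)
  · intro c hc
    rcases hS c hc with h' | h'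
    · left; rw [h', map_zero]
    · right; rw [h', map_ofNat]
  · obtain ⟨c, hc, h'⟩ := h0
    exact ⟨c, hc, by rw [h', map_zero]⟩
  · obtain ⟨c, hc, h'⟩ := h1728
    exact ⟨c, hc, by rw [h', map_ofNat]⟩

variable (h : LaurentSeries K₀)

/-- **(b), (b') over the `j`-line for the Kummer extension** (number-field form). -/
theorem nfH_ram_jline (hR : RamJH L M H) {A₀ : Type} [CommRing A₀] [Algebra A₀ K₀]
    [Algebra A₀ (kumFieldG (fieldC K₀ L M H) h)]
    [IsScalarTower A₀ K₀ (kumFieldG (fieldC K₀ L M H) h)]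
    (p : ℕ) (hp : p ≠ 0) (w : fieldC K₀ L M H)
    (hw : h ^ p = (w : LaurentSeries K₀)) (hh0 : h ≠ 0)
    (hdiv : ∀ Q : Place K₀ (fieldC K₀ L M H), (p : ℤ) ∣ Q.ord w)
    (S : Finset A₀)
    (hS : ∀ c ∈ S, algebraMap A₀ K₀ c = 0 ∨ algebraMap A₀ K₀ c = 1728)
    (h0 : ∃ c ∈ S, algebraMap A₀ K₀ c = 0)
    (h1728 : ∃ c ∈ S, algebraMap A₀ K₀ c = 1728)
    (e : ℕ) (h6 : 6 ∣ e) (hN : L ∣ e) :
    TSUnramified (E := K₀) (kumInclG (fieldC K₀ L M H) h (jCH K₀ L M H)) S ∧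
      TSTame (E := K₀) (kumInclG (fieldC K₀ L M H) h (jCH K₀ L M H)) S e := by
  letI := kumAlgebraG (fieldC K₀ L M H) h
  haveI := kum_isScalarTowerG (fieldC K₀ L M H) h
  letI := nfH_algebra K₀ L M H
  haveI := nfH_tower K₀ L M H
  haveI := nfH_isAlgebraic K₀
  refine ramBH_jline (E := K₀) (Lf := kumFieldG (fieldC K₀ L M H) h) L M H hR
    (jCH K₀ L M H) (nfEmbH_jCH K₀ L M H) S ?_ ?_ ?_ e h6 hN
    (nfH_hkum K₀ L M H h p hp w hw hh0 hdiv) (nfH_hext K₀ L M H)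
  · intro c hc
    rcases hS c hc with h' | h'
    · left; rw [h', map_zero]
    · right; rw [h', map_ofNat]
  · obtain ⟨c, hc, h'⟩ := h0
    exact ⟨c, hc, by rw [h', map_zero]⟩
  · obtain ⟨c, hc, h'⟩ := h1728
    exact ⟨c, hc, by rw [h', map_ofNat]⟩

end NF

end Fermat.Agent.ES1


end ZBES1_002_14

/-! ### bundled: `Fermat.Agent.ES1.G2.PrimH` -/
section ZBES1_002_15
/-
ES₁ / G2, piece PRIM (helper81): every `u ≠ 0` of `fieldBar L M H` is `c · y₁ / y₂` with `c ∈ ℚ̄^×`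
and `y₁, y₂ ∈ fieldBar L M H` primitive `A`-integral Laurent series.

Generic form (`es1prim_adjoin`): the same for `ℚ̄(g_i : i ∈ ι)`, any family of Laurent series `g_i`
with INTEGER coefficients.  (Fork of `ES/G2/Prim.lean`, helper32.)
-/

set_option autoImplicit false

noncomputable section

namespace Fermat.Agent.ES1.G2

open ModularCurve AlgebraicCurve Fermat.Agent.ES Fermat.Agent.ES.G2

section Generic

variable {ι : Type*} (g : ι → LaurentSeries Qb)

/-- the `q`-coefficients of `P(g_i)` lie in the `ℤ`-span of the coefficients of `P` -/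
theorem es1prim_coeff_aeval_mem (hg : ∀ i, g i ∈ primIntSeries) (P : MvPolynomial ι Qb)
    (n : ℤ) :
    (MvPolynomial.aeval g P).coeff n ∈ Submodule.span ℤ (P.coeffs : Set Qb) := by
  classical
  rw [show MvPolynomial.aeval g P =
      ∑ α ∈ P.support, MvPolynomial.aeval g
        (MvPolynomial.monomial α (MvPolynomial.coeff α P)) by
    conv_lhs => rw [P.as_sum, map_sum]]
  rw [HahnSeries.coeff_sum]
  refine Submodule.sum_mem _ fun α hα => ?_
  rw [MvPolynomial.aeval_monomial]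
  have h1 : (α.prod fun i k => g i ^ k) ∈ primIntSeries :=
    Subring.prod_mem _ fun i _ => Subring.pow_mem _ (hg i) _
  refine Submodule.span_mono ?_ (prim_coeff_mul_mem _ h1 n)
  rintro x rfl
  exact Finset.mem_coe.2 (MvPolynomial.coeff_mem_coeffs α (MvPolynomial.mem_support_iff.1 hα))

/-- a nonzero element of `ℚ̄[g_i]` is a constant times a primitive integral series -/
theorem es1prim_exists_primitive (hg : ∀ i, g i ∈ primIntSeries) (A : ValuationSubring Qb)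
    (P : MvPolynomial ι Qb) (hP : MvPolynomial.aeval g P ≠ 0) :
    ∃ (s : Qb) (y : LaurentSeries Qb), s ≠ 0 ∧
      y ∈ IntermediateField.adjoin Qb (Set.range g) ∧ KronPrim A y ∧
      MvPolynomial.aeval g P = HahnSeries.C s * y := by
  set yP := MvPolynomial.aeval g P with hyP
  set S : Set Qb := {x | x ≠ 0 ∧ ∃ n : ℤ, yP.coeff n = x} with hS
  have hne : S.Nonempty := by
    by_contra hcon
    apply hP
    ext n
    by_contra h
    exact hcon ⟨yP.coeff n, h, n, rfl⟩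
  obtain ⟨s₀, ⟨hs₀0, n₀, hn₀⟩, hmin⟩ := exists_min_of_mem_span A P.coeffs S hne (fun s hs => hs.1)
    (by rintro s ⟨-, n, rfl⟩; exact es1prim_coeff_aeval_mem g hg P n)
  have hmem : yP ∈ IntermediateField.adjoin Qb (Set.range g) := by
    have : yP ∈ Algebra.adjoin Qb (Set.range g) := by
      rw [Algebra.adjoin_range_eq_range_aeval]; exact ⟨P, rfl⟩
    exact IntermediateField.algebra_adjoin_le_adjoin _ _ this
  refine ⟨s₀, HahnSeries.C s₀⁻¹ * yP, hs₀0, ?_, ⟨?_, n₀, ?_⟩, ?_⟩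
  · refine mul_mem ?_ hmem
    rw [← LaurentSeries.algebraMap_apply]
    exact IntermediateField.algebraMap_mem _ _
  · intro n
    rw [HahnSeries.C_mul_eq_smul, HahnSeries.coeff_smul, smul_eq_mul]
    by_cases h : yP.coeff n = 0
    · rw [h, mul_zero]; exact A.zero_mem
    · have := hmin _ ⟨h, n, rfl⟩
      rwa [div_eq_inv_mul] at this
  · rw [HahnSeries.C_mul_eq_smul, HahnSeries.coeff_smul, smul_eq_mul, hn₀, inv_mul_cancel₀ hs₀0]
    intro h
    rw [ValuationSubring.mem_nonunits_iff, map_one] at h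
    exact lt_irrefl _ h
  · rw [← mul_assoc, ← map_mul, mul_inv_cancel₀ hs₀0, map_one, one_mul]

/-- **PRIM, generic form**: in `ℚ̄(g_i)`, `g_i` with integer coefficients, every `u ≠ 0` is
`c · y₁ / y₂` with `y₁`, `y₂` primitive `A`-integral. -/
theorem es1prim_adjoin (hg : ∀ i, g i ∈ primIntSeries) (A : ValuationSubring Qb)
    (u : LaurentSeries Qb) (hu : u ∈ IntermediateField.adjoin Qb (Set.range g)) (hu0 : u ≠ 0) :
    ∃ (c : Qb) (y₁ y₂ : LaurentSeries Qb), c ≠ 0 ∧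
      y₁ ∈ IntermediateField.adjoin Qb (Set.range g) ∧
      y₂ ∈ IntermediateField.adjoin Qb (Set.range g) ∧
        KronPrim A y₁ ∧ KronPrim A y₂ ∧ u * y₂ = HahnSeries.C c * y₁ := by
  obtain ⟨P, Q, hPQ⟩ := (IntermediateField.mem_adjoin_range_iff Qb _ _).1 hu
  have hQ0 : MvPolynomial.aeval g Q ≠ 0 := by
    intro h; rw [h, div_zero] at hPQ; exact hu0 hPQ
  have hP0 : MvPolynomial.aeval g P ≠ 0 := by
    intro h; rw [h, zero_div] at hPQ; exact hu0 hPQ
  obtain ⟨s₁, y₁, hs₁, hy₁m, hy₁, hP⟩ := es1prim_exists_primitive g hg A P hP0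
  obtain ⟨s₂, y₂, hs₂, hy₂m, hy₂, hQ⟩ := es1prim_exists_primitive g hg A Q hQ0
  refine ⟨s₁ * s₂⁻¹, y₁, y₂, mul_ne_zero hs₁ (inv_ne_zero hs₂), hy₁m, hy₂m, hy₁, hy₂, ?_⟩
  have h1 : u * MvPolynomial.aeval g Q = MvPolynomial.aeval g P := by
    rw [hPQ, div_mul_cancel₀ _ hQ0]
  rw [hP, hQ] at h1
  have hC : (HahnSeries.C s₂ : LaurentSeries Qb) ≠ 0 := by
    intro h
    apply hs₂
    have := congrArg (fun f : LaurentSeries Qb => f.coeff 0) h
    simpa using this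
  have h2 : HahnSeries.C s₂ * (u * y₂) =
      HahnSeries.C s₂ * (HahnSeries.C (s₁ * s₂⁻¹) * y₁) := by
    calc HahnSeries.C s₂ * (u * y₂)
        = u * (HahnSeries.C s₂ * y₂) := by ring
      _ = HahnSeries.C s₁ * y₁ := h1
      _ = HahnSeries.C s₂ * (HahnSeries.C (s₁ * s₂⁻¹) * y₁) := by
        rw [← mul_assoc, ← map_mul]
        congr 2
        field_simp
  exact mul_left_cancel₀ hC h2

end Generic

/-! ## The field of `X_H(L; M)` -/

variable (L M : ℕ) (H : Subgroup (ZMod M)ˣ)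

/-- the generators of `fieldC ℚ̄ L M H` have integer coefficients -/
theorem es1prim_gen_mem {x : LaurentSeries Qb}
    (hx : x ∈ divisorExpansionsC Qb L ∪ diamondExpansionsC Qb L M H) : x ∈ primIntSeries := by
  rcases hx with ⟨d, hd, -, rfl⟩ | ⟨e, he, a, -, rfl⟩
  · refine ⟨qExpand ℤ d (jqModC ℤ), ?_⟩
    rw [coeffMap_qExpand, coeffMap_jqModC]
  · refine ⟨qExpand ℤ e (sZ M H a), ?_⟩
    rw [coeffMap_qExpand]
    rfl

/-- **PRIM** for `fieldC ℚ̄ L M H` -/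
theorem es1prim_fieldC (A : ValuationSubring Qb) (u : LaurentSeries Qb)
    (hu : u ∈ fieldC Qb L M H) (hu0 : u ≠ 0) :
    ∃ (c : Qb) (y₁ y₂ : LaurentSeries Qb), c ≠ 0 ∧
      y₁ ∈ fieldC Qb L M H ∧ y₂ ∈ fieldC Qb L M H ∧
        KronPrim A y₁ ∧ KronPrim A y₂ ∧ u * y₂ = HahnSeries.C c * y₁ := by
  have hrange : Set.range (fun x : ↥(divisorExpansionsC Qb L ∪ diamondExpansionsC Qb L M H) =>
      (x : LaurentSeries Qb)) = divisorExpansionsC Qb L ∪ diamondExpansionsC Qb L M H :=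
    Subtype.range_coe
  have key := es1prim_adjoin
    (fun x : ↥(divisorExpansionsC Qb L ∪ diamondExpansionsC Qb L M H) => (x : LaurentSeries Qb))
    (fun x => es1prim_gen_mem L M H x.2) A u (by rw [hrange]; exact hu) hu0
  rw [hrange] at key
  exact key

/-- **PRIM** for `fieldBar L M H` -/
theorem es1prim_fieldBar (A : ValuationSubring Qb) (u : fieldBar L M H) (hu : u ≠ 0) :
    ∃ (c : Qb) (y₁ y₂ : LaurentSeries Qb), c ≠ 0 ∧
      y₁ ∈ fieldBar L M H ∧ y₂ ∈ fieldBar L M H ∧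
        KronPrim A y₁ ∧ KronPrim A y₂ ∧
          (u : LaurentSeries Qb) * y₂ = HahnSeries.C c * y₁ := by
  have hu0 : (u : LaurentSeries Qb) ≠ 0 := fun h => hu (Subtype.ext h)
  have hmem : (u : LaurentSeries Qb) ∈ fieldC Qb L M H := by
    rw [← es1f_fieldBar_eq]; exact u.2
  obtain ⟨c, y₁, y₂, hc, h1, h2, h3, h4, h5⟩ := es1prim_fieldC L M H A _ hmem hu0
  rw [← es1f_fieldBar_eq] at h1 h2
  exact ⟨c, y₁, y₂, hc, h1, h2, h3, h4, h5⟩

end Fermat.Agent.ES1.G2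

end
end ZBES1_002_15

/-! ### bundled: `Fermat.Agent.ES1.DescentLevelH` -/
section ZBES1_002_16

/-!
# ES₁ / INJ₁-DL: descent of `StmtINJH` along `F_H(L) ⊆ F_H(L')`
(fork of `INJ/DescentLevel.lean`)

* `dlh_bar_le_fieldBar` : `F₀(L) ≤ F_H(L)`;
* `dlh_relfinrank` : `StmtRelDegH → [F_H(L ℓ') : F_H(L)] = ℓ' + 1` (`ℓ' ∤ L` prime, `M ∣ L`);
* `stmtINJH_descent_of_le`, `_mul_prime`, `_lcm`, `stmtINJH_descent_three`,
  `stmtINJH_descent_two`.
-/

set_option autoImplicit false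

namespace Fermat.Agent.ES1

open ModularCurve AlgebraicCurve IntermediateField Fermat.Agent.INJ

/-- `F₀(L) ≤ F_H(L)` -/
theorem dlh_bar_le_fieldBar (L M : ℕ) (H : Subgroup (ZMod M)ˣ) :
    modularFunctionFieldBar L ≤ fieldBar L M H := by
  refine es1h_laurentBaseChange_mono _ ?_
  have h := full_le_fieldC ℚ L M H
  rwa [modularFunctionFieldFullC_rat] at h

/-- **the relative degree of `F_H(L ℓ')` over `F_H(L)`** is `ℓ' + 1`. -/
theorem dlh_relfinrank (hdeg : StmtRelDegH) (L M : ℕ) (H : Subgroup (ZMod M)ˣ) (ℓ' : ℕ)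
    (hL : L ≠ 0) (hML : M ∣ L) (hℓ' : ℓ'.Prime) (hℓ'L : ¬ ℓ' ∣ L) :
    (fieldBar L M H).relfinrank (fieldBar (L * ℓ') M H) = ℓ' + 1 := by
  have : NeZero L := ⟨hL⟩
  have : NeZero ℓ' := ⟨hℓ'.ne_zero⟩
  obtain ⟨d, hd0, hd⟩ := hdeg M H
  have h1 := hd L hL hML
  have h2 := hd (L * ℓ') (Nat.mul_ne_zero hL hℓ'.ne_zero) (Dvd.dvd.mul_right hML ℓ')
  have h0 := Fermat.Agent.ES.G2.hdeg_relfinrank L ℓ' hℓ' hℓ'L
  have t1 := IntermediateField.relfinrank_mul_relfinrank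
    (Fermat.Agent.ES.G2.hdeg_bar_le L ℓ') (dlh_bar_le_fieldBar (L * ℓ') M H)
  have t2 := IntermediateField.relfinrank_mul_relfinrank
    (dlh_bar_le_fieldBar L M H) (es1h_fieldBar_mono M H (dvd_mul_right L ℓ'))
  rw [h0, h2] at t1
  rw [h1, ← t1, mul_comm] at t2
  exact Nat.eq_of_mul_eq_mul_right (Nat.pos_of_ne_zero hd0) t2

/-- **DESCENT-LEVEL**, generic form. -/
theorem stmtINJH_descent_of_le (L L' M : ℕ) (H : Subgroup (ZMod M)ˣ) (ℓ p : ℕ)
    (hle : fieldBar L M H ≤ fieldBar L' M H)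
    (hfin : (fieldBar L M H).relfinrank (fieldBar L' M H) ≠ 0)
    (hcop : Nat.Coprime ((fieldBar L M H).relfinrank (fieldBar L' M H)) p)
    (h : StmtINJH L' M H ℓ p) : StmtINJH L M H ℓ p := by
  intro A hA Y₁ Y₂ h₁ h₂ hred hne hpl
  have h₁' : coeffMap A.subtype Y₁ ∈ fieldBar L' M H := hle h₁
  have h₂' : coeffMap A.subtype Y₂ ∈ fieldBar L' M H := hle h₂
  have hy₂ : coeffMap A.subtype Y₂ ≠ 0 := dl_coeffMap_subtype_ne_zero A hne
  have hy₁ : coeffMap A.subtype Y₁ ≠ 0 := dl_coeffMap_subtype_ne_zero A (by rw [hred]; exact hne)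
  obtain ⟨h', hh'⟩ := h A hA Y₁ Y₂ h₁' h₂' hred hne (fun P' => by
    obtain ⟨P, ε, -, hP⟩ := dl_place_restrict hle hfin P'
    rw [hP _ h₁ hy₁, hP _ h₂ hy₂, ← mul_sub]
    exact Dvd.dvd.mul_left (hpl P) ε)
  have hval : (h' : LaurentSeries (AlgebraicClosure ℚ)) ^ p * coeffMap A.subtype Y₂
      = coeffMap A.subtype Y₁ := by
    have := congrArg Subtype.val hh'
    simpa using this
  have hu : coeffMap A.subtype Y₁ * (coeffMap A.subtype Y₂)⁻¹
      = (h' : LaurentSeries (AlgebraicClosure ℚ)) ^ p := by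
    rw [← hval, mul_assoc, mul_inv_cancel₀ hy₂, mul_one]
  obtain ⟨g, hg, hug⟩ := dl_descent_pow hle hfin hcop
    (coeffMap A.subtype Y₁ * (coeffMap A.subtype Y₂)⁻¹) (h' : LaurentSeries (AlgebraicClosure ℚ))
    (mul_mem h₁ (inv_mem h₂)) h'.2 hu
  refine ⟨⟨g, hg⟩, ?_⟩
  apply Subtype.ext
  show g ^ p * coeffMap A.subtype Y₂ = coeffMap A.subtype Y₁
  rw [← hug, mul_assoc, inv_mul_cancel₀ hy₂, mul_one]

/-- **DESCENT-LEVEL** along `L ∣ L * ℓ'`, `ℓ'` a prime not dividing `L`, `p` prime to `ℓ' + 1`. -/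
theorem stmtINJH_descent_mul_prime (hdeg : StmtRelDegH) (L M : ℕ) (H : Subgroup (ZMod M)ˣ)
    (ℓ' ℓ p : ℕ) (hL : L ≠ 0) (hML : M ∣ L) (hℓ' : ℓ'.Prime) (hℓ'L : ¬ ℓ' ∣ L)
    (hcop : Nat.Coprime (ℓ' + 1) p) (h : StmtINJH (L * ℓ') M H ℓ p) : StmtINJH L M H ℓ p := by
  have hd := dlh_relfinrank hdeg L M H ℓ' hL hML hℓ' hℓ'L
  refine stmtINJH_descent_of_le L (L * ℓ') M H ℓ p
    (es1h_fieldBar_mono M H (dvd_mul_right L ℓ')) ?_ ?_ h
  · rw [hd]; exact Nat.succ_ne_zero ℓ'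
  · rw [hd]; exact hcop

/-- **DESCENT-LEVEL** along `L ∣ lcm ℓ' L`, `ℓ'` prime, `p` prime to `ℓ' + 1`. -/
theorem stmtINJH_descent_lcm (hdeg : StmtRelDegH) (L M : ℕ) (H : Subgroup (ZMod M)ˣ)
    (ℓ' ℓ p : ℕ) (hL : L ≠ 0) (hML : M ∣ L) (hℓ' : ℓ'.Prime)
    (hcop : Nat.Coprime (ℓ' + 1) p) (h : StmtINJH (Nat.lcm ℓ' L) M H ℓ p) :
    StmtINJH L M H ℓ p := by
  by_cases hd : ℓ' ∣ L
  · rwa [Nat.lcm_eq_right hd] at h
  · have hc : Nat.Coprime ℓ' L := (Nat.Prime.coprime_iff_not_dvd hℓ').mpr hd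
    rw [hc.lcm_eq_mul, Nat.mul_comm] at h
    exact stmtINJH_descent_mul_prime hdeg L M H ℓ' ℓ p hL hML hℓ' hd hcop h

/-- **DESCENT-LEVEL for `ℓ = 3`**: the auxiliary level `lcm 2 L`. -/
theorem stmtINJH_descent_three (hdeg : StmtRelDegH) (L M : ℕ) (H : Subgroup (ZMod M)ˣ) (p : ℕ)
    (hL : L ≠ 0) (hML : M ∣ L) (hp : p.Prime) (hp3 : 3 ≠ p)
    (h : StmtINJH (Nat.lcm 2 L) M H 3 p) : StmtINJH L M H 3 p := by
  refine stmtINJH_descent_lcm hdeg L M H 2 3 p hL hML Nat.prime_two ?_ h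
  exact (Nat.coprime_primes Nat.prime_three hp).mpr hp3

/-- **DESCENT-LEVEL for `ℓ = 2`**: the auxiliary level `lcm 3 L`. -/
theorem stmtINJH_descent_two (hdeg : StmtRelDegH) (L M : ℕ) (H : Subgroup (ZMod M)ˣ) (p : ℕ)
    (hL : L ≠ 0) (hML : M ∣ L) (hp : p.Prime) (hp2 : 2 ≠ p)
    (h : StmtINJH (Nat.lcm 3 L) M H 2 p) : StmtINJH L M H 2 p := by
  refine stmtINJH_descent_lcm hdeg L M H 3 2 p hL hML Nat.prime_three ?_ h
  have h2 : Nat.Coprime 2 p := (Nat.coprime_primes Nat.prime_two hp).mpr hp2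
  have : (3 + 1 : ℕ) = 2 ^ 2 := by norm_num
  rw [this]
  exact Nat.Coprime.pow_left 2 h2

end Fermat.Agent.ES1


end ZBES1_002_16

/-! ### bundled: `Fermat.Agent.RT.K6.BSer` -/
section ZBES1_002_17

/-!
# RT-K6 / B (3): the formal `q`-expansions at the other cusp (helper96)

* `rtk6bOm M s f a c d = [c s − d f = a] − [c s − d f = −a]` (in `ℤ/M`): the weight of
  `𝕐_a ∣ γ`, `γ = [[1, *], [f, s]]`;
* `rtk6bCoef K r ξ ξ' ω m`: the coefficients of the formal series, in any field `K ∋ ξ`;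
* `rtk6bPhi M r s f a z = r³ · (𝕐_a ∣ γ)(r z)`; `rtk6bPhi_hasSum`, `rtk6bPhi_isHPB`,
  `rtk6bPhi_qExpansion`.
-/

set_option autoImplicit false

open EisensteinSeries UpperHalfPlane ModularForm CongruenceSubgroup Matrix Filter Topology
open Fermat.Agent.ES Fermat.Agent.S48 Fermat.Agent.S23 Fermat.Agent.S24 Fermat.Agent.S28
open Fermat.Agent.ES1
open scoped MatrixGroups Manifold Real

noncomputable section

namespace Fermat.Agent.RT.K6

local notation "𝕢" => Function.Periodic.qParam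

/-! ### the weights -/

/-- the odd indicator of `{a, -a} ⊂ ℤ/M`, with integer values -/
def rtk6bWa (M : ℕ) (a x : ZMod M) : ℤ := (if x = a then 1 else 0) - (if x = -a then 1 else 0)

theorem rtk6bWa_cast (M : ℕ) (a x : ZMod M) : ((rtk6bWa M a x : ℤ) : ℂ) = f2Wa M a x := by
  unfold rtk6bWa f2Wa
  push_cast
  split_ifs <;> simp

theorem rtk6bWa_neg (M : ℕ) (a x : ZMod M) : rtk6bWa M a (-x) = -rtk6bWa M a x := by
  unfold rtk6bWa
  have h1 : (-x = a) ↔ (x = -a) := neg_eq_iff_eq_neg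
  have h2 : (-x = -a) ↔ (x = a) := neg_inj
  simp only [h1, h2]
  ring

theorem rtk6bWa_neg_left (M : ℕ) (a x : ZMod M) : rtk6bWa M (-a) x = -rtk6bWa M a x := by
  unfold rtk6bWa
  rw [neg_neg]
  ring

theorem rtk6bWa_mul_unit (M : ℕ) (u : (ZMod M)ˣ) (a x : ZMod M) :
    rtk6bWa M (a * u) (x * u) = rtk6bWa M a x := by
  unfold rtk6bWa
  have h1 : (x * (u : ZMod M) = a * u) ↔ (x = a) := u.isUnit.mul_left_inj
  have h2 : (x * (u : ZMod M) = -(a * u)) ↔ (x = -a) := by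
    rw [← neg_mul]
    exact u.isUnit.mul_left_inj
  simp only [h1, h2]

/-- the weight `ω_a(c, d) = [c s − d f = a] − [c s − d f = −a]` -/
def rtk6bOm (M : ℕ) (s f : ℤ) (a : ZMod M) (c d : ℤ) : ℤ :=
  rtk6bWa M a (((c * s - d * f : ℤ) : ℤ) : ZMod M)

theorem rtk6bOm_odd (M : ℕ) (s f : ℤ) (a : ZMod M) (c d : ℤ) :
    rtk6bOm M s f a (-c) (-d) = -rtk6bOm M s f a c d := by
  unfold rtk6bOm
  rw [← rtk6bWa_neg]
  congr 1
  push_cast
  ring

theorem rtk6bOm_per (M r : ℕ) (s f : ℤ) (hrf : (M : ℤ) ∣ r * f) (a : ZMod M) (c d : ℤ) :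
    rtk6bOm M s f a c (d + r) = rtk6bOm M s f a c d := by
  unfold rtk6bOm
  congr 1
  rw [ZMod.intCast_eq_intCast_iff_dvd_sub]
  have : c * s - d * f - (c * s - (d + r) * f) = r * f := by ring
  rw [this]
  exact hrf

theorem norm_rtk6bOm_le (M : ℕ) (s f : ℤ) (a : ZMod M) (c d : ℤ) :
    ‖((rtk6bOm M s f a c d : ℤ) : ℂ)‖ ≤ 1 := by
  unfold rtk6bOm
  rw [rtk6bWa_cast]
  exact norm_f2Wa_le M a _

theorem rtk6bOm_neg_left (M : ℕ) (s f : ℤ) (a : ZMod M) (c d : ℤ) :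
    rtk6bOm M s f (-a) c d = -rtk6bOm M s f a c d :=
  rtk6bWa_neg_left M a _

/-! ### the formal coefficients -/

section Formal

variable (K : Type*) [Field K] (r : ℕ) (ξ ξ' : K) (ω : ℤ → ℤ → ℤ)

/-- `A(c, n) = ∑_{j<r} ω(c, j) ξ^{jn}` -/
def rtk6bAf (c n : ℕ) : K := ∑ j : Fin r, ((ω c (j : ℕ) : ℤ) : K) * ξ ^ ((j : ℕ) * n)

/-- the constant term `(r²/6) ∑_j (∑_b ω(0,b) ξ'^{bj}) B₃(j/r)` -/
def rtk6bK0 : K :=
  ((r : K) ^ 2 / 6) * ∑ j : Fin r,
    (∑ b : Fin r, ((ω 0 (b : ℕ) : ℤ) : K) * ξ' ^ ((b : ℕ) * (j : ℕ))) * ((rtk6bB3 r j : ℚ) : K)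

/-- the coefficients -/
def rtk6bCoef (m : ℕ) : K :=
  (if m = 0 then rtk6bK0 K r ξ' ω else 0) +
    ∑ c ∈ m.divisors, rtk6bAf K r ξ ω c (m / c) * ((m / c : ℕ) : K) ^ 2

/-- the formal series -/
def rtk6bSer : PowerSeries K := PowerSeries.mk (rtk6bCoef K r ξ ξ' ω)

variable {K}

theorem rtk6b_map_Af {K' : Type*} [Field K'] (φ : K →+* K') (c n : ℕ) :
    φ (rtk6bAf K r ξ ω c n) = rtk6bAf K' r (φ ξ) ω c n := by
  unfold rtk6bAf
  simp only [map_sum, map_mul, map_pow, map_intCast]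

theorem rtk6b_map_K0 {K' : Type*} [Field K'] (φ : K →+* K') :
    φ (rtk6bK0 K r ξ' ω) = rtk6bK0 K' r (φ ξ') ω := by
  unfold rtk6bK0
  simp only [map_sum, map_mul, map_pow, map_intCast, map_div₀, map_natCast, map_ratCast,
    map_ofNat]

theorem rtk6b_map_coef {K' : Type*} [Field K'] (φ : K →+* K') (m : ℕ) :
    φ (rtk6bCoef K r ξ ξ' ω m) = rtk6bCoef K' r (φ ξ) (φ ξ') ω m := by
  unfold rtk6bCoef
  rw [map_add, map_sum]
  congr 1
  · split_ifs
    · exact rtk6b_map_K0 r ξ' ω φ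
    · exact map_zero φ
  · refine Finset.sum_congr rfl fun c _ => ?_
    rw [map_mul, map_pow, map_natCast, rtk6b_map_Af]

theorem rtk6b_map_ser {K' : Type*} [Field K'] (φ : K →+* K') :
    (rtk6bSer K r ξ ξ' ω).map φ = rtk6bSer K' r (φ ξ) (φ ξ') ω := by
  ext m
  rw [PowerSeries.coeff_map, rtk6bSer, rtk6bSer, PowerSeries.coeff_mk, PowerSeries.coeff_mk,
    rtk6b_map_coef]

end Formal

/-! ### the analytic function -/

/-- `ξ = e^{2πi/r}` -/
def rtk6bXi (r : ℕ) : ℂ := rtk6bZ r 1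

/-- `ξ⁻¹ = e^{-2πi/r}` -/
def rtk6bXi' (r : ℕ) : ℂ := rtk6bZi r (-1)

theorem rtk6bXi_mul_Xi' (r : ℕ) : rtk6bXi r * rtk6bXi' r = 1 := by
  unfold rtk6bXi rtk6bXi'
  rw [← rtk6bZi_natCast, ← rtk6bZi_add]
  unfold rtk6bZi
  simp

theorem rtk6bXi_pow (r : ℕ) [NeZero r] : rtk6bXi r ^ r = 1 := by
  unfold rtk6bXi
  rw [← rtk6bZi_natCast]
  exact rtk6bZi_pow_self r _

theorem rtk6bXi'_pow (r : ℕ) [NeZero r] : rtk6bXi' r ^ r = 1 :=
  rtk6bZi_pow_self r _

section Analytic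

variable (M r : ℕ) [NeZero M] [NeZero r] (s f : ℤ) (a : ZMod M)

/-- the complex weight -/
def rtk6bOmC (c d : ℤ) : ℂ := ((rtk6bOm M s f a c d : ℤ) : ℂ)

/-- `Φ(z) = r³ · f2Const⁻¹ · ∑ ω(c,d) (c r z + d)⁻³` -/
def rtk6bPhi : ℍ → ℂ := fun z =>
  (r : ℂ) ^ 3 * (f2Const⁻¹ * eisC (fun v => rtk6bOmC M s f a (v 0) (v 1)) 3 (scaleN r z))

omit [NeZero M] [NeZero r] in
theorem rtk6bA_eq (c n : ℕ) :
    rtk6bA r (rtk6bOmC M s f a) c n = rtk6bAf ℂ r (rtk6bXi r) (rtk6bOm M s f a) c n := by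
  unfold rtk6bA rtk6bAf rtk6bOmC rtk6bXi
  refine Finset.sum_congr rfl fun j _ => ?_
  rw [rtk6bZ_pow, rtk6bZ_pow, one_mul]

omit [NeZero M] [NeZero r] in
theorem rtk6bHat_eq (j : ℕ) :
    rtk6bHat r (rtk6bOmC M s f a 0) j =
      ∑ b : Fin r, ((rtk6bOm M s f a 0 (b : ℕ) : ℤ) : ℂ) * rtk6bXi' r ^ ((b : ℕ) * j) := by
  unfold rtk6bHat rtk6bOmC rtk6bXi'
  refine Finset.sum_congr rfl fun b _ => ?_
  rw [← rtk6bZi_mul_nat, ← rtk6bZi_mul_nat]
  congr 2
  push_cast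
  ring

theorem rtk6b_f2Const_eq : f2Const = -(2 * (π : ℂ) * Complex.I) ^ 3 := by
  unfold f2Const eisOddConst
  norm_num [Nat.factorial]
  ring

omit [NeZero M] in
open Complex in
/-- **the `q`-expansion of `Φ`**, as an identity of functions -/
theorem rtk6bPhi_hasSum (hrf : (M : ℤ) ∣ r * f) (z : ℍ) :
    HasSum (fun m : ℕ => rtk6bCoef ℂ r (rtk6bXi r) (rtk6bXi' r) (rtk6bOm M s f a) m • 𝕢 1 z ^ m)
      (rtk6bPhi M r s f a z) := by
  have hr0 : (r : ℂ) ≠ 0 := Nat.cast_ne_zero.mpr (NeZero.ne r)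
  have hq : 𝕢 1 (z : ℂ) = cexp (2 * π * Complex.I * z) := by
    simp [Function.Periodic.qParam]
  have hqn := norm_exp_two_pi_I_lt_one z
  have hper : ∀ c d : ℤ, rtk6bOmC M s f a c (d + r) = rtk6bOmC M s f a c d := fun c d => by
    unfold rtk6bOmC
    rw [rtk6bOm_per M r s f hrf]
  have hodd : ∀ c d : ℤ, rtk6bOmC M s f a (-c) (-d) = -rtk6bOmC M s f a c d := fun c d => by
    unfold rtk6bOmC
    rw [rtk6bOm_odd]
    push_cast
    rfl
  have hb : ∀ c d : ℤ, ‖rtk6bOmC M s f a c d‖ ≤ 1 := fun c d => norm_rtk6bOm_le M s f a c d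
  have h1 := rtk6b_eisC_tsum r (rtk6bOmC M s f a) hb hper hodd z
  have h2 := rtk6b_const r (rtk6bOmC M s f a 0) (hper 0)
  -- the non-constant part
  have hsum := rtk6b_summable_divisor_sum (3 - 1) hqn (rtk6bA r (rtk6bOmC M s f a))
    (norm_rtk6bA_le r _ hb)
  have hF : HasSum (fun e : ℕ+ =>
      (∑ c ∈ (e : ℕ).divisors, rtk6bAf ℂ r (rtk6bXi r) (rtk6bOm M s f a) c ((e : ℕ) / c) *
        (((e : ℕ) / c : ℕ) : ℂ) ^ 2) * 𝕢 1 z ^ (e : ℕ))
      (∑' e : ℕ+, (∑ c ∈ (e : ℕ).divisors, rtk6bA r (rtk6bOmC M s f a) c (e / c) *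
        ((e / c : ℕ) : ℂ) ^ (3 - 1)) * cexp (2 * π * Complex.I * z) ^ (e : ℕ)) := by
    refine hsum.hasSum.congr_fun ?_
    intro e
    rw [hq]
    congr 1
    refine Finset.sum_congr rfl fun c _ => ?_
    rw [rtk6bA_eq]
  have hF2 : HasSum (fun m : ℕ =>
      (∑ c ∈ m.divisors, rtk6bAf ℂ r (rtk6bXi r) (rtk6bOm M s f a) c (m / c) *
        ((m / c : ℕ) : ℂ) ^ 2) * 𝕢 1 z ^ m)
      (∑' e : ℕ+, (∑ c ∈ (e : ℕ).divisors, rtk6bA r (rtk6bOmC M s f a) c (e / c) *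
        ((e / c : ℕ) : ℂ) ^ (3 - 1)) * cexp (2 * π * Complex.I * z) ^ (e : ℕ)) := by
    refine (Function.Injective.hasSum_iff PNat.coe_injective ?_).mp hF
    intro x hx
    have hx0 : x = 0 := by
      by_contra h
      exact hx ⟨⟨x, Nat.pos_of_ne_zero h⟩, rfl⟩
    simp [hx0]
  have hK : HasSum (fun m : ℕ =>
      (if m = 0 then rtk6bK0 ℂ r (rtk6bXi' r) (rtk6bOm M s f a) else 0) * 𝕢 1 z ^ m)
      (rtk6bK0 ℂ r (rtk6bXi' r) (rtk6bOm M s f a)) := by
    have h := hasSum_ite_eq (0 : ℕ) (rtk6bK0 ℂ r (rtk6bXi' r) (rtk6bOm M s f a))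
    refine h.congr_fun ?_
    intro m
    by_cases hm : m = 0
    · subst hm; simp
    · simp [hm]
  have hT := hK.add hF2
  have hval : rtk6bPhi M r s f a z = rtk6bK0 ℂ r (rtk6bXi' r) (rtk6bOm M s f a) +
      ∑' e : ℕ+, (∑ c ∈ (e : ℕ).divisors, rtk6bA r (rtk6bOmC M s f a) c (e / c) *
        ((e / c : ℕ) : ℂ) ^ (3 - 1)) * cexp (2 * π * Complex.I * z) ^ (e : ℕ) := by
    unfold rtk6bPhi
    rw [h1, h2]
    have hc : (2 : ℂ) * ((-2 * π * Complex.I) ^ 3 / ((3 - 1).factorial : ℕ)) = f2Const := rfl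
    have hc0 := f2Const_ne_zero
    have h6 : (-(2 * (π : ℂ) * Complex.I) ^ 3 / ((3 : ℕ).factorial : ℂ)) = f2Const / 6 := by
      rw [rtk6b_f2Const_eq]
      norm_num [Nat.factorial]
    rw [h6]
    set S := ∑' e : ℕ+, (∑ c ∈ (e : ℕ).divisors, rtk6bA r (rtk6bOmC M s f a) c (e / c) *
        ((e / c : ℕ) : ℂ) ^ (3 - 1)) * cexp (2 * π * Complex.I * z) ^ (e : ℕ) with hS
    have h7 : (2 : ℂ) * ((-2 * π * Complex.I) ^ 3 / ((3 - 1).factorial : ℕ) * ((r : ℂ) ^ 3)⁻¹ * S)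
        = f2Const * (((r : ℂ) ^ 3)⁻¹ * S) := by
      rw [← hc]; ring
    rw [h7]
    unfold rtk6bK0
    simp_rw [rtk6bHat_eq]
    field_simp
  rw [hval]
  refine hT.congr_fun ?_
  intro m
  unfold rtk6bCoef
  rw [smul_eq_mul, add_mul]


/-! ### `Φ` is holomorphic, periodic, bounded; its `q`-expansion -/

theorem rtk6b_periodic_of_eq {F : ℍ → ℂ} {g : ℂ → ℂ} (hfg : ∀ τ : ℍ, F τ = g τ)
    (hg : ∀ w : ℂ, g (w + 1) = g w) : Function.Periodic (F ∘ ofComplex) 1 := by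
  intro w
  simp only [Function.comp_apply]
  by_cases hw : 0 < w.im
  · have hw1 : 0 < (w + 1).im := by simpa using hw
    rw [ofComplex_apply_of_im_pos hw, ofComplex_apply_of_im_pos hw1, hfg, hfg]
    exact hg w
  · have hw1 : ¬ 0 < (w + 1).im := by simpa using hw
    rw [ofComplex_apply_of_im_nonpos (not_lt.mp hw), ofComplex_apply_of_im_nonpos (not_lt.mp hw1)]

omit [NeZero M] in
theorem rtk6b_f2Per : F2Per M (fun v => rtk6bOmC M s f a (v 0) (v 1)) := by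
  intro v v' hv
  have h : (((v 0 * s - v 1 * f : ℤ) : ℤ) : ZMod M) = (((v' 0 * s - v' 1 * f : ℤ) : ℤ) : ZMod M) := by
    push_cast
    rw [hv 0, hv 1]
  show ((rtk6bWa M a (((v 0 * s - v 1 * f : ℤ) : ℤ) : ZMod M) : ℤ) : ℂ) =
    ((rtk6bWa M a (((v' 0 * s - v' 1 * f : ℤ) : ℤ) : ZMod M) : ℤ) : ℂ)
  rw [h]

theorem rtk6bPhi_isHPB (hrf : (M : ℤ) ∣ r * f) : IsHPB (rtk6bPhi M r s f a) := by
  have hb : ∀ v : Fin 2 → ℤ, ‖rtk6bOmC M s f a (v 0) (v 1)‖ ≤ 1 :=
    fun v => norm_rtk6bOm_le M s f a _ _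
  have hmd : MDiff (eisC (fun v => rtk6bOmC M s f a (v 0) (v 1)) 3) :=
    eisC_mdiff hb (le_refl _)
  have hbd : IsBoundedAtImInfty (eisC (fun v => rtk6bOmC M s f a (v 0) (v 1)) 3) := by
    have h := f2_isBoundedAtImInfty hb (rtk6b_f2Per M s f a) 1
    rwa [SlashAction.slash_one] at h
  refine ⟨?_, ?_, ?_⟩
  · have h1 := mdiff_comp_scaleN r hmd
    have h2 : MDiff (fun _ : ℍ => (r : ℂ) ^ 3 * f2Const⁻¹) := mdifferentiable_const
    have h3 := h2.mul h1
    have e : rtk6bPhi M r s f a = (fun _ : ℍ => (r : ℂ) ^ 3 * f2Const⁻¹) *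
        (fun z => eisC (fun v => rtk6bOmC M s f a (v 0) (v 1)) 3 (scaleN r z)) := by
      funext z
      simp only [rtk6bPhi, Pi.mul_apply]
      ring
    rw [e]
    exact h3
  · refine rtk6b_periodic_of_eq
      (g := fun w => ∑' m : ℕ, rtk6bCoef ℂ r (rtk6bXi r) (rtk6bXi' r) (rtk6bOm M s f a) m •
        𝕢 1 w ^ m) (fun τ => ((rtk6bPhi_hasSum M r s f a hrf τ).tsum_eq).symm) ?_
    intro w
    have : 𝕢 1 (w + 1) = 𝕢 1 w := by
      simp only [Function.Periodic.qParam]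
      rw [show 2 * (π : ℂ) * Complex.I * (w + 1) / ((1 : ℝ) : ℂ) =
        2 * (π : ℂ) * Complex.I * w / ((1 : ℝ) : ℂ) + 2 * π * Complex.I by push_cast; ring]
      rw [Complex.exp_add, Complex.exp_two_pi_mul_I, mul_one]
    simp only [this]
  · have h1 := hbd.comp_tendsto (P7_tendsto_scaleN_atImInfty r)
    have h2 : IsBoundedAtImInfty (fun _ : ℍ => (r : ℂ) ^ 3 * f2Const⁻¹) :=
      Filter.const_boundedAtFilter _ _
    have h3 := h2.mul h1
    have e : rtk6bPhi M r s f a = (fun _ : ℍ => (r : ℂ) ^ 3 * f2Const⁻¹) *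
        (eisC (fun v => rtk6bOmC M s f a (v 0) (v 1)) 3 ∘ scaleN r) := by
      funext z
      simp only [rtk6bPhi, Pi.mul_apply, Function.comp_apply]
      ring
    rw [e]
    exact h3

theorem rtk6bPhi_qExpansion (hrf : (M : ℤ) ∣ r * f) :
    qExpansion 1 (rtk6bPhi M r s f a) =
      rtk6bSer ℂ r (rtk6bXi r) (rtk6bXi' r) (rtk6bOm M s f a) := by
  ext m
  rw [rtk6bSer, PowerSeries.coeff_mk]
  exact qExpansion_coeff_unique_fun (c := rtk6bCoef ℂ r (rtk6bXi r) (rtk6bXi' r)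
    (rtk6bOm M s f a)) one_pos (rtk6bPhi_isHPB M r s f a hrf).analyticAt
    (fun τ => rtk6bPhi_hasSum M r s f a hrf τ) m

theorem laurentOf_rtk6bPhi (hrf : (M : ℤ) ∣ r * f) :
    laurentOf (rtk6bPhi M r s f a) = HahnSeries.ofPowerSeries ℤ ℂ
      (rtk6bSer ℂ r (rtk6bXi r) (rtk6bXi' r) (rtk6bOm M s f a)) := by
  rw [laurentOf_of_isHPB (rtk6bPhi_isHPB M r s f a hrf), rtk6bPhi_qExpansion M r s f a hrf]

end Analytic

end Fermat.Agent.RT.K6

end
end ZBES1_002_17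

/-! ### bundled: `Fermat.Agent.ES1.InjInstJ` -/
section ZBES1_002_18

/-!
# ES₁/INJ₁-inst, INST-j: `ℓ ∤ 6 L`, the `j`-line (fork of `INJ/InjJ.lean`)

`stmtInjNFH_j : InjCoreStmtG → StmtKDLift → RamJH L M H → StmtConjFamNF L M H ℓ →
  StmtInjNFH L M H ℓ p` for `ℓ ∤ 6 L`, `p ≠ ℓ` prime.
Coordinate `t₀ = j`, `Σ = {0, 1728}`, `e = 6 L`.
-/

set_option autoImplicit false
set_option linter.style.haveILetI false
set_option linter.unusedSectionVars false
set_option synthInstance.maxHeartbeats 400000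
set_option maxHeartbeats 4000000

namespace Fermat.Agent.ES1

open Polynomial ModularCurve IntermediateField AlgebraicCurve Fermat.Agent.S24 Fermat.Agent.INJ

/-- **INST-j for `fieldC`.** -/
theorem stmtInjNFH_j (hcore : InjCoreStmtG) (hKD : StmtKDLift) {L M ℓ p : ℕ}
    {H : Subgroup (ZMod M)ˣ} (hL : L ≠ 0) (hℓ : ℓ.Prime)
    (hp : p.Prime) (hℓp : ℓ ≠ p) (hℓ6L : ¬ ℓ ∣ 6 * L)
    (hR : haveI : NeZero L := ⟨hL⟩; RamJH L M H) (hconj : StmtConjFamNF L M H ℓ) :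
    StmtInjNFH L M H ℓ p := by
  classical
  intro A hA K₀ hfin hζp hζ6L Y₁ Y₂ h h₁ h₂ hred hne hpow hdiv
  by_contra hnot
  haveI : NeZero L := ⟨hL⟩
  haveI : FiniteDimensional ℚ K₀ := hfin
  have hℓL : ¬ ℓ ∣ L := fun hd => hℓ6L (hd.mul_left 6)
  have hℓ6 : ¬ ℓ ∣ 6 := fun hd => hℓ6L (hd.mul_right L)
  have hℓ1728 : ¬ (ℓ : ℤ) ∣ 1728 := by
    intro hd
    have h1 : ℓ ∣ 1728 := by exact_mod_cast hd
    have h2 : (1728 : ℕ) = 6 ^ 3 * 8 := by norm_num
    rw [h2] at h1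
    rcases (Nat.Prime.dvd_mul hℓ).mp h1 with h3 | h3
    · exact hℓ6 (hℓ.dvd_of_dvd_pow h3)
    · have h4 : (8 : ℕ) = 2 ^ 3 := by norm_num
      rw [h4] at h3
      have h5 := hℓ.dvd_of_dvd_pow h3
      exact hℓ6 (h5.trans (by norm_num))
  haveI hdvr : IsDiscreteValuationRing (nfSub A K₀) := ls_isDVR A K₀ hℓ hA
  obtain ⟨π, hπ⟩ := IsDiscreteValuationRing.exists_irreducible (nfSub A K₀)
  have hrπ : nfRes A K₀ π = 0 := ls_res_irreducible A K₀ hπ
  have hr : ∀ a, nfRes A K₀ a = 0 → π ∣ a := fun a => ls_dvd_of_res_eq_zero A K₀ hπ a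
  haveI : Fact ℓ.Prime := ⟨hℓ⟩
  haveI : CharP (IsLocalRing.ResidueField A) ℓ := ls_charP_residueField A hℓ hA
  haveI : PerfectRing (IsLocalRing.ResidueField A) ℓ := nf_perfectRing_residueField A ℓ
  have hLk : ((L : ℕ) : IsLocalRing.ResidueField A) ≠ 0 :=
    ls_natCast_residue_ne_zero A hℓ hA L hℓL
  -- key data over the `j`-line for the `Γ₀(L)`-field
  obtain ⟨x₀, kd₀⟩ := exists_gaussKD_j (E := K₀) (nfRes A K₀) π hπ.ne_zero hπ.not_isUnit hr L hLk
  have hkt : coeffMap (nfRes A K₀) (jqModC (nfSub A K₀)) = jqModC (IsLocalRing.ResidueField A) :=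
    coeffMap_jqModC _
  have hEt : coeffMap (algebraMap (nfSub A K₀) K₀) (jqModC (nfSub A K₀)) = jqModC K₀ :=
    coeffMap_jqModC _
  have hord : (coeffMap (algebraMap (nfSub A K₀) K₀) (jqModC (nfSub A K₀))).order = -1 := by
    rw [hEt]
    exact bgConst_order_jqModC K₀
  -- units and roots of unity
  have hpℓ' : ¬ ℓ ∣ p := fun hd => hℓp ((Nat.prime_dvd_prime_iff_eq hℓ hp).mp hd)
  have hpπ : ¬ π ∣ ((p : ℕ) : nfSub A K₀) := fun hd =>
    hπ.not_isUnit (isUnit_of_dvd_unit hd (ls_isUnit_natCast A K₀ hℓ hA p hpℓ'))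
  obtain ⟨ζ, hζ⟩ := ls_exists_primitiveRoot A K₀ hp.ne_zero hζp
  obtain ⟨u, hζu⟩ := ls_exists_inv_zeta_sub_one A K₀ hℓ hA hp (Ne.symm hℓp) ζ hζ
  have h6L : 6 * L ≠ 0 := mul_ne_zero (by norm_num) hL
  have hroot : ∃ ζ : nfSub A K₀, IsPrimitiveRoot ζ (6 * L) :=
    ls_exists_primitiveRoot A K₀ h6L hζ6L
  -- the set `Σ = {0, 1728}`
  set S : Finset (nfSub A K₀) := {0, 1728} with hSdef
  have hdist : ∀ c ∈ S, ∀ c' ∈ S, c ≠ c' → ¬ π ∣ c - c' := by
    intro c hc c' hc' hcc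
    rw [hSdef, Finset.mem_insert, Finset.mem_singleton] at hc hc'
    have key : ∀ a b : ℤ, ¬ (ℓ : ℤ) ∣ a - b →
        ¬ π ∣ ((a : nfSub A K₀) - (b : nfSub A K₀)) := fun a b hab =>
      ls_not_dvd_intCast_sub A K₀ hℓ hA hπ.not_isUnit a b hab
    rcases hc with rfl | rfl <;> rcases hc' with rfl | rfl
    · exact absurd rfl hcc
    · have := key 0 1728 (by rw [zero_sub, dvd_neg]; exact hℓ1728)
      simpa using this
    · have := key 1728 0 (by rw [sub_zero]; exact hℓ1728)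
      simpa using this
    · exact absurd rfl hcc
  have hS01 : ∀ c ∈ S, algebraMap (nfSub A K₀) K₀ c = 0 ∨
      algebraMap (nfSub A K₀) K₀ c = 1728 := by
    intro c hc
    rw [hSdef, Finset.mem_insert, Finset.mem_singleton] at hc
    rcases hc with rfl | rfl
    · left; exact map_zero _
    · right; rw [map_ofNat]
  have hS0 : ∃ c ∈ S, algebraMap (nfSub A K₀) K₀ c = 0 :=
    ⟨0, by rw [hSdef]; simp, map_zero _⟩
  have hS1728 : ∃ c ∈ S, algebraMap (nfSub A K₀) K₀ c = 1728 :=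
    ⟨1728, by rw [hSdef]; simp, by rw [map_ofNat]⟩
  have hunit : IsUnit (((6 * L : ℕ) : ℕ) : nfSub A K₀) :=
    ls_isUnit_natCast A K₀ hℓ hA (6 * L) hℓ6L
  -- the conjugate family and the key data for `fieldC`
  obtain ⟨m, Sc, hSc⟩ := hconj A hA K₀ hfin
  have hfin₀ : FiniteDimensional
      K₀⟮(⟨coeffMap (algebraMap (nfSub A K₀) K₀) (jqModC (nfSub A K₀)), kd₀.t_mem⟩ :
        modularFunctionFieldFullC K₀ L)⟯ (modularFunctionFieldFullC K₀ L) := by
    have h0 := bgFin_finiteDimensional_full K₀ L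
    have heq : (⟨coeffMap (algebraMap (nfSub A K₀) K₀) (jqModC (nfSub A K₀)), kd₀.t_mem⟩ :
        modularFunctionFieldFullC K₀ L) = ⟨jqModC K₀, jqModC_mem_full K₀ L⟩ :=
      Subtype.ext hEt
    rw [heq]
    exact h0
  have hfinF : FiniteDimensional
      K₀⟮(⟨coeffMap (algebraMap (nfSub A K₀) K₀) (jqModC (nfSub A K₀)),
        hSc.le kd₀.t_mem⟩ : fieldC K₀ L M H)⟯ (fieldC K₀ L M H) := by
    obtain ⟨P, hPm, -, hP0⟩ := hSc.poly
    exact injH1_fin_of_gen (modularFunctionFieldFullC K₀ L) (fieldC K₀ L M H) hSc.le _ hSc.gen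
      (injH1_isIntegral_of_eval₂ _ _ ⟨P, hPm, hP0⟩) _ kd₀.t_mem hfin₀
  have hjeq : (⟨coeffMap (algebraMap (nfSub A K₀) K₀) (jqModC (nfSub A K₀)),
      hSc.le kd₀.t_mem⟩ : fieldC K₀ L M H) = jCH K₀ L M H := Subtype.ext hEt
  obtain ⟨n, x, kd⟩ := hKD (A₀ := nfSub A K₀) (E := K₀) (k := IsLocalRing.ResidueField A)
    (nfRes A K₀) (modularFunctionFieldFullC K₀ L) (fieldC K₀ L M H) hπ hrπ hr kd₀ hord Sc hSc
    (fun {_ _} => kd₀.tsGoodBasis hπ.ne_zero hπ.not_isUnit hr hrπ ℓ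
      (by rw [hkt]; exact thetaFun_jqModC_ne_zero _))
    hfinF S hdist (6 * L) hunit hroot
    (fun {_ _} => by
      rw [hjeq]
      exact nfH_ram_jline_self K₀ L M H hR S hS01 hS0 hS1728 (6 * L)
        (Dvd.intro _ rfl) (Dvd.intro_left _ rfl))
  -- the elements `y₁`, `y₂`, `w`
  have hinj : Function.Injective (algebraMap (nfSub A K₀) K₀) := Subtype.val_injective
  have hY₂ : Y₂ ≠ 0 := injH_ne_zero_of_red (nfRes A K₀) Y₂ hne
  have hY₁ : Y₁ ≠ 0 := injH_ne_zero_of_red (nfRes A K₀) Y₁ (by rw [hred]; exact hne)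
  have hy₁' := injH_coeffMap_ne_zero (algebraMap (nfSub A K₀) K₀) hinj Y₁ hY₁
  have hy₂' := injH_coeffMap_ne_zero (algebraMap (nfSub A K₀) K₀) hinj Y₂ hY₂
  set y₁ : fieldC K₀ L M H := ⟨_, h₁⟩ with hy₁def
  set y₂ : fieldC K₀ L M H := ⟨_, h₂⟩ with hy₂def
  have hy₁ : y₁ ≠ 0 := fun h0 => hy₁' (congrArg Subtype.val h0)
  have hy₂ : y₂ ≠ 0 := fun h0 => hy₂' (congrArg Subtype.val h0)
  have hw : h ^ p = ((y₁ / y₂ : fieldC K₀ L M H) : LaurentSeries K₀) :=
    injH_quot (fieldC K₀ L M H) h y₁ y₂ hy₂ hpow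
  have hh0 : h ≠ 0 := injH_root_ne_zero h _ _ hy₁' hp.ne_zero hpow
  have hdivw := nfH_hdiv_quot K₀ L M H p y₁ y₂ hy₁ hy₂ hdiv
  have hjeq' : (⟨coeffMap (algebraMap (nfSub A K₀) K₀) (jqModC (nfSub A K₀)),
      le_kumFieldG (fieldC K₀ L M H) h kd.t_mem⟩ : kumFieldG (fieldC K₀ L M H) h)
      = kumInclG (fieldC K₀ L M H) h (jCH K₀ L M H) := by
    apply Subtype.ext
    rw [coe_kumInclG]
    exact hEt
  refine hcore (A₀ := nfSub A K₀) (E := K₀) (k := IsLocalRing.ResidueField A) (nfRes A K₀)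
    (fieldC K₀ L M H) h hπ hrπ hr kd hord hp hpπ ζ u hζ hζu Y₁ Y₂ h₁ h₂ hred hne hpow hnot
    ?_ ?_ S hdist (6 * L) hunit hroot ?_
  · -- (a) for `fieldC`
    intro _ _
    exact kd.tsGoodBasis hπ.ne_zero hπ.not_isUnit hr hrπ ℓ
      (by rw [hkt]; exact thetaFun_jqModC_ne_zero _)
  · -- finiteness
    have hwF : h ^ p ∈ fieldC K₀ L M H := by rw [hw]; exact (y₁ / y₂).2
    exact injH1_fin_of_gen (fieldC K₀ L M H) (kumFieldG (fieldC K₀ L M H) h)
      (le_kumFieldG _ h) h le_rfl (injH1_isIntegral_of_pow _ h p hp.ne_zero hwF) _ kd.t_mem hfinF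
  · -- (b), (b')
    intro _ _
    rw [hjeq']
    exact nfH_ram_jline K₀ L M H h hR p hp.ne_zero (y₁ / y₂) hw hh0 hdivw S hS01 hS0 hS1728
      (6 * L) (Dvd.intro _ rfl) (Dvd.intro_left _ rfl)

end Fermat.Agent.ES1


end ZBES1_002_18

/-! ### bundled: `Fermat.Agent.ES1.InjInstRamH` -/
section ZBES1_002_19

/-!
# ES₁/INJ₁-inst: ramification of `fieldBar L M H` over the Hauptmodul lines of `X₀(2)`, `X₀(3)`
(fork of `INJ/RamHRel.lean`, `INJ/RamH2.lean`, `INJ/RamH3.lean`, `INJ/BGRamH.lean`,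
`INJ/BGRamNF.lean`), from the ramification data `RamJH L M H` over the `j`-line (piece F4).

* `ramBH_h2line` (`2 ∣ L`, for `ℓ = 3`): `t = hm2`, `Σ ↦ {0, -64}`, `L ∣ e`;
* `ramBH_h3line` (`3 ∣ L`, for `ℓ = 2`): `t = hm3`, `Σ ↦ {0, -27}`, `L ∣ e`;
* number-field forms `nfH_ram_h2line(_self)`, `nfH_ram_h3line(_self)`.
-/

set_option autoImplicit false
set_option linter.style.haveILetI false
set_option linter.unusedSectionVars false
set_option linter.unusedVariables false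
set_option synthInstance.maxHeartbeats 400000
set_option maxHeartbeats 1000000

namespace Fermat.Agent.ES1

open Polynomial AlgebraicCurve IntermediateField Fermat.Agent.S24 Fermat.Agent.INJ ModularCurve

section Base

variable (L M : ℕ) (H : Subgroup (ZMod M)ˣ) [NeZero L]

theorem injH1_bar_le : modularFunctionFieldBar L ≤ fieldBar L M H := by
  show laurentBaseChange Kb (modularFunctionFieldFull L) ≤ laurentBaseChange Kb (fieldQ L M H)
  rw [laurentBaseChange, IntermediateField.adjoin_le_iff]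
  rintro _ ⟨y, hy, rfl⟩
  exact coeffEmb_mem_laurentBaseChange Kb (full_le_fieldC ℚ L M H hy)

theorem injH1_hm2_mem (h2 : 2 ∣ L) : hm2 Kb ∈ fieldBar L M H :=
  injH1_bar_le L M H (hm2_mem L h2)

theorem injH1_hm3_mem (h3 : 3 ∣ L) : hm3 Kb ∈ fieldBar L M H :=
  injH1_bar_le L M H (hm3_mem L h3)

theorem transcendental_jFH : Transcendental Kb (jFH L M H) := by
  intro halg
  apply transcendental_jBar
  exact (isAlgebraic_algHom_iff (fieldBar L M H).val (Subtype.val_injective)).mpr halg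

theorem jFH_sub_ne_zero (c : Kb) : jFH L M H - algebraMap Kb (fieldBar L M H) c ≠ 0 := by
  intro h0
  exact transcendental_jFH L M H
    ⟨Polynomial.X - Polynomial.C c, Polynomial.X_sub_C_ne_zero c, by simpa using h0⟩

theorem jFH_ne_zero : jFH L M H ≠ 0 := by
  have h := jFH_sub_ne_zero L M H 0
  rwa [map_zero, sub_zero] at h

end Base

section Rel

variable (L M : ℕ) (H : Subgroup (ZMod M)ˣ) [NeZero L]

/-- `x` with `j · A(x) = B(x)`, `A(x) ≠ 0` is not a constant. -/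
theorem ramHH_rel_sub_ne_zero (x : fieldBar L M H) (A B : Kb[X])
    (hrel : jFH L M H * aeval x A = aeval x B) (hA : aeval x A ≠ 0) (c : Kb) :
    x - algebraMap Kb (fieldBar L M H) c ≠ 0 := by
  intro h0
  have hx : x = algebraMap Kb (fieldBar L M H) c := sub_eq_zero.mp h0
  rw [hx, aeval_algebraMap_apply_eq_algebraMap_eval,
    aeval_algebraMap_apply_eq_algebraMap_eval] at hrel
  rw [hx, aeval_algebraMap_apply_eq_algebraMap_eval] at hA
  have hj : jFH L M H - algebraMap Kb (fieldBar L M H) (B.eval c / A.eval c) = 0 := by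
    rw [map_div₀, sub_eq_zero, eq_div_iff hA]
    exact hrel
  exact jFH_sub_ne_zero L M H _ hj

/-- The order of `j - c` at a place over `x = c₀`, `c = B(c₀)/A(c₀)`. -/
theorem ramHH_rel_ord (x : fieldBar L M H) (A B : Kb[X])
    (hrel : jFH L M H * aeval x A = aeval x B) (v : Place Kb (fieldBar L M H)) (c₀ : Kb)
    (hv : 0 < v.ord (x - algebraMap Kb (fieldBar L M H) c₀))
    (hA : A.eval c₀ ≠ 0) :
    ∃ m : ℕ, 0 < m ∧ v.ord (jFH L M H - algebraMap Kb (fieldBar L M H) (B.eval c₀ / A.eval c₀))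
      = (m : ℤ) * v.ord (x - algebraMap Kb (fieldBar L M H) c₀) := by
  set c : Kb := B.eval c₀ / A.eval c₀ with hc
  have hA0 : A ≠ 0 := by
    rintro rfl
    simp at hA
  obtain ⟨hAx, hAord⟩ := ramH_ord_aeval v x c₀ hv A hA0
  have hmA : A.rootMultiplicity c₀ = 0 := rootMultiplicity_eq_zero hA
  rw [hmA, Nat.cast_zero, zero_mul] at hAord
  set Φ : Kb[X] := B - C c * A with hΦ
  have hΦx : (jFH L M H - algebraMap Kb (fieldBar L M H) c) * aeval x A = aeval x Φ := by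
    rw [hΦ, map_sub, map_mul, aeval_C, sub_mul, hrel]
  have hΦ0 : Φ ≠ 0 := by
    intro h
    rw [h, map_zero] at hΦx
    rcases mul_eq_zero.mp hΦx with h1 | h1
    · exact jFH_sub_ne_zero L M H c h1
    · exact hAx h1
  have hroot : Φ.IsRoot c₀ := by
    rw [IsRoot, hΦ, eval_sub, eval_mul, eval_C, hc, div_mul_cancel₀ _ hA, sub_self]
  obtain ⟨hΦne, hΦord⟩ := ramH_ord_aeval v x c₀ hv Φ hΦ0
  refine ⟨Φ.rootMultiplicity c₀, (rootMultiplicity_pos hΦ0).mpr hroot, ?_⟩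
  have h1 := congrArg v.ord hΦx
  rw [v.ord_mul (jFH_sub_ne_zero L M H c) hAx, hAord, add_zero, hΦord] at h1
  exact h1

/-- **Generic fibre**: unramified. -/
theorem ramHH_rel_gen (hR : RamJH L M H) (x : fieldBar L M H) (A B : Kb[X])
    (hrel : jFH L M H * aeval x A = aeval x B) (v : Place Kb (fieldBar L M H)) (c₀ : Kb)
    (hv : 0 < v.ord (x - algebraMap Kb (fieldBar L M H) c₀))
    (hA : A.eval c₀ ≠ 0) (hB0 : B.eval c₀ ≠ 0) (hB1728 : B.eval c₀ ≠ 1728 * A.eval c₀) :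
    v.ord (x - algebraMap Kb (fieldBar L M H) c₀) = 1 := by
  obtain ⟨m, hm, hord⟩ := ramHH_rel_ord L M H x A B hrel v c₀ hv hA
  have hc0 : B.eval c₀ / A.eval c₀ ≠ 0 := div_ne_zero hB0 hA
  have hc1728 : B.eval c₀ / A.eval c₀ ≠ 1728 := by
    intro h
    rw [div_eq_iff hA] at h
    exact hB1728 h
  have hpos : 0 < v.ord (jFH L M H - algebraMap Kb (fieldBar L M H) (B.eval c₀ / A.eval c₀)) := by
    rw [hord]
    exact mul_pos (by exact_mod_cast hm) hv
  have h1 := hR.gen _ hc0 hc1728 v hpos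
  rw [hord] at h1
  exact ramH_eq_one_of_mul_eq_one hv h1

/-- Every place with `0 ≤ ord x` lies over a finite point of the `x`-line. -/
theorem ramHH_rel_cases (hR : RamJH L M H) (x : fieldBar L M H) (hx : ∀ c : Kb, x - algebraMap Kb (fieldBar L M H) c ≠ 0)
    (v : Place Kb (fieldBar L M H)) (hv : 0 ≤ v.ord x) :
    ∃ c₀ : Kb, 0 < v.ord (x - algebraMap Kb (fieldBar L M H) c₀) := by
  have hmem : x ∈ v.toValuationSubring := PlaceAux.mem_of_ord_nonneg v hv
  have htr := transcendental_jFH L M H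
  have hfin : FiniteDimensional Kb⟮jFH L M H⟯ (fieldBar L M H) := hR.finite
  have halg : Algebra.IsAlgebraic Kb⟮jFH L M H⟯ (fieldBar L M H) := Algebra.IsAlgebraic.of_finite _ _
  obtain ⟨c, hc⟩ := exists_sub_mem_nonunits (jFH L M H) htr halg v _ hmem
  exact ⟨c, (PlaceAux.ord_pos_iff_mem_nonunits v (hx c)).mpr hc⟩

end Rel


section H2

variable (L M : ℕ) (H : Subgroup (ZMod M)ˣ) [NeZero L] (h2 : 2 ∣ L)

/-- The Hauptmodul of `X₀(2)` as an element of `F_N` (`2 ∣ N`). -/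
noncomputable def hFH2 : fieldBar L M H := ⟨hm2 Kb, injH1_hm2_mem L M H h2⟩

theorem hFH2_coe : ((hFH2 L M H h2 : fieldBar L M H) : LaurentSeries Kb) = hm2 Kb := rfl

theorem hFH2_ne_zero : hFH2 L M H h2 ≠ 0 := by
  intro h
  apply hm2_ne_zero
  have := congrArg Subtype.val h
  simpa [hFH2] using this

theorem hFH2_j : jFH L M H * hFH2 L M H h2 ^ 2 = (hFH2 L M H h2 + 256) ^ 3 := by
  apply Subtype.ext
  have h := hm2_j (K := Kb)
  rw [← hmMem_jBar_eq] at h
  exact h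

theorem hFH2_j1728 :
    (jFH L M H - 1728) * hFH2 L M H h2 ^ 2 = (hFH2 L M H h2 - 512) ^ 2 * (hFH2 L M H h2 + 64) := by
  linear_combination hFH2_j L M H h2

set_option synthInstance.maxHeartbeats 400000 in
/-- `j · A(h) = B(h)` with `A = X²`, `B = (X + 256)³`. -/
theorem hFH2_rel :
    jFH L M H * aeval (hFH2 L M H h2) (X ^ 2 : Kb[X]) = aeval (hFH2 L M H h2) ((X + C 256) ^ 3 : Kb[X]) := by
  rw [map_pow, aeval_X, map_pow, map_add, aeval_X, aeval_C, map_ofNat]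
  exact hFH2_j L M H h2

set_option synthInstance.maxHeartbeats 400000 in
theorem hFH2_sub_ne_zero (c : Kb) : hFH2 L M H h2 - algebraMap Kb (fieldBar L M H) c ≠ 0 := by
  refine ramHH_rel_sub_ne_zero L M H (hFH2 L M H h2) _ _ (hFH2_rel L M H h2) ?_ c
  rw [map_pow, aeval_X]
  exact pow_ne_zero _ (hFH2_ne_zero L M H h2)

/-- Over `h = ∞`. -/
theorem ramHH2_inf (hR : RamJH L M H) (v : Place Kb (fieldBar L M H)) (hv : v.ord (hFH2 L M H h2) < 0) :
    v.ord (hFH2 L M H h2) ∣ (L : ℤ) := by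
  have hx0 := hFH2_ne_zero L M H h2
  obtain ⟨hne, hord⟩ := ramH_ord_add_const_of_neg v (hFH2 L M H h2) 256 hv
  rw [map_ofNat] at hne hord
  have h1 := congrArg v.ord (hFH2_j L M H h2)
  rw [v.ord_mul (jFH_ne_zero L M H) (pow_ne_zero _ hx0), place_ord_pow, place_ord_pow, hord] at h1
  simp only [Nat.cast_ofNat] at h1
  have hJ : v.ord (jFH L M H) = v.ord (hFH2 L M H h2) := by linarith
  have h3 := hR.inf v (by rw [hJ]; exact hv)
  rw [v.ord_inv, neg_dvd, hJ] at h3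
  exact h3

/-- Over the cusp `h = 0`. -/
theorem ramHH2_zero (hR : RamJH L M H) (v : Place Kb (fieldBar L M H)) (hv : 0 < v.ord (hFH2 L M H h2)) :
    v.ord (hFH2 L M H h2) ∣ (L : ℤ) := by
  have hx0 := hFH2_ne_zero L M H h2
  have hv' : 0 < v.ord (hFH2 L M H h2 - algebraMap Kb (fieldBar L M H) 0) := by
    rwa [map_zero, sub_zero]
  obtain ⟨hne, hord⟩ := ramH_ord_sub_const v (hFH2 L M H h2) 0 (-256) hv' (by norm_num)
  rw [map_neg, sub_neg_eq_add, map_ofNat] at hne hord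
  have h1 := congrArg v.ord (hFH2_j L M H h2)
  rw [v.ord_mul (jFH_ne_zero L M H) (pow_ne_zero _ hx0), place_ord_pow, place_ord_pow, hord] at h1
  simp only [Nat.cast_ofNat] at h1
  have hJ : v.ord (jFH L M H) = -(2 * v.ord (hFH2 L M H h2)) := by linarith
  have h3 := hR.inf v (by rw [hJ]; omega)
  rw [v.ord_inv, hJ, neg_neg] at h3
  exact (Dvd.intro_left _ rfl).trans h3

/-- Over the elliptic point `h = -64`. -/
theorem ramHH2_ell (hR : RamJH L M H) (v : Place Kb (fieldBar L M H))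
    (hv : 0 < v.ord (hFH2 L M H h2 - algebraMap Kb (fieldBar L M H) (-64))) :
    v.ord (hFH2 L M H h2 - algebraMap Kb (fieldBar L M H) (-64)) ∣ 2 := by
  have hx0 := hFH2_ne_zero L M H h2
  obtain ⟨hne0, hord0⟩ := ramH_ord_sub_const v (hFH2 L M H h2) (-64) 0 hv (by norm_num)
  rw [map_zero, sub_zero] at hord0
  obtain ⟨hne1, hord1⟩ := ramH_ord_sub_const v (hFH2 L M H h2) (-64) 512 hv (by norm_num)
  rw [map_ofNat] at hne1 hord1
  have hne2 := hFH2_sub_ne_zero L M H h2 (-64)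
  have h1 := congrArg v.ord (hFH2_j1728 L M H h2)
  have hJ0 : jFH L M H - (1728 : fieldBar L M H) ≠ 0 := by
    have := jFH_sub_ne_zero L M H 1728
    rwa [map_ofNat] at this
  have he : hFH2 L M H h2 + 64 = hFH2 L M H h2 - algebraMap Kb (fieldBar L M H) (-64) := by
    rw [map_neg, sub_neg_eq_add, map_ofNat]
  rw [he] at h1
  rw [v.ord_mul hJ0 (pow_ne_zero _ hx0), place_ord_pow, hord0,
    v.ord_mul (pow_ne_zero _ hne1) hne2, place_ord_pow, hord1] at h1
  simp only [Nat.cast_ofNat, mul_zero, add_zero, zero_add] at h1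
  have hJ : v.ord (jFH L M H - algebraMap Kb (fieldBar L M H) 1728)
      = v.ord (hFH2 L M H h2 - algebraMap Kb (fieldBar L M H) (-64)) := by
    rw [map_ofNat (algebraMap Kb (fieldBar L M H)) 1728]; exact h1
  have h3 := hR.e1728 v (by rw [hJ]; exact hv)
  rwa [hJ] at h3

/-- Over `h = -256` (where `j = 0`). -/
theorem ramHH2_256 (hR : RamJH L M H) (v : Place Kb (fieldBar L M H))
    (hv : 0 < v.ord (hFH2 L M H h2 - algebraMap Kb (fieldBar L M H) (-256))) :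
    v.ord (hFH2 L M H h2 - algebraMap Kb (fieldBar L M H) (-256)) = 1 := by
  have hx0 := hFH2_ne_zero L M H h2
  obtain ⟨hne0, hord0⟩ := ramH_ord_sub_const v (hFH2 L M H h2) (-256) 0 hv (by norm_num)
  rw [map_zero, sub_zero] at hord0
  have h1 := congrArg v.ord (hFH2_j L M H h2)
  have he : hFH2 L M H h2 + 256 = hFH2 L M H h2 - algebraMap Kb (fieldBar L M H) (-256) := by
    rw [map_neg, sub_neg_eq_add, map_ofNat]
  rw [he] at h1
  rw [v.ord_mul (jFH_ne_zero L M H) (pow_ne_zero _ hx0), place_ord_pow, hord0, place_ord_pow] at h1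
  simp only [Nat.cast_ofNat, mul_zero, add_zero] at h1
  have hJ : v.ord (jFH L M H) = 3 * v.ord (hFH2 L M H h2 - algebraMap Kb (fieldBar L M H) (-256)) := h1
  have h3 := hR.zero v (by rw [hJ]; omega)
  rw [hJ] at h3
  exact ramH_eq_one_of_mul_dvd (n := 3) (by norm_num) hv h3

/-- Over `h = 512` (where `j = 1728`). -/
theorem ramHH2_512 (hR : RamJH L M H) (v : Place Kb (fieldBar L M H))
    (hv : 0 < v.ord (hFH2 L M H h2 - algebraMap Kb (fieldBar L M H) 512)) :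
    v.ord (hFH2 L M H h2 - algebraMap Kb (fieldBar L M H) 512) = 1 := by
  have hx0 := hFH2_ne_zero L M H h2
  obtain ⟨hne0, hord0⟩ := ramH_ord_sub_const v (hFH2 L M H h2) 512 0 hv (by norm_num)
  rw [map_zero, sub_zero] at hord0
  obtain ⟨hne1, hord1⟩ := ramH_ord_sub_const v (hFH2 L M H h2) 512 (-64) hv (by norm_num)
  have hne2 := hFH2_sub_ne_zero L M H h2 512
  have h1 := congrArg v.ord (hFH2_j1728 L M H h2)
  have hJ0 : jFH L M H - (1728 : fieldBar L M H) ≠ 0 := by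
    have := jFH_sub_ne_zero L M H 1728
    rwa [map_ofNat] at this
  have he : hFH2 L M H h2 + 64 = hFH2 L M H h2 - algebraMap Kb (fieldBar L M H) (-64) := by
    rw [map_neg, sub_neg_eq_add, map_ofNat]
  have he' : hFH2 L M H h2 - 512 = hFH2 L M H h2 - algebraMap Kb (fieldBar L M H) 512 := by
    rw [map_ofNat]
  rw [he, he'] at h1
  rw [v.ord_mul hJ0 (pow_ne_zero _ hx0), place_ord_pow, hord0,
    v.ord_mul (pow_ne_zero _ hne2) hne1, place_ord_pow, hord1] at h1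
  simp only [Nat.cast_ofNat, mul_zero, add_zero] at h1
  have hJ : v.ord (jFH L M H - algebraMap Kb (fieldBar L M H) 1728)
      = 2 * v.ord (hFH2 L M H h2 - algebraMap Kb (fieldBar L M H) 512) := by
    rw [map_ofNat (algebraMap Kb (fieldBar L M H)) 1728]; exact h1
  have h3 := hR.e1728 v (by rw [hJ]; omega)
  rw [hJ] at h3
  exact ramH_eq_one_of_mul_dvd (n := 2) (by norm_num) hv h3

/-- Over a generic point `h = c₀`, `c₀ ≠ 0, -64`: unramified. -/
theorem ramHH2_gen (hR : RamJH L M H) (c₀ : Kb) (hc0 : c₀ ≠ 0) (hc64 : c₀ ≠ -64) (v : Place Kb (fieldBar L M H))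
    (hv : 0 < v.ord (hFH2 L M H h2 - algebraMap Kb (fieldBar L M H) c₀)) :
    v.ord (hFH2 L M H h2 - algebraMap Kb (fieldBar L M H) c₀) = 1 := by
  by_cases h256 : c₀ = -256
  · subst h256; exact ramHH2_256 L M H h2 hR v hv
  by_cases h512 : c₀ = 512
  · subst h512; exact ramHH2_512 L M H h2 hR v hv
  refine ramHH_rel_gen L M H hR (hFH2 L M H h2) _ _ (hFH2_rel L M H h2) v c₀ hv ?_ ?_ ?_
  · simpa using hc0
  · simp only [eval_pow, eval_add, eval_X, eval_C]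
    refine pow_ne_zero _ ?_
    intro h
    exact h256 (eq_neg_of_add_eq_zero_left h)
  · simp only [eval_pow, eval_add, eval_X, eval_C]
    intro h
    have h' : (c₀ - 512) ^ 2 * (c₀ + 64) = 0 := by linear_combination h
    rcases mul_eq_zero.mp h' with h'' | h''
    · exact h512 (sub_eq_zero.mp (pow_eq_zero_iff (by norm_num) |>.mp h''))
    · exact hc64 (eq_neg_of_add_eq_zero_left h'')

theorem ramHH2_cases (hR : RamJH L M H) (v : Place Kb (fieldBar L M H)) (hv : 0 ≤ v.ord (hFH2 L M H h2)) :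
    ∃ c₀ : Kb, 0 < v.ord (hFH2 L M H h2 - algebraMap Kb (fieldBar L M H) c₀) :=
  ramHH_rel_cases L M H hR (hFH2 L M H h2) (hFH2_sub_ne_zero L M H h2) v hv

end H2

section H2Line

variable {A₀ E Lf : Type} {F₀ : Type*}
  [CommRing A₀] [Field E] [Algebra A₀ E] [Field Lf] [Algebra E Lf] [Algebra A₀ Lf]
  [IsScalarTower A₀ E Lf]
  [Algebra E Kb] [Field F₀] [Algebra E F₀] [Algebra F₀ Lf] [IsScalarTower E F₀ Lf]
  (L M : ℕ) (H : Subgroup (ZMod M)ˣ) [NeZero L] (h2 : 2 ∣ L)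
  [Algebra F₀ (fieldBar L M H)] [Algebra E (fieldBar L M H)] [IsScalarTower E F₀ (fieldBar L M H)]
  [IsScalarTower E Kb (fieldBar L M H)]

/-- **B2-b over the `h`-line of `X₀(2)`** (`ℓ = 3`): `Σ = {0, -64}`, `N ∣ e`. -/
theorem ramBH_h2line (hR : RamJH L M H) [CharZero E] [Algebra.IsAlgebraic E Kb]
    (t₀ : F₀) (ht₀ : algebraMap F₀ (fieldBar L M H) t₀ = hFH2 L M H h2) (S : Finset A₀)
    (hS : ∀ c ∈ S, algebraMap E Kb (algebraMap A₀ E c) = 0 ∨
      algebraMap E Kb (algebraMap A₀ E c) = -64)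
    (h0 : ∃ c ∈ S, algebraMap E Kb (algebraMap A₀ E c) = 0)
    (h64 : ∃ c ∈ S, algebraMap E Kb (algebraMap A₀ E c) = -64)
    (e : ℕ) (hN : L ∣ e)
    (hkum : ∀ P : Place E Lf, ∃ Q : Place E F₀,
      ∀ y : F₀, P.ord (algebraMap F₀ Lf y) = Q.ord y)
    (hext : ∀ Q : Place E F₀, ∃ v : Place Kb (fieldBar L M H),
      ∀ y : F₀, v.ord (algebraMap F₀ (fieldBar L M H) y) = Q.ord y) :
    TSUnramified (E := E) (algebraMap F₀ Lf t₀) S ∧
      TSTame (E := E) (algebraMap F₀ Lf t₀) S e := by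
  have h2e : (2 : ℤ) ∣ (e : ℤ) := by exact_mod_cast h2.trans hN
  have hNe : (L : ℤ) ∣ (e : ℤ) := by exact_mod_cast hN
  refine ramB_assemble A₀ E Kb t₀ S e hkum hext ?_ ?_ ?_ ?_
  · intro v hv
    rw [ht₀] at hv ⊢
    exact ramHH2_cases L M H h2 hR v hv
  · intro v c₀ hc₀ hv
    rw [ht₀] at hv ⊢
    obtain ⟨c, hc, hc0⟩ := h0
    obtain ⟨c', hc', hc64⟩ := h64
    refine ramHH2_gen L M H h2 hR c₀ ?_ ?_ v hv
    · rw [← hc0]; exact hc₀ c hc
    · rw [← hc64]; exact hc₀ c' hc'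
  · intro v c hc hv
    rw [ht₀] at hv ⊢
    rcases hS c hc with h | h
    · rw [h] at hv ⊢
      rw [map_zero, sub_zero] at hv ⊢
      exact (ramHH2_zero L M H h2 hR v hv).trans hNe
    · rw [h] at hv ⊢
      exact (ramHH2_ell L M H h2 hR v hv).trans h2e
  · intro v hv
    rw [ht₀] at hv ⊢
    exact (ramHH2_inf L M H h2 hR v hv).trans hNe

end H2Line


section H3

variable (L M : ℕ) (H : Subgroup (ZMod M)ˣ) [NeZero L] (h3 : 3 ∣ L)

/-- The Hauptmodul of `X₀(3)` as an element of `F_N` (`3 ∣ N`). -/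
noncomputable def hFH3 : fieldBar L M H := ⟨hm3 Kb, injH1_hm3_mem L M H h3⟩

theorem hFH3_coe : ((hFH3 L M H h3 : fieldBar L M H) : LaurentSeries Kb) = hm3 Kb := rfl

theorem hFH3_ne_zero : hFH3 L M H h3 ≠ 0 := by
  intro h
  apply hm3_ne_zero
  have := congrArg Subtype.val h
  simpa [hFH3] using this

theorem hFH3_j : jFH L M H * hFH3 L M H h3 ^ 3 = (hFH3 L M H h3 + 27) * (hFH3 L M H h3 + 243) ^ 3 := by
  apply Subtype.ext
  have h := hm3_j (K := Kb)
  rw [← hmMem_jBar_eq] at h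
  exact h

theorem hFH3_j1728 :
    (jFH L M H - 1728) * hFH3 L M H h3 ^ 3 = (hFH3 L M H h3 ^ 2 - 486 * hFH3 L M H h3 - 19683) ^ 2 := by
  linear_combination hFH3_j L M H h3

set_option synthInstance.maxHeartbeats 400000 in
/-- `j · A(h) = B(h)` with `A = X³`, `B = (X + 27)(X + 243)³`. -/
theorem hFH3_rel :
    jFH L M H * aeval (hFH3 L M H h3) (X ^ 3 : Kb[X])
      = aeval (hFH3 L M H h3) ((X + C 27) * (X + C 243) ^ 3 : Kb[X]) := by
  rw [map_pow, aeval_X, map_mul, map_pow, map_add, map_add, aeval_X, aeval_C, aeval_C,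
    map_ofNat, map_ofNat]
  exact hFH3_j L M H h3

set_option synthInstance.maxHeartbeats 400000 in
theorem hFH3_sub_ne_zero (c : Kb) : hFH3 L M H h3 - algebraMap Kb (fieldBar L M H) c ≠ 0 := by
  refine ramHH_rel_sub_ne_zero L M H (hFH3 L M H h3) _ _ (hFH3_rel L M H h3) ?_ c
  rw [map_pow, aeval_X]
  exact pow_ne_zero _ (hFH3_ne_zero L M H h3)

/-- Over `h = ∞`. -/
theorem ramHH3_inf (hR : RamJH L M H) (v : Place Kb (fieldBar L M H)) (hv : v.ord (hFH3 L M H h3) < 0) :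
    v.ord (hFH3 L M H h3) ∣ (L : ℤ) := by
  have hx0 := hFH3_ne_zero L M H h3
  obtain ⟨hne, hord⟩ := ramH_ord_add_const_of_neg v (hFH3 L M H h3) 27 hv
  obtain ⟨hne', hord'⟩ := ramH_ord_add_const_of_neg v (hFH3 L M H h3) 243 hv
  rw [map_ofNat] at hne hord hne' hord'
  have h1 := congrArg v.ord (hFH3_j L M H h3)
  rw [v.ord_mul (jFH_ne_zero L M H) (pow_ne_zero _ hx0), place_ord_pow,
    v.ord_mul hne (pow_ne_zero _ hne'), place_ord_pow, hord, hord'] at h1
  simp only [Nat.cast_ofNat] at h1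
  have hJ : v.ord (jFH L M H) = v.ord (hFH3 L M H h3) := by linarith
  have h4 := hR.inf v (by rw [hJ]; exact hv)
  rw [v.ord_inv, neg_dvd, hJ] at h4
  exact h4

/-- Over the cusp `h = 0`. -/
theorem ramHH3_zero (hR : RamJH L M H) (v : Place Kb (fieldBar L M H)) (hv : 0 < v.ord (hFH3 L M H h3)) :
    v.ord (hFH3 L M H h3) ∣ (L : ℤ) := by
  have hx0 := hFH3_ne_zero L M H h3
  have hv' : 0 < v.ord (hFH3 L M H h3 - algebraMap Kb (fieldBar L M H) 0) := by
    rwa [map_zero, sub_zero]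
  obtain ⟨hne, hord⟩ := ramH_ord_sub_const v (hFH3 L M H h3) 0 (-27) hv' (by norm_num)
  obtain ⟨hne', hord'⟩ := ramH_ord_sub_const v (hFH3 L M H h3) 0 (-243) hv' (by norm_num)
  rw [map_neg, sub_neg_eq_add, map_ofNat] at hne hord hne' hord'
  have h1 := congrArg v.ord (hFH3_j L M H h3)
  rw [v.ord_mul (jFH_ne_zero L M H) (pow_ne_zero _ hx0), place_ord_pow,
    v.ord_mul hne (pow_ne_zero _ hne'), place_ord_pow, hord, hord'] at h1
  simp only [Nat.cast_ofNat, mul_zero, add_zero] at h1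
  have hJ : v.ord (jFH L M H) = -(3 * v.ord (hFH3 L M H h3)) := by linarith
  have h4 := hR.inf v (by rw [hJ]; omega)
  rw [v.ord_inv, hJ, neg_neg] at h4
  exact (Dvd.intro_left _ rfl).trans h4

/-- Over the elliptic point `h = -27`. -/
theorem ramHH3_ell (hR : RamJH L M H) (v : Place Kb (fieldBar L M H))
    (hv : 0 < v.ord (hFH3 L M H h3 - algebraMap Kb (fieldBar L M H) (-27))) :
    v.ord (hFH3 L M H h3 - algebraMap Kb (fieldBar L M H) (-27)) ∣ 3 := by
  have hx0 := hFH3_ne_zero L M H h3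
  obtain ⟨hne0, hord0⟩ := ramH_ord_sub_const v (hFH3 L M H h3) (-27) 0 hv (by norm_num)
  rw [map_zero, sub_zero] at hord0
  obtain ⟨hne1, hord1⟩ := ramH_ord_sub_const v (hFH3 L M H h3) (-27) (-243) hv (by norm_num)
  have hne2 := hFH3_sub_ne_zero L M H h3 (-27)
  have h1 := congrArg v.ord (hFH3_j L M H h3)
  have he : hFH3 L M H h3 + 27 = hFH3 L M H h3 - algebraMap Kb (fieldBar L M H) (-27) := by
    rw [map_neg, sub_neg_eq_add, map_ofNat]
  have he' : hFH3 L M H h3 + 243 = hFH3 L M H h3 - algebraMap Kb (fieldBar L M H) (-243) := by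
    rw [map_neg, sub_neg_eq_add, map_ofNat]
  rw [he, he'] at h1
  rw [v.ord_mul (jFH_ne_zero L M H) (pow_ne_zero _ hx0), place_ord_pow, hord0,
    v.ord_mul hne2 (pow_ne_zero _ hne1), place_ord_pow, hord1] at h1
  simp only [Nat.cast_ofNat, mul_zero, add_zero] at h1
  have h4 := hR.zero v (by rw [h1]; exact hv)
  rwa [h1] at h4

/-- Over `h = -243` (where `j = 0`, ramified of index `3` over the `j`-line). -/
theorem ramHH3_243 (hR : RamJH L M H) (v : Place Kb (fieldBar L M H))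
    (hv : 0 < v.ord (hFH3 L M H h3 - algebraMap Kb (fieldBar L M H) (-243))) :
    v.ord (hFH3 L M H h3 - algebraMap Kb (fieldBar L M H) (-243)) = 1 := by
  have hx0 := hFH3_ne_zero L M H h3
  obtain ⟨hne0, hord0⟩ := ramH_ord_sub_const v (hFH3 L M H h3) (-243) 0 hv (by norm_num)
  rw [map_zero, sub_zero] at hord0
  obtain ⟨hne1, hord1⟩ := ramH_ord_sub_const v (hFH3 L M H h3) (-243) (-27) hv (by norm_num)
  have hne2 := hFH3_sub_ne_zero L M H h3 (-243)
  have h1 := congrArg v.ord (hFH3_j L M H h3)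
  have he : hFH3 L M H h3 + 27 = hFH3 L M H h3 - algebraMap Kb (fieldBar L M H) (-27) := by
    rw [map_neg, sub_neg_eq_add, map_ofNat]
  have he' : hFH3 L M H h3 + 243 = hFH3 L M H h3 - algebraMap Kb (fieldBar L M H) (-243) := by
    rw [map_neg, sub_neg_eq_add, map_ofNat]
  rw [he, he'] at h1
  rw [v.ord_mul (jFH_ne_zero L M H) (pow_ne_zero _ hx0), place_ord_pow, hord0,
    v.ord_mul hne1 (pow_ne_zero _ hne2), place_ord_pow, hord1] at h1
  simp only [Nat.cast_ofNat, mul_zero, add_zero, zero_add] at h1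
  have h4 := hR.zero v (by rw [h1]; omega)
  rw [h1] at h4
  exact ramH_eq_one_of_mul_dvd (n := 3) (by norm_num) hv h4

set_option synthInstance.maxHeartbeats 400000 in
/-- Over the roots of `X² - 486 X - 19683` (where `j = 1728`). -/
theorem ramHH3_1728 (hR : RamJH L M H) (c₀ : Kb) (hc : c₀ ^ 2 - 486 * c₀ - 19683 = 0) (v : Place Kb (fieldBar L M H))
    (hv : 0 < v.ord (hFH3 L M H h3 - algebraMap Kb (fieldBar L M H) c₀)) :
    v.ord (hFH3 L M H h3 - algebraMap Kb (fieldBar L M H) c₀) = 1 := by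
  have hx0 := hFH3_ne_zero L M H h3
  have hc0 : (0 : Kb) ≠ c₀ := by
    rintro rfl
    norm_num at hc
  obtain ⟨hne0, hord0⟩ := ramH_ord_sub_const v (hFH3 L M H h3) c₀ 0 hv hc0
  rw [map_zero, sub_zero] at hord0
  set Q : Kb[X] := X ^ 2 - C 486 * X - C 19683 with hQ
  have hQ0 : Q ≠ 0 := by
    intro h
    have := congrArg (fun p : Kb[X] => p.eval 0) h
    simp [hQ] at this
  have hroot : Q.IsRoot c₀ := by
    rw [IsRoot, hQ]
    simp only [eval_sub, eval_pow, eval_X, eval_mul, eval_C]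
    exact hc
  obtain ⟨hQne, hQord⟩ := ramH_ord_aeval v (hFH3 L M H h3) c₀ hv Q hQ0
  have hm : 0 < Q.rootMultiplicity c₀ := (rootMultiplicity_pos hQ0).mpr hroot
  have hQx : aeval (hFH3 L M H h3) Q = hFH3 L M H h3 ^ 2 - 486 * hFH3 L M H h3 - 19683 := by
    rw [hQ, map_sub, map_sub, map_pow, map_mul, aeval_X, aeval_C, aeval_C, map_ofNat, map_ofNat]
  have hJ0 : jFH L M H - (1728 : fieldBar L M H) ≠ 0 := by
    have := jFH_sub_ne_zero L M H 1728
    rwa [map_ofNat] at this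
  have h1 := congrArg v.ord (hFH3_j1728 L M H h3)
  rw [← hQx, v.ord_mul hJ0 (pow_ne_zero _ hx0), place_ord_pow, hord0, place_ord_pow, hQord] at h1
  simp only [Nat.cast_ofNat, mul_zero, add_zero] at h1
  have hpos : 0 < (Q.rootMultiplicity c₀ : ℤ) * v.ord (hFH3 L M H h3 - algebraMap Kb (fieldBar L M H) c₀) :=
    mul_pos (by exact_mod_cast hm) hv
  have h4 := hR.e1728 v (by rw [map_ofNat (algebraMap Kb (fieldBar L M H)) 1728, h1]; omega)
  rw [map_ofNat (algebraMap Kb (fieldBar L M H)) 1728, h1] at h4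
  have h5 := ramH_eq_one_of_mul_dvd (n := 2) (by norm_num) hpos h4
  exact ramH_eq_one_of_mul_eq_one hv h5

/-- Over a generic point `h = c₀`, `c₀ ≠ 0, -27`: unramified. -/
theorem ramHH3_gen (hR : RamJH L M H) (c₀ : Kb) (hc0 : c₀ ≠ 0) (hc27 : c₀ ≠ -27) (v : Place Kb (fieldBar L M H))
    (hv : 0 < v.ord (hFH3 L M H h3 - algebraMap Kb (fieldBar L M H) c₀)) :
    v.ord (hFH3 L M H h3 - algebraMap Kb (fieldBar L M H) c₀) = 1 := by
  by_cases h243 : c₀ = -243
  · subst h243; exact ramHH3_243 L M H h3 hR v hv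
  by_cases hQ : c₀ ^ 2 - 486 * c₀ - 19683 = 0
  · exact ramHH3_1728 L M H h3 hR c₀ hQ v hv
  refine ramHH_rel_gen L M H hR (hFH3 L M H h3) _ _ (hFH3_rel L M H h3) v c₀ hv ?_ ?_ ?_
  · simpa using hc0
  · simp only [eval_mul, eval_pow, eval_add, eval_X, eval_C]
    refine mul_ne_zero ?_ (pow_ne_zero _ ?_)
    · intro h
      exact hc27 (eq_neg_of_add_eq_zero_left h)
    · intro h
      exact h243 (eq_neg_of_add_eq_zero_left h)
  · simp only [eval_mul, eval_pow, eval_add, eval_X, eval_C]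
    intro h
    have h' : (c₀ ^ 2 - 486 * c₀ - 19683) ^ 2 = 0 := by linear_combination h
    exact hQ (pow_eq_zero_iff (by norm_num) |>.mp h')

theorem ramHH3_cases (hR : RamJH L M H) (v : Place Kb (fieldBar L M H)) (hv : 0 ≤ v.ord (hFH3 L M H h3)) :
    ∃ c₀ : Kb, 0 < v.ord (hFH3 L M H h3 - algebraMap Kb (fieldBar L M H) c₀) :=
  ramHH_rel_cases L M H hR (hFH3 L M H h3) (hFH3_sub_ne_zero L M H h3) v hv

end H3

section H3Line

variable {A₀ E Lf : Type} {F₀ : Type*}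
  [CommRing A₀] [Field E] [Algebra A₀ E] [Field Lf] [Algebra E Lf] [Algebra A₀ Lf]
  [IsScalarTower A₀ E Lf]
  [Algebra E Kb] [Field F₀] [Algebra E F₀] [Algebra F₀ Lf] [IsScalarTower E F₀ Lf]
  (L M : ℕ) (H : Subgroup (ZMod M)ˣ) [NeZero L] (h3 : 3 ∣ L)
  [Algebra F₀ (fieldBar L M H)] [Algebra E (fieldBar L M H)] [IsScalarTower E F₀ (fieldBar L M H)]
  [IsScalarTower E Kb (fieldBar L M H)]

/-- **B2-b over the `h`-line of `X₀(3)`** (`ℓ = 2`): `Σ = {0, -27}`, `N ∣ e`. -/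
theorem ramBH_h3line (hR : RamJH L M H) [CharZero E] [Algebra.IsAlgebraic E Kb]
    (t₀ : F₀) (ht₀ : algebraMap F₀ (fieldBar L M H) t₀ = hFH3 L M H h3) (S : Finset A₀)
    (hS : ∀ c ∈ S, algebraMap E Kb (algebraMap A₀ E c) = 0 ∨
      algebraMap E Kb (algebraMap A₀ E c) = -27)
    (h0 : ∃ c ∈ S, algebraMap E Kb (algebraMap A₀ E c) = 0)
    (h27 : ∃ c ∈ S, algebraMap E Kb (algebraMap A₀ E c) = -27)
    (e : ℕ) (hN : L ∣ e)
    (hkum : ∀ P : Place E Lf, ∃ Q : Place E F₀,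
      ∀ y : F₀, P.ord (algebraMap F₀ Lf y) = Q.ord y)
    (hext : ∀ Q : Place E F₀, ∃ v : Place Kb (fieldBar L M H),
      ∀ y : F₀, v.ord (algebraMap F₀ (fieldBar L M H) y) = Q.ord y) :
    TSUnramified (E := E) (algebraMap F₀ Lf t₀) S ∧
      TSTame (E := E) (algebraMap F₀ Lf t₀) S e := by
  have h3e : (3 : ℤ) ∣ (e : ℤ) := by exact_mod_cast h3.trans hN
  have hNe : (L : ℤ) ∣ (e : ℤ) := by exact_mod_cast hN
  refine ramB_assemble A₀ E Kb t₀ S e hkum hext ?_ ?_ ?_ ?_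
  · intro v hv
    rw [ht₀] at hv ⊢
    exact ramHH3_cases L M H h3 hR v hv
  · intro v c₀ hc₀ hv
    rw [ht₀] at hv ⊢
    obtain ⟨c, hc, hc0⟩ := h0
    obtain ⟨c', hc', hc27⟩ := h27
    refine ramHH3_gen L M H h3 hR c₀ ?_ ?_ v hv
    · rw [← hc0]; exact hc₀ c hc
    · rw [← hc27]; exact hc₀ c' hc'
  · intro v c hc hv
    rw [ht₀] at hv ⊢
    rcases hS c hc with h | h
    · rw [h] at hv ⊢
      rw [map_zero, sub_zero] at hv ⊢
      exact (ramHH3_zero L M H h3 hR v hv).trans hNe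
    · rw [h] at hv ⊢
      exact (ramHH3_ell L M H h3 hR v hv).trans h3e
  · intro v hv
    rw [ht₀] at hv ⊢
    exact (ramHH3_inf L M H h3 hR v hv).trans hNe

end H3Line


section NFH

variable (K₀ : IntermediateField ℚ NfQb) (L M : ℕ) (H : Subgroup (ZMod M)ˣ) [NeZero L]

/-- the Hauptmodul of `X₀(2)` in `fieldC K₀ L M H` -/
noncomputable def hm2CH (h2 : 2 ∣ L) : fieldC K₀ L M H :=
  ⟨hm2 K₀, full_le_fieldC K₀ L M H (hm2_mem_fullC K₀ L h2)⟩

/-- the Hauptmodul of `X₀(3)` in `fieldC K₀ L M H` -/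
noncomputable def hm3CH (h3 : 3 ∣ L) : fieldC K₀ L M H :=
  ⟨hm3 K₀, full_le_fieldC K₀ L M H (hm3_mem_fullC K₀ L h3)⟩

theorem coe_hm2CH (h2 : 2 ∣ L) :
    ((hm2CH K₀ L M H h2 : fieldC K₀ L M H) : LaurentSeries K₀) = hm2 K₀ := rfl

theorem coe_hm3CH (h3 : 3 ∣ L) :
    ((hm3CH K₀ L M H h3 : fieldC K₀ L M H) : LaurentSeries K₀) = hm3 K₀ := rfl

theorem nfEmbH_hm2CH (h2 : 2 ∣ L) : nfEmbH K₀ L M H (hm2CH K₀ L M H h2) = hFH2 L M H h2 := by
  apply Subtype.ext
  rw [nfEmbH_coe, hFH2_coe, coe_hm2CH]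
  exact hm2_map (algebraMap K₀ NfQb)

theorem nfEmbH_hm3CH (h3 : 3 ∣ L) : nfEmbH K₀ L M H (hm3CH K₀ L M H h3) = hFH3 L M H h3 := by
  apply Subtype.ext
  rw [nfEmbH_coe, hFH3_coe, coe_hm3CH]
  exact hm3_map (algebraMap K₀ NfQb)

/-- **(b), (b') over the `hm2`-line for `fieldC K₀ L M H` itself** (number-field form). -/
theorem nfH_ram_h2line_self (hR : RamJH L M H) (h2 : 2 ∣ L) {A₀ : Type} [CommRing A₀]
    [Algebra A₀ K₀] [Algebra A₀ (fieldC K₀ L M H)] [IsScalarTower A₀ K₀ (fieldC K₀ L M H)]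
    (S : Finset A₀)
    (hS : ∀ c ∈ S, algebraMap A₀ K₀ c = 0 ∨ algebraMap A₀ K₀ c = -64)
    (h0 : ∃ c ∈ S, algebraMap A₀ K₀ c = 0)
    (h64 : ∃ c ∈ S, algebraMap A₀ K₀ c = -64)
    (e : ℕ) (hN : L ∣ e) :
    TSUnramified (E := K₀) (hm2CH K₀ L M H h2) S ∧
      TSTame (E := K₀) (hm2CH K₀ L M H h2) S e := by
  letI := nfH_algebra K₀ L M H
  haveI := nfH_tower K₀ L M H
  haveI := nfH_isAlgebraic K₀
  refine ramBH_h2line (E := K₀) (Lf := fieldC K₀ L M H) (F₀ := fieldC K₀ L M H) L M H h2 hR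
    (hm2CH K₀ L M H h2) (nfEmbH_hm2CH K₀ L M H h2) S ?_ ?_ ?_ e hN
    (fun P => ⟨P, fun y => rfl⟩) (nfH_hext K₀ L M H)
  · intro c hc
    rcases hS c hc with h' | h'
    · left; rw [h', map_zero]
    · right; rw [h', map_neg, map_ofNat]
  · obtain ⟨c, hc, h'⟩ := h0
    exact ⟨c, hc, by rw [h', map_zero]⟩
  · obtain ⟨c, hc, h'⟩ := h64
    exact ⟨c, hc, by rw [h', map_neg, map_ofNat]⟩

/-- **(b), (b') over the `hm3`-line for `fieldC K₀ L M H` itself** (number-field form). -/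
theorem nfH_ram_h3line_self (hR : RamJH L M H) (h3 : 3 ∣ L) {A₀ : Type} [CommRing A₀]
    [Algebra A₀ K₀] [Algebra A₀ (fieldC K₀ L M H)] [IsScalarTower A₀ K₀ (fieldC K₀ L M H)]
    (S : Finset A₀)
    (hS : ∀ c ∈ S, algebraMap A₀ K₀ c = 0 ∨ algebraMap A₀ K₀ c = -27)
    (h0 : ∃ c ∈ S, algebraMap A₀ K₀ c = 0)
    (h27 : ∃ c ∈ S, algebraMap A₀ K₀ c = -27)
    (e : ℕ) (hN : L ∣ e) :
    TSUnramified (E := K₀) (hm3CH K₀ L M H h3) S ∧
      TSTame (E := K₀) (hm3CH K₀ L M H h3) S e := by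
  letI := nfH_algebra K₀ L M H
  haveI := nfH_tower K₀ L M H
  haveI := nfH_isAlgebraic K₀
  refine ramBH_h3line (E := K₀) (Lf := fieldC K₀ L M H) (F₀ := fieldC K₀ L M H) L M H h3 hR
    (hm3CH K₀ L M H h3) (nfEmbH_hm3CH K₀ L M H h3) S ?_ ?_ ?_ e hN
    (fun P => ⟨P, fun y => rfl⟩) (nfH_hext K₀ L M H)
  · intro c hc
    rcases hS c hc with h' | h'
    · left; rw [h', map_zero]
    · right; rw [h', map_neg, map_ofNat]
  · obtain ⟨c, hc, h'⟩ := h0
    exact ⟨c, hc, by rw [h', map_zero]⟩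
  · obtain ⟨c, hc, h'⟩ := h27
    exact ⟨c, hc, by rw [h', map_neg, map_ofNat]⟩

variable (h : LaurentSeries K₀)

/-- **(b), (b') over the `hm2`-line for the Kummer extension** (number-field form). -/
theorem nfH_ram_h2line (hR : RamJH L M H) (h2 : 2 ∣ L) {A₀ : Type} [CommRing A₀]
    [Algebra A₀ K₀] [Algebra A₀ (kumFieldG (fieldC K₀ L M H) h)]
    [IsScalarTower A₀ K₀ (kumFieldG (fieldC K₀ L M H) h)]
    (p : ℕ) (hp : p ≠ 0) (w : fieldC K₀ L M H)
    (hw : h ^ p = (w : LaurentSeries K₀)) (hh0 : h ≠ 0)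
    (hdiv : ∀ Q : Place K₀ (fieldC K₀ L M H), (p : ℤ) ∣ Q.ord w)
    (S : Finset A₀)
    (hS : ∀ c ∈ S, algebraMap A₀ K₀ c = 0 ∨ algebraMap A₀ K₀ c = -64)
    (h0 : ∃ c ∈ S, algebraMap A₀ K₀ c = 0)
    (h64 : ∃ c ∈ S, algebraMap A₀ K₀ c = -64)
    (e : ℕ) (hN : L ∣ e) :
    TSUnramified (E := K₀) (kumInclG (fieldC K₀ L M H) h (hm2CH K₀ L M H h2)) S ∧
      TSTame (E := K₀) (kumInclG (fieldC K₀ L M H) h (hm2CH K₀ L M H h2)) S e := by
  letI := kumAlgebraG (fieldC K₀ L M H) h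
  haveI := kum_isScalarTowerG (fieldC K₀ L M H) h
  letI := nfH_algebra K₀ L M H
  haveI := nfH_tower K₀ L M H
  haveI := nfH_isAlgebraic K₀
  refine ramBH_h2line (E := K₀) (Lf := kumFieldG (fieldC K₀ L M H) h) L M H h2 hR
    (hm2CH K₀ L M H h2) (nfEmbH_hm2CH K₀ L M H h2) S ?_ ?_ ?_ e hN
    (nfH_hkum K₀ L M H h p hp w hw hh0 hdiv) (nfH_hext K₀ L M H)
  · intro c hc
    rcases hS c hc with h' | h'
    · left; rw [h', map_zero]
    · right; rw [h', map_neg, map_ofNat]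
  · obtain ⟨c, hc, h'⟩ := h0
    exact ⟨c, hc, by rw [h', map_zero]⟩
  · obtain ⟨c, hc, h'⟩ := h64
    exact ⟨c, hc, by rw [h', map_neg, map_ofNat]⟩

/-- **(b), (b') over the `hm3`-line for the Kummer extension** (number-field form). -/
theorem nfH_ram_h3line (hR : RamJH L M H) (h3 : 3 ∣ L) {A₀ : Type} [CommRing A₀]
    [Algebra A₀ K₀] [Algebra A₀ (kumFieldG (fieldC K₀ L M H) h)]
    [IsScalarTower A₀ K₀ (kumFieldG (fieldC K₀ L M H) h)]
    (p : ℕ) (hp : p ≠ 0) (w : fieldC K₀ L M H)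
    (hw : h ^ p = (w : LaurentSeries K₀)) (hh0 : h ≠ 0)
    (hdiv : ∀ Q : Place K₀ (fieldC K₀ L M H), (p : ℤ) ∣ Q.ord w)
    (S : Finset A₀)
    (hS : ∀ c ∈ S, algebraMap A₀ K₀ c = 0 ∨ algebraMap A₀ K₀ c = -27)
    (h0 : ∃ c ∈ S, algebraMap A₀ K₀ c = 0)
    (h27 : ∃ c ∈ S, algebraMap A₀ K₀ c = -27)
    (e : ℕ) (hN : L ∣ e) :
    TSUnramified (E := K₀) (kumInclG (fieldC K₀ L M H) h (hm3CH K₀ L M H h3)) S ∧
      TSTame (E := K₀) (kumInclG (fieldC K₀ L M H) h (hm3CH K₀ L M H h3)) S e := by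
  letI := kumAlgebraG (fieldC K₀ L M H) h
  haveI := kum_isScalarTowerG (fieldC K₀ L M H) h
  letI := nfH_algebra K₀ L M H
  haveI := nfH_tower K₀ L M H
  haveI := nfH_isAlgebraic K₀
  refine ramBH_h3line (E := K₀) (Lf := kumFieldG (fieldC K₀ L M H) h) L M H h3 hR
    (hm3CH K₀ L M H h3) (nfEmbH_hm3CH K₀ L M H h3) S ?_ ?_ ?_ e hN
    (nfH_hkum K₀ L M H h p hp w hw hh0 hdiv) (nfH_hext K₀ L M H)
  · intro c hc
    rcases hS c hc with h' | h'
    · left; rw [h', map_zero]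
    · right; rw [h', map_neg, map_ofNat]
  · obtain ⟨c, hc, h'⟩ := h0
    exact ⟨c, hc, by rw [h', map_zero]⟩
  · obtain ⟨c, hc, h'⟩ := h27
    exact ⟨c, hc, by rw [h', map_neg, map_ofNat]⟩

end NFH

end Fermat.Agent.ES1


end ZBES1_002_19

/-! ### bundled: `Fermat.Agent.ES1.InjInstH2` -/
section ZBES1_002_20

/-!
# ES₁/INJ₁-inst, INST-h2: `ℓ = 3`, the Hauptmodul line of `X₀(2)` (fork of `INJ/InjH2.lean`)

`stmtInjNFH_h2 : InjCoreStmtG → StmtKDLift → RamJH L M H → StmtConjFamNF L M H 3 →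
  StmtInjNFH L M H 3 p` for `2 ∣ L`, `3 ∤ L`, `p ≠ 3` prime.
Coordinate `t₀ = hm2`, `Σ = {0, -64}`, `e = L`.
-/

set_option autoImplicit false
set_option linter.style.haveILetI false
set_option linter.unusedSectionVars false
set_option synthInstance.maxHeartbeats 400000
set_option maxHeartbeats 4000000

namespace Fermat.Agent.ES1

open Polynomial ModularCurve IntermediateField AlgebraicCurve Fermat.Agent.S24 Fermat.Agent.INJ

/-- **INST-h2 for `fieldC`.** -/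
theorem stmtInjNFH_h2 (hcore : InjCoreStmtG) (hKD : StmtKDLift) {L M p : ℕ}
    {H : Subgroup (ZMod M)ˣ} (hL : L ≠ 0) (h2 : 2 ∣ L) (h3 : ¬ 3 ∣ L)
    (hp : p.Prime) (hp3 : p ≠ 3)
    (hR : haveI : NeZero L := ⟨hL⟩; RamJH L M H) (hconj : StmtConjFamNF L M H 3) :
    StmtInjNFH L M H 3 p := by
  classical
  intro A hA K₀ hfin hζp hζ6L Y₁ Y₂ h h₁ h₂ hred hne hpow hdiv
  by_contra hnot
  haveI : NeZero L := ⟨hL⟩
  haveI : FiniteDimensional ℚ K₀ := hfin
  have hℓ : (3 : ℕ).Prime := Nat.prime_three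
  haveI hdvr : IsDiscreteValuationRing (nfSub A K₀) := ls_isDVR A K₀ hℓ hA
  obtain ⟨π, hπ⟩ := IsDiscreteValuationRing.exists_irreducible (nfSub A K₀)
  have hrπ : nfRes A K₀ π = 0 := ls_res_irreducible A K₀ hπ
  have hr : ∀ a, nfRes A K₀ a = 0 → π ∣ a := fun a => ls_dvd_of_res_eq_zero A K₀ hπ a
  haveI : Fact (3 : ℕ).Prime := ⟨hℓ⟩
  haveI : CharP (IsLocalRing.ResidueField A) 3 := ls_charP_residueField A hℓ hA
  haveI : PerfectRing (IsLocalRing.ResidueField A) 3 := nf_perfectRing_residueField A 3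
  have hLE : ((L : ℕ) : K₀) ≠ 0 := Nat.cast_ne_zero.mpr hL
  have hLk : ((L : ℕ) : IsLocalRing.ResidueField A) ≠ 0 :=
    ls_natCast_residue_ne_zero A hℓ hA L h3
  have h2E : ((2 : ℕ) : K₀) ≠ 0 := Nat.cast_ne_zero.mpr (by norm_num)
  have h2k : ((2 : ℕ) : IsLocalRing.ResidueField A) ≠ 0 :=
    ls_natCast_residue_ne_zero A hℓ hA 2 (by norm_num)
  -- key data over the `hm2`-line for the `Γ₀(L)`-field
  have hkeq := adjoin_hm2_eq (IsLocalRing.ResidueField A) h2k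
  have hjk : jqModC (IsLocalRing.ResidueField A) ∈
      (IsLocalRing.ResidueField A)⟮hm2 (IsLocalRing.ResidueField A)⟯ := by
    rw [hkeq]; exact jqModC_mem_full _ 2
  obtain ⟨n₀, x₀, kd₀, -⟩ := exists_gaussKD_of_adjoin_eq (E := K₀) (nfRes A K₀) π hπ.ne_zero
    hπ.not_isUnit hr (N₀ := 2) (M := L) h2 hLE hLk hm2Z (adjoin_hm2_eq K₀ h2E) hkeq
    (transcendental_of_jqModC_mem _ hjk)
  have hkt : coeffMap (nfRes A K₀) (coeffMap (Int.castRingHom (nfSub A K₀)) hm2Z)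
      = hm2 (IsLocalRing.ResidueField A) := by
    rw [coeffMap_coeffMap]
    exact coeffMap_congr (RingHom.ext_int _ _) _
  have hEt : coeffMap (algebraMap (nfSub A K₀) K₀) (coeffMap (Int.castRingHom (nfSub A K₀)) hm2Z)
      = hm2 K₀ := by
    rw [coeffMap_coeffMap]
    exact coeffMap_congr (RingHom.ext_int _ _) _
  have hord : (coeffMap (algebraMap (nfSub A K₀) K₀)
      (coeffMap (Int.castRingHom (nfSub A K₀)) hm2Z)).order = -1 := by
    rw [hEt]
    exact injH_order_hm2 K₀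
  -- units and roots of unity
  have hp3' : ¬ 3 ∣ p := fun hd => hp3 ((Nat.prime_dvd_prime_iff_eq hℓ hp).mp hd).symm
  have hpπ : ¬ π ∣ ((p : ℕ) : nfSub A K₀) := fun hd =>
    hπ.not_isUnit (isUnit_of_dvd_unit hd (ls_isUnit_natCast A K₀ hℓ hA p hp3'))
  obtain ⟨ζ, hζ⟩ := ls_exists_primitiveRoot A K₀ hp.ne_zero hζp
  obtain ⟨u, hζu⟩ := ls_exists_inv_zeta_sub_one A K₀ hℓ hA hp hp3 ζ hζ
  have hrootL : ∃ ζ : nfSub A K₀, IsPrimitiveRoot ζ L := by
    refine ls_exists_primitiveRoot A K₀ hL ?_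
    obtain ⟨ζ₀, hζ₀⟩ := hζ6L
    exact ⟨ζ₀ ^ 6, hζ₀.pow (by positivity) rfl⟩
  -- the set `Σ = {0, -64}`
  set S : Finset (nfSub A K₀) := {0, -64} with hSdef
  have hdist : ∀ c ∈ S, ∀ c' ∈ S, c ≠ c' → ¬ π ∣ c - c' := by
    intro c hc c' hc' hcc
    rw [hSdef, Finset.mem_insert, Finset.mem_singleton] at hc hc'
    have key : ∀ a b : ℤ, ¬ (3 : ℤ) ∣ a - b →
        ¬ π ∣ ((a : nfSub A K₀) - (b : nfSub A K₀)) := fun a b hab =>
      ls_not_dvd_intCast_sub A K₀ hℓ hA hπ.not_isUnit a b (by exact_mod_cast hab)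
    rcases hc with rfl | rfl <;> rcases hc' with rfl | rfl
    · exact absurd rfl hcc
    · have := key 0 (-64) (by norm_num)
      simpa using this
    · have := key (-64) 0 (by norm_num)
      simpa using this
    · exact absurd rfl hcc
  have hS01 : ∀ c ∈ S, algebraMap (nfSub A K₀) K₀ c = 0 ∨
      algebraMap (nfSub A K₀) K₀ c = -64 := by
    intro c hc
    rw [hSdef, Finset.mem_insert, Finset.mem_singleton] at hc
    rcases hc with rfl | rfl
    · left; exact map_zero _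
    · right; rw [map_neg, map_ofNat]
  have hS0 : ∃ c ∈ S, algebraMap (nfSub A K₀) K₀ c = 0 :=
    ⟨0, by rw [hSdef]; simp, map_zero _⟩
  have hS64 : ∃ c ∈ S, algebraMap (nfSub A K₀) K₀ c = -64 :=
    ⟨-64, by rw [hSdef]; simp, by rw [map_neg, map_ofNat]⟩
  have hunit : IsUnit ((L : ℕ) : nfSub A K₀) := ls_isUnit_natCast A K₀ hℓ hA L h3
  -- the conjugate family and the key data for `fieldC`
  obtain ⟨m, Sc, hSc⟩ := hconj A hA K₀ hfin
  have hfin₀ : FiniteDimensional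
      K₀⟮(⟨coeffMap (algebraMap (nfSub A K₀) K₀)
        (coeffMap (Int.castRingHom (nfSub A K₀)) hm2Z), kd₀.t_mem⟩ :
        modularFunctionFieldFullC K₀ L)⟯ (modularFunctionFieldFullC K₀ L) :=
    bgFinH_finiteDimensional_full_hm2 K₀ L _ hEt
  have hfinF : FiniteDimensional
      K₀⟮(⟨coeffMap (algebraMap (nfSub A K₀) K₀)
        (coeffMap (Int.castRingHom (nfSub A K₀)) hm2Z),
        hSc.le kd₀.t_mem⟩ : fieldC K₀ L M H)⟯ (fieldC K₀ L M H) := by
    obtain ⟨P, hPm, -, hP0⟩ := hSc.poly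
    exact injH1_fin_of_gen (modularFunctionFieldFullC K₀ L) (fieldC K₀ L M H) hSc.le _ hSc.gen
      (injH1_isIntegral_of_eval₂ _ _ ⟨P, hPm, hP0⟩) _ kd₀.t_mem hfin₀
  have hteq : (⟨coeffMap (algebraMap (nfSub A K₀) K₀)
      (coeffMap (Int.castRingHom (nfSub A K₀)) hm2Z),
      hSc.le kd₀.t_mem⟩ : fieldC K₀ L M H) = hm2CH K₀ L M H h2 := Subtype.ext hEt
  obtain ⟨n, x, kd⟩ := hKD (A₀ := nfSub A K₀) (E := K₀) (k := IsLocalRing.ResidueField A)
    (nfRes A K₀) (modularFunctionFieldFullC K₀ L) (fieldC K₀ L M H) hπ hrπ hr kd₀ hord Sc hSc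
    (fun {_ _} => kd₀.tsGoodBasis hπ.ne_zero hπ.not_isUnit hr hrπ 3
      (by rw [hkt]; exact thetaFun_hm2_ne_zero _))
    hfinF S hdist L hunit hrootL
    (fun {_ _} => by
      rw [hteq]
      exact nfH_ram_h2line_self K₀ L M H hR h2 S hS01 hS0 hS64 L dvd_rfl)
  -- the elements `y₁`, `y₂`, `w`
  have hinj : Function.Injective (algebraMap (nfSub A K₀) K₀) := Subtype.val_injective
  have hY₂ : Y₂ ≠ 0 := injH_ne_zero_of_red (nfRes A K₀) Y₂ hne
  have hY₁ : Y₁ ≠ 0 := injH_ne_zero_of_red (nfRes A K₀) Y₁ (by rw [hred]; exact hne)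
  have hy₁' := injH_coeffMap_ne_zero (algebraMap (nfSub A K₀) K₀) hinj Y₁ hY₁
  have hy₂' := injH_coeffMap_ne_zero (algebraMap (nfSub A K₀) K₀) hinj Y₂ hY₂
  set y₁ : fieldC K₀ L M H := ⟨_, h₁⟩ with hy₁def
  set y₂ : fieldC K₀ L M H := ⟨_, h₂⟩ with hy₂def
  have hy₁ : y₁ ≠ 0 := fun h0 => hy₁' (congrArg Subtype.val h0)
  have hy₂ : y₂ ≠ 0 := fun h0 => hy₂' (congrArg Subtype.val h0)
  have hw : h ^ p = ((y₁ / y₂ : fieldC K₀ L M H) : LaurentSeries K₀) :=
    injH_quot (fieldC K₀ L M H) h y₁ y₂ hy₂ hpow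
  have hh0 : h ≠ 0 := injH_root_ne_zero h _ _ hy₁' hp.ne_zero hpow
  have hdivw := nfH_hdiv_quot K₀ L M H p y₁ y₂ hy₁ hy₂ hdiv
  have hteq' : (⟨coeffMap (algebraMap (nfSub A K₀) K₀)
      (coeffMap (Int.castRingHom (nfSub A K₀)) hm2Z),
      le_kumFieldG (fieldC K₀ L M H) h kd.t_mem⟩ : kumFieldG (fieldC K₀ L M H) h)
      = kumInclG (fieldC K₀ L M H) h (hm2CH K₀ L M H h2) := by
    apply Subtype.ext
    rw [coe_kumInclG, coe_hm2CH]
    exact hEt
  refine hcore (A₀ := nfSub A K₀) (E := K₀) (k := IsLocalRing.ResidueField A) (nfRes A K₀)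
    (fieldC K₀ L M H) h hπ hrπ hr kd hord hp hpπ ζ u hζ hζu Y₁ Y₂ h₁ h₂ hred hne hpow hnot
    ?_ ?_ S hdist L hunit hrootL ?_
  · -- (a) for `fieldC`
    intro _ _
    exact kd.tsGoodBasis hπ.ne_zero hπ.not_isUnit hr hrπ 3
      (by rw [hkt]; exact thetaFun_hm2_ne_zero _)
  · -- finiteness
    have hwF : h ^ p ∈ fieldC K₀ L M H := by rw [hw]; exact (y₁ / y₂).2
    exact injH1_fin_of_gen (fieldC K₀ L M H) (kumFieldG (fieldC K₀ L M H) h)
      (le_kumFieldG _ h) h le_rfl (injH1_isIntegral_of_pow _ h p hp.ne_zero hwF) _ kd.t_mem hfinF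
  · -- (b), (b')
    intro _ _
    rw [hteq']
    exact nfH_ram_h2line K₀ L M H h hR h2 p hp.ne_zero (y₁ / y₂) hw hh0 hdivw S hS01 hS0 hS64
      L dvd_rfl

end Fermat.Agent.ES1


end ZBES1_002_20

/-! ### bundled: `Fermat.Agent.ES1.InjInstH3` -/
section ZBES1_002_21

/-!
# ES₁/INJ₁-inst, INST-h3: `ℓ = 2`, the Hauptmodul line of `X₀(3)` (fork of `INJ/InjH3.lean`)

`stmtInjNFH_h3 : InjCoreStmtG → StmtKDLift → RamJH L M H → StmtConjFamNF L M H 2 →
  StmtInjNFH L M H 2 p` for `3 ∣ L`, `2 ∤ L`, `p ≠ 2` prime.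
Coordinate `t₀ = hm3`, `Σ = {0, -27}`, `e = L`.
-/

set_option autoImplicit false
set_option linter.style.haveILetI false
set_option linter.unusedSectionVars false
set_option synthInstance.maxHeartbeats 400000
set_option maxHeartbeats 4000000

namespace Fermat.Agent.ES1

open Polynomial ModularCurve IntermediateField AlgebraicCurve Fermat.Agent.S24 Fermat.Agent.INJ

/-- **INST-h3 for `fieldC`.** -/
theorem stmtInjNFH_h3 (hcore : InjCoreStmtG) (hKD : StmtKDLift) {L M p : ℕ}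
    {H : Subgroup (ZMod M)ˣ} (hL : L ≠ 0) (h3 : 3 ∣ L) (h2 : ¬ 2 ∣ L)
    (hp : p.Prime) (hp2 : p ≠ 2)
    (hR : haveI : NeZero L := ⟨hL⟩; RamJH L M H) (hconj : StmtConjFamNF L M H 2) :
    StmtInjNFH L M H 2 p := by
  classical
  intro A hA K₀ hfin hζp hζ6L Y₁ Y₂ h h₁ h₂ hred hne hpow hdiv
  by_contra hnot
  haveI : NeZero L := ⟨hL⟩
  haveI : FiniteDimensional ℚ K₀ := hfin
  have hℓ : (2 : ℕ).Prime := Nat.prime_two
  haveI hdvr : IsDiscreteValuationRing (nfSub A K₀) := ls_isDVR A K₀ hℓ hA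
  obtain ⟨π, hπ⟩ := IsDiscreteValuationRing.exists_irreducible (nfSub A K₀)
  have hrπ : nfRes A K₀ π = 0 := ls_res_irreducible A K₀ hπ
  have hr : ∀ a, nfRes A K₀ a = 0 → π ∣ a := fun a => ls_dvd_of_res_eq_zero A K₀ hπ a
  haveI : Fact (2 : ℕ).Prime := ⟨hℓ⟩
  haveI : CharP (IsLocalRing.ResidueField A) 2 := ls_charP_residueField A hℓ hA
  haveI : PerfectRing (IsLocalRing.ResidueField A) 2 := nf_perfectRing_residueField A 2
  have hLE : ((L : ℕ) : K₀) ≠ 0 := Nat.cast_ne_zero.mpr hL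
  have hLk : ((L : ℕ) : IsLocalRing.ResidueField A) ≠ 0 :=
    ls_natCast_residue_ne_zero A hℓ hA L h2
  have h3E : ((3 : ℕ) : K₀) ≠ 0 := Nat.cast_ne_zero.mpr (by norm_num)
  have h3k : ((3 : ℕ) : IsLocalRing.ResidueField A) ≠ 0 :=
    ls_natCast_residue_ne_zero A hℓ hA 3 (by norm_num)
  -- key data over the `hm3`-line for the `Γ₀(L)`-field
  have hkeq := adjoin_hm3_eq (IsLocalRing.ResidueField A) h3k
  have hjk : jqModC (IsLocalRing.ResidueField A) ∈
      (IsLocalRing.ResidueField A)⟮hm3 (IsLocalRing.ResidueField A)⟯ := by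
    rw [hkeq]; exact jqModC_mem_full _ 3
  obtain ⟨n₀, x₀, kd₀, -⟩ := exists_gaussKD_of_adjoin_eq (E := K₀) (nfRes A K₀) π hπ.ne_zero
    hπ.not_isUnit hr (N₀ := 3) (M := L) h3 hLE hLk hm3Z (adjoin_hm3_eq K₀ h3E) hkeq
    (transcendental_of_jqModC_mem _ hjk)
  have hkt : coeffMap (nfRes A K₀) (coeffMap (Int.castRingHom (nfSub A K₀)) hm3Z)
      = hm3 (IsLocalRing.ResidueField A) := by
    rw [coeffMap_coeffMap]
    exact coeffMap_congr (RingHom.ext_int _ _) _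
  have hEt : coeffMap (algebraMap (nfSub A K₀) K₀) (coeffMap (Int.castRingHom (nfSub A K₀)) hm3Z)
      = hm3 K₀ := by
    rw [coeffMap_coeffMap]
    exact coeffMap_congr (RingHom.ext_int _ _) _
  have hord : (coeffMap (algebraMap (nfSub A K₀) K₀)
      (coeffMap (Int.castRingHom (nfSub A K₀)) hm3Z)).order = -1 := by
    rw [hEt]
    exact injH_order_hm3 K₀
  -- units and roots of unity
  have hp2' : ¬ 2 ∣ p := fun hd => hp2 ((Nat.prime_dvd_prime_iff_eq hℓ hp).mp hd).symm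
  have hpπ : ¬ π ∣ ((p : ℕ) : nfSub A K₀) := fun hd =>
    hπ.not_isUnit (isUnit_of_dvd_unit hd (ls_isUnit_natCast A K₀ hℓ hA p hp2'))
  obtain ⟨ζ, hζ⟩ := ls_exists_primitiveRoot A K₀ hp.ne_zero hζp
  obtain ⟨u, hζu⟩ := ls_exists_inv_zeta_sub_one A K₀ hℓ hA hp hp2 ζ hζ
  have hrootL : ∃ ζ : nfSub A K₀, IsPrimitiveRoot ζ L := by
    refine ls_exists_primitiveRoot A K₀ hL ?_
    obtain ⟨ζ₀, hζ₀⟩ := hζ6L
    exact ⟨ζ₀ ^ 6, hζ₀.pow (by positivity) rfl⟩
  -- the set `Σ = {0, -27}`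
  set S : Finset (nfSub A K₀) := {0, -27} with hSdef
  have hdist : ∀ c ∈ S, ∀ c' ∈ S, c ≠ c' → ¬ π ∣ c - c' := by
    intro c hc c' hc' hcc
    rw [hSdef, Finset.mem_insert, Finset.mem_singleton] at hc hc'
    have key : ∀ a b : ℤ, ¬ (2 : ℤ) ∣ a - b →
        ¬ π ∣ ((a : nfSub A K₀) - (b : nfSub A K₀)) := fun a b hab =>
      ls_not_dvd_intCast_sub A K₀ hℓ hA hπ.not_isUnit a b (by exact_mod_cast hab)
    rcases hc with rfl | rfl <;> rcases hc' with rfl | rfl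
    · exact absurd rfl hcc
    · have := key 0 (-27) (by norm_num)
      simpa using this
    · have := key (-27) 0 (by norm_num)
      simpa using this
    · exact absurd rfl hcc
  have hS01 : ∀ c ∈ S, algebraMap (nfSub A K₀) K₀ c = 0 ∨
      algebraMap (nfSub A K₀) K₀ c = -27 := by
    intro c hc
    rw [hSdef, Finset.mem_insert, Finset.mem_singleton] at hc
    rcases hc with rfl | rfl
    · left; exact map_zero _
    · right; rw [map_neg, map_ofNat]
  have hS0 : ∃ c ∈ S, algebraMap (nfSub A K₀) K₀ c = 0 :=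
    ⟨0, by rw [hSdef]; simp, map_zero _⟩
  have hS27 : ∃ c ∈ S, algebraMap (nfSub A K₀) K₀ c = -27 :=
    ⟨-27, by rw [hSdef]; simp, by rw [map_neg, map_ofNat]⟩
  have hunit : IsUnit ((L : ℕ) : nfSub A K₀) := ls_isUnit_natCast A K₀ hℓ hA L h2
  -- the conjugate family and the key data for `fieldC`
  obtain ⟨m, Sc, hSc⟩ := hconj A hA K₀ hfin
  have hfin₀ : FiniteDimensional
      K₀⟮(⟨coeffMap (algebraMap (nfSub A K₀) K₀)
        (coeffMap (Int.castRingHom (nfSub A K₀)) hm3Z), kd₀.t_mem⟩ :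
        modularFunctionFieldFullC K₀ L)⟯ (modularFunctionFieldFullC K₀ L) :=
    bgFinH_finiteDimensional_full_hm3 K₀ L _ hEt
  have hfinF : FiniteDimensional
      K₀⟮(⟨coeffMap (algebraMap (nfSub A K₀) K₀)
        (coeffMap (Int.castRingHom (nfSub A K₀)) hm3Z),
        hSc.le kd₀.t_mem⟩ : fieldC K₀ L M H)⟯ (fieldC K₀ L M H) := by
    obtain ⟨P, hPm, -, hP0⟩ := hSc.poly
    exact injH1_fin_of_gen (modularFunctionFieldFullC K₀ L) (fieldC K₀ L M H) hSc.le _ hSc.gen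
      (injH1_isIntegral_of_eval₂ _ _ ⟨P, hPm, hP0⟩) _ kd₀.t_mem hfin₀
  have hteq : (⟨coeffMap (algebraMap (nfSub A K₀) K₀)
      (coeffMap (Int.castRingHom (nfSub A K₀)) hm3Z),
      hSc.le kd₀.t_mem⟩ : fieldC K₀ L M H) = hm3CH K₀ L M H h3 := Subtype.ext hEt
  obtain ⟨n, x, kd⟩ := hKD (A₀ := nfSub A K₀) (E := K₀) (k := IsLocalRing.ResidueField A)
    (nfRes A K₀) (modularFunctionFieldFullC K₀ L) (fieldC K₀ L M H) hπ hrπ hr kd₀ hord Sc hSc
    (fun {_ _} => kd₀.tsGoodBasis hπ.ne_zero hπ.not_isUnit hr hrπ 2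
      (by rw [hkt]; exact thetaFun_hm3_ne_zero _))
    hfinF S hdist L hunit hrootL
    (fun {_ _} => by
      rw [hteq]
      exact nfH_ram_h3line_self K₀ L M H hR h3 S hS01 hS0 hS27 L dvd_rfl)
  -- the elements `y₁`, `y₂`, `w`
  have hinj : Function.Injective (algebraMap (nfSub A K₀) K₀) := Subtype.val_injective
  have hY₂ : Y₂ ≠ 0 := injH_ne_zero_of_red (nfRes A K₀) Y₂ hne
  have hY₁ : Y₁ ≠ 0 := injH_ne_zero_of_red (nfRes A K₀) Y₁ (by rw [hred]; exact hne)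
  have hy₁' := injH_coeffMap_ne_zero (algebraMap (nfSub A K₀) K₀) hinj Y₁ hY₁
  have hy₂' := injH_coeffMap_ne_zero (algebraMap (nfSub A K₀) K₀) hinj Y₂ hY₂
  set y₁ : fieldC K₀ L M H := ⟨_, h₁⟩ with hy₁def
  set y₂ : fieldC K₀ L M H := ⟨_, h₂⟩ with hy₂def
  have hy₁ : y₁ ≠ 0 := fun h0 => hy₁' (congrArg Subtype.val h0)
  have hy₂ : y₂ ≠ 0 := fun h0 => hy₂' (congrArg Subtype.val h0)
  have hw : h ^ p = ((y₁ / y₂ : fieldC K₀ L M H) : LaurentSeries K₀) :=
    injH_quot (fieldC K₀ L M H) h y₁ y₂ hy₂ hpow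
  have hh0 : h ≠ 0 := injH_root_ne_zero h _ _ hy₁' hp.ne_zero hpow
  have hdivw := nfH_hdiv_quot K₀ L M H p y₁ y₂ hy₁ hy₂ hdiv
  have hteq' : (⟨coeffMap (algebraMap (nfSub A K₀) K₀)
      (coeffMap (Int.castRingHom (nfSub A K₀)) hm3Z),
      le_kumFieldG (fieldC K₀ L M H) h kd.t_mem⟩ : kumFieldG (fieldC K₀ L M H) h)
      = kumInclG (fieldC K₀ L M H) h (hm3CH K₀ L M H h3) := by
    apply Subtype.ext
    rw [coe_kumInclG, coe_hm3CH]
    exact hEt
  refine hcore (A₀ := nfSub A K₀) (E := K₀) (k := IsLocalRing.ResidueField A) (nfRes A K₀)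
    (fieldC K₀ L M H) h hπ hrπ hr kd hord hp hpπ ζ u hζ hζu Y₁ Y₂ h₁ h₂ hred hne hpow hnot
    ?_ ?_ S hdist L hunit hrootL ?_
  · -- (a) for `fieldC`
    intro _ _
    exact kd.tsGoodBasis hπ.ne_zero hπ.not_isUnit hr hrπ 2
      (by rw [hkt]; exact thetaFun_hm3_ne_zero _)
  · -- finiteness
    have hwF : h ^ p ∈ fieldC K₀ L M H := by rw [hw]; exact (y₁ / y₂).2
    exact injH1_fin_of_gen (fieldC K₀ L M H) (kumFieldG (fieldC K₀ L M H) h)
      (le_kumFieldG _ h) h le_rfl (injH1_isIntegral_of_pow _ h p hp.ne_zero hwF) _ kd.t_mem hfinF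
  · -- (b), (b')
    intro _ _
    rw [hteq']
    exact nfH_ram_h3line K₀ L M H h hR h3 p hp.ne_zero (y₁ / y₂) hw hh0 hdivw S hS01 hS0 hS27
      L dvd_rfl

end Fermat.Agent.ES1


end ZBES1_002_21

/-! ### bundled: `Fermat.Agent.ES1.ConjNF` -/
section ZBES1_002_22

/-!
# ES₁ / INJ₁ — the conjugate family in the number-field setting (captain helper36)

`stmtConjFamNF_of_diamond : StmtDiamondH → L ≠ 0 → M ∣ L → StmtConjFamNF L M H ℓ`
(the hypothesis `hconj` of `stmtInjNFH_j`, `ES1/InjInstJ.lean`).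
-/

set_option autoImplicit false

noncomputable section

namespace Fermat.Agent.ES1

open Polynomial ModularCurve IntermediateField AlgebraicCurve Fermat.Agent.INJ

theorem stmtConjFamNF_of_diamond (hD : StmtDiamondH) {L M : ℕ} (H : Subgroup (ZMod M)ˣ)
    (ℓ : ℕ) (hL : L ≠ 0) (hML : M ∣ L) : StmtConjFamNF L M H ℓ := by
  intro A hA K₀ hfin
  have hM0 : M ≠ 0 := fun h => hL (by rw [h] at hML; exact Nat.eq_zero_of_zero_dvd hML)
  obtain ⟨m, a, ha⟩ := exists_isRepFam hM0 H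
  haveI : FiniteDimensional ℚ K₀ := hfin
  haveI : Algebra.IsAlgebraic ℚ K₀ := by
    have h : @Algebra.IsAlgebraic ℚ K₀ _ _ K₀.algebra' := Algebra.IsAlgebraic.of_finite ℚ K₀
    convert h
    · exact Subsingleton.elim _ _
  exact ⟨m, fun i => sS (nfSub A K₀) M H (a i),
    conjFamily_of_diamond hD (nfRes A K₀) L M H a hL hML ha⟩

end Fermat.Agent.ES1

end
end ZBES1_002_22

/-! ### bundled: `Fermat.Agent.ES1.InjInstAll` -/
section ZBES1_002_23

/-!
# ES₁/INJ₁-inst: final assembly of (INJ₁), all residue characteristics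
(fork of `INJ/InjAll.lean`)

* `injH1_core : InjCoreStmtG` (from the tame specialization theorem, Part A);
* `injH1_ge5`   : `StmtINJH L M H ℓ p` for `ℓ ∤ 6 L` (the `j`-line);
* `injH1_three` : `StmtINJH L M H 3 p` for `3 ∤ L` (Hauptmodul line of `X₀(2)`, level `lcm 2 L`);
* `injH1_two`   : `StmtINJH L M H 2 p` for `2 ∤ L` (Hauptmodul line of `X₀(3)`, level `lcm 3 L`);
* `stmtINJHAll_of : StmtKDLift → StmtDiamondH → StmtRamJH → StmtINJHAll`.
-/

set_option autoImplicit false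
set_option linter.style.haveILetI false

namespace Fermat.Agent.ES1

open Fermat.Agent.INJ

/-- the line-independent core, unconditionally -/
theorem injH1_core : InjCoreStmtG := injCoreStmtG_of_tameSpec tameSpecStmt

section

variable (hKD : StmtKDLift) (hD : StmtDiamondH) (hRam : StmtRamJH)
include hKD hD hRam

/-- **(INJ₁) for `ℓ ≥ 5`.** -/
theorem injH1_ge5 {L M ℓ p : ℕ} (H : Subgroup (ZMod M)ˣ) (hL : L ≠ 0) (hML : M ∣ L)
    (hℓ : ℓ.Prime) (hp : p.Prime) (hℓL : ¬ ℓ ∣ L) (hℓp : ℓ ≠ p) (hℓ2 : ℓ ≠ 2) (hℓ3 : ℓ ≠ 3) :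
    StmtINJH L M H ℓ p := by
  haveI : NeZero L := ⟨hL⟩
  refine stmtINJH_of_stmtInjNFH hL hp
    (stmtInjNFH_j injH1_core hKD hL hℓ hp hℓp ?_ (hRam L M H hML)
      (stmtConjFamNF_of_diamond hD H ℓ hL hML))
  intro hd
  rcases (Nat.Prime.dvd_mul hℓ).mp hd with h6 | hL'
  · have h6' : (6 : ℕ) = 2 * 3 := by norm_num
    rw [h6'] at h6
    rcases (Nat.Prime.dvd_mul hℓ).mp h6 with h | h
    · exact hℓ2 ((Nat.prime_dvd_prime_iff_eq hℓ Nat.prime_two).mp h)
    · exact hℓ3 ((Nat.prime_dvd_prime_iff_eq hℓ Nat.prime_three).mp h)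
  · exact hℓL hL'

/-- **(INJ₁) for `ℓ = 3`.** -/
theorem injH1_three {L M p : ℕ} (H : Subgroup (ZMod M)ˣ) (hL : L ≠ 0) (hML : M ∣ L)
    (hp : p.Prime) (h3L : ¬ 3 ∣ L) (h3p : 3 ≠ p) : StmtINJH L M H 3 p := by
  refine stmtINJH_descent_three (stmtRelDegH_of_diamond hD) L M H p hL hML hp h3p ?_
  have hL' : Nat.lcm 2 L ≠ 0 := Nat.lcm_ne_zero (by norm_num) hL
  have hML' : M ∣ Nat.lcm 2 L := hML.trans (Nat.dvd_lcm_right 2 L)
  haveI : NeZero (Nat.lcm 2 L) := ⟨hL'⟩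
  exact stmtINJH_of_stmtInjNFH hL' hp
    (stmtInjNFH_h2 injH1_core hKD hL' (Nat.dvd_lcm_left 2 L) (dl_not_dvd_lcm_two h3L) hp
      (Ne.symm h3p) (hRam (Nat.lcm 2 L) M H hML')
      (stmtConjFamNF_of_diamond hD H 3 hL' hML'))

/-- **(INJ₁) for `ℓ = 2`.** -/
theorem injH1_two {L M p : ℕ} (H : Subgroup (ZMod M)ˣ) (hL : L ≠ 0) (hML : M ∣ L)
    (hp : p.Prime) (h2L : ¬ 2 ∣ L) (h2p : 2 ≠ p) : StmtINJH L M H 2 p := by
  refine stmtINJH_descent_two (stmtRelDegH_of_diamond hD) L M H p hL hML hp h2p ?_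
  have hL' : Nat.lcm 3 L ≠ 0 := Nat.lcm_ne_zero (by norm_num) hL
  have hML' : M ∣ Nat.lcm 3 L := hML.trans (Nat.dvd_lcm_right 3 L)
  haveI : NeZero (Nat.lcm 3 L) := ⟨hL'⟩
  exact stmtINJH_of_stmtInjNFH hL' hp
    (stmtInjNFH_h3 injH1_core hKD hL' (Nat.dvd_lcm_left 3 L) (dl_not_dvd_lcm_three h2L) hp
      (Ne.symm h2p) (hRam (Nat.lcm 3 L) M H hML')
      (stmtConjFamNF_of_diamond hD H 2 hL' hML'))

/-- **(INJ₁), all cases**, from (INJ₁-KD), (F3-conj) and (F4). -/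
theorem stmtINJHAll_of : StmtINJHAll := by
  intro L M H ℓ p hL hML hℓ hp hℓL hℓp
  by_cases hℓ2 : ℓ = 2
  · subst hℓ2
    exact injH1_two hKD hD hRam H hL hML hp hℓL hℓp
  by_cases hℓ3 : ℓ = 3
  · subst hℓ3
    exact injH1_three hKD hD hRam H hL hML hp hℓL hℓp
  exact injH1_ge5 hKD hD hRam H hL hML hℓ hp hℓL hℓp hℓ2 hℓ3

end

end Fermat.Agent.ES1


end ZBES1_002_23
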