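/- GENERATED FILE (helper35, build-time optimisation, NOTES/ZB.md): verbatim concatenation of the modules
   Fermat.Agent.ES1.HGen
   Fermat.Agent.ES1.HInputs
   Fermat.Agent.ES1.G2.Plan
   Fermat.Agent.ES1.G2.DiamBar
   Fermat.Agent.ES1.HBridge
   Fermat.Agent.ES1.G2.PowF
   Fermat.Agent.ES1.G2.FrobH
   Fermat.Agent.ES1.G2.UnramH
   Fermat.Agent.ES1.G2.FrobMain
   Fermat.Agent.ES1.G2.InjBridgeH
   Fermat.Agent.ES1.G2.HeckeNormH
   Fermat.Agent.ES1.G2.DegH
   Fermat.Agent.ES1.G2.Main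
   Fermat.Agent.RT.K6.CheapInf
   Fermat.Agent.ES1.G1.HeckeKummerH
   Do not edit; do not import together with these modules. -/
import Fermat.Agent.ZB.ES_005
import Fermat.Agent.ZB.ES1_002
import Fermat.Agent.ZB.ES1_006
import Fermat.Agent.ZB.ES_001
import Fermat.Agent.ZB.ES_007

/-! ### bundled: `Fermat.Agent.ES1.HGen` -/
section ZBES1_007_0

/-!
# ES₁, piece (H), part 2: the inputs of `Pic0.correspondence` for ANY homomorphism of function
fields of one variable over an algebraically closed field of characteristic `0`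

`Es1hFF1 K F` : `F` is finite over `K(x)` for some transcendental `x : F`.  For `K` algebraically
closed of characteristic `0` and `φ : F →ₐ[K] F'` with `Es1hFF1 K F`, `Es1hFF1 K F'`:
principal divisors, residue fields `= K`, `φ` finite and integral, the fundamental identity and the
norm formula along `φ`.  (Generic glue over the ES₀ bricks `ES/HFinite`, `HPrincipal`, `Hb`.)
-/

set_option autoImplicit false

noncomputable section

open AlgebraicCurve IntermediateField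

namespace Fermat.Agent.ES1

open Fermat.Agent.S24 Fermat.Agent.ES.H

/-- `F` is a function field of one variable over `K`: finite over `K(x)`, `x` transcendental. -/
def Es1hFF1 (K F : Type*) [Field K] [Field F] [Algebra K F] : Prop :=
  ∃ x : F, Transcendental K x ∧ FiniteDimensional K⟮x⟯ F

variable {K F F' : Type*} [Field K] [Field F] [Field F'] [Algebra K F] [Algebra K F']

theorem Es1hFF1.intro (x : F) (hx : Transcendental K x) [h : FiniteDimensional K⟮x⟯ F] :
    Es1hFF1 K F := ⟨x, hx, h⟩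

/-- any transcendental element works -/
theorem Es1hFF1.finiteDimensional (h : Es1hFF1 K F) (g : F) (hg : Transcendental K g) :
    FiniteDimensional K⟮g⟯ F := by
  obtain ⟨x, hx, hfin⟩ := h
  exact pd_finiteDimensional_adjoin_of_transcendental x hx g hg

/-- every homomorphism into a function field of one variable is finite -/
theorem es1h_gen_finiteAlong (φ : F →ₐ[K] F') (h : Es1hFF1 K F) (h' : Es1hFF1 K F') :
    FiniteAlong K φ := by
  obtain ⟨x, hx, -⟩ := h
  obtain ⟨x', hx', hfin'⟩ := h'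
  exact finiteAlong_of_transcendental φ x' hx' x hx

/-- every homomorphism into a function field of one variable is integral -/
theorem es1h_gen_integral (φ : F →ₐ[K] F') (h : Es1hFF1 K F) (h' : Es1hFF1 K F') :
    φ.toRingHom.IsIntegral :=
  isIntegral_of_finiteAlong φ (es1h_gen_finiteAlong φ h h')

/-- every place has residue field `K` -/
theorem es1h_gen_residue_bijective [IsAlgClosed K] (h : Es1hFF1 K F) (v : Place K F) :
    Function.Bijective (algebraMap K v.ResidueField) := by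
  obtain ⟨x, hx, hfin⟩ := h
  exact algebraMap_residueField_bijective x hx (Algebra.IsAlgebraic.of_finite _ _) v

variable [IsAlgClosed K] [CharZero K]

/-- principal divisors exist and have degree `0` -/
theorem es1h_gen_hasPrincipalDivisors (h : Es1hFF1 K F) : HasPrincipalDivisors K F := by
  obtain ⟨x, hx, hfin⟩ := h
  exact hasPrincipalDivisors_of_transcendental x hx

/-- **the fundamental identity** along any homomorphism -/
theorem es1h_gen_fundamentalIdentityAlong (φ : F →ₐ[K] F') (h : Es1hFF1 K F)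
    (h' : Es1hFF1 K F') :
    haveI := es1h_gen_hasPrincipalDivisors h'
    FundamentalIdentityAlong K φ (es1h_gen_integral φ h h') := by
  have hP := es1h_gen_hasPrincipalDivisors h'
  refine fundamentalIdentityAlong_of_sumRamificationInertia φ (es1h_gen_integral φ h h') ?_
  let _ := algebraAlong φ
  have := isScalarTower_along φ
  have : FiniteDimensional F F' := es1h_gen_finiteAlong φ h h'
  exact sumRamificationInertia (es1h_gen_residue_bijective h) (es1h_gen_residue_bijective h')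

/-- **the norm formula** along any homomorphism -/
theorem es1h_gen_normFormulaAlong (φ : F →ₐ[K] F') (h : Es1hFF1 K F) (h' : Es1hFF1 K F') :
    NormFormulaAlong K φ (es1h_gen_finiteAlong φ h h') := by
  let _ := algebraAlong φ
  have := isScalarTower_along φ
  have : FiniteDimensional F F' := es1h_gen_finiteAlong φ h h'
  exact pushforwardNormFormula (es1h_gen_residue_bijective h) (es1h_gen_residue_bijective h')

end Fermat.Agent.ES1

end
end ZBES1_007_0

/-! ### bundled: `Fermat.Agent.ES1.HInputs` -/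
section ZBES1_007_1

/-!
# ES₁, piece (H): the Hecke operator `T_ℓ` on `JH L M H` and its inputs

* `Es1hFin L M H` : `fieldBar L M H` is finite over `ℚ̄(j)` (THE only modular input; it is
  delivered by the Realization of piece F4, exactly as `finiteDimensional_adjoin_jF` in ES₀);
* `Es1hFin.ff1`, `es1h_hasPrincipalDivisors`, `es1h_residue_bijective`;
* for every `ℚ̄`-homomorphism `φ : fieldBar L M H → fieldBar L' M' H'` (degeneracy maps `α`, `β`,
  diamond automorphisms, …): `es1h_finiteAlong`, `es1h_integral`,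
  `es1h_fundamentalIdentityAlong`, `es1h_normFormulaAlong`;
* `Es1hInputs L M H ℓ`, `es1hHecke L M H ℓ : JH L M H →+ JH L M H` (push-pull along `β`, `α`,
  the analogue of the prelude's `heckeOperatorAlong`), `es1h_inputs`, `es1hHecke_eq`.
-/

set_option autoImplicit false

noncomputable section

open AlgebraicCurve ModularCurve IntermediateField

namespace Fermat.Agent.ES1

open Fermat.Agent.S24

section Fin

variable (L M : ℕ) (H : Subgroup (ZMod M)ˣ)

/-- `j` is transcendental over `ℚ̄`. -/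
theorem es1h_transcendental_J : Transcendental Kb (es1hJ L M H) := by
  intro halg
  apply transcendental_jBar
  have := (isAlgebraic_algHom_iff (fieldBar L M H).val Subtype.val_injective).mpr halg
  exact this

/-- **Finiteness**: the function field of `X_H(L; M)` over `ℚ̄` is finite over `ℚ̄(j)`. -/
def Es1hFin : Prop := FiniteDimensional Kb⟮es1hJ L M H⟯ (fieldBar L M H)

variable {L M H}

theorem Es1hFin.ff1 (h : Es1hFin L M H) : Es1hFF1 Kb (fieldBar L M H) :=
  ⟨es1hJ L M H, es1h_transcendental_J L M H, h⟩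

theorem es1hFin_of_ff1 (h : Es1hFF1 Kb (fieldBar L M H)) : Es1hFin L M H :=
  h.finiteDimensional _ (es1h_transcendental_J L M H)

/-- principal divisors on `X_H(L; M)` -/
theorem es1h_hasPrincipalDivisors (h : Es1hFin L M H) :
    HasPrincipalDivisors Kb (fieldBar L M H) :=
  es1h_gen_hasPrincipalDivisors h.ff1

/-- every place of `X_H(L; M)` over `ℚ̄` has residue field `ℚ̄` -/
theorem es1h_residue_bijective (h : Es1hFin L M H) (v : Place Kb (fieldBar L M H)) :
    Function.Bijective (algebraMap Kb v.ResidueField) :=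
  es1h_gen_residue_bijective h.ff1 v

variable {L' M' : ℕ} {H' : Subgroup (ZMod M')ˣ}

/-- every `ℚ̄`-homomorphism between the function fields is finite -/
theorem es1h_finiteAlong (φ : fieldBar L M H →ₐ[Kb] fieldBar L' M' H') (h : Es1hFin L M H)
    (h' : Es1hFin L' M' H') : FiniteAlong Kb φ :=
  es1h_gen_finiteAlong φ h.ff1 h'.ff1

/-- every `ℚ̄`-homomorphism between the function fields is integral -/
theorem es1h_integral (φ : fieldBar L M H →ₐ[Kb] fieldBar L' M' H') (h : Es1hFin L M H)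
    (h' : Es1hFin L' M' H') : φ.toRingHom.IsIntegral :=
  es1h_gen_integral φ h.ff1 h'.ff1

/-- the fundamental identity along every `ℚ̄`-homomorphism between the function fields -/
theorem es1h_fundamentalIdentityAlong (φ : fieldBar L M H →ₐ[Kb] fieldBar L' M' H')
    (h : Es1hFin L M H) (h' : Es1hFin L' M' H') :
    haveI := es1h_hasPrincipalDivisors h'
    FundamentalIdentityAlong Kb φ (es1h_integral φ h h') :=
  es1h_gen_fundamentalIdentityAlong φ h.ff1 h'.ff1

/-- the norm formula along every `ℚ̄`-homomorphism between the function fields -/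
theorem es1h_normFormulaAlong (φ : fieldBar L M H →ₐ[Kb] fieldBar L' M' H')
    (h : Es1hFin L M H) (h' : Es1hFin L' M' H') :
    NormFormulaAlong Kb φ (es1h_finiteAlong φ h h') :=
  es1h_gen_normFormulaAlong φ h.ff1 h'.ff1

end Fin

section Hecke

variable (L M : ℕ) (H : Subgroup (ZMod M)ˣ) (ℓ : ℕ) [NeZero ℓ]

/-- the inputs of the push-pull correspondence `T_ℓ` (analogue of the prelude's
`ModularCurve.HeckeInputsAlong`) -/
def Es1hInputs : Prop :=
  ∃ (_ : (es1hAlpha L M H ℓ).toRingHom.IsIntegral)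
    (hβ : (es1hBeta L M H ℓ).toRingHom.IsIntegral)
    (_ : HasPrincipalDivisors Kb (fieldBar (L * ℓ) M H))
    (hfin : FiniteAlong Kb (es1hAlpha L M H ℓ)),
    FundamentalIdentityAlong Kb (es1hBeta L M H ℓ) hβ ∧
      NormFormulaAlong Kb (es1hAlpha L M H ℓ) hfin

open Classical in
/-- **The Hecke operator `T_ℓ` on `JH L M H`**: pull back along `β = (q ↦ q^ℓ)`, push forward
along the inclusion `α` (analogue of the prelude's `ModularCurve.heckeOperatorAlong`). -/
def es1hHecke : JH L M H →+ JH L M H :=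
  if h : Es1hInputs L M H ℓ then
    haveI := h.snd.snd.fst
    Pic0.correspondence (es1hBeta L M H ℓ) (es1hAlpha L M H ℓ) h.snd.fst h.fst
      h.snd.snd.snd.snd.1 h.snd.snd.snd.fst h.snd.snd.snd.snd.2
  else 0

variable {L M H ℓ}

theorem es1hHecke_eq (hα : (es1hAlpha L M H ℓ).toRingHom.IsIntegral)
    (hβ : (es1hBeta L M H ℓ).toRingHom.IsIntegral)
    [hP : HasPrincipalDivisors Kb (fieldBar (L * ℓ) M H)]
    (hFI : FundamentalIdentityAlong Kb (es1hBeta L M H ℓ) hβ)
    (hfin : FiniteAlong Kb (es1hAlpha L M H ℓ))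
    (hN : NormFormulaAlong Kb (es1hAlpha L M H ℓ) hfin) :
    es1hHecke L M H ℓ =
      Pic0.correspondence (es1hBeta L M H ℓ) (es1hAlpha L M H ℓ) hβ hα hFI hfin hN := by
  have h : Es1hInputs L M H ℓ := ⟨hα, hβ, hP, hfin, hFI, hN⟩
  rw [es1hHecke, dif_pos h]

theorem es1hHecke_of_not (h : ¬ Es1hInputs L M H ℓ) : es1hHecke L M H ℓ = 0 := by
  rw [es1hHecke, dif_neg h]

/-- **Piece (H)**: all inputs of `T_ℓ` on `JH L M H` hold, given finiteness over `ℚ̄(j)` at the
levels `L` and `L ℓ`. -/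
theorem es1h_inputs (h : Es1hFin L M H) (h' : Es1hFin (L * ℓ) M H) : Es1hInputs L M H ℓ :=
  ⟨es1h_integral _ h h', es1h_integral _ h h', es1h_hasPrincipalDivisors h',
    es1h_finiteAlong _ h h', es1h_fundamentalIdentityAlong _ h h', es1h_normFormulaAlong _ h h'⟩

/-- `T_ℓ` is the genuine push-pull correspondence. -/
theorem es1hHecke_eq_of_fin (h : Es1hFin L M H) (h' : Es1hFin (L * ℓ) M H) :
    haveI := es1h_hasPrincipalDivisors h'
    es1hHecke L M H ℓ =
      Pic0.correspondence (es1hBeta L M H ℓ) (es1hAlpha L M H ℓ) (es1h_integral _ h h')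
        (es1h_integral _ h h') (es1h_fundamentalIdentityAlong _ h h')
        (es1h_finiteAlong _ h h') (es1h_normFormulaAlong _ h h') :=
  haveI := es1h_hasPrincipalDivisors h'
  es1hHecke_eq _ _ _ _ _

end Hecke

end Fermat.Agent.ES1

end
end ZBES1_007_1

/-! ### bundled: `Fermat.Agent.ES1.G2.Plan` -/
section ZBES1_007_2

/-!
# ES₁ / G2 — interface (definitions and statements only; sub-captain helper78)

`F = fieldBar L M H ⊂ ℚ̄((q))` is the function field of `X_H(L; M)`, `JH L M H = Pic⁰ F`.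
Everything which does not use the modular nature of `F` is stated for an arbitrary intermediate
field `F` of `ℚ̄((q)) / ℚ̄` (`ReducesToOneF`, `PrimAt`, `InjAt`).

* `IsDiamondH L M H c δ` : the `ℚ̄`-automorphism `δ` of `F` is the diamond operator `⟨c⟩`:
  it fixes the `j(q^d)`, `d ∣ L`, and maps `S_{M,H,a}(q^e)` to `S_{M,H,ac}(q^e)`.
  (`δ` is unique; existence = piece F3.)  `diamondJ δ` : its action on `JH L M H`.
* `StmtPrimH` (PRIM), `StmtInjPrimeH`, `StmtInjH` (INJ in Kronecker form),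
  `StmtHeckeNormH` (HN: `N_α(β v) = v(q^ℓ) · ∏_{b<ℓ} (δ_ℓ v)(ζ^b q^{1/ℓ})`),
  `StmtSwapH`, `StmtDegH` (the two inputs of HN),
  `StmtUnramH`, `StmtFrobH` (the two clauses of the Eichler–Shimura package for `JH`).

See `NOTES/ES1-G2.md` for the piece table.
-/

set_option autoImplicit false

noncomputable section

namespace Fermat.Agent.ES1.G2

open ModularCurve AlgebraicCurve HahnSeries Fermat.Agent.ES Fermat.Agent.ES1

/-- `ℚ̄` -/
abbrev QbH : Type := AlgebraicClosure ℚ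

/-! ## Generic Gauss predicates for a subfield of `ℚ̄((q))` -/

/-- `u ∈ F` is congruent to `1` modulo the maximal ideal of `A` (Gauss valuation of the
`q`-expansion), in fraction form. -/
def ReducesToOneF (A : ValuationSubring QbH) (F : IntermediateField QbH (LaurentSeries QbH))
    (u : F) : Prop :=
  ∃ y₁ y₂ : LaurentSeries QbH, y₁ ∈ F ∧ y₂ ∈ F ∧
    KronPrim A y₁ ∧ KronPrim A y₂ ∧ KronCongr A y₁ y₂ ∧ (u : LaurentSeries QbH) * y₂ = y₁

/-- (PRIM) for `F` at `A`: every `u ∈ F^×` is `c · y₁ / y₂`, `c ∈ ℚ̄^×`, `y₁, y₂ ∈ F` primitive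
`A`-integral. -/
def PrimAt (A : ValuationSubring QbH) (F : IntermediateField QbH (LaurentSeries QbH)) : Prop :=
  ∀ u : F, u ≠ 0 →
    ∃ (c : QbH) (y₁ y₂ : LaurentSeries QbH), c ≠ 0 ∧ y₁ ∈ F ∧ y₂ ∈ F ∧
      KronPrim A y₁ ∧ KronPrim A y₂ ∧ (u : LaurentSeries QbH) * y₂ = HahnSeries.C c * y₁

/-- (INJ) for `F` at `A` and the exponent `m`: `u ∈ F^×`, `u ≡ 1`, `m ∣ ord_P u` for all places
`P` of `F / ℚ̄` implies that `u` is an `m`-th power in `F`. -/
def InjAt (A : ValuationSubring QbH) (F : IntermediateField QbH (LaurentSeries QbH))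
    (m : ℕ) : Prop :=
  ∀ u : F, u ≠ 0 → ReducesToOneF A F u →
    (∀ P : Place QbH F, (m : ℤ) ∣ P.ord u) → ∃ h : F, h ^ m = u

/-! ## The statements at level `(L; M, H)` -/

/-- piece `PRIM` (DONE: `es1prim_fieldBar`, helper81). -/
def StmtPrimH : Prop :=
  ∀ (L M : ℕ) (H : Subgroup (ZMod M)ˣ) (A : ValuationSubring QbH), PrimAt A (fieldBar L M H)

/-- (INJ) for prime exponents, Kronecker form (bridge from `ES1.StmtINJHAll`). -/
def StmtInjPrimeH : Prop :=
  ∀ (L M : ℕ) (H : Subgroup (ZMod M)ˣ) (ℓ p : ℕ), L ≠ 0 → M ∣ L → ℓ.Prime → p.Prime →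
    ¬ ℓ ∣ L → ℓ ≠ p →
      ∀ A : ValuationSubring QbH, A.LiesOverPrime ℓ → InjAt A (fieldBar L M H) p

/-- (INJ) for all exponents prime to `ℓ`. -/
def StmtInjH : Prop :=
  ∀ (L M : ℕ) (H : Subgroup (ZMod M)ˣ) (ℓ : ℕ), L ≠ 0 → M ∣ L → ℓ.Prime → ¬ ℓ ∣ L →
    ∀ A : ValuationSubring QbH, A.LiesOverPrime ℓ →
      ∀ m : ℕ, ¬ ℓ ∣ m → InjAt A (fieldBar L M H) m

/-- **The diamond operator** `⟨c⟩` on the function field of `X_H(L; M)`: the `ℚ̄`-automorphism
fixing `j(q^d)` (`d ∣ L`) and mapping `S_{M,H,a}(q^e)` to `S_{M,H,ac}(q^e)` (`e M ∣ L`). -/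
structure IsDiamondH (L M : ℕ) (H : Subgroup (ZMod M)ˣ) (c : (ZMod M)ˣ)
    (δ : fieldBar L M H ≃ₐ[QbH] fieldBar L M H) : Prop where
  /-- `δ` fixes `j(q^d)`, `d ∣ L` -/
  fix_j : ∀ (d : ℕ) [NeZero d], d ∣ L → ∀ x : fieldBar L M H,
    (x : LaurentSeries QbH) = qExpand QbH d (jqModC QbH) → δ x = x
  /-- `δ S_a(q^e) = S_{ac}(q^e)` -/
  map_s : ∀ (e : ℕ) [NeZero e] (a : (ZMod M)ˣ), e * M ∣ L → ∀ x : fieldBar L M H,
    (x : LaurentSeries QbH) = qExpand QbH e (sS QbH M H a) →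
      ((δ x : fieldBar L M H) : LaurentSeries QbH) = qExpand QbH e (sS QbH M H (a * c))

/-- the action of a `ℚ̄`-automorphism of the function field on `JH L M H = Pic⁰` -/
def diamondJ {L M : ℕ} {H : Subgroup (ZMod M)ˣ}
    (δ : fieldBar L M H ≃ₐ[QbH] fieldBar L M H) : JH L M H →+ JH L M H :=
  DistribSMul.toAddMonoidHom (JH L M H) (SemilinearAut.ofAlgAut δ)

/-- diamonds exist on `fieldBar` (from `ES1.StmtDiamondH`, piece F3-conj, with `K = ℚ̄`) -/
def StmtDiamondBarH : Prop :=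
  ∀ (L M : ℕ) (H : Subgroup (ZMod M)ˣ), L ≠ 0 → M ∣ L →
    ∀ c : (ZMod M)ˣ, ∃ δ : fieldBar L M H ≃ₐ[QbH] fieldBar L M H, IsDiamondH L M H c δ

open Classical in
/-- **The diamond operator `⟨c⟩` on `JH L M H`** (`0` if the automorphism does not exist). -/
def es1Diamond (L M : ℕ) (H : Subgroup (ZMod M)ˣ) (c : (ZMod M)ˣ) : JH L M H →+ JH L M H :=
  if h : ∃ δ : fieldBar L M H ≃ₐ[QbH] fieldBar L M H, IsDiamondH L M H c δ then
    diamondJ h.choose
  else 0

/-- piece `SWAP`: the Atkin–Lehner endomorphism `w` of `fieldBar (L ℓ) M H` with `w ∘ α = β` and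
`w ∘ β = α ∘ δ_ℓ`. -/
def StmtSwapH : Prop :=
  ∀ (L M : ℕ) (H : Subgroup (ZMod M)ˣ) (ℓ : ℕ) [NeZero ℓ], L ≠ 0 → M ∣ L → ℓ.Prime → ¬ ℓ ∣ L →
    ∀ c : (ZMod M)ˣ, (c : ZMod M) = (ℓ : ZMod M) →
    ∀ δ : fieldBar L M H ≃ₐ[QbH] fieldBar L M H, IsDiamondH L M H c δ →
      ∃ w : fieldBar (L * ℓ) M H →+* fieldBar (L * ℓ) M H,
        (∀ x, w (es1hAlpha L M H ℓ x) = es1hBeta L M H ℓ x) ∧
          ∀ x, w (es1hBeta L M H ℓ x) = es1hAlpha L M H ℓ (δ x)

/-- piece `DEG`: `[fieldBar (L ℓ) M H : fieldBar L M H] = ℓ + 1` along the inclusion `α`. -/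
def StmtDegH : Prop :=
  ∀ (L M : ℕ) (H : Subgroup (ZMod M)ˣ) (ℓ : ℕ) [NeZero ℓ], L ≠ 0 → M ∣ L → ℓ.Prime → ¬ ℓ ∣ L →
    @Module.finrank (fieldBar L M H) (fieldBar (L * ℓ) M H) _ _
      (@Algebra.toModule _ _ _ _ (es1hAlpha L M H ℓ).toAlgebra) = ℓ + 1

/-- piece `HN` (Hecke norm in `q`-expansions, with diamond): for `v ∈ F` and a prime `ℓ ∤ L`, the
norm of `β v = v(q^ℓ)` along `α` has `q`-expansion
`kronHeckeD ℓ ζ v (δ_ℓ v) = v(q^ℓ) · ∏_{b<ℓ} (δ_ℓ v)(ζ^b q^{1/ℓ})`. -/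
def StmtHeckeNormH : Prop :=
  ∀ (L M : ℕ) (H : Subgroup (ZMod M)ˣ) (ℓ : ℕ) [NeZero ℓ], L ≠ 0 → M ∣ L → ℓ.Prime → ¬ ℓ ∣ L →
    ∀ c : (ZMod M)ˣ, (c : ZMod M) = (ℓ : ZMod M) →
    ∀ δ : fieldBar L M H ≃ₐ[QbH] fieldBar L M H, IsDiamondH L M H c δ →
    ∀ ζ : QbHˣ, IsPrimitiveRoot ζ ℓ →
      ∀ v : fieldBar L M H,
        ((@Algebra.norm (fieldBar L M H) (fieldBar (L * ℓ) M H) _ _
            (es1hAlpha L M H ℓ).toAlgebra (es1hBeta L M H ℓ v) : fieldBar L M H) :
              LaurentSeries QbH) =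
          kronHeckeD ℓ ζ (v : LaurentSeries QbH) ((δ v : fieldBar L M H) : LaurentSeries QbH)

/-- clause `unram`: inertia at places over `ℓ ∤ L m` acts trivially on `JH L M H [m]`. -/
def StmtUnramH : Prop :=
  ∀ (L M : ℕ) (H : Subgroup (ZMod M)ˣ) (m : ℕ), L ≠ 0 → M ∣ L →
    ∀ ℓ : ℕ, ℓ.Prime → ¬ ℓ ∣ L * m →
      ∀ A : ValuationSubring QbH, A.LiesOverPrime ℓ →
        ∀ σ ∈ A.inertiaSubgroupIn ℚ, ∀ x : JH L M H, m • x = 0 → σ • x = x

/-- clause `frob`: the Eichler–Shimura relation `δ_ℓ τ² − T_ℓ τ + ℓ = 0` on `JH L M H [m]`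
for a Frobenius `τ` at a place over `ℓ ∤ L m`; `T_ℓ = es1hHecke L M H ℓ` (push-pull along
`β`, `α`), `δ_ℓ` any automorphism with `IsDiamondH L M H c δ`, `c ≡ ℓ` mod `M`. -/
def StmtFrobH : Prop :=
  ∀ (L M : ℕ) (H : Subgroup (ZMod M)ˣ) (m : ℕ), L ≠ 0 → M ∣ L →
    ∀ (ℓ : ℕ) [NeZero ℓ], ℓ.Prime → ¬ ℓ ∣ L * m → Es1hFin L M H → Es1hFin (L * ℓ) M H →
      ∀ c : (ZMod M)ˣ, (c : ZMod M) = (ℓ : ZMod M) →
      ∀ δ : fieldBar L M H ≃ₐ[QbH] fieldBar L M H, IsDiamondH L M H c δ →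
        ∀ A : ValuationSubring QbH, A.LiesOverPrime ℓ →
          ∀ τ : QbH ≃ₐ[ℚ] QbH, A.IsFrobeniusAt τ ℓ →
            ∀ x : JH L M H, m • x = 0 →
              diamondJ δ (τ • τ • x) - es1hHecke L M H ℓ (τ • x) + ℓ • x = 0

end Fermat.Agent.ES1.G2

end
end ZBES1_007_2

/-! ### bundled: `Fermat.Agent.ES1.G2.DiamBar` -/
section ZBES1_007_3

/-!
# ES₁ / G2 — piece DIAM-bar: the diamond operators on `fieldBar L M H` and on `JH L M H`
(captain helper36)

* `diamb_ringHom_ext` : a ring homomorphism `fieldBar L M H → ℚ̄((q))` is determined by its values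
  on the constants, the `j(q^d)` and the `S_{M,H,a}(q^e)`.
* `IsDiamondH.unique`, `isDiamondH_one`, `IsDiamondH.mul`.
* `stmtDiamondBarH_of_diamond : StmtDiamondH → StmtDiamondBarH`.
* `es1Diamond_eq`, and the three clauses of TOP-b for `D = es1Diamond L M H`:
  `diamb_diamond_one`, `diamb_diamond_mul`, `diamb_galois_diamond`.
-/

set_option autoImplicit false

noncomputable section

namespace Fermat.Agent.ES1.G2

open ModularCurve AlgebraicCurve HahnSeries IntermediateField Fermat.Agent.ES Fermat.Agent.ES1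

/-- ring homomorphisms out of `K(S)` into a field are determined by the constants and `S` -/
theorem diamb_ringHom_ext_adjoin {K Ω Ω' : Type*} [Field K] [Field Ω] [Algebra K Ω] [Field Ω']
    (S : Set Ω) (F : IntermediateField K Ω) (hF : F = IntermediateField.adjoin K S)
    (f g : F →+* Ω')
    (hc : ∀ a : K, f (algebraMap K F a) = g (algebraMap K F a))
    (hS : ∀ x : F, (x : Ω) ∈ S → f x = g x) : f = g := by
  subst hF
  ext ⟨x, hx⟩
  induction hx using IntermediateField.adjoin_induction with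
  | mem y hy => exact hS ⟨y, _⟩ hy
  | algebraMap a => exact hc a
  | add y z hy hz ihy ihz =>
      have : (⟨y + z, add_mem hy hz⟩ : IntermediateField.adjoin K S) = ⟨y, hy⟩ + ⟨z, hz⟩ := rfl
      rw [this, map_add, map_add, ihy, ihz]
  | inv y hy ihy =>
      have : (⟨y⁻¹, inv_mem hy⟩ : IntermediateField.adjoin K S) = (⟨y, hy⟩)⁻¹ := rfl
      rw [this, map_inv₀, map_inv₀, ihy]
  | mul y z hy hz ihy ihz =>
      have : (⟨y * z, mul_mem hy hz⟩ : IntermediateField.adjoin K S) = ⟨y, hy⟩ * ⟨z, hz⟩ := rfl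
      rw [this, map_mul, map_mul, ihy, ihz]

theorem diamb_coeffMap_jd (σ : QbH ≃ₐ[ℚ] QbH) (d : ℕ) [NeZero d] :
    coeffMap (σ : QbH →+* QbH) (qExpand QbH d (jqModC QbH)) = qExpand QbH d (jqModC QbH) :=
  coeffMap_jqNModC (σ : QbH →+* QbH) d

variable (L M : ℕ) (H : Subgroup (ZMod M)ˣ)

/-- a ring homomorphism `fieldBar L M H → Ω'` is determined by its values on the constants and
on the generators -/
theorem diamb_ringHom_ext {Ω' : Type*} [Field Ω'] (f g : fieldBar L M H →+* Ω')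
    (hc : ∀ a : QbH, f (algebraMap QbH (fieldBar L M H) a) = g (algebraMap QbH (fieldBar L M H) a))
    (hj : ∀ (d : ℕ) [NeZero d], d ∣ L → ∀ x : fieldBar L M H,
      (x : LaurentSeries QbH) = qExpand QbH d (jqModC QbH) → f x = g x)
    (hs : ∀ (e : ℕ) [NeZero e] (a : (ZMod M)ˣ), e * M ∣ L → ∀ x : fieldBar L M H,
      (x : LaurentSeries QbH) = qExpand QbH e (sS QbH M H a) → f x = g x) : f = g := by
  refine diamb_ringHom_ext_adjoin _ (fieldBar L M H) (es1f_fieldBar_eq L M H) f g hc ?_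
  rintro x (⟨d, hd, hdL, hx⟩ | ⟨e, he, a, heL, hx⟩)
  · exact hj d hdL x hx
  · exact hs e a heL x hx

variable {L M H}

/-- **uniqueness of the diamond automorphism** -/
theorem IsDiamondH.unique {c : (ZMod M)ˣ} {δ δ' : fieldBar L M H ≃ₐ[QbH] fieldBar L M H}
    (h : IsDiamondH L M H c δ) (h' : IsDiamondH L M H c δ') : δ = δ' := by
  have key : ((fieldBar L M H).val.toRingHom.comp (δ : fieldBar L M H →+* fieldBar L M H))
      = ((fieldBar L M H).val.toRingHom.comp (δ' : fieldBar L M H →+* fieldBar L M H)) := by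
    refine diamb_ringHom_ext L M H _ _ (fun a => ?_) (fun d _ hd x hx => ?_)
      (fun e _ a he x hx => ?_)
    · show ((δ (algebraMap QbH (fieldBar L M H) a) : fieldBar L M H) : LaurentSeries QbH)
        = ((δ' (algebraMap QbH (fieldBar L M H) a) : fieldBar L M H) : LaurentSeries QbH)
      rw [δ.commutes, δ'.commutes]
    · show ((δ x : fieldBar L M H) : LaurentSeries QbH) = ((δ' x : fieldBar L M H) : _)
      rw [h.fix_j d hd x hx, h'.fix_j d hd x hx]
    · show ((δ x : fieldBar L M H) : LaurentSeries QbH) = ((δ' x : fieldBar L M H) : _)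
      rw [h.map_s e a he x hx, h'.map_s e a he x hx]
  refine AlgEquiv.ext fun x => Subtype.ext ?_
  exact congrArg (fun φ : fieldBar L M H →+* LaurentSeries QbH => φ x) key

/-- the identity is the diamond `⟨1⟩` -/
theorem isDiamondH_one : IsDiamondH L M H 1 (1 : fieldBar L M H ≃ₐ[QbH] fieldBar L M H) where
  fix_j := fun _ _ _ _ _ => rfl
  map_s := fun e _ a _ x hx => by
    rw [mul_one]; exact hx

/-- composition of diamonds -/
theorem IsDiamondH.mul {c d : (ZMod M)ˣ} {δ δ' : fieldBar L M H ≃ₐ[QbH] fieldBar L M H}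
    (h : IsDiamondH L M H c δ) (h' : IsDiamondH L M H d δ') :
    IsDiamondH L M H (c * d) (δ * δ') where
  fix_j := fun e _ he x hx => by
    show δ (δ' x) = x
    rw [h'.fix_j e he x hx, h.fix_j e he x hx]
  map_s := fun e _ a he x hx => by
    show ((δ (δ' x) : fieldBar L M H) : LaurentSeries QbH) = _
    rw [h.map_s e (a * d) he (δ' x) (h'.map_s e a he x hx),
      show a * d * c = a * (c * d) by rw [mul_assoc, mul_comm d c]]

/-- **Existence of the diamonds on `fieldBar`** from piece F3-conj. -/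
theorem stmtDiamondBarH_of_diamond (hD : StmtDiamondH) : StmtDiamondBarH := by
  intro L M H hL hML c
  have hM0 : M ≠ 0 := fun h => hL (by rw [h] at hML; exact Nat.eq_zero_of_zero_dvd hML)
  obtain ⟨m, a, ha⟩ := exists_isRepFam hM0 H
  haveI : Algebra.IsAlgebraic ℚ QbH := by
    have h := AlgebraicClosure.isAlgebraic ℚ
    convert h
    · rfl
    · exact Subsingleton.elim _ _
  obtain ⟨-, -, haut⟩ := hD QbH L M H a hL hML ha
  obtain ⟨σ, hσ, hσS⟩ := haut c
  have hEq : fieldBar L M H = fieldC QbH L M H := es1f_fieldBar_eq L M H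
  let ε : fieldBar L M H ≃ₐ[QbH] fieldC QbH L M H := IntermediateField.equivOfEq hEq
  have hε : ∀ x : fieldBar L M H, ((ε x : fieldC QbH L M H) : LaurentSeries QbH) = x :=
    fun x => rfl
  have hεs : ∀ y : fieldC QbH L M H, ((ε.symm y : fieldBar L M H) : LaurentSeries QbH) = y :=
    fun y => rfl
  refine ⟨(ε.trans σ).trans ε.symm, ?_, ?_⟩
  · intro d _ hd x hx
    apply Subtype.ext
    show ((ε.symm (σ (ε x)) : fieldBar L M H) : LaurentSeries QbH) = x
    rw [hεs, hσ (ε x) (by rw [hε, hx]; exact jqModCd_mem_full QbH L hd), hε]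
  · intro e _ b he x hx
    show ((ε.symm (σ (ε x)) : fieldBar L M H) : LaurentSeries QbH) = _
    rw [hεs, ← hσS e he b]
    congr 2
    apply Subtype.ext
    rw [hε, hx]

/-- `es1Diamond` is the action of any diamond automorphism -/
theorem es1Diamond_eq {c : (ZMod M)ˣ} {δ : fieldBar L M H ≃ₐ[QbH] fieldBar L M H}
    (h : IsDiamondH L M H c δ) : es1Diamond L M H c = diamondJ δ := by
  classical
  have hex : ∃ δ : fieldBar L M H ≃ₐ[QbH] fieldBar L M H, IsDiamondH L M H c δ := ⟨δ, h⟩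
  unfold es1Diamond
  rw [dif_pos hex]
  rw [hex.choose_spec.unique h]

theorem diamondJ_apply (δ : fieldBar L M H ≃ₐ[QbH] fieldBar L M H) (x : JH L M H) :
    diamondJ δ x = SemilinearAut.ofAlgAut δ • x := rfl

/-- `⟨1⟩ = 1` -/
theorem diamb_diamond_one (x : JH L M H) : es1Diamond L M H 1 x = x := by
  rw [es1Diamond_eq isDiamondH_one, diamondJ_apply, map_one, one_smul]

/-- `⟨cd⟩ = ⟨c⟩⟨d⟩` -/
theorem diamb_diamond_mul (hB : StmtDiamondBarH) (hL : L ≠ 0) (hML : M ∣ L) (c d : (ZMod M)ˣ)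
    (x : JH L M H) : es1Diamond L M H (c * d) x = es1Diamond L M H c (es1Diamond L M H d x) := by
  obtain ⟨δ, hδ⟩ := hB L M H hL hML c
  obtain ⟨δ', hδ'⟩ := hB L M H hL hML d
  rw [es1Diamond_eq (hδ.mul hδ'), es1Diamond_eq hδ, es1Diamond_eq hδ', diamondJ_apply,
    diamondJ_apply, diamondJ_apply, map_mul, mul_smul]

/-- the diamonds commute with the coefficientwise Galois action on the function field -/
theorem diamb_galois_field {c : (ZMod M)ˣ} {δ : fieldBar L M H ≃ₐ[QbH] fieldBar L M H}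
    (h : IsDiamondH L M H c δ) (σ : QbH ≃ₐ[ℚ] QbH) :
    arithmeticGalois (fieldQ L M H) σ * SemilinearAut.ofAlgAut δ
      = SemilinearAut.ofAlgAut δ * arithmeticGalois (fieldQ L M H) σ := by
  refine Subtype.ext (Prod.ext ?_ ?_)
  · -- the field components
    show arithmeticRingAut (fieldQ L M H) σ * (δ : fieldBar L M H ≃+* fieldBar L M H)
      = (δ : fieldBar L M H ≃+* fieldBar L M H) * arithmeticRingAut (fieldQ L M H) σ
    have key : ((fieldBar L M H).val.toRingHom.comp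
        ((arithmeticRingAut (fieldQ L M H) σ * (δ : fieldBar L M H ≃+* fieldBar L M H) :
          fieldBar L M H ≃+* fieldBar L M H) : fieldBar L M H →+* fieldBar L M H))
        = ((fieldBar L M H).val.toRingHom.comp
          (((δ : fieldBar L M H ≃+* fieldBar L M H) * arithmeticRingAut (fieldQ L M H) σ :
            fieldBar L M H ≃+* fieldBar L M H) : fieldBar L M H →+* fieldBar L M H)) := by
      refine diamb_ringHom_ext L M H _ _ (fun a => ?_) (fun d _ hd x hx => ?_)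
        (fun e _ a he x hx => ?_)
      · show coeffMap (σ : QbH →+* QbH)
            ((δ (algebraMap QbH (fieldBar L M H) a) : fieldBar L M H) : LaurentSeries QbH)
          = ((δ (arithmeticRingAut (fieldQ L M H) σ (algebraMap QbH (fieldBar L M H) a)) :
              fieldBar L M H) : LaurentSeries QbH)
        rw [arithmeticRingAut_algebraMap, δ.commutes, δ.commutes]
        exact coeffMap_algebraMap (σ : QbH →+* QbH) a
      · show coeffMap (σ : QbH →+* QbH) ((δ x : fieldBar L M H) : LaurentSeries QbH)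
          = ((δ (arithmeticRingAut (fieldQ L M H) σ x) : fieldBar L M H) : LaurentSeries QbH)
        have hσx : ((arithmeticRingAut (fieldQ L M H) σ x : fieldBar L M H) :
            LaurentSeries QbH) = qExpand QbH d (jqModC QbH) := by
          rw [coe_arithmeticRingAut_apply, hx]
          exact diamb_coeffMap_jd σ d
        rw [h.fix_j d hd x hx, h.fix_j d hd _ hσx, hσx, hx]
        exact diamb_coeffMap_jd σ d
      · show coeffMap (σ : QbH →+* QbH) ((δ x : fieldBar L M H) : LaurentSeries QbH)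
          = ((δ (arithmeticRingAut (fieldQ L M H) σ x) : fieldBar L M H) : LaurentSeries QbH)
        have hσx : ((arithmeticRingAut (fieldQ L M H) σ x : fieldBar L M H) :
            LaurentSeries QbH) = qExpand QbH e (sS QbH M H a) := by
          rw [coe_arithmeticRingAut_apply, hx]
          exact es1f_coeffMap_qExpand_sS (σ : QbH →+* QbH) M H a e
        rw [h.map_s e a he x hx, h.map_s e a he _ hσx]
        exact es1f_coeffMap_qExpand_sS (σ : QbH →+* QbH) M H (a * c) e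
    refine RingEquiv.ext fun x => Subtype.ext ?_
    exact congrArg (fun φ : fieldBar L M H →+* LaurentSeries QbH => φ x) key
  · -- the base components
    show σ.toRingEquiv * 1 = 1 * σ.toRingEquiv
    rw [mul_one, one_mul]

/-- Galois commutes with the diamonds on `JH` -/
theorem diamb_galois_diamond (hB : StmtDiamondBarH) (hL : L ≠ 0) (hML : M ∣ L)
    (σ : QbH ≃ₐ[ℚ] QbH) (c : (ZMod M)ˣ) (x : JH L M H) :
    σ • es1Diamond L M H c x = es1Diamond L M H c (σ • x) := by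
  obtain ⟨δ, hδ⟩ := hB L M H hL hML c
  rw [es1Diamond_eq hδ, diamondJ_apply, diamondJ_apply, galois_smul_pic0_def,
    galois_smul_pic0_def, ← mul_smul, ← mul_smul, diamb_galois_field hδ σ]

end Fermat.Agent.ES1.G2

end
end ZBES1_007_3

/-! ### bundled: `Fermat.Agent.ES1.HBridge` -/
section ZBES1_007_4

/-!
# ES₁, piece (H): bridge to the deliverable `RamJH` of F4

`Es1hFin L M H` (the only modular input of piece (H)) is the field `finite` of `RamJH L M H`;
so `StmtRamJH` gives all Hecke inputs.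
-/

set_option autoImplicit false

noncomputable section

open AlgebraicCurve ModularCurve IntermediateField

namespace Fermat.Agent.ES1

open Fermat.Agent.S24

variable {L M : ℕ} {H : Subgroup (ZMod M)ˣ}

theorem es1hJ_eq_jFH [NeZero L] : es1hJ L M H = jFH L M H := rfl

theorem es1hFin_iff [NeZero L] :
    Es1hFin L M H ↔ FiniteDimensional Kb⟮jFH L M H⟯ (fieldBar L M H) := Iff.rfl

theorem es1hFin_of_ramJH [NeZero L] (h : RamJH L M H) : Es1hFin L M H := h.finite

/-- all Hecke inputs from F4's deliverable -/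
theorem es1h_inputs_of_stmtRamJH (hR : StmtRamJH) {ℓ : ℕ} [NeZero ℓ] [NeZero L] (hML : M ∣ L) :
    Es1hInputs L M H ℓ :=
  haveI : NeZero (L * ℓ) := ⟨Nat.mul_ne_zero (NeZero.ne L) (NeZero.ne ℓ)⟩
  es1h_inputs (es1hFin_of_ramJH (hR L M H hML))
    (es1hFin_of_ramJH (hR (L * ℓ) M H (hML.trans (dvd_mul_right L ℓ))))

end Fermat.Agent.ES1

end
end ZBES1_007_4

/-! ### bundled: `Fermat.Agent.ES1.G2.PowF` -/
section ZBES1_007_5

/-!
# ES₁ / G2, piece POW (generic): prime exponents suffice for (INJ)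

For ANY intermediate field `F` of `ℚ̄((q)) / ℚ̄` with (PRIM) at `A`:
`(∀ p prime, p ≠ ℓ → InjAt A F p) → ∀ m, ¬ ℓ ∣ m → InjAt A F m`
(fork of `ES/G2/Pow.lean`, whose auxiliary lemmas are reused).  Also the Gauss lemma
`reducesToOneF_of_series`: `u ∈ F` with `u · B = C`, `B ≡ C` primitive series of `ℚ̄((q))`
(NOT necessarily in `F`) reduces to one in fraction form inside `F`.
-/

set_option autoImplicit false

noncomputable section

namespace Fermat.Agent.ES1.G2

open ModularCurve AlgebraicCurve Fermat.Agent.ES Fermat.Agent.ES.G2 Polynomial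

variable {A : ValuationSubring QbH} {F : IntermediateField QbH (LaurentSeries QbH)}

theorem powF_C_mem (c : QbH) : (HahnSeries.C c : LaurentSeries QbH) ∈ F := by
  rw [← LaurentSeries.algebraMap_apply]
  exact IntermediateField.algebraMap_mem _ _

/-- **Gauss' lemma, fraction form.**  If `u ∈ F^×` satisfies `u · B = C` with `B`, `C` primitive
and congruent series of `ℚ̄((q))`, then `u` reduces to one inside `F`. -/
theorem reducesToOneF_of_series (hPrim : PrimAt A F) (u : F) (hu : u ≠ 0)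
    (B C : LaurentSeries QbH) (hB : KronPrim A B) (hC : KronPrim A C) (hBC : KronCongr A B C)
    (huB : (u : LaurentSeries QbH) * B = C) : ReducesToOneF A F u := by
  obtain ⟨c, a₁, a₂, hc, ha₁m, ha₂m, ha₁, ha₂, hua⟩ := hPrim u hu
  -- `(c a₁) · B = a₂ · C`
  have hstar : (HahnSeries.C c * a₁) * B = a₂ * C := by
    rw [← hua, ← huB]; ring
  have hvc : A.valuation c = 1 := by
    refine pow_valuation_eq_one_of_kronPrim (W := a₁ * B) (ha₁.mul hB) ?_
    have : HahnSeries.C c * (a₁ * B) = a₂ * C := by rw [← hstar]; ring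
    rw [this]
    exact ha₂.mul hC
  have hZ₁ : KronPrim A (HahnSeries.C c * a₁) := pow_kronPrim_C_mul hvc ha₁
  refine ⟨HahnSeries.C c * a₁, a₂, mul_mem (powF_C_mem c) ha₁m, ha₂m, hZ₁, ha₂, ?_, hua⟩
  -- the congruence, in `k((q))`
  obtain ⟨Z₁', hZ₁'⟩ := hZ₁.1.exists_lift
  obtain ⟨a₂', ha₂'⟩ := ha₂.1.exists_lift
  obtain ⟨B', hB'⟩ := hB.1.exists_lift
  obtain ⟨C', hC'⟩ := hC.1.exists_lift
  have hstarA : Z₁' * B' = a₂' * C' := by
    apply kronIncl_injective (A := A)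
    rw [map_mul, map_mul, hZ₁', ha₂', hB', hC', hstar]
  have hredeq : kronRed A B' = kronRed A C' := by
    rw [← kronCongr_kronIncl_iff, hB', hC']; exact hBC
  have hBne : kronRed A B' ≠ 0 := by
    rw [← kronPrim_kronIncl_iff, hB']; exact hB
  have hk : kronRed A Z₁' = kronRed A a₂' := by
    have := congrArg (kronRed A) hstarA
    rw [map_mul, map_mul, ← hredeq] at this
    exact mul_right_cancel₀ hBne this
  have := (kronCongr_kronIncl_iff Z₁' a₂').2 hk
  rwa [hZ₁', ha₂'] at this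

/-! ### adjusting a root by a root of unity -/

theorem powF_adjust (hPrim : PrimAt A F) (p : ℕ) (hp : 0 < p)
    (u h : F) (hu : u ≠ 0) (hred : ReducesToOneF A F u) (hh : h ^ p = u) :
    ∃ ζ : QbH, ζ ^ p = 1 ∧ ReducesToOneF A F (h * algebraMap QbH F ζ) := by
  have hh0 : h ≠ 0 := by
    rintro rfl
    rw [zero_pow hp.ne'] at hh
    exact hu hh.symm
  obtain ⟨c, z₁, z₂, hc, hz₁m, hz₂m, hz₁, hz₂, hhz⟩ := hPrim h hh0
  obtain ⟨y₁, y₂, hy₁m, hy₂m, hy₁, hy₂, hcong, huy⟩ := hred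
  have hhL : (h : LaurentSeries QbH) ^ p = (u : LaurentSeries QbH) := by
    rw [← hh]; rfl
  -- `(c z₁)^p y₂ = y₁ z₂^p`
  have hstar : (HahnSeries.C c * z₁) ^ p * y₂ = y₁ * z₂ ^ p := by
    rw [← hhz, mul_pow, hhL, ← huy]; ring
  -- `c` is a unit of `A`
  have hvcp : A.valuation (c ^ p) = 1 := by
    refine pow_valuation_eq_one_of_kronPrim (W := z₁ ^ p * y₂) ((hz₁.pow p).mul hy₂) ?_
    have : HahnSeries.C (c ^ p) * (z₁ ^ p * y₂) = y₁ * z₂ ^ p := by
      rw [← hstar, mul_pow, map_pow]; ring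
    rw [this]
    exact hy₁.mul (hz₂.pow p)
  have hvc : A.valuation c = 1 := by
    rw [map_pow] at hvcp
    exact (pow_eq_one_iff.1 hvcp).resolve_right hp.ne'
  have hZ₁ : KronPrim A (HahnSeries.C c * z₁) := pow_kronPrim_C_mul hvc hz₁
  -- pass to `A((q))` and reduce
  obtain ⟨Z₁', hZ₁'⟩ := hZ₁.1.exists_lift
  obtain ⟨z₂', hz₂'⟩ := hz₂.1.exists_lift
  obtain ⟨y₁', hy₁'⟩ := hy₁.1.exists_lift
  obtain ⟨y₂', hy₂'⟩ := hy₂.1.exists_lift
  have hstarA : Z₁' ^ p * y₂' = y₁' * z₂' ^ p := by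
    apply kronIncl_injective (A := A)
    rw [map_mul, map_mul, map_pow, map_pow, hZ₁', hz₂', hy₁', hy₂', hstar]
  have hredeq : kronRed A y₁' = kronRed A y₂' := by
    rw [← kronCongr_kronIncl_iff, hy₁', hy₂']; exact hcong
  have hy₂ne : kronRed A y₂' ≠ 0 := by
    rw [← kronPrim_kronIncl_iff, hy₂']; exact hy₂
  have hz₂ne : kronRed A z₂' ≠ 0 := by
    rw [← kronPrim_kronIncl_iff, hz₂']; exact hz₂
  have hstark : kronRed A Z₁' ^ p = kronRed A z₂' ^ p := by
    have := congrArg (kronRed A) hstarA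
    rw [map_mul, map_mul, map_pow, map_pow, hredeq, mul_comm (kronRed A y₂')] at this
    exact mul_right_cancel₀ hy₂ne this
  have hω : (kronRed A Z₁' / kronRed A z₂') ^ p = 1 := by
    rw [div_pow, hstark, div_self (pow_ne_zero _ hz₂ne)]
  obtain ⟨ζA, hζAp, hζA⟩ := pow_exists_root_of_unity A
    ((HahnSeries.C : _ →+* LaurentSeries (IsLocalRing.ResidueField A)).comp
      (IsLocalRing.residue A)) hp hω
  have hredZ : kronRed A Z₁' = kronRed A (HahnSeries.C ζA * z₂') := by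
    rw [map_mul, pow_kronRed_C]
    rw [RingHom.comp_apply] at hζA
    rw [hζA, div_mul_cancel₀ _ hz₂ne]
  have hcongZ : KronCongr A (HahnSeries.C c * z₁) (HahnSeries.C (ζA : QbH) * z₂) := by
    have := (kronCongr_kronIncl_iff Z₁' (HahnSeries.C ζA * z₂')).2 hredZ
    rwa [hZ₁', map_mul, pow_kronIncl_C, hz₂'] at this
  -- the root of unity
  set ζ : QbH := (ζA : QbH) with hζ
  have hζp : ζ ^ p = 1 := by
    have := congrArg (fun a : A => (a : QbH)) hζAp
    simpa using this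
  have hζ0 : ζ ≠ 0 := by
    intro h0
    rw [h0, zero_pow hp.ne'] at hζp
    exact zero_ne_one hζp
  have hvζ : A.valuation ζ = 1 := by
    have h1 : A.valuation ζ ^ p = 1 := by rw [← map_pow, hζp, map_one]
    exact (pow_eq_one_iff.1 h1).resolve_right hp.ne'
  have hvζi : A.valuation ζ⁻¹ = 1 := by rw [map_inv₀, hvζ, inv_one]
  refine ⟨ζ⁻¹, by rw [inv_pow, hζp, inv_one], HahnSeries.C ζ⁻¹ * (HahnSeries.C c * z₁), z₂, ?_,
    hz₂m, pow_kronPrim_C_mul hvζi hZ₁, hz₂, ?_, ?_⟩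
  · exact mul_mem (powF_C_mem _) (mul_mem (powF_C_mem _) hz₁m)
  · have h1 : KronCongr A (HahnSeries.C ζ⁻¹ * (HahnSeries.C c * z₁))
        (HahnSeries.C ζ⁻¹ * (HahnSeries.C ζ * z₂)) :=
      KronCongr.mul (pow_kronInt_C_mul (pow_mem_of_valuation_eq_one hvζi) KronInt.one |> fun h => by
          simpa using h)
        (pow_kronInt_C_mul (pow_mem_of_valuation_eq_one hvζi) KronInt.one |> fun h => by
          simpa using h) hZ₁.1
        (pow_kronInt_C_mul (pow_mem_of_valuation_eq_one hvζ) hz₂.1) (KronCongr.refl _) hcongZ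
    have h2 : HahnSeries.C ζ⁻¹ * (HahnSeries.C ζ * z₂) = z₂ := by
      rw [← mul_assoc, ← map_mul, inv_mul_cancel₀ hζ0, map_one, one_mul]
    rwa [h2] at h1
  · show (h : LaurentSeries QbH) * algebraMap QbH (LaurentSeries QbH) ζ⁻¹ * z₂ = _
    rw [LaurentSeries.algebraMap_apply, ← hhz]
    ring

/-- **Piece POW, generic.** -/
theorem injAt_of_prime (hPrim : PrimAt A F) (ℓ : ℕ)
    (hInjP : ∀ p : ℕ, p.Prime → p ≠ ℓ → InjAt A F p) :
    ∀ m : ℕ, ¬ ℓ ∣ m → InjAt A F m := by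
  intro m
  induction m using Nat.strong_induction_on with
  | _ m ih =>
  intro hℓm u hu hred hord
  rcases Nat.lt_or_ge m 2 with hm | hm
  · interval_cases m
    · exact absurd (dvd_zero ℓ) hℓm
    · exact ⟨u, pow_one u⟩
  have hp : (m.minFac).Prime := Nat.minFac_prime (by omega)
  obtain ⟨m', hm'⟩ := Nat.minFac_dvd m
  set p := m.minFac with hpdef
  have hpℓ : p ≠ ℓ := fun h => hℓm (h ▸ Nat.minFac_dvd m)
  have hm'pos : 0 < m' := by
    rcases Nat.eq_zero_or_pos m' with h | h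
    · rw [h, mul_zero] at hm'; omega
    · exact h
  have hm'lt : m' < m := by
    rw [hm']
    calc m' = 1 * m' := (one_mul _).symm
      _ < p * m' := Nat.mul_lt_mul_of_pos_right hp.one_lt hm'pos
  have hℓm' : ¬ ℓ ∣ m' := fun h => hℓm (hm' ▸ Dvd.dvd.mul_left h p)
  obtain ⟨h, hh⟩ := hInjP p hp hpℓ u hu hred
    (fun P => (Int.natCast_dvd_natCast.2 ⟨m', hm'⟩).trans (hord P))
  obtain ⟨ζ, hζp, hred'⟩ := powF_adjust hPrim p hp.pos u h hu hred hh
  set h' : F := h * algebraMap QbH F ζ with hh'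
  have hh'p : h' ^ p = u := by
    rw [hh', mul_pow, hh, ← map_pow, hζp, map_one, mul_one]
  have hh'0 : h' ≠ 0 := by
    intro h0
    rw [h0, zero_pow hp.ne_zero] at hh'p
    exact hu hh'p.symm
  have hord' : ∀ P : Place QbH F, (m' : ℤ) ∣ P.ord h' := by
    intro P
    have h1 : P.ord u = (p : ℤ) * P.ord h' := by
      rw [← hh'p, ← zpow_natCast, Place.ord_zpow]
    have h2 := hord P
    rw [h1, hm'] at h2
    push_cast at h2
    exact (mul_dvd_mul_iff_left (by exact_mod_cast hp.ne_zero)).1 h2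
  obtain ⟨g, hg⟩ := ih m' hm'lt hℓm' h' hh'0 hred' hord'
  refine ⟨g, ?_⟩
  rw [hm', mul_comm, pow_mul, hg, hh'p]

/-- (INJ) for all exponents prime to `ℓ`, from prime exponents and (PRIM). -/
theorem stmtInjH_of_prime (hPrim : StmtPrimH) (h : StmtInjPrimeH) : StmtInjH := by
  intro L M H ℓ hL hML hℓ hℓL A hA m hm
  exact injAt_of_prime (hPrim L M H A) ℓ
    (fun p hp hpℓ => h L M H ℓ p hL hML hℓ hp hℓL (fun e => hpℓ e.symm) A hA) m hm

end Fermat.Agent.ES1.G2

end
end ZBES1_007_5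

/-! ### bundled: `Fermat.Agent.ES1.G2.FrobH` -/
section ZBES1_007_6

/-!
# ES₁ / G2, piece FROB: the Eichler–Shimura relation with diamond on the torsion of `Pic⁰`

Generic (`frobF`): `F₀ ⊂ ℚ((q))`, `F = laurentBaseChange ℚ̄ F₀`, `φ, ψ : F → F'` with the inputs of
the correspondence `T = ψ_* φ^*`, `δ` a `ℚ̄`-automorphism of `F` commuting with the Frobenius `τ`,
norm formula `N_ψ(φ v) = kronHeckeD ℓ ζ v (δ v)`, (PRIM) and (INJ) for the exponent `m` at `A`.
Then `δ τ² x − T τ x + ℓ x = 0` for `m x = 0`.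

Proof.  `x = [D]`, `m D = div f`, `f = Y₁/Y₂` and `δ f = c' Z₁/Z₂` with primitive `Y_i, Z_i`
(PRIM twice; NO integrality of `δ` is needed).  `w = δ(g²f) f^ℓ / N_ψ(φ(g f))` has divisor
`m (δ g² D − T g D + ℓ D)`; `u = w · (τc')^ℓ / τ²c'` has the same divisor and `u · B = C` with
`B = H₁ · (y₂^ℓ τ²z₂)`, `C = (y₁^ℓ τ²z₁) · H₂`, `H_i = kronHeckeD (τ y_i) (τ z_i)`; `B ≡ C` by K6δ.
Gauss (`reducesToOneF_of_series`) ⇒ `u ≡ 1` in fraction form ⇒ `u = h^m` by (INJ).
-/

set_option autoImplicit false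
set_option linter.style.haveILetI false

noncomputable section

namespace Fermat.Agent.ES1.G2

open ModularCurve AlgebraicCurve Fermat.Agent.ES Fermat.Agent.ES.G2 HahnSeries

namespace FrobDAux

open Fermat.Agent.ES.G2.FrobAux

section Key

variable {K F F' : Type*} [Field K] [Field F] [Field F'] [Algebra K F] [Algebra K F']
variable [HasPrincipalDivisors K F']

/-- If `m • D = div f` then `m • (g₁ D − T (g D) + ℓ D) = div w`,
`w = g₁ f · f^ℓ / N_ψ(φ(g f))`, `T = ψ_* φ^*`. -/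
theorem frobD_ord_w (g₁ g : SemilinearAut K F) (φ ψ : F →ₐ[K] F')
    (hφ : φ.toRingHom.IsIntegral) (hψ : ψ.toRingHom.IsIntegral)
    (hfin : FiniteAlong K ψ) (hN : NormFormulaAlong K ψ hfin)
    (D : Divisor K F) (m : ℕ) (ℓ : ℕ)
    (f : F) (hf : f ≠ 0) (hD : ∀ v : Place K F, (m : ℤ) * D v = v.ord f) (v : Place K F) :
    v.ord ((g₁ • f) * f ^ ℓ / frobNorm φ ψ (g • f)) =
      (m : ℤ) * ((g₁ • D) v - Divisor.correspondence φ ψ hφ hψ (g • D) v + (ℓ : ℤ) * D v) := by
  show v.ord ((g₁ • f) * f ^ ℓ /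
        (letI := ψ.toRingHom.toAlgebra; Algebra.norm F (φ (g • f)))) = _
  have hgf : g • f ≠ 0 := by simpa using hf
  have hg₁f : g₁ • f ≠ 0 := by simpa using hf
  have hφgf : φ (g • f) ≠ 0 := fun h0 => hgf (φ.toRingHom.injective (by simpa using h0))
  have hfl : f ^ ℓ ≠ 0 := pow_ne_zero ℓ hf
  letI := algebraAlong ψ
  haveI := isScalarTower_along ψ
  haveI := isIntegral_along ψ hψ
  haveI : Module.Finite F F' := hfin
  set nrm : F := Algebra.norm F (φ (g • f)) with hnrm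
  have hnrm0 : nrm ≠ 0 := Algebra.norm_ne_zero_iff.mpr hφgf
  set Dg : Divisor K F := (m : ℤ) • (g • D) with hDg
  have hDm : ∀ v : Place K F, ((m : ℤ) • D) v = v.ord f := by
    intro v
    rw [Finsupp.smul_apply, smul_eq_mul, hD]
  have hDg' : ∀ v : Place K F, Dg v = v.ord (g • f) := by
    intro v
    rw [hDg, ← smul_comm]
    exact smul_apply_of_ord g hDm v
  have hDgg : ∀ v : Place K F, ((m : ℤ) • (g₁ • D)) v = v.ord (g₁ • f) := by
    intro v
    rw [← smul_comm g₁ (m : ℤ)]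
    exact smul_apply_of_ord g₁ hDm v
  have hcorr : (m : ℤ) * Divisor.correspondence φ ψ hφ hψ (g • D) v = v.ord nrm := by
    have h1 := correspondence_apply_of_ord φ ψ hφ hψ hfin hN hgf hDg' v
    rw [hDg, map_zsmul, Finsupp.smul_apply, smul_eq_mul] at h1
    exact h1
  have h2 : v.ord ((g₁ • f) * f ^ ℓ / nrm)
      = v.ord (g₁ • f) + (ℓ : ℤ) * v.ord f - v.ord nrm := by
    have h3 : v.ord (f ^ ℓ) = (ℓ : ℤ) * v.ord f := by
      have := v.ord_zpow f (ℓ : ℤ)
      rwa [zpow_natCast] at this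
    rw [div_eq_mul_inv, v.ord_mul (mul_ne_zero hg₁f hfl) (inv_ne_zero hnrm0), v.ord_inv,
      v.ord_mul hg₁f hfl, h3]
    ring
  have h4 := hDgg v
  rw [Finsupp.smul_apply, smul_eq_mul] at h4
  rw [h2, ← h4, ← hcorr, ← hD v]
  ring

/-- If `g₁ D − T (g D) + ℓ D = div h`, then `g₁ [D] − T (g [D]) + ℓ [D] = 0`. -/
theorem frobD_mk_eq_zero (g₁ g : SemilinearAut K F) (φ ψ : F →ₐ[K] F')
    (hφ : φ.toRingHom.IsIntegral) (hψ : ψ.toRingHom.IsIntegral)
    (hFI : FundamentalIdentityAlong K φ hφ)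
    (hfin : FiniteAlong K ψ) (hN : NormFormulaAlong K ψ hfin)
    (D : Divisor.degZero (K := K) (F := F)) (ℓ : ℕ) (h : F) (hh0 : h ≠ 0)
    (hord : ∀ v : Place K F, v.ord h =
      (g₁ • (D : Divisor K F)) v - Divisor.correspondence φ ψ hφ hψ (g • (D : Divisor K F)) v
        + (ℓ : ℤ) * (D : Divisor K F) v) :
    g₁ • Pic0.mk D - Pic0.correspondence φ ψ hφ hψ hFI hfin hN (g • Pic0.mk D)
      + ℓ • Pic0.mk D = 0 := by
  rw [SemilinearAut.pic0_smul_mk, SemilinearAut.pic0_smul_mk, Pic0.correspondence_mk]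
  show Pic0.mk (SemilinearAut.degZeroSMulHom g₁ D
      - Pic0.degZeroCorrespondence φ ψ hφ hψ hFI (SemilinearAut.degZeroSMulHom g D)
      + ℓ • D) = 0
  refine (QuotientAddGroup.eq_zero_iff _).mpr ?_
  rw [AddSubgroup.mem_addSubgroupOf]
  refine ⟨h, hh0, fun v => ?_⟩
  rw [hord v]
  simp only [AddSubgroup.coe_add, AddSubgroup.coe_sub, AddSubgroup.coe_nsmul,
    SemilinearAut.coe_degZeroSMulHom, Pic0.coe_degZeroCorrespondence,
    Finsupp.add_apply, Finsupp.sub_apply, Finsupp.smul_apply, nsmul_eq_mul]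

end Key

section Series

variable {L : Type*} [Field L] {ℓ : ℕ} [NeZero ℓ]

theorem frobD_coeffMap_C {R S : Type*} [CommRing R] [CommRing S] (φ : R →+* S) (a : R) :
    coeffMap φ (HahnSeries.C a : LaurentSeries R) = HahnSeries.C (φ a) := by
  rw [HahnSeries.C_apply, coeffMap_single, HahnSeries.C_apply]

theorem frobD_kronRot_C (c : Lˣ) (a : L) :
    kronRot c (HahnSeries.C a : LaurentSeries L) = HahnSeries.C a := by
  ext n
  rw [kronRot_coeff]
  by_cases hn : n = 0
  · subst hn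
    simp
  · rw [HahnSeries.C_apply, HahnSeries.coeff_single_of_ne hn, mul_zero]

theorem frobD_kronNorm_C (ζ : Lˣ) (a : L) :
    kronNorm ℓ ζ (HahnSeries.C a : LaurentSeries L) = HahnSeries.C (a ^ ℓ) := by
  refine kronNorm_unique ℓ ζ _ _ ?_
  have h1 : qExpand L ℓ (HahnSeries.C (a ^ ℓ) : LaurentSeries L) = HahnSeries.C (a ^ ℓ) := by
    rw [HahnSeries.C_apply, qExpand_single, mul_zero]
  rw [h1, kronRotProd]
  simp only [frobD_kronRot_C]
  rw [Finset.prod_const, Finset.card_range, map_pow]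

theorem frobD_kronHeckeD_C_mul (ζ : Lˣ) (hζ : IsPrimitiveRoot ζ ℓ) (a : L)
    (f g : LaurentSeries L) :
    kronHeckeD ℓ ζ f (HahnSeries.C a * g) = HahnSeries.C (a ^ ℓ) * kronHeckeD ℓ ζ f g := by
  rw [kronHeckeD, kronHeckeD, kronNorm_mul ℓ ζ hζ, frobD_kronNorm_C]
  ring

end Series

end FrobDAux

open FrobDAux Fermat.Agent.ES.G2.FrobAux

/-- **FROB with diamond, generic.** -/
theorem frobF (F₀ : IntermediateField ℚ (LaurentSeries ℚ)) {F' : Type*} [Field F']
    [Algebra QbH F'] [HasPrincipalDivisors QbH F']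
    (φ ψ : laurentBaseChange QbH F₀ →ₐ[QbH] F')
    (hφ : φ.toRingHom.IsIntegral) (hψ : ψ.toRingHom.IsIntegral)
    (hFI : FundamentalIdentityAlong QbH φ hφ)
    (hfin : FiniteAlong QbH ψ) (hN : NormFormulaAlong QbH ψ hfin)
    (δ : laurentBaseChange QbH F₀ ≃ₐ[QbH] laurentBaseChange QbH F₀)
    (A : ValuationSubring QbH) (ℓ : ℕ) [NeZero ℓ] (hℓ : ℓ.Prime) (hA : A.LiesOverPrime ℓ)
    (τ : QbH ≃ₐ[ℚ] QbH) (hτ : A.IsFrobeniusAt τ ℓ)
    (hcomm : ∀ v : laurentBaseChange QbH F₀,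
      δ (arithmeticGalois F₀ τ • v) = arithmeticGalois F₀ τ • δ v)
    (ζ : QbHˣ) (hζ : IsPrimitiveRoot ζ ℓ)
    (hHN : ∀ v : laurentBaseChange QbH F₀,
      ((frobNorm φ ψ v : laurentBaseChange QbH F₀) : LaurentSeries QbH) =
        kronHeckeD ℓ ζ (v : LaurentSeries QbH) ((δ v : laurentBaseChange QbH F₀) :
          LaurentSeries QbH))
    (m : ℕ) (hm0 : m ≠ 0) (hPrim : PrimAt A (laurentBaseChange QbH F₀))
    (hInj : InjAt A (laurentBaseChange QbH F₀) m)
    (x : Pic0 QbH (laurentBaseChange QbH F₀)) (hx : m • x = 0) :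
    SemilinearAut.ofAlgAut δ • (τ • τ • x) - Pic0.correspondence φ ψ hφ hψ hFI hfin hN (τ • x)
      + ℓ • x = 0 := by
  obtain ⟨D, rfl⟩ := Pic0.mk_surjective x
  have hζ1 : ζ ^ ℓ = 1 := hζ.pow_eq_one
  -- `m D` is principal
  have hprinc : (m • D) ∈
      (Divisor.principal (K := QbH) (F := laurentBaseChange QbH F₀)).addSubgroupOf
        (Divisor.degZero (K := QbH) (F := laurentBaseChange QbH F₀)) := by
    have h1 : Pic0.mk (m • D) = 0 := hx
    exact (QuotientAddGroup.eq_zero_iff _).mp h1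
  rw [AddSubgroup.mem_addSubgroupOf] at hprinc
  obtain ⟨f, hf, hfD⟩ := hprinc
  have hfD' : ∀ v : Place QbH (laurentBaseChange QbH F₀),
      (m : ℤ) * (D : Divisor QbH (laurentBaseChange QbH F₀)) v = v.ord f := by
    intro v
    rw [← hfD v]
    simp [Finsupp.smul_apply]
  -- PRIM for `f`
  obtain ⟨c, y₁, y₂, hc, hy₁, hy₂, hp₁, hp₂, hfy⟩ := hPrim f hf
  obtain ⟨Y₁, hY₁s⟩ : ∃ Y₁ : laurentBaseChange QbH F₀, (Y₁ : LaurentSeries QbH) = y₁ :=
    ⟨⟨y₁, hy₁⟩, rfl⟩
  obtain ⟨Y₂, hY₂s⟩ : ∃ Y₂ : laurentBaseChange QbH F₀, (Y₂ : LaurentSeries QbH) = y₂ :=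
    ⟨⟨y₂, hy₂⟩, rfl⟩
  have hY₁ : Y₁ ≠ 0 := by
    intro h
    apply frob_ne_zero_of_kronPrim hp₁
    rw [← hY₁s, h]
    rfl
  have hY₂ : Y₂ ≠ 0 := by
    intro h
    apply frob_ne_zero_of_kronPrim hp₂
    rw [← hY₂s, h]
    rfl
  have hfY : f * Y₂ = algebraMap QbH (laurentBaseChange QbH F₀) c * Y₁ := by
    apply Subtype.ext
    show (f : LaurentSeries QbH) * (Y₂ : LaurentSeries QbH)
      = algebraMap QbH (LaurentSeries QbH) c * (Y₁ : LaurentSeries QbH)
    rw [hY₁s, hY₂s, hfy, ModularCurve.algebraMap_laurentSeries_eq_single]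
    rfl
  obtain ⟨f', hf'⟩ : ∃ f' : laurentBaseChange QbH F₀, f' = Y₁ / Y₂ := ⟨_, rfl⟩
  have hf'0 : f' ≠ 0 := hf' ▸ div_ne_zero hY₁ hY₂
  have hff' : f = algebraMap QbH (laurentBaseChange QbH F₀) c * f' := by
    rw [hf', mul_div_assoc', ← hfY, mul_div_cancel_right₀ _ hY₂]
  have hcF : algebraMap QbH (laurentBaseChange QbH F₀) c ≠ 0 := by rwa [Ne, map_eq_zero]
  have hordf : ∀ v : Place QbH (laurentBaseChange QbH F₀), v.ord f' = v.ord f := by
    intro v
    rw [hff', v.ord_mul hcF hf'0, Fermat.Agent.S24.PlaceAux.ord_algebraMap v c, zero_add]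
  have hD' : ∀ v : Place QbH (laurentBaseChange QbH F₀),
      (m : ℤ) * (D : Divisor QbH (laurentBaseChange QbH F₀)) v = v.ord f' := by
    intro v
    rw [hordf v, hfD' v]
  have hf's : (f' : LaurentSeries QbH) * y₂ = y₁ := by
    have h1 : f' * Y₂ = Y₁ := by rw [hf', div_mul_cancel₀ _ hY₂]
    have h2 := congrArg Subtype.val h1
    rw [← hY₁s, ← hY₂s]
    exact h2
  -- PRIM for `δ f`
  obtain ⟨e', he'⟩ : ∃ e' : laurentBaseChange QbH F₀, e' = δ f' := ⟨_, rfl⟩
  have he'0 : e' ≠ 0 := by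
    rw [he']
    exact (map_ne_zero_iff _ δ.injective).mpr hf'0
  obtain ⟨c', z₁, z₂, hc', hz₁, hz₂, hq₁, hq₂, hez⟩ := hPrim e' he'0
  -- the Galois element and the diamond
  obtain ⟨g, hg⟩ : ∃ g : SemilinearAut QbH (laurentBaseChange QbH F₀),
      g = arithmeticGalois F₀ τ := ⟨_, rfl⟩
  obtain ⟨d, hd⟩ : ∃ d : SemilinearAut QbH (laurentBaseChange QbH F₀),
      d = SemilinearAut.ofAlgAut δ := ⟨_, rfl⟩
  have hgs : ∀ v : laurentBaseChange QbH F₀,
      ((g • v : laurentBaseChange QbH F₀) : LaurentSeries QbH)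
        = coeffMap (τ : QbH →+* QbH) (v : LaurentSeries QbH) := by
    intro v
    rw [hg]
    rfl
  have hds : ∀ v : laurentBaseChange QbH F₀, d • v = δ v := by
    intro v
    rw [hd]
    rfl
  have hgx : ∀ z : Pic0 QbH (laurentBaseChange QbH F₀), τ • z = g • z := by
    intro z
    rw [hg]
    rfl
  have hcomm' : ∀ v : laurentBaseChange QbH F₀, δ (g • v) = g • δ v := by
    intro v
    rw [hg]
    exact hcomm v
  -- the series
  obtain ⟨T, hT⟩ : ∃ T : LaurentSeries QbH →+* LaurentSeries QbH,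
      T = coeffMap (τ : QbH →+* QbH) := ⟨_, rfl⟩
  have hgs' : ∀ v : laurentBaseChange QbH F₀,
      ((g • v : laurentBaseChange QbH F₀) : LaurentSeries QbH) = T (v : LaurentSeries QbH) := by
    intro v
    rw [hT]
    exact hgs v
  obtain ⟨nrm, hnrm⟩ : ∃ nrm : laurentBaseChange QbH F₀, nrm = frobNorm φ ψ (g • f') := ⟨_, rfl⟩
  have hnrm0 : nrm ≠ 0 := by
    rw [hnrm]
    exact frobNorm_ne_zero φ ψ hfin (by simpa using hf'0)
  obtain ⟨H₁, hH₁⟩ : ∃ H₁ : LaurentSeries QbH, H₁ = kronHeckeD ℓ ζ (T y₁) (T z₁) := ⟨_, rfl⟩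
  obtain ⟨H₂, hH₂⟩ : ∃ H₂ : LaurentSeries QbH, H₂ = kronHeckeD ℓ ζ (T y₂) (T z₂) := ⟨_, rfl⟩
  -- (b) the norm
  have hnrms : (nrm : LaurentSeries QbH) =
      kronHeckeD ℓ ζ (T (f' : LaurentSeries QbH)) (T (e' : LaurentSeries QbH)) := by
    rw [hnrm, hHN, hgs', hcomm', hgs', he']
  -- (*)
  have hstar1 : (nrm : LaurentSeries QbH) * H₂
      = HahnSeries.C ((τ c') ^ ℓ) * H₁ := by
    rw [hnrms, hH₂, ← kronHeckeD_mul ζ hζ, ← map_mul, ← map_mul, hf's, hez, map_mul, hT,
      frobD_coeffMap_C, frobD_kronHeckeD_C_mul ζ hζ, hH₁, hT]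
    rfl
  -- (c) the numerator
  obtain ⟨G, hG⟩ : ∃ G : laurentBaseChange QbH F₀, G = d • g • g • f' := ⟨_, rfl⟩
  have hGs : (G : LaurentSeries QbH) = T (T (e' : LaurentSeries QbH)) := by
    have h1 : G = g • g • e' := by
      rw [hG, hds, hcomm', hcomm', he']
    rw [h1, hgs', hgs']
  have hstar2 : (G : LaurentSeries QbH) * T (T z₂) = HahnSeries.C (τ (τ c')) * T (T z₁) := by
    rw [hGs, ← map_mul, ← map_mul, hez, map_mul, map_mul, hT, frobD_coeffMap_C,
      frobD_coeffMap_C]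
    rfl
  have hstar3 : (f' : LaurentSeries QbH) ^ ℓ * y₂ ^ ℓ = y₁ ^ ℓ := by
    rw [← mul_pow, hf's]
  -- `w` and `u`
  obtain ⟨w, hw⟩ : ∃ w : laurentBaseChange QbH F₀, w = G * f' ^ ℓ / nrm := ⟨_, rfl⟩
  have hG0 : G ≠ 0 := by
    rw [hG]
    simpa using hf'0
  have hw0 : w ≠ 0 := by
    rw [hw]
    exact div_ne_zero (mul_ne_zero hG0 (pow_ne_zero ℓ hf'0)) hnrm0
  have hwn : w * nrm = G * f' ^ ℓ := by
    rw [hw, div_mul_cancel₀ _ hnrm0]
  have hwns : (w : LaurentSeries QbH) * (nrm : LaurentSeries QbH)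
      = (G : LaurentSeries QbH) * (f' : LaurentSeries QbH) ^ ℓ :=
    congrArg Subtype.val hwn
  have hτc' : τ c' ≠ 0 := (map_ne_zero_iff _ τ.injective).mpr hc'
  have hττc' : τ (τ c') ≠ 0 := (map_ne_zero_iff _ τ.injective).mpr hτc'
  obtain ⟨κ, hκ⟩ : ∃ κ : QbH, κ = (τ c') ^ ℓ / τ (τ c') := ⟨_, rfl⟩
  have hκ0 : κ ≠ 0 := by
    rw [hκ]
    exact div_ne_zero (pow_ne_zero ℓ hτc') hττc'
  obtain ⟨u, hu⟩ : ∃ u : laurentBaseChange QbH F₀,
      u = w * algebraMap QbH (laurentBaseChange QbH F₀) κ := ⟨_, rfl⟩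
  have hκF : algebraMap QbH (laurentBaseChange QbH F₀) κ ≠ 0 := by rwa [Ne, map_eq_zero]
  have hu0 : u ≠ 0 := by
    rw [hu]
    exact mul_ne_zero hw0 hκF
  have hus : (u : LaurentSeries QbH) * HahnSeries.C (τ (τ c'))
      = (w : LaurentSeries QbH) * HahnSeries.C ((τ c') ^ ℓ) := by
    have h1 : (u : LaurentSeries QbH) = (w : LaurentSeries QbH) * HahnSeries.C κ := by
      rw [hu]
      show (w : LaurentSeries QbH) * algebraMap QbH (LaurentSeries QbH) κ = _
      rw [LaurentSeries.algebraMap_apply]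
    rw [h1, mul_assoc, ← map_mul, hκ, div_mul_cancel₀ _ hττc']
  -- the key identity `u · B = C`
  have hKn0 : (nrm : LaurentSeries QbH) * HahnSeries.C (τ (τ c')) ≠ 0 := by
    refine mul_ne_zero (fun h => hnrm0 (Subtype.ext h)) ?_
    intro h
    apply hττc'
    have := congrArg (fun s : LaurentSeries QbH => s.coeff 0) h
    simpa using this
  have huB : (u : LaurentSeries QbH) * (H₁ * (y₂ ^ ℓ * T (T z₂)))
      = (y₁ ^ ℓ * T (T z₁)) * H₂ := by
    apply mul_right_cancel₀ hKn0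
    linear_combination (H₁ * y₂ ^ ℓ * T (T z₂) * (nrm : LaurentSeries QbH)) * hus
      + (HahnSeries.C ((τ c') ^ ℓ) * H₁ * y₂ ^ ℓ * T (T z₂)) * hwns
      - ((G : LaurentSeries QbH) * (f' : LaurentSeries QbH) ^ ℓ * y₂ ^ ℓ * T (T z₂)) * hstar1
      + ((f' : LaurentSeries QbH) ^ ℓ * y₂ ^ ℓ * (nrm : LaurentSeries QbH) * H₂) * hstar2
      + (HahnSeries.C (τ (τ c')) * T (T z₁) * (nrm : LaurentSeries QbH) * H₂) * hstar3
  -- primitivity and congruence
  have hB : KronPrim A (H₁ * (y₂ ^ ℓ * T (T z₂))) := by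
    rw [hH₁, hT]
    exact (kronPrim_kronHeckeD_frob hℓ hA ζ hζ1 τ hτ hp₁ hq₁).mul
      (kronPrim_frobD_rhs τ hτ hp₂ hq₂)
  have hC : KronPrim A ((y₁ ^ ℓ * T (T z₁)) * H₂) := by
    rw [hH₂, hT]
    exact (kronPrim_frobD_rhs τ hτ hp₁ hq₁).mul
      (kronPrim_kronHeckeD_frob hℓ hA ζ hζ1 τ hτ hp₂ hq₂)
  have hBC : KronCongr A (H₁ * (y₂ ^ ℓ * T (T z₂))) ((y₁ ^ ℓ * T (T z₁)) * H₂) := by
    rw [hH₁, hH₂, hT]
    have hP₁ := (kronPrim_frobD_rhs τ hτ hp₁ hq₁).1
    have hP₂ := (kronPrim_frobD_rhs τ hτ hp₂ hq₂).1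
    have hI₁ := (kronPrim_kronHeckeD_frob hℓ hA ζ hζ1 τ hτ hp₁ hq₁).1
    have hI₂ := (kronPrim_kronHeckeD_frob hℓ hA ζ hζ1 τ hτ hp₂ hq₂).1
    have e1 := KronCongr.mul (A := A) hI₁ hP₁ hP₂ hP₂
      (kronHeckeD_frob_congr hℓ hA ζ hζ1 τ hτ hp₁.1 hq₁.1) (KronCongr.refl _)
    have e2 := KronCongr.mul (A := A) hP₁ hP₁ hP₂ hI₂ (KronCongr.refl _)
      (kronHeckeD_frob_congr hℓ hA ζ hζ1 τ hτ hp₂.1 hq₂.1).symm
    exact e1.trans e2
  have hred : ReducesToOneF A (laurentBaseChange QbH F₀) u :=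
    reducesToOneF_of_series hPrim u hu0 _ _ hB hC hBC huB
  -- the divisor of `u`
  have hordw : ∀ v : Place QbH (laurentBaseChange QbH F₀), v.ord w =
      (m : ℤ) * (((d * (g * g)) • (D : Divisor QbH (laurentBaseChange QbH F₀))) v
        - Divisor.correspondence φ ψ hφ hψ (g • (D : Divisor QbH (laurentBaseChange QbH F₀))) v
        + (ℓ : ℤ) * (D : Divisor QbH (laurentBaseChange QbH F₀)) v) := by
    intro v
    have h1 := frobD_ord_w (d * (g * g)) g φ ψ hφ hψ hfin hN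
      (D : Divisor QbH (laurentBaseChange QbH F₀)) m ℓ f' hf'0 hD' v
    have h2 : (d * (g * g)) • f' = G := by
      rw [hG, mul_smul, mul_smul]
    rw [h2, ← hnrm, ← hw] at h1
    exact h1
  have hordu : ∀ v : Place QbH (laurentBaseChange QbH F₀), v.ord u = v.ord w := by
    intro v
    rw [hu, v.ord_mul hw0 hκF, Fermat.Agent.S24.PlaceAux.ord_algebraMap v κ, add_zero]
  have hdiv : ∀ P : Place QbH (laurentBaseChange QbH F₀), (m : ℤ) ∣ P.ord u := by
    intro P
    rw [hordu P, hordw P]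
    exact dvd_mul_right _ _
  obtain ⟨h, hh⟩ := hInj u hu0 hred hdiv
  have hh0 : h ≠ 0 := by
    intro h0
    rw [h0, zero_pow hm0] at hh
    exact hu0 hh.symm
  have hm' : (m : ℤ) ≠ 0 := by exact_mod_cast hm0
  have hordh : ∀ v : Place QbH (laurentBaseChange QbH F₀), v.ord h =
      ((d * (g * g)) • (D : Divisor QbH (laurentBaseChange QbH F₀))) v
        - Divisor.correspondence φ ψ hφ hψ (g • (D : Divisor QbH (laurentBaseChange QbH F₀))) v
        + (ℓ : ℤ) * (D : Divisor QbH (laurentBaseChange QbH F₀)) v := by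
    intro v
    have h1 : v.ord (h ^ m) = (m : ℤ) * v.ord h := by
      have := v.ord_zpow h (m : ℤ)
      rwa [zpow_natCast] at this
    have h5 := hordw v
    rw [← hordu v, ← hh, h1] at h5
    exact mul_left_cancel₀ hm' h5
  have key := frobD_mk_eq_zero (d * (g * g)) g φ ψ hφ hψ hFI hfin hN D ℓ h hh0 hordh
  rw [mul_smul, mul_smul] at key
  rw [hgx, hgx, ← hd]
  exact key

end Fermat.Agent.ES1.G2

end
end ZBES1_007_6

/-! ### bundled: `Fermat.Agent.ES1.G2.UnramH` -/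
section ZBES1_007_7

/-!
# ES₁ / G2, piece UNRAM: inertia acts trivially on the torsion of `Pic⁰`

Generic: `F₀ ⊂ ℚ((q))` any intermediate field, `F = laurentBaseChange ℚ̄ F₀`, with (PRIM) and
(INJ) for the exponent `m` at `A`: every `σ` in the inertia group of `A` fixes `Pic⁰(F)[m]`
(`unramF`, fork of `ES/G2/Unram.lean`).  Then `stmtUnramH_of_inj : StmtPrimH → StmtInjH → StmtUnramH`.
-/

set_option autoImplicit false

noncomputable section

namespace Fermat.Agent.ES1.G2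

open ModularCurve AlgebraicCurve Fermat.Agent.ES Fermat.Agent.ES.G2 HahnSeries

/-- **UNRAM, generic.** -/
theorem unramF (F₀ : IntermediateField ℚ (LaurentSeries ℚ)) (A : ValuationSubring QbH)
    (m : ℕ) (hm0 : m ≠ 0) (hPrim : PrimAt A (laurentBaseChange QbH F₀))
    (hInj : InjAt A (laurentBaseChange QbH F₀) m)
    (σ : QbH ≃ₐ[ℚ] QbH) (hσ : σ ∈ A.inertiaSubgroupIn ℚ)
    (x : Pic0 QbH (laurentBaseChange QbH F₀)) (hx : m • x = 0) : σ • x = x := by
  obtain ⟨D, rfl⟩ := Pic0.mk_surjective x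
  -- `m D` is principal
  have hprin : ((m • D : Divisor.degZero (K := QbH) (F := laurentBaseChange QbH F₀)) :
      Divisor QbH (laurentBaseChange QbH F₀)) ∈ Divisor.principal := by
    have h1 : Pic0.mk (m • D) = 0 := by
      rw [← hx]; rfl
    unfold Pic0.mk at h1
    rw [QuotientAddGroup.eq_zero_iff, AddSubgroup.mem_addSubgroupOf] at h1
    exact h1
  obtain ⟨u, hu, hDu⟩ := hprin
  have hDu' : ∀ v : Place QbH (laurentBaseChange QbH F₀),
      (m : ℤ) * (D : Divisor QbH (laurentBaseChange QbH F₀)) v = v.ord u := by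
    intro v
    rw [← hDu v, AddSubgroup.coe_nsmul, Finsupp.smul_apply, nsmul_eq_mul]
  -- PRIM
  obtain ⟨c, y₁, y₂, hc, hy₁, hy₂, hP₁, hP₂, he⟩ := hPrim u hu
  have hy₁0 : y₁ ≠ 0 := unram_ne_zero_of_kronPrim hP₁
  have hy₂0 : y₂ ≠ 0 := unram_ne_zero_of_kronPrim hP₂
  set Y₁ : laurentBaseChange QbH F₀ := ⟨y₁, hy₁⟩ with hY₁
  set Y₂ : laurentBaseChange QbH F₀ := ⟨y₂, hy₂⟩ with hY₂
  have hY₁0 : Y₁ ≠ 0 := fun h => hy₁0 (congrArg Subtype.val h)
  have hY₂0 : Y₂ ≠ 0 := fun h => hy₂0 (congrArg Subtype.val h)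
  have heF : u * Y₂ = algebraMap QbH (laurentBaseChange QbH F₀) c * Y₁ := by
    apply Subtype.ext
    show (u : LaurentSeries QbH) * y₂ = algebraMap QbH (LaurentSeries QbH) c * y₁
    rw [he, algebraMap_laurentSeries_eq_single]
    rfl
  have hu' : u = algebraMap QbH (laurentBaseChange QbH F₀) c * (Y₁ / Y₂) := by
    field_simp
    exact heF
  have hdiv0 : Y₁ / Y₂ ≠ 0 := div_ne_zero hY₁0 hY₂0
  have hc' : algebraMap QbH (laurentBaseChange QbH F₀) c ≠ 0 := by
    simpa using hc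
  have hD' : ∀ v : Place QbH (laurentBaseChange QbH F₀),
      (m : ℤ) * (D : Divisor QbH (laurentBaseChange QbH F₀)) v = v.ord (Y₁ / Y₂) := by
    intro v
    rw [hDu' v, hu', v.ord_mul hc' hdiv0, unram_ord_algebraMap v hc, zero_add]
  -- the semilinear automorphism
  set g := arithmeticGalois F₀ σ with hg
  have hσdec : σ ∈ A.decompositionSubgroup ℚ := kron_mem_decomposition_of_mem_inertia hσ
  have hgY₁0 : g • Y₁ ≠ 0 := by
    rw [SemilinearAut.smul_def]
    exact (map_ne_zero_iff _ (SemilinearAut.toRingAut g).injective).mpr hY₁0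
  have hgY₂0 : g • Y₂ ≠ 0 := by
    rw [SemilinearAut.smul_def]
    exact (map_ne_zero_iff _ (SemilinearAut.toRingAut g).injective).mpr hY₂0
  have hgdiv : g • (Y₁ / Y₂) = (g • Y₁) / (g • Y₂) := by
    simp only [SemilinearAut.smul_def, map_div₀]
  -- `w = g u' / u'` reduces to one
  have hw0 : (g • (Y₁ / Y₂)) / (Y₁ / Y₂) ≠ 0 := by
    rw [hgdiv]
    exact div_ne_zero (div_ne_zero hgY₁0 hgY₂0) hdiv0
  have hred : ReducesToOneF A (laurentBaseChange QbH F₀) ((g • (Y₁ / Y₂)) / (Y₁ / Y₂)) := by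
    refine ⟨coeffMap (σ : QbH →+* QbH) y₁ * y₂, coeffMap (σ : QbH →+* QbH) y₂ * y₁,
      mul_mem (coeffMap_mem_laurentBaseChange σ hy₁) hy₂,
      mul_mem (coeffMap_mem_laurentBaseChange σ hy₂) hy₁,
      (hP₁.coeffMap_of_mem_decomposition σ hσdec).mul hP₂,
      (hP₂.coeffMap_of_mem_decomposition σ hσdec).mul hP₁, ?_, ?_⟩
    · -- congruence
      have c1 : KronCongr A (coeffMap (σ : QbH →+* QbH) y₁ * y₂) (y₁ * y₂) :=
        KronCongr.mul (hP₁.1.coeffMap_of_mem_decomposition σ hσdec) hP₁.1 hP₂.1 hP₂.1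
          (kron_inertia_congr hσ hP₁.1) (KronCongr.refl (A := A) y₂)
      have c2 : KronCongr A (coeffMap (σ : QbH →+* QbH) y₂ * y₁) (y₂ * y₁) :=
        KronCongr.mul (hP₂.1.coeffMap_of_mem_decomposition σ hσdec) hP₂.1 hP₁.1 hP₁.1
          (kron_inertia_congr hσ hP₂.1) (KronCongr.refl (A := A) y₁)
      rw [mul_comm y₂ y₁] at c2
      exact c1.trans c2.symm
    · -- the fraction
      have e : (g • (Y₁ / Y₂)) / (Y₁ / Y₂) * ((g • Y₂) * Y₁) = (g • Y₁) * Y₂ := by
        rw [hgdiv]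
        field_simp
      have := congrArg (Subtype.val) e
      exact this
  have hdvd : ∀ P : Place QbH (laurentBaseChange QbH F₀),
      (m : ℤ) ∣ P.ord ((g • (Y₁ / Y₂)) / (Y₁ / Y₂)) := by
    intro P
    have hgu0 : g • (Y₁ / Y₂) ≠ 0 := by rw [hgdiv]; exact div_ne_zero hgY₁0 hgY₂0
    have h2 : P.ord (g • (Y₁ / Y₂)) = (g⁻¹ • P).ord (Y₁ / Y₂) := by
      have := SemilinearAut.ord_smul g (g⁻¹ • P) (Y₁ / Y₂)
      rwa [smul_inv_smul] at this
    rw [unram_ord_div P hgu0 hdiv0, h2, ← hD', ← hD', ← mul_sub]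
    exact dvd_mul_right _ _
  obtain ⟨h, hh⟩ := hInj _ hw0 hred hdvd
  exact unram_pic0_smul_eq g D m hm0 (Y₁ / Y₂) hdiv0 hD' h hh

/-- **Piece UNRAM.** -/
theorem stmtUnramH_of_inj (hPrim : StmtPrimH) (hInj : StmtInjH) : StmtUnramH := by
  intro L M H m hL hML ℓ hℓ hgood A hA σ hσ x hx
  have hℓL : ¬ ℓ ∣ L := fun h => hgood (h.mul_right m)
  have hℓm : ¬ ℓ ∣ m := fun h => hgood (h.mul_left L)
  have hm0 : m ≠ 0 := by rintro rfl; exact hℓm (dvd_zero ℓ)
  exact unramF (fieldQ L M H) A m hm0 (hPrim L M H A) (hInj L M H ℓ hL hML hℓ hℓL A hA m hℓm)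
    σ hσ x hx

end Fermat.Agent.ES1.G2

end
end ZBES1_007_7

/-! ### bundled: `Fermat.Agent.ES1.G2.FrobMain` -/
section ZBES1_007_8

/-!
# ES₁ / G2, piece FROB at level `(L; M, H)`

* `isDiamondH_comm_galois` : a diamond automorphism of `fieldBar L M H` commutes with the
  coefficientwise Galois action (both sides agree on the generators, which have rational
  coefficients);
* `stmtFrobH_of_inj : StmtPrimH → StmtInjH → StmtHeckeNormH → StmtFrobH`.
-/

set_option autoImplicit false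

noncomputable section

namespace Fermat.Agent.ES1.G2

open ModularCurve AlgebraicCurve Fermat.Agent.ES Fermat.Agent.ES1 HahnSeries

variable {L M : ℕ} {H : Subgroup (ZMod M)ˣ}

theorem frobm_coe_galois_smul (τ : QbH ≃ₐ[ℚ] QbH) (v : fieldBar L M H) :
    ((arithmeticGalois (fieldQ L M H) τ • v : fieldBar L M H) : LaurentSeries QbH)
      = coeffMap (τ : QbH →+* QbH) (v : LaurentSeries QbH) := rfl

/-- a diamond automorphism commutes with the Galois action on the coefficients -/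
theorem isDiamondH_comm_galois {c : (ZMod M)ˣ} {δ : fieldBar L M H ≃ₐ[QbH] fieldBar L M H}
    (hδ : IsDiamondH L M H c δ) (τ : QbH ≃ₐ[ℚ] QbH) (v : fieldBar L M H) :
    δ (arithmeticGalois (fieldQ L M H) τ • v) = arithmeticGalois (fieldQ L M H) τ • δ v := by
  obtain ⟨g, hg⟩ : ∃ g : SemilinearAut QbH (fieldBar L M H),
      g = arithmeticGalois (fieldQ L M H) τ := ⟨_, rfl⟩
  rw [← hg]
  have hgs : ∀ v : fieldBar L M H,
      ((g • v : fieldBar L M H) : LaurentSeries QbH)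
        = coeffMap (τ : QbH →+* QbH) (v : LaurentSeries QbH) := by
    intro v
    rw [hg]
    rfl
  have hmem : ∀ x : LaurentSeries QbH, x ∈ fieldC QbH L M H → x ∈ fieldBar L M H := by
    intro x hx
    rw [es1f_fieldBar_eq]
    exact hx
  have key : ∀ x (hx : x ∈ fieldC QbH L M H),
      δ (g • (⟨x, hmem x hx⟩ : fieldBar L M H)) = g • δ (⟨x, hmem x hx⟩ : fieldBar L M H) := by
    intro x hx
    unfold fieldC at hx
    induction hx using IntermediateField.adjoin_induction with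
    | mem x hx =>
        rcases hx with ⟨d, hd, hdL, rfl⟩ | ⟨e, he, a, heL, rfl⟩
        · -- `j(q^d)`
          have h1 : ∀ (h : qExpand QbH d (jqModC QbH) ∈ fieldBar L M H),
              g • (⟨_, h⟩ : fieldBar L M H) = ⟨_, h⟩ := by
            intro h
            apply Subtype.ext
            rw [hgs]
            exact coeffMap_jqNModC (τ : QbH →+* QbH) d
          rw [h1, hδ.fix_j d hdL _ rfl, h1]
        · -- `S_a(q^e)`
          have h1 : ∀ (b : (ZMod M)ˣ) (h : qExpand QbH e (sS QbH M H b) ∈ fieldBar L M H),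
              g • (⟨_, h⟩ : fieldBar L M H) = ⟨_, h⟩ := by
            intro b h
            apply Subtype.ext
            rw [hgs]
            exact es1f_coeffMap_qExpand_sS (τ : QbH →+* QbH) M H b e
          rw [h1]
          have h2 := hδ.map_s e a heL ⟨_, hmem _ (qExpand_sS_mem QbH L M H heL a)⟩ rfl
          have h3 : δ (⟨_, hmem _ (qExpand_sS_mem QbH L M H heL a)⟩ : fieldBar L M H)
              = ⟨_, hmem _ (qExpand_sS_mem QbH L M H heL (a * c))⟩ := Subtype.ext h2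
          rw [h3, h1]
    | algebraMap a =>
        have h1 : (⟨algebraMap QbH (LaurentSeries QbH) a,
            hmem _ (IntermediateField.algebraMap_mem _ a)⟩ : fieldBar L M H)
              = algebraMap QbH (fieldBar L M H) a := rfl
        rw [h1, SemilinearAut.smul_algebraMap, AlgEquiv.commutes, AlgEquiv.commutes,
          SemilinearAut.smul_algebraMap]
    | add x y hx hy ihx ihy =>
        have h1 : (⟨x + y, hmem _ (add_mem hx hy)⟩ : fieldBar L M H)
            = ⟨x, hmem _ hx⟩ + ⟨y, hmem _ hy⟩ := rfl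
        rw [h1, smul_add, map_add, map_add, smul_add, ihx, ihy]
    | inv x hx ihx =>
        have h1 : (⟨x⁻¹, hmem _ (inv_mem hx)⟩ : fieldBar L M H)
            = (⟨x, hmem _ hx⟩ : fieldBar L M H)⁻¹ := rfl
        rw [h1, smul_inv'', map_inv₀, map_inv₀, smul_inv'', ihx]
    | mul x y hx hy ihx ihy =>
        have h1 : (⟨x * y, hmem _ (mul_mem hx hy)⟩ : fieldBar L M H)
            = ⟨x, hmem _ hx⟩ * ⟨y, hmem _ hy⟩ := rfl
        rw [h1, smul_mul', map_mul, map_mul, smul_mul', ihx, ihy]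
  have hv : (v : LaurentSeries QbH) ∈ fieldC QbH L M H := by
    rw [← es1f_fieldBar_eq]
    exact v.2
  exact key v hv

/-- **Piece FROB.** -/
theorem stmtFrobH_of_inj (hPrim : StmtPrimH) (hInj : StmtInjH) (hHN : StmtHeckeNormH) :
    StmtFrobH := by
  intro L M H m hL hML ℓ _ hℓ hgood hfin hfin' c hc δ hδ A hA τ hτ x hx
  have hℓL : ¬ ℓ ∣ L := fun h => hgood (h.mul_right m)
  have hℓm : ¬ ℓ ∣ m := fun h => hgood (h.mul_left L)
  have hm0 : m ≠ 0 := by rintro rfl; exact hℓm (dvd_zero ℓ)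
  obtain ⟨ζ, hζ⟩ := Fermat.Agent.ES.G2.frob_exists_primitiveRoot ℓ hℓ.ne_zero
  haveI := es1h_hasPrincipalDivisors hfin'
  rw [es1hHecke_eq_of_fin hfin hfin']
  exact frobF (fieldQ L M H) (es1hBeta L M H ℓ) (es1hAlpha L M H ℓ) _ _ _ _ _ δ A ℓ hℓ hA τ hτ
    (isDiamondH_comm_galois hδ τ) ζ hζ
    (fun v => hHN L M H ℓ hL hML hℓ hℓL c hc δ hδ ζ hζ v)
    m hm0 (hPrim L M H A) (hInj L M H ℓ hL hML hℓ hℓL A hA m hℓm) x hx

end Fermat.Agent.ES1.G2

end
end ZBES1_007_8

/-! ### bundled: `Fermat.Agent.ES1.G2.InjBridgeH` -/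
section ZBES1_007_9

/-!
# ES₁ / G2, bridge: the target `ES1.StmtINJHAll` of INJ₁ gives `StmtInjPrimeH`

`StmtINJH` is stated with series over `A`, `StmtInjPrimeH` with the predicates `KronPrim`,
`KronCongr` of `ES/Kronecker.lean` (fork of `ES/G2/InjBridge.lean`).
-/

set_option autoImplicit false

noncomputable section

namespace Fermat.Agent.ES1.G2

open ModularCurve AlgebraicCurve Fermat.Agent.ES Fermat.Agent.ES1

/-- the form of (INJ) consumed by G2, for one field and one exponent, from the `A`-series form -/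
theorem injAt_of_series {A : ValuationSubring QbH}
    {F : IntermediateField QbH (LaurentSeries QbH)} {p : ℕ}
    (h : ∀ (Y₁ Y₂ : LaurentSeries A) (h₁ : coeffMap A.subtype Y₁ ∈ F)
      (h₂ : coeffMap A.subtype Y₂ ∈ F),
      coeffMap (IsLocalRing.residue A) Y₁ = coeffMap (IsLocalRing.residue A) Y₂ →
      coeffMap (IsLocalRing.residue A) Y₂ ≠ 0 →
      (∀ P : Place QbH F,
        (p : ℤ) ∣ P.ord (⟨coeffMap A.subtype Y₁, h₁⟩ : F)
          - P.ord (⟨coeffMap A.subtype Y₂, h₂⟩ : F)) →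
      ∃ w : F, w ^ p * (⟨coeffMap A.subtype Y₂, h₂⟩ : F) = ⟨coeffMap A.subtype Y₁, h₁⟩) :
    InjAt A F p := by
  intro u hu hred hord
  obtain ⟨y₁, y₂, hy₁, hy₂, hp₁, hp₂, hc, huy⟩ := hred
  obtain ⟨Y₁, rfl⟩ := hp₁.1.exists_lift
  obtain ⟨Y₂, rfl⟩ := hp₂.1.exists_lift
  have hne₂ : kronRed A Y₂ ≠ 0 := (kronPrim_kronIncl_iff Y₂).1 hp₂
  have heq : kronRed A Y₁ = kronRed A Y₂ := (kronCongr_kronIncl_iff Y₁ Y₂).1 hc
  have hY₂ne : (⟨kronIncl A Y₂, hy₂⟩ : F) ≠ 0 := by
    intro h0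
    apply hne₂
    have h1 : kronIncl A Y₂ = 0 := congrArg Subtype.val h0
    have h2 : Y₂ = 0 := by
      ext n
      have := congrArg (fun g : LaurentSeries QbH => g.coeff n) h1
      simpa [kronIncl, coeffMap_coeff] using this
    rw [h2, kronRed, map_zero]
  have hmul : u * (⟨kronIncl A Y₂, hy₂⟩ : F) = ⟨kronIncl A Y₁, hy₁⟩ :=
    Subtype.ext huy
  obtain ⟨w, hw⟩ := h Y₁ Y₂ hy₁ hy₂ heq hne₂
    (fun P => by
      have h1 := P.ord_mul hu hY₂ne
      rw [hmul] at h1
      have h2 := hord P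
      have : P.ord (⟨kronIncl A Y₁, hy₁⟩ : F) - P.ord (⟨kronIncl A Y₂, hy₂⟩ : F) = P.ord u := by
        rw [h1]; ring
      show (p : ℤ) ∣ P.ord (⟨kronIncl A Y₁, hy₁⟩ : F) - P.ord (⟨kronIncl A Y₂, hy₂⟩ : F)
      rw [this]
      exact h2)
  refine ⟨w, ?_⟩
  have h3 : w ^ p * (⟨kronIncl A Y₂, hy₂⟩ : F) = u * (⟨kronIncl A Y₂, hy₂⟩ : F) := by
    rw [hmul]; exact hw
  exact mul_right_cancel₀ hY₂ne h3

/-- **INJ-bridge.** -/
theorem stmtInjPrimeH_of_stmtINJHAll (h : Fermat.Agent.ES1.StmtINJHAll) : StmtInjPrimeH := by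
  intro L M H ℓ p hL hML hℓ hp hℓL hℓp A hA
  exact injAt_of_series (h L M H ℓ p hL hML hℓ hp hℓL hℓp A hA)

end Fermat.Agent.ES1.G2

end
end ZBES1_007_9

/-! ### bundled: `Fermat.Agent.ES1.G2.HeckeNormH` -/
section ZBES1_007_10
/-
ES₁ / G2, piece HN (helper81): the Hecke norm with diamond at level `(L; M, H)`, from the
Atkin–Lehner swap (`StmtSwapH`) and the degree (`StmtDegH`), by the generic core `hnD_norm`.

* `es1hn_J_coeff`, `es1hn_J_fixed` : `j ∈ fieldBar L M H` has coefficient `1` at `q⁻¹` and is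
  fixed by every diamond;
* `es1hn_norm_of_swap_of_deg` : the norm formula from a swap `w` and the degree `ℓ + 1`;
* `stmtHeckeNormH_of_swap_of_deg : StmtSwapH → StmtDegH → StmtHeckeNormH`.
-/

set_option autoImplicit false
set_option linter.unusedSectionVars false

noncomputable section

namespace Fermat.Agent.ES1.G2

open ModularCurve AlgebraicCurve Fermat.Agent.ES Fermat.Agent.ES.G2 Fermat.Agent.ES1

variable (L M : ℕ) (H : Subgroup (ZMod M)ˣ)

/-- the coefficient of `q⁻¹` of `j` is `1` -/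
theorem es1hn_J_coeff :
    ((es1hJ L M H : fieldBar L M H) : LaurentSeries QbH).coeff (-1) = 1 :=
  hn_jBar_coeff

/-- `j = j(q^1)` as a Laurent series over `ℚ̄` -/
theorem es1hn_J_eq :
    ((es1hJ L M H : fieldBar L M H) : LaurentSeries QbH) = qExpand QbH 1 (jqModC QbH) := by
  rw [qExpand_one_apply, coe_es1hJ, Fermat.Agent.S24.jBar, coeffEmb]
  exact coeffMap_jqModC _

/-- every diamond fixes `j` -/
theorem es1hn_J_fixed {c : (ZMod M)ˣ}
    {δ : fieldBar L M H ≃ₐ[QbH] fieldBar L M H} (hδ : IsDiamondH L M H c δ) :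
    δ (es1hJ L M H) = es1hJ L M H :=
  hδ.fix_j 1 (one_dvd L) (es1hJ L M H) (es1hn_J_eq L M H)

/-- **HN at level `(L; M, H)`**, from a swap and the degree. -/
theorem es1hn_norm_of_swap_of_deg (ℓ : ℕ) [NeZero ℓ] (hℓ : ℓ.Prime)
    {c : (ZMod M)ˣ} (δ : fieldBar L M H ≃ₐ[QbH] fieldBar L M H) (hδ : IsDiamondH L M H c δ)
    (w : fieldBar (L * ℓ) M H →+* fieldBar (L * ℓ) M H)
    (hwα : ∀ x, w (es1hAlpha L M H ℓ x) = es1hBeta L M H ℓ x)
    (hwβ : ∀ x, w (es1hBeta L M H ℓ x) = es1hAlpha L M H ℓ (δ x))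
    (hdeg : @Module.finrank (fieldBar L M H) (fieldBar (L * ℓ) M H) _ _
      (@Algebra.toModule _ _ _ _ (es1hAlpha L M H ℓ).toAlgebra) = ℓ + 1)
    (ζ : QbHˣ) (hζ : IsPrimitiveRoot ζ ℓ) (v : fieldBar L M H) :
    ((@Algebra.norm (fieldBar L M H) (fieldBar (L * ℓ) M H) _ _
        (es1hAlpha L M H ℓ).toAlgebra (es1hBeta L M H ℓ v) : fieldBar L M H) :
          LaurentSeries QbH) =
      kronHeckeD ℓ ζ (v : LaurentSeries QbH) ((δ v : fieldBar L M H) : LaurentSeries QbH) :=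
  hnD_norm (F := fieldBar L M H) (F' := fieldBar (L * ℓ) M H) ℓ
    (es1hAlpha L M H ℓ : fieldBar L M H →+* fieldBar (L * ℓ) M H)
    (es1hBeta L M H ℓ : fieldBar L M H →+* fieldBar (L * ℓ) M H)
    (fun x => coe_es1hAlpha L M H ℓ x) (fun x => coe_es1hBeta L M H ℓ x)
    (δ : fieldBar L M H →+* fieldBar L M H) w hℓ hwα hwβ hdeg
    (es1hJ L M H) (es1hn_J_coeff L M H) (es1hn_J_fixed L M H hδ) ζ hζ v

/-- **Piece HN.** -/
theorem stmtHeckeNormH_of_swap_of_deg (hswap : StmtSwapH) (hdeg : StmtDegH) : StmtHeckeNormH := by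
  intro L M H ℓ _ hL hML hℓ hℓL c hc δ hδ ζ hζ v
  obtain ⟨w, hwα, hwβ⟩ := hswap L M H ℓ hL hML hℓ hℓL c hc δ hδ
  exact es1hn_norm_of_swap_of_deg L M H ℓ hℓ δ hδ w hwα hwβ (hdeg L M H ℓ hL hML hℓ hℓL)
    ζ hζ v

end Fermat.Agent.ES1.G2

end
end ZBES1_007_10

/-! ### bundled: `Fermat.Agent.ES1.G2.DegH` -/
section ZBES1_007_11
/-
ES₁ / G2, piece DEG (helper81): `[fieldBar (L ℓ) M H : fieldBar L M H] = ℓ + 1` along `α`.

* `stmtDegH_of_relDeg : ES1.StmtRelDegH → StmtDegH` (from `dlh_relfinrank`, helper83, and the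
  inclusion lemma `hdeg_finrank_inclusion` of ES₀);
* `stmtDegH_of_diamond : ES1.StmtDiamondH → StmtDegH`;
* `stmtHeckeNormH_of_swap_of_relDeg`, `stmtHeckeNormH_of_swap_of_diamond`.
-/

set_option autoImplicit false

noncomputable section

namespace Fermat.Agent.ES1.G2

open ModularCurve AlgebraicCurve Fermat.Agent.ES Fermat.Agent.ES.G2 Fermat.Agent.ES1

/-- **Piece DEG**, from the relative degree over the `Γ₀`-fields. -/
theorem stmtDegH_of_relDeg (hdeg : StmtRelDegH) : StmtDegH := by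
  intro L M H ℓ _ hL hML hℓ hℓL
  have h := hdeg_finrank_inclusion (es1h_fieldBar_mono M H (dvd_mul_right L ℓ))
  rw [dlh_relfinrank hdeg L M H ℓ hL hML hℓ hℓL] at h
  exact h

/-- **Piece DEG**, from the diamonds (piece F3-conj). -/
theorem stmtDegH_of_diamond (hD : StmtDiamondH) : StmtDegH :=
  stmtDegH_of_relDeg (stmtRelDegH_of_diamond hD)

/-- HN from SWAP and the relative degree. -/
theorem stmtHeckeNormH_of_swap_of_relDeg (hswap : StmtSwapH) (hdeg : StmtRelDegH) :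
    StmtHeckeNormH :=
  stmtHeckeNormH_of_swap_of_deg hswap (stmtDegH_of_relDeg hdeg)

/-- HN from SWAP and the diamonds. -/
theorem stmtHeckeNormH_of_swap_of_diamond (hswap : StmtSwapH) (hD : StmtDiamondH) :
    StmtHeckeNormH :=
  stmtHeckeNormH_of_swap_of_deg hswap (stmtDegH_of_diamond hD)

end Fermat.Agent.ES1.G2

end
end ZBES1_007_11

/-! ### bundled: `Fermat.Agent.ES1.G2.Main` -/
section ZBES1_007_12

/-!
# ES₁ / G2: assembly

The two clauses of the Eichler–Shimura package for `JH L M H` delivered by G2: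

* `es1g2_unram : ES1.StmtINJHAll → StmtUnramH`;
* `es1g2_frob  : ES1.StmtINJHAll → StmtSwapH → ES1.StmtDiamondH → StmtFrobH`
  (`δ_ℓ τ² x − T_ℓ τ x + ℓ x = 0`, `T_ℓ = es1hHecke L M H ℓ`).

Open inputs: `ES1.StmtINJHAll` (INJ₁), `StmtSwapH` (SWAP), `ES1.StmtDiamondH` (F3-conj).
-/

set_option autoImplicit false

namespace Fermat.Agent.ES1.G2

open Fermat.Agent.ES1

/-- piece `PRIM` (helper81) as a term of `StmtPrimH` -/
theorem stmtPrimH : StmtPrimH := fun L M H A u hu => es1prim_fieldBar L M H A u hu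

/-- (INJ) for all exponents prime to `ℓ`, from the target of INJ₁ -/
theorem stmtInjH_of_stmtINJHAll (h : StmtINJHAll) : StmtInjH :=
  stmtInjH_of_prime stmtPrimH (stmtInjPrimeH_of_stmtINJHAll h)

/-- clause `unram` for `JH L M H`, from the target of INJ₁ -/
theorem es1g2_unram (h : StmtINJHAll) : StmtUnramH :=
  stmtUnramH_of_inj stmtPrimH (stmtInjH_of_stmtINJHAll h)

/-- clause `frob` for `JH L M H`, from the target of INJ₁ and the norm formula -/
theorem es1g2_frob_of_hn (h : StmtINJHAll) (hHN : StmtHeckeNormH) : StmtFrobH :=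
  stmtFrobH_of_inj stmtPrimH (stmtInjH_of_stmtINJHAll h) hHN

/-- clause `frob` for `JH L M H`, from INJ₁, SWAP and F3-conj -/
theorem es1g2_frob (h : StmtINJHAll) (hswap : StmtSwapH) (hD : StmtDiamondH) : StmtFrobH :=
  es1g2_frob_of_hn h (stmtHeckeNormH_of_swap_of_diamond hswap hD)

end Fermat.Agent.ES1.G2


end ZBES1_007_12

/-! ### bundled: `Fermat.Agent.RT.K6.CheapInf` -/
section ZBES1_007_13
/-
K-machine, piece K6 (type `χ` at a prime `r` of the level `Γ_H`), piece C∞ (helper4):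
the cheap half at the Gauss valuation `v_∞` of the `q`-expansion, GENERIC.

`F₀ ⊂ ℚ((q))` any intermediate field, `F = laurentBaseChange ℚ̄ F₀`, `A ⊂ ℚ̄` a valuation ring,
`σ` in the inertia group of `A`, (PRIM) for `F` at `A`.
* `rtk6c_smul_coe`     : `σ` acts on `F` through the coefficients.
* `rtk6c_cheap_infty`  : for `u ∈ F^×` there is a constant `c ≠ 0` with `c · σ(u)/u` reducing to
                         one at `v_∞` (`ReducesToOneF`).
* `rtk6c_cheap_infty_H`: the same for `fieldBar L M H` (every level, every `A`).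
Fork of `UNIP/Cheap.lean` (`cheap_infty`, helper20) and of `ES1/G2/UnramH.lean`.
-/

set_option autoImplicit false

noncomputable section

namespace Fermat.Agent.RT.K6

open ModularCurve AlgebraicCurve HahnSeries Fermat.Agent.ES Fermat.Agent.ES.G2
open Fermat.Agent.ES1 Fermat.Agent.ES1.G2

/-- the action of `σ ∈ G_ℚ` on `F = laurentBaseChange ℚ̄ F₀` is the action on the coefficients -/
theorem rtk6c_smul_coe (F₀ : IntermediateField ℚ (LaurentSeries ℚ)) (σ : QbH ≃ₐ[ℚ] QbH)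
    (Y : laurentBaseChange QbH F₀) :
    ((arithmeticGalois F₀ σ • Y : laurentBaseChange QbH F₀) : LaurentSeries QbH) =
      coeffMap (σ : QbH →+* QbH) (Y : LaurentSeries QbH) := rfl

/-- **Cheap half at `v_∞`, generic.**  For `σ` in the inertia group of `A` and `u ∈ F^×`,
`σ(u)/u` is a constant times an element which reduces to one. -/
theorem rtk6c_cheap_infty (F₀ : IntermediateField ℚ (LaurentSeries ℚ)) (A : ValuationSubring QbH)
    (hPrim : PrimAt A (laurentBaseChange QbH F₀))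
    (σ : QbH ≃ₐ[ℚ] QbH) (hσ : σ ∈ A.inertiaSubgroupIn ℚ)
    (u : laurentBaseChange QbH F₀) (hu : u ≠ 0) :
    ∃ c : QbH, c ≠ 0 ∧
      ReducesToOneF A (laurentBaseChange QbH F₀)
        (algebraMap QbH (laurentBaseChange QbH F₀) c * ((arithmeticGalois F₀ σ • u) / u)) := by
  obtain ⟨c, y₁, y₂, hc, hy₁, hy₂, hP₁, hP₂, he⟩ := hPrim u hu
  have hy₁0 : y₁ ≠ 0 := unram_ne_zero_of_kronPrim hP₁
  have hy₂0 : y₂ ≠ 0 := unram_ne_zero_of_kronPrim hP₂
  have hσdec : σ ∈ A.decompositionSubgroup ℚ := kron_mem_decomposition_of_mem_inertia hσ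
  have hσc : σ c ≠ 0 := (map_ne_zero_iff _ σ.injective).mpr hc
  have hσy₁0 : coeffMap (σ : QbH →+* QbH) y₁ ≠ 0 :=
    (map_ne_zero_iff _ (coeffMap (σ : QbH →+* QbH)).injective).mpr hy₁0
  have hσy₂0 : coeffMap (σ : QbH →+* QbH) y₂ ≠ 0 :=
    (map_ne_zero_iff _ (coeffMap (σ : QbH →+* QbH)).injective).mpr hy₂0
  have hu0 : (u : LaurentSeries QbH) ≠ 0 := fun h => hu (Subtype.ext h)
  -- the conjugate relation
  have he' : coeffMap (σ : QbH →+* QbH) (u : LaurentSeries QbH) *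
      coeffMap (σ : QbH →+* QbH) y₂ =
      HahnSeries.C (σ c) * coeffMap (σ : QbH →+* QbH) y₁ := by
    have := congrArg (coeffMap (σ : QbH →+* QbH)) he
    rw [map_mul, map_mul] at this
    rw [this]
    congr 1
    show coeffMap (σ : QbH →+* QbH) (HahnSeries.single 0 c) = HahnSeries.single 0 (σ c)
    rw [coeffMap_single]
    rfl
  refine ⟨c / σ c, div_ne_zero hc hσc, ?_⟩
  refine ⟨coeffMap (σ : QbH →+* QbH) y₁ * y₂, coeffMap (σ : QbH →+* QbH) y₂ * y₁,
    mul_mem (coeffMap_mem_laurentBaseChange σ hy₁) hy₂,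
    mul_mem (coeffMap_mem_laurentBaseChange σ hy₂) hy₁,
    (hP₁.coeffMap_of_mem_decomposition σ hσdec).mul hP₂,
    (hP₂.coeffMap_of_mem_decomposition σ hσdec).mul hP₁, ?_, ?_⟩
  · have c1 : KronCongr A (coeffMap (σ : QbH →+* QbH) y₁ * y₂) (y₁ * y₂) :=
      KronCongr.mul (hP₁.1.coeffMap_of_mem_decomposition σ hσdec) hP₁.1 hP₂.1 hP₂.1
        (kron_inertia_congr hσ hP₁.1) (KronCongr.refl (A := A) y₂)
    have c2 : KronCongr A (coeffMap (σ : QbH →+* QbH) y₂ * y₁) (y₂ * y₁) :=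
      KronCongr.mul (hP₂.1.coeffMap_of_mem_decomposition σ hσdec) hP₂.1 hP₁.1 hP₁.1
        (kron_inertia_congr hσ hP₂.1) (KronCongr.refl (A := A) y₁)
    rw [mul_comm y₂ y₁] at c2
    exact c1.trans c2.symm
  · -- the fraction
    show (algebraMap QbH (LaurentSeries QbH) (c / σ c) *
        (coeffMap (σ : QbH →+* QbH) (u : LaurentSeries QbH) / (u : LaurentSeries QbH))) *
          (coeffMap (σ : QbH →+* QbH) y₂ * y₁) = coeffMap (σ : QbH →+* QbH) y₁ * y₂
    have hCc : (HahnSeries.C c : LaurentSeries QbH) ≠ 0 :=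
      (map_ne_zero_iff _ HahnSeries.C_injective).mpr hc
    have hCσc : (HahnSeries.C (σ c) : LaurentSeries QbH) ≠ 0 :=
      (map_ne_zero_iff _ HahnSeries.C_injective).mpr hσc
    have hA1 : algebraMap QbH (LaurentSeries QbH) (c / σ c) =
        (HahnSeries.C c : LaurentSeries QbH) / HahnSeries.C (σ c) := by
      rw [LaurentSeries.algebraMap_apply, map_div₀]
    rw [hA1]
    field_simp
    have e1 : (HahnSeries.C c : LaurentSeries QbH) * y₁ = (u : LaurentSeries QbH) * y₂ := he.symm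
    linear_combination
      (y₁ * (HahnSeries.C c : LaurentSeries QbH)) * he' +
        (HahnSeries.C (σ c) * coeffMap (σ : QbH →+* QbH) y₁) * e1

/-- **Cheap half at `v_∞` for `fieldBar L M H`.** -/
theorem rtk6c_cheap_infty_H (L M : ℕ) (H : Subgroup (ZMod M)ˣ) (A : ValuationSubring QbH)
    (σ : QbH ≃ₐ[ℚ] QbH) (hσ : σ ∈ A.inertiaSubgroupIn ℚ)
    (u : fieldBar L M H) (hu : u ≠ 0) :
    ∃ c : QbH, c ≠ 0 ∧
      ReducesToOneF A (fieldBar L M H)
        (algebraMap QbH (fieldBar L M H) c * ((arithmeticGalois (fieldQ L M H) σ • u) / u)) :=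
  rtk6c_cheap_infty (fieldQ L M H) A (stmtPrimH L M H A) σ hσ u hu

end Fermat.Agent.RT.K6

end
end ZBES1_007_13

/-! ### bundled: `Fermat.Agent.ES1.G1.HeckeKummerH` -/
section ZBES1_007_14

/-!
# ES₁ / G1, piece HKa: Kummer functions of `T_ℓ x` and of `⟨c⟩ x` (helper82)

`x = [D] ∈ JH L M H`, `n · D = div u` (`KummerRel n x u`, `ES/KummerBridge.lean`).  Then

* `es1h_kummerRel_hecke` : `N_α (β u)` is a Kummer function of `T_ℓ x = es1hHecke L M H ℓ x`
  (`es1hNormFun L M H ℓ u = N_α (β u)`, norm of `u(q^ℓ)` from level `L ℓ` down to level `L`);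
* `es1h_kummerRel_diamond` : `δ u` is a Kummer function of `diamondJ δ x`, for every
  `ℚ̄`-automorphism `δ` of `fieldBar L M H`;
* `es1h_kummerRel_galois` : `σ u` is a Kummer function of `σ • x`.
-/

set_option autoImplicit false
set_option linter.style.haveILetI false

noncomputable section

open AlgebraicCurve ModularCurve IntermediateField

namespace Fermat.Agent.ES1

open Fermat.Agent.ES Fermat.Agent.ES.G2 Fermat.Agent.ES.G2.FrobAux Fermat.Agent.S24
open Fermat.Agent.ES1.G2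

variable (L M : ℕ) (H : Subgroup (ZMod M)ˣ) (ℓ : ℕ) [NeZero ℓ]

/-- the norm of `β u = u(q^ℓ)` from level `L ℓ` down to level `L` (along the inclusion `α`) -/
def es1hNormFun (u : fieldBar L M H) : fieldBar L M H :=
  frobNorm (es1hBeta L M H ℓ) (es1hAlpha L M H ℓ) u

theorem es1hNormFun_mul (u v : fieldBar L M H) :
    es1hNormFun L M H ℓ (u * v) = es1hNormFun L M H ℓ u * es1hNormFun L M H ℓ v :=
  frobNorm_mul _ _ u v

variable {L M H ℓ}

theorem es1hNormFun_ne_zero (h : Es1hFin L M H) (h' : Es1hFin (L * ℓ) M H)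
    {u : fieldBar L M H} (hu : u ≠ 0) : es1hNormFun L M H ℓ u ≠ 0 :=
  frobNorm_ne_zero _ _ (es1h_finiteAlong (es1hAlpha L M H ℓ) h h') hu

/-- **HKa for `T_ℓ`.**  If `u` is a Kummer function of `x ∈ JH L M H` then `N_α (β u)` is a Kummer
function of `T_ℓ x`. -/
theorem es1h_kummerRel_hecke (h : Es1hFin L M H) (h' : Es1hFin (L * ℓ) M H) {n : ℕ}
    {x : JH L M H} {u : fieldBar L M H} (hK : KummerRel n x u) :
    KummerRel n (es1hHecke L M H ℓ x) (es1hNormFun L M H ℓ u) := by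
  haveI := es1h_hasPrincipalDivisors h'
  rw [es1hHecke_eq_of_fin h h']
  exact KummerRel.correspondence _ _ _ _ _ _ _ hK

/-- **HKa for the diamonds.**  If `u` is a Kummer function of `x` then `δ u` is a Kummer function
of `diamondJ δ x`. -/
theorem es1h_kummerRel_diamond (δ : fieldBar L M H ≃ₐ[Kb] fieldBar L M H) {n : ℕ}
    {x : JH L M H} {u : fieldBar L M H} (hK : KummerRel n x u) :
    KummerRel n (diamondJ δ x) (δ u) :=
  KummerRel.smul (SemilinearAut.ofAlgAut δ) hK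

/-- **HKa for Galois.**  If `u` is a Kummer function of `x` then `σ u` (coefficientwise) is a
Kummer function of `σ • x`. -/
theorem es1h_kummerRel_galois (σ : Kb ≃ₐ[ℚ] Kb) {n : ℕ} {x : JH L M H} {u : fieldBar L M H}
    (hK : KummerRel n x u) :
    KummerRel n (σ • x) (arithmeticGalois (fieldQ L M H) σ • u) :=
  KummerRel.smul (arithmeticGalois (fieldQ L M H) σ) hK

end Fermat.Agent.ES1

end
end ZBES1_007_14
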