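/- GENERATED FILE (helper35, build-time optimisation, NOTES/ZB.md): verbatim concatenation of the modules
   Fermat.Agent.ES1.Group
   Fermat.Agent.RT.K5.Defs
   Fermat.Agent.RT.K5.Plan
   Fermat.Agent.RT.K5.AlgFitting
   Fermat.Agent.RT.K5.StepAbs
   Fermat.Agent.RT.K5.Gen
   Fermat.Agent.RT.K5.ResCores
   Fermat.Agent.RT.K5.AlgCyc
   Fermat.Agent.RT.K5.FreeAbs
   Fermat.Agent.RT.K5.FreeGrp
   Fermat.Agent.ES1.HeckeGrp
   Fermat.Agent.ES1.G1.HKbIndex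
   Fermat.Agent.RT.K6.Plan
   Fermat.Agent.RT.K6.PlanP
   Fermat.Agent.RT.K6.FPlan
   Fermat.Agent.RT.K6.D0
   Fermat.Agent.RT.K6.CheapZero
   Fermat.Agent.RT.K6.EAsmTor
   Fermat.Agent.RT.K5.FitEx
   Fermat.Agent.RT.K5.Plan3
   Fermat.Agent.RT.K5.TWAbs
   Fermat.Agent.RT.K5.AlgFree
   Fermat.Agent.RT.Hecke.ConcArith
   Fermat.Agent.ES1.EisCharG
   Fermat.Agent.ES1.EisCharFunG
   Fermat.Agent.ES1.EisCharMultG
   Fermat.Agent.ES1.EisCharOrdG
   Fermat.Agent.ES1.EisCharCuspG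
   Fermat.Agent.ES1.G1.HeckeRootH
   Do not edit; do not import together with these modules. -/
import Mathlib
import Fermat.Agent.ZB.S41_002
import Fermat.Agent.ZB.S41_001
import Fermat.Agent.ZB.ES1_007
import Fermat.Agent.ZB.ES1_002
import Fermat.Agent.ZB.INJ_005
import Fermat.Agent.ZB.ES_017
import Fermat.Agent.ZB.S24_006
import Fermat.Agent.ZB.S20_001

/-! ### bundled: `Fermat.Agent.ES1.Group` -/
section ZBES1_001_0

/-!
# ES₁ — the group `Γ = Γ_H(M) ∩ Γ₀(L)` (definitions + basic lemmas; helper38)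

`M`, `L` levels (in the applications `M ∣ L`), `H ≤ (ℤ/M)ˣ`.

* `diamHom M : Γ₀(M) →* (ℤ/M)ˣ`, `γ ↦ γ₀₀ mod M` (the upper left entry; its inverse is `γ₁₁`);
* `gammaH L M H = {γ ∈ Γ₀(L) ∩ Γ₀(M) : γ₀₀ mod M ∈ ±H}` as a subgroup of `SL(2, ℤ)`
  (`H = ⊥`: `±Γ₁(M) ∩ Γ₀(L)`; `H = ⊤`: `Γ₀(L) ∩ Γ₀(M)`).

This is the group of the function field `fieldC ℂ L M H` of `ES1/Defs.lean`: the weight 3
Eisenstein series `𝕐_a(τ) = Σ_{c ≡ a (M), d} (cτ + d)⁻³` satisfies `𝕐_a ∣ γ = 𝕐_{a γ₀₀}` for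
`γ ∈ Γ₀(M)`.
-/

set_option autoImplicit false

namespace Fermat.Agent.ES1

open CongruenceSubgroup Matrix Matrix.SpecialLinearGroup
open scoped MatrixGroups

/-- `γ ↦ γ₀₀ mod M` on `Γ₀(M)`, as a monoid hom to `ZMod M` -/
def diamMap (M : ℕ) : Gamma0 M →* ZMod M where
  toFun g := (((g : SL(2, ℤ)) 0 0 : ℤ) : ZMod M)
  map_one' := by simp
  map_mul' := by
    rintro ⟨A, _⟩ ⟨B, hB⟩
    have h := (two_mul_expl A.1 B.1).1
    have hB' : ((B 1 0 : ℤ) : ZMod M) = 0 := Gamma0_mem.mp hB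
    have : (A * B) 0 0 = A 0 0 * B 0 0 + A 0 1 * B 1 0 := by
      simpa using h
    show (((A * B) 0 0 : ℤ) : ZMod M) = ((A 0 0 : ℤ) : ZMod M) * ((B 0 0 : ℤ) : ZMod M)
    rw [this, Int.cast_add, Int.cast_mul, Int.cast_mul, hB', mul_zero, add_zero]

@[simp] theorem diamMap_apply (M : ℕ) (g : Gamma0 M) :
    diamMap M g = (((g : SL(2, ℤ)) 0 0 : ℤ) : ZMod M) := rfl

/-- **the diamond character** `Γ₀(M) → (ℤ/M)ˣ`, `γ ↦ γ₀₀ mod M` -/
def diamHom (M : ℕ) : Gamma0 M →* (ZMod M)ˣ := (diamMap M).toHomUnits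

@[simp] theorem coe_diamHom (M : ℕ) (g : Gamma0 M) :
    ((diamHom M g : (ZMod M)ˣ) : ZMod M) = (((g : SL(2, ℤ)) 0 0 : ℤ) : ZMod M) := rfl

/-- the lower right entry is the inverse of the upper left one -/
theorem coe_inv_diamHom (M : ℕ) (g : Gamma0 M) :
    (((diamHom M g)⁻¹ : (ZMod M)ˣ) : ZMod M) = (((g : SL(2, ℤ)) 1 1 : ℤ) : ZMod M) := by
  have hg : (((g : SL(2, ℤ)) 1 0 : ℤ) : ZMod M) = 0 := Gamma0_mem.mp g.2
  have hdet : (g : SL(2, ℤ)) 0 0 * (g : SL(2, ℤ)) 1 1 - (g : SL(2, ℤ)) 0 1 * (g : SL(2, ℤ)) 1 0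
      = 1 := by
    have := (g : SL(2, ℤ)).det_coe
    rwa [Matrix.det_fin_two] at this
  have h1 : (((g : SL(2, ℤ)) 0 0 : ℤ) : ZMod M) * (((g : SL(2, ℤ)) 1 1 : ℤ) : ZMod M) = 1 := by
    have := congrArg (Int.cast : ℤ → ZMod M) hdet
    simpa [hg] using this
  rw [Units.inv_eq_of_mul_eq_one_right]
  rw [coe_diamHom]
  exact h1

/-- `±H` -/
def pmH {M : ℕ} (H : Subgroup (ZMod M)ˣ) : Subgroup (ZMod M)ˣ := H ⊔ Subgroup.zpowers (-1)

theorem le_pmH {M : ℕ} (H : Subgroup (ZMod M)ˣ) : H ≤ pmH H := le_sup_left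

theorem neg_one_mem_pmH {M : ℕ} (H : Subgroup (ZMod M)ˣ) : (-1 : (ZMod M)ˣ) ∈ pmH H :=
  (le_sup_right : Subgroup.zpowers (-1) ≤ pmH H) (Subgroup.mem_zpowers _)

/-- **The group `Γ_H(M) ∩ Γ₀(L)`**, `= {γ ∈ Γ₀(L) ∩ Γ₀(M) : γ₀₀ mod M ∈ ±H}`. -/
def gammaH (L M : ℕ) (H : Subgroup (ZMod M)ˣ) : Subgroup SL(2, ℤ) where
  carrier := {γ | γ ∈ Gamma0 L ∧ ∃ hγ : γ ∈ Gamma0 M, diamHom M ⟨γ, hγ⟩ ∈ pmH H}
  one_mem' := ⟨one_mem _, one_mem _, by
    have : (⟨1, one_mem _⟩ : Gamma0 M) = 1 := rfl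
    rw [this, map_one]; exact one_mem _⟩
  mul_mem' := by
    rintro a b ⟨haL, haM, ha⟩ ⟨hbL, hbM, hb⟩
    refine ⟨mul_mem haL hbL, mul_mem haM hbM, ?_⟩
    have : (⟨a * b, mul_mem haM hbM⟩ : Gamma0 M) = ⟨a, haM⟩ * ⟨b, hbM⟩ := rfl
    rw [this, map_mul]; exact mul_mem ha hb
  inv_mem' := by
    rintro a ⟨haL, haM, ha⟩
    refine ⟨inv_mem haL, inv_mem haM, ?_⟩
    have : (⟨a⁻¹, inv_mem haM⟩ : Gamma0 M) = (⟨a, haM⟩ : Gamma0 M)⁻¹ := rfl
    rw [this, map_inv]; exact inv_mem ha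

theorem mem_gammaH {L M : ℕ} {H : Subgroup (ZMod M)ˣ} {γ : SL(2, ℤ)} :
    γ ∈ gammaH L M H ↔ γ ∈ Gamma0 L ∧ ∃ hγ : γ ∈ Gamma0 M, diamHom M ⟨γ, hγ⟩ ∈ pmH H := Iff.rfl

theorem gammaH_le_gamma0 (L M : ℕ) (H : Subgroup (ZMod M)ˣ) : gammaH L M H ≤ Gamma0 L :=
  fun _ h => h.1

theorem gammaH_le_gamma0' (L M : ℕ) (H : Subgroup (ZMod M)ˣ) : gammaH L M H ≤ Gamma0 M :=
  fun _ h => h.2.1

theorem gammaH_mono_level {L L' : ℕ} (h : L ∣ L') (M : ℕ) (H : Subgroup (ZMod M)ˣ) :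
    gammaH L' M H ≤ gammaH L M H := by
  rintro γ ⟨hL, hM, hH⟩
  refine ⟨?_, hM, hH⟩
  rw [Gamma0_mem] at hL ⊢
  rw [ZMod.intCast_zmod_eq_zero_iff_dvd] at hL ⊢
  exact (Int.natCast_dvd_natCast.mpr h).trans hL

theorem gammaH_mono {L M : ℕ} {H H' : Subgroup (ZMod M)ˣ} (h : H ≤ H') :
    gammaH L M H ≤ gammaH L M H' := by
  rintro γ ⟨hL, hM, hH⟩
  exact ⟨hL, hM, (sup_le_sup_right h _ : pmH H ≤ pmH H') hH⟩

/-- `H = ⊤` gives `Γ₀(L) ∩ Γ₀(M)` -/
theorem gammaH_top (L M : ℕ) : gammaH L M ⊤ = Gamma0 L ⊓ Gamma0 M := by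
  ext γ
  constructor
  · rintro ⟨hL, hM, -⟩; exact ⟨hL, hM⟩
  · rintro ⟨hL, hM⟩; exact ⟨hL, hM, le_pmH ⊤ (Subgroup.mem_top _)⟩

theorem gammaH_top_of_dvd {L M : ℕ} (h : M ∣ L) : gammaH L M ⊤ = Gamma0 L := by
  rw [gammaH_top]
  refine inf_eq_left.mpr fun γ hγ => ?_
  rw [Gamma0_mem] at hγ ⊢
  rw [ZMod.intCast_zmod_eq_zero_iff_dvd] at hγ ⊢
  exact (Int.natCast_dvd_natCast.mpr h).trans hγ

/-- `T ∈ Γ` : the expansions at `∞` are in `q`. -/
theorem T_mem_gammaH (L M : ℕ) (H : Subgroup (ZMod M)ˣ) : ModularGroup.T ∈ gammaH L M H := by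
  have hT0 : ∀ N : ℕ, ModularGroup.T ∈ Gamma0 N := fun N => by
    rw [Gamma0_mem]; simp [ModularGroup.T]
  refine ⟨hT0 L, hT0 M, ?_⟩
  have : diamHom M ⟨ModularGroup.T, hT0 M⟩ = 1 := by
    ext
    rw [coe_diamHom]
    simp [ModularGroup.T]
  rw [this]; exact one_mem _

theorem neg_one_mem_gammaH (L M : ℕ) (H : Subgroup (ZMod M)ˣ) :
    (-1 : SL(2, ℤ)) ∈ gammaH L M H := by
  have h0 : ∀ N : ℕ, (-1 : SL(2, ℤ)) ∈ Gamma0 N := fun N => by
    rw [Gamma0_mem]; simp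
  refine ⟨h0 L, h0 M, ?_⟩
  have : diamHom M ⟨-1, h0 M⟩ = -1 := by
    ext
    rw [coe_diamHom]
    simp
  rw [this]; exact neg_one_mem_pmH H

/-- `Γ₁(M) ∩ Γ₀(L) ≤ Γ` -/
theorem gamma1_inf_gamma0_le (L M : ℕ) (H : Subgroup (ZMod M)ˣ) :
    Gamma1 M ⊓ Gamma0 L ≤ gammaH L M H := by
  rintro γ ⟨h1, hL⟩
  have h1' := (Gamma1_mem M γ).mp h1
  have hM : γ ∈ Gamma0 M := Gamma0_mem.mpr h1'.2.2
  refine ⟨hL, hM, ?_⟩
  have : diamHom M ⟨γ, hM⟩ = 1 := by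
    ext
    rw [coe_diamHom]
    simpa using h1'.1
  rw [this]; exact one_mem _

/-- `Γ` is normalised by `Γ₀(L) ∩ Γ₀(M)` (the quotient is abelian). -/
theorem conj_mem_gammaH {L M : ℕ} {H : Subgroup (ZMod M)ˣ} {g γ : SL(2, ℤ)}
    (hgL : g ∈ Gamma0 L) (hgM : g ∈ Gamma0 M) (hγ : γ ∈ gammaH L M H) :
    g * γ * g⁻¹ ∈ gammaH L M H := by
  obtain ⟨hL, hM, hH⟩ := hγ
  refine ⟨mul_mem (mul_mem hgL hL) (inv_mem hgL), mul_mem (mul_mem hgM hM) (inv_mem hgM), ?_⟩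
  have : (⟨g * γ * g⁻¹, mul_mem (mul_mem hgM hM) (inv_mem hgM)⟩ : Gamma0 M)
      = ⟨g, hgM⟩ * ⟨γ, hM⟩ * (⟨g, hgM⟩ : Gamma0 M)⁻¹ := rfl
  rw [this, map_mul, map_mul, map_inv, mul_comm, inv_mul_cancel_left]
  exact hH

/-- the value of the diamond character on `Γ`, for `γ ∈ Γ₀(L) ∩ Γ₀(M)` -/
def diamOf (M : ℕ) (γ : SL(2, ℤ)) (hγ : γ ∈ Gamma0 M) : (ZMod M)ˣ := diamHom M ⟨γ, hγ⟩

end Fermat.Agent.ES1


end ZBES1_001_0

/-! ### bundled: `Fermat.Agent.RT.K5.Defs` -/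
section ZBES1_001_1

/-!
# K-machine, piece K5 (automorphic modules): definitions

`Γ_H = gammaH L M H = {γ ∈ Γ₀(L) ∩ Γ₀(M) : γ₀₀ mod M ∈ ±H}` (`ES1/Group.lean`), `M ∣ L`.
* `HomS Γ A = Hom(Γ, A)`; `resS`, `coresS` (transfer) for `Γ' ≤ Γ`; `conjS g` (conjugation);
* `inclH`, `conjDH : Γ_H(L ℓ) → Γ_H(L)` (inclusion, `γ ↦ δ γ δ⁻¹`, `δ = diag(ℓ, 1)`);
* the Hecke operator `tS ℓ = cores_δ ∘ res` on `Hom(Γ_H(L), A)` (for `H = ⊤` this is `S41.Tc`, by `S41.stmtC2`).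
-/

set_option autoImplicit false

noncomputable section

namespace Fermat.Agent.RT.K5

open CongruenceSubgroup Matrix
open scoped MatrixGroups
open Fermat.Agent.ES1 (gammaH diamHom pmH)

/-- `Hom(Γ, A)`. -/
abbrev HomS (Γ : Subgroup SL(2, ℤ)) (A : Type*) [AddCommGroup A] : Type _ := Additive Γ →+ A

section general

variable {Γ' Γ : Subgroup SL(2, ℤ)} (A : Type*) [AddCommGroup A]

/-- restriction `Hom(Γ, A) → Hom(Γ', A)`. -/
def resS (h : Γ' ≤ Γ) : HomS Γ A →+ HomS Γ' A where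
  toFun φ := φ.comp (MonoidHom.toAdditive (Subgroup.inclusion h))
  map_zero' := rfl
  map_add' _ _ := rfl

@[simp] theorem resS_apply (h : Γ' ≤ Γ) (φ : HomS Γ A) (γ : Γ') :
    resS A h φ (Additive.ofMul γ) = φ (Additive.ofMul (Subgroup.inclusion h γ)) := rfl

/-- corestriction (transfer) `Hom(Γ', A) → Hom(Γ, A)`. -/
def coresS (h : Γ' ≤ Γ) [(Subgroup.inclusion h).range.FiniteIndex] : HomS Γ' A →+ HomS Γ A where
  toFun := S41.transferAlong A (Subgroup.inclusion h) (Subgroup.inclusion_injective h)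
  map_zero' := S41.transferAlong_zero A _ _
  map_add' := S41.transferAlong_add A _ _

/-- conjugation `γ ↦ g⁻¹ γ g` on a subgroup normalised by `g`. -/
def conjHom (g : SL(2, ℤ)) (hg : ∀ γ ∈ Γ, g⁻¹ * γ * g ∈ Γ) : Γ →* Γ where
  toFun γ := ⟨g⁻¹ * γ * g, hg γ γ.2⟩
  map_one' := by apply Subtype.ext; simp
  map_mul' a b := by apply Subtype.ext; simp [mul_assoc]

/-- the action of `g` (normalising `Γ`) on `Hom(Γ, A)`: `(g · φ)(γ) = φ(g⁻¹ γ g)`. -/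
def conjS (g : SL(2, ℤ)) (hg : ∀ γ ∈ Γ, g⁻¹ * γ * g ∈ Γ) : HomS Γ A →+ HomS Γ A where
  toFun φ := φ.comp (MonoidHom.toAdditive (conjHom g hg))
  map_zero' := rfl
  map_add' _ _ := rfl

@[simp] theorem conjS_apply (g : SL(2, ℤ)) (hg : ∀ γ ∈ Γ, g⁻¹ * γ * g ∈ Γ) (φ : HomS Γ A)
    (γ : Γ) : conjS A g hg φ (Additive.ofMul γ) = φ (Additive.ofMul (conjHom g hg γ)) := rfl

end general

section level

variable (L M ℓ : ℕ) (H : Subgroup (ZMod M)ˣ)

theorem gammaH_mul_le : gammaH (L * ℓ) M H ≤ gammaH L M H :=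
  Fermat.Agent.ES1.gammaH_mono_level (dvd_mul_right L ℓ) M H

/-- the inclusion `Γ_H(L ℓ) → Γ_H(L)`. -/
def inclH : gammaH (L * ℓ) M H →* gammaH L M H := Subgroup.inclusion (gammaH_mul_le L M ℓ H)

theorem inclH_injective : Function.Injective (inclH L M ℓ H) :=
  Subgroup.inclusion_injective _

theorem mem_gamma0_mul {γ : SL(2, ℤ)} (hγ : γ ∈ gammaH (L * ℓ) M H) : γ ∈ Gamma0 (L * ℓ) := hγ.1

theorem conjDSL_mem_gammaH [NeZero ℓ] (hML : M ∣ L) (γ : gammaH (L * ℓ) M H) :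
    S41.conjDSL L ℓ ⟨γ, γ.2.1⟩ ∈ gammaH L M H := by
  have h0 : S41.conjDSL L ℓ ⟨γ, γ.2.1⟩ ∈ Gamma0 L := S41.conjDSL_mem L ℓ ⟨γ, γ.2.1⟩
  have hM : S41.conjDSL L ℓ ⟨γ, γ.2.1⟩ ∈ Gamma0 M := by
    rw [Gamma0_mem, ZMod.intCast_zmod_eq_zero_iff_dvd]
    exact (Int.natCast_dvd_natCast.mpr hML).trans (S41.dvd_of_mem_Gamma0 h0)
  obtain ⟨hγM, hH⟩ := γ.2.2
  refine ⟨h0, hM, ?_⟩
  have : diamHom M ⟨S41.conjDSL L ℓ ⟨γ, γ.2.1⟩, hM⟩ = diamHom M ⟨γ, hγM⟩ := by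
    ext
    rw [Fermat.Agent.ES1.coe_diamHom, Fermat.Agent.ES1.coe_diamHom]
    rfl
  rw [this]; exact hH

/-- conjugation by `δ = diag(ℓ, 1)`: `Γ_H(L ℓ) → Γ_H(L)`, `[[a, b], [c, d]] ↦ [[a, ℓ b], [c / ℓ, d]]`. -/
def conjDH [NeZero ℓ] (hML : M ∣ L) : gammaH (L * ℓ) M H →* gammaH L M H where
  toFun γ := ⟨S41.conjDSL L ℓ ⟨γ, γ.2.1⟩, conjDSL_mem_gammaH L M ℓ H hML γ⟩
  map_one' := by
    apply Subtype.ext
    have := congrArg (fun x : Gamma0 L => (x : SL(2, ℤ))) (map_one (S41.conjD L ℓ))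
    exact this
  map_mul' a b := by
    apply Subtype.ext
    have := congrArg (fun x : Gamma0 L => (x : SL(2, ℤ)))
      (map_mul (S41.conjD L ℓ) ⟨a, a.2.1⟩ ⟨b, b.2.1⟩)
    exact this

theorem conjDH_coe [NeZero ℓ] (hML : M ∣ L) (γ : gammaH (L * ℓ) M H) :
    ((conjDH L M ℓ H hML γ : gammaH L M H) : SL(2, ℤ)) = S41.conjD L ℓ ⟨γ, γ.2.1⟩ := rfl

theorem conjDH_injective [NeZero ℓ] (hML : M ∣ L) : Function.Injective (conjDH L M ℓ H hML) := by
  intro a b h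
  have h1 : (S41.conjD L ℓ ⟨a, a.2.1⟩ : Gamma0 L) = S41.conjD L ℓ ⟨b, b.2.1⟩ := by
    apply Subtype.ext
    have := congrArg (fun x : gammaH L M H => (x : SL(2, ℤ))) h
    exact this
  have h2 := S41.conjD_injective L ℓ h1
  apply Subtype.ext
  exact congrArg (fun x : Gamma0 (L * ℓ) => (x : SL(2, ℤ))) h2

end level

end Fermat.Agent.RT.K5

namespace Fermat.Agent.RT.K5

open CongruenceSubgroup Matrix
open scoped MatrixGroups
open Fermat.Agent.ES1 (gammaH diamHom pmH)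

section finiteIndex

variable (L M ℓ : ℕ) (H : Subgroup (ZMod M)ˣ)

theorem Gamma_le_gammaH (hML : M ∣ L) : Gamma L ≤ gammaH L M H := by
  intro γ hγ
  have hγ' := Gamma_mem.mp hγ
  have h0 : γ ∈ Gamma0 L := Gamma0_mem.mpr hγ'.2.2.1
  have hM : γ ∈ Gamma0 M := by
    rw [Gamma0_mem, ZMod.intCast_zmod_eq_zero_iff_dvd]
    exact (Int.natCast_dvd_natCast.mpr hML).trans (S41.dvd_of_mem_Gamma0 h0)
  refine ⟨h0, hM, ?_⟩
  have h1 : diamHom M ⟨γ, hM⟩ = 1 := by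
    ext
    rw [Fermat.Agent.ES1.coe_diamHom]
    have h00 : (((γ 0 0 : ℤ) : ZMod L)) = 1 := hγ'.1
    have h2 : (L : ℤ) ∣ γ 0 0 - 1 := by
      rw [← ZMod.intCast_zmod_eq_zero_iff_dvd]; push_cast; rw [h00]; ring
    have h3 : (M : ℤ) ∣ γ 0 0 - 1 := (Int.natCast_dvd_natCast.mpr hML).trans h2
    have h4 : (((γ 0 0 - 1 : ℤ)) : ZMod M) = 0 := (ZMod.intCast_zmod_eq_zero_iff_dvd _ _).mpr h3
    push_cast at h4
    simpa [sub_eq_zero] using h4
  rw [h1]; exact one_mem _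

instance gammaH_finiteIndex [NeZero L] [Fact (M ∣ L)] : (gammaH L M H).FiniteIndex :=
  Subgroup.finiteIndex_of_le (Gamma_le_gammaH L M H Fact.out)

instance inclH_range_finiteIndex [NeZero L] [NeZero ℓ] [Fact (M ∣ L)] :
    (inclH L M ℓ H).range.FiniteIndex := by
  haveI : Fact (M ∣ L * ℓ) := ⟨(Fact.out : M ∣ L).trans (dvd_mul_right L ℓ)⟩
  rw [inclH, Subgroup.inclusion_range]
  infer_instance

instance inclusion_range_finiteIndex [NeZero L] [Fact (M ∣ L)] {H' H : Subgroup (ZMod M)ˣ}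
    (h : gammaH L M H' ≤ gammaH L M H) : (Subgroup.inclusion h).range.FiniteIndex := by
  rw [Subgroup.inclusion_range]
  infer_instance

/-- `Γ(L ℓ) ∩ Γ_H(L)` is contained in the image of `conjDH`. -/
theorem Gamma_subgroupOf_le_conjDH_range [NeZero L] [NeZero ℓ] (hML : M ∣ L) :
    (Gamma (L * ℓ)).subgroupOf (gammaH L M H) ≤ (conjDH L M ℓ H hML).range := by
  intro γ hγ
  rw [Subgroup.mem_subgroupOf] at hγ
  -- use the `Γ₀`-statement of S41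
  have h0 : (γ : SL(2, ℤ)) ∈ Gamma0 L := γ.2.1
  have h1 : (⟨(γ : SL(2, ℤ)), h0⟩ : Gamma0 L) ∈ (Gamma (L * ℓ)).subgroupOf (Gamma0 L) := by
    rw [Subgroup.mem_subgroupOf]; exact hγ
  obtain ⟨g, hg⟩ := S41.Gamma_subgroupOf_le_conjD_range L ℓ h1
  have hgM : (g : SL(2, ℤ)) ∈ Gamma0 M := by
    rw [Gamma0_mem, ZMod.intCast_zmod_eq_zero_iff_dvd]
    exact (Int.natCast_dvd_natCast.mpr (hML.trans (dvd_mul_right L ℓ))).trans
      (S41.dvd_of_mem_Gamma0 g.2)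
  have hentry : ((g : SL(2, ℤ)) 0 0 : ℤ) = (γ : SL(2, ℤ)) 0 0 := by
    have := congrArg (fun x : Gamma0 L => ((x : SL(2, ℤ)) : Matrix (Fin 2) (Fin 2) ℤ) 0 0) hg
    simpa [S41.conjD_coe, S41.conjDMat] using this
  obtain ⟨hγM, hH⟩ := γ.2.2
  have hgH : (g : SL(2, ℤ)) ∈ gammaH (L * ℓ) M H := by
    refine ⟨g.2, hgM, ?_⟩
    have : diamHom M ⟨(g : SL(2, ℤ)), hgM⟩ = diamHom M ⟨(γ : SL(2, ℤ)), hγM⟩ := by
      ext
      rw [Fermat.Agent.ES1.coe_diamHom, Fermat.Agent.ES1.coe_diamHom]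
      exact congrArg _ hentry
    rw [this]; exact hH
  refine ⟨⟨(g : SL(2, ℤ)), hgH⟩, ?_⟩
  apply Subtype.ext
  rw [conjDH_coe]
  exact congrArg (fun x : Gamma0 L => (x : SL(2, ℤ))) hg

instance conjDH_range_finiteIndex [NeZero L] [NeZero ℓ] [hML : Fact (M ∣ L)] :
    (conjDH L M ℓ H hML.out).range.FiniteIndex := by
  haveI : NeZero (L * ℓ) := inferInstance
  haveI : ((Gamma (L * ℓ)).subgroupOf (gammaH L M H)).FiniteIndex := inferInstance
  exact Subgroup.finiteIndex_of_le (Gamma_subgroupOf_le_conjDH_range L M ℓ H hML.out)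

end finiteIndex

section hecke

variable (L M ℓ : ℕ) [NeZero L] [NeZero ℓ] [hML : Fact (M ∣ L)] (H : Subgroup (ZMod M)ˣ)
  (A : Type*) [AddCommGroup A]

/-- restriction along the inclusion `Γ_H(L ℓ) ≤ Γ_H(L)`. -/
def resH : HomS (gammaH L M H) A →+ HomS (gammaH (L * ℓ) M H) A :=
  resS A (gammaH_mul_le L M ℓ H)

/-- restriction along `γ ↦ δ γ δ⁻¹`. -/
def resDH : HomS (gammaH L M H) A →+ HomS (gammaH (L * ℓ) M H) A where
  toFun φ := φ.comp (MonoidHom.toAdditive (conjDH L M ℓ H hML.out))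
  map_zero' := rfl
  map_add' _ _ := rfl

/-- corestriction along the inclusion `Γ_H(L ℓ) ≤ Γ_H(L)`. -/
def coresH : HomS (gammaH (L * ℓ) M H) A →+ HomS (gammaH L M H) A where
  toFun := S41.transferAlong A (inclH L M ℓ H) (inclH_injective L M ℓ H)
  map_zero' := S41.transferAlong_zero A _ _
  map_add' := S41.transferAlong_add A _ _

/-- corestriction along `γ ↦ δ γ δ⁻¹`. -/
def coresDH : HomS (gammaH (L * ℓ) M H) A →+ HomS (gammaH L M H) A where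
  toFun := S41.transferAlong A (conjDH L M ℓ H hML.out) (conjDH_injective L M ℓ H hML.out)
  map_zero' := S41.transferAlong_zero A _ _
  map_add' := S41.transferAlong_add A _ _

/-- **The Hecke operator `T_ℓ`** on `Hom(Γ_H(L), A)`, `ℓ` prime, `ℓ ∤ L`: `cores_δ ∘ res`.
For `H = ⊤` (i.e. `Γ₀(L)`) this is `S41.Tc ℓ` (`S41.stmtC2`). -/
def tS : HomS (gammaH L M H) A →+ HomS (gammaH L M H) A :=
  (coresDH L M ℓ H A).comp (resH L M ℓ H A)

end hecke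

end Fermat.Agent.RT.K5

end
end ZBES1_001_1

/-! ### bundled: `Fermat.Agent.RT.K5.Plan` -/
section ZBES1_001_2

/-!
# K-machine, piece K5 (automorphic modules): interface — one `Prop` per piece

Sub-captain helper7, `NOTES/RT-K5.md`.  A piece is DONE when `theorem stmt… : Stmt…` is landed
(sorry-free, std axioms) in its own file `Fermat/Agent/RT/K5/<Name>.lean`, names prefixed `k5<x>_`.

`Γ = gammaH L M H ⊇ Γ' = gammaH L M H'` (`H' ≤ H ≤ (ℤ/M)ˣ`, `M ∣ L`), `Δ = Γ/Γ' = ±H/±H'`.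
`tS L M ℓ H A` is the Hecke operator `T_ℓ` on `Hom(Γ, A)`.

GOAL (`StmtFree`): for `η = T_ℓ₀ − (ℓ₀ + 1)` and `𝔽` a finite field of characteristic `p` (odd),
the `η`-bijective part `W'` of `Hom(Γ', 𝔽)` has dimension `[Γ : Γ'] · dim W` and `res : W ≅ (W')^Δ`
when `[Γ : Γ']` is a power of `p`.  (Then `W'` is free over `𝔽[Δ]` by `StmtAlgFree`, every Hecke
direct summand of it is free, and a finite free `𝒪`-module with free reduction is free: `StmtAlgLift`.)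
-/

set_option autoImplicit false

noncomputable section

namespace Fermat.Agent.RT.K5

open CongruenceSubgroup Matrix
open scoped MatrixGroups
open Fermat.Agent.ES1 (gammaH diamHom pmH)

/-! ## diamond (conjugation) action -/

theorem normalizes_gammaH {L M : ℕ} {H : Subgroup (ZMod M)ˣ} {g : SL(2, ℤ)}
    (hgL : g ∈ Gamma0 L) (hgM : g ∈ Gamma0 M) :
    ∀ γ ∈ gammaH L M H, g⁻¹ * γ * g ∈ gammaH L M H := fun γ hγ => by
  simpa using Fermat.Agent.ES1.conj_mem_gammaH (inv_mem hgL) (inv_mem hgM) hγ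

/-- the action of `g ∈ Γ₀(L) ∩ Γ₀(M)` on `Hom(Γ_H, A)`: `(g · φ)(γ) = φ(g⁻¹ γ g)`. -/
def diamS {L M : ℕ} (H : Subgroup (ZMod M)ˣ) (A : Type*) [AddCommGroup A] (g : SL(2, ℤ))
    (hgL : g ∈ Gamma0 L) (hgM : g ∈ Gamma0 M) :
    HomS (gammaH L M H) A →+ HomS (gammaH L M H) A :=
  conjS A g (normalizes_gammaH hgL hgM)

/-- `φ` is invariant under conjugation by `Γ = gammaH L M H` -/
def IsInv {L M : ℕ} (H' H : Subgroup (ZMod M)ˣ) {A : Type*} [AddCommGroup A]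
    (ψ : HomS (gammaH L M H') A) : Prop :=
  ∀ (g : SL(2, ℤ)) (hg : g ∈ gammaH L M H), diamS H' A g hg.1 hg.2.1 ψ = ψ

/-- the `η`-bijective part: `⋂ₙ ηⁿ V` -/
def etaPart {V : Type*} [AddCommGroup V] (η : V →+ V) : AddSubgroup V :=
  ⨅ n : ℕ, AddMonoidHom.range (((show AddMonoid.End V from η) ^ n : AddMonoid.End V) : V →+ V)

/-- `η = T_ℓ − (ℓ + 1)` on `Hom(Γ_H(L), A)` -/
def etaS (L M ℓ : ℕ) [NeZero L] [NeZero ℓ] [Fact (M ∣ L)] (H : Subgroup (ZMod M)ˣ)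
    (A : Type*) [AddCommGroup A] : HomS (gammaH L M H) A →+ HomS (gammaH L M H) A :=
  tS L M ℓ H A - (ℓ + 1) • AddMonoidHom.id _

/-! ## K5-IDX, K5-C, K5-RC : formal properties of `T_ℓ`, `res`, `cores` -/

/-- **K5-IDX** `cores_δ ∘ res_δ = ℓ + 1 = cores ∘ res`. -/
def StmtIdx : Prop :=
  ∀ (L M ℓ : ℕ) [NeZero L] [NeZero ℓ] [Fact (M ∣ L)] (H : Subgroup (ZMod M)ˣ)
    (A : Type) [AddCommGroup A], ℓ.Prime → ¬ ℓ ∣ L →
    ∀ φ : HomS (gammaH L M H) A,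
      coresDH L M ℓ H A (resDH L M ℓ H A φ) = (ℓ + 1) • φ ∧
      coresH L M ℓ H A (resH L M ℓ H A φ) = (ℓ + 1) • φ

/-- **K5-TOP** for `H = ⊤` the operator `tS` is `S41.Tc` (so everything known at level `Γ₀(L)`
applies): under the identification `gammaH L M ⊤ = Γ₀(L)`. -/
def StmtTop : Prop :=
  ∀ (L M ℓ : ℕ) [NeZero L] [NeZero ℓ] [Fact (M ∣ L)] [Fact ℓ.Prime] (hℓ : ¬ ℓ ∣ L)
    (A : Type) [AddCommGroup A]
    (e : gammaH L M (⊤ : Subgroup (ZMod M)ˣ) ≃* Gamma0 L),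
    (∀ γ, ((e γ : Gamma0 L) : SL(2, ℤ)) = γ) →
    ∀ φ : S41.HomG L A,
      tS L M ℓ ⊤ A (φ.comp (MonoidHom.toAdditive e.toMonoidHom)) =
        (S41.Tc ℓ hℓ φ).comp (MonoidHom.toAdditive e.toMonoidHom)

/-- **K5-C** `T_ℓ` commutes with `res`, `cores` (change of `H`) and with the diamond action. -/
def StmtComm : Prop :=
  ∀ (L M ℓ : ℕ) [NeZero L] [NeZero ℓ] [Fact (M ∣ L)] (H' H : Subgroup (ZMod M)ˣ) (hle : H' ≤ H)
    (A : Type) [AddCommGroup A], ℓ.Prime → ¬ ℓ ∣ L →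
    (∀ φ : HomS (gammaH L M H) A,
      resS A (Fermat.Agent.ES1.gammaH_mono hle) (tS L M ℓ H A φ) =
        tS L M ℓ H' A (resS A (Fermat.Agent.ES1.gammaH_mono hle) φ)) ∧
    (∀ ψ : HomS (gammaH L M H') A,
      coresS A (Fermat.Agent.ES1.gammaH_mono hle) (tS L M ℓ H' A ψ) =
        tS L M ℓ H A (coresS A (Fermat.Agent.ES1.gammaH_mono hle) ψ)) ∧
    (∀ (g : SL(2, ℤ)) (hgL : g ∈ Gamma0 L) (hgM : g ∈ Gamma0 M) (ψ : HomS (gammaH L M H') A),
      diamS H' A g hgL hgM (tS L M ℓ H' A ψ) = tS L M ℓ H' A (diamS H' A g hgL hgM ψ))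

/-- **K5-CC** the `T_ℓ` commute with each other. -/
def StmtCommT : Prop :=
  ∀ (L M ℓ ℓ' : ℕ) [NeZero L] [NeZero ℓ] [NeZero ℓ'] [Fact (M ∣ L)] (H : Subgroup (ZMod M)ˣ)
    (A : Type) [AddCommGroup A], ℓ.Prime → ℓ'.Prime → ¬ ℓ ∣ L → ¬ ℓ' ∣ L →
    ∀ φ : HomS (gammaH L M H) A,
      tS L M ℓ H A (tS L M ℓ' H A φ) = tS L M ℓ' H A (tS L M ℓ H A φ)

/-- **K5-RC** `res ∘ cores` is the norm: if `g₀` generates `Γ/Γ'` and has order `m` there, then
`res (cores ψ) = Σ_{i < m} g₀ⁱ · ψ`; and `cores ∘ res = m`. -/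
def StmtResCores : Prop :=
  ∀ (L M : ℕ) [NeZero L] [Fact (M ∣ L)] (H' H : Subgroup (ZMod M)ˣ) (hle : H' ≤ H)
    (A : Type) [AddCommGroup A] (m : ℕ) (g₀ : SL(2, ℤ)) (hg₀ : g₀ ∈ gammaH L M H),
    (∀ γ ∈ gammaH L M H, ∃ k : ℕ, γ * g₀ ^ k ∈ gammaH L M H') →
    (∀ k : ℤ, g₀ ^ k ∈ gammaH L M H' ↔ (m : ℤ) ∣ k) → 0 < m →
    (∀ ψ : HomS (gammaH L M H') A,
      resS A (Fermat.Agent.ES1.gammaH_mono hle) (coresS A (Fermat.Agent.ES1.gammaH_mono hle) ψ) =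
        ∑ i ∈ Finset.range m,
          (((show AddMonoid.End (HomS (gammaH L M H') A) from diamS H' A g₀ hg₀.1 hg₀.2.1) ^ i :
            AddMonoid.End (HomS (gammaH L M H') A)) : _ →+ _) ψ) ∧
    (∀ φ : HomS (gammaH L M H) A,
      coresS A (Fermat.Agent.ES1.gammaH_mono hle) (resS A (Fermat.Agent.ES1.gammaH_mono hle) φ) =
        m • φ)

/-! ## K5-E1, K5-E2 : kernel and cokernel of `res` into the invariants are Eisenstein -/

/-- **K5-E1** the kernel of `res` is killed by `T_ℓ − (ℓ + 1)`. -/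
def StmtE1 : Prop :=
  ∀ (L M ℓ : ℕ) [NeZero L] [NeZero ℓ] [Fact (M ∣ L)] (H' H : Subgroup (ZMod M)ˣ) (hle : H' ≤ H)
    (A : Type) [AddCommGroup A], ℓ.Prime → ¬ ℓ ∣ L →
    ∀ φ : HomS (gammaH L M H) A, resS A (Fermat.Agent.ES1.gammaH_mono hle) φ = 0 →
      tS L M ℓ H A φ = (ℓ + 1) • φ

/-- **K5-E2** (`Γ/Γ'` cyclic of order `m`, `m A = 0`): `T_ℓ − (ℓ + 1)` maps the `Γ`-invariants
of `Hom(Γ', A)` into the image of `res`.  (Transgression `τ(ψ) = ψ(g₀ᵐ)`: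
`τ(T_ℓ ψ) = (ℓ + 1) τ(ψ)`, and an invariant `ψ` with `τ(ψ) = 0` extends to `Γ`.) -/
def StmtE2 : Prop :=
  ∀ (L M ℓ : ℕ) [NeZero L] [NeZero ℓ] [Fact (M ∣ L)] (H' H : Subgroup (ZMod M)ˣ) (hle : H' ≤ H)
    (A : Type) [AddCommGroup A], ℓ.Prime → ¬ ℓ ∣ L →
    ∀ (m : ℕ) (g₀ : SL(2, ℤ)), g₀ ∈ gammaH L M H →
    (∀ γ ∈ gammaH L M H, ∃ k : ℕ, γ * g₀ ^ k ∈ gammaH L M H') →
    (∀ k : ℤ, g₀ ^ k ∈ gammaH L M H' ↔ (m : ℤ) ∣ k) → 0 < m →
    (∀ a : A, m • a = 0) →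
    ∀ ψ : HomS (gammaH L M H') A, IsInv H' H ψ →
      ∃ φ : HomS (gammaH L M H) A,
        resS A (Fermat.Agent.ES1.gammaH_mono hle) φ = tS L M ℓ H' A ψ - (ℓ + 1) • ψ

/-! ## K5-S, K5-L : `H²` vanishes (cocycle extension `S41.PD.stmtCocExt`) -/

/-- the torsion hypothesis: `A` has no 2-torsion, and either no 3-torsion or `Γ` has no element
of order 3 modulo `±1` (no conjugate of `U = S T` lies in `Γ`). -/
def NoTors (Γ : Subgroup SL(2, ℤ)) (A : Type*) [AddCommGroup A] : Prop :=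
  (∀ a : A, 2 • a = 0 → a = 0) ∧
    ((∀ a : A, 3 • a = 0 → a = 0) ∨ ∀ g : SL(2, ℤ), g⁻¹ * S41.PD.U * g ∉ Γ)

/-- **K5-S** `cores : Hom(Γ', A) → Hom(Γ, A)` is surjective. -/
def StmtCoresSurj : Prop :=
  ∀ (L M : ℕ) [NeZero L] [Fact (M ∣ L)] (H' H : Subgroup (ZMod M)ˣ) (hle : H' ≤ H)
    (A : Type) [AddCommGroup A], NoTors (gammaH L M H) A →
    ∀ φ : HomS (gammaH L M H) A,
      ∃ ψ : HomS (gammaH L M H') A, coresS A (Fermat.Agent.ES1.gammaH_mono hle) ψ = φ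

/-- **K5-L** homomorphisms lift along surjections of coefficient groups. -/
def StmtLift : Prop :=
  ∀ (L M : ℕ) [NeZero L] [Fact (M ∣ L)] (H : Subgroup (ZMod M)ˣ)
    (A B : Type) [AddCommGroup A] [AddCommGroup B] (f : A →+ B), Function.Surjective f →
    NoTors (gammaH L M H) B →
    ∀ φ : HomS (gammaH L M H) B, ∃ φ' : HomS (gammaH L M H) A, f.comp φ' = φ

/-! ## K5-A : algebra (Mathlib only) -/

/-- **K5-A1** a finite-dimensional representation `W` of a finite `p`-group `P` in characteristic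
`p` has `dim W ≤ |P| · dim W^P`, with equality iff `W` is free over `𝔽[P]`. -/
def StmtAlgFree : Prop :=
  ∀ (p : ℕ) [Fact p.Prime] (P : Type) [Group P] [Fintype P] (F : Type) [Field F] [CharP F p]
    (W : Type) [AddCommGroup W] [Module F W] [Module.Finite F W] (ρ : P →* (W →ₗ[F] W)),
    IsPGroup p P →
    Module.finrank F W ≤
      Fintype.card P * Module.finrank F ↥(⨅ g : P, LinearMap.ker (ρ g - 1)) ∧
    (Module.finrank F W =
        Fintype.card P * Module.finrank F ↥(⨅ g : P, LinearMap.ker (ρ g - 1)) →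
      ∃ (n : ℕ) (b : Fin n → W), Function.Bijective
        (fun c : Fin n × P → F => ∑ x : Fin n × P, c x • ρ x.2 (b x.1)))

/-- **K5-A2** (cyclic step) `δ` of order dividing `m = pᵏ` on a finite-dimensional `W` in
characteristic `p`: if every `δ`-invariant is a norm then `dim W = m · dim W^δ`.
(`N = (δ − 1)^(m−1)`; the dimensions of `ker (δ−1)^(j+1) / ker (δ−1)^j` decrease.) -/
def StmtAlgCyc : Prop :=
  ∀ (p : ℕ) [Fact p.Prime] (F : Type) [Field F] [CharP F p]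
    (W : Type) [AddCommGroup W] [Module F W] [Module.Finite F W]
    (δ : W →ₗ[F] W) (k : ℕ), δ ^ (p ^ k) = 1 →
    (∀ w : W, δ w = w → ∃ v : W, w = ∑ i ∈ Finset.range (p ^ k), (δ ^ i) v) →
    Module.finrank F W = p ^ k * Module.finrank F ↥(LinearMap.ker (δ - 1))

/-- **K5-A3** (Fitting) for an endomorphism `η` of a finite-dimensional `V`:
`V = etaPart ⊕ ⋃ ker ηⁿ`, `η` is bijective on the first summand. -/
def StmtAlgFitting : Prop :=
  ∀ (F : Type) [Field F] (V : Type) [AddCommGroup V] [Module F V] [Module.Finite F V]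
    (η : V →ₗ[F] V),
    (∀ v : V, ∃ w ∈ etaPart η.toAddMonoidHom, ∃ n : ℕ, (η ^ n) (v - w) = 0) ∧
    (∀ w ∈ etaPart η.toAddMonoidHom, η w = 0 → w = 0) ∧
    (∀ w ∈ etaPart η.toAddMonoidHom, ∃ w' ∈ etaPart η.toAddMonoidHom, η w' = w)

/-- **K5-A4** (lift to `𝒪`) a finitely generated torsion-free module over a discrete valuation
ring `𝒪` with an action of a finite `p`-group whose reduction is free over `𝔽[P]` is free over
`𝒪[P]`. -/
def StmtAlgLift : Prop :=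
  ∀ (𝒪 : Type) [CommRing 𝒪] [IsDomain 𝒪] [IsDiscreteValuationRing 𝒪]
    (P : Type) [Group P] [Fintype P]
    (W : Type) [AddCommGroup W] [Module 𝒪 W] [Module.Finite 𝒪 W] [Module.IsTorsionFree 𝒪 W]
    (ρ : P →* (W →ₗ[𝒪] W)) (n : ℕ) (b : Fin n → W),
    (∀ w : W, ∃ c : Fin n × P → 𝒪,
      w - ∑ x : Fin n × P, c x • ρ x.2 (b x.1) ∈
        (IsLocalRing.maximalIdeal 𝒪) • (⊤ : Submodule 𝒪 W)) →
    (∀ c : Fin n × P → 𝒪,
      ∑ x : Fin n × P, c x • ρ x.2 (b x.1) ∈ (IsLocalRing.maximalIdeal 𝒪) • (⊤ : Submodule 𝒪 W) →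
      ∀ x, c x ∈ IsLocalRing.maximalIdeal 𝒪) →
    Function.Bijective (fun c : Fin n × P → 𝒪 => ∑ x : Fin n × P, c x • ρ x.2 (b x.1))

/-! ## K5-G, K5-STEP, K5-FREE : assembly -/

/-- **K5-G** the diamond character `Γ₀(L) ∩ Γ₀(M) → (ℤ/M)ˣ` is onto (`M ∣ L`): every class is
the class of some `g ∈ Γ₀(L)`; moreover `g` can be taken `≡ 1 mod ℓ` for a given `ℓ` prime to
`L`. -/
def StmtGen : Prop :=
  ∀ (L M ℓ : ℕ) [NeZero L] [NeZero ℓ] [Fact (M ∣ L)], Nat.Coprime ℓ L → ∀ u : (ZMod M)ˣ,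
    ∃ (g : SL(2, ℤ)) (_ : g ∈ Gamma0 L) (hgM : g ∈ Gamma0 M),
      diamHom M ⟨g, hgM⟩ = u ∧ g ∈ Gamma ℓ

/-- **K5-STEP** (one cyclic step, `𝔽` of characteristic `p`, `[Γ : Γ'] = pᵏ`, `Γ/Γ'` generated
by `g₀`): with `W = etaPart (T_ℓ₀ − ℓ₀ − 1)` at both levels,
`res : W(Γ) → W(Γ')` is injective with image the `g₀`-invariants of `W(Γ')`, and every
invariant of `W(Γ')` is a norm `Σ_{i < pᵏ} g₀ⁱ · v` with `v ∈ W(Γ')`.
(From E1, E2, S, RC, C and Fitting.) -/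
def StmtStep : Prop :=
  ∀ (p : ℕ) [Fact p.Prime] (L M ℓ₀ : ℕ) [NeZero L] [NeZero ℓ₀] [Fact (M ∣ L)]
    (H' H : Subgroup (ZMod M)ˣ) (hle : H' ≤ H) (F : Type) [Field F] [CharP F p] [Finite F],
    p ≠ 2 → ℓ₀.Prime → ¬ ℓ₀ ∣ L → NoTors (gammaH L M H) F →
    ∀ (k : ℕ) (g₀ : SL(2, ℤ)) (hg₀ : g₀ ∈ gammaH L M H),
    (∀ γ ∈ gammaH L M H, ∃ j : ℕ, γ * g₀ ^ j ∈ gammaH L M H') →
    (∀ j : ℤ, g₀ ^ j ∈ gammaH L M H' ↔ ((p ^ k : ℕ) : ℤ) ∣ j) →
    (∀ φ ∈ etaPart (etaS L M ℓ₀ H F),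
        resS F (Fermat.Agent.ES1.gammaH_mono hle) φ ∈ etaPart (etaS L M ℓ₀ H' F) ∧
        (resS F (Fermat.Agent.ES1.gammaH_mono hle) φ = 0 → φ = 0)) ∧
    (∀ ψ ∈ etaPart (etaS L M ℓ₀ H' F), diamS H' F g₀ hg₀.1 hg₀.2.1 ψ = ψ →
        (∃ φ ∈ etaPart (etaS L M ℓ₀ H F), resS F (Fermat.Agent.ES1.gammaH_mono hle) φ = ψ) ∧
        ∃ v ∈ etaPart (etaS L M ℓ₀ H' F), ψ = ∑ i ∈ Finset.range (p ^ k),
          (((show AddMonoid.End (HomS (gammaH L M H') F) from diamS H' F g₀ hg₀.1 hg₀.2.1) ^ i :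
            AddMonoid.End (HomS (gammaH L M H') F)) : _ →+ _) v)

/-- **K5-FREE** (the goal, in cardinalities; `𝔽` finite of characteristic `p`, `±H/±H'` a
`p`-group of order `pᵏ`): `#W(Γ') = #W(Γ)^(pᵏ)`, and `res` identifies `W(Γ)` with the
`Γ`-invariants of `W(Γ')`.  With `StmtAlgFree` this says: `W(Γ')` is free over `𝔽[Γ/Γ']` of rank
`dim W(Γ)`. -/
def StmtFree : Prop :=
  ∀ (p : ℕ) [Fact p.Prime] (L M ℓ₀ : ℕ) [NeZero L] [NeZero ℓ₀] [Fact (M ∣ L)]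
    (H' H : Subgroup (ZMod M)ˣ) (hle : H' ≤ H) (F : Type) [Field F] [CharP F p] [Finite F],
    p ≠ 2 → ℓ₀.Prime → ¬ ℓ₀ ∣ L → NoTors (gammaH L M H) F →
    ∀ k : ℕ, ((pmH H').subgroupOf (pmH H)).index = p ^ k →
    Nat.card ↥(etaPart (etaS L M ℓ₀ H' F)) = Nat.card ↥(etaPart (etaS L M ℓ₀ H F)) ^ (p ^ k) ∧
    (∀ φ ∈ etaPart (etaS L M ℓ₀ H F),
        resS F (Fermat.Agent.ES1.gammaH_mono hle) φ ∈ etaPart (etaS L M ℓ₀ H' F) ∧
        (resS F (Fermat.Agent.ES1.gammaH_mono hle) φ = 0 → φ = 0)) ∧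
    (∀ ψ ∈ etaPart (etaS L M ℓ₀ H' F), IsInv H' H ψ →
        ∃ φ ∈ etaPart (etaS L M ℓ₀ H F), resS F (Fermat.Agent.ES1.gammaH_mono hle) φ = ψ)

end Fermat.Agent.RT.K5

end
end ZBES1_001_2

/-! ### bundled: `Fermat.Agent.RT.K5.AlgFitting` -/
section ZBES1_001_3

/-!
# K-machine, piece K5-A3: Fitting decomposition (`StmtAlgFitting`)

For an endomorphism `η` of a finite-dimensional vector space `V`: `V = etaPart η ⊕ ⋃ ker ηⁿ`
and `η` is bijective on `etaPart η = ⋂ ηⁿ V`.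
-/

set_option autoImplicit false

namespace Fermat.Agent.RT.K5

section

variable {F : Type*} [Field F] {V : Type*} [AddCommGroup V] [Module F V]

theorem k5a3_pow_apply (η : V →ₗ[F] V) (n : ℕ) (x : V) :
    (((show AddMonoid.End V from η.toAddMonoidHom) ^ n : AddMonoid.End V) : V →+ V) x =
      (η ^ n) x := by
  induction n generalizing x with
  | zero => rfl
  | succ n ih =>
    rw [pow_succ, pow_succ]
    exact ih (η x)

theorem k5a3_mem_etaPart (η : V →ₗ[F] V) (w : V) :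
    w ∈ etaPart η.toAddMonoidHom ↔ ∀ n : ℕ, ∃ u : V, (η ^ n) u = w := by
  unfold etaPart
  rw [AddSubgroup.mem_iInf]
  constructor
  · intro h n
    obtain ⟨u, hu⟩ := AddMonoidHom.mem_range.mp (h n)
    exact ⟨u, (k5a3_pow_apply η n u).symm.trans hu⟩
  · intro h n
    obtain ⟨u, hu⟩ := h n
    exact AddMonoidHom.mem_range.mpr ⟨u, (k5a3_pow_apply η n u).trans hu⟩

/-- For `n` large: `etaPart η = range (η ^ n)`, `ker (η ^ n)` and `range (η ^ n)` are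
complementary. -/
theorem k5a3_exists_stable [Module.Finite F V] (η : V →ₗ[F] V) :
    ∃ N : ℕ, ∀ n, N ≤ n →
      (∀ w : V, w ∈ etaPart η.toAddMonoidHom ↔ w ∈ LinearMap.range (η ^ n)) ∧
      IsCompl (LinearMap.ker (η ^ n)) (LinearMap.range (η ^ n)) := by
  have h1 := LinearMap.eventually_isCompl_ker_pow_range_pow η
  have h2 := LinearMap.eventually_iInf_range_pow_eq η
  obtain ⟨N, hN⟩ := Filter.eventually_atTop.mp (h1.and h2)
  refine ⟨N, fun n hn => ⟨fun w => ?_, (hN n hn).1⟩⟩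
  rw [← (hN n hn).2, Submodule.mem_iInf, k5a3_mem_etaPart]
  rfl

end

theorem stmtAlgFitting : StmtAlgFitting := by
  intro F _ V _ _ _ η
  obtain ⟨N, hN⟩ := k5a3_exists_stable η
  refine ⟨?_, ?_, ?_⟩
  · intro v
    obtain ⟨hmem, hcompl⟩ := hN N le_rfl
    have htop : v ∈ LinearMap.ker (η ^ N) ⊔ LinearMap.range (η ^ N) := by
      rw [hcompl.sup_eq_top]
      exact Submodule.mem_top
    obtain ⟨k, hk, w, hw, rfl⟩ := Submodule.mem_sup.mp htop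
    refine ⟨w, (hmem w).mpr hw, N, ?_⟩
    rw [add_sub_cancel_right]
    exact hk
  · intro w hw hηw
    obtain ⟨hmem, hcompl⟩ := hN (N + 1) (Nat.le_succ N)
    have h1 : w ∈ LinearMap.range (η ^ (N + 1)) := (hmem w).mp hw
    have h2 : w ∈ LinearMap.ker (η ^ (N + 1)) := by
      rw [LinearMap.mem_ker, pow_succ, Module.End.mul_apply, hηw, map_zero]
    have h3 : w ∈ LinearMap.ker (η ^ (N + 1)) ⊓ LinearMap.range (η ^ (N + 1)) := ⟨h2, h1⟩
    rw [hcompl.inf_eq_bot] at h3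
    exact (Submodule.mem_bot F).mp h3
  · intro w hw
    obtain ⟨hmem1, -⟩ := hN (N + 1) (Nat.le_succ N)
    obtain ⟨hmem0, -⟩ := hN N le_rfl
    obtain ⟨u, hu⟩ := (hmem1 w).mp hw
    refine ⟨(η ^ N) u, (hmem0 _).mpr ⟨u, rfl⟩, ?_⟩
    rw [← hu, pow_succ', Module.End.mul_apply]

end Fermat.Agent.RT.K5


end ZBES1_001_3

/-! ### bundled: `Fermat.Agent.RT.K5.StepAbs` -/
section ZBES1_001_4

/-!
# RT-K5, piece STEP (abstract part)

Fitting decomposition for an additive endomorphism of a finite `p`-torsion group, and the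
abstract form of the cyclic step: from the formal properties of `res`, `cores`, `η`
(`h1`–`h6` below) to `res : W ≅ (W')^δ` and "every invariant of `W'` is a norm".
-/

set_option autoImplicit false
set_option linter.style.haveILetI false
set_option linter.unusedSectionVars false
set_option linter.unusedVariables false

noncomputable section

namespace Fermat.Agent.RT.K5

section etaPart

variable {V V' : Type*} [AddCommGroup V] [AddCommGroup V']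

/-- `ηⁿ` as an additive map -/
def k5s_pow (η : V →+ V) (n : ℕ) : V →+ V :=
  (((show AddMonoid.End V from η) ^ n : AddMonoid.End V) : V →+ V)

theorem k5s_pow_zero (η : V →+ V) (x : V) : k5s_pow η 0 x = x := rfl

theorem k5s_pow_succ (η : V →+ V) (n : ℕ) (x : V) : k5s_pow η (n + 1) x = k5s_pow η n (η x) := by
  unfold k5s_pow
  rw [pow_succ]
  rfl

theorem k5s_pow_succ' (η : V →+ V) (n : ℕ) (x : V) :
    k5s_pow η (n + 1) x = η (k5s_pow η n x) := by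
  unfold k5s_pow
  rw [pow_succ']
  rfl

theorem k5s_mem_etaPart (η : V →+ V) (w : V) :
    w ∈ etaPart η ↔ ∀ n : ℕ, ∃ u : V, k5s_pow η n u = w := by
  unfold etaPart
  rw [AddSubgroup.mem_iInf]
  rfl

theorem k5s_etaPart_stable (η : V →+ V) {w : V} (hw : w ∈ etaPart η) : η w ∈ etaPart η := by
  rw [k5s_mem_etaPart] at hw ⊢
  intro n
  obtain ⟨u, hu⟩ := hw n
  exact ⟨η u, by rw [← k5s_pow_succ, k5s_pow_succ', hu]⟩

theorem k5s_pow_mem_etaPart (η : V →+ V) {w : V} (hw : w ∈ etaPart η) (n : ℕ) :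
    k5s_pow η n w ∈ etaPart η := by
  induction n with
  | zero => exact hw
  | succ n ih => rw [k5s_pow_succ']; exact k5s_etaPart_stable η ih

/-- an intertwiner maps `etaPart` to `etaPart` -/
theorem k5s_intertwine_pow (η : V →+ V) (η' : V' →+ V') (f : V →+ V')
    (h : ∀ x, f (η x) = η' (f x)) (n : ℕ) (x : V) : f (k5s_pow η n x) = k5s_pow η' n (f x) := by
  induction n generalizing x with
  | zero => rfl
  | succ n ih => rw [k5s_pow_succ, ih, h, ← k5s_pow_succ]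

theorem k5s_intertwine_mem (η : V →+ V) (η' : V' →+ V') (f : V →+ V')
    (h : ∀ x, f (η x) = η' (f x)) {w : V} (hw : w ∈ etaPart η) : f w ∈ etaPart η' := by
  rw [k5s_mem_etaPart] at hw ⊢
  intro n
  obtain ⟨u, hu⟩ := hw n
  exact ⟨f u, by rw [← k5s_intertwine_pow η η' f h, hu]⟩

theorem k5s_pow_injOn (η : V →+ V) (hinj : ∀ w ∈ etaPart η, η w = 0 → w = 0) (n : ℕ)
    {w : V} (hw : w ∈ etaPart η) (h0 : k5s_pow η n w = 0) : w = 0 := by
  induction n generalizing w with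
  | zero => exact h0
  | succ n ih =>
    rw [k5s_pow_succ] at h0
    exact hinj w hw (ih (k5s_etaPart_stable η hw) h0)

end etaPart

/-- **Fitting** for an additive endomorphism of a finite `p`-torsion group. -/
theorem k5s_fitting (p : ℕ) [Fact p.Prime] {V : Type} [AddCommGroup V] [Finite V]
    (hp : ∀ v : V, p • v = 0) (η : V →+ V) :
    (∀ v : V, ∃ w ∈ etaPart η, ∃ n : ℕ, k5s_pow η n (v - w) = 0) ∧
    (∀ w ∈ etaPart η, η w = 0 → w = 0) ∧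
    (∀ w ∈ etaPart η, ∃ w' ∈ etaPart η, η w' = w) := by
  letI inst1 : Module (ZMod p) V := AddCommGroup.zmodModule hp
  haveI inst2 : Module.Finite (ZMod p) V := Module.Finite.of_finite
  have key := stmtAlgFitting
  unfold StmtAlgFitting at key
  obtain ⟨h1, h2, h3⟩ := @key (ZMod p) _ V _ inst1 inst2 (η.toZModLinearMap p)
  refine ⟨?_, h2, h3⟩
  intro v
  obtain ⟨w, hw, n, hn⟩ := h1 v
  refine ⟨w, hw, n, ?_⟩
  rw [← hn]
  exact k5a3_pow_apply (η.toZModLinearMap p) n (v - w)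

/-- **The cyclic step, abstractly.** -/
theorem k5s_step_abs (p : ℕ) [Fact p.Prime] {V V' : Type} [AddCommGroup V] [AddCommGroup V']
    [Finite V] [Finite V'] (hpV : ∀ v : V, p • v = 0) (hpV' : ∀ v : V', p • v = 0)
    (η : V →+ V) (η' : V' →+ V') (res : V →+ V') (cores : V' →+ V) (δ Nm : V' →+ V')
    (h1 : ∀ φ, res (η φ) = η' (res φ))
    (h2 : ∀ ψ, cores (η' ψ) = η (cores ψ))
    (h3 : ∀ φ, res φ = 0 → η φ = 0)
    (h4 : ∀ ψ, δ ψ = ψ → ∃ φ, res φ = η' ψ)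
    (h5 : Function.Surjective cores)
    (h6 : ∀ ψ, res (cores ψ) = Nm ψ) :
    (∀ φ ∈ etaPart η, res φ ∈ etaPart η' ∧ (res φ = 0 → φ = 0)) ∧
    (∀ ψ ∈ etaPart η', δ ψ = ψ →
      (∃ φ ∈ etaPart η, res φ = ψ) ∧ ∃ v ∈ etaPart η', ψ = Nm v) := by
  obtain ⟨f1, f2, f3⟩ := k5s_fitting p hpV η
  obtain ⟨f1', f2', f3'⟩ := k5s_fitting p hpV' η'
  have hb1 : ∀ ψ ∈ etaPart η', δ ψ = ψ → ∃ φ ∈ etaPart η, res φ = ψ := by
    intro ψ hψ hδ
    obtain ⟨φ₀, hφ₀⟩ := h4 ψ hδ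
    obtain ⟨w, hw, n, hn⟩ := f1 φ₀
    have hresw : res w ∈ etaPart η' := k5s_intertwine_mem η η' res h1 hw
    have hηψ : η' ψ ∈ etaPart η' := k5s_etaPart_stable η' hψ
    have hdiff : η' ψ - res w ∈ etaPart η' := (etaPart η').sub_mem hηψ hresw
    have hkill : k5s_pow η' n (η' ψ - res w) = 0 := by
      rw [← hφ₀, ← map_sub, ← k5s_intertwine_pow η η' res h1, hn, map_zero]
    have h0 := k5s_pow_injOn η' f2' n hdiff hkill
    obtain ⟨w', hw', hηw'⟩ := f3 w hw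
    refine ⟨w', hw', ?_⟩
    have hresw' : res w' ∈ etaPart η' := k5s_intertwine_mem η η' res h1 hw'
    have h7 : η' (res w' - ψ) = 0 := by
      rw [map_sub, ← h1, hηw']
      rw [sub_eq_zero] at h0 ⊢
      exact h0.symm
    have h8 := f2' _ ((etaPart η').sub_mem hresw' hψ) h7
    exact sub_eq_zero.mp h8
  refine ⟨fun φ hφ => ⟨k5s_intertwine_mem η η' res h1 hφ, fun h0 => f2 φ hφ (h3 φ h0)⟩, ?_⟩
  intro ψ hψ hδ
  obtain ⟨φ, hφ, hφψ⟩ := hb1 ψ hψ hδ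
  refine ⟨⟨φ, hφ, hφψ⟩, ?_⟩
  obtain ⟨v₀, hv₀⟩ := h5 φ
  obtain ⟨v, hv, n, hn⟩ := f1' v₀
  refine ⟨v, hv, ?_⟩
  have hcv : cores v ∈ etaPart η := k5s_intertwine_mem η' η cores h2 hv
  have hdiff : φ - cores v ∈ etaPart η := (etaPart η).sub_mem hφ hcv
  have hkill : k5s_pow η n (φ - cores v) = 0 := by
    rw [← hv₀, ← map_sub, ← k5s_intertwine_pow η' η cores h2, hn, map_zero]
  have h0 := k5s_pow_injOn η f2 n hdiff hkill
  rw [← hφψ, sub_eq_zero.mp h0, h6]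

end Fermat.Agent.RT.K5

end
end ZBES1_001_4

/-! ### bundled: `Fermat.Agent.RT.K5.Gen` -/
section ZBES1_001_5

/-!
# K-machine, piece K5-G (helper40): the diamond character is onto, with `g ≡ 1 mod ℓ`

`stmtGen : StmtGen`: for `M ∣ L`, `ℓ` prime to `L` and `u ∈ (ℤ/M)ˣ` there is
`g = [[a, ℓ t], [L ℓ, d]] ∈ Γ₀(L) ∩ Γ₀(M) ∩ Γ(ℓ)` with `a ≡ u mod M`
(`a ≡ ũ mod L`, `a ≡ 1 mod ℓ²` by the Chinese remainder theorem, `a d − ℓ² L t = 1` by Bézout).
-/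

set_option autoImplicit false

noncomputable section

namespace Fermat.Agent.RT.K5

open CongruenceSubgroup Matrix
open scoped MatrixGroups
open Fermat.Agent.ES1 (gammaH diamHom pmH)

/-- the arithmetic core: `a ≡ ũ mod L`, `a ≡ 1 mod ℓ²`, `a d + y L ℓ² = 1` -/
theorem k5g_exists_entries {L ℓ : ℕ} [NeZero L] (hcop : Nat.Coprime ℓ L) (ũ : (ZMod L)ˣ) :
    ∃ (a : ℕ) (d y : ℤ), ((a : ℕ) : ZMod L) = (ũ : ZMod L) ∧ a ≡ 1 [MOD ℓ ^ 2] ∧
      (a : ℤ) * d + y * ((L : ℤ) * (ℓ : ℤ) ^ 2) = 1 := by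
  have hcop2 : Nat.Coprime L (ℓ ^ 2) := (Nat.Coprime.pow_left 2 hcop).symm
  obtain ⟨a, ha1, ha2⟩ := Nat.chineseRemainder hcop2 (ũ : ZMod L).val 1
  have hunit : Nat.Coprime (ũ : ZMod L).val L := ZMod.val_coe_unit_coprime ũ
  have haL : Nat.Coprime a L := by
    have h1 : Nat.gcd a L = Nat.gcd (ũ : ZMod L).val L := Nat.ModEq.gcd_eq ha1
    rw [Nat.Coprime, h1]
    exact hunit
  have haℓ : Nat.Coprime a (ℓ ^ 2) := by
    have h1 : Nat.gcd a (ℓ ^ 2) = Nat.gcd 1 (ℓ ^ 2) := Nat.ModEq.gcd_eq ha2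
    rw [Nat.Coprime, h1]
    exact Nat.gcd_one_left _
  have hco : Nat.Coprime a (L * ℓ ^ 2) := Nat.Coprime.mul_right haL haℓ
  obtain ⟨x, y, hxy⟩ := Nat.Coprime.isCoprime hco
  refine ⟨a, x, y, ?_, ha2, ?_⟩
  · have h1 : ((a : ℕ) : ZMod L) = (((ũ : ZMod L).val : ℕ) : ZMod L) :=
      (ZMod.natCast_eq_natCast_iff a _ L).mpr ha1
    rw [h1, ZMod.natCast_zmod_val]
  · push_cast at hxy
    linear_combination hxy

theorem stmtGen : StmtGen := by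
  intro L M ℓ _ _ hML hcop u
  have hML' : M ∣ L := hML.out
  obtain ⟨ũ, hũ⟩ := ZMod.unitsMap_surjective hML' u
  obtain ⟨a, d, y, haL, haℓ, hdet⟩ := k5g_exists_entries hcop ũ
  have hdet' : (!![(a : ℤ), -((ℓ : ℤ) * y); (L : ℤ) * (ℓ : ℤ), d]).det = 1 := by
    rw [Matrix.det_fin_two_of]
    linear_combination hdet
  obtain ⟨g, hg⟩ : ∃ g : SL(2, ℤ), (g : Matrix (Fin 2) (Fin 2) ℤ) =
      !![(a : ℤ), -((ℓ : ℤ) * y); (L : ℤ) * (ℓ : ℤ), d] := ⟨⟨_, hdet'⟩, rfl⟩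
  have h00 : g 0 0 = (a : ℤ) := by
    have := congrFun (congrFun hg 0) 0
    simpa using this
  have h01 : g 0 1 = -((ℓ : ℤ) * y) := by
    have := congrFun (congrFun hg 0) 1
    simpa using this
  have h10 : g 1 0 = (L : ℤ) * (ℓ : ℤ) := by
    have := congrFun (congrFun hg 1) 0
    simpa using this
  have h11 : g 1 1 = d := by
    have := congrFun (congrFun hg 1) 1
    simpa using this
  have hgL : g ∈ Gamma0 L := by
    rw [Gamma0_mem, h10]; simp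
  have hgM : g ∈ Gamma0 M := by
    rw [Gamma0_mem, ZMod.intCast_zmod_eq_zero_iff_dvd, h10]
    exact (Int.natCast_dvd_natCast.mpr hML').mul_right _
  refine ⟨g, hgL, hgM, ?_, ?_⟩
  · ext
    rw [Fermat.Agent.ES1.coe_diamHom, h00]
    have h1 : (u : ZMod M) = ZMod.castHom hML' (ZMod M) (ũ : ZMod L) := by
      rw [← hũ]; rfl
    rw [h1, ← haL]
    simp
  · -- `g ≡ 1 mod ℓ`
    have ha1 : ((a : ℤ) : ZMod ℓ) = 1 := by
      have h1 : a ≡ 1 [MOD ℓ] := haℓ.of_dvd (Dvd.intro_left (ℓ ^ 1) (by ring))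
      have h2 : ((a : ℕ) : ZMod ℓ) = ((1 : ℕ) : ZMod ℓ) :=
        (ZMod.natCast_eq_natCast_iff a 1 ℓ).mpr h1
      push_cast at h2 ⊢
      exact h2
    have hd1 : ((d : ℤ) : ZMod ℓ) = 1 := by
      have h1 : ((((a : ℤ) * d + y * ((L : ℤ) * (ℓ : ℤ) ^ 2) : ℤ)) : ZMod ℓ) =
          ((1 : ℤ) : ZMod ℓ) := by rw [hdet]
      have ha1' : ((a : ℕ) : ZMod ℓ) = 1 := by
        have := ha1
        push_cast at this
        exact this
      push_cast at h1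
      rw [ha1'] at h1
      simpa using h1
    rw [Gamma_mem]
    refine ⟨?_, ?_, ?_, ?_⟩
    · show ((g 0 0 : ℤ) : ZMod ℓ) = 1
      rw [h00]; exact ha1
    · show ((g 0 1 : ℤ) : ZMod ℓ) = 0
      rw [h01]; simp
    · show ((g 1 0 : ℤ) : ZMod ℓ) = 0
      rw [h10]; simp
    · show ((g 1 1 : ℤ) : ZMod ℓ) = 1
      rw [h11]; exact hd1

end Fermat.Agent.RT.K5

end
end ZBES1_001_5

/-! ### bundled: `Fermat.Agent.RT.K5.ResCores` -/
section ZBES1_001_6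
/-
RT-K5, piece K5-RC (helper22): `res ∘ cores` is the norm and `cores ∘ res` is the index, for
`Γ' = gammaH L M H' ≤ Γ = gammaH L M H` with `Γ/Γ'` cyclic of order `m` generated by `g₀`.

Abstract part: `f : H →* G` injective with normal range of finite index, `G/f(H)` generated by the
class of `g₀` of order `m`:
* `k5rc_index`     : `[G : f(H)] = m`;
* `k5rc_transfer`  : `transfer ψ (f h) = Σ_{i < m} ψ(g₀⁻ⁱ h g₀ⁱ)`.
-/

set_option autoImplicit false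
set_option linter.unusedSectionVars false
set_option linter.unusedVariables false
set_option linter.style.haveILetI false

noncomputable section

namespace Fermat.Agent.RT.K5

open CongruenceSubgroup Matrix
open scoped MatrixGroups
open Fermat.Agent.ES1 (gammaH diamHom pmH)
open Fermat.Agent.S41 (transferAlong tRep tCoc f_tCoc tRep_mk transferAlong_eq_sum
  transferAlong_comp)

section abstract

variable {G H : Type*} [Group G] [Group H] (f : H →* G) (hf : Function.Injective f)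

theorem k5rc_conj_mem [hn : f.range.Normal] (x : G) (h : H) : x⁻¹ * f h * x ∈ f.range := by
  have := hn.conj_mem (f h) ⟨h, rfl⟩ x⁻¹
  simpa using this

/-- conjugation `h ↦ x⁻¹ h x` on `H` (the range of `f` being normal) -/
def k5rc_conj [f.range.Normal] (x : G) (h : H) : H :=
  (MonoidHom.ofInjective hf).symm ⟨x⁻¹ * f h * x, k5rc_conj_mem f x h⟩

theorem k5rc_f_conj [f.range.Normal] (x : G) (h : H) :
    f (k5rc_conj f hf x h) = x⁻¹ * f h * x := by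
  have h1 := (MonoidHom.ofInjective hf).apply_symm_apply ⟨x⁻¹ * f h * x, k5rc_conj_mem f x h⟩
  exact congrArg Subtype.val h1

/-- the value of `ψ` on a conjugate depends only on the coset of the conjugating element -/
theorem k5rc_conj_coset [f.range.Normal] {A : Type*} [AddCommGroup A] (ψ : Additive H →+ A)
    (x y : G) (hxy : x⁻¹ * y ∈ f.range) (h : H) :
    ψ (Additive.ofMul (k5rc_conj f hf y h)) = ψ (Additive.ofMul (k5rc_conj f hf x h)) := by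
  obtain ⟨n, hn⟩ := hxy
  have h1 : k5rc_conj f hf y h = n⁻¹ * k5rc_conj f hf x h * n := by
    apply hf
    rw [map_mul, map_mul, map_inv, k5rc_f_conj, k5rc_f_conj, hn]
    group
  rw [h1, ofMul_mul, ofMul_mul, ofMul_inv, map_add, map_add, map_neg]
  abel

theorem k5rc_smul_eq [hn : f.range.Normal] (h : H) (q : G ⧸ f.range) : (f h)⁻¹ • q = q := by
  induction q using QuotientGroup.induction_on with
  | H t =>
    show (QuotientGroup.mk ((f h)⁻¹ * t) : G ⧸ f.range) = QuotientGroup.mk t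
    rw [QuotientGroup.eq]
    have : ((f h)⁻¹ * t)⁻¹ * t = t⁻¹ * f h * t := by group
    rw [this]
    exact k5rc_conj_mem f t h

theorem k5rc_tCoc [f.range.Normal] (h : H) (q : G ⧸ f.range) :
    tCoc f hf q (f h) = k5rc_conj f hf (tRep f q) h := by
  apply hf
  rw [f_tCoc, k5rc_f_conj, k5rc_smul_eq]

variable (g₀ : G) (m : ℕ)

theorem k5rc_mk_inj [f.range.Normal]
    (hm : ∀ k : ℤ, g₀ ^ k ∈ f.range ↔ (m : ℤ) ∣ k) {i j : ℕ} (hi : i < m) (hj : j < m)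
    (hij : (QuotientGroup.mk (g₀ ^ i) : G ⧸ f.range) = QuotientGroup.mk (g₀ ^ j)) : i = j := by
  rw [QuotientGroup.eq] at hij
  have h1 : (g₀ ^ i)⁻¹ * g₀ ^ j = g₀ ^ ((j : ℤ) - i) := by
    rw [_root_.zpow_sub, zpow_natCast, zpow_natCast]
    exact (Commute.pow_pow_self g₀ j i).inv_right.eq.symm
  rw [h1, hm] at hij
  obtain ⟨c, hc⟩ := hij
  have hc0 : c = 0 := by
    by_contra hne
    rcases lt_or_gt_of_ne hne with h | h
    · have : (m : ℤ) * c ≤ (m : ℤ) * (-1) := by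
        apply mul_le_mul_of_nonneg_left _ (by positivity)
        omega
      omega
    · have : (m : ℤ) * 1 ≤ (m : ℤ) * c := by
        apply mul_le_mul_of_nonneg_left _ (by positivity)
        omega
      omega
  rw [hc0, mul_zero] at hc
  omega

theorem k5rc_mk_surj [hn : f.range.Normal]
    (hgen : ∀ g : G, ∃ k : ℕ, g * g₀ ^ k ∈ f.range)
    (hm : ∀ k : ℤ, g₀ ^ k ∈ f.range ↔ (m : ℤ) ∣ k) (hm0 : 0 < m) (q : G ⧸ f.range) :
    ∃ i : ℕ, i < m ∧ (QuotientGroup.mk (g₀ ^ i) : G ⧸ f.range) = q := by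
  induction q using QuotientGroup.induction_on with
  | H g =>
    obtain ⟨k, hk⟩ := hgen g
    -- `i = (-k) mod m`
    have hmpos : (0 : ℤ) < m := by exact_mod_cast hm0
    have hi0 : 0 ≤ (-(k : ℤ)) % m := Int.emod_nonneg _ hmpos.ne'
    have hi1 : (-(k : ℤ)) % m < m := Int.emod_lt_of_pos _ hmpos
    refine ⟨((-(k : ℤ)) % m).toNat, by omega, ?_⟩
    rw [QuotientGroup.eq]
    have hcast : (((-(k : ℤ)) % m).toNat : ℤ) = (-(k : ℤ)) % m := Int.toNat_of_nonneg hi0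
    have h1 : g₀ ^ ((-(k : ℤ)) % m).toNat = g₀ ^ ((-(k : ℤ)) % m) := by
      have h0 := (zpow_natCast g₀ ((-(k : ℤ)) % m).toNat).symm
      rw [hcast] at h0
      exact h0
    -- `(g₀^i)⁻¹ g = g₀^{-i-k} · (g₀^k g)`
    have h2 : (g₀ ^ ((-(k : ℤ)) % m))⁻¹ * g
        = g₀ ^ (-((-(k : ℤ)) % m) - k) * (g₀ ^ k * g) := by
      rw [_root_.zpow_sub, _root_.zpow_neg, zpow_natCast]
      group
    rw [h1, h2]
    apply mul_mem
    · rw [hm]
      have := Int.emod_add_mul_ediv (-(k : ℤ)) m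
      exact ⟨(-(k : ℤ)) / m, by linarith⟩
    · have h3 : g₀ ^ k * g = g⁻¹ * (g * g₀ ^ k) * g := by group
      rw [h3]
      have := hn.conj_mem _ hk g⁻¹
      simpa using this

/-- the cosets are `g₀ⁱ f(H)`, `i < m` -/
theorem k5rc_sum_quot [f.range.Normal] [f.range.FiniteIndex] {A : Type*} [AddCommGroup A]
    (hgen : ∀ g : G, ∃ k : ℕ, g * g₀ ^ k ∈ f.range)
    (hm : ∀ k : ℤ, g₀ ^ k ∈ f.range ↔ (m : ℤ) ∣ k) (hm0 : 0 < m) (F : G ⧸ f.range → A) :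
    (@Finset.univ (G ⧸ f.range) f.range.fintypeQuotientOfFiniteIndex).sum F
      = ∑ i ∈ Finset.range m, F (QuotientGroup.mk (g₀ ^ i)) := by
  classical
  letI := f.range.fintypeQuotientOfFiniteIndex
  symm
  refine Finset.sum_bij (fun i _ => (QuotientGroup.mk (g₀ ^ i) : G ⧸ f.range))
    (fun _ _ => Finset.mem_univ _) ?_ ?_ (fun _ _ => rfl)
  · intro i hi j hj hij
    exact k5rc_mk_inj f g₀ m hm (Finset.mem_range.1 hi) (Finset.mem_range.1 hj) hij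
  · intro q _
    obtain ⟨i, hi, hq⟩ := k5rc_mk_surj f g₀ m hgen hm hm0 q
    exact ⟨i, Finset.mem_range.2 hi, hq⟩

/-- **the index** -/
theorem k5rc_index [f.range.Normal] [f.range.FiniteIndex]
    (hgen : ∀ g : G, ∃ k : ℕ, g * g₀ ^ k ∈ f.range)
    (hm : ∀ k : ℤ, g₀ ^ k ∈ f.range ↔ (m : ℤ) ∣ k) (hm0 : 0 < m) : f.range.index = m := by
  classical
  letI := f.range.fintypeQuotientOfFiniteIndex
  have h := k5rc_sum_quot f g₀ m (A := ℤ) hgen hm hm0 (fun _ => 1)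
  simp only [Finset.sum_const, Finset.card_univ, Finset.card_range, nsmul_eq_mul, mul_one] at h
  rw [Subgroup.index_eq_card, Nat.card_eq_fintype_card]
  exact_mod_cast h

/-- **`res ∘ cores` on elements of `H`** -/
theorem k5rc_transfer [f.range.Normal] [f.range.FiniteIndex] {A : Type*} [AddCommGroup A]
    (hgen : ∀ g : G, ∃ k : ℕ, g * g₀ ^ k ∈ f.range)
    (hm : ∀ k : ℤ, g₀ ^ k ∈ f.range ↔ (m : ℤ) ∣ k) (hm0 : 0 < m) (ψ : Additive H →+ A) (h : H) :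
    transferAlong A f hf ψ (Additive.ofMul (f h))
      = ∑ i ∈ Finset.range m, ψ (Additive.ofMul (k5rc_conj f hf (g₀ ^ i) h)) := by
  classical
  rw [transferAlong_eq_sum]
  simp only [k5rc_tCoc]
  rw [k5rc_sum_quot f g₀ m hgen hm hm0
    (fun q => ψ (Additive.ofMul (k5rc_conj f hf (tRep f q) h)))]
  refine Finset.sum_congr rfl fun i _ => ?_
  apply k5rc_conj_coset
  rw [← QuotientGroup.eq, tRep_mk]

end abstract

/-! ### the concrete statement -/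

section concrete

variable {L M : ℕ} {H' H : Subgroup (ZMod M)ˣ}

theorem k5rc_range_normal (hle : H' ≤ H) :
    (Subgroup.inclusion (Fermat.Agent.ES1.gammaH_mono (L := L) hle)).range.Normal := by
  refine ⟨fun n hn g => ?_⟩
  obtain ⟨n', rfl⟩ := hn
  have hmem : (g : SL(2, ℤ)) * (n' : SL(2, ℤ)) * (g : SL(2, ℤ))⁻¹ ∈ gammaH L M H' :=
    Fermat.Agent.ES1.conj_mem_gammaH g.2.1 g.2.2.1 n'.2
  refine ⟨⟨_, hmem⟩, ?_⟩
  apply Subtype.ext
  rfl

theorem k5rc_mem_range (hle : H' ≤ H) (x : gammaH L M H) :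
    x ∈ (Subgroup.inclusion (Fermat.Agent.ES1.gammaH_mono (L := L) hle)).range ↔
      (x : SL(2, ℤ)) ∈ gammaH L M H' := by
  constructor
  · rintro ⟨y, rfl⟩
    exact y.2
  · intro hx
    exact ⟨⟨x, hx⟩, Subtype.ext rfl⟩

/-- the powers of the diamond operator -/
theorem k5rc_diam_pow {A : Type*} [AddCommGroup A] (g₀ : SL(2, ℤ)) (hgL : g₀ ∈ Gamma0 L)
    (hgM : g₀ ∈ Gamma0 M) (i : ℕ) :
    ∀ (ψ : HomS (gammaH L M H') A) (γ : gammaH L M H')
      (hmem : (g₀ ^ i)⁻¹ * (γ : SL(2, ℤ)) * g₀ ^ i ∈ gammaH L M H'),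
    (((show AddMonoid.End (HomS (gammaH L M H') A) from diamS H' A g₀ hgL hgM) ^ i :
        AddMonoid.End (HomS (gammaH L M H') A)) : _ →+ _) ψ (Additive.ofMul γ)
      = ψ (Additive.ofMul ⟨(g₀ ^ i)⁻¹ * (γ : SL(2, ℤ)) * g₀ ^ i, hmem⟩) := by
  induction i with
  | zero =>
    intro ψ γ hmem
    rw [pow_zero]
    show ψ (Additive.ofMul γ) = _
    congr 2
    apply Subtype.ext
    simp
  | succ i ih =>
    intro ψ γ hmem
    have hmem' : (g₀ ^ i)⁻¹ * (γ : SL(2, ℤ)) * g₀ ^ i ∈ gammaH L M H' := by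
      have := Fermat.Agent.ES1.conj_mem_gammaH (H := H') (inv_mem (pow_mem hgL i))
        (inv_mem (pow_mem hgM i)) γ.2
      simpa using this
    rw [pow_succ]
    show (((show AddMonoid.End (HomS (gammaH L M H') A) from diamS H' A g₀ hgL hgM) ^ i :
        AddMonoid.End (HomS (gammaH L M H') A)) : _ →+ _)
          (diamS H' A g₀ hgL hgM ψ) (Additive.ofMul γ) = _
    rw [ih (diamS H' A g₀ hgL hgM ψ) γ hmem']
    show ψ (Additive.ofMul (conjHom g₀ (normalizes_gammaH hgL hgM) _)) = _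
    congr 2
    apply Subtype.ext
    show g₀⁻¹ * ((g₀ ^ i)⁻¹ * (γ : SL(2, ℤ)) * g₀ ^ i) * g₀
      = (g₀ ^ (i + 1))⁻¹ * (γ : SL(2, ℤ)) * g₀ ^ (i + 1)
    rw [pow_succ]
    group

/-- **K5-RC.** -/
theorem stmtResCores : StmtResCores := by
  intro L M _ _ H' H hle A _ m g₀ hg₀ hgen hm hm0
  let f : gammaH L M H' →* gammaH L M H := Subgroup.inclusion (Fermat.Agent.ES1.gammaH_mono hle)
  have hf : Function.Injective f := Subgroup.inclusion_injective _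
  haveI hn : f.range.Normal := k5rc_range_normal hle
  let x₀ : gammaH L M H := ⟨g₀, hg₀⟩
  have hgen' : ∀ g : gammaH L M H, ∃ k : ℕ, g * x₀ ^ k ∈ f.range := by
    intro g
    obtain ⟨k, hk⟩ := hgen g g.2
    refine ⟨k, (k5rc_mem_range hle _).2 ?_⟩
    simpa [x₀] using hk
  have hm' : ∀ k : ℤ, x₀ ^ k ∈ f.range ↔ (m : ℤ) ∣ k := by
    intro k
    rw [k5rc_mem_range hle, ← hm k]
    simp [x₀]
  constructor
  · intro ψ
    refine AddMonoidHom.ext fun γ => ?_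
    obtain ⟨γ, rfl⟩ : ∃ γ' : gammaH L M H', Additive.ofMul γ' = γ := ⟨Additive.toMul γ, rfl⟩
    rw [resS_apply]
    have h1 := k5rc_transfer f hf x₀ m hgen' hm' hm0 ψ γ
    show transferAlong A f hf ψ (Additive.ofMul (f γ)) = _
    rw [h1, AddMonoidHom.finsetSum_apply]
    refine Finset.sum_congr rfl fun i _ => ?_
    have hmem : (g₀ ^ i)⁻¹ * (γ : SL(2, ℤ)) * g₀ ^ i ∈ gammaH L M H' := by
      have := Fermat.Agent.ES1.conj_mem_gammaH (H := H') (inv_mem (pow_mem hg₀.1 i))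
        (inv_mem (pow_mem hg₀.2.1 i)) γ.2
      simpa using this
    rw [k5rc_diam_pow g₀ hg₀.1 hg₀.2.1 i ψ γ hmem]
    congr 2
    apply hf
    rw [k5rc_f_conj]
    apply Subtype.ext
    simp [f, x₀]
  · intro φ
    have h1 := transferAlong_comp f hf A φ
    rw [k5rc_index f x₀ m hgen' hm' hm0] at h1
    exact h1

end concrete

end Fermat.Agent.RT.K5

end


end ZBES1_001_6

/-! ### bundled: `Fermat.Agent.RT.K5.AlgCyc` -/
section ZBES1_001_7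

/-!
# K-machine, piece K5-A2 (helper40): the cyclic step, `stmtAlgCyc : StmtAlgCyc`

`δ^(p^k) = 1` on a finite-dimensional `W` in characteristic `p`, every invariant a norm
`⇒ dim W = p^k · dim ker (δ − 1)`.

With `ν = δ − 1`, `m = p^k`: `Σ_{i<m} δⁱ = ν^(m−1)` and `ν^m = 0` (characteristic `p`), so
`ker ν ≤ range ν^(m−1)`; then `ν^j : ker ν^(j+1) → ker ν` is onto with kernel `ker ν^j`
(`j ≤ m − 1`), hence `dim ker ν^j = j · dim ker ν` for `j ≤ m`.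
-/

set_option autoImplicit false

noncomputable section

namespace Fermat.Agent.RT.K5

open Polynomial

section generic

variable {F : Type*} [Field F] {W : Type*} [AddCommGroup W] [Module F W]

theorem k5a2_pow_succ_apply (ν : W →ₗ[F] W) (j : ℕ) (x : W) :
    (ν ^ (j + 1)) x = ν ((ν ^ j) x) := by
  rw [pow_succ', Module.End.mul_apply]

/-- `ν^j : ker ν^(j+1) → ker ν` -/
def k5a2Map (ν : W →ₗ[F] W) (j : ℕ) :
    ↥(LinearMap.ker (ν ^ (j + 1))) →ₗ[F] ↥(LinearMap.ker ν) :=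
  LinearMap.codRestrict (LinearMap.ker ν)
    ((ν ^ j).comp (LinearMap.ker (ν ^ (j + 1))).subtype) (fun y => by
      rw [LinearMap.mem_ker, LinearMap.comp_apply, Submodule.subtype_apply]
      have h : (ν ^ (j + 1)) (y : W) = 0 := LinearMap.mem_ker.mp y.2
      rw [← k5a2_pow_succ_apply ν j (y : W), h])

theorem k5a2Map_apply (ν : W →ₗ[F] W) (j : ℕ) (y : ↥(LinearMap.ker (ν ^ (j + 1)))) :
    ((k5a2Map ν j y : ↥(LinearMap.ker ν)) : W) = (ν ^ j) (y : W) := rfl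

theorem k5a2_ker_pow_le (ν : W →ₗ[F] W) (j : ℕ) :
    LinearMap.ker (ν ^ j) ≤ LinearMap.ker (ν ^ (j + 1)) := by
  intro x hx
  rw [LinearMap.mem_ker] at hx ⊢
  rw [k5a2_pow_succ_apply, hx, map_zero]

theorem k5a2Map_ker (ν : W →ₗ[F] W) (j : ℕ) :
    LinearMap.ker (k5a2Map ν j) =
      Submodule.comap (LinearMap.ker (ν ^ (j + 1))).subtype (LinearMap.ker (ν ^ j)) := by
  ext y
  rw [LinearMap.mem_ker, Submodule.mem_comap, LinearMap.mem_ker, Submodule.subtype_apply,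
    ← k5a2Map_apply]
  exact ⟨fun h => by rw [h]; rfl, fun h => Subtype.ext h⟩

theorem k5a2Map_surjective (ν : W →ₗ[F] W) (j n : ℕ) (hj : j ≤ n)
    (hsurj : LinearMap.ker ν ≤ LinearMap.range (ν ^ n)) :
    Function.Surjective (k5a2Map ν j) := by
  rintro ⟨x, hx⟩
  obtain ⟨v, hv⟩ := hsurj hx
  have hn : n = j + (n - j) := by omega
  have h1 : (ν ^ j) ((ν ^ (n - j)) v) = x := by
    rw [← Module.End.mul_apply, ← pow_add, ← hn]
    exact hv
  have h2 : (ν ^ (n - j)) v ∈ LinearMap.ker (ν ^ (j + 1)) := by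
    rw [LinearMap.mem_ker, k5a2_pow_succ_apply, h1]
    exact hx
  exact ⟨⟨(ν ^ (n - j)) v, h2⟩, Subtype.ext h1⟩

/-- one step: `dim ker ν^(j+1) = dim ker ν^j + dim ker ν` -/
theorem k5a2_step [Module.Finite F W] (ν : W →ₗ[F] W) (j n : ℕ) (hj : j ≤ n)
    (hsurj : LinearMap.ker ν ≤ LinearMap.range (ν ^ n)) :
    Module.finrank F ↥(LinearMap.ker (ν ^ (j + 1))) =
      Module.finrank F ↥(LinearMap.ker (ν ^ j)) + Module.finrank F ↥(LinearMap.ker ν) := by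
  have h1 := LinearMap.finrank_range_add_finrank_ker (k5a2Map ν j)
  have h2 : LinearMap.range (k5a2Map ν j) = ⊤ :=
    LinearMap.range_eq_top.mpr (k5a2Map_surjective ν j n hj hsurj)
  have h3 : Module.finrank F ↥(LinearMap.ker (k5a2Map ν j)) =
      Module.finrank F ↥(LinearMap.ker (ν ^ j)) := by
    rw [k5a2Map_ker]
    exact LinearEquiv.finrank_eq
      (Submodule.comapSubtypeEquivOfLe (k5a2_ker_pow_le ν j))
  rw [h2, finrank_top, h3] at h1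
  omega

theorem k5a2_finrank_ker_pow [Module.Finite F W] (ν : W →ₗ[F] W) (n : ℕ)
    (hsurj : LinearMap.ker ν ≤ LinearMap.range (ν ^ n)) (j : ℕ) (hj : j ≤ n + 1) :
    Module.finrank F ↥(LinearMap.ker (ν ^ j)) = j * Module.finrank F ↥(LinearMap.ker ν) := by
  induction j with
  | zero =>
      rw [pow_zero, zero_mul]
      have : LinearMap.ker (1 : W →ₗ[F] W) = ⊥ := LinearMap.ker_id
      rw [this]
      exact finrank_bot F W
  | succ j ih =>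
      rw [k5a2_step ν j n (by omega) hsurj, ih (by omega)]
      ring

end generic

section charp

variable (p : ℕ) [Fact p.Prime] {F : Type*} [Field F] [CharP F p]

/-- `Σ_{i < p^k} Xⁱ = (X − 1)^(p^k − 1)` in characteristic `p` -/
theorem k5a2_geom_sum_eq (k : ℕ) :
    (∑ i ∈ Finset.range (p ^ k), (X : F[X]) ^ i) = (X - 1) ^ (p ^ k - 1) := by
  have hX : (X : F[X]) - 1 ≠ 0 := X_sub_C_ne_zero (1 : F) |> fun h => by simpa using h
  have hpos : 0 < p ^ k := pow_pos (Fact.out : p.Prime).pos k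
  have h1 : (∑ i ∈ Finset.range (p ^ k), (X : F[X]) ^ i) * (X - 1) = X ^ (p ^ k) - 1 :=
    geom_sum_mul X (p ^ k)
  have h2 : ((X : F[X]) - 1) ^ (p ^ k) = X ^ (p ^ k) - 1 := by
    rw [sub_pow_char_pow, one_pow]
  have h3 : ((X : F[X]) - 1) ^ (p ^ k - 1) * (X - 1) = (X - 1) ^ (p ^ k) := by
    rw [← pow_succ, Nat.sub_add_cancel hpos]
  exact mul_right_cancel₀ hX (by rw [h1, h3, h2])

variable {W : Type*} [AddCommGroup W] [Module F W]

theorem k5a2_norm_eq (δ : W →ₗ[F] W) (k : ℕ) :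
    (∑ i ∈ Finset.range (p ^ k), δ ^ i) = (δ - 1) ^ (p ^ k - 1) := by
  have h := congrArg (aeval δ) (k5a2_geom_sum_eq p (F := F) k)
  simpa using h

theorem k5a2_nilpotent (δ : W →ₗ[F] W) (k : ℕ) (hδ : δ ^ (p ^ k) = 1) :
    (δ - 1) ^ (p ^ k) = 0 := by
  have h2 : ((X : F[X]) - 1) ^ (p ^ k) = X ^ (p ^ k) - 1 := by
    rw [sub_pow_char_pow, one_pow]
  have h := congrArg (aeval δ) h2
  simp only [map_pow, map_sub, aeval_X, map_one] at h
  rw [h, hδ, sub_self]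

end charp

/-- **K5-A2** -/
theorem stmtAlgCyc : StmtAlgCyc := by
  intro p _ F _ _ W _ _ _ δ k hδ hnorm
  have hpos : 0 < p ^ k := pow_pos (Fact.out : p.Prime).pos k
  have hsurj : LinearMap.ker (δ - 1) ≤ LinearMap.range ((δ - 1) ^ (p ^ k - 1)) := by
    intro w hw
    rw [LinearMap.mem_ker, LinearMap.sub_apply, Module.End.one_apply, sub_eq_zero] at hw
    obtain ⟨v, hv⟩ := hnorm w hw
    refine ⟨v, ?_⟩
    rw [← k5a2_norm_eq p δ k, hv, LinearMap.sum_apply]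
  have h1 := k5a2_finrank_ker_pow (δ - 1) (p ^ k - 1) hsurj (p ^ k) (by omega)
  have h2 : LinearMap.ker ((δ - 1) ^ (p ^ k)) = ⊤ := by
    rw [k5a2_nilpotent p δ k hδ]
    exact LinearMap.ker_zero
  rw [h2, finrank_top] at h1
  exact h1

end Fermat.Agent.RT.K5

end
end ZBES1_001_7

/-! ### bundled: `Fermat.Agent.RT.K5.FreeAbs` -/
section ZBES1_001_8

/-!
# RT-K5, piece FREE (abstract part): the counting step

`𝕎 ⊆ V'` a `δ`-stable subgroup of a finite `p`-torsion group with `δ^p = 1` on `𝕎` and every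
`δ`-invariant of `𝕎` a norm from `𝕎`: then `#𝕎 = (#𝕎^δ)^p`  (`stmtAlgCyc` over `ZMod p`).
-/

set_option autoImplicit false
set_option linter.style.haveILetI false
set_option linter.unusedSectionVars false
set_option linter.unusedVariables false

noncomputable section

namespace Fermat.Agent.RT.K5

theorem k5f_card_aux (p : ℕ) [Fact p.Prime] (W : Type) [AddCommGroup W] [Finite W]
    [Module (ZMod p) W] (δW : W →+ W) (hδp : ∀ w, k5s_pow δW p w = w)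
    (hnorm : ∀ w, δW w = w → ∃ v, w = ∑ i ∈ Finset.range p, k5s_pow δW i v) :
    Nat.card W = Nat.card {w : W // δW w = w} ^ p := by
  haveI inst2 : Module.Finite (ZMod p) W := Module.Finite.of_finite
  let δL : W →ₗ[ZMod p] W := δW.toZModLinearMap p
  have hδL : ∀ w : W, δL w = δW w := fun w => rfl
  have hpow : ∀ (i : ℕ) (w : W), (δL ^ i) w = k5s_pow δW i w := by
    intro i
    induction i with
    | zero => intro w; rfl
    | succ i ih =>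
      intro w
      rw [pow_succ, Module.End.mul_apply, ih, hδL, ← k5s_pow_succ]
  have key := stmtAlgCyc
  unfold StmtAlgCyc at key
  have h1 := key p (ZMod p) W δL 1 ?_ ?_
  · rw [Module.natCard_eq_pow_finrank (K := ZMod p) (V := W), h1, pow_one, mul_comm, pow_mul]
    congr 1
    rw [← Module.natCard_eq_pow_finrank (K := ZMod p) (V := ↥(LinearMap.ker (δL - 1)))]
    refine Nat.card_congr ?_
    refine
      { toFun := fun w => ⟨(w : W), ?_⟩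
        invFun := fun w => ⟨w.1, ?_⟩
        left_inv := fun w => rfl
        right_inv := fun w => rfl }
    · have := w.2
      rw [LinearMap.mem_ker, LinearMap.sub_apply, sub_eq_zero] at this
      exact this
    · rw [LinearMap.mem_ker, LinearMap.sub_apply, sub_eq_zero]
      exact w.2
  · rw [pow_one]
    refine LinearMap.ext fun w => ?_
    rw [hpow]
    exact hδp w
  · intro w hw
    obtain ⟨v, hve⟩ := hnorm w hw
    refine ⟨v, ?_⟩
    rw [hve, pow_one]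
    refine Finset.sum_congr rfl fun i _ => ?_
    rw [hpow]

theorem k5f_card_abs (p : ℕ) [Fact p.Prime] {V' : Type} [AddCommGroup V'] [Finite V']
    (hpV' : ∀ v : V', p • v = 0) (𝕎 : AddSubgroup V') (δ : V' →+ V')
    (hδW : ∀ w ∈ 𝕎, δ w ∈ 𝕎) (hδp : ∀ w ∈ 𝕎, k5s_pow δ p w = w)
    (hnorm : ∀ w ∈ 𝕎, δ w = w → ∃ v ∈ 𝕎, w = ∑ i ∈ Finset.range p, k5s_pow δ i v) :
    Nat.card 𝕎 = Nat.card {w : V' // w ∈ 𝕎 ∧ δ w = w} ^ p := by
  have hpW : ∀ w : 𝕎, p • w = 0 := fun w => Subtype.ext (by simpa using hpV' w)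
  let δW : 𝕎 →+ 𝕎 := (δ.comp 𝕎.subtype).codRestrict 𝕎 (fun w => hδW w w.2)
  have hδWv : ∀ w : 𝕎, ((δW w : 𝕎) : V') = δ w := fun w => rfl
  have hpow : ∀ (i : ℕ) (w : 𝕎), ((k5s_pow δW i w : 𝕎) : V') = k5s_pow δ i w := by
    intro i
    induction i with
    | zero => intro w; rfl
    | succ i ih =>
      intro w
      rw [k5s_pow_succ, ih, hδWv, ← k5s_pow_succ]
  have h1 := @k5f_card_aux p _ 𝕎 _ _ (AddCommGroup.zmodModule hpW) δW ?_ ?_
  · rw [h1]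
    congr 1
    refine Nat.card_congr ?_
    refine
      { toFun := fun w => ⟨((w : 𝕎) : V'), (w : 𝕎).2, ?_⟩
        invFun := fun w => ⟨⟨w.1, w.2.1⟩, ?_⟩
        left_inv := fun w => rfl
        right_inv := fun w => rfl }
    · have h2 := congrArg (fun x : 𝕎 => (x : V')) w.2
      exact h2
    · apply Subtype.ext
      exact w.2.2
  · intro w
    apply Subtype.ext
    rw [hpow]
    exact hδp w w.2
  · intro w hw
    have hw' : δ (w : V') = w := congrArg (fun x : 𝕎 => (x : V')) hw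
    obtain ⟨v, hv, hve⟩ := hnorm w w.2 hw'
    refine ⟨⟨v, hv⟩, ?_⟩
    apply Subtype.ext
    rw [hve, AddSubgroup.val_finsetSum]
    refine Finset.sum_congr rfl fun i _ => ?_
    rw [hpow]

end Fermat.Agent.RT.K5

end
end ZBES1_001_8

/-! ### bundled: `Fermat.Agent.RT.K5.FreeGrp` -/
section ZBES1_001_9

/-!
# RT-K5, piece FREE (group theory in `(ℤ/M)ˣ`): a step of order `p`

If `[±H : ±H'] = p^(k+1)` there is `u ∈ H` of order exactly `p` modulo `±H'`, and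
`[±H : ±(H' ⊔ ⟨u⟩)] = p^k`.
-/

set_option autoImplicit false
set_option linter.style.haveILetI false
set_option linter.unusedSectionVars false
set_option linter.unusedVariables false

noncomputable section

namespace Fermat.Agent.RT.K5

open Fermat.Agent.ES1 (pmH)

section

variable {U : Type*} [CommGroup U]

theorem k5f_mem_pmH_iff {M : ℕ} (H : Subgroup (ZMod M)ˣ) (x : (ZMod M)ˣ) :
    x ∈ pmH H ↔ x ∈ H ∨ -x ∈ H := by
  unfold pmH
  rw [Subgroup.mem_sup]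
  constructor
  · rintro ⟨y, hy, z, hz, rfl⟩
    obtain ⟨i, rfl⟩ := Subgroup.mem_zpowers_iff.mp hz
    rcases Int.even_or_odd i with hi | hi
    · left
      rw [Even.neg_one_zpow hi, mul_one]; exact hy
    · right
      rw [Odd.neg_one_zpow hi, mul_neg, mul_one, neg_neg]; exact hy
  · rintro (h | h)
    · exact ⟨x, h, 1, one_mem _, mul_one x⟩
    · exact ⟨-x, h, -1, Subgroup.mem_zpowers _, by simp⟩

end

theorem k5f_exists_mid {M : ℕ} [NeZero M] (p : ℕ) [hp : Fact p.Prime]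
    (H' H : Subgroup (ZMod M)ˣ) (hle : H' ≤ H) (k : ℕ)
    (hidx : ((pmH H').subgroupOf (pmH H)).index = p ^ (k + 1)) :
    ∃ u ∈ H, (∀ j : ℤ, u ^ j ∈ pmH H' ↔ (p : ℤ) ∣ j) ∧
      (∀ x ∈ pmH (H' ⊔ Subgroup.zpowers u), ∃ j : ℕ, x * u ^ j ∈ pmH H') ∧
      ((pmH (H' ⊔ Subgroup.zpowers u)).subgroupOf (pmH H)).index = p ^ k := by
  classical
  have hP'P : pmH H' ≤ pmH H := sup_le_sup_right hle _
  -- Cauchy in the quotient
  have hcard : Nat.card ((pmH H) ⧸ (pmH H').subgroupOf (pmH H)) = p ^ (k + 1) := by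
    rw [← Subgroup.index_eq_card, hidx]
  have hdvd : p ∣ Nat.card ((pmH H) ⧸ (pmH H').subgroupOf (pmH H)) := by
    rw [hcard, pow_succ]; exact dvd_mul_left p _
  obtain ⟨x, hx⟩ := exists_prime_orderOf_dvd_card' p hdvd
  obtain ⟨ũ, rfl⟩ := QuotientGroup.mk_surjective x
  -- `ũ = ± u` with `u ∈ H`
  obtain ⟨u, hu, huP, hmk⟩ : ∃ u : (ZMod M)ˣ, u ∈ H ∧ ∃ huP : u ∈ pmH H,
      (QuotientGroup.mk (⟨u, huP⟩ : pmH H) : (pmH H) ⧸ (pmH H').subgroupOf (pmH H))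
        = QuotientGroup.mk ũ := by
    rcases (k5f_mem_pmH_iff H ũ).mp ũ.2 with h | h
    · exact ⟨ũ, h, ũ.2, rfl⟩
    · refine ⟨-ũ, h, Fermat.Agent.ES1.le_pmH H h, ?_⟩
      rw [QuotientGroup.eq, Subgroup.mem_subgroupOf]
      have : (((⟨-(ũ : (ZMod M)ˣ), Fermat.Agent.ES1.le_pmH H h⟩ : pmH H)⁻¹ * ũ : pmH H) :
          (ZMod M)ˣ) = -1 := by
        show (-(ũ : (ZMod M)ˣ))⁻¹ * (ũ : (ZMod M)ˣ) = -1
        rw [inv_mul_eq_iff_eq_mul]
        simp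
      rw [this]
      exact Fermat.Agent.ES1.neg_one_mem_pmH H'
  rw [← hmk] at hx
  have hord : ∀ j : ℤ, u ^ j ∈ pmH H' ↔ (p : ℤ) ∣ j := by
    intro j
    rw [← hx, orderOf_dvd_iff_zpow_eq_one, ← QuotientGroup.mk_zpow, QuotientGroup.eq_one_iff,
      Subgroup.mem_subgroupOf]
    rfl
  have hgen : ∀ x ∈ pmH (H' ⊔ Subgroup.zpowers u), ∃ j : ℕ, x * u ^ j ∈ pmH H' := by
    intro x hx
    -- `x = ± h' uⁱ`
    have hx' : ∃ (h' : (ZMod M)ˣ) (i : ℤ), h' ∈ pmH H' ∧ x = h' * u ^ i := by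
      have hcase : ∀ y ∈ H' ⊔ Subgroup.zpowers u, ∃ (h' : (ZMod M)ˣ) (i : ℤ),
          h' ∈ H' ∧ y = h' * u ^ i := by
        intro y hy
        obtain ⟨a, ha, b, hb, rfl⟩ := Subgroup.mem_sup.mp hy
        obtain ⟨i, rfl⟩ := Subgroup.mem_zpowers_iff.mp hb
        exact ⟨a, i, ha, rfl⟩
      rcases (k5f_mem_pmH_iff _ x).mp hx with h | h
      · obtain ⟨h', i, hh', e⟩ := hcase x h
        exact ⟨h', i, Fermat.Agent.ES1.le_pmH H' hh', e⟩
      · obtain ⟨h', i, hh', e⟩ := hcase (-x) h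
        refine ⟨-h', i, ?_, ?_⟩
        · rw [k5f_mem_pmH_iff]; right; rw [neg_neg]; exact hh'
        · rw [neg_mul, ← e, neg_neg]
    obtain ⟨h', i, hh', rfl⟩ := hx'
    -- `j ≡ -i mod p`
    refine ⟨((-i) % (p : ℤ)).toNat, ?_⟩
    have hp0 : (p : ℤ) ≠ 0 := by exact_mod_cast hp.out.ne_zero
    have hnn : 0 ≤ (-i) % (p : ℤ) := Int.emod_nonneg _ hp0
    have e1 : u ^ ((-i) % (p : ℤ)).toNat = u ^ ((-i) % (p : ℤ)) := by
      rw [← zpow_natCast, Int.toNat_of_nonneg hnn]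
    rw [e1, mul_assoc, ← zpow_add]
    refine mul_mem hh' ((hord _).mpr ?_)
    have : (p : ℤ) ∣ (-i) % (p : ℤ) - (-i) := by
      rw [Int.emod_def]; exact ⟨-((-i) / p), by ring⟩
    have h2 : i + (-i) % (p : ℤ) = (-i) % (p : ℤ) - (-i) := by ring
    rw [h2]; exact this
  refine ⟨u, hu, hord, hgen, ?_⟩
  -- the index
  set P₁ := pmH (H' ⊔ Subgroup.zpowers u) with hP₁
  have hP'P₁ : pmH H' ≤ P₁ := sup_le_sup_right le_sup_left _
  have hP₁P : P₁ ≤ pmH H :=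
    sup_le_sup_right (sup_le hle ((Subgroup.zpowers_le).mpr hu)) _
  have huP₁ : u ∈ P₁ := Fermat.Agent.ES1.le_pmH _ (le_sup_right (a := H') (Subgroup.mem_zpowers u))
  have hrel : (pmH H').relIndex P₁ = p := by
    let f : pmH H' →* P₁ := Subgroup.inclusion hP'P₁
    have hfr : ∀ x : P₁, x ∈ f.range ↔ (x : (ZMod M)ˣ) ∈ pmH H' := by
      intro x
      constructor
      · rintro ⟨y, rfl⟩; exact y.2
      · intro h; exact ⟨⟨x, h⟩, Subtype.ext rfl⟩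
    haveI : f.range.Normal := inferInstance
    haveI : f.range.FiniteIndex := inferInstance
    have h1 := k5rc_index f (⟨u, huP₁⟩ : P₁) p ?_ ?_ hp.out.pos
    · have h2 : f.range = (pmH H').subgroupOf P₁ := by
        ext x
        rw [hfr, Subgroup.mem_subgroupOf]
      rw [Subgroup.relIndex, ← h2, h1]
    · intro g
      obtain ⟨j, hj⟩ := hgen g g.2
      exact ⟨j, (hfr _).mpr hj⟩
    · intro j
      rw [hfr, ← hord j]
      rfl
  have hmul := Subgroup.relIndex_mul_relIndex (pmH H') P₁ (pmH H) hP'P₁ hP₁P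
  rw [hrel] at hmul
  have hidx' : (pmH H').relIndex (pmH H) = p ^ (k + 1) := hidx
  rw [hidx', pow_succ, mul_comm] at hmul
  exact Nat.eq_of_mul_eq_mul_right hp.out.pos hmul

end Fermat.Agent.RT.K5

end
end ZBES1_001_9

/-! ### bundled: `Fermat.Agent.ES1.HeckeGrp` -/
section ZBES1_001_10

/-!
# ES₁-G1 — the Hecke and diamond operators on `Hom(Γ, A)`, `Γ = gammaH L M H` (helper38)

CHOICE-FREE definitions (no coset representatives):

* `conjAlphaH : gammaH (L * ℓ) M H →* gammaH L M H`, `(a b; c d) ↦ (a, ℓ b; c / ℓ, d)`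
  (conjugation by `α = diag(ℓ, 1)`; `γ ↦ α γ α⁻¹`);
* `heckeGrp ℓ φ := transfer_{Γ' → Γ} (φ ∘ conjAlphaH)`, `Γ' = gammaH (L * ℓ) M H ≤ Γ` (Mathlib's
  `AddMonoidHom.transfer`/`MonoidHom.transfer`).  It is the multiplier of
  `W = ∏_{x ∈ Γ' \ Γ} (w ∘ α) ∘ x̃ = N_{Γ'→Γ}(w(ℓ τ))` when `w` has multiplier `φ`, and
  `F = Σ_x G ∘ α ∘ x̃` has period `heckeGrp ℓ P` when `G` has period hom `P`;
* `diamGrp σ φ := φ ∘ (γ ↦ σ γ σ⁻¹)` for `σ ∈ Γ₀(L) ∩ Γ₀(M)`: the multiplier of `w ∘ σ`.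
-/

set_option autoImplicit false

noncomputable section

namespace Fermat.Agent.ES1

open CongruenceSubgroup Matrix Matrix.SpecialLinearGroup
open scoped MatrixGroups

/-! ## Finite index -/

instance gammaH_finiteIndex (L M : ℕ) [NeZero L] [NeZero M] (H : Subgroup (ZMod M)ˣ) :
    (gammaH L M H).FiniteIndex := by
  have h1 : (Gamma1 M ⊓ Gamma0 L).FiniteIndex := inferInstance
  exact Subgroup.finiteIndex_of_le (gamma1_inf_gamma0_le L M H)

/-! ## Conjugation by `α = diag(ℓ, 1)` -/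

/-- `(a b; c d) ↦ (a, ℓ b; c / ℓ, d)` -/
def conjAlphaMat (ℓ : ℕ) (γ : SL(2, ℤ)) : Matrix (Fin 2) (Fin 2) ℤ :=
  !![γ 0 0, (ℓ : ℤ) * γ 0 1; γ 1 0 / (ℓ : ℤ), γ 1 1]

theorem det_conjAlphaMat {ℓ : ℕ} {γ : SL(2, ℤ)} (h : (ℓ : ℤ) ∣ γ 1 0) :
    (conjAlphaMat ℓ γ).det = 1 := by
  have hdet : γ 0 0 * γ 1 1 - γ 0 1 * γ 1 0 = 1 := by
    have := γ.det_coe
    rwa [Matrix.det_fin_two] at this
  rw [conjAlphaMat, Matrix.det_fin_two_of]
  have : (ℓ : ℤ) * γ 0 1 * (γ 1 0 / (ℓ : ℤ)) = γ 0 1 * γ 1 0 := by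
    rw [mul_comm (ℓ : ℤ), mul_assoc, Int.mul_ediv_cancel' h]
  rw [this]; exact hdet

/-- conjugation by `diag(ℓ, 1)`, on `Γ₀(ℓ)` -/
def conjAlphaSL (ℓ : ℕ) (γ : SL(2, ℤ)) (h : (ℓ : ℤ) ∣ γ 1 0) : SL(2, ℤ) :=
  ⟨conjAlphaMat ℓ γ, det_conjAlphaMat h⟩

@[simp] theorem conjAlphaSL_apply_00 (ℓ : ℕ) (γ : SL(2, ℤ)) (h : (ℓ : ℤ) ∣ γ 1 0) :
    conjAlphaSL ℓ γ h 0 0 = γ 0 0 := rfl

@[simp] theorem conjAlphaSL_apply_01 (ℓ : ℕ) (γ : SL(2, ℤ)) (h : (ℓ : ℤ) ∣ γ 1 0) :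
    conjAlphaSL ℓ γ h 0 1 = (ℓ : ℤ) * γ 0 1 := rfl

@[simp] theorem conjAlphaSL_apply_10 (ℓ : ℕ) (γ : SL(2, ℤ)) (h : (ℓ : ℤ) ∣ γ 1 0) :
    conjAlphaSL ℓ γ h 1 0 = γ 1 0 / (ℓ : ℤ) := rfl

@[simp] theorem conjAlphaSL_apply_11 (ℓ : ℕ) (γ : SL(2, ℤ)) (h : (ℓ : ℤ) ∣ γ 1 0) :
    conjAlphaSL ℓ γ h 1 1 = γ 1 1 := rfl

theorem dvd_of_mem_gamma0 {N : ℕ} {γ : SL(2, ℤ)} (h : γ ∈ Gamma0 N) : (N : ℤ) ∣ γ 1 0 := by
  rw [Gamma0_mem] at h
  exact (ZMod.intCast_zmod_eq_zero_iff_dvd _ _).mp h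

theorem mem_gamma0_of_dvd {N : ℕ} {γ : SL(2, ℤ)} (h : (N : ℤ) ∣ γ 1 0) : γ ∈ Gamma0 N := by
  rw [Gamma0_mem]
  exact (ZMod.intCast_zmod_eq_zero_iff_dvd _ _).mpr h

theorem conjAlphaSL_one (ℓ : ℕ) : conjAlphaSL ℓ 1 (by simp) = 1 := by
  ext i j
  fin_cases i <;> fin_cases j <;> simp [conjAlphaSL, conjAlphaMat]

theorem conjAlphaSL_mul {ℓ : ℕ} (hℓ : ℓ ≠ 0) (γ γ' : SL(2, ℤ)) (h : (ℓ : ℤ) ∣ γ 1 0)
    (h' : (ℓ : ℤ) ∣ γ' 1 0) (h'' : (ℓ : ℤ) ∣ (γ * γ') 1 0) :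
    conjAlphaSL ℓ (γ * γ') h'' = conjAlphaSL ℓ γ h * conjAlphaSL ℓ γ' h' := by
  have hℓ' : (ℓ : ℤ) ≠ 0 := Int.natCast_ne_zero.mpr hℓ
  obtain ⟨k, hk⟩ := h
  obtain ⟨k', hk'⟩ := h'
  have e := two_mul_expl γ.1 γ'.1
  have e00 : (γ * γ') 0 0 = γ 0 0 * γ' 0 0 + γ 0 1 * γ' 1 0 := by simpa using e.1
  have e01 : (γ * γ') 0 1 = γ 0 0 * γ' 0 1 + γ 0 1 * γ' 1 1 := by simpa using e.2.1
  have e10 : (γ * γ') 1 0 = γ 1 0 * γ' 0 0 + γ 1 1 * γ' 1 0 := by simpa using e.2.2.1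
  have e11 : (γ * γ') 1 1 = γ 1 0 * γ' 0 1 + γ 1 1 * γ' 1 1 := by simpa using e.2.2.2
  have d1 : γ 1 0 / (ℓ : ℤ) = k := by rw [hk, Int.mul_ediv_cancel_left _ hℓ']
  have d2 : γ' 1 0 / (ℓ : ℤ) = k' := by rw [hk', Int.mul_ediv_cancel_left _ hℓ']
  have d3 : (γ * γ') 1 0 / (ℓ : ℤ) = k * γ' 0 0 + γ 1 1 * k' := by
    rw [e10, hk, hk']
    have : (ℓ : ℤ) * k * γ' 0 0 + γ 1 1 * ((ℓ : ℤ) * k') = (ℓ : ℤ) * (k * γ' 0 0 + γ 1 1 * k') := by
      ring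
    rw [this, Int.mul_ediv_cancel_left _ hℓ']
  have e' := two_mul_expl (conjAlphaSL ℓ γ ⟨k, hk⟩).1 (conjAlphaSL ℓ γ' ⟨k', hk'⟩).1
  ext i j
  fin_cases i <;> fin_cases j
  · show (γ * γ') 0 0 = (conjAlphaSL ℓ γ ⟨k, hk⟩ * conjAlphaSL ℓ γ' ⟨k', hk'⟩) 0 0
    have : (conjAlphaSL ℓ γ ⟨k, hk⟩ * conjAlphaSL ℓ γ' ⟨k', hk'⟩) 0 0
        = γ 0 0 * γ' 0 0 + (ℓ : ℤ) * γ 0 1 * (γ' 1 0 / (ℓ : ℤ)) := by simpa using e'.1
    rw [this, e00, d2, hk']; ring
  · show (ℓ : ℤ) * (γ * γ') 0 1 = (conjAlphaSL ℓ γ ⟨k, hk⟩ * conjAlphaSL ℓ γ' ⟨k', hk'⟩) 0 1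
    have : (conjAlphaSL ℓ γ ⟨k, hk⟩ * conjAlphaSL ℓ γ' ⟨k', hk'⟩) 0 1
        = γ 0 0 * ((ℓ : ℤ) * γ' 0 1) + (ℓ : ℤ) * γ 0 1 * γ' 1 1 := by simpa using e'.2.1
    rw [this, e01]; ring
  · show (γ * γ') 1 0 / (ℓ : ℤ) = (conjAlphaSL ℓ γ ⟨k, hk⟩ * conjAlphaSL ℓ γ' ⟨k', hk'⟩) 1 0
    have : (conjAlphaSL ℓ γ ⟨k, hk⟩ * conjAlphaSL ℓ γ' ⟨k', hk'⟩) 1 0
        = γ 1 0 / (ℓ : ℤ) * γ' 0 0 + γ 1 1 * (γ' 1 0 / (ℓ : ℤ)) := by simpa using e'.2.2.1
    rw [this, d3, d1, d2]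
  · show (γ * γ') 1 1 = (conjAlphaSL ℓ γ ⟨k, hk⟩ * conjAlphaSL ℓ γ' ⟨k', hk'⟩) 1 1
    have : (conjAlphaSL ℓ γ ⟨k, hk⟩ * conjAlphaSL ℓ γ' ⟨k', hk'⟩) 1 1
        = γ 1 0 / (ℓ : ℤ) * ((ℓ : ℤ) * γ' 0 1) + γ 1 1 * γ' 1 1 := by simpa using e'.2.2.2
    rw [this, e11, d1, hk]; ring

/-! ## `conjAlphaH : Γ' →* Γ` -/

section ConjAlpha

variable {L M : ℕ} (H : Subgroup (ZMod M)ˣ) (ℓ : ℕ)

theorem dvd_of_mem_gammaH_mul {γ : SL(2, ℤ)} (hγ : γ ∈ gammaH (L * ℓ) M H) : (ℓ : ℤ) ∣ γ 1 0 :=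
  (Int.natCast_dvd_natCast.mpr (dvd_mul_left ℓ L)).trans (dvd_of_mem_gamma0 hγ.1)

theorem conjAlphaSL_mem_gammaH (hℓ : ℓ ≠ 0) (hML : M ∣ L) {γ : SL(2, ℤ)}
    (hγ : γ ∈ gammaH (L * ℓ) M H) :
    conjAlphaSL ℓ γ (dvd_of_mem_gammaH_mul H ℓ hγ) ∈ gammaH L M H := by
  have hℓ' : (ℓ : ℤ) ≠ 0 := Int.natCast_ne_zero.mpr hℓ
  obtain ⟨hL, hM, hH⟩ := hγ
  have h1 : ((L : ℤ)) ∣ conjAlphaSL ℓ γ (dvd_of_mem_gammaH_mul H ℓ ⟨hL, hM, hH⟩) 1 0 := by
    rw [conjAlphaSL_apply_10]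
    obtain ⟨k, hk⟩ := dvd_of_mem_gamma0 hL
    rw [hk]
    push_cast
    rw [mul_comm (L : ℤ) (ℓ : ℤ), mul_assoc, Int.mul_ediv_cancel_left _ hℓ']
    exact dvd_mul_right _ _
  have h2 : conjAlphaSL ℓ γ (dvd_of_mem_gammaH_mul H ℓ ⟨hL, hM, hH⟩) ∈ Gamma0 M :=
    mem_gamma0_of_dvd ((Int.natCast_dvd_natCast.mpr hML).trans h1)
  refine ⟨mem_gamma0_of_dvd h1, h2, ?_⟩
  have : diamHom M ⟨conjAlphaSL ℓ γ (dvd_of_mem_gammaH_mul H ℓ ⟨hL, hM, hH⟩), h2⟩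
      = diamHom M ⟨γ, hM⟩ := by
    ext
    rw [coe_diamHom, coe_diamHom]
    rfl
  rw [this]
  exact hH

/-- **conjugation by `α = diag(ℓ, 1)`**, `Γ' = gammaH (L ℓ) M H → Γ = gammaH L M H`,
`(a b; c d) ↦ (a, ℓ b; c / ℓ, d)` -/
def conjAlphaH (hℓ : ℓ ≠ 0) (hML : M ∣ L) : gammaH (L * ℓ) M H →* gammaH L M H where
  toFun γ := ⟨conjAlphaSL ℓ γ.1 (dvd_of_mem_gammaH_mul H ℓ γ.2),
    conjAlphaSL_mem_gammaH H ℓ hℓ hML γ.2⟩
  map_one' := Subtype.ext (conjAlphaSL_one ℓ)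
  map_mul' γ γ' := Subtype.ext
    (conjAlphaSL_mul hℓ γ.1 γ'.1 (dvd_of_mem_gammaH_mul H ℓ γ.2) (dvd_of_mem_gammaH_mul H ℓ γ'.2)
      (dvd_of_mem_gammaH_mul H ℓ (γ * γ').2))

@[simp] theorem coe_conjAlphaH (hℓ : ℓ ≠ 0) (hML : M ∣ L) (γ : gammaH (L * ℓ) M H) :
    ((conjAlphaH H ℓ hℓ hML γ : gammaH L M H) : SL(2, ℤ))
      = conjAlphaSL ℓ γ.1 (dvd_of_mem_gammaH_mul H ℓ γ.2) := rfl

end ConjAlpha

/-! ## The Hecke operator `T_ℓ` on `Hom(Γ, A)` -/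

section Hecke

variable (L M : ℕ) [NeZero L] [NeZero M] (H : Subgroup (ZMod M)ˣ) (ℓ : ℕ) [NeZero ℓ]

/-- `Γ' = gammaH (L ℓ) M H` as a subgroup of `Γ = gammaH L M H` -/
abbrev subLevel : Subgroup (gammaH L M H) := (gammaH (L * ℓ) M H).subgroupOf (gammaH L M H)

theorem gammaH_mul_le : gammaH (L * ℓ) M H ≤ gammaH L M H :=
  gammaH_mono_level (dvd_mul_right L ℓ) M H

instance subLevel_finiteIndex : (subLevel L M H ℓ).FiniteIndex := by
  haveI : NeZero (L * ℓ) := ⟨mul_ne_zero (NeZero.ne L) (NeZero.ne ℓ)⟩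
  infer_instance

/-- the isomorphism `subLevel ≃ Γ'` -/
def subLevelEquiv : subLevel L M H ℓ ≃* gammaH (L * ℓ) M H :=
  Subgroup.subgroupOfEquivOfLe (gammaH_mul_le L M H ℓ)

variable {A : Type*} [AddCommGroup A]

/-- `φ ∘ conj_α` on `Γ'`, as a multiplicative hom on `subLevel` -/
def heckeRes (hML : M ∣ L) (φ : Additive (gammaH L M H) →+ A) :
    subLevel L M H ℓ →* Multiplicative A :=
  (AddMonoidHom.toMultiplicativeRight φ).comp
    ((conjAlphaH H ℓ (NeZero.ne ℓ) hML).comp (subLevelEquiv L M H ℓ).toMonoidHom)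

/-- **The Hecke operator `T_ℓ` on `Hom(Γ, A)`** : `transfer_{Γ' → Γ}(φ ∘ conj_α)`. -/
def heckeGrp (hML : M ∣ L) (φ : Additive (gammaH L M H) →+ A) : Additive (gammaH L M H) →+ A :=
  MonoidHom.toAdditiveLeft (MonoidHom.transfer (heckeRes L M H ℓ hML φ))

theorem heckeGrp_apply (hML : M ∣ L) (φ : Additive (gammaH L M H) →+ A) (γ : gammaH L M H) :
    heckeGrp L M H ℓ hML φ (Additive.ofMul γ)
      = Multiplicative.toAdd (MonoidHom.transfer (heckeRes L M H ℓ hML φ) γ) := rfl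

end Hecke

/-! ## The diamond operators on `Hom(Γ, A)` -/

section Diamond

variable (L M : ℕ) (H : Subgroup (ZMod M)ˣ)

/-- conjugation by `σ ∈ Γ₀(L) ∩ Γ₀(M)` on `Γ` -/
def conjH (σ : SL(2, ℤ)) (hσL : σ ∈ Gamma0 L) (hσM : σ ∈ Gamma0 M) :
    gammaH L M H →* gammaH L M H where
  toFun γ := ⟨σ * γ.1 * σ⁻¹, conj_mem_gammaH hσL hσM γ.2⟩
  map_one' := Subtype.ext (by simp)
  map_mul' γ γ' := Subtype.ext (by simp [mul_assoc])

variable {A : Type*} [AddCommGroup A]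

/-- **The diamond operator** attached to `σ ∈ Γ₀(L) ∩ Γ₀(M)` : `φ ↦ φ ∘ (γ ↦ σ γ σ⁻¹)`; it is the
multiplier of `w ∘ σ` when `w` has multiplier `φ`.  It depends only on `diamHom M σ` modulo `±H`
(inner automorphisms act trivially on `Hom(Γ, A)`). -/
def diamGrp (σ : SL(2, ℤ)) (hσL : σ ∈ Gamma0 L) (hσM : σ ∈ Gamma0 M)
    (φ : Additive (gammaH L M H) →+ A) : Additive (gammaH L M H) →+ A :=
  φ.comp (MonoidHom.toAdditive (conjH L M H σ hσL hσM))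

theorem diamGrp_apply (σ : SL(2, ℤ)) (hσL : σ ∈ Gamma0 L) (hσM : σ ∈ Gamma0 M)
    (φ : Additive (gammaH L M H) →+ A) (γ : gammaH L M H) :
    diamGrp L M H σ hσL hσM φ (Additive.ofMul γ)
      = φ (Additive.ofMul ⟨σ * γ.1 * σ⁻¹, conj_mem_gammaH hσL hσM γ.2⟩) := rfl

/-- inner automorphisms act trivially -/
theorem diamGrp_of_mem {σ : SL(2, ℤ)} (hσ : σ ∈ gammaH L M H)
    (φ : Additive (gammaH L M H) →+ A) :
    diamGrp L M H σ hσ.1 hσ.2.1 φ = φ := by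
  refine DFunLike.ext _ _ fun γ => ?_
  obtain ⟨γ, rfl⟩ : ∃ g : gammaH L M H, Additive.ofMul g = γ := ⟨Additive.toMul γ, rfl⟩
  rw [diamGrp_apply]
  have : (⟨σ * γ.1 * σ⁻¹, conj_mem_gammaH hσ.1 hσ.2.1 γ.2⟩ : gammaH L M H)
      = ⟨σ, hσ⟩ * γ * (⟨σ, hσ⟩ : gammaH L M H)⁻¹ := rfl
  rw [this, ofMul_mul, ofMul_mul, ofMul_inv, map_add, map_add, map_neg]
  abel

end Diamond

end Fermat.Agent.ES1

end
end ZBES1_001_10

/-! ### bundled: `Fermat.Agent.ES1.G1.HKbIndex` -/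
section ZBES1_001_11

/-!
# ES₁ / G1, piece HKb-NORM, part 1 (helper81): the index of `Γ' = gammaH (L ℓ) M H` in
`Γ = gammaH L M H` is at least `ℓ + 1`

* `es1g1hkb_mem_gammaH_mul_iff` : for `γ ∈ Γ`, `γ ∈ Γ' ↔ ℓ ∣ γ₁₀` (`ℓ` prime to `L`);
* `es1g1hkb_index_ge` : `ℓ + 1 ≤ [Γ : Γ']`, by the explicit left cosets of `(1 0; L b 1)`,
  `b < ℓ`, and `(x ℓ, -y; L, 1)`, `x ℓ + y L = 1`.
-/

set_option autoImplicit false
set_option linter.style.haveILetI false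

noncomputable section

namespace Fermat.Agent.ES1

open CongruenceSubgroup Matrix Matrix.SpecialLinearGroup
open scoped MatrixGroups

/-- the lower left entry of `s⁻¹ t` -/
theorem es1g1hkb_inv_mul_10 (s t : SL(2, ℤ)) :
    (s⁻¹ * t) 1 0 = s 0 0 * t 1 0 - s 1 0 * t 0 0 := by
  have h1 : (s⁻¹ * t) 1 0 = (s⁻¹ : SL(2, ℤ)) 1 0 * t 0 0 + (s⁻¹ : SL(2, ℤ)) 1 1 * t 1 0 := by
    have := (two_mul_expl (s⁻¹ : SL(2, ℤ)).1 t.1).2.2.1
    simpa using this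
  rw [h1, Matrix.SpecialLinearGroup.SL2_inv_expl s]
  simp
  ring

/-- `(1 0; c 1)` -/
def es1g1hkbLow (c : ℤ) : SL(2, ℤ) := ⟨!![1, 0; c, 1], by simp [Matrix.det_fin_two_of]⟩

@[simp] theorem es1g1hkbLow_00 (c : ℤ) : es1g1hkbLow c 0 0 = 1 := rfl
@[simp] theorem es1g1hkbLow_10 (c : ℤ) : es1g1hkbLow c 1 0 = c := rfl

/-- `(x ℓ, -y; L, 1)`, of determinant `x ℓ + y L = 1` -/
def es1g1hkbInf (L ℓ : ℕ) (x y : ℤ) (h : x * ℓ + y * L = 1) : SL(2, ℤ) :=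
  ⟨!![x * ℓ, -y; L, 1], by rw [Matrix.det_fin_two_of]; linear_combination h⟩

@[simp] theorem es1g1hkbInf_00 (L ℓ : ℕ) (x y : ℤ) (h : x * ℓ + y * L = 1) :
    es1g1hkbInf L ℓ x y h 0 0 = x * ℓ := rfl
@[simp] theorem es1g1hkbInf_10 (L ℓ : ℕ) (x y : ℤ) (h : x * ℓ + y * L = 1) :
    es1g1hkbInf L ℓ x y h 1 0 = L := rfl

section Index

variable (L M : ℕ) (H : Subgroup (ZMod M)ˣ) (ℓ : ℕ)

/-- an element of `Γ₀(L)` with upper left entry `≡ 1` mod `L` is in `Γ` -/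
theorem es1g1hkb_mem_gammaH_of (hML : M ∣ L) {γ : SL(2, ℤ)} (h10 : (L : ℤ) ∣ γ 1 0)
    (h00 : (L : ℤ) ∣ γ 0 0 - 1) : γ ∈ gammaH L M H := by
  have hM : γ ∈ Gamma0 M := mem_gamma0_of_dvd ((Int.natCast_dvd_natCast.mpr hML).trans h10)
  refine ⟨mem_gamma0_of_dvd h10, hM, ?_⟩
  have : diamHom M ⟨γ, hM⟩ = 1 := by
    ext
    rw [coe_diamHom]
    have h1 : (M : ℤ) ∣ γ 0 0 - 1 := (Int.natCast_dvd_natCast.mpr hML).trans h00
    have h2 : (((γ 0 0 - 1 : ℤ) : ℤ) : ZMod M) = 0 :=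
      (ZMod.intCast_zmod_eq_zero_iff_dvd _ _).mpr h1
    push_cast at h2
    simpa [sub_eq_zero] using h2
  rw [this]
  exact one_mem _

variable {L M H ℓ}

/-- for `γ ∈ Γ` : `γ ∈ Γ' ↔ ℓ ∣ γ₁₀` -/
theorem es1g1hkb_mem_gammaH_mul_iff (hℓL : Nat.Coprime ℓ L) {γ : SL(2, ℤ)}
    (hγ : γ ∈ gammaH L M H) : γ ∈ gammaH (L * ℓ) M H ↔ (ℓ : ℤ) ∣ γ 1 0 := by
  constructor
  · exact dvd_of_mem_gammaH_mul H ℓ
  · intro h
    refine ⟨mem_gamma0_of_dvd ?_, hγ.2⟩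
    have h1 : (L : ℤ) ∣ γ 1 0 := dvd_of_mem_gamma0 hγ.1
    have hc : IsCoprime (L : ℤ) (ℓ : ℤ) := Nat.isCoprime_iff_coprime.mpr hℓL.symm
    push_cast
    exact hc.mul_dvd h1 h

variable (L M H ℓ)

/-- **`[Γ : Γ'] ≥ ℓ + 1`** -/
theorem es1g1hkb_index_ge [NeZero L] [NeZero M] [NeZero ℓ] (hML : M ∣ L) (hℓ : ℓ.Prime)
    (hℓL : ¬ ℓ ∣ L) : ℓ + 1 ≤ (subLevel L M H ℓ).index := by
  classical
  have hcop : Nat.Coprime ℓ L := (Nat.Prime.coprime_iff_not_dvd hℓ).mpr hℓL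
  have hℓ' : Prime (ℓ : ℤ) := Nat.prime_iff_prime_int.mp hℓ
  have hℓLz : ¬ (ℓ : ℤ) ∣ (L : ℤ) := fun h => hℓL (Int.natCast_dvd_natCast.mp h)
  obtain ⟨x, y, hxy⟩ : ∃ x y : ℤ, x * ℓ + y * L = 1 := Nat.isCoprime_iff_coprime.mpr hcop
  -- the representatives
  have hlow : ∀ b : ℤ, es1g1hkbLow ((L : ℤ) * b) ∈ gammaH L M H := fun b =>
    es1g1hkb_mem_gammaH_of L M H hML (by simp) (by simp)
  have hinf : es1g1hkbInf L ℓ x y hxy ∈ gammaH L M H :=
    es1g1hkb_mem_gammaH_of L M H hML (by simp)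
      (by rw [es1g1hkbInf_00]; exact ⟨-y, by linear_combination hxy⟩)
  let f : Option (ZMod ℓ) → gammaH L M H := fun i =>
    match i with
    | none => ⟨es1g1hkbInf L ℓ x y hxy, hinf⟩
    | some b => ⟨es1g1hkbLow ((L : ℤ) * ((b.val : ℕ) : ℤ)), hlow _⟩
  have key : ∀ i j : Option (ZMod ℓ),
      (ℓ : ℤ) ∣ (((f i : gammaH L M H) : SL(2, ℤ))⁻¹ * ((f j : gammaH L M H) : SL(2, ℤ))) 1 0 →
        i = j := by
    intro i j h
    rw [es1g1hkb_inv_mul_10] at h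
    cases i with
    | none =>
      cases j with
      | none => rfl
      | some b =>
        exfalso
        simp only [f, es1g1hkbInf_00, es1g1hkbInf_10, es1g1hkbLow_00, es1g1hkbLow_10] at h
        have h1 : (ℓ : ℤ) ∣ (L : ℤ) := by
          have h2 : (ℓ : ℤ) ∣ x * ℓ * ((L : ℤ) * ((b.val : ℕ) : ℤ)) :=
            Dvd.dvd.mul_right (Dvd.intro_left x rfl) _
          have h3 := (Int.dvd_iff_dvd_of_dvd_sub h).mp h2
          simpa using h3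
        exact hℓLz h1
    | some b =>
      cases j with
      | none =>
        exfalso
        simp only [f, es1g1hkbInf_00, es1g1hkbInf_10, es1g1hkbLow_00, es1g1hkbLow_10] at h
        have h1 : (ℓ : ℤ) ∣ (L : ℤ) := by
          have h2 : (ℓ : ℤ) ∣ (L : ℤ) * ((b.val : ℕ) : ℤ) * (x * ℓ) :=
            Dvd.dvd.mul_left (Dvd.intro_left x rfl) _
          have h3 := (Int.dvd_iff_dvd_of_dvd_sub h).mpr h2
          simpa using h3
        exact hℓLz h1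
      | some b' =>
        simp only [f, es1g1hkbLow_00, es1g1hkbLow_10] at h
        have h1 : (ℓ : ℤ) ∣ (L : ℤ) * (((b'.val : ℕ) : ℤ) - ((b.val : ℕ) : ℤ)) := by
          have : 1 * ((L : ℤ) * ((b'.val : ℕ) : ℤ)) - (L : ℤ) * ((b.val : ℕ) : ℤ) * 1
              = (L : ℤ) * (((b'.val : ℕ) : ℤ) - ((b.val : ℕ) : ℤ)) := by ring
          rwa [this] at h
        have h2 : (ℓ : ℤ) ∣ ((b'.val : ℕ) : ℤ) - ((b.val : ℕ) : ℤ) :=
          (hℓ'.dvd_or_dvd h1).resolve_left hℓLz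
        have h3 : (((b'.val : ℕ) : ℤ) : ZMod ℓ) = (((b.val : ℕ) : ℤ) : ZMod ℓ) :=
          (ZMod.intCast_eq_intCast_iff_dvd_sub _ _ _).mpr (by
            have := (dvd_neg (a := (ℓ : ℤ))).mpr h2
            simpa using this)
        have h4 : b' = b := by simpa using h3
        rw [h4]
  have hinj : Function.Injective
      (fun i : Option (ZMod ℓ) => (QuotientGroup.mk (f i) : gammaH L M H ⧸ subLevel L M H ℓ)) := by
    intro i j h
    have h1 : (f i)⁻¹ * f j ∈ subLevel L M H ℓ := QuotientGroup.eq.mp h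
    rw [Subgroup.mem_subgroupOf] at h1
    exact key i j (dvd_of_mem_gammaH_mul H ℓ h1)
  letI : Fintype (gammaH L M H ⧸ subLevel L M H ℓ) := Subgroup.fintypeQuotientOfFiniteIndex
  have hcard := Fintype.card_le_of_injective _ hinj
  rw [Fintype.card_option, ZMod.card] at hcard
  rwa [Subgroup.index_eq_card, Nat.card_eq_fintype_card]

end Index

end Fermat.Agent.ES1

end
end ZBES1_001_11

/-! ### bundled: `Fermat.Agent.RT.K6.Plan` -/
section ZBES1_001_12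
/-
K-machine, piece K6 — TYPE `χ` AT A PRIME `r` OF A `Γ_H`-LEVEL: interface (helper4).
Plan: `NOTES/RT-K6.md`.  World: ES₁ (`F = fieldBar L M H ⊂ ℚ̄((q))`, `JH L M H = Pic⁰ F`).

`r` prime, `r ∣ M ∣ L`, `r ∥ L`; `A ⊂ ℚ̄` a valuation ring over `r`; `σ` in the inertia group of
`A`; `c ∈ (ℤ/M)ˣ` the class with `σ ζ = ζ ^ c` on `μ_r` and `c ≡ 1` mod `M / r`; `δ = δ_c`.

* `IsCycAt M r σ c`  : `c` is the cyclotomic image of `σ` at `r` (trivial away from `r`).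
* `IsAtR M r c`      : `c ≡ 1` mod `M / r` (a diamond at `r`).
* `IsStarStable M r H` : `±H` is stable under inverting the `r`-component (true for products);
                       ALL statements below are for such `H` (helper96: `StmtB` is false otherwise).
* `chiExpr g δ u`    : `(σ − 1)(δσ − 1) u`, multiplicatively.
* `StmtChiKummer`    : **(χ-K)** `(δ′ − 1)(σ − 1)(δ_c σ − 1) u ∈ F^{×m}` for `m ∣ div u`, `r ∤ m`,
                       `δ′` a diamond at `r`.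
* `StmtChiJ`         : **(χ-J)** `(σ − 1)(δ_c σ − 1) = 0` on `JH[m]`, `r ∤ m`.
* `IsWAt L M H r w`, `StmtB` : **piece B** — the Atkin–Lehner automorphism `w = w_r` of
                       `fieldBar L M H` with `σ w σ⁻¹ = w δ_{c(σ)}`.
* `StmtDiamondGauss` : **piece G** — the diamonds preserve the Gauss valuation `v_∞`
                       (`v_∞` is the only extension of the Gauss valuation of the `Γ₀(L)`-field).
The sign was checked against the ES₁ normalisation by helper36 (note of 21:35Z): on the `g`-part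
`δ_c = θ(c)⁻¹`, `det ρ = χ_cyc · θ∘c`, so the eigenvalues of `σ ∈ I_r` are `1`, `θ(c(σ))`.
-/

set_option autoImplicit false

noncomputable section

namespace Fermat.Agent.RT.K6

open ModularCurve AlgebraicCurve HahnSeries Fermat.Agent.ES Fermat.Agent.ES1
  Fermat.Agent.ES1.G2

/-- `c ≡ 1` mod `M / r`: the diamond `δ_c` is a diamond "at `r`". -/
def IsAtR (M r : ℕ) (c : (ZMod M)ˣ) : Prop :=
  (((c : ZMod M).val : ℕ) : ZMod (M / r)) = 1

/-- `±H` is stable under the involution `*` of `(ℤ/M)ˣ = (ℤ/r)ˣ × (ℤ/(M/r))ˣ` which inverts the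
`r`-component (helper96, 21:49Z: `w_r` maps `F_H` ONTO `F_{H*}`, so `w_r` is an automorphism of
`fieldBar L M H` only for such `H`; true for `H = ∏ H_q`, the case of the K-machine). -/
def IsStarStable (M r : ℕ) (H : Subgroup (ZMod M)ˣ) : Prop :=
  ∀ h ∈ H, ∀ h' : (ZMod M)ˣ,
    (((h' : ZMod M).val : ℕ) : ZMod r) = ((((h⁻¹ : (ZMod M)ˣ) : ZMod M).val : ℕ) : ZMod r) →
    (((h' : ZMod M).val : ℕ) : ZMod (M / r)) = (((h : ZMod M).val : ℕ) : ZMod (M / r)) →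
      h' ∈ pmH H

/-- `c` is the cyclotomic image of `σ` at `r`: `σ ζ = ζ ^ c` for `ζ ∈ μ_r`, and `c ≡ 1` mod
`M / r`. -/
def IsCycAt (M r : ℕ) (σ : QbH ≃ₐ[ℚ] QbH) (c : (ZMod M)ˣ) : Prop :=
  (∀ ζ : QbH, ζ ^ r = 1 → σ ζ = ζ ^ ((c : ZMod M).val)) ∧ IsAtR M r c

/-- `(σ − 1)(δσ − 1) u` in multiplicative notation: `σδσu · u / (σu · δσu)`. -/
def chiExpr {L M : ℕ} {H : Subgroup (ZMod M)ˣ} (σ : QbH ≃ₐ[ℚ] QbH)
    (δ : fieldBar L M H ≃ₐ[QbH] fieldBar L M H) (u : fieldBar L M H) : fieldBar L M H :=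
  (arithmeticGalois (fieldQ L M H) σ • δ (arithmeticGalois (fieldQ L M H) σ • u) * u) /
    ((arithmeticGalois (fieldQ L M H) σ • u) * δ (arithmeticGalois (fieldQ L M H) σ • u))

/-- **(χ-K)**: type `χ` at `r`, Kummer form.  For `u ∈ F^×` with `m ∣ div u`, `r ∤ m`, `σ` in
an inertia group at `r` with cyclotomic image `c`, and every diamond `δ′` at `r`:
`(δ′ − 1)(σ − 1)(δ_c σ − 1) u` is an `m`-th power. -/
def StmtChiKummer : Prop :=
  ∀ (L M : ℕ) (H : Subgroup (ZMod M)ˣ) (r : ℕ), L ≠ 0 → M ∣ L → r.Prime → r ∣ M → ¬ r ^ 2 ∣ L →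
    IsStarStable M r H →
    ∀ A : ValuationSubring QbH, A.LiesOverPrime r →
      ∀ m : ℕ, ¬ r ∣ m →
        ∀ σ ∈ A.inertiaSubgroupIn ℚ, ∀ c : (ZMod M)ˣ, IsCycAt M r σ c →
        ∀ δ : fieldBar L M H ≃ₐ[QbH] fieldBar L M H, IsDiamondH L M H c δ →
        ∀ (c' : (ZMod M)ˣ), IsAtR M r c' →
        ∀ δ' : fieldBar L M H ≃ₐ[QbH] fieldBar L M H, IsDiamondH L M H c' δ' →
          ∀ u : fieldBar L M H, u ≠ 0 →
            (∀ P : Place QbH (fieldBar L M H), (m : ℤ) ∣ P.ord u) →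
              ∃ h : fieldBar L M H, h ^ m = δ' (chiExpr σ δ u) / chiExpr σ δ u

/-- **(χ-J)**: type `χ` at `r` on the Jacobian: `(σ − 1)(δ_c σ − 1) x = 0` for `x ∈ JH[m]`,
`r ∤ m`, `σ` in an inertia group at `r` with cyclotomic image `c`. -/
def StmtChiJ : Prop :=
  ∀ (L M : ℕ) (H : Subgroup (ZMod M)ˣ) (r : ℕ), L ≠ 0 → M ∣ L → r.Prime → r ∣ M → ¬ r ^ 2 ∣ L →
    IsStarStable M r H →
    ∀ A : ValuationSubring QbH, A.LiesOverPrime r →
      ∀ m : ℕ, ¬ r ∣ m →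
        ∀ σ ∈ A.inertiaSubgroupIn ℚ, ∀ c : (ZMod M)ˣ, IsCycAt M r σ c →
        ∀ δ : fieldBar L M H ≃ₐ[QbH] fieldBar L M H, IsDiamondH L M H c δ →
          ∀ x : JH L M H, m • x = 0 →
            σ • diamondJ δ (σ • x) - σ • x - diamondJ δ (σ • x) + x = 0

/-- **The Atkin–Lehner automorphism `w_r` of `fieldBar L M H`** (`r ∥ L`, `r ∣ M`). -/
structure IsWAt (L M : ℕ) (H : Subgroup (ZMod M)ˣ) (r : ℕ)
    (w : fieldBar L M H ≃ₐ[QbH] fieldBar L M H) : Prop where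
  /-- `σ w σ⁻¹ = w δ_{c(σ)}`, in the form `σ w = w δ σ` -/
  galois : ∀ (σ : QbH ≃ₐ[ℚ] QbH) (c : (ZMod M)ˣ), IsCycAt M r σ c →
    ∀ δ : fieldBar L M H ≃ₐ[QbH] fieldBar L M H, IsDiamondH L M H c δ →
      ∀ x : fieldBar L M H,
        arithmeticGalois (fieldQ L M H) σ • w x =
          w (δ (arithmeticGalois (fieldQ L M H) σ • x))
  /-- on the `Γ₀(L)`-field `w` is the Atkin–Lehner involution: `j(q^d) ↦ j(q^{dr})` for `r ∤ d`,
  `j(q^d) ↦ j(q^{d/r})` for `r ∣ d` -/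
  map_j : ∀ (d d' : ℕ) [NeZero d] [NeZero d'], d ∣ L →
    d' = (if r ∣ d then d / r else d * r) → ∀ x : fieldBar L M H,
      (x : LaurentSeries QbH) = qExpand QbH d (jqModC QbH) →
        ((w x : fieldBar L M H) : LaurentSeries QbH) = qExpand QbH d' (jqModC QbH)
  /-- `w δ_c = δ_{c⁻¹} w` for the diamonds at `r` -/
  diamond : ∀ (c : (ZMod M)ˣ), IsAtR M r c →
    ∀ δ δ' : fieldBar L M H ≃ₐ[QbH] fieldBar L M H,
      IsDiamondH L M H c δ → IsDiamondH L M H c⁻¹ δ' → ∀ x : fieldBar L M H, w (δ x) = δ' (w x)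

/-- **Piece B**: `w_r` exists. -/
def StmtB : Prop :=
  ∀ (L M : ℕ) (H : Subgroup (ZMod M)ˣ) (r : ℕ), L ≠ 0 → M ∣ L → r.Prime → r ∣ M → ¬ r ^ 2 ∣ L →
    IsStarStable M r H →
    ∃ w : fieldBar L M H ≃ₐ[QbH] fieldBar L M H, IsWAt L M H r w

/-- **Piece G**: the diamonds preserve the Gauss valuation `v_∞` (at every valuation ring `A`
of `ℚ̄`, every level). -/
def StmtDiamondGauss : Prop :=
  ∀ (L M : ℕ) (H : Subgroup (ZMod M)ˣ), L ≠ 0 → M ∣ L → ∀ A : ValuationSubring QbH,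
    ∀ (c : (ZMod M)ˣ) (δ : fieldBar L M H ≃ₐ[QbH] fieldBar L M H), IsDiamondH L M H c δ →
      ∀ e : fieldBar L M H, ReducesToOneF A (fieldBar L M H) e →
        ReducesToOneF A (fieldBar L M H) (δ e)

end Fermat.Agent.RT.K6

end
end ZBES1_001_12

/-! ### bundled: `Fermat.Agent.RT.K6.PlanP` -/
section ZBES1_001_13
/-
K-machine, piece K6 — the statements of `RT/K6/Plan.lean` in the TAME case (helper4).

The proof of (χ-K) goes through the Kummer cover `F_H = F_{H⁺}(y)`, `y ^ d = u₀`, where `H⁺` is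
`H` with all diamonds at `r` added and `d = [H⁺ : H]`.  The route needs `F_H / F_{H⁺}` unramified
at every place (`ES1.stmtRamJH`: ramification over the `j`-line divides `2`, `3`, `L`), i.e.
`gcd (d, 6 L) = 1`.  This is the case of the K-machine (`d` a power of `p ≥ 5`, `p ∤ L`).

* `IsTameAt L M r H` : some `d` prime to `6 L` kills ALL diamonds modulo `±H`.
* `StmtChiKummerP`, `StmtChiJP` : `StmtChiKummer`, `StmtChiJ` with the extra hypothesis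
  `IsTameAt L M r H`.  THESE are the targets of pieces D, E, F, AUX.
-/

set_option autoImplicit false

noncomputable section

namespace Fermat.Agent.RT.K6

open ModularCurve AlgebraicCurve HahnSeries Fermat.Agent.ES Fermat.Agent.ES1
  Fermat.Agent.ES1.G2

/-- the WHOLE group of diamonds `(ℤ/M)ˣ / ±H` has exponent prime to `6 L` (v2, 23:10Z: ALL `c`,
not only the diamonds at `r`, and `±H`: then `F_H / F_{Γ₀(L)}` is a Kummer extension of exponent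
prime to `6 L`, unramified at every place; the `K`-machine has `(ℤ/M)ˣ / ±H` a `p`-group, `p ≥ 5`,
`p ∤ L`).  The argument `r` is kept for compatibility. -/
def IsTameAt (L M _r : ℕ) (H : Subgroup (ZMod M)ˣ) : Prop :=
  ∃ d : ℕ, Nat.Coprime d (6 * L) ∧ ∀ c : (ZMod M)ˣ, c ^ d ∈ pmH H

/-- **(χ-K), tame case.** -/
def StmtChiKummerP : Prop :=
  ∀ (L M : ℕ) (H : Subgroup (ZMod M)ˣ) (r : ℕ), L ≠ 0 → M ∣ L → r.Prime → r ∣ M → ¬ r ^ 2 ∣ L →
    IsStarStable M r H → IsTameAt L M r H →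
    ∀ A : ValuationSubring QbH, A.LiesOverPrime r →
      ∀ m : ℕ, ¬ r ∣ m →
        ∀ σ ∈ A.inertiaSubgroupIn ℚ, ∀ c : (ZMod M)ˣ, IsCycAt M r σ c →
        ∀ δ : fieldBar L M H ≃ₐ[QbH] fieldBar L M H, IsDiamondH L M H c δ →
        ∀ (c' : (ZMod M)ˣ), IsAtR M r c' →
        ∀ δ' : fieldBar L M H ≃ₐ[QbH] fieldBar L M H, IsDiamondH L M H c' δ' →
          ∀ u : fieldBar L M H, u ≠ 0 →
            (∀ P : Place QbH (fieldBar L M H), (m : ℤ) ∣ P.ord u) →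
              ∃ h : fieldBar L M H, h ^ m = δ' (chiExpr σ δ u) / chiExpr σ δ u

/-- **(χ-J), tame case.** -/
def StmtChiJP : Prop :=
  ∀ (L M : ℕ) (H : Subgroup (ZMod M)ˣ) (r : ℕ), L ≠ 0 → M ∣ L → r.Prime → r ∣ M → ¬ r ^ 2 ∣ L →
    IsStarStable M r H → IsTameAt L M r H →
    ∀ A : ValuationSubring QbH, A.LiesOverPrime r →
      ∀ m : ℕ, ¬ r ∣ m →
        ∀ σ ∈ A.inertiaSubgroupIn ℚ, ∀ c : (ZMod M)ˣ, IsCycAt M r σ c →
        ∀ δ : fieldBar L M H ≃ₐ[QbH] fieldBar L M H, IsDiamondH L M H c δ →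
          ∀ x : JH L M H, m • x = 0 →
            σ • diamondJ δ (σ • x) - σ • x - diamondJ δ (σ • x) + x = 0

/-- the general statements imply the tame ones -/
theorem stmtChiKummerP_of (h : StmtChiKummer) : StmtChiKummerP :=
  fun L M H r hL hM hr hrM hr2 hstar _ => h L M H r hL hM hr hrM hr2 hstar

theorem stmtChiJP_of (h : StmtChiJ) : StmtChiJP :=
  fun L M H r hL hM hr hrM hr2 hstar _ => h L M H r hL hM hr hrM hr2 hstar

end Fermat.Agent.RT.K6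

end
end ZBES1_001_13

/-! ### bundled: `Fermat.Agent.RT.K6.FPlan` -/
section ZBES1_001_14
/-
K-machine, piece K6 / F (helper66): interface.

* `StmtUnipH`   : **UNIP for `Γ_H`-levels without diamonds at `r`** (Kummer form): if all diamonds at
                  `r` are trivial on `fieldBar L M H` (`IsAtR M r c → c ∈ ±H`), then
                  `(σ − 1)² u ∈ F^{×m}` for `σ` in an inertia group at `r`, `m ∣ div u`, `r ∤ m`.
                  (For `M = r` it is `UNIP.StmtUnipKummer`.  It is the case `d = 1` of piece E.)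
* `IsDivJ x`    : `x` is divisible in `JH L M H` (every member of a Tate tower is).
* `StmtChiJDiv` : **(χ-J) on the divisible elements**, tame case: `StmtChiJP` with the extra
                  hypothesis `IsDivJ x`.
* `StmtTorsDivH`: the torsion of `JH L M H` is divisible (NOT in the library; S27-type statement).

Deliverables (`RT/K6/F.lean`):
  `stmtChiJDiv_of : StmtChiKummerP → StmtUnipH → StmtChiJDiv`,
  `stmtChiJP_of_div : StmtTorsDivH → StmtChiKummerP → StmtUnipH → StmtChiJP`.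
-/

set_option autoImplicit false

noncomputable section

namespace Fermat.Agent.RT.K6

open ModularCurve AlgebraicCurve HahnSeries Fermat.Agent.ES Fermat.Agent.ES1
  Fermat.Agent.ES1.G2

/-- **UNIP for the levels without diamonds at `r`**, Kummer form. -/
def StmtUnipH : Prop :=
  ∀ (L M : ℕ) (H : Subgroup (ZMod M)ˣ) (r : ℕ), L ≠ 0 → M ∣ L → r.Prime → r ∣ M → ¬ r ^ 2 ∣ L →
    (∀ c : (ZMod M)ˣ, IsAtR M r c → c ∈ pmH H) →
    ∀ A : ValuationSubring QbH, A.LiesOverPrime r →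
      ∀ m : ℕ, ¬ r ∣ m →
        ∀ σ ∈ A.inertiaSubgroupIn ℚ,
          ∀ u : fieldBar L M H, u ≠ 0 →
            (∀ P : Place QbH (fieldBar L M H), (m : ℤ) ∣ P.ord u) →
              ∃ h : fieldBar L M H,
                h ^ m =
                  (arithmeticGalois (fieldQ L M H) σ •
                      ((arithmeticGalois (fieldQ L M H) σ • u) / u)) /
                    ((arithmeticGalois (fieldQ L M H) σ • u) / u)

/-- `x` is divisible -/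
def IsDivJ {L M : ℕ} {H : Subgroup (ZMod M)ˣ} (x : JH L M H) : Prop :=
  ∀ e : ℕ, e ≠ 0 → ∃ y : JH L M H, e • y = x

/-- **(χ-J) on the divisible elements**, tame case. -/
def StmtChiJDiv : Prop :=
  ∀ (L M : ℕ) (H : Subgroup (ZMod M)ˣ) (r : ℕ), L ≠ 0 → M ∣ L → r.Prime → r ∣ M → ¬ r ^ 2 ∣ L →
    IsStarStable M r H → IsTameAt L M r H →
    ∀ A : ValuationSubring QbH, A.LiesOverPrime r →
      ∀ m : ℕ, ¬ r ∣ m →
        ∀ σ ∈ A.inertiaSubgroupIn ℚ, ∀ c : (ZMod M)ˣ, IsCycAt M r σ c →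
        ∀ δ : fieldBar L M H ≃ₐ[QbH] fieldBar L M H, IsDiamondH L M H c δ →
          ∀ x : JH L M H, m • x = 0 → IsDivJ x →
            σ • diamondJ δ (σ • x) - σ • x - diamondJ δ (σ • x) + x = 0

/-- the torsion of `JH L M H` is divisible -/
def StmtTorsDivH : Prop :=
  ∀ (L M : ℕ) (H : Subgroup (ZMod M)ˣ), L ≠ 0 → M ∣ L →
    ∀ (m : ℕ) (x : JH L M H), m ≠ 0 → m • x = 0 → IsDivJ x

end Fermat.Agent.RT.K6

end
end ZBES1_001_14

/-! ### bundled: `Fermat.Agent.RT.K6.D0` -/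
section ZBES1_001_15

/-!
# RT-K6 / D0 — the Kummer generator (Lagrange resolvent) of `fieldC K L M H` (helper36)

`M ∣ L`, `H, D ≤ (ℤ/M)ˣ`, `ψ : (ℤ/M)ˣ →* Kˣ` a character (in the application `D` = the diamonds
at `r`, `ψ` trivial on `±H` and faithful on the image of `D` in `(ℤ/M)ˣ/±H`).

* `rtk6d0Y K M H D ψ = Σ_{c ∈ D} ψ(c)⁻¹ S_{M,H,c} ∈ K((q))` — the resolvent.
* `rtk6d0Y_mem`      : it lies in `fieldC K L M H`.
* `rtk6d0_map`       : an automorphism `σ` with `σ S_b = S_{bc}` (`c ∈ D`) maps `y` to `ψ(c) · y`.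
* `rtk6d0N M H D`    : `n₀ = #(D ∩ ±H)`; `rtk6d0N_pos`.
* `rtk6d0_coeff_three`, `rtk6d0_coeff_lt` : `y = n₀ q³ + …` (if `ψ` is trivial on `±H`, `3 ≤ M`).
* `rtk6d0Y_ne_zero`  : `y ≠ 0` in characteristic `0`.
* `rtk6d0_kronPrim`  : over `ℚ̄`, `y` is primitive at every valuation ring `A` in which `n₀` is a
  unit (e.g. `A` over `r`, `D` the diamonds at `r`: `n₀ ∣ r − 1`).
-/

set_option autoImplicit false

noncomputable section

namespace Fermat.Agent.RT.K6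

open HahnSeries ModularCurve AlgebraicCurve Fermat.Agent.ES Fermat.Agent.ES1
  Fermat.Agent.ES1.G2

section Resolvent

variable (K : Type*) [Field K] (M : ℕ) [NeZero M] (H D : Subgroup (ZMod M)ˣ)
  (ψ : (ZMod M)ˣ →* Kˣ)

open Classical in
/-- the elements of `D`, as a finset -/
def rtk6d0Set : Finset (ZMod M)ˣ := Finset.univ.filter (· ∈ D)

variable {M} in
theorem rtk6d0_mem_set {D : Subgroup (ZMod M)ˣ} {c : (ZMod M)ˣ} :
    c ∈ rtk6d0Set M D ↔ c ∈ D := by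
  classical
  simp [rtk6d0Set]

/-- **The Lagrange resolvent** `y_ψ = Σ_{c ∈ D} ψ(c)⁻¹ S_{M,H,c}`. -/
def rtk6d0Y : LaurentSeries K :=
  ∑ c ∈ rtk6d0Set M D, HahnSeries.C (((ψ c)⁻¹ : Kˣ) : K) * sS K M H c

theorem rtk6d0_sS_mem {L : ℕ} (hML : M ∣ L) (c : (ZMod M)ˣ) :
    sS K M H c ∈ fieldC K L M H := by
  have h1 : (1 : ℕ) * M ∣ L := by rwa [one_mul]
  have := qExpand_sS_mem K L M H (e := 1) h1 c
  rwa [qExpand_one_apply] at this

theorem rtk6d0_C_mem {L : ℕ} (a : K) : (HahnSeries.C a : LaurentSeries K) ∈ fieldC K L M H := by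
  rw [← LaurentSeries.algebraMap_apply K a]
  exact (fieldC K L M H).algebraMap_mem a

theorem rtk6d0Y_mem {L : ℕ} (hML : M ∣ L) : rtk6d0Y K M H D ψ ∈ fieldC K L M H := by
  unfold rtk6d0Y
  exact sum_mem fun c _ => mul_mem (rtk6d0_C_mem K M H _) (rtk6d0_sS_mem K M H hML c)

/-- **The eigen-property.**  An automorphism `σ` of `fieldC K L M H` with `σ S_b = S_{bc}` for all
`b` (`c ∈ D`) maps the resolvent `y` to `ψ(c) · y`. -/
theorem rtk6d0_map {L : ℕ} (hML : M ∣ L) {c : (ZMod M)ˣ} (hc : c ∈ D)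
    (σ : fieldC K L M H ≃ₐ[K] fieldC K L M H)
    (hσ : ∀ b : (ZMod M)ˣ,
      ((σ ⟨sS K M H b, rtk6d0_sS_mem K M H hML b⟩ : fieldC K L M H) : LaurentSeries K)
        = sS K M H (b * c)) :
    ((σ ⟨rtk6d0Y K M H D ψ, rtk6d0Y_mem K M H D ψ hML⟩ : fieldC K L M H) : LaurentSeries K)
      = HahnSeries.C ((ψ c : Kˣ) : K) * rtk6d0Y K M H D ψ := by
  classical
  have hY : (⟨rtk6d0Y K M H D ψ, rtk6d0Y_mem K M H D ψ hML⟩ : fieldC K L M H)
      = ∑ b ∈ rtk6d0Set M D, (((ψ b)⁻¹ : Kˣ) : K) •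
          (⟨sS K M H b, rtk6d0_sS_mem K M H hML b⟩ : fieldC K L M H) := by
    apply Subtype.ext
    rw [AddSubmonoidClass.coe_finsetSum]
    unfold rtk6d0Y
    refine Finset.sum_congr rfl fun b _ => ?_
    rw [IntermediateField.coe_smul, Algebra.smul_def, LaurentSeries.algebraMap_apply]
  rw [hY, map_sum, AddSubmonoidClass.coe_finsetSum]
  have h1 : ∀ b ∈ rtk6d0Set M D,
      ((σ ((((ψ b)⁻¹ : Kˣ) : K) •
          (⟨sS K M H b, rtk6d0_sS_mem K M H hML b⟩ : fieldC K L M H)) : fieldC K L M H) :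
        LaurentSeries K)
      = HahnSeries.C ((ψ c : Kˣ) : K) *
          (HahnSeries.C (((ψ (b * c))⁻¹ : Kˣ) : K) * sS K M H (b * c)) := by
    intro b _
    have hu : ((ψ b)⁻¹ : Kˣ) = ψ c * (ψ (b * c))⁻¹ := by
      rw [map_mul, mul_inv_rev, mul_inv_cancel_left]
    rw [map_smul, IntermediateField.coe_smul, Algebra.smul_def, LaurentSeries.algebraMap_apply,
      hσ b, ← mul_assoc, ← map_mul, hu, Units.val_mul]
  rw [Finset.sum_congr rfl h1, ← Finset.mul_sum]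
  congr 1
  unfold rtk6d0Y
  exact Finset.sum_equiv (Equiv.mulRight c)
    (fun b => by
      rw [rtk6d0_mem_set, rtk6d0_mem_set, Equiv.coe_mulRight]
      exact (D.mul_mem_cancel_right hc).symm)
    (fun b _ => rfl)

/-! ## The leading term -/

open Classical in
/-- `n₀ = #(D ∩ ±H)` -/
def rtk6d0N : ℕ := ((rtk6d0Set M D).filter fun c => InPM H c (1 : ZMod M)).card

theorem rtk6d0N_pos : 0 < rtk6d0N M H D := by
  classical
  unfold rtk6d0N
  rw [Finset.card_pos]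
  refine ⟨1, ?_⟩
  rw [Finset.mem_filter, rtk6d0_mem_set]
  refine ⟨D.one_mem, ?_⟩
  have := InPM.self (H := H) (1 : (ZMod M)ˣ)
  rwa [Units.val_one] at this

variable {M H}

/-- `lead = 1` iff the class is `±H` -/
theorem rtk6d0_lead_eq_one_iff (hM : 3 ≤ M) (c : (ZMod M)ˣ) :
    es1fLead M H c = 1 ↔ InPM H c (1 : ZMod M) := by
  constructor
  · intro h
    have h1 := es1f_lead_mem (H := H) hM c
    rw [h, es1f_mem_cosetReps] at h1
    have h2 := h1.2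
    rwa [Nat.cast_one] at h2
  · intro h
    have h1 : (1 : ℕ) ∈ cosetReps M H c := by
      rw [es1f_mem_cosetReps]
      refine ⟨⟨le_rfl, ?_⟩, by rwa [Nat.cast_one]⟩
      omega
    have h2 := es1f_lead_mem (H := H) hM c
    rw [es1f_mem_cosetReps] at h2
    have h3 : es1fLead M H c ≤ 1 := by
      rw [es1fLead, dif_pos ⟨1, h1⟩]
      exact Finset.min'_le _ _ h1
    omega

theorem rtk6d0_one_le_lead (hM : 3 ≤ M) (c : (ZMod M)ˣ) : 1 ≤ es1fLead M H c := by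
  have h2 := es1f_lead_mem (H := H) hM c
  rw [es1f_mem_cosetReps] at h2
  exact h2.1.1

/-- the coefficients of `S_{M,H,c}` up to `q³` -/
theorem rtk6d0_sS_coeff_lt (hM : 3 ≤ M) (c : (ZMod M)ˣ) {k : ℤ} (hk : k < 3) :
    (sS K M H c).coeff k = 0 := by
  have h := es1f_monicAt_sS K (H := H) hM c
  refine h.2 k ?_
  have := rtk6d0_one_le_lead (H := H) hM c
  have : (1 : ℤ) ≤ es1fLead M H c := by exact_mod_cast this
  linarith

open Classical in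
theorem rtk6d0_sS_coeff_three (hM : 3 ≤ M) (c : (ZMod M)ˣ) :
    (sS K M H c).coeff 3 = if InPM H c (1 : ZMod M) then 1 else 0 := by
  have h := es1f_monicAt_sS K (H := H) hM c
  by_cases hc : InPM H c (1 : ZMod M)
  · rw [if_pos hc]
    have h1 := (rtk6d0_lead_eq_one_iff hM c).mpr hc
    rw [h1] at h
    have h2 := h.1
    norm_num at h2
    exact h2
  · rw [if_neg hc]
    refine h.2 3 ?_
    have h1 : es1fLead M H c ≠ 1 := fun h1 => hc ((rtk6d0_lead_eq_one_iff hM c).mp h1)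
    have h2 := rtk6d0_one_le_lead (H := H) hM c
    have h3 : 2 ≤ es1fLead M H c := by omega
    have : (2 : ℤ) ≤ es1fLead M H c := by exact_mod_cast h3
    linarith

variable {K} in
/-- `ψ` is trivial on `±H` -/
theorem rtk6d0_psi_eq_one {ψ : (ZMod M)ˣ →* Kˣ} (hψH : ∀ h ∈ H, ψ h = 1) (hψ1 : ψ (-1) = 1)
    {c : (ZMod M)ˣ} (hc : InPM H c (1 : ZMod M)) : ψ c = 1 := by
  obtain ⟨h, hh, h1 | h1⟩ := hc
  · have h2 : c * h = 1 := by
      apply Units.ext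
      rw [Units.val_one]
      exact h1.symm
    have h3 := congrArg ψ h2
    rw [map_mul, hψH h hh, mul_one, map_one] at h3
    exact h3
  · have h2 : c * h = -1 := by
      apply Units.ext
      rw [Units.val_neg, Units.val_one, h1, neg_neg]
    have h3 := congrArg ψ h2
    rw [map_mul, hψH h hh, mul_one, hψ1] at h3
    exact h3

variable (M H) in
theorem rtk6d0Y_coeff (k : ℤ) :
    (rtk6d0Y K M H D ψ).coeff k
      = ∑ c ∈ rtk6d0Set M D, (((ψ c)⁻¹ : Kˣ) : K) * (sS K M H c).coeff k := by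
  unfold rtk6d0Y
  rw [HahnSeries.coeff_sum]
  refine Finset.sum_congr rfl fun c _ => ?_
  rw [HahnSeries.C_mul_eq_smul, HahnSeries.coeff_smul, smul_eq_mul]

/-- `y = n₀ q³ + …` : the coefficients below `q³` vanish -/
theorem rtk6d0_coeff_lt (hM : 3 ≤ M) {k : ℤ} (hk : k < 3) :
    (rtk6d0Y K M H D ψ).coeff k = 0 := by
  rw [rtk6d0Y_coeff]
  refine Finset.sum_eq_zero fun c _ => ?_
  rw [rtk6d0_sS_coeff_lt K hM c hk, mul_zero]

/-- `y = n₀ q³ + …` : the coefficient of `q³` is `n₀ = #(D ∩ ±H)` -/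
theorem rtk6d0_coeff_three (hM : 3 ≤ M) (hψH : ∀ h ∈ H, ψ h = 1) (hψ1 : ψ (-1) = 1) :
    (rtk6d0Y K M H D ψ).coeff 3 = (rtk6d0N M H D : K) := by
  classical
  rw [rtk6d0Y_coeff, rtk6d0N, Finset.card_filter, Nat.cast_sum]
  refine Finset.sum_congr rfl fun c _ => ?_
  rw [rtk6d0_sS_coeff_three K hM c]
  by_cases hc : InPM H c (1 : ZMod M)
  · rw [if_pos hc, if_pos hc, rtk6d0_psi_eq_one hψH hψ1 hc, inv_one, Units.val_one, mul_one,
      Nat.cast_one]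
  · rw [if_neg hc, if_neg hc, mul_zero, Nat.cast_zero]

/-- the resolvent is nonzero in characteristic `0` -/
theorem rtk6d0Y_ne_zero [CharZero K] (hM : 3 ≤ M) (hψH : ∀ h ∈ H, ψ h = 1) (hψ1 : ψ (-1) = 1) :
    rtk6d0Y K M H D ψ ≠ 0 := by
  intro h0
  have h1 := rtk6d0_coeff_three K D ψ hM hψH hψ1
  rw [h0, HahnSeries.coeff_zero] at h1
  have h2 := rtk6d0N_pos M H D
  have h3 : (rtk6d0N M H D : K) ≠ 0 := by exact_mod_cast h2.ne'
  exact h3 h1.symm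

/-- a root of unity lies in every valuation subring -/
theorem rtk6d0_unit_mem (A : ValuationSubring K) (u : Kˣ) {n : ℕ} (hn : n ≠ 0)
    (hu : u ^ n = 1) : (u : K) ∈ A := by
  rw [← A.valuation_le_one_iff]
  have h1 : A.valuation (u : K) ^ n = 1 := by
    rw [← map_pow, ← Units.val_pow_eq_pow_val, hu, Units.val_one, map_one]
  exact ((pow_eq_one_iff_of_nonneg zero_le' hn).mp h1).le

/-- **Primitivity.**  The resolvent is integral at every valuation subring `A`, and primitive if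
`n₀` is a unit of `A`. -/
theorem rtk6d0_kronPrim (A : ValuationSubring K) (hM : 3 ≤ M) (hψH : ∀ h ∈ H, ψ h = 1)
    (hψ1 : ψ (-1) = 1) (hn : (rtk6d0N M H D : K) ∉ A.nonunits) :
    KronPrim A (rtk6d0Y K M H D ψ) := by
  refine ⟨fun k => ?_, 3, by rw [rtk6d0_coeff_three K D ψ hM hψH hψ1]; exact hn⟩
  rw [rtk6d0Y_coeff]
  refine sum_mem fun c _ => mul_mem ?_ ?_
  · have hcard : (ψ c)⁻¹ ^ Fintype.card (ZMod M)ˣ = 1 := by
      rw [inv_pow, ← map_pow, pow_card_eq_one, map_one, inv_one]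
    exact rtk6d0_unit_mem K A _ Fintype.card_ne_zero hcard
  · unfold sS
    rw [coeffMap_coeff]
    exact intCast_mem A _

end Resolvent

end Fermat.Agent.RT.K6

end
end ZBES1_001_15

/-! ### bundled: `Fermat.Agent.RT.K6.CheapZero` -/
section ZBES1_001_16
/-
K-machine, piece K6, piece C0 (helper96): the cheap half at the second Gauss valuation
`v_0 = v_∞ ∘ w`, `w = w_r` the Atkin–Lehner automorphism of piece B.

For `σ` in the inertia group of `A` with cyclotomic image `c` at `r`, `δ = δ_c`, `h := δ σ` and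
`u ∈ F^×`: `w (c₀ · h(u) / u)` reduces to one at `v_∞` for a constant `c₀ ≠ 0`
(`σ w = w δ σ`, so `w (h u / u) = σ (w u) / (w u)`, and C∞ for `w u`).
* `rtk6c0_cheap_zero`      : for any `w` with `IsWAt L M H r w`;
* `rtk6c0_w_chiExpr`       : `w (χ-expression of u) = σ(w x′) / w x′ · …` in the form used by E:
                             `w (chiExpr σ δ u) = (σ • w x′) / w x′`, `x′ := δ (σ u) / u`.
-/

set_option autoImplicit false

noncomputable section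

namespace Fermat.Agent.RT.K6

open ModularCurve AlgebraicCurve HahnSeries Fermat.Agent.ES Fermat.Agent.ES.G2
open Fermat.Agent.ES1 Fermat.Agent.ES1.G2

/-- `w (δ (σ u) / u) = σ (w u) / w u` -/
theorem rtk6c0_w_quot {L M : ℕ} {H : Subgroup (ZMod M)ˣ} {r : ℕ}
    {w : fieldBar L M H ≃ₐ[QbH] fieldBar L M H} (hw : IsWAt L M H r w)
    (σ : QbH ≃ₐ[ℚ] QbH) (c : (ZMod M)ˣ) (hc : IsCycAt M r σ c)
    (δ : fieldBar L M H ≃ₐ[QbH] fieldBar L M H) (hδ : IsDiamondH L M H c δ)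
    (u : fieldBar L M H) :
    w (δ (arithmeticGalois (fieldQ L M H) σ • u) / u) =
      (arithmeticGalois (fieldQ L M H) σ • w u) / w u := by
  rw [map_div₀, hw.galois σ c hc δ hδ u]

/-- **Cheap half at `v_0 = v_∞ ∘ w`.** -/
theorem rtk6c0_cheap_zero {L M : ℕ} {H : Subgroup (ZMod M)ˣ} {r : ℕ}
    {w : fieldBar L M H ≃ₐ[QbH] fieldBar L M H} (hw : IsWAt L M H r w)
    (A : ValuationSubring QbH) (σ : QbH ≃ₐ[ℚ] QbH) (hσ : σ ∈ A.inertiaSubgroupIn ℚ)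
    (c : (ZMod M)ˣ) (hc : IsCycAt M r σ c)
    (δ : fieldBar L M H ≃ₐ[QbH] fieldBar L M H) (hδ : IsDiamondH L M H c δ)
    (u : fieldBar L M H) (hu : u ≠ 0) :
    ∃ c₀ : QbH, c₀ ≠ 0 ∧
      ReducesToOneF A (fieldBar L M H)
        (w (algebraMap QbH (fieldBar L M H) c₀ *
          (δ (arithmeticGalois (fieldQ L M H) σ • u) / u))) := by
  have hwu : w u ≠ 0 := (map_ne_zero_iff _ w.injective).mpr hu
  obtain ⟨c₀, hc₀, hred⟩ := rtk6c_cheap_infty_H L M H A σ hσ (w u) hwu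
  refine ⟨c₀, hc₀, ?_⟩
  rw [map_mul, AlgEquiv.commutes, rtk6c0_w_quot hw σ c hc δ hδ u]
  exact hred

/-- the semilinear automorphism `h = δ σ` commutes past `w`: `w (h x) = σ (w x)` -/
theorem rtk6c0_w_h {L M : ℕ} {H : Subgroup (ZMod M)ˣ} {r : ℕ}
    {w : fieldBar L M H ≃ₐ[QbH] fieldBar L M H} (hw : IsWAt L M H r w)
    (σ : QbH ≃ₐ[ℚ] QbH) (c : (ZMod M)ˣ) (hc : IsCycAt M r σ c)
    (δ : fieldBar L M H ≃ₐ[QbH] fieldBar L M H) (hδ : IsDiamondH L M H c δ)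
    (x : fieldBar L M H) :
    w (δ (arithmeticGalois (fieldQ L M H) σ • x)) = arithmeticGalois (fieldQ L M H) σ • w x :=
  (hw.galois σ c hc δ hδ x).symm

end Fermat.Agent.RT.K6

end
end ZBES1_001_16

/-! ### bundled: `Fermat.Agent.RT.K6.EAsmTor` -/
section ZBES1_001_17
/-
K-machine, piece K6, piece **E-asm** (helper18), part 1: prime powers and the toric element.

* `StmtChiKummerPP` : `StmtChiKummerP` for prime power exponents `m = p ^ k`, `p ≠ r`;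
  `stmtChiKummerP_of_pp : StmtChiKummerPP → StmtChiKummerP` (Bézout, `UNIP.mg_pow_of_prime_powers`).
* `rtk6ea_chiExpr_eq` : `chiExpr σ δ u = σ • x / x`, `x := δ (σ • u) / u`;
  `rtk6ea_chiExpr_eq'` : `chiExpr σ δ u = δ (σ • x₁) / x₁`, `x₁ := σ • u / u` (`σ δ = δ σ`).
* `rtk6ea_toric_infty` : `c · chiExpr σ δ u` reduces to one (at `v_∞`) for a constant `c ≠ 0`
  (C∞ for `x`);
  `rtk6ea_toric_zero` : `w (c₀ · chiExpr σ δ u)` reduces to one for a constant `c₀ ≠ 0` (C0 for `x₁`);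
  `rtk6ea_toric_infty_root`, `rtk6ea_toric_zero_root` : the same with `c = b⁻¹ ^ n`.
* `rtk6ea_dvd_ord_x` : `m ∣ div u ⇒ m ∣ div x`.
-/

set_option autoImplicit false

noncomputable section

namespace Fermat.Agent.RT.K6

open ModularCurve AlgebraicCurve HahnSeries Fermat.Agent.ES Fermat.Agent.ES.G2
open Fermat.Agent.ES1 Fermat.Agent.ES1.G2

/-! ### Prime powers suffice -/

/-- **(χ-K), tame case, prime power exponents.** -/
def StmtChiKummerPP : Prop :=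
  ∀ (L M : ℕ) (H : Subgroup (ZMod M)ˣ) (r : ℕ), L ≠ 0 → M ∣ L → r.Prime → r ∣ M → ¬ r ^ 2 ∣ L →
    IsStarStable M r H → IsTameAt L M r H →
    ∀ A : ValuationSubring QbH, A.LiesOverPrime r →
      ∀ p : ℕ, p.Prime → p ≠ r → ∀ k : ℕ,
        ∀ σ ∈ A.inertiaSubgroupIn ℚ, ∀ c : (ZMod M)ˣ, IsCycAt M r σ c →
        ∀ δ : fieldBar L M H ≃ₐ[QbH] fieldBar L M H, IsDiamondH L M H c δ →
        ∀ (c' : (ZMod M)ˣ), IsAtR M r c' →
        ∀ δ' : fieldBar L M H ≃ₐ[QbH] fieldBar L M H, IsDiamondH L M H c' δ' →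
          ∀ u : fieldBar L M H, u ≠ 0 →
            (∀ P : Place QbH (fieldBar L M H), ((p ^ k : ℕ) : ℤ) ∣ P.ord u) →
              ∃ h : fieldBar L M H, h ^ (p ^ k) = δ' (chiExpr σ δ u) / chiExpr σ δ u

/-- prime power exponents suffice -/
theorem stmtChiKummerP_of_pp (h : StmtChiKummerPP) : StmtChiKummerP := by
  intro L M H r hL hML hr hrM hr2 hstar htame A hA m hm σ hσ c hc δ hδ c' hc' δ' hδ' u hu hdiv
  have hm0 : m ≠ 0 := by
    rintro rfl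
    exact hm (dvd_zero r)
  refine Fermat.Agent.UNIP.mg_pow_of_prime_powers _ m (fun p k hp hd => ?_) hm0
  by_cases hk : k = 0
  · subst hk
    exact ⟨_, pow_one _⟩
  have hpr : p ≠ r := by
    rintro rfl
    exact hm (dvd_trans (dvd_pow_self p hk) hd)
  refine h L M H r hL hML hr hrM hr2 hstar htame A hA p hp hpr k σ hσ c hc δ hδ c' hc' δ' hδ'
    u hu (fun P => ?_)
  have h1 : ((p ^ k : ℕ) : ℤ) ∣ (m : ℤ) := by exact_mod_cast hd
  exact dvd_trans h1 (hdiv P)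

/-! ### The toric element -/

section Toric

variable {L M : ℕ} {H : Subgroup (ZMod M)ˣ}

theorem rtk6ea_smul_div (σ : QbH ≃ₐ[ℚ] QbH) (a b : fieldBar L M H) :
    arithmeticGalois (fieldQ L M H) σ • (a / b) =
      (arithmeticGalois (fieldQ L M H) σ • a) / (arithmeticGalois (fieldQ L M H) σ • b) :=
  map_div₀ (SemilinearAut.toRingAut (arithmeticGalois (fieldQ L M H) σ)) a b

theorem rtk6ea_smul_ne_zero (σ : QbH ≃ₐ[ℚ] QbH) {a : fieldBar L M H} (ha : a ≠ 0) :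
    arithmeticGalois (fieldQ L M H) σ • a ≠ 0 :=
  (map_ne_zero (SemilinearAut.toRingAut (arithmeticGalois (fieldQ L M H) σ))).mpr ha

/-- `σ δ = δ σ` on elements -/
theorem rtk6ea_smul_diamond {c : (ZMod M)ˣ} {δ : fieldBar L M H ≃ₐ[QbH] fieldBar L M H}
    (hδ : IsDiamondH L M H c δ) (σ : QbH ≃ₐ[ℚ] QbH) (z : fieldBar L M H) :
    arithmeticGalois (fieldQ L M H) σ • δ z = δ (arithmeticGalois (fieldQ L M H) σ • z) := by
  have h := diamb_galois_field hδ σ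
  have h1 := congrArg (fun g : SemilinearAut QbH (fieldBar L M H) => g • z) h
  simpa only [mul_smul, SemilinearAut.ofAlgAut_smul] using h1

/-- `x = δ (σ u) / u` -/
def rtk6eaX (σ : QbH ≃ₐ[ℚ] QbH) (δ : fieldBar L M H ≃ₐ[QbH] fieldBar L M H)
    (u : fieldBar L M H) : fieldBar L M H :=
  δ (arithmeticGalois (fieldQ L M H) σ • u) / u

theorem rtk6eaX_ne_zero (σ : QbH ≃ₐ[ℚ] QbH) (δ : fieldBar L M H ≃ₐ[QbH] fieldBar L M H)
    {u : fieldBar L M H} (hu : u ≠ 0) : rtk6eaX σ δ u ≠ 0 :=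
  div_ne_zero ((map_ne_zero δ).mpr (rtk6ea_smul_ne_zero σ hu)) hu

/-- `chiExpr σ δ u = σ x / x`, `x = δ (σ u) / u` -/
theorem rtk6ea_chiExpr_eq (σ : QbH ≃ₐ[ℚ] QbH) (δ : fieldBar L M H ≃ₐ[QbH] fieldBar L M H)
    {u : fieldBar L M H} (hu : u ≠ 0) :
    chiExpr σ δ u = (arithmeticGalois (fieldQ L M H) σ • rtk6eaX σ δ u) / rtk6eaX σ δ u := by
  have h1 : arithmeticGalois (fieldQ L M H) σ • u ≠ 0 := rtk6ea_smul_ne_zero σ hu
  have h2 : δ (arithmeticGalois (fieldQ L M H) σ • u) ≠ 0 := (map_ne_zero δ).mpr h1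
  unfold chiExpr rtk6eaX
  rw [rtk6ea_smul_div]
  field_simp

theorem rtk6ea_field_aux {F : Type*} [Field F] (z b a u : F) (hb : b ≠ 0) (ha : a ≠ 0)
    (hu : u ≠ 0) : z * u / (a * b) = z / b / (a / u) := by
  field_simp

/-- `chiExpr σ δ u = δ (σ x₁) / x₁`, `x₁ = σ u / u` -/
theorem rtk6ea_chiExpr_eq' {c : (ZMod M)ˣ} {δ : fieldBar L M H ≃ₐ[QbH] fieldBar L M H}
    (hδ : IsDiamondH L M H c δ) (σ : QbH ≃ₐ[ℚ] QbH) {u : fieldBar L M H} (hu : u ≠ 0) :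
    chiExpr σ δ u =
      δ (arithmeticGalois (fieldQ L M H) σ • ((arithmeticGalois (fieldQ L M H) σ • u) / u)) /
        ((arithmeticGalois (fieldQ L M H) σ • u) / u) := by
  have hcomm := rtk6ea_smul_diamond hδ σ
  have hne := rtk6ea_smul_ne_zero (L := L) (M := M) (H := H) σ hu
  have hdiv := rtk6ea_smul_div (L := L) (M := M) (H := H) σ
  unfold chiExpr
  generalize arithmeticGalois (fieldQ L M H) σ = g at hcomm hne hdiv ⊢
  have h2 : δ (g • u) ≠ 0 := (map_ne_zero δ).mpr hne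
  rw [hcomm, hdiv, map_div₀ δ]
  exact rtk6ea_field_aux _ _ _ _ h2 hne hu

/-- **toric at `v_∞`**: `c · chiExpr σ δ u` reduces to one -/
theorem rtk6ea_toric_infty (A : ValuationSubring QbH) (σ : QbH ≃ₐ[ℚ] QbH)
    (hσ : σ ∈ A.inertiaSubgroupIn ℚ) (δ : fieldBar L M H ≃ₐ[QbH] fieldBar L M H)
    {u : fieldBar L M H} (hu : u ≠ 0) :
    ∃ c : QbH, c ≠ 0 ∧
      ReducesToOneF A (fieldBar L M H)
        (algebraMap QbH (fieldBar L M H) c * chiExpr σ δ u) := by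
  obtain ⟨c, hc, h⟩ := rtk6c_cheap_infty_H L M H A σ hσ (rtk6eaX σ δ u) (rtk6eaX_ne_zero σ δ hu)
  refine ⟨c, hc, ?_⟩
  rw [rtk6ea_chiExpr_eq σ δ hu]
  exact h

/-- **toric at `v_0 = v_∞ ∘ w`**: `w (c₀ · chiExpr σ δ u)` reduces to one -/
theorem rtk6ea_toric_zero {r : ℕ} {w : fieldBar L M H ≃ₐ[QbH] fieldBar L M H}
    (hw : IsWAt L M H r w) (A : ValuationSubring QbH) (σ : QbH ≃ₐ[ℚ] QbH)
    (hσ : σ ∈ A.inertiaSubgroupIn ℚ) {c : (ZMod M)ˣ} (hc : IsCycAt M r σ c)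
    {δ : fieldBar L M H ≃ₐ[QbH] fieldBar L M H} (hδ : IsDiamondH L M H c δ)
    {u : fieldBar L M H} (hu : u ≠ 0) :
    ∃ c₀ : QbH, c₀ ≠ 0 ∧
      ReducesToOneF A (fieldBar L M H)
        (w (algebraMap QbH (fieldBar L M H) c₀ * chiExpr σ δ u)) := by
  have hx₁ : (arithmeticGalois (fieldQ L M H) σ • u) / u ≠ 0 :=
    div_ne_zero (rtk6ea_smul_ne_zero σ hu) hu
  obtain ⟨c₀, hc₀, h⟩ := rtk6c0_cheap_zero hw A σ hσ c hc δ hδ _ hx₁
  refine ⟨c₀, hc₀, ?_⟩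
  rw [rtk6ea_chiExpr_eq' hδ σ hu]
  exact h

/-- a constant is an `n`-th power of a constant (`n ≠ 0`) -/
theorem rtk6ea_exists_root (c : QbH) (hc : c ≠ 0) {n : ℕ} (hn : n ≠ 0) :
    ∃ b : QbH, b ≠ 0 ∧ b ^ n = c⁻¹ := by
  obtain ⟨b, hb⟩ := IsAlgClosed.exists_pow_nat_eq c⁻¹ (Nat.pos_of_ne_zero hn)
  refine ⟨b, ?_, hb⟩
  rintro rfl
  rw [zero_pow hn] at hb
  exact inv_ne_zero hc hb.symm

/-- toric at `v_∞`, root form -/
theorem rtk6ea_toric_infty_root (A : ValuationSubring QbH) (σ : QbH ≃ₐ[ℚ] QbH)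
    (hσ : σ ∈ A.inertiaSubgroupIn ℚ) (δ : fieldBar L M H ≃ₐ[QbH] fieldBar L M H)
    {u : fieldBar L M H} (hu : u ≠ 0) {n : ℕ} (hn : n ≠ 0) :
    ∃ b : QbH, b ≠ 0 ∧
      ReducesToOneF A (fieldBar L M H)
        (chiExpr σ δ u / algebraMap QbH (fieldBar L M H) b ^ n) := by
  obtain ⟨c, hc, h⟩ := rtk6ea_toric_infty A σ hσ δ hu
  obtain ⟨b, hb, hbn⟩ := rtk6ea_exists_root c hc hn
  refine ⟨b, hb, ?_⟩
  have e : chiExpr σ δ u / algebraMap QbH (fieldBar L M H) b ^ n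
      = algebraMap QbH (fieldBar L M H) c * chiExpr σ δ u := by
    rw [← map_pow, hbn, map_inv₀, div_eq_mul_inv, inv_inv, mul_comm]
  rw [e]
  exact h

/-- toric at `v_0`, root form -/
theorem rtk6ea_toric_zero_root {r : ℕ} {w : fieldBar L M H ≃ₐ[QbH] fieldBar L M H}
    (hw : IsWAt L M H r w) (A : ValuationSubring QbH) (σ : QbH ≃ₐ[ℚ] QbH)
    (hσ : σ ∈ A.inertiaSubgroupIn ℚ) {c : (ZMod M)ˣ} (hc : IsCycAt M r σ c)
    {δ : fieldBar L M H ≃ₐ[QbH] fieldBar L M H} (hδ : IsDiamondH L M H c δ)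
    {u : fieldBar L M H} (hu : u ≠ 0) {n : ℕ} (hn : n ≠ 0) :
    ∃ b : QbH, b ≠ 0 ∧
      ReducesToOneF A (fieldBar L M H)
        (w (chiExpr σ δ u / algebraMap QbH (fieldBar L M H) b ^ n)) := by
  obtain ⟨c₀, hc₀, h⟩ := rtk6ea_toric_zero hw A σ hσ hc hδ hu
  obtain ⟨b, hb, hbn⟩ := rtk6ea_exists_root c₀ hc₀ hn
  refine ⟨b, hb, ?_⟩
  have e : chiExpr σ δ u / algebraMap QbH (fieldBar L M H) b ^ n
      = algebraMap QbH (fieldBar L M H) c₀ * chiExpr σ δ u := by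
    rw [← map_pow, hbn, map_inv₀, div_eq_mul_inv, inv_inv, mul_comm]
  rw [e]
  exact h

/-! ### Divisibility of the divisor of `x` -/

/-- `m ∣ div u ⇒ m ∣ div (g u)` for a semilinear automorphism -/
theorem rtk6ea_dvd_ord_smul {K F : Type*} [Field K] [Field F] [Algebra K F]
    (g : SemilinearAut K F) (m : ℤ) {u : F}
    (h : ∀ P : Place K F, m ∣ P.ord u) (P : Place K F) : m ∣ P.ord (g • u) := by
  have h1 := SemilinearAut.ord_smul g (g⁻¹ • P) u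
  rw [smul_inv_smul] at h1
  rw [h1]
  exact h _

/-- `m ∣ div u ⇒ m ∣ div x`, `x = δ (σ u) / u` -/
theorem rtk6ea_dvd_ord_x (σ : QbH ≃ₐ[ℚ] QbH) (δ : fieldBar L M H ≃ₐ[QbH] fieldBar L M H)
    (m : ℤ) {u : fieldBar L M H} (hu : u ≠ 0)
    (h : ∀ P : Place QbH (fieldBar L M H), m ∣ P.ord u) (P : Place QbH (fieldBar L M H)) :
    m ∣ P.ord (rtk6eaX σ δ u) := by
  have h1 : ∀ P : Place QbH (fieldBar L M H),
      m ∣ P.ord (arithmeticGalois (fieldQ L M H) σ • u) :=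
    rtk6ea_dvd_ord_smul (arithmeticGalois (fieldQ L M H) σ) m h
  have h2 : ∀ P : Place QbH (fieldBar L M H),
      m ∣ P.ord (δ (arithmeticGalois (fieldQ L M H) σ • u)) := fun P =>
    rtk6ea_dvd_ord_smul (SemilinearAut.ofAlgAut δ) m h1 P
  have hne : δ (arithmeticGalois (fieldQ L M H) σ • u) ≠ 0 :=
    (map_ne_zero δ).mpr (rtk6ea_smul_ne_zero σ hu)
  unfold rtk6eaX
  rw [div_eq_mul_inv, P.ord_mul hne (inv_ne_zero hu), P.ord_inv]
  exact dvd_add (h2 P) ((dvd_neg).mpr (h P))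

end Toric

end Fermat.Agent.RT.K6

end
end ZBES1_001_17

/-! ### bundled: `Fermat.Agent.RT.K5.FitEx` -/
section ZBES1_001_18

/-!
# RT-K5, piece FITEX: Fitting for a finite abelian group, exactness of `etaPart`

* `k5fx_fitting` : the three clauses of `k5s_fitting` for every finite abelian group;
* `k5fx_stable` : `etaPart θ = im θ^N` for some `N`;
* `k5fx_surj`, `k5fx_exact` : for an exact sequence `U →j V →π W` of finite groups with
  intertwined endomorphisms, `etaPart` is exact;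
* `k5fx_card` : `#etaPart θ_V = #etaPart θ_U · #etaPart θ_W`.
-/

set_option autoImplicit false
set_option linter.style.haveILetI false
set_option linter.unusedSectionVars false
set_option linter.unusedVariables false

noncomputable section

namespace Fermat.Agent.RT.K5

section fitting

variable {V : Type*} [AddCommGroup V]

theorem k5fx_pow_add (θ : V →+ V) (m n : ℕ) (x : V) :
    k5s_pow θ (m + n) x = k5s_pow θ m (k5s_pow θ n x) := by
  unfold k5s_pow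
  rw [pow_add]
  rfl

theorem k5fx_range_anti (θ : V →+ V) {m n : ℕ} (h : m ≤ n) :
    AddMonoidHom.range (k5s_pow θ n) ≤ AddMonoidHom.range (k5s_pow θ m) := by
  rintro x ⟨u, rfl⟩
  obtain ⟨k, rfl⟩ := Nat.exists_eq_add_of_le h
  exact ⟨k5s_pow θ k u, (k5fx_pow_add θ m k u).symm⟩

/-- the images `im θⁿ` stabilise -/
theorem k5fx_stable [Finite V] (θ : V →+ V) :
    ∃ N : ℕ, ∀ n : ℕ, N ≤ n → AddMonoidHom.range (k5s_pow θ n) = AddMonoidHom.range (k5s_pow θ N) := by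
  classical
  -- the cardinalities decrease
  let c : ℕ → ℕ := fun n => Nat.card (AddMonoidHom.range (k5s_pow θ n))
  have hanti : ∀ m n, m ≤ n → c n ≤ c m := fun m n h =>
    Nat.card_le_card_of_injective (AddSubgroup.inclusion (k5fx_range_anti θ h))
      (AddSubgroup.inclusion_injective _)
  -- a minimal value
  obtain ⟨N, hN⟩ : ∃ N, ∀ n, c N ≤ c n := by
    have hne : (Set.range c).Nonempty := ⟨c 0, ⟨0, rfl⟩⟩
    obtain ⟨N, hN⟩ := Nat.sInf_mem hne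
    exact ⟨N, fun n => hN ▸ Nat.sInf_le ⟨n, rfl⟩⟩
  refine ⟨N, fun n hn => ?_⟩
  have hle := k5fx_range_anti θ hn
  have hcard : Nat.card (AddMonoidHom.range (k5s_pow θ N))
      ≤ Nat.card (AddMonoidHom.range (k5s_pow θ n)) := hN n
  -- equality of finite sets
  have hsub : (AddMonoidHom.range (k5s_pow θ n) : Set V) ⊆ AddMonoidHom.range (k5s_pow θ N) := hle
  have hfin : (AddMonoidHom.range (k5s_pow θ N) : Set V).Finite := Set.toFinite _
  have := Set.eq_of_subset_of_ncard_le hsub (by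
    rw [← Nat.card_coe_set_eq, ← Nat.card_coe_set_eq]
    exact hcard) hfin
  exact SetLike.coe_injective this

theorem k5fx_etaPart_eq [Finite V] (θ : V →+ V) :
    ∃ N : ℕ, ∀ x : V, x ∈ etaPart θ ↔ ∃ u, k5s_pow θ N u = x := by
  obtain ⟨N, hN⟩ := k5fx_stable θ
  refine ⟨N, fun x => ⟨fun hx => (k5s_mem_etaPart θ x).mp hx N, ?_⟩⟩
  rintro ⟨u, rfl⟩
  rw [k5s_mem_etaPart]
  intro n
  rcases le_total n N with h | h
  · exact k5fx_range_anti θ h ⟨u, rfl⟩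
  · have : k5s_pow θ N u ∈ AddMonoidHom.range (k5s_pow θ n) := by
      rw [hN n h]; exact ⟨u, rfl⟩
    exact this

/-- **Fitting** for an additive endomorphism of a finite abelian group -/
theorem k5fx_fitting [Finite V] (θ : V →+ V) :
    (∀ v : V, ∃ w ∈ etaPart θ, ∃ n : ℕ, k5s_pow θ n (v - w) = 0) ∧
    (∀ w ∈ etaPart θ, θ w = 0 → w = 0) ∧
    (∀ w ∈ etaPart θ, ∃ w' ∈ etaPart θ, θ w' = w) := by
  classical
  obtain ⟨N, hN⟩ := k5fx_etaPart_eq θ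
  -- `θ` maps `etaPart` onto itself
  have hsurj : ∀ w ∈ etaPart θ, ∃ w' ∈ etaPart θ, θ w' = w := by
    intro w hw
    obtain ⟨u, hu⟩ := (k5s_mem_etaPart θ w).mp hw (N + 1)
    refine ⟨k5s_pow θ N u, (hN _).mpr ⟨u, rfl⟩, ?_⟩
    rw [← k5s_pow_succ', hu]
  -- the restriction
  let r : etaPart θ → etaPart θ := fun w => ⟨θ w, k5s_etaPart_stable θ w.2⟩
  have hrs : Function.Surjective r := by
    rintro ⟨w, hw⟩
    obtain ⟨w', hw', h⟩ := hsurj w hw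
    exact ⟨⟨w', hw'⟩, Subtype.ext h⟩
  have hri : Function.Injective r := Finite.injective_iff_surjective.mpr hrs
  have hinj : ∀ w ∈ etaPart θ, θ w = 0 → w = 0 := by
    intro w hw h0
    have : r ⟨w, hw⟩ = r ⟨0, (etaPart θ).zero_mem⟩ := by
      apply Subtype.ext
      show θ w = θ 0
      rw [h0, map_zero]
    exact congrArg Subtype.val (hri this)
  refine ⟨?_, hinj, hsurj⟩
  intro v
  -- `θ^N v ∈ etaPart = θ^N etaPart`
  have h1 : k5s_pow θ N v ∈ etaPart θ := (hN _).mpr ⟨v, rfl⟩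
  have h2 : ∀ n : ℕ, ∀ w ∈ etaPart θ, ∃ w' ∈ etaPart θ, k5s_pow θ n w' = w := by
    intro n
    induction n with
    | zero => exact fun w hw => ⟨w, hw, rfl⟩
    | succ n ih =>
      intro w hw
      obtain ⟨w₁, hw₁, h⟩ := ih w hw
      obtain ⟨w₂, hw₂, h'⟩ := hsurj w₁ hw₁
      exact ⟨w₂, hw₂, by rw [k5s_pow_succ, h', h]⟩
  obtain ⟨w, hw, h⟩ := h2 N _ h1
  refine ⟨w, hw, N, ?_⟩
  show k5s_pow θ N (v - w) = 0
  rw [map_sub, h, sub_self]

end fitting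

section exact

variable {U V W : Type*} [AddCommGroup U] [AddCommGroup V] [AddCommGroup W]
  (θU : U →+ U) (θV : V →+ V) (θW : W →+ W) (j : U →+ V) (π : V →+ W)

/-- a surjective intertwiner maps `etaPart` ONTO `etaPart` (finite source) -/
theorem k5fx_surj [Finite V] (hπ : Function.Surjective π) (hπθ : ∀ v, π (θV v) = θW (π v))
    (w : W) (hw : w ∈ etaPart θW) : ∃ v ∈ etaPart θV, π v = w := by
  obtain ⟨N, hN⟩ := k5fx_etaPart_eq θV
  obtain ⟨w', hw'⟩ := (k5s_mem_etaPart θW w).mp hw N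
  obtain ⟨v', hv'⟩ := hπ w'
  refine ⟨k5s_pow θV N v', (hN _).mpr ⟨v', rfl⟩, ?_⟩
  rw [k5s_intertwine_pow θV θW π hπθ, hv', hw']

/-- exactness in the middle -/
theorem k5fx_exact [Finite V] [Finite W] (hj : Function.Injective j)
    (hex : ∀ v, π v = 0 → ∃ u, j u = v)
    (hjθ : ∀ u, j (θU u) = θV (j u)) (hπθ : ∀ v, π (θV v) = θW (π v))
    (v : V) (hv : v ∈ etaPart θV) (h0 : π v = 0) : ∃ u ∈ etaPart θU, j u = v := by
  obtain ⟨-, fW, -⟩ := k5fx_fitting θW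
  obtain ⟨-, -, fV⟩ := k5fx_fitting θV
  have hpre : ∀ n : ℕ, ∃ v' ∈ etaPart θV, k5s_pow θV n v' = v := by
    intro n
    induction n with
    | zero => exact ⟨v, hv, rfl⟩
    | succ n ih =>
      obtain ⟨v₁, hv₁, h⟩ := ih
      obtain ⟨v₂, hv₂, h'⟩ := fV v₁ hv₁
      exact ⟨v₂, hv₂, by rw [k5s_pow_succ, h', h]⟩
  obtain ⟨u, hu⟩ := hex v h0
  refine ⟨u, ?_, hu⟩
  rw [k5s_mem_etaPart]
  intro n
  obtain ⟨v', hv', h⟩ := hpre n
  have h1 : π v' ∈ etaPart θW := k5s_intertwine_mem θV θW π hπθ hv'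
  have h2 : k5s_pow θW n (π v') = 0 := by
    rw [← k5s_intertwine_pow θV θW π hπθ, h, h0]
  have h3 : π v' = 0 := k5s_pow_injOn θW fW n h1 h2
  obtain ⟨u', hu'⟩ := hex v' h3
  refine ⟨u', hj ?_⟩
  rw [k5s_intertwine_pow θU θV j hjθ, hu', h, hu]

/-- the cardinalities multiply -/
theorem k5fx_card [Finite U] [Finite V] [Finite W] (hj : Function.Injective j)
    (hπ : Function.Surjective π) (hπj : ∀ u, π (j u) = 0)
    (hex : ∀ v, π v = 0 → ∃ u, j u = v)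
    (hjθ : ∀ u, j (θU u) = θV (j u)) (hπθ : ∀ v, π (θV v) = θW (π v)) :
    Nat.card (etaPart θV) = Nat.card (etaPart θU) * Nat.card (etaPart θW) := by
  classical
  -- the restricted maps
  let π' : etaPart θV →+ etaPart θW :=
    { toFun := fun v => ⟨π (v : V), k5s_intertwine_mem θV θW π hπθ v.2⟩
      map_zero' := Subtype.ext (map_zero π)
      map_add' := fun a b => Subtype.ext (map_add π (a : V) (b : V)) }
  let j' : etaPart θU →+ etaPart θV :=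
    { toFun := fun u => ⟨j (u : U), k5s_intertwine_mem θU θV j hjθ u.2⟩
      map_zero' := Subtype.ext (map_zero j)
      map_add' := fun a b => Subtype.ext (map_add j (a : U) (b : U)) }
  have hπ' : Function.Surjective π' := by
    rintro ⟨w, hw⟩
    obtain ⟨v, hv, h⟩ := k5fx_surj θV θW π hπ hπθ w hw
    exact ⟨⟨v, hv⟩, Subtype.ext h⟩
  have hj' : Function.Injective j' := fun a b h =>
    Subtype.ext (hj (congrArg Subtype.val h))
  have hker : π'.ker = j'.range := by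
    ext ⟨v, hv⟩
    rw [AddMonoidHom.mem_ker, AddMonoidHom.mem_range]
    constructor
    · intro h
      have h0 : π v = 0 := congrArg Subtype.val h
      obtain ⟨u, hu, huv⟩ := k5fx_exact θU θV θW j π hj hex hjθ hπθ v hv h0
      exact ⟨⟨u, hu⟩, Subtype.ext huv⟩
    · rintro ⟨u, hu⟩
      apply Subtype.ext
      have : j u = v := congrArg Subtype.val hu
      show π v = 0
      rw [← this, hπj]
  have h1 : Nat.card (etaPart θV) = Nat.card π'.ker * Nat.card (etaPart θW) := by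
    have e := QuotientAddGroup.quotientKerEquivOfSurjective π' hπ'
    rw [← Nat.card_congr e.toEquiv, mul_comm]
    exact (AddSubgroup.card_eq_card_quotient_mul_card_addSubgroup π'.ker)
  have h2 : Nat.card π'.ker = Nat.card (etaPart θU) := by
    rw [hker]
    exact (Nat.card_congr (Equiv.ofInjective j' hj')).symm
  rw [h1, h2]

end exact

end Fermat.Agent.RT.K5

end
end ZBES1_001_18

/-! ### bundled: `Fermat.Agent.RT.K5.Plan3` -/
section ZBES1_001_19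

/-!
# K-machine, piece K5, third interface: the Taylor–Wiles step, abstractly

`StmtTWAbs` (Mathlib only + `etaPart`): `X = Hom(Γ₀(N), A)`, `Y = Hom(Γ₀(N q), A)` finite,
`r₁ = res`, `r₂ = res_δ`, `c₁ = cores`, `c₂ = cores_δ`, `T = T_q` on `X`, `U = U_q` on `Y`,
`θ_X`, `θ_Y` a Hecke operator commuting with everything.  If `(q + 1)² − T²` is bijective on the
`θ_X`-part `X₁` of `X`, then `(φ₁, φ₂) ↦ r₁ φ₁ + r₂ φ₂` is a bijection from `X₁ × X₁` onto the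
`θ_Y ∘ (U² − 1)`-part of `Y`.
[`α†α = [[q+1, T], [T, q+1]]`, `U α = α M`, `M = [[T, q], [−1, 0]]`,
`det (M² − 1) = (q+1)² − T² = det α†α`; `U² = 1` on `ker α†`.]
-/

set_option autoImplicit false

noncomputable section

namespace Fermat.Agent.RT.K5

/-- **K5-TW-abs** -/
def StmtTWAbs : Prop :=
  ∀ (X Y : Type) [AddCommGroup X] [AddCommGroup Y] [Finite X] [Finite Y] (q : ℕ)
    (T θX : X →+ X) (U θY : Y →+ Y) (r₁ r₂ : X →+ Y) (c₁ c₂ : Y →+ X),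
    -- `α†α`
    (∀ φ, c₁ (r₁ φ) = (q + 1) • φ) → (∀ φ, c₂ (r₂ φ) = (q + 1) • φ) →
    (∀ φ, c₁ (r₂ φ) = T φ) → (∀ φ, c₂ (r₁ φ) = T φ) →
    -- `U` on the old part
    (∀ φ, U (r₂ φ) = q • r₁ φ) → (∀ φ, U (r₁ φ) = r₁ (T φ) - r₂ φ) →
    (∀ ψ, c₁ (U ψ) = q • c₂ ψ) → (∀ ψ, c₂ (U ψ) = T (c₂ ψ) - c₁ ψ) →
    -- `U² = 1` on the new part
    (∀ ψ, c₁ ψ = 0 → c₂ ψ = 0 → U (U ψ) = ψ) →
    -- `θ` commutes with everything
    (∀ φ, r₁ (θX φ) = θY (r₁ φ)) → (∀ φ, r₂ (θX φ) = θY (r₂ φ)) →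
    (∀ ψ, c₁ (θY ψ) = θX (c₁ ψ)) → (∀ ψ, c₂ (θY ψ) = θX (c₂ ψ)) →
    (∀ φ, T (θX φ) = θX (T φ)) → (∀ ψ, U (θY ψ) = θY (U ψ)) →
    -- `(q + 1)² − T²` is bijective on the `θ_X`-part
    (∀ φ ∈ etaPart θX, (q + 1) • (q + 1) • φ - T (T φ) = 0 → φ = 0) →
    -- conclusion
    (∀ φ₁ ∈ etaPart θX, ∀ φ₂ ∈ etaPart θX,
      r₁ φ₁ + r₂ φ₂ ∈ etaPart (θY.comp (U.comp U - AddMonoidHom.id Y)) ∧
      (r₁ φ₁ + r₂ φ₂ = 0 → φ₁ = 0 ∧ φ₂ = 0)) ∧
    (∀ ψ ∈ etaPart (θY.comp (U.comp U - AddMonoidHom.id Y)),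
      ∃ φ₁ ∈ etaPart θX, ∃ φ₂ ∈ etaPart θX, ψ = r₁ φ₁ + r₂ φ₂) ∧
    Nat.card (etaPart (θY.comp (U.comp U - AddMonoidHom.id Y))) = Nat.card (etaPart θX) ^ 2

end Fermat.Agent.RT.K5

end
end ZBES1_001_19

/-! ### bundled: `Fermat.Agent.RT.K5.TWAbs` -/
section ZBES1_001_20

/-!
# RT-K5, piece TW-abs (helper26): the abstract Taylor–Wiles step, `stmtTWAbs : StmtTWAbs`

`α (φ₁, φ₂) = r₁ φ₁ + r₂ φ₂`, `α† ψ = (c₁ ψ, c₂ ψ)`, `D = (q + 1)² − T²`, `X₁ = etaPart θ_X`,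
`Θ = θ_Y (U² − 1)`, `Y₁ = etaPart Θ`.
* `(U² − 1) α = α (M² − 1)` (`k5tw_UU`), `(M² − 1) adj(M² − 1) = D` (`k5tw_adj1`, `k5tw_adj2`),
  and `D`, `θ_X` are surjective on `X₁`: so `α(X₁²) ⊆ Θ α(X₁²)`, hence `α(X₁²) ⊆ Y₁`
  (`k5tw_mem_of_stable`);
* `adj(α†α) α†α = D`: `α` is injective on `X₁²`;
* `α†` is injective on `Y₁` (`U² = 1` on `ker α†`, `Θ` injective on `Y₁`) and maps `Y₁` to `X₁²`;
* counting: `α : X₁² → Y₁` is bijective.
-/

set_option autoImplicit false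
set_option linter.style.haveILetI false
set_option linter.unusedSectionVars false
set_option linter.unusedVariables false

noncomputable section

namespace Fermat.Agent.RT.K5

section general

variable {V : Type*} [AddCommGroup V]

/-- a set with `S ⊆ θ S` lies in `etaPart θ` -/
theorem k5tw_mem_of_stable (θ : V →+ V) (S : Set V) (h : ∀ w ∈ S, ∃ w' ∈ S, θ w' = w) :
    ∀ w ∈ S, w ∈ etaPart θ := by
  intro w hw
  rw [k5s_mem_etaPart]
  intro n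
  induction n generalizing w with
  | zero => exact ⟨w, rfl⟩
  | succ n ih =>
    obtain ⟨w', hw', e⟩ := h w hw
    obtain ⟨u, hu⟩ := ih w' hw'
    exact ⟨u, by rw [k5s_pow_succ', hu, e]⟩

/-- an additive endomorphism which is injective on a finite stable subgroup is surjective on it -/
theorem k5tw_surj_of_inj (S : AddSubgroup V) [Finite S] (f : V →+ V) (hS : ∀ w ∈ S, f w ∈ S)
    (hinj : ∀ w ∈ S, f w = 0 → w = 0) : ∀ w ∈ S, ∃ w' ∈ S, f w' = w := by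
  let g : S → S := fun w => ⟨f w.1, hS w.1 w.2⟩
  have hg : Function.Injective g := by
    intro a b hab
    have h1 : f a.1 = f b.1 := congrArg Subtype.val hab
    have h2 : f (a.1 - b.1) = 0 := by rw [map_sub, h1, sub_self]
    have h3 := hinj _ (S.sub_mem a.2 b.2) h2
    exact Subtype.ext (sub_eq_zero.mp h3)
  have hs : Function.Surjective g := Finite.injective_iff_surjective.mp hg
  intro w hw
  obtain ⟨w', hw'⟩ := hs ⟨w, hw⟩
  exact ⟨w'.1, w'.2, congrArg Subtype.val hw'⟩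

end general

section tw

variable {X Y : Type} [AddCommGroup X] [AddCommGroup Y] (q : ℕ)
  (T : X →+ X) (U : Y →+ Y) (r₁ r₂ : X →+ Y)

/-- `(U² − 1) α = α (M² − 1)`, `M = [[T, q], [−1, 0]]` -/
theorem k5tw_UU (hU2 : ∀ φ, U (r₂ φ) = q • r₁ φ) (hU1 : ∀ φ, U (r₁ φ) = r₁ (T φ) - r₂ φ)
    (a b : X) :
    U (U (r₁ a + r₂ b)) - (r₁ a + r₂ b) =
      r₁ (T (T a) + q • T b - (q + 1) • a) + r₂ (-(T a) - (q + 1) • b) := by
  simp only [map_add, map_sub, map_neg, map_nsmul, hU1, hU2]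
  module

/-- first row of `(M² − 1) adj(M² − 1) = D` -/
theorem k5tw_adj1 (χ₁ χ₂ : X) :
    T (T (-((q + 1) • χ₁) - q • T χ₂)) + q • T (T χ₁ + T (T χ₂) - (q + 1) • χ₂)
        - (q + 1) • (-((q + 1) • χ₁) - q • T χ₂) =
      (q + 1) • (q + 1) • χ₁ - T (T χ₁) := by
  simp only [map_add, map_sub, map_neg, map_nsmul]
  module

/-- second row of `(M² − 1) adj(M² − 1) = D` -/
theorem k5tw_adj2 (χ₁ χ₂ : X) :
    -(T (-((q + 1) • χ₁) - q • T χ₂)) - (q + 1) • (T χ₁ + T (T χ₂) - (q + 1) • χ₂) =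
      (q + 1) • (q + 1) • χ₂ - T (T χ₂) := by
  simp only [map_sub, map_neg, map_nsmul]
  module

/-- first row of `adj(α†α) α†α = D` -/
theorem k5tw_adjA1 (φ₁ φ₂ : X) :
    (q + 1) • (q + 1) • φ₁ - T (T φ₁) =
      (q + 1) • ((q + 1) • φ₁ + T φ₂) - T (T φ₁ + (q + 1) • φ₂) := by
  simp only [map_add, map_nsmul]
  module

/-- second row of `adj(α†α) α†α = D` -/
theorem k5tw_adjA2 (φ₁ φ₂ : X) :
    (q + 1) • (q + 1) • φ₂ - T (T φ₂) =
      (q + 1) • (T φ₁ + (q + 1) • φ₂) - T ((q + 1) • φ₁ + T φ₂) := by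
  simp only [map_add, map_nsmul]
  module

end tw

/-- **K5-TW-abs** -/
theorem stmtTWAbs : StmtTWAbs := by
  intro X Y _ _ _ _ q T θX U θY r₁ r₂ c₁ c₂ h11 h22 h12 h21 hU2 hU1 hcU1 hcU2 hnew
    hr₁θ hr₂θ hc₁θ hc₂θ hTθ hUθ hD
  have hΘa : ∀ ψ, (θY.comp (U.comp U - AddMonoidHom.id Y)) ψ = θY (U (U ψ) - ψ) := fun ψ => rfl
  generalize hΘ : θY.comp (U.comp U - AddMonoidHom.id Y) = Θ at hΘa ⊢
  -- Fitting
  obtain ⟨-, -, fXs⟩ := k5fx_fitting θX
  obtain ⟨-, fYi, fYs⟩ := k5fx_fitting Θ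
  -- `T` preserves `X₁`
  have hTX : ∀ φ ∈ etaPart θX, T φ ∈ etaPart θX :=
    fun φ hφ => k5s_intertwine_mem θX θX T hTθ hφ
  -- `D` is surjective on `X₁`
  let D : X →+ X := (q + 1) • (q + 1) • AddMonoidHom.id X - T.comp T
  have hDa : ∀ φ, D φ = (q + 1) • (q + 1) • φ - T (T φ) := fun φ => rfl
  have hDS : ∀ φ ∈ etaPart θX, D φ ∈ etaPart θX := by
    intro φ hφ
    rw [hDa]
    exact sub_mem (nsmul_mem (nsmul_mem hφ _) _) (hTX _ (hTX _ hφ))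
  have hDsurj := k5tw_surj_of_inj (etaPart θX) D hDS
    (fun φ hφ h => hD φ hφ (by rw [← hDa]; exact h))
  -- `α(X₁²) ⊆ Y₁`
  have h1a : ∀ φ₁ ∈ etaPart θX, ∀ φ₂ ∈ etaPart θX, r₁ φ₁ + r₂ φ₂ ∈ etaPart Θ := by
    intro φ₁ h₁ φ₂ h₂
    refine k5tw_mem_of_stable Θ
      {ψ | ∃ a ∈ etaPart θX, ∃ b ∈ etaPart θX, ψ = r₁ a + r₂ b} ?_ _ ⟨φ₁, h₁, φ₂, h₂, rfl⟩
    rintro _ ⟨a, ha, b, hb, rfl⟩
    obtain ⟨a', ha', ea⟩ := fXs a ha
    obtain ⟨b', hb', eb⟩ := fXs b hb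
    obtain ⟨χ₁, hχ₁, e₁⟩ := hDsurj a' ha'
    obtain ⟨χ₂, hχ₂, e₂⟩ := hDsurj b' hb'
    refine ⟨r₁ (-((q + 1) • χ₁) - q • T χ₂) + r₂ (T χ₁ + T (T χ₂) - (q + 1) • χ₂),
      ⟨_, ?_, _, ?_, rfl⟩, ?_⟩
    · exact sub_mem (neg_mem (nsmul_mem hχ₁ _)) (nsmul_mem (hTX _ hχ₂) _)
    · exact sub_mem (add_mem (hTX _ hχ₁) (hTX _ (hTX _ hχ₂))) (nsmul_mem hχ₂ _)
    · rw [hΘa, k5tw_UU q T U r₁ r₂ hU2 hU1, k5tw_adj1, k5tw_adj2, ← hDa, ← hDa, e₁, e₂, map_add,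
        ← hr₁θ, ← hr₂θ, ea, eb]
  -- `α` is injective on `X₁²`
  have h1b : ∀ φ₁ ∈ etaPart θX, ∀ φ₂ ∈ etaPart θX, r₁ φ₁ + r₂ φ₂ = 0 → φ₁ = 0 ∧ φ₂ = 0 := by
    intro φ₁ h₁ φ₂ h₂ h0
    have e1 : (q + 1) • φ₁ + T φ₂ = 0 := by
      have := congrArg c₁ h0
      rwa [map_add, h11, h12, map_zero] at this
    have e2 : T φ₁ + (q + 1) • φ₂ = 0 := by
      have := congrArg c₂ h0
      rwa [map_add, h21, h22, map_zero] at this
    constructor
    · apply hD φ₁ h₁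
      rw [k5tw_adjA1 q T φ₁ φ₂, e1, e2, map_zero, smul_zero, sub_zero]
    · apply hD φ₂ h₂
      rw [k5tw_adjA2 q T φ₁ φ₂, e1, e2, map_zero, smul_zero, sub_zero]
  -- `Y₁ ⊆ etaPart θ_Y`
  have hYθ : ∀ ψ ∈ etaPart Θ, ψ ∈ etaPart θY := by
    refine k5tw_mem_of_stable θY (etaPart Θ : Set Y) ?_
    intro w hw
    obtain ⟨w', hw', e⟩ := fYs w hw
    refine ⟨U (U w') - w', ?_, by rw [← hΘa]; exact e⟩
    have hcomm : ∀ x, (U.comp U - AddMonoidHom.id Y) (Θ x) = Θ ((U.comp U - AddMonoidHom.id Y) x) := by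
      intro x
      show U (U (Θ x)) - Θ x = Θ (U (U x) - x)
      rw [hΘa, hΘa]
      simp only [map_sub, hUθ]
    exact k5s_intertwine_mem Θ Θ (U.comp U - AddMonoidHom.id Y) hcomm hw'
  have hcX : ∀ ψ ∈ etaPart Θ, c₁ ψ ∈ etaPart θX ∧ c₂ ψ ∈ etaPart θX := fun ψ hψ =>
    ⟨k5s_intertwine_mem θY θX c₁ hc₁θ (hYθ ψ hψ), k5s_intertwine_mem θY θX c₂ hc₂θ (hYθ ψ hψ)⟩
  -- the two injections
  let f : (etaPart θX) × (etaPart θX) → etaPart Θ :=
    fun w => ⟨r₁ w.1.1 + r₂ w.2.1, h1a _ w.1.2 _ w.2.2⟩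
  let g : etaPart Θ → (etaPart θX) × (etaPart θX) :=
    fun ψ => (⟨c₁ ψ.1, (hcX ψ.1 ψ.2).1⟩, ⟨c₂ ψ.1, (hcX ψ.1 ψ.2).2⟩)
  have hf : Function.Injective f := by
    intro w w' h
    have h' : r₁ w.1.1 + r₂ w.2.1 = r₁ w'.1.1 + r₂ w'.2.1 := congrArg Subtype.val h
    have h0 : r₁ (w.1.1 - w'.1.1) + r₂ (w.2.1 - w'.2.1) = 0 := by
      rw [map_sub, map_sub, sub_add_sub_comm, h', sub_self]
    obtain ⟨e1, e2⟩ := h1b _ (sub_mem w.1.2 w'.1.2) _ (sub_mem w.2.2 w'.2.2) h0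
    exact Prod.ext (Subtype.ext (sub_eq_zero.mp e1)) (Subtype.ext (sub_eq_zero.mp e2))
  have hg : Function.Injective g := by
    intro ψ ψ' h
    have h1 : c₁ ψ.1 = c₁ ψ'.1 := congrArg (fun w => (w.1.1 : X)) h
    have h2 : c₂ ψ.1 = c₂ ψ'.1 := congrArg (fun w => (w.2.1 : X)) h
    have hz : ψ.1 - ψ'.1 ∈ etaPart Θ := sub_mem ψ.2 ψ'.2
    have e1 : c₁ (ψ.1 - ψ'.1) = 0 := by rw [map_sub, h1, sub_self]
    have e2 : c₂ (ψ.1 - ψ'.1) = 0 := by rw [map_sub, h2, sub_self]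
    have e3 := hnew _ e1 e2
    have e4 : Θ (ψ.1 - ψ'.1) = 0 := by rw [hΘa, e3, sub_self, map_zero]
    exact Subtype.ext (sub_eq_zero.mp (fYi _ hz e4))
  have hcard : Nat.card (etaPart Θ) = Nat.card ((etaPart θX) × (etaPart θX)) :=
    le_antisymm (Nat.card_le_card_of_injective g hg) (Nat.card_le_card_of_injective f hf)
  have hfb : Function.Bijective f := hf.bijective_of_nat_card_le hcard.le
  refine ⟨fun φ₁ h₁ φ₂ h₂ => ⟨h1a φ₁ h₁ φ₂ h₂, h1b φ₁ h₁ φ₂ h₂⟩, ?_, ?_⟩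
  · intro ψ hψ
    obtain ⟨w, hw⟩ := hfb.2 ⟨ψ, hψ⟩
    exact ⟨w.1.1, w.1.2, w.2.1, w.2.2, (congrArg Subtype.val hw).symm⟩
  · rw [hcard, Nat.card_prod, sq]

end Fermat.Agent.RT.K5

end
end ZBES1_001_20

/-! ### bundled: `Fermat.Agent.RT.K5.AlgFree` -/
section ZBES1_001_21

/-!
# K-machine, piece K5-A1 (helper40): `stmtAlgFree : StmtAlgFree`

`P` a finite `p`-group, `F` a field of characteristic `p`, `W` a finite-dimensional representation,
`I = W^P`.  Then `dim W ≤ |P| · dim I`, and equality implies that `W` is free over `F[P]`.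

Proof: choose a projection `π : W → I`; `Φ : W → Fun(P, I)`, `Φ(w)(g) = π(g⁻¹ w)` has a `P`-stable
kernel which meets `I` trivially, so `Φ` is injective (fixed point lemma `k5a1_exists_fixed`).
If the dimensions agree `Φ` is bijective, and for a basis `e` of `I` the vectors
`b i = Φ⁻¹(δ_1 ⊗ e i)` satisfy `Φ(h · b i) = δ_h ⊗ e i`.
-/

set_option autoImplicit false
set_option linter.style.haveILetI false

noncomputable section

namespace Fermat.Agent.RT.K5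

section fixed

variable {p : ℕ} [Fact p.Prime] {P : Type*} [Group P] [Finite P] {F : Type*} [Field F]
  [CharP F p] {W : Type*} [AddCommGroup W] [Module F W]

omit [Fact p.Prime] in
theorem k5a1_nsmul_eq_zero (F : Type*) [Field F] [CharP F p] {W : Type*} [AddCommGroup W]
    [Module F W] (v : W) : p • v = 0 := by
  rw [← Nat.cast_smul_eq_nsmul F p v, CharP.cast_eq_zero, zero_smul]

omit [CharP F p] in
theorem k5a1_exists_fixed_aux (hP : IsPGroup p P) [Module (ZMod p) W]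
    (ρ : P →* (W →ₗ[F] W)) (K : Submodule F W) (hK : ∀ (g : P), ∀ v ∈ K, ρ g v ∈ K)
    {x : W} (hxK : x ∈ K) (hx : x ≠ 0) (hp : ∀ v : W, p • v = 0) :
    ∃ y ∈ K, y ≠ 0 ∧ ∀ g : P, ρ g y = y := by
  classical
  let A : Submodule (ZMod p) W := Submodule.span (ZMod p) (Set.range fun g : P => ρ g x)
  have hAfin : Module.Finite (ZMod p) ↥A :=
    Module.Finite.span_of_finite (ZMod p) (Set.finite_range fun g : P => ρ g x)
  have hfin : Finite ↥A := Module.finite_of_finite (ZMod p)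
  have hAK : ∀ w ∈ A, w ∈ K := by
    intro w hw
    have : A ≤ AddSubgroup.toZModSubmodule p K.toAddSubgroup := by
      apply Submodule.span_le.2
      rintro _ ⟨g, rfl⟩
      exact hK g x hxK
    exact this hw
  have hstab : ∀ (g : P) (w : W), w ∈ A → ρ g w ∈ A := by
    intro g w hw
    induction hw using Submodule.span_induction with
    | mem v hv =>
      obtain ⟨h, rfl⟩ := hv
      apply Submodule.subset_span
      refine ⟨g * h, ?_⟩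
      show ρ (g * h) x = ρ g (ρ h x)
      rw [map_mul, Module.End.mul_apply]
    | zero => rw [map_zero]; exact A.zero_mem
    | add a b _ _ ha hb => rw [map_add]; exact A.add_mem ha hb
    | smul c a _ ha =>
      have : ρ g (c • a) = c • ρ g a := ZMod.map_smul (ρ g).toAddMonoidHom c a
      rw [this]
      exact A.smul_mem c ha
  letI : MulAction P ↥A :=
    { smul := fun g w => ⟨ρ g w.1, hstab g w.1 w.2⟩
      one_smul := fun w => by
        apply Subtype.ext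
        change ρ 1 w.1 = w.1
        rw [map_one, Module.End.one_apply]
      mul_smul := fun g h w => by
        apply Subtype.ext
        change ρ (g * h) w.1 = ρ g (ρ h w.1)
        rw [map_mul, Module.End.mul_apply] }
  have hxA : x ∈ A := Submodule.subset_span ⟨1, by
    show ρ 1 x = x
    rw [map_one, Module.End.one_apply]⟩
  have hdvd : p ∣ Nat.card ↥A := by
    have h1 : addOrderOf (⟨x, hxA⟩ : ↥A) = p := by
      apply addOrderOf_eq_prime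
      · apply Subtype.ext
        simpa using hp x
      · intro h
        exact hx (congrArg Subtype.val h)
    have h2 := addOrderOf_dvd_natCard (⟨x, hxA⟩ : ↥A)
    rwa [h1] at h2
  have h0 : (0 : ↥A) ∈ MulAction.fixedPoints P ↥A := by
    intro g
    apply Subtype.ext
    change ρ g 0 = 0
    rw [map_zero]
  obtain ⟨b, hb, hb0⟩ := hP.exists_fixed_point_of_prime_dvd_card_of_fixed_point ↥A hdvd h0
  refine ⟨b.1, hAK _ b.2, ?_, ?_⟩
  · intro h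
    exact hb0 (Subtype.ext h.symm)
  · intro g
    exact congrArg Subtype.val (hb g)

/-- **Fixed point lemma**: a finite `p`-group acting linearly in characteristic `p` fixes a nonzero
vector of every nonzero stable subspace. -/
theorem k5a1_exists_fixed (hP : IsPGroup p P) (ρ : P →* (W →ₗ[F] W)) (K : Submodule F W)
    (hK : ∀ (g : P), ∀ v ∈ K, ρ g v ∈ K) {x : W} (hxK : x ∈ K) (hx : x ≠ 0) :
    ∃ y ∈ K, y ≠ 0 ∧ ∀ g : P, ρ g y = y :=
  letI : Module (ZMod p) W := AddCommGroup.zmodModule (k5a1_nsmul_eq_zero (p := p) F)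
  k5a1_exists_fixed_aux hP ρ K hK hxK hx (k5a1_nsmul_eq_zero (p := p) F)

end fixed

section embed

variable {P : Type*} [Group P] {F : Type*} [Field F] {W : Type*} [AddCommGroup W] [Module F W]

/-- the invariants `W^P` -/
def k5a1Inv (ρ : P →* (W →ₗ[F] W)) : Submodule F W := ⨅ g : P, LinearMap.ker (ρ g - 1)

theorem k5a1_mem_inv (ρ : P →* (W →ₗ[F] W)) (w : W) :
    w ∈ k5a1Inv ρ ↔ ∀ g : P, ρ g w = w := by
  unfold k5a1Inv
  rw [Submodule.mem_iInf]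
  refine forall_congr' fun g => ?_
  rw [LinearMap.mem_ker, LinearMap.sub_apply, Module.End.one_apply, sub_eq_zero]

/-- `Φ(w)(g) = π(g⁻¹ w)` -/
def k5a1Phi (ρ : P →* (W →ₗ[F] W)) (π : W →ₗ[F] ↥(k5a1Inv ρ)) :
    W →ₗ[F] (P → ↥(k5a1Inv ρ)) :=
  LinearMap.pi fun g => π.comp (ρ g⁻¹)

theorem k5a1Phi_apply (ρ : P →* (W →ₗ[F] W)) (π : W →ₗ[F] ↥(k5a1Inv ρ)) (w : W) (g : P) :
    k5a1Phi ρ π w g = π (ρ g⁻¹ w) := rfl

theorem k5a1Phi_smul (ρ : P →* (W →ₗ[F] W)) (π : W →ₗ[F] ↥(k5a1Inv ρ)) (h : P) (w : W)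
    (g : P) : k5a1Phi ρ π (ρ h w) g = k5a1Phi ρ π w (h⁻¹ * g) := by
  rw [k5a1Phi_apply, k5a1Phi_apply, mul_inv_rev, inv_inv, map_mul, Module.End.mul_apply]

end embed

section main

variable {p : ℕ} [Fact p.Prime] {P : Type*} [Group P] [Fintype P] {F : Type*} [Field F]
  [CharP F p] {W : Type*} [AddCommGroup W] [Module F W]

theorem k5a1Phi_injective (hP : IsPGroup p P) (ρ : P →* (W →ₗ[F] W))
    (π : W →ₗ[F] ↥(k5a1Inv ρ)) (hπ : ∀ w : ↥(k5a1Inv ρ), π (w : W) = w) :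
    Function.Injective (k5a1Phi ρ π) := by
  rw [← LinearMap.ker_eq_bot, Submodule.eq_bot_iff]
  intro x hx
  by_contra hx0
  have hK : ∀ (g : P), ∀ v ∈ LinearMap.ker (k5a1Phi ρ π), ρ g v ∈ LinearMap.ker (k5a1Phi ρ π) := by
    intro g v hv
    rw [LinearMap.mem_ker] at hv ⊢
    funext g'
    rw [k5a1Phi_smul, hv]
    rfl
  obtain ⟨y, hyK, hy0, hyfix⟩ := k5a1_exists_fixed hP ρ _ hK hx hx0
  have hyI : y ∈ k5a1Inv ρ := (k5a1_mem_inv ρ y).mpr hyfix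
  have h1 : k5a1Phi ρ π y 1 = 0 := by
    rw [LinearMap.mem_ker.mp hyK]; rfl
  rw [k5a1Phi_apply, inv_one, map_one, Module.End.one_apply] at h1
  have h2 := hπ ⟨y, hyI⟩
  rw [h1] at h2
  exact hy0 (congrArg Subtype.val h2).symm

omit [Fintype P] in
theorem k5a1_exists_proj (ρ : P →* (W →ₗ[F] W)) :
    ∃ π : W →ₗ[F] ↥(k5a1Inv ρ), ∀ w : ↥(k5a1Inv ρ), π (w : W) = w := by
  obtain ⟨π, hπ⟩ := LinearMap.exists_leftInverse_of_injective (k5a1Inv ρ).subtype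
    (Submodule.ker_subtype _)
  exact ⟨π, fun w => LinearMap.congr_fun hπ w⟩

theorem k5a1_finrank_pi [Module.Finite F W] (ρ : P →* (W →ₗ[F] W)) :
    Module.finrank F (P → ↥(k5a1Inv ρ)) = Fintype.card P * Module.finrank F ↥(k5a1Inv ρ) := by
  rw [Module.finrank_pi_fintype]
  simp

end main

/-- **K5-A1** -/
theorem stmtAlgFree : StmtAlgFree := by
  classical
  intro p _ P _ _ F _ _ W _ _ _ ρ hP
  obtain ⟨π, hπ⟩ := k5a1_exists_proj ρ
  have hinj := k5a1Phi_injective hP ρ π hπ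
  have hle : Module.finrank F W ≤ Fintype.card P * Module.finrank F ↥(k5a1Inv ρ) := by
    rw [← k5a1_finrank_pi ρ]
    exact LinearMap.finrank_le_finrank_of_injective hinj
  refine ⟨hle, fun heq => ?_⟩
  have heq' : Module.finrank F W = Module.finrank F (P → ↥(k5a1Inv ρ)) := by
    rw [k5a1_finrank_pi ρ]; exact heq
  have hsurj : Function.Surjective (k5a1Phi ρ π) :=
    (LinearMap.injective_iff_surjective_of_finrank_eq_finrank heq').mp hinj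
  let e := Module.finBasis F ↥(k5a1Inv ρ)
  have hb : ∀ i, ∃ b : W, k5a1Phi ρ π b = Pi.single (1 : P) (e i) := fun i => hsurj _
  choose b hb using hb
  refine ⟨Module.finrank F ↥(k5a1Inv ρ), b, ?_⟩
  have hΦb : ∀ (i : Fin (Module.finrank F ↥(k5a1Inv ρ))) (h g : P),
      k5a1Phi ρ π (ρ h (b i)) g = if g = h then e i else 0 := by
    intro i h g
    rw [k5a1Phi_smul, hb, Pi.single_apply]
    by_cases hgh : g = h
    · rw [if_pos hgh, if_pos (by rw [hgh, inv_mul_cancel])]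
    · rw [if_neg hgh, if_neg (fun h1 => hgh (by
        have := congrArg (fun t => h * t) h1
        simpa using this))]
  have hcomp : ∀ (c : Fin (Module.finrank F ↥(k5a1Inv ρ)) × P → F) (g : P),
      k5a1Phi ρ π (∑ x : Fin (Module.finrank F ↥(k5a1Inv ρ)) × P, c x • ρ x.2 (b x.1)) g =
        e.equivFun.symm (fun i => c (i, g)) := by
    intro c g
    rw [map_sum, Finset.sum_apply, Module.Basis.equivFun_symm_apply, Fintype.sum_prod_type]
    refine Finset.sum_congr rfl fun i _ => ?_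
    have : ∀ h : P, (k5a1Phi ρ π (c (i, h) • ρ h (b i))) g =
        if h = g then c (i, g) • e i else 0 := by
      intro h
      rw [map_smul, Pi.smul_apply, hΦb]
      by_cases hgh : g = h
      · subst hgh; rw [if_pos rfl, if_pos rfl]
      · rw [if_neg hgh, if_neg (fun h1 => hgh h1.symm), smul_zero]
    rw [Finset.sum_congr rfl fun h _ => this h, Finset.sum_ite_eq' Finset.univ g]
    simp
  constructor
  · intro c c' hcc
    funext x
    obtain ⟨i, g⟩ := x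
    beta_reduce at hcc
    have h1 := hcomp c g
    have h2 := hcomp c' g
    rw [hcc, h2] at h1
    have h3 := e.equivFun.symm.injective h1
    exact (congrFun h3 i).symm
  · intro w
    have key : k5a1Phi ρ π (∑ x : Fin (Module.finrank F ↥(k5a1Inv ρ)) × P,
        (e.equivFun (k5a1Phi ρ π w x.2) x.1) • ρ x.2 (b x.1)) = k5a1Phi ρ π w := by
      funext g
      have h1 := hcomp (fun x => e.equivFun (k5a1Phi ρ π w x.2) x.1) g
      have h2 : (fun i => (fun x : Fin (Module.finrank F ↥(k5a1Inv ρ)) × P =>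
          e.equivFun (k5a1Phi ρ π w x.2) x.1) (i, g)) = e.equivFun (k5a1Phi ρ π w g) := rfl
      rw [h2, LinearEquiv.symm_apply_apply] at h1
      exact h1
    exact ⟨fun x => e.equivFun (k5a1Phi ρ π w x.2) x.1, hinj key⟩

end Fermat.Agent.RT.K5

end
end ZBES1_001_21

/-! ### bundled: `Fermat.Agent.RT.Hecke.ConcArith` -/
section ZBES1_001_22

/-!
# K-machine, HK-CONC, layer (B) (helper9): the concrete objects, part 3 (the arithmetic)

Generic in a finite index type `κ`, the primes `v : κ → ℕ` of the diamonds, the exponents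
`k : κ → ℕ` and a level `M` with `v x ∣ M`:

* `rthkdM v = ∏ x, v x`;
* `rthkdH p v k M hM ≤ (ℤ/M)ˣ` : the units whose image modulo `v x` is a `p ^ k x`-th power, for
  every `x`  (`rthkd_mem_H`);
* `rthkd_pow_mem_H` : `c ^ (p ^ ν) ∈ H'` if `k x ≤ ν` for all `x`;
  `rthkd_neg_one_mem_H`, `rthkd_pmH` : `−1 ∈ H'` and `pmH H' = H'` (`p` odd);
* `rthkdE p ν = (p ^ ν + 1) / 2`, `rthkd_two_E : 2 * e = p ^ ν + 1`, `rthkd_two_E_sub`;
* `rthkd_pow_E_mem` : `c ^ (2 * e - 1) ∈ pmH H'`.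

In the K-machine: `κ = Fin h ⊕ Y.ι`, `v = Sum.elim qv Y.r`, `k = Sum.elim (fun _ => n + 1)
(fun _ => 1)`, `ν = n + 1`, `M = rthkdM v = (∏ qv j) * ∏ Y.r i`, `L = N * ∏ qv j`.
-/

set_option autoImplicit false
set_option linter.unusedSectionVars false

namespace Fermat.Agent.RT

open Fermat.Agent.ES1 (pmH)

section arith

variable {κ : Type} [Fintype κ] (p : ℕ) (v k : κ → ℕ)

/-- `M = ∏ v x` -/
def rthkdM : ℕ := ∏ x, v x

theorem rthkd_dvd_M (x : κ) : v x ∣ rthkdM v :=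
  Finset.dvd_prod_of_mem v (Finset.mem_univ x)

theorem rthkdM_ne_zero (hv : ∀ x, v x ≠ 0) : rthkdM v ≠ 0 :=
  Finset.prod_ne_zero_iff.mpr fun x _ => hv x

theorem rthkdM_sum {α β : Type} [Fintype α] [Fintype β] (a : α → ℕ) (b : β → ℕ) :
    rthkdM (Sum.elim a b) = rthkdM a * rthkdM b := by
  rw [rthkdM, rthkdM, rthkdM, Fintype.prod_sum_type]
  rfl

/-- the product of distinct primes dividing `N` divides `N` -/
theorem rthkdM_dvd_of_primes (hv : ∀ x, (v x).Prime) (hinj : Function.Injective v) {N : ℕ}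
    (hN : ∀ x, v x ∣ N) : rthkdM v ∣ N := by
  classical
  have hz : (∏ x, (v x : ℤ)) ∣ (N : ℤ) :=
    Finset.prod_dvd_of_coprime
      (fun x _ y _ hxy => Nat.isCoprime_iff_coprime.mpr
        ((Nat.coprime_primes (hv x) (hv y)).mpr fun e => hxy (hinj e)))
      (fun x _ => Int.natCast_dvd_natCast.mpr (hN x))
  rw [rthkdM]
  exact_mod_cast hz

variable (M : ℕ) (hM : ∀ x, v x ∣ M)

/-- **the group `H'`**: the units which are `p ^ k x`-th powers modulo `v x`, for every `x` -/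
def rthkdH : Subgroup (ZMod M)ˣ :=
  ⨅ x, ((powMonoidHom (p ^ k x) : (ZMod (v x))ˣ →* (ZMod (v x))ˣ).range).comap
    (ZMod.unitsMap (hM x))

variable {p v k M hM}

theorem rthkd_mem_H {c : (ZMod M)ˣ} :
    c ∈ rthkdH p v k M hM ↔
      ∀ x, ∃ a : (ZMod (v x))ˣ, a ^ (p ^ k x) = ZMod.unitsMap (hM x) c := by
  rw [rthkdH, Subgroup.mem_iInf]
  refine forall_congr' fun x => ?_
  rw [Subgroup.mem_comap, MonoidHom.mem_range]
  rfl

/-- `p ^ ν`-th powers are in `H'` -/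
theorem rthkd_pow_mem_H {ν : ℕ} (hk : ∀ x, k x ≤ ν) (c : (ZMod M)ˣ) :
    c ^ (p ^ ν) ∈ rthkdH p v k M hM := by
  rw [rthkd_mem_H]
  intro x
  refine ⟨(ZMod.unitsMap (hM x) c) ^ (p ^ (ν - k x)), ?_⟩
  rw [← pow_mul, ← pow_add, Nat.sub_add_cancel (hk x), map_pow]

theorem rthkd_neg_one_mem_H (hp : Odd p) : (-1 : (ZMod M)ˣ) ∈ rthkdH p v k M hM := by
  rw [rthkd_mem_H]
  intro x
  refine ⟨-1, ?_⟩
  rw [Odd.neg_one_pow (hp.pow)]
  refine Units.ext ?_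
  rw [ZMod.unitsMap_def, Units.coe_map]
  show (-1 : ZMod (v x)) = ZMod.castHom (hM x) (ZMod (v x)) (-1)
  rw [map_neg, map_one]

theorem rthkd_pmH (hp : Odd p) : pmH (rthkdH p v k M hM) = rthkdH p v k M hM := by
  rw [pmH, sup_eq_left, Subgroup.zpowers_le]
  exact rthkd_neg_one_mem_H hp

variable (p)

/-- the exponent `e = (p ^ ν + 1) / 2` of the twist -/
def rthkdE (ν : ℕ) : ℕ := (p ^ ν + 1) / 2

variable {p}

theorem rthkd_two_E (hp : Odd p) (ν : ℕ) : 2 * rthkdE p ν = p ^ ν + 1 := by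
  rw [rthkdE]
  have h : Even (p ^ ν + 1) := (hp.pow).add_one
  exact Nat.two_mul_div_two_of_even h

theorem rthkd_two_E_sub (hp : Odd p) (ν : ℕ) : 2 * rthkdE p ν - 1 = p ^ ν := by
  rw [rthkd_two_E hp, Nat.add_sub_cancel]

theorem rthkd_pow_E_mem (hp : Odd p) {ν : ℕ} (hk : ∀ x, k x ≤ ν) (c : (ZMod M)ˣ) :
    c ^ (2 * rthkdE p ν - 1) ∈ pmH (rthkdH p v k M hM) := by
  rw [rthkd_two_E_sub hp, rthkd_pmH hp]
  exact rthkd_pow_mem_H hk c

end arith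

end Fermat.Agent.RT


end ZBES1_001_22

/-! ### bundled: `Fermat.Agent.ES1.EisCharG` -/
section ZBES1_001_23
/-
ES₁ / G1, piece A3 for a GENERIC group `Γ ≤ SL(2, ℤ)` (port of helper83's `ES/EisChar.lean`).

`IsEisLevel Γ` : `-1 ∈ Γ` and, for some `N > 0` (`eisPeriod Γ`), `δ T^n δ⁻¹ ∈ Γ` for all
`δ ∈ SL(2,ℤ)` and `N ∣ n`  (true for every `Γ ⊇ Γ(N)` containing `-1`: `isEisLevel_of_Gamma_le`;
instances for `Γ₀(M)` and `gammaH L M H`).

For a character `χ : Γ → ℂˣ` of absolute value one which is trivial on parabolic elements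
(`tr² = 4`), the series `eisCharG χ k z = ∑_{(c,d)} χ(γ_{c,d})⁻¹ (c z + d)^{-k}` (sum over the
bottom rows of elements of `Γ`) is holomorphic on `ℍ`, satisfies
`eisCharG χ k ∣[k] γ = χ γ • eisCharG χ k` for `γ ∈ Γ`, all its `SL(2,ℤ)`-translates are bounded
at `i∞`, and it tends to `2` at `i∞` (for even `k ≥ 4`).
-/

set_option autoImplicit false
set_option linter.unusedSectionVars false

open EisensteinSeries UpperHalfPlane ModularForm CongruenceSubgroup Matrix Filter Topology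
open scoped MatrixGroups Manifold

noncomputable section

namespace Fermat.Agent.ES1

open Fermat.Agent.ES

/-- `Γ` contains `-1` and, for some period `N > 0`, all `δ T^n δ⁻¹` with `N ∣ n`. -/
class IsEisLevel (Γ : Subgroup SL(2, ℤ)) : Prop where
  neg_one_mem : (-1 : SL(2, ℤ)) ∈ Γ
  exists_period : ∃ N : ℕ, 0 < N ∧
    ∀ (δ : SL(2, ℤ)) (n : ℤ), (N : ℤ) ∣ n → δ * ModularGroup.T ^ n * δ⁻¹ ∈ Γ

/-- a period of `Γ` -/
def eisPeriod (Γ : Subgroup SL(2, ℤ)) [IsEisLevel Γ] : ℕ :=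
  (IsEisLevel.exists_period (Γ := Γ)).choose

theorem eisPeriod_pos (Γ : Subgroup SL(2, ℤ)) [IsEisLevel Γ] : 0 < eisPeriod Γ :=
  (IsEisLevel.exists_period (Γ := Γ)).choose_spec.1

instance eisPeriod_neZero (Γ : Subgroup SL(2, ℤ)) [IsEisLevel Γ] : NeZero (eisPeriod Γ) :=
  ⟨(eisPeriod_pos Γ).ne'⟩

theorem eis_conj_T_zpow_memG {Γ : Subgroup SL(2, ℤ)} [IsEisLevel Γ] (δ : SL(2, ℤ)) (n : ℤ)
    (hn : (eisPeriod Γ : ℤ) ∣ n) : δ * ModularGroup.T ^ n * δ⁻¹ ∈ Γ :=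
  (IsEisLevel.exists_period (Γ := Γ)).choose_spec.2 δ n hn

theorem eis_neg_one_memG {Γ : Subgroup SL(2, ℤ)} [IsEisLevel Γ] : (-1 : SL(2, ℤ)) ∈ Γ :=
  IsEisLevel.neg_one_mem

/-- every `Γ ⊇ Γ(N)` (`N > 0`) containing `-1` is an Eisenstein level -/
theorem isEisLevel_of_Gamma_le {Γ : Subgroup SL(2, ℤ)} {N : ℕ} (hN : 0 < N) (h : Gamma N ≤ Γ)
    (h1 : (-1 : SL(2, ℤ)) ∈ Γ) : IsEisLevel Γ := by
  refine ⟨h1, N, hN, fun δ n hn => h ?_⟩
  have h1 : ModularGroup.T ^ n ∈ Gamma N := by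
    have := ModularGroup_T_pow_mem_Gamma (N : ℤ) n hn
    simpa using this
  exact (Gamma_normal N).conj_mem _ h1 δ

instance isEisLevel_gamma0 (M : ℕ) [NeZero M] : IsEisLevel (Gamma0 M) := by
  refine isEisLevel_of_Gamma_le (Nat.pos_of_ne_zero (NeZero.ne M)) (fun γ hγ => ?_)
    Fermat.Agent.ES.eis_neg_one_mem_Gamma0
  rw [Gamma_mem] at hγ
  rw [Gamma0_mem]
  exact hγ.2.2.1

theorem eis_intCast_eq_one_of_dvd {N M : ℕ} (h : M ∣ N) {a : ℤ} (ha : ((a : ℤ) : ZMod N) = 1) :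
    ((a : ℤ) : ZMod M) = 1 := by
  have h1 : ((a : ℤ) : ZMod N) = ((1 : ℤ) : ZMod N) := by rw [ha, Int.cast_one]
  rw [ZMod.intCast_eq_intCast_iff_dvd_sub] at h1
  have h2 : ((a : ℤ) : ZMod M) = ((1 : ℤ) : ZMod M) := by
    rw [ZMod.intCast_eq_intCast_iff_dvd_sub]
    exact (Int.natCast_dvd_natCast.mpr h).trans h1
  rw [h2, Int.cast_one]

theorem eis_intCast_eq_zero_of_dvd {N M : ℕ} (h : M ∣ N) {a : ℤ} (ha : ((a : ℤ) : ZMod N) = 0) :
    ((a : ℤ) : ZMod M) = 0 := by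
  rw [ZMod.intCast_zmod_eq_zero_iff_dvd] at ha ⊢
  exact (Int.natCast_dvd_natCast.mpr h).trans ha

/-- `Γ(L M) ≤ Γ_H(M) ∩ Γ₀(L)` -/
theorem gamma_le_gammaH (L M : ℕ) (H : Subgroup (ZMod M)ˣ) : Gamma (L * M) ≤ gammaH L M H := by
  intro γ hγ
  rw [Gamma_mem] at hγ
  apply gamma1_inf_gamma0_le
  have h1 : γ ∈ Gamma1 M := by
    rw [Gamma1_mem]
    exact ⟨eis_intCast_eq_one_of_dvd (Dvd.intro_left L rfl) hγ.1,
      eis_intCast_eq_one_of_dvd (Dvd.intro_left L rfl) hγ.2.2.2,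
      eis_intCast_eq_zero_of_dvd (Dvd.intro_left L rfl) hγ.2.2.1⟩
  have h2 : γ ∈ Gamma0 L := by
    rw [Gamma0_mem]
    exact eis_intCast_eq_zero_of_dvd (Dvd.intro M rfl) hγ.2.2.1
  exact ⟨h1, h2⟩

instance isEisLevel_gammaH (L M : ℕ) [NeZero L] [NeZero M] (H : Subgroup (ZMod M)ˣ) :
    IsEisLevel (gammaH L M H) :=
  isEisLevel_of_Gamma_le (Nat.pos_of_ne_zero (mul_ne_zero (NeZero.ne L) (NeZero.ne M)))
    (gamma_le_gammaH L M H) (neg_one_mem_gammaH L M H)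

instance finiteIndex_gammaH (L M : ℕ) [NeZero L] [NeZero M] (H : Subgroup (ZMod M)ˣ) :
    (gammaH L M H).FiniteIndex := by
  have : NeZero (L * M) := ⟨mul_ne_zero (NeZero.ne L) (NeZero.ne M)⟩
  exact Subgroup.finiteIndex_of_le (gamma_le_gammaH L M H)

variable {Γ : Subgroup SL(2, ℤ)}

open scoped Classical in
/-- The coefficient function of the Eisenstein series with character. -/
def kapG (χ : Γ →* ℂˣ) (v : Fin 2 → ℤ) : ℂ :=
  if h : ∃ γ : Γ, brow γ = v then (((χ h.choose)⁻¹ : ℂˣ) : ℂ) else 0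

variable (χ : Γ →* ℂˣ)

lemma kap_eqG (hpar : ∀ γ : Γ, IsPar γ → χ γ = 1) (γ : Γ) :
    kapG χ (brow γ) = (((χ γ)⁻¹ : ℂˣ) : ℂ) := by
  have h : ∃ γ' : Γ, brow γ' = brow γ := ⟨γ, rfl⟩
  unfold kapG
  rw [dif_pos h]
  have h1 : IsPar ((h.choose * γ⁻¹ : Γ) : SL(2, ℤ)) := by
    have := isPar_mul_inv_of_brow_eq h.choose_spec
    simpa using this
  have h2 := hpar _ h1
  rw [map_mul, map_inv, mul_inv_eq_one] at h2
  rw [h2]

lemma kap_of_not_existsG {v : Fin 2 → ℤ} (h : ¬ ∃ γ : Γ, brow γ = v) : kapG χ v = 0 := by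
  unfold kapG
  rw [dif_neg h]

lemma norm_kap_leG (hχ : ∀ γ : Γ, ‖((χ γ : ℂˣ) : ℂ)‖ = 1) (v : Fin 2 → ℤ) :
    ‖kapG χ v‖ ≤ 1 := by
  unfold kapG
  split_ifs with h
  · rw [Units.val_inv_eq_inv_val, norm_inv, hχ, inv_one]
  · simp

lemma kap_vecMulG (hpar : ∀ γ : Γ, IsPar γ → χ γ = 1) (γ : Γ) (v : Fin 2 → ℤ) :
    kapG χ (v ᵥ* ((γ : SL(2, ℤ)) : Matrix (Fin 2) (Fin 2) ℤ)) = kapG χ v * (((χ γ)⁻¹ : ℂˣ) : ℂ) := by
  by_cases h : ∃ γ' : Γ, brow γ' = v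
  · obtain ⟨γ', rfl⟩ := h
    have : brow γ' ᵥ* ((γ : SL(2, ℤ)) : Matrix (Fin 2) (Fin 2) ℤ) = brow ((γ' * γ : Γ)) := by
      rw [Subgroup.coe_mul, brow_mul]
    rw [this, kap_eqG χ hpar, kap_eqG χ hpar, map_mul, mul_inv, Units.val_mul]
  · have h' : ¬ ∃ γ' : Γ,
        brow γ' = v ᵥ* ((γ : SL(2, ℤ)) : Matrix (Fin 2) (Fin 2) ℤ) := by
      rintro ⟨γ', hγ'⟩
      apply h
      refine ⟨γ' * γ⁻¹, ?_⟩
      rw [Subgroup.coe_mul, brow_mul, hγ', Subgroup.coe_inv, vecMul_vecMul, eis_coe_mul_coe_inv,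
        vecMul_one]
    rw [kap_of_not_existsG χ h, kap_of_not_existsG χ h', zero_mul]

/-! ### The series -/

/-- The Eisenstein series of weight `k` with character `χ` on `Γ`. -/
def eisCharG (χ : Γ →* ℂˣ) (k : ℤ) : ℍ → ℂ := eisC (kapG χ) k

variable {k : ℤ}

/-- `eisCharG χ k` is holomorphic. -/
theorem eisChar_mdiffG (hχ : ∀ γ : Γ, ‖((χ γ : ℂˣ) : ℂ)‖ = 1) (hk : 3 ≤ k) :
    MDiff (eisCharG χ k) :=
  eisC_mdiff (norm_kap_leG χ hχ) hk

/-- The automorphy of `eisCharG χ k` under `Γ`. -/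
theorem eisChar_slashG (hpar : ∀ γ : Γ, IsPar γ → χ γ = 1) (γ : Γ) :
    eisCharG χ k ∣[k] (γ : SL(2, ℤ)) = ((χ γ : ℂˣ) : ℂ) • eisCharG χ k := by
  unfold eisCharG
  rw [eisC_slash, ← eisC_const_mul]
  congr 1
  funext v
  have := kap_vecMulG χ hpar γ⁻¹ v
  rw [Subgroup.coe_inv] at this
  rw [this, map_inv, inv_inv, mul_comm]

/-- The coefficient function of a translate is invariant under `T^n` whenever
`δ T^n δ⁻¹ ∈ Γ`. -/
lemma kap_translate_periodicG' (hpar : ∀ γ : Γ, IsPar γ → χ γ = 1) (δ : SL(2, ℤ))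
    (n : ℤ) (hn : δ * ModularGroup.T ^ n * δ⁻¹ ∈ Γ) (v : Fin 2 → ℤ) :
    kapG χ ((v ᵥ* (((ModularGroup.T ^ n)⁻¹ : SL(2, ℤ)) : Matrix (Fin 2) (Fin 2) ℤ)) ᵥ*
        ((δ⁻¹ : SL(2, ℤ)) : Matrix (Fin 2) (Fin 2) ℤ))
      = kapG χ (v ᵥ* ((δ⁻¹ : SL(2, ℤ)) : Matrix (Fin 2) (Fin 2) ℤ)) := by
  have hmem : δ * ModularGroup.T ^ (-n) * δ⁻¹ ∈ Γ := by
    have := (Γ).inv_mem hn
    have e : (δ * ModularGroup.T ^ n * δ⁻¹)⁻¹ = δ * ModularGroup.T ^ (-n) * δ⁻¹ := by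
      rw [_root_.zpow_neg]
      group
    rwa [e] at this
  have hγpar : IsPar (δ * ModularGroup.T ^ (-n) * δ⁻¹) := isPar_conj_T_zpow δ _
  have h1 := kap_vecMulG χ hpar ⟨_, hmem⟩
    (v ᵥ* ((δ⁻¹ : SL(2, ℤ)) : Matrix (Fin 2) (Fin 2) ℤ))
  rw [hpar ⟨_, hmem⟩ hγpar, inv_one, Units.val_one, mul_one] at h1
  rw [← h1]
  have key : ((ModularGroup.T ^ n)⁻¹ * δ⁻¹ : SL(2, ℤ))
      = δ⁻¹ * (δ * ModularGroup.T ^ (-n) * δ⁻¹) := by
    rw [_root_.zpow_neg]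
    group
  rw [vecMul_vecMul, vecMul_vecMul, eis_coe_mul_coe, eis_coe_mul_coe, key]

variable [IsEisLevel Γ]

/-- The coefficient function of a translate is invariant under `T^N`. -/
lemma kap_translate_periodicG (hpar : ∀ γ : Γ, IsPar γ → χ γ = 1) (δ : SL(2, ℤ))
    (v : Fin 2 → ℤ) :
    kapG χ ((v ᵥ* (((ModularGroup.T ^ (eisPeriod Γ : ℤ))⁻¹ : SL(2, ℤ)) : Matrix (Fin 2) (Fin 2) ℤ)) ᵥ*
        ((δ⁻¹ : SL(2, ℤ)) : Matrix (Fin 2) (Fin 2) ℤ))
      = kapG χ (v ᵥ* ((δ⁻¹ : SL(2, ℤ)) : Matrix (Fin 2) (Fin 2) ℤ)) :=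
  kap_translate_periodicG' χ hpar δ (eisPeriod Γ : ℤ) (eis_conj_T_zpow_memG δ _ dvd_rfl) v

/-- A translate of `eisCharG χ k` by `δ ∈ SL(2,ℤ)` is `n`-periodic whenever `δ T^n δ⁻¹ ∈ Γ`. -/
theorem eisChar_slash_periodicG' (hpar : ∀ γ : Γ, IsPar γ → χ γ = 1) (δ : SL(2, ℤ))
    (n : ℤ) (hn : δ * ModularGroup.T ^ n * δ⁻¹ ∈ Γ) (z : ℍ) :
    (eisCharG χ k ∣[k] δ) ((n : ℝ) +ᵥ z) = (eisCharG χ k ∣[k] δ) z := by
  have h := eis_slash_T_zpow_apply (eisCharG χ k ∣[k] δ) k n z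
  rw [← h]
  unfold eisCharG
  rw [eisC_slash, eisC_slash]
  congr 2
  funext v
  exact kap_translate_periodicG' χ hpar δ n hn v

/-- Every `SL(2,ℤ)`-translate of `eisCharG χ k` is `N`-periodic. -/
theorem eisChar_slash_periodicG (hpar : ∀ γ : Γ, IsPar γ → χ γ = 1) (δ : SL(2, ℤ))
    (z : ℍ) : (eisCharG χ k ∣[k] δ) ((eisPeriod Γ : ℝ) +ᵥ z) = (eisCharG χ k ∣[k] δ) z := by
  have h := eisChar_slash_periodicG' (k := k) χ hpar δ (eisPeriod Γ : ℤ)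
    (eis_conj_T_zpow_memG δ _ dvd_rfl) z
  rwa [show ((eisPeriod Γ : ℤ) : ℝ) = (eisPeriod Γ : ℝ) by simp] at h

/-- Every `SL(2,ℤ)`-translate of `eisCharG χ k` is bounded at `i∞`. -/
theorem eisChar_slash_isBoundedAtImInftyG
    (hχ : ∀ γ : Γ, ‖((χ γ : ℂˣ) : ℂ)‖ = 1)
    (hpar : ∀ γ : Γ, IsPar γ → χ γ = 1) (hk : 3 ≤ k) (δ : SL(2, ℤ)) :
    IsBoundedAtImInfty (eisCharG χ k ∣[k] δ) := by
  have hper := eisChar_slash_periodicG (k := k) χ hpar δ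
  unfold eisCharG at hper ⊢
  rw [eisC_slash] at hper ⊢
  exact eisC_isBoundedAtImInfty (C := 1) (fun v => norm_kap_leG χ hχ _) hk
    (eisPeriod_pos Γ) hper

lemma eisChar_periodicG (hpar : ∀ γ : Γ, IsPar γ → χ γ = 1) (z : ℍ) :
    eisCharG χ k ((eisPeriod Γ : ℝ) +ᵥ z) = eisCharG χ k z := by
  have := eisChar_slash_periodicG (k := k) χ hpar 1 z
  simpa using this

/-! ### The limit at `i∞` -/

lemma kap_zero_oneG (hpar : ∀ γ : Γ, IsPar γ → χ γ = 1) : kapG χ ![0, 1] = 1 := by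
  have := kap_eqG χ hpar 1
  rw [map_one, inv_one, Units.val_one] at this
  rw [← this]
  congr 1
  exact brow_one.symm

lemma kap_zero_neg_oneG (hpar : ∀ γ : Γ, IsPar γ → χ γ = 1) : kapG χ ![0, -1] = 1 := by
  have := kap_eqG χ hpar ⟨-1, eis_neg_one_memG⟩
  rw [hpar ⟨-1, eis_neg_one_memG⟩ isPar_neg_one, inv_one, Units.val_one] at this
  rw [← this]
  congr 1
  exact brow_neg_one.symm

lemma kap_eq_zero_of_neG {v : Fin 2 → ℤ} (h0 : v 0 = 0) (h1 : v ≠ ![0, 1]) (h2 : v ≠ ![0, -1]) :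
    kapG χ v = 0 := by
  apply kap_of_not_existsG
  rintro ⟨γ, hγ⟩
  have hcop := ModularGroup.bottom_row_coprime (γ : SL(2, ℤ))
  have e0 : ((γ : SL(2, ℤ)) : Matrix (Fin 2) (Fin 2) ℤ) 1 0 = v 0 := congrFun hγ 0
  have e1 : ((γ : SL(2, ℤ)) : Matrix (Fin 2) (Fin 2) ℤ) 1 1 = v 1 := congrFun hγ 1
  rw [e0, e1, h0, isCoprime_zero_left, Int.isUnit_iff] at hcop
  rcases hcop with h | h
  · apply h1
    funext i
    fin_cases i <;> simp [h0, h]
  · apply h2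
    funext i
    fin_cases i <;> simp [h0, h]

lemma tsum_kap_eq_twoG (hpar : ∀ γ : Γ, IsPar γ → χ γ = 1) (hk2 : Even k) :
    (∑' v : Fin 2 → ℤ, kapG χ v * (if v 0 = 0 then ((v 1 : ℂ)) ^ (-k) else 0)) = 2 := by
  classical
  have hne : (![0, 1] : Fin 2 → ℤ) ≠ ![0, -1] := by
    intro h
    have := congrFun h 1
    simp at this
  rw [tsum_eq_sum (s := {![0, 1], ![0, -1]})]
  · rw [Finset.sum_pair hne, kap_zero_oneG χ hpar, kap_zero_neg_oneG χ hpar]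
    have h1 : ((-1 : ℂ)) ^ (-k) = 1 := by
      rw [_root_.zpow_neg, Even.neg_one_zpow hk2, inv_one]
    simp [h1]
    norm_num
  · intro v hv
    simp only [Finset.mem_insert, Finset.mem_singleton, not_or] at hv
    by_cases h0 : v 0 = 0
    · rw [kap_eq_zero_of_neG χ h0 hv.1 hv.2, zero_mul]
    · rw [if_neg h0, mul_zero]

/-- `eisCharG χ k` tends to `2` at `i∞` (even weight `k ≥ 4`). -/
theorem eisChar_tendstoG (hχ : ∀ γ : Γ, ‖((χ γ : ℂˣ) : ℂ)‖ = 1)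
    (hpar : ∀ γ : Γ, IsPar γ → χ γ = 1) (hk : 3 ≤ k) (hk2 : Even k) :
    Tendsto (eisCharG χ k) atImInfty (𝓝 2) := by
  have h := eisC_tendsto_atImInfty (norm_kap_leG χ hχ) hk (eisPeriod_pos Γ)
    (eisChar_periodicG (k := k) χ hpar)
  rw [tsum_kap_eq_twoG χ hpar hk2] at h
  exact h

/-- `eisCharG χ k` is not identically zero. -/
theorem eisChar_ne_zeroG (hχ : ∀ γ : Γ, ‖((χ γ : ℂˣ) : ℂ)‖ = 1)
    (hpar : ∀ γ : Γ, IsPar γ → χ γ = 1) (hk : 3 ≤ k) (hk2 : Even k) :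
    ∃ z : ℍ, eisCharG χ k z ≠ 0 := by
  by_contra hne
  push Not at hne
  have h0 : Tendsto (eisCharG χ k) atImInfty (𝓝 0) := by
    have : eisCharG χ k = fun _ => 0 := funext hne
    rw [this]
    exact tendsto_const_nhds
  have := tendsto_nhds_unique (eisChar_tendstoG χ hχ hpar hk hk2) h0
  norm_num at this

/-! ### Powers: genuine modular forms on `Γ` -/

/-- If `χ ^ n = 1`, the `n`-th power of `eisCharG χ k` is a modular form of weight `n k` on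
`Γ`. -/
def eisCharPowG [Γ.FiniteIndex] (hχ : ∀ γ : Γ, ‖((χ γ : ℂˣ) : ℂ)‖ = 1)
    (hpar : ∀ γ : Γ, IsPar γ → χ γ = 1) (hk : 3 ≤ k) (n : ℕ)
    (hn : ∀ γ : Γ, χ γ ^ n = 1) :
    ModularForm ((Γ).map (Matrix.SpecialLinearGroup.mapGL ℝ)) ((n : ℤ) * k) where
  toFun := eisCharG χ k ^ n
  slash_action_eq' := by
    rintro _ ⟨γ, hγ, rfl⟩
    change (eisCharG χ k ^ n) ∣[(n : ℤ) * k] γ = _
    rw [eis_pow_slash, eisChar_slashG χ hpar ⟨γ, hγ⟩, smul_pow, ← Units.val_pow_eq_pow_val,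
      hn ⟨γ, hγ⟩, Units.val_one, one_smul]
  holo' := by
    have h := eisChar_mdiffG χ hχ hk
    have : MDiff (fun z => eisCharG χ k z ^ n) := h.pow n
    exact this
  bdd_at_cusps' := by
    intro c hc
    rw [Subgroup.IsArithmetic.isCusp_iff_isCusp_SL2Z] at hc
    rw [OnePoint.isBoundedAt_iff_forall_SL2Z hc]
    intro δ _
    rw [eis_pow_slash]
    have hb := eisChar_slash_isBoundedAtImInftyG χ hχ hpar hk δ
    have key : ∀ m : ℕ, IsBoundedAtImInfty ((eisCharG χ k ∣[k] δ) ^ m) := by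
      intro m
      induction m with
      | zero =>
        simp only [pow_zero]
        exact Filter.const_boundedAtFilter _ (1 : ℂ)
      | succ m ih =>
        rw [pow_succ]
        exact ih.mul hb
    exact key n

@[simp] lemma eisCharPow_applyG [Γ.FiniteIndex] (hχ : ∀ γ : Γ, ‖((χ γ : ℂˣ) : ℂ)‖ = 1)
    (hpar : ∀ γ : Γ, IsPar γ → χ γ = 1) (hk : 3 ≤ k) (n : ℕ)
    (hn : ∀ γ : Γ, χ γ ^ n = 1) (z : ℍ) :
    eisCharPowG χ hχ hpar hk n hn z = eisCharG χ k z ^ n := rfl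

end Fermat.Agent.ES1

end
end ZBES1_001_23

/-! ### bundled: `Fermat.Agent.ES1.EisCharFunG` -/
section ZBES1_001_24
/-
ES₁ / G1, piece A3 for a GENERIC `Γ` (port of helper83's ES₀ file): the `χ`-automorphic function `hChiG χ = eisCharG χ 12 / Δ`.

`hChiG χ` is holomorphic on `ℍ`, not identically zero, `hChiG χ (γ • z) = χ γ * hChiG χ z` for
`γ ∈ Γ`; for every `δ ∈ SL(2,ℤ)`: `hChiG χ (δ • z) = (eisCharG χ 12 ∣[12] δ) z / Δ z`, where the
numerator is holomorphic, bounded at `i∞`, and `n`-periodic whenever `δ T^n δ⁻¹ ∈ Γ`.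
-/

set_option autoImplicit false
set_option linter.unusedSectionVars false

open EisensteinSeries UpperHalfPlane ModularForm CongruenceSubgroup Matrix Filter Topology
open scoped MatrixGroups Manifold

noncomputable section

namespace Fermat.Agent.ES1

open Fermat.Agent.ES

variable {Γ : Subgroup SL(2, ℤ)} [IsEisLevel Γ] (χ : Γ →* ℂˣ)

local notation "Δ" => ModularForm.discriminant

/-- The `χ`-automorphic function `E₁₂^χ / Δ`. -/
def hChiG (χ : Γ →* ℂˣ) (z : ℍ) : ℂ := eisCharG χ 12 z / Δ z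

lemma hChi_applyG (z : ℍ) : hChiG χ z = eisCharG χ 12 z / Δ z := rfl

theorem hChi_mdiffG (hχ : ∀ γ : Γ, ‖((χ γ : ℂˣ) : ℂ)‖ = 1) : MDiff (hChiG χ) :=
  (eisChar_mdiffG χ hχ (by norm_num)).div eis_discriminant_mdiff discriminant_ne_zero

/-- The translates of `hChiG χ`. -/
theorem hChi_smul_SLG (δ : SL(2, ℤ)) (z : ℍ) :
    hChiG χ (δ • z) = (eisCharG χ 12 ∣[(12 : ℤ)] δ) z / Δ z := by
  have hd : denom δ z ^ 12 ≠ 0 := pow_ne_zero _ (denom_ne_zero _ z)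
  have hΔ : Δ z ≠ 0 := discriminant_ne_zero z
  have h5 : denom δ z ^ (-(12 : ℤ)) = (denom δ z ^ 12)⁻¹ := by
    rw [_root_.zpow_neg]
    norm_cast
  rw [hChi_applyG, eis_discriminant_smul, SL_slash_apply, h5]
  field_simp

/-- The automorphy of `hChiG χ`. -/
theorem hChi_smulG (hpar : ∀ γ : Γ, IsPar γ → χ γ = 1) (γ : Γ) (z : ℍ) :
    hChiG χ ((γ : SL(2, ℤ)) • z) = ((χ γ : ℂˣ) : ℂ) * hChiG χ z := by
  rw [hChi_smul_SLG, eisChar_slashG χ hpar γ, hChi_applyG, Pi.smul_apply, smul_eq_mul, mul_div_assoc]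

/-- `hChiG χ ^ n` is `Γ`-invariant if `χ ^ n = 1`. -/
theorem hChi_pow_smulG (hpar : ∀ γ : Γ, IsPar γ → χ γ = 1) (n : ℕ)
    (hn : ∀ γ : Γ, χ γ ^ n = 1) (γ : Γ) (z : ℍ) :
    hChiG χ ((γ : SL(2, ℤ)) • z) ^ n = hChiG χ z ^ n := by
  rw [hChi_smulG χ hpar, mul_pow, ← Units.val_pow_eq_pow_val, hn, Units.val_one, one_mul]

/-- `hChiG χ · Δ` tends to `2` at `i∞`; in particular `hChiG χ` has a simple pole at `i∞`. -/
theorem hChi_mul_discriminant_tendstoG (hχ : ∀ γ : Γ, ‖((χ γ : ℂˣ) : ℂ)‖ = 1)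
    (hpar : ∀ γ : Γ, IsPar γ → χ γ = 1) :
    Tendsto (fun z => hChiG χ z * Δ z) atImInfty (𝓝 2) := by
  have h := eisChar_tendstoG (k := 12) χ hχ hpar (by norm_num) ⟨6, by norm_num⟩
  refine h.congr fun z => ?_
  rw [hChi_applyG, div_mul_cancel₀ _ (discriminant_ne_zero z)]

theorem hChi_ne_zeroG (hχ : ∀ γ : Γ, ‖((χ γ : ℂˣ) : ℂ)‖ = 1)
    (hpar : ∀ γ : Γ, IsPar γ → χ γ = 1) : ∃ z : ℍ, hChiG χ z ≠ 0 := by
  obtain ⟨z, hz⟩ := eisChar_ne_zeroG (k := 12) χ hχ hpar (by norm_num) ⟨6, by norm_num⟩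
  exact ⟨z, div_ne_zero hz (discriminant_ne_zero z)⟩

/-- At every cusp: `z ↦ hChiG χ (δ • z) · Δ z` is holomorphic, bounded at `i∞` and `n`-periodic
whenever `δ T^n δ⁻¹ ∈ Γ`. -/
theorem hChi_cuspG (hχ : ∀ γ : Γ, ‖((χ γ : ℂˣ) : ℂ)‖ = 1)
    (hpar : ∀ γ : Γ, IsPar γ → χ γ = 1) (δ : SL(2, ℤ)) :
    MDiff (fun z => hChiG χ (δ • z) * Δ z) ∧
    IsBoundedAtImInfty (fun z => hChiG χ (δ • z) * Δ z) ∧
    ∀ n : ℤ, δ * ModularGroup.T ^ n * δ⁻¹ ∈ Γ → ∀ z : ℍ,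
      hChiG χ (δ • ((n : ℝ) +ᵥ z)) * Δ ((n : ℝ) +ᵥ z) = hChiG χ (δ • z) * Δ z := by
  have hfun : (fun z => hChiG χ (δ • z) * Δ z) = eisCharG χ 12 ∣[(12 : ℤ)] δ := by
    funext z
    rw [hChi_smul_SLG, div_mul_cancel₀ _ (discriminant_ne_zero z)]
  refine ⟨?_, ?_, fun n hn z => ?_⟩
  · rw [hfun]
    have h := eisChar_mdiffG (k := 12) χ hχ (by norm_num)
    unfold eisCharG at h ⊢
    rw [eisC_slash]
    exact eisC_mdiff (C := 1) (fun v => norm_kap_leG χ hχ _) (by norm_num)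
  · rw [hfun]
    exact eisChar_slash_isBoundedAtImInftyG χ hχ hpar (by norm_num) δ
  · have h1 := congrFun hfun ((n : ℝ) +ᵥ z)
    have h2 := congrFun hfun z
    rw [h1, h2]
    exact eisChar_slash_periodicG' χ hpar δ n hn z

end Fermat.Agent.ES1

end
end ZBES1_001_24

/-! ### bundled: `Fermat.Agent.ES1.EisCharMultG` -/
section ZBES1_001_25
/-
ESpkg-G1, piece A3 → A2 glue (helper83): the multiplier map is ONTO.

For `χ : Γ →* ℂˣ` with `χ ^ p = 1`, trivial on parabolic elements, the holomorphic function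
`hChiG χ = E₁₂^χ / Δ` (resp. the pair `(E₁₂^χ, Δ)`) is a `RootData (Γ) p` whose multiplier
character (helper34's `RootData.mult`) is `χ`.
-/

set_option autoImplicit false
set_option linter.unusedSectionVars false

open EisensteinSeries UpperHalfPlane ModularForm CongruenceSubgroup Matrix Filter Topology
open scoped MatrixGroups Manifold

noncomputable section

namespace Fermat.Agent.ES1

open Fermat.Agent.ES

variable {Γ : Subgroup SL(2, ℤ)} [IsEisLevel Γ] (χ : Γ →* ℂˣ)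

local notation "Δ" => ModularForm.discriminant

/-- a character with values in the `p`-th roots of unity has absolute value one. -/
lemma eis_norm_eq_one_of_powG {p : ℕ} (hp : p ≠ 0) (hχp : ∀ γ : Γ, χ γ ^ p = 1)
    (γ : Γ) : ‖((χ γ : ℂˣ) : ℂ)‖ = 1 := by
  have h1 : ((χ γ : ℂˣ) : ℂ) ^ p = 1 := by
    have := congrArg (fun u : ℂˣ => (u : ℂ)) (hχp γ)
    simpa using this
  exact Complex.norm_eq_one_of_pow_eq_one h1 hp

/-- `hChiG χ` has multiplier `χ γ` at `γ ∈ Γ` (as the "fraction" `hChiG χ / 1`). -/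
theorem hChi_isMultiplierG (hpar : ∀ γ : Γ, IsPar γ → χ γ = 1) (γ : Γ) :
    IsMultiplier (γ : SL(2, ℤ)) (hChiG χ) (fun _ => 1) ((χ γ : ℂˣ) : ℂ) := by
  intro τ
  have h := hChi_smulG χ hpar γ τ
  simp only [mul_one]
  exact h

/-- the pair `(E₁₂^χ, Δ)` has multiplier `χ γ` at `γ ∈ Γ`. -/
theorem eisChar_isMultiplierG (hpar : ∀ γ : Γ, IsPar γ → χ γ = 1) (γ : Γ) :
    IsMultiplier (γ : SL(2, ℤ)) (eisCharG χ 12) (fun z => Δ z) ((χ γ : ℂˣ) : ℂ) := by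
  intro τ
  have h := hChi_smulG χ hpar γ τ
  rw [hChi_applyG, hChi_applyG] at h
  have h1 : Δ ((γ : SL(2, ℤ)) • τ) ≠ 0 := discriminant_ne_zero _
  have h2 : Δ τ ≠ 0 := discriminant_ne_zero _
  show eisCharG χ 12 ((γ : SL(2, ℤ)) • τ) * Δ τ
      = ((χ γ : ℂˣ) : ℂ) * (eisCharG χ 12 τ * Δ ((γ : SL(2, ℤ)) • τ))
  field_simp at h
  linear_combination h

/-- The root datum of `hChiG χ` (denominator `1`). -/
def hChiRootDataG {p : ℕ} (hp : p ≠ 0) (hχp : ∀ γ : Γ, χ γ ^ p = 1)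
    (hpar : ∀ γ : Γ, IsPar γ → χ γ = 1) : RootData (Γ) p where
  a := hChiG χ
  g := fun _ => 1
  p_ne_zero := hp
  mdiff_a := hChi_mdiffG χ (eis_norm_eq_one_of_powG χ hp hχp)
  mdiff_g := mdifferentiable_const
  a_ne_zero := fun h => by
    obtain ⟨z, hz⟩ := hChi_ne_zeroG χ (eis_norm_eq_one_of_powG χ hp hχp) hpar
    exact hz (congrFun h z)
  g_ne_zero := fun h => one_ne_zero (congrFun h UpperHalfPlane.I)
  pow_inv := by
    intro γ hγ τ
    have h := hChi_isMultiplierG χ hpar ⟨γ, hγ⟩ τ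
    have h1 : ((χ ⟨γ, hγ⟩ : ℂˣ) : ℂ) ^ p = 1 := by
      have := congrArg (fun u : ℂˣ => (u : ℂ)) (hχp ⟨γ, hγ⟩)
      simpa using this
    rw [h, mul_pow, h1, one_mul]

/-- **The multiplier map is onto**: the multiplier character of `hChiG χ` is `χ`. -/
theorem hChiRootData_multG {p : ℕ} (hp : p ≠ 0) (hχp : ∀ γ : Γ, χ γ ^ p = 1)
    (hpar : ∀ γ : Γ, IsPar γ → χ γ = 1) :
    (hChiRootDataG χ hp hχp hpar).mult = χ := by
  ext γ
  exact congrArg (fun u : ℂˣ => (u : ℂ))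
    (((hChiRootDataG χ hp hχp hpar).mult_eq_iff γ (χ γ)).2 (hChi_isMultiplierG χ hpar γ))

/-- The root datum of the pair `(E₁₂^χ, Δ)`. -/
def eisCharRootDataG {p : ℕ} (hp : p ≠ 0) (hχp : ∀ γ : Γ, χ γ ^ p = 1)
    (hpar : ∀ γ : Γ, IsPar γ → χ γ = 1) : RootData (Γ) p where
  a := eisCharG χ 12
  g := fun z => Δ z
  p_ne_zero := hp
  mdiff_a := eisChar_mdiffG χ (eis_norm_eq_one_of_powG χ hp hχp) (by norm_num)
  mdiff_g := eis_discriminant_mdiff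
  a_ne_zero := fun h => by
    obtain ⟨z, hz⟩ := eisChar_ne_zeroG (k := 12) χ (eis_norm_eq_one_of_powG χ hp hχp) hpar
      (by norm_num) (by decide)
    exact hz (congrFun h z)
  g_ne_zero := fun h => discriminant_ne_zero UpperHalfPlane.I (congrFun h UpperHalfPlane.I)
  pow_inv := by
    intro γ hγ τ
    have h := eisChar_isMultiplierG χ hpar ⟨γ, hγ⟩ τ
    have h1 : ((χ ⟨γ, hγ⟩ : ℂˣ) : ℂ) ^ p = 1 := by
      have := congrArg (fun u : ℂˣ => (u : ℂ)) (hχp ⟨γ, hγ⟩)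
      simpa using this
    rw [h, mul_pow, h1, one_mul]

theorem eisCharRootData_multG {p : ℕ} (hp : p ≠ 0) (hχp : ∀ γ : Γ, χ γ ^ p = 1)
    (hpar : ∀ γ : Γ, IsPar γ → χ γ = 1) :
    (eisCharRootDataG χ hp hχp hpar).mult = χ := by
  ext γ
  exact congrArg (fun u : ℂˣ => (u : ℂ))
    (((eisCharRootDataG χ hp hχp hpar).mult_eq_iff γ (χ γ)).2 (eisChar_isMultiplierG χ hpar γ))

/-- **Surjectivity of the multiplier map, existence form.**  Every character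
`χ : Γ → μ_p` that is trivial on parabolic elements is the multiplier of a root datum `D`
whose `p`-th power `D.a ^ p / D.g ^ p` is (the restriction to `ℍ` of) a modular function. -/
theorem exists_rootData_mult_eqG {p : ℕ} (hp : p ≠ 0)
    (hχp : ∀ γ : Γ, χ γ ^ p = 1) (hpar : ∀ γ : Γ, IsPar γ → χ γ = 1) :
    ∃ D : RootData (Γ) p, D.mult = χ ∧ (∀ z, D.g z = 1) ∧ D.a = hChiG χ :=
  ⟨hChiRootDataG χ hp hχp hpar, hChiRootData_multG χ hp hχp hpar, fun _ => rfl, rfl⟩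

end Fermat.Agent.ES1

end
end ZBES1_001_25

/-! ### bundled: `Fermat.Agent.ES1.EisCharOrdG` -/
section ZBES1_001_26
/-
ES₁ / G1, piece A3 for a GENERIC `Γ` (port of helper83's ES₀ file): orders of `hChiG χ` at fixed points (elliptic points).

For `γ ∈ Γ` fixing `τ₀`, with `ν = 1 / denom γ τ₀ ^ 2` (the derivative of `γ` at `τ₀`):
`χ γ = ν ^ ord_τ₀ (hChiG χ)`.  Hence, if `χ γ = 1` and `ν` is a primitive `e`-th root of unity,
`e ∣ ord_τ₀ (hChiG χ)`, i.e. `p * e ∣ ord_τ₀ (hChiG χ ^ p)`: the `p`-divisibility of the order of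
`u_χ = hChiG χ ^ p` in the local parameter at the elliptic point.
-/

set_option autoImplicit false
set_option linter.unusedSectionVars false

open EisensteinSeries UpperHalfPlane ModularForm CongruenceSubgroup Matrix Filter Topology
open scoped MatrixGroups Manifold

noncomputable section

namespace Fermat.Agent.ES1

open Fermat.Agent.ES

open Fermat.Agent.S24

variable {Γ : Subgroup SL(2, ℤ)} [IsEisLevel Γ] (χ : Γ →* ℂˣ)

/-- the function `hChiG χ` is not the zero function. -/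
lemma hChi_ne_zero_funG (hχ : ∀ γ : Γ, ‖((χ γ : ℂˣ) : ℂ)‖ = 1)
    (hpar : ∀ γ : Γ, IsPar γ → χ γ = 1) : hChiG χ ≠ 0 := fun h => by
  obtain ⟨z, hz⟩ := hChi_ne_zeroG χ hχ hpar
  exact hz (congrFun h z)

/-- **The multiplier at a fixed point**: `χ γ = ν ^ ord_τ₀ (hChiG χ)`, `ν = 1 / denom γ τ₀ ^ 2`. -/
theorem hChi_mult_at_fixedG (hχ : ∀ γ : Γ, ‖((χ γ : ℂˣ) : ℂ)‖ = 1)
    (hpar : ∀ γ : Γ, IsPar γ → χ γ = 1) (γ : Γ) {τ₀ : ℍ}
    (hfix : (γ : SL(2, ℤ)) • τ₀ = τ₀) :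
    ((χ γ : ℂˣ) : ℂ) = (1 / denom (γ : SL(2, ℤ)) τ₀ ^ 2) ^ (ordAt τ₀ (hChiG χ)).toNat := by
  have h := (hChi_isMultiplierG χ hpar γ).mul_pow_eq_of_fixed (hChi_mdiffG χ hχ)
    mdifferentiable_const (hChi_ne_zero_funG χ hχ hpar)
    (fun h => one_ne_zero (congrFun h UpperHalfPlane.I)) hfix
  rw [ordAt_const one_ne_zero] at h
  simpa using h

/-- If `χ γ = 1` and the derivative of `γ` at its fixed point `τ₀` is a primitive `e`-th root of
unity, then `e ∣ ord_τ₀ (hChiG χ)`. -/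
theorem hChi_dvd_ordAt_of_fixedG (hχ : ∀ γ : Γ, ‖((χ γ : ℂˣ) : ℂ)‖ = 1)
    (hpar : ∀ γ : Γ, IsPar γ → χ γ = 1) (γ : Γ) {τ₀ : ℍ}
    (hfix : (γ : SL(2, ℤ)) • τ₀ = τ₀) {e : ℕ}
    (hprim : IsPrimitiveRoot (1 / denom (γ : SL(2, ℤ)) τ₀ ^ 2 : ℂ) e) (h1 : χ γ = 1) :
    e ∣ (ordAt τ₀ (hChiG χ)).toNat := by
  have h := hChi_mult_at_fixedG χ hχ hpar γ hfix
  rw [h1] at h
  exact (hprim.pow_eq_one_iff_dvd _).1 (by simpa using h.symm)

/-- the order of a power. -/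
theorem ordAt_hChi_powG (hχ : ∀ γ : Γ, ‖((χ γ : ℂˣ) : ℂ)‖ = 1) (n : ℕ) (τ₀ : ℍ) :
    ordAt τ₀ (fun z => hChiG χ z ^ n) = n • ordAt τ₀ (hChiG χ) := by
  have h : (fun z => hChiG χ z ^ n) ∘ ofComplex = (hChiG χ ∘ ofComplex) ^ n := by
    funext z; rfl
  rw [ordAt, h, analyticOrderAt_pow (ordAt_analyticAt (hChi_mdiffG χ hχ) τ₀)]
  rfl

/-- **`p`-divisibility at an elliptic point, in the local parameter.**  If `χ γ = 1` and the
derivative of `γ` at its fixed point `τ₀` is a primitive `e`-th root of unity, then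
`p * e ∣ ord_τ₀ (hChiG χ ^ p)`. -/
theorem hChi_pow_ordAt_dvdG (hχ : ∀ γ : Γ, ‖((χ γ : ℂˣ) : ℂ)‖ = 1)
    (hpar : ∀ γ : Γ, IsPar γ → χ γ = 1) (γ : Γ) {τ₀ : ℍ}
    (hfix : (γ : SL(2, ℤ)) • τ₀ = τ₀) {e : ℕ}
    (hprim : IsPrimitiveRoot (1 / denom (γ : SL(2, ℤ)) τ₀ ^ 2 : ℂ) e) (h1 : χ γ = 1) (p : ℕ) :
    p * e ∣ (ordAt τ₀ (fun z => hChiG χ z ^ p)).toNat := by
  rw [ordAt_hChi_powG χ hχ]
  have hne : ordAt τ₀ (hChiG χ) ≠ ⊤ :=
    ordAt_ne_top (hChi_mdiffG χ hχ) (hChi_ne_zero_funG χ hχ hpar) τ₀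
  obtain ⟨m, hm⟩ := ENat.ne_top_iff_exists.1 hne
  rw [← hm]
  have h2 := hChi_dvd_ordAt_of_fixedG χ hχ hpar γ hfix hprim h1
  rw [← hm] at h2
  have h3 : (p • (m : ℕ∞)).toNat = p * m := by
    rw [nsmul_eq_mul]
    have : ((p : ℕ∞) * (m : ℕ∞)) = ((p * m : ℕ) : ℕ∞) := by push_cast; rfl
    rw [this, ENat.toNat_natCast]
  rw [h3]
  rw [ENat.toNat_natCast] at h2
  exact Nat.mul_dvd_mul_left p h2

/-- At a point whose stabiliser acts trivially on the character (`χ γ = 1`), with NO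
assumption on `γ`: the order of `hChiG χ ^ p` is divisible by `p`. -/
theorem hChi_pow_ordAt_dvd_selfG (hχ : ∀ γ : Γ, ‖((χ γ : ℂˣ) : ℂ)‖ = 1) (p : ℕ) (τ₀ : ℍ)
    (hne : ordAt τ₀ (hChiG χ) ≠ ⊤) :
    p ∣ (ordAt τ₀ (fun z => hChiG χ z ^ p)).toNat := by
  rw [ordAt_hChi_powG χ hχ]
  obtain ⟨m, hm⟩ := ENat.ne_top_iff_exists.1 hne
  rw [← hm]
  have h3 : (p • (m : ℕ∞)).toNat = p * m := by
    rw [nsmul_eq_mul]
    have : ((p : ℕ∞) * (m : ℕ∞)) = ((p * m : ℕ) : ℕ∞) := by push_cast; rfl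
    rw [this, ENat.toNat_natCast]
  rw [h3]
  exact dvd_mul_right p m

end Fermat.Agent.ES1

end
end ZBES1_001_26

/-! ### bundled: `Fermat.Agent.ES1.EisCharCuspG` -/
section ZBES1_001_27
/-
ES₁ / G1, piece A3 for a GENERIC `Γ` (port of helper83's ES₀ file): `hChiG χ` at the cusps, in the language of S24's `cuspFn`.

For `δ ∈ SL(2,ℤ)` and `h > 0` with `δ T^h δ⁻¹ ∈ Γ` (e.g. `h` = the width of the cusp `δ∞`),
`W := hChiG χ ∘ δ` is `h`-periodic, its cusp function `cuspFn h W` (a function of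
`q_h = exp(2πi z / h)`) is meromorphic at `0` of finite order, and the order of
`cuspFn h (W ^ p)` is `p` times the order of `cuspFn h W`: the `p`-divisibility of the order of
`u_χ = hChiG χ ^ p` at the cusp `δ∞` in the local parameter `q_h`.
-/

set_option autoImplicit false
set_option linter.unusedSectionVars false

open EisensteinSeries UpperHalfPlane ModularForm CongruenceSubgroup Matrix Filter Topology
open scoped MatrixGroups Manifold

noncomputable section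

namespace Fermat.Agent.ES1

open Fermat.Agent.ES

open Fermat.Agent.S24

variable {Γ : Subgroup SL(2, ℤ)} [IsEisLevel Γ] (χ : Γ →* ℂˣ)

local notation "Δ" => ModularForm.discriminant



/-- the numerator `z ↦ hChiG χ (δ • z) · Δ z` at the cusp `δ∞`. -/
def hChiNumG (δ : SL(2, ℤ)) (z : ℍ) : ℂ := hChiG χ (δ • z) * Δ z

lemma hChiNum_mdiffG (hχ : ∀ γ : Γ, ‖((χ γ : ℂˣ) : ℂ)‖ = 1)
    (hpar : ∀ γ : Γ, IsPar γ → χ γ = 1) (δ : SL(2, ℤ)) : MDiff (hChiNumG χ δ) :=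
  (hChi_cuspG χ hχ hpar δ).1

lemma hChiNum_boundedG (hχ : ∀ γ : Γ, ‖((χ γ : ℂˣ) : ℂ)‖ = 1)
    (hpar : ∀ γ : Γ, IsPar γ → χ γ = 1) (δ : SL(2, ℤ)) :
    IsBoundedAtImInfty (hChiNumG χ δ) :=
  (hChi_cuspG χ hχ hpar δ).2.1

lemma hChiNum_isPerG (hχ : ∀ γ : Γ, ‖((χ γ : ℂˣ) : ℂ)‖ = 1)
    (hpar : ∀ γ : Γ, IsPar γ → χ γ = 1) (δ : SL(2, ℤ)) {h : ℕ}
    (hh : δ * ModularGroup.T ^ (h : ℤ) * δ⁻¹ ∈ Γ) : IsPer h (hChiNumG χ δ) := by
  intro z
  have := (hChi_cuspG χ hχ hpar δ).2.2 (h : ℤ) hh z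
  simpa [hChiNumG] using this

lemma hChiNum_ne_zeroG (hχ : ∀ γ : Γ, ‖((χ γ : ℂˣ) : ℂ)‖ = 1)
    (hpar : ∀ γ : Γ, IsPar γ → χ γ = 1) (δ : SL(2, ℤ)) : hChiNumG χ δ ≠ 0 := by
  intro h
  obtain ⟨z, hz⟩ := hChi_ne_zeroG χ hχ hpar
  have h1 := congrFun h (δ⁻¹ • z)
  simp only [hChiNumG, Pi.zero_apply, smul_inv_smul] at h1
  rcases mul_eq_zero.1 h1 with h2 | h2
  · exact hz h2
  · exact discriminant_ne_zero _ h2

/-- `hChiG χ ∘ δ` is `h`-periodic when `δ T^h δ⁻¹ ∈ Γ`. -/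
theorem hChi_comp_isPerG (hχ : ∀ γ : Γ, ‖((χ γ : ℂˣ) : ℂ)‖ = 1)
    (hpar : ∀ γ : Γ, IsPar γ → χ γ = 1) (δ : SL(2, ℤ)) {h : ℕ}
    (hh : δ * ModularGroup.T ^ (h : ℤ) * δ⁻¹ ∈ Γ) :
    IsPer h (fun z => hChiG χ (δ • z)) := by
  intro z
  have h1 := hChiNum_isPerG χ hχ hpar δ hh z
  have h2 := eis_isPer_discriminant h z
  simp only [hChiNumG] at h1
  simp only at h2
  rw [h2] at h1
  exact mul_right_cancel₀ (discriminant_ne_zero z) h1


/-- pointwise: `cuspFn h (hChiG χ ∘ δ) = cuspFn h (hChiNumG χ δ) / cuspFn h Δ`. -/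
lemma cuspFn_hChi_compG (δ : SL(2, ℤ)) (h : ℕ) (q : ℂ) :
    cuspFn h (fun z => hChiG χ (δ • z)) q
      = cuspFn h (hChiNumG χ δ) q / cuspFn h (fun z => Δ z) q := by
  simp only [cuspFn_apply, hChiNumG]
  rw [mul_div_assoc, div_self (discriminant_ne_zero _), mul_one]

/-- **Meromorphy at the cusp `δ∞`** (in `q_h`). -/
theorem hChi_comp_meromorphicAtG (hχ : ∀ γ : Γ, ‖((χ γ : ℂˣ) : ℂ)‖ = 1)
    (hpar : ∀ γ : Γ, IsPar γ → χ γ = 1) (δ : SL(2, ℤ)) {h : ℕ} (hpos : 0 < h)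
    (hh : δ * ModularGroup.T ^ (h : ℤ) * δ⁻¹ ∈ Γ) :
    MeromorphicAt (cuspFn h (fun z => hChiG χ (δ • z))) 0 := by
  have h1 : MeromorphicAt (cuspFn h (hChiNumG χ δ)) 0 :=
    eis_meromorphicAt_cuspFn hpos (hChiNum_mdiffG χ hχ hpar δ) (hChiNum_isPerG χ hχ hpar δ hh)
      (hChiNum_boundedG χ hχ hpar δ)
  have h2 : MeromorphicAt (cuspFn h (fun z => Δ z)) 0 :=
    eis_meromorphicAt_cuspFn hpos eis_discriminant_mdiff (eis_isPer_discriminant h)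
      eis_isBoundedAtImInfty_discriminant
  have h3 : cuspFn h (fun z => hChiG χ (δ • z))
      = cuspFn h (hChiNumG χ δ) / cuspFn h (fun z => Δ z) := by
    funext q
    exact cuspFn_hChi_compG χ δ h q
  rw [h3]
  exact h1.div h2

/-- the order at the cusp is finite. -/
theorem hChi_comp_order_ne_topG (hχ : ∀ γ : Γ, ‖((χ γ : ℂˣ) : ℂ)‖ = 1)
    (hpar : ∀ γ : Γ, IsPar γ → χ γ = 1) (δ : SL(2, ℤ)) {h : ℕ} (hpos : 0 < h)
    (hh : δ * ModularGroup.T ^ (h : ℤ) * δ⁻¹ ∈ Γ) :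
    meromorphicOrderAt (cuspFn h (fun z => hChiG χ (δ • z))) 0 ≠ ⊤ := by
  have h1 : MeromorphicAt (cuspFn h (hChiNumG χ δ)) 0 :=
    eis_meromorphicAt_cuspFn hpos (hChiNum_mdiffG χ hχ hpar δ) (hChiNum_isPerG χ hχ hpar δ hh)
      (hChiNum_boundedG χ hχ hpar δ)
  have h2 : MeromorphicAt (cuspFn h (fun z => Δ z)) 0 :=
    eis_meromorphicAt_cuspFn hpos eis_discriminant_mdiff (eis_isPer_discriminant h)
      eis_isBoundedAtImInfty_discriminant
  have h3 : cuspFn h (fun z => hChiG χ (δ • z))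
      = cuspFn h (hChiNumG χ δ) / cuspFn h (fun z => Δ z) := by
    funext q
    exact cuspFn_hChi_compG χ δ h q
  have e1 := eis_meromorphicOrderAt_cuspFn_ne_top hpos (hChiNum_mdiffG χ hχ hpar δ)
    (hChiNum_isPerG χ hχ hpar δ hh) (hChiNum_ne_zeroG χ hχ hpar δ)
  have e2 := eis_meromorphicOrderAt_cuspFn_ne_top hpos eis_discriminant_mdiff
    (eis_isPer_discriminant h) eis_discriminant_ne_zero_fun
  rw [h3, meromorphicOrderAt_div h1 h2]
  obtain ⟨a, ha⟩ := WithTop.ne_top_iff_exists.1 e1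
  obtain ⟨b, hb⟩ := WithTop.ne_top_iff_exists.1 e2
  rw [← ha, ← hb]
  exact WithTop.coe_ne_top (a := a - b)

/-- **`p`-divisibility at the cusp `δ∞`**, in the local parameter `q_h`:
`ord_{q_h} ((hChiG χ) ^ p ∘ δ) = p · ord_{q_h} (hChiG χ ∘ δ)`. -/
theorem hChi_pow_comp_orderG (hχ : ∀ γ : Γ, ‖((χ γ : ℂˣ) : ℂ)‖ = 1)
    (hpar : ∀ γ : Γ, IsPar γ → χ γ = 1) (δ : SL(2, ℤ)) {h : ℕ} (hpos : 0 < h)
    (hh : δ * ModularGroup.T ^ (h : ℤ) * δ⁻¹ ∈ Γ) (p : ℕ) :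
    meromorphicOrderAt (cuspFn h (fun z => hChiG χ (δ • z) ^ p)) 0
      = (p : WithTop ℤ) * meromorphicOrderAt (cuspFn h (fun z => hChiG χ (δ • z))) 0 := by
  have h3 : cuspFn h (fun z => hChiG χ (δ • z) ^ p)
      = (cuspFn h (fun z => hChiG χ (δ • z))) ^ p := by
    funext q
    rfl
  rw [h3, meromorphicOrderAt_pow (hChi_comp_meromorphicAtG χ hχ hpar δ hpos hh)]

/-- existence form: the order of `u_χ ∘ δ` in `q_h` is `p * n` for an integer `n`. -/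
theorem hChi_pow_comp_order_eqG (hχ : ∀ γ : Γ, ‖((χ γ : ℂˣ) : ℂ)‖ = 1)
    (hpar : ∀ γ : Γ, IsPar γ → χ γ = 1) (δ : SL(2, ℤ)) {h : ℕ} (hpos : 0 < h)
    (hh : δ * ModularGroup.T ^ (h : ℤ) * δ⁻¹ ∈ Γ) (p : ℕ) :
    ∃ n : ℤ, meromorphicOrderAt (cuspFn h (fun z => hChiG χ (δ • z) ^ p)) 0
      = (((p : ℤ) * n : ℤ) : WithTop ℤ) := by
  obtain ⟨n, hn⟩ := WithTop.ne_top_iff_exists.1 (hChi_comp_order_ne_topG χ hχ hpar δ hpos hh)
  refine ⟨n, ?_⟩
  rw [hChi_pow_comp_orderG χ hχ hpar δ hpos hh, ← hn]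
  push_cast
  rfl

end Fermat.Agent.ES1

end
end ZBES1_001_27

/-! ### bundled: `Fermat.Agent.ES1.G1.HeckeRootH` -/
section ZBES1_001_28

/-!
# ES₁ / G1-HKb-MULT — the Hecke product of a root datum has multiplier `heckeGrp χ` (helper82)

`Γ = gammaH L M H`, `Γ' = subLevel L M H ℓ` (`= gammaH (L ℓ) M H` inside `Γ`),
`rep : Γ ⧸ Γ' → Γ` ANY section of the quotient map (`hrep : ∀ q, ↑(rep q) = q`).

* `es1g1hPt rep q τ = ℓ · (rep q)⁻¹ τ`;
* `es1g1hProd rep f τ = ∏_{q : Γ ⧸ Γ'} f (ℓ · (rep q)⁻¹ τ)` (`= N_{Γ' → Γ} (f (ℓ τ))`);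
* `es1g1hKap rep hrep γ q = (rep q)⁻¹ γ rep (γ⁻¹ q) ∈ Γ'`, `es1g1h_transfer_eq`:
  `transfer ϕ γ = ∏_q ϕ (κ(γ, q))` (Mathlib's transfer, for any section);
* `es1g1hPt_smul` : `ℓ · (rep q)⁻¹ (γ τ) = conj_α (κ(γ, q)) · (ℓ · (rep (γ⁻¹ q))⁻¹ τ)`;
* `es1g1h_isMultiplier` : if `a / g` has multiplier `χ` on `Γ` then `hProd a / hProd g` has
  multiplier `γ ↦ ∏_q χ (conj_α κ(γ, q))`;
* `es1g1hRoot` : the root datum `(hProd a) / (hProd g)`; **`es1g1hRoot_multAdd`** : its multiplier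
  character is `heckeGrp L M H ℓ hML R.multAdd`;
* `es1g1hProd_smul_of_invariant`, `es1g1hProd_congr_rep` : for a `Γ`-invariant `f`, `hProd f` is
  `Γ`-invariant and does not depend on the section;
* `es1g1hProd_rel` : a relation `A ^ n · g = a · G ^ n` is preserved by `hProd`.
-/

set_option autoImplicit false
set_option linter.unusedSectionVars false

noncomputable section

namespace Fermat.Agent.ES1

open UpperHalfPlane CongruenceSubgroup Matrix Matrix.SpecialLinearGroup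
open Fermat.Agent.S23 Fermat.Agent.S28 Fermat.Agent.ES
open scoped MatrixGroups Manifold

attribute [local instance] Subgroup.fintypeQuotientOfFiniteIndex

/-! ## The companion matrix -/

theorem es1g1h_companion_eq (ℓ : ℕ) [NeZero ℓ] (γ : SL(2, ℤ)) (h : (ℓ : ℤ) ∣ γ 1 0) :
    P7_thetaCompanion ℓ γ h = conjAlphaSL ℓ γ h := rfl

/-- `ℓ · (γ z) = conj_α(γ) · (ℓ z)` for `γ ∈ Γ₀(ℓ)` -/
theorem es1g1h_scaleN_smul (ℓ : ℕ) [NeZero ℓ] (γ : SL(2, ℤ)) (h : (ℓ : ℤ) ∣ γ 1 0) (z : ℍ) :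
    scaleN ℓ (γ • z) = conjAlphaSL ℓ γ h • scaleN ℓ z :=
  P7_thetaCompanion_smul ℓ γ h z

section Main

variable (L M : ℕ) [NeZero L] [NeZero M] (H : Subgroup (ZMod M)ˣ) (ℓ : ℕ) [NeZero ℓ]

/-! ## The points `ℓ · (rep q)⁻¹ τ` and the Hecke product -/

/-- the point `ℓ · (rep q)⁻¹ τ` -/
def es1g1hPt (rep : gammaH L M H ⧸ subLevel L M H ℓ → gammaH L M H)
    (q : gammaH L M H ⧸ subLevel L M H ℓ) (τ : ℍ) : ℍ :=
  scaleN ℓ ((((rep q : gammaH L M H) : SL(2, ℤ)))⁻¹ • τ)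

/-- **the Hecke product** `∏_{q : Γ ⧸ Γ'} f (ℓ · (rep q)⁻¹ τ)` -/
def es1g1hProd (rep : gammaH L M H ⧸ subLevel L M H ℓ → gammaH L M H) (f : ℍ → ℂ) : ℍ → ℂ :=
  fun τ => ∏ q : gammaH L M H ⧸ subLevel L M H ℓ, f (es1g1hPt L M H ℓ rep q τ)

variable {L M H ℓ}

theorem es1g1hProd_apply (rep : gammaH L M H ⧸ subLevel L M H ℓ → gammaH L M H) (f : ℍ → ℂ)
    (τ : ℍ) :
    es1g1hProd L M H ℓ rep f τ
      = ∏ q : gammaH L M H ⧸ subLevel L M H ℓ, f (es1g1hPt L M H ℓ rep q τ) := rfl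

/-- the same product, for any `Fintype` instance on the quotient -/
theorem es1g1hProd_apply' [inst : Fintype (gammaH L M H ⧸ subLevel L M H ℓ)]
    (rep : gammaH L M H ⧸ subLevel L M H ℓ → gammaH L M H) (f : ℍ → ℂ) (τ : ℍ) :
    es1g1hProd L M H ℓ rep f τ
      = @Finset.prod _ _ _ (@Finset.univ _ inst) fun q => f (es1g1hPt L M H ℓ rep q τ) := by
  rw [es1g1hProd_apply]
  have : inst = (subLevel L M H ℓ).fintypeQuotientOfFiniteIndex := Subsingleton.elim _ _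
  subst this
  rfl

theorem es1g1hProd_mul (rep : gammaH L M H ⧸ subLevel L M H ℓ → gammaH L M H) (f g : ℍ → ℂ) :
    es1g1hProd L M H ℓ rep (fun τ => f τ * g τ)
      = fun τ => es1g1hProd L M H ℓ rep f τ * es1g1hProd L M H ℓ rep g τ := by
  funext τ
  simp only [es1g1hProd_apply, Finset.prod_mul_distrib]

theorem es1g1hProd_pow (rep : gammaH L M H ⧸ subLevel L M H ℓ → gammaH L M H) (f : ℍ → ℂ)
    (k : ℕ) :
    es1g1hProd L M H ℓ rep (fun τ => f τ ^ k) = fun τ => es1g1hProd L M H ℓ rep f τ ^ k := by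
  funext τ
  simp only [es1g1hProd_apply, Finset.prod_pow]

theorem es1g1hProd_one (rep : gammaH L M H ⧸ subLevel L M H ℓ → gammaH L M H) :
    es1g1hProd L M H ℓ rep (fun _ => (1 : ℂ)) = fun _ => 1 := by
  funext τ
  simp only [es1g1hProd_apply, Finset.prod_const_one]

/-- a relation `A ^ n · g = a · G ^ n` is preserved by the Hecke product -/
theorem es1g1hProd_rel (rep : gammaH L M H ⧸ subLevel L M H ℓ → gammaH L M H) {n : ℕ}
    {A G a g : ℍ → ℂ} (h : ∀ τ, A τ ^ n * g τ = a τ * G τ ^ n) (τ : ℍ) :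
    es1g1hProd L M H ℓ rep A τ ^ n * es1g1hProd L M H ℓ rep g τ
      = es1g1hProd L M H ℓ rep a τ * es1g1hProd L M H ℓ rep G τ ^ n := by
  simp only [es1g1hProd_apply, ← Finset.prod_pow, ← Finset.prod_mul_distrib]
  exact Finset.prod_congr rfl fun q _ => h _

theorem es1g1h_mdiff_pt (rep : gammaH L M H ⧸ subLevel L M H ℓ → gammaH L M H)
    (q : gammaH L M H ⧸ subLevel L M H ℓ) {f : ℍ → ℂ} (hf : MDiff f) :
    MDiff (fun τ => f (es1g1hPt L M H ℓ rep q τ)) :=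
  mdiff_comp_SL (mdiff_comp_scaleN ℓ hf) _

theorem es1g1h_pt_ne_zero (rep : gammaH L M H ⧸ subLevel L M H ℓ → gammaH L M H)
    (q : gammaH L M H ⧸ subLevel L M H ℓ) {f : ℍ → ℂ} (hf0 : f ≠ 0) :
    (fun τ => f (es1g1hPt L M H ℓ rep q τ)) ≠ 0 := by
  intro h
  have h1 : (fun z => f (scaleN ℓ z)) = 0 :=
    (comp_SL_eq_zero_iff (w := fun z => f (scaleN ℓ z))
      (((rep q : gammaH L M H) : SL(2, ℤ)))⁻¹).mp h
  -- `f ∘ scaleN ℓ = 0` forces `f = 0` on the image, hence everywhere by the identity theorem: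
  -- we avoid it: `f (ℓ z) = 0` for all `z` gives `f w = 0` for `w = ℓ (w / ℓ)`.
  apply hf0
  funext w
  have hℓ : (0 : ℝ) < (ℓ : ℝ) := Nat.cast_pos.mpr (Nat.pos_of_ne_zero (NeZero.ne ℓ))
  have hℓ' : (ℓ : ℂ) ≠ 0 := by exact_mod_cast NeZero.ne ℓ
  have him : 0 < ((w : ℂ) / (ℓ : ℂ)).im := by
    have : ((w : ℂ) / (ℓ : ℂ)).im = w.im / (ℓ : ℝ) := by
      rw [show ((ℓ : ℂ)) = ((ℓ : ℝ) : ℂ) by push_cast; rfl, Complex.div_ofReal_im]
      rfl
    rw [this]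
    exact div_pos w.im_pos hℓ
  have h2 := congrFun h1 ⟨(w : ℂ) / (ℓ : ℂ), him⟩
  have h3 : scaleN ℓ ⟨(w : ℂ) / (ℓ : ℂ), him⟩ = w := by
    apply UpperHalfPlane.ext
    rw [coe_scaleN]
    show (ℓ : ℂ) * ((w : ℂ) / (ℓ : ℂ)) = w
    field_simp
  simp only [h3] at h2
  exact h2

theorem es1g1h_mdiff_prod (rep : gammaH L M H ⧸ subLevel L M H ℓ → gammaH L M H) {f : ℍ → ℂ}
    (hf : MDiff f) : MDiff (es1g1hProd L M H ℓ rep f) := by
  have h : ∀ s : Finset (gammaH L M H ⧸ subLevel L M H ℓ),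
      MDiff (fun τ : ℍ => ∏ q ∈ s, f (es1g1hPt L M H ℓ rep q τ)) := by
    intro s
    classical
    induction s using Finset.induction_on with
    | empty => simpa using (mdifferentiable_const : MDiff (fun _ : ℍ => (1 : ℂ)))
    | insert q s hq ih =>
      simp only [Finset.prod_insert hq]
      exact (es1g1h_mdiff_pt rep q hf).mul ih
  exact h Finset.univ

theorem es1g1h_prod_ne_zero (rep : gammaH L M H ⧸ subLevel L M H ℓ → gammaH L M H) {f : ℍ → ℂ}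
    (hf : MDiff f) (hf0 : f ≠ 0) : es1g1hProd L M H ℓ rep f ≠ 0 := by
  have h : ∀ s : Finset (gammaH L M H ⧸ subLevel L M H ℓ),
      (fun τ : ℍ => ∏ q ∈ s, f (es1g1hPt L M H ℓ rep q τ)) ≠ 0 ∧
        MDiff (fun τ : ℍ => ∏ q ∈ s, f (es1g1hPt L M H ℓ rep q τ)) := by
    intro s
    classical
    induction s using Finset.induction_on with
    | empty =>
      refine ⟨?_, by simpa using (mdifferentiable_const : MDiff (fun _ : ℍ => (1 : ℂ)))⟩
      intro h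
      have := congrFun h UpperHalfPlane.I
      simp at this
    | insert q s hq ih =>
      simp only [Finset.prod_insert hq]
      exact ⟨mdiff_mul_ne_zero (es1g1h_mdiff_pt rep q hf) ih.2 (es1g1h_pt_ne_zero rep q hf0)
        ih.1, (es1g1h_mdiff_pt rep q hf).mul ih.2⟩
  exact (h Finset.univ).1

/-! ## The cocycle `κ(γ, q) = (rep q)⁻¹ γ rep (γ⁻¹ q)` and the transfer -/

theorem es1g1h_kap_mem {rep : gammaH L M H ⧸ subLevel L M H ℓ → gammaH L M H}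
    (hrep : ∀ q, ((rep q : gammaH L M H) : gammaH L M H ⧸ subLevel L M H ℓ) = q)
    (γ : gammaH L M H) (q : gammaH L M H ⧸ subLevel L M H ℓ) :
    (rep q)⁻¹ * (γ * rep (γ⁻¹ • q)) ∈ subLevel L M H ℓ := by
  rw [← QuotientGroup.eq]
  rw [hrep q]
  have : ((γ * rep (γ⁻¹ • q) : gammaH L M H) : gammaH L M H ⧸ subLevel L M H ℓ)
      = γ • ((rep (γ⁻¹ • q) : gammaH L M H) : gammaH L M H ⧸ subLevel L M H ℓ) := rfl
  rw [this, hrep, smul_inv_smul]

/-- `κ(γ, q) = (rep q)⁻¹ γ rep (γ⁻¹ q) ∈ Γ'` -/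
def es1g1hKap (rep : gammaH L M H ⧸ subLevel L M H ℓ → gammaH L M H)
    (hrep : ∀ q, ((rep q : gammaH L M H) : gammaH L M H ⧸ subLevel L M H ℓ) = q)
    (γ : gammaH L M H) (q : gammaH L M H ⧸ subLevel L M H ℓ) : subLevel L M H ℓ :=
  ⟨(rep q)⁻¹ * (γ * rep (γ⁻¹ • q)), es1g1h_kap_mem hrep γ q⟩

theorem es1g1hKap_coe (rep : gammaH L M H ⧸ subLevel L M H ℓ → gammaH L M H)
    (hrep : ∀ q, ((rep q : gammaH L M H) : gammaH L M H ⧸ subLevel L M H ℓ) = q)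
    (γ : gammaH L M H) (q : gammaH L M H ⧸ subLevel L M H ℓ) :
    ((es1g1hKap rep hrep γ q : subLevel L M H ℓ) : gammaH L M H)
      = (rep q)⁻¹ * (γ * rep (γ⁻¹ • q)) := rfl

/-- **Mathlib's transfer, computed with any section.** -/
theorem es1g1h_transfer_eq {A : Type*} [CommGroup A] (ϕ : subLevel L M H ℓ →* A)
    (rep : gammaH L M H ⧸ subLevel L M H ℓ → gammaH L M H)
    (hrep : ∀ q, ((rep q : gammaH L M H) : gammaH L M H ⧸ subLevel L M H ℓ) = q)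
    (γ : gammaH L M H) :
    MonoidHom.transfer ϕ γ
      = ∏ q : gammaH L M H ⧸ subLevel L M H ℓ, ϕ (es1g1hKap rep hrep γ q) := by
  rw [MonoidHom.transfer_def ϕ ⟨Set.range rep, Subgroup.isComplement_range_left hrep⟩ γ]
  unfold Subgroup.leftTransversals.diff
  refine Finset.prod_congr rfl fun q _ => ?_
  congr 1
  apply Subtype.ext
  rw [es1g1hKap_coe]
  simp only
  rw [Subgroup.smul_apply_eq_smul_apply_inv_smul]
  rw [Subgroup.IsComplement.leftQuotientEquiv_apply hrep,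
    Subgroup.IsComplement.leftQuotientEquiv_apply hrep]
  rfl

/-! ## The points under `Γ` -/

theorem es1g1h_dvd_kap (rep : gammaH L M H ⧸ subLevel L M H ℓ → gammaH L M H)
    (hrep : ∀ q, ((rep q : gammaH L M H) : gammaH L M H ⧸ subLevel L M H ℓ) = q)
    (γ : gammaH L M H) (q : gammaH L M H ⧸ subLevel L M H ℓ) :
    (ℓ : ℤ) ∣ (((es1g1hKap rep hrep γ q : subLevel L M H ℓ) : gammaH L M H) : SL(2, ℤ)) 1 0 :=
  dvd_of_mem_gammaH_mul H ℓ (subLevelEquiv L M H ℓ (es1g1hKap rep hrep γ q)).2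

/-- `ℓ · (rep q)⁻¹ (γ τ) = conj_α (κ(γ, q)) · (ℓ · (rep (γ⁻¹ q))⁻¹ τ)` -/
theorem es1g1hPt_smul (hML : M ∣ L) (rep : gammaH L M H ⧸ subLevel L M H ℓ → gammaH L M H)
    (hrep : ∀ q, ((rep q : gammaH L M H) : gammaH L M H ⧸ subLevel L M H ℓ) = q)
    (γ : gammaH L M H) (q : gammaH L M H ⧸ subLevel L M H ℓ) (τ : ℍ) :
    es1g1hPt L M H ℓ rep q ((γ : SL(2, ℤ)) • τ)
      = ((conjAlphaH H ℓ (NeZero.ne ℓ) hML (subLevelEquiv L M H ℓ (es1g1hKap rep hrep γ q))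
            : gammaH L M H) : SL(2, ℤ)) • es1g1hPt L M H ℓ rep (γ⁻¹ • q) τ := by
  unfold es1g1hPt
  have e : (((rep q : gammaH L M H) : SL(2, ℤ)))⁻¹ • ((γ : SL(2, ℤ)) • τ)
      = ((((es1g1hKap rep hrep γ q : subLevel L M H ℓ) : gammaH L M H) : SL(2, ℤ)))
          • ((((rep (γ⁻¹ • q) : gammaH L M H) : SL(2, ℤ)))⁻¹ • τ) := by
    rw [es1g1hKap_coe]
    simp only [Subgroup.coe_mul, Subgroup.coe_inv]
    rw [← mul_smul, ← mul_smul, mul_assoc, mul_assoc, mul_inv_cancel, mul_one]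
  rw [e, es1g1h_scaleN_smul ℓ _ (es1g1h_dvd_kap rep hrep γ q)]
  rfl

/-! ## The multiplier of the Hecke product -/

/-- **Multiplier of the Hecke product.** -/
theorem es1g1h_isMultiplier (hML : M ∣ L)
    (rep : gammaH L M H ⧸ subLevel L M H ℓ → gammaH L M H)
    (hrep : ∀ q, ((rep q : gammaH L M H) : gammaH L M H ⧸ subLevel L M H ℓ) = q)
    {a g : ℍ → ℂ} (χ : gammaH L M H → ℂ)
    (hχ : ∀ γ : gammaH L M H, IsMultiplier (γ : SL(2, ℤ)) a g (χ γ)) (γ : gammaH L M H) :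
    IsMultiplier (γ : SL(2, ℤ)) (es1g1hProd L M H ℓ rep a) (es1g1hProd L M H ℓ rep g)
      (∏ q : gammaH L M H ⧸ subLevel L M H ℓ,
        χ (conjAlphaH H ℓ (NeZero.ne ℓ) hML
          (subLevelEquiv L M H ℓ (es1g1hKap rep hrep γ q)))) := by
  intro τ
  simp only [es1g1hProd_apply]
  have e1 : ∀ f : ℍ → ℂ, ∏ q : gammaH L M H ⧸ subLevel L M H ℓ, f (es1g1hPt L M H ℓ rep q τ)
      = ∏ q : gammaH L M H ⧸ subLevel L M H ℓ, f (es1g1hPt L M H ℓ rep (γ⁻¹ • q) τ) := by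
    intro f
    exact (Equiv.prod_comp (MulAction.toPerm γ⁻¹) (fun q => f (es1g1hPt L M H ℓ rep q τ))).symm
  have e2 : ∀ f : ℍ → ℂ,
      ∏ q : gammaH L M H ⧸ subLevel L M H ℓ, f (es1g1hPt L M H ℓ rep q ((γ : SL(2, ℤ)) • τ))
      = ∏ q : gammaH L M H ⧸ subLevel L M H ℓ,
          f (((conjAlphaH H ℓ (NeZero.ne ℓ) hML (subLevelEquiv L M H ℓ (es1g1hKap rep hrep γ q))
            : gammaH L M H) : SL(2, ℤ)) • es1g1hPt L M H ℓ rep (γ⁻¹ • q) τ) := by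
    intro f
    refine Finset.prod_congr rfl fun q _ => ?_
    rw [es1g1hPt_smul hML rep hrep γ q τ]
  rw [e2 a, e2 g, e1 g, e1 a, ← Finset.prod_mul_distrib, ← Finset.prod_mul_distrib,
    ← Finset.prod_mul_distrib]
  refine Finset.prod_congr rfl fun q _ => ?_
  exact hχ _ (es1g1hPt L M H ℓ rep (γ⁻¹ • q) τ)

/-- for a `Γ`-invariant `f` the Hecke product is `Γ`-invariant -/
theorem es1g1hProd_smul_of_invariant (hML : M ∣ L)
    (rep : gammaH L M H ⧸ subLevel L M H ℓ → gammaH L M H)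
    (hrep : ∀ q, ((rep q : gammaH L M H) : gammaH L M H ⧸ subLevel L M H ℓ) = q)
    {f : ℍ → ℂ} (hf : ∀ γ ∈ gammaH L M H, ∀ z, f (γ • z) = f z)
    {γ : SL(2, ℤ)} (hγ : γ ∈ gammaH L M H) (τ : ℍ) :
    es1g1hProd L M H ℓ rep f (γ • τ) = es1g1hProd L M H ℓ rep f τ := by
  simp only [es1g1hProd_apply]
  have e1 : ∏ q : gammaH L M H ⧸ subLevel L M H ℓ, f (es1g1hPt L M H ℓ rep q τ)
      = ∏ q : gammaH L M H ⧸ subLevel L M H ℓ,
          f (es1g1hPt L M H ℓ rep ((⟨γ, hγ⟩ : gammaH L M H)⁻¹ • q) τ) :=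
    (Equiv.prod_comp (MulAction.toPerm (⟨γ, hγ⟩ : gammaH L M H)⁻¹)
      (fun q => f (es1g1hPt L M H ℓ rep q τ))).symm
  rw [e1]
  refine Finset.prod_congr rfl fun q _ => ?_
  have := es1g1hPt_smul hML rep hrep ⟨γ, hγ⟩ q τ
  rw [show ((⟨γ, hγ⟩ : gammaH L M H) : SL(2, ℤ)) = γ from rfl] at this
  rw [this]
  exact hf _ (SetLike.coe_mem _) _

/-- for a `Γ`-invariant `f` the Hecke product does not depend on the section -/
theorem es1g1hProd_congr_rep (hML : M ∣ L)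
    (rep rep' : gammaH L M H ⧸ subLevel L M H ℓ → gammaH L M H)
    (hrep : ∀ q, ((rep q : gammaH L M H) : gammaH L M H ⧸ subLevel L M H ℓ) = q)
    (hrep' : ∀ q, ((rep' q : gammaH L M H) : gammaH L M H ⧸ subLevel L M H ℓ) = q)
    {f : ℍ → ℂ} (hf : ∀ γ ∈ gammaH L M H, ∀ z, f (γ • z) = f z) :
    es1g1hProd L M H ℓ rep f = es1g1hProd L M H ℓ rep' f := by
  funext τ
  simp only [es1g1hProd_apply]
  refine Finset.prod_congr rfl fun q _ => ?_
  -- `(rep q)⁻¹ = κ (rep' q)⁻¹` with `κ = (rep q)⁻¹ rep' q ∈ Γ'`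
  have hmem : (rep q)⁻¹ * rep' q ∈ subLevel L M H ℓ := by
    rw [← QuotientGroup.eq, hrep, hrep']
  have hdvd : (ℓ : ℤ) ∣ ((((rep q)⁻¹ * rep' q : gammaH L M H)) : SL(2, ℤ)) 1 0 :=
    dvd_of_mem_gammaH_mul H ℓ (subLevelEquiv L M H ℓ ⟨_, hmem⟩).2
  unfold es1g1hPt
  have e : (((rep q : gammaH L M H) : SL(2, ℤ)))⁻¹ • τ
      = ((((rep q)⁻¹ * rep' q : gammaH L M H)) : SL(2, ℤ))
          • ((((rep' q : gammaH L M H) : SL(2, ℤ)))⁻¹ • τ) := by
    simp only [Subgroup.coe_mul, Subgroup.coe_inv]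
    rw [← mul_smul, mul_assoc, mul_inv_cancel, mul_one]
  rw [e, es1g1h_scaleN_smul ℓ _ hdvd]
  exact hf _ (conjAlphaSL_mem_gammaH H ℓ (NeZero.ne ℓ) hML
    (subLevelEquiv L M H ℓ ⟨_, hmem⟩).2) _

/-! ## The Hecke transform of a root datum -/

variable {n : ℕ}

theorem es1g1h_prod_multVal_pow (hML : M ∣ L)
    (rep : gammaH L M H ⧸ subLevel L M H ℓ → gammaH L M H)
    (hrep : ∀ q, ((rep q : gammaH L M H) : gammaH L M H ⧸ subLevel L M H ℓ) = q)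
    (R : RootData (gammaH L M H) n) (γ : gammaH L M H) :
    (∏ q : gammaH L M H ⧸ subLevel L M H ℓ,
        R.multVal (conjAlphaH H ℓ (NeZero.ne ℓ) hML
          (subLevelEquiv L M H ℓ (es1g1hKap rep hrep γ q)))) ^ n = 1 := by
  rw [← Finset.prod_pow]
  exact Finset.prod_eq_one fun q _ => R.multVal_pow _

/-- **The Hecke transform** `(hProd a) / (hProd g)` of a root datum on `Γ = gammaH L M H`. -/
def es1g1hRoot (hML : M ∣ L) (rep : gammaH L M H ⧸ subLevel L M H ℓ → gammaH L M H)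
    (hrep : ∀ q, ((rep q : gammaH L M H) : gammaH L M H ⧸ subLevel L M H ℓ) = q)
    (R : RootData (gammaH L M H) n) : RootData (gammaH L M H) n where
  a := es1g1hProd L M H ℓ rep R.a
  g := es1g1hProd L M H ℓ rep R.g
  p_ne_zero := R.p_ne_zero
  mdiff_a := es1g1h_mdiff_prod rep R.mdiff_a
  mdiff_g := es1g1h_mdiff_prod rep R.mdiff_g
  a_ne_zero := es1g1h_prod_ne_zero rep R.mdiff_a R.a_ne_zero
  g_ne_zero := es1g1h_prod_ne_zero rep R.mdiff_g R.g_ne_zero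
  pow_inv γ hγ τ := by
    have h := es1g1h_isMultiplier hML rep hrep (fun δ : gammaH L M H => R.multVal δ)
      (fun δ => R.multVal_spec δ) ⟨γ, hγ⟩ τ
    have h1 := es1g1h_prod_multVal_pow hML rep hrep R ⟨γ, hγ⟩
    have h2 : es1g1hProd L M H ℓ rep R.a (γ • τ) * es1g1hProd L M H ℓ rep R.g τ
        = (∏ q : gammaH L M H ⧸ subLevel L M H ℓ,
            R.multVal (conjAlphaH H ℓ (NeZero.ne ℓ) hML
              (subLevelEquiv L M H ℓ (es1g1hKap rep hrep ⟨γ, hγ⟩ q))))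
          * (es1g1hProd L M H ℓ rep R.a τ * es1g1hProd L M H ℓ rep R.g (γ • τ)) := h
    rw [h2, mul_pow, h1, one_mul]

@[simp] theorem es1g1hRoot_a (hML : M ∣ L)
    (rep : gammaH L M H ⧸ subLevel L M H ℓ → gammaH L M H)
    (hrep : ∀ q, ((rep q : gammaH L M H) : gammaH L M H ⧸ subLevel L M H ℓ) = q)
    (R : RootData (gammaH L M H) n) :
    (es1g1hRoot hML rep hrep R).a = es1g1hProd L M H ℓ rep R.a := rfl

@[simp] theorem es1g1hRoot_g (hML : M ∣ L)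
    (rep : gammaH L M H ⧸ subLevel L M H ℓ → gammaH L M H)
    (hrep : ∀ q, ((rep q : gammaH L M H) : gammaH L M H ⧸ subLevel L M H ℓ) = q)
    (R : RootData (gammaH L M H) n) :
    (es1g1hRoot hML rep hrep R).g = es1g1hProd L M H ℓ rep R.g := rfl

/-- the multiplier of the Hecke transform -/
theorem es1g1hRoot_mult (hML : M ∣ L) (rep : gammaH L M H ⧸ subLevel L M H ℓ → gammaH L M H)
    (hrep : ∀ q, ((rep q : gammaH L M H) : gammaH L M H ⧸ subLevel L M H ℓ) = q)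
    (R : RootData (gammaH L M H) n) (γ : gammaH L M H) :
    (es1g1hRoot hML rep hrep R).mult γ
      = ∏ q : gammaH L M H ⧸ subLevel L M H ℓ,
          R.mult (conjAlphaH H ℓ (NeZero.ne ℓ) hML
            (subLevelEquiv L M H ℓ (es1g1hKap rep hrep γ q))) := by
  rw [RootData.mult_eq_iff]
  have h := es1g1h_isMultiplier hML rep hrep (fun δ : gammaH L M H => R.multVal δ)
    (fun δ => R.multVal_spec δ) γ
  have e : ((∏ q : gammaH L M H ⧸ subLevel L M H ℓ,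
          R.mult (conjAlphaH H ℓ (NeZero.ne ℓ) hML
            (subLevelEquiv L M H ℓ (es1g1hKap rep hrep γ q))) : ℂˣ) : ℂ)
      = ∏ q : gammaH L M H ⧸ subLevel L M H ℓ,
          R.multVal (conjAlphaH H ℓ (NeZero.ne ℓ) hML
            (subLevelEquiv L M H ℓ (es1g1hKap rep hrep γ q))) := by
    rw [Units.coe_prod]
    rfl
  rw [e]
  exact h

/-- **Hecke equivariance of the multiplier map**: the multiplier character of the Hecke transform
is `heckeGrp` (Mathlib's transfer of `χ ∘ conj_α`) applied to the multiplier character. -/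
theorem es1g1hRoot_multAdd (hML : M ∣ L)
    (rep : gammaH L M H ⧸ subLevel L M H ℓ → gammaH L M H)
    (hrep : ∀ q, ((rep q : gammaH L M H) : gammaH L M H ⧸ subLevel L M H ℓ) = q)
    (R : RootData (gammaH L M H) n) :
    (es1g1hRoot hML rep hrep R).multAdd = heckeGrp L M H ℓ hML R.multAdd := by
  refine DFunLike.ext _ _ fun γ => ?_
  obtain ⟨γ, rfl⟩ := Additive.ofMul.surjective γ
  rw [RootData.multAdd_apply, heckeGrp_apply, es1g1hRoot_mult,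
    es1g1h_transfer_eq (heckeRes L M H ℓ hML R.multAdd) rep hrep γ]
  rw [ofMul_prod, toAdd_prod]
  refine Finset.sum_congr rfl fun q _ => ?_
  rfl

end Main

end Fermat.Agent.ES1

end
end ZBES1_001_28
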