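/- GENERATED FILE (helper35, build-time optimisation, NOTES/ZB.md): verbatim concatenation of the modules
   Fermat.Agent.ES1.RootModFunG
   Fermat.Agent.ES1.RCTower
   Fermat.Agent.ES1.RCGammaA
   Fermat.Agent.ES1.RealDefs
   Fermat.Agent.ES1.RealModel
   Fermat.Agent.ES1.RealPt
   Fermat.Agent.ES1.RealCusp
   Fermat.Agent.ES1.RealFixed
   Fermat.Agent.ES1.RealRam
   Fermat.Agent.ES1.RealEmb
   Fermat.Agent.ES1.RealGlue
   Fermat.Agent.ES1.G2.SwapHAn
   Fermat.Agent.RT.K6.BPsi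
   Fermat.Agent.RT.K6.BMat
   Fermat.Agent.ES1.G2.SwapHBridge
   Fermat.Agent.ES1.G2.SwapH
   Fermat.Agent.RT.K6.BFam
   Fermat.Agent.ES1.RootOfKummerG
   Fermat.Agent.ES1.RCPlan
   Fermat.Agent.ES1.RCPt
   Fermat.Agent.ES1.RCPtExact
   Fermat.Agent.ES1.G1Plan
   Fermat.Agent.ES1.EisCharModFunG
   Do not edit; do not import together with these modules. -/
import Fermat.Agent.ZB.S24_003
import Fermat.Agent.ZB.S20_001
import Fermat.Agent.ZB.ES1_002
import Fermat.Agent.ZB.ES1_001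
import Fermat.Agent.ZB.S28_002
import Fermat.Agent.ZB.S24_001
import Fermat.Agent.ZB.S24_006
import Fermat.Agent.ZB.S24_017
import Fermat.Agent.ZB.S24_013
import Fermat.Agent.ZB.S28_001
import Fermat.Agent.ZB.ES1_007
import Fermat.Agent.ZB.ES_012
import Fermat.Agent.ZB.ES_011
import Fermat.Agent.ZB.S24_005
import Fermat.Agent.ZB.ES_018
import Fermat.Agent.ZB.ES_007
import Fermat.Agent.ZB.ES_009

/-! ### bundled: `Fermat.Agent.ES1.RootModFunG` -/
section ZBES1_003_0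

/-!
# ES₁ / G1, piece A2 (kernel), for an ARBITRARY arithmetic subgroup `Γ ≤ SL(2, ℤ)`

Generic version of `Fermat/Agent/ES/RootModFun.lean` (which is written for `Γ₀(M)`).

* `IsModFunG Γ f` : `f : ℍ → ℂ` is a holomorphic modular function for `Γ`, meromorphic at the
  cusps: `f · Δ ^ m` is a modular form of weight `12 m` for `Γ`, for some `m`.
  (`IsModFunG (Gamma0 N) f ↔ S28.IsModFun N f` by `Iff.rfl`: `isModFunG_gamma0_iff`.)
* `isModFunG_of_pow` : `a` holomorphic on `ℍ`, `Γ`-invariant, `a ^ p` a modular function for `Γ`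
  ⟹ `a` is a modular function for `Γ`.
* `RootData.isModFunG_a_of_mult_eq_one`, `RootData.isModFunG_a_of_pow_eq` : the kernel of the
  multiplier map, for `Γ`.
* the algebra `modFunAlgG Γ` and the calculus `IsModFunG.add/.mul/.pow/.const/…`,
  `IsModFunG.mono` (smaller group), `IsModFunG.comp_smul` (invariance), `IsModFunG.mdiff`.
-/

set_option autoImplicit false

noncomputable section

open UpperHalfPlane ModularForm CongruenceSubgroup Filter Topology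
open scoped MatrixGroups Manifold

namespace Fermat.Agent.ES1

open Fermat.Agent.S23 Fermat.Agent.S28 Fermat.Agent.ES

local notation "Δ" => ModularForm.discriminant

/-- `Γ ≤ SL(2, ℤ)` as a subgroup of `GL(2, ℝ)` -/
abbrev gGL (Γ : Subgroup SL(2, ℤ)) : Subgroup (GL (Fin 2) ℝ) :=
  Subgroup.map (Matrix.SpecialLinearGroup.mapGL ℝ) Γ

/-- `f` is a holomorphic modular function for `Γ`, meromorphic at the cusps. -/
def IsModFunG (Γ : Subgroup SL(2, ℤ)) (f : ℍ → ℂ) : Prop :=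
  ∃ m : ℕ, IsMF (gGL Γ) (12 * (m : ℤ)) (fun z => f z * Δ z ^ m)

theorem isModFunG_gamma0_iff (N : ℕ) (f : ℍ → ℂ) : IsModFunG (Gamma0 N) f ↔ IsModFun N f :=
  Iff.rfl

variable {Γ : Subgroup SL(2, ℤ)}

theorem gGL_le_SL (Γ : Subgroup SL(2, ℤ)) : gGL Γ ≤ 𝒮ℒ := by
  rintro _ ⟨γ, -, rfl⟩
  exact ⟨γ, rfl⟩

theorem gGL_mono {Γ Γ' : Subgroup SL(2, ℤ)} (h : Γ ≤ Γ') : gGL Γ ≤ gGL Γ' :=
  Subgroup.map_mono h

/-- restriction of the level -/
theorem isMF_mono {Γ Γ' : Subgroup SL(2, ℤ)} (h : Γ ≤ Γ') {κ : ℤ} {f : ℍ → ℂ}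
    (hf : IsMF (gGL Γ') κ f) : IsMF (gGL Γ) κ f := by
  obtain ⟨F, rfl⟩ := hf
  exact ⟨{ toFun := F
           slash_action_eq' := fun A hA => F.slash_action_eq' A (gGL_mono h hA)
           holo' := F.holo'
           bdd_at_cusps' := fun hc => F.bdd_at_cusps' (hc.mono (gGL_mono h)) }, rfl⟩

/-- level one ⇒ level `Γ` -/
theorem isMF_of_levelOneG (Γ : Subgroup SL(2, ℤ)) {κ : ℤ} {f : ℍ → ℂ} (hf : IsMF 𝒮ℒ κ f) :
    IsMF (gGL Γ) κ f := by
  obtain ⟨F, rfl⟩ := hf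
  exact ⟨{ toFun := F
           slash_action_eq' := fun A hA => F.slash_action_eq' A (gGL_le_SL Γ hA)
           holo' := F.holo'
           bdd_at_cusps' := fun hc => F.bdd_at_cusps' (hc.mono (gGL_le_SL Γ)) }, rfl⟩

/-- `Δ` as a form of level `Γ`. -/
theorem isMF_discriminantG (Γ : Subgroup SL(2, ℤ)) : IsMF (gGL Γ) 12 (Δ : ℍ → ℂ) :=
  isMF_of_levelOneG Γ ⟨(CuspForm.discriminant : CuspForm 𝒮ℒ 12), by
    ext z; simp [CuspForm.coe_discriminant]⟩

theorem IsModFunG.mono {Γ Γ' : Subgroup SL(2, ℤ)} (h : Γ ≤ Γ') {f : ℍ → ℂ}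
    (hf : IsModFunG Γ' f) : IsModFunG Γ f := by
  obtain ⟨m, hm⟩ := hf
  exact ⟨m, isMF_mono h hm⟩

theorem IsModFunG.succ {f : ℍ → ℂ} {m : ℕ}
    (h : IsMF (gGL Γ) (12 * (m : ℤ)) (fun z => f z * Δ z ^ m)) :
    IsMF (gGL Γ) (12 * ((m + 1 : ℕ) : ℤ)) (fun z => f z * Δ z ^ (m + 1)) := by
  have h1 := (h.mul (isMF_discriminantG Γ)).of_weight_eq
    (show 12 * (m : ℤ) + 12 = 12 * ((m + 1 : ℕ) : ℤ) by push_cast; ring)
  convert h1 using 1
  ext z
  simp only [Pi.mul_apply, pow_succ]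
  ring

theorem IsModFunG.raise {f : ℍ → ℂ} {m : ℕ}
    (h : IsMF (gGL Γ) (12 * (m : ℤ)) (fun z => f z * Δ z ^ m)) (k : ℕ) :
    IsMF (gGL Γ) (12 * ((m + k : ℕ) : ℤ)) (fun z => f z * Δ z ^ (m + k)) := by
  induction k with
  | zero => simpa using h
  | succ k ih => exact IsModFunG.succ ih

theorem IsModFunG.raise_le {f : ℍ → ℂ} {m m' : ℕ}
    (h : IsMF (gGL Γ) (12 * (m : ℤ)) (fun z => f z * Δ z ^ m)) (hm : m ≤ m') :
    IsMF (gGL Γ) (12 * (m' : ℤ)) (fun z => f z * Δ z ^ m') := by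
  obtain ⟨k, rfl⟩ := Nat.exists_eq_add_of_le hm
  exact IsModFunG.raise h k

theorem isModFunG_const (Γ : Subgroup SL(2, ℤ)) (c : ℂ) : IsModFunG Γ (fun _ => c) := by
  refine ⟨0, ?_⟩
  have h : IsMF (gGL Γ) 0 (c • (1 : ℍ → ℂ)) := IsMF.const_smul c IsMF.one
  have h2 := h.of_weight_eq (show (0 : ℤ) = 12 * ((0 : ℕ) : ℤ) by simp)
  convert h2 using 1
  ext z
  simp

theorem IsModFunG.add {f g : ℍ → ℂ} (hf : IsModFunG Γ f) (hg : IsModFunG Γ g) :
    IsModFunG Γ (f + g) := by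
  obtain ⟨m, hm⟩ := hf
  obtain ⟨n, hn⟩ := hg
  refine ⟨max m n, ?_⟩
  have h1 := IsModFunG.raise_le hm (le_max_left m n)
  have h2 := IsModFunG.raise_le hn (le_max_right m n)
  convert h1.add h2 using 1
  ext z
  simp only [Pi.add_apply]
  ring

theorem IsModFunG.mul {f g : ℍ → ℂ} (hf : IsModFunG Γ f) (hg : IsModFunG Γ g) :
    IsModFunG Γ (f * g) := by
  obtain ⟨m, hm⟩ := hf
  obtain ⟨n, hn⟩ := hg
  refine ⟨m + n, ?_⟩
  have h := (hm.mul hn).of_weight_eq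
    (show 12 * (m : ℤ) + 12 * (n : ℤ) = 12 * ((m + n : ℕ) : ℤ) by push_cast; ring)
  convert h using 1
  ext z
  simp only [Pi.mul_apply, pow_add]
  ring

/-- The `ℂ`-algebra of holomorphic modular functions for `Γ`, meromorphic at the cusps. -/
def modFunAlgG (Γ : Subgroup SL(2, ℤ)) : Subalgebra ℂ (ℍ → ℂ) where
  carrier := {f | IsModFunG Γ f}
  mul_mem' := fun hf hg => IsModFunG.mul hf hg
  add_mem' := fun hf hg => IsModFunG.add hf hg
  algebraMap_mem' := fun c => isModFunG_const Γ c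

theorem mem_modFunAlgG {f : ℍ → ℂ} : f ∈ modFunAlgG Γ ↔ IsModFunG Γ f := Iff.rfl

theorem IsModFunG.neg {f : ℍ → ℂ} (hf : IsModFunG Γ f) : IsModFunG Γ (-f) :=
  (modFunAlgG Γ).neg_mem hf

theorem IsModFunG.sub {f g : ℍ → ℂ} (hf : IsModFunG Γ f) (hg : IsModFunG Γ g) :
    IsModFunG Γ (f - g) :=
  (modFunAlgG Γ).sub_mem hf hg

theorem IsModFunG.pow {f : ℍ → ℂ} (hf : IsModFunG Γ f) (n : ℕ) : IsModFunG Γ (f ^ n) :=
  (modFunAlgG Γ).pow_mem hf n

theorem IsModFunG.smul {f : ℍ → ℂ} (c : ℂ) (hf : IsModFunG Γ f) : IsModFunG Γ (c • f) :=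
  (modFunAlgG Γ).smul_mem hf c

theorem IsModFunG.sum {ι : Type*} (s : Finset ι) (F : ι → ℍ → ℂ)
    (hF : ∀ i ∈ s, IsModFunG Γ (F i)) : IsModFunG Γ (∑ i ∈ s, F i) :=
  (modFunAlgG Γ).sum_mem hF

theorem IsModFunG.prod {ι : Type*} (s : Finset ι) (F : ι → ℍ → ℂ)
    (hF : ∀ i ∈ s, IsModFunG Γ (F i)) : IsModFunG Γ (∏ i ∈ s, F i) :=
  (modFunAlgG Γ).prod_mem hF

/-- A quotient `G / Δ ^ m` of a modular form of weight `12 m` is a modular function. -/
theorem isModFunG_div {G : ℍ → ℂ} {m : ℕ} (hG : IsMF (gGL Γ) (12 * (m : ℤ)) G) :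
    IsModFunG Γ (fun z => G z / Δ z ^ m) := by
  refine ⟨m, ?_⟩
  convert hG using 1
  ext z
  rw [div_mul_cancel₀ _ (pow_ne_zero m (discriminant_ne_zero z))]

/-- a modular function is holomorphic on `ℍ` -/
theorem IsModFunG.mdiff {f : ℍ → ℂ} (hf : IsModFunG Γ f) : MDiff f := by
  obtain ⟨m, F, hF⟩ := hf
  have h1 : MDiff (fun z => f z * Δ z ^ m) := hF ▸ F.holo'
  have h2 : MDiff (fun z : ℍ => Δ z ^ m) := by
    have h : MDiff (CuspForm.discriminant : ℍ → ℂ) := CuspForm.discriminant.holo'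
    exact h.pow m
  rw [UpperHalfPlane.mdifferentiable_iff] at h1 h2 ⊢
  refine (h1.div h2 ?_).congr ?_
  · intro z hz
    simp only [Function.comp_apply]
    exact pow_ne_zero m (discriminant_ne_zero _)
  · intro z hz
    simp only [Function.comp_apply, Pi.div_apply]
    rw [mul_div_assoc, div_self (pow_ne_zero m (discriminant_ne_zero _)), mul_one]

/-- **A `p`-th root of a modular function is a modular function.**  If `a` is holomorphic on
`ℍ` and `Γ`-invariant and `a ^ p` is a modular function for `Γ` (meromorphic at the cusps),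
then so is `a`. -/
theorem isModFunG_of_pow [Γ.FiniteIndex] {p : ℕ} (hp : p ≠ 0) {a : ℍ → ℂ} (ha : MDiff a)
    (hinv : ∀ γ ∈ Γ, ∀ τ : ℍ, a (γ • τ) = a τ)
    (hpow : IsModFunG Γ (fun z => a z ^ p)) : IsModFunG Γ a := by
  obtain ⟨m, F, hF⟩ := hpow
  have hΔ : MDiff (fun z : ℍ => Δ z ^ m) := by
    have h : MDiff (CuspForm.discriminant : ℍ → ℂ) := CuspForm.discriminant.holo'
    exact h.pow m
  refine ⟨m, ⟨{ toFun := fun z => a z * Δ z ^ m
                slash_action_eq' := ?_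
                holo' := ha.mul hΔ
                bdd_at_cusps' := ?_ }, rfl⟩⟩
  · rintro _ ⟨γ, hγ, rfl⟩
    have h1 := slash_mul_discPow a m γ
    rw [SL_slash] at h1
    refine h1.trans ?_
    funext τ
    rw [hinv γ hγ τ]
  · intro c hc
    rw [Subgroup.IsArithmetic.isCusp_iff_isCusp_SL2Z] at hc
    rw [OnePoint.isBoundedAt_iff_forall_SL2Z hc]
    intro γ _
    rw [slash_mul_discPow]
    apply isBoundedAtImInfty_of_pow hp
    have h1 : IsBoundedAtImInfty ((F : ℍ → ℂ) ∣[(12 * (m : ℤ))] γ) :=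
      ModularFormClass.bdd_at_infty_slash F γ
    rw [hF, slash_mul_discPow] at h1
    have h2 := h1.mul (isBoundedAtImInfty_discPow ((p - 1) * m))
    refine h2.congr_left fun z => ?_
    obtain ⟨n, rfl⟩ : ∃ n, p = n + 1 := Nat.exists_eq_succ_of_ne_zero hp
    simp only [Pi.mul_apply, Nat.add_sub_cancel]
    ring

/-- A modular function for `Γ` is `Γ`-invariant. -/
theorem IsModFunG.comp_smul {f : ℍ → ℂ} (hf : IsModFunG Γ f) {γ : SL(2, ℤ)}
    (hγ : γ ∈ Γ) (τ : ℍ) : f (γ • τ) = f τ := by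
  obtain ⟨m, F, hF⟩ := hf
  have h1 : (F : ℍ → ℂ) ∣[(12 * (m : ℤ))] (Matrix.SpecialLinearGroup.mapGL ℝ γ) = F :=
    F.slash_action_eq' _ ⟨γ, hγ, rfl⟩
  have h2 := slash_mul_discPow f m γ
  rw [SL_slash, ← hF] at h2
  have h3 : (F : ℍ → ℂ) τ = f (γ • τ) * Δ τ ^ m := by
    have := congrFun (h1.symm.trans h2) τ
    exact this
  rw [hF] at h3
  exact (mul_right_cancel₀ (pow_ne_zero m (discriminant_ne_zero τ)) h3).symm

end Fermat.Agent.ES1

namespace Fermat.Agent.ES.RootData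

open Fermat.Agent.ES1

variable {Γ : Subgroup SL(2, ℤ)} {p : ℕ}

/-- **Kernel of the multiplier map**, for `Γ`. -/
theorem isModFunG_a_of_mult_eq_one [Γ.FiniteIndex] (D : RootData Γ p) (hmult : D.mult = 1)
    (hg : IsModFunG Γ D.g) (hpow : IsModFunG Γ (fun z => D.a z ^ p)) : IsModFunG Γ D.a := by
  refine isModFunG_of_pow D.p_ne_zero D.mdiff_a (fun γ hγ => ?_) hpow
  have h1 := (D.mult_eq_one_iff_invariant).mp hmult γ hγ
  have hgγ : MDiff (fun τ => D.g (γ • τ)) := mdiff_comp_SL D.mdiff_g γ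
  refine mdiff_mul_right_cancel (mdiff_comp_SL D.mdiff_a γ) D.mdiff_a D.mdiff_g D.g_ne_zero
    fun τ => ?_
  rw [h1 τ, hg.comp_smul hγ τ]

/-- The same, for the root datum of `u = f / g` with `a ^ p = f * g ^ (p - 1)`. -/
theorem isModFunG_a_of_pow_eq [Γ.FiniteIndex] (D : RootData Γ p) (hmult : D.mult = 1)
    {f : ℍ → ℂ} (hf : IsModFunG Γ f) (hg : IsModFunG Γ D.g)
    (hpow : ∀ τ, D.a τ ^ p = f τ * D.g τ ^ (p - 1)) : IsModFunG Γ D.a := by
  refine D.isModFunG_a_of_mult_eq_one hmult hg ?_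
  have h1 : IsModFunG Γ (f * D.g ^ (p - 1)) := hf.mul (hg.pow (p - 1))
  have e : (fun z => D.a z ^ p) = f * D.g ^ (p - 1) := by
    funext z
    simpa using hpow z
  rw [e]
  exact h1

end Fermat.Agent.ES.RootData

end
end ZBES1_003_0

/-! ### bundled: `Fermat.Agent.ES1.RCTower` -/
section ZBES1_003_1

/-!
# ES₁ / F3 (RC-Γ), generic part: the Lagrange relation in a tower `Γ ◁ Γ'`

`Γ ≤ Γ' ≤ SL(2, ℤ)` of finite index.

* `IsModFunG.isMerInf` : a modular function for `Γ ∋ T` is meromorphic at `i∞` (period `1`),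
  so `laurentOf` is defined on `modFunAlgG Γ`.
* `IsModFunG.comp_normalizer` : if `δ` normalises `Γ` (`δ γ δ⁻¹ ∈ Γ` for `γ ∈ Γ`), then
  `f ∘ δ` is a modular function for `Γ`.
* `IsModFunG.of_invariant` : a modular function for `Γ` that is invariant under `Γ' ≥ Γ` is a
  modular function for `Γ'`.
* `es1rc_tower` : **the tower step.**  Representatives `δ_i` (`i : ι`) permuted by `Γ'`, a
  modular function `θ` for `Γ` whose conjugates `θ ∘ δ_i` (`i ≠ i₀`) have Laurent expansion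
  different from that of `θ ∘ δ_{i₀} = θ`; `E ≤ E'` fields with `laurentOf g ∈ E` for the modular
  functions `g` of level `Γ'` and `laurentOf (θ ∘ δ_i) ∈ E'`.  Then `laurentOf f ∈ E'` for every
  modular function `f` of level `Γ`.
-/

set_option autoImplicit false

noncomputable section

open UpperHalfPlane ModularForm CongruenceSubgroup Filter Topology Polynomial
open scoped MatrixGroups Manifold

namespace Fermat.Agent.ES1

open Fermat.Agent.S23 Fermat.Agent.S28 Fermat.Agent.ES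

local notation "Δ" => ModularForm.discriminant

variable {Γ Γ' : Subgroup SL(2, ℤ)}

theorem one_mem_strictPeriods_gGL (hT : ModularGroup.T ∈ Γ) :
    (1 : ℝ) ∈ (gGL Γ).strictPeriods := by
  rw [Subgroup.strictPeriods_eq_zmultiples_one_of_T_mem hT]
  exact AddSubgroup.mem_zmultiples (1 : ℝ)

theorem isHPB_of_isMF_gGL (hT : ModularGroup.T ∈ Γ) {κ : ℤ} {f : ℍ → ℂ}
    (hf : IsMF (gGL Γ) κ f) : IsHPB f := by
  obtain ⟨F, rfl⟩ := hf
  have h1 := one_mem_strictPeriods_gGL hT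
  have : Fact (IsCusp OnePoint.infty (gGL Γ)) :=
    ⟨(gGL Γ).isCusp_of_mem_strictPeriods one_pos h1⟩
  exact ⟨ModularFormClass.holo F, SlashInvariantFormClass.periodic_comp_ofComplex F h1,
    ModularFormClass.bdd_at_infty F⟩

/-- a modular function for `Γ ∋ T` is meromorphic at `i∞` -/
theorem IsModFunG.isMerInf (hT : ModularGroup.T ∈ Γ) {f : ℍ → ℂ} (hf : IsModFunG Γ f) :
    IsMerInf f := by
  obtain ⟨m, hm⟩ := hf
  exact ⟨m, isHPB_of_isMF_gGL hT hm⟩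

theorem modFunAlgG_le_merInf (hT : ModularGroup.T ∈ Γ) : modFunAlgG Γ ≤ merInf :=
  fun _ hf => IsModFunG.isMerInf hT hf

/-- conjugation by an element normalising `Γ` -/
theorem IsModFunG.comp_normalizer [Γ.FiniteIndex] {f : ℍ → ℂ} (hf : IsModFunG Γ f)
    (δ : SL(2, ℤ)) (hδ : ∀ γ ∈ Γ, δ * γ * δ⁻¹ ∈ Γ) :
    IsModFunG Γ (fun z => f (δ • z)) := by
  obtain ⟨m, F, hF⟩ := hf
  have hΔ : MDiff (fun z : ℍ => Δ z ^ m) := by
    have h : MDiff (CuspForm.discriminant : ℍ → ℂ) := CuspForm.discriminant.holo'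
    exact h.pow m
  have hfm : MDiff f := IsModFunG.mdiff ⟨m, F, hF⟩
  refine ⟨m, ⟨{ toFun := fun z => f (δ • z) * Δ z ^ m
                slash_action_eq' := ?_
                holo' := (mdiff_comp_SL hfm δ).mul hΔ
                bdd_at_cusps' := ?_ }, rfl⟩⟩
  · rintro _ ⟨γ, hγ, rfl⟩
    have h1 := slash_mul_discPow (fun z => f (δ • z)) m γ
    rw [SL_slash] at h1
    refine h1.trans ?_
    funext τ
    have h2 : IsModFunG Γ f := ⟨m, F, hF⟩
    have h3 := h2.comp_smul (hδ γ hγ) (δ • τ)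
    have h4 : (δ * γ * δ⁻¹) • (δ • τ) = δ • (γ • τ) := by
      rw [← mul_smul, ← mul_smul]
      congr 1
      group
    rw [h4] at h3
    show f (δ • (γ • τ)) * Δ τ ^ m = f (δ • τ) * Δ τ ^ m
    rw [h3]
  · intro c hc
    rw [Subgroup.IsArithmetic.isCusp_iff_isCusp_SL2Z] at hc
    rw [OnePoint.isBoundedAt_iff_forall_SL2Z hc]
    intro γ _
    rw [slash_mul_discPow]
    have h1 : IsBoundedAtImInfty ((F : ℍ → ℂ) ∣[(12 * (m : ℤ))] (δ * γ)) :=
      ModularFormClass.bdd_at_infty_slash F (δ * γ)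
    rw [hF, slash_mul_discPow] at h1
    refine h1.congr_left fun z => ?_
    simp only [mul_smul]

/-- a `Γ'`-invariant modular function of level `Γ ≤ Γ'` is a modular function of level `Γ'` -/
theorem IsModFunG.of_invariant [Γ.FiniteIndex] [Γ'.FiniteIndex] {f : ℍ → ℂ}
    (hf : IsModFunG Γ f) (hinv : ∀ γ ∈ Γ', ∀ τ : ℍ, f (γ • τ) = f τ) : IsModFunG Γ' f := by
  obtain ⟨m, F, hF⟩ := hf
  have hΔ : MDiff (fun z : ℍ => Δ z ^ m) := by
    have h : MDiff (CuspForm.discriminant : ℍ → ℂ) := CuspForm.discriminant.holo'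
    exact h.pow m
  have hfm : MDiff f := IsModFunG.mdiff ⟨m, F, hF⟩
  refine ⟨m, ⟨{ toFun := fun z => f z * Δ z ^ m
                slash_action_eq' := ?_
                holo' := hfm.mul hΔ
                bdd_at_cusps' := ?_ }, rfl⟩⟩
  · rintro _ ⟨γ, hγ, rfl⟩
    have h1 := slash_mul_discPow f m γ
    rw [SL_slash] at h1
    refine h1.trans ?_
    funext τ
    rw [hinv γ hγ τ]
  · intro c hc
    rw [Subgroup.IsArithmetic.isCusp_iff_isCusp_SL2Z] at hc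
    rw [OnePoint.isBoundedAt_iff_forall_SL2Z hc]
    intro γ _
    have h1 : IsBoundedAtImInfty ((F : ℍ → ℂ) ∣[(12 * (m : ℤ))] γ) :=
      ModularFormClass.bdd_at_infty_slash F γ
    rw [hF] at h1
    exact h1

/-! ### The Lagrange polynomial -/

section Lagrange

variable {R : Type*} [CommRing R] {ι : Type*} [Fintype ι] [DecidableEq ι]

/-- `Q = ∑_i F_i ∏_{i' ≠ i} (X - Θ_{i'})` -/
def lagPoly (F Θ : ι → R) : R[X] :=
  ∑ i, C (F i) * ∏ i' ∈ Finset.univ.erase i, (X - C (Θ i'))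

theorem lagPoly_map {S : Type*} [CommRing S] (φ : R →+* S) (F Θ : ι → R) :
    (lagPoly F Θ).map φ = lagPoly (fun i => φ (F i)) (fun i => φ (Θ i)) := by
  simp only [lagPoly, Polynomial.map_sum, Polynomial.map_mul, Polynomial.map_prod,
    Polynomial.map_sub, Polynomial.map_X, Polynomial.map_C]

theorem lagPoly_eval (F Θ : ι → R) (i₀ : ι) :
    (lagPoly F Θ).eval (Θ i₀) = F i₀ * ∏ i' ∈ Finset.univ.erase i₀, (Θ i₀ - Θ i') := by
  simp only [lagPoly, Polynomial.eval_finsetSum, Polynomial.eval_mul, Polynomial.eval_C,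
    Polynomial.eval_prod, Polynomial.eval_sub, Polynomial.eval_X]
  rw [Finset.sum_eq_single i₀]
  · intro i _ hi
    rw [Finset.prod_eq_zero (i := i₀) (Finset.mem_erase.2 ⟨Ne.symm hi, Finset.mem_univ _⟩)
      (sub_self _), mul_zero]
  · intro h
    exact absurd (Finset.mem_univ _) h

theorem lagPoly_perm (F Θ : ι → R) (σ : Equiv.Perm ι) :
    lagPoly (fun i => F (σ i)) (fun i => Θ (σ i)) = lagPoly F Θ := by
  simp only [lagPoly]
  rw [← Equiv.sum_comp σ (fun i => C (F i) * ∏ i' ∈ Finset.univ.erase i, (X - C (Θ i')))]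
  refine Finset.sum_congr rfl fun i _ => ?_
  congr 1
  refine Finset.prod_equiv σ (fun k => ?_) (fun k _ => rfl)
  simp only [Finset.mem_erase, Finset.mem_univ, and_true, ne_eq, EmbeddingLike.apply_eq_iff_eq]

end Lagrange

/-- precomposition with the action of `γ`, as a ring homomorphism on functions -/
def compSmul (γ : SL(2, ℤ)) : (ℍ → ℂ) →+* (ℍ → ℂ) :=
  RingHom.pi fun z => Pi.evalRingHom (fun _ : ℍ => ℂ) (γ • z)

@[simp]
theorem compSmul_apply (γ : SL(2, ℤ)) (g : ℍ → ℂ) (z : ℍ) : compSmul γ g z = g (γ • z) := rfl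

/-- **The tower step.** -/
theorem es1rc_tower [Γ.FiniteIndex] [Γ'.FiniteIndex] (hT : ModularGroup.T ∈ Γ)
    {ι : Type*} [Fintype ι] [DecidableEq ι] (δ : ι → SL(2, ℤ)) (i₀ : ι) (hδ₀ : δ i₀ ∈ Γ)
    (hnorm : ∀ i, ∀ γ ∈ Γ, δ i * γ * (δ i)⁻¹ ∈ Γ)
    (hperm : ∀ γ ∈ Γ', ∃ σ : Equiv.Perm ι, ∀ i, δ i * γ * (δ (σ i))⁻¹ ∈ Γ)
    (E E' : IntermediateField ℂ (LaurentSeries ℂ)) (hEE' : E ≤ E')
    (hE : ∀ g : ℍ → ℂ, IsModFunG Γ' g → laurentOf g ∈ E)
    (θ : ℍ → ℂ) (hθ : IsModFunG Γ θ)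
    (hθE : ∀ i, laurentOf (fun z => θ (δ i • z)) ∈ E')
    (hθne : ∀ i, i ≠ i₀ →
      laurentOf (fun z => θ (δ i • z)) ≠ laurentOf (fun z => θ (δ i₀ • z)))
    {f : ℍ → ℂ} (hf : IsModFunG Γ f) : laurentOf f ∈ E' := by
  -- the conjugates
  have hfi : ∀ i, IsModFunG Γ (fun z => f (δ i • z)) := fun i =>
    hf.comp_normalizer (δ i) (hnorm i)
  have hθi : ∀ i, IsModFunG Γ (fun z => θ (δ i • z)) := fun i =>
    hθ.comp_normalizer (δ i) (hnorm i)
  have hmer : ∀ {g : ℍ → ℂ}, IsModFunG Γ g → IsMerInf g := fun hg => hg.isMerInf hT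
  let F : ι → modFunAlgG Γ := fun i => ⟨fun z => f (δ i • z), hfi i⟩
  let Θ : ι → modFunAlgG Γ := fun i => ⟨fun z => θ (δ i • z), hθi i⟩
  let Q : (modFunAlgG Γ)[X] := lagPoly F Θ
  -- the coefficients are invariant under `Γ'`
  have hQinv : ∀ γ ∈ Γ', ∀ j : ℕ, ∀ z : ℍ,
      ((Q.coeff j : modFunAlgG Γ) : ℍ → ℂ) (γ • z) = ((Q.coeff j : modFunAlgG Γ) : ℍ → ℂ) z := by
    intro γ hγ j z
    obtain ⟨σ, hσ⟩ := hperm γ hγ
    have hconj : ∀ {g : ℍ → ℂ}, IsModFunG Γ g → ∀ i (w : ℍ),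
        g (δ i • (γ • w)) = g (δ (σ i) • w) := by
      intro g hg i w
      have h1 := hg.comp_smul (hσ i) (δ (σ i) • w)
      have h2 : (δ i * γ * (δ (σ i))⁻¹) • (δ (σ i) • w) = δ i • (γ • w) := by
        rw [← mul_smul, ← mul_smul]
        congr 1
        group
      rw [h2] at h1
      exact h1
    have h1 : (Q.map (modFunAlgG Γ).val.toRingHom).map (compSmul γ) =
        Q.map (modFunAlgG Γ).val.toRingHom := by
      rw [lagPoly_map, lagPoly_map]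
      have h2 : (fun i => compSmul γ ((modFunAlgG Γ).val.toRingHom (F i))) =
          fun i => (modFunAlgG Γ).val.toRingHom (F (σ i)) := by
        funext i w
        exact hconj hf i w
      have h3 : (fun i => compSmul γ ((modFunAlgG Γ).val.toRingHom (Θ i))) =
          fun i => (modFunAlgG Γ).val.toRingHom (Θ (σ i)) := by
        funext i w
        exact hconj hθ i w
      rw [h2, h3]
      exact lagPoly_perm (fun i => (modFunAlgG Γ).val.toRingHom (F i))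
        (fun i => (modFunAlgG Γ).val.toRingHom (Θ i)) σ
    have h4 := congrArg (fun P : (ℍ → ℂ)[X] => P.coeff j) h1
    simp only [Polynomial.coeff_map] at h4
    exact congrFun h4 z
  -- hence they are modular functions of level `Γ'`
  have hQE : ∀ j : ℕ, laurentOf ((Q.coeff j : modFunAlgG Γ) : ℍ → ℂ) ∈ E' := fun j =>
    hEE' (hE _ (IsModFunG.of_invariant (Q.coeff j).2 fun γ hγ z => hQinv γ hγ j z))
  -- the Laurent expansion as a ring homomorphism on `modFunAlgG Γ`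
  let Λ : modFunAlgG Γ →+* LaurentSeries ℂ :=
    (laurentExp.comp (Subalgebra.inclusion (modFunAlgG_le_merInf hT))).toRingHom
  have hΛ : ∀ g : modFunAlgG Γ, Λ g = laurentOf (g : ℍ → ℂ) := fun g => rfl
  -- evaluate
  have hev := lagPoly_eval F Θ i₀
  have hev2 : Λ (Q.eval (Θ i₀)) = Λ (F i₀) * ∏ i' ∈ Finset.univ.erase i₀, (Λ (Θ i₀) - Λ (Θ i')) := by
    rw [show Q.eval (Θ i₀) = _ from hev, map_mul, map_prod]
    simp only [map_sub]
  have hev3 : Λ (Q.eval (Θ i₀)) ∈ E' := by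
    rw [Polynomial.eval_eq_sum_range, map_sum]
    refine E'.sum_mem fun j _ => ?_
    rw [map_mul, map_pow]
    have h1 : Λ (Q.coeff j) ∈ E' := by rw [hΛ]; exact hQE j
    have h2 : Λ (Θ i₀) ∈ E' := by rw [hΛ]; exact hθE i₀
    exact E'.mul_mem h1 (pow_mem h2 j)
  have hΘE : ∀ i, Λ (Θ i) ∈ E' := fun i => by rw [hΛ]; exact hθE i
  have hprod_mem : ∏ i' ∈ Finset.univ.erase i₀, (Λ (Θ i₀) - Λ (Θ i')) ∈ E' :=
    E'.prod_mem fun i' _ => E'.sub_mem (hΘE i₀) (hΘE i')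
  have hprod_ne : ∏ i' ∈ Finset.univ.erase i₀, (Λ (Θ i₀) - Λ (Θ i')) ≠ 0 := by
    rw [Finset.prod_ne_zero_iff]
    intro i' hi'
    rw [sub_ne_zero, hΛ, hΛ]
    exact (hθne i' (Finset.ne_of_mem_erase hi')).symm
  have hF0 : Λ (F i₀) ∈ E' := by
    have h1 : Λ (F i₀) = Λ (Q.eval (Θ i₀)) /
        ∏ i' ∈ Finset.univ.erase i₀, (Λ (Θ i₀) - Λ (Θ i')) := by
      rw [hev2, mul_div_assoc, div_self hprod_ne, mul_one]
    rw [h1]
    exact E'.div_mem hev3 hprod_mem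
  have hff : (fun z => f (δ i₀ • z)) = f := by
    funext z
    exact hf.comp_smul hδ₀ z
  rw [hΛ] at hF0
  have : ((F i₀ : modFunAlgG Γ) : ℍ → ℂ) = f := hff
  rwa [this] at hF0

end Fermat.Agent.ES1

end
end ZBES1_003_1

/-! ### bundled: `Fermat.Agent.ES1.RCGammaA` -/
section ZBES1_003_2

/-!
# ES₁ / F3 (RC-Γ), part A: the group `Γ = gammaH L M H` and the functions `θ_c = Σ G_{a'}`

* `es1rc_exists_rep` : every `c ∈ (ℤ/M)ˣ` is the diamond of some `γ ∈ Γ₀(L)` (`M ∣ L`);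
* `es1rc_finiteIndex` : `gammaH L M H` has finite index;
* `es1rcTheta M H c = Σ_{a' ∈ cosetReps M H c} G_{a'}` : holomorphic, `laurentOf = sS ℂ M H c`,
  `θ_c (γ z) = θ_{c · ⟨γ⟩} z` for `γ ∈ Γ₀(M)`; a modular function for `gammaH L M H`.
-/

set_option autoImplicit false

noncomputable section

open UpperHalfPlane ModularForm CongruenceSubgroup Matrix
open scoped MatrixGroups Manifold

namespace Fermat.Agent.ES1

open Fermat.Agent.S23 Fermat.Agent.S28 Fermat.Agent.ES ModularCurve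

local notation "Δ" => ModularForm.discriminant

/-! ### Group theory -/

/-- every unit mod `M` is the upper left entry of some `γ ∈ Γ₀(L)` -/
theorem es1rc_exists_rep {L M : ℕ} [NeZero L] (hML : M ∣ L) (c : (ZMod M)ˣ) :
    ∃ γ : SL(2, ℤ), γ ∈ Gamma0 L ∧ ((γ 0 0 : ℤ) : ZMod M) = (c : ZMod M) := by
  obtain ⟨u, hu⟩ := ZMod.unitsMap_surjective hML c
  have hcop : Nat.Coprime (u : ZMod L).val L := ZMod.val_coe_unit_coprime u
  have hgcd : IsCoprime (((u : ZMod L).val : ℕ) : ℤ) (L : ℤ) :=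
    Nat.isCoprime_iff_coprime.mpr hcop
  obtain ⟨x, y, hxy⟩ := hgcd
  have hdet : (!![(((u : ZMod L).val : ℕ) : ℤ), -y; (L : ℤ), x]).det = 1 := by
    rw [Matrix.det_fin_two_of]; linarith
  obtain ⟨γ, hγ⟩ : ∃ γ : SL(2, ℤ), (γ : Matrix (Fin 2) (Fin 2) ℤ) =
      !![(((u : ZMod L).val : ℕ) : ℤ), -y; (L : ℤ), x] := ⟨⟨_, hdet⟩, rfl⟩
  have h00 : γ 0 0 = (((u : ZMod L).val : ℕ) : ℤ) := by
    have := congrFun (congrFun hγ 0) 0
    simpa using this
  have h10 : γ 1 0 = (L : ℤ) := by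
    have := congrFun (congrFun hγ 1) 0
    simpa using this
  refine ⟨γ, ?_, ?_⟩
  · rw [Gamma0_mem, h10]; simp
  · have h1 : (c : ZMod M) = ZMod.castHom hML (ZMod M) (u : ZMod L) := by
      rw [← hu]; rfl
    rw [h1, ZMod.castHom_apply, ← ZMod.natCast_val, h00]
    simp

theorem es1rc_gamma1_le_gammaH {L M : ℕ} (hML : M ∣ L) (H : Subgroup (ZMod M)ˣ) :
    Gamma1 L ≤ gammaH L M H := by
  intro γ hγ
  have h1 := (Gamma1_mem L γ).mp hγ
  have hL : γ ∈ Gamma0 L := Gamma0_mem.mpr h1.2.2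
  have hM : γ ∈ Gamma0 M := Fermat.Agent.ES.RC.rc_Gamma0_le_of_dvd hML hL
  refine ⟨hL, hM, ?_⟩
  have : diamHom M ⟨γ, hM⟩ = 1 := by
    ext
    rw [coe_diamHom]
    have h2 : ((γ 0 0 : ℤ) : ZMod L) = 1 := h1.1
    have h3 := congrArg (ZMod.castHom hML (ZMod M)) h2
    rw [map_one, map_intCast] at h3
    exact h3
  rw [this]; exact one_mem _

/-- `gammaH L M H` has finite index -/
theorem es1rc_finiteIndex {L M : ℕ} [NeZero L] (hML : M ∣ L) (H : Subgroup (ZMod M)ˣ) :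
    (gammaH L M H).FiniteIndex :=
  Subgroup.finiteIndex_of_le (es1rc_gamma1_le_gammaH hML H)

/-! ### `±H` -/

theorem es1rc_exists_of_mem_pmH {M : ℕ} {H : Subgroup (ZMod M)ˣ} {u : (ZMod M)ˣ}
    (hu : u ∈ pmH H) : ∃ h ∈ H, u = h ∨ u = -h := by
  rw [pmH, Subgroup.mem_sup] at hu
  obtain ⟨h, hh, z, hz, rfl⟩ := hu
  obtain ⟨k, rfl⟩ := Subgroup.mem_zpowers_iff.mp hz
  refine ⟨h, hh, ?_⟩
  rcases Int.even_or_odd k with hk | hk
  · left; rw [hk.neg_one_zpow, mul_one]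
  · right; rw [hk.neg_one_zpow, mul_neg, mul_one]

theorem es1rc_mem_pmH_of {M : ℕ} {H : Subgroup (ZMod M)ˣ} {u h : (ZMod M)ˣ} (hh : h ∈ H)
    (hu : u = h ∨ u = -h) : u ∈ pmH H := by
  rcases hu with rfl | rfl
  · exact le_pmH H hh
  · have : -h = h * (-1) := by rw [mul_neg, mul_one]
    rw [this]
    exact mul_mem (le_pmH H hh) (neg_one_mem_pmH H)

/-- `u ∈ ±H ↔ u ∈ ± 1·H` in the sense of `InPM` -/
theorem es1rc_mem_pmH_iff {M : ℕ} {H : Subgroup (ZMod M)ˣ} {u : (ZMod M)ˣ} :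
    u ∈ pmH H ↔ InPM H 1 (u : ZMod M) := by
  constructor
  · intro hu
    obtain ⟨h, hh, hu' | hu'⟩ := es1rc_exists_of_mem_pmH hu
    · exact ⟨h, hh, Or.inl (by rw [one_mul, hu'])⟩
    · exact ⟨h, hh, Or.inr (by rw [one_mul, hu', Units.val_neg])⟩
  · rintro ⟨h, hh, hu | hu⟩
    · exact es1rc_mem_pmH_of hh (Or.inl (Units.ext (by rw [hu, one_mul])))
    · exact es1rc_mem_pmH_of hh (Or.inr (Units.ext (by rw [hu, one_mul, Units.val_neg])))

theorem es1rc_inPM_mul {M : ℕ} {H : Subgroup (ZMod M)ˣ} {c u : (ZMod M)ˣ} {x : ZMod M}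
    (hx : InPM H c x) : InPM H (c * u) (x * (u : ZMod M)) := by
  obtain ⟨h, hh, hx | hx⟩ := hx
  · exact ⟨h, hh, Or.inl (by rw [hx]; push_cast; ring)⟩
  · exact ⟨h, hh, Or.inr (by rw [hx]; push_cast; ring)⟩

theorem es1rc_inPM_mul_of_mem {M : ℕ} {H : Subgroup (ZMod M)ˣ} (c : (ZMod M)ˣ) {u : (ZMod M)ˣ}
    (hu : u ∈ pmH H) : InPM H c ((c * u : (ZMod M)ˣ) : ZMod M) := by
  obtain ⟨h, hh, hu' | hu'⟩ := es1rc_exists_of_mem_pmH hu
  · exact ⟨h, hh, Or.inl (by rw [hu'])⟩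
  · exact ⟨h, hh, Or.inr (by rw [hu']; push_cast; ring)⟩

/-! ### The representative in `[1, M/2]` -/

/-- the representative of `±x` in `[0, M/2]` -/
def es1rcRep (M : ℕ) (x : ZMod M) : ℕ := min x.val (M - x.val)

theorem es1rcRep_cast (M : ℕ) [NeZero M] (x : ZMod M) :
    ((es1rcRep M x : ℕ) : ZMod M) = x ∨ ((es1rcRep M x : ℕ) : ZMod M) = -x := by
  unfold es1rcRep
  rcases le_total x.val (M - x.val) with h | h
  · left; rw [min_eq_left h, ZMod.natCast_zmod_val]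
  · right
    rw [min_eq_right h, Nat.cast_sub (ZMod.val_lt x).le, ZMod.natCast_self, zero_sub,
      ZMod.natCast_zmod_val]

theorem es1rcRep_le (M : ℕ) (x : ZMod M) : es1rcRep M x ≤ M / 2 := by
  unfold es1rcRep
  rw [Nat.le_div_iff_mul_le two_pos]
  rcases le_total x.val (M - x.val) with h | h
  · rw [min_eq_left h]; omega
  · rw [min_eq_right h]; omega

theorem es1rcRep_pos {M : ℕ} [NeZero M] {x : ZMod M} (hx : x ≠ 0) : 1 ≤ es1rcRep M x := by
  unfold es1rcRep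
  have h1 : 0 < x.val := Nat.pos_of_ne_zero fun h => hx ((ZMod.val_eq_zero x).mp h)
  have h2 := ZMod.val_lt x
  rw [Nat.one_le_iff_ne_zero, Ne, Nat.min_eq_zero_iff]
  omega

theorem es1rcRep_natCast {M a' : ℕ} (h1 : 1 ≤ a') (h2 : a' ≤ M / 2) :
    es1rcRep M (a' : ZMod M) = a' := by
  have hM : a' < M := by
    have := Nat.div_mul_le_self M 2
    omega
  have h3 := Nat.div_mul_le_self M 2
  unfold es1rcRep
  rw [ZMod.val_natCast_of_lt hM]
  exact min_eq_left (by omega)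

theorem es1rcRep_neg (M : ℕ) [NeZero M] (x : ZMod M) : es1rcRep M (-x) = es1rcRep M x := by
  rcases eq_or_ne x 0 with rfl | hx
  · rw [neg_zero]
  · unfold es1rcRep
    have : NeZero x := ⟨hx⟩
    rw [ZMod.val_neg_of_ne_zero]
    have := ZMod.val_lt x
    rw [Nat.sub_sub_self this.le, min_comm]

theorem es1rcRep_natCast' {M a' : ℕ} [NeZero M] (h1 : 1 ≤ a') (h2 : a' ≤ M / 2) {x : ZMod M}
    (hx : x = (a' : ZMod M) ∨ x = -(a' : ZMod M)) : es1rcRep M x = a' := by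
  rcases hx with rfl | rfl
  · exact es1rcRep_natCast h1 h2
  · rw [es1rcRep_neg, es1rcRep_natCast h1 h2]

/-- reindexing a sum over `cosetReps` -/
theorem es1rc_sum_cosetReps_mul {M : ℕ} [NeZero M] (H : Subgroup (ZMod M)ˣ) (c u : (ZMod M)ˣ)
    {X : Type*} [AddCommMonoid X] (g : ZMod M → X) (hg : ∀ x, g (-x) = g x) :
    ∑ a' ∈ cosetReps M H c, g ((a' : ZMod M) * (u : ZMod M)) =
      ∑ a' ∈ cosetReps M H (c * u), g (a' : ZMod M) := by
  have key : ∀ (c u : (ZMod M)ˣ) (a' : ℕ), a' ∈ cosetReps M H c →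
      es1rcRep M ((a' : ZMod M) * (u : ZMod M)) ∈ cosetReps M H (c * u) := by
    intro c u a' ha'
    obtain ⟨⟨h1, h2⟩, h3⟩ := es1f_mem_cosetReps.mp ha'
    have hunit : IsUnit ((a' : ZMod M) * (u : ZMod M)) := h3.isUnit.mul u.isUnit
    have hM2 : 2 ≤ M := by
      have := Nat.div_mul_le_self M 2
      omega
    have : Fact (1 < M) := ⟨hM2⟩
    have hne : (a' : ZMod M) * (u : ZMod M) ≠ 0 := hunit.ne_zero
    refine es1f_mem_cosetReps.mpr ⟨⟨es1rcRep_pos hne, es1rcRep_le M _⟩, ?_⟩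
    have h4 : InPM H (c * u) ((a' : ZMod M) * (u : ZMod M)) := es1rc_inPM_mul h3
    rcases es1rcRep_cast M ((a' : ZMod M) * (u : ZMod M)) with h | h
    · rw [h]; exact h4
    · rw [h]; exact h4.neg
  have hg' : ∀ x : ZMod M, g ((es1rcRep M x : ℕ) : ZMod M) = g x := by
    intro x
    rcases es1rcRep_cast M x with h | h
    · rw [h]
    · rw [h, hg]
  have hinv : ∀ (c u : (ZMod M)ˣ) (a' : ℕ), a' ∈ cosetReps M H c →
      es1rcRep M (((es1rcRep M ((a' : ZMod M) * (u : ZMod M)) : ℕ) : ZMod M) *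
        ((u⁻¹ : (ZMod M)ˣ) : ZMod M)) = a' := by
    intro c u a' ha'
    obtain ⟨⟨h1, h2⟩, -⟩ := es1f_mem_cosetReps.mp ha'
    apply es1rcRep_natCast' h1 h2
    have hu : (u : ZMod M) * ((u⁻¹ : (ZMod M)ˣ) : ZMod M) = 1 := by
      rw [← Units.val_mul, mul_inv_cancel, Units.val_one]
    rcases es1rcRep_cast M ((a' : ZMod M) * (u : ZMod M)) with h | h
    · left; rw [h, mul_assoc, hu, mul_one]
    · right; rw [h, neg_mul, mul_assoc, hu, mul_one]
  refine Finset.sum_nbij' (fun a' => es1rcRep M ((a' : ZMod M) * (u : ZMod M)))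
    (fun a' => es1rcRep M ((a' : ZMod M) * ((u⁻¹ : (ZMod M)ˣ) : ZMod M)))
    (fun a' ha' => key c u a' ha') (fun a' ha' => ?_) (fun a' ha' => hinv c u a' ha')
    (fun a' ha' => ?_) (fun a' _ => (hg' _).symm)
  · have := key (c * u) u⁻¹ a' ha'
    rwa [mul_assoc, mul_inv_cancel, mul_one] at this
  · have := hinv (c * u) u⁻¹ a' ha'
    rwa [inv_inv] at this

/-! ### `V_e` on modular forms and modular functions of level `Γ` -/

/-- **`V_e`** for forms of level `Γ`: if the companion matrices of the elements of `Γ''` lie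
in `Γ`, then `τ ↦ F (e τ)` is a modular form for `Γ''`. -/
theorem es1rc_isMF_comp_scaleN (e : ℕ) [NeZero e] {Γ Γ'' : Subgroup SL(2, ℤ)} [Γ.FiniteIndex]
    [Γ''.FiniteIndex] {k : ℤ} {F : ℍ → ℂ} (hF : IsMF (gGL Γ) k F)
    (hconj : ∀ γ ∈ Γ'', ∃ hdvd : (e : ℤ) ∣ γ 1 0, P7_thetaCompanion e γ hdvd ∈ Γ) :
    IsMF (gGL Γ'') k (fun z => F (scaleN e z)) := by
  obtain ⟨F, rfl⟩ := hF
  refine ⟨{ toFun := fun z => F (scaleN e z)
            slash_action_eq' := ?_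
            holo' := mdiff_comp_scaleN e F.holo'
            bdd_at_cusps' := ?_ }, rfl⟩
  · rintro _ ⟨γ, hγ, rfl⟩
    obtain ⟨hdvd, hcomp⟩ := hconj γ hγ
    have h0 : ((fun z => F (scaleN e z)) ∣[k] γ) = fun z => F (scaleN e z) := by
      ext z
      rw [SL_slash_apply]
      have h1 : F (P7_thetaCompanion e γ hdvd • scaleN e z) =
          denom ((P7_thetaCompanion e γ hdvd : SL(2, ℤ)) : GL (Fin 2) ℝ) (scaleN e z) ^ k *
            F (scaleN e z) :=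
        SlashInvariantForm.slash_action_eqn'' F
          (Subgroup.mem_map_of_mem (Matrix.SpecialLinearGroup.mapGL ℝ) hcomp) (scaleN e z)
      have h2 := P7_thetaCompanion_denom e γ hdvd z
      have h3 := P7_thetaCompanion_smul e γ hdvd z
      have hd : denom (γ : GL (Fin 2) ℝ) z ≠ 0 := denom_ne_zero _ _
      rw [h3, h1]
      have h2' : denom ((P7_thetaCompanion e γ hdvd : SL(2, ℤ)) : GL (Fin 2) ℝ) (scaleN e z)
          = denom (γ : GL (Fin 2) ℝ) z := h2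
      rw [h2', _root_.zpow_neg]
      field_simp
    rw [SL_slash] at h0
    exact h0
  · intro c hc
    rw [Subgroup.IsArithmetic.isCusp_iff_isCusp_SL2Z] at hc
    rw [OnePoint.isBoundedAt_iff_forall_SL2Z hc]
    intro γ _
    obtain ⟨γ', A, B, D, hA, hD, hAD, h00, h01, h10, h11, -⟩ := P8_exists_hermite e γ
    have hD' : (D : ℂ) ≠ 0 := by exact_mod_cast hD.ne'
    have hform : ((fun z => F (scaleN e z)) ∣[k] γ) =
        fun z => ((D : ℂ) ^ k)⁻¹ * ((F : ℍ → ℂ) ∣[k] γ') (P8_betaPt A B D hA hD z) := by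
      ext z
      rw [SL_slash_apply, SL_slash_apply]
      rw [P8_scaleN_smul e γ γ' A B D hA hD h00 h01 h10 h11 z]
      have hd1 : denom (γ : GL (Fin 2) ℝ) z = (γ 1 0 : ℂ) * z + (γ 1 1 : ℂ) := by
        simp [UpperHalfPlane.denom]
      have hd2 : denom (γ' : GL (Fin 2) ℝ) (P8_betaPt A B D hA hD z) =
          (γ' 1 0 : ℂ) * (P8_betaPt A B D hA hD z : ℍ) + (γ' 1 1 : ℂ) := by
        simp [UpperHalfPlane.denom]
      rw [hd1, hd2, P8_denom_eq γ γ' A B D hA hD h10 h11 z, div_zpow, _root_.zpow_neg, _root_.zpow_neg]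
      have hne : ((γ 1 0 : ℂ) * z + (γ 1 1 : ℂ)) ^ k ≠ 0 := zpow_ne_zero _ (P8_denom_ne_zero γ z)
      have hDk : (D : ℂ) ^ k ≠ 0 := zpow_ne_zero _ hD'
      field_simp
    rw [hform]
    have hb : IsBoundedAtImInfty ((F : ℍ → ℂ) ∣[k] γ') :=
      ModularFormClass.bdd_at_infty_slash F γ'
    have hb2 : IsBoundedAtImInfty
        (fun z => ((F : ℍ → ℂ) ∣[k] γ') (P8_betaPt A B D hA hD z)) :=
      hb.comp_tendsto (P8_tendsto_betaPt A B D hA hD)
    exact (Filter.const_boundedAtFilter _ (((D : ℂ) ^ k)⁻¹)).mul hb2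

/-- **`V_e`** for modular functions of level `Γ`. -/
theorem es1rc_isModFunG_comp_scaleN (e : ℕ) [NeZero e] {Γ Γ'' : Subgroup SL(2, ℤ)}
    [Γ.FiniteIndex] [Γ''.FiniteIndex] {f : ℍ → ℂ} (hf : IsModFunG Γ f)
    (hconj : ∀ γ ∈ Γ'', ∃ hdvd : (e : ℤ) ∣ γ 1 0, P7_thetaCompanion e γ hdvd ∈ Γ) :
    IsModFunG Γ'' (fun z => f (scaleN e z)) := by
  obtain ⟨m, hm⟩ := hf
  have h1 : IsMF (gGL Γ'') (12 * (m : ℤ)) (fun z => f (scaleN e z) * Δ (scaleN e z) ^ m) :=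
    es1rc_isMF_comp_scaleN e hm hconj
  have hle : Γ'' ≤ Gamma0 e := by
    intro γ hγ
    obtain ⟨hdvd, -⟩ := hconj γ hγ
    rw [Gamma0_mem, ZMod.intCast_zmod_eq_zero_iff_dvd]
    exact hdvd
  have h2 : IsMF (gGL Γ'') (thetaWeight e) (thetaFun e) := isMF_mono hle (isMF_thetaFun e)
  have h3 := (h1.mul (h2.pow m)).of_weight_eq
    (show 12 * (m : ℤ) + (m : ℤ) * thetaWeight e = 12 * ((e * m : ℕ) : ℤ) by
      unfold thetaWeight; push_cast; ring)
  refine ⟨e * m, ?_⟩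
  convert h3 using 1
  funext z
  exact bridge_comp_scaleN_mul e f m z

/-! ### The functions `G_a` and `θ_c` -/

theorem es1rc_f2Ga_neg (M : ℕ) (a : ZMod M) : f2Ga M (-a) = f2Ga M a := by
  funext z
  have h := f2Ga_smul M a (-1) (by rw [Gamma0_mem]; simp) z
  rw [ModularGroup.SL_neg_smul, one_smul] at h
  rw [h]
  congr 1
  simp

/-- `G_a` is a modular function for `Γ₁(M)` -/
theorem es1rc_isModFunG_f2Ga (M : ℕ) [NeZero M] (a : ZMod M) :
    IsModFunG (Gamma1 M) (f2Ga M a) := by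
  have h3 : IsMF (gGL (Gamma1 M)) 3 (f2Ya M a) := ⟨f2Form M a, rfl⟩
  have h12 := (h3.pow 4).of_weight_eq
    (show ((4 : ℕ) : ℤ) * 3 = 12 * ((1 : ℕ) : ℤ) by norm_num)
  have := isModFunG_div h12
  convert this using 1
  funext z
  simp [f2Ga]

/-- `θ_c = Σ_{a' ∈ [1, M/2], a' ∈ ± c H} G_{a'}` -/
def es1rcTheta (M : ℕ) (H : Subgroup (ZMod M)ˣ) (c : (ZMod M)ˣ) : ℍ → ℂ :=
  ∑ a' ∈ cosetReps M H c, f2Ga M (a' : ZMod M)

section Theta

variable {M : ℕ} (H : Subgroup (ZMod M)ˣ) (c : (ZMod M)ˣ)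

theorem es1rcTheta_apply (z : ℍ) :
    es1rcTheta M H c z = ∑ a' ∈ cosetReps M H c, f2Ga M (a' : ZMod M) z := by
  unfold es1rcTheta
  rw [Finset.sum_apply]

theorem es1rcTheta_isModFunG1 [NeZero M] : IsModFunG (Gamma1 M) (es1rcTheta M H c) :=
  IsModFunG.sum _ _ fun a' _ => es1rc_isModFunG_f2Ga M a'

theorem es1rcTheta_isMerInf [NeZero M] : IsMerInf (es1rcTheta M H c) :=
  Fermat.Agent.ES.RC.rc_isMerInf_sum _ _ fun a' _ => f2Ga_isMerInf M a'

theorem laurentOf_es1rcTheta [NeZero M] : laurentOf (es1rcTheta M H c) = sS ℂ M H c := by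
  unfold es1rcTheta sS sZ
  rw [Fermat.Agent.ES.RC.rc_laurentOf_sum (cosetReps M H c)
    (fun a' : ℕ => f2Ga M (a' : ZMod M)) fun a' _ => f2Ga_isMerInf M a', map_sum]
  exact Finset.sum_congr rfl fun a' _ => laurentOf_f2Ga M a'

/-- `θ_c (γ z) = θ_{c ⟨γ⟩} (z)` for `γ ∈ Γ₀(M)` -/
theorem es1rcTheta_smul [NeZero M] (γ : SL(2, ℤ)) (hγ : γ ∈ Gamma0 M) (z : ℍ) :
    es1rcTheta M H c (γ • z) = es1rcTheta M H (c * diamHom M ⟨γ, hγ⟩) z := by
  rw [es1rcTheta_apply, es1rcTheta_apply,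
    ← es1rc_sum_cosetReps_mul H c (diamHom M ⟨γ, hγ⟩) (fun x => f2Ga M x z)
      (fun x => by rw [es1rc_f2Ga_neg])]
  refine Finset.sum_congr rfl fun a' _ => ?_
  rw [f2Ga_smul M a' γ hγ z, coe_diamHom]

theorem es1rcTheta_eq_of_mem {u : (ZMod M)ˣ} (hu : u ∈ pmH H) :
    es1rcTheta M H (c * u) = es1rcTheta M H c := by
  unfold es1rcTheta
  rw [es1f_cosetReps_eq (es1rc_inPM_mul_of_mem c hu)]

/-- `θ_c (e τ)` -/
def es1rcThetaE (e : ℕ) [NeZero e] (H : Subgroup (ZMod M)ˣ) (c : (ZMod M)ˣ) : ℍ → ℂ :=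
  fun z => es1rcTheta M H c (scaleN e z)

theorem es1rcThetaE_isMerInf (e : ℕ) [NeZero e] [NeZero M] : IsMerInf (es1rcThetaE e H c) :=
  isMerInf_comp_scaleN e (es1rcTheta_isMerInf H c)

/-- the Laurent expansion of `θ_c (e τ)` is `S_{M,H,c}(q^e)` -/
theorem laurentOf_es1rcThetaE (e : ℕ) [NeZero e] [NeZero M] :
    laurentOf (es1rcThetaE e H c) = qExpand ℂ e (sS ℂ M H c) := by
  unfold es1rcThetaE
  rw [laurentOf_comp_scaleN e (es1rcTheta_isMerInf H c), laurentOf_es1rcTheta]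

theorem es1rc_companion_mem_gamma0 (e : ℕ) [NeZero e] {γ : SL(2, ℤ)}
    (hγ : γ ∈ Gamma0 (e * M)) :
    ∃ hdvd : (e : ℤ) ∣ γ 1 0, P7_thetaCompanion e γ hdvd ∈ Gamma0 M ∧
      (P7_thetaCompanion e γ hdvd) 0 0 = γ 0 0 := by
  rw [Gamma0_mem, ZMod.intCast_zmod_eq_zero_iff_dvd] at hγ
  have hdvd : (e : ℤ) ∣ γ 1 0 := (Dvd.intro _ (by push_cast; rfl)).trans hγ
  refine ⟨hdvd, ?_, ?_⟩
  · rw [Gamma0_mem, ZMod.intCast_zmod_eq_zero_iff_dvd]
    have he : (e : ℤ) ≠ 0 := by exact_mod_cast NeZero.ne e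
    obtain ⟨t, ht⟩ := hγ
    have h1 : (P7_thetaCompanion e γ hdvd) 1 0 = γ 1 0 / e := by
      simp [P7_thetaCompanion]
    rw [h1, ht]
    push_cast
    rw [mul_assoc, Int.mul_ediv_cancel_left _ he]
    exact Dvd.intro _ rfl
  · simp [P7_thetaCompanion]

theorem es1rc_gamma0_mul_le (e : ℕ) (M : ℕ) : Gamma0 (e * M) ≤ Gamma0 M :=
  Fermat.Agent.ES.RC.rc_Gamma0_le_of_dvd (Dvd.intro_left e rfl)

/-- `θ_c (e · γ z) = θ_{c ⟨γ⟩} (e z)` for `γ ∈ Γ₀(e M)` -/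
theorem es1rcThetaE_smul (e : ℕ) [NeZero e] [NeZero M] (γ : SL(2, ℤ))
    (hγ : γ ∈ Gamma0 (e * M)) (z : ℍ) :
    es1rcThetaE e H c (γ • z) =
      es1rcThetaE e H (c * diamHom M ⟨γ, es1rc_gamma0_mul_le e M hγ⟩) z := by
  obtain ⟨hdvd, hM, h00⟩ := es1rc_companion_mem_gamma0 (M := M) e hγ
  unfold es1rcThetaE
  rw [P7_thetaCompanion_smul e γ hdvd z, es1rcTheta_smul H c _ hM]
  congr 2
  ext
  rw [coe_diamHom, coe_diamHom, h00]

theorem es1rcThetaE_eq_of_mem (e : ℕ) [NeZero e] {u : (ZMod M)ˣ} (hu : u ∈ pmH H) :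
    es1rcThetaE e H (c * u) = es1rcThetaE e H c := by
  unfold es1rcThetaE
  rw [es1rcTheta_eq_of_mem H c hu]

theorem es1rcThetaE_one [NeZero M] : es1rcThetaE 1 H c = es1rcTheta M H c := by
  funext z
  unfold es1rcThetaE
  congr 1
  apply UpperHalfPlane.ext
  rw [coe_scaleN]
  simp

theorem es1rc_companion_mem_gamma1 (e : ℕ) [NeZero e] {γ : SL(2, ℤ)}
    (hγ : γ ∈ Gamma1 (e * M)) :
    ∃ hdvd : (e : ℤ) ∣ γ 1 0, P7_thetaCompanion e γ hdvd ∈ Gamma1 M := by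
  have h1 := (Gamma1_mem (e * M) γ).mp hγ
  have hdvdM : M ∣ e * M := Dvd.intro_left e rfl
  have h0 : γ ∈ Gamma0 (e * M) := Gamma0_mem.mpr h1.2.2
  obtain ⟨hdvd, hM, h00⟩ := es1rc_companion_mem_gamma0 (M := M) e h0
  refine ⟨hdvd, (Gamma1_mem M _).mpr ⟨?_, ?_, Gamma0_mem.mp hM⟩⟩
  · rw [h00]
    have h3 := congrArg (ZMod.castHom hdvdM (ZMod M)) h1.1
    rw [map_one, map_intCast] at h3
    exact h3
  · have h11 : (P7_thetaCompanion e γ hdvd) 1 1 = γ 1 1 := by simp [P7_thetaCompanion]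
    rw [h11]
    have h3 := congrArg (ZMod.castHom hdvdM (ZMod M)) h1.2.1
    rw [map_one, map_intCast] at h3
    exact h3

/-- **(An-i)** `θ_c (e τ)` is a modular function for `Γ_H(M) ∩ Γ₀(L)` if `e M ∣ L`. -/
theorem es1rcThetaE_isModFunG {L : ℕ} [NeZero L] (e : ℕ) [NeZero e] (he : e * M ∣ L) :
    IsModFunG (gammaH L M H) (es1rcThetaE e H c) := by
  have hML : M ∣ L := (Dvd.intro_left e rfl).trans he
  have hM0 : M ≠ 0 := fun h => NeZero.ne L (by rw [h] at hML; exact Nat.eq_zero_of_zero_dvd hML)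
  have : NeZero M := ⟨hM0⟩
  have : NeZero (e * M) := ⟨mul_ne_zero (NeZero.ne e) hM0⟩
  have := es1rc_finiteIndex hML H
  have h1 : IsModFunG (Gamma1 (e * M)) (es1rcThetaE e H c) :=
    es1rc_isModFunG_comp_scaleN e (es1rcTheta_isModFunG1 H c)
      (fun γ hγ => es1rc_companion_mem_gamma1 e hγ)
  refine h1.of_invariant fun γ hγ τ => ?_
  obtain ⟨hL, hM, hH⟩ := hγ
  have hγe : γ ∈ Gamma0 (e * M) := Fermat.Agent.ES.RC.rc_Gamma0_le_of_dvd he hL
  rw [es1rcThetaE_smul H c e γ hγe τ]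
  exact congrFun (es1rcThetaE_eq_of_mem H c e hH) τ

/-- **(An-iii)** for `γ ∈ Γ₀(L)`, `e M ∣ L`: `θ_c (e · γ z) = θ_{c ⟨γ⟩} (e z)`. -/
theorem es1rcThetaE_smul_of_mem {L : ℕ} (e : ℕ) [NeZero e] [NeZero M] (he : e * M ∣ L)
    (γ : SL(2, ℤ)) (hγ : γ ∈ Gamma0 L) (hγM : γ ∈ Gamma0 M) (z : ℍ) :
    es1rcThetaE e H c (γ • z) = es1rcThetaE e H (c * diamHom M ⟨γ, hγM⟩) z :=
  es1rcThetaE_smul H c e γ (Fermat.Agent.ES.RC.rc_Gamma0_le_of_dvd he hγ) z

end Theta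

end Fermat.Agent.ES1

end
end ZBES1_003_2

/-! ### bundled: `Fermat.Agent.ES1.RealDefs` -/
section ZBES1_003_3

/-!
# ES₁ / F4 — the analytic model over `ℂ` at level `Γ(L)`: definitions and interface (helper96)

ROUTE.  Work over `ℂ`, then base-change to `ℚ̄`:

* `realB L = modFunAlgG (Gamma L)` : the `ℂ`-algebra of holomorphic modular functions of level
  `Γ(L)`, meromorphic at the cusps; `realM L = Frac (realB L)`; `realJ L ∈ realM L` is `J`.
  `SL(2, ℤ)` acts on `realM L` through the finite quotient `SL(2, ℤ)/±Γ(L)`, with fixed field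
  `ℂ(J)` (piece P1, `ES1/RealModel.lean`, `RealFixed.lean`, `RealCusp.lean`, `RealPt.lean`).
* `StmtRealEmb` (P2 = F4-EMB): `fieldC ℂ L M H` embeds into `realM L`, `j ↦ J`.
* `RamJC L M H`, `StmtRamJC` (P3): ramification of `fieldC ℂ L M H` over the `j`-line.
* `StmtRealBCu` (P4 = F4-BCU): places of `fieldBar L M H` extend to `fieldC ℂ L M H` with the
  same orders.
* `StmtRealFin` (P5 = F4-FIN): finiteness over `ℂ(j)` descends to `ℚ̄(j)`.
* `stmtRamJH_of` (`ES1/RealGlue.lean`): `StmtRamJC → StmtRealBCu → StmtRealFin → StmtRamJH`.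
-/

set_option autoImplicit false

noncomputable section

open UpperHalfPlane ModularForm CongruenceSubgroup ModularCurve AlgebraicCurve IntermediateField
open scoped MatrixGroups Manifold

namespace Fermat.Agent.ES1

open Fermat.Agent.S24

local notation "Δ" => ModularForm.discriminant

/-! ## The big algebra -/

/-- the `ℂ`-algebra of holomorphic modular functions of level `Γ(L)`, meromorphic at the cusps -/
def realB (L : ℕ) : Subalgebra ℂ (ℍ → ℂ) := modFunAlgG (Gamma L)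

theorem mem_realB {L : ℕ} {f : ℍ → ℂ} : f ∈ realB L ↔ IsModFunG (Gamma L) f := Iff.rfl

theorem es1r_mdiff {L : ℕ} {f : ℍ → ℂ} (hf : f ∈ realB L) : MDiff f :=
  IsModFunG.mdiff hf

instance es1r_noZeroDivisors (L : ℕ) : NoZeroDivisors (realB L) where
  eq_zero_or_eq_zero_of_mul_eq_zero := by
    rintro ⟨f, hf⟩ ⟨g, hg⟩ h
    have h' : f * g = 0 := congrArg Subtype.val h
    rcases (UpperHalfPlane.mul_eq_zero_iff (es1r_mdiff hf) (es1r_mdiff hg)).mp h' with h0 | h0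
    · exact Or.inl (Subtype.ext h0)
    · exact Or.inr (Subtype.ext h0)

instance es1r_nontrivial (L : ℕ) : Nontrivial (realB L) :=
  ⟨⟨0, 1, fun h => by
    have h' : (0 : ℍ → ℂ) = 1 := congrArg Subtype.val h
    have := congrFun h' UpperHalfPlane.I
    simp at this⟩⟩

instance es1r_isDomain (L : ℕ) : IsDomain (realB L) := NoZeroDivisors.to_isDomain _

/-- the big field -/
abbrev realM (L : ℕ) : Type := FractionRing (realB L)

/-- a modular function of level one is a modular function of every level -/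
theorem es1r_isModFunG_of_levelOne (Γ : Subgroup SL(2, ℤ)) {f : ℍ → ℂ}
    (hf : Fermat.Agent.S28.IsModFun 1 f) : IsModFunG Γ f := by
  obtain ⟨m, hm⟩ := hf
  refine ⟨m, ?_⟩
  have h1 : Fermat.Agent.S23.IsMF (gGL (Gamma0 1)) (12 * (m : ℤ)) (fun z => f z * Δ z ^ m) := hm
  refine isMF_mono (Γ := Γ) (Γ' := Gamma0 1) (fun γ _ => ?_) h1
  rw [Gamma0_mem]
  exact Subsingleton.elim _ _

theorem es1r_Jfun_mem (L : ℕ) : Jfun ∈ realB L :=
  es1r_isModFunG_of_levelOne _ (Fermat.Agent.S28.isModFun_Jfun 1)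

/-- `J` in the big algebra -/
def realJB (L : ℕ) : realB L := ⟨Jfun, es1r_Jfun_mem L⟩

/-- `J` in the big field -/
def realJ (L : ℕ) : realM L := algebraMap (realB L) (realM L) (realJB L)

@[simp] theorem realJB_coe (L : ℕ) : ((realJB L : realB L) : ℍ → ℂ) = Jfun := rfl

/-! ## The function field over `ℂ` and the coefficient embedding -/

section Field

variable (L M : ℕ) (H : Subgroup (ZMod M)ˣ)

theorem jqModC_mem_fieldC (K : Type*) [Field K] [NeZero L] : jqModC K ∈ fieldC K L M H := by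
  have h := jd_mem_fieldC K L M H (one_dvd L)
  rwa [qExpand_one_apply] at h

/-- `j` as an element of `fieldC ℂ L M H` -/
def jFC [NeZero L] : fieldC ℂ L M H := ⟨jqModC ℂ, jqModC_mem_fieldC L M H ℂ⟩

theorem coeffMap_embC_mem_fieldC {x : LaurentSeries Kb} (hx : x ∈ fieldBar L M H) :
    coeffMap embC x ∈ fieldC ℂ L M H := by
  rw [es1f_fieldBar_eq] at hx
  exact es1f_coeffMap_mem_fieldC embC L M H hx

/-- the coefficient embedding `ι : fieldBar L M H → fieldC ℂ L M H` (through `embC : ℚ̄ → ℂ`) -/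
def iotaH : fieldBar L M H →+* fieldC ℂ L M H where
  toFun x := ⟨coeffMap embC (x : LaurentSeries Kb), coeffMap_embC_mem_fieldC L M H x.2⟩
  map_one' := Subtype.ext (map_one _)
  map_mul' _ _ := Subtype.ext (map_mul _ _ _)
  map_zero' := Subtype.ext (map_zero _)
  map_add' _ _ := Subtype.ext (map_add _ _ _)

@[simp] theorem iotaH_coe (x : fieldBar L M H) :
    ((iotaH L M H x : fieldC ℂ L M H) : LaurentSeries ℂ) =
      coeffMap embC (x : LaurentSeries Kb) := rfl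

theorem iotaH_injective : Function.Injective (iotaH L M H) := (iotaH L M H).injective

theorem iotaH_algebraMap (a : Kb) :
    iotaH L M H (algebraMap Kb (fieldBar L M H) a) =
      algebraMap ℂ (fieldC ℂ L M H) (embC a) := by
  apply Subtype.ext
  show coeffMap embC (algebraMap Kb (LaurentSeries Kb) a) = algebraMap ℂ (LaurentSeries ℂ) (embC a)
  rw [LaurentSeries.algebraMap_apply, LaurentSeries.algebraMap_apply, HahnSeries.C_apply,
    coeffMap_single, HahnSeries.C_apply]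

theorem iotaH_jFH [NeZero L] : iotaH L M H (jFH L M H) = jFC L M H := by
  apply Subtype.ext
  show coeffMap embC jBar = jqModC ℂ
  rw [jBar, coeffEmb, coeffMap_coeffMap]
  have h1 : jq = jqModC ℚ := rfl
  rw [h1, coeffMap_jqModC]

end Field

/-! ## The statements -/

/-- **(P2 = F4-EMB)** the function field over `ℂ` embeds into the big field, `j ↦ J`. -/
def StmtRealEmb : Prop :=
  ∀ (L M : ℕ) (H : Subgroup (ZMod M)ˣ) [NeZero L], M ∣ L →
    ∃ φ : fieldC ℂ L M H →ₐ[ℂ] realM L, φ (jFC L M H) = realJ L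

/-- ramification of `fieldC ℂ L M H` over the `j`-line (the analogue over `ℂ` of `RamJH`) -/
structure RamJC (L M : ℕ) (H : Subgroup (ZMod M)ˣ) [NeZero L] : Prop where
  /-- the function field is finite over `ℂ(j)` -/
  finite : FiniteDimensional ℂ⟮jFC L M H⟯ (fieldC ℂ L M H)
  /-- over `j = 0`: the ramification index divides `3` -/
  zero : ∀ v : Place ℂ (fieldC ℂ L M H), 0 < v.ord (jFC L M H) → v.ord (jFC L M H) ∣ 3
  /-- over `j = 1728`: the ramification index divides `2` -/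
  e1728 : ∀ v : Place ℂ (fieldC ℂ L M H),
    0 < v.ord (jFC L M H - algebraMap ℂ (fieldC ℂ L M H) 1728) →
      v.ord (jFC L M H - algebraMap ℂ (fieldC ℂ L M H) 1728) ∣ 2
  /-- over `j = c`, `c ≠ 0, 1728`: unramified -/
  gen : ∀ c : ℂ, c ≠ 0 → c ≠ 1728 → ∀ v : Place ℂ (fieldC ℂ L M H),
    0 < v.ord (jFC L M H - algebraMap ℂ (fieldC ℂ L M H) c) →
      v.ord (jFC L M H - algebraMap ℂ (fieldC ℂ L M H) c) = 1
  /-- over `j = ∞`: the ramification index divides `L` -/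
  inf : ∀ v : Place ℂ (fieldC ℂ L M H), v.ord (jFC L M H) < 0 →
    v.ord (jFC L M H)⁻¹ ∣ (L : ℤ)

/-- **(P3)** -/
def StmtRamJC : Prop :=
  ∀ (L M : ℕ) (H : Subgroup (ZMod M)ˣ) [NeZero L], M ∣ L → RamJC L M H

/-- **(P4 = F4-BCU)** every place of `fieldBar L M H` extends to a place of `fieldC ℂ L M H`
with the same orders. -/
def StmtRealBCu : Prop :=
  ∀ (L M : ℕ) (H : Subgroup (ZMod M)ˣ) [NeZero L], M ∣ L →
    Algebra.IsAlgebraic Kb⟮jFH L M H⟯ (fieldBar L M H) →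
    ∀ v : Place Kb (fieldBar L M H), ∃ w : Place ℂ (fieldC ℂ L M H),
      ∀ f : fieldBar L M H, w.ord (iotaH L M H f) = v.ord f

/-- **(P5 = F4-FIN)** finiteness over `ℂ(j)` descends to `ℚ̄(j)`. -/
def StmtRealFin : Prop :=
  ∀ (L M : ℕ) (H : Subgroup (ZMod M)ˣ) [NeZero L], M ∣ L →
    FiniteDimensional ℂ⟮jFC L M H⟯ (fieldC ℂ L M H) →
    FiniteDimensional Kb⟮jFH L M H⟯ (fieldBar L M H)

end Fermat.Agent.ES1

end
end ZBES1_003_3

/-! ### bundled: `Fermat.Agent.ES1.RealModel` -/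
section ZBES1_003_4

/-!
# ES₁ / F4, piece P1 (part 1): the action of `SL(2, ℤ)` on `realM L = Frac (modFunAlgG Γ(L))`

Fork of `S24/Model.lean`, `S24/ModelGamma.lean` (with `Ban N` replaced by `realB L`, `ℚ̄` by `ℂ`).

* `RealC.actB L γ : realB L ≃ₐ[ℂ] realB L`, `(actB γ f) τ = f (γ⁻¹ τ)`;
* `RealC.act L : SL(2, ℤ) →* (realM L ≃ₐ[ℂ] realM L)`;
* `RealC.act_of_mem_Gamma`, `RealC.act_neg_one`, `RealC.finite_range_act`, `RealC.act_realJ`.
-/

set_option autoImplicit false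

noncomputable section

open UpperHalfPlane CongruenceSubgroup
open scoped MatrixGroups Manifold ModularForm

namespace Fermat.Agent.ES1.RealC

open Fermat.Agent.S24 Fermat.Agent.ES1

/-- Precomposition with `γ⁻¹`, as a `ℂ`-algebra endomorphism of `ℍ → ℂ`. -/
def precompC (γ : SL(2, ℤ)) : (ℍ → ℂ) →ₐ[ℂ] (ℍ → ℂ) where
  toFun f := fun τ => f (γ⁻¹ • τ)
  map_one' := rfl
  map_mul' _ _ := rfl
  map_zero' := rfl
  map_add' _ _ := rfl
  commutes' _ := rfl

@[simp] theorem precompC_apply (γ : SL(2, ℤ)) (f : ℍ → ℂ) (τ : ℍ) :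
    precompC γ f τ = f (γ⁻¹ • τ) := rfl

theorem precompC_one (f : ℍ → ℂ) : precompC 1 f = f := by
  funext τ; simp

theorem precompC_mul (γ δ : SL(2, ℤ)) (f : ℍ → ℂ) :
    precompC (γ * δ) f = precompC γ (precompC δ f) := by
  funext τ; simp [mul_smul]

theorem precompC_mem {L : ℕ} [NeZero L] {f : ℍ → ℂ} (hf : f ∈ realB L) (γ : SL(2, ℤ)) :
    precompC γ f ∈ realB L := by
  have h : IsModFunG (Gamma L) f := hf
  have := h.comp_normalizer γ⁻¹ (fun δ hδ => (Gamma_normal L).conj_mem δ hδ γ⁻¹)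
  exact this

/-- The action of `γ` on `realB L`, as an algebra endomorphism. -/
def actBHom (L : ℕ) [NeZero L] (γ : SL(2, ℤ)) : realB L →ₐ[ℂ] realB L :=
  ((precompC γ).comp (realB L).val).codRestrict (realB L) (fun f => precompC_mem f.2 γ)

@[simp] theorem actBHom_coe (L : ℕ) [NeZero L] (γ : SL(2, ℤ)) (f : realB L) :
    ((actBHom L γ f : realB L) : ℍ → ℂ) = precompC γ (f : ℍ → ℂ) := rfl

theorem actBHom_one (L : ℕ) [NeZero L] : actBHom L 1 = AlgHom.id ℂ (realB L) := by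
  ext f : 1
  exact Subtype.ext (precompC_one _)

theorem actBHom_mul (L : ℕ) [NeZero L] (γ δ : SL(2, ℤ)) :
    actBHom L (γ * δ) = (actBHom L γ).comp (actBHom L δ) := by
  ext f : 1
  exact Subtype.ext (precompC_mul γ δ _)

/-- The action of `γ` on `realB L`, as an algebra automorphism. -/
def actB (L : ℕ) [NeZero L] (γ : SL(2, ℤ)) : realB L ≃ₐ[ℂ] realB L :=
  AlgEquiv.ofAlgHom (actBHom L γ) (actBHom L γ⁻¹)
    (by rw [← actBHom_mul, mul_inv_cancel, actBHom_one])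
    (by rw [← actBHom_mul, inv_mul_cancel, actBHom_one])

@[simp] theorem actB_coe (L : ℕ) [NeZero L] (γ : SL(2, ℤ)) (f : realB L) :
    ((actB L γ f : realB L) : ℍ → ℂ) = precompC γ (f : ℍ → ℂ) := rfl

theorem actB_apply_apply (L : ℕ) [NeZero L] (γ : SL(2, ℤ)) (f : realB L) (τ : ℍ) :
    (actB L γ f : ℍ → ℂ) τ = (f : ℍ → ℂ) (γ⁻¹ • τ) := rfl

theorem actB_one (L : ℕ) [NeZero L] : actB L 1 = AlgEquiv.refl := by
  ext f : 1
  exact Subtype.ext (precompC_one _)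

theorem actB_mul (L : ℕ) [NeZero L] (γ δ : SL(2, ℤ)) :
    actB L (γ * δ) = (actB L δ).trans (actB L γ) := by
  ext f : 1
  exact Subtype.ext (precompC_mul γ δ _)

/-- The action of `SL(2,ℤ)` on `realM L`: `act γ (f / g) = (f ∘ γ⁻¹) / (g ∘ γ⁻¹)`. -/
def act (L : ℕ) [NeZero L] : SL(2, ℤ) →* (realM L ≃ₐ[ℂ] realM L) where
  toFun γ := IsFractionRing.algEquivOfAlgEquiv (actB L γ)
  map_one' := by
    ext x
    obtain ⟨a, b, hb, rfl⟩ := IsFractionRing.div_surjective (A := realB L) x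
    simp [actB_one]
  map_mul' γ δ := by
    ext x
    obtain ⟨a, b, hb, rfl⟩ := IsFractionRing.div_surjective (A := realB L) x
    simp [actB_mul]

@[simp] theorem act_algebraMap (L : ℕ) [NeZero L] (γ : SL(2, ℤ)) (f : realB L) :
    act L γ (algebraMap (realB L) (realM L) f) = algebraMap (realB L) (realM L) (actB L γ f) :=
  IsFractionRing.algEquivOfAlgEquiv_algebraMap _ _

/-! ### `Γ(L)` and `-1` act trivially -/

theorem smul_of_mem_realB_of_mem_Gamma {L : ℕ} [NeZero L] {f : ℍ → ℂ} (hf : f ∈ realB L)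
    {γ : SL(2, ℤ)} (hγ : γ ∈ Gamma L) (τ : ℍ) : f (γ • τ) = f τ :=
  IsModFunG.comp_smul hf hγ τ

theorem actB_of_mem_Gamma {L : ℕ} [NeZero L] {γ : SL(2, ℤ)} (hγ : γ ∈ Gamma L) :
    actB L γ = AlgEquiv.refl := by
  ext f : 1
  apply Subtype.ext
  funext τ
  exact smul_of_mem_realB_of_mem_Gamma f.2 (inv_mem hγ) τ

theorem act_eq_one_of_actB {L : ℕ} [NeZero L] {γ : SL(2, ℤ)} (h : actB L γ = AlgEquiv.refl) :
    act L γ = 1 := by
  have h1 : act L γ = act L 1 := by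
    ext x
    obtain ⟨a, b, hb, rfl⟩ := IsFractionRing.div_surjective (A := realB L) x
    simp only [map_div₀, act_algebraMap, h, actB_one]
  rw [h1, map_one]

/-- `Γ(L)` acts trivially on `realM L`. -/
theorem act_of_mem_Gamma {L : ℕ} [NeZero L] {γ : SL(2, ℤ)} (hγ : γ ∈ Gamma L) : act L γ = 1 :=
  act_eq_one_of_actB (actB_of_mem_Gamma hγ)

theorem neg_one_smul_SL (τ : ℍ) : (-1 : SL(2, ℤ)) • τ = τ := by
  exact ModularGroup.SL_neg_smul 1 τ ▸ one_smul _ τ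

/-- `-1` acts trivially on `realM L`. -/
theorem act_neg_one (L : ℕ) [NeZero L] : act L (-1) = 1 := by
  refine act_eq_one_of_actB ?_
  ext f : 1
  apply Subtype.ext
  funext τ
  show (f : ℍ → ℂ) ((-1 : SL(2, ℤ))⁻¹ • τ) = (f : ℍ → ℂ) τ
  have h : ((-1 : SL(2, ℤ))⁻¹) = -1 := by
    rw [inv_eq_iff_eq_inv]
    exact (inv_neg_one).symm
  rw [h, neg_one_smul_SL]

theorem Gamma_le_ker_act (L : ℕ) [NeZero L] : Gamma L ≤ (act L).ker :=
  fun _ hγ => MonoidHom.mem_ker.mpr (act_of_mem_Gamma hγ)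

/-- `finite_range` of the realization. -/
theorem finite_range_act (L : ℕ) [NeZero L] : Finite (act L).range := by
  have : (act L).ker.FiniteIndex := Subgroup.finiteIndex_of_le (Gamma_le_ker_act L)
  have : Finite (SL(2, ℤ) ⧸ (act L).ker) := Subgroup.finite_quotient_of_finiteIndex
  exact Finite.of_equiv _ (QuotientGroup.quotientKerEquivRange (act L)).toEquiv

/-! ### `J` is fixed -/

theorem actB_realJB (L : ℕ) [NeZero L] (γ : SL(2, ℤ)) : actB L γ (realJB L) = realJB L := by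
  apply Subtype.ext
  funext τ
  exact Jfun_smul_SL γ⁻¹ τ

/-- `act_j` of the realization. -/
theorem act_realJ (L : ℕ) [NeZero L] (γ : SL(2, ℤ)) : act L γ (realJ L) = realJ L := by
  rw [realJ, act_algebraMap, actB_realJB]

end Fermat.Agent.ES1.RealC

end
end ZBES1_003_4

/-! ### bundled: `Fermat.Agent.ES1.RealPt` -/
section ZBES1_003_5

/-!
# ES₁ / F4, piece P1 (part 3): places of `realM L` at the points of `ℍ`, property (L)

Fork of `S24/OrderAt.lean` (valuation part), `S24/PlaceFinite.lean`, `S24/LocFinite.lean`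
with `Ban N` replaced by `realB N = modFunAlgG Γ(N)` and `ℚ̄` by `ℂ`.

* `RealC.exists_place_localProp`;
* `RealC.loc_gen`, `RealC.loc_1728`, `RealC.loc_zero`.
-/

set_option autoImplicit false
set_option linter.unusedSectionVars false
set_option linter.unusedVariables false

noncomputable section

open UpperHalfPlane Filter Topology AlgebraicCurve WithZero
open scoped MatrixGroups Manifold ModularForm

namespace Fermat.Agent.ES1.RealC

open Fermat.Agent.S24 Fermat.Agent.ES1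

/-- Property (L) of a place `w` of `M` over `ℂ` with respect to an automorphism `σ` and an
element `x` (the analogue over `ℂ` of `S24.LocalProp`). -/
def LocalProp {M : Type*} [Field M] [Algebra ℂ M] (x : M) (σ : M ≃ₐ[ℂ] M) (w : Place ℂ M) :
    Prop :=
  0 < w.ord x ∧ σ • w = w ∧ ∀ (m : M) (k : ℕ), (σ ^ k) m = m → w.ord x ∣ (k : ℤ) * w.ord m

/-! ### The valuation on `realB N` and `realM N` attached to `τ₀` -/

theorem Ban_coe_ne_zero {N : ℕ} [NeZero N] {f : realB N} (hf : f ≠ 0) : (f : ℍ → ℂ) ≠ 0 :=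
  fun h => hf (Subtype.ext h)

/-- The integer order at `τ₀` of an element of `realB N`. -/
def ordBan (N : ℕ) [NeZero N] (τ₀ : ℍ) (f : realB N) : ℕ := (ordAt τ₀ (f : ℍ → ℂ)).toNat

theorem coe_ordBan {N : ℕ} [NeZero N] (τ₀ : ℍ) {f : realB N} (hf : f ≠ 0) :
    (ordBan N τ₀ f : ℕ∞) = ordAt τ₀ (f : ℍ → ℂ) :=
  ENat.natCast_toNat (ordAt_ne_top (es1r_mdiff f.2) (Ban_coe_ne_zero hf) τ₀)

theorem ordBan_mul {N : ℕ} [NeZero N] (τ₀ : ℍ) {f g : realB N} (hf : f ≠ 0) (hg : g ≠ 0) :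
    ordBan N τ₀ (f * g) = ordBan N τ₀ f + ordBan N τ₀ g := by
  have h := ordAt_mul (es1r_mdiff f.2) (es1r_mdiff g.2) τ₀
  have h1 : ((f * g : realB N) : ℍ → ℂ) = (f : ℍ → ℂ) * (g : ℍ → ℂ) := rfl
  rw [← h1, ← coe_ordBan τ₀ hf, ← coe_ordBan τ₀ hg, ← coe_ordBan τ₀ (mul_ne_zero hf hg)] at h
  exact_mod_cast h

theorem min_le_ordBan_add {N : ℕ} [NeZero N] (τ₀ : ℍ) {f g : realB N} (hf : f ≠ 0) (hg : g ≠ 0)
    (hfg : f + g ≠ 0) : min (ordBan N τ₀ f) (ordBan N τ₀ g) ≤ ordBan N τ₀ (f + g) := by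
  have h := le_ordAt_add (f : ℍ → ℂ) (g : ℍ → ℂ) τ₀
  have h1 : ((f + g : realB N) : ℍ → ℂ) = (f : ℍ → ℂ) + (g : ℍ → ℂ) := rfl
  rw [← h1, ← coe_ordBan τ₀ hf, ← coe_ordBan τ₀ hg, ← coe_ordBan τ₀ hfg] at h
  rw [min_le_iff] at h ⊢
  rcases h with h | h
  · exact Or.inl (by exact_mod_cast h)
  · exact Or.inr (by exact_mod_cast h)

theorem ordBan_algebraMap {N : ℕ} [NeZero N] (τ₀ : ℍ) (a : ℂ) : ordBan N τ₀ (algebraMap ℂ (realB N) a) = 0 := by
  rcases eq_or_ne a 0 with rfl | ha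
  · simp only [map_zero, ordBan]
    have : ((0 : realB N) : ℍ → ℂ) = fun _ => (0 : ℂ) := rfl
    rw [this, ordAt, analyticOrderAt_eq_top.mpr (by simp)]
    rfl
  · have h1 : ((algebraMap ℂ (realB N) a : realB N) : ℍ → ℂ) = fun _ => a := rfl
    rw [ordBan, h1, ordAt_const (by simpa using ha)]
    rfl

theorem ordBan_one {N : ℕ} [NeZero N] (τ₀ : ℍ) : ordBan N τ₀ 1 = 0 := by
  have := ordBan_algebraMap (N := N) τ₀ 1
  simpa using this

/-- The valuation on `realB N` given by the order of vanishing at `τ₀`. -/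
def valBan (N : ℕ) [NeZero N] (τ₀ : ℍ) : Valuation (realB N) ℤᵐ⁰ where
  toFun f := open Classical in if f = 0 then 0 else WithZero.exp (-(ordBan N τ₀ f : ℤ))
  map_zero' := by simp
  map_one' := by simp [ordBan_one]
  map_mul' f g := by
    rcases eq_or_ne f 0 with rfl | hf
    · simp
    rcases eq_or_ne g 0 with rfl | hg
    · simp
    simp only [hf, hg, mul_ne_zero hf hg, if_false, ordBan_mul τ₀ hf hg, ← WithZero.exp_add]
    congr 1
    push_cast
    ring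
  map_add_le_max' f g := by
    rcases eq_or_ne f 0 with rfl | hf
    · rw [zero_add]; exact le_max_right _ _
    rcases eq_or_ne g 0 with rfl | hg
    · rw [add_zero]; exact le_max_left _ _
    rcases eq_or_ne (f + g) 0 with hfg | hfg
    · simp [hfg]
    simp only [hf, hg, hfg, if_false]
    have h := min_le_ordBan_add τ₀ hf hg hfg
    rcases min_le_iff.mp h with h | h
    · exact le_max_of_le_left (WithZero.exp_le_exp.mpr (by omega))
    · exact le_max_of_le_right (WithZero.exp_le_exp.mpr (by omega))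

theorem valBan_apply {N : ℕ} [NeZero N] (τ₀ : ℍ) {f : realB N} (hf : f ≠ 0) :
    valBan N τ₀ f = WithZero.exp (-(ordBan N τ₀ f : ℤ)) := by
  classical
  show (if f = 0 then 0 else WithZero.exp (-(ordBan N τ₀ f : ℤ))) = _
  rw [if_neg hf]

theorem valBan_ne_zero {N : ℕ} [NeZero N] (τ₀ : ℍ) {f : realB N} (hf : f ≠ 0) : valBan N τ₀ f ≠ 0 := by
  rw [valBan_apply τ₀ hf]; exact WithZero.exp_ne_zero

theorem nonZeroDivisors_le_primeCompl (N : ℕ) [NeZero N] (τ₀ : ℍ) :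
    nonZeroDivisors (realB N) ≤ (valBan N τ₀).supp.primeCompl := by
  intro f hf
  have hf0 : f ≠ 0 := nonZeroDivisors.ne_zero hf
  show f ∉ (valBan N τ₀).supp
  rw [Valuation.mem_supp_iff]
  exact valBan_ne_zero τ₀ hf0

/-- The valuation on `realM N` given by the order at `τ₀`. -/
def valMan (N : ℕ) [NeZero N] (τ₀ : ℍ) : Valuation (realM N) ℤᵐ⁰ :=
  (valBan N τ₀).extendToLocalization (nonZeroDivisors_le_primeCompl N τ₀) (realM N)

theorem valMan_algebraMap {N : ℕ} [NeZero N] (τ₀ : ℍ) (f : realB N) :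
    valMan N τ₀ (algebraMap (realB N) (realM N) f) = valBan N τ₀ f :=
  Valuation.extendToLocalization_apply_map_apply _ _ _ f

/-! ### Values of `valMan` -/

theorem algebraMap_Ban_Man_ne_zero {N : ℕ} [NeZero N] {f : realB N} (hf : f ≠ 0) :
    algebraMap (realB N) (realM N) f ≠ 0 := by
  intro h
  apply hf
  exact (IsFractionRing.injective (realB N) (realM N)) (by rw [h, map_zero])

theorem vord_valMan_algebraMap {N : ℕ} [NeZero N] (τ₀ : ℍ) {f : realB N} (hf : f ≠ 0) :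
    vord (valMan N τ₀) (algebraMap (realB N) (realM N) f) = ordBan N τ₀ f := by
  rw [vord, valMan_algebraMap, valBan_apply τ₀ hf, WithZero.log_exp, neg_neg]

theorem vord_valMan_div {N : ℕ} [NeZero N] (τ₀ : ℍ) {a b : realB N} (ha : a ≠ 0) (hb : b ≠ 0) :
    vord (valMan N τ₀) (algebraMap (realB N) (realM N) a / algebraMap (realB N) (realM N) b)
      = (ordBan N τ₀ a : ℤ) - ordBan N τ₀ b := by
  rw [div_eq_mul_inv, vord_mul _ (algebraMap_Ban_Man_ne_zero ha)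
    (inv_ne_zero (algebraMap_Ban_Man_ne_zero hb)), vord_inv, vord_valMan_algebraMap τ₀ ha,
    vord_valMan_algebraMap τ₀ hb]
  ring

theorem valMan_algebraMap_Kb_le_one {N : ℕ} [NeZero N] (τ₀ : ℍ) (a : ℂ) :
    valMan N τ₀ (algebraMap ℂ (realM N) a) ≤ 1 := by
  rw [IsScalarTower.algebraMap_apply ℂ (realB N) (realM N), valMan_algebraMap]
  rcases eq_or_ne (algebraMap ℂ (realB N) a) 0 with h | h
  · rw [h, map_zero]; exact zero_le_one
  · rw [valBan_apply τ₀ h, ordBan_algebraMap]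
    simp

/-! ### Invariance under the stabiliser of `τ₀` -/

theorem ordBan_actBan {N : ℕ} [NeZero N] {τ₀ : ℍ} {γ : SL(2, ℤ)} (hfix : γ • τ₀ = τ₀) (f : realB N) :
    ordBan N τ₀ (actB N γ f) = ordBan N τ₀ f := by
  have h1 : ((actB N γ f : realB N) : ℍ → ℂ) = fun τ => (f : ℍ → ℂ) (γ⁻¹ • τ) := rfl
  rw [ordBan, h1, ordAt_comp_smul, (denom_inv_of_fix hfix).1]
  rfl

theorem valBan_actBan {N : ℕ} [NeZero N] {τ₀ : ℍ} {γ : SL(2, ℤ)} (hfix : γ • τ₀ = τ₀) (f : realB N) :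
    valBan N τ₀ (actB N γ f) = valBan N τ₀ f := by
  rcases eq_or_ne f 0 with rfl | hf
  · simp
  · have hf' : actB N γ f ≠ 0 := by
      intro h
      apply hf
      have := congrArg (actB N γ).symm h
      simpa using this
    rw [valBan_apply τ₀ hf, valBan_apply τ₀ hf', ordBan_actBan hfix]

theorem valMan_act {N : ℕ} [NeZero N] {τ₀ : ℍ} {γ : SL(2, ℤ)} (hfix : γ • τ₀ = τ₀) (m : realM N) :
    valMan N τ₀ (act N γ m) = valMan N τ₀ m := by
  obtain ⟨a, b, hb, rfl⟩ := IsFractionRing.div_surjective (A := realB N) m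
  simp only [map_div₀, act_algebraMap, valMan_algebraMap, valBan_actBan hfix]

/-- Stability of a place with valuation ring `(valMan N τ₀).valuationSubring` under the
stabiliser of `τ₀`. -/
theorem act_smul_place_eq {N : ℕ} [NeZero N] {τ₀ : ℍ} {γ : SL(2, ℤ)} (hfix : γ • τ₀ = τ₀)
    (w : Place ℂ (realM N)) (hw : w.toValuationSubring = (valMan N τ₀).valuationSubring) :
    act N γ • w = w := by
  apply Place.ext
  rw [Place.smul_toValuationSubring, hw]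
  ext m
  rw [ValuationSubring.mem_pointwise_smul_iff_inv_smul_mem, Valuation.mem_valuationSubring_iff,
    Valuation.mem_valuationSubring_iff]
  have h1 : (act N γ)⁻¹ • m = act N γ⁻¹ m := by
    rw [← map_inv]; rfl
  rw [h1, valMan_act (denom_inv_of_fix hfix).1]

/-! ### Property (L) -/

/-- Core of property (L) on `realB N`: if `γ` fixes `τ₀` and `(γ • a) * b = a * (γ • b)`, then
`(denom γ τ₀ ^ 2) ^ ord a = (denom γ τ₀ ^ 2) ^ ord b`. -/
theorem denom_sq_pow_eq_of_fixed {N : ℕ} [NeZero N] {τ₀ : ℍ} {γ : SL(2, ℤ)} (hfix : γ • τ₀ = τ₀)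
    {a b : realB N} (ha : a ≠ 0) (hb : b ≠ 0)
    (h : actB N γ a * b = a * actB N γ b) :
    (denom γ τ₀ ^ 2) ^ ordBan N τ₀ a = (denom γ τ₀ ^ 2) ^ ordBan N τ₀ b := by
  obtain ⟨hfix', hden⟩ := denom_inv_of_fix hfix
  obtain ⟨ca, hca⟩ := exists_isLead (ordAt_analyticAt (es1r_mdiff a.2) τ₀)
    (ordAt_ne_top (es1r_mdiff a.2) (Ban_coe_ne_zero ha) τ₀)
  obtain ⟨cb, hcb⟩ := exists_isLead (ordAt_analyticAt (es1r_mdiff b.2) τ₀)
    (ordAt_ne_top (es1r_mdiff b.2) (Ban_coe_ne_zero hb) τ₀)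
  have hμfix : mobC γ⁻¹ (τ₀ : ℂ) = (τ₀ : ℂ) := by rw [mobC_coe, hfix']
  have hν : HasDerivAt (mobC γ⁻¹) (denom γ τ₀ ^ 2) (τ₀ : ℂ) := by
    have := hasDerivAt_mobC γ⁻¹ τ₀
    rw [hden] at this
    simpa using this
  have hν0 : denom γ τ₀ ^ 2 ≠ 0 := pow_ne_zero _ (denom_ne_zero _ _)
  have key : ∀ f : realB N, ∀ z : ℂ,
      ((f : ℍ → ℂ) ∘ ofComplex) (mobC γ⁻¹ z) = (actB N γ f : ℍ → ℂ) (ofComplex z) := by
    intro f z
    simp only [Function.comp_apply, mobC, ofComplex_apply]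
    rfl
  have heq : ∀ᶠ z in 𝓝 (τ₀ : ℂ),
      ((a : ℍ → ℂ) ∘ ofComplex) (mobC γ⁻¹ z) * ((b : ℍ → ℂ) ∘ ofComplex) z
        = ((a : ℍ → ℂ) ∘ ofComplex) z * ((b : ℍ → ℂ) ∘ ofComplex) (mobC γ⁻¹ z) := by
    refine Filter.Eventually.of_forall fun z => ?_
    rw [key a z, key b z]
    have h' := congrFun (congrArg Subtype.val h) (ofComplex z)
    exact h'
  exact pow_deriv_eq_of_comp_mul_eq hca hcb (analyticAt_mobC γ⁻¹ τ₀) hμfix hν hν0 heq

/-- Property (L) for `valMan`: an `act N ε ^ k`-invariant element has order divisible by `e`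
(up to the factor `k`), if `denom ε τ₀ ^ 2` is a primitive `e`-th root of unity. -/
theorem dvd_mul_vord_of_fixed {N : ℕ} [NeZero N] {τ₀ : ℍ} {ε : SL(2, ℤ)} (hfix : ε • τ₀ = τ₀) {e : ℕ}
    (hprim : IsPrimitiveRoot (denom ε τ₀ ^ 2) e) {m : realM N} (hm : m ≠ 0) (k : ℕ)
    (hinv : (act N ε ^ k) m = m) : (e : ℤ) ∣ (k : ℤ) * vord (valMan N τ₀) m := by
  obtain ⟨a, b, hb, rfl⟩ := IsFractionRing.div_surjective (A := realB N) m
  have hb0 : b ≠ 0 := nonZeroDivisors.ne_zero hb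
  have ha0 : a ≠ 0 := by
    rintro rfl
    apply hm
    simp
  obtain ⟨hfixk, hdenk⟩ := denom_pow_of_fix hfix k
  -- the invariance on `realB N`
  have h1 : actB N (ε ^ k) a * b = a * actB N (ε ^ k) b := by
    rw [← map_pow] at hinv
    simp only [map_div₀, act_algebraMap] at hinv
    have hb' : algebraMap (realB N) (realM N) b ≠ 0 := algebraMap_Ban_Man_ne_zero hb0
    have hb'' : algebraMap (realB N) (realM N) (actB N (ε ^ k) b) ≠ 0 := by
      apply algebraMap_Ban_Man_ne_zero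
      intro h
      apply hb0
      have := congrArg (actB N (ε ^ k)).symm h
      simpa using this
    rw [div_eq_div_iff hb'' hb', ← map_mul, ← map_mul] at hinv
    exact IsFractionRing.injective (realB N) (realM N) hinv
  have h2 := denom_sq_pow_eq_of_fixed hfixk ha0 hb0 h1
  rw [hdenk] at h2
  set ζ := denom ε τ₀ ^ 2 with hζ
  have hζ0 : ζ ≠ 0 := pow_ne_zero _ (denom_ne_zero _ _)
  have h3 : ζ ^ (k * ordBan N τ₀ a) = ζ ^ (k * ordBan N τ₀ b) := by
    have e1 : ((denom ε τ₀) ^ k) ^ 2 = ζ ^ k := by rw [hζ]; ring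
    rw [e1] at h2
    rw [pow_mul, pow_mul]; exact h2
  have h4 : ζ ^ ((k : ℤ) * ((ordBan N τ₀ a : ℤ) - ordBan N τ₀ b)) = 1 := by
    have e2 : (k : ℤ) * ((ordBan N τ₀ a : ℤ) - ordBan N τ₀ b)
        = ((k * ordBan N τ₀ a : ℕ) : ℤ) - ((k * ordBan N τ₀ b : ℕ) : ℤ) := by
      push_cast; ring
    rw [e2, zpow_sub₀ hζ0, zpow_natCast, zpow_natCast, h3, div_self (pow_ne_zero _ hζ0)]
  rw [vord_valMan_div τ₀ ha0 hb0]
  exact (hprim.zpow_eq_one_iff_dvd _).mp h4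

/-- **Main theorem of P5b.** Let `ε ∈ SL(2,ℤ)` fix `τ₀ ∈ ℍ`, let `denom ε τ₀ ^ 2` be a primitive
`e`-th root of unity, and let `x ∈ realB N` vanish to order exactly `e > 0` at `τ₀`. Then there is a
place `w` of `realM N` with property (L) for `x` and `act N ε`. -/
theorem exists_place_localProp (N : ℕ) [NeZero N] (τ₀ : ℍ) (ε : SL(2, ℤ)) (e : ℕ) (x : realB N)
    (hfix : ε • τ₀ = τ₀) (hprim : IsPrimitiveRoot (denom ε τ₀ ^ 2) e)
    (hx : ordAt τ₀ (x : ℍ → ℂ) = e) (he : 0 < e) :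
    ∃ w : Place ℂ (realM N), LocalProp (algebraMap (realB N) (realM N) x) (act N ε) w := by
  have hx0 : x ≠ 0 := by
    rintro rfl
    have h1 : ordAt τ₀ ((0 : realB N) : ℍ → ℂ) = ⊤ := by
      rw [ordAt, analyticOrderAt_eq_top]
      exact Filter.Eventually.of_forall fun z => rfl
    rw [h1] at hx
    exact ENat.top_ne_natCast e hx
  have hxe : ordBan N τ₀ x = e := by
    rw [ordBan, hx]; rfl
  have hxM : algebraMap (realB N) (realM N) x ≠ 0 := algebraMap_Ban_Man_ne_zero hx0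
  have hvx : vord (valMan N τ₀) (algebraMap (realB N) (realM N) x) = e := by
    rw [vord_valMan_algebraMap τ₀ hx0, hxe]
  obtain ⟨w, e₀, he₀, hw, hord⟩ := exists_place_of_valuation (K := ℂ) (valMan N τ₀)
    (valMan_algebraMap_Kb_le_one τ₀)
    ⟨algebraMap (realB N) (realM N) x, hxM, by
      rw [lt_one_iff_vord_pos _ hxM, hvx]; exact_mod_cast he⟩
  have hwx : (e : ℤ) = e₀ * w.ord (algebraMap (realB N) (realM N) x) := by
    rw [← hord _ hxM, hvx]
  refine ⟨w, ⟨?_, act_smul_place_eq hfix w hw, ?_⟩⟩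
  · have : (0 : ℤ) < e₀ * w.ord (algebraMap (realB N) (realM N) x) := by
      rw [← hwx]; exact_mod_cast he
    exact (mul_pos_iff_of_pos_left he₀).mp this
  · intro m k hinv
    rcases eq_or_ne m 0 with rfl | hm
    · simp
    have h1 := dvd_mul_vord_of_fixed hfix hprim hm k hinv
    rw [hord m hm, hwx] at h1
    have h2 : e₀ * w.ord (algebraMap (realB N) (realM N) x) ∣ e₀ * ((k : ℤ) * w.ord m) := by
      have : (k : ℤ) * (e₀ * w.ord m) = e₀ * ((k : ℤ) * w.ord m) := by ring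
      rw [← this]; exact h1
    exact Int.dvd_of_mul_dvd_mul_left he₀.ne' h2


theorem algebraMap_jBan_sub (N : ℕ) [NeZero N] (c : ℂ) :
    algebraMap (realB N) (realM N) (realJB N - algebraMap ℂ (realB N) c)
      = realJ N - algebraMap ℂ (realM N) c := by
  rw [map_sub, ← IsScalarTower.algebraMap_apply ℂ (realB N) (realM N)]
  rfl

theorem coe_jBan_sub (N : ℕ) [NeZero N] (c : ℂ) :
    ((realJB N - algebraMap ℂ (realB N) c : realB N) : ℍ → ℂ) = fun τ => Jfun τ - c := rfl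

/-- The place over a generic point `c ≠ 0, 1728` of the `j`-line. -/
theorem loc_gen_Man (N : ℕ) [NeZero N] (c : ℂ) (hc0 : c ≠ 0) (hc : c ≠ 1728) :
    ∃ w : Place ℂ (realM N), LocalProp (realJ N - algebraMap ℂ (realM N) c) (act N 1) w := by
  obtain ⟨τ₀, hτ₀⟩ := Jfun_surjective c
  have h0 : Jfun τ₀ ≠ 0 := by
    rw [hτ₀]
    intro h
    exact hc0 (by simpa using h)
  have h1 : Jfun τ₀ ≠ 1728 := by
    rw [hτ₀]
    intro h
    exact hc h
  have hord := analyticOrderAt_Jfun_sub_of_ne h0 h1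
  rw [hτ₀] at hord
  have hprim : IsPrimitiveRoot (denom ((1 : SL(2, ℤ)) : GL (Fin 2) ℝ) τ₀ ^ 2) 1 := by
    rw [denom_one_SL, one_pow]
    exact IsPrimitiveRoot.one
  have := exists_place_localProp N τ₀ 1 1 (realJB N - algebraMap ℂ (realB N) c) (one_smul _ _)
    hprim (by rw [coe_jBan_sub]; exact hord) one_pos
  rwa [algebraMap_jBan_sub] at this

/-- The place over `j = 1728` (the point `i`). -/
theorem loc_1728_Man (N : ℕ) [NeZero N] :
    ∃ w : Place ℂ (realM N),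
      LocalProp (realJ N - algebraMap ℂ (realM N) 1728) (act N ModularGroup.S) w := by
  have hden : denom (ModularGroup.S : GL (Fin 2) ℝ) UpperHalfPlane.I ^ 2 = -1 := by
    have : denom (ModularGroup.S : GL (Fin 2) ℝ) UpperHalfPlane.I = Complex.I := by
      have := ModularGroup.denom_apply (g := ModularGroup.S) (z := UpperHalfPlane.I)
      rw [this]
      simp [ModularGroup.S]
    rw [this, Complex.I_sq]
  have hprim : IsPrimitiveRoot (denom (ModularGroup.S : GL (Fin 2) ℝ) UpperHalfPlane.I ^ 2) 2 := by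
    rw [hden]
    exact IsPrimitiveRoot.neg_one 0 (by norm_num)
  have hord : ordAt UpperHalfPlane.I
      ((realJB N - algebraMap ℂ (realB N) 1728 : realB N) : ℍ → ℂ) = (2 : ℕ) := by
    rw [coe_jBan_sub]
    exact analyticOrderAt_Jfun_I
  have := exists_place_localProp N UpperHalfPlane.I ModularGroup.S 2
    (realJB N - algebraMap ℂ (realB N) 1728) S_smul_I hprim hord (by norm_num)
  rwa [algebraMap_jBan_sub] at this

/-- The place over `j = 0` (the point `ρ`). -/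
theorem loc_zero_Man (N : ℕ) [NeZero N] :
    ∃ w : Place ℂ (realM N),
      LocalProp (realJ N) (act N (ModularGroup.S * ModularGroup.T)) w := by
  have hd : denom ((ModularGroup.S * ModularGroup.T : SL(2, ℤ)) : GL (Fin 2) ℝ) UpperHalfPlane.ρ =
      (UpperHalfPlane.ρ : ℂ) + 1 := by
    have := ModularGroup.denom_apply (g := ModularGroup.S * ModularGroup.T)
      (z := UpperHalfPlane.ρ)
    rw [this]
    have e10 : ((ModularGroup.S * ModularGroup.T : SL(2, ℤ)) : Matrix (Fin 2) (Fin 2) ℤ) 1 0 = 1 := by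
      rw [Matrix.SpecialLinearGroup.coe_mul, ModularGroup.coe_S, ModularGroup.coe_T]
      simp [Matrix.mul_apply, Fin.sum_univ_two]
    have e11 : ((ModularGroup.S * ModularGroup.T : SL(2, ℤ)) : Matrix (Fin 2) (Fin 2) ℤ) 1 1 = 1 := by
      rw [Matrix.SpecialLinearGroup.coe_mul, ModularGroup.coe_S, ModularGroup.coe_T]
      simp [Matrix.mul_apply, Fin.sum_univ_two]
    rw [e10, e11]
    simp
  have hsq := UpperHalfPlane.ρ_sq
  have hden : denom ((ModularGroup.S * ModularGroup.T : SL(2, ℤ)) : GL (Fin 2) ℝ)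
      UpperHalfPlane.ρ ^ 2 = (UpperHalfPlane.ρ : ℂ) := by
    rw [hd]; linear_combination hsq
  have hρ3 : (UpperHalfPlane.ρ : ℂ) ^ 3 = 1 := by
    linear_combination ((UpperHalfPlane.ρ : ℂ) - 1) * hsq
  have hρ1 : (UpperHalfPlane.ρ : ℂ) ≠ 1 := by
    intro h
    have := congrArg Complex.im h
    have hpos : 0 < (UpperHalfPlane.ρ : ℂ).im := UpperHalfPlane.ρ.2
    rw [Complex.one_im] at this
    exact hpos.ne' this
  have hprim : IsPrimitiveRoot (denom ((ModularGroup.S * ModularGroup.T : SL(2, ℤ)) :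
      GL (Fin 2) ℝ) UpperHalfPlane.ρ ^ 2) 3 := by
    rw [hden]
    refine IsPrimitiveRoot.mk_of_lt _ (by norm_num) hρ3 ?_
    intro l hl0 hl3 hl
    interval_cases l
    · exact hρ1 (by simpa using hl)
    · apply hρ1
      have h2 : (UpperHalfPlane.ρ : ℂ) ^ 3 = (UpperHalfPlane.ρ : ℂ) ^ 2 * (UpperHalfPlane.ρ : ℂ) := by
        ring
      rw [hl, one_mul] at h2
      rw [← h2, hρ3]
  have hord : ordAt UpperHalfPlane.ρ ((realJB N : realB N) : ℍ → ℂ) = (3 : ℕ) :=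
    analyticOrderAt_Jfun_ρ
  exact exists_place_localProp N UpperHalfPlane.ρ (ModularGroup.S * ModularGroup.T) 3
    (realJB N) ST_smul_ρ hprim hord (by norm_num)


end Fermat.Agent.ES1.RealC

end
end ZBES1_003_5

/-! ### bundled: `Fermat.Agent.ES1.RealCusp` -/
section ZBES1_003_6

/-!
# ES₁ / F4, piece P1 (part 4): the place of `realM L` at the cusp `i∞`, property (L) for `T`

* `RealC.isPer_of_mem`, `RealC.meromorphicAt_cuspFn_of_mem` : the elements of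
  `realB N = modFunAlgG Γ(N)` are `N`-periodic and meromorphic in `q_N` at `i∞`
  (NEW proof: `f · Δ ^ m` is a modular form of level `Γ(N)`);
* the rest is a fork of `S24/PlaceCusp.lean`: `RealC.exists_place_inf`.
-/

set_option autoImplicit false
set_option linter.unusedSectionVars false
set_option linter.unusedVariables false

noncomputable section

open Complex Filter Topology UpperHalfPlane Function AlgebraicCurve WithZero CongruenceSubgroup
open scoped MatrixGroups Manifold ModularForm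

namespace Fermat.Agent.ES1.RealC

open Fermat.Agent.S24 Fermat.Agent.S23 Fermat.Agent.ES1

local notation "Δ" => ModularForm.discriminant

/-! ### The elements of `realB N` at the cusp -/

theorem isPer_of_mem {N : ℕ} [NeZero N] {f : ℍ → ℂ} (hf : f ∈ realB N) : IsPer N f := by
  intro τ
  have hT : ModularGroup.T ^ (N : ℤ) ∈ CongruenceSubgroup.Gamma N := by
    simpa using CongruenceSubgroup.ModularGroup_T_pow_mem_Gamma (N : ℤ) (N : ℤ) dvd_rfl
  have := smul_of_mem_realB_of_mem_Gamma hf hT τ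
  rw [modular_T_zpow_smul] at this
  simpa using this

/-- the cusp function (in `q_N`) of a modular form of level `Γ(N)` is meromorphic at `0` -/
theorem meromorphicAt_cuspFn_of_isMF {N : ℕ} [NeZero N] {κ : ℤ} {F : ℍ → ℂ}
    (hF : IsMF (gGL (Gamma N)) κ F) : MeromorphicAt (cuspFn N F) 0 := by
  obtain ⟨G, rfl⟩ := hF
  have hN : (0 : ℝ) < (N : ℝ) := by exact_mod_cast Nat.pos_of_ne_zero (NeZero.ne N)
  have hper : (N : ℝ) ∈ (gGL (Gamma N)).strictPeriods := by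
    rw [CongruenceSubgroup.strictPeriods_Gamma]
    exact AddSubgroup.mem_zmultiples _
  have han : AnalyticAt ℂ (UpperHalfPlane.cuspFunction (N : ℝ) (G : ℍ → ℂ)) 0 :=
    ModularFormClass.analyticAt_cuspFunction_zero G hN hper
  refine han.meromorphicAt.congr ?_
  filter_upwards [self_mem_nhdsWithin] with q hq
  rw [UpperHalfPlane.cuspFunction, Function.Periodic.cuspFunction_eq_of_nonzero _ _ hq]
  rfl

/-- The cusp function of every element of `realB N` is meromorphic at `0`. -/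
theorem meromorphicAt_cuspFn_of_mem {N : ℕ} [NeZero N] {f : ℍ → ℂ} (hf : f ∈ realB N) :
    MeromorphicAt (cuspFn N f) 0 := by
  obtain ⟨m, hm⟩ := hf
  have h1 := meromorphicAt_cuspFn_of_isMF hm
  have h2 : MeromorphicAt (cuspFn N (fun z => Δ z ^ m)) 0 :=
    meromorphicAt_cuspFn_of_isMF ((isMF_discriminantG (Gamma N)).pow m)
  have h3 : cuspFn N f = cuspFn N (fun z => f z * Δ z ^ m) / cuspFn N (fun z => Δ z ^ m) := by
    funext q
    simp only [cuspFn_apply, Pi.div_apply]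
    rw [mul_div_assoc, div_self (pow_ne_zero m (ModularForm.discriminant_ne_zero _)), mul_one]
  rw [h3]
  exact h1.div h2

/-- The cusp function of a nonzero element of `realB N` does not vanish identically near `0`. -/
theorem meromorphicOrderAt_cuspFn_ne_top' {N : ℕ} [NeZero N] {f : ℍ → ℂ} (hf : f ∈ realB N)
    (hf0 : f ≠ 0) : meromorphicOrderAt (cuspFn N f) 0 ≠ ⊤ := by
  intro h
  rw [meromorphicOrderAt_eq_top_iff] at h
  exact hf0 (eq_zero_of_cuspFn_eventually_zero (Nat.pos_of_ne_zero (NeZero.ne N))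
    (es1r_mdiff hf) (isPer_of_mem hf) h)

/-! ### The order at `i∞` on `realB N` -/

/-- The order at `i∞` (in `q_N`) of `b ∈ realB N`. -/
def ordInf (N : ℕ) [NeZero N] (b : realB N) : WithTop ℤ := meromorphicOrderAt (cuspFn N (b : ℍ → ℂ)) 0

theorem ordInf_zero (N : ℕ) [NeZero N] : ordInf N 0 = ⊤ := by
  rw [ordInf, meromorphicOrderAt_eq_top_iff]
  exact Eventually.of_forall fun q => rfl

theorem ordInf_one (N : ℕ) [NeZero N] : ordInf N 1 = 0 := by
  have h : cuspFn N ((1 : realB N) : ℍ → ℂ) = fun _ => (1 : ℂ) := rfl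
  rw [ordInf, h]
  classical
  rw [meromorphicOrderAt_const]
  simp

theorem ordInf_mul {N : ℕ} [NeZero N] (hN : 0 < N) (a b : realB N) :
    ordInf N (a * b) = ordInf N a + ordInf N b := by
  have h : cuspFn N ((a * b : realB N) : ℍ → ℂ) = cuspFn N a * cuspFn N b := rfl
  rw [ordInf, h]
  exact meromorphicOrderAt_mul (meromorphicAt_cuspFn_of_mem a.2)
    (meromorphicAt_cuspFn_of_mem b.2)

theorem ordInf_add {N : ℕ} [NeZero N] (hN : 0 < N) (a b : realB N) :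
    min (ordInf N a) (ordInf N b) ≤ ordInf N (a + b) := by
  have h : cuspFn N ((a + b : realB N) : ℍ → ℂ) = cuspFn N a + cuspFn N b := rfl
  rw [ordInf, ordInf, ordInf, h]
  exact meromorphicOrderAt_add (meromorphicAt_cuspFn_of_mem a.2)
    (meromorphicAt_cuspFn_of_mem b.2)

theorem ordInf_ne_top {N : ℕ} [NeZero N] (hN : 0 < N) {b : realB N} (hb : b ≠ 0) : ordInf N b ≠ ⊤ :=
  meromorphicOrderAt_cuspFn_ne_top' b.2 (fun h => hb (Subtype.ext h))

theorem ordInf_algebraMap {N : ℕ} [NeZero N] (c : ℂ) (hc : c ≠ 0) :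
    ordInf N (algebraMap ℂ (realB N) c) = 0 := by
  have h : cuspFn N ((algebraMap ℂ (realB N) c : realB N) : ℍ → ℂ) = fun _ => c := rfl
  rw [ordInf, h]
  classical
  rw [meromorphicOrderAt_const]
  have : c ≠ 0 := by simpa using hc
  simp [this]

theorem ordInf_jBan {N : ℕ} [NeZero N] (hN : 0 < N) : ordInf N (realJB N) = ((-(N : ℤ) : ℤ) : WithTop ℤ) :=
  meromorphicOrderAt_cuspFn_Jfun hN

/-- The valuation at `i∞` on `realB N`. -/
def vBan (N : ℕ) [NeZero N] : Valuation (realB N) ℤᵐ⁰ :=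
  valuationOfOrd (ordInf N) (ordInf_zero N) (ordInf_one N)
    (ordInf_mul (Nat.pos_of_ne_zero (NeZero.ne N))) (ordInf_add (Nat.pos_of_ne_zero (NeZero.ne N)))

theorem vBan_apply (N : ℕ) [NeZero N] (b : realB N) : vBan N b = expNegTop (ordInf N b) := rfl

theorem vBan_ne_zero (N : ℕ) [NeZero N] {b : realB N} (hb : b ≠ 0) : vBan N b ≠ 0 := by
  rw [vBan_apply, Ne, expNegTop_eq_zero_iff]
  exact ordInf_ne_top (Nat.pos_of_ne_zero (NeZero.ne N)) hb

theorem nonZeroDivisors_le_supp_vBan (N : ℕ) [NeZero N] :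
    nonZeroDivisors (realB N) ≤ (vBan N).supp.primeCompl := by
  intro b hb
  have hb0 : b ≠ 0 := nonZeroDivisors.ne_zero hb
  show b ∉ (vBan N).supp
  rw [Valuation.mem_supp_iff]
  exact vBan_ne_zero N hb0

/-- The valuation at `i∞` on `realM N`. -/
def vInf (N : ℕ) [NeZero N] : Valuation (realM N) ℤᵐ⁰ :=
  (vBan N).extendToLocalization (nonZeroDivisors_le_supp_vBan N) (realM N)

@[simp] theorem vInf_algebraMap (N : ℕ) [NeZero N] (b : realB N) :
    vInf N (algebraMap (realB N) (realM N) b) = vBan N b :=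
  Valuation.extendToLocalization_apply_map_apply _ _ _ b

theorem vord_vInf_algebraMap (N : ℕ) [NeZero N] {b : realB N} (hb : b ≠ 0) :
    vord (vInf N) (algebraMap (realB N) (realM N) b) = (ordInf N b).untop₀ := by
  rw [vord, vInf_algebraMap, vBan_apply]
  obtain ⟨n, hn⟩ := WithTop.ne_top_iff_exists.mp
    (ordInf_ne_top (Nat.pos_of_ne_zero (NeZero.ne N)) hb)
  rw [← hn]
  simp

theorem vInf_algebraMap_Kb_le (N : ℕ) [NeZero N] (c : ℂ) :
    vInf N (algebraMap ℂ (realM N) c) ≤ 1 := by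
  rw [IsScalarTower.algebraMap_apply ℂ (realB N) (realM N), vInf_algebraMap, vBan_apply]
  rcases eq_or_ne c 0 with rfl | hc
  · rw [map_zero, ordInf_zero, expNegTop_top]
    exact zero_le_one
  · rw [ordInf_algebraMap c hc]
    have : ((0 : ℤ) : WithTop ℤ) = 0 := rfl
    rw [← this, expNegTop_coe]
    simp

theorem jBan_ne_zero (N : ℕ) [NeZero N] : realJB N ≠ 0 := by
  intro h
  have h1 := ordInf_jBan (N := N) (Nat.pos_of_ne_zero (NeZero.ne N))
  rw [h, ordInf_zero] at h1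
  exact WithTop.top_ne_coe h1

theorem jMan_ne_zero (N : ℕ) [NeZero N] : realJ N ≠ 0 := by
  rw [realJ, Ne, map_eq_zero_iff _ (IsFractionRing.injective (realB N) (realM N))]
  exact jBan_ne_zero N

theorem vord_vInf_jMan (N : ℕ) [NeZero N] : vord (vInf N) (realJ N) = -(N : ℤ) := by
  rw [realJ, vord_vInf_algebraMap N (jBan_ne_zero N),
    ordInf_jBan (Nat.pos_of_ne_zero (NeZero.ne N))]
  simp

theorem vord_vInf_jMan_inv (N : ℕ) [NeZero N] : vord (vInf N) (realJ N)⁻¹ = (N : ℤ) := by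
  rw [vord_inv, vord_vInf_jMan, neg_neg]

/-! ### The action of `T` -/

theorem qParam_add (h : ℝ) (x y : ℂ) :
    Function.Periodic.qParam h (x + y) = Function.Periodic.qParam h x * Function.Periodic.qParam h y := by
  simp only [Function.Periodic.qParam]
  rw [← Complex.exp_add]
  congr 1
  ring

/-- The rotation factor of `T ^ k`: `exp (- 2 π i k / N)`. -/
def rotT (N k : ℕ) : ℂ := Function.Periodic.qParam (N : ℝ) (-(k : ℂ))

theorem rotT_ne_zero (N k : ℕ) : rotT N k ≠ 0 := Function.Periodic.qParam_ne_zero _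

theorem cuspFn_precomp_T_pow {N : ℕ} [NeZero N] (hN : 0 < N) {f : ℍ → ℂ} (hf : IsPer N f) (k : ℕ) :
    ∀ᶠ q in 𝓝[≠] (0 : ℂ),
      cuspFn N (precompC (ModularGroup.T ^ k) f) q = cuspFn N f (rotT N k * q) := by
  filter_upwards [eventually_punctured_disc] with q hq
  set τ : ℍ := ofComplex (Function.Periodic.invQParam (N : ℝ) q) with hτ
  have hqτ : Function.Periodic.qParam (N : ℝ) (τ : ℂ) = q :=
    qParam_ofComplex_invQParam hN hq.1 hq.2
  have e1 : ((ModularGroup.T ^ k : SL(2, ℤ)))⁻¹ • τ = ((-(k : ℤ) : ℤ) : ℝ) +ᵥ τ := by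
    rw [← modular_T_zpow_smul, zpow_neg, zpow_natCast]
  have e2 : rotT N k * q
      = Function.Periodic.qParam (N : ℝ) ((((-(k : ℤ) : ℤ) : ℝ) +ᵥ τ : ℍ) : ℂ) := by
    rw [coe_vadd, qParam_add, hqτ, rotT]
    congr 2
    push_cast
    rfl
  rw [cuspFn_apply, ← hτ, precompC_apply, e1, e2, cuspFn_qParam hN hf]

theorem ordInf_actBan_T_pow (N : ℕ) [NeZero N] (k : ℕ) (b : realB N) :
    ordInf N (actB N (ModularGroup.T ^ k) b) = ordInf N b := by
  have hN : 0 < N := Nat.pos_of_ne_zero (NeZero.ne N)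
  have h := cuspFn_precomp_T_pow hN (isPer_of_mem b.2) k
  rw [ordInf, ordInf, actB_coe, meromorphicOrderAt_congr h,
    meromorphicOrderAt_comp_mul_zero _ (rotT_ne_zero N k)]

theorem vInf_act_T_pow (N : ℕ) [NeZero N] (k : ℕ) (m : realM N) :
    vInf N (act N (ModularGroup.T ^ k) m) = vInf N m := by
  obtain ⟨a, b, hb, rfl⟩ := IsFractionRing.div_surjective (A := realB N) m
  simp only [map_div₀, act_algebraMap, vInf_algebraMap, vBan_apply, ordInf_actBan_T_pow]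

theorem vInf_act_T (N : ℕ) [NeZero N] (m : realM N) :
    vInf N (act N ModularGroup.T m) = vInf N m := by
  simpa using vInf_act_T_pow N 1 m

/-! ### Property (L) -/

theorem dvd_of_rotT_zpow_eq_one {N : ℕ} [NeZero N] (hN : 0 < N) (k : ℕ) (n : ℤ) (h : rotT N k ^ n = 1) :
    (N : ℤ) ∣ (k : ℤ) * n := by
  rw [rotT, Function.Periodic.qParam, ← Complex.exp_int_mul, Complex.exp_eq_one_iff] at h
  obtain ⟨m, hm⟩ := h
  have hN' : ((N : ℝ) : ℂ) ≠ 0 := by exact_mod_cast hN.ne'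
  have h2 : (2 * (Real.pi : ℂ) * Complex.I) ≠ 0 := Complex.two_pi_I_ne_zero
  have h3 : ((n : ℂ) * (-(k : ℂ))) = (m : ℂ) * (N : ℂ) := by
    have hN'' : (N : ℂ) ≠ 0 := by exact_mod_cast hN.ne'
    have e : (n : ℂ) * (2 * (Real.pi : ℂ) * Complex.I * (-(k : ℂ)) / ((N : ℝ) : ℂ))
        = ((n : ℂ) * (-(k : ℂ)) / (N : ℂ)) * (2 * (Real.pi : ℂ) * Complex.I) := by
      push_cast; ring
    rw [e] at hm
    have := mul_right_cancel₀ h2 hm
    field_simp at this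
    linear_combination this
  have h4 : n * (-(k : ℤ)) = m * (N : ℤ) := by exact_mod_cast h3
  exact ⟨-m, by linear_combination -h4⟩

/-- Analytic core of (L): a `T^k`-invariant element of `realM N` has order at `i∞` with
`N ∣ k · ord`. -/
theorem dvd_vord_of_act_T_pow_eq (N : ℕ) [NeZero N] (k : ℕ) {m : realM N} (hm : m ≠ 0)
    (h : act N (ModularGroup.T ^ k) m = m) : (N : ℤ) ∣ (k : ℤ) * vord (vInf N) m := by
  have hN : 0 < N := Nat.pos_of_ne_zero (NeZero.ne N)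
  obtain ⟨a, b, hb, rfl⟩ := IsFractionRing.div_surjective (A := realB N) m
  have hb0 : b ≠ 0 := nonZeroDivisors.ne_zero hb
  have ha0 : a ≠ 0 := by
    rintro rfl
    simp at hm
  have hinj := IsFractionRing.injective (realB N) (realM N)
  have hb' : algebraMap (realB N) (realM N) b ≠ 0 := by
    rwa [Ne, map_eq_zero_iff _ hinj]
  have ha' : algebraMap (realB N) (realM N) a ≠ 0 := by
    rwa [Ne, map_eq_zero_iff _ hinj]
  have hTb0 : actB N (ModularGroup.T ^ k) b ≠ 0 := by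
    rw [Ne, map_eq_zero_iff _ (actB N (ModularGroup.T ^ k)).injective]
    exact hb0
  have hTb' : algebraMap (realB N) (realM N) (actB N (ModularGroup.T ^ k) b) ≠ 0 := by
    rwa [Ne, map_eq_zero_iff _ hinj]
  -- the relation in `realB N`
  have hrel : actB N (ModularGroup.T ^ k) a * b = a * actB N (ModularGroup.T ^ k) b := by
    apply hinj
    rw [map_div₀, act_algebraMap, act_algebraMap, div_eq_div_iff hTb' hb'] at h
    rw [map_mul, map_mul, h]
  -- as functions of `q`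
  set A : ℂ → ℂ := cuspFn N (a : ℍ → ℂ) with hA
  set B : ℂ → ℂ := cuspFn N (b : ℍ → ℂ) with hB
  set c : ℂ := rotT N k with hc
  have hc0 : c ≠ 0 := rotT_ne_zero N k
  have hAm : MeromorphicAt A 0 := meromorphicAt_cuspFn_of_mem a.2
  have hBm : MeromorphicAt B 0 := meromorphicAt_cuspFn_of_mem b.2
  have hAtop : meromorphicOrderAt A 0 ≠ ⊤ := ordInf_ne_top hN ha0
  have hBtop : meromorphicOrderAt B 0 ≠ ⊤ := ordInf_ne_top hN hb0
  have hrelq : ∀ q, cuspFn N (precompC (ModularGroup.T ^ k) (a : ℍ → ℂ)) q * B q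
      = A q * cuspFn N (precompC (ModularGroup.T ^ k) (b : ℍ → ℂ)) q := by
    intro q
    have := congrArg (fun f : realB N => cuspFn N (f : ℍ → ℂ) q) hrel
    exact this
  have hA' := cuspFn_precomp_T_pow hN (isPer_of_mem a.2) k
  have hB' := cuspFn_precomp_T_pow hN (isPer_of_mem b.2) k
  have hBne : ∀ᶠ q in 𝓝[≠] (0 : ℂ), B q ≠ 0 :=
    (meromorphicOrderAt_ne_top_iff_eventually_ne_zero hBm).mp hBtop
  have hBcm : MeromorphicAt (fun q => B (c * q)) 0 := meromorphicAt_comp_mul_zero hBm c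
  have hBcne : ∀ᶠ q in 𝓝[≠] (0 : ℂ), B (c * q) ≠ 0 := by
    have : meromorphicOrderAt (fun q => B (c * q)) 0 ≠ ⊤ := by
      rw [meromorphicOrderAt_comp_mul_zero _ hc0]; exact hBtop
    exact (meromorphicOrderAt_ne_top_iff_eventually_ne_zero hBcm).mp this
  -- the quotient
  set Φ : ℂ → ℂ := A / B with hΦ
  have hΦm : MeromorphicAt Φ 0 := hAm.div hBm
  obtain ⟨na, hna⟩ := WithTop.ne_top_iff_exists.mp hAtop
  obtain ⟨nb, hnb⟩ := WithTop.ne_top_iff_exists.mp hBtop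
  have hΦord : meromorphicOrderAt Φ 0 = ((na - nb : ℤ) : WithTop ℤ) := by
    rw [hΦ, meromorphicOrderAt_div hAm hBm, ← hna, ← hnb]
    rfl
  have hΦtop : meromorphicOrderAt Φ 0 ≠ ⊤ := by
    rw [hΦord]; exact WithTop.coe_ne_top
  have hinv : ∀ᶠ q in 𝓝[≠] (0 : ℂ), Φ (c * q) = Φ q := by
    filter_upwards [hA', hB', hBne, hBcne] with q h1 h2 h3 h4
    have := hrelq q
    rw [h1, h2] at this
    simp only [hΦ, Pi.div_apply]
    rw [div_eq_div_iff h4 h3]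
    exact this
  have key := zpow_order_eq_one_of_comp_mul hc0 hΦm hΦtop hinv
  rw [hΦord, WithTop.untop₀_coe] at key
  have hdvd := dvd_of_rotT_zpow_eq_one hN k (na - nb) key
  have hv : vord (vInf N) (algebraMap (realB N) (realM N) a / algebraMap (realB N) (realM N) b)
      = na - nb := by
    rw [div_eq_mul_inv, vord_mul _ ha' (inv_ne_zero hb'), vord_inv,
      vord_vInf_algebraMap N ha0, vord_vInf_algebraMap N hb0]
    have e1 : ordInf N a = (na : WithTop ℤ) := hna.symm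
    have e2 : ordInf N b = (nb : WithTop ℤ) := hnb.symm
    rw [e1, e2]
    simp
    ring
  rw [hv]
  exact hdvd

/-- **P5c**: the place of `realM N` at the cusp `i∞`, with property (L) for `T`. -/
theorem exists_place_inf (N : ℕ) [NeZero N] :
    ∃ w : Place ℂ (realM N), LocalProp (realJ N)⁻¹ (act N ModularGroup.T) w := by
  have hN : 0 < N := Nat.pos_of_ne_zero (NeZero.ne N)
  have hx0 : (realJ N)⁻¹ ≠ 0 := inv_ne_zero (jMan_ne_zero N)
  have hxv : vord (vInf N) (realJ N)⁻¹ = (N : ℤ) := vord_vInf_jMan_inv N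
  have hxlt : vInf N (realJ N)⁻¹ < 1 := by
    rw [lt_one_iff_vord_pos _ hx0, hxv]
    exact_mod_cast hN
  obtain ⟨w, e₀, he₀, hw, hord⟩ := exists_place_of_valuation (K := ℂ) (vInf N)
    (vInf_algebraMap_Kb_le N) ⟨_, hx0, hxlt⟩
  have hwx : (N : ℤ) = e₀ * w.ord (realJ N)⁻¹ := by rw [← hord _ hx0, hxv]
  refine ⟨w, ?_, ?_, ?_⟩
  · -- positivity
    have : 0 < e₀ * w.ord (realJ N)⁻¹ := by rw [← hwx]; exact_mod_cast hN
    exact (mul_pos_iff_of_pos_left he₀).mp this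
  · -- `T`-stability
    apply Place.ext
    rw [Place.smul_toValuationSubring, hw]
    ext x
    rw [ValuationSubring.mem_pointwise_smul_iff_inv_smul_mem, Valuation.mem_valuationSubring_iff,
      Valuation.mem_valuationSubring_iff]
    have h1 := vInf_act_T N ((act N ModularGroup.T)⁻¹ • x)
    have h2 : act N ModularGroup.T ((act N ModularGroup.T)⁻¹ • x) = x := by
      show (act N ModularGroup.T) ((act N ModularGroup.T)⁻¹ x) = x
      rw [← AlgEquiv.mul_apply, mul_inv_cancel, AlgEquiv.one_apply]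
    rw [h2] at h1
    rw [h1]
  · -- (L)
    intro m k hk
    rcases eq_or_ne m 0 with rfl | hm
    · simp
    · rw [← map_pow] at hk
      have h1 := dvd_vord_of_act_T_pow_eq N k hm hk
      rw [hord m hm, hwx] at h1
      have h2 : e₀ * w.ord (realJ N)⁻¹ ∣ e₀ * ((k : ℤ) * w.ord m) := by
        convert h1 using 1; ring
      exact Int.dvd_of_mul_dvd_mul_left he₀.ne' h2


end Fermat.Agent.ES1.RealC

end
end ZBES1_003_6

/-! ### bundled: `Fermat.Agent.ES1.RealFixed` -/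
section ZBES1_003_7

/-!
# ES₁ / F4, piece P1 (part 2): the fixed field of `SL(2, ℤ)` on `realM L` is `ℂ(J)`

* `RealC.exists_poly_of_invariant` : an `SL(2, ℤ)`-invariant element of `realB L` is a polynomial
  in `J` (level one modular functions are polynomials in `J`);
* `RealC.fixed_mem_adjoin` : an element of `realM L` fixed by `SL(2, ℤ)` lies in `ℂ(J)`
  (norm trick, fork of `S24/Fixed.lean`).
-/

set_option autoImplicit false

noncomputable section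

open UpperHalfPlane CongruenceSubgroup IntermediateField
open scoped MatrixGroups Manifold ModularForm Polynomial

namespace Fermat.Agent.ES1.RealC

open Fermat.Agent.S24 Fermat.Agent.S28 Fermat.Agent.ES1

/-- a modular function of level one is a polynomial in `J` -/
theorem exists_poly_of_levelOne {f : ℍ → ℂ} (hf : IsModFun 1 f) :
    ∃ p : ℂ[X], ∀ τ : ℍ, f τ = p.eval (Jfun τ) := by
  obtain ⟨Φ, hΦm, hΦd, hΦ⟩ := IsModFun.exists_normPoly (N := 1) hf
  have hd : Φ.natDegree = 1 := by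
    rw [hΦd, cosetCard_eq_dedekindPsi, ModularCurve.dedekindPsi_one]
  have hΦeq : Φ = Polynomial.X + Polynomial.C (Φ.coeff 0) := hΦm.eq_X_add_C hd
  refine ⟨-(Φ.coeff 0), fun τ => ?_⟩
  have h := hΦ τ
  rw [hΦeq, Polynomial.eval₂_add, Polynomial.eval₂_X, Polynomial.eval₂_C] at h
  have : (Polynomial.evalRingHom (Jfun τ)) (Φ.coeff 0) = (Φ.coeff 0).eval (Jfun τ) := rfl
  rw [this] at h
  rw [Polynomial.eval_neg]
  linear_combination h

variable (L : ℕ) [NeZero L]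

/-- Evaluation at `τ`, as a `ℂ`-algebra homomorphism `realB L → ℂ`. -/
def evalB (τ : ℍ) : realB L →ₐ[ℂ] ℂ :=
  (Pi.evalAlgHom ℂ (fun _ : ℍ => ℂ) τ).comp (realB L).val

theorem evalB_apply (τ : ℍ) (f : realB L) : evalB L τ f = (f : ℍ → ℂ) τ := rfl

theorem aeval_realJB_apply (p : ℂ[X]) (τ : ℍ) :
    ((Polynomial.aeval (realJB L) p : realB L) : ℍ → ℂ) τ = p.eval (Jfun τ) := by
  rw [← evalB_apply, ← Polynomial.aeval_algHom_apply, evalB_apply, realJB_coe,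
    Polynomial.aeval_def, Polynomial.eval₂_eq_eval_map]
  simp

/-- An element of `realB L` fixed by `SL(2,ℤ)` is a polynomial in `J`. -/
theorem actB_fixed_eq_aeval (f : realB L) (hf : ∀ γ, actB L γ f = f) :
    ∃ p : ℂ[X], f = Polynomial.aeval (realJB L) p := by
  have hinv : ∀ γ : SL(2, ℤ), ∀ τ : ℍ, (f : ℍ → ℂ) (γ • τ) = (f : ℍ → ℂ) τ := by
    intro γ τ
    have h := congrArg (fun g : realB L => (g : ℍ → ℂ) τ) (hf γ⁻¹)
    simp only [actB_apply_apply, inv_inv] at h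
    exact h
  have h1 : IsModFunG (Gamma0 1) (f : ℍ → ℂ) :=
    IsModFunG.of_invariant (Γ := Gamma L) (Γ' := Gamma0 1) f.2 (fun γ _ τ => hinv γ τ)
  obtain ⟨p, hp⟩ := exists_poly_of_levelOne ((isModFunG_gamma0_iff 1 _).mp h1)
  refine ⟨p, Subtype.ext (funext fun τ => ?_)⟩
  rw [aeval_realJB_apply]
  exact hp τ

theorem algebraMap_aeval_realJB (p : ℂ[X]) :
    algebraMap (realB L) (realM L) (Polynomial.aeval (realJB L) p) =
      Polynomial.aeval (realJ L) p := by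
  rw [realJ, ← Polynomial.aeval_algebraMap_apply]

/-- The field of invariants of `SL(2,ℤ)` on `realM L` is `ℂ(J)`. -/
theorem fixed_mem_adjoin (m : realM L) (hm : ∀ γ, act L γ m = m) :
    m ∈ ℂ⟮realJ L⟯ := by
  classical
  have : Finite (act L).range := finite_range_act L
  have : Fintype (act L).range := Fintype.ofFinite _
  obtain ⟨a, b, hb, rfl⟩ := IsFractionRing.div_surjective (A := realB L) m
  have hb0 : b ≠ 0 := nonZeroDivisors.ne_zero hb
  have hbM : algebraMap (realB L) (realM L) b ≠ 0 := by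
    rwa [Ne, IsFractionRing.to_map_eq_zero_iff]
  -- the image of `realB L` in `realM L`
  set B' : Subring (realM L) := (algebraMap (realB L) (realM L)).range with hB'
  have hstable : ∀ σ : (act L).range, ∀ x ∈ B', (σ : realM L ≃ₐ[ℂ] realM L) x ∈ B' := by
    rintro ⟨_, γ, rfl⟩ _ ⟨y, rfl⟩
    exact ⟨actB L γ y, (act_algebraMap L γ y).symm⟩
  set bM := algebraMap (realB L) (realM L) b with hbMdef
  set P : realM L := ∏ σ : (act L).range, (σ : realM L ≃ₐ[ℂ] realM L) bM with hP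
  set Q : realM L := ∏ σ ∈ (Finset.univ.erase (1 : (act L).range)),
    (σ : realM L ≃ₐ[ℂ] realM L) bM with hQ
  have hPQ : bM * Q = P := by
    have := Finset.mul_prod_erase (Finset.univ : Finset (act L).range)
      (fun σ => (σ : realM L ≃ₐ[ℂ] realM L) bM) (Finset.mem_univ 1)
    simpa using this
  have hQmem : Q ∈ B' :=
    Subring.prod_mem _ fun σ _ => hstable σ _ ⟨b, rfl⟩
  have hPmem : P ∈ B' := by
    rw [← hPQ]; exact Subring.mul_mem _ ⟨b, rfl⟩ hQmem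
  have hP0 : P ≠ 0 := by
    rw [hP, Finset.prod_ne_zero_iff]
    intro σ _
    exact (map_ne_zero_iff _ (AlgEquiv.injective _)).mpr hbM
  have hPinv : ∀ γ, act L γ P = P := by
    intro γ
    rw [hP, map_prod]
    let τ : (act L).range := ⟨act L γ, γ, rfl⟩
    refine Fintype.prod_equiv (Equiv.mulLeft τ) _ _ fun σ => ?_
    rfl
  -- numerator
  set n : realM L := algebraMap (realB L) (realM L) a * Q with hn
  have hnmem : n ∈ B' := Subring.mul_mem _ ⟨a, rfl⟩ hQmem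
  have hmn : algebraMap (realB L) (realM L) a / bM = n / P := by
    rw [hn, ← hPQ]
    have hQ0 : Q ≠ 0 := by
      intro h
      rw [← hPQ, h, mul_zero] at hP0
      exact hP0 rfl
    field_simp
  have hninv : ∀ γ, act L γ n = n := by
    intro γ
    have h1 : n = (algebraMap (realB L) (realM L) a / bM) * P := by
      rw [hmn]; field_simp
    rw [h1, map_mul, hm γ, hPinv γ]
  obtain ⟨n₀, hn₀⟩ := hnmem
  obtain ⟨P₀, hP₀⟩ := hPmem
  have hinj : Function.Injective (algebraMap (realB L) (realM L)) := IsFractionRing.injective _ _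
  have hn₀inv : ∀ γ, actB L γ n₀ = n₀ := fun γ => hinj <| by
    rw [← act_algebraMap, hn₀, hninv γ]
  have hP₀inv : ∀ γ, actB L γ P₀ = P₀ := fun γ => hinj <| by
    rw [← act_algebraMap, hP₀, hPinv γ]
  obtain ⟨p, hp⟩ := actB_fixed_eq_aeval L n₀ hn₀inv
  obtain ⟨q, hq⟩ := actB_fixed_eq_aeval L P₀ hP₀inv
  rw [hmn, ← hn₀, ← hP₀, hp, hq, algebraMap_aeval_realJB, algebraMap_aeval_realJB]
  have haeval : ∀ r : ℂ[X], Polynomial.aeval (realJ L) r ∈ ℂ⟮realJ L⟯ := fun r => by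
    have := Polynomial.aeval_mem_adjoin_singleton ℂ (realJ L) (p := r)
    exact IntermediateField.algebra_adjoin_le_adjoin ℂ _ this
  exact div_mem (haeval p) (haeval q)

end Fermat.Agent.ES1.RealC

end
end ZBES1_003_7

/-! ### bundled: `Fermat.Agent.ES1.RealRam` -/
section ZBES1_003_8

/-!
# ES₁ / F4, piece P3: ramification over the `j`-line of every field embedded in `realM L`

`F` a field over `ℂ`, `φ : F →ₐ[ℂ] realM L`, `φ j = J`.  Then `F` is finite over `ℂ(j)` and, for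
every place `v` of `F`:
`ord_v j ∣ 3`, `ord_v (j - 1728) ∣ 2`, `ord_v (j - c) = 1`, `ord_v j⁻¹ ∣ L` (when positive).

Only the trivial part of the stabiliser is used (`±Γ(L)` acts trivially on `realM L`).
Fork of `INJ/RamJ.lean`.

* `RealC.ramJC_of_emb`, `stmtRamJC_of : StmtRealEmb → StmtRamJC`.
-/

set_option autoImplicit false

open AlgebraicCurve IntermediateField CongruenceSubgroup UpperHalfPlane
open scoped MatrixGroups

namespace Fermat.Agent.ES1.RealC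

open Fermat.Agent.S24 Fermat.Agent.ES1

theorem es1r_S_sq : (ModularGroup.S) ^ 2 = (-1 : SL(2, ℤ)) := by
  ext i j
  fin_cases i <;> fin_cases j <;>
    simp [ModularGroup.S, pow_two, Matrix.mul_apply, Fin.sum_univ_two]

theorem es1r_ST_cube : (ModularGroup.S * ModularGroup.T) ^ 3 = (-1 : SL(2, ℤ)) := by
  ext i j
  fin_cases i <;> fin_cases j <;>
    simp [ModularGroup.S, ModularGroup.T, pow_succ, Matrix.mul_apply, Fin.sum_univ_two]

theorem es1r_T_pow_mem (L : ℕ) : ModularGroup.T ^ L ∈ Gamma L := by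
  have := CongruenceSubgroup.ModularGroup_T_pow_mem_Gamma (L : ℤ) (L : ℤ) dvd_rfl
  simpa using this

section Generic

variable (L : ℕ) [NeZero L]

/-- `J` is transcendental over `ℂ` in `realM L`. -/
theorem transcendental_realJ : Transcendental ℂ (realJ L) := by
  rw [Transcendental, isAlgebraic_iff_not_injective, not_not]
  rw [injective_iff_map_eq_zero]
  intro p hp
  have h1 : algebraMap (realB L) (realM L) (Polynomial.aeval (realJB L) p) = 0 := by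
    rw [algebraMap_aeval_realJB]; exact hp
  have h2 : Polynomial.aeval (realJB L) p = 0 :=
    (IsFractionRing.injective (realB L) (realM L)) (by rw [h1, map_zero])
  apply Polynomial.funext
  intro z
  obtain ⟨τ, rfl⟩ := Jfun_surjective z
  rw [← aeval_realJB_apply L p τ, h2, Polynomial.eval_zero]
  rfl

variable {L} {F : Type} [Field F] [Algebra ℂ F] (φ : F →ₐ[ℂ] realM L) {j : F}

include φ in
theorem transcendental_of_emb (hφj : φ j = realJ L) : Transcendental ℂ j := by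
  intro halg
  apply transcendental_realJ L
  rw [← hφj]
  exact IsAlgebraic.algHom φ halg

include φ in
/-- `F` is finite over `ℂ(j)`. -/
theorem finite_of_emb (hφj : φ j = realJ L) : FiniteDimensional ℂ⟮j⟯ F := by
  haveI := finite_range_act L
  exact finiteDimensional_adjoin_of_fixed φ (act L) j
    (fun m hm => by rw [hφj]; exact fixed_mem_adjoin L m hm)

include φ in
/-- Generic form: if `ε ^ k` acts trivially, every place over `x = 0` has `ord_v x ∣ k`. -/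
theorem ord_dvd_of_loc (hφj : φ j = realJ L)
    (x : F) (hx : Transcendental ℂ x) (hxj : x ∈ ℂ⟮j⟯) (hjx : j ∈ ℂ⟮x⟯)
    (ε : SL(2, ℤ)) (hloc : ∃ w : Place ℂ (realM L), LocalProp (φ x) (act L ε) w)
    (k : ℕ) (hk : act L (ε ^ k) = 1)
    (v : Place ℂ F) (hv : 0 < v.ord x) : v.ord x ∣ (k : ℤ) := by
  classical
  obtain ⟨w, hw, -, hL⟩ := hloc
  have : Finite (act L).range := finite_range_act L
  have hKeq : ℂ⟮x⟯ = ℂ⟮j⟯ := by
    apply le_antisymm
    · rw [IntermediateField.adjoin_simple_le_iff]; exact hxj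
    · rw [IntermediateField.adjoin_simple_le_iff]; exact hjx
  have hfdj : FiniteDimensional ℂ⟮j⟯ F := finite_of_emb φ hφj
  have hfd : FiniteDimensional ℂ⟮x⟯ F := by
    rw [hKeq]; exact hfdj
  have hact_j : ∀ γ, act L γ (φ j) = φ j := fun γ => by rw [hφj]; exact act_realJ L γ
  have hfixed : ∀ m : realM L, (∀ γ, act L γ m = m) → m ∈ ℂ⟮φ j⟯ :=
    fun m hm => by rw [hφj]; exact fixed_mem_adjoin L m hm
  have hfix : ∀ γ, act L γ (φ x) = φ x :=
    fun γ => act_fix_of_mem_adjoin φ (act L) hact_j hxj γ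
  have hfacts := intClosure_facts (K := ℂ) x hx
  obtain ⟨g, rfl⟩ := exists_restrPlace_eq φ (act L) hfixed w hjx hw hfix
    (fun v S' hv hvS hS' => exists_ord_neg_of x hfacts v S' hv hvS hS') v hv
  refine restrPlace_ord_dvd φ (act L) w hw hfix ε g hL k (fun f => ?_)
  rw [map_mul, map_mul, hk, mul_one, ← map_mul, inv_mul_cancel, map_one]
  rfl

include φ in
theorem ram_zero (hφj : φ j = realJ L) (v : Place ℂ F) (hv : 0 < v.ord j) : v.ord j ∣ 3 := by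
  have htr := transcendental_of_emb φ hφj
  have hloc : ∃ w : Place ℂ (realM L),
      LocalProp (φ j) (act L (ModularGroup.S * ModularGroup.T)) w := by
    rw [hφj]; exact loc_zero_Man L
  have h := ord_dvd_of_loc φ hφj j htr (mem_adjoin_simple_self ℂ j) (mem_adjoin_simple_self ℂ j)
    (ModularGroup.S * ModularGroup.T) hloc 3 (by rw [es1r_ST_cube]; exact act_neg_one L) v hv
  exact_mod_cast h

include φ in
theorem ram_1728 (hφj : φ j = realJ L) (v : Place ℂ F)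
    (hv : 0 < v.ord (j - algebraMap ℂ F 1728)) : v.ord (j - algebraMap ℂ F 1728) ∣ 2 := by
  have htr := transcendental_of_emb φ hφj
  have hloc : ∃ w : Place ℂ (realM L),
      LocalProp (φ (j - algebraMap ℂ F 1728)) (act L ModularGroup.S) w := by
    rw [map_sub, hφj, AlgHom.commutes]; exact loc_1728_Man L
  have h := ord_dvd_of_loc φ hφj (j - algebraMap ℂ F 1728)
    (transcendental_sub_algebraMap htr 1728) (sub_algebraMap_mem_adjoin j 1728)
    (mem_adjoin_sub_algebraMap j 1728) ModularGroup.S hloc 2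
    (by rw [es1r_S_sq]; exact act_neg_one L) v hv
  exact_mod_cast h

include φ in
theorem ram_gen (hφj : φ j = realJ L) (c : ℂ) (hc0 : c ≠ 0) (hc : c ≠ 1728) (v : Place ℂ F)
    (hv : 0 < v.ord (j - algebraMap ℂ F c)) : v.ord (j - algebraMap ℂ F c) = 1 := by
  have htr := transcendental_of_emb φ hφj
  have hloc : ∃ w : Place ℂ (realM L),
      LocalProp (φ (j - algebraMap ℂ F c)) (act L 1) w := by
    rw [map_sub, hφj, AlgHom.commutes]; exact loc_gen_Man L c hc0 hc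
  have h := ord_dvd_of_loc φ hφj (j - algebraMap ℂ F c)
    (transcendental_sub_algebraMap htr c) (sub_algebraMap_mem_adjoin j c)
    (mem_adjoin_sub_algebraMap j c) 1 hloc 1 (by simp) v hv
  have h1 : v.ord (j - algebraMap ℂ F c) ∣ 1 := by exact_mod_cast h
  exact Int.eq_one_of_dvd_one hv.le h1

include φ in
theorem ram_inf (hφj : φ j = realJ L) (v : Place ℂ F) (hv : v.ord j < 0) :
    v.ord j⁻¹ ∣ (L : ℤ) := by
  have htr := transcendental_of_emb φ hφj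
  have hpos : 0 < v.ord j⁻¹ := by rw [v.ord_inv]; omega
  have hloc : ∃ w : Place ℂ (realM L), LocalProp (φ j⁻¹) (act L ModularGroup.T) w := by
    rw [map_inv₀, hφj]; exact exists_place_inf L
  exact ord_dvd_of_loc φ hφj j⁻¹ (transcendental_inv htr) (inv_mem_adjoin j) (mem_adjoin_inv j)
    ModularGroup.T hloc L (act_of_mem_Gamma (es1r_T_pow_mem L)) v hpos

end Generic

/-- ramification of `fieldC ℂ L M H` over the `j`-line, from an embedding into `realM L` -/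
theorem ramJC_of_emb (L M : ℕ) (H : Subgroup (ZMod M)ˣ) [NeZero L]
    (φ : fieldC ℂ L M H →ₐ[ℂ] realM L) (hφ : φ (jFC L M H) = realJ L) : RamJC L M H where
  finite := finite_of_emb φ hφ
  zero := ram_zero φ hφ
  e1728 := ram_1728 φ hφ
  gen := ram_gen φ hφ
  inf := ram_inf φ hφ

end Fermat.Agent.ES1.RealC

namespace Fermat.Agent.ES1

/-- **(P3)** -/
theorem stmtRamJC_of (h : StmtRealEmb) : StmtRamJC := by
  intro L M H _ hML
  obtain ⟨φ, hφ⟩ := h L M H hML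
  exact RealC.ramJC_of_emb L M H φ hφ

end Fermat.Agent.ES1


end ZBES1_003_8

/-! ### bundled: `Fermat.Agent.ES1.RealEmb` -/
section ZBES1_003_9

/-!
# ES₁ / F4, piece P2: the embedding `fieldC ℂ L M H → realM L`

`A = modFunAlgG (gammaH L M H)`;  `Λ = laurentOf : A → ℂ((q))` and `Ψ : A → realB L → realM L`
are injective `ℂ`-algebra maps, and every generator `j(q^d)`, `S_{M,H,a}(q^e)` of
`fieldC ℂ L M H` is `Λ` of an element of `A` (`J(dτ)`, `θ_a(eτ)`; helper85's `RCGammaA`).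
So the generators satisfy the same polynomial relations in `ℂ((q))` and in `realM L`.

* `stmtRealEmb : StmtRealEmb`.
-/

set_option autoImplicit false

noncomputable section

open UpperHalfPlane ModularForm CongruenceSubgroup ModularCurve AlgebraicCurve IntermediateField
open scoped MatrixGroups Manifold

namespace Fermat.Agent.ES1

open Fermat.Agent.S23 Fermat.Agent.S24 Fermat.Agent.S28 Fermat.Agent.ES.RC

theorem es1r_gamma_le_gammaH {L M : ℕ} (hML : M ∣ L) (H : Subgroup (ZMod M)ˣ) :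
    Gamma L ≤ gammaH L M H := by
  refine le_trans ?_ (es1rc_gamma1_le_gammaH hML H)
  intro γ hγ
  rw [Gamma_mem] at hγ
  rw [Gamma1_mem]
  exact ⟨hγ.1, hγ.2.2.2, hγ.2.2.1⟩

/-- every generator of `fieldC ℂ L M H` is the Laurent expansion of a modular function for
`gammaH L M H` -/
theorem es1r_exists_gen {L M : ℕ} [NeZero L] (hML : M ∣ L) (H : Subgroup (ZMod M)ˣ)
    (x : LaurentSeries ℂ) (hx : x ∈ divisorExpansionsC ℂ L ∪ diamondExpansionsC ℂ L M H) :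
    ∃ f : ℍ → ℂ, IsModFunG (gammaH L M H) f ∧ laurentOf f = x := by
  have hM0 : M ≠ 0 := fun h => NeZero.ne L (by rw [h] at hML; exact Nat.eq_zero_of_zero_dvd hML)
  haveI : NeZero M := ⟨hM0⟩
  rcases hx with ⟨d, hd, hdL, rfl⟩ | ⟨e, he, a, heL, rfl⟩
  · refine ⟨fun z => Jfun (scaleN d z), ?_, ?_⟩
    · have h1 : IsModFunG (Gamma0 L) (fun z => Jfun (scaleN d z)) :=
        (isModFunG_gamma0_iff L _).mpr (rc_isModFun_Jfun_scaleN hdL)
      exact h1.mono (gammaH_le_gamma0 L M H)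
    · rw [laurentOf_Jfun_scaleN]
      rfl
  · exact ⟨es1rcThetaE e H a, es1rcThetaE_isModFunG H a e heL, laurentOf_es1rcThetaE H a e⟩

/-- **(P2 = F4-EMB)** -/
theorem stmtRealEmb : StmtRealEmb := by
  intro L M H _ hML
  have hT : ModularGroup.T ∈ gammaH L M H := T_mem_gammaH L M H
  have hle : modFunAlgG (gammaH L M H) ≤ realB L := fun f hf =>
    IsModFunG.mono (es1r_gamma_le_gammaH hML H) hf
  -- the Laurent expansion and the inclusion
  let Λ : modFunAlgG (gammaH L M H) →ₐ[ℂ] LaurentSeries ℂ :=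
    laurentExp.comp (Subalgebra.inclusion (modFunAlgG_le_merInf hT))
  have hΛ : ∀ g : modFunAlgG (gammaH L M H), Λ g = laurentOf (g : ℍ → ℂ) := fun g => rfl
  have hΛinj : Function.Injective Λ :=
    laurentExp_injective.comp (Subalgebra.inclusion_injective (modFunAlgG_le_merInf hT))
  let Ψ : modFunAlgG (gammaH L M H) →ₐ[ℂ] realM L :=
    (IsScalarTower.toAlgHom ℂ (realB L) (realM L)).comp (Subalgebra.inclusion hle)
  have hΨinj : Function.Injective Ψ :=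
    (IsFractionRing.injective (realB L) (realM L)).comp (Subalgebra.inclusion_injective hle)
  -- the generators
  let S : Set (LaurentSeries ℂ) := divisorExpansionsC ℂ L ∪ diamondExpansionsC ℂ L M H
  have hgen : ∀ i : S, ∃ a : modFunAlgG (gammaH L M H), Λ a = (i : LaurentSeries ℂ) := by
    rintro ⟨x, hx⟩
    obtain ⟨f, hf, hfx⟩ := es1r_exists_gen hML H x hx
    exact ⟨⟨f, hf⟩, hfx⟩
  choose a ha using hgen
  have hS : fieldC ℂ L M H =
      IntermediateField.adjoin ℂ (Set.range (fun i : S => (i : LaurentSeries ℂ))) := by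
    rw [Subtype.range_coe]
    rfl
  have hrel : ∀ P : MvPolynomial S ℂ,
      MvPolynomial.aeval (fun i : S => (i : LaurentSeries ℂ)) P = 0 ↔
        MvPolynomial.aeval (fun i : S => Ψ (a i)) P = 0 := by
    intro P
    have h1 : MvPolynomial.aeval (fun i : S => (i : LaurentSeries ℂ)) P =
        Λ (MvPolynomial.aeval a P) := by
      have := MvPolynomial.comp_aeval_apply a Λ P
      rw [this]
      congr 2
      funext i
      exact (ha i).symm
    have h2 : MvPolynomial.aeval (fun i : S => Ψ (a i)) P = Ψ (MvPolynomial.aeval a P) :=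
      (MvPolynomial.comp_aeval_apply a Ψ P).symm
    rw [h1, h2, map_eq_zero_iff _ hΛinj, map_eq_zero_iff _ hΨinj]
  obtain ⟨φ, hφ⟩ := br_exists_algHom_of_eq_adjoin (fieldC ℂ L M H)
    (fun i : S => (i : LaurentSeries ℂ)) hS (fun i : S => Ψ (a i)) hrel
  refine ⟨φ, ?_⟩
  -- the value at `j`
  have hjS : jqModC ℂ ∈ S := by
    left
    refine ⟨1, ⟨one_ne_zero⟩, one_dvd L, ?_⟩
    rw [qExpand_one_apply]
  have h1 := hφ ⟨jqModC ℂ, hjS⟩ (jqModC_mem_fieldC L M H ℂ)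
  have h2 : a ⟨jqModC ℂ, hjS⟩ = ⟨Jfun, es1r_isModFunG_of_levelOne _ (isModFun_Jfun 1)⟩ := by
    apply hΛinj
    rw [ha, hΛ]
    exact laurentOf_Jfun.symm
  show φ ⟨jqModC ℂ, _⟩ = realJ L
  rw [h1, h2]
  rfl

end Fermat.Agent.ES1

end
end ZBES1_003_9

/-! ### bundled: `Fermat.Agent.ES1.RealGlue` -/
section ZBES1_003_10

/-!
# ES₁ / F4 — glue: ramification over `ℂ` + base change ⇒ `StmtRamJH`

`stmtRamJH_of : StmtRamJC → StmtRealBCu → StmtRealFin → StmtRamJH`.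
-/

set_option autoImplicit false

open AlgebraicCurve IntermediateField ModularCurve

namespace Fermat.Agent.ES1

open Fermat.Agent.S24

theorem stmtRamJH_of (hC : StmtRamJC) (hB : StmtRealBCu) (hF : StmtRealFin) : StmtRamJH := by
  intro L M H _ hML
  have hR := hC L M H hML
  have hfin : FiniteDimensional Kb⟮jFH L M H⟯ (fieldBar L M H) := hF L M H hML hR.finite
  have halg : Algebra.IsAlgebraic Kb⟮jFH L M H⟯ (fieldBar L M H) :=
    Algebra.IsAlgebraic.of_finite _ _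
  have hext := hB L M H hML halg
  have hj : iotaH L M H (jFH L M H) = jFC L M H := iotaH_jFH L M H
  have hsub : ∀ c : Kb, iotaH L M H (jFH L M H - algebraMap Kb (fieldBar L M H) c) =
      jFC L M H - algebraMap ℂ (fieldC ℂ L M H) (embC c) := fun c => by
    rw [map_sub, hj, iotaH_algebraMap]
  refine ⟨hfin, ?_, ?_, ?_, ?_⟩
  · intro v hv
    obtain ⟨w, hw⟩ := hext v
    have h1 := hw (jFH L M H)
    rw [hj] at h1
    rw [← h1] at hv ⊢
    exact hR.zero w hv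
  · intro v hv
    obtain ⟨w, hw⟩ := hext v
    have h1 := hw (jFH L M H - algebraMap Kb (fieldBar L M H) 1728)
    rw [hsub, map_ofNat] at h1
    rw [← h1] at hv ⊢
    exact hR.e1728 w hv
  · intro c hc0 hc v hv
    obtain ⟨w, hw⟩ := hext v
    have h1 := hw (jFH L M H - algebraMap Kb (fieldBar L M H) c)
    rw [hsub] at h1
    rw [← h1] at hv ⊢
    refine hR.gen (embC c) ?_ ?_ w hv
    · intro h
      exact hc0 (embC.injective (by rw [h, map_zero]))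
    · intro h
      exact hc (embC.injective (by rw [h, map_ofNat]))
  · intro v hv
    obtain ⟨w, hw⟩ := hext v
    have h1 := hw (jFH L M H)
    have h2 := hw (jFH L M H)⁻¹
    rw [hj] at h1
    rw [map_inv₀, hj] at h2
    rw [← h1] at hv
    rw [← h2]
    exact hR.inf w hv

end Fermat.Agent.ES1


end ZBES1_003_10

/-! ### bundled: `Fermat.Agent.ES1.G2.SwapHAn` -/
section ZBES1_003_11

/-!
# ES₁ / G2, piece SWAP, analytic half (helper40)

`ℓ w₀ − k L = 1`, `γ = [[1, k], [L, ℓ w₀]] ∈ Γ₀(L)`, `W τ = γ • (ℓ τ)`.  For `L = e f`: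
`e · W τ = [[1, e k], [f, ℓ w₀]] • (e ℓ τ)` and `e ℓ · W τ = [[ℓ, e k], [f, w₀]] • (e τ)`.  Hence
* `swh_J_W`, `swh_J_W'` : `J(d · Wτ) = J(d ℓ τ)`, `J(d ℓ · Wτ) = J(d τ)` (`d ∣ L`);
* `swh_theta_W`, `swh_theta_W'` : `θ_c(e · Wτ) = θ_c(e ℓ τ)`, `θ_c(e ℓ · Wτ) = θ_{c ℓ}(e τ)`
  (`e M ∣ L`);
* `swhW_surjective`.
-/

set_option autoImplicit false
set_option linter.style.haveILetI false

noncomputable section

namespace Fermat.Agent.ES1.G2

open UpperHalfPlane CongruenceSubgroup Fermat.Agent.S23 Fermat.Agent.S24 Fermat.Agent.S28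
open Fermat.Agent.ES1 Fermat.Agent.ES.G2
open scoped MatrixGroups

/-- `c z + d ≠ 0` for integers `c, d`, not both `0`, and `z ∈ ℍ`. -/
theorem swh_denom_ne_zero (c d : ℤ) (h : c ≠ 0 ∨ d ≠ 0) (z : ℍ) :
    (c : ℂ) * (z : ℂ) + (d : ℂ) ≠ 0 := by
  intro h0
  have h1 := congrArg Complex.im h0
  have h2 := congrArg Complex.re h0
  simp only [Complex.add_im, Complex.mul_im, Complex.intCast_re, Complex.intCast_im,
    Complex.zero_im, zero_mul, add_zero, coe_im] at h1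
  have hc : c = 0 := by
    rcases mul_eq_zero.mp h1 with h3 | h3
    · exact_mod_cast h3
    · exact absurd h3 z.im_pos.ne'
  subst hc
  simp only [Int.cast_zero, zero_mul, zero_add, Complex.intCast_re, Complex.zero_re] at h2
  have hd : d = 0 := by exact_mod_cast h2
  rcases h with h | h
  · exact h rfl
  · exact h hd

/-- the substitution `W τ = [[1, k], [L, ℓ w₀]] • (ℓ τ)` -/
def swhW (L ℓ : ℕ) [NeZero ℓ] (k w₀ : ℤ) (h : (ℓ : ℤ) * w₀ - k * (L : ℤ) = 1) (τ : ℍ) : ℍ :=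
  swapMat 1 k L ((ℓ : ℤ) * w₀) (by rw [one_mul]; exact h) • scaleN ℓ τ

theorem coe_swhW (L ℓ : ℕ) [NeZero ℓ] (k w₀ : ℤ) (h : (ℓ : ℤ) * w₀ - k * (L : ℤ) = 1) (τ : ℍ) :
    ((swhW L ℓ k w₀ h τ : ℍ) : ℂ) =
      ((ℓ : ℂ) * τ + k) / ((L : ℂ) * ((ℓ : ℂ) * τ) + (ℓ : ℂ) * w₀) := by
  rw [swhW, coe_swapMat_smul, coe_scaleN]
  push_cast
  ring_nf

/-- `e · W τ = [[1, e k], [f, ℓ w₀]] • (e ℓ τ)` for `L = e f` -/
theorem swh_scale_W {L ℓ : ℕ} [NeZero ℓ] (k w₀ : ℤ) (h : (ℓ : ℤ) * w₀ - k * (L : ℤ) = 1)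
    (e f : ℕ) [NeZero e] [NeZero (e * ℓ)] (hL : L = e * f)
    (hdet : (1 : ℤ) * ((ℓ : ℤ) * w₀) - ((e : ℤ) * k) * (f : ℤ) = 1) (τ : ℍ) :
    scaleN e (swhW L ℓ k w₀ h τ) =
      swapMat 1 ((e : ℤ) * k) f ((ℓ : ℤ) * w₀) hdet • scaleN (e * ℓ) τ := by
  apply UpperHalfPlane.ext
  rw [coe_scaleN, coe_swhW, coe_swapMat_smul, coe_scaleN, mul_div_assoc']
  subst hL
  push_cast
  congr 1 <;> ring

/-- `e ℓ · W τ = [[ℓ, e k], [f, w₀]] • (e τ)` for `L = e f` -/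
theorem swh_scale_W' {L ℓ : ℕ} [NeZero ℓ] (hL0 : L ≠ 0) (k w₀ : ℤ)
    (h : (ℓ : ℤ) * w₀ - k * (L : ℤ) = 1)
    (e f : ℕ) [NeZero e] [NeZero (e * ℓ)] (hL : L = e * f)
    (hdet : (ℓ : ℤ) * w₀ - ((e : ℤ) * k) * (f : ℤ) = 1) (τ : ℍ) :
    scaleN (e * ℓ) (swhW L ℓ k w₀ h τ) =
      swapMat ℓ ((e : ℤ) * k) f w₀ hdet • scaleN e τ := by
  apply UpperHalfPlane.ext
  rw [coe_scaleN, coe_swhW, coe_swapMat_smul, coe_scaleN, mul_div_assoc']
  have hℓC : (ℓ : ℂ) ≠ 0 := Nat.cast_ne_zero.mpr (NeZero.ne ℓ)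
  have hden := swh_denom_ne_zero (L : ℤ) w₀ (Or.inl (by exact_mod_cast hL0)) τ
  have hden1 : (L : ℂ) * ((ℓ : ℂ) * τ) + (ℓ : ℂ) * w₀ ≠ 0 := by
    have : (L : ℂ) * ((ℓ : ℂ) * τ) + (ℓ : ℂ) * w₀ = (ℓ : ℂ) * ((L : ℂ) * τ + w₀) := by ring
    rw [this]
    exact mul_ne_zero hℓC (by push_cast at hden; exact hden)
  have hden2 : ((f : ℤ) : ℂ) * ((e : ℂ) * τ) + (w₀ : ℂ) ≠ 0 := by
    have : ((f : ℤ) : ℂ) * ((e : ℂ) * τ) + (w₀ : ℂ) = (L : ℂ) * τ + w₀ := by
      subst hL; push_cast; ring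
    rw [this]
    push_cast at hden; exact hden
  rw [div_eq_div_iff hden1 hden2]
  subst hL
  push_cast
  ring

section J

variable {L ℓ : ℕ} [NeZero ℓ]

/-- `J(d · Wτ) = J(d ℓ τ)` for `d ∣ L` -/
theorem swh_J_W (k w₀ : ℤ) (h : (ℓ : ℤ) * w₀ - k * (L : ℤ) = 1)
    (d : ℕ) [NeZero d] [NeZero (d * ℓ)] (hd : d ∣ L) (τ : ℍ) :
    Jfun (scaleN d (swhW L ℓ k w₀ h τ)) = Jfun (scaleN (d * ℓ) τ) := by
  obtain ⟨f, hf⟩ := hd
  have hdet : (1 : ℤ) * ((ℓ : ℤ) * w₀) - ((d : ℤ) * k) * (f : ℤ) = 1 := by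
    subst hf; push_cast at h ⊢; linear_combination h
  rw [swh_scale_W k w₀ h d f hf hdet τ, Jfun_smul_SL]

/-- `J(d ℓ · Wτ) = J(d τ)` for `d ∣ L` -/
theorem swh_J_W' (hL0 : L ≠ 0) (k w₀ : ℤ) (h : (ℓ : ℤ) * w₀ - k * (L : ℤ) = 1)
    (d : ℕ) [NeZero d] [NeZero (d * ℓ)] (hd : d ∣ L) (τ : ℍ) :
    Jfun (scaleN (d * ℓ) (swhW L ℓ k w₀ h τ)) = Jfun (scaleN d τ) := by
  obtain ⟨f, hf⟩ := hd
  have hdet : (ℓ : ℤ) * w₀ - ((d : ℤ) * k) * (f : ℤ) = 1 := by
    subst hf; push_cast at h ⊢; linear_combination h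
  rw [swh_scale_W' hL0 k w₀ h d f hf hdet τ, Jfun_smul_SL]

end J

section Theta

variable {L M ℓ : ℕ} [NeZero ℓ] [NeZero M] (H : Subgroup (ZMod M)ˣ)

theorem swh_swapMat_mem_Gamma0 (a b c d : ℤ) (h : a * d - b * c = 1) (N : ℕ)
    (hc : (N : ℤ) ∣ c) : swapMat a b c d h ∈ Gamma0 N := by
  rw [Gamma0_mem, ZMod.intCast_zmod_eq_zero_iff_dvd]
  have : (swapMat a b c d h) 1 0 = c := by simp [swapMat]
  rw [this]
  exact hc

theorem swh_swapMat_00 (a b c d : ℤ) (h : a * d - b * c = 1) :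
    (swapMat a b c d h) 0 0 = a := by simp [swapMat]

/-- `θ_c(e · Wτ) = θ_c(e ℓ τ)` for `e M ∣ L` -/
theorem swh_theta_W (k w₀ : ℤ) (h : (ℓ : ℤ) * w₀ - k * (L : ℤ) = 1)
    (e : ℕ) [NeZero e] [NeZero (e * ℓ)] (he : e * M ∣ L) (c : (ZMod M)ˣ) (τ : ℍ) :
    es1rcThetaE e H c (swhW L ℓ k w₀ h τ) = es1rcThetaE (e * ℓ) H c τ := by
  obtain ⟨g, hg⟩ := he
  have hf : L = e * (M * g) := by rw [hg, mul_assoc]
  have hdet : (1 : ℤ) * ((ℓ : ℤ) * w₀) - ((e : ℤ) * k) * ((M * g : ℕ) : ℤ) = 1 := by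
    subst hf; push_cast at h ⊢; linear_combination h
  have hmem : swapMat 1 ((e : ℤ) * k) ((M * g : ℕ) : ℤ) ((ℓ : ℤ) * w₀) hdet ∈ Gamma0 M :=
    swh_swapMat_mem_Gamma0 _ _ _ _ _ M ⟨g, by push_cast; ring⟩
  unfold es1rcThetaE
  rw [swh_scale_W k w₀ h e (M * g) hf hdet τ, es1rcTheta_smul H c _ hmem]
  congr 2
  have : diamHom M ⟨_, hmem⟩ = 1 := by
    ext
    rw [coe_diamHom, swh_swapMat_00]
    simp
  rw [this, mul_one]

/-- `θ_c(e ℓ · Wτ) = θ_{c ℓ}(e τ)` for `e M ∣ L` -/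
theorem swh_theta_W' (hL0 : L ≠ 0) (k w₀ : ℤ) (h : (ℓ : ℤ) * w₀ - k * (L : ℤ) = 1)
    (e : ℕ) [NeZero e] [NeZero (e * ℓ)] (he : e * M ∣ L) (c u : (ZMod M)ˣ)
    (hu : (u : ZMod M) = (ℓ : ZMod M)) (τ : ℍ) :
    es1rcThetaE (e * ℓ) H c (swhW L ℓ k w₀ h τ) = es1rcThetaE e H (c * u) τ := by
  obtain ⟨g, hg⟩ := he
  have hf : L = e * (M * g) := by rw [hg, mul_assoc]
  have hdet : (ℓ : ℤ) * w₀ - ((e : ℤ) * k) * ((M * g : ℕ) : ℤ) = 1 := by
    subst hf; push_cast at h ⊢; linear_combination h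
  have hmem : swapMat (ℓ : ℤ) ((e : ℤ) * k) ((M * g : ℕ) : ℤ) w₀ hdet ∈ Gamma0 M :=
    swh_swapMat_mem_Gamma0 _ _ _ _ _ M ⟨g, by push_cast; ring⟩
  unfold es1rcThetaE
  rw [swh_scale_W' hL0 k w₀ h e (M * g) hf hdet τ, es1rcTheta_smul H c _ hmem]
  congr 2
  have : diamHom M ⟨_, hmem⟩ = u := by
    ext
    rw [coe_diamHom, swh_swapMat_00, hu]
    simp
  rw [this]

end Theta

/-- `τ ↦ ℓ τ` is surjective on `ℍ` -/
theorem swh_scaleN_surjective (ℓ : ℕ) [NeZero ℓ] : Function.Surjective (scaleN ℓ) := by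
  intro y
  have hℓ : (0 : ℝ) < (ℓ : ℝ) := Nat.cast_pos.mpr (Nat.pos_of_ne_zero (NeZero.ne ℓ))
  have hℓC : (ℓ : ℂ) ≠ 0 := Nat.cast_ne_zero.mpr (NeZero.ne ℓ)
  have him : 0 < ((y : ℂ) / (ℓ : ℂ)).im := by
    have : ((y : ℂ) / (ℓ : ℂ)).im = y.im / (ℓ : ℝ) := by
      rw [Complex.div_natCast_im]; rfl
    rw [this]
    exact div_pos y.im_pos hℓ
  refine ⟨⟨(y : ℂ) / (ℓ : ℂ), him⟩, ?_⟩
  apply UpperHalfPlane.ext
  rw [coe_scaleN]
  show (ℓ : ℂ) * ((y : ℂ) / (ℓ : ℂ)) = y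
  field_simp

/-- `W` is surjective -/
theorem swhW_surjective (L ℓ : ℕ) [NeZero ℓ] (k w₀ : ℤ) (h : (ℓ : ℤ) * w₀ - k * (L : ℤ) = 1) :
    Function.Surjective (swhW L ℓ k w₀ h) := by
  intro z
  obtain ⟨τ, hτ⟩ := swh_scaleN_surjective ℓ
    ((swapMat 1 k L ((ℓ : ℤ) * w₀) (by rw [one_mul]; exact h))⁻¹ • z)
  refine ⟨τ, ?_⟩
  rw [swhW, hτ, smul_smul, mul_inv_cancel, one_smul]

end Fermat.Agent.ES1.G2

end
end ZBES1_003_11

/-! ### bundled: `Fermat.Agent.RT.K6.BPsi` -/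
section ZBES1_003_12

/-!
# RT-K6 / B (4): the function `G_a ∘ γ ∘ (r ·)` and its Laurent expansion (helper96)

* `rtk6bT K r ξ ξ' ω = r⁻¹² · Z⁴ · Δ(q^r)⁻¹`, `Z = rtk6bSer K r ξ ξ' ω`: the formal target;
* `rtk6bPsi M r s f a z = r⁻¹² Φ_a(z)⁴ / Δ(r z)`; `laurentOf_rtk6bPsi`;
* `rtk6b_f2Ga_smul` : `G_a([[1, b], [f, s]] • (r z)) = Ψ_a(z)`.
-/

set_option autoImplicit false

open EisensteinSeries UpperHalfPlane ModularForm CongruenceSubgroup Matrix Filter Topology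
open Fermat.Agent.ES Fermat.Agent.S48 Fermat.Agent.S23 Fermat.Agent.S24 Fermat.Agent.S28
open Fermat.Agent.ES1 Fermat.Agent.ES1.G2 Fermat.Agent.ES.G2 ModularCurve
open scoped MatrixGroups Manifold Real

noncomputable section

namespace Fermat.Agent.RT.K6

local notation "Δ" => ModularForm.discriminant

/-! ### the formal target -/

section Formal

variable (K : Type*) [Field K] (r : ℕ) [NeZero r] (ξ ξ' : K) (ω : ℤ → ℤ → ℤ)

/-- `T = r⁻¹² · Z⁴ · Δ(q^r)⁻¹` -/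
def rtk6bT : LaurentSeries K :=
  HahnSeries.C (((r : K) ^ 12)⁻¹) * HahnSeries.ofPowerSeries ℤ K (rtk6bSer K r ξ ξ' ω) ^ 4 *
    qExpand K r (deltaInvS K)

variable {K}

theorem rtk6b_coeffMap_deltaInvS {K' : Type*} [Field K'] (φ : K →+* K') :
    coeffMap φ (deltaInvS K) = deltaInvS K' := by
  unfold deltaInvS
  rw [coeffMap_coeffMap]
  exact coeffMap_congr (RingHom.ext fun n => by simp) _

theorem rtk6b_coeffMap_T {K' : Type*} [Field K'] (φ : K →+* K') :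
    coeffMap φ (rtk6bT K r ξ ξ' ω) = rtk6bT K' r (φ ξ) (φ ξ') ω := by
  have hC : ∀ x : K, coeffMap φ (HahnSeries.C x) = HahnSeries.C (φ x) :=
    fun x => coeffMap_single φ 0 x
  unfold rtk6bT
  rw [map_mul, map_mul, map_pow, coeffMap_ofPowerSeries, rtk6b_map_ser, coeffMap_qExpand,
    rtk6b_coeffMap_deltaInvS, hC]
  simp only [map_inv₀, map_pow, map_natCast]

end Formal

/-! ### the function `Ψ` -/

section Analytic

variable (M r : ℕ) [NeZero M] [NeZero r] (s f : ℤ) (a : ZMod M)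

/-- `Ψ_a(z) = r⁻¹² Φ_a(z)⁴ / Δ(r z)` -/
def rtk6bPsi : ℍ → ℂ := fun z =>
  ((r : ℂ) ^ 12)⁻¹ * rtk6bPhi M r s f a z ^ 4 / Δ (scaleN r z)

theorem rtk6b_isMerInf_inv_disc : IsMerInf (fun z : ℍ => (Δ z)⁻¹) := by
  refine ⟨1, ?_⟩
  have : (fun z : ℍ => (Δ z)⁻¹ * Δ z ^ 1) = fun _ => (1 : ℂ) := by
    funext z
    rw [pow_one, inv_mul_cancel₀ (discriminant_ne_zero z)]
  rw [this]
  exact qring_isHPB_const 1

theorem rtk6b_laurentOf_inv_disc : laurentOf (fun z : ℍ => (Δ z)⁻¹) = deltaL⁻¹ := by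
  have h := laurentOf_mul rtk6b_isMerInf_inv_disc isMerInf_discriminant
  have e : ((fun z : ℍ => (Δ z)⁻¹) * (Δ : ℍ → ℂ)) = (1 : ℍ → ℂ) := by
    funext z
    simp only [Pi.mul_apply, Pi.one_apply]
    exact inv_mul_cancel₀ (discriminant_ne_zero z)
  rw [e, laurentOf_one, laurentOf_discriminant] at h
  exact eq_inv_of_mul_eq_one_left h.symm

omit [NeZero M] in
theorem rtk6bPsi_eq :
    rtk6bPsi M r s f a = ((fun _ : ℍ => ((r : ℂ) ^ 12)⁻¹) * (rtk6bPhi M r s f a) ^ 4) *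
      (fun z => (fun w : ℍ => (Δ w)⁻¹) (scaleN r z)) := by
  funext z
  simp only [rtk6bPsi, Pi.mul_apply, Pi.pow_apply]
  rw [div_eq_mul_inv]

theorem rtk6bPsi_isMerInf (hrf : (M : ℤ) ∣ r * f) : IsMerInf (rtk6bPsi M r s f a) := by
  rw [rtk6bPsi_eq]
  have h1 : IsMerInf (rtk6bPhi M r s f a) := IsHPB.isMerInf (rtk6bPhi_isHPB M r s f a hrf)
  have h2 : IsMerInf ((rtk6bPhi M r s f a) ^ 4) :=
    IsHPB.isMerInf (bridge_isHPB_pow (rtk6bPhi_isHPB M r s f a hrf) 4)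
  exact ((isMerInf_const _).mul h2).mul (isMerInf_comp_scaleN r rtk6b_isMerInf_inv_disc)

theorem laurentOf_rtk6bPsi (hrf : (M : ℤ) ∣ r * f) :
    laurentOf (rtk6bPsi M r s f a) =
      rtk6bT ℂ r (rtk6bXi r) (rtk6bXi' r) (rtk6bOm M s f a) := by
  have h1 : IsMerInf (rtk6bPhi M r s f a) := IsHPB.isMerInf (rtk6bPhi_isHPB M r s f a hrf)
  have h2 : IsMerInf ((rtk6bPhi M r s f a) ^ 4) :=
    IsHPB.isMerInf (bridge_isHPB_pow (rtk6bPhi_isHPB M r s f a hrf) 4)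
  rw [rtk6bPsi_eq, laurentOf_mul ((isMerInf_const _).mul h2)
    (isMerInf_comp_scaleN r rtk6b_isMerInf_inv_disc), laurentOf_mul (isMerInf_const _) h2,
    laurentOf_const, laurentOf_pow h1, laurentOf_rtk6bPhi M r s f a hrf,
    laurentOf_comp_scaleN r rtk6b_isMerInf_inv_disc, rtk6b_laurentOf_inv_disc,
    ← deltaInvS_complex]
  rfl

omit [NeZero M] in
theorem rtk6bPhi_neg (z : ℍ) : rtk6bPhi M r s f (-a) z = -rtk6bPhi M r s f a z := by
  unfold rtk6bPhi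
  have h : (fun v : Fin 2 → ℤ => rtk6bOmC M s f (-a) (v 0) (v 1)) =
      fun v => (-1 : ℂ) * rtk6bOmC M s f a (v 0) (v 1) := by
    funext v
    unfold rtk6bOmC
    rw [rtk6bOm_neg_left]
    push_cast
    ring
  rw [h, eisC_const_mul]
  simp only [Pi.smul_apply, smul_eq_mul]
  ring

omit [NeZero M] in
theorem rtk6bPsi_neg : rtk6bPsi M r s f (-a) = rtk6bPsi M r s f a := by
  funext z
  unfold rtk6bPsi
  rw [rtk6bPhi_neg]
  ring

omit [NeZero M] [NeZero r] in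
theorem rtk6b_kap_vecMul (b : ℤ) (hdet : (1 : ℤ) * s - b * f = 1) (v : Fin 2 → ℤ) :
    f2KapA M a (v ᵥ* (((swapMat 1 b f s hdet)⁻¹ : SL(2, ℤ)) : Matrix (Fin 2) (Fin 2) ℤ)) =
      f2Const⁻¹ * rtk6bOmC M s f a (v 0) (v 1) := by
  unfold f2KapA f2KapW rtk6bOmC rtk6bOm
  rw [rtk6bWa_cast]
  congr 3
  simp [swapMat, Matrix.vecMul, dotProduct, Fin.sum_univ_two, Matrix.SpecialLinearGroup.coe_inv,
    Matrix.adjugate_fin_two]
  ring

omit [NeZero M] in
/-- **`G_a([[1, b], [f, s]] • (r z)) = Ψ_a(z)`** -/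
theorem rtk6b_f2Ga_smul (b : ℤ) (hdet : (1 : ℤ) * s - b * f = 1) (z : ℍ) :
    f2Ga M a (swapMat 1 b f s hdet • scaleN r z) = rtk6bPsi M r s f a z := by
  have hr0 : (r : ℂ) ≠ 0 := Nat.cast_ne_zero.mpr (NeZero.ne r)
  have hsl : f2Ya M a ∣[(3 : ℤ)] (swapMat 1 b f s hdet) =
      f2Const⁻¹ • eisC (fun v => rtk6bOmC M s f a (v 0) (v 1)) 3 := by
    unfold f2Ya
    rw [eisC_slash, ← eisC_const_mul]
    congr 1
    funext v
    exact rtk6b_kap_vecMul M s f a b hdet v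
  have h := f2_G_smul_of_slash (swapMat 1 b f s hdet) hsl (scaleN r z)
  unfold f2Ga
  rw [h]
  unfold rtk6bPsi rtk6bPhi
  simp only [Pi.smul_apply, smul_eq_mul]
  have hΔ : Δ (scaleN r z) ≠ 0 := discriminant_ne_zero _
  field_simp

end Analytic

end Fermat.Agent.RT.K6

end
end ZBES1_003_12

/-! ### bundled: `Fermat.Agent.RT.K6.BMat` -/
section ZBES1_003_13

/-!
# RT-K6 / B (5): the Atkin–Lehner substitution `W` (helper96)

`L = L' r`, `M = M' r`, `r ∤ L'`, `M' ∣ L'`, `r t − y L' = 1`, `γ_W = [[1, y], [L', r t]]`,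
`W τ = γ_W • (r τ)`.

* `rtk6b_W_smul` : **(N)** for `g ∈ Γ₀(L)`: `W (g • τ) = g″ • W τ` with `g″ ∈ Γ₀(L)`,
  `g″₀₀ ≡ g₀₀` mod `M'` (even mod `L'`) and `g″₀₀ ≡ g₁₁` mod `r`;
* `rtk6b_W_W` : **(Sq)** `W (W τ) = γ₂ • τ`, `γ₂ = [[r + y L', y (1 + t)], [L (1 + t), L' y + r t²]]`.
-/

set_option autoImplicit false

open UpperHalfPlane ModularForm CongruenceSubgroup Matrix
open Fermat.Agent.ES Fermat.Agent.S23 Fermat.Agent.S24 Fermat.Agent.S28
open Fermat.Agent.ES1 Fermat.Agent.ES1.G2 Fermat.Agent.ES.G2 ModularCurve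
open scoped MatrixGroups Manifold Real

noncomputable section

namespace Fermat.Agent.RT.K6

/-- the arithmetic data of `w_r` -/
structure RtBDat (L M r : ℕ) where
  /-- `L / r` -/
  L' : ℕ
  /-- `M / r` -/
  M' : ℕ
  hL : L = L' * r
  hM : M = M' * r
  hML : M' ∣ L'
  hr : r.Prime
  hrL : ¬ r ∣ L'
  hL0 : L' ≠ 0
  /-- Bezout coefficient -/
  t : ℤ
  /-- Bezout coefficient -/
  y : ℤ
  hdet : (r : ℤ) * t - y * (L' : ℤ) = 1

theorem rtk6b_exists_dat {L M r : ℕ} (hL0 : L ≠ 0) (hML : M ∣ L) (hr : r.Prime) (hrM : r ∣ M)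
    (hr2 : ¬ r ^ 2 ∣ L) : Nonempty (RtBDat L M r) := by
  obtain ⟨M', rfl⟩ := hrM
  obtain ⟨k, rfl⟩ := hML
  have hr0 : r ≠ 0 := hr.ne_zero
  have hrL : ¬ r ∣ M' * k := by
    intro h
    apply hr2
    rw [pow_two, mul_assoc]
    exact mul_dvd_mul_left r h
  have hcop : Nat.Coprime r (M' * k) := (Nat.Prime.coprime_iff_not_dvd hr).mpr hrL
  obtain ⟨u, v, huv⟩ := Nat.Coprime.isCoprime hcop
  refine ⟨⟨M' * k, M', by ring, by ring, Dvd.intro _ rfl, hr, hrL, ?_, u, -v, ?_⟩⟩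
  · intro h
    apply hL0
    rw [mul_assoc, h, mul_zero]
  · linear_combination huv

namespace RtBDat

variable {L M r : ℕ} (D : RtBDat L M r)

include D

theorem neZero_r : NeZero r := ⟨D.hr.ne_zero⟩

theorem neZero_L' : NeZero D.L' := ⟨D.hL0⟩

theorem L_ne_zero : L ≠ 0 := by
  intro h
  subst h
  exact Nat.mul_ne_zero D.hL0 D.hr.ne_zero D.hL.symm

theorem M'_ne_zero : D.M' ≠ 0 := ne_zero_of_dvd_ne_zero D.hL0 D.hML

theorem M_ne_zero : M ≠ 0 := by
  intro h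
  subst h
  exact Nat.mul_ne_zero D.M'_ne_zero D.hr.ne_zero D.hM.symm

theorem hLZ : (L : ℤ) = (D.L' : ℤ) * (r : ℤ) := by
  have := D.hL
  exact_mod_cast this

theorem hMZ : (M : ℤ) = (D.M' : ℤ) * (r : ℤ) := by
  have := D.hM
  exact_mod_cast this

theorem M_dvd_L : M ∣ L := by
  obtain ⟨k, hk⟩ := D.hML
  refine ⟨k, ?_⟩
  calc L = D.L' * r := D.hL
    _ = D.M' * k * r := by rw [hk]
    _ = D.M' * r * k := by ring
    _ = M * k := by rw [← D.hM]

/-- `s = r t` -/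
def s : ℤ := (r : ℤ) * D.t

theorem s_eq : D.s = 1 + D.y * (D.L' : ℤ) := by
  unfold s
  linear_combination D.hdet

/-- the substitution `W τ = [[1, y], [L', r t]] • (r τ)` -/
def W (τ : ℍ) : ℍ :=
  haveI := D.neZero_r
  swhW D.L' r D.y D.t D.hdet τ

theorem W_surjective : Function.Surjective D.W := by
  haveI := D.neZero_r
  exact swhW_surjective D.L' r D.y D.t D.hdet

/-- the matrix `γ_W` -/
def gW : SL(2, ℤ) := swapMat 1 D.y D.L' ((r : ℤ) * D.t) (by rw [one_mul]; exact D.hdet)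

theorem W_eq (τ : ℍ) : D.W τ = D.gW • (haveI := D.neZero_r; scaleN r τ) := rfl

end RtBDat

/-! ### (N) -/

section N

variable {L M r : ℕ} (D : RtBDat L M r)

include D

/-- the conjugate `γ_W · comp_r(g) · γ_W⁻¹` -/
def rtk6bConj (g : SL(2, ℤ)) (hg : (r : ℤ) ∣ g 1 0) : SL(2, ℤ) :=
  haveI := D.neZero_r
  D.gW * P7_thetaCompanion r g hg * D.gW⁻¹

theorem rtk6b_W_smul (g : SL(2, ℤ)) (hg : (r : ℤ) ∣ g 1 0) (τ : ℍ) :
    D.W (g • τ) = rtk6bConj D g hg • D.W τ := by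
  haveI := D.neZero_r
  rw [D.W_eq, D.W_eq, rtk6bConj, P7_thetaCompanion_smul r g hg τ, ← mul_smul, ← mul_smul,
    inv_mul_cancel_right]

theorem rtk6b_dvd_of_mem {g : SL(2, ℤ)} (hg : g ∈ Gamma0 L) : (r : ℤ) ∣ g 1 0 := by
  rw [Gamma0_mem, ZMod.intCast_zmod_eq_zero_iff_dvd] at hg
  refine Dvd.dvd.trans ?_ hg
  rw [D.hLZ]
  exact Dvd.intro_left _ rfl

theorem rtk6bConj_entries (g : SL(2, ℤ)) (hg : g ∈ Gamma0 L) :
    ∃ c' : ℤ, g 1 0 = (L : ℤ) * c' ∧
      (rtk6bConj D g (rtk6b_dvd_of_mem D hg)) 0 0 =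
        g 0 0 * D.s + D.y * D.L' * c' * D.s - (r : ℤ) * g 0 1 * D.L' - D.y * g 1 1 * D.L' ∧
      (rtk6bConj D g (rtk6b_dvd_of_mem D hg)) 1 0 =
        (L : ℤ) * (g 0 0 * D.t + D.s * D.t * c' - D.L' * g 0 1 - D.t * g 1 1) := by
  haveI := D.neZero_r
  have hg' := hg
  rw [Gamma0_mem, ZMod.intCast_zmod_eq_zero_iff_dvd] at hg'
  obtain ⟨c', hc'⟩ := hg'
  have hr0 : (r : ℤ) ≠ 0 := by exact_mod_cast D.hr.ne_zero
  have hdiv : g 1 0 / (r : ℤ) = (D.L' : ℤ) * c' := by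
    rw [hc', D.hLZ]
    rw [mul_comm (D.L' : ℤ) (r : ℤ), mul_assoc, Int.mul_ediv_cancel_left _ hr0]
  refine ⟨c', hc', ?_, ?_⟩
  · unfold rtk6bConj RtBDat.gW RtBDat.s
    simp only [Matrix.SpecialLinearGroup.coe_mul, Matrix.SpecialLinearGroup.coe_inv,
      swapMat, P7_thetaCompanion, Matrix.adjugate_fin_two, Matrix.mul_apply, Fin.sum_univ_two,
      Matrix.of_apply, Matrix.cons_val_zero, Matrix.cons_val_one, Matrix.cons_val', 
      Matrix.cons_val_fin_one]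
    simp [hdiv]
    ring
  · unfold rtk6bConj RtBDat.gW RtBDat.s
    simp only [Matrix.SpecialLinearGroup.coe_mul, Matrix.SpecialLinearGroup.coe_inv,
      swapMat, P7_thetaCompanion, Matrix.adjugate_fin_two, Matrix.mul_apply, Fin.sum_univ_two,
      Matrix.of_apply, Matrix.cons_val_zero, Matrix.cons_val_one, Matrix.cons_val', 
      Matrix.cons_val_fin_one]
    simp [hdiv]
    rw [D.hLZ]
    ring

theorem rtk6bConj_mem (g : SL(2, ℤ)) (hg : g ∈ Gamma0 L) :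
    rtk6bConj D g (rtk6b_dvd_of_mem D hg) ∈ Gamma0 L := by
  obtain ⟨c', -, -, h10⟩ := rtk6bConj_entries D g hg
  rw [Gamma0_mem, ZMod.intCast_zmod_eq_zero_iff_dvd, h10]
  exact Dvd.intro _ rfl

/-- `g″₀₀ ≡ g₀₀` mod `L'` -/
theorem rtk6bConj_00_modL' (g : SL(2, ℤ)) (hg : g ∈ Gamma0 L) :
    (D.L' : ℤ) ∣ (rtk6bConj D g (rtk6b_dvd_of_mem D hg)) 0 0 - g 0 0 := by
  obtain ⟨c', -, h00, -⟩ := rtk6bConj_entries D g hg
  rw [h00, D.s_eq]
  refine ⟨g 0 0 * D.y + D.y * c' * (1 + D.y * D.L') - (r : ℤ) * g 0 1 - D.y * g 1 1, ?_⟩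
  ring

/-- `g″₀₀ ≡ g₁₁` mod `r` -/
theorem rtk6bConj_00_modr (g : SL(2, ℤ)) (hg : g ∈ Gamma0 L) :
    (r : ℤ) ∣ (rtk6bConj D g (rtk6b_dvd_of_mem D hg)) 0 0 - g 1 1 := by
  obtain ⟨c', -, h00, -⟩ := rtk6bConj_entries D g hg
  rw [h00]
  have h1 : D.y * (D.L' : ℤ) = D.s - 1 := by rw [D.s_eq]; ring
  have h2 : g 0 0 * D.s + D.y * D.L' * c' * D.s - (r : ℤ) * g 0 1 * D.L' - D.y * g 1 1 * D.L' -
      g 1 1 = D.s * (g 0 0 + D.y * D.L' * c' - g 1 1) - (r : ℤ) * (g 0 1 * D.L') := by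
    linear_combination (-g 1 1) * h1
  rw [h2]
  unfold RtBDat.s
  refine ⟨D.t * (g 0 0 + D.y * D.L' * c' - g 1 1) - g 0 1 * D.L', ?_⟩
  ring

end N

/-! ### (Sq) -/

section Sq

variable {L M r : ℕ} (D : RtBDat L M r)

include D

theorem rtk6b_sq_det :
    ((r : ℤ) + D.y * D.L') * ((D.L' : ℤ) * D.y + (r : ℤ) * D.t ^ 2) -
      (D.y * (1 + D.t)) * ((L : ℤ) * (1 + D.t)) = 1 := by
  have h := D.hdet
  have hL : (L : ℤ) = (D.L' : ℤ) * r := D.hLZ
  rw [hL]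
  have : ((r : ℤ) + D.y * D.L') * ((D.L' : ℤ) * D.y + (r : ℤ) * D.t ^ 2) -
      (D.y * (1 + D.t)) * ((D.L' : ℤ) * r * (1 + D.t)) = ((r : ℤ) * D.t - D.y * D.L') ^ 2 := by
    ring
  rw [this, h, one_pow]

/-- `γ₂` with `W ∘ W = γ₂ •` -/
def rtk6bSq : SL(2, ℤ) :=
  swapMat ((r : ℤ) + D.y * D.L') (D.y * (1 + D.t)) ((L : ℤ) * (1 + D.t))
    ((D.L' : ℤ) * D.y + (r : ℤ) * D.t ^ 2) (rtk6b_sq_det D)

theorem rtk6bSq_mem : rtk6bSq D ∈ Gamma0 L := by
  rw [Gamma0_mem, ZMod.intCast_zmod_eq_zero_iff_dvd]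
  have : (rtk6bSq D) 1 0 = (L : ℤ) * (1 + D.t) := by simp [rtk6bSq, swapMat]
  rw [this]
  exact Dvd.intro _ rfl

theorem rtk6b_W_W (τ : ℍ) : D.W (D.W τ) = rtk6bSq D • τ := by
  haveI := D.neZero_r
  apply UpperHalfPlane.ext
  have hr0 : (r : ℂ) ≠ 0 := Nat.cast_ne_zero.mpr D.hr.ne_zero
  have hL'0 : (D.L' : ℤ) ≠ 0 := by exact_mod_cast D.hL0
  -- denominators
  have hd1 := swh_denom_ne_zero (D.L' : ℤ) D.t (Or.inl hL'0) τ
  have hd1' : (D.L' : ℂ) * ((r : ℂ) * τ) + (r : ℂ) * D.t ≠ 0 := by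
    have : (D.L' : ℂ) * ((r : ℂ) * τ) + (r : ℂ) * D.t = (r : ℂ) * ((D.L' : ℂ) * τ + D.t) := by ring
    rw [this]
    exact mul_ne_zero hr0 (by push_cast at hd1; exact hd1)
  have hd2 := swh_denom_ne_zero (D.L' : ℤ) D.t (Or.inl hL'0) (D.W τ)
  have hd2' : (D.L' : ℂ) * ((r : ℂ) * (D.W τ : ℍ)) + (r : ℂ) * D.t ≠ 0 := by
    have : (D.L' : ℂ) * ((r : ℂ) * (D.W τ : ℍ)) + (r : ℂ) * D.t =
        (r : ℂ) * ((D.L' : ℂ) * (D.W τ : ℍ) + D.t) := by ring
    rw [this]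
    exact mul_ne_zero hr0 (by push_cast at hd2; exact hd2)
  have hL0 : (L : ℤ) * (1 + D.t) ≠ 0 ∨ (D.L' : ℤ) * D.y + (r : ℤ) * D.t ^ 2 ≠ 0 := by
    by_contra hcon
    rw [not_or, not_not, not_not] at hcon
    have h := rtk6b_sq_det D
    rw [hcon.1, hcon.2] at h
    simp at h
  have hd3 := swh_denom_ne_zero ((L : ℤ) * (1 + D.t)) ((D.L' : ℤ) * D.y + (r : ℤ) * D.t ^ 2) hL0 τ
  have hW : ((D.W τ : ℍ) : ℂ) =
      ((r : ℂ) * τ + D.y) / ((D.L' : ℂ) * ((r : ℂ) * τ) + (r : ℂ) * D.t) :=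
    coe_swhW D.L' r D.y D.t D.hdet τ
  have hWW : ((D.W (D.W τ) : ℍ) : ℂ) =
      ((r : ℂ) * (D.W τ : ℍ) + D.y) / ((D.L' : ℂ) * ((r : ℂ) * (D.W τ : ℍ)) + (r : ℂ) * D.t) :=
    coe_swhW D.L' r D.y D.t D.hdet (D.W τ)
  have hrel := (eq_div_iff hd1').mp hW
  rw [hWW, rtk6bSq, coe_swapMat_smul]
  push_cast at hd3 ⊢
  rw [div_eq_div_iff hd2' hd3]
  have hLc : (L : ℂ) = (D.L' : ℂ) * r := by
    have := D.hLZ
    exact_mod_cast this
  rw [hLc]
  linear_combination ((r : ℂ) * D.t - D.y * D.L') * hrel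

end Sq

end Fermat.Agent.RT.K6

end
end ZBES1_003_13

/-! ### bundled: `Fermat.Agent.ES1.G2.SwapHBridge` -/
section ZBES1_003_14

/-!
# ES₁ / G2, piece SWAP, the bridge (helper40)

Generic transfer of polynomial relations: if the functions `gA i` on `ℍ` are meromorphic at `∞`
with Laurent expansions `gB i` (coefficients in `ℚ̄ ⊂ ℂ`), then

* `swh_bridge` : `P(gB) = 0` in `ℚ̄((q))` iff `P(gA(τ)) = 0` for all `τ ∈ ℍ`;
* `swh_rel_iff` : if `gA i ∘ W = gA (s i)` for a surjective `W : ℍ → ℍ`, then the families `gB` and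
  `gB ∘ s` satisfy the same polynomial relations over `ℚ̄`;
* `swh_exists_algHom` : hence a `ℚ̄`-endomorphism `φ` of `S = ℚ̄(gB)` with `φ (gB i) = gB (s i)`.
-/

set_option autoImplicit false
set_option linter.style.haveILetI false

noncomputable section

namespace Fermat.Agent.ES1.G2

open UpperHalfPlane ModularCurve Fermat.Agent.S23 Fermat.Agent.S24 Fermat.Agent.S28

section generic

variable {ι : Type*}

theorem swh_coeffMap_aeval (gB : ι → LaurentSeries Kb) (P : MvPolynomial ι Kb) :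
    coeffMap embC (MvPolynomial.aeval gB P) =
      MvPolynomial.aeval (fun i => coeffMap embC (gB i)) (MvPolynomial.map embC P) := by
  rw [MvPolynomial.aeval_def, MvPolynomial.aeval_def, MvPolynomial.eval₂_map,
    MvPolynomial.hom_eval₂]
  congr 1
  ext c : 1
  simp only [RingHom.comp_apply, algebraMap_laurentSeries_eq_single, coeffMap_single]

/-- **Bridge**: a polynomial relation between the formal `gB i` over `ℚ̄` holds iff it holds
between the values of the functions `gA i` at every point of `ℍ`. -/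
theorem swh_bridge (gA : ι → ℍ → ℂ) (gB : ι → LaurentSeries Kb) (hA : ∀ i, IsMerInf (gA i))
    (hAB : ∀ i, laurentOf (gA i) = coeffMap embC (gB i)) (P : MvPolynomial ι Kb) :
    MvPolynomial.aeval gB P = 0 ↔
      ∀ τ : ℍ, MvPolynomial.aeval (R := ℂ) (fun i => gA i τ) (MvPolynomial.map embC P) = 0 := by
  set Q : MvPolynomial ι ℂ := MvPolynomial.map embC P with hQ
  let gA' : ι → merInf := fun i => ⟨gA i, hA i⟩
  have h1 : laurentExp (MvPolynomial.aeval gA' Q) =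
      MvPolynomial.aeval (fun i => coeffMap embC (gB i)) Q := by
    rw [MvPolynomial.comp_aeval_apply gA' laurentExp Q]
    have h0 : (fun i => laurentExp (gA' i)) = fun i => coeffMap embC (gB i) :=
      funext fun i => hAB i
    rw [h0]
  have h2 : ∀ τ : ℍ, ((MvPolynomial.aeval gA' Q : merInf) : ℍ → ℂ) τ =
      MvPolynomial.aeval (R := ℂ) (fun i => gA i τ) Q := by
    intro τ
    have h3 := MvPolynomial.comp_aeval_apply gA' (merInf.val) Q
    have h4 := MvPolynomial.comp_aeval_apply (fun i => ((gA' i : merInf) : ℍ → ℂ))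
      (Pi.evalAlgHom ℂ (fun _ : ℍ => ℂ) τ) Q
    have h5 : ((MvPolynomial.aeval gA' Q : merInf) : ℍ → ℂ) =
        MvPolynomial.aeval (fun i => ((gA' i : merInf) : ℍ → ℂ)) Q := h3
    rw [h5]
    exact h4
  constructor
  · intro h τ
    rw [← h2 τ]
    have h6 : MvPolynomial.aeval gA' Q = 0 := by
      apply laurentExp_injective
      rw [h1, map_zero, ← swh_coeffMap_aeval, h, map_zero]
    rw [h6]
    rfl
  · intro h
    apply br_coeffMap_embC_injective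
    rw [map_zero, swh_coeffMap_aeval, ← h1]
    have h6 : MvPolynomial.aeval gA' Q = 0 := by
      apply Subtype.ext
      funext τ
      rw [h2 τ, h τ]
      rfl
    rw [h6, map_zero]

/-- transfer of relations along a substitution `W` -/
theorem swh_rel_iff (gA : ι → ℍ → ℂ) (gB : ι → LaurentSeries Kb) (hA : ∀ i, IsMerInf (gA i))
    (hAB : ∀ i, laurentOf (gA i) = coeffMap embC (gB i)) (s : ι → ι) (W : ℍ → ℍ)
    (hW : Function.Surjective W) (hs : ∀ i τ, gA i (W τ) = gA (s i) τ)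
    (P : MvPolynomial ι Kb) :
    MvPolynomial.aeval gB P = 0 ↔ MvPolynomial.aeval (fun i => gB (s i)) P = 0 := by
  rw [swh_bridge gA gB hA hAB P,
    swh_bridge (fun i => gA (s i)) (fun i => gB (s i)) (fun i => hA (s i))
      (fun i => hAB (s i)) P]
  constructor
  · intro h τ
    have h1 := h (W τ)
    have h2 : (fun i => gA i (W τ)) = fun i => gA (s i) τ := funext fun i => hs i τ
    rw [h2] at h1
    exact h1
  · intro h z
    obtain ⟨τ, rfl⟩ := hW z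
    have h1 := h τ
    have h2 : (fun i => gA i (W τ)) = fun i => gA (s i) τ := funext fun i => hs i τ
    rw [h2]
    exact h1

/-- the endomorphism of `S = ℚ̄(gB)` defined by the substitution `W` -/
theorem swh_exists_algHom (S : IntermediateField Kb (LaurentSeries Kb))
    (gA : ι → ℍ → ℂ) (gB : ι → LaurentSeries Kb)
    (hS : S = IntermediateField.adjoin Kb (Set.range gB)) (hA : ∀ i, IsMerInf (gA i))
    (hAB : ∀ i, laurentOf (gA i) = coeffMap embC (gB i)) (s : ι → ι) (W : ℍ → ℍ)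
    (hW : Function.Surjective W) (hs : ∀ i τ, gA i (W τ) = gA (s i) τ) :
    ∃ φ : S →ₐ[Kb] S, ∀ (i : ι) (hi : gB i ∈ S),
      ((φ ⟨gB i, hi⟩ : S) : LaurentSeries Kb) = gB (s i) := by
  have hmem : ∀ i, gB i ∈ S := fun i => by
    rw [hS]; exact IntermediateField.subset_adjoin Kb _ ⟨i, rfl⟩
  obtain ⟨φ, hφ⟩ := br_exists_algHom_of_eq_adjoin S gB hS
    (fun i => (⟨gB (s i), hmem (s i)⟩ : S)) (fun P => by
      rw [swh_rel_iff gA gB hA hAB s W hW hs P]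
      have h := MvPolynomial.comp_aeval_apply (fun i => (⟨gB (s i), hmem (s i)⟩ : S))
        (IntermediateField.val S) P
      have h' : MvPolynomial.aeval (fun i => gB (s i)) P =
          ((MvPolynomial.aeval (fun i => (⟨gB (s i), hmem (s i)⟩ : S)) P : S) :
            LaurentSeries Kb) := h.symm
      rw [h']
      exact ⟨fun h0 => Subtype.ext h0, fun h0 => congrArg Subtype.val h0⟩)
  exact ⟨φ, fun i hi => by rw [hφ i hi]⟩

end generic

end Fermat.Agent.ES1.G2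

end
end ZBES1_003_14

/-! ### bundled: `Fermat.Agent.ES1.G2.SwapH` -/
section ZBES1_003_15

/-!
# ES₁ / G2, piece SWAP (helper40): `stmtSwapH : StmtSwapH`

The Atkin–Lehner endomorphism `w` of `fieldBar (L ℓ) M H` (`ℓ` prime, `ℓ ∤ L`):
`j(q^d) ↦ j(q^{dℓ})`, `j(q^{dℓ}) ↦ j(q^d)`, `S_a(q^e) ↦ S_a(q^{eℓ})`, `S_a(q^{eℓ}) ↦ S_{aℓ}(q^e)`
(`d ∣ L`, `e M ∣ L`), so that `w ∘ α = β` and `w ∘ β = α ∘ δ_ℓ`.  It is the substitution
`τ ↦ W τ = [[1, k], [L, ℓ w₀]] • (ℓ τ)` (`SwapHAn.lean`), transported to `q`-expansions by the bridge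
(`SwapHBridge.lean`).
-/

set_option autoImplicit false
set_option linter.style.haveILetI false

noncomputable section

namespace Fermat.Agent.ES1.G2

open UpperHalfPlane ModularCurve Fermat.Agent.S23 Fermat.Agent.S24 Fermat.Agent.S28
open Fermat.Agent.ES1

/-- the index set of the generators of `fieldBar N M H`: `d ∣ N`, resp. `(e, a)` with `e M ∣ N` -/
abbrev SwhIx (N M : ℕ) : Type := {d : ℕ // d ∣ N} ⊕ {p : ℕ × (ZMod M)ˣ // p.1 * M ∣ N}

section Families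

variable (N M : ℕ) [NeZero N] (H : Subgroup (ZMod M)ˣ)

theorem swh_neZero_of_dvd {d : ℕ} (hd : d ∣ N) : NeZero d :=
  ⟨ne_zero_of_dvd_ne_zero (NeZero.ne N) hd⟩

theorem swh_neZero_of_mul_dvd {e : ℕ} (he : e * M ∣ N) : NeZero e :=
  ⟨ne_zero_of_dvd_ne_zero (NeZero.ne N) ((dvd_mul_right e M).trans he)⟩

/-- the formal generators `j(q^d)`, `S_a(q^e)` -/
def swhB : SwhIx N M → LaurentSeries Kb
  | Sum.inl d => haveI := swh_neZero_of_dvd N d.2; qExpand Kb d.1 (jqModC Kb)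
  | Sum.inr p => haveI := swh_neZero_of_mul_dvd N M p.2; qExpand Kb p.1.1 (sS Kb M H p.1.2)

/-- the analytic generators `J(dτ)`, `θ_a(eτ)` -/
def swhA : SwhIx N M → ℍ → ℂ
  | Sum.inl d => haveI := swh_neZero_of_dvd N d.2; fun z => Jfun (scaleN d.1 z)
  | Sum.inr p => haveI := swh_neZero_of_mul_dvd N M p.2; es1rcThetaE p.1.1 H p.1.2

theorem swhB_inl (d : ℕ) [NeZero d] (hd : d ∣ N) :
    swhB N M H (Sum.inl ⟨d, hd⟩) = qExpand Kb d (jqModC Kb) := rfl

theorem swhB_inr (e : ℕ) [NeZero e] (a : (ZMod M)ˣ) (he : e * M ∣ N) :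
    swhB N M H (Sum.inr ⟨(e, a), he⟩) = qExpand Kb e (sS Kb M H a) := rfl

theorem swhB_inl_congr {d' : ℕ} (d : ℕ) [NeZero d] (hd' : d' ∣ N) (h : d' = d) :
    swhB N M H (Sum.inl ⟨d', hd'⟩) = qExpand Kb d (jqModC Kb) := by
  subst h; rfl

theorem swhB_inr_congr {e' : ℕ} (e : ℕ) [NeZero e] (a : (ZMod M)ˣ) (he' : e' * M ∣ N)
    (h : e' = e) :
    swhB N M H (Sum.inr ⟨(e', a), he'⟩) = qExpand Kb e (sS Kb M H a) := by
  subst h; rfl

theorem swhA_inl (d : ℕ) [NeZero d] (hd : d ∣ N) (z : ℍ) :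
    swhA N M H (Sum.inl ⟨d, hd⟩) z = Jfun (scaleN d z) := rfl

theorem swhA_inr (e : ℕ) [NeZero e] (a : (ZMod M)ˣ) (he : e * M ∣ N) (z : ℍ) :
    swhA N M H (Sum.inr ⟨(e, a), he⟩) z = es1rcThetaE e H a z := rfl

theorem swhA_inl_congr {d' : ℕ} (d : ℕ) [NeZero d] (hd' : d' ∣ N) (h : d' = d) (z : ℍ) :
    swhA N M H (Sum.inl ⟨d', hd'⟩) z = Jfun (scaleN d z) := by
  subst h; rfl

theorem swhA_inr_congr {e' : ℕ} (e : ℕ) [NeZero e] (a : (ZMod M)ˣ) (he' : e' * M ∣ N)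
    (h : e' = e) (z : ℍ) :
    swhA N M H (Sum.inr ⟨(e', a), he'⟩) z = es1rcThetaE e H a z := by
  subst h; rfl

theorem swhA_isMerInf [NeZero M] (i : SwhIx N M) : IsMerInf (swhA N M H i) := by
  rcases i with ⟨d, hd⟩ | ⟨⟨e, a⟩, he⟩
  · haveI := swh_neZero_of_dvd N hd
    exact isMerInf_comp_scaleN d isMerInf_Jfun
  · haveI := swh_neZero_of_mul_dvd N M he
    exact es1rcThetaE_isMerInf H a e

theorem swh_laurentOf [NeZero M] (i : SwhIx N M) :
    laurentOf (swhA N M H i) = coeffMap embC (swhB N M H i) := by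
  rcases i with ⟨d, hd⟩ | ⟨⟨e, a⟩, he⟩
  · haveI := swh_neZero_of_dvd N hd
    have h1 : laurentOf (swhA N M H (Sum.inl ⟨d, hd⟩)) = jqNModC ℂ d := laurentOf_Jfun_scaleN d
    rw [h1, swhB_inl]
    exact (coeffMap_jqNModC embC d).symm
  · haveI := swh_neZero_of_mul_dvd N M he
    have h1 : laurentOf (swhA N M H (Sum.inr ⟨(e, a), he⟩)) = qExpand ℂ e (sS ℂ M H a) :=
      laurentOf_es1rcThetaE H a e
    rw [h1, swhB_inr]
    exact (es1f_coeffMap_qExpand_sS embC M H a e).symm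

theorem swh_range :
    Set.range (swhB N M H) = divisorExpansionsC Kb N ∪ diamondExpansionsC Kb N M H := by
  ext x
  constructor
  · rintro ⟨i, rfl⟩
    rcases i with ⟨d, hd⟩ | ⟨⟨e, a⟩, he⟩
    · exact Or.inl ⟨d, swh_neZero_of_dvd N hd, hd, rfl⟩
    · exact Or.inr ⟨e, swh_neZero_of_mul_dvd N M he, a, he, rfl⟩
  · rintro (⟨d, hne, hd, rfl⟩ | ⟨e, hne, a, he, rfl⟩)
    · exact ⟨Sum.inl ⟨d, hd⟩, rfl⟩
    · exact ⟨Sum.inr ⟨(e, a), he⟩, rfl⟩

theorem swh_fieldBar_eq :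
    fieldBar N M H = IntermediateField.adjoin Kb (Set.range (swhB N M H)) := by
  rw [es1f_fieldBar_eq, swh_range]
  rfl

theorem swh_fieldBar_eq' (L : ℕ) :
    fieldBar L M H = IntermediateField.adjoin Kb
      (divisorExpansionsC Kb L ∪ diamondExpansionsC Kb L M H) := by
  rw [es1f_fieldBar_eq]
  rfl

end Families

/-! ### The swap of the indices -/

section Swap

variable (L M ℓ : ℕ) (c : (ZMod M)ˣ) (hℓ : ℓ.Prime) (hℓM : ¬ ℓ ∣ M)

theorem swh_dvd_of_not_dvd {ℓ : ℕ} (hℓ : ℓ.Prime) {d L : ℕ} (hd : d ∣ L * ℓ) (h : ¬ ℓ ∣ d) :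
    d ∣ L :=
  (Nat.Coprime.symm ((Nat.Prime.coprime_iff_not_dvd hℓ).mpr h)).dvd_of_dvd_mul_right hd

theorem swh_mul_dvd_of_not_dvd {ℓ : ℕ} (hℓ : ℓ.Prime) {M : ℕ} (hℓM : ¬ ℓ ∣ M) {e L : ℕ}
    (he : e * M ∣ L * ℓ) (h : ¬ ℓ ∣ e) : e * M ∣ L :=
  swh_dvd_of_not_dvd hℓ he fun h1 => (hℓ.dvd_mul.mp h1).elim h hℓM

/-- the swap of the indices -/
def swhS : SwhIx (L * ℓ) M → SwhIx (L * ℓ) M
  | Sum.inl d =>
      if h : ℓ ∣ d.1 then Sum.inl ⟨d.1 / ℓ, (Nat.div_dvd_of_dvd h).trans d.2⟩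
      else Sum.inl ⟨d.1 * ℓ, mul_dvd_mul_right (swh_dvd_of_not_dvd hℓ d.2 h) ℓ⟩
  | Sum.inr p =>
      if h : ℓ ∣ p.1.1 then
        Sum.inr ⟨(p.1.1 / ℓ, p.1.2 * c),
          (mul_dvd_mul_right (Nat.div_dvd_of_dvd h) M).trans p.2⟩
      else
        Sum.inr ⟨(p.1.1 * ℓ, p.1.2), by
          have h1 := swh_mul_dvd_of_not_dvd hℓ hℓM p.2 h
          have h2 : p.1.1 * ℓ * M = p.1.1 * M * ℓ := by ring
          show p.1.1 * ℓ * M ∣ L * ℓ
          rw [h2]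
          exact mul_dvd_mul_right h1 ℓ⟩

theorem swhS_inl_of_dvd (d : ℕ) (hd : d ∣ L * ℓ) (h : ℓ ∣ d) :
    swhS L M ℓ c hℓ hℓM (Sum.inl ⟨d, hd⟩) =
      Sum.inl ⟨d / ℓ, (Nat.div_dvd_of_dvd h).trans hd⟩ := dif_pos h

theorem swhS_inl_of_not_dvd (d : ℕ) (hd : d ∣ L * ℓ) (h : ¬ ℓ ∣ d) :
    swhS L M ℓ c hℓ hℓM (Sum.inl ⟨d, hd⟩) =
      Sum.inl ⟨d * ℓ, mul_dvd_mul_right (swh_dvd_of_not_dvd hℓ hd h) ℓ⟩ := dif_neg h

theorem swhS_inr_of_dvd (e : ℕ) (a : (ZMod M)ˣ) (he : e * M ∣ L * ℓ) (h : ℓ ∣ e) :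
    swhS L M ℓ c hℓ hℓM (Sum.inr ⟨(e, a), he⟩) =
      Sum.inr ⟨(e / ℓ, a * c), (mul_dvd_mul_right (Nat.div_dvd_of_dvd h) M).trans he⟩ :=
  dif_pos h

theorem swhS_inr_of_not_dvd (e : ℕ) (a : (ZMod M)ˣ) (he : e * M ∣ L * ℓ) (h : ¬ ℓ ∣ e) :
    ∃ he' : e * ℓ * M ∣ L * ℓ,
      swhS L M ℓ c hℓ hℓM (Sum.inr ⟨(e, a), he⟩) = Sum.inr ⟨(e * ℓ, a), he'⟩ :=
  ⟨_, dif_neg h⟩

end Swap

theorem swh_scaleN_congr {a b : ℕ} [NeZero a] [NeZero b] (h : a = b) (z : ℍ) :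
    scaleN a z = scaleN b z := by
  subst h; rfl

theorem swh_thetaE_congr {M : ℕ} (H : Subgroup (ZMod M)ˣ) (c : (ZMod M)ˣ) {a b : ℕ} [NeZero a]
    [NeZero b] (h : a = b) (z : ℍ) : es1rcThetaE a H c z = es1rcThetaE b H c z := by
  subst h; rfl

/-- the analytic swap: `gA i (W τ) = gA (s i) τ` -/
theorem swh_analytic {L M ℓ : ℕ} [NeZero L] [NeZero M] [NeZero ℓ] [NeZero (L * ℓ)]
    (H : Subgroup (ZMod M)ˣ) (c : (ZMod M)ˣ) (hc : (c : ZMod M) = (ℓ : ZMod M))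
    (hℓ : ℓ.Prime) (hℓM : ¬ ℓ ∣ M)
    (k w₀ : ℤ) (h : (ℓ : ℤ) * w₀ - k * (L : ℤ) = 1) (i : SwhIx (L * ℓ) M) (τ : ℍ) :
    swhA (L * ℓ) M H i (swhW L ℓ k w₀ h τ) = swhA (L * ℓ) M H (swhS L M ℓ c hℓ hℓM i) τ := by
  have hℓ0 : ℓ ≠ 0 := NeZero.ne ℓ
  have hL0 : L ≠ 0 := NeZero.ne L
  rcases i with ⟨d, hd⟩ | ⟨⟨e, a⟩, he⟩
  · haveI := swh_neZero_of_dvd (L * ℓ) hd
    by_cases hdvd : ℓ ∣ d
    · rw [swhS_inl_of_dvd L M ℓ c hℓ hℓM d hd hdvd]
      have hd' : d / ℓ ∣ L := by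
        obtain ⟨d', rfl⟩ := hdvd
        rw [Nat.mul_div_cancel_left d' (Nat.pos_of_ne_zero hℓ0)]
        rw [mul_comm ℓ d'] at hd
        exact Nat.dvd_of_mul_dvd_mul_right (Nat.pos_of_ne_zero hℓ0) hd
      haveI : NeZero (d / ℓ) := ⟨ne_zero_of_dvd_ne_zero hL0 hd'⟩
      haveI : NeZero (d / ℓ * ℓ) := ⟨Nat.mul_ne_zero (NeZero.ne _) hℓ0⟩
      rw [swhA_inl, swhA_inl,
        swh_scaleN_congr (Nat.div_mul_cancel hdvd).symm (swhW L ℓ k w₀ h τ)]
      exact swh_J_W' hL0 k w₀ h (d / ℓ) hd' τ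
    · rw [swhS_inl_of_not_dvd L M ℓ c hℓ hℓM d hd hdvd]
      haveI : NeZero (d * ℓ) := ⟨Nat.mul_ne_zero (NeZero.ne _) hℓ0⟩
      rw [swhA_inl, swhA_inl]
      exact swh_J_W k w₀ h d (swh_dvd_of_not_dvd hℓ hd hdvd) τ
  · haveI := swh_neZero_of_mul_dvd (L * ℓ) M he
    by_cases hdvd : ℓ ∣ e
    · rw [swhS_inr_of_dvd L M ℓ c hℓ hℓM e a he hdvd]
      have he' : e / ℓ * M ∣ L := by
        obtain ⟨e', rfl⟩ := hdvd
        rw [Nat.mul_div_cancel_left e' (Nat.pos_of_ne_zero hℓ0)]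
        have h2 : ℓ * e' * M = e' * M * ℓ := by ring
        rw [h2] at he
        exact Nat.dvd_of_mul_dvd_mul_right (Nat.pos_of_ne_zero hℓ0) he
      haveI : NeZero (e / ℓ) :=
        ⟨ne_zero_of_dvd_ne_zero hL0 ((dvd_mul_right _ M).trans he')⟩
      haveI : NeZero (e / ℓ * ℓ) := ⟨Nat.mul_ne_zero (NeZero.ne _) hℓ0⟩
      rw [swhA_inr, swhA_inr,
        swh_thetaE_congr H a (Nat.div_mul_cancel hdvd).symm (swhW L ℓ k w₀ h τ)]
      exact swh_theta_W' H hL0 k w₀ h (e / ℓ) he' a c hc τ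
    · obtain ⟨he', hs⟩ := swhS_inr_of_not_dvd L M ℓ c hℓ hℓM e a he hdvd
      rw [hs]
      haveI : NeZero (e * ℓ) := ⟨Nat.mul_ne_zero (NeZero.ne _) hℓ0⟩
      rw [swhA_inr, swhA_inr]
      exact swh_theta_W H k w₀ h e (swh_mul_dvd_of_not_dvd hℓ hℓM he hdvd) a τ

/-- the Atkin–Lehner endomorphism on the generators -/
theorem swh_exists_gen {L M ℓ : ℕ} [NeZero L] [NeZero M] [NeZero ℓ] [NeZero (L * ℓ)]
    (H : Subgroup (ZMod M)ˣ) (c : (ZMod M)ˣ) (hc : (c : ZMod M) = (ℓ : ZMod M))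
    (hℓ : ℓ.Prime) (hℓM : ¬ ℓ ∣ M) (hℓL : ¬ ℓ ∣ L) :
    ∃ φ : fieldBar (L * ℓ) M H →ₐ[Kb] fieldBar (L * ℓ) M H,
      ∀ (i : SwhIx (L * ℓ) M) (hi : swhB (L * ℓ) M H i ∈ fieldBar (L * ℓ) M H),
        ((φ ⟨swhB (L * ℓ) M H i, hi⟩ : fieldBar (L * ℓ) M H) : LaurentSeries Kb) =
          swhB (L * ℓ) M H (swhS L M ℓ c hℓ hℓM i) := by
  have hcop : Nat.Coprime ℓ L := (Nat.Prime.coprime_iff_not_dvd hℓ).mpr hℓL
  obtain ⟨u, v, huv⟩ := Nat.Coprime.isCoprime hcop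
  have hdet : (ℓ : ℤ) * u - (-v) * (L : ℤ) = 1 := by linear_combination huv
  exact swh_exists_algHom (fieldBar (L * ℓ) M H) (swhA (L * ℓ) M H) (swhB (L * ℓ) M H)
    (swh_fieldBar_eq (L * ℓ) M H) (swhA_isMerInf (L * ℓ) M H) (swh_laurentOf (L * ℓ) M H)
    (swhS L M ℓ c hℓ hℓM) (swhW L ℓ (-v) u hdet) (swhW_surjective L ℓ (-v) u hdet)
    (swh_analytic H c hc hℓ hℓM (-v) u hdet)

/-- **piece SWAP**: the Atkin–Lehner endomorphism `w` of `fieldBar (L ℓ) M H` with `w ∘ α = β`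
and `w ∘ β = α ∘ δ_ℓ`. -/
theorem stmtSwapH : StmtSwapH := by
  intro L M H ℓ _ hL0 hML hℓ hℓL c hc δ hδ
  haveI : NeZero L := ⟨hL0⟩
  have hM0 : M ≠ 0 := ne_zero_of_dvd_ne_zero hL0 hML
  haveI : NeZero M := ⟨hM0⟩
  have hℓ0 : ℓ ≠ 0 := hℓ.ne_zero
  haveI : NeZero (L * ℓ) := ⟨Nat.mul_ne_zero hL0 hℓ0⟩
  have hℓM : ¬ ℓ ∣ M := fun h => hℓL (h.trans hML)
  obtain ⟨φ, hφ⟩ := swh_exists_gen H c hc hℓ hℓM hℓL
  have hmem : ∀ i, swhB (L * ℓ) M H i ∈ fieldBar (L * ℓ) M H := fun i => by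
    rw [swh_fieldBar_eq (L * ℓ) M H]
    exact IntermediateField.subset_adjoin Kb _ ⟨i, rfl⟩
  have h1 : φ.comp (es1hAlpha L M H ℓ) = es1hBeta L M H ℓ := by
    apply IntermediateField.algHom_ext_of_eq_adjoin Kb (swh_fieldBar_eq' M H L)
    rintro x (⟨d, hne, hd, rfl⟩ | ⟨e, hne, a, he, rfl⟩)
    · apply Subtype.ext
      have hd' : d ∣ L * ℓ := hd.trans (dvd_mul_right L ℓ)
      have hnd : ¬ ℓ ∣ d := fun h => hℓL (h.trans hd)
      haveI : NeZero (d * ℓ) := ⟨Nat.mul_ne_zero (NeZero.ne d) hℓ0⟩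
      have h2 : ((φ ⟨swhB (L * ℓ) M H (Sum.inl ⟨d, hd'⟩), hmem _⟩ : fieldBar (L * ℓ) M H) :
          LaurentSeries Kb) = qExpand Kb (d * ℓ) (jqModC Kb) := by
        rw [hφ, swhS_inl_of_not_dvd L M ℓ c hℓ hℓM d hd' hnd]
        rfl
      refine Eq.trans h2 ?_
      show _ = qExpand Kb ℓ (qExpand Kb d (jqModC Kb))
      rw [qExpand_qExpand]
      exact qExpand_congr (mul_comm d ℓ) _
    · apply Subtype.ext
      have he' : e * M ∣ L * ℓ := he.trans (dvd_mul_right L ℓ)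
      have hne' : ¬ ℓ ∣ e := fun h => hℓL ((h.trans (dvd_mul_right e M)).trans he)
      haveI : NeZero (e * ℓ) := ⟨Nat.mul_ne_zero (NeZero.ne e) hℓ0⟩
      obtain ⟨he'', hs⟩ := swhS_inr_of_not_dvd L M ℓ c hℓ hℓM e a he' hne'
      have h2 : ((φ ⟨swhB (L * ℓ) M H (Sum.inr ⟨(e, a), he'⟩), hmem _⟩ :
          fieldBar (L * ℓ) M H) : LaurentSeries Kb) = qExpand Kb (e * ℓ) (sS Kb M H a) := by
        rw [hφ, hs]
        rfl
      refine Eq.trans h2 ?_
      show _ = qExpand Kb ℓ (qExpand Kb e (sS Kb M H a))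
      rw [qExpand_qExpand]
      exact qExpand_congr (mul_comm e ℓ) _
  have h2 : φ.comp (es1hBeta L M H ℓ) = (es1hAlpha L M H ℓ).comp (δ : _ →ₐ[Kb] _) := by
    apply IntermediateField.algHom_ext_of_eq_adjoin Kb (swh_fieldBar_eq' M H L)
    rintro x (⟨d, hne, hd, rfl⟩ | ⟨e, hne, a, he, rfl⟩)
    · apply Subtype.ext
      have hd' : d * ℓ ∣ L * ℓ := mul_dvd_mul_right hd ℓ
      haveI : NeZero (d * ℓ) := ⟨Nat.mul_ne_zero (NeZero.ne d) hℓ0⟩
      have h3 := hφ (Sum.inl ⟨d * ℓ, hd'⟩) (hmem _)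
      rw [swhS_inl_of_dvd L M ℓ c hℓ hℓM (d * ℓ) hd' (dvd_mul_left ℓ d),
        swhB_inl_congr (L * ℓ) M H d _ (Nat.mul_div_cancel d (Nat.pos_of_ne_zero hℓ0))] at h3
      have hx : ∀ hx, es1hBeta L M H ℓ ⟨qExpand Kb d (jqModC Kb), hx⟩ =
          ⟨swhB (L * ℓ) M H (Sum.inl ⟨d * ℓ, hd'⟩), hmem _⟩ := by
        intro hx
        apply Subtype.ext
        show qExpand Kb ℓ (qExpand Kb d (jqModC Kb)) = qExpand Kb (d * ℓ) (jqModC Kb)
        rw [qExpand_qExpand]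
        exact qExpand_congr (mul_comm ℓ d) _
      rw [AlgHom.comp_apply, hx, h3, AlgHom.comp_apply, coe_es1hAlpha]
      exact (congrArg Subtype.val
        (hδ.fix_j d hd ⟨qExpand Kb d (jqModC Kb), _⟩ rfl)).symm
    · apply Subtype.ext
      have he' : e * ℓ * M ∣ L * ℓ := by
        have : e * ℓ * M = e * M * ℓ := by ring
        rw [this]
        exact mul_dvd_mul_right he ℓ
      haveI : NeZero (e * ℓ) := ⟨Nat.mul_ne_zero (NeZero.ne e) hℓ0⟩
      have h3 := hφ (Sum.inr ⟨(e * ℓ, a), he'⟩) (hmem _)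
      rw [swhS_inr_of_dvd L M ℓ c hℓ hℓM (e * ℓ) a he' (dvd_mul_left ℓ e),
        swhB_inr_congr (L * ℓ) M H e (a * c) _
          (Nat.mul_div_cancel e (Nat.pos_of_ne_zero hℓ0))] at h3
      have hx : ∀ hx, es1hBeta L M H ℓ ⟨qExpand Kb e (sS Kb M H a), hx⟩ =
          ⟨swhB (L * ℓ) M H (Sum.inr ⟨(e * ℓ, a), he'⟩), hmem _⟩ := by
        intro hx
        apply Subtype.ext
        show qExpand Kb ℓ (qExpand Kb e (sS Kb M H a)) = qExpand Kb (e * ℓ) (sS Kb M H a)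
        rw [qExpand_qExpand]
        exact qExpand_congr (mul_comm ℓ e) _
      rw [AlgHom.comp_apply, hx, h3, AlgHom.comp_apply, coe_es1hAlpha]
      exact (hδ.map_s e a he ⟨qExpand Kb e (sS Kb M H a), _⟩ rfl).symm
  refine ⟨φ.toRingHom, fun x => ?_, fun x => ?_⟩
  · exact congrArg (fun f => f x) h1
  · exact congrArg (fun f => f x) h2

end Fermat.Agent.ES1.G2

end
end ZBES1_003_15

/-! ### bundled: `Fermat.Agent.RT.K6.BFam` -/
section ZBES1_003_16

/-!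
# RT-K6 / B (6): the generators of `fieldBar L M H` under `W` (helper96)

* `rtk6bTA D H i = swhA L M H i ∘ W` : the analytic targets;
* `rtk6bTB D H i` : the formal targets (in `ℚ̄((q))`): `j(q^{d'})`, resp.
  `∑_{a' ∈ ± a H} T_{a'}(q^e)`;
* `rtk6b_laurentOf_TA` : `laurentOf (TA i) = embC (TB i)`;
* `rtk6bTB_mem` : `TB i ∈ fieldBar L M H` for star-stable `H`.
-/

set_option autoImplicit false
set_option linter.style.haveILetI false
set_option linter.unusedSectionVars false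

open UpperHalfPlane ModularForm CongruenceSubgroup Matrix
open Fermat.Agent.ES Fermat.Agent.S23 Fermat.Agent.S24 Fermat.Agent.S28
open Fermat.Agent.ES1 Fermat.Agent.ES1.G2 Fermat.Agent.ES.G2 ModularCurve
open Fermat.Agent.S24.KExp (zetaBD zetaBD_mem_range)
open scoped MatrixGroups Manifold Real

noncomputable section

namespace Fermat.Agent.RT.K6

/-! ### the roots of unity in `ℚ̄` -/

theorem rtk6bXi_eq_zetaBD (r : ℕ) : rtk6bXi r = zetaBD 1 r := by
  unfold rtk6bXi rtk6bZ zetaBD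
  push_cast
  rfl

theorem rtk6bXi'_eq_zetaBD (r : ℕ) : rtk6bXi' r = zetaBD (-1) r := by
  unfold rtk6bXi' rtk6bZi zetaBD
  rfl

theorem rtk6b_exists_xiB (r : ℕ) [NeZero r] : ∃ ξ : Kb, embC ξ = rtk6bXi r := by
  rw [rtk6bXi_eq_zetaBD]
  exact zetaBD_mem_range 1 (Nat.pos_of_ne_zero (NeZero.ne r))

theorem rtk6b_exists_xiB' (r : ℕ) [NeZero r] : ∃ ξ : Kb, embC ξ = rtk6bXi' r := by
  rw [rtk6bXi'_eq_zetaBD]
  exact zetaBD_mem_range (-1) (Nat.pos_of_ne_zero (NeZero.ne r))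

/-- `ζ_r ∈ ℚ̄` -/
def rtk6bXiB (r : ℕ) [NeZero r] : Kb := (rtk6b_exists_xiB r).choose

/-- `ζ_r⁻¹ ∈ ℚ̄` -/
def rtk6bXiB' (r : ℕ) [NeZero r] : Kb := (rtk6b_exists_xiB' r).choose

theorem embC_rtk6bXiB (r : ℕ) [NeZero r] : embC (rtk6bXiB r) = rtk6bXi r :=
  (rtk6b_exists_xiB r).choose_spec

theorem embC_rtk6bXiB' (r : ℕ) [NeZero r] : embC (rtk6bXiB' r) = rtk6bXi' r :=
  (rtk6b_exists_xiB' r).choose_spec

theorem rtk6bXiB_pow (r : ℕ) [NeZero r] : rtk6bXiB r ^ r = 1 := by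
  apply embC.injective
  rw [map_pow, embC_rtk6bXiB, map_one, rtk6bXi_pow]

theorem rtk6bXiB_mul (r : ℕ) [NeZero r] : rtk6bXiB r * rtk6bXiB' r = 1 := by
  apply embC.injective
  rw [map_mul, embC_rtk6bXiB, embC_rtk6bXiB', map_one, rtk6bXi_mul_Xi']

/-! ### arithmetic of the data -/

namespace RtBDat

variable {L M r : ℕ} (D : RtBDat L M r)

include D

theorem dvd_L'_of_not_dvd {d : ℕ} (hd : d ∣ L) (h : ¬ r ∣ d) : d ∣ D.L' := by
  have h1 : d ∣ D.L' * r := D.hL ▸ hd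
  exact (Nat.Coprime.symm ((Nat.Prime.coprime_iff_not_dvd D.hr).mpr h)).dvd_of_dvd_mul_right h1

theorem div_dvd_L' {d : ℕ} (hd : d ∣ L) (h : r ∣ d) : d / r ∣ D.L' := by
  obtain ⟨d', rfl⟩ := h
  rw [Nat.mul_div_cancel_left d' D.hr.pos]
  have h1 : r * d' ∣ D.L' * r := D.hL ▸ hd
  rw [mul_comm r d'] at h1
  exact Nat.dvd_of_mul_dvd_mul_right D.hr.pos h1

theorem mul_dvd_L {d : ℕ} (hd : d ∣ D.L') : d * r ∣ L := by
  have := mul_dvd_mul_right hd r
  rw [← D.hL] at this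
  exact this

theorem eM'_dvd {e : ℕ} (he : e * M ∣ L) : e * D.M' ∣ D.L' := by
  have h1 : e * (D.M' * r) ∣ D.L' * r := by
    have h2 := he
    rw [D.hM] at h2
    exact D.hL ▸ h2
  rw [← mul_assoc] at h1
  exact Nat.dvd_of_mul_dvd_mul_right D.hr.pos h1

theorem e_dvd {e : ℕ} (he : e * M ∣ L) : e ∣ D.L' :=
  (Dvd.intro _ rfl).trans (D.eM'_dvd he)

/-- `f = L' / e` -/
def f (e : ℕ) : ℤ := ((D.L' / e : ℕ) : ℤ)

theorem L'_eq {e : ℕ} (he : e * M ∣ L) : D.L' = e * (D.L' / e) :=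
  (Nat.mul_div_cancel' (D.e_dvd he)).symm

theorem M'_dvd_f {e : ℕ} (he0 : e ≠ 0) (he : e * M ∣ L) : (D.M' : ℤ) ∣ D.f e := by
  unfold f
  have h1 := D.eM'_dvd he
  obtain ⟨k, hk⟩ := h1
  have h2 : D.L' / e = D.M' * k := by
    rw [hk, mul_assoc, Nat.mul_div_cancel_left _ (Nat.pos_of_ne_zero he0)]
  rw [h2]
  push_cast
  exact Dvd.intro _ rfl

theorem hrf {e : ℕ} (he0 : e ≠ 0) (he : e * M ∣ L) : (M : ℤ) ∣ (r : ℤ) * D.f e := by
  rw [D.hMZ, mul_comm (D.M' : ℤ) (r : ℤ)]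
  exact mul_dvd_mul_left _ (D.M'_dvd_f he0 he)

theorem hdet_e {e : ℕ} (he : e * M ∣ L) :
    (1 : ℤ) * ((r : ℤ) * D.t) - ((e : ℤ) * D.y) * ((D.L' / e : ℕ) : ℤ) = 1 := by
  have h1 : (D.L' : ℤ) = (e : ℤ) * ((D.L' / e : ℕ) : ℤ) := by
    have := D.L'_eq he
    exact_mod_cast this
  have h2 := D.hdet
  rw [h1] at h2
  linear_combination h2

end RtBDat

/-! ### `θ_a(e · W τ)` -/

section Theta

variable {L M r : ℕ} (D : RtBDat L M r) (H : Subgroup (ZMod M)ˣ)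

theorem rtk6b_scaleN_mul (e r : ℕ) [NeZero e] [NeZero r] [NeZero (e * r)] (τ : ℍ) :
    scaleN (e * r) τ = scaleN r (scaleN e τ) := by
  apply UpperHalfPlane.ext
  simp only [coe_scaleN]
  push_cast
  ring

theorem rtk6b_thetaE_W [NeZero M] [NeZero r] (e : ℕ) [NeZero e] (he : e * M ∣ L)
    (a : (ZMod M)ˣ) (τ : ℍ) :
    es1rcThetaE e H a (D.W τ) =
      ∑ a' ∈ cosetReps M H a, rtk6bPsi M r D.s (D.f e) (a' : ZMod M) (scaleN e τ) := by
  haveI : NeZero (e * r) := ⟨Nat.mul_ne_zero (NeZero.ne e) (NeZero.ne r)⟩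
  unfold es1rcThetaE
  rw [es1rcTheta_apply]
  refine Finset.sum_congr rfl fun a' _ => ?_
  have h1 : scaleN e (D.W τ) =
      swapMat 1 ((e : ℤ) * D.y) ((D.L' / e : ℕ) : ℤ) ((r : ℤ) * D.t) (D.hdet_e he) •
        scaleN (e * r) τ :=
    swh_scale_W D.y D.t D.hdet e (D.L' / e) (D.L'_eq he) (D.hdet_e he) τ
  rw [h1, rtk6b_scaleN_mul e r τ]
  exact rtk6b_f2Ga_smul M r D.s (D.f e) (a' : ZMod M) ((e : ℤ) * D.y) (D.hdet_e he) (scaleN e τ)

end Theta

/-! ### the families -/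

section Families

variable {L M r : ℕ} [NeZero L] [NeZero M] [NeZero r] (D : RtBDat L M r)
  (H : Subgroup (ZMod M)ˣ)

/-- the index map on the `j`-generators: `d ↦ d / r` resp. `d r` -/
def rtk6bSd (d : {d : ℕ // d ∣ L}) : {d : ℕ // d ∣ L} :=
  if h : r ∣ d.1 then ⟨d.1 / r, (Nat.div_dvd_of_dvd h).trans d.2⟩
  else ⟨d.1 * r, D.mul_dvd_L (D.dvd_L'_of_not_dvd d.2 h)⟩

theorem rtk6bSd_of_dvd (d : ℕ) (hd : d ∣ L) (h : r ∣ d) :
    rtk6bSd D ⟨d, hd⟩ = ⟨d / r, (Nat.div_dvd_of_dvd h).trans hd⟩ := dif_pos h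

theorem rtk6bSd_of_not_dvd (d : ℕ) (hd : d ∣ L) (h : ¬ r ∣ d) :
    rtk6bSd D ⟨d, hd⟩ = ⟨d * r, D.mul_dvd_L (D.dvd_L'_of_not_dvd hd h)⟩ := dif_neg h

/-- the formal target for the class `x ∈ ℤ/M` at `e` -/
def rtk6bTx (e : ℕ) (x : ZMod M) : LaurentSeries Kb :=
  rtk6bT Kb r (rtk6bXiB r) (rtk6bXiB' r) (rtk6bOm M D.s (D.f e) x)

/-- the formal targets -/
def rtk6bTB : SwhIx L M → LaurentSeries Kb
  | Sum.inl d => swhB L M H (Sum.inl (rtk6bSd D d))
  | Sum.inr p =>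
      haveI := swh_neZero_of_mul_dvd L M p.2
      ∑ a' ∈ cosetReps M H p.1.2, qExpand Kb p.1.1 (rtk6bTx D p.1.1 (a' : ZMod M))

/-- the analytic targets -/
def rtk6bTA (i : SwhIx L M) : ℍ → ℂ := fun τ => swhA L M H i (D.W τ)

theorem rtk6bTB_inr (e : ℕ) [NeZero e] (a : (ZMod M)ˣ) (he : e * M ∣ L) :
    rtk6bTB D H (Sum.inr ⟨(e, a), he⟩) =
      ∑ a' ∈ cosetReps M H a, qExpand Kb e (rtk6bTx D e (a' : ZMod M)) := rfl

theorem rtk6bTA_inl (d : {d : ℕ // d ∣ L}) (τ : ℍ) :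
    rtk6bTA D H (Sum.inl d) τ = swhA L M H (Sum.inl (rtk6bSd D d)) τ := by
  obtain ⟨d, hd⟩ := d
  have hr0 : r ≠ 0 := NeZero.ne r
  haveI := swh_neZero_of_dvd L hd
  unfold rtk6bTA
  by_cases hdvd : r ∣ d
  · rw [rtk6bSd_of_dvd D d hd hdvd]
    have hd' : d / r ∣ D.L' := D.div_dvd_L' hd hdvd
    haveI : NeZero (d / r) := ⟨ne_zero_of_dvd_ne_zero D.hL0 hd'⟩
    haveI : NeZero (d / r * r) := ⟨Nat.mul_ne_zero (NeZero.ne _) hr0⟩
    rw [swhA_inl, swhA_inl, swh_scaleN_congr (Nat.div_mul_cancel hdvd).symm (D.W τ)]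
    exact swh_J_W' D.hL0 D.y D.t D.hdet (d / r) hd' τ
  · rw [rtk6bSd_of_not_dvd D d hd hdvd]
    haveI : NeZero (d * r) := ⟨Nat.mul_ne_zero (NeZero.ne _) hr0⟩
    rw [swhA_inl, swhA_inl]
    exact swh_J_W D.y D.t D.hdet d (D.dvd_L'_of_not_dvd hd hdvd) τ

theorem rtk6bTA_inr (e : ℕ) [NeZero e] (a : (ZMod M)ˣ) (he : e * M ∣ L) :
    rtk6bTA D H (Sum.inr ⟨(e, a), he⟩) =
      ∑ a' ∈ cosetReps M H a, fun τ => rtk6bPsi M r D.s (D.f e) (a' : ZMod M) (scaleN e τ) := by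
  funext τ
  rw [Finset.sum_apply]
  exact rtk6b_thetaE_W D H e he a τ

theorem rtk6bTA_isMerInf (i : SwhIx L M) : IsMerInf (rtk6bTA D H i) := by
  rcases i with d | ⟨⟨e, a⟩, he⟩
  · have h : rtk6bTA D H (Sum.inl d) = swhA L M H (Sum.inl (rtk6bSd D d)) :=
      funext fun τ => rtk6bTA_inl D H d τ
    rw [h]
    exact swhA_isMerInf L M H _
  · haveI := swh_neZero_of_mul_dvd L M he
    rw [rtk6bTA_inr D H e a he]
    exact Fermat.Agent.ES.RC.rc_isMerInf_sum _ _ fun a' _ =>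
      isMerInf_comp_scaleN e (rtk6bPsi_isMerInf M r D.s (D.f e) _ (D.hrf (NeZero.ne e) he))

theorem rtk6b_coeffMap_Tx (e : ℕ) (x : ZMod M) :
    coeffMap embC (rtk6bTx D e x) =
      rtk6bT ℂ r (rtk6bXi r) (rtk6bXi' r) (rtk6bOm M D.s (D.f e) x) := by
  unfold rtk6bTx
  rw [rtk6b_coeffMap_T, embC_rtk6bXiB, embC_rtk6bXiB']

theorem rtk6b_laurentOf_TA (i : SwhIx L M) :
    laurentOf (rtk6bTA D H i) = coeffMap embC (rtk6bTB D H i) := by
  rcases i with d | ⟨⟨e, a⟩, he⟩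
  · have h : rtk6bTA D H (Sum.inl d) = swhA L M H (Sum.inl (rtk6bSd D d)) :=
      funext fun τ => rtk6bTA_inl D H d τ
    rw [h]
    exact swh_laurentOf L M H _
  · haveI := swh_neZero_of_mul_dvd L M he
    rw [rtk6bTA_inr D H e a he, rtk6bTB_inr D H e a he,
      Fermat.Agent.ES.RC.rc_laurentOf_sum _ _ fun a' _ =>
        isMerInf_comp_scaleN e (rtk6bPsi_isMerInf M r D.s (D.f e) _ (D.hrf (NeZero.ne e) he)),
      map_sum]
    refine Finset.sum_congr rfl fun a' _ => ?_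
    rw [laurentOf_comp_scaleN e
      (rtk6bPsi_isMerInf M r D.s (D.f e) _ (D.hrf (NeZero.ne e) he)),
      laurentOf_rtk6bPsi M r D.s (D.f e) _ (D.hrf (NeZero.ne e) he), coeffMap_qExpand,
      rtk6b_coeffMap_Tx]

end Families

/-! ### the targets are modular functions for `Γ_H(M) ∩ Γ₀(L)` -/

section Member

attribute [local instance] Fermat.Agent.S24.algKbC

variable {L M r : ℕ} [NeZero L] [NeZero M] [NeZero r] (D : RtBDat L M r)
  (H : Subgroup (ZMod M)ˣ)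

theorem rtk6b_fieldC_le_baseChange (K : Type*) [Field K] [Algebra ℚ K] (L M : ℕ)
    (H : Subgroup (ZMod M)ˣ) : fieldC K L M H ≤ laurentBaseChange K (fieldQ L M H) := by
  rw [fieldC, IntermediateField.adjoin_le_iff]
  rintro _ (⟨d, hd, hdN, rfl⟩ | ⟨e, he, a, heL, rfl⟩)
  · have h1 : qExpand K d (jqModC K) = coeffEmb K (qExpand ℚ d (jqModC ℚ)) :=
      (coeffMap_jqNModC (algebraMap ℚ K) d).symm
    rw [h1]
    exact coeffEmb_mem_laurentBaseChange _ (jd_mem_fieldC ℚ L M H hdN)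
  · have h1 : qExpand K e (sS K M H a) = coeffEmb K (qExpand ℚ e (sS ℚ M H a)) :=
      (es1f_coeffMap_qExpand_sS (algebraMap ℚ K) M H a e).symm
    rw [h1]
    exact coeffEmb_mem_laurentBaseChange _ (qExpand_sS_mem ℚ L M H heL a)

/-- descent: a series over `ℚ̄` whose image over `ℂ` lies in `fieldC ℂ L M H` lies in
`fieldBar L M H` -/
theorem rtk6b_mem_fieldBar_of_coeffMap {x : LaurentSeries Kb}
    (h : coeffMap embC x ∈ fieldC ℂ L M H) : x ∈ fieldBar L M H := by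
  have h1 : coeffMap (algebraMap Kb ℂ) x ∈ laurentBaseChange ℂ (fieldQ L M H) :=
    rtk6b_fieldC_le_baseChange ℂ L M H h
  exact Fermat.Agent.ES.DescentInj.mem_laurentBaseChange_of_coeffMap_mem (K := Kb) (L := ℂ) _ h1

theorem rtk6b_swhA_isModFunG (hML : M ∣ L) (i : SwhIx L M) :
    IsModFunG (gammaH L M H) (swhA L M H i) := by
  rcases i with ⟨d, hd⟩ | ⟨⟨e, a⟩, he⟩
  · haveI := swh_neZero_of_dvd L hd
    have h1 : IsModFunG (Gamma0 L) (fun z => Jfun (scaleN d z)) :=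
      (isModFunG_gamma0_iff L _).mpr (Fermat.Agent.ES.RC.rc_isModFun_Jfun_scaleN hd)
    exact h1.mono (gammaH_le_gamma0 L M H)
  · haveI := swh_neZero_of_mul_dvd L M he
    exact es1rcThetaE_isModFunG H a e he

theorem rtk6b_companion_mem_Gamma {γ : SL(2, ℤ)} (hγ : γ ∈ Gamma (L * r)) :
    ∃ hdvd : (r : ℤ) ∣ γ 1 0, P7_thetaCompanion r γ hdvd ∈ Gamma L := by
  rw [Gamma_mem] at hγ
  obtain ⟨h00, h01, h10, h11⟩ := hγ
  have hLr : L ∣ L * r := Dvd.intro _ rfl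
  have c00 := congrArg (ZMod.castHom hLr (ZMod L)) h00
  have c01 := congrArg (ZMod.castHom hLr (ZMod L)) h01
  have c11 := congrArg (ZMod.castHom hLr (ZMod L)) h11
  rw [map_intCast, map_one] at c00 c11
  rw [map_intCast, map_zero] at c01
  rw [ZMod.intCast_zmod_eq_zero_iff_dvd] at h10
  obtain ⟨k, hk⟩ := h10
  have hr0 : (r : ℤ) ≠ 0 := by exact_mod_cast NeZero.ne r
  have hdvd : (r : ℤ) ∣ γ 1 0 := ⟨L * k, by rw [hk]; push_cast; ring⟩
  refine ⟨hdvd, ?_⟩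
  rw [Gamma_mem]
  have e00 : (P7_thetaCompanion r γ hdvd) 0 0 = γ 0 0 := by simp [P7_thetaCompanion]
  have e01 : (P7_thetaCompanion r γ hdvd) 0 1 = r * γ 0 1 := by simp [P7_thetaCompanion]
  have e10 : (P7_thetaCompanion r γ hdvd) 1 0 = γ 1 0 / r := by simp [P7_thetaCompanion]
  have e11 : (P7_thetaCompanion r γ hdvd) 1 1 = γ 1 1 := by simp [P7_thetaCompanion]
  rw [e00, e01, e10, e11]
  refine ⟨c00, ?_, ?_, c11⟩
  · push_cast
    rw [c01, mul_zero]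
  · rw [hk]
    push_cast
    rw [show ((L : ℤ) * (r : ℤ) * k) = (r : ℤ) * ((L : ℤ) * k) by ring,
      Int.mul_ediv_cancel_left _ hr0]
    push_cast
    simp

/-- the targets are modular functions of level `Γ(L r)` -/
theorem rtk6bTA_isModFunG_Gamma (hML : M ∣ L) (i : SwhIx L M) :
    IsModFunG (Gamma (L * r)) (rtk6bTA D H i) := by
  haveI : NeZero (L * r) := ⟨Nat.mul_ne_zero (NeZero.ne L) (NeZero.ne r)⟩
  have h1 : IsModFunG (Gamma L) (swhA L M H i) :=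
    (rtk6b_swhA_isModFunG H hML i).mono (es1r_gamma_le_gammaH hML H)
  have h2 : IsModFunG (Gamma L) (fun z => swhA L M H i (D.gW • z)) :=
    h1.comp_normalizer D.gW (fun γ hγ => (Gamma_normal L).conj_mem γ hγ D.gW)
  exact es1rc_isModFunG_comp_scaleN r h2 (fun γ hγ => rtk6b_companion_mem_Gamma hγ)

end Member

end Fermat.Agent.RT.K6

end
end ZBES1_003_16

/-! ### bundled: `Fermat.Agent.ES1.RootOfKummerG` -/
section ZBES1_003_17

/-!
# ES₁ / G1, pieces AN + INJ (function/field level) for an ARBITRARY `Γ ≤ SL(2, ℤ)`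

Generic version of `Fermat/Agent/ES/RootOfKummer.lean`.  `F` is any field of fractions of
`modFunAlgG Γ` (e.g. `fieldC ℂ L M H` for `Γ = gammaH L M H`, once RC-Γ is available).

* `StmtPtG Γ F` : the order at `τ ∈ ℍ` is, on `modFunAlgG Γ`, a positive multiple of the order
  at a place of `F` (the `Γ`-version of `ES.RC.StmtPt`; `stmtPtG_gamma0_iff` is `Iff.rfl`);
* `dvd_ordPt_sub_of_placesG` : if `n ∣ w.ord x` for every place `w` of `F / ℂ` and `x = a / g`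
  with `a g ∈ modFunAlgG Γ`, then `n ∣ ord_τ a - ord_τ g` for every `τ ∈ ℍ`;
* `exists_rootData_of_modFunG` : then there is a root datum `D` (`RootData Γ n`) with
  `D.g = g`, `D.a ^ n = a * g ^ (n - 1)`;
* `exists_rootData_of_placesG` : both steps together;
* `exists_pow_eq_of_mult_eq_oneG` : if the multiplier character of `D` is trivial then `a / g`
  is an `n`-th power in `F`  (needs `Γ.FiniteIndex`);
* `mult_eq_one_of_pow_eqG` : conversely, `n`-th powers in `F` have trivial multiplier.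
-/

set_option autoImplicit false

noncomputable section

open UpperHalfPlane AlgebraicCurve CongruenceSubgroup
open scoped MatrixGroups Manifold

namespace Fermat.Agent.ES1

open Fermat.Agent.S24 Fermat.Agent.S28 Fermat.Agent.ES Fermat.Agent.ES.RC

section Analytic

variable {Γ : Subgroup SL(2, ℤ)} {n : ℕ}

/-- **AN (analytic step).**  If `a`, `g` are modular functions for `Γ` and `n` divides
`ord_τ a - ord_τ g` at every point of `ℍ`, then `a / g` has an `n`-th root `D.a / g` on `ℍ`,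
which is a root datum for `Γ`. -/
theorem exists_rootData_of_modFunG (hn : n ≠ 0) {a g : ℍ → ℂ} (ha : IsModFunG Γ a)
    (hg : IsModFunG Γ g) (ha0 : a ≠ 0) (hg0 : g ≠ 0)
    (hord : ∀ τ : ℍ, (n : ℤ) ∣ ordPt τ a - ordPt τ g) :
    ∃ D : RootData Γ n, D.g = g ∧ ∀ τ, D.a τ ^ n = a τ * g τ ^ (n - 1) := by
  refine RootData.exists_ofDiv hn ha.mdiff hg.mdiff ha0 hg0
    (fun τ => ?_) (fun γ hγ τ => ?_)
  · obtain ⟨k, hk⟩ := hord τ
    exact ⟨k, hk⟩
  · rw [ha.comp_smul hγ τ, hg.comp_smul hγ τ]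

end Analytic

section Field

variable (Γ : Subgroup SL(2, ℤ)) (F : Type) [Field F] [Algebra ℂ F] [Algebra (modFunAlgG Γ) F]

/-- The order at `τ` is, on `modFunAlgG Γ`, a positive multiple of the order at a place of
`F`. -/
def StmtPtG : Prop :=
  ∀ τ : ℍ, ∃ (v : Place ℂ F) (e : ℕ), 0 < e ∧ ∀ f : modFunAlgG Γ, f ≠ 0 →
    ordPt τ (f : ℍ → ℂ) = (e : ℤ) * v.ord (algebraMap (modFunAlgG Γ) F f)

variable [IsFractionRing (modFunAlgG Γ) F] {n : ℕ}

omit [Algebra ℂ F] in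
theorem algebraMap_modFunAlgG_ne_zero {a : modFunAlgG Γ} (ha : a ≠ 0) :
    algebraMap (modFunAlgG Γ) F a ≠ 0 := by
  intro h
  apply ha
  exact IsFractionRing.injective (modFunAlgG Γ) F (by rw [h, map_zero])

theorem coe_modFunAlgG_ne_zero {a : modFunAlgG Γ} (ha : a ≠ 0) : (a : ℍ → ℂ) ≠ 0 :=
  fun h => ha (Subtype.ext h)

theorem mdiff_modFunAlgG (a : modFunAlgG Γ) : MDiff (a : ℍ → ℂ) :=
  IsModFunG.mdiff a.2

/-- **AN (places ⟹ orders).**  If `n` divides the order of `a / g` at every place of `F / ℂ`,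
then `n` divides `ord_τ a - ord_τ g` at every `τ ∈ ℍ`. -/
theorem dvd_ordPt_sub_of_placesG (hPt : StmtPtG Γ F) {a g : modFunAlgG Γ} (ha0 : a ≠ 0)
    (hg0 : g ≠ 0)
    (hU : ∀ w : Place ℂ F,
      (n : ℤ) ∣ w.ord (algebraMap (modFunAlgG Γ) F a / algebraMap (modFunAlgG Γ) F g))
    (τ : ℍ) : (n : ℤ) ∣ ordPt τ (a : ℍ → ℂ) - ordPt τ (g : ℍ → ℂ) := by
  obtain ⟨v, e, -, h⟩ := hPt τ
  have ha' := algebraMap_modFunAlgG_ne_zero Γ F ha0
  have hg' := algebraMap_modFunAlgG_ne_zero Γ F hg0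
  have h1 : v.ord (algebraMap (modFunAlgG Γ) F a / algebraMap (modFunAlgG Γ) F g)
      = v.ord (algebraMap (modFunAlgG Γ) F a) - v.ord (algebraMap (modFunAlgG Γ) F g) := by
    rw [div_eq_mul_inv, Place.ord_mul v ha' (inv_ne_zero hg'), Place.ord_inv, sub_eq_add_neg]
  rw [h a ha0, h g hg0, ← mul_sub, ← h1]
  exact Dvd.dvd.mul_left (hU v) _

/-- **AN.**  A Kummer function `x = a / g` of `F` (all orders at places divisible by `n`) has a
root datum: a holomorphic `D.a` on `ℍ` with `D.a ^ n = a * g ^ (n - 1)`, i.e.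
`(D.a / g) ^ n = a / g`. -/
theorem exists_rootData_of_placesG (hn : n ≠ 0) (hPt : StmtPtG Γ F) {a g : modFunAlgG Γ}
    (ha0 : a ≠ 0) (hg0 : g ≠ 0)
    (hU : ∀ w : Place ℂ F,
      (n : ℤ) ∣ w.ord (algebraMap (modFunAlgG Γ) F a / algebraMap (modFunAlgG Γ) F g)) :
    ∃ D : RootData Γ n, D.g = (g : ℍ → ℂ) ∧
      ∀ τ, D.a τ ^ n = (a : ℍ → ℂ) τ * (g : ℍ → ℂ) τ ^ (n - 1) :=
  exists_rootData_of_modFunG hn a.2 g.2 (coe_modFunAlgG_ne_zero Γ ha0)
    (coe_modFunAlgG_ne_zero Γ hg0) (dvd_ordPt_sub_of_placesG Γ F hPt ha0 hg0 hU)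

omit [Algebra ℂ F] in
/-- **INJ (field step).**  If the multiplier character of the root datum of `a / g` is trivial,
then `a / g` is an `n`-th power in `F`. -/
theorem exists_pow_eq_of_mult_eq_oneG [Γ.FiniteIndex] (D : RootData Γ n) (hmult : D.mult = 1)
    {a g : modFunAlgG Γ} (hg0 : g ≠ 0) (hDg : D.g = (g : ℍ → ℂ))
    (hpow : ∀ τ, D.a τ ^ n = (a : ℍ → ℂ) τ * (g : ℍ → ℂ) τ ^ (n - 1)) :
    ∃ k : F, k ^ n = algebraMap (modFunAlgG Γ) F a / algebraMap (modFunAlgG Γ) F g := by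
  have hDa : IsModFunG Γ D.a :=
    D.isModFunG_a_of_pow_eq hmult a.2 (by rw [hDg]; exact g.2) (by
      intro τ
      rw [hDg]
      exact hpow τ)
  set b : modFunAlgG Γ := ⟨D.a, hDa⟩ with hb
  have hg' := algebraMap_modFunAlgG_ne_zero Γ F hg0
  refine ⟨algebraMap (modFunAlgG Γ) F b / algebraMap (modFunAlgG Γ) F g, ?_⟩
  have hn : n ≠ 0 := D.p_ne_zero
  have h1 : b ^ n = a * g ^ (n - 1) := by
    apply Subtype.ext
    funext τ
    exact hpow τ
  rw [div_pow, ← map_pow, h1, map_mul, map_pow]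
  obtain ⟨m, rfl⟩ : ∃ m, n = m + 1 := Nat.exists_eq_succ_of_ne_zero hn
  simp only [Nat.add_sub_cancel]
  field_simp
  ring

omit [Algebra ℂ F] in
/-- **INJ (converse).**  If `a / g = (b / c) ^ n` in `F` with `b c ∈ modFunAlgG Γ`, then the
multiplier character of any root datum of `a / g` is trivial. -/
theorem mult_eq_one_of_pow_eqG (D : RootData Γ n) {a g b c : modFunAlgG Γ} (hg0 : g ≠ 0)
    (hb0 : b ≠ 0) (hc0 : c ≠ 0) (hDg : D.g = (g : ℍ → ℂ))
    (hpow : ∀ τ, D.a τ ^ n = (a : ℍ → ℂ) τ * (g : ℍ → ℂ) τ ^ (n - 1))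
    (h : (algebraMap (modFunAlgG Γ) F b / algebraMap (modFunAlgG Γ) F c) ^ n
      = algebraMap (modFunAlgG Γ) F a / algebraMap (modFunAlgG Γ) F g) : D.mult = 1 := by
  have hn : n ≠ 0 := D.p_ne_zero
  have hg' := algebraMap_modFunAlgG_ne_zero Γ F hg0
  have hc' := algebraMap_modFunAlgG_ne_zero Γ F hc0
  have h1 : b ^ n * g = a * c ^ n := by
    apply IsFractionRing.injective (modFunAlgG Γ) F
    rw [map_mul, map_mul, map_pow, map_pow]
    rw [div_pow, div_eq_div_iff (pow_ne_zero _ hc') hg'] at h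
    exact h
  have h1' : ∀ τ, (b : ℍ → ℂ) τ ^ n * (g : ℍ → ℂ) τ = (a : ℍ → ℂ) τ * (c : ℍ → ℂ) τ ^ n :=
    fun τ => congrFun (congrArg Subtype.val h1) τ
  refine D.mult_eq_one_of_pow_eq_invariant (mdiff_modFunAlgG Γ b) (mdiff_modFunAlgG Γ c)
    (coe_modFunAlgG_ne_zero Γ hb0) (coe_modFunAlgG_ne_zero Γ hc0) (fun γ hγ τ => ?_)
    (fun τ => ?_)
  · rw [IsModFunG.comp_smul b.2 hγ τ, IsModFunG.comp_smul c.2 hγ τ]
  · rw [hDg, mul_pow, mul_pow, hpow τ]
    obtain ⟨m, rfl⟩ : ∃ m, n = m + 1 := Nat.exists_eq_succ_of_ne_zero hn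
    simp only [Nat.add_sub_cancel]
    have := h1' τ
    linear_combination (-(g : ℍ → ℂ) τ ^ m) * this

end Field

end Fermat.Agent.ES1

end
end ZBES1_003_17

/-! ### bundled: `Fermat.Agent.ES1.RCPlan` -/
section ZBES1_003_18

/-!
# ES₁ / F3 = RC-Γ, interface: places of `F = Frac (modFunAlgG Γ)` ↔ analytic orders

`Γ ≤ SL(2, ℤ)` of finite index, `F` any field of fractions of `modFunAlgG Γ` (for
`Γ = gammaH L M H` this is `fieldC ℂ L M H`, file `ES1/RCGamma.lean`).  These are the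
`Γ`-versions of the statements of `ES/RC/PlacePlan.lean` (`StmtPtG` is in
`ES1/RootOfKummerG.lean`).  Each statement is proved in its own file, see `NOTES/ES1-RC.md`.

* `IsCuspPeriodG Γ h g` : `0 < h` and `g T^h g⁻¹ ∈ Γ`;
* `StmtPtExactG Γ F`, `StmtCuspG Γ F`, `StmtCuspExactG Γ F`, `StmtAllG Γ F`;
* `StmtNormPolyG Γ` : every modular function for `Γ` is a root of a monic polynomial of degree
  `Γ.index` over `ℂ[J]`.
-/

set_option autoImplicit false

noncomputable section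

namespace Fermat.Agent.ES1

open UpperHalfPlane AlgebraicCurve Polynomial
open Fermat.Agent.S24 Fermat.Agent.S28 Fermat.Agent.ES.RC
open scoped MatrixGroups

/-- `h` is a period of the cusp `g∞` of `Γ`. -/
def IsCuspPeriodG (Γ : Subgroup SL(2, ℤ)) (h : ℕ) (g : SL(2, ℤ)) : Prop :=
  0 < h ∧ g * ModularGroup.T ^ h * g⁻¹ ∈ Γ

theorem isCuspPeriodG_gamma0_iff (M h : ℕ) (g : SL(2, ℤ)) :
    IsCuspPeriodG (CongruenceSubgroup.Gamma0 M) h g ↔ IsCuspPeriod M h g := Iff.rfl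

theorem IsCuspPeriodG.mono {Γ Γ' : Subgroup SL(2, ℤ)} (hΓ : Γ ≤ Γ') {h : ℕ} {g : SL(2, ℤ)}
    (hp : IsCuspPeriodG Γ h g) : IsCuspPeriodG Γ' h g :=
  ⟨hp.1, hΓ hp.2⟩

/-- Every modular function for `Γ` is a root of a monic polynomial of degree `[SL(2,ℤ) : Γ]`
with coefficients in `ℂ[J]`. -/
def StmtNormPolyG (Γ : Subgroup SL(2, ℤ)) : Prop :=
  ∀ f : ℍ → ℂ, IsModFunG Γ f →
    ∃ Φ : (ℂ[X])[X], Φ.Monic ∧ Φ.natDegree = Γ.index ∧
      ∀ τ : ℍ, Φ.eval₂ (evalRingHom (Jfun τ)) (f τ) = 0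

section Statements

variable (Γ : Subgroup SL(2, ℤ)) (F : Type) [Field F] [Algebra ℂ F] [Algebra (modFunAlgG Γ) F]

/-- Exact form of `StmtPtG`: the ramification index `e` is the order of the multiplier
`denom ε τ ^ 2` of an element `ε ∈ Γ` fixing `τ`. -/
def StmtPtExactG : Prop :=
  ∀ τ : ℍ, ∃ (v : Place ℂ F) (e : ℕ) (ε : SL(2, ℤ)), ε ∈ Γ ∧
    ε • τ = τ ∧ IsPrimitiveRoot (denom ε τ ^ 2) e ∧ ∀ f : modFunAlgG Γ, f ≠ 0 →
      ordPt τ (f : ℍ → ℂ) = (e : ℤ) * v.ord (algebraMap (modFunAlgG Γ) F f)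

/-- The order at a cusp, in `q_h` for a period `h`, is a positive multiple of the order at a
place of `F`. -/
def StmtCuspG : Prop :=
  ∀ (g : SL(2, ℤ)) (h : ℕ), IsCuspPeriodG Γ h g → ∃ (v : Place ℂ F) (e : ℕ), 0 < e ∧
    ∀ f : modFunAlgG Γ, f ≠ 0 →
      ordCusp h g (f : ℍ → ℂ) = (e : ℤ) * v.ord (algebraMap (modFunAlgG Γ) F f)

/-- Exact form: for the right period `h` (the width of the cusp), `q_h` is a uniformiser. -/
def StmtCuspExactG : Prop :=
  ∀ g : SL(2, ℤ), ∃ (v : Place ℂ F) (h : ℕ), IsCuspPeriodG Γ h g ∧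
    ∀ f : modFunAlgG Γ, f ≠ 0 →
      ordCusp h g (f : ℍ → ℂ) = v.ord (algebraMap (modFunAlgG Γ) F f)

/-- Every place of `F` over `ℂ` is the order at a point of `ℍ` or at a cusp. -/
def StmtAllG : Prop :=
  ∀ v : Place ℂ F,
    (∃ (τ : ℍ) (e : ℕ), 0 < e ∧ ∀ f : modFunAlgG Γ, f ≠ 0 →
      ordPt τ (f : ℍ → ℂ) = (e : ℤ) * v.ord (algebraMap (modFunAlgG Γ) F f)) ∨
    (∃ (g : SL(2, ℤ)) (h e : ℕ), IsCuspPeriodG Γ h g ∧ 0 < e ∧ ∀ f : modFunAlgG Γ, f ≠ 0 →
      ordCusp h g (f : ℍ → ℂ) = (e : ℤ) * v.ord (algebraMap (modFunAlgG Γ) F f))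

end Statements

end Fermat.Agent.ES1

end
end ZBES1_003_18

/-! ### bundled: `Fermat.Agent.ES1.RCPt` -/
section ZBES1_003_19
/-
ES₁ / F3 = RC-Γ, piece RC-pt (helper81): the place of `Frac (modFunAlgG Γ)` at a point `τ ∈ ℍ`,
for an arbitrary subgroup `Γ ≤ SL(2, ℤ)`.  Fork of `Fermat/Agent/ES/RC/PlacePt.lean`.

* `es1rcpt_isDomain` : `modFunAlgG Γ` is a domain;
* `es1rcpt_isOrdFun_ordPt` : `f ↦ ordPt τ f` is an order function on `modFunAlgG Γ`;
* `es1rcptVal Γ F τ` : the corresponding valuation of `F`;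
* `es1rcpt_exists_place` : the place at `τ`, with its valuation ring;
* `stmtPtG Γ F : StmtPtG Γ F`.
-/

set_option autoImplicit false

noncomputable section

namespace Fermat.Agent.ES1

open UpperHalfPlane AlgebraicCurve ModularForm WithZero
open Fermat.Agent.S23 Fermat.Agent.S24 Fermat.Agent.S28 Fermat.Agent.ES.RC
open scoped MatrixGroups Manifold ModularForm

local notation "Δ" => ModularForm.discriminant

variable (Γ : Subgroup SL(2, ℤ))

/-- `J` is a modular function of every level. -/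
theorem es1rcpt_isModFunG_Jfun : IsModFunG Γ Jfun := by
  refine ⟨1, ?_⟩
  have h4 : IsMF (gGL Γ) 4 (E₄ : ℍ → ℂ) := isMF_of_levelOneG Γ ⟨E₄, rfl⟩
  have h := (h4.pow 3).of_weight_eq (show ((3 : ℕ) : ℤ) * 4 = 12 * ((1 : ℕ) : ℤ) by norm_num)
  convert h using 1
  ext z
  simp only [Pi.pow_apply, pow_one, Jfun_def]
  rw [div_mul_cancel₀ _ (discriminant_ne_zero z)]

theorem es1rcpt_mdiff (f : modFunAlgG Γ) : MDiff (f : ℍ → ℂ) := IsModFunG.mdiff f.2

variable {Γ} in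
theorem es1rcpt_coe_ne_zero {f : modFunAlgG Γ} (hf : f ≠ 0) : (f : ℍ → ℂ) ≠ 0 :=
  fun h => hf (Subtype.ext h)

instance es1rcpt_noZeroDivisors : NoZeroDivisors (modFunAlgG Γ) where
  eq_zero_or_eq_zero_of_mul_eq_zero := by
    rintro ⟨f, hf⟩ ⟨g, hg⟩ h
    have h' : f * g = 0 := congrArg Subtype.val h
    rcases (UpperHalfPlane.mul_eq_zero_iff (IsModFunG.mdiff hf)
      (IsModFunG.mdiff hg)).mp h' with h0 | h0
    · exact Or.inl (Subtype.ext h0)
    · exact Or.inr (Subtype.ext h0)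

instance es1rcpt_nontrivial : Nontrivial (modFunAlgG Γ) :=
  ⟨⟨0, 1, fun h => by
    have h' : (0 : ℍ → ℂ) = 1 := congrArg Subtype.val h
    have := congrFun h' UpperHalfPlane.I
    simp at this⟩⟩

instance es1rcpt_isDomain : IsDomain (modFunAlgG Γ) := NoZeroDivisors.to_isDomain _

/-! ### The order at a point as an order function -/

variable {Γ} in
theorem es1rcpt_coe_ordPt (τ : ℍ) {f : modFunAlgG Γ} (hf : f ≠ 0) :
    (((ordAt τ (f : ℍ → ℂ)).toNat : ℕ) : ℕ∞) = ordAt τ (f : ℍ → ℂ) :=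
  ENat.natCast_toNat (ordAt_ne_top (es1rcpt_mdiff Γ f) (es1rcpt_coe_ne_zero hf) τ)

theorem es1rcpt_isOrdFun_ordPt (τ : ℍ) :
    IsOrdFun (fun f : modFunAlgG Γ => ordPt τ (f : ℍ → ℂ)) where
  one := by
    have h1 : ((1 : modFunAlgG Γ) : ℍ → ℂ) = fun _ => (1 : ℂ) := rfl
    simp only [ordPt, h1, ordAt_const one_ne_zero]
    rfl
  mul f g hf hg := by
    refine ⟨mul_ne_zero hf hg, ?_⟩
    have h := ordAt_mul (es1rcpt_mdiff Γ f) (es1rcpt_mdiff Γ g) τ
    have h1 : ((f * g : modFunAlgG Γ) : ℍ → ℂ) = (f : ℍ → ℂ) * (g : ℍ → ℂ) := rfl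
    rw [← h1, ← es1rcpt_coe_ordPt τ hf, ← es1rcpt_coe_ordPt τ hg,
      ← es1rcpt_coe_ordPt τ (mul_ne_zero hf hg)] at h
    simp only [ordPt]
    exact_mod_cast h
  add f g hf hg hfg := by
    have h := le_ordAt_add (f : ℍ → ℂ) (g : ℍ → ℂ) τ
    have h1 : ((f + g : modFunAlgG Γ) : ℍ → ℂ) = (f : ℍ → ℂ) + (g : ℍ → ℂ) := rfl
    rw [← h1, ← es1rcpt_coe_ordPt τ hf, ← es1rcpt_coe_ordPt τ hg,
      ← es1rcpt_coe_ordPt τ hfg] at h
    simp only [ordPt]
    rw [min_le_iff] at h ⊢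
    rcases h with h | h
    · exact Or.inl (by exact_mod_cast h)
    · exact Or.inr (by exact_mod_cast h)

theorem es1rcpt_ordPt_algebraMap (τ : ℍ) (a : ℂ) :
    ordPt τ ((algebraMap ℂ (modFunAlgG Γ) a : modFunAlgG Γ) : ℍ → ℂ) = 0 := by
  rcases eq_or_ne a 0 with rfl | ha
  · simp only [map_zero, ordPt]
    have : ((0 : modFunAlgG Γ) : ℍ → ℂ) = fun _ => (0 : ℂ) := rfl
    rw [this, ordAt, analyticOrderAt_eq_top.mpr (by simp)]
    rfl
  · have h1 : ((algebraMap ℂ (modFunAlgG Γ) a : modFunAlgG Γ) : ℍ → ℂ) = fun _ => a := rfl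
    rw [ordPt, h1, ordAt_const ha]
    rfl

/-- `J` as an element of `modFunAlgG Γ`. -/
def es1rcptJ : modFunAlgG Γ := ⟨Jfun, es1rcpt_isModFunG_Jfun Γ⟩

@[simp] theorem es1rcptJ_coe : ((es1rcptJ Γ : modFunAlgG Γ) : ℍ → ℂ) = Jfun := rfl

/-- `J - c` as an element of `modFunAlgG Γ`. -/
def es1rcptJSub (c : ℂ) : modFunAlgG Γ :=
  es1rcptJ Γ - algebraMap ℂ (modFunAlgG Γ) c

theorem es1rcptJSub_apply (c : ℂ) (z : ℍ) : (es1rcptJSub Γ c : ℍ → ℂ) z = Jfun z - c := rfl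

theorem es1rcptJSub_ne_zero (c : ℂ) : es1rcptJSub Γ c ≠ 0 := by
  intro h
  obtain ⟨z, hz⟩ := Jfun_surjective (c + 1)
  have h1 := congrFun (congrArg Subtype.val h) z
  rw [es1rcptJSub_apply, hz] at h1
  simp at h1

theorem es1rcpt_ordPt_jSub_pos (τ : ℍ) : 0 < ordPt τ (es1rcptJSub Γ (Jfun τ) : ℍ → ℂ) := by
  have hne : ordAt τ (es1rcptJSub Γ (Jfun τ) : ℍ → ℂ) ≠ 0 := by
    rw [ordAt, Ne, analyticOrderAt_eq_zero]
    push Not
    refine ⟨ordAt_analyticAt (es1rcpt_mdiff Γ _) τ, ?_⟩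
    simp [es1rcptJSub_apply]
  have h2 := es1rcpt_coe_ordPt τ (es1rcptJSub_ne_zero Γ (Jfun τ))
  rw [ordPt]
  have h3 : (ordAt τ (es1rcptJSub Γ (Jfun τ) : ℍ → ℂ)).toNat ≠ 0 := by
    intro h0
    rw [h0] at h2
    exact hne h2.symm
  exact_mod_cast Nat.pos_of_ne_zero h3

section Place

variable (F : Type*) [Field F] [Algebra ℂ F] [Algebra (modFunAlgG Γ) F]
  [IsScalarTower ℂ (modFunAlgG Γ) F] [IsFractionRing (modFunAlgG Γ) F]

/-- The valuation of `F` given by the order at `τ`. -/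
def es1rcptVal (τ : ℍ) : Valuation F ℤᵐ⁰ :=
  ordFrac F (fun f : modFunAlgG Γ => ordPt τ (f : ℍ → ℂ)) (es1rcpt_isOrdFun_ordPt Γ τ)

/-- The place of `F` at `τ`. -/
theorem es1rcpt_exists_place (τ : ℍ) :
    ∃ (w : Place ℂ F) (e : ℕ), 0 < e ∧
      w.toValuationSubring = (es1rcptVal Γ F τ).valuationSubring ∧
      ∀ f : modFunAlgG Γ, f ≠ 0 →
        ordPt τ (f : ℍ → ℂ) = (e : ℤ) * w.ord (algebraMap (modFunAlgG Γ) F f) :=
  exists_place_of_ordFun (K := ℂ) F (fun f : modFunAlgG Γ => ordPt τ (f : ℍ → ℂ))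
    (es1rcpt_isOrdFun_ordPt Γ τ) (fun a _ => (es1rcpt_ordPt_algebraMap Γ τ a).ge)
    ⟨es1rcptJSub Γ (Jfun τ), es1rcptJSub_ne_zero Γ _, es1rcpt_ordPt_jSub_pos Γ τ⟩

end Place

/-- **RC-pt.** -/
theorem stmtPtG (F : Type) [Field F] [Algebra ℂ F] [Algebra (modFunAlgG Γ) F]
    [IsScalarTower ℂ (modFunAlgG Γ) F] [IsFractionRing (modFunAlgG Γ) F] : StmtPtG Γ F := by
  intro τ
  obtain ⟨w, e, he, -, h⟩ := es1rcpt_exists_place Γ F τ
  exact ⟨w, e, he, h⟩

end Fermat.Agent.ES1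

end
end ZBES1_003_19

/-! ### bundled: `Fermat.Agent.ES1.RCPtExact` -/
section ZBES1_003_20

/-!
# ES₁ / F3 = RC-Γ, piece RC-ptx: exact ramification at the points of `ℍ`, for a generic `Γ`

Fork of `Fermat/Agent/ES/RC/PtExact.lean` (helper8/helper34's ES₀ file).

`stmtPtExactG_of_sep : SepG Γ → StmtPtExactG Γ F`: the place `v` of `F = Frac (modFunAlgG Γ)` at
`τ ∈ ℍ` satisfies `ord_τ f = e · v.ord f` where `e` is the order of the multiplier
`denom ε τ ^ 2` of some `ε ∈ Γ` fixing `τ`.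

`SepG Γ` (SEPARATION): an `ε ∈ SL(2, ℤ)` with `f ∘ ε = f` for all `f ∈ modFunAlgG Γ` lies in `Γ`.
(For `Γ = Γ₀(M)`: `f = J(M ·)`, `mem_Gamma0_of_Jd_smul`; for `gammaH L M H`: RC-main.)

Also exported (generic `Γ`, no `SepG`): `es1rcptx_residue` (the residue field of the place at `τ`
is `ℂ`), `es1rcptx_expand`, `es1rcptx_comp_eq` (if an `ε`-invariant `T` is a uniformiser at the
place of `τ = ε τ`, every `f ∈ modFunAlgG Γ` is `ε`-invariant).
-/

set_option autoImplicit false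
set_option linter.unusedSectionVars false

noncomputable section

namespace Fermat.Agent.ES1

open UpperHalfPlane AlgebraicCurve ModularForm Filter Topology
open Fermat.Agent.S23 Fermat.Agent.S24 Fermat.Agent.S28 Fermat.Agent.ES.RC
open scoped MatrixGroups Manifold ModularForm

/-- SEPARATION: the elements of `SL(2, ℤ)` fixing every modular function for `Γ` lie in `Γ`. -/
def SepG (Γ : Subgroup SL(2, ℤ)) : Prop :=
  ∀ ε : SL(2, ℤ), (∀ f : modFunAlgG Γ, ∀ z : ℍ, (f : ℍ → ℂ) (ε • z) = (f : ℍ → ℂ) z) → ε ∈ Γ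

variable (Γ : Subgroup SL(2, ℤ))

theorem es1rcptx_ordAt_eq_top_iff (τ : ℍ) (f : modFunAlgG Γ) :
    ordAt τ (f : ℍ → ℂ) = ⊤ ↔ f = 0 := by
  constructor
  · intro h
    by_contra hf
    exact ordAt_ne_top (es1rcpt_mdiff Γ f) (es1rcpt_coe_ne_zero hf) τ h
  · rintro rfl
    exact ptx_ordAt_zero τ

/-- `ordPt` is monotone in `ordAt` on nonzero elements. -/
theorem es1rcptx_ordPt_le_iff (τ : ℍ) {a b : modFunAlgG Γ} (ha : a ≠ 0) (hb : b ≠ 0) :
    ordPt τ (b : ℍ → ℂ) ≤ ordPt τ (a : ℍ → ℂ) ↔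
      ordAt τ (b : ℍ → ℂ) ≤ ordAt τ (a : ℍ → ℂ) := by
  rw [← es1rcpt_coe_ordPt τ ha, ← es1rcpt_coe_ordPt τ hb, ordPt, ordPt]
  norm_cast

theorem es1rcptx_ordPt_lt_iff (τ : ℍ) {a b : modFunAlgG Γ} (ha : a ≠ 0) (hb : b ≠ 0) :
    ordPt τ (b : ℍ → ℂ) < ordPt τ (a : ℍ → ℂ) ↔
      ordAt τ (b : ℍ → ℂ) < ordAt τ (a : ℍ → ℂ) := by
  rw [← es1rcpt_coe_ordPt τ ha, ← es1rcpt_coe_ordPt τ hb, ordPt, ordPt]
  norm_cast

section Place

variable {Γ}
variable {F : Type} [Field F] [Algebra ℂ F] [Algebra (modFunAlgG Γ) F]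
  [IsScalarTower ℂ (modFunAlgG Γ) F] [IsFractionRing (modFunAlgG Γ) F]

theorem es1rcptx_mul_ord_div {τ : ℍ} {w : Place ℂ F} {e : ℕ}
    (H : ∀ f : modFunAlgG Γ, f ≠ 0 →
      ordPt τ (f : ℍ → ℂ) = (e : ℤ) * w.ord (algebraMap (modFunAlgG Γ) F f))
    {a b : modFunAlgG Γ} (ha : a ≠ 0) (hb : b ≠ 0) :
    (e : ℤ) * w.ord (algebraMap (modFunAlgG Γ) F a / algebraMap (modFunAlgG Γ) F b)
      = ordPt τ (a : ℍ → ℂ) - ordPt τ (b : ℍ → ℂ) := by
  rw [div_eq_mul_inv, w.ord_mul (algebraMap_modFunAlgG_ne_zero Γ F ha)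
    (inv_ne_zero (algebraMap_modFunAlgG_ne_zero Γ F hb)), w.ord_inv, H a ha, H b hb]
  ring

theorem es1rcptx_ord_div_nonneg_iff {τ : ℍ} {w : Place ℂ F} {e : ℕ} (he : 0 < e)
    (H : ∀ f : modFunAlgG Γ, f ≠ 0 →
      ordPt τ (f : ℍ → ℂ) = (e : ℤ) * w.ord (algebraMap (modFunAlgG Γ) F f))
    {a b : modFunAlgG Γ} (ha : a ≠ 0) (hb : b ≠ 0) :
    0 ≤ w.ord (algebraMap (modFunAlgG Γ) F a / algebraMap (modFunAlgG Γ) F b) ↔
      ordAt τ (b : ℍ → ℂ) ≤ ordAt τ (a : ℍ → ℂ) := by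
  have he' : (0 : ℤ) < e := by exact_mod_cast he
  rw [← es1rcptx_ordPt_le_iff Γ τ ha hb, ← mul_nonneg_iff_of_pos_left he', es1rcptx_mul_ord_div H ha hb]
  omega

theorem es1rcptx_ord_div_pos_iff {τ : ℍ} {w : Place ℂ F} {e : ℕ} (he : 0 < e)
    (H : ∀ f : modFunAlgG Γ, f ≠ 0 →
      ordPt τ (f : ℍ → ℂ) = (e : ℤ) * w.ord (algebraMap (modFunAlgG Γ) F f))
    {a b : modFunAlgG Γ} (ha : a ≠ 0) (hb : b ≠ 0) :
    0 < w.ord (algebraMap (modFunAlgG Γ) F a / algebraMap (modFunAlgG Γ) F b) ↔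
      ordAt τ (b : ℍ → ℂ) < ordAt τ (a : ℍ → ℂ) := by
  have he' : (0 : ℤ) < e := by exact_mod_cast he
  rw [← es1rcptx_ordPt_lt_iff Γ τ ha hb, ← mul_pos_iff_of_pos_left he', es1rcptx_mul_ord_div H ha hb]
  omega

/-- **The residue field of the place at `τ` is `ℂ`.** -/
theorem es1rcptx_residue {τ : ℍ} {w : Place ℂ F} {e : ℕ} (he : 0 < e)
    (H : ∀ f : modFunAlgG Γ, f ≠ 0 →
      ordPt τ (f : ℍ → ℂ) = (e : ℤ) * w.ord (algebraMap (modFunAlgG Γ) F f))
    (x : F) (hx : 0 ≤ w.ord x) :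
    ∃ c : ℂ, x = algebraMap ℂ F c ∨ 0 < w.ord (x - algebraMap ℂ F c) := by
  rcases eq_or_ne x 0 with rfl | hx0
  · exact ⟨0, Or.inl (by simp)⟩
  obtain ⟨a, b, hb, rfl⟩ := IsFractionRing.div_surjective (A := modFunAlgG Γ) x
  have hb0 : b ≠ 0 := nonZeroDivisors.ne_zero hb
  have ha0 : a ≠ 0 := by
    rintro rfl
    simp at hx0
  have hle := (es1rcptx_ord_div_nonneg_iff he H ha0 hb0).mp hx
  obtain ⟨c, hc⟩ := ptx_exists_cancel (ordAt_analyticAt (es1rcpt_mdiff Γ a) τ)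
    (ordAt_analyticAt (es1rcpt_mdiff Γ b) τ) (ordAt_ne_top (es1rcpt_mdiff Γ b) (es1rcpt_coe_ne_zero hb0) τ) hle
  refine ⟨c, ?_⟩
  have hdfun : ordAt τ ((a - algebraMap ℂ (modFunAlgG Γ) c * b : modFunAlgG Γ) : ℍ → ℂ) =
      analyticOrderAt (fun z => ((a : ℍ → ℂ) ∘ ofComplex) z - c * ((b : ℍ → ℂ) ∘ ofComplex) z)
        (τ : ℂ) := rfl
  have hbF := algebraMap_modFunAlgG_ne_zero Γ F hb0
  have hxc : algebraMap (modFunAlgG Γ) F a / algebraMap (modFunAlgG Γ) F b - algebraMap ℂ F c =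
      algebraMap (modFunAlgG Γ) F (a - algebraMap ℂ (modFunAlgG Γ) c * b) /
        algebraMap (modFunAlgG Γ) F b := by
    rw [map_sub, map_mul, ← IsScalarTower.algebraMap_apply ℂ (modFunAlgG Γ) F]
    field_simp
  rcases eq_or_ne (a - algebraMap ℂ (modFunAlgG Γ) c * b) 0 with hd0 | hd0
  · left
    rw [hd0, map_zero, zero_div, sub_eq_zero] at hxc
    exact hxc
  · right
    rw [hxc, es1rcptx_ord_div_pos_iff he H hd0 hb0, hdfun]
    exact hc

/-- **Expansion in a uniformiser.** If `T` is `ε`-invariant and a uniformiser at `w`, every `f` is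
congruent modulo `T ^ n` to an `ε`-invariant element. -/
theorem es1rcptx_expand {τ : ℍ} {w : Place ℂ F} {e : ℕ} (he : 0 < e)
    (H : ∀ f : modFunAlgG Γ, f ≠ 0 →
      ordPt τ (f : ℍ → ℂ) = (e : ℤ) * w.ord (algebraMap (modFunAlgG Γ) F f))
    (ε : SL(2, ℤ)) (T : modFunAlgG Γ)
    (hTinv : ∀ z, (T : ℍ → ℂ) (ε • z) = (T : ℍ → ℂ) z)
    (hT : w.ord (algebraMap (modFunAlgG Γ) F T) = 1) (f : modFunAlgG Γ) (n : ℕ) :
    ∃ (g : modFunAlgG Γ) (y : F), (∀ z, (g : ℍ → ℂ) (ε • z) = (g : ℍ → ℂ) z) ∧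
      algebraMap (modFunAlgG Γ) F f =
        algebraMap (modFunAlgG Γ) F g + algebraMap (modFunAlgG Γ) F T ^ n * y ∧
      0 ≤ w.ord y := by
  have he' : (0 : ℤ) < e := by exact_mod_cast he
  have ht0 : algebraMap (modFunAlgG Γ) F T ≠ 0 := by
    intro h0
    rw [h0, Place.ord_zero] at hT
    exact zero_ne_one hT
  induction n with
  | zero =>
    refine ⟨0, algebraMap _ F f, fun z => rfl, by simp, ?_⟩
    rcases eq_or_ne f 0 with rfl | hf
    · simp [Place.ord_zero]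
    · have h0 : (0 : ℤ) ≤ ordPt τ (f : ℍ → ℂ) := by
        rw [ordPt]
        exact Int.natCast_nonneg _
      rw [H f hf] at h0
      exact (mul_nonneg_iff_of_pos_left he').mp h0
  | succ n ih =>
    obtain ⟨g, y, hg, hfg, hy⟩ := ih
    obtain ⟨c, hc⟩ := es1rcptx_residue he H y hy
    refine ⟨g + algebraMap ℂ (modFunAlgG Γ) c * T ^ n,
      (y - algebraMap ℂ F c) / algebraMap (modFunAlgG Γ) F T, ?_, ?_, ?_⟩
    · intro z
      show (g : ℍ → ℂ) (ε • z) + c * (T : ℍ → ℂ) (ε • z) ^ n =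
        (g : ℍ → ℂ) z + c * (T : ℍ → ℂ) z ^ n
      rw [hg, hTinv]
    · rw [hfg, map_add, map_mul, map_pow, ← IsScalarTower.algebraMap_apply ℂ (modFunAlgG Γ) F]
      field_simp
      ring
    · rcases hc with hc | hc
      · rw [hc, sub_self, zero_div, Place.ord_zero]
      · have hne : y - algebraMap ℂ F c ≠ 0 := by
          intro h0
          rw [h0, Place.ord_zero] at hc
          exact lt_irrefl _ hc
        rw [div_eq_mul_inv, w.ord_mul hne (inv_ne_zero ht0), w.ord_inv, hT]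
        omega

/-- Under the hypotheses of `es1rcptx_expand`, `f ∘ ε − f` vanishes to order `≥ n` at `τ`, for all
`n`. -/
theorem es1rcptx_le_ordAt_comp_sub {τ : ℍ} {w : Place ℂ F} {e : ℕ} (he : 0 < e)
    (H : ∀ f : modFunAlgG Γ, f ≠ 0 →
      ordPt τ (f : ℍ → ℂ) = (e : ℤ) * w.ord (algebraMap (modFunAlgG Γ) F f))
    {ε : SL(2, ℤ)} (hfix : ε • τ = τ) (T : modFunAlgG Γ)
    (hTinv : ∀ z, (T : ℍ → ℂ) (ε • z) = (T : ℍ → ℂ) z)
    (hT : w.ord (algebraMap (modFunAlgG Γ) F T) = 1) (f : modFunAlgG Γ) (n : ℕ) :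
    (n : ℕ∞) ≤ ordAt τ (fun z => (f : ℍ → ℂ) (ε • z) - (f : ℍ → ℂ) z) := by
  obtain ⟨g, y, hg, hfg, hy⟩ := es1rcptx_expand he H ε T hTinv hT f n
  obtain ⟨a, b, hb, rfl⟩ := IsFractionRing.div_surjective (A := modFunAlgG Γ) y
  have hb0 : b ≠ 0 := nonZeroDivisors.ne_zero hb
  have hbF := algebraMap_modFunAlgG_ne_zero Γ F hb0
  -- the identity in `modFunAlgG Γ`
  have hid : b * (f - g) = T ^ n * a := by
    apply IsFractionRing.injective (modFunAlgG Γ) F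
    rw [map_mul, map_sub, map_mul, map_pow, hfg]
    field_simp
    ring
  have hidz : ∀ z, (b : ℍ → ℂ) z * ((f : ℍ → ℂ) z - (g : ℍ → ℂ) z) =
      (T : ℍ → ℂ) z ^ n * (a : ℍ → ℂ) z := fun z => congrFun (congrArg Subtype.val hid) z
  have hab : ordAt τ (b : ℍ → ℂ) ≤ ordAt τ (a : ℍ → ℂ) := by
    rcases eq_or_ne a 0 with rfl | ha0
    · rw [show ((0 : modFunAlgG Γ) : ℍ → ℂ) = 0 from rfl, ptx_ordAt_zero]
      exact le_top
    · exact (es1rcptx_ord_div_nonneg_iff he H ha0 hb0).mp hy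
  have hT0 : T ≠ 0 := by
    rintro rfl
    simp [Place.ord_zero] at hT
  have hTpos : 1 ≤ ordAt τ (T : ℍ → ℂ) := by
    have h1 := H T hT0
    rw [hT, mul_one] at h1
    have h2 : (1 : ℤ) ≤ ordPt τ (T : ℍ → ℂ) := by
      rw [h1]
      exact_mod_cast he
    rw [← es1rcpt_coe_ordPt τ hT0]
    rw [ordPt] at h2
    exact_mod_cast h2
  have hbd := es1rcpt_mdiff Γ b
  have had := es1rcpt_mdiff Γ a
  have hbεd : MDiff (fun z => (b : ℍ → ℂ) (ε • z)) := ptx_mdiff_comp_smul hbd ε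
  have haεd : MDiff (fun z => (a : ℍ → ℂ) (ε • z)) := ptx_mdiff_comp_smul had ε
  have hDd : MDiff (fun z => (f : ℍ → ℂ) (ε • z) - (f : ℍ → ℂ) z) :=
    (ptx_mdiff_comp_smul (es1rcpt_mdiff Γ f) ε).sub (es1rcpt_mdiff Γ f)
  have hordbε : ordAt τ (fun z => (b : ℍ → ℂ) (ε • z)) = ordAt τ (b : ℍ → ℂ) := by
    rw [ordAt_comp_smul, hfix]
  have hordaε : ordAt τ (fun z => (a : ℍ → ℂ) (ε • z)) = ordAt τ (a : ℍ → ℂ) := by
    rw [ordAt_comp_smul, hfix]
  have hmain : (b : ℍ → ℂ) * (fun z => (b : ℍ → ℂ) (ε • z)) *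
        (fun z => (f : ℍ → ℂ) (ε • z) - (f : ℍ → ℂ) z) =
      (T : ℍ → ℂ) ^ n * ((b : ℍ → ℂ) * (fun z => (a : ℍ → ℂ) (ε • z)) -
        (fun z => (b : ℍ → ℂ) (ε • z)) * (a : ℍ → ℂ)) := by
    funext z
    simp only [Pi.mul_apply, Pi.pow_apply, Pi.sub_apply]
    have h1 := hidz z
    have h2 := hidz (ε • z)
    rw [hg, hTinv] at h2
    linear_combination ((b : ℍ → ℂ) z) * h2 - ((b : ℍ → ℂ) (ε • z)) * h1
  have hL : ordAt τ ((b : ℍ → ℂ) * (fun z => (b : ℍ → ℂ) (ε • z)) *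
        (fun z => (f : ℍ → ℂ) (ε • z) - (f : ℍ → ℂ) z)) =
      (ordAt τ (b : ℍ → ℂ) + ordAt τ (b : ℍ → ℂ)) +
        ordAt τ (fun z => (f : ℍ → ℂ) (ε • z) - (f : ℍ → ℂ) z) := by
    rw [ordAt_mul (hbd.mul hbεd) hDd, ordAt_mul hbd hbεd, hordbε]
  have hR : (ordAt τ (b : ℍ → ℂ) + ordAt τ (b : ℍ → ℂ)) + (n : ℕ∞) ≤
      ordAt τ ((T : ℍ → ℂ) ^ n * ((b : ℍ → ℂ) * (fun z => (a : ℍ → ℂ) (ε • z)) -
        (fun z => (b : ℍ → ℂ) (ε • z)) * (a : ℍ → ℂ))) := by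
    rw [ordAt_mul ((es1rcpt_mdiff Γ T).pow n) ((hbd.mul haεd).sub (hbεd.mul had)),
      ptx_ordAt_pow (es1rcpt_mdiff Γ T), add_comm]
    refine add_le_add ?_ ?_
    · calc (n : ℕ∞) = n • (1 : ℕ∞) := by simp
        _ ≤ n • ordAt τ (T : ℍ → ℂ) := nsmul_le_nsmul_right hTpos n
    · refine le_trans ?_ (ptx_le_ordAt_sub _ _ τ)
      rw [ordAt_mul hbd haεd, ordAt_mul hbεd had, hordbε, hordaε, min_self]
      exact add_le_add le_rfl hab
  rw [← hmain, hL] at hR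
  have hbtop : ordAt τ (b : ℍ → ℂ) + ordAt τ (b : ℍ → ℂ) ≠ ⊤ := by
    have := ordAt_ne_top hbd (es1rcpt_coe_ne_zero hb0) τ
    simp [this]
  exact (ENat.add_le_add_iff_left hbtop).mp hR

/-- Under the hypotheses of `es1rcptx_expand`, every `f ∈ modFunAlgG Γ` is `ε`-invariant. -/
theorem es1rcptx_comp_eq {τ : ℍ} {w : Place ℂ F} {e : ℕ} (he : 0 < e)
    (H : ∀ f : modFunAlgG Γ, f ≠ 0 →
      ordPt τ (f : ℍ → ℂ) = (e : ℤ) * w.ord (algebraMap (modFunAlgG Γ) F f))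
    {ε : SL(2, ℤ)} (hfix : ε • τ = τ) (T : modFunAlgG Γ)
    (hTinv : ∀ z, (T : ℍ → ℂ) (ε • z) = (T : ℍ → ℂ) z)
    (hT : w.ord (algebraMap (modFunAlgG Γ) F T) = 1) (f : modFunAlgG Γ) (z : ℍ) :
    (f : ℍ → ℂ) (ε • z) = (f : ℍ → ℂ) z := by
  have hDd : MDiff (fun z => (f : ℍ → ℂ) (ε • z) - (f : ℍ → ℂ) z) :=
    (ptx_mdiff_comp_smul (es1rcpt_mdiff Γ f) ε).sub (es1rcpt_mdiff Γ f)
  have htop : ordAt τ (fun z => (f : ℍ → ℂ) (ε • z) - (f : ℍ → ℂ) z) = ⊤ := by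
    rw [ENat.eq_top_iff_forall_ge]
    exact fun n => es1rcptx_le_ordAt_comp_sub he H hfix T hTinv hT f n
  by_contra hne
  refine ordAt_ne_top hDd ?_ τ htop
  intro h0
  apply hne
  have := congrFun h0 z
  simpa [sub_eq_zero] using this

end Place

/-! ### The main theorem -/

/-- **RC-ptx.** Exact ramification at the points of `ℍ`, from SEPARATION. -/
theorem stmtPtExactG_of_sep (hsep : SepG Γ) (F : Type) [Field F] [Algebra ℂ F]
    [Algebra (modFunAlgG Γ) F] [IsScalarTower ℂ (modFunAlgG Γ) F]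
    [IsFractionRing (modFunAlgG Γ) F] : StmtPtExactG Γ F := by
  intro τ
  obtain ⟨w, e, he, -, H⟩ := es1rcpt_exists_place Γ F τ
  obtain ⟨ε₀, E, hE, hfix, hprim, hord⟩ := rc_exists_elliptic τ
  by_cases he1 : e = 1
  · subst he1
    refine ⟨w, 1, 1, Subgroup.one_mem _, one_smul _ _, ?_, H⟩
    rw [denom_one_SL, one_pow]
    exact IsPrimitiveRoot.one
  · have hT0 := es1rcptJSub_ne_zero Γ (Jfun τ)
    have hordT : ordPt τ (es1rcptJSub Γ (Jfun τ) : ℍ → ℂ) = (E : ℤ) := by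
      have h2 : ordAt τ (es1rcptJSub Γ (Jfun τ) : ℍ → ℂ) = (E : ℕ∞) := hord
      rw [ordPt, h2]
      simp
    have h1 := H _ hT0
    rw [hordT] at h1
    have hdvd : e ∣ E := by
      have h3 : (e : ℤ) ∣ (E : ℤ) := Dvd.intro _ h1.symm
      exact_mod_cast h3
    have hEprime : E.Prime := by
      rcases hE with hE1 | hEp
      · exfalso
        subst hE1
        exact he1 (Nat.dvd_one.mp hdvd)
      · exact hEp
    have heE : e = E := ((Nat.dvd_prime hEprime).mp hdvd).resolve_left he1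
    subst heE
    have hwT : w.ord (algebraMap (modFunAlgG Γ) F (es1rcptJSub Γ (Jfun τ))) = 1 := by
      have he' : (e : ℤ) ≠ 0 := by exact_mod_cast he.ne'
      have h4 : (e : ℤ) * 1 = e * w.ord (algebraMap (modFunAlgG Γ) F (es1rcptJSub Γ (Jfun τ))) := by
        rw [mul_one]
        exact h1
      exact (mul_left_cancel₀ he' h4).symm
    have hTinv : ∀ z, (es1rcptJSub Γ (Jfun τ) : ℍ → ℂ) (ε₀ • z)
        = (es1rcptJSub Γ (Jfun τ) : ℍ → ℂ) z := by
      intro z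
      rw [es1rcptJSub_apply, es1rcptJSub_apply, stab_Jfun_SL_smul]
    have hmem : ε₀ ∈ Γ :=
      hsep ε₀ fun f z => es1rcptx_comp_eq he H hfix _ hTinv hwT f z
    exact ⟨w, e, ε₀, hmem, hfix, hprim, H⟩

/-- SEPARATION holds for `Γ₀(M)` (with `f = J(M ·)`). -/
theorem sepG_gamma0 (M : ℕ) [NeZero M] : SepG (CongruenceSubgroup.Gamma0 M) := by
  intro ε h
  apply mem_Gamma0_of_Jd_smul
  intro z
  exact h ⟨Jd M, ptx_isModFun_Jd M⟩ z

end Fermat.Agent.ES1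

end
end ZBES1_003_20

/-! ### bundled: `Fermat.Agent.ES1.G1Plan` -/
section ZBES1_003_21

/-!
# ES₁-G1 — the multiplier map `μ` for `JH L M H`: interface (sub-captain helper38)

`Γ = gammaH L M H`, `K = fieldBar L M H ⊂ ℚ̄((q))`, `J = JH L M H = Pic⁰(K)`.

`MuRelH L M H n x χ` : the class `x ∈ J` has a Kummer function `u ∈ K` (`n D = div u`,
`x = [D]`), `u = a / g` analytically (`a`, `g` holomorphic modular functions of level `Γ`), and an
`n`-th root `w = R.a / R.g` of `a / g` on `ℍ` has multiplier character `χ : Γ → ℂˣ`.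

The pieces of G1 are the Props below; see `NOTES/ES1-G1.md` for the table.  The operators on
`Hom(Γ, A)` are `heckeGrp`, `diamGrp` of `ES1/HeckeGrp.lean`; on `J` they are `es1hHecke`
(`ES1/HInputs.lean`) and `es1Diamond` (`ES1/G2/Plan.lean`).
-/

set_option autoImplicit false

noncomputable section

namespace Fermat.Agent.ES1

open ModularCurve AlgebraicCurve CongruenceSubgroup ModularCurve.Period UpperHalfPlane
open Fermat.Agent.ES Fermat.Agent.S24 Fermat.Agent.S28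
open scoped MatrixGroups Manifold

variable (L M : ℕ) (H : Subgroup (ZMod M)ˣ)

/-- the group of characters of `Γ = gammaH L M H`, additively -/
abbrev CharGrpH : Type := Additive (gammaH L M H) →+ Additive ℂˣ

/-- the character `e(φ/n) : γ ↦ exp(2πi φ(γ)/n)` of `Γ` -/
def expCharH (n : ℕ) (φ : Additive (gammaH L M H) →+ ℤ) : CharGrpH L M H := (expHom n).comp φ

theorem expCharH_apply (n : ℕ) (φ : Additive (gammaH L M H) →+ ℤ)
    (γ : Additive (gammaH L M H)) : expCharH L M H n φ γ = expHom n (φ γ) := rfl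

/-- `u = a / g` analytically: `a`, `g` are holomorphic modular functions of level `Γ` and the
`q`-expansion of `u` (coefficients embedded in `ℂ`) times that of `g` is that of `a`. -/
def IsAnFracH (u : fieldBar L M H) (a g : ℍ → ℂ) : Prop :=
  IsModFunG (gammaH L M H) a ∧ IsModFunG (gammaH L M H) g ∧ g ≠ 0 ∧
    coeffMap embC (u : LaurentSeries (AlgebraicClosure ℚ)) * laurentOf g = laurentOf a

/-- `χ` is the multiplier character of an `n`-th root of a Kummer function of `x`. -/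
def MuRelH (n : ℕ) (x : JH L M H) (χ : CharGrpH L M H) : Prop :=
  ∃ (u : fieldBar L M H) (a g : ℍ → ℂ) (R : RootData (gammaH L M H) n),
    KummerRel n x u ∧ IsAnFracH L M H u a g ∧
      (∀ τ : ℍ, R.a τ ^ n * g τ = a τ * R.g τ ^ n) ∧ R.multAdd = χ

/-! ## The pieces -/

/-- (E) every `n`-torsion class has a multiplier. -/
def MuExistsH : Prop :=
  ∀ (n : ℕ), 0 < n → ∀ x : JH L M H, n • x = 0 → ∃ χ, MuRelH L M H n x χ

/-- (U) the multiplier does not depend on the choices, nor on the exponent. -/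
def MuUniqueH : Prop :=
  ∀ (n m : ℕ), 0 < n → 0 < m → ∀ (x : JH L M H) (χ χ' : CharGrpH L M H),
    MuRelH L M H n x χ → MuRelH L M H m x χ' → χ = χ'

/-- (A) additivity. -/
def MuAddH : Prop :=
  ∀ (n : ℕ), 0 < n → ∀ (x y : JH L M H) (χ ψ : CharGrpH L M H),
    MuRelH L M H n x χ → MuRelH L M H n y ψ → MuRelH L M H n (x + y) (χ + ψ)

/-- (I) injectivity. -/
def MuInjH : Prop := ∀ (n : ℕ), 0 < n → ∀ x : JH L M H, MuRelH L M H n x 0 → x = 0

/-- (S) surjectivity onto the classes of the integral parabolic homs. -/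
def MuSurjH : Prop :=
  ∀ φ : Additive (gammaH L M H) →+ ℤ, IsParabolicHom (gammaH L M H) φ → ∀ n : ℕ, 0 < n →
    ∃ x : JH L M H, n • x = 0 ∧ MuRelH L M H n x (expCharH L M H n φ)

/-- (H) Hecke-equivariance: `μ (T_ℓ x) = heckeGrp ℓ (μ x)` for the primes `ℓ ∤ L`. -/
def MuHeckeH [NeZero L] [NeZero M] (hML : M ∣ L) : Prop :=
  ∀ (ℓ : ℕ) [NeZero ℓ], ℓ.Prime → ¬ ℓ ∣ L → ∀ (n : ℕ), 0 < n →
    ∀ (x : JH L M H) (χ : CharGrpH L M H), MuRelH L M H n x χ →
      MuRelH L M H n (es1hHecke L M H ℓ x) (heckeGrp L M H ℓ hML χ)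

/-- (D) diamond-equivariance: `μ (δ_c x) = diamGrp σ (μ x)` for `σ ∈ Γ₀(L) ∩ Γ₀(M)` with
`σ₀₀ ≡ c` mod `M`. -/
def MuDiamH : Prop :=
  ∀ (c : (ZMod M)ˣ) (σ : SL(2, ℤ)) (hσL : σ ∈ Gamma0 L) (hσM : σ ∈ Gamma0 M),
    diamHom M ⟨σ, hσM⟩ = c → ∀ (n : ℕ), 0 < n →
    ∀ (x : JH L M H) (χ : CharGrpH L M H), MuRelH L M H n x χ →
      MuRelH L M H n (G2.es1Diamond L M H c x) (diamGrp L M H σ hσL hσM χ)

/-! ## The multiplier map -/

variable {L M H}

theorem MuRelH.smul_eq_zero {n : ℕ} {x : JH L M H} {χ : CharGrpH L M H}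
    (h : MuRelH L M H n x χ) : n • x = 0 := by
  obtain ⟨u, a, g, R, hK, -⟩ := h
  exact hK.nsmul_eq_zero

variable (L M H)

open Classical in
/-- the multiplier map (`0` outside the torsion) -/
def muMapH (x : JH L M H) : CharGrpH L M H :=
  if h : ∃ (n : ℕ) (χ : CharGrpH L M H), 0 < n ∧ MuRelH L M H n x χ then h.choose_spec.choose
  else 0

variable {L M H}

theorem muMapH_eq (hU : MuUniqueH L M H) {n : ℕ} (hn : 0 < n) {x : JH L M H}
    {χ : CharGrpH L M H} (h : MuRelH L M H n x χ) : muMapH L M H x = χ := by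
  classical
  have hex : ∃ (n : ℕ) (χ : CharGrpH L M H), 0 < n ∧ MuRelH L M H n x χ := ⟨n, χ, hn, h⟩
  rw [muMapH, dif_pos hex]
  exact hU _ _ hex.choose_spec.choose_spec.1 hn x _ _ hex.choose_spec.choose_spec.2 h

theorem muRelH_muMapH (hE : MuExistsH L M H) (hU : MuUniqueH L M H) {n : ℕ} (hn : 0 < n)
    {x : JH L M H} (hx : n • x = 0) : MuRelH L M H n x (muMapH L M H x) := by
  obtain ⟨χ, hχ⟩ := hE n hn x hx
  rw [muMapH_eq hU hn hχ]
  exact hχ

theorem muMapH_add (hE : MuExistsH L M H) (hU : MuUniqueH L M H) (hA : MuAddH L M H)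
    {n : ℕ} (hn : 0 < n) {x y : JH L M H} (hx : n • x = 0) (hy : n • y = 0) :
    muMapH L M H (x + y) = muMapH L M H x + muMapH L M H y :=
  muMapH_eq hU hn (hA _ hn x y _ _ (muRelH_muMapH hE hU hn hx) (muRelH_muMapH hE hU hn hy))

theorem muMapH_eq_zero (hE : MuExistsH L M H) (hU : MuUniqueH L M H) (hI : MuInjH L M H)
    {n : ℕ} (hn : 0 < n) {x : JH L M H} (hx : n • x = 0) (h0 : muMapH L M H x = 0) : x = 0 := by
  have := muRelH_muMapH hE hU hn hx
  rw [h0] at this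
  exact hI _ hn x this

theorem muMapH_hecke [NeZero L] [NeZero M] (hML : M ∣ L) (hE : MuExistsH L M H)
    (hU : MuUniqueH L M H) (hH : MuHeckeH L M H hML) {ℓ : ℕ} [NeZero ℓ] (hℓ : ℓ.Prime)
    (hℓL : ¬ ℓ ∣ L) {n : ℕ} (hn : 0 < n) {x : JH L M H} (hx : n • x = 0) :
    muMapH L M H (es1hHecke L M H ℓ x) = heckeGrp L M H ℓ hML (muMapH L M H x) :=
  muMapH_eq hU hn (hH ℓ hℓ hℓL n hn x _ (muRelH_muMapH hE hU hn hx))

theorem muMapH_diam (hE : MuExistsH L M H) (hU : MuUniqueH L M H) (hD : MuDiamH L M H)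
    {c : (ZMod M)ˣ} {σ : SL(2, ℤ)} (hσL : σ ∈ Gamma0 L) (hσM : σ ∈ Gamma0 M)
    (hc : diamHom M ⟨σ, hσM⟩ = c) {n : ℕ} (hn : 0 < n) {x : JH L M H} (hx : n • x = 0) :
    muMapH L M H (G2.es1Diamond L M H c x) = diamGrp L M H σ hσL hσM (muMapH L M H x) :=
  muMapH_eq hU hn (hD c σ hσL hσM hc n hn x _ (muRelH_muMapH hE hU hn hx))

theorem muMapH_surj (hU : MuUniqueH L M H) (hS : MuSurjH L M H)
    (φ : Additive (gammaH L M H) →+ ℤ) (hφ : IsParabolicHom (gammaH L M H) φ) {n : ℕ}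
    (hn : 0 < n) : ∃ x : JH L M H, n • x = 0 ∧ muMapH L M H x = expCharH L M H n φ := by
  obtain ⟨x, hx, hrel⟩ := hS φ hφ n hn
  exact ⟨x, hx, muMapH_eq hU hn hrel⟩

end Fermat.Agent.ES1

end
end ZBES1_003_21

/-! ### bundled: `Fermat.Agent.ES1.EisCharModFunG` -/
section ZBES1_003_22
/-
ES₁ / G1, piece A3 for a GENERIC `Γ` (port of helper83's ES₀ file): `u_χ = (E₁₂^χ / Δ)^p` is a modular function for `Γ`
(in the sense `IsModFunG` of ES1/RootModFunG).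
-/

set_option autoImplicit false
set_option linter.unusedSectionVars false

open UpperHalfPlane ModularForm CongruenceSubgroup Matrix Filter Topology
open scoped MatrixGroups Manifold

noncomputable section

namespace Fermat.Agent.ES1

open Fermat.Agent.ES

variable {Γ : Subgroup SL(2, ℤ)} [IsEisLevel Γ] (χ : Γ →* ℂˣ)

local notation "Δ" => ModularForm.discriminant

/-- `u_χ = hChiG χ ^ n` is a modular function for `Γ` when `χ ^ n = 1`. -/
theorem isModFun_hChi_powG [Γ.FiniteIndex] (hχ : ∀ γ : Γ, ‖((χ γ : ℂˣ) : ℂ)‖ = 1)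
    (hpar : ∀ γ : Γ, IsPar γ → χ γ = 1) (n : ℕ) (hn : ∀ γ : Γ, χ γ ^ n = 1) :
    IsModFunG Γ (fun z => hChiG χ z ^ n) := by
  refine ⟨n, ModularForm.mcast (by ring) (eisCharPowG χ hχ hpar (k := 12) (by norm_num) n hn), ?_⟩
  funext z
  show eisCharG χ 12 z ^ n = hChiG χ z ^ n * Δ z ^ n
  rw [hChi_applyG, div_pow, div_mul_cancel₀ _ (pow_ne_zero _ (discriminant_ne_zero z))]

end Fermat.Agent.ES1

end
end ZBES1_003_22
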