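/- GENERATED FILE (helper35, build-time optimisation, NOTES/ZB.md): verbatim concatenation of the modules
   Fermat.Agent.ES1.ConjRel
   Fermat.Agent.ES1.ConjTower
   Fermat.Agent.ES1.ConjC
   Fermat.Agent.RT.K6.FCoset
   Fermat.Agent.RT.K6.FAtR
   Do not edit; do not import together with these modules. -/
import Mathlib
import Fermat.Agent.ZB.ES1_003
import Fermat.Agent.ZB.ES1_002
import Fermat.Agent.ZB.ES1_001

/-! ### bundled: `Fermat.Agent.ES1.ConjRel` -/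
section ZBES1_008_0

/-!
# ES₁ / F3-conj — the conjugation principle (pure algebra)

`Λ : A →+* Ω` an injective ring homomorphism into a field, `g : A →+* A` a ring endomorphism.
`es1cj_Rel Λ g x y` : `x = Λ a / Λ b`, `y = Λ (g a) / Λ (g b)` — the graph of the extension of `g`
to the fractions.  The relation is additive, multiplicative and functional, so:

* `es1cj_cp` (**conjugation principle**): if the coefficients `r` of `P ∈ Ω[X]` are fixed
  (`Rel r r`) and `P(Λ u) = Λ v`, then `P(Λ (g u)) = Λ (g v)`.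
-/

set_option autoImplicit false

namespace Fermat.Agent.ES1

section

variable {A Ω : Type*} [CommRing A] [Field Ω] (Λ : A →+* Ω) (g : A →+* A)

/-- the graph of the extension of `g` to fractions of `Λ A` -/
def es1cj_Rel (x y : Ω) : Prop :=
  ∃ a b : A, Λ b ≠ 0 ∧ Λ (g b) ≠ 0 ∧ x * Λ b = Λ a ∧ y * Λ (g b) = Λ (g a)

variable {Λ g}

theorem es1cj_rel_of (a : A) : es1cj_Rel Λ g (Λ a) (Λ (g a)) :=
  ⟨a, 1, by rw [map_one]; exact one_ne_zero, by rw [map_one, map_one]; exact one_ne_zero,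
    by rw [map_one, mul_one], by rw [map_one, map_one, mul_one]⟩

theorem es1cj_rel_zero : es1cj_Rel Λ g 0 0 := by
  have := es1cj_rel_of (Λ := Λ) (g := g) 0
  simpa using this

theorem es1cj_rel_one : es1cj_Rel Λ g 1 1 := by
  have := es1cj_rel_of (Λ := Λ) (g := g) 1
  simpa using this

/-- a fraction of fixed elements is fixed -/
theorem es1cj_rel_fixed {x : Ω} {a b : A} (hb : Λ b ≠ 0) (hx : x * Λ b = Λ a) (ha : g a = a)
    (hgb : g b = b) : es1cj_Rel Λ g x x :=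
  ⟨a, b, hb, by rw [hgb]; exact hb, hx, by rw [hgb, ha]; exact hx⟩

theorem es1cj_rel_add {x y x' y' : Ω} (h : es1cj_Rel Λ g x y) (h' : es1cj_Rel Λ g x' y') :
    es1cj_Rel Λ g (x + x') (y + y') := by
  obtain ⟨a, b, hb, hgb, hx, hy⟩ := h
  obtain ⟨a', b', hb', hgb', hx', hy'⟩ := h'
  refine ⟨a * b' + a' * b, b * b', ?_, ?_, ?_, ?_⟩
  · rw [map_mul]; exact mul_ne_zero hb hb'
  · rw [map_mul, map_mul]; exact mul_ne_zero hgb hgb'
  · rw [map_mul, map_add, map_mul, map_mul, ← hx, ← hx']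
    ring
  · simp only [map_mul, map_add]
    rw [← hy, ← hy']
    ring

theorem es1cj_rel_mul {x y x' y' : Ω} (h : es1cj_Rel Λ g x y) (h' : es1cj_Rel Λ g x' y') :
    es1cj_Rel Λ g (x * x') (y * y') := by
  obtain ⟨a, b, hb, hgb, hx, hy⟩ := h
  obtain ⟨a', b', hb', hgb', hx', hy'⟩ := h'
  refine ⟨a * a', b * b', ?_, ?_, ?_, ?_⟩
  · rw [map_mul]; exact mul_ne_zero hb hb'
  · rw [map_mul, map_mul]; exact mul_ne_zero hgb hgb'
  · rw [map_mul, map_mul, ← hx, ← hx']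
    ring
  · simp only [map_mul]
    rw [← hy, ← hy']
    ring

theorem es1cj_rel_pow {x y : Ω} (h : es1cj_Rel Λ g x y) (n : ℕ) :
    es1cj_Rel Λ g (x ^ n) (y ^ n) := by
  induction n with
  | zero => simpa using es1cj_rel_one
  | succ n ih =>
    rw [pow_succ, pow_succ]
    exact es1cj_rel_mul ih h

theorem es1cj_rel_sum {ι : Type*} (s : Finset ι) (x y : ι → Ω)
    (h : ∀ i ∈ s, es1cj_Rel Λ g (x i) (y i)) :
    es1cj_Rel Λ g (∑ i ∈ s, x i) (∑ i ∈ s, y i) := by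
  classical
  induction s using Finset.induction_on with
  | empty => simpa using es1cj_rel_zero
  | insert i s hi ih =>
    rw [Finset.sum_insert hi, Finset.sum_insert hi]
    exact es1cj_rel_add (h i (Finset.mem_insert_self i s))
      (ih fun j hj => h j (Finset.mem_insert_of_mem hj))

/-- the relation is functional -/
theorem es1cj_rel_unique (hΛ : Function.Injective Λ) {x y y' : Ω} (h : es1cj_Rel Λ g x y)
    (h' : es1cj_Rel Λ g x y') : y = y' := by
  obtain ⟨a, b, hb, hgb, hx, hy⟩ := h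
  obtain ⟨a', b', hb', hgb', hx', hy'⟩ := h'
  have h1 : Λ (a * b') = Λ (a' * b) := by
    rw [map_mul, map_mul, ← hx, ← hx']
    ring
  have h2 : a * b' = a' * b := hΛ h1
  have h3 : Λ (g a) * Λ (g b') = Λ (g a') * Λ (g b) := by
    rw [← map_mul, ← map_mul, ← map_mul, ← map_mul, h2]
  rw [← hy, ← hy'] at h3
  have h4 : (y - y') * (Λ (g b) * Λ (g b')) = 0 := by linear_combination h3
  rcases mul_eq_zero.mp h4 with h5 | h5
  · exact sub_eq_zero.mp h5
  · exact absurd h5 (mul_ne_zero hgb hgb')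

theorem es1cj_rel_eval (P : Polynomial Ω)
    (hP : ∀ i, es1cj_Rel Λ g (P.coeff i) (P.coeff i)) {x y : Ω} (h : es1cj_Rel Λ g x y) :
    es1cj_Rel Λ g (P.eval x) (P.eval y) := by
  rw [Polynomial.eval_eq_sum_range, Polynomial.eval_eq_sum_range]
  exact es1cj_rel_sum _ _ _ fun i _ => es1cj_rel_mul (hP i) (es1cj_rel_pow h i)

/-- **The conjugation principle.** -/
theorem es1cj_cp (hΛ : Function.Injective Λ) (P : Polynomial Ω)
    (hP : ∀ i, es1cj_Rel Λ g (P.coeff i) (P.coeff i)) (u v : A)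
    (h : P.eval (Λ u) = Λ v) : P.eval (Λ (g u)) = Λ (g v) := by
  have h1 : es1cj_Rel Λ g (P.eval (Λ u)) (P.eval (Λ (g u))) :=
    es1cj_rel_eval P hP (es1cj_rel_of u)
  rw [h] at h1
  exact es1cj_rel_unique hΛ h1 (es1cj_rel_of v)

end

end Fermat.Agent.ES1


end ZBES1_008_0

/-! ### bundled: `Fermat.Agent.ES1.ConjTower` -/
section ZBES1_008_1

/-!
# ES₁ / F3-conj — the tower `Γ ◁ Γ'` over `ℂ`: generation by ONE conjugate, the norm polynomial,
the conjugation principle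

`Γ ≤ Γ' ≤ SL(2, ℤ)` of finite index, `T ∈ Γ`, `δ_i ∈ SL(2, ℤ)` normalising `Γ` and permuted by
`Γ'` (as in `es1rc_tower`), `E` a field containing the Laurent expansions of the modular functions
of level `Γ'`.

* `es1cjLam hT : modFunAlgG Γ →+* ℂ((q))` (Laurent expansion, injective), `es1cjComp γ hγ`
  (composition with `γ` normalising `Γ`);
* `es1cj_tower` : if `E' ⊇ E` contains the expansion of `θ` and the conjugates `θ ∘ δ_i`
  (`i ≠ i₀`) have expansions different from that of `θ ∘ δ_{i₀} = θ`, then `E'` contains the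
  expansions of all modular functions of level `Γ`.  (`es1rc_tower` asks `E'` to contain the
  expansions of ALL the conjugates.)
* `es1cj_prod_coeff_mem` : the coefficients of `∏_i (X − Λ(θ ∘ δ_i))` lie in `E`;
* `es1cj_cp_modular` : the conjugation principle for `γ ∈ Γ'` normalising `Γ` and polynomials
  over a field `E` of fractions of expansions of modular functions of level `Γ'`.
-/

set_option autoImplicit false
set_option linter.unusedSectionVars false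

noncomputable section

open UpperHalfPlane ModularForm CongruenceSubgroup Filter Topology Polynomial
open scoped MatrixGroups Manifold

namespace Fermat.Agent.ES1

open Fermat.Agent.S23 Fermat.Agent.S28 Fermat.Agent.ES

variable {Γ Γ' : Subgroup SL(2, ℤ)}

/-- the Laurent expansion at `i∞` on the modular functions of level `Γ ∋ T` -/
def es1cjLam (hT : ModularGroup.T ∈ Γ) : modFunAlgG Γ →+* LaurentSeries ℂ :=
  (laurentExp.comp (Subalgebra.inclusion (modFunAlgG_le_merInf hT))).toRingHom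

theorem es1cjLam_apply (hT : ModularGroup.T ∈ Γ) (f : modFunAlgG Γ) :
    es1cjLam hT f = laurentOf (f : ℍ → ℂ) := rfl

theorem es1cjLam_injective (hT : ModularGroup.T ∈ Γ) : Function.Injective (es1cjLam hT) := by
  intro f g h
  apply Subtype.ext
  exact laurentOf_injective (f.2.isMerInf hT) (g.2.isMerInf hT) h

/-- composition with an element normalising `Γ` -/
def es1cjComp [Γ.FiniteIndex] (γ : SL(2, ℤ)) (hγ : ∀ x ∈ Γ, γ * x * γ⁻¹ ∈ Γ) :
    modFunAlgG Γ →+* modFunAlgG Γ where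
  toFun f := ⟨fun z => (f : ℍ → ℂ) (γ • z), f.2.comp_normalizer γ hγ⟩
  map_one' := rfl
  map_mul' _ _ := rfl
  map_zero' := rfl
  map_add' _ _ := rfl

theorem es1cjComp_apply [Γ.FiniteIndex] (γ : SL(2, ℤ)) (hγ : ∀ x ∈ Γ, γ * x * γ⁻¹ ∈ Γ)
    (f : modFunAlgG Γ) (z : ℍ) :
    ((es1cjComp γ hγ f : modFunAlgG Γ) : ℍ → ℂ) z = (f : ℍ → ℂ) (γ • z) := rfl

section Lagrange

variable {R : Type*} [CommRing R] {ι : Type*} [Fintype ι] [DecidableEq ι]

/-- `∏_i (X − Θ_i)` -/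
def es1cjProd (Θ : ι → R) : R[X] := ∏ i, (X - C (Θ i))

theorem es1cjProd_map {S : Type*} [CommRing S] (φ : R →+* S) (Θ : ι → R) :
    (es1cjProd Θ).map φ = es1cjProd (fun i => φ (Θ i)) := by
  simp only [es1cjProd, Polynomial.map_prod, Polynomial.map_sub, Polynomial.map_X,
    Polynomial.map_C]

theorem es1cjProd_perm (Θ : ι → R) (σ : Equiv.Perm ι) :
    es1cjProd (fun i => Θ (σ i)) = es1cjProd Θ := by
  simp only [es1cjProd]
  exact Equiv.prod_comp σ (fun i => X - C (Θ i))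

theorem es1cjProd_monic [Nontrivial R] (Θ : ι → R) : (es1cjProd Θ).Monic :=
  monic_prod_of_monic _ _ fun i _ => monic_X_sub_C (Θ i)

theorem es1cjProd_natDegree [Nontrivial R] (Θ : ι → R) :
    (es1cjProd Θ).natDegree = Fintype.card ι := by
  rw [es1cjProd, natDegree_prod_of_monic _ _ fun i _ => monic_X_sub_C (Θ i)]
  simp

theorem es1cjProd_eval (Θ : ι → R) (i₀ : ι) : (es1cjProd Θ).eval (Θ i₀) = 0 := by
  rw [es1cjProd, Polynomial.eval_prod]
  exact Finset.prod_eq_zero (Finset.mem_univ i₀) (by simp)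

end Lagrange

section Tower

variable [Γ.FiniteIndex] [Γ'.FiniteIndex] {ι : Type*} [Fintype ι] [DecidableEq ι]
  (δ : ι → SL(2, ℤ))
  (hnorm : ∀ i, ∀ γ ∈ Γ, δ i * γ * (δ i)⁻¹ ∈ Γ)
  (hperm : ∀ γ ∈ Γ', ∃ σ : Equiv.Perm ι, ∀ i, δ i * γ * (δ (σ i))⁻¹ ∈ Γ)

/-- the conjugates of a modular function -/
def es1cjConj (hnorm : ∀ i, ∀ γ ∈ Γ, δ i * γ * (δ i)⁻¹ ∈ Γ) {f : ℍ → ℂ} (hf : IsModFunG Γ f) :
    ι → modFunAlgG Γ :=
  fun i => ⟨fun z => f (δ i • z), hf.comp_normalizer (δ i) (hnorm i)⟩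

include hperm in
/-- `Γ'` permutes the conjugates -/
theorem es1cj_conj_perm {γ : SL(2, ℤ)} (hγ : γ ∈ Γ') :
    ∃ σ : Equiv.Perm ι, ∀ {g : ℍ → ℂ}, IsModFunG Γ g → ∀ i (w : ℍ),
      g (δ i • (γ • w)) = g (δ (σ i) • w) := by
  obtain ⟨σ, hσ⟩ := hperm γ hγ
  refine ⟨σ, fun {g} hg i w => ?_⟩
  have h1 := hg.comp_smul (hσ i) (δ (σ i) • w)
  have h2 : (δ i * γ * (δ (σ i))⁻¹) • (δ (σ i) • w) = δ i • (γ • w) := by
    rw [← mul_smul, ← mul_smul]
    congr 1
    group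
  rw [h2] at h1
  exact h1

include hperm in
/-- the coefficients of the Lagrange polynomial of two families of conjugates are modular
functions of level `Γ'` -/
theorem es1cj_lag_coeff {f θ : ℍ → ℂ} (hf : IsModFunG Γ f) (hθ : IsModFunG Γ θ) (j : ℕ) :
    IsModFunG Γ' (((lagPoly (es1cjConj δ hnorm hf) (es1cjConj δ hnorm hθ)).coeff j :
      modFunAlgG Γ) : ℍ → ℂ) := by
  set Q := lagPoly (es1cjConj δ hnorm hf) (es1cjConj δ hnorm hθ) with hQ
  refine IsModFunG.of_invariant (Q.coeff j).2 fun γ hγ z => ?_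
  obtain ⟨σ, hconj⟩ := es1cj_conj_perm δ hperm hγ
  have h1 : (Q.map (modFunAlgG Γ).val.toRingHom).map (compSmul γ) =
      Q.map (modFunAlgG Γ).val.toRingHom := by
    rw [hQ, lagPoly_map, lagPoly_map]
    have h2 : (fun i => compSmul γ ((modFunAlgG Γ).val.toRingHom (es1cjConj δ hnorm hf i))) =
        fun i => (modFunAlgG Γ).val.toRingHom (es1cjConj δ hnorm hf (σ i)) := by
      funext i w
      exact hconj hf i w
    have h3 : (fun i => compSmul γ ((modFunAlgG Γ).val.toRingHom (es1cjConj δ hnorm hθ i))) =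
        fun i => (modFunAlgG Γ).val.toRingHom (es1cjConj δ hnorm hθ (σ i)) := by
      funext i w
      exact hconj hθ i w
    rw [h2, h3]
    exact lagPoly_perm (fun i => (modFunAlgG Γ).val.toRingHom (es1cjConj δ hnorm hf i))
      (fun i => (modFunAlgG Γ).val.toRingHom (es1cjConj δ hnorm hθ i)) σ
  have h4 := congrArg (fun P : (ℍ → ℂ)[X] => P.coeff j) h1
  simp only [Polynomial.coeff_map] at h4
  exact congrFun h4 z

include hperm in
/-- the coefficients of `∏_i (X − θ ∘ δ_i)` are modular functions of level `Γ'` -/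
theorem es1cj_prod_coeff {θ : ℍ → ℂ} (hθ : IsModFunG Γ θ) (j : ℕ) :
    IsModFunG Γ' (((es1cjProd (es1cjConj δ hnorm hθ)).coeff j : modFunAlgG Γ) : ℍ → ℂ) := by
  set Q := es1cjProd (es1cjConj δ hnorm hθ) with hQ
  refine IsModFunG.of_invariant (Q.coeff j).2 fun γ hγ z => ?_
  obtain ⟨σ, hconj⟩ := es1cj_conj_perm δ hperm hγ
  have h1 : (Q.map (modFunAlgG Γ).val.toRingHom).map (compSmul γ) =
      Q.map (modFunAlgG Γ).val.toRingHom := by
    rw [hQ, es1cjProd_map, es1cjProd_map]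
    have h3 : (fun i => compSmul γ ((modFunAlgG Γ).val.toRingHom (es1cjConj δ hnorm hθ i))) =
        fun i => (modFunAlgG Γ).val.toRingHom (es1cjConj δ hnorm hθ (σ i)) := by
      funext i w
      exact hconj hθ i w
    rw [h3]
    exact es1cjProd_perm (fun i => (modFunAlgG Γ).val.toRingHom (es1cjConj δ hnorm hθ i)) σ
  have h4 := congrArg (fun P : (ℍ → ℂ)[X] => P.coeff j) h1
  simp only [Polynomial.coeff_map] at h4
  exact congrFun h4 z

include hnorm hperm in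
/-- **The coefficients of the norm polynomial** `∏_i (X − Λ(θ ∘ δ_i))` lie in `E`. -/
theorem es1cj_prod_coeff_mem (hT : ModularGroup.T ∈ Γ)
    (E : IntermediateField ℂ (LaurentSeries ℂ))
    (hE : ∀ g : ℍ → ℂ, IsModFunG Γ' g → laurentOf g ∈ E)
    {θ : ℍ → ℂ} (hθ : IsModFunG Γ θ) (j : ℕ) :
    (es1cjProd (fun i => laurentOf (fun z => θ (δ i • z)))).coeff j ∈ E := by
  have h1 : es1cjProd (fun i => laurentOf (fun z => θ (δ i • z))) =
      (es1cjProd (es1cjConj δ hnorm hθ)).map (es1cjLam hT) := by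
    rw [es1cjProd_map]
    rfl
  rw [h1, Polynomial.coeff_map, es1cjLam_apply]
  exact hE _ (es1cj_prod_coeff δ hnorm hperm hθ j)

include hnorm hperm in
/-- **The tower step, generation by one conjugate.** -/
theorem es1cj_tower (hT : ModularGroup.T ∈ Γ) (i₀ : ι) (hδ₀ : δ i₀ ∈ Γ)
    (E E' : IntermediateField ℂ (LaurentSeries ℂ)) (hEE' : E ≤ E')
    (hE : ∀ g : ℍ → ℂ, IsModFunG Γ' g → laurentOf g ∈ E)
    (θ : ℍ → ℂ) (hθ : IsModFunG Γ θ) (hθE : laurentOf θ ∈ E')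
    (hθne : ∀ i, i ≠ i₀ →
      laurentOf (fun z => θ (δ i • z)) ≠ laurentOf (fun z => θ (δ i₀ • z)))
    {f : ℍ → ℂ} (hf : IsModFunG Γ f) : laurentOf f ∈ E' := by
  have hone : IsModFunG Γ (fun _ : ℍ => (1 : ℂ)) := isModFunG_const Γ 1
  set F := es1cjConj δ hnorm hf with hF
  set Θ := es1cjConj δ hnorm hθ with hΘ
  set U := es1cjConj δ hnorm hone with hU
  set Q := lagPoly F Θ with hQ
  set D := lagPoly U Θ with hD
  set Λ := es1cjLam hT with hΛdef
  have hΛ : ∀ g : modFunAlgG Γ, Λ g = laurentOf (g : ℍ → ℂ) := fun g => rfl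
  have hΘ₀ : ((Θ i₀ : modFunAlgG Γ) : ℍ → ℂ) = θ := by
    funext z
    exact hθ.comp_smul hδ₀ z
  have hF₀ : ((F i₀ : modFunAlgG Γ) : ℍ → ℂ) = f := by
    funext z
    exact hf.comp_smul hδ₀ z
  have hΘE : Λ (Θ i₀) ∈ E' := by rw [hΛ, hΘ₀]; exact hθE
  -- evaluation of polynomials with coefficients in `E` at `Θ i₀`
  have hevalmem : ∀ P : (modFunAlgG Γ)[X], (∀ j, Λ (P.coeff j) ∈ E) →
      Λ (P.eval (Θ i₀)) ∈ E' := by
    intro P hP
    rw [Polynomial.eval_eq_sum_range, map_sum]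
    refine E'.sum_mem fun j _ => ?_
    rw [map_mul, map_pow]
    exact E'.mul_mem (hEE' (hP j)) (pow_mem hΘE j)
  have hQmem : Λ (Q.eval (Θ i₀)) ∈ E' :=
    hevalmem Q fun j => hE _ (es1cj_lag_coeff δ hnorm hperm hf hθ j)
  have hDmem : Λ (D.eval (Θ i₀)) ∈ E' :=
    hevalmem D fun j => hE _ (es1cj_lag_coeff δ hnorm hperm hone hθ j)
  have hQev : Q.eval (Θ i₀) = F i₀ * ∏ i' ∈ Finset.univ.erase i₀, (Θ i₀ - Θ i') :=
    lagPoly_eval F Θ i₀
  have hDev : D.eval (Θ i₀) = ∏ i' ∈ Finset.univ.erase i₀, (Θ i₀ - Θ i') := by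
    have h := lagPoly_eval U Θ i₀
    have hU1 : U i₀ = 1 := rfl
    rw [hU1, one_mul] at h
    exact h
  have hDne : Λ (D.eval (Θ i₀)) ≠ 0 := by
    rw [hDev, map_prod, Finset.prod_ne_zero_iff]
    intro i' hi'
    rw [map_sub, sub_ne_zero, hΛ, hΛ]
    exact (hθne i' (Finset.ne_of_mem_erase hi')).symm
  have hrel : Λ (Q.eval (Θ i₀)) = Λ (F i₀) * Λ (D.eval (Θ i₀)) := by
    rw [hQev, hDev, map_mul]
  have hF0 : Λ (F i₀) = Λ (Q.eval (Θ i₀)) / Λ (D.eval (Θ i₀)) := by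
    rw [hrel, mul_div_assoc, div_self hDne, mul_one]
  have h5 : Λ (F i₀) ∈ E' := by
    rw [hF0]
    exact E'.div_mem hQmem hDmem
  rw [hΛ, hF₀] at h5
  exact h5

end Tower

/-- **The conjugation principle for modular functions.**  `γ ∈ Γ'` normalises `Γ ≤ Γ'`, the
elements of `E` are fractions of expansions of modular functions of level `Γ'`.  A polynomial
relation `P(Λ u) = Λ v` over `E` between modular functions of level `Γ` is preserved by `γ`. -/
theorem es1cj_cp_modular [Γ.FiniteIndex] (hT : ModularGroup.T ∈ Γ) (hΓ : Γ ≤ Γ')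
    (γ : SL(2, ℤ)) (hγ : ∀ x ∈ Γ, γ * x * γ⁻¹ ∈ Γ) (hγ' : γ ∈ Γ')
    (E : IntermediateField ℂ (LaurentSeries ℂ))
    (hfrac : ∀ x ∈ E, ∃ a b : ℍ → ℂ, IsModFunG Γ' a ∧ IsModFunG Γ' b ∧ laurentOf b ≠ 0 ∧
      x * laurentOf b = laurentOf a)
    (P : Polynomial E) {u v : ℍ → ℂ} (hu : IsModFunG Γ u) (hv : IsModFunG Γ v)
    (h : P.eval₂ E.val.toRingHom (laurentOf u) = laurentOf v) :
    P.eval₂ E.val.toRingHom (laurentOf (fun z => u (γ • z))) = laurentOf (fun z => v (γ • z)) := by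
  rw [Polynomial.eval₂_eq_eval_map] at h ⊢
  have hP : ∀ i, es1cj_Rel (es1cjLam hT) (es1cjComp γ hγ)
      ((P.map E.val.toRingHom).coeff i) ((P.map E.val.toRingHom).coeff i) := by
    intro i
    rw [Polynomial.coeff_map]
    obtain ⟨a, b, ha, hb, hb0, hab⟩ := hfrac _ (P.coeff i).2
    have hfix : ∀ {c : ℍ → ℂ} (hc : IsModFunG Γ' c),
        es1cjComp γ hγ ⟨c, hc.mono hΓ⟩ = ⟨c, hc.mono hΓ⟩ := by
      intro c hc
      apply Subtype.ext
      funext z
      exact hc.comp_smul hγ' z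
    exact es1cj_rel_fixed (a := ⟨a, ha.mono hΓ⟩) (b := ⟨b, hb.mono hΓ⟩) hb0 hab (hfix ha)
      (hfix hb)
  exact es1cj_cp (es1cjLam_injective hT) (P.map E.val.toRingHom) hP ⟨u, hu⟩ ⟨v, hv⟩ h

end Fermat.Agent.ES1

end
end ZBES1_008_1

/-! ### bundled: `Fermat.Agent.ES1.ConjC` -/
section ZBES1_008_2

/-!
# ES₁ / F3-conj over `ℂ`

`Γ = gammaH L M H ◁ Γ' = Γ₀(L)` (`M ∣ L`), `a : Fin (m + 1) → (ℤ/M)ˣ` representatives of
`(ℤ/M)ˣ/±H` with `a 0 = 1`, `E = modularFunctionFieldFullC ℂ L`, `S_b = sS ℂ M H b`.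

* `es1cj_exists_perm`  : multiplication by `c` permutes the representatives;
* `es1cj_sS_ne`        : the `S_{a i}` are pairwise different (any coefficient ring);
* `es1cj_gen_C`        : `fieldC ℂ L M H ≤ E(S_1)`;
* `es1cj_poly_C`       : the coefficients of `∏_i (X − S_{a i})` lie in `E`;
* `es1cj_cp_C`, `es1cj_cp_C_zero` : the conjugation principle: a polynomial relation over `E`
  `P(S_{b₁}(q^{e₁})) = S_{b₂}(q^{e₂})` (or `= 0`) remains true after `b ↦ b c`.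
-/

set_option autoImplicit false
set_option linter.unusedSectionVars false

noncomputable section

open UpperHalfPlane ModularForm CongruenceSubgroup Polynomial ModularCurve
open scoped MatrixGroups Manifold

namespace Fermat.Agent.ES1

open Fermat.Agent.S23 Fermat.Agent.S28 Fermat.Agent.ES

/-! ### Representatives -/

section Group

variable {M : ℕ} {H : Subgroup (ZMod M)ˣ}

theorem es1cj_inPM_mul_right {a b : (ZMod M)ˣ} (c : (ZMod M)ˣ) (h : InPM H a (b : ZMod M)) :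
    InPM H (a * c) ((b * c : (ZMod M)ˣ) : ZMod M) := by
  have := es1rc_inPM_mul (u := c) h
  rwa [← Units.val_mul] at this

theorem es1cj_mem_pmH_of_inPM {a b : (ZMod M)ˣ} (h : InPM H a (b : ZMod M)) :
    b * a⁻¹ ∈ pmH H := by
  rw [es1rc_mem_pmH_iff]
  have := es1cj_inPM_mul_right a⁻¹ h
  rwa [mul_inv_cancel] at this

/-- multiplication by `c` permutes the representatives -/
theorem es1cj_exists_perm {m : ℕ} {a : Fin (m + 1) → (ZMod M)ˣ} (hrep : IsRepFam H a)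
    (c : (ZMod M)ˣ) :
    ∃ σ : Equiv.Perm (Fin (m + 1)),
      ∀ i, InPM H (a (σ i)) ((a i * c : (ZMod M)ˣ) : ZMod M) := by
  choose s hs using fun i => hrep.surj (a i * c)
  have hinj : Function.Injective s := by
    intro i j hij
    apply hrep.inj
    have h1 := hs i
    have h2 := hs j
    rw [hij] at h1
    have h3 : InPM H (a i * c) ((a j * c : (ZMod M)ˣ) : ZMod M) := h1.symm.trans h2
    have h4 := es1cj_inPM_mul_right c⁻¹ h3
    rwa [mul_assoc, mul_inv_cancel, mul_one, mul_assoc, mul_inv_cancel, mul_one] at h4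
  exact ⟨Equiv.ofBijective s (Finite.injective_iff_bijective.mp hinj), hs⟩

theorem es1cj_units_subsingleton [NeZero M] (hM : ¬ 3 ≤ M) : Subsingleton (ZMod M)ˣ := by
  have hM0 : M ≠ 0 := NeZero.ne M
  have hcard : Fintype.card (ZMod M)ˣ = 1 := by
    rw [ZMod.card_units_eq_totient]
    have h12 : M = 1 ∨ M = 2 := by omega
    rcases h12 with rfl | rfl
    · rfl
    · rfl
  exact Fintype.card_le_one_iff_subsingleton.mp hcard.le

/-- the `S_{M,H,a i}` are pairwise different -/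
theorem es1cj_sS_ne (R : Type*) [CommRing R] [Nontrivial R] [NeZero M] {m : ℕ}
    {a : Fin (m + 1) → (ZMod M)ˣ} (hrep : IsRepFam H a) {i j : Fin (m + 1)} (hij : i ≠ j) :
    sS R M H (a i) ≠ sS R M H (a j) := by
  by_cases hM : 3 ≤ M
  · exact es1f_sS_ne R hM fun h => hij (hrep.inj i j h)
  · exfalso
    apply hij
    apply hrep.inj
    have := es1cj_units_subsingleton (M := M) hM
    rw [Subsingleton.elim (a j) (a i)]
    exact InPM.self (a i)

end Group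

/-! ### The tower data -/

/-- representatives `δ_i ∈ Γ₀(L)` with diamond `a i` -/
structure es1cjData (L M : ℕ) {m : ℕ} (a : Fin (m + 1) → (ZMod M)ˣ) where
  /-- the matrices -/
  δ : Fin (m + 1) → SL(2, ℤ)
  memL : ∀ i, δ i ∈ Gamma0 L
  memM : ∀ i, δ i ∈ Gamma0 M
  diam : ∀ i, diamHom M ⟨δ i, memM i⟩ = a i

theorem es1cj_gamma0_le {L M : ℕ} (hML : M ∣ L) : Gamma0 L ≤ Gamma0 M :=
  Fermat.Agent.ES.RC.rc_Gamma0_le_of_dvd hML

/-- an element of `Γ₀(L)` with given diamond -/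
theorem es1cj_exists_diam {L M : ℕ} [NeZero L] (hML : M ∣ L) (c : (ZMod M)ˣ) :
    ∃ (γ : SL(2, ℤ)) (_ : γ ∈ Gamma0 L) (hγM : γ ∈ Gamma0 M), diamHom M ⟨γ, hγM⟩ = c := by
  obtain ⟨γ, hγ, h00⟩ := es1rc_exists_rep hML c
  refine ⟨γ, hγ, es1cj_gamma0_le hML hγ, ?_⟩
  ext
  rw [coe_diamHom]
  exact h00

theorem es1cj_exists_data {L M : ℕ} [NeZero L] (hML : M ∣ L) {m : ℕ}
    (a : Fin (m + 1) → (ZMod M)ˣ) : Nonempty (es1cjData L M a) := by
  choose δ hL hM hd using fun i => es1cj_exists_diam hML (a i)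
  exact ⟨⟨δ, hL, hM, hd⟩⟩

section Data

variable {L M : ℕ} [NeZero L] {H : Subgroup (ZMod M)ˣ} {m : ℕ}
  {a : Fin (m + 1) → (ZMod M)ˣ} (D : es1cjData L M a)

theorem es1cjData.norm (i : Fin (m + 1)) (γ : SL(2, ℤ)) (hγ : γ ∈ gammaH L M H) :
    D.δ i * γ * (D.δ i)⁻¹ ∈ gammaH L M H :=
  conj_mem_gammaH (D.memL i) (D.memM i) hγ

theorem es1cjData.zero_mem (hrep : IsRepFam H a) : D.δ 0 ∈ gammaH L M H := by
  refine ⟨D.memL 0, D.memM 0, ?_⟩
  rw [D.diam, hrep.zero]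
  exact one_mem _

theorem es1cjData.perm (hML : M ∣ L) (hrep : IsRepFam H a) (γ : SL(2, ℤ))
    (hγ : γ ∈ Gamma0 L) :
    ∃ σ : Equiv.Perm (Fin (m + 1)), ∀ i, D.δ i * γ * (D.δ (σ i))⁻¹ ∈ gammaH L M H := by
  have hγM : γ ∈ Gamma0 M := es1cj_gamma0_le hML hγ
  obtain ⟨σ, hσ⟩ := es1cj_exists_perm hrep (diamHom M ⟨γ, hγM⟩)
  refine ⟨σ, fun i => ?_⟩
  have hM' : D.δ i * γ * (D.δ (σ i))⁻¹ ∈ Gamma0 M :=
    mul_mem (mul_mem (D.memM i) hγM) (inv_mem (D.memM (σ i)))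
  refine ⟨mul_mem (mul_mem (D.memL i) hγ) (inv_mem (D.memL (σ i))), hM', ?_⟩
  have : (⟨D.δ i * γ * (D.δ (σ i))⁻¹, hM'⟩ : Gamma0 M)
      = ⟨D.δ i, D.memM i⟩ * ⟨γ, hγM⟩ * (⟨D.δ (σ i), D.memM (σ i)⟩ : Gamma0 M)⁻¹ := rfl
  rw [this, map_mul, map_mul, map_inv, D.diam, D.diam]
  exact es1cj_mem_pmH_of_inPM (hσ i)

end Data

/-! ### The modular functions `θ_{e,b}` -/

section Theta

variable {L M : ℕ} [NeZero L] (hML : M ∣ L) (H : Subgroup (ZMod M)ˣ)

include hML in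
theorem es1cj_neZero_M : NeZero M :=
  ⟨fun h => NeZero.ne L (by rw [h] at hML; exact Nat.eq_zero_of_zero_dvd hML)⟩

include hML in
theorem es1cj_one_mul_dvd : 1 * M ∣ L := by rwa [one_mul]

/-- `θ_{1,1} ∘ γ = θ_{1, ⟨γ⟩}` and its expansion -/
theorem es1cj_laurentOf_theta_comp (γ : SL(2, ℤ)) (hγL : γ ∈ Gamma0 L) (hγM : γ ∈ Gamma0 M)
    (e : ℕ) [NeZero e] (he : e * M ∣ L) (b : (ZMod M)ˣ) :
    laurentOf (fun z => es1rcThetaE e H b (γ • z)) =
      qExpand ℂ e (sS ℂ M H (b * diamHom M ⟨γ, hγM⟩)) := by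
  have hML : M ∣ L := (Dvd.intro_left e rfl).trans he
  haveI := es1cj_neZero_M hML
  have h1 : (fun z => es1rcThetaE e H b (γ • z)) =
      es1rcThetaE e H (b * diamHom M ⟨γ, hγM⟩) := by
    funext z
    exact es1rcThetaE_smul_of_mem H b e he γ hγL hγM z
  rw [h1, laurentOf_es1rcThetaE]

end Theta

/-! ### Generation and the norm polynomial over `ℂ` -/

section Main

variable {L M : ℕ} [NeZero L] (hML : M ∣ L) (H : Subgroup (ZMod M)ˣ) {m : ℕ}
  {a : Fin (m + 1) → (ZMod M)ˣ} (hrep : IsRepFam H a)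

include hML hrep in
/-- **(gen) over `ℂ`.** -/
theorem es1cj_gen_C :
    fieldC ℂ L M H ≤ IntermediateField.adjoin ℂ
      ((modularFunctionFieldFullC ℂ L : Set (LaurentSeries ℂ)) ∪ {sS ℂ M H 1}) := by
  classical
  haveI := es1cj_neZero_M hML
  haveI := es1rc_finiteIndex hML H
  obtain ⟨D⟩ := es1cj_exists_data hML a
  set E := modularFunctionFieldFullC ℂ L with hE
  set E' := IntermediateField.adjoin ℂ ((E : Set (LaurentSeries ℂ)) ∪ {sS ℂ M H 1}) with hE'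
  have hEE' : E ≤ E' := fun x hx =>
    IntermediateField.subset_adjoin ℂ _ (Or.inl hx)
  have hS1 : sS ℂ M H 1 ∈ E' := IntermediateField.subset_adjoin ℂ _ (Or.inr rfl)
  have h1M := es1cj_one_mul_dvd hML
  have hθ : IsModFunG (gammaH L M H) (es1rcThetaE 1 H (1 : (ZMod M)ˣ)) :=
    es1rcThetaE_isModFunG H 1 1 h1M
  have hconj : ∀ i, laurentOf (fun z => es1rcThetaE 1 H (1 : (ZMod M)ˣ) (D.δ i • z)) =
      sS ℂ M H (a i) := by
    intro i
    rw [es1cj_laurentOf_theta_comp H (D.δ i) (D.memL i) (D.memM i) 1 h1M 1, D.diam, one_mul,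
      qExpand_one_apply]
  have key : ∀ f : ℍ → ℂ, IsModFunG (gammaH L M H) f → laurentOf f ∈ E' := by
    intro f hf
    refine es1cj_tower (Γ := gammaH L M H) (Γ' := Gamma0 L) D.δ (fun i γ hγ => D.norm i γ hγ)
      (fun γ hγ => D.perm hML hrep γ hγ) (T_mem_gammaH L M H) 0 (D.zero_mem hrep) E E' hEE'
      (fun g hg => Fermat.Agent.ES.RC.rc_laurentOf_mem_full L hg)
      (es1rcThetaE 1 H 1) hθ ?_ ?_ hf
    · rw [laurentOf_es1rcThetaE, qExpand_one_apply]
      exact hS1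
    · intro i hi
      rw [hconj i, hconj 0]
      exact es1cj_sS_ne ℂ hrep hi
  rw [fieldC, IntermediateField.adjoin_le_iff]
  rintro x (hx | ⟨e, he0, b, he, rfl⟩)
  · exact hEE' (IntermediateField.subset_adjoin ℂ _ hx)
  · haveI := he0
    rw [← laurentOf_es1rcThetaE H b e]
    exact key _ (es1rcThetaE_isModFunG H b e he)

include hML hrep in
/-- **(poly) over `ℂ`**: the coefficients of `∏_i (X − S_{a i})` lie in the `Γ₀(L)`-field. -/
theorem es1cj_poly_C (j : ℕ) :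
    (es1cjProd (fun i => sS ℂ M H (a i))).coeff j ∈ modularFunctionFieldFullC ℂ L := by
  classical
  haveI := es1cj_neZero_M hML
  haveI := es1rc_finiteIndex hML H
  obtain ⟨D⟩ := es1cj_exists_data hML a
  have h1M := es1cj_one_mul_dvd hML
  have hθ : IsModFunG (gammaH L M H) (es1rcThetaE 1 H (1 : (ZMod M)ˣ)) :=
    es1rcThetaE_isModFunG H 1 1 h1M
  have hconj : (fun i => laurentOf (fun z => es1rcThetaE 1 H (1 : (ZMod M)ˣ) (D.δ i • z))) =
      fun i => sS ℂ M H (a i) := by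
    funext i
    rw [es1cj_laurentOf_theta_comp H (D.δ i) (D.memL i) (D.memM i) 1 h1M 1, D.diam, one_mul,
      qExpand_one_apply]
  have h := es1cj_prod_coeff_mem (Γ := gammaH L M H) (Γ' := Gamma0 L) D.δ
    (fun i γ hγ => D.norm i γ hγ) (fun γ hγ => D.perm hML hrep γ hγ) (T_mem_gammaH L M H)
    (modularFunctionFieldFullC ℂ L)
    (fun g hg => Fermat.Agent.ES.RC.rc_laurentOf_mem_full L hg) hθ j
  rw [hconj] at h
  exact h

include hML in
/-- **The conjugation principle over `ℂ`.** -/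
theorem es1cj_cp_C (c : (ZMod M)ˣ) (P : Polynomial (modularFunctionFieldFullC ℂ L))
    (e₁ : ℕ) [NeZero e₁] (he₁ : e₁ * M ∣ L) (b₁ : (ZMod M)ˣ)
    (e₂ : ℕ) [NeZero e₂] (he₂ : e₂ * M ∣ L) (b₂ : (ZMod M)ˣ)
    (h : P.eval₂ (modularFunctionFieldFullC ℂ L).val.toRingHom (qExpand ℂ e₁ (sS ℂ M H b₁)) =
      qExpand ℂ e₂ (sS ℂ M H b₂)) :
    P.eval₂ (modularFunctionFieldFullC ℂ L).val.toRingHom (qExpand ℂ e₁ (sS ℂ M H (b₁ * c))) =
      qExpand ℂ e₂ (sS ℂ M H (b₂ * c)) := by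
  haveI := es1cj_neZero_M hML
  haveI := es1rc_finiteIndex hML H
  obtain ⟨γ, hγL, hγM, hγc⟩ := es1cj_exists_diam hML c
  have h1 := es1cj_cp_modular (Γ := gammaH L M H) (Γ' := Gamma0 L) (T_mem_gammaH L M H)
    (gammaH_le_gamma0 L M H) γ (fun x hx => conj_mem_gammaH hγL hγM hx) hγL
    (modularFunctionFieldFullC ℂ L)
    (fun x hx => Fermat.Agent.ES.RC.rc_exists_frac L hx) P
    (es1rcThetaE_isModFunG H b₁ e₁ he₁) (es1rcThetaE_isModFunG H b₂ e₂ he₂)
    (by rw [laurentOf_es1rcThetaE, laurentOf_es1rcThetaE]; exact h)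
  rw [es1cj_laurentOf_theta_comp H γ hγL hγM e₁ he₁ b₁,
    es1cj_laurentOf_theta_comp H γ hγL hγM e₂ he₂ b₂, hγc] at h1
  exact h1

include hML in
/-- **The conjugation principle over `ℂ`**, for relations `P(S_b(q^e)) = 0`. -/
theorem es1cj_cp_C_zero (c : (ZMod M)ˣ) (P : Polynomial (modularFunctionFieldFullC ℂ L))
    (e₁ : ℕ) [NeZero e₁] (he₁ : e₁ * M ∣ L) (b₁ : (ZMod M)ˣ)
    (h : P.eval₂ (modularFunctionFieldFullC ℂ L).val.toRingHom (qExpand ℂ e₁ (sS ℂ M H b₁)) =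
      0) :
    P.eval₂ (modularFunctionFieldFullC ℂ L).val.toRingHom (qExpand ℂ e₁ (sS ℂ M H (b₁ * c))) =
      0 := by
  haveI := es1cj_neZero_M hML
  haveI := es1rc_finiteIndex hML H
  obtain ⟨γ, hγL, hγM, hγc⟩ := es1cj_exists_diam hML c
  have hz : IsModFunG (gammaH L M H) (fun _ : ℍ => (0 : ℂ)) := isModFunG_const _ 0
  have hz0 : laurentOf (fun _ : ℍ => (0 : ℂ)) = 0 := laurentOf_zero
  have h1 := es1cj_cp_modular (Γ := gammaH L M H) (Γ' := Gamma0 L) (T_mem_gammaH L M H)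
    (gammaH_le_gamma0 L M H) γ (fun x hx => conj_mem_gammaH hγL hγM hx) hγL
    (modularFunctionFieldFullC ℂ L)
    (fun x hx => Fermat.Agent.ES.RC.rc_exists_frac L hx) P
    (es1rcThetaE_isModFunG H b₁ e₁ he₁) hz
    (by rw [laurentOf_es1rcThetaE, hz0]; exact h)
  rw [es1cj_laurentOf_theta_comp H γ hγL hγM e₁ he₁ b₁, hγc] at h1
  exact h1.trans hz0

end Main

end Fermat.Agent.ES1

end
end ZBES1_008_2

/-! ### bundled: `Fermat.Agent.RT.K6.FCoset` -/
section ZBES1_008_3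
/-
K-machine, piece K6 / F (helper66): cosets.  `H ≤ H'` subgroups of `(ℤ/M)ˣ` (only
`±H ≤ ±H'` is used), `c : ι → (ℤ/M)ˣ` a system of representatives of `±H' / ±H`.

* `IsRelRep H H' c`;
* `rtk6f_inPM_iff` : `InPM H a b ↔ a⁻¹ b ∈ ±H`;
* `rtk6f_sS_eq_sum` : `S_{M,H',a} = Σ_i S_{M,H,a·c_i}`;
* `rtk6f_exists_relRep` : representatives exist, inside any set `C` with `±H' ⊆ C · ±H`;
* `rtk6f_card_relIdx`, `rtk6f_card_of_relRep` : `#ι = [±H' : ±H]`;
* `rtk6f_index_of_repFam` : `m + 1 = [(ℤ/M)ˣ : ±H]` for `IsRepFam H a`.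
-/

set_option autoImplicit false

noncomputable section

namespace Fermat.Agent.RT.K6

open ModularCurve AlgebraicCurve Fermat.Agent.ES Fermat.Agent.ES1

variable {M : ℕ}

/-- `InPM H a b ↔ a⁻¹ b ∈ ±H` -/
theorem rtk6f_inPM_iff {H : Subgroup (ZMod M)ˣ} {a b : (ZMod M)ˣ} :
    InPM H a (b : ZMod M) ↔ a⁻¹ * b ∈ pmH H := by
  constructor
  · intro h
    have := es1cj_mem_pmH_of_inPM h
    rwa [mul_comm] at this
  · intro h
    have := es1rc_inPM_mul_of_mem (H := H) a h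
    rwa [mul_inv_cancel_left] at this

/-- a system of representatives of `±H' / ±H` -/
structure IsRelRep (H H' : Subgroup (ZMod M)ˣ) {ι : Type*} (c : ι → (ZMod M)ˣ) : Prop where
  le : pmH H ≤ pmH H'
  mem : ∀ i, c i ∈ pmH H'
  inj : ∀ i j, (c i)⁻¹ * c j ∈ pmH H → i = j
  surj : ∀ g ∈ pmH H', ∃ i, (c i)⁻¹ * g ∈ pmH H

section Sum

variable {H H' : Subgroup (ZMod M)ˣ} {ι : Type*} [Fintype ι] {c : ι → (ZMod M)ˣ}

theorem rtk6f_cosetReps_eq_biUnion [DecidableEq ℕ] (hc : IsRelRep H H' c) (a : (ZMod M)ˣ) :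
    cosetReps M H' a = Finset.univ.biUnion fun i => cosetReps M H (a * c i) := by
  ext a'
  rw [Finset.mem_biUnion, es1f_mem_cosetReps]
  constructor
  · rintro ⟨hr, hin⟩
    obtain ⟨b, hb⟩ := hin.isUnit
    rw [← hb] at hin
    have h1 : a⁻¹ * b ∈ pmH H' := rtk6f_inPM_iff.mp hin
    obtain ⟨i, hi⟩ := hc.surj _ h1
    refine ⟨i, Finset.mem_univ _, ?_⟩
    rw [es1f_mem_cosetReps]
    refine ⟨hr, ?_⟩
    rw [← hb, rtk6f_inPM_iff]
    have e : (a * c i)⁻¹ * b = (c i)⁻¹ * (a⁻¹ * b) := by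
      rw [mul_inv, mul_comm a⁻¹ (c i)⁻¹, mul_assoc]
    rw [e]
    exact hi
  · rintro ⟨i, -, hi⟩
    rw [es1f_mem_cosetReps] at hi
    refine ⟨hi.1, ?_⟩
    obtain ⟨b, hb⟩ := hi.2.isUnit
    have hin := hi.2
    rw [← hb] at hin ⊢
    rw [rtk6f_inPM_iff] at hin ⊢
    have e : a⁻¹ * b = c i * ((a * c i)⁻¹ * b) := by
      rw [mul_inv, ← mul_assoc, ← mul_assoc, mul_comm (c i) a⁻¹, mul_assoc a⁻¹ (c i),
        mul_inv_cancel, mul_one]
    rw [e]
    exact mul_mem (hc.mem i) (hc.le hin)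

omit [Fintype ι] in
theorem rtk6f_cosetReps_disjoint (hc : IsRelRep H H' c) (a : (ZMod M)ˣ) {i j : ι}
    (hij : i ≠ j) : Disjoint (cosetReps M H (a * c i)) (cosetReps M H (a * c j)) := by
  rw [Finset.disjoint_left]
  intro a' hi hj
  apply hij
  apply hc.inj
  have h := rtk6f_inPM_iff.mp (es1f_inPM_of_mem hi hj)
  have e : (a * c i)⁻¹ * (a * c j) = (c i)⁻¹ * c j := by
    rw [mul_inv, mul_comm a⁻¹ (c i)⁻¹, mul_assoc, inv_mul_cancel_left]
  rwa [e] at h

/-- `S_{M,H',a} = Σ_i S_{M,H,a c_i}` over `ℤ` -/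
theorem rtk6f_sZ_eq_sum (hc : IsRelRep H H' c) (a : (ZMod M)ˣ) :
    sZ M H' a = ∑ i, sZ M H (a * c i) := by
  classical
  unfold sZ
  rw [rtk6f_cosetReps_eq_biUnion hc a]
  exact Finset.sum_biUnion fun i _ j _ hij => rtk6f_cosetReps_disjoint hc a hij

/-- `S_{M,H',a} = Σ_i S_{M,H,a c_i}` -/
theorem rtk6f_sS_eq_sum (R : Type*) [CommRing R] (hc : IsRelRep H H' c) (a : (ZMod M)ˣ) :
    sS R M H' a = ∑ i, sS R M H (a * c i) := by
  unfold sS
  rw [rtk6f_sZ_eq_sum hc a, map_sum]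

end Sum

section Exists

variable (H H' : Subgroup (ZMod M)ˣ)

/-- the index type: `±H' / ±H` -/
abbrev RelIdx : Type := ↥(pmH H') ⧸ (pmH H).subgroupOf (pmH H')

variable {H H'}

/-- representatives exist, inside any set `C` with `±H' ⊆ C · ±H` -/
theorem rtk6f_exists_relRep (hle : pmH H ≤ pmH H') (C : Set (ZMod M)ˣ)
    (hC : ∀ g ∈ pmH H', ∃ x ∈ C, x ∈ pmH H' ∧ x⁻¹ * g ∈ pmH H) :
    ∃ c : RelIdx H H' → (ZMod M)ˣ, IsRelRep H H' c ∧ ∀ i, c i ∈ C := by
  classical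
  have hout : ∀ i : RelIdx H H', ∃ x ∈ C, x ∈ pmH H' ∧
      x⁻¹ * ((Quotient.out i : ↥(pmH H')) : (ZMod M)ˣ) ∈ pmH H :=
    fun i => hC _ (Quotient.out i).2
  choose c hcC hcH' hcH using hout
  have hrel : ∀ (i : RelIdx H H') (g : ↥(pmH H')),
      (QuotientGroup.mk g : RelIdx H H') = i ↔
        (((Quotient.out i : ↥(pmH H')) : (ZMod M)ˣ))⁻¹ * (g : (ZMod M)ˣ) ∈ pmH H := by
    intro i g
    have h1 : (QuotientGroup.mk (Quotient.out i) : RelIdx H H') = i := Quotient.out_eq i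
    constructor
    · intro h
      have h2 : (QuotientGroup.mk (Quotient.out i) : RelIdx H H') = QuotientGroup.mk g := by
        rw [h1, h]
      rw [QuotientGroup.eq, Subgroup.mem_subgroupOf] at h2
      exact h2
    · intro h
      rw [← h1]
      symm
      rw [QuotientGroup.eq, Subgroup.mem_subgroupOf]
      exact h
  refine ⟨c, ⟨hle, hcH', ?_, ?_⟩, hcC⟩
  · intro i j hij
    have h1 : (((Quotient.out i : ↥(pmH H')) : (ZMod M)ˣ))⁻¹ *
        ((Quotient.out j : ↥(pmH H')) : (ZMod M)ˣ) ∈ pmH H := by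
      have e : (((Quotient.out i : ↥(pmH H')) : (ZMod M)ˣ))⁻¹ *
          ((Quotient.out j : ↥(pmH H')) : (ZMod M)ˣ)
          = ((c i)⁻¹ * ((Quotient.out i : ↥(pmH H')) : (ZMod M)ˣ))⁻¹ * ((c i)⁻¹ * c j) *
            ((c j)⁻¹ * ((Quotient.out j : ↥(pmH H')) : (ZMod M)ˣ)) := by
        group
      rw [e]
      exact mul_mem (mul_mem (inv_mem (hcH i)) hij) (hcH j)
    have h2 := (hrel i (Quotient.out j)).mpr h1
    rw [← h2]
    exact Quotient.out_eq j
  · intro g hg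
    refine ⟨QuotientGroup.mk ⟨g, hg⟩, ?_⟩
    set i : RelIdx H H' := QuotientGroup.mk ⟨g, hg⟩ with hi
    have h1 := (hrel i ⟨g, hg⟩).mp rfl
    have e : (c i)⁻¹ * g = ((c i)⁻¹ * ((Quotient.out i : ↥(pmH H')) : (ZMod M)ˣ)) *
        ((((Quotient.out i : ↥(pmH H')) : (ZMod M)ˣ))⁻¹ * g) := by
      rw [mul_assoc, mul_inv_cancel_left]
    rw [e]
    exact mul_mem (hcH i) h1

/-- `#(±H' / ±H) = [±H' : ±H]` -/
theorem rtk6f_card_relIdx : Nat.card (RelIdx H H') = (pmH H).relIndex (pmH H') := rfl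

/-- every system of representatives has `[±H' : ±H]` elements -/
theorem rtk6f_card_of_relRep {ι : Type*} [Fintype ι] {c : ι → (ZMod M)ˣ}
    (hc : IsRelRep H H' c) : Fintype.card ι = (pmH H).relIndex (pmH H') := by
  have hbij : Function.Bijective
      (fun i : ι => (QuotientGroup.mk (⟨c i, hc.mem i⟩ : ↥(pmH H')) : RelIdx H H')) := by
    constructor
    · intro i j hij
      apply hc.inj
      have h1 : (QuotientGroup.mk (⟨c i, hc.mem i⟩ : ↥(pmH H')) : RelIdx H H')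
          = QuotientGroup.mk (⟨c j, hc.mem j⟩ : ↥(pmH H')) := hij
      rw [QuotientGroup.eq, Subgroup.mem_subgroupOf] at h1
      exact h1
    · intro x
      obtain ⟨g, rfl⟩ := QuotientGroup.mk_surjective x
      obtain ⟨i, hi⟩ := hc.surj g g.2
      refine ⟨i, ?_⟩
      show (QuotientGroup.mk (⟨c i, hc.mem i⟩ : ↥(pmH H')) : RelIdx H H') = QuotientGroup.mk g
      rw [QuotientGroup.eq, Subgroup.mem_subgroupOf]
      exact hi
  rw [← rtk6f_card_relIdx, ← Nat.card_eq_fintype_card]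
  exact Nat.card_eq_of_bijective _ hbij

end Exists

section RepFam

variable {H : Subgroup (ZMod M)ˣ}

/-- `m + 1 = [(ℤ/M)ˣ : ±H]` -/
theorem rtk6f_index_of_repFam {m : ℕ} {a : Fin (m + 1) → (ZMod M)ˣ} (ha : IsRepFam H a) :
    (pmH H).index = m + 1 := by
  have hbij : Function.Bijective
      (fun i : Fin (m + 1) => (QuotientGroup.mk (a i) : (ZMod M)ˣ ⧸ pmH H)) := by
    constructor
    · intro i j hij
      apply ha.inj
      have h1 : (QuotientGroup.mk (a i) : (ZMod M)ˣ ⧸ pmH H) = QuotientGroup.mk (a j) := hij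
      rw [QuotientGroup.eq] at h1
      exact rtk6f_inPM_iff.mpr h1
    · intro x
      obtain ⟨g, rfl⟩ := QuotientGroup.mk_surjective x
      obtain ⟨i, hi⟩ := ha.surj g
      refine ⟨i, ?_⟩
      show (QuotientGroup.mk (a i) : (ZMod M)ˣ ⧸ pmH H) = QuotientGroup.mk g
      rw [QuotientGroup.eq]
      exact rtk6f_inPM_iff.mp hi
  have h := Nat.card_eq_of_bijective _ hbij
  rw [Nat.card_eq_fintype_card, Fintype.card_fin] at h
  rw [Subgroup.index, ← h]

end RepFam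

end Fermat.Agent.RT.K6

end
end ZBES1_008_3

/-! ### bundled: `Fermat.Agent.RT.K6.FAtR` -/
section ZBES1_008_4
/-
K-machine, piece K6 / F (helper66): the group of diamonds at `r`.

`r ∣ M`, `C = {c ∈ (ℤ/M)ˣ : c ≡ 1 mod M / r}` (`IsAtR M r c`), `H⁺ = H ⊔ C`.

* `rtk6fAtR M r hrM` : `C` as a subgroup (kernel of the reduction to `(ℤ/(M/r))ˣ`);
* `rtk6f_card_atR`   : `#C = r − 1` when `r ∥ M`;
* `rtk6f_pm_le`, `rtk6f_atR_le`, `rtk6f_exists_split` : `±H ≤ ±H⁺`, `C ≤ ±H⁺`, `±H⁺ = C · ±H`;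
* `rtk6f_exists_relRep_atR` : a system of representatives of `±H⁺ / ±H` inside `C`, with at most
  `r − 1` elements.
-/

set_option autoImplicit false

noncomputable section

namespace Fermat.Agent.RT.K6

open Fermat.Agent.ES1

variable {M r : ℕ}

theorem rtk6f_isAtR_iff [NeZero M] (hrM : r ∣ M) (c : (ZMod M)ˣ) :
    IsAtR M r c ↔ ZMod.unitsMap (Nat.div_dvd_of_dvd hrM) c = 1 := by
  unfold IsAtR
  rw [ZMod.natCast_val, Units.ext_iff, ZMod.unitsMap_val, Units.val_one]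

/-- the diamonds at `r` -/
def rtk6fAtR (M r : ℕ) (hrM : r ∣ M) : Subgroup (ZMod M)ˣ :=
  (ZMod.unitsMap (Nat.div_dvd_of_dvd hrM)).ker

theorem mem_rtk6fAtR [NeZero M] (hrM : r ∣ M) {c : (ZMod M)ˣ} :
    c ∈ rtk6fAtR M r hrM ↔ IsAtR M r c := by
  rw [rtk6f_isAtR_iff hrM]
  exact MonoidHom.mem_ker

/-- `#C = r − 1` -/
theorem rtk6f_card_atR [NeZero M] (hr : r.Prime) (hrM : r ∣ M) (hr2 : ¬ r ^ 2 ∣ M) :
    Nat.card (rtk6fAtR M r hrM) = r - 1 := by
  have hM0 : M ≠ 0 := NeZero.ne M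
  have hpos : 0 < M / r := Nat.div_pos (Nat.le_of_dvd (Nat.pos_of_ne_zero hM0) hrM) hr.pos
  have : NeZero (M / r) := ⟨hpos.ne'⟩
  have hcop : Nat.Coprime r (M / r) := by
    rw [Nat.Prime.coprime_iff_not_dvd hr]
    intro h
    apply hr2
    obtain ⟨k, hk⟩ := h
    refine ⟨k, ?_⟩
    have := Nat.div_mul_cancel hrM
    rw [hk] at this
    rw [← this]
    ring
  have hsurj := ZMod.unitsMap_surjective (Nat.div_dvd_of_dvd hrM)
  have h1 := Subgroup.card_mul_index (rtk6fAtR M r hrM)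
  have h2 : (rtk6fAtR M r hrM).index = Nat.card (ZMod (M / r))ˣ := by
    unfold rtk6fAtR
    rw [Subgroup.index_ker, MonoidHom.range_eq_top.mpr hsurj, Subgroup.card_top]
  rw [h2, Nat.card_eq_fintype_card (α := (ZMod (M / r))ˣ),
    Nat.card_eq_fintype_card (α := (ZMod M)ˣ), ZMod.card_units_eq_totient,
    ZMod.card_units_eq_totient] at h1
  have h3 : Nat.totient M = (r - 1) * Nat.totient (M / r) := by
    conv_lhs => rw [← Nat.mul_div_cancel' hrM]
    rw [Nat.totient_mul hcop, Nat.totient_prime hr]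
  rw [h3] at h1
  exact Nat.eq_of_mul_eq_mul_right (Nat.totient_pos.mpr hpos) h1

section Plus

variable (H : Subgroup (ZMod M)ˣ) (hrM : r ∣ M)

theorem rtk6f_pm_le : pmH H ≤ pmH (H ⊔ rtk6fAtR M r hrM) :=
  sup_le_sup_right le_sup_left _

theorem rtk6f_atR_le : rtk6fAtR M r hrM ≤ pmH (H ⊔ rtk6fAtR M r hrM) :=
  le_sup_right.trans le_sup_left

theorem rtk6f_exists_split {g : (ZMod M)ˣ} (hg : g ∈ pmH (H ⊔ rtk6fAtR M r hrM)) :
    ∃ x ∈ rtk6fAtR M r hrM, x⁻¹ * g ∈ pmH H := by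
  have e : pmH (H ⊔ rtk6fAtR M r hrM) = rtk6fAtR M r hrM ⊔ pmH H := by
    unfold pmH
    rw [sup_comm H, sup_assoc]
  rw [e, Subgroup.mem_sup] at hg
  obtain ⟨x, hx, h, hh, rfl⟩ := hg
  exact ⟨x, hx, by rwa [inv_mul_cancel_left]⟩

/-- **representatives of `±H⁺ / ±H` among the diamonds at `r`** -/
theorem rtk6f_exists_relRep_atR [NeZero M] (hr : r.Prime) (hr2 : ¬ r ^ 2 ∣ M) :
    ∃ c : RelIdx H (H ⊔ rtk6fAtR M r hrM) → (ZMod M)ˣ,
      IsRelRep H (H ⊔ rtk6fAtR M r hrM) c ∧ (∀ i, IsAtR M r (c i)) ∧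
        Nat.card (RelIdx H (H ⊔ rtk6fAtR M r hrM)) ≠ 0 ∧
        ¬ r ∣ Nat.card (RelIdx H (H ⊔ rtk6fAtR M r hrM)) := by
  obtain ⟨c, hc, hcC⟩ := rtk6f_exists_relRep (rtk6f_pm_le H hrM)
    (rtk6fAtR M r hrM : Set (ZMod M)ˣ) (fun g hg => by
      obtain ⟨x, hx, hxg⟩ := rtk6f_exists_split H hrM hg
      exact ⟨x, hx, rtk6f_atR_le H hrM hx, hxg⟩)
  have hpos : Nat.card (RelIdx H (H ⊔ rtk6fAtR M r hrM)) ≠ 0 :=
    Nat.card_pos.ne'
  refine ⟨c, hc, fun i => (mem_rtk6fAtR hrM).mp (hcC i), hpos, ?_⟩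
  have hinj : Function.Injective
      (fun i : RelIdx H (H ⊔ rtk6fAtR M r hrM) => (⟨c i, hcC i⟩ : rtk6fAtR M r hrM)) := by
    intro i j hij
    apply hc.inj
    have : c i = c j := congrArg Subtype.val hij
    rw [this, inv_mul_cancel]
    exact one_mem _
  have hle := Nat.card_le_card_of_injective _ hinj
  rw [rtk6f_card_atR hr hrM hr2] at hle
  intro hdvd
  have h1 := Nat.le_of_dvd (Nat.pos_of_ne_zero hpos) hdvd
  have h2 : 0 < r := hr.pos
  omega

end Plus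

end Fermat.Agent.RT.K6

end
end ZBES1_008_4
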