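/- GENERATED FILE (helper35, build-time optimisation, NOTES/ZB.md): verbatim concatenation of the modules
   Fermat.Agent.ES1.RCGamma
   Fermat.Agent.RT.K6.BInv
   Fermat.Agent.RT.K6.BMain
   Fermat.Agent.RT.K6.BGal
   Fermat.Agent.RT.K6.BFinal
   Fermat.Agent.ES1.G1.DiamAn
   Do not edit; do not import together with these modules. -/
import Fermat.Agent.ZB.ES1_003
import Fermat.Agent.ZB.ES1_001
import Fermat.Agent.ZB.ES1_007
import Fermat.Agent.ZB.S24_006

/-! ### bundled: `Fermat.Agent.ES1.RCGamma` -/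
section ZBES1_013_0

/-!
# ES₁ / F3 (RC-Γ), main: `fieldC ℂ L M H` is the field of modular functions of `Γ_H(M) ∩ Γ₀(L)`

`Γ = gammaH L M H`, `M ∣ L`, `L ≠ 0`.

* `es1rc_laurentOf_mem_fieldC` (**hard half**): a modular function for `Γ` (holomorphic on `ℍ`,
  meromorphic at the cusps) has its `q`-expansion in `fieldC ℂ L M H`;
* `es1rc_exists_frac` (**easy half**): every element of `fieldC ℂ L M H` is a quotient of
  `q`-expansions of modular functions for `Γ`;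
* `es1rc_sep` (**separation**): `ε ∈ SL(2, ℤ)` fixing all modular functions for `Γ` lies in `Γ`;
* `es1rcToField`, `es1rcAlgebra`, `es1rc_isScalarTower`, `es1rc_isFractionRing` :
  `fieldC ℂ L M H = Frac (modFunAlgG Γ)`.
-/

set_option autoImplicit false
set_option linter.unusedSectionVars false
set_option linter.style.haveILetI false

noncomputable section

open UpperHalfPlane ModularForm CongruenceSubgroup Matrix
open scoped MatrixGroups Manifold

namespace Fermat.Agent.ES1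

open Fermat.Agent.S23 Fermat.Agent.S24 Fermat.Agent.S28 Fermat.Agent.ES Fermat.Agent.ES.RC
  ModularCurve

/-! ### Units and `±H` -/

theorem es1rc_inPM_iff {M : ℕ} {H : Subgroup (ZMod M)ˣ} {a b : (ZMod M)ˣ} :
    InPM H a (b : ZMod M) ↔ a⁻¹ * b ∈ pmH H := by
  constructor
  · rintro ⟨h, hh, hb | hb⟩
    · refine es1rc_mem_pmH_of hh (Or.inl ?_)
      have : b = a * h := Units.ext hb
      rw [this, inv_mul_cancel_left]
    · refine es1rc_mem_pmH_of hh (Or.inr ?_)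
      have : b = -(a * h) := Units.ext (by rw [hb, Units.val_neg])
      rw [this, mul_neg, inv_mul_cancel_left]
  · intro hab
    have h1 := es1rc_inPM_mul_of_mem (H := H) a hab
    rwa [mul_inv_cancel_left] at h1

theorem es1rc_units_eq_one {M : ℕ} [NeZero M] (hM : M < 3) (u : (ZMod M)ˣ) : u = 1 := by
  have hM0 : M ≠ 0 := NeZero.ne M
  interval_cases M
  · exact absurd rfl hM0
  · exact Subsingleton.elim _ _
  · revert u; decide

/-! ### The hard half -/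

section Hard

variable {L M : ℕ} [NeZero L] (hML : M ∣ L) (H : Subgroup (ZMod M)ˣ)

include hML in
theorem es1rc_neZero_of_dvd : NeZero M :=
  ⟨fun h => NeZero.ne L (by rw [h] at hML; exact Nat.eq_zero_of_zero_dvd hML)⟩

/-- a representative in `Γ₀(L)` of the class `i ∈ (ℤ/M)ˣ / ±H` -/
def es1rcDelta (i : (ZMod M)ˣ ⧸ pmH H) : SL(2, ℤ) :=
  (es1rc_exists_rep hML (Quotient.out i)).choose

theorem es1rcDelta_mem (i : (ZMod M)ˣ ⧸ pmH H) : es1rcDelta hML H i ∈ Gamma0 L :=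
  (es1rc_exists_rep hML (Quotient.out i)).choose_spec.1

theorem es1rcDelta_mem' (i : (ZMod M)ˣ ⧸ pmH H) : es1rcDelta hML H i ∈ Gamma0 M :=
  rc_Gamma0_le_of_dvd hML (es1rcDelta_mem hML H i)

theorem es1rcDelta_diam (i : (ZMod M)ˣ ⧸ pmH H) :
    diamHom M ⟨es1rcDelta hML H i, es1rcDelta_mem' hML H i⟩ = Quotient.out i := by
  ext
  rw [coe_diamHom]
  exact (es1rc_exists_rep hML (Quotient.out i)).choose_spec.2

theorem es1rc_mk_diam (i : (ZMod M)ˣ ⧸ pmH H) :
    (QuotientGroup.mk (diamHom M ⟨es1rcDelta hML H i, es1rcDelta_mem' hML H i⟩) :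
      (ZMod M)ˣ ⧸ pmH H) = i := by
  rw [es1rcDelta_diam]
  exact Quotient.out_eq i

/-- membership in `Γ` for elements of `Γ₀(L)` -/
theorem es1rc_mem_gammaH_iff {γ : SL(2, ℤ)} (hγ : γ ∈ Gamma0 L) :
    γ ∈ gammaH L M H ↔
      (QuotientGroup.mk (diamHom M ⟨γ, rc_Gamma0_le_of_dvd hML hγ⟩) : (ZMod M)ˣ ⧸ pmH H) = 1 := by
  rw [QuotientGroup.eq_one_iff]
  exact ⟨fun h => h.2.2, fun h => ⟨hγ, rc_Gamma0_le_of_dvd hML hγ, h⟩⟩

include hML in
/-- **(RC-Γ)(i), hard half**: a modular function for `Γ_H(M) ∩ Γ₀(L)` has its `q`-expansion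
in `fieldC ℂ L M H`. -/
theorem es1rc_laurentOf_mem_fieldC {f : ℍ → ℂ} (hf : IsModFunG (gammaH L M H) f) :
    laurentOf f ∈ fieldC ℂ L M H := by
  classical
  have hMne : NeZero M := es1rc_neZero_of_dvd hML
  have hfin := es1rc_finiteIndex hML H
  letI : Fintype ((ZMod M)ˣ ⧸ pmH H) := Fintype.ofFinite _
  have he1 : 1 * M ∣ L := by rwa [one_mul]
  -- the diamond of an element of `Γ₀(L)`
  have hG0 : ∀ {γ : SL(2, ℤ)}, γ ∈ Gamma0 L → γ ∈ Gamma0 M := fun h => rc_Gamma0_le_of_dvd hML h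
  have hθconj : ∀ i : (ZMod M)ˣ ⧸ pmH H,
      (fun z => es1rcThetaE 1 H 1 (es1rcDelta hML H i • z)) =
        es1rcThetaE 1 H (Quotient.out i) := by
    intro i
    funext z
    rw [es1rcThetaE_smul_of_mem H 1 1 he1 _ (es1rcDelta_mem hML H i) (es1rcDelta_mem' hML H i) z,
      es1rcDelta_diam, one_mul]
  refine es1rc_tower (Γ := gammaH L M H) (Γ' := Gamma0 L) (T_mem_gammaH L M H)
    (es1rcDelta hML H) (1 : (ZMod M)ˣ ⧸ pmH H) ?_ ?_ ?_
    (modularFunctionFieldFullC ℂ L) (fieldC ℂ L M H) (full_le_fieldC ℂ L M H) ?_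
    (es1rcThetaE 1 H 1) (es1rcThetaE_isModFunG H 1 1 he1) ?_ ?_ hf
  · -- `δ 1 ∈ Γ`
    rw [es1rc_mem_gammaH_iff hML H (es1rcDelta_mem hML H 1)]
    exact es1rc_mk_diam hML H 1
  · -- normalisation
    intro i γ hγ
    exact conj_mem_gammaH (es1rcDelta_mem hML H i) (es1rcDelta_mem' hML H i) hγ
  · -- permutation
    intro γ hγ
    refine ⟨Equiv.mulRight (QuotientGroup.mk (diamHom M ⟨γ, hG0 hγ⟩)), fun i => ?_⟩
    have hmem : es1rcDelta hML H i * γ *
        (es1rcDelta hML H (Equiv.mulRight (QuotientGroup.mk (diamHom M ⟨γ, hG0 hγ⟩)) i))⁻¹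
          ∈ Gamma0 L :=
      mul_mem (mul_mem (es1rcDelta_mem hML H i) hγ) (inv_mem (es1rcDelta_mem hML H _))
    rw [es1rc_mem_gammaH_iff hML H hmem]
    have h1 : (⟨es1rcDelta hML H i * γ *
        (es1rcDelta hML H (Equiv.mulRight (QuotientGroup.mk (diamHom M ⟨γ, hG0 hγ⟩)) i))⁻¹,
          hG0 hmem⟩ : Gamma0 M) =
        ⟨es1rcDelta hML H i, es1rcDelta_mem' hML H i⟩ * ⟨γ, hG0 hγ⟩ *
          (⟨es1rcDelta hML H (Equiv.mulRight (QuotientGroup.mk (diamHom M ⟨γ, hG0 hγ⟩)) i),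
            es1rcDelta_mem' hML H _⟩ : Gamma0 M)⁻¹ := rfl
    rw [h1, map_mul, map_mul, map_inv, QuotientGroup.mk_mul, QuotientGroup.mk_mul,
      QuotientGroup.mk_inv, es1rc_mk_diam, es1rc_mk_diam, Equiv.coe_mulRight, mul_inv_cancel]
  · -- `Γ₀(L)`
    intro g hg
    exact rc_laurentOf_mem_full L hg
  · -- the conjugates of `θ` lie in the field
    intro i
    rw [hθconj i, laurentOf_es1rcThetaE]
    exact qExpand_sS_mem ℂ L M H he1 _
  · -- the conjugates are distinct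
    intro i hi
    rw [hθconj i, hθconj 1, laurentOf_es1rcThetaE, laurentOf_es1rcThetaE]
    intro heq
    apply hi
    have heq' := qExpand_injective 1 heq
    rcases Nat.lt_or_ge M 3 with hM | hM
    · rw [← Quotient.out_eq i, ← Quotient.out_eq (1 : (ZMod M)ˣ ⧸ pmH H),
        es1rc_units_eq_one hM (Quotient.out i),
        es1rc_units_eq_one hM (Quotient.out (1 : (ZMod M)ˣ ⧸ pmH H))]
    · have h2 := (es1f_sS_eq_iff ℂ hM).mp heq'
      rw [es1rc_inPM_iff] at h2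
      have h3 : (QuotientGroup.mk (Quotient.out i) : (ZMod M)ˣ ⧸ pmH H) =
          QuotientGroup.mk (Quotient.out (1 : (ZMod M)ˣ ⧸ pmH H)) :=
        QuotientGroup.eq.mpr h2
      have e1 : (QuotientGroup.mk (Quotient.out i) : (ZMod M)ˣ ⧸ pmH H) = i :=
        Quotient.out_eq i
      have e2 : (QuotientGroup.mk (Quotient.out (1 : (ZMod M)ˣ ⧸ pmH H)) :
          (ZMod M)ˣ ⧸ pmH H) = 1 := Quotient.out_eq _
      rw [e1, e2] at h3
      exact h3

end Hard

/-! ### The easy half -/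

section Easy

variable {L M : ℕ} [NeZero L] (hML : M ∣ L) (H : Subgroup (ZMod M)ˣ)

theorem es1rc_isModFunG_of_gamma0 {f : ℍ → ℂ} (hf : IsModFun L f) :
    IsModFunG (gammaH L M H) f :=
  IsModFunG.mono (gammaH_le_gamma0 L M H) ((isModFunG_gamma0_iff L f).mpr hf)

theorem es1rc_isMerInf {f : ℍ → ℂ} (hf : IsModFunG (gammaH L M H) f) : IsMerInf f :=
  IsModFunG.isMerInf (T_mem_gammaH L M H) hf

/-- **(RC-Γ)(i'), easy half**: every element of `fieldC ℂ L M H` is a quotient of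
`q`-expansions of modular functions for `Γ_H(M) ∩ Γ₀(L)`. -/
theorem es1rc_exists_frac {x : LaurentSeries ℂ} (hx : x ∈ fieldC ℂ L M H) :
    ∃ a b : ℍ → ℂ, IsModFunG (gammaH L M H) a ∧ IsModFunG (gammaH L M H) b ∧
      laurentOf b ≠ 0 ∧ x * laurentOf b = laurentOf a := by
  have h1 : IsModFunG (gammaH L M H) (1 : ℍ → ℂ) := isModFunG_const _ 1
  have h0 : IsModFunG (gammaH L M H) (0 : ℍ → ℂ) := isModFunG_const _ 0
  unfold fieldC at hx
  induction hx using IntermediateField.adjoin_induction with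
  | mem x hx =>
    rcases hx with ⟨d, hne, hd, rfl⟩ | ⟨e, hne, a, he, rfl⟩
    · refine ⟨fun z => Jfun (scaleN d z), 1,
        es1rc_isModFunG_of_gamma0 H (rc_isModFun_Jfun_scaleN hd), h1, ?_, ?_⟩
      · rw [laurentOf_one]; exact one_ne_zero
      · rw [laurentOf_one, mul_one, laurentOf_Jfun_scaleN]; rfl
    · refine ⟨es1rcThetaE e H a, 1, es1rcThetaE_isModFunG H a e he, h1, ?_, ?_⟩
      · rw [laurentOf_one]; exact one_ne_zero
      · have hMne : NeZero M := es1rc_neZero_of_dvd ((Dvd.intro_left e rfl).trans he)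
        rw [laurentOf_one, mul_one, laurentOf_es1rcThetaE]
  | algebraMap c =>
    refine ⟨fun _ => c, 1, isModFunG_const _ c, h1, ?_, ?_⟩
    · rw [laurentOf_one]; exact one_ne_zero
    · rw [laurentOf_one, mul_one, laurentOf_const, Deriv.algebraMap_eq_C]
  | add x y _ _ ihx ihy =>
    obtain ⟨a1, b1, ha1, hb1, hb1', h1⟩ := ihx
    obtain ⟨a2, b2, ha2, hb2, hb2', h2⟩ := ihy
    have ma1 := es1rc_isMerInf H ha1
    have mb1 := es1rc_isMerInf H hb1
    have ma2 := es1rc_isMerInf H ha2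
    have mb2 := es1rc_isMerInf H hb2
    refine ⟨a1 * b2 + a2 * b1, b1 * b2, (ha1.mul hb2).add (ha2.mul hb1), hb1.mul hb2, ?_, ?_⟩
    · rw [laurentOf_mul mb1 mb2]; exact mul_ne_zero hb1' hb2'
    · rw [laurentOf_mul mb1 mb2, laurentOf_add (ma1.mul mb2) (ma2.mul mb1),
        laurentOf_mul ma1 mb2, laurentOf_mul ma2 mb1, ← h1, ← h2]
      ring
  | inv x _ ih =>
    obtain ⟨a, b, ha, hb, hb', h⟩ := ih
    by_cases ha0 : laurentOf a = 0
    · have hx0 : x = 0 := by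
        rw [ha0] at h
        exact (mul_eq_zero.mp h).resolve_right hb'
      refine ⟨0, 1, h0, h1, ?_, ?_⟩
      · rw [laurentOf_one]; exact one_ne_zero
      · rw [hx0, _root_.inv_zero, zero_mul, laurentOf_zero]
    · refine ⟨b, a, hb, ha, ha0, ?_⟩
      have hx0 : x ≠ 0 := by
        rintro rfl
        rw [zero_mul] at h
        exact ha0 h.symm
      rw [← h]
      field_simp
  | mul x y _ _ ihx ihy =>
    obtain ⟨a1, b1, ha1, hb1, hb1', h1⟩ := ihx
    obtain ⟨a2, b2, ha2, hb2, hb2', h2⟩ := ihy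
    have ma1 := es1rc_isMerInf H ha1
    have mb1 := es1rc_isMerInf H hb1
    have ma2 := es1rc_isMerInf H ha2
    have mb2 := es1rc_isMerInf H hb2
    refine ⟨a1 * a2, b1 * b2, ha1.mul ha2, hb1.mul hb2, ?_, ?_⟩
    · rw [laurentOf_mul mb1 mb2]; exact mul_ne_zero hb1' hb2'
    · rw [laurentOf_mul mb1 mb2, laurentOf_mul ma1 ma2, ← h1, ← h2]
      ring

include hML in
theorem es1rc_mem_fieldC_of_frac {x : LaurentSeries ℂ} {a b : ℍ → ℂ}
    (ha : IsModFunG (gammaH L M H) a) (hb : IsModFunG (gammaH L M H) b)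
    (hb' : laurentOf b ≠ 0) (h : x * laurentOf b = laurentOf a) : x ∈ fieldC ℂ L M H := by
  have hx : x = laurentOf a / laurentOf b := by rw [eq_div_iff hb']; exact h
  rw [hx]
  exact div_mem (es1rc_laurentOf_mem_fieldC hML H ha) (es1rc_laurentOf_mem_fieldC hML H hb)

include hML in
theorem es1rc_mem_fieldC_iff {x : LaurentSeries ℂ} :
    x ∈ fieldC ℂ L M H ↔
      ∃ a b : ℍ → ℂ, IsModFunG (gammaH L M H) a ∧ IsModFunG (gammaH L M H) b ∧
        laurentOf b ≠ 0 ∧ x * laurentOf b = laurentOf a :=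
  ⟨es1rc_exists_frac H, fun ⟨_, _, ha, hb, hb', h⟩ => es1rc_mem_fieldC_of_frac hML H ha hb hb' h⟩

end Easy

/-! ### Separation -/

section Sep

variable {L M : ℕ} [NeZero L] (hML : M ∣ L) (H : Subgroup (ZMod M)ˣ)

include hML in
/-- **SEPARATION** for `Γ_H(M) ∩ Γ₀(L)`. -/
theorem es1rc_sepG : SepG (gammaH L M H) := by
  intro ε h
  have hMne : NeZero M := es1rc_neZero_of_dvd hML
  have he1 : 1 * M ∣ L := by rwa [one_mul]
  have hεL : ε ∈ Gamma0 L := by
    apply mem_Gamma0_of_Jd_smul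
    intro z
    exact h ⟨Jd L, es1rc_isModFunG_of_gamma0 H (ptx_isModFun_Jd L)⟩ z
  rw [es1rc_mem_gammaH_iff hML H hεL, QuotientGroup.eq_one_iff]
  have hεM : ε ∈ Gamma0 M := rc_Gamma0_le_of_dvd hML hεL
  rcases Nat.lt_or_ge M 3 with hM | hM
  · rw [es1rc_units_eq_one hM (diamHom M ⟨ε, hεM⟩)]
    exact one_mem _
  · have h1 := h ⟨es1rcThetaE 1 H 1, es1rcThetaE_isModFunG H 1 1 he1⟩
    have h2 : es1rcThetaE 1 H (1 * diamHom M ⟨ε, hεM⟩) = es1rcThetaE 1 H 1 := by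
      funext z
      rw [← es1rcThetaE_smul_of_mem H 1 1 he1 ε hεL hεM z]
      exact h1 z
    have h3 := congrArg laurentOf h2
    rw [laurentOf_es1rcThetaE, laurentOf_es1rcThetaE] at h3
    have h4 := (es1f_sS_eq_iff ℂ hM).mp (qExpand_injective 1 h3)
    rw [es1rc_inPM_iff] at h4
    have h5 := inv_mem h4
    rwa [one_mul, mul_one, inv_inv] at h5

end Sep

/-! ### `fieldC ℂ L M H` as the fraction field of `modFunAlgG Γ` -/

section Frac

variable {L M : ℕ} [NeZero L] (hML : M ∣ L) (H : Subgroup (ZMod M)ˣ)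

/-- The `q`-expansion, as a `ℂ`-algebra map from the modular functions for `Γ_H(M) ∩ Γ₀(L)` to
`fieldC ℂ L M H`. -/
def es1rcToField : modFunAlgG (gammaH L M H) →ₐ[ℂ] fieldC ℂ L M H where
  toFun f := ⟨laurentOf (f : ℍ → ℂ), es1rc_laurentOf_mem_fieldC hML H f.2⟩
  map_one' := Subtype.ext laurentOf_one
  map_mul' f g := Subtype.ext (laurentOf_mul (es1rc_isMerInf H f.2) (es1rc_isMerInf H g.2))
  map_zero' := Subtype.ext laurentOf_zero
  map_add' f g := Subtype.ext (laurentOf_add (es1rc_isMerInf H f.2) (es1rc_isMerInf H g.2))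
  commutes' c := Subtype.ext (by
    show laurentOf (fun _ => c) = algebraMap ℂ (LaurentSeries ℂ) c
    rw [laurentOf_const, Deriv.algebraMap_eq_C])

@[simp]
theorem es1rcToField_coe (f : modFunAlgG (gammaH L M H)) :
    ((es1rcToField hML H f : fieldC ℂ L M H) : LaurentSeries ℂ) = laurentOf (f : ℍ → ℂ) := rfl

theorem es1rcToField_injective : Function.Injective (es1rcToField hML H) := by
  intro f g h
  have h1 : laurentOf (f : ℍ → ℂ) = laurentOf (g : ℍ → ℂ) := congrArg Subtype.val h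
  exact Subtype.ext (laurentOf_injective (es1rc_isMerInf H f.2) (es1rc_isMerInf H g.2) h1)

/-- The algebra structure of `fieldC ℂ L M H` over the ring of modular functions. -/
@[reducible]
def es1rcAlgebra : Algebra (modFunAlgG (gammaH L M H)) (fieldC ℂ L M H) :=
  (es1rcToField hML H).toRingHom.toAlgebra

theorem es1rc_algebraMap_apply (f : modFunAlgG (gammaH L M H)) :
    letI := es1rcAlgebra hML H
    algebraMap (modFunAlgG (gammaH L M H)) (fieldC ℂ L M H) f = es1rcToField hML H f := rfl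

theorem es1rc_isScalarTower :
    letI := es1rcAlgebra hML H
    IsScalarTower ℂ (modFunAlgG (gammaH L M H)) (fieldC ℂ L M H) := by
  letI := es1rcAlgebra hML H
  refine IsScalarTower.of_algebraMap_eq fun c => ?_
  rw [es1rc_algebraMap_apply]
  exact ((es1rcToField hML H).commutes c).symm

/-- **`fieldC ℂ L M H = Frac (modFunAlgG (Γ_H(M) ∩ Γ₀(L)))`**. -/
theorem es1rc_isFractionRing :
    letI := es1rcAlgebra hML H
    IsFractionRing (modFunAlgG (gammaH L M H)) (fieldC ℂ L M H) := by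
  letI := es1rcAlgebra hML H
  haveI : FaithfulSMul (modFunAlgG (gammaH L M H)) (fieldC ℂ L M H) :=
    (faithfulSMul_iff_algebraMap_injective _ _).mpr (es1rcToField_injective hML H)
  refine IsFractionRing.of_field _ _ fun z => ?_
  obtain ⟨a, b, ha, hb, hb', h⟩ := es1rc_exists_frac H z.2
  refine ⟨⟨a, ha⟩, ⟨b, hb⟩, ?_⟩
  have hb0 : algebraMap (modFunAlgG (gammaH L M H)) (fieldC ℂ L M H) ⟨b, hb⟩ ≠ 0 := by
    intro h0
    exact hb' (congrArg Subtype.val h0)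
  rw [eq_div_iff hb0]
  exact Subtype.ext h

/-- the places of `fieldC ℂ L M H` at the points of `ℍ` -/
theorem es1rc_stmtPtG :
    letI := es1rcAlgebra hML H
    StmtPtG (gammaH L M H) (fieldC ℂ L M H) := by
  letI := es1rcAlgebra hML H
  haveI := es1rc_isScalarTower hML H
  haveI := es1rc_isFractionRing hML H
  exact stmtPtG (gammaH L M H) (fieldC ℂ L M H)

/-- exact ramification at the points of `ℍ` -/
theorem es1rc_stmtPtExactG :
    letI := es1rcAlgebra hML H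
    StmtPtExactG (gammaH L M H) (fieldC ℂ L M H) := by
  letI := es1rcAlgebra hML H
  haveI := es1rc_isScalarTower hML H
  haveI := es1rc_isFractionRing hML H
  exact stmtPtExactG_of_sep (gammaH L M H) (es1rc_sepG hML H) (fieldC ℂ L M H)

end Frac

end Fermat.Agent.ES1

end
end ZBES1_013_0

/-! ### bundled: `Fermat.Agent.RT.K6.BInv` -/
section ZBES1_013_1

/-!
# RT-K6 / B (7): the star involution, invariance of the targets, membership (helper96)

* `IsStarOf M r u v` : `v ≡ u⁻¹` mod `r`, `v ≡ u` mod `M / r`;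
* `rtk6b_conj_star` : the class of `W g W⁻¹` is the star of the class of `g` (`g ∈ Γ₀(L)`);
* `rtk6bTA_smul` : `TA i (g • τ) = TA (i • v) τ`, `v` the star of the class of `g`;
* `rtk6bTB_mem` : for star-stable `H` the targets lie in `fieldBar L M H`.
-/

set_option autoImplicit false
set_option linter.style.haveILetI false
set_option linter.unusedSectionVars false

open UpperHalfPlane ModularForm CongruenceSubgroup Matrix
open Fermat.Agent.ES Fermat.Agent.S23 Fermat.Agent.S24 Fermat.Agent.S28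
open Fermat.Agent.ES1 Fermat.Agent.ES1.G2 Fermat.Agent.ES.G2 ModularCurve
open scoped MatrixGroups Manifold Real

noncomputable section

namespace Fermat.Agent.RT.K6

/-! ### the star relation -/

theorem rtk6b_val_cast {M n : ℕ} [NeZero M] (hn : n ∣ M) (x : ZMod M) :
    (((x.val : ℕ)) : ZMod n) = ZMod.castHom hn (ZMod n) x := by
  rw [ZMod.natCast_val, ZMod.castHom_apply]

/-- `v` is the star of `u`: `v ≡ u⁻¹` mod `r` and `v ≡ u` mod `M / r` -/
def IsStarOf (M r : ℕ) (u v : (ZMod M)ˣ) : Prop :=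
  (((v : ZMod M).val : ℕ) : ZMod r) = ((((u⁻¹ : (ZMod M)ˣ) : ZMod M).val : ℕ) : ZMod r) ∧
    (((v : ZMod M).val : ℕ) : ZMod (M / r)) = (((u : ZMod M).val : ℕ) : ZMod (M / r))

theorem isStarStable_iff {M r : ℕ} {H : Subgroup (ZMod M)ˣ} :
    IsStarStable M r H ↔ ∀ h ∈ H, ∀ h' : (ZMod M)ˣ, IsStarOf M r h h' → h' ∈ pmH H :=
  ⟨fun hs h hh h' hst => hs h hh h' hst.1 hst.2, fun hs h hh h' h1 h2 => hs h hh h' ⟨h1, h2⟩⟩

section Star

variable {M r : ℕ} [NeZero M] (hr : r ∣ M)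

include hr

theorem isStarOf_iff (u v : (ZMod M)ˣ) :
    IsStarOf M r u v ↔
      ZMod.castHom hr (ZMod r) (v : ZMod M) =
          ZMod.castHom hr (ZMod r) ((u⁻¹ : (ZMod M)ˣ) : ZMod M) ∧
        ZMod.castHom (Nat.div_dvd_of_dvd hr) (ZMod (M / r)) (v : ZMod M) =
          ZMod.castHom (Nat.div_dvd_of_dvd hr) (ZMod (M / r)) (u : ZMod M) := by
  unfold IsStarOf
  rw [rtk6b_val_cast hr, rtk6b_val_cast hr, rtk6b_val_cast (Nat.div_dvd_of_dvd hr),
    rtk6b_val_cast (Nat.div_dvd_of_dvd hr)]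

theorem IsStarOf.neg {u v : (ZMod M)ˣ} (h : IsStarOf M r u v) : IsStarOf M r (-u) (-v) := by
  rw [isStarOf_iff hr] at h ⊢
  have e1 : (((-u)⁻¹ : (ZMod M)ˣ) : ZMod M) = -((u⁻¹ : (ZMod M)ˣ) : ZMod M) := by
    rw [inv_neg, Units.val_neg]
  rw [e1, Units.val_neg, Units.val_neg, map_neg, map_neg, map_neg, map_neg, h.1, h.2]
  exact ⟨rfl, rfl⟩

/-- star-stability passes to `±H` -/
theorem rtk6b_star_pmH {H : Subgroup (ZMod M)ˣ} (hs : IsStarStable M r H) {u v : (ZMod M)ˣ}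
    (hu : u ∈ pmH H) (hst : IsStarOf M r u v) : v ∈ pmH H := by
  obtain ⟨h, hh, rfl | rfl⟩ := es1rc_exists_of_mem_pmH hu
  · exact isStarStable_iff.mp hs u hh v hst
  · have h1 := IsStarOf.neg hr hst
    rw [neg_neg] at h1
    have h2 := isStarStable_iff.mp hs h hh (-v) h1
    have h3 : v = (-v) * (-1) := by rw [mul_neg, mul_one, neg_neg]
    rw [h3]
    exact mul_mem h2 (neg_one_mem_pmH H)

theorem isStarOf_inv_of_isAtR {c : (ZMod M)ˣ} (hc : IsAtR M r c) : IsStarOf M r c⁻¹ c := by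
  rw [isStarOf_iff hr]
  unfold IsAtR at hc
  rw [rtk6b_val_cast (Nat.div_dvd_of_dvd hr)] at hc
  refine ⟨by rw [inv_inv], ?_⟩
  have h1 : ZMod.castHom (Nat.div_dvd_of_dvd hr) (ZMod (M / r)) (c : ZMod M) *
      ZMod.castHom (Nat.div_dvd_of_dvd hr) (ZMod (M / r)) ((c⁻¹ : (ZMod M)ˣ) : ZMod M) = 1 := by
    rw [← map_mul, ← Units.val_mul, mul_inv_cancel, Units.val_one, map_one]
  rw [hc, one_mul] at h1
  rw [hc, h1]

theorem isStarOf_of_isAtR {c : (ZMod M)ˣ} (hc : IsAtR M r c) : IsStarOf M r c c⁻¹ := by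
  rw [isStarOf_iff hr]
  unfold IsAtR at hc
  rw [rtk6b_val_cast (Nat.div_dvd_of_dvd hr)] at hc
  refine ⟨rfl, ?_⟩
  have h1 : ZMod.castHom (Nat.div_dvd_of_dvd hr) (ZMod (M / r)) (c : ZMod M) *
      ZMod.castHom (Nat.div_dvd_of_dvd hr) (ZMod (M / r)) ((c⁻¹ : (ZMod M)ˣ) : ZMod M) = 1 := by
    rw [← map_mul, ← Units.val_mul, mul_inv_cancel, Units.val_one, map_one]
  rw [hc, one_mul] at h1
  rw [hc, h1]

end Star

/-- uniqueness of the star (CRT) -/
theorem IsStarOf.unique {L M r : ℕ} [NeZero M] (D : RtBDat L M r) {u v v' : (ZMod M)ˣ}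
    (h : IsStarOf M r u v) (h' : IsStarOf M r u v') : v = v' := by
  have hrM : r ∣ M := Dvd.intro_left D.M' D.hM.symm
  rw [isStarOf_iff hrM] at h h'
  have h1 := h.1.trans h'.1.symm
  have h2 := h.2.trans h'.2.symm
  apply Units.ext
  obtain ⟨a, ha⟩ := ZMod.intCast_surjective (v : ZMod M)
  obtain ⟨b, hb⟩ := ZMod.intCast_surjective (v' : ZMod M)
  rw [← ha, ← hb] at h1 h2 ⊢
  rw [map_intCast, map_intCast, ZMod.intCast_eq_intCast_iff_dvd_sub] at h1 h2
  rw [ZMod.intCast_eq_intCast_iff_dvd_sub]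
  have hM' : M / r = D.M' := Nat.div_eq_of_eq_mul_left D.hr.pos D.hM
  rw [hM'] at h2
  have hcop : IsCoprime (D.M' : ℤ) (r : ℤ) := by
    have h3 : Nat.Coprime r D.L' := (Nat.Prime.coprime_iff_not_dvd D.hr).mpr D.hrL
    have h4 : Nat.Coprime r D.M' := Nat.Coprime.coprime_dvd_right D.hML h3
    exact (Nat.isCoprime_iff_coprime.mpr h4).symm
  rw [D.hMZ]
  exact hcop.mul_dvd h2 h1

/-! ### the class of `W g W⁻¹` -/

section Conj

variable {L M r : ℕ} [NeZero L] [NeZero M] [NeZero r] (D : RtBDat L M r)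
  (H : Subgroup (ZMod M)ˣ)

include D in
theorem rtk6b_gamma0_LM {g : SL(2, ℤ)} (hg : g ∈ Gamma0 L) : g ∈ Gamma0 M :=
  Fermat.Agent.ES.RC.rc_Gamma0_le_of_dvd D.M_dvd_L hg

/-- **(N)**, class form -/
theorem rtk6b_conj_star (g : SL(2, ℤ)) (hg : g ∈ Gamma0 L) :
    IsStarOf M r (diamHom M ⟨g, rtk6b_gamma0_LM D hg⟩)
      (diamHom M ⟨rtk6bConj D g (rtk6b_dvd_of_mem D hg),
        rtk6b_gamma0_LM D (rtk6bConj_mem D g hg)⟩) := by
  have hrM : r ∣ M := Dvd.intro_left D.M' D.hM.symm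
  have hM' : M / r = D.M' := Nat.div_eq_of_eq_mul_left D.hr.pos D.hM
  rw [isStarOf_iff hrM, coe_diamHom, coe_inv_diamHom, coe_diamHom]
  simp only [map_intCast]
  constructor
  · rw [ZMod.intCast_eq_intCast_iff_dvd_sub]
    have h := rtk6bConj_00_modr D g hg
    rw [← neg_sub] 
    exact (dvd_neg.mpr h)
  · rw [ZMod.intCast_eq_intCast_iff_dvd_sub]
    have h := rtk6bConj_00_modL' D g hg
    rw [← neg_sub, dvd_neg]
    refine Dvd.dvd.trans ?_ h
    rw [hM']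
    exact_mod_cast D.hML

/-- the action of a class on the indices -/
def rtk6bAct (u : (ZMod M)ˣ) : SwhIx L M → SwhIx L M
  | Sum.inl d => Sum.inl d
  | Sum.inr p => Sum.inr ⟨(p.1.1, p.1.2 * u), p.2⟩

theorem rtk6bAct_mul (u v : (ZMod M)ˣ) (i : SwhIx L M) :
    rtk6bAct v (rtk6bAct u i) = rtk6bAct (u * v) i := by
  rcases i with d | ⟨⟨e, a⟩, he⟩
  · rfl
  · show Sum.inr _ = Sum.inr _
    congr 3
    exact mul_assoc a u v

theorem rtk6bAct_one (i : SwhIx L M) : rtk6bAct (1 : (ZMod M)ˣ) i = i := by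
  rcases i with d | ⟨⟨e, a⟩, he⟩
  · rfl
  · show Sum.inr _ = Sum.inr _
    congr 3
    exact mul_one a

theorem rtk6b_Jfun_scaleN_smul {d : ℕ} [NeZero d] (hd : d ∣ L) (g : SL(2, ℤ))
    (hg : g ∈ Gamma0 L) (τ : ℍ) : Jfun (scaleN d (g • τ)) = Jfun (scaleN d τ) := by
  have hg' := hg
  rw [Gamma0_mem, ZMod.intCast_zmod_eq_zero_iff_dvd] at hg'
  have hdvd : (d : ℤ) ∣ g 1 0 := (Int.natCast_dvd_natCast.mpr hd).trans hg'
  rw [P7_thetaCompanion_smul d g hdvd τ, Jfun_smul_SL]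

/-- the generators under `Γ₀(L)` -/
theorem rtk6b_swhA_smul (g : SL(2, ℤ)) (hg : g ∈ Gamma0 L) (i : SwhIx L M) (τ : ℍ) :
    swhA L M H i (g • τ) =
      swhA L M H (rtk6bAct (diamHom M ⟨g, rtk6b_gamma0_LM D hg⟩) i) τ := by
  rcases i with ⟨d, hd⟩ | ⟨⟨e, a⟩, he⟩
  · haveI := swh_neZero_of_dvd L hd
    show swhA L M H (Sum.inl ⟨d, hd⟩) (g • τ) = swhA L M H (Sum.inl ⟨d, hd⟩) τ
    rw [swhA_inl, swhA_inl]
    exact rtk6b_Jfun_scaleN_smul hd g hg τ
  · haveI := swh_neZero_of_mul_dvd L M he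
    show swhA L M H (Sum.inr ⟨(e, a), he⟩) (g • τ) =
      swhA L M H (Sum.inr ⟨(e, a * diamHom M ⟨g, rtk6b_gamma0_LM D hg⟩), he⟩) τ
    rw [swhA_inr, swhA_inr]
    exact es1rcThetaE_smul_of_mem H a e he g hg (rtk6b_gamma0_LM D hg) τ

/-- the generators only depend on the class modulo `±H` -/
theorem rtk6b_swhA_act_of_mem {u : (ZMod M)ˣ} (hu : u ∈ pmH H) (i : SwhIx L M) :
    swhA L M H (rtk6bAct u i) = swhA L M H i := by
  rcases i with ⟨d, hd⟩ | ⟨⟨e, a⟩, he⟩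
  · rfl
  · haveI := swh_neZero_of_mul_dvd L M he
    funext τ
    show swhA L M H (Sum.inr ⟨(e, a * u), he⟩) τ = swhA L M H (Sum.inr ⟨(e, a), he⟩) τ
    rw [swhA_inr, swhA_inr]
    exact congrFun (es1rcThetaE_eq_of_mem H a e hu) τ

/-- the targets under `Γ₀(L)` -/
theorem rtk6bTA_smul (g : SL(2, ℤ)) (hg : g ∈ Gamma0 L) (i : SwhIx L M) (τ : ℍ) :
    rtk6bTA D H i (g • τ) =
      rtk6bTA D H (rtk6bAct (diamHom M ⟨rtk6bConj D g (rtk6b_dvd_of_mem D hg),
        rtk6b_gamma0_LM D (rtk6bConj_mem D g hg)⟩) i) τ := by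
  unfold rtk6bTA
  rw [rtk6b_W_smul D g (rtk6b_dvd_of_mem D hg) τ]
  exact rtk6b_swhA_smul D H _ (rtk6bConj_mem D g hg) i (D.W τ)

/-- the targets under `W`: `TA i ∘ W = A (i • c₂)` -/
theorem rtk6bTA_W (i : SwhIx L M) (τ : ℍ) :
    rtk6bTA D H i (D.W τ) =
      swhA L M H (rtk6bAct (diamHom M ⟨rtk6bSq D, rtk6b_gamma0_LM D (rtk6bSq_mem D)⟩) i) τ := by
  unfold rtk6bTA
  rw [rtk6b_W_W D τ]
  exact rtk6b_swhA_smul D H _ (rtk6bSq_mem D) i τ

/-- for star-stable `H` the targets are modular functions for `Γ_H(M) ∩ Γ₀(L)` -/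
theorem rtk6bTA_isModFunG (hs : IsStarStable M r H) (i : SwhIx L M) :
    IsModFunG (gammaH L M H) (rtk6bTA D H i) := by
  have hML := D.M_dvd_L
  have hrM : r ∣ M := Dvd.intro_left D.M' D.hM.symm
  haveI : NeZero (L * r) := ⟨Nat.mul_ne_zero (NeZero.ne L) (NeZero.ne r)⟩
  haveI := es1rc_finiteIndex hML H
  refine (rtk6bTA_isModFunG_Gamma D H hML i).of_invariant fun g hg τ => ?_
  obtain ⟨hL, hM, hH⟩ := hg
  rw [rtk6bTA_smul D H g hL i τ]
  have hst := rtk6b_conj_star D g hL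
  have hmem := rtk6b_star_pmH hrM hs hH hst
  unfold rtk6bTA
  rw [rtk6b_swhA_act_of_mem H hmem i]

/-- **the targets lie in `fieldBar L M H`** -/
theorem rtk6bTB_mem (hs : IsStarStable M r H) (i : SwhIx L M) :
    rtk6bTB D H i ∈ fieldBar L M H := by
  apply rtk6b_mem_fieldBar_of_coeffMap
  rw [← rtk6b_laurentOf_TA D H i]
  exact es1rc_laurentOf_mem_fieldC D.M_dvd_L H (rtk6bTA_isModFunG D H hs i)

end Conj

end Fermat.Agent.RT.K6

end
end ZBES1_013_1

/-! ### bundled: `Fermat.Agent.RT.K6.BMain` -/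
section ZBES1_013_2

/-!
# RT-K6 / B (8): the Atkin–Lehner automorphism `w_r` of `fieldBar L M H` (helper96)

The extended family `gB ⊔ tB` (generators and their targets) is stable under the substitutions
`τ ↦ W τ` and `τ ↦ g • τ` (`g ∈ Γ₀(L)`); the bridge `swh_exists_algHom` gives
* `w₀` : `gB i ↦ tB i`, `tB i ↦ gB (i • c₂)`; `w₀² = ⟨c₂⟩`-like, so `w₀` is bijective;
* `ψ_g` : `gB i ↦ gB (i • [g])`, `tB i ↦ tB (i • [g]*)`.
-/

set_option autoImplicit false
set_option linter.style.haveILetI false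
set_option linter.unusedSectionVars false

open UpperHalfPlane ModularForm CongruenceSubgroup Matrix
open Fermat.Agent.ES Fermat.Agent.S23 Fermat.Agent.S24 Fermat.Agent.S28
open Fermat.Agent.ES1 Fermat.Agent.ES1.G2 Fermat.Agent.ES.G2 ModularCurve
open scoped MatrixGroups Manifold Real

noncomputable section

namespace Fermat.Agent.RT.K6

section Ext

variable {L M r : ℕ} [NeZero L] [NeZero M] [NeZero r] (D : RtBDat L M r)
  (H : Subgroup (ZMod M)ˣ)

/-- the extended index set -/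
abbrev RtBIx (L M : ℕ) : Type := SwhIx L M ⊕ SwhIx L M

/-- generators and targets, analytic -/
def rtk6bXA : RtBIx L M → ℍ → ℂ
  | Sum.inl i => swhA L M H i
  | Sum.inr i => rtk6bTA D H i

/-- generators and targets, formal -/
def rtk6bXB : RtBIx L M → LaurentSeries Kb
  | Sum.inl i => swhB L M H i
  | Sum.inr i => rtk6bTB D H i

theorem rtk6bXA_isMerInf (j : RtBIx L M) : IsMerInf (rtk6bXA D H j) := by
  rcases j with i | i
  · exact swhA_isMerInf L M H i
  · exact rtk6bTA_isMerInf D H i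

theorem rtk6bX_laurentOf (j : RtBIx L M) :
    laurentOf (rtk6bXA D H j) = coeffMap embC (rtk6bXB D H j) := by
  rcases j with i | i
  · exact swh_laurentOf L M H i
  · exact rtk6b_laurentOf_TA D H i

theorem rtk6b_swhB_mem (i : SwhIx L M) : swhB L M H i ∈ fieldBar L M H := by
  rw [swh_fieldBar_eq L M H]
  exact IntermediateField.subset_adjoin Kb _ ⟨i, rfl⟩

theorem rtk6bXB_mem (hs : IsStarStable M r H) (j : RtBIx L M) :
    rtk6bXB D H j ∈ fieldBar L M H := by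
  rcases j with i | i
  · exact rtk6b_swhB_mem H i
  · exact rtk6bTB_mem D H hs i

theorem rtk6b_fieldBar_eq_X (hs : IsStarStable M r H) :
    fieldBar L M H = IntermediateField.adjoin Kb (Set.range (rtk6bXB D H)) := by
  apply le_antisymm
  · rw [swh_fieldBar_eq L M H]
    refine IntermediateField.adjoin.mono Kb _ _ ?_
    rintro _ ⟨i, rfl⟩
    exact ⟨Sum.inl i, rfl⟩
  · rw [IntermediateField.adjoin_le_iff]
    rintro _ ⟨j, rfl⟩
    exact rtk6bXB_mem D H hs j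

/-- the class of `W²` -/
def RtBDat.c2 : (ZMod M)ˣ := diamHom M ⟨rtk6bSq D, rtk6b_gamma0_LM D (rtk6bSq_mem D)⟩

/-- the index map of `W` -/
def rtk6bSW : RtBIx L M → RtBIx L M
  | Sum.inl i => Sum.inr i
  | Sum.inr i => Sum.inl (rtk6bAct D.c2 i)

/-- the index map of `g ∈ Γ₀(L)`: classes `u` on the generators, `v` on the targets -/
def rtk6bSg (u v : (ZMod M)ˣ) : RtBIx L M → RtBIx L M
  | Sum.inl i => Sum.inl (rtk6bAct u i)
  | Sum.inr i => Sum.inr (rtk6bAct v i)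

theorem rtk6bXA_W (j : RtBIx L M) (τ : ℍ) :
    rtk6bXA D H j (D.W τ) = rtk6bXA D H (rtk6bSW D j) τ := by
  rcases j with i | i
  · rfl
  · exact rtk6bTA_W D H i τ

theorem rtk6bXA_smul (g : SL(2, ℤ)) (hg : g ∈ Gamma0 L) (j : RtBIx L M) (τ : ℍ) :
    rtk6bXA D H j (g • τ) =
      rtk6bXA D H (rtk6bSg (diamHom M ⟨g, rtk6b_gamma0_LM D hg⟩)
        (diamHom M ⟨rtk6bConj D g (rtk6b_dvd_of_mem D hg),
          rtk6b_gamma0_LM D (rtk6bConj_mem D g hg)⟩) j) τ := by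
  rcases j with i | i
  · exact rtk6b_swhA_smul D H g hg i τ
  · exact rtk6bTA_smul D H g hg i τ

/-- the endomorphism `w₀` -/
theorem rtk6b_exists_w0 (hs : IsStarStable M r H) :
    ∃ φ : fieldBar L M H →ₐ[Kb] fieldBar L M H,
      ∀ (j : RtBIx L M) (hj : rtk6bXB D H j ∈ fieldBar L M H),
        ((φ ⟨rtk6bXB D H j, hj⟩ : fieldBar L M H) : LaurentSeries Kb) =
          rtk6bXB D H (rtk6bSW D j) :=
  swh_exists_algHom (fieldBar L M H) (rtk6bXA D H) (rtk6bXB D H) (rtk6b_fieldBar_eq_X D H hs)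
    (rtk6bXA_isMerInf D H) (rtk6bX_laurentOf D H) (rtk6bSW D) D.W D.W_surjective
    (rtk6bXA_W D H)

theorem rtk6b_smul_surjective (g : SL(2, ℤ)) : Function.Surjective (fun τ : ℍ => g • τ) :=
  fun z => ⟨g⁻¹ • z, by simp [smul_smul]⟩

/-- the endomorphism `ψ_g` -/
theorem rtk6b_exists_psi (hs : IsStarStable M r H) (g : SL(2, ℤ)) (hg : g ∈ Gamma0 L) :
    ∃ φ : fieldBar L M H →ₐ[Kb] fieldBar L M H,
      ∀ (j : RtBIx L M) (hj : rtk6bXB D H j ∈ fieldBar L M H),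
        ((φ ⟨rtk6bXB D H j, hj⟩ : fieldBar L M H) : LaurentSeries Kb) =
          rtk6bXB D H (rtk6bSg (diamHom M ⟨g, rtk6b_gamma0_LM D hg⟩)
            (diamHom M ⟨rtk6bConj D g (rtk6b_dvd_of_mem D hg),
              rtk6b_gamma0_LM D (rtk6bConj_mem D g hg)⟩) j) :=
  swh_exists_algHom (fieldBar L M H) (rtk6bXA D H) (rtk6bXB D H) (rtk6b_fieldBar_eq_X D H hs)
    (rtk6bXA_isMerInf D H) (rtk6bX_laurentOf D H) _ (fun τ => g • τ)
    (rtk6b_smul_surjective g) (rtk6bXA_smul D H g hg)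

end Ext

/-! ### `w₀` is bijective -/

section Bij

variable {L M r : ℕ} [NeZero L] [NeZero M] [NeZero r] (D : RtBDat L M r)
  (H : Subgroup (ZMod M)ˣ)

/-- the defining property of `w₀` -/
def IsW0 (φ : fieldBar L M H →ₐ[Kb] fieldBar L M H) : Prop :=
  ∀ (j : RtBIx L M) (hj : rtk6bXB D H j ∈ fieldBar L M H),
    ((φ ⟨rtk6bXB D H j, hj⟩ : fieldBar L M H) : LaurentSeries Kb) = rtk6bXB D H (rtk6bSW D j)

variable {D H}

theorem IsW0.apply_gen {φ : fieldBar L M H →ₐ[Kb] fieldBar L M H} (hφ : IsW0 D H φ)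
    (i : SwhIx L M) (hi : swhB L M H i ∈ fieldBar L M H) :
    ((φ ⟨swhB L M H i, hi⟩ : fieldBar L M H) : LaurentSeries Kb) = rtk6bTB D H i :=
  hφ (Sum.inl i) hi

theorem IsW0.apply_target {φ : fieldBar L M H →ₐ[Kb] fieldBar L M H} (hφ : IsW0 D H φ)
    (i : SwhIx L M) (hi : rtk6bTB D H i ∈ fieldBar L M H) :
    ((φ ⟨rtk6bTB D H i, hi⟩ : fieldBar L M H) : LaurentSeries Kb) =
      swhB L M H (rtk6bAct D.c2 i) :=
  hφ (Sum.inr i) hi

theorem IsW0.sq_gen {φ : fieldBar L M H →ₐ[Kb] fieldBar L M H} (hφ : IsW0 D H φ)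
    (i : SwhIx L M) (hi : swhB L M H i ∈ fieldBar L M H) :
    φ (φ ⟨swhB L M H i, hi⟩) = ⟨swhB L M H (rtk6bAct D.c2 i), rtk6b_swhB_mem H _⟩ := by
  have h1 : φ ⟨swhB L M H i, hi⟩ = ⟨rtk6bTB D H i, by
      rw [← hφ.apply_gen i hi]; exact Subtype.mem _⟩ :=
    Subtype.ext (hφ.apply_gen i hi)
  rw [h1]
  exact Subtype.ext (hφ.apply_target i _)

theorem IsW0.pow_gen {φ : fieldBar L M H →ₐ[Kb] fieldBar L M H} (hφ : IsW0 D H φ) (k : ℕ) :
    ∀ (i : SwhIx L M) (hi : swhB L M H i ∈ fieldBar L M H),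
      (φ ^ (2 * k)) ⟨swhB L M H i, hi⟩ =
        ⟨swhB L M H (rtk6bAct (D.c2 ^ k) i), rtk6b_swhB_mem H _⟩ := by
  induction k with
  | zero =>
    intro i hi
    apply Subtype.ext
    simp only [Nat.mul_zero, pow_zero, AlgHom.one_apply]
    rw [rtk6bAct_one]
  | succ k ih =>
    intro i hi
    have h2 : φ ^ (2 * (k + 1)) = φ ^ (2 * k) * (φ * φ) := by
      rw [show 2 * (k + 1) = 2 * k + 2 by ring, pow_add, pow_two]
    rw [h2, AlgHom.mul_apply, AlgHom.mul_apply, hφ.sq_gen i hi, ih]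
    apply Subtype.ext
    show swhB L M H _ = swhB L M H _
    rw [rtk6bAct_mul, pow_succ']

theorem IsW0.pow_eq_one {φ : fieldBar L M H →ₐ[Kb] fieldBar L M H} (hφ : IsW0 D H φ) :
    φ ^ (2 * orderOf D.c2) = 1 := by
  apply IntermediateField.algHom_ext_of_eq_adjoin Kb (swh_fieldBar_eq L M H)
  rintro _ ⟨i, rfl⟩
  rw [hφ.pow_gen (orderOf D.c2) i, AlgHom.one_apply]
  apply Subtype.ext
  show swhB L M H _ = swhB L M H i
  rw [pow_orderOf_eq_one, rtk6bAct_one]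

theorem IsW0.bijective {φ : fieldBar L M H →ₐ[Kb] fieldBar L M H} (hφ : IsW0 D H φ) :
    Function.Bijective φ := by
  refine ⟨φ.toRingHom.injective, fun y => ?_⟩
  have hn : 0 < orderOf D.c2 := orderOf_pos _
  have h1 := hφ.pow_eq_one
  have h2 : 2 * orderOf D.c2 = (2 * orderOf D.c2 - 1) + 1 := by omega
  rw [h2, pow_succ'] at h1
  refine ⟨(φ ^ (2 * orderOf D.c2 - 1)) y, ?_⟩
  have h3 := congrArg (fun f : fieldBar L M H →ₐ[Kb] fieldBar L M H => f y) h1
  simpa using h3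

end Bij

/-! ### the diamonds on generators and targets -/

section Diamond

variable {L M r : ℕ} [NeZero L] [NeZero M] [NeZero r] (D : RtBDat L M r)
  (H : Subgroup (ZMod M)ˣ)

theorem rtk6b_diamond_gen {c : (ZMod M)ˣ} {δ : fieldBar L M H ≃ₐ[Kb] fieldBar L M H}
    (hδ : IsDiamondH L M H c δ) (i : SwhIx L M) (hi : swhB L M H i ∈ fieldBar L M H) :
    δ ⟨swhB L M H i, hi⟩ = ⟨swhB L M H (rtk6bAct c i), rtk6b_swhB_mem H _⟩ := by
  rcases i with ⟨d, hd⟩ | ⟨⟨e, a⟩, he⟩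
  · haveI := swh_neZero_of_dvd L hd
    exact hδ.fix_j d hd _ rfl
  · haveI := swh_neZero_of_mul_dvd L M he
    apply Subtype.ext
    exact hδ.map_s e a he _ rfl

/-- a diamond on the targets: `δ_u (tB i) = tB (i • v)`, `v` the star of `u` -/
theorem rtk6b_diamond_target (hs : IsStarStable M r H) {u v : (ZMod M)ˣ}
    (huv : IsStarOf M r u v) {δ : fieldBar L M H ≃ₐ[Kb] fieldBar L M H}
    (hδ : IsDiamondH L M H u δ) (i : SwhIx L M) (hi : rtk6bTB D H i ∈ fieldBar L M H) :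
    δ ⟨rtk6bTB D H i, hi⟩ = ⟨rtk6bTB D H (rtk6bAct v i), rtk6bTB_mem D H hs _⟩ := by
  obtain ⟨g, hg, hg00⟩ := es1rc_exists_rep D.M_dvd_L u
  have hcl : diamHom M ⟨g, rtk6b_gamma0_LM D hg⟩ = u := by
    apply Units.ext
    rw [coe_diamHom]
    exact hg00
  obtain ⟨ψ, hψ⟩ := rtk6b_exists_psi D H hs g hg
  have hst := rtk6b_conj_star D g hg
  rw [hcl] at hst hψ
  have hv := IsStarOf.unique D hst huv
  rw [hv] at hψ
  have hψδ : ψ = (δ : fieldBar L M H →ₐ[Kb] fieldBar L M H) := by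
    apply IntermediateField.algHom_ext_of_eq_adjoin Kb (swh_fieldBar_eq L M H)
    rintro _ ⟨i, rfl⟩
    have h1 : ψ ⟨swhB L M H i, rtk6b_swhB_mem H i⟩ =
        ⟨swhB L M H (rtk6bAct u i), rtk6b_swhB_mem H _⟩ :=
      Subtype.ext (hψ (Sum.inl i) (rtk6b_swhB_mem H i))
    rw [h1]
    exact (rtk6b_diamond_gen H hδ i _).symm
  have h2 : ψ ⟨rtk6bTB D H i, hi⟩ = ⟨rtk6bTB D H (rtk6bAct v i), rtk6bTB_mem D H hs _⟩ :=
    Subtype.ext (hψ (Sum.inr i) hi)
  rw [← h2, hψδ]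
  rfl

end Diamond

end Fermat.Agent.RT.K6

end
end ZBES1_013_2

/-! ### bundled: `Fermat.Agent.RT.K6.BGal` -/
section ZBES1_013_3

/-!
# RT-K6 / B (9): the Galois action on the targets (helper96)

For `σ ∈ Gal(ℚ̄/ℚ)` with `σ ζ = ζ^k` on `μ_r`, `k ≡ c` mod `M`, `c ≡ 1` mod `M / r`:
`σ (T_a) = T_{a c}` coefficientwise, hence `σ (tB i) = tB (i • c)`.
-/

set_option autoImplicit false
set_option linter.style.haveILetI false
set_option linter.unusedSectionVars false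

open UpperHalfPlane ModularForm CongruenceSubgroup Matrix
open Fermat.Agent.ES Fermat.Agent.S23 Fermat.Agent.S24 Fermat.Agent.S28
open Fermat.Agent.ES1 Fermat.Agent.ES1.G2 Fermat.Agent.ES.G2 ModularCurve
open scoped MatrixGroups Manifold Real

noncomputable section

namespace Fermat.Agent.RT.K6

/-! ### reindexing by multiplication by `k` modulo `r` -/

section Reindex

variable (r : ℕ) [NeZero r] (k : ℕ) (hk : Nat.Coprime k r)

/-- `j ↦ k j mod r` -/
def rtk6bMulFin (j : Fin r) : Fin r :=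
  ⟨(k * (j : ℕ)) % r, Nat.mod_lt _ (Nat.pos_of_ne_zero (NeZero.ne r))⟩

include hk in
theorem rtk6bMulFin_injective : Function.Injective (rtk6bMulFin r k) := by
  intro a b hab
  have h1 : (k * (a : ℕ)) % r = (k * (b : ℕ)) % r := congrArg Fin.val hab
  have h2 : (a : ℕ) ≡ (b : ℕ) [MOD r] :=
    Nat.ModEq.cancel_left_of_coprime (Nat.Coprime.symm hk) h1
  exact Fin.ext (Nat.ModEq.eq_of_lt_of_lt h2 a.2 b.2)

/-- multiplication by `k` as a permutation of `Fin r` -/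
def rtk6bMulEquiv (hk' : Nat.Coprime k r) : Fin r ≃ Fin r :=
  Equiv.ofBijective (rtk6bMulFin r k)
    (Finite.injective_iff_bijective.mp (rtk6bMulFin_injective r k hk'))

include hk in
theorem rtk6b_reindex {K : Type*} [Field K] (u u' : ℕ → ℤ)
    (hu : ∀ j j' : ℕ, j' % r = (k * j) % r → u' j' = u j) (G : ℕ → K)
    (hG : ∀ x y : ℕ, x % r = y % r → G x = G y) :
    ∑ j : Fin r, ((u (j : ℕ) : ℤ) : K) * G (k * (j : ℕ)) =
      ∑ j : Fin r, ((u' (j : ℕ) : ℤ) : K) * G (j : ℕ) := by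
  refine Fintype.sum_equiv (rtk6bMulEquiv r k hk) _ _ fun j => ?_
  have h1 : ((rtk6bMulEquiv r k hk j : Fin r) : ℕ) = (k * (j : ℕ)) % r := rfl
  rw [h1, hu j ((k * (j : ℕ)) % r) (Nat.mod_mod _ _), hG (k * (j : ℕ)) ((k * (j : ℕ)) % r)
    (Nat.mod_mod _ _).symm]

end Reindex

/-! ### the coefficients -/

section Coef

variable {K : Type*} [Field K] (r : ℕ) [NeZero r] (ξ ξ' : K) (hξ : ξ ^ r = 1) (hξ' : ξ' ^ r = 1)
  (k : ℕ) (hk : Nat.Coprime k r) (ω ω' : ℤ → ℤ → ℤ)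
  (hω : ∀ (c₀ : ℤ) (j j' : ℕ), j' % r = (k * j) % r → ω' c₀ j' = ω c₀ j)

theorem rtk6b_pow_congr {ζ : K} (hζ : ζ ^ r = 1) {x y : ℕ} (h : x % r = y % r) :
    ζ ^ x = ζ ^ y := by
  rw [pow_eq_pow_mod x hζ, pow_eq_pow_mod y hζ, h]

include hξ hk hω in
theorem rtk6bAf_galois (c₀ n : ℕ) :
    rtk6bAf K r (ξ ^ k) ω c₀ n = rtk6bAf K r ξ ω' c₀ n := by
  unfold rtk6bAf
  have h := rtk6b_reindex r k hk (fun j => ω c₀ j) (fun j => ω' c₀ j)
    (fun j j' hj => hω c₀ j j' hj) (fun x => ξ ^ (x * n)) (fun x y hxy => by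
      apply rtk6b_pow_congr r hξ
      rw [Nat.mul_mod, hxy, ← Nat.mul_mod])
  rw [← h]
  refine Finset.sum_congr rfl fun j _ => ?_
  rw [← pow_mul, mul_assoc]

include hξ' hk hω in
theorem rtk6bK0_galois : rtk6bK0 K r (ξ' ^ k) ω = rtk6bK0 K r ξ' ω' := by
  unfold rtk6bK0
  congr 1
  refine Finset.sum_congr rfl fun j _ => ?_
  congr 1
  have h := rtk6b_reindex r k hk (fun b => ω 0 b) (fun b => ω' 0 b)
    (fun b b' hb => hω 0 b b' hb) (fun x => ξ' ^ (x * (j : ℕ))) (fun x y hxy => by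
      apply rtk6b_pow_congr r hξ'
      rw [Nat.mul_mod, hxy, ← Nat.mul_mod])
  rw [← h]
  refine Finset.sum_congr rfl fun b _ => ?_
  rw [← pow_mul, mul_assoc]

include hξ hξ' hk hω in
theorem rtk6bCoef_galois (m : ℕ) :
    rtk6bCoef K r (ξ ^ k) (ξ' ^ k) ω m = rtk6bCoef K r ξ ξ' ω' m := by
  unfold rtk6bCoef
  rw [rtk6bK0_galois r ξ' hξ' k hk ω ω' hω]
  congr 1
  refine Finset.sum_congr rfl fun c _ => ?_
  rw [rtk6bAf_galois r ξ hξ k hk ω ω' hω]

include hξ hξ' hk hω in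
theorem rtk6bT_galois :
    rtk6bT K r (ξ ^ k) (ξ' ^ k) ω = rtk6bT K r ξ ξ' ω' := by
  unfold rtk6bT
  have h : rtk6bSer K r (ξ ^ k) (ξ' ^ k) ω = rtk6bSer K r ξ ξ' ω' := by
    ext m
    rw [rtk6bSer, rtk6bSer, PowerSeries.coeff_mk, PowerSeries.coeff_mk]
    exact rtk6bCoef_galois r ξ ξ' hξ hξ' k hk ω ω' hω m
  rw [h]

end Coef

/-! ### the weights -/

theorem rtk6bOm_galois {M M' r : ℕ} (hM : (M : ℤ) = (M' : ℤ) * (r : ℤ)) (s f : ℤ)
    (hs : (r : ℤ) ∣ s) (hf : (M' : ℤ) ∣ f) (a : ZMod M) (c : (ZMod M)ˣ) (k : ℤ)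
    (hck : (c : ZMod M) = (k : ZMod M)) (hk : (M' : ℤ) ∣ k - 1) (c₀ j j' : ℤ)
    (hj : (r : ℤ) ∣ j' - k * j) :
    rtk6bOm M s f (a * c) c₀ j' = rtk6bOm M s f a c₀ j := by
  unfold rtk6bOm
  have h1 : (((c₀ * s - j' * f : ℤ) : ℤ) : ZMod M) =
      (((c₀ * s - j * f : ℤ) : ℤ) : ZMod M) * (c : ZMod M) := by
    rw [hck, ← Int.cast_mul, ZMod.intCast_eq_intCast_iff_dvd_sub, hM]
    obtain ⟨s', rfl⟩ := hs
    obtain ⟨f', rfl⟩ := hf
    obtain ⟨k', hk'⟩ := hk
    obtain ⟨q, hq⟩ := hj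
    have hk2 : k = 1 + M' * k' := by linear_combination hk'
    have hj2 : j' = k * j + r * q := by linear_combination hq
    refine ⟨c₀ * s' * k' + f' * q, ?_⟩
    rw [hj2, hk2]
    ring
  rw [h1]
  exact rtk6bWa_mul_unit M c a _

/-! ### the Galois action on the targets -/

section Galois

variable {L M r : ℕ} [NeZero L] [NeZero M] [NeZero r] (D : RtBDat L M r)
  (H : Subgroup (ZMod M)ˣ)

theorem rtk6bXiB'_pow (r : ℕ) [NeZero r] : rtk6bXiB' r ^ r = 1 := by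
  have h := congrArg (· ^ r) (rtk6bXiB_mul r)
  simp only [mul_pow, rtk6bXiB_pow, one_mul, one_pow] at h
  exact h

theorem rtk6bTx_neg (e : ℕ) [NeZero e] (he : e * M ∣ L) (x : ZMod M) :
    rtk6bTx D e (-x) = rtk6bTx D e x := by
  apply br_coeffMap_embC_injective
  rw [rtk6b_coeffMap_Tx, rtk6b_coeffMap_Tx,
    ← laurentOf_rtk6bPsi M r D.s (D.f e) _ (D.hrf (NeZero.ne e) he),
    ← laurentOf_rtk6bPsi M r D.s (D.f e) _ (D.hrf (NeZero.ne e) he), rtk6bPsi_neg]

theorem rtk6bTx_galois (σ : Kb ≃ₐ[ℚ] Kb) (c : (ZMod M)ˣ) (hc : IsCycAt M r σ c)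
    (e : ℕ) [NeZero e] (he : e * M ∣ L) (x : ZMod M) :
    coeffMap (σ : Kb →+* Kb) (rtk6bTx D e x) = rtk6bTx D e (x * (c : ZMod M)) := by
  unfold rtk6bTx
  rw [rtk6b_coeffMap_T]
  have h1 : (σ : Kb →+* Kb) (rtk6bXiB r) = rtk6bXiB r ^ ((c : ZMod M).val) :=
    hc.1 _ (rtk6bXiB_pow r)
  have h2 : (σ : Kb →+* Kb) (rtk6bXiB' r) = rtk6bXiB' r ^ ((c : ZMod M).val) :=
    hc.1 _ (rtk6bXiB'_pow r)
  rw [h1, h2]
  have hrM : r ∣ M := Dvd.intro_left D.M' D.hM.symm
  have hcop : Nat.Coprime (c : ZMod M).val r :=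
    Nat.Coprime.coprime_dvd_right hrM (ZMod.val_coe_unit_coprime c)
  have hM' : M / r = D.M' := Nat.div_eq_of_eq_mul_left D.hr.pos D.hM
  have hk : (D.M' : ℤ) ∣ (((c : ZMod M).val : ℕ) : ℤ) - 1 := by
    have h3 := hc.2
    unfold IsAtR at h3
    rw [hM'] at h3
    rw [← ZMod.intCast_eq_intCast_iff_dvd_sub]
    push_cast
    exact h3.symm
  apply rtk6bT_galois r _ _ (rtk6bXiB_pow r) (rtk6bXiB'_pow r) (c : ZMod M).val hcop
  intro c₀ j j' hj
  refine rtk6bOm_galois D.hMZ D.s (D.f e) (Dvd.intro _ rfl) (D.M'_dvd_f (NeZero.ne e) he) x c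
    (((c : ZMod M).val : ℕ) : ℤ) ?_ hk c₀ j j' ?_
  · rw [Int.cast_natCast, ZMod.natCast_zmod_val]
  · have h4 : ((c : ZMod M).val * j) ≡ j' [MOD r] := hj.symm
    have h5 := (Nat.modEq_iff_dvd).mp h4
    push_cast at h5
    exact h5

theorem rtk6b_swhB_rational (φ : Kb →+* Kb) (i : SwhIx L M) :
    coeffMap φ (swhB L M H i) = swhB L M H i := by
  rcases i with ⟨d, hd⟩ | ⟨⟨e, a⟩, he⟩
  · haveI := swh_neZero_of_dvd L hd
    rw [swhB_inl]
    exact coeffMap_jqNModC φ d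
  · haveI := swh_neZero_of_mul_dvd L M he
    rw [swhB_inr]
    exact es1f_coeffMap_qExpand_sS φ M H a e

theorem rtk6bTB_galois (σ : Kb ≃ₐ[ℚ] Kb) (c : (ZMod M)ˣ) (hc : IsCycAt M r σ c)
    (i : SwhIx L M) :
    coeffMap (σ : Kb →+* Kb) (rtk6bTB D H i) = rtk6bTB D H (rtk6bAct c i) := by
  rcases i with d | ⟨⟨e, a⟩, he⟩
  · exact rtk6b_swhB_rational H _ (Sum.inl (rtk6bSd D d))
  · haveI := swh_neZero_of_mul_dvd L M he
    show coeffMap _ (rtk6bTB D H (Sum.inr ⟨(e, a), he⟩)) =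
      rtk6bTB D H (Sum.inr ⟨(e, a * c), he⟩)
    rw [rtk6bTB_inr, rtk6bTB_inr, map_sum]
    simp_rw [coeffMap_qExpand, rtk6bTx_galois D σ c hc e he]
    exact es1rc_sum_cosetReps_mul H a c (fun x => qExpand Kb e (rtk6bTx D e x))
      (fun x => by rw [rtk6bTx_neg D e he])

end Galois

end Fermat.Agent.RT.K6

end
end ZBES1_013_3

/-! ### bundled: `Fermat.Agent.RT.K6.BFinal` -/
section ZBES1_013_4

/-!
# RT-K6 / B (10): `StmtB` — the Atkin–Lehner automorphism `w_r` exists (helper96)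

`stmtB : StmtB`: for `r ∥ L`, `r ∣ M ∣ L` and star-stable `H` there is
`w : fieldBar L M H ≃ₐ[ℚ̄] fieldBar L M H` with `IsWAt L M H r w`:
* `galois`  : `σ (w x) = w (δ_c (σ x))` for `σ ζ_r = ζ_r ^ c`, `c ≡ 1` mod `M / r`;
* `map_j`   : `w j(q^d) = j(q^{d'})`, `d' = d / r` resp. `d r`;
* `diamond` : `w δ_c = δ_{c⁻¹} w` for the diamonds at `r`.
-/

set_option autoImplicit false
set_option linter.style.haveILetI false
set_option linter.unusedSectionVars false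

open UpperHalfPlane ModularForm CongruenceSubgroup Matrix
open Fermat.Agent.ES Fermat.Agent.S23 Fermat.Agent.S24 Fermat.Agent.S28
open Fermat.Agent.ES1 Fermat.Agent.ES1.G2 Fermat.Agent.ES.G2 ModularCurve
open scoped MatrixGroups Manifold Real

noncomputable section

namespace Fermat.Agent.RT.K6

/-! ### conjugating an algebra endomorphism by a semilinear automorphism -/

section ConjHom

variable {K F : Type*} [Field K] [Field F] [Algebra K F]

/-- `x ↦ Σ (w (Σ⁻¹ x))` for a `σ`-semilinear ring automorphism `Σ` -/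
def rtk6bConjHom (S : F ≃+* F) (σ : K ≃+* K)
    (hS : ∀ a : K, S (algebraMap K F a) = algebraMap K F (σ a)) (w : F →ₐ[K] F) : F →ₐ[K] F :=
  { toRingHom := (S.toRingHom.comp w.toRingHom).comp S.symm.toRingHom
    commutes' := fun a => by
      show S (w (S.symm (algebraMap K F a))) = algebraMap K F a
      have h : S.symm (algebraMap K F a) = algebraMap K F (σ.symm a) := by
        rw [RingEquiv.symm_apply_eq, hS, RingEquiv.apply_symm_apply]
      rw [h, AlgHom.commutes, hS, RingEquiv.apply_symm_apply] }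

theorem rtk6bConjHom_apply (S : F ≃+* F) (σ : K ≃+* K)
    (hS : ∀ a : K, S (algebraMap K F a) = algebraMap K F (σ a)) (w : F →ₐ[K] F) (x : F) :
    rtk6bConjHom S σ hS w x = S (w (S.symm x)) := rfl

end ConjHom

/-! ### the three properties -/

section Final

variable {L M r : ℕ} [NeZero L] [NeZero M] [NeZero r] (D : RtBDat L M r)
  (H : Subgroup (ZMod M)ˣ)

variable {D H}

theorem IsW0.gen_eq {φ : fieldBar L M H →ₐ[Kb] fieldBar L M H} (hφ : IsW0 D H φ)
    (hs : IsStarStable M r H) (i : SwhIx L M) (hi : swhB L M H i ∈ fieldBar L M H) :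
    φ ⟨swhB L M H i, hi⟩ = ⟨rtk6bTB D H i, rtk6bTB_mem D H hs i⟩ :=
  Subtype.ext (hφ.apply_gen i hi)

theorem IsW0.map_j {φ : fieldBar L M H →ₐ[Kb] fieldBar L M H} (hφ : IsW0 D H φ)
    (d d' : ℕ) [NeZero d] [NeZero d'] (hd : d ∣ L)
    (hd' : d' = (if r ∣ d then d / r else d * r)) (x : fieldBar L M H)
    (hx : (x : LaurentSeries Kb) = qExpand Kb d (jqModC Kb)) :
    ((φ x : fieldBar L M H) : LaurentSeries Kb) = qExpand Kb d' (jqModC Kb) := by
  have hx' : x = ⟨swhB L M H (Sum.inl ⟨d, hd⟩), rtk6b_swhB_mem H _⟩ := Subtype.ext hx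
  rw [hx', hφ.apply_gen]
  show swhB L M H (Sum.inl (rtk6bSd D ⟨d, hd⟩)) = _
  by_cases h : r ∣ d
  · rw [rtk6bSd_of_dvd D d hd h]
    rw [if_pos h] at hd'
    exact swhB_inl_congr L M H d' _ hd'.symm
  · rw [rtk6bSd_of_not_dvd D d hd h]
    rw [if_neg h] at hd'
    exact swhB_inl_congr L M H d' _ hd'.symm

theorem IsW0.diamond {φ : fieldBar L M H →ₐ[Kb] fieldBar L M H} (hφ : IsW0 D H φ)
    (hs : IsStarStable M r H) (c : (ZMod M)ˣ) (hc : IsAtR M r c)
    (δ δ' : fieldBar L M H ≃ₐ[Kb] fieldBar L M H) (hδ : IsDiamondH L M H c δ)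
    (hδ' : IsDiamondH L M H c⁻¹ δ') (x : fieldBar L M H) : φ (δ x) = δ' (φ x) := by
  have hrM : r ∣ M := Dvd.intro_left D.M' D.hM.symm
  have h : φ.comp (δ : fieldBar L M H →ₐ[Kb] fieldBar L M H) =
      (δ' : fieldBar L M H →ₐ[Kb] fieldBar L M H).comp φ := by
    apply IntermediateField.algHom_ext_of_eq_adjoin Kb (swh_fieldBar_eq L M H)
    rintro _ ⟨i, rfl⟩
    show φ (δ ⟨swhB L M H i, _⟩) = δ' (φ ⟨swhB L M H i, _⟩)
    rw [rtk6b_diamond_gen H hδ i _, hφ.gen_eq hs, hφ.gen_eq hs,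
      rtk6b_diamond_target D H hs (isStarOf_inv_of_isAtR hrM hc) hδ' i _]
  exact congrArg (fun f : fieldBar L M H →ₐ[Kb] fieldBar L M H => f x) h

theorem rtk6b_arith_gen (σ : Kb ≃ₐ[ℚ] Kb) (i : SwhIx L M)
    (hi : swhB L M H i ∈ fieldBar L M H) :
    arithmeticRingAut (fieldQ L M H) σ ⟨swhB L M H i, hi⟩ = ⟨swhB L M H i, hi⟩ :=
  Subtype.ext (rtk6b_swhB_rational H _ i)

theorem rtk6b_arith_target (hs : IsStarStable M r H) (σ : Kb ≃ₐ[ℚ] Kb) (c : (ZMod M)ˣ)
    (hc : IsCycAt M r σ c) (i : SwhIx L M) (hi : rtk6bTB D H i ∈ fieldBar L M H) :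
    arithmeticRingAut (fieldQ L M H) σ ⟨rtk6bTB D H i, hi⟩ =
      ⟨rtk6bTB D H (rtk6bAct c i), rtk6bTB_mem D H hs _⟩ :=
  Subtype.ext (rtk6bTB_galois D H σ c hc i)

theorem IsW0.galois {φ : fieldBar L M H →ₐ[Kb] fieldBar L M H} (hφ : IsW0 D H φ)
    (hs : IsStarStable M r H) (σ : Kb ≃ₐ[ℚ] Kb) (c : (ZMod M)ˣ) (hc : IsCycAt M r σ c)
    (δ : fieldBar L M H ≃ₐ[Kb] fieldBar L M H) (hδ : IsDiamondH L M H c δ)
    (x : fieldBar L M H) :
    arithmeticGalois (fieldQ L M H) σ • φ x =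
      φ (δ (arithmeticGalois (fieldQ L M H) σ • x)) := by
  have h : rtk6bConjHom (arithmeticRingAut (fieldQ L M H) σ) σ.toRingEquiv
      (fun a => arithmeticRingAut_algebraMap (fieldQ L M H) σ a) φ =
      φ.comp (δ : fieldBar L M H →ₐ[Kb] fieldBar L M H) := by
    apply IntermediateField.algHom_ext_of_eq_adjoin Kb (swh_fieldBar_eq L M H)
    rintro _ ⟨i, rfl⟩
    rw [rtk6bConjHom_apply]
    show _ = φ (δ ⟨swhB L M H i, _⟩)
    have h1 : (arithmeticRingAut (fieldQ L M H) σ).symm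
        ⟨swhB L M H i, rtk6b_swhB_mem H i⟩ = ⟨swhB L M H i, rtk6b_swhB_mem H i⟩ := by
      rw [RingEquiv.symm_apply_eq, rtk6b_arith_gen]
    rw [h1, hφ.gen_eq hs, rtk6b_arith_target hs σ c hc, rtk6b_diamond_gen H hδ i _,
      hφ.gen_eq hs]
  have h2 := congrArg (fun f : fieldBar L M H →ₐ[Kb] fieldBar L M H =>
    f (arithmeticRingAut (fieldQ L M H) σ x)) h
  simp only [rtk6bConjHom_apply, RingEquiv.symm_apply_apply] at h2
  exact h2

end Final

/-- **Piece B**: the Atkin–Lehner automorphism `w_r` of `fieldBar L M H` exists. -/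
theorem stmtB : StmtB := by
  intro L M H r hL0 hML hr hrM hr2 hs
  obtain ⟨D⟩ := rtk6b_exists_dat hL0 hML hr hrM hr2
  haveI : NeZero L := ⟨hL0⟩
  haveI : NeZero M := ⟨fun h => hL0 (by rw [h] at hML; exact Nat.eq_zero_of_zero_dvd hML)⟩
  haveI : NeZero r := ⟨hr.ne_zero⟩
  obtain ⟨φ, hφ0⟩ := rtk6b_exists_w0 D H hs
  have hφ : IsW0 D H φ := hφ0
  refine ⟨AlgEquiv.ofBijective φ hφ.bijective, ?_, ?_, ?_⟩
  · intro σ c hc δ hδ x
    exact hφ.galois hs σ c hc δ hδ x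
  · intro d d' _ _ hd hd' x hx
    exact hφ.map_j d d' hd hd' x hx
  · intro c hc δ δ' hδ hδ' x
    exact hφ.diamond hs c hc δ δ' hδ hδ' x

end Fermat.Agent.RT.K6

end
end ZBES1_013_4

/-! ### bundled: `Fermat.Agent.ES1.G1.DiamAn` -/
section ZBES1_013_5

/-!
# ES₁ / G1-DM — the diamond automorphism is `f ↦ f ∘ σ` analytically (captain helper36)

`Γ = gammaH L M H`, `σ ∈ Γ₀(L) ∩ Γ₀(M)` with `diamHom M σ = c`, `δ` the diamond automorphism `⟨c⟩`
of `fieldBar L M H` (`G2.IsDiamondH L M H c δ`).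

* `es1g1dmComp` : `f ↦ f ∘ σ` on the ring of modular functions for `Γ`;
* `es1g1dmPsi` : the induced ring homomorphism `fieldC ℂ L M H → ℂ((q))`;
* `es1g1dm_psi_iota` : `Ψ (ι u) = ι (δ u)` for `u ∈ fieldBar L M H`;
* `es1g1dm_core` : if `ι u · laurentOf g = laurentOf a` then
  `ι (δ u) · laurentOf (g ∘ σ) = laurentOf (a ∘ σ)`;
* `es1g1dmRoot` : `R ↦ R ∘ σ` on root data, with multiplier `diamGrp σ χ`.
-/

set_option autoImplicit false

noncomputable section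

namespace Fermat.Agent.ES1

open UpperHalfPlane ModularForm CongruenceSubgroup ModularCurve AlgebraicCurve HahnSeries
open Fermat.Agent.S23 Fermat.Agent.S24 Fermat.Agent.S28 Fermat.Agent.ES Fermat.Agent.ES.RC
open Fermat.Agent.ES1.G2
open scoped MatrixGroups

section Comp

variable {L M : ℕ} [NeZero L] (hML : M ∣ L) (H : Subgroup (ZMod M)ˣ)
  (σ : SL(2, ℤ)) (hσL : σ ∈ Gamma0 L) (hσM : σ ∈ Gamma0 M)

include hML hσL hσM in
theorem es1g1dm_isModFunG_comp {f : ℍ → ℂ} (hf : IsModFunG (gammaH L M H) f) :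
    IsModFunG (gammaH L M H) (fun z => f (σ • z)) := by
  haveI := es1rc_finiteIndex hML H
  exact hf.comp_normalizer σ fun γ hγ => conj_mem_gammaH hσL hσM hγ

/-- `f ↦ f ∘ σ` on the modular functions for `Γ` -/
def es1g1dmComp : modFunAlgG (gammaH L M H) →+* modFunAlgG (gammaH L M H) where
  toFun f := ⟨fun z => (f : ℍ → ℂ) (σ • z), es1g1dm_isModFunG_comp hML H σ hσL hσM f.2⟩
  map_one' := rfl
  map_mul' _ _ := rfl
  map_zero' := rfl
  map_add' _ _ := rfl

@[simp]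
theorem es1g1dmComp_apply (f : modFunAlgG (gammaH L M H)) (z : ℍ) :
    ((es1g1dmComp hML H σ hσL hσM f : modFunAlgG (gammaH L M H)) : ℍ → ℂ) z
      = (f : ℍ → ℂ) (σ • z) := rfl

theorem es1g1dmComp_injective : Function.Injective (es1g1dmComp hML H σ hσL hσM) := by
  intro f g h
  apply Subtype.ext
  funext z
  have h1 := congrFun (congrArg Subtype.val h) (σ⁻¹ • z)
  simpa [es1g1dmComp, smul_smul] using h1

/-- the ring homomorphism `modFunAlgG Γ → ℂ((q))`, `f ↦ laurentOf (f ∘ σ)` -/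
def es1g1dmPre : modFunAlgG (gammaH L M H) →+* LaurentSeries ℂ :=
  ((fieldC ℂ L M H).val.toRingHom.comp (es1rcToField hML H).toRingHom).comp
    (es1g1dmComp hML H σ hσL hσM)

theorem es1g1dmPre_apply (f : modFunAlgG (gammaH L M H)) :
    es1g1dmPre hML H σ hσL hσM f = laurentOf (fun z => (f : ℍ → ℂ) (σ • z)) := rfl

theorem es1g1dmPre_injective : Function.Injective (es1g1dmPre hML H σ hσL hσM) := by
  intro f g h
  apply es1g1dmComp_injective hML H σ hσL hσM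
  apply es1rcToField_injective hML H
  exact Subtype.ext h

/-- **the analytic diamond** `Ψ_σ : fieldC ℂ L M H → ℂ((q))`, extending `f ↦ f ∘ σ` -/
def es1g1dmPsi : fieldC ℂ L M H →+* LaurentSeries ℂ :=
  letI := es1rcAlgebra hML H
  haveI := es1rc_isFractionRing hML H
  IsFractionRing.lift (A := modFunAlgG (gammaH L M H)) (K := fieldC ℂ L M H)
    (g := es1g1dmPre hML H σ hσL hσM) (es1g1dmPre_injective hML H σ hσL hσM)

theorem es1g1dmPsi_laurentOf {f : ℍ → ℂ} (hf : IsModFunG (gammaH L M H) f) :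
    es1g1dmPsi hML H σ hσL hσM ⟨laurentOf f, es1rc_laurentOf_mem_fieldC hML H hf⟩
      = laurentOf (fun z => f (σ • z)) := by
  letI := es1rcAlgebra hML H
  haveI := es1rc_isFractionRing hML H
  have h := IsFractionRing.lift_algebraMap (A := modFunAlgG (gammaH L M H))
    (K := fieldC ℂ L M H) (es1g1dmPre_injective hML H σ hσL hσM) ⟨f, hf⟩
  exact h

/-- `Ψ_σ` on the elements of `fieldC ℂ L M H` which are expansions of modular functions -/
theorem es1g1dmPsi_of_eq {f : ℍ → ℂ} (hf : IsModFunG (gammaH L M H) f) (x : fieldC ℂ L M H)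
    (hx : (x : LaurentSeries ℂ) = laurentOf f) :
    es1g1dmPsi hML H σ hσL hσM x = laurentOf (fun z => f (σ • z)) := by
  have : x = ⟨laurentOf f, es1rc_laurentOf_mem_fieldC hML H hf⟩ := Subtype.ext hx
  rw [this]
  exact es1g1dmPsi_laurentOf hML H σ hσL hσM hf

/-- **`Ψ_σ ∘ ι = ι ∘ δ`**: the diamond automorphism `⟨c⟩`, `c = ⟨σ⟩`, is `f ↦ f ∘ σ`. -/
theorem es1g1dm_psi_iota {c : (ZMod M)ˣ} (hc : diamHom M ⟨σ, hσM⟩ = c)
    {δ : fieldBar L M H ≃ₐ[QbH] fieldBar L M H} (hδ : IsDiamondH L M H c δ)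
    (u : fieldBar L M H) :
    es1g1dmPsi hML H σ hσL hσM (iotaH L M H u)
      = coeffMap embC ((δ u : fieldBar L M H) : LaurentSeries Kb) := by
  have hMne : NeZero M := es1rc_neZero_of_dvd hML
  have key : (es1g1dmPsi hML H σ hσL hσM).comp (iotaH L M H)
      = ((coeffMap embC).comp (fieldBar L M H).val.toRingHom).comp
          (δ : fieldBar L M H →+* fieldBar L M H) := by
    refine diamb_ringHom_ext L M H _ _ (fun a => ?_) (fun d _ hd x hx => ?_)
      (fun e _ a he x hx => ?_)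
    · -- constants
      show es1g1dmPsi hML H σ hσL hσM (iotaH L M H (algebraMap QbH (fieldBar L M H) a))
        = coeffMap embC ((δ (algebraMap QbH (fieldBar L M H) a) : fieldBar L M H) :
            LaurentSeries Kb)
      rw [δ.commutes]
      have h1 : ((iotaH L M H (algebraMap QbH (fieldBar L M H) a) : fieldC ℂ L M H) :
          LaurentSeries ℂ) = laurentOf (fun _ : ℍ => embC a) := by
        rw [iotaH_algebraMap, laurentOf_const]
        show algebraMap ℂ (LaurentSeries ℂ) (embC a) = HahnSeries.C (embC a)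
        exact Deriv.algebraMap_eq_C _
      rw [es1g1dmPsi_of_eq hML H σ hσL hσM (isModFunG_const _ (embC a)) _ h1]
      exact h1.symm
    · -- `j(q^d)`
      show es1g1dmPsi hML H σ hσL hσM (iotaH L M H x)
        = coeffMap embC ((δ x : fieldBar L M H) : LaurentSeries Kb)
      rw [hδ.fix_j d hd x hx]
      have h1 : ((iotaH L M H x : fieldC ℂ L M H) : LaurentSeries ℂ)
          = laurentOf (fun z => Jfun (scaleN d z)) := by
        rw [iotaH_coe, hx, laurentOf_Jfun_scaleN]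
        exact coeffMap_jqNModC embC d
      have hJ : IsModFunG (gammaH L M H) (fun z => Jfun (scaleN d z)) :=
        es1rc_isModFunG_of_gamma0 H (rc_isModFun_Jfun_scaleN hd)
      rw [es1g1dmPsi_of_eq hML H σ hσL hσM hJ _ h1]
      have h2 : (fun z => Jfun (scaleN d (σ • z))) = fun z => Jfun (scaleN d z) := by
        funext z
        have h3 : IsModFunG (Gamma0 L) (fun z => Jfun (scaleN d z)) :=
          (isModFunG_gamma0_iff L _).mpr (rc_isModFun_Jfun_scaleN hd)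
        exact h3.comp_smul hσL z
      rw [h2]
      exact h1.symm
    · -- `S_a(q^e)`
      show es1g1dmPsi hML H σ hσL hσM (iotaH L M H x)
        = coeffMap embC ((δ x : fieldBar L M H) : LaurentSeries Kb)
      rw [hδ.map_s e a he x hx]
      have h1 : ((iotaH L M H x : fieldC ℂ L M H) : LaurentSeries ℂ)
          = laurentOf (es1rcThetaE e H a) := by
        rw [iotaH_coe, hx, laurentOf_es1rcThetaE]
        exact es1f_coeffMap_qExpand_sS embC M H a e
      rw [es1g1dmPsi_of_eq hML H σ hσL hσM (es1rcThetaE_isModFunG H a e he) _ h1]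
      have h2 : (fun z => es1rcThetaE e H a (σ • z)) = es1rcThetaE e H (a * c) := by
        funext z
        rw [es1rcThetaE_smul_of_mem H a e he σ hσL hσM z, hc]
      rw [h2, laurentOf_es1rcThetaE]
      exact (es1f_coeffMap_qExpand_sS embC M H (a * c) e).symm
  exact congrArg (fun φ : fieldBar L M H →+* LaurentSeries ℂ => φ u) key

include hML hσL in
/-- **G1-DM, analytic core**: if `ι u = laurentOf a / laurentOf g` then
`ι (δ u) = laurentOf (a ∘ σ) / laurentOf (g ∘ σ)`. -/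
theorem es1g1dm_core {c : (ZMod M)ˣ} (hc : diamHom M ⟨σ, hσM⟩ = c)
    {δ : fieldBar L M H ≃ₐ[QbH] fieldBar L M H} (hδ : IsDiamondH L M H c δ)
    (u : fieldBar L M H) {a g : ℍ → ℂ} (ha : IsModFunG (gammaH L M H) a)
    (hg : IsModFunG (gammaH L M H) g)
    (h : coeffMap embC (u : LaurentSeries Kb) * laurentOf g = laurentOf a) :
    coeffMap embC ((δ u : fieldBar L M H) : LaurentSeries Kb) * laurentOf (fun z => g (σ • z))
      = laurentOf (fun z => a (σ • z)) := by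
  have h1 : iotaH L M H u * ⟨laurentOf g, es1rc_laurentOf_mem_fieldC hML H hg⟩
      = ⟨laurentOf a, es1rc_laurentOf_mem_fieldC hML H ha⟩ := Subtype.ext h
  have h2 := congrArg (es1g1dmPsi hML H σ hσL hσM) h1
  rw [map_mul, es1g1dm_psi_iota hML H σ hσL hσM hc hδ,
    es1g1dmPsi_laurentOf hML H σ hσL hσM hg, es1g1dmPsi_laurentOf hML H σ hσL hσM ha] at h2
  exact h2

end Comp

/-! ## Root data -/

section Root

variable {Γ : Subgroup SL(2, ℤ)} {n : ℕ}

/-- composition of a root datum with `σ` normalising `Γ` -/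
def es1g1dmRoot (R : RootData Γ n) (σ : SL(2, ℤ)) (hσ : ∀ γ ∈ Γ, σ * γ * σ⁻¹ ∈ Γ) :
    RootData Γ n where
  a := fun z => R.a (σ • z)
  g := fun z => R.g (σ • z)
  p_ne_zero := R.p_ne_zero
  mdiff_a := mdiff_comp_SL R.mdiff_a σ
  mdiff_g := mdiff_comp_SL R.mdiff_g σ
  a_ne_zero := fun h => R.a_ne_zero (by
    funext z
    have := congrFun h (σ⁻¹ • z)
    simpa [smul_smul] using this)
  g_ne_zero := fun h => R.g_ne_zero (by
    funext z
    have := congrFun h (σ⁻¹ • z)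
    simpa [smul_smul] using this)
  pow_inv := fun γ hγ τ => by
    have h := R.pow_inv (σ * γ * σ⁻¹) (hσ γ hγ) (σ • τ)
    have h4 : (σ * γ * σ⁻¹) • (σ • τ) = σ • (γ • τ) := by
      rw [← mul_smul, ← mul_smul]
      congr 1
      group
    rw [h4] at h
    exact h

theorem es1g1dmRoot_mult (R : RootData Γ n) (σ : SL(2, ℤ)) (hσ : ∀ γ ∈ Γ, σ * γ * σ⁻¹ ∈ Γ)
    (γ : Γ) : (es1g1dmRoot R σ hσ).mult γ = R.mult ⟨σ * γ * σ⁻¹, hσ γ γ.2⟩ := by
  rw [RootData.mult_eq_iff]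
  intro τ
  have h := R.mult_spec ⟨σ * γ * σ⁻¹, hσ γ γ.2⟩ (σ • τ)
  have h4 : (σ * (γ : SL(2, ℤ)) * σ⁻¹) • (σ • τ) = σ • ((γ : SL(2, ℤ)) • τ) := by
    rw [← mul_smul, ← mul_smul]
    congr 1
    group
  simp only [] at h
  rw [h4] at h
  exact h

/-- the multiplier of `R ∘ σ` is `diamGrp σ` of the multiplier of `R` -/
theorem es1g1dmRoot_multAdd {L M : ℕ} {H : Subgroup (ZMod M)ˣ} (R : RootData (gammaH L M H) n)
    (σ : SL(2, ℤ)) (hσL : σ ∈ Gamma0 L) (hσM : σ ∈ Gamma0 M) :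
    (es1g1dmRoot R σ fun _ hγ => conj_mem_gammaH hσL hσM hγ).multAdd
      = diamGrp L M H σ hσL hσM R.multAdd := by
  refine DFunLike.ext _ _ fun γ => ?_
  obtain ⟨γ, rfl⟩ : ∃ g : gammaH L M H, Additive.ofMul g = γ := ⟨Additive.toMul γ, rfl⟩
  rw [diamGrp_apply, RootData.multAdd_apply, RootData.multAdd_apply, es1g1dmRoot_mult]

end Root

end Fermat.Agent.ES1

end
end ZBES1_013_5
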