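/- GENERATED FILE (helper35, build-time optimisation, NOTES/ZB.md): verbatim concatenation of the modules
   Fermat.Agent.S15.ToricTameV
   Fermat.Agent.S15.ToricTameA
   Fermat.Agent.S15.ToricTame
   Fermat.Agent.RT.K6.DEAbs
   Do not edit; do not import together with these modules. -/
import Mathlib
import Fermat.Agent.ZB.S05_001
import Fermat.Agent.ZB.ES_002

/-! ### bundled: `Fermat.Agent.S15.ToricTameV` -/
section ZBS15_002_0

/-!
# S15 / CNT / TORIC, piece T-tame (V): the value group of `ℚ̄` at a place is locally cyclic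

* `tame_cyc_step` : in a torsion-free commutative group, `a ^ n = g ^ c` (`n > 0`) implies that
  `g` and `a` are powers of one element `g ^ s * a ^ t`.
* `tame_V` : `L / K` algebraic, `A` a valuation subring of `L`, `ϖ ∈ Lˣ` such that the valuation of
  every nonzero element of `K` is a power of that of `ϖ`.  Then for every finite set `S ⊂ Lˣ`
  there is `y ∈ Lˣ` such that the valuation of every `x ∈ S` is a power of the valuation of `y`.
* `tame_V_rat` : the case `K = ℚ`, `A` over the prime `N`, `ϖ = N`.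
-/

set_option autoImplicit false

namespace Fermat.Agent.S15

open Fermat.Agent.S05

/-- the step of the induction -/
theorem tame_cyc_step {G : Type*} [CommGroup G]
    (htf : ∀ (e : G) (d : ℕ), 0 < d → e ^ d = 1 → e = 1) (g a : G) (n : ℕ) (hn : 0 < n)
    (c : ℤ) (h : a ^ n = g ^ c) :
    ∃ (s t n' c' : ℤ), (g ^ s * a ^ t) ^ n' = g ∧ (g ^ s * a ^ t) ^ c' = a := by
  set d : ℕ := Int.gcd (n : ℤ) c with hd
  have hd0 : 0 < d := Int.gcd_pos_of_ne_zero_left _ (by exact_mod_cast hn.ne')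
  obtain ⟨n', hn'⟩ : (d : ℤ) ∣ (n : ℤ) := Int.gcd_dvd_left _ _
  obtain ⟨c', hc'⟩ : (d : ℤ) ∣ c := Int.gcd_dvd_right _ _
  have hbez := Int.gcd_eq_gcd_ab (n : ℤ) c
  rw [← hd] at hbez
  set s : ℤ := Int.gcdA (n : ℤ) c
  set t : ℤ := Int.gcdB (n : ℤ) c
  have hd' : (d : ℤ) ≠ 0 := by exact_mod_cast hd0.ne'
  -- `n' s + c' t = 1`
  have hone : n' * s + c' * t = 1 := by
    have h1 : (d : ℤ) * (n' * s + c' * t) = (d : ℤ) * 1 := by
      rw [mul_one, mul_add, ← mul_assoc, ← mul_assoc, ← hn', ← hc']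
      exact hbez.symm
    exact mul_left_cancel₀ hd' h1
  -- `a ^ n' = g ^ c'`
  have hkey : a ^ n' = g ^ c' := by
    have h2 : (a ^ n' * (g ^ c')⁻¹) ^ d = 1 := by
      rw [mul_pow, inv_pow, ← zpow_natCast (a ^ n'), ← zpow_natCast (g ^ c'), ← zpow_mul,
        ← zpow_mul, mul_comm n', mul_comm c', ← hn', ← hc', zpow_natCast, h, mul_inv_cancel]
    have h3 := htf _ d hd0 h2
    exact mul_inv_eq_one.1 h3
  refine ⟨s, t, n', c', ?_, ?_⟩
  · rw [mul_zpow, ← zpow_mul, ← zpow_mul, mul_comm t n', zpow_mul a n' t, hkey, ← zpow_mul,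
      ← zpow_add, mul_comm s n', hone, zpow_one]
  · rw [mul_zpow, ← zpow_mul, ← zpow_mul, mul_comm s c', zpow_mul g c' s, ← hkey, ← zpow_mul,
      ← zpow_add, mul_comm t c', hone, zpow_one]

section General

variable {K L : Type*} [Field K] [Field L] [Algebra K L] [Algebra.IsAlgebraic K L]

/-- the valuation on units -/
noncomputable def tameW (A : ValuationSubring L) : Lˣ →* A.ValueGroupˣ :=
  Units.map (A.valuation : L →* A.ValueGroup)

theorem tameW_val (A : ValuationSubring L) (x : Lˣ) :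
    ((tameW A x : A.ValueGroupˣ) : A.ValueGroup) = A.valuation (x : L) := rfl

theorem tameW_torsionFree (A : ValuationSubring L) (e : A.ValueGroupˣ) (d : ℕ) (hd : 0 < d)
    (h : e ^ d = 1) : e = 1 := by
  apply Units.ext
  have h1 : ((e : A.ValueGroup)) ^ d = 1 := by
    have := congrArg (fun u : A.ValueGroupˣ => (u : A.ValueGroup)) h
    simpa using this
  rcases (pow_eq_one_iff (M := A.ValueGroup)).1 h1 with h2 | h2
  · exact h2
  · omega

/-- **(V)**: the value group is locally cyclic. -/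
theorem tame_V (A : ValuationSubring L) (ϖ : Lˣ)
    (hK : ∀ c : K, c ≠ 0 → ∃ b : ℤ, A.valuation (algebraMap K L c) = A.valuation (ϖ : L) ^ b)
    (S : Finset Lˣ) :
    ∃ y : Lˣ, ∀ x ∈ S, ∃ m : ℤ, tameW A x = tameW A y ^ m := by
  classical
  suffices H : ∃ y : Lˣ, (∃ m₀ : ℤ, tameW A ϖ = tameW A y ^ m₀) ∧
      ∀ x ∈ S, ∃ m : ℤ, tameW A x = tameW A y ^ m from
    let ⟨y, _, hy⟩ := H; ⟨y, hy⟩
  induction S using Finset.induction_on with
  | empty => exact ⟨ϖ, ⟨1, (zpow_one _).symm⟩, fun x hx => absurd hx (Finset.notMem_empty x)⟩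
  | insert x S _ ih =>
    obtain ⟨y, ⟨m₀, hm₀⟩, hy⟩ := ih
    -- `v x ^ n = v ϖ ^ b`
    obtain ⟨n, hn, c, hc, hval⟩ :=
      exists_pow_valuation_eq_algebraMap (K := K) A x.ne_zero (Algebra.IsAlgebraic.isAlgebraic _)
    obtain ⟨b, hb⟩ := hK c hc
    have h1 : tameW A x ^ n = tameW A y ^ (m₀ * b) := by
      apply Units.ext
      rw [Units.val_pow_eq_pow_val, tameW_val, ← map_pow, hval, hb, zpow_mul, ← hm₀,
        Units.val_zpow_eq_zpow_val, tameW_val]
    obtain ⟨s, t, n', c', h2, h3⟩ :=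
      tame_cyc_step (tameW_torsionFree A) (tameW A y) (tameW A x) n hn (m₀ * b) h1
    have hy' : tameW A (y ^ s * x ^ t) = tameW A y ^ s * tameW A x ^ t := by
      rw [map_mul, map_zpow, map_zpow]
    refine ⟨y ^ s * x ^ t, ⟨n' * m₀, ?_⟩, ?_⟩
    · rw [hy', zpow_mul, h2, hm₀]
    · intro z hz
      rcases Finset.mem_insert.1 hz with rfl | hz
      · exact ⟨c', by rw [hy', h3]⟩
      · obtain ⟨m, hm⟩ := hy z hz
        exact ⟨n' * m, by rw [hy', zpow_mul, h2, hm]⟩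

end General

end Fermat.Agent.S15


end ZBS15_002_0

/-! ### bundled: `Fermat.Agent.S15.ToricTameA` -/
section ZBS15_002_1

/-!
# S15 / CNT / TORIC, piece T-tame (A): valuations of rationals, the symbols `σ x / x`, and (N)

`A` a valuation subring of `L ⊇ ℚ` (algebraic) over the prime `N`, `σ` in the inertia group.

* `tame_val_int`, `tame_val_nat_pow`, `tame_val_rat` : the valuation of a nonzero rational is a
  power of the valuation of `N`.
* `tameTr A σ x` : `σ x / x - 1 ∈ 𝔪_A` ("`θ_x(σ) = 1`"); it is multiplicative in `x` and in `σ`.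
* `tame_N` : **(N)** if `π ^ n` fixes `x₀`, `N ∤ n` and `π x₀ ≠ x₀`, then
  `θ_z(π) ≠ 1` for `z = π x₀ - x₀`.
-/

set_option autoImplicit false
set_option linter.unusedSectionVars false
set_option linter.unusedVariables false

namespace Fermat.Agent.S15

open Fermat.Agent.S05

section Rat

variable {L : Type*} [Field L]

theorem tame_val_int (A : ValuationSubring L) {N : ℕ} (hN : N.Prime)
    (hA : A.LiesOverPrime N) (m : ℤ) (hm : ¬ (N : ℤ) ∣ m) : A.valuation (m : L) = 1 := by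
  have hmA : (m : L) ∈ A := intCast_mem A m
  have hle : A.valuation (m : L) ≤ 1 := (A.valuation_le_one_iff _).2 hmA
  by_contra hne
  have hlt : A.valuation (m : L) < 1 := lt_of_le_of_ne hle hne
  have hNlt : A.valuation ((N : ℕ) : L) < 1 := (ValuationSubring.mem_nonunits_iff A).1 hA
  have hcop : IsCoprime m (N : ℤ) := by
    rw [Int.isCoprime_iff_gcd_eq_one, Int.gcd_comm]
    have hp : Prime (N : ℤ) := Nat.prime_iff_prime_int.1 hN
    exact Int.isCoprime_iff_gcd_eq_one.1 ((Prime.coprime_iff_not_dvd hp).2 hm)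
  obtain ⟨a, b, hab⟩ := hcop
  have h1 : (a : L) * (m : L) + (b : L) * ((N : ℕ) : L) = 1 := by
    have := congrArg (fun t : ℤ => (t : L)) hab
    push_cast at this
    exact this
  have ha : A.valuation (a : L) ≤ 1 := (A.valuation_le_one_iff _).2 (intCast_mem A a)
  have hb : A.valuation (b : L) ≤ 1 := (A.valuation_le_one_iff _).2 (intCast_mem A b)
  have h2 : A.valuation ((a : L) * (m : L)) < 1 := by
    rw [map_mul]
    exact mul_lt_one_of_nonneg_of_lt_one_right ha zero_le hlt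
  have h3 : A.valuation ((b : L) * ((N : ℕ) : L)) < 1 := by
    rw [map_mul]
    exact mul_lt_one_of_nonneg_of_lt_one_right hb zero_le hNlt
  have h4 := Valuation.map_add_lt A.valuation h2 h3
  rw [h1, map_one] at h4
  exact lt_irrefl _ h4

theorem tame_val_nat_pow (A : ValuationSubring L) {N : ℕ} (hN : N.Prime)
    (hA : A.LiesOverPrime N) (m : ℕ) (hm : m ≠ 0) :
    ∃ e : ℕ, A.valuation ((m : ℕ) : L) = A.valuation ((N : ℕ) : L) ^ e := by
  obtain ⟨e, m', hm', rfl⟩ := Nat.exists_eq_pow_mul_and_not_dvd hm N hN.one_lt.ne'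
  refine ⟨e, ?_⟩
  have h1 : A.valuation ((m' : ℕ) : L) = 1 := by
    have := tame_val_int A hN hA (m' : ℤ) (by exact_mod_cast hm')
    simpa using this
  push_cast
  rw [map_mul, map_pow, h1, mul_one]

theorem tame_val_rat [Algebra ℚ L] (A : ValuationSubring L) {N : ℕ} (hN : N.Prime)
    (hA : A.LiesOverPrime N) (hN0 : ((N : ℕ) : L) ≠ 0) (c : ℚ) (hc : c ≠ 0) :
    ∃ b : ℤ, A.valuation (algebraMap ℚ L c) = A.valuation ((N : ℕ) : L) ^ b := by
  have hnum : c.num.natAbs ≠ 0 := Int.natAbs_ne_zero.2 (Rat.num_ne_zero.2 hc)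
  obtain ⟨e₁, h₁⟩ := tame_val_nat_pow A hN hA c.num.natAbs hnum
  obtain ⟨e₂, h₂⟩ := tame_val_nat_pow A hN hA c.den c.den_ne_zero
  have hv : A.valuation ((N : ℕ) : L) ≠ 0 := (Valuation.ne_zero_iff _).2 hN0
  have hnum' : A.valuation ((c.num : ℤ) : L) = A.valuation ((c.num.natAbs : ℕ) : L) := by
    rcases Int.natAbs_eq c.num with h | h
    · conv_lhs => rw [h]
      simp
    · conv_lhs => rw [h]
      simp
  have hcast : algebraMap ℚ L c = ((c.num : ℤ) : L) / ((c.den : ℕ) : L) := by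
    have h0 : (algebraMap ℚ L c) * algebraMap ℚ L (c.den : ℚ) = algebraMap ℚ L (c.num : ℚ) := by
      rw [← map_mul, Rat.mul_den_eq_num]
    have hden : algebraMap ℚ L (c.den : ℚ) ≠ 0 := by
      rw [Ne, map_eq_zero]
      exact_mod_cast c.den_ne_zero
    rw [map_natCast] at h0 hden
    rw [map_intCast] at h0
    rw [eq_div_iff hden, h0]
  refine ⟨(e₁ : ℤ) - e₂, ?_⟩
  rw [hcast, map_div₀, hnum', h₁, h₂, zpow_sub₀ hv, zpow_natCast, zpow_natCast]

end Rat

section Tr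

variable {L : Type*} [Field L] [Algebra ℚ L] [Algebra.IsAlgebraic ℚ L]

/-- `θ_x(σ) = 1` -/
def tameTr (A : ValuationSubring L) (σ : L ≃ₐ[ℚ] L) (x : L) : Prop := σ x / x - 1 ∈ A.nonunits

theorem tameTr_iff (A : ValuationSubring L) (σ : L ≃ₐ[ℚ] L) {x : L} (hx : x ≠ 0) :
    tameTr A σ x ↔ A.valuation (σ x - x) < A.valuation x := by
  have hv : A.valuation x ≠ 0 := (Valuation.ne_zero_iff _).2 hx
  have h1 : σ x / x - 1 = (σ x - x) / x := by field_simp
  rw [tameTr, ValuationSubring.mem_nonunits_iff, h1, map_div₀, div_lt_one₀ (zero_lt_iff.2 hv)]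

/-- the subgroup of `x ∈ Lˣ` with `θ_x(σ) = 1` -/
def tameTrSub (A : ValuationSubring L) {σ : L ≃ₐ[ℚ] L} (hσ : σ ∈ A.inertiaSubgroupIn ℚ) :
    Subgroup Lˣ where
  carrier := {x | tameTr A σ (x : L)}
  one_mem' := by
    show tameTr A σ ((1 : Lˣ) : L)
    rw [Units.val_one, tameTr_iff A σ (one_ne_zero), map_one, sub_self, map_zero, map_one]
    exact zero_lt_one
  mul_mem' := by
    intro x y hx hy
    have hx' := (tameTr_iff A σ x.ne_zero).1 hx
    have hy' := (tameTr_iff A σ y.ne_zero).1 hy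
    show tameTr A σ ((x * y : Lˣ) : L)
    rw [tameTr_iff A σ (x * y).ne_zero, Units.val_mul, map_mul]
    have h1 : σ (x : L) * σ (y : L) - (x : L) * y
        = σ (x : L) * (σ (y : L) - y) + (σ (x : L) - x) * y := by ring
    rw [h1, map_mul]
    have hvx : A.valuation (σ (x : L)) = A.valuation (x : L) := inertia_valuation_apply hσ _
    have hvx0 : A.valuation (x : L) ≠ 0 := (Valuation.ne_zero_iff _).2 x.ne_zero
    have hvy0 : A.valuation (y : L) ≠ 0 := (Valuation.ne_zero_iff _).2 y.ne_zero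
    refine Valuation.map_add_lt _ ?_ ?_
    · rw [map_mul, hvx]
      exact mul_lt_mul_of_pos_left hy' (zero_lt_iff.2 hvx0)
    · rw [map_mul]
      exact mul_lt_mul_of_pos_right hx' (zero_lt_iff.2 hvy0)
  inv_mem' := by
    intro x hx
    have hx' := (tameTr_iff A σ x.ne_zero).1 hx
    show tameTr A σ ((x⁻¹ : Lˣ) : L)
    rw [tameTr_iff A σ (x⁻¹).ne_zero, Units.val_inv_eq_inv_val, map_inv₀]
    have hvx : A.valuation (σ (x : L)) = A.valuation (x : L) := inertia_valuation_apply hσ _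
    have hvx0 : A.valuation (x : L) ≠ 0 := (Valuation.ne_zero_iff _).2 x.ne_zero
    have hσx0 : σ (x : L) ≠ 0 := by
      rw [Ne, map_eq_zero]
      exact x.ne_zero
    have h1 : (σ (x : L))⁻¹ - (x : L)⁻¹ = -((σ (x : L) - x) / (σ (x : L) * x)) := by
      field_simp
      ring
    rw [h1, Valuation.map_neg, map_div₀, map_mul, hvx, map_inv₀]
    rw [div_lt_iff₀ (mul_pos (zero_lt_iff.2 hvx0) (zero_lt_iff.2 hvx0))]
    rw [← mul_assoc, inv_mul_cancel₀ hvx0, one_mul]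
    exact hx'

theorem mem_tameTrSub (A : ValuationSubring L) {σ : L ≃ₐ[ℚ] L}
    (hσ : σ ∈ A.inertiaSubgroupIn ℚ) (x : Lˣ) : x ∈ tameTrSub A hσ ↔ tameTr A σ (x : L) := Iff.rfl

/-- units of `A` have trivial symbol -/
theorem tameTr_of_val_one (A : ValuationSubring L) {σ : L ≃ₐ[ℚ] L}
    (hσ : σ ∈ A.inertiaSubgroupIn ℚ) {u : L} (hu : A.valuation u = 1) : tameTr A σ u :=
  inertia_apply_div_sub_one_mem_nonunits hσ hu

/-- the symbol depends only on the valuation class generated by `y` -/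
theorem tameTr_of_val_zpow (A : ValuationSubring L) {σ : L ≃ₐ[ℚ] L}
    (hσ : σ ∈ A.inertiaSubgroupIn ℚ) (x y : Lˣ) (m : ℤ)
    (h : tameW A x = tameW A y ^ m) (hy : tameTr A σ (y : L)) : tameTr A σ (x : L) := by
  have h1 : y ^ m ∈ tameTrSub A hσ := Subgroup.zpow_mem _ hy m
  have h2 : A.valuation (((x * (y ^ m)⁻¹ : Lˣ)) : L) = 1 := by
    have h3 : tameW A (x * (y ^ m)⁻¹) = 1 := by
      rw [map_mul, map_inv, map_zpow, h, mul_inv_cancel]
    have := congrArg (fun u : A.ValueGroupˣ => (u : A.ValueGroup)) h3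
    simpa [tameW_val] using this
  have h4 : x * (y ^ m)⁻¹ ∈ tameTrSub A hσ := tameTr_of_val_one A hσ h2
  have h5 : x = (x * (y ^ m)⁻¹) * y ^ m := by rw [inv_mul_cancel_right]
  rw [h5]
  exact Subgroup.mul_mem _ h4 h1

/-- multiplicativity in `σ` -/
theorem tameTr_mul (A : ValuationSubring L) {σ τ : L ≃ₐ[ℚ] L}
    (hσ : σ ∈ A.inertiaSubgroupIn ℚ) (hτ : τ ∈ A.inertiaSubgroupIn ℚ) {x : L} (hx : x ≠ 0)
    (h1 : tameTr A σ x) (h2 : tameTr A τ x) : tameTr A (σ * τ) x := by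
  rw [tameTr_iff A _ hx] at h1 h2 ⊢
  have h3 : (σ * τ) x - x = σ (τ x - x) + (σ x - x) := by
    rw [AlgEquiv.mul_apply, map_sub]
    ring
  rw [h3]
  refine Valuation.map_add_lt _ ?_ h1
  rw [inertia_valuation_apply hσ]
  exact h2

theorem tameTr_one (A : ValuationSubring L) {x : L} (hx : x ≠ 0) :
    tameTr A (1 : L ≃ₐ[ℚ] L) x := by
  rw [tameTr_iff A _ hx, AlgEquiv.one_apply, sub_self, map_zero]
  exact zero_lt_iff.2 ((Valuation.ne_zero_iff _).2 hx)

theorem tameTr_pow (A : ValuationSubring L) {σ : L ≃ₐ[ℚ] L}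
    (hσ : σ ∈ A.inertiaSubgroupIn ℚ) {x : L} (hx : x ≠ 0) (h : tameTr A σ x) (n : ℕ) :
    tameTr A (σ ^ n) x := by
  induction n with
  | zero => rw [pow_zero]; exact tameTr_one A hx
  | succ n ih =>
    rw [pow_succ]
    exact tameTr_mul A (Subgroup.pow_mem _ hσ n) hσ hx ih h

/-- **(N)**: a tame element moving `x₀` has a nontrivial symbol at `π x₀ - x₀`. -/
theorem tame_N (A : ValuationSubring L) {N : ℕ} (hN : N.Prime) (hA : A.LiesOverPrime N)
    {π : L ≃ₐ[ℚ] L} (hπ : π ∈ A.inertiaSubgroupIn ℚ) (x₀ : L) (n : ℕ) (hn : ¬ N ∣ n)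
    (hpow : (π ^ n) x₀ = x₀) (hne : π x₀ ≠ x₀) : ¬ tameTr A π (π x₀ - x₀) := by
  intro hT
  set z : L := π x₀ - x₀ with hz
  have hz0 : z ≠ 0 := sub_ne_zero.2 hne
  have hvz : A.valuation z ≠ 0 := (Valuation.ne_zero_iff _).2 hz0
  -- telescoping
  have htel : ∑ i ∈ Finset.range n, (π ^ i) z = 0 := by
    have h1 : ∀ i : ℕ, (π ^ i) z = (π ^ (i + 1)) x₀ - (π ^ i) x₀ := by
      intro i
      rw [hz, map_sub, pow_succ, AlgEquiv.mul_apply]
    simp only [h1]
    rw [Finset.sum_range_sub (fun i => (π ^ i) x₀), hpow, pow_zero, AlgEquiv.one_apply, sub_self]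
  -- each term is `z + (small)`
  have hsum : ∑ i ∈ Finset.range n, ((π ^ i) z - z) = -((n : ℕ) : L) * z := by
    rw [Finset.sum_sub_distrib, htel, Finset.sum_const, Finset.card_range, nsmul_eq_mul]
    ring
  have hlt : A.valuation (∑ i ∈ Finset.range n, ((π ^ i) z - z)) < A.valuation z := by
    refine Valuation.map_sum_lt _ hvz fun i _ => ?_
    exact (tameTr_iff A _ hz0).1 (tameTr_pow A hπ hz0 hT i)
  rw [hsum, map_mul, Valuation.map_neg] at hlt
  have hvn : A.valuation ((n : ℕ) : L) = 1 := by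
    have := tame_val_int A hN hA (n : ℤ) (by exact_mod_cast hn)
    simpa using this
  rw [hvn, one_mul] at hlt
  exact lt_irrefl _ hlt

end Tr

end Fermat.Agent.S15


end ZBS15_002_1

/-! ### bundled: `Fermat.Agent.S15.ToricTame` -/
section ZBS15_002_2

/-!
# S15 / CNT / TORIC, piece T-tame (main): the tame inertia is cyclic

`A` a valuation subring of `L ⊇ ℚ` (algebraic) over the prime `N`, `I` its inertia group.

* `tameTheta A y : I →* k_Aˣ`, `σ ↦ σ y / y mod 𝔪_A`;  `tameTheta_eq_one_iff`.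
* `tameTheta_finite_range`, `tameTheta_exists_gen` : the image is finite cyclic.
* `toric_tame` : for a finite normal `E / ℚ` there is `σ₀ ∈ I` such that for every `σ ∈ I` there
  are `n`, `e` with `(σ σ₀⁻ⁿ)^(N^e) = 1` on `E`.
-/

set_option autoImplicit false
set_option linter.unusedSectionVars false
set_option linter.unusedVariables false
set_option linter.style.haveILetI false

noncomputable section

namespace Fermat.Agent.S15

open Fermat.Agent.S05

section Theta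

variable {L : Type*} [Field L] [Algebra ℚ L] [Algebra.IsAlgebraic ℚ L]

theorem tame_residue_eq_iff (A : ValuationSubring L) {a b : L} (ha : a ∈ A) (hb : b ∈ A) :
    IsLocalRing.residue A ⟨a, ha⟩ = IsLocalRing.residue A ⟨b, hb⟩ ↔ a - b ∈ A.nonunits := by
  rw [← sub_eq_zero, ← map_sub, IsLocalRing.residue_eq_zero_iff,
    ValuationSubring.mem_nonunits_iff_exists_mem_maximalIdeal]
  constructor
  · intro h
    exact ⟨A.sub_mem ha hb, h⟩
  · rintro ⟨_, h⟩
    exact h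

theorem tame_div_val (A : ValuationSubring L) {σ : L ≃ₐ[ℚ] L}
    (hσ : σ ∈ A.inertiaSubgroupIn ℚ) (y : Lˣ) : A.valuation (σ (y : L) / y) = 1 :=
  valuation_apply_div_self (mem_decomposition_of_mem_inertiaIn hσ) y.ne_zero

theorem tame_div_mem (A : ValuationSubring L) {σ : L ≃ₐ[ℚ] L}
    (hσ : σ ∈ A.inertiaSubgroupIn ℚ) (y : Lˣ) : σ (y : L) / y ∈ A :=
  (A.valuation_le_one_iff _).1 (tame_div_val A hσ y).le

theorem tame_residue_ne_zero (A : ValuationSubring L) {a : L} (ha : a ∈ A)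
    (hv : A.valuation a = 1) : IsLocalRing.residue A ⟨a, ha⟩ ≠ 0 := by
  intro h
  have h0 : (0 : L) ∈ A := A.zero_mem
  have h1 : IsLocalRing.residue A ⟨a, ha⟩ = IsLocalRing.residue A ⟨0, h0⟩ := by
    rw [h]
    exact (map_zero (IsLocalRing.residue A)).symm
  have h2 := (tame_residue_eq_iff A ha h0).1 h1
  rw [sub_zero, ValuationSubring.mem_nonunits_iff, hv] at h2
  exact lt_irrefl _ h2

/-- the tame character `θ_y` -/
def tameTheta (A : ValuationSubring L) (y : Lˣ) :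
    ↥(A.inertiaSubgroupIn ℚ) →* (IsLocalRing.ResidueField A)ˣ :=
  MonoidHom.mk'
    (fun σ => Units.mk0 (IsLocalRing.residue A ⟨(σ : L ≃ₐ[ℚ] L) (y : L) / y, tame_div_mem A σ.2 y⟩)
      (tame_residue_ne_zero A _ (tame_div_val A σ.2 y)))
    (by
      intro σ τ
      apply Units.ext
      rw [Units.val_mul, Units.val_mk0, Units.val_mk0, Units.val_mk0]
      have hb : (τ : L ≃ₐ[ℚ] L) (y : L) / y ∈ A := tame_div_mem A τ.2 y
      have hσb : (σ : L ≃ₐ[ℚ] L) ((τ : L ≃ₐ[ℚ] L) (y : L) / y) ∈ A :=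
        (inertia_apply_mem_iff σ.2 _).2 hb
      have h1 : (⟨((σ * τ : ↥(A.inertiaSubgroupIn ℚ)) : L ≃ₐ[ℚ] L) (y : L) / y,
          tame_div_mem A (σ * τ).2 y⟩ : A) =
          ⟨(σ : L ≃ₐ[ℚ] L) (y : L) / y, tame_div_mem A σ.2 y⟩ *
            ⟨(σ : L ≃ₐ[ℚ] L) ((τ : L ≃ₐ[ℚ] L) (y : L) / y), hσb⟩ := by
        apply Subtype.ext
        show ((σ : L ≃ₐ[ℚ] L) * (τ : L ≃ₐ[ℚ] L)) (y : L) / y = _
        rw [AlgEquiv.mul_apply]
        show _ = (σ : L ≃ₐ[ℚ] L) (y : L) / y * (σ : L ≃ₐ[ℚ] L) ((τ : L ≃ₐ[ℚ] L) (y : L) / y)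
        rw [map_div₀]
        have hy : (σ : L ≃ₐ[ℚ] L) (y : L) ≠ 0 := by
          rw [Ne, map_eq_zero]
          exact y.ne_zero
        have hy' : (y : L) ≠ 0 := y.ne_zero
        field_simp
      rw [h1, map_mul]
      congr 1
      exact (tame_residue_eq_iff A hσb hb).2 (inertia_apply_sub_mem_nonunits σ.2 hb))

theorem tameTheta_val (A : ValuationSubring L) (y : Lˣ) (σ : ↥(A.inertiaSubgroupIn ℚ)) :
    ((tameTheta A y σ : (IsLocalRing.ResidueField A)ˣ) : IsLocalRing.ResidueField A) =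
      IsLocalRing.residue A ⟨(σ : L ≃ₐ[ℚ] L) (y : L) / y, tame_div_mem A σ.2 y⟩ := rfl

theorem tameTheta_eq_one_iff (A : ValuationSubring L) (y : Lˣ)
    (σ : ↥(A.inertiaSubgroupIn ℚ)) :
    tameTheta A y σ = 1 ↔ tameTr A (σ : L ≃ₐ[ℚ] L) (y : L) := by
  have h1 : (1 : L) ∈ A := A.one_mem
  rw [tameTr, ← tame_residue_eq_iff A (tame_div_mem A σ.2 y) h1, ← tameTheta_val,
    Units.ext_iff, Units.val_one]
  have : IsLocalRing.residue A ⟨1, h1⟩ = 1 := map_one _
  rw [this]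

/-- `θ_y(σ)` depends only on `σ y` -/
theorem tameTheta_congr (A : ValuationSubring L) (y : Lˣ) (σ τ : ↥(A.inertiaSubgroupIn ℚ))
    (h : (σ : L ≃ₐ[ℚ] L) (y : L) = (τ : L ≃ₐ[ℚ] L) (y : L)) :
    tameTheta A y σ = tameTheta A y τ := by
  apply Units.ext
  rw [tameTheta_val, tameTheta_val]
  congr 1
  apply Subtype.ext
  show (σ : L ≃ₐ[ℚ] L) (y : L) / y = (τ : L ≃ₐ[ℚ] L) (y : L) / y
  rw [h]

theorem tameTheta_finite_range (A : ValuationSubring L) (y : Lˣ) :
    (Set.range (tameTheta A y)).Finite := by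
  classical
  have hroots : ((minpoly ℚ (y : L)).rootSet L).Finite := Polynomial.rootSet_finite _ _
  have hmem : ∀ σ : ↥(A.inertiaSubgroupIn ℚ),
      (σ : L ≃ₐ[ℚ] L) (y : L) ∈ (minpoly ℚ (y : L)).rootSet L := by
    intro σ
    rw [Polynomial.mem_rootSet]
    refine ⟨minpoly.ne_zero (Algebra.IsIntegral.isIntegral _), ?_⟩
    have h := minpoly.aeval ℚ (y : L)
    have h2 := congrArg (σ : L ≃ₐ[ℚ] L) h
    rw [map_zero] at h2
    rw [← h2]
    exact (Polynomial.aeval_algHom_apply ((σ : L ≃ₐ[ℚ] L) : L →ₐ[ℚ] L) (y : L) _)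
  -- a choice of `σ` for each value of `σ y`
  let g : L → (IsLocalRing.ResidueField A)ˣ := fun z =>
    if h : ∃ σ : ↥(A.inertiaSubgroupIn ℚ), (σ : L ≃ₐ[ℚ] L) (y : L) = z then
      tameTheta A y h.choose else 1
  refine (hroots.image g).subset ?_
  rintro _ ⟨σ, rfl⟩
  refine ⟨(σ : L ≃ₐ[ℚ] L) (y : L), hmem σ, ?_⟩
  have hex : ∃ τ : ↥(A.inertiaSubgroupIn ℚ), (τ : L ≃ₐ[ℚ] L) (y : L) = (σ : L ≃ₐ[ℚ] L) (y : L) :=
    ⟨σ, rfl⟩
  show (if h : ∃ τ : ↥(A.inertiaSubgroupIn ℚ),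
      (τ : L ≃ₐ[ℚ] L) (y : L) = (σ : L ≃ₐ[ℚ] L) (y : L) then
      tameTheta A y h.choose else 1) = _
  rw [dif_pos hex]
  exact tameTheta_congr A y _ _ hex.choose_spec

/-- the image of `θ_y` is cyclic: there is a generator `σ₀` -/
theorem tameTheta_exists_gen (A : ValuationSubring L) (y : Lˣ) :
    ∃ σ₀ : ↥(A.inertiaSubgroupIn ℚ), ∀ σ : ↥(A.inertiaSubgroupIn ℚ),
      ∃ n : ℤ, tameTheta A y (σ * σ₀ ^ (-n)) = 1 := by
  haveI : Finite ↥(tameTheta A y).range := by
    have h := tameTheta_finite_range A y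
    rw [← MonoidHom.coe_range] at h
    exact h.to_subtype
  obtain ⟨g, hg⟩ := IsCyclic.exists_generator (α := ↥(tameTheta A y).range)
  obtain ⟨σ₀, hσ₀⟩ := g.2
  refine ⟨σ₀, fun σ => ?_⟩
  obtain ⟨n, hn⟩ := Subgroup.mem_zpowers_iff.1 (hg ⟨tameTheta A y σ, ⟨σ, rfl⟩⟩)
  refine ⟨n, ?_⟩
  have h1 : (tameTheta A y σ₀) ^ n = tameTheta A y σ := by
    have := congrArg (fun t : ↥(tameTheta A y).range => (t : (IsLocalRing.ResidueField A)ˣ)) hn
    simp only [Subgroup.coe_zpow] at this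
    rw [hσ₀]
    exact this
  rw [map_mul, map_zpow, zpow_neg, h1, mul_inv_cancel]

end Theta

end Fermat.Agent.S15

namespace Fermat.Agent.S15

open Fermat.Agent.S05

section Main

variable {L : Type*} [Field L] [Algebra ℚ L] [Algebra.IsAlgebraic ℚ L]

/-- restriction to a normal subfield -/
theorem tame_res_apply (E : IntermediateField ℚ L) [Normal ℚ E] (σ : L ≃ₐ[ℚ] L) (a : E) :
    ((AlgEquiv.restrictNormalHom (F := ℚ) (K₁ := L) E σ a : E) : L) = σ (a : L) :=
  AlgEquiv.restrictNormal_commutes σ E a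

/-- for every `q ≠ 1` in `Gal(E/ℚ)` there is `x ∈ Lˣ` whose symbol is nontrivial at every tame
inertia element restricting to `q` -/
theorem tame_exists_witness (A : ValuationSubring L) {N : ℕ} (hN : N.Prime)
    (hA : A.LiesOverPrime N) (E : IntermediateField ℚ L) [FiniteDimensional ℚ E] [Normal ℚ E]
    (q : E ≃ₐ[ℚ] E) (hq : q ≠ 1) :
    ∃ x : Lˣ, ∀ π ∈ A.inertiaSubgroupIn ℚ,
      AlgEquiv.restrictNormalHom (F := ℚ) (K₁ := L) E π = q → ¬ N ∣ orderOf q →
        ¬ tameTr A π (x : L) := by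
  obtain ⟨a, ha⟩ : ∃ a : E, q a ≠ a := by
    by_contra h
    push Not at h
    exact hq (AlgEquiv.ext h)
  have hne : ((q a : E) : L) - (a : L) ≠ 0 := by
    rw [sub_ne_zero]
    exact fun h => ha (Subtype.ext h)
  refine ⟨Units.mk0 _ hne, fun π hπ hres hord => ?_⟩
  rw [Units.val_mk0]
  have h1 : ((q a : E) : L) = π (a : L) := by
    rw [← hres]
    exact tame_res_apply E π a
  rw [h1]
  refine tame_N A hN hA hπ (a : L) (orderOf q) hord ?_ ?_
  · have h2 : ((AlgEquiv.restrictNormalHom (F := ℚ) (K₁ := L) E (π ^ orderOf q) a : E) : L) =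
        (π ^ orderOf q) (a : L) := tame_res_apply E _ a
    rw [← h2, map_pow, hres, pow_orderOf_eq_one]
    rfl
  · rw [← h1]
    exact fun h => ha (Subtype.ext h)

/-- **T-tame**: the tame inertia is cyclic. -/
theorem toric_tame (A : ValuationSubring L) {N : ℕ} (hN : N.Prime) (hA : A.LiesOverPrime N)
    (E : IntermediateField ℚ L) [FiniteDimensional ℚ E] [Normal ℚ E] :
    ∃ σ₀ ∈ A.inertiaSubgroupIn ℚ, ∀ σ ∈ A.inertiaSubgroupIn ℚ, ∃ (n : ℤ) (e : ℕ),
      ∀ a ∈ E, ((σ * σ₀ ^ (-n)) ^ (N ^ e)) a = a := by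
  classical
  haveI : CharZero L := algebraRat.charZero L
  have hN0 : ((N : ℕ) : L) ≠ 0 := Nat.cast_ne_zero.2 hN.ne_zero
  -- the witnesses
  have hW : ∀ q : E ≃ₐ[ℚ] E, ∃ x : Lˣ, q ≠ 1 → ∀ π ∈ A.inertiaSubgroupIn ℚ,
      AlgEquiv.restrictNormalHom (F := ℚ) (K₁ := L) E π = q → ¬ N ∣ orderOf q →
        ¬ tameTr A π (x : L) := by
    intro q
    by_cases hq : q = 1
    · exact ⟨1, fun h => absurd hq h⟩
    · obtain ⟨x, hx⟩ := tame_exists_witness A hN hA E q hq
      exact ⟨x, fun _ => hx⟩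
  choose X hX using hW
  have hfd : @FiniteDimensional ℚ E _ _ (Algebra.toModule) := by
    convert (inferInstance : FiniteDimensional ℚ E)
    exact Subsingleton.elim _ _
  haveI : Finite (E ≃ₐ[ℚ] E) := by
    haveI := hfd
    exact Finite.of_fintype _
  haveI : Fintype (E ≃ₐ[ℚ] E) := Fintype.ofFinite _
  -- the common generator of the valuations
  obtain ⟨y, hy⟩ := tame_V (K := ℚ) A (Units.mk0 ((N : ℕ) : L) hN0)
    (fun c hc => tame_val_rat A hN hA hN0 c hc) (Finset.univ.image X)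
  obtain ⟨σ₀, hσ₀⟩ := tameTheta_exists_gen A y
  refine ⟨σ₀, σ₀.2, fun σ hσ => ?_⟩
  obtain ⟨n, hn⟩ := hσ₀ ⟨σ, hσ⟩
  set π : L ≃ₐ[ℚ] L := σ * (σ₀ : L ≃ₐ[ℚ] L) ^ (-n) with hπdef
  have hπ : π ∈ A.inertiaSubgroupIn ℚ :=
    Subgroup.mul_mem _ hσ (Subgroup.zpow_mem _ σ₀.2 _)
  have hπy : tameTr A π (y : L) := by
    have := (tameTheta_eq_one_iff A y (⟨σ, hσ⟩ * σ₀ ^ (-n))).1 hn
    simpa [hπdef] using this
  set q : E ≃ₐ[ℚ] E := AlgEquiv.restrictNormalHom (F := ℚ) (K₁ := L) E π with hqdef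
  have ho : orderOf q ≠ 0 := (orderOf_pos q).ne'
  obtain ⟨e, o', ho', hoe⟩ := Nat.exists_eq_pow_mul_and_not_dvd ho N hN.one_lt.ne'
  refine ⟨n, e, ?_⟩
  have hpow0 : N ^ e ≠ 0 := pow_ne_zero e hN.ne_zero
  have hq' : q ^ (N ^ e) = 1 := by
    by_contra hne
    have hord : orderOf (q ^ (N ^ e)) = o' := by
      rw [orderOf_pow_of_dvd hpow0 (Dvd.intro _ hoe.symm), hoe,
        Nat.mul_div_cancel_left _ (Nat.pos_of_ne_zero hpow0)]
    have hπ' : π ^ (N ^ e) ∈ A.inertiaSubgroupIn ℚ := Subgroup.pow_mem _ hπ _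
    have hres : AlgEquiv.restrictNormalHom (F := ℚ) (K₁ := L) E (π ^ (N ^ e)) = q ^ (N ^ e) := by
      rw [map_pow]
    have h1 := hX (q ^ (N ^ e)) hne (π ^ (N ^ e)) hπ' hres (by rw [hord]; exact ho')
    obtain ⟨m, hm⟩ := hy (X (q ^ (N ^ e))) (Finset.mem_image_of_mem X (Finset.mem_univ _))
    exact h1 (tameTr_of_val_zpow A hπ' _ y m hm (tameTr_pow A hπ y.ne_zero hπy _))
  intro a ha
  have h2 := tame_res_apply E (π ^ (N ^ e)) ⟨a, ha⟩
  rw [map_pow, ← hqdef, hq'] at h2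
  exact h2.symm

end Main

end Fermat.Agent.S15

end
end ZBS15_002_2

/-! ### bundled: `Fermat.Agent.RT.K6.DEAbs` -/
section ZBS15_002_3
/-
K-machine, piece K6 / D-E (helper74): the valuation of the Kummer generator at `v_0` is prime
to `p` — ABSTRACT CORE (Mathlib + ES/Kronecker + S15 tame symbols).

`L ⊇ ℚ` algebraic, `A` a valuation subring of `L` over the prime `r`, `σ` in the inertia group.
A Laurent series `z ≠ 0` over `L` has CONTENT `c` if `z · y₂ = c · y₁` with `y₁`, `y₂` primitive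
(`KronPrim`); the content is unique up to a unit of `A` (`rtk6de_content_unique`).

* `rtk6de_symbol` : if `σ z = ζ z` (on coefficients) then `σ c / c ≡ ζ` modulo `𝔪_A`
  (the tame symbol of the content is the eigenvalue).
* `rtk6de_core`   : if `v(c)^d = v(r)^n₀`, `p ∣ d` and `θ_c(σ)^(d/p) ≠ 1`, then `p ∤ n₀`.
* `rtk6de_main`   : `σ z = ζ z`, `ζ^d = 1`, `ζ^(d/p) ≠ 1`, `p ≠ r`, `v(c)^d = v(r)^n₀` ⇒ `p ∤ n₀`.
* `rtk6de_main'`  : the same with `z^d = r^n₀ · ε`, `ε` of unit content.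
In the application `z = w y` (`y` the Kummer generator, `w = w_r`), `ζ = ψ(c(σ))`,
`u₀ = y^d`, `n₀ = v_0(u₀)`.
-/

set_option autoImplicit false
set_option linter.unusedSectionVars false
set_option linter.unusedVariables false

noncomputable section

namespace Fermat.Agent.RT.K6

open ModularCurve HahnSeries Fermat.Agent.ES Fermat.Agent.S05 Fermat.Agent.S15

section Content

variable {L : Type*} [Field L] (A : ValuationSubring L)

lemma rtk6de_C_mul_coeff (a : L) (f : LaurentSeries L) (n : ℤ) :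
    (HahnSeries.C a * f).coeff n = a * f.coeff n := by
  rw [HahnSeries.C_mul_eq_smul, HahnSeries.coeff_smul, smul_eq_mul]

/-- a scalar multiple of a primitive series which is integral has an integral scalar -/
lemma rtk6de_scalar_mem {P P' : LaurentSeries L} (hP : KronPrim A P) (hP' : KronInt A P')
    (a : L) (h : HahnSeries.C a * P = P') : a ∈ A := by
  obtain ⟨n, hn⟩ := hP.2
  have h1 : a * P.coeff n ∈ A := by
    rw [← rtk6de_C_mul_coeff, h]
    exact hP' n
  have h2 : A.valuation (P.coeff n) = 1 := by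
    have h3 : A.valuation (P.coeff n) ≤ 1 := (A.valuation_le_one_iff _).2 (hP.1 n)
    rcases lt_or_eq_of_le h3 with h4 | h4
    · exact absurd ((ValuationSubring.mem_nonunits_iff A).2 h4) hn
    · exact h4
  rw [← A.valuation_le_one_iff] at h1 ⊢
  rwa [map_mul, h2, mul_one] at h1

/-- two primitive series which are proportional: the ratio is a unit -/
lemma rtk6de_scalar_of_prim {P P' : LaurentSeries L} (hP : KronPrim A P) (hP' : KronPrim A P')
    {a b : L} (ha : a ≠ 0) (hb : b ≠ 0) (h : HahnSeries.C a * P = HahnSeries.C b * P') :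
    A.valuation a = A.valuation b := by
  have hCa : (HahnSeries.C a : LaurentSeries L) ≠ 0 :=
    (map_ne_zero_iff _ HahnSeries.C_injective).mpr ha
  have hCb : (HahnSeries.C b : LaurentSeries L) ≠ 0 :=
    (map_ne_zero_iff _ HahnSeries.C_injective).mpr hb
  have h1 : HahnSeries.C (a / b) * P = P' := by
    rw [map_div₀, div_mul_eq_mul_div, h, mul_div_assoc, mul_comm, div_mul_cancel₀ _ hCb]
  have h2 : HahnSeries.C (b / a) * P' = P := by
    rw [map_div₀, div_mul_eq_mul_div, ← h, mul_div_assoc, mul_comm, div_mul_cancel₀ _ hCa]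
  have h3 := (A.valuation_le_one_iff _).2 (rtk6de_scalar_mem A hP hP'.1 _ h1)
  have h4 := (A.valuation_le_one_iff _).2 (rtk6de_scalar_mem A hP' hP.1 _ h2)
  rw [map_div₀] at h3 h4
  have hva : 0 < A.valuation a := zero_lt_iff.2 ((Valuation.ne_zero_iff _).2 ha)
  have hvb : 0 < A.valuation b := zero_lt_iff.2 ((Valuation.ne_zero_iff _).2 hb)
  rw [div_le_one₀ hvb] at h3
  rw [div_le_one₀ hva] at h4
  exact le_antisymm h3 h4

/-- **uniqueness of the content** -/
theorem rtk6de_content_unique {z y₁ y₂ y₁' y₂' : LaurentSeries L} {c c' : L} (hz : z ≠ 0)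
    (hc : c ≠ 0) (hc' : c' ≠ 0) (h1 : KronPrim A y₁) (h2 : KronPrim A y₂)
    (h1' : KronPrim A y₁') (h2' : KronPrim A y₂')
    (h : z * y₂ = HahnSeries.C c * y₁) (h' : z * y₂' = HahnSeries.C c' * y₁') :
    A.valuation c = A.valuation c' := by
  refine rtk6de_scalar_of_prim A (h1.mul h2') (h1'.mul h2) hc hc' ?_
  calc HahnSeries.C c * (y₁ * y₂') = (HahnSeries.C c * y₁) * y₂' := by ring
    _ = (z * y₂) * y₂' := by rw [h]
    _ = (z * y₂') * y₂ := by ring
    _ = (HahnSeries.C c' * y₁') * y₂ := by rw [h']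
    _ = HahnSeries.C c' * (y₁' * y₂) := by ring

end Content

section Symbol

variable {L : Type*} [Field L] [Algebra ℚ L] [Algebra.IsAlgebraic ℚ L] (A : ValuationSubring L)

/-- **The tame symbol of the content is the eigenvalue.** -/
theorem rtk6de_symbol {σ : L ≃ₐ[ℚ] L} (hσ : σ ∈ A.inertiaSubgroupIn ℚ)
    {z y₁ y₂ : LaurentSeries L} {c ζ : L} (hc : c ≠ 0) (hζ : ζ ∈ A)
    (h1 : KronPrim A y₁) (h2 : KronPrim A y₂) (h : z * y₂ = HahnSeries.C c * y₁)
    (hσz : coeffMap (σ : L →+* L) z = HahnSeries.C ζ * z) :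
    σ c / c - ζ ∈ A.nonunits := by
  have hσdec : σ ∈ A.decompositionSubgroup ℚ := mem_decomposition_of_mem_inertiaIn hσ
  have hCc : (HahnSeries.C c : LaurentSeries L) ≠ 0 :=
    (map_ne_zero_iff _ HahnSeries.C_injective).mpr hc
  set s1 : LaurentSeries L := coeffMap (σ : L →+* L) y₁ with hs1
  set s2 : LaurentSeries L := coeffMap (σ : L →+* L) y₂ with hs2
  have hs1P : KronPrim A s1 := h1.coeffMap_of_mem_decomposition σ hσdec
  have hs2P : KronPrim A s2 := h2.coeffMap_of_mem_decomposition σ hσdec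
  -- the conjugate relation
  have he' : HahnSeries.C ζ * z * s2 = HahnSeries.C (σ c) * s1 := by
    have := congrArg (coeffMap (σ : L →+* L)) h
    rw [map_mul, map_mul, hσz] at this
    rw [this]
    congr 1
    show coeffMap (σ : L →+* L) (HahnSeries.single 0 c) = HahnSeries.single 0 (σ c)
    rw [coeffMap_single]
    rfl
  -- `ζ · y₁ · σ y₂ = (σ c / c) · σ y₁ · y₂`
  have hkey : HahnSeries.C ζ * (y₁ * s2) = HahnSeries.C (σ c / c) * (s1 * y₂) := by
    have e1 : HahnSeries.C c * (HahnSeries.C ζ * (y₁ * s2)) =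
        HahnSeries.C c * (HahnSeries.C (σ c / c) * (s1 * y₂)) := by
      calc HahnSeries.C c * (HahnSeries.C ζ * (y₁ * s2))
          = HahnSeries.C ζ * (HahnSeries.C c * y₁) * s2 := by ring
        _ = HahnSeries.C ζ * (z * y₂) * s2 := by rw [h]
        _ = (HahnSeries.C ζ * z * s2) * y₂ := by ring
        _ = (HahnSeries.C (σ c) * s1) * y₂ := by rw [he']
        _ = HahnSeries.C c * (HahnSeries.C (σ c / c) * (s1 * y₂)) := by
            rw [map_div₀]
            field_simp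
    exact mul_left_cancel₀ hCc e1
  -- congruences
  have c1 : KronCongr A (y₁ * s2) (y₁ * y₂) :=
    KronCongr.mul h1.1 h1.1 hs2P.1 h2.1 (KronCongr.refl (A := A) y₁) (kron_inertia_congr hσ h2.1)
  have c2 : KronCongr A (s1 * y₂) (y₁ * y₂) :=
    KronCongr.mul hs1P.1 h1.1 h2.1 h2.1 (kron_inertia_congr hσ h1.1) (KronCongr.refl (A := A) y₂)
  obtain ⟨n, hn⟩ := (h1.mul h2).2
  have hPn : (y₁ * y₂).coeff n ∈ A := (h1.mul h2).1 n
  have hq : σ c / c ∈ A := tame_div_mem A hσ (Units.mk0 c hc)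
  have hco := congrArg (fun f : LaurentSeries L => f.coeff n) hkey
  simp only [rtk6de_C_mul_coeff] at hco
  -- `(σ c / c - ζ) P_n ∈ 𝔪`
  have hmem : (σ c / c - ζ) * (y₁ * y₂).coeff n ∈ A.nonunits := by
    have e : (σ c / c - ζ) * (y₁ * y₂).coeff n =
        ζ * ((y₁ * s2).coeff n - (y₁ * y₂).coeff n) -
          (σ c / c) * ((s1 * y₂).coeff n - (y₁ * y₂).coeff n) := by
      linear_combination (-1 : L) * hco
    rw [e, ValuationSubring.mem_nonunits_iff]
    refine Valuation.map_sub_lt _ ?_ ?_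
    · rw [map_mul]
      exact mul_lt_one_of_nonneg_of_lt_one_right ((A.valuation_le_one_iff _).2 hζ) zero_le
        ((ValuationSubring.mem_nonunits_iff A).1 (c1 n))
    · rw [map_mul]
      exact mul_lt_one_of_nonneg_of_lt_one_right ((A.valuation_le_one_iff _).2 hq) zero_le
        ((ValuationSubring.mem_nonunits_iff A).1 (c2 n))
  have hPv : A.valuation ((y₁ * y₂).coeff n) = 1 := by
    have h3 : A.valuation ((y₁ * y₂).coeff n) ≤ 1 := (A.valuation_le_one_iff _).2 hPn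
    rcases lt_or_eq_of_le h3 with h4 | h4
    · exact absurd ((ValuationSubring.mem_nonunits_iff A).2 h4) hn
    · exact h4
  rw [ValuationSubring.mem_nonunits_iff, map_mul, hPv, mul_one] at hmem
  exact (ValuationSubring.mem_nonunits_iff A).2 hmem

end Symbol

section Core

variable {L : Type*} [Field L] [Algebra ℚ L] [Algebra.IsAlgebraic ℚ L] (A : ValuationSubring L)

/-- a root of unity has valuation one -/
lemma rtk6de_val_root {η : L} {m : ℕ} (hm : m ≠ 0) (h : η ^ m = 1) : A.valuation η = 1 := by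
  have h1 : A.valuation η ^ m = 1 := by rw [← map_pow, h, map_one]
  rcases (pow_eq_one_iff (M := A.ValueGroup)).1 h1 with h2 | h2
  · exact h2
  · exact absurd h2 hm

/-- a nontrivial `p`-th root of unity is not congruent to `1` modulo a place over `r ≠ p` -/
theorem rtk6de_root_unit {r p : ℕ} (hr : r.Prime) (hA : A.LiesOverPrime r) (hp : p.Prime)
    (hrp : r ≠ p) {η : L} (hη : η ^ p = 1) (hη1 : η ≠ 1) : η - 1 ∉ A.nonunits := by
  intro hmem
  have hlt : A.valuation (η - 1) < 1 := (ValuationSubring.mem_nonunits_iff A).1 hmem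
  have hvη : A.valuation η = 1 := rtk6de_val_root A hp.ne_zero hη
  -- the geometric sum vanishes
  have hgeom : ∑ i ∈ Finset.range p, η ^ i = 0 := by
    have h1 : (η - 1) * ∑ i ∈ Finset.range p, η ^ i = 0 := by
      rw [mul_geom_sum, hη, sub_self]
    rcases mul_eq_zero.1 h1 with h2 | h2
    · exact absurd (sub_eq_zero.1 h2) hη1
    · exact h2
  -- each `η ^ i - 1` is small
  have hsmall : ∀ i : ℕ, A.valuation (η ^ i - 1) < 1 := by
    intro i
    have h1 : η ^ i - 1 = (η - 1) * ∑ j ∈ Finset.range i, η ^ j := (mul_geom_sum η i).symm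
    rw [h1, map_mul]
    have h2 : A.valuation (∑ j ∈ Finset.range i, η ^ j) ≤ 1 := by
      refine Valuation.map_sum_le _ fun j _ => ?_
      rw [map_pow, hvη, one_pow]
    calc A.valuation (η - 1) * A.valuation (∑ j ∈ Finset.range i, η ^ j)
        ≤ A.valuation (η - 1) * 1 := mul_le_mul_of_nonneg_left h2 zero_le
      _ < 1 := by rw [mul_one]; exact hlt
  have hsum : ∑ i ∈ Finset.range p, (η ^ i - 1) = -((p : ℕ) : L) := by
    rw [Finset.sum_sub_distrib, hgeom, Finset.sum_const, Finset.card_range, nsmul_eq_mul, mul_one,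
      zero_sub]
  have hlt2 : A.valuation (∑ i ∈ Finset.range p, (η ^ i - 1)) < 1 :=
    Valuation.map_sum_lt _ one_ne_zero fun i _ => hsmall i
  rw [hsum, Valuation.map_neg] at hlt2
  have hvp : A.valuation ((p : ℕ) : L) = 1 := by
    have hnd : ¬ (r : ℤ) ∣ (p : ℤ) := by
      intro h
      have h1 : r ∣ p := by exact_mod_cast h
      rcases (Nat.dvd_prime hp).1 h1 with h2 | h2
      · exact hr.one_lt.ne' h2
      · exact hrp h2
    have := tame_val_int A hr hA (p : ℤ) hnd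
    simpa using this
  rw [hvp] at hlt2
  exact lt_irrefl _ hlt2

/-- **Core**: `v(c)^d = v(r)^n₀`, `p ∣ d`, `θ_c(σ)^(d/p) ≠ 1` ⇒ `p ∤ n₀`. -/
theorem rtk6de_core {r p : ℕ} (hr : r.Prime) {σ : L ≃ₐ[ℚ] L} (hσ : σ ∈ A.inertiaSubgroupIn ℚ)
    {c : L} (hc : c ≠ 0) {d : ℕ} (hpd : p ∣ d) (hp0 : p ≠ 0) {n₀ : ℤ}
    (hval : A.valuation c ^ d = A.valuation ((r : ℕ) : L) ^ n₀)
    (hθ : ¬ tameTr A σ (c ^ (d / p))) : ¬ (p : ℤ) ∣ n₀ := by
  rintro ⟨n₁, rfl⟩
  apply hθ
  have hr0 : ((r : ℕ) : L) ≠ 0 := by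
    have : CharZero L := algebraRat.charZero L
    exact Nat.cast_ne_zero.2 hr.ne_zero
  have hce : c ^ (d / p) ≠ 0 := pow_ne_zero _ hc
  have hd : d = p * (d / p) := (Nat.mul_div_cancel' hpd).symm
  -- `v(c^e) = v(r)^n₁`
  have h1 : tameW A (Units.mk0 (c ^ (d / p)) hce) = tameW A (Units.mk0 ((r : ℕ) : L) hr0) ^ n₁ := by
    have h2 : (tameW A (Units.mk0 (c ^ (d / p)) hce) *
        (tameW A (Units.mk0 ((r : ℕ) : L) hr0) ^ n₁)⁻¹) ^ p = 1 := by
      rw [mul_pow, inv_pow, mul_inv_eq_one]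
      apply Units.ext
      rw [Units.val_pow_eq_pow_val, tameW_val, Units.val_mk0, Units.val_pow_eq_pow_val,
        Units.val_zpow_eq_zpow_val, tameW_val, Units.val_mk0, map_pow, ← pow_mul,
        mul_comm (d / p) p, ← hd, hval, ← zpow_natCast (_ ^ n₁), ← zpow_mul, mul_comm n₁]
    have h3 := tameW_torsionFree A _ p (Nat.pos_of_ne_zero hp0) h2
    exact mul_inv_eq_one.1 h3
  have hy : tameTr A σ ((Units.mk0 ((r : ℕ) : L) hr0 : Lˣ) : L) := by
    rw [Units.val_mk0, tameTr, map_natCast, div_self hr0, sub_self]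
    exact A.nonunits.zero_mem
  have := tameTr_of_val_zpow A hσ (Units.mk0 (c ^ (d / p)) hce) (Units.mk0 ((r : ℕ) : L) hr0)
    n₁ h1 hy
  rwa [Units.val_mk0] at this

/-- **D-E, abstract form.**  `z` a Laurent series with content `c`, `σ z = ζ z` for some `σ` in
the inertia group at `r`, `ζ ^ d = 1`, `ζ ^ (d / p) ≠ 1` (`p ∣ d`, `p ≠ r`), and
`v(c)^d = v(r)^n₀`.  Then `p ∤ n₀`. -/
theorem rtk6de_main {r p : ℕ} (hr : r.Prime) (hA : A.LiesOverPrime r) (hp : p.Prime)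
    (hrp : r ≠ p) {σ : L ≃ₐ[ℚ] L} (hσ : σ ∈ A.inertiaSubgroupIn ℚ)
    {z y₁ y₂ : LaurentSeries L} {c ζ : L} (hc : c ≠ 0)
    (h1 : KronPrim A y₁) (h2 : KronPrim A y₂) (h : z * y₂ = HahnSeries.C c * y₁)
    (hσz : coeffMap (σ : L →+* L) z = HahnSeries.C ζ * z)
    {d : ℕ} (hpd : p ∣ d) (hζd : ζ ^ d = 1) (hζ : ζ ^ (d / p) ≠ 1) {n₀ : ℤ}
    (hval : A.valuation c ^ d = A.valuation ((r : ℕ) : L) ^ n₀) : ¬ (p : ℤ) ∣ n₀ := by
  have hd0 : d ≠ 0 := by
    rintro rfl
    rw [Nat.zero_div, pow_zero] at hζ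
    exact hζ rfl
  have hvζ : A.valuation ζ = 1 := rtk6de_val_root A hd0 hζd
  have hζA : ζ ∈ A := (A.valuation_le_one_iff _).1 hvζ.le
  have hsym := rtk6de_symbol A hσ hc hζA h1 h2 h hσz
  have hq : σ c / c ∈ A := tame_div_mem A hσ (Units.mk0 c hc)
  refine rtk6de_core A hr hσ hc hpd hp.ne_zero hval ?_
  intro hT
  -- `(σ c / c)^e ≡ ζ^e`
  have hres : IsLocalRing.residue A ⟨σ c / c, hq⟩ = IsLocalRing.residue A ⟨ζ, hζA⟩ :=
    (tame_residue_eq_iff A hq hζA).2 hsym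
  have hqe : (σ c / c) ^ (d / p) ∈ A := A.pow_mem hq _
  have hζe : ζ ^ (d / p) ∈ A := A.pow_mem hζA _
  have hres' : IsLocalRing.residue A ⟨(σ c / c) ^ (d / p), hqe⟩ =
      IsLocalRing.residue A ⟨ζ ^ (d / p), hζe⟩ := by
    have e1 : (⟨(σ c / c) ^ (d / p), hqe⟩ : A) = ⟨σ c / c, hq⟩ ^ (d / p) := Subtype.ext rfl
    have e2 : (⟨ζ ^ (d / p), hζe⟩ : A) = ⟨ζ, hζA⟩ ^ (d / p) := Subtype.ext rfl
    rw [e1, e2, map_pow, map_pow, hres]
  have hcong : (σ c / c) ^ (d / p) - ζ ^ (d / p) ∈ A.nonunits :=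
    (tame_residue_eq_iff A hqe hζe).1 hres'
  -- `θ_{c^e}(σ) = 1`
  have hT' : (σ c / c) ^ (d / p) - 1 ∈ A.nonunits := by
    have e : σ (c ^ (d / p)) / c ^ (d / p) - 1 = (σ c / c) ^ (d / p) - 1 := by
      rw [map_pow, div_pow]
    rw [← e]
    exact hT
  have hη : (ζ ^ (d / p)) ^ p = 1 := by
    rw [← pow_mul, mul_comm, Nat.mul_div_cancel' hpd, hζd]
  refine rtk6de_root_unit A hr hA hp hrp hη hζ ?_
  have e : ζ ^ (d / p) - 1 = ((σ c / c) ^ (d / p) - 1) - ((σ c / c) ^ (d / p) - ζ ^ (d / p)) := by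
    ring
  rw [e, ValuationSubring.mem_nonunits_iff]
  exact Valuation.map_sub_lt _ ((ValuationSubring.mem_nonunits_iff A).1 hT')
    ((ValuationSubring.mem_nonunits_iff A).1 hcong)

/-- **D-E, abstract form with a unit.**  As `rtk6de_main`, with the hypothesis on the valuation
in the form `z ^ d = r ^ n₀ · ε`, `ε` of unit content. -/
theorem rtk6de_main' {r p : ℕ} (hr : r.Prime) (hA : A.LiesOverPrime r) (hp : p.Prime)
    (hrp : r ≠ p) {σ : L ≃ₐ[ℚ] L} (hσ : σ ∈ A.inertiaSubgroupIn ℚ)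
    {z y₁ y₂ : LaurentSeries L} {c ζ : L} (hz : z ≠ 0) (hc : c ≠ 0)
    (h1 : KronPrim A y₁) (h2 : KronPrim A y₂) (h : z * y₂ = HahnSeries.C c * y₁)
    (hσz : coeffMap (σ : L →+* L) z = HahnSeries.C ζ * z)
    {d : ℕ} (hpd : p ∣ d) (hζd : ζ ^ d = 1) (hζ : ζ ^ (d / p) ≠ 1) {n₀ : ℤ}
    {ε e₁ e₂ : LaurentSeries L} {c' : L} (hc' : A.valuation c' = 1)
    (he1 : KronPrim A e₁) (he2 : KronPrim A e₂) (he : ε * e₂ = HahnSeries.C c' * e₁)
    (hzd : z ^ d = HahnSeries.C (((r : ℕ) : L) ^ n₀) * ε) : ¬ (p : ℤ) ∣ n₀ := by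
  have hr0 : ((r : ℕ) : L) ≠ 0 := by
    have : CharZero L := algebraRat.charZero L
    exact Nat.cast_ne_zero.2 hr.ne_zero
  have hc'0 : c' ≠ 0 := by
    intro h0
    rw [h0, map_zero] at hc'
    exact zero_ne_one hc'
  refine rtk6de_main A hr hA hp hrp hσ hc h1 h2 h hσz hpd hζd hζ ?_
  have hA1 : z ^ d * y₂ ^ d = HahnSeries.C (c ^ d) * y₁ ^ d := by
    rw [← mul_pow, h, mul_pow, map_pow]
  have hA2 : z ^ d * e₂ = HahnSeries.C (((r : ℕ) : L) ^ n₀ * c') * e₁ := by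
    rw [hzd, map_mul, mul_assoc, he]
    ring
  have := rtk6de_content_unique A (pow_ne_zero d hz) (pow_ne_zero d hc)
    (mul_ne_zero (zpow_ne_zero _ hr0) hc'0) (h1.pow d) (h2.pow d) he1 he2 hA1 hA2
  rw [map_pow, map_mul, hc', mul_one, map_zpow₀] at this
  exact this

end Core

end Fermat.Agent.RT.K6

end


end ZBS15_002_3
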