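/- GENERATED FILE (helper35, build-time optimisation, NOTES/ZB.md): verbatim concatenation of the modules
   Fermat.Agent.ES1.ConjAut
   Fermat.Agent.ES1.ConjK
   Fermat.Agent.ES1.Conj
   Fermat.Agent.RT.K6.DISetup
   Fermat.Agent.RT.K6.DE
   Fermat.Agent.RT.K6.DE0
   Fermat.Agent.ES1.G1.MuDiam
   Fermat.Agent.RT.K7F.Plan
   Do not edit; do not import together with these modules. -/
import Mathlib
import Fermat.Agent.ZB.ES1_008
import Fermat.Agent.ZB.ES_012
import Fermat.Agent.ZB.S28_002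
import Fermat.Agent.ZB.UNIP_007
import Fermat.Agent.ZB.ES1_002
import Fermat.Agent.ZB.ES1_001
import Fermat.Agent.ZB.S15_002
import Fermat.Agent.ZB.ES1_007
import Fermat.Agent.ZB.TW_001
import Fermat.Agent.ZB.Common_003
import Fermat.Agent.ZB.UNIP_006
import Fermat.Agent.ZB.ES1_003
import Fermat.Agent.ZB.ES1_013
import Fermat.Agent.ZB.W1_002
import Fermat.Agent.ZB.W1_001
import Fermat.Agent.ZB.ES_020
import Fermat.Agent.ZB.ES_001

/-! ### bundled: `Fermat.Agent.ES1.ConjAut` -/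
section ZBES1_009_0

/-!
# ES₁ / F3-conj — abstract algebra: an automorphism from the conjugation principle

`F₀ ≤ F ≤ Ω` fields (over `K`), `F ≤ F₀(s)`, `s` integral over `F₀`.

* `es1cj_exists_poly` : every element of `F₀(s)` is `R(s)` for a polynomial `R` over `F₀`;
* `es1cj_exists_algHom` : if every polynomial relation `R(s) = 0` over `F₀` implies `R(s') = 0`
  (`s' ∈ F`), there is a `K`-algebra endomorphism `σ` of `F` with `σ (R(s)) = R(s')`;
* `es1cj_exists_algEquiv` : if moreover `s = R₀(s')` whenever `s'' = R₀(s)` for some `s'' ∈ F`,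
  then `σ` is an automorphism.
-/

set_option autoImplicit false

noncomputable section

namespace Fermat.Agent.ES1

open Polynomial IntermediateField

section Aut

variable {K Ω : Type*} [Field K] [Field Ω] [Algebra K Ω]
  (F₀ F : IntermediateField K Ω)

/-- every element of `F₀(s)` is a polynomial in `s` when `s` is integral over `F₀` -/
theorem es1cj_exists_poly (s : Ω)
    (hint : ∃ P : Polynomial F₀, P.Monic ∧ P.eval₂ F₀.val.toRingHom s = 0)
    {x : Ω} (hx : x ∈ IntermediateField.adjoin K ((F₀ : Set Ω) ∪ {s})) :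
    ∃ R : Polynomial F₀, R.eval₂ F₀.val.toRingHom s = x := by
  have h1 : x ∈ (IntermediateField.adjoin F₀ {s}).restrictScalars K := by
    rw [IntermediateField.restrictScalars_adjoin]
    exact hx
  have h2 : x ∈ IntermediateField.adjoin F₀ {s} := h1
  have halg : IsIntegral F₀ s := by
    obtain ⟨P, hP, hPs⟩ := hint
    exact ⟨P, hP, hPs⟩
  have h3 : x ∈ (IntermediateField.adjoin F₀ {s}).toSubalgebra := h2
  rw [IntermediateField.adjoin_simple_toSubalgebra_of_isAlgebraic halg.isAlgebraic,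
    Algebra.adjoin_singleton_eq_range_aeval] at h3
  obtain ⟨R, hR⟩ := h3
  exact ⟨R, hR⟩

theorem es1cj_eval_mem (h₀ : F₀ ≤ F) {t : Ω} (ht : t ∈ F) (R : Polynomial F₀) :
    R.eval₂ F₀.val.toRingHom t ∈ F := by
  rw [Polynomial.eval₂_eq_sum_range]
  exact sum_mem fun i _ => mul_mem (h₀ (R.coeff i).2) (pow_mem ht i)

/-- evaluation at a point of `F`, as a ring homomorphism into `F` -/
def es1cjEval (h₀ : F₀ ≤ F) (t : Ω) (ht : t ∈ F) : Polynomial F₀ →+* F :=
  (Polynomial.eval₂RingHom F₀.val.toRingHom t).codRestrict F (fun R => es1cj_eval_mem F₀ F h₀ ht R)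

theorem es1cjEval_coe (h₀ : F₀ ≤ F) (t : Ω) (ht : t ∈ F) (R : Polynomial F₀) :
    ((es1cjEval F₀ F h₀ t ht R : F) : Ω) = R.eval₂ F₀.val.toRingHom t := rfl

/-- the endomorphism `R(s) ↦ R(s')` -/
theorem es1cj_exists_algHom (h₀ : F₀ ≤ F) (s : Ω) (hs : s ∈ F)
    (hgen : F ≤ IntermediateField.adjoin K ((F₀ : Set Ω) ∪ {s}))
    (hint : ∃ P : Polynomial F₀, P.Monic ∧ P.eval₂ F₀.val.toRingHom s = 0)
    (s' : Ω) (hs' : s' ∈ F)
    (hcp : ∀ R : Polynomial F₀, R.eval₂ F₀.val.toRingHom s = 0 →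
      R.eval₂ F₀.val.toRingHom s' = 0) :
    ∃ σ : F →ₐ[K] F, ∀ (R : Polynomial F₀) (x : F),
      R.eval₂ F₀.val.toRingHom s = (x : Ω) → (σ x : Ω) = R.eval₂ F₀.val.toRingHom s' := by
  set φ := es1cjEval F₀ F h₀ s hs with hφ
  set φ' := es1cjEval F₀ F h₀ s' hs' with hφ'
  have hsurj : Function.Surjective φ := by
    intro x
    obtain ⟨R, hR⟩ := es1cj_exists_poly F₀ s hint (hgen x.2)
    exact ⟨R, Subtype.ext hR⟩
  have hker : RingHom.ker φ ≤ RingHom.ker φ' := by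
    intro R hR
    rw [RingHom.mem_ker] at hR ⊢
    have h1 : R.eval₂ F₀.val.toRingHom s = 0 := by
      have := congrArg (fun y : F => (y : Ω)) hR
      simpa [hφ, es1cjEval_coe] using this
    exact Subtype.ext (hcp R h1)
  set σ₀ : F →+* F := RingHom.liftOfSurjective φ hsurj ⟨φ', hker⟩ with hσ₀
  have hσφ : ∀ R, σ₀ (φ R) = φ' R := fun R =>
    RingHom.liftOfRightInverse_comp_apply φ _ _ ⟨φ', hker⟩ R
  have hcomm : ∀ k : K, σ₀ (algebraMap K F k) = algebraMap K F k := by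
    intro k
    have h1 : algebraMap K F k = φ (Polynomial.C (algebraMap K F₀ k)) := by
      apply Subtype.ext
      rw [hφ, es1cjEval_coe, Polynomial.eval₂_C]
      rfl
    have h2 : algebraMap K F k = φ' (Polynomial.C (algebraMap K F₀ k)) := by
      apply Subtype.ext
      rw [hφ', es1cjEval_coe, Polynomial.eval₂_C]
      rfl
    rw [h1, hσφ, ← h2, ← h1]
  refine ⟨{ σ₀ with commutes' := hcomm }, ?_⟩
  intro R x hx
  have hxφ : x = φ R := Subtype.ext hx.symm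
  show ((σ₀ x : F) : Ω) = _
  rw [hxφ, hσφ, hφ', es1cjEval_coe]

/-- the automorphism `R(s) ↦ R(s')` -/
theorem es1cj_exists_algEquiv (h₀ : F₀ ≤ F) (s : Ω) (hs : s ∈ F)
    (hgen : F ≤ IntermediateField.adjoin K ((F₀ : Set Ω) ∪ {s}))
    (hint : ∃ P : Polynomial F₀, P.Monic ∧ P.eval₂ F₀.val.toRingHom s = 0)
    (s' s'' : Ω) (hs' : s' ∈ F) (hs'' : s'' ∈ F)
    (hcp : ∀ R : Polynomial F₀, R.eval₂ F₀.val.toRingHom s = 0 →
      R.eval₂ F₀.val.toRingHom s' = 0)
    (hback : ∀ R : Polynomial F₀, R.eval₂ F₀.val.toRingHom s = s'' →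
      R.eval₂ F₀.val.toRingHom s' = s) :
    ∃ σ : F ≃ₐ[K] F, ∀ (R : Polynomial F₀) (x : F),
      R.eval₂ F₀.val.toRingHom s = (x : Ω) → (σ x : Ω) = R.eval₂ F₀.val.toRingHom s' := by
  obtain ⟨σ, hσ⟩ := es1cj_exists_algHom F₀ F h₀ s hs hgen hint s' hs' hcp
  have hinj : Function.Injective σ := σ.toRingHom.injective
  have hsurj : Function.Surjective σ := by
    intro y
    obtain ⟨R, hR⟩ := es1cj_exists_poly F₀ s hint (hgen y.2)
    obtain ⟨R₀, hR₀⟩ := es1cj_exists_poly F₀ s hint (hgen hs'')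
    have hcomp : ∀ t : Ω, (R.comp R₀).eval₂ F₀.val.toRingHom t =
        R.eval₂ F₀.val.toRingHom (R₀.eval₂ F₀.val.toRingHom t) := by
      intro t
      exact Polynomial.eval₂_comp _
    refine ⟨⟨(R.comp R₀).eval₂ F₀.val.toRingHom s, es1cj_eval_mem F₀ F h₀ hs _⟩, ?_⟩
    apply Subtype.ext
    rw [hσ (R.comp R₀) _ rfl, hcomp, hback R₀ hR₀, hR]
  exact ⟨AlgEquiv.ofBijective σ ⟨hinj, hsurj⟩, fun R x hx => hσ R x hx⟩

end Aut

end Fermat.Agent.ES1

end
end ZBES1_009_0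

/-! ### bundled: `Fermat.Agent.ES1.ConjK` -/
section ZBES1_009_1

/-!
# ES₁ / F3-conj — descent from `ℂ` to a subfield `K`

`ι : K →+* ℂ` any field embedding (exists when `K` is algebraic over `ℚ`).

* `es1cj_full_descent` : `coeffMap ι x ∈ F₀^ℂ ⇒ x ∈ F₀^K` (`F₀ = modularFunctionFieldFullC · L`);
* `es1cj_gen_descent`  : the same for `F₀(S_1)`;
* `es1cj_gen_K`, `es1cj_poly_K`, `es1cj_cp_K`, `es1cj_cp_K_zero` : (gen), (poly) and the
  conjugation principle over `K`.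
-/

set_option autoImplicit false
set_option linter.unusedSectionVars false
set_option linter.style.haveILetI false

noncomputable section

open Polynomial ModularCurve

namespace Fermat.Agent.ES1

open Fermat.Agent.ES

/-- the field `F₀(S_{M,H,1})` -/
def es1cjGen (k : Type*) [Field k] (L M : ℕ) (H : Subgroup (ZMod M)ˣ) :
    IntermediateField k (LaurentSeries k) :=
  IntermediateField.adjoin k
    ((modularFunctionFieldFullC k L : Set (LaurentSeries k)) ∪ {sS k M H 1})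

section BaseChange

variable (k : Type*) [Field k] [Algebra ℚ k] (L M : ℕ) (H : Subgroup (ZMod M)ˣ)

theorem es1cj_coeffEmb_mem_gen {x : LaurentSeries ℚ} (hx : x ∈ es1cjGen ℚ L M H) :
    coeffEmb k x ∈ es1cjGen k L M H := by
  unfold es1cjGen at hx
  induction hx using IntermediateField.adjoin_induction with
  | mem x hx =>
    rcases hx with hx | hx
    · exact IntermediateField.subset_adjoin k _
        (Or.inl (Fermat.Agent.ES.G2.hdeg_coeffEmb_mem_full k L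
          (by rw [← modularFunctionFieldFullC_rat]; exact hx)))
    · rw [Set.mem_singleton_iff] at hx
      rw [hx]
      have h1 : coeffEmb k (sS ℚ M H 1) = sS k M H 1 :=
        es1f_coeffMap_sS (algebraMap ℚ k) M H 1
      rw [h1]
      exact IntermediateField.subset_adjoin k _ (Or.inr rfl)
  | algebraMap r =>
    rw [Fermat.Agent.ES.G2.hdeg_coeffEmb_algebraMap]
    exact IntermediateField.algebraMap_mem _ _
  | add x y _ _ hx hy =>
    rw [map_add]
    exact add_mem hx hy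
  | inv x _ hx =>
    rw [map_inv₀]
    exact inv_mem hx
  | mul x y _ _ hx hy =>
    rw [map_mul]
    exact mul_mem hx hy

theorem es1cj_baseChange_gen :
    laurentBaseChange k (es1cjGen ℚ L M H) = es1cjGen k L M H := by
  apply le_antisymm
  · rw [laurentBaseChange, IntermediateField.adjoin_le_iff]
    rintro _ ⟨x, hx, rfl⟩
    exact es1cj_coeffEmb_mem_gen k L M H hx
  · rw [es1cjGen, IntermediateField.adjoin_le_iff]
    rintro x (hx | hx)
    · have hx' : x ∈ laurentBaseChange k (modularFunctionFieldFull L) := by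
        rw [Fermat.Agent.ES.G2.hdeg_laurentBaseChange_full k L]
        exact hx
      refine IntermediateField.adjoin.mono k _ _ (Set.image_mono ?_) hx'
      intro y hy
      exact IntermediateField.subset_adjoin ℚ _
        (Or.inl (by rw [modularFunctionFieldFullC_rat]; exact hy))
    · rw [Set.mem_singleton_iff] at hx
      rw [hx]
      have h1 : coeffEmb k (sS ℚ M H 1) = sS k M H 1 :=
        es1f_coeffMap_sS (algebraMap ℚ k) M H 1
      rw [← h1]
      exact coeffEmb_mem_laurentBaseChange k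
        (IntermediateField.subset_adjoin ℚ _ (Or.inr rfl))

end BaseChange

section Descent

variable {K : Type} [Field K] [CharZero K] (ι : K →+* ℂ) (L M : ℕ) (H : Subgroup (ZMod M)ˣ)

theorem es1cj_full_descent {x : LaurentSeries K}
    (h : coeffMap ι x ∈ modularFunctionFieldFullC ℂ L) : x ∈ modularFunctionFieldFullC K L := by
  letI : Algebra K ℂ := ι.toAlgebra
  rw [← Fermat.Agent.ES.G2.hdeg_laurentBaseChange_full ℂ L] at h
  rw [← Fermat.Agent.ES.G2.hdeg_laurentBaseChange_full K L]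
  exact Fermat.Agent.ES.DescentInj.mem_laurentBaseChange_of_coeffMap_mem (K := K) (L := ℂ) _ h

theorem es1cj_gen_descent {x : LaurentSeries K}
    (h : coeffMap ι x ∈ es1cjGen ℂ L M H) : x ∈ es1cjGen K L M H := by
  letI : Algebra K ℂ := ι.toAlgebra
  rw [← es1cj_baseChange_gen ℂ L M H] at h
  rw [← es1cj_baseChange_gen K L M H]
  exact Fermat.Agent.ES.DescentInj.mem_laurentBaseChange_of_coeffMap_mem (K := K) (L := ℂ) _ h

/-- the restriction of `coeffMap ι` to the `Γ₀(L)`-fields -/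
def es1cjRes : modularFunctionFieldFullC K L →+* modularFunctionFieldFullC ℂ L :=
  ((coeffMap ι).comp (modularFunctionFieldFullC K L).val.toRingHom).codRestrict
    (modularFunctionFieldFullC ℂ L) (fun x => Fermat.Agent.INJ.nf_coeffMap_mem_fullC ι L x.2)

theorem es1cj_coeffMap_eval₂ (P : Polynomial (modularFunctionFieldFullC K L))
    (t : LaurentSeries K) :
    coeffMap ι (P.eval₂ (modularFunctionFieldFullC K L).val.toRingHom t) =
      (P.map (es1cjRes ι L)).eval₂ (modularFunctionFieldFullC ℂ L).val.toRingHom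
        (coeffMap ι t) := by
  rw [Polynomial.hom_eval₂, Polynomial.eval₂_map]
  rfl

end Descent

section Main

variable {K : Type} [Field K] [CharZero K] (ι : K →+* ℂ)
  {L M : ℕ} [NeZero L] (hML : M ∣ L) (H : Subgroup (ZMod M)ˣ) {m : ℕ}
  {a : Fin (m + 1) → (ZMod M)ˣ} (hrep : IsRepFam H a)

include ι hML hrep in
/-- **(gen) over `K`.** -/
theorem es1cj_gen_K : fieldC K L M H ≤ es1cjGen K L M H := by
  rw [fieldC, IntermediateField.adjoin_le_iff]
  rintro x (hx | ⟨e, he0, b, he, rfl⟩)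
  · exact IntermediateField.subset_adjoin K _ (Or.inl (IntermediateField.subset_adjoin K _ hx))
  · haveI := he0
    apply es1cj_gen_descent ι
    rw [es1f_coeffMap_qExpand_sS]
    exact es1cj_gen_C hML H hrep (qExpand_sS_mem ℂ L M H he b)

include ι hML hrep in
/-- **(poly) over `K`.** -/
theorem es1cj_poly_K :
    ∃ P : Polynomial (modularFunctionFieldFullC K L), P.Monic ∧ P.natDegree = m + 1 ∧
      Polynomial.eval₂ (modularFunctionFieldFullC K L).val.toRingHom (sS K M H 1) P = 0 := by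
  classical
  set Q : Polynomial (LaurentSeries K) := es1cjProd (fun i => sS K M H (a i)) with hQ
  have hmap : Q.map (coeffMap ι) = es1cjProd (fun i => sS ℂ M H (a i)) := by
    rw [hQ, es1cjProd_map]
    congr 1
    funext i
    exact es1f_coeffMap_sS ι M H (a i)
  have hcoef : ∀ j, Q.coeff j ∈ modularFunctionFieldFullC K L := by
    intro j
    apply es1cj_full_descent ι
    rw [← Polynomial.coeff_map, hmap]
    exact es1cj_poly_C hML H hrep j
  have hlift : Q ∈ Polynomial.lifts (modularFunctionFieldFullC K L).val.toRingHom :=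
    (Polynomial.lifts_iff_coeff_lifts Q).2 fun j => ⟨⟨Q.coeff j, hcoef j⟩, rfl⟩
  obtain ⟨P, hPmap, hPdeg, hPmonic⟩ :=
    Polynomial.lifts_and_natDegree_eq_and_monic hlift (es1cjProd_monic _)
  refine ⟨P, hPmonic, ?_, ?_⟩
  · rw [hPdeg, hQ, es1cjProd_natDegree, Fintype.card_fin]
  · rw [← Polynomial.eval_map, hPmap, hQ]
    have h0 := es1cjProd_eval (fun i => sS K M H (a i)) 0
    simp only [hrep.zero] at h0
    exact h0

include ι hML in
/-- **The conjugation principle over `K`.** -/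
theorem es1cj_cp_K (c : (ZMod M)ˣ) (P : Polynomial (modularFunctionFieldFullC K L))
    (e₁ : ℕ) [NeZero e₁] (he₁ : e₁ * M ∣ L) (b₁ : (ZMod M)ˣ)
    (e₂ : ℕ) [NeZero e₂] (he₂ : e₂ * M ∣ L) (b₂ : (ZMod M)ˣ)
    (h : P.eval₂ (modularFunctionFieldFullC K L).val.toRingHom (qExpand K e₁ (sS K M H b₁)) =
      qExpand K e₂ (sS K M H b₂)) :
    P.eval₂ (modularFunctionFieldFullC K L).val.toRingHom (qExpand K e₁ (sS K M H (b₁ * c))) =
      qExpand K e₂ (sS K M H (b₂ * c)) := by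
  apply Fermat.Agent.ES.DescentInj.coeffMap_inj ι
  rw [es1cj_coeffMap_eval₂, es1f_coeffMap_qExpand_sS, es1f_coeffMap_qExpand_sS]
  apply es1cj_cp_C hML H c (P.map (es1cjRes ι L)) e₁ he₁ b₁ e₂ he₂ b₂
  rw [← es1f_coeffMap_qExpand_sS ι, ← es1f_coeffMap_qExpand_sS ι, ← es1cj_coeffMap_eval₂, h]

include ι hML in
/-- **The conjugation principle over `K`**, for relations `P(S_b(q^e)) = 0`. -/
theorem es1cj_cp_K_zero (c : (ZMod M)ˣ) (P : Polynomial (modularFunctionFieldFullC K L))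
    (e₁ : ℕ) [NeZero e₁] (he₁ : e₁ * M ∣ L) (b₁ : (ZMod M)ˣ)
    (h : P.eval₂ (modularFunctionFieldFullC K L).val.toRingHom (qExpand K e₁ (sS K M H b₁)) =
      0) :
    P.eval₂ (modularFunctionFieldFullC K L).val.toRingHom (qExpand K e₁ (sS K M H (b₁ * c))) =
      0 := by
  apply Fermat.Agent.ES.DescentInj.coeffMap_inj ι
  rw [es1cj_coeffMap_eval₂, es1f_coeffMap_qExpand_sS, map_zero]
  apply es1cj_cp_C_zero hML H c (P.map (es1cjRes ι L)) e₁ he₁ b₁
  rw [← es1f_coeffMap_qExpand_sS ι, ← es1cj_coeffMap_eval₂, h, map_zero]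

end Main

end Fermat.Agent.ES1

end
end ZBES1_009_1

/-! ### bundled: `Fermat.Agent.ES1.Conj` -/
section ZBES1_009_2

/-!
# ES₁ / F3-conj — `stmtDiamondH : StmtDiamondH`

The diamond automorphisms of `fieldC K L M H` over the `Γ₀(L)`-field
`F₀ = modularFunctionFieldFullC K L`, for every field `K` of characteristic `0` algebraic over `ℚ`
(interface: `ES1/ConjPlan.lean`).

* over `ℂ` (`ES1/ConjC.lean`): `S_{M,H,b}(q^e)` is the expansion of the modular function
  `es1rcThetaE e H b` for `Γ = gammaH L M H ◁ Γ₀(L)`; Lagrange interpolation in the tower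
  `Γ ≤ Γ₀(L)` (generation, norm polynomial) and the conjugation principle `f ↦ f ∘ γ`;
* descent `ℂ → K` (`ES1/ConjK.lean`);
* the automorphism `R(S_1) ↦ R(S_c)` (`ES1/ConjAut.lean`).
-/

set_option autoImplicit false
set_option linter.unusedSectionVars false
set_option linter.style.haveILetI false

noncomputable section

open Polynomial ModularCurve

namespace Fermat.Agent.ES1

/-- an embedding into `ℂ` of a field algebraic over `ℚ` -/
def es1cjIota (K : Type) [Field K] [CharZero K] [Algebra.IsAlgebraic ℚ K] : K →+* ℂ :=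
  (IsAlgClosed.lift (R := ℚ) (S := K) (M := ℂ)).toRingHom

section Aut

variable {K : Type} [Field K] [CharZero K] (ι : K →+* ℂ)
  {L M : ℕ} [NeZero L] (hML : M ∣ L) (H : Subgroup (ZMod M)ˣ) {m : ℕ}
  {a : Fin (m + 1) → (ZMod M)ˣ} (hrep : IsRepFam H a)

include hML in
theorem es1cj_sS_mem (b : (ZMod M)ˣ) : sS K M H b ∈ fieldC K L M H := by
  have h := qExpand_sS_mem K L M H (es1cj_one_mul_dvd hML) b
  rwa [qExpand_one_apply] at h

include ι hML hrep in
/-- **(aut) over `K`.** -/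
theorem es1cj_aut_K (c : (ZMod M)ˣ) :
    ∃ σ : fieldC K L M H ≃ₐ[K] fieldC K L M H,
      (∀ f : fieldC K L M H, (f : LaurentSeries K) ∈ modularFunctionFieldFullC K L → σ f = f) ∧
      ∀ (e : ℕ) [NeZero e] (he : e * M ∣ L) (b : (ZMod M)ˣ),
        ((σ ⟨qExpand K e (sS K M H b), qExpand_sS_mem K L M H he b⟩ : fieldC K L M H) :
          LaurentSeries K) = qExpand K e (sS K M H (b * c)) := by
  have h1M := es1cj_one_mul_dvd hML
  have hgen : fieldC K L M H ≤ IntermediateField.adjoin K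
      ((modularFunctionFieldFullC K L : Set (LaurentSeries K)) ∪ {sS K M H 1}) :=
    es1cj_gen_K ι hML H hrep
  have hint : ∃ P : Polynomial (modularFunctionFieldFullC K L), P.Monic ∧
      P.eval₂ (modularFunctionFieldFullC K L).val.toRingHom (sS K M H 1) = 0 := by
    obtain ⟨P, hP, -, hP0⟩ := es1cj_poly_K ι hML H hrep
    exact ⟨P, hP, hP0⟩
  -- the conjugation principle at `e₁ = 1`, `b₁ = 1`
  have hcp : ∀ (R : Polynomial (modularFunctionFieldFullC K L)) (e : ℕ) [NeZero e]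
      (_ : e * M ∣ L) (b : (ZMod M)ˣ),
      R.eval₂ (modularFunctionFieldFullC K L).val.toRingHom (sS K M H 1) =
        qExpand K e (sS K M H b) →
      R.eval₂ (modularFunctionFieldFullC K L).val.toRingHom (sS K M H c) =
        qExpand K e (sS K M H (b * c)) := by
    intro R e _ he b h
    have h' := es1cj_cp_K ι hML H c R 1 h1M 1 e he b (by rw [qExpand_one_apply]; exact h)
    rwa [qExpand_one_apply, one_mul] at h'
  have hcp0 : ∀ R : Polynomial (modularFunctionFieldFullC K L),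
      R.eval₂ (modularFunctionFieldFullC K L).val.toRingHom (sS K M H 1) = 0 →
      R.eval₂ (modularFunctionFieldFullC K L).val.toRingHom (sS K M H c) = 0 := by
    intro R h
    have h' := es1cj_cp_K_zero ι hML H c R 1 h1M 1 (by rw [qExpand_one_apply]; exact h)
    rwa [qExpand_one_apply, one_mul] at h'
  have hback : ∀ R : Polynomial (modularFunctionFieldFullC K L),
      R.eval₂ (modularFunctionFieldFullC K L).val.toRingHom (sS K M H 1) = sS K M H c⁻¹ →
      R.eval₂ (modularFunctionFieldFullC K L).val.toRingHom (sS K M H c) = sS K M H 1 := by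
    intro R h
    have h' := hcp R 1 h1M c⁻¹ (by rw [qExpand_one_apply]; exact h)
    rwa [qExpand_one_apply, inv_mul_cancel] at h'
  obtain ⟨σ, hσ⟩ := es1cj_exists_algEquiv (modularFunctionFieldFullC K L) (fieldC K L M H)
    (full_le_fieldC K L M H) (sS K M H 1) (es1cj_sS_mem hML H 1) hgen hint
    (sS K M H c) (sS K M H c⁻¹) (es1cj_sS_mem hML H c) (es1cj_sS_mem hML H c⁻¹) hcp0 hback
  refine ⟨σ, ?_, ?_⟩
  · intro f hf
    apply Subtype.ext
    have h := hσ (Polynomial.C ⟨(f : LaurentSeries K), hf⟩) f (by rw [Polynomial.eval₂_C]; rfl)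
    rw [h, Polynomial.eval₂_C]
    rfl
  · intro e _ he b
    obtain ⟨R, hR⟩ := es1cj_exists_poly (modularFunctionFieldFullC K L) (sS K M H 1) hint
      (hgen (qExpand_sS_mem K L M H he b))
    rw [hσ R ⟨qExpand K e (sS K M H b), qExpand_sS_mem K L M H he b⟩ hR]
    exact hcp R e he b hR

end Aut

/-- **(F3-conj)** -/
theorem stmtDiamondH : StmtDiamondH := by
  intro K _ _ _ L M H m a hL hML hrep
  haveI : NeZero L := ⟨hL⟩
  exact ⟨es1cj_gen_K (es1cjIota K) hML H hrep, es1cj_poly_K (es1cjIota K) hML H hrep,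
    fun c => es1cj_aut_K (es1cjIota K) hML H hrep c⟩

end Fermat.Agent.ES1

end
end ZBES1_009_2

/-! ### bundled: `Fermat.Agent.RT.K6.DISetup` -/
section ZBES1_009_3
/-
K-machine, piece K6, piece **D-I** (helper82), part 1: the SET-UP of the concrete setting for the
`Γ_H`-levels.  Fork of `UNIP/MGSetup.lean`, `UNIP/MGPlaces.lean` (MG-2), `UNIP/MGGalAct.lean`,
`UNIP/MGConcrete.lean` with `modularFunctionFieldFullC K N` replaced by `fieldC K L M H`.

GENERIC (any field `K`):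
* `rtk6diCoeffHom f : fieldC K L M H →+* fieldC K' L M H`  (coefficientwise map of `f : K →+* K'`);
* `rtk6diRingAut s`, `rtk6diGalGen : (K ≃+* K) →* SemilinearAut K (fieldC K L M H)`;
* `rtk6diIncl : modularFunctionFieldFullC K L →+* fieldC K L M H` (the `Γ₀(L)`-field);
* `rtk6diJ : fieldC K L M H` (the coordinate `j`), `rtk6di_transcendental_J`, `rtk6di_hcl`;
* `rtk6di_finiteDimensional` (`K` of characteristic `0`, algebraic over `ℚ`, `M ∣ L ≠ 0`);
* `rtk6di_exists_diamond` : the diamonds `δ_c` of `fieldC K L M H` (from `ES1.stmtDiamondH`).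

CONCRETE (`A` a valuation subring of `ℚ̄`, `K₁ ⊆ ℚ̄`, `E′ = mgcE A K₁`, `A′ = mgcA A K₁`):
* `rtk6diF A K₁ L M H = fieldC ↥E′ L M H`, `rtk6diT` (`= j`), fast instances;
* `rtk6diAct σ hσ`, `rtk6diGal σ hσ : SemilinearAut ↥E′ ↥F′`, `nfEmbH_rtk6diAct`;
* `rtk6di_exists_descent` : every element of `fieldBar L M H` is defined over `E′` for `K₁` large.
-/

set_option autoImplicit false
set_option linter.style.haveILetI false
set_option linter.unusedSectionVars false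
set_option linter.unusedVariables false

noncomputable section

namespace Fermat.Agent.RT.K6

open ModularCurve AlgebraicCurve Fermat.Agent.ES Fermat.Agent.ES.G2 Fermat.Agent.INJ
open Fermat.Agent.UNIP Fermat.Agent.ES1 Fermat.Agent.ES1.G2 IntermediateField

/-! ### Generic: coefficient maps -/

section Generic

variable {K K' K'' : Type*} [Field K] [Field K'] [Field K'']
  (L M : ℕ) (H : Subgroup (ZMod M)ˣ)

/-- The coefficientwise map `fieldC K L M H → fieldC K' L M H` of a ring homomorphism. -/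
def rtk6diCoeffHom (f : K →+* K') : fieldC K L M H →+* fieldC K' L M H where
  toFun x := ⟨coeffMap f x, es1f_coeffMap_mem_fieldC f L M H x.2⟩
  map_one' := by ext1; simp
  map_mul' x y := by ext1; simp
  map_zero' := by ext1; simp
  map_add' x y := by ext1; simp

@[simp]
theorem rtk6diCoeffHom_coe (f : K →+* K') (x : fieldC K L M H) :
    ((rtk6diCoeffHom L M H f x : fieldC K' L M H) : LaurentSeries K')
      = coeffMap f (x : LaurentSeries K) := rfl

theorem rtk6diCoeffHom_comp (g : K' →+* K'') (f : K →+* K') (x : fieldC K L M H) :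
    rtk6diCoeffHom L M H g (rtk6diCoeffHom L M H f x) = rtk6diCoeffHom L M H (g.comp f) x :=
  Subtype.ext (coeffMap_coeffMap g f _)

theorem rtk6diCoeffHom_congr {f g : K →+* K'} (h : ∀ a, f a = g a) (x : fieldC K L M H) :
    rtk6diCoeffHom L M H f x = rtk6diCoeffHom L M H g x :=
  Subtype.ext (coeffMap_congr (RingHom.ext h) _)

theorem rtk6diCoeffHom_id (x : fieldC K L M H) :
    rtk6diCoeffHom L M H (RingHom.id K) x = x :=
  Subtype.ext (coeffMap_id _)

theorem rtk6diCoeffHom_injective (f : K →+* K') :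
    Function.Injective (rtk6diCoeffHom L M H f) := (rtk6diCoeffHom L M H f).injective

theorem rtk6diCoeffHom_algebraMap (f : K →+* K') (c : K) :
    rtk6diCoeffHom L M H f (algebraMap K (fieldC K L M H) c)
      = algebraMap K' (fieldC K' L M H) (f c) :=
  Subtype.ext (nf_coeffMap_algebraMap f c)

/-- The coefficientwise action of a ring automorphism of `K` on `fieldC K L M H`. -/
def rtk6diRingAut (s : K ≃+* K) : fieldC K L M H ≃+* fieldC K L M H where
  toFun := rtk6diCoeffHom L M H (s : K →+* K)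
  invFun := rtk6diCoeffHom L M H (s.symm : K →+* K)
  left_inv x := by
    rw [rtk6diCoeffHom_comp,
      rtk6diCoeffHom_congr L M H (g := RingHom.id K) (fun a => s.symm_apply_apply a),
      rtk6diCoeffHom_id]
  right_inv x := by
    rw [rtk6diCoeffHom_comp,
      rtk6diCoeffHom_congr L M H (g := RingHom.id K) (fun a => s.apply_symm_apply a),
      rtk6diCoeffHom_id]
  map_mul' x y := map_mul _ x y
  map_add' x y := map_add _ x y

@[simp]
theorem coe_rtk6diRingAut_apply (s : K ≃+* K) (x : fieldC K L M H) :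
    ((rtk6diRingAut L M H s x : fieldC K L M H) : LaurentSeries K)
      = coeffMap (s : K →+* K) (x : LaurentSeries K) := rfl

theorem rtk6diRingAut_algebraMap (s : K ≃+* K) (a : K) :
    rtk6diRingAut L M H s (algebraMap K (fieldC K L M H) a)
      = algebraMap K (fieldC K L M H) (s a) :=
  rtk6diCoeffHom_algebraMap L M H (s : K →+* K) a

/-- The semilinear action of `Aut(K)` on `fieldC K L M H`. -/
def rtk6diGalGen : (K ≃+* K) →* SemilinearAut K (fieldC K L M H) where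
  toFun s := ⟨(rtk6diRingAut L M H s, s), fun a => rtk6diRingAut_algebraMap L M H s a⟩
  map_one' := by
    refine Subtype.ext (Prod.ext (RingEquiv.ext fun x => Subtype.ext ?_) rfl)
    show coeffMap ((1 : K ≃+* K) : K →+* K) (x : LaurentSeries K) = (x : LaurentSeries K)
    rw [show ((1 : K ≃+* K) : K →+* K) = RingHom.id K from RingHom.ext fun _ => rfl,
      coeffMap_id]
  map_mul' s t := by
    refine Subtype.ext (Prod.ext (RingEquiv.ext fun x => Subtype.ext ?_) rfl)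
    show coeffMap ((s * t : K ≃+* K) : K →+* K) (x : LaurentSeries K)
      = coeffMap (s : K →+* K) (coeffMap (t : K →+* K) (x : LaurentSeries K))
    rw [coeffMap_coeffMap]
    exact coeffMap_congr (RingHom.ext fun _ => rfl) _

@[simp]
theorem toRingAut_rtk6diGalGen (s : K ≃+* K) :
    SemilinearAut.toRingAut (rtk6diGalGen L M H s) = rtk6diRingAut L M H s := rfl

@[simp]
theorem baseAut_rtk6diGalGen (s : K ≃+* K) :
    SemilinearAut.baseAut (rtk6diGalGen L M H s) = s := rfl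

theorem coe_rtk6diGalGen_smul (s : K ≃+* K) (x : fieldC K L M H) :
    ((rtk6diGalGen L M H s • x : fieldC K L M H) : LaurentSeries K)
      = coeffMap (s : K →+* K) (x : LaurentSeries K) := rfl

/-- (kernel-friendly) the value of a re-packed element of a subtype -/
theorem rtk6di_val_mk {α : Type*} {P Q : α → Prop} (h : ∀ a, P a → Q a) (x : Subtype P) :
    ((⟨x.1, h x.1 x.2⟩ : Subtype Q) : α) = x.1 := rfl

/-- the inclusion of the `Γ₀(L)`-field -/
def rtk6diIncl : modularFunctionFieldFullC K L →+* fieldC K L M H where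
  toFun x := ⟨(x : LaurentSeries K), full_le_fieldC K L M H x.2⟩
  map_one' := Subtype.ext rfl
  map_mul' _ _ := Subtype.ext rfl
  map_zero' := Subtype.ext rfl
  map_add' _ _ := Subtype.ext rfl

@[simp]
theorem rtk6diIncl_coe (x : modularFunctionFieldFullC K L) :
    ((rtk6diIncl L M H x : fieldC K L M H) : LaurentSeries K) = (x : LaurentSeries K) :=
  rtk6di_val_mk (fun _ ha => full_le_fieldC K L M H ha) x

theorem rtk6diIncl_injective : Function.Injective (rtk6diIncl (K := K) L M H) :=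
  (rtk6diIncl L M H).injective

theorem rtk6diIncl_algebraMap (c : K) :
    rtk6diIncl L M H (algebraMap K (modularFunctionFieldFullC K L) c)
      = algebraMap K (fieldC K L M H) c :=
  Subtype.ext rfl

theorem rtk6diIncl_coeffHom (f : K →+* K') (x : modularFunctionFieldFullC K L) :
    rtk6diIncl L M H (mgaCoeffHom f L x) = rtk6diCoeffHom L M H f (rtk6diIncl L M H x) :=
  Subtype.ext (by rw [rtk6diIncl_coe, mgaCoeffHom_coe, rtk6diCoeffHom_coe, rtk6diIncl_coe])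

variable (K)

/-- the coordinate `j` of `fieldC K L M H` -/
def rtk6diJ : fieldC K L M H := rtk6diIncl L M H (bgJ K L)

@[simp]
theorem rtk6diJ_coe : ((rtk6diJ K L M H : fieldC K L M H) : LaurentSeries K) = jqModC K := rfl

theorem rtk6diCoeffHom_J (f : K →+* K') :
    rtk6diCoeffHom L M H f (rtk6diJ K L M H) = rtk6diJ K' L M H :=
  Subtype.ext (coeffMap_jqModC f)

theorem rtk6di_transcendental_J : Transcendental K (rtk6diJ K L M H) :=
  bgConst_transcendental _ (rtk6diJ K L M H) (by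
    show (jqModC K).order ≠ 0
    rw [bgConst_order_jqModC]; norm_num)

theorem rtk6di_hcl_gen (x : fieldC K L M H) (hx : IsAlgebraic K x) :
    x ∈ (algebraMap K (fieldC K L M H)).range :=
  bgConst_mem_range_of_isAlgebraic (fieldC K L M H) x hx

end Generic

/-! ### Generic, characteristic zero: finiteness over `K(j)` and the diamonds -/

section CharZero

variable (K : Type) [Field K] [CharZero K] [Algebra.IsAlgebraic ℚ K]
  {L M : ℕ} (H : Subgroup (ZMod M)ˣ)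

/-- `fieldC K L M H` is finite over `K(j)`. -/
theorem rtk6di_finiteDimensional_gen (hL : L ≠ 0) (hML : M ∣ L) :
    FiniteDimensional K⟮rtk6diJ K L M H⟯ (fieldC K L M H) := by
  haveI : NeZero L := ⟨hL⟩
  have hM0 : M ≠ 0 := fun h => hL (by rw [h] at hML; exact Nat.eq_zero_of_zero_dvd hML)
  obtain ⟨m, a, ha⟩ := exists_isRepFam hM0 H
  obtain ⟨hgen, ⟨P, hPm, -, hP0⟩, -⟩ := stmtDiamondH K L M H a hL hML ha
  exact injH1_fin_of_gen (modularFunctionFieldFullC K L) (fieldC K L M H)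
    (full_le_fieldC K L M H) _ hgen (injH1_isIntegral_of_eval₂ _ _ ⟨P, hPm, hP0⟩) _
    (jqModC_mem_full K L) (bgFin_finiteDimensional_full (E := K) (N := L))

/-- the diamonds of `fieldC K L M H` -/
theorem rtk6di_exists_diamond (hL : L ≠ 0) (hML : M ∣ L) (c : (ZMod M)ˣ) :
    ∃ δ : fieldC K L M H ≃ₐ[K] fieldC K L M H,
      (∀ x : modularFunctionFieldFullC K L, δ (rtk6diIncl L M H x) = rtk6diIncl L M H x) ∧
      ∀ (e : ℕ) [NeZero e] (he : e * M ∣ L) (b : (ZMod M)ˣ),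
        ((δ ⟨qExpand K e (sS K M H b), qExpand_sS_mem K L M H he b⟩ : fieldC K L M H) :
          LaurentSeries K) = qExpand K e (sS K M H (b * c)) := by
  have hM0 : M ≠ 0 := fun h => hL (by rw [h] at hML; exact Nat.eq_zero_of_zero_dvd hML)
  obtain ⟨m, a, ha⟩ := exists_isRepFam hM0 H
  obtain ⟨-, -, haut⟩ := stmtDiamondH K L M H a hL hML ha
  obtain ⟨δ, hδ, hδS⟩ := haut c
  exact ⟨δ, fun x => hδ _ x.2, fun e _ he b => hδS e he b⟩

end CharZero

/-! ### The fast instances for intermediate fields of `ℚ̄ / ℚ` (cf. `UNIP/MGConcrete.lean`) -/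

section GenericInst

variable (K : Type*) [Field K] (L M : ℕ) (H : Subgroup (ZMod M)ˣ)

/-- the `K`-algebra structure of `fieldC K L M H` (the one Lean finds) -/
@[reducible] def rtk6diAlgGen : Algebra K ↥(fieldC K L M H) := inferInstance

/-- the `K`-module structure of `fieldC K L M H` (the one Lean finds) -/
@[reducible] def rtk6diModGen : Module K ↥(fieldC K L M H) := inferInstance

/-- the scalar multiplication of `K` on `fieldC K L M H` (the one Lean finds) -/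
@[reducible] def rtk6diSMulGen : SMul K ↥(fieldC K L M H) := inferInstance

variable {K}

/-- the `A′`-algebra structure of `fieldC K L M H`, `A′` a valuation subring of `K` -/
@[reducible] def rtk6diAlgAGen (A' : ValuationSubring K) :
    Algebra ↥A' ↥(fieldC K L M H) := inferInstance

set_option synthInstance.maxHeartbeats 400000 in
/-- the `A′`-module structure of `fieldC K L M H` -/
@[reducible] def rtk6diModAGen (A' : ValuationSubring K) :
    Module ↥A' ↥(fieldC K L M H) := inferInstance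

set_option synthInstance.maxHeartbeats 400000 in
/-- the scalar multiplication of `A′` on `fieldC K L M H` -/
@[reducible] def rtk6diSMulAGen (A' : ValuationSubring K) :
    SMul ↥A' ↥(fieldC K L M H) := inferInstance

set_option synthInstance.maxHeartbeats 400000 in
theorem rtk6diTowerGen (A' : ValuationSubring K) :
    IsScalarTower ↥A' K ↥(fieldC K L M H) := inferInstance

theorem rtk6diAlgAGen_algebraMap (A' : ValuationSubring K) (a : ↥A') :
    algebraMap ↥A' ↥(fieldC K L M H) a = algebraMap K ↥(fieldC K L M H) (a : K) := rfl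

end GenericInst

section Inst

variable (E : IntermediateField ℚ Qb) (L M : ℕ) (H : Subgroup (ZMod M)ˣ)

instance (priority := 100000) rtk6diInstAlgebra :
    Algebra ↥E ↥(fieldC ↥E L M H) := rtk6diAlgGen ↥E L M H

instance (priority := 100000) rtk6diInstModule :
    Module ↥E ↥(fieldC ↥E L M H) := rtk6diModGen ↥E L M H

instance (priority := 100000) rtk6diInstSMul :
    SMul ↥E ↥(fieldC ↥E L M H) := rtk6diSMulGen ↥E L M H

variable {E}

instance (priority := 100000) rtk6diInstAlgebraA (A' : ValuationSubring ↥E) :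
    Algebra ↥A' ↥(fieldC ↥E L M H) := rtk6diAlgAGen L M H A'

instance (priority := 100000) rtk6diInstModuleA (A' : ValuationSubring ↥E) :
    Module ↥A' ↥(fieldC ↥E L M H) := rtk6diModAGen L M H A'

instance (priority := 100000) rtk6diInstSMulA (A' : ValuationSubring ↥E) :
    SMul ↥A' ↥(fieldC ↥E L M H) := rtk6diSMulAGen L M H A'

instance (priority := 100000) rtk6diInstTower (A' : ValuationSubring ↥E) :
    IsScalarTower ↥A' ↥E ↥(fieldC ↥E L M H) := rtk6diTowerGen L M H A'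

end Inst

/-! ### The concrete setting -/

section Concrete

variable (A : ValuationSubring Qb) (K₁ : IntermediateField ℚ Qb)
  (L M : ℕ) (H : Subgroup (ZMod M)ˣ)

/-- `F′_H = fieldC ↥E′ L M H`, `E′ = mgcE A K₁` -/
abbrev rtk6diF : IntermediateField ↥(mgcE A K₁) (LaurentSeries ↥(mgcE A K₁)) :=
  fieldC ↥(mgcE A K₁) L M H

/-- the coordinate `j` of `F′_H` -/
def rtk6diT : ↥(rtk6diF A K₁ L M H) := rtk6diJ ↥(mgcE A K₁) L M H

theorem rtk6diT_coe :
    ((rtk6diT A K₁ L M H : ↥(rtk6diF A K₁ L M H)) : LaurentSeries ↥(mgcE A K₁))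
      = jqModC ↥(mgcE A K₁) := rfl

theorem rtk6diT_eq_incl : rtk6diT A K₁ L M H = rtk6diIncl L M H (mgcT A K₁ L) := rfl

theorem rtk6di_transcendental : Transcendental ↥(mgcE A K₁) (rtk6diT A K₁ L M H) :=
  rtk6di_transcendental_J ↥(mgcE A K₁) L M H

theorem rtk6di_finiteDimensional (hL : L ≠ 0) (hML : M ∣ L) :
    FiniteDimensional (↥(mgcE A K₁))⟮rtk6diT A K₁ L M H⟯ ↥(rtk6diF A K₁ L M H) := by
  haveI : Algebra.IsAlgebraic ℚ Qb := AlgebraicClosure.isAlgebraic ℚ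
  haveI : Algebra.IsAlgebraic ℚ ↥(mgcE A K₁) :=
    Algebra.IsAlgebraic.of_injective (mgcE A K₁).val Subtype.val_injective
  exact rtk6di_finiteDimensional_gen ↥(mgcE A K₁) H hL hML

theorem rtk6di_hcl (x : ↥(rtk6diF A K₁ L M H)) (hx : IsAlgebraic ↥(mgcE A K₁) x) :
    x ∈ (algebraMap ↥(mgcE A K₁) ↥(rtk6diF A K₁ L M H)).range :=
  rtk6di_hcl_gen ↥(mgcE A K₁) L M H x hx

variable {A K₁}

/-- the coefficientwise action of `σ` on `F′_H` -/
def rtk6diAct (σ : Qb ≃ₐ[ℚ] Qb) (hσ : ∀ x ∈ mgcE A K₁, σ x ∈ mgcE A K₁) :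
    ↥(rtk6diF A K₁ L M H) →+* ↥(rtk6diF A K₁ L M H) :=
  rtk6diCoeffHom L M H (mgRestrict (mgcE A K₁) σ hσ)

@[simp]
theorem rtk6diAct_coe (σ : Qb ≃ₐ[ℚ] Qb) (hσ : ∀ x ∈ mgcE A K₁, σ x ∈ mgcE A K₁)
    (x : ↥(rtk6diF A K₁ L M H)) :
    ((rtk6diAct L M H σ hσ x : ↥(rtk6diF A K₁ L M H)) : LaurentSeries ↥(mgcE A K₁))
      = coeffMap (mgRestrict (mgcE A K₁) σ hσ) (x : LaurentSeries ↥(mgcE A K₁)) := rfl

/-- the semilinear automorphism of `F′_H` induced by `σ` -/
def rtk6diGal (σ : Qb ≃ₐ[ℚ] Qb) (hσ : ∀ x ∈ mgcE A K₁, σ x ∈ mgcE A K₁) :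
    SemilinearAut ↥(mgcE A K₁) ↥(rtk6diF A K₁ L M H) :=
  rtk6diGalGen L M H (mgaRestrictEquiv (mgcE A K₁) σ hσ)

theorem rtk6diGal_smul (σ : Qb ≃ₐ[ℚ] Qb) (hσ : ∀ x ∈ mgcE A K₁, σ x ∈ mgcE A K₁)
    (x : ↥(rtk6diF A K₁ L M H)) : rtk6diGal L M H σ hσ • x = rtk6diAct L M H σ hσ x := rfl

/-- `σ̂ j = j` -/
theorem rtk6di_smul_T (σ : Qb ≃ₐ[ℚ] Qb) (hσ : ∀ x ∈ mgcE A K₁, σ x ∈ mgcE A K₁) :
    rtk6diGal L M H σ hσ • rtk6diT A K₁ L M H = rtk6diT A K₁ L M H := by
  rw [rtk6diGal_smul]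
  exact rtk6diCoeffHom_J ↥(mgcE A K₁) L M H _

/-- the action on `F′_H` extends the action on the `Γ₀(L)`-field -/
theorem rtk6diAct_incl (σ : Qb ≃ₐ[ℚ] Qb) (hσ : ∀ x ∈ mgcE A K₁, σ x ∈ mgcE A K₁)
    (x : ↥(mgcF A K₁ L)) :
    rtk6diAct L M H σ hσ (rtk6diIncl L M H x) = rtk6diIncl L M H (mgAct (mgcE A K₁) L σ hσ x) :=
  Subtype.ext (by rw [rtk6diAct_coe, rtk6diIncl_coe, rtk6diIncl_coe, mgAct_coe])

theorem rtk6diAct_injective (σ : Qb ≃ₐ[ℚ] Qb) (hσ : ∀ x ∈ mgcE A K₁, σ x ∈ mgcE A K₁) :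
    Function.Injective (rtk6diAct L M H σ hσ) := (rtk6diAct L M H σ hσ).injective

/-- constants: `σ̂ c = σ c` -/
theorem rtk6diAct_algebraMap (σ : Qb ≃ₐ[ℚ] Qb) (hσ : ∀ x ∈ mgcE A K₁, σ x ∈ mgcE A K₁)
    (c : ↥(mgcE A K₁)) :
    rtk6diAct L M H σ hσ (algebraMap ↥(mgcE A K₁) ↥(rtk6diF A K₁ L M H) c)
      = algebraMap ↥(mgcE A K₁) ↥(rtk6diF A K₁ L M H) (mgRestrict (mgcE A K₁) σ hσ c) :=
  rtk6diCoeffHom_algebraMap L M H _ c

/-- `nfEmbH` intertwines the action on `F′_H` with the arithmetic Galois action on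
`fieldBar L M H`. -/
theorem nfEmbH_rtk6diAct (σ : Qb ≃ₐ[ℚ] Qb) (hσ : ∀ x ∈ mgcE A K₁, σ x ∈ mgcE A K₁)
    (x : ↥(rtk6diF A K₁ L M H)) :
    nfEmbH (mgcE A K₁) L M H (rtk6diAct L M H σ hσ x)
      = arithmeticGalois (fieldQ L M H) σ • nfEmbH (mgcE A K₁) L M H x := by
  apply Subtype.ext
  show coeffMap (algebraMap ↥(mgcE A K₁) Qb)
      (coeffMap (mgRestrict (mgcE A K₁) σ hσ) (x : LaurentSeries ↥(mgcE A K₁)))
    = coeffMap (σ : Qb →+* Qb) (coeffMap (algebraMap ↥(mgcE A K₁) Qb)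
      (x : LaurentSeries ↥(mgcE A K₁)))
  rw [coeffMap_coeffMap, coeffMap_coeffMap, mgRestrict_comp]

/-- `nfEmbH j = j` -/
theorem nfEmbH_rtk6diT [NeZero L] :
    nfEmbH (mgcE A K₁) L M H (rtk6diT A K₁ L M H) = jFH L M H :=
  nfEmbH_jCH (mgcE A K₁) L M H

end Concrete

/-! ### Descent to the fields `E′` -/

/-- finitely many elements of `fieldBar L M H` are defined over `fieldC K₂ L M H` for every
`K₂` containing a suitable number field -/
theorem rtk6di_exists_descent (L M : ℕ) (H : Subgroup (ZMod M)ˣ) (S : Finset Qb)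
    (Y : Finset (fieldBar L M H)) :
    ∃ K₁ : IntermediateField ℚ Qb, FiniteDimensional ℚ K₁ ∧ (∀ s ∈ S, s ∈ K₁) ∧
      ∀ K₂ : IntermediateField ℚ Qb, K₁ ≤ K₂ → ∀ y ∈ Y,
        ∃ y₂ : fieldC K₂ L M H, nfEmbH K₂ L M H y₂ = y := by
  classical
  obtain ⟨K₁, hfin, hS, hK⟩ := injdh_exists_descent_finset (L := L) (M := M) (H := H) S
    (Finset.image (fun y : ↥(fieldBar L M H) => (y : LaurentSeries Qb)) Y)
    (fun z hz => by
      obtain ⟨y, -, rfl⟩ := Finset.mem_image.mp hz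
      exact y.2)
  refine ⟨K₁, hfin, hS, fun K₂ h12 y hy => ?_⟩
  obtain ⟨y₂, hy₂, he⟩ := hK K₂ h12 (y : LaurentSeries Qb)
    (Finset.mem_image.mpr ⟨y, hy, rfl⟩)
  exact ⟨⟨y₂, hy₂⟩, Subtype.ext he⟩

end Fermat.Agent.RT.K6

end
end ZBES1_009_3

/-! ### bundled: `Fermat.Agent.RT.K6.DE` -/
section ZBES1_009_4
/-
K-machine, piece K6 / D-E (helper74): the valuation of the Kummer generator at `v_0` is prime
to `p` — INSTANCE LEVEL (`F = fieldBar L M H`, `y` = the Lagrange resolvent of `RT/K6/D0.lean`,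
`w = w_r` any automorphism with `IsWAt L M H r w`).

`r` prime, `r ∣ M ∣ L`, `A ⊂ ℚ̄` a valuation ring over `r`, `D = rtk6deD M r` the diamonds at `r`
(`c ≡ 1` mod `M / r`), `ψ` a character of `(ℤ/M)ˣ`, trivial on `±H`, with `ψ ^ d = 1` on `D`,
`r ∤ d`.

* `rtk6de_root_unit_gen`    : a root of unity `η ≠ 1` of order prime to `r` is `≢ 1` mod `𝔪_A`.
* `rtk6de_inertia_fix_root` : inertia at `r` fixes the roots of unity of order prime to `r`.
* `rtk6de_exists_inertia_pow`, `rtk6de_exists_cyc` : every diamond `c` at `r` is the cyclotomic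
  image of some `σ` in the inertia group of `A` (`IsCycAt M r σ c`).
* `rtk6deY` : the resolvent `y`, as an element of `fieldBar L M H`.
* `rtk6de_galois_y`  : `σ y = y` for `σ` in the inertia group (coefficientwise action).
* `rtk6de_diamond_y` : `δ_c y = ψ(c) y` for `c ∈ D`.
* `rtk6de_eigen`     : `σ (w y) = ψ(c(σ)) · w y`.
* `rtk6de_inst_val`, `rtk6de_inst` : **D-E** — if `(w y)^d = r^n₀ · ε`, `ε` of unit content
  (i.e. `v_0(u₀) = n₀ · v(r)`, `u₀ = y^d`), `p ∣ d`, `p ≠ r`, and `ψ(c₀)^(d/p) ≠ 1` for some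
  diamond `c₀` at `r`, then `p ∤ n₀`.
* `rtk6de_inf`       : `v_∞(u₀) = 0`: `y ^ d` is primitive at `A`.
-/

set_option autoImplicit false
set_option linter.unusedSectionVars false
set_option linter.unusedVariables false
set_option linter.style.haveILetI false

noncomputable section

namespace Fermat.Agent.RT.K6

open ModularCurve AlgebraicCurve HahnSeries Fermat.Agent.ES Fermat.Agent.ES1
  Fermat.Agent.ES1.G2 Fermat.Agent.S05 Fermat.Agent.S15

section Roots

variable {L : Type*} [Field L] [Algebra ℚ L] [Algebra.IsAlgebraic ℚ L] (A : ValuationSubring L)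

/-- a nontrivial root of unity of order prime to `r` is not congruent to `1` modulo a place
over `r` -/
theorem rtk6de_root_unit_gen {r n : ℕ} (hr : r.Prime) (hA : A.LiesOverPrime r)
    (hn : ¬ r ∣ n) {η : L} (hη : η ^ n = 1) (hη1 : η ≠ 1) : η - 1 ∉ A.nonunits := by
  intro hmem
  have hn0 : n ≠ 0 := by
    rintro rfl
    exact hn (dvd_zero r)
  have hlt : A.valuation (η - 1) < 1 := (ValuationSubring.mem_nonunits_iff A).1 hmem
  have hvη : A.valuation η = 1 := rtk6de_val_root A hn0 hη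
  have hgeom : ∑ i ∈ Finset.range n, η ^ i = 0 := by
    have h1 : (η - 1) * ∑ i ∈ Finset.range n, η ^ i = 0 := by
      rw [mul_geom_sum, hη, sub_self]
    rcases mul_eq_zero.1 h1 with h2 | h2
    · exact absurd (sub_eq_zero.1 h2) hη1
    · exact h2
  have hsmall : ∀ i : ℕ, A.valuation (η ^ i - 1) < 1 := by
    intro i
    have h1 : η ^ i - 1 = (η - 1) * ∑ j ∈ Finset.range i, η ^ j := (mul_geom_sum η i).symm
    rw [h1, map_mul]
    have h2 : A.valuation (∑ j ∈ Finset.range i, η ^ j) ≤ 1 := by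
      refine Valuation.map_sum_le _ fun j _ => ?_
      rw [map_pow, hvη, one_pow]
    calc A.valuation (η - 1) * A.valuation (∑ j ∈ Finset.range i, η ^ j)
        ≤ A.valuation (η - 1) * 1 := mul_le_mul_of_nonneg_left h2 zero_le
      _ < 1 := by rw [mul_one]; exact hlt
  have hsum : ∑ i ∈ Finset.range n, (η ^ i - 1) = -((n : ℕ) : L) := by
    rw [Finset.sum_sub_distrib, hgeom, Finset.sum_const, Finset.card_range, nsmul_eq_mul, mul_one,
      zero_sub]
  have hlt2 : A.valuation (∑ i ∈ Finset.range n, (η ^ i - 1)) < 1 :=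
    Valuation.map_sum_lt _ one_ne_zero fun i _ => hsmall i
  rw [hsum, Valuation.map_neg] at hlt2
  have hvp : A.valuation ((n : ℕ) : L) = 1 := by
    have hnd : ¬ (r : ℤ) ∣ (n : ℤ) := by
      intro h
      exact hn (by exact_mod_cast h)
    have := tame_val_int A hr hA (n : ℤ) hnd
    simpa using this
  rw [hvp] at hlt2
  exact lt_irrefl _ hlt2

/-- **inertia at `r` fixes the roots of unity of order prime to `r`** -/
theorem rtk6de_inertia_fix_root {r n : ℕ} (hr : r.Prime) (hA : A.LiesOverPrime r)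
    (hn : ¬ r ∣ n) {σ : L ≃ₐ[ℚ] L} (hσ : σ ∈ A.inertiaSubgroupIn ℚ) {η : L} (hη : η ^ n = 1) :
    σ η = η := by
  have hn0 : n ≠ 0 := by
    rintro rfl
    exact hn (dvd_zero r)
  have hη0 : η ≠ 0 := by
    rintro rfl
    rw [zero_pow hn0] at hη
    exact zero_ne_one hη
  have hvη : A.valuation η = 1 := rtk6de_val_root A hn0 hη
  have h1 : σ η / η - 1 ∈ A.nonunits := inertia_apply_div_sub_one_mem_nonunits hσ hvη
  have h2 : (σ η / η) ^ n = 1 := by
    rw [div_pow, ← map_pow, hη, map_one, div_one]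
  by_contra hne
  have h3 : σ η / η ≠ 1 := by
    intro h
    rw [div_eq_one_iff_eq hη0] at h
    exact hne h
  exact rtk6de_root_unit_gen A hr hA hn h2 h3 h1

end Roots

section Cyc

/-- every `a` prime to `r` is the cyclotomic image of an element of the inertia group of any
place `A` of `ℚ̄` over `r` (`ℚ(ζ_r) / ℚ` is totally ramified at `r`) -/
theorem rtk6de_exists_inertia_pow {r : ℕ} (hr : r.Prime) (A : ValuationSubring QbH)
    (hA : A.LiesOverPrime r) (a : ℕ) (ha : Nat.Coprime a r) :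
    ∃ σ ∈ A.inertiaSubgroupIn ℚ, ∀ ζ : QbH, ζ ^ r = 1 → σ ζ = ζ ^ a := by
  haveI : Fact r.Prime := ⟨hr⟩
  haveI : NeZero r := ⟨hr.ne_zero⟩
  haveI : NeZero (r : AlgebraicClosure ℚ) := ⟨Nat.cast_ne_zero.mpr hr.ne_zero⟩
  obtain ⟨ζ, hζ⟩ := HasEnoughRootsOfUnity.exists_primitiveRoot (AlgebraicClosure ℚ) r
  have hζa : IsPrimitiveRoot (ζ ^ a) r := hζ.pow_of_coprime _ ha
  have hmin : minpoly ℚ ζ = Polynomial.cyclotomic r ℚ :=
    (Polynomial.cyclotomic_eq_minpoly_rat hζ hr.pos).symm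
  have hroot : Polynomial.aeval (ζ ^ a) (minpoly ℚ ζ) = 0 := by
    rw [hmin]
    have := hζa.isRoot_cyclotomic hr.pos
    rw [← Polynomial.map_cyclotomic r (algebraMap ℚ (AlgebraicClosure ℚ))] at this
    simpa [Polynomial.aeval_def, Polynomial.eval₂_eq_eval_map, Polynomial.IsRoot.def] using this
  haveI hnorm : Normal ℚ (AlgebraicClosure ℚ) := Fermat.Agent.TW.L.lglob1_qbar_normal
  have halg : IsAlgebraic ℚ ζ := (hnorm.isAlgebraic ζ)
  obtain ⟨σ, hσζ⟩ := minpoly.exists_algEquiv_of_root' halg hroot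
  -- `ζ` lies in the subring where `σ` is congruent to the identity
  have h1 := Fermat.Agent.TW.S.scyc_sub_one_mem_nonunits r A hA hζ.pow_eq_one
  have h1m : ζ ^ a - 1 ∈ A.nonunits := by
    refine Fermat.Agent.TW.S.scyc_sub_one_mem_nonunits r A hA ?_
    rw [← pow_mul, mul_comm, pow_mul, hζ.pow_eq_one, one_pow]
  have hζA : ζ ∈ A := by
    have : ζ = 1 + (ζ - 1) := by ring
    rw [this]
    exact add_mem (one_mem _) (A.nonunits_le h1)
  have hζB : ζ ∈ Fermat.Agent.TW.S.scycRing A σ := by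
    refine ⟨hζA, ?_⟩
    rw [hσζ]
    have e : ζ ^ a - ζ = (ζ ^ a - 1) - (ζ - 1) := by ring
    rw [e, ValuationSubring.mem_nonunits_iff]
    refine lt_of_le_of_lt (Valuation.map_sub _ _ _) (max_lt ?_ ?_)
    · exact (A.mem_nonunits_iff).mp h1m
    · exact (A.mem_nonunits_iff).mp h1
  haveI : Algebra.IsIntegral ℚ (AlgebraicClosure ℚ) := ⟨fun x => (hnorm.isAlgebraic x).isIntegral⟩
  haveI hcyc : IsCyclotomicExtension {r} ℚ (IntermediateField.adjoin ℚ {ζ}) :=
    hζ.intermediateField_adjoin_isCyclotomicExtension ℚ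
  haveI : IsGalois ℚ (IntermediateField.adjoin ℚ {ζ}) :=
    IsCyclotomicExtension.isGalois {r} ℚ (IntermediateField.adjoin ℚ {ζ})
  have hcong : ∀ x ∈ IntermediateField.adjoin ℚ {ζ}, IsIntegral ℤ x →
      σ x - x ∈ A.nonunits := by
    intro x hx hint
    let ζF : IntermediateField.adjoin ℚ {ζ} := ⟨ζ, IntermediateField.mem_adjoin_simple_self ℚ ζ⟩
    have hζF : IsPrimitiveRoot ζF r :=
      IsPrimitiveRoot.of_map_of_injective
        (f := algebraMap (IntermediateField.adjoin ℚ {ζ}) (AlgebraicClosure ℚ))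
        (show IsPrimitiveRoot
          (algebraMap (IntermediateField.adjoin ℚ {ζ}) (AlgebraicClosure ℚ) ζF) r from hζ)
        (algebraMap (IntermediateField.adjoin ℚ {ζ}) (AlgebraicClosure ℚ)).injective
    have hic := IsCyclotomicExtension.Rat.isIntegralClosure_adjoin_singleton_of_prime hζF
    have hintF : IsIntegral ℤ (⟨x, hx⟩ : IntermediateField.adjoin ℚ {ζ}) :=
      (isIntegral_algebraMap_iff
        (algebraMap (IntermediateField.adjoin ℚ {ζ}) (AlgebraicClosure ℚ)).injective).mp hint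
    obtain ⟨y, hy⟩ := hic.isIntegral_iff.mp hintF
    have key : ∀ z ∈ Algebra.adjoin ℤ ({ζF} : Set (IntermediateField.adjoin ℚ {ζ})),
        ((z : IntermediateField.adjoin ℚ {ζ}) : AlgebraicClosure ℚ) ∈
          Fermat.Agent.TW.S.scycRing A σ := by
      intro z hz
      induction hz using Algebra.adjoin_induction with
      | mem z hz =>
        rw [Set.mem_singleton_iff] at hz
        subst hz
        exact hζB
      | algebraMap t =>
        have : ((algebraMap ℤ (IntermediateField.adjoin ℚ {ζ}) t :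
            IntermediateField.adjoin ℚ {ζ}) : AlgebraicClosure ℚ) = (t : AlgebraicClosure ℚ) := by
          simp
        rw [this]
        exact Fermat.Agent.TW.S.scyc_intCast_mem _ _ t
      | add a b _ _ ha hb =>
        have : ((a + b : IntermediateField.adjoin ℚ {ζ}) : AlgebraicClosure ℚ)
            = (a : AlgebraicClosure ℚ) + b := rfl
        rw [this]
        exact add_mem ha hb
      | mul a b _ _ ha hb =>
        have : ((a * b : IntermediateField.adjoin ℚ {ζ}) : AlgebraicClosure ℚ)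
            = (a : AlgebraicClosure ℚ) * b := rfl
        rw [this]
        exact mul_mem ha hb
    have hxy : x = ((y : IntermediateField.adjoin ℚ {ζ}) : AlgebraicClosure ℚ) := by
      have := congrArg (fun t : IntermediateField.adjoin ℚ {ζ} => (t : AlgebraicClosure ℚ)) hy
      exact this.symm
    rw [hxy]
    exact (key y y.2).2
  obtain ⟨σ', hσ'I, hσ'F⟩ := Fermat.Agent.Common.exists_mem_inertiaSubgroupIn_of_congr
    (IntermediateField.adjoin ℚ {ζ}) r hr A hA σ hcong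
  refine ⟨σ', hσ'I, fun ξ hξ => ?_⟩
  obtain ⟨k, -, rfl⟩ := hζ.eq_pow_of_pow_eq_one hξ
  rw [map_pow, hσ'F ζ (IntermediateField.mem_adjoin_simple_self ℚ ζ), hσζ, ← pow_mul, ← pow_mul,
    mul_comm]

variable {M : ℕ} [NeZero M]

/-- **every diamond `c` at `r` is the cyclotomic image of some `σ` in the inertia group** -/
theorem rtk6de_exists_cyc {r : ℕ} (hr : r.Prime) (hrM : r ∣ M) (A : ValuationSubring QbH)
    (hA : A.LiesOverPrime r) (c : (ZMod M)ˣ) (hc : IsAtR M r c) :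
    ∃ σ ∈ A.inertiaSubgroupIn ℚ, IsCycAt M r σ c := by
  have hcop : Nat.Coprime ((c : ZMod M).val) r :=
    Nat.Coprime.coprime_dvd_right hrM (ZMod.val_coe_unit_coprime c)
  obtain ⟨σ, hσ, h⟩ := rtk6de_exists_inertia_pow hr A hA _ hcop
  exact ⟨σ, hσ, h, hc⟩

end Cyc

section Diamonds

variable (M : ℕ) [NeZero M] (r : ℕ)

/-- **the diamonds at `r`**: the classes `c ≡ 1` mod `M / r`, as a subgroup of `(ℤ/M)ˣ` -/
def rtk6deD (hrM : r ∣ M) : Subgroup (ZMod M)ˣ :=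
  (Units.map ((ZMod.castHom (Nat.div_dvd_of_dvd hrM) (ZMod (M / r))) :
    ZMod M →* ZMod (M / r))).ker

variable {M r}

theorem rtk6de_mem_D (hrM : r ∣ M) (c : (ZMod M)ˣ) : c ∈ rtk6deD M r hrM ↔ IsAtR M r c := by
  unfold rtk6deD IsAtR
  rw [MonoidHom.mem_ker, Units.ext_iff, Units.coe_map, Units.val_one, ZMod.natCast_val]
  rfl

/-- `r ∥ M`: `r` is prime to `M / r` -/
theorem rtk6de_coprime_div (hr : r.Prime) (hrM : r ∣ M) (hr2 : ¬ r ^ 2 ∣ M) :
    Nat.Coprime r (M / r) := by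
  rw [Nat.Prime.coprime_iff_not_dvd hr]
  intro h
  apply hr2
  have h1 : r * r ∣ r * (M / r) := Nat.mul_dvd_mul_left r h
  rwa [Nat.mul_div_cancel' hrM, ← pow_two] at h1

/-- reduction mod `r` is injective on the diamonds at `r` (`r ∥ M`) -/
theorem rtk6de_D_injOn (hr : r.Prime) (hrM : r ∣ M) (hr2 : ¬ r ^ 2 ∣ M)
    {c c' : (ZMod M)ˣ} (hc : IsAtR M r c) (hc' : IsAtR M r c')
    (h : (((c : ZMod M).val : ℕ) : ZMod r) = (((c' : ZMod M).val : ℕ) : ZMod r)) : c = c' := by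
  have h1 : (c : ZMod M).val ≡ (c' : ZMod M).val [MOD r] := (ZMod.natCast_eq_natCast_iff _ _ _).1 h
  have h2 : (c : ZMod M).val ≡ (c' : ZMod M).val [MOD M / r] := by
    apply (ZMod.natCast_eq_natCast_iff _ _ _).1
    unfold IsAtR at hc hc'
    rw [hc, hc']
  have h3 : (c : ZMod M).val ≡ (c' : ZMod M).val [MOD r * (M / r)] :=
    (Nat.modEq_and_modEq_iff_modEq_mul (rtk6de_coprime_div hr hrM hr2)).1 ⟨h1, h2⟩
  rw [Nat.mul_div_cancel' hrM] at h3
  have h4 : (c : ZMod M).val = (c' : ZMod M).val := by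
    have := h3
    unfold Nat.ModEq at this
    rwa [Nat.mod_eq_of_lt (ZMod.val_lt _), Nat.mod_eq_of_lt (ZMod.val_lt _)] at this
  exact Units.ext (ZMod.val_injective M h4)

/-- the number of diamonds at `r` is less than `r` -/
theorem rtk6de_card_D_lt (hr : r.Prime) (hrM : r ∣ M) (hr2 : ¬ r ^ 2 ∣ M) :
    (rtk6d0Set M (rtk6deD M r hrM)).card < r := by
  classical
  haveI : NeZero r := ⟨hr.ne_zero⟩
  haveI : Fact r.Prime := ⟨hr⟩
  have h1 : (rtk6d0Set M (rtk6deD M r hrM)).card ≤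
      ((Finset.univ : Finset (ZMod r)).erase 0).card := by
    refine Finset.card_le_card_of_injOn
      (fun c : (ZMod M)ˣ => (((c : ZMod M).val : ℕ) : ZMod r)) ?_ ?_
    · intro c _
      rw [Finset.mem_coe, Finset.mem_erase]
      refine ⟨?_, Finset.mem_univ _⟩
      intro h0
      rw [ZMod.natCast_eq_zero_iff] at h0
      have hcop : Nat.Coprime ((c : ZMod M).val) r :=
        Nat.Coprime.coprime_dvd_right hrM (ZMod.val_coe_unit_coprime c)
      have := Nat.eq_one_of_dvd_coprimes hcop h0 dvd_rfl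
      exact hr.one_lt.ne' this
    · intro c hc c' hc' h
      rw [Finset.mem_coe, rtk6d0_mem_set, rtk6de_mem_D] at hc hc'
      exact rtk6de_D_injOn hr hrM hr2 hc hc' h
  have h2 : ((Finset.univ : Finset (ZMod r)).erase 0).card = r - 1 := by
    rw [Finset.card_erase_of_mem (Finset.mem_univ _), Finset.card_univ, ZMod.card]
  have h3 : 0 < r := hr.pos
  omega

end Diamonds

section Inst

variable {L M : ℕ} [NeZero M] {H : Subgroup (ZMod M)ˣ} (D : Subgroup (ZMod M)ˣ)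
  (ψ : (ZMod M)ˣ →* QbHˣ)

/-- `S_{M,H,b}` as an element of `fieldBar L M H` -/
def rtk6deS (H : Subgroup (ZMod M)ˣ) (hML : M ∣ L) (b : (ZMod M)ˣ) : fieldBar L M H :=
  ⟨sS QbH M H b, (es1f_fieldBar_eq L M H).ge (rtk6d0_sS_mem QbH M H hML b)⟩

/-- **the Kummer generator** (Lagrange resolvent) `y = Σ_{c ∈ D} ψ(c)⁻¹ S_c`, as an element of
`fieldBar L M H` -/
def rtk6deY (H : Subgroup (ZMod M)ˣ) (hML : M ∣ L) : fieldBar L M H :=
  ⟨rtk6d0Y QbH M H D ψ, (es1f_fieldBar_eq L M H).ge (rtk6d0Y_mem QbH M H D ψ hML)⟩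

theorem rtk6deY_coe (hML : M ∣ L) :
    ((rtk6deY D ψ H hML : fieldBar L M H) : LaurentSeries QbH) = rtk6d0Y QbH M H D ψ := rfl

theorem rtk6deY_ne_zero (hM : 3 ≤ M) (hψH : ∀ h ∈ H, ψ h = 1) (hψ1 : ψ (-1) = 1)
    (hML : M ∣ L) : rtk6deY D ψ H hML ≠ 0 := by
  intro h
  have := congrArg (fun x : fieldBar L M H => (x : LaurentSeries QbH)) h
  exact rtk6d0Y_ne_zero QbH D ψ hM hψH hψ1 this

/-- `ℚ̄`-linearity of a `ℚ̄`-automorphism of `fieldBar` (instance search does not find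
`map_smul`) -/
theorem rtk6de_map_smul (δ : fieldBar L M H ≃ₐ[QbH] fieldBar L M H) (a : QbH)
    (x : fieldBar L M H) : δ (a • x) = a • δ x :=
  δ.toLinearMap.map_smul a x

/-- **inertia at `r` fixes the resolvent** (coefficientwise): its coefficients are integers times
roots of unity of order prime to `r` -/
theorem rtk6de_coeffMap_y {r d : ℕ} (hr : r.Prime) (A : ValuationSubring QbH)
    (hA : A.LiesOverPrime r) (hd : ¬ r ∣ d) (hψd : ∀ c ∈ D, ψ c ^ d = 1)
    {σ : QbH ≃ₐ[ℚ] QbH} (hσ : σ ∈ A.inertiaSubgroupIn ℚ) :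
    coeffMap (σ : QbH →+* QbH) (rtk6d0Y QbH M H D ψ) = rtk6d0Y QbH M H D ψ := by
  unfold rtk6d0Y
  rw [map_sum]
  refine Finset.sum_congr rfl fun c hc => ?_
  rw [map_mul, es1f_coeffMap_sS]
  congr 1
  show coeffMap (σ : QbH →+* QbH) (HahnSeries.single 0 _) = HahnSeries.single 0 _
  rw [coeffMap_single]
  congr 1
  have hc' : c ∈ D := rtk6d0_mem_set.1 hc
  haveI : Algebra.IsAlgebraic ℚ QbH := isAlgebraic_rat_qbar
  have h1 : (((ψ c)⁻¹ : QbHˣ) : QbH) ^ d = 1 := by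
    rw [← Units.val_pow_eq_pow_val, inv_pow, hψd c hc', inv_one, Units.val_one]
  exact rtk6de_inertia_fix_root A hr hA hd hσ h1

theorem rtk6de_galois_y {r d : ℕ} (hr : r.Prime) (A : ValuationSubring QbH)
    (hA : A.LiesOverPrime r) (hd : ¬ r ∣ d) (hψd : ∀ c ∈ D, ψ c ^ d = 1)
    {σ : QbH ≃ₐ[ℚ] QbH} (hσ : σ ∈ A.inertiaSubgroupIn ℚ) (hML : M ∣ L) :
    arithmeticGalois (fieldQ L M H) σ • rtk6deY D ψ H hML = rtk6deY D ψ H hML := by
  apply Subtype.ext
  rw [coe_arithmeticGalois_smul]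
  exact rtk6de_coeffMap_y D ψ hr A hA hd hψd hσ

/-- `δ_c S_b = S_{bc}` -/
theorem rtk6de_diamond_S (hML : M ∣ L) {c : (ZMod M)ˣ}
    {δ : fieldBar L M H ≃ₐ[QbH] fieldBar L M H} (hδ : IsDiamondH L M H c δ) (b : (ZMod M)ˣ) :
    ((δ (rtk6deS H hML b) : fieldBar L M H) : LaurentSeries QbH) = sS QbH M H (b * c) := by
  have h1 : (1 : ℕ) * M ∣ L := by rwa [one_mul]
  have h2 := hδ.map_s 1 b h1 (rtk6deS H hML b) (qExpand_one_apply _).symm
  rwa [qExpand_one_apply] at h2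

/-- the resolvent as a sum in `fieldBar L M H` -/
theorem rtk6deY_eq_sum (hML : M ∣ L) : rtk6deY D ψ H hML
      = ∑ b ∈ rtk6d0Set M D, (((ψ b)⁻¹ : QbHˣ) : QbH) • rtk6deS H hML b := by
  apply Subtype.ext
  rw [AddSubmonoidClass.coe_finsetSum]
  show rtk6d0Y QbH M H D ψ = _
  unfold rtk6d0Y
  refine Finset.sum_congr rfl fun b _ => ?_
  rw [IntermediateField.coe_smul, Algebra.smul_def, LaurentSeries.algebraMap_apply]
  rfl

theorem rtk6de_diamond_term (hML : M ∣ L) {c : (ZMod M)ˣ}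
    {δ : fieldBar L M H ≃ₐ[QbH] fieldBar L M H} (hδ : IsDiamondH L M H c δ) (b : (ZMod M)ˣ) :
    ((δ ((((ψ b)⁻¹ : QbHˣ) : QbH) • rtk6deS H hML b) : fieldBar L M H) : LaurentSeries QbH)
      = HahnSeries.C ((ψ c : QbHˣ) : QbH) *
          (HahnSeries.C (((ψ (b * c))⁻¹ : QbHˣ) : QbH) * sS QbH M H (b * c)) := by
  have hu : ((ψ b)⁻¹ : QbHˣ) = ψ c * (ψ (b * c))⁻¹ := by
    rw [map_mul, mul_inv_rev, mul_inv_cancel_left]
  rw [rtk6de_map_smul, IntermediateField.coe_smul, Algebra.smul_def,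
    LaurentSeries.algebraMap_apply, rtk6de_diamond_S hML hδ b, ← mul_assoc, ← map_mul, hu,
    Units.val_mul]

theorem rtk6de_diamond_sum (hML : M ∣ L)
    (δ : fieldBar L M H ≃ₐ[QbH] fieldBar L M H) :
    ((δ (rtk6deY D ψ H hML) : fieldBar L M H) : LaurentSeries QbH)
      = ∑ b ∈ rtk6d0Set M D,
          ((δ ((((ψ b)⁻¹ : QbHˣ) : QbH) • rtk6deS H hML b) : fieldBar L M H) :
            LaurentSeries QbH) := by
  rw [rtk6deY_eq_sum D ψ hML, map_sum, AddSubmonoidClass.coe_finsetSum]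

/-- **the eigen-property** of the resolvent under the diamonds of `D` (Laurent series form) -/
theorem rtk6de_diamond_y_coe (hML : M ∣ L) {c : (ZMod M)ˣ} (hc : c ∈ D)
    {δ : fieldBar L M H ≃ₐ[QbH] fieldBar L M H} (hδ : IsDiamondH L M H c δ) :
    ((δ (rtk6deY D ψ H hML) : fieldBar L M H) : LaurentSeries QbH)
      = HahnSeries.C ((ψ c : QbHˣ) : QbH) * rtk6d0Y QbH M H D ψ := by
  classical
  have e1 := rtk6de_diamond_sum D ψ hML δ
  have e2 : ∑ b ∈ rtk6d0Set M D,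
      ((δ ((((ψ b)⁻¹ : QbHˣ) : QbH) • rtk6deS H hML b) : fieldBar L M H) : LaurentSeries QbH)
      = ∑ b ∈ rtk6d0Set M D, HahnSeries.C ((ψ c : QbHˣ) : QbH) *
          (HahnSeries.C (((ψ (b * c))⁻¹ : QbHˣ) : QbH) * sS QbH M H (b * c)) :=
    Finset.sum_congr rfl (fun b _ => rtk6de_diamond_term ψ hML hδ b)
  have e3 : ∑ b ∈ rtk6d0Set M D,
      (HahnSeries.C (((ψ (b * c))⁻¹ : QbHˣ) : QbH) * sS QbH M H (b * c))
      = rtk6d0Y QbH M H D ψ := by
    unfold rtk6d0Y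
    exact Finset.sum_equiv (Equiv.mulRight c)
      (fun b => by
        rw [rtk6d0_mem_set, rtk6d0_mem_set, Equiv.coe_mulRight]
        exact (D.mul_mem_cancel_right hc).symm)
      (fun b _ => rfl)
  rw [e1, e2, ← Finset.mul_sum, e3]

/-- **the eigen-property** of the resolvent: `δ_c y = ψ(c) · y` for `c ∈ D` -/
theorem rtk6de_diamond_y (hML : M ∣ L) {c : (ZMod M)ˣ} (hc : c ∈ D)
    {δ : fieldBar L M H ≃ₐ[QbH] fieldBar L M H} (hδ : IsDiamondH L M H c δ) :
    δ (rtk6deY D ψ H hML) = ((ψ c : QbHˣ) : QbH) • rtk6deY D ψ H hML := by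
  apply Subtype.ext
  rw [rtk6de_diamond_y_coe D ψ hML hc hδ, IntermediateField.coe_smul, Algebra.smul_def,
    LaurentSeries.algebraMap_apply]
  rfl

/-- **`σ (w y) = ψ(c(σ)) · w y`** for `σ` in the inertia group at `r` with cyclotomic image
`c ∈ D`. -/
theorem rtk6de_eigen (hL : L ≠ 0) (hML : M ∣ L) {r d : ℕ} (hr : r.Prime)
    (A : ValuationSubring QbH) (hA : A.LiesOverPrime r) (hd : ¬ r ∣ d)
    (hψd : ∀ c ∈ D, ψ c ^ d = 1)
    {w : fieldBar L M H ≃ₐ[QbH] fieldBar L M H} (hw : IsWAt L M H r w)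
    {σ : QbH ≃ₐ[ℚ] QbH} (hσ : σ ∈ A.inertiaSubgroupIn ℚ) {c : (ZMod M)ˣ} (hc : c ∈ D)
    (hcyc : IsCycAt M r σ c) :
    coeffMap (σ : QbH →+* QbH) ((w (rtk6deY D ψ H hML) : fieldBar L M H) : LaurentSeries QbH)
      = HahnSeries.C ((ψ c : QbHˣ) : QbH) *
          ((w (rtk6deY D ψ H hML) : fieldBar L M H) : LaurentSeries QbH) := by
  obtain ⟨δ, hδ⟩ := stmtDiamondBarH_of_diamond stmtDiamondH L M H hL hML c
  have h1 := hw.galois σ c hcyc δ hδ (rtk6deY D ψ H hML)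
  rw [rtk6de_galois_y D ψ hr A hA hd hψd hσ hML, rtk6de_diamond_y D ψ hML hc hδ,
    rtk6de_map_smul] at h1
  have h3 : ((arithmeticGalois (fieldQ L M H) σ • w (rtk6deY D ψ H hML) : fieldBar L M H) :
      LaurentSeries QbH) = (((ψ c : QbHˣ) : QbH) • w (rtk6deY D ψ H hML) : fieldBar L M H) :=
    congrArg (fun x : fieldBar L M H => (x : LaurentSeries QbH)) h1
  rw [coe_arithmeticGalois_smul, IntermediateField.coe_smul, Algebra.smul_def,
    LaurentSeries.algebraMap_apply] at h3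
  exact h3

/-- **D-E, instance level, valuation form.**  If the content `c` of `w y` satisfies
`v(c)^d = v(r)^n₀`, then `p ∤ n₀`. -/
theorem rtk6de_inst_val (hL : L ≠ 0) (hML : M ∣ L) {r d p : ℕ} (hr : r.Prime) (hrM : r ∣ M)
    (A : ValuationSubring QbH) (hA : A.LiesOverPrime r) (hd : ¬ r ∣ d)
    (hψd : ∀ c ∈ D, ψ c ^ d = 1)
    {w : fieldBar L M H ≃ₐ[QbH] fieldBar L M H} (hw : IsWAt L M H r w)
    (hp : p.Prime) (hrp : r ≠ p) (hpd : p ∣ d)
    {c₀ : (ZMod M)ˣ} (hc₀ : c₀ ∈ D) (hc₀r : IsAtR M r c₀) (hψ₀ : ψ c₀ ^ (d / p) ≠ 1)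
    {c : QbH} {y₁ y₂ : LaurentSeries QbH} (hc : c ≠ 0) (h1 : KronPrim A y₁)
    (h2 : KronPrim A y₂)
    (h : ((w (rtk6deY D ψ H hML) : fieldBar L M H) : LaurentSeries QbH) * y₂
      = HahnSeries.C c * y₁)
    {n₀ : ℤ} (hval : A.valuation c ^ d = A.valuation ((r : ℕ) : QbH) ^ n₀) :
    ¬ (p : ℤ) ∣ n₀ := by
  haveI : Algebra.IsAlgebraic ℚ QbH := isAlgebraic_rat_qbar
  obtain ⟨σ, hσ, hcyc⟩ := rtk6de_exists_cyc hr hrM A hA c₀ hc₀r
  have heig := rtk6de_eigen D ψ hL hML hr A hA hd hψd hw hσ hc₀ hcyc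
  have hζd : ((ψ c₀ : QbHˣ) : QbH) ^ d = 1 := by
    rw [← Units.val_pow_eq_pow_val, hψd c₀ hc₀, Units.val_one]
  have hζ : ((ψ c₀ : QbHˣ) : QbH) ^ (d / p) ≠ 1 := by
    intro h0
    apply hψ₀
    apply Units.ext
    rw [Units.val_pow_eq_pow_val, h0, Units.val_one]
  exact rtk6de_main A hr hA hp hrp hσ hc h1 h2 h heig hpd hζd hζ hval

/-- `3 ≤ M` if some character of `(ℤ/M)ˣ` is nontrivial -/
theorem rtk6de_three_le (hM0 : M ≠ 0) {c₀ : (ZMod M)ˣ} (h : ψ c₀ ≠ 1) : 3 ≤ M := by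
  by_contra hM
  haveI := es1cu_units_subsingleton hM0 hM
  apply h
  rw [Subsingleton.elim c₀ 1, map_one]

/-- **D-E, instance level.**  `y` the Kummer generator, `w = w_r`.  If
`(w y)^d = r^n₀ · ε` with `ε` of unit content at `A` (i.e. `v_0(y^d) = n₀ · v(r)`), `p ∣ d`,
`p ≠ r`, `r ∤ d`, `ψ^d = 1` on `D`, and `ψ(c₀)^(d/p) ≠ 1` for some diamond `c₀ ∈ D` at `r`,
then `p ∤ n₀`. -/
theorem rtk6de_inst (hL : L ≠ 0) (hML : M ∣ L) {r d p : ℕ} (hr : r.Prime) (hrM : r ∣ M)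
    (A : ValuationSubring QbH) (hA : A.LiesOverPrime r) (hd : ¬ r ∣ d)
    (hψH : ∀ h ∈ H, ψ h = 1) (hψ1 : ψ (-1) = 1) (hψd : ∀ c ∈ D, ψ c ^ d = 1)
    {w : fieldBar L M H ≃ₐ[QbH] fieldBar L M H} (hw : IsWAt L M H r w)
    (hp : p.Prime) (hrp : r ≠ p) (hpd : p ∣ d)
    {c₀ : (ZMod M)ˣ} (hc₀ : c₀ ∈ D) (hc₀r : IsAtR M r c₀) (hψ₀ : ψ c₀ ^ (d / p) ≠ 1)
    {n₀ : ℤ} {ε e₁ e₂ : LaurentSeries QbH} {c' : QbH} (hc' : A.valuation c' = 1)
    (he1 : KronPrim A e₁) (he2 : KronPrim A e₂) (he : ε * e₂ = HahnSeries.C c' * e₁)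
    (hzd : ((w (rtk6deY D ψ H hML) : fieldBar L M H) : LaurentSeries QbH) ^ d
      = HahnSeries.C (((r : ℕ) : QbH) ^ n₀) * ε) :
    ¬ (p : ℤ) ∣ n₀ := by
  have hM0 : M ≠ 0 := NeZero.ne M
  have hψc₀ : ψ c₀ ≠ 1 := by
    intro h0
    apply hψ₀
    rw [h0, one_pow]
  have hM : 3 ≤ M := rtk6de_three_le ψ hM0 hψc₀
  have hy : rtk6deY D ψ H hML ≠ 0 := rtk6deY_ne_zero D ψ hM hψH hψ1 hML
  have hwy : w (rtk6deY D ψ H hML) ≠ 0 := fun h0 => hy ((map_eq_zero_iff w w.injective).1 h0)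
  have hz : ((w (rtk6deY D ψ H hML) : fieldBar L M H) : LaurentSeries QbH) ≠ 0 := by
    intro h0
    exact hwy (Subtype.ext h0)
  haveI : Algebra.IsAlgebraic ℚ QbH := isAlgebraic_rat_qbar
  obtain ⟨c, y₁, y₂, hc, -, -, h1, h2, h⟩ := stmtPrimH L M H A (w (rtk6deY D ψ H hML)) hwy
  obtain ⟨σ, hσ, hcyc⟩ := rtk6de_exists_cyc hr hrM A hA c₀ hc₀r
  have heig := rtk6de_eigen D ψ hL hML hr A hA hd hψd hw hσ hc₀ hcyc
  have hζd : ((ψ c₀ : QbHˣ) : QbH) ^ d = 1 := by
    rw [← Units.val_pow_eq_pow_val, hψd c₀ hc₀, Units.val_one]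
  have hζ : ((ψ c₀ : QbHˣ) : QbH) ^ (d / p) ≠ 1 := by
    intro h0
    apply hψ₀
    apply Units.ext
    rw [Units.val_pow_eq_pow_val, h0, Units.val_one]
  exact rtk6de_main' A hr hA hp hrp hσ hz hc h1 h2 h heig hpd hζd hζ hc' he1 he2 he hzd

/-- **D-E, instance level, coprime form.**  If `ψ(c₀)` has order exactly `d` for some diamond
`c₀ ∈ D` at `r` (`r ∤ d`) and `(w y)^d = r^n₀ · ε`, `ε` of unit content, then `gcd(n₀, d) = 1`. -/
theorem rtk6de_inst_coprime (hL : L ≠ 0) (hML : M ∣ L) {r d : ℕ} (hr : r.Prime) (hrM : r ∣ M)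
    (A : ValuationSubring QbH) (hA : A.LiesOverPrime r) (hd : ¬ r ∣ d)
    (hψH : ∀ h ∈ H, ψ h = 1) (hψ1 : ψ (-1) = 1) (hψd : ∀ c ∈ D, ψ c ^ d = 1)
    {w : fieldBar L M H ≃ₐ[QbH] fieldBar L M H} (hw : IsWAt L M H r w)
    {c₀ : (ZMod M)ˣ} (hc₀ : c₀ ∈ D) (hc₀r : IsAtR M r c₀) (hord : orderOf (ψ c₀) = d)
    {n₀ : ℤ} {ε e₁ e₂ : LaurentSeries QbH} {c' : QbH} (hc' : A.valuation c' = 1)
    (he1 : KronPrim A e₁) (he2 : KronPrim A e₂) (he : ε * e₂ = HahnSeries.C c' * e₁)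
    (hzd : ((w (rtk6deY D ψ H hML) : fieldBar L M H) : LaurentSeries QbH) ^ d
      = HahnSeries.C (((r : ℕ) : QbH) ^ n₀) * ε) :
    Nat.Coprime n₀.natAbs d := by
  have hd0 : d ≠ 0 := by
    rintro rfl
    exact hd (dvd_zero r)
  apply Nat.Coprime.symm
  refine Nat.coprime_of_dvd fun p hp hpd hpn => ?_
  have hrp : r ≠ p := by
    rintro rfl
    exact hd hpd
  have hψ₀ : ψ c₀ ^ (d / p) ≠ 1 := by
    intro h0
    have h1 : orderOf (ψ c₀) ∣ d / p := orderOf_dvd_of_pow_eq_one h0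
    rw [hord] at h1
    have h2 : 0 < d / p := Nat.div_pos (Nat.le_of_dvd (Nat.pos_of_ne_zero hd0) hpd) hp.pos
    have h3 : d ≤ d / p := Nat.le_of_dvd h2 h1
    have h4 : d / p < d := Nat.div_lt_self (Nat.pos_of_ne_zero hd0) hp.one_lt
    omega
  refine rtk6de_inst D ψ hL hML hr hrM A hA hd hψH hψ1 hψd hw hp hrp hpd hc₀ hc₀r hψ₀ hc' he1 he2
    he hzd ?_
  exact Int.natCast_dvd.2 hpn

/-- **`v_∞(u₀) = 0`**: the Kummer generator (hence `u₀ = y ^ d`) is primitive at `A`, for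
`D` = the diamonds at `r`, `r ∥ M`. -/
theorem rtk6de_inf {r : ℕ} (hr : r.Prime) (hrM : r ∣ M) (hr2 : ¬ r ^ 2 ∣ M)
    (A : ValuationSubring QbH) (hA : A.LiesOverPrime r) (hM : 3 ≤ M)
    (hψH : ∀ h ∈ H, ψ h = 1) (hψ1 : ψ (-1) = 1) (d : ℕ) :
    KronPrim A (rtk6d0Y QbH M H (rtk6deD M r hrM) ψ) ∧
      KronPrim A (rtk6d0Y QbH M H (rtk6deD M r hrM) ψ ^ d) := by
  classical
  haveI : Algebra.IsAlgebraic ℚ QbH := isAlgebraic_rat_qbar
  have hN : (rtk6d0N M H (rtk6deD M r hrM) : QbH) ∉ A.nonunits := by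
    have h1 : rtk6d0N M H (rtk6deD M r hrM) < r :=
      lt_of_le_of_lt (Finset.card_filter_le _ _) (rtk6de_card_D_lt hr hrM hr2)
    have h2 := rtk6d0N_pos M H (rtk6deD M r hrM)
    have hnd : ¬ (r : ℤ) ∣ ((rtk6d0N M H (rtk6deD M r hrM) : ℕ) : ℤ) := by
      intro h
      have h3 : r ∣ rtk6d0N M H (rtk6deD M r hrM) := by exact_mod_cast h
      exact Nat.not_dvd_of_pos_of_lt h2 h1 h3
    have h4 := tame_val_int A hr hA _ hnd
    rw [ValuationSubring.mem_nonunits_iff]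
    have h5 : A.valuation ((rtk6d0N M H (rtk6deD M r hrM) : ℕ) : QbH) = 1 := by
      simpa using h4
    rw [h5]
    exact lt_irrefl _
  have hP := rtk6d0_kronPrim QbH (rtk6deD M r hrM) ψ A hM hψH hψ1 hN
  exact ⟨hP, hP.pow d⟩

end Inst

end Fermat.Agent.RT.K6

end


end ZBES1_009_4

/-! ### bundled: `Fermat.Agent.RT.K6.DE0` -/
section ZBES1_009_5
/-
K-machine, piece K6 / LF-inst, `n₀` for the ÉTALE generators (helper74): if `ψ` is trivial on the
diamonds at `r`, the valuation `n₀` of `u_ψ = y_ψ ^ d` at `v_0` is DIVISIBLE by `d`.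

`A ⊂ ℚ̄` a valuation ring over `r`, `I = I_A`, `E₀ = ℚ̄^I` (`UNIP.beta0Field A`), `r ∤ d`.

* `rtk6de0_dvd_of_pow_mem` : `ϖ ^ d = r`, `ϖ ^ n ∈ E₀` ⇒ `d ∣ n`   (`r` is a uniformizer of `E₀`).
* `rtk6de0_core`   : `v(c)^d = v(r)^n₀` and `θ_c(σ) = 1` for ALL `σ ∈ I` ⇒ `d ∣ n₀`.
* `rtk6de0_main`   : `z` a Laurent series with content `c`, `σ z = z` for all `σ ∈ I`,
                     `v(c)^d = v(r)^n₀` ⇒ `d ∣ n₀`;   `rtk6de0_main'` : with `z^d = r^n₀ · ε`.
* `rtk6de0_isCycAt` : every `σ ∈ I` has a cyclotomic image at `r` (`r ∥ M`).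
* `rtk6de0_fix`    : `y ∈ fieldBar L M H` fixed by `I` (coefficientwise) and by the diamonds at `r`
                     ⇒ `σ (w y) = w y` for all `σ ∈ I`.
* `rtk6de0_inst_gen`, `rtk6de0_inst` : **`d ∣ n₀`** for such `y`, resp. for the resolvent
                     `y = rtk6deY D ψ H hML`, `D ⊇` diamonds at `r`, `ψ` trivial on them.
-/

set_option autoImplicit false
set_option linter.unusedSectionVars false
set_option linter.unusedVariables false
set_option linter.style.haveILetI false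

noncomputable section

namespace Fermat.Agent.RT.K6

open ModularCurve AlgebraicCurve HahnSeries Fermat.Agent.ES Fermat.Agent.ES1
  Fermat.Agent.ES1.G2 Fermat.Agent.S05 Fermat.Agent.S15 Fermat.Agent.UNIP

section Core

variable (A : ValuationSubring QbH)

/-- `r` is a uniformizer of the inertia field: if `ϖ ^ d = r` and `ϖ ^ n ∈ E₀` then `d ∣ n` -/
theorem rtk6de0_dvd_of_pow_mem {r d : ℕ} (hr : r.Prime) (hA : A.LiesOverPrime r) (hd : 0 < d)
    {ϖ : QbH} (hϖ : ϖ ^ d = ((r : ℕ) : QbH)) :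
    ∀ n : ℕ, ϖ ^ n ∈ beta0Field A → d ∣ n := by
  have hr0 : ((r : ℕ) : QbH) ≠ 0 := Nat.cast_ne_zero.2 hr.ne_zero
  have hϖ0 : ϖ ≠ 0 := by
    rintro rfl
    rw [zero_pow hd.ne'] at hϖ
    exact hr0 hϖ.symm
  have hvr : A.valuation ((r : ℕ) : QbH) < 1 := (ValuationSubring.mem_nonunits_iff A).1 hA
  have hvϖ : A.valuation ϖ < 1 := by
    by_contra h
    have h1 : 1 ≤ A.valuation ϖ := not_lt.1 h
    have h2 : 1 ≤ A.valuation ϖ ^ d := one_le_pow₀ h1
    rw [← map_pow, hϖ] at h2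
    exact absurd hvr (not_lt.2 h2)
  have hvϖ0 : 0 < A.valuation ϖ := zero_lt_iff.2 ((Valuation.ne_zero_iff _).2 hϖ0)
  intro n
  induction n using Nat.strong_induction_on with
  | _ n ih =>
    intro hn
    rcases Nat.eq_zero_or_pos n with h0 | hpos
    · rw [h0]
      exact dvd_zero d
    · have hmem : ϖ ^ n ∈ A.nonunits := by
        rw [ValuationSubring.mem_nonunits_iff, map_pow]
        exact pow_lt_one₀ zero_le hvϖ hpos.ne'
      have hdiv := beta0_div_mem hr hA hn hmem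
      have hnd : d ≤ n := by
        by_contra h
        have hlt : n < d := not_le.1 h
        have e : ϖ ^ n / ((r : ℕ) : QbH) = (ϖ ^ (d - n))⁻¹ := by
          rw [← hϖ]
          have h3 : ϖ ^ d = ϖ ^ n * ϖ ^ (d - n) := by
            rw [← _root_.pow_add]
            congr 1
            omega
          rw [h3]
          field_simp
        rw [e] at hdiv
        have h1 : A.valuation ((ϖ ^ (d - n))⁻¹) ≤ 1 := (A.valuation_le_one_iff _).2 hdiv
        rw [map_inv₀, map_pow] at h1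
        have h2 : A.valuation ϖ ^ (d - n) < 1 := pow_lt_one₀ zero_le hvϖ (by omega)
        have h4 : 0 < A.valuation ϖ ^ (d - n) := pow_pos hvϖ0 _
        rw [inv_le_one₀ h4] at h1
        exact absurd h2 (not_lt.2 h1)
      have e : ϖ ^ (n - d) = ϖ ^ n / ((r : ℕ) : QbH) := by
        rw [← hϖ, eq_div_iff (pow_ne_zero _ hϖ0), ← _root_.pow_add]
        congr 1
        omega
      have hmem' : ϖ ^ (n - d) ∈ beta0Field A := by
        rw [e]
        exact div_mem hn (natCast_mem _ r)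
      have h5 := ih (n - d) (by omega) hmem'
      have h6 : n = (n - d) + d := by omega
      rw [h6]
      exact dvd_add h5 (dvd_refl d)

/-- **Core**: `v(c)^d = v(r)^n₀`, `r ∤ d`, and `θ_c(σ) = 1` for all `σ` in the inertia group ⇒
`d ∣ n₀`. -/
theorem rtk6de0_core {r d : ℕ} (hr : r.Prime) (hA : A.LiesOverPrime r) (hd : 0 < d)
    (hrd : ¬ r ∣ d) {c : QbH} (hc : c ≠ 0) {n₀ : ℤ}
    (hval : A.valuation c ^ d = A.valuation ((r : ℕ) : QbH) ^ n₀)
    (hθ : ∀ σ ∈ A.inertiaSubgroupIn ℚ, tameTr A σ c) : (d : ℤ) ∣ n₀ := by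
  haveI : Algebra.IsAlgebraic ℚ QbH := isAlgebraic_rat_qbar
  have hr0 : ((r : ℕ) : QbH) ≠ 0 := Nat.cast_ne_zero.2 hr.ne_zero
  obtain ⟨ϖ, hϖ⟩ := IsAlgClosed.exists_pow_nat_eq ((r : ℕ) : QbH) hd
  have hϖ0 : ϖ ≠ 0 := by
    rintro rfl
    rw [zero_pow hd.ne'] at hϖ
    exact hr0 hϖ.symm
  have hz0 : ϖ ^ n₀ ≠ 0 := zpow_ne_zero _ hϖ0
  -- `v(ϖ ^ n₀) = v(c)`
  have h1 : tameW A (Units.mk0 (ϖ ^ n₀) hz0) = tameW A (Units.mk0 c hc) ^ (1 : ℤ) := by
    rw [zpow_one]
    have h2 : (tameW A (Units.mk0 (ϖ ^ n₀) hz0) * (tameW A (Units.mk0 c hc))⁻¹) ^ d = 1 := by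
      rw [mul_pow, inv_pow, mul_inv_eq_one]
      apply Units.ext
      rw [Units.val_pow_eq_pow_val, tameW_val, Units.val_mk0, Units.val_pow_eq_pow_val, tameW_val,
        Units.val_mk0, hval, ← hϖ, map_pow, map_zpow₀, ← zpow_natCast, ← zpow_mul,
        ← zpow_natCast (A.valuation ϖ) d, ← zpow_mul, mul_comm]
    exact mul_inv_eq_one.1 (tameW_torsionFree A _ d hd h2)
  -- `ϖ ^ n₀` is fixed by inertia
  have hfix : ϖ ^ n₀ ∈ beta0Field A := by
    rw [mem_beta0Field]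
    intro σ hσ
    have hT : tameTr A σ (ϖ ^ n₀) := by
      have h3 := tameTr_of_val_zpow A hσ (Units.mk0 (ϖ ^ n₀) hz0) (Units.mk0 c hc) 1 h1
        (by rw [Units.val_mk0]; exact hθ σ hσ)
      rwa [Units.val_mk0] at h3
    have hηd : (σ (ϖ ^ n₀) / ϖ ^ n₀) ^ d = 1 := by
      have e1 : (ϖ ^ n₀) ^ d = ((r : ℕ) : QbH) ^ n₀ := by
        rw [← zpow_natCast (ϖ ^ n₀), ← zpow_mul, mul_comm, zpow_mul, zpow_natCast, hϖ]
      rw [div_pow, ← map_pow, e1, map_zpow₀, map_natCast, div_self (zpow_ne_zero _ hr0)]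
    by_contra hne
    have hη1 : σ (ϖ ^ n₀) / ϖ ^ n₀ ≠ 1 := by
      intro h
      apply hne
      rwa [div_eq_one_iff_eq hz0] at h
    exact rtk6de_root_unit_gen A hr hA hrd hηd hη1 hT
  -- conclusion
  rcases le_total 0 n₀ with h | h
  · obtain ⟨n, rfl⟩ := Int.eq_ofNat_of_zero_le h
    rw [zpow_natCast] at hfix
    exact Int.natCast_dvd_natCast.2 (rtk6de0_dvd_of_pow_mem A hr hA hd hϖ n hfix)
  · obtain ⟨n, hn⟩ := Int.exists_eq_neg_ofNat h
    subst hn
    rw [zpow_neg, zpow_natCast] at hfix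
    have h4 : ϖ ^ n ∈ beta0Field A := by
      have := inv_mem hfix
      rwa [inv_inv] at this
    exact (dvd_neg).2 (Int.natCast_dvd_natCast.2 (rtk6de0_dvd_of_pow_mem A hr hA hd hϖ n h4))

/-- **abstract form**: `z` a Laurent series with content `c`, fixed (coefficientwise) by the
inertia group at `r`, `v(c)^d = v(r)^n₀`, `r ∤ d` ⇒ `d ∣ n₀`. -/
theorem rtk6de0_main {r d : ℕ} (hr : r.Prime) (hA : A.LiesOverPrime r) (hd : 0 < d)
    (hrd : ¬ r ∣ d) {z y₁ y₂ : LaurentSeries QbH} {c : QbH} (hc : c ≠ 0)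
    (h1 : KronPrim A y₁) (h2 : KronPrim A y₂) (h : z * y₂ = HahnSeries.C c * y₁)
    (hσz : ∀ σ ∈ A.inertiaSubgroupIn ℚ, coeffMap ((σ : QbH ≃ₐ[ℚ] QbH) : QbH →+* QbH) z = z)
    {n₀ : ℤ} (hval : A.valuation c ^ d = A.valuation ((r : ℕ) : QbH) ^ n₀) : (d : ℤ) ∣ n₀ := by
  haveI : Algebra.IsAlgebraic ℚ QbH := isAlgebraic_rat_qbar
  refine rtk6de0_core A hr hA hd hrd hc hval fun σ hσ => ?_
  have h3 : coeffMap ((σ : QbH ≃ₐ[ℚ] QbH) : QbH →+* QbH) z = HahnSeries.C (1 : QbH) * z := by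
    rw [map_one, one_mul]
    exact hσz σ hσ
  exact rtk6de_symbol A hσ hc A.one_mem h1 h2 h h3

/-- **abstract form with a unit**: as `rtk6de0_main`, with `z ^ d = r ^ n₀ · ε`, `ε` of unit
content. -/
theorem rtk6de0_main' {r d : ℕ} (hr : r.Prime) (hA : A.LiesOverPrime r) (hd : 0 < d)
    (hrd : ¬ r ∣ d) {z y₁ y₂ : LaurentSeries QbH} {c : QbH} (hz : z ≠ 0) (hc : c ≠ 0)
    (h1 : KronPrim A y₁) (h2 : KronPrim A y₂) (h : z * y₂ = HahnSeries.C c * y₁)
    (hσz : ∀ σ ∈ A.inertiaSubgroupIn ℚ, coeffMap ((σ : QbH ≃ₐ[ℚ] QbH) : QbH →+* QbH) z = z)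
    {n₀ : ℤ} {ε e₁ e₂ : LaurentSeries QbH} {c' : QbH} (hc' : A.valuation c' = 1)
    (he1 : KronPrim A e₁) (he2 : KronPrim A e₂) (he : ε * e₂ = HahnSeries.C c' * e₁)
    (hzd : z ^ d = HahnSeries.C (((r : ℕ) : QbH) ^ n₀) * ε) : (d : ℤ) ∣ n₀ := by
  have hr0 : ((r : ℕ) : QbH) ≠ 0 := Nat.cast_ne_zero.2 hr.ne_zero
  have hc'0 : c' ≠ 0 := by
    intro h0
    rw [h0, map_zero] at hc'
    exact zero_ne_one hc'
  refine rtk6de0_main A hr hA hd hrd hc h1 h2 h hσz ?_
  have hA1 : z ^ d * y₂ ^ d = HahnSeries.C (c ^ d) * y₁ ^ d := by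
    rw [← mul_pow, h, mul_pow, map_pow]
  have hA2 : z ^ d * e₂ = HahnSeries.C (((r : ℕ) : QbH) ^ n₀ * c') * e₁ := by
    rw [hzd, map_mul, mul_assoc, he]
    ring
  have := rtk6de_content_unique A (pow_ne_zero d hz) (pow_ne_zero d hc)
    (mul_ne_zero (zpow_ne_zero _ hr0) hc'0) (h1.pow d) (h2.pow d) he1 he2 hA1 hA2
  rw [map_pow, map_mul, hc', mul_one, map_zpow₀] at this
  exact this

end Core

section Cyc

variable {M : ℕ} [NeZero M]

/-- **every `σ` in the inertia group at `r` has a cyclotomic image at `r`** (`r ∥ M`) -/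
theorem rtk6de0_isCycAt {r : ℕ} (hr : r.Prime) (hrM : r ∣ M) (hr2 : ¬ r ^ 2 ∣ M)
    (A : ValuationSubring QbH) (hA : A.LiesOverPrime r) {σ : QbH ≃ₐ[ℚ] QbH}
    (hσ : σ ∈ A.inertiaSubgroupIn ℚ) : ∃ c : (ZMod M)ˣ, IsCycAt M r σ c := by
  haveI : Algebra.IsAlgebraic ℚ QbH := isAlgebraic_rat_qbar
  have hM0 : M ≠ 0 := NeZero.ne M
  haveI : NeZero (M : AlgebraicClosure ℚ) := ⟨Nat.cast_ne_zero.mpr hM0⟩
  obtain ⟨ζ, hζ⟩ := HasEnoughRootsOfUnity.exists_primitiveRoot (AlgebraicClosure ℚ) M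
  -- `σ ζ = ζ ^ k`
  have hσζ : IsPrimitiveRoot (σ ζ) M := hζ.map_of_injective σ.injective
  obtain ⟨k, hkM, hk⟩ := hζ.eq_pow_of_pow_eq_one hσζ.pow_eq_one
  have hcop : Nat.Coprime k M := by
    rw [← hk] at hσζ
    exact (hζ.pow_iff_coprime (Nat.pos_of_ne_zero hM0) k).1 hσζ
  have hval : ((ZMod.unitOfCoprime k hcop : (ZMod M)ˣ) : ZMod M).val = k := by
    rw [ZMod.coe_unitOfCoprime, ZMod.val_natCast, Nat.mod_eq_of_lt hkM]
  refine ⟨ZMod.unitOfCoprime k hcop, fun η hη => ?_, ?_⟩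
  · rw [hval]
    have hηM : η ^ M = 1 := by
      obtain ⟨m, rfl⟩ := hrM
      rw [pow_mul, hη, one_pow]
    obtain ⟨j, -, rfl⟩ := hζ.eq_pow_of_pow_eq_one hηM
    rw [map_pow, ← hk, ← pow_mul, ← pow_mul, mul_comm]
  · show (((((ZMod.unitOfCoprime k hcop : (ZMod M)ˣ) : ZMod M).val : ℕ) : ZMod (M / r))) = 1
    rw [hval]
    have hd0 : M / r ≠ 0 := by
      intro h
      rcases (Nat.div_eq_zero_iff).mp h with h0 | h0
      · exact hr.ne_zero h0
      · exact absurd (Nat.le_of_dvd (Nat.pos_of_ne_zero hM0) hrM) (not_le.mpr h0)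
    have hrd : ¬ r ∣ M / r := by
      intro h
      apply hr2
      obtain ⟨m, hm⟩ := h
      refine ⟨m, ?_⟩
      have h3 := Nat.div_mul_cancel hrM
      rw [hm] at h3
      rw [← h3]
      ring
    have hMr : M = r * (M / r) := (Nat.mul_div_cancel' hrM).symm
    -- `ζ' = ζ ^ r` is a primitive `(M / r)`-th root of unity, fixed by `σ`
    have hζ' : IsPrimitiveRoot (ζ ^ r) (M / r) :=
      hζ.pow (Nat.pos_of_ne_zero hM0) hMr
    have hfix : σ (ζ ^ r) = ζ ^ r := rtk6de_inertia_fix_root A hr hA hrd hσ hζ'.pow_eq_one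
    have h4 : (ζ ^ r) ^ k = (ζ ^ r) ^ 1 := by
      rw [pow_one]
      calc (ζ ^ r) ^ k = (ζ ^ k) ^ r := by rw [← pow_mul, ← pow_mul, mul_comm]
        _ = σ (ζ ^ r) := by rw [hk, map_pow]
        _ = ζ ^ r := hfix
    have hfo : IsOfFinOrder (ζ ^ r) :=
      isOfFinOrder_iff_pow_eq_one.mpr ⟨M / r, Nat.pos_of_ne_zero hd0, hζ'.pow_eq_one⟩
    have hmod : k ≡ 1 [MOD M / r] := by
      have h5 := hfo.pow_eq_pow_iff_modEq (n := k) (m := 1)
      rw [← hζ'.eq_orderOf] at h5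
      exact h5.mp h4
    have h6 := (ZMod.natCast_eq_natCast_iff _ _ _).mpr hmod
    rw [h6, Nat.cast_one]

end Cyc

section Inst

variable {L M : ℕ} [NeZero M] {H : Subgroup (ZMod M)ˣ}

/-- **`σ (w y) = w y`** for every `σ` in the inertia group at `r`, if `y` is fixed by the
inertia group (coefficientwise) and by the diamonds at `r`. -/
theorem rtk6de0_fix (hL : L ≠ 0) (hML : M ∣ L) {r : ℕ} (hr : r.Prime) (hrM : r ∣ M)
    (hr2 : ¬ r ^ 2 ∣ M) (A : ValuationSubring QbH) (hA : A.LiesOverPrime r)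
    {w : fieldBar L M H ≃ₐ[QbH] fieldBar L M H} (hw : IsWAt L M H r w)
    (y : fieldBar L M H)
    (hgal : ∀ σ ∈ A.inertiaSubgroupIn ℚ, arithmeticGalois (fieldQ L M H) σ • y = y)
    (hdiam : ∀ c : (ZMod M)ˣ, IsAtR M r c → ∀ δ : fieldBar L M H ≃ₐ[QbH] fieldBar L M H,
      IsDiamondH L M H c δ → δ y = y)
    {σ : QbH ≃ₐ[ℚ] QbH} (hσ : σ ∈ A.inertiaSubgroupIn ℚ) :
    coeffMap (σ : QbH →+* QbH) ((w y : fieldBar L M H) : LaurentSeries QbH)
      = ((w y : fieldBar L M H) : LaurentSeries QbH) := by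
  obtain ⟨c, hcyc⟩ := rtk6de0_isCycAt hr hrM hr2 A hA hσ
  obtain ⟨δ, hδ⟩ := stmtDiamondBarH_of_diamond stmtDiamondH L M H hL hML c
  have h1 := hw.galois σ c hcyc δ hδ y
  rw [hgal σ hσ, hdiam c hcyc.2 δ hδ] at h1
  have h3 : ((arithmeticGalois (fieldQ L M H) σ • w y : fieldBar L M H) :
      LaurentSeries QbH) = ((w y : fieldBar L M H) : LaurentSeries QbH) :=
    congrArg (fun x : fieldBar L M H => (x : LaurentSeries QbH)) h1
  rw [coe_arithmeticGalois_smul] at h3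
  exact h3

/-- **`d ∣ n₀`, general form.**  `y ∈ fieldBar L M H`, `y ≠ 0`, fixed by the inertia group at `r`
(coefficientwise) and by the diamonds at `r`, `w = w_r`; if `(w y)^d = r^n₀ · ε` with `ε` of unit
content at `A` and `r ∤ d`, then `d ∣ n₀`. -/
theorem rtk6de0_inst_gen (hL : L ≠ 0) (hML : M ∣ L) {r d : ℕ} (hr : r.Prime) (hrM : r ∣ M)
    (hr2 : ¬ r ^ 2 ∣ M) (A : ValuationSubring QbH) (hA : A.LiesOverPrime r) (hd : ¬ r ∣ d)
    {w : fieldBar L M H ≃ₐ[QbH] fieldBar L M H} (hw : IsWAt L M H r w)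
    (y : fieldBar L M H) (hy : y ≠ 0)
    (hgal : ∀ σ ∈ A.inertiaSubgroupIn ℚ, arithmeticGalois (fieldQ L M H) σ • y = y)
    (hdiam : ∀ c : (ZMod M)ˣ, IsAtR M r c → ∀ δ : fieldBar L M H ≃ₐ[QbH] fieldBar L M H,
      IsDiamondH L M H c δ → δ y = y)
    {n₀ : ℤ} {ε e₁ e₂ : LaurentSeries QbH} {c' : QbH} (hc' : A.valuation c' = 1)
    (he1 : KronPrim A e₁) (he2 : KronPrim A e₂) (he : ε * e₂ = HahnSeries.C c' * e₁)
    (hzd : ((w y : fieldBar L M H) : LaurentSeries QbH) ^ d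
      = HahnSeries.C (((r : ℕ) : QbH) ^ n₀) * ε) :
    (d : ℤ) ∣ n₀ := by
  have hd0 : 0 < d := by
    rcases Nat.eq_zero_or_pos d with h | h
    · exact absurd (h ▸ dvd_zero r) hd
    · exact h
  have hwy : w y ≠ 0 := fun h0 => hy ((map_eq_zero_iff w w.injective).1 h0)
  have hz : ((w y : fieldBar L M H) : LaurentSeries QbH) ≠ 0 := by
    intro h0
    exact hwy (Subtype.ext h0)
  haveI : Algebra.IsAlgebraic ℚ QbH := isAlgebraic_rat_qbar
  obtain ⟨c, y₁, y₂, hc, -, -, h1, h2, h⟩ := stmtPrimH L M H A (w y) hwy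
  exact rtk6de0_main' A hr hA hd0 hd hz hc h1 h2 h
    (fun σ hσ => rtk6de0_fix hL hML hr hrM hr2 A hA hw y hgal hdiam hσ) hc' he1 he2 he hzd

/-- **`d ∣ n₀`, valuation form**: the same with the content `c` of `w y` given,
`v(c)^d = v(r)^n₀`. -/
theorem rtk6de0_inst_val (hL : L ≠ 0) (hML : M ∣ L) {r d : ℕ} (hr : r.Prime) (hrM : r ∣ M)
    (hr2 : ¬ r ^ 2 ∣ M) (A : ValuationSubring QbH) (hA : A.LiesOverPrime r) (hd0 : 0 < d)
    (hd : ¬ r ∣ d)
    {w : fieldBar L M H ≃ₐ[QbH] fieldBar L M H} (hw : IsWAt L M H r w)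
    (y : fieldBar L M H)
    (hgal : ∀ σ ∈ A.inertiaSubgroupIn ℚ, arithmeticGalois (fieldQ L M H) σ • y = y)
    (hdiam : ∀ c : (ZMod M)ˣ, IsAtR M r c → ∀ δ : fieldBar L M H ≃ₐ[QbH] fieldBar L M H,
      IsDiamondH L M H c δ → δ y = y)
    {c : QbH} {y₁ y₂ : LaurentSeries QbH} (hc : c ≠ 0) (h1 : KronPrim A y₁)
    (h2 : KronPrim A y₂)
    (h : ((w y : fieldBar L M H) : LaurentSeries QbH) * y₂ = HahnSeries.C c * y₁)
    {n₀ : ℤ} (hval : A.valuation c ^ d = A.valuation ((r : ℕ) : QbH) ^ n₀) :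
    (d : ℤ) ∣ n₀ :=
  rtk6de0_main A hr hA hd0 hd hc h1 h2 h
    (fun σ hσ => rtk6de0_fix hL hML hr hrM hr2 A hA hw y hgal hdiam hσ) hval

variable (D : Subgroup (ZMod M)ˣ) (ψ : (ZMod M)ˣ →* QbHˣ)

/-- **`d ∣ n₀` for the étale generators.**  `y = rtk6deY D ψ H hML` the resolvent of a character
`ψ` which is TRIVIAL on the diamonds at `r` (`D` contains them), `ψ^d = 1` on `D`, `r ∤ d`,
`r ∥ M`, `w = w_r`: if `(w y)^d = r^n₀ · ε` with `ε` of unit content at `A`, then `d ∣ n₀`. -/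
theorem rtk6de0_inst (hL : L ≠ 0) (hML : M ∣ L) {r d : ℕ} (hr : r.Prime) (hrM : r ∣ M)
    (hr2 : ¬ r ^ 2 ∣ M) (A : ValuationSubring QbH) (hA : A.LiesOverPrime r) (hd : ¬ r ∣ d)
    (hM : 3 ≤ M) (hψH : ∀ h ∈ H, ψ h = 1) (hψ1 : ψ (-1) = 1) (hψd : ∀ c ∈ D, ψ c ^ d = 1)
    (hDr : ∀ c : (ZMod M)ˣ, IsAtR M r c → c ∈ D)
    (hψr : ∀ c : (ZMod M)ˣ, IsAtR M r c → ψ c = 1)
    {w : fieldBar L M H ≃ₐ[QbH] fieldBar L M H} (hw : IsWAt L M H r w)
    {n₀ : ℤ} {ε e₁ e₂ : LaurentSeries QbH} {c' : QbH} (hc' : A.valuation c' = 1)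
    (he1 : KronPrim A e₁) (he2 : KronPrim A e₂) (he : ε * e₂ = HahnSeries.C c' * e₁)
    (hzd : ((w (rtk6deY D ψ H hML) : fieldBar L M H) : LaurentSeries QbH) ^ d
      = HahnSeries.C (((r : ℕ) : QbH) ^ n₀) * ε) :
    (d : ℤ) ∣ n₀ := by
  have hy : rtk6deY D ψ H hML ≠ 0 := rtk6deY_ne_zero D ψ hM hψH hψ1 hML
  refine rtk6de0_inst_gen hL hML hr hrM hr2 A hA hd hw (rtk6deY D ψ H hML) hy
    (fun σ hσ => rtk6de_galois_y D ψ hr A hA hd hψd hσ hML) ?_ hc' he1 he2 he hzd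
  intro c hc δ hδ
  rw [rtk6de_diamond_y D ψ hML (hDr c hc) hδ, hψr c hc, Units.val_one, one_smul]

end Inst

end Fermat.Agent.RT.K6

end


end ZBES1_009_5

/-! ### bundled: `Fermat.Agent.ES1.G1.MuDiam` -/
section ZBES1_009_6

/-!
# ES₁ / G1-DM — diamond-equivariance of the multiplier map (captain helper36)

`muDiamH (hL : L ≠ 0) (hML : M ∣ L) : MuDiamH L M H` :
`μ (⟨c⟩ x) = diamGrp σ (μ x)` for `σ ∈ Γ₀(L) ∩ Γ₀(M)` with `σ₀₀ ≡ c` mod `M`.
-/

set_option autoImplicit false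

noncomputable section

namespace Fermat.Agent.ES1

open UpperHalfPlane ModularForm CongruenceSubgroup ModularCurve AlgebraicCurve HahnSeries
open Fermat.Agent.S23 Fermat.Agent.S24 Fermat.Agent.S28 Fermat.Agent.ES Fermat.Agent.ES.RC
open Fermat.Agent.ES1.G2
open scoped MatrixGroups

/-- **G1-DM, relative form**: for every diamond automorphism `δ` of `fieldBar L M H`. -/
theorem muRelH_diamondJ {L M : ℕ} {H : Subgroup (ZMod M)ˣ} (hL : L ≠ 0) (hML : M ∣ L)
    {c : (ZMod M)ˣ} {σ : SL(2, ℤ)} (hσL : σ ∈ Gamma0 L) (hσM : σ ∈ Gamma0 M)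
    (hc : diamHom M ⟨σ, hσM⟩ = c) {δ : fieldBar L M H ≃ₐ[QbH] fieldBar L M H}
    (hδ : IsDiamondH L M H c δ) {n : ℕ} {x : JH L M H} {χ : CharGrpH L M H}
    (h : MuRelH L M H n x χ) :
    MuRelH L M H n (diamondJ δ x) (diamGrp L M H σ hσL hσM χ) := by
  haveI : NeZero L := ⟨hL⟩
  obtain ⟨u, a, g, R, hK, ⟨ha, hg, hg0, hfrac⟩, hroot, hmult⟩ := h
  refine ⟨δ u, fun z => a (σ • z), fun z => g (σ • z),
    es1g1dmRoot R σ (fun _ hγ => conj_mem_gammaH hσL hσM hγ),
    es1h_kummerRel_diamond δ hK,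
    ⟨es1g1dm_isModFunG_comp hML H σ hσL hσM ha, es1g1dm_isModFunG_comp hML H σ hσL hσM hg,
      ?_, es1g1dm_core hML H σ hσL hσM hc hδ u ha hg hfrac⟩,
    fun τ => hroot (σ • τ), ?_⟩
  · intro h0
    apply hg0
    funext z
    have := congrFun h0 (σ⁻¹ • z)
    simpa [smul_smul] using this
  · rw [es1g1dmRoot_multAdd R σ hσL hσM, hmult]

/-- **(D) diamond-equivariance of the multiplier.** -/
theorem muDiamH {L M : ℕ} (H : Subgroup (ZMod M)ˣ) (hL : L ≠ 0) (hML : M ∣ L) :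
    MuDiamH L M H := by
  intro c σ hσL hσM hc n _ x χ h
  obtain ⟨δ, hδ⟩ := stmtDiamondBarH_of_diamond stmtDiamondH L M H hL hML c
  rw [es1Diamond_eq hδ]
  exact muRelH_diamondJ hL hML hσL hσM hc hδ h

end Fermat.Agent.ES1

end
end ZBES1_009_6

/-! ### bundled: `Fermat.Agent.RT.K7F.Plan` -/
section ZBES1_009_7

/-!
# RT-K7F — FLAT at `p` for the Taylor–Wiles levels: the interface (sub-captain helper34)

Piece table: `NOTES/RT-K7F.md`.  `K = ℚ̄`, `A ⊂ ℚ̄` a valuation ring over `p`, `k = kA A`,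
`M ∣ L`, `p ∤ L`, `H ≤ (ℤ/M)ˣ`, `F_H = ES1.fieldBar L M H`, `F̄_H = ES1.fieldC k L M H`,
`J_H = ES1.JH L M H`, `Δ = (ℤ/M)ˣ/±H`, `d = |Δ|`.

* `K7FLevel L M H p` : the standing hypotheses;
* `k7fGenus L d` : `1 + d (g₀ - 1)`, `g₀ = gN L`;
* `GaussRedH`, `GaussIntH`, `StmtRedFH` : Gauss valuation of `F_H`, fraction form (twins of
  `ES.M.GaussRed`, `GaussInt`, `StmtRedF`);
* `JHtw L M H χ` : `J_H` with the TWISTED Galois action `σ •_χ x = ⟨χ σ⟩ (σ • x)`
  (`χ : G_ℚ →* (ℤ/M)ˣ`), a `DistribMulAction` (**FL-TW**, proved here);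
* `ModPRH` : the reduction package of `X_H(L; M)` at `A` (twin of `W1.ModPR`, with the extra
  field `diam` for the diamonds);
* the Props of the pieces and the final statement `StmtFlatH`.
-/

set_option autoImplicit false
set_option linter.unusedSectionVars false
set_option synthInstance.maxHeartbeats 400000
set_option maxHeartbeats 1600000

noncomputable section

namespace Fermat.Agent.RT.K7F

open AlgebraicCurve Module ModularCurve HahnSeries
open Fermat.Agent.ES Fermat.Agent.ES.M Fermat.Agent.ES1 Fermat.Agent.ES1.G2 Fermat.Agent.W1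
  Fermat.Agent.S24

/-- `G_ℚ` -/
abbrev K7GQ : Type := AlgebraicClosure ℚ ≃ₐ[ℚ] AlgebraicClosure ℚ

/-! ## Standing hypotheses -/

/-- **The standing hypotheses of K7-FLAT**: `M ∣ L`, `p ∤ L` odd, `M` squarefree, `Δ` a
`p`-group, and `2 ∣ L` if `p = 3` (so that `X_H(L; M) → X₀(L)` is unramified). -/
structure K7FLevel (L M : ℕ) (H : Subgroup (ZMod M)ˣ) (p : ℕ) : Prop where
  hL : 2 ≤ L
  hML : M ∣ L
  hp : p.Prime
  hp2 : p ≠ 2
  hpL : ¬ p ∣ L
  h5 : 5 ≤ p ∨ (5 - p) ∣ L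
  sqfree : Squarefree M
  pgroup : ∀ (m : ℕ) (a : Fin (m + 1) → (ZMod M)ˣ), IsRepFam H a → ∃ k : ℕ, m + 1 = p ^ k

/-- the genus of `X_H(L; M)` when `X_H(L; M) → X₀(L)` is unramified of degree `d` -/
def k7fGenus (L d : ℕ) : ℕ := ((d : ℤ) * ((gN L : ℤ) - 1) + 1).toNat

/-! ## Gauss valuation of `F_H`, fraction form -/

section Gauss

variable (L M : ℕ) (H : Subgroup (ZMod M)ˣ) (A : ValuationSubring Kb)

/-- `x = Y₁ / Y₂` with `A`-integral `Y₁, Y₂ ∈ F_H`, `Ȳ₂ ≠ 0`, and `w = Ȳ₁ / Ȳ₂`. -/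
def GaussRedH (x : fieldBar L M H) (w : LaurentSeries (kA A)) : Prop :=
  ∃ Y₁ Y₂ : LaurentSeries A,
    kronIncl A Y₁ ∈ fieldBar L M H ∧ kronIncl A Y₂ ∈ fieldBar L M H ∧
      kronRed A Y₂ ≠ 0 ∧ (x : LaurentSeries Kb) * kronIncl A Y₂ = kronIncl A Y₁ ∧
        w * kronRed A Y₂ = kronRed A Y₁

/-- Gauss norm `≤ 1` -/
def GaussIntH (x : fieldBar L M H) : Prop := ∃ w : LaurentSeries (kA A), GaussRedH L M H A x w

/-- **(RedF_H)**: the reduction of an `A`-integral element of `F_H` lies in `F̄_H`. -/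
def StmtRedFH : Prop :=
  ∀ Y : LaurentSeries A, kronIncl A Y ∈ fieldBar L M H → kronRed A Y ∈ fieldC (kA A) L M H

/-- `P` is the cusp `∞` of `F_H`: its order function is the `q`-order. -/
def IsCuspInftyH (P : Place Kb (fieldBar L M H)) : Prop :=
  ∀ f : fieldBar L M H, f ≠ 0 → P.ord f = (f : LaurentSeries Kb).order

/-- `Q` is the cusp `∞` of `F̄_H`. -/
def IsCuspInftyHk (Q : Place (kA A) (fieldC (kA A) L M H)) : Prop :=
  ∀ f : fieldC (kA A) L M H, f ≠ 0 → Q.ord f = (f : LaurentSeries (kA A)).order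

end Gauss

/-! ## FL-TW: the twisted Galois action on `J_H` -/

section Twist

variable (L M : ℕ) (H : Subgroup (ZMod M)ˣ) (χ : K7GQ →* (ZMod M)ˣ)

/-- diamonds exist on `fieldBar` (on main) -/
theorem k7f_diamondBar : StmtDiamondBarH := stmtDiamondBarH_of_diamond stmtDiamondH

/-- **`J_H` with the `χ`-twisted Galois action** (a type synonym of `ES1.JH L M H`). -/
def JHtw (L M : ℕ) (H : Subgroup (ZMod M)ˣ) (_χ : K7GQ →* (ZMod M)ˣ) : Type := JH L M H

instance : AddCommGroup (JHtw L M H χ) := inferInstanceAs (AddCommGroup (JH L M H))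

/-- the identity `J_H → J_H^{tw}` -/
def toTw : JH L M H ≃+ JHtw L M H χ := AddEquiv.refl _

/-- the identity `J_H^{tw} → J_H` -/
def ofTw : JHtw L M H χ ≃+ JH L M H := AddEquiv.refl _

open Classical in
/-- the twisted action on the underlying group: `σ •_χ x = ⟨χ σ⟩ (σ • x)` (the plain action
if the level hypotheses `L ≠ 0`, `M ∣ L` fail) -/
def twSmul (σ : K7GQ) (x : JH L M H) : JH L M H :=
  if L ≠ 0 ∧ M ∣ L then es1Diamond L M H (χ σ) (σ • x) else σ • x

variable {L M H χ}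

theorem twSmul_eq (hL : L ≠ 0) (hML : M ∣ L) (σ : K7GQ) (x : JH L M H) :
    twSmul L M H χ σ x = es1Diamond L M H (χ σ) (σ • x) := by
  rw [twSmul, if_pos ⟨hL, hML⟩]

theorem twSmul_eq_of_not (h : ¬ (L ≠ 0 ∧ M ∣ L)) (σ : K7GQ) (x : JH L M H) :
    twSmul L M H χ σ x = σ • x := by
  rw [twSmul, if_neg h]

variable (L M H χ)

theorem twSmul_one (x : JH L M H) : twSmul L M H χ 1 x = x := by
  have h0 : (1 : K7GQ) • x = x := one_smul K7GQ x
  by_cases h : L ≠ 0 ∧ M ∣ L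
  · rw [twSmul_eq h.1 h.2, map_one, h0, diamb_diamond_one]
  · rw [twSmul_eq_of_not h, h0]

theorem twSmul_mul (σ τ : K7GQ) (x : JH L M H) :
    twSmul L M H χ (σ * τ) x = twSmul L M H χ σ (twSmul L M H χ τ x) := by
  have h0 : (σ * τ) • x = σ • τ • x := mul_smul (α := K7GQ) (β := JH L M H) σ τ x
  by_cases h : L ≠ 0 ∧ M ∣ L
  · rw [twSmul_eq h.1 h.2, twSmul_eq h.1 h.2, twSmul_eq h.1 h.2, map_mul, h0,
      diamb_diamond_mul k7f_diamondBar h.1 h.2,
      diamb_galois_diamond k7f_diamondBar h.1 h.2 σ (χ τ)]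
  · rw [twSmul_eq_of_not h, twSmul_eq_of_not h, twSmul_eq_of_not h, h0]

theorem twSmul_zero (σ : K7GQ) : twSmul L M H χ σ 0 = 0 := by
  have h0 : σ • (0 : JH L M H) = 0 := smul_zero (M := K7GQ) (A := JH L M H) σ
  by_cases h : L ≠ 0 ∧ M ∣ L
  · rw [twSmul_eq h.1 h.2, h0, map_zero]
  · rw [twSmul_eq_of_not h, h0]

theorem twSmul_add (σ : K7GQ) (x y : JH L M H) :
    twSmul L M H χ σ (x + y) = twSmul L M H χ σ x + twSmul L M H χ σ y := by
  have h0 : σ • (x + y) = σ • x + σ • y := smul_add (M := K7GQ) (A := JH L M H) σ x y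
  by_cases h : L ≠ 0 ∧ M ∣ L
  · rw [twSmul_eq h.1 h.2, twSmul_eq h.1 h.2, twSmul_eq h.1 h.2, h0, map_add]
  · rw [twSmul_eq_of_not h, twSmul_eq_of_not h, twSmul_eq_of_not h, h0]

instance : DistribMulAction K7GQ (JHtw L M H χ) where
  smul σ x := twSmul L M H χ σ x
  one_smul x := twSmul_one L M H χ x
  mul_smul σ τ x := twSmul_mul L M H χ σ τ x
  smul_zero σ := twSmul_zero L M H χ σ
  smul_add σ x y := twSmul_add L M H χ σ x y

theorem tw_smul_def (σ : K7GQ) (x : JHtw L M H χ) :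
    σ • x = toTw L M H χ (twSmul L M H χ σ (ofTw L M H χ x)) := rfl

/-- the twisted action in terms of the diamonds -/
theorem tw_smul_eq (hL : L ≠ 0) (hML : M ∣ L) (σ : K7GQ) (x : JHtw L M H χ) :
    ofTw L M H χ (σ • x) = es1Diamond L M H (χ σ) (σ • ofTw L M H χ x) :=
  twSmul_eq hL hML σ (ofTw L M H χ x)

/-- where `χ` is trivial the twisted action is the plain action -/
theorem tw_smul_eq_of_one {σ : K7GQ} (hσ : χ σ = 1) (x : JHtw L M H χ) :
    ofTw L M H χ (σ • x) = σ • ofTw L M H χ x := by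
  show twSmul L M H χ σ (ofTw L M H χ x) = _
  by_cases h : L ≠ 0 ∧ M ∣ L
  · rw [twSmul_eq h.1 h.2, hσ]; exact diamb_diamond_one _
  · rw [twSmul_eq_of_not h]

end Twist

/-- the hypotheses on the character of the twist: trivial on the inertia group of `A`, and with
open kernel -/
structure IsTwistChar {M : ℕ} (A : ValuationSubring Kb) (χ : K7GQ →* (ZMod M)ˣ) : Prop where
  inertia : ∀ σ ∈ A.inertiaSubgroupIn ℚ, χ σ = 1
  open_ker : ∃ E : IntermediateField ℚ (AlgebraicClosure ℚ), FiniteDimensional ℚ E ∧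
    ∀ σ : K7GQ, (∀ a ∈ E, σ a = a) → χ σ = 1

/-! ## The reduction package of `X_H(L; M)` -/

/-- **the reduction package of `X_H(L; M)` at `A`** (twin of `W1.ModPR`), with the
compatibility of the reduction of places with the diamonds. -/
structure ModPRH (L M : ℕ) (H : Subgroup (ZMod M)ˣ) (A : ValuationSubring Kb) (g : ℕ)
    (R : PRData Kb ↥(fieldBar L M H) (kA A) ↥(fieldC (kA A) L M H) A)
    (t : ↥(fieldBar L M H)) : Prop where
  isPR : R.IsPR
  res_eq : R.res = IsLocalRing.residue A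
  orth : R.Orth
  nice : IsNiceCurve Kb ↥(fieldBar L M H) g
  nice_k : IsNiceCurve (kA A) ↥(fieldC (kA A) L M H) g
  good : R.GoodFn t
  ram : ∀ ht : t ∈ R.O,
    {Q : Place (kA A) ↥(fieldC (kA A) L M H) |
      ¬ ∃ c : kA A, Q.ord (R.red ⟨t, ht⟩ - algebraMap _ _ c) = 1}.Finite
  t_fixed : ∀ σ : K7GQ, arithmeticGalois (fieldQ L M H) σ • t = t
  decomp : ∀ σ ∈ A.decompositionSubgroup ℚ,
    ∃ σb : Place (kA A) ↥(fieldC (kA A) L M H) → Place (kA A) ↥(fieldC (kA A) L M H),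
      (∀ P, R.r (arithmeticGalois (fieldQ L M H) σ • P) = σb (R.r P)) ∧
      ∀ E ∈ Divisor.principal (K := kA A) (F := ↥(fieldC (kA A) L M H)),
        Finsupp.mapDomain σb E ∈ Divisor.principal (K := kA A) (F := ↥(fieldC (kA A) L M H))
  inertia : ∀ σ ∈ A.inertiaSubgroupIn ℚ, ∀ P,
    R.r (arithmeticGalois (fieldQ L M H) σ • P) = R.r P
  diam : ∀ (c : (ZMod M)ˣ) (δ : fieldBar L M H ≃ₐ[Kb] fieldBar L M H), IsDiamondH L M H c δ →
    ∃ δb : Place (kA A) ↥(fieldC (kA A) L M H) → Place (kA A) ↥(fieldC (kA A) L M H),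
      (∀ P, R.r (SemilinearAut.ofAlgAut δ • P) = δb (R.r P)) ∧
      ∀ E ∈ Divisor.principal (K := kA A) (F := ↥(fieldC (kA A) L M H)),
        Finsupp.mapDomain δb E ∈ Divisor.principal (K := kA A) (F := ↥(fieldC (kA A) L M H))

/-- the package exists at `(L; M, H)` and `A` -/
def HasModPRH (L M : ℕ) (H : Subgroup (ZMod M)ˣ) (A : ValuationSubring Kb) : Prop :=
  ∃ (g : ℕ) (R : PRData Kb ↥(fieldBar L M H) (kA A) ↥(fieldC (kA A) L M H) A)
    (t : ↥(fieldBar L M H)), ModPRH L M H A g R t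

/-- the kernel chart for the twisted action exists at `(L; M, H)`, `A`, `χ` -/
def HasKernelChartH (L M : ℕ) (H : Subgroup (ZMod M)ˣ) (A : ValuationSubring Kb)
    (χ : K7GQ →* (ZMod M)ˣ) : Prop :=
  ∃ (J1 : AddSubgroup (JHtw L M H χ)) (g : ℕ) (z : JHtw L M H χ → Fin g → AlgebraicClosure ℚ),
    KernelChart A (JHtw L M H χ) J1 g z

/-! ## The statements of the pieces -/

/-- **FL-RH0** (characteristic `0`): Riemann's inequality for `F_H` with the sharp constant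
`g = 1 + d (g₀ - 1)`, and `(g : ℤ) = 1 + d (g₀ - 1)` (in particular `g₀ ≥ 1` or `d = 1`). -/
def StmtRiemannH : Prop :=
  ∀ (L M : ℕ) (H : Subgroup (ZMod M)ˣ) (p : ℕ), K7FLevel L M H p →
    ∀ (m : ℕ) (a : Fin (m + 1) → (ZMod M)ˣ), IsRepFam H a →
      ((k7fGenus L (m + 1) : ℕ) : ℤ) = ((m + 1 : ℕ) : ℤ) * ((gN L : ℤ) - 1) + 1 ∧
      ∀ 𝔞 : Divisor Kb ↥(fieldBar L M H),
        Divisor.degree 𝔞 + 1 - (k7fGenus L (m + 1) : ℤ)
          ≤ (finrank Kb ↥(riemannRochSpace 𝔞) : ℤ)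

/-- **FL-GAUSS / RedF_H** at all levels of K7-FLAT. -/
def StmtRedFHAll : Prop :=
  ∀ (L M : ℕ) (H : Subgroup (ZMod M)ˣ) (p : ℕ), K7FLevel L M H p →
    ∀ A : ValuationSubring Kb, A.LiesOverPrime p → StmtRedFH L M H A

/-- **FL-DIAM**: the diamonds are Gauss-integral and reduce to automorphisms `δ̄` of `F̄_H`
over `F̄₀ = modularFunctionFieldFullC k L` with `δ̄ (S̄_a(q^e)) = S̄_{ac}(q^e)`; and an element of
`F̄_H` fixed by all `δ̄_c` lies in `F̄₀`. -/
def StmtDiamInt : Prop :=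
  ∀ (L M : ℕ) (H : Subgroup (ZMod M)ˣ) (p : ℕ), K7FLevel L M H p →
    ∀ A : ValuationSubring Kb, A.LiesOverPrime p →
    ∀ (c : (ZMod M)ˣ) (δ : fieldBar L M H ≃ₐ[Kb] fieldBar L M H), IsDiamondH L M H c δ →
      ∃ δb : fieldC (kA A) L M H ≃ₐ[kA A] fieldC (kA A) L M H,
        (∀ f : fieldC (kA A) L M H,
          (f : LaurentSeries (kA A)) ∈ modularFunctionFieldFullC (kA A) L → δb f = f) ∧
        (∀ (e : ℕ) [NeZero e] (he : e * M ∣ L) (b : (ZMod M)ˣ),
          ((δb ⟨qExpand (kA A) e (sS (kA A) M H b), qExpand_sS_mem (kA A) L M H he b⟩ :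
            fieldC (kA A) L M H) : LaurentSeries (kA A))
              = qExpand (kA A) e (sS (kA A) M H (b * c))) ∧
        ∀ (x : fieldBar L M H) (w : LaurentSeries (kA A)) (hw : w ∈ fieldC (kA A) L M H),
          GaussRedH L M H A x w →
            GaussRedH L M H A (δ x) ((δb ⟨w, hw⟩ : fieldC (kA A) L M H) : LaurentSeries (kA A))

/-- **FL-DIAM, invariants**: an element of `F̄_H` fixed by all reduced diamonds lies in `F̄₀`. -/
def StmtDiamInv : Prop :=
  ∀ (L M : ℕ) (H : Subgroup (ZMod M)ˣ) (p : ℕ), K7FLevel L M H p →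
    ∀ A : ValuationSubring Kb, A.LiesOverPrime p →
    ∀ f : fieldC (kA A) L M H,
      (∀ δb : fieldC (kA A) L M H ≃ₐ[kA A] fieldC (kA A) L M H,
        (∀ f₀ : fieldC (kA A) L M H,
          (f₀ : LaurentSeries (kA A)) ∈ modularFunctionFieldFullC (kA A) L → δb f₀ = f₀) →
        δb f = f) →
      (f : LaurentSeries (kA A)) ∈ modularFunctionFieldFullC (kA A) L

/-- **FL-RHp-B (HYP-of-E)**, generic: Deuring's hypotheses without `bound`, together with the
upper bound at the multiples of ONE effective divisor `E` of degree `e > 0` of the residue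
curve, give the single-place `bound`, i.e. `DEU.Hyp` as it is on main. -/
def StmtHypOfE : Prop :=
  ∀ (K F k Fb : Type) [Field K] [Field F] [Algebra K F] [Field k] [Field Fb] [Algebra k Fb]
    (R : DEU.RedData K F k Fb) (Pinf : Place K F) (Qinf : Place k Fb) (g : ℕ),
    (∀ v : Place K F, Function.Bijective (algebraMap K v.ResidueField)) →
    (∀ v : Place k Fb, Function.Bijective (algebraMap k v.ResidueField)) →
    HasPrincipalDivisors K F → HasPrincipalDivisors k Fb →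
    (∀ 𝔞 : Divisor K F, Divisor.degree 𝔞 + 1 - g ≤ (finrank K ↥(riemannRochSpace 𝔞) : ℤ)) →
    (∀ V : Submodule K F, Module.Finite K V → finrank K V ≤ finrank k ↥(R.redSpace V)) →
    (∀ m : ℕ, R.redSpace (riemannRochSpace (DEU.mulPlace Pinf m)) ≤
      riemannRochSpace (DEU.mulPlace Qinf m)) →
    ∀ E : Divisor k Fb, 0 ≤ E → 0 < Divisor.degree E →
      (∃ n₁ : ℕ, ∀ n : ℕ, n₁ ≤ n →
        (finrank k ↥(riemannRochSpace (n • E)) : ℤ) + g ≤ n * Divisor.degree E + 1) →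
      ∃ n₀ : ℕ, DEU.Hyp R Pinf Qinf g n₀

/-- **FL-RHp-A (bound_E)**: the upper bound at the multiples of `Ē = Σ_δ δ̄(Q_∞)` (the pull-back
of the cusp `∞` of `X̄₀(L)`), `deg Ē = d`. -/
def StmtBoundE : Prop :=
  ∀ (L M : ℕ) (H : Subgroup (ZMod M)ˣ) (p : ℕ), K7FLevel L M H p →
    ∀ A : ValuationSubring Kb, A.LiesOverPrime p →
    ∀ (m : ℕ) (a : Fin (m + 1) → (ZMod M)ˣ), IsRepFam H a →
      ∃ E : Divisor (kA A) ↥(fieldC (kA A) L M H), 0 ≤ E ∧
        Divisor.degree E = ((m + 1 : ℕ) : ℤ) ∧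
        ∃ n₁ : ℕ, ∀ n : ℕ, n₁ ≤ n →
          (finrank (kA A) ↥(riemannRochSpace (n • E)) : ℤ) + (k7fGenus L (m + 1) : ℤ)
            ≤ n * ((m + 1 : ℕ) : ℤ) + 1

/-- **GEO-PR for `X_H(L; M)`** (assembly FL-NICE of all the pieces). -/
def StmtModPRH : Prop :=
  ∀ (L M : ℕ) (H : Subgroup (ZMod M)ˣ) (p : ℕ), K7FLevel L M H p →
    ∀ A : ValuationSubring Kb, A.LiesOverPrime p → HasModPRH L M H A

/-- **FL-KC**: the package gives a kernel chart on `J_H` for the twisted action. -/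
def StmtKCH : Prop :=
  ∀ (L M : ℕ) (H : Subgroup (ZMod M)ˣ) (p : ℕ), K7FLevel L M H p →
    ∀ A : ValuationSubring Kb, A.LiesOverPrime p →
    ∀ χ : K7GQ →* (ZMod M)ˣ, IsTwistChar A χ →
      HasModPRH L M H A → HasKernelChartH L M H A χ

/-- **FL-FIN**: `J_H^{tw}[p^n]` is finite and the twisted action has open stabilisers. -/
def StmtFinH : Prop :=
  ∀ (L M : ℕ) (H : Subgroup (ZMod M)ˣ) (p : ℕ), K7FLevel L M H p →
    ∀ A : ValuationSubring Kb, A.LiesOverPrime p →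
    ∀ χ : K7GQ →* (ZMod M)ˣ, IsTwistChar A χ → ∀ n : ℕ,
      Finite (Submodule.torsionBy ℤ (JHtw L M H χ) ((p ^ n : ℕ) : ℤ)) ∧
      IsContAction (torsAct (JHtw L M H χ) ((p ^ n : ℕ) : ℤ))

/-- **K7-FLAT, the target**: `J_H[p^n]` with the `χ`-twisted Galois action has a finite flat
model over `ℤ_(p)`. -/
def StmtFlatH : Prop :=
  ∀ (L M : ℕ) (H : Subgroup (ZMod M)ˣ) (p : ℕ), K7FLevel L M H p →
    ∀ A : ValuationSubring Kb, A.LiesOverPrime p →
    ∀ χ : K7GQ →* (ZMod M)ˣ, IsTwistChar A χ → ∀ n : ℕ,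
      HasFiniteFlatModel (GaloisRep.ratLocalizedAt p)
        (Submodule.torsionBy ℤ (JHtw L M H χ) ((p ^ n : ℕ) : ℤ))
        (torsAct (JHtw L M H χ) ((p ^ n : ℕ) : ℤ))

end Fermat.Agent.RT.K7F

end
end ZBES1_009_7
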