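/- GENERATED FILE (helper35, build-time optimisation, NOTES/ZB.md): verbatim concatenation of the modules
   Fermat.Agent.W1.GeoB
   Fermat.Agent.W1.GeoApprox
   Do not edit; do not import together with these modules. -/
import Fermat.Agent.ZB.W1_002
import Fermat.Agent.ZB.ES_020

/-! ### bundled: `Fermat.Agent.W1.GeoB` -/
section ZBW1_006_0

/-!
# W1 GEO-B: the normalised family `b (i,k)`  (helper51)

`stmtBFamily_of : StmtExpand → StmtTaylorInt → StmtBFamily` (`PlanGeo3.lean`).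

Proof.  Fix a centre `Q i` and `k`.  `D := Σ Q i' + (k+1) Q i`.  By `Orth` the space `L(D)` is
spanned by `n` functions `e j ∈ O` whose reductions are linearly independent elements of
`L̄(D̄)`; `n ≥ dim L(D) ≥ k + 2` (Riemann) while `dim L̄(Σ Q̄ i' + k Q̄ i) = k + 1`
(`gp_finrank_chart_add`), so some `w := e j` reduces to a function with a pole of exact order
`k + 2` at `Q̄ i`.  By `StmtTaylorInt` (applied to `τ ^ (k+2) w`) the expansion of `w` at `Q i`
has coefficients in `A` and leading coefficient a unit.  Normalise, and subtract `A`-multiples of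
the `b (i,k')`, `k' < k`.
-/

set_option autoImplicit false

open AlgebraicCurve Module

namespace Fermat.Agent.W1

open Fermat.Agent.S24 Fermat.Agent.ES.R

/-! ### Expansion homomorphisms -/

section ExpHom

variable {K F : Type} [Field K] [Field F] [Algebra K F]

/-- `ι` is the expansion homomorphism at `P` in the uniformiser `u` (the output of
`StmtExpand`). -/
def GeoBExpHom (P : Place K F) (u : F) (ι : F →+* LaurentSeries K) : Prop :=
  (∀ f, IsExpansion P u f (ι f)) ∧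
  (∀ f s, IsExpansion P u f s → s = ι f) ∧
  (∀ a : K, ι (algebraMap K F a) = HahnSeries.C a) ∧
  ι u = HahnSeries.single 1 1 ∧
  ∀ f, f ≠ 0 → (ι f).order = P.ord f

variable {P : Place K F} {u : F} {ι : F →+* LaurentSeries K}

theorem GeoBExpHom.coeff_eq_zero (h : GeoBExpHom P u ι) {f : F} {n m : ℤ}
    (hn : f = 0 ∨ n ≤ P.ord f) (hm : m < n) : (ι f).coeff m = 0 := by
  rcases eq_or_ne f 0 with rfl | hf
  · rw [map_zero]; rfl
  · apply HahnSeries.coeff_eq_zero_of_lt_order
    rw [h.2.2.2.2 f hf]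
    exact lt_of_lt_of_le hm (hn.resolve_left hf)

theorem GeoBExpHom.coeff_pow_mul (h : GeoBExpHom P u ι) (f : F) (n : ℕ) (m : ℤ) :
    (ι (u ^ n * f)).coeff (m + n) = (ι f).coeff m := by
  rw [map_mul, map_pow, h.2.2.2.1, HahnSeries.single_pow, one_pow, nsmul_one,
    HahnSeries.coeff_single_mul_add, one_mul]

theorem GeoBExpHom.coeff_const_mul (h : GeoBExpHom P u ι) (a : K) (f : F) (m : ℤ) :
    (ι (algebraMap K F a * f)).coeff m = a * (ι f).coeff m := by
  rw [map_mul, h.2.2.1, HahnSeries.C_mul_eq_smul, HahnSeries.coeff_smul, smul_eq_mul]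

theorem GeoBExpHom.coeff_sub (_h : GeoBExpHom P u ι) (f f' : F) (m : ℤ) :
    (ι (f - f')).coeff m = (ι f).coeff m - (ι f').coeff m := by
  rw [map_sub, HahnSeries.coeff_sub]

theorem GeoBExpHom.coeff_sum (_h : GeoBExpHom P u ι) {α : Type} (s : Finset α) (f : α → F)
    (m : ℤ) : (ι (∑ x ∈ s, f x)).coeff m = ∑ x ∈ s, (ι (f x)).coeff m := by
  rw [map_sum, HahnSeries.coeff_sum]

theorem GeoBExpHom.coeff_order_ne_zero (h : GeoBExpHom P u ι) {f : F} (hf : f ≠ 0) :
    (ι f).coeff (P.ord f) ≠ 0 := by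
  rw [← h.2.2.2.2 f hf]
  intro h0
  rw [HahnSeries.coeff_order_eq_zero] at h0
  exact hf ((map_eq_zero ι).mp h0)

end ExpHom

/-! ### Basic facts on a chart -/

section Chart

variable {K F k Fk : Type} [Field K] [Field F] [Algebra K F] [Field k] [Field Fk] [Algebra k Fk]
variable {A : ValuationSubring K} {R : PRData K F k Fk A} {g : ℕ} {C : R.Chart g}

theorem geoB_t_mem (hC : C.IsChart) : C.t ∈ R.O := hC.good.1

theorem geoB_tau_mem (hR : R.IsPR) (hC : C.IsChart) (i : Fin g) : C.tau i ∈ R.O :=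
  sub_mem (geoB_t_mem hC) (hR.algebraMap_mem (C.c i))

theorem geoB_red_tau (hR : R.IsPR) (hC : C.IsChart) (i : Fin g) :
    R.red ⟨C.tau i, geoB_tau_mem hR hC i⟩
      = R.red ⟨C.t, geoB_t_mem hC⟩ - algebraMap k Fk (R.res (C.c i)) := by
  have h : (⟨C.tau i, geoB_tau_mem hR hC i⟩ : R.O)
      = ⟨C.t, geoB_t_mem hC⟩ - ⟨algebraMap K F (C.c i : K), hR.algebraMap_mem (C.c i)⟩ := rfl
  rw [h, map_sub, hR.red_const]

theorem geoB_ord_red_tau (hR : R.IsPR) (hC : C.IsChart) (i : Fin g) :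
    (R.r (C.Q i)).ord (R.red ⟨C.tau i, geoB_tau_mem hR hC i⟩) = 1 := by
  rw [geoB_red_tau hR hC i]
  exact hC.simple (geoB_t_mem hC) i

theorem geoB_red_tau_ne_zero (hR : R.IsPR) (hC : C.IsChart) (i : Fin g) :
    R.red ⟨C.tau i, geoB_tau_mem hR hC i⟩ ≠ 0 := by
  intro h0
  have h1 := geoB_ord_red_tau hR hC i
  rw [h0, Place.ord_zero] at h1
  exact zero_ne_one h1

/-- no pole of `t` reduces to a centre -/
theorem geoB_noPole (hR : R.IsPR) (hC : C.IsChart) (i : Fin g) (P' : Place K F)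
    (hP' : P'.ord C.t < 0) : R.r P' ≠ R.r (C.Q i) := by
  intro hrP'
  obtain ⟨ht, hpoles⟩ := hC.good
  have h1 := hpoles P' hP'
  rw [hrP'] at h1
  have h2 : HasValueAt (R.r (C.Q i)) (R.red ⟨C.t, ht⟩) (R.res (C.c i)) := by
    have h3 := geoB_ord_red_tau hR hC i
    have h4 := geoB_red_tau_ne_zero hR hC i
    rw [geoB_red_tau hR hC i] at h3 h4
    rw [hasValueAt_iff_ord_pos _ h4, h3]
    exact one_pos
  exact absurd (ge_ord_nonneg_of_mem _ (h2.mem _)) (not_le.mpr h1)

/-- no pole of `τ i'` reduces to a centre -/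
theorem geoB_noPole_tau (hR : R.IsPR) (hC : C.IsChart) (i i' : Fin g) (P' : Place K F)
    (hP' : P'.ord (C.tau i') < 0) : R.r P' ≠ R.r (C.Q i) := by
  apply geoB_noPole hR hC i P'
  by_contra hnn
  have hfm : C.t ∈ P'.toValuationSubring := ge_mem_of_not_ord_neg P' hnn
  have hum : C.tau i' ∈ P'.toValuationSubring := sub_mem hfm (P'.algebraMap_mem' _)
  exact absurd (ge_ord_nonneg_of_mem P' hum) (not_le.mpr hP')

theorem geoB_tau_ne_zero (hR : R.IsPR) (hC : C.IsChart) (i : Fin g) : C.tau i ≠ 0 :=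
  ge_coe_ne_zero (u := ⟨C.tau i, geoB_tau_mem hR hC i⟩) (geoB_red_tau_ne_zero hR hC i)

/-- `τ i` is a uniformiser at `Q i` -/
theorem geoB_ord_tau (hR : R.IsPR) (hpd : HasPrincipalDivisors K F) (hC : C.IsChart)
    (i : Fin g) : (C.Q i).ord (C.tau i) = 1 := by
  classical
  have hle := ge_sum_ord_le hR hpd (u := ⟨C.tau i, geoB_tau_mem hR hC i⟩)
    (geoB_red_tau_ne_zero hR hC i) (R.r (C.Q i))
    (fun P' hP' => geoB_noPole_tau hR hC i i P' hP') {C.Q i} (by simp)
  rw [Finset.sum_singleton, geoB_ord_red_tau hR hC i] at hle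
  have hpos : 0 < (C.Q i).ord (C.tau i) :=
    (hasValueAt_iff_ord_pos (C.Q i) (geoB_tau_ne_zero hR hC i)).mp (hC.value i)
  have hle' : (C.Q i).ord (C.tau i) ≤ 1 := hle
  omega

theorem geoB_Q_injective (hC : C.IsChart) : Function.Injective C.Q := by
  intro i i' h
  exact hC.inj (by show R.r (C.Q i) = R.r (C.Q i'); rw [h])

/-- a pole of a function with poles at the centres which reduces to `Q̄ i` is `Q i` -/
theorem geoB_pole_eq (hC : C.IsChart) {f : F} (hf : C.PolesAtCentres f) (i : Fin g)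
    (P : Place K F) (hP : P.ord f < 0) (hr : R.r P = R.r (C.Q i)) : P = C.Q i := by
  obtain ⟨i', rfl⟩ := hf P hP
  rw [hC.inj hr]

/-! ### Integrality of the expansions (from `StmtTaylorInt`) -/

theorem geoB_ord_pow_mul (P : Place K F) {u f : F} (hu : u ≠ 0) (hf : f ≠ 0) (n : ℕ) :
    P.ord (u ^ n * f) = n * P.ord u + P.ord f := by
  rw [P.ord_mul (pow_ne_zero n hu) hf, ← zpow_natCast, P.ord_zpow]

/-- `τ i ^ n * f` has no pole in the disc, if the only pole of `f` in the disc is `Q i`, of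
order at most `n`. -/
theorem geoB_noPole_pow_mul (hR : R.IsPR) (hpd : HasPrincipalDivisors K F) (hC : C.IsChart)
    (i : Fin g) {f : F}
    (hpol : ∀ P : Place K F, P.ord f < 0 → R.r P = R.r (C.Q i) → P = C.Q i)
    (n : ℕ) (hn : f = 0 ∨ -(n : ℤ) ≤ (C.Q i).ord f) (P : Place K F)
    (hP : P.ord (C.tau i ^ n * f) < 0) : R.r P ≠ R.r (C.Q i) := by
  intro hr
  have hτ : C.tau i ∈ P.toValuationSubring :=
    ge_mem_of_not_ord_neg P fun h => geoB_noPole_tau hR hC i i P h hr
  have hfP : P.ord f < 0 := by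
    by_contra hnn
    have hfm : f ∈ P.toValuationSubring := ge_mem_of_not_ord_neg P hnn
    exact absurd (ge_ord_nonneg_of_mem P (mul_mem (pow_mem hτ n) hfm)) (not_le.mpr hP)
  have hPQ := hpol P hfP hr
  subst hPQ
  have hf0 : f ≠ 0 := by
    rintro rfl
    rw [Place.ord_zero] at hfP
    exact lt_irrefl _ hfP
  rw [geoB_ord_pow_mul _ (geoB_tau_ne_zero hR hC i) hf0, geoB_ord_tau hR hpd hC i] at hP
  have := hn.resolve_left hf0
  omega

/-- Taylor (`StmtTaylorInt`) applied to `τ ^ n * f`. -/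
theorem geoB_taylor (hT : StmtTaylorInt) (hR : R.IsPR) (hF : IsNiceCurve K F g)
    (hFk : IsNiceCurve k Fk g) (hC : C.IsChart) (i : Fin g) {ι : F →+* LaurentSeries K}
    (hι : GeoBExpHom (C.Q i) (C.tau i) ι) {f : F} (hf : f ∈ R.O)
    (hpol : ∀ P : Place K F, P.ord f < 0 → R.r P = R.r (C.Q i) → P = C.Q i)
    (n : ℕ) (hn : f = 0 ∨ -(n : ℤ) ≤ (C.Q i).ord f) :
    ∃ a : ℕ → A, (∀ m : ℕ, (ι f).coeff ((m : ℤ) - n) = (a m : K)) ∧
      ∀ sk : LaurentSeries k,
        IsExpansion (R.r (C.Q i))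
          (R.red ⟨C.t, geoB_t_mem hC⟩ - algebraMap k Fk (R.res (C.c i)))
          (R.red (⟨C.tau i, geoB_tau_mem hR hC i⟩ ^ n * ⟨f, hf⟩)) sk →
        ∀ m : ℕ, sk.coeff (m : ℤ) = R.res (a m) := by
  set f' : R.O := ⟨C.tau i, geoB_tau_mem hR hC i⟩ ^ n * ⟨f, hf⟩ with hf'
  have hcoe : (f' : F) = C.tau i ^ n * f := rfl
  obtain ⟨-, a, ha1, ha2, -⟩ := hT K F k Fk A R g hR hF hFk C hC i f'
    (fun P hP => geoB_noPole_pow_mul hR hF.hpd hC i hpol n hn P (by rw [← hcoe]; exact hP))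
    (ι (f' : F)) (hι.1 _)
  refine ⟨a, fun m => ?_, fun sk hsk m => ha2 (geoB_t_mem hC) sk hsk m⟩
  rw [← ha1 m, hcoe, ← hι.coeff_pow_mul f n ((m : ℤ) - n), sub_add_cancel]

/-- all coefficients of the expansion are in `A` -/
theorem geoB_coeff_mem (hT : StmtTaylorInt) (hR : R.IsPR) (hF : IsNiceCurve K F g)
    (hFk : IsNiceCurve k Fk g) (hC : C.IsChart) (i : Fin g) {ι : F →+* LaurentSeries K}
    (hι : GeoBExpHom (C.Q i) (C.tau i) ι) {f : F} (hf : f ∈ R.O)
    (hpol : ∀ P : Place K F, P.ord f < 0 → R.r P = R.r (C.Q i) → P = C.Q i)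
    (n : ℕ) (hn : f = 0 ∨ -(n : ℤ) ≤ (C.Q i).ord f) (m : ℤ) : (ι f).coeff m ∈ A := by
  obtain ⟨a, ha, -⟩ := geoB_taylor hT hR hF hFk hC i hι hf hpol n hn
  by_cases hm : m < -(n : ℤ)
  · rw [hι.coeff_eq_zero hn hm]
    exact A.zero_mem
  · have h1 : m = (((m + n).toNat : ℕ) : ℤ) - n := by
      rw [Int.toNat_of_nonneg (by omega)]
      ring
    rw [h1, ha]
    exact (a _).2

theorem geoB_isUnit_of_not_nonunits {a : A} (h : (a : K) ∉ A.nonunits) : IsUnit a := by
  by_contra hu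
  apply h
  rw [ValuationSubring.mem_nonunits_iff_exists_mem_maximalIdeal]
  exact ⟨a.2, (IsLocalRing.mem_maximalIdeal _).mpr hu⟩

/-- the leading coefficient is a unit of `A`, if the reduction has a pole of exact order `n` -/
theorem geoB_lead_unit (hX : StmtExpand) (hT : StmtTaylorInt) (hR : R.IsPR)
    (hF : IsNiceCurve K F g) (hFk : IsNiceCurve k Fk g) (hC : C.IsChart) (i : Fin g)
    {ι : F →+* LaurentSeries K} (hι : GeoBExpHom (C.Q i) (C.tau i) ι) {f : F} (hf : f ∈ R.O)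
    (hpol : ∀ P : Place K F, P.ord f < 0 → R.r P = R.r (C.Q i) → P = C.Q i)
    (n : ℕ) (hn : f = 0 ∨ -(n : ℤ) ≤ (C.Q i).ord f)
    (hred : R.red ⟨f, hf⟩ ≠ 0) (hord : (R.r (C.Q i)).ord (R.red ⟨f, hf⟩) = -(n : ℤ)) :
    ∃ v : A, (ι f).coeff (-(n : ℤ)) * (v : K) = 1 := by
  obtain ⟨a, ha1, ha2⟩ := geoB_taylor hT hR hF hFk hC i hι hf hpol n hn
  have hτb := geoB_ord_red_tau hR hC i
  have hτb0 := geoB_red_tau_ne_zero hR hC i
  rw [geoB_red_tau hR hC i] at hτb hτb0
  obtain ⟨ιk, hιk⟩ := hX k Fk (R.r (C.Q i)) (hFk.hres _) _ hτb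
  have hιk' : GeoBExpHom (R.r (C.Q i)) _ ιk := hιk
  set fb : Fk := R.red (⟨C.tau i, geoB_tau_mem hR hC i⟩ ^ n * ⟨f, hf⟩) with hfb
  have hfb1 : fb = (R.red ⟨C.t, geoB_t_mem hC⟩ - algebraMap k Fk (R.res (C.c i))) ^ n
      * R.red ⟨f, hf⟩ := by
    rw [hfb, map_mul, map_pow, geoB_red_tau hR hC i]
  have hfb0 : fb ≠ 0 := by
    rw [hfb1]
    exact mul_ne_zero (pow_ne_zero _ hτb0) hred
  have hfbord : (R.r (C.Q i)).ord fb = 0 := by
    rw [hfb1, geoB_ord_pow_mul _ hτb0 hred, hτb, hord]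
    ring
  have h0 := hιk'.coeff_order_ne_zero hfb0
  rw [hfbord] at h0
  have h1 := ha2 (ιk fb) (hιk'.1 fb) 0
  rw [Nat.cast_zero] at h1
  rw [h1] at h0
  have hunit : IsUnit (a 0) :=
    geoB_isUnit_of_not_nonunits fun h => h0 ((hR.res_eq_zero_iff (a 0)).mpr h)
  obtain ⟨v, hv⟩ := hunit.exists_right_inv
  refine ⟨v, ?_⟩
  have h2 := ha1 0
  rw [Nat.cast_zero, zero_sub] at h2
  rw [h2]
  exact_mod_cast congrArg Subtype.val hv

/-! ### The divisors of a chart -/

/-- the centres, as a finite set -/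
noncomputable def geoBT (C : R.Chart g) : Finset (Place K F) := by
  classical exact Finset.univ.image C.Q

/-- the reduced centres, as a finite set -/
noncomputable def geoBTb (C : R.Chart g) : Finset (Place k Fk) := by
  classical exact Finset.univ.image fun i => R.r (C.Q i)

theorem geoB_mem_T {C : R.Chart g} (P : Place K F) : P ∈ geoBT C ↔ ∃ i, P = C.Q i := by
  classical
  unfold geoBT
  rw [Finset.mem_image]
  constructor
  · rintro ⟨i, -, rfl⟩; exact ⟨i, rfl⟩
  · rintro ⟨i, rfl⟩; exact ⟨i, Finset.mem_univ _, rfl⟩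

theorem geoB_mem_Tb {C : R.Chart g} (Q : Place k Fk) :
    Q ∈ geoBTb C ↔ ∃ i, Q = R.r (C.Q i) := by
  classical
  unfold geoBTb
  rw [Finset.mem_image]
  constructor
  · rintro ⟨i, -, rfl⟩; exact ⟨i, rfl⟩
  · rintro ⟨i, rfl⟩; exact ⟨i, Finset.mem_univ _, rfl⟩

theorem geoB_card_T (hC : C.IsChart) : (geoBT C).card = g := by
  classical
  unfold geoBT
  rw [Finset.card_image_of_injective _ (geoB_Q_injective hC), Finset.card_univ,
    Fintype.card_fin]

theorem geoB_card_Tb (hC : C.IsChart) : (geoBTb C).card = g := by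
  classical
  unfold geoBTb
  rw [Finset.card_image_of_injective _ hC.inj, Finset.card_univ, Fintype.card_fin]

theorem geoB_gpSum_T (hC : C.IsChart) :
    gpSum (geoBT C) = ∑ i : Fin g, Finsupp.single (C.Q i) (1 : ℤ) := by
  classical
  unfold geoBT gpSum
  rw [Finset.sum_image fun i _ i' _ h => geoB_Q_injective hC h]

theorem geoB_gpSum_Tb (hC : C.IsChart) :
    gpSum (geoBTb C) = ∑ i : Fin g, Finsupp.single (R.r (C.Q i)) (1 : ℤ) := by
  classical
  unfold geoBTb gpSum
  rw [Finset.sum_image fun i _ i' _ h => hC.inj h]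

theorem geoB_mapDomain (hC : C.IsChart) (i : Fin g) (n : ℤ) :
    Finsupp.mapDomain R.r (gpSum (geoBT C) + Finsupp.single (C.Q i) n)
      = gpSum (geoBTb C) + Finsupp.single (R.r (C.Q i)) n := by
  rw [Finsupp.mapDomain_add, Finsupp.mapDomain_single, geoB_gpSum_T hC, geoB_gpSum_Tb hC,
    Finsupp.mapDomain_finsetSum]
  simp only [Finsupp.mapDomain_single]

theorem geoB_apply_T (C : R.Chart g) (i : Fin g) (n : ℤ) (i' : Fin g) (hC : C.IsChart) :
    (gpSum (geoBT C) + Finsupp.single (C.Q i) n) (C.Q i') = if i' = i then 1 + n else 1 := by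
  rw [Finsupp.add_apply, gpSum_apply_of_mem ((geoB_mem_T _).mpr ⟨i', rfl⟩)]
  split_ifs with h
  · rw [h, Finsupp.single_eq_same]
  · rw [Finsupp.single_eq_of_ne (fun e => h (geoB_Q_injective hC e)), add_zero]

theorem geoB_apply_not_T (C : R.Chart g) (i : Fin g) (n : ℤ) (P : Place K F)
    (hP : ∀ i', P ≠ C.Q i') :
    (gpSum (geoBT C) + Finsupp.single (C.Q i) n) P = 0 := by
  rw [Finsupp.add_apply, gpSum_apply_of_not_mem (fun h => by
    obtain ⟨i', hi'⟩ := (geoB_mem_T _).mp h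
    exact hP i' hi'), Finsupp.single_eq_of_ne (hP i), add_zero]

/-! ### Existence of a function with a pole of exact order `k + 2` -/

theorem geoB_exists_w (hF : IsNiceCurve K F g) (hFk : IsNiceCurve k Fk g)
    (hO : R.Orth) (hC : C.IsChart) (i : Fin g) (kk : ℕ) :
    ∃ (w : F) (hw : w ∈ R.O),
      w ∈ riemannRochSpace (gpSum (geoBT C) + Finsupp.single (C.Q i) ((kk : ℤ) + 1)) ∧
      R.red ⟨w, hw⟩ ≠ 0 ∧ (R.r (C.Q i)).ord (R.red ⟨w, hw⟩) = -((kk : ℤ) + 2) := by
  classical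
  have hpdF := hF.hpd
  have hpdFk := hFk.hpd
  set D : Divisor K F := gpSum (geoBT C) + Finsupp.single (C.Q i) ((kk : ℤ) + 1) with hD
  obtain ⟨n, e, he, hspan, hli, hmem⟩ := hO D
  rw [hD, geoB_mapDomain hC] at hmem
  -- `k + 2 ≤ dim L(D) ≤ n`
  have h1 : ((kk : ℤ) + 2) ≤ (finrank K ↥(riemannRochSpace D) : ℤ) := by
    have h := hF.lower D
    rw [hD, map_add, degree_gpSum hF.hres, geoB_card_T hC, Divisor.degree_single,
      place_deg_eq_one _ (hF.hres _)] at h
    push_cast at h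
    linarith
  have h2 : finrank K ↥(riemannRochSpace D) ≤ n := by
    rw [← hspan]
    have := finrank_range_le_card (R := K) e
    rwa [Fintype.card_fin] at this
  -- `dim L̄(D̄₀ + k Q̄ i) = k + 1`
  set V : Submodule k Fk :=
    riemannRochSpace (gpSum (geoBTb C) + Finsupp.single (R.r (C.Q i)) (kk : ℤ)) with hV
  have h3 : (finrank k ↥V : ℤ) = (kk : ℤ) + 1 := by
    have hns : finrank k ↥(riemannRochSpace (gpSum (geoBTb C))) = 1 := by
      rw [geoB_gpSum_Tb hC]; exact hC.nonspecial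
    have h := gp_finrank_chart_add hFk.hres hFk.lower (geoB_card_Tb hC) hns
      (A := Finsupp.single (R.r (C.Q i)) (kk : ℤ))
      (Finsupp.single_nonneg.mpr (Int.natCast_nonneg kk))
    rw [Divisor.degree_single, place_deg_eq_one _ (hFk.hres _)] at h
    rw [hV, h]
    push_cast
    ring
  -- some `ē j` is not in `V`
  have h4 : ∃ j, R.red ⟨e j, he j⟩ ∉ V := by
    by_contra hall0
    have hall : ∀ j, R.red ⟨e j, he j⟩ ∈ V := fun j => by
      by_contra h
      exact hall0 ⟨j, h⟩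
    have hfin : Module.Finite k ↥V := rr_finite (R.r (C.Q i)) hFk.hres _
    have hli' : LinearIndependent k (fun j => (⟨R.red ⟨e j, he j⟩, hall j⟩ : V)) :=
      LinearIndependent.of_comp V.subtype hli
    have h5 := hli'.fintype_card_le_finrank
    rw [Fintype.card_fin] at h5
    have h6 : (n : ℤ) ≤ (finrank k ↥V : ℤ) := by exact_mod_cast h5
    have h7 : (finrank K ↥(riemannRochSpace D) : ℤ) ≤ n := by exact_mod_cast h2
    linarith
  obtain ⟨j, hj⟩ := h4
  have hwD : e j ∈ riemannRochSpace D := by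
    rw [← hspan]
    exact Submodule.subset_span ⟨j, rfl⟩
  have hw0 : R.red ⟨e j, he j⟩ ≠ 0 := fun h0 => hj (by rw [h0]; exact V.zero_mem)
  refine ⟨e j, he j, hwD, hw0, ?_⟩
  -- the exact order
  have hm := mem_riemannRochSpace_iff.mp (hmem j)
  have hQ := (hm (R.r (C.Q i))).resolve_left hw0
  rw [Finsupp.add_apply, gpSum_apply_of_mem ((geoB_mem_Tb _).mpr ⟨i, rfl⟩),
    Finsupp.single_eq_same] at hQ
  by_contra hne
  apply hj
  rw [hV, mem_riemannRochSpace_iff]
  intro v
  right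
  by_cases hv : v = R.r (C.Q i)
  · subst hv
    rw [Finsupp.add_apply, gpSum_apply_of_mem ((geoB_mem_Tb _).mpr ⟨i, rfl⟩),
      Finsupp.single_eq_same]
    omega
  · have hv' := (hm v).resolve_left hw0
    rw [Finsupp.add_apply, Finsupp.single_eq_of_ne hv, add_zero] at hv' ⊢
    exact hv'

/-! ### The normalised family -/

/-- the property of `b (i, kk)`, in terms of expansion homomorphisms at the centres -/
def GeoBProp (C : R.Chart g) (ι : Fin g → F →+* LaurentSeries K) (i : Fin g) (kk : ℕ)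
    (b : F) : Prop :=
  b ∈ R.O ∧ C.PolesAtCentres b ∧ (∀ (i' : Fin g) (m : ℤ), (ι i' b).coeff m ∈ A) ∧
    ∀ (i' : Fin g) (k' : ℕ),
      (ι i' b).coeff (-((k' : ℤ) + 2)) = if i' = i ∧ k' = kk then 1 else 0

theorem geoB_polesAtCentres_iff (C : R.Chart g) (f : F) :
    C.PolesAtCentres f ↔ ∀ P : Place K F, (∀ i, P ≠ C.Q i) → f ∈ P.toValuationSubring := by
  constructor
  · intro h P hP
    refine ge_mem_of_not_ord_neg P fun hneg => ?_
    obtain ⟨i, hi⟩ := h P hneg
    exact hP i hi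
  · intro h P hneg
    by_contra hno
    have hP : ∀ i, P ≠ C.Q i := fun i hi => hno ⟨i, hi⟩
    exact absurd (ge_ord_nonneg_of_mem P (h P hP)) (not_le.mpr hneg)

/-- a function with a pole of exact order `kk + 2` at `Q i`, leading coefficient `1`, integral
expansions, at most simple poles at the other centres -/
theorem geoB_exists_pre (hX : StmtExpand) (hT : StmtTaylorInt) (hR : R.IsPR)
    (hF : IsNiceCurve K F g) (hFk : IsNiceCurve k Fk g) (hO : R.Orth) (hC : C.IsChart)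
    (ι : Fin g → F →+* LaurentSeries K) (hι : ∀ i, GeoBExpHom (C.Q i) (C.tau i) (ι i))
    (i : Fin g) (kk : ℕ) :
    ∃ w : F, w ∈ R.O ∧ C.PolesAtCentres w ∧ (∀ (i' : Fin g) (m : ℤ), (ι i' w).coeff m ∈ A) ∧
      (ι i w).coeff (-((kk : ℤ) + 2)) = 1 ∧
      (∀ k' : ℕ, kk < k' → (ι i w).coeff (-((k' : ℤ) + 2)) = 0) ∧
      ∀ i', i' ≠ i → ∀ k' : ℕ, (ι i' w).coeff (-((k' : ℤ) + 2)) = 0 := by
  obtain ⟨w, hwO, hwD, hw0, hword⟩ := geoB_exists_w hF hFk hO hC i kk
  have hwne : w ≠ 0 := ge_coe_ne_zero (u := ⟨w, hwO⟩) hw0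
  have hm := mem_riemannRochSpace_iff.mp hwD
  -- orders at the centres
  have hbound : ∀ i', -(if i' = i then (kk : ℤ) + 2 else 1) ≤ (C.Q i').ord w := by
    intro i'
    have h := (hm (C.Q i')).resolve_left hwne
    rw [geoB_apply_T C i _ i' hC] at h
    split_ifs with hi
    · rw [if_pos hi] at h; linarith
    · rw [if_neg hi] at h; exact h
  have hpoles : C.PolesAtCentres w := by
    rw [geoB_polesAtCentres_iff]
    intro P hP
    have h := (hm P).resolve_left hwne
    rw [geoB_apply_not_T C i _ P hP, neg_zero] at h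
    exact PlaceAux.mem_of_ord_nonneg P h
  have hi : -(((kk + 2 : ℕ) : ℤ)) ≤ (C.Q i).ord w := by
    have h := hbound i
    rw [if_pos rfl] at h
    push_cast
    exact h
  have hi' : ∀ i', i' ≠ i → -(((1 : ℕ) : ℤ)) ≤ (C.Q i').ord w := by
    intro i' hne
    have h := hbound i'
    rw [if_neg hne] at h
    push_cast
    exact h
  -- the leading coefficient
  obtain ⟨v, hv⟩ := geoB_lead_unit hX hT hR hF hFk hC i (hι i) hwO (geoB_pole_eq hC hpoles i)
    (kk + 2) (Or.inr hi) hw0 (by rw [hword]; push_cast; ring)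
  have hv' : (ι i w).coeff (-((kk : ℤ) + 2)) * (v : K) = 1 := by
    have e : -((kk : ℤ) + 2) = -(((kk + 2 : ℕ) : ℤ)) := by push_cast; ring
    rw [e]; exact hv
  have hcoefA : ∀ (i' : Fin g) (m : ℤ), (ι i' w).coeff m ∈ A := by
    intro i' m
    by_cases hne : i' = i
    · subst hne
      exact geoB_coeff_mem hT hR hF hFk hC i' (hι i') hwO (geoB_pole_eq hC hpoles i')
        (kk + 2) (Or.inr hi) m
    · exact geoB_coeff_mem hT hR hF hFk hC i' (hι i') hwO (geoB_pole_eq hC hpoles i')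
        1 (Or.inr (hi' i' hne)) m
  refine ⟨algebraMap K F (v : K) * w, mul_mem (hR.algebraMap_mem v) hwO, ?_, ?_, ?_, ?_, ?_⟩
  · rw [geoB_polesAtCentres_iff] at hpoles ⊢
    exact fun P hP => mul_mem (P.algebraMap_mem' _) (hpoles P hP)
  · intro i' m
    rw [(hι i').coeff_const_mul]
    exact mul_mem v.2 (hcoefA i' m)
  · rw [(hι i).coeff_const_mul, mul_comm]
    exact hv'
  · intro k' hk'
    rw [(hι i).coeff_const_mul, (hι i).coeff_eq_zero (Or.inr hi) (by push_cast; omega),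
      mul_zero]
  · intro i' hne k'
    rw [(hι i').coeff_const_mul,
      (hι i').coeff_eq_zero (Or.inr (hi' i' hne)) (by push_cast; omega), mul_zero]

theorem geoB_exists (hX : StmtExpand) (hT : StmtTaylorInt) (hR : R.IsPR)
    (hF : IsNiceCurve K F g) (hFk : IsNiceCurve k Fk g) (hO : R.Orth) (hC : C.IsChart)
    (ι : Fin g → F →+* LaurentSeries K) (hι : ∀ i, GeoBExpHom (C.Q i) (C.tau i) (ι i))
    (i : Fin g) (kk : ℕ) : ∃ b : F, GeoBProp C ι i kk b := by
  induction kk using Nat.strong_induction_on with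
  | _ kk ih =>
    obtain ⟨w, hwO, hwP, hwA, hw1, hw2, hw3⟩ :=
      geoB_exists_pre hX hT hR hF hFk hO hC ι hι i kk
    have ih' : ∀ k' : ℕ, ∃ b : F, k' < kk → GeoBProp C ι i k' b := fun k' => by
      by_cases h : k' < kk
      · obtain ⟨b, hb⟩ := ih k' h
        exact ⟨b, fun _ => hb⟩
      · exact ⟨0, fun h' => absurd h' h⟩
    choose b' hb' using ih'
    set α : ℕ → K := fun k' => (ι i w).coeff (-((k' : ℤ) + 2)) with hα
    have hcoef : ∀ (i' : Fin g) (m : ℤ),
        (ι i' (w - ∑ k' ∈ Finset.range kk, algebraMap K F (α k') * b' k')).coeff m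
          = (ι i' w).coeff m - ∑ k' ∈ Finset.range kk, α k' * (ι i' (b' k')).coeff m := by
      intro i' m
      rw [(hι i').coeff_sub, (hι i').coeff_sum]
      congr 1
      exact Finset.sum_congr rfl fun k' _ => (hι i').coeff_const_mul _ _ _
    refine ⟨w - ∑ k' ∈ Finset.range kk, algebraMap K F (α k') * b' k', ?_, ?_, ?_, ?_⟩
    · exact sub_mem hwO (sum_mem fun k' hk' =>
        mul_mem ((hR.algebraMap_mem_iff _).mpr (hwA i _)) (hb' k' (Finset.mem_range.mp hk')).1)
    · rw [geoB_polesAtCentres_iff] at hwP ⊢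
      intro P hP
      refine sub_mem (hwP P hP) (sum_mem fun k' hk' => mul_mem (P.algebraMap_mem' _) ?_)
      exact (geoB_polesAtCentres_iff C _).mp (hb' k' (Finset.mem_range.mp hk')).2.1 P hP
    · intro i' m
      rw [hcoef]
      exact sub_mem (hwA i' m) (sum_mem fun k' hk' =>
        mul_mem (hwA i _) ((hb' k' (Finset.mem_range.mp hk')).2.2.1 i' m))
    · intro i' k''
      rw [hcoef]
      have hsum : ∑ k' ∈ Finset.range kk, α k' * (ι i' (b' k')).coeff (-((k'' : ℤ) + 2))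
          = if i' = i ∧ k'' < kk then α k'' else 0 := by
        have h1 : ∀ k' ∈ Finset.range kk, α k' * (ι i' (b' k')).coeff (-((k'' : ℤ) + 2))
            = if k' = k'' then (if i' = i then α k'' else 0) else 0 := by
          intro k' hk'
          rw [(hb' k' (Finset.mem_range.mp hk')).2.2.2 i' k'']
          by_cases h2 : k' = k''
          · subst h2
            by_cases h3 : i' = i
            · rw [if_pos ⟨h3, rfl⟩, if_pos rfl, if_pos h3, mul_one]
            · rw [if_neg (fun h => h3 h.1), if_pos rfl, if_neg h3, mul_zero]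
          · rw [if_neg (fun h => h2 h.2.symm), if_neg h2, mul_zero]
        rw [Finset.sum_congr rfl h1, Finset.sum_ite_eq' (Finset.range kk) k'']
        by_cases h4 : k'' < kk
        · rw [if_pos (Finset.mem_range.mpr h4)]
          by_cases h3 : i' = i
          · rw [if_pos h3, if_pos ⟨h3, h4⟩]
          · rw [if_neg h3, if_neg (fun h => h3 h.1)]
        · rw [if_neg (fun h => h4 (Finset.mem_range.mp h)), if_neg (fun h => h4 h.2)]
      rw [hsum]
      by_cases h3 : i' = i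
      · subst h3
        rcases lt_trichotomy k'' kk with h4 | h4 | h4
        · rw [if_pos ⟨rfl, h4⟩, if_neg (fun h => absurd h.2 (Nat.ne_of_lt h4)), sub_self]
        · subst h4
          rw [if_neg (fun h => lt_irrefl _ h.2), if_pos ⟨rfl, rfl⟩, sub_zero, hw1]
        · rw [if_neg (fun h => absurd h.2 (Nat.lt_asymm h4)),
            if_neg (fun h => absurd h.2 (Nat.ne_of_gt h4)), sub_zero, hw2 k'' h4]
      · rw [if_neg (fun h => h3 h.1), if_neg (fun h => h3 h.1), sub_zero, hw3 i' h3 k'']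

end Chart

/-! ### GEO-B -/

/-- **GEO-B**: the normalised family exists. -/
theorem stmtBFamily_of (hX : StmtExpand) (hT : StmtTaylorInt) : StmtBFamily := by
  intro K F k Fk _ _ _ _ _ _ A R g hR hF hFk hO C hC
  have hex : ∀ i : Fin g, ∃ ι : F →+* LaurentSeries K, GeoBExpHom (C.Q i) (C.tau i) ι :=
    fun i => hX K F (C.Q i) (hF.hres _) (C.tau i) (geoB_ord_tau hR hF.hpd hC i)
  choose ι hι using hex
  have hb : ∀ j : Fin g × ℕ, ∃ b : F, GeoBProp C ι j.1 j.2 b :=
    fun j => geoB_exists hX hT hR hF hFk hO hC ι hι j.1 j.2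
  choose b hb using hb
  refine ⟨b, fun j => (hb j).1, fun j => (hb j).2.1, fun j i' s hs => ?_⟩
  have hs' : s = ι i' (b j) := (hι i').2.1 _ s hs
  rw [hs']
  refine ⟨fun m => (hb j).2.2.1 i' m, fun k' => ?_⟩
  rw [(hb j).2.2.2 i' k']
  by_cases h : j = (i', k')
  · rw [if_pos h, if_pos ⟨by rw [h], by rw [h]⟩]
  · rw [if_neg h, if_neg]
    rintro ⟨h1, h2⟩
    exact h (Prod.ext h1.symm h2.symm)

end Fermat.Agent.W1


end ZBW1_006_0

/-! ### bundled: `Fermat.Agent.W1.GeoApprox` -/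
section ZBW1_006_1

/-!
# W1 GA-G: geometry and assembly of the approximation lemma `StmtApprox`  (helper51)

`stmtApprox_of : StmtSharp → StmtOrthApprox → StmtApprox` (`PlanGeo3.lean`, `PlanApprox.lean`).

Proof (brief of helper73).  `StmtSharp` moves the poles of `f` to zeros of the `τ i` modulo
`ϖ ^ n`: `f₁`.  A zero of `τ i` which reduces to a reduced centre `Q̄ i'` is the centre `Q i'`
(`ga_eq_centre`, from `stmtEval`, `stmtDisc` and `Rep`).  With `D₁ := M • Σ Q i`,
`D' := D₁ + M • Σ_{P ∈ Z} P` (`Z` the poles of `f₁` which are not centres) the reductions of an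
orthonormal basis of `L(D₁)` span `L̄(r_* D₁)` (`ga_span_eq`: Riemann on both sides), and
`StmtOrthApprox` moves `f₁` into `L(D₁)` modulo `ϖ ^ n`.
-/

set_option autoImplicit false

open AlgebraicCurve Module

namespace Fermat.Agent.W1

open Fermat.Agent.S24 Fermat.Agent.ES.R

section Chart

variable {K F k Fk : Type} [Field K] [Field F] [Algebra K F] [Field k] [Field Fk] [Algebra k Fk]
variable {A : ValuationSubring K} {R : PRData K F k Fk A} {g : ℕ} {C : R.Chart g}

/-- the value of `t̄` at a reduced centre -/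
theorem ga_value_red (hR : R.IsPR) (hC : C.IsChart) (i : Fin g) :
    HasValueAt (R.r (C.Q i)) (R.red ⟨C.t, geoB_t_mem hC⟩) (R.res (C.c i)) := by
  have h3 := geoB_ord_red_tau hR hC i
  have h4 := geoB_red_tau_ne_zero hR hC i
  rw [geoB_red_tau hR hC i] at h3 h4
  rw [hasValueAt_iff_ord_pos _ h4, h3]
  exact one_pos

/-- **Lemma E**: a zero of `τ i` which reduces to the reduced centre `Q̄ i'` is `Q i'`. -/
theorem ga_eq_centre (hR : R.IsPR) (hF : IsNiceCurve K F g) (hFk : IsNiceCurve k Fk g)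
    (hC : C.IsChart) (hRep : C.Rep) {P : Place K F} {i i' : Fin g}
    (hv : HasValueAt P C.t (C.c i : K)) (hr : R.r P = R.r (C.Q i')) : P = C.Q i' := by
  have ht := geoB_t_mem hC
  obtain ⟨a, ha1, ha2⟩ := stmtEval K F k Fk A R g hR hF hFk ⟨C.t, ht⟩ P
    (fun P' hP' => by rw [hr]; exact geoB_noPole hR hC i' P' hP')
  have hac : a = C.c i := Subtype.ext (hasValueAt_unique P ha1 hv)
  rw [hr, hac] at ha2
  have h3 : R.res (C.c i) = R.res (C.c i') := hasValueAt_unique _ ha2 (ga_value_red hR hC i')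
  have h4 : C.c i = C.c i' := hRep i i' h3
  obtain ⟨-, huniq⟩ := stmtDisc K F k Fk A R g hR hF hFk C.t ht hC.good (C.c i')
    (R.r (C.Q i')) (hC.simple ht i')
  obtain ⟨P₀, -, hP₀⟩ := huniq 0 (ge_zero_mem_nonunits A)
  have e1 : P = P₀ := hP₀ P ⟨hr, by rw [add_zero, ← h4]; exact hv⟩
  have e2 : C.Q i' = P₀ := hP₀ (C.Q i') ⟨rfl, by rw [add_zero]; exact hC.value i'⟩
  rw [e1, e2]

/-! ### Divisors -/

theorem ga_gpSum_support {T : Finset (Place K F)} {P : Place K F}
    (hP : P ∈ (gpSum T).support) : P ∈ T := by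
  by_contra h
  exact (Finsupp.mem_support_iff.mp hP) (gpSum_apply_of_not_mem h)

theorem ga_mapDomain_gpSum_T (hC : C.IsChart) :
    Finsupp.mapDomain R.r (gpSum (geoBT C)) = gpSum (geoBTb C) := by
  rw [geoB_gpSum_T hC, geoB_gpSum_Tb hC, Finsupp.mapDomain_finsetSum]
  simp only [Finsupp.mapDomain_single]

/-- the push-forward of a divisor supported on places which do not reduce to `Q` vanishes at
`Q` -/
theorem ga_mapDomain_apply_eq_zero (D : Divisor K F) (Q : Place k Fk)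
    (h : ∀ P ∈ D.support, R.r P ≠ Q) : Finsupp.mapDomain R.r D Q = 0 := by
  classical
  rw [ge_mapDomain_apply]
  exact Finset.sum_eq_zero fun P hP => if_neg (h P hP)

/-- **Lemma F**: the reductions of an orthonormal basis of `L(M • ΣQ i)` span
`L̄(M • ΣQ̄ i)`, `M ≥ 1`. -/
theorem ga_span_eq (hF : IsNiceCurve K F g) (hFk : IsNiceCurve k Fk g) (hC : C.IsChart)
    (M' : ℕ) {n₁ : ℕ} (e₁ : Fin n₁ → F) (he₁ : ∀ i, e₁ i ∈ R.O)
    (hspan : Submodule.span K (Set.range e₁)
      = riemannRochSpace ((M' + 1) • gpSum (geoBT C)))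
    (hli : LinearIndependent k (fun i => R.red ⟨e₁ i, he₁ i⟩))
    (hmem : ∀ i, R.red ⟨e₁ i, he₁ i⟩ ∈ riemannRochSpace ((M' + 1) • gpSum (geoBTb C))) :
    Submodule.span k (Set.range fun i => R.red ⟨e₁ i, he₁ i⟩)
      = riemannRochSpace ((M' + 1) • gpSum (geoBTb C)) := by
  classical
  have hpdF := hF.hpd
  have hpdFk := hFk.hpd
  set V : Submodule k Fk := riemannRochSpace ((M' + 1) • gpSum (geoBTb C)) with hV
  -- `dim V = g M' + 1`
  have h3 : (finrank k ↥V : ℤ) = (g : ℤ) * M' + 1 := by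
    have hns : finrank k ↥(riemannRochSpace (gpSum (geoBTb C))) = 1 := by
      rw [geoB_gpSum_Tb hC]; exact hC.nonspecial
    have h := gp_finrank_chart_add hFk.hres hFk.lower (geoB_card_Tb hC) hns
      (A := M' • gpSum (geoBTb C)) (nsmul_nonneg (gpSum_nonneg _) M')
    rw [map_nsmul, degree_gpSum hFk.hres, geoB_card_Tb hC] at h
    have e : (M' + 1) • gpSum (geoBTb C) = gpSum (geoBTb C) + M' • gpSum (geoBTb C) := by
      rw [succ_nsmul']
    rw [hV, e, h]
    simp only [nsmul_eq_mul]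
    ring
  -- `g M' + 1 ≤ dim L(D₁) ≤ n₁`
  have h1 : ((g : ℤ) * M' + 1) ≤ (finrank K ↥(riemannRochSpace
      ((M' + 1) • gpSum (geoBT C) : Divisor K F)) : ℤ) := by
    have h := hF.lower ((M' + 1) • gpSum (geoBT C))
    rw [map_nsmul, degree_gpSum hF.hres, geoB_card_T hC] at h
    simp only [nsmul_eq_mul] at h
    push_cast at h
    linarith
  have h2 : finrank K ↥(riemannRochSpace ((M' + 1) • gpSum (geoBT C) : Divisor K F)) ≤ n₁ := by
    rw [← hspan]
    have := finrank_range_le_card (R := K) e₁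
    rwa [Fintype.card_fin] at this
  have hfin : Module.Finite k ↥V := by
    rcases Nat.eq_zero_or_pos g with hg | hg
    · -- no centres: any place will do
      obtain ⟨v₀, -⟩ := hFk.infinite.nonempty
      exact rr_finite v₀ hFk.hres _
    · exact rr_finite (R.r (C.Q ⟨0, hg⟩)) hFk.hres _
  have hli' : LinearIndependent k (fun j => (⟨R.red ⟨e₁ j, he₁ j⟩, hmem j⟩ : V)) :=
    LinearIndependent.of_comp V.subtype hli
  have h5 := hli'.fintype_card_le_finrank
  rw [Fintype.card_fin] at h5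
  have hcard : Fintype.card (Fin n₁) = finrank k ↥V := by
    rw [Fintype.card_fin]
    have h6 : (n₁ : ℤ) ≤ (finrank k ↥V : ℤ) := by exact_mod_cast h5
    have h7 : (finrank K ↥(riemannRochSpace ((M' + 1) • gpSum (geoBT C) : Divisor K F)) : ℤ)
        ≤ n₁ := by exact_mod_cast h2
    have h8 : (n₁ : ℤ) = (finrank k ↥V : ℤ) := by linarith
    exact_mod_cast h8
  have htop := hli'.span_eq_top_of_card_eq_finrank' hcard
  have hrange : (Set.range fun i => R.red ⟨e₁ i, he₁ i⟩)
      = V.subtype '' (Set.range fun j => (⟨R.red ⟨e₁ j, he₁ j⟩, hmem j⟩ : V)) := by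
    rw [← Set.range_comp]
    rfl
  rw [hrange, ← Submodule.map_span, htop, Submodule.map_subtype_top]

/-- a pole of a function of `L(M • ΣT)` lies in `T` -/
theorem ga_pole_mem {T : Finset (Place K F)} (M : ℕ) {w : F}
    (hw : w ∈ riemannRochSpace (M • gpSum T)) {P : Place K F} (hP : P.ord w < 0) : P ∈ T := by
  by_contra hPT
  have hw0 : w ≠ 0 := by
    rintro rfl
    rw [Place.ord_zero] at hP
    exact lt_irrefl _ hP
  have h := ((mem_riemannRochSpace_iff.mp hw) P).resolve_left hw0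
  rw [Finsupp.smul_apply, gpSum_apply_of_not_mem hPT, smul_zero, neg_zero] at h
  exact absurd h (not_le.mpr hP)

theorem ga_smul_gpSum_apply_of_mem {T : Finset (Place K F)} (M : ℕ) {P : Place K F}
    (hP : P ∈ T) : (M • gpSum T) P = (M : ℤ) := by
  rw [Finsupp.smul_apply, gpSum_apply_of_mem hP, nsmul_eq_mul, mul_one]

theorem ga_smul_gpSum_nonneg (T : Finset (Place K F)) (M : ℕ) (P : Place K F) :
    0 ≤ (M • gpSum T) P := by
  have h := Finsupp.le_def.mp (nsmul_nonneg (gpSum_nonneg T) M) P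
  simpa using h

/-- the `K`-subspace of the functions all of whose poles reduce to reduced centres -/
def gaP (C : R.Chart g) : Submodule K F where
  carrier := {w | ∀ P : Place K F, P.ord w < 0 → ∃ i, R.r P = R.r (C.Q i)}
  zero_mem' := fun P hP => by
    rw [Place.ord_zero] at hP
    exact absurd hP (lt_irrefl _)
  add_mem' := by
    intro a b ha hb P hP
    by_contra hno
    have ha' : a ∈ P.toValuationSubring := ge_mem_of_not_ord_neg P fun h => hno (ha P h)
    have hb' : b ∈ P.toValuationSubring := ge_mem_of_not_ord_neg P fun h => hno (hb P h)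
    exact absurd (ge_ord_nonneg_of_mem P (add_mem ha' hb')) (not_le.mpr hP)
  smul_mem' := by
    intro c a ha P hP
    by_contra hno
    have ha' : a ∈ P.toValuationSubring := ge_mem_of_not_ord_neg P fun h => hno (ha P h)
    have hca : c • a ∈ P.toValuationSubring := by
      rw [Algebra.smul_def]
      exact mul_mem (P.algebraMap_mem' c) ha'
    exact absurd (ge_ord_nonneg_of_mem P hca) (not_le.mpr hP)

theorem mem_gaP {C : R.Chart g} {w : F} :
    w ∈ gaP C ↔ ∀ P : Place K F, P.ord w < 0 → ∃ i, R.r P = R.r (C.Q i) := Iff.rfl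

end Chart

/-! ### GEO-AL -/

/-- **GEO-AL** from its two halves. -/
theorem stmtApprox_of (hS : StmtSharp) (hOA : StmtOrthApprox) : StmtApprox := by
  classical
  intro K F k Fk _ _ _ _ _ _ A R g hR hF hFk hO C hC hRep ϖ hϖ hϖ0 f hf hpol n
  obtain ⟨f₁, hf₁O, hf₁pol, h₁, hh₁O, hh₁⟩ :=
    hS K F k Fk A R g hR hF hFk C hC ϖ hϖ hϖ0 f hf hpol n
  by_cases hf₁0 : f₁ = 0
  · refine ⟨0, R.O.zero_mem, fun P hP => ?_, h₁, hh₁O, ?_⟩
    · rw [Place.ord_zero] at hP
      exact absurd hP (lt_irrefl _)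
    · rw [hf₁0] at hh₁
      exact hh₁
  have hpdF := hF.hpd
  obtain ⟨Df, hDf, -⟩ := hpdF.exists_divisor f₁ hf₁0
  -- a bound for the pole orders
  set M' : ℕ := ∑ P ∈ Df.support, (Df P).natAbs with hM'
  have hbound : ∀ P : Place K F, -(P.ord f₁) ≤ (M' : ℤ) := by
    intro P
    by_cases hP : P ∈ Df.support
    · have h1 : (Df P).natAbs ≤ M' :=
        Finset.single_le_sum (f := fun P => (Df P).natAbs) (fun _ _ => Nat.zero_le _) hP
      rw [← hDf P]
      omega
    · rw [Finsupp.notMem_support_iff] at hP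
      rw [← hDf P, hP, neg_zero]
      exact Int.natCast_nonneg _
  -- the poles which are not centres
  set Z : Finset (Place K F) := Df.support.filter (fun P => Df P < 0 ∧ ∀ i, P ≠ C.Q i) with hZ
  have hZred : ∀ P ∈ Z, ∀ i, R.r P ≠ R.r (C.Q i) := by
    intro P hP i hr
    rw [hZ, Finset.mem_filter] at hP
    obtain ⟨-, hneg, hne⟩ := hP
    obtain ⟨i₀, hi₀⟩ := hf₁pol P (by rw [← hDf P]; exact hneg)
    exact hne i (ga_eq_centre hR hF hFk hC hRep hi₀ hr)
  set D1 : Divisor K F := (M' + 1) • gpSum (geoBT C) with hD1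
  set D' : Divisor K F := D1 + (M' + 1) • gpSum Z with hD'
  have hD1D' : D1 ≤ D' := le_add_of_nonneg_right (nsmul_nonneg (gpSum_nonneg _) _)
  -- `f₁ ∈ L(D')`
  have hf₁D' : f₁ ∈ riemannRochSpace D' := by
    rw [mem_riemannRochSpace_iff]
    intro P
    right
    have hb := hbound P
    have hn1 := ga_smul_gpSum_nonneg (geoBT C) (M' + 1) P
    have hn2 := ga_smul_gpSum_nonneg Z (M' + 1) P
    rw [hD', Finsupp.add_apply, hD1]
    by_cases hneg : P.ord f₁ < 0
    · by_cases hc : ∃ i, P = C.Q i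
      · rw [ga_smul_gpSum_apply_of_mem (M' + 1) ((geoB_mem_T P).mpr hc), Nat.cast_add,
          Nat.cast_one]
        linarith
      · have hPZ : P ∈ Z := by
          rw [hZ, Finset.mem_filter]
          refine ⟨?_, ?_, fun i hi => hc ⟨i, hi⟩⟩
          · rw [Finsupp.mem_support_iff, hDf P]
            omega
          · rw [hDf P]
            exact hneg
        rw [ga_smul_gpSum_apply_of_mem (M' + 1) hPZ, Nat.cast_add, Nat.cast_one]
        linarith
    · linarith [not_lt.mp hneg]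
  -- orthonormal bases
  obtain ⟨n₁, e₁, he₁, hspan₁, hli₁, hmem₁⟩ := hO D1
  obtain ⟨m, e', he', hspan', hli', hmem'⟩ := hO D'
  have hρD1 : Finsupp.mapDomain R.r D1 = (M' + 1) • gpSum (geoBTb C) := by
    rw [hD1, Finsupp.mapDomain_smul, ga_mapDomain_gpSum_T hC]
  have hρD' : ∀ i, Finsupp.mapDomain R.r D' (R.r (C.Q i))
      = ((M' + 1) • gpSum (geoBTb C)) (R.r (C.Q i)) := by
    intro i
    rw [hD', Finsupp.mapDomain_add, Finsupp.add_apply, hρD1,
      ga_mapDomain_apply_eq_zero _ _ (fun P hP => hZred P ?_ i), add_zero]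
    by_contra hPZ
    apply Finsupp.mem_support_iff.mp hP
    rw [Finsupp.smul_apply, gpSum_apply_of_not_mem hPZ, smul_zero]
  rw [hρD1] at hmem₁
  have hspanb := ga_span_eq hF hFk hC M' e₁ he₁ hspan₁ hli₁ hmem₁
  -- the two hypotheses on `P = gaP C`
  have hP1 : Submodule.span K (Set.range e₁) ≤ gaP C := by
    rw [hspan₁]
    intro w hw P hP
    obtain ⟨i, hi⟩ := (geoB_mem_T P).mp (ga_pole_mem (M' + 1) hw hP)
    exact ⟨i, by rw [hi]⟩
  have hP2 : ∀ (w : F) (hw : w ∈ R.O), w ∈ gaP C →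
      R.red ⟨w, hw⟩ ∈ Submodule.span k (Set.range fun j => R.red ⟨e' j, he' j⟩) →
      R.red ⟨w, hw⟩ ∈ Submodule.span k (Set.range fun i => R.red ⟨e₁ i, he₁ i⟩) := by
    intro w hw hwP hwe'
    rw [hspanb]
    have hwD' : R.red ⟨w, hw⟩ ∈ riemannRochSpace (Finsupp.mapDomain R.r D') := by
      refine (Submodule.span_le.mpr ?_) hwe'
      rintro _ ⟨j, rfl⟩
      exact hmem' j
    rw [mem_riemannRochSpace_iff] at hwD' ⊢
    intro Q
    by_cases hred : R.red ⟨w, hw⟩ = 0
    · exact Or.inl hred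
    right
    by_cases hQ : ∃ i, Q = R.r (C.Q i)
    · obtain ⟨i, rfl⟩ := hQ
      rw [← hρD' i]
      exact (hwD' _).resolve_left hred
    · rw [Finsupp.smul_apply, gpSum_apply_of_not_mem (fun h => hQ ((geoB_mem_Tb Q).mp h)),
        smul_zero, neg_zero]
      have hle := ge_sum_ord_le hR hpdF (u := ⟨w, hw⟩) hred Q
        (fun P' hP' hrP' => by
          obtain ⟨i, hi⟩ := hwP P' hP'
          exact hQ ⟨i, by rw [← hrP', hi]⟩) ∅ (by simp)
      rw [Finset.sum_empty] at hle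
      exact hle
  have hfP : f ∈ gaP C := by
    intro P hP
    obtain ⟨i, z, hz, -⟩ := hpol P hP
    exact ⟨i, hz.1⟩
  -- approximation in orthonormal coordinates
  obtain ⟨y, hy, hyO, h₂, hh₂O, hh₂⟩ := hOA K F k Fk A R hR n₁ m e₁ e' he₁ he' hli₁ hli'
    (by rw [hspan₁, hspan']; exact rr_mono hD1D') (gaP C) hP1 hP2 (ϖ ^ n)
    (pow_mem (ge_nonunits_mem hϖ) n) (pow_ne_zero n hϖ0) f₁ f
    (by rw [hspan']; exact hf₁D') hf₁O hfP ⟨h₁, hh₁O, hh₁⟩
  rw [hspan₁] at hy
  refine ⟨y, hyO, fun P hP => ?_, h₁ + h₂, add_mem hh₁O hh₂O, ?_⟩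
  · obtain ⟨i, hi⟩ := (geoB_mem_T P).mp (ga_pole_mem (M' + 1) hy hP)
    exact ⟨i, hi⟩
  · have e : f - y = (f - f₁) + (f₁ - y) := by ring
    rw [e, hh₁, hh₂, mul_add]

end Fermat.Agent.W1


end ZBW1_006_1
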