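/- GENERATED FILE (helper35, build-time optimisation, NOTES/ZB.md): verbatim concatenation of the modules
   Fermat.Agent.W1.GeoExpandCore
   Fermat.Agent.W1.GeoExpand
   Fermat.Agent.W1.GeoTaylor
   Fermat.Agent.W1.GeoSharp
   Do not edit; do not import together with these modules. -/
import Mathlib
import Fermat.Prelude.Def_AlgebraicCurve_Repartitions
import Fermat.Agent.ZB.S24_007
import Fermat.Agent.ZB.W1_002
import Fermat.Agent.ZB.ES_020

/-! ### bundled: `Fermat.Agent.W1.GeoExpandCore` -/
section ZBW1_007_0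

/-!
# W1 GEO-X, core: the expansion of a function field at a rational place

`P` a place of `F / K` with residue field `K`, `u` a uniformiser at `P`.
* `gx_exists_poly`   : every `f` regular at `P` is congruent modulo `u ^ N` to a polynomial in `u`;
* `gx_coeff_eq_zero` : a polynomial `p` with `p(u) ≡ 0` modulo `u ^ N` has no coefficients below `N`;
* `gxCo`, `gxPS`     : the coefficients and the power series of the expansion;
* `gxO`              : the ring homomorphism `O_P → K⟦X⟧`;
* `gxIota`           : the ring homomorphism `F → K⸨X⸩`, with `gxIota_const`, `gxIota_unif`,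
  `gxIota_order`.
-/

set_option autoImplicit false

noncomputable section

namespace Fermat.Agent.W1.GX

open AlgebraicCurve Polynomial WithZero Fermat.Agent.S24

variable {K F : Type*} [Field K] [Field F] [Algebra K F] (P : Place K F)

/-- the valuation of a nonzero constant is `1` -/
theorem gx_val_const {a : K} (ha : a ≠ 0) : P.adicValuation (algebraMap K F a) = 1 := by
  have h0 : algebraMap K F a ≠ 0 := (_root_.map_ne_zero _).mpr ha
  rw [P.adicValuation_eq_exp_neg_ord h0, PlaceAux.ord_algebraMap, neg_zero, exp_zero]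

/-- the valuation of a uniformiser -/
theorem gx_val_unif {u : F} (hu : P.ord u = 1) : P.adicValuation u = exp (-1 : ℤ) := by
  have h0 : u ≠ 0 := by
    rintro rfl
    rw [Place.ord_zero] at hu
    exact zero_ne_one hu
  rw [P.adicValuation_eq_exp_neg_ord h0, hu]

theorem gx_exp_neg_one_lt_one : (exp (-1 : ℤ) : ℤᵐ⁰) < 1 := by
  rw [← exp_zero, exp_lt_exp]
  norm_num

theorem gx_val_unif_le_one {u : F} (hu : P.adicValuation u = exp (-1 : ℤ)) :
    P.adicValuation u ≤ 1 := by
  rw [hu]; exact gx_exp_neg_one_lt_one.le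

/-- polynomials in `u` are regular at `P` -/
theorem gx_val_aeval_le {u : F} (hu : P.adicValuation u ≤ 1) (p : K[X]) :
    P.adicValuation (aeval u p) ≤ 1 := by
  induction p using Polynomial.induction_on' with
  | add p q hp hq =>
    rw [map_add]
    exact (Valuation.map_add _ _ _).trans (max_le hp hq)
  | monomial n a =>
    rw [aeval_monomial, map_mul, map_pow]
    exact mul_le_one' (P.adicValuation_algebraMap_le_one a) (pow_le_one' hu n)

/-- the valuation of `x * u ^ N` -/
theorem gx_val_mul_pow {u : F} (hu : P.adicValuation u = exp (-1 : ℤ)) (x : F) (N : ℕ) :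
    P.adicValuation (x * u ^ N) = P.adicValuation x * exp (-(N : ℤ)) := by
  rw [map_mul, map_pow, hu, ← exp_nsmul, nsmul_eq_mul, mul_neg, mul_one]

/-- cancellation of `exp` factors -/
theorem gx_le_of_mul_exp_le {x : ℤᵐ⁰} {a b : ℤ} (h : x * exp a ≤ exp (b + a)) : x ≤ exp b := by
  have h1 : x * exp a * exp (-a) ≤ exp (b + a) * exp (-a) := by gcongr
  rwa [mul_assoc, ← exp_add, ← exp_add, add_neg_cancel, exp_zero, mul_one,
    add_neg_cancel_right] at h1

/-- **uniqueness**: a polynomial `p` with `p(u) ≡ 0` modulo `u ^ N` has no coefficient below `N` -/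
theorem gx_coeff_eq_zero {u : F} (hu : P.adicValuation u = exp (-1 : ℤ)) :
    ∀ (N : ℕ) (p : K[X]), P.adicValuation (aeval u p) ≤ exp (-(N : ℤ)) →
      ∀ n < N, p.coeff n = 0
  | 0, _, _, n, hn => absurd hn (Nat.not_lt_zero n)
  | N + 1, p, hp, n, hn => by
    have hev : aeval u p = aeval u p.divX * u + algebraMap K F (p.coeff 0) := by
      conv_lhs => rw [← Polynomial.divX_mul_X_add p]
      rw [map_add, map_mul, aeval_X, aeval_C]
    have h0 : p.coeff 0 = 0 := by
      by_contra hne
      have hc := gx_val_const P hne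
      have h1 : P.adicValuation (aeval u p.divX * u) ≤ exp (-1 : ℤ) := by
        rw [map_mul, hu]
        exact mul_le_of_le_one_left' (gx_val_aeval_le P (gx_val_unif_le_one P hu) _)
      have h2 : algebraMap K F (p.coeff 0) = aeval u p - aeval u p.divX * u := by
        rw [hev]; ring
      have h3 : P.adicValuation (algebraMap K F (p.coeff 0)) ≤ exp (-1 : ℤ) := by
        rw [h2]
        refine (Valuation.map_sub _ _ _).trans (max_le (hp.trans ?_) h1)
        rw [exp_le_exp]
        push_cast
        omega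
      rw [hc] at h3
      exact absurd h3 (not_le.mpr gx_exp_neg_one_lt_one)
    rcases n with _ | n
    · exact h0
    · rw [← Polynomial.coeff_divX]
      refine gx_coeff_eq_zero hu N p.divX ?_ n (by omega)
      have h4 : aeval u p = aeval u p.divX * u ^ 1 := by
        rw [hev, h0, map_zero, add_zero, pow_one]
      rw [h4, gx_val_mul_pow P hu] at hp
      refine gx_le_of_mul_exp_le (a := -((1 : ℕ) : ℤ)) ?_
      refine hp.trans (le_of_eq ?_)
      congr 1
      push_cast
      ring

/-- the constant term: an element regular at `P` is congruent to a constant modulo `u` -/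
theorem gx_exists_const (hres : Function.Surjective (algebraMap K P.ResidueField)) {g : F}
    (hg : P.adicValuation g ≤ 1) :
    ∃ a : K, P.adicValuation (g - algebraMap K F a) ≤ exp (-1 : ℤ) := by
  have hmem : g ∈ P.toValuationSubring := (PlaceAux.mem_iff_adicValuation_le_one P g).2 hg
  obtain ⟨a, ha⟩ := hres (IsLocalRing.residue _ ⟨g, hmem⟩)
  refine ⟨a, ?_⟩
  have h1 : IsLocalRing.residue P.toValuationSubring
      (⟨g, hmem⟩ - algebraMap K P.toValuationSubring a) = 0 := by
    rw [map_sub, ← ha, sub_eq_zero]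
    rfl
  rw [IsLocalRing.residue_eq_zero_iff] at h1
  rcases eq_or_ne (g - algebraMap K F a) 0 with h | h
  · rw [h, map_zero]; exact zero_le
  · have h2 : g - algebraMap K F a ∈ P.toValuationSubring.nonunits := by
      rw [ValuationSubring.mem_nonunits_iff_exists_mem_maximalIdeal]
      exact ⟨(⟨g, hmem⟩ - algebraMap K P.toValuationSubring a : P.toValuationSubring).2, h1⟩
    have h3 := (PlaceAux.ord_pos_iff_mem_nonunits P h).2 h2
    rw [P.adicValuation_eq_exp_neg_ord h, exp_le_exp]
    omega

/-- **existence**: an element regular at `P` is congruent modulo `u ^ N` to a polynomial in `u` -/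
theorem gx_exists_poly (hres : Function.Surjective (algebraMap K P.ResidueField)) {u : F}
    (hu : P.adicValuation u = exp (-1 : ℤ)) {f : F} (hf : P.adicValuation f ≤ 1) :
    ∀ N : ℕ, ∃ p : K[X], P.adicValuation (f - aeval u p) ≤ exp (-(N : ℤ))
  | 0 => ⟨0, by simpa using hf⟩
  | N + 1 => by
    obtain ⟨p, hp⟩ := gx_exists_poly hres hu hf N
    have hu0 : u ≠ 0 := by
      rintro rfl
      rw [map_zero] at hu
      exact (exp_ne_zero).symm hu
    set g : F := (f - aeval u p) / u ^ N with hg
    have hgu : f - aeval u p = g * u ^ N := by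
      rw [hg, div_mul_cancel₀ _ (pow_ne_zero N hu0)]
    have hg1 : P.adicValuation g ≤ 1 := by
      rw [hgu, gx_val_mul_pow P hu] at hp
      have := gx_le_of_mul_exp_le (a := -(N : ℤ)) (b := 0) (by simpa using hp)
      simpa using this
    obtain ⟨a, ha⟩ := gx_exists_const P hres hg1
    refine ⟨p + Polynomial.monomial N a, ?_⟩
    have h1 : f - aeval u (p + Polynomial.monomial N a) = (g - algebraMap K F a) * u ^ N := by
      rw [map_add, aeval_monomial, sub_mul, ← hgu]
      ring
    rw [h1, gx_val_mul_pow P hu]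
    calc P.adicValuation (g - algebraMap K F a) * exp (-(N : ℤ))
        ≤ exp (-1 : ℤ) * exp (-(N : ℤ)) := by gcongr
      _ = exp (-((N + 1 : ℕ) : ℤ)) := by
        rw [← exp_add]; congr 1; push_cast; ring

/-- a polynomial without coefficients below `N` is divisible by `u ^ N` at `u` -/
theorem gx_val_aeval_le_of_coeff {u : F} (hu : P.adicValuation u = exp (-1 : ℤ)) (N : ℕ)
    (p : K[X]) (hp : ∀ n < N, p.coeff n = 0) : P.adicValuation (aeval u p) ≤ exp (-(N : ℤ)) := by
  obtain ⟨q, rfl⟩ := (Polynomial.X_pow_dvd_iff).2 hp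
  rw [map_mul, map_pow, aeval_X, mul_comm, gx_val_mul_pow P hu]
  exact mul_le_of_le_one_left' (gx_val_aeval_le P (gx_val_unif_le_one P hu) _)

/-! ### the coefficients of the expansion -/

open Classical in
/-- the `n`-th coefficient of the expansion of `f` in `u` -/
def gxCo (u f : F) (n : ℕ) : K :=
  if h : ∃ p : K[X], P.adicValuation (f - aeval u p) ≤ exp (-((n + 1 : ℕ) : ℤ)) then
    (Classical.choose h).coeff n else 0

theorem gxCo_eq {u : F} (hu : P.adicValuation u = exp (-1 : ℤ)) {f : F} {N : ℕ} {p : K[X]}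
    (hp : P.adicValuation (f - aeval u p) ≤ exp (-(N : ℤ))) {n : ℕ} (hn : n < N) :
    gxCo P u f n = p.coeff n := by
  have hle : (exp (-(N : ℤ)) : ℤᵐ⁰) ≤ exp (-((n + 1 : ℕ) : ℤ)) := by
    rw [exp_le_exp]; push_cast; omega
  have hex : ∃ p : K[X], P.adicValuation (f - aeval u p) ≤ exp (-((n + 1 : ℕ) : ℤ)) :=
    ⟨p, hp.trans hle⟩
  rw [gxCo, dif_pos hex]
  have h0 := Classical.choose_spec hex
  have h1 : P.adicValuation (aeval u (Classical.choose hex - p)) ≤ exp (-((n + 1 : ℕ) : ℤ)) := by
    have : aeval u (Classical.choose hex - p)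
        = (f - aeval u p) - (f - aeval u (Classical.choose hex)) := by
      rw [map_sub]; ring
    rw [this]
    exact (Valuation.map_sub _ _ _).trans (max_le (hp.trans hle) h0)
  have := gx_coeff_eq_zero P hu (n + 1) _ h1 n (Nat.lt_succ_self n)
  rwa [coeff_sub, sub_eq_zero] at this

/-- the power series of the expansion of `f` in `u` -/
def gxPS (u f : F) : PowerSeries K := PowerSeries.mk (gxCo P u f)

theorem gxPS_coeff {u : F} (hu : P.adicValuation u = exp (-1 : ℤ)) {f : F} {N : ℕ} {p : K[X]}
    (hp : P.adicValuation (f - aeval u p) ≤ exp (-(N : ℤ))) {n : ℕ} (hn : n < N) :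
    PowerSeries.coeff n (gxPS P u f) = p.coeff n := by
  rw [gxPS, PowerSeries.coeff_mk, gxCo_eq P hu hp hn]

/-- the expansion of a polynomial in `u` -/
theorem gxPS_aeval {u : F} (hu : P.adicValuation u = exp (-1 : ℤ)) (p : K[X]) :
    gxPS P u (aeval u p) = (p : PowerSeries K) := by
  ext n
  have h : P.adicValuation (aeval u p - aeval u p) ≤ exp (-((n + 1 : ℕ) : ℤ)) := by
    rw [sub_self, map_zero]; exact zero_le
  rw [gxPS_coeff P hu h (Nat.lt_succ_self n), Polynomial.coeff_coe]

variable (hres : Function.Surjective (algebraMap K P.ResidueField))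

include hres in
theorem gxPS_add {u : F} (hu : P.adicValuation u = exp (-1 : ℤ)) {f g : F}
    (hf : P.adicValuation f ≤ 1) (hg : P.adicValuation g ≤ 1) :
    gxPS P u (f + g) = gxPS P u f + gxPS P u g := by
  ext n
  obtain ⟨p, hp⟩ := gx_exists_poly P hres hu hf (n + 1)
  obtain ⟨q, hq⟩ := gx_exists_poly P hres hu hg (n + 1)
  have h : P.adicValuation (f + g - aeval u (p + q)) ≤ exp (-((n + 1 : ℕ) : ℤ)) := by
    have : f + g - aeval u (p + q) = (f - aeval u p) + (g - aeval u q) := by
      rw [map_add]; ring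
    rw [this]
    exact (Valuation.map_add _ _ _).trans (max_le hp hq)
  rw [map_add, gxPS_coeff P hu h (Nat.lt_succ_self n), gxPS_coeff P hu hp (Nat.lt_succ_self n),
    gxPS_coeff P hu hq (Nat.lt_succ_self n), coeff_add]

include hres in
theorem gxPS_mul {u : F} (hu : P.adicValuation u = exp (-1 : ℤ)) {f g : F}
    (hf : P.adicValuation f ≤ 1) (hg : P.adicValuation g ≤ 1) :
    gxPS P u (f * g) = gxPS P u f * gxPS P u g := by
  ext n
  obtain ⟨p, hp⟩ := gx_exists_poly P hres hu hf (n + 1)
  obtain ⟨q, hq⟩ := gx_exists_poly P hres hu hg (n + 1)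
  have h : P.adicValuation (f * g - aeval u (p * q)) ≤ exp (-((n + 1 : ℕ) : ℤ)) := by
    have : f * g - aeval u (p * q) = f * (g - aeval u q) + aeval u q * (f - aeval u p) := by
      rw [map_mul]; ring
    rw [this]
    refine (Valuation.map_add _ _ _).trans (max_le ?_ ?_)
    · rw [map_mul]
      exact (mul_le_of_le_one_left' hf).trans hq
    · rw [map_mul]
      exact (mul_le_of_le_one_left' (gx_val_aeval_le P (gx_val_unif_le_one P hu) q)).trans hp
  rw [gxPS_coeff P hu h (Nat.lt_succ_self n), Polynomial.coeff_mul, PowerSeries.coeff_mul]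
  refine Finset.sum_congr rfl fun x hx => ?_
  have hx' := Finset.HasAntidiagonal.mem_antidiagonal.1 hx
  rw [gxPS_coeff P hu hp (show x.1 < n + 1 by omega),
    gxPS_coeff P hu hq (show x.2 < n + 1 by omega)]

/-- the ring homomorphism `O_P → K⟦X⟧` -/
def gxO {u : F} (hu : P.adicValuation u = exp (-1 : ℤ)) :
    P.toValuationSubring →+* PowerSeries K where
  toFun f := gxPS P u (f : F)
  map_one' := by
    have h := gxPS_aeval P hu (1 : K[X])
    rw [map_one, Polynomial.coe_one] at h
    exact h
  map_mul' f g := gxPS_mul P hres hu (P.adicValuation_le_one_of_mem f.2)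
    (P.adicValuation_le_one_of_mem g.2)
  map_zero' := by
    have h := gxPS_aeval P hu (0 : K[X])
    rw [map_zero, Polynomial.coe_zero] at h
    exact h
  map_add' f g := gxPS_add P hres hu (P.adicValuation_le_one_of_mem f.2)
    (P.adicValuation_le_one_of_mem g.2)

theorem gxO_apply {u : F} (hu : P.adicValuation u = exp (-1 : ℤ)) (f : P.toValuationSubring) :
    gxO P hres hu f = gxPS P u (f : F) := rfl

include hres in
/-- the expansion is injective -/
theorem gxPS_eq_zero {u : F} (hu : P.adicValuation u = exp (-1 : ℤ)) {f : F}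
    (hf : P.adicValuation f ≤ 1) (h : gxPS P u f = 0) : f = 0 := by
  by_contra hne
  have hv := P.adicValuation_eq_exp_neg_ord hne
  have hord : 0 ≤ P.ord f := by
    rw [hv, ← exp_zero, exp_le_exp] at hf
    omega
  obtain ⟨N, hN⟩ : ∃ N : ℕ, P.ord f < N := ⟨(P.ord f).toNat + 1, by push_cast; omega⟩
  obtain ⟨p, hp⟩ := gx_exists_poly P hres hu hf N
  have hp0 : ∀ n < N, p.coeff n = 0 := by
    intro n hn
    rw [← gxPS_coeff P hu hp hn, h, map_zero]
  have h1 := gx_val_aeval_le_of_coeff P hu N p hp0
  have h2 : P.adicValuation f ≤ exp (-(N : ℤ)) := by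
    have : f = (f - aeval u p) + aeval u p := by ring
    rw [this]
    exact (Valuation.map_add _ _ _).trans (max_le hp h1)
  rw [hv, exp_le_exp] at h2
  omega

include hres in
theorem gxO_injective {u : F} (hu : P.adicValuation u = exp (-1 : ℤ)) :
    Function.Injective (gxO P hres hu) := by
  rw [injective_iff_map_eq_zero]
  intro f hf
  exact Subtype.ext (gxPS_eq_zero P hres hu (P.adicValuation_le_one_of_mem f.2) hf)

include hres in
/-- the constant coefficient of the expansion of a unit is nonzero -/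
theorem gxPS_coeff_zero_ne_zero {u : F} (hu : P.adicValuation u = exp (-1 : ℤ)) {f : F}
    (hf : P.adicValuation f = 1) : PowerSeries.coeff 0 (gxPS P u f) ≠ 0 := by
  intro h0
  obtain ⟨p, hp⟩ := gx_exists_poly P hres hu hf.le 1
  have hp0 : ∀ n < 1, p.coeff n = 0 := by
    intro n hn
    obtain rfl : n = 0 := by omega
    rw [← gxPS_coeff P hu hp Nat.zero_lt_one, h0]
  have h1 := gx_val_aeval_le_of_coeff P hu 1 p hp0
  have h2 : P.adicValuation f ≤ exp (-((1 : ℕ) : ℤ)) := by
    have : f = (f - aeval u p) + aeval u p := by ring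
    rw [this]
    exact (Valuation.map_add _ _ _).trans (max_le hp h1)
  rw [hf] at h2
  exact absurd h2 (not_le.mpr (by simpa using gx_exp_neg_one_lt_one))

/-! ### the expansion as a ring homomorphism `F → K⸨X⸩` -/

/-- the ring homomorphism `F → K⸨X⸩` -/
def gxIota {u : F} (hu : P.adicValuation u = exp (-1 : ℤ)) : F →+* LaurentSeries K :=
  IsFractionRing.lift (A := P.toValuationSubring) (K := F)
    (g := (HahnSeries.ofPowerSeries ℤ K).comp (gxO P hres hu))
    (HahnSeries.ofPowerSeries_injective.comp (gxO_injective P hres hu))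

theorem gxIota_of_le_one {u : F} (hu : P.adicValuation u = exp (-1 : ℤ)) {f : F}
    (hf : P.adicValuation f ≤ 1) :
    gxIota P hres hu f = HahnSeries.ofPowerSeries ℤ K (gxPS P u f) := by
  have hmem : f ∈ P.toValuationSubring := (PlaceAux.mem_iff_adicValuation_le_one P f).2 hf
  exact IsFractionRing.lift_algebraMap
    (HahnSeries.ofPowerSeries_injective.comp (gxO_injective P hres hu))
    (⟨f, hmem⟩ : P.toValuationSubring)

theorem gxIota_aeval {u : F} (hu : P.adicValuation u = exp (-1 : ℤ)) (p : K[X]) :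
    gxIota P hres hu (aeval u p) = HahnSeries.ofPowerSeries ℤ K (p : PowerSeries K) := by
  rw [gxIota_of_le_one P hres hu (gx_val_aeval_le P (gx_val_unif_le_one P hu) p),
    gxPS_aeval P hu]

/-- constants -/
theorem gxIota_const {u : F} (hu : P.adicValuation u = exp (-1 : ℤ)) (a : K) :
    gxIota P hres hu (algebraMap K F a) = HahnSeries.C a := by
  have h := gxIota_aeval P hres hu (Polynomial.C a)
  rwa [aeval_C, Polynomial.coe_C, HahnSeries.ofPowerSeries_C] at h

/-- the uniformiser -/
theorem gxIota_unif {u : F} (hu : P.adicValuation u = exp (-1 : ℤ)) :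
    gxIota P hres hu u = HahnSeries.single 1 1 := by
  have h := gxIota_aeval P hres hu Polynomial.X
  rwa [aeval_X, Polynomial.coe_X, HahnSeries.ofPowerSeries_X] at h

/-- a power series with nonzero constant coefficient has order `0` as a Laurent series -/
theorem gx_order_ofPowerSeries {s : PowerSeries K} (hs : PowerSeries.coeff 0 s ≠ 0) :
    (HahnSeries.ofPowerSeries ℤ K s).order = 0 := by
  have h0 : (HahnSeries.ofPowerSeries ℤ K s).coeff 0 ≠ 0 := by
    have := HahnSeries.ofPowerSeries_apply_coeff (Γ := ℤ) s 0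
    rw [Nat.cast_zero] at this
    rwa [this]
  apply le_antisymm (HahnSeries.order_le_of_coeff_ne_zero h0)
  by_contra hlt
  push Not at hlt
  have h1 : (HahnSeries.ofPowerSeries ℤ K s).coeff (HahnSeries.ofPowerSeries ℤ K s).order = 0 := by
    have := PowerSeries.coeff_coe (f := s) (HahnSeries.ofPowerSeries ℤ K s).order
    rw [if_pos hlt] at this
    exact this
  rw [HahnSeries.coeff_order_eq_zero] at h1
  rw [h1] at h0
  exact h0 rfl

/-- **the order of the expansion is the order at the place** -/
theorem gxIota_order {u : F} (hu : P.adicValuation u = exp (-1 : ℤ)) {f : F} (hf : f ≠ 0) :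
    (gxIota P hres hu f).order = P.ord f := by
  have hu0 : u ≠ 0 := by
    rintro rfl
    rw [map_zero] at hu
    exact (exp_ne_zero).symm hu
  set m : ℤ := P.ord f with hm
  set w : F := f * u ^ (-m) with hw
  have hfw : f = w * u ^ m := by
    rw [hw, mul_assoc, ← zpow_add₀ hu0, neg_add_cancel, zpow_zero, mul_one]
  have hwv : P.adicValuation w = 1 := by
    rw [hw, map_mul, map_zpow₀, hu, P.adicValuation_eq_exp_neg_ord hf, ← exp_zsmul, ← exp_add,
      ← hm, smul_eq_mul]
    have : -m + -m * -1 = 0 := by ring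
    rw [this, exp_zero]
  have hcoe := gxPS_coeff_zero_ne_zero P hres hu hwv
  have h1 : gxIota P hres hu f
      = HahnSeries.ofPowerSeries ℤ K (gxPS P u w) * HahnSeries.single m (1 : K) := by
    conv_lhs => rw [hfw]
    rw [map_mul, map_zpow₀, gxIota_unif, gxIota_of_le_one P hres hu hwv.le, RatFunc.single_zpow m]
  have hne1 : HahnSeries.ofPowerSeries ℤ K (gxPS P u w) ≠ 0 := by
    intro h
    have := gx_order_ofPowerSeries hcoe
    have h0 : (HahnSeries.ofPowerSeries ℤ K (gxPS P u w)).coeff 0 ≠ 0 := by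
      have h2 := HahnSeries.ofPowerSeries_apply_coeff (Γ := ℤ) (gxPS P u w) 0
      rw [Nat.cast_zero] at h2
      rwa [h2]
    rw [h] at h0
    exact h0 rfl
  have hne2 : HahnSeries.single m (1 : K) ≠ 0 := by
    rw [Ne, HahnSeries.single_eq_zero_iff]
    exact one_ne_zero
  rw [h1, HahnSeries.order_mul hne1 hne2, gx_order_ofPowerSeries hcoe,
    HahnSeries.order_single one_ne_zero, zero_add]

end Fermat.Agent.W1.GX

end
end ZBW1_007_0

/-! ### bundled: `Fermat.Agent.W1.GeoExpand` -/
section ZBW1_007_1

/-!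
# W1 GEO-X: expansions at a rational place exist, are unique and form a ring homomorphism

`stmtExpand : StmtExpand` (see `W1/PlanGeo2.lean`).  The ring homomorphism is
`GX.gxIota` of `W1/GeoExpandCore.lean`; here the truncations `truncAt` are computed and the
conditions `IsExpansion` are derived from `gxIota_order`.
-/

set_option autoImplicit false

noncomputable section

namespace Fermat.Agent.W1.GX

open AlgebraicCurve WithZero Fermat.Agent.W1

variable {K F : Type} [Field K] [Field F] [Algebra K F] (P : Place K F)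
  (hres : Function.Surjective (algebraMap K P.ResidueField))

/-- the truncation of a Laurent series below `n` -/
theorem gx_coeff_sum_single (s : LaurentSeries K) (n j : ℤ) :
    (∑ m ∈ Finset.Ico s.order n, HahnSeries.single m (s.coeff m) : LaurentSeries K).coeff j
      = if j < n then s.coeff j else 0 := by
  rw [HahnSeries.coeff_sum]
  by_cases hmem : j ∈ Finset.Ico s.order n
  · rw [Finset.sum_eq_single_of_mem j hmem
      (fun b _ hb => HahnSeries.coeff_single_of_ne (Ne.symm hb)),
      HahnSeries.coeff_single_same, if_pos (Finset.mem_Ico.1 hmem).2]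
  · rw [Finset.sum_eq_zero fun x hx =>
      HahnSeries.coeff_single_of_ne (by rintro rfl; exact hmem hx)]
    by_cases hj : j < n
    · rw [if_pos hj]
      have hj2 : j < s.order := by
        by_contra h
        exact hmem (Finset.mem_Ico.2 ⟨not_lt.mp h, hj⟩)
      exact (HahnSeries.coeff_eq_zero_of_lt_order hj2).symm
    · rw [if_neg hj]

/-- the expansion of a truncation -/
theorem gxIota_truncAt {u : F} (hu : P.adicValuation u = exp (-1 : ℤ)) (s : LaurentSeries K)
    (n : ℤ) :
    gxIota P hres hu (truncAt u s n)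
      = ∑ m ∈ Finset.Ico s.order n, HahnSeries.single m (s.coeff m) := by
  rw [truncAt, map_sum]
  refine Finset.sum_congr rfl fun m _ => ?_
  rw [map_mul, map_zpow₀, gxIota_const, gxIota_unif, ← RatFunc.single_zpow m,
    HahnSeries.C_apply, HahnSeries.single_mul_single, zero_add, mul_one]

/-- the coefficients of the expansion of `f - truncAt u s n` -/
theorem gxIota_sub_truncAt_coeff {u : F} (hu : P.adicValuation u = exp (-1 : ℤ)) (f : F)
    (s : LaurentSeries K) (n j : ℤ) :
    (gxIota P hres hu (f - truncAt u s n)).coeff j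
      = (gxIota P hres hu f).coeff j - if j < n then s.coeff j else 0 := by
  rw [map_sub, HahnSeries.coeff_sub, gxIota_truncAt, gx_coeff_sum_single]

/-- a nonzero Laurent series whose coefficients below `n` vanish has order `≥ n` -/
theorem gx_le_order {s : LaurentSeries K} (hs : s ≠ 0) (n : ℤ)
    (h : ∀ j < n, s.coeff j = 0) : n ≤ s.order := by
  by_contra hlt
  push Not at hlt
  exact hs (HahnSeries.coeff_order_eq_zero.1 (h _ hlt))

/-- **existence** -/
theorem gx_isExpansion {u : F} (hu : P.adicValuation u = exp (-1 : ℤ)) (f : F) :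
    IsExpansion P u f (gxIota P hres hu f) := by
  intro n
  rcases eq_or_ne (f - truncAt u (gxIota P hres hu f) n) 0 with h | h
  · exact Or.inl (sub_eq_zero.1 h)
  · right
    rw [← gxIota_order P hres hu h]
    refine gx_le_order ((_root_.map_ne_zero _).2 h) n fun j hj => ?_
    rw [gxIota_sub_truncAt_coeff, if_pos hj, sub_self]

/-- **uniqueness** -/
theorem gx_unique {u : F} (hu : P.adicValuation u = exp (-1 : ℤ)) (f : F) (s : LaurentSeries K)
    (hs : IsExpansion P u f s) : s = gxIota P hres hu f := by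
  ext j
  have key : (gxIota P hres hu (f - truncAt u s (j + 1))).coeff j = 0 := by
    rcases eq_or_ne (f - truncAt u s (j + 1)) 0 with h | h
    · rw [h, map_zero]; rfl
    · have h1 : j + 1 ≤ P.ord (f - truncAt u s (j + 1)) := by
        rcases hs (j + 1) with h2 | h2
        · exact absurd (sub_eq_zero.2 h2) h
        · exact h2
      rw [← gxIota_order P hres hu h] at h1
      exact HahnSeries.coeff_eq_zero_of_lt_order (by omega)
  rw [gxIota_sub_truncAt_coeff, if_pos (by omega), sub_eq_zero] at key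
  exact key.symm

end Fermat.Agent.W1.GX

namespace Fermat.Agent.W1

open AlgebraicCurve

/-- **GEO-X**: expansions exist, are unique, and form a ring homomorphism `F → K((T))`. -/
theorem stmtExpand : StmtExpand := by
  intro K F _ _ _ P hres u hu
  have hu' := GX.gx_val_unif P hu
  refine ⟨GX.gxIota P hres.2 hu', GX.gx_isExpansion P hres.2 hu', GX.gx_unique P hres.2 hu',
    GX.gxIota_const P hres.2 hu', GX.gxIota_unif P hres.2 hu', fun f hf => ?_⟩
  exact GX.gxIota_order P hres.2 hu' hf

end Fermat.Agent.W1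

end
end ZBW1_007_1

/-! ### bundled: `Fermat.Agent.W1.GeoTaylor` -/
section ZBW1_007_2

/-!
# W1 GEO-T: Taylor expansion on a disc, integrality

`stmtTaylorInt_of : StmtEval → StmtDisc → StmtExpand → StmtTaylorInt` and
`stmtTaylorInt : StmtTaylorInt`.

For `f ∈ O` without poles in the `i`-th disc of a chart, `f = a₀ + τ f₁` with `a₀ = f(Q i) ∈ A`
and `f₁ ∈ O` again without poles in the disc (`τ = t - c i` is a unit of `O` whose only zero in
the disc is `Q i`, simple: `gt_tau_ord`, `gt_tau_ord_le`).  Iterating (`gt_exists_seq`,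
`gt_decomp`) gives `f = Σ_{j<n} a_j τ^j + τ^n f_n`, from which the three conclusions follow:
coefficients of the expansion (`gt_coeff_of_decomp`), their reduction, values on the disc
(`gt_hv_*`).
-/

set_option autoImplicit false

noncomputable section

namespace Fermat.Agent.W1.GT

open AlgebraicCurve Module Fermat.Agent.S24 Fermat.Agent.W1

/-! ### calculus of values -/

section Values

variable {K F : Type} [Field K] [Field F] [Algebra K F]

theorem gt_nonunits_add {B : ValuationSubring F} {x y : F} (hx : x ∈ B.nonunits)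
    (hy : y ∈ B.nonunits) : x + y ∈ B.nonunits := by
  rw [ValuationSubring.mem_nonunits_iff_exists_mem_maximalIdeal] at hx hy ⊢
  obtain ⟨hx1, hx2⟩ := hx
  obtain ⟨hy1, hy2⟩ := hy
  exact ⟨add_mem hx1 hy1, (IsLocalRing.maximalIdeal B).add_mem hx2 hy2⟩

theorem gt_hv_const (P : Place K F) (a : K) : HasValueAt P (algebraMap K F a) a :=
  hasValueAt_of_eq P (sub_self _)

theorem gt_hv_add (P : Place K F) {f h : F} {a b : K} (hf : HasValueAt P f a)
    (hh : HasValueAt P h b) : HasValueAt P (f + h) (a + b) := by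
  unfold HasValueAt at *
  have : f + h - algebraMap K F (a + b) = (f - algebraMap K F a) + (h - algebraMap K F b) := by
    rw [map_add]; ring
  rw [this]
  exact gt_nonunits_add hf hh

theorem gt_hv_mul (P : Place K F) {f h : F} {a b : K} (hf : HasValueAt P f a)
    (hh : HasValueAt P h b) : HasValueAt P (f * h) (a * b) := by
  have hfm := hf.mem P
  unfold HasValueAt at *
  have : f * h - algebraMap K F (a * b)
      = f * (h - algebraMap K F b) + algebraMap K F b * (f - algebraMap K F a) := by
    rw [map_mul]; ring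
  rw [this]
  exact gt_nonunits_add (ge_nonunits_mul_mem hfm hh)
    (ge_nonunits_mul_mem (P.algebraMap_mem' b) hf)

theorem gt_hv_pow (P : Place K F) {f : F} {a : K} (hf : HasValueAt P f a) (n : ℕ) :
    HasValueAt P (f ^ n) (a ^ n) := by
  induction n with
  | zero =>
    have := gt_hv_const P (1 : K)
    rw [map_one] at this
    rw [pow_zero, pow_zero]
    exact this
  | succ n ih =>
    rw [pow_succ, pow_succ]
    exact gt_hv_mul P ih hf

theorem gt_hv_sum (P : Place K F) {ι : Type} (s : Finset ι) (f : ι → F) (a : ι → K)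
    (h : ∀ i ∈ s, HasValueAt P (f i) (a i)) :
    HasValueAt P (∑ i ∈ s, f i) (∑ i ∈ s, a i) := by
  classical
  induction s using Finset.induction_on with
  | empty =>
    have := gt_hv_const P (0 : K)
    rwa [map_zero] at this
  | insert i s hi ih =>
    rw [Finset.sum_insert hi, Finset.sum_insert hi]
    exact gt_hv_add P (h i (Finset.mem_insert_self i s))
      (ih fun j hj => h j (Finset.mem_insert_of_mem hj))

end Values

/-! ### coefficients of an expansion from a finite Taylor formula -/

section Expand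

variable {K F : Type} [Field K] [Field F] [Algebra K F]

theorem gt_coeff_of_decomp (P : Place K F) (u : F) (ι : F →+* LaurentSeries K)
    (hconst : ∀ a : K, ι (algebraMap K F a) = HahnSeries.C a)
    (hunif : ι u = HahnSeries.single 1 1)
    (hord : ∀ f, f ≠ 0 → (ι f).order = P.ord f)
    (n : ℕ) (b : ℕ → K) (h f : F) (hh : 0 ≤ P.ord h)
    (hf : f = ∑ j ∈ Finset.range n, algebraMap K F (b j) * u ^ j + u ^ n * h)
    (m : ℤ) (hm : m < n) :
    (ι f).coeff m = if 0 ≤ m then b m.toNat else 0 := by
  have h1 : ι f = ∑ j ∈ Finset.range n, HahnSeries.single (j : ℤ) (b j)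
      + HahnSeries.single (n : ℤ) 1 * ι h := by
    rw [hf, map_add, map_sum, map_mul, map_pow, hunif]
    congr 1
    · refine Finset.sum_congr rfl fun j _ => ?_
      rw [map_mul, map_pow, hconst, hunif, HahnSeries.single_pow, one_pow, HahnSeries.C_apply,
        HahnSeries.single_mul_single, zero_add, mul_one, nsmul_eq_mul, mul_one]
    · rw [HahnSeries.single_pow, one_pow, nsmul_eq_mul, mul_one]
  rw [h1, HahnSeries.coeff_add, HahnSeries.coeff_sum, HahnSeries.coeff_single_mul, one_mul]
  have h2 : (ι h).coeff (m - n) = 0 := by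
    rcases eq_or_ne h 0 with rfl | hne
    · rw [map_zero]; rfl
    · apply HahnSeries.coeff_eq_zero_of_lt_order
      rw [hord h hne]; omega
  rw [h2, add_zero]
  split_ifs with hm0
  · obtain ⟨m', rfl⟩ := Int.eq_ofNat_of_zero_le hm0
    have hm' : m' < n := by exact_mod_cast hm
    rw [Finset.sum_eq_single_of_mem m' (Finset.mem_range.2 hm')
      (fun j _ hj => HahnSeries.coeff_single_of_ne (by exact_mod_cast (Ne.symm hj))),
      HahnSeries.coeff_single_same, Int.toNat_natCast]
  · exact Finset.sum_eq_zero fun j _ => HahnSeries.coeff_single_of_ne (by omega)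

end Expand

/-! ### the local parameter of a chart -/

section Chart

variable {K F k Fk : Type} [Field K] [Field F] [Algebra K F] [Field k] [Field Fk] [Algebra k Fk]
variable {A : ValuationSubring K} {R : PRData K F k Fk A} {g : ℕ}

/-- `f` has no pole in the `i`-th disc -/
def NoPole (C : R.Chart g) (i : Fin g) (f : F) : Prop :=
  ∀ P : Place K F, P.ord f < 0 → R.r P ≠ R.r (C.Q i)

theorem NoPole.ord_nonneg {C : R.Chart g} {i : Fin g} {f : F} (hf : NoPole C i f)
    {P : Place K F} (hP : R.r P = R.r (C.Q i)) : 0 ≤ P.ord f := by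
  by_contra h
  exact hf P (not_le.mp h) hP

variable (hR : R.IsPR) (C : R.Chart g) (hC : C.IsChart) (i : Fin g)

include hR hC in
theorem gt_tau_mem : C.tau i ∈ R.O :=
  sub_mem hC.good.1 (hR.algebraMap_mem (C.c i))

/-- `τ` as an element of `O` -/
def tauO : R.O := ⟨C.tau i, gt_tau_mem hR C hC i⟩

/-- a constant of `A` as an element of `O` -/
def constO (a : A) : R.O := ⟨algebraMap K F (a : K), hR.algebraMap_mem a⟩

theorem gt_red_tauO :
    R.red (tauO hR C hC i) = R.red ⟨C.t, hC.good.1⟩ - algebraMap k Fk (R.res (C.c i)) := by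
  have h : tauO hR C hC i = ⟨C.t, hC.good.1⟩ - constO hR (C.c i) := rfl
  rw [h, map_sub, constO, hR.red_const]

theorem gt_red_tauO_ord : (R.r (C.Q i)).ord (R.red (tauO hR C hC i)) = 1 := by
  rw [gt_red_tauO]
  exact hC.simple hC.good.1 i

theorem gt_red_tauO_ne_zero : R.red (tauO hR C hC i) ≠ 0 := by
  intro h
  have := gt_red_tauO_ord hR C hC i
  rw [h, Place.ord_zero] at this
  exact zero_ne_one this

include hR hC in
theorem gt_tau_ne_zero : C.tau i ≠ 0 :=
  ge_coe_ne_zero (gt_red_tauO_ne_zero hR C hC i)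

include hR hC in
theorem gt_tau_inv_mem : (C.tau i)⁻¹ ∈ R.O := by
  have h1 : ¬ (C.tau i) ∈ R.O.nonunits := by
    intro h
    exact gt_red_tauO_ne_zero hR C hC i ((hR.red_eq_zero_iff (tauO hR C hC i)).2 h)
  rw [ValuationSubring.mem_nonunits_iff_or, not_or, not_not] at h1
  exact h1.2

include hR hC in
theorem gt_tau_noPole : NoPole C i (C.tau i) := by
  intro P hP hrP
  -- `t` has a pole at `P`
  have ht : P.ord C.t < 0 := by
    by_contra hnn
    have h1 : C.t ∈ P.toValuationSubring := ge_mem_of_not_ord_neg P hnn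
    have h2 : C.tau i ∈ P.toValuationSubring := sub_mem h1 (P.algebraMap_mem' _)
    exact absurd (ge_ord_nonneg_of_mem P h2) (not_le.mpr hP)
  obtain ⟨ht', hpoles⟩ := hC.good
  have h3 := hpoles P ht
  rw [hrP] at h3
  -- but `t̄` is regular at `Q̄ i`
  have h4 : 0 < (R.r (C.Q i)).ord (R.red (tauO hR C hC i)) := by
    rw [gt_red_tauO_ord]; exact one_pos
  rw [PlaceAux.ord_pos_iff_mem_nonunits _ (gt_red_tauO_ne_zero hR C hC i), gt_red_tauO] at h4
  have h5 : HasValueAt (R.r (C.Q i)) (R.red ⟨C.t, hC.good.1⟩) (R.res (C.c i)) := h4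
  exact absurd (ge_ord_nonneg_of_mem _ (h5.mem _)) (not_le.mpr h3)

variable (hK : IsNiceCurve K F g)

include hR hC in
theorem gt_tau_ord_pos : 0 < (C.Q i).ord (C.tau i) := by
  rw [PlaceAux.ord_pos_iff_mem_nonunits _ (gt_tau_ne_zero hR C hC i)]
  exact hC.value i

include hR hC hK in
/-- `τ` has a simple zero at the centre -/
theorem gt_tau_ord : (C.Q i).ord (C.tau i) = 1 := by
  have h1 := gt_tau_ord_pos hR C hC i
  have h2 := ge_sum_ord_le hR hK.hpd (gt_red_tauO_ne_zero hR C hC i) (R.r (C.Q i))
    (gt_tau_noPole hR C hC i) {C.Q i} (by simp)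
  rw [Finset.sum_singleton, gt_red_tauO_ord] at h2
  have h3 : ((tauO hR C hC i : R.O) : F) = C.tau i := rfl
  rw [h3] at h2
  omega

include hR hC hK in
/-- `τ` has no other zero in the disc -/
theorem gt_tau_ord_le {P : Place K F} (hP : R.r P = R.r (C.Q i)) (hne : P ≠ C.Q i) :
    P.ord (C.tau i) ≤ 0 := by
  classical
  have h1 := gt_tau_ord_pos hR C hC i
  have h2 := ge_sum_ord_le hR hK.hpd (gt_red_tauO_ne_zero hR C hC i) (R.r (C.Q i))
    (gt_tau_noPole hR C hC i) {P, C.Q i} (by
      intro x hx
      rcases Finset.mem_insert.mp hx with rfl | hx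
      · exact hP
      · rw [Finset.mem_singleton.mp hx])
  rw [Finset.sum_pair hne, gt_red_tauO_ord] at h2
  have h3 : ((tauO hR C hC i : R.O) : F) = C.tau i := rfl
  rw [h3] at h2
  omega

/-! ### the step `f = f(Q) + τ f₁` -/

include hK in
theorem gt_step (hEval : StmtEval) (hk : IsNiceCurve k Fk g) (f : R.O)
    (hf : NoPole C i (f : F)) :
    ∃ (a : A) (f₁ : R.O), NoPole C i (f₁ : F) ∧
      f = constO hR a + tauO hR C hC i * f₁ := by
  obtain ⟨a, ha, -⟩ := hEval K F k Fk A R g hR hK hk f (C.Q i) hf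
  have hτ0 := gt_tau_ne_zero hR C hC i
  set τinv : R.O := ⟨(C.tau i)⁻¹, gt_tau_inv_mem hR C hC i⟩ with hτinv
  refine ⟨a, (f - constO hR a) * τinv, ?_, ?_⟩
  · intro P hP hrP
    have hcoe : (((f - constO hR a) * τinv : R.O) : F)
        = ((f : F) - algebraMap K F (a : K)) * (C.tau i)⁻¹ := rfl
    rw [hcoe] at hP
    rcases eq_or_ne ((f : F) - algebraMap K F (a : K)) 0 with h0 | h0
    · rw [h0, zero_mul, Place.ord_zero] at hP
      exact lt_irrefl _ hP
    · rw [P.ord_mul h0 (inv_ne_zero hτ0), P.ord_inv] at hP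
      by_cases hPQ : P = C.Q i
      · subst hPQ
        have h1 : 0 < (C.Q i).ord ((f : F) - algebraMap K F (a : K)) :=
          (hasValueAt_iff_ord_pos _ h0).1 ha
        have h2 := gt_tau_ord hR C hC i hK
        omega
      · have h1 : 0 ≤ P.ord ((f : F) - algebraMap K F (a : K)) := by
          apply ge_ord_nonneg_of_mem
          exact sub_mem (PlaceAux.mem_of_ord_nonneg P (hf.ord_nonneg hrP)) (P.algebraMap_mem' _)
        have h2 := gt_tau_ord_le hR C hC i hK hrP hPQ
        omega
  · apply Subtype.ext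
    show (f : F) = algebraMap K F (a : K)
      + C.tau i * (((f : F) - algebraMap K F (a : K)) * (C.tau i)⁻¹)
    field_simp
    ring

include hK in
/-- the iteration -/
theorem gt_exists_seq (hEval : StmtEval) (hk : IsNiceCurve k Fk g) (f : R.O)
    (hf : NoPole C i (f : F)) :
    ∃ (a : ℕ → A) (G : ℕ → R.O), G 0 = f ∧ ∀ n, NoPole C i (G n : F) ∧
      G n = constO hR (a n) + tauO hR C hC i * G (n + 1) := by
  choose stepA stepF hstep using
    fun x : {x : R.O // NoPole C i (x : F)} => gt_step hR C hC i hK hEval hk x.1 x.2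
  let next : {x : R.O // NoPole C i (x : F)} → {x : R.O // NoPole C i (x : F)} :=
    fun x => ⟨stepF x, (hstep x).1⟩
  refine ⟨fun n => stepA (next^[n] ⟨f, hf⟩), fun n => (next^[n] ⟨f, hf⟩).1, rfl, fun n => ?_⟩
  refine ⟨(next^[n] ⟨f, hf⟩).2, ?_⟩
  show (next^[n] ⟨f, hf⟩).1 = constO hR (stepA (next^[n] ⟨f, hf⟩))
    + tauO hR C hC i * (next^[n + 1] ⟨f, hf⟩).1
  rw [Function.iterate_succ_apply']
  exact (hstep _).2

/-- the finite Taylor formula in `O` -/
theorem gt_decomp (a : ℕ → A) (G : ℕ → R.O)
    (hG : ∀ n, G n = constO hR (a n) + tauO hR C hC i * G (n + 1)) (n : ℕ) :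
    G 0 = ∑ j ∈ Finset.range n, constO hR (a j) * tauO hR C hC i ^ j
      + tauO hR C hC i ^ n * G n := by
  induction n with
  | zero => simp
  | succ n ih =>
    rw [Finset.sum_range_succ, ih]
    conv_lhs => rw [hG n]
    ring

end Chart

end Fermat.Agent.W1.GT

namespace Fermat.Agent.W1

open AlgebraicCurve Module Fermat.Agent.S24

/-- **GEO-T** (Taylor, integrality) from evaluation and expansions. -/
theorem stmtTaylorInt_of (hEval : StmtEval) (_hDisc : StmtDisc) (hExp : StmtExpand) :
    StmtTaylorInt := by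
  intro K F k Fk _ _ _ _ _ _ A R g hR hK hk C hC i f hf s hs
  have hfN : GT.NoPole C i (f : F) := hf
  obtain ⟨ι, -, huniq, hconst, hunif, hord⟩ :=
    hExp K F (C.Q i) (hK.hres _) (C.tau i) (GT.gt_tau_ord hR C hC i hK)
  have hsι : s = ι (f : F) := huniq _ _ hs
  obtain ⟨a, G, hG0, hG⟩ := GT.gt_exists_seq hR C hC i hK hEval hk f hfN
  have hdec := fun n => GT.gt_decomp hR C hC i a G (fun n => (hG n).2) n
  -- the Taylor formula in `F`
  have hdecF : ∀ n : ℕ, (f : F) = ∑ j ∈ Finset.range n, algebraMap K F (a j : K) * C.tau i ^ j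
      + C.tau i ^ n * (G n : F) := by
    intro n
    have h := congrArg R.O.subtype (hdec n)
    rw [hG0] at h
    rw [map_add, map_sum, map_mul, map_pow] at h
    simp only [map_mul, map_pow] at h
    exact h
  have hGord : ∀ n, 0 ≤ (C.Q i).ord (G n : F) := fun n => (hG n).1.ord_nonneg rfl
  have hcoef : ∀ (n : ℕ) (m : ℤ), m < n →
      s.coeff m = if 0 ≤ m then ((a m.toNat : A) : K) else 0 := by
    intro n m hm
    rw [hsι]
    exact GT.gt_coeff_of_decomp (C.Q i) (C.tau i) ι hconst hunif hord n (fun j => (a j : K))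
      (G n : F) (f : F) (hGord n) (hdecF n) m hm
  refine ⟨fun m hm => ?_, a, fun m => ?_, fun ht sk hsk m => ?_, fun P z hPz n => ?_⟩
  · have h := hcoef 0 m (by simpa using hm)
    rw [if_neg (not_le.mpr hm)] at h
    exact h
  · have h := hcoef (m + 1) m (by push_cast; omega)
    rw [if_pos (by omega), Int.toNat_natCast] at h
    exact h
  · -- the reduction of the coefficients
    obtain ⟨ιk, -, huniqk, hconstk, hunifk, hordk⟩ :=
      hExp k Fk (R.r (C.Q i)) (hk.hres _)
        (R.red ⟨C.t, ht⟩ - algebraMap k Fk (R.res (C.c i))) (hC.simple ht i)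
    have hskι : sk = ιk (R.red f) := huniqk _ _ hsk
    have hdeck : R.red f = ∑ j ∈ Finset.range (m + 1),
        algebraMap k Fk (R.res (a j)) *
          (R.red ⟨C.t, ht⟩ - algebraMap k Fk (R.res (C.c i))) ^ j
        + (R.red ⟨C.t, ht⟩ - algebraMap k Fk (R.res (C.c i))) ^ (m + 1) * R.red (G (m + 1)) := by
      have h := congrArg R.red (hdec (m + 1))
      rw [hG0, map_add, map_sum, map_mul, map_pow, GT.gt_red_tauO] at h
      rw [h]
      congr 1
      refine Finset.sum_congr rfl fun j _ => ?_
      rw [map_mul, map_pow, GT.gt_red_tauO, GT.constO, hR.red_const]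
    have hordk' : 0 ≤ (R.r (C.Q i)).ord (R.red (G (m + 1))) := by
      obtain ⟨a', -, ha'⟩ := hEval K F k Fk A R g hR hK hk (G (m + 1)) (C.Q i) (hG (m + 1)).1
      exact ge_ord_nonneg_of_mem _ (ha'.mem _)
    have h := GT.gt_coeff_of_decomp (R.r (C.Q i)) _ ιk hconstk hunifk hordk (m + 1)
      (fun j => R.res (a j)) (R.red (G (m + 1))) (R.red f) hordk' hdeck m (by push_cast; omega)
    rw [if_pos (by omega), Int.toNat_natCast] at h
    rw [hskι]
    exact h
  · -- the values on the disc
    obtain ⟨hrP, -, hval⟩ := hPz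
    obtain ⟨y, hy, -⟩ := hEval K F k Fk A R g hR hK hk (G n) P
      (fun P' hP' => by rw [hrP]; exact (hG n).1 P' hP')
    have hτ : HasValueAt P (C.tau i) z := by
      unfold HasValueAt PRData.Chart.tau
      unfold HasValueAt at hval
      have h1 : C.t - algebraMap K F (C.c i : K) - algebraMap K F z
          = C.t - algebraMap K F ((C.c i : K) + z) := by
        rw [map_add]; ring
      rw [h1]
      exact hval
    refine ⟨y, ?_⟩
    rw [hdecF n]
    refine GT.gt_hv_add P ?_ (GT.gt_hv_mul P (GT.gt_hv_pow P hτ n) hy)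
    exact GT.gt_hv_sum P _ _ _ fun j _ =>
      GT.gt_hv_mul P (GT.gt_hv_const P _) (GT.gt_hv_pow P hτ j)

/-- **GEO-T**, unconditional. -/
theorem stmtTaylorInt : StmtTaylorInt :=
  stmtTaylorInt_of stmtEval stmtDisc stmtExpand

end Fermat.Agent.W1

end
end ZBW1_007_2

/-! ### bundled: `Fermat.Agent.W1.GeoSharp` -/
section ZBW1_007_3

/-!
# W1 GA-S: moving the poles to the zeros of the local parameters, modulo `ϖ ^ n`

`stmtSharp : StmtSharp` (see `W1/PlanApprox.lean`).  For `f ∈ O` with poles only in the discs at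
points `P` with coordinates `z_P ∈ ϖ A`, put

  `f♯ := f · ∏_P (1 - (z_P / τ_{i_P}) ^ n) ^ {m_P}`,  `m_P = - ord_P f`.

* every factor is `≡ 1` modulo `ϖ ^ n O` (`τ i` is a unit of `O`), so `f♯ ≡ f`;
* at a place which is not a zero of any `τ i` all factors are regular, and the factor of a pole
  `P` of `f` vanishes at `P` (`(z_P / τ)(P) = 1`), so `f♯` is regular there.
-/

set_option autoImplicit false

noncomputable section

namespace Fermat.Agent.W1.GS

open AlgebraicCurve Module Fermat.Agent.S24 Fermat.Agent.W1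

variable {K F k Fk : Type} [Field K] [Field F] [Algebra K F] [Field k] [Field Fk] [Algebra k Fk]
variable {A : ValuationSubring K} {R : PRData K F k Fk A} {g : ℕ}

/-- the elements `≡ 1` modulo `c O` -/
def oneMod (R : PRData K F k Fk A) (c : F) (hc : c ∈ R.O) : Submonoid F where
  carrier := {x | ∃ h : F, h ∈ R.O ∧ x = 1 - c * h}
  one_mem' := ⟨0, zero_mem _, by rw [mul_zero, sub_zero]⟩
  mul_mem' := by
    rintro x y ⟨a, ha, rfl⟩ ⟨b, hb, rfl⟩
    exact ⟨a + b - c * (a * b), sub_mem (add_mem ha hb) (mul_mem hc (mul_mem ha hb)), by ring⟩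

theorem mem_oneMod {c : F} {hc : c ∈ R.O} {x : F} :
    x ∈ oneMod R c hc ↔ ∃ h : F, h ∈ R.O ∧ x = 1 - c * h := Iff.rfl

theorem oneMod_mem_O {c : F} {hc : c ∈ R.O} {x : F} (hx : x ∈ oneMod R c hc) : x ∈ R.O := by
  obtain ⟨h, hh, rfl⟩ := hx
  exact sub_mem (one_mem _) (mul_mem hc hh)

variable (hR : R.IsPR) (C : R.Chart g) (hC : C.IsChart)

/-- the value of `τ i` at a point of the `i`-th disc -/
theorem gs_tau_value {i : Fin g} {P : Place K F} {z : K} (h : C.InDisc i P z) :
    HasValueAt P (C.tau i) z := by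
  obtain ⟨-, -, hval⟩ := h
  unfold HasValueAt PRData.Chart.tau
  unfold HasValueAt at hval
  have h1 : C.t - algebraMap K F (C.c i : K) - algebraMap K F z
      = C.t - algebraMap K F ((C.c i : K) + z) := by
    rw [map_add]; ring
  rw [h1]
  exact hval

/-- the inverse of `τ i` is regular away from the zeros of `τ i` -/
theorem gs_tau_inv_mem {i : Fin g} {P : Place K F} (h : ¬ HasValueAt P C.t (C.c i : K)) :
    (C.tau i)⁻¹ ∈ P.toValuationSubring := by
  have h1 : ¬ (C.tau i) ∈ P.toValuationSubring.nonunits := h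
  rw [ValuationSubring.mem_nonunits_iff_or, not_or, not_not] at h1
  exact h1.2

/-- the factor of a point `P` of a disc -/
def factor (i : Fin g) (z : K) (n : ℕ) : F := 1 - (algebraMap K F z * (C.tau i)⁻¹) ^ n

include hR hC in
theorem factor_mem_oneMod {ϖ : K} (n : ℕ)
    (hc : algebraMap K F (ϖ ^ n) ∈ R.O) (i : Fin g) {z a : K} (ha : a ∈ A) (hz : z = ϖ * a) :
    factor C i z n ∈ oneMod R (algebraMap K F (ϖ ^ n)) hc := by
  refine ⟨(algebraMap K F a * (C.tau i)⁻¹) ^ n, ?_, ?_⟩
  · exact pow_mem (mul_mem (hR.algebraMap_mem ⟨a, ha⟩) (GT.gt_tau_inv_mem hR C hC i)) n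
  · rw [factor, hz, map_mul, map_pow]
    ring

/-- the factor is regular away from the zeros of the `τ i` -/
theorem factor_mem_place (i : Fin g) (z : K) (n : ℕ) {P : Place K F}
    (h : ¬ HasValueAt P C.t (C.c i : K)) : factor C i z n ∈ P.toValuationSubring :=
  sub_mem (one_mem _) (pow_mem (mul_mem (P.algebraMap_mem' z) (gs_tau_inv_mem C h)) n)

/-- the factor of `P` vanishes at `P` -/
theorem factor_mem_nonunits {i : Fin g} {z : K} (n : ℕ) {P : Place K F} (h : C.InDisc i P z)
    (hno : ¬ HasValueAt P C.t (C.c i : K)) : factor C i z n ∈ P.toValuationSubring.nonunits := by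
  have hτ := gs_tau_value C h
  have hτinv := gs_tau_inv_mem C hno
  -- `z / τ` has value `1`
  have h1 : HasValueAt P (algebraMap K F z * (C.tau i)⁻¹) 1 := by
    have hτ0 : C.tau i ≠ 0 := by
      intro h0
      apply hno
      have : C.tau i ∈ P.toValuationSubring.nonunits := by
        rw [h0]; exact ge_zero_mem_nonunits _
      exact this
    unfold HasValueAt at hτ ⊢
    have h2 : algebraMap K F z * (C.tau i)⁻¹ - algebraMap K F 1
        = -((C.tau i)⁻¹ * (C.tau i - algebraMap K F z)) := by
      rw [map_one]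
      field_simp
      ring
    rw [h2]
    have h3 := ge_nonunits_mul_mem hτinv hτ
    have h4 := ge_nonunits_sub (ge_zero_mem_nonunits P.toValuationSubring) h3
    rwa [zero_sub] at h4
  have h5 := GT.gt_hv_pow P h1 n
  rw [one_pow] at h5
  unfold HasValueAt at h5
  rw [map_one] at h5
  have h6 := ge_nonunits_sub (ge_zero_mem_nonunits P.toValuationSubring) h5
  rw [zero_sub, neg_sub] at h6
  exact h6

end Fermat.Agent.W1.GS

namespace Fermat.Agent.W1

open AlgebraicCurve Module Fermat.Agent.S24

/-- **GA-S**: moving the poles to the zeros of the `τ i`, modulo `ϖ ^ n`. -/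
theorem stmtSharp : StmtSharp := by
  classical
  intro K F k Fk _ _ _ _ _ _ A R g hR hK hk C hC ϖ hϖ hϖ0 f hf hpoles n
  rcases eq_or_ne f 0 with rfl | hf0
  · refine ⟨0, zero_mem _, fun P hP => ?_, 0, zero_mem _, by rw [sub_self, mul_zero]⟩
    rw [Place.ord_zero] at hP
    exact absurd hP (lt_irrefl _)
  have hϖA : ϖ ∈ A := ge_nonunits_mem hϖ
  have hc : algebraMap K F (ϖ ^ n) ∈ R.O := hR.algebraMap_mem ⟨ϖ ^ n, pow_mem hϖA n⟩
  obtain ⟨D, hD, -⟩ := hK.hpd.exists_divisor f hf0
  -- the factors
  have key : ∀ P : Place K F, ∃ γ : F,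
      (P.ord f < 0 → ∃ (i : Fin g) (z a : K), C.InDisc i P z ∧ a ∈ A ∧ z = ϖ * a ∧
        γ = GS.factor C i z n) ∧ (¬ P.ord f < 0 → γ = 1) := by
    intro P
    by_cases h : P.ord f < 0
    · obtain ⟨i, z, hin, a, ha, hz⟩ := hpoles P h
      exact ⟨GS.factor C i z n, fun _ => ⟨i, z, a, hin, ha, hz, rfl⟩, fun h' => absurd h h'⟩
    · exact ⟨1, fun h' => absurd h' h, fun _ => rfl⟩
  choose γ hγ1 hγ2 using key
  -- each factor is `≡ 1`
  have hγmod : ∀ P, γ P ∈ GS.oneMod R (algebraMap K F (ϖ ^ n)) hc := by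
    intro P
    by_cases h : P.ord f < 0
    · obtain ⟨i, z, a, -, ha, hz, hγ⟩ := hγ1 P h
      rw [hγ]
      exact GS.factor_mem_oneMod hR C hC n hc i ha hz
    · rw [hγ2 P h]
      exact one_mem _
  set Pr : F := ∏ P ∈ D.support, γ P ^ (-(P.ord f)).toNat with hPr
  have hPrmod : Pr ∈ GS.oneMod R (algebraMap K F (ϖ ^ n)) hc :=
    prod_mem fun P _ => pow_mem (hγmod P) _
  refine ⟨f * Pr, mul_mem hf (GS.oneMod_mem_O hPrmod), fun P' hP' => ?_, ?_⟩
  · -- poles of `f♯`
    by_contra hno
    push Not at hno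
    -- all factors are regular at `P'`
    have hreg : ∀ P, γ P ∈ P'.toValuationSubring := by
      intro P
      by_cases h : P.ord f < 0
      · obtain ⟨i, z, a, -, -, -, hγ⟩ := hγ1 P h
        rw [hγ]
        exact GS.factor_mem_place C i z n (hno i)
      · rw [hγ2 P h]
        exact one_mem _
    have hmem : f * Pr ∈ P'.toValuationSubring := by
      by_cases h : P'.ord f < 0
      · have hsupp : P' ∈ D.support := by
          rw [Finsupp.mem_support_iff, hD P']
          omega
        rw [hPr, ← Finset.mul_prod_erase _ _ hsupp, ← mul_assoc]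
        refine mul_mem ?_ (prod_mem fun P _ => pow_mem (hreg P) _)
        -- the pole of `f` at `P'` is killed
        obtain ⟨i, z, a, hin, -, -, hγ⟩ := hγ1 P' h
        have hvan : γ P' ∈ P'.toValuationSubring.nonunits := by
          rw [hγ]
          exact GS.factor_mem_nonunits C n hin (hno i)
        rcases eq_or_ne (γ P') 0 with h0 | h0
        · have hm : (-(P'.ord f)).toNat ≠ 0 := by omega
          rw [h0, zero_pow hm, mul_zero]
          exact zero_mem _
        · have hord : 0 < P'.ord (γ P') := (PlaceAux.ord_pos_iff_mem_nonunits P' h0).2 hvan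
          apply PlaceAux.mem_of_ord_nonneg
          rw [P'.ord_mul hf0 (pow_ne_zero _ h0)]
          have hpow : P'.ord (γ P' ^ (-(P'.ord f)).toNat)
              = ((-(P'.ord f)).toNat : ℤ) * P'.ord (γ P') := by
            have := P'.ord_zpow (γ P') ((-(P'.ord f)).toNat : ℤ)
            rwa [zpow_natCast] at this
          rw [hpow]
          have hm : ((-(P'.ord f)).toNat : ℤ) = -(P'.ord f) := Int.toNat_of_nonneg (by omega)
          rw [hm]
          nlinarith
      · exact mul_mem (ge_mem_of_not_ord_neg P' h)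
          (prod_mem fun P _ => pow_mem (hreg P) _)
    exact absurd (ge_ord_nonneg_of_mem P' hmem) (not_le.mpr hP')
  · -- `f - f♯ ∈ ϖ ^ n O`
    obtain ⟨h, hh, hPreq⟩ := hPrmod
    refine ⟨f * h, mul_mem hf hh, ?_⟩
    rw [hPreq]
    ring

end Fermat.Agent.W1

end
end ZBW1_007_3
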