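/- GENERATED FILE (helper35, build-time optimisation, NOTES/ZB.md): verbatim concatenation of the modules
   Fermat.Agent.W1.RHFAbstract
   Fermat.Agent.W1.RHFLaurent
   Fermat.Agent.W1.RHFRoot
   Fermat.Agent.W1.RHFBaseChange
   Fermat.Agent.W1.RHFAdd
   Fermat.Agent.W1.GeoCmpAlg
   Fermat.Agent.W1.GeoCmpExp
   Fermat.Agent.W1.GeoCmpLevel
   Fermat.Agent.W1.GeoCmp
   Do not edit; do not import together with these modules. -/
import Mathlib
import Fermat.Agent.ZB.W1_008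

/-! ### bundled: `Fermat.Agent.W1.RHFAbstract` -/
section ZBW1_009_0

/-!
# W1-RHF, abstract core (helper94)

"A linear map which is congruent to a linear equivalence modulo a nilpotent ideal is bijective",
and its consequence: the abstract Riemann–Hilbert factorisation.

Everything is stated for the `𝔞`-adic filtration `𝔞 ^ k • ⊤` of a module.
-/

namespace Fermat.Agent.W1.RHF

open Submodule

variable {A : Type*} [CommRing A] {M L : Type*} [AddCommGroup M] [Module A M]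
  [AddCommGroup L] [Module A L]

/-- A linear map sends `𝔟 • ⊤` into `𝔟 • ⊤`. -/
theorem map_mem_smul_top (𝔟 : Ideal A) (f : M →ₗ[A] L) {m : M}
    (hm : m ∈ 𝔟 • (⊤ : Submodule A M)) : f m ∈ 𝔟 • (⊤ : Submodule A L) := by
  have h1 : f m ∈ Submodule.map f (𝔟 • (⊤ : Submodule A M)) := Submodule.mem_map_of_mem hm
  rw [Submodule.map_smul''] at h1
  exact Submodule.smul_mono le_rfl le_top h1

/-- A linear map with image in `𝔞 • ⊤` sends `𝔟 • ⊤` into `(𝔟 * 𝔞) • ⊤`. -/
theorem map_mem_mul_smul_top (𝔞 𝔟 : Ideal A) (f : M →ₗ[A] L)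
    (hf : ∀ m, f m ∈ 𝔞 • (⊤ : Submodule A L)) {m : M}
    (hm : m ∈ 𝔟 • (⊤ : Submodule A M)) : f m ∈ (𝔟 * 𝔞) • (⊤ : Submodule A L) := by
  have h1 : f m ∈ Submodule.map f (𝔟 • (⊤ : Submodule A M)) := Submodule.mem_map_of_mem hm
  rw [Submodule.map_smul''] at h1
  have h2 : Submodule.map f (⊤ : Submodule A M) ≤ 𝔞 • (⊤ : Submodule A L) := by
    rintro _ ⟨x, -, rfl⟩
    exact hf x
  have h3 := Submodule.smul_mono (le_refl 𝔟) h2 h1
  rwa [← Submodule.mul_smul] at h3

/-- An endomorphism with image in `𝔞 • ⊤` has `k`-th power with image in `𝔞 ^ k • ⊤`. -/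
theorem pow_apply_mem_pow_smul_top (𝔞 : Ideal A) (N : Module.End A M)
    (hN : ∀ m, N m ∈ 𝔞 • (⊤ : Submodule A M)) (k : ℕ) (m : M) :
    (N ^ k) m ∈ 𝔞 ^ k • (⊤ : Submodule A M) := by
  induction k generalizing m with
  | zero => simp
  | succ k ih =>
    have h1 : (N ^ (k + 1)) m = N ((N ^ k) m) := by
      rw [pow_succ', Module.End.mul_apply]
    rw [h1, pow_succ]
    exact map_mem_mul_smul_top 𝔞 (𝔞 ^ k) N hN (ih m)

/-- An endomorphism with image in `𝔞 • ⊤`, `𝔞` nilpotent, is nilpotent. -/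
theorem isNilpotent_of_forall_mem (𝔞 : Ideal A) (h𝔞 : IsNilpotent 𝔞) (N : Module.End A M)
    (hN : ∀ m, N m ∈ 𝔞 • (⊤ : Submodule A M)) : IsNilpotent N := by
  obtain ⟨s, hs⟩ := h𝔞
  refine ⟨s, ?_⟩
  ext m
  have := pow_apply_mem_pow_smul_top 𝔞 N hN s m
  rw [hs] at this
  simpa using this

/-- **Perturbation lemma.** A linear map congruent to a linear equivalence modulo a nilpotent
ideal is bijective. -/
theorem bijective_of_sub_mem (𝔞 : Ideal A) (h𝔞 : IsNilpotent 𝔞) (Ψ₀ : M ≃ₗ[A] L)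
    (Ψ : M →ₗ[A] L) (h : ∀ m, Ψ m - Ψ₀ m ∈ 𝔞 • (⊤ : Submodule A L)) :
    Function.Bijective Ψ := by
  set N : Module.End A M := Ψ₀.symm.toLinearMap ∘ₗ (Ψ - Ψ₀.toLinearMap) with hNdef
  have hN : ∀ m, N m ∈ 𝔞 • (⊤ : Submodule A M) := by
    intro m
    have : (Ψ - Ψ₀.toLinearMap) m ∈ 𝔞 • (⊤ : Submodule A L) := by
      simpa using h m
    exact map_mem_smul_top 𝔞 Ψ₀.symm.toLinearMap this
  have hnil : IsNilpotent N := isNilpotent_of_forall_mem 𝔞 h𝔞 N hN
  have hunit : IsUnit (1 + N) := hnil.isUnit_one_add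
  have hbij : Function.Bijective ⇑(1 + N) := (Module.End.isUnit_iff _).1 hunit
  have hΨ : (Ψ : M → L) = ⇑Ψ₀ ∘ ⇑(1 + N) := by
    funext m
    simp [hNdef]
  rw [hΨ]
  exact Ψ₀.bijective.comp hbij

/-- In the situation of `bijective_of_sub_mem`, preimages are congruent modulo `𝔞`. -/
theorem preimage_sub_mem (𝔞 : Ideal A) (Ψ₀ : M ≃ₗ[A] L)
    (Ψ : M →ₗ[A] L) (h : ∀ m, Ψ m - Ψ₀ m ∈ 𝔞 • (⊤ : Submodule A L)) (m : M) :
    m - Ψ₀.symm (Ψ m) ∈ 𝔞 • (⊤ : Submodule A M) := by
  have h1 : Ψ₀.symm.toLinearMap (Ψ m - Ψ₀ m) ∈ 𝔞 • (⊤ : Submodule A M) :=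
    map_mem_smul_top 𝔞 Ψ₀.symm.toLinearMap (h m)
  have h2 : Ψ₀.symm.toLinearMap (Ψ m - Ψ₀ m) = Ψ₀.symm (Ψ m) - m := by simp
  rw [h2] at h1
  have := Submodule.neg_mem _ h1
  simpa using this

/-- More generally: if `Ψ m - Ψ₀ m' ∈ 𝔟 • ⊤` hmm -/
theorem sub_mem_of_apply_sub_mem (𝔞 𝔟 : Ideal A) (h𝔞 : IsNilpotent 𝔞) (Ψ₀ : M ≃ₗ[A] L)
    (Ψ : M →ₗ[A] L) (h : ∀ m, Ψ m - Ψ₀ m ∈ 𝔞 • (⊤ : Submodule A L)) (m : M)
    (hm : Ψ m ∈ 𝔟 • (⊤ : Submodule A L)) : m ∈ 𝔟 • (⊤ : Submodule A M) := by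
  -- `m = (1 + N)⁻¹ (Ψ₀⁻¹ (Ψ m))` and `(1+N)⁻¹` is a polynomial in `N`
  set N : Module.End A M := Ψ₀.symm.toLinearMap ∘ₗ (Ψ - Ψ₀.toLinearMap) with hNdef
  have hN : ∀ m, N m ∈ 𝔞 • (⊤ : Submodule A M) := by
    intro m
    have : (Ψ - Ψ₀.toLinearMap) m ∈ 𝔞 • (⊤ : Submodule A L) := by
      simpa using h m
    exact map_mem_smul_top 𝔞 Ψ₀.symm.toLinearMap this
  have hnil : IsNilpotent N := isNilpotent_of_forall_mem 𝔞 h𝔞 N hN
  obtain ⟨s, hs⟩ := hnil
  -- y := Ψ₀⁻¹ (Ψ m) = (1 + N) m ∈ 𝔟 • ⊤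
  have hy : (1 + N) m ∈ 𝔟 • (⊤ : Submodule A M) := by
    have h1 : Ψ₀.symm.toLinearMap (Ψ m) ∈ 𝔟 • (⊤ : Submodule A M) :=
      map_mem_smul_top 𝔟 Ψ₀.symm.toLinearMap hm
    have h2 : Ψ₀.symm.toLinearMap (Ψ m) = (1 + N) m := by simp [hNdef]
    rwa [h2] at h1
  -- inverse of 1 + N
  have hinv : (∑ i ∈ Finset.range s, (-N) ^ i) * (1 + N) = 1 := by
    have := Commute.geom_sum₂_mul (Commute.one_right (-N)) s  -- (∑ (-N)^i * 1^(s-1-i)) * (-N - 1) = (-N)^s - 1^s
    have hs' : (-N) ^ s = 0 := by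
      rw [neg_pow, hs, mul_zero]
    simp only [one_pow, mul_one, hs', zero_sub] at this
    have h3 : (∑ i ∈ Finset.range s, (-N) ^ i) * (1 + N)
        = -((∑ i ∈ Finset.range s, (-N) ^ i) * (-N - 1)) := by
      rw [← mul_neg]; congr 1; abel
    rw [h3, this, neg_neg]
  have hm' : m = (∑ i ∈ Finset.range s, (-N) ^ i) ((1 + N) m) := by
    rw [← Module.End.mul_apply, hinv, Module.End.one_apply]
  rw [hm']
  exact map_mem_smul_top 𝔟 _ hy

end Fermat.Agent.W1.RHF


end ZBW1_009_0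

/-! ### bundled: `Fermat.Agent.W1.RHFLaurent` -/
section ZBW1_009_1

/-!
# W1-RHF, Laurent form (helper94)

`A` a commutative ring, `𝔞 ⊂ A` a nilpotent ideal, `ι` a finite index set ("the points `x`"),
`n : ι → ℕ`.  `L := ι → LaurentSeries A`.

* `pol n : L →ₗ (ι × ℕ →₀ A)`: the polar part beyond order `n x`;
  `pol n l (x, k)` is the coefficient of `t ^ (-(n x + k + 1))` in `l x`.
* a *normalised family* is `b : ι × ℕ → L` with `pol n (b j) = single j 1`.
* **`exists_unique_rhf`**: if `U x * t ^ n x ≡ 1 mod 𝔞` then there is a unique pair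
  `(ω, w)`, `ω : ι × ℕ →₀ A`, `w : ι → A⟦X⟧`, with `1 + ∑ ω j • b j = U * w`.
  Moreover `ω j ∈ 𝔞` and `w x ≡ X ^ n x mod 𝔞` (coefficientwise).
-/

namespace Fermat.Agent.W1.RHF

open HahnSeries

variable {A : Type*} [CommRing A] {ι : Type*}

/-- The monomial `t ^ m` as a Laurent series. -/
noncomputable abbrev tpow (A : Type*) [CommRing A] (m : ℤ) : LaurentSeries A :=
  HahnSeries.single m (1 : A)

theorem tpow_mul_tpow (m m' : ℤ) : tpow A m * tpow A m' = tpow A (m + m') := by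
  simp [tpow, HahnSeries.single_mul_single]

theorem tpow_neg_mul_tpow (m : ℤ) : tpow A (-m) * tpow A m = 1 := by
  rw [tpow_mul_tpow]; simp [tpow]

theorem tpow_mul_tpow_neg (m : ℤ) : tpow A m * tpow A (-m) = 1 := by
  rw [tpow_mul_tpow]; simp [tpow]

theorem coeff_tpow_mul (m g : ℤ) (l : LaurentSeries A) :
    (tpow A m * l).coeff g = l.coeff (g - m) := by
  rw [tpow, HahnSeries.coeff_single_mul, one_mul]

/-- polar coefficient function: `(x, k) ↦` coefficient of `t ^ (-(n x + k + 1))` of `l x`. -/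
def polFun (n : ι → ℕ) (l : ι → LaurentSeries A) (j : ι × ℕ) : A :=
  (l j.1).coeff (-((n j.1 : ℤ) + (j.2 : ℤ) + 1))

theorem polFun_support_finite [Finite ι] (n : ι → ℕ) (l : ι → LaurentSeries A) :
    (Function.support (polFun n l)).Finite := by
  classical
  have hsub : Function.support (polFun n l) ⊆
      ⋃ x : ι, (fun k : ℕ => (x, k)) '' {k : ℕ | (k : ℤ) ≤ -(l x).order} := by
    rintro ⟨x, k⟩ hk
    simp only [Function.mem_support, polFun] at hk
    simp only [Set.mem_iUnion, Set.mem_image, Prod.mk.injEq]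
    refine ⟨x, k, ?_, rfl, rfl⟩
    by_contra hlt
    have hlt : ¬ ((k : ℤ) ≤ -(l x).order) := hlt
    rw [not_le] at hlt
    apply hk
    apply HahnSeries.coeff_eq_zero_of_lt_order
    have : (0 : ℤ) ≤ (n x : ℤ) := Int.natCast_nonneg _
    omega
  refine Set.Finite.subset (Set.finite_iUnion fun x => Set.Finite.image _ ?_) hsub
  have : {k : ℕ | (k : ℤ) ≤ -(l x).order} ⊆ (Finset.range ((-(l x).order).toNat + 1) : Set ℕ) := by
    intro k hk
    have hk : (k : ℤ) ≤ -(l x).order := hk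
    simp only [Finset.coe_range, Set.mem_Iio]
    omega
  exact (Finset.finite_toSet _).subset this

/-- The polar part beyond order `n`, as a linear map. -/
noncomputable def pol [Finite ι] (n : ι → ℕ) : (ι → LaurentSeries A) →ₗ[A] (ι × ℕ →₀ A) where
  toFun l := Finsupp.ofSupportFinite (polFun n l) (polFun_support_finite n l)
  map_add' l l' := by
    ext j
    simp [Finsupp.ofSupportFinite_coe, polFun]
  map_smul' a l := by
    ext j
    simp [Finsupp.ofSupportFinite_coe, polFun]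

@[simp]
theorem pol_apply [Finite ι] (n : ι → ℕ) (l : ι → LaurentSeries A) (x : ι) (k : ℕ) :
    pol n l (x, k) = (l x).coeff (-((n x : ℤ) + (k : ℤ) + 1)) := rfl

theorem pol_one [Finite ι] (n : ι → ℕ) : pol (A := A) n (1 : ι → LaurentSeries A) = 0 := by
  ext ⟨x, k⟩
  rw [pol_apply, Pi.one_apply, HahnSeries.coeff_one, if_neg]
  · simp
  · have : (0 : ℤ) ≤ (n x : ℤ) := Int.natCast_nonneg _
    have : (0 : ℤ) ≤ (k : ℤ) := Int.natCast_nonneg _
    omega

/-- `t ^ (-n) * (power series)` has no polar part beyond `n`. -/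
theorem pol_tpow_mul_coe [Finite ι] (n : ι → ℕ) (w : ι → PowerSeries A) :
    pol n (fun x => tpow A (-(n x : ℤ)) * HahnSeries.ofPowerSeries ℤ A (w x)) = 0 := by
  ext ⟨x, k⟩
  rw [pol_apply, coeff_tpow_mul, PowerSeries.coeff_coe, if_pos]
  · simp
  · have : (0 : ℤ) ≤ (k : ℤ) := Int.natCast_nonneg _
    omega

/-- the power series part of `t ^ n * l` -/
noncomputable def powPart (n : ι → ℕ) (l : ι → LaurentSeries A) (x : ι) : PowerSeries A :=
  PowerSeries.mk fun i => (l x).coeff ((i : ℤ) - (n x : ℤ))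

theorem eq_tpow_mul_powPart [Finite ι] (n : ι → ℕ) (l : ι → LaurentSeries A)
    (hl : pol n l = 0) (x : ι) :
    l x = tpow A (-(n x : ℤ)) * HahnSeries.ofPowerSeries ℤ A (powPart n l x) := by
  ext g
  rw [coeff_tpow_mul, PowerSeries.coeff_coe]
  split_ifs with h
  · -- g + n < 0
    have hk : g = -((n x : ℤ) + ((-g - n x - 1).toNat : ℤ) + 1) := by
      have : 0 ≤ -g - n x - 1 := by omega
      rw [Int.toNat_of_nonneg this]; ring
    have := DFunLike.congr_fun hl (x, (-g - n x - 1).toNat)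
    rw [pol_apply, ← hk] at this
    simpa using this
  · rw [powPart, PowerSeries.coeff_mk]
    congr 1
    have : 0 ≤ g - -(n x : ℤ) := by omega
    rw [Int.natAbs_of_nonneg this]; ring

theorem coe_injective' : Function.Injective (HahnSeries.ofPowerSeries ℤ A) :=
  HahnSeries.ofPowerSeries_injective

/-- multiplication by `t ^ m` is injective -/
theorem tpow_mul_injective (m : ℤ) : Function.Injective fun l : LaurentSeries A => tpow A m * l := by
  intro l l' h
  have := congrArg (fun y => tpow A (-m) * y) h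
  simpa [← mul_assoc, tpow_neg_mul_tpow] using this

section smulTop

/-- multiplication by a tuple of Laurent series, as an `A`-linear map -/
noncomputable def mulL (c : ι → LaurentSeries A) :
    (ι → LaurentSeries A) →ₗ[A] (ι → LaurentSeries A) where
  toFun l := c * l
  map_add' := mul_add c
  map_smul' a l := by
    funext x
    simp only [Pi.mul_apply, Pi.smul_apply, RingHom.id_apply]
    rw [← HahnSeries.C_mul_eq_smul, ← HahnSeries.C_mul_eq_smul]
    ring

@[simp]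
theorem mulL_apply (c l : ι → LaurentSeries A) : mulL c l = c * l := rfl

/-- `𝔞 • ⊤` is an ideal of the ring of tuples of Laurent series. -/
theorem mul_mem_smul_top (𝔞 : Ideal A) {x : ι → LaurentSeries A}
    (hx : x ∈ 𝔞 • (⊤ : Submodule A (ι → LaurentSeries A))) (y : ι → LaurentSeries A) :
    x * y ∈ 𝔞 • (⊤ : Submodule A (ι → LaurentSeries A)) := by
  have := map_mem_smul_top 𝔞 (mulL y) hx
  rwa [mulL_apply, mul_comm] at this

/-- coefficients of an element of `𝔞 • ⊤ ⊆ LaurentSeries A` lie in `𝔞` -/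
theorem coeff_mem_of_mem_smul_top (𝔞 : Ideal A) {l : LaurentSeries A}
    (hl : l ∈ 𝔞 • (⊤ : Submodule A (LaurentSeries A))) (g : ℤ) : l.coeff g ∈ 𝔞 := by
  let c : LaurentSeries A →ₗ[A] A :=
    { toFun := fun l => l.coeff g
      map_add' := fun _ _ => HahnSeries.coeff_add
      map_smul' := fun _ _ => by simp }
  have := map_mem_smul_top 𝔞 c hl
  simpa [c] using this

/-- coefficients of an element of `𝔞 • ⊤ ⊆ PowerSeries A` lie in `𝔞` -/
theorem pscoeff_mem_of_mem_smul_top (𝔞 : Ideal A) {w : PowerSeries A}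
    (hw : w ∈ 𝔞 • (⊤ : Submodule A (PowerSeries A))) (i : ℕ) : PowerSeries.coeff i w ∈ 𝔞 := by
  have := map_mem_smul_top 𝔞 (PowerSeries.coeff (R := A) i) hw
  simpa using this

/-- values of an element of `𝔞 • ⊤ ⊆ (J →₀ A)` lie in `𝔞` -/
theorem finsupp_apply_mem_of_mem_smul_top {J : Type*} (𝔞 : Ideal A) {ω : J →₀ A}
    (hω : ω ∈ 𝔞 • (⊤ : Submodule A (J →₀ A))) (j : J) : ω j ∈ 𝔞 := by
  have := map_mem_smul_top 𝔞 (Finsupp.lapply (R := A) j) hω
  simpa using this

/-- components of an element of `𝔞 • ⊤ ⊆ (ι → M)` lie in `𝔞 • ⊤` -/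
theorem pi_apply_mem_of_mem_smul_top {M : Type*} [AddCommGroup M] [Module A M] (𝔞 : Ideal A)
    {f : ι → M} (hf : f ∈ 𝔞 • (⊤ : Submodule A (ι → M))) (x : ι) :
    f x ∈ 𝔞 • (⊤ : Submodule A M) :=
  map_mem_smul_top 𝔞 (LinearMap.proj (R := A) (φ := fun _ : ι => M) x) hf

/-- a tuple with all components in `𝔞 • ⊤` lies in `𝔞 • ⊤` (finite index set) -/
theorem pi_mem_smul_top_of_forall [Finite ι] {M : Type*} [AddCommGroup M] [Module A M]
    (𝔞 : Ideal A) {f : ι → M} (hf : ∀ x, f x ∈ 𝔞 • (⊤ : Submodule A M)) :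
    f ∈ 𝔞 • (⊤ : Submodule A (ι → M)) := by
  classical
  have := Fintype.ofFinite ι
  have h : f = ∑ x, (LinearMap.single A (fun _ : ι => M) x) (f x) := by
    funext y
    simp [Finset.sum_apply, Pi.single_apply]
  rw [h]
  exact Submodule.sum_mem _ fun x _ => map_mem_smul_top 𝔞 _ (hf x)

end smulTop

section main

variable [Finite ι] (𝔞 : Ideal A) (n : ι → ℕ) (b : ι × ℕ → ι → LaurentSeries A)
  (U : ι → LaurentSeries A)

/-- the linear combination map of the family `b` -/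
noncomputable abbrev beta : (ι × ℕ →₀ A) →ₗ[A] (ι → LaurentSeries A) :=
  Finsupp.linearCombination A b

theorem pol_beta (hb : ∀ j, pol n (b j) = Finsupp.single j 1) (ω : ι × ℕ →₀ A) :
    pol n (beta b ω) = ω := by
  induction ω using Finsupp.induction_linear with
  | zero => simp
  | add f g hf hg => rw [map_add, map_add, hf, hg]
  | single j a =>
    rw [beta, Finsupp.linearCombination_single, map_smul, hb j, Finsupp.smul_single, smul_eq_mul,
      mul_one]

/-- the tuple `c x = U x * t ^ n x` -/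
noncomputable def cTuple : ι → LaurentSeries A := fun x => U x * tpow A (n x)

/-- the remainder `l - β (pol l)`, which lies in `t ^ (-n) * A⟦t⟧` -/
noncomputable def rem : (ι → LaurentSeries A) →ₗ[A] (ι → LaurentSeries A) :=
  LinearMap.id - (beta b) ∘ₗ (pol n)

theorem pol_rem (hb : ∀ j, pol n (b j) = Finsupp.single j 1) (l : ι → LaurentSeries A) :
    pol n (rem n b l) = 0 := by
  simp [rem, pol_beta n b hb]

/-- the perturbed map `Ψ l = l + (c - 1) * rem l = c * rem l + β (pol l)` -/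
noncomputable def Psi : (ι → LaurentSeries A) →ₗ[A] (ι → LaurentSeries A) :=
  LinearMap.id + (mulL (cTuple n U - 1)) ∘ₗ (rem n b)

theorem Psi_apply (l : ι → LaurentSeries A) :
    Psi n b U l = cTuple n U * rem n b l + beta b (pol n l) := by
  simp only [Psi, rem, LinearMap.add_apply, LinearMap.id_coe, id_eq, LinearMap.coe_comp,
    Function.comp_apply, mulL_apply, LinearMap.sub_apply]
  ring

theorem Psi_sub_mem (hU : cTuple n U - 1 ∈ 𝔞 • (⊤ : Submodule A (ι → LaurentSeries A)))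
    (l : ι → LaurentSeries A) :
    Psi n b U l - (LinearEquiv.refl A (ι → LaurentSeries A)) l
      ∈ 𝔞 • (⊤ : Submodule A (ι → LaurentSeries A)) := by
  have : Psi n b U l - (LinearEquiv.refl A (ι → LaurentSeries A)) l
      = (cTuple n U - 1) * rem n b l := by
    simp [Psi]
  rw [this]
  exact mul_mem_smul_top 𝔞 hU _

theorem Psi_bijective (h𝔞 : IsNilpotent 𝔞)
    (hU : cTuple n U - 1 ∈ 𝔞 • (⊤ : Submodule A (ι → LaurentSeries A))) :
    Function.Bijective (Psi n b U) :=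
  bijective_of_sub_mem 𝔞 h𝔞 (LinearEquiv.refl A _) (Psi n b U) (Psi_sub_mem 𝔞 n b U hU)

/-- the pair `(ω, w)` attached to `l` -/
noncomputable def pairOf (l : ι → LaurentSeries A) : (ι × ℕ →₀ A) × (ι → PowerSeries A) :=
  (-(pol n l), powPart n (rem n b l))

/-- the element `l = t ^ (-n) * w - β ω` attached to a pair -/
noncomputable def ofPair (p : (ι × ℕ →₀ A) × (ι → PowerSeries A)) : ι → LaurentSeries A :=
  (fun x => tpow A (-(n x : ℤ)) * HahnSeries.ofPowerSeries ℤ A (p.2 x)) - beta b p.1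

theorem pol_ofPair (hb : ∀ j, pol n (b j) = Finsupp.single j 1)
    (p : (ι × ℕ →₀ A) × (ι → PowerSeries A)) : pol n (ofPair n b p) = -p.1 := by
  rw [ofPair, map_sub, pol_tpow_mul_coe, pol_beta n b hb, zero_sub]

theorem rem_ofPair (hb : ∀ j, pol n (b j) = Finsupp.single j 1)
    (p : (ι × ℕ →₀ A) × (ι → PowerSeries A)) :
    rem n b (ofPair n b p) = fun x => tpow A (-(n x : ℤ)) * HahnSeries.ofPowerSeries ℤ A (p.2 x) := by
  have h1 : rem n b (ofPair n b p) = ofPair n b p - beta b (pol n (ofPair n b p)) := by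
    simp [rem]
  rw [h1, pol_ofPair n b hb, map_neg, sub_neg_eq_add, ofPair, sub_add_cancel]

theorem cTuple_mul_tpow (x : ι) (y : LaurentSeries A) :
    cTuple n U x * (tpow A (-(n x : ℤ)) * y) = U x * y := by
  rw [cTuple, mul_assoc, ← mul_assoc (tpow A (n x)), tpow_mul_tpow_neg, one_mul]

theorem Psi_ofPair (hb : ∀ j, pol n (b j) = Finsupp.single j 1)
    (p : (ι × ℕ →₀ A) × (ι → PowerSeries A)) :
    Psi n b U (ofPair n b p)
      = (fun x => U x * HahnSeries.ofPowerSeries ℤ A (p.2 x)) - beta b p.1 := by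
  rw [Psi_apply, rem_ofPair n b hb, pol_ofPair n b hb, map_neg, ← sub_eq_add_neg]
  congr 1
  funext x
  rw [Pi.mul_apply, cTuple_mul_tpow]

theorem ofPair_injective (hb : ∀ j, pol n (b j) = Finsupp.single j 1) :
    Function.Injective (ofPair (A := A) n b) := by
  intro p p' h
  have h1 : p.1 = p'.1 := by
    have := congrArg (pol n) h
    rw [pol_ofPair n b hb, pol_ofPair n b hb] at this
    exact neg_injective this
  have h2 : p.2 = p'.2 := by
    have := congrArg (rem n b) h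
    rw [rem_ofPair n b hb, rem_ofPair n b hb] at this
    funext x
    have hx := congrFun this x
    exact coe_injective' (tpow_mul_injective _ hx)
  exact Prod.ext h1 h2

theorem ofPair_pairOf (hb : ∀ j, pol n (b j) = Finsupp.single j 1) (l : ι → LaurentSeries A) :
    ofPair n b (pairOf n b l) = l := by
  have h : (fun x => tpow A (-(n x : ℤ)) * HahnSeries.ofPowerSeries ℤ A (powPart n (rem n b l) x))
      = rem n b l := by
    funext x
    exact (eq_tpow_mul_powPart n (rem n b l) (pol_rem n b hb l) x).symm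
  rw [ofPair, pairOf]
  simp only
  rw [h, map_neg, sub_neg_eq_add]
  simp [rem]

/-- **Riemann–Hilbert factorisation modulo a nilpotent ideal.**
`b` a normalised family (`pol n (b j) = single j 1`), `U x * t ^ n x ≡ 1 mod 𝔞`.
Then there is a unique pair `(ω, w)` with `1 + ∑ ω j • b j = U * w`. -/
theorem exists_unique_rhf (h𝔞 : IsNilpotent 𝔞)
    (hb : ∀ j, pol n (b j) = Finsupp.single j 1)
    (hU : cTuple n U - 1 ∈ 𝔞 • (⊤ : Submodule A (ι → LaurentSeries A))) :
    ∃! p : (ι × ℕ →₀ A) × (ι → PowerSeries A),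
      ∀ x, 1 + beta b p.1 x = U x * HahnSeries.ofPowerSeries ℤ A (p.2 x) := by
  obtain ⟨l, hl⟩ := (Psi_bijective 𝔞 n b U h𝔞 hU).2 1
  have key : ∀ p : (ι × ℕ →₀ A) × (ι → PowerSeries A),
      (∀ x, 1 + beta b p.1 x = U x * HahnSeries.ofPowerSeries ℤ A (p.2 x))
        ↔ Psi n b U (ofPair n b p) = 1 := by
    intro p
    rw [Psi_ofPair n b U hb]
    constructor
    · intro h
      funext x
      have := h x
      simp only [Pi.sub_apply, Pi.one_apply]
      rw [← this]; ring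
    · intro h x
      have := congrFun h x
      simp only [Pi.sub_apply, Pi.one_apply] at this
      rw [← this]; ring
  refine ⟨pairOf n b l, ?_, ?_⟩
  · show ∀ x, _
    rw [key, ofPair_pairOf n b hb, hl]
  · intro p hp
    have h1 : Psi n b U (ofPair n b p) = 1 := (key p).1 hp
    have h2 : ofPair n b p = l := (Psi_bijective 𝔞 n b U h𝔞 hU).1 (h1.trans hl.symm)
    apply ofPair_injective n b hb
    rw [h2, ofPair_pairOf n b hb]

/-- congruences for the solution: `ω j ∈ 𝔞` and `w x ≡ X ^ n x` coefficientwise mod `𝔞`. -/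
theorem rhf_congr
    (hb : ∀ j, pol n (b j) = Finsupp.single j 1)
    (hU : cTuple n U - 1 ∈ 𝔞 • (⊤ : Submodule A (ι → LaurentSeries A)))
    (p : (ι × ℕ →₀ A) × (ι → PowerSeries A))
    (hp : ∀ x, 1 + beta b p.1 x = U x * HahnSeries.ofPowerSeries ℤ A (p.2 x)) :
    (∀ j, p.1 j ∈ 𝔞) ∧ ∀ x i, PowerSeries.coeff i (p.2 x - PowerSeries.X ^ n x) ∈ 𝔞 := by
  set l := ofPair n b p with hldef
  have hΨ : Psi n b U l = 1 := by
    rw [hldef, Psi_ofPair n b U hb]
    funext x
    have := hp x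
    simp only [Pi.sub_apply, Pi.one_apply]
    rw [← this]; ring
  -- l - 1 ∈ 𝔞 • ⊤
  have hl1 : l - 1 ∈ 𝔞 • (⊤ : Submodule A (ι → LaurentSeries A)) := by
    have := preimage_sub_mem 𝔞 (LinearEquiv.refl A _) (Psi n b U) (Psi_sub_mem 𝔞 n b U hU) l
    rw [hΨ] at this
    simpa using this
  constructor
  · intro j
    have h1 : pol n (l - 1) ∈ 𝔞 • (⊤ : Submodule A (ι × ℕ →₀ A)) :=
      map_mem_smul_top 𝔞 (pol n) hl1
    rw [map_sub, pol_one, sub_zero, hldef, pol_ofPair n b hb] at h1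
    have h2 := finsupp_apply_mem_of_mem_smul_top 𝔞 h1 j
    simpa using h2
  · intro x i
    have h1 : rem n b (l - 1) ∈ 𝔞 • (⊤ : Submodule A (ι → LaurentSeries A)) :=
      map_mem_smul_top 𝔞 (rem n b) hl1
    have h2 : rem n b (1 : ι → LaurentSeries A) = 1 := by
      simp [rem, pol_one]
    rw [map_sub, h2, hldef, rem_ofPair n b hb] at h1
    have h3 := pi_apply_mem_of_mem_smul_top 𝔞 h1 x
    simp only [Pi.sub_apply, Pi.one_apply] at h3
    have h4 := coeff_mem_of_mem_smul_top 𝔞 h3 ((i : ℤ) - (n x : ℤ))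
    rw [HahnSeries.coeff_sub, coeff_tpow_mul, PowerSeries.coeff_coe, if_neg (by omega),
      HahnSeries.coeff_one] at h4
    have e1 : ((i : ℤ) - (n x : ℤ) - -(n x : ℤ)).natAbs = i := by
      have : (i : ℤ) - (n x : ℤ) - -(n x : ℤ) = (i : ℤ) := by ring
      rw [this, Int.natAbs_natCast]
    rw [e1] at h4
    rw [map_sub, PowerSeries.coeff_X_pow]
    have e2 : ((i : ℤ) - (n x : ℤ) = 0) ↔ i = n x := by omega
    simp only [e2] at h4
    exact h4

end main

end Fermat.Agent.W1.RHF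


end ZBW1_009_1

/-! ### bundled: `Fermat.Agent.W1.RHFRoot` -/
section ZBW1_009_2

/-!
# W1-RHF: Weierstrass division and the root `ζ`, modulo a nilpotent ideal (helper94)

`A` a commutative ring, `𝔞` a nilpotent ideal, `w ∈ A⟦X⟧` with `w ≡ X ^ d mod 𝔞`.
* `weierstrass_division`: every `f` is uniquely `w * q + r`, `deg r < d`.
* `exists_unique_root` (`d = 1`): `w = (X - C ζ) * unit` for a unique `ζ`, and `ζ ∈ 𝔞`.
* `isUnit_of_sub_one_mem` (`d = 0`): `w` is a unit.
-/

namespace Fermat.Agent.W1.RHF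

open PowerSeries

variable {A : Type*} [CommRing A]

theorem isNilpotent_of_mem_of_isNilpotent {𝔞 : Ideal A} (h𝔞 : IsNilpotent 𝔞) {a : A}
    (ha : a ∈ 𝔞) : IsNilpotent a := by
  obtain ⟨s, hs⟩ := h𝔞
  refine ⟨s, ?_⟩
  have := Ideal.pow_mem_pow ha s
  rw [hs] at this
  simpa using this

theorem isUnit_of_sub_one_mem_of_isNilpotent {𝔞 : Ideal A} (h𝔞 : IsNilpotent 𝔞) {a : A}
    (ha : a - 1 ∈ 𝔞) : IsUnit a := by
  have := (isNilpotent_of_mem_of_isNilpotent h𝔞 ha).isUnit_add_one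
  simpa using this

/-- coefficients of an element of `𝔞 • ⊤ ⊆ A⟦X⟧` lie in `𝔞` -/
theorem coeff_mem_of_mem_smul_top' (𝔞 : Ideal A) {w : PowerSeries A}
    (hw : w ∈ 𝔞 • (⊤ : Submodule A (PowerSeries A))) (i : ℕ) : coeff i w ∈ 𝔞 := by
  have := map_mem_smul_top 𝔞 (PowerSeries.coeff (R := A) i) hw
  simpa using this

/-- `d = 0`: a power series `≡ 1 mod 𝔞` is a unit. -/
theorem isUnit_of_sub_one_mem {𝔞 : Ideal A} (h𝔞 : IsNilpotent 𝔞) {w : PowerSeries A}
    (hw : w - 1 ∈ 𝔞 • (⊤ : Submodule A (PowerSeries A))) : IsUnit w := by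
  rw [PowerSeries.isUnit_iff_constantCoeff]
  apply isUnit_of_sub_one_mem_of_isNilpotent h𝔞
  have := coeff_mem_of_mem_smul_top' 𝔞 hw 0
  simpa using this

/-- the shift operator `f ↦ (f - trunc d f) / X ^ d` -/
noncomputable def hi (d : ℕ) : PowerSeries A →ₗ[A] PowerSeries A where
  toFun f := PowerSeries.mk fun i => coeff (i + d) f
  map_add' f g := by ext i; simp
  map_smul' a f := by ext i; simp

/-- the truncation `f ↦ trunc d f`, as a power series -/
noncomputable def lo (d : ℕ) : PowerSeries A →ₗ[A] PowerSeries A where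
  toFun f := ((trunc d f : Polynomial A) : PowerSeries A)
  map_add' f g := by simp
  map_smul' a f := by
    ext i
    simp [Polynomial.coeff_coe, coeff_trunc]

theorem hi_apply (d : ℕ) (f : PowerSeries A) :
    hi d f = PowerSeries.mk fun i => coeff (i + d) f := rfl

theorem lo_apply (d : ℕ) (f : PowerSeries A) :
    lo d f = ((trunc d f : Polynomial A) : PowerSeries A) := rfl

theorem lo_add_hi (d : ℕ) (f : PowerSeries A) : lo d f + X ^ d * hi d f = f := by
  rw [add_comm]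
  exact (eq_X_pow_mul_shift_add_trunc d f).symm

theorem hi_X_pow_mul_add (d : ℕ) (q : PowerSeries A) (r : Polynomial A)
    (hr : r.degree < d) : hi d (X ^ d * q + (r : PowerSeries A)) = q := by
  ext i
  rw [hi_apply, coeff_mk, map_add, Polynomial.coeff_coe, coeff_X_pow_mul',
    if_pos (Nat.le_add_left d i), Nat.add_sub_cancel]
  have : r.coeff (i + d) = 0 := by
    apply Polynomial.coeff_eq_zero_of_degree_lt
    exact lt_of_lt_of_le hr (by exact_mod_cast Nat.le_add_left d i)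
  rw [this, add_zero]

theorem trunc_X_pow_mul_add (d : ℕ) (q : PowerSeries A) (r : Polynomial A)
    (hr : r.degree < d) : trunc d (X ^ d * q + (r : PowerSeries A)) = r := by
  ext i
  rw [coeff_trunc]
  split_ifs with h
  · rw [map_add, Polynomial.coeff_coe, coeff_X_pow_mul', if_neg (not_le.2 h), zero_add]
  · symm
    apply Polynomial.coeff_eq_zero_of_degree_lt
    exact lt_of_lt_of_le hr (by exact_mod_cast not_lt.1 h)

/-- the perturbed map `f ↦ lo f + w * hi f` -/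
noncomputable def PsiW (d : ℕ) (w : PowerSeries A) : PowerSeries A →ₗ[A] PowerSeries A :=
  LinearMap.id + (LinearMap.mulLeft A (w - X ^ d)) ∘ₗ (hi d)

theorem PsiW_apply (d : ℕ) (w f : PowerSeries A) :
    PsiW d w f = lo d f + w * hi d f := by
  have h := lo_add_hi d f
  simp only [PsiW, LinearMap.add_apply, LinearMap.id_coe, id_eq, LinearMap.coe_comp,
    Function.comp_apply, LinearMap.mulLeft_apply]
  nth_rewrite 1 [← h]
  ring

theorem PsiW_sub_mem (𝔞 : Ideal A) (d : ℕ) (w : PowerSeries A)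
    (hw : w - X ^ d ∈ 𝔞 • (⊤ : Submodule A (PowerSeries A))) (f : PowerSeries A) :
    PsiW d w f - (LinearEquiv.refl A (PowerSeries A)) f
      ∈ 𝔞 • (⊤ : Submodule A (PowerSeries A)) := by
  have : PsiW d w f - (LinearEquiv.refl A (PowerSeries A)) f = (w - X ^ d) * hi d f := by
    simp [PsiW]
  rw [this]
  have h2 := map_mem_smul_top 𝔞 (LinearMap.mulRight A (hi d f)) hw
  simpa using h2

theorem PsiW_bijective {𝔞 : Ideal A} (h𝔞 : IsNilpotent 𝔞) (d : ℕ) (w : PowerSeries A)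
    (hw : w - X ^ d ∈ 𝔞 • (⊤ : Submodule A (PowerSeries A))) :
    Function.Bijective (PsiW d w) :=
  bijective_of_sub_mem 𝔞 h𝔞 (LinearEquiv.refl A _) (PsiW d w) (PsiW_sub_mem 𝔞 d w hw)

/-- **Weierstrass division modulo a nilpotent ideal.** -/
theorem weierstrass_division {𝔞 : Ideal A} (h𝔞 : IsNilpotent 𝔞) (d : ℕ) (w : PowerSeries A)
    (hw : w - X ^ d ∈ 𝔞 • (⊤ : Submodule A (PowerSeries A))) (f : PowerSeries A) :
    ∃! qr : PowerSeries A × Polynomial A,
      qr.2.degree < d ∧ f = w * qr.1 + (qr.2 : PowerSeries A) := by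
  obtain ⟨g, hg⟩ := (PsiW_bijective h𝔞 d w hw).2 f
  refine ⟨(hi d g, trunc d g), ⟨degree_trunc_lt g d, ?_⟩, ?_⟩
  · rw [← hg, PsiW_apply, lo_apply]; ring
  · rintro ⟨q, r⟩ ⟨hdeg, heq⟩
    simp only at hdeg heq
    have h1 : PsiW d w (X ^ d * q + (r : PowerSeries A)) = f := by
      rw [PsiW_apply, lo_apply, hi_X_pow_mul_add d q r hdeg, trunc_X_pow_mul_add d q r hdeg, heq]
      ring
    have h2 : X ^ d * q + (r : PowerSeries A) = g :=
      (PsiW_bijective h𝔞 d w hw).1 (h1.trans hg.symm)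
    rw [← h2, hi_X_pow_mul_add d q r hdeg, trunc_X_pow_mul_add d q r hdeg]

/-- In the Weierstrass division of `f` by `w`, `q ≡ hi f` and `r ≡ lo f` modulo `𝔞`. -/
theorem weierstrass_division_congr {𝔞 : Ideal A} (d : ℕ) (w : PowerSeries A)
    (hw : w - X ^ d ∈ 𝔞 • (⊤ : Submodule A (PowerSeries A))) (f q : PowerSeries A)
    (r : Polynomial A) (hdeg : r.degree < d) (heq : f = w * q + (r : PowerSeries A)) :
    q - hi d f ∈ 𝔞 • (⊤ : Submodule A (PowerSeries A)) ∧
      (r : PowerSeries A) - lo d f ∈ 𝔞 • (⊤ : Submodule A (PowerSeries A)) := by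
  set g := X ^ d * q + (r : PowerSeries A) with hgdef
  have h1 : PsiW d w g = f := by
    rw [PsiW_apply, lo_apply, hgdef, hi_X_pow_mul_add d q r hdeg,
      trunc_X_pow_mul_add d q r hdeg, heq]
    ring
  have h2 : g - f ∈ 𝔞 • (⊤ : Submodule A (PowerSeries A)) := by
    have := preimage_sub_mem 𝔞 (LinearEquiv.refl A _) (PsiW d w) (PsiW_sub_mem 𝔞 d w hw) g
    rw [h1] at this
    simpa using this
  constructor
  · have := map_mem_smul_top 𝔞 (hi d) h2
    rwa [map_sub, hgdef, hi_X_pow_mul_add d q r hdeg] at this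
  · have := map_mem_smul_top 𝔞 (lo d) h2
    rwa [map_sub, lo_apply, hgdef, trunc_X_pow_mul_add d q r hdeg] at this

theorem hi_one_X : hi 1 (X : PowerSeries A) = 1 := by
  ext i
  rw [hi_apply, coeff_mk, coeff_X, coeff_one]
  simp

theorem lo_one_X : lo 1 (X : PowerSeries A) = 0 := by
  rw [lo_apply, trunc_one_X]; simp

/-- **The root.** If `w ≡ X mod 𝔞` (`𝔞` nilpotent) then `w = (X - C ζ) * unit` for a unique `ζ`;
moreover `ζ ∈ 𝔞`. -/
theorem exists_unique_root {𝔞 : Ideal A} (h𝔞 : IsNilpotent 𝔞) (w : PowerSeries A)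
    (hw : w - X ∈ 𝔞 • (⊤ : Submodule A (PowerSeries A))) :
    ∃! ζ : A, ∃ h : (PowerSeries A)ˣ, w = (X - C ζ) * (h : PowerSeries A) := by
  have hw' : w - X ^ 1 ∈ 𝔞 • (⊤ : Submodule A (PowerSeries A)) := by simpa using hw
  obtain ⟨⟨q, r⟩, ⟨hdeg, heq⟩, huniq⟩ := weierstrass_division h𝔞 1 w hw' X
  simp only at hdeg heq
  -- r is a constant
  have hr : r = Polynomial.C (r.coeff 0) := by
    apply Polynomial.eq_C_of_degree_le_zero
    have : r.degree < ((0 : ℕ) + 1 : ℕ) := by simpa using hdeg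
    exact Polynomial.degree_le_of_natDegree_le
      (by
        by_cases h0 : r = 0
        · simp [h0]
        · have := (Polynomial.degree_lt_iff_coeff_zero r 1).1 (by simpa using hdeg)
          exact Nat.le_of_lt_succ ((Polynomial.natDegree_lt_iff_degree_lt h0).2 (by simpa using hdeg)))
  obtain ⟨hq, -⟩ := weierstrass_division_congr 1 w hw' X q r hdeg heq
  rw [hi_one_X] at hq
  have hqu : IsUnit q := isUnit_of_sub_one_mem h𝔞 hq
  have hrc : (r : PowerSeries A) = C (r.coeff 0) := by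
    conv_lhs => rw [hr]
    simp
  refine ⟨r.coeff 0, ⟨hqu.unit⁻¹, ?_⟩, ?_⟩
  · have h1 : w * q = X - C (r.coeff 0) := by
      rw [← hrc]; rw [eq_sub_iff_add_eq]; exact heq.symm
    rw [← h1, mul_assoc]
    have : q * ((hqu.unit⁻¹ : (PowerSeries A)ˣ) : PowerSeries A) = 1 := by
      have := hqu.unit.mul_inv
      simpa using congrArg Units.val this
    rw [this, mul_one]
  · rintro ζ ⟨h, hζ⟩
    have h3 : X = w * ((h⁻¹ : (PowerSeries A)ˣ) : PowerSeries A)
        + ((Polynomial.C ζ : Polynomial A) : PowerSeries A) := by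
      rw [hζ, mul_assoc]
      have : (h : PowerSeries A) * ((h⁻¹ : (PowerSeries A)ˣ) : PowerSeries A) = 1 := by
        simpa using congrArg Units.val h.mul_inv
      rw [this, mul_one]
      simp
    have h4 := huniq (((h⁻¹ : (PowerSeries A)ˣ) : PowerSeries A), Polynomial.C ζ)
      ⟨by
        simp only
        exact lt_of_le_of_lt Polynomial.degree_C_le (by norm_num), h3⟩
    have h5 := congrArg (fun qr : PowerSeries A × Polynomial A => qr.2.coeff 0) h4
    simpa using h5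

/-- the root lies in `𝔞` -/
theorem root_mem {𝔞 : Ideal A} (w : PowerSeries A)
    (hw : w - X ∈ 𝔞 • (⊤ : Submodule A (PowerSeries A))) (ζ : A) (h : (PowerSeries A)ˣ)
    (hζ : w = (X - C ζ) * (h : PowerSeries A)) : ζ ∈ 𝔞 := by
  have hw' : w - X ^ 1 ∈ 𝔞 • (⊤ : Submodule A (PowerSeries A)) := by simpa using hw
  have h3 : X = w * ((h⁻¹ : (PowerSeries A)ˣ) : PowerSeries A)
      + ((Polynomial.C ζ : Polynomial A) : PowerSeries A) := by
    rw [hζ, mul_assoc]
    have : (h : PowerSeries A) * ((h⁻¹ : (PowerSeries A)ˣ) : PowerSeries A) = 1 := by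
      simpa using congrArg Units.val h.mul_inv
    rw [this, mul_one]
    simp
  obtain ⟨-, hr⟩ := weierstrass_division_congr 1 w hw' X _ (Polynomial.C ζ)
    (lt_of_le_of_lt Polynomial.degree_C_le (by norm_num)) h3
  rw [lo_one_X, sub_zero] at hr
  have := coeff_mem_of_mem_smul_top' 𝔞 hr 0
  simpa using this

end Fermat.Agent.W1.RHF


end ZBW1_009_2

/-! ### bundled: `Fermat.Agent.W1.RHFBaseChange` -/
section ZBW1_009_3

/-!
# W1-RHF: `𝔞`-adic congruence, `V`-form and base change (helper94)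

* `psPart`, `rhf_congr_smul_top`: the solution `w` of `exists_unique_rhf` satisfies
  `w x - X ^ n x ∈ 𝔞 • ⊤` (the hypothesis of `exists_unique_root`).
* `lmap φ : LaurentSeries A →+* LaurentSeries A'` (coefficientwise), compatibility with `pol`,
  `beta`, `ofPowerSeries`, `tpow`, `C`.
* `rhf_map`: the image of a solution is a solution; `rhf_map_unique`: hence THE solution.
* `root_map`: the image of the root is the root.
-/

namespace Fermat.Agent.W1.RHF

open HahnSeries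

section adic

variable {A : Type*} [CommRing A] {ι : Type*}

/-- the power series part of a Laurent series, as a linear map -/
noncomputable def psPart : LaurentSeries A →ₗ[A] PowerSeries A where
  toFun l := PowerSeries.mk fun i => l.coeff (i : ℤ)
  map_add' l l' := by ext i; simp
  map_smul' a l := by ext i; simp

@[simp]
theorem coeff_psPart (l : LaurentSeries A) (i : ℕ) :
    PowerSeries.coeff i (psPart l) = l.coeff (i : ℤ) := by
  simp [psPart]

theorem psPart_coe (w : PowerSeries A) : psPart (HahnSeries.ofPowerSeries ℤ A w) = w := by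
  ext i
  rw [coeff_psPart, PowerSeries.coeff_coe, if_neg (by omega), Int.natAbs_natCast]

theorem psPart_tpow (n : ℕ) : psPart (tpow A (n : ℤ)) = PowerSeries.X ^ n := by
  ext i
  rw [coeff_psPart, PowerSeries.coeff_X_pow, tpow, HahnSeries.coeff_single]
  by_cases h : i = n
  · subst h; simp
  · have : ¬ ((i : ℤ) = (n : ℤ)) := by exact_mod_cast h
    simp [h, this]

/-- multiplication by a Laurent series, as an `A`-linear map -/
noncomputable def mulL1 (c : LaurentSeries A) : LaurentSeries A →ₗ[A] LaurentSeries A where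
  toFun l := c * l
  map_add' := mul_add c
  map_smul' a l := by
    simp only [RingHom.id_apply]
    rw [← HahnSeries.C_mul_eq_smul, ← HahnSeries.C_mul_eq_smul]
    ring

@[simp]
theorem mulL1_apply (c l : LaurentSeries A) : mulL1 c l = c * l := rfl

/-- `𝔞 • ⊤` is an ideal of `LaurentSeries A`. -/
theorem mul_mem_smul_top1 (𝔞 : Ideal A) {x : LaurentSeries A}
    (hx : x ∈ 𝔞 • (⊤ : Submodule A (LaurentSeries A))) (y : LaurentSeries A) :
    x * y ∈ 𝔞 • (⊤ : Submodule A (LaurentSeries A)) := by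
  have := map_mem_smul_top 𝔞 (mulL1 y) hx
  rwa [mulL1_apply, mul_comm] at this

/-- `C a * y ∈ 𝔞 • ⊤` for `a ∈ 𝔞`. -/
theorem C_mul_mem_smul_top (𝔞 : Ideal A) {a : A} (ha : a ∈ 𝔞) (y : LaurentSeries A) :
    HahnSeries.C a * y ∈ 𝔞 • (⊤ : Submodule A (LaurentSeries A)) := by
  rw [HahnSeries.C_mul_eq_smul]
  exact Submodule.smul_mem_smul ha Submodule.mem_top

/-- `C a ∈ 𝔞 • ⊤` for `a ∈ 𝔞`. -/
theorem C_mem_smul_top (𝔞 : Ideal A) {a : A} (ha : a ∈ 𝔞) :
    (HahnSeries.C a : LaurentSeries A) ∈ 𝔞 • (⊤ : Submodule A (LaurentSeries A)) := by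
  have := C_mul_mem_smul_top 𝔞 ha (1 : LaurentSeries A)
  rwa [mul_one] at this

/-- an element `≡ 1 mod 𝔞` of `LaurentSeries A` is a unit (`𝔞` nilpotent) -/
theorem isUnit_of_sub_one_mem_smul_top {𝔞 : Ideal A} (h𝔞 : IsNilpotent 𝔞) {x : LaurentSeries A}
    (hx : x - 1 ∈ 𝔞 • (⊤ : Submodule A (LaurentSeries A))) : IsUnit x := by
  have hN : IsNilpotent (mulL1 (x - 1)) := by
    apply isNilpotent_of_forall_mem 𝔞 h𝔞
    intro l
    rw [mulL1_apply]
    exact mul_mem_smul_top1 𝔞 hx l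
  obtain ⟨s, hs⟩ := hN
  have hpow : ∀ k : ℕ, ∀ l : LaurentSeries A, ((mulL1 (x - 1)) ^ k) l = (x - 1) ^ k * l := by
    intro k
    induction k with
    | zero => intro l; simp
    | succ k ih =>
      intro l
      rw [pow_succ, Module.End.mul_apply, ih, mulL1_apply, pow_succ]
      ring
  have hnil : IsNilpotent (x - 1) := by
    refine ⟨s, ?_⟩
    have := hpow s 1
    rw [hs, mul_one] at this
    simpa using this.symm
  have := hnil.isUnit_add_one
  simpa using this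

/-- the inverse of an element `≡ 1 mod 𝔞` is `≡ 1 mod 𝔞` -/
theorem inv_sub_one_mem_smul_top {𝔞 : Ideal A} {x y : LaurentSeries A}
    (hx : x - 1 ∈ 𝔞 • (⊤ : Submodule A (LaurentSeries A))) (hxy : x * y = 1) :
    y - 1 ∈ 𝔞 • (⊤ : Submodule A (LaurentSeries A)) := by
  have h : y - 1 = (x - 1) * (-y) := by
    have : (x - 1) * (-y) = -(x * y) + y := by ring
    rw [this, hxy]; ring
  rw [h]
  exact mul_mem_smul_top1 𝔞 hx _

variable [Finite ι] (𝔞 : Ideal A) (n : ι → ℕ) (b : ι × ℕ → ι → LaurentSeries A)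
  (U : ι → LaurentSeries A)

/-- the solution satisfies `t ^ (-n) * w ≡ 1 mod 𝔞` -/
theorem rhf_congr_laurent
    (hb : ∀ j, pol n (b j) = Finsupp.single j 1)
    (hU : cTuple n U - 1 ∈ 𝔞 • (⊤ : Submodule A (ι → LaurentSeries A)))
    (p : (ι × ℕ →₀ A) × (ι → PowerSeries A))
    (hp : ∀ x, 1 + beta b p.1 x = U x * HahnSeries.ofPowerSeries ℤ A (p.2 x)) (x : ι) :
    tpow A (-(n x : ℤ)) * HahnSeries.ofPowerSeries ℤ A (p.2 x) - 1
      ∈ 𝔞 • (⊤ : Submodule A (LaurentSeries A)) := by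
  set l := ofPair n b p with hldef
  have hΨ : Psi n b U l = 1 := by
    rw [hldef, Psi_ofPair n b U hb]
    funext x
    have := hp x
    simp only [Pi.sub_apply, Pi.one_apply]
    rw [← this]; ring
  have hl1 : l - 1 ∈ 𝔞 • (⊤ : Submodule A (ι → LaurentSeries A)) := by
    have := preimage_sub_mem 𝔞 (LinearEquiv.refl A _) (Psi n b U) (Psi_sub_mem 𝔞 n b U hU) l
    rw [hΨ] at this
    simpa using this
  have h1 : rem n b (l - 1) ∈ 𝔞 • (⊤ : Submodule A (ι → LaurentSeries A)) :=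
    map_mem_smul_top 𝔞 (rem n b) hl1
  have h2 : rem n b (1 : ι → LaurentSeries A) = 1 := by
    simp [rem, pol_one]
  rw [map_sub, h2, hldef, rem_ofPair n b hb] at h1
  have h3 := pi_apply_mem_of_mem_smul_top 𝔞 h1 x
  simpa only [Pi.sub_apply, Pi.one_apply] using h3

/-- **`𝔞`-adic form of the congruence**: `w x - X ^ n x ∈ 𝔞 • ⊤`. -/
theorem rhf_congr_smul_top
    (hb : ∀ j, pol n (b j) = Finsupp.single j 1)
    (hU : cTuple n U - 1 ∈ 𝔞 • (⊤ : Submodule A (ι → LaurentSeries A)))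
    (p : (ι × ℕ →₀ A) × (ι → PowerSeries A))
    (hp : ∀ x, 1 + beta b p.1 x = U x * HahnSeries.ofPowerSeries ℤ A (p.2 x)) (x : ι) :
    p.2 x - PowerSeries.X ^ n x ∈ 𝔞 • (⊤ : Submodule A (PowerSeries A)) := by
  have h := rhf_congr_laurent 𝔞 n b U hb hU p hp x
  have h' := map_mem_smul_top 𝔞 (psPart ∘ₗ mulL1 (tpow A (n x : ℤ))) h
  have e : (psPart ∘ₗ mulL1 (tpow A (n x : ℤ)))
      (tpow A (-(n x : ℤ)) * HahnSeries.ofPowerSeries ℤ A (p.2 x) - 1)
      = p.2 x - PowerSeries.X ^ n x := by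
    rw [LinearMap.comp_apply, mulL1_apply, mul_sub, ← mul_assoc, tpow_mul_tpow_neg, one_mul,
      mul_one, map_sub, psPart_coe, psPart_tpow]
  rwa [e] at h'

end adic

section lmap

variable {A A' A'' : Type*} [CommRing A] [CommRing A'] [CommRing A''] (φ : A →+* A')
  {ι : Type*}

/-- coefficientwise map of Laurent series, as a ring homomorphism -/
noncomputable def lmap : LaurentSeries A →+* LaurentSeries A' where
  toFun l := l.map φ
  map_one' := by
    ext g
    simp only [HahnSeries.map_coeff, HahnSeries.coeff_one]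
    split_ifs <;> simp
  map_mul' x y := by
    have h := HahnSeries.map_mul (φ.toNonUnitalRingHom) (x := x) (y := y)
    exact h
  map_zero' := by ext g; simp
  map_add' x y := by ext g; simp

@[simp]
theorem coeff_lmap (l : LaurentSeries A) (g : ℤ) : (lmap φ l).coeff g = φ (l.coeff g) := rfl

@[simp]
theorem lmap_tpow (m : ℤ) : lmap φ (tpow A m) = tpow A' m := by
  ext g
  rw [coeff_lmap, tpow, tpow, HahnSeries.coeff_single, HahnSeries.coeff_single]
  split_ifs <;> simp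

@[simp]
theorem lmap_C (a : A) : lmap φ (HahnSeries.C a) = HahnSeries.C (φ a) := by
  ext g
  rw [coeff_lmap, HahnSeries.C_apply, HahnSeries.C_apply, HahnSeries.coeff_single,
    HahnSeries.coeff_single]
  split_ifs <;> simp

theorem lmap_smul (a : A) (l : LaurentSeries A) : lmap φ (a • l) = φ a • lmap φ l := by
  ext g; simp

@[simp]
theorem lmap_ofPowerSeries (w : PowerSeries A) :
    lmap φ (HahnSeries.ofPowerSeries ℤ A w)
      = HahnSeries.ofPowerSeries ℤ A' (PowerSeries.map φ w) := by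
  ext g
  rw [coeff_lmap, PowerSeries.coeff_coe, PowerSeries.coeff_coe]
  split_ifs <;> simp

theorem lmap_comp (ψ : A' →+* A'') (l : LaurentSeries A) :
    lmap ψ (lmap φ l) = lmap (ψ.comp φ) l := by
  ext g; simp

theorem lmap_id (l : LaurentSeries A) : lmap (RingHom.id A) l = l := by
  ext g; simp

theorem pol_lmap [Finite ι] (n : ι → ℕ) (l : ι → LaurentSeries A) :
    pol n (fun x => lmap φ (l x)) = Finsupp.mapRange φ (map_zero φ) (pol n l) := by
  ext ⟨x, k⟩
  simp [pol_apply]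

theorem pol_lmap_single [Finite ι] (n : ι → ℕ) (b : ι × ℕ → ι → LaurentSeries A)
    (hb : ∀ j, pol n (b j) = Finsupp.single j 1) (j : ι × ℕ) :
    pol n (fun y => lmap φ (b j y)) = Finsupp.single j 1 := by
  rw [pol_lmap, hb j, Finsupp.mapRange_single, map_one]

theorem lmap_beta (b : ι × ℕ → ι → LaurentSeries A) (ω : ι × ℕ →₀ A) (x : ι) :
    lmap φ (beta b ω x)
      = beta (fun j y => lmap φ (b j y)) (Finsupp.mapRange φ (map_zero φ) ω) x := by
  induction ω using Finsupp.induction_linear with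
  | zero => simp
  | add f g hf hg =>
    rw [map_add, Pi.add_apply, map_add, hf, hg, Finsupp.mapRange_add (map_add φ), map_add,
      Pi.add_apply]
  | single j a =>
    rw [Finsupp.mapRange_single, beta, beta, Finsupp.linearCombination_single,
      Finsupp.linearCombination_single, Pi.smul_apply, Pi.smul_apply, lmap_smul]

/-- **Base change**: the image of a solution is a solution. -/
theorem rhf_map (b : ι × ℕ → ι → LaurentSeries A) (U : ι → LaurentSeries A)
    (p : (ι × ℕ →₀ A) × (ι → PowerSeries A))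
    (hp : ∀ x, 1 + beta b p.1 x = U x * HahnSeries.ofPowerSeries ℤ A (p.2 x)) (x : ι) :
    1 + beta (fun j y => lmap φ (b j y)) (Finsupp.mapRange φ (map_zero φ) p.1) x
      = lmap φ (U x) * HahnSeries.ofPowerSeries ℤ A' (PowerSeries.map φ (p.2 x)) := by
  have := congrArg (lmap φ) (hp x)
  rw [map_add, map_one, lmap_beta, map_mul, lmap_ofPowerSeries] at this
  exact this

/-- **Base change + uniqueness**: any solution of the mapped problem is the image of the
solution. -/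
theorem rhf_map_unique [Finite ι] (𝔞' : Ideal A') (h𝔞' : IsNilpotent 𝔞') (n : ι → ℕ)
    (b : ι × ℕ → ι → LaurentSeries A) (U : ι → LaurentSeries A)
    (hb : ∀ j, pol n (b j) = Finsupp.single j 1)
    (hU' : cTuple n (fun x => lmap φ (U x)) - 1
      ∈ 𝔞' • (⊤ : Submodule A' (ι → LaurentSeries A')))
    (p : (ι × ℕ →₀ A) × (ι → PowerSeries A))
    (hp : ∀ x, 1 + beta b p.1 x = U x * HahnSeries.ofPowerSeries ℤ A (p.2 x))
    (p' : (ι × ℕ →₀ A') × (ι → PowerSeries A'))
    (hp' : ∀ x, 1 + beta (fun j y => lmap φ (b j y)) p'.1 x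
      = lmap φ (U x) * HahnSeries.ofPowerSeries ℤ A' (p'.2 x)) :
    p'.1 = Finsupp.mapRange φ (map_zero φ) p.1 ∧ ∀ x, p'.2 x = PowerSeries.map φ (p.2 x) := by
  obtain ⟨q, -, hq⟩ := exists_unique_rhf 𝔞' n (fun j y => lmap φ (b j y))
    (fun x => lmap φ (U x)) h𝔞' (pol_lmap_single φ n b hb) hU'
  have h1 := hq p' hp'
  have h2 := hq (Finsupp.mapRange φ (map_zero φ) p.1, fun x => PowerSeries.map φ (p.2 x))
    (rhf_map φ b U p hp)
  have h3 : p' = (Finsupp.mapRange φ (map_zero φ) p.1, fun x => PowerSeries.map φ (p.2 x)) :=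
    h1.trans h2.symm
  constructor
  · rw [h3]
  · intro x; rw [h3]

/-- the image of a root is a root -/
theorem root_map (w : PowerSeries A) (ζ : A) (h : (PowerSeries A)ˣ)
    (hζ : w = (PowerSeries.X - PowerSeries.C ζ) * (h : PowerSeries A)) :
    PowerSeries.map φ w = (PowerSeries.X - PowerSeries.C (φ ζ))
      * ((Units.map (PowerSeries.map φ : PowerSeries A →* PowerSeries A') h :
          (PowerSeries A')ˣ) : PowerSeries A') := by
  rw [hζ, map_mul, map_sub, PowerSeries.map_X, PowerSeries.map_C]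
  rfl

end lmap

end Fermat.Agent.W1.RHF


end ZBW1_009_3

/-! ### bundled: `Fermat.Agent.W1.RHFAdd` -/
section ZBW1_009_4

/-!
# W1-RHF: the `V`-form and the truncated formal group law (helper94)

`V`-form of the factorisation (no inverses): `V x ≡ t ^ n x mod 𝔞`; there is a unique pair
`(ω, w)` with `V x * (1 + ∑ ω j • b j) = w x` (`w x` a power series).

Addition: `Vadd z z' x = (t - z x) * (t - z' x) * t⁻¹`, `n = 1`.

**`exists_addPoly`**: for a normalised family `b` over a ring `R` and every `m` there are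
polynomials `F x ∈ R[Z, Z']` such that at EVERY level `(A, 𝔞)` with `𝔞 ^ m = 0` and all
`z, z' ∈ 𝔞` the root of the solution `w x` of the addition problem is `F x (z, z')`.
-/

namespace Fermat.Agent.W1.RHF

open HahnSeries

section vform

variable {A : Type*} [CommRing A] {ι : Type*} [Finite ι] (𝔞 : Ideal A) (n : ι → ℕ)
  (b : ι × ℕ → ι → LaurentSeries A)

/-- a tuple `V ≡ t ^ n mod 𝔞` has an inverse tuple `U` with `U * t ^ n ≡ 1 mod 𝔞` -/
theorem exists_inv_of_sub_tpow_mem (h𝔞 : IsNilpotent 𝔞) (V : ι → LaurentSeries A)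
    (hV : ∀ x, V x - tpow A (n x) ∈ 𝔞 • (⊤ : Submodule A (LaurentSeries A))) :
    ∃ U : ι → LaurentSeries A, (∀ x, V x * U x = 1) ∧
      cTuple n U - 1 ∈ 𝔞 • (⊤ : Submodule A (ι → LaurentSeries A)) := by
  have h1 : ∀ x, V x * tpow A (-(n x : ℤ)) - 1
      ∈ 𝔞 • (⊤ : Submodule A (LaurentSeries A)) := by
    intro x
    have : V x * tpow A (-(n x : ℤ)) - 1 = (V x - tpow A (n x)) * tpow A (-(n x : ℤ)) := by
      rw [sub_mul, tpow_mul_tpow_neg]
    rw [this]
    exact mul_mem_smul_top1 𝔞 (hV x) _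
  have h2 : ∀ x, ∃ y : LaurentSeries A, V x * tpow A (-(n x : ℤ)) * y = 1 := by
    intro x
    obtain ⟨u, hu⟩ := isUnit_of_sub_one_mem_smul_top h𝔞 (h1 x)
    refine ⟨((u⁻¹ : (LaurentSeries A)ˣ) : LaurentSeries A), ?_⟩
    rw [← hu]
    exact u.mul_inv
  choose y hy using h2
  refine ⟨fun x => tpow A (-(n x : ℤ)) * y x, fun x => ?_, ?_⟩
  · rw [← mul_assoc]; exact hy x
  · apply pi_mem_smul_top_of_forall
    intro x
    have e : (cTuple n (fun x => tpow A (-(n x : ℤ)) * y x) - 1) x = y x - 1 := by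
      simp only [Pi.sub_apply, Pi.one_apply, cTuple]
      rw [mul_comm (tpow A (-(n x : ℤ))) (y x), mul_assoc, tpow_neg_mul_tpow, mul_one]
    rw [e]
    exact inv_sub_one_mem_smul_top (h1 x) (hy x)

/-- **Riemann–Hilbert factorisation, `V`-form.** -/
theorem exists_unique_rhfV (h𝔞 : IsNilpotent 𝔞)
    (hb : ∀ j, pol n (b j) = Finsupp.single j 1) (V : ι → LaurentSeries A)
    (hV : ∀ x, V x - tpow A (n x) ∈ 𝔞 • (⊤ : Submodule A (LaurentSeries A))) :
    ∃! p : (ι × ℕ →₀ A) × (ι → PowerSeries A),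
      ∀ x, V x * (1 + beta b p.1 x) = HahnSeries.ofPowerSeries ℤ A (p.2 x) := by
  obtain ⟨U, hVU, hU⟩ := exists_inv_of_sub_tpow_mem 𝔞 n h𝔞 V hV
  obtain ⟨p, hp, huniq⟩ := exists_unique_rhf 𝔞 n b U h𝔞 hb hU
  have key : ∀ q : (ι × ℕ →₀ A) × (ι → PowerSeries A),
      (∀ x, V x * (1 + beta b q.1 x) = HahnSeries.ofPowerSeries ℤ A (q.2 x)) ↔
      (∀ x, 1 + beta b q.1 x = U x * HahnSeries.ofPowerSeries ℤ A (q.2 x)) := by
    intro q
    constructor
    · intro h x
      rw [← h x, ← mul_assoc, mul_comm (U x), hVU x, one_mul]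
    · intro h x
      rw [h x, ← mul_assoc, hVU x, one_mul]
  exact ⟨p, (key p).2 hp, fun q hq => huniq q ((key q).1 hq)⟩

/-- congruences for the solution in `V`-form -/
theorem rhfV_congr (h𝔞 : IsNilpotent 𝔞)
    (hb : ∀ j, pol n (b j) = Finsupp.single j 1) (V : ι → LaurentSeries A)
    (hV : ∀ x, V x - tpow A (n x) ∈ 𝔞 • (⊤ : Submodule A (LaurentSeries A)))
    (p : (ι × ℕ →₀ A) × (ι → PowerSeries A))
    (hp : ∀ x, V x * (1 + beta b p.1 x) = HahnSeries.ofPowerSeries ℤ A (p.2 x)) :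
    (∀ j, p.1 j ∈ 𝔞) ∧
      ∀ x, p.2 x - PowerSeries.X ^ n x ∈ 𝔞 • (⊤ : Submodule A (PowerSeries A)) := by
  obtain ⟨U, hVU, hU⟩ := exists_inv_of_sub_tpow_mem 𝔞 n h𝔞 V hV
  have hp' : ∀ x, 1 + beta b p.1 x = U x * HahnSeries.ofPowerSeries ℤ A (p.2 x) := by
    intro x
    rw [← hp x, ← mul_assoc, mul_comm (U x), hVU x, one_mul]
  exact ⟨(rhf_congr 𝔞 n b U hb hU p hp').1, rhf_congr_smul_top 𝔞 n b U hb hU p hp'⟩

end vform

section vmap

variable {A A' : Type*} [CommRing A] [CommRing A'] (φ : A →+* A') {ι : Type*}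

/-- base change in `V`-form: the image of a solution is a solution -/
theorem rhfV_map (b : ι × ℕ → ι → LaurentSeries A) (V : ι → LaurentSeries A)
    (p : (ι × ℕ →₀ A) × (ι → PowerSeries A))
    (hp : ∀ x, V x * (1 + beta b p.1 x) = HahnSeries.ofPowerSeries ℤ A (p.2 x)) (x : ι) :
    lmap φ (V x) *
        (1 + beta (fun j y => lmap φ (b j y)) (Finsupp.mapRange φ (map_zero φ) p.1) x)
      = HahnSeries.ofPowerSeries ℤ A' (PowerSeries.map φ (p.2 x)) := by
  have := congrArg (lmap φ) (hp x)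
  rw [map_mul, map_add, map_one, lmap_beta, lmap_ofPowerSeries] at this
  exact this

theorem lmap_sub_tpow_mem (𝔞 : Ideal A) (𝔞' : Ideal A') (h : ∀ a ∈ 𝔞, φ a ∈ 𝔞')
    (l : LaurentSeries A) (hl : l ∈ 𝔞 • (⊤ : Submodule A (LaurentSeries A))) :
    lmap φ l ∈ 𝔞' • (⊤ : Submodule A' (LaurentSeries A')) := by
  refine Submodule.smul_induction_on hl ?_ ?_
  · intro a ha y _
    rw [lmap_smul]
    exact Submodule.smul_mem_smul (h a ha) Submodule.mem_top
  · intro y y' hy hy'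
    rw [map_add]
    exact Submodule.add_mem _ hy hy'

/-- base change + uniqueness in `V`-form -/
theorem rhfV_map_unique [Finite ι] (𝔞' : Ideal A') (h𝔞' : IsNilpotent 𝔞') (n : ι → ℕ)
    (b : ι × ℕ → ι → LaurentSeries A) (V : ι → LaurentSeries A)
    (hb : ∀ j, pol n (b j) = Finsupp.single j 1)
    (hV' : ∀ x, lmap φ (V x) - tpow A' (n x) ∈ 𝔞' • (⊤ : Submodule A' (LaurentSeries A')))
    (p : (ι × ℕ →₀ A) × (ι → PowerSeries A))
    (hp : ∀ x, V x * (1 + beta b p.1 x) = HahnSeries.ofPowerSeries ℤ A (p.2 x))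
    (p' : (ι × ℕ →₀ A') × (ι → PowerSeries A'))
    (hp' : ∀ x, lmap φ (V x) * (1 + beta (fun j y => lmap φ (b j y)) p'.1 x)
      = HahnSeries.ofPowerSeries ℤ A' (p'.2 x)) :
    p'.1 = Finsupp.mapRange φ (map_zero φ) p.1 ∧ ∀ x, p'.2 x = PowerSeries.map φ (p.2 x) := by
  obtain ⟨q, -, hq⟩ := exists_unique_rhfV 𝔞' n (fun j y => lmap φ (b j y)) h𝔞'
    (pol_lmap_single φ n b hb) (fun x => lmap φ (V x)) hV'
  have h1 := hq p' hp'
  have h2 := hq (Finsupp.mapRange φ (map_zero φ) p.1, fun x => PowerSeries.map φ (p.2 x))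
    (rhfV_map φ b V p hp)
  have h3 : p' = (Finsupp.mapRange φ (map_zero φ) p.1, fun x => PowerSeries.map φ (p.2 x)) :=
    h1.trans h2.symm
  constructor
  · rw [h3]
  · intro x; rw [h3]

end vmap

section add

variable {A A' : Type*} [CommRing A] [CommRing A'] {ι : Type*}

/-- the denominators of the addition problem: `(t - z x) * (t - z' x) * t⁻¹` -/
noncomputable def Vadd (z z' : ι → A) (x : ι) : LaurentSeries A :=
  (tpow A 1 - HahnSeries.C (z x)) * (tpow A 1 - HahnSeries.C (z' x)) * tpow A (-1)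

theorem Vadd_sub_mem (𝔞 : Ideal A) (z z' : ι → A) (hz : ∀ x, z x ∈ 𝔞) (hz' : ∀ x, z' x ∈ 𝔞)
    (x : ι) :
    Vadd z z' x - tpow A ((1 : ℕ) : ℤ) ∈ 𝔞 • (⊤ : Submodule A (LaurentSeries A)) := by
  have e : Vadd z z' x - tpow A ((1 : ℕ) : ℤ)
      = HahnSeries.C (z x) * (-1 + HahnSeries.C (z' x) * tpow A (-1))
        + HahnSeries.C (z' x) * (-1) := by
    have h1 : tpow A 1 * tpow A (-1) = 1 := tpow_mul_tpow_neg 1
    have h2 : tpow A ((1 : ℕ) : ℤ) = tpow A 1 := by norm_num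
    rw [h2, Vadd]
    linear_combination (tpow A 1 - HahnSeries.C (z x) - HahnSeries.C (z' x)) * h1
  rw [e]
  exact Submodule.add_mem _ (C_mul_mem_smul_top 𝔞 (hz x) _) (C_mul_mem_smul_top 𝔞 (hz' x) _)

theorem lmap_Vadd (φ : A →+* A') (z z' : ι → A) (x : ι) :
    lmap φ (Vadd z z' x) = Vadd (fun i => φ (z i)) (fun i => φ (z' i)) x := by
  rw [Vadd, Vadd, map_mul, map_mul, map_sub, map_sub, lmap_tpow, lmap_C, lmap_C, lmap_tpow]

end add

section universal

universe u v w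

variable {R : Type u} [CommRing R] {ι : Type w} [Finite ι]

/-- the ideal of the variables -/
noncomputable def varIdeal (R : Type u) [CommRing R] (σ : Type w) : Ideal (MvPolynomial σ R) :=
  Ideal.span (Set.range MvPolynomial.X)

theorem eval₂Hom_mem_of_mem_varIdeal_pow {σ : Type w} {A : Type v} [CommRing A] (φ : R →+* A)
    (𝔞 : Ideal A) (f : σ → A) (hf : ∀ s, f s ∈ 𝔞) (m : ℕ) (a : MvPolynomial σ R)
    (ha : a ∈ varIdeal R σ ^ m) : MvPolynomial.eval₂Hom φ f a ∈ 𝔞 ^ m := by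
  have h1 : Ideal.map (MvPolynomial.eval₂Hom φ f) (varIdeal R σ) ≤ 𝔞 := by
    rw [varIdeal, Ideal.map_span, Ideal.span_le]
    rintro _ ⟨_, ⟨s, rfl⟩, rfl⟩
    simpa using hf s
  have h2 : Ideal.map (MvPolynomial.eval₂Hom φ f) (varIdeal R σ ^ m) ≤ 𝔞 ^ m := by
    rw [Ideal.map_pow]
    exact Ideal.pow_right_mono h1 m
  exact h2 (Ideal.mem_map_of_mem _ ha)

/-- **The truncated formal group law.**  For a normalised family `b` over `R` (`n = 1`) and
`m : ℕ` there are polynomials `F x ∈ R[Z, Z']` such that, at every level `(A, 𝔞)` with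
`𝔞 ^ m = 0` and all `z, z' ∈ 𝔞`, every solution `(ω, w)` of the addition problem
`(t - z x)(t - z' x) t⁻¹ * (1 + ∑ ω j • b j) = w x` has `w x = (X - F x (z, z')) * unit`, and
`F x (z, z')` is the only root of `w x`. -/
theorem exists_addPoly (b : ι × ℕ → ι → LaurentSeries R)
    (hb : ∀ j, pol (fun _ => 1) (b j) = Finsupp.single j 1) (m : ℕ) :
    ∃ F : ι → MvPolynomial (ι ⊕ ι) R,
      ∀ (A : Type v) [CommRing A] (φ : R →+* A) (𝔞 : Ideal A), 𝔞 ^ m = ⊥ →
        ∀ (z z' : ι → A), (∀ i, z i ∈ 𝔞) → (∀ i, z' i ∈ 𝔞) →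
        ∀ (ω : ι × ℕ →₀ A) (w : ι → PowerSeries A),
          (∀ x, Vadd z z' x * (1 + beta (fun j y => lmap φ (b j y)) ω x)
              = HahnSeries.ofPowerSeries ℤ A (w x)) →
          ∀ x, (∃ h : (PowerSeries A)ˣ, w x = (PowerSeries.X
              - PowerSeries.C (MvPolynomial.eval₂ φ (Sum.elim z z') (F x)))
                * (h : PowerSeries A)) ∧
            ∀ (ζ : A) (h : (PowerSeries A)ˣ),
              w x = (PowerSeries.X - PowerSeries.C ζ) * (h : PowerSeries A) →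
              ζ = MvPolynomial.eval₂ φ (Sum.elim z z') (F x) := by
  classical
  -- the universal level
  set P := MvPolynomial (ι ⊕ ι) R with hP
  set I : Ideal P := varIdeal R (ι ⊕ ι) ^ m with hI
  set mk : P →+* P ⧸ I := Ideal.Quotient.mk I with hmk
  set 𝔞S : Ideal (P ⧸ I) := Ideal.map mk (varIdeal R (ι ⊕ ι)) with h𝔞S
  have h𝔞Snil : IsNilpotent 𝔞S := by
    refine ⟨m, ?_⟩
    rw [h𝔞S, ← Ideal.map_pow, ← hI, hmk, Ideal.map_quotient_self]
    rfl
  set φS : R →+* P ⧸ I := mk.comp MvPolynomial.C with hφS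
  set zS : ι → P ⧸ I := fun i => mk (MvPolynomial.X (Sum.inl i)) with hzS
  set zS' : ι → P ⧸ I := fun i => mk (MvPolynomial.X (Sum.inr i)) with hzS'
  have hzSmem : ∀ i, zS i ∈ 𝔞S := fun i =>
    Ideal.mem_map_of_mem _ (Ideal.subset_span ⟨_, rfl⟩)
  have hzSmem' : ∀ i, zS' i ∈ 𝔞S := fun i =>
    Ideal.mem_map_of_mem _ (Ideal.subset_span ⟨_, rfl⟩)
  have hbS := pol_lmap_single φS (fun _ : ι => 1) b hb
  have hVS := Vadd_sub_mem 𝔞S zS zS' hzSmem hzSmem'
  obtain ⟨pS, hpS, -⟩ := exists_unique_rhfV 𝔞S (fun _ : ι => 1)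
    (fun j y => lmap φS (b j y)) h𝔞Snil hbS (Vadd zS zS') hVS
  have hcong := (rhfV_congr 𝔞S (fun _ : ι => 1) (fun j y => lmap φS (b j y)) h𝔞Snil hbS
    (Vadd zS zS') hVS pS hpS).2
  have hroot : ∀ x, ∃ ζ : P ⧸ I, ∃ h : (PowerSeries (P ⧸ I))ˣ,
      pS.2 x = (PowerSeries.X - PowerSeries.C ζ) * (h : PowerSeries (P ⧸ I)) := by
    intro x
    have := hcong x
    rw [pow_one] at this
    obtain ⟨ζ, hζ, -⟩ := exists_unique_root h𝔞Snil (pS.2 x) this
    exact ⟨ζ, hζ⟩
  choose ζS hS hζS using hroot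
  have hlift : ∀ x, ∃ F : P, mk F = ζS x := fun x => Ideal.Quotient.mk_surjective (ζS x)
  choose F hF using hlift
  refine ⟨F, ?_⟩
  intro A _ φ 𝔞 h𝔞m z z' hz hz' ω w hsol x
  have h𝔞nil : IsNilpotent 𝔞 := ⟨m, by rw [h𝔞m]; rfl⟩
  -- the specialisation map
  set ψ : P →+* A := MvPolynomial.eval₂Hom φ (Sum.elim z z') with hψ
  have hker : ∀ a ∈ I, ψ a = 0 := by
    intro a ha
    have := eval₂Hom_mem_of_mem_varIdeal_pow φ 𝔞 (Sum.elim z z')
      (by rintro (i | i) <;> simp [hz, hz']) m a ha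
    rw [h𝔞m] at this
    exact (Ideal.mem_bot.1 this)
  set ψb : P ⧸ I →+* A := Ideal.Quotient.lift I ψ hker with hψb
  have hψbmk : ∀ a : P, ψb (mk a) = ψ a := fun a => Ideal.Quotient.lift_mk I ψ hker
  have hcomp : ψb.comp φS = φ := by
    ext r
    simp only [RingHom.comp_apply, hφS, hψbmk, hψ]
    exact MvPolynomial.eval₂Hom_C _ _ _
  have hzmap : (fun i => ψb (zS i)) = z := by
    funext i
    simp only [hzS, hψbmk, hψ]
    exact MvPolynomial.eval₂Hom_X' _ _ _
  have hzmap' : (fun i => ψb (zS' i)) = z' := by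
    funext i
    simp only [hzS', hψbmk, hψ]
    exact MvPolynomial.eval₂Hom_X' _ _ _
  have hVmap : ∀ y, lmap ψb (Vadd zS zS' y) = Vadd z z' y := by
    intro y
    rw [lmap_Vadd, hzmap, hzmap']
  have hbmap : (fun j y => lmap ψb (lmap φS (b j y))) = fun j y => lmap φ (b j y) := by
    funext j y
    rw [lmap_comp, hcomp]
  have hV' : ∀ y, lmap ψb (Vadd zS zS' y) - tpow A (((fun _ : ι => 1) y : ℕ) : ℤ)
      ∈ 𝔞 • (⊤ : Submodule A (LaurentSeries A)) := by
    intro y
    rw [hVmap]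
    exact Vadd_sub_mem 𝔞 z z' hz hz' y
  have hsol' : ∀ y, lmap ψb (Vadd zS zS' y)
      * (1 + beta (fun j y => lmap ψb (lmap φS (b j y))) (ω, w).1 y)
      = HahnSeries.ofPowerSeries ℤ A ((ω, w).2 y) := by
    intro y
    rw [hVmap, hbmap]
    exact hsol y
  have huniq := rhfV_map_unique ψb 𝔞 h𝔞nil (fun _ : ι => 1) (fun j y => lmap φS (b j y))
    (Vadd zS zS') hbS hV' pS hpS (ω, w) hsol'
  have hw : w x = PowerSeries.map ψb (pS.2 x) := huniq.2 x
  have hζeq : ψb (ζS x) = MvPolynomial.eval₂ φ (Sum.elim z z') (F x) := by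
    rw [← hF x, hψbmk, hψ, MvPolynomial.coe_eval₂Hom]
  have hfac := root_map ψb (pS.2 x) (ζS x) (hS x) (hζS x)
  rw [← hw, hζeq] at hfac
  refine ⟨⟨_, hfac⟩, ?_⟩
  intro ζ h hζ
  have hwc := (rhfV_congr 𝔞 (fun _ : ι => 1) (fun j y => lmap φ (b j y)) h𝔞nil
    (pol_lmap_single φ (fun _ : ι => 1) b hb) (Vadd z z')
    (Vadd_sub_mem 𝔞 z z' hz hz') (ω, w) hsol).2 x
  simp only [pow_one] at hwc
  obtain ⟨ζ₀, -, hζ₀⟩ := exists_unique_root h𝔞nil (w x) hwc
  exact (hζ₀ ζ ⟨h, hζ⟩).trans (hζ₀ _ ⟨_, hfac⟩).symm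

end universal

end Fermat.Agent.W1.RHF


end ZBW1_009_4

/-! ### bundled: `Fermat.Agent.W1.GeoCmpAlg` -/
section ZBW1_009_5

/-!
# W1 GEO-CMP, algebraic part (helper94)

* `rhfV_homog` : a solution `(a, ω, W)` of the homogeneous equation `V * (C a + β ω) = W` is
  `a` times the normalised solution.
* `exists_unit_factor_of_eval` (root criterion): `W ≡ X mod 𝔞`, `𝔞 ^ N = 0`, `ζ ∈ 𝔞`,
  `∑_{m < N} W_m ζ ^ m = 0` ⇒ `W = (X - C ζ) * unit`.
* `descend`: Laurent series over a field with coefficients in a subring.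
-/

namespace Fermat.Agent.W1.RHF

open HahnSeries

section homog

variable {A : Type*} [CommRing A] {ι : Type*} [Finite ι] (𝔞 : Ideal A) (n : ι → ℕ)
  (b : ι × ℕ → ι → LaurentSeries A)

/-- uniqueness for the homogeneous equation without constant term -/
theorem rhfV_homog_zero (h𝔞 : IsNilpotent 𝔞)
    (hb : ∀ j, pol n (b j) = Finsupp.single j 1) (V : ι → LaurentSeries A)
    (hV : ∀ x, V x - tpow A (n x) ∈ 𝔞 • (⊤ : Submodule A (LaurentSeries A)))
    (ω : ι × ℕ →₀ A) (W : ι → PowerSeries A)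
    (h : ∀ x, V x * beta b ω x = HahnSeries.ofPowerSeries ℤ A (W x)) :
    ω = 0 ∧ W = 0 := by
  obtain ⟨p, hp, huniq⟩ := exists_unique_rhfV 𝔞 n b h𝔞 hb V hV
  have h1 : ∀ x, V x * (1 + beta b (p.1 + ω, p.2 + W).1 x)
      = HahnSeries.ofPowerSeries ℤ A ((p.1 + ω, p.2 + W).2 x) := by
    intro x
    simp only [map_add, Pi.add_apply]
    rw [← hp x, ← h x]
    ring
  have h2 := huniq _ h1
  have h3 : p.1 + ω = p.1 := congrArg Prod.fst h2
  have h4 : p.2 + W = p.2 := congrArg Prod.snd h2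
  exact ⟨by simpa using h3, by simpa using h4⟩

/-- a solution of the homogeneous equation is a multiple of the normalised solution -/
theorem rhfV_homog (h𝔞 : IsNilpotent 𝔞)
    (hb : ∀ j, pol n (b j) = Finsupp.single j 1) (V : ι → LaurentSeries A)
    (hV : ∀ x, V x - tpow A (n x) ∈ 𝔞 • (⊤ : Submodule A (LaurentSeries A)))
    (a : A) (ω : ι × ℕ →₀ A) (W : ι → PowerSeries A)
    (h : ∀ x, V x * (HahnSeries.C a + beta b ω x) = HahnSeries.ofPowerSeries ℤ A (W x))
    (p : (ι × ℕ →₀ A) × (ι → PowerSeries A))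
    (hp : ∀ x, V x * (1 + beta b p.1 x) = HahnSeries.ofPowerSeries ℤ A (p.2 x)) :
    ω = a • p.1 ∧ ∀ x, W x = PowerSeries.C a * p.2 x := by
  have hC : ∀ w : PowerSeries A, HahnSeries.ofPowerSeries ℤ A (PowerSeries.C a * w)
      = HahnSeries.C a * HahnSeries.ofPowerSeries ℤ A w := by
    intro w
    rw [map_mul, HahnSeries.ofPowerSeries_C]
  have h1 : ∀ x, V x * beta b (ω - a • p.1) x
      = HahnSeries.ofPowerSeries ℤ A ((fun y => W y - PowerSeries.C a * p.2 y) x) := by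
    intro x
    simp only [map_sub, Pi.sub_apply, map_smul, Pi.smul_apply]
    rw [hC, ← h x, ← hp x, ← HahnSeries.C_mul_eq_smul]
    ring
  obtain ⟨h2, h3⟩ := rhfV_homog_zero 𝔞 n b h𝔞 hb V hV _ _ h1
  refine ⟨sub_eq_zero.1 h2, fun x => ?_⟩
  have := congrFun h3 x
  exact sub_eq_zero.1 this

end homog

section root

variable {A : Type*} [CommRing A]

/-- evaluation of the first `N` terms at `ζ`, as a linear map -/
noncomputable def evTrunc (N : ℕ) (ζ : A) : PowerSeries A →ₗ[A] A where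
  toFun W := ∑ m ∈ Finset.range N, PowerSeries.coeff m W * ζ ^ m
  map_add' W W' := by
    simp only [map_add, add_mul, Finset.sum_add_distrib]
  map_smul' a W := by
    simp only [map_smul, smul_eq_mul, RingHom.id_apply, Finset.mul_sum, mul_assoc]

theorem evTrunc_apply (N : ℕ) (ζ : A) (W : PowerSeries A) :
    evTrunc N ζ W = ∑ m ∈ Finset.range N, PowerSeries.coeff m W * ζ ^ m := rfl

theorem evTrunc_C (N : ℕ) (hN : 0 < N) (ζ a : A) : evTrunc N ζ (PowerSeries.C a) = a := by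
  rw [evTrunc_apply]
  obtain ⟨N, rfl⟩ : ∃ M, N = M + 1 := ⟨N - 1, by omega⟩
  rw [Finset.sum_range_succ']
  simp only [PowerSeries.coeff_C, pow_zero, mul_one, if_true]
  rw [Finset.sum_eq_zero, zero_add]
  intro m _
  simp

/-- `evTrunc` kills the multiples of `X - ζ` when `ζ ^ N = 0` -/
theorem evTrunc_X_sub_C_mul (N : ℕ) (ζ : A) (hζ : ζ ^ N = 0) (q : PowerSeries A) :
    evTrunc N ζ ((PowerSeries.X - PowerSeries.C ζ) * q) = 0 := by
  rw [evTrunc_apply]
  have hc : ∀ m : ℕ, PowerSeries.coeff m ((PowerSeries.X - PowerSeries.C ζ) * q) * ζ ^ m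
      = (if m = 0 then 0 else PowerSeries.coeff (m - 1) q * ζ ^ m)
        - PowerSeries.coeff m q * ζ ^ (m + 1) := by
    intro m
    rw [sub_mul, map_sub, PowerSeries.coeff_C_mul]
    rcases m with _ | m
    · simp only [PowerSeries.coeff_zero_eq_constantCoeff, map_mul,
        PowerSeries.constantCoeff_X, zero_mul, if_true]
      ring
    · rw [PowerSeries.coeff_succ_X_mul]
      simp only [Nat.succ_ne_zero, if_false, Nat.add_sub_cancel]
      ring
  rw [Finset.sum_congr rfl fun m _ => hc m, Finset.sum_sub_distrib]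
  rcases N with _ | N
  · simp
  · rw [Finset.sum_range_succ', Finset.sum_range_succ _ N]
    simp only [if_true, Nat.succ_ne_zero, if_false, Nat.add_sub_cancel, add_zero]
    rw [hζ]
    simp

/-- **Root criterion.** -/
theorem exists_unit_factor_of_eval {𝔞 : Ideal A} (h𝔞 : IsNilpotent 𝔞) (N : ℕ) (hN : 0 < N)
    (W : PowerSeries A) (hW : W - PowerSeries.X ∈ 𝔞 • (⊤ : Submodule A (PowerSeries A)))
    (ζ : A) (hζ𝔞 : ζ ∈ 𝔞) (hζN : ζ ^ N = 0) (hev : evTrunc N ζ W = 0) :
    ∃ h : (PowerSeries A)ˣ, W = (PowerSeries.X - PowerSeries.C ζ) * (h : PowerSeries A) := by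
  -- divide `W` by `w := X - C ζ`
  have hw : (PowerSeries.X - PowerSeries.C ζ : PowerSeries A) - PowerSeries.X ^ 1
      ∈ 𝔞 • (⊤ : Submodule A (PowerSeries A)) := by
    have e : (PowerSeries.X - PowerSeries.C ζ : PowerSeries A) - PowerSeries.X ^ 1
        = (-ζ) • (1 : PowerSeries A) := by
      rw [pow_one, sub_sub_cancel_left]
      ext m
      simp [PowerSeries.coeff_C, PowerSeries.coeff_one]
    rw [e]
    exact Submodule.smul_mem_smul (𝔞.neg_mem hζ𝔞) Submodule.mem_top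
  obtain ⟨⟨q, r⟩, ⟨hdeg, heq⟩, -⟩ := weierstrass_division h𝔞 1 _ hw W
  simp only at hdeg heq
  have hr : r = Polynomial.C (r.coeff 0) := by
    apply Polynomial.eq_C_of_degree_le_zero
    by_cases h0 : r = 0
    · simp [h0]
    · exact Polynomial.degree_le_of_natDegree_le
        (Nat.le_of_lt_succ ((Polynomial.natDegree_lt_iff_degree_lt h0).2 (by simpa using hdeg)))
  have hrc : (r : PowerSeries A) = PowerSeries.C (r.coeff 0) := by
    conv_lhs => rw [hr]
    simp
  -- the remainder vanishes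
  have hr0 : r.coeff 0 = 0 := by
    have h1 := congrArg (evTrunc N ζ) heq
    rw [hev, map_add, evTrunc_X_sub_C_mul N ζ hζN, hrc, evTrunc_C N hN, zero_add] at h1
    exact h1.symm
  rw [hrc, hr0, map_zero, add_zero] at heq
  -- the quotient is a unit
  obtain ⟨hq, -⟩ := weierstrass_division_congr 1 _ hw W q r hdeg
    (by rw [hrc, hr0, map_zero, add_zero]; exact heq)
  have hq1 : q - 1 ∈ 𝔞 • (⊤ : Submodule A (PowerSeries A)) := by
    have h2 : hi 1 W - 1 ∈ 𝔞 • (⊤ : Submodule A (PowerSeries A)) := by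
      have := map_mem_smul_top 𝔞 (hi 1) hW
      rwa [map_sub, hi_one_X] at this
    have : q - 1 = (q - hi 1 W) + (hi 1 W - 1) := by ring
    rw [this]
    exact Submodule.add_mem _ hq h2
  have hqu : IsUnit q := isUnit_of_sub_one_mem h𝔞 hq1
  exact ⟨hqu.unit, by rw [heq]; rfl⟩

end root

section descend

variable {K : Type*} [Field K] (A : ValuationSubring K)

/-- a Laurent series over `K` with coefficients in `A`, as a Laurent series over `A` -/
noncomputable def descend (s : LaurentSeries K) (hs : ∀ m, s.coeff m ∈ A) : LaurentSeries A where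
  coeff m := ⟨s.coeff m, hs m⟩
  isPWO_support' := by
    refine s.isPWO_support.mono ?_
    intro m hm
    simp only [Function.mem_support, ne_eq] at hm ⊢
    intro h
    apply hm
    exact Subtype.ext h

@[simp]
theorem coeff_descend (s : LaurentSeries K) (hs : ∀ m, s.coeff m ∈ A) (m : ℤ) :
    ((descend A s hs).coeff m : K) = s.coeff m := rfl

theorem lmap_descend (s : LaurentSeries K) (hs : ∀ m, s.coeff m ∈ A) :
    lmap A.subtype (descend A s hs) = s := by
  ext m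
  rw [coeff_lmap]
  rfl

theorem lmap_subtype_injective : Function.Injective (lmap A.subtype) := by
  intro s s' h
  ext m
  have := congrArg (fun l => l.coeff m) h
  simpa using this

end descend

end Fermat.Agent.W1.RHF


end ZBW1_009_5

/-! ### bundled: `Fermat.Agent.W1.GeoCmpExp` -/
section ZBW1_009_6

/-!
# W1 GEO-CMP, expansions at the centres (helper94)

* `IsExpData C ι` : the expansion maps `ι i : F →+* K((T))` at the centres (from `StmtExpand`).
* `taylor_int` : `StmtTaylorInt` in the form used here.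
* `exists_descend_of_pow` : a function of `O` with bounded poles in the disc has an expansion
  with coefficients in `A`.
* `exists_decomp` : a function of `O` with poles only at the centres is
  `a₀ + Σ ω_j b_j`, `a₀, ω_j ∈ A`.
-/

set_option autoImplicit false

open AlgebraicCurve Module

namespace Fermat.Agent.W1.Cmp

open Fermat.Agent.W1 Fermat.Agent.S24 Fermat.Agent.W1.RHF

variable {K F k Fk : Type} [Field K] [Field F] [Algebra K F] [Field k] [Field Fk] [Algebra k Fk]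
variable {A : ValuationSubring K} {R : PRData K F k Fk A} {g : ℕ} (C : R.Chart g)

theorem place_ord_pow (v : Place K F) (f : F) (m : ℕ) : v.ord (f ^ m) = m * v.ord f := by
  have := v.ord_zpow f (m : ℤ)
  rwa [zpow_natCast] at this

/-- expansion data at the centres of a chart -/
structure IsExpData (ι : Fin g → (F →+* LaurentSeries K)) : Prop where
  expansion : ∀ i f, IsExpansion (C.Q i) (C.tau i) f (ι i f)
  const : ∀ i a, ι i (algebraMap K F a) = HahnSeries.C a
  tau : ∀ i, ι i (C.tau i) = HahnSeries.single 1 1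
  order : ∀ i f, f ≠ 0 → (ι i f).order = (C.Q i).ord f

theorem exists_expData (hX : StmtExpand) (hR : R.IsPR) (hF : IsNiceCurve K F g)
    (hC : C.IsChart) : ∃ ι : Fin g → (F →+* LaurentSeries K), IsExpData C ι := by
  have h : ∀ i : Fin g, ∃ ι : F →+* LaurentSeries K,
      (∀ f, IsExpansion (C.Q i) (C.tau i) f (ι f)) ∧
      (∀ f s, IsExpansion (C.Q i) (C.tau i) f s → s = ι f) ∧
      (∀ a : K, ι (algebraMap K F a) = HahnSeries.C a) ∧
      ι (C.tau i) = HahnSeries.single 1 1 ∧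
      ∀ f, f ≠ 0 → (ι f).order = (C.Q i).ord f := fun i =>
    hX K F (C.Q i) (hF.hres (C.Q i)) (C.tau i) (ord_tau_centre C hR hF.hpd hC i)
  choose ι h1 _ h3 h4 h5 using h
  exact ⟨ι, ⟨h1, h3, h4, h5⟩⟩

variable {C} {ι : Fin g → (F →+* LaurentSeries K)}

theorem tpow_one_pow (B : Type*) [CommRing B] (m : ℕ) : tpow B 1 ^ m = tpow B (m : ℤ) := by
  rw [tpow, HahnSeries.single_pow, one_pow]
  simp

theorem IsExpData.tau_pow (hι : IsExpData C ι) (i : Fin g) (m : ℕ) :
    ι i (C.tau i ^ m) = tpow K (m : ℤ) := by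
  rw [map_pow, hι.tau, ← tpow_one_pow]

/-- `StmtTaylorInt`, in the form used here -/
theorem taylor_int (hT : StmtTaylorInt) (hR : R.IsPR) (hF : IsNiceCurve K F g)
    (hFk : IsNiceCurve k Fk g) (hC : C.IsChart) (hι : IsExpData C ι) (i : Fin g) {f : F}
    (hfO : f ∈ R.O) (hf : f ∈ discRing R (R.r (C.Q i))) :
    ∃ W : PowerSeries ↥A,
      lmap A.subtype (HahnSeries.ofPowerSeries ℤ ↥A W) = ι i f ∧
      ∀ (P : Place K F) (z : K), C.InDisc i P z → ∀ n : ℕ, ∃ y : A,
        HasValueAt P f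
          ((∑ m ∈ Finset.range n, ((PowerSeries.coeff m W : A) : K) * z ^ m) + z ^ n * (y : K)) := by
  obtain ⟨hneg, a, ha, -, hval⟩ := hT K F k Fk A R g hR hF hFk C hC i ⟨f, hfO⟩
    (no_pole_of_mem_discRing hf) (ι i f) (hι.expansion i f)
  refine ⟨PowerSeries.mk a, ?_, ?_⟩
  · ext e
    rw [coeff_lmap, PowerSeries.coeff_coe]
    split_ifs with he
    · rw [map_zero, hneg e he]
    · rw [PowerSeries.coeff_mk]
      have : (e.natAbs : ℤ) = e := Int.natAbs_of_nonneg (by omega)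
      have h2 := ha e.natAbs
      rw [this] at h2
      rw [h2]
      rfl
  · intro P z hP n
    obtain ⟨y, hy⟩ := hval P z hP n
    refine ⟨y, ?_⟩
    simpa only [PowerSeries.coeff_mk] using hy

theorem tau_mem_O (hR : R.IsPR) (hC : C.IsChart) (i : Fin g) : C.tau i ∈ R.O := by
  unfold PRData.Chart.tau
  exact sub_mem (t_mem_O C hC) (hR.algebraMap_mem (C.c i))

theorem tau_mem_discRing (hC : C.IsChart) (i : Fin g) : C.tau i ∈ discRing R (R.r (C.Q i)) := by
  have := tau_sub_mem_discRing C hC i 0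
  simpa using this

/-- a function of `O` with bounded poles in the `i`-th disc has an integral expansion -/
theorem exists_descend_of_pow (hT : StmtTaylorInt) (hR : R.IsPR) (hF : IsNiceCurve K F g)
    (hFk : IsNiceCurve k Fk g) (hC : C.IsChart) (hι : IsExpData C ι) (i : Fin g) {f : F}
    (hfO : f ∈ R.O) (m : ℕ) (hf : C.tau i ^ m * f ∈ discRing R (R.r (C.Q i))) :
    ∃ s : LaurentSeries ↥A, lmap A.subtype s = ι i f := by
  have hO : C.tau i ^ m * f ∈ R.O := mul_mem (pow_mem (tau_mem_O hR hC i) m) hfO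
  obtain ⟨W, hW, -⟩ := taylor_int hT hR hF hFk hC hι i hO hf
  refine ⟨tpow ↥A (-(m : ℤ)) * HahnSeries.ofPowerSeries ℤ ↥A W, ?_⟩
  rw [map_mul, hW, lmap_tpow, map_mul, hι.tau_pow, ← mul_assoc, tpow_neg_mul_tpow, one_mul]

/-- a function with poles only at the centres has bounded poles in each disc -/
theorem exists_pow_tau_mul_mem (hR : R.IsPR) (hpd : HasPrincipalDivisors K F) (hC : C.IsChart)
    (i : Fin g) {f : F} (hf : C.PolesAtCentres f) :
    ∃ m : ℕ, C.tau i ^ m * f ∈ discRing R (R.r (C.Q i)) := by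
  classical
  rcases eq_or_ne f 0 with rfl | hf0
  · exact ⟨0, by simp⟩
  refine ⟨(-(C.Q i).ord f).toNat, ?_⟩
  apply mem_discRing_of_ord
  intro P₀ h₀
  have hτ0 := tau_ne_zero C hR hpd hC i
  rw [Place.ord_mul _ (pow_ne_zero _ hτ0) hf0, place_ord_pow]
  have hτ := disc_ord_eq C hR hpd hC i 0 (C.Q i) (inDisc_centre C hC i) P₀ h₀
  rw [map_zero, sub_zero] at hτ
  rw [hτ]
  split_ifs with h
  · rw [← h]
    have := Int.self_le_toNat (-(C.Q i).ord f)
    omega
  · have : 0 ≤ P₀.ord f := by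
      by_contra hneg
      obtain ⟨i', hi'⟩ := hf P₀ (not_le.1 hneg)
      have : i' = i := hC.inj (by show R.r (C.Q i') = R.r (C.Q i); rw [← hi', h₀])
      exact h (by rw [hi', this])
    omega

/-! ### the normalised family -/

/-- the normalised family, in terms of the expansion maps -/
structure IsBFamily (C : R.Chart g) (ι : Fin g → (F →+* LaurentSeries K))
    (b : Fin g × ℕ → F) : Prop where
  memO : ∀ j, b j ∈ R.O
  poles : ∀ j, C.PolesAtCentres (b j)
  int : ∀ j i m, (ι i (b j)).coeff m ∈ A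
  norm : ∀ j i (k : ℕ), (ι i (b j)).coeff (-((k : ℤ) + 2)) = if j = (i, k) then 1 else 0

theorem exists_bFamily (hB : StmtBFamily) (hR : R.IsPR) (hF : IsNiceCurve K F g)
    (hFk : IsNiceCurve k Fk g) (hOrth : R.Orth) (hC : C.IsChart) (hι : IsExpData C ι) :
    ∃ b : Fin g × ℕ → F, IsBFamily C ι b := by
  obtain ⟨b, h1, h2, h3⟩ := hB K F k Fk A R g hR hF hFk hOrth C hC
  exact ⟨b, ⟨h1, h2, fun j i m => (h3 j i _ (hι.expansion i (b j))).1 m,
    fun j i k => (h3 j i _ (hι.expansion i (b j))).2 k⟩⟩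

variable {b : Fin g × ℕ → F}

/-- the normalised family as Laurent series over `A` -/
noncomputable def bA (hb : IsBFamily C ι b) : Fin g × ℕ → Fin g → LaurentSeries ↥A :=
  fun j i => descend A (ι i (b j)) (hb.int j i)

theorem lmap_bA (hb : IsBFamily C ι b) (j : Fin g × ℕ) (i : Fin g) :
    lmap A.subtype (bA hb j i) = ι i (b j) :=
  lmap_descend A _ _

theorem pol_bA (hb : IsBFamily C ι b) (j : Fin g × ℕ) :
    pol (fun _ => 1) (bA hb j) = Finsupp.single j 1 := by
  classical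
  refine Finsupp.ext fun ⟨x, k⟩ => ?_
  rw [pol_apply, Finsupp.single_apply]
  apply Subtype.ext
  have h1 : (-(((1 : ℕ) : ℤ) + (k : ℤ) + 1)) = -((k : ℤ) + 2) := by push_cast; ring
  rw [h1]
  show (ι x (b j)).coeff (-((k : ℤ) + 2)) = _
  rw [hb.norm j x k]
  split_ifs <;> rfl

theorem iota_sum (hι : IsExpData C ι) (hb : IsBFamily C ι b) (ω : Fin g × ℕ →₀ A)
    (i : Fin g) :
    ι i (ω.sum fun j c => algebraMap K F (c : K) * b j)
      = lmap A.subtype (beta (bA hb) ω i) := by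
  classical
  induction ω using Finsupp.induction_linear with
  | zero => simp
  | add f f' hf hf' =>
    rw [Finsupp.sum_add_index' (by intro j; simp) (by intro j c c'; simp [add_mul]), map_add,
      hf, hf', map_add, Pi.add_apply, map_add]
  | single j c =>
    rw [Finsupp.sum_single_index (by simp), map_mul, hι.const, beta,
      Finsupp.linearCombination_single, Pi.smul_apply, lmap_smul, lmap_bA,
      HahnSeries.C_mul_eq_smul]
    rfl

theorem sum_mem_O (hR : R.IsPR) (hb : IsBFamily C ι b) (ω : Fin g × ℕ →₀ A) :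
    (ω.sum fun j c => algebraMap K F (c : K) * b j) ∈ R.O := by
  rw [Finsupp.sum]
  exact sum_mem fun j _ => mul_mem (hR.algebraMap_mem _) (hb.memO j)

theorem sum_mem_place (hb : IsBFamily C ι b) (ω : Fin g × ℕ →₀ A) (v : Place K F)
    (hv : ∀ i, v ≠ C.Q i) :
    (ω.sum fun j c => algebraMap K F (c : K) * b j) ∈ v.toValuationSubring := by
  rw [Finsupp.sum]
  refine sum_mem fun j _ => mul_mem (v.algebraMap_mem' _) ?_
  apply ge_mem_of_not_ord_neg
  intro h
  obtain ⟨i, hi⟩ := hb.poles j v h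
  exact hv i hi

/-- a function of `O` with poles only at the centres is `a₀ + Σ ω_j b_j` with `a₀, ω_j ∈ A` -/
theorem exists_decomp (hT : StmtTaylorInt) (hR : R.IsPR) (hF : IsNiceCurve K F g)
    (hFk : IsNiceCurve k Fk g) (hOrth : R.Orth) (hC : C.IsChart) (hι : IsExpData C ι)
    (hb : IsBFamily C ι b) {f : F} (hfO : f ∈ R.O) (hf : C.PolesAtCentres f) :
    ∃ (a₀ : A) (ω : Fin g × ℕ →₀ A),
      f = algebraMap K F (a₀ : K) + ω.sum fun j c => algebraMap K F (c : K) * b j := by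
  classical
  have hs : ∀ i, ∃ s : LaurentSeries ↥A, lmap A.subtype s = ι i f := by
    intro i
    obtain ⟨m, hm⟩ := exists_pow_tau_mul_mem hR hF.hpd hC i hf
    exact exists_descend_of_pow hT hR hF hFk hC hι i hfO m hm
  choose s hs using hs
  set ω : Fin g × ℕ →₀ A := pol (fun _ => 1) s with hω
  set f₀ : F := f - ω.sum (fun j c => algebraMap K F (c : K) * b j) with hf₀
  have hf₀O : f₀ ∈ R.O := sub_mem hfO (sum_mem_O hR hb ω)
  have hf₀p : C.PolesAtCentres f₀ := by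
    intro v hv
    by_contra hcon
    rw [not_exists] at hcon
    have h1 : f ∈ v.toValuationSubring := by
      apply ge_mem_of_not_ord_neg
      intro h
      obtain ⟨i, hi⟩ := hf v h
      exact hcon i hi
    have h2 := sum_mem_place hb ω v hcon
    have := ge_ord_nonneg_of_mem v (sub_mem h1 h2)
    rw [← hf₀] at this
    omega
  have hιf₀ : ∀ i, ι i f₀ = lmap A.subtype ((s - beta (bA hb) ω) i) := by
    intro i
    rw [hf₀, map_sub, iota_sum hι hb, Pi.sub_apply, map_sub, hs]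
  have hpol : pol (fun _ => 1) (s - beta (bA hb) ω) = 0 := by
    rw [map_sub, pol_beta _ _ (pol_bA hb), ← hω, sub_self]
  have hcoeff : ∀ i (k : ℕ), (ι i f₀).coeff (-((k : ℤ) + 2)) = 0 := by
    intro i k
    rw [hιf₀, coeff_lmap]
    have := DFunLike.congr_fun hpol (i, k)
    rw [pol_apply] at this
    have h1 : (-(((1 : ℕ) : ℤ) + (k : ℤ) + 1)) = -((k : ℤ) + 2) := by push_cast; ring
    rw [h1] at this
    rw [this]
    simp
  have hord : ∀ i, -1 ≤ (C.Q i).ord f₀ := by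
    intro i
    rcases eq_or_ne f₀ 0 with h0 | h0
    · rw [h0, Place.ord_zero]; norm_num
    · rw [← hι.order i f₀ h0]
      by_contra hlt
      have hne : ι i f₀ ≠ 0 := fun h => h0 ((map_eq_zero (ι i)).1 h)
      have h2 : (ι i f₀).coeff (ι i f₀).order ≠ 0 := fun h =>
        hne (HahnSeries.coeff_order_eq_zero.1 h)
      set e := (ι i f₀).order with he
      have h3 : e = -(((-e - 2).toNat : ℤ) + 2) := by
        have : 0 ≤ -e - 2 := by omega
        rw [Int.toNat_of_nonneg this]; ring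
      rw [h3] at h2
      exact h2 (hcoeff i _)
  obtain ⟨a, ha⟩ := rr_chart_eq_const C hOrth hC (mem_rr_chartDiv C hf₀p hord)
  have haA : a ∈ A := by
    rw [← hR.algebraMap_mem_iff, ← ha]
    exact hf₀O
  refine ⟨⟨a, haA⟩, ω, ?_⟩
  show f = algebraMap K F a + _
  rw [← ha, hf₀]
  ring

end Fermat.Agent.W1.Cmp


end ZBW1_009_6

/-! ### bundled: `Fermat.Agent.W1.GeoCmpLevel` -/
section ZBW1_009_7

/-!
# W1 GEO-CMP, the level argument (helper94)

Pure algebra over a local ring `𝒜` (in the application the valuation ring `A ⊂ ℚ̄`).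

**`exists_addPoly_local`**: for a normalised family `b` over `𝒜` and `n ≥ 1` there are
polynomials `Φ x ∈ 𝒜[Z, Z']` such that for every `ϖ ∈ 𝔪` and all data
`z, z' ∈ ϖ 𝒜`, `ζ ∈ 𝔪`, `a₀`, `ω`, `W x ∈ 𝒜⟦T⟧`, `H x ∈ 𝒜((T))` with

* `W x * T = (a₀ + ∑ ω j • b j) * (T - z x) * (T - z' x) + ϖ ^ n * H x`  ("level equation"),
* `∑_{m < N} (W x)_m ζ_x ^ m ∈ ζ_x ^ N 𝒜` for all `N`  ("`W x` vanishes at `ζ x`"),
* `a₀` and the `ω j` are not all in `𝔪`,

one has `ζ x ≡ Φ x (z, z') mod ϖ ^ n`.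
-/

namespace Fermat.Agent.W1.RHF

open HahnSeries

universe u w

theorem exists_addPoly_local {𝒜 : Type u} [CommRing 𝒜] [IsLocalRing 𝒜] {ι : Type w} [Finite ι]
    (b : ι × ℕ → ι → LaurentSeries 𝒜)
    (hb : ∀ j, pol (fun _ => 1) (b j) = Finsupp.single j 1) (n : ℕ) (hn : 0 < n) :
    ∃ Φ : ι → MvPolynomial (ι ⊕ ι) 𝒜,
      ∀ (ϖ : 𝒜), ϖ ∈ IsLocalRing.maximalIdeal 𝒜 →
      ∀ (z z' ζ : ι → 𝒜), (∀ i, ϖ ∣ z i) → (∀ i, ϖ ∣ z' i) →
        (∀ i, ζ i ∈ IsLocalRing.maximalIdeal 𝒜) →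
      ∀ (a₀ : 𝒜) (ω : ι × ℕ →₀ 𝒜),
        (a₀ ∈ IsLocalRing.maximalIdeal 𝒜 → (∀ j, ω j ∈ IsLocalRing.maximalIdeal 𝒜) → False) →
      ∀ (W : ι → PowerSeries 𝒜) (H : ι → LaurentSeries 𝒜),
        (∀ i, HahnSeries.ofPowerSeries ℤ 𝒜 (W i) * tpow 𝒜 1
            = (HahnSeries.C a₀ + beta b ω i) * (tpow 𝒜 1 - HahnSeries.C (z i))
                * (tpow 𝒜 1 - HahnSeries.C (z' i)) + HahnSeries.C (ϖ ^ n) * H i) →
        (∀ i (N : ℕ), ∃ y : 𝒜,
            ∑ m ∈ Finset.range N, PowerSeries.coeff m (W i) * ζ i ^ m + ζ i ^ N * y = 0) →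
        ∀ i, ϖ ^ n ∣ ζ i - MvPolynomial.eval (Sum.elim z z') (Φ i) := by
  classical
  obtain ⟨Φ, hΦ⟩ := exists_addPoly.{u, u, w} b hb n
  refine ⟨Φ, ?_⟩
  intro ϖ hϖ z z' ζ hz hz' hζ a₀ ω hunit W H heq htaylor i
  -- the level ring
  set I : Ideal 𝒜 := Ideal.span {ϖ ^ n} with hI
  set mk : 𝒜 →+* 𝒜 ⧸ I := Ideal.Quotient.mk I with hmk
  set 𝔞 : Ideal (𝒜 ⧸ I) := Ideal.map mk (Ideal.span {ϖ}) with h𝔞
  have hmk0 : ∀ x : 𝒜, mk x = 0 ↔ ϖ ^ n ∣ x := by
    intro x
    rw [hmk, Ideal.Quotient.eq_zero_iff_mem, hI, Ideal.mem_span_singleton]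
  have h𝔞n : 𝔞 ^ n = ⊥ := by
    rw [h𝔞, ← Ideal.map_pow, Ideal.span_singleton_pow, ← hI, hmk, Ideal.map_quotient_self]
  have h𝔞nil : IsNilpotent 𝔞 := ⟨n, by rw [h𝔞n]; rfl⟩
  have hmem𝔞 : ∀ x : 𝒜, mk x ∈ 𝔞 ↔ ϖ ∣ x := by
    intro x
    rw [h𝔞, hmk, Ideal.mem_quotient_iff_mem_sup, hI]
    have hsup : Ideal.span {ϖ} ⊔ Ideal.span {ϖ ^ n} = Ideal.span ({ϖ} : Set 𝒜) := by
      apply sup_eq_left.2
      rw [Ideal.span_singleton_le_span_singleton]
      exact dvd_pow_self ϖ (by omega)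
    rw [hsup, Ideal.mem_span_singleton]
  have hspan_le : ∀ x : 𝒜, ϖ ∣ x → x ∈ IsLocalRing.maximalIdeal 𝒜 := by
    rintro x ⟨c, rfl⟩
    exact Ideal.mul_mem_right _ _ hϖ
  set zb : ι → 𝒜 ⧸ I := fun i => mk (z i) with hzb
  set zb' : ι → 𝒜 ⧸ I := fun i => mk (z' i) with hzb'
  have hzbmem : ∀ i, zb i ∈ 𝔞 := fun i => (hmem𝔞 _).2 (hz i)
  have hzbmem' : ∀ i, zb' i ∈ 𝔞 := fun i => (hmem𝔞 _).2 (hz' i)
  set bb : ι × ℕ → ι → LaurentSeries (𝒜 ⧸ I) := fun j y => lmap mk (b j y) with hbb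
  have hbbn := pol_lmap_single mk (fun _ : ι => 1) b hb
  set ωb : ι × ℕ →₀ 𝒜 ⧸ I := Finsupp.mapRange mk (map_zero mk) ω with hωb
  set Wb : ι → PowerSeries (𝒜 ⧸ I) := fun x => PowerSeries.map mk (W x) with hWb
  have hVsub := Vadd_sub_mem 𝔞 zb zb' hzbmem hzbmem'
  -- the level equation over `Λ`
  have heqb : ∀ x, Vadd zb zb' x * (HahnSeries.C (mk a₀) + beta bb ωb x)
      = HahnSeries.ofPowerSeries ℤ (𝒜 ⧸ I) (Wb x) := by
    intro x
    have h1 := congrArg (lmap mk) (heq x)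
    rw [map_mul, lmap_ofPowerSeries, lmap_tpow, map_add, map_mul, map_mul, map_add, lmap_C,
      lmap_beta, map_sub, map_sub, lmap_tpow, lmap_C, lmap_C, map_mul, lmap_C,
      (hmk0 (ϖ ^ n)).2 dvd_rfl, map_zero, zero_mul, add_zero] at h1
    have h2 : tpow (𝒜 ⧸ I) 1 * tpow (𝒜 ⧸ I) (-1) = 1 := tpow_mul_tpow_neg 1
    have h3 : HahnSeries.ofPowerSeries ℤ (𝒜 ⧸ I) (Wb x)
        = HahnSeries.ofPowerSeries ℤ (𝒜 ⧸ I) (Wb x) * tpow (𝒜 ⧸ I) 1 * tpow (𝒜 ⧸ I) (-1) := by
      rw [mul_assoc, h2, mul_one]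
    rw [h3, hWb]
    simp only
    rw [h1, Vadd]
    ring
  -- the normalised solution
  obtain ⟨p, hp, -⟩ := exists_unique_rhfV 𝔞 (fun _ : ι => 1) bb h𝔞nil hbbn (Vadd zb zb') hVsub
  obtain ⟨hω, hW⟩ := rhfV_homog 𝔞 (fun _ : ι => 1) bb h𝔞nil hbbn (Vadd zb zb') hVsub
    (mk a₀) ωb Wb heqb p hp
  obtain ⟨hp1, hp2⟩ := rhfV_congr 𝔞 (fun _ : ι => 1) bb h𝔞nil hbbn (Vadd zb zb') hVsub p hp
  -- `a₀` is a unit
  have ha₀ : IsUnit a₀ := by
    by_contra hnu
    have ha₀m : a₀ ∈ IsLocalRing.maximalIdeal 𝒜 := (IsLocalRing.mem_maximalIdeal _).2 hnu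
    apply hunit ha₀m
    intro j
    have h1 : mk (ω j) = mk a₀ * p.1 j := by
      have := DFunLike.congr_fun hω j
      rw [hωb, Finsupp.mapRange_apply] at this
      rw [this, Finsupp.smul_apply, smul_eq_mul]
    obtain ⟨c, hc⟩ := Ideal.Quotient.mk_surjective (p.1 j)
    have h2 : mk (ω j - a₀ * c) = 0 := by
      rw [map_sub, map_mul, h1, ← hc, sub_self]
    have h3 := (hmk0 _).1 h2
    have h4 : ω j - a₀ * c ∈ IsLocalRing.maximalIdeal 𝒜 :=
      hspan_le _ (dvd_trans (dvd_pow_self ϖ (by omega)) h3)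
    have h5 : a₀ * c ∈ IsLocalRing.maximalIdeal 𝒜 := Ideal.mul_mem_right _ _ ha₀m
    have := Ideal.add_mem _ h4 h5
    simpa using this
  have ha₀b : IsUnit (mk a₀) := ha₀.map mk
  obtain ⟨u, hu⟩ := ha₀b
  -- coefficients of `W i`
  have hcoeffW : ∀ m : ℕ, mk (PowerSeries.coeff m (W i))
      = mk a₀ * PowerSeries.coeff m (p.2 i) := by
    intro m
    have := congrArg (PowerSeries.coeff m) (hW i)
    rw [hWb] at this
    simp only [PowerSeries.coeff_map, PowerSeries.coeff_C_mul] at this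
    exact this
  have hp2c : ∀ m : ℕ, PowerSeries.coeff m (p.2 i) - (if m = 1 then 1 else 0) ∈ 𝔞 := by
    intro m
    have := coeff_mem_of_mem_smul_top' 𝔞 (hp2 i) m
    rw [map_sub, pow_one, PowerSeries.coeff_X] at this
    exact this
  -- `W_0 ∈ ϖ 𝒜`
  have hW0 : ϖ ∣ PowerSeries.coeff 0 (W i) := by
    rw [← hmem𝔞, hcoeffW]
    have := hp2c 0
    rw [if_neg (by norm_num), sub_zero] at this
    exact Ideal.mul_mem_left _ _ this
  -- `W_1` is a unit
  have hW1 : IsUnit (PowerSeries.coeff 1 (W i)) := by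
    by_contra hnu
    have h1 : PowerSeries.coeff 1 (W i) ∈ IsLocalRing.maximalIdeal 𝒜 :=
      (IsLocalRing.mem_maximalIdeal _).2 hnu
    have h2 : mk (PowerSeries.coeff 1 (W i) - a₀) ∈ 𝔞 := by
      rw [map_sub, hcoeffW]
      have := hp2c 1
      rw [if_pos rfl] at this
      have e : mk a₀ * PowerSeries.coeff 1 (p.2 i) - mk a₀
          = mk a₀ * (PowerSeries.coeff 1 (p.2 i) - 1) := by ring
      rw [e]
      exact Ideal.mul_mem_left _ _ this
    have h3 := hspan_le _ ((hmem𝔞 _).1 h2)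
    have h4 : a₀ ∈ IsLocalRing.maximalIdeal 𝒜 := by
      have := Ideal.sub_mem _ h1 h3
      simpa using this
    exact (IsLocalRing.mem_maximalIdeal _).1 h4 ha₀
  -- `ζ i ∈ ϖ 𝒜`
  have hζϖ : ϖ ∣ ζ i := by
    obtain ⟨y, hy⟩ := htaylor i 2
    rw [Finset.sum_range_succ, Finset.sum_range_one, pow_zero, mul_one, pow_one] at hy
    have hun : IsUnit (PowerSeries.coeff 1 (W i) + ζ i * y) := by
      by_contra hnu
      have h1 : PowerSeries.coeff 1 (W i) + ζ i * y ∈ IsLocalRing.maximalIdeal 𝒜 :=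
        (IsLocalRing.mem_maximalIdeal _).2 hnu
      have h2 : ζ i * y ∈ IsLocalRing.maximalIdeal 𝒜 := Ideal.mul_mem_right _ _ (hζ i)
      have := Ideal.sub_mem _ h1 h2
      rw [add_sub_cancel_right] at this
      exact (IsLocalRing.mem_maximalIdeal _).1 this hW1
    obtain ⟨v, hv⟩ := hun
    have h3 : ζ i * (v : 𝒜) = -PowerSeries.coeff 0 (W i) := by
      rw [hv]
      linear_combination hy
    have h4 : ζ i = -PowerSeries.coeff 0 (W i) * ((v⁻¹ : 𝒜ˣ) : 𝒜) := by
      rw [← h3, mul_assoc, Units.mul_inv, mul_one]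
    rw [h4]
    exact Dvd.dvd.mul_right ((dvd_neg).2 hW0) _
  have hζ𝔞 : mk (ζ i) ∈ 𝔞 := (hmem𝔞 _).2 hζϖ
  have hζN : mk (ζ i) ^ n = 0 := by
    rw [← map_pow, hmk0]
    exact pow_dvd_pow_of_dvd hζϖ n
  -- the truncated evaluation vanishes
  have hevW : evTrunc n (mk (ζ i)) (Wb i) = 0 := by
    obtain ⟨y, hy⟩ := htaylor i n
    have := congrArg mk hy
    rw [map_add, map_mul, map_pow, hζN, zero_mul, add_zero, map_sum, map_zero] at this
    rw [evTrunc_apply, ← this]
    refine Finset.sum_congr rfl fun m _ => ?_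
    rw [hWb]
    simp only [PowerSeries.coeff_map, map_mul, map_pow]
  have hevp : evTrunc n (mk (ζ i)) (p.2 i) = 0 := by
    have h1 : Wb i = mk a₀ • p.2 i := by
      rw [hW i]
      ext m
      simp [PowerSeries.coeff_C_mul]
    rw [h1, map_smul, smul_eq_mul, ← hu] at hevW
    exact (Units.mul_right_eq_zero u).1 hevW
  have hp2i : p.2 i - PowerSeries.X ∈ 𝔞 • (⊤ : Submodule (𝒜 ⧸ I) (PowerSeries (𝒜 ⧸ I))) := by
    have := hp2 i
    rwa [pow_one] at this
  obtain ⟨h, hh⟩ := exists_unit_factor_of_eval h𝔞nil n hn (p.2 i) hp2i (mk (ζ i)) hζ𝔞 hζN hevp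
  have hfin := (hΦ (𝒜 ⧸ I) mk 𝔞 h𝔞n zb zb' hzbmem hzbmem' p.1 p.2 hp i).2 (mk (ζ i)) h hh
  rw [← hmk0, map_sub, hfin, sub_eq_zero]
  have e1 : (Sum.elim zb zb' : ι ⊕ ι → 𝒜 ⧸ I) = mk ∘ (Sum.elim z z') := by
    funext s
    rcases s with s | s <;> rfl
  rw [e1]
  have := MvPolynomial.eval₂_comp_left mk (RingHom.id 𝒜) (Sum.elim z z') (Φ i)
  rw [RingHom.comp_id] at this
  rw [← this]
  rfl

end Fermat.Agent.W1.RHF


end ZBW1_009_7

/-! ### bundled: `Fermat.Agent.W1.GeoCmp` -/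
section ZBW1_009_8

/-!
# W1 GEO-CMP: the addition law in the coordinates of the chart, modulo `ϖ ^ n` (helper94)

`stmtAddApprox_of : StmtExpand → StmtTaylorInt → StmtBFamily → StmtApprox → StmtAddApprox`.

The polynomials `Φ` are the truncated formal group law of `RHF.exists_addPoly` for the
normalised family `b` (expanded at the centres, coefficients in `A`).  Comparison: for
`[ΣP_i - ΣQ_i] + [ΣP'_i - ΣQ_i] = [ΣP''_i - ΣQ_i]` take `ψ ∈ O^×` with
`div ψ = ΣP''_i + ΣQ_i - ΣP_i - ΣP'_i`; by `StmtApprox`, `ψ ≡ ψ' mod ϖ ^ n O` with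
`ψ' = a₀ + Σ ω_j b_j`; `h_i = ψ (τ_i - z_i)(τ_i - z'_i) / τ_i` has no pole in the `i`-th disc and
vanishes at `P''_i`; its Taylor series `W_i` satisfies the level equation of
`RHF.exists_addPoly_local`.
-/

set_option autoImplicit false

open AlgebraicCurve Module

namespace Fermat.Agent.W1.Cmp

open Fermat.Agent.W1 Fermat.Agent.S24 Fermat.Agent.W1.RHF

variable {K F k Fk : Type} [Field K] [Field F] [Algebra K F] [Field k] [Field Fk] [Algebra k Fk]
variable {A : ValuationSubring K} {R : PRData K F k Fk A} {g : ℕ} {C : R.Chart g}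

/-! ### units and non-units of `O` -/

theorem inv_mem_O (hR : R.IsPR) {u : F} (hu : u ∈ R.O) (hred : R.red ⟨u, hu⟩ ≠ 0) :
    u⁻¹ ∈ R.O := by
  have h1 : u ∉ R.O.nonunits := fun h => hred ((hR.red_eq_zero_iff ⟨u, hu⟩).2 h)
  rw [ValuationSubring.mem_nonunits_iff_or, not_or, not_not] at h1
  exact h1.2

theorem red_inv_ne_zero {u : F} (hu : u ∈ R.O) (hred : R.red ⟨u, hu⟩ ≠ 0)
    (hinv : u⁻¹ ∈ R.O) : R.red ⟨u⁻¹, hinv⟩ ≠ 0 := by
  intro h0
  have hu0 : u ≠ 0 := fun h => hred (by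
    have : (⟨u, hu⟩ : R.O) = 0 := Subtype.ext h
    rw [this, map_zero])
  have h1 : (⟨u, hu⟩ : R.O) * ⟨u⁻¹, hinv⟩ = 1 := Subtype.ext (mul_inv_cancel₀ hu0)
  have h2 := congrArg R.red h1
  rw [map_mul, h0, mul_zero, map_one] at h2
  exact zero_ne_one h2

theorem algebraMap_mem_nonunits (hR : R.IsPR) {x : K} (hx : x ∈ A.nonunits) :
    algebraMap K F x ∈ R.O.nonunits := by
  have hxA : x ∈ A := ge_nonunits_mem hx
  have h1 := hR.red_algebraMap ⟨x, hxA⟩ (hR.algebraMap_mem ⟨x, hxA⟩)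
  rw [(hR.res_eq_zero_iff ⟨x, hxA⟩).2 hx, map_zero] at h1
  exact (hR.red_eq_zero_iff _).1 h1

theorem nonunits_add {B : ValuationSubring F} {x y : F} (hx : x ∈ B.nonunits)
    (hy : y ∈ B.nonunits) : x + y ∈ B.nonunits := by
  rw [ValuationSubring.mem_nonunits_iff_exists_mem_maximalIdeal] at hx hy ⊢
  obtain ⟨hx1, hx2⟩ := hx
  obtain ⟨hy1, hy2⟩ := hy
  exact ⟨add_mem hx1 hy1, (IsLocalRing.maximalIdeal B).add_mem hx2 hy2⟩

theorem pow_mem_nonunits {x : K} (hx : x ∈ A.nonunits) {n : ℕ} (hn : 0 < n) :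
    x ^ n ∈ A.nonunits := by
  obtain ⟨m, rfl⟩ : ∃ m, n = m + 1 := ⟨n - 1, by omega⟩
  rw [pow_succ]
  exact ge_nonunits_mul_mem (pow_mem (ge_nonunits_mem hx) m) hx

theorem red_tau_ne_zero (hR : R.IsPR) (hC : C.IsChart) (i : Fin g) (h : C.tau i ∈ R.O) :
    R.red ⟨C.tau i, h⟩ ≠ 0 := by
  have ht := t_mem_O C hC
  have e : (⟨C.tau i, h⟩ : R.O)
      = ⟨C.t, ht⟩ - ⟨algebraMap K F (C.c i : K), hR.algebraMap_mem (C.c i)⟩ := rfl
  rw [e, map_sub, hR.red_const]
  exact red_sub_ne_zero C hC ht i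

theorem hfun_mem_O (hR : R.IsPR) (hC : C.IsChart) (z z' : Fin g → K) (hz : ∀ i, z i ∈ A)
    (hz' : ∀ i, z' i ∈ A) {ψ : F} (hψ : ψ ∈ R.O) (i : Fin g) : hfun C z z' ψ i ∈ R.O := by
  unfold hfun
  exact mul_mem (mul_mem (mul_mem hψ (tau_sub_mem_O C hR hC i (hz i)))
    (tau_sub_mem_O C hR hC i (hz' i)))
    (inv_mem_O hR (tau_mem_O hR hC i) (red_tau_ne_zero hR hC i _))

/-! ### the main theorem -/

/-- **GEO-CMP**: the addition law of the kernel of reduction in the coordinates of the chart is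
given modulo `ϖ ^ n` by polynomials with coefficients in `A`. -/
theorem stmtAddApprox_of (hX : StmtExpand) (hT : StmtTaylorInt) (hB : StmtBFamily)
    (hAL : StmtApprox) : StmtAddApprox := by
  classical
  intro K F k Fk _ _ _ _ _ _ A R g hR hF hFk hOrth C hC hRep n
  rcases Nat.eq_zero_or_pos n with rfl | hn
  · refine ⟨fun _ => 0, fun i m => by simp [A.zero_mem], ?_⟩
    intro ϖ _ _ P P' P'' z z' ζ _ _ hP'' _ _ _ i
    exact ⟨ζ i, ge_nonunits_mem (hP'' i).2.1, by simp⟩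
  obtain ⟨ι, hι⟩ := exists_expData C hX hR hF hC
  obtain ⟨b, hb⟩ := exists_bFamily hB hR hF hFk hOrth hC hι
  obtain ⟨Φ, hΦ⟩ := exists_addPoly_local (bA hb) (pol_bA hb) n hn
  refine ⟨fun i => MvPolynomial.map A.subtype (Φ i), ?_, ?_⟩
  · intro i m
    rw [MvPolynomial.coeff_map]
    exact Subtype.mem _
  intro ϖ hϖ hϖ0 P P' P'' z z' ζ hP hP' hP'' hz hz' hprin i₀
  have hpd := hF.hpd
  -- the function `ψ`
  obtain ⟨f, hf0, hf⟩ := hprin
  obtain ⟨a, ha0, hu, hured⟩ := hR.prim f hf0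
  have haF : algebraMap K F a ≠ 0 := by simpa using ha0
  have hψO : (algebraMap K F a * f)⁻¹ ∈ R.O := inv_mem_O hR hu hured
  have hψred := red_inv_ne_zero hu hured hψO
  set ψ : F := (algebraMap K F a * f)⁻¹ with hψdef
  have hψ0 : ψ ≠ 0 := inv_ne_zero (mul_ne_zero haF hf0)
  have hψ : ∀ v : Place K F, v.ord ψ = C.div P'' v - C.div P v - C.div P' v := by
    intro v
    rw [hψdef, Place.ord_inv, Place.ord_mul _ haF hf0, PlaceAux.ord_algebraMap, zero_add,
      ← hf v, Finsupp.sub_apply, Finsupp.add_apply]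
    ring
  -- approximation by a function with poles at the centres
  obtain ⟨ψ', hψ'O, hψ'p, h, hhO, hdiff⟩ := hAL K F k Fk A R g hR hF hFk hOrth C hC hRep ϖ hϖ
    hϖ0 ψ hψO (psi_polesInDiscs C P P' P'' z z' hP hP' ψ hψ ϖ hz hz') n
  obtain ⟨a₀, ω, hdec⟩ := exists_decomp hT hR hF hFk hOrth hC hι hb hψ'O hψ'p
  -- the data over `A`
  have hzA : ∀ i, z i ∈ A := fun i => ge_nonunits_mem (hP i).2.1
  have hzA' : ∀ i, z' i ∈ A := fun i => ge_nonunits_mem (hP' i).2.1
  have hζA : ∀ i, ζ i ∈ A := fun i => ge_nonunits_mem (hP'' i).2.1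
  have hϖA : ϖ ∈ A := ge_nonunits_mem hϖ
  set zA : Fin g → ↥A := fun i => ⟨z i, hzA i⟩ with hzAdef
  set zA' : Fin g → ↥A := fun i => ⟨z' i, hzA' i⟩ with hzAdef'
  set ζA : Fin g → ↥A := fun i => ⟨ζ i, hζA i⟩ with hζAdef
  set ϖA : ↥A := ⟨ϖ, hϖA⟩ with hϖAdef
  have hmax : ∀ x : ↥A, (x : K) ∈ A.nonunits → x ∈ IsLocalRing.maximalIdeal ↥A := by
    intro x hx
    obtain ⟨_, h2⟩ := (ValuationSubring.mem_nonunits_iff_exists_mem_maximalIdeal).1 hx
    exact h2
  have hmax' : ∀ x : ↥A, x ∈ IsLocalRing.maximalIdeal ↥A → (x : K) ∈ A.nonunits := by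
    intro x hx
    exact (ValuationSubring.mem_nonunits_iff_exists_mem_maximalIdeal).2 ⟨x.2, hx⟩
  -- `a₀` and the `ω j` are not all in the maximal ideal
  have hunit : a₀ ∈ IsLocalRing.maximalIdeal ↥A →
      (∀ j, ω j ∈ IsLocalRing.maximalIdeal ↥A) → False := by
    intro h1 h2
    have hψ'n : ψ' ∈ R.O.nonunits := by
      rw [hdec]
      apply nonunits_add (algebraMap_mem_nonunits hR (hmax' _ h1))
      rw [Finsupp.sum]
      refine Finset.sum_induction _ (fun x => x ∈ R.O.nonunits) (fun _ _ => nonunits_add)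
        (ge_zero_mem_nonunits _) ?_
      intro j _
      rw [mul_comm]
      exact ge_nonunits_mul_mem (hb.memO j) (algebraMap_mem_nonunits hR (hmax' _ (h2 j)))
    have hψn : ψ ∈ R.O.nonunits := by
      have e : ψ = ψ' + algebraMap K F (ϖ ^ n) * h := by rw [← hdiff]; ring
      rw [e]
      apply nonunits_add hψ'n
      rw [mul_comm]
      exact ge_nonunits_mul_mem hhO (algebraMap_mem_nonunits hR (pow_mem_nonunits hϖ hn))
    exact hψred ((hR.red_eq_zero_iff ⟨ψ, hψO⟩).2 hψn)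
  -- the level equation and the Taylor relation at every centre
  have key : ∀ i, ∃ (W : PowerSeries ↥A) (H : LaurentSeries ↥A),
      (HahnSeries.ofPowerSeries ℤ ↥A W * tpow ↥A 1
          = (HahnSeries.C a₀ + beta (bA hb) ω i) * (tpow ↥A 1 - HahnSeries.C (zA i))
              * (tpow ↥A 1 - HahnSeries.C (zA' i)) + HahnSeries.C (ϖA ^ n) * H) ∧
      ∀ N : ℕ, ∃ y : ↥A,
        ∑ m ∈ Finset.range N, PowerSeries.coeff m W * ζA i ^ m + ζA i ^ N * y = 0 := by
    intro i
    have hhfO := hfun_mem_O hR hC z z' hzA hzA' hψO i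
    have hhfD := hfun_mem_discRing C hR hpd hC P P' P'' z z' ζ hP hP' hP'' ψ hψ0 hψ i
    obtain ⟨W, hW, hval⟩ := taylor_int hT hR hF hFk hC hι i hhfO hhfD
    -- the function `H`
    set Hf : F := h * ((C.tau i - algebraMap K F (z i)) * (C.tau i - algebraMap K F (z' i)))
      with hHf
    have hHfO : Hf ∈ R.O :=
      mul_mem hhO (mul_mem (tau_sub_mem_O C hR hC i (hzA i)) (tau_sub_mem_O C hR hC i (hzA' i)))
    have hid : hfun C z z' ψ i * C.tau i
        = ψ' * ((C.tau i - algebraMap K F (z i)) * (C.tau i - algebraMap K F (z' i)))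
          + algebraMap K F (ϖ ^ n) * Hf := by
      rw [hfun_mul_tau C hR hpd hC z z' ψ i, hHf]
      have e : ψ = ψ' + algebraMap K F (ϖ ^ n) * h := by rw [← hdiff]; ring
      rw [e]
      ring
    obtain ⟨m, hm⟩ := exists_pow_tau_mul_mem hR hpd hC i hψ'p
    have hϖn : ϖ ^ n ≠ 0 := pow_ne_zero n hϖ0
    have hHfD : C.tau i ^ m * Hf ∈ discRing R (R.r (C.Q i)) := by
      have e : C.tau i ^ m * Hf = algebraMap K F (ϖ ^ n)⁻¹ *
          (C.tau i ^ m * hfun C z z' ψ i * C.tau i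
            - (C.tau i ^ m * ψ') *
              ((C.tau i - algebraMap K F (z i)) * (C.tau i - algebraMap K F (z' i)))) := by
        have h1 : C.tau i ^ m * hfun C z z' ψ i * C.tau i
            - (C.tau i ^ m * ψ') *
              ((C.tau i - algebraMap K F (z i)) * (C.tau i - algebraMap K F (z' i)))
            = algebraMap K F (ϖ ^ n) * (C.tau i ^ m * Hf) := by
          rw [mul_assoc, hid]; ring
        have hc : algebraMap K F (ϖ ^ n) ≠ 0 := by simpa using hϖn
        rw [h1, map_inv₀, inv_mul_cancel_left₀ hc]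
      rw [e]
      refine Subalgebra.mul_mem _ (Subalgebra.algebraMap_mem _ _) (Subalgebra.sub_mem _ ?_ ?_)
      · exact Subalgebra.mul_mem _ (Subalgebra.mul_mem _
          (Subalgebra.pow_mem _ (tau_mem_discRing hC i) m) hhfD) (tau_mem_discRing hC i)
      · exact Subalgebra.mul_mem _ hm (Subalgebra.mul_mem _ (tau_sub_mem_discRing C hC i _)
          (tau_sub_mem_discRing C hC i _))
    obtain ⟨sH, hsH⟩ := exists_descend_of_pow hT hR hF hFk hC hι i hHfO m hHfD
    refine ⟨W, sH, ?_, ?_⟩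
    · apply lmap_subtype_injective A
      have h1 := congrArg (ι i) hid
      rw [map_add, map_mul, map_mul, map_mul, map_mul, map_sub, map_sub, hι.tau, hι.const,
        hι.const, hι.const, hdec, map_add, hι.const, iota_sum hι hb] at h1
      rw [map_add, map_mul, map_mul, map_mul, map_mul, map_add, map_sub, map_sub,
        lmap_ofPowerSeries, lmap_tpow, lmap_C, lmap_C, lmap_C, lmap_C, hsH]
      rw [← lmap_ofPowerSeries, hW]
      rw [h1]
      simp only [map_pow, hϖAdef, hzAdef, hzAdef', ValuationSubring.subtype_apply]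
      ring
    · intro N
      obtain ⟨y, hy⟩ := hval (P'' i) (ζ i) (hP'' i) N
      have h0 := hfun_hasValueAt_zero C hR hpd hC P P' P'' z z' ζ hP hP' hP'' ψ hψ0 hψ i
      have h1 := hasValueAt_unique (P'' i) hy h0
      refine ⟨y, ?_⟩
      apply Subtype.ext
      have h2 : ((∑ m ∈ Finset.range N, PowerSeries.coeff m W * ζA i ^ m + ζA i ^ N * y : ↥A) : K)
          = ∑ m ∈ Finset.range N, ((PowerSeries.coeff m W : ↥A) : K) * ζ i ^ m
            + ζ i ^ N * (y : K) := by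
        push_cast
        rfl
      rw [h2, h1]
      rfl
  choose W H hW1 hW2 using key
  have hdvd : ∀ i, ϖA ∣ zA i := by
    intro i
    obtain ⟨c, hc, hzc⟩ := hz i
    exact ⟨⟨c, hc⟩, Subtype.ext hzc⟩
  have hdvd' : ∀ i, ϖA ∣ zA' i := by
    intro i
    obtain ⟨c, hc, hzc⟩ := hz' i
    exact ⟨⟨c, hc⟩, Subtype.ext hzc⟩
  obtain ⟨c, hc⟩ := hΦ ϖA (hmax _ hϖ) zA zA' ζA hdvd hdvd' (fun i => hmax _ (hP'' i).2.1)
    a₀ ω hunit W H hW1 hW2 i₀
  refine ⟨c, c.2, ?_⟩
  have h1 := congrArg (A.subtype) hc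
  rw [map_sub, map_mul, map_pow] at h1
  have h2 : A.subtype (MvPolynomial.eval (Sum.elim zA zA') (Φ i₀))
      = MvPolynomial.eval (Sum.elim z z') (MvPolynomial.map A.subtype (Φ i₀)) := by
    rw [MvPolynomial.eval_map]
    have := MvPolynomial.eval₂_comp_left A.subtype (RingHom.id ↥A) (Sum.elim zA zA') (Φ i₀)
    rw [RingHom.comp_id] at this
    have e : (A.subtype ∘ Sum.elim zA zA' : Fin g ⊕ Fin g → K) = Sum.elim z z' := by
      funext s
      rcases s with s | s <;> rfl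
    rw [e] at this
    exact this
  rw [h2] at h1
  exact h1

end Fermat.Agent.W1.Cmp


end ZBW1_009_8
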