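/- GENERATED FILE (helper35, build-time optimisation, NOTES/ZB.md): verbatim concatenation of the modules
   Fermat.Agent.W1.GeoLift
   Fermat.Agent.W1.GeoAll
   Fermat.Agent.RT.K7F.KC
   Fermat.Agent.RT.K7F.KCH
   Do not edit; do not import together with these modules. -/
import Mathlib
import Fermat.Agent.ZB.W1_002
import Fermat.Agent.ZB.W1_006
import Fermat.Agent.ZB.W1_007
import Fermat.Agent.ZB.W1_009
import Fermat.Agent.ZB.W1_005
import Fermat.Agent.ZB.ES_020
import Fermat.Agent.ZB.S05_001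
import Fermat.Agent.ZB.ES1_009

/-! ### bundled: `Fermat.Agent.W1.GeoLift` -/
section ZBW1_010_0

/-!
# W1-geo, piece GEO-C1, second half: `stmtLift : StmtLift`

Every class of `Pic⁰(F)` is congruent modulo the kernel of reduction to the class of a divisor
supported on places `P` at which `t` takes a value in the given set `S` of representatives and
`t̄` is unramified at `r P`.

Proof.  `x = [D_x]`, `X̄₀ := r_* D_x`.  By general position on `F̄` (`gp_exists_moving`) there are a
chart `T̄` and an effective `Ē ∼ X̄₀ + ΣT̄`, both avoiding the finite set of places where `t̄` is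
not a local parameter up to a constant.  Every place `Q̄` outside that set lifts to a place `P`
with `t(P) = s ∈ S` (`c1_exists_place_over`: `r_*(div (t - s)) = div (t̄ - s̄)` has coefficient `1`
at `Q̄`, and no pole of `t` reduces to `Q̄`).  `D := lift_*(Ē - ΣT̄)`.
-/

set_option autoImplicit false

open AlgebraicCurve Module

namespace Fermat.Agent.W1

open Fermat.Agent.ES.R Fermat.Agent.S24

section Lift

variable {K F k Fk : Type} [Field K] [Field F] [Algebra K F] [Field k] [Field Fk] [Algebra k Fk]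
variable {A : ValuationSubring K}

/-- a pole of `f` is a pole of `f - c` -/
theorem c1_ord_sub_const_neg (Q : Place k Fk) {f : Fk} (hf : Q.ord f < 0) (c : k) :
    Q.ord (f - algebraMap k Fk c) < 0 := by
  have hf0 : f ≠ 0 := by
    rintro rfl
    rw [Place.ord_zero] at hf
    exact lt_irrefl _ hf
  rcases eq_or_ne c 0 with rfl | hc
  · rwa [map_zero, sub_zero]
  · have hc' : -algebraMap k Fk c ≠ 0 := by simpa using hc
    have h1 : Q.ord (-algebraMap k Fk c) = 0 := by
      rw [PlaceAux.ord_neg, PlaceAux.ord_algebraMap]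
    have := PlaceAux.ord_add_eq_of_lt Q hf0 hc' (by rw [h1]; exact hf)
    rw [sub_eq_add_neg, this]
    exact hf

/-- a simple zero of `t̄ - s̄` at `Q̄` lifts to a place over `Q̄` at which `t = s` -/
theorem c1_exists_place_over {R : PRData K F k Fk A} (hPR : R.IsPR) [HasPrincipalDivisors K F]
    {t : F} (ht : t ∈ R.O) (hgood : R.GoodFn t) (s : A) (Q : Place k Fk)
    (hQ : Q.ord (R.red ⟨t, ht⟩ - algebraMap k Fk (R.res s)) = 1) :
    ∃ P : Place K F, R.r P = Q ∧ HasValueAt P t (s : K) := by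
  classical
  have hsO : algebraMap K F (s : K) ∈ R.O := (hPR.algebraMap_mem_iff _).mpr s.2
  set u : R.O := ⟨t, ht⟩ - ⟨algebraMap K F (s : K), hsO⟩ with hu
  have hucoe : (u : F) = t - algebraMap K F (s : K) := rfl
  have hred : R.red u = R.red ⟨t, ht⟩ - algebraMap k Fk (R.res s) := by
    rw [hu, map_sub, hPR.red_algebraMap s hsO]
  have hred0 : R.red u ≠ 0 := by
    intro h0
    rw [← hred, h0, Place.ord_zero] at hQ
    exact zero_ne_one hQ
  have hu0 : (u : F) ≠ 0 := by
    intro h0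
    apply hred0
    have : u = 0 := Subtype.ext h0
    rw [this, map_zero]
  obtain ⟨Du, hDu, -⟩ := HasPrincipalDivisors.exists_divisor (K := K) (u : F) hu0
  have hr := hPR.r_div u hred0 Du hDu Q
  rw [hred, hQ] at hr
  by_contra hne
  simp only [not_exists, not_and] at hne
  have hzero : ∀ P : Place K F, R.r P = Q → Du P = 0 := by
    intro P hP
    rw [hDu P]
    have h1 : 0 ≤ P.ord (u : F) := by
      by_contra hneg
      rw [not_le] at hneg
      have hpole : P.ord t < 0 := by
        by_contra hnn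
        rw [not_lt] at hnn
        have htP : t ∈ P.toValuationSubring := PlaceAux.mem_of_ord_nonneg P hnn
        have hsP : algebraMap K F (s : K) ∈ P.toValuationSubring := P.algebraMap_mem' _
        have hmem : (u : F) ∈ P.toValuationSubring := by
          rw [hucoe]; exact sub_mem htP hsP
        have := (PlaceAux.ord_nonneg_iff P hu0).mpr hmem
        omega
      obtain ⟨ht', hg⟩ := hgood
      have h3 := hg P hpole
      rw [hP] at h3
      have h4 := c1_ord_sub_const_neg Q h3 (R.res s)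
      rw [hQ] at h4
      omega
    have h2 : ¬ 0 < P.ord (u : F) := by
      intro hpos
      apply hne P hP
      show t - algebraMap K F (s : K) ∈ P.toValuationSubring.nonunits
      rw [← hucoe]
      exact (PlaceAux.ord_pos_iff_mem_nonunits P hu0).mp hpos
    omega
  have hns : Q ∉ (Finsupp.mapDomain R.r Du).support := by
    intro hmem
    have := Finsupp.mapDomain_support hmem
    rw [Finset.mem_image] at this
    obtain ⟨P, hP, hPQ⟩ := this
    exact (Finsupp.mem_support_iff.mp hP) (hzero P hPQ)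
  rw [Finsupp.notMem_support_iff] at hns
  rw [hns] at hr
  exact zero_ne_one hr

/-- **lift** -/
theorem stmtLift : StmtLift := by
  intro K F k Fk _ _ _ _ _ _ A R g hPR hF hFk t ht hgood hfin S hS x
  classical
  have := hF.hpd
  have := hFk.hpd
  obtain ⟨Dx, rfl⟩ := Pic0.mk_surjective x
  set X₀ : Divisor k Fk := Finsupp.mapDomain R.r (Dx : Divisor K F) with hX₀
  have hdegX : Divisor.degree X₀ = 0 := by
    rw [hX₀, c1_degree_mapDomain hF.hres hFk.hres]; exact Dx.2
  set Sb : Finset (Place k Fk) := hfin.toFinset with hSb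
  obtain ⟨T, hTcard, hTS, -, hT1, hTbot⟩ :=
    gp_exists_moving hFk.hres hFk.upper hFk.lower hFk.infinite X₀ hdegX Sb
  obtain ⟨w₀, -⟩ := hFk.infinite.nonempty
  have hfd := rr_finite w₀ hFk.hres (X₀ + gpSum T)
  have hpos : 0 < finrank k ↥(riemannRochSpace (X₀ + gpSum T)) := by rw [hT1]; exact one_pos
  rw [Module.finrank_pos_iff_exists_ne_zero] at hpos
  obtain ⟨⟨h, hhL⟩, hh0⟩ := hpos
  have hh : h ≠ 0 := fun h0 => hh0 (Subtype.ext h0)
  obtain ⟨Z, hZ, hdegZ⟩ := HasPrincipalDivisors.exists_divisor (K := k) h hh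
  obtain ⟨hE0, hEav⟩ := gp_effective_avoids hh hhL hZ
  set E : Divisor k Fk := X₀ + gpSum T + Z with hE
  -- the good places and their lifts
  have hgoodpl : ∀ Q : Place k Fk, Q ∉ Sb →
      ∃ P : Place K F, R.r P = Q ∧ ∃ s ∈ S, HasValueAt P t (s : K) ∧
        (R.r P).ord (R.red ⟨t, ht⟩ - algebraMap k Fk (R.res s)) = 1 := by
    intro Q hQ
    rw [hSb, Set.Finite.mem_toFinset, Set.mem_ofPred_eq, not_not] at hQ
    obtain ⟨c, hc⟩ := hQ
    obtain ⟨s, hsS, hsc⟩ := hS c
    rw [← hsc] at hc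
    obtain ⟨P, hPQ, hPv⟩ := c1_exists_place_over hPR ht hgood s Q hc
    exact ⟨P, hPQ, s, hsS, hPv, by rw [hPQ]; exact hc⟩
  obtain ⟨P₀, -⟩ := hF.infinite.nonempty
  set lift : Place k Fk → Place K F := fun Q =>
    if hQ : Q ∉ Sb then (hgoodpl Q hQ).choose else P₀ with hlift
  have hlift_spec : ∀ Q : Place k Fk, Q ∉ Sb → R.r (lift Q) = Q ∧
      ∃ s ∈ S, HasValueAt (lift Q) t (s : K) ∧
        (R.r (lift Q)).ord (R.red ⟨t, ht⟩ - algebraMap k Fk (R.res s)) = 1 := by
    intro Q hQ
    have := (hgoodpl Q hQ).choose_spec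
    simp only [hlift, dif_pos hQ]
    exact this
  -- the divisor `E - ΣT` avoids the bad set
  set E' : Divisor k Fk := E - gpSum T with hE'
  have hE'supp : ∀ Q : Place k Fk, E' Q ≠ 0 → Q ∉ Sb := by
    intro Q hQ hQS
    apply hQ
    have h1 : E Q = 0 := hEav Q (hTbot Q hQS)
    have h2 : gpSum T Q = 0 :=
      gpSum_apply_of_not_mem (fun hQT => (Finset.disjoint_left.mp hTS) hQT hQS)
    rw [hE', Finsupp.sub_apply, h1, h2, sub_zero]
  have hdegE' : Divisor.degree E' = 0 := by
    rw [hE', hE, map_sub, map_add, map_add, hdegX, hdegZ]; ring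
  set D : Divisor K F := Finsupp.mapDomain lift E' with hD
  have hdegD : Divisor.degree D = 0 := by
    rw [hD, c1_degree_mapDomain hFk.hres hF.hres]; exact hdegE'
  have hrD : Finsupp.mapDomain R.r D = E' := by
    rw [hD, ← Finsupp.mapDomain_comp]
    have : Finsupp.mapDomain (R.r ∘ lift) E' = Finsupp.mapDomain id E' := by
      refine Finsupp.mapDomain_congr fun Q hQ => ?_
      exact (hlift_spec Q (hE'supp Q (Finsupp.mem_support_iff.mp hQ))).1
    rw [this, Finsupp.mapDomain_id]
  refine ⟨⟨D, hdegD⟩, ?_, ?_⟩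
  · refine ⟨Dx - ⟨D, hdegD⟩, rfl, ?_⟩
    have h1 : ((Dx - ⟨D, hdegD⟩ : Divisor.degZero (K := K) (F := F)) : Divisor K F)
        = (Dx : Divisor K F) - D := rfl
    rw [h1, c1_mapDomain_sub, hrD, ← hX₀]
    have h2 : X₀ - E' = -Z := by rw [hE', hE]; abel
    rw [h2]
    exact AddSubgroup.neg_mem _ ⟨h, hh, hZ⟩
  · intro P hP
    have hPs : P ∈ (Finsupp.mapDomain lift E').support := Finsupp.mem_support_iff.mpr hP
    have := Finsupp.mapDomain_support hPs
    rw [Finset.mem_image] at this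
    obtain ⟨Q, hQ, rfl⟩ := this
    exact (hlift_spec Q (hE'supp Q (Finsupp.mem_support_iff.mp hQ))).2

end Lift

end Fermat.Agent.W1


end ZBW1_010_0

/-! ### bundled: `Fermat.Agent.W1.GeoAll` -/
section ZBW1_010_1

/-!
# W1-geo: the abstract geometric half, assembled (unconditional)

All the abstract pieces of `NOTES/W1-geo.md` are proved; this file wires them:

* `stmtApprox : StmtApprox` (GEO-AL) from `stmtSharp`, `stmtOrthApprox`, `stmtApprox_of`;
* `stmtBFamily : StmtBFamily` (GEO-B);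
* `stmtAddApprox : StmtAddApprox` (GEO-CMP);
* `hasKernelChart_of_hasModPR` : the concrete reduction package `HasModPR N A` of `X₀(N)` at a
  valuation ring `A` of `ℚ̄` over `p` gives a kernel chart on `JZero N` (GEO-KC).

So the only geometric input still needed for `S19` is `HasModPR N A` (GEO-PR) and the change of
level (GEO-LVL).
-/

set_option autoImplicit false

namespace Fermat.Agent.W1

/-- **GEO-AL**, unconditional. -/
theorem stmtApprox : StmtApprox := stmtApprox_of stmtSharp stmtOrthApprox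

/-- **GEO-B**, unconditional. -/
theorem stmtBFamily : StmtBFamily := stmtBFamily_of stmtExpand stmtTaylorInt

/-- **GEO-CMP**, unconditional. -/
theorem stmtAddApprox : StmtAddApprox :=
  Cmp.stmtAddApprox_of stmtExpand stmtTaylorInt stmtBFamily stmtApprox

/-- **GEO-KC**, unconditional: the reduction package gives the kernel chart. -/
theorem hasKernelChart_of_hasModPR (N : ℕ) [NeZero N] (p : ℕ) (hp : p.Prime)
    (A : ValuationSubring (AlgebraicClosure ℚ)) (hA : A.LiesOverPrime p) (h : HasModPR N A) :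
    HasKernelChart N A :=
  stmtKC stmtEval stmtOnto stmtDisc stmtC1 stmtC1Conv stmtLift stmtAddApprox stmtTeich N p hp A hA h

end Fermat.Agent.W1


end ZBW1_010_1

/-! ### bundled: `Fermat.Agent.RT.K7F.KC` -/
section ZBW1_010_2

/-!
# K7-FLAT, piece FL-KC: the kernel chart, generic in the function field and in the action
(helper51; fork of `W1/GeoKC.lean` on top of the generic `W1/GeoKCAbs.lean`)

`F` a function field over `ℚ̄`, `Fk` a function field over the residue field of `A`,
`R : PRData ℚ̄ F k Fk A` a reduction package, `γ σ` (`σ ∈ G_ℚ`) semilinear automorphisms of `F`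
over `σ`, `J` a `G_ℚ`-module with an isomorphism `e : J ≃+ Pic⁰(F)` such that
`e (σ • x) = γ σ • e x`.

* `KCHyp A g R t γ` : the hypotheses (`W1.ModPR` for a general function field and a general
  family `γ`; `t` has to be fixed by `γ σ` only for `σ` in the inertia group);
* `k7fkc_kernelChart` : `KCHyp` gives a kernel chart `W1.KernelChart A J J1 g z` on `J`, with
  `J1 = e⁻¹(R.J1)`.

For the twisted action `act_tw σ x = δ_{c(σ)}^e (σ • x)` on `J_H`: take `J` = a type synonym of
`J_H` with this action, `e` = the identity and `γ σ = δ_{c(σ)}^e ∘ (coefficientwise σ)`.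
-/

set_option autoImplicit false

open AlgebraicCurve Module ModularCurve

namespace Fermat.Agent.RT.K7F

open Fermat.Agent.W1

/-- `ℚ̄` -/
local notation "Qb" => AlgebraicClosure ℚ

variable {F Fk : Type} [Field F] [Algebra Qb F] [Field Fk] {A : ValuationSubring Qb}
  [Algebra (IsLocalRing.ResidueField A) Fk]

/-- The hypotheses of the kernel chart: a reduction package of `F` at `A` with its compatibility
with a family `γ σ` of semilinear automorphisms of `F` over `σ ∈ G_ℚ`. -/
structure KCHyp (A : ValuationSubring Qb) {Fk : Type} [Field Fk]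
    [Algebra (IsLocalRing.ResidueField A) Fk] (g : ℕ)
    (R : PRData Qb F (IsLocalRing.ResidueField A) Fk A) (t : F)
    (γ : (Qb ≃ₐ[ℚ] Qb) → SemilinearAut Qb F) : Prop where
  isPR : R.IsPR
  res_eq : R.res = IsLocalRing.residue A
  orth : R.Orth
  nice : IsNiceCurve Qb F g
  nice_k : IsNiceCurve (IsLocalRing.ResidueField A) Fk g
  good : R.GoodFn t
  ram : ∀ ht : t ∈ R.O,
    {Q : Place (IsLocalRing.ResidueField A) Fk |
      ¬ ∃ c : IsLocalRing.ResidueField A, Q.ord (R.red ⟨t, ht⟩ - algebraMap _ _ c) = 1}.Finite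
  base : ∀ (σ : Qb ≃ₐ[ℚ] Qb) (a : Qb), SemilinearAut.baseAut (γ σ) a = σ a
  t_fixed : ∀ σ ∈ A.inertiaSubgroupIn ℚ, γ σ • t = t
  decomp : ∀ σ ∈ A.decompositionSubgroup ℚ,
    ∃ σb : Place (IsLocalRing.ResidueField A) Fk → Place (IsLocalRing.ResidueField A) Fk,
      (∀ P, R.r (γ σ • P) = σb (R.r P)) ∧
      ∀ E ∈ Divisor.principal (K := IsLocalRing.ResidueField A) (F := Fk),
        Finsupp.mapDomain σb E ∈ Divisor.principal (K := IsLocalRing.ResidueField A) (F := Fk)
  inertia : ∀ σ ∈ A.inertiaSubgroupIn ℚ, ∀ P, R.r (γ σ • P) = R.r P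

variable {g : ℕ} {R : PRData Qb F (IsLocalRing.ResidueField A) Fk A} {t : F}
  {γ : (Qb ≃ₐ[ℚ] Qb) → SemilinearAut Qb F}

/-- elements of the inertia group act like inertia -/
theorem k7fkc_inertiaLike (hM : KCHyp A g R t γ) {S : Set A} (hS : IsTeich A S)
    {σ : Qb ≃ₐ[ℚ] Qb} (hσ : σ ∈ A.inertiaSubgroupIn ℚ) : InertiaLike R t S (γ σ) where
  r_smul := hM.inertia σ hσ
  t_fixed := hM.t_fixed σ hσ
  base_fixed := fun s hs => by rw [hM.base]; exact hS.fixed σ hσ s hs
  base_nonunits := fun a ha => by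
    rw [hM.base]
    exact (Fermat.Agent.S05.inertia_apply_mem_nonunits_iff hσ a).mpr ha

/-- **FL-KC, generic form.** -/
theorem k7fkc_kernelChart {p : ℕ} (hp : p.Prime) (hA : A.LiesOverPrime p)
    (hM : KCHyp A g R t γ) (J : Type) [AddCommGroup J] [DistribMulAction (Qb ≃ₐ[ℚ] Qb) J]
    (e : J ≃+ Pic0 Qb F) (he : ∀ (σ : Qb ≃ₐ[ℚ] Qb) (x : J), e (σ • x) = γ σ • e x) :
    ∃ (J1 : AddSubgroup J) (z : J → Fin g → Qb), KernelChart A J J1 g z := by
  have hDisc := stmtDisc
  have hC1 := stmtC1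
  have hLift := stmtLift
  have hAdd := stmtAddApprox
  obtain ⟨S, hS⟩ := stmtTeich p hp A hA
  have hSsurj : ∀ c : IsLocalRing.ResidueField A, ∃ s ∈ S, R.res s = c := by
    rw [hM.res_eq]; exact hS.surj
  have hSinj : ∀ s ∈ S, ∀ s' ∈ S, R.res s = R.res s' → s = s' := by
    rw [hM.res_eq]; exact hS.inj
  have ht : t ∈ R.O := hM.good.1
  obtain ⟨C, hC, hRep, hCt, hcS⟩ := kc_exists_chart hDisc hM.isPR hM.nice hM.nice_k t ht hM.good
    (hM.ram ht) S hSsurj hSinj
  subst hCt
  have hspec : ∀ x : Pic0 Qb F, x ∈ R.J1 → C.IsCoord x (kcCoord C x) := fun x hx =>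
    kcCoord_spec (isCoord_exists hDisc hC1 hM.isPR hM.nice hM.nice_k hM.orth hC hx)
  have hdecomp : ∀ σ ∈ A.decompositionSubgroup ℚ, ∀ x ∈ R.J1, γ σ • x ∈ R.J1 := by
    intro σ hσ x hx
    obtain ⟨σb, h1, h2⟩ := hM.decomp σ hσ
    exact kc_smul_mem_J1 (γ σ) σb h1 h2 hx
  refine ⟨R.J1.comap e.toAddMonoidHom, fun x => kcCoord C (e x), ⟨?_, ?_, ?_, ?_, ?_, ?_⟩⟩
  · -- decomp_stable
    intro σ hσ x hx
    show e (σ • x) ∈ R.J1
    rw [he]
    exact hdecomp σ hσ _ hx
  · -- mem_nonunits
    intro x hx i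
    obtain ⟨P, -, hPd⟩ := hspec (e x) hx
    exact (hPd i).2.1
  · -- injOn
    intro x hx y hy hxy
    have h1 := hspec (e x) hx
    have h2 := hspec (e y) hy
    rw [← hxy] at h2
    exact e.injective (isCoord_inj hDisc hM.isPR hM.nice hM.nice_k hC h1 h2)
  · -- inertia_equivariant
    intro σ hσ x hx i
    have hσx : γ σ • e x ∈ R.J1 :=
      hdecomp σ (Fermat.Agent.S05.mem_decomposition_of_mem_inertiaIn hσ) _ hx
    have h1 := isCoord_smul hDisc hM.isPR hM.nice hM.nice_k hC hcS (k7fkc_inertiaLike hM hS hσ)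
      (hspec (e x) hx)
    have h2 := kcCoord_eq hC1 hM.isPR hM.nice hM.nice_k hM.orth hC hσx h1
    show kcCoord C (e (σ • x)) i = σ (kcCoord C (e x) i)
    rw [he, h2]
    exact hM.base σ _
  · -- add_approx
    intro ϖ hϖ hϖ0 n
    obtain ⟨Φ, hΦ, h⟩ := kc_add_approx hAdd hM.isPR hM.nice hM.nice_k hM.orth hC hRep n
    refine ⟨Φ, hΦ, fun x hx y hy hzx hzy => ?_⟩
    have hxy : C.IsCoord (e x + e y) (kcCoord C (e (x + y))) := by
      rw [map_add]
      exact hspec (e x + e y) (R.J1.add_mem hx hy)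
    exact h ϖ hϖ hϖ0 (e x) (e y) _ _ _ (hspec (e x) hx) (hspec (e y) hy) hxy hzx hzy
  · -- lift
    intro x _
    obtain ⟨b, hb1, hb2⟩ := kc_lift hDisc hLift hM.isPR hM.nice hM.nice_k ht hM.good (hM.ram ht)
      hSsurj (e x)
    refine ⟨e.symm b, fun σ hσ => ?_, ?_⟩
    · apply e.injective
      rw [he, e.apply_symm_apply]
      exact hb2 _ (k7fkc_inertiaLike hM hS hσ)
    · show e (x - e.symm b) ∈ R.J1
      rw [map_sub, e.apply_symm_apply]
      exact hb1

end Fermat.Agent.RT.K7F


end ZBW1_010_2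

/-! ### bundled: `Fermat.Agent.RT.K7F.KCH` -/
section ZBW1_010_3

/-!
# K7-FLAT, piece FL-KC: `StmtKCH` (helper51)

The reduction package `ModPRH` of `X_H(L; M)` at `A` gives a kernel chart on `J_H` for the
`χ`-twisted Galois action: apply the generic `k7fkc_kernelChart` (`RT/K7F/KC.lean`) to the family
`γ σ = δ_{χ σ} ∘ (coefficientwise σ)` of semilinear automorphisms of `F_H`.

* `k7fkc_stmtKCH : StmtKCH`.
-/

set_option autoImplicit false
set_option linter.unusedSectionVars false
set_option synthInstance.maxHeartbeats 400000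
set_option maxHeartbeats 1600000

noncomputable section

namespace Fermat.Agent.RT.K7F

open AlgebraicCurve Module ModularCurve
open Fermat.Agent.ES Fermat.Agent.ES.M Fermat.Agent.ES1 Fermat.Agent.ES1.G2 Fermat.Agent.W1
  Fermat.Agent.S24

/-- the family `γ σ = δ_σ ∘ (coefficientwise σ)` -/
def k7fkcGamma (L M : ℕ) (H : Subgroup (ZMod M)ˣ)
    (δ : K7GQ → (fieldBar L M H ≃ₐ[Kb] fieldBar L M H)) (σ : K7GQ) :
    SemilinearAut Kb ↥(fieldBar L M H) :=
  SemilinearAut.ofAlgAut (δ σ) * arithmeticGalois (fieldQ L M H) σ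

theorem k7fkcGamma_of_one {L M : ℕ} {H : Subgroup (ZMod M)ˣ}
    {δ : K7GQ → (fieldBar L M H ≃ₐ[Kb] fieldBar L M H)} {σ : K7GQ} (h : δ σ = 1) :
    k7fkcGamma L M H δ σ = arithmeticGalois (fieldQ L M H) σ := by
  rw [k7fkcGamma, h, map_one, one_mul]

/-- the hypotheses of the generic kernel chart, from the package `ModPRH` -/
theorem k7fkc_hyp {L M : ℕ} {H : Subgroup (ZMod M)ˣ} {A : ValuationSubring Kb} {g : ℕ}
    {R : PRData Kb ↥(fieldBar L M H) (kA A) ↥(fieldC (kA A) L M H) A} {t : ↥(fieldBar L M H)}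
    (hM : ModPRH L M H A g R t) {χ : K7GQ →* (ZMod M)ˣ} (hχ : IsTwistChar A χ)
    (δ : K7GQ → (fieldBar L M H ≃ₐ[Kb] fieldBar L M H))
    (hδ : ∀ σ, IsDiamondH L M H (χ σ) (δ σ)) :
    KCHyp A g R t (k7fkcGamma L M H δ) := by
  have hδ1 : ∀ σ ∈ A.inertiaSubgroupIn ℚ, δ σ = 1 := fun σ hσ => by
    have h := hδ σ
    rw [hχ.inertia σ hσ] at h
    exact h.unique isDiamondH_one
  refine
    { isPR := hM.isPR
      res_eq := hM.res_eq
      orth := hM.orth
      nice := hM.nice
      nice_k := hM.nice_k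
      good := hM.good
      ram := hM.ram
      base := fun σ a => ?_
      t_fixed := fun σ hσ => ?_
      decomp := fun σ hσ => ?_
      inertia := fun σ hσ P => ?_ }
  · show SemilinearAut.baseAut
      (SemilinearAut.ofAlgAut (δ σ) * arithmeticGalois (fieldQ L M H) σ) a = σ a
    rw [SemilinearAut.baseAut_mul, SemilinearAut.baseAut_ofAlgAut, one_mul,
      baseAut_arithmeticGalois]
    rfl
  · rw [k7fkcGamma_of_one (hδ1 σ hσ)]
    exact hM.t_fixed σ
  · obtain ⟨σb, h1, h2⟩ := hM.decomp σ hσ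
    obtain ⟨δb, h3, h4⟩ := hM.diam (χ σ) (δ σ) (hδ σ)
    refine ⟨δb ∘ σb, fun P => ?_, fun E hE => ?_⟩
    · show R.r ((SemilinearAut.ofAlgAut (δ σ) * arithmeticGalois (fieldQ L M H) σ) • P) = _
      rw [mul_smul, h3, h1]
      rfl
    · rw [Finsupp.mapDomain_comp]
      exact h4 _ (h2 E hE)
  · rw [k7fkcGamma_of_one (hδ1 σ hσ)]
    exact hM.inertia σ hσ P

/-- **FL-KC**: the package gives a kernel chart on `J_H` for the twisted action. -/
theorem k7fkc_stmtKCH : StmtKCH := by
  intro L M H p hLv A hA χ hχ hPR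
  obtain ⟨g, R, t, hM⟩ := hPR
  have hL : L ≠ 0 := by have := hLv.hL; omega
  have hML : M ∣ L := hLv.hML
  have hex : ∀ σ : K7GQ, ∃ δ : fieldBar L M H ≃ₐ[Kb] fieldBar L M H,
      IsDiamondH L M H (χ σ) δ := fun σ => k7f_diamondBar L M H hL hML (χ σ)
  choose δ hδ using hex
  have hK := k7fkc_hyp hM hχ δ hδ
  have he : ∀ (σ : K7GQ) (x : JHtw L M H χ),
      ofTw L M H χ (σ • x) = k7fkcGamma L M H δ σ • ofTw L M H χ x := by
    intro σ x
    rw [tw_smul_eq L M H χ hL hML, es1Diamond_eq (hδ σ), diamondJ_apply,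
      galois_smul_pic0_def, ← mul_smul]
    rfl
  obtain ⟨J1, z, h⟩ := k7fkc_kernelChart hLv.hp hA hK (JHtw L M H χ) (ofTw L M H χ) he
  exact ⟨J1, g, z, h⟩

end Fermat.Agent.RT.K7F

end
end ZBW1_010_3
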