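/- GENERATED FILE (helper35, build-time optimisation, NOTES/ZB.md): verbatim concatenation of the modules
   Fermat.Agent.S15.SelFL
   Do not edit; do not import together with these modules. -/
import Fermat.Agent.ZB.INJ_005

/-! ### bundled: `Fermat.Agent.S15.SelFL` -/
section ZBZ2S15_037_0

/-!
# S15 / SELMER / SEL-FL: every point of `J₀(N)(ℚ̄)` has finite level

`NOTES/S15-FIN.md` §3 (CONT), piece SEL-FL.  Not only the torsion classes (`ES/FiniteLevel.lean`) but
EVERY class `x ∈ J₀(N)(ℚ̄)` is fixed by `Gal(ℚ̄/K₀)` for a number field `K₀`: `x = [D]` and every place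
in the (finite) support of `D` is stable over a number field (`UNIP.rat_exists_stable_finset`).

* `selfl_divisor_smul_eq` : a semilinear automorphism fixing the places of the support of `D` fixes `D`.
* `selfl_exists_field_divisor` : every divisor of `F_N(ℚ̄)` is fixed by `Gal(ℚ̄/K₀)`, `K₀ ⊇ E₁` a number
  field, Galois over `ℚ`.
* `selfl_exists_field` : the same for every class `x : JZero N`.
* `selfl_exists_field_finset` : one number field for finitely many classes.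
* `selfl_smul_eq_of_agree` : `σ x = τ x` if `σ` and `τ` agree on `K₀` (the action on `x`, and the
  cocycle `σ ↦ σ x - x`, factor through the finite group `Gal(K₀/ℚ)`).
* `selfl_isOpen_stabilizer` : the stabiliser of `x` in `G_ℚ` is open (Krull topology).
* `selfl_division`, `selfl_division_cocycle` : the forms for division points `R`, `n • R = m`.
-/

set_option autoImplicit false

noncomputable section

namespace Fermat.Agent.S15

open AlgebraicCurve ModularCurve Fermat.Agent.S24 Fermat.Agent.UNIP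

/-- a semilinear automorphism fixing every place of the support of `D` fixes the divisor `D` -/
theorem selfl_divisor_smul_eq {K F : Type*} [Field K] [Field F] [Algebra K F]
    (g : SemilinearAut K F) (D : Divisor K F) (h : ∀ P ∈ D.support, g • P = P) : g • D = D := by
  rw [SemilinearAut.divisor_smul_def]
  exact (Finsupp.mapDomain_congr (g := id) h).trans Finsupp.mapDomain_id

/-- **every divisor of `F_N(ℚ̄)` has finite level** -/
theorem selfl_exists_field_divisor (N : ℕ) [NeZero N] (D : Divisor Kb (FF N))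
    (E₁ : IntermediateField ℚ Kb) (hE₁ : FiniteDimensional ℚ E₁) :
    ∃ K₀ : IntermediateField ℚ Kb, E₁ ≤ K₀ ∧ FiniteDimensional ℚ K₀ ∧ IsGalois ℚ K₀ ∧
      ∀ σ : Kb ≃ₐ[ℚ] Kb, (∀ a ∈ K₀, σ a = a) → ratGal N σ • D = D := by
  obtain ⟨K₀, h1, h2, h3, h4⟩ := rat_exists_stable_finset N D.support E₁ hE₁
  exact ⟨K₀, h1, h2, h3, fun σ hσ => selfl_divisor_smul_eq _ D fun P hP => h4 P hP σ hσ⟩

/-- **every class of `J₀(N)(ℚ̄)` has finite level**: it is fixed by `Gal(ℚ̄/K₀)` for a number field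
`K₀`, which can be taken Galois over `ℚ` and containing a given number field `E₁`. -/
theorem selfl_exists_field (N : ℕ) [NeZero N] (x : JZero N)
    (E₁ : IntermediateField ℚ (AlgebraicClosure ℚ)) (hE₁ : FiniteDimensional ℚ E₁) :
    ∃ K₀ : IntermediateField ℚ (AlgebraicClosure ℚ), E₁ ≤ K₀ ∧ FiniteDimensional ℚ K₀ ∧
      IsGalois ℚ K₀ ∧
      ∀ σ : AlgebraicClosure ℚ ≃ₐ[ℚ] AlgebraicClosure ℚ, (∀ a ∈ K₀, σ a = a) → σ • x = x := by
  obtain ⟨D, rfl⟩ := Pic0.mk_surjective x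
  obtain ⟨K₀, h1, h2, h3, h4⟩ := selfl_exists_field_divisor N (D : Divisor Kb (FF N)) E₁ hE₁
  refine ⟨K₀, h1, h2, h3, fun σ hσ => ?_⟩
  rw [galois_smul_pic0_def, SemilinearAut.pic0_smul_mk]
  refine congrArg Pic0.mk (Subtype.ext ?_)
  rw [SemilinearAut.coe_degZeroSMulHom]
  exact h4 σ hσ

/-- the short form of `selfl_exists_field` (same shape as `ES.exists_field_fixing_torsion`) -/
theorem selfl_exists_field' (N : ℕ) [NeZero N] (x : JZero N) :
    ∃ E : IntermediateField ℚ (AlgebraicClosure ℚ), FiniteDimensional ℚ E ∧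
      ∀ σ : AlgebraicClosure ℚ ≃ₐ[ℚ] AlgebraicClosure ℚ, (∀ a ∈ E, σ a = a) → σ • x = x := by
  obtain ⟨K₀, -, h2, -, h4⟩ := selfl_exists_field N x ⊥ inferInstance
  exact ⟨K₀, h2, h4⟩

/-- one number field for finitely many classes -/
theorem selfl_exists_field_finset (N : ℕ) [NeZero N] (S : Finset (JZero N))
    (E₁ : IntermediateField ℚ (AlgebraicClosure ℚ)) (hE₁ : FiniteDimensional ℚ E₁) :
    ∃ K₀ : IntermediateField ℚ (AlgebraicClosure ℚ), E₁ ≤ K₀ ∧ FiniteDimensional ℚ K₀ ∧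
      IsGalois ℚ K₀ ∧
      ∀ x ∈ S, ∀ σ : AlgebraicClosure ℚ ≃ₐ[ℚ] AlgebraicClosure ℚ,
        (∀ a ∈ K₀, σ a = a) → σ • x = x := by
  classical
  induction S using Finset.induction_on with
  | empty =>
      obtain ⟨K₀, h1, h2, h3, -⟩ := selfl_exists_field N 0 E₁ hE₁
      exact ⟨K₀, h1, h2, h3, fun x hx => absurd hx (Finset.notMem_empty x)⟩
  | insert y S _ ih =>
      obtain ⟨K₁, h1, h2, -, h4⟩ := ih
      obtain ⟨K₀, g1, g2, g3, g4⟩ := selfl_exists_field N y K₁ h2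
      refine ⟨K₀, le_trans h1 g1, g2, g3, fun x hx σ hσ => ?_⟩
      rcases Finset.mem_insert.1 hx with rfl | hx
      · exact g4 σ hσ
      · exact h4 x hx σ fun a ha => hσ a (g1 ha)

/-- the action on `x` factors through `Gal(K₀/ℚ)`: automorphisms which agree on `K₀` agree on `x` -/
theorem selfl_smul_eq_of_agree (N : ℕ) [NeZero N] (x : JZero N)
    {K₀ : IntermediateField ℚ (AlgebraicClosure ℚ)}
    (h : ∀ σ : AlgebraicClosure ℚ ≃ₐ[ℚ] AlgebraicClosure ℚ, (∀ a ∈ K₀, σ a = a) → σ • x = x)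
    (σ τ : AlgebraicClosure ℚ ≃ₐ[ℚ] AlgebraicClosure ℚ) (hστ : ∀ a ∈ K₀, σ a = τ a) :
    σ • x = τ • x := by
  have h1 : (τ⁻¹ * σ) • x = x := h (τ⁻¹ * σ) fun a ha => by
    show τ⁻¹ (σ a) = a
    rw [hστ a ha]
    exact τ.symm_apply_apply a
  rw [mul_smul] at h1
  calc σ • x = τ • τ⁻¹ • σ • x := (smul_inv_smul τ (σ • x)).symm
    _ = τ • x := by rw [h1]

/-- **the stabiliser of every point of `J₀(N)(ℚ̄)` is open in `G_ℚ`** -/
theorem selfl_isOpen_stabilizer (N : ℕ) [NeZero N] (x : JZero N) :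
    IsOpen ((MulAction.stabilizer (AlgebraicClosure ℚ ≃ₐ[ℚ] AlgebraicClosure ℚ) x :
      Subgroup (AlgebraicClosure ℚ ≃ₐ[ℚ] AlgebraicClosure ℚ)) :
        Set (AlgebraicClosure ℚ ≃ₐ[ℚ] AlgebraicClosure ℚ)) := by
  obtain ⟨K₀, h2, h4⟩ := selfl_exists_field' N x
  have hle : K₀.fixingSubgroup ≤
      MulAction.stabilizer (AlgebraicClosure ℚ ≃ₐ[ℚ] AlgebraicClosure ℚ) x := by
    intro σ hσ
    rw [MulAction.mem_stabilizer_iff]
    exact h4 σ fun a ha => (IntermediateField.mem_fixingSubgroup_iff K₀ σ).1 hσ a ha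
  exact Subgroup.isOpen_mono hle (IntermediateField.fixingSubgroup_isOpen K₀)

/-- **SEL-FL**: a division point `R` of a class `m` (`n • R = m`; in the application `m` is
`G_ℚ`-fixed and `n = r ^ k`) has finite level, over a number field `K₀ ⊇ E₁`, Galois over `ℚ`. -/
theorem selfl_division (N : ℕ) [NeZero N] (n : ℕ) (R m : JZero N) (_hR : n • R = m)
    (E₁ : IntermediateField ℚ (AlgebraicClosure ℚ)) (hE₁ : FiniteDimensional ℚ E₁) :
    ∃ K₀ : IntermediateField ℚ (AlgebraicClosure ℚ), E₁ ≤ K₀ ∧ FiniteDimensional ℚ K₀ ∧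
      IsGalois ℚ K₀ ∧
      ∀ σ : AlgebraicClosure ℚ ≃ₐ[ℚ] AlgebraicClosure ℚ, (∀ a ∈ K₀, σ a = a) → σ • R = R :=
  selfl_exists_field N R E₁ hE₁

/-- **SEL-FL, cocycle form**: for `n • R = m` with `m` fixed by `G_ℚ`, the Kummer cocycle
`σ ↦ σ R - R` takes values in `J[n]` and factors through `Gal(K₀/ℚ)` for a number field `K₀`. -/
theorem selfl_division_cocycle (N : ℕ) [NeZero N] (n : ℕ) (R m : JZero N) (hR : n • R = m)
    (hm : ∀ σ : AlgebraicClosure ℚ ≃ₐ[ℚ] AlgebraicClosure ℚ, σ • m = m)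
    (E₁ : IntermediateField ℚ (AlgebraicClosure ℚ)) (hE₁ : FiniteDimensional ℚ E₁) :
    (∀ σ : AlgebraicClosure ℚ ≃ₐ[ℚ] AlgebraicClosure ℚ, n • (σ • R - R) = 0) ∧
    ∃ K₀ : IntermediateField ℚ (AlgebraicClosure ℚ), E₁ ≤ K₀ ∧ FiniteDimensional ℚ K₀ ∧
      IsGalois ℚ K₀ ∧
      ∀ σ τ : AlgebraicClosure ℚ ≃ₐ[ℚ] AlgebraicClosure ℚ, (∀ a ∈ K₀, σ a = τ a) →
        σ • R - R = τ • R - R := by
  refine ⟨fun σ => ?_, ?_⟩
  · have h1 : σ • (n • R) = n • (σ • R) :=
      map_nsmul (DistribSMul.toAddMonoidHom (JZero N) σ) n R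
    rw [nsmul_sub, ← h1, hR, hm σ, sub_self]
  · obtain ⟨K₀, h1, h2, h3, h4⟩ := selfl_exists_field N R E₁ hE₁
    exact ⟨K₀, h1, h2, h3, fun σ τ hστ => by rw [selfl_smul_eq_of_agree N R h4 σ τ hστ]⟩

end Fermat.Agent.S15

end
end ZBZ2S15_037_0
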