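/- GENERATED FILE (helper35, build-time optimisation, NOTES/ZB.md): verbatim concatenation of the modules
   Fermat.Agent.W1.S19Glue
   Fermat.Agent.W1.S19Final
   Do not edit; do not import together with these modules. -/
import Mathlib
import Fermat.Prelude.Def_ModularCurve_ArithmeticGalois
import Fermat.Prelude.Def_GaloisRep_Flat
import Fermat.Agent.ZB.W1_001
import Fermat.Agent.ZB.W1_003
import Fermat.Agent.ZB.S28_005
import Fermat.Agent.ZB.W1_010
import Fermat.Agent.ZB.ES_001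
import Fermat.Agent.ZB.ES_012
import Fermat.Agent.ZB.ES_035
import Fermat.Agent.ZB.Common_001

/-! ### bundled: `Fermat.Agent.W1.S19Glue` -/
section ZBZ2W1_001_0

/-!
# W1-19: the glue — S19 from the pieces of WALL 1

* `S19Conclusion N ℓ k` : the conclusion of the frozen statement S19 (level `N`, prime `ℓ`).
* `s19Conclusion_of_hasFiniteFlatModel` : a finite flat model of `J₀(N)[ℓ^k]` in the sense of
  `PlanGL.lean` gives `S19Conclusion`.
* `s19Conclusion_of_kernelChart` : ALG-A + ALG-B + a kernel chart on `J₀(N)` + finiteness and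
  continuity of `J₀(N)[ℓ^k]` give `S19Conclusion`.
-/

set_option autoImplicit false

open ModularCurve

namespace Fermat.Agent.W1

/-- The conclusion of the frozen statement S19. -/
def S19Conclusion (N : ℕ) [NeZero N] (ℓ : ℕ) [Fact ℓ.Prime] (k : ℕ) : Prop :=
  ∃ (H : Type) (_ : CommRing H) (_ : HopfAlgebra (GaloisRep.ratLocalizedAt ℓ) H),
    Module.Finite (GaloisRep.ratLocalizedAt ℓ) H ∧ Module.Flat (GaloisRep.ratLocalizedAt ℓ) H ∧
    Coalgebra.IsCocomm (GaloisRep.ratLocalizedAt ℓ) H ∧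
    ∃ e : WithConv (H →ₐ[GaloisRep.ratLocalizedAt ℓ] AlgebraicClosure ℚ) ≃
        ↥(Submodule.torsionBy ℤ (JZero N) ((ℓ : ℤ) ^ k)),
      (∀ f g, e (f * g) = e f + e g) ∧
      ∀ (σ : AlgebraicClosure ℚ ≃ₐ[ℚ] AlgebraicClosure ℚ)
        (f g : WithConv (H →ₐ[GaloisRep.ratLocalizedAt ℓ] AlgebraicClosure ℚ)),
        (∀ h : H, g h = σ (f h)) → ((e g : JZero N)) = σ • (e f : JZero N)

/-- A finite flat model of `J₀(N)[ℓ^k]` (in the sense of `PlanGL.lean`) is what S19 asks for. -/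
theorem s19Conclusion_of_hasFiniteFlatModel (N : ℕ) [NeZero N] (ℓ : ℕ) [Fact ℓ.Prime] (k : ℕ)
    (h : HasFiniteFlatModel (GaloisRep.ratLocalizedAt ℓ)
      (Submodule.torsionBy ℤ (JZero N) ((ℓ : ℤ) ^ k)) (torsAct (JZero N) ((ℓ : ℤ) ^ k))) :
    S19Conclusion N ℓ k := by
  obtain ⟨H, i1, i2, h1, h2, h3, e, he1, he2⟩ := h
  refine ⟨H, i1, i2, h1, h2, h3, e, he1, fun σ f g hfg => ?_⟩
  rw [he2 σ f g hfg]
  rfl

/-- **W1-19 (glue).**  ALG-A (`LocalToGlobalStatement`), ALG-B (`ChartToLocalStatement`), a kernel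
chart on `J₀(N)` at a place over `ℓ`, and finiteness + continuity of the Galois module
`J₀(N)[ℓ^k]` give the conclusion of S19. -/
theorem s19Conclusion_of_kernelChart (hA : LocalToGlobalStatement) (hB : ChartToLocalStatement)
    (N : ℕ) [NeZero N] (ℓ : ℕ) [Fact ℓ.Prime] (k : ℕ)
    (A : ValuationSubring (AlgebraicClosure ℚ)) (hAℓ : A.LiesOverPrime ℓ)
    (J1 : AddSubgroup (JZero N)) (g : ℕ) (z : JZero N → Fin g → AlgebraicClosure ℚ)
    (hKC : KernelChart A (JZero N) J1 g z)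
    (hfin : Finite (Submodule.torsionBy ℤ (JZero N) ((ℓ : ℤ) ^ k)))
    (hcont : IsContAction (torsAct (JZero N) ((ℓ : ℤ) ^ k))) :
    S19Conclusion N ℓ k := by
  have hℓ : ℓ.Prime := Fact.out
  have hcast : (((ℓ ^ k : ℕ) : ℤ)) = (ℓ : ℤ) ^ k := by push_cast; rfl
  have hpos : 0 < ℓ ^ k := pow_pos hℓ.pos k
  have hfin' : Finite (Submodule.torsionBy ℤ (JZero N) ((ℓ ^ k : ℕ) : ℤ)) := by
    rw [hcast]; exact hfin
  have hcont' : IsContAction (torsAct (JZero N) ((ℓ ^ k : ℕ) : ℤ)) := by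
    rw [hcast]; exact hcont
  obtain ⟨Ht, hHt⟩ := hB ℓ hℓ A hAℓ (JZero N) inferInstance inferInstance J1 g z hKC
    (ℓ ^ k) hpos hfin' hcont'
  obtain ⟨H, hH⟩ := hA ℓ hℓ A hAℓ _ inferInstance hfin' _ hcont' Ht hHt
  have hmodel : HasFiniteFlatModel (GaloisRep.ratLocalizedAt ℓ)
      (Submodule.torsionBy ℤ (JZero N) ((ℓ ^ k : ℕ) : ℤ))
      (torsAct (JZero N) ((ℓ ^ k : ℕ) : ℤ)) :=
    hasFiniteFlatModel_of_isHopfLattice hH
  rw [hcast] at hmodel
  exact s19Conclusion_of_hasFiniteFlatModel N ℓ k hmodel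

end Fermat.Agent.W1


end ZBZ2W1_001_0

/-! ### bundled: `Fermat.Agent.W1.S19Final` -/
section ZBZ2W1_001_1

/-!
# W1 S19-FINAL: the frozen statement S19 from the Props of WALL 1 that are still open

Everything of WALL 1 that is landed is wired here:

* ALG-A `localToGlobalStatement` (`LocalToGlobalFinal.lean`: P1 + P2 + P3 + assembly);
* ALG-B `chartToLocalStatement`;
* (FIN) `s19f_finite` (from `ES.torsionUnif_proved`), (CONT) `s19f_cont` (from
  `ES.stmtFiniteLevel`);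
* the abstract geometry `hasKernelChart_of_hasModPR` (`GeoAll.lean`: GEO-KC with all its inputs);
* **SQ1 at the local level** (`s19f_localHopf_comap`): a local Hopf lattice on `M'` restricts
  along an injective equivariant additive map `M → M'` to a local Hopf lattice on `M`.

The pieces still open are the two hypotheses of `s19f_final`:

* `StmtModPRS19`    (**GEO-PR**): `HasModPR N A` for `ℓ ∤ N`, `2 ≤ N` and (`5 ≤ ℓ` or `5 - ℓ ∣ N`),
  the same levels as `StmtI2All` / `StmtI2AuxAll`;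
* `StmtLevelUpS19`  (**GEO-LVL**): `StmtLevelUp N (N * r) ℓ` for
  `(ℓ, r) = (3, 2)`, `(2, 3)` with `r ∤ N`, `ℓ ∤ N`, and for `N = 1`, `r = 2`, `5 ≤ ℓ`.

Levels: `ℓ ≥ 5`, `N ≥ 2`: directly.  `ℓ ≥ 5`, `N = 1`: from the level `1 * 2`.  `ℓ = 3`: directly
if `2 ∣ N`, from `N * 2` otherwise.  `ℓ = 2`: directly if `3 ∣ N`, from `N * 3` otherwise.
-/

set_option autoImplicit false

open ModularCurve

namespace Fermat.Agent.W1

/-! ## The landed inputs -/

theorem s19f_cast (ℓ k : ℕ) : (((ℓ ^ k : ℕ) : ℤ)) = (ℓ : ℤ) ^ k := by push_cast; rfl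

theorem s19f_nsmul_of_mem {J : Type} [AddCommGroup J] (ℓ k : ℕ) {x : J}
    (hx : x ∈ Submodule.torsionBy ℤ J ((ℓ : ℤ) ^ k)) : (ℓ ^ k) • x = 0 := by
  have hx' : ((ℓ : ℤ) ^ k) • x = 0 := (Submodule.mem_torsionBy_iff _ _).1 hx
  rw [← s19f_cast, natCast_zsmul] at hx'
  exact hx'

/-- **(FIN)**: `J₀(N)[ℓ^k]` is finite. -/
theorem s19f_finite (N : ℕ) [NeZero N] (ℓ : ℕ) (hℓ : ℓ ≠ 0) (k : ℕ) :
    Finite (Submodule.torsionBy ℤ (JZero N) ((ℓ : ℤ) ^ k)) := by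
  have h : {x : JZero N | (ℓ ^ k) • x = 0}.Finite :=
    Fermat.Agent.ES.jFinite_of_torsionUnif (M := N) (p := ℓ ^ k) (pow_ne_zero k hℓ)
      (Fermat.Agent.ES.torsionUnif_proved N (ℓ ^ k) (pow_pos (Nat.pos_of_ne_zero hℓ) k))
  have hsub : ((Submodule.torsionBy ℤ (JZero N) ((ℓ : ℤ) ^ k) : Submodule ℤ (JZero N)) :
      Set (JZero N)) ⊆ {x : JZero N | (ℓ ^ k) • x = 0} := by
    intro x hx
    exact s19f_nsmul_of_mem ℓ k hx
  exact Set.finite_coe_iff.2 (h.subset hsub)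

/-- **(CONT)**: the Galois action on `J₀(N)[ℓ^k]` has open stabilisers. -/
theorem s19f_cont (N : ℕ) [NeZero N] (ℓ : ℕ) (hℓ : ℓ ≠ 0) (k : ℕ) :
    IsContAction (torsAct (JZero N) ((ℓ : ℤ) ^ k)) where
  one P := Subtype.ext (one_smul _ _)
  mul σ τ P := Subtype.ext (mul_smul σ τ _)
  add σ P Q := Subtype.ext (smul_add σ _ _)
  open_stab P := by
    have hP : Fermat.Agent.ES.IsPPowerTorsion ℓ (P : JZero N) :=
      ⟨k, s19f_nsmul_of_mem ℓ k P.2⟩
    obtain ⟨E, hE, h⟩ := Fermat.Agent.ES.stmtFiniteLevel N ℓ hℓ (P : JZero N) hP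
    exact ⟨E, hE, fun σ hσ => Subtype.ext (h σ hσ)⟩

/-! ## SQ1 at the local level: restriction along an injective equivariant map -/

section Comap

variable (A : ValuationSubring (AlgebraicClosure ℚ)) {M M' : Type}

/-- composition with `ι : M → M'`, as a map of `A`-algebras `Map(M', ℚ̄) → Map(M, ℚ̄)` -/
noncomputable def s19fComap (ι : M → M') :
    (M' → AlgebraicClosure ℚ) →ₐ[A] (M → AlgebraicClosure ℚ) :=
  AlgHom.pi (fun P : M => Pi.evalAlgHom A (fun _ : M' => AlgebraicClosure ℚ) (ι P))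

@[simp] theorem s19fComap_apply (ι : M → M') (h : M' → AlgebraicClosure ℚ) (P : M) :
    s19fComap A ι h P = h (ι P) := rfl

variable [AddCommGroup M] [AddCommGroup M']

/-- **SQ1 (local)**: a local Hopf lattice on `M'` restricts to a local Hopf lattice on `M`
along an injective, equivariant, additive map `ι : M → M'`. -/
theorem s19f_localHopf_comap
    (act : (AlgebraicClosure ℚ ≃ₐ[ℚ] AlgebraicClosure ℚ) → M → M)
    (act' : (AlgebraicClosure ℚ ≃ₐ[ℚ] AlgebraicClosure ℚ) → M' → M')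
    (ι : M →+ M') (hι : Function.Injective ι)
    (heq : ∀ σ P, ι (act σ P) = act' σ (ι P))
    (Ht' : Subalgebra A (M' → AlgebraicClosure ℚ)) (h : IsLocalHopfLattice A act' Ht') :
    IsLocalHopfLattice A act (Ht'.map (s19fComap A ι)) := by
  refine ⟨?_, ?_, ?_, ?_, ?_⟩
  · -- integral
    rintro _ ⟨f, hf, rfl⟩ P
    exact h.integral f hf (ι P)
  · -- separates
    intro P Q hPQ
    apply hι
    apply h.separates
    intro f hf
    exact hPQ _ ⟨f, hf, rfl⟩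
  · -- decomp_stable
    rintro σ hσ _ ⟨f, hf, rfl⟩
    refine ⟨_, h.decomp_stable σ hσ f hf, ?_⟩
    funext P
    simp only [AlgHom.coe_toRingHom, s19fComap_apply, heq]
  · -- inertia_span
    rintro _ ⟨f, hf, rfl⟩
    have h1 := h.inertia_span f hf
    have h2 : (s19fComap A ι).toLinearMap f ∈
        (Submodule.span A {f : M' → AlgebraicClosure ℚ | f ∈ Ht' ∧
          ∀ σ ∈ A.inertiaSubgroupIn ℚ, ∀ P : M', f (act' σ P) = σ (f P)}).map
          (s19fComap A ι).toLinearMap := Submodule.mem_map_of_mem h1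
    rw [Submodule.map_span] at h2
    refine Submodule.span_mono ?_ h2
    rintro _ ⟨a, ⟨ha, ha'⟩, rfl⟩
    refine ⟨⟨a, ha, rfl⟩, fun σ hσ P => ?_⟩
    simp only [AlgHom.toLinearMap_apply, s19fComap_apply, heq, ha' σ hσ]
  · -- comul_mem
    rintro _ ⟨f, hf, rfl⟩
    have h1 := h.comul_mem f hf
    have h2 : (s19fComap A (Prod.map ι ι)).toLinearMap (fun PQ : M' × M' => f (PQ.1 + PQ.2)) ∈
        (Submodule.span A {F : M' × M' → AlgebraicClosure ℚ |
          ∃ a ∈ Ht', ∃ b ∈ Ht', F = fun PQ => a PQ.1 * b PQ.2}).map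
          (s19fComap A (Prod.map ι ι)).toLinearMap := Submodule.mem_map_of_mem h1
    rw [Submodule.map_span] at h2
    have h3 : (fun PQ : M × M => (s19fComap A ι f) (PQ.1 + PQ.2)) =
        (s19fComap A (Prod.map ι ι)).toLinearMap (fun PQ : M' × M' => f (PQ.1 + PQ.2)) := by
      funext PQ
      simp only [AlgHom.toLinearMap_apply, s19fComap_apply, map_add, Prod.map_fst, Prod.map_snd]
    rw [AlgHom.coe_toRingHom, h3]
    refine Submodule.span_mono ?_ h2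
    rintro _ ⟨F, ⟨a, ha, b, hb, rfl⟩, rfl⟩
    exact ⟨_, ⟨a, ha, rfl⟩, _, ⟨b, hb, rfl⟩, rfl⟩

end Comap

/-! ## The open inputs -/

/-- **GEO-PR** at the levels where the modular side delivers it (the levels of `StmtI2All` and
`StmtI2AuxAll`). -/
def StmtModPRS19 : Prop :=
  ∀ (N : ℕ) [NeZero N] (ℓ : ℕ), ℓ.Prime → ¬ ℓ ∣ N → 2 ≤ N → (5 ≤ ℓ ∨ (5 - ℓ) ∣ N) →
    ∀ A : ValuationSubring (AlgebraicClosure ℚ), A.LiesOverPrime ℓ → HasModPR N A

/-- **GEO-LVL** at the levels needed for S19: `(ℓ, r) = (3, 2)`, `(2, 3)` with `r ∤ N`, and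
`N = 1`, `r = 2`, `5 ≤ ℓ`. -/
def StmtLevelUpS19 : Prop :=
  ∀ (N r ℓ : ℕ) [NeZero N] [NeZero (N * r)], r.Prime → ¬ r ∣ N → ℓ.Prime → ¬ ℓ ∣ N → ℓ ≠ r →
    (ℓ < 5 → r = 5 - ℓ) → (5 ≤ ℓ → N = 1 ∧ r = 2) → StmtLevelUp N (N * r) ℓ

/-- `J₀(N)[ℓ^k]` carries a local Hopf lattice over `A`. -/
def HasLocalHopf (N : ℕ) [NeZero N] (ℓ k : ℕ) (A : ValuationSubring (AlgebraicClosure ℚ)) :
    Prop :=
  ∃ Ht : Subalgebra A (Submodule.torsionBy ℤ (JZero N) ((ℓ : ℤ) ^ k) → AlgebraicClosure ℚ),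
    IsLocalHopfLattice A (torsAct (JZero N) ((ℓ : ℤ) ^ k)) Ht

/-! ## The steps -/

/-- ALG-B: a kernel chart at the level `N` gives a local Hopf lattice on `J₀(N)[ℓ^k]`. -/
theorem s19f_hasLocalHopf_of_kernelChart (N : ℕ) [NeZero N] (ℓ : ℕ) (hℓ : ℓ.Prime) (k : ℕ)
    (A : ValuationSubring (AlgebraicClosure ℚ)) (hA : A.LiesOverPrime ℓ)
    (hKC : HasKernelChart N A) : HasLocalHopf N ℓ k A := by
  obtain ⟨J1, g, z, hz⟩ := hKC
  have hfin : Finite (Submodule.torsionBy ℤ (JZero N) ((ℓ ^ k : ℕ) : ℤ)) := by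
    rw [s19f_cast]; exact s19f_finite N ℓ hℓ.ne_zero k
  have hcont : IsContAction (torsAct (JZero N) ((ℓ ^ k : ℕ) : ℤ)) := by
    rw [s19f_cast]; exact s19f_cont N ℓ hℓ.ne_zero k
  have h := chartToLocalStatement ℓ hℓ A hA (JZero N) inferInstance inferInstance J1 g z hz
    (ℓ ^ k) (pow_pos hℓ.pos k) hfin hcont
  rw [s19f_cast] at h
  exact h

/-- ALG-A: a local Hopf lattice on `J₀(N)[ℓ^k]` gives the conclusion of S19. -/
theorem s19f_conclusion_of_hasLocalHopf (N : ℕ) [NeZero N] (ℓ : ℕ) [Fact ℓ.Prime] (k : ℕ)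
    (A : ValuationSubring (AlgebraicClosure ℚ)) (hA : A.LiesOverPrime ℓ)
    (h : HasLocalHopf N ℓ k A) : S19Conclusion N ℓ k := by
  have hℓ : ℓ.Prime := Fact.out
  obtain ⟨Ht, hHt⟩ := h
  have hfin : Finite (Submodule.torsionBy ℤ (JZero N) ((ℓ : ℤ) ^ k)) :=
    s19f_finite N ℓ hℓ.ne_zero k
  obtain ⟨H, hH⟩ := localToGlobalStatement ℓ hℓ A hA _ inferInstance hfin _
    (s19f_cont N ℓ hℓ.ne_zero k) Ht hHt
  exact s19Conclusion_of_hasFiniteFlatModel N ℓ k (hasFiniteFlatModel_of_isHopfLattice hH)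

/-- the map induced on `c`-torsion by an additive map -/
noncomputable def s19fTorsMap {J J' : Type} [AddCommGroup J] [AddCommGroup J'] (φ : J →+ J')
    (c : ℤ) : Submodule.torsionBy ℤ J c →+ Submodule.torsionBy ℤ J' c where
  toFun x := ⟨φ x, by
    rw [Submodule.mem_torsionBy_iff, ← map_zsmul, (Submodule.mem_torsionBy_iff _ _).1 x.2,
      map_zero]⟩
  map_zero' := Subtype.ext (map_zero φ)
  map_add' x y := Subtype.ext (map_add φ _ _)

/-- GEO-LVL + SQ1: a local Hopf lattice on `J₀(N')[ℓ^k]` gives one on `J₀(N)[ℓ^k]`. -/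
theorem s19f_hasLocalHopf_levelUp (N N' : ℕ) [NeZero N] [NeZero N'] (ℓ k : ℕ)
    (A : ValuationSubring (AlgebraicClosure ℚ)) (hLvl : StmtLevelUp N N' ℓ)
    (h : HasLocalHopf N' ℓ k A) : HasLocalHopf N ℓ k A := by
  obtain ⟨φ, hφeq, hφinj⟩ := hLvl
  obtain ⟨Ht', hHt'⟩ := h
  refine ⟨Ht'.map (s19fComap A (s19fTorsMap φ ((ℓ : ℤ) ^ k))),
    s19f_localHopf_comap A _ _ (s19fTorsMap φ ((ℓ : ℤ) ^ k)) ?_ ?_ Ht' hHt'⟩
  · -- injective
    rw [injective_iff_map_eq_zero]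
    intro x hx
    have hx0 : φ (x : JZero N) = 0 := congrArg Subtype.val hx
    have hxk : (ℓ ^ k) • (x : JZero N) = 0 := s19f_nsmul_of_mem ℓ k x.2
    exact Subtype.ext (hφinj _ ⟨k, hxk⟩ hx0)
  · -- equivariant
    intro σ P
    exact Subtype.ext (hφeq σ _)

/-- the kernel chart at the levels of `StmtModPRS19` -/
theorem s19f_hasKernelChart (hPR : StmtModPRS19)
    (N : ℕ) [NeZero N] (ℓ : ℕ) (hℓ : ℓ.Prime) (hℓN : ¬ ℓ ∣ N) (hN : 2 ≤ N)
    (h5 : 5 ≤ ℓ ∨ (5 - ℓ) ∣ N)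
    (A : ValuationSubring (AlgebraicClosure ℚ)) (hA : A.LiesOverPrime ℓ) :
    HasKernelChart N A :=
  hasKernelChart_of_hasModPR N ℓ hℓ A hA (hPR N ℓ hℓ hℓN hN h5 A hA)

/-- the local Hopf lattice at an auxiliary level `N * r` comes down to the level `N` -/
theorem s19f_hasLocalHopf_aux (hPR : StmtModPRS19) (hLvl : StmtLevelUpS19) (N r : ℕ)
    [NeZero N] (ℓ : ℕ) (hℓ : ℓ.Prime) (hℓN : ¬ ℓ ∣ N)
    (hr : r.Prime) (hrN : ¬ r ∣ N) (hℓr : ℓ ≠ r)
    (h1 : ℓ < 5 → r = 5 - ℓ) (h2 : 5 ≤ ℓ → N = 1 ∧ r = 2) (k : ℕ)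
    (A : ValuationSubring (AlgebraicClosure ℚ)) (hA : A.LiesOverPrime ℓ) :
    HasLocalHopf N ℓ k A := by
  have hN : N ≠ 0 := NeZero.ne N
  have : NeZero (N * r) := ⟨mul_ne_zero hN hr.ne_zero⟩
  have hℓNr : ¬ ℓ ∣ N * r := by
    intro h
    rcases (Nat.Prime.dvd_mul hℓ).1 h with h | h
    · exact hℓN h
    · exact hℓr ((Nat.prime_dvd_prime_iff_eq hℓ hr).1 h)
  have hge : 2 ≤ N * r := by
    have h1 : 1 ≤ N := Nat.one_le_iff_ne_zero.2 hN
    have h2 := hr.two_le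
    nlinarith
  have h5 : 5 ≤ ℓ ∨ (5 - ℓ) ∣ N * r := by
    by_cases h : 5 ≤ ℓ
    · exact Or.inl h
    · right
      rw [← h1 (by omega)]
      exact Dvd.intro_left N rfl
  exact s19f_hasLocalHopf_levelUp N (N * r) ℓ k A
    (hLvl N r ℓ hr hrN hℓ hℓN hℓr h1 h2)
    (s19f_hasLocalHopf_of_kernelChart (N * r) ℓ hℓ k A hA
      (s19f_hasKernelChart hPR (N * r) ℓ hℓ hℓNr hge h5 A hA))

/-! ## The final statement -/

/-- **S19-FINAL**: the two open pieces of WALL 1 give the conclusion of S19 at every level. -/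
theorem s19f_final (hPR : StmtModPRS19) (hLvl : StmtLevelUpS19) (N : ℕ) [NeZero N] (ℓ : ℕ)
    [Fact ℓ.Prime] (hℓN : ¬ ℓ ∣ N) (k : ℕ) :
    S19Conclusion N ℓ k := by
  have hℓ : ℓ.Prime := Fact.out
  have hN : N ≠ 0 := NeZero.ne N
  obtain ⟨A, hA⟩ := Fermat.Agent.Common.exists_liesOverPrime ℓ hℓ
  refine s19f_conclusion_of_hasLocalHopf N ℓ k A hA ?_
  have direct : 2 ≤ N → (5 ≤ ℓ ∨ (5 - ℓ) ∣ N) → HasLocalHopf N ℓ k A := fun h2 h5 =>
    s19f_hasLocalHopf_of_kernelChart N ℓ hℓ k A hA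
      (s19f_hasKernelChart hPR N ℓ hℓ hℓN h2 h5 A hA)
  by_cases h5 : 5 ≤ ℓ
  · -- `ℓ ≥ 5`
    by_cases h2 : 2 ≤ N
    · exact direct h2 (Or.inl h5)
    · -- `N = 1`: from the level `1 * 2`
      have hN1 : N = 1 := by omega
      refine s19f_hasLocalHopf_aux hPR hLvl N 2 ℓ hℓ hℓN Nat.prime_two ?_ ?_ ?_ ?_ k A hA
      · rw [hN1]; decide
      · omega
      · intro h; omega
      · intro _; exact ⟨hN1, rfl⟩
  · -- `ℓ ∈ {2, 3}`
    have hℓ23 : ℓ = 2 ∨ ℓ = 3 := by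
      have hlt : ℓ < 5 := by omega
      have h2 := hℓ.two_le
      interval_cases ℓ
      · exact Or.inl rfl
      · exact Or.inr rfl
      · exact absurd hℓ (by decide)
    rcases hℓ23 with h | h
    · -- `ℓ = 2`: the level `N` if `3 ∣ N`, the level `N * 3` otherwise
      by_cases h3 : 3 ∣ N
      · refine direct ?_ (Or.inr ?_)
        · have := Nat.le_of_dvd (Nat.pos_of_ne_zero hN) h3
          omega
        · rw [h]; exact h3
      · refine s19f_hasLocalHopf_aux hPR hLvl N 3 ℓ hℓ hℓN Nat.prime_three h3 ?_ ?_ ?_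
          k A hA
        · omega
        · intro _; omega
        · intro h'; omega
    · -- `ℓ = 3`: the level `N` if `2 ∣ N`, the level `N * 2` otherwise
      by_cases h2 : 2 ∣ N
      · refine direct (Nat.le_of_dvd (Nat.pos_of_ne_zero hN) h2) (Or.inr ?_)
        rw [h]; exact h2
      · refine s19f_hasLocalHopf_aux hPR hLvl N 2 ℓ hℓ hℓN Nat.prime_two h2 ?_ ?_ ?_
          k A hA
        · omega
        · intro _; omega
        · intro h'; omega

/-- **S19-FINAL, frozen form**: the conclusion is verbatim the type of the frozen statement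
S19 (binders as in `Fermat/Templates/S19.lean.txt`). -/
theorem s19f_frozen (hPR : StmtModPRS19) (hLvl : StmtLevelUpS19)
    (p : ℕ) [NeZero p] (ℓ : ℕ) [Fact ℓ.Prime] (hℓp : ¬ ℓ ∣ p) (k : ℕ) :
    ∃ (H : Type) (_ : CommRing H) (_ : HopfAlgebra (GaloisRep.ratLocalizedAt ℓ) H),
      Module.Finite (GaloisRep.ratLocalizedAt ℓ) H ∧ Module.Flat (GaloisRep.ratLocalizedAt ℓ) H ∧
      Coalgebra.IsCocomm (GaloisRep.ratLocalizedAt ℓ) H ∧
      ∃ e : WithConv (H →ₐ[GaloisRep.ratLocalizedAt ℓ] AlgebraicClosure ℚ) ≃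
          ↥(Submodule.torsionBy ℤ (JZero p) ((ℓ : ℤ) ^ k)),
        (∀ f g, e (f * g) = e f + e g) ∧
        ∀ (σ : AlgebraicClosure ℚ ≃ₐ[ℚ] AlgebraicClosure ℚ)
          (f g : WithConv (H →ₐ[GaloisRep.ratLocalizedAt ℓ] AlgebraicClosure ℚ)),
          (∀ h : H, g h = σ (f h)) → ((e g : JZero p)) = σ • (e f : JZero p) :=
  s19f_final hPR hLvl p ℓ hℓp k

end Fermat.Agent.W1


end ZBZ2W1_001_1
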