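/- GENERATED FILE (helper35, build-time optimisation, NOTES/ZB.md): verbatim concatenation of the modules
   Fermat.Agent.S15.SelJJ
   Fermat.Agent.S15.SelJJKC
   Fermat.Agent.S15.SelJJAux
   Fermat.Agent.S15.SelRC
   Fermat.Agent.S15.SelLQ
   Fermat.Agent.S15.SelLQFinal
   Fermat.Agent.S15.SelJJPkg
   Do not edit; do not import together with these modules. -/
import Fermat.Agent.ZB.W1_001
import Fermat.Agent.ZB.W1_010
import Fermat.Agent.ZB.W1_003
import Fermat.Agent.ZB.Z2W1_003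
import Fermat.Agent.ZB.DEU_005
import Fermat.Agent.ZB.ES_027
import Fermat.Agent.ZB.Z2S15_037
import Fermat.Agent.ZB.Z2W1_001

/-! ### bundled: `Fermat.Agent.S15.SelJJ` -/
section ZBZ2S15_034_0

/-!
# S15 / SELMER, piece SEL-JJ (part 1): the group `𝕁_y = (J ⊕ ℤ) / ℤ·(y, -n)`

`J` a `G_ℚ`-module, `y ∈ J` fixed by `G_ℚ`, `n > 0`.  In `𝕁_y` the class `e = [(0, 1)]` is an
`n`-th root of (the image of) `y`; `𝕁_y[n]` is the extension of `ℤ/n` by `J[n]` whose class is
the Kummer class of `y`:  `[(R, m)] ∈ 𝕁_y[n] ↔ n • R + m • y = 0`.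

* `SeljjJ J y n` : the group, `seljjMk : J × ℤ →+ 𝕁_y`, `seljjIota : J →+ 𝕁_y` (injective);
* the Galois action (`[Fact (∀ σ, σ • y = y)]`): `σ • [(R, m)] = [(σ • R, m)]`;
* `seljj_kernelChart` : a kernel chart `(J1, g, z)` of `J` with FULL lift gives a kernel chart
  of `𝕁_y` (with FULL lift again);
* `seljj_finite_torsion`, `seljj_isContAction` : finiteness and continuity on `𝕁_y[n]`.
-/

set_option autoImplicit false
set_option linter.unusedSectionVars false
set_option linter.style.haveILetI false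

noncomputable section

namespace Fermat.Agent.S15

open Fermat.Agent.W1

/-- the relation subgroup `ℤ · (y, -n)` -/
def seljjRel (J : Type) [AddCommGroup J] (y : J) (n : ℕ) : AddSubgroup (J × ℤ) :=
  AddSubgroup.zmultiples ((y, -(n : ℤ)) : J × ℤ)

/-- `𝕁_y = (J ⊕ ℤ) / ℤ·(y, -n)` -/
def SeljjJ (J : Type) [AddCommGroup J] (y : J) (n : ℕ) : Type := (J × ℤ) ⧸ seljjRel J y n

section group

variable (J : Type) [AddCommGroup J] (y : J) (n : ℕ)

instance seljjAddCommGroup : AddCommGroup (SeljjJ J y n) :=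
  inferInstanceAs (AddCommGroup ((J × ℤ) ⧸ seljjRel J y n))

/-- the class of `(R, m)` -/
def seljjMk : J × ℤ →+ SeljjJ J y n := QuotientAddGroup.mk' (seljjRel J y n)

theorem seljjMk_surjective : Function.Surjective (seljjMk J y n) :=
  QuotientAddGroup.mk'_surjective _

theorem mem_seljjRel_iff (x : J × ℤ) :
    x ∈ seljjRel J y n ↔ ∃ a : ℤ, x.1 = a • y ∧ x.2 = -(a * n) := by
  unfold seljjRel
  rw [AddSubgroup.mem_zmultiples_iff]
  constructor
  · rintro ⟨a, rfl⟩
    refine ⟨a, ?_, ?_⟩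
    · simp
    · simp
  · rintro ⟨a, h1, h2⟩
    refine ⟨a, ?_⟩
    apply Prod.ext
    · simp [h1]
    · simp [h2]

theorem seljjMk_eq_zero_iff (x : J × ℤ) :
    seljjMk J y n x = 0 ↔ ∃ a : ℤ, x.1 = a • y ∧ x.2 = -(a * n) := by
  rw [← mem_seljjRel_iff]
  exact QuotientAddGroup.eq_zero_iff x

theorem seljjMk_eq_iff (x x' : J × ℤ) :
    seljjMk J y n x = seljjMk J y n x' ↔ ∃ a : ℤ, x.1 - x'.1 = a • y ∧ x.2 - x'.2 = -(a * n) := by
  rw [← sub_eq_zero, ← map_sub, seljjMk_eq_zero_iff]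
  rfl

/-- `J → 𝕁_y` -/
def seljjIota : J →+ SeljjJ J y n := (seljjMk J y n).comp (AddMonoidHom.inl J ℤ)

@[simp] theorem seljjIota_apply (R : J) : seljjIota J y n R = seljjMk J y n (R, 0) := rfl

theorem seljjIota_injective (hn : 0 < n) : Function.Injective (seljjIota J y n) := by
  rw [injective_iff_map_eq_zero]
  intro R hR
  rw [seljjIota_apply, seljjMk_eq_zero_iff] at hR
  obtain ⟨a, h1, h2⟩ := hR
  have hn' : (n : ℤ) ≠ 0 := by exact_mod_cast hn.ne'
  have ha : a = 0 := by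
    have h3 : a * (n : ℤ) = 0 := by
      have : (0 : ℤ) = -(a * n) := h2
      linarith
    rcases mul_eq_zero.1 h3 with h | h
    · exact h
    · exact absurd h hn'
  have h4 : R = a • y := h1
  rw [h4, ha, zero_smul]

/-- the `n`-th root `e = [(0, 1)]` of `y` -/
theorem seljj_root : (n : ℤ) • seljjMk J y n (0, 1) = seljjIota J y n y := by
  rw [seljjIota_apply, ← map_zsmul, seljjMk_eq_iff]
  refine ⟨-1, ?_, ?_⟩
  · simp
  · simp

/-- membership in `𝕁_y[n]` -/
theorem seljj_zsmul_mk_eq_zero_iff (hn : 0 < n) (R : J) (m : ℤ) :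
    (n : ℤ) • seljjMk J y n (R, m) = 0 ↔ (n : ℤ) • R + m • y = 0 := by
  have hn' : (n : ℤ) ≠ 0 := by exact_mod_cast hn.ne'
  rw [← map_zsmul, seljjMk_eq_zero_iff]
  constructor
  · rintro ⟨a, h1, h2⟩
    have h3 : m = -a := by
      have h4 : (n : ℤ) * m = -(a * n) := by simpa using h2
      have h5 : (n : ℤ) * (m + a) = 0 := by linarith
      rcases mul_eq_zero.1 h5 with h | h
      · exact absurd h hn'
      · linarith
    have h6 : (n : ℤ) • R = a • y := by simpa using h1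
    rw [h6, h3, neg_smul, add_neg_cancel]
  · intro h
    refine ⟨-m, ?_, ?_⟩
    · have : (n : ℤ) • R = -(m • y) := eq_neg_of_add_eq_zero_left h
      simp [this]
    · simp [mul_comm]

end group

/-! ### The Galois action -/

section action

variable (J : Type) [AddCommGroup J]
  [DistribMulAction (AlgebraicClosure ℚ ≃ₐ[ℚ] AlgebraicClosure ℚ) J] (y : J) (n : ℕ)

/-- `(R, m) ↦ (σ • R, m)` -/
def seljjPreAct (σ : AlgebraicClosure ℚ ≃ₐ[ℚ] AlgebraicClosure ℚ) : J × ℤ →+ J × ℤ :=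
  AddMonoidHom.prodMap (DistribSMul.toAddMonoidHom J σ) (AddMonoidHom.id ℤ)

@[simp] theorem seljjPreAct_apply (σ : AlgebraicClosure ℚ ≃ₐ[ℚ] AlgebraicClosure ℚ) (x : J × ℤ) :
    seljjPreAct J σ x = (σ • x.1, x.2) := rfl

variable [hy : Fact (∀ σ : AlgebraicClosure ℚ ≃ₐ[ℚ] AlgebraicClosure ℚ, σ • y = y)]

theorem seljjRel_le_comap (σ : AlgebraicClosure ℚ ≃ₐ[ℚ] AlgebraicClosure ℚ) :
    seljjRel J y n ≤ (seljjRel J y n).comap (seljjPreAct J σ) := by
  intro x hx
  rw [AddSubgroup.mem_comap, mem_seljjRel_iff]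
  rw [mem_seljjRel_iff] at hx
  obtain ⟨a, h1, h2⟩ := hx
  refine ⟨a, ?_, h2⟩
  rw [seljjPreAct_apply]
  show σ • x.1 = a • y
  rw [h1, smul_comm, hy.out σ]

/-- the action of `σ` on `𝕁_y` -/
def seljjAct (σ : AlgebraicClosure ℚ ≃ₐ[ℚ] AlgebraicClosure ℚ) : SeljjJ J y n →+ SeljjJ J y n :=
  QuotientAddGroup.map (seljjRel J y n) (seljjRel J y n) (seljjPreAct J σ)
    (seljjRel_le_comap J y n σ)

theorem seljjAct_mk (σ : AlgebraicClosure ℚ ≃ₐ[ℚ] AlgebraicClosure ℚ) (x : J × ℤ) :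
    seljjAct J y n σ (seljjMk J y n x) = seljjMk J y n (σ • x.1, x.2) := rfl

instance seljjDistribMulAction :
    DistribMulAction (AlgebraicClosure ℚ ≃ₐ[ℚ] AlgebraicClosure ℚ) (SeljjJ J y n) where
  smul σ x := seljjAct J y n σ x
  one_smul x := by
    obtain ⟨x, rfl⟩ := seljjMk_surjective J y n x
    show seljjAct J y n 1 (seljjMk J y n x) = _
    rw [seljjAct_mk, one_smul]
  mul_smul σ τ x := by
    obtain ⟨x, rfl⟩ := seljjMk_surjective J y n x
    show seljjAct J y n (σ * τ) (seljjMk J y n x) =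
      seljjAct J y n σ (seljjAct J y n τ (seljjMk J y n x))
    rw [seljjAct_mk, seljjAct_mk, seljjAct_mk, mul_smul]
  smul_zero σ := map_zero (seljjAct J y n σ)
  smul_add σ x x' := map_add (seljjAct J y n σ) x x'

@[simp] theorem seljj_smul_mk (σ : AlgebraicClosure ℚ ≃ₐ[ℚ] AlgebraicClosure ℚ) (x : J × ℤ) :
    σ • seljjMk J y n x = seljjMk J y n (σ • x.1, x.2) := rfl

theorem seljj_smul_iota (σ : AlgebraicClosure ℚ ≃ₐ[ℚ] AlgebraicClosure ℚ) (R : J) :
    σ • seljjIota J y n R = seljjIota J y n (σ • R) := rfl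

end action

/-! ### The kernel chart of `𝕁_y` -/

section chart

variable {J : Type} [AddCommGroup J]
  [DistribMulAction (AlgebraicClosure ℚ ≃ₐ[ℚ] AlgebraicClosure ℚ) J] (y : J) (n : ℕ)
  [hy : Fact (∀ σ : AlgebraicClosure ℚ ≃ₐ[ℚ] AlgebraicClosure ℚ, σ • y = y)]
  {A : ValuationSubring (AlgebraicClosure ℚ)} {J1 : AddSubgroup J} {g : ℕ}

/-- the coordinate `z`, transported to `𝕁_y` (it is only used on the image of `J1`) -/
def seljjZ (z : J → Fin g → AlgebraicClosure ℚ) : SeljjJ J y n → Fin g → AlgebraicClosure ℚ :=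
  Function.extend (seljjIota J y n) z (fun _ _ => 0)

theorem seljjZ_iota (hn : 0 < n) (z : J → Fin g → AlgebraicClosure ℚ) (R : J) :
    seljjZ y n z (seljjIota J y n R) = z R :=
  (seljjIota_injective J y n hn).extend_apply _ _ _

/-- FULL lift for `𝕁_y` from FULL lift for `J`. -/
theorem seljj_lift
    (hlift : ∀ x : J, ∃ b : J, (∀ σ ∈ A.inertiaSubgroupIn ℚ, σ • b = b) ∧ x - b ∈ J1)
    (x : SeljjJ J y n) :
    ∃ b : SeljjJ J y n, (∀ σ ∈ A.inertiaSubgroupIn ℚ, σ • b = b) ∧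
      x - b ∈ J1.map (seljjIota J y n) := by
  obtain ⟨⟨R, m⟩, rfl⟩ := seljjMk_surjective J y n x
  obtain ⟨b, hb1, hb2⟩ := hlift R
  refine ⟨seljjMk J y n (b, m), ?_, ?_⟩
  · intro σ hσ
    rw [seljj_smul_mk]
    show seljjMk J y n (σ • b, m) = _
    rw [hb1 σ hσ]
  · refine ⟨R - b, hb2, ?_⟩
    rw [seljjIota_apply, ← map_sub]
    congr 1
    simp

/-- **the kernel chart of `𝕁_y`** -/
theorem seljj_kernelChart (hn : 0 < n) {z : J → Fin g → AlgebraicClosure ℚ}
    (hKC : KernelChart A J J1 g z)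
    (hlift : ∀ x : J, ∃ b : J, (∀ σ ∈ A.inertiaSubgroupIn ℚ, σ • b = b) ∧ x - b ∈ J1) :
    KernelChart A (SeljjJ J y n) (J1.map (seljjIota J y n)) g (seljjZ y n z) where
  decomp_stable := by
    rintro σ hσ _ ⟨R, hR, rfl⟩
    exact ⟨σ • R, hKC.decomp_stable σ hσ R hR, (seljj_smul_iota J y n σ R).symm⟩
  mem_nonunits := by
    rintro _ ⟨R, hR, rfl⟩ i
    rw [seljjZ_iota y n hn]
    exact hKC.mem_nonunits R hR i
  injOn := by
    rintro _ ⟨R, hR, rfl⟩ _ ⟨R', hR', rfl⟩ h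
    rw [seljjZ_iota y n hn, seljjZ_iota y n hn] at h
    rw [hKC.injOn R hR R' hR' h]
  inertia_equivariant := by
    rintro σ hσ _ ⟨R, hR, rfl⟩ i
    rw [seljj_smul_iota, seljjZ_iota y n hn, seljjZ_iota y n hn]
    exact hKC.inertia_equivariant σ hσ R hR i
  add_approx := by
    intro ϖ hϖ hϖ0 m
    obtain ⟨F, hF1, hF2⟩ := hKC.add_approx ϖ hϖ hϖ0 m
    refine ⟨F, hF1, ?_⟩
    rintro _ ⟨R, hR, rfl⟩ _ ⟨R', hR', rfl⟩ h1 h2 i
    rw [← map_add]
    simp only [seljjZ_iota y n hn] at h1 h2 ⊢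
    exact hF2 R hR R' hR' h1 h2 i
  lift := fun x _ => seljj_lift y n hlift x

end chart

/-! ### Finiteness and continuity of `𝕁_y[n]` -/

section torsion

variable {J : Type} [AddCommGroup J]
  [DistribMulAction (AlgebraicClosure ℚ ≃ₐ[ℚ] AlgebraicClosure ℚ) J] (y : J) (n : ℕ)

/-- every class has a representative `(R, m)` with `0 ≤ m < n` -/
theorem seljj_exists_rep (hn : 0 < n) (x : SeljjJ J y n) :
    ∃ (R : J) (m : Fin n), x = seljjMk J y n (R, (m : ℤ)) := by
  obtain ⟨⟨R, m⟩, rfl⟩ := seljjMk_surjective J y n x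
  have hn' : (0 : ℤ) < n := by exact_mod_cast hn
  have h0 : 0 ≤ m % (n : ℤ) := Int.emod_nonneg _ hn'.ne'
  have h1 : m % (n : ℤ) < n := Int.emod_lt_of_pos _ hn'
  have h2 : ((m % (n : ℤ)).toNat : ℤ) = m % (n : ℤ) := Int.toNat_of_nonneg h0
  have h3 : (m % (n : ℤ)).toNat < n := by
    have : ((m % (n : ℤ)).toNat : ℤ) < n := by rw [h2]; exact h1
    exact_mod_cast this
  refine ⟨R + (m / (n : ℤ)) • y, ⟨(m % (n : ℤ)).toNat, h3⟩, ?_⟩
  rw [seljjMk_eq_iff]
  refine ⟨-(m / (n : ℤ)), ?_, ?_⟩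
  · simp
  · show m - ((m % (n : ℤ)).toNat : ℤ) = _
    rw [h2]
    have := Int.emod_add_mul_ediv m n
    linarith

theorem seljj_finite_torsion (hn : 0 < n)
    (hfin : Finite (Submodule.torsionBy ℤ J (n : ℤ))) :
    Finite (Submodule.torsionBy ℤ (SeljjJ J y n) (n : ℤ)) := by
  classical
  -- base points
  let s : Fin n → J := fun m =>
    if h : ∃ R : J, (n : ℤ) • R + ((m : ℕ) : ℤ) • y = 0 then h.choose else 0
  let φ : Submodule.torsionBy ℤ J (n : ℤ) × Fin n → SeljjJ J y n := fun p =>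
    seljjMk J y n ((p.1 : J) + s p.2, ((p.2 : ℕ) : ℤ))
  have hsub : ((Submodule.torsionBy ℤ (SeljjJ J y n) (n : ℤ) : Submodule ℤ (SeljjJ J y n)) :
      Set (SeljjJ J y n)) ⊆ Set.range φ := by
    intro x hx
    rw [SetLike.mem_coe, Submodule.mem_torsionBy_iff] at hx
    obtain ⟨R, m, rfl⟩ := seljj_exists_rep y n hn x
    rw [seljj_zsmul_mk_eq_zero_iff J y n hn] at hx
    have hex : ∃ R : J, (n : ℤ) • R + ((m : ℕ) : ℤ) • y = 0 := ⟨R, hx⟩
    have hs : (n : ℤ) • s m + ((m : ℕ) : ℤ) • y = 0 := by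
      show (n : ℤ) • (if h : ∃ R : J, (n : ℤ) • R + ((m : ℕ) : ℤ) • y = 0 then h.choose else 0)
        + ((m : ℕ) : ℤ) • y = 0
      rw [dif_pos hex]
      exact hex.choose_spec
    have hmem : R - s m ∈ Submodule.torsionBy ℤ J (n : ℤ) := by
      rw [Submodule.mem_torsionBy_iff, smul_sub]
      have : (n : ℤ) • R = (n : ℤ) • s m := by
        have h1 : (n : ℤ) • R = -(((m : ℕ) : ℤ) • y) := eq_neg_of_add_eq_zero_left hx
        have h2 : (n : ℤ) • s m = -(((m : ℕ) : ℤ) • y) := eq_neg_of_add_eq_zero_left hs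
        rw [h1, h2]
      rw [this, sub_self]
    refine ⟨(⟨R - s m, hmem⟩, m), ?_⟩
    show seljjMk J y n ((R - s m) + s m, ((m : ℕ) : ℤ)) = _
    rw [sub_add_cancel]
  have hfinset : ((Submodule.torsionBy ℤ (SeljjJ J y n) (n : ℤ) :
      Submodule ℤ (SeljjJ J y n)) : Set (SeljjJ J y n)).Finite :=
    (Set.finite_range φ).subset hsub
  exact hfinset.to_subtype

variable [hy : Fact (∀ σ : AlgebraicClosure ℚ ≃ₐ[ℚ] AlgebraicClosure ℚ, σ • y = y)]

theorem seljj_isContAction (hn : 0 < n)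
    (hcont : ∀ R : J, (∃ m : ℤ, (n : ℤ) • R + m • y = 0) →
      ∃ E : IntermediateField ℚ (AlgebraicClosure ℚ), FiniteDimensional ℚ E ∧
        ∀ σ : AlgebraicClosure ℚ ≃ₐ[ℚ] AlgebraicClosure ℚ, (∀ a ∈ E, σ a = a) → σ • R = R) :
    IsContAction (torsAct (SeljjJ J y n) (n : ℤ)) where
  one P := Subtype.ext (one_smul _ (P : SeljjJ J y n))
  mul σ τ P := Subtype.ext (mul_smul σ τ (P : SeljjJ J y n))
  add σ P Q := Subtype.ext (smul_add σ (P : SeljjJ J y n) (Q : SeljjJ J y n))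
  open_stab := by
    rintro ⟨x, hx⟩
    rw [Submodule.mem_torsionBy_iff] at hx
    obtain ⟨⟨R, m⟩, rfl⟩ := seljjMk_surjective J y n x
    rw [seljj_zsmul_mk_eq_zero_iff J y n hn] at hx
    obtain ⟨E, hE1, hE2⟩ := hcont R ⟨m, hx⟩
    refine ⟨E, hE1, fun σ hσ => ?_⟩
    apply Subtype.ext
    show σ • seljjMk J y n (R, m) = seljjMk J y n (R, m)
    rw [seljj_smul_mk]
    show seljjMk J y n (σ • R, m) = _
    rw [hE2 σ hσ]

end torsion

/-! ### The Hopf lattice on `𝕁_y[n]` -/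

/-- **SEL-JJ.**  ALG-A + ALG-B + a kernel chart of `J` at `A ∣ p` with FULL lift give a Hopf lattice
over `ℤ_(p)` on the Galois module `𝕁_y[n]` (the extension of `ℤ/n` by `J[n]` cut out by the
Kummer class of `y`): the Kummer class of `y` is FLAT at `p`. -/
theorem seljj_hopfLattice (hA : LocalToGlobalStatement) (hB : ChartToLocalStatement)
    (p : ℕ) (hp : p.Prime) (A : ValuationSubring (AlgebraicClosure ℚ)) (hAp : A.LiesOverPrime p)
    (J : Type) [AddCommGroup J] [DistribMulAction (AlgebraicClosure ℚ ≃ₐ[ℚ] AlgebraicClosure ℚ) J]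
    (J1 : AddSubgroup J) (g : ℕ) (z : J → Fin g → AlgebraicClosure ℚ)
    (hKC : KernelChart A J J1 g z)
    (hlift : ∀ x : J, ∃ b : J, (∀ σ ∈ A.inertiaSubgroupIn ℚ, σ • b = b) ∧ x - b ∈ J1)
    (y : J) [hy : Fact (∀ σ : AlgebraicClosure ℚ ≃ₐ[ℚ] AlgebraicClosure ℚ, σ • y = y)]
    (n : ℕ) (hn : 0 < n)
    (hfin : Finite (Submodule.torsionBy ℤ J (n : ℤ)))
    (hcont : ∀ R : J, (∃ m : ℤ, (n : ℤ) • R + m • y = 0) →
      ∃ E : IntermediateField ℚ (AlgebraicClosure ℚ), FiniteDimensional ℚ E ∧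
        ∀ σ : AlgebraicClosure ℚ ≃ₐ[ℚ] AlgebraicClosure ℚ, (∀ a ∈ E, σ a = a) → σ • R = R) :
    ∃ H : Subalgebra (GaloisRep.ratLocalizedAt p)
        (Submodule.torsionBy ℤ (SeljjJ J y n) (n : ℤ) → AlgebraicClosure ℚ),
      IsHopfLattice (GaloisRep.ratLocalizedAt p) (torsAct (SeljjJ J y n) (n : ℤ)) H := by
  have hfin' := seljj_finite_torsion y n hn hfin
  have hcont' := seljj_isContAction y n hn hcont
  obtain ⟨Ht, hHt⟩ := hB p hp A hAp (SeljjJ J y n) inferInstance inferInstance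
    (J1.map (seljjIota J y n)) g (seljjZ y n z) (seljj_kernelChart y n hn hKC hlift)
    n hn hfin' hcont'
  exact hA p hp A hAp _ inferInstance hfin' _ hcont' Ht hHt

/-- the shape of helper73's (RC): the Hopf lattice of a kernel chart is reduction-continuous -/
def SeljjRCStatement : Prop :=
  ∀ (p : ℕ) (_ : p.Prime) (A : ValuationSubring (AlgebraicClosure ℚ)) (_ : A.LiesOverPrime p)
    (J : Type) (_ : AddCommGroup J)
    (_ : DistribMulAction (AlgebraicClosure ℚ ≃ₐ[ℚ] AlgebraicClosure ℚ) J)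
    (J1 : AddSubgroup J) (g : ℕ) (z : J → Fin g → AlgebraicClosure ℚ),
    KernelChart A J J1 g z →
    ∀ n : ℕ, 0 < n → Finite (Submodule.torsionBy ℤ J (n : ℤ)) →
      IsContAction (torsAct J (n : ℤ)) →
      ∃ H : Subalgebra (GaloisRep.ratLocalizedAt p)
          (Submodule.torsionBy ℤ J (n : ℤ) → AlgebraicClosure ℚ),
        IsHopfLattice (GaloisRep.ratLocalizedAt p) (torsAct J (n : ℤ)) H ∧
        ∀ h ∈ H, ∀ t t' : Submodule.torsionBy ℤ J (n : ℤ), (t : J) - (t' : J) ∈ J1 →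
          h t - h t' ∈ A.nonunits

/-- ALG-A + ALG-B in the reduction-continuous form, applied to `𝕁_y`. -/
theorem seljj_hopfLattice_rc (hRC : SeljjRCStatement)
    (p : ℕ) (hp : p.Prime) (A : ValuationSubring (AlgebraicClosure ℚ)) (hAp : A.LiesOverPrime p)
    (J : Type) [AddCommGroup J] [DistribMulAction (AlgebraicClosure ℚ ≃ₐ[ℚ] AlgebraicClosure ℚ) J]
    (J1 : AddSubgroup J) (g : ℕ) (z : J → Fin g → AlgebraicClosure ℚ)
    (hKC : KernelChart A J J1 g z)
    (hlift : ∀ x : J, ∃ b : J, (∀ σ ∈ A.inertiaSubgroupIn ℚ, σ • b = b) ∧ x - b ∈ J1)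
    (y : J) [hy : Fact (∀ σ : AlgebraicClosure ℚ ≃ₐ[ℚ] AlgebraicClosure ℚ, σ • y = y)]
    (n : ℕ) (hn : 0 < n)
    (hfin : Finite (Submodule.torsionBy ℤ J (n : ℤ)))
    (hcont : ∀ R : J, (∃ m : ℤ, (n : ℤ) • R + m • y = 0) →
      ∃ E : IntermediateField ℚ (AlgebraicClosure ℚ), FiniteDimensional ℚ E ∧
        ∀ σ : AlgebraicClosure ℚ ≃ₐ[ℚ] AlgebraicClosure ℚ, (∀ a ∈ E, σ a = a) → σ • R = R) :
    ∃ H : Subalgebra (GaloisRep.ratLocalizedAt p)
        (Submodule.torsionBy ℤ (SeljjJ J y n) (n : ℤ) → AlgebraicClosure ℚ),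
      IsHopfLattice (GaloisRep.ratLocalizedAt p) (torsAct (SeljjJ J y n) (n : ℤ)) H ∧
      ∀ h ∈ H, ∀ t t' : Submodule.torsionBy ℤ (SeljjJ J y n) (n : ℤ),
        (t : SeljjJ J y n) - (t' : SeljjJ J y n) ∈ J1.map (seljjIota J y n) →
          h t - h t' ∈ A.nonunits :=
  hRC p hp A hAp (SeljjJ J y n) inferInstance inferInstance
    (J1.map (seljjIota J y n)) g (seljjZ y n z) (seljj_kernelChart y n hn hKC hlift)
    n hn (seljj_finite_torsion y n hn hfin) (seljj_isContAction y n hn hcont)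

/-! ### The structure of `𝕁_y[n]`: the extension `0 → J[n] → 𝕁_y[n] → ℤ/n` -/

section structure'

variable (J : Type) [AddCommGroup J] (y : J) (n : ℕ)

/-- `J[n] → 𝕁_y[n]` -/
def seljjIotaTors : Submodule.torsionBy ℤ J (n : ℤ) →+ Submodule.torsionBy ℤ (SeljjJ J y n) (n : ℤ)
    where
  toFun x := ⟨seljjIota J y n (x : J), by
    rw [Submodule.mem_torsionBy_iff, ← map_zsmul]
    have := x.2
    rw [Submodule.mem_torsionBy_iff] at this
    rw [this, map_zero]⟩
  map_zero' := Subtype.ext (map_zero (seljjIota J y n))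
  map_add' x x' := Subtype.ext (map_add (seljjIota J y n) (x : J) (x' : J))

@[simp] theorem seljjIotaTors_coe (x : Submodule.torsionBy ℤ J (n : ℤ)) :
    ((seljjIotaTors J y n x : Submodule.torsionBy ℤ (SeljjJ J y n) (n : ℤ)) : SeljjJ J y n) =
      seljjIota J y n (x : J) := rfl

theorem seljjIotaTors_injective (hn : 0 < n) : Function.Injective (seljjIotaTors J y n) := by
  intro x x' h
  apply Subtype.ext
  apply seljjIota_injective J y n hn
  exact congrArg Subtype.val h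

/-- the points of `𝕁_y[n]` over `m`: `[(R, m)]` with `n R + m y = 0` -/
def seljjPt (hn : 0 < n) (R : J) (m : ℤ) (h : (n : ℤ) • R + m • y = 0) :
    Submodule.torsionBy ℤ (SeljjJ J y n) (n : ℤ) :=
  ⟨seljjMk J y n (R, m), by
    rw [Submodule.mem_torsionBy_iff, seljj_zsmul_mk_eq_zero_iff J y n hn]
    exact h⟩

theorem seljj_exists_pt (hn : 0 < n) (x : Submodule.torsionBy ℤ (SeljjJ J y n) (n : ℤ)) :
    ∃ (R : J) (m : ℤ) (h : (n : ℤ) • R + m • y = 0), x = seljjPt J y n hn R m h := by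
  obtain ⟨x, hx⟩ := x
  obtain ⟨⟨R, m⟩, rfl⟩ := seljjMk_surjective J y n x
  have h := hx
  rw [Submodule.mem_torsionBy_iff, seljj_zsmul_mk_eq_zero_iff J y n hn] at h
  exact ⟨R, m, h, rfl⟩

/-- two points over the same `m` differ by an element of `J[n]` -/
theorem seljjPt_sub (hn : 0 < n) (R R' : J) (m : ℤ) (h : (n : ℤ) • R + m • y = 0)
    (h' : (n : ℤ) • R' + m • y = 0) :
    ∃ x : Submodule.torsionBy ℤ J (n : ℤ), (x : J) = R - R' ∧
      seljjPt J y n hn R m h - seljjPt J y n hn R' m h' = seljjIotaTors J y n x := by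
  have hmem : R - R' ∈ Submodule.torsionBy ℤ J (n : ℤ) := by
    rw [Submodule.mem_torsionBy_iff, smul_sub]
    have h1 : (n : ℤ) • R = -(m • y) := eq_neg_of_add_eq_zero_left h
    have h2 : (n : ℤ) • R' = -(m • y) := eq_neg_of_add_eq_zero_left h'
    rw [h1, h2, sub_self]
  refine ⟨⟨R - R', hmem⟩, rfl, ?_⟩
  apply Subtype.ext
  show seljjMk J y n (R, m) - seljjMk J y n (R', m) = seljjIota J y n (R - R')
  rw [seljjIota_apply, ← map_sub]
  congr 1
  simp

variable [DistribMulAction (AlgebraicClosure ℚ ≃ₐ[ℚ] AlgebraicClosure ℚ) J]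
  [hy : Fact (∀ σ : AlgebraicClosure ℚ ≃ₐ[ℚ] AlgebraicClosure ℚ, σ • y = y)]

/-- the Galois action on the points: the Kummer cocycle of `y` -/
theorem seljj_torsAct_pt (hn : 0 < n) (σ : AlgebraicClosure ℚ ≃ₐ[ℚ] AlgebraicClosure ℚ)
    (R : J) (m : ℤ) (h : (n : ℤ) • R + m • y = 0) :
    ∃ h' : (n : ℤ) • (σ • R) + m • y = 0,
      torsAct (SeljjJ J y n) (n : ℤ) σ (seljjPt J y n hn R m h) = seljjPt J y n hn (σ • R) m h' := by
  have h' : (n : ℤ) • (σ • R) + m • y = 0 := by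
    have h1 := congrArg (fun x => σ • x) h
    simp only [smul_add, smul_zero] at h1
    rw [smul_comm σ (n : ℤ) R, smul_comm σ m y, hy.out σ] at h1
    exact h1
  exact ⟨h', rfl⟩

theorem seljj_torsAct_iotaTors (σ : AlgebraicClosure ℚ ≃ₐ[ℚ] AlgebraicClosure ℚ)
    (x : Submodule.torsionBy ℤ J (n : ℤ)) :
    torsAct (SeljjJ J y n) (n : ℤ) σ (seljjIotaTors J y n x) =
      seljjIotaTors J y n (torsAct J (n : ℤ) σ x) := rfl

end structure'

end Fermat.Agent.S15

end
end ZBZ2S15_034_0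

/-! ### bundled: `Fermat.Agent.S15.SelJJKC` -/
section ZBZ2S15_034_1

/-!
# S15 / SELMER, piece SEL-JJ (part 2): the kernel chart of `J₀(N)` with FULL lift, and the
Hopf lattice on `𝕁_y[n]` for `J = J₀(N)`

* `seljj_kcFull_of` / `seljj_kcFull` : for a reduction package `ModPR N A g R t` the kernel of
  reduction `R.J1` carries a kernel chart, and EVERY `x ∈ J₀(N)` (torsion or not) is congruent
  modulo `R.J1` to a point fixed by inertia.
* `seljj_hopfLattice_JZero` : the Hopf lattice over `ℤ_(p)` on `𝕁_y[n]`, `y ∈ J₀(N)^{G_ℚ}`.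
-/

set_option autoImplicit false
set_option linter.style.haveILetI false

open AlgebraicCurve Module ModularCurve

namespace Fermat.Agent.S15

open Fermat.Agent.W1

/-- the kernel chart on the kernel of reduction of a package, with FULL lift (conditional form) -/
theorem seljj_kcFull_of (hDisc : StmtDisc) (hC1 : StmtC1) (hLift : StmtLift)
    (hAdd : StmtAddApprox) (hTeich : StmtTeich)
    (N : ℕ) [NeZero N] (p : ℕ) (hp : p.Prime) (A : ValuationSubring (AlgebraicClosure ℚ))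
    (hA : A.LiesOverPrime p) (g : ℕ)
    (R : PRData (AlgebraicClosure ℚ) ↥(modularFunctionFieldBar N) (IsLocalRing.ResidueField A)
      ↥(modularFunctionFieldFullC (IsLocalRing.ResidueField A) N) A)
    (t : ↥(modularFunctionFieldBar N)) (hM : ModPR N A g R t) :
    ∃ z : JZero N → Fin g → AlgebraicClosure ℚ, KernelChart A (JZero N) R.J1 g z ∧
      ∀ x : JZero N, ∃ b : JZero N, (∀ σ ∈ A.inertiaSubgroupIn ℚ, σ • b = b) ∧ x - b ∈ R.J1 := by
  obtain ⟨S, hS⟩ := hTeich p hp A hA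
  have hSsurj : ∀ c : IsLocalRing.ResidueField A, ∃ s ∈ S, R.res s = c := by
    rw [hM.res_eq]; exact hS.surj
  have hSinj : ∀ s ∈ S, ∀ s' ∈ S, R.res s = R.res s' → s = s' := by
    rw [hM.res_eq]; exact hS.inj
  have ht : t ∈ R.O := hM.good.1
  obtain ⟨C, hC, hRep, hCt, hcS⟩ := kc_exists_chart hDisc hM.isPR hM.nice hM.nice_k t ht hM.good
    (hM.ram ht) S hSsurj hSinj
  subst hCt
  have hspec : ∀ x : JZero N, x ∈ R.J1 → C.IsCoord x (kcCoord C x) := fun x hx =>
    kcCoord_spec (isCoord_exists hDisc hC1 hM.isPR hM.nice hM.nice_k hM.orth hC hx)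
  have hdecomp : ∀ σ ∈ A.decompositionSubgroup ℚ, ∀ x ∈ R.J1, σ • x ∈ R.J1 := by
    intro σ hσ x hx
    obtain ⟨σb, h1, h2⟩ := hM.decomp σ hσ
    exact kc_smul_mem_J1 (arithmeticGalois (modularFunctionFieldFull N) σ) σb h1 h2 hx
  have hliftAll : ∀ x : JZero N, ∃ b : JZero N,
      (∀ σ ∈ A.inertiaSubgroupIn ℚ, σ • b = b) ∧ x - b ∈ R.J1 := by
    intro x
    obtain ⟨b, hb1, hb2⟩ := kc_lift hDisc hLift hM.isPR hM.nice hM.nice_k ht hM.good (hM.ram ht)
      hSsurj x
    exact ⟨b, fun σ hσ => hb2 _ (kc_inertiaLike hM hS hσ), hb1⟩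
  refine ⟨kcCoord C, ⟨hdecomp, ?_, ?_, ?_, ?_, fun x _ => hliftAll x⟩, hliftAll⟩
  · intro x hx i
    obtain ⟨P, -, hPd⟩ := hspec x hx
    exact (hPd i).2.1
  · intro x hx y hy hxy
    have h1 := hspec x hx
    have h2 := hspec y hy
    rw [← hxy] at h2
    exact isCoord_inj hDisc hM.isPR hM.nice hM.nice_k hC h1 h2
  · intro σ hσ x hx i
    have hσx : σ • x ∈ R.J1 :=
      hdecomp σ (Fermat.Agent.S05.mem_decomposition_of_mem_inertiaIn hσ) x hx
    have h1 := isCoord_smul hDisc hM.isPR hM.nice hM.nice_k hC hcS (kc_inertiaLike hM hS hσ)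
      (hspec x hx)
    have h2 := kcCoord_eq hC1 hM.isPR hM.nice hM.nice_k hM.orth hC hσx h1
    exact congrFun h2 i
  · intro ϖ hϖ hϖ0 n
    obtain ⟨Φ, hΦ, h⟩ := kc_add_approx hAdd hM.isPR hM.nice hM.nice_k hM.orth hC hRep n
    refine ⟨Φ, hΦ, fun x hx y hy hzx hzy => ?_⟩
    exact h ϖ hϖ hϖ0 x y _ _ _ (hspec x hx) (hspec y hy)
      (hspec (x + y) (R.J1.add_mem hx hy)) hzx hzy

/-- **the kernel chart with FULL lift, unconditional** -/
theorem seljj_kcFull (N : ℕ) [NeZero N] (p : ℕ) (hp : p.Prime)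
    (A : ValuationSubring (AlgebraicClosure ℚ)) (hA : A.LiesOverPrime p) (g : ℕ)
    (R : PRData (AlgebraicClosure ℚ) ↥(modularFunctionFieldBar N) (IsLocalRing.ResidueField A)
      ↥(modularFunctionFieldFullC (IsLocalRing.ResidueField A) N) A)
    (t : ↥(modularFunctionFieldBar N)) (hM : ModPR N A g R t) :
    ∃ z : JZero N → Fin g → AlgebraicClosure ℚ, KernelChart A (JZero N) R.J1 g z ∧
      ∀ x : JZero N, ∃ b : JZero N, (∀ σ ∈ A.inertiaSubgroupIn ℚ, σ • b = b) ∧ x - b ∈ R.J1 :=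
  seljj_kcFull_of stmtDisc stmtC1 stmtLift stmtAddApprox stmtTeich N p hp A hA g R t hM

/-- **SEL-JJ for `J₀(N)`** (still with ALG-A, ALG-B as hypotheses, to keep the closure small):
a reduction package at `A ∣ p` gives a Hopf lattice over `ℤ_(p)` on `𝕁_y[n]`. -/
theorem seljj_hopfLattice_JZero (hA : LocalToGlobalStatement) (hB : ChartToLocalStatement)
    (N : ℕ) [NeZero N] (p : ℕ) (hp : p.Prime)
    (A : ValuationSubring (AlgebraicClosure ℚ)) (hAp : A.LiesOverPrime p) (hPR : HasModPR N A)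
    (y : JZero N) [hy : Fact (∀ σ : AlgebraicClosure ℚ ≃ₐ[ℚ] AlgebraicClosure ℚ, σ • y = y)]
    (n : ℕ) (hn : 0 < n)
    (hfin : Finite (Submodule.torsionBy ℤ (JZero N) (n : ℤ)))
    (hcont : ∀ R : JZero N, (∃ m : ℤ, (n : ℤ) • R + m • y = 0) →
      ∃ E : IntermediateField ℚ (AlgebraicClosure ℚ), FiniteDimensional ℚ E ∧
        ∀ σ : AlgebraicClosure ℚ ≃ₐ[ℚ] AlgebraicClosure ℚ, (∀ a ∈ E, σ a = a) → σ • R = R) :
    ∃ H : Subalgebra (GaloisRep.ratLocalizedAt p)
        (Submodule.torsionBy ℤ (SeljjJ (JZero N) y n) (n : ℤ) → AlgebraicClosure ℚ),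
      IsHopfLattice (GaloisRep.ratLocalizedAt p) (torsAct (SeljjJ (JZero N) y n) (n : ℤ)) H := by
  obtain ⟨g, R, t, hM⟩ := hPR
  obtain ⟨z, hKC, hlift⟩ := seljj_kcFull N p hp A hAp g R t hM
  exact seljj_hopfLattice hA hB p hp A hAp (JZero N) R.J1 g z hKC hlift y n hn hfin hcont

/-- **SEL-JJ for `J₀(N)`, reduction-continuous form**: for a reduction package `ModPR N A g R t`
at `A ∣ p`, the Hopf lattice over `ℤ_(p)` on `𝕁_y[n]` with `h t - h t' ∈ 𝔪_A` whenever `t - t'`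
lies in (the image of) the kernel of reduction `R.J1`. -/
theorem seljj_hopfLattice_rc_JZero (hRC : SeljjRCStatement)
    (N : ℕ) [NeZero N] (p : ℕ) (hp : p.Prime)
    (A : ValuationSubring (AlgebraicClosure ℚ)) (hAp : A.LiesOverPrime p) (g : ℕ)
    (R : PRData (AlgebraicClosure ℚ) ↥(modularFunctionFieldBar N) (IsLocalRing.ResidueField A)
      ↥(modularFunctionFieldFullC (IsLocalRing.ResidueField A) N) A)
    (t : ↥(modularFunctionFieldBar N)) (hM : ModPR N A g R t)
    (y : JZero N) [hy : Fact (∀ σ : AlgebraicClosure ℚ ≃ₐ[ℚ] AlgebraicClosure ℚ, σ • y = y)]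
    (n : ℕ) (hn : 0 < n)
    (hfin : Finite (Submodule.torsionBy ℤ (JZero N) (n : ℤ)))
    (hcont : ∀ x : JZero N, (∃ m : ℤ, (n : ℤ) • x + m • y = 0) →
      ∃ E : IntermediateField ℚ (AlgebraicClosure ℚ), FiniteDimensional ℚ E ∧
        ∀ σ : AlgebraicClosure ℚ ≃ₐ[ℚ] AlgebraicClosure ℚ, (∀ a ∈ E, σ a = a) → σ • x = x) :
    ∃ H : Subalgebra (GaloisRep.ratLocalizedAt p)
        (Submodule.torsionBy ℤ (SeljjJ (JZero N) y n) (n : ℤ) → AlgebraicClosure ℚ),
      IsHopfLattice (GaloisRep.ratLocalizedAt p) (torsAct (SeljjJ (JZero N) y n) (n : ℤ)) H ∧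
      ∀ h ∈ H, ∀ u u' : Submodule.torsionBy ℤ (SeljjJ (JZero N) y n) (n : ℤ),
        (u : SeljjJ (JZero N) y n) - (u' : SeljjJ (JZero N) y n) ∈
            R.J1.map (seljjIota (JZero N) y n) →
          h u - h u' ∈ A.nonunits := by
  obtain ⟨z, hKC, hlift⟩ := seljj_kcFull N p hp A hAp g R t hM
  exact seljj_hopfLattice_rc hRC p hp A hAp (JZero N) R.J1 g z hKC hlift y n hn hfin hcont

end Fermat.Agent.S15


end ZBZ2S15_034_1

/-! ### bundled: `Fermat.Agent.S15.SelJJAux` -/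
section ZBZ2S15_034_2

/-!
# S15 / SELMER, piece SEL-JJ-aux (part 1): functoriality of `𝕁_y` and pull-back of the lattice

For the descent prime `r ∈ {2, 3}` the reduction package of `X₀(N)` at `A ∣ r` exists only at the
auxiliary level `N' = N (5 − r)`.  The level-up `φ : J₀(N) → J₀(N')` (Galois equivariant, injective
on `r`-power torsion) induces

  `Φ : 𝕁_y → 𝕁'_{φ y}`,  `[(R, m)] ↦ [(φ R, m)]`,

equivariant and injective on `n`-torsion (`n = r ^ k`), and the reduction-continuous Hopf lattice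
on `𝕁'_{φ y}[n]` pulls back (W1-SQ `sq_sub`) to a Hopf lattice on `𝕁_y[n]` which is
reduction-continuous with respect to `φ⁻¹(J1')`.

* `seljjMap φ y n : 𝕁_y →+ 𝕁'_{φ y}`, `seljjMap_mk`, `seljjMap_iota`, `seljjMap_smul`;
* `seljjMap_eq_zero` : injectivity on `n`-torsion;
* `seljjMapTors` : the induced map `𝕁_y[n] →+ 𝕁'_{φ y}[n]`, injective, equivariant;
* `seljj_hopfLattice_rc_pullback` : the pulled-back lattice.
-/

set_option autoImplicit false
set_option linter.unusedSectionVars false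
set_option linter.style.haveILetI false

noncomputable section

namespace Fermat.Agent.S15

open Fermat.Agent.W1

section map

variable {J J' : Type} [AddCommGroup J] [AddCommGroup J'] (φ : J →+ J') (y : J) (n : ℕ)

/-- the map induced by `φ` on `J × ℤ` -/
def seljjPreMap : J × ℤ →+ J' × ℤ := AddMonoidHom.prodMap φ (AddMonoidHom.id ℤ)

@[simp] theorem seljjPreMap_apply (x : J × ℤ) : seljjPreMap φ x = (φ x.1, x.2) := rfl

theorem seljjRel_le_comap_preMap :
    seljjRel J y n ≤ (seljjRel J' (φ y) n).comap (seljjPreMap φ) := by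
  intro x hx
  rw [AddSubgroup.mem_comap, mem_seljjRel_iff]
  rw [mem_seljjRel_iff] at hx
  obtain ⟨a, h1, h2⟩ := hx
  refine ⟨a, ?_, h2⟩
  rw [seljjPreMap_apply]
  show φ x.1 = a • φ y
  rw [h1, map_zsmul]

/-- `Φ : 𝕁_y → 𝕁'_{φ y}` -/
def seljjMap : SeljjJ J y n →+ SeljjJ J' (φ y) n :=
  QuotientAddGroup.map (seljjRel J y n) (seljjRel J' (φ y) n) (seljjPreMap φ)
    (seljjRel_le_comap_preMap φ y n)

theorem seljjMap_mk (x : J × ℤ) :
    seljjMap φ y n (seljjMk J y n x) = seljjMk J' (φ y) n (φ x.1, x.2) := rfl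

theorem seljjMap_iota (R : J) :
    seljjMap φ y n (seljjIota J y n R) = seljjIota J' (φ y) n (φ R) := rfl

/-- `Φ` is injective on the `n`-torsion if `φ` is. -/
theorem seljjMap_eq_zero (hn : 0 < n)
    (hinj : ∀ x : J, (n : ℤ) • x = 0 → φ x = 0 → x = 0)
    (x : SeljjJ J y n) (hx : (n : ℤ) • x = 0) (h0 : seljjMap φ y n x = 0) : x = 0 := by
  obtain ⟨⟨R, m⟩, rfl⟩ := seljjMk_surjective J y n x
  rw [seljjMap_mk, seljjMk_eq_zero_iff] at h0
  obtain ⟨a, h1, h2⟩ := h0
  simp only at h1 h2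
  -- `[(R, m)] = ι (R - a y)`
  have hx' : seljjMk J y n (R, m) = seljjIota J y n (R - a • y) := by
    rw [seljjIota_apply, seljjMk_eq_iff]
    refine ⟨a, ?_, ?_⟩
    · simp
    · simp [h2]
  rw [hx'] at hx ⊢
  have h3 : (n : ℤ) • (R - a • y) = 0 := by
    apply seljjIota_injective J y n hn
    rw [map_zsmul, hx, map_zero]
  have h4 : φ (R - a • y) = 0 := by
    rw [map_sub, map_zsmul, h1, sub_self]
  rw [hinj _ h3 h4, map_zero]

end map

section equivariant

variable {J J' : Type} [AddCommGroup J] [AddCommGroup J']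
  [DistribMulAction (AlgebraicClosure ℚ ≃ₐ[ℚ] AlgebraicClosure ℚ) J]
  [DistribMulAction (AlgebraicClosure ℚ ≃ₐ[ℚ] AlgebraicClosure ℚ) J']
  (φ : J →+ J') (y : J) (n : ℕ)
  [hy : Fact (∀ σ : AlgebraicClosure ℚ ≃ₐ[ℚ] AlgebraicClosure ℚ, σ • y = y)]
  [hy' : Fact (∀ σ : AlgebraicClosure ℚ ≃ₐ[ℚ] AlgebraicClosure ℚ, σ • φ y = φ y)]

/-- `Φ` is Galois equivariant if `φ` is. -/
theorem seljjMap_smul
    (hφ : ∀ (σ : AlgebraicClosure ℚ ≃ₐ[ℚ] AlgebraicClosure ℚ) (x : J), φ (σ • x) = σ • φ x)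
    (σ : AlgebraicClosure ℚ ≃ₐ[ℚ] AlgebraicClosure ℚ) (x : SeljjJ J y n) :
    seljjMap φ y n (σ • x) = σ • seljjMap φ y n x := by
  obtain ⟨⟨R, m⟩, rfl⟩ := seljjMk_surjective J y n x
  show seljjMap φ y n (seljjAct J y n σ (seljjMk J y n (R, m))) =
    seljjAct J' (φ y) n σ (seljjMap φ y n (seljjMk J y n (R, m)))
  rw [seljjAct_mk, seljjMap_mk, seljjMap_mk, seljjAct_mk]
  simp only
  rw [hφ]

/-- the map induced by `Φ` on the `n`-torsion -/
def seljjMapTors : Submodule.torsionBy ℤ (SeljjJ J y n) (n : ℤ) →+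
    Submodule.torsionBy ℤ (SeljjJ J' (φ y) n) (n : ℤ) where
  toFun x := ⟨seljjMap φ y n (x : SeljjJ J y n), by
    rw [Submodule.mem_torsionBy_iff, ← map_zsmul, (Submodule.mem_torsionBy_iff _ _).1 x.2,
      map_zero]⟩
  map_zero' := Subtype.ext (map_zero (seljjMap φ y n))
  map_add' x x' := Subtype.ext (map_add (seljjMap φ y n) _ _)

@[simp] theorem seljjMapTors_coe (x : Submodule.torsionBy ℤ (SeljjJ J y n) (n : ℤ)) :
    ((seljjMapTors φ y n x : Submodule.torsionBy ℤ (SeljjJ J' (φ y) n) (n : ℤ)) :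
      SeljjJ J' (φ y) n) = seljjMap φ y n (x : SeljjJ J y n) := rfl

theorem seljjMapTors_injective (hn : 0 < n)
    (hinj : ∀ x : J, (n : ℤ) • x = 0 → φ x = 0 → x = 0) :
    Function.Injective (seljjMapTors φ y n) := by
  rw [injective_iff_map_eq_zero]
  intro x hx
  apply Subtype.ext
  exact seljjMap_eq_zero φ y n hn hinj _ ((Submodule.mem_torsionBy_iff _ _).1 x.2)
    (congrArg Subtype.val hx)

theorem seljjMapTors_torsAct
    (hφ : ∀ (σ : AlgebraicClosure ℚ ≃ₐ[ℚ] AlgebraicClosure ℚ) (x : J), φ (σ • x) = σ • φ x)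
    (σ : AlgebraicClosure ℚ ≃ₐ[ℚ] AlgebraicClosure ℚ)
    (P : Submodule.torsionBy ℤ (SeljjJ J y n) (n : ℤ)) :
    seljjMapTors φ y n (torsAct (SeljjJ J y n) (n : ℤ) σ P) =
      torsAct (SeljjJ J' (φ y) n) (n : ℤ) σ (seljjMapTors φ y n P) :=
  Subtype.ext (seljjMap_smul φ y n hφ σ _)

/-- **pull-back of a reduction-continuous Hopf lattice along `Φ`**: a Hopf lattice on
`𝕁'_{φ y}[n]`, reduction-continuous with respect to `ι' (J1')`, pulls back to a Hopf lattice on
`𝕁_y[n]`, reduction-continuous with respect to `ι (φ⁻¹ J1')`. -/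
theorem seljj_hopfLattice_rc_pullback {R : Subring ℚ}
    (A : ValuationSubring (AlgebraicClosure ℚ)) (J1' : AddSubgroup J') (hn : 0 < n)
    (hφ : ∀ (σ : AlgebraicClosure ℚ ≃ₐ[ℚ] AlgebraicClosure ℚ) (x : J), φ (σ • x) = σ • φ x)
    (hinj : ∀ x : J, (n : ℤ) • x = 0 → φ x = 0 → x = 0)
    (H' : Subalgebra R (Submodule.torsionBy ℤ (SeljjJ J' (φ y) n) (n : ℤ) → AlgebraicClosure ℚ))
    (hH' : IsHopfLattice R (torsAct (SeljjJ J' (φ y) n) (n : ℤ)) H')
    (hRC : ∀ h ∈ H', ∀ t t' : Submodule.torsionBy ℤ (SeljjJ J' (φ y) n) (n : ℤ),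
      (t : SeljjJ J' (φ y) n) - (t' : SeljjJ J' (φ y) n) ∈ J1'.map (seljjIota J' (φ y) n) →
        h t - h t' ∈ A.nonunits) :
    ∃ H : Subalgebra R (Submodule.torsionBy ℤ (SeljjJ J y n) (n : ℤ) → AlgebraicClosure ℚ),
      IsHopfLattice R (torsAct (SeljjJ J y n) (n : ℤ)) H ∧
      ∀ h ∈ H, ∀ t t' : Submodule.torsionBy ℤ (SeljjJ J y n) (n : ℤ),
        (t : SeljjJ J y n) - (t' : SeljjJ J y n) ∈ (J1'.comap φ).map (seljjIota J y n) →
          h t - h t' ∈ A.nonunits := by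
  refine ⟨H'.map (pullFn R (seljjMapTors φ y n)),
    sq_sub hH' (seljjMapTors φ y n) (seljjMapTors_injective φ y n hn hinj)
      (fun σ P => seljjMapTors_torsAct φ y n hφ σ P), ?_⟩
  rintro _ ⟨h, hh, rfl⟩ t t' ⟨x, hx, hxt⟩
  show h (seljjMapTors φ y n t) - h (seljjMapTors φ y n t') ∈ A.nonunits
  refine hRC h hh _ _ ⟨φ x, hx, ?_⟩
  rw [seljjMapTors_coe, seljjMapTors_coe, ← map_sub, ← hxt, seljjMap_iota]

end equivariant

end Fermat.Agent.S15

end
end ZBZ2S15_034_2

/-! ### bundled: `Fermat.Agent.S15.SelRC` -/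
section ZBZ2S15_034_3

/-!
# S15 / SEL-U, part (RC): the Hopf lattice of a kernel chart is reduction-continuous

For a `W1.KernelChart A J J1 g z` the global Hopf lattice `H = ltgH (ctlHt …)` on `J[n]`
(ALG-B followed by ALG-A) has the property

  `h t - h t' ∈ 𝔪_A`  whenever `t - t' ∈ J1`.

* `selrc_ctlHt` : the local lattice `ctlHt` is reduction-continuous;
* `seljjRCStatement : SeljjRCStatement` (the statement of `S15/SelJJ.lean`).
-/

set_option autoImplicit false
set_option linter.unusedSectionVars false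
set_option linter.style.haveILetI false

namespace Fermat.Agent.S15

open Fermat.Agent.W1

section Nonunits

variable (A : ValuationSubring (AlgebraicClosure ℚ))

theorem selrc_add_mem_nonunits {x y : AlgebraicClosure ℚ} (hx : x ∈ A.nonunits)
    (hy : y ∈ A.nonunits) : x + y ∈ A.nonunits := by
  obtain ⟨hx', hxm⟩ := ValuationSubring.mem_nonunits_iff_exists_mem_maximalIdeal.1 hx
  obtain ⟨hy', hym⟩ := ValuationSubring.mem_nonunits_iff_exists_mem_maximalIdeal.1 hy
  exact ValuationSubring.mem_nonunits_iff_exists_mem_maximalIdeal.2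
    ⟨add_mem hx' hy', Ideal.add_mem _ hxm hym⟩

theorem selrc_neg_mem_nonunits {x : AlgebraicClosure ℚ} (hx : x ∈ A.nonunits) :
    -x ∈ A.nonunits := by
  obtain ⟨hx', hxm⟩ := ValuationSubring.mem_nonunits_iff_exists_mem_maximalIdeal.1 hx
  exact ValuationSubring.mem_nonunits_iff_exists_mem_maximalIdeal.2
    ⟨neg_mem hx', Ideal.neg_mem_iff _ |>.2 hxm⟩

theorem selrc_sub_mem_nonunits {x y : AlgebraicClosure ℚ} (hx : x ∈ A.nonunits)
    (hy : y ∈ A.nonunits) : x - y ∈ A.nonunits := by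
  rw [sub_eq_add_neg]
  exact selrc_add_mem_nonunits A hx (selrc_neg_mem_nonunits A hy)

theorem selrc_zero_mem_nonunits : (0 : AlgebraicClosure ℚ) ∈ A.nonunits :=
  ValuationSubring.mem_nonunits_iff_exists_mem_maximalIdeal.2 ⟨zero_mem A, Ideal.zero_mem _⟩

end Nonunits

section RC

variable {A : ValuationSubring (AlgebraicClosure ℚ)} {J : Type} [AddCommGroup J]
  [DistribMulAction (AlgebraicClosure ℚ ≃ₐ[ℚ] AlgebraicClosure ℚ) J]
  {J1 : AddSubgroup J} {g : ℕ} {z : J → Fin g → AlgebraicClosure ℚ} {n : ℕ}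

/-- The local lattice of a kernel chart is reduction-continuous. -/
theorem selrc_ctlHt (hK : KernelChart A J J1 g z) :
    ∀ h ∈ ctlHt A J1 z n, ∀ t t' : Submodule.torsionBy ℤ J (n : ℤ),
      (t : J) - (t' : J) ∈ J1 → h t - h t' ∈ A.nonunits := by
  intro h hh
  induction hh using Algebra.adjoin_induction with
  | mem f hf =>
    intro t t' htt
    have hiff : ∀ b : J, ((t : J) - b ∈ J1 ↔ (t' : J) - b ∈ J1) := by
      intro b
      constructor
      · intro h1
        have h2 : (t' : J) - b = ((t : J) - b) - ((t : J) - (t' : J)) := by abel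
        rw [h2]
        exact J1.sub_mem h1 htt
      · intro h1
        have h2 : (t : J) - b = ((t' : J) - b) + ((t : J) - (t' : J)) := by abel
        rw [h2]
        exact J1.add_mem h1 htt
    rcases hf with ⟨b, rfl⟩ | ⟨σ, hσ, b, -, i, rfl⟩
    · by_cases hc : (t : J) - b ∈ J1
      · rw [ctlInd_of_mem hc, ctlInd_of_mem ((hiff b).1 hc), sub_self]
        exact selrc_zero_mem_nonunits A
      · rw [ctlInd_of_not_mem hc, ctlInd_of_not_mem (fun h1 => hc ((hiff b).2 h1)), sub_self]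
        exact selrc_zero_mem_nonunits A
    · exact selrc_sub_mem_nonunits A (ctlPsi_apply_mem hK hσ b i t)
        (ctlPsi_apply_mem hK hσ b i t')
  | algebraMap r =>
    intro t t' _
    have h1 : (algebraMap A (Submodule.torsionBy ℤ J (n : ℤ) → AlgebraicClosure ℚ) r) t -
        (algebraMap A (Submodule.torsionBy ℤ J (n : ℤ) → AlgebraicClosure ℚ) r) t' = 0 := by
      simp [Pi.algebraMap_apply]
    rw [h1]
    exact selrc_zero_mem_nonunits A
  | add x y _ _ hx hy =>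
    intro t t' htt
    have h1 : (x + y) t - (x + y) t' = (x t - x t') + (y t - y t') := by
      simp only [Pi.add_apply]; ring
    rw [h1]
    exact selrc_add_mem_nonunits A (hx t t' htt) (hy t t' htt)
  | mul x y hx' hy' hx hy =>
    intro t t' htt
    have h1 : (x * y) t - (x * y) t' = x t * (y t - y t') + y t' * (x t - x t') := by
      simp only [Pi.mul_apply]; ring
    rw [h1]
    exact selrc_add_mem_nonunits A
      (ctl_mul_mem_nonunits A (ctl_integral hK x hx' t) (hy t t' htt))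
      (ctl_mul_mem_nonunits A (ctl_integral hK y hy' t') (hx t t' htt))

end RC

/-- **(RC)** ALG-B + ALG-A in the reduction-continuous form. -/
theorem seljjRCStatement : SeljjRCStatement := by
  intro p hp A hA J instJ instAct J1 g z hK n hn hfin hact
  haveI : Fact p.Prime := ⟨hp⟩
  have hloc : IsLocalHopfLattice A (torsAct J (n : ℤ)) (ctlHt A J1 z n) :=
    { integral := ctl_integral hK
      separates := ctl_separates hK hn
      decomp_stable := ctl_decomp_stable hK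
      inertia_span := ctl_inertia_span hK hn
      comul_mem := ctl_comul_mem hp hA hK hn }
  refine ⟨ltgH A (torsAct J (n : ℤ)) hp hA (ctlHt A J1 z n), IsHopfLattice.of_core
    (ltg_fg hp hA hact hloc descLagrange DI.descInertiaStatement descApprox)
    (fun h hh => hh.2)
    (ltg_separates hp hA hact hloc descLagrange DI.descInertiaStatement descApprox)
    (ltg_comul hp hA hact hloc descLagrange DI.descInertiaStatement descApprox)
    (ltg_act_zero hact), ?_⟩
  intro h hh t t' htt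
  exact selrc_ctlHt hK h hh.1 t t' htt

end Fermat.Agent.S15


end ZBZ2S15_034_3

/-! ### bundled: `Fermat.Agent.S15.SelLQ` -/
section ZBZ2S15_034_4

/-!
# S15 / SELMER, piece SEL-LQ: the local fact (L-q) — division points are unramified at `q ∤ rN`

`NOTES/S15-FIN.md` §2, (L-q).  `J = J₀(N)`, `q` a prime with `q ∤ N`, `A` a valuation ring of `ℚ̄`
over `q`, `σ` in the inertia group of `A`, `j ∈ J`:

  if `σ j − j` is killed by `r ^ k` for a prime `r ≠ q`, then `σ j = j`.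

Proof.  By the FULL lift (`seljj_kcFull`) `j = b + u` with `b` fixed by inertia and `u` in the
kernel of reduction `J¹`; so `σ j − j = σ u − u ∈ J¹` (`J¹` is stable under the decomposition group)
and `J¹` has no torsion prime to `q` (S18-J1, here the hypothesis `SellqJ1Statement`).
For `q ∈ {2, 3}` the reduction package exists only at the levels divisible by `5 − q`; if
`5 − q ∤ N` we go through the level-up `J₀(N) → J₀(N (5 − q))` (`W1.stmtLevelUp`), which is Galois
equivariant and injective on `r`-power torsion.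

* `sellq_abstract`     : the abstract lemma (any group `G`, subgroup `I`, module `J`, subgroup `J1`);
* `sellq_sub_mem_J1`   : `σ j − j ∈ R.J1` for `σ` in inertia, any `j` (this is also (L-r, ét));
* `SellqJ1Statement`   : the shape of S18-J1 used here;
* `SellqPRStatement`, `SellqLvlStatement` : the two landed inputs (GEO-PR, GEO-LVL), as
  hypotheses to keep the closure of this file small (proved in `SelLQFinal.lean`);
* `sellq_of_modPR`     : (L-q) at a level with a reduction package;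
* `sellq_levelUp`      : (L-q) comes down along a level-up map;
* `sellq_main_of`      : (L-q) for every `N`, every prime `q ∤ N`, every prime `r ≠ q`.
-/

set_option autoImplicit false
set_option linter.style.haveILetI false
set_option synthInstance.maxHeartbeats 400000
set_option maxHeartbeats 1600000

open AlgebraicCurve Module ModularCurve

namespace Fermat.Agent.S15

open Fermat.Agent.W1

/-- the difference `σ j − j` lies in `J1`, for `σ ∈ I` (abstract form): if every point is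
congruent modulo the `I`-stable subgroup `J1` to a point fixed by `I`. -/
theorem sellq_sub_mem_abstract {G J : Type*} [Group G] [AddCommGroup J] [DistribMulAction G J]
    (I : Subgroup G) (J1 : AddSubgroup J)
    (hstab : ∀ σ ∈ I, ∀ x ∈ J1, σ • x ∈ J1)
    (hlift : ∀ x : J, ∃ b : J, (∀ σ ∈ I, σ • b = b) ∧ x - b ∈ J1)
    {σ : G} (hσ : σ ∈ I) (j : J) : σ • j - j ∈ J1 := by
  obtain ⟨b, hb, hu⟩ := hlift j
  have h1 : σ • j - j = σ • (j - b) - (j - b) := by
    rw [smul_sub, hb σ hσ]; abel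
  rw [h1]; exact J1.sub_mem (hstab σ hσ _ hu) hu

/-- **(L-q), abstract form.**  If every point is congruent modulo `J1` to a point fixed by `I`,
`J1` is `I`-stable and has no `m`-torsion, then an element of `I` which moves `j` by an
`m`-torsion point fixes `j`. -/
theorem sellq_abstract {G J : Type*} [Group G] [AddCommGroup J] [DistribMulAction G J]
    (I : Subgroup G) (J1 : AddSubgroup J)
    (hstab : ∀ σ ∈ I, ∀ x ∈ J1, σ • x ∈ J1)
    (hlift : ∀ x : J, ∃ b : J, (∀ σ ∈ I, σ • b = b) ∧ x - b ∈ J1)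
    (m : ℕ) (htf : ∀ x ∈ J1, m • x = 0 → x = 0)
    {σ : G} (hσ : σ ∈ I) {j : J} (hj : m • (σ • j - j) = 0) : σ • j = j :=
  sub_eq_zero.1 (htf _ (sellq_sub_mem_abstract I J1 hstab hlift hσ j) hj)

/-- for a reduction package at `A`, inertia moves every point of `J₀(N)` inside the kernel of
reduction: `σ j − j ∈ R.J1` (this is also the local fact (L-r, ét)). -/
theorem sellq_sub_mem_J1 (N : ℕ) [NeZero N] (p : ℕ) (hp : p.Prime)
    (A : ValuationSubring (AlgebraicClosure ℚ)) (hA : A.LiesOverPrime p) (g : ℕ)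
    (R : PRData (AlgebraicClosure ℚ) ↥(modularFunctionFieldBar N) (IsLocalRing.ResidueField A)
      ↥(modularFunctionFieldFullC (IsLocalRing.ResidueField A) N) A)
    (t : ↥(modularFunctionFieldBar N)) (hM : ModPR N A g R t)
    {σ : AlgebraicClosure ℚ ≃ₐ[ℚ] AlgebraicClosure ℚ} (hσ : σ ∈ A.inertiaSubgroupIn ℚ)
    (j : JZero N) : σ • j - j ∈ R.J1 := by
  obtain ⟨z, hKC, hlift⟩ := seljj_kcFull N p hp A hA g R t hM
  exact sellq_sub_mem_abstract (A.inertiaSubgroupIn ℚ) R.J1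
    (fun τ hτ x hx => hKC.decomp_stable τ
      (Fermat.Agent.S05.mem_decomposition_of_mem_inertiaIn hτ) x hx) hlift hσ j

/-- the kernel of reduction of a reduction package is stable under the decomposition group -/
theorem sellq_decomp_stable (N : ℕ) [NeZero N] (p : ℕ) (hp : p.Prime)
    (A : ValuationSubring (AlgebraicClosure ℚ)) (hA : A.LiesOverPrime p) (g : ℕ)
    (R : PRData (AlgebraicClosure ℚ) ↥(modularFunctionFieldBar N) (IsLocalRing.ResidueField A)
      ↥(modularFunctionFieldFullC (IsLocalRing.ResidueField A) N) A)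
    (t : ↥(modularFunctionFieldBar N)) (hM : ModPR N A g R t)
    {σ : AlgebraicClosure ℚ ≃ₐ[ℚ] AlgebraicClosure ℚ} (hσ : σ ∈ A.decompositionSubgroup ℚ)
    {x : JZero N} (hx : x ∈ R.J1) : σ • x ∈ R.J1 := by
  obtain ⟨z, hKC, -⟩ := seljj_kcFull N p hp A hA g R t hM
  exact hKC.decomp_stable σ hσ x hx

/-- **S18-J1** (the shape used here): the kernel of reduction of a reduction package at `A ∣ q`
has no torsion of order prime to `q`. -/
def SellqJ1Statement : Prop :=
  ∀ (N : ℕ) [NeZero N] (q : ℕ), q.Prime →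
    ∀ A : ValuationSubring (AlgebraicClosure ℚ), A.LiesOverPrime q →
    ∀ (g : ℕ) (R : PRData (AlgebraicClosure ℚ) ↥(modularFunctionFieldBar N)
        (IsLocalRing.ResidueField A) ↥(modularFunctionFieldFullC (IsLocalRing.ResidueField A) N) A)
      (t : ↥(modularFunctionFieldBar N)), ModPR N A g R t →
    ∀ m : ℕ, ¬ q ∣ m → ∀ x ∈ R.J1, m • x = 0 → x = 0

/-- **GEO-PR** (landed: `DEU/ModPRFinal.lean`): the reduction package exists at `A ∣ ℓ`, `ℓ ∤ N`,
if `5 ≤ ℓ` or `5 − ℓ ∣ N`. -/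
def SellqPRStatement : Prop :=
  ∀ (N : ℕ) [NeZero N] (ℓ : ℕ), ℓ.Prime → ¬ ℓ ∣ N → (5 ≤ ℓ ∨ (5 - ℓ) ∣ N) →
    ∀ A : ValuationSubring (AlgebraicClosure ℚ), A.LiesOverPrime ℓ → HasModPR N A

/-- **GEO-LVL** (landed: `W1/LevelUp.lean`): the level-up `J₀(N) → J₀(N s)`, `s ∤ N` prime,
injective on `r`-power torsion for every prime `r`. -/
def SellqLvlStatement : Prop :=
  ∀ (N s r : ℕ) [NeZero N] [NeZero (N * s)], s.Prime → ¬ s ∣ N → r.Prime →
    StmtLevelUp N (N * s) r

/-- **(L-q) at a level with a reduction package.** -/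
theorem sellq_of_modPR (hJ1 : SellqJ1Statement) (N : ℕ) [NeZero N] (q : ℕ) (hq : q.Prime)
    (A : ValuationSubring (AlgebraicClosure ℚ)) (hA : A.LiesOverPrime q) (hPR : HasModPR N A)
    (m : ℕ) (hm : ¬ q ∣ m)
    {σ : AlgebraicClosure ℚ ≃ₐ[ℚ] AlgebraicClosure ℚ} (hσ : σ ∈ A.inertiaSubgroupIn ℚ)
    {j : JZero N} (hj : m • (σ • j - j) = 0) : σ • j = j := by
  obtain ⟨g, R, t, hM⟩ := hPR
  have h1 := sellq_sub_mem_J1 N q hq A hA g R t hM hσ j
  exact sub_eq_zero.1 (hJ1 N q hq A hA g R t hM m hm _ h1 hj)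

/-- **(L-q) comes down along a level-up map.** -/
theorem sellq_levelUp (N N' r : ℕ) [NeZero N] [NeZero N'] (hLvl : StmtLevelUp N N' r) (k : ℕ)
    {σ : AlgebraicClosure ℚ ≃ₐ[ℚ] AlgebraicClosure ℚ}
    (h : ∀ j' : JZero N', (r ^ k) • (σ • j' - j') = 0 → σ • j' = j')
    {j : JZero N} (hj : (r ^ k) • (σ • j - j) = 0) : σ • j = j := by
  obtain ⟨φ, hφ, hinj⟩ := hLvl
  have h1 : (r ^ k) • (σ • φ j - φ j) = 0 := by
    rw [← hφ, ← map_sub, ← map_nsmul, hj, map_zero]
  have h2 : φ (σ • j - j) = 0 := by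
    rw [map_sub, hφ, h (φ j) h1, sub_self]
  exact sub_eq_zero.1 (hinj _ ⟨k, hj⟩ h2)

/-- a prime `q ≠ r` does not divide `r ^ k` -/
theorem sellq_not_dvd_pow {q r : ℕ} (hq : q.Prime) (hr : r.Prime) (hrq : r ≠ q) (k : ℕ) :
    ¬ q ∣ r ^ k := fun h =>
  hrq ((Nat.prime_dvd_prime_iff_eq hq hr).1 (hq.dvd_of_dvd_pow h)).symm

/-- **(L-q)**, from the three inputs: for every level `N`, every prime `q ∤ N`, every valuation
ring `A` over `q` and every prime `r ≠ q`: an element of the inertia group of `A` which moves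
`j ∈ J₀(N)` by an `r ^ k`-torsion point fixes `j`. -/
theorem sellq_main_of (hPR : SellqPRStatement) (hLvl : SellqLvlStatement)
    (hJ1 : SellqJ1Statement) (N : ℕ) [NeZero N] (q : ℕ) (hq : q.Prime) (hqN : ¬ q ∣ N)
    (r : ℕ) (hr : r.Prime) (hrq : r ≠ q) (k : ℕ)
    (A : ValuationSubring (AlgebraicClosure ℚ)) (hA : A.LiesOverPrime q)
    {σ : AlgebraicClosure ℚ ≃ₐ[ℚ] AlgebraicClosure ℚ} (hσ : σ ∈ A.inertiaSubgroupIn ℚ)
    {j : JZero N} (hj : (r ^ k) • (σ • j - j) = 0) : σ • j = j := by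
  have hm : ¬ q ∣ r ^ k := sellq_not_dvd_pow hq hr hrq k
  by_cases h5 : 5 ≤ q ∨ (5 - q) ∣ N
  · exact sellq_of_modPR hJ1 N q hq A hA (hPR N q hq hqN h5 A hA) (r ^ k) hm hσ hj
  · -- `q ∈ {2, 3}` and `s := 5 - q ∤ N`
    rw [not_or, not_le] at h5
    obtain ⟨hlt, hsN⟩ := h5
    have hq2 := hq.two_le
    have hs : (5 - q).Prime := by
      have : q = 2 ∨ q = 3 := by
        have h4 : q ≠ 4 := fun h => by rw [h] at hq; exact absurd hq (by decide)
        omega
      rcases this with h | h <;> rw [h] <;> decide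
    have hqs : q ≠ 5 - q := by omega
    have hN : N ≠ 0 := NeZero.ne N
    haveI : NeZero (N * (5 - q)) := ⟨mul_ne_zero hN hs.ne_zero⟩
    have hqNs : ¬ q ∣ N * (5 - q) := by
      intro h
      rcases (Nat.Prime.dvd_mul hq).1 h with h | h
      · exact hqN h
      · exact hqs ((Nat.prime_dvd_prime_iff_eq hq hs).1 h)
    have hPR' : HasModPR (N * (5 - q)) A :=
      hPR (N * (5 - q)) q hq hqNs (Or.inr (Dvd.intro_left N rfl)) A hA
    exact sellq_levelUp N (N * (5 - q)) r (hLvl N (5 - q) r hs hsN hr) k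
      (fun j' hj' => sellq_of_modPR hJ1 (N * (5 - q)) q hq A hA hPR' (r ^ k) hm hσ hj') hj

/-- **(L-q), cocycle form** (the shape of the hypothesis `hunr` of `selmk_trivial`, SEL-MK):
if all `σ j − j` are killed by `r ^ k`, then at every prime `q ∤ N`, `q ≠ r`, and EVERY valuation
ring `A` over `q` the cocycle `σ ↦ σ j − j` vanishes on the inertia group of `A`. -/
theorem sellq_unramified_of (hPR : SellqPRStatement) (hLvl : SellqLvlStatement)
    (hJ1 : SellqJ1Statement) (N : ℕ) [NeZero N] (r : ℕ) (hr : r.Prime) (k : ℕ)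
    (j : JZero N)
    (hj : ∀ σ : AlgebraicClosure ℚ ≃ₐ[ℚ] AlgebraicClosure ℚ, (r ^ k) • (σ • j - j) = 0)
    (q : ℕ) (hq : q.Prime) (hqN : ¬ q ∣ N) (hrq : r ≠ q)
    (A : ValuationSubring (AlgebraicClosure ℚ)) (hA : A.LiesOverPrime q) :
    ∀ σ ∈ A.inertiaSubgroupIn ℚ, σ • j - j = 0 := fun σ hσ =>
  sub_eq_zero.2 (sellq_main_of hPR hLvl hJ1 N q hq hqN r hr hrq k A hA hσ (hj σ))

end Fermat.Agent.S15


end ZBZ2S15_034_4

/-! ### bundled: `Fermat.Agent.S15.SelLQFinal` -/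
section ZBZ2S15_034_5

/-!
# S15 / SELMER, piece SEL-LQ (final): (L-q) from S18-J1 alone

The two landed inputs of `SelLQ.lean` (`SellqPRStatement` = GEO-PR, `SellqLvlStatement` = GEO-LVL)
are discharged here, so that (L-q) depends only on S18-J1 (`SellqJ1Statement`).

* `sellqPRStatement`, `sellqLvlStatement`;
* `sellq_main`       : `σ ∈ I_A`, `A ∣ q ∤ N`, `r ≠ q`, `r ^ k • (σ j − j) = 0`  ⇒  `σ j = j`;
* `sellq_unramified` : the cocycle form.
-/

set_option autoImplicit false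
set_option linter.style.haveILetI false
set_option synthInstance.maxHeartbeats 400000
set_option maxHeartbeats 1600000

open AlgebraicCurve Module ModularCurve

namespace Fermat.Agent.S15

open Fermat.Agent.W1

/-- GEO-PR in the shape of `SelLQ.lean` -/
theorem sellqPRStatement : SellqPRStatement := by
  intro N _ ℓ hℓ hℓN h A hA
  rcases le_or_gt 5 ℓ with h5 | h5
  · exact Fermat.Agent.DEU.hasModPR_of_five_le N ℓ hℓ h5 hℓN A hA
  · exact Fermat.Agent.DEU.hasModPR_of_aux Fermat.Agent.ES.I2aux.stmtI2AuxAll N ℓ hℓ h5 hℓN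
      (h.resolve_left (not_le.mpr h5)) A hA

/-- GEO-LVL in the shape of `SelLQ.lean` -/
theorem sellqLvlStatement : SellqLvlStatement :=
  fun N s r _ _ hs hsN hr => stmtLevelUp N s r hs hsN hr

/-- **(L-q)**: for every level `N`, every prime `q ∤ N`, every valuation ring `A` of `ℚ̄` over `q`
and every prime `r ≠ q`: an element of the inertia group of `A` which moves `j ∈ J₀(N)` by an
`r ^ k`-torsion point fixes `j`.  (Only S18-J1 is still a hypothesis.) -/
theorem sellq_main (hJ1 : SellqJ1Statement) (N : ℕ) [NeZero N] (q : ℕ) (hq : q.Prime)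
    (hqN : ¬ q ∣ N) (r : ℕ) (hr : r.Prime) (hrq : r ≠ q) (k : ℕ)
    (A : ValuationSubring (AlgebraicClosure ℚ)) (hA : A.LiesOverPrime q)
    {σ : AlgebraicClosure ℚ ≃ₐ[ℚ] AlgebraicClosure ℚ} (hσ : σ ∈ A.inertiaSubgroupIn ℚ)
    {j : JZero N} (hj : (r ^ k) • (σ • j - j) = 0) : σ • j = j :=
  sellq_main_of sellqPRStatement sellqLvlStatement hJ1 N q hq hqN r hr hrq k A hA hσ hj

/-- **(L-q), cocycle form.** -/
theorem sellq_unramified (hJ1 : SellqJ1Statement) (N : ℕ) [NeZero N] (r : ℕ) (hr : r.Prime)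
    (k : ℕ) (j : JZero N)
    (hj : ∀ σ : AlgebraicClosure ℚ ≃ₐ[ℚ] AlgebraicClosure ℚ, (r ^ k) • (σ • j - j) = 0)
    (q : ℕ) (hq : q.Prime) (hqN : ¬ q ∣ N) (hrq : r ≠ q)
    (A : ValuationSubring (AlgebraicClosure ℚ)) (hA : A.LiesOverPrime q) :
    ∀ σ ∈ A.inertiaSubgroupIn ℚ, σ • j - j = 0 :=
  sellq_unramified_of sellqPRStatement sellqLvlStatement hJ1 N r hr k j hj q hq hqN hrq A hA

end Fermat.Agent.S15


end ZBZ2S15_034_5

/-! ### bundled: `Fermat.Agent.S15.SelJJPkg` -/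
section ZBZ2S15_034_6

/-!
# S15 / SELMER, piece SEL-JJ-aux (part 2): the local package at the descent prime, UNCONDITIONAL

For every level `N`, every prime `r ∤ N` (INCLUDING `r ∈ {2, 3}`, where the reduction package of
`X₀(N)` exists only at the auxiliary level `N (5 − r)`) and every valuation ring `A` of `ℚ̄` over
`r` there is ONE subgroup `J1 ≤ J₀(N)` ("kernel of reduction at `A`") such that

* `decomp_stable` : `J1` is stable under the decomposition group of `A`;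
* `inertia_sub`   : `σ j − j ∈ J1` for every `σ` in the inertia group of `A` and EVERY `j ∈ J₀(N)`
                    (this is (L-r, ét));
* `lattice`       : for every `G_ℚ`-fixed `y` and every `k` the group `𝕁_y[r^k]`
                    (`𝕁_y = (J ⊕ ℤ)/ℤ(y, −r^k)`, the Kummer extension of `ℤ/r^k` by `J[r^k]`) carries
                    a Hopf lattice over `ℤ_(r)` which is reduction-continuous with respect to `J1`:
                    `h u − h u' ∈ 𝔪_A` whenever `u − u' ∈ ι(J1)`.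

`J1 = R.J1` if the package `R` exists at the level `N`, and `J1 = φ⁻¹(R'.J1)` for the level-up
`φ : J₀(N) → J₀(N (5 − r))` otherwise.

* `SeljjPkg N r A J1` : the structure;
* `seljjpkg_direct`, `seljjpkg_aux` : the two cases;
* `seljj_package` : existence, no hypotheses.
-/

set_option autoImplicit false
set_option linter.style.haveILetI false
set_option synthInstance.maxHeartbeats 400000
set_option maxHeartbeats 1600000

open AlgebraicCurve Module ModularCurve

namespace Fermat.Agent.S15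

open Fermat.Agent.W1

/-- **the local package at the descent prime `r`** (see the header) -/
structure SeljjPkg (N : ℕ) [NeZero N] (r : ℕ) (A : ValuationSubring (AlgebraicClosure ℚ))
    (J1 : AddSubgroup (JZero N)) : Prop where
  decomp_stable : ∀ σ ∈ A.decompositionSubgroup ℚ, ∀ x ∈ J1, σ • x ∈ J1
  inertia_sub : ∀ σ ∈ A.inertiaSubgroupIn ℚ, ∀ j : JZero N, σ • j - j ∈ J1
  lattice : ∀ (y : JZero N)
      [Fact (∀ σ : AlgebraicClosure ℚ ≃ₐ[ℚ] AlgebraicClosure ℚ, σ • y = y)] (k : ℕ),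
    ∃ H : Subalgebra (GaloisRep.ratLocalizedAt r)
        (Submodule.torsionBy ℤ (SeljjJ (JZero N) y (r ^ k)) ((r ^ k : ℕ) : ℤ) →
          AlgebraicClosure ℚ),
      IsHopfLattice (GaloisRep.ratLocalizedAt r)
        (torsAct (SeljjJ (JZero N) y (r ^ k)) ((r ^ k : ℕ) : ℤ)) H ∧
      ∀ h ∈ H, ∀ u u' : Submodule.torsionBy ℤ (SeljjJ (JZero N) y (r ^ k)) ((r ^ k : ℕ) : ℤ),
        (u : SeljjJ (JZero N) y (r ^ k)) - (u' : SeljjJ (JZero N) y (r ^ k)) ∈
            J1.map (seljjIota (JZero N) y (r ^ k)) →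
          h u - h u' ∈ A.nonunits

/-- `J₀(N)[r^k]` is finite (cast shape of `SelJJ.lean`) -/
theorem seljjpkg_finite (N : ℕ) [NeZero N] (r : ℕ) (hr : r ≠ 0) (k : ℕ) :
    Finite (Submodule.torsionBy ℤ (JZero N) ((r ^ k : ℕ) : ℤ)) := by
  rw [s19f_cast]
  exact s19f_finite N r hr k

/-- every point of `J₀(N)` has finite level (the hypothesis `hcont` of `SelJJ.lean`) -/
theorem seljjpkg_cont (N : ℕ) [NeZero N] (y : JZero N) (n : ℕ) (R : JZero N)
    (_h : ∃ m : ℤ, (n : ℤ) • R + m • y = 0) :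
    ∃ E : IntermediateField ℚ (AlgebraicClosure ℚ), FiniteDimensional ℚ E ∧
      ∀ σ : AlgebraicClosure ℚ ≃ₐ[ℚ] AlgebraicClosure ℚ, (∀ a ∈ E, σ a = a) → σ • R = R :=
  selfl_exists_field' N R

/-- the lattice at a level with a reduction package -/
theorem seljjpkg_lattice_direct (N : ℕ) [NeZero N] (r : ℕ) (hr : r.Prime)
    (A : ValuationSubring (AlgebraicClosure ℚ)) (hA : A.LiesOverPrime r) (g : ℕ)
    (R : PRData (AlgebraicClosure ℚ) ↥(modularFunctionFieldBar N) (IsLocalRing.ResidueField A)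
      ↥(modularFunctionFieldFullC (IsLocalRing.ResidueField A) N) A)
    (t : ↥(modularFunctionFieldBar N)) (hM : ModPR N A g R t)
    (y : JZero N) [Fact (∀ σ : AlgebraicClosure ℚ ≃ₐ[ℚ] AlgebraicClosure ℚ, σ • y = y)]
    (k : ℕ) :
    ∃ H : Subalgebra (GaloisRep.ratLocalizedAt r)
        (Submodule.torsionBy ℤ (SeljjJ (JZero N) y (r ^ k)) ((r ^ k : ℕ) : ℤ) →
          AlgebraicClosure ℚ),
      IsHopfLattice (GaloisRep.ratLocalizedAt r)
        (torsAct (SeljjJ (JZero N) y (r ^ k)) ((r ^ k : ℕ) : ℤ)) H ∧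
      ∀ h ∈ H, ∀ u u' : Submodule.torsionBy ℤ (SeljjJ (JZero N) y (r ^ k)) ((r ^ k : ℕ) : ℤ),
        (u : SeljjJ (JZero N) y (r ^ k)) - (u' : SeljjJ (JZero N) y (r ^ k)) ∈
            R.J1.map (seljjIota (JZero N) y (r ^ k)) →
          h u - h u' ∈ A.nonunits :=
  seljj_hopfLattice_rc_JZero seljjRCStatement N r hr A hA g R t hM y (r ^ k)
    (pow_pos hr.pos k) (seljjpkg_finite N r hr.ne_zero k) (seljjpkg_cont N y (r ^ k))

/-- **the package at a level with a reduction package** -/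
theorem seljjpkg_direct (N : ℕ) [NeZero N] (r : ℕ) (hr : r.Prime)
    (A : ValuationSubring (AlgebraicClosure ℚ)) (hA : A.LiesOverPrime r) (g : ℕ)
    (R : PRData (AlgebraicClosure ℚ) ↥(modularFunctionFieldBar N) (IsLocalRing.ResidueField A)
      ↥(modularFunctionFieldFullC (IsLocalRing.ResidueField A) N) A)
    (t : ↥(modularFunctionFieldBar N)) (hM : ModPR N A g R t) : SeljjPkg N r A R.J1 where
  decomp_stable := fun _ hσ _ hx => sellq_decomp_stable N r hr A hA g R t hM hσ hx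
  inertia_sub := fun _ hσ j => sellq_sub_mem_J1 N r hr A hA g R t hM hσ j
  lattice := fun y _ k => seljjpkg_lattice_direct N r hr A hA g R t hM y k

/-- **the package comes down along a level-up map** -/
theorem seljjpkg_aux (N N' : ℕ) [NeZero N] [NeZero N'] (r : ℕ) (hr : r.Prime)
    (A : ValuationSubring (AlgebraicClosure ℚ)) (hA : A.LiesOverPrime r) (g : ℕ)
    (R' : PRData (AlgebraicClosure ℚ) ↥(modularFunctionFieldBar N')
      (IsLocalRing.ResidueField A) ↥(modularFunctionFieldFullC (IsLocalRing.ResidueField A) N') A)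
    (t' : ↥(modularFunctionFieldBar N')) (hM' : ModPR N' A g R' t')
    (φ : JZero N →+ JZero N')
    (hφ : ∀ (σ : AlgebraicClosure ℚ ≃ₐ[ℚ] AlgebraicClosure ℚ) (x : JZero N),
      φ (σ • x) = σ • φ x)
    (hinj : ∀ x : JZero N, (∃ n : ℕ, (r ^ n) • x = 0) → φ x = 0 → x = 0) :
    SeljjPkg N r A (R'.J1.comap φ) where
  decomp_stable := by
    intro σ hσ x hx
    rw [AddSubgroup.mem_comap] at hx ⊢
    rw [hφ]
    exact sellq_decomp_stable N' r hr A hA g R' t' hM' hσ hx
  inertia_sub := by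
    intro σ hσ j
    rw [AddSubgroup.mem_comap, map_sub, hφ]
    exact sellq_sub_mem_J1 N' r hr A hA g R' t' hM' hσ (φ j)
  lattice := by
    intro y hy k
    haveI hy' : Fact (∀ σ : AlgebraicClosure ℚ ≃ₐ[ℚ] AlgebraicClosure ℚ, σ • φ y = φ y) :=
      ⟨fun σ => by rw [← hφ, hy.out σ]⟩
    obtain ⟨H', hH', hRC'⟩ := seljjpkg_lattice_direct N' r hr A hA g R' t' hM' (φ y) k
    refine seljj_hopfLattice_rc_pullback φ y (r ^ k) A R'.J1 (pow_pos hr.pos k) hφ ?_ H' hH' hRC'
    intro x hx hx0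
    refine hinj x ⟨k, ?_⟩ hx0
    rw [← natCast_zsmul]
    exact hx

/-- **SEL-JJ-aux: the local package at the descent prime exists**, for every level `N`, every
prime `r ∤ N` and every valuation ring `A` of `ℚ̄` over `r`.  No hypotheses. -/
theorem seljj_package (N : ℕ) [NeZero N] (r : ℕ) (hr : r.Prime) (hrN : ¬ r ∣ N)
    (A : ValuationSubring (AlgebraicClosure ℚ)) (hA : A.LiesOverPrime r) :
    ∃ J1 : AddSubgroup (JZero N), SeljjPkg N r A J1 := by
  by_cases h5 : 5 ≤ r ∨ (5 - r) ∣ N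
  · obtain ⟨g, R, t, hM⟩ := sellqPRStatement N r hr hrN h5 A hA
    exact ⟨R.J1, seljjpkg_direct N r hr A hA g R t hM⟩
  · rw [not_or, not_le] at h5
    obtain ⟨hlt, hsN⟩ := h5
    have hr2 := hr.two_le
    have hs : (5 - r).Prime := by
      have : r = 2 ∨ r = 3 := by
        have h4 : r ≠ 4 := fun h => by rw [h] at hr; exact absurd hr (by decide)
        omega
      rcases this with h | h <;> rw [h] <;> decide
    have hrs : r ≠ 5 - r := by omega
    have hN : N ≠ 0 := NeZero.ne N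
    haveI : NeZero (N * (5 - r)) := ⟨mul_ne_zero hN hs.ne_zero⟩
    have hrNs : ¬ r ∣ N * (5 - r) := by
      intro h
      rcases (Nat.Prime.dvd_mul hr).1 h with h | h
      · exact hrN h
      · exact hrs ((Nat.prime_dvd_prime_iff_eq hr hs).1 h)
    obtain ⟨g, R', t', hM'⟩ :=
      sellqPRStatement (N * (5 - r)) r hr hrNs (Or.inr (Dvd.intro_left N rfl)) A hA
    obtain ⟨φ, hφ, hinj⟩ := sellqLvlStatement N (5 - r) r hs hsN hr
    exact ⟨R'.J1.comap φ, seljjpkg_aux N (N * (5 - r)) r hr A hA g R' t' hM' φ hφ hinj⟩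

end Fermat.Agent.S15


end ZBZ2S15_034_6
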