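/- GENERATED FILE (helper35, build-time optimisation, NOTES/ZB.md): verbatim concatenation of the modules
   Fermat.Agent.S15.SelChain
   Fermat.Agent.S15.SelStep
   Fermat.Agent.S15.SelPlan
   Fermat.Agent.S15.SelDefect
   Fermat.Agent.S15.SelLocFinal
   Fermat.Agent.S15.SelArCycConn
   Fermat.Agent.S15.SelEisPlan
   Fermat.Agent.S15.SelTwo
   Fermat.Agent.S15.CntOddAbs
   Fermat.Agent.S15.CntOddCore
   Do not edit; do not import together with these modules. -/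
import Mathlib
import Fermat.Agent.ZB.Z2S15_002
import Fermat.Agent.ZB.Z2S15_034
import Fermat.Agent.ZB.INJ_034
import Fermat.Agent.ZB.TW_001
import Fermat.Prelude.Def_GaloisRep_ComplexConjugation

/-! ### bundled: `Fermat.Agent.S15.SelChain` -/
section ZBZ2S15_035_0

/-!
# S15 / SELMER block, piece SEL-CH: the chain identity (pure group theory)

`NOTES/S15-FIN.md` §1.  For two chains of subgroups `W 0 ≤ W 1 ≤ … ≤ W L` and
`Y 0 ≤ Y 1 ≤ … ≤ Y L` of an abelian group with `W i ≤ Y i` and `W 0 = ⊥`, `W L` finite: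

  `[Y L : Y 0 + W L] * ∏ k i = #(Y 0 ∩ W L) * ∏ c i`,

where `k i = [Y i ∩ W (i+1) : W i]` and `c i = [Y (i+1) : Y i + W (i+1)]`
(`selch_identity`).  In the application `Y i / W i` is the group of rational points of `J / W i`
satisfying the local condition at the level, `k i` and `c i` are the orders of the kernel and of
the cokernel of `Y i / W i → Y (i+1) / W (i+1)`; this replaces the six-term exact sequences of
Mazur's descent.

* `selch_step` : one step;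
* `selch_identity` : the identity;
* `selch_bound` : if all `c i ≠ 0` and `∏ c i ≤ ∏ k i`, then `[Y L : Y 0 + W L]` is finite and
  `≤ #(Y 0 ∩ W L)`;
* `selch_kills` : if moreover `r • Y (i+1) ≤ Y i` and `#(Y 0 ∩ W L) ≤ r ^ t`, then
  `r ^ t • Y L ≤ Y 0 + W L`.
-/

set_option autoImplicit false

namespace Fermat.Agent.S15

open AddSubgroup

variable {J : Type*} [AddCommGroup J]

/-- the modular law for subgroups of an abelian group -/
theorem selch_modular {A B C : AddSubgroup J} (h : A ≤ C) : C ⊓ (A ⊔ B) = A ⊔ (C ⊓ B) := by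
  apply le_antisymm
  · intro x hx
    obtain ⟨hxC, hxAB⟩ := hx
    obtain ⟨a, ha, b, hb, rfl⟩ := AddSubgroup.mem_sup.1 hxAB
    refine AddSubgroup.mem_sup.2 ⟨a, ha, b, ⟨?_, hb⟩, rfl⟩
    have : b = (a + b) - a := by abel
    rw [this]
    exact C.sub_mem hxC (h ha)
  · exact sup_le (le_inf h le_sup_left) (inf_le_inf_left C le_sup_right)

/-- `#P₀ * [P₁ : P₀] = #P₁` -/
theorem selch_card_mul_relIndex {P0 P1 : AddSubgroup J} (h : P0 ≤ P1) :
    Nat.card ↥P0 * P0.relIndex P1 = Nat.card ↥P1 := by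
  have := AddSubgroup.relIndex_mul_relIndex (⊥ : AddSubgroup J) P0 P1 bot_le h
  rwa [AddSubgroup.relIndex_bot_left, AddSubgroup.relIndex_bot_left] at this

/-- **one step of the chain identity** -/
theorem selch_step (Y0 Yi Yi1 Wi Wi1 : AddSubgroup J)
    (h0i : Y0 ≤ Yi) (hi : Yi ≤ Yi1) (hW : Wi ≤ Wi1) (hWY : Wi ≤ Yi) (hWY1 : Wi1 ≤ Yi1) :
    (Y0 ⊔ Wi1).relIndex Yi1 * Nat.card ↥(Y0 ⊓ Wi) * Wi.relIndex (Yi ⊓ Wi1)
      = (Y0 ⊔ Wi).relIndex Yi * Nat.card ↥(Y0 ⊓ Wi1) * (Yi ⊔ Wi1).relIndex Yi1 := by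
  -- notation
  set B : AddSubgroup J := Y0 ⊔ (Yi ⊓ Wi1) with hB
  set C : AddSubgroup J := Yi ⊓ Wi1 with hC
  set P0 : AddSubgroup J := Y0 ⊓ Wi with hP0
  set P1 : AddSubgroup J := Y0 ⊓ Wi1 with hP1
  have hP01 : P0 ≤ P1 := inf_le_inf_left Y0 hW
  have hP1C : P1 ≤ C := inf_le_inf_right Wi1 h0i
  have hWiC : Wi ≤ C := le_inf hWY hW
  -- (1) + (2) + (3)
  have e1 : (Y0 ⊔ Wi1).relIndex Yi1 = B.relIndex Yi * (Yi ⊔ Wi1).relIndex Yi1 := by
    have h1 : (Y0 ⊔ Wi1).relIndex (Yi ⊔ Wi1) * (Yi ⊔ Wi1).relIndex Yi1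
        = (Y0 ⊔ Wi1).relIndex Yi1 :=
      AddSubgroup.relIndex_mul_relIndex _ _ _ (sup_le_sup_right h0i Wi1) (sup_le hi hWY1)
    have h2 : (Y0 ⊔ Wi1).relIndex (Yi ⊔ Wi1) = (Y0 ⊔ Wi1).relIndex Yi := by
      have : Yi ⊔ Wi1 = Yi ⊔ (Y0 ⊔ Wi1) := by
        rw [← sup_assoc, sup_eq_left.2 h0i]
      rw [this]
      exact AddSubgroup.relIndex_sup_right _ _
    have h3 : (Y0 ⊔ Wi1).relIndex Yi = B.relIndex Yi := by
      rw [← AddSubgroup.inf_relIndex_right, inf_comm, selch_modular h0i]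
    rw [← h1, h2, h3]
  -- (4)
  have e4 : (Y0 ⊔ Wi).relIndex Yi = (Y0 ⊔ Wi).relIndex B * B.relIndex Yi :=
    (AddSubgroup.relIndex_mul_relIndex _ _ _ (sup_le_sup_left hWiC Y0)
      (sup_le h0i inf_le_left)).symm
  -- (5)
  have e5 : (Y0 ⊔ Wi).relIndex B = (Wi ⊔ P1).relIndex C := by
    have hBC : B = C ⊔ (Y0 ⊔ Wi) := by
      rw [hB, sup_comm C, sup_assoc, sup_eq_right.2 hWiC]
    have h1 : (Y0 ⊔ Wi).relIndex B = (Y0 ⊔ Wi).relIndex C := by
      rw [hBC]; exact AddSubgroup.relIndex_sup_right _ _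
    have h2 : (Y0 ⊔ Wi) ⊓ C = Wi ⊔ P1 := by
      have h3 : (Y0 ⊔ Wi) ⊓ C = Wi1 ⊓ (Wi ⊔ Y0) := by
        rw [hC, ← inf_assoc, inf_eq_left.2 (sup_le h0i hWY), inf_comm, sup_comm]
      rw [h3, selch_modular hW, hP1, inf_comm]
    rw [h1, ← AddSubgroup.inf_relIndex_right, h2]
  -- (6) + (7)
  have e6 : Wi.relIndex C = P0.relIndex P1 * (Wi ⊔ P1).relIndex C := by
    have h1 : Wi.relIndex (Wi ⊔ P1) * (Wi ⊔ P1).relIndex C = Wi.relIndex C :=
      AddSubgroup.relIndex_mul_relIndex _ _ _ le_sup_left (sup_le hWiC hP1C)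
    have h2 : Wi.relIndex (Wi ⊔ P1) = P0.relIndex P1 := by
      rw [AddSubgroup.relIndex_sup_left, ← AddSubgroup.inf_relIndex_right]
      congr 1
      rw [hP0, hP1, ← inf_assoc, inf_comm Wi Y0, inf_assoc, inf_eq_left.2 hW]
    rw [← h1, h2]
  have e7 : Nat.card ↥P0 * P0.relIndex P1 = Nat.card ↥P1 := selch_card_mul_relIndex hP01
  rw [e1, e4, e5, e6, ← e7]
  ring

/-- the order of the kernel at step `i` -/
noncomputable def selchK (W Y : ℕ → AddSubgroup J) (i : ℕ) : ℕ :=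
  (W i).relIndex (Y i ⊓ W (i + 1))

/-- the order of the cokernel at step `i` -/
noncomputable def selchC (W Y : ℕ → AddSubgroup J) (i : ℕ) : ℕ :=
  (Y i ⊔ W (i + 1)).relIndex (Y (i + 1))

/-- **the chain identity** -/
theorem selch_identity (W Y : ℕ → AddSubgroup J) (L : ℕ) (hW0 : W 0 = ⊥)
    (hW : ∀ i < L, W i ≤ W (i + 1)) (hY : ∀ i < L, Y i ≤ Y (i + 1))
    (hWY : ∀ i ≤ L, W i ≤ Y i) (hfin : ∀ i ≤ L, Finite ↥(W i)) :
    (Y 0 ⊔ W L).relIndex (Y L) * ∏ i ∈ Finset.range L, selchK W Y i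
      = Nat.card ↥(Y 0 ⊓ W L) * ∏ i ∈ Finset.range L, selchC W Y i := by
  induction L with
  | zero =>
    simp only [Finset.range_zero, Finset.prod_empty, mul_one, hW0, sup_bot_eq, inf_bot_eq,
      AddSubgroup.relIndex_self]
    exact (Nat.card_unique).symm
  | succ L ih =>
    have ih' := ih (fun i hi => hW i (Nat.lt_succ_of_lt hi)) (fun i hi => hY i (Nat.lt_succ_of_lt hi))
      (fun i hi => hWY i (Nat.le_succ_of_le hi)) (fun i hi => hfin i (Nat.le_succ_of_le hi))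
    have h0L : Y 0 ≤ Y L := by
      have : ∀ n ≤ L, Y 0 ≤ Y n := by
        intro n hn
        induction n with
        | zero => exact le_rfl
        | succ n ihn =>
          exact (ihn (Nat.le_of_succ_le hn)).trans (hY n (Nat.lt_succ_of_lt (Nat.lt_of_succ_le hn)))
      exact this L le_rfl
    have hstep := selch_step (Y 0) (Y L) (Y (L + 1)) (W L) (W (L + 1)) h0L
      (hY L (Nat.lt_succ_self L)) (hW L (Nat.lt_succ_self L)) (hWY L (Nat.le_succ L))
      (hWY (L + 1) le_rfl)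
    have : Finite ↥(W L) := hfin L (Nat.le_succ L)
    have : Finite ↥(Y 0 ⊓ W L) :=
      Finite.of_injective (fun x : ↥(Y 0 ⊓ W L) => (⟨x.1, x.2.2⟩ : ↥(W L)))
        (fun a b h => Subtype.ext (congrArg (fun y : ↥(W L) => (y : J)) h))
    have hpos : 0 < Nat.card ↥(Y 0 ⊓ W L) := Nat.card_pos
    rw [Finset.prod_range_succ, Finset.prod_range_succ]
    apply Nat.eq_of_mul_eq_mul_left hpos
    change Nat.card ↥(Y 0 ⊓ W L) * ((Y 0 ⊔ W (L + 1)).relIndex (Y (L + 1)) *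
        ((∏ i ∈ Finset.range L, selchK W Y i) * (W L).relIndex (Y L ⊓ W (L + 1))))
      = Nat.card ↥(Y 0 ⊓ W L) * (Nat.card ↥(Y 0 ⊓ W (L + 1)) *
        ((∏ i ∈ Finset.range L, selchC W Y i) * (Y L ⊔ W (L + 1)).relIndex (Y (L + 1))))
    calc Nat.card ↥(Y 0 ⊓ W L) * ((Y 0 ⊔ W (L + 1)).relIndex (Y (L + 1)) *
          ((∏ i ∈ Finset.range L, selchK W Y i) * (W L).relIndex (Y L ⊓ W (L + 1))))
        = ((Y 0 ⊔ W (L + 1)).relIndex (Y (L + 1)) * Nat.card ↥(Y 0 ⊓ W L) *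
            (W L).relIndex (Y L ⊓ W (L + 1))) * ∏ i ∈ Finset.range L, selchK W Y i := by ring
      _ = ((Y 0 ⊔ W L).relIndex (Y L) * Nat.card ↥(Y 0 ⊓ W (L + 1)) *
            (Y L ⊔ W (L + 1)).relIndex (Y (L + 1))) * ∏ i ∈ Finset.range L, selchK W Y i := by
          rw [hstep]
      _ = ((Y 0 ⊔ W L).relIndex (Y L) * ∏ i ∈ Finset.range L, selchK W Y i) *
            (Nat.card ↥(Y 0 ⊓ W (L + 1)) * (Y L ⊔ W (L + 1)).relIndex (Y (L + 1))) := by ring
      _ = (Nat.card ↥(Y 0 ⊓ W L) * ∏ i ∈ Finset.range L, selchC W Y i) *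
            (Nat.card ↥(Y 0 ⊓ W (L + 1)) * (Y L ⊔ W (L + 1)).relIndex (Y (L + 1))) := by
          rw [ih']
      _ = Nat.card ↥(Y 0 ⊓ W L) * (Nat.card ↥(Y 0 ⊓ W (L + 1)) *
            ((∏ i ∈ Finset.range L, selchC W Y i) *
              (Y L ⊔ W (L + 1)).relIndex (Y (L + 1)))) := by ring

/-- the kernels are finite and non-empty -/
theorem selchK_pos (W Y : ℕ → AddSubgroup J) (i : ℕ) (hWY : W i ≤ Y i) (hW : W i ≤ W (i + 1))
    (hfin : Finite ↥(W (i + 1))) : 0 < selchK W Y i := by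
  have : Finite ↥(Y i ⊓ W (i + 1)) :=
    Finite.of_injective (fun x : ↥(Y i ⊓ W (i + 1)) => (⟨x.1, x.2.2⟩ : ↥(W (i + 1))))
      (fun a b h => Subtype.ext (congrArg (fun y : ↥(W (i + 1)) => (y : J)) h))
  have h1 := selch_card_mul_relIndex (le_inf hWY hW : W i ≤ Y i ⊓ W (i + 1))
  have h2 : 0 < Nat.card ↥(Y i ⊓ W (i + 1)) := Nat.card_pos
  rw [← h1] at h2
  unfold selchK
  exact Nat.pos_of_ne_zero (fun h0 => by rw [h0, mul_zero] at h2; exact lt_irrefl 0 h2)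

/-- **the bound**: if every cokernel is finite and `∏ c i ≤ ∏ k i`, then the index
`[Y L : Y 0 + W L]` is finite and at most `#(Y 0 ∩ W L)`. -/
theorem selch_bound (W Y : ℕ → AddSubgroup J) (L : ℕ) (hW0 : W 0 = ⊥)
    (hW : ∀ i < L, W i ≤ W (i + 1)) (hY : ∀ i < L, Y i ≤ Y (i + 1))
    (hWY : ∀ i ≤ L, W i ≤ Y i) (hfin : ∀ i ≤ L, Finite ↥(W i))
    (hc : ∀ i < L, selchC W Y i ≠ 0)
    (hprod : ∏ i ∈ Finset.range L, selchC W Y i ≤ ∏ i ∈ Finset.range L, selchK W Y i) :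
    (Y 0 ⊔ W L).relIndex (Y L) ≠ 0 ∧
      (Y 0 ⊔ W L).relIndex (Y L) ≤ Nat.card ↥(Y 0 ⊓ W L) := by
  have hid := selch_identity W Y L hW0 hW hY hWY hfin
  have hKpos : 0 < ∏ i ∈ Finset.range L, selchK W Y i :=
    Finset.prod_pos (fun i hi => selchK_pos W Y i (hWY i (Finset.mem_range.1 hi).le)
      (hW i (Finset.mem_range.1 hi)) (hfin (i + 1) (Finset.mem_range.1 hi)))
  have hCpos : 0 < ∏ i ∈ Finset.range L, selchC W Y i :=
    Finset.prod_pos (fun i hi => Nat.pos_of_ne_zero (hc i (Finset.mem_range.1 hi)))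
  have : Finite ↥(W L) := hfin L le_rfl
  have : Finite ↥(Y 0 ⊓ W L) :=
    Finite.of_injective (fun x : ↥(Y 0 ⊓ W L) => (⟨x.1, x.2.2⟩ : ↥(W L)))
      (fun a b h => Subtype.ext (congrArg (fun y : ↥(W L) => (y : J)) h))
  have hpos : 0 < Nat.card ↥(Y 0 ⊓ W L) := Nat.card_pos
  constructor
  · intro h0
    rw [h0, zero_mul] at hid
    exact (Nat.mul_pos hpos hCpos).ne' hid.symm
  · by_contra hlt
    rw [not_le] at hlt
    have h1 : Nat.card ↥(Y 0 ⊓ W L) * ∏ i ∈ Finset.range L, selchC W Y i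
        < (Y 0 ⊔ W L).relIndex (Y L) * ∏ i ∈ Finset.range L, selchK W Y i :=
      Nat.mul_lt_mul_of_lt_of_le hlt hprod hKpos
    rw [hid] at h1
    exact lt_irrefl _ h1

/-- a multiple of the index kills the quotient -/
theorem selch_relIndex_nsmul_mem (H K : AddSubgroup J) (_hHK : H ≤ K) {j : J} (hj : j ∈ K) :
    H.relIndex K • j ∈ H := by
  have h := AddSubgroup.nsmul_index_mem (H.addSubgroupOf K) (⟨j, hj⟩ : ↥K)
  rw [AddSubgroup.mem_addSubgroupOf] at h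
  simpa [AddSubgroup.relIndex] using h

/-- **the exponent**: if moreover `r • Y (i+1) ≤ Y i` for a prime `r` and the index is at most
`r ^ t`, then `r ^ t` kills `Y L / (Y 0 + W L)`. -/
theorem selch_kills {r : ℕ} (hr : r.Prime) (H K : AddSubgroup J) (hHK : H ≤ K) (L t : ℕ)
    (hL : ∀ j ∈ K, r ^ L • j ∈ H) (h0 : H.relIndex K ≠ 0) (ht : H.relIndex K ≤ r ^ t)
    {j : J} (hj : j ∈ K) : r ^ t • j ∈ H := by
  set n := H.relIndex K with hn
  have h1 : n • j ∈ H := selch_relIndex_nsmul_mem H K hHK hj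
  have h2 : r ^ L • j ∈ H := hL j hj
  -- Bezout
  have h3 : (Nat.gcd n (r ^ L)) • j ∈ H := by
    have hb := Nat.gcd_eq_gcd_ab n (r ^ L)
    have h4 : ((Nat.gcd n (r ^ L) : ℕ) : ℤ) • j ∈ H := by
      rw [hb, add_smul, mul_comm (n : ℤ), mul_comm ((r ^ L : ℕ) : ℤ), mul_smul, mul_smul]
      refine H.add_mem (H.zsmul_mem ?_ _) (H.zsmul_mem ?_ _)
      · rw [natCast_zsmul]; exact h1
      · rw [natCast_zsmul]; exact h2
    rwa [natCast_zsmul] at h4
  obtain ⟨s, -, hs⟩ := (Nat.dvd_prime_pow hr).1 (Nat.gcd_dvd_right n (r ^ L))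
  rw [hs] at h3
  have h5 : r ^ s ∣ n := hs ▸ Nat.gcd_dvd_left n (r ^ L)
  have h6 : r ^ s ≤ r ^ t := (Nat.le_of_dvd (Nat.pos_of_ne_zero h0) h5).trans ht
  have h7 : s ≤ t := (Nat.pow_le_pow_iff_right hr.one_lt).1 h6
  obtain ⟨d, rfl⟩ := Nat.exists_eq_add_of_le h7
  rw [pow_add, mul_comm, mul_smul]
  exact H.nsmul_mem h3 _

/-! ## The groups `Y(W)` and the glue (F5) -/

section Glue

variable (G : Type*) [Group G] [DistribMulAction G J]

/-- `Y(W)`: the points of `J` in `𝒥 + W` whose class modulo `W` is fixed by `G`. -/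
def selY (𝒥 W : AddSubgroup J) : AddSubgroup J where
  carrier := {j | j ∈ 𝒥 ⊔ W ∧ ∀ σ : G, σ • j - j ∈ W}
  zero_mem' := ⟨zero_mem _, fun σ => by rw [smul_zero, sub_zero]; exact zero_mem _⟩
  add_mem' := by
    rintro a b ⟨ha, ha'⟩ ⟨hb, hb'⟩
    refine ⟨add_mem ha hb, fun σ => ?_⟩
    have : σ • (a + b) - (a + b) = (σ • a - a) + (σ • b - b) := by rw [smul_add]; abel
    rw [this]; exact add_mem (ha' σ) (hb' σ)
  neg_mem' := by
    rintro a ⟨ha, ha'⟩
    refine ⟨neg_mem ha, fun σ => ?_⟩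
    have : σ • (-a) - (-a) = -(σ • a - a) := by rw [smul_neg]; abel
    rw [this]; exact neg_mem (ha' σ)

variable {G}

theorem mem_selY {𝒥 W : AddSubgroup J} {j : J} :
    j ∈ selY G 𝒥 W ↔ j ∈ 𝒥 ⊔ W ∧ ∀ σ : G, σ • j - j ∈ W := Iff.rfl

theorem le_selY {𝒥 W : AddSubgroup J} (hW : ∀ σ : G, ∀ w ∈ W, σ • w ∈ W) : W ≤ selY G 𝒥 W :=
  fun w hw => ⟨(le_sup_right : W ≤ 𝒥 ⊔ W) hw, fun σ => W.sub_mem (hW σ w hw) hw⟩

theorem selY_mono {𝒥 W W' : AddSubgroup J} (h : W ≤ W') : selY G 𝒥 W ≤ selY G 𝒥 W' :=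
  fun _ hj => ⟨(sup_le_sup_left h 𝒥) hj.1, fun σ => h (hj.2 σ)⟩

theorem mem_selY_bot {𝒥 : AddSubgroup J} {j : J} :
    j ∈ selY G 𝒥 ⊥ ↔ j ∈ 𝒥 ∧ ∀ σ : G, σ • j = j := by
  rw [mem_selY, sup_bot_eq]
  refine and_congr Iff.rfl (forall_congr' fun σ => ?_)
  rw [AddSubgroup.mem_bot, sub_eq_zero]

theorem selY_nsmul_mem {𝒥 W W' : AddSubgroup J} {r : ℕ} (hr : ∀ w ∈ W', r • w ∈ W)
    {j : J} (hj : j ∈ selY G 𝒥 W') : r • j ∈ selY G 𝒥 W := by
  obtain ⟨h1, h2⟩ := hj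
  obtain ⟨a, ha, w, hw, rfl⟩ := AddSubgroup.mem_sup.1 h1
  refine ⟨?_, fun σ => ?_⟩
  · rw [smul_add]
    exact AddSubgroup.mem_sup.2 ⟨r • a, 𝒥.nsmul_mem ha r, r • w, hr w hw, rfl⟩
  · have : σ • (r • (a + w)) - r • (a + w) = r • (σ • (a + w) - (a + w)) := by
      rw [smul_sub, smul_comm]
    rw [this]
    exact hr _ (h2 σ)

/-- **SEL-CH, final form.**  A composition series `W 0 = ⊥ ≤ … ≤ W L` of `G`-stable finite
subgroups with `r • W (i+1) ≤ W i`, finite cokernels with `∏ c i ≤ ∏ k i`, and at most `r ^ t`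
rational points in `W L`: then `r ^ t • Y(W L) ≤ Y(⊥) + W L`. -/
theorem sel_chain {r : ℕ} (hr : r.Prime) (𝒥 : AddSubgroup J) (W : ℕ → AddSubgroup J) (L t : ℕ)
    (hW0 : W 0 = ⊥) (hW : ∀ i < L, W i ≤ W (i + 1))
    (hWG : ∀ i ≤ L, ∀ σ : G, ∀ w ∈ W i, σ • w ∈ W i)
    (hfin : ∀ i ≤ L, Finite ↥(W i)) (hrW : ∀ i < L, ∀ w ∈ W (i + 1), r • w ∈ W i)
    (hc : ∀ i < L, selchC W (fun i => selY G 𝒥 (W i)) i ≠ 0)
    (hprod : ∏ i ∈ Finset.range L, selchC W (fun i => selY G 𝒥 (W i)) i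
      ≤ ∏ i ∈ Finset.range L, selchK W (fun i => selY G 𝒥 (W i)) i)
    (ht : Nat.card ↥(selY G 𝒥 ⊥ ⊓ W L) ≤ r ^ t)
    {j : J} (hj : j ∈ selY G 𝒥 (W L)) : r ^ t • j ∈ selY G 𝒥 ⊥ ⊔ W L := by
  have hb := selch_bound W (fun i => selY G 𝒥 (W i)) L hW0 hW
    (fun i hi => selY_mono (hW i hi)) (fun i hi => le_selY (hWG i hi)) hfin hc hprod
  simp only [hW0] at hb
  have hmono : ∀ n ≤ L, selY G 𝒥 ⊥ ≤ selY G 𝒥 (W n) := fun n _ => selY_mono bot_le
  have hle : selY G 𝒥 ⊥ ⊔ W L ≤ selY G 𝒥 (W L) :=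
    sup_le (hmono L le_rfl) (le_selY (hWG L le_rfl))
  -- `r ^ L` kills the quotient
  have hL : ∀ n ≤ L, ∀ x ∈ selY G 𝒥 (W n), r ^ n • x ∈ selY G 𝒥 ⊥ := by
    intro n
    induction n with
    | zero =>
      intro _ x hx
      rw [pow_zero, one_smul]
      rwa [hW0] at hx
    | succ n ih =>
      intro hn x hx
      rw [pow_succ, mul_smul]
      exact ih (Nat.le_of_succ_le hn) _ (selY_nsmul_mem (hrW n (Nat.lt_of_succ_le hn)) hx)
  exact selch_kills hr _ _ hle L t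
    (fun x hx => (le_sup_left : selY G 𝒥 ⊥ ≤ selY G 𝒥 ⊥ ⊔ W L) (hL L le_rfl x hx))
    hb.1 (hb.2.trans ht) hj

/-- **(F5), the glue**: from `r ^ t • Y(G_k) ≤ Y(⊥) + G_k` to the interface `FIN″`.
`E` is the Hecke operator which projects `J[r^k]` into the Eisenstein part `Gk`. -/
theorem sel_glue {r k t : ℕ} (𝒥 Gk : AddSubgroup J) (E : J →+ J)
    (hEG : ∀ (σ : G) (x : J), E (σ • x) = σ • E x) (hE𝒥 : ∀ x ∈ 𝒥, E x ∈ 𝒥)
    (hEV : ∀ x : J, r ^ k • x = 0 → E x ∈ Gk) (hGk : ∀ x ∈ Gk, r ^ k • x = 0)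
    (hbound : ∀ j ∈ selY G 𝒥 Gk, r ^ t • j ∈ selY G 𝒥 ⊥ ⊔ Gk)
    (w : J) (hw : ∀ σ : G, σ • w = w) (R : J) (hR : R ∈ 𝒥) (hRw : r ^ k • R = w) :
    ∃ m : J, (∀ σ : G, σ • m = m) ∧ m ∈ 𝒥 ∧ r ^ t • E w = r ^ k • m := by
  have hER : E R ∈ selY G 𝒥 Gk := by
    refine ⟨(le_sup_left : 𝒥 ≤ 𝒥 ⊔ Gk) (hE𝒥 R hR), fun σ => ?_⟩
    have h1 : σ • E R - E R = E (σ • R - R) := by rw [map_sub, hEG]
    rw [h1]
    apply hEV
    rw [smul_sub, smul_comm, hRw, hw, sub_self]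
  obtain ⟨m, hm, g, hg, hmg⟩ := AddSubgroup.mem_sup.1 (hbound _ hER)
  obtain ⟨hm𝒥, hmG⟩ := mem_selY_bot.1 hm
  refine ⟨m, hmG, hm𝒥, ?_⟩
  have h2 : r ^ k • (r ^ t • E R) = r ^ k • m := by
    rw [← hmg, smul_add, hGk g hg, add_zero]
  rw [← hRw, map_nsmul, smul_comm]
  exact h2

end Glue

end Fermat.Agent.S15


end ZBZ2S15_035_0

/-! ### bundled: `Fermat.Agent.S15.SelStep` -/
section ZBZ2S15_035_1

/-!
# S15 / SELMER block, piece SEL-ST: the step bounds and the count (pure algebra)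

`NOTES/S15-FIN.md` §1–§2.  `J` an abelian group with an action of `G`, `𝒥 ≤ J` a subgroup (the
local condition at the level), `W ≤ W'` two `G`-stable finite subgroups,
`Y = selY G 𝒥 W`, `Y' = selY G 𝒥 W'`,

  `k = [Y ∩ W' : W]`,   `c = [Y' : Y + W']`.

* `selst_relIndex_le_card` : pigeonhole for an index;
* `selst_c_eq_one`   (ST-A): `c = 1` if the cocycle of every point of `𝒥 ∩ Y'` is, modulo `W`, the
  coboundary of an element of `W' ∩ (𝒥 + W)`;
* `selst_c_le_card`  (ST-C): `c ≠ 0`, `c ≤ #T` if a map to `T` separates the cocycles of the points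
  of `𝒥 ∩ Y'` modulo `W`;
* `selst_c_le_index` : `c ≠ 0`, `c ≤ [W' : W]` if every such cocycle is a coboundary of an element
  of `W'`;
* `selst_c_le_two`   : `c ≠ 0`, `c ≤ 2` if there are at most two such cocycles;
* `selst_k_eq`       (ST-K): `k = [W' : W]` if `W' ≤ 𝒥 + W` and `G` acts trivially on `W' / W`;
* `selst_card_jumps` : for a chain with steps of prime index `r` and any subgroup `S`,
  `#(W L ∩ S) = r ^ #{i < L | W (i+1) ∩ S ⊄ W i}`;
* `selst_prod_le`    : the product inequality from the step bounds and the count;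
* `sel_main`         : the conclusion of `sel_chain` from the step bounds by type
  (étale :⇔ `W (i+1) ∩ V1 ≤ W i`; finite :⇔ `W (i+1) ∩ 𝒥 ⊄ W i`) and `#(W L ∩ V1) ≤ #(W L ∩ 𝒥)`.
-/

set_option autoImplicit false

namespace Fermat.Agent.S15

open AddSubgroup

variable {J : Type*} [AddCommGroup J]

/-- **pigeonhole**: if a map to a finite type separates the cosets of `H` in `K`, the index
`[K : H ∩ K]` is finite and at most `#T`. -/
theorem selst_relIndex_le_card (H K : AddSubgroup J) {T : Type*} [Finite T] (τ : J → T)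
    (h : ∀ a ∈ K, ∀ b ∈ K, τ a = τ b → a - b ∈ H) :
    H.relIndex K ≠ 0 ∧ H.relIndex K ≤ Nat.card T := by
  let f : (↥K ⧸ H.addSubgroupOf K) → T := fun q => τ ((Quotient.out q : ↥K) : J)
  have hf : Function.Injective f := by
    intro q q' hqq
    have h1 : ((Quotient.out q : ↥K) : J) - ((Quotient.out q' : ↥K) : J) ∈ H :=
      h _ (Quotient.out q).2 _ (Quotient.out q').2 hqq
    have h2 : (QuotientAddGroup.mk (Quotient.out q) : ↥K ⧸ H.addSubgroupOf K)
        = QuotientAddGroup.mk (Quotient.out q') := by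
      rw [QuotientAddGroup.eq, AddSubgroup.mem_addSubgroupOf]
      have : ((-(Quotient.out q) + Quotient.out q' : ↥K) : J)
          = -(((Quotient.out q : ↥K) : J) - ((Quotient.out q' : ↥K) : J)) := by
        push_cast
        abel
      rw [this]
      exact H.neg_mem h1
    have h3 : ∀ x : ↥K ⧸ H.addSubgroupOf K,
        (QuotientAddGroup.mk (Quotient.out x) : ↥K ⧸ H.addSubgroupOf K) = x :=
      fun x => Quotient.out_eq x
    rw [← h3 q, ← h3 q', h2]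
  have hfin : Finite (↥K ⧸ H.addSubgroupOf K) := Finite.of_injective f hf
  have hidx : H.relIndex K = Nat.card (↥K ⧸ H.addSubgroupOf K) := by
    rw [AddSubgroup.relIndex, AddSubgroup.index_eq_card]
  refine ⟨?_, ?_⟩
  · rw [hidx]
    exact Nat.card_pos.ne'
  · rw [hidx]
    exact Nat.card_le_card_of_injective f hf

section Step

variable {G : Type*} [Group G] [DistribMulAction G J]

/-- `Y' = (𝒥 ∩ Y') + W'` -/
theorem selst_decomp {𝒥 W' : AddSubgroup J} (hW' : ∀ σ : G, ∀ w ∈ W', σ • w ∈ W') {j : J}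
    (hj : j ∈ selY G 𝒥 W') : ∃ a ∈ 𝒥 ⊓ selY G 𝒥 W', ∃ w ∈ W', j = a + w := by
  obtain ⟨h1, h2⟩ := hj
  obtain ⟨a, ha, w, hw, rfl⟩ := AddSubgroup.mem_sup.1 h1
  refine ⟨a, ⟨ha, (le_sup_left : 𝒥 ≤ 𝒥 ⊔ W') ha, fun σ => ?_⟩, w, hw, rfl⟩
  have : σ • a - a = (σ • (a + w) - (a + w)) - (σ • w - w) := by rw [smul_add]; abel
  rw [this]
  exact W'.sub_mem (h2 σ) (W'.sub_mem (hW' σ w hw) hw)

/-- a point of `𝒥` whose cocycle vanishes modulo `W` lies in `Y(W)` -/
theorem selst_mem_selY {𝒥 W : AddSubgroup J} {a : J} (ha : a ∈ 𝒥)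
    (h : ∀ σ : G, σ • a - a ∈ W) : a ∈ selY G 𝒥 W :=
  ⟨(le_sup_left : 𝒥 ≤ 𝒥 ⊔ W) ha, h⟩

/-- **(ST-C)**, general form: `c ≠ 0` and `c ≤ #T` if a map to the finite type `T` separates the
classes of the points of `𝒥 ∩ Y'` modulo `Y + W'`. -/
theorem selst_c_le_card' (𝒥 W W' : AddSubgroup J)
    (hW' : ∀ σ : G, ∀ w ∈ W', σ • w ∈ W') {T : Type*} [Finite T] (τ : J → T)
    (hτ : ∀ a ∈ 𝒥 ⊓ selY G 𝒥 W', ∀ b ∈ 𝒥 ⊓ selY G 𝒥 W', τ a = τ b →
      a - b ∈ selY G 𝒥 W ⊔ W') :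
    (selY G 𝒥 W ⊔ W').relIndex (selY G 𝒥 W') ≠ 0 ∧
      (selY G 𝒥 W ⊔ W').relIndex (selY G 𝒥 W') ≤ Nat.card T := by
  classical
  -- choose the `𝒥`-component of a point of `Y'`
  let comp : J → J := fun j =>
    if hj : j ∈ selY G 𝒥 W' then (selst_decomp hW' hj).choose else 0
  have hcomp : ∀ j ∈ selY G 𝒥 W', comp j ∈ 𝒥 ⊓ selY G 𝒥 W' ∧ ∃ w ∈ W', j = comp j + w := by
    intro j hj
    have h := (selst_decomp hW' hj).choose_spec
    simp only [comp, dif_pos hj]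
    exact h
  refine selst_relIndex_le_card (selY G 𝒥 W ⊔ W') (selY G 𝒥 W') (fun j => τ (comp j)) ?_
  intro a ha b hb hab
  obtain ⟨ha1, wa, hwa, hae⟩ := hcomp a ha
  obtain ⟨hb1, wb, hwb, hbe⟩ := hcomp b hb
  have h1 := hτ _ ha1 _ hb1 hab
  have h2 : a - b = (comp a - comp b) + (wa - wb) := by
    conv_lhs => rw [hae, hbe]
    abel
  rw [h2]
  exact add_mem h1 ((le_sup_right : W' ≤ selY G 𝒥 W ⊔ W') (W'.sub_mem hwa hwb))

/-- **(ST-C)**: `c ≠ 0` and `c ≤ #T` if a map to the finite type `T` separates the cocycles modulo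
`W` of the points of `𝒥 ∩ Y'`. -/
theorem selst_c_le_card (𝒥 W W' : AddSubgroup J)
    (hW' : ∀ σ : G, ∀ w ∈ W', σ • w ∈ W') {T : Type*} [Finite T] (τ : J → T)
    (hτ : ∀ a ∈ 𝒥, (∀ σ : G, σ • a - a ∈ W') → ∀ b ∈ 𝒥, (∀ σ : G, σ • b - b ∈ W') →
      τ a = τ b → ∀ σ : G, σ • (a - b) - (a - b) ∈ W) :
    (selY G 𝒥 W ⊔ W').relIndex (selY G 𝒥 W') ≠ 0 ∧
      (selY G 𝒥 W ⊔ W').relIndex (selY G 𝒥 W') ≤ Nat.card T := by
  refine selst_c_le_card' 𝒥 W W' hW' τ ?_
  intro a ha b hb hab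
  exact (le_sup_left : selY G 𝒥 W ≤ selY G 𝒥 W ⊔ W')
    (selst_mem_selY (𝒥.sub_mem ha.1 hb.1) (hτ a ha.1 ha.2.2 b hb.1 hb.2.2 hab))

/-- **(ST-A)**: `c = 1` if the cocycle of every point of `𝒥 ∩ Y'` is, modulo `W`, the coboundary
of an element of `W' ∩ (𝒥 + W)`. -/
theorem selst_c_eq_one (𝒥 W W' : AddSubgroup J)
    (hW' : ∀ σ : G, ∀ w ∈ W', σ • w ∈ W')
    (h : ∀ a ∈ 𝒥, (∀ σ : G, σ • a - a ∈ W') →
      ∃ w' ∈ W', w' ∈ 𝒥 ⊔ W ∧ ∀ σ : G, (σ • a - a) - (σ • w' - w') ∈ W) :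
    (selY G 𝒥 W ⊔ W').relIndex (selY G 𝒥 W') = 1 := by
  rw [AddSubgroup.relIndex_eq_one]
  intro j hj
  obtain ⟨a, ha, w, hw, rfl⟩ := selst_decomp hW' hj
  obtain ⟨w', hw', hw'J, hcob⟩ := h a ha.1 ha.2.2
  have h1 : a - w' ∈ selY G 𝒥 W := by
    refine ⟨?_, fun σ => ?_⟩
    · have h2 : a ∈ 𝒥 ⊔ W := (le_sup_left : 𝒥 ≤ 𝒥 ⊔ W) ha.1
      exact (𝒥 ⊔ W).sub_mem h2 hw'J
    · have : σ • (a - w') - (a - w') = (σ • a - a) - (σ • w' - w') := by rw [smul_sub]; abel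
      rw [this]
      exact hcob σ
  have h3 : a + w = (a - w') + (w' + w) := by abel
  rw [h3]
  exact add_mem ((le_sup_left : selY G 𝒥 W ≤ selY G 𝒥 W ⊔ W') h1)
    ((le_sup_right : W' ≤ selY G 𝒥 W ⊔ W') (W'.add_mem hw' hw))

/-- `c = 1` if the cocycle of every point of `𝒥 ∩ Y'` vanishes modulo `W` (étale steps). -/
theorem selst_c_eq_one_of_vanish (𝒥 W W' : AddSubgroup J)
    (hW' : ∀ σ : G, ∀ w ∈ W', σ • w ∈ W')
    (h : ∀ a ∈ 𝒥, (∀ σ : G, σ • a - a ∈ W') → ∀ σ : G, σ • a - a ∈ W) :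
    (selY G 𝒥 W ⊔ W').relIndex (selY G 𝒥 W') = 1 := by
  refine selst_c_eq_one 𝒥 W W' hW' (fun a ha ha' => ⟨0, W'.zero_mem, (𝒥 ⊔ W).zero_mem, ?_⟩)
  intro σ
  rw [smul_zero, sub_zero, sub_zero]
  exact h a ha ha' σ

/-- `c = 1` if `W' ≤ 𝒥 + W` and every cocycle is a coboundary of an element of `W'`
(steps of type (conn, fin), `r` odd). -/
theorem selst_c_eq_one_of_fin (𝒥 W W' : AddSubgroup J)
    (hW' : ∀ σ : G, ∀ w ∈ W', σ • w ∈ W') (hfin : W' ≤ 𝒥 ⊔ W)
    (h : ∀ a ∈ 𝒥, (∀ σ : G, σ • a - a ∈ W') →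
      ∃ w' ∈ W', ∀ σ : G, (σ • a - a) - (σ • w' - w') ∈ W) :
    (selY G 𝒥 W ⊔ W').relIndex (selY G 𝒥 W') = 1 := by
  refine selst_c_eq_one 𝒥 W W' hW' (fun a ha ha' => ?_)
  obtain ⟨w', hw', hc⟩ := h a ha ha'
  exact ⟨w', hw', hfin hw', hc⟩

/-- `c ≠ 0`, `c ≤ [W' : W]` if every cocycle is, modulo `W`, a coboundary of an element of `W'`
(steps of type (conn, null), `r` odd). -/
theorem selst_c_le_index (𝒥 W W' : AddSubgroup J)
    (hW : ∀ σ : G, ∀ w ∈ W, σ • w ∈ W)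
    (hW' : ∀ σ : G, ∀ w ∈ W', σ • w ∈ W') (hfinite : Finite ↥W')
    (h : ∀ a ∈ 𝒥, (∀ σ : G, σ • a - a ∈ W') →
      ∃ w' ∈ W', ∀ σ : G, (σ • a - a) - (σ • w' - w') ∈ W) :
    (selY G 𝒥 W ⊔ W').relIndex (selY G 𝒥 W') ≠ 0 ∧
      (selY G 𝒥 W ⊔ W').relIndex (selY G 𝒥 W') ≤ W.relIndex W' := by
  classical
  -- the chosen primitive
  let prim : J → ↥W' := fun a =>
    if ha : a ∈ 𝒥 ∧ ∀ σ : G, σ • a - a ∈ W' then
      ⟨(h a ha.1 ha.2).choose, (h a ha.1 ha.2).choose_spec.1⟩ else 0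
  have hprim : ∀ a ∈ 𝒥, (∀ σ : G, σ • a - a ∈ W') →
      ∀ σ : G, (σ • a - a) - (σ • (prim a : J) - (prim a : J)) ∈ W := by
    intro a ha ha'
    have := (h a ha ha').choose_spec.2
    simp only [prim, dif_pos (And.intro ha ha')]
    exact this
  have hfinq : Finite (↥W' ⧸ W.addSubgroupOf W') := inferInstance
  have hcard : W.relIndex W' = Nat.card (↥W' ⧸ W.addSubgroupOf W') := by
    rw [AddSubgroup.relIndex, AddSubgroup.index_eq_card]
  rw [hcard]
  refine selst_c_le_card 𝒥 W W' hW'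
    (fun a => (QuotientAddGroup.mk (prim a) : ↥W' ⧸ W.addSubgroupOf W')) ?_
  intro a ha ha' b hb hb' hab σ
  rw [QuotientAddGroup.eq, AddSubgroup.mem_addSubgroupOf] at hab
  have hd : (prim a : J) - (prim b : J) ∈ W := by
    have : (prim a : J) - (prim b : J) = -((-(prim a) + prim b : ↥W') : J) := by
      push_cast
      abel
    rw [this]
    exact W.neg_mem hab
  have h1 := hprim a ha ha' σ
  have h2 := hprim b hb hb' σ
  have h3 : σ • (a - b) - (a - b)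
      = ((σ • a - a) - (σ • (prim a : J) - (prim a : J)))
        - ((σ • b - b) - (σ • (prim b : J) - (prim b : J)))
        + (σ • ((prim a : J) - (prim b : J)) - ((prim a : J) - (prim b : J))) := by
    rw [smul_sub, smul_sub]
    abel
  rw [h3]
  exact W.add_mem (W.sub_mem h1 h2) (W.sub_mem (hW σ _ hd) hd)

/-- `c ≠ 0`, `c ≤ 2` if the cocycles modulo `W` of the points of `𝒥 ∩ Y'` take at most two values
(steps of type conn for `r = 2`: the cocycle is `0` or the character of `ℚ(i)`). -/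
theorem selst_c_le_two (𝒥 W W' : AddSubgroup J)
    (hW' : ∀ σ : G, ∀ w ∈ W', σ • w ∈ W') (a₀ : J)
    (h : ∀ a ∈ 𝒥, (∀ σ : G, σ • a - a ∈ W') →
      (∀ σ : G, σ • a - a ∈ W) ∨ (∀ σ : G, σ • (a - a₀) - (a - a₀) ∈ W)) :
    (selY G 𝒥 W ⊔ W').relIndex (selY G 𝒥 W') ≠ 0 ∧
      (selY G 𝒥 W ⊔ W').relIndex (selY G 𝒥 W') ≤ 2 := by
  classical
  have hb : Nat.card Bool = 2 := by simp
  rw [← hb]
  refine selst_c_le_card 𝒥 W W' hW' (fun a => decide (∀ σ : G, σ • a - a ∈ W)) ?_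
  intro a ha ha' b hb hb' hab σ
  simp only [decide_eq_decide] at hab
  by_cases hA : ∀ σ : G, σ • a - a ∈ W
  · have hB := hab.1 hA
    have : σ • (a - b) - (a - b) = (σ • a - a) - (σ • b - b) := by rw [smul_sub]; abel
    rw [this]
    exact W.sub_mem (hA σ) (hB σ)
  · have hB : ¬ ∀ σ : G, σ • b - b ∈ W := fun hB => hA (hab.2 hB)
    have hA' := (h a ha ha').resolve_left hA
    have hB' := (h b hb hb').resolve_left hB
    have : σ • (a - b) - (a - b)
        = (σ • (a - a₀) - (a - a₀)) - (σ • (b - a₀) - (b - a₀)) := by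
      simp only [smul_sub]
      abel
    rw [this]
    exact W.sub_mem (hA' σ) (hB' σ)

/-- **(ST-K)**: `k = [W' : W]` if `W' ≤ 𝒥 + W` and `G` acts trivially on `W' / W`. -/
theorem selst_k_eq (𝒥 W W' : AddSubgroup J) (hfin : W' ≤ 𝒥 ⊔ W)
    (htriv : ∀ σ : G, ∀ w ∈ W', σ • w - w ∈ W) :
    W.relIndex (selY G 𝒥 W ⊓ W') = W.relIndex W' := by
  have : selY G 𝒥 W ⊓ W' = W' :=
    inf_eq_right.2 (fun w hw => ⟨hfin hw, fun σ => htriv σ w hw⟩)
  rw [this]

end Step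

/-! ## Counting the jumps -/

section Count

/-- the set of jumps of the chain `W` with respect to `S` -/
noncomputable def selstJumps (W : ℕ → AddSubgroup J) (S : AddSubgroup J) (L : ℕ) : Finset ℕ := by
  classical
  exact (Finset.range L).filter (fun i => ¬ (W (i + 1) ⊓ S ≤ W i))

theorem mem_selstJumps {W : ℕ → AddSubgroup J} {S : AddSubgroup J} {L i : ℕ} :
    i ∈ selstJumps W S L ↔ i < L ∧ ¬ (W (i + 1) ⊓ S ≤ W i) := by
  classical
  simp [selstJumps]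

/-- one step of the count -/
theorem selst_card_step {r : ℕ} (hr : r.Prime) (W W' S : AddSubgroup J) (hWW' : W ≤ W')
    (hidx : W.relIndex W' = r) :
    (W' ⊓ S ≤ W → Nat.card ↥(W' ⊓ S) = Nat.card ↥(W ⊓ S)) ∧
    (¬ (W' ⊓ S ≤ W) → Nat.card ↥(W' ⊓ S) = Nat.card ↥(W ⊓ S) * r) := by
  have hle : W ⊓ S ≤ W' ⊓ S := inf_le_inf_right S hWW'
  have h1 := selch_card_mul_relIndex hle
  -- `[W' ∩ S : W ∩ S] = [W' ∩ S : W]`
  have h2 : (W ⊓ S).relIndex (W' ⊓ S) = W.relIndex (W' ⊓ S) := by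
    have e : W ⊓ S ⊓ (W' ⊓ S) = W ⊓ (W' ⊓ S) := by
      apply le_antisymm
      · exact le_inf (inf_le_left.trans inf_le_left) inf_le_right
      · exact le_inf (le_inf inf_le_left (inf_le_right.trans inf_le_right)) inf_le_right
    rw [← AddSubgroup.inf_relIndex_right (W ⊓ S) (W' ⊓ S), e,
      AddSubgroup.inf_relIndex_right W (W' ⊓ S)]
  -- `[W' ∩ S : W] ∣ [W' : W] = r`
  have h3 : W.relIndex (W' ⊓ S) ∣ r := by
    have h4 := AddSubgroup.relIndex_inf_mul_relIndex W W' S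
    have h5 : W.relIndex (W' ⊓ S) ∣ (W ⊓ W').relIndex S := Dvd.intro _ h4
    -- use multiplicativity along `W ≤ W ⊔ (W' ⊓ S) ≤ W'`
    have h6 : W.relIndex (W ⊔ (W' ⊓ S)) * (W ⊔ (W' ⊓ S)).relIndex W' = W.relIndex W' :=
      AddSubgroup.relIndex_mul_relIndex W (W ⊔ (W' ⊓ S)) W' le_sup_left
        (sup_le hWW' inf_le_left)
    have h7 : W.relIndex (W ⊔ (W' ⊓ S)) = W.relIndex (W' ⊓ S) :=
      AddSubgroup.relIndex_sup_left _ _
    rw [h7, hidx] at h6
    exact Dvd.intro _ h6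
  constructor
  · intro h
    have h8 : W.relIndex (W' ⊓ S) = 1 := AddSubgroup.relIndex_eq_one.2 h
    rw [h2, h8, mul_one] at h1
    exact h1.symm
  · intro h
    have h8 : W.relIndex (W' ⊓ S) ≠ 1 := fun h9 => h (AddSubgroup.relIndex_eq_one.1 h9)
    have h9 : W.relIndex (W' ⊓ S) = r := ((Nat.dvd_prime hr).1 h3).resolve_left h8
    rw [h2, h9] at h1
    exact h1.symm

/-- **the count**: `#(W L ∩ S) = r ^ #jumps`. -/
theorem selst_card_jumps {r : ℕ} (hr : r.Prime) (W : ℕ → AddSubgroup J) (S : AddSubgroup J)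
    (L : ℕ) (hW0 : W 0 = ⊥) (hW : ∀ i < L, W i ≤ W (i + 1))
    (hidx : ∀ i < L, (W i).relIndex (W (i + 1)) = r) :
    Nat.card ↥(W L ⊓ S) = r ^ (selstJumps W S L).card := by
  classical
  induction L with
  | zero =>
    have : selstJumps W S 0 = ∅ := by
      ext i
      simp [mem_selstJumps]
    rw [this, Finset.card_empty, pow_zero, hW0, bot_inf_eq]
    exact Nat.card_unique
  | succ L ih =>
    have ih' := ih (fun i hi => hW i (Nat.lt_succ_of_lt hi))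
      (fun i hi => hidx i (Nat.lt_succ_of_lt hi))
    have hstep := selst_card_step hr (W L) (W (L + 1)) S (hW L (Nat.lt_succ_self L))
      (hidx L (Nat.lt_succ_self L))
    by_cases hj : W (L + 1) ⊓ S ≤ W L
    · have e : selstJumps W S (L + 1) = selstJumps W S L := by
        ext i
        rw [mem_selstJumps, mem_selstJumps]
        constructor
        · rintro ⟨h1, h2⟩
          refine ⟨?_, h2⟩
          rcases Nat.lt_succ_iff_lt_or_eq.1 h1 with h | h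
          · exact h
          · subst h; exact absurd hj h2
        · rintro ⟨h1, h2⟩
          exact ⟨Nat.lt_succ_of_lt h1, h2⟩
      rw [e, hstep.1 hj, ih']
    · have e : selstJumps W S (L + 1) = insert L (selstJumps W S L) := by
        ext i
        rw [Finset.mem_insert, mem_selstJumps, mem_selstJumps]
        constructor
        · rintro ⟨h1, h2⟩
          rcases Nat.lt_succ_iff_lt_or_eq.1 h1 with h | h
          · exact Or.inr ⟨h, h2⟩
          · exact Or.inl h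
        · rintro (h | ⟨h1, h2⟩)
          · subst h; exact ⟨Nat.lt_succ_self _, hj⟩
          · exact ⟨Nat.lt_succ_of_lt h1, h2⟩
      have hL : L ∉ selstJumps W S L := fun h => lt_irrefl L (mem_selstJumps.1 h).1
      rw [e, Finset.card_insert_of_notMem hL, hstep.2 hj, ih', pow_succ]

/-- the count, comparison form -/
theorem selst_jumps_le {r : ℕ} (hr : r.Prime) (W : ℕ → AddSubgroup J) (S S' : AddSubgroup J)
    (L : ℕ) (hW0 : W 0 = ⊥) (hW : ∀ i < L, W i ≤ W (i + 1))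
    (hidx : ∀ i < L, (W i).relIndex (W (i + 1)) = r)
    (h : Nat.card ↥(W L ⊓ S) ≤ Nat.card ↥(W L ⊓ S')) :
    (selstJumps W S L).card ≤ (selstJumps W S' L).card := by
  rw [selst_card_jumps hr W S L hW0 hW hidx,
    selst_card_jumps hr W S' L hW0 hW hidx] at h
  exact (Nat.pow_le_pow_iff_right hr.one_lt).1 h

/-- **the product inequality**: `A` the steps with `c · r ≤ k`, `C` the steps with only
`c ≤ r · k`, all other steps with `c ≤ k`; if `#C ≤ #A` then `∏ c ≤ ∏ k`. -/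
theorem selst_prod_le {r : ℕ} (hr : 0 < r) (L : ℕ) (c k : ℕ → ℕ) (A C : Finset ℕ)
    (hA : A ⊆ Finset.range L) (hC : C ⊆ Finset.range L) (hAC : C.card ≤ A.card)
    (h : ∀ i < L, c i * (if i ∈ A then r else 1) ≤ (if i ∈ C then r else 1) * k i) :
    ∏ i ∈ Finset.range L, c i ≤ ∏ i ∈ Finset.range L, k i := by
  classical
  have hsum : ∀ B : Finset ℕ, B ⊆ Finset.range L →
      ∏ i ∈ Finset.range L, (if i ∈ B then r else 1) = r ^ B.card := by
    intro B hB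
    rw [Finset.prod_ite, Finset.prod_const_one, mul_one, Finset.prod_const]
    congr 2
    ext i
    rw [Finset.mem_filter]
    exact ⟨fun h => h.2, fun h => ⟨hB h, h⟩⟩
  have h1 : ∏ i ∈ Finset.range L, (c i * (if i ∈ A then r else 1))
      ≤ ∏ i ∈ Finset.range L, ((if i ∈ C then r else 1) * k i) :=
    Finset.prod_le_prod (fun i _ => Nat.zero_le _) (fun i hi => h i (Finset.mem_range.1 hi))
  rw [Finset.prod_mul_distrib, Finset.prod_mul_distrib, hsum A hA, hsum C hC] at h1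
  have h2 : r ^ C.card ≤ r ^ A.card := Nat.pow_le_pow_right hr hAC
  have h3 : (∏ i ∈ Finset.range L, c i) * r ^ A.card
      ≤ (∏ i ∈ Finset.range L, k i) * r ^ A.card :=
    calc (∏ i ∈ Finset.range L, c i) * r ^ A.card
        ≤ r ^ C.card * ∏ i ∈ Finset.range L, k i := h1
      _ ≤ r ^ A.card * ∏ i ∈ Finset.range L, k i := Nat.mul_le_mul_right _ h2
      _ = (∏ i ∈ Finset.range L, k i) * r ^ A.card := mul_comm _ _
  exact Nat.le_of_mul_le_mul_right h3 (Nat.pow_pos hr)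

end Count

/-! ## The main theorem of the abstract descent -/

section Main

variable {G : Type*} [Group G] [DistribMulAction G J]

/-- **SEL-ST, final form.**  `W 0 = ⊥ ≤ … ≤ W L` a chain of `G`-stable finite subgroups with steps
of prime index `r`; `𝒥` the local condition at the level, `V1` the kernel of reduction at `r`.
A step is étale if `W (i+1) ∩ V1 ≤ W i` and finite if `W (i+1) ∩ 𝒥 ⊄ W i`.  If

* étale steps have `c = 1`, and `k = r` when they are finite,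
* (conn, fin) steps have `c ≠ 0`, `c ≤ k`,
* (conn, null) steps have `c ≠ 0`, `c ≤ r`,
* `#(W L ∩ V1) ≤ #(W L ∩ 𝒥)`,
* `#(Y(⊥) ∩ W L) ≤ r ^ t`,

then `r ^ t • Y(W L) ≤ Y(⊥) + W L`. -/
theorem sel_main {r : ℕ} (hr : r.Prime) (𝒥 V1 : AddSubgroup J) (W : ℕ → AddSubgroup J) (L t : ℕ)
    (hW0 : W 0 = ⊥) (hW : ∀ i < L, W i ≤ W (i + 1))
    (hWG : ∀ i ≤ L, ∀ σ : G, ∀ w ∈ W i, σ • w ∈ W i)
    (hfin : ∀ i ≤ L, Finite ↥(W i))
    (hidx : ∀ i < L, (W i).relIndex (W (i + 1)) = r)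
    (hcnt : Nat.card ↥(W L ⊓ V1) ≤ Nat.card ↥(W L ⊓ 𝒥))
    (het : ∀ i < L, W (i + 1) ⊓ V1 ≤ W i → selchC W (fun i => selY G 𝒥 (W i)) i = 1)
    (hetfin : ∀ i < L, W (i + 1) ⊓ V1 ≤ W i → ¬ (W (i + 1) ⊓ 𝒥 ≤ W i) →
      selchK W (fun i => selY G 𝒥 (W i)) i = r)
    (hconnfin : ∀ i < L, ¬ (W (i + 1) ⊓ V1 ≤ W i) → ¬ (W (i + 1) ⊓ 𝒥 ≤ W i) →
      selchC W (fun i => selY G 𝒥 (W i)) i ≠ 0 ∧
        selchC W (fun i => selY G 𝒥 (W i)) i ≤ selchK W (fun i => selY G 𝒥 (W i)) i)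
    (hconnnull : ∀ i < L, ¬ (W (i + 1) ⊓ V1 ≤ W i) → W (i + 1) ⊓ 𝒥 ≤ W i →
      selchC W (fun i => selY G 𝒥 (W i)) i ≠ 0 ∧ selchC W (fun i => selY G 𝒥 (W i)) i ≤ r)
    (ht : Nat.card ↥(selY G 𝒥 ⊥ ⊓ W L) ≤ r ^ t)
    {j : J} (hj : j ∈ selY G 𝒥 (W L)) : r ^ t • j ∈ selY G 𝒥 ⊥ ⊔ W L := by
  classical
  have hrW : ∀ i < L, ∀ w ∈ W (i + 1), r • w ∈ W i := by
    intro i hi w hw
    have := selch_relIndex_nsmul_mem (W i) (W (i + 1)) (hW i hi) hw
    rwa [hidx i hi] at this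
  have hkpos : ∀ i < L, 0 < selchK W (fun i => selY G 𝒥 (W i)) i := fun i hi =>
    selchK_pos W (fun i => selY G 𝒥 (W i)) i (le_selY (hWG i hi.le)) (hW i hi) (hfin (i + 1) hi)
  have hc : ∀ i < L, selchC W (fun i => selY G 𝒥 (W i)) i ≠ 0 := by
    intro i hi
    by_cases h1 : W (i + 1) ⊓ V1 ≤ W i
    · rw [het i hi h1]; exact one_ne_zero
    · by_cases h2 : W (i + 1) ⊓ 𝒥 ≤ W i
      · exact (hconnnull i hi h1 h2).1
      · exact (hconnfin i hi h1 h2).1
  refine sel_chain hr 𝒥 W L t hW0 hW hWG hfin hrW hc ?_ ht hj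
  -- the product inequality
  set A : Finset ℕ := selstJumps W 𝒥 L \ selstJumps W V1 L with hA
  set C : Finset ℕ := selstJumps W V1 L \ selstJumps W 𝒥 L with hC
  have hsub : ∀ S : AddSubgroup J, selstJumps W S L ⊆ Finset.range L := fun S i hi =>
    Finset.mem_range.2 (mem_selstJumps.1 hi).1
  have hjl := selst_jumps_le hr W V1 𝒥 L hW0 hW hidx hcnt
  have hAC : C.card ≤ A.card := by
    have e1 := Finset.card_sdiff_add_card_inter (selstJumps W V1 L) (selstJumps W 𝒥 L)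
    have e2 := Finset.card_sdiff_add_card_inter (selstJumps W 𝒥 L) (selstJumps W V1 L)
    rw [Finset.inter_comm] at e2
    rw [hA, hC]
    omega
  refine selst_prod_le hr.pos L _ _ A C (Finset.sdiff_subset.trans (hsub _))
    (Finset.sdiff_subset.trans (hsub _)) hAC ?_
  intro i hi
  have hmemA : i ∈ A ↔ ¬ (W (i + 1) ⊓ 𝒥 ≤ W i) ∧ W (i + 1) ⊓ V1 ≤ W i := by
    rw [hA, Finset.mem_sdiff, mem_selstJumps, mem_selstJumps]
    constructor
    · rintro ⟨⟨_, h1⟩, h2⟩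
      exact ⟨h1, by_contra fun h3 => h2 ⟨hi, h3⟩⟩
    · rintro ⟨h1, h2⟩
      exact ⟨⟨hi, h1⟩, fun h3 => h3.2 h2⟩
  have hmemC : i ∈ C ↔ ¬ (W (i + 1) ⊓ V1 ≤ W i) ∧ W (i + 1) ⊓ 𝒥 ≤ W i := by
    rw [hC, Finset.mem_sdiff, mem_selstJumps, mem_selstJumps]
    constructor
    · rintro ⟨⟨_, h1⟩, h2⟩
      exact ⟨h1, by_contra fun h3 => h2 ⟨hi, h3⟩⟩
    · rintro ⟨h1, h2⟩
      exact ⟨⟨hi, h1⟩, fun h3 => h3.2 h2⟩
  have hk := hkpos i hi
  by_cases h1 : W (i + 1) ⊓ V1 ≤ W i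
  · have hcC : i ∉ C := fun h => (hmemC.1 h).1 h1
    rw [if_neg hcC, one_mul, het i hi h1, one_mul]
    by_cases h2 : W (i + 1) ⊓ 𝒥 ≤ W i
    · have hcA : i ∉ A := fun h => (hmemA.1 h).1 h2
      rw [if_neg hcA]
      exact hk
    · have hcA : i ∈ A := hmemA.2 ⟨h2, h1⟩
      rw [if_pos hcA, hetfin i hi h1 h2]
  · have hcA : i ∉ A := fun h => h1 (hmemA.1 h).2
    rw [if_neg hcA, mul_one]
    by_cases h2 : W (i + 1) ⊓ 𝒥 ≤ W i
    · have hcC : i ∈ C := hmemC.2 ⟨h1, h2⟩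
      rw [if_pos hcC]
      calc selchC W (fun i => selY G 𝒥 (W i)) i ≤ r := (hconnnull i hi h1 h2).2
        _ = r * 1 := (mul_one r).symm
        _ ≤ r * selchK W (fun i => selY G 𝒥 (W i)) i := Nat.mul_le_mul_left r hk
    · have hcC : i ∉ C := fun h => h2 (hmemC.1 h).2
      rw [if_neg hcC, one_mul]
      exact (hconnfin i hi h1 h2).2

/-- the modular law: a step is finite iff `W' ≤ 𝒥 + W` (for steps of prime index). -/
theorem selst_fin_iff {r : ℕ} (hr : r.Prime) (𝒥 W W' : AddSubgroup J) (hWW' : W ≤ W')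
    (hidx : W.relIndex W' = r) : ¬ (W' ⊓ 𝒥 ≤ W) ↔ W' ≤ 𝒥 ⊔ W := by
  -- `W ≤ W + (W' ∩ 𝒥) ≤ W'` and the index is prime
  have h6 : W.relIndex (W ⊔ (W' ⊓ 𝒥)) * (W ⊔ (W' ⊓ 𝒥)).relIndex W' = W.relIndex W' :=
    AddSubgroup.relIndex_mul_relIndex W (W ⊔ (W' ⊓ 𝒥)) W' le_sup_left
      (sup_le hWW' inf_le_left)
  have h7 : W.relIndex (W ⊔ (W' ⊓ 𝒥)) = W.relIndex (W' ⊓ 𝒥) :=
    AddSubgroup.relIndex_sup_left _ _
  rw [h7, hidx] at h6
  constructor
  · intro h
    have h8 : W.relIndex (W' ⊓ 𝒥) ≠ 1 := fun h9 => h (AddSubgroup.relIndex_eq_one.1 h9)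
    have h9 : W.relIndex (W' ⊓ 𝒥) = r :=
      ((Nat.dvd_prime hr).1 (Dvd.intro _ h6)).resolve_left h8
    rw [h9] at h6
    have h10 : (W ⊔ (W' ⊓ 𝒥)).relIndex W' = 1 := by
      have := hr.pos
      exact Nat.eq_of_mul_eq_mul_left this (by rw [h6, mul_one])
    have h11 : W' ≤ W ⊔ (W' ⊓ 𝒥) := AddSubgroup.relIndex_eq_one.1 h10
    exact h11.trans (sup_le le_sup_right (inf_le_right.trans le_sup_left))
  · intro h h'
    -- `W' = W' ∩ (𝒥 + W) = (W' ∩ 𝒥) + W ≤ W`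
    have h1 : W' ≤ W := by
      intro w hw
      obtain ⟨a, ha, b, hb, rfl⟩ := AddSubgroup.mem_sup.1 (h hw)
      have ha' : a ∈ W' := by
        have : a = (a + b) - b := by abel
        rw [this]
        exact W'.sub_mem hw (hWW' hb)
      exact W.add_mem (h' ⟨ha', ha⟩) hb
    have h2 : W.relIndex W' = 1 := AddSubgroup.relIndex_eq_one.2 h1
    rw [hidx] at h2
    exact hr.one_lt.ne' h2

end Main

end Fermat.Agent.S15


end ZBZ2S15_035_1

/-! ### bundled: `Fermat.Agent.S15.SelPlan` -/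
section ZBZ2S15_035_2

/-!
# S15 / SELMER block: the arithmetic instantiation (SEL-AR) — exact statements

Sub-captain helper12.  Design: `NOTES/S15-FIN.md`, `NOTES/S15-SelAR.md`.
`N` the (prime) level, `r` the descent prime, `J = JZero N`, `G = GalQ`, `k` the level of the
torsion, `AN ∣ N`, `Ar ∣ r` valuation rings of `ℚ̄`.

* `selIF N AN`  : the points of `J` fixed by the inertia group of `AN` (the local condition `𝒥` at
  the level: with this choice (L-N) is a tautology and `E 𝒥 ⊂ 𝒥` for every equivariant `E`).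
* `SelLocR N r Ar V1` : the local package at `r`: `V1` contains `(σ - 1) J` for `σ ∈ I_{Ar}`, and
  every `𝕁_y[r^k]` has a Hopf lattice over `ℤ_(r)` which is reduction-continuous w.r.t. `V1`.
  (`r ≥ 5`: `seljj_hopfLattice_rc_JZero`; `r ∈ {2,3}`: level-up.)
* `selEisPart N r k` : the Eisenstein part `G_k` of `J[r^k]`.
* `SelStep`, `SelStepTriv`, `SelStepCyc` : a step `W ≤ W'` of the composition series and its type.
* the pieces: `StmtSelLQ`, `StmtSelLocR`, `StmtSelArEt`, `StmtSelArConnOdd`, `StmtSelArConnTwo`,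
  `StmtSelArTrivEt`, `StmtSelArCycConn`, `StmtSelEis`, `StmtSelCnt`, and the goal `StmtFinCore`.
-/

set_option autoImplicit false

noncomputable section

namespace Fermat.Agent.S15

open ModularCurve AlgebraicCurve
open Fermat.Agent.S24 Fermat.Agent.W1

/-- the points of `J₀(N)` fixed by the inertia group of `A` -/
def selIF (N : ℕ) [NeZero N] (A : ValuationSubring Kb) : AddSubgroup (JZero N) where
  carrier := {a | ∀ σ ∈ A.inertiaSubgroupIn ℚ, σ • a = a}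
  zero_mem' := fun σ _ => smul_zero σ
  add_mem' := fun {a b} ha hb σ hσ => by rw [smul_add, ha σ hσ, hb σ hσ]
  neg_mem' := fun {a} ha σ hσ => by rw [smul_neg, ha σ hσ]

theorem mem_selIF {N : ℕ} [NeZero N] {A : ValuationSubring Kb} {a : JZero N} :
    a ∈ selIF N A ↔ ∀ σ ∈ A.inertiaSubgroupIn ℚ, σ • a = a := Iff.rfl

/-- **the local package at the descent prime `r`** -/
structure SelLocR (N r : ℕ) [NeZero N] (Ar : ValuationSubring Kb)
    (V1 : AddSubgroup (JZero N)) : Prop where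
  /-- inertia acts trivially on the reduction -/
  inertia : ∀ σ ∈ Ar.inertiaSubgroupIn ℚ, ∀ a : JZero N, σ • a - a ∈ V1
  /-- the flat, reduction-continuous lattice on `𝕁_y[r^k]` -/
  lattice : ∀ (y : JZero N) [Fact (∀ σ : GalQ, σ • y = y)] (k : ℕ),
    ∃ H : Subalgebra (GaloisRep.ratLocalizedAt r)
        (Submodule.torsionBy ℤ (SeljjJ (JZero N) y (r ^ k)) ((r ^ k : ℕ) : ℤ) → Kb),
      IsHopfLattice (GaloisRep.ratLocalizedAt r)
        (torsAct (SeljjJ (JZero N) y (r ^ k)) ((r ^ k : ℕ) : ℤ)) H ∧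
      ∀ h ∈ H, ∀ u u' : Submodule.torsionBy ℤ (SeljjJ (JZero N) y (r ^ k)) ((r ^ k : ℕ) : ℤ),
        (u : SeljjJ (JZero N) y (r ^ k)) - (u' : SeljjJ (JZero N) y (r ^ k)) ∈
          V1.map (seljjIota (JZero N) y (r ^ k)) → h u - h u' ∈ Ar.nonunits

/-- **SEL-LOCR**: the local package exists at every prime `r ∤ N`. -/
def StmtSelLocR : Prop :=
  ∀ (N : ℕ) [NeZero N] (r : ℕ), N.Prime → r.Prime → r ≠ N →
    ∀ Ar : ValuationSubring Kb, Ar.LiesOverPrime r → ∃ V1 : AddSubgroup (JZero N),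
      SelLocR N r Ar V1

/-- **SEL-LQ**: division points are unramified at the good primes `q`. -/
def StmtSelLQ : Prop :=
  ∀ (N : ℕ) [NeZero N] (q : ℕ), q.Prime → ¬ q ∣ N → ∀ m : ℕ, 0 < m → ¬ q ∣ m →
    ∃ A : ValuationSubring Kb, A.LiesOverPrime q ∧
      ∀ σ ∈ A.inertiaSubgroupIn ℚ, ∀ a : JZero N, m • (σ • a - a) = 0 → σ • a = a

/-! ## Steps -/

/-- a step of the composition series -/
structure SelStep (N r k : ℕ) [NeZero N] (W W' : AddSubgroup (JZero N)) : Prop where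
  le : W ≤ W'
  tors : ∀ w ∈ W', r ^ k • w = 0
  stab : ∀ σ : GalQ, ∀ w ∈ W, σ • w ∈ W
  stab' : ∀ σ : GalQ, ∀ w ∈ W', σ • w ∈ W'
  idx : W.relIndex W' = r

/-- `G` acts trivially on `W' / W` -/
def SelStepTriv {N : ℕ} [NeZero N] (W W' : AddSubgroup (JZero N)) : Prop :=
  ∀ σ : GalQ, ∀ w ∈ W', σ • w - w ∈ W

/-- `W' / W ≅ μ_r` as a Galois module: an equivariant character of `W'` with kernel `W` -/
def SelStepCyc {N : ℕ} [NeZero N] (W W' : AddSubgroup (JZero N)) : Prop :=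
  ∃ ψ : JZero N → Kb, (∀ u ∈ W', ∀ v ∈ W', ψ (u + v) = ψ u * ψ v) ∧ ψ 0 = 1 ∧
    (∀ σ : GalQ, ∀ v ∈ W', ψ (σ • v) = σ (ψ v)) ∧ ∀ w ∈ W', ψ w = 1 ↔ w ∈ W

/-- **AR-ET**: in an étale step with trivial action the cocycles of the points of `𝒥` vanish. -/
def StmtSelArEt : Prop :=
  ∀ (N : ℕ) [NeZero N] (r k : ℕ), N.Prime → r.Prime → r ≠ N →
    ∀ AN Ar : ValuationSubring Kb, AN.LiesOverPrime N → Ar.LiesOverPrime r →
    ∀ V1 : AddSubgroup (JZero N),
      (∀ σ ∈ Ar.inertiaSubgroupIn ℚ, ∀ a : JZero N, σ • a - a ∈ V1) →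
    ∀ W W' : AddSubgroup (JZero N), SelStep N r k W W' → SelStepTriv W W' → W' ⊓ V1 ≤ W →
      ∀ a ∈ selIF N AN, (∀ σ : GalQ, σ • a - a ∈ W') → ∀ σ : GalQ, σ • a - a ∈ W

/-- **AR-CN**: in a step of type `μ_r`, `r` odd, the cocycles of the points of `𝒥` are
coboundaries. -/
def StmtSelArConnOdd : Prop :=
  ∀ (N : ℕ) [NeZero N] (r k : ℕ), N.Prime → r.Prime → r ≠ N → r ≠ 2 →
    ∀ AN Ar : ValuationSubring Kb, AN.LiesOverPrime N → Ar.LiesOverPrime r →
    ∀ V1 : AddSubgroup (JZero N), SelLocR N r Ar V1 →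
    ∀ W W' : AddSubgroup (JZero N), SelStep N r k W W' → SelStepCyc W W' →
      ∀ a ∈ selIF N AN, (∀ σ : GalQ, σ • a - a ∈ W') →
        ∃ w' ∈ W', ∀ σ : GalQ, (σ • a - a) - (σ • w' - w') ∈ W

/-- **AR-C2**: `r = 2`: there are at most two cocycles. -/
def StmtSelArConnTwo : Prop :=
  ∀ (N : ℕ) [NeZero N] (k : ℕ), N.Prime → 2 ≠ N →
    ∀ AN Ar : ValuationSubring Kb, AN.LiesOverPrime N → Ar.LiesOverPrime 2 →
    ∀ V1 : AddSubgroup (JZero N), SelLocR N 2 Ar V1 →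
    ∀ W W' : AddSubgroup (JZero N), SelStep N 2 k W W' →
      ∃ a₀ : JZero N, ∀ a ∈ selIF N AN, (∀ σ : GalQ, σ • a - a ∈ W') →
        (∀ σ : GalQ, σ • a - a ∈ W) ∨ (∀ σ : GalQ, σ • (a - a₀) - (a - a₀) ∈ W)

/-- **AR-3**: a step with trivial action is étale (`r` odd). -/
def StmtSelArTrivEt : Prop :=
  ∀ (N : ℕ) [NeZero N] (r k : ℕ), N.Prime → r.Prime → r ≠ N → r ≠ 2 →
    ∀ Ar : ValuationSubring Kb, Ar.LiesOverPrime r →
    ∀ V1 : AddSubgroup (JZero N), SelLocR N r Ar V1 →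
    ∀ W W' : AddSubgroup (JZero N), SelStep N r k W W' → SelStepTriv W W' → W' ⊓ V1 ≤ W

/-- **AR-4**: a step of type `μ_r` is connected (`r` odd). -/
def StmtSelArCycConn : Prop :=
  ∀ (N : ℕ) [NeZero N] (r k : ℕ), r.Prime → r ≠ 2 →
    ∀ Ar : ValuationSubring Kb, Ar.LiesOverPrime r →
    ∀ V1 : AddSubgroup (JZero N),
      (∀ σ ∈ Ar.inertiaSubgroupIn ℚ, ∀ a : JZero N, σ • a - a ∈ V1) →
    ∀ W W' : AddSubgroup (JZero N), SelStep N r k W W' → SelStepCyc W W' → ¬ (W' ⊓ V1 ≤ W)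

/-! ## The Eisenstein part -/

theorem selplan_nsmul_neg {J : Type*} [AddCommGroup J] (n : ℕ) (a : J) : n • -a = -(n • a) := by
  rw [← neg_nsmul]

/-- the operator `T_q - (1 + q)` -/
def selEisOp (N : ℕ) [NeZero N] (q : Nat.Primes) : Module.End ℤ (JZero N) :=
  heckeOperatorBar N q - ((1 + (q : ℕ) : ℕ) : ℤ) • (1 : Module.End ℤ (JZero N))

/-- the Eisenstein part `G_k` of `J[r^k]`: the points on which every `T_q - (1 + q)`, `q ∤ N r`,
is nilpotent -/
def selEisPart (N r k : ℕ) [NeZero N] : AddSubgroup (JZero N) where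
  carrier := {y | r ^ k • y = 0 ∧ ∀ q : Nat.Primes, ¬ (q : ℕ) ∣ N * r →
    ∃ m : ℕ, (selEisOp N q ^ m) y = 0}
  zero_mem' := ⟨nsmul_zero _, fun _ _ => ⟨0, map_zero _⟩⟩
  add_mem' := by
    rintro a b ⟨ha, ha'⟩ ⟨hb, hb'⟩
    refine ⟨by rw [nsmul_add, ha, hb, add_zero], fun q hq => ?_⟩
    obtain ⟨m, hm⟩ := ha' q hq
    obtain ⟨m', hm'⟩ := hb' q hq
    refine ⟨m + m', ?_⟩
    have h1 : (selEisOp N q ^ (m + m')) a = 0 := by
      rw [add_comm, pow_add, Module.End.mul_apply, hm, map_zero]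
    have h2 : (selEisOp N q ^ (m + m')) b = 0 := by
      rw [pow_add, Module.End.mul_apply, hm', map_zero]
    rw [map_add, h1, h2, add_zero]
  neg_mem' := by
    rintro a ⟨ha, ha'⟩
    refine ⟨by rw [selplan_nsmul_neg, ha, neg_zero], fun q hq => ?_⟩
    obtain ⟨m, hm⟩ := ha' q hq
    exact ⟨m, by rw [map_neg, hm, neg_zero]⟩

theorem mem_selEisPart {N r k : ℕ} [NeZero N] {y : JZero N} :
    y ∈ selEisPart N r k ↔ r ^ k • y = 0 ∧ ∀ q : Nat.Primes, ¬ (q : ℕ) ∣ N * r →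
      ∃ m : ℕ, (selEisOp N q ^ m) y = 0 := Iff.rfl

/-- the data of the Eisenstein part: the projector and a composition series -/
structure SelEisData (N : ℕ) [NeZero N] where
  /-- the Hecke operator which projects `J[r^k]` onto `G_k` -/
  E : JZero N →+ JZero N
  /-- the length of the composition series -/
  L : ℕ
  /-- the composition series -/
  W : ℕ → AddSubgroup (JZero N)

/-- the properties of the Eisenstein data -/
structure SelEisData.IsEis {N : ℕ} [NeZero N] (D : SelEisData N) (r k : ℕ) (cr : JZero N) :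
    Prop where
  E_equiv : ∀ (σ : GalQ) (x : JZero N), D.E (σ • x) = σ • D.E x
  E_cr : D.E cr = cr
  E_mem : ∀ x : JZero N, r ^ k • x = 0 → D.E x ∈ selEisPart N r k
  W_zero : D.W 0 = ⊥
  W_top : D.W D.L = selEisPart N r k
  step : ∀ i < D.L, SelStep N r k (D.W i) (D.W (i + 1)) ∧
    (SelStepTriv (D.W i) (D.W (i + 1)) ∨ SelStepCyc (D.W i) (D.W (i + 1)))

/-- **SEL-EIS** (HECKE + ADM): the projector and the admissible composition series. -/
def StmtSelEis : Prop :=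
  ∀ (N : ℕ) [NeZero N] (r : ℕ), N.Prime → r.Prime → r ≠ N →
    ∀ cr : JZero N, cr ≠ 0 → r • cr = 0 → (∃ n : ℕ, cr = n • cuspClass N) →
    ∀ k : ℕ, ∃ D : SelEisData N, D.IsEis r k cr

/-- **SEL-CNT** (ORD + TORIC): up to a bounded factor the part of `G_k` fixed by the inertia at `N`
is at least as large as the kernel of reduction at `r`. -/
def StmtSelCnt : Prop :=
  ∀ (N : ℕ) [NeZero N] (r : ℕ), N.Prime → r.Prime → r ≠ N →
    ∀ AN Ar : ValuationSubring Kb, AN.LiesOverPrime N → Ar.LiesOverPrime r →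
    ∀ V1 : AddSubgroup (JZero N), SelLocR N r Ar V1 →
    ∃ a : ℕ, ∀ k : ℕ, Nat.card ↥(selEisPart N r k ⊓ V1)
      ≤ r ^ a * Nat.card ↥(selEisPart N r k ⊓ selIF N AN)

/-- **FIN-CORE**, the goal of the SELMER block: the descent for the rational points which are
infinitely `r`-divisible among the points fixed by the inertia at `N`. -/
def StmtFinCore : Prop :=
  ∀ (N : ℕ) [NeZero N], IsMazurLevel N → ∀ r : ℕ, r.Prime → r ≠ N →
    ∀ cr : JZero N, cr ≠ 0 → r • cr = 0 → (∃ n : ℕ, cr = n • cuspClass N) →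
    ∀ AN : ValuationSubring Kb, AN.LiesOverPrime N →
    ∀ w : JZero N, (∀ σ : GalQ, σ • w = w) →
      (∀ k : ℕ, ∃ R ∈ selIF N AN, r ^ k • R = w) → FinAbs GalQ r cr w

/-! ## The two cases `r` odd and `r = 2`

For `r = 2` the count `StmtSelCnt` would need ordinarity; instead the descent at `2` is run with a
second local condition at the archimedean place (helper6, `S15/Real*.lean`, `sel_main2`).
So the top of the block is split. -/

/-- **SEL-CNT for odd `r`** -/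
def StmtSelCntOdd : Prop :=
  ∀ (N : ℕ) [NeZero N] (r : ℕ), N.Prime → r.Prime → r ≠ N → r ≠ 2 →
    ∀ AN Ar : ValuationSubring Kb, AN.LiesOverPrime N → Ar.LiesOverPrime r →
    ∀ V1 : AddSubgroup (JZero N), SelLocR N r Ar V1 →
    ∃ a : ℕ, ∀ k : ℕ, Nat.card ↥(selEisPart N r k ⊓ V1)
      ≤ r ^ a * Nat.card ↥(selEisPart N r k ⊓ selIF N AN)

/-- **FIN-CORE for odd `r`** -/
def StmtFinCoreOdd : Prop :=
  ∀ (N : ℕ) [NeZero N], IsMazurLevel N → ∀ r : ℕ, r.Prime → r ≠ N → r ≠ 2 →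
    ∀ cr : JZero N, cr ≠ 0 → r • cr = 0 → (∃ n : ℕ, cr = n • cuspClass N) →
    ∀ AN : ValuationSubring Kb, AN.LiesOverPrime N →
    ∀ w : JZero N, (∀ σ : GalQ, σ • w = w) →
      (∀ k : ℕ, ∃ R ∈ selIF N AN, r ^ k • R = w) → FinAbs GalQ r cr w

/-- **FIN-CORE for `r = 2`** -/
def StmtFinCoreTwo : Prop :=
  ∀ (N : ℕ) [NeZero N], IsMazurLevel N →
    ∀ cr : JZero N, cr ≠ 0 → 2 • cr = 0 → (∃ n : ℕ, cr = n • cuspClass N) →
    ∀ AN : ValuationSubring Kb, AN.LiesOverPrime N →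
    ∀ w : JZero N, (∀ σ : GalQ, σ • w = w) →
      (∀ k : ℕ, ∃ R ∈ selIF N AN, 2 ^ k • R = w) → FinAbs GalQ 2 cr w

/-- **SEL-CNT for odd `r`**, with the hypotheses on `cr` (so that the composition series of
`StmtSelEis` is available in its proof) -/
def StmtSelCntOddCr : Prop :=
  ∀ (N : ℕ) [NeZero N] (r : ℕ), N.Prime → r.Prime → r ≠ N → r ≠ 2 →
    ∀ cr : JZero N, cr ≠ 0 → r • cr = 0 → (∃ n : ℕ, cr = n • cuspClass N) →
    ∀ AN Ar : ValuationSubring Kb, AN.LiesOverPrime N → Ar.LiesOverPrime r →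
    ∀ V1 : AddSubgroup (JZero N), SelLocR N r Ar V1 →
    ∃ a : ℕ, ∀ k : ℕ, Nat.card ↥(selEisPart N r k ⊓ V1)
      ≤ r ^ a * Nat.card ↥(selEisPart N r k ⊓ selIF N AN)

theorem stmtFinCore_of_cases (h1 : StmtFinCoreOdd) (h2 : StmtFinCoreTwo) : StmtFinCore := by
  intro N _ hN r hr hrN cr hcr0 hrcr hcrc AN hAN w hw hdiv
  by_cases hr2 : r = 2
  · subst hr2
    exact h2 N hN cr hcr0 hrcr hcrc AN hAN w hw hdiv
  · exact h1 N hN r hr hrN hr2 cr hcr0 hrcr hcrc AN hAN w hw hdiv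

end Fermat.Agent.S15

end
end ZBZ2S15_035_2

/-! ### bundled: `Fermat.Agent.S15.SelDefect` -/
section ZBZ2S15_035_3

/-!
# S15 / SELMER block: the abstract descent with a bounded defect in the count

`sel_main_defect`: as `sel_main` (`S15/SelStep.lean`), but the count is only assumed up to a
factor `d`:  `#(W L ∩ V1) ≤ d * #(W L ∩ 𝒥)`, `d ≤ r ^ a`.  The conclusion is
`r ^ (t + a) • Y(W L) ≤ Y(⊥) + W L`.
-/

set_option autoImplicit false

namespace Fermat.Agent.S15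

open AddSubgroup

variable {J : Type*} [AddCommGroup J]

/-- the bound with a defect: if `∏ c ≤ d * ∏ k` then `[Y L : Y 0 + W L] ≤ d * #(Y 0 ∩ W L)`. -/
theorem selch_bound_defect (W Y : ℕ → AddSubgroup J) (L d : ℕ) (hW0 : W 0 = ⊥)
    (hW : ∀ i < L, W i ≤ W (i + 1)) (hY : ∀ i < L, Y i ≤ Y (i + 1))
    (hWY : ∀ i ≤ L, W i ≤ Y i) (hfin : ∀ i ≤ L, Finite ↥(W i))
    (hc : ∀ i < L, selchC W Y i ≠ 0)
    (hprod : ∏ i ∈ Finset.range L, selchC W Y i ≤ d * ∏ i ∈ Finset.range L, selchK W Y i) :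
    (Y 0 ⊔ W L).relIndex (Y L) ≠ 0 ∧
      (Y 0 ⊔ W L).relIndex (Y L) ≤ d * Nat.card ↥(Y 0 ⊓ W L) := by
  have hid := selch_identity W Y L hW0 hW hY hWY hfin
  have hKpos : 0 < ∏ i ∈ Finset.range L, selchK W Y i :=
    Finset.prod_pos (fun i hi => selchK_pos W Y i (hWY i (Finset.mem_range.1 hi).le)
      (hW i (Finset.mem_range.1 hi)) (hfin (i + 1) (Finset.mem_range.1 hi)))
  have hCpos : 0 < ∏ i ∈ Finset.range L, selchC W Y i :=
    Finset.prod_pos (fun i hi => Nat.pos_of_ne_zero (hc i (Finset.mem_range.1 hi)))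
  have : Finite ↥(W L) := hfin L le_rfl
  have : Finite ↥(Y 0 ⊓ W L) :=
    Finite.of_injective (fun x : ↥(Y 0 ⊓ W L) => (⟨x.1, x.2.2⟩ : ↥(W L)))
      (fun a b h => Subtype.ext (congrArg (fun y : ↥(W L) => (y : J)) h))
  have hpos : 0 < Nat.card ↥(Y 0 ⊓ W L) := Nat.card_pos
  constructor
  · intro h0
    rw [h0, zero_mul] at hid
    exact (Nat.mul_pos hpos hCpos).ne' hid.symm
  · by_contra hlt
    rw [not_le] at hlt
    have h1 : d * Nat.card ↥(Y 0 ⊓ W L) * ∏ i ∈ Finset.range L, selchK W Y i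
        < (Y 0 ⊔ W L).relIndex (Y L) * ∏ i ∈ Finset.range L, selchK W Y i :=
      Nat.mul_lt_mul_of_pos_right hlt hKpos
    rw [hid] at h1
    have h2 : Nat.card ↥(Y 0 ⊓ W L) * ∏ i ∈ Finset.range L, selchC W Y i
        ≤ Nat.card ↥(Y 0 ⊓ W L) * (d * ∏ i ∈ Finset.range L, selchK W Y i) :=
      Nat.mul_le_mul_left _ hprod
    have h3 : Nat.card ↥(Y 0 ⊓ W L) * (d * ∏ i ∈ Finset.range L, selchK W Y i)
        = d * Nat.card ↥(Y 0 ⊓ W L) * ∏ i ∈ Finset.range L, selchK W Y i := by ring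
    rw [h3] at h2
    exact lt_irrefl _ (lt_of_lt_of_le h1 h2)

/-- the product inequality with a defect: `#C ≤ #A + a` gives `∏ c ≤ r ^ a * ∏ k`. -/
theorem selst_prod_le_defect {r : ℕ} (hr : 0 < r) (L a : ℕ) (c k : ℕ → ℕ) (A C : Finset ℕ)
    (hA : A ⊆ Finset.range L) (hC : C ⊆ Finset.range L) (hAC : C.card ≤ A.card + a)
    (h : ∀ i < L, c i * (if i ∈ A then r else 1) ≤ (if i ∈ C then r else 1) * k i) :
    ∏ i ∈ Finset.range L, c i ≤ r ^ a * ∏ i ∈ Finset.range L, k i := by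
  classical
  have hsum : ∀ B : Finset ℕ, B ⊆ Finset.range L →
      ∏ i ∈ Finset.range L, (if i ∈ B then r else 1) = r ^ B.card := by
    intro B hB
    rw [Finset.prod_ite, Finset.prod_const_one, mul_one, Finset.prod_const]
    congr 2
    ext i
    rw [Finset.mem_filter]
    exact ⟨fun h => h.2, fun h => ⟨hB h, h⟩⟩
  have h1 : ∏ i ∈ Finset.range L, (c i * (if i ∈ A then r else 1))
      ≤ ∏ i ∈ Finset.range L, ((if i ∈ C then r else 1) * k i) :=
    Finset.prod_le_prod (fun i _ => Nat.zero_le _) (fun i hi => h i (Finset.mem_range.1 hi))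
  rw [Finset.prod_mul_distrib, Finset.prod_mul_distrib, hsum A hA, hsum C hC] at h1
  have h2 : r ^ C.card ≤ r ^ (A.card + a) := Nat.pow_le_pow_right hr hAC
  have h3 : (∏ i ∈ Finset.range L, c i) * r ^ A.card
      ≤ (r ^ a * ∏ i ∈ Finset.range L, k i) * r ^ A.card :=
    calc (∏ i ∈ Finset.range L, c i) * r ^ A.card
        ≤ r ^ C.card * ∏ i ∈ Finset.range L, k i := h1
      _ ≤ r ^ (A.card + a) * ∏ i ∈ Finset.range L, k i := Nat.mul_le_mul_right _ h2
      _ = (r ^ a * ∏ i ∈ Finset.range L, k i) * r ^ A.card := by rw [pow_add]; ring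
  exact Nat.le_of_mul_le_mul_right h3 (Nat.pow_pos hr)

/-- the count with a defect -/
theorem selst_jumps_le_defect {r : ℕ} (hr : r.Prime) (W : ℕ → AddSubgroup J)
    (S S' : AddSubgroup J) (L a : ℕ) (hW0 : W 0 = ⊥) (hW : ∀ i < L, W i ≤ W (i + 1))
    (hidx : ∀ i < L, (W i).relIndex (W (i + 1)) = r)
    (h : Nat.card ↥(W L ⊓ S) ≤ r ^ a * Nat.card ↥(W L ⊓ S')) :
    (selstJumps W S L).card ≤ (selstJumps W S' L).card + a := by
  rw [selst_card_jumps hr W S L hW0 hW hidx,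
    selst_card_jumps hr W S' L hW0 hW hidx, ← pow_add] at h
  have := (Nat.pow_le_pow_iff_right hr.one_lt).1 h
  omega

section Main

variable {G : Type*} [Group G] [DistribMulAction G J]

/-- `sel_chain` with a defect -/
theorem sel_chain_defect {r : ℕ} (hr : r.Prime) (𝒥 : AddSubgroup J) (W : ℕ → AddSubgroup J)
    (L t a : ℕ)
    (hW0 : W 0 = ⊥) (hW : ∀ i < L, W i ≤ W (i + 1))
    (hWG : ∀ i ≤ L, ∀ σ : G, ∀ w ∈ W i, σ • w ∈ W i)
    (hfin : ∀ i ≤ L, Finite ↥(W i)) (hrW : ∀ i < L, ∀ w ∈ W (i + 1), r • w ∈ W i)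
    (hc : ∀ i < L, selchC W (fun i => selY G 𝒥 (W i)) i ≠ 0)
    (hprod : ∏ i ∈ Finset.range L, selchC W (fun i => selY G 𝒥 (W i)) i
      ≤ r ^ a * ∏ i ∈ Finset.range L, selchK W (fun i => selY G 𝒥 (W i)) i)
    (ht : Nat.card ↥(selY G 𝒥 ⊥ ⊓ W L) ≤ r ^ t)
    {j : J} (hj : j ∈ selY G 𝒥 (W L)) : r ^ (t + a) • j ∈ selY G 𝒥 ⊥ ⊔ W L := by
  have hb := selch_bound_defect W (fun i => selY G 𝒥 (W i)) L (r ^ a) hW0 hW
    (fun i hi => selY_mono (hW i hi)) (fun i hi => le_selY (hWG i hi)) hfin hc hprod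
  simp only [hW0] at hb
  have hle : selY G 𝒥 ⊥ ⊔ W L ≤ selY G 𝒥 (W L) :=
    sup_le (selY_mono bot_le) (le_selY (hWG L le_rfl))
  have hL : ∀ n ≤ L, ∀ x ∈ selY G 𝒥 (W n), r ^ n • x ∈ selY G 𝒥 ⊥ := by
    intro n
    induction n with
    | zero =>
      intro _ x hx
      rw [pow_zero, one_smul]
      rwa [hW0] at hx
    | succ n ih =>
      intro hn x hx
      rw [pow_succ, mul_smul]
      exact ih (Nat.le_of_succ_le hn) _ (selY_nsmul_mem (hrW n (Nat.lt_of_succ_le hn)) hx)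
  refine selch_kills hr _ _ hle L (t + a)
    (fun x hx => (le_sup_left : selY G 𝒥 ⊥ ≤ selY G 𝒥 ⊥ ⊔ W L) (hL L le_rfl x hx))
    hb.1 (hb.2.trans ?_) hj
  rw [pow_add, mul_comm (r ^ t)]
  exact Nat.mul_le_mul_left _ ht

/-- **SEL-ST with a defect.**  As `sel_main`, with `#(W L ∩ V1) ≤ r ^ a * #(W L ∩ 𝒥)`. -/
theorem sel_main_defect {r : ℕ} (hr : r.Prime) (𝒥 V1 : AddSubgroup J)
    (W : ℕ → AddSubgroup J) (L t a : ℕ)
    (hW0 : W 0 = ⊥) (hW : ∀ i < L, W i ≤ W (i + 1))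
    (hWG : ∀ i ≤ L, ∀ σ : G, ∀ w ∈ W i, σ • w ∈ W i)
    (hfin : ∀ i ≤ L, Finite ↥(W i))
    (hidx : ∀ i < L, (W i).relIndex (W (i + 1)) = r)
    (hcnt : Nat.card ↥(W L ⊓ V1) ≤ r ^ a * Nat.card ↥(W L ⊓ 𝒥))
    (het : ∀ i < L, W (i + 1) ⊓ V1 ≤ W i → selchC W (fun i => selY G 𝒥 (W i)) i = 1)
    (hetfin : ∀ i < L, W (i + 1) ⊓ V1 ≤ W i → ¬ (W (i + 1) ⊓ 𝒥 ≤ W i) →
      selchK W (fun i => selY G 𝒥 (W i)) i = r)
    (hconnfin : ∀ i < L, ¬ (W (i + 1) ⊓ V1 ≤ W i) → ¬ (W (i + 1) ⊓ 𝒥 ≤ W i) →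
      selchC W (fun i => selY G 𝒥 (W i)) i ≠ 0 ∧
        selchC W (fun i => selY G 𝒥 (W i)) i ≤ selchK W (fun i => selY G 𝒥 (W i)) i)
    (hconnnull : ∀ i < L, ¬ (W (i + 1) ⊓ V1 ≤ W i) → W (i + 1) ⊓ 𝒥 ≤ W i →
      selchC W (fun i => selY G 𝒥 (W i)) i ≠ 0 ∧ selchC W (fun i => selY G 𝒥 (W i)) i ≤ r)
    (ht : Nat.card ↥(selY G 𝒥 ⊥ ⊓ W L) ≤ r ^ t)
    {j : J} (hj : j ∈ selY G 𝒥 (W L)) : r ^ (t + a) • j ∈ selY G 𝒥 ⊥ ⊔ W L := by
  classical
  have hrW : ∀ i < L, ∀ w ∈ W (i + 1), r • w ∈ W i := by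
    intro i hi w hw
    have := selch_relIndex_nsmul_mem (W i) (W (i + 1)) (hW i hi) hw
    rwa [hidx i hi] at this
  have hkpos : ∀ i < L, 0 < selchK W (fun i => selY G 𝒥 (W i)) i := fun i hi =>
    selchK_pos W (fun i => selY G 𝒥 (W i)) i (le_selY (hWG i hi.le)) (hW i hi) (hfin (i + 1) hi)
  have hc : ∀ i < L, selchC W (fun i => selY G 𝒥 (W i)) i ≠ 0 := by
    intro i hi
    by_cases h1 : W (i + 1) ⊓ V1 ≤ W i
    · rw [het i hi h1]; exact one_ne_zero
    · by_cases h2 : W (i + 1) ⊓ 𝒥 ≤ W i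
      · exact (hconnnull i hi h1 h2).1
      · exact (hconnfin i hi h1 h2).1
  refine sel_chain_defect hr 𝒥 W L t a hW0 hW hWG hfin hrW hc ?_ ht hj
  set A : Finset ℕ := selstJumps W 𝒥 L \ selstJumps W V1 L with hA
  set C : Finset ℕ := selstJumps W V1 L \ selstJumps W 𝒥 L with hC
  have hsub : ∀ S : AddSubgroup J, selstJumps W S L ⊆ Finset.range L := fun S i hi =>
    Finset.mem_range.2 (mem_selstJumps.1 hi).1
  have hjl := selst_jumps_le_defect hr W V1 𝒥 L a hW0 hW hidx hcnt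
  have hAC : C.card ≤ A.card + a := by
    have e1 := Finset.card_sdiff_add_card_inter (selstJumps W V1 L) (selstJumps W 𝒥 L)
    have e2 := Finset.card_sdiff_add_card_inter (selstJumps W 𝒥 L) (selstJumps W V1 L)
    rw [Finset.inter_comm] at e2
    rw [hA, hC]
    omega
  refine selst_prod_le_defect hr.pos L a _ _ A C (Finset.sdiff_subset.trans (hsub _))
    (Finset.sdiff_subset.trans (hsub _)) hAC ?_
  intro i hi
  have hmemA : i ∈ A ↔ ¬ (W (i + 1) ⊓ 𝒥 ≤ W i) ∧ W (i + 1) ⊓ V1 ≤ W i := by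
    rw [hA, Finset.mem_sdiff, mem_selstJumps, mem_selstJumps]
    constructor
    · rintro ⟨⟨_, h1⟩, h2⟩
      exact ⟨h1, by_contra fun h3 => h2 ⟨hi, h3⟩⟩
    · rintro ⟨h1, h2⟩
      exact ⟨⟨hi, h1⟩, fun h3 => h3.2 h2⟩
  have hmemC : i ∈ C ↔ ¬ (W (i + 1) ⊓ V1 ≤ W i) ∧ W (i + 1) ⊓ 𝒥 ≤ W i := by
    rw [hC, Finset.mem_sdiff, mem_selstJumps, mem_selstJumps]
    constructor
    · rintro ⟨⟨_, h1⟩, h2⟩
      exact ⟨h1, by_contra fun h3 => h2 ⟨hi, h3⟩⟩
    · rintro ⟨h1, h2⟩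
      exact ⟨⟨hi, h1⟩, fun h3 => h3.2 h2⟩
  have hk := hkpos i hi
  by_cases h1 : W (i + 1) ⊓ V1 ≤ W i
  · have hcC : i ∉ C := fun h => (hmemC.1 h).1 h1
    rw [if_neg hcC, one_mul, het i hi h1, one_mul]
    by_cases h2 : W (i + 1) ⊓ 𝒥 ≤ W i
    · have hcA : i ∉ A := fun h => (hmemA.1 h).1 h2
      rw [if_neg hcA]
      exact hk
    · have hcA : i ∈ A := hmemA.2 ⟨h2, h1⟩
      rw [if_pos hcA, hetfin i hi h1 h2]
  · have hcA : i ∉ A := fun h => h1 (hmemA.1 h).2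
    rw [if_neg hcA, mul_one]
    by_cases h2 : W (i + 1) ⊓ 𝒥 ≤ W i
    · have hcC : i ∈ C := hmemC.2 ⟨h1, h2⟩
      rw [if_pos hcC]
      calc selchC W (fun i => selY G 𝒥 (W i)) i ≤ r := (hconnnull i hi h1 h2).2
        _ = r * 1 := (mul_one r).symm
        _ ≤ r * selchK W (fun i => selY G 𝒥 (W i)) i := Nat.mul_le_mul_left r hk
    · have hcC : i ∉ C := fun h => h2 (hmemC.1 h).2
      rw [if_neg hcC, one_mul]
      exact (hconnfin i hi h1 h2).2

end Main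

end Fermat.Agent.S15


end ZBZ2S15_035_3

/-! ### bundled: `Fermat.Agent.S15.SelLocFinal` -/
section ZBZ2S15_035_4

/-!
# S15 / SELMER: the two local pieces SEL-LOCR and SEL-LQ, in the exact shape of `SelPlan.lean`

* `stmtSelLocR : StmtSelLocR` — the local package at the descent prime `r` (from `seljj_package`,
  `SelJJPkg.lean`; `r ∈ {2, 3}` by level-up);
* `stmtSelLQ : StmtSelLQ` — division points are unramified at the good primes `q ∤ m N`
  (from the reduction package with its specialization map, `RedPkg.lean`: `sp` is constant on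
  inertia orbits and injective on torsion prime to `q` (S18-J1); `q ∈ {2, 3}` by level-up).
  The statement holds for EVERY valuation ring `A` over `q` (`sellq_all`).

Both are unconditional.
-/

set_option autoImplicit false
set_option linter.style.haveILetI false
set_option synthInstance.maxHeartbeats 400000
set_option maxHeartbeats 1600000

open AlgebraicCurve Module ModularCurve

namespace Fermat.Agent.S15

open Fermat.Agent.W1

/-- **SEL-LOCR**: the local package at the descent prime exists at every prime `r ≠ N`. -/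
theorem stmtSelLocR : StmtSelLocR := by
  intro N _ r hN hr hrN Ar hAr
  have hrN' : ¬ r ∣ N := fun h => hrN ((Nat.prime_dvd_prime_iff_eq hr hN).1 h)
  obtain ⟨J1, hJ1⟩ := seljj_package N r hr hrN' Ar hAr
  exact ⟨J1, ⟨hJ1.inertia_sub, hJ1.lattice⟩⟩

/-- the local package at the descent prime, for every level `N` and every prime `r ∤ N` -/
theorem sel_locR_exists (N : ℕ) [NeZero N] (r : ℕ) (hr : r.Prime) (hrN : ¬ r ∣ N)
    (Ar : ValuationSubring (AlgebraicClosure ℚ)) (hAr : Ar.LiesOverPrime r) :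
    ∃ V1 : AddSubgroup (JZero N), SelLocR N r Ar V1 ∧
      ∀ σ ∈ Ar.decompositionSubgroup ℚ, ∀ x ∈ V1, σ • x ∈ V1 := by
  obtain ⟨J1, hJ1⟩ := seljj_package N r hr hrN Ar hAr
  exact ⟨J1, ⟨hJ1.inertia_sub, hJ1.lattice⟩, hJ1.decomp_stable⟩

/-- **(L-q) at a level with a reduction package**, any `m` prime to `q`. -/
theorem sellq_pkg (N : ℕ) [NeZero N] (q : ℕ) (hq : q.Prime) (hqN : ¬ q ∣ N)
    (h : 5 ≤ q ∨ (5 - q) ∣ N)
    (A : ValuationSubring (AlgebraicClosure ℚ)) (hA : A.LiesOverPrime q)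
    (m : ℕ) (hm : ¬ q ∣ m)
    {σ : AlgebraicClosure ℚ ≃ₐ[ℚ] AlgebraicClosure ℚ} (hσ : σ ∈ A.inertiaSubgroupIn ℚ)
    {a : JZero N} (ha : m • (σ • a - a) = 0) : σ • a = a := by
  obtain ⟨r, sp, Pinf, Qinf, hG⟩ := s15red_exists_pkg N q hq hqN h A hA
  refine sub_eq_zero.1 (hG.s18 m hm _ ha ?_)
  rw [map_sub, hG.sp_inertia σ hσ, sub_self]

/-- **(L-q) for prime powers**, every level. -/
theorem sellq_pp (N : ℕ) [NeZero N] (q : ℕ) (hq : q.Prime) (hqN : ¬ q ∣ N)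
    (p : ℕ) (hp : p.Prime) (hpq : p ≠ q) (k : ℕ)
    (A : ValuationSubring (AlgebraicClosure ℚ)) (hA : A.LiesOverPrime q)
    {σ : AlgebraicClosure ℚ ≃ₐ[ℚ] AlgebraicClosure ℚ} (hσ : σ ∈ A.inertiaSubgroupIn ℚ)
    {a : JZero N} (ha : (p ^ k) • (σ • a - a) = 0) : σ • a = a := by
  have hm : ¬ q ∣ p ^ k := sellq_not_dvd_pow hq hp hpq k
  by_cases h5 : 5 ≤ q ∨ (5 - q) ∣ N
  · exact sellq_pkg N q hq hqN h5 A hA (p ^ k) hm hσ ha
  · rw [not_or, not_le] at h5
    obtain ⟨hlt, hsN⟩ := h5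
    have hq2 := hq.two_le
    have hs : (5 - q).Prime := by
      have : q = 2 ∨ q = 3 := by
        have h4 : q ≠ 4 := fun h => by rw [h] at hq; exact absurd hq (by decide)
        omega
      rcases this with h | h <;> rw [h] <;> decide
    have hqs : q ≠ 5 - q := by omega
    have hN : N ≠ 0 := NeZero.ne N
    haveI : NeZero (N * (5 - q)) := ⟨mul_ne_zero hN hs.ne_zero⟩
    have hqNs : ¬ q ∣ N * (5 - q) := by
      intro h
      rcases (Nat.Prime.dvd_mul hq).1 h with h | h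
      · exact hqN h
      · exact hqs ((Nat.prime_dvd_prime_iff_eq hq hs).1 h)
    exact sellq_levelUp N (N * (5 - q)) p (sellqLvlStatement N (5 - q) p hs hsN hp) k
      (fun j' hj' => sellq_pkg (N * (5 - q)) q hq hqNs (Or.inr (Dvd.intro_left N rfl)) A hA
        (p ^ k) hm hσ hj') ha

/-- **(L-q)**, every level `N`, every prime `q ∤ N`, EVERY valuation ring `A` over `q`, every
`m > 0` prime to `q`: an element of the inertia group of `A` which moves `a ∈ J₀(N)` by an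
`m`-torsion point fixes `a`. -/
theorem sellq_all (N : ℕ) [NeZero N] (q : ℕ) (hq : q.Prime) (hqN : ¬ q ∣ N)
    (A : ValuationSubring (AlgebraicClosure ℚ)) (hA : A.LiesOverPrime q)
    {σ : AlgebraicClosure ℚ ≃ₐ[ℚ] AlgebraicClosure ℚ} (hσ : σ ∈ A.inertiaSubgroupIn ℚ)
    (m : ℕ) (hpos : 0 < m) (hm : ¬ q ∣ m) (a : JZero N) (ha : m • (σ • a - a) = 0) :
    σ • a = a := by
  induction m using Nat.strong_induction_on generalizing a with
  | _ m ih =>
    rcases eq_or_ne m 1 with h1 | h1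
    · rw [h1, one_nsmul] at ha
      exact sub_eq_zero.1 ha
    have hp := Nat.minFac_prime h1
    obtain ⟨m', hm'⟩ := Nat.minFac_dvd m
    have hpq : m.minFac ≠ q := fun h => hm (h ▸ Nat.minFac_dvd m)
    have hm'pos : 0 < m' := by
      rcases Nat.eq_zero_or_pos m' with h0 | h0
      · rw [h0, mul_zero] at hm'; omega
      · exact h0
    have hm'lt : m' < m := by
      have h2 := hp.two_le
      calc m' < m.minFac * m' := by nlinarith
        _ = m := hm'.symm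
    have hqm' : ¬ q ∣ m' := fun h => hm (by rw [hm']; exact Dvd.dvd.mul_left h _)
    have hcomm : σ • (m' • a) - m' • a = m' • (σ • a - a) := by
      rw [nsmul_sub]
      congr 1
      exact map_nsmul (DistribSMul.toAddMonoidHom (JZero N) σ) m' a
    have h2 : (m.minFac ^ 1) • (σ • (m' • a) - m' • a) = 0 := by
      rw [pow_one, hcomm, ← mul_nsmul', ← hm']
      exact ha
    have h3 : σ • (m' • a) = m' • a := sellq_pp N q hq hqN m.minFac hp hpq 1 A hA hσ h2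
    have h4 : m' • (σ • a - a) = 0 := by
      rw [← hcomm, h3, sub_self]
    exact ih m' hm'lt hm'pos hqm' a h4

/-- **SEL-LQ**: division points are unramified at the good primes. -/
theorem stmtSelLQ : StmtSelLQ := by
  intro N _ q hq hqN m hm hqm
  obtain ⟨A, hA⟩ := Fermat.Agent.Common.exists_liesOverPrime q hq
  exact ⟨A, hA, fun σ hσ a ha => sellq_all N q hq hqN A hA hσ m hm hqm a ha⟩

end Fermat.Agent.S15


end ZBZ2S15_035_4

/-! ### bundled: `Fermat.Agent.S15.SelArCycConn` -/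
section ZBZ2S15_035_5

/-!
# S15 / SELMER / AR-4: a step of type `μ_r` is connected (`r` odd)

* `selar_inertia_cyclo` : for an odd prime `p`, EVERY valuation ring `A` of `ℚ̄` over `p` and a
  primitive `p`-th root of unity `ζ` there is `σ` in the inertia group of `A` with `σ ζ = ζ ^ 2`
  (the proof of `TW.S.stmtCycloRam`, which is stated for `padicPlace p`, for a general `A`).
* `stmtSelArCycConn : StmtSelArCycConn` (`SelPlan.lean`): for a step `W ≤ W'` of index `r` with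
  `W' / W ≅ μ_r`, `¬ (W' ∩ V1 ≤ W)` as soon as `(σ - 1) J ⊂ V1` for `σ` in the inertia group.
-/

set_option autoImplicit false
set_option linter.style.haveILetI false

noncomputable section

namespace Fermat.Agent.S15

open ModularCurve AlgebraicCurve Polynomial
open Fermat.Agent.S24 Fermat.Agent.W1 Fermat.Agent.TW.S Fermat.Agent.TW.L ExtCitation

/-- **the mod `p` cyclotomic character is ramified at every place over `p`** (`p` odd). -/
theorem selar_inertia_cyclo (p : ℕ) [Fact p.Prime] (hp2 : p ≠ 2)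
    (A : ValuationSubring (AlgebraicClosure ℚ)) (hA : A.LiesOverPrime p)
    {ζ : AlgebraicClosure ℚ} (hζ : IsPrimitiveRoot ζ p) :
    ∃ σ ∈ A.inertiaSubgroupIn ℚ, σ ζ = ζ ^ 2 := by
  have hp : p.Prime := Fact.out
  haveI : NeZero p := ⟨hp.ne_zero⟩
  haveI : NeZero (p : AlgebraicClosure ℚ) := ⟨Nat.cast_ne_zero.mpr hp.ne_zero⟩
  obtain ⟨σ, hσ⟩ := lglob1_exists_cycloChar_eq_two p hp2
  have h2p : 2 < p := lt_of_le_of_ne hp.two_le (Ne.symm hp2)
  have hspec : ∀ τ : AlgebraicClosure ℚ ≃ₐ[ℚ] AlgebraicClosure ℚ,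
      τ ζ = ζ ^ ((cycloChar p τ : (ZMod p)ˣ) : ZMod p).val := by
    intro τ
    have h := modularCyclotomicCharacter.spec (AlgebraicClosure ℚ) (card_rootsOfUnity_eq_self p)
      (τ : AlgebraicClosure ℚ ≃+* AlgebraicClosure ℚ)
      (t := hζ.toRootsOfUnity) (SetLike.coe_mem hζ.toRootsOfUnity)
    simpa [cycloChar] using h
  have hval2 : (2 : ZMod p).val = 2 := by
    have : ((2 : ℕ) : ZMod p).val = 2 := ZMod.val_natCast_of_lt h2p
    simpa using this
  have hσζ : σ ζ = ζ ^ 2 := by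
    rw [hspec σ, hσ, hval2]
  -- `ζ` lies in the subring
  have h1 := scyc_sub_one_mem_nonunits p A hA hζ.pow_eq_one
  have hζA : ζ ∈ A := by
    have : ζ = 1 + (ζ - 1) := by ring
    rw [this]
    exact add_mem (one_mem _) (A.nonunits_le h1)
  have hζB : ζ ∈ scycRing A σ := by
    refine ⟨hζA, ?_⟩
    rw [hσζ]
    have e : ζ ^ 2 - ζ = ζ * (ζ - 1) := by ring
    rw [e, ValuationSubring.mem_nonunits_iff, map_mul]
    exact mul_lt_one_of_nonneg_of_lt_one_right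
      ((A.valuation_le_one_iff _).mpr hζA) zero_le
      ((A.mem_nonunits_iff).mp h1)
  -- the cyclotomic field
  haveI hnorm : Normal ℚ (AlgebraicClosure ℚ) := lglob1_qbar_normal
  haveI : Algebra.IsIntegral ℚ (AlgebraicClosure ℚ) := ⟨fun x => (hnorm.isAlgebraic x).isIntegral⟩
  haveI hcyc : IsCyclotomicExtension {p} ℚ (IntermediateField.adjoin ℚ {ζ}) :=
    hζ.intermediateField_adjoin_isCyclotomicExtension ℚ
  haveI : IsGalois ℚ (IntermediateField.adjoin ℚ {ζ}) :=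
    IsCyclotomicExtension.isGalois {p} ℚ (IntermediateField.adjoin ℚ {ζ})
  have hcong : ∀ x ∈ IntermediateField.adjoin ℚ {ζ}, IsIntegral ℤ x →
      σ x - x ∈ A.nonunits := by
    intro x hx hint
    let ζF : IntermediateField.adjoin ℚ {ζ} := ⟨ζ, IntermediateField.mem_adjoin_simple_self ℚ ζ⟩
    have hζF : IsPrimitiveRoot ζF p :=
      IsPrimitiveRoot.of_map_of_injective
        (f := algebraMap (IntermediateField.adjoin ℚ {ζ}) (AlgebraicClosure ℚ))
        (show IsPrimitiveRoot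
          (algebraMap (IntermediateField.adjoin ℚ {ζ}) (AlgebraicClosure ℚ) ζF) p from hζ)
        (algebraMap (IntermediateField.adjoin ℚ {ζ}) (AlgebraicClosure ℚ)).injective
    have hic := IsCyclotomicExtension.Rat.isIntegralClosure_adjoin_singleton_of_prime hζF
    have hintF : IsIntegral ℤ (⟨x, hx⟩ : IntermediateField.adjoin ℚ {ζ}) :=
      (isIntegral_algebraMap_iff
        (algebraMap (IntermediateField.adjoin ℚ {ζ}) (AlgebraicClosure ℚ)).injective).mp hint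
    obtain ⟨y, hy⟩ := hic.isIntegral_iff.mp hintF
    have key : ∀ z ∈ Algebra.adjoin ℤ ({ζF} : Set (IntermediateField.adjoin ℚ {ζ})),
        ((z : IntermediateField.adjoin ℚ {ζ}) : AlgebraicClosure ℚ) ∈ scycRing A σ := by
      intro z hz
      induction hz using Algebra.adjoin_induction with
      | mem z hz =>
        rw [Set.mem_singleton_iff] at hz
        subst hz
        exact hζB
      | algebraMap r =>
        have : ((algebraMap ℤ (IntermediateField.adjoin ℚ {ζ}) r :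
            IntermediateField.adjoin ℚ {ζ}) : AlgebraicClosure ℚ) = (r : AlgebraicClosure ℚ) := by
          simp
        rw [this]
        exact scyc_intCast_mem _ _ r
      | add a b _ _ ha hb =>
        have : ((a + b : IntermediateField.adjoin ℚ {ζ}) : AlgebraicClosure ℚ)
            = (a : AlgebraicClosure ℚ) + b := rfl
        rw [this]
        exact add_mem ha hb
      | mul a b _ _ ha hb =>
        have : ((a * b : IntermediateField.adjoin ℚ {ζ}) : AlgebraicClosure ℚ)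
            = (a : AlgebraicClosure ℚ) * b := rfl
        rw [this]
        exact mul_mem ha hb
    have hxy : x = ((y : IntermediateField.adjoin ℚ {ζ}) : AlgebraicClosure ℚ) := by
      have := congrArg (fun t : IntermediateField.adjoin ℚ {ζ} => (t : AlgebraicClosure ℚ)) hy
      exact this.symm
    rw [hxy]
    exact (key y y.2).2
  obtain ⟨σ', hσ'I, hσ'F⟩ := Fermat.Agent.Common.exists_mem_inertiaSubgroupIn_of_congr
    (IntermediateField.adjoin ℚ {ζ}) p hp A hA σ hcong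
  refine ⟨σ', hσ'I, ?_⟩
  rw [hσ'F ζ (IntermediateField.mem_adjoin_simple_self ℚ ζ), hσζ]

/-- a multiplicative character on a subgroup sends multiples to powers -/
theorem selar_psi_nsmul {N : ℕ} [NeZero N] (W' : AddSubgroup (JZero N))
    (ψ : JZero N → AlgebraicClosure ℚ)
    (hmul : ∀ u ∈ W', ∀ v ∈ W', ψ (u + v) = ψ u * ψ v) (h0 : ψ 0 = 1)
    {w : JZero N} (hw : w ∈ W') (n : ℕ) : ψ (n • w) = ψ w ^ n := by
  induction n with
  | zero => rw [zero_nsmul, pow_zero, h0]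
  | succ n ih =>
    rw [succ_nsmul, hmul _ (W'.nsmul_mem hw n) _ hw, ih, pow_succ]

/-- **AR-4**: a step of type `μ_r` is connected (`r` odd). -/
theorem stmtSelArCycConn : StmtSelArCycConn := by
  intro N _ r k hr hr2 Ar hAr V1 hV1 W W' hstep hcyc hle
  obtain ⟨ψ, hmul, h0, heq, hker⟩ := hcyc
  haveI : Fact r.Prime := ⟨hr⟩
  -- a point of `W'` outside `W`
  have hex : ∃ w' ∈ W', w' ∉ W := by
    by_contra h
    have h1 : W' ≤ W := fun w hw => by
      by_contra hw'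
      exact h ⟨w, hw, hw'⟩
    have h2 : W.relIndex W' = 1 := AddSubgroup.relIndex_eq_one.2 h1
    rw [hstep.idx] at h2
    exact hr.one_lt.ne' h2
  obtain ⟨w', hw', hw'W⟩ := hex
  have hζ1 : ψ w' ≠ 1 := fun h => hw'W ((hker w' hw').1 h)
  have hrw : r • w' ∈ W := by
    have := selch_relIndex_nsmul_mem W W' hstep.le hw'
    rwa [hstep.idx] at this
  have hζr : ψ w' ^ r = 1 := by
    rw [← selar_psi_nsmul W' ψ hmul h0 hw' r]
    exact (hker _ (W'.nsmul_mem hw' r)).2 hrw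
  have hprim : IsPrimitiveRoot (ψ w') r := by
    have h := IsPrimitiveRoot.orderOf (ψ w')
    rwa [orderOf_eq_prime hζr hζ1] at h
  obtain ⟨σ, hσ, hσζ⟩ := selar_inertia_cyclo r hr2 Ar hAr hprim
  have hx' : σ • w' - w' ∈ W' := W'.sub_mem (hstep.stab' σ w' hw') hw'
  have hxW : σ • w' - w' ∈ W := hle ⟨hx', hV1 σ hσ w'⟩
  have h3 : ψ (σ • w') = ψ (σ • w' - w') * ψ w' := by
    rw [← hmul _ hx' _ hw', sub_add_cancel]
  rw [(hker _ hx').2 hxW, one_mul, heq σ w' hw', hσζ] at h3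
  -- `ζ ^ 2 = ζ ^ 1`
  have h5 : ψ w' ^ 2 = ψ w' ^ 1 := by rw [pow_one]; exact h3
  have h2r : 2 < r := lt_of_le_of_ne hr.two_le (Ne.symm hr2)
  have := hprim.pow_inj h2r hr.one_lt h5
  omega

end Fermat.Agent.S15

end
end ZBZ2S15_035_5

/-! ### bundled: `Fermat.Agent.S15.SelEisPlan` -/
section ZBZ2S15_035_6
/-
S15 / SELMER block, piece **SEL-EIS** (a): the Prop (helper72).

* `StmtSelEisChain` (a): the admissible composition series of `selEisPart N r k`
  (proved in `S15/SelEis.lean`: `stmtSelEisChain`);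
The projector half `StmtSelEisProj` is in `S15/SelEisProj.lean` (helper12), the glue
`stmtSelEis : StmtSelEis` in `S15/SelEisFinal.lean`.
-/

set_option autoImplicit false

noncomputable section

namespace Fermat.Agent.S15

open ModularCurve AlgebraicCurve
open Fermat.Agent.S24 Fermat.Agent.W1

/-- **SEL-EIS (a)**: the admissible composition series of the Eisenstein part. -/
def StmtSelEisChain : Prop :=
  ∀ (N : ℕ) [NeZero N] (r : ℕ), N.Prime → r.Prime → r ≠ N → ∀ k : ℕ,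
    ∃ (L : ℕ) (W : ℕ → AddSubgroup (JZero N)), W 0 = ⊥ ∧ W L = selEisPart N r k ∧
      ∀ i < L, SelStep N r k (W i) (W (i + 1)) ∧
        (SelStepTriv (W i) (W (i + 1)) ∨ SelStepCyc (W i) (W (i + 1)))

end Fermat.Agent.S15

end
end ZBZ2S15_035_6

/-! ### bundled: `Fermat.Agent.S15.SelTwo` -/
section ZBZ2S15_035_7

/-!
# S15 / SELMER block: the descent with TWO local conditions (pure algebra)

For the descent prime `r = 2` the count `#(G_k ∩ V¹) ≤ #(G_k ∩ 𝒥)` (ordinarity at `2`) is replaced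
by an archimedean local condition.  `P` is the local condition at the level (`P = selIF N AN`),
`Q` the points fixed by a complex conjugation.  For a `G`-stable `W` put

  `Y(W) := selY G P W ⊓ selY G Q W = { j | j ∈ P + W ∧ j ∈ Q + W ∧ ∀ σ, σ j − j ∈ W }`.

Along a chain `W 0 = ⊥ ≤ … ≤ W L` with steps of prime index `r` on which `G` acts trivially, and
such that the cocycles of the points of `Y(W (i+1))` vanish modulo `W i`:

* `c i = 1` if the step jumps for `P` or for `Q`, `c i ≤ r` in general;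
* `k i = r` if the step jumps for `P` and for `Q`;
* hence `∏ c i ≤ r ^ a * ∏ k i` as soon as `#(W L) ≤ r ^ a * #(W L ∩ P) * #(W L ∩ Q)`.

* `seltwo_main` : `r ^ (t + a) • Y(W L) ≤ Y(⊥) + W L`;
* `seltwo_triv_of_two` : for `r = 2` the action on the steps is trivial;
* `seltwo_glue` : (F5) for two conditions;
* `seltwo_conj_div` : the archimedean divisibility is free.
-/

set_option autoImplicit false

namespace Fermat.Agent.S15

open AddSubgroup

variable {J : Type*} [AddCommGroup J]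

section Two

variable (G : Type*) [Group G] [DistribMulAction G J]

/-- `Y(W)` for two local conditions -/
def selY2 (P Q W : AddSubgroup J) : AddSubgroup J := selY G P W ⊓ selY G Q W

variable {G}

theorem mem_selY2 {P Q W : AddSubgroup J} {j : J} :
    j ∈ selY2 G P Q W ↔ j ∈ P ⊔ W ∧ j ∈ Q ⊔ W ∧ ∀ σ : G, σ • j - j ∈ W := by
  rw [selY2, AddSubgroup.mem_inf, mem_selY, mem_selY]
  constructor
  · rintro ⟨⟨h1, h2⟩, h3, -⟩
    exact ⟨h1, h3, h2⟩
  · rintro ⟨h1, h2, h3⟩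
    exact ⟨⟨h1, h3⟩, h2, h3⟩

theorem le_selY2 {P Q W : AddSubgroup J} (hW : ∀ σ : G, ∀ w ∈ W, σ • w ∈ W) :
    W ≤ selY2 G P Q W :=
  le_inf (le_selY hW) (le_selY hW)

theorem selY2_mono {P Q W W' : AddSubgroup J} (h : W ≤ W') :
    selY2 G P Q W ≤ selY2 G P Q W' :=
  inf_le_inf (selY_mono h) (selY_mono h)

theorem mem_selY2_bot {P Q : AddSubgroup J} {j : J} :
    j ∈ selY2 G P Q ⊥ ↔ j ∈ P ∧ j ∈ Q ∧ ∀ σ : G, σ • j = j := by
  rw [selY2, AddSubgroup.mem_inf, mem_selY_bot, mem_selY_bot]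
  constructor
  · rintro ⟨⟨h1, h2⟩, h3, -⟩
    exact ⟨h1, h3, h2⟩
  · rintro ⟨h1, h2, h3⟩
    exact ⟨⟨h1, h3⟩, h2, h3⟩

theorem selY2_nsmul_mem {P Q W W' : AddSubgroup J} {r : ℕ} (hr : ∀ w ∈ W', r • w ∈ W)
    {j : J} (hj : j ∈ selY2 G P Q W') : r • j ∈ selY2 G P Q W :=
  ⟨selY_nsmul_mem hr hj.1, selY_nsmul_mem hr hj.2⟩

/-- a point of `Y(W')` whose cocycle vanishes modulo `W`, in a step on which `G` acts trivially,
lies in `Y(W) + W'` if the step jumps for `P`. -/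
theorem seltwo_mem_of_fin (P Q W W' : AddSubgroup J)
    (htriv : ∀ σ : G, ∀ w ∈ W', σ • w - w ∈ W) (hfin : W' ≤ P ⊔ W) {j : J}
    (hj : j ∈ selY2 G P Q W') (hvan : ∀ σ : G, σ • j - j ∈ W) :
    j ∈ selY2 G P Q W ⊔ W' := by
  obtain ⟨hP, hQ, -⟩ := mem_selY2.1 hj
  obtain ⟨q, hq, w', hw', rfl⟩ := AddSubgroup.mem_sup.1 hQ
  obtain ⟨p, hp, w, hw, hpw⟩ := AddSubgroup.mem_sup.1 hP
  refine AddSubgroup.mem_sup.2 ⟨q, mem_selY2.2 ⟨?_, ?_, ?_⟩, w', hw', rfl⟩
  · -- `q = p + (w - w')`, and `w - w' ∈ W' ≤ P + W`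
    have h1 : q = p + (w - w') := by
      have : q = (q + w') - w' := by abel
      rw [this, ← hpw]; abel
    rw [h1]
    obtain ⟨p', hp', u, hu, hpu⟩ := AddSubgroup.mem_sup.1 (hfin (W'.sub_mem hw hw'))
    rw [← hpu, ← add_assoc]
    exact AddSubgroup.mem_sup.2 ⟨p + p', P.add_mem hp hp', u, hu, rfl⟩
  · exact (le_sup_left : Q ≤ Q ⊔ W) hq
  · intro σ
    have h1 : σ • q - q = (σ • (q + w') - (q + w')) - (σ • w' - w') := by
      rw [smul_add]; abel
    rw [h1]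
    exact W.sub_mem (hvan σ) (htriv σ w' hw')

/-- the two conditions are symmetric -/
theorem selY2_comm (P Q W : AddSubgroup J) : selY2 G P Q W = selY2 G Q P W := inf_comm _ _

/-- **the cokernel is trivial** if the step jumps for `P` -/
theorem seltwo_c_eq_one (P Q W W' : AddSubgroup J)
    (htriv : ∀ σ : G, ∀ w ∈ W', σ • w - w ∈ W) (hfin : W' ≤ P ⊔ W)
    (hvan : ∀ j ∈ selY2 G P Q W', ∀ σ : G, σ • j - j ∈ W) :
    (selY2 G P Q W ⊔ W').relIndex (selY2 G P Q W') = 1 := by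
  rw [AddSubgroup.relIndex_eq_one]
  intro j hj
  exact seltwo_mem_of_fin P Q W W' htriv hfin hj (hvan j hj)

/-- **the cokernel has at most `[W' : W]` elements** in any step with trivial action and
vanishing cocycles. -/
theorem seltwo_c_le (P Q W W' : AddSubgroup J)
    (hidx : W.relIndex W' ≠ 0)
    (htriv : ∀ σ : G, ∀ w ∈ W', σ • w - w ∈ W)
    (hvan : ∀ j ∈ selY2 G P Q W', ∀ σ : G, σ • j - j ∈ W) :
    (selY2 G P Q W ⊔ W').relIndex (selY2 G P Q W') ≠ 0 ∧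
      (selY2 G P Q W ⊔ W').relIndex (selY2 G P Q W') ≤ W.relIndex W' := by
  classical
  have : Finite (↥W' ⧸ W.addSubgroupOf W') := by
    have h1 : (W.addSubgroupOf W').index ≠ 0 := hidx
    have : (W.addSubgroupOf W').FiniteIndex := ⟨h1⟩
    exact AddSubgroup.finite_quotient_of_finiteIndex
  -- the decompositions
  have hdec : ∀ j : J, ∃ d : J × J, j ∈ selY2 G P Q W' →
      (d.1 ∈ W' ∧ j - d.1 ∈ P) ∧ (d.2 ∈ W' ∧ j - d.2 ∈ Q) := by
    intro j
    by_cases hj : j ∈ selY2 G P Q W'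
    · obtain ⟨hP, hQ, -⟩ := mem_selY2.1 hj
      obtain ⟨p, hp, w, hw, rfl⟩ := AddSubgroup.mem_sup.1 hP
      obtain ⟨q, hq, w', hw', hqw⟩ := AddSubgroup.mem_sup.1 hQ
      refine ⟨(w, w'), fun _ => ⟨⟨hw, ?_⟩, hw', ?_⟩⟩
      · have : p + w - w = p := by abel
        show p + w - w ∈ P
        rw [this]; exact hp
      · have : p + w - w' = q := by rw [← hqw]; abel
        show p + w - w' ∈ Q
        rw [this]; exact hq
    · exact ⟨(0, 0), fun h => absurd h hj⟩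
  choose d hd using hdec
  -- the map to `W' / W`
  let τ : J → (↥W' ⧸ W.addSubgroupOf W') := fun j =>
    if h : j ∈ selY2 G P Q W' then
      QuotientAddGroup.mk (⟨(d j).1 - (d j).2,
        W'.sub_mem (hd j h).1.1 (hd j h).2.1⟩ : ↥W')
    else 0
  have hsep := selst_relIndex_le_card (selY2 G P Q W ⊔ W') (selY2 G P Q W') τ ?_
  · refine ⟨hsep.1, hsep.2.trans ?_⟩
    rw [AddSubgroup.relIndex, AddSubgroup.index_eq_card]
  · intro a ha b hb hab
    simp only [τ, dif_pos ha, dif_pos hb] at hab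
    rw [QuotientAddGroup.eq, AddSubgroup.mem_addSubgroupOf] at hab
    -- `u := w_a - w_b`, `u' := w'_a - w'_b`, `u - u' ∈ W`
    obtain ⟨⟨ha1, ha2⟩, ha3, ha4⟩ := hd a ha
    obtain ⟨⟨hb1, hb2⟩, hb3, hb4⟩ := hd b hb
    have hu : (d a).1 - (d b).1 - ((d a).2 - (d b).2) ∈ W := by
      have h1 : (d a).1 - (d b).1 - ((d a).2 - (d b).2)
          = -(-((d a).1 - (d a).2) + ((d b).1 - (d b).2)) := by abel
      rw [h1]
      exact W.neg_mem (by simpa using hab)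
    refine AddSubgroup.mem_sup.2 ⟨a - b - ((d a).1 - (d b).1), mem_selY2.2 ⟨?_, ?_, ?_⟩,
      (d a).1 - (d b).1, W'.sub_mem ha1 hb1, by abel⟩
    · have h1 : a - b - ((d a).1 - (d b).1) = (a - (d a).1) - (b - (d b).1) := by abel
      rw [h1]
      exact (le_sup_left : P ≤ P ⊔ W) (P.sub_mem ha2 hb2)
    · have h1 : a - b - ((d a).1 - (d b).1)
          = ((a - (d a).2) - (b - (d b).2)) + -((d a).1 - (d b).1 - ((d a).2 - (d b).2)) := by
        abel
      rw [h1]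
      exact AddSubgroup.mem_sup.2 ⟨_, Q.sub_mem ha4 hb4, _, W.neg_mem hu, rfl⟩
    · intro σ
      have h1 : σ • (a - b - ((d a).1 - (d b).1)) - (a - b - ((d a).1 - (d b).1))
          = (σ • a - a) - (σ • b - b) - ((σ • (d a).1 - (d a).1) - (σ • (d b).1 - (d b).1)) := by
        simp only [smul_sub]; abel
      rw [h1]
      exact W.sub_mem (W.sub_mem (hvan a ha σ) (hvan b hb σ))
        (W.sub_mem (htriv σ _ ha1) (htriv σ _ hb1))

/-- **the kernel is everything** if the step jumps for `P` and for `Q` -/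
theorem seltwo_k_eq (P Q W W' : AddSubgroup J)
    (htriv : ∀ σ : G, ∀ w ∈ W', σ • w - w ∈ W) (hfinP : W' ≤ P ⊔ W) (hfinQ : W' ≤ Q ⊔ W) :
    W.relIndex (selY2 G P Q W ⊓ W') = W.relIndex W' := by
  have : selY2 G P Q W ⊓ W' = W' := by
    apply le_antisymm inf_le_right
    intro w hw
    exact ⟨mem_selY2.2 ⟨hfinP hw, hfinQ hw, fun σ => htriv σ w hw⟩, hw⟩
  rw [this]

end Two

/-! ## The main theorem for two conditions -/

section Main

variable {G : Type*} [Group G] [DistribMulAction G J]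

/-- `∏ (if i ∈ B then r else 1) = r ^ #B` -/
theorem seltwo_prod_ite (r L : ℕ) (B : Finset ℕ) (hB : B ⊆ Finset.range L) :
    ∏ i ∈ Finset.range L, (if i ∈ B then r else 1) = r ^ B.card := by
  classical
  rw [Finset.prod_ite, Finset.prod_const_one, mul_one, Finset.prod_const]
  congr 2
  ext i
  rw [Finset.mem_filter]
  exact ⟨fun h => h.2, fun h => ⟨hB h, h⟩⟩

/-- the order of the last term of a chain with steps of index `r` -/
theorem seltwo_card_top {r : ℕ} (hr : r.Prime) (W : ℕ → AddSubgroup J) (L : ℕ)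
    (hW0 : W 0 = ⊥) (hW : ∀ i < L, W i ≤ W (i + 1))
    (hidx : ∀ i < L, (W i).relIndex (W (i + 1)) = r) : Nat.card ↥(W L) = r ^ L := by
  classical
  have h1 := selst_card_jumps hr W ⊤ L hW0 hW hidx
  have h2 : selstJumps W ⊤ L = Finset.range L := by
    ext i
    rw [mem_selstJumps, Finset.mem_range]
    constructor
    · exact fun h => h.1
    · intro hi
      refine ⟨hi, fun h => ?_⟩
      rw [inf_top_eq] at h
      have h3 : (W i).relIndex (W (i + 1)) = 1 := AddSubgroup.relIndex_eq_one.2 h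
      rw [hidx i hi] at h3
      exact hr.one_lt.ne' h3
  rw [h2, Finset.card_range, inf_top_eq] at h1
  exact h1

/-- **the descent with two local conditions.**  `W 0 = ⊥ ≤ … ≤ W L` a chain of `G`-stable finite
subgroups with steps of prime index `r` on which `G` acts trivially; `P`, `Q` two local
conditions.  If the cocycles of the points of `Y(W (i+1))` vanish modulo `W i`,
`#(W L) ≤ r ^ a * #(W L ∩ P) * #(W L ∩ Q)` and `#(Y(⊥) ∩ W L) ≤ r ^ t`, then
`r ^ (t + a) • Y(W L) ≤ Y(⊥) + W L`. -/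
theorem seltwo_main {r : ℕ} (hr : r.Prime) (P Q : AddSubgroup J) (W : ℕ → AddSubgroup J)
    (L t a : ℕ) (hW0 : W 0 = ⊥) (hW : ∀ i < L, W i ≤ W (i + 1))
    (hWG : ∀ i ≤ L, ∀ σ : G, ∀ w ∈ W i, σ • w ∈ W i)
    (hfin : ∀ i ≤ L, Finite ↥(W i))
    (hidx : ∀ i < L, (W i).relIndex (W (i + 1)) = r)
    (htriv : ∀ i < L, ∀ σ : G, ∀ w ∈ W (i + 1), σ • w - w ∈ W i)
    (hvan : ∀ i < L, ∀ j ∈ selY2 G P Q (W (i + 1)), ∀ σ : G, σ • j - j ∈ W i)
    (hcnt : Nat.card ↥(W L) ≤ r ^ a * (Nat.card ↥(W L ⊓ P) * Nat.card ↥(W L ⊓ Q)))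
    (ht : Nat.card ↥(selY2 G P Q ⊥ ⊓ W L) ≤ r ^ t)
    {j : J} (hj : j ∈ selY2 G P Q (W L)) : r ^ (t + a) • j ∈ selY2 G P Q ⊥ ⊔ W L := by
  classical
  set Y : ℕ → AddSubgroup J := fun i => selY2 G P Q (W i) with hY
  have hrW : ∀ i < L, ∀ w ∈ W (i + 1), r • w ∈ W i := by
    intro i hi w hw
    have := selch_relIndex_nsmul_mem (W i) (W (i + 1)) (hW i hi) hw
    rwa [hidx i hi] at this
  have hYmono : ∀ i < L, Y i ≤ Y (i + 1) := fun i hi => selY2_mono (hW i hi)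
  have hWY : ∀ i ≤ L, W i ≤ Y i := fun i hi => le_selY2 (hWG i hi)
  have hid := selch_identity W Y L hW0 hW hYmono hWY hfin
  have hY0 : Y 0 = selY2 G P Q ⊥ := by rw [hY]; simp only [hW0]
  rw [hY0] at hid
  -- the steps
  set A : Finset ℕ := selstJumps W P L with hA
  set B : Finset ℕ := selstJumps W Q L with hB
  have hAL : A ⊆ Finset.range L := fun i hi => Finset.mem_range.2 (mem_selstJumps.1 hi).1
  have hBL : B ⊆ Finset.range L := fun i hi => Finset.mem_range.2 (mem_selstJumps.1 hi).1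
  have hfinP : ∀ i ∈ A, W (i + 1) ≤ P ⊔ W i := fun i hi =>
    (selst_fin_iff hr P (W i) (W (i + 1)) (hW i (mem_selstJumps.1 hi).1)
      (hidx i (mem_selstJumps.1 hi).1)).1 (mem_selstJumps.1 hi).2
  have hfinQ : ∀ i ∈ B, W (i + 1) ≤ Q ⊔ W i := fun i hi =>
    (selst_fin_iff hr Q (W i) (W (i + 1)) (hW i (mem_selstJumps.1 hi).1)
      (hidx i (mem_selstJumps.1 hi).1)).1 (mem_selstJumps.1 hi).2
  have hcle : ∀ i < L, selchC W Y i ≠ 0 ∧ selchC W Y i ≤ r := by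
    intro i hi
    have h := seltwo_c_le P Q (W i) (W (i + 1)) (by rw [hidx i hi]; exact hr.ne_zero)
      (htriv i hi) (hvan i hi)
    rw [hidx i hi] at h
    exact h
  have hcone : ∀ i ∈ A ∪ B, selchC W Y i = 1 := by
    intro i hi
    rcases Finset.mem_union.1 hi with h | h
    · exact seltwo_c_eq_one P Q (W i) (W (i + 1)) (htriv i (mem_selstJumps.1 h).1) (hfinP i h)
        (hvan i (mem_selstJumps.1 h).1)
    · have h1 := seltwo_c_eq_one Q P (W i) (W (i + 1)) (htriv i (mem_selstJumps.1 h).1)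
        (hfinQ i h) (by
          intro j hj
          rw [selY2_comm] at hj
          exact hvan i (mem_selstJumps.1 h).1 j hj)
      rw [selY2_comm Q P, selY2_comm Q P] at h1
      exact h1
  have hkpos : ∀ i < L, 0 < selchK W Y i := fun i hi =>
    selchK_pos W Y i (hWY i hi.le) (hW i hi) (hfin (i + 1) hi)
  have hkr : ∀ i ∈ A ∩ B, selchK W Y i = r := by
    intro i hi
    obtain ⟨h1, h2⟩ := Finset.mem_inter.1 hi
    have := seltwo_k_eq P Q (W i) (W (i + 1)) (htriv i (mem_selstJumps.1 h1).1)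
      (hfinP i h1) (hfinQ i h2)
    rw [hidx i (mem_selstJumps.1 h1).1] at this
    exact this
  -- the products
  have hp1 : (∏ i ∈ Finset.range L, selchC W Y i) * r ^ (A ∪ B).card ≤ r ^ L := by
    rw [← seltwo_prod_ite r L (A ∪ B) (Finset.union_subset hAL hBL), ← Finset.prod_mul_distrib]
    calc ∏ i ∈ Finset.range L, selchC W Y i * (if i ∈ A ∪ B then r else 1)
        ≤ ∏ _i ∈ Finset.range L, r := by
          refine Finset.prod_le_prod (fun i _ => Nat.zero_le _) (fun i hi => ?_)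
          by_cases h : i ∈ A ∪ B
          · rw [if_pos h, hcone i h, one_mul]
          · rw [if_neg h, mul_one]
            exact (hcle i (Finset.mem_range.1 hi)).2
      _ = r ^ L := by rw [Finset.prod_const, Finset.card_range]
  have hp2 : r ^ (A ∩ B).card ≤ ∏ i ∈ Finset.range L, selchK W Y i := by
    rw [← seltwo_prod_ite r L (A ∩ B) (Finset.inter_subset_left.trans hAL)]
    refine Finset.prod_le_prod (fun i _ => Nat.zero_le _) (fun i hi => ?_)
    by_cases h : i ∈ A ∩ B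
    · rw [if_pos h, hkr i h]
    · rw [if_neg h]
      exact hkpos i (Finset.mem_range.1 hi)
  have hL : L ≤ a + A.card + B.card := by
    rw [seltwo_card_top hr W L hW0 hW hidx, selst_card_jumps hr W P L hW0 hW hidx,
      selst_card_jumps hr W Q L hW0 hW hidx, ← pow_add, ← pow_add] at hcnt
    have h1 := (Nat.pow_le_pow_iff_right hr.one_lt).1 hcnt
    exact h1.trans (le_of_eq (by rw [hA, hB, add_assoc]))
  have hcard := Finset.card_union_add_card_inter A B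
  have hprod : ∏ i ∈ Finset.range L, selchC W Y i
      ≤ r ^ a * ∏ i ∈ Finset.range L, selchK W Y i := by
    have h1 : (∏ i ∈ Finset.range L, selchC W Y i) * r ^ (A ∪ B).card
        ≤ (r ^ a * ∏ i ∈ Finset.range L, selchK W Y i) * r ^ (A ∪ B).card :=
      calc (∏ i ∈ Finset.range L, selchC W Y i) * r ^ (A ∪ B).card
          ≤ r ^ L := hp1
        _ ≤ r ^ (a + (A ∪ B).card + (A ∩ B).card) :=
            Nat.pow_le_pow_right hr.pos (by omega)
        _ = (r ^ a * r ^ (A ∩ B).card) * r ^ (A ∪ B).card := by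
            rw [pow_add, pow_add]; ring
        _ ≤ (r ^ a * ∏ i ∈ Finset.range L, selchK W Y i) * r ^ (A ∪ B).card :=
            Nat.mul_le_mul_right _ (Nat.mul_le_mul_left _ hp2)
    exact Nat.le_of_mul_le_mul_right h1 (Nat.pow_pos hr.pos)
  -- the index
  have hKpos : 0 < ∏ i ∈ Finset.range L, selchK W Y i :=
    Finset.prod_pos (fun i hi => hkpos i (Finset.mem_range.1 hi))
  have hCpos : 0 < ∏ i ∈ Finset.range L, selchC W Y i :=
    Finset.prod_pos (fun i hi => Nat.pos_of_ne_zero (hcle i (Finset.mem_range.1 hi)).1)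
  have : Finite ↥(W L) := hfin L le_rfl
  have : Finite ↥(selY2 G P Q ⊥ ⊓ W L) :=
    Finite.of_injective (fun x : ↥(selY2 G P Q ⊥ ⊓ W L) => (⟨x.1, x.2.2⟩ : ↥(W L)))
      (fun a b h => Subtype.ext (congrArg (fun y : ↥(W L) => (y : J)) h))
  have hpos : 0 < Nat.card ↥(selY2 G P Q ⊥ ⊓ W L) := Nat.card_pos
  have hidx0 : (selY2 G P Q ⊥ ⊔ W L).relIndex (Y L) ≠ 0 := by
    intro h0
    rw [h0, zero_mul] at hid
    exact (Nat.mul_pos hpos hCpos).ne' hid.symm
  have hidxle : (selY2 G P Q ⊥ ⊔ W L).relIndex (Y L) ≤ r ^ (t + a) := by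
    have h1 : (selY2 G P Q ⊥ ⊔ W L).relIndex (Y L) * ∏ i ∈ Finset.range L, selchK W Y i
        ≤ r ^ (t + a) * ∏ i ∈ Finset.range L, selchK W Y i :=
      calc (selY2 G P Q ⊥ ⊔ W L).relIndex (Y L) * ∏ i ∈ Finset.range L, selchK W Y i
          = Nat.card ↥(selY2 G P Q ⊥ ⊓ W L) * ∏ i ∈ Finset.range L, selchC W Y i := hid
        _ ≤ r ^ t * (r ^ a * ∏ i ∈ Finset.range L, selchK W Y i) :=
            Nat.mul_le_mul ht hprod
        _ = r ^ (t + a) * ∏ i ∈ Finset.range L, selchK W Y i := by rw [pow_add]; ring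
    exact Nat.le_of_mul_le_mul_right h1 hKpos
  -- the exponent
  have hle : selY2 G P Q ⊥ ⊔ W L ≤ Y L :=
    sup_le (selY2_mono bot_le) (hWY L le_rfl)
  have hLk : ∀ n ≤ L, ∀ x ∈ Y n, r ^ n • x ∈ selY2 G P Q ⊥ := by
    intro n
    induction n with
    | zero =>
      intro _ x hx
      rw [pow_zero, one_smul]
      rwa [hY0] at hx
    | succ n ih =>
      intro hn x hx
      rw [pow_succ, mul_smul]
      exact ih (Nat.le_of_succ_le hn) _ (selY2_nsmul_mem (hrW n (Nat.lt_of_succ_le hn)) hx)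
  exact selch_kills hr _ _ hle L (t + a)
    (fun x hx => (le_sup_left : selY2 G P Q ⊥ ≤ selY2 G P Q ⊥ ⊔ W L) (hLk L le_rfl x hx))
    hidx0 hidxle hj

/-- for `r = 2` the group acts trivially on every step -/
theorem seltwo_triv_of_two (W W' : AddSubgroup J)
    (hW : ∀ σ : G, ∀ w ∈ W, σ • w ∈ W) (hW' : ∀ σ : G, ∀ w ∈ W', σ • w ∈ W')
    (hidx : W.relIndex W' = 2) (σ : G) {w : J} (hw : w ∈ W') : σ • w - w ∈ W := by
  by_cases h : w ∈ W
  · exact W.sub_mem (hW σ w h) h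
  · -- `σ w ∉ W`, and two elements of `W' \ W` differ by an element of `W`
    have h1 : σ • w ∉ W := by
      intro h2
      have := hW σ⁻¹ _ h2
      rw [inv_smul_smul] at this
      exact h this
    have h2 : (W.addSubgroupOf W').index = 2 := hidx
    have h3 := (AddSubgroup.index_eq_two_iff (H := W.addSubgroupOf W')).1 h2
    obtain ⟨a, ha⟩ := h3
    have hx := ha (⟨w, hw⟩ : ↥W')
    have hy := ha (⟨σ • w, hW' σ w hw⟩ : ↥W')
    simp only [AddSubgroup.mem_addSubgroupOf, AddSubgroup.coe_add] at hx hy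
    have hx' : (w + (a : J)) ∈ W := by
      rcases hx with ⟨hx1, -⟩ | ⟨hx1, -⟩
      · exact hx1
      · exact absurd hx1 h
    have hy' : (σ • w + (a : J)) ∈ W := by
      rcases hy with ⟨hy1, -⟩ | ⟨hy1, -⟩
      · exact hy1
      · exact absurd hy1 h1
    have : σ • w - w = (σ • w + (a : J)) - (w + (a : J)) := by abel
    rw [this]
    exact W.sub_mem hy' hx'

end Main

/-! ## The glue (F5) for two conditions -/

section Glue2

variable {G : Type*} [Group G] [DistribMulAction G J]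

/-- the archimedean divisibility is free: if `r ^ k • R' = w` and `c` is an involution which
fixes `w`, then `R := 2 • R' + (c • R' - R')` is fixed by `c` and `r ^ k • R = 2 • w`. -/
theorem seltwo_conj_div (c : G) (hc : c * c = 1) {r k : ℕ} {w R' : J} (hw : c • w = w)
    (hR' : r ^ k • R' = w) :
    c • (2 • R' + (c • R' - R')) = 2 • R' + (c • R' - R') ∧
      r ^ k • (2 • R' + (c • R' - R')) = 2 • w := by
  have h1 : c • c • R' = R' := by rw [← mul_smul, hc, one_smul]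
  constructor
  · rw [smul_add, smul_sub, h1, smul_comm c 2 R', two_nsmul, two_nsmul]
    abel
  · rw [smul_add, smul_sub, smul_comm (r ^ k) 2 R', smul_comm (r ^ k) c R', hR', hw, sub_self,
      add_zero]

/-- **(F5) for two conditions**: `R₁ ∈ P` with `r ^ k • R₁ = w` and `R₂ ∈ Q` with
`r ^ k • R₂ = d • w`. -/
theorem seltwo_glue {r k t d : ℕ} (P Q Gk : AddSubgroup J) (E : J →+ J)
    (hEG : ∀ (σ : G) (x : J), E (σ • x) = σ • E x) (hEP : ∀ x ∈ P, E x ∈ P)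
    (hEQ : ∀ x ∈ Q, E x ∈ Q)
    (hEV : ∀ x : J, r ^ k • x = 0 → E x ∈ Gk) (hGk : ∀ x ∈ Gk, r ^ k • x = 0)
    (hbound : ∀ j ∈ selY2 G P Q Gk, r ^ t • j ∈ selY2 G P Q ⊥ ⊔ Gk)
    (w : J) (hw : ∀ σ : G, σ • w = w) (R₁ : J) (hR₁ : R₁ ∈ P) (hR₁w : r ^ k • R₁ = w)
    (R₂ : J) (hR₂ : R₂ ∈ Q) (hR₂w : r ^ k • R₂ = d • w) :
    ∃ m : J, (∀ σ : G, σ • m = m) ∧ r ^ t • (d • E w) = r ^ k • m := by
  have hER : E (d • R₁) ∈ selY2 G P Q Gk := by
    refine mem_selY2.2 ⟨(le_sup_left : P ≤ P ⊔ Gk) (hEP _ (P.nsmul_mem hR₁ d)), ?_, fun σ => ?_⟩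
    · have h1 : E (d • R₁) = E R₂ + E (d • R₁ - R₂) := by rw [← map_add]; congr 1; abel
      rw [h1]
      refine AddSubgroup.mem_sup.2 ⟨_, hEQ _ hR₂, _, hEV _ ?_, rfl⟩
      rw [smul_sub, smul_comm, hR₁w, hR₂w, sub_self]
    · have h1 : σ • E (d • R₁) - E (d • R₁) = E (σ • (d • R₁) - d • R₁) := by
        rw [map_sub, hEG]
      rw [h1]
      apply hEV
      rw [smul_sub, smul_comm (r ^ k) σ, smul_comm (r ^ k) d, hR₁w, smul_comm σ d w, hw,
        sub_self]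
  obtain ⟨m, hm, g, hg, hmg⟩ := AddSubgroup.mem_sup.1 (hbound _ hER)
  obtain ⟨-, -, hmG⟩ := mem_selY2_bot.1 hm
  refine ⟨m, hmG, ?_⟩
  have h2 : r ^ k • (r ^ t • E (d • R₁)) = r ^ k • m := by
    rw [← hmg, smul_add, hGk g hg, add_zero]
  rw [← hR₁w, map_nsmul, ← h2, map_nsmul]
  simp only [smul_comm (r ^ k) d, smul_comm (r ^ k) (r ^ t)]

end Glue2

end Fermat.Agent.S15


end ZBZ2S15_035_7

/-! ### bundled: `Fermat.Agent.S15.CntOddAbs` -/
section ZBZ2S15_035_8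

/-!
# S15 / SEL-CNT, glue `G-odd`, the abstract count (helper47; Mathlib only)

Along a chain `W 0 = ⊥ ≤ … ≤ W L` with steps of prime index `r`: if no step jumps for both `S₁`
and `S₂`, then `#(W L ∩ S₁) · #(W L ∩ S₂) ≤ #(W L)`; so `#(W L) ≤ r ^ a · #(W L ∩ P) · #(W L ∩ S₂)`
gives `#(W L ∩ S₁) ≤ r ^ a · #(W L ∩ P)`.
-/

set_option autoImplicit false

namespace Fermat.Agent.S15

open AddSubgroup

variable {J : Type*} [AddCommGroup J]

/-- if no step jumps for both `S₁` and `S₂`, the two sets of jumps are disjoint -/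
theorem cntodd_jumps_add_le (W : ℕ → AddSubgroup J) (S₁ S₂ : AddSubgroup J) (L : ℕ)
    (hno : ∀ i < L, W (i + 1) ⊓ S₁ ≤ W i ∨ W (i + 1) ⊓ S₂ ≤ W i) :
    (selstJumps W S₁ L).card + (selstJumps W S₂ L).card ≤ L := by
  classical
  have hdisj : Disjoint (selstJumps W S₁ L) (selstJumps W S₂ L) := by
    rw [Finset.disjoint_left]
    intro i h1 h2
    obtain ⟨hi, hj1⟩ := mem_selstJumps.1 h1
    obtain ⟨-, hj2⟩ := mem_selstJumps.1 h2
    rcases hno i hi with h | h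
    · exact hj1 h
    · exact hj2 h
  have hsub : selstJumps W S₁ L ∪ selstJumps W S₂ L ⊆ Finset.range L := by
    intro i hi
    rw [Finset.mem_range]
    rcases Finset.mem_union.1 hi with h | h
    · exact (mem_selstJumps.1 h).1
    · exact (mem_selstJumps.1 h).1
  have := Finset.card_le_card hsub
  rwa [Finset.card_union_of_disjoint hdisj, Finset.card_range] at this

/-- `#(W L ∩ S₁) · #(W L ∩ S₂) ≤ #(W L)` if no step jumps for both -/
theorem cntodd_card_mul_le {r : ℕ} (hr : r.Prime) (W : ℕ → AddSubgroup J)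
    (S₁ S₂ : AddSubgroup J) (L : ℕ) (hW0 : W 0 = ⊥) (hW : ∀ i < L, W i ≤ W (i + 1))
    (hidx : ∀ i < L, (W i).relIndex (W (i + 1)) = r)
    (hno : ∀ i < L, W (i + 1) ⊓ S₁ ≤ W i ∨ W (i + 1) ⊓ S₂ ≤ W i) :
    Nat.card ↥(W L ⊓ S₁) * Nat.card ↥(W L ⊓ S₂) ≤ Nat.card ↥(W L) := by
  rw [selst_card_jumps hr W S₁ L hW0 hW hidx, selst_card_jumps hr W S₂ L hW0 hW hidx,
    seltwo_card_top hr W L hW0 hW hidx, ← pow_add]
  exact Nat.pow_le_pow_right hr.pos (cntodd_jumps_add_le W S₁ S₂ L hno)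

/-- **the abstract count of `G-odd`** -/
theorem cntodd_abs {r : ℕ} (hr : r.Prime) (W : ℕ → AddSubgroup J)
    (S₁ S₂ P : AddSubgroup J) (L : ℕ) (hW0 : W 0 = ⊥) (hW : ∀ i < L, W i ≤ W (i + 1))
    (hidx : ∀ i < L, (W i).relIndex (W (i + 1)) = r)
    (hno : ∀ i < L, W (i + 1) ⊓ S₁ ≤ W i ∨ W (i + 1) ⊓ S₂ ≤ W i) (a : ℕ)
    (hcnt : Nat.card ↥(W L) ≤
      r ^ a * (Nat.card ↥(W L ⊓ P) * Nat.card ↥(W L ⊓ S₂))) :
    Nat.card ↥(W L ⊓ S₁) ≤ r ^ a * Nat.card ↥(W L ⊓ P) := by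
  have h1 := cntodd_card_mul_le hr W S₁ S₂ L hW0 hW hidx hno
  have h2 : 0 < Nat.card ↥(W L ⊓ S₂) := by
    rw [selst_card_jumps hr W S₂ L hW0 hW hidx]
    exact pow_pos hr.pos _
  have h3 : Nat.card ↥(W L ⊓ S₁) * Nat.card ↥(W L ⊓ S₂) ≤
      r ^ a * Nat.card ↥(W L ⊓ P) * Nat.card ↥(W L ⊓ S₂) := by
    rw [mul_assoc]
    exact h1.trans hcnt
  exact Nat.le_of_mul_le_mul_right h3 h2

end Fermat.Agent.S15


end ZBZ2S15_035_8

/-! ### bundled: `Fermat.Agent.S15.CntOddCore` -/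
section ZBZ2S15_035_9

/-!
# S15 / SEL-CNT, glue `G-odd`: the core (helper47)

* `cntodd_conj_root`   : the complex conjugation inverts roots of unity;
* `cntodd_cyc_no_jump` : a step of type `μ_r`, `r` odd, does not jump for a subgroup of points
  fixed by the complex conjugation;
* `cntodd_core`        : for a composition series of the Eisenstein part with steps of type
  trivial (étale for `V1`) or `μ_r`, `#G ≤ r ^ a · #(G ∩ P) · #(G ∩ Q)` implies
  `#(G ∩ V1) ≤ r ^ a · #(G ∩ P)`.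
-/

set_option autoImplicit false

noncomputable section

namespace Fermat.Agent.S15

open ModularCurve AlgebraicCurve Fermat.Agent.S24

/-- the complex conjugation inverts roots of unity -/
theorem cntodd_conj_root {ζ : Kb} {n : ℕ} (hn : n ≠ 0) (hζ : ζ ^ n = 1) :
    complexConjugation ζ = ζ⁻¹ := by
  apply complexEmbedding.toRingHom.injective
  show complexEmbedding (complexConjugation ζ) = complexEmbedding ζ⁻¹
  rw [complexEmbedding_complexConjugation, map_inv₀]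
  have h1 : (complexEmbedding ζ) ^ n = 1 := by rw [← map_pow, hζ, map_one]
  have h2 : ‖complexEmbedding ζ‖ = 1 := Complex.norm_eq_one_of_pow_eq_one h1 hn
  exact (Complex.inv_eq_conj h2).symm

/-- a step of type `μ_r`, `r` odd, does not jump for the points fixed by the complex
conjugation -/
theorem cntodd_cyc_no_jump {N : ℕ} [NeZero N] {r k : ℕ} (hr : r.Prime) (hr2 : r ≠ 2)
    {W W' : AddSubgroup (JZero N)} (hstep : SelStep N r k W W') (hcyc : SelStepCyc W W')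
    {Q : AddSubgroup (JZero N)} (hQ : ∀ x ∈ Q, (complexConjugation : GalQ) • x = x) :
    W' ⊓ Q ≤ W := by
  obtain ⟨ψ, hmul, h0, heq, hker⟩ := hcyc
  intro w hw
  obtain ⟨hw', hwQ⟩ := AddSubgroup.mem_inf.1 hw
  rw [← hker w hw']
  have hpow : ∀ n : ℕ, ψ (n • w) = ψ w ^ n := by
    intro n
    induction n with
    | zero => rw [zero_nsmul, h0, pow_zero]
    | succ n ih => rw [succ_nsmul, hmul _ (W'.nsmul_mem hw' n) _ hw', ih, pow_succ]
  have hrw : r • w ∈ W := by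
    have := selch_relIndex_nsmul_mem W W' hstep.le hw'
    rwa [hstep.idx] at this
  have hζ : ψ w ^ r = 1 := by
    rw [← hpow, hker _ (W'.nsmul_mem hw' r)]
    exact hrw
  have hc : complexConjugation (ψ w) = ψ w := by
    rw [← heq complexConjugation w hw', hQ w hwQ]
  have hinv := cntodd_conj_root hr.ne_zero hζ
  rw [hc] at hinv
  have hne : ψ w ≠ 0 := by
    intro h
    rw [h, zero_pow hr.ne_zero] at hζ
    exact zero_ne_one hζ
  have h2 : ψ w ^ 2 = 1 := by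
    rw [sq]
    nth_rewrite 2 [hinv]
    exact mul_inv_cancel₀ hne
  -- `gcd (2, r) = 1`
  have hodd : Odd r := hr.odd_of_ne_two hr2
  obtain ⟨m, hm⟩ := hodd
  have h3 : ψ w ^ r = ψ w := by
    rw [hm, pow_succ, pow_mul, h2, one_pow, one_mul]
  rw [← h3, hζ]

/-- **the core of `G-odd`** -/
theorem cntodd_core {N : ℕ} [NeZero N] {r : ℕ} (hr : r.Prime) (hr2 : r ≠ 2) (k : ℕ)
    (cr : JZero N) (D : SelEisData N) (hD : D.IsEis r k cr) (V1 P Q : AddSubgroup (JZero N))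
    (hQ : ∀ x ∈ Q, (complexConjugation : GalQ) • x = x)
    (htriv : ∀ W W' : AddSubgroup (JZero N), SelStep N r k W W' → SelStepTriv W W' →
      W' ⊓ V1 ≤ W) (a : ℕ)
    (hcnt : Nat.card ↥(selEisPart N r k) ≤
      r ^ a * (Nat.card ↥(selEisPart N r k ⊓ P) * Nat.card ↥(selEisPart N r k ⊓ Q))) :
    Nat.card ↥(selEisPart N r k ⊓ V1) ≤ r ^ a * Nat.card ↥(selEisPart N r k ⊓ P) := by
  rw [← hD.W_top] at hcnt ⊢
  refine cntodd_abs hr D.W V1 Q P D.L hD.W_zero (fun i hi => (hD.step i hi).1.le)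
    (fun i hi => (hD.step i hi).1.idx) (fun i hi => ?_) a hcnt
  obtain ⟨hst, ht | hc⟩ := hD.step i hi
  · exact Or.inl (htriv _ _ hst ht)
  · exact Or.inr (cntodd_cyc_no_jump hr hr2 hst hc hQ)

end Fermat.Agent.S15

end
end ZBZ2S15_035_9
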