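/- GENERATED FILE (helper35, build-time optimisation, NOTES/ZB.md): verbatim concatenation of the modules
   Fermat.Agent.S15.Adm
   Fermat.Agent.S15.AdmChain
   Fermat.Agent.S15.SelEisAbs
   Do not edit; do not import together with these modules. -/
import Mathlib

/-! ### bundled: `Fermat.Agent.S15.Adm` -/
section ZBZ2S15_041_0
/-
S15 (Mazur chain, captain helper17; NOTES/S15-route.md) — piece **ADM**, abstract core (helper72).

`adm_simple`: let `W ≠ 0` be a finite simple `𝔽_r[G]`-module and `χ : G → 𝔽_rˣ` a character such that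
every `g ∈ G` acts on `W` like a power `τ ^ j` of some `τ ∈ G` with `χ g = χ τ ^ j` and
`((ρ τ - 1)(ρ τ - χ τ)) ^ m = 0` (Eichler–Shimura on the Eisenstein part + weak Chebotarev).
Then `W` is one-dimensional and `G` acts on it trivially or through `χ`.

Mathlib only.
-/

set_option autoImplicit false
set_option linter.style.haveILetI false

namespace Fermat.Agent.S15

section ring

variable {R : Type*} [Ring R]

/-- If `(a - 1)(a - c)` is nilpotent and `c` is central, then so is `(a ^ j - 1)(a ^ j - c ^ j)`. -/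
lemma adm_pow_nilpotent (a c : R) (hc : ∀ x : R, Commute c x) (j m : ℕ)
    (h : ((a - 1) * (a - c)) ^ m = 0) :
    ((a ^ j - 1) * (a ^ j - c ^ j)) ^ m = 0 := by
  have hac : Commute a c := (hc a).symm
  set s : R := ∑ i ∈ Finset.range j, a ^ i with hs
  set s' : R := ∑ i ∈ Finset.range j, a ^ i * c ^ (j - 1 - i) with hs'
  have h1 : a ^ j - 1 = (a - 1) * s := (mul_geom_sum a j).symm
  have h2 : a ^ j - c ^ j = (a - c) * s' := (hac.mul_geom_sum₂ j).symm
  have cas : Commute a s := by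
    rw [hs]
    exact Commute.sum_right _ _ _ (fun i _ => (Commute.refl a).pow_right i)
  have cas' : Commute a s' := by
    rw [hs']
    exact Commute.sum_right _ _ _
      (fun i _ => ((Commute.refl a).pow_right i).mul_right (hac.pow_right _))
  have ccs : Commute c s := hc s
  have hcomm1 : Commute s (a - c) := (cas.symm.sub_right ccs.symm)
  have e : (a ^ j - 1) * (a ^ j - c ^ j) = ((a - 1) * (a - c)) * (s * s') := by
    rw [h1, h2]
    calc (a - 1) * s * ((a - c) * s') = (a - 1) * (s * (a - c)) * s' := by noncomm_ring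
      _ = (a - 1) * ((a - c) * s) * s' := by rw [hcomm1.eq]
      _ = (a - 1) * (a - c) * (s * s') := by noncomm_ring
  have hcomm2 : Commute ((a - 1) * (a - c)) (s * s') := by
    have c1 : Commute (a - 1) (s * s') :=
      ((cas.mul_right cas').sub_left (Commute.one_left _))
    have c2 : Commute (a - c) (s * s') :=
      ((cas.mul_right cas').sub_left (hc _))
    exact c1.mul_left c2
  rw [e, hcomm2.mul_pow, h, zero_mul]

end ring

section rep

variable {r : ℕ} [hr : Fact r.Prime] {G : Type*} [Group G] {W : Type*} [AddCommGroup W]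
  [Module (ZMod r) W] [Module.Finite (ZMod r) W] [Nontrivial W]

/-- A group acting on `W ≠ 0` (finite `𝔽_r`-vector space) through unipotent operators fixes a
nonzero vector. -/
lemma adm_exists_fixed (ρ : Representation (ZMod r) G W) (H : Subgroup G)
    (hH : ∀ h ∈ H, ∃ n : ℕ, (ρ h - 1) ^ n = 0) :
    ∃ b : W, b ≠ 0 ∧ ∀ h ∈ H, ρ h b = b := by
  classical
  haveI : Finite W := Module.finite_of_finite (ZMod r)
  haveI : CharP (Module.End (ZMod r) W) r :=
    charP_of_injective_algebraMap (algebraMap (ZMod r) (Module.End (ZMod r) W)).injective r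
  set ρu : G →* (Module.End (ZMod r) W)ˣ := MonoidHom.toHomUnits ρ with hρu
  have hρu_coe : ∀ g : G, ((ρu g : (Module.End (ZMod r) W)ˣ) : Module.End (ZMod r) W) = ρ g :=
    fun g => rfl
  set P : Subgroup (Module.End (ZMod r) W)ˣ := H.map ρu with hP
  have hPp : IsPGroup r P := by
    rintro ⟨u, hu⟩
    obtain ⟨h, hh, rfl⟩ := hu
    obtain ⟨n, hn⟩ := hH h hh
    refine ⟨n, ?_⟩
    apply Subtype.ext
    apply Units.ext
    show ((ρu h : (Module.End (ZMod r) W)ˣ) : Module.End (ZMod r) W) ^ r ^ n = 1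
    rw [hρu_coe]
    have h1 : (ρ h - 1) ^ r ^ n = ρ h ^ r ^ n - 1 ^ r ^ n :=
      sub_pow_char_pow_of_commute r n (Commute.one_right _)
    have hle : n ≤ r ^ n := (Nat.lt_pow_self hr.out.one_lt).le
    have h2 : (ρ h - 1) ^ r ^ n = 0 := pow_eq_zero_of_le hle hn
    rw [h2, one_pow] at h1
    exact (sub_eq_zero.1 h1.symm)
  have hcard : r ∣ Nat.card W := by
    have h1 : Nat.card W = Nat.card (ZMod r) ^ Module.finrank (ZMod r) W :=
      Module.natCard_eq_pow_finrank
    rw [h1, Nat.card_zmod]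
    exact dvd_pow_self r (Module.finrank_pos (R := ZMod r) (M := W)).ne'
  have h0 : (0 : W) ∈ MulAction.fixedPoints P W := by
    rintro ⟨u, hu⟩
    show (u : Module.End (ZMod r) W) (0 : W) = 0
    exact map_zero _
  obtain ⟨b, hb, hb0⟩ := hPp.exists_fixed_point_of_prime_dvd_card_of_fixed_point W hcard h0
  refine ⟨b, fun h => hb0 h.symm, fun h hh => ?_⟩
  have := hb ⟨ρu h, Subgroup.mem_map_of_mem ρu hh⟩
  exact this

/-- **ADM, abstract core.** -/
theorem adm_simple (ρ : Representation (ZMod r) G W) (χ : G →* (ZMod r)ˣ)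
    (hsimple : ∀ U : Submodule (ZMod r) W, (∀ g : G, ∀ w ∈ U, ρ g w ∈ U) → U = ⊥ ∨ U = ⊤)
    (hfrob : ∀ g : G, ∃ (τ : G) (j m : ℕ), ρ g = ρ τ ^ j ∧ χ g = χ τ ^ j ∧
      ((ρ τ - 1) * (ρ τ - algebraMap (ZMod r) (Module.End (ZMod r) W) (χ τ : ZMod r))) ^ m = 0) :
    Module.finrank (ZMod r) W = 1 ∧
      ((∀ g : G, ∀ w : W, ρ g w = w) ∨ (∀ g : G, ∀ w : W, ρ g w = (χ g : ZMod r) • w)) := by
  classical
  -- (a) every `g` satisfies `((ρ g - 1)(ρ g - χ g)) ^ m = 0`
  have ha : ∀ g : G, ∃ m : ℕ,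
      ((ρ g - 1) * (ρ g - algebraMap (ZMod r) (Module.End (ZMod r) W) (χ g : ZMod r))) ^ m
        = 0 := by
    intro g
    obtain ⟨τ, j, m, h1, h2, h3⟩ := hfrob g
    refine ⟨m, ?_⟩
    have := adm_pow_nilpotent (ρ τ) (algebraMap (ZMod r) (Module.End (ZMod r) W) (χ τ : ZMod r))
      (fun x => Algebra.commutes _ x) j m h3
    rw [h1, h2]
    rw [← map_pow] at this
    simpa using this
  -- (b) the kernel of `χ` acts unipotently, hence trivially
  have hker : ∀ h ∈ χ.ker, ∃ n : ℕ, (ρ h - 1) ^ n = 0 := by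
    intro h hh
    obtain ⟨m, hm⟩ := ha h
    have h1 : χ h = 1 := hh
    refine ⟨2 * m, ?_⟩
    rw [h1] at hm
    simp only [Units.val_one, map_one] at hm
    rw [pow_mul, pow_two]
    exact hm
  obtain ⟨b, hb0, hb⟩ := adm_exists_fixed ρ χ.ker hker
  let U : Submodule (ZMod r) W :=
    { carrier := {w | ∀ h ∈ χ.ker, ρ h w = w}
      add_mem' := fun {x y} hx hy h hh => by rw [map_add, hx h hh, hy h hh]
      zero_mem' := fun h _ => map_zero _
      smul_mem' := fun c x hx h hh => by rw [map_smul, hx h hh] }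
  have hUst : ∀ g : G, ∀ w ∈ U, ρ g w ∈ U := by
    intro g w hw h hh
    have hn : g⁻¹ * h * g ∈ χ.ker := by
      have : (χ.ker).Normal := inferInstance
      have := this.conj_mem h hh g⁻¹
      simpa using this
    have h1 := hw _ hn
    have h2 : ρ h (ρ g w) = ρ g (ρ (g⁻¹ * h * g) w) := by
      rw [← Module.End.mul_apply, ← Module.End.mul_apply, ← map_mul, ← map_mul]
      congr 2
      group
    rw [h2, h1]
  have hUtop : U = ⊤ := by
    rcases hsimple U hUst with h | h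
    · exfalso
      have : b ∈ U := hb
      rw [h] at this
      exact hb0 ((Submodule.mem_bot _).1 this)
    · exact h
  have htriv : ∀ h ∈ χ.ker, ρ h = 1 := by
    intro h hh
    apply LinearMap.ext
    intro w
    have : w ∈ U := by rw [hUtop]; trivial
    exact this h hh
  -- (e) the image of `ρ` is commutative
  have hcomm : ∀ g g' : G, ρ g * ρ g' = ρ g' * ρ g := by
    intro g g'
    have hc : (g' * g)⁻¹ * (g * g') ∈ χ.ker := by
      rw [MonoidHom.mem_ker, map_mul, map_inv, map_mul, map_mul, mul_comm (χ g') (χ g),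
        inv_mul_cancel]
    have h1 := htriv _ hc
    have h2 : g * g' = (g' * g) * ((g' * g)⁻¹ * (g * g')) := by group
    calc ρ g * ρ g' = ρ (g * g') := (map_mul ρ g g').symm
      _ = ρ ((g' * g) * ((g' * g)⁻¹ * (g * g'))) := congrArg ρ h2
      _ = ρ (g' * g) * ρ ((g' * g)⁻¹ * (g * g')) := map_mul ρ _ _
      _ = ρ (g' * g) := by rw [h1, mul_one]
      _ = ρ g' * ρ g := map_mul ρ g' g
  -- (f) every `g` acts as `1` or as `χ g`
  have hscal : ∀ g : G, ρ g = 1 ∨
      ρ g = algebraMap (ZMod r) (Module.End (ZMod r) W) (χ g : ZMod r) := by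
    intro g
    obtain ⟨m, hm⟩ := ha g
    set c : Module.End (ZMod r) W := algebraMap (ZMod r) (Module.End (ZMod r) W) (χ g : ZMod r)
      with hcdef
    have hst : ∀ (T : Module.End (ZMod r) W), (∀ g' : G, ρ g' * T = T * ρ g') →
        LinearMap.ker T = ⊥ ∨ LinearMap.ker T = ⊤ := by
      intro T hT
      apply hsimple
      intro g' w hw
      rw [LinearMap.mem_ker] at hw ⊢
      have := congrArg (fun f : Module.End (ZMod r) W => f w) (hT g')
      simp only [Module.End.mul_apply] at this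
      rw [← this, hw, map_zero]
    have hT1 : ∀ g' : G, ρ g' * (ρ g - 1) = (ρ g - 1) * ρ g' := by
      intro g'
      rw [mul_sub, sub_mul, hcomm g' g, mul_one, one_mul]
    have hT2 : ∀ g' : G, ρ g' * (ρ g - c) = (ρ g - c) * ρ g' := by
      intro g'
      rw [mul_sub, sub_mul, hcomm g' g, hcdef, ← Algebra.commutes]
    rcases hst _ hT1 with h1 | h1
    · rcases hst _ hT2 with h2 | h2
      · exfalso
        have hinj : ∀ w : W, ((ρ g - 1) * (ρ g - c)) w = 0 → w = 0 := by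
          intro w hw
          rw [Module.End.mul_apply] at hw
          have h3 := (LinearMap.ker_eq_bot'.1 h1) _ hw
          exact (LinearMap.ker_eq_bot'.1 h2) _ h3
        have hinjm : ∀ (n : ℕ) (w : W), (((ρ g - 1) * (ρ g - c)) ^ n) w = 0 → w = 0 := by
          intro n
          induction n with
          | zero => intro w hw; simpa using hw
          | succ n ih =>
            intro w hw
            rw [pow_succ, Module.End.mul_apply] at hw
            exact hinj w (ih _ hw)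
        obtain ⟨w, hw⟩ := exists_ne (0 : W)
        exact hw (hinjm m w (by rw [hm]; rfl))
      · right
        have : ρ g - c = 0 := LinearMap.ker_eq_top.1 h2
        exact sub_eq_zero.1 this
    · left
      have : ρ g - 1 = 0 := LinearMap.ker_eq_top.1 h1
      exact sub_eq_zero.1 this
  -- (h) dimension one
  have hdim : Module.finrank (ZMod r) W = 1 := by
    obtain ⟨w, hw⟩ := exists_ne (0 : W)
    have hstable : ∀ g : G, ∀ x ∈ Submodule.span (ZMod r) {w}, ρ g x ∈ Submodule.span (ZMod r) {w} := by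
      intro g x hx
      rcases hscal g with h | h
      · rw [h]; exact hx
      · rw [h]
        exact Submodule.smul_mem _ _ hx
    rcases hsimple _ hstable with h | h
    · exfalso
      exact hw ((Submodule.span_singleton_eq_bot).1 h)
    · have h1 := finrank_span_singleton (K := ZMod r) hw
      rw [h] at h1
      rw [← h1]
      exact (finrank_top (ZMod r) W).symm
  refine ⟨hdim, ?_⟩
  -- (g) a group is not the union of two proper subgroups
  by_contra hcon
  rw [not_or] at hcon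
  obtain ⟨hA, hB⟩ := hcon
  have hA' : ∃ a : G, ρ a ≠ 1 := by
    by_contra h
    rw [not_exists] at h
    exact hA (fun g w => by rw [not_not.1 (h g)]; rfl)
  have hB' : ∃ b : G, ρ b ≠ algebraMap (ZMod r) (Module.End (ZMod r) W) (χ b : ZMod r) := by
    by_contra h
    rw [not_exists] at h
    exact hB (fun g w => by rw [not_not.1 (h g)]; rfl)
  obtain ⟨a, ha1⟩ := hA'
  obtain ⟨b', hb1⟩ := hB'
  have haχ := (hscal a).resolve_left ha1
  have hb1' := (hscal b').resolve_right hb1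
  have hab : ρ (a * b') = algebraMap (ZMod r) (Module.End (ZMod r) W) (χ a : ZMod r) := by
    rw [map_mul, hb1', mul_one, haχ]
  rcases hscal (a * b') with h | h
  · rw [hab] at h
    exact ha1 (haχ.trans h)
  · rw [hab, map_mul, Units.val_mul, map_mul] at h
    have hu : IsUnit (algebraMap (ZMod r) (Module.End (ZMod r) W) (χ a : ZMod r)) :=
      (χ a).isUnit.map _
    have h3 : (1 : Module.End (ZMod r) W) =
        algebraMap (ZMod r) (Module.End (ZMod r) W) (χ b' : ZMod r) := by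
      apply hu.mul_left_cancel
      rw [mul_one]
      exact h
    exact hb1 (hb1'.trans h3)

end rep

end Fermat.Agent.S15


end ZBZ2S15_041_0

/-! ### bundled: `Fermat.Agent.S15.AdmChain` -/
section ZBZ2S15_041_1
/-
S15 (Mazur chain, captain helper17; NOTES/S15-route.md, NOTES/S15-FIN.md) — piece **ADM**, chain
form (helper72).

`J` an abelian group with an action of `G`, `V ≤ J` a finite `G`-stable subgroup killed by `r ^ k`,
`χ : G → 𝔽_rˣ` a character.  Assume every `g ∈ G` acts on `V` like a power `τ ^ j` of some `τ ∈ G`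
with `χ g = χ τ ^ j`, `χ τ = q mod r`, and `((τ - 1)(τ - q)) ^ m = 0` on `V`
(Eichler–Shimura on the Eisenstein part + weak Chebotarev).  Then `V` has a composition series
`⊥ = W 0 ≤ W 1 ≤ … ≤ W L = V` of `G`-stable subgroups with steps of index `r`, and on every step
`W (i+1) / W i` the group `G` acts trivially or through `χ`   (`adm_chain`).
-/

set_option autoImplicit false
set_option linter.style.haveILetI false

namespace Fermat.Agent.S15

/-! ### `adm_simple` for a finite abelian group killed by `r` -/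

section addGroup

variable {r : ℕ} [hr : Fact r.Prime] {G : Type*} [Group G] {Q : Type*} [AddCommGroup Q]

/-- additive endomorphisms of a group killed by `r` are `𝔽_r`-linear (ring homomorphism) -/
noncomputable def admLin [Module (ZMod r) Q] : AddMonoid.End Q →+* Module.End (ZMod r) Q where
  toFun f := AddMonoidHom.toZModLinearMap r f
  map_one' := rfl
  map_mul' _ _ := rfl
  map_zero' := rfl
  map_add' _ _ := rfl

@[simp] theorem admLin_apply [Module (ZMod r) Q] (f : AddMonoid.End Q) (x : Q) :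
    admLin (r := r) f x = f x := rfl

/-- auxiliary form of `adm_simple_addGroup`, with the `𝔽_r`-module structure as an instance -/
theorem adm_simple_addGroup_aux [Module (ZMod r) Q] [Finite Q] [Nontrivial Q]
    (ρ₀ : G →* AddMonoid.End Q) (χ : G →* (ZMod r)ˣ)
    (hsimple : ∀ U : AddSubgroup Q, (∀ g : G, ∀ x ∈ U, ρ₀ g x ∈ U) → U = ⊥ ∨ U = ⊤)
    (hfrob : ∀ g : G, ∃ (τ : G) (j m q : ℕ), ρ₀ g = ρ₀ τ ^ j ∧ χ g = χ τ ^ j ∧
      (q : ZMod r) = (χ τ : ZMod r) ∧
      ((ρ₀ τ - 1) * (ρ₀ τ - (q : AddMonoid.End Q))) ^ m = 0) :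
    Nat.card Q = r ∧
      ((∀ g : G, ∀ x : Q, ρ₀ g x = x) ∨
        (∀ g : G, ∀ x : Q, ρ₀ g x = ((χ g : ZMod r).val) • x)) := by
  haveI : Module.Finite (ZMod r) Q := Module.Finite.of_finite
  let ρ : Representation (ZMod r) G Q := (admLin (r := r) (Q := Q)).toMonoidHom.comp ρ₀
  have hρ : ∀ g x, ρ g x = ρ₀ g x := fun g x => rfl
  have h := adm_simple ρ χ
    (fun U hU => by
      have h1 := hsimple ((AddSubgroup.toZModSubmodule r).symm U) (fun g x hx => hU g x hx)
      rcases h1 with h1 | h1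
      · left
        rw [← (AddSubgroup.toZModSubmodule r).apply_symm_apply U, h1]
        exact map_bot _
      · right
        rw [← (AddSubgroup.toZModSubmodule r).apply_symm_apply U, h1]
        exact map_top _)
    (fun g => by
      obtain ⟨τ, j, m, q, h1, h2, h3, h4⟩ := hfrob g
      refine ⟨τ, j, m, ?_, h2, ?_⟩
      · show admLin (ρ₀ g) = (admLin (ρ₀ τ)) ^ j
        rw [h1, map_pow]
      · have h5 := congrArg (admLin (r := r) (Q := Q)) h4
        rw [map_pow, map_mul, map_sub, map_sub, map_one, map_natCast, map_zero] at h5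
        have h6 : algebraMap (ZMod r) (Module.End (ZMod r) Q) (χ τ : ZMod r) =
            ((q : ℕ) : Module.End (ZMod r) Q) := by
          rw [← h3, map_natCast]
        show ((admLin (ρ₀ τ) - 1) * (admLin (ρ₀ τ) - algebraMap (ZMod r) _ (χ τ : ZMod r))) ^ m = 0
        rw [h6]
        exact h5)
  obtain ⟨h1, h2⟩ := h
  refine ⟨?_, ?_⟩
  · have := Module.natCard_eq_pow_finrank (K := ZMod r) (V := Q)
    rw [this, h1, pow_one, Nat.card_zmod]
  · rcases h2 with h2 | h2
    · left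
      intro g x
      rw [← hρ, h2]
    · right
      intro g x
      rw [← hρ, h2, ← Nat.cast_smul_eq_nsmul (ZMod r), ZMod.natCast_zmod_val]

/-- **ADM, abstract core**, for an action on a finite abelian group killed by `r`. -/
theorem adm_simple_addGroup [Finite Q] [Nontrivial Q] (hQ : ∀ x : Q, r • x = 0)
    (ρ₀ : G →* AddMonoid.End Q) (χ : G →* (ZMod r)ˣ)
    (hsimple : ∀ U : AddSubgroup Q, (∀ g : G, ∀ x ∈ U, ρ₀ g x ∈ U) → U = ⊥ ∨ U = ⊤)
    (hfrob : ∀ g : G, ∃ (τ : G) (j m q : ℕ), ρ₀ g = ρ₀ τ ^ j ∧ χ g = χ τ ^ j ∧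
      (q : ZMod r) = (χ τ : ZMod r) ∧
      ((ρ₀ τ - 1) * (ρ₀ τ - (q : AddMonoid.End Q))) ^ m = 0) :
    Nat.card Q = r ∧
      ((∀ g : G, ∀ x : Q, ρ₀ g x = x) ∨
        (∀ g : G, ∀ x : Q, ρ₀ g x = ((χ g : ZMod r).val) • x)) := by
  letI : Module (ZMod r) Q := AddCommGroup.zmodModule hQ
  exact adm_simple_addGroup_aux ρ₀ χ hsimple hfrob

end addGroup

/-! ### One step of the composition series -/

section step

variable {G : Type*} [Group G] {J : Type*} [AddCommGroup J] [DistribMulAction G J]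

theorem admEnd_mul_apply {Q : Type*} [AddCommGroup Q] (f g : AddMonoid.End Q) (x : Q) :
    (f * g) x = f (g x) := rfl

theorem admEnd_sub_apply {Q : Type*} [AddCommGroup Q] (f g : AddMonoid.End Q) (x : Q) :
    (f - g) x = f x - g x := rfl

theorem admEnd_one_apply {Q : Type*} [AddCommGroup Q] (x : Q) :
    (1 : AddMonoid.End Q) x = x := rfl

theorem admEnd_zero_apply {Q : Type*} [AddCommGroup Q] (x : Q) :
    (0 : AddMonoid.End Q) x = 0 := rfl

/-- the operator `(τ - 1)(τ - q)` on `J` -/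
def admE (τ : G) (q : ℕ) (x : J) : J := τ • τ • x - (1 + q) • τ • x + q • x

/-- restriction of the action to a stable subgroup -/
def admAct (W₁ : AddSubgroup J) (h₁ : ∀ σ : G, ∀ w ∈ W₁, σ • w ∈ W₁) (g : G) : ↥W₁ →+ ↥W₁ where
  toFun w := ⟨g • (w : J), h₁ g w w.2⟩
  map_zero' := Subtype.ext (smul_zero g)
  map_add' a b := Subtype.ext (smul_add g (a : J) b)

@[simp] theorem admAct_coe (W₁ : AddSubgroup J) (h₁ : ∀ σ : G, ∀ w ∈ W₁, σ • w ∈ W₁) (g : G)
    (w : ↥W₁) : ((admAct W₁ h₁ g w : ↥W₁) : J) = g • (w : J) := rfl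

/-- the induced endomorphism of the quotient `W₁ / W₀` -/
def admQuotFun (W₀ W₁ : AddSubgroup J) (h₀ : ∀ σ : G, ∀ w ∈ W₀, σ • w ∈ W₀)
    (h₁ : ∀ σ : G, ∀ w ∈ W₁, σ • w ∈ W₁) (g : G) :
    AddMonoid.End (↥W₁ ⧸ W₀.addSubgroupOf W₁) :=
  QuotientAddGroup.map _ _ (admAct W₁ h₁ g) (fun w hw => by
    rw [AddSubgroup.mem_comap, AddSubgroup.mem_addSubgroupOf, admAct_coe]
    exact h₀ g _ (AddSubgroup.mem_addSubgroupOf.1 hw))

theorem admQuotFun_mk (W₀ W₁ : AddSubgroup J) (h₀ : ∀ σ : G, ∀ w ∈ W₀, σ • w ∈ W₀)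
    (h₁ : ∀ σ : G, ∀ w ∈ W₁, σ • w ∈ W₁) (g : G) (w : ↥W₁) :
    admQuotFun W₀ W₁ h₀ h₁ g (QuotientAddGroup.mk w) = QuotientAddGroup.mk (admAct W₁ h₁ g w) :=
  rfl

/-- the induced action on the quotient `W₁ / W₀` -/
def admQuot (W₀ W₁ : AddSubgroup J) (h₀ : ∀ σ : G, ∀ w ∈ W₀, σ • w ∈ W₀)
    (h₁ : ∀ σ : G, ∀ w ∈ W₁, σ • w ∈ W₁) :
    G →* AddMonoid.End (↥W₁ ⧸ W₀.addSubgroupOf W₁) where
  toFun g := admQuotFun W₀ W₁ h₀ h₁ g
  map_one' := by
    ext x
    induction x using QuotientAddGroup.induction_on with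
    | H w =>
      rw [admEnd_one_apply, admQuotFun_mk]
      congr 1
      exact Subtype.ext (one_smul G (w : J))
  map_mul' g h := by
    ext x
    induction x using QuotientAddGroup.induction_on with
    | H w =>
      rw [admEnd_mul_apply, admQuotFun_mk, admQuotFun_mk, admQuotFun_mk]
      congr 1
      exact Subtype.ext (mul_smul g h (w : J))

theorem admQuot_mk (W₀ W₁ : AddSubgroup J) (h₀ : ∀ σ : G, ∀ w ∈ W₀, σ • w ∈ W₀)
    (h₁ : ∀ σ : G, ∀ w ∈ W₁, σ • w ∈ W₁) (g : G) (w : ↥W₁) :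
    admQuot W₀ W₁ h₀ h₁ g (QuotientAddGroup.mk w) = QuotientAddGroup.mk (admAct W₁ h₁ g w) :=
  rfl

theorem admE_mem (W₁ : AddSubgroup J) (h₁ : ∀ σ : G, ∀ w ∈ W₁, σ • w ∈ W₁) (τ : G) (q : ℕ)
    {w : J} (hw : w ∈ W₁) : admE τ q w ∈ W₁ :=
  W₁.add_mem (W₁.sub_mem (h₁ τ _ (h₁ τ w hw)) (W₁.nsmul_mem (h₁ τ w hw) _)) (W₁.nsmul_mem hw _)

theorem admE_iterate_mem (W₁ : AddSubgroup J) (h₁ : ∀ σ : G, ∀ w ∈ W₁, σ • w ∈ W₁) (τ : G)
    (q m : ℕ) {w : J} (hw : w ∈ W₁) : (admE τ q)^[m] w ∈ W₁ := by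
  induction m with
  | zero => exact hw
  | succ m ih =>
    rw [Function.iterate_succ_apply']
    exact admE_mem W₁ h₁ τ q ih

/-- `(ρ τ - 1)(ρ τ - q)` on the quotient is induced by `admE`. -/
theorem admQuot_E_mk (W₀ W₁ : AddSubgroup J) (h₀ : ∀ σ : G, ∀ w ∈ W₀, σ • w ∈ W₀)
    (h₁ : ∀ σ : G, ∀ w ∈ W₁, σ • w ∈ W₁) (τ : G) (q : ℕ) (y : ↥W₁) :
    ((admQuot W₀ W₁ h₀ h₁ τ - 1) *
      (admQuot W₀ W₁ h₀ h₁ τ - (q : AddMonoid.End (↥W₁ ⧸ W₀.addSubgroupOf W₁))))
        (QuotientAddGroup.mk y) =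
      QuotientAddGroup.mk (⟨admE τ q (y : J), admE_mem W₁ h₁ τ q y.2⟩ : ↥W₁) := by
  simp only [admEnd_mul_apply, admEnd_sub_apply, admEnd_one_apply, AddMonoid.End.natCast_apply,
    admQuot_mk]
  rw [← QuotientAddGroup.mk_nsmul, ← QuotientAddGroup.mk_sub, admQuot_mk,
    ← QuotientAddGroup.mk_sub]
  congr 1
  apply Subtype.ext
  simp only [AddSubgroup.coe_sub, admAct_coe, AddSubgroup.coe_nsmul, smul_sub, admE, add_smul,
    one_smul]
  rw [smul_comm τ q (y : J)]
  abel

/-- `((ρ τ - 1)(ρ τ - q)) ^ m` on the quotient is induced by the `m`-th iterate of `admE`. -/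
theorem admQuot_pow_mk (W₀ W₁ : AddSubgroup J) (h₀ : ∀ σ : G, ∀ w ∈ W₀, σ • w ∈ W₀)
    (h₁ : ∀ σ : G, ∀ w ∈ W₁, σ • w ∈ W₁) (τ : G) (q m : ℕ) (w : ↥W₁) :
    (((admQuot W₀ W₁ h₀ h₁ τ - 1) *
      (admQuot W₀ W₁ h₀ h₁ τ - (q : AddMonoid.End (↥W₁ ⧸ W₀.addSubgroupOf W₁)))) ^ m)
        (QuotientAddGroup.mk w) =
      QuotientAddGroup.mk (⟨(admE τ q)^[m] (w : J), admE_iterate_mem W₁ h₁ τ q m w.2⟩ : ↥W₁) := by
  induction m with
  | zero => rfl
  | succ m ih =>
    rw [pow_succ', admEnd_mul_apply, ih, admQuot_E_mk]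
    congr 1
    apply Subtype.ext
    show admE τ q ((admE τ q)^[m] (w : J)) = (admE τ q)^[m + 1] (w : J)
    rw [Function.iterate_succ_apply']

variable {r : ℕ} [hr : Fact r.Prime]

/-- **ADM, one step**: a minimal step `W₀ < W₁` of `G`-stable subgroups with `r • W₁ ≤ W₀` has index
`r`, and `G` acts on `W₁ / W₀` trivially or through `χ`. -/
theorem adm_step (χ : G →* (ZMod r)ˣ) (W₀ W₁ : AddSubgroup J) [Finite ↥W₁] (h01 : W₀ ≤ W₁)
    (hne : W₀ ≠ W₁) (h₀ : ∀ σ : G, ∀ w ∈ W₀, σ • w ∈ W₀) (h₁ : ∀ σ : G, ∀ w ∈ W₁, σ • w ∈ W₁)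
    (hrW : ∀ w ∈ W₁, r • w ∈ W₀)
    (hsimple : ∀ U : AddSubgroup J, W₀ ≤ U → U ≤ W₁ → (∀ σ : G, ∀ u ∈ U, σ • u ∈ U) →
      U = W₀ ∨ U = W₁)
    (hfrob : ∀ g : G, ∃ (τ : G) (j m q : ℕ), (∀ w ∈ W₁, g • w = τ ^ j • w) ∧ χ g = χ τ ^ j ∧
      (q : ZMod r) = (χ τ : ZMod r) ∧ ∀ w ∈ W₁, (admE τ q)^[m] w = 0) :
    W₀.relIndex W₁ = r ∧
      ((∀ σ : G, ∀ w ∈ W₁, σ • w - w ∈ W₀) ∨
        (∀ σ : G, ∀ w ∈ W₁, σ • w - ((χ σ : ZMod r).val) • w ∈ W₀)) := by
  classical
  set N : AddSubgroup ↥W₁ := W₀.addSubgroupOf W₁ with hN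
  have hmk0 : ∀ w : ↥W₁, (QuotientAddGroup.mk w : ↥W₁ ⧸ N) = 0 ↔ (w : J) ∈ W₀ := by
    intro w
    rw [QuotientAddGroup.eq_zero_iff]
    exact AddSubgroup.mem_addSubgroupOf
  haveI : Nontrivial (↥W₁ ⧸ N) := by
    obtain ⟨w, hw1, hw0⟩ : ∃ w ∈ W₁, w ∉ W₀ := by
      by_contra hcon
      apply hne
      refine le_antisymm h01 (fun w hw => ?_)
      by_contra hw0
      exact hcon ⟨w, hw, hw0⟩
    refine ⟨⟨QuotientAddGroup.mk ⟨w, hw1⟩, 0, ?_⟩⟩
    rw [Ne, hmk0]
    exact hw0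
  have hQ : ∀ x : ↥W₁ ⧸ N, r • x = 0 := by
    intro x
    induction x using QuotientAddGroup.induction_on with
    | H w =>
      rw [← QuotientAddGroup.mk_nsmul, hmk0, AddSubgroup.coe_nsmul]
      exact hrW w w.2
  have hres := adm_simple_addGroup hQ (admQuot W₀ W₁ h₀ h₁) χ
    (fun U hU => by
      have hU' := hsimple ((U.comap (QuotientAddGroup.mk' N)).map W₁.subtype)
        (fun w hw => by
          refine ⟨⟨w, h01 hw⟩, ?_, rfl⟩
          show QuotientAddGroup.mk' N ⟨w, h01 hw⟩ ∈ U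
          have : QuotientAddGroup.mk' N ⟨w, h01 hw⟩ = 0 := (hmk0 _).2 hw
          rw [this]
          exact U.zero_mem)
        (by
          rintro _ ⟨w, -, rfl⟩
          exact w.2)
        (by
          rintro σ _ ⟨w, hw, rfl⟩
          refine ⟨admAct W₁ h₁ σ w, ?_, rfl⟩
          show QuotientAddGroup.mk' N (admAct W₁ h₁ σ w) ∈ U
          exact hU σ _ hw)
      rcases hU' with hU' | hU'
      · left
        rw [eq_bot_iff]
        intro x hx
        induction x using QuotientAddGroup.induction_on with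
        | H w =>
          rw [AddSubgroup.mem_bot, hmk0, ← hU']
          exact ⟨w, hx, rfl⟩
      · right
        rw [eq_top_iff]
        intro x _
        induction x using QuotientAddGroup.induction_on with
        | H w =>
          have hw : (w : J) ∈ (U.comap (QuotientAddGroup.mk' N)).map W₁.subtype := by
            rw [hU']
            exact w.2
          obtain ⟨w', hw', e⟩ := hw
          have : w' = w := Subtype.ext e
          rw [← this]
          exact hw')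
    (fun g => by
      obtain ⟨τ, j, m, q, h1, h2, h3, h4⟩ := hfrob g
      refine ⟨τ, j, m, q, ?_, h2, h3, ?_⟩
      · ext x
        induction x using QuotientAddGroup.induction_on with
        | H w =>
          rw [← map_pow, admQuot_mk, admQuot_mk]
          congr 1
          exact Subtype.ext (h1 w w.2)
      · ext x
        induction x using QuotientAddGroup.induction_on with
        | H w =>
          rw [admQuot_pow_mk, admEnd_zero_apply, hmk0]
          show (admE τ q)^[m] (w : J) ∈ W₀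
          rw [h4 w w.2]
          exact W₀.zero_mem)
  obtain ⟨hcard, hact⟩ := hres
  refine ⟨?_, ?_⟩
  · rw [AddSubgroup.relIndex, AddSubgroup.index_eq_card]
    exact hcard
  · rcases hact with hact | hact
    · left
      intro σ w hw
      have := hact σ (QuotientAddGroup.mk ⟨w, hw⟩)
      rw [admQuot_mk, ← sub_eq_zero, ← QuotientAddGroup.mk_sub, hmk0] at this
      exact this
    · right
      intro σ w hw
      have := hact σ (QuotientAddGroup.mk ⟨w, hw⟩)
      rw [admQuot_mk, ← QuotientAddGroup.mk_nsmul, ← sub_eq_zero, ← QuotientAddGroup.mk_sub,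
        hmk0] at this
      exact this

end step

/-! ### The composition series -/

section chain

variable {G : Type*} [Group G] {J : Type*} [AddCommGroup J] [DistribMulAction G J]

/-- a minimal `G`-stable subgroup strictly above `W₀` inside the finite `V` -/
theorem adm_exists_minimal (V W₀ : AddSubgroup J) [Finite ↥V] (h0V : W₀ ≤ V) (hne : W₀ ≠ V)
    (hV : ∀ σ : G, ∀ v ∈ V, σ • v ∈ V) :
    ∃ W₁ : AddSubgroup J, W₀ ≤ W₁ ∧ W₀ ≠ W₁ ∧ W₁ ≤ V ∧ (∀ σ : G, ∀ w ∈ W₁, σ • w ∈ W₁) ∧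
      ∀ U : AddSubgroup J, W₀ ≤ U → U ≤ W₁ → (∀ σ : G, ∀ u ∈ U, σ • u ∈ U) →
        U = W₀ ∨ U = W₁ := by
  classical
  have hex : ∃ n : ℕ, ∃ U : AddSubgroup J, W₀ ≤ U ∧ W₀ ≠ U ∧ U ≤ V ∧
      (∀ σ : G, ∀ u ∈ U, σ • u ∈ U) ∧ Nat.card ↥U = n :=
    ⟨_, V, h0V, hne, le_rfl, hV, rfl⟩
  obtain ⟨W₁, h1, h2, h3, h4, h5⟩ := Nat.find_spec hex
  refine ⟨W₁, h1, h2, h3, h4, fun U hU0 hU1 hUG => ?_⟩
  by_cases hUW : U = W₀
  · exact Or.inl hUW
  · right
    haveI : Finite ↥W₁ := Finite.of_injective _ (AddSubgroup.inclusion_injective h3)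
    have hmin := Nat.find_min' hex
      ⟨U, hU0, fun h => hUW h.symm, hU1.trans h3, hUG, rfl⟩
    rw [← h5] at hmin
    exact AddSubgroup.eq_of_le_of_card_ge hU1 hmin

/-- a minimal step is killed by `r` -/
theorem adm_nsmul_mem_of_minimal {r k : ℕ} (W₀ W₁ : AddSubgroup J) (h01 : W₀ ≤ W₁)
    (hne : W₀ ≠ W₁) (h₀ : ∀ σ : G, ∀ w ∈ W₀, σ • w ∈ W₀) (h₁ : ∀ σ : G, ∀ w ∈ W₁, σ • w ∈ W₁)
    (hk : ∀ w ∈ W₁, r ^ k • w = 0)
    (hsimple : ∀ U : AddSubgroup J, W₀ ≤ U → U ≤ W₁ → (∀ σ : G, ∀ u ∈ U, σ • u ∈ U) →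
      U = W₀ ∨ U = W₁) :
    ∀ w ∈ W₁, r • w ∈ W₀ := by
  set U : AddSubgroup J := W₀ ⊔ W₁.map (nsmulAddMonoidHom r) with hU
  have hmemU : ∀ w ∈ W₁, r • w ∈ U := fun w hw =>
    (le_sup_right : W₁.map (nsmulAddMonoidHom r) ≤ U) ⟨w, hw, rfl⟩
  have hU1 : U ≤ W₁ := by
    refine sup_le h01 ?_
    rintro _ ⟨w, hw, rfl⟩
    exact W₁.nsmul_mem hw r
  have hUG : ∀ σ : G, ∀ u ∈ U, σ • u ∈ U := by
    intro σ u hu
    obtain ⟨a, ha, b, hb, rfl⟩ := AddSubgroup.mem_sup.1 hu
    obtain ⟨w, hw, rfl⟩ := hb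
    rw [smul_add]
    refine U.add_mem ((le_sup_left : W₀ ≤ U) (h₀ σ a ha)) ?_
    have : σ • (nsmulAddMonoidHom r) w = r • (σ • w) := by
      show σ • (r • w) = r • (σ • w)
      rw [smul_comm]
    rw [this]
    exact hmemU _ (h₁ σ w hw)
  rcases hsimple U le_sup_left hU1 hUG with h | h
  · intro w hw
    rw [← h]
    exact hmemU w hw
  · exfalso
    apply hne
    refine le_antisymm h01 ?_
    have key : ∀ n : ℕ, ∀ w ∈ W₁, ∃ a ∈ W₀, ∃ b ∈ W₁, w = a + r ^ n • b := by
      intro n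
      induction n with
      | zero =>
        intro w hw
        exact ⟨0, W₀.zero_mem, w, hw, by simp⟩
      | succ n ih =>
        intro w hw
        obtain ⟨a, ha, b, hb, rfl⟩ := ih w hw
        have hbU : b ∈ U := by rw [h]; exact hb
        obtain ⟨a', ha', c, hc, rfl⟩ := AddSubgroup.mem_sup.1 hbU
        obtain ⟨b', hb', rfl⟩ := hc
        refine ⟨a + r ^ n • a', W₀.add_mem ha (W₀.nsmul_mem ha' _), b', hb', ?_⟩
        show a + r ^ n • (a' + r • b') = a + r ^ n • a' + r ^ (n + 1) • b'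
        rw [smul_add, pow_succ, mul_smul, add_assoc]
    intro w hw
    obtain ⟨a, ha, b, hb, rfl⟩ := key k w hw
    rw [hk b hb, add_zero]
    exact ha

variable {r : ℕ} [hr : Fact r.Prime]

/-- the induction behind `adm_chain` -/
theorem adm_chain_aux (χ : G →* (ZMod r)ˣ) (V : AddSubgroup J) [Finite ↥V]
    (hV : ∀ σ : G, ∀ v ∈ V, σ • v ∈ V) (k : ℕ) (hVr : ∀ v ∈ V, r ^ k • v = 0)
    (hfrob : ∀ g : G, ∃ (τ : G) (j m q : ℕ), (∀ v ∈ V, g • v = τ ^ j • v) ∧ χ g = χ τ ^ j ∧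
      (q : ZMod r) = (χ τ : ZMod r) ∧ ∀ v ∈ V, (admE τ q)^[m] v = 0) :
    ∀ n : ℕ, ∀ W₀ : AddSubgroup J, W₀ ≤ V → (∀ σ : G, ∀ w ∈ W₀, σ • w ∈ W₀) →
      Nat.card ↥V - Nat.card ↥W₀ ≤ n →
      ∃ (L : ℕ) (W : ℕ → AddSubgroup J), W 0 = W₀ ∧ W L = V ∧ (∀ i < L, W i ≤ W (i + 1)) ∧
        (∀ i ≤ L, W i ≤ V) ∧ (∀ i ≤ L, ∀ σ : G, ∀ w ∈ W i, σ • w ∈ W i) ∧
        (∀ i < L, (W i).relIndex (W (i + 1)) = r) ∧
        (∀ i < L, (∀ σ : G, ∀ w ∈ W (i + 1), σ • w - w ∈ W i) ∨
          (∀ σ : G, ∀ w ∈ W (i + 1), σ • w - ((χ σ : ZMod r).val) • w ∈ W i)) := by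
  intro n
  induction n with
  | zero =>
    intro W₀ h0V h₀ hcard
    have hWV : W₀ = V :=
      AddSubgroup.eq_of_le_of_card_ge h0V (Nat.sub_eq_zero_iff_le.1 (Nat.le_zero.1 hcard))
    refine ⟨0, fun _ => V, hWV.symm, rfl, fun i hi => absurd hi (Nat.not_lt_zero i),
      fun _ _ => le_rfl, fun _ _ => hV, fun i hi => absurd hi (Nat.not_lt_zero i),
      fun i hi => absurd hi (Nat.not_lt_zero i)⟩
  | succ n ih =>
    intro W₀ h0V h₀ hcard
    by_cases hWV : W₀ = V
    · refine ⟨0, fun _ => V, hWV.symm, rfl, fun i hi => absurd hi (Nat.not_lt_zero i),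
        fun _ _ => le_rfl, fun _ _ => hV, fun i hi => absurd hi (Nat.not_lt_zero i),
        fun i hi => absurd hi (Nat.not_lt_zero i)⟩
    · obtain ⟨W₁, h01, hne, h1V, h₁, hsimple⟩ := adm_exists_minimal V W₀ h0V hWV hV
      haveI : Finite ↥W₁ := Finite.of_injective _ (AddSubgroup.inclusion_injective h1V)
      have hrW := adm_nsmul_mem_of_minimal (r := r) (k := k) W₀ W₁ h01 hne h₀ h₁
        (fun w hw => hVr w (h1V hw)) hsimple
      have hstep := adm_step χ W₀ W₁ h01 hne h₀ h₁ hrW hsimple (fun g => by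
        obtain ⟨τ, j, m, q, e1, e2, e3, e4⟩ := hfrob g
        exact ⟨τ, j, m, q, fun w hw => e1 w (h1V hw), e2, e3, fun w hw => e4 w (h1V hw)⟩)
      have hlt : Nat.card ↥W₀ < Nat.card ↥W₁ := by
        refine lt_of_le_of_ne (AddSubgroup.card_le_of_le h01) (fun h => hne ?_)
        exact AddSubgroup.eq_of_le_of_card_ge h01 h.ge
      have hle : Nat.card ↥W₁ ≤ Nat.card ↥V := AddSubgroup.card_le_of_le h1V
      obtain ⟨L', W', hW'0, hW'L, hW'mono, hW'V, hW'G, hW'idx, hW'act⟩ :=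
        ih W₁ h1V h₁ (by omega)
      refine ⟨L' + 1, fun i => if i = 0 then W₀ else W' (i - 1), ?_, ?_, ?_, ?_, ?_, ?_, ?_⟩
      · simp
      · simp [hW'L]
      · intro i hi
        rcases Nat.eq_zero_or_pos i with rfl | hipos
        · simp only [if_true, zero_add, Nat.one_ne_zero, if_false, Nat.sub_self, hW'0]
          exact h01
        · have e1 : i - 1 + 1 = i := Nat.sub_add_cancel hipos
          simp only [hipos.ne', if_false, Nat.add_sub_cancel, Nat.succ_ne_zero]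
          have := hW'mono (i - 1) (by omega)
          rwa [e1] at this
      · intro i hi
        rcases Nat.eq_zero_or_pos i with rfl | hipos
        · simp only [if_true]
          exact h0V
        · simp only [hipos.ne', if_false]
          exact hW'V (i - 1) (by omega)
      · intro i hi
        rcases Nat.eq_zero_or_pos i with rfl | hipos
        · simp only [if_true]
          exact h₀
        · simp only [hipos.ne', if_false]
          exact hW'G (i - 1) (by omega)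
      · intro i hi
        rcases Nat.eq_zero_or_pos i with rfl | hipos
        · simp only [if_true, zero_add, Nat.one_ne_zero, if_false, Nat.sub_self, hW'0]
          exact hstep.1
        · have e1 : i - 1 + 1 = i := Nat.sub_add_cancel hipos
          simp only [hipos.ne', if_false, Nat.add_sub_cancel, Nat.succ_ne_zero]
          have := hW'idx (i - 1) (by omega)
          rwa [e1] at this
      · intro i hi
        rcases Nat.eq_zero_or_pos i with rfl | hipos
        · simp only [if_true, zero_add, Nat.one_ne_zero, if_false, Nat.sub_self, hW'0]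
          exact hstep.2
        · have e1 : i - 1 + 1 = i := Nat.sub_add_cancel hipos
          simp only [hipos.ne', if_false, Nat.add_sub_cancel, Nat.succ_ne_zero]
          have := hW'act (i - 1) (by omega)
          rwa [e1] at this

/-- **ADM, chain form.**  A finite `G`-stable subgroup `V ≤ J` killed by `r ^ k` on which every
`g ∈ G` acts like a power of some `τ` with `((τ - 1)(τ - q)) ^ m = 0`, `q ≡ χ τ`, has a composition
series of `G`-stable subgroups with steps of index `r` on which `G` acts trivially or through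
`χ`. -/
theorem adm_chain (χ : G →* (ZMod r)ˣ) (V : AddSubgroup J) [Finite ↥V]
    (hV : ∀ σ : G, ∀ v ∈ V, σ • v ∈ V) (k : ℕ) (hVr : ∀ v ∈ V, r ^ k • v = 0)
    (hfrob : ∀ g : G, ∃ (τ : G) (j m q : ℕ), (∀ v ∈ V, g • v = τ ^ j • v) ∧ χ g = χ τ ^ j ∧
      (q : ZMod r) = (χ τ : ZMod r) ∧ ∀ v ∈ V, (admE τ q)^[m] v = 0) :
    ∃ (L : ℕ) (W : ℕ → AddSubgroup J), W 0 = ⊥ ∧ W L = V ∧ (∀ i < L, W i ≤ W (i + 1)) ∧
      (∀ i ≤ L, W i ≤ V) ∧ (∀ i ≤ L, ∀ σ : G, ∀ w ∈ W i, σ • w ∈ W i) ∧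
      (∀ i < L, (W i).relIndex (W (i + 1)) = r) ∧
      (∀ i < L, (∀ σ : G, ∀ w ∈ W (i + 1), σ • w - w ∈ W i) ∨
        (∀ σ : G, ∀ w ∈ W (i + 1), σ • w - ((χ σ : ZMod r).val) • w ∈ W i)) :=
  adm_chain_aux χ V hV k hVr hfrob (Nat.card ↥V) ⊥ bot_le
    (fun σ w hw => by
      rw [AddSubgroup.mem_bot] at hw ⊢
      rw [hw, smul_zero])
    (Nat.sub_le _ _)

end chain

end Fermat.Agent.S15


end ZBZ2S15_041_1

/-! ### bundled: `Fermat.Agent.S15.SelEisAbs` -/
section ZBZ2S15_041_2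
/-
S15 / SELMER block, piece **SEL-EIS**, abstract part (helper72).

* `seleis_exists_hom`  : a group of prime order `r` embeds additively into `ZMod r`;
* `seleis_exists_char` : a step `W ≤ W'` of index `r` on which `G_ℚ` acts through the mod `r`
  cyclotomic character carries an equivariant character `ψ : W' → μ_r` with kernel `W`;
* `seleis_uniform`     : on a finite set, pointwise nilpotent ⇒ uniformly nilpotent;
* `seleis_admE_iterate`: `((τ - 1)(τ - q)) ^ n = t ^ n τ ^ n` if `τ² - T τ + q = 0`, `t = T - (1 + q)`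
  commutes with `τ`.
-/

set_option autoImplicit false
set_option linter.style.haveILetI false

namespace Fermat.Agent.S15

/-! ### Groups of prime order -/

/-- a group of prime order `r` embeds into `ZMod r` -/
theorem seleis_exists_hom {r : ℕ} [hr : Fact r.Prime] {Q : Type*} [AddCommGroup Q]
    (hcard : Nat.card Q = r) : ∃ φ : Q →+ ZMod r, Function.Injective φ := by
  haveI : Finite Q := Nat.finite_of_card_ne_zero (by rw [hcard]; exact hr.out.ne_zero)
  haveI : Nontrivial Q := by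
    rw [← Finite.one_lt_card_iff_nontrivial, hcard]
    exact hr.out.one_lt
  obtain ⟨x₁, hx₁⟩ := exists_ne (0 : Q)
  have hrx : ∀ x : Q, r • x = 0 := fun x => by
    rw [← hcard]
    exact card_nsmul_eq_zero'
  let f₀ : {f : ℤ →+ Q // f r = 0} := ⟨zmultiplesHom Q x₁, by
    show (r : ℤ) • x₁ = 0
    rw [natCast_zsmul]
    exact hrx x₁⟩
  let f : ZMod r →+ Q := ZMod.lift r f₀
  have hinj : Function.Injective f := by
    rw [ZMod.lift_injective]
    intro m hm
    have hm' : m • x₁ = 0 := hm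
    rw [ZMod.intCast_zmod_eq_zero_iff_dvd]
    by_contra hnd
    have hcop : IsCoprime (r : ℤ) m :=
      (Nat.prime_iff_prime_int.1 hr.out).coprime_iff_not_dvd.2 hnd
    obtain ⟨a, b, hab⟩ := hcop
    apply hx₁
    have : ((a * (r : ℤ) + b * m : ℤ)) • x₁ = 0 := by
      rw [add_smul, mul_smul, mul_smul, natCast_zsmul, hrx, smul_zero, hm', smul_zero, add_zero]
    rw [hab, one_smul] at this
    exact this
  have hbij : Function.Bijective f :=
    hinj.bijective_of_nat_card_le (by rw [hcard, Nat.card_zmod])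
  let e : ZMod r ≃+ Q := AddEquiv.ofBijective f hbij
  exact ⟨e.symm.toAddMonoidHom, e.symm.injective⟩

/-! ### The character of a cyclotomic step -/

section char

variable {J : Type*} [AddCommGroup J]
  [DistribMulAction (AlgebraicClosure ℚ ≃ₐ[ℚ] AlgebraicClosure ℚ) J]
  {r : ℕ} [hr : Fact r.Prime]

/-- powers of an `r`-th root of unity only depend on the exponent in `ZMod r` -/
theorem seleis_pow_congr {R : Type*} [Monoid R] {z : R} (hz : z ^ r = 1) {a b : ℕ}
    (h : (a : ZMod r) = (b : ZMod r)) : z ^ a = z ^ b :=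
  pow_eq_pow_of_modEq ((ZMod.natCast_eq_natCast_iff a b r).1 h) hz

/-- **the character of a cyclotomic step** -/
theorem seleis_exists_char (χ : (AlgebraicClosure ℚ ≃ₐ[ℚ] AlgebraicClosure ℚ) →* (ZMod r)ˣ)
    (ζ : AlgebraicClosure ℚ) (hζ : IsPrimitiveRoot ζ r)
    (hχ : ∀ σ : AlgebraicClosure ℚ ≃ₐ[ℚ] AlgebraicClosure ℚ, σ ζ = ζ ^ ((χ σ : ZMod r).val))
    (W W' : AddSubgroup J) (hidx : W.relIndex W' = r)
    (hstab : ∀ σ : AlgebraicClosure ℚ ≃ₐ[ℚ] AlgebraicClosure ℚ, ∀ w ∈ W', σ • w ∈ W')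
    (hact : ∀ σ : AlgebraicClosure ℚ ≃ₐ[ℚ] AlgebraicClosure ℚ, ∀ w ∈ W',
      σ • w - ((χ σ : ZMod r).val) • w ∈ W) :
    ∃ ψ : J → AlgebraicClosure ℚ, (∀ u ∈ W', ∀ v ∈ W', ψ (u + v) = ψ u * ψ v) ∧ ψ 0 = 1 ∧
      (∀ σ : AlgebraicClosure ℚ ≃ₐ[ℚ] AlgebraicClosure ℚ, ∀ v ∈ W', ψ (σ • v) = σ (ψ v)) ∧
      ∀ w ∈ W', ψ w = 1 ↔ w ∈ W := by
  classical
  haveI : NeZero r := ⟨hr.out.ne_zero⟩
  set N : AddSubgroup ↥W' := W.addSubgroupOf W' with hN
  have hcard : Nat.card (↥W' ⧸ N) = r := by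
    rw [← AddSubgroup.index_eq_card]
    exact hidx
  obtain ⟨φ, hφ⟩ := seleis_exists_hom hcard
  have hmk0 : ∀ w : ↥W', (QuotientAddGroup.mk w : ↥W' ⧸ N) = 0 ↔ (w : J) ∈ W := by
    intro w
    rw [QuotientAddGroup.eq_zero_iff]
    exact AddSubgroup.mem_addSubgroupOf
  -- the map `W' → ZMod r`
  let ν : ↥W' →+ ZMod r := φ.comp (QuotientAddGroup.mk' N)
  have hν0 : ∀ w : ↥W', ν w = 0 ↔ (w : J) ∈ W := by
    intro w
    show φ (QuotientAddGroup.mk w) = 0 ↔ _
    rw [← hmk0, ← map_zero φ]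
    exact hφ.eq_iff
  have hζr : ζ ^ r = 1 := hζ.pow_eq_one
  refine ⟨fun x => if h : x ∈ W' then ζ ^ (ν ⟨x, h⟩).val else 1, ?_, ?_, ?_, ?_⟩
  · intro u hu v hv
    have huv : u + v ∈ W' := W'.add_mem hu hv
    simp only [dif_pos hu, dif_pos hv, dif_pos huv]
    rw [← pow_add]
    apply seleis_pow_congr hζr
    have e : (⟨u + v, huv⟩ : ↥W') = ⟨u, hu⟩ + ⟨v, hv⟩ := rfl
    rw [e, map_add, Nat.cast_add, ZMod.natCast_zmod_val, ZMod.natCast_zmod_val,
      ZMod.natCast_zmod_val]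
  · simp only [dif_pos W'.zero_mem]
    have e : (⟨0, W'.zero_mem⟩ : ↥W') = 0 := rfl
    rw [e, map_zero, ZMod.val_zero, pow_zero]
  · intro σ v hv
    have hσv : σ • v ∈ W' := hstab σ v hv
    simp only [dif_pos hv, dif_pos hσv]
    rw [map_pow, hχ σ, ← pow_mul]
    apply seleis_pow_congr hζr
    have h1 : ν ⟨σ • v, hσv⟩ = ν (((χ σ : ZMod r).val) • (⟨v, hv⟩ : ↥W')) := by
      rw [← sub_eq_zero, ← map_sub, hν0]
      show σ • v - ((χ σ : ZMod r).val) • v ∈ W
      exact hact σ v hv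
    rw [h1, map_nsmul, Nat.cast_mul, ZMod.natCast_zmod_val, ZMod.natCast_zmod_val,
      ZMod.natCast_zmod_val, nsmul_eq_mul, ZMod.natCast_zmod_val]
  · intro w hw
    simp only [dif_pos hw]
    rw [hζ.pow_eq_one_iff_dvd, ← hν0 ⟨w, hw⟩]
    constructor
    · intro h
      have hlt : (ν ⟨w, hw⟩).val < r := ZMod.val_lt _
      have h0 : (ν ⟨w, hw⟩).val = 0 := Nat.eq_zero_of_dvd_of_lt h hlt
      exact (ZMod.val_eq_zero _).1 h0
    · intro h
      rw [h, ZMod.val_zero]
      exact dvd_zero r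

end char

/-! ### Nilpotency -/

section nilp

variable {J : Type*} [AddCommGroup J]

/-- on a finite set, a pointwise nilpotent endomorphism is uniformly nilpotent -/
theorem seleis_uniform (t : Module.End ℤ J) {V : Set J} (hV : V.Finite)
    (h : ∀ y ∈ V, ∃ m : ℕ, (t ^ m) y = 0) : ∃ n : ℕ, ∀ y ∈ V, (t ^ n) y = 0 := by
  induction V, hV using Set.Finite.induction_on with
  | empty => exact ⟨0, fun y hy => absurd hy (Set.notMem_empty y)⟩
  | @insert a s _ _ ih =>
    obtain ⟨n, hn⟩ := ih (fun y hy => h y (Set.mem_insert_of_mem a hy))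
    obtain ⟨m, hm⟩ := h a (Set.mem_insert a s)
    refine ⟨m + n, fun y hy => ?_⟩
    rcases Set.mem_insert_iff.1 hy with rfl | hy
    · rw [add_comm, pow_add, Module.End.mul_apply, hm, map_zero]
    · rw [pow_add, Module.End.mul_apply, hn y hy, map_zero]

variable {G : Type*} [Group G] [DistribMulAction G J]

/-- `((τ - 1)(τ - q)) ^ n = t ^ n ∘ τ ^ n` on the `M`-torsion, if `(τ - 1)(τ - q) = t ∘ τ` there and
`t` commutes with `τ`. -/
theorem seleis_admE_iterate (τ : G) (q : ℕ) (t : Module.End ℤ J) (M : ℕ)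
    (hcomm : ∀ x : J, t (τ • x) = τ • t x)
    (hE : ∀ x : J, M • x = 0 → admE τ q x = t (τ • x)) :
    ∀ n : ℕ, ∀ x : J, M • x = 0 → (admE τ q)^[n] x = (t ^ n) (τ ^ n • x) := by
  have hpow : ∀ n : ℕ, ∀ x : J, (t ^ n) (τ • x) = τ • (t ^ n) x := by
    intro n
    induction n with
    | zero => intro x; rfl
    | succ n ih =>
      intro x
      rw [pow_succ, Module.End.mul_apply, Module.End.mul_apply, hcomm, ih]
  have htors : ∀ n : ℕ, ∀ x : J, M • x = 0 → M • ((t ^ n) (τ ^ n • x)) = 0 := by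
    intro n x hx
    rw [← map_nsmul, ← smul_comm, hx, smul_zero, map_zero]
  intro n
  induction n with
  | zero => intro x _; simp
  | succ n ih =>
    intro x hx
    rw [Function.iterate_succ_apply', ih x hx, hE _ (htors n x hx), ← hpow, ← mul_smul,
      ← pow_succ', pow_succ' t, Module.End.mul_apply]

end nilp

end Fermat.Agent.S15


end ZBZ2S15_041_2
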