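/- GENERATED FILE (helper35, build-time optimisation, NOTES/ZB.md): verbatim concatenation of the modules
   Fermat.Agent.S15.RealTrAbs
   Do not edit; do not import together with these modules. -/
import Mathlib
import Fermat.Agent.ZB.ES_008

/-! ### bundled: `Fermat.Agent.S15.RealTrAbs` -/
section ZBZ2S15_046_0

/-!
# S15 / SEL-CNT / REAL: piece REAL-TR, the abstract base-change step (helper82)

For a finitely generated group `G` and `P ⊆ G`, let `H = intHoms G P` (`ES/EigenLattice.lean`) and
let `V` be the space of homomorphisms `G → ℂ` vanishing on `P`.  If an endomorphism `t` of `H` and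
an endomorphism `tC` of `V` correspond under the cast `H → V`, then `tr_ℂ tC = tr_ℤ t`
(`realtr_trace_cast`).
-/

set_option autoImplicit false

noncomputable section

namespace Fermat.Agent.S15

open Fermat.Agent.ES

section Generic

variable {G : Type*} [Group G] (P : Set G)

/-- the cast of a `ℤ`-combination -/
theorem realtr_castHomC_sum {n : ℕ} (c : Fin n → ℤ) (φ : Fin n → (Additive G →+ ℤ)) :
    castHomC (∑ k, c k • φ k) = ∑ k, ((c k : ℤ) : ℂ) • castHomC (φ k) := by
  rw [map_sum]
  refine Finset.sum_congr rfl (fun k _ => ?_)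
  refine DFunLike.ext _ _ (fun g => ?_)
  simp [castHomC_apply]

variable {P}

/-- **Base change of the trace.**  An endomorphism of the lattice of integral homomorphisms
vanishing on `P` and an endomorphism of the complex homomorphisms vanishing on `P` which correspond
under the cast have the same trace. -/
theorem realtr_trace_cast [Group.FG G] (V : Submodule ℂ (Additive G →+ ℂ))
    (hV : ∀ v : Additive G →+ ℂ, v ∈ V ↔ ∀ g ∈ P, v (Additive.ofMul g) = 0)
    (t : Module.End ℤ (intHoms G P)) (tC : Module.End ℂ V)
    (h : ∀ (x : intHoms G P) (y : V), (y : Additive G →+ ℂ) = castHomC (x : Additive G →+ ℤ) →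
      ((tC y : V) : Additive G →+ ℂ) = castHomC ((t x : intHoms G P) : Additive G →+ ℤ)) :
    LinearMap.trace ℂ V tC = ((LinearMap.trace ℤ (intHoms G P) t : ℤ) : ℂ) := by
  classical
  have hfin := finite_intHoms G P
  have hfree := free_intHoms G P
  let b := Module.finBasis ℤ (intHoms G P)
  -- the complex family
  have hmemV : ∀ x : intHoms G P, castHomC (x : Additive G →+ ℤ) ∈ V := by
    intro x
    rw [hV]
    intro g hg
    rw [castHomC_apply, x.2 g hg, Int.cast_zero]
  let vC : Fin (Module.finrank ℤ (intHoms G P)) → V :=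
    fun k => ⟨castHomC ((b k : intHoms G P) : Additive G →+ ℤ), hmemV (b k)⟩
  have hb' : LinearIndependent ℤ
      (fun k => ((b k : intHoms G P) : Additive G →+ ℤ)) :=
    b.linearIndependent.map' (intHoms G P).subtype (Submodule.ker_subtype _)
  have hliC : LinearIndependent ℂ vC := by
    have h1 := linearIndependent_castHomC _ hb'
    exact LinearIndependent.of_comp V.subtype h1
  -- coordinates of a cast
  have hcoord : ∀ (x : intHoms G P) (y : V),
      (y : Additive G →+ ℂ) = castHomC (x : Additive G →+ ℤ) →
      y = ∑ k, ((b.repr x k : ℤ) : ℂ) • vC k := by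
    intro x y hxy
    apply Subtype.ext
    rw [hxy, Submodule.coe_sum]
    have h1 : (x : Additive G →+ ℤ) = ∑ k, (b.repr x k) • ((b k : intHoms G P) : Additive G →+ ℤ) := by
      conv_lhs => rw [← b.sum_repr x]
      rw [Submodule.coe_sum]
      rfl
    conv_lhs => rw [h1]
    rw [realtr_castHomC_sum]
    rfl
  have hspC : ⊤ ≤ Submodule.span ℂ (Set.range vC) := by
    intro v _
    have h1 := mem_span_range_castHomC (P := P) (v : Additive G →+ ℂ) ((hV _).1 v.2)
    have h2 : Submodule.span ℂ (Set.range fun x : intHoms G P => castHomC (x : Additive G →+ ℤ))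
        ≤ (Submodule.span ℂ (Set.range vC)).map V.subtype := by
      rw [Submodule.span_le]
      rintro _ ⟨x, rfl⟩
      refine ⟨⟨castHomC (x : Additive G →+ ℤ), hmemV x⟩, ?_, rfl⟩
      rw [SetLike.mem_coe, hcoord x ⟨castHomC (x : Additive G →+ ℤ), hmemV x⟩ rfl]
      exact Submodule.sum_mem _ (fun k _ => Submodule.smul_mem _ _ (Submodule.subset_span ⟨k, rfl⟩))
    obtain ⟨y, hy, hyv⟩ := h2 h1
    have : y = v := Subtype.ext hyv
    rw [← this]
    exact hy
  let bC : Module.Basis (Fin (Module.finrank ℤ (intHoms G P))) ℂ V := Module.Basis.mk hliC hspC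
  have hbC : ∀ k, bC k = vC k := fun k => Module.Basis.mk_apply hliC hspC k
  rw [LinearMap.trace_eq_matrix_trace ℂ bC tC, LinearMap.trace_eq_matrix_trace ℤ b t,
    Matrix.trace, Matrix.trace, Int.cast_sum]
  refine Finset.sum_congr rfl (fun i _ => ?_)
  rw [Matrix.diag_apply, Matrix.diag_apply, LinearMap.toMatrix_apply, LinearMap.toMatrix_apply]
  have h1 := hcoord (t (b i)) (tC (bC i)) (h (b i) (bC i) (by rw [hbC]))
  have h2 : bC.repr (tC (bC i)) = bC.repr (∑ k, ((b.repr (t (b i)) k : ℤ) : ℂ) • bC k) := by
    rw [h1]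
    simp only [hbC]
  rw [h2, Module.Basis.repr_sum_self]

end Generic

end Fermat.Agent.S15

end
end ZBZ2S15_046_0
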