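/- GENERATED FILE (helper35, build-time optimisation, NOTES/ZB.md): verbatim concatenation of the modules
   Fermat.Agent.S15.RealAlgPlan
   Fermat.Agent.S15.RealTr
   Fermat.Agent.S15.RealAlg
   Do not edit; do not import together with these modules. -/
import Mathlib
import Fermat.Agent.ZB.Z2S15_046
import Fermat.Agent.ZB.ES_009
import Fermat.Agent.ZB.S21_004
import Fermat.Agent.ZB.S41_002

/-! ### bundled: `Fermat.Agent.S15.RealAlgPlan` -/
section ZBZ2S15_044_0

/-!
# S15 / SEL-CNT / REAL: the pure-algebra piece REAL-ALG, exact statement (helper6)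

`H` a free `ℤ`-module of finite rank, `T x` (`x : X`) commuting endomorphisms, `ι` an involution
commuting with them, such that `tr (t * ι) = 0` for every polynomial `t` in the `T x`.
For a prime `r` and `n : ℕ`:

* `realPowSub H r n`     : `r ^ n • H`;
* `realEisSub T r n`     : the `φ ∈ H` such that for every `x` some power of `T x` maps `φ` into
  `r ^ n • H` (the lifts of the common generalised kernel of the `T x` on `H / r ^ n H`);
* `realEisFix T ι r n`   : the `φ` therein with `ι φ = φ`.

`StmtRealAlg` : `[realEisSub : r ^ n H] ≤ r ^ a * [realEisFix + r ^ n H : r ^ n H] ^ 2`, with `a`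
independent of `n`.

Proof (sketch).  On the finite group `H / r ^ n H` a product `e = ∏ (1 - (T x) ^ N)` over finitely
many `x` is an idempotent with image the common generalised kernel (Fitting); `e` is a polynomial
in the `T x`.  `H⁺ := ker (ι - 1)` is saturated, so `H⁺ / r ^ n H⁺ ↪ H / r ^ n H`, and `e` is an
idempotent of the free `ℤ / r ^ n`-modules `H / r ^ n` and `H⁺ / r ^ n`; the image of an idempotent
of a free module over the local ring `ℤ / r ^ n` is free of rank `ρ` with `(ρ : ℤ / r ^ n) = tr e`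
(`LinearMap.IsProj.trace`).  Over `ℤ`: `tr (e | H) = tr (e | H⁺) + tr (e | H / H⁺)` and
`0 = tr (e ι | H) = tr (e | H⁺) - tr (e | H / H⁺)` (`ι = -1` on `H / H⁺`), so
`tr (e | H) = 2 tr (e | H⁺)`, hence `ρ ≡ 2 ρ⁺ mod r ^ n`, and `ρ = 2 ρ⁺` as soon as
`r ^ n > 2 rank H`.  For the finitely many smaller `n` the index is at most `(2 rank H) ^ rank H`.
-/

set_option autoImplicit false

namespace Fermat.Agent.S15

/-- `r ^ n • H` -/
def realPowSub (H : Type*) [AddCommGroup H] (r n : ℕ) : AddSubgroup H :=
  (nsmulAddMonoidHom (α := H) (r ^ n)).range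

theorem mem_realPowSub {H : Type*} [AddCommGroup H] {r n : ℕ} {φ : H} :
    φ ∈ realPowSub H r n ↔ ∃ ψ : H, r ^ n • ψ = φ := Iff.rfl

theorem realPowSub_apply_mem {H : Type*} [AddCommGroup H] {r n : ℕ} (t : Module.End ℤ H)
    {φ : H} (hφ : φ ∈ realPowSub H r n) : t φ ∈ realPowSub H r n := by
  obtain ⟨ψ, rfl⟩ := hφ
  exact ⟨t ψ, (map_nsmul t (r ^ n) ψ).symm⟩

/-- the lifts to `H` of the common generalised kernel of the `T x` on `H / r ^ n H` -/
def realEisSub {H : Type*} [AddCommGroup H] {X : Type*} (T : X → Module.End ℤ H) (r n : ℕ) :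
    AddSubgroup H where
  carrier := {φ | ∀ x : X, ∃ m : ℕ, (T x ^ m) φ ∈ realPowSub H r n}
  zero_mem' := fun _ => ⟨0, by simp only [map_zero]; exact (realPowSub H r n).zero_mem⟩
  add_mem' := by
    intro a b ha hb x
    obtain ⟨m, hm⟩ := ha x
    obtain ⟨m', hm'⟩ := hb x
    refine ⟨m + m', ?_⟩
    rw [map_add]
    refine (realPowSub H r n).add_mem ?_ ?_
    · rw [add_comm, pow_add, Module.End.mul_apply]
      exact realPowSub_apply_mem _ hm
    · rw [pow_add, Module.End.mul_apply]
      exact realPowSub_apply_mem _ hm'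
  neg_mem' := by
    intro a ha x
    obtain ⟨m, hm⟩ := ha x
    exact ⟨m, by rw [map_neg]; exact (realPowSub H r n).neg_mem hm⟩

theorem mem_realEisSub {H : Type*} [AddCommGroup H] {X : Type*} {T : X → Module.End ℤ H}
    {r n : ℕ} {φ : H} :
    φ ∈ realEisSub T r n ↔ ∀ x : X, ∃ m : ℕ, (T x ^ m) φ ∈ realPowSub H r n := Iff.rfl

theorem realPowSub_le_realEisSub {H : Type*} [AddCommGroup H] {X : Type*}
    (T : X → Module.End ℤ H) (r n : ℕ) : realPowSub H r n ≤ realEisSub T r n :=
  fun _ hφ _ => ⟨0, by simpa using hφ⟩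

/-- the elements of `realEisSub` fixed by `ι` -/
def realEisFix {H : Type*} [AddCommGroup H] {X : Type*} (T : X → Module.End ℤ H)
    (ι : Module.End ℤ H) (r n : ℕ) : AddSubgroup H :=
  realEisSub T r n ⊓ (ι - 1 : Module.End ℤ H).toAddMonoidHom.ker

theorem mem_realEisFix {H : Type*} [AddCommGroup H] {X : Type*} {T : X → Module.End ℤ H}
    {ι : Module.End ℤ H} {r n : ℕ} {φ : H} :
    φ ∈ realEisFix T ι r n ↔ φ ∈ realEisSub T r n ∧ ι φ = φ := by
  rw [realEisFix, AddSubgroup.mem_inf, AddMonoidHom.mem_ker]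
  refine and_congr Iff.rfl ?_
  show (ι - 1 : Module.End ℤ H) φ = 0 ↔ ι φ = φ
  rw [LinearMap.sub_apply, Module.End.one_apply, sub_eq_zero]

/-- **REAL-ALG** (pure algebra): if `tr (t ι) = 0` for every polynomial `t` in the commuting
operators `T x`, then up to a bounded factor the `ι`-fixed part is at least the "square root" of
the common generalised kernel of the `T x` on `H / r ^ n H`. -/
def StmtRealAlg : Prop :=
  ∀ (H : Type) [AddCommGroup H] [Module.Free ℤ H] [Module.Finite ℤ H]
    (X : Type) (T : X → Module.End ℤ H) (ι : Module.End ℤ H),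
    (∀ x y : X, Commute (T x) (T y)) → (∀ x : X, Commute (T x) ι) → ι * ι = 1 →
    (∀ t ∈ Algebra.adjoin ℤ (Set.range T), LinearMap.trace ℤ H (t * ι) = 0) →
    ∀ r : ℕ, r.Prime → ∃ a : ℕ, ∀ n : ℕ,
      (realPowSub H r n).relIndex (realEisSub T r n) ≤
        r ^ a * ((realPowSub H r n).relIndex (realEisFix T ι r n ⊔ realPowSub H r n)) ^ 2

end Fermat.Agent.S15


end ZBZ2S15_044_0

/-! ### bundled: `Fermat.Agent.S15.RealTr` -/
section ZBZ2S15_044_1

/-!
# S15 / SEL-CNT / REAL: piece REAL-TR (helper82)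

`H = RealtrH M = intHoms (Gamma0 M) (parabolicSet M)` is the lattice of integral parabolic
homomorphisms of `Γ₀(M)`.  On it act

* `realtrHecke M p ℓ` : the good Hecke operators `T_ℓ`, `ℓ ∤ M p` (restriction of `ES.heckeOp`);
* `realtrWordHom M p` : the words in them (`= ES.wordOp` on the underlying homomorphisms);
* `realtrInv M`       : the involution `φ ↦ φ ∘ jConjGamma0` (restriction of `charInvolution`).

Results:

* `realtr_trace_word`   : `tr_ℤ (w · ι | H) = 0` for every word `w`;
* `realtr_trace_adjoin` : `tr_ℤ (t · ι | H) = 0` for every `t` in the `ℤ`-algebra generated by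
  the `T_ℓ`;
* `realtr_hecke_commute`, `realtr_hecke_commute_inv`, `realtr_inv_mul_inv` : the `T_ℓ` commute
  with each other and with `ι`, and `ι² = 1`;
* `realtr_hyps`, `realtr_hyps_neg` : all hypotheses of `StmtRealAlg` for every family `T x` in the
  algebra generated by the `T_ℓ`, for `ι` and for `-ι`;
* `realtr_of_realAlg` : the conclusion of `StmtRealAlg` for `H`.

Proof of the trace formula: by S21 the map `(f, g) ↦ (1 + ι) P_f + (1 - ι) P_g` is an isomorphism
`S₂ × S₂ ≃ Hom_par(Γ₀(M), ℂ)`; words commute with `ι` and with the period map, so `w · ι`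
corresponds to `(w, -w)`, of trace `0`; and the trace over `ℤ` on `H` is the trace over `ℂ` on
`Hom_par(Γ₀(M), ℂ)` (`realtr_trace_cast`).
-/

set_option autoImplicit false

noncomputable section

namespace Fermat.Agent.S15

open CongruenceSubgroup ModularCurve ModularCurve.Period Fermat.Agent.ES
open scoped MatrixGroups

variable (M p : ℕ)

/-- the lattice of integral parabolic homomorphisms of `Γ₀(M)` -/
abbrev RealtrH : Type := ↥(intHoms (Gamma0 M) (parabolicSet M))

variable {M p}

/-! ### Words, the involution and parabolic homomorphisms -/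

/-- words commute with the involution, for every coefficient group -/
theorem realtr_wordOp_charInv (A : Type) [AddCommGroup A] (R : Type) [Semiring R] [Module R A]
    (w : FreeAlgebra ℤ (GoodPrime M p)) (ψ : Additive (Gamma0 M) →+ A) :
    wordOp (heckeOp M p) A w (charInvolution M R A ψ) =
      charInvolution M R A (wordOp (heckeOp M p) A w ψ) := by
  induction w using FreeAlgebra.induction generalizing ψ with
  | grade0 r =>
    rw [AlgHom.commutes, Module.algebraMap_end_apply, Module.algebraMap_end_apply]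
    rfl
  | grade1 ℓ =>
    have : Fact ((ℓ : Nat.Primes) : ℕ).Prime := ⟨ℓ.1.2⟩
    rw [wordOp_ι, wordOp_ι, heckeOp_apply, heckeOp_apply]
    exact Fermat.Agent.S41.heckeHom_comp_jConj (GoodPrime.not_dvd ℓ) ψ
  | mul a b ha hb =>
    rw [map_mul, Module.End.mul_apply, Module.End.mul_apply, hb, ha]
  | add a b ha hb =>
    rw [map_add, LinearMap.add_apply, LinearMap.add_apply, ha, hb]
    rfl

/-- words preserve parabolic homomorphisms, for every coefficient group -/
theorem realtr_wordOp_par (A : Type) [AddCommGroup A]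
    (w : FreeAlgebra ℤ (GoodPrime M p)) (φ : Additive (Gamma0 M) →+ A)
    (hφ : IsParabolicHom (Gamma0 M) φ) :
    IsParabolicHom (Gamma0 M) (wordOp (heckeOp M p) A w φ) := by
  refine wordOp_mem (T := heckeOp M p) (parabolicHoms ℤ (Gamma0 M) A).toAddSubgroup ?_ w φ hφ
  intro ℓ ψ hψ
  have : Fact ((ℓ : Nat.Primes) : ℕ).Prime := ⟨ℓ.1.2⟩
  show IsParabolicHom (Gamma0 M) (heckeOp M p ℓ A ψ)
  rw [heckeOp_apply]
  exact HeckeP.heckeHom_isParabolicHom (GoodPrime.not_dvd ℓ) hψ

/-- the involution preserves parabolic homomorphisms -/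
theorem realtr_charInv_par (A : Type) [AddCommGroup A] (R : Type) [Semiring R] [Module R A]
    (φ : Additive (Gamma0 M) →+ A) (hφ : IsParabolicHom (Gamma0 M) φ) :
    IsParabolicHom (Gamma0 M) (charInvolution M R A φ) :=
  charInvolution_mem_parabolicHoms M R A hφ

/-! ### The operators on the lattice -/

variable (M p)

/-- the good Hecke operator `T_ℓ` on the lattice -/
def realtrHecke (ℓ : GoodPrime M p) : Module.End ℤ (RealtrH M) :=
  (heckeOp M p ℓ ℤ).toIntLinearMap.restrict (p := intHoms (Gamma0 M) (parabolicSet M))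
    (fun φ hφ => by
      have h := realtr_wordOp_par (p := p) ℤ (FreeAlgebra.ι ℤ ℓ) φ hφ
      rwa [wordOp_ι] at h)

/-- the action of words in the good Hecke operators on the lattice -/
def realtrWordHom : FreeAlgebra ℤ (GoodPrime M p) →ₐ[ℤ] Module.End ℤ (RealtrH M) :=
  FreeAlgebra.lift ℤ (realtrHecke M p)

/-- the involution `φ ↦ φ ∘ jConjGamma0` on the lattice -/
def realtrInv : Module.End ℤ (RealtrH M) :=
  (charInvolution M ℤ ℤ).restrict (p := intHoms (Gamma0 M) (parabolicSet M))
    (fun φ hφ => realtr_charInv_par ℤ ℤ φ hφ)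

variable {M p}

@[simp] theorem realtrHecke_coe (ℓ : GoodPrime M p) (x : RealtrH M) :
    ((realtrHecke M p ℓ x : RealtrH M) : Additive (Gamma0 M) →+ ℤ) =
      heckeOp M p ℓ ℤ (x : Additive (Gamma0 M) →+ ℤ) := rfl

@[simp] theorem realtrInv_coe (x : RealtrH M) :
    ((realtrInv M x : RealtrH M) : Additive (Gamma0 M) →+ ℤ) =
      charInvolution M ℤ ℤ (x : Additive (Gamma0 M) →+ ℤ) := rfl

@[simp] theorem realtrWordHom_ι (ℓ : GoodPrime M p) :
    realtrWordHom M p (FreeAlgebra.ι ℤ ℓ) = realtrHecke M p ℓ := by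
  simp [realtrWordHom]

/-- the words act on the lattice through `wordOp` -/
theorem realtrWordHom_coe (w : FreeAlgebra ℤ (GoodPrime M p)) (x : RealtrH M) :
    ((realtrWordHom M p w x : RealtrH M) : Additive (Gamma0 M) →+ ℤ) =
      wordOp (heckeOp M p) ℤ w (x : Additive (Gamma0 M) →+ ℤ) := by
  induction w using FreeAlgebra.induction generalizing x with
  | grade0 r =>
    rw [AlgHom.commutes, AlgHom.commutes, Module.algebraMap_end_apply,
      Module.algebraMap_end_apply]
    rfl
  | grade1 ℓ => rw [realtrWordHom_ι, wordOp_ι, realtrHecke_coe]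
  | mul a b ha hb =>
    rw [map_mul, map_mul, Module.End.mul_apply, Module.End.mul_apply, ha, hb]
  | add a b ha hb =>
    rw [map_add, map_add, LinearMap.add_apply, LinearMap.add_apply, Submodule.coe_add, ha, hb]

/-- every element of the algebra generated by the `T_ℓ` is a word -/
theorem realtr_exists_word {t : Module.End ℤ (RealtrH M)}
    (ht : t ∈ Algebra.adjoin ℤ (Set.range (realtrHecke M p))) :
    ∃ w : FreeAlgebra ℤ (GoodPrime M p), realtrWordHom M p w = t := by
  have h1 : Algebra.adjoin ℤ (Set.range (realtrHecke M p)) ≤ (realtrWordHom M p).range := by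
    refine Algebra.adjoin_le ?_
    rintro _ ⟨ℓ, rfl⟩
    exact ⟨FreeAlgebra.ι ℤ ℓ, realtrWordHom_ι ℓ⟩
  exact h1 ht

/-! ### The complex side -/

section Complex

variable (M p) [NeZero M]

/-- the action of a word on `Hom_par(Γ₀(M), ℂ)` -/
def realtrWordC (w : FreeAlgebra ℤ (GoodPrime M p)) :
    Module.End ℂ (parabolicHoms ℂ (Gamma0 M) ℂ) where
  toFun v := ⟨wordOp (heckeOp M p) ℂ w (v : Additive (Gamma0 M) →+ ℂ),
    realtr_wordOp_par ℂ w _ v.2⟩
  map_add' a b := Subtype.ext (by
    show wordOp (heckeOp M p) ℂ w ((a : Additive (Gamma0 M) →+ ℂ) + b) = _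
    rw [map_add]; rfl)
  map_smul' c a := Subtype.ext (by
    show wordOp (heckeOp M p) ℂ w (c • (a : Additive (Gamma0 M) →+ ℂ)) = _
    rw [wordOp_smul]; rfl)

/-- the involution on `Hom_par(Γ₀(M), ℂ)` -/
def realtrInvC : Module.End ℂ (parabolicHoms ℂ (Gamma0 M) ℂ) :=
  (charInvolution M ℂ ℂ).restrict (p := parabolicHoms ℂ (Gamma0 M) ℂ)
    (fun φ hφ => realtr_charInv_par ℂ ℂ φ hφ)

/-- the Eichler–Shimura isomorphism (S21) -/
def realtrES :
    (CuspForm (Gamma0 M) 2 × CuspForm (Gamma0 M) 2) ≃ₗ[ℂ] parabolicHoms ℂ (Gamma0 M) ℂ :=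
  LinearEquiv.ofBijective
    ((periodHomPair M).codRestrict (parabolicHoms ℂ (Gamma0 M) ℂ)
      (Fermat.Agent.S21.periodHomPair_mem_parabolicHoms M))
    ⟨fun x y h => (Fermat.Agent.S21.result M).1 (congrArg Subtype.val h), fun v => by
      have hv : (v : Additive (Gamma0 M) →+ ℂ) ∈ LinearMap.range (periodHomPair M) := by
        rw [(Fermat.Agent.S21.result M).2]; exact v.2
      obtain ⟨x, hx⟩ := hv
      exact ⟨x, Subtype.ext hx⟩⟩

variable {M p}

theorem realtrES_coe (f g : CuspForm (Gamma0 M) 2) :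
    ((realtrES M (f, g) : parabolicHoms ℂ (Gamma0 M) ℂ) : Additive (Gamma0 M) →+ ℂ) =
      (periodMap M f + charInvolution M ℂ ℂ (periodMap M f))
        + (periodMap M g - charInvolution M ℂ ℂ (periodMap M g)) :=
  Fermat.Agent.S21.periodHomPair_apply M f g

/-- under the Eichler–Shimura isomorphism `w · ι` is `(w, -w)` -/
theorem realtr_wordC_invC_ES (w : FreeAlgebra ℤ (GoodPrime M p))
    (x : CuspForm (Gamma0 M) 2 × CuspForm (Gamma0 M) 2) :
    (realtrWordC M p w * realtrInvC M) (realtrES M x) =
      realtrES M (LinearMap.prodMap (wordForms M p w) (-(wordForms M p w)) x) := by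
  obtain ⟨f, g⟩ := x
  apply Subtype.ext
  rw [LinearMap.prodMap_apply, realtrES_coe, Module.End.mul_apply]
  show wordOp (heckeOp M p) ℂ w (charInvolution M ℂ ℂ
    ((realtrES M (f, g) : parabolicHoms ℂ (Gamma0 M) ℂ) : Additive (Gamma0 M) →+ ℂ)) = _
  rw [realtrES_coe, realtr_wordOp_charInv, map_add, map_add, map_sub, map_add, map_add, map_sub,
    realtr_wordOp_charInv, realtr_wordOp_charInv, charInvolution_charInvolution,
    charInvolution_charInvolution, ← period_wordForms, ← period_wordForms,
    LinearMap.neg_apply]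
  have hneg : periodMap M (-(wordForms M p w) g) = -periodMap M ((wordForms M p w) g) :=
    map_neg (Fermat.Agent.S21.periodMapLinear M) _
  rw [hneg, map_neg]
  abel

/-- **The trace on the complex side.** -/
theorem realtr_traceC (w : FreeAlgebra ℤ (GoodPrime M p)) :
    LinearMap.trace ℂ (parabolicHoms ℂ (Gamma0 M) ℂ) (realtrWordC M p w * realtrInvC M) = 0 := by
  have := Fermat.Agent.S21.finite_addMonoidHom M
  have : Module.Finite ℂ (CuspForm (Gamma0 M) 2 × CuspForm (Gamma0 M) 2) :=
    Module.Finite.of_injective (periodHomPair M) (Fermat.Agent.S21.result M).1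
  have : Module.Finite ℂ (CuspForm (Gamma0 M) 2) :=
    Module.Finite.of_injective (LinearMap.inl ℂ (CuspForm (Gamma0 M) 2) (CuspForm (Gamma0 M) 2))
      LinearMap.inl_injective
  have hconj : realtrWordC M p w * realtrInvC M =
      (realtrES M).conj (LinearMap.prodMap (wordForms M p w) (-(wordForms M p w))) := by
    refine LinearMap.ext (fun v => ?_)
    obtain ⟨x, rfl⟩ := (realtrES M).surjective v
    rw [realtr_wordC_invC_ES, LinearEquiv.conj_apply_apply, LinearEquiv.symm_apply_apply]
  rw [hconj, LinearMap.trace_conj', LinearMap.trace_prodMap', map_neg, add_neg_cancel]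

end Complex

/-! ### The trace on the lattice -/

/-- **REAL-TR.**  The trace of `w · ι` on the lattice of integral parabolic homomorphisms is
zero, for every word `w` in the good Hecke operators. -/
theorem realtr_trace_word [NeZero M] (w : FreeAlgebra ℤ (GoodPrime M p)) :
    LinearMap.trace ℤ (RealtrH M) (realtrWordHom M p w * realtrInv M) = 0 := by
  have hfg : Group.FG (Gamma0 M) :=
    (Group.fg_iff_subgroup_fg _).mpr (Fermat.Agent.S22.gamma0_fg M)
  have h := realtr_trace_cast (G := Gamma0 M) (P := parabolicSet M)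
    (parabolicHoms ℂ (Gamma0 M) ℂ) (fun v => Iff.rfl)
    (realtrWordHom M p w * realtrInv M) (realtrWordC M p w * realtrInvC M)
    (by
      intro x y hxy
      rw [Module.End.mul_apply, Module.End.mul_apply, realtrWordHom_coe, realtrInv_coe]
      show wordOp (heckeOp M p) ℂ w (charInvolution M ℂ ℂ (y : Additive (Gamma0 M) →+ ℂ)) = _
      rw [hxy]
      exact wordOp_natural (T := heckeOp M p)
        (fun ℓ A A' _ _ f ψ => heckeOp_natural ℓ A A' f ψ) w ℤ ℂ (Int.castAddHom ℂ)
        (charInvolution M ℤ ℤ (x : Additive (Gamma0 M) →+ ℤ)))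
  rw [realtr_traceC] at h
  exact_mod_cast h.symm

/-- **REAL-TR**, for the algebra generated by the good Hecke operators. -/
theorem realtr_trace_adjoin [NeZero M] (t : Module.End ℤ (RealtrH M))
    (ht : t ∈ Algebra.adjoin ℤ (Set.range (realtrHecke M p))) :
    LinearMap.trace ℤ (RealtrH M) (t * realtrInv M) = 0 := by
  obtain ⟨w, rfl⟩ := realtr_exists_word ht
  exact realtr_trace_word w

/-! ### Commutation -/

theorem realtr_inv_mul_inv : realtrInv M * realtrInv M = 1 := by
  refine LinearMap.ext (fun x => Subtype.ext ?_)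
  rw [Module.End.mul_apply, realtrInv_coe, realtrInv_coe, charInvolution_charInvolution]
  rfl

/-- words commute with the involution on the lattice -/
theorem realtr_word_commute_inv (w : FreeAlgebra ℤ (GoodPrime M p)) :
    Commute (realtrWordHom M p w) (realtrInv M) := by
  refine LinearMap.ext (fun x => Subtype.ext ?_)
  rw [Module.End.mul_apply, Module.End.mul_apply, realtrWordHom_coe, realtrInv_coe,
    realtrInv_coe, realtrWordHom_coe, realtr_wordOp_charInv]

theorem realtr_hecke_commute_inv (ℓ : GoodPrime M p) :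
    Commute (realtrHecke M p ℓ) (realtrInv M) := by
  rw [← realtrWordHom_ι]
  exact realtr_word_commute_inv _

section Faithful

variable [NeZero M]

/-- under the Eichler–Shimura isomorphism a word `w` is `(w, w)` -/
theorem realtr_wordC_ES (w : FreeAlgebra ℤ (GoodPrime M p))
    (x : CuspForm (Gamma0 M) 2 × CuspForm (Gamma0 M) 2) :
    realtrWordC M p w (realtrES M x) =
      realtrES M (LinearMap.prodMap (wordForms M p w) (wordForms M p w) x) := by
  obtain ⟨f, g⟩ := x
  apply Subtype.ext
  rw [LinearMap.prodMap_apply, realtrES_coe]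
  show wordOp (heckeOp M p) ℂ w
    ((realtrES M (f, g) : parabolicHoms ℂ (Gamma0 M) ℂ) : Additive (Gamma0 M) →+ ℂ) = _
  rw [realtrES_coe, map_add, map_add, map_sub, realtr_wordOp_charInv, realtr_wordOp_charInv,
    ← period_wordForms, ← period_wordForms]

/-- the action of a word on `Hom_par(Γ₀(M), ℂ)` depends only on its action on the cusp forms -/
theorem realtr_wordC_congr {w w' : FreeAlgebra ℤ (GoodPrime M p)}
    (h : wordForms M p w = wordForms M p w') : realtrWordC M p w = realtrWordC M p w' := by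
  refine LinearMap.ext (fun v => ?_)
  obtain ⟨x, rfl⟩ := (realtrES M).surjective v
  rw [realtr_wordC_ES, realtr_wordC_ES, h]

/-- the action of a word on the lattice depends only on its action on the cusp forms -/
theorem realtr_word_congr {w w' : FreeAlgebra ℤ (GoodPrime M p)}
    (h : wordForms M p w = wordForms M p w') : realtrWordHom M p w = realtrWordHom M p w' := by
  refine LinearMap.ext (fun x => Subtype.ext ?_)
  rw [realtrWordHom_coe, realtrWordHom_coe]
  have hx : castHomC (x : Additive (Gamma0 M) →+ ℤ) ∈ parabolicHoms ℂ (Gamma0 M) ℂ := by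
    intro g hg
    rw [castHomC_apply, x.2 g hg, Int.cast_zero]
  have h1 := congrArg Subtype.val
    (LinearMap.congr_fun (realtr_wordC_congr h) ⟨castHomC (x : Additive (Gamma0 M) →+ ℤ), hx⟩)
  have hnat : ∀ u : FreeAlgebra ℤ (GoodPrime M p),
      wordOp (heckeOp M p) ℂ u (castHomC (x : Additive (Gamma0 M) →+ ℤ)) =
        castHomC (wordOp (heckeOp M p) ℤ u (x : Additive (Gamma0 M) →+ ℤ)) := fun u =>
    wordOp_natural (T := heckeOp M p)
      (fun ℓ A A' _ _ f ψ => heckeOp_natural ℓ A A' f ψ) u ℤ ℂ (Int.castAddHom ℂ)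
      (x : Additive (Gamma0 M) →+ ℤ)
  have h2 : castHomC (wordOp (heckeOp M p) ℤ w (x : Additive (Gamma0 M) →+ ℤ)) =
      castHomC (wordOp (heckeOp M p) ℤ w' (x : Additive (Gamma0 M) →+ ℤ)) := by
    rw [← hnat, ← hnat]
    exact h1
  refine DFunLike.ext _ _ (fun g => ?_)
  have h3 := DFunLike.congr_fun h2 g
  rw [castHomC_apply, castHomC_apply] at h3
  exact_mod_cast h3

/-- words commute on the cusp forms -/
theorem realtr_wordForms_mul_comm (a b : FreeAlgebra ℤ (GoodPrime M p)) :
    wordForms M p (a * b) = wordForms M p (b * a) := by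
  rw [wordForms_apply, wordForms_apply, map_mul (wordPoly M p) a b, map_mul (wordPoly M p) b a,
    mul_comm]

/-- words commute on the lattice -/
theorem realtr_word_commute (a b : FreeAlgebra ℤ (GoodPrime M p)) :
    Commute (realtrWordHom M p a) (realtrWordHom M p b) := by
  show realtrWordHom M p a * realtrWordHom M p b = realtrWordHom M p b * realtrWordHom M p a
  rw [← map_mul, ← map_mul]
  exact realtr_word_congr (realtr_wordForms_mul_comm a b)

theorem realtr_hecke_commute (ℓ ℓ' : GoodPrime M p) :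
    Commute (realtrHecke M p ℓ) (realtrHecke M p ℓ') := by
  rw [← realtrWordHom_ι, ← realtrWordHom_ι]
  exact realtr_word_commute _ _

end Faithful

/-! ### The hypotheses of `StmtRealAlg` -/

section Hyps

variable [NeZero M] {X : Type} (T : X → Module.End ℤ (RealtrH M))

/-- all the hypotheses of `StmtRealAlg` hold on the lattice of integral parabolic homomorphisms,
for every family of operators in the algebra generated by the good Hecke operators and the
involution `ι = realtrInv M` -/
theorem realtr_hyps (hT : ∀ x, T x ∈ Algebra.adjoin ℤ (Set.range (realtrHecke M p))) :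
    (∀ x y : X, Commute (T x) (T y)) ∧ (∀ x : X, Commute (T x) (realtrInv M)) ∧
      realtrInv M * realtrInv M = 1 ∧
      ∀ t ∈ Algebra.adjoin ℤ (Set.range T),
        LinearMap.trace ℤ (RealtrH M) (t * realtrInv M) = 0 := by
  refine ⟨?_, ?_, realtr_inv_mul_inv, ?_⟩
  · intro x y
    obtain ⟨a, ha⟩ := realtr_exists_word (hT x)
    obtain ⟨b, hb⟩ := realtr_exists_word (hT y)
    rw [← ha, ← hb]
    exact realtr_word_commute a b
  · intro x
    obtain ⟨a, ha⟩ := realtr_exists_word (hT x)
    rw [← ha]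
    exact realtr_word_commute_inv a
  · intro t ht
    refine realtr_trace_adjoin (p := p) t ?_
    have hle : Algebra.adjoin ℤ (Set.range T) ≤
        Algebra.adjoin ℤ (Set.range (realtrHecke M p)) := by
      refine Algebra.adjoin_le ?_
      rintro _ ⟨x, rfl⟩
      exact hT x
    exact hle ht

/-- the same for the involution `-ι` (the action of complex conjugation on the multipliers) -/
theorem realtr_hyps_neg (hT : ∀ x, T x ∈ Algebra.adjoin ℤ (Set.range (realtrHecke M p))) :
    (∀ x y : X, Commute (T x) (T y)) ∧ (∀ x : X, Commute (T x) (-realtrInv M)) ∧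
      (-realtrInv M) * (-realtrInv M) = 1 ∧
      ∀ t ∈ Algebra.adjoin ℤ (Set.range T),
        LinearMap.trace ℤ (RealtrH M) (t * (-realtrInv M)) = 0 := by
  obtain ⟨h1, h2, h3, h4⟩ := realtr_hyps T hT
  refine ⟨h1, fun x => (h2 x).neg_right, ?_, ?_⟩
  · rw [neg_mul_neg, h3]
  · intro t ht
    rw [mul_neg, map_neg, h4 t ht, neg_zero]

/-- **REAL-ALG applied to the lattice** (involution `ι`). -/
theorem realtr_of_realAlg (hA : StmtRealAlg)
    (hT : ∀ x, T x ∈ Algebra.adjoin ℤ (Set.range (realtrHecke M p))) (r : ℕ) (hr : r.Prime) :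
    ∃ a : ℕ, ∀ n : ℕ,
      (realPowSub (RealtrH M) r n).relIndex (realEisSub T r n) ≤
        r ^ a * ((realPowSub (RealtrH M) r n).relIndex
          (realEisFix T (realtrInv M) r n ⊔ realPowSub (RealtrH M) r n)) ^ 2 := by
  have hfg : Group.FG (Gamma0 M) :=
    (Group.fg_iff_subgroup_fg _).mpr (Fermat.Agent.S22.gamma0_fg M)
  have hfin := finite_intHoms (Gamma0 M) (parabolicSet M)
  have hfree := free_intHoms (Gamma0 M) (parabolicSet M)
  obtain ⟨h1, h2, h3, h4⟩ := realtr_hyps T hT
  exact hA (RealtrH M) X T (realtrInv M) h1 h2 h3 h4 r hr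

/-- **REAL-ALG applied to the lattice** (involution `-ι`). -/
theorem realtr_of_realAlg_neg (hA : StmtRealAlg)
    (hT : ∀ x, T x ∈ Algebra.adjoin ℤ (Set.range (realtrHecke M p))) (r : ℕ) (hr : r.Prime) :
    ∃ a : ℕ, ∀ n : ℕ,
      (realPowSub (RealtrH M) r n).relIndex (realEisSub T r n) ≤
        r ^ a * ((realPowSub (RealtrH M) r n).relIndex
          (realEisFix T (-realtrInv M) r n ⊔ realPowSub (RealtrH M) r n)) ^ 2 := by
  have hfg : Group.FG (Gamma0 M) :=
    (Group.fg_iff_subgroup_fg _).mpr (Fermat.Agent.S22.gamma0_fg M)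
  have hfin := finite_intHoms (Gamma0 M) (parabolicSet M)
  have hfree := free_intHoms (Gamma0 M) (parabolicSet M)
  obtain ⟨h1, h2, h3, h4⟩ := realtr_hyps_neg T hT
  exact hA (RealtrH M) X T (-realtrInv M) h1 h2 h3 h4 r hr

end Hyps

end Fermat.Agent.S15

end
end ZBZ2S15_044_1

/-! ### bundled: `Fermat.Agent.S15.RealAlg` -/
section ZBZ2S15_044_2

/-!
# S15 / SEL-CNT / REAL: the pure-algebra piece REAL-ALG

`stmtRealAlg : StmtRealAlg` (the statement is in `S15/RealAlgPlan.lean`).

* `realalg_isLocalRing` : `ZMod (r ^ n)` is a local ring;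
* `realalg_exists_idem`, `realalg_idem_ker`, `realalg_fitting_list`, `realalg_exists_list`,
  `realalg_fitting` : the Fitting idempotent of a commuting family on a finite module, as a list
  product of the `1 - τ x ^ N x`;
* `realalg_idem_count` : the image of an idempotent of a finite free module over a finite local
  ring `R` has `(#R) ^ ρ` elements, `(ρ : R) = tr e`;
* `realalgPi` : the reduction `H → ℤ/q ⊗ H`, surjective with kernel `q H`;
* `realalg_trace_plus` : `tr t = 2 tr (t | H⁺)` if `tr (t ι) = 0`;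
* `stmtRealAlg`.
-/

set_option autoImplicit false
set_option linter.style.haveILetI false

namespace Fermat.Agent.S15

open scoped TensorProduct

/-- `ZMod (r ^ n)` is a local ring for `r` prime, `n ≠ 0` -/
theorem realalg_isLocalRing (r n : ℕ) (hr : r.Prime) (hn : n ≠ 0) : IsLocalRing (ZMod (r ^ n)) := by
  haveI : Fact r.Prime := ⟨hr⟩
  haveI : Fact (1 < r ^ n) := ⟨Nat.one_lt_pow hn hr.one_lt⟩
  exact IsLocalRing.of_surjective' (PadicInt.toZModPow (p := r) n)
    (ZMod.ringHom_surjective _)

section fitting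

variable {R V : Type*} [CommRing R] [AddCommGroup V] [Module R V]

/-- **Fitting**: on a finite module some positive power of an endomorphism is idempotent. -/
theorem realalg_exists_idem [Finite V] (τ : Module.End R V) :
    ∃ N : ℕ, 0 < N ∧ τ ^ N * τ ^ N = τ ^ N := by
  classical
  let f : ℕ → (V → V) := fun i => ⇑(τ ^ i)
  obtain ⟨i, j, hij, hf⟩ := Finite.exists_ne_map_eq_of_infinite f
  have key : ∀ i j : ℕ, i < j → f i = f j → ∃ N : ℕ, 0 < N ∧ τ ^ N * τ ^ N = τ ^ N := by
    intro i j hlt hf
    obtain ⟨p, rfl⟩ : ∃ p, j = i + p := ⟨j - i, by omega⟩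
    have hp : 0 < p := by omega
    have h1 : τ ^ (i + p) = τ ^ i := by
      apply LinearMap.ext
      intro v
      exact (congrFun hf v).symm
    -- `τ ^ (k + p) = τ ^ k` for `k ≥ i`
    have h2 : ∀ k, i ≤ k → τ ^ (k + p) = τ ^ k := by
      intro k hk
      obtain ⟨d, rfl⟩ : ∃ d, k = i + d := ⟨k - i, by omega⟩
      rw [show i + d + p = (i + p) + d by ring, pow_add, h1, ← pow_add]
    have h3 : ∀ m k, i ≤ k → τ ^ (k + m * p) = τ ^ k := by
      intro m
      induction m with
      | zero => intro k _; simp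
      | succ m ih =>
        intro k hk
        rw [show k + (m + 1) * p = (k + m * p) + p by ring, h2 _ (by omega), ih k hk]
    refine ⟨(i + 1) * p, Nat.mul_pos (Nat.succ_pos i) hp, ?_⟩
    rw [← pow_add]
    have hi : i ≤ (i + 1) * p := by nlinarith
    exact h3 (i + 1) _ hi
  rcases Nat.lt_or_gt_of_ne hij with h | h
  · exact key i j h hf
  · exact key j i h hf.symm

/-- the kernel of an idempotent power is the generalised kernel -/
theorem realalg_idem_ker (τ : Module.End R V) {N : ℕ} (hN : 0 < N)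
    (hidem : τ ^ N * τ ^ N = τ ^ N) (v : V) :
    (τ ^ N) v = 0 ↔ ∃ m : ℕ, (τ ^ m) v = 0 := by
  refine ⟨fun h => ⟨N, h⟩, ?_⟩
  rintro ⟨m, hm⟩
  rcases Nat.eq_zero_or_pos m with rfl | hm0
  · have : v = 0 := by simpa using hm
    rw [this, map_zero]
  · have h1 : IsIdempotentElem (τ ^ N) := hidem
    have h2 : (τ ^ N) ^ m = τ ^ N := by
      obtain ⟨k, rfl⟩ : ∃ k, m = k + 1 := ⟨m - 1, by omega⟩
      exact h1.pow_succ_eq k
    have h3 : (τ ^ N) ^ m = τ ^ (m * (N - 1)) * τ ^ m := by
      rw [← pow_mul, ← pow_add]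
      congr 1
      obtain ⟨k, rfl⟩ : ∃ k, N = k + 1 := ⟨N - 1, by omega⟩
      simp only [Nat.add_sub_cancel]
      ring
    rw [← h2, h3, Module.End.mul_apply, hm, map_zero]

/-- the product of the Fitting idempotents `1 - τ x ^ N x` over a list -/
theorem realalg_fitting_list {X : Type*} (τ : X → Module.End R V)
    (hcomm : ∀ x y, Commute (τ x) (τ y))
    (N : X → ℕ) (hN : ∀ x, 0 < N x) (hidem : ∀ x, τ x ^ N x * τ x ^ N x = τ x ^ N x)
    (L : List X) :
    (L.map (fun x => 1 - τ x ^ N x)).prod * (L.map (fun x => 1 - τ x ^ N x)).prod =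
        (L.map (fun x => 1 - τ x ^ N x)).prod ∧
      (∀ y, Commute (L.map (fun x => 1 - τ x ^ N x)).prod (τ y)) ∧
      ∀ v, (L.map (fun x => 1 - τ x ^ N x)).prod v = v ↔ ∀ x ∈ L, ∃ m : ℕ, (τ x ^ m) v = 0 := by
  induction L with
  | nil =>
    refine ⟨by simp, fun y => by simp, fun v => by simp⟩
  | cons q L ih =>
    obtain ⟨h1, h2, h3⟩ := ih
    set e := (L.map (fun x => 1 - τ x ^ N x)).prod with he
    set u := τ q ^ N q with hu
    have hprod : ((q :: L).map (fun x => 1 - τ x ^ N x)).prod = (1 - u) * e := by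
      rw [List.map_cons, List.prod_cons]
    rw [hprod]
    have hue : Commute e u := (h2 q).pow_right _
    have huy : ∀ y, Commute u (τ y) := fun y => (hcomm q y).pow_left _
    have hu1 : (1 - u) * (1 - u) = 1 - u := by
      have : u * u = u := hidem q
      rw [mul_sub, sub_mul, sub_mul, one_mul, mul_one, one_mul, this]
      abel
    have hc1 : Commute e (1 - u) := (Commute.one_right e).sub_right hue
    refine ⟨?_, fun y => ?_, fun v => ?_⟩
    · calc (1 - u) * e * ((1 - u) * e) = (1 - u) * (e * (1 - u)) * e := by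
            simp only [mul_assoc]
        _ = (1 - u) * ((1 - u) * e) * e := by rw [hc1.eq]
        _ = ((1 - u) * (1 - u)) * (e * e) := by simp only [mul_assoc]
        _ = (1 - u) * e := by rw [hu1, h1]
    · exact (((Commute.one_left (τ y)).sub_left (huy y))).mul_left (h2 y)
    · have hker := realalg_idem_ker (τ q) (hN q) (hidem q) v
      constructor
      · intro hv
        -- `v = (1 - u) (e v)`
        have hv' : (1 - u) (e v) = v := hv
        have hev : e v = v := by
          have h4 : e v = e ((1 - u) (e v)) := by rw [hv']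
          have h5 : e ((1 - u) (e v)) = (1 - u) (e (e v)) := by
            have := congrArg (fun f : Module.End R V => f (e v)) hc1.eq
            simpa only [Module.End.mul_apply] using this
          have h6 : e (e v) = e v := by
            have := congrArg (fun f : Module.End R V => f v) h1
            simpa only [Module.End.mul_apply] using this
          rw [h4, h5, h6, hv']
        have huv : u v = 0 := by
          have h4 : u v = u ((1 - u) (e v)) := by rw [hv']
          have h5 : u ((1 - u) (e v)) = 0 := by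
            have h6 : u * (1 - u) = 0 := by
              have : u * u = u := hidem q
              rw [mul_sub, mul_one, this, sub_self]
            have := congrArg (fun f : Module.End R V => f (e v)) h6
            simpa only [Module.End.mul_apply, LinearMap.zero_apply] using this
          rw [h4, h5]
        intro x hx
        rcases List.mem_cons.1 hx with rfl | hx
        · exact hker.1 huv
        · exact (h3 v).1 hev x hx
      · intro hv
        have hev : e v = v := (h3 v).2 (fun x hx => hv x (List.mem_cons_of_mem _ hx))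
        have huv : u v = 0 := hker.2 (hv q List.mem_cons_self)
        show (1 - u) (e v) = v
        rw [hev, LinearMap.sub_apply, Module.End.one_apply, huv, sub_zero]

/-- finitely many operators cut out the common generalised kernel of a finite module -/
theorem realalg_exists_list [Finite V] {X : Type*} (τ : X → Module.End R V) :
    ∃ L : List X, ∀ v : V, (∀ x ∈ L, ∃ m : ℕ, (τ x ^ m) v = 0) →
      ∀ x : X, ∃ m : ℕ, (τ x ^ m) v = 0 := by
  classical
  have hfin : (Set.univ : Set V).Finite := Set.toFinite _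
  let S : Finset V := hfin.toFinset.filter (fun v => ¬ ∀ x : X, ∃ m : ℕ, (τ x ^ m) v = 0)
  have wit : ∀ v ∈ S, ∃ x : X, ¬ ∃ m : ℕ, (τ x ^ m) v = 0 := fun v hv =>
    not_forall.1 (Finset.mem_filter.1 hv).2
  refine ⟨(S.attach.image (fun v : {v // v ∈ S} => (wit v.1 v.2).choose)).toList,
    fun v hL => ?_⟩
  by_contra hbad
  have hvS : v ∈ S := Finset.mem_filter.2 ⟨hfin.mem_toFinset.2 (Set.mem_univ v), hbad⟩
  apply (wit v hvS).choose_spec
  exact hL _ (Finset.mem_toList.2 (Finset.mem_image.2 ⟨⟨v, hvS⟩, Finset.mem_attach _ _, rfl⟩))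

/-- **the Fitting idempotent** of a commuting family on a finite module, as a list product of
the `1 - τ x ^ N x` -/
theorem realalg_fitting [Finite V] {X : Type*} (τ : X → Module.End R V)
    (hcomm : ∀ x y, Commute (τ x) (τ y)) :
    ∃ (L : List X) (N : X → ℕ),
      (L.map (fun x => 1 - τ x ^ N x)).prod * (L.map (fun x => 1 - τ x ^ N x)).prod =
        (L.map (fun x => 1 - τ x ^ N x)).prod ∧
      ∀ v, (L.map (fun x => 1 - τ x ^ N x)).prod v = v ↔ ∀ x : X, ∃ m : ℕ, (τ x ^ m) v = 0 := by
  classical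
  choose N hN hidem using fun x => realalg_exists_idem (τ x)
  obtain ⟨L, hL⟩ := realalg_exists_list τ
  obtain ⟨h1, -, h3⟩ := realalg_fitting_list τ hcomm N hN hidem L
  exact ⟨L, N, h1, fun v => ⟨fun hv => hL v ((h3 v).1 hv), fun hv => (h3 v).2 (fun x _ => hv x)⟩⟩

end fitting

/-- **ALG-1**: the image of an idempotent of a finite free module over a finite local ring is
free, of rank `ρ` with `(ρ : R) = tr e`. -/
theorem realalg_idem_count {R M : Type*} [CommRing R] [IsLocalRing R] [Finite R]
    [AddCommGroup M] [Module R M] [Module.Free R M] [Module.Finite R M]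
    (e : Module.End R M) (he : e * e = e) :
    ∃ ρ : ℕ, Nat.card (LinearMap.range e) = Nat.card R ^ ρ ∧
      LinearMap.trace R M e = (ρ : R) := by
  classical
  haveI : Finite M := Module.finite_of_finite R
  have hee : ∀ v, e (e v) = e v := fun v => by
    have := congrArg (fun f : Module.End R M => f v) he
    simpa only [Module.End.mul_apply] using this
  have hproj : LinearMap.IsProj (LinearMap.range e) e :=
    ⟨fun x => ⟨x, rfl⟩, fun x hx => by
      obtain ⟨y, rfl⟩ := hx
      exact hee y⟩
  haveI : Module.Finite R (LinearMap.range e) := Module.Finite.of_finite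
  haveI : Module.Finite R (LinearMap.ker e) := Module.Finite.of_finite
  haveI : Module.Projective R (LinearMap.range e) := by
    refine Module.Projective.of_split (LinearMap.range e).subtype
      (e.codRestrict (LinearMap.range e) (fun x => ⟨x, rfl⟩)) ?_
    apply LinearMap.ext
    rintro ⟨x, hx⟩
    apply Subtype.ext
    obtain ⟨y, rfl⟩ := hx
    exact hee y
  haveI : Module.Projective R (LinearMap.ker e) := by
    refine Module.Projective.of_split (LinearMap.ker e).subtype
      ((1 - e).codRestrict (LinearMap.ker e) (fun x => by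
        rw [LinearMap.mem_ker, LinearMap.sub_apply, Module.End.one_apply, map_sub, hee,
          sub_self])) ?_
    apply LinearMap.ext
    rintro ⟨x, hx⟩
    apply Subtype.ext
    have hx' : e x = 0 := hx
    show (1 - e) x = x
    rw [LinearMap.sub_apply, Module.End.one_apply, hx', sub_zero]
  haveI : Module.Free R (LinearMap.range e) := Module.free_of_flat_of_isLocalRing
  haveI : Module.Free R (LinearMap.ker e) := Module.free_of_flat_of_isLocalRing
  refine ⟨Module.finrank R (LinearMap.range e), ?_, hproj.trace⟩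
  have b := Module.finBasis R (LinearMap.range e)
  rw [Nat.card_congr b.equivFun.toEquiv, Nat.card_fun, Nat.card_fin]

/-- the cardinality of a finite free module over a finite ring -/
theorem realalg_card_free {R M : Type*} [CommRing R] [Nontrivial R] [Finite R]
    [AddCommGroup M] [Module R M] [Module.Free R M] [Module.Finite R M] :
    Nat.card M = Nat.card R ^ Module.finrank R M := by
  classical
  have b := Module.finBasis R M
  rw [Nat.card_congr b.equivFun.toEquiv, Nat.card_fun, Nat.card_fin]

section bc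

variable (H : Type*) [AddCommGroup H] (q : ℕ)

/-- the reduction map `H → ℤ/q ⊗ H` -/
def realalgPi : H →ₗ[ℤ] (ZMod q) ⊗[ℤ] H := TensorProduct.mk ℤ (ZMod q) H 1

variable {H}

theorem realalgPi_apply (φ : H) : realalgPi H q φ = (1 : ZMod q) ⊗ₜ[ℤ] φ := rfl

theorem realalgPi_surjective : Function.Surjective (realalgPi H q) := by
  intro m
  induction m using TensorProduct.induction_on with
  | zero => exact ⟨0, map_zero _⟩
  | tmul a h =>
    obtain ⟨k, rfl⟩ := ZMod.intCast_surjective a
    refine ⟨k • h, ?_⟩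
    rw [realalgPi_apply, TensorProduct.tmul_smul, TensorProduct.smul_tmul']
    congr 1
    simp
  | add x y hx hy =>
    obtain ⟨a, rfl⟩ := hx
    obtain ⟨b, rfl⟩ := hy
    exact ⟨a + b, map_add _ _ _⟩

theorem realalgPi_baseChange (t : Module.End ℤ H) (φ : H) :
    (t.baseChange (ZMod q)) (realalgPi H q φ) = realalgPi H q (t φ) := by
  rw [realalgPi_apply, LinearMap.baseChange_tmul, realalgPi_apply]

theorem realalgPi_nsmul (ψ : H) : realalgPi H q (q • ψ) = 0 := by
  rw [map_nsmul, realalgPi_apply, TensorProduct.smul_tmul']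
  have : q • (1 : ZMod q) = 0 := by simp
  rw [this, TensorProduct.zero_tmul]

theorem realalgPi_eq_zero_iff [Module.Free ℤ H] [Module.Finite ℤ H] (φ : H) :
    realalgPi H q φ = 0 ↔ ∃ ψ : H, q • ψ = φ := by
  constructor
  · intro h
    classical
    let b := Module.Free.chooseBasis ℤ H
    let b' := Algebra.TensorProduct.basis (ZMod q) b
    have h1 : ∀ i, ((b.repr φ i : ℤ) : ZMod q) = 0 := by
      intro i
      have h2 : b'.repr (realalgPi H q φ) i = 0 := by rw [h]; simp
      rw [realalgPi_apply, Algebra.TensorProduct.basis_repr_tmul] at h2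
      simpa using h2
    have h3 : ∀ i, ∃ c : ℤ, b.repr φ i = (q : ℤ) * c := fun i =>
      (ZMod.intCast_zmod_eq_zero_iff_dvd _ _).1 (h1 i)
    choose c hc using h3
    refine ⟨∑ i, c i • b i, ?_⟩
    rw [Finset.smul_sum]
    conv_rhs => rw [← b.sum_repr φ]
    refine Finset.sum_congr rfl (fun i _ => ?_)
    rw [hc i, mul_smul, natCast_zsmul]
  · rintro ⟨ψ, rfl⟩
    exact realalgPi_nsmul q ψ

end bc


/-- `tr t = 2 tr (t | H⁺)` if `tr (t ι) = 0` -/
theorem realalg_trace_plus {H : Type*} [AddCommGroup H] [Module.Free ℤ H] [Module.Finite ℤ H]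
    (t ι : Module.End ℤ H) (hc : Commute t ι) (hιι : ι * ι = 1)
    (htr : LinearMap.trace ℤ H (t * ι) = 0)
    (hstab : ∀ ψ ∈ LinearMap.ker (ι - 1), t ψ ∈ LinearMap.ker (ι - 1)) :
    LinearMap.trace ℤ H t = 2 * LinearMap.trace ℤ _ (t.restrict hstab) := by
  have hιι' : ∀ φ, ι (ι φ) = φ := fun φ => by
    have := congrArg (fun f : Module.End ℤ H => f φ) hιι
    simpa only [Module.End.mul_apply, Module.End.one_apply] using this
  have hc' : ∀ φ, t (ι φ) = ι (t φ) := fun φ => by
    have := congrArg (fun f : Module.End ℤ H => f φ) hc.eq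
    simpa only [Module.End.mul_apply] using this
  have hmem : ∀ φ, (t * (1 + ι)) φ ∈ LinearMap.ker (ι - 1) := by
    intro φ
    rw [LinearMap.mem_ker, LinearMap.sub_apply, Module.End.one_apply, Module.End.mul_apply,
      LinearMap.add_apply, Module.End.one_apply, ← hc', map_add, hιι', sub_eq_zero, add_comm]
  let g : H →ₗ[ℤ] LinearMap.ker (ι - 1) := (t * (1 + ι)).codRestrict _ hmem
  have h1 : (LinearMap.ker (ι - 1)).subtype ∘ₗ g = t * (1 + ι) := by
    apply LinearMap.ext
    intro φ
    rfl
  have h2 : g ∘ₗ (LinearMap.ker (ι - 1)).subtype = (2 : ℤ) • t.restrict hstab := by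
    apply LinearMap.ext
    rintro ⟨ψ, hψ⟩
    apply Subtype.ext
    have hψ' : ι ψ = ψ := by
      rw [LinearMap.mem_ker, LinearMap.sub_apply, Module.End.one_apply, sub_eq_zero] at hψ
      exact hψ
    show (t * (1 + ι)) ψ = ((2 : ℤ) • t.restrict hstab ⟨ψ, hψ⟩ : LinearMap.ker (ι - 1)).1
    rw [Module.End.mul_apply, LinearMap.add_apply, Module.End.one_apply, hψ', ← two_smul ℤ ψ,
      map_smul]
    rfl
  have h3 := LinearMap.trace_comp_comm' g (LinearMap.ker (ι - 1)).subtype
  rw [h1, h2, mul_add, mul_one, map_add, htr, add_zero, map_smul, smul_eq_mul] at h3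
  exact h3

/-- the level `q` count -/
theorem realalg_level {H : Type} [AddCommGroup H] [Module.Free ℤ H] [Module.Finite ℤ H]
    {X : Type} (T : X → Module.End ℤ H) (ι : Module.End ℤ H)
    (hTT : ∀ x y, Commute (T x) (T y)) (hTι : ∀ x, Commute (T x) ι) (hιι : ι * ι = 1)
    (htr : ∀ t ∈ Algebra.adjoin ℤ (Set.range T), LinearMap.trace ℤ H (t * ι) = 0)
    (q : ℕ) [Fact (1 < q)] [IsLocalRing (ZMod q)]
    (E F : AddSubgroup H)
    (hE : ∀ φ, φ ∈ E ↔ ∀ x, ∃ m : ℕ, realalgPi H q ((T x ^ m) φ) = 0)
    (hF : ∀ φ, φ ∈ F ↔ φ ∈ E ∧ ι φ = φ) :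
    ∃ ρ ρp : ℕ, Nat.card (E.map (realalgPi H q).toAddMonoidHom) = q ^ ρ ∧
      q ^ ρp ≤ Nat.card (F.map (realalgPi H q).toAddMonoidHom) ∧
      ρ ≤ Module.finrank ℤ H ∧ ρp ≤ Module.finrank ℤ H ∧
      (ρ : ZMod q) = ((2 * ρp : ℕ) : ZMod q) := by
  classical
  have hq1 : 1 < q := Fact.out
  haveI : NeZero q := ⟨by omega⟩
  haveI : Finite ((ZMod q) ⊗[ℤ] H) := Module.finite_of_finite (ZMod q)
  have hcardR : Nat.card (ZMod q) = q := by
    rw [Nat.card_eq_fintype_card, ZMod.card]
  have hcardM : Nat.card ((ZMod q) ⊗[ℤ] H) = q ^ Module.finrank ℤ H := by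
    rw [realalg_card_free (R := ZMod q), hcardR, Module.finrank_baseChange]
  -- operators
  have hβ : ∀ (t : Module.End ℤ H) (φ : H),
      Module.End.baseChangeHom ℤ (ZMod q) H t (realalgPi H q φ) = realalgPi H q (t φ) :=
    fun t φ => realalgPi_baseChange q t φ
  have hcomm : ∀ x y, Commute (Module.End.baseChangeHom ℤ (ZMod q) H (T x))
      (Module.End.baseChangeHom ℤ (ZMod q) H (T y)) := fun x y => (hTT x y).map _
  obtain ⟨L, N, he, hchar⟩ :=
    realalg_fitting (fun x => Module.End.baseChangeHom ℤ (ZMod q) H (T x)) hcomm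
  set t : Module.End ℤ H := (L.map (fun x => 1 - T x ^ N x)).prod with ht
  have hβt : Module.End.baseChangeHom ℤ (ZMod q) H t =
      (L.map (fun x => 1 - Module.End.baseChangeHom ℤ (ZMod q) H (T x) ^ N x)).prod := by
    rw [ht, map_list_prod, List.map_map]
    congr 1
    apply List.map_congr_left
    intro x _
    simp only [Function.comp_apply, map_sub, map_one, map_pow]
  rw [← hβt] at he hchar
  set e := Module.End.baseChangeHom ℤ (ZMod q) H t with he_def
  have htA : t ∈ Algebra.adjoin ℤ (Set.range T) := by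
    refine Subalgebra.list_prod_mem _ (fun y hy => ?_)
    obtain ⟨x, -, rfl⟩ := List.mem_map.1 hy
    exact Subalgebra.sub_mem _ (Subalgebra.one_mem _)
      (Subalgebra.pow_mem _ (Algebra.subset_adjoin (Set.mem_range_self x)) _)
  have htι : Commute t ι := by
    refine Commute.list_prod_left _ _ (fun y hy => ?_)
    obtain ⟨x, -, rfl⟩ := List.mem_map.1 hy
    exact (Commute.one_left ι).sub_left ((hTι x).pow_left _)
  have hee : ∀ v, e (e v) = e v := fun v => by
    have := congrArg (fun f : Module.End (ZMod q) ((ZMod q) ⊗[ℤ] H) => f v) he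
    simpa only [Module.End.mul_apply] using this
  -- characterisation of `E`
  have hEchar : ∀ φ, φ ∈ E ↔ e (realalgPi H q φ) = realalgPi H q φ := by
    intro φ
    rw [hE, hchar]
    refine forall_congr' (fun x => exists_congr (fun m => ?_))
    rw [← map_pow, hβ]
  -- the count for `E`
  obtain ⟨ρ, hρc, hρt⟩ := realalg_idem_count e he
  rw [hcardR] at hρc
  have hEmap : Nat.card (E.map (realalgPi H q).toAddMonoidHom) = q ^ ρ := by
    rw [← hρc]
    refine Nat.card_congr (Equiv.subtypeEquivRight (fun v => ?_))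
    constructor
    · rintro ⟨φ, hφ, rfl⟩
      exact ⟨realalgPi H q φ, (hEchar φ).1 hφ⟩
    · rintro ⟨w, rfl⟩
      obtain ⟨φ, rfl⟩ := realalgPi_surjective q w
      refine ⟨t φ, (hEchar _).2 ?_, (hβ t φ).symm⟩
      rw [← hβ, hee]
  -- the plus part
  have hstab : ∀ ψ ∈ LinearMap.ker (ι - 1), t ψ ∈ LinearMap.ker (ι - 1) := by
    intro ψ hψ
    rw [LinearMap.mem_ker, LinearMap.sub_apply, Module.End.one_apply, sub_eq_zero] at hψ ⊢
    have := congrArg (fun f : Module.End ℤ H => f ψ) htι.eq
    simp only [Module.End.mul_apply] at this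
    rw [← this, hψ]
  set tp := t.restrict hstab with htp
  set ep := Module.End.baseChangeHom ℤ (ZMod q) (LinearMap.ker (ι - 1)) tp with hep
  set j := (LinearMap.ker (ι - 1)).subtype.baseChange (ZMod q) with hj
  have hjπ : ∀ ψ : LinearMap.ker (ι - 1),
      j (realalgPi (LinearMap.ker (ι - 1)) q ψ) = realalgPi H q ψ.1 := by
    intro ψ
    rw [hj, realalgPi_apply, LinearMap.baseChange_tmul]
    rfl
  have hjinj : Function.Injective j := by
    rw [injective_iff_map_eq_zero]
    intro m hm
    obtain ⟨ψ, rfl⟩ := realalgPi_surjective q m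
    rw [hjπ, realalgPi_eq_zero_iff] at hm
    obtain ⟨χ, hχ⟩ := hm
    have hχmem : χ ∈ LinearMap.ker (ι - 1) := by
      have h1 : (ι - 1) (q • χ) = 0 := by rw [hχ]; exact ψ.2
      rw [map_nsmul, ← natCast_zsmul] at h1
      have hq0 : (q : ℤ) ≠ 0 := by exact_mod_cast (NeZero.ne q)
      exact (smul_eq_zero_iff_right hq0).1 h1
    have : ψ = q • (⟨χ, hχmem⟩ : LinearMap.ker (ι - 1)) := by
      apply Subtype.ext
      rw [← hχ]
      rfl
    rw [this]
    exact realalgPi_nsmul q _
  have hje : ∀ m, j (ep m) = e (j m) := by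
    intro m
    obtain ⟨ψ, rfl⟩ := realalgPi_surjective q m
    rw [hep, show Module.End.baseChangeHom ℤ (ZMod q) (LinearMap.ker (ι - 1)) tp
      (realalgPi (LinearMap.ker (ι - 1)) q ψ) = realalgPi _ q (tp ψ) from
        realalgPi_baseChange q tp ψ, hjπ, hjπ, hβ]
    rfl
  have hepidem : ep * ep = ep := by
    apply LinearMap.ext
    intro m
    apply hjinj
    rw [Module.End.mul_apply, hje, hje, hee]
  obtain ⟨ρp, hρpc, hρpt⟩ := realalg_idem_count ep hepidem
  rw [hcardR] at hρpc
  -- the image of `F` contains `j (range ep)`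
  have hFmap : q ^ ρp ≤ Nat.card (F.map (realalgPi H q).toAddMonoidHom) := by
    rw [← hρpc]
    refine Nat.card_le_card_of_injective
      (fun m : LinearMap.range ep => (⟨j m.1, ?_⟩ : F.map (realalgPi H q).toAddMonoidHom)) ?_
    · obtain ⟨m, hm⟩ := m
      obtain ⟨w, rfl⟩ := hm
      obtain ⟨ψ, rfl⟩ := realalgPi_surjective q w
      have h1 : j (ep (realalgPi (LinearMap.ker (ι - 1)) q ψ)) = realalgPi H q (t ψ.1) := by
        rw [hje, hjπ, hβ]
      refine ⟨t ψ.1, (hF _).2 ⟨(hEchar _).2 ?_, ?_⟩, h1.symm⟩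
      · rw [← hβ, hee]
      · have := hstab ψ.1 ψ.2
        rw [LinearMap.mem_ker, LinearMap.sub_apply, Module.End.one_apply, sub_eq_zero] at this
        exact this
    · intro a b hab
      apply Subtype.ext
      apply hjinj
      exact congrArg Subtype.val hab
  -- bounds on the ranks
  have hρle : ρ ≤ Module.finrank ℤ H := by
    have h1 : q ^ ρ ≤ q ^ Module.finrank ℤ H := by
      rw [← hEmap, ← hcardM]
      exact Nat.card_le_card_of_injective (fun x => x.1) Subtype.val_injective
    exact (Nat.pow_le_pow_iff_right hq1).1 h1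
  have hρple : ρp ≤ Module.finrank ℤ H := by
    have h1 : q ^ ρp ≤ q ^ Module.finrank ℤ H := by
      rw [← hcardM]
      refine hFmap.trans ?_
      exact Nat.card_le_card_of_injective (fun x => x.1) Subtype.val_injective
    exact (Nat.pow_le_pow_iff_right hq1).1 h1
  -- traces
  have htr1 : LinearMap.trace (ZMod q) _ e = ((LinearMap.trace ℤ H t : ℤ) : ZMod q) := by
    rw [he_def]
    exact LinearMap.trace_baseChange t (ZMod q)
  have htr2 : LinearMap.trace (ZMod q) _ ep = ((LinearMap.trace ℤ _ tp : ℤ) : ZMod q) := by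
    rw [hep]
    exact LinearMap.trace_baseChange tp (ZMod q)
  have htr3 := realalg_trace_plus t ι htι hιι (htr t htA) hstab
  refine ⟨ρ, ρp, hEmap, hFmap, hρle, hρple, ?_⟩
  rw [← hρt, htr1, htr3, Nat.cast_mul, ← hρpt, htr2]
  push_cast
  rfl

/-- **REAL-ALG** -/
theorem stmtRealAlg : StmtRealAlg := by
  intro H _ _ _ X T ι hTT hTι hιι htr r hr
  classical
  refine ⟨Module.finrank ℤ H * (2 * Module.finrank ℤ H), fun n => ?_⟩
  set d := Module.finrank ℤ H with hd
  rcases Nat.eq_zero_or_pos n with rfl | hn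
  · have htop : realPowSub H r 0 = ⊤ := by
      rw [eq_top_iff]
      intro φ _
      exact ⟨φ, by simp⟩
    rw [htop, AddSubgroup.relIndex_top_left, AddSubgroup.relIndex_top_left, one_pow, mul_one]
    exact Nat.one_le_pow _ _ hr.pos
  have hq1 : 1 < r ^ n := Nat.one_lt_pow hn.ne' hr.one_lt
  haveI : Fact (1 < r ^ n) := ⟨hq1⟩
  haveI : NeZero (r ^ n) := ⟨by omega⟩
  haveI : IsLocalRing (ZMod (r ^ n)) := realalg_isLocalRing r n hr hn.ne'
  haveI : Finite ((ZMod (r ^ n)) ⊗[ℤ] H) := Module.finite_of_finite (ZMod (r ^ n))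
  have hker : realPowSub H r n = (realalgPi H (r ^ n)).toAddMonoidHom.ker := by
    ext φ
    rw [mem_realPowSub, AddMonoidHom.mem_ker]
    exact (realalgPi_eq_zero_iff (r ^ n) φ).symm
  have hrel : ∀ K : AddSubgroup H, (realPowSub H r n).relIndex K =
      Nat.card (K.map (realalgPi H (r ^ n)).toAddMonoidHom) := by
    intro K
    rw [hker]
    exact AddSubgroup.relIndex_ker K _
  rw [hrel, hrel]
  obtain ⟨ρ, ρp, h1, h2, h3, h4, h5⟩ := realalg_level T ι hTT hTι hιι htr (r ^ n)
    (realEisSub T r n) (realEisFix T ι r n) (fun φ => by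
      rw [mem_realEisSub]
      refine forall_congr' (fun x => exists_congr (fun m => ?_))
      rw [mem_realPowSub]
      exact (realalgPi_eq_zero_iff (r ^ n) _).symm) (fun φ => mem_realEisFix)
  have hF : Nat.card ((realEisFix T ι r n).map (realalgPi H (r ^ n)).toAddMonoidHom) ≤
      Nat.card ((realEisFix T ι r n ⊔ realPowSub H r n).map
        (realalgPi H (r ^ n)).toAddMonoidHom) :=
    AddSubgroup.card_le_of_le (AddSubgroup.map_mono le_sup_left)
  by_cases hbig : 2 * d < r ^ n
  · have hρ : ρ = 2 * ρp := by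
      have := (ZMod.natCast_eq_natCast_iff' ρ (2 * ρp) (r ^ n)).1 h5
      rw [Nat.mod_eq_of_lt (by omega), Nat.mod_eq_of_lt (by omega)] at this
      exact this
    rw [h1, hρ]
    calc (r ^ n) ^ (2 * ρp) = ((r ^ n) ^ ρp) ^ 2 := by rw [mul_comm 2 ρp, pow_mul]
      _ ≤ (Nat.card ((realEisFix T ι r n).map (realalgPi H (r ^ n)).toAddMonoidHom)) ^ 2 :=
        Nat.pow_le_pow_left h2 2
      _ ≤ (Nat.card ((realEisFix T ι r n ⊔ realPowSub H r n).map
          (realalgPi H (r ^ n)).toAddMonoidHom)) ^ 2 := Nat.pow_le_pow_left hF 2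
      _ ≤ _ := Nat.le_mul_of_pos_left _ (pow_pos hr.pos _)
  · have hn2 : n ≤ 2 * d := by
      have : n < r ^ n := Nat.lt_pow_self hr.one_lt
      omega
    have hpos : 0 < Nat.card ((realEisFix T ι r n ⊔ realPowSub H r n).map
        (realalgPi H (r ^ n)).toAddMonoidHom) := Nat.card_pos
    rw [h1]
    calc (r ^ n) ^ ρ ≤ (r ^ n) ^ d := Nat.pow_le_pow_right (by omega) h3
      _ = r ^ (n * d) := (pow_mul r n d).symm
      _ ≤ r ^ (d * (2 * d)) := Nat.pow_le_pow_right hr.pos (by nlinarith)
      _ ≤ _ := Nat.le_mul_of_pos_right _ (pow_pos hpos 2)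

end Fermat.Agent.S15


end ZBZ2S15_044_2
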