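/- GENERATED FILE (helper35, build-time optimisation, NOTES/ZB.md): verbatim concatenation of the modules
   Fermat.Agent.S15.ToricCnt
   Fermat.Agent.S15.ToricPlan
   Fermat.Agent.S15.RealPlan
   Fermat.Agent.S15.CntOdd
   Fermat.Agent.S15.ToricTameMain
   Do not edit; do not import together with these modules. -/
import Mathlib
import Fermat.Agent.ZB.Z2S15_035
import Fermat.Agent.ZB.S15_002
import Fermat.Agent.ZB.Cheb_001
import Fermat.Agent.ZB.Z2S15_044
import Fermat.Agent.ZB.ES_007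
import Fermat.Prelude.Def_GaloisRep_ComplexConjugation

/-! ### bundled: `Fermat.Agent.S15.ToricCnt` -/
section ZBZ2S15_045_0

/-!
# S15 / CNT / TORIC, piece T-cnt: the unipotent count (pure algebra)

* `toric_card_le_sq` : an additive endomorphism `g` of a finite abelian group with `g ∘ g = 0`
  has `#G ≤ #(ker g) ^ 2`.
* `toric_card_le_fixed_sq` : a group `M` acts on `J`, `G ≤ J` finite, `S ≤ M`, `σ₀ ∈ S` with
  `G` stable under `σ₀`, `(σ₀ - 1)² = 0` on `G` and `G^{σ₀} ⊂ G^S`: then `#G ≤ #(G ⊓ F) ^ 2` for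
  every additive subgroup `F` containing the `S`-fixed points of `G`.
-/

set_option autoImplicit false

namespace Fermat.Agent.S15

/-- **T-cnt**: `g ∘ g = 0` on a finite abelian group ⇒ `#G ≤ #(ker g)²`. -/
theorem toric_card_le_sq {G : Type*} [AddCommGroup G] [Finite G] (g : G →+ G)
    (h : ∀ x, g (g x) = 0) : Nat.card G ≤ Nat.card g.ker ^ 2 := by
  have h1 : Nat.card G = Nat.card (G ⧸ g.ker) * Nat.card g.ker :=
    AddSubgroup.card_eq_card_quotient_mul_card_addSubgroup g.ker
  have h2 : Nat.card (G ⧸ g.ker) = Nat.card g.range :=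
    Nat.card_congr (QuotientAddGroup.quotientKerEquivRange g).toEquiv
  have h3 : g.range ≤ g.ker := by
    rintro _ ⟨x, rfl⟩
    exact (AddMonoidHom.mem_ker).2 (h x)
  have h4 : Nat.card g.range ≤ Nat.card g.ker := AddSubgroup.card_le_of_le h3
  rw [h1, h2, sq]
  exact Nat.mul_le_mul_right _ h4

/-- **T-cnt**, form for a subgroup of a module with a group action. -/
theorem toric_card_le_fixed_sq {M J : Type*} [Group M] [AddCommGroup J] [DistribMulAction M J]
    (G F : AddSubgroup J) [Finite G] (σ₀ : M)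
    (hstab : ∀ x ∈ G, σ₀ • x ∈ G)
    (hunip : ∀ x ∈ G, σ₀ • σ₀ • x - 2 • (σ₀ • x) + x = 0)
    (hfix : ∀ x ∈ G, σ₀ • x = x → x ∈ F) :
    Nat.card G ≤ Nat.card ↥(G ⊓ F) ^ 2 := by
  classical
  -- the endomorphism `σ₀ - 1` of `G`
  let g : G →+ G :=
    { toFun := fun x => ⟨σ₀ • (x : J) - x, G.sub_mem (hstab x x.2) x.2⟩
      map_zero' := by
        apply Subtype.ext
        simp
      map_add' := fun x y => by
        apply Subtype.ext
        simp only [AddSubgroup.coe_add, smul_add]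
        abel }
  have hg : ∀ x : G, ((g x : G) : J) = σ₀ • (x : J) - x := fun _ => rfl
  have hgg : ∀ x, g (g x) = 0 := by
    intro x
    apply Subtype.ext
    rw [hg, hg, AddSubgroup.coe_zero, smul_sub]
    have := hunip x x.2
    rw [two_smul] at this
    rw [← this]
    abel
  have h1 := toric_card_le_sq g hgg
  -- `ker g` injects into `G ⊓ F`
  haveI : Finite ↥(G ⊓ F) :=
    Finite.of_injective (fun z : ↥(G ⊓ F) => (⟨(z : J), z.2.1⟩ : G)) (fun a b hab => by
      apply Subtype.ext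
      exact congrArg (fun z : G => (z : J)) hab)
  have hker : ∀ x : g.ker, σ₀ • (((x : G) : J)) = ((x : G) : J) := by
    intro x
    have hx : g (x : G) = 0 := (AddMonoidHom.mem_ker).1 x.2
    have hx' : ((g (x : G) : G) : J) = 0 := by rw [hx]; rfl
    rw [hg] at hx'
    exact sub_eq_zero.1 hx'
  have h2 : Nat.card g.ker ≤ Nat.card ↥(G ⊓ F) := by
    refine Nat.card_le_card_of_injective
      (fun x : g.ker => (⟨((x : G) : J), ⟨(x : G).2, hfix _ (x : G).2 (hker x)⟩⟩ : ↥(G ⊓ F))) ?_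
    · intro x y hxy
      apply Subtype.ext
      apply Subtype.ext
      exact congrArg (fun z : ↥(G ⊓ F) => (z : J)) hxy
  calc Nat.card G ≤ Nat.card g.ker ^ 2 := h1
    _ ≤ Nat.card ↥(G ⊓ F) ^ 2 := Nat.pow_le_pow_left h2 2

end Fermat.Agent.S15


end ZBZ2S15_045_0

/-! ### bundled: `Fermat.Agent.S15.ToricPlan` -/
section ZBZ2S15_045_1

/-!
# S15 / SEL-CNT / TORIC: plan (exact statements)

Sub-captain helper73.  Design: `NOTES/S15-CNT.md`.

`(CNT*)  ∃ a ∀ k, #G_k ≤ r^a · #(G_k ∩ J^{I_N}) · #(G_k ∩ J^c)  =  TORIC × REAL`  (helper6).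

* `StmtToricTame` (T-tame): the tame inertia is cyclic.  For a finite normal `E / ℚ` there is
  `σ₀ ∈ I` such that every `σ ∈ I` is, on `E`, a power of `σ₀` up to an element of `N`-power order.
* `StmtSelToric` (TORIC): for every finite `I_N`-stable group `G` of `r`-power torsion points of
  `J₀(N)`, `r ≠ N`:  `#G ≤ #(G ∩ J^{I_N})²`.
* pieces: `toric_card_le_fixed_sq` (T-cnt, `ToricCnt.lean`), `tame_V` (`ToricTameV.lean`),
  `tame_N`, `tameTr*` (`ToricTameA.lean`), `toricpre_*` (T-pre, helper14, `ToricPre.lean`),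
  T-tame main (`ToricTame.lean`), T-glue (`ToricGlue.lean`):
  `StmtToricTame → (∀ N r, S34.ESUnip N r (JZero N)) → StmtSelToric`.
-/

set_option autoImplicit false

noncomputable section

namespace Fermat.Agent.S15

open ModularCurve AlgebraicCurve
open Fermat.Agent.S24 Fermat.Agent.W1

/-- **T-tame**: the image of the inertia group at `N` in `Gal(E/ℚ)` is cyclic modulo its
`N`-part. -/
def StmtToricTame : Prop :=
  ∀ (N : ℕ), N.Prime → ∀ A : ValuationSubring Kb, A.LiesOverPrime N →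
    ∀ E : IntermediateField ℚ Kb, FiniteDimensional ℚ E → Normal ℚ E →
      ∃ σ₀ ∈ A.inertiaSubgroupIn ℚ, ∀ σ ∈ A.inertiaSubgroupIn ℚ, ∃ (n : ℤ) (e : ℕ),
        ∀ a ∈ E, ((σ * σ₀ ^ (-n)) ^ (N ^ e)) a = a

/-- **TORIC**: the points fixed by the inertia at `N` are at least "half" of every finite
inertia-stable group of `r`-power torsion points, `r ≠ N`. -/
def StmtSelToric : Prop :=
  ∀ (N : ℕ) [NeZero N] (r : ℕ), N.Prime → r.Prime → r ≠ N →
    ∀ AN : ValuationSubring Kb, AN.LiesOverPrime N →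
    ∀ G : AddSubgroup (JZero N), Finite G → (∀ x ∈ G, ∃ k : ℕ, r ^ k • x = 0) →
      (∀ σ ∈ AN.inertiaSubgroupIn ℚ, ∀ x ∈ G, σ • x ∈ G) →
      Nat.card G ≤ Nat.card ↥(G ⊓ selIF N AN) ^ 2

/-- the unipotency input (UNIP, `S34/Plan.lean`) for all prime levels -/
def StmtToricUnip : Prop :=
  ∀ (N : ℕ) [NeZero N] (r : ℕ), N.Prime → r.Prime → r ≠ N →
    Fermat.Agent.S34.ESUnip N r (JZero N)

end Fermat.Agent.S15

end
end ZBZ2S15_045_1

/-! ### bundled: `Fermat.Agent.S15.RealPlan` -/
section ZBZ2S15_045_2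

/-!
# S15 / SEL-CNT / REAL: exact statements (helper6)

`(CNT*)`  `#G_k ≤ r ^ a * #(G_k ∩ J^{I_N}) * #(G_k ∩ J^c)`  `=`  TORIC `×` REAL, where `G_k` is the
Eisenstein part of `J₀(N)[r ^ k]` and `c` the complex conjugation.

* `selFixC N`       : the points of `J₀(N)(ℚ̄)` fixed by the complex conjugation;
* `StmtSelReal`     : REAL, `#G_k ≤ r ^ a * #(G_k ∩ J^c) ^ 2`;
* `StmtSelCntStar`  : `(CNT*)`;
* REAL-TR (`tr (w ι) = 0` on the integral parabolic homomorphisms) is `S15/RealTr.lean`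
  (helper82), REAL-ALG is `StmtRealAlg` of `S15/RealAlgPlan.lean`, REAL-IDX is `S15/RealIdx.lean`;
* `realConjChar N`  : `χ ↦ conj ∘ χ ∘ j` on the characters of `Γ₀(N)`;
* `StmtRealConj`    : REAL-CONJ, the multiplier of `c • x` is `realConjChar N` of that of `x`.
-/

set_option autoImplicit false

noncomputable section

namespace Fermat.Agent.S15

open ModularCurve AlgebraicCurve CongruenceSubgroup ModularCurve.Period
open Fermat.Agent.S24 Fermat.Agent.W1 Fermat.Agent.ES

/-! ## The count -/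

/-- the points of `J₀(N)` fixed by the complex conjugation -/
def selFixC (N : ℕ) [NeZero N] : AddSubgroup (JZero N) where
  carrier := {x | (complexConjugation : GalQ) • x = x}
  zero_mem' := smul_zero (A := JZero N) (complexConjugation : GalQ)
  add_mem' := fun {a b} ha hb => by
    show (complexConjugation : GalQ) • (a + b) = a + b
    rw [smul_add, ha, hb]
  neg_mem' := fun {a} ha => by
    show (complexConjugation : GalQ) • (-a) = -a
    rw [smul_neg, ha]

theorem mem_selFixC {N : ℕ} [NeZero N] {x : JZero N} :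
    x ∈ selFixC N ↔ (complexConjugation : GalQ) • x = x := Iff.rfl

/-- **REAL**: up to a bounded factor the real points are at least the "square root" of the
Eisenstein part. -/
def StmtSelReal : Prop :=
  ∀ (N : ℕ) [NeZero N] (r : ℕ), N.Prime → r.Prime → r ≠ N →
    ∃ a : ℕ, ∀ k : ℕ,
      Nat.card ↥(selEisPart N r k) ≤ r ^ a * Nat.card ↥(selEisPart N r k ⊓ selFixC N) ^ 2

/-- **(CNT\*)**: the uniform count. -/
def StmtSelCntStar : Prop :=
  ∀ (N : ℕ) [NeZero N] (r : ℕ), N.Prime → r.Prime → r ≠ N →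
    ∀ AN : ValuationSubring Kb, AN.LiesOverPrime N →
    ∃ a : ℕ, ∀ k : ℕ,
      Nat.card ↥(selEisPart N r k) ≤ r ^ a *
        (Nat.card ↥(selEisPart N r k ⊓ selIF N AN) * Nat.card ↥(selEisPart N r k ⊓ selFixC N))

/-! ## The complex conjugation and the multiplier -/

/-- the complex conjugation on `ℂˣ` -/
def realConjUnits : ℂˣ →* ℂˣ := Units.map (starRingEnd ℂ : ℂ →+* ℂ).toMonoidHom

/-- `χ ↦ conj ∘ χ ∘ j` -/
def realConjChar (N : ℕ) : CharGrp N →+ CharGrp N where
  toFun χ := ((MonoidHom.toAdditive realConjUnits).comp χ).comp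
    (MonoidHom.toAdditive (jConjGamma0 N))
  map_zero' := by
    refine AddMonoidHom.ext fun γ => ?_
    exact map_zero (MonoidHom.toAdditive realConjUnits)
  map_add' χ ψ := by
    refine AddMonoidHom.ext fun γ => ?_
    exact map_add (MonoidHom.toAdditive realConjUnits) _ _

theorem realConjChar_apply (N : ℕ) (χ : CharGrp N) (γ : Additive (Gamma0 N)) :
    realConjChar N χ γ = MonoidHom.toAdditive realConjUnits
      (χ (Additive.ofMul (jConjGamma0 N (Additive.toMul γ)))) := rfl

/-- **REAL-CONJ** (MuConj): the Kummer function of `c • x` is `τ ↦ conj (u (-τ̄))`, so the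
multiplier of `c • x` is `conj ∘ χ ∘ j`. -/
def StmtRealConj : Prop :=
  ∀ (N : ℕ) [NeZero N] (n : ℕ), 0 < n → ∀ (x : JZero N) (χ : CharGrp N),
    MuRel N n x χ → MuRel N n ((complexConjugation : GalQ) • x) (realConjChar N χ)

end Fermat.Agent.S15

end
end ZBZ2S15_045_2

/-! ### bundled: `Fermat.Agent.S15.CntOdd` -/
section ZBZ2S15_045_3

/-!
# S15 / SEL-CNT, glue `G-odd` (helper47)

`stmtSelCntOddCr_of : StmtSelCntStar → StmtSelArTrivEt → StmtSelEis → StmtSelCntOddCr`.

Chain `D.W` of `StmtSelEis`; no step jumps for both `V1` and `Q := selFixC N`: a trivial step is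
étale (`AR-3`), a step of type `μ_r` has no point fixed by the complex conjugation outside `W`
(`ψ w = c (ψ w) = (ψ w)⁻¹`, `(ψ w) ^ r = 1`, `r` odd).  So `#(G ∩ V1) · #(G ∩ Q) ≤ #G ≤
r ^ a · #(G ∩ P) · #(G ∩ Q)`.
-/

set_option autoImplicit false

noncomputable section

namespace Fermat.Agent.S15

open ModularCurve AlgebraicCurve

/-- **G-odd.** -/
theorem stmtSelCntOddCr_of (hStar : StmtSelCntStar) (hTE : StmtSelArTrivEt)
    (hEis : StmtSelEis) : StmtSelCntOddCr := by
  intro N _ r hN hr hrN hr2 cr hcr0 hrcr hcrc AN Ar hAN hAr V1 hV1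
  obtain ⟨a, ha⟩ := hStar N r hN hr hrN AN hAN
  refine ⟨a, fun k => ?_⟩
  obtain ⟨D, hD⟩ := hEis N r hN hr hrN cr hcr0 hrcr hcrc k
  exact cntodd_core hr hr2 k cr D hD V1 (selIF N AN) (selFixC N) (fun x hx => mem_selFixC.1 hx)
    (fun W W' hst ht => hTE N r k hN hr hrN hr2 Ar hAr V1 hV1 W W' hst ht) a (ha k)

end Fermat.Agent.S15

end
end ZBZ2S15_045_3

/-! ### bundled: `Fermat.Agent.S15.ToricTameMain` -/
section ZBZ2S15_045_4

/-!
# S15 / CNT / TORIC, piece T-tame: `stmtToricTame : StmtToricTame`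
-/

set_option autoImplicit false
set_option linter.style.haveILetI false

namespace Fermat.Agent.S15

open Fermat.Agent.S24

/-- **T-tame**: the tame inertia at `N` is cyclic (unconditional). -/
theorem stmtToricTame : StmtToricTame := by
  intro N hN A hA E hfd hnorm
  haveI : Algebra.IsAlgebraic ℚ Kb := Fermat.Agent.S05.isAlgebraic_rat_qbar_of _
  haveI := hfd
  haveI := hnorm
  exact toric_tame A hN hA E

end Fermat.Agent.S15


end ZBZ2S15_045_4
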