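/- GENERATED FILE (helper35, build-time optimisation, NOTES/ZB.md): verbatim concatenation of the modules
   Fermat.Agent.UNIP.Glue
   Do not edit; do not import together with these modules. -/
import Fermat.Agent.ZB.Cheb_001

/-! ### bundled: `Fermat.Agent.UNIP.Glue` -/
section ZBZ2UNIP_001_0

/-!
# UNIP glue (U12): `StmtUnipKummer ⇒ S34.ESUnip N p (JZero N)`

`x = [D]`, `pⁿ D = div u`; `D' := σD − D`, `u' := σu / u`, `pⁿ D' = div u'`;
`StmtUnipKummer` gives `σ u' / u' = h ^ (pⁿ)`, hence `σ [D'] = [D']`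
(`ES.G2.unram_pic0_smul_eq`), i.e. `σσx − 2σx + x = 0`.
-/

set_option autoImplicit false

noncomputable section

namespace Fermat.Agent.UNIP

open ModularCurve AlgebraicCurve Fermat.Agent.ES Fermat.Agent.ES.G2

section Generic

variable {K F : Type*} [Field K] [Field F] [Algebra K F]

/-- If `m D = div u` and `g₂ (g₁ u / u) / (g₁ u / u) = h ^ m`, then `g₂` fixes `g₁ [D] − [D]`. -/
theorem unip_pic0_smul_sub_eq (g₁ g₂ : SemilinearAut K F)
    (D : Divisor.degZero (K := K) (F := F))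
    (m : ℕ) (hm : m ≠ 0) (u : F) (hu : u ≠ 0)
    (hD : ∀ v : Place K F, (m : ℤ) * (D : Divisor K F) v = v.ord u)
    (h : F) (hh : h ^ m = (g₂ • ((g₁ • u) / u)) / ((g₁ • u) / u)) :
    g₂ • (g₁ • Pic0.mk D - Pic0.mk D) = g₁ • Pic0.mk D - Pic0.mk D := by
  have hgu : g₁ • u ≠ 0 := by
    rw [SemilinearAut.smul_def]
    exact (map_ne_zero_iff _ (SemilinearAut.toRingAut g₁).injective).mpr hu
  have hu' : (g₁ • u) / u ≠ 0 := div_ne_zero hgu hu
  have hD' : ∀ v : Place K F,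
      (m : ℤ) * ((SemilinearAut.degZeroSMulHom g₁ D - D :
          Divisor.degZero (K := K) (F := F)) : Divisor K F) v
        = v.ord ((g₁ • u) / u) := by
    intro v
    have h2 : v.ord (g₁ • u) = (g₁⁻¹ • v).ord u := by
      have := SemilinearAut.ord_smul g₁ (g₁⁻¹ • v) u
      rwa [smul_inv_smul] at this
    rw [unram_ord_div v hgu hu, h2, ← hD, ← hD]
    have e1 : ((SemilinearAut.degZeroSMulHom g₁ D - D :
          Divisor.degZero (K := K) (F := F)) : Divisor K F) v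
        = (D : Divisor K F) (g₁⁻¹ • v) - (D : Divisor K F) v := by
      show ((g₁ • (D : Divisor K F)) - (D : Divisor K F)) v = _
      rw [Finsupp.sub_apply, SemilinearAut.divisor_smul_apply]
    rw [e1]
    ring
  have key := unram_pic0_smul_eq g₂ (SemilinearAut.degZeroSMulHom g₁ D - D) m hm
    ((g₁ • u) / u) hu' hD' h hh
  have e2 : Pic0.mk (SemilinearAut.degZeroSMulHom g₁ D - D)
      = g₁ • Pic0.mk D - Pic0.mk D := by
    rw [SemilinearAut.pic0_smul_mk]
    rfl
  rwa [e2] at key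

end Generic

/-- **U12.** The Kummer form of (UNIP) gives the clause `ESUnip` for `J₀(N)(ℚ̄)`. -/
theorem esUnip_of_stmtUnipKummer (h : StmtUnipKummer) (N p : ℕ) [NeZero N] (hp : p.Prime) :
    Fermat.Agent.S34.ESUnip N p (JZero N) := by
  intro q hq hqp hqN hq2 A hA σ hσ x hx
  obtain ⟨n, hn⟩ := hx
  obtain ⟨D, rfl⟩ := Pic0.mk_surjective x
  have hp0 : p ≠ 0 := hp.ne_zero
  have hqp' : ¬ q ∣ p := fun hd => hqp ((Nat.prime_dvd_prime_iff_eq hq hp).mp hd)
  have hqpn : ¬ q ∣ p ^ n := fun hd => hqp' (hq.dvd_of_dvd_pow hd)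
  have hpn0 : p ^ n ≠ 0 := pow_ne_zero n hp0
  have hprin : ((p ^ n • D : Divisor.degZero (K := Qb) (F := modularFunctionFieldBar N)) :
      Divisor Qb (modularFunctionFieldBar N)) ∈ Divisor.principal := by
    have h1 : Pic0.mk (p ^ n • D) = 0 := by
      rw [← hn]; rfl
    unfold Pic0.mk at h1
    rw [QuotientAddGroup.eq_zero_iff, AddSubgroup.mem_addSubgroupOf] at h1
    exact h1
  obtain ⟨u, hu, hDu⟩ := hprin
  have hDu' : ∀ v : Place Qb (modularFunctionFieldBar N),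
      ((p ^ n : ℕ) : ℤ) * (D : Divisor Qb (modularFunctionFieldBar N)) v = v.ord u := by
    intro v
    rw [← hDu v, AddSubgroup.coe_nsmul, Finsupp.smul_apply, nsmul_eq_mul]
  have hdvd : ∀ P : Place Qb (modularFunctionFieldBar N), ((p ^ n : ℕ) : ℤ) ∣ P.ord u :=
    fun P => ⟨_, (hDu' P).symm⟩
  set g := arithmeticGalois (modularFunctionFieldFull N) σ with hg
  obtain ⟨k, hk⟩ := h N q hq hqN hq2 A hA (p ^ n) hqpn σ hσ σ hσ u hu hdvd
  have key := unip_pic0_smul_sub_eq g g D (p ^ n) hpn0 u hu hDu' k hk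
  -- `g (g x − x) = g x − x`
  have key' : σ • (σ • Pic0.mk D - Pic0.mk D) = σ • Pic0.mk D - Pic0.mk D := key
  rw [smul_sub] at key'
  have e : σ • σ • Pic0.mk D - 2 • (σ • Pic0.mk D) + Pic0.mk D
      = (σ • σ • Pic0.mk D - σ • Pic0.mk D) - (σ • Pic0.mk D - Pic0.mk D) := by
    rw [two_nsmul]; abel
  rw [e, key', sub_self]

end Fermat.Agent.UNIP

end
end ZBZ2UNIP_001_0
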