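/- GENERATED FILE (helper35, build-time optimisation, NOTES/ZB.md): verbatim concatenation of the modules
   Fermat.Agent.S15.ESk
   Fermat.Agent.S15.SelTop
   Fermat.Agent.S15.SelEis
   Fermat.Agent.S15.ToricPre
   Fermat.Agent.S15.ToricGlue
   Fermat.Agent.S15.Toric
   Fermat.Agent.S15.ToricKummer
   Fermat.Agent.S15.RealAsmCore
   Fermat.Agent.S15.RealAsm
   Do not edit; do not import together with these modules. -/
import Fermat.Agent.ZB.ES_005
import Fermat.Agent.ZB.INJ_034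
import Fermat.Agent.ZB.ES_012
import Fermat.Agent.ZB.ES_035
import Fermat.Agent.ZB.ES_001
import Fermat.Agent.ZB.Z2S15_035
import Fermat.Agent.ZB.Common_001
import Fermat.Agent.ZB.Z2S15_041
import Fermat.Agent.ZB.Z2S15_037
import Fermat.Agent.ZB.Cheb_002
import Fermat.Agent.ZB.Cheb_001
import Fermat.Agent.ZB.Z2S15_045
import Fermat.Agent.ZB.Z2UNIP_001
import Fermat.Agent.ZB.STB_002
import Fermat.Agent.ZB.Z2S15_044
import Fermat.Agent.ZB.Z2S15_047
import Fermat.Prelude.Def_GaloisRep_ComplexConjugation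

/-! ### bundled: `Fermat.Agent.S15.ESk` -/
section ZBZ2S15_036_0

/-!
# S15 / HECKE / ES-k: the Eichler–Shimura relation and the triviality of inertia on `J₀(N)[r^k]`

Unconditional forms (the INJ campaign is finished: `Fermat.Agent.INJ.injAll_stmtINJAll`).

* `esk_stmtFrob N r : ES.StmtFrob N r`, `esk_stmtUnram N r : ES.StmtUnram N r`;
* `esk_frob` : `τ² x - T_q (τ x) + q x = 0` for `r^k • x = 0`, `q ∤ N r`, `τ` a Frobenius at `A ∣ q`;
* `esk_unram` : `σ x = x` for `r^k • x = 0`, `σ ∈ I_A`, `A ∣ q`, `q ∤ N r`.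
-/

set_option autoImplicit false

namespace Fermat.Agent.S15

open ModularCurve Fermat.Agent.ES

/-- clause `frob` of the ES package, unconditionally -/
theorem esk_stmtFrob (N r : ℕ) [NeZero N] : Fermat.Agent.ES.StmtFrob N r :=
  Fermat.Agent.ES.G2.stmtFrob_of_stmtINJAll Fermat.Agent.INJ.injAll_stmtINJAll N r

/-- clause `unram` of the ES package, unconditionally -/
theorem esk_stmtUnram (N r : ℕ) [NeZero N] : Fermat.Agent.ES.StmtUnram N r :=
  Fermat.Agent.ES.G2.stmtUnram_of_stmtINJAll Fermat.Agent.INJ.injAll_stmtINJAll N r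

/-- **ES-k (frob)**: on `V_k = J₀(N)[r^k]`, `τ² - T_q τ + q = 0` for a Frobenius `τ` at `q ∤ N r`. -/
theorem esk_frob (N r : ℕ) [NeZero N] (q : ℕ) (hq : q.Prime) (hqNr : ¬ q ∣ N * r)
    (A : ValuationSubring (AlgebraicClosure ℚ)) (hA : A.LiesOverPrime q)
    (τ : AlgebraicClosure ℚ ≃ₐ[ℚ] AlgebraicClosure ℚ) (hτ : A.IsFrobeniusAt τ q)
    (k : ℕ) (x : JZero N) (hx : r ^ k • x = 0) :
    τ • τ • x - heckeOperatorBar N ⟨q, hq⟩ (τ • x) + q • x = 0 :=
  esk_stmtFrob N r q hq hqNr A hA τ hτ x ⟨k, hx⟩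

/-- **ES-k (unram)**: inertia at `q ∤ N r` acts trivially on `V_k = J₀(N)[r^k]`. -/
theorem esk_unram (N r : ℕ) [NeZero N] (q : ℕ) (hq : q.Prime) (hqNr : ¬ q ∣ N * r)
    (A : ValuationSubring (AlgebraicClosure ℚ)) (hA : A.LiesOverPrime q)
    (σ : AlgebraicClosure ℚ ≃ₐ[ℚ] AlgebraicClosure ℚ) (hσ : σ ∈ A.inertiaSubgroupIn ℚ)
    (k : ℕ) (x : JZero N) (hx : r ^ k • x = 0) : σ • x = x :=
  esk_stmtUnram N r q hq hqNr A hA σ hσ x ⟨k, hx⟩

/-- `V_k = J₀(N)[m]` is finite (`m ≠ 0`). -/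
theorem esk_finite (N : ℕ) [NeZero N] (m : ℕ) (hm : m ≠ 0) : {x : JZero N | m • x = 0}.Finite :=
  Fermat.Agent.ES.jFinite_of_torsionUnif hm
    (Fermat.Agent.ES.torsionUnif_proved N m (Nat.pos_of_ne_zero hm))

/-- the Hecke operators `T_q` commute with `G_ℚ` on `J₀(N)`. -/
theorem esk_galois_hecke (N : ℕ) [NeZero N]
    (σ : AlgebraicClosure ℚ ≃ₐ[ℚ] AlgebraicClosure ℚ) (q : Nat.Primes) (x : JZero N) :
    σ • heckeOperatorBar N q x = heckeOperatorBar N q (σ • x) :=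
  Fermat.Agent.ES.galois_heckeOperatorBar N σ q x

/-- every torsion point of `J₀(N)` is fixed by an open subgroup of `G_ℚ`. -/
theorem esk_finiteLevel (N : ℕ) (m : ℕ) (hm : m ≠ 0) (x : JZero N) (hx : m • x = 0) :
    ∃ E : IntermediateField ℚ (AlgebraicClosure ℚ), FiniteDimensional ℚ E ∧
      ∀ σ : AlgebraicClosure ℚ ≃ₐ[ℚ] AlgebraicClosure ℚ, (∀ a ∈ E, σ a = a) → σ • x = x :=
  Fermat.Agent.ES.exists_field_fixing_torsion N m hm x hx

end Fermat.Agent.S15


end ZBZ2S15_036_0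

/-! ### bundled: `Fermat.Agent.S15.SelTop` -/
section ZBZ2S15_036_1

/-!
# S15 / SELMER block: the top of the descent (SEL-TOP)

`stmtFinCore_of` : the goal `StmtFinCore` of the SELMER block from the pieces of
`S15/SelPlan.lean` and `StmtFinRed`.
-/

set_option autoImplicit false

noncomputable section

namespace Fermat.Agent.S15

open ModularCurve AlgebraicCurve
open Fermat.Agent.S24 Fermat.Agent.W1

/-! ## Generalities on steps -/

/-- a step of index `2` has trivial action -/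
theorem selstep_triv_of_two {N k : ℕ} [NeZero N] {W W' : AddSubgroup (JZero N)}
    (h : SelStep N 2 k W W') : SelStepTriv W W' := by
  intro σ w hw
  obtain ⟨a, ha, hab⟩ := AddSubgroup.relIndex_eq_two_iff.1 h.idx
  by_cases hwW : w ∈ W
  · exact W.sub_mem (h.stab σ w hwW) hwW
  · have hσw : σ • w ∉ W := by
      intro hσ
      have := h.stab σ⁻¹ _ hσ
      rw [inv_smul_smul] at this
      exact hwW this
    have h1 : w + a ∈ W := by
      rcases hab w hw with ⟨h1, _⟩ | ⟨h1, _⟩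
      · exact h1
      · exact absurd h1 hwW
    have h2 : σ • w + a ∈ W := by
      rcases hab (σ • w) (h.stab' σ w hw) with ⟨h1, _⟩ | ⟨h1, _⟩
      · exact h1
      · exact absurd h1 hσw
    have : σ • w - w = (σ • w + a) - (w + a) := by abel
    rw [this]
    exact W.sub_mem h2 h1

/-- the groups of the chain are `G`-stable -/
theorem seltop_stable {N r k : ℕ} [NeZero N] (W : ℕ → AddSubgroup (JZero N)) (L : ℕ)
    (hW0 : W 0 = ⊥) (hstep : ∀ i < L, SelStep N r k (W i) (W (i + 1))) :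
    ∀ i ≤ L, ∀ σ : GalQ, ∀ w ∈ W i, σ • w ∈ W i := by
  intro i hi σ w hw
  cases i with
  | zero =>
    rw [hW0, AddSubgroup.mem_bot] at hw ⊢
    subst hw
    exact smul_zero (A := JZero N) σ
  | succ j => exact (hstep j (Nat.lt_of_succ_le hi)).stab' σ w hw

/-- the chain is increasing -/
theorem seltop_mono {N r k : ℕ} [NeZero N] (W : ℕ → AddSubgroup (JZero N)) (L : ℕ)
    (hstep : ∀ i < L, SelStep N r k (W i) (W (i + 1))) :
    ∀ i ≤ L, W i ≤ W L := by
  intro i hi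
  obtain ⟨d, rfl⟩ := Nat.exists_eq_add_of_le hi
  clear hi
  induction d with
  | zero => exact le_rfl
  | succ d ih =>
    have h1 := ih (fun j hj => hstep j (by omega))
    exact h1.trans (hstep (i + d) (by omega)).le

/-- the torsion is finite -/
theorem seltop_finite {N : ℕ} [NeZero N] (m : ℕ) (hm : m ≠ 0) (W : AddSubgroup (JZero N))
    (hW : ∀ w ∈ W, m • w = 0) : Finite ↥W :=
  Set.Finite.to_subtype ((esk_finite N m hm).subset (fun w hw => hW w hw))

/-- the bound for the rational torsion from `StmtFinRed` -/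
theorem seltop_tors_bound (hFR : StmtFinRed) (N : ℕ) [NeZero N] (hN : IsMazurLevel N)
    (r : ℕ) (hr : r.Prime) (𝒥 : AddSubgroup (JZero N)) :
    ∃ t : ℕ, ∀ (k : ℕ) (Gk : AddSubgroup (JZero N)), (∀ x ∈ Gk, r ^ k • x = 0) →
      Nat.card ↥(selY GalQ 𝒥 ⊥ ⊓ Gk) ≤ r ^ t := by
  classical
  -- a prime `v ≠ N, r`
  obtain ⟨v, hv, hvN, hvr⟩ : ∃ v : ℕ, v.Prime ∧ v ≠ N ∧ r ≠ v := by
    by_cases h2 : 2 ≠ N ∧ r ≠ 2
    · exact ⟨2, Nat.prime_two, h2.1, h2.2⟩
    · by_cases h3 : 3 ≠ N ∧ r ≠ 3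
      · exact ⟨3, Nat.prime_three, h3.1, h3.2⟩
      · refine ⟨5, by norm_num, ?_, ?_⟩
        · intro h5
          have := hN.2
          rw [← h5] at this
          simp at this
        · intro h5
          have hN2 := hN.2
          simp only [Finset.mem_insert, Finset.mem_singleton, not_or] at hN2
          have : ¬ (2 ≠ N) ∨ ¬ (r ≠ 2) := by tauto
          have : ¬ (3 ≠ N) ∨ ¬ (r ≠ 3) := by tauto
          omega
  obtain ⟨A, hA⟩ := Fermat.Agent.Common.exists_liesOverPrime v hv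
  obtain ⟨k₀, hk₀⟩ := hFR N hN v hv hvN r hr hvr A hA
  have hfin : {x : JZero N | r ^ k₀ • x = 0}.Finite :=
    esk_finite N (r ^ k₀) (pow_ne_zero _ hr.ne_zero)
  refine ⟨hfin.toFinset.card, fun k Gk hGk => ?_⟩
  have hsub : ∀ x ∈ selY GalQ 𝒥 ⊥ ⊓ Gk, x ∈ hfin.toFinset := by
    intro x hx
    rw [Set.Finite.mem_toFinset]
    obtain ⟨hx1, hx2⟩ := hx
    have hfix := (mem_selY_bot.1 hx1).2
    exact hk₀ x (fun σ _ => hfix σ) ⟨k, hGk x hx2⟩
  have h1 : Nat.card ↥(selY GalQ 𝒥 ⊥ ⊓ Gk) ≤ hfin.toFinset.card := by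
    have hinj : Function.Injective
        (fun x : ↥(selY GalQ 𝒥 ⊥ ⊓ Gk) => (⟨x.1, hsub x.1 x.2⟩ : ↥hfin.toFinset)) :=
      fun a b h => Subtype.ext (congrArg (fun y : ↥hfin.toFinset => (y : JZero N)) h)
    have := Nat.card_le_card_of_injective _ hinj
    have e : Nat.card ↥hfin.toFinset = hfin.toFinset.card := by
      rw [Nat.card_eq_fintype_card, Fintype.card_coe]
    rwa [e] at this
  exact h1.trans (Nat.lt_pow_self hr.one_lt).le

/-- an index inside a finite group is positive -/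
theorem seltop_relIndex_pos {N : ℕ} [NeZero N] {P0 P1 : AddSubgroup (JZero N)} (h : P0 ≤ P1) (hfin : Finite ↥P1) :
    0 < P0.relIndex P1 := by
  have h1 := selch_card_mul_relIndex h
  have h2 : 0 < Nat.card ↥P1 := Nat.card_pos
  rw [← h1] at h2
  exact Nat.pos_of_ne_zero (fun h0 => by rw [h0, mul_zero] at h2; exact lt_irrefl 0 h2)

/-- **the step bounds**: the four hypotheses of `sel_main_defect` for one step. -/
theorem seltop_step (hEt : StmtSelArEt) (hCn : StmtSelArConnOdd)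
    (h3 : StmtSelArTrivEt) (h4 : StmtSelArCycConn)
    (N : ℕ) [NeZero N] (r k : ℕ) (hN : N.Prime) (hr : r.Prime) (hrN : r ≠ N)
    (AN Ar : ValuationSubring Kb) (hAN : AN.LiesOverPrime N) (hAr : Ar.LiesOverPrime r)
    (V1 : AddSubgroup (JZero N)) (hV1 : SelLocR N r Ar V1)
    (W W' : AddSubgroup (JZero N)) (hs : SelStep N r k W W')
    (hty : SelStepTriv W W' ∨ SelStepCyc W W')
    (hC2 : r = 2 → ∃ a₀ : JZero N, ∀ a ∈ selIF N AN, (∀ σ : GalQ, σ • a - a ∈ W') →
      (∀ σ : GalQ, σ • a - a ∈ W) ∨ (∀ σ : GalQ, σ • (a - a₀) - (a - a₀) ∈ W)) :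
    (W' ⊓ V1 ≤ W → (selY GalQ (selIF N AN) W ⊔ W').relIndex (selY GalQ (selIF N AN) W') = 1) ∧
    (W' ⊓ V1 ≤ W → ¬ (W' ⊓ selIF N AN ≤ W) →
      W.relIndex (selY GalQ (selIF N AN) W ⊓ W') = r) ∧
    (¬ (W' ⊓ V1 ≤ W) → ¬ (W' ⊓ selIF N AN ≤ W) →
      (selY GalQ (selIF N AN) W ⊔ W').relIndex (selY GalQ (selIF N AN) W') ≠ 0 ∧
      (selY GalQ (selIF N AN) W ⊔ W').relIndex (selY GalQ (selIF N AN) W')
        ≤ W.relIndex (selY GalQ (selIF N AN) W ⊓ W')) ∧
    (¬ (W' ⊓ V1 ≤ W) → W' ⊓ selIF N AN ≤ W →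
      (selY GalQ (selIF N AN) W ⊔ W').relIndex (selY GalQ (selIF N AN) W') ≠ 0 ∧
      (selY GalQ (selIF N AN) W ⊔ W').relIndex (selY GalQ (selIF N AN) W') ≤ r) := by
  have hfinW' : Finite ↥W' := seltop_finite (r ^ k) (pow_ne_zero _ hr.ne_zero) W' hs.tors
  have hfinYW : Finite ↥(selY GalQ (selIF N AN) W ⊓ W') :=
    Finite.of_injective
      (fun x : ↥(selY GalQ (selIF N AN) W ⊓ W') => (⟨x.1, x.2.2⟩ : ↥W'))
      (fun a b h => Subtype.ext (congrArg (fun y : ↥W' => (y : JZero N)) h))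
  have hkpos : 0 < W.relIndex (selY GalQ (selIF N AN) W ⊓ W') :=
    seltop_relIndex_pos (le_inf (le_selY hs.stab) hs.le) hfinYW
  -- consequences of the two types
  have hTriv1 : SelStepTriv W W' → W' ⊓ V1 ≤ W →
      (selY GalQ (selIF N AN) W ⊔ W').relIndex (selY GalQ (selIF N AN) W') = 1 := by
    intro ht het
    exact selst_c_eq_one_of_vanish (selIF N AN) W W' hs.stab'
      (hEt N r k hN hr hrN AN Ar hAN hAr V1 hV1.inertia W W' hs ht het)
  have hTriv2 : SelStepTriv W W' → ¬ (W' ⊓ selIF N AN ≤ W) →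
      W.relIndex (selY GalQ (selIF N AN) W ⊓ W') = r := by
    intro ht hfin
    rw [selst_k_eq (selIF N AN) W W' ((selst_fin_iff hr (selIF N AN) W W' hs.le hs.idx).1 hfin)
      ht, hs.idx]
  by_cases hr2 : r = 2
  · obtain ⟨a₀, ha₀⟩ := hC2 hr2
    subst hr2
    have ht : SelStepTriv W W' := selstep_triv_of_two hs
    have hc2 := selst_c_le_two (selIF N AN) W W' hs.stab' a₀ ha₀
    refine ⟨hTriv1 ht, fun _ => hTriv2 ht, fun _ hfin => ⟨hc2.1, ?_⟩, fun _ _ => hc2⟩
    rw [hTriv2 ht hfin]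
    exact hc2.2
  · rcases hty with ht | hcy
    · have het : W' ⊓ V1 ≤ W := h3 N r k hN hr hrN hr2 Ar hAr V1 hV1 W W' hs ht
      exact ⟨hTriv1 ht, fun _ => hTriv2 ht, fun hc _ => absurd het hc, fun hc _ => absurd het hc⟩
    · have hconn : ¬ (W' ⊓ V1 ≤ W) := h4 N r k hr hr2 Ar hAr V1 hV1.inertia W W' hs hcy
      have hcob := hCn N r k hN hr hrN hr2 AN Ar hAN hAr V1 hV1 W W' hs hcy
      refine ⟨fun het => absurd het hconn, fun het _ => absurd het hconn, fun _ hfin => ?_,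
        fun _ _ => ?_⟩
      · have h1 := selst_c_eq_one_of_fin (selIF N AN) W W' hs.stab'
          ((selst_fin_iff hr (selIF N AN) W W' hs.le hs.idx).1 hfin) hcob
        rw [h1]
        exact ⟨one_ne_zero, hkpos⟩
      · have h1 := selst_c_le_index (selIF N AN) W W' hs.stab hs.stab' hfinW' hcob
        rw [hs.idx] at h1
        exact h1

/-- **SEL-TOP, core**: the descent at one pair `(N, r)`. -/
theorem seltop_core (hLocR : StmtSelLocR) (hEis : StmtSelEis)
    (hFR : StmtFinRed) (hEt : StmtSelArEt) (hCn : StmtSelArConnOdd)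
    (h3 : StmtSelArTrivEt) (h4 : StmtSelArCycConn)
    (N : ℕ) [NeZero N] (hNM : IsMazurLevel N) (r : ℕ) (hr : r.Prime) (hrN : r ≠ N)
    (hCnt : ∀ AN Ar : ValuationSubring Kb, AN.LiesOverPrime N → Ar.LiesOverPrime r →
      ∀ V1 : AddSubgroup (JZero N), SelLocR N r Ar V1 →
      ∃ a : ℕ, ∀ k : ℕ, Nat.card ↥(selEisPart N r k ⊓ V1)
        ≤ r ^ a * Nat.card ↥(selEisPart N r k ⊓ selIF N AN))
    (hC2 : r = 2 → ∀ (k : ℕ) (AN Ar : ValuationSubring Kb), AN.LiesOverPrime N →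
      Ar.LiesOverPrime r → ∀ V1 : AddSubgroup (JZero N), SelLocR N r Ar V1 →
      ∀ W W' : AddSubgroup (JZero N), SelStep N r k W W' →
      ∃ a₀ : JZero N, ∀ a ∈ selIF N AN, (∀ σ : GalQ, σ • a - a ∈ W') →
        (∀ σ : GalQ, σ • a - a ∈ W) ∨ (∀ σ : GalQ, σ • (a - a₀) - (a - a₀) ∈ W))
    (cr : JZero N) (hcr0 : cr ≠ 0) (hrcr : r • cr = 0) (hcrc : ∃ n : ℕ, cr = n • cuspClass N)
    (AN : ValuationSubring Kb) (hAN : AN.LiesOverPrime N)
    (w : JZero N) (hw : ∀ σ : GalQ, σ • w = w)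
    (hdiv : ∀ k : ℕ, ∃ R ∈ selIF N AN, r ^ k • R = w) : FinAbs GalQ r cr w := by
  have hN : N.Prime := hNM.1
  obtain ⟨Ar, hAr⟩ := Fermat.Agent.Common.exists_liesOverPrime r hr
  obtain ⟨V1, hV1⟩ := hLocR N r hN hr hrN Ar hAr
  obtain ⟨a, ha⟩ := hCnt AN Ar hAN hAr V1 hV1
  obtain ⟨t, ht⟩ := seltop_tors_bound hFR N hNM r hr (selIF N AN)
  refine ⟨t + a, fun k' => ?_⟩
  set k := k' + (t + a) with hk
  obtain ⟨D, hD⟩ := hEis N r hN hr hrN cr hcr0 hrcr hcrc k
  have hGk : ∀ x ∈ selEisPart N r k, r ^ k • x = 0 := fun x hx => (mem_selEisPart.1 hx).1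
  have hstep : ∀ i < D.L, SelStep N r k (D.W i) (D.W (i + 1)) := fun i hi => (hD.step i hi).1
  have hmono := seltop_mono D.W D.L hstep
  have hstab := seltop_stable D.W D.L hD.W_zero hstep
  have hfin : ∀ i ≤ D.L, Finite ↥(D.W i) := fun i hi =>
    seltop_finite (r ^ k) (pow_ne_zero _ hr.ne_zero) (D.W i)
      (fun x hx => hGk x (hD.W_top ▸ hmono i hi hx))
  have hst : ∀ i < D.L, _ := fun i hi =>
    seltop_step hEt hCn h3 h4 N r k hN hr hrN AN Ar hAN hAr V1 hV1 _ _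
      (hstep i hi) (hD.step i hi).2
      (fun h2 => hC2 h2 k AN Ar hAN hAr V1 hV1 _ _ (hstep i hi))
  have hbound : ∀ j ∈ selY GalQ (selIF N AN) (selEisPart N r k),
      r ^ (t + a) • j ∈ selY GalQ (selIF N AN) ⊥ ⊔ selEisPart N r k := by
    intro j hj
    rw [← hD.W_top] at hj ⊢
    refine sel_main_defect hr (selIF N AN) V1 D.W D.L t a hD.W_zero
      (fun i hi => (hstep i hi).le) hstab hfin (fun i hi => (hstep i hi).idx) ?_
      (fun i hi => (hst i hi).1) (fun i hi => (hst i hi).2.1) (fun i hi => (hst i hi).2.2.1)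
      (fun i hi => (hst i hi).2.2.2) ?_ hj
    · rw [hD.W_top]; exact ha k
    · rw [hD.W_top]; exact ht k _ hGk
  obtain ⟨R, hR, hRw⟩ := hdiv k
  have hE𝒥 : ∀ x ∈ selIF N AN, D.E x ∈ selIF N AN := by
    intro x hx σ hσ
    rw [← hD.E_equiv, hx σ hσ]
  obtain ⟨m, hm, -, hmE⟩ := sel_glue (G := GalQ) (selIF N AN) (selEisPart N r k) D.E hD.E_equiv
    hE𝒥 hD.E_mem hGk hbound w hw R hR hRw
  refine ⟨D.E, hD.E_equiv, hD.E_cr, m, hm, ?_⟩
  have e2 : r ^ k • m = r ^ (t + a) • (r ^ k' • m) := by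
    rw [hk, pow_add, mul_comm, mul_smul]
  rw [nsmul_sub, hmE, e2, sub_self]

/-- **SEL-TOP**: the goal of the SELMER block from its pieces (all `r`; for `r = 2` the inputs
`StmtSelCnt`, `StmtSelArConnTwo` are not expected to be available: use `stmtFinCoreOdd_of` and
`stmtFinCore_of_cases`). -/
theorem stmtFinCore_of (hLocR : StmtSelLocR) (hEis : StmtSelEis) (hCnt : StmtSelCnt)
    (hFR : StmtFinRed) (hEt : StmtSelArEt) (hCn : StmtSelArConnOdd) (hC2 : StmtSelArConnTwo)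
    (h3 : StmtSelArTrivEt) (h4 : StmtSelArCycConn) : StmtFinCore := by
  intro N _ hNM r hr hrN cr hcr0 hrcr hcrc AN hAN w hw hdiv
  refine seltop_core hLocR hEis hFR hEt hCn h3 h4 N hNM r hr hrN
    (fun AN Ar hAN hAr V1 hV1 => hCnt N r hNM.1 hr hrN AN Ar hAN hAr V1 hV1) ?_
    cr hcr0 hrcr hcrc AN hAN w hw hdiv
  intro h2 k AN Ar hAN hAr V1 hV1 W W' hs
  subst h2
  exact hC2 N k hNM.1 hrN AN Ar hAN hAr V1 hV1 W W' hs

/-- **SEL-TOP, `r` odd**. -/
theorem stmtFinCoreOdd_of (hLocR : StmtSelLocR) (hEis : StmtSelEis) (hCnt : StmtSelCntOdd)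
    (hFR : StmtFinRed) (hEt : StmtSelArEt) (hCn : StmtSelArConnOdd)
    (h3 : StmtSelArTrivEt) (h4 : StmtSelArCycConn) : StmtFinCoreOdd := by
  intro N _ hNM r hr hrN hr2 cr hcr0 hrcr hcrc AN hAN w hw hdiv
  exact seltop_core hLocR hEis hFR hEt hCn h3 h4 N hNM r hr hrN
    (fun AN Ar hAN hAr V1 hV1 => hCnt N r hNM.1 hr hrN hr2 AN Ar hAN hAr V1 hV1)
    (fun h2 => absurd h2 hr2) cr hcr0 hrcr hcrc AN hAN w hw hdiv

/-- **SEL-TOP, `r` odd**, from the count with the hypotheses on `cr`. -/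
theorem stmtFinCoreOdd_of_cr (hLocR : StmtSelLocR) (hEis : StmtSelEis)
    (hCnt : StmtSelCntOddCr) (hFR : StmtFinRed) (hEt : StmtSelArEt) (hCn : StmtSelArConnOdd)
    (h3 : StmtSelArTrivEt) (h4 : StmtSelArCycConn) : StmtFinCoreOdd := by
  intro N _ hNM r hr hrN hr2 cr hcr0 hrcr hcrc AN hAN w hw hdiv
  exact seltop_core hLocR hEis hFR hEt hCn h3 h4 N hNM r hr hrN
    (fun AN Ar hAN hAr V1 hV1 =>
      hCnt N r hNM.1 hr hrN hr2 cr hcr0 hrcr hcrc AN Ar hAN hAr V1 hV1)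
    (fun h2 => absurd h2 hr2) cr hcr0 hrcr hcrc AN hAN w hw hdiv

end Fermat.Agent.S15

end
end ZBZ2S15_036_1

/-! ### bundled: `Fermat.Agent.S15.SelEis` -/
section ZBZ2S15_036_2
/-
S15 / SELMER block, piece **SEL-EIS** (a) (helper72): the admissible composition series of the
Eisenstein part `G_k = selEisPart N r k` of `J₀(N)[r^k]`.

`stmtSelEisChain : StmtSelEisChain` — a chain `⊥ = W 0 ≤ … ≤ W L = G_k` of `G_ℚ`-stable subgroups
with steps of index `r` of type `SelStepTriv` or `SelStepCyc`.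

Inputs: `adm_chain` (ADM), `esk_frob`, `esk_finite`, `esk_galois_hecke` (ES-k), weak Chebotarev
(`Cheb.exists_frobenius_pow_eq`), the mod `r` cyclotomic character (`S42.cycloChar`), finite level
(`selfl_exists_field_finset`).
-/

set_option autoImplicit false
set_option linter.style.haveILetI false

noncomputable section

namespace Fermat.Agent.S15

open ModularCurve AlgebraicCurve
open Fermat.Agent.S24 Fermat.Agent.W1

/-- the Eisenstein operators commute with `G_ℚ` -/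
theorem seleis_op_smul (N : ℕ) [NeZero N] (q : Nat.Primes) (σ : GalQ) (x : JZero N) :
    selEisOp N q (σ • x) = σ • selEisOp N q x := by
  simp only [selEisOp, LinearMap.sub_apply, LinearMap.smul_apply, Module.End.one_apply, smul_sub]
  rw [esk_galois_hecke N σ q x, natCast_zsmul, natCast_zsmul]
  congr 1
  exact (map_nsmul (DistribSMul.toAddMonoidHom (JZero N) σ) _ x).symm

theorem seleis_op_pow_smul (N : ℕ) [NeZero N] (q : Nat.Primes) (m : ℕ) (σ : GalQ)
    (x : JZero N) : (selEisOp N q ^ m) (σ • x) = σ • (selEisOp N q ^ m) x := by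
  induction m generalizing x with
  | zero => rfl
  | succ m ih => rw [pow_succ, Module.End.mul_apply, Module.End.mul_apply, seleis_op_smul, ih]

/-- the Eisenstein part is `G_ℚ`-stable -/
theorem seleis_stable (N r k : ℕ) [NeZero N] (σ : GalQ) {v : JZero N}
    (hv : v ∈ selEisPart N r k) : σ • v ∈ selEisPart N r k := by
  refine ⟨?_, fun q hq => ?_⟩
  · have h1 : r ^ k • σ • v = σ • (r ^ k • v) :=
      (map_nsmul (DistribSMul.toAddMonoidHom (JZero N) σ) (r ^ k) v).symm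
    have h0 : σ • (0 : JZero N) = 0 := smul_zero (A := JZero N) σ
    rw [h1, hv.1]
    exact h0
  · obtain ⟨m, hm⟩ := hv.2 q hq
    refine ⟨m, ?_⟩
    have h0 : σ • (0 : JZero N) = 0 := smul_zero (A := JZero N) σ
    rw [seleis_op_pow_smul, hm]
    exact h0

/-- Eichler–Shimura: `(τ - 1)(τ - ℓ) = (T_ℓ - (1 + ℓ)) ∘ τ` on `J[r^k]` -/
theorem seleis_admE_eq (N r : ℕ) [NeZero N] (ℓ : ℕ) (hℓ : ℓ.Prime) (hℓNr : ¬ ℓ ∣ N * r)
    (A : ValuationSubring (AlgebraicClosure ℚ)) (hA : A.LiesOverPrime ℓ)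
    (τ : GalQ) (hτ : A.IsFrobeniusAt τ ℓ) (k : ℕ) (x : JZero N) (hx : r ^ k • x = 0) :
    admE τ ℓ x = selEisOp N ⟨ℓ, hℓ⟩ (τ • x) := by
  have h := esk_frob N r ℓ hℓ hℓNr A hA τ hτ k x hx
  simp only [selEisOp, LinearMap.sub_apply, LinearMap.smul_apply, Module.End.one_apply, admE]
  rw [natCast_zsmul]
  have h2 : τ • τ • x + ℓ • x = heckeOperatorBar N ⟨ℓ, hℓ⟩ (τ • x) := by
    have := sub_eq_zero.1 (by rw [← h]; abel :
      τ • τ • x + ℓ • x - heckeOperatorBar N ⟨ℓ, hℓ⟩ (τ • x) = 0)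
    exact this
  rw [← h2]
  abel

/-- **SEL-EIS (a)** -/
theorem stmtSelEisChain : StmtSelEisChain := by
  intro N _ r hN hr hrN k
  classical
  haveI : Fact r.Prime := ⟨hr⟩
  haveI : NeZero r := ⟨hr.ne_zero⟩
  have hrk : r ^ k ≠ 0 := pow_ne_zero k hr.ne_zero
  have hfin : {x : JZero N | r ^ k • x = 0}.Finite := esk_finite N (r ^ k) hrk
  have hVfin : (selEisPart N r k : Set (JZero N)).Finite := hfin.subset (fun x hx => hx.1)
  haveI : Finite ↥(selEisPart N r k) := hVfin.to_subtype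
  have hVG : ∀ σ : GalQ, ∀ v ∈ selEisPart N r k, σ • v ∈ selEisPart N r k :=
    fun σ v hv => seleis_stable N r k σ hv
  have hVr : ∀ v ∈ selEisPart N r k, r ^ k • v = 0 := fun v hv => hv.1
  -- the cyclotomic character
  haveI : NeZero (r : AlgebraicClosure ℚ) := ⟨Nat.cast_ne_zero.mpr hr.ne_zero⟩
  obtain ⟨ζ, hζ⟩ := HasEnoughRootsOfUnity.exists_primitiveRoot (AlgebraicClosure ℚ) r
  have hχ : ∀ σ : GalQ, σ ζ = ζ ^ ((Fermat.Agent.S42.cycloChar r σ : ZMod r).val) :=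
    fun σ => Fermat.Agent.S42.cycloChar_spec r σ hζ
  -- the field of definition
  have hE₁ : FiniteDimensional ℚ (IntermediateField.adjoin ℚ ({ζ} : Set (AlgebraicClosure ℚ))) :=
    IntermediateField.adjoin.finiteDimensional
      (hζ.isIntegral hr.pos).tower_top
  obtain ⟨K₀, hζK, hK₀fin, hK₀gal, hK₀⟩ :=
    selfl_exists_field_finset N hVfin.toFinset
      (IntermediateField.adjoin ℚ ({ζ} : Set (AlgebraicClosure ℚ))) hE₁
  haveI := hK₀fin
  haveI := hK₀gal
  have hζK₀ : ζ ∈ K₀ := hζK (IntermediateField.mem_adjoin_simple_self ℚ ζ)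
  -- the Frobenius relation
  have hfrob : ∀ g : GalQ, ∃ (τ : GalQ) (j m q : ℕ),
      (∀ v ∈ selEisPart N r k, g • v = τ ^ j • v) ∧
      Fermat.Agent.S42.cycloChar r g = Fermat.Agent.S42.cycloChar r τ ^ j ∧
      (q : ZMod r) = (Fermat.Agent.S42.cycloChar r τ : ZMod r) ∧
      ∀ v ∈ selEisPart N r k, (admE τ q)^[m] v = 0 := by
    intro g
    obtain ⟨ℓ, A, τ, m, hℓ, hℓS, hA, hτ, hagree⟩ :=
      Fermat.Agent.Cheb.exists_frobenius_pow_eq K₀ {N, r} g
    have hℓN : ℓ ≠ N := fun h => hℓS (by rw [h]; exact Finset.mem_insert_self _ _)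
    have hℓr : ℓ ≠ r := fun h => hℓS (by
      rw [h]; exact Finset.mem_insert_of_mem (Finset.mem_singleton_self _))
    have hℓNr : ¬ ℓ ∣ N * r := by
      intro h
      rcases (Nat.Prime.dvd_mul hℓ).1 h with h | h
      · exact hℓN ((Nat.prime_dvd_prime_iff_eq hℓ hN).1 h)
      · exact hℓr ((Nat.prime_dvd_prime_iff_eq hℓ hr).1 h)
    obtain ⟨n, hn⟩ := seleis_uniform (selEisOp N ⟨ℓ, hℓ⟩) hVfin
      (fun y hy => hy.2 ⟨ℓ, hℓ⟩ hℓNr)
    refine ⟨τ, m, n, ℓ, ?_, ?_, ?_, ?_⟩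
    · intro v hv
      exact selfl_smul_eq_of_agree N v (hK₀ v (hVfin.mem_toFinset.2 hv)) g (τ ^ m)
        (fun a ha => (hagree a ha).symm)
    · have h1 : Fermat.Agent.S42.cycloChar r (g⁻¹ * τ ^ m) = 1 := by
        apply Fermat.Agent.S42.cycloChar_eq_one r _ hζ
        rw [AlgEquiv.mul_apply, hagree ζ hζK₀, ← AlgEquiv.mul_apply, inv_mul_cancel,
          AlgEquiv.one_apply]
      rw [map_mul, map_inv, map_pow, inv_mul_eq_one] at h1
      exact h1
    · exact (Fermat.Agent.S42.cycloChar_frob r hr ℓ hℓ hℓr A hA τ hτ).symm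
    · intro v hv
      rw [seleis_admE_iterate τ ℓ (selEisOp N ⟨ℓ, hℓ⟩) (r ^ k)
        (fun x => seleis_op_smul N ⟨ℓ, hℓ⟩ τ x)
        (fun x hx => seleis_admE_eq N r ℓ hℓ hℓNr A hA τ hτ k x hx) n v hv.1]
      exact hn _ (seleis_stable N r k (τ ^ n) hv)
  obtain ⟨L, W, hW0, hWL, hmono, hWV, hWG, hidx, hact⟩ :=
    adm_chain (Fermat.Agent.S42.cycloChar r) (selEisPart N r k) hVG k hVr hfrob
  refine ⟨L, W, hW0, hWL, fun i hi => ⟨⟨hmono i hi, fun w hw => hVr w (hWV (i + 1) hi hw),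
    hWG i hi.le, hWG (i + 1) hi, hidx i hi⟩, ?_⟩⟩
  rcases hact i hi with h | h
  · exact Or.inl h
  · exact Or.inr (seleis_exists_char (Fermat.Agent.S42.cycloChar r) ζ hζ hχ (W i) (W (i + 1))
      (hidx i hi) (hWG (i + 1) hi) h)

end Fermat.Agent.S15

end
end ZBZ2S15_036_2

/-! ### bundled: `Fermat.Agent.S15.ToricPre` -/
section ZBZ2S15_036_3

/-!
# S15 / SEL-CNT / TORIC, piece T-pre: generalities on the Eisenstein part

* `toricpre_finite` (G1) : the Eisenstein part `selEisPart N r k` is finite;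
* `toricpre_stable` (G2) : it is stable under `G_ℚ`;
* `toricpre_field`  (G3) : a finite subgroup of `J₀(N)` is fixed pointwise by `Gal(ℚ̄/E)` for a
  finite normal (Galois) extension `E` of `ℚ`;
* `toricpre_eisOp_smul`, `toricpre_eisOp_pow_smul` : `T_q − (1 + q)` commutes with `G_ℚ`.
-/

set_option autoImplicit false
set_option linter.style.haveILetI false
set_option synthInstance.maxHeartbeats 400000
set_option maxHeartbeats 1600000

noncomputable section

namespace Fermat.Agent.S15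

open ModularCurve AlgebraicCurve
open Fermat.Agent.S24 Fermat.Agent.W1

/-- **(G1)** the Eisenstein part is finite -/
theorem toricpre_finite (N r k : ℕ) [NeZero N] (hr : r.Prime) : Finite ↥(selEisPart N r k) :=
  Set.Finite.to_subtype ((esk_finite N (r ^ k) (pow_ne_zero k hr.ne_zero)).subset
    (fun _ hx => (mem_selEisPart.1 hx).1))

/-- `T_q − (1 + q)` commutes with `G_ℚ` -/
theorem toricpre_eisOp_smul (N : ℕ) [NeZero N] (q : Nat.Primes) (σ : GalQ) (x : JZero N) :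
    selEisOp N q (σ • x) = σ • selEisOp N q x := by
  have h1 : heckeOperatorBar N q (σ • x) = σ • heckeOperatorBar N q x :=
    (esk_galois_hecke N σ q x).symm
  have h2 : ∀ (c : ℤ) (y : JZero N), c • (σ • y) = σ • (c • y) := fun c y =>
    (map_zsmul (DistribSMul.toAddMonoidHom (JZero N) σ) c y).symm
  show (heckeOperatorBar N q - ((1 + (q : ℕ) : ℕ) : ℤ) • (1 : Module.End ℤ (JZero N))) (σ • x) =
    σ • (heckeOperatorBar N q - ((1 + (q : ℕ) : ℕ) : ℤ) • (1 : Module.End ℤ (JZero N))) x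
  rw [LinearMap.sub_apply, LinearMap.sub_apply, LinearMap.smul_apply, LinearMap.smul_apply,
    Module.End.one_apply, Module.End.one_apply, h1, h2, smul_sub]

/-- the powers of `T_q − (1 + q)` commute with `G_ℚ` -/
theorem toricpre_eisOp_pow_smul (N : ℕ) [NeZero N] (q : Nat.Primes) (m : ℕ) (σ : GalQ)
    (x : JZero N) : (selEisOp N q ^ m) (σ • x) = σ • (selEisOp N q ^ m) x := by
  induction m generalizing x with
  | zero => rfl
  | succ m ih =>
    rw [pow_succ, Module.End.mul_apply, Module.End.mul_apply, toricpre_eisOp_smul, ih]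

/-- **(G2)** the Eisenstein part is stable under `G_ℚ` -/
theorem toricpre_stable (N r k : ℕ) [NeZero N] (σ : GalQ) {x : JZero N}
    (hx : x ∈ selEisPart N r k) : σ • x ∈ selEisPart N r k := by
  obtain ⟨h1, h2⟩ := mem_selEisPart.1 hx
  refine mem_selEisPart.2 ⟨?_, fun q hq => ?_⟩
  · have e : r ^ k • (σ • x) = σ • (r ^ k • x) :=
      (map_nsmul (DistribSMul.toAddMonoidHom (JZero N) σ) (r ^ k) x).symm
    rw [e, h1]
    exact smul_zero (A := JZero N) σ
  · obtain ⟨m, hm⟩ := h2 q hq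
    refine ⟨m, ?_⟩
    rw [toricpre_eisOp_pow_smul, hm]
    exact smul_zero (A := JZero N) σ

/-- **(G3)** a finite subgroup of `J₀(N)` is fixed pointwise by `Gal(ℚ̄/E)` for a finite normal
extension `E` of `ℚ` (no torsion hypothesis is needed: SEL-FL). -/
theorem toricpre_field' (N : ℕ) [NeZero N] (G : AddSubgroup (JZero N)) [Finite G] :
    ∃ E : IntermediateField ℚ Kb, FiniteDimensional ℚ E ∧ IsGalois ℚ E ∧
      ∀ σ : GalQ, (∀ a ∈ E, σ a = a) → ∀ x ∈ G, σ • x = x := by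
  classical
  have hfin : (G : Set (JZero N)).Finite := Set.toFinite _
  obtain ⟨K₀, -, h2, h3, h4⟩ := selfl_exists_field_finset N hfin.toFinset ⊥ inferInstance
  exact ⟨K₀, h2, h3, fun σ hσ x hx => h4 x (hfin.mem_toFinset.2 hx) σ hσ⟩

/-- **(G3)**, in the shape of the TORIC plan -/
theorem toricpre_field (N : ℕ) [NeZero N] (G : AddSubgroup (JZero N)) [Finite G]
    (_htors : ∀ x ∈ G, ∃ m : ℕ, m ≠ 0 ∧ m • x = 0) :
    ∃ E : IntermediateField ℚ Kb, FiniteDimensional ℚ E ∧ Normal ℚ E ∧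
      ∀ σ : GalQ, (∀ a ∈ E, σ a = a) → ∀ x ∈ G, σ • x = x := by
  obtain ⟨E, h1, h2, h3⟩ := toricpre_field' N G
  exact ⟨E, h1, h2.to_normal, h3⟩

end Fermat.Agent.S15

end
end ZBZ2S15_036_3

/-! ### bundled: `Fermat.Agent.S15.ToricGlue` -/
section ZBZ2S15_036_4

/-!
# S15 / SEL-CNT / TORIC, piece T-glue

`stmtSelToric_of : StmtToricTame → StmtToricUnip → StmtSelToric`.

For a finite `I_N`-stable group `G` of `r`-power torsion points (`r ≠ N`): `G` is fixed pointwise by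
`Gal(ℚ̄/E)` for a finite normal `E` (`toricpre_field`); T-tame gives `σ₀ ∈ I` with every `σ ∈ I`
of the form `π σ₀ⁿ`, `π ^ (N ^ e) = 1` on `E`, hence on `G`; by UNIP `π ^ m = 1 + m (π - 1)` on `G`,
so `N ^ e (π - 1) = 0` on `G`, and `r ^ k (π - 1) x = 0`: `π = 1` on `G`.  Hence `G^{σ₀} = G^{I}`
and T-cnt (`toric_card_le_fixed_sq`) applies with `g = σ₀ - 1`.

* `toricglue_unip_pow` : `π ^ m • x = x + m • (π • x - x)` for a unipotent `π`;
* `toricglue_abstract` : the count for an abstract action;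
* `stmtSelToric_of`.
-/

set_option autoImplicit false
set_option linter.style.haveILetI false
set_option synthInstance.maxHeartbeats 400000
set_option maxHeartbeats 1600000

noncomputable section

namespace Fermat.Agent.S15

open ModularCurve AlgebraicCurve
open Fermat.Agent.S24 Fermat.Agent.W1

/-- powers of a unipotent operator: `π ^ m = 1 + m (π - 1)` where `(π - 1)² = 0` -/
theorem toricglue_unip_pow {M J : Type*} [Group M] [AddCommGroup J] [DistribMulAction M J]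
    (π : M) (G : AddSubgroup J) (hG : ∀ x ∈ G, π • x ∈ G)
    (hunip : ∀ x ∈ G, π • π • x - 2 • (π • x) + x = 0) (m : ℕ) :
    ∀ x ∈ G, π ^ m • x = x + m • (π • x - x) := by
  induction m with
  | zero => intro x _; simp
  | succ m ih =>
    intro x hx
    have h1 : π ^ (m + 1) • x = π ^ m • (π • x) := by rw [pow_succ, mul_smul]
    have h2 : π • π • x - π • x = π • x - x := by
      have := hunip x hx
      rw [two_smul] at this
      rw [sub_eq_sub_iff_add_eq_add]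
      rw [← sub_eq_zero]
      rw [← this]
      abel
    rw [h1, ih (π • x) (hG x hx), h2, succ_nsmul]
    abel

/-- an element killed by two coprime integers is zero -/
theorem toricglue_coprime_zero {J : Type*} [AddCommGroup J] {a b : ℕ} (hab : Nat.Coprime a b)
    {z : J} (ha : a • z = 0) (hb : b • z = 0) : z = 0 := by
  have h1 : addOrderOf z ∣ a := addOrderOf_dvd_of_nsmul_eq_zero ha
  have h2 : addOrderOf z ∣ b := addOrderOf_dvd_of_nsmul_eq_zero hb
  have h3 : addOrderOf z ∣ 1 := by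
    have := Nat.dvd_gcd h1 h2
    rwa [Nat.Coprime.gcd_eq_one hab] at this
  have h4 : addOrderOf z = 1 := Nat.dvd_one.1 h3
  exact AddMonoid.addOrderOf_eq_one_iff.1 h4

/-- **T-glue**, abstract form -/
theorem toricglue_abstract {M J : Type*} [Group M] [AddCommGroup J] [DistribMulAction M J]
    (I : Subgroup M) (G F : AddSubgroup J) [Finite G] (r Np : ℕ) (hcop : Nat.Coprime r Np)
    (htors : ∀ x ∈ G, ∃ k : ℕ, r ^ k • x = 0)
    (hstab : ∀ σ ∈ I, ∀ x ∈ G, σ • x ∈ G)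
    (hunip : ∀ σ ∈ I, ∀ x ∈ G, σ • σ • x - 2 • (σ • x) + x = 0)
    (σ₀ : M) (hσ₀ : σ₀ ∈ I)
    (htame : ∀ σ ∈ I, ∃ (n : ℤ) (e : ℕ), ∀ x ∈ G, ((σ * σ₀ ^ (-n)) ^ (Np ^ e)) • x = x)
    (hF : ∀ x ∈ G, (∀ σ ∈ I, σ • x = x) → x ∈ F) :
    Nat.card G ≤ Nat.card ↥(G ⊓ F) ^ 2 := by
  refine toric_card_le_fixed_sq G F σ₀ (hstab σ₀ hσ₀) (hunip σ₀ hσ₀) (fun x hx hfix => ?_)
  refine hF x hx (fun σ hσ => ?_)
  obtain ⟨n, e, hne⟩ := htame σ hσ
  have hπ : σ * σ₀ ^ (-n) ∈ I := I.mul_mem hσ (I.zpow_mem hσ₀ _)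
  -- `π = 1` on `G`
  have hπx : (σ * σ₀ ^ (-n)) • x = x := by
    have h1 := toricglue_unip_pow (σ * σ₀ ^ (-n)) G (hstab _ hπ) (hunip _ hπ) (Np ^ e) x hx
    rw [hne x hx] at h1
    have h2 : (Np ^ e) • ((σ * σ₀ ^ (-n)) • x - x) = 0 := by
      have := h1.symm
      rwa [add_eq_left] at this
    obtain ⟨k, hk⟩ := htors _ (G.sub_mem (hstab _ hπ x hx) hx)
    have h3 := toricglue_coprime_zero (Nat.Coprime.pow k e hcop) hk h2
    exact sub_eq_zero.1 h3
  -- `σ₀ ^ (-n)` fixes `x`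
  have hz : σ₀ ^ (-n) • x = x := by
    have hmem : σ₀ ∈ MulAction.stabilizer M x := MulAction.mem_stabilizer_iff.2 hfix
    exact MulAction.mem_stabilizer_iff.1 ((MulAction.stabilizer M x).zpow_mem hmem _)
  calc σ • x = σ • (σ₀ ^ (-n) • x) := by rw [hz]
    _ = (σ * σ₀ ^ (-n)) • x := (mul_smul _ _ _).symm
    _ = x := hπx

/-- **T-glue**: TORIC from the tameness of inertia and UNIP. -/
theorem stmtSelToric_of (htame : StmtToricTame) (hunip : StmtToricUnip) : StmtSelToric := by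
  intro N _ r hN hr hrN AN hAN G hGfin htors hstab
  haveI : Finite G := hGfin
  obtain ⟨E, hE1, hE2, hE3⟩ := toricpre_field N G (fun x hx => by
    obtain ⟨k, hk⟩ := htors x hx
    exact ⟨r ^ k, pow_ne_zero k hr.ne_zero, hk⟩)
  obtain ⟨σ₀, hσ₀, hσ⟩ := htame N hN AN hAN E hE1 hE2
  have hU := hunip N r hN hr hrN N hN (Ne.symm hrN) dvd_rfl (by
    intro h
    have h1 : N ^ 2 ≤ N := Nat.le_of_dvd hN.pos h
    have h2 : 2 ≤ N := hN.two_le
    nlinarith) AN hAN
  refine toricglue_abstract (M := GalQ) (J := JZero N) (AN.inertiaSubgroupIn ℚ) G (selIF N AN)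
    r N ((Nat.coprime_primes hr hN).2 hrN) htors hstab
    (fun σ hσ' x hx => hU σ hσ' x (htors x hx)) σ₀ hσ₀ (fun σ hσ' => ?_)
    (fun x _ hfix => mem_selIF.2 hfix)
  obtain ⟨n, e, hne⟩ := hσ σ hσ'
  exact ⟨n, e, fun x hx => hE3 _ hne x hx⟩

end Fermat.Agent.S15

end
end ZBZ2S15_036_4

/-! ### bundled: `Fermat.Agent.S15.Toric` -/
section ZBZ2S15_036_5

/-!
# S15 / CNT / TORIC: `StmtSelToric` from the unipotency of the inertia at `N` (UNIP) alone

`stmtSelToric_of_unip : StmtToricUnip → StmtSelToric`, and the form for the Eisenstein part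
`toric_eis_card_le`.
-/

set_option autoImplicit false

namespace Fermat.Agent.S15

open ModularCurve AlgebraicCurve
open Fermat.Agent.S24 Fermat.Agent.W1

/-- **TORIC** from UNIP: T-tame + T-glue + T-cnt. -/
theorem stmtSelToric_of_unip (hU : StmtToricUnip) : StmtSelToric :=
  stmtSelToric_of stmtToricTame hU

/-- **TORIC for the Eisenstein part**: `#G_k ≤ #(G_k ∩ J^{I_N})²`. -/
theorem toric_eis_card_le (hU : StmtToricUnip) (N : ℕ) [NeZero N] (r : ℕ) (hN : N.Prime)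
    (hr : r.Prime) (hrN : r ≠ N) (AN : ValuationSubring Kb) (hAN : AN.LiesOverPrime N) (k : ℕ) :
    Nat.card ↥(selEisPart N r k) ≤ Nat.card ↥(selEisPart N r k ⊓ selIF N AN) ^ 2 :=
  stmtSelToric_of_unip hU N r hN hr hrN AN hAN (selEisPart N r k) (toricpre_finite N r k hr)
    (fun x hx => ⟨k, (mem_selEisPart.1 hx).1⟩)
    (fun σ _ x hx => toricpre_stable N r k σ hx)

end Fermat.Agent.S15


end ZBZ2S15_036_5

/-! ### bundled: `Fermat.Agent.S15.ToricKummer` -/
section ZBZ2S15_036_6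

/-!
# S15 / CNT / TORIC from the Kummer form of UNIP

`stmtSelToric_of_kummer : UNIP.StmtUnipKummer → StmtSelToric`: the only input of TORIC is the
target `StmtUnipKummer` of the UNIP mountain (`UNIP/Stmt.lean`, `NOTES/S34-plan.md`).
-/

set_option autoImplicit false

namespace Fermat.Agent.S15

open ModularCurve AlgebraicCurve
open Fermat.Agent.S24 Fermat.Agent.W1

/-- `StmtToricUnip` from the Kummer form of UNIP -/
theorem stmtToricUnip_of_kummer (h : Fermat.Agent.UNIP.StmtUnipKummer) : StmtToricUnip :=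
  fun N _ r _ hr _ => Fermat.Agent.UNIP.esUnip_of_stmtUnipKummer h N r hr

/-- **TORIC** from the Kummer form of UNIP -/
theorem stmtSelToric_of_kummer (h : Fermat.Agent.UNIP.StmtUnipKummer) : StmtSelToric :=
  stmtSelToric_of_unip (stmtToricUnip_of_kummer h)

end Fermat.Agent.S15


end ZBZ2S15_036_6

/-! ### bundled: `Fermat.Agent.S15.RealAsmCore` -/
section ZBZ2S15_036_7

/-!
# S15 / SEL-CNT / REAL, piece REAL-ASM: the transfer from the lattice to the torsion points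

`H = RealtrH N` is the lattice of integral parabolic homomorphisms of `Γ₀(N)`.  For a prime `r`
and `k : ℕ` the map `Φ_k : H → J₀(N)[r ^ k]`, `φ ↦` the point `x` with `r ^ k x = 0` and
`μ(x) = e(φ / r ^ k)`, is additive with kernel `r ^ k H`, Hecke-equivariant, and its image
contains the `r ^ k`-torsion of every `r`-divisible group of `r`-power torsion points.

* `realasm_transfer` : counting through an additive map (pure algebra);
* `realasmPhi`, `realasmPhi_tors`, `realasmPhi_mu`, `realasm_unique`, `realasmPhi_ker`,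
  `realasmPhi_hecke`, `realasmPhi_op_pow`, `realasmPhi_range`;
* `realasm_core` : the count `#G_k ≤ r ^ a · #(G_k ∩ Q) ^ 2` for `Q` the points fixed by an
  automorphism `c` acting on the multipliers by `e(φ / r ^ k) ↦ e(-ι φ / r ^ k)`.
-/

set_option autoImplicit false
set_option linter.style.haveILetI false
set_option synthInstance.maxHeartbeats 400000
set_option maxHeartbeats 1600000

noncomputable section

namespace Fermat.Agent.S15

open CongruenceSubgroup ModularCurve ModularCurve.Period AlgebraicCurve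
open Fermat.Agent.ES Fermat.Agent.S24 Fermat.Agent.W1
open scoped MatrixGroups

/-- **REAL-ASM, abstract transfer**: counting in `J` through an additive map `Φ : H → J`. -/
theorem realasm_transfer {H J : Type*} [AddCommGroup H] [AddCommGroup J] (Φ : H →+ J)
    (G Q W : AddSubgroup J) [Finite G] (E F : AddSubgroup H)
    (hE : ∀ φ, φ ∈ E ↔ Φ φ ∈ G) (hF : ∀ φ ∈ F, Φ φ ∈ G ⊓ Q)
    (hW : ∀ x ∈ G ⊓ W, ∃ φ, Φ φ = x)
    (c1 c2 : ℕ)
    (h1 : Nat.card G ≤ c1 * Nat.card ↥(G ⊓ W))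
    (h2 : Φ.ker.relIndex E ≤ c2 * (Φ.ker.relIndex (F ⊔ Φ.ker)) ^ 2) :
    Nat.card G ≤ c1 * c2 * Nat.card ↥(G ⊓ Q) ^ 2 := by
  classical
  rw [AddSubgroup.relIndex_ker, AddSubgroup.relIndex_ker] at h2
  have hEG : E.map Φ ≤ G := by
    rintro _ ⟨φ, hφ, rfl⟩
    exact (hE φ).1 hφ
  haveI : Finite ↥(E.map Φ) := Finite.of_injective
    (fun x : ↥(E.map Φ) => (⟨x.1, hEG x.2⟩ : G)) (fun a b hab => Subtype.ext (congrArg
      (fun z : G => (z : J)) hab))
  have hGQfin : Finite ↥(G ⊓ Q) := Finite.of_injective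
    (fun x : ↥(G ⊓ Q) => (⟨x.1, x.2.1⟩ : G)) (fun a b hab => Subtype.ext (congrArg
      (fun z : G => (z : J)) hab))
  have h3 : Nat.card ↥(G ⊓ W) ≤ Nat.card ↥(E.map Φ) := by
    refine AddSubgroup.card_le_of_le ?_
    intro x hx
    obtain ⟨φ, rfl⟩ := hW x hx
    exact ⟨φ, (hE φ).2 hx.1, rfl⟩
  have h4 : (F ⊔ Φ.ker).map Φ ≤ G ⊓ Q := by
    rw [AddSubgroup.map_sup]
    refine sup_le ?_ ?_
    · rintro _ ⟨φ, hφ, rfl⟩
      exact hF φ hφ
    · rintro _ ⟨φ, hφ, rfl⟩
      rw [AddMonoidHom.mem_ker.1 hφ]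
      exact (G ⊓ Q).zero_mem
  have h5 : Nat.card ↥((F ⊔ Φ.ker).map Φ) ≤ Nat.card ↥(G ⊓ Q) := AddSubgroup.card_le_of_le h4
  calc Nat.card G ≤ c1 * Nat.card ↥(G ⊓ W) := h1
    _ ≤ c1 * Nat.card ↥(E.map Φ) := Nat.mul_le_mul_left _ h3
    _ ≤ c1 * (c2 * Nat.card ↥((F ⊔ Φ.ker).map Φ) ^ 2) := Nat.mul_le_mul_left _ h2
    _ ≤ c1 * (c2 * Nat.card ↥(G ⊓ Q) ^ 2) :=
      Nat.mul_le_mul_left _ (Nat.mul_le_mul_left _ (Nat.pow_le_pow_left h5 2))
    _ = c1 * c2 * Nat.card ↥(G ⊓ Q) ^ 2 := by ring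

section phi

variable (N r : ℕ) [NeZero N]

/-- the multiplier contract for `muMap N` -/
theorem realasm_multData (hr : r.Prime) :
    MultData N r (fun n => expHom (r ^ n)) (muMap N) :=
  multData_of_torsionUnifData hr.ne_zero (Fermat.Agent.STB.stb_p2_unifData N r hr.pos)

theorem realasm_exists (hr : r.Prime) (k : ℕ) (φ : RealtrH N) :
    ∃ x : JZero N, r ^ k • x = 0 ∧
      muMap N x = expChar N (r ^ k) (φ : Additive (Gamma0 N) →+ ℤ) :=
  (realasm_multData N r hr).surj φ.1 φ.2 k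

/-- the point with multiplier `e(φ / r ^ k)` -/
def realasmPhiFun (hr : r.Prime) (k : ℕ) (φ : RealtrH N) : JZero N :=
  (realasm_exists N r hr k φ).choose

theorem realasmPhiFun_tors (hr : r.Prime) (k : ℕ) (φ : RealtrH N) :
    r ^ k • realasmPhiFun N r hr k φ = 0 :=
  (realasm_exists N r hr k φ).choose_spec.1

theorem realasmPhiFun_mu (hr : r.Prime) (k : ℕ) (φ : RealtrH N) :
    muMap N (realasmPhiFun N r hr k φ) = expChar N (r ^ k) (φ : Additive (Gamma0 N) →+ ℤ) :=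
  (realasm_exists N r hr k φ).choose_spec.2

/-- uniqueness of the point with a given multiplier -/
theorem realasm_unique (hr : r.Prime) (k : ℕ) (φ : RealtrH N) {x : JZero N} {m : ℕ}
    (hx : r ^ m • x = 0)
    (hμ : muMap N x = expChar N (r ^ k) (φ : Additive (Gamma0 N) →+ ℤ)) :
    x = realasmPhiFun N r hr k φ :=
  (realasm_multData N r hr).eq_of_eq (isPPowerTorsion_of_pow_smul hx)
    (isPPowerTorsion_of_pow_smul (realasmPhiFun_tors N r hr k φ))
    (hμ.trans (realasmPhiFun_mu N r hr k φ).symm)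

theorem realasm_expChar_add (n : ℕ) (φ ψ : Additive (Gamma0 N) →+ ℤ) :
    expChar N n (φ + ψ) = expChar N n φ + expChar N n ψ := by
  refine DFunLike.ext _ _ (fun γ => ?_)
  rw [AddMonoidHom.add_apply, expChar_apply, expChar_apply, expChar_apply,
    AddMonoidHom.add_apply, map_add]

/-- `Φ_k : H → J₀(N)[r ^ k]` -/
def realasmPhi (hr : r.Prime) (k : ℕ) : RealtrH N →+ JZero N :=
  AddMonoidHom.mk' (realasmPhiFun N r hr k) (fun φ ψ => by
    have hm := realasm_multData N r hr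
    have h1 := realasmPhiFun_tors N r hr k φ
    have h2 := realasmPhiFun_tors N r hr k ψ
    symm
    refine realasm_unique N r hr k (φ + ψ) (m := k) (by rw [nsmul_add, h1, h2, add_zero]) ?_
    rw [hm.map_add _ _ (isPPowerTorsion_of_pow_smul h1) (isPPowerTorsion_of_pow_smul h2),
      realasmPhiFun_mu, realasmPhiFun_mu]
    exact (realasm_expChar_add N (r ^ k) _ _).symm)

theorem realasmPhi_apply (hr : r.Prime) (k : ℕ) (φ : RealtrH N) :
    realasmPhi N r hr k φ = realasmPhiFun N r hr k φ := rfl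

theorem realasmPhi_tors (hr : r.Prime) (k : ℕ) (φ : RealtrH N) :
    r ^ k • realasmPhi N r hr k φ = 0 := realasmPhiFun_tors N r hr k φ

theorem realasmPhi_mu (hr : r.Prime) (k : ℕ) (φ : RealtrH N) :
    muMap N (realasmPhi N r hr k φ) = expChar N (r ^ k) (φ : Additive (Gamma0 N) →+ ℤ) :=
  realasmPhiFun_mu N r hr k φ

/-- division of a homomorphism with values divisible by `q` -/
theorem realasm_exists_div (q : ℕ) (φ : RealtrH N)
    (h : ∀ γ, (q : ℤ) ∣ (φ : Additive (Gamma0 N) →+ ℤ) γ) : ∃ ψ : RealtrH N, q • ψ = φ := by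
  let ψ₀ : Additive (Gamma0 N) →+ ℤ :=
    AddMonoidHom.mk' (fun γ => (φ : Additive (Gamma0 N) →+ ℤ) γ / (q : ℤ)) (fun a b => by
      show (φ : Additive (Gamma0 N) →+ ℤ) (a + b) / (q : ℤ) = _
      rw [map_add]
      exact Int.add_ediv_of_dvd_left (h a))
  have hψ₀ : ψ₀ ∈ intHoms (Gamma0 N) (parabolicSet N) := by
    intro g hg
    show (φ : Additive (Gamma0 N) →+ ℤ) (Additive.ofMul g) / (q : ℤ) = 0
    rw [φ.2 g hg, Int.zero_ediv]
  refine ⟨⟨ψ₀, hψ₀⟩, ?_⟩
  apply Subtype.ext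
  refine DFunLike.ext _ _ (fun γ => ?_)
  show (q • ψ₀) γ = (φ : Additive (Gamma0 N) →+ ℤ) γ
  rw [AddMonoidHom.nsmul_apply, nsmul_eq_mul]
  exact Int.mul_ediv_cancel' (h γ)

/-- the kernel of `Φ_k` is `r ^ k H` -/
theorem realasmPhi_ker (hr : r.Prime) (k : ℕ) :
    (realasmPhi N r hr k).ker = realPowSub (RealtrH N) r k := by
  have hm := realasm_multData N r hr
  ext φ
  rw [AddMonoidHom.mem_ker, mem_realPowSub]
  constructor
  · intro h
    have h1 := realasmPhi_mu N r hr k φ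
    rw [h, hm.map_zero] at h1
    have h2 := (expChar_eq_zero_iff (pow_ne_zero k hr.ne_zero) _).1 h1.symm
    exact realasm_exists_div N (r ^ k) φ (fun γ => by exact_mod_cast h2 γ)
  · rintro ⟨ψ, rfl⟩
    rw [map_nsmul]
    exact realasmPhi_tors N r hr k ψ

/-- `Φ_k` is Hecke-equivariant -/
theorem realasmPhi_hecke (hr : r.Prime) (k : ℕ) (ℓ : GoodPrime N r) (φ : RealtrH N) :
    realasmPhi N r hr k (realtrHecke N r ℓ φ) =
      heckeOperatorBar N (ℓ : Nat.Primes) (realasmPhi N r hr k φ) := by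
  have hm := realasm_multData N r hr
  symm
  refine realasm_unique N r hr k _ (m := k) ?_ ?_
  · rw [← map_nsmul, realasmPhi_tors, map_zero]
  · rw [hm.hecke ℓ _ (isPPowerTorsion_of_pow_smul (realasmPhi_tors N r hr k φ)),
      realasmPhi_mu, realtrHecke_coe]
    exact heckeOp_natural ℓ ℤ (Additive ℂˣ) (expHom (r ^ k)) _

/-- the operators `T_ℓ - (1 + ℓ)` on the lattice -/
def realasmOp (ℓ : GoodPrime N r) : Module.End ℤ (RealtrH N) :=
  realtrHecke N r ℓ -
    ((1 + ((ℓ : Nat.Primes) : ℕ) : ℕ) : ℤ) • (1 : Module.End ℤ (RealtrH N))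

theorem realasmOp_mem (ℓ : GoodPrime N r) :
    realasmOp N r ℓ ∈ Algebra.adjoin ℤ (Set.range (realtrHecke N r)) :=
  Subalgebra.sub_mem _ (Algebra.subset_adjoin (Set.mem_range_self ℓ))
    (Subalgebra.zsmul_mem _ (Subalgebra.one_mem _) _)

theorem realasmPhi_op (hr : r.Prime) (k : ℕ) (ℓ : GoodPrime N r) (φ : RealtrH N) :
    realasmPhi N r hr k (realasmOp N r ℓ φ) =
      selEisOp N (ℓ : Nat.Primes) (realasmPhi N r hr k φ) := by
  show realasmPhi N r hr k ((realtrHecke N r ℓ -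
    ((1 + ((ℓ : Nat.Primes) : ℕ) : ℕ) : ℤ) • (1 : Module.End ℤ (RealtrH N))) φ) =
    (heckeOperatorBar N (ℓ : Nat.Primes) -
      ((1 + ((ℓ : Nat.Primes) : ℕ) : ℕ) : ℤ) • (1 : Module.End ℤ (JZero N)))
        (realasmPhi N r hr k φ)
  rw [LinearMap.sub_apply, LinearMap.sub_apply, LinearMap.smul_apply, LinearMap.smul_apply,
    Module.End.one_apply, Module.End.one_apply, map_sub, map_zsmul, realasmPhi_hecke]

theorem realasmPhi_op_pow (hr : r.Prime) (k : ℕ) (ℓ : GoodPrime N r) (m : ℕ) (φ : RealtrH N) :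
    realasmPhi N r hr k ((realasmOp N r ℓ ^ m) φ) =
      (selEisOp N (ℓ : Nat.Primes) ^ m) (realasmPhi N r hr k φ) := by
  induction m generalizing φ with
  | zero => rfl
  | succ m ih =>
    rw [pow_succ, pow_succ, Module.End.mul_apply, Module.End.mul_apply, ih, realasmPhi_op]

/-- the preimage of the Eisenstein part -/
theorem realasm_mem_eisSub (hr : r.Prime) (k : ℕ) (φ : RealtrH N) :
    φ ∈ realEisSub (realasmOp N r) r k ↔ realasmPhi N r hr k φ ∈ selEisPart N r k := by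
  rw [mem_realEisSub, mem_selEisPart]
  constructor
  · intro h
    refine ⟨realasmPhi_tors N r hr k φ, fun q hq => ?_⟩
    obtain ⟨m, hm⟩ := h ⟨q, hq⟩
    refine ⟨m, ?_⟩
    rw [← realasmPhi_ker N r hr k, AddMonoidHom.mem_ker, realasmPhi_op_pow] at hm
    exact hm
  · rintro ⟨-, h⟩ ℓ
    obtain ⟨m, hm⟩ := h (ℓ : Nat.Primes) ℓ.2
    refine ⟨m, ?_⟩
    rw [← realasmPhi_ker N r hr k, AddMonoidHom.mem_ker, realasmPhi_op_pow]
    exact hm

/-- the image of `Φ_k` contains the `r ^ k`-torsion of every divisible group of `r`-power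
torsion points -/
theorem realasmPhi_range (hr : r.Prime) (k : ℕ) (W : AddSubgroup (JZero N))
    (hWt : ∀ w ∈ W, ∃ m : ℕ, r ^ m • w = 0) (hWd : ∀ w ∈ W, ∃ w' ∈ W, r • w' = w)
    (x : JZero N) (hx : x ∈ W) (hxk : r ^ k • x = 0) :
    ∃ φ : RealtrH N, realasmPhi N r hr k φ = x := by
  classical
  have hmem : x ∈ pDivTors r (JZero N) := by
    refine ⟨hWt x hx, ?_⟩
    let f : W → W := fun w => ⟨(hWd w.1 w.2).choose, (hWd w.1 w.2).choose_spec.1⟩
    have hf : ∀ w : W, r • (f w).1 = w.1 := fun w => (hWd w.1 w.2).choose_spec.2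
    refine ⟨fun n => (f^[n] ⟨x, hx⟩).1, rfl, fun n => ?_⟩
    show r • (f^[n + 1] ⟨x, hx⟩).1 = (f^[n] ⟨x, hx⟩).1
    rw [Function.iterate_succ_apply']
    exact hf _
  obtain ⟨φ, hφ, hμ⟩ := Fermat.Agent.STB.stb_p2_range N r hr hmem hxk
  exact ⟨⟨φ, hφ⟩, (realasm_unique N r hr k ⟨φ, hφ⟩ hxk hμ).symm⟩

end phi

/-- **REAL-ASM, core**: the count for the points fixed by an automorphism `c` which acts on the
multipliers by `e(φ / r ^ k) ↦ e(-ι φ / r ^ k)`. -/
theorem realasm_core (hA : StmtRealAlg) (N r : ℕ) [NeZero N] (hr : r.Prime) (c : GalQ)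
    (Q : AddSubgroup (JZero N)) (hQ : ∀ x : JZero N, c • x = x → x ∈ Q)
    (hconj : ∀ (k : ℕ) (x : JZero N) (φ : Additive (Gamma0 N) →+ ℤ), r ^ k • x = 0 →
      muMap N x = expChar N (r ^ k) φ →
      muMap N (c • x) = expChar N (r ^ k) (-(charInvolution N ℤ ℤ φ))) :
    ∃ a : ℕ, ∀ k : ℕ,
      Nat.card ↥(selEisPart N r k) ≤ r ^ a * Nat.card ↥(selEisPart N r k ⊓ Q) ^ 2 := by
  classical
  obtain ⟨a1, W, hWt, hWd, hW⟩ := real_idx (J := JZero N) r hr
    (fun n => esk_finite N (r ^ n) (pow_ne_zero n hr.ne_zero))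
  obtain ⟨a2, ha2⟩ := realtr_of_realAlg_neg (M := N) (p := r) (realasmOp N r) hA
    (realasmOp_mem N r) r hr
  refine ⟨a1 + a2, fun k => ?_⟩
  haveI : Finite ↥(selEisPart N r k) := toricpre_finite N r k hr
  have h1 : Nat.card ↥(selEisPart N r k) ≤ r ^ a1 * Nat.card ↥(selEisPart N r k ⊓ W) :=
    hW _ (fun x hx => ⟨k, (mem_selEisPart.1 hx).1⟩) inferInstance
  have h2 := ha2 k
  rw [← realasmPhi_ker N r hr k] at h2
  have key := realasm_transfer (realasmPhi N r hr k) (selEisPart N r k) Q W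
    (realEisSub (realasmOp N r) r k) (realEisFix (realasmOp N r) (-realtrInv N) r k)
    (realasm_mem_eisSub N r hr k) ?_ ?_ (r ^ a1) (r ^ a2) h1 h2
  · rw [pow_add]
    exact key
  · intro φ hφ
    obtain ⟨hφE, hφι⟩ := mem_realEisFix.1 hφ
    refine ⟨(realasm_mem_eisSub N r hr k φ).1 hφE, hQ _ ?_⟩
    have h3 := hconj k _ _ (realasmPhi_tors N r hr k φ) (realasmPhi_mu N r hr k φ)
    have h4 : r ^ k • (c • realasmPhi N r hr k φ) = 0 := by
      have e : r ^ k • (c • realasmPhi N r hr k φ) = c • (r ^ k • realasmPhi N r hr k φ) :=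
        (map_nsmul (DistribSMul.toAddMonoidHom (JZero N) c) (r ^ k) _).symm
      rw [e, realasmPhi_tors]
      exact smul_zero (A := JZero N) c
    have h5 := realasm_unique N r hr k ((-realtrInv N) φ) h4 h3
    rw [h5, ← realasmPhi_apply, hφι]
  · intro x hx
    exact realasmPhi_range N r hr k W hWt hWd x hx.2 (mem_selEisPart.1 hx.1).1

end Fermat.Agent.S15

end
end ZBZ2S15_036_7

/-! ### bundled: `Fermat.Agent.S15.RealAsm` -/
section ZBZ2S15_036_8

/-!
# S15 / SEL-CNT / REAL, piece REAL-ASM: assembly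

* `realasm_conjChar_expChar` : `conj ∘ e(φ / n) ∘ j = e(-ι φ / n)`;
* `realasm_muMap_conj`       : REAL-CONJ in terms of `muMap`;
* `stmtSelReal_of`           : `StmtRealAlg → StmtRealConj → StmtSelReal`;
* `stmtSelReal_of_conj`      : `StmtRealConj → StmtSelReal` (REAL-ALG is `stmtRealAlg`).
-/

set_option autoImplicit false
set_option linter.style.haveILetI false
set_option synthInstance.maxHeartbeats 400000
set_option maxHeartbeats 1600000

noncomputable section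

namespace Fermat.Agent.S15

open CongruenceSubgroup ModularCurve ModularCurve.Period AlgebraicCurve
open Fermat.Agent.ES Fermat.Agent.S24 Fermat.Agent.W1
open scoped MatrixGroups

/-- the complex conjugate of `exp(2πi/n)` is its inverse -/
theorem realasm_conj_zetaUnit (n : ℕ) : realConjUnits (zetaUnit n) = (zetaUnit n)⁻¹ := by
  apply Units.ext
  rw [Units.val_inv_eq_inv_val, zetaUnit_val]
  show (starRingEnd ℂ) (Complex.exp (2 * Real.pi * Complex.I / n)) = _
  rw [← Complex.exp_conj, ← Complex.exp_neg]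
  congr 1
  simp only [map_div₀, map_mul, Complex.conj_I, map_natCast, Complex.conj_ofReal, map_ofNat]
  ring

/-- `conj ∘ e(φ / n) ∘ j = e(-ι φ / n)` -/
theorem realasm_conjChar_expChar (N n : ℕ) (φ : Additive (Gamma0 N) →+ ℤ) :
    realConjChar N (expChar N n φ) = expChar N n (-(charInvolution N ℤ ℤ φ)) := by
  refine DFunLike.ext _ _ (fun γ => ?_)
  rw [realConjChar_apply, expChar_apply, expChar_apply, AddMonoidHom.neg_apply,
    charInvolution_apply, expHom_apply, expHom_apply]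
  have h : ∀ u : ℂˣ, (MonoidHom.toAdditive realConjUnits) (Additive.ofMul u) =
      Additive.ofMul (realConjUnits u) := fun u => rfl
  rw [h, map_zpow, realasm_conj_zetaUnit, inv_zpow']

/-- REAL-CONJ in terms of the multiplier map -/
theorem realasm_muMap_conj (hC : StmtRealConj) (N : ℕ) [NeZero N] (n : ℕ) (hn : 0 < n)
    (x : JZero N) (hx : n • x = 0) :
    muMap N ((complexConjugation : GalQ) • x) = realConjChar N (muMap N x) :=
  muMap_eq muUnique hn (hC N n hn x _ (muRel_muMap (muExists N) muUnique hn hx))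

/-- **REAL-ASM**: REAL from REAL-ALG and REAL-CONJ. -/
theorem stmtSelReal_of (hA : StmtRealAlg) (hC : StmtRealConj) : StmtSelReal := by
  intro N _ r _ hr _
  refine realasm_core hA N r hr (complexConjugation : GalQ) (selFixC N)
    (fun x hx => mem_selFixC.2 hx) (fun k x φ hx hμ => ?_)
  rw [realasm_muMap_conj hC N (r ^ k) (pow_pos hr.pos k) x hx, hμ, realasm_conjChar_expChar]

/-- **REAL** from REAL-CONJ alone. -/
theorem stmtSelReal_of_conj (hC : StmtRealConj) : StmtSelReal :=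
  stmtSelReal_of stmtRealAlg hC

end Fermat.Agent.S15

end
end ZBZ2S15_036_8
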