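/- GENERATED FILE (helper35, build-time optimisation, NOTES/ZB.md): verbatim concatenation of the modules
   Fermat.Agent.S15.SelGL
   Fermat.Agent.S15.SelGR
   Fermat.Agent.S15.SelGRVal
   Fermat.Agent.S15.SelU
   Fermat.Agent.S15.SelES
   Fermat.Agent.S15.SelArTrivEt
   Do not edit; do not import together with these modules. -/
import Fermat.Agent.ZB.W1_003
import Fermat.Agent.ZB.S28_005
import Fermat.Agent.ZB.W1_001
import Fermat.Agent.ZB.Z2S15_035
import Fermat.Agent.ZB.Z2S15_034

/-! ### bundled: `Fermat.Agent.S15.SelGL` -/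
section ZBZ2S15_040_0

/-!
# S15 / SEL-GR, part 1: group-like functions lie in every Hopf lattice

`R ⊂ ℚ` a PID with fraction field `ℚ`, `M` a finite abelian group with a map `act`, `H` a Hopf
lattice on `M` (`W1.IsHopfLattice`).

* `selgl_grouplike_mem` : a Galois equivariant function `ψ : M → ℚ̄` with
  `ψ (P + Q) = ψ P * ψ Q` and `ψ 0 = 1` lies in `H`.

So every Hopf order contains the group ring of the dual group: the "tautological character"
never has to be put into the lattice by hand.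

Proof: expand `ψ = ∑ c_k h_k` in an `R`-basis of `H` (the `c_k` are rational since `ψ` is
equivariant); the comultiplication has structure constants in `R`, and `Δψ = ψ ⊗ ψ` gives
`c_i c_j = ∑ ρ_ijk c_k`.  So the finitely generated `R`-module `∑ R c_k ⊂ ℚ` is stable under the
`c_i`, hence the `c_i` are integral over `R`, hence in `R`.
-/

set_option autoImplicit false
set_option linter.unusedSectionVars false
set_option linter.unusedSimpArgs false
set_option linter.style.haveILetI false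

namespace Fermat.Agent.S15

open Fermat.Agent.W1

section Grouplike

variable {R : Subring ℚ} {M : Type} [AddCommGroup M]
  {act : (AlgebraicClosure ℚ ≃ₐ[ℚ] AlgebraicClosure ℚ) → M → M}
  {H : Subalgebra R (M → AlgebraicClosure ℚ)}

/-- The structure map `R → ℚ̄` factors through `ℚ`. -/
theorem selgl_algebraMap (r : R) :
    algebraMap R (AlgebraicClosure ℚ) r = algebraMap ℚ (AlgebraicClosure ℚ) (r : ℚ) := rfl

/-- Evaluation of the expansion of an element of `H` in a basis. -/
theorem selgl_repr_apply {n : ℕ} (b : Module.Basis (Fin n) R H) (x : H) (P : M) :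
    (x : M → AlgebraicClosure ℚ) P =
      ∑ i, algebraMap R (AlgebraicClosure ℚ) (b.repr x i) *
        ((b i : H) : M → AlgebraicClosure ℚ) P := by
  have h1 : x = ∑ i, b.repr x i • b i := (b.sum_repr x).symm
  have h2 := congrArg (fun y : H => (y : M → AlgebraicClosure ℚ) P) h1
  simp only [AddSubmonoidClass.coe_finsetSum, Finset.sum_apply] at h2
  rw [h2]
  refine Finset.sum_congr rfl fun i _ => ?_
  show (b.repr x i • ((b i : H) : M → AlgebraicClosure ℚ)) P = _
  rw [Pi.smul_apply, Algebra.smul_def]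

/-- Expansion of an element of the span of the pure tensors in the products of a basis. -/
theorem selgl_expand {n : ℕ} (b : Module.Basis (Fin n) R H)
    (F : M × M → AlgebraicClosure ℚ)
    (hF : F ∈ Submodule.span R {F : M × M → AlgebraicClosure ℚ |
      ∃ a ∈ H, ∃ b ∈ H, F = fun PQ => a PQ.1 * b PQ.2}) :
    ∃ ρ : Fin n × Fin n → R, ∀ P Q, F (P, Q) =
      ∑ ij : Fin n × Fin n, algebraMap R (AlgebraicClosure ℚ) (ρ ij) *
        (((b ij.1 : H) : M → AlgebraicClosure ℚ) P *
          ((b ij.2 : H) : M → AlgebraicClosure ℚ) Q) := by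
  induction hF using Submodule.span_induction with
  | mem F hF =>
    obtain ⟨a, ha, c, hc, rfl⟩ := hF
    refine ⟨fun ij => b.repr ⟨a, ha⟩ ij.1 * b.repr ⟨c, hc⟩ ij.2, fun P Q => ?_⟩
    show a P * c Q = _
    have ha' := selgl_repr_apply b ⟨a, ha⟩ P
    have hc' := selgl_repr_apply b ⟨c, hc⟩ Q
    simp only at ha' hc'
    rw [ha', hc', Fintype.sum_prod_type, Finset.sum_mul]
    refine Finset.sum_congr rfl fun i _ => ?_
    rw [Finset.mul_sum]
    refine Finset.sum_congr rfl fun j _ => ?_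
    rw [map_mul]
    ring
  | zero =>
    exact ⟨fun _ => 0, fun P Q => by simp⟩
  | add F G _ _ hF hG =>
    obtain ⟨ρ, hρ⟩ := hF
    obtain ⟨ρ', hρ'⟩ := hG
    refine ⟨fun ij => ρ ij + ρ' ij, fun P Q => ?_⟩
    rw [Pi.add_apply, hρ, hρ', ← Finset.sum_add_distrib]
    refine Finset.sum_congr rfl fun ij _ => ?_
    rw [map_add]
    ring
  | smul r F _ hF =>
    obtain ⟨ρ, hρ⟩ := hF
    refine ⟨fun ij => r * ρ ij, fun P Q => ?_⟩
    rw [Pi.smul_apply, hρ, Algebra.smul_def, Finset.mul_sum]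
    refine Finset.sum_congr rfl fun ij _ => ?_
    rw [map_mul]
    ring

variable [IsPrincipalIdealRing R] [IsFractionRing R ℚ]

/-- A rational number which is integral over `R` lies in `R`. -/
theorem selgl_mem_of_isIntegral {q : ℚ} (hq : IsIntegral R q) : ∃ r : R, (r : ℚ) = q := by
  obtain ⟨r, hr⟩ := IsIntegrallyClosed.isIntegral_iff.1 hq
  exact ⟨r, hr⟩

/-- **(GL)** A Galois equivariant group-like function lies in every Hopf lattice. -/
theorem selgl_grouplike_mem [Finite M] (hH : IsHopfLattice R act H)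
    (ψ : M → AlgebraicClosure ℚ) (hmul : ∀ P Q, ψ (P + Q) = ψ P * ψ Q) (h0 : ψ 0 = 1)
    (heq : ∀ (σ : AlgebraicClosure ℚ ≃ₐ[ℚ] AlgebraicClosure ℚ) (P : M),
      ψ (act σ P) = σ (ψ P)) : ψ ∈ H := by
  classical
  obtain ⟨n, b, hli⟩ := sq_exists_basis hH.fg hH.equivariant
  set v : Fin n → M → AlgebraicClosure ℚ := fun i => ((b i : H) : M → AlgebraicClosure ℚ)
    with hv
  obtain ⟨d, hd0, hd⟩ := sq_exists_smul_mem hH.fg hH.equivariant hH.separates ψ heq
  have hdQ : (d : ℚ) ≠ 0 := Nat.cast_ne_zero.2 hd0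
  have hdK : (d : AlgebraicClosure ℚ) ≠ 0 := Nat.cast_ne_zero.2 hd0
  -- the rational coefficients of `ψ`
  set c : Fin n → ℚ := fun k => ((b.repr ⟨d • ψ, hd⟩ k : R) : ℚ) / d with hc
  have hψ : ∀ P, ψ P = ∑ k, algebraMap ℚ (AlgebraicClosure ℚ) (c k) * v k P := by
    intro P
    have h1 : (d : AlgebraicClosure ℚ) * ψ P =
        ∑ k, algebraMap R (AlgebraicClosure ℚ) (b.repr ⟨d • ψ, hd⟩ k) * v k P := by
      rw [← selgl_repr_apply b ⟨d • ψ, hd⟩ P]
      show _ = (d • ψ) P
      rw [Pi.smul_apply, nsmul_eq_mul]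
    have h2 : ψ P = (d : AlgebraicClosure ℚ)⁻¹ * ((d : AlgebraicClosure ℚ) * ψ P) := by
      field_simp
    rw [h2, h1, Finset.mul_sum]
    refine Finset.sum_congr rfl fun k _ => ?_
    have h3 : algebraMap ℚ (AlgebraicClosure ℚ) (c k) =
        algebraMap R (AlgebraicClosure ℚ) (b.repr ⟨d • ψ, hd⟩ k) / (d : AlgebraicClosure ℚ) := by
      rw [hc, selgl_algebraMap]
      simp only [map_div₀, map_natCast]
    rw [h3]
    field_simp
  -- the structure constants
  choose ρ hρ using fun k => selgl_expand b _ (hH.comul_mem _ (b k).2)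
  -- comparison of coefficients
  have hprod := linearIndependent_prod_fun v v hli hli
  have hrel : ∀ i j, c i * c j = ∑ k, (ρ k (i, j) : ℚ) * c k := by
    have h1 : ∑ ij : Fin n × Fin n,
        (algebraMap ℚ (AlgebraicClosure ℚ) (c ij.1 * c ij.2 - ∑ k, (ρ k ij : ℚ) * c k)) •
          (fun xy : M × M => v ij.1 xy.1 * v ij.2 xy.2) = 0 := by
      funext PQ
      obtain ⟨P, Q⟩ := PQ
      simp only [Finset.sum_apply, Pi.smul_apply, smul_eq_mul, Pi.zero_apply, map_sub,
        map_mul, map_sum, sub_mul, Finset.sum_sub_distrib]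
      rw [sub_eq_zero]
      have hL : ∑ ij : Fin n × Fin n, algebraMap ℚ (AlgebraicClosure ℚ) (c ij.1) *
          algebraMap ℚ (AlgebraicClosure ℚ) (c ij.2) * (v ij.1 P * v ij.2 Q) = ψ P * ψ Q := by
        rw [hψ P, hψ Q, Fintype.sum_prod_type, Finset.sum_mul]
        refine Finset.sum_congr rfl fun i _ => ?_
        rw [Finset.mul_sum]
        refine Finset.sum_congr rfl fun j _ => ?_
        ring
      have hRt : ∑ ij : Fin n × Fin n,
          (∑ k, algebraMap ℚ (AlgebraicClosure ℚ) (ρ k ij : ℚ) *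
            algebraMap ℚ (AlgebraicClosure ℚ) (c k)) * (v ij.1 P * v ij.2 Q) =
          ψ (P + Q) := by
        rw [hψ (P + Q)]
        have h3 : ∀ k, v k (P + Q) = ∑ ij : Fin n × Fin n,
            algebraMap R (AlgebraicClosure ℚ) (ρ k ij) * (v ij.1 P * v ij.2 Q) :=
          fun k => hρ k P Q
        simp only [h3, Finset.mul_sum, Finset.sum_mul]
        rw [Finset.sum_comm]
        refine Finset.sum_congr rfl fun k _ => ?_
        refine Finset.sum_congr rfl fun ij _ => ?_
        rw [selgl_algebraMap]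
        ring
      rw [hL, hRt, hmul]
    intro i j
    have h2 := Fintype.linearIndependent_iff.1 hprod _ h1 (i, j)
    have h3 := (algebraMap ℚ (AlgebraicClosure ℚ)).injective
      (h2.trans (map_zero _).symm)
    exact sub_eq_zero.1 h3
  -- the module generated by the coefficients
  set Λ : Submodule R ℚ := Submodule.span R (Set.range c) with hΛ
  have hΛfg : Λ.FG := Submodule.fg_span (Set.finite_range c)
  have hΛne : Λ ≠ ⊥ := by
    intro hbot
    have h1 : ∀ k, c k = 0 := fun k => by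
      have : c k ∈ Λ := Submodule.subset_span ⟨k, rfl⟩
      rw [hbot] at this
      exact (Submodule.mem_bot R).1 this
    have h2 := hψ 0
    simp only [h1, map_zero, zero_mul, Finset.sum_const_zero] at h2
    rw [h0] at h2
    exact one_ne_zero h2
  have hstab : ∀ i, ∀ x ∈ Λ, c i • x ∈ Λ := by
    intro i x hx
    induction hx using Submodule.span_induction with
    | mem x hx =>
      obtain ⟨j, rfl⟩ := hx
      rw [smul_eq_mul, hrel i j]
      refine Submodule.sum_mem _ fun k _ => ?_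
      have h1 : ((ρ k (i, j) : R) : ℚ) * c k = (ρ k (i, j)) • c k := by
        rw [Algebra.smul_def]; rfl
      rw [h1]
      exact Submodule.smul_mem _ _ (Submodule.subset_span ⟨k, rfl⟩)
    | zero => rw [smul_zero]; exact Λ.zero_mem
    | add x y _ _ hx hy => rw [smul_add]; exact Λ.add_mem hx hy
    | smul r x _ hx =>
      rw [smul_comm]
      exact Λ.smul_mem r hx
  have hint : ∀ i, IsIntegral R (c i) := fun i =>
    isIntegral_of_smul_mem_submodule Λ hΛne hΛfg (c i) (hstab i)
  choose r hr using fun i => selgl_mem_of_isIntegral (hint i)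
  have hfinal : ψ = ∑ i, r i • v i := by
    funext P
    rw [hψ P, Finset.sum_apply]
    refine Finset.sum_congr rfl fun i _ => ?_
    rw [Pi.smul_apply, Algebra.smul_def, selgl_algebraMap, hr i]
  rw [hfinal]
  exact H.sum_mem fun i _ => H.smul_mem (b i).2 _

end Grouplike

end Fermat.Agent.S15


end ZBZ2S15_040_0

/-! ### bundled: `Fermat.Agent.S15.SelGR` -/
section ZBZ2S15_040_1

/-!
# S15 / SEL-GR: the Kummer generator of a flat extension is a unit class

`R ⊂ ℚ` a PID with fraction field `ℚ`, `E` a finite abelian group with a map `act` and a Hopf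
lattice `H` (`W1.IsHopfLattice`), `K ≤ E` a stable subgroup, `ψ` a Galois equivariant character of
`K`, `c ∈ E` with `act σ c - c ∈ K` for all `σ`, and `α ≠ 0` with `σ α = ψ (act σ c - c) * α`.

* `selgr_unit` : there is a rational `q ≠ 0` such that `q α` and `(q α)⁻¹` are integral over `R`.

No grading, no classification of Hopf orders of rank `r`; `E / K` is arbitrary; `r = 2` allowed.

Proof.  `ψ` extends to `ψ̃ ∈ H` (`selgl_grouplike_mem` on `K`).  By the comultiplication,
`e ↦ ψ̃ (e - c)` is a combination of elements of `H` with coefficients integral over `R`.  On the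
coset `c + K` the function `Λ = ψ (· - c) α` is Galois equivariant, so it has rational coordinates
`b_m` in an `R`-basis `w_m` of the restricted lattice, and `α S_m = b_m` with `S_m` integral.  With
`g = gcd (b_m)`: `g / α = ∑ t_m S_m` is integral and `α / g = (Λ / g) (c)` is integral.
-/

set_option autoImplicit false
set_option linter.unusedSectionVars false
set_option linter.unusedSimpArgs false
set_option linter.style.haveILetI false

namespace Fermat.Agent.S15

open Fermat.Agent.W1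

section UnitClass

variable {R : Subring ℚ} {E : Type}
  {H : Subalgebra R (E → AlgebraicClosure ℚ)}

/-- Values of the elements of a finitely generated lattice of functions are integral. -/
theorem selgr_isIntegral_apply (hfg : (Subalgebra.toSubmodule H).FG)
    {h : E → AlgebraicClosure ℚ} (hh : h ∈ H) (P : E) : IsIntegral R (h P) := by
  haveI : Module.Finite R H := Module.Finite.iff_fg.2 hfg
  have hint : IsIntegral R (⟨h, hh⟩ : H) := Algebra.IsIntegral.isIntegral _
  exact hint.map ((Pi.evalAlgHom R (fun _ : E => AlgebraicClosure ℚ) P).comp H.val)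

variable [AddCommGroup E]
  {act : (AlgebraicClosure ℚ ≃ₐ[ℚ] AlgebraicClosure ℚ) → E → E}
  [IsPrincipalIdealRing R] [IsFractionRing R ℚ]

/-- The map `act σ` of a Hopf lattice is additive. -/
theorem selgr_act_add (hH : IsHopfLattice R act H)
    (σ : AlgebraicClosure ℚ ≃ₐ[ℚ] AlgebraicClosure ℚ) (P Q : E) :
    act σ (P + Q) = act σ P + act σ Q := by
  obtain ⟨n, b, -⟩ := sq_exists_basis hH.fg hH.equivariant
  refine hH.separates _ _ fun h hh => ?_
  obtain ⟨ρ, hρ⟩ := selgl_expand b _ (hH.comul_mem h hh)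
  have h1 : h (act σ P + act σ Q) = _ := hρ (act σ P) (act σ Q)
  have h2 : h (P + Q) = _ := hρ P Q
  rw [hH.equivariant h hh σ (P + Q), h1, h2, map_sum]
  refine Finset.sum_congr rfl fun ij _ => ?_
  rw [map_mul, map_mul, hH.equivariant _ (b ij.1).2, hH.equivariant _ (b ij.2).2,
    selgl_algebraMap, σ.commutes]

/-- **(GR)** The Kummer generator of a flat extension is a unit class. -/
theorem selgr_unit [Finite E] (hH : IsHopfLattice R act H) (K : AddSubgroup E)
    (hK : ∀ σ, ∀ v ∈ K, act σ v ∈ K)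
    (ψ : E → AlgebraicClosure ℚ)
    (hmul : ∀ u ∈ K, ∀ v ∈ K, ψ (u + v) = ψ u * ψ v) (h0 : ψ 0 = 1)
    (heq : ∀ (σ : AlgebraicClosure ℚ ≃ₐ[ℚ] AlgebraicClosure ℚ), ∀ v ∈ K,
      ψ (act σ v) = σ (ψ v))
    (c : E) (hc : ∀ σ, act σ c - c ∈ K)
    (α : AlgebraicClosure ℚ) (hα : α ≠ 0)
    (hαeq : ∀ σ : AlgebraicClosure ℚ ≃ₐ[ℚ] AlgebraicClosure ℚ,
      σ α = ψ (act σ c - c) * α) :
    ∃ q : ℚ, q ≠ 0 ∧ IsIntegral R (algebraMap ℚ (AlgebraicClosure ℚ) q * α) ∧
      IsIntegral R (algebraMap ℚ (AlgebraicClosure ℚ) q * α)⁻¹ := by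
  classical
  -- Step 1: the lattice on `K` and the extension `ψt ∈ H` of `ψ`
  have hHK : IsHopfLattice R (fun σ (v : K) => (⟨act σ v, hK σ v v.2⟩ : K))
      (H.map (pullFn R K.subtype)) :=
    sq_sub hH K.subtype K.subtype_injective (fun σ P => rfl)
  have hψK : (fun v : K => ψ v) ∈ H.map (pullFn R K.subtype) :=
    selgl_grouplike_mem hHK _ (fun P Q => hmul _ P.2 _ Q.2) h0 (fun σ P => heq σ _ P.2)
  obtain ⟨ψt, hψt, hψtK⟩ := hψK
  have hψt' : ∀ v : K, ψt v = ψ v := fun v => congrFun hψtK v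
  -- Step 2: a basis of `H` and the expansion of the comultiplication of `ψt`
  obtain ⟨n, b, -⟩ := sq_exists_basis hH.fg hH.equivariant
  obtain ⟨ρ, hρ⟩ := selgl_expand b _ (hH.comul_mem ψt hψt)
  -- Step 3: the lattice on the coset `c + K`, transported to `K`
  have hmemX : ∀ (σ : AlgebraicClosure ℚ ≃ₐ[ℚ] AlgebraicClosure ℚ) (v : K),
      act σ (c + v) - c ∈ K := by
    intro σ v
    have h1 : act σ (c + v) - c = (act σ c - c) + act σ v := by
      rw [selgr_act_add hH]; abel
    rw [h1]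
    exact K.add_mem (hc σ) (hK σ v v.2)
  set ι : K → E := fun v => c + v with hι
  set actX : (AlgebraicClosure ℚ ≃ₐ[ℚ] AlgebraicClosure ℚ) → K → K :=
    fun σ v => ⟨act σ (c + v) - c, hmemX σ v⟩ with hactX
  set HX : Subalgebra R (K → AlgebraicClosure ℚ) := H.map (pullFn R ι) with hHX
  have hXfg : (Subalgebra.toSubmodule HX).FG := by
    rw [hHX, Subalgebra.map_toSubmodule]
    exact hH.fg.map _
  have hXeq : ∀ h ∈ HX, ∀ (σ : AlgebraicClosure ℚ ≃ₐ[ℚ] AlgebraicClosure ℚ) (P : K),
      h (actX σ P) = σ (h P) := by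
    rintro _ ⟨h, hh, rfl⟩ σ P
    show h (c + (act σ (c + P) - c)) = σ (h (c + P))
    rw [add_sub_cancel, hH.equivariant h hh]
  have hXsep : ∀ P Q : K, (∀ h ∈ HX, h P = h Q) → P = Q := by
    intro P Q hPQ
    have h1 : c + (P : E) = c + (Q : E) :=
      hH.separates _ _ fun h hh => hPQ _ ⟨h, hh, rfl⟩
    exact Subtype.ext (add_left_cancel h1)
  obtain ⟨m, w, hw⟩ := sq_exists_basis hXfg hXeq
  -- Step 4: the equivariant function `Λ = ψ α`
  set Λ : K → AlgebraicClosure ℚ := fun v => ψ v * α with hΛ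
  have hΛeq : ∀ (σ : AlgebraicClosure ℚ ≃ₐ[ℚ] AlgebraicClosure ℚ) (P : K),
      Λ (actX σ P) = σ (Λ P) := by
    intro σ P
    show ψ (act σ (c + P) - c) * α = σ (ψ P * α)
    have h1 : act σ (c + P) - c = (act σ c - c) + act σ P := by
      rw [selgr_act_add hH]; abel
    rw [h1, hmul _ (hc σ) _ (hK σ P P.2), heq σ P P.2, map_mul, hαeq σ]
    ring
  obtain ⟨d, hd0, hd⟩ := sq_exists_smul_mem hXfg hXeq hXsep Λ hΛeq
  have hdK : (d : AlgebraicClosure ℚ) ≠ 0 := Nat.cast_ne_zero.2 hd0
  -- Step 5: coordinates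
  have hvX : ∀ j, (fun v : K => ((b j : H) : E → AlgebraicClosure ℚ) (c + v)) ∈ HX :=
    fun j => ⟨_, (b j).2, rfl⟩
  set S : Fin m → AlgebraicClosure ℚ := fun k =>
    ∑ ij : Fin n × Fin n, algebraMap R (AlgebraicClosure ℚ) (ρ ij) *
      (((b ij.1 : H) : E → AlgebraicClosure ℚ) (-c) *
        algebraMap R (AlgebraicClosure ℚ) (w.repr ⟨_, hvX ij.2⟩ k)) with hS
  have hSint : ∀ k, IsIntegral R (S k) := by
    intro k
    refine IsIntegral.sum _ fun ij _ => ?_
    exact isIntegral_algebraMap.mul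
      ((selgr_isIntegral_apply hH.fg (b ij.1).2 _).mul isIntegral_algebraMap)
  have hψS : ∀ v : K, ψ v = ∑ k, S k * ((w k : HX) : K → AlgebraicClosure ℚ) v := by
    intro v
    have h1 : ψt (-c + (c + v)) = _ := hρ (-c) (c + v)
    rw [neg_add_cancel_left, hψt'] at h1
    rw [h1]
    have h2 : ∀ j, ((b j : H) : E → AlgebraicClosure ℚ) (c + v) =
        ∑ k, algebraMap R (AlgebraicClosure ℚ) (w.repr ⟨_, hvX j⟩ k) *
          ((w k : HX) : K → AlgebraicClosure ℚ) v :=
      fun j => selgl_repr_apply w ⟨_, hvX j⟩ v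
    simp only [hS, h2, Finset.mul_sum, Finset.sum_mul]
    rw [Finset.sum_comm]
    refine Finset.sum_congr rfl fun k _ => ?_
    refine Finset.sum_congr rfl fun ij _ => ?_
    ring
  set r : Fin m → R := fun k => w.repr ⟨d • Λ, hd⟩ k with hr
  have hdΛ : ∀ v : K, (d : AlgebraicClosure ℚ) * (ψ v * α) =
      ∑ k, algebraMap R (AlgebraicClosure ℚ) (r k) *
        ((w k : HX) : K → AlgebraicClosure ℚ) v := by
    intro v
    rw [← selgl_repr_apply w ⟨d • Λ, hd⟩ v]
    show _ = (d • Λ) v
    rw [Pi.smul_apply, nsmul_eq_mul]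
  have hcoef : ∀ k, (d : AlgebraicClosure ℚ) * α * S k =
      algebraMap R (AlgebraicClosure ℚ) (r k) := by
    have h1 : ∑ k, ((d : AlgebraicClosure ℚ) * α * S k -
        algebraMap R (AlgebraicClosure ℚ) (r k)) •
          (fun k => ((w k : HX) : K → AlgebraicClosure ℚ)) k = 0 := by
      funext v
      simp only [Finset.sum_apply, Pi.smul_apply, smul_eq_mul, Pi.zero_apply, sub_mul,
        Finset.sum_sub_distrib]
      rw [sub_eq_zero, ← hdΛ v, hψS v, Finset.sum_mul, Finset.mul_sum]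
      refine Finset.sum_congr rfl fun k _ => ?_
      ring
    intro k
    exact sub_eq_zero.1 (Fintype.linearIndependent_iff.1 hw _ h1 k)
  -- Step 6: the gcd of the coordinates
  obtain ⟨g₀, hg₀⟩ := (IsPrincipalIdealRing.principal (Ideal.span (Set.range r))).principal
  have hg₀mem : g₀ ∈ Ideal.span (Set.range r) := by
    rw [hg₀]; exact Submodule.mem_span_singleton_self g₀
  obtain ⟨t, ht⟩ := (Submodule.mem_span_range_iff_exists_fun R).1 hg₀mem
  have hu : ∀ k, ∃ u : R, u * g₀ = r k := by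
    intro k
    have h1 : r k ∈ Ideal.span (Set.range r) := Ideal.subset_span ⟨k, rfl⟩
    rw [hg₀] at h1
    exact Ideal.mem_span_singleton'.1 h1
  choose u hu using hu
  -- Step 7: `g₀ ≠ 0`
  have hg₀0 : g₀ ≠ 0 := by
    intro h
    have h1 : ∀ k, r k = 0 := fun k => by rw [← hu k, h, mul_zero]
    have h2 := hdΛ 0
    simp only [h1, map_zero, zero_mul, Finset.sum_const_zero] at h2
    rw [ZeroMemClass.coe_zero, h0, one_mul] at h2
    rcases mul_eq_zero.1 h2 with h3 | h3
    · exact hdK h3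
    · exact hα h3
  have hg₀Q : ((g₀ : R) : ℚ) ≠ 0 := fun h => hg₀0 (Subtype.ext h)
  have hg₀K : algebraMap R (AlgebraicClosure ℚ) g₀ ≠ 0 := by
    rw [selgl_algebraMap]
    exact fun h => hg₀Q ((algebraMap ℚ (AlgebraicClosure ℚ)).injective (h.trans (map_zero _).symm))
  -- Step 8: the unit
  refine ⟨(d : ℚ) / (g₀ : ℚ), div_ne_zero (Nat.cast_ne_zero.2 hd0) hg₀Q, ?_, ?_⟩
  · -- `q α` is the value at `0` of an element of `HX`
    have hx : (∑ k, u k • (w k : HX) : HX).1 ∈ HX := (∑ k, u k • (w k : HX) : HX).2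
    have h1 := selgr_isIntegral_apply hXfg hx 0
    have h2 : ((∑ k, u k • (w k : HX) : HX) : K → AlgebraicClosure ℚ) 0 =
        algebraMap ℚ (AlgebraicClosure ℚ) ((d : ℚ) / (g₀ : ℚ)) * α := by
      have h3 : algebraMap R (AlgebraicClosure ℚ) g₀ *
          ((∑ k, u k • (w k : HX) : HX) : K → AlgebraicClosure ℚ) 0 =
          (d : AlgebraicClosure ℚ) * α := by
        have h4 := hdΛ 0
        rw [ZeroMemClass.coe_zero, h0, one_mul] at h4
        rw [h4]
        simp only [AddSubmonoidClass.coe_finsetSum, Finset.sum_apply, Finset.mul_sum]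
        refine Finset.sum_congr rfl fun k _ => ?_
        rw [← hu k, map_mul]
        show _ * (u k • ((w k : HX) : K → AlgebraicClosure ℚ)) 0 = _
        rw [Pi.smul_apply, Algebra.smul_def]
        ring
      rw [map_div₀, map_natCast, ← selgl_algebraMap]
      field_simp
      rw [← h3]
      ring
    rw [← h2]
    exact h1
  · -- `(q α)⁻¹ = ∑ t_k S_k`
    have h1 : IsIntegral R (∑ k, algebraMap R (AlgebraicClosure ℚ) (t k) * S k) :=
      IsIntegral.sum _ fun k _ => isIntegral_algebraMap.mul (hSint k)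
    have h2 : (algebraMap ℚ (AlgebraicClosure ℚ) ((d : ℚ) / (g₀ : ℚ)) * α)⁻¹ =
        ∑ k, algebraMap R (AlgebraicClosure ℚ) (t k) * S k := by
      have h3 : (d : AlgebraicClosure ℚ) * α *
          ∑ k, algebraMap R (AlgebraicClosure ℚ) (t k) * S k =
          algebraMap R (AlgebraicClosure ℚ) g₀ := by
        rw [← ht, map_sum, Finset.mul_sum]
        refine Finset.sum_congr rfl fun k _ => ?_
        rw [smul_eq_mul, map_mul, ← hcoef k]
        ring
      rw [map_div₀, map_natCast, ← selgl_algebraMap, ← h3]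
      field_simp
    rw [h2]
    exact h1

end UnitClass

end Fermat.Agent.S15


end ZBZ2S15_040_1

/-! ### bundled: `Fermat.Agent.S15.SelGRVal` -/
section ZBZ2S15_040_2

/-!
# S15 / SEL-GR: the valuation form of `selgr_unit` over `ℤ_(r)`

* `selgr_padicValRat` : in the situation of `selgr_unit` with `R = ℤ_(r)`, if `α ^ n = a ∈ ℚ`
  then `n ∣ v_r(a)`.   (For a Kummer generator `α` of a cocycle with values in `μ_n`.)
-/

set_option autoImplicit false
set_option linter.unusedSectionVars false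
set_option linter.unusedSimpArgs false
set_option linter.style.haveILetI false

namespace Fermat.Agent.S15

open Fermat.Agent.W1 GaloisRep

section Val

variable (r : ℕ) [Fact r.Prime]

/-- A rational number which is integral over `ℤ_(r)` together with its inverse has valuation
`0`. -/
theorem selgr_padicValRat_eq_zero {x : ℚ}
    (hx : IsIntegral (ratLocalizedAt r) (algebraMap ℚ (AlgebraicClosure ℚ) x))
    (hx' : IsIntegral (ratLocalizedAt r) (algebraMap ℚ (AlgebraicClosure ℚ) x)⁻¹) :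
    padicValRat r x = 0 := by
  have hq : ∀ y : ℚ, IsIntegral (ratLocalizedAt r) (algebraMap ℚ (AlgebraicClosure ℚ) y) →
      0 ≤ padicValRat r y := by
    intro y hy
    have hintq : IsIntegral (ratLocalizedAt r) y :=
      (isIntegral_algHom_iff (IsScalarTower.toAlgHom (ratLocalizedAt r) ℚ (AlgebraicClosure ℚ))
        (algebraMap ℚ (AlgebraicClosure ℚ)).injective).1 hy
    obtain ⟨ρ, hρ⟩ := selgl_mem_of_isIntegral hintq
    rw [← hρ]
    exact ratLoc_padicValRat_nonneg r ρ
  have h1 := hq x hx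
  have h2 : 0 ≤ padicValRat r x⁻¹ := by
    apply hq
    rw [map_inv₀]
    exact hx'
  rw [padicValRat.inv] at h2
  omega

variable {E : Type} [AddCommGroup E]
  {act : (AlgebraicClosure ℚ ≃ₐ[ℚ] AlgebraicClosure ℚ) → E → E}
  {H : Subalgebra (ratLocalizedAt r) (E → AlgebraicClosure ℚ)}

/-- **(GR), valuation form.** -/
theorem selgr_padicValRat [Finite E] (hH : IsHopfLattice (ratLocalizedAt r) act H)
    (K : AddSubgroup E) (hK : ∀ σ, ∀ v ∈ K, act σ v ∈ K)
    (ψ : E → AlgebraicClosure ℚ)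
    (hmul : ∀ u ∈ K, ∀ v ∈ K, ψ (u + v) = ψ u * ψ v) (h0 : ψ 0 = 1)
    (heq : ∀ (σ : AlgebraicClosure ℚ ≃ₐ[ℚ] AlgebraicClosure ℚ), ∀ v ∈ K,
      ψ (act σ v) = σ (ψ v))
    (c : E) (hc : ∀ σ, act σ c - c ∈ K)
    (α : AlgebraicClosure ℚ) (hα : α ≠ 0)
    (hαeq : ∀ σ : AlgebraicClosure ℚ ≃ₐ[ℚ] AlgebraicClosure ℚ,
      σ α = ψ (act σ c - c) * α)
    (n : ℕ) (a : ℚ) (ha : algebraMap ℚ (AlgebraicClosure ℚ) a = α ^ n) :
    (n : ℤ) ∣ padicValRat r a := by
  obtain ⟨q, hq0, hint, hint'⟩ := selgr_unit hH K hK ψ hmul h0 heq c hc α hα hαeq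
  have ha0 : a ≠ 0 := by
    intro h
    rw [h, map_zero] at ha
    exact pow_ne_zero n hα ha.symm
  have hx : algebraMap ℚ (AlgebraicClosure ℚ) (q ^ n * a) =
      (algebraMap ℚ (AlgebraicClosure ℚ) q * α) ^ n := by
    rw [map_mul, map_pow, ha, mul_pow]
  have h1 : padicValRat r (q ^ n * a) = 0 := by
    apply selgr_padicValRat_eq_zero r
    · rw [hx]; exact hint.pow n
    · rw [hx, ← inv_pow]; exact hint'.pow n
  rw [padicValRat.mul (pow_ne_zero _ hq0) ha0, padicValRat.pow] at h1
  exact ⟨-padicValRat r q, by linarith⟩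

end Val

end Fermat.Agent.S15


end ZBZ2S15_040_2

/-! ### bundled: `Fermat.Agent.S15.SelU` -/
section ZBZ2S15_040_3

/-!
# S15 / SEL-U: Fontaine's lemma for one fixed point of a Hopf lattice over `ℤ_(r)`, `r` odd

`R = ℤ_(r) = GaloisRep.ratLocalizedAt r`, `M` a finite abelian group with a Hopf lattice `H`
(`W1.IsHopfLattice`), `x ∈ M` a point fixed by the Galois action with `r • x = 0`, `x ≠ 0`.

* `selu_fontaine` : if `r` is odd, there is `h ∈ H` such that `h x - h 0` is a unit of `ℤ_(r)`.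

(Only `x` is assumed to be fixed.)  So a Hopf lattice over `ℤ_(r)`, `r` odd, is "étale at every
rational point of order `r`".

Proof (Fontaine's binomial argument, with finite differences).  `T f = f (· + x) - f`.  By the
comultiplication `T h = ∑ ρ_ab (h_b x - h_b 0) h_a`, so if `r ^ j` divides all `h x - h 0` then
`T ^ i` maps `H` into `r ^ (i j) H`.  Newton's formula `h (r • x) = ∑ C(r, i) (T ^ i h) 0` and
`r • x = 0` give `r (h x - h 0) ∈ r ^ (j + 2) ℤ_(r)` for `j ≥ 1` and `r ≥ 3`.  By induction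
`h x - h 0` is divisible by all powers of `r`, so `h x = h 0` for all `h`, and `x = 0`.
-/

set_option autoImplicit false
set_option linter.unusedSectionVars false
set_option linter.unusedSimpArgs false
set_option linter.style.haveILetI false

namespace Fermat.Agent.S15

open Fermat.Agent.W1

section Newton

variable {M : Type} [AddCommGroup M]

/-- The finite difference operator `T f = f (· + x) - f`. -/
noncomputable def seluT (x : M) :
    Module.End (AlgebraicClosure ℚ) (M → AlgebraicClosure ℚ) where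
  toFun f := fun P => f (P + x) - f P
  map_add' f g := by funext P; simp only [Pi.add_apply]; ring
  map_smul' c f := by
    funext P
    simp only [Pi.smul_apply, smul_eq_mul, RingHom.id_apply]
    ring

theorem seluT_apply (x : M) (f : M → AlgebraicClosure ℚ) (P : M) :
    seluT x f P = f (P + x) - f P := rfl

theorem selu_shift_apply (x : M) (f : M → AlgebraicClosure ℚ) (P : M) :
    (seluT x + 1) f P = f (P + x) := by
  rw [LinearMap.add_apply, Pi.add_apply, seluT_apply, Module.End.one_apply]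
  ring

theorem selu_shift_pow (x : M) (m : ℕ) :
    ∀ (f : M → AlgebraicClosure ℚ) (P : M), ((seluT x + 1) ^ m) f P = f (P + m • x) := by
  induction m with
  | zero => intro f P; simp
  | succ m ih =>
    intro f P
    rw [pow_succ, Module.End.mul_apply, ih, selu_shift_apply, add_smul, one_smul, add_assoc]

/-- Newton's forward difference formula. -/
theorem selu_newton (x : M) (m : ℕ) (f : M → AlgebraicClosure ℚ) :
    f (m • x) = ∑ i ∈ Finset.range (m + 1),
      (m.choose i : AlgebraicClosure ℚ) * ((seluT x ^ i) f) 0 := by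
  have h1 := selu_shift_pow x m f 0
  rw [zero_add] at h1
  rw [← h1, (Commute.one_right (seluT x)).add_pow, LinearMap.sum_apply, Finset.sum_apply]
  refine Finset.sum_congr rfl fun i _ => ?_
  rw [one_pow, mul_one, Module.End.mul_apply, Module.End.natCast_apply, map_nsmul,
    Pi.smul_apply, nsmul_eq_mul]

end Newton

section Lattice

variable {R : Subring ℚ} {M : Type} [AddCommGroup M]
  {act : (AlgebraicClosure ℚ ≃ₐ[ℚ] AlgebraicClosure ℚ) → M → M}
  {H : Subalgebra R (M → AlgebraicClosure ℚ)}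
  [IsPrincipalIdealRing R] [IsFractionRing R ℚ]

/-- If `π ^ j` divides all differences `h x - h 0`, then `T` maps `H` into `π ^ j H`. -/
theorem selu_T_mem (hH : IsHopfLattice R act H) (x : M) (π : R) (j : ℕ)
    (hP : ∀ h ∈ H, ∃ ρ : R, h x - h 0 = algebraMap R (AlgebraicClosure ℚ) (π ^ j * ρ)) :
    ∀ h ∈ H, ∃ h' ∈ H, seluT x h = (π ^ j) • h' := by
  intro h hh
  obtain ⟨n, b, -⟩ := sq_exists_basis hH.fg hH.equivariant
  obtain ⟨ρ, hρ⟩ := selgl_expand b _ (hH.comul_mem h hh)
  choose ρ' hρ' using fun k => hP _ (b k).2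
  refine ⟨∑ ab : Fin n × Fin n, (ρ ab * ρ' ab.2) • ((b ab.1 : H) : M → AlgebraicClosure ℚ),
    H.sum_mem fun ab _ => H.smul_mem (b ab.1).2 _, ?_⟩
  funext P
  have h1 : h (P + x) = _ := hρ P x
  have h2 : h (P + 0) = _ := hρ P 0
  rw [add_zero] at h2
  rw [seluT_apply, h1, h2, ← Finset.sum_sub_distrib, Pi.smul_apply, Finset.sum_apply,
    Finset.smul_sum]
  refine Finset.sum_congr rfl fun ab _ => ?_
  rw [Pi.smul_apply, Algebra.smul_def, Algebra.smul_def, ← mul_sub, ← mul_sub, hρ' ab.2]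
  simp only [map_mul, map_pow]
  ring

/-- If `π ^ j` divides all differences `h x - h 0`, then `T ^ i` maps `H` into `π ^ (i j) H`. -/
theorem selu_Tpow_mem (hH : IsHopfLattice R act H) (x : M) (π : R) (j : ℕ)
    (hP : ∀ h ∈ H, ∃ ρ : R, h x - h 0 = algebraMap R (AlgebraicClosure ℚ) (π ^ j * ρ))
    (i : ℕ) : ∀ h ∈ H, ∃ h' ∈ H, (seluT x ^ i) h = (π ^ (i * j)) • h' := by
  induction i with
  | zero =>
    intro h hh
    exact ⟨h, hh, by simp⟩
  | succ i ih =>
    intro h hh
    obtain ⟨h₁, hh₁, e₁⟩ := selu_T_mem hH x π j hP h hh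
    obtain ⟨h₂, hh₂, e₂⟩ := ih h₁ hh₁
    refine ⟨h₂, hh₂, ?_⟩
    rw [pow_succ, Module.End.mul_apply, e₁]
    have h3 : (seluT x ^ i) ((π ^ j) • h₁) = (π ^ j) • (seluT x ^ i) h₁ := by
      funext P
      have h4 : ((π ^ j) • h₁ : M → AlgebraicClosure ℚ) =
          (algebraMap R (AlgebraicClosure ℚ) (π ^ j)) • h₁ := by
        funext Q
        rw [Pi.smul_apply, Pi.smul_apply, Algebra.smul_def, smul_eq_mul]
      rw [h4, map_smul]
      simp only [Pi.smul_apply, smul_eq_mul]
      rw [Algebra.smul_def]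
    rw [h3, e₂, smul_smul, ← pow_add]
    congr 2
    ring

/-- Values of the elements of `H` at a fixed point are in `R`. -/
theorem selu_fixed_value (hH : IsHopfLattice R act H) (P : M)
    (hP : ∀ σ, act σ P = P) {h : M → AlgebraicClosure ℚ} (hh : h ∈ H) :
    ∃ ρ : R, h P = algebraMap R (AlgebraicClosure ℚ) ρ := by
  obtain ⟨q, hq⟩ := w1_exists_rat_of_fixed (h P) fun σ => by
    rw [← hH.equivariant h hh σ P, hP]
  have hint : IsIntegral R (h P) := selgr_isIntegral_apply hH.fg hh P
  rw [← hq] at hint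
  have hintq : IsIntegral R q :=
    (isIntegral_algHom_iff (IsScalarTower.toAlgHom R ℚ (AlgebraicClosure ℚ))
      (algebraMap ℚ (AlgebraicClosure ℚ)).injective).1 hint
  obtain ⟨ρ, hρ⟩ := selgl_mem_of_isIntegral hintq
  exact ⟨ρ, by rw [selgl_algebraMap, hρ, hq]⟩

/-- The induction step of Fontaine's argument. -/
theorem selu_step (hH : IsHopfLattice R act H) (x : M) (r : ℕ) (hr : r.Prime) (hr3 : 3 ≤ r)
    (hrx : r • x = 0) (j : ℕ) (hj : 1 ≤ j)
    (hP : ∀ h ∈ H, ∃ ρ : R, h x - h 0 = algebraMap R (AlgebraicClosure ℚ) ((r : R) ^ j * ρ)) :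
    ∀ h ∈ H, ∃ ρ : R,
      h x - h 0 = algebraMap R (AlgebraicClosure ℚ) ((r : R) ^ (j + 1) * ρ) := by
  intro h hh
  have hinj : Function.Injective (algebraMap R (AlgebraicClosure ℚ)) := algebraMap_R_injective
  have hr0 : (r : R) ≠ 0 := by
    intro h0
    have h1 := congrArg (fun t : R => (t : ℚ)) h0
    simp only [Subring.coe_natCast, ZeroMemClass.coe_zero, Nat.cast_eq_zero] at h1
    exact hr.ne_zero h1
  -- the elements `h'_i` and their values at `0`
  choose h' hh' e' using fun i => selu_Tpow_mem hH x (r : R) j hP i h hh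
  choose ε hε using fun i => hH.counit_mem _ (hh' i)
  have hval : ∀ i, ((seluT x ^ i) h) 0 =
      algebraMap R (AlgebraicClosure ℚ) ((r : R) ^ (i * j) * ε i) := by
    intro i
    rw [e' i, Pi.smul_apply, Algebra.smul_def, hε i, map_mul]
  -- Newton's formula in `R`
  have hN : ε 0 = ∑ i ∈ Finset.range (r + 1), (r.choose i : R) * ((r : R) ^ (i * j) * ε i) := by
    apply hinj
    have h1 := selu_newton x r h
    rw [hrx] at h1
    have h2 := hval 0
    simp only [pow_zero, Module.End.one_apply, zero_mul, one_mul] at h2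
    rw [← h2, h1, map_sum]
    refine Finset.sum_congr rfl fun i _ => ?_
    rw [hval i]
    simp only [map_mul, map_natCast]
  set f : ℕ → R := fun i => (r.choose i : R) * ((r : R) ^ (i * j) * ε i) with hf
  have hf0 : f 0 = ε 0 := by
    simp only [hf, Nat.choose_zero_right, Nat.cast_one, zero_mul, pow_zero, one_mul]
  have hf1 : f 1 = (r : R) ^ (j + 1) * ε 1 := by
    simp only [hf, Nat.choose_one_right, one_mul]
    ring
  have hsplit : ∑ i ∈ Finset.range (r + 1), f i =
      f 0 + (f 1 + ∑ i ∈ Finset.Ico 2 (r + 1), f i) := by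
    rw [Finset.range_eq_Ico, Finset.sum_eq_sum_Ico_succ_bot (by omega),
      Finset.sum_eq_sum_Ico_succ_bot (by omega)]
  -- every higher term is divisible by `r ^ (j + 2)`
  have hdvd : ∀ i ∈ Finset.Ico 2 (r + 1), (r : R) ^ (j + 2) ∣ f i := by
    intro i hi
    obtain ⟨hi2, hir⟩ := Finset.mem_Ico.1 hi
    have h2j : 2 * j ≤ i * j := Nat.mul_le_mul_right j hi2
    by_cases hlast : i = r
    · -- the last term
      have h1 : j + 2 ≤ i * j := by
        have h3 : 3 * j ≤ i * j := Nat.mul_le_mul_right j (by omega)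
        omega
      exact Dvd.dvd.mul_left (Dvd.dvd.mul_right (pow_dvd_pow _ h1) _) _
    · -- the middle terms
      obtain ⟨c, hc⟩ : r ∣ r.choose i := hr.dvd_choose_self (by omega) (by omega)
      have e : f i = (r : R) ^ (i * j + 1) * ((c : R) * ε i) := by
        simp only [hf, hc, Nat.cast_mul]
        ring
      rw [e]
      exact Dvd.dvd.mul_right (pow_dvd_pow _ (by omega)) _
  have hsum : (r : R) ^ (j + 2) ∣ ∑ i ∈ Finset.Ico 2 (r + 1), f i :=
    Finset.dvd_sum hdvd
  obtain ⟨T, hT⟩ := hsum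
  have hrel : (r : R) ^ (j + 1) * ε 1 = (r : R) ^ (j + 1) * ((r : R) * (-T)) := by
    have h1 : ε 0 = f 0 + (f 1 + ∑ i ∈ Finset.Ico 2 (r + 1), f i) := by
      rw [← hsplit]; exact hN
    rw [hf0, hf1, hT] at h1
    have h2 : (r : R) ^ (j + 1) * ε 1 + (r : R) ^ (j + 2) * T = 0 := by
      have h3 := sub_eq_zero.2 h1.symm
      rw [← h3]
      ring
    have h4 : (r : R) ^ (j + 1) * ε 1 = -((r : R) ^ (j + 2) * T) := eq_neg_of_add_eq_zero_left h2
    rw [h4]
    ring
  have hε1 : ε 1 = (r : R) * (-T) := mul_left_cancel₀ (pow_ne_zero _ hr0) hrel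
  refine ⟨-T, ?_⟩
  have h5 := hval 1
  rw [pow_one, seluT_apply, zero_add, one_mul, hε1] at h5
  rw [h5]
  congr 1
  ring

end Lattice

section Main

open GaloisRep

variable (r : ℕ) [Fact r.Prime]

theorem selu_natCast_ne_zero : ((r : ℕ) : ratLocalizedAt r) ≠ 0 := by
  intro h0
  have h1 := congrArg (fun t : ratLocalizedAt r => (t : ℚ)) h0
  simp only [Subring.coe_natCast, ZeroMemClass.coe_zero, Nat.cast_eq_zero] at h1
  exact (Fact.out : r.Prime).ne_zero h1

/-- In `ℤ_(r)` an element is a unit or divisible by `r`. -/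
theorem selu_isUnit_or_dvd (x : ratLocalizedAt r) :
    IsUnit x ∨ ((r : ℕ) : ratLocalizedAt r) ∣ x := by
  by_cases hx : x = 0
  · right; rw [hx]; exact dvd_zero _
  have hnn := ratLoc_padicValRat_nonneg r x
  rcases hnn.eq_or_lt with h0 | hpos
  · left
    refine isUnit_of_dvd_one (ratLoc_dvd_of_padicValRat_le r hx ?_)
    rw [← h0]
    simp
  · right
    refine ratLoc_dvd_of_padicValRat_le r (selu_natCast_ne_zero r) ?_
    have h1 : padicValRat r (((r : ℕ) : ratLocalizedAt r) : ℚ) = 1 := by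
      rw [Subring.coe_natCast]
      exact padicValRat.self (Fact.out : r.Prime).one_lt
    rw [h1]
    omega

/-- In `ℤ_(r)` an element divisible by all powers of `r` is zero. -/
theorem selu_eq_zero_of_forall_pow_dvd (x : ratLocalizedAt r)
    (h : ∀ j : ℕ, ((r : ℕ) : ratLocalizedAt r) ^ j ∣ x) : x = 0 := by
  by_contra hx
  have hx' : (x : ℚ) ≠ 0 := fun h0 => hx (Subtype.ext h0)
  obtain ⟨y, hy⟩ := h ((padicValRat r (x : ℚ)).toNat + 1)
  have hy0 : (y : ℚ) ≠ 0 := by
    intro h0
    apply hx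
    rw [hy, show y = 0 from Subtype.ext h0, mul_zero]
  have hr0 : ((r : ℕ) : ℚ) ≠ 0 := Nat.cast_ne_zero.2 (Fact.out : r.Prime).ne_zero
  have h1 : padicValRat r (x : ℚ) =
      (((padicValRat r (x : ℚ)).toNat + 1 : ℕ) : ℤ) + padicValRat r (y : ℚ) := by
    have h2 := congrArg (fun t : ratLocalizedAt r => (t : ℚ)) hy
    simp only [Subring.coe_mul, Subring.coe_pow, Subring.coe_natCast] at h2
    conv_lhs => rw [h2]
    rw [padicValRat.mul (pow_ne_zero _ hr0) hy0, padicValRat.pow,
      padicValRat.self (Fact.out : r.Prime).one_lt, mul_one]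
  have h3 := ratLoc_padicValRat_nonneg r y
  have h4 := ratLoc_padicValRat_nonneg r x
  have h5 : ((padicValRat r (x : ℚ)).toNat : ℤ) = padicValRat r (x : ℚ) :=
    Int.toNat_of_nonneg h4
  push_cast at h1
  omega

variable {M : Type} [AddCommGroup M]
  {act : (AlgebraicClosure ℚ ≃ₐ[ℚ] AlgebraicClosure ℚ) → M → M}
  {H : Subalgebra (ratLocalizedAt r) (M → AlgebraicClosure ℚ)}

/-- **(U)** Fontaine's lemma: a Hopf lattice over `ℤ_(r)`, `r` odd, separates every fixed point
of order `r` from `0` modulo `r`. -/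
theorem selu_fontaine (hr3 : 3 ≤ r) (hH : IsHopfLattice (ratLocalizedAt r) act H) (x : M)
    (hx : ∀ σ, act σ x = x) (hx0 : x ≠ 0) (hrx : r • x = 0) :
    ∃ h ∈ H, ∃ u : ratLocalizedAt r, IsUnit u ∧
      h x - h 0 = algebraMap (ratLocalizedAt r) (AlgebraicClosure ℚ) u := by
  by_contra hcon
  push Not at hcon
  have hδ : ∀ h ∈ H, ∃ ρ : ratLocalizedAt r,
      h x - h 0 = algebraMap (ratLocalizedAt r) (AlgebraicClosure ℚ) ρ := by
    intro h hh
    obtain ⟨a, ha⟩ := selu_fixed_value hH x hx hh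
    obtain ⟨b, hb⟩ := hH.counit_mem h hh
    exact ⟨a - b, by rw [ha, hb, map_sub]⟩
  have hP1 : ∀ h ∈ H, ∃ ρ : ratLocalizedAt r, h x - h 0 =
      algebraMap (ratLocalizedAt r) (AlgebraicClosure ℚ) (((r : ℕ) : ratLocalizedAt r) ^ 1 * ρ) := by
    intro h hh
    obtain ⟨ρ, hρ⟩ := hδ h hh
    rcases selu_isUnit_or_dvd r ρ with hu | ⟨c, hc⟩
    · exact absurd hρ (hcon h hh ρ hu)
    · exact ⟨c, by rw [hρ, hc, pow_one]⟩
  have hPj : ∀ j, 1 ≤ j → ∀ h ∈ H, ∃ ρ : ratLocalizedAt r, h x - h 0 =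
      algebraMap (ratLocalizedAt r) (AlgebraicClosure ℚ) (((r : ℕ) : ratLocalizedAt r) ^ j * ρ) := by
    intro j hj
    induction j, hj using Nat.le_induction with
    | base => exact hP1
    | succ j hj ih => exact selu_step hH x r Fact.out hr3 hrx j hj ih
  have hzero : ∀ h ∈ H, h x = h 0 := by
    intro h hh
    obtain ⟨ρ, hρ⟩ := hδ h hh
    have h0 : ρ = 0 := selu_eq_zero_of_forall_pow_dvd r ρ fun j => by
      rcases Nat.eq_zero_or_pos j with rfl | hj
      · simp
      · obtain ⟨ρ', hρ'⟩ := hPj j hj h hh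
        exact ⟨ρ', algebraMap_R_injective (hρ.symm.trans hρ')⟩
    rw [h0, map_zero] at hρ
    exact sub_eq_zero.1 hρ
  exact hx0 (hH.separates _ _ hzero)

/-- The image of a unit of `ℤ_(r)` is not in the maximal ideal of a valuation ring over `r`. -/
theorem selu_unit_not_mem_nonunits (A : ValuationSubring (AlgebraicClosure ℚ))
    (hA : A.LiesOverPrime r) {u : ratLocalizedAt r} (hu : IsUnit u) :
    algebraMap (ratLocalizedAt r) (AlgebraicClosure ℚ) u ∉ A.nonunits := by
  obtain ⟨v, hv⟩ := hu.exists_right_inv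
  have hmem : ∀ ρ : ratLocalizedAt r,
      algebraMap (ratLocalizedAt r) (AlgebraicClosure ℚ) ρ ∈ A := fun ρ => by
    rw [selgl_algebraMap]
    exact (desc_rat_mem_iff (Fact.out : r.Prime) A hA _).2 ρ.2
  have h1 : algebraMap (ratLocalizedAt r) (AlgebraicClosure ℚ) u *
      algebraMap (ratLocalizedAt r) (AlgebraicClosure ℚ) v = 1 := by
    rw [← map_mul, hv, map_one]
  rw [ValuationSubring.mem_nonunits_iff_or]
  push Not
  refine ⟨left_ne_zero_of_mul_eq_one h1, ?_⟩
  rw [inv_eq_of_mul_eq_one_right h1]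
  exact hmem v

end Main

end Fermat.Agent.S15


end ZBZ2S15_040_3

/-! ### bundled: `Fermat.Agent.S15.SelES` -/
section ZBZ2S15_040_4

/-!
# S15 / SEL-U: the étale step

`r` an odd prime, `R = ℤ_(r)`, `A` a valuation ring of `ℚ̄` over `r`, `H` a Hopf lattice on the
finite group `M` which is reduction-continuous with respect to a subgroup `M1`
(`h t - h t' ∈ 𝔪_A` if `t - t' ∈ M1`; for the lattices of W1 this is `seljjRCStatement`).

* `selu_etale_step` : if `W, W' ≤ M`, `W'` is stable, `r • W' ⊂ W` and the Galois action is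
  trivial on `W' / W` (`act σ t - t ∈ W` for `t ∈ W'`), then `W' ∩ M1 ⊂ W`.

So a step of a composition series with trivial action is of étale type; equivalently a step of
connected type (`W' ∩ M1 ⊄ W`) has NON-trivial action (`r` odd).
-/

set_option autoImplicit false
set_option linter.unusedSectionVars false
set_option linter.unusedSimpArgs false
set_option linter.style.haveILetI false

namespace Fermat.Agent.S15

open Fermat.Agent.W1 GaloisRep

section EtaleStep

variable (r : ℕ) [Fact r.Prime] {M : Type} [AddCommGroup M]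
  {act : (AlgebraicClosure ℚ ≃ₐ[ℚ] AlgebraicClosure ℚ) → M → M}
  {H : Subalgebra (ratLocalizedAt r) (M → AlgebraicClosure ℚ)}

/-- **(ES)** A step with trivial Galois action is of étale type (`r` odd). -/
theorem selu_etale_step [Finite M] (hr3 : 3 ≤ r) (A : ValuationSubring (AlgebraicClosure ℚ))
    (hA : A.LiesOverPrime r) (hH : IsHopfLattice (ratLocalizedAt r) act H)
    (M1 : AddSubgroup M)
    (hRC : ∀ h ∈ H, ∀ t t' : M, t - t' ∈ M1 → h t - h t' ∈ A.nonunits)
    (W W' : AddSubgroup M)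
    (hW' : ∀ σ, ∀ t ∈ W', act σ t ∈ W')
    (htriv : ∀ σ, ∀ t ∈ W', act σ t - t ∈ W)
    (hrW : ∀ t ∈ W', r • t ∈ W) :
    ∀ t ∈ W', t ∈ M1 → t ∈ W := by
  intro t ht ht1
  by_contra htW
  -- the lattice on `W'`
  have hH' : IsHopfLattice (ratLocalizedAt r) (fun σ (v : W') => (⟨act σ v, hW' σ v v.2⟩ : W'))
      (H.map (pullFn (ratLocalizedAt r) W'.subtype)) :=
    sq_sub hH W'.subtype W'.subtype_injective (fun σ P => rfl)
  -- the quotient `W' / W`
  set N : AddSubgroup W' := W.addSubgroupOf W' with hN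
  have hπ : Function.Surjective (QuotientAddGroup.mk' N) := QuotientAddGroup.mk'_surjective N
  have hH'' : IsHopfLattice (ratLocalizedAt r) (fun _ (q : W' ⧸ N) => q)
      ((H.map (pullFn (ratLocalizedAt r) W'.subtype)).comap
        (pullFn (ratLocalizedAt r) (QuotientAddGroup.mk' N))) := by
    refine sq_quot hH' (QuotientAddGroup.mk' N) hπ (fun σ P => ?_)
    show QuotientAddGroup.mk' N ⟨act σ P, hW' σ P P.2⟩ = QuotientAddGroup.mk' N P
    rw [← sub_eq_zero, ← map_sub, QuotientAddGroup.mk'_apply, QuotientAddGroup.eq_zero_iff]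
    show ((⟨act σ P, hW' σ P P.2⟩ - P : W') : M) ∈ W
    rw [AddSubgroup.coe_sub]
    exact htriv σ P P.2
  -- the point
  have hx0 : QuotientAddGroup.mk' N ⟨t, ht⟩ ≠ 0 := by
    intro h0
    rw [QuotientAddGroup.mk'_apply, QuotientAddGroup.eq_zero_iff] at h0
    exact htW h0
  have hrx : r • QuotientAddGroup.mk' N ⟨t, ht⟩ = 0 := by
    rw [← map_nsmul, QuotientAddGroup.mk'_apply, QuotientAddGroup.eq_zero_iff]
    show ((r • (⟨t, ht⟩ : W') : W') : M) ∈ W
    rw [AddSubgroup.coe_nsmul]
    exact hrW t ht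
  obtain ⟨h'', hh'', u, hu, hval⟩ :=
    selu_fontaine r hr3 hH'' (QuotientAddGroup.mk' N ⟨t, ht⟩) (fun σ => rfl) hx0 hrx
  obtain ⟨h, hh, e⟩ := hh''
  have e1 : h t = h'' (QuotientAddGroup.mk' N ⟨t, ht⟩) := congrFun e ⟨t, ht⟩
  have e0 : h 0 = h'' 0 := by
    have := congrFun e 0
    simpa using this
  have hnon := hRC h hh t 0 (by simpa using ht1)
  rw [e1, e0, hval] at hnon
  exact selu_unit_not_mem_nonunits r A hA hu hnon

end EtaleStep

end Fermat.Agent.S15


end ZBZ2S15_040_4

/-! ### bundled: `Fermat.Agent.S15.SelArTrivEt` -/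
section ZBZ2S15_040_5

/-!
# S15 / SELMER / AR-3: a step with trivial Galois action is étale (`r` odd)

`stmtSelArTrivEt : StmtSelArTrivEt` (`SelPlan.lean`): for a step `W ≤ W'` of index `r` inside
`J₀(N)[r^k]` on which `G_ℚ` acts trivially (modulo `W`), `W' ∩ V1 ≤ W`, where `V1` is the kernel
of reduction of a local package `SelLocR N r Ar V1`.

Proof: `selu_etale_step` (SEL-ES, Fontaine's lemma) on `M := 𝕁_0[r^k]`, with the lattice of the
local package for `y = 0`, and `W, W', V1` transported by `ι : J → 𝕁_0`.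
-/

set_option autoImplicit false
set_option linter.style.haveILetI false
set_option synthInstance.maxHeartbeats 400000
set_option maxHeartbeats 1600000

noncomputable section

namespace Fermat.Agent.S15

open ModularCurve AlgebraicCurve
open Fermat.Agent.S24 Fermat.Agent.W1

/-- **AR-3**: a step with trivial action is étale (`r` odd). -/
theorem stmtSelArTrivEt : StmtSelArTrivEt := by
  intro N _ r k _hN hr _hrN hr2 Ar hAr V1 hV1 W W' hstep htriv
  haveI : Fact r.Prime := ⟨hr⟩
  have hr3 : 3 ≤ r := by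
    have := hr.two_le
    omega
  have hy0' : ∀ σ : GalQ, σ • (0 : JZero N) = 0 := fun σ => smul_zero (A := JZero N) σ
  haveI hy0 : Fact (∀ σ : GalQ, σ • (0 : JZero N) = 0) := ⟨hy0'⟩
  obtain ⟨H, hH, hRC⟩ := hV1.lattice 0 k
  have hn : 0 < r ^ k := pow_pos hr.pos k
  haveI : Finite (Submodule.torsionBy ℤ (SeljjJ (JZero N) 0 (r ^ k)) ((r ^ k : ℕ) : ℤ)) :=
    seljj_finite_torsion 0 (r ^ k) hn (seljjpkg_finite N r hr.ne_zero k)
  -- the transported subgroups
  let sub : Submodule.torsionBy ℤ (SeljjJ (JZero N) 0 (r ^ k)) ((r ^ k : ℕ) : ℤ) →+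
      SeljjJ (JZero N) 0 (r ^ k) :=
    (Submodule.torsionBy ℤ (SeljjJ (JZero N) 0 (r ^ k)) ((r ^ k : ℕ) : ℤ)).subtype.toAddMonoidHom
  have hsub : ∀ t, sub t = (t : SeljjJ (JZero N) 0 (r ^ k)) := fun _ => rfl
  have key := selu_etale_step r hr3 Ar hAr hH ((V1.map (seljjIota (JZero N) 0 (r ^ k))).comap sub)
    (fun h hh t t' htt => hRC h hh t t' (by
      rw [AddSubgroup.mem_comap, map_sub, hsub, hsub] at htt
      exact htt))
    ((W.map (seljjIota (JZero N) 0 (r ^ k))).comap sub)
    ((W'.map (seljjIota (JZero N) 0 (r ^ k))).comap sub) ?_ ?_ ?_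
  · -- conclusion
    intro w hw
    obtain ⟨hw', hw1⟩ := hw
    have hwt : seljjIota (JZero N) 0 (r ^ k) w ∈
        Submodule.torsionBy ℤ (SeljjJ (JZero N) 0 (r ^ k)) ((r ^ k : ℕ) : ℤ) := by
      rw [Submodule.mem_torsionBy_iff, ← map_zsmul, natCast_zsmul, hstep.tors w hw', map_zero]
    have h1 := key ⟨_, hwt⟩ ⟨w, hw', rfl⟩ ⟨w, hw1, rfl⟩
    obtain ⟨w0, hw0, e⟩ := h1
    have e' : w0 = w := seljjIota_injective (JZero N) 0 (r ^ k) hn e
    rw [← e']
    exact hw0
  · -- `W'` is stable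
    rintro σ t ⟨w, hw, e⟩
    refine ⟨σ • w, hstep.stab' σ w hw, ?_⟩
    show seljjIota (JZero N) 0 (r ^ k) (σ • w) = σ • (t : SeljjJ (JZero N) 0 (r ^ k))
    rw [← seljj_smul_iota, e]
    rfl
  · -- trivial action modulo `W`
    rintro σ t ⟨w, hw, e⟩
    refine ⟨σ • w - w, htriv σ w hw, ?_⟩
    show seljjIota (JZero N) 0 (r ^ k) (σ • w - w) =
      σ • (t : SeljjJ (JZero N) 0 (r ^ k)) - (t : SeljjJ (JZero N) 0 (r ^ k))
    rw [map_sub, ← seljj_smul_iota, e]
    rfl
  · -- `r • W' ≤ W`
    rintro t ⟨w, hw, e⟩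
    have h1 : r • w ∈ W := by
      have := selch_relIndex_nsmul_mem W W' hstep.le hw
      rwa [hstep.idx] at this
    refine ⟨r • w, h1, ?_⟩
    show seljjIota (JZero N) 0 (r ^ k) (r • w) = r • (t : SeljjJ (JZero N) 0 (r ^ k))
    rw [map_nsmul, e]
    rfl

end Fermat.Agent.S15

end
end ZBZ2S15_040_5
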