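/- GENERATED FILE (helper35, build-time optimisation, NOTES/ZB.md): verbatim concatenation of the modules
   Fermat.Agent.S15.SelMK
   Fermat.Agent.S15.SelArEt
   Fermat.Agent.S15.SelArConnOdd
   Fermat.Agent.S15.SelArConnTwo
   Fermat.Agent.S15.SelArTwoInf
   Fermat.Agent.S15.SelTopTwo
   Do not edit; do not import together with these modules. -/
import Fermat.Agent.ZB.Common_003
import Fermat.Agent.ZB.Z2S15_035
import Fermat.Agent.ZB.Z2S15_037
import Fermat.Agent.ZB.Z2S15_039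
import Fermat.Agent.ZB.Z2S15_040
import Fermat.Agent.ZB.Z2S15_036
import Fermat.Prelude.Def_GaloisRep_ComplexConjugation

/-! ### bundled: `Fermat.Agent.S15.SelMK` -/
section ZBZ2S15_038_0
/-
S15 (Mazur chain), block SELMER, piece **SEL-MK** (helper72).

A homomorphism `a : Gal(ℚ̄/ℚ) → X` of finite level which is unramified at every prime (it kills
the inertia group of SOME valuation subring over each prime) is trivial.
Corollary of `Fermat.Agent.S13.Minkowski.minkowski_glue` (Hermite–Minkowski).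
-/

set_option autoImplicit false

namespace Fermat.Agent.S15

/-- **SEL-MK**, additive form. -/
theorem selmk_trivial {X : Type*} [AddGroup X]
    (a : (AlgebraicClosure ℚ ≃ₐ[ℚ] AlgebraicClosure ℚ) → X)
    (hadd : ∀ σ τ, a (σ * τ) = a σ + a τ)
    (hlev : ∃ S : Finset (AlgebraicClosure ℚ),
      ∀ σ : AlgebraicClosure ℚ ≃ₐ[ℚ] AlgebraicClosure ℚ, (∀ s ∈ S, σ s = s) → a σ = 0)
    (hunr : ∀ q : ℕ, q.Prime → ∃ A : ValuationSubring (AlgebraicClosure ℚ),
      A.LiesOverPrime q ∧ ∀ σ ∈ A.inertiaSubgroupIn ℚ, a σ = 0) :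
    ∀ σ, a σ = 0 := by
  have h1 : a 1 = 0 := by
    have := hadd 1 1
    rw [mul_one] at this
    have h2 : a 1 + 0 = a 1 + a 1 := by rw [add_zero]; exact this
    exact (add_left_cancel h2).symm
  have hinv : ∀ σ, a σ⁻¹ = -a σ := by
    intro σ
    have := hadd σ⁻¹ σ
    rw [inv_mul_cancel, h1] at this
    exact eq_neg_of_add_eq_zero_left this.symm
  let K : Subgroup (AlgebraicClosure ℚ ≃ₐ[ℚ] AlgebraicClosure ℚ) :=
    { carrier := {σ | a σ = 0}
      mul_mem' := fun {σ τ} hσ hτ => by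
        show a (σ * τ) = 0
        rw [hadd, hσ, hτ, add_zero]
      one_mem' := h1
      inv_mem' := fun {σ} hσ => by
        show a σ⁻¹ = 0
        rw [hinv, hσ, neg_zero] }
  have hKn : K.Normal := by
    refine ⟨fun n hn g => ?_⟩
    show a (g * n * g⁻¹) = 0
    have hn' : a n = 0 := hn
    rw [hadd, hadd, hn', add_zero, hinv, add_neg_cancel]
  have hK : K = ⊤ := by
    refine Fermat.Agent.S13.Minkowski.minkowski_glue K hKn ?_ ?_
    · obtain ⟨S, hS⟩ := hlev
      exact ⟨S, fun σ hσ => hS σ hσ⟩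
    · intro q hq
      obtain ⟨A, hA, hI⟩ := hunr q hq
      exact ⟨A, hA, fun σ hσ => hI σ hσ⟩
  intro σ
  have : σ ∈ K := by rw [hK]; trivial
  exact this

/-- **SEL-MK**, multiplicative form. -/
theorem selmk_trivial_mul {X : Type*} [Group X]
    (a : (AlgebraicClosure ℚ ≃ₐ[ℚ] AlgebraicClosure ℚ) →* X)
    (hlev : ∃ S : Finset (AlgebraicClosure ℚ),
      ∀ σ : AlgebraicClosure ℚ ≃ₐ[ℚ] AlgebraicClosure ℚ, (∀ s ∈ S, σ s = s) → a σ = 1)
    (hunr : ∀ q : ℕ, q.Prime → ∃ A : ValuationSubring (AlgebraicClosure ℚ),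
      A.LiesOverPrime q ∧ ∀ σ ∈ A.inertiaSubgroupIn ℚ, a σ = 1) :
    ∀ σ, a σ = 1 := by
  have hK : a.ker = ⊤ := by
    refine Fermat.Agent.S13.Minkowski.minkowski_glue a.ker inferInstance ?_ ?_
    · obtain ⟨S, hS⟩ := hlev
      exact ⟨S, fun σ hσ => hS σ hσ⟩
    · intro q hq
      obtain ⟨A, hA, hI⟩ := hunr q hq
      exact ⟨A, hA, fun σ hσ => hI σ hσ⟩
  intro σ
  have : σ ∈ a.ker := by rw [hK]; trivial
  exact this

end Fermat.Agent.S15


end ZBZ2S15_038_0

/-! ### bundled: `Fermat.Agent.S15.SelArEt` -/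
section ZBZ2S15_038_1
/-
S15 / SELMER block, piece **AR-ET** (helper72): `stmtSelArEt_of : StmtSelLQ → StmtSelArEt`.

In an étale step `W ≤ W'` (`W' ∩ V1 ≤ W`) with trivial Galois action on `W' / W`, the cocycle
`σ ↦ σ a - a ∈ W'` of a point `a` fixed by the inertia at `N` is a homomorphism `G_ℚ → W' / W` of
finite level which is unramified everywhere (`q ∤ N r`: SEL-LQ; `q = N`: `a ∈ selIF`; `q = r`:
étale), hence trivial (`selmk_trivial`, Minkowski).
-/

set_option autoImplicit false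
set_option linter.style.haveILetI false

noncomputable section

namespace Fermat.Agent.S15

open ModularCurve AlgebraicCurve
open Fermat.Agent.S24 Fermat.Agent.W1

/-- a finite-dimensional subfield of `ℚ̄` is cut out by finitely many elements -/
theorem selaret_exists_finset (E : IntermediateField ℚ (AlgebraicClosure ℚ))
    [FiniteDimensional ℚ E] :
    ∃ S : Finset (AlgebraicClosure ℚ),
      ∀ σ : AlgebraicClosure ℚ ≃ₐ[ℚ] AlgebraicClosure ℚ, (∀ s ∈ S, σ s = s) →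
        ∀ a ∈ E, σ a = a := by
  classical
  let b := Module.finBasis ℚ E
  refine ⟨Finset.univ.image (fun i => ((b i : E) : AlgebraicClosure ℚ)), fun σ hσ a ha => ?_⟩
  have h1 := b.sum_repr ⟨a, ha⟩
  have h2 : a = ∑ i, (b.repr ⟨a, ha⟩ i) • ((b i : E) : AlgebraicClosure ℚ) := by
    have := congrArg (fun x : E => (x : AlgebraicClosure ℚ)) h1
    simp only [IntermediateField.coe_sum, IntermediateField.coe_smul] at this
    exact this.symm
  rw [h2, map_sum]
  refine Finset.sum_congr rfl (fun i _ => ?_)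
  rw [Algebra.smul_def, map_mul, AlgEquiv.commutes,
    hσ _ (Finset.mem_image_of_mem _ (Finset.mem_univ i))]

/-- every point of `J₀(N)(ℚ̄)` is fixed by the automorphisms fixing a finite set -/
theorem selaret_finite_level (N : ℕ) [NeZero N] (x : JZero N) :
    ∃ S : Finset (AlgebraicClosure ℚ),
      ∀ σ : AlgebraicClosure ℚ ≃ₐ[ℚ] AlgebraicClosure ℚ, (∀ s ∈ S, σ s = s) → σ • x = x := by
  obtain ⟨E, hE, h⟩ := selfl_exists_field' N x
  haveI := hE
  obtain ⟨S, hS⟩ := selaret_exists_finset E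
  exact ⟨S, fun σ hσ => h σ (hS σ hσ)⟩

/-- **AR-ET** from SEL-LQ. -/
theorem stmtSelArEt_of (hLQ : StmtSelLQ) : StmtSelArEt := by
  intro N _ r k hN hr hrN AN Ar hAN hAr V1 hV1 W W' hstep htriv het a ha hcoc
  classical
  -- the homomorphism `σ ↦ [σ a - a] ∈ W' / W`
  let ψ : GalQ → (↥W' ⧸ W.addSubgroupOf W') := fun σ =>
    QuotientAddGroup.mk (⟨σ • a - a, hcoc σ⟩ : ↥W')
  have hψ0 : ∀ σ : GalQ, ψ σ = 0 ↔ σ • a - a ∈ W := by
    intro σ
    show (QuotientAddGroup.mk (⟨σ • a - a, hcoc σ⟩ : ↥W') : ↥W' ⧸ W.addSubgroupOf W') = 0 ↔ _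
    rw [QuotientAddGroup.eq_zero_iff]
    exact AddSubgroup.mem_addSubgroupOf
  have hadd : ∀ σ τ : GalQ, ψ (σ * τ) = ψ σ + ψ τ := by
    intro σ τ
    show (QuotientAddGroup.mk (⟨(σ * τ) • a - a, hcoc (σ * τ)⟩ : ↥W') :
        ↥W' ⧸ W.addSubgroupOf W') =
      QuotientAddGroup.mk (⟨σ • a - a, hcoc σ⟩ : ↥W') +
        QuotientAddGroup.mk (⟨τ • a - a, hcoc τ⟩ : ↥W')
    rw [← QuotientAddGroup.mk_add, QuotientAddGroup.eq, AddSubgroup.mem_addSubgroupOf]
    have h1 := htriv σ (τ • a - a) (hcoc τ)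
    have e : ((-(⟨(σ * τ) • a - a, hcoc (σ * τ)⟩ : ↥W') +
        ((⟨σ • a - a, hcoc σ⟩ : ↥W') + (⟨τ • a - a, hcoc τ⟩ : ↥W')) : ↥W') : JZero N) =
        -(σ • (τ • a - a) - (τ • a - a)) := by
      simp only [AddSubgroup.coe_add, NegMemClass.coe_neg, mul_smul, smul_sub]
      abel
    rw [e]
    exact W.neg_mem h1
  have hlev : ∃ S : Finset (AlgebraicClosure ℚ),
      ∀ σ : AlgebraicClosure ℚ ≃ₐ[ℚ] AlgebraicClosure ℚ, (∀ s ∈ S, σ s = s) → ψ σ = 0 := by
    obtain ⟨S, hS⟩ := selaret_finite_level N a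
    refine ⟨S, fun σ hσ => ?_⟩
    rw [hψ0, hS σ hσ, sub_self]
    exact W.zero_mem
  have hunr : ∀ q : ℕ, q.Prime → ∃ A : ValuationSubring (AlgebraicClosure ℚ),
      A.LiesOverPrime q ∧ ∀ σ ∈ A.inertiaSubgroupIn ℚ, ψ σ = 0 := by
    intro q hq
    by_cases hqN : q = N
    · subst hqN
      refine ⟨AN, hAN, fun σ hσ => ?_⟩
      rw [hψ0, ha σ hσ, sub_self]
      exact W.zero_mem
    by_cases hqr : q = r
    · subst hqr
      refine ⟨Ar, hAr, fun σ hσ => ?_⟩
      rw [hψ0]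
      exact het ⟨hcoc σ, hV1 σ hσ a⟩
    · have hqN' : ¬ q ∣ N := fun h => hqN ((Nat.prime_dvd_prime_iff_eq hq hN).1 h)
      have hqr' : ¬ q ∣ r ^ k := fun h =>
        hqr ((Nat.prime_dvd_prime_iff_eq hq hr).1 (hq.dvd_of_dvd_pow h))
      obtain ⟨A, hA, hI⟩ := hLQ N q hq hqN' (r ^ k) (pow_pos hr.pos k) hqr'
      refine ⟨A, hA, fun σ hσ => ?_⟩
      rw [hψ0, sub_eq_zero.2 (hI σ hσ a (hstep.tors _ (hcoc σ)))]
      exact W.zero_mem
  intro σ
  exact (hψ0 σ).1 (selmk_trivial ψ hadd hlev hunr σ)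

end Fermat.Agent.S15

end
end ZBZ2S15_038_1

/-! ### bundled: `Fermat.Agent.S15.SelArConnOdd` -/
section ZBZ2S15_038_2

/-!
# S15 / SELMER / AR-CN: in a step of type `μ_r`, `r` odd, the cocycles are coboundaries

`stmtSelArConnOdd : StmtSelArConnOdd` (`SelPlan.lean`).  `W ≤ W'` a step with `W' / W ≅ μ_r`
(character `ψ`), `a` a point fixed by the inertia group at `AN ∣ N` with `σ a − a ∈ W'` for all
`σ`.  Then `z σ := ψ (σ a − a)` is a `μ_r`-valued cocycle of finite level (SEL-FL), unramified at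
every `q ≠ r` (`q ∤ rN`: SEL-LQ; `q = N`: `a ∈ selIF`), and its Kummer generators have `r`-adic
valuation divisible by `r`: this is `selgr_padicValRat` (SEL-GR) for the Hopf lattice of the local
package on `E = 𝕁_y[r^k]`, `y = r^k • a`, with `K = ι(W')`, `c = [(a, −1)]`.  By `selku_coboundary`
(SEL-KU) `z σ = σ ζ / ζ` with `ζ ∈ μ_r`, and `ζ = ψ w'` for some `w' ∈ W'` (`ψ : W' → μ_r` is onto).
-/

set_option autoImplicit false
set_option linter.style.haveILetI false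
set_option synthInstance.maxHeartbeats 400000
set_option maxHeartbeats 1600000

noncomputable section

namespace Fermat.Agent.S15

open ModularCurve AlgebraicCurve
open Fermat.Agent.S24 Fermat.Agent.W1

/-- a multiplicative character on a subgroup sends multiples to powers -/
theorem selarcn_psi_nsmul {N : ℕ} [NeZero N] (W' : AddSubgroup (JZero N))
    (ψ : JZero N → AlgebraicClosure ℚ)
    (hmul : ∀ u ∈ W', ∀ v ∈ W', ψ (u + v) = ψ u * ψ v) (h0 : ψ 0 = 1)
    {w : JZero N} (hw : w ∈ W') (n : ℕ) : ψ (n • w) = ψ w ^ n := by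
  induction n with
  | zero => rw [zero_nsmul, pow_zero, h0]
  | succ n ih =>
    rw [succ_nsmul, hmul _ (W'.nsmul_mem hw n) _ hw, ih, pow_succ]

/-- **the local condition at `r`** for the Kummer generators of the cocycle `σ ↦ ψ (σ a − a)`:
`selgr_padicValRat` on `𝕁_y[r^k]`, `y = r^k • a`. -/
theorem selarcn_loc (N : ℕ) [NeZero N] (r k : ℕ) (hr : r.Prime)
    (Ar : ValuationSubring Kb) (V1 : AddSubgroup (JZero N)) (hV1 : SelLocR N r Ar V1)
    (W' : AddSubgroup (JZero N))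
    (htors : ∀ w ∈ W', r ^ k • w = 0)
    (hstab' : ∀ σ : GalQ, ∀ w ∈ W', σ • w ∈ W')
    (ψ : JZero N → Kb)
    (hmul : ∀ u ∈ W', ∀ v ∈ W', ψ (u + v) = ψ u * ψ v) (h0 : ψ 0 = 1)
    (heq : ∀ σ : GalQ, ∀ v ∈ W', ψ (σ • v) = σ (ψ v))
    (a : JZero N) (hcoc : ∀ σ : GalQ, σ • a - a ∈ W')
    (α : Kb) (A₀ : ℚ) (hα : α ≠ 0) (hA₀ : α ^ r = algebraMap ℚ Kb A₀)
    (hσα : ∀ σ : GalQ, σ α = ψ (σ • a - a) * α) :
    (r : ℤ) ∣ padicValRat r A₀ := by
  classical
  haveI : Fact r.Prime := ⟨hr⟩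
  have hn : 0 < r ^ k := pow_pos hr.pos k
  -- `y := r ^ k • a` is fixed
  have hy : ∀ σ : GalQ, σ • (r ^ k • a) = r ^ k • a := by
    intro σ
    have h1 : σ • (r ^ k • a) - r ^ k • a = r ^ k • (σ • a - a) := by
      rw [nsmul_sub]
      congr 1
      exact map_nsmul (DistribSMul.toAddMonoidHom (JZero N) σ) _ a
    have h2 := htors _ (hcoc σ)
    rw [← h1] at h2
    exact sub_eq_zero.1 h2
  haveI hyF : Fact (∀ σ : GalQ, σ • (r ^ k • a) = r ^ k • a) := ⟨hy⟩
  obtain ⟨H, hH, -⟩ := hV1.lattice (r ^ k • a) k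
  haveI : Finite (Submodule.torsionBy ℤ (SeljjJ (JZero N) (r ^ k • a) (r ^ k))
      ((r ^ k : ℕ) : ℤ)) :=
    seljj_finite_torsion (r ^ k • a) (r ^ k) hn (seljjpkg_finite N r hr.ne_zero k)
  -- the point `c = [(a, -1)]`
  have hc0 : ((r ^ k : ℕ) : ℤ) • a + (-1 : ℤ) • (r ^ k • a) = 0 := by
    rw [natCast_zsmul, neg_one_zsmul, add_neg_cancel]
  -- the transported subgroup and character
  let sub : Submodule.torsionBy ℤ (SeljjJ (JZero N) (r ^ k • a) (r ^ k)) ((r ^ k : ℕ) : ℤ) →+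
      SeljjJ (JZero N) (r ^ k • a) (r ^ k) :=
    (Submodule.torsionBy ℤ (SeljjJ (JZero N) (r ^ k • a) (r ^ k))
      ((r ^ k : ℕ) : ℤ)).subtype.toAddMonoidHom
  let ψE : Submodule.torsionBy ℤ (SeljjJ (JZero N) (r ^ k • a) (r ^ k)) ((r ^ k : ℕ) : ℤ) → Kb :=
    fun u => if h : ∃ x : JZero N, seljjIota (JZero N) (r ^ k • a) (r ^ k) x =
      (u : SeljjJ (JZero N) (r ^ k • a) (r ^ k)) then ψ h.choose else 1
  have hψE : ∀ (u : Submodule.torsionBy ℤ (SeljjJ (JZero N) (r ^ k • a) (r ^ k))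
      ((r ^ k : ℕ) : ℤ)) (x : JZero N),
      seljjIota (JZero N) (r ^ k • a) (r ^ k) x = (u : SeljjJ (JZero N) (r ^ k • a) (r ^ k)) →
        ψE u = ψ x := by
    intro u x hx
    have hex : ∃ x : JZero N, seljjIota (JZero N) (r ^ k • a) (r ^ k) x =
        (u : SeljjJ (JZero N) (r ^ k • a) (r ^ k)) := ⟨x, hx⟩
    have h1 : ψE u = ψ hex.choose := dif_pos hex
    rw [h1]
    congr 1
    exact seljjIota_injective (JZero N) (r ^ k • a) (r ^ k) hn (hex.choose_spec.trans hx.symm)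
  refine selgr_padicValRat r hH
    ((W'.map (seljjIota (JZero N) (r ^ k • a) (r ^ k))).comap sub) ?_ ψE ?_ ?_ ?_
    (seljjPt (JZero N) (r ^ k • a) (r ^ k) hn a (-1) hc0) ?_ α hα ?_ r A₀ hA₀.symm
  · -- `K` is stable
    rintro σ t ⟨w, hw, e⟩
    refine ⟨σ • w, hstab' σ w hw, ?_⟩
    show seljjIota (JZero N) (r ^ k • a) (r ^ k) (σ • w) =
      σ • (t : SeljjJ (JZero N) (r ^ k • a) (r ^ k))
    rw [← seljj_smul_iota, e]
    rfl
  · -- multiplicative on `K`
    rintro u ⟨x, hx, ex⟩ v ⟨x', hx', ex'⟩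
    have exx : seljjIota (JZero N) (r ^ k • a) (r ^ k) (x + x') =
        ((u + v : Submodule.torsionBy ℤ (SeljjJ (JZero N) (r ^ k • a) (r ^ k))
          ((r ^ k : ℕ) : ℤ)) : SeljjJ (JZero N) (r ^ k • a) (r ^ k)) := by
      rw [map_add, ex, ex']
      rfl
    rw [hψE _ _ exx, hψE _ _ ex, hψE _ _ ex', hmul x hx x' hx']
  · -- `ψE 0 = 1`
    rw [hψE 0 0 (map_zero _), h0]
  · -- equivariant on `K`
    rintro σ v ⟨x, hx, ex⟩
    have e1 : seljjIota (JZero N) (r ^ k • a) (r ^ k) (σ • x) =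
        ((torsAct (SeljjJ (JZero N) (r ^ k • a) (r ^ k)) ((r ^ k : ℕ) : ℤ) σ v :
          Submodule.torsionBy ℤ (SeljjJ (JZero N) (r ^ k • a) (r ^ k)) ((r ^ k : ℕ) : ℤ)) :
          SeljjJ (JZero N) (r ^ k • a) (r ^ k)) := by
      show seljjIota (JZero N) (r ^ k • a) (r ^ k) (σ • x) =
        σ • (v : SeljjJ (JZero N) (r ^ k • a) (r ^ k))
      rw [← seljj_smul_iota, ex]
      rfl
    rw [hψE _ _ e1, hψE _ _ ex, heq σ x hx]
  · -- the cocycle of `c` has values in `K`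
    intro σ
    refine ⟨σ • a - a, hcoc σ, ?_⟩
    show seljjIota (JZero N) (r ^ k • a) (r ^ k) (σ • a - a) =
      σ • seljjMk (JZero N) (r ^ k • a) (r ^ k) (a, -1) -
        seljjMk (JZero N) (r ^ k • a) (r ^ k) (a, -1)
    rw [seljj_smul_mk, ← map_sub, seljjIota_apply]
    congr 1
  · -- the Kummer generator
    intro σ
    have e1 : seljjIota (JZero N) (r ^ k • a) (r ^ k) (σ • a - a) =
        ((torsAct (SeljjJ (JZero N) (r ^ k • a) (r ^ k)) ((r ^ k : ℕ) : ℤ) σ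
            (seljjPt (JZero N) (r ^ k • a) (r ^ k) hn a (-1) hc0) -
          seljjPt (JZero N) (r ^ k • a) (r ^ k) hn a (-1) hc0 :
          Submodule.torsionBy ℤ (SeljjJ (JZero N) (r ^ k • a) (r ^ k)) ((r ^ k : ℕ) : ℤ)) :
          SeljjJ (JZero N) (r ^ k • a) (r ^ k)) := by
      show seljjIota (JZero N) (r ^ k • a) (r ^ k) (σ • a - a) =
        σ • seljjMk (JZero N) (r ^ k • a) (r ^ k) (a, -1) -
          seljjMk (JZero N) (r ^ k • a) (r ^ k) (a, -1)
      rw [seljj_smul_mk, ← map_sub, seljjIota_apply]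
      congr 1
    rw [hψE _ _ e1]
    exact hσα σ

/-- **AR-CN**: in a step of type `μ_r`, `r` odd, the cocycles of the points of `𝒥` are
coboundaries. -/
theorem stmtSelArConnOdd : StmtSelArConnOdd := by
  intro N _ r k hN hr _hrN hr2 AN Ar hAN _hAr V1 hV1 W W' hstep hcyc a ha hcoc
  obtain ⟨ψ, hmul, h0, heq, hker⟩ := hcyc
  haveI : Fact r.Prime := ⟨hr⟩
  haveI : NeZero r := ⟨hr.ne_zero⟩
  -- basic facts on `ψ`
  have hrW : ∀ w ∈ W', r • w ∈ W := by
    intro w hw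
    have := selch_relIndex_nsmul_mem W W' hstep.le hw
    rwa [hstep.idx] at this
  have hψr : ∀ w ∈ W', ψ w ^ r = 1 := by
    intro w hw
    rw [← selarcn_psi_nsmul W' ψ hmul h0 hw r]
    exact (hker _ (W'.nsmul_mem hw r)).2 (hrW w hw)
  have hψne : ∀ w ∈ W', ψ w ≠ 0 := by
    intro w hw h
    have := hψr w hw
    rw [h, zero_pow hr.ne_zero] at this
    exact zero_ne_one this
  have hψsub : ∀ u ∈ W', ∀ v ∈ W', ψ (u - v) = ψ u / ψ v := by
    intro u hu v hv
    have := hmul (u - v) (W'.sub_mem hu hv) v hv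
    rw [sub_add_cancel] at this
    rw [this, mul_div_assoc, div_self (hψne v hv), mul_one]
  -- the cocycle
  have hμ : ∀ σ : GalQ, ψ (σ • a - a) ^ r = 1 := fun σ => hψr _ (hcoc σ)
  have hzcoc : ∀ σ τ : GalQ, ψ ((σ * τ) • a - a) = ψ (σ • a - a) * σ (ψ (τ • a - a)) := by
    intro σ τ
    rw [← heq σ _ (hcoc τ), ← hmul _ (hcoc σ) _ (hstep.stab' σ _ (hcoc τ))]
    congr 1
    rw [mul_smul, smul_sub]
    abel
  have hlev : ∃ S : Finset (AlgebraicClosure ℚ),
      ∀ σ : AlgebraicClosure ℚ ≃ₐ[ℚ] AlgebraicClosure ℚ, (∀ s ∈ S, σ s = s) →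
        ψ (σ • a - a) = 1 := by
    obtain ⟨S, hS⟩ := selaret_finite_level N a
    exact ⟨S, fun σ hσ => by rw [hS σ hσ, sub_self, h0]⟩
  have hunr : ∀ q : ℕ, q.Prime → q ≠ r → ∃ A : ValuationSubring (AlgebraicClosure ℚ),
      A.LiesOverPrime q ∧ ∀ σ ∈ A.inertiaSubgroupIn ℚ, ψ (σ • a - a) = 1 := by
    intro q hq hqr
    by_cases hqN : q = N
    · subst hqN
      exact ⟨AN, hAN, fun σ hσ => by rw [ha σ hσ, sub_self, h0]⟩
    · obtain ⟨A, hA⟩ := Fermat.Agent.Common.exists_liesOverPrime q hq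
      refine ⟨A, hA, fun σ hσ => ?_⟩
      have hqN' : ¬ q ∣ N := fun h => hqN ((Nat.prime_dvd_prime_iff_eq hq hN).1 h)
      have h1 : σ • a = a :=
        sellq_pp N q hq hqN' r hr (Ne.symm hqr) k A hA hσ (hstep.tors _ (hcoc σ))
      rw [h1, sub_self, h0]
  have hloc : ∀ (α : AlgebraicClosure ℚ) (A₀ : ℚ), α ≠ 0 →
      α ^ r = algebraMap ℚ (AlgebraicClosure ℚ) A₀ →
      (∀ σ : AlgebraicClosure ℚ ≃ₐ[ℚ] AlgebraicClosure ℚ, σ α = ψ (σ • a - a) * α) →
      (r : ℤ) ∣ padicValRat r A₀ := fun α A₀ hα hA₀ hσα =>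
    selarcn_loc N r k hr Ar V1 hV1 W' hstep.tors hstep.stab' ψ hmul h0 heq a hcoc α A₀ hα hA₀ hσα
  obtain ⟨ζ, hζr, hζ⟩ := selku_coboundary hr hr2 (fun σ => ψ (σ • a - a)) hμ hzcoc hlev hunr hloc
  have hζ0 : ζ ≠ 0 := by
    intro h
    rw [h, zero_pow hr.ne_zero] at hζr
    exact zero_ne_one hζr
  -- `ψ : W' → μ_r` is onto
  have hex : ∃ w₀ ∈ W', w₀ ∉ W := by
    by_contra h
    have h1 : W' ≤ W := fun w hw => by
      by_contra hw'
      exact h ⟨w, hw, hw'⟩
    have h2 : W.relIndex W' = 1 := AddSubgroup.relIndex_eq_one.2 h1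
    rw [hstep.idx] at h2
    exact hr.one_lt.ne' h2
  obtain ⟨w₀, hw₀, hw₀W⟩ := hex
  have hprim : IsPrimitiveRoot (ψ w₀) r := by
    have h := IsPrimitiveRoot.orderOf (ψ w₀)
    rwa [orderOf_eq_prime (hψr w₀ hw₀) (fun h => hw₀W ((hker w₀ hw₀).1 h))] at h
  obtain ⟨i, -, hi⟩ := hprim.eq_pow_of_pow_eq_one hζr
  have hw' : i • w₀ ∈ W' := W'.nsmul_mem hw₀ i
  have hψw' : ψ (i • w₀) = ζ := by
    rw [selarcn_psi_nsmul W' ψ hmul h0 hw₀ i, hi]
  refine ⟨i • w₀, hw', fun σ => ?_⟩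
  have hσw' : σ • (i • w₀) - i • w₀ ∈ W' := W'.sub_mem (hstep.stab' σ _ hw') hw'
  have hmem : (σ • a - a) - (σ • (i • w₀) - i • w₀) ∈ W' := W'.sub_mem (hcoc σ) hσw'
  refine (hker _ hmem).1 ?_
  rw [hψsub _ (hcoc σ) _ hσw', hψsub _ (hstep.stab' σ _ hw') _ hw', heq σ _ hw', hψw']
  have h1 : ψ (σ • a - a) = σ ζ / ζ := hζ σ
  rw [h1]
  have hσζ0 : σ ζ ≠ 0 := fun h => hζ0 (by
    have := congrArg σ.symm h
    simpa using this)
  exact div_self (div_ne_zero hσζ0 hζ0)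

end Fermat.Agent.S15

end
end ZBZ2S15_038_2

/-! ### bundled: `Fermat.Agent.S15.SelArConnTwo` -/
section ZBZ2S15_038_3

/-!
# S15 / SELMER / AR-C2: the steps at `r = 2`

For `r = 2` every step `W ≤ W'` (index `2`) carries the RATIONAL character `ψ = ±1` with kernel
`W`, so it is of type `μ_2` (`selarc2_stepCyc`).  For a point `a` fixed by the inertia group at
`AN ∣ N` with `σ a − a ∈ W'` the cocycle `z σ = ψ (σ a − a) = ± 1` is a quadratic character of
finite level, `z σ = σ α / α` with `α ^ 2 = A₀ ∈ ℚ` (Hilbert 90), and all valuations of `A₀` are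
even (`q ∤ 2N`: SEL-LQ; `q = N`: `a ∈ selIF`; `q = 2`: the Hopf lattice, `selarcn_loc`).  Hence
`A₀ = ± B ^ 2` and

* `selarc2_dichotomy` : either `σ a − a ∈ W` for all `σ`, or (`σ a − a ∈ W ↔ σ i = i`) for all `σ`
  (`i ^ 2 = −1`): the cocycle is `1` or `χ₋₁`;
* `selarc2_of_conj` (AR-C2∞): if some `c` with `c i ≠ i` fixes `a`, then `σ a − a ∈ W` for all `σ`;
* `stmtSelArConnTwo : StmtSelArConnTwo` (`SelPlan.lean`).
-/

set_option autoImplicit false
set_option linter.style.haveILetI false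
set_option synthInstance.maxHeartbeats 400000
set_option maxHeartbeats 1600000

noncomputable section

namespace Fermat.Agent.S15

open ModularCurve AlgebraicCurve
open Fermat.Agent.S24 Fermat.Agent.W1

/-- a nonzero rational number all of whose valuations are even is `± B ^ 2` -/
theorem selarc2_sq (A₀ : ℚ) (hA₀ : A₀ ≠ 0)
    (h : ∀ q : ℕ, q.Prime → (2 : ℤ) ∣ padicValRat q A₀) :
    ∃ B : ℚ, B ≠ 0 ∧ (A₀ = B ^ 2 ∨ A₀ = -B ^ 2) := by
  have hnum : A₀.num.natAbs ≠ 0 := by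
    rw [Int.natAbs_ne_zero]
    exact Rat.num_ne_zero.2 hA₀
  have hden : A₀.den ≠ 0 := A₀.den_nz
  have hcop : Nat.Coprime A₀.num.natAbs A₀.den := A₀.reduced
  have hval : ∀ q : ℕ, q.Prime →
      2 ∣ padicValNat q A₀.num.natAbs ∧ 2 ∣ padicValNat q A₀.den := by
    intro q hq
    haveI : Fact q.Prime := ⟨hq⟩
    have h1 := h q hq
    have e3 : padicValRat q A₀ =
        (padicValNat q A₀.num.natAbs : ℤ) - (padicValNat q A₀.den : ℤ) := rfl
    rw [e3] at h1
    by_cases hqn : q ∣ A₀.num.natAbs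
    · have hqd : ¬ q ∣ A₀.den := fun hd => by
        have := Nat.dvd_gcd hqn hd
        rw [hcop.gcd_eq_one] at this
        exact hq.one_lt.ne' (Nat.dvd_one.1 this)
      have h0 : padicValNat q A₀.den = 0 := padicValNat.eq_zero_of_not_dvd hqd
      rw [h0] at h1 ⊢
      simp only [Nat.cast_zero, sub_zero] at h1
      exact ⟨by exact_mod_cast h1, dvd_zero _⟩
    · have h0 : padicValNat q A₀.num.natAbs = 0 := padicValNat.eq_zero_of_not_dvd hqn
      rw [h0] at h1 ⊢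
      simp only [Nat.cast_zero, zero_sub, dvd_neg] at h1
      exact ⟨dvd_zero _, by exact_mod_cast h1⟩
  obtain ⟨m, hm⟩ := selku_nat_pow hnum (fun q hq => (hval q hq).1)
  obtain ⟨d, hd⟩ := selku_nat_pow hden (fun q hq => (hval q hq).2)
  have hd0 : (d : ℚ) ≠ 0 := by
    intro h0
    have : d = 0 := by exact_mod_cast h0
    rw [this] at hd
    exact hden (by simp at hd)
  have hm0 : (m : ℚ) ≠ 0 := by
    intro h0
    have : m = 0 := by exact_mod_cast h0
    rw [this] at hm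
    exact hnum (by simpa using hm)
  have hA : A₀ = (A₀.num : ℚ) / (A₀.den : ℚ) := (Rat.num_div_den A₀).symm
  have hdq : (A₀.den : ℚ) = (d : ℚ) ^ 2 := by exact_mod_cast hd
  refine ⟨(m : ℚ) / (d : ℚ), div_ne_zero hm0 hd0, ?_⟩
  rcases Int.natAbs_eq A₀.num with hs | hs
  · left
    have hnq : (A₀.num : ℚ) = (m : ℚ) ^ 2 := by
      rw [hs, Int.cast_natCast, hm]
      push_cast
      rfl
    rw [div_pow, ← hnq, ← hdq]
    exact hA
  · right
    have hnq : (A₀.num : ℚ) = -(m : ℚ) ^ 2 := by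
      rw [hs, Int.cast_neg, Int.cast_natCast, hm]
      push_cast
      rfl
    rw [div_pow, ← neg_div, ← hnq, ← hdq]
    exact hA

/-- **for `r = 2` every step is of type `μ_2`**: the character `ψ = ± 1` with kernel `W`. -/
theorem selarc2_stepCyc {N k : ℕ} [NeZero N] {W W' : AddSubgroup (JZero N)}
    (hstep : SelStep N 2 k W W') : SelStepCyc W W' := by
  classical
  have h2W : ∀ w ∈ W', 2 • w ∈ W := by
    intro w hw
    have := selch_relIndex_nsmul_mem W W' hstep.le hw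
    rwa [hstep.idx] at this
  obtain ⟨a₁, _ha₁, hab⟩ := AddSubgroup.relIndex_eq_two_iff.1 hstep.idx
  -- two points outside `W` differ by an element of `W`
  have hdiff : ∀ u ∈ W', ∀ v ∈ W', u ∉ W → v ∉ W → u - v ∈ W := by
    intro u hu v hv huW hvW
    have h1 : u + a₁ ∈ W := by
      rcases hab u hu with ⟨h1, _⟩ | ⟨h1, _⟩
      · exact h1
      · exact absurd h1 huW
    have h2 : v + a₁ ∈ W := by
      rcases hab v hv with ⟨h1, _⟩ | ⟨h1, _⟩
      · exact h1
      · exact absurd h1 hvW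
    have : u - v = (u + a₁) - (v + a₁) := by abel
    rw [this]
    exact W.sub_mem h1 h2
  have hne : (-1 : Kb) ≠ 1 := by
    intro h
    have h2 : (2 : Kb) = 0 := by
      have : (1 : Kb) + 1 = 0 := by
        nth_rewrite 1 [← h]
        exact neg_add_cancel 1
      rw [← this]
      norm_num
    exact two_ne_zero h2
  refine ⟨fun w => if w ∈ W then 1 else -1, ?_, ?_, ?_, ?_⟩
  · intro u hu v hv
    by_cases huW : u ∈ W
    · by_cases hvW : v ∈ W
      · simp only [if_pos huW, if_pos hvW, if_pos (W.add_mem huW hvW), mul_one]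
      · have h1 : u + v ∉ W := fun h => hvW (by
          have := W.sub_mem h huW
          rwa [add_sub_cancel_left] at this)
        simp only [if_pos huW, if_neg hvW, if_neg h1, one_mul]
    · by_cases hvW : v ∈ W
      · have h1 : u + v ∉ W := fun h => huW (by
          have := W.sub_mem h hvW
          rwa [add_sub_cancel_right] at this)
        simp only [if_neg huW, if_pos hvW, if_neg h1, mul_one]
      · have h1 : u + v ∈ W := by
          have e : u + v = (u - v) + 2 • v := by rw [two_nsmul]; abel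
          rw [e]
          exact W.add_mem (hdiff u hu v hv huW hvW) (h2W v hv)
        simp only [if_neg huW, if_neg hvW, if_pos h1]
        norm_num
  · simp only [if_pos W.zero_mem]
  · intro σ v _hv
    have hiff : σ • v ∈ W ↔ v ∈ W := by
      constructor
      · intro h
        have := hstep.stab σ⁻¹ _ h
        rwa [inv_smul_smul] at this
      · exact hstep.stab σ v
    by_cases hvW : v ∈ W
    · simp only [if_pos hvW, if_pos (hiff.2 hvW), map_one]
    · simp only [if_neg hvW, if_neg (fun h => hvW (hiff.1 h)), map_neg, map_one]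
  · intro w _hw
    by_cases hwW : w ∈ W
    · show (if w ∈ W then (1 : Kb) else -1) = 1 ↔ w ∈ W
      rw [if_pos hwW]
      exact ⟨fun _ => hwW, fun _ => rfl⟩
    · show (if w ∈ W then (1 : Kb) else -1) = 1 ↔ w ∈ W
      rw [if_neg hwW]
      exact ⟨fun h => absurd h hne, fun h => absurd h hwW⟩

/-- **AR-C2, the dichotomy**: at `r = 2` the cocycle of a point of `𝒥` is `1` or `χ₋₁`. -/
theorem selarc2_dichotomy (N : ℕ) [NeZero N] (k : ℕ) (hN : N.Prime) (_h2N : 2 ≠ N)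
    (AN Ar : ValuationSubring Kb) (hAN : AN.LiesOverPrime N) (_hAr : Ar.LiesOverPrime 2)
    (V1 : AddSubgroup (JZero N)) (hV1 : SelLocR N 2 Ar V1)
    (W W' : AddSubgroup (JZero N)) (hstep : SelStep N 2 k W W')
    (i : Kb) (hi : i ^ 2 = -1)
    (a : JZero N) (ha : a ∈ selIF N AN) (hcoc : ∀ σ : GalQ, σ • a - a ∈ W') :
    (∀ σ : GalQ, σ • a - a ∈ W) ∨ (∀ σ : GalQ, σ • a - a ∈ W ↔ σ i = i) := by
  obtain ⟨ψ, hmul, h0, heq, hker⟩ := selarc2_stepCyc hstep
  have h2 : Nat.Prime 2 := Nat.prime_two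
  have hrW : ∀ w ∈ W', 2 • w ∈ W := by
    intro w hw
    have := selch_relIndex_nsmul_mem W W' hstep.le hw
    rwa [hstep.idx] at this
  have hψr : ∀ w ∈ W', ψ w ^ 2 = 1 := by
    intro w hw
    rw [← selarcn_psi_nsmul W' ψ hmul h0 hw 2]
    exact (hker _ (W'.nsmul_mem hw 2)).2 (hrW w hw)
  have hμ : ∀ σ : GalQ, ψ (σ • a - a) ^ 2 = 1 := fun σ => hψr _ (hcoc σ)
  have hzcoc : ∀ σ τ : GalQ, ψ ((σ * τ) • a - a) = ψ (σ • a - a) * σ (ψ (τ • a - a)) := by
    intro σ τ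
    rw [← heq σ _ (hcoc τ), ← hmul _ (hcoc σ) _ (hstep.stab' σ _ (hcoc τ))]
    congr 1
    rw [mul_smul, smul_sub]
    abel
  have hlev : ∃ S : Finset (AlgebraicClosure ℚ),
      ∀ σ : AlgebraicClosure ℚ ≃ₐ[ℚ] AlgebraicClosure ℚ, (∀ s ∈ S, σ s = s) →
        ψ (σ • a - a) = 1 := by
    obtain ⟨S, hS⟩ := selaret_finite_level N a
    exact ⟨S, fun σ hσ => by rw [hS σ hσ, sub_self, h0]⟩
  obtain ⟨α, hα, hσα, A₀, hA₀⟩ := selku_h90 2 (fun σ => ψ (σ • a - a)) hμ hzcoc hlev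
  have hA₀0 : A₀ ≠ 0 := by
    rintro rfl
    rw [map_zero] at hA₀
    exact hα (pow_eq_zero_iff two_ne_zero |>.1 hA₀)
  -- all valuations are even
  have hval : ∀ q : ℕ, q.Prime → (2 : ℤ) ∣ padicValRat q A₀ := by
    intro q hq
    by_cases hq2 : q = 2
    · subst hq2
      exact selarcn_loc N 2 k h2 Ar V1 hV1 W' hstep.tors hstep.stab' ψ hmul h0 heq a hcoc α A₀ hα
        hA₀ hσα
    by_cases hqN : q = N
    · subst hqN
      exact selku_unram_gen (r := 2) two_pos hq α hα A₀ hA₀ AN hAN (fun σ hσ => by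
        rw [hσα σ, ha σ hσ, sub_self, h0, one_mul])
    · obtain ⟨A, hA⟩ := Fermat.Agent.Common.exists_liesOverPrime q hq
      have hqN' : ¬ q ∣ N := fun h => hqN ((Nat.prime_dvd_prime_iff_eq hq hN).1 h)
      exact selku_unram_gen (r := 2) two_pos hq α hα A₀ hA₀ A hA (fun σ hσ => by
        have h1 : σ • a = a :=
          sellq_pp N q hq hqN' 2 h2 (Ne.symm hq2) k A hA hσ (hstep.tors _ (hcoc σ))
        rw [hσα σ, h1, sub_self, h0, one_mul])
  obtain ⟨B, hB0, hB⟩ := selarc2_sq A₀ hA₀0 hval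
  have hBK : algebraMap ℚ Kb B ≠ 0 := by
    intro h
    exact hB0 ((map_eq_zero (algebraMap ℚ Kb)).1 h)
  -- `β := α / B` satisfies `σ β = z σ * β` and `β ^ 2 = ± 1`
  have hσβ : ∀ σ : GalQ, σ (α / algebraMap ℚ Kb B) = ψ (σ • a - a) * (α / algebraMap ℚ Kb B) := by
    intro σ
    rw [map_div₀, AlgEquiv.commutes, hσα σ, mul_div_assoc]
  have hβ0 : α / algebraMap ℚ Kb B ≠ 0 := div_ne_zero hα hBK
  have hmemW : ∀ σ : GalQ, σ • a - a ∈ W ↔
      σ (α / algebraMap ℚ Kb B) = α / algebraMap ℚ Kb B := by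
    intro σ
    rw [← hker _ (hcoc σ), hσβ σ]
    constructor
    · intro h
      rw [h, one_mul]
    · intro h
      have h3 : (ψ (σ • a - a) - 1) * (α / algebraMap ℚ Kb B) = 0 := by
        rw [sub_mul, one_mul, h, sub_self]
      rcases mul_eq_zero.1 h3 with h4 | h4
      · exact sub_eq_zero.1 h4
      · exact absurd h4 hβ0
  rcases hB with hB | hB
  · -- `α ^ 2 = B ^ 2`: the cocycle is trivial
    left
    intro σ
    rw [hmemW σ]
    have h3 : (α / algebraMap ℚ Kb B) ^ 2 = 1 := by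
      rw [div_pow, hA₀, hB, map_pow, div_self (pow_ne_zero _ hBK)]
    have h4 : α / algebraMap ℚ Kb B = 1 ∨ α / algebraMap ℚ Kb B = -1 :=
      sq_eq_one_iff.1 h3
    rcases h4 with h4 | h4
    · rw [h4, map_one]
    · rw [h4, map_neg, map_one]
  · -- `α ^ 2 = - B ^ 2`: the cocycle is `χ₋₁`
    right
    intro σ
    rw [hmemW σ]
    have h3 : (α / algebraMap ℚ Kb B) ^ 2 = i ^ 2 := by
      rw [div_pow, hA₀, hB, map_neg, map_pow, neg_div, div_self (pow_ne_zero _ hBK), hi]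
    have h4 : α / algebraMap ℚ Kb B = i ∨ α / algebraMap ℚ Kb B = -i := sq_eq_sq_iff_eq_or_eq_neg.1 h3
    rcases h4 with h4 | h4
    · rw [h4]
    · rw [h4, map_neg, neg_inj]

/-- **AR-C2∞**: a point of `𝒥` fixed by some `c` with `c i ≠ i` (complex conjugation) has trivial
cocycle modulo `W`. -/
theorem selarc2_of_conj (N : ℕ) [NeZero N] (k : ℕ) (hN : N.Prime) (h2N : 2 ≠ N)
    (AN Ar : ValuationSubring Kb) (hAN : AN.LiesOverPrime N) (hAr : Ar.LiesOverPrime 2)
    (V1 : AddSubgroup (JZero N)) (hV1 : SelLocR N 2 Ar V1)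
    (W W' : AddSubgroup (JZero N)) (hstep : SelStep N 2 k W W')
    (i : Kb) (hi : i ^ 2 = -1) (c : GalQ) (hc : c i ≠ i)
    (a : JZero N) (ha : a ∈ selIF N AN) (hcoc : ∀ σ : GalQ, σ • a - a ∈ W')
    (hca : c • a - a ∈ W) : ∀ σ : GalQ, σ • a - a ∈ W := by
  rcases selarc2_dichotomy N k hN h2N AN Ar hAN hAr V1 hV1 W W' hstep i hi a ha hcoc with h | h
  · exact h
  · exact absurd ((h c).1 hca) hc

/-- **AR-C2**: `r = 2`: there are at most two cocycles. -/
theorem stmtSelArConnTwo : StmtSelArConnTwo := by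
  intro N _ k hN h2N AN Ar hAN hAr V1 hV1 W W' hstep
  classical
  obtain ⟨i, hi⟩ : ∃ i : Kb, i ^ 2 = -1 := IsAlgClosed.exists_pow_nat_eq (-1 : Kb) two_pos
  by_cases hex : ∃ a₀ : JZero N, a₀ ∈ selIF N AN ∧ (∀ σ : GalQ, σ • a₀ - a₀ ∈ W') ∧
      ∀ σ : GalQ, σ • a₀ - a₀ ∈ W ↔ σ i = i
  · obtain ⟨a₀, ha₀, hcoc₀, hχ₀⟩ := hex
    refine ⟨a₀, fun a ha hcoc => ?_⟩
    rcases selarc2_dichotomy N k hN h2N AN Ar hAN hAr V1 hV1 W W' hstep i hi a ha hcoc with h | h
    · exact Or.inl h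
    · right
      -- the cocycle of `a - a₀` is trivial
      have ha' : a - a₀ ∈ selIF N AN := (selIF N AN).sub_mem ha ha₀
      have hcoc' : ∀ σ : GalQ, σ • (a - a₀) - (a - a₀) ∈ W' := by
        intro σ
        have e : σ • (a - a₀) - (a - a₀) = (σ • a - a) - (σ • a₀ - a₀) := by
          rw [smul_sub]; abel
        rw [e]
        exact W'.sub_mem (hcoc σ) (hcoc₀ σ)
      rcases selarc2_dichotomy N k hN h2N AN Ar hAN hAr V1 hV1 W W' hstep i hi (a - a₀) ha' hcoc'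
        with h' | h'
      · exact h'
      · -- impossible unless `χ₋₁` is trivial; in both cases the cocycle is trivial
        intro σ
        by_cases hσ : σ i = i
        · exact (h' σ).2 hσ
        · -- `σ a - a ∉ W`, `σ a₀ - a₀ ∉ W`: their difference is in `W` (index 2)
          have h1 : σ • a - a ∉ W := fun hh => hσ ((h σ).1 hh)
          have h2 : σ • a₀ - a₀ ∉ W := fun hh => hσ ((hχ₀ σ).1 hh)
          obtain ⟨a₁, _, hab⟩ := AddSubgroup.relIndex_eq_two_iff.1 hstep.idx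
          have h3 : (σ • a - a) + a₁ ∈ W := by
            rcases hab _ (hcoc σ) with ⟨h3, _⟩ | ⟨h3, _⟩
            · exact h3
            · exact absurd h3 h1
          have h4 : (σ • a₀ - a₀) + a₁ ∈ W := by
            rcases hab _ (hcoc₀ σ) with ⟨h3, _⟩ | ⟨h3, _⟩
            · exact h3
            · exact absurd h3 h2
          have e : σ • (a - a₀) - (a - a₀) = ((σ • a - a) + a₁) - ((σ • a₀ - a₀) + a₁) := by
            rw [smul_sub]; abel
          rw [e]
          exact W.sub_mem h3 h4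
  · refine ⟨0, fun a ha hcoc => ?_⟩
    rcases selarc2_dichotomy N k hN h2N AN Ar hAN hAr V1 hV1 W W' hstep i hi a ha hcoc with h | h
    · exact Or.inl h
    · exact absurd ⟨a, ha, hcoc, h⟩ hex

end Fermat.Agent.S15

end
end ZBZ2S15_038_3

/-! ### bundled: `Fermat.Agent.S15.SelArTwoInf` -/
section ZBZ2S15_038_4

/-!
# S15 / SELMER / AR-C2∞: the vanishing of the cocycles at `r = 2` under the two local conditions

`r = 2`, `W ≤ W'` a step (index `2`), `P = selIF N AN` the local condition at the level, `Q` a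
subgroup of points fixed by a complex conjugation `c` (`c i ≠ i`, `i ^ 2 = −1`).  Then for every
`j ∈ selY2 GalQ P Q W'` (i.e. `j ∈ P + W'`, `j ∈ Q + W'`, `σ j − j ∈ W'` for all `σ`):

  `σ j − j ∈ W` for all `σ`

(`selarc2_inf`; this is the hypothesis `hvan` of `seltwo_main`).  Proof: `j = a + w₁`, `a ∈ P`;
the cocycle of `a` modulo `W` is `1` or `χ₋₁` (`selarc2_dichotomy`), it agrees with the one of `j`
(trivial action on `W' / W`), and the latter vanishes at `c` because `j = b + w₂` with `c b = b`.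
No hypotheses: the local package at `2` comes from `stmtSelLocR`.
-/

set_option autoImplicit false
set_option linter.style.haveILetI false
set_option synthInstance.maxHeartbeats 400000
set_option maxHeartbeats 1600000

noncomputable section

namespace Fermat.Agent.S15

open ModularCurve AlgebraicCurve
open Fermat.Agent.S24 Fermat.Agent.W1

/-- the action on a step of index `2` is trivial -/
theorem selarc2_triv {N k : ℕ} [NeZero N] {W W' : AddSubgroup (JZero N)}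
    (hstep : SelStep N 2 k W W') (σ : GalQ) {w : JZero N} (hw : w ∈ W') : σ • w - w ∈ W := by
  obtain ⟨ψ, hmul, h0, heq, hker⟩ := selarc2_stepCyc hstep
  have hσw : σ • w ∈ W' := hstep.stab' σ w hw
  have hmem : σ • w - w ∈ W' := W'.sub_mem hσw hw
  have h2W : 2 • w ∈ W := by
    have := selch_relIndex_nsmul_mem W W' hstep.le hw
    rwa [hstep.idx] at this
  by_cases hwW : w ∈ W
  · exact W.sub_mem (hstep.stab σ w hwW) hwW
  · -- `σ w ∉ W`, and two points outside `W` differ by an element of `W`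
    have hσwW : σ • w ∉ W := by
      intro h
      have := hstep.stab σ⁻¹ _ h
      rw [inv_smul_smul] at this
      exact hwW this
    obtain ⟨a₁, _, hab⟩ := AddSubgroup.relIndex_eq_two_iff.1 hstep.idx
    have h1 : σ • w + a₁ ∈ W := by
      rcases hab _ hσw with ⟨h1, _⟩ | ⟨h1, _⟩
      · exact h1
      · exact absurd h1 hσwW
    have h2 : w + a₁ ∈ W := by
      rcases hab _ hw with ⟨h1, _⟩ | ⟨h1, _⟩
      · exact h1
      · exact absurd h1 hwW
    have e : σ • w - w = (σ • w + a₁) - (w + a₁) := by abel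
    rw [e]
    exact W.sub_mem h1 h2

/-- **AR-C2∞** with a given local package at `2`. -/
theorem selarc2_inf_of (N : ℕ) [NeZero N] (k : ℕ) (hN : N.Prime) (h2N : 2 ≠ N)
    (AN Ar : ValuationSubring Kb) (hAN : AN.LiesOverPrime N) (hAr : Ar.LiesOverPrime 2)
    (V1 : AddSubgroup (JZero N)) (hV1 : SelLocR N 2 Ar V1)
    (i : Kb) (hi : i ^ 2 = -1) (c : GalQ) (hc : c i ≠ i)
    (Q : AddSubgroup (JZero N)) (hQ : ∀ x ∈ Q, c • x = x)
    (W W' : AddSubgroup (JZero N)) (hstep : SelStep N 2 k W W')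
    (j : JZero N) (hj : j ∈ selY2 GalQ (selIF N AN) Q W') : ∀ σ : GalQ, σ • j - j ∈ W := by
  obtain ⟨hjP, hjQ, hjc⟩ := mem_selY2.1 hj
  obtain ⟨a, ha, w₁, hw₁, rfl⟩ := AddSubgroup.mem_sup.1 hjP
  obtain ⟨b, hb, w₂, hw₂, hbw⟩ := AddSubgroup.mem_sup.1 hjQ
  -- the cocycle of `a`
  have hrel : ∀ σ : GalQ, σ • (a + w₁) - (a + w₁) = (σ • a - a) + (σ • w₁ - w₁) := by
    intro σ
    rw [smul_add]
    abel
  have hcoc : ∀ σ : GalQ, σ • a - a ∈ W' := by
    intro σ
    have e : σ • a - a = (σ • (a + w₁) - (a + w₁)) - (σ • w₁ - w₁) := by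
      rw [hrel σ]
      abel
    rw [e]
    exact W'.sub_mem (hjc σ) (W'.sub_mem (hstep.stab' σ w₁ hw₁) hw₁)
  have hiff : ∀ σ : GalQ, σ • (a + w₁) - (a + w₁) ∈ W ↔ σ • a - a ∈ W := by
    intro σ
    rw [hrel σ]
    exact ⟨fun h => by
      have := W.sub_mem h (selarc2_triv hstep σ hw₁)
      rwa [add_sub_cancel_right] at this,
      fun h => W.add_mem h (selarc2_triv hstep σ hw₁)⟩
  -- at `c`
  have hcj : c • (a + w₁) - (a + w₁) ∈ W := by
    rw [← hbw, smul_add, hQ b hb]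
    have e : b + c • w₂ - (b + w₂) = c • w₂ - w₂ := by abel
    rw [e]
    exact selarc2_triv hstep c hw₂
  have hca : c • a - a ∈ W := (hiff c).1 hcj
  intro σ
  rw [hiff σ]
  exact selarc2_of_conj N k hN h2N AN Ar hAN hAr V1 hV1 W W' hstep i hi c hc a ha hcoc hca σ

/-- **AR-C2∞**, unconditional: the hypothesis `hvan` of `seltwo_main` at `r = 2`. -/
theorem selarc2_inf (N : ℕ) [NeZero N] (k : ℕ) (hN : N.Prime) (h2N : 2 ≠ N)
    (AN : ValuationSubring Kb) (hAN : AN.LiesOverPrime N)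
    (i : Kb) (hi : i ^ 2 = -1) (c : GalQ) (hc : c i ≠ i)
    (Q : AddSubgroup (JZero N)) (hQ : ∀ x ∈ Q, c • x = x)
    (W W' : AddSubgroup (JZero N)) (hstep : SelStep N 2 k W W')
    (j : JZero N) (hj : j ∈ selY2 GalQ (selIF N AN) Q W') : ∀ σ : GalQ, σ • j - j ∈ W := by
  obtain ⟨Ar, hAr⟩ := Fermat.Agent.Common.exists_liesOverPrime 2 Nat.prime_two
  obtain ⟨V1, hV1⟩ := stmtSelLocR N 2 hN Nat.prime_two h2N Ar hAr
  exact selarc2_inf_of N k hN h2N AN Ar hAN hAr V1 hV1 i hi c hc Q hQ W W' hstep j hj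

end Fermat.Agent.S15

end
end ZBZ2S15_038_4

/-! ### bundled: `Fermat.Agent.S15.SelTopTwo` -/
section ZBZ2S15_038_5

/-!
# S15 / SELMER block: the top of the descent at `r = 2` (SEL-TOP-2, "G-two")

The descent at the prime `2` is run with two local conditions (helper6, `S15/SelTwo.lean`):
`P = selIF N AN` (the points fixed by the inertia at the level) and `Q` = the points fixed by a
complex conjugation `c`.

* `seltoptwo_core` : `FinAbs GalQ 2 cr w` from `StmtSelEis`, `StmtFinRed` and the count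
  `(CNT*)  ∃ a ∀ k, #G_k ≤ 2 ^ a · #(G_k ∩ P) · #(G_k ∩ Q)`, for any involution `c` with
  `c i ≠ i`, `i ^ 2 = -1`;
* `seltoptwo_exists_i` : `complexConjugation` moves a square root of `-1`;
* `seltoptwo_core_cc` : the same for `c = complexConjugation`.

Inputs which are used unconditionally: `selarc2_inf`, `selarc2_triv` (helper14),
`seltwo_main`, `seltwo_glue`, `seltwo_conj_div` (helper6).
-/

set_option autoImplicit false

noncomputable section

namespace Fermat.Agent.S15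

open ModularCurve AlgebraicCurve
open Fermat.Agent.S24 Fermat.Agent.W1

/-- **SEL-TOP at `2`, core**: the descent with the two local conditions. -/
theorem seltoptwo_core (hEis : StmtSelEis) (hFR : StmtFinRed)
    (N : ℕ) [NeZero N] (hNM : IsMazurLevel N) (h2N : 2 ≠ N)
    (i : Kb) (hi : i ^ 2 = -1) (c : GalQ) (hcc : c * c = 1) (hci : c i ≠ i)
    (Q : AddSubgroup (JZero N)) (hQ : ∀ x : JZero N, x ∈ Q ↔ c • x = x)
    (AN : ValuationSubring Kb) (hAN : AN.LiesOverPrime N)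
    (hCnt : ∃ a : ℕ, ∀ k : ℕ, Nat.card ↥(selEisPart N 2 k)
      ≤ 2 ^ a * (Nat.card ↥(selEisPart N 2 k ⊓ selIF N AN) * Nat.card ↥(selEisPart N 2 k ⊓ Q)))
    (cr : JZero N) (hcr0 : cr ≠ 0) (hrcr : 2 • cr = 0) (hcrc : ∃ n : ℕ, cr = n • cuspClass N)
    (w : JZero N) (hw : ∀ σ : GalQ, σ • w = w)
    (hdiv : ∀ k : ℕ, ∃ R ∈ selIF N AN, 2 ^ k • R = w) : FinAbs GalQ 2 cr w := by
  have hN : N.Prime := hNM.1
  have hr : (2 : ℕ).Prime := Nat.prime_two
  obtain ⟨a, ha⟩ := hCnt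
  obtain ⟨t, ht⟩ := seltop_tors_bound hFR N hNM 2 hr (selIF N AN)
  refine ⟨t + a + 1, fun k' => ?_⟩
  set k := k' + (t + a + 1) with hk
  obtain ⟨D, hD⟩ := hEis N 2 hN hr h2N cr hcr0 hrcr hcrc k
  have hGk : ∀ x ∈ selEisPart N 2 k, 2 ^ k • x = 0 := fun x hx => (mem_selEisPart.1 hx).1
  have hstep : ∀ i < D.L, SelStep N 2 k (D.W i) (D.W (i + 1)) := fun i hi => (hD.step i hi).1
  have hmono := seltop_mono D.W D.L hstep
  have hstab := seltop_stable D.W D.L hD.W_zero hstep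
  have hfin : ∀ i ≤ D.L, Finite ↥(D.W i) := fun i hi =>
    seltop_finite (2 ^ k) (pow_ne_zero _ hr.ne_zero) (D.W i)
      (fun x hx => hGk x (hD.W_top ▸ hmono i hi hx))
  have hfinG : Finite ↥(selEisPart N 2 k) :=
    seltop_finite (2 ^ k) (pow_ne_zero _ hr.ne_zero) _ hGk
  have hbound : ∀ j ∈ selY2 GalQ (selIF N AN) Q (selEisPart N 2 k),
      2 ^ (t + a) • j ∈ selY2 GalQ (selIF N AN) Q ⊥ ⊔ selEisPart N 2 k := by
    intro j hj
    rw [← hD.W_top] at hj ⊢
    refine seltwo_main hr (selIF N AN) Q D.W D.L t a hD.W_zero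
      (fun i hi => (hstep i hi).le) hstab hfin (fun i hi => (hstep i hi).idx)
      (fun n hn σ w hw => selarc2_triv (hstep n hn) σ hw)
      (fun n hn j hj => selarc2_inf N k hN h2N AN hAN i hi c hci Q
        (fun x hx => (hQ x).1 hx) _ _ (hstep n hn) j hj) ?_ ?_ hj
    · rw [hD.W_top]; exact ha k
    · rw [hD.W_top]
      refine le_trans ?_ (ht k _ hGk)
      have : Finite ↥(selY GalQ (selIF N AN) ⊥ ⊓ selEisPart N 2 k) :=
        Finite.of_injective
          (fun x : ↥(selY GalQ (selIF N AN) ⊥ ⊓ selEisPart N 2 k) =>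
            (⟨x.1, x.2.2⟩ : ↥(selEisPart N 2 k)))
          (fun a b h => Subtype.ext (congrArg (fun y : ↥(selEisPart N 2 k) => (y : JZero N)) h))
      exact AddSubgroup.card_le_of_le (inf_le_inf_right _ inf_le_left)
  obtain ⟨R, hR, hRw⟩ := hdiv k
  obtain ⟨hR2fix, hR2w⟩ := seltwo_conj_div c hcc (hw c) hRw
  have hE𝒥 : ∀ x ∈ selIF N AN, D.E x ∈ selIF N AN := by
    intro x hx σ hσ
    rw [← hD.E_equiv, hx σ hσ]
  have hEQ : ∀ x ∈ Q, D.E x ∈ Q := by
    intro x hx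
    rw [hQ, ← hD.E_equiv, (hQ x).1 hx]
  obtain ⟨m, hm, hmE⟩ := seltwo_glue (G := GalQ) (selIF N AN) Q (selEisPart N 2 k) D.E
    hD.E_equiv hE𝒥 hEQ hD.E_mem hGk hbound w hw R hR hRw _ ((hQ _).2 hR2fix) hR2w
  refine ⟨D.E, hD.E_equiv, hD.E_cr, m, hm, ?_⟩
  have e1 : 2 ^ (t + a + 1) • D.E w = 2 ^ (t + a) • (2 • D.E w) := by
    rw [pow_succ, mul_smul]
  have e2 : 2 ^ k • m = 2 ^ (t + a + 1) • (2 ^ k' • m) := by
    rw [hk, pow_add, mul_comm, mul_smul]
  rw [nsmul_sub, e1, hmE, e2, sub_self]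

/-- the complex conjugation moves a square root of `-1` -/
theorem seltoptwo_exists_i : ∃ i : Kb, i ^ 2 = -1 ∧ complexConjugation i ≠ i := by
  obtain ⟨i, hi⟩ := IsAlgClosed.exists_pow_nat_eq (-1 : Kb) (n := 2) (by norm_num)
  refine ⟨i, hi, fun h => ?_⟩
  have h1 := complexEmbedding_complexConjugation i
  rw [h] at h1
  have h2 : (complexEmbedding i) ^ 2 = -1 := by
    rw [← map_pow, hi, map_neg, map_one]
  -- `z := complexEmbedding i` is real and `z ^ 2 = -1`
  obtain ⟨x, hx⟩ : ∃ x : ℝ, complexEmbedding i = (x : ℂ) := Complex.conj_eq_iff_real.1 h1.symm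
  rw [hx] at h2
  have h3 : ((x ^ 2 : ℝ) : ℂ) = ((-1 : ℝ) : ℂ) := by
    push_cast
    exact h2
  have h4 : x ^ 2 = -1 := Complex.ofReal_injective h3
  nlinarith [sq_nonneg x]

/-- **SEL-TOP at `2`** for the complex conjugation of the prelude. -/
theorem seltoptwo_core_cc (hEis : StmtSelEis) (hFR : StmtFinRed)
    (N : ℕ) [NeZero N] (hNM : IsMazurLevel N)
    (Q : AddSubgroup (JZero N)) (hQ : ∀ x : JZero N, x ∈ Q ↔ (complexConjugation : GalQ) • x = x)
    (AN : ValuationSubring Kb) (hAN : AN.LiesOverPrime N)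
    (hCnt : ∃ a : ℕ, ∀ k : ℕ, Nat.card ↥(selEisPart N 2 k)
      ≤ 2 ^ a * (Nat.card ↥(selEisPart N 2 k ⊓ selIF N AN) * Nat.card ↥(selEisPart N 2 k ⊓ Q)))
    (cr : JZero N) (hcr0 : cr ≠ 0) (hrcr : 2 • cr = 0) (hcrc : ∃ n : ℕ, cr = n • cuspClass N)
    (w : JZero N) (hw : ∀ σ : GalQ, σ • w = w)
    (hdiv : ∀ k : ℕ, ∃ R ∈ selIF N AN, 2 ^ k • R = w) : FinAbs GalQ 2 cr w := by
  obtain ⟨i, hi, hci⟩ := seltoptwo_exists_i
  have h2N : 2 ≠ N := by
    intro h
    have := hNM.2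
    rw [← h] at this
    simp at this
  exact seltoptwo_core hEis hFR N hNM h2N i hi complexConjugation complexConjugation_mul_self hci
    Q hQ AN hAN hCnt cr hcr0 hrcr hcrc w hw hdiv

end Fermat.Agent.S15

end
end ZBZ2S15_038_5
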