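/- GENERATED FILE (helper35, build-time optimisation, NOTES/ZB.md): verbatim concatenation of the modules
   Fermat.Agent.W1.LevelUpFricke
   Fermat.Agent.W1.LevelUpIndep
   Fermat.Agent.W1.LevelUp
   Fermat.Agent.S15.FinRed
   Fermat.Agent.S15.FinRedFinal
   Do not edit; do not import together with these modules. -/
import Mathlib
import Fermat.Agent.ZB.ES_001
import Fermat.Agent.ZB.S20_001
import Fermat.Agent.ZB.Z2W1_002
import Fermat.Agent.ZB.Z2W1_001
import Fermat.Agent.ZB.W1_004
import Fermat.Agent.ZB.S28_002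
import Fermat.Agent.ZB.ES_005
import Fermat.Agent.ZB.ES_007
import Fermat.Agent.ZB.Z2S15_001
import Fermat.Agent.ZB.Z2S15_002
import Fermat.Agent.ZB.INJ_034

/-! ### bundled: `Fermat.Agent.W1.LevelUpFricke` -/
section ZBZ2W1_003_0

/-!
# W1 GEO-LVL: the degeneracy maps `α`, `β` and the Fricke involutions

`w_{Nr} ∘ α = β ∘ w_N` (`lvl_fricke_alpha`), and `1 / j` has `q`-order `1`.
-/

set_option autoImplicit false
set_option linter.style.haveILetI false
set_option linter.unusedSectionVars false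

noncomputable section

namespace Fermat.Agent.W1

open AlgebraicCurve ModularCurve HahnSeries
open Fermat.Agent.S24 Fermat.Agent.ES Fermat.Agent.ES.M Fermat.Agent.ES.G2

variable (N r : ℕ) [NeZero N] [NeZero r]

theorem lvl_alpha_jdF (d : ℕ) (hd : d ∣ N) :
    heckeAlphaBar Kb N r (jdF N d hd) = jdF (N * r) d (Dvd.dvd.mul_right hd r) :=
  Subtype.ext rfl

theorem lvl_beta_jdF (d : ℕ) (hd : d ∣ N) :
    heckeBetaBar Kb N r (jdF N d hd) = jdF (N * r) (r * d) (by
      rw [Nat.mul_comm N r]; exact Nat.mul_dvd_mul_left r hd) := by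
  haveI : NeZero d := ⟨fun h => NeZero.ne N (by subst h; simpa using hd)⟩
  apply Subtype.ext
  show qExpand Kb r (coeffEmb Kb (qExpand ℚ d jq)) = coeffEmb Kb (qExpand ℚ (r * d) jq)
  rw [← qExpand_qExpand]
  exact (coeffMap_qExpand_comm (algebraMap ℚ Kb) r (qExpand ℚ d jq)).symm

/-- the Fricke involutions carry the inclusion `α` to `β` -/
theorem lvl_fricke_comp :
    ((frickeAut (N * r) : FF (N * r) →ₐ[Kb] FF (N * r)).comp (heckeAlphaBar Kb N r)) =
      (heckeBetaBar Kb N r).comp (frickeAut N : FF N →ₐ[Kb] FF N) := by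
  apply FF_algHom_ext
  intro d hd
  have hd0 : d ≠ 0 := fun h => NeZero.ne N (by subst h; simpa using hd)
  show frickeAut (N * r) (heckeAlphaBar Kb N r (jdF N d hd)) =
    heckeBetaBar Kb N r (frickeAut N (jdF N d hd))
  rw [lvl_alpha_jdF, frickeAut_jdF, frickeAut_jdF, lvl_beta_jdF]
  congr 1
  rw [Nat.mul_comm N r]
  exact Nat.mul_div_assoc r hd

theorem lvl_fricke_alpha (c : FF N) :
    frickeAut (N * r) (heckeAlphaBar Kb N r c) = heckeBetaBar Kb N r (frickeAut N c) :=
  congrArg (fun f : FF N →ₐ[Kb] FF (N * r) => f c) (lvl_fricke_comp N r)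

variable {N r}

theorem lvl_order_inv {k : Type*} [Field k] {x : LaurentSeries k} (hx : x ≠ 0) :
    (x⁻¹).order = -x.order := by
  have h := HahnSeries.order_mul hx (inv_ne_zero hx)
  rw [mul_inv_cancel₀ hx, HahnSeries.order_one] at h
  linarith

theorem lvl_order_inv_jF (M : ℕ) [NeZero M] :
    (((jF M)⁻¹ : FF M) : LaurentSeries Kb).order = 1 := by
  have h : (((jF M)⁻¹ : FF M) : LaurentSeries Kb) = (jBar : LaurentSeries Kb)⁻¹ := rfl
  rw [h, lvl_order_inv jBar_ne_zero, order_jBar]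
  rfl

theorem lvl_inv_jF_ne_zero (M : ℕ) [NeZero M] :
    (((jF M)⁻¹ : FF M) : LaurentSeries Kb) ≠ 0 := by
  have h : (((jF M)⁻¹ : FF M) : LaurentSeries Kb) = (jBar : LaurentSeries Kb)⁻¹ := rfl
  rw [h]
  exact inv_ne_zero jBar_ne_zero

end Fermat.Agent.W1

end
end ZBZ2W1_003_0

/-! ### bundled: `Fermat.Agent.W1.LevelUpIndep` -/
section ZBZ2W1_003_1

/-!
# W1 GEO-LVL: linear independence over `β (F_N)`

If `h ∈ ℚ̄((q))`, `h ^ p ∈ F_N`, `h ∉ F_N`, then `1, h, …, h^(p-1)` are linearly independent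
over `F_N` (`lvl_pow_indep`) and the `p r` elements `h(q^r)^a · j^(-i)` are linearly independent
over `β (F_N)` (`lvl_beta_indep`).
-/

set_option autoImplicit false
set_option linter.style.haveILetI false
set_option linter.unusedSectionVars false

noncomputable section

namespace Fermat.Agent.W1

open AlgebraicCurve ModularCurve
open Fermat.Agent.S24 Fermat.Agent.ES Fermat.Agent.ES.M Fermat.Agent.ES.G2

variable {N : ℕ} [NeZero N]

/-- if `h ^ p = u` with `h ∉ F_N`, then `u` is not a `p`-th power in `F_N` -/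
theorem lvl_not_pow {p : ℕ} (hp : 0 < p) {u : FF N} (hu : u ≠ 0) {h : LaurentSeries Kb}
    (hhp : h ^ p = (u : LaurentSeries Kb)) (hmem : h ∉ modularFunctionFieldBar N)
    (b : FF N) : b ^ p ≠ u := by
  intro hb
  have hu' : (u : LaurentSeries Kb) ≠ 0 := fun h0 => hu (Subtype.ext h0)
  have hb' : (b : LaurentSeries Kb) ^ p = (u : LaurentSeries Kb) := by
    rw [← hb]
    rfl
  have hb0 : (b : LaurentSeries Kb) ≠ 0 := by
    intro h0
    rw [h0, zero_pow hp.ne'] at hb'
    exact hu' hb'.symm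
  have hz : (h / (b : LaurentSeries Kb)) ^ p = 1 := by
    rw [div_pow, hhp, hb']
    exact div_self hu'
  obtain ⟨c, hc⟩ := lvl_const_of_pow_eq_one hp hz
  apply hmem
  have : h = algebraMap Kb (LaurentSeries Kb) c * (b : LaurentSeries Kb) := by
    rw [hc, div_mul_cancel₀ _ hb0]
  rw [this]
  exact mul_mem (IntermediateField.algebraMap_mem _ c) b.2

/-- if `h ^ p = u` with `h ∉ F_N` (`p` prime), then `1, h, …, h^(p-1)` are linearly independent
over `F_N` -/
theorem lvl_pow_indep {p : ℕ} (hp : p.Prime) {u : FF N} (hu : u ≠ 0) {h : LaurentSeries Kb}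
    (hhp : h ^ p = (u : LaurentSeries Kb)) (hmem : h ∉ modularFunctionFieldBar N)
    (c : Fin p → FF N)
    (hc : ∑ a : Fin p, (c a : LaurentSeries Kb) * h ^ (a : ℕ) = 0) : ∀ a, c a = 0 := by
  classical
  have hirr : Irreducible (Polynomial.X ^ p - Polynomial.C u : Polynomial (FF N)) :=
    X_pow_sub_C_irreducible_of_prime hp (lvl_not_pow hp.pos hu hhp hmem)
  have hroot : Polynomial.aeval h (Polynomial.X ^ p - Polynomial.C u : Polynomial (FF N)) = 0 := by
    rw [map_sub, map_pow, Polynomial.aeval_X, Polynomial.aeval_C, hhp]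
    exact sub_self _
  have hmin : minpoly (FF N) h = Polynomial.X ^ p - Polynomial.C u :=
    (minpoly.eq_of_irreducible_of_monic hirr hroot
      (Polynomial.monic_X_pow_sub_C u hp.ne_zero)).symm
  have hdeg : (minpoly (FF N) h).natDegree = p := by
    rw [hmin, Polynomial.natDegree_X_pow_sub_C]
  have hlin := linearIndependent_pow (K := FF N) h
  rw [Fintype.linearIndependent_iff] at hlin
  intro a
  have h1 := hlin (fun i => c (Fin.cast hdeg i)) (by
    rw [← hc]
    rw [← Equiv.sum_comp (finCongr hdeg)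
      (fun a : Fin p => (c a : LaurentSeries Kb) * h ^ (a : ℕ))]
    refine Finset.sum_congr rfl fun i _ => ?_
    rw [Algebra.smul_def]
    rfl) (Fin.cast hdeg.symm a)
  simpa using h1


variable {r : ℕ} [NeZero r]

/-- the `p r` elements `g ^ a * y ^ i` of `F_{Nr}` (`g = h(q^r)`, `y = 1 / j`) are linearly
independent over `β (F_N)` when `h ∉ F_N` -/
theorem lvl_beta_indep {p : ℕ} (hp : p.Prime) {u : FF N} (hu : u ≠ 0) {h : LaurentSeries Kb}
    (hhp : h ^ p = (u : LaurentSeries Kb)) (hmem : h ∉ modularFunctionFieldBar N)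
    {g : FF (N * r)} (hhg : qExpand Kb r h = (g : LaurentSeries Kb))
    (c : Fin p × Fin r → FF N)
    (hc : ∑ ai : Fin p × Fin r,
      heckeBetaBar Kb N r (c ai) * (g ^ (ai.1 : ℕ) * (jF (N * r))⁻¹ ^ (ai.2 : ℕ)) = 0) :
    ∀ ai, c ai = 0 := by
  classical
  have h3 : ∑ i : Fin r, ∑ a : Fin p,
      qExpand Kb r ((c (a, i) : FF N) : LaurentSeries Kb) *
        (qExpand Kb r h) ^ (a : ℕ) *
          (((jF (N * r))⁻¹ : FF (N * r)) : LaurentSeries Kb) ^ (i : ℕ) = 0 := by
    have h4 : ((∑ ai : Fin p × Fin r,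
        heckeBetaBar Kb N r (c ai) * (g ^ (ai.1 : ℕ) * (jF (N * r))⁻¹ ^ (ai.2 : ℕ)) :
          FF (N * r)) : LaurentSeries Kb) = 0 := by
      rw [hc]; rfl
    rw [← h4, Fintype.sum_prod_type_right, AddSubmonoidClass.coe_finsetSum]
    refine Finset.sum_congr rfl fun i _ => ?_
    rw [AddSubmonoidClass.coe_finsetSum]
    refine Finset.sum_congr rfl fun a _ => ?_
    rw [hhg, mul_assoc]
    rfl
  intro ai
  have h5 := lvl_sum_eq_zero (lvl_inv_jF_ne_zero (N * r))
    (by rw [lvl_order_inv_jF]; exact isCoprime_one_left)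
    (fun a i => ((c (a, i) : FF N) : LaurentSeries Kb)) h3 ai.2
  exact lvl_pow_indep hp hu hhp hmem (fun a => c (a, ai.2)) h5 ai.1

end Fermat.Agent.W1

end
end ZBZ2W1_003_1

/-! ### bundled: `Fermat.Agent.W1.LevelUp` -/
section ZBZ2W1_003_2

/-!
# W1 GEO-LVL: level raising `J₀(N) → J₀(N r)` is injective on torsion

For a prime `r ∤ N` the pull-back `β^* : J₀(N) → J₀(N r)` along `β : f(q) ↦ f(q^r)` is
Galois-equivariant and injective on the `p`-power torsion, for EVERY prime `p`
(`stmtLevelUp`, `stmtLevelUpS19`).  Note that `p` may divide the degree `r + 1`, so this is not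
the norm argument.

Proof.  Let `p • x = 0`, `β^* x = 0`, `u` a Kummer function of `x`.  Then `β u = g ^ p` with
`g ∈ F_{Nr}` (constants are `p`-th powers), hence `g = h(q^r)` with `h ∈ ℚ̄((q))`, `h ^ p = u`
(`lvl_exists_root`; `p ∣ ord_q u` by the cusp `∞`).  If `h ∉ F_N` then `1, h, …, h^(p-1)` are
linearly independent over `F_N`, and with `y = 1 / j` (of `q`-order `1`) the `p r` elements
`g^a y^i` of `F_{Nr}` are linearly independent over `β(F_N)`.  The Fricke involutions carry `β`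
to the inclusion `α`, of degree `r + 1 < p r`: contradiction.  So `u = h ^ p` in `F_N`, `x = 0`.
-/

set_option autoImplicit false
set_option linter.style.haveILetI false
set_option linter.unusedSectionVars false

noncomputable section

namespace Fermat.Agent.W1

open AlgebraicCurve ModularCurve
open Fermat.Agent.S24 Fermat.Agent.ES Fermat.Agent.ES.M Fermat.Agent.ES.G2

variable {N r : ℕ} [NeZero N] [NeZero r]

/-- the Fricke transforms of `g ^ a * y ^ i` are linearly independent over `F_N` for the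
inclusion `α : F_N → F_{Nr}` -/
theorem lvl_alpha_indep {p : ℕ} (hp : p.Prime) {u : FF N} (hu : u ≠ 0) {h : LaurentSeries Kb}
    (hhp : h ^ p = (u : LaurentSeries Kb)) (hmem : h ∉ modularFunctionFieldBar N)
    {g : FF (N * r)} (hhg : qExpand Kb r h = (g : LaurentSeries Kb)) :
    letI := (heckeAlphaBar Kb N r).toRingHom.toAlgebra
    LinearIndependent (FF N) (fun ai : Fin p × Fin r =>
      frickeAut (N * r) (g ^ (ai.1 : ℕ) * (jF (N * r))⁻¹ ^ (ai.2 : ℕ))) := by
  classical
  letI := (heckeAlphaBar Kb N r).toRingHom.toAlgebra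
  rw [Fintype.linearIndependent_iff]
  intro c hc ai
  have h1 : ∑ ai : Fin p × Fin r, heckeBetaBar Kb N r (frickeAut N (c ai)) *
      (g ^ (ai.1 : ℕ) * (jF (N * r))⁻¹ ^ (ai.2 : ℕ)) = 0 := by
    have h2 := congrArg (frickeAut (N * r)) hc
    rw [map_zero, map_sum] at h2
    rw [← h2]
    refine Finset.sum_congr rfl fun ai _ => ?_
    rw [Algebra.smul_def, map_mul, frickeAut_frickeAut]
    congr 1
    exact (lvl_fricke_alpha N r (c ai)).symm
  have h6 := lvl_beta_indep hp hu hhp hmem hhg (fun ai => frickeAut N (c ai)) h1 ai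
  exact (map_eq_zero (frickeAut N)).mp h6

/-- **Roots descend.**  If `g ∈ F_{Nr}` is a `p`-th root of `β u`, `u ∈ F_N` with `p ∣ ord_q u`,
then `g ∈ β (F_N)`. -/
theorem lvl_root_mem (hr : r.Prime) (hrN : ¬ r ∣ N) {p : ℕ} (hp : p.Prime)
    (u : FF N) (g : FF (N * r)) (hu : u ≠ 0)
    (hdvd : (p : ℤ) ∣ (u : LaurentSeries Kb).order)
    (hg : g ^ p = heckeBetaBar Kb N r u) : ∃ h : FF N, heckeBetaBar Kb N r h = g := by
  classical
  have hu' : (u : LaurentSeries Kb) ≠ 0 := fun h => hu (Subtype.ext h)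
  have hg' : (g : LaurentSeries Kb) ^ p = qExpand Kb r (u : LaurentSeries Kb) := by
    have h1 : ((g ^ p : FF (N * r)) : LaurentSeries Kb) =
        ((heckeBetaBar Kb N r u : FF (N * r)) : LaurentSeries Kb) := by rw [hg]
    exact h1
  obtain ⟨h, hhp, hhg⟩ := lvl_exists_root hp.pos hu' hdvd hg'
  by_cases hmem : h ∈ modularFunctionFieldBar N
  · exact ⟨⟨h, hmem⟩, Subtype.ext hhg⟩
  exfalso
  have hv := lvl_alpha_indep hp hu hhp hmem hhg
  letI := (heckeAlphaBar Kb N r).toRingHom.toAlgebra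
  haveI : FiniteDimensional (FF N) (FF (N * r)) := hdeg_finiteDimensional N r hr hrN
  have hfr : Module.finrank (FF N) (FF (N * r)) = r + 1 := hdeg_finrank N r hr hrN
  have hcard := hv.fintype_card_le_finrank
  rw [hfr, Fintype.card_prod, Fintype.card_fin, Fintype.card_fin] at hcard
  have hp2 := hp.two_le
  have hr2 := hr.two_le
  nlinarith


/-! ### the statement -/

/-- functions of `F_M` without zeros and poles are `p`-th powers -/
theorem lvl_const_pow (M : ℕ) [NeZero M] {p : ℕ} (hp : 0 < p) (c : FF M) (_hc0 : c ≠ 0)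
    (hc : ∀ w : Place Kb (FF M), w.ord c = 0) : ∃ d : FF M, d ^ p = c := by
  obtain ⟨c₀, hc₀⟩ := mu_exists_const_of_ord_eq_zero c hc
  obtain ⟨d₀, hd₀⟩ := IsAlgClosed.exists_pow_nat_eq c₀ hp
  refine ⟨algebraMap Kb (FF M) d₀, ?_⟩
  rw [← map_pow, hd₀, hc₀]

/-- **GEO-LVL.**  For a prime `r ∤ N` and every prime `p` there is a Galois-equivariant
homomorphism `J₀(N) → J₀(N r)` which is injective on the `p`-power torsion. -/
theorem stmtLevelUp (N r p : ℕ) [NeZero N] [NeZero (N * r)] (hr : r.Prime) (hrN : ¬ r ∣ N)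
    (hp : p.Prime) : StmtLevelUp N (N * r) p := by
  haveI : NeZero r := ⟨hr.ne_zero⟩
  haveI := Fermat.Agent.ES.H.hasPrincipalDivisors_FF (N * r)
  have hβ := Fermat.Agent.ES.H.heckeBetaBarIntegral N r
  have hFI := Fermat.Agent.ES.H.fundamentalIdentityAlong_heckeBetaBar N r
  refine ⟨lvlPic0 (heckeBetaBar Kb N r) hβ hFI, ?_, ?_⟩
  · intro σ x
    rw [galois_smul_pic0_def, galois_smul_pic0_def]
    exact lvlPic0_smul (heckeBetaBar Kb N r) hβ hFI (intertwines_heckeBetaBar N r σ) x
  · intro x hx hφx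
    refine lvl_eq_zero_of_torsion (heckeBetaBar Kb N r) hβ hFI hp.ne_zero
      (lvl_const_pow (N * r) hp.pos) ?_ x hx hφx
    intro u g hu hdvd hg
    obtain ⟨P, hP, -⟩ := exists_isCuspInfty N
    have h1 := hdvd P
    rw [hP u hu] at h1
    exact lvl_root_mem hr hrN hp u g hu h1 hg

/-- **GEO-LVL** in the form consumed by `W1/S19Final.lean`. -/
theorem stmtLevelUpS19 : StmtLevelUpS19 :=
  fun N r ℓ _ _ hr hrN hℓ _ _ _ _ => stmtLevelUp N r ℓ hr hrN hℓ

end Fermat.Agent.W1

end
end ZBZ2W1_003_2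

/-! ### bundled: `Fermat.Agent.S15.FinRed` -/
section ZBZ2W1_003_3

/-!
# S15 block RED: `StmtFinRed` from the reduction package

`StmtRedFrob` : the interface `HasRedFrob N A ℓ` holds whenever the reduction package of
`DEU.hasModPR_s19` exists (`ℓ ∤ N`, `2 ≤ N`, `5 ≤ ℓ` or `(5 - ℓ) ∣ N`).

`stmtFinRed_of_stmtRedFrob : StmtRedFrob → StmtFinRed` : for `v ≥ 5` directly at the level `p`;
for `v ∈ {2, 3}` at the level `p (5 - v)`, transferred to the level `p` by the level-up
homomorphism `W1.stmtLevelUp` (equivariant, injective on `r`-power torsion).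
-/

set_option autoImplicit false
set_option linter.unusedSectionVars false
set_option linter.style.haveILetI false
set_option synthInstance.maxHeartbeats 400000

noncomputable section

namespace Fermat.Agent.S15

open ModularCurve AlgebraicCurve Fermat.Agent.ES Fermat.Agent.ES.M Fermat.Agent.S24
  Fermat.Agent.W1

/-- the reduction package, in the form used by FINRED, at the levels and primes where
`W1.HasModPR` is available -/
def StmtRedFrob : Prop :=
  ∀ (N : ℕ) [NeZero N] (ℓ : ℕ), ℓ.Prime → ¬ ℓ ∣ N → 2 ≤ N → (5 ≤ ℓ ∨ (5 - ℓ) ∣ N) →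
    ∀ A : ValuationSubring Kb, A.LiesOverPrime ℓ → HasRedFrob N A ℓ

theorem finred_mazurLevel_ne {p : ℕ} (hp : IsMazurLevel p) : p ≠ 2 ∧ p ≠ 3 := by
  refine ⟨fun h => hp.2 ?_, fun h => hp.2 ?_⟩ <;> rw [h] <;> decide

/-- **FINRED** from the reduction package. -/
theorem stmtFinRed_of_stmtRedFrob (h : StmtRedFrob) : StmtFinRed := by
  intro p _ hp v hv hvp r hr hrv A hA
  have hpp : p.Prime := hp.1
  obtain ⟨hp2, hp3⟩ := finred_mazurLevel_ne hp
  have hvp' : ¬ v ∣ p := fun hd => hvp ((Nat.prime_dvd_prime_iff_eq hv hpp).mp hd)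
  rcases le_or_gt 5 v with h5 | h5
  · exact finred_torsBdd_of_hasRedFrob p A (h p v hv hvp' hpp.two_le (Or.inl h5) A hA) r hr hrv
  · have hv23 : v = 2 ∨ v = 3 := by
      have h2 := hv.two_le
      interval_cases v
      · exact Or.inl rfl
      · exact Or.inr rfl
      · exact absurd hv (by decide)
    obtain ⟨s, hs, hsv, hsp, hvs⟩ : ∃ s : ℕ, s.Prime ∧ s = 5 - v ∧ ¬ s ∣ p ∧ ¬ v ∣ s := by
      rcases hv23 with rfl | rfl
      · exact ⟨3, Nat.prime_three, rfl,
          fun hd => hp3 ((Nat.prime_dvd_prime_iff_eq Nat.prime_three hpp).mp hd).symm,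
          by decide⟩
      · exact ⟨2, Nat.prime_two, rfl,
          fun hd => hp2 ((Nat.prime_dvd_prime_iff_eq Nat.prime_two hpp).mp hd).symm,
          by decide⟩
    haveI : NeZero (p * s) := ⟨mul_ne_zero hpp.ne_zero hs.ne_zero⟩
    have hvN : ¬ v ∣ p * s := fun hd => (hv.dvd_mul.mp hd).elim hvp' hvs
    have h2N : 2 ≤ p * s := le_trans hpp.two_le (Nat.le_mul_of_pos_right p hs.pos)
    obtain ⟨ψ, hψe, hψi⟩ := stmtLevelUp p s r hs hsp hr
    refine finred_torsBdd_of_levelUp (A.decompositionSubgroup ℚ) r ψ hψe hψi ?_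
    exact finred_torsBdd_of_hasRedFrob (p * s) A
      (h (p * s) v hv hvN h2N (Or.inr (hsv ▸ Dvd.intro_left p rfl)) A hA) r hr hrv

end Fermat.Agent.S15

end
end ZBZ2W1_003_3

/-! ### bundled: `Fermat.Agent.S15.FinRedFinal` -/
section ZBZ2W1_003_4

/-!
# S15 block RED — FINRED, unconditional

* `s15red_stmtRedFrob : StmtRedFrob` (from the package `s15red_exists_pkg`);
* `stmtFinRed : StmtFinRed` : for a Mazur level `p`, primes `v ≠ p`, `r ≠ v` and `A ∣ v`, the
  `r`-power torsion of `J₀(p)` fixed by the decomposition group of `A` has bounded exponent.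
-/

set_option autoImplicit false
set_option synthInstance.maxHeartbeats 400000
set_option maxHeartbeats 1600000

open ModularCurve AlgebraicCurve

namespace Fermat.Agent.S15

open Fermat.Agent.S24 Fermat.Agent.ES.M Fermat.Agent.W1

/-- the reduction package in the form used by FINRED -/
theorem s15red_stmtRedFrob : StmtRedFrob := by
  intro N _ ℓ hℓ hℓN _ hcase A hA
  obtain ⟨r, sp, Pinf, Qinf, h⟩ := s15red_exists_pkg N ℓ hℓ hℓN hcase A hA
  exact ⟨hℓ, hA, gN N, sp, h.lower, h.sp_frob, h.s18⟩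

/-- **FINRED** (block RED of the Mazur chain), unconditional. -/
theorem stmtFinRed : StmtFinRed :=
  stmtFinRed_of_stmtRedFrob s15red_stmtRedFrob

end Fermat.Agent.S15


end ZBZ2W1_003_4
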