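/- GENERATED FILE (helper35, build-time optimisation, NOTES/ZB.md): verbatim concatenation of the modules
   Fermat.Agent.S15.SelEisProjAbs
   Fermat.Agent.S15.SelEisProj
   Fermat.Agent.S15.SelEisFinal
   Fermat.Agent.S15.SelFinal
   Fermat.Agent.S15.SelTopTwoFinal
   Fermat.Agent.S15.SelFinalStar
   Do not edit; do not import together with these modules. -/
import Mathlib
import Fermat.Agent.ZB.Z2S15_035
import Fermat.Agent.ZB.Z2S15_036
import Fermat.Agent.ZB.Z2S15_042
import Fermat.Agent.ZB.Common_003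
import Fermat.Agent.ZB.Z2S15_038
import Fermat.Agent.ZB.Z2S15_040
import Fermat.Agent.ZB.Z2W1_003
import Fermat.Agent.ZB.Z2S15_045

/-! ### bundled: `Fermat.Agent.S15.SelEisProjAbs` -/
section ZBZ2S15_043_0
/-
S15 / SELMER block, piece **SEL-EIS**, the projector, abstract part (helper72).

`J` an abelian group with an action of `G`, `t i` (`i : ι`) additive endomorphisms of `J` commuting
with `G` and, on the finite group `J[M]`, with each other; `cr` a point killed by every `t i`.
Then there is an endomorphism `E` of `J` (a product of Fitting projectors `1 - (t i) ^ n`) which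
commutes with `G`, fixes `cr`, and maps `J[M]` into the common generalised kernel of the `t i`
(`seleis_exists_proj`).
-/

set_option autoImplicit false
set_option linter.style.haveILetI false

namespace Fermat.Agent.S15

section proj

variable {J : Type*} [AddCommGroup J]

/-- the `M`-torsion is stable under endomorphisms -/
theorem seleis_tors_apply (t : Module.End ℤ J) {M : ℕ} {x : J} (hx : M • x = 0) :
    M • t x = 0 := by
  rw [← map_nsmul, hx, map_zero]

theorem seleis_tors_pow_apply (t : Module.End ℤ J) {M : ℕ} {x : J} (hx : M • x = 0) (n : ℕ) :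
    M • (t ^ n) x = 0 :=
  seleis_tors_apply (t ^ n) hx

/-- **Fitting**: on a finite torsion group some positive power of an endomorphism is
idempotent. -/
theorem seleis_exists_idem (t : Module.End ℤ J) (M : ℕ) (hfin : {x : J | M • x = 0}.Finite) :
    ∃ n : ℕ, 0 < n ∧ ∀ x : J, M • x = 0 → (t ^ n) ((t ^ n) x) = (t ^ n) x := by
  classical
  haveI : Finite {x : J | M • x = 0} := hfin
  let f : ℕ → ({x : J | M • x = 0} → {x : J | M • x = 0}) := fun i x =>
    ⟨(t ^ i) x.1, seleis_tors_pow_apply t x.2 i⟩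
  obtain ⟨i, j, hij, hf⟩ := Finite.exists_ne_map_eq_of_infinite f
  -- wlog `i < j`
  have key : ∀ i j : ℕ, i < j → f i = f j →
      ∃ n : ℕ, 0 < n ∧ ∀ x : J, M • x = 0 → (t ^ n) ((t ^ n) x) = (t ^ n) x := by
    intro i j hlt hf
    obtain ⟨p, rfl⟩ : ∃ p, j = i + p := ⟨j - i, by omega⟩
    have hp : 0 < p := by omega
    have h1 : ∀ x : J, M • x = 0 → (t ^ (i + p)) x = (t ^ i) x := by
      intro x hx
      have := congrFun hf ⟨x, hx⟩
      exact (congrArg Subtype.val this).symm
    -- `t ^ (a + p) = t ^ a` for `a ≥ i`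
    have h2 : ∀ a : ℕ, i ≤ a → ∀ x : J, M • x = 0 → (t ^ (a + p)) x = (t ^ a) x := by
      intro a ha x hx
      obtain ⟨b, rfl⟩ : ∃ b, a = b + i := ⟨a - i, by omega⟩
      rw [add_assoc, pow_add, Module.End.mul_apply, h1 x hx, pow_add, Module.End.mul_apply]
    have h3 : ∀ c a : ℕ, i ≤ a → ∀ x : J, M • x = 0 → (t ^ (a + c * p)) x = (t ^ a) x := by
      intro c
      induction c with
      | zero => intro a _ x _; simp
      | succ c ih =>
        intro a ha x hx
        have e : a + (c + 1) * p = (a + c * p) + p := by ring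
        rw [e, h2 (a + c * p) (by omega) x hx, ih a ha x hx]
    refine ⟨(i + 1) * p, Nat.mul_pos (Nat.succ_pos i) hp, fun x hx => ?_⟩
    have hle : i ≤ (i + 1) * p := by
      calc i ≤ i + 1 := Nat.le_succ i
        _ = (i + 1) * 1 := (mul_one _).symm
        _ ≤ (i + 1) * p := Nat.mul_le_mul_left _ hp
    rw [← Module.End.mul_apply, ← pow_add]
    exact h3 (i + 1) ((i + 1) * p) hle x hx
  rcases Nat.lt_or_gt_of_ne hij with h | h
  · exact key i j h hf
  · exact key j i h hf.symm

variable {G : Type*} [Group G] [DistribMulAction G J] {ι : Type*}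

/-- commutation with powers -/
theorem seleis_comm_pow (a b : Module.End ℤ J) (M : ℕ)
    (h : ∀ x : J, M • x = 0 → a (b x) = b (a x)) (n : ℕ) :
    ∀ x : J, M • x = 0 → a ((b ^ n) x) = (b ^ n) (a x) := by
  induction n with
  | zero => intro x _; rfl
  | succ n ih =>
    intro x hx
    rw [pow_succ, Module.End.mul_apply, Module.End.mul_apply, ih _ (seleis_tors_apply b hx),
      h x hx]

/-- **the Eisenstein projector, abstract form** -/
theorem seleis_exists_proj (t : ι → Module.End ℤ J) (M : ℕ)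
    (hfin : {x : J | M • x = 0}.Finite)
    (hG : ∀ (i : ι) (σ : G) (x : J), t i (σ • x) = σ • t i x)
    (hcomm : ∀ (i j : ι) (x : J), M • x = 0 → t i (t j x) = t j (t i x))
    (cr : J) (hcr : ∀ i : ι, t i cr = 0) (F : Finset ι) :
    ∃ E : Module.End ℤ J, (∀ (σ : G) (x : J), E (σ • x) = σ • E x) ∧ E cr = cr ∧
      (∀ i ∈ F, ∀ x : J, M • x = 0 → ∃ m : ℕ, (t i ^ m) (E x) = 0) ∧
      (∀ (j : ι) (x : J), M • x = 0 → t j (E x) = E (t j x)) ∧
      E ∈ Algebra.adjoin ℤ (Set.range t) := by
  classical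
  induction F using Finset.induction_on with
  | empty =>
    exact ⟨1, fun _ _ => rfl, rfl, fun i hi => absurd hi (Finset.notMem_empty i),
      fun _ _ _ => rfl, Subalgebra.one_mem _⟩
  | insert q F _ ih =>
    obtain ⟨E, hEG, hEcr, hEF, hEc, hEadj⟩ := ih
    obtain ⟨n, hn, hidem⟩ := seleis_exists_idem (t q) M hfin
    -- powers of `t q` commute with `G`
    have hGpow : ∀ (m : ℕ) (σ : G) (x : J), (t q ^ m) (σ • x) = σ • (t q ^ m) x := by
      intro m
      induction m with
      | zero => intro σ x; rfl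
      | succ m ihm =>
        intro σ x
        rw [pow_succ, Module.End.mul_apply, Module.End.mul_apply, hG, ihm]
    have hcrpow : (t q ^ n) cr = 0 := by
      obtain ⟨n', rfl⟩ : ∃ n', n = n' + 1 := ⟨n - 1, by omega⟩
      rw [pow_succ, Module.End.mul_apply, hcr, map_zero]
    -- `t j` commutes with `(t q) ^ n` on the torsion
    have hcq : ∀ (j : ι) (x : J), M • x = 0 → t j ((t q ^ n) x) = (t q ^ n) (t j x) :=
      fun j => seleis_comm_pow (t j) (t q) M (hcomm j q) n
    refine ⟨(1 - t q ^ n) * E, ?_, ?_, ?_, ?_, ?_⟩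
    · intro σ x
      rw [Module.End.mul_apply, Module.End.mul_apply, hEG, LinearMap.sub_apply,
        LinearMap.sub_apply, Module.End.one_apply, Module.End.one_apply, hGpow, smul_sub]
    · rw [Module.End.mul_apply, hEcr, LinearMap.sub_apply, Module.End.one_apply, hcrpow, sub_zero]
    · intro i hi x hx
      have hEx : M • E x = 0 := seleis_tors_apply E hx
      rcases Finset.mem_insert.1 hi with rfl | hi
      · refine ⟨n, ?_⟩
        rw [Module.End.mul_apply, LinearMap.sub_apply, Module.End.one_apply, map_sub,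
          hidem _ hEx, sub_self]
      · obtain ⟨m, hm⟩ := hEF i hi x hx
        refine ⟨m, ?_⟩
        rw [Module.End.mul_apply, LinearMap.sub_apply, Module.End.one_apply, map_sub, hm]
        -- `(t i) ^ m` commutes with `(t q) ^ n` on the torsion
        have h1 : (t i ^ m) ((t q ^ n) (E x)) = (t q ^ n) ((t i ^ m) (E x)) := by
          have := seleis_comm_pow (t q ^ n) (t i) M (fun y hy => (hcq i y hy).symm) m (E x) hEx
          exact this.symm
        rw [h1, hm, map_zero, sub_zero]
    · intro j x hx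
      have hEx : M • E x = 0 := seleis_tors_apply E hx
      rw [Module.End.mul_apply, Module.End.mul_apply, LinearMap.sub_apply,
        LinearMap.sub_apply, Module.End.one_apply, Module.End.one_apply, map_sub, hcq j _ hEx,
        hEc j x hx]
    · exact Subalgebra.mul_mem _ (Subalgebra.sub_mem _ (Subalgebra.one_mem _)
        (Subalgebra.pow_mem _ (Algebra.subset_adjoin (Set.mem_range_self q)) n)) hEadj

/-- finitely many operators cut out the common generalised kernel in the finite group `J[M]` -/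
theorem seleis_exists_finset (t : ι → Module.End ℤ J) (M : ℕ)
    (hfin : {x : J | M • x = 0}.Finite) :
    ∃ F : Finset ι, ∀ x : J, M • x = 0 → (∀ i ∈ F, ∃ m : ℕ, (t i ^ m) x = 0) →
      ∀ i : ι, ∃ m : ℕ, (t i ^ m) x = 0 := by
  classical
  let S : Finset J := hfin.toFinset.filter (fun x => ¬ ∀ i : ι, ∃ m : ℕ, (t i ^ m) x = 0)
  have wit : ∀ x ∈ S, ∃ i : ι, ¬ ∃ m : ℕ, (t i ^ m) x = 0 := fun x hx =>
    not_forall.1 (Finset.mem_filter.1 hx).2
  refine ⟨S.attach.image (fun x : {x // x ∈ S} => (wit x.1 x.2).choose), fun x hx hF => ?_⟩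
  by_contra hbad
  have hxS : x ∈ S := Finset.mem_filter.2 ⟨hfin.mem_toFinset.2 hx, hbad⟩
  apply (wit x hxS).choose_spec
  exact hF _ (Finset.mem_image.2 ⟨⟨x, hxS⟩, Finset.mem_attach _ _, rfl⟩)

end proj

end Fermat.Agent.S15


end ZBZ2S15_043_0

/-! ### bundled: `Fermat.Agent.S15.SelEisProj` -/
section ZBZ2S15_043_1

/-!
# S15 / SELMER block, piece SEL-EIS (b): the Eisenstein projector

`stmtSelEisProj : StmtSelEisProj`: for every `k` there is a `G_ℚ`-equivariant endomorphism `E` of
`J₀(N)` (a polynomial in the Hecke operators `T_q`, `q ∤ N r`) with `E cr = cr` and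
`E (J[r^k]) ⊂ selEisPart N r k`.

Construction: `S_q := T_q - (1 + q)`.  On the finite group `V = J[r^k]` some power `S_q ^ m`,
`m ≥ 1`, is idempotent, the `T_q` commute on `V` (`seleisp_comm`, from the Eichler–Shimura
relation `T_q = τ + q τ⁻¹` on `V`), and finitely many `q` cut out the Eisenstein part.
`E := ∏ (1 - S_q ^ m_q)`; the abstract part is `SelEisProjAbs.lean` (helper72).
-/

set_option autoImplicit false
set_option linter.style.haveILetI false

noncomputable section

namespace Fermat.Agent.S15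

open ModularCurve AlgebraicCurve
open Fermat.Agent.S24 Fermat.Agent.W1

/-- **SEL-EIS (b)**: the projector. -/
def StmtSelEisProj : Prop :=
  ∀ (N : ℕ) [NeZero N] (r : ℕ), N.Prime → r.Prime → r ≠ N →
    ∀ cr : JZero N, cr ≠ 0 → r • cr = 0 → (∃ n : ℕ, cr = n • cuspClass N) →
    ∀ k : ℕ, ∃ E : JZero N →+ JZero N, (∀ (σ : GalQ) (x : JZero N), E (σ • x) = σ • E x) ∧
      E cr = cr ∧ ∀ x : JZero N, r ^ k • x = 0 → E x ∈ selEisPart N r k

/-! ## The Hecke operators on `J[r^k]` -/

section Hecke

variable (N r k : ℕ) [NeZero N]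

omit [NeZero N] in
theorem seleisp_tors (f : Module.End ℤ (JZero N)) {x : JZero N} (hx : r ^ k • x = 0) :
    r ^ k • f x = 0 := by
  rw [← map_nsmul, hx, map_zero]

omit [NeZero N] in
theorem seleisp_gal_nsmul (σ : GalQ) (n : ℕ) (x : JZero N) : σ • (n • x) = n • (σ • x) :=
  map_nsmul (DistribSMul.toAddMonoidHom (JZero N) σ) n x

omit [NeZero N] in
theorem seleisp_gal_zsmul (σ : GalQ) (n : ℤ) (x : JZero N) : σ • (n • x) = n • (σ • x) :=
  map_zsmul (DistribSMul.toAddMonoidHom (JZero N) σ) n x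

omit [NeZero N] in
theorem seleisp_tors_smul (σ : GalQ) {x : JZero N} (hx : r ^ k • x = 0) :
    r ^ k • (σ • x) = 0 := by
  rw [← seleisp_gal_nsmul, hx]
  exact smul_zero (A := JZero N) σ

/-- Eichler–Shimura on `J[r^k]`: `T_q = τ + q τ⁻¹`. -/
theorem seleisp_hecke_eq (q : Nat.Primes) (hq : ¬ (q : ℕ) ∣ N * r)
    (A : ValuationSubring Kb) (hA : A.LiesOverPrime q) (τ : GalQ)
    (hτ : A.IsFrobeniusAt τ q) {x : JZero N} (hx : r ^ k • x = 0) :
    heckeOperatorBar N q x = τ • x + (q : ℕ) • (τ⁻¹ • x) := by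
  have h := esk_frob N r q q.2 hq A hA τ hτ k (τ⁻¹ • x) (seleisp_tors_smul N r k τ⁻¹ hx)
  rw [smul_inv_smul] at h
  have h2 : τ • x + (q : ℕ) • (τ⁻¹ • x) - heckeOperatorBar N q x = 0 := by
    rw [← h]
    abel
  exact (sub_eq_zero.mp h2).symm

/-- the Hecke operators commute on `J[r^k]` -/
theorem seleisp_comm (q q' : Nat.Primes) (hq : ¬ (q : ℕ) ∣ N * r) {x : JZero N}
    (hx : r ^ k • x = 0) :
    heckeOperatorBar N q (heckeOperatorBar N q' x)
      = heckeOperatorBar N q' (heckeOperatorBar N q x) := by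
  obtain ⟨A, hA⟩ := Fermat.Agent.Common.exists_liesOverPrime q q.2
  obtain ⟨τ, hτ⟩ := Fermat.Agent.Common.exists_isFrobeniusAt_of_liesOverPrime q q.2 A hA
  rw [seleisp_hecke_eq N r k q hq A hA τ hτ (seleisp_tors N r k (heckeOperatorBar N q') hx),
    seleisp_hecke_eq N r k q hq A hA τ hτ hx, map_add, map_nsmul,
    esk_galois_hecke N τ q' x, esk_galois_hecke N τ⁻¹ q' x]

omit [NeZero N] in
/-- shifting commuting operators by scalars -/
theorem seleisp_comm_shift (a b : Module.End ℤ (JZero N)) (m n : ℤ) (x : JZero N)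
    (h : a (b x) = b (a x)) :
    (a - m • (1 : Module.End ℤ (JZero N))) ((b - n • (1 : Module.End ℤ (JZero N))) x)
      = (b - n • (1 : Module.End ℤ (JZero N))) ((a - m • (1 : Module.End ℤ (JZero N))) x) := by
  simp only [LinearMap.sub_apply, LinearMap.smul_apply, Module.End.one_apply, map_sub,
    map_zsmul, h]
  rw [zsmul_sub, zsmul_sub, ← mul_zsmul, ← mul_zsmul, mul_comm m n]
  abel

/-- the operators `S_q` commute on `J[r^k]` -/
theorem seleisp_comm_op (q q' : Nat.Primes) (hq : ¬ (q : ℕ) ∣ N * r) {x : JZero N}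
    (hx : r ^ k • x = 0) :
    selEisOp N q (selEisOp N q' x) = selEisOp N q' (selEisOp N q x) :=
  seleisp_comm_shift N _ _ _ _ x (seleisp_comm N r k q q' hq hx)

/-- `S_q` kills the multiples of the cuspidal class -/
theorem seleisp_op_cusp (hN : N.Prime) (q : Nat.Primes) (hq : ¬ (q : ℕ) ∣ N * r) (n : ℕ) :
    selEisOp N q (n • cuspClass N) = 0 := by
  have hqN : (q : ℕ) ≠ N := fun h => hq (h ▸ dvd_mul_right _ _)
  have h := tj_hecke_cuspClass_prime hN q hqN
  rw [map_nsmul]
  simp only [selEisOp, LinearMap.sub_apply, LinearMap.smul_apply, Module.End.one_apply]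
  rw [h, natCast_zsmul, sub_self, smul_zero]

/-- `S_q` commutes with the Galois action -/
theorem seleisp_op_galois (q : Nat.Primes) (σ : GalQ) (x : JZero N) :
    selEisOp N q (σ • x) = σ • selEisOp N q x := by
  simp only [selEisOp, LinearMap.sub_apply, LinearMap.smul_apply, Module.End.one_apply]
  rw [← esk_galois_hecke N σ q x, smul_sub, seleisp_gal_zsmul]

end Hecke

/-! ## The projector -/

/-- **SEL-EIS (b)**: the Eisenstein projector exists. -/
theorem stmtSelEisProj : StmtSelEisProj := by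
  intro N _ r hN hr hrN cr _ _ hcrn k
  obtain ⟨n, rfl⟩ := hcrn
  have hrk : r ^ k ≠ 0 := pow_ne_zero _ hr.ne_zero
  have hfin : {x : JZero N | r ^ k • x = 0}.Finite := esk_finite N (r ^ k) hrk
  let ι : Type := {q : Nat.Primes // ¬ (q : ℕ) ∣ N * r}
  let t : ι → Module.End ℤ (JZero N) := fun q => selEisOp N q.1
  obtain ⟨F, hF⟩ := seleis_exists_finset t (r ^ k) hfin
  obtain ⟨E, hEG, hEcr, hEF, -, -⟩ := seleis_exists_proj (G := GalQ) t (r ^ k) hfin
    (fun q σ x => seleisp_op_galois N q.1 σ x)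
    (fun q q' x hx => seleisp_comm_op N r k q.1 q'.1 q.2 hx)
    (n • cuspClass N) (fun q => seleisp_op_cusp N r hN q.1 q.2 n) F
  refine ⟨E.toAddMonoidHom, fun σ x => hEG σ x, hEcr, fun x hx => ?_⟩
  refine mem_selEisPart.2 ⟨seleisp_tors N r k E hx, fun q hq => ?_⟩
  exact hF (E x) (seleisp_tors N r k E hx) (fun i hi => hEF i hi x hx) ⟨q, hq⟩

end Fermat.Agent.S15

end
end ZBZ2S15_043_1

/-! ### bundled: `Fermat.Agent.S15.SelEisFinal` -/
section ZBZ2S15_043_2
/-
S15 / SELMER block, piece **SEL-EIS**: `stmtSelEis : StmtSelEis` (helper72), from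
(a) `stmtSelEisChain` (`S15/SelEis.lean`, helper72) and (b) `stmtSelEisProj`
(`S15/SelEisProj.lean`, helper12).
-/

set_option autoImplicit false

noncomputable section

namespace Fermat.Agent.S15

open ModularCurve AlgebraicCurve
open Fermat.Agent.S24 Fermat.Agent.W1

/-- glue of the two halves of SEL-EIS -/
theorem stmtSelEis_of (ha : StmtSelEisChain) (hb : StmtSelEisProj) : StmtSelEis := by
  intro N _ r hN hr hrN cr hcr0 hcr hcrn k
  obtain ⟨L, W, hW0, hWL, hstep⟩ := ha N r hN hr hrN k
  obtain ⟨E, hE1, hE2, hE3⟩ := hb N r hN hr hrN cr hcr0 hcr hcrn k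
  exact ⟨⟨E, L, W⟩, ⟨hE1, hE2, hE3, hW0, hWL, hstep⟩⟩

/-- **SEL-EIS** -/
theorem stmtSelEis : StmtSelEis := stmtSelEis_of stmtSelEisChain stmtSelEisProj

end Fermat.Agent.S15

end
end ZBZ2S15_043_2

/-! ### bundled: `Fermat.Agent.S15.SelFinal` -/
section ZBZ2S15_043_3

/-!
# S15 / SELMER block: the assembly

What is proved unconditionally in the block is plugged in here, so that the interface of the
block towards `Plan.lean` / `Top.lean` is

* `stmtFinCoreOdd_of_eis_cnt : StmtSelEis → StmtSelCntOddCr → StmtFinCoreOdd`,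
* `stmtFin_of_core : StmtFinCore → StmtFin`,
* `stmtFin_of_parts : StmtSelEis → StmtSelCntOddCr → StmtFinCoreTwo → StmtFin`,
* `stmtFin_of_cnt : StmtSelCntOddCr → StmtFinCoreTwo → StmtFin` (with `stmtSelEis`, helper72).

Open inputs: `StmtSelCntOddCr` (the count, TORIC × REAL) and `StmtFinCoreTwo` (`r = 2`).
-/

set_option autoImplicit false

namespace Fermat.Agent.S15

open ModularCurve AlgebraicCurve
open Fermat.Agent.S24 Fermat.Agent.W1

/-- the descent for odd `r`, from the composition series and the count -/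
theorem stmtFinCoreOdd_of_eis_cnt (hE : StmtSelEis) (hC : StmtSelCntOddCr) : StmtFinCoreOdd :=
  stmtFinCoreOdd_of_cr stmtSelLocR hE hC stmtFinRed (stmtSelArEt_of stmtSelLQ) stmtSelArConnOdd
    stmtSelArTrivEt stmtSelArCycConn

/-- `StmtFin` of `Plan.lean` is `StmtFinCore` -/
theorem stmtFin_of_core (h : StmtFinCore) : StmtFin := by
  intro p _ hp r hr hrp cr hcr0 hrcr hcrc A hA w hw hdiv
  refine h p hp r hr hrp cr hcr0 hrcr hcrc A hA w hw (fun k => ?_)
  obtain ⟨y, hy, hyw⟩ := hdiv k
  exact ⟨y, mem_selIF.2 hy, hyw⟩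

/-- **SELMER block, assembled**: `StmtFin` from the three open inputs -/
theorem stmtFin_of_parts (hE : StmtSelEis) (hC : StmtSelCntOddCr) (h2 : StmtFinCoreTwo) :
    StmtFin :=
  stmtFin_of_core (stmtFinCore_of_cases (stmtFinCoreOdd_of_eis_cnt hE hC) h2)

/-- the descent for odd `r`, from the count -/
theorem stmtFinCoreOdd_of_cnt (hC : StmtSelCntOddCr) : StmtFinCoreOdd :=
  stmtFinCoreOdd_of_eis_cnt stmtSelEis hC

/-- **SELMER block, assembled**: `StmtFin` from the two open inputs -/
theorem stmtFin_of_cnt (hC : StmtSelCntOddCr) (h2 : StmtFinCoreTwo) : StmtFin :=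
  stmtFin_of_parts stmtSelEis hC h2

end Fermat.Agent.S15


end ZBZ2S15_043_3

/-! ### bundled: `Fermat.Agent.S15.SelTopTwoFinal` -/
section ZBZ2S15_043_4

/-!
# S15 / SELMER block: `StmtFinCoreTwo` from the count `(CNT*)` ("G-two")

* `stmtFinCoreTwo_of : StmtSelEis → StmtFinRed → StmtSelCntStar → StmtFinCoreTwo`;
* `stmtFinCoreTwo_of_star : StmtSelCntStar → StmtFinCoreTwo` (with `stmtSelEis`, `stmtFinRed`).
-/

set_option autoImplicit false

noncomputable section

namespace Fermat.Agent.S15

open ModularCurve AlgebraicCurve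
open Fermat.Agent.S24 Fermat.Agent.W1

/-- **G-two**: the descent at `2` from the uniform count. -/
theorem stmtFinCoreTwo_of (hEis : StmtSelEis) (hFR : StmtFinRed) (hCnt : StmtSelCntStar) :
    StmtFinCoreTwo := by
  intro N _ hNM cr hcr0 hrcr hcrc AN hAN w hw hdiv
  have h2N : 2 ≠ N := by
    intro h
    have := hNM.2
    rw [← h] at this
    simp at this
  exact seltoptwo_core_cc hEis hFR N hNM (selFixC N) (fun _ => mem_selFixC) AN hAN
    (hCnt N 2 hNM.1 Nat.prime_two h2N AN hAN) cr hcr0 hrcr hcrc w hw hdiv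

/-- **G-two**, with the unconditional inputs plugged in. -/
theorem stmtFinCoreTwo_of_star (hCnt : StmtSelCntStar) : StmtFinCoreTwo :=
  stmtFinCoreTwo_of stmtSelEis stmtFinRed hCnt

end Fermat.Agent.S15

end
end ZBZ2S15_043_4

/-! ### bundled: `Fermat.Agent.S15.SelFinalStar` -/
section ZBZ2S15_043_5

/-!
# S15 / SELMER block: `StmtFin` from the uniform count `(CNT*)`

`stmtFin_of_star : StmtSelCntStar → StmtFin`: the whole SELMER block (`Plan.StmtFin`) from
`(CNT*) = TORIC × REAL` alone.  G-odd is `stmtSelCntOddCr_of` (helper47), G-two is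
`stmtFinCoreTwo_of_star`.
-/

set_option autoImplicit false

namespace Fermat.Agent.S15

/-- the descent for all `r` from the uniform count -/
theorem stmtFinCore_of_star (h : StmtSelCntStar) : StmtFinCore :=
  stmtFinCore_of_cases
    (stmtFinCoreOdd_of_cnt (stmtSelCntOddCr_of h stmtSelArTrivEt stmtSelEis))
    (stmtFinCoreTwo_of_star h)

/-- **SELMER block**: `StmtFin` from `(CNT*)` -/
theorem stmtFin_of_star (h : StmtSelCntStar) : StmtFin :=
  stmtFin_of_core (stmtFinCore_of_star h)

end Fermat.Agent.S15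


end ZBZ2S15_043_5
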