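/- GENERATED FILE (helper35, build-time optimisation, NOTES/ZB.md): verbatim concatenation of the modules
   Fermat.Agent.S15.RealCj
   Fermat.Agent.S15.RealConj
   Fermat.Agent.S15.RealFinal
   Fermat.Agent.S15.FinalWire
   Do not edit; do not import together with these modules. -/
import Fermat.Agent.ZB.S20_001
import Fermat.Agent.ZB.S24_003
import Fermat.Prelude.Def_ModularCurve_PeriodHomPair
import Fermat.Prelude.Def_ModularCurve_X0ModL
import Fermat.Agent.ZB.Z2S15_045
import Fermat.Agent.ZB.Z2S15_036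
import Fermat.Agent.ZB.Z2S15_004
import Fermat.Agent.ZB.Z2S15_005
import Fermat.Agent.ZB.Z2S15_012
import Fermat.Agent.ZB.Z2S15_018
import Fermat.Agent.ZB.Z2S15_027
import Fermat.Agent.ZB.Z2S15_029
import Fermat.Agent.ZB.Z2S15_032
import Fermat.Agent.ZB.Z2W1_003
import Fermat.Agent.ZB.Z2S15_043
import Fermat.Agent.ZB.UNIP_035

/-! ### bundled: `Fermat.Agent.S15.RealCj` -/
section ZBZ2S15_048_0

/-!
# S15 / SEL-CNT / REAL-CONJ, part 1: the conjugation `f ↦ (τ ↦ conj (f (-τ̄)))` on functions on `ℍ`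

`realCj f = f ∣[k] J` (`J = diag(-1, 1)`, Mathlib's slash action of `GL(2, ℝ)`).

* `realCj_mdiff`, `realCj_bdd`, `realCj_isHPB` : it preserves holomorphy, boundedness at `i∞`,
  periodicity;
* `real_J_smul_SL` : `J (γ τ) = (j γ) (J τ)` with `j = jConjSL`;
* `realCj_qExpansion` : the `q`-expansion of `realCj f` is the conjugate of that of `f`;
* `realCj_discriminant` : `realCj Δ = Δ`;
* `realCj_isMF`, `realCj_isModFun` : it preserves the modular forms and the modular functions of
  level `Γ₀(N)`;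
* `laurentOf_realCj` : `laurentOf (realCj f) = coeffMap conj (laurentOf f)`.
-/

set_option autoImplicit false

noncomputable section

open UpperHalfPlane ModularForm CongruenceSubgroup ModularCurve.Period
open Fermat.Agent.S23 Fermat.Agent.S28
open scoped MatrixGroups Manifold ComplexConjugate ModularForm

namespace Fermat.Agent.S15

local notation "Δ" => ModularForm.discriminant

/-- `f ↦ (τ ↦ conj (f (-τ̄)))` -/
def realCj (f : ℍ → ℂ) : ℍ → ℂ := fun τ => conj (f (J • τ))

theorem realCj_apply (f : ℍ → ℂ) (τ : ℍ) : realCj f τ = conj (f (J • τ)) := rfl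

theorem realCj_eq_slash (f : ℍ → ℂ) (k : ℤ) : realCj f = f ∣[k] J := by
  funext τ
  have h : ¬ ((1 : ℝ) < 0) := by norm_num
  simp [realCj, ModularForm.slash_def, σ, h]

theorem realCj_mdiff {f : ℍ → ℂ} (hf : MDiff f) : MDiff (realCj f) := by
  rw [realCj_eq_slash f 0]
  exact hf.slash 0 J

theorem real_J_smul_J_smul (τ : ℍ) : J • (J • τ) = τ := by
  rw [← mul_smul, ← sq, J_sq, one_smul]

theorem realCj_realCj (f : ℍ → ℂ) : realCj (realCj f) = f := by
  funext τ
  rw [realCj_apply, realCj_apply, real_J_smul_J_smul, Complex.conj_conj]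

theorem realCj_mul (f g : ℍ → ℂ) :
    realCj (fun τ => f τ * g τ) = fun τ => realCj f τ * realCj g τ := by
  funext τ
  simp only [realCj_apply, map_mul]

theorem realCj_pow (f : ℍ → ℂ) (n : ℕ) :
    realCj (fun τ => f τ ^ n) = fun τ => realCj f τ ^ n := by
  funext τ
  simp only [realCj_apply, map_pow]

theorem realCj_eq_zero_iff (f : ℍ → ℂ) : realCj f = 0 ↔ f = 0 := by
  constructor
  · intro h
    rw [← realCj_realCj f, h]
    funext τ
    simp [realCj_apply]
  · rintro rfl
    funext τ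
    simp [realCj_apply]

theorem real_im_J_smul (τ : ℍ) : (J • τ).im = τ.im := by
  have h := coe_J_smul τ
  have h2 : ((J • τ : ℍ) : ℂ).im = (τ : ℂ).im := by
    rw [h]
    simp
  exact h2

theorem realCj_bdd {f : ℍ → ℂ} (hf : IsBoundedAtImInfty f) : IsBoundedAtImInfty (realCj f) := by
  rw [isBoundedAtImInfty_iff] at hf ⊢
  obtain ⟨M, A, h⟩ := hf
  refine ⟨M, A, fun z hz => ?_⟩
  rw [realCj_apply, RCLike.norm_conj]
  exact h _ (by rw [real_im_J_smul]; exact hz)

theorem real_J_mul_SL (γ : SL(2, ℤ)) :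
    J * (Matrix.SpecialLinearGroup.mapGL ℝ γ : GL (Fin 2) ℝ) =
      (Matrix.SpecialLinearGroup.mapGL ℝ (jConjSL γ) : GL (Fin 2) ℝ) * J := by
  apply Units.ext
  ext i j
  fin_cases i <;> fin_cases j <;>
    simp [Matrix.mul_apply, Fin.sum_univ_two, jConjMat]

/-- `J (γ τ) = (j γ) (J τ)` -/
theorem real_J_smul_SL (γ : SL(2, ℤ)) (τ : ℍ) : J • (γ • τ) = jConjSL γ • (J • τ) := by
  show J • ((Matrix.SpecialLinearGroup.mapGL ℝ γ : GL (Fin 2) ℝ) • τ) =
    (Matrix.SpecialLinearGroup.mapGL ℝ (jConjSL γ) : GL (Fin 2) ℝ) • (J • τ)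
  rw [← mul_smul, ← mul_smul, real_J_mul_SL]

theorem realCj_smul (f : ℍ → ℂ) (γ : SL(2, ℤ)) (τ : ℍ) :
    realCj f (γ • τ) = conj (f (jConjSL γ • (J • τ))) := by
  rw [realCj_apply, real_J_smul_SL]

/-! ## Periodicity and `q`-expansions -/

theorem real_J_ofComplex {z : ℂ} (hz : 0 < z.im) : J • ofComplex z = ofComplex (-conj z) := by
  rw [J_smul, ofComplex_apply_of_im_pos hz]

theorem realCj_periodic {f : ℍ → ℂ} (hf : Function.Periodic (f ∘ ofComplex) 1) :
    Function.Periodic (realCj f ∘ ofComplex) 1 := by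
  intro z
  simp only [Function.comp_apply, realCj_apply]
  by_cases hz : 0 < z.im
  · have hz1 : 0 < (z + 1).im := by simpa using hz
    rw [real_J_ofComplex hz, real_J_ofComplex hz1]
    have h1 := hf (-conj (z + 1))
    simp only [Function.comp_apply] at h1
    have e : -conj (z + 1) + 1 = -conj z := by
      simp only [map_add, map_one]
      ring
    rw [e] at h1
    rw [h1]
  · have hz1 : ¬ 0 < (z + 1).im := by simpa using hz
    rw [ofComplex_apply_of_im_nonpos (not_lt.1 hz), ofComplex_apply_of_im_nonpos (not_lt.1 hz1)]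

theorem realCj_isHPB {f : ℍ → ℂ} (hf : IsHPB f) : IsHPB (realCj f) :=
  ⟨realCj_mdiff hf.1, realCj_periodic hf.2.1, realCj_bdd hf.2.2⟩

theorem real_conj_qParam (τ : ℍ) : conj (Function.Periodic.qParam 1 ((J • τ : ℍ) : ℂ)) = Function.Periodic.qParam 1 (τ : ℂ) := by
  rw [coe_J_smul]
  simp only [Function.Periodic.qParam]
  rw [← Complex.exp_conj]
  congr 1
  simp only [map_mul, map_div₀, map_neg, Complex.conj_conj, Complex.conj_I, map_ofNat,
    Complex.conj_ofReal, map_one, Complex.ofReal_one]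
  ring

/-- uniqueness of the `q`-expansion coefficients, for plain functions -/
theorem real_qExpansion_coeff_unique {f : ℍ → ℂ} {c : ℕ → ℂ}
    (hfanalytic : AnalyticAt ℂ (cuspFunction 1 f) 0)
    (hf : ∀ τ : ℍ, HasSum (fun m ↦ c m • Function.Periodic.qParam 1 (τ : ℂ) ^ m) (f τ)) (m : ℕ) :
    c m = (qExpansion 1 f).coeff m := by
  let _ : FunLike (ℍ → ℂ) ℍ ℂ := ⟨id, fun _ _ h => h⟩
  exact UpperHalfPlane.qExpansion_coeff_unique (F := ℍ → ℂ) f one_pos hfanalytic hf m

theorem realCj_qExpansion {f : ℍ → ℂ} (hf : IsHPB f) :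
    qExpansion 1 (realCj f) = (qExpansion 1 f).map (starRingEnd ℂ) := by
  ext m
  rw [PowerSeries.coeff_map]
  symm
  refine real_qExpansion_coeff_unique (realCj_isHPB hf).analyticAt
    (c := fun m => conj ((qExpansion 1 f).coeff m)) (fun τ => ?_) m
  have h1 := (hasSum_qExpansion one_pos hf.2.1 hf.1 hf.2.2 (J • τ)).star
  have e : (fun m : ℕ => star ((qExpansion 1 f).coeff m • Function.Periodic.qParam 1 ((J • τ : ℍ) : ℂ) ^ m)) =
      fun m : ℕ => conj ((qExpansion 1 f).coeff m) • Function.Periodic.qParam 1 (τ : ℂ) ^ m := by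
    funext m
    rw [smul_eq_mul, smul_eq_mul]
    show conj ((qExpansion 1 f).coeff m * Function.Periodic.qParam 1 ((J • τ : ℍ) : ℂ) ^ m) = _
    rw [map_mul, map_pow, real_conj_qParam]
  rw [e] at h1
  exact h1

theorem real_eq_of_qExpansion_eq {f g : ℍ → ℂ} (hf : IsHPB f) (hg : IsHPB g)
    (h : qExpansion 1 f = qExpansion 1 g) : f = g := by
  funext τ
  have h1 := hasSum_qExpansion one_pos hf.2.1 hf.1 hf.2.2 τ
  have h2 := hasSum_qExpansion one_pos hg.2.1 hg.1 hg.2.2 τ
  rw [h] at h1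
  exact h1.unique h2

/-! ## The discriminant -/

theorem real_coeffMap_deltaL : ModularCurve.coeffMap (starRingEnd ℂ) deltaL = deltaL := by
  rw [deltaL, map_mul, ModularCurve.coeffMap_ofPowerSeries]
  congr 1
  · ext k
    rw [ModularCurve.coeffMap_coeff]
    by_cases hk : k = 1
    · subst hk
      simp
    · rw [HahnSeries.coeff_single_of_ne hk, map_zero]
  · congr 1
    ext n
    rw [PowerSeries.coeff_map, PowerSeries.coeff_map]
    simp

theorem real_qExpansion_discriminant_conj :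
    (qExpansion 1 (Δ : ℍ → ℂ)).map (starRingEnd ℂ) = qExpansion 1 (Δ : ℍ → ℂ) := by
  apply HahnSeries.ofPowerSeries_injective (Γ := ℤ)
  rw [← ModularCurve.coeffMap_ofPowerSeries, bridge_ofPowerSeries_discriminant,
    real_coeffMap_deltaL]

/-- `Δ` has real `q`-expansion coefficients -/
theorem realCj_discriminant : realCj (Δ : ℍ → ℂ) = Δ :=
  real_eq_of_qExpansion_eq (realCj_isHPB bridge_isHPB_discriminant) bridge_isHPB_discriminant
    (by rw [realCj_qExpansion bridge_isHPB_discriminant, real_qExpansion_discriminant_conj])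

/-! ## Modular forms and modular functions of level `Γ₀(N)` -/

theorem real_conj_mapGL (γ : SL(2, ℤ)) :
    J * (Matrix.SpecialLinearGroup.mapGL ℝ γ : GL (Fin 2) ℝ) * J⁻¹ =
      (Matrix.SpecialLinearGroup.mapGL ℝ (jConjSL γ) : GL (Fin 2) ℝ) := by
  rw [real_J_mul_SL, mul_assoc, mul_inv_cancel, mul_one]

open ConjAct Pointwise in
theorem real_conj_G0 (N : ℕ) : toConjAct (J⁻¹ : GL (Fin 2) ℝ) • G0 N = G0 N := by
  ext g
  rw [Subgroup.mem_pointwise_smul_iff_inv_smul_mem, ← map_inv, inv_inv, ConjAct.toConjAct_smul]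
  constructor
  · rintro ⟨γ, hγ, hg⟩
    refine ⟨jConjSL γ, jConjSL_mem_Gamma0 hγ, ?_⟩
    rw [← real_conj_mapGL, hg]
    have hJ : (J : GL (Fin 2) ℝ) * J = 1 := by rw [← sq, J_sq]
    have hJi : (J⁻¹ : GL (Fin 2) ℝ) = J := inv_eq_of_mul_eq_one_right hJ
    rw [hJi]
    calc J * (J * g * J) * J = (J * J) * g * (J * J) := by group
      _ = g := by rw [hJ, one_mul, mul_one]
  · rintro ⟨γ, hγ, rfl⟩
    exact ⟨jConjSL γ, jConjSL_mem_Gamma0 hγ, (real_conj_mapGL γ).symm⟩

theorem realCj_isMF {N : ℕ} {k : ℤ} {F : ℍ → ℂ} (h : IsMF (G0 N) k F) :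
    IsMF (G0 N) k (realCj F) := by
  obtain ⟨f, rfl⟩ := h
  have key : ∀ (Γ' : Subgroup (GL (Fin 2) ℝ)), Γ' = G0 N → ∀ g : ModularForm Γ' k,
      IsMF (G0 N) k ⇑g := by
    intro Γ' hΓ g
    subst hΓ
    exact ⟨g, rfl⟩
  have h1 := key _ (real_conj_G0 N) (ModularForm.translate f J)
  rwa [ModularForm.coe_translate, ← realCj_eq_slash] at h1

theorem realCj_mul_discriminant_pow (f : ℍ → ℂ) (m : ℕ) :
    realCj (fun z => f z * Δ z ^ m) = fun z => realCj f z * Δ z ^ m := by
  funext z
  have h := congrFun realCj_discriminant z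
  simp only [realCj_apply] at h ⊢
  rw [map_mul, map_pow, h]

theorem realCj_isModFun {N : ℕ} {f : ℍ → ℂ} (h : IsModFun N f) : IsModFun N (realCj f) := by
  obtain ⟨m, hm⟩ := h
  refine ⟨m, ?_⟩
  have := realCj_isMF hm
  rwa [realCj_mul_discriminant_pow] at this

/-! ## The Laurent expansion -/

theorem laurentOf_realCj {f : ℍ → ℂ} (hf : IsMerInf f) :
    laurentOf (realCj f) = ModularCurve.coeffMap (starRingEnd ℂ) (laurentOf f) := by
  obtain ⟨m, hm⟩ := hf
  have hm' : IsHPB (fun z => realCj f z * Δ z ^ m) := by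
    have := realCj_isHPB hm
    rwa [realCj_mul_discriminant_pow] at this
  rw [laurentOf_eq hm', laurentOf_eq hm, map_mul, map_inv₀, map_pow, real_coeffMap_deltaL,
    ModularCurve.coeffMap_ofPowerSeries, ← realCj_qExpansion hm, realCj_mul_discriminant_pow]

end Fermat.Agent.S15

end
end ZBZ2S15_048_0

/-! ### bundled: `Fermat.Agent.S15.RealConj` -/
section ZBZ2S15_048_1

/-!
# S15 / SEL-CNT / REAL-CONJ (MuConj): the multiplier of `c • x`

`c` the complex conjugation of `ℚ̄` (`embC ∘ c = conj ∘ embC`).  If `u` is a Kummer function of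
`x ∈ J₀(N)[n]`, analytically `u = a / g`, and `w = R.a / R.g` an `n`-th root with multiplier `χ`,
then `c u` is a Kummer function of `c • x`, analytically `c u = realCj a / realCj g`, and
`realCj R.a / realCj R.g` is an `n`-th root with multiplier `conj ∘ χ ∘ j`.

* `stmtRealConj : StmtRealConj`.
-/

set_option autoImplicit false

noncomputable section

open UpperHalfPlane ModularForm CongruenceSubgroup ModularCurve ModularCurve.Period AlgebraicCurve
open Fermat.Agent.S23 Fermat.Agent.S24 Fermat.Agent.S28 Fermat.Agent.W1 Fermat.Agent.ES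
open scoped MatrixGroups Manifold ComplexConjugate ModularForm

namespace Fermat.Agent.S15

/-- `embC ∘ c = conj ∘ embC` -/
theorem real_embC_conj (x : Kb) :
    embC ((complexConjugation : GalQ) x) = conj (embC x) :=
  complexEmbedding_complexConjugation x

theorem real_embC_comp :
    (embC : Kb →+* ℂ).comp (((complexConjugation : GalQ) : Kb ≃ₐ[ℚ] Kb) : Kb →+* Kb) =
      (starRingEnd ℂ).comp embC :=
  RingHom.ext fun x => real_embC_conj x

/-! ## The conjugate root data -/

/-- the conjugate of a root datum -/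
def realRootCj {N n : ℕ} (R : RootData (Gamma0 N) n) : RootData (Gamma0 N) n where
  a := realCj R.a
  g := realCj R.g
  p_ne_zero := R.p_ne_zero
  mdiff_a := realCj_mdiff R.mdiff_a
  mdiff_g := realCj_mdiff R.mdiff_g
  a_ne_zero := fun h => R.a_ne_zero ((realCj_eq_zero_iff _).1 h)
  g_ne_zero := fun h => R.g_ne_zero ((realCj_eq_zero_iff _).1 h)
  pow_inv := by
    intro γ hγ τ
    have h := R.pow_inv (jConjSL γ) (jConjSL_mem_Gamma0 hγ) (UpperHalfPlane.J • τ)
    have h2 := congrArg (starRingEnd ℂ) h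
    simp only [map_pow, map_mul] at h2
    rw [realCj_smul, realCj_smul, realCj_apply, realCj_apply]
    exact h2

theorem realRootCj_a {N n : ℕ} (R : RootData (Gamma0 N) n) : (realRootCj R).a = realCj R.a := rfl

theorem realRootCj_g {N n : ℕ} (R : RootData (Gamma0 N) n) : (realRootCj R).g = realCj R.g := rfl

/-- the multiplier of the conjugate root datum -/
theorem realRootCj_isMultiplier {N n : ℕ} (R : RootData (Gamma0 N) n) (γ : Gamma0 N) :
    IsMultiplier (γ : SL(2, ℤ)) (realRootCj R).a (realRootCj R).g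
      (conj (R.multVal (jConjGamma0 N γ))) := by
  intro τ
  have h := R.multVal_spec (jConjGamma0 N γ) (UpperHalfPlane.J • τ)
  have h2 := congrArg (starRingEnd ℂ) h
  simp only [map_mul] at h2
  rw [realRootCj_a, realRootCj_g, realCj_smul, realCj_smul, realCj_apply, realCj_apply]
  exact h2

theorem realRootCj_multAdd {N n : ℕ} (R : RootData (Gamma0 N) n) :
    (realRootCj R).multAdd = realConjChar N R.multAdd := by
  refine AddMonoidHom.ext fun γ => ?_
  obtain ⟨γ, rfl⟩ : ∃ γ' : Gamma0 N, Additive.ofMul γ' = γ := ⟨Additive.toMul γ, rfl⟩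
  rw [RootData.multAdd_apply, realConjChar_apply]
  apply congrArg Additive.ofMul
  rw [RootData.mult_eq_iff]
  have h := realRootCj_isMultiplier R γ
  convert h using 1
  show ((realConjUnits (R.mult (jConjGamma0 N γ)) : ℂˣ) : ℂ) = _
  rfl

/-! ## The statement -/

/-- **REAL-CONJ** (MuConj). -/
theorem stmtRealConj : StmtRealConj := by
  intro N _ n hn x χ hrel
  obtain ⟨u, a, g, R, hK, ⟨ha, hg, hg0, hug⟩, hroot, hχ⟩ := hrel
  refine ⟨arithmeticGalois (modularFunctionFieldFull N) (complexConjugation : GalQ) • u,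
    realCj a, realCj g, realRootCj R, ?_, ⟨realCj_isModFun ha, realCj_isModFun hg,
      fun h => hg0 ((realCj_eq_zero_iff _).1 h), ?_⟩, ?_, ?_⟩
  · rw [galois_smul_pic0_def]
    exact hK.smul _
  · rw [coe_arithmeticGalois_smul, coeffMap_coeffMap, laurentOf_realCj hg.isMerInf,
      laurentOf_realCj ha.isMerInf, ← hug, map_mul, coeffMap_coeffMap]
    congr 1
    exact coeffMap_congr real_embC_comp _
  · intro τ
    have h := hroot (UpperHalfPlane.J • τ)
    have h2 := congrArg (starRingEnd ℂ) h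
    simp only [map_pow, map_mul] at h2
    exact h2
  · rw [realRootCj_multAdd, hχ]

end Fermat.Agent.S15

end
end ZBZ2S15_048_1

/-! ### bundled: `Fermat.Agent.S15.RealFinal` -/
section ZBZ2S15_048_2

/-!
# S15 / SEL-CNT / REAL: the final statement

`stmtSelReal : StmtSelReal`, unconditional: REAL-ASM (`stmtSelReal_of_conj`, RealAsm.lean, which
already contains REAL-ALG) applied to REAL-CONJ (`stmtRealConj`, RealConj.lean).
-/

set_option autoImplicit false

namespace Fermat.Agent.S15

/-- **REAL**, unconditional. -/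
theorem stmtSelReal : StmtSelReal := stmtSelReal_of_conj stmtRealConj

end Fermat.Agent.S15


end ZBZ2S15_048_2

/-! ### bundled: `Fermat.Agent.S15.FinalWire` -/
section ZBZ2S15_048_3

/-!
# S15: the final wiring (captain helper17)

All six inputs of `s15_of_inputs` (`S15/Top.lean`) are theorems:

| input | theorem | block |
|---|---|---|
| `StmtCusp`    | `stmtCusp_proved` (OggCusp.lean) | OGG-lite |
| `StmtMod`     | `stmtMod` (N3Main.lean) | MOD + N3 |
| `StmtLocDiv`  | `stmtLocDiv` (LocDivFinal.lean) | LOCDIV |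
| `StmtLocDivN` | `s15w_stmtLocDivN` (here: PkgWire, PkgTVFibre, PkgRdivAsm, PkgUniq, PkgMinH) | LOCAL-N + LN-PKG |
| `StmtFinRed`  | `stmtFinRed` (FinRedFinal.lean) | FINRED |
| `StmtFin`     | `s15w_stmtFin` (here: SelFinalStar, ToricKummer + UNIP, RealFinal) | SELMER + CNT |

`s15w_main : S15Statement` is the frozen statement S15.
-/

set_option autoImplicit false

namespace Fermat.Agent.S15

open Fermat.Agent.S15.LN

/-- **LOCDIV at the level prime** -/
theorem s15w_stmtLocDivN : StmtLocDivN :=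
  stmtLocDivN_of_open stmtPkgFibre (stmtPkgRdiv_of (stmtPkgUniq_of stmtPkgMinH stmtPkgFibre))

/-- **TORIC** -/
theorem s15w_stmtSelToric : StmtSelToric :=
  stmtSelToric_of_kummer Fermat.Agent.UNIP.mgcb_stmtUnipKummer

/-- `x ≤ p²` and `x ≤ c q²` with `1 ≤ c` give `x ≤ c p q` -/
theorem s15w_le_mul_of_le_sq {x p q c : ℕ} (hc : 1 ≤ c) (h1 : x ≤ p ^ 2) (h2 : x ≤ c * q ^ 2) :
    x ≤ c * (p * q) := by
  by_contra h
  have h3 : c * (p * q) < x := Nat.lt_of_not_le h
  have h4 : (c * (p * q)) * (c * (p * q)) < x * x := Nat.mul_self_lt_mul_self h3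
  have h5 : x * x ≤ p ^ 2 * (c * q ^ 2) := Nat.mul_le_mul h1 h2
  have h6 : p ^ 2 * (c * q ^ 2) ≤ (c * (p * q)) * (c * (p * q)) := by
    have e1 : p ^ 2 * (c * q ^ 2) = 1 * (c * (p * q) * (p * q)) := by ring
    have e2 : (c * (p * q)) * (c * (p * q)) = c * (c * (p * q) * (p * q)) := by ring
    rw [e1, e2]
    exact Nat.mul_le_mul_right _ hc
  exact absurd (lt_of_lt_of_le h4 (le_trans h5 h6)) (lt_irrefl _)

/-- **(CNT\*)**: the uniform count, from TORIC and REAL -/
theorem s15w_stmtSelCntStar : StmtSelCntStar := by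
  intro N _ r hN hr hrN AN hAN
  obtain ⟨a, ha⟩ := stmtSelReal N r hN hr hrN
  refine ⟨a, fun k => ?_⟩
  have h1 : Nat.card ↥(selEisPart N r k) ≤ Nat.card ↥(selEisPart N r k ⊓ selIF N AN) ^ 2 :=
    s15w_stmtSelToric N r hN hr hrN AN hAN (selEisPart N r k) (toricpre_finite N r k hr)
      (fun x hx => ⟨k, (mem_selEisPart.1 hx).1⟩)
      (fun σ _ x hx => toricpre_stable N r k σ hx)
  exact s15w_le_mul_of_le_sq (Nat.one_le_pow _ _ hr.pos) h1 (ha k)

/-- **FIN″**: the Eisenstein descent -/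
theorem s15w_stmtFin : StmtFin := stmtFin_of_star s15w_stmtSelCntStar

/-- **S15** (Mazur's key step), in the form of the frozen statement -/
theorem s15w_main : S15Statement :=
  s15_of_inputs stmtCusp_proved stmtMod stmtLocDiv s15w_stmtLocDivN stmtFinRed s15w_stmtFin

end Fermat.Agent.S15


end ZBZ2S15_048_3
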