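/- GENERATED FILE (helper35, build-time optimisation, NOTES/ZB.md): verbatim concatenation of the modules
   Fermat.Agent.EC.Big.Crit
   Do not edit; do not import together with these modules. -/
import Mathlib
import Fermat.Prelude.Def_GaloisRep_Residual

/-! ### bundled: `Fermat.Agent.EC.Big.Crit` -/
section ZBEC_010_0

/-!
# E-BIG, part 1: the commutator criterion (abstract linear algebra)

`ρ` a two-dimensional representation of `G_ℚ` over a field `k`, `H ≤ G_ℚ` a subgroup.

* `ecbig_cayley` : Cayley–Hamilton in dimension two, `T² - tr(T) T + det(T) = 0`;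
* `ecbig_trace_eq_two` : an endomorphism of determinant one fixing a nonzero vector has trace `2`;
* `ecbig_stable_eq_bot_or_top` (**criterion**) : if `σ, τ ∈ H` and the trace of
  `ρ(σ τ σ⁻¹ τ⁻¹)` is not `2`, then for every field `K ⊇ k` the only `H`-stable subspaces of
  `K ⊗ ρ` are `⊥` and `⊤` (this is the shape of the hypothesis `hTW` of S56);
* `ecbig_exists_comm_of_unipotent` (**Lemma A**) : `ρ` irreducible, `2 ≠ 0` in `k`, some `σ₀` with
  `ρ σ₀ ≠ 1` and `(ρ σ₀ - 1)² = 0`.  Then every subgroup `H` of index two contains `σ, τ` with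
  trace of `ρ(σ τ σ⁻¹ τ⁻¹)` different from `2`.
-/

set_option autoImplicit false

namespace Fermat.Agent.EC

open Polynomial
open scoped TensorProduct

/-- `G_ℚ` -/
local notation "GQ" => (AlgebraicClosure ℚ ≃ₐ[ℚ] AlgebraicClosure ℚ)

section LA

variable {K : Type*} [Field K] {V : Type*} [AddCommGroup V] [Module K V]

/-- Cayley–Hamilton in dimension two. -/
theorem ecbig_cayley (hfr : Module.finrank K V = 2) (T : Module.End K V) :
    T * T - LinearMap.trace K V T • T + LinearMap.det T • (1 : Module.End K V) = 0 := by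
  haveI : Module.Finite K V := Module.finite_of_finrank_eq_succ hfr
  classical
  let b := Module.finBasisOfFinrankEq K V hfr
  have h := LinearMap.aeval_self_charpoly T
  rw [← LinearMap.charpoly_toMatrix T b, Matrix.charpoly_fin_two,
    ← LinearMap.trace_eq_matrix_trace K b T, LinearMap.det_toMatrix b T] at h
  simp only [map_add, map_sub, map_mul, map_pow, aeval_X, aeval_C] at h
  rw [← h, pow_two, Algebra.algebraMap_eq_smul_one, Algebra.algebraMap_eq_smul_one,
    smul_mul_assoc, one_mul]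

/-- An endomorphism of a plane with determinant one and a nonzero fixed vector has trace two. -/
theorem ecbig_trace_eq_two (hfr : Module.finrank K V = 2) (T : Module.End K V)
    (hdet : LinearMap.det T = 1) (v : V) (hv : v ≠ 0) (hTv : T v = v) :
    LinearMap.trace K V T = 2 := by
  have h := congrArg (fun f : Module.End K V => f v) (ecbig_cayley hfr T)
  simp only [LinearMap.add_apply, LinearMap.sub_apply, Module.End.mul_apply,
    LinearMap.smul_apply, Module.End.one_apply, hTv, hdet, one_smul, LinearMap.zero_apply] at h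
  have h1 : ((2 : K) - LinearMap.trace K V T) • v = 0 := by
    rw [sub_smul, two_smul]
    rw [← h]
    abel
  rcases smul_eq_zero.1 h1 with h2 | h2
  · exact (sub_eq_zero.1 h2).symm
  · exact absurd h2 hv

end LA

section Crit

variable {k : Type} [Field k]

/-- **Criterion**: a commutator of trace `≠ 2` inside `H` forces `ρ|_H` to be absolutely
irreducible (in the form of the hypothesis `hTW` of S56). -/
theorem ecbig_stable_eq_bot_or_top (ρ : ResidualGaloisRep k) (K : Type) [Field K] [Algebra k K]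
    (H : Subgroup GQ) {σ τ : GQ} (hσ : σ ∈ H) (hτ : τ ∈ H)
    (htr : LinearMap.trace k ρ.V (ρ.ρ (σ * τ * σ⁻¹ * τ⁻¹)) ≠ 2)
    (V : Submodule K (ρ.baseChange K).V)
    (hV : ∀ g ∈ H, ∀ x ∈ V, (ρ.baseChange K).ρ g x ∈ V) : V = ⊥ ∨ V = ⊤ := by
  by_contra hcon
  rw [not_or] at hcon
  obtain ⟨hbot, htop⟩ := hcon
  obtain ⟨v, hvV, hv0⟩ := (Submodule.ne_bot_iff V).1 hbot
  have hfr : Module.finrank K (ρ.baseChange K).V = 2 := (ρ.baseChange K).finrank_eq
  have hlt := Submodule.finrank_lt htop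
  have hpos : 0 < Module.finrank K V :=
    Module.finrank_pos_iff_exists_ne_zero.2 ⟨⟨v, hvV⟩, fun h => hv0 (congrArg Subtype.val h)⟩
  have h1 : Module.finrank K V = 1 := by omega
  have hv0' : (⟨v, hvV⟩ : V) ≠ 0 := fun h => hv0 (congrArg Subtype.val h)
  have hspan : ∀ x ∈ V, ∃ a : K, x = a • v := by
    intro x hx
    obtain ⟨a, ha⟩ := (finrank_eq_one_iff_of_nonzero' (⟨v, hvV⟩ : V) hv0').1 h1 ⟨x, hx⟩
    exact ⟨a, (congrArg Subtype.val ha).symm⟩
  set R := (ρ.baseChange K).ρ with hR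
  have hsc : ∀ g ∈ H, ∃ a : K, R g v = a • v := fun g hg => hspan _ (hV g hg v hvV)
  have hinv : ∀ g ∈ H, ∀ a b : K, R g v = a • v → R g⁻¹ v = b • v → b * a = 1 := by
    intro g hg a b ha hb
    have h2 : R (g⁻¹ * g) v = (b * a) • v := by
      rw [map_mul, Module.End.mul_apply, ha, map_smul, hb, smul_smul, mul_comm]
    rw [inv_mul_cancel, map_one, Module.End.one_apply] at h2
    have h3 : (b * a) • v = (1 : K) • v := by
      rw [← h2]
      exact (one_smul K v).symm
    exact smul_left_injective K hv0 h3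
  obtain ⟨a₁, ha₁⟩ := hsc σ hσ
  obtain ⟨a₂, ha₂⟩ := hsc τ hτ
  obtain ⟨b₁, hb₁⟩ := hsc σ⁻¹ (H.inv_mem hσ)
  obtain ⟨b₂, hb₂⟩ := hsc τ⁻¹ (H.inv_mem hτ)
  have e1 := hinv σ hσ a₁ b₁ ha₁ hb₁
  have e2 := hinv τ hτ a₂ b₂ ha₂ hb₂
  have hstep : ∀ (g : GQ) (a c : K), R g v = a • v → R g (c • v) = (c * a) • v := by
    intro g a c hg
    rw [map_smul, hg, smul_smul]
  have hfix : R (σ * τ * σ⁻¹ * τ⁻¹) v = v := by
    rw [map_mul, map_mul, map_mul, Module.End.mul_apply, Module.End.mul_apply,
      Module.End.mul_apply, hb₂, ← one_mul b₂, hstep σ⁻¹ b₁ (1 * b₂) hb₁,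
      hstep τ a₂ _ ha₂, hstep σ a₁ _ ha₁]
    have : 1 * b₂ * b₁ * a₂ * a₁ = 1 := by
      calc 1 * b₂ * b₁ * a₂ * a₁ = (b₂ * a₂) * (b₁ * a₁) := by ring
        _ = 1 := by rw [e1, e2, mul_one]
    rw [this]
    exact one_smul K v
  have hdet : LinearMap.det (R (σ * τ * σ⁻¹ * τ⁻¹)) = 1 := by
    have h2 : ∀ g : GQ, LinearMap.det (R g) * LinearMap.det (R g⁻¹) = 1 := by
      intro g
      rw [← map_mul, ← map_mul, mul_inv_cancel, map_one, map_one]
    rw [map_mul, map_mul, map_mul, map_mul, map_mul, map_mul]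
    calc LinearMap.det (R σ) * LinearMap.det (R τ) * LinearMap.det (R σ⁻¹) * LinearMap.det (R τ⁻¹)
        = (LinearMap.det (R σ) * LinearMap.det (R σ⁻¹)) *
          (LinearMap.det (R τ) * LinearMap.det (R τ⁻¹)) := by ring
      _ = 1 := by rw [h2, h2, mul_one]
  have htwo := ecbig_trace_eq_two hfr _ hdet v hv0 hfix
  have hbc : R (σ * τ * σ⁻¹ * τ⁻¹) = (ρ.ρ (σ * τ * σ⁻¹ * τ⁻¹)).baseChange K := rfl
  rw [hbc, LinearMap.trace_baseChange] at htwo
  apply htr
  apply (algebraMap k K).injective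
  rw [htwo, map_ofNat]

end Crit

section LemmaA

variable {k : Type*} [Field k] {V : Type*} [AddCommGroup V] [Module k V]

/-- the determinant of a square-zero endomorphism of a plane vanishes -/
theorem ecbig_det_eq_zero_of_sq (hfr : Module.finrank k V = 2) (A : Module.End k V)
    (hA : A * A = 0) : LinearMap.det A = 0 := by
  have hfin : Module.Finite k V := Module.finite_of_finrank_eq_succ hfr
  have h1 : LinearMap.det (A * A) = 0 := by
    rw [hA]
    haveI : Nontrivial V := Module.nontrivial_of_finrank_pos (R := k) (by omega)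
    exact LinearMap.det_zero' (Module.finBasisOfFinrankEq k V hfr)
  rw [map_mul] at h1
  exact mul_self_eq_zero.1 h1

/-- the trace of the commutator of `1 + A` and `1 + B`, `A² = B² = 0` -/
theorem ecbig_trace_comm (hfr : Module.finrank k V = 2) (A B : Module.End k V)
    (hA : A * A = 0) (hB : B * B = 0) :
    LinearMap.trace k V ((1 + A) * (1 + B) * (1 - A) * (1 - B))
      = 2 + LinearMap.trace k V (A * B) ^ 2 := by
  have hfin : Module.Finite k V := Module.finite_of_finrank_eq_succ hfr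
  have hexp : (1 + A) * (1 + B) * (1 - A) * (1 - B)
      = 1 + A * B - B * A + B * (A * B) - A * (B * A) + (A * B) * (A * B) - B * B - A * A
        + A * A * B - A * (B * B) := by
    noncomm_ring
  have hCH := ecbig_cayley hfr (A * B)
  have hdet : LinearMap.det (A * B) = 0 := by
    rw [map_mul, ecbig_det_eq_zero_of_sq hfr A hA, zero_mul]
  rw [hdet, zero_smul, add_zero, sub_eq_zero] at hCH
  have t1 : LinearMap.trace k V (B * (A * B)) = 0 := by
    rw [LinearMap.trace_mul_comm, mul_assoc, hB, mul_zero, map_zero]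
  have t2 : LinearMap.trace k V (A * (B * A)) = 0 := by
    rw [LinearMap.trace_mul_comm, mul_assoc, hA, mul_zero, map_zero]
  have t3 : LinearMap.trace k V (B * A) = LinearMap.trace k V (A * B) :=
    LinearMap.trace_mul_comm k B A
  rw [hexp, hA, hB, zero_mul, mul_zero, sub_zero, sub_zero, add_zero, sub_zero, hCH]
  simp only [map_add, map_sub, map_smul, t1, t2, t3, LinearMap.trace_one, hfr, smul_eq_mul]
  push_cast
  ring

/-- the key nonvanishing: `tr (N G N G⁻¹) ≠ 0` when `G` moves the line `ker N` -/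
theorem ecbig_trace_ne_zero (hfr : Module.finrank k V = 2)
    (N G G' : Module.End k V) (hGG' : G * G' = 1) (hG'G : G' * G = 1) (hNN : N * N = 0)
    (v : V) (hNv : N v = 0) (hNw : N (G v) ≠ 0) :
    LinearMap.trace k V (N * (G * N * G')) ≠ 0 := by
  classical
  have hfin : Module.Finite k V := Module.finite_of_finrank_eq_succ hfr
  set w : V := G v with hw
  have hw0 : w ≠ 0 := fun h => hNw (by rw [h, map_zero])
  have hv0 : v ≠ 0 := fun h => hw0 (by rw [hw, h, map_zero])
  have hli : LinearIndependent k ![v, w] := by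
    rw [LinearIndependent.pair_iff]
    intro s t hst
    have h1 := congrArg N hst
    rw [map_add, map_smul, map_smul, hNv, smul_zero, zero_add, map_zero] at h1
    have ht : t = 0 := (smul_eq_zero.1 h1).resolve_right hNw
    rw [ht, zero_smul, add_zero] at hst
    exact ⟨(smul_eq_zero.1 hst).resolve_right hv0, ht⟩
  let b : Module.Basis (Fin 2) k V :=
    basisOfLinearIndependentOfCardEqFinrank hli (by rw [hfr]; rfl)
  have hb0 : b 0 = v := by
    simp [b, coe_basisOfLinearIndependentOfCardEqFinrank]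
  have hb1 : b 1 = w := by
    simp [b, coe_basisOfLinearIndependentOfCardEqFinrank]
  have hdec : ∀ x : V, x = b.repr x 0 • v + b.repr x 1 • w := by
    intro x
    conv_lhs => rw [← b.sum_repr x]
    rw [Fin.sum_univ_two, hb0, hb1]
  -- `N w = s v`
  obtain ⟨s, hs⟩ : ∃ s : k, N w = s • v := by
    have h1 := hdec (N w)
    have h2 := congrArg N h1
    rw [map_add, map_smul, map_smul, hNv, smul_zero, zero_add] at h2
    have h3 : N (N w) = 0 := by
      have := congrArg (fun f : Module.End k V => f w) hNN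
      simpa using this
    rw [h3] at h2
    have ht : b.repr (N w) 1 = 0 := (smul_eq_zero.1 h2.symm).resolve_right hNw
    rw [ht, zero_smul, add_zero] at h1
    exact ⟨_, h1⟩
  have hs0 : s ≠ 0 := by
    intro h
    rw [h, zero_smul] at hs
    exact hNw hs
  -- `G' v = x v + y w`, `y ≠ 0`
  have hG'w : G' w = v := by
    have := congrArg (fun f : Module.End k V => f v) hG'G
    simpa using this
  have hGG'v : G (G' v) = v := by
    have := congrArg (fun f : Module.End k V => f v) hGG'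
    simpa using this
  set x : k := b.repr (G' v) 0
  set y : k := b.repr (G' v) 1
  have hxy : G' v = x • v + y • w := hdec (G' v)
  have hy0 : y ≠ 0 := by
    intro h
    rw [h, zero_smul, add_zero] at hxy
    have h1 : v = x • w := by
      rw [← hGG'v, hxy, map_smul]
    have h2 : (1 : k) • v + (-x) • w = 0 := by
      rw [one_smul, neg_smul, ← h1, add_neg_cancel]
    have h3 := (LinearIndependent.pair_iff.1 hli) 1 (-x) h2
    exact one_ne_zero h3.1
  -- the values of `X = N G N G'` on the basis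
  have hXv : (N * (G * N * G')) v = (y * s * s) • v := by
    have h1 : N (G' v) = (y * s) • v := by
      rw [hxy, map_add, map_smul, map_smul, hNv, smul_zero, zero_add, hs, smul_smul]
    have h2 : G (N (G' v)) = (y * s) • w := by
      rw [h1, map_smul]
    show N (G (N (G' v))) = (y * s * s) • v
    rw [h2, map_smul, hs, smul_smul]
  have hXw : (N * (G * N * G')) w = 0 := by
    show N (G (N (G' w))) = 0
    rw [hG'w, hNv, map_zero, map_zero]
  have e00 : b.repr ((N * (G * N * G')) (b 0)) 0 = y * s * s := by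
    rw [hb0, hXv, map_smul, ← hb0, Module.Basis.repr_self]
    simp
  have e11 : b.repr ((N * (G * N * G')) (b 1)) 1 = 0 := by
    rw [hb1, hXw, map_zero]
    rfl
  rw [LinearMap.trace_eq_matrix_trace k b, Matrix.trace_fin_two, LinearMap.toMatrix_apply,
    LinearMap.toMatrix_apply, e00, e11, add_zero]
  exact mul_ne_zero (mul_ne_zero hy0 hs0) hs0

end LemmaA

section LemmaAGal

variable {k : Type} [Field k]

/-- the inverse of `1 + A`, `A² = 0`, under a representation -/
theorem ecbig_rho_inv (ρ : ResidualGaloisRep k) (s : GQ) (A : Module.End k ρ.V)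
    (hs : ρ.ρ s = 1 + A) (hA : A * A = 0) : ρ.ρ s⁻¹ = 1 - A := by
  have h1 : ρ.ρ s⁻¹ * (1 + A) = 1 := by rw [← hs, ← map_mul, inv_mul_cancel, map_one]
  have h2 : (1 + A) * (1 - A) = 1 := by
    have : (1 + A) * (1 - A) = 1 - A * A := by noncomm_ring
    rw [this, hA, sub_zero]
  calc ρ.ρ s⁻¹ = ρ.ρ s⁻¹ * ((1 + A) * (1 - A)) := by rw [h2, mul_one]
    _ = (ρ.ρ s⁻¹ * (1 + A)) * (1 - A) := by rw [mul_assoc]
    _ = 1 - A := by rw [h1, one_mul]

/-- **Lemma A**: an irreducible two-dimensional representation (`2 ≠ 0`) whose image contains a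
nontrivial unipotent element has, inside every subgroup of index two, a commutator of trace
`≠ 2`. -/
theorem ecbig_exists_comm_of_unipotent (h2 : (2 : k) ≠ 0) (ρ : ResidualGaloisRep k)
    (hirr : ρ.IsIrreducible) (σ₀ : GQ) (h1 : ρ.ρ σ₀ ≠ 1)
    (hu : (ρ.ρ σ₀ - 1) * (ρ.ρ σ₀ - 1) = 0)
    (H : Subgroup GQ) (hH : H.index = 2) :
    ∃ σ ∈ H, ∃ τ ∈ H, LinearMap.trace k ρ.V (ρ.ρ (σ * τ * σ⁻¹ * τ⁻¹)) ≠ 2 := by
  set N : Module.End k ρ.V := ρ.ρ σ₀ - 1 with hN
  have hN0 : N ≠ 0 := sub_ne_zero.2 h1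
  have hNN : ∀ x, N (N x) = 0 := fun x => by
    have := congrArg (fun f : Module.End k ρ.V => f x) hu
    simpa using this
  have hker : ¬ ∀ σ : GQ, ∀ x ∈ LinearMap.ker N, ρ.ρ σ x ∈ LinearMap.ker N := by
    intro hst
    rcases hirr (LinearMap.ker N) hst with h | h
    · obtain ⟨x, hx⟩ : ∃ x, N x ≠ 0 := by
        by_contra hcon
        rw [not_exists] at hcon
        apply hN0
        ext x
        have := hcon x
        rw [not_not] at this
        rw [this, LinearMap.zero_apply]
      have h3 : N x ∈ LinearMap.ker N := LinearMap.mem_ker.2 (hNN x)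
      rw [h] at h3
      exact hx ((Submodule.mem_bot k).1 h3)
    · exact hN0 (LinearMap.ker_eq_top.1 h)
  rw [not_forall] at hker
  obtain ⟨g, hg⟩ := hker
  rw [not_forall] at hg
  obtain ⟨v, hv⟩ := hg
  rw [Classical.not_imp] at hv
  obtain ⟨hvker, hgv⟩ := hv
  have hNv : N v = 0 := LinearMap.mem_ker.1 hvker
  have hNw : N (ρ.ρ g v) ≠ 0 := fun h => hgv (LinearMap.mem_ker.2 h)
  have hHn : H.Normal := Subgroup.normal_of_index_eq_two hH
  have hσ : σ₀ * σ₀ ∈ H := Subgroup.mul_self_mem_of_index_two hH σ₀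
  refine ⟨σ₀ * σ₀, hσ, g * (σ₀ * σ₀) * g⁻¹, hHn.conj_mem _ hσ g, ?_⟩
  set G : Module.End k ρ.V := ρ.ρ g with hG
  set G' : Module.End k ρ.V := ρ.ρ g⁻¹ with hG'
  have hGG' : G * G' = 1 := by rw [hG, hG', ← map_mul, mul_inv_cancel, map_one]
  have hG'G : G' * G = 1 := by rw [hG, hG', ← map_mul, inv_mul_cancel, map_one]
  set A : Module.End k ρ.V := (2 : k) • N with hAdef
  set B : Module.End k ρ.V := (2 : k) • (G * N * G') with hBdef
  have hA : A * A = 0 := by
    rw [hAdef, smul_mul_smul_comm, hu, smul_zero]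
  have hB : B * B = 0 := by
    have h3 : G * N * G' * (G * N * G') = G * (N * N) * G' := by
      calc G * N * G' * (G * N * G') = G * N * (G' * G) * N * G' := by noncomm_ring
        _ = G * (N * N) * G' := by rw [hG'G]; noncomm_ring
    rw [hBdef, smul_mul_smul_comm, h3, hu, mul_zero, zero_mul, smul_zero]
  have hρσ₀ : ρ.ρ σ₀ = 1 + N := by rw [hN]; abel
  have e1 : ρ.ρ (σ₀ * σ₀) = 1 + A := by
    rw [map_mul, hρσ₀, hAdef]
    have : (1 + N) * (1 + N) = 1 + (2 : k) • N + N * N := by
      rw [two_smul]; noncomm_ring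
    rw [this, hu, add_zero]
  have e2 : ρ.ρ (g * (σ₀ * σ₀) * g⁻¹) = 1 + B := by
    rw [map_mul, map_mul, e1, hBdef, hAdef]
    show G * (1 + (2 : k) • N) * G' = 1 + (2 : k) • (G * N * G')
    rw [mul_add, add_mul, mul_one, hGG', mul_smul_comm, smul_mul_assoc]
  have e3 : ρ.ρ (σ₀ * σ₀)⁻¹ = 1 - A := ecbig_rho_inv ρ _ A e1 hA
  have e4 : ρ.ρ (g * (σ₀ * σ₀) * g⁻¹)⁻¹ = 1 - B := ecbig_rho_inv ρ _ B e2 hB
  have e5 : ρ.ρ (σ₀ * σ₀ * (g * (σ₀ * σ₀) * g⁻¹) * (σ₀ * σ₀)⁻¹ * (g * (σ₀ * σ₀) * g⁻¹)⁻¹)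
      = (1 + A) * (1 + B) * (1 - A) * (1 - B) := by
    rw [MonoidHom.map_mul, MonoidHom.map_mul, MonoidHom.map_mul, e1, e2, e3, e4]
  rw [e5, ecbig_trace_comm ρ.finrank_eq A B hA hB]
  have htr : LinearMap.trace k ρ.V (A * B) ≠ 0 := by
    rw [hAdef, hBdef, smul_mul_smul_comm, map_smul, smul_eq_mul]
    exact mul_ne_zero (mul_ne_zero h2 h2)
      (ecbig_trace_ne_zero ρ.finrank_eq N G G' hGG' hG'G hu v hNv hNw)
  intro h
  have h3 : LinearMap.trace k ρ.V (A * B) ^ 2 = 0 := by
    have := congrArg (fun t => t - 2) h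
    simpa using this
  exact htr (pow_eq_zero_iff (two_ne_zero) |>.1 h3)

/-- **E-BIG (A)**, in the shape of the hypothesis `hTW` of S56: an irreducible two-dimensional
representation (`2 ≠ 0`) whose image contains a nontrivial unipotent element is absolutely
irreducible on every subgroup of index two. -/
theorem ecbig_hTW_of_unipotent (h2 : (2 : k) ≠ 0) (ρ : ResidualGaloisRep k)
    (hirr : ρ.IsIrreducible) (σ₀ : GQ) (h1 : ρ.ρ σ₀ ≠ 1)
    (hu : (ρ.ρ σ₀ - 1) * (ρ.ρ σ₀ - 1) = 0)
    (K : Type) [Field K] [Algebra k K] (H : Subgroup GQ) (hH : H.index = 2)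
    (V : Submodule K (ρ.baseChange K).V)
    (hV : ∀ σ ∈ H, ∀ x ∈ V, (ρ.baseChange K).ρ σ x ∈ V) : V = ⊥ ∨ V = ⊤ := by
  obtain ⟨σ, hσ, τ, hτ, htr⟩ := ecbig_exists_comm_of_unipotent h2 ρ hirr σ₀ h1 hu H hH
  exact ecbig_stable_eq_bot_or_top ρ K H hσ hτ htr V hV

end LemmaAGal

end Fermat.Agent.EC


end ZBEC_010_0
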