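/- GENERATED FILE (helper35, build-time optimisation, NOTES/ZB.md): verbatim concatenation of the modules
   Fermat.Agent.EC.Big.Plan
   Fermat.Agent.EC.Big.Quad
   Fermat.Agent.EC.Big.TwoGroup
   Fermat.Agent.EC.Big.Asm
   Do not edit; do not import together with these modules. -/
import Mathlib
import Fermat.Prelude.Def_FLTPrelim_Ramification
import Fermat.Agent.ZB.S05_002
import Fermat.Agent.ZB.S05_001
import Fermat.Agent.ZB.Common_003
import Fermat.Agent.ZB.Common_001
import Fermat.Prelude.Def_GaloisRep_Residual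
import Fermat.Prelude.Def_GaloisRep_ComplexConjugation
import Fermat.Agent.ZB.EC_010
import Fermat.Agent.ZB.EC_004

/-! ### bundled: `Fermat.Agent.EC.Big.Plan` -/
section ZBEC_009_0

/-!
# E-BIG: interface (one `Prop` per piece)

Goal (consumers: S59 final wiring, K3/S56 `hTW`): for a semistable `W` and `p ∈ {3, 5}` with
`E[p]` irreducible, the restriction of `ρ̄_{E,p}` to EVERY subgroup of index two of `G_ℚ` is
absolutely irreducible.

Case (A) (`EC/Big/Crit.lean`, done): if the image of `ρ̄` contains a nontrivial unipotent element.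
Case (B): no nontrivial unipotent element.  Then (semistability) `ρ̄` is unramified outside `p`
and its image `G` has order prime to `p`; arithmetic + group theory give that `G` is
commutative, which contradicts irreducibility (complex conjugation has the eigenvalues `±1`).

Arithmetic pieces (all about subgroups of `G_ℚ` which are "unramified outside `p`"):
* `StmtQuad`   (QUAD): the only subgroup of index two is the stabiliser of `√p*`;
* `StmtCubic5` (CUBIC5): no normal subgroup of index three (`p = 5`);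
* `StmtS3`     (S3-5): no normal subgroup of index six with non-commutative quotient (`p = 5`).
Group theory pieces:
* `StmtTwoGroup` (TWOGRP): a finite `2`-group with at most one subgroup of index two is
  commutative;
* `StmtGrp3`, `StmtGrp5` (GRP3, GRP5): the subgroups of `GL₂(𝔽_p)` without elements of order `p`
  which satisfy the conclusions of the arithmetic pieces are commutative.
-/

set_option autoImplicit false

namespace Fermat.Agent.EC

/-- `ℚ̄` -/
local notation "Qbar" => AlgebraicClosure ℚ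
/-- `G_ℚ` -/
local notation "GQ" => (AlgebraicClosure ℚ ≃ₐ[ℚ] AlgebraicClosure ℚ)

/-- `N ≤ G_ℚ` is normal, of finite level (it contains the pointwise stabiliser of a finite set of
algebraic numbers) and contains the inertia groups of ALL places over ALL primes `q ≠ p`:
"the fixed field of `N` is a finite Galois extension of `ℚ` unramified outside `p` (and `∞`)". -/
structure EcbigUnr (p : ℕ) (N : Subgroup GQ) : Prop where
  normal : N.Normal
  level : ∃ S : Finset Qbar, ∀ σ : GQ, (∀ s ∈ S, σ s = s) → σ ∈ N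
  unr : ∀ q : ℕ, q.Prime → q ≠ p → ∀ A : ValuationSubring Qbar, A.LiesOverPrime q →
    A.inertiaSubgroupIn ℚ ≤ N

/-- **QUAD**: `p` an odd prime, `d = ±p ≡ 1 mod 4`, `s² = d`.  The only subgroup of index two
of `G_ℚ` which is unramified outside `p` is the stabiliser of `s`
(the only quadratic field unramified outside `p` is `ℚ(√d)`). -/
def StmtQuad : Prop :=
  ∀ (p : ℕ), p.Prime → p ≠ 2 → ∀ d : ℤ, d.natAbs = p → d % 4 = 1 →
    ∀ s : Qbar, s ^ 2 = (d : Qbar) →
    ∀ N : Subgroup GQ, EcbigUnr p N → ∀ H : Subgroup GQ, N ≤ H → H.index = 2 →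
      ∀ σ : GQ, σ ∈ H ↔ σ s = s

/-- **CUBIC5**: there is no cyclic cubic field unramified outside `5`
(tame inertia in an abelian extension of `ℚ` has order dividing `5 - 1`, then Minkowski). -/
def StmtCubic5 : Prop :=
  ∀ N : Subgroup GQ, EcbigUnr 5 N → ∀ H : Subgroup GQ, N ≤ H → H.Normal → H.index ≠ 3

/-- **S3-5**: there is no Galois extension of `ℚ` with group `S₃` unramified outside `5`
(it would be unramified over `ℚ(√5)`, of degree `6` and discriminant dividing `5³`;
Minkowski's bound for degree `6` is `> 985`). -/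
def StmtS3 : Prop :=
  ∀ N : Subgroup GQ, EcbigUnr 5 N → ∀ H : Subgroup GQ, N ≤ H → H.Normal → H.index = 6 →
    ∀ σ τ : GQ, σ * τ * σ⁻¹ * τ⁻¹ ∈ H

/-- **TAME-AB** (a tool for S3-5): in a finite Galois extension of degree prime to `p`, the
inertia group at `p` is commutative (`σ ↦ σ z / z mod 𝔪` is multiplicative, `tame_N` of
`S15/ToricTameA.lean`). -/
def StmtTameAb : Prop :=
  ∀ (p : ℕ), p.Prime → ∀ A : ValuationSubring Qbar, A.LiesOverPrime p →
    ∀ H : Subgroup GQ, H.Normal →
      (∃ S : Finset Qbar, ∀ σ : GQ, (∀ s ∈ S, σ s = s) → σ ∈ H) → ¬ p ∣ H.index →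
      ∀ σ ∈ A.inertiaSubgroupIn ℚ, ∀ τ ∈ A.inertiaSubgroupIn ℚ, σ * τ * σ⁻¹ * τ⁻¹ ∈ H

/-- **TWOGRP**: a finite `2`-group with at most one subgroup of index two is commutative
(it is cyclic). -/
def StmtTwoGroup : Prop :=
  ∀ (G : Type) [Group G] [Finite G], (∃ n : ℕ, Nat.card G = 2 ^ n) →
    (∀ H₁ H₂ : Subgroup G, H₁.index = 2 → H₂.index = 2 → H₁ = H₂) →
    ∀ a b : G, a * b = b * a

/-- **GRP3**: a subgroup of `GL₂(𝔽₃)` without elements of order `3` and with at most one
subgroup of index two is commutative. -/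
def StmtGrp3 : Prop :=
  ∀ (G : Type) [Group G] [Finite G] (φ : G →* GL (Fin 2) (ZMod 3)), Function.Injective φ →
    (∀ g : G, g ^ 3 = 1 → g = 1) →
    (∀ H₁ H₂ : Subgroup G, H₁.index = 2 → H₂.index = 2 → H₁ = H₂) →
    ∀ a b : G, a * b = b * a

/-- **GRP5**: a subgroup `G` of `GL₂(𝔽₅)` without elements of order `5`, with at most one
subgroup of index two, without normal subgroups of index three, whose quotients of order six
are commutative, and which contains an involution `c` of determinant `-1` lying in every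
subgroup of index two, is commutative. -/
def StmtGrp5 : Prop :=
  ∀ (G : Type) [Group G] [Finite G] (φ : G →* GL (Fin 2) (ZMod 5)), Function.Injective φ →
    (∀ g : G, g ^ 5 = 1 → g = 1) →
    (∀ H₁ H₂ : Subgroup G, H₁.index = 2 → H₂.index = 2 → H₁ = H₂) →
    (∀ H : Subgroup G, H.Normal → H.index ≠ 3) →
    (∀ H : Subgroup G, H.Normal → H.index = 6 → ∀ a b : G, a * b * a⁻¹ * b⁻¹ ∈ H) →
    ∀ c : G, c * c = 1 → (φ c).1.det = -1 → (∀ H : Subgroup G, H.index = 2 → c ∈ H) →
    ∀ a b : G, a * b = b * a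

end Fermat.Agent.EC


end ZBEC_009_0

/-! ### bundled: `Fermat.Agent.EC.Big.Quad` -/
section ZBEC_009_1

/-!
# E-BIG, piece QUAD: quadratic fields unramified outside `p`

* `ecbig_apply_eq_or_neg` : `z² ∈ ℤ` ⇒ `τ z = ± z`;
* `ecbig_inertia_fix_of_unit` : inertia at an odd prime `q` fixes the square roots of the
  integers prime to `q`;
* `ecbig_inertia_two_fix` : inertia at `2` fixes the square roots of the integers `≡ 1 mod 4`;
* `ecbig_fixed_of_unit` : (Minkowski) a square root `z` of an integer prime to the odd prime `p`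
  which is fixed by the inertia groups at all `q ≠ p` is fixed by `G_ℚ`;
* `stmtQuad : StmtQuad`.
-/

set_option autoImplicit false
set_option linter.style.haveILetI false

namespace Fermat.Agent.EC

open Fermat.Agent.S05 Polynomial

/-- `ℚ̄` -/
local notation "Qbar" => AlgebraicClosure ℚ
/-- `G_ℚ` -/
local notation "GQ" => (AlgebraicClosure ℚ ≃ₐ[ℚ] AlgebraicClosure ℚ)

/-- an algebraic number whose square is an integer is mapped to `±` itself -/
theorem ecbig_apply_eq_or_neg {z : Qbar} {u : ℤ} (hz : z ^ 2 = (u : Qbar)) (τ : GQ) :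
    τ z = z ∨ τ z = -z := by
  have h : (τ z) ^ 2 = z ^ 2 := by rw [← map_pow, hz, map_intCast]
  exact sq_eq_sq_iff_eq_or_eq_neg.1 h

/-- a square root of an integer is integral, hence lies in every valuation subring -/
theorem ecbig_sqrt_mem (A : ValuationSubring Qbar) {z : Qbar} {u : ℤ}
    (hz : z ^ 2 = (u : Qbar)) : z ∈ A := by
  refine Fermat.Agent.S13.Minkowski.mem_of_isIntegral_int A z ?_
  refine IsIntegral.of_pow (n := 2) (by norm_num) ?_
  rw [hz, ← eq_intCast (algebraMap ℤ Qbar) u]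
  exact isIntegral_algebraMap

/-- the valuation of a square root of an integer prime to `q` -/
theorem ecbig_sqrt_val {q : ℕ} (hq : q.Prime) (A : ValuationSubring Qbar)
    (hA : A.LiesOverPrime q) {z : Qbar} {u : ℤ} (hz : z ^ 2 = (u : Qbar))
    (hu : ¬ (q : ℤ) ∣ u) : A.valuation z = 1 := by
  have h1 : A.valuation z ^ 2 = 1 := by
    rw [← map_pow, hz, (valuation_intCast_eq_one_iff A hq hA u).2 hu]
  exact ((pow_eq_one_iff (M := A.ValueGroup)).1 h1).resolve_right (by norm_num)

/-- inertia at an odd prime `q` fixes the square roots of the integers prime to `q` -/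
theorem ecbig_inertia_fix_of_unit {q : ℕ} (hq : q.Prime) (hq2 : q ≠ 2)
    (A : ValuationSubring Qbar) (hA : A.LiesOverPrime q) {z : Qbar} {u : ℤ}
    (hz : z ^ 2 = (u : Qbar)) (hu : ¬ (q : ℤ) ∣ u) {σ : GQ}
    (hσ : σ ∈ A.inertiaSubgroupIn ℚ) : σ z = z := by
  rcases ecbig_apply_eq_or_neg hz σ with h | h
  · exact h
  · exfalso
    have h1 := inertia_apply_sub_mem_nonunits hσ (ecbig_sqrt_mem A hz)
    rw [h, ValuationSubring.mem_nonunits_iff] at h1
    have h2 : -z - z = -(2 * z) := by ring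
    rw [h2, Valuation.map_neg, map_mul, valuation_two_eq_one A hq hA hq2,
      ecbig_sqrt_val hq A hA hz hu, one_mul] at h1
    exact lt_irrefl _ h1

/-- inertia at `2` fixes the square roots of the integers `≡ 1 mod 4` -/
theorem ecbig_inertia_two_fix (A : ValuationSubring Qbar) (hA : A.LiesOverPrime 2)
    {s : Qbar} {d : ℤ} (hs : s ^ 2 = (d : Qbar)) (hd : d % 4 = 1) {σ : GQ}
    (hσ : σ ∈ A.inertiaSubgroupIn ℚ) : σ s = s := by
  rcases ecbig_apply_eq_or_neg hs σ with h | h
  · exact h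
  · exfalso
    obtain ⟨e, he⟩ : ∃ e : ℤ, d = 4 * e + 1 := ⟨d / 4, by omega⟩
    set t : Qbar := (1 + s) / 2 with ht
    have htint : IsIntegral ℤ t := by
      refine ⟨X ^ 2 - (X + Polynomial.C e),
        monic_X_pow_sub (by rw [degree_X_add_C]; norm_num), ?_⟩
      rw [eval₂_sub, eval₂_pow, eval₂_X, eval₂_add, eval₂_X, Polynomial.eval₂_C, eq_intCast]
      have hd' : (d : Qbar) = 4 * (e : Qbar) + 1 := by rw [he]; push_cast; ring
      rw [ht]
      field_simp
      linear_combination hs + hd'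
    have htA : t ∈ A := Fermat.Agent.S13.Minkowski.mem_of_isIntegral_int A t htint
    have h1 := inertia_apply_sub_mem_nonunits hσ htA
    have h2 : σ t - t = -s := by
      rw [ht, map_div₀, map_add, map_one, map_ofNat, h]
      ring
    have hodd : ¬ ((2 : ℕ) : ℤ) ∣ d := by
      intro h3
      have : d % 2 = 0 := by
        obtain ⟨c, hc⟩ := h3
        rw [hc]; push_cast; omega
      omega
    rw [h2, ValuationSubring.mem_nonunits_iff, Valuation.map_neg,
      ecbig_sqrt_val Nat.prime_two A hA hs hodd] at h1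
    exact lt_irrefl _ h1

/-- the stabiliser of an algebraic number -/
def ecbigStab (z : Qbar) : Subgroup GQ where
  carrier := {τ | τ z = z}
  one_mem' := rfl
  mul_mem' := by
    intro a b ha hb
    show (a * b) z = z
    rw [AlgEquiv.mul_apply, show b z = z from hb, show a z = z from ha]
  inv_mem' := by
    intro a ha
    show a⁻¹ z = z
    have h1 : a z = z := ha
    calc a⁻¹ z = a⁻¹ (a z) := by rw [h1]
      _ = (a⁻¹ * a) z := rfl
      _ = z := by rw [inv_mul_cancel]; rfl

theorem mem_ecbigStab {z : Qbar} {τ : GQ} : τ ∈ ecbigStab z ↔ τ z = z := Iff.rfl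

/-- the stabiliser of a square root of an integer is normal -/
theorem ecbigStab_normal {z : Qbar} {u : ℤ} (hz : z ^ 2 = (u : Qbar)) :
    (ecbigStab z).Normal := by
  refine ⟨fun τ hτ g => ?_⟩
  rw [mem_ecbigStab] at hτ ⊢
  have h1 : g (g⁻¹ z) = z := by
    calc g (g⁻¹ z) = (g * g⁻¹) z := rfl
      _ = z := by rw [mul_inv_cancel]; rfl
  show g (τ (g⁻¹ z)) = z
  rcases ecbig_apply_eq_or_neg hz g⁻¹ with h | h
  · have h2 : τ (g⁻¹ z) = g⁻¹ z := by rw [h, hτ]
    rw [h2, h1]
  · have h2 : τ (g⁻¹ z) = g⁻¹ z := by rw [h, map_neg, hτ]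
    rw [h2, h1]

/-- **Minkowski for quadratic fields**: a square root of an integer prime to the odd prime `p`
which is fixed by inertia at all `q ≠ p` is fixed by `G_ℚ`. -/
theorem ecbig_fixed_of_unit {p : ℕ} (hp : p.Prime) (hp2 : p ≠ 2) {z : Qbar} {u : ℤ}
    (hz : z ^ 2 = (u : Qbar)) (hu : ¬ (p : ℤ) ∣ u)
    (hunr : ∀ q : ℕ, q.Prime → q ≠ p → ∃ A : ValuationSubring Qbar, A.LiesOverPrime q ∧
      ∀ σ ∈ A.inertiaSubgroupIn ℚ, σ z = z) :
    ∀ τ : GQ, τ z = z := by
  have htop : ecbigStab z = ⊤ := by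
    refine Fermat.Agent.S13.Minkowski.minkowski_glue _ (ecbigStab_normal hz)
      ⟨{z}, fun σ hσ => hσ z (Finset.mem_singleton_self z)⟩ ?_
    intro q hq
    by_cases hqp : q = p
    · subst hqp
      obtain ⟨A, hA⟩ := Fermat.Agent.Common.exists_liesOverPrime q hq
      exact ⟨A, hA, fun σ hσ => ecbig_inertia_fix_of_unit hq hp2 A hA hz hu hσ⟩
    · obtain ⟨A, hA, h⟩ := hunr q hq hqp
      exact ⟨A, hA, fun σ hσ => h σ hσ⟩
  intro τ
  have : τ ∈ ecbigStab z := by rw [htop]; trivial
  exact this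

/-- an element outside a subgroup of finite level moves some element fixed by the subgroup -/
theorem ecbig_exists_fixed_moved (H : Subgroup GQ)
    (hlev : ∃ S : Finset Qbar, ∀ σ : GQ, (∀ s ∈ S, σ s = s) → σ ∈ H) {σ₁ : GQ}
    (hσ₁ : σ₁ ∉ H) : ∃ x : Qbar, (∀ τ ∈ H, τ x = x) ∧ σ₁ x ≠ x := by
  classical
  obtain ⟨S, hS⟩ := hlev
  haveI := Fermat.Agent.Common.isAlgClosure_rat_qbar
  set F : IntermediateField ℚ Qbar := IntermediateField.adjoin ℚ (S : Set Qbar) with hF
  haveI : FiniteDimensional ℚ F :=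
    IntermediateField.finiteDimensional_adjoin (fun x _ =>
      (Algebra.IsIntegral.isIntegral (R := ℚ) x))
  have hFH : F.fixingSubgroup ≤ H := by
    intro σ hσ
    apply hS
    intro s hs
    exact (IntermediateField.mem_fixingSubgroup_iff _ σ).mp hσ s
      (IntermediateField.subset_adjoin ℚ _ (Finset.mem_coe.mpr hs))
  have hopen : IsOpen (H : Set GQ) := Subgroup.isOpen_mono hFH F.fixingSubgroup_isOpen
  have hclosed : IsClosed (H : Set GQ) := Subgroup.isClosed_of_isOpen H hopen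
  let Hc : ClosedSubgroup GQ := ⟨H, hclosed⟩
  set L : IntermediateField ℚ Qbar := IntermediateField.fixedField H with hL
  have hLH : L.fixingSubgroup = H := InfiniteGalois.fixingSubgroup_fixedField Hc
  have h1 : σ₁ ∉ L.fixingSubgroup := by rw [hLH]; exact hσ₁
  rw [IntermediateField.mem_fixingSubgroup_iff] at h1
  rw [not_forall] at h1
  obtain ⟨x, hx⟩ := h1
  rw [Classical.not_imp] at hx
  refine ⟨x, fun τ hτ => ?_, hx.2⟩
  exact (IntermediateField.mem_fixedField_iff H x).1 hx.1 τ hτ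

/-- an algebraic number fixed by `G_ℚ` is rational -/
theorem ecbig_rat_of_fixed {x : Qbar} (h : ∀ τ : GQ, τ x = x) :
    ∃ r : ℚ, algebraMap ℚ Qbar r = x := by
  haveI := Fermat.Agent.Common.isAlgClosure_rat_qbar
  have h1 : x ∈ IntermediateField.fixedField (⊤ : Subgroup GQ) := by
    rw [IntermediateField.mem_fixedField_iff]
    exact fun τ _ => h τ
  have h2 : IntermediateField.fixedField (⊤ : Subgroup GQ) = ⊥ := by
    rw [← IntermediateField.fixingSubgroup_bot (F := ℚ) (E := Qbar)]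
    exact InfiniteGalois.fixedField_fixingSubgroup ⊥
  rw [h2, IntermediateField.mem_bot] at h1
  exact h1

/-- a subgroup of index two and finite level is cut out by a square root `y` of an integer:
`τ y = y` on `H`, `τ y = -y` outside. -/
theorem ecbig_exists_sqrt (H : Subgroup GQ) (hH : H.index = 2)
    (hlev : ∃ S : Finset Qbar, ∀ σ : GQ, (∀ s ∈ S, σ s = s) → σ ∈ H) :
    ∃ (y : Qbar) (m : ℤ), y ≠ 0 ∧ y ^ 2 = (m : Qbar) ∧ (∀ τ ∈ H, τ y = y) ∧
      ∀ τ : GQ, τ ∉ H → τ y = -y := by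
  obtain ⟨σ₁, hσ₁⟩ : ∃ σ₁ : GQ, σ₁ ∉ H := by
    by_contra hcon
    rw [not_exists] at hcon
    have : H = ⊤ := eq_top_iff.2 (fun x _ => not_not.1 (hcon x))
    rw [this, Subgroup.index_top] at hH
    omega
  obtain ⟨x, hxH, hxσ⟩ := ecbig_exists_fixed_moved H hlev hσ₁
  have hout : ∀ τ : GQ, τ ∉ H → τ x = σ₁ x := by
    intro τ hτ
    have h1 : σ₁⁻¹ * τ ∈ H := by
      rw [Subgroup.mul_mem_iff_of_index_two hH]
      constructor
      · intro h
        exact absurd (H.inv_mem_iff.1 h) hσ₁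
      · intro h
        exact absurd h hτ
    have h2 := hxH _ h1
    have h3 : σ₁ ((σ₁⁻¹ * τ) x) = τ x := by
      show (σ₁ * (σ₁⁻¹ * τ)) x = τ x
      rw [mul_inv_cancel_left]
    rw [← h3, h2]
  have hx'H : ∀ τ ∈ H, τ (σ₁ x) = σ₁ x := by
    intro τ hτ
    have : τ * σ₁ ∉ H := by
      rw [Subgroup.mul_mem_iff_of_index_two hH]
      tauto
    exact hout (τ * σ₁) this
  have hx'out : ∀ τ : GQ, τ ∉ H → τ (σ₁ x) = x := by
    intro τ hτ
    have : τ * σ₁ ∈ H := by
      rw [Subgroup.mul_mem_iff_of_index_two hH]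
      tauto
    exact hxH _ this
  set y : Qbar := x - σ₁ x with hy
  have hy0 : y ≠ 0 := sub_ne_zero.2 (Ne.symm hxσ)
  have hyH : ∀ τ ∈ H, τ y = y := by
    intro τ hτ
    rw [hy, map_sub, hxH τ hτ, hx'H τ hτ]
  have hyout : ∀ τ : GQ, τ ∉ H → τ y = -y := by
    intro τ hτ
    rw [hy, map_sub, hout τ hτ, hx'out τ hτ]
    ring
  have hysq : ∀ τ : GQ, τ (y ^ 2) = y ^ 2 := by
    intro τ
    rw [map_pow]
    by_cases hτ : τ ∈ H
    · rw [hyH τ hτ]
    · rw [hyout τ hτ]
      ring
  obtain ⟨r, hr⟩ := ecbig_rat_of_fixed hysq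
  have hden : (r.den : Qbar) ≠ 0 := by exact_mod_cast r.den_nz
  refine ⟨(r.den : Qbar) * y, r.num * r.den, mul_ne_zero hden hy0, ?_, ?_, ?_⟩
  · have h1 : (r : Qbar) = (r.num : Qbar) / (r.den : Qbar) := by
      conv_lhs => rw [← Rat.num_div_den r]
      push_cast
      rfl
    rw [mul_pow, ← hr, eq_ratCast, h1]
    push_cast
    field_simp
  · intro τ hτ
    rw [map_mul, map_natCast, hyH τ hτ]
  · intro τ hτ
    rw [map_mul, map_natCast, hyout τ hτ]
    ring

/-- a prime `q ≠ p` does not divide `d = ± p` -/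
theorem ecbig_not_dvd_of_natAbs {p q : ℕ} (hp : p.Prime) (hq : q.Prime) (hqp : q ≠ p) {d : ℤ}
    (hd : d.natAbs = p) : ¬ (q : ℤ) ∣ d := by
  intro h
  have h1 : q ∣ d.natAbs := Int.natCast_dvd.1 h
  rw [hd] at h1
  exact hqp ((Nat.prime_dvd_prime_iff_eq hq hp).1 h1)

/-- **QUAD**. -/
theorem stmtQuad : StmtQuad := by
  intro p hp hp2 d hd hd4 s hs N hN H hNH hH
  have hlev : ∃ S : Finset Qbar, ∀ σ : GQ, (∀ s ∈ S, σ s = s) → σ ∈ H := by
    obtain ⟨S, hS⟩ := hN.level
    exact ⟨S, fun σ h => hNH (hS σ h)⟩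
  obtain ⟨y, m, hy0, hysq, hyH, hyout⟩ := ecbig_exists_sqrt H hH hlev
  obtain ⟨σ₁, hσ₁⟩ : ∃ σ₁ : GQ, σ₁ ∉ H := by
    by_contra hcon
    rw [not_exists] at hcon
    have : H = ⊤ := eq_top_iff.2 (fun x _ => not_not.1 (hcon x))
    rw [this, Subgroup.index_top] at hH
    omega
  have hpQ : (p : Qbar) ≠ 0 := by exact_mod_cast hp.ne_zero
  have hm0 : m ≠ 0 := by
    intro h
    rw [h, Int.cast_zero] at hysq
    exact hy0 (pow_eq_zero_iff (two_ne_zero) |>.1 hysq)
  have hfin : FiniteMultiplicity (p : ℤ) m := by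
    rw [Int.finiteMultiplicity_iff]
    refine ⟨?_, hm0⟩
    rw [Int.natAbs_natCast]
    exact hp.one_lt.ne'
  obtain ⟨m', hmk, hm'⟩ := hfin.exists_eq_pow_mul_and_not_dvd
  set k : ℕ := multiplicity (p : ℤ) m with hk
  -- inertia at `q ≠ p` fixes `y`
  have hIy : ∀ q : ℕ, q.Prime → q ≠ p → ∀ A : ValuationSubring Qbar, A.LiesOverPrime q →
      ∀ σ ∈ A.inertiaSubgroupIn ℚ, σ y = y :=
    fun q hq hqp A hA σ hσ => hyH σ (hNH (hN.unr q hq hqp A hA hσ))
  rcases Nat.even_or_odd' k with ⟨j, hj | hj⟩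
  · -- `k` even: `y / p ^ j` is a square root of `m'`, fixed by everything: impossible
    exfalso
    set z : Qbar := y / (p : Qbar) ^ j with hz
    have hzsq : z ^ 2 = (m' : Qbar) := by
      rw [hz, div_pow, hysq, hmk, hj]
      push_cast
      have hpj2 : ((p : Qbar) ^ j) ^ 2 ≠ 0 := pow_ne_zero 2 (pow_ne_zero j hpQ)
      rw [div_eq_iff hpj2, ← pow_mul, mul_comm j 2]
      ring
    have hfix := ecbig_fixed_of_unit hp hp2 hzsq hm' (fun q hq hqp => by
      obtain ⟨A, hA⟩ := Fermat.Agent.Common.exists_liesOverPrime q hq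
      refine ⟨A, hA, fun σ hσ => ?_⟩
      rw [hz, map_div₀, map_pow, map_natCast, hIy q hq hqp A hA σ hσ])
    have h1 := hfix σ₁
    rw [hz, map_div₀, map_pow, map_natCast, hyout σ₁ hσ₁] at h1
    have h2 : -y = y := by
      have h3 := congrArg (fun t => t * (p : Qbar) ^ j) h1
      simpa [div_mul_cancel₀ _ (pow_ne_zero j hpQ)] using h3
    have h4 : (2 : Qbar) * y = 0 := by linear_combination -h2
    rcases mul_eq_zero.1 h4 with h5 | h5
    · exact two_ne_zero h5
    · exact hy0 h5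
  · -- `k` odd
    have hs0 : s ≠ 0 := by
      intro h
      rw [h] at hs
      have : (d : Qbar) = 0 := by rw [← hs]; ring
      have hd0 : d = 0 := by exact_mod_cast this
      rw [hd0] at hd
      exact hp.ne_zero hd.symm
    -- `u = ± m'`
    obtain ⟨u, hu, hud⟩ : ∃ u : ℤ, ¬ (p : ℤ) ∣ u ∧ (p : ℤ) * m' = d * u := by
      rcases Int.natAbs_eq d with h | h
      · exact ⟨m', hm', by rw [h, hd]⟩
      · refine ⟨-m', ?_, by rw [h, hd]; ring⟩
        rwa [Int.dvd_neg]
    set z : Qbar := y / ((p : Qbar) ^ j * s) with hz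
    have hzsq : z ^ 2 = (u : Qbar) := by
      have hdQ : (d : Qbar) ≠ 0 := by rw [← hs]; exact pow_ne_zero 2 hs0
      have hud' : (p : Qbar) * (m' : Qbar) = (d : Qbar) * (u : Qbar) := by exact_mod_cast hud
      rw [hz, div_pow, hysq, hmk, hj, mul_pow, hs]
      push_cast
      rw [div_eq_iff (mul_ne_zero (pow_ne_zero 2 (pow_ne_zero j hpQ)) hdQ)]
      have : ((p : Qbar)) ^ (2 * j + 1) = ((p : Qbar) ^ j) ^ 2 * p := by
        rw [pow_succ, pow_mul, ← pow_mul, mul_comm 2 j, pow_mul]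
      rw [this]
      linear_combination ((p : Qbar) ^ j) ^ 2 * hud'
    have hIs : ∀ q : ℕ, q.Prime → q ≠ p → ∀ A : ValuationSubring Qbar, A.LiesOverPrime q →
        ∀ σ ∈ A.inertiaSubgroupIn ℚ, σ s = s := by
      intro q hq hqp A hA σ hσ
      by_cases hq2 : q = 2
      · subst hq2
        exact ecbig_inertia_two_fix A hA hs hd4 hσ
      · exact ecbig_inertia_fix_of_unit hq hq2 A hA hs (ecbig_not_dvd_of_natAbs hp hq hqp hd) hσ
    have hfix := ecbig_fixed_of_unit hp hp2 hzsq hu (fun q hq hqp => by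
      obtain ⟨A, hA⟩ := Fermat.Agent.Common.exists_liesOverPrime q hq
      refine ⟨A, hA, fun σ hσ => ?_⟩
      rw [hz, map_div₀, map_mul, map_pow, map_natCast, hIy q hq hqp A hA σ hσ,
        hIs q hq hqp A hA σ hσ])
    have key : ∀ τ : GQ, τ y * s = y * τ s := by
      intro τ
      have h1 := hfix τ
      rw [hz, map_div₀, map_mul, map_pow, map_natCast] at h1
      have hτs : τ s ≠ 0 := by
        rw [Ne, map_eq_zero]
        exact hs0
      have hpj : (p : Qbar) ^ j ≠ 0 := pow_ne_zero j hpQ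
      rw [div_eq_div_iff (mul_ne_zero hpj hτs) (mul_ne_zero hpj hs0)] at h1
      have h2 : (p : Qbar) ^ j * (τ y * s) = (p : Qbar) ^ j * (y * τ s) := by
        linear_combination h1
      exact mul_left_cancel₀ hpj h2
    intro σ
    constructor
    · intro hσ
      have h1 := key σ
      rw [hyH σ hσ] at h1
      exact (mul_left_cancel₀ hy0 h1).symm
    · intro hσs
      by_contra hσ
      have h1 := key σ
      rw [hyout σ hσ, hσs] at h1
      have h4 : (2 : Qbar) * (y * s) = 0 := by linear_combination -h1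
      rcases mul_eq_zero.1 h4 with h5 | h5
      · exact two_ne_zero h5
      · exact (mul_ne_zero hy0 hs0) h5

end Fermat.Agent.EC


end ZBEC_009_1

/-! ### bundled: `Fermat.Agent.EC.Big.TwoGroup` -/
section ZBEC_009_2

/-!
# E-BIG, pieces TWOGRP and GRP3

* `stmtTwoGroup : StmtTwoGroup` — a finite `2`-group with at most one subgroup of index two is
  cyclic, hence commutative;
* `stmtGrp3 : StmtGrp3` — a subgroup of `GL₂(𝔽₃)` without elements of order three and with at
  most one subgroup of index two is commutative.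
-/

set_option autoImplicit false
set_option linter.style.haveILetI false

namespace Fermat.Agent.EC

/-- TWOGRP, for any prime `ℓ`: a finite `ℓ`-group with at most one subgroup of index `ℓ` is
commutative. -/
theorem ecbig_pgroup_comm (ℓ : ℕ) [hℓ : Fact ℓ.Prime] (G : Type) [Group G] [Finite G]
    (hcard : ∃ n : ℕ, Nat.card G = ℓ ^ n)
    (huniq : ∀ H₁ H₂ : Subgroup G, H₁.index = ℓ → H₂.index = ℓ → H₁ = H₂) :
    ∀ a b : G, a * b = b * a := by
  obtain ⟨n, hn⟩ := hcard
  have hℓ1 : 1 < ℓ := hℓ.out.one_lt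
  rcases Nat.eq_zero_or_pos n with h0 | hpos
  · rw [h0, pow_zero] at hn
    have hsub : Subsingleton G := (Nat.card_eq_one_iff_unique.1 hn).1
    intro a b
    exact Subsingleton.elim _ _
  -- a subgroup `M` of index `ℓ`
  have hidx : ∀ K : Subgroup G, Nat.card K = ℓ ^ (n - 1) → K.index = ℓ := by
    intro K hK
    have h1 := K.index_mul_card
    rw [hK, hn] at h1
    have h2 : ℓ ^ n = ℓ * ℓ ^ (n - 1) := by
      rw [← pow_succ']
      congr 1
      omega
    rw [h2] at h1
    exact Nat.eq_of_mul_eq_mul_right (pow_pos hℓ.out.pos _) h1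
  obtain ⟨M, hM⟩ := Sylow.exists_subgroup_card_pow_prime (G := G) ℓ (n := n - 1)
    (by rw [hn]; exact pow_dvd_pow ℓ (Nat.sub_le n 1))
  have hMidx : M.index = ℓ := hidx M hM
  have hMtop : M ≠ ⊤ := by
    intro h
    rw [h, Subgroup.index_top] at hMidx
    omega
  obtain ⟨g, hg⟩ : ∃ g : G, g ∉ M := by
    by_contra hcon
    rw [not_exists] at hcon
    apply hMtop
    rw [eq_top_iff]
    intro x _
    have := hcon x
    rwa [not_not] at this
  -- `⟨g⟩ = ⊤`
  have hgtop : Subgroup.zpowers g = ⊤ := by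
    by_contra hne
    have hdvd : Nat.card (Subgroup.zpowers g) ∣ ℓ ^ n := hn ▸ Subgroup.card_subgroup_dvd_card _
    obtain ⟨m, hmn, hm⟩ := (Nat.dvd_prime_pow hℓ.out).1 hdvd
    have hmlt : m < n := by
      rcases Nat.lt_or_ge m n with h | h
      · exact h
      · exfalso
        apply hne
        have : m = n := le_antisymm hmn h
        rw [← Subgroup.card_eq_iff_eq_top, hm, this, hn]
    obtain ⟨K, hK, hle⟩ := Sylow.exists_subgroup_card_pow_prime_le (G := G) ℓ (m := n - 1)
      (by rw [hn]; exact pow_dvd_pow ℓ (Nat.sub_le n 1)) (Subgroup.zpowers g) hm (by omega)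
    have hKM : K = M := huniq K M (hidx K hK) hMidx
    exact hg (hKM ▸ hle (Subgroup.mem_zpowers g))
  intro a b
  have ha : a ∈ Subgroup.zpowers g := by rw [hgtop]; trivial
  have hb : b ∈ Subgroup.zpowers g := by rw [hgtop]; trivial
  obtain ⟨i, rfl⟩ := Subgroup.mem_zpowers_iff.1 ha
  obtain ⟨j, rfl⟩ := Subgroup.mem_zpowers_iff.1 hb
  rw [← zpow_add, ← zpow_add, add_comm]

/-- **TWOGRP**. -/
theorem stmtTwoGroup : StmtTwoGroup := by
  intro G _ _ hcard huniq
  haveI : Fact (Nat.Prime 2) := ⟨Nat.prime_two⟩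
  exact ecbig_pgroup_comm 2 G hcard huniq

/-- the order of `GL₂(𝔽₃)` -/
theorem ecbig_card_GL3 : Nat.card (GL (Fin 2) (ZMod 3)) = 48 := by
  rw [Matrix.card_GL_field]
  simp [Fin.prod_univ_two, ZMod.card]

/-- the order of `GL₂(𝔽₅)` -/
theorem ecbig_card_GL5 : Nat.card (GL (Fin 2) (ZMod 5)) = 480 := by
  haveI : Fact (Nat.Prime 5) := ⟨by norm_num⟩
  have h := Matrix.card_GL_field (𝔽 := ZMod 5) 2
  rw [Fin.prod_univ_two, ZMod.card] at h
  simpa using h

/-- **GRP3**. -/
theorem stmtGrp3 : StmtGrp3 := by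
  intro G _ _ φ hφ h3 huniq
  haveI : Fact (Nat.Prime 3) := ⟨Nat.prime_three⟩
  have hdvd : Nat.card G ∣ 48 := ecbig_card_GL3 ▸ Subgroup.card_dvd_of_injective φ hφ
  have h3' : ¬ 3 ∣ Nat.card G := by
    intro h
    obtain ⟨x, hx⟩ := exists_prime_orderOf_dvd_card' (G := G) 3 h
    have h1 : x ^ 3 = 1 := by rw [← hx]; exact pow_orderOf_eq_one x
    have h2 := h3 x h1
    rw [h2, orderOf_one] at hx
    omega
  have h16 : Nat.card G ∣ 16 := by
    have hcop : Nat.Coprime (Nat.card G) 3 :=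
      (Nat.coprime_comm.1 ((Nat.Prime.coprime_iff_not_dvd Nat.prime_three).2 h3'))
    have : Nat.card G ∣ 16 * 3 := hdvd
    exact hcop.dvd_of_dvd_mul_right this
  apply stmtTwoGroup G ?_ huniq
  obtain ⟨m, _, hm⟩ := (Nat.dvd_prime_pow Nat.prime_two (m := 4)).1 h16
  exact ⟨m, hm⟩

end Fermat.Agent.EC


end ZBEC_009_2

/-! ### bundled: `Fermat.Agent.EC.Big.Asm` -/
section ZBEC_009_3

/-!
# E-BIG, piece ASM: assembly (abstract form)

`ρ : ResidualGaloisRep k`, `k ≃+* ZMod p`, irreducible, odd, unipotent on the inertia groups at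
all primes `q ≠ p`.

* `ecbigPhi` : `ρ` in matrix form, `G_ℚ →* GL₂(𝔽_p)`;
* `ecbig_unr` : if the image contains no nontrivial unipotent element, `ker ρ` is unramified
  outside `p` (`EcbigUnr`);
* `ecbig_caseB_three`, `ecbig_caseB_five` : in that case `False`;
* `ecbig_exists_comm_three`, `ecbig_exists_comm_five` : every subgroup of index two contains
  a commutator of trace `≠ 2`.
-/

set_option autoImplicit false
set_option linter.style.haveILetI false
set_option linter.unusedSectionVars false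

namespace Fermat.Agent.EC

open Polynomial

/-- `ℚ̄` -/
local notation "Qbar" => AlgebraicClosure ℚ
/-- `G_ℚ` -/
local notation "GQ" => (AlgebraicClosure ℚ ≃ₐ[ℚ] AlgebraicClosure ℚ)

section Phi

variable {p : ℕ} {k : Type} [Field k] (e : k ≃+* ZMod p) (ρ : ResidualGaloisRep k)
  (b : Module.Basis (Fin 2) k ρ.V)

/-- endomorphisms as matrices over `𝔽_p` -/
noncomputable def ecbigT : Module.End k ρ.V →+* Matrix (Fin 2) (Fin 2) (ZMod p) :=
  (e.toRingHom.mapMatrix).comp ((LinearMap.toMatrixAlgEquiv b) : Module.End k ρ.V →+* _)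

theorem ecbigT_apply (f : Module.End k ρ.V) (i j : Fin 2) :
    ecbigT e ρ b f i j = e (LinearMap.toMatrix b b f i j) := rfl

theorem ecbigT_injective : Function.Injective (ecbigT e ρ b) := by
  intro f g h
  apply (LinearMap.toMatrix b b).injective
  ext i j
  have := congrFun (congrFun h i) j
  rw [ecbigT_apply, ecbigT_apply] at this
  exact e.injective this

theorem ecbigT_det (f : Module.End k ρ.V) : (ecbigT e ρ b f).det = e (LinearMap.det f) := by
  have h1 : ecbigT e ρ b f = (e.toRingHom.mapMatrix) (LinearMap.toMatrix b b f) := rfl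
  rw [h1, ← LinearMap.det_toMatrix b f, RingHom.mapMatrix_apply]
  exact (RingHom.map_det e.toRingHom _).symm

/-- `ρ` in matrix form -/
noncomputable def ecbigPhi : GQ →* GL (Fin 2) (ZMod p) :=
  (Units.map ((ecbigT e ρ b : Module.End k ρ.V →* _))).comp ρ.ρ.toHomUnits

theorem ecbigPhi_val (σ : GQ) : (ecbigPhi e ρ b σ).1 = ecbigT e ρ b (ρ.ρ σ) := rfl

theorem ecbigPhi_eq_iff (σ τ : GQ) : ecbigPhi e ρ b σ = ecbigPhi e ρ b τ ↔ ρ.ρ σ = ρ.ρ τ := by
  constructor
  · intro h
    have := congrArg (fun g : GL (Fin 2) (ZMod p) => g.1) h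
    exact ecbigT_injective e ρ b this
  · intro h
    apply Units.ext
    rw [ecbigPhi_val, ecbigPhi_val, h]

theorem ecbigPhi_eq_one_iff (σ : GQ) : ecbigPhi e ρ b σ = 1 ↔ ρ.ρ σ = 1 := by
  have := ecbigPhi_eq_iff e ρ b σ 1
  rwa [map_one, map_one] at this

end Phi

section Tools

/-- a finite-dimensional intermediate field is fixed as soon as a finite set is -/
theorem ecbig_exists_finset (L : IntermediateField ℚ Qbar) [FiniteDimensional ℚ L] :
    ∃ S : Finset Qbar, ∀ σ : GQ, (∀ s ∈ S, σ s = s) → ∀ x ∈ L, σ x = x := by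
  classical
  let B := Module.finBasis ℚ L
  refine ⟨Finset.univ.image (fun i => ((B i : L) : Qbar)), fun σ hσ x hx => ?_⟩
  have h1 : (⟨x, hx⟩ : L) = ∑ i, B.repr ⟨x, hx⟩ i • B i := (B.sum_repr ⟨x, hx⟩).symm
  have h2 : x = ((∑ i, B.repr ⟨x, hx⟩ i • B i : L) : Qbar) := congrArg Subtype.val h1
  have h3 : ((∑ i, B.repr ⟨x, hx⟩ i • B i : L) : Qbar)
      = ∑ i, algebraMap ℚ Qbar (B.repr ⟨x, hx⟩ i) * ((B i : L) : Qbar) := by
    rw [IntermediateField.coe_sum]
    refine Finset.sum_congr rfl fun i _ => ?_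
    rw [IntermediateField.coe_smul, Algebra.smul_def]
  rw [h2, h3, map_sum]
  refine Finset.sum_congr rfl fun i _ => ?_
  rw [map_mul, AlgEquiv.commutes, hσ _ (Finset.mem_image.2 ⟨i, Finset.mem_univ i, rfl⟩)]

variable {k : Type*} [Field k] {V : Type*} [AddCommGroup V] [Module k V]

/-- a nilpotent endomorphism of a plane has square zero -/
theorem ecbig_sq_zero_of_nilpotent (hfr : Module.finrank k V = 2) (N : Module.End k V) (n : ℕ)
    (hN : N ^ n = 0) : N * N = 0 := by
  have hfin : Module.Finite k V := Module.finite_of_finrank_eq_succ hfr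
  haveI : Nontrivial V := Module.nontrivial_of_finrank_pos (R := k) (by omega)
  have hdet : LinearMap.det N = 0 := by
    have h1 : LinearMap.det N ^ n = 0 := by
      rw [← map_pow, hN]
      exact LinearMap.det_zero' (Module.finBasisOfFinrankEq k V hfr)
    exact (pow_eq_zero_iff (fun h => by
      rw [h, pow_zero] at h1
      exact one_ne_zero h1)).1 h1
  have hCH := ecbig_cayley hfr N
  rw [hdet, zero_smul, add_zero, sub_eq_zero] at hCH
  set t := LinearMap.trace k V N with ht
  have hpow : ∀ m : ℕ, N ^ (m + 1) = t ^ m • N := by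
    intro m
    induction m with
    | zero => simp
    | succ m ih => rw [pow_succ, ih, smul_mul_assoc, hCH, smul_smul, ← pow_succ]
  rcases Nat.eq_zero_or_pos n with h0 | hpos
  · rw [h0, pow_zero] at hN
    calc N * N = N * N * 1 := (mul_one _).symm
      _ = 0 := by rw [hN, mul_zero]
  · obtain ⟨m, rfl⟩ : ∃ m, n = m + 1 := ⟨n - 1, by omega⟩
    rw [hpow m] at hN
    rcases smul_eq_zero.1 hN with h | h
    · rcases Nat.eq_zero_or_pos m with hm | hm
      · rw [hm, pow_zero] at h
        exact absurd h one_ne_zero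
      · have ht0 : t = 0 := (pow_eq_zero_iff hm.ne').1 h
        rw [hCH, ht0, zero_smul]
    · rw [h, mul_zero]

end Tools

section CaseB

variable {p : ℕ} [hp : Fact p.Prime] {k : Type} [Field k]

/-- the standing hypotheses: irreducible, odd, unipotent on inertia at all `q ≠ p` -/
structure EcbigHyp (p : ℕ) (ρ : ResidualGaloisRep k) : Prop where
  irr : ρ.IsIrreducible
  odd : ρ.IsOdd
  unip : ∀ q : ℕ, q.Prime → q ≠ p → ∀ A : ValuationSubring Qbar, A.LiesOverPrime q →
    ∀ σ ∈ A.inertiaSubgroupIn ℚ, (ρ.ρ σ - 1) * (ρ.ρ σ - 1) = 0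

/-- "the image contains no nontrivial unipotent element" -/
def EcbigNoUnip (ρ : ResidualGaloisRep k) : Prop :=
  ∀ σ : GQ, (ρ.ρ σ - 1) * (ρ.ρ σ - 1) = 0 → ρ.ρ σ = 1

variable (e : k ≃+* ZMod p) (ρ : ResidualGaloisRep k) (b : Module.Basis (Fin 2) k ρ.V)

/-- without unipotent elements, the kernel is unramified outside `p` -/
theorem ecbig_unr (h : EcbigHyp p ρ) (hnu : EcbigNoUnip ρ) :
    EcbigUnr p (ecbigPhi e ρ b).ker := by
  refine ⟨inferInstance, ?_, ?_⟩
  · obtain ⟨L, hL, hLρ⟩ := ρ.factorsThroughFiniteLevel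
    haveI := hL
    obtain ⟨S, hS⟩ := ecbig_exists_finset L
    exact ⟨S, fun σ hσ => MonoidHom.mem_ker.2
      ((ecbigPhi_eq_one_iff e ρ b σ).2 (hLρ σ (hS σ hσ)))⟩
  · intro q hq hqp A hA σ hσ
    exact MonoidHom.mem_ker.2 ((ecbigPhi_eq_one_iff e ρ b σ).2 (hnu σ (h.unip q hq hqp A hA σ hσ)))

/-- without unipotent elements, the image has no element of order `p` -/
theorem ecbig_no_order_p (hnu : EcbigNoUnip ρ) (g : (ecbigPhi e ρ b).range)
    (hg : g ^ p = 1) : g = 1 := by
  obtain ⟨σ, hσ⟩ := g.2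
  have h1 : (ecbigPhi e ρ b σ) ^ p = 1 := by
    have := congrArg Subtype.val hg
    rw [Subgroup.coe_pow, ← hσ] at this
    exact this
  have h2 : (ecbigT e ρ b (ρ.ρ σ)) ^ p = 1 := by
    have := congrArg (fun u : GL (Fin 2) (ZMod p) => u.1) h1
    simpa [ecbigPhi_val] using this
  have h3 : (ecbigT e ρ b (ρ.ρ σ) - 1) ^ p = 0 := by
    rw [sub_pow_char_of_commute p (Commute.one_right _), h2, one_pow, sub_self]
  have h4 : (ρ.ρ σ - 1) ^ p = 0 := by
    apply ecbigT_injective e ρ b
    rw [map_pow, map_sub, map_one, h3, map_zero]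
  have h5 := hnu σ (ecbig_sq_zero_of_nilpotent ρ.finrank_eq _ p h4)
  apply Subtype.ext
  rw [← hσ, (ecbigPhi_eq_one_iff e ρ b σ).2 h5]
  rfl

/-- the subgroups of index two of the image coincide (QUAD) -/
theorem ecbig_index_two_unique (h : EcbigHyp p ρ) (hnu : EcbigNoUnip ρ) (hp2 : p ≠ 2)
    {d : ℤ} (hd : d.natAbs = p) (hd4 : d % 4 = 1) {s : Qbar} (hs : s ^ 2 = (d : Qbar))
    (H₁ H₂ : Subgroup (ecbigPhi e ρ b).range) (h1 : H₁.index = 2) (h2 : H₂.index = 2) :
    H₁ = H₂ := by
  have hsurj := (ecbigPhi e ρ b).rangeRestrict_surjective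
  have hN := ecbig_unr e ρ b h hnu
  have key : ∀ H : Subgroup (ecbigPhi e ρ b).range, H.index = 2 →
      ∀ σ : GQ, σ ∈ H.comap (ecbigPhi e ρ b).rangeRestrict ↔ σ s = s := by
    intro H hH
    refine stmtQuad p hp.out hp2 d hd hd4 s hs _ hN _ ?_ ?_
    · intro σ hσ
      rw [Subgroup.mem_comap]
      have : (ecbigPhi e ρ b).rangeRestrict σ = 1 := by
        apply Subtype.ext
        exact MonoidHom.mem_ker.1 hσ
      rw [this]
      exact H.one_mem
    · rw [Subgroup.index_comap_of_surjective _ hsurj, hH]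
  apply Subgroup.comap_injective hsurj
  ext σ
  rw [key H₁ h1 σ, key H₂ h2 σ]

/-- a commutative image contradicts irreducibility + oddness -/
theorem ecbig_comm_absurd (h : EcbigHyp p ρ) (h2 : (2 : k) ≠ 0)
    (hcomm : ∀ σ τ : GQ, ρ.ρ σ * ρ.ρ τ = ρ.ρ τ * ρ.ρ σ) : False := by
  set C := ρ.ρ complexConjugation with hC
  have hCC : C * C = 1 := by
    rw [hC, ← map_mul, complexConjugation_mul_self, map_one]
  have hdet : LinearMap.det C = -1 :=
    h.odd complexConjugation complexConjugation_mul_self complexConjugation_ne_one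
  have hne : (1 : k) ≠ -1 := by
    intro h3
    apply h2
    have : (2 : k) = 1 + 1 := by norm_num
    rw [this]
    nth_rewrite 1 [h3]
    ring
  have hst : ∀ σ : GQ, ∀ x ∈ LinearMap.ker (C - 1), ρ.ρ σ x ∈ LinearMap.ker (C - 1) := by
    intro σ x hx
    rw [LinearMap.mem_ker, LinearMap.sub_apply, Module.End.one_apply, sub_eq_zero] at hx ⊢
    have h3 : C (ρ.ρ σ x) = ρ.ρ σ (C x) := by
      have := congrArg (fun f : Module.End k ρ.V => f x) (hcomm complexConjugation σ)
      simpa using this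
    rw [h3, hx]
  rcases h.irr _ hst with h3 | h3
  · -- `C - 1` injective ⇒ `C = -1`
    have h4 : ∀ x, C x = -x := by
      intro x
      have h5 : (C - 1) (C x + x) = 0 := by
        have := congrArg (fun f : Module.End k ρ.V => f x) hCC
        simp only [Module.End.mul_apply, Module.End.one_apply] at this
        rw [LinearMap.sub_apply, Module.End.one_apply, map_add, this]
        abel
      have h6 : C x + x ∈ LinearMap.ker (C - 1) := LinearMap.mem_ker.2 h5
      rw [h3, Submodule.mem_bot] at h6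
      exact eq_neg_of_add_eq_zero_left h6
    have h7 : C = -1 := by
      ext x
      rw [h4 x]
      simp
    have h8 : LinearMap.det C = 1 := by
      have h9 : C = (-1 : k) • (1 : Module.End k ρ.V) := by rw [h7]; simp
      rw [h9, LinearMap.det_smul, map_one, ρ.finrank_eq]
      norm_num
    rw [hdet] at h8
    exact hne h8.symm
  · have h4 : C = 1 := by
      have := LinearMap.ker_eq_top.1 h3
      exact sub_eq_zero.1 this
    rw [h4, map_one] at hdet
    exact hne hdet

/-- commutativity of the matrix image gives commutativity of `ρ` -/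
theorem ecbig_comm_of_range
    (hcomm : ∀ a c : (ecbigPhi e ρ b).range, a * c = c * a) (σ τ : GQ) :
    ρ.ρ σ * ρ.ρ τ = ρ.ρ τ * ρ.ρ σ := by
  have h1 := hcomm ((ecbigPhi e ρ b).rangeRestrict σ) ((ecbigPhi e ρ b).rangeRestrict τ)
  rw [← map_mul, ← map_mul] at h1
  have h2 : ecbigPhi e ρ b (σ * τ) = ecbigPhi e ρ b (τ * σ) := congrArg Subtype.val h1
  have h3 := (ecbigPhi_eq_iff e ρ b _ _).1 h2
  rwa [map_mul, map_mul] at h3

/-- `2 ≠ 0` in `k` -/
theorem ecbig_two_ne_zero {p : ℕ} [hp : Fact p.Prime] {k : Type} [Field k] (e : k ≃+* ZMod p)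
    (hp2 : p ≠ 2) : (2 : k) ≠ 0 := by
  intro h
  have h1 := congrArg e h
  rw [map_ofNat, map_zero] at h1
  have h2 : ((2 : ℕ) : ZMod p) = 0 := by exact_mod_cast h1
  rw [ZMod.natCast_eq_zero_iff] at h2
  exact hp2 ((Nat.prime_dvd_prime_iff_eq hp.out Nat.prime_two).1 h2)

end CaseB

section Three

variable {k : Type} [Field k]

/-- **Case (B), `p = 3`**: impossible. -/
theorem ecbig_caseB_three (e : k ≃+* ZMod 3) (ρ : ResidualGaloisRep k)
    (h : EcbigHyp 3 ρ) (hnu : EcbigNoUnip ρ) : False := by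
  classical
  let b : Module.Basis (Fin 2) k ρ.V := Module.finBasisOfFinrankEq k ρ.V ρ.finrank_eq
  obtain ⟨s, hs⟩ := IsAlgClosed.exists_pow_nat_eq (-3 : Qbar) (n := 2) (by norm_num)
  have hs' : s ^ 2 = ((-3 : ℤ) : Qbar) := by rw [hs]; norm_num
  have hcomm := stmtGrp3 (ecbigPhi e ρ b).range (ecbigPhi e ρ b).range.subtype
    (Subgroup.subtype_injective _)
    (fun g hg => ecbig_no_order_p e ρ b hnu g hg)
    (fun H₁ H₂ h1 h2 => ecbig_index_two_unique e ρ b h hnu (by norm_num)
      (d := -3) (by norm_num) (by norm_num) hs' H₁ H₂ h1 h2)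
  exact ecbig_comm_absurd ρ h (ecbig_two_ne_zero e (by norm_num))
    (ecbig_comm_of_range e ρ b hcomm)

/-- **E-BIG, `p = 3`, commutator form.** -/
theorem ecbig_exists_comm_three (e : k ≃+* ZMod 3) (ρ : ResidualGaloisRep k)
    (h : EcbigHyp 3 ρ) (H : Subgroup GQ) (hH : H.index = 2) :
    ∃ σ ∈ H, ∃ τ ∈ H, LinearMap.trace k ρ.V (ρ.ρ (σ * τ * σ⁻¹ * τ⁻¹)) ≠ 2 := by
  by_cases hex : ∃ σ₀ : GQ, ρ.ρ σ₀ ≠ 1 ∧ (ρ.ρ σ₀ - 1) * (ρ.ρ σ₀ - 1) = 0
  · obtain ⟨σ₀, h1, hu⟩ := hex
    exact ecbig_exists_comm_of_unipotent (ecbig_two_ne_zero e (by norm_num)) ρ h.irr σ₀ h1 hu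
      H hH
  · exfalso
    refine ecbig_caseB_three e ρ h (fun σ hσ => ?_)
    by_contra hne
    exact hex ⟨σ, hne, hσ⟩

end Three

section Five

variable {k : Type} [Field k]

/-- complex conjugation fixes the square roots of `5` -/
theorem ecbig_conj_sqrt_five {s : Qbar} (hs : s ^ 2 = ((5 : ℤ) : Qbar)) :
    complexConjugation s = s := by
  apply complexEmbedding.toRingHom.injective
  show complexEmbedding (complexConjugation s) = complexEmbedding s
  rw [complexEmbedding_complexConjugation]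
  set z : ℂ := complexEmbedding s with hz
  have hz2 : z ^ 2 = 5 := by
    rw [hz, ← map_pow, hs, Int.cast_ofNat, map_ofNat]
  set r : ℝ := Real.sqrt 5 with hr
  have hr2 : (r : ℂ) ^ 2 = 5 := by
    have : r ^ 2 = 5 := Real.sq_sqrt (by norm_num)
    exact_mod_cast this
  have h1 : (z - r) * (z + r) = 0 := by linear_combination hz2 - hr2
  rcases mul_eq_zero.1 h1 with h | h
  · rw [sub_eq_zero.1 h, Complex.conj_ofReal]
  · rw [eq_neg_of_add_eq_zero_left h, map_neg, Complex.conj_ofReal]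

/-- **Case (B), `p = 5`**: impossible, given the pieces CUBIC5, S3-5 and GRP5. -/
theorem ecbig_caseB_five (e : k ≃+* ZMod 5) (ρ : ResidualGaloisRep k)
    (hC5 : StmtCubic5) (hS3 : StmtS3) (hG5 : StmtGrp5)
    (h : EcbigHyp 5 ρ) (hnu : EcbigNoUnip ρ) : False := by
  classical
  haveI : Fact (Nat.Prime 5) := ⟨by norm_num⟩
  let b : Module.Basis (Fin 2) k ρ.V := Module.finBasisOfFinrankEq k ρ.V ρ.finrank_eq
  obtain ⟨s, hs⟩ := IsAlgClosed.exists_pow_nat_eq (5 : Qbar) (n := 2) (by norm_num)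
  have hs' : s ^ 2 = ((5 : ℤ) : Qbar) := by rw [hs]; norm_num
  have hsurj := (ecbigPhi e ρ b).rangeRestrict_surjective
  have hN := ecbig_unr e ρ b h hnu
  have hker : ∀ H : Subgroup (ecbigPhi e ρ b).range,
      (ecbigPhi e ρ b).ker ≤ H.comap (ecbigPhi e ρ b).rangeRestrict := by
    intro H σ hσ
    rw [Subgroup.mem_comap]
    have : (ecbigPhi e ρ b).rangeRestrict σ = 1 := by
      apply Subtype.ext
      exact MonoidHom.mem_ker.1 hσ
    rw [this]
    exact H.one_mem
  have hidx : ∀ H : Subgroup (ecbigPhi e ρ b).range,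
      (H.comap (ecbigPhi e ρ b).rangeRestrict).index = H.index :=
    fun H => Subgroup.index_comap_of_surjective _ hsurj
  have huniq : ∀ H₁ H₂ : Subgroup (ecbigPhi e ρ b).range, H₁.index = 2 → H₂.index = 2 →
      H₁ = H₂ := fun H₁ H₂ h1 h2 =>
    ecbig_index_two_unique e ρ b h hnu (by norm_num) (d := 5) (by norm_num) (by norm_num)
      hs' H₁ H₂ h1 h2
  have hcomm := hG5 (ecbigPhi e ρ b).range (ecbigPhi e ρ b).range.subtype
    (Subgroup.subtype_injective _)
    (fun g hg => ecbig_no_order_p e ρ b hnu g hg) huniq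
    (fun H hHn => by
      have := hC5 _ hN (H.comap (ecbigPhi e ρ b).rangeRestrict) (hker H) (hHn.comap _)
      rwa [hidx H] at this)
    (fun H hHn hH6 a c => by
      obtain ⟨σ, rfl⟩ := hsurj a
      obtain ⟨τ, rfl⟩ := hsurj c
      have := hS3 _ hN (H.comap (ecbigPhi e ρ b).rangeRestrict) (hker H) (hHn.comap _)
        (by rw [hidx H, hH6]) σ τ
      rw [Subgroup.mem_comap] at this
      simpa using this)
    ((ecbigPhi e ρ b).rangeRestrict complexConjugation)
    (by rw [← map_mul, complexConjugation_mul_self, map_one])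
    (by
      show (ecbigPhi e ρ b complexConjugation).1.det = -1
      rw [ecbigPhi_val, ecbigT_det,
        h.odd complexConjugation complexConjugation_mul_self complexConjugation_ne_one,
        map_neg, map_one])
    (fun H hH2 => by
      have key := stmtQuad 5 (by norm_num) (by norm_num) 5 (by norm_num) (by norm_num) s hs'
        _ hN (H.comap (ecbigPhi e ρ b).rangeRestrict) (hker H) (by rw [hidx H, hH2])
        complexConjugation
      have := key.2 (ecbig_conj_sqrt_five hs')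
      rwa [Subgroup.mem_comap] at this)
  exact ecbig_comm_absurd ρ h (ecbig_two_ne_zero e (by norm_num))
    (ecbig_comm_of_range e ρ b hcomm)

/-- **E-BIG, `p = 5`, commutator form** (given CUBIC5, S3-5, GRP5). -/
theorem ecbig_exists_comm_five (e : k ≃+* ZMod 5) (ρ : ResidualGaloisRep k)
    (hC5 : StmtCubic5) (hS3 : StmtS3) (hG5 : StmtGrp5)
    (h : EcbigHyp 5 ρ) (H : Subgroup GQ) (hH : H.index = 2) :
    ∃ σ ∈ H, ∃ τ ∈ H, LinearMap.trace k ρ.V (ρ.ρ (σ * τ * σ⁻¹ * τ⁻¹)) ≠ 2 := by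
  haveI : Fact (Nat.Prime 5) := ⟨by norm_num⟩
  by_cases hex : ∃ σ₀ : GQ, ρ.ρ σ₀ ≠ 1 ∧ (ρ.ρ σ₀ - 1) * (ρ.ρ σ₀ - 1) = 0
  · obtain ⟨σ₀, h1, hu⟩ := hex
    exact ecbig_exists_comm_of_unipotent (ecbig_two_ne_zero e (by norm_num)) ρ h.irr σ₀ h1 hu
      H hH
  · exfalso
    refine ecbig_caseB_five e ρ hC5 hS3 hG5 h (fun σ hσ => ?_)
    by_contra hne
    exact hex ⟨σ, hne, hσ⟩

end Five

end Fermat.Agent.EC


end ZBEC_009_3
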