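/- GENERATED FILE (helper35, build-time optimisation, NOTES/ZB.md): verbatim concatenation of the modules
   Fermat.Agent.S33.WildDepth
   Fermat.Agent.S33.WildAbsLoc
   Fermat.Agent.S33.WildDepthVal
   Fermat.Agent.S33.WildAbsMain
   Fermat.Agent.S33.WildNormal
   Fermat.Agent.S33.WildMG
   Do not edit; do not import together with these modules. -/
import Mathlib
import Fermat.Agent.ZB.S33_004
import Fermat.Agent.ZB.UNIP_007
import Fermat.Agent.ZB.STB_003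
import Fermat.Agent.ZB.UNIP_032
import Fermat.Agent.ZB.UNIP_014
import Fermat.Agent.ZB.UNIP_036

/-! ### bundled: `Fermat.Agent.S33.WildDepth` -/
section ZBS33_005_0
/-
S33 v2 / C4 WILD, piece T2 "WildDepth" (helper53): the depth-improvement lemma (pure commutative
algebra, Mathlib only).  Statement and proof follow NOTES/S33-C4-depth.md (helper33), organised
by the invariant `Inv d : ∃ γ ∈ R^×, ∀ c, G c - γ ∈ π^d V c` (no case analysis on valuations).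

`F` a field, `R ⊆ F` a local subring, `V c ⊇ R` subrings (the vertical valuation rings through
the closed point; arbitrary subrings with `π⁻¹ ∉ V c` suffice), `ζ` a primitive `p`-th root of
unity in `R`, `ζ - 1 = π ^ e₁ * u₀` with `u₀ ∈ R^×`, `e₁ ≥ 1`.  Hypotheses
  (SS1) `R ∩ ⋂ π V c = π R`,
  (N1), (N2) roots of `T^p - r`, `T^p - T - r` modulo `π V c` come from `R`,
  (X) gluing: a family `a c ∈ R`, pairwise congruent modulo `𝔪_R`, is simultaneously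
      approximated modulo `π V c` by one element of `R`.
`wd_main`: if `ε ∈ R^×` is a `p`-th power modulo `(ζ - 1)^p π` in every `V c`, then it is the
`p`-th power of a unit of `R` modulo `(ζ - 1)^p π R`.
-/

set_option autoImplicit false

namespace Fermat.Agent.S33

open Polynomial

/-! ### binomial identity -/

/-- refined binomial identity in `ℤ[X]` -/
theorem wd_binom_poly {p : ℕ} (hp : p.Prime) :
    ∃ Q : ℤ[X], (1 + X : ℤ[X]) ^ p = 1 + X ^ p + (p : ℤ[X]) * X + (p : ℤ[X]) * X ^ 2 * Q := by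
  obtain ⟨r, hr⟩ := exists_add_pow_prime_eq hp (1 : ℤ[X]) X
  have hc : r.coeff 0 = 1 := by
    have h1 := congrArg (fun f : ℤ[X] => f.coeff 1) hr
    simp only [one_pow, mul_one] at h1
    rw [Polynomial.coeff_one_add_X_pow] at h1
    have h2 : ((1 : ℤ[X]) + X ^ p + (p : ℤ[X]) * X * r).coeff 1 = (p : ℤ) * r.coeff 0 := by
      have hp1 : (1 : ℕ) ≠ p := hp.one_lt.ne
      rw [Polynomial.coeff_add, Polynomial.coeff_add, Polynomial.coeff_one, Polynomial.coeff_X_pow,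
        if_neg (by norm_num), if_neg hp1, zero_add, zero_add, mul_assoc,
        ← Polynomial.C_eq_natCast, Polynomial.coeff_C_mul, Polynomial.coeff_X_mul]
    rw [h2] at h1
    have hp0 : (p : ℤ) ≠ 0 := by exact_mod_cast hp.ne_zero
    have h3 : (p : ℤ) * 1 = (p : ℤ) * r.coeff 0 := by
      rw [mul_one, ← h1]; simp
    exact (mul_left_cancel₀ hp0 h3).symm
  have hdvd : (X : ℤ[X]) ∣ r - 1 := by
    rw [Polynomial.X_dvd_iff, Polynomial.coeff_sub, hc, Polynomial.coeff_one_zero, sub_self]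
  obtain ⟨Q, hQ⟩ := hdvd
  refine ⟨Q, ?_⟩
  have hr' : r = 1 + X * Q := by rw [← hQ]; ring
  rw [hr, hr']
  ring

/-- refined binomial identity in any commutative ring -/
theorem wd_binom {S : Type*} [CommRing S] {p : ℕ} (hp : p.Prime) (y : S) :
    ∃ q : S, (1 + y) ^ p = 1 + y ^ p + (p : S) * y + (p : S) * y ^ 2 * q := by
  obtain ⟨Q, hQ⟩ := wd_binom_poly hp
  refine ⟨Polynomial.aeval y Q, ?_⟩
  have := congrArg (Polynomial.aeval y) hQ
  simpa using this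

/-- the same inside a subring of a field -/
theorem wd_binom_mem {F : Type*} [Field F] (T : Subring F) {p : ℕ} (hp : p.Prime) {y : F}
    (hy : y ∈ T) :
    ∃ q ∈ T, (1 + y) ^ p = 1 + y ^ p + (p : F) * y + (p : F) * y ^ 2 * q := by
  obtain ⟨q, hq⟩ := wd_binom (S := T) hp ⟨y, hy⟩
  refine ⟨q, q.2, ?_⟩
  have := congrArg (Subtype.val) hq
  simpa using this

/-- `(a + b)^p = a^p + b^p + p * r` in a subring -/
theorem wd_add_pow_mem {F : Type*} [Field F] (T : Subring F) {p : ℕ} (hp : p.Prime) {a b : F}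
    (ha : a ∈ T) (hb : b ∈ T) :
    ∃ r ∈ T, (a + b) ^ p = a ^ p + b ^ p + (p : F) * r := by
  obtain ⟨r, hr⟩ := exists_add_pow_prime_eq hp (⟨a, ha⟩ : T) ⟨b, hb⟩
  refine ⟨a * b * r, T.mul_mem (T.mul_mem ha hb) r.2, ?_⟩
  have := congrArg (Subtype.val) hr
  simp only [Subring.coe_add, Subring.coe_mul, Subring.coe_pow, Subring.coe_natCast] at this
  rw [this]; ring

open IsLocalRing

section Local

variable {F : Type*} [Field F] (R : Subring F)

theorem wd_inv_mem_of_isUnit {x : R} (h : IsUnit x) : (x : F)⁻¹ ∈ R := by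
  obtain ⟨y, hy⟩ := h.exists_right_inv
  have h1 : (x : F) * (y : F) = 1 := by
    have := congrArg Subtype.val hy
    simpa using this
  have h2 : (x : F)⁻¹ = (y : F) := inv_eq_of_mul_eq_one_right h1
  rw [h2]; exact y.2

theorem wd_isUnit_of_inv_mem {x : F} (hx : x ∈ R) (hx0 : x ≠ 0) (hx' : x⁻¹ ∈ R) :
    IsUnit (⟨x, hx⟩ : R) := by
  refine IsUnit.of_mul_eq_one (⟨x⁻¹, hx'⟩ : R) ?_
  apply Subtype.ext
  simp [hx0]

theorem wd_ne_zero_of_isUnit {x : R} (h : IsUnit x) : (x : F) ≠ 0 := by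
  intro h0
  have : x = 0 := Subtype.ext h0
  rw [this] at h
  exact not_isUnit_zero h

variable [IsLocalRing R]

/-- (i) `R ∩ πV ⊆ 𝔪` -/
theorem wd_mem_max (V : Subring F) (hRV : R ≤ V) {π : F} (hπ0 : π ≠ 0) (hπV : π⁻¹ ∉ V)
    {x : R} (h : ∃ y ∈ V, (x : F) = π * y) : x ∈ maximalIdeal R := by
  by_contra hx
  have hu : IsUnit x := by
    by_contra hnu
    exact hx ((IsLocalRing.mem_maximalIdeal x).mpr hnu)
  obtain ⟨y, hy, hxy⟩ := h
  have hx0 := wd_ne_zero_of_isUnit R hu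
  have hxi := hRV (wd_inv_mem_of_isUnit R hu)
  apply hπV
  have : π⁻¹ = y * (x : F)⁻¹ := by
    rw [hxy]
    have hy0 : y ≠ 0 := by
      rintro rfl
      rw [mul_zero] at hxy
      exact hx0 hxy
    field_simp
  rw [this]
  exact V.mul_mem hy hxi

/-- (ii) Frobenius is injective on the residue field -/
theorem wd_frob_inj {p : ℕ} (hp : p.Prime) (hpm : (p : R) ∈ maximalIdeal R) {a b : R}
    (h : a ^ p - b ^ p ∈ maximalIdeal R) : a - b ∈ maximalIdeal R := by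
  obtain ⟨r, hr⟩ := exists_add_pow_prime_eq hp (a - b) b
  rw [sub_add_cancel] at hr
  have h1 : (a - b) ^ p = (a ^ p - b ^ p) - (p : R) * ((a - b) * b * r) := by
    rw [hr]; ring
  have h2 : (a - b) ^ p ∈ maximalIdeal R := by
    rw [h1]
    exact Ideal.sub_mem _ h (Ideal.mul_mem_right _ _ hpm)
  exact (IsLocalRing.maximalIdeal.isMaximal R).isPrime.mem_of_pow_mem p h2

/-- (iii) -/
theorem wd_isUnit_of_pow {p : ℕ} (hp : p.Prime) {γ ε : R} (hε : IsUnit ε)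
    (h : γ ^ p - ε ∈ maximalIdeal R) : IsUnit γ := by
  by_contra hnu
  have hγ : γ ∈ maximalIdeal R := (IsLocalRing.mem_maximalIdeal γ).mpr hnu
  have hγp : γ ^ p ∈ maximalIdeal R := Ideal.pow_mem_of_mem _ hγ p hp.pos
  have : ε ∈ maximalIdeal R := by
    have h2 : ε = γ ^ p - (γ ^ p - ε) := by ring
    rw [h2]
    exact Ideal.sub_mem _ hγp h
  exact (IsLocalRing.mem_maximalIdeal ε).mp this hε

/-- (iv) roots of `X^p - X` in the residue field -/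
theorem wd_as_root {p : ℕ} [hp : Fact p.Prime] (hpm : (p : R) ∈ maximalIdeal R) {x : R}
    (h : x ^ p - x ∈ maximalIdeal R) : ∃ i : ℕ, x - (i : R) ∈ maximalIdeal R := by
  have hp0 : ((p : ℕ) : ResidueField R) = 0 := by
    have := (IsLocalRing.residue_eq_zero_iff (p : R)).mpr hpm
    simpa using this
  have : CharP (ResidueField R) p := (CharP.charP_iff_prime_eq_zero hp.out).mpr hp0
  have hx : (residue R x) ^ p = residue R x := by
    have := (IsLocalRing.residue_eq_zero_iff (x ^ p - x)).mpr h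
    rw [map_sub, map_pow, sub_eq_zero] at this
    exact this
  have hbot := (Subfield.mem_bot_iff_pow_eq_self (ResidueField R) p).mpr hx
  rw [← ZMod.fieldRange_castHom_eq_bot p] at hbot
  obtain ⟨a, ha⟩ := hbot
  refine ⟨a.val, ?_⟩
  rw [← IsLocalRing.residue_eq_zero_iff, map_sub, map_natCast, ← ha, sub_eq_zero]
  simp

/-- (iv') Artin–Schreier: `℘ a ≡ ℘ b` ⇒ `a ≡ b + i` -/
theorem wd_as_diff {p : ℕ} [hp : Fact p.Prime] (hpm : (p : R) ∈ maximalIdeal R) {a b : R}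
    (h : (a ^ p - a) - (b ^ p - b) ∈ maximalIdeal R) :
    ∃ i : ℕ, a - b - (i : R) ∈ maximalIdeal R := by
  obtain ⟨r, hr⟩ := exists_add_pow_prime_eq hp.out (a - b) b
  rw [sub_add_cancel] at hr
  apply wd_as_root R hpm
  have h1 : (a - b) ^ p - (a - b) = ((a ^ p - a) - (b ^ p - b)) - (p : R) * ((a - b) * b * r) := by
    rw [hr]; ring
  rw [h1]
  exact Ideal.sub_mem _ h (Ideal.mul_mem_right _ _ hpm)

end Local

/-! ### elementwise helpers in subrings of a field -/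

section Helpers

variable {F : Type*} [Field F]

theorem wd_pow_sub_pow_mem (T : Subring F) {a b : F} (ha : a ∈ T) (hb : b ∈ T) (n : ℕ) :
    ∃ g ∈ T, a ^ n - b ^ n = (a - b) * g := by
  obtain ⟨g, hg⟩ := sub_dvd_pow_sub_pow (⟨a, ha⟩ : T) ⟨b, hb⟩ n
  refine ⟨g, g.2, ?_⟩
  have := congrArg Subtype.val hg
  simpa using this

theorem wd_flt (p : ℕ) [hp : Fact p.Prime] (i : ℕ) : ∃ n : ℤ, ((i : ℤ) ^ p - i) = p * n := by
  have h : (((i : ℤ) ^ p - i : ℤ) : ZMod p) = 0 := by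
    push_cast
    rw [ZMod.pow_card, sub_self]
  exact (ZMod.intCast_zmod_eq_zero_iff_dvd _ p).mp h

theorem wd_flt_field (p : ℕ) [hp : Fact p.Prime] (i : ℕ) :
    ∃ n : ℤ, ((i : F) ^ p - i) = p * n := by
  obtain ⟨n, hn⟩ := wd_flt p i
  refine ⟨n, ?_⟩
  have := congrArg (fun z : ℤ => (z : F)) hn
  simpa using this

end Helpers

/-! ### the hypotheses -/

/-- The hypotheses of the depth lemma (T2 WildDepth). -/
structure WdHyp {F : Type*} [Field F] (R : Subring F) [IsLocalRing R] {κ : Type*}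
    (V : κ → Subring F) (p : ℕ) (ζ π : F) (e₁ : ℕ) (u₀ : F) : Prop where
  hRV : ∀ c, R ≤ V c
  hζR : ζ ∈ R
  hζ : IsPrimitiveRoot ζ p
  hπR : π ∈ R
  hπV : ∀ c, π⁻¹ ∉ V c
  he₁ : 1 ≤ e₁
  hu₀ : u₀ ∈ R
  hu₀' : u₀⁻¹ ∈ R
  hlam : ζ - 1 = π ^ e₁ * u₀
  hSS1 : ∀ x ∈ R, (∀ c, ∃ y ∈ V c, x = π * y) → ∃ y ∈ R, x = π * y
  hN1 : ∀ c, ∀ x ∈ V c, ∀ r ∈ R, (∃ y ∈ V c, x ^ p - r = π * y) →
    ∃ s ∈ R, ∃ y ∈ V c, x - s = π * y
  hN2 : ∀ c, ∀ x ∈ V c, ∀ r ∈ R, (∃ y ∈ V c, x ^ p - x - r = π * y) →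
    ∃ s ∈ R, ∃ y ∈ V c, x - s = π * y
  hX : ∀ a : κ → R, (∀ c c', a c - a c' ∈ IsLocalRing.maximalIdeal R) →
    ∃ r : R, ∀ c, ∃ y ∈ V c, (r : F) - (a c : F) = π * y

namespace WdHyp

variable {F : Type*} [Field F] {R : Subring F} [IsLocalRing R] {κ : Type*} [Nonempty κ]
  {V : κ → Subring F} {p : ℕ} [hp : Fact p.Prime] {ζ π : F} {e₁ : ℕ} {u₀ : F}

omit [Nonempty κ] in
theorem lam_ne_zero (H : WdHyp R V p ζ π e₁ u₀) : ζ - 1 ≠ 0 :=
  sub_ne_zero.mpr (H.hζ.ne_one hp.out.one_lt)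

omit [Nonempty κ] in
theorem pi_ne_zero (H : WdHyp R V p ζ π e₁ u₀) : π ≠ 0 := by
  intro h
  apply H.lam_ne_zero
  rw [H.hlam, h, zero_pow (by have := H.he₁; omega), zero_mul]

omit [Nonempty κ] in
theorem u₀_ne_zero (H : WdHyp R V p ζ π e₁ u₀) : u₀ ≠ 0 := by
  intro h
  apply H.lam_ne_zero
  rw [H.hlam, h, mul_zero]

omit [Nonempty κ] in
/-- `R ∩ πV_c ⊆ 𝔪` -/
theorem mem_max (H : WdHyp R V p ζ π e₁ u₀) (c : κ) {x : F} (hx : x ∈ R)
    (h : ∃ y ∈ V c, x = π * y) : (⟨x, hx⟩ : R) ∈ IsLocalRing.maximalIdeal R :=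
  wd_mem_max R (V c) (H.hRV c) H.pi_ne_zero (H.hπV c) h

omit [Nonempty κ] hp in
/-- `λ = π * l₁` -/
theorem exists_lam_eq (H : WdHyp R V p ζ π e₁ u₀) : ∃ l₁ ∈ R, ζ - 1 = π * l₁ := by
  obtain ⟨e, rfl⟩ : ∃ e, e₁ = e + 1 := ⟨e₁ - 1, by have := H.he₁; omega⟩
  refine ⟨π ^ e * u₀, R.mul_mem (R.pow_mem H.hπR e) H.hu₀, ?_⟩
  rw [H.hlam]; ring

omit [Nonempty κ] hp in
theorem lam_mem (H : WdHyp R V p ζ π e₁ u₀) : ζ - 1 ∈ R :=
  R.sub_mem H.hζR R.one_mem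

/-- the cyclotomic relation `p λ = - λ^p υ`, `υ = 1 - λ q υ` -/
theorem exists_upsilon (H : WdHyp R V p ζ π e₁ u₀) :
    ∃ υ ∈ R, ∃ q ∈ R, (p : F) * (ζ - 1) = -((ζ - 1) ^ p * υ) ∧ υ = 1 - (ζ - 1) * q * υ := by
  obtain ⟨q, hq, hbin⟩ := wd_binom_mem R hp.out H.lam_mem
  have hζp : (1 + (ζ - 1)) ^ p = 1 := by
    rw [add_sub_cancel]; exact H.hζ.pow_eq_one
  rw [hζp] at hbin
  set lam := ζ - 1 with hlamdef
  have hlam0 : lam ≠ 0 := H.lam_ne_zero
  -- `u := 1 + lam q` is a unit of `R`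
  have huR : 1 + lam * q ∈ R := R.add_mem R.one_mem (R.mul_mem H.lam_mem hq)
  obtain ⟨l₁, hl₁, hl⟩ := H.exists_lam_eq
  have c₀ : κ := Classical.arbitrary κ
  have hlamq : (⟨lam * q, R.mul_mem H.lam_mem hq⟩ : R) ∈ IsLocalRing.maximalIdeal R := by
    apply H.mem_max c₀
    refine ⟨l₁ * q, (H.hRV c₀) (R.mul_mem hl₁ hq), ?_⟩
    rw [hlamdef, hl]; ring
  have hunit : IsUnit (⟨1 + lam * q, huR⟩ : R) := by
    have h1 : (⟨1 + lam * q, huR⟩ : R) = 1 + ⟨lam * q, R.mul_mem H.lam_mem hq⟩ := rfl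
    rw [h1]
    by_contra hnu
    have h2 := (IsLocalRing.mem_maximalIdeal _).mpr hnu
    have h3 : (1 : R) ∈ IsLocalRing.maximalIdeal R := by
      have := Ideal.sub_mem _ h2 hlamq
      simp at this
    exact (IsLocalRing.mem_maximalIdeal (1 : R)).mp h3 isUnit_one
  have hu0 : (1 + lam * q) ≠ 0 := wd_ne_zero_of_isUnit R hunit
  have huinv : (1 + lam * q)⁻¹ ∈ R := wd_inv_mem_of_isUnit R hunit
  refine ⟨(1 + lam * q)⁻¹, huinv, q, hq, ?_, ?_⟩
  · have h4 : (p : F) * lam * (1 + lam * q) = -(lam ^ p) := by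
      linear_combination -hbin
    field_simp
    linear_combination h4
  · field_simp
    ring

/-- `p ∈ πR` -/
theorem exists_p_eq (H : WdHyp R V p ζ π e₁ u₀) : ∃ p₁ ∈ R, (p : F) = π * p₁ := by
  obtain ⟨υ, hυ, q, hq, h1, h2⟩ := H.exists_upsilon
  obtain ⟨l₁, hl₁, hl⟩ := H.exists_lam_eq
  obtain ⟨m, hm⟩ : ∃ m, p = m + 2 := ⟨p - 2, by have := hp.out.two_le; omega⟩
  have hlam0 : ζ - 1 ≠ 0 := H.lam_ne_zero
  refine ⟨-(l₁ * (ζ - 1) ^ m * υ), R.neg_mem (R.mul_mem (R.mul_mem hl₁ (R.pow_mem H.lam_mem m)) hυ), ?_⟩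
  have h3 : (p : F) * (ζ - 1) = (π * -(l₁ * (ζ - 1) ^ m * υ)) * (ζ - 1) := by
    rw [h1]
    have : (ζ - 1) ^ p = (ζ - 1) ^ m * (ζ - 1) * (π * l₁) := by
      rw [hm, pow_succ, pow_succ, ← hl]
    rw [this]; ring
  exact mul_right_cancel₀ hlam0 h3

theorem p_mem_max (H : WdHyp R V p ζ π e₁ u₀) : ((p : ℕ) : R) ∈ IsLocalRing.maximalIdeal R := by
  obtain ⟨p₁, hp₁, hpe⟩ := H.exists_p_eq
  have c₀ : κ := Classical.arbitrary κ
  have h := H.mem_max c₀ (natCast_mem R p) ⟨p₁, H.hRV c₀ hp₁, hpe⟩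
  have e : (⟨(p : F), natCast_mem R p⟩ : R) = ((p : ℕ) : R) := Subtype.ext (by simp)
  rwa [e] at h

omit [Nonempty κ] in
/-- iterated (SS1) -/
theorem ss1_iter (H : WdHyp R V p ζ π e₁ u₀) : ∀ (n : ℕ) (x : F), x ∈ R →
    (∀ c, ∃ y ∈ V c, x = π ^ n * y) → ∃ y ∈ R, x = π ^ n * y := by
  intro n
  induction n with
  | zero =>
    intro x hx _
    exact ⟨x, hx, by simp⟩
  | succ n ih =>
    intro x hx h
    have h1 : ∀ c, ∃ y ∈ V c, x = π * y := by
      intro c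
      obtain ⟨y, hy, hxy⟩ := h c
      exact ⟨π ^ n * y, (V c).mul_mem ((V c).pow_mem (H.hRV c H.hπR) n) hy, by rw [hxy]; ring⟩
    obtain ⟨x', hx', hxx'⟩ := H.hSS1 x hx h1
    have h2 : ∀ c, ∃ y ∈ V c, x' = π ^ n * y := by
      intro c
      obtain ⟨y, hy, hxy⟩ := h c
      refine ⟨y, hy, ?_⟩
      have : π * x' = π * (π ^ n * y) := by rw [← hxx', hxy]; ring
      exact mul_left_cancel₀ H.pi_ne_zero this
    obtain ⟨y, hy, hx'y⟩ := ih x' hx' h2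
    exact ⟨y, hy, by rw [hxx', hx'y]; ring⟩

end WdHyp

/-! ### the induction -/

namespace WdHyp

variable {F : Type*} [Field F] {R : Subring F} [IsLocalRing R] {κ : Type*} [Nonempty κ]
  {V : κ → Subring F} {p : ℕ} [hp : Fact p.Prime] {ζ π : F} {e₁ : ℕ} {u₀ : F}

/-- the invariant: `γ ∈ R^×` with `G_c ≡ γ mod π^d V_c` for all `c` -/
def Inv (R : Subring F) (V : κ → Subring F) (π : F) (G : κ → F) (d : ℕ) : Prop :=
  ∃ γ ∈ R, γ ≠ 0 ∧ γ⁻¹ ∈ R ∧ ∀ c, ∃ w ∈ V c, G c - γ = π ^ d * w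

omit [Nonempty κ] hp [IsLocalRing R] in
theorem inv_zero (G : κ → F) (hG : ∀ c, G c ∈ V c) : Inv R V π G 0 :=
  ⟨1, R.one_mem, one_ne_zero, by rw [inv_one]; exact R.one_mem, fun c =>
    ⟨G c - 1, (V c).sub_mem (hG c) (V c).one_mem, by simp⟩⟩

omit [Nonempty κ] in
/-- unit criterion: `γ ∈ R`, `γ ≡ G_c mod πV_c` for one `c` ⇒ `γ ∈ R^×` -/
theorem unit_of_congr (H : WdHyp R V p ζ π e₁ u₀) {ε : F} (hε : ε ∈ R) (hε' : ε⁻¹ ∈ R)
    (hε0 : ε ≠ 0) {G : κ → F} (hG : ∀ c, G c ∈ V c)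
    (hGε : ∀ c, ∃ y ∈ V c, ε - G c ^ p = (ζ - 1) ^ p * π * y)
    {γ : F} (hγ : γ ∈ R) (c : κ) (h : ∃ y ∈ V c, G c - γ = π * y) :
    γ ≠ 0 ∧ γ⁻¹ ∈ R := by
  obtain ⟨y, hy, hyG⟩ := h
  obtain ⟨z, hz, hzG⟩ := hGε c
  have hγV : γ ∈ V c := H.hRV c hγ
  obtain ⟨g, hg, hgG⟩ := wd_pow_sub_pow_mem (V c) (hG c) hγV p
  have hlamV : ζ - 1 ∈ V c := H.hRV c H.lam_mem
  have hmem : (⟨γ, hγ⟩ : R) ^ p - ⟨ε, hε⟩ ∈ IsLocalRing.maximalIdeal R := by
    have h1 : γ ^ p - ε ∈ R := R.sub_mem (R.pow_mem hγ p) hε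
    have h2 := H.mem_max c h1 ⟨-(y * g) - (ζ - 1) ^ p * z,
      (V c).sub_mem ((V c).neg_mem ((V c).mul_mem hy hg))
        ((V c).mul_mem ((V c).pow_mem hlamV p) hz), by
        linear_combination (-1 : F) * hgG - hzG - g * hyG⟩
    exact h2
  have hu := wd_isUnit_of_pow R hp.out (wd_isUnit_of_inv_mem R hε hε0 hε') hmem
  exact ⟨wd_ne_zero_of_isUnit R hu, wd_inv_mem_of_isUnit R hu⟩

/-- **Step** `d → d + 1` below the critical depth. -/
theorem step (H : WdHyp R V p ζ π e₁ u₀) {ε : F} (hε : ε ∈ R) (hε' : ε⁻¹ ∈ R)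
    (hε0 : ε ≠ 0) {G : κ → F} (hG : ∀ c, G c ∈ V c)
    (hGε : ∀ c, ∃ y ∈ V c, ε - G c ^ p = (ζ - 1) ^ p * π * y)
    {d : ℕ} (hd : d < e₁) (h : Inv R V π G d) : Inv R V π G (d + 1) := by
  obtain ⟨γ, hγ, hγ0, hγ', hw⟩ := h
  choose w hwV hwG using hw
  obtain ⟨k, hk⟩ : ∃ k, e₁ = d + 1 + k := ⟨e₁ - d - 1, by omega⟩
  obtain ⟨m, hm⟩ : ∃ m, p = m + 2 := ⟨p - 2, by have := hp.out.two_le; omega⟩
  have hπ0 := H.pi_ne_zero
  have hu0 := H.u₀_ne_zero
  obtain ⟨υ, hυ, q₀, hq₀, hpυ, hυ1⟩ := H.exists_upsilon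
  -- `p * π^d = π^(p d + 1) * W`
  have hW : ∃ W ∈ R, (p : F) * π ^ d = π ^ (p * d + 1) * W := by
    refine ⟨-(π ^ (m + (m + 1) * k) * u₀ ^ (m + 1) * υ),
      R.neg_mem (R.mul_mem (R.mul_mem (R.pow_mem H.hπR _) (R.pow_mem H.hu₀ _)) hυ), ?_⟩
    have h1 : (p : F) * (π ^ e₁ * u₀) = -((π ^ e₁ * u₀) ^ p * υ) := by rw [← H.hlam]; exact hpυ
    have h2 : π ^ (1 + k) * u₀ ≠ 0 := mul_ne_zero (pow_ne_zero _ hπ0) hu0
    apply mul_right_cancel₀ h2
    have h3 : (p : F) * π ^ d * (π ^ (1 + k) * u₀) = (p : F) * (π ^ e₁ * u₀) := by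
      rw [hk]; ring
    rw [h3, h1, hk, hm]
    ring
  obtain ⟨W, hWR, hWe⟩ := hW
  -- `λ^p π = π^(p d + 1) * L`
  have hL : ∃ L ∈ R, (ζ - 1) ^ p * π = π ^ (p * d + 1) * L := by
    refine ⟨π ^ (p * (1 + k)) * u₀ ^ p, R.mul_mem (R.pow_mem H.hπR _) (R.pow_mem H.hu₀ _), ?_⟩
    rw [H.hlam, hk]; ring
  obtain ⟨L, hLR, hLe⟩ := hL
  -- `t_c`
  set t : κ → F := fun c => w c * γ⁻¹ with htdef
  have htV : ∀ c, t c ∈ V c := fun c => (V c).mul_mem (hwV c) (H.hRV c hγ')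
  have hGt : ∀ c, G c = γ * (1 + π ^ d * t c) := by
    intro c
    have := hwG c
    simp only [htdef]
    field_simp
    linear_combination this
  -- Claim A
  have hA : ∀ c, ∃ z ∈ V c, ε - γ ^ p = π ^ (p * d) * (γ ^ p * t c ^ p + π * z) := by
    intro c
    obtain ⟨y, hy, hyG⟩ := hGε c
    obtain ⟨q, hq, hbin⟩ := wd_binom_mem (V c) hp.out
      ((V c).mul_mem ((V c).pow_mem (H.hRV c H.hπR) d) (htV c))
    have hγV : γ ∈ V c := H.hRV c hγ
    have hπV : π ∈ V c := H.hRV c H.hπR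
    refine ⟨L * y + γ ^ p * (W * t c * (1 + π ^ d * t c * q)),
      (V c).add_mem ((V c).mul_mem (H.hRV c hLR) hy)
        ((V c).mul_mem ((V c).pow_mem hγV p) ((V c).mul_mem ((V c).mul_mem (H.hRV c hWR) (htV c))
          ((V c).add_mem (V c).one_mem ((V c).mul_mem ((V c).mul_mem ((V c).pow_mem hπV d)
            (htV c)) hq)))), ?_⟩
    have e1 : G c ^ p = γ ^ p * (1 + π ^ d * t c) ^ p := by rw [hGt c, mul_pow]
    have e2 : (π ^ d * t c) ^ p = π ^ (p * d) * t c ^ p := by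
      rw [mul_pow, ← pow_mul, mul_comm d p]
    have e3 : π ^ (p * d + 1) = π ^ (p * d) * π := pow_succ _ _
    rw [e3] at hWe hLe
    have e4 : ε - γ ^ p = (ε - G c ^ p) + γ ^ p * ((1 + π ^ d * t c) ^ p - 1) := by
      rw [e1]; ring
    rw [e4, hyG, hbin, e2, hLe]
    linear_combination (γ ^ p * t c * (1 + π ^ d * t c * q)) * hWe
  -- `ε - γ^p = π^(pd) γ^p f`
  obtain ⟨a, ha, hae⟩ := H.ss1_iter (p * d) (ε - γ ^ p) (R.sub_mem hε (R.pow_mem hγ p))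
    (fun c => by
      obtain ⟨z, hz, hze⟩ := hA c
      exact ⟨γ ^ p * t c ^ p + π * z,
        (V c).add_mem ((V c).mul_mem ((V c).pow_mem (H.hRV c hγ) p) ((V c).pow_mem (htV c) p))
          ((V c).mul_mem (H.hRV c H.hπR) hz), hze⟩)
  set f : F := a * (γ⁻¹) ^ p with hfdef
  have hfR : f ∈ R := R.mul_mem ha (R.pow_mem hγ' p)
  have hγp0 : γ ^ p ≠ 0 := pow_ne_zero _ hγ0
  have hπpd0 : π ^ (p * d) ≠ 0 := pow_ne_zero _ hπ0
  have haf : a = γ ^ p * f := by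
    simp only [hfdef, inv_pow]
    field_simp
  -- `t_c^p ≡ f`
  have htf : ∀ c, ∃ y ∈ V c, t c ^ p - f = π * y := by
    intro c
    obtain ⟨z, hz, hze⟩ := hA c
    refine ⟨-(z * (γ⁻¹) ^ p), (V c).neg_mem ((V c).mul_mem hz ((V c).pow_mem (H.hRV c hγ') p)), ?_⟩
    have h1 : π ^ (p * d) * (γ ^ p * f) = π ^ (p * d) * (γ ^ p * t c ^ p + π * z) := by
      rw [← haf, ← hae, hze]
    have h2 := mul_left_cancel₀ hπpd0 h1
    simp only [inv_pow]
    field_simp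
    linear_combination -h2
  -- (N1)
  have hs : ∀ c, ∃ s ∈ R, ∃ y ∈ V c, t c - s = π * y := fun c =>
    H.hN1 c (t c) (htV c) f hfR (htf c)
  choose s hsR hsy using hs
  -- typed
  have hsf : ∀ c, (⟨s c, hsR c⟩ : R) ^ p - ⟨f, hfR⟩ ∈ IsLocalRing.maximalIdeal R := by
    intro c
    obtain ⟨y, hy, hye⟩ := hsy c
    obtain ⟨y', hy', hye'⟩ := htf c
    obtain ⟨g, hg, hge⟩ := wd_pow_sub_pow_mem (V c) (htV c) (H.hRV c (hsR c)) p
    have h1 : s c ^ p - f ∈ R := R.sub_mem (R.pow_mem (hsR c) p) hfR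
    exact H.mem_max c h1 ⟨y' - y * g, (V c).sub_mem hy' ((V c).mul_mem hy hg), by
      linear_combination hye' - hge - g * hye⟩
  have hss : ∀ c c', (⟨s c, hsR c⟩ : R) - ⟨s c', hsR c'⟩ ∈ IsLocalRing.maximalIdeal R := by
    intro c c'
    apply wd_frob_inj R hp.out H.p_mem_max
    have := Ideal.sub_mem _ (hsf c) (hsf c')
    have e : (⟨s c, hsR c⟩ : R) ^ p - ⟨s c', hsR c'⟩ ^ p
        = ((⟨s c, hsR c⟩ : R) ^ p - ⟨f, hfR⟩) - (⟨s c', hsR c'⟩ ^ p - ⟨f, hfR⟩) := by ring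
    rw [e]; exact this
  obtain ⟨δ, hδ⟩ := H.hX (fun c => ⟨s c, hsR c⟩) hss
  -- the new `γ`
  have hγ'R : γ * (1 + π ^ d * (δ : F)) ∈ R :=
    R.mul_mem hγ (R.add_mem R.one_mem (R.mul_mem (R.pow_mem H.hπR d) δ.2))
  have hcong : ∀ c, ∃ y ∈ V c, G c - γ * (1 + π ^ d * (δ : F)) = π ^ (d + 1) * y := by
    intro c
    obtain ⟨y, hy, hye⟩ := hsy c
    obtain ⟨y', hy', hye'⟩ := hδ c
    refine ⟨γ * (y - y'), (V c).mul_mem (H.hRV c hγ) ((V c).sub_mem hy hy'), ?_⟩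
    rw [hGt c, pow_succ]
    simp only at hye'
    linear_combination (γ * π ^ d) * hye - (γ * π ^ d) * hye'
  have c₀ : κ := Classical.arbitrary κ
  obtain ⟨hne, hinv⟩ := H.unit_of_congr hε hε' hε0 hG hGε hγ'R c₀ (by
    obtain ⟨y, hy, hye⟩ := hcong c₀
    exact ⟨π ^ d * y, (V c₀).mul_mem ((V c₀).pow_mem (H.hRV c₀ H.hπR) d) hy, by
      rw [hye, pow_succ]; ring⟩)
  exact ⟨_, hγ'R, hne, hinv, hcong⟩

/-- `Inv d` for all `d ≤ e₁` -/
theorem inv_of_le (H : WdHyp R V p ζ π e₁ u₀) {ε : F} (hε : ε ∈ R) (hε' : ε⁻¹ ∈ R)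
    (hε0 : ε ≠ 0) {G : κ → F} (hG : ∀ c, G c ∈ V c)
    (hGε : ∀ c, ∃ y ∈ V c, ε - G c ^ p = (ζ - 1) ^ p * π * y) :
    ∀ d, d ≤ e₁ → Inv R V π G d := by
  intro d
  induction d with
  | zero => exact fun _ => inv_zero G hG
  | succ d ih =>
    intro hd
    exact H.step hε hε' hε0 hG hGε (by omega) (ih (by omega))

end WdHyp

/-! ### the critical depth -/

namespace WdHyp

variable {F : Type*} [Field F] {R : Subring F} [IsLocalRing R] {κ : Type*} [Nonempty κ]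
  {V : κ → Subring F} {p : ℕ} [hp : Fact p.Prime] {ζ π : F} {e₁ : ℕ} {u₀ : F}

/-- `(1 + λ t)^p = 1 + λ^p (t^p - t) + λ^p π z` in any subring `T ⊇ R` -/
theorem critical_binom (H : WdHyp R V p ζ π e₁ u₀) (T : Subring F) (hRT : R ≤ T) {t : F}
    (ht : t ∈ T) :
    ∃ z ∈ T, (1 + (ζ - 1) * t) ^ p = 1 + (ζ - 1) ^ p * ((t ^ p - t) + π * z) := by
  obtain ⟨υ, hυ, q₀, hq₀, hpυ, hυ1⟩ := H.exists_upsilon
  obtain ⟨l₁, hl₁, hl⟩ := H.exists_lam_eq
  obtain ⟨q, hq, hbin⟩ := wd_binom_mem T hp.out (T.mul_mem (hRT H.lam_mem) ht)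
  refine ⟨l₁ * (q₀ * υ * t - υ * t ^ 2 * q), T.mul_mem (hRT hl₁)
    (T.sub_mem (T.mul_mem (T.mul_mem (hRT hq₀) (hRT hυ)) ht)
      (T.mul_mem (T.mul_mem (hRT hυ) (T.pow_mem ht 2)) hq)), ?_⟩
  rw [hbin, mul_pow]
  have h1 : π * (l₁ * (q₀ * υ * t - υ * t ^ 2 * q)) = (ζ - 1) * (q₀ * υ * t - υ * t ^ 2 * q) := by
    rw [hl]; ring
  rw [h1]
  linear_combination (t + (ζ - 1) * t ^ 2 * q) * hpυ - ((ζ - 1) ^ p * t) * hυ1

/-- **Final step** at the critical depth `d = e₁`. -/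
theorem final (H : WdHyp R V p ζ π e₁ u₀) {ε : F} (hε : ε ∈ R) (hε' : ε⁻¹ ∈ R)
    (hε0 : ε ≠ 0) {G : κ → F} (hG : ∀ c, G c ∈ V c)
    (hGε : ∀ c, ∃ y ∈ V c, ε - G c ^ p = (ζ - 1) ^ p * π * y)
    (h : Inv R V π G e₁) :
    ∃ γ ∈ R, γ ≠ 0 ∧ γ⁻¹ ∈ R ∧ ∃ y ∈ R, ε - γ ^ p = (ζ - 1) ^ p * π * y := by
  obtain ⟨γ, hγ, hγ0, hγ', hw⟩ := h
  choose w hwV hwG using hw
  have hπ0 := H.pi_ne_zero
  have hu0 := H.u₀_ne_zero
  have hlam0 := H.lam_ne_zero
  obtain ⟨l₁, hl₁, hl⟩ := H.exists_lam_eq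
  obtain ⟨p₁, hp₁, hpe⟩ := H.exists_p_eq
  have hlamR : ζ - 1 ∈ R := H.lam_mem
  -- `t_c`
  set t : κ → F := fun c => w c * γ⁻¹ * u₀⁻¹ with htdef
  have htV : ∀ c, t c ∈ V c := fun c =>
    (V c).mul_mem ((V c).mul_mem (hwV c) (H.hRV c hγ')) (H.hRV c H.hu₀')
  have hGt : ∀ c, G c = γ * (1 + (ζ - 1) * t c) := by
    intro c
    have := hwG c
    simp only [htdef]
    rw [H.hlam]
    field_simp
    linear_combination this
  -- Claim B
  have hB : ∀ c, ∃ z ∈ V c, ε - γ ^ p = (ζ - 1) ^ p * (γ ^ p * (t c ^ p - t c) + π * z) := by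
    intro c
    obtain ⟨y, hy, hyG⟩ := hGε c
    obtain ⟨z, hz, hze⟩ := H.critical_binom (V c) (H.hRV c) (htV c)
    refine ⟨y + γ ^ p * z, (V c).add_mem hy ((V c).mul_mem ((V c).pow_mem (H.hRV c hγ) p) hz), ?_⟩
    have e1 : G c ^ p = γ ^ p * (1 + (ζ - 1) * t c) ^ p := by rw [hGt c, mul_pow]
    have e4 : ε - γ ^ p = (ε - G c ^ p) + γ ^ p * ((1 + (ζ - 1) * t c) ^ p - 1) := by
      rw [e1]; ring
    rw [e4, hyG, hze]
    ring
  -- `ε - γ^p = λ^p γ^p f`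
  have hlamp : (ζ - 1) ^ p = π ^ (p * e₁) * u₀ ^ p := by
    rw [H.hlam, mul_pow, ← pow_mul, mul_comm e₁ p]
  obtain ⟨a, ha, hae⟩ := H.ss1_iter (p * e₁) (ε - γ ^ p) (R.sub_mem hε (R.pow_mem hγ p))
    (fun c => by
      obtain ⟨z, hz, hze⟩ := hB c
      refine ⟨u₀ ^ p * (γ ^ p * (t c ^ p - t c) + π * z),
        (V c).mul_mem ((V c).pow_mem (H.hRV c H.hu₀) p)
          ((V c).add_mem ((V c).mul_mem ((V c).pow_mem (H.hRV c hγ) p)
            ((V c).sub_mem ((V c).pow_mem (htV c) p) (htV c)))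
          ((V c).mul_mem (H.hRV c H.hπR) hz)), ?_⟩
      rw [hze, hlamp]; ring)
  set f : F := a * (u₀⁻¹) ^ p * (γ⁻¹) ^ p with hfdef
  have hfR : f ∈ R := R.mul_mem (R.mul_mem ha (R.pow_mem H.hu₀' p)) (R.pow_mem hγ' p)
  have hγp0 : γ ^ p ≠ 0 := pow_ne_zero _ hγ0
  have hlamp0 : (ζ - 1) ^ p ≠ 0 := pow_ne_zero _ hlam0
  have hεf : ε - γ ^ p = (ζ - 1) ^ p * (γ ^ p * f) := by
    rw [hae, hlamp]
    simp only [hfdef, inv_pow]
    field_simp
  -- `℘(t_c) ≡ f`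
  have htf : ∀ c, ∃ y ∈ V c, t c ^ p - t c - f = π * y := by
    intro c
    obtain ⟨z, hz, hze⟩ := hB c
    refine ⟨-(z * (γ⁻¹) ^ p), (V c).neg_mem ((V c).mul_mem hz ((V c).pow_mem (H.hRV c hγ') p)), ?_⟩
    have h1 : (ζ - 1) ^ p * (γ ^ p * f) = (ζ - 1) ^ p * (γ ^ p * (t c ^ p - t c) + π * z) := by
      rw [← hεf, hze]
    have h2 := mul_left_cancel₀ hlamp0 h1
    simp only [inv_pow]
    field_simp
    linear_combination -h2
  -- (N2)
  have hs : ∀ c, ∃ s ∈ R, ∃ y ∈ V c, t c - s = π * y := fun c =>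
    H.hN2 c (t c) (htV c) f hfR (htf c)
  choose s hsR hsy using hs
  -- typed: `℘(s_c) ≡ f mod 𝔪`
  have hsf : ∀ c, ((⟨s c, hsR c⟩ : R) ^ p - ⟨s c, hsR c⟩) - ⟨f, hfR⟩
      ∈ IsLocalRing.maximalIdeal R := by
    intro c
    obtain ⟨y, hy, hye⟩ := hsy c
    obtain ⟨y', hy', hye'⟩ := htf c
    obtain ⟨g, hg, hge⟩ := wd_pow_sub_pow_mem (V c) (htV c) (H.hRV c (hsR c)) p
    have h1 : s c ^ p - s c - f ∈ R := R.sub_mem (R.sub_mem (R.pow_mem (hsR c) p) (hsR c)) hfR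
    exact H.mem_max c h1 ⟨y' - y * g + y, (V c).add_mem ((V c).sub_mem hy' ((V c).mul_mem hy hg)) hy,
      by linear_combination hye' - hge - g * hye + hye⟩
  have c₀ : κ := Classical.arbitrary κ
  have hi : ∀ c, ∃ i : ℕ, (⟨s c₀, hsR c₀⟩ : R) - ⟨s c, hsR c⟩ - (i : R)
      ∈ IsLocalRing.maximalIdeal R := by
    intro c
    apply wd_as_diff R H.p_mem_max
    have := Ideal.sub_mem _ (hsf c₀) (hsf c)
    have e : ((⟨s c₀, hsR c₀⟩ : R) ^ p - ⟨s c₀, hsR c₀⟩) - ((⟨s c, hsR c⟩ : R) ^ p - ⟨s c, hsR c⟩)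
        = (((⟨s c₀, hsR c₀⟩ : R) ^ p - ⟨s c₀, hsR c₀⟩) - ⟨f, hfR⟩)
          - (((⟨s c, hsR c⟩ : R) ^ p - ⟨s c, hsR c⟩) - ⟨f, hfR⟩) := by ring
    rw [e]; exact this
  choose i hi using hi
  have hb : ∀ c c', ((⟨s c, hsR c⟩ : R) + (i c : R)) - ((⟨s c', hsR c'⟩ : R) + (i c' : R))
      ∈ IsLocalRing.maximalIdeal R := by
    intro c c'
    have := Ideal.sub_mem _ (hi c') (hi c)
    have e : ((⟨s c, hsR c⟩ : R) + (i c : R)) - ((⟨s c', hsR c'⟩ : R) + (i c' : R))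
        = ((⟨s c₀, hsR c₀⟩ : R) - ⟨s c', hsR c'⟩ - (i c' : R))
          - ((⟨s c₀, hsR c₀⟩ : R) - ⟨s c, hsR c⟩ - (i c : R)) := by ring
    rw [e]; exact this
  obtain ⟨δ, hδ⟩ := H.hX (fun c => (⟨s c, hsR c⟩ : R) + (i c : R)) hb
  -- `℘(δ) ≡ f mod π V_c`
  have hδf : ∀ c, ∃ y ∈ V c, f - ((δ : F) ^ p - (δ : F)) = π * y := by
    intro c
    obtain ⟨y, hy, hye⟩ := hsy c
    obtain ⟨y', hy', hye'⟩ := hδ c
    obtain ⟨y'', hy'', hye''⟩ := htf c
    have hiV : ((i c : ℕ) : F) ∈ V c := natCast_mem (V c) (i c)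
    have htiV : t c + (i c : F) ∈ V c := (V c).add_mem (htV c) hiV
    have hδV : (δ : F) ∈ V c := H.hRV c δ.2
    obtain ⟨g, hg, hge⟩ := wd_pow_sub_pow_mem (V c) hδV htiV p
    obtain ⟨r, hr, hre⟩ := wd_add_pow_mem (V c) hp.out (htV c) hiV
    obtain ⟨n, hn⟩ := wd_flt_field (F := F) p (i c)
    have hp₁V : p₁ ∈ V c := H.hRV c hp₁
    simp only [Subring.coe_add, Subring.coe_natCast] at hye'
    -- `δ - (t + i) = π (y' - y)`
    have hδt : (δ : F) - (t c + (i c : F)) = π * (y' - y) := by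
      linear_combination hye' - hye
    refine ⟨-y'' - (y' - y) * g - p₁ * (r + (n : F)) + (y' - y),
      (V c).add_mem ((V c).sub_mem ((V c).sub_mem ((V c).neg_mem hy'')
        ((V c).mul_mem ((V c).sub_mem hy' hy) hg))
        ((V c).mul_mem hp₁V ((V c).add_mem hr (intCast_mem (V c) n)))) ((V c).sub_mem hy' hy), ?_⟩
    linear_combination -hye'' - hge - g * hδt - hre - hn + hδt - (r + (n : F)) * hpe
  obtain ⟨g, hgR, hge⟩ := H.hSS1 (f - ((δ : F) ^ p - (δ : F)))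
    (R.sub_mem hfR (R.sub_mem (R.pow_mem δ.2 p) δ.2)) hδf
  -- the new `γ`
  have hγ'R : γ * (1 + (ζ - 1) * (δ : F)) ∈ R :=
    R.mul_mem hγ (R.add_mem R.one_mem (R.mul_mem hlamR δ.2))
  obtain ⟨z, hz, hze⟩ := H.critical_binom R le_rfl δ.2
  have hfinal : ε - (γ * (1 + (ζ - 1) * (δ : F))) ^ p = (ζ - 1) ^ p * π * (γ ^ p * (g - z)) := by
    rw [mul_pow, hze]
    linear_combination hεf + ((ζ - 1) ^ p * γ ^ p) * hge
  have hcong : ∃ y ∈ V c₀, G c₀ - γ * (1 + (ζ - 1) * (δ : F)) = π * y := by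
    refine ⟨γ * l₁ * (t c₀ - (δ : F)), (V c₀).mul_mem ((V c₀).mul_mem (H.hRV c₀ hγ) (H.hRV c₀ hl₁))
      ((V c₀).sub_mem (htV c₀) (H.hRV c₀ δ.2)), ?_⟩
    rw [hGt c₀, hl]; ring
  obtain ⟨hne, hinv⟩ := H.unit_of_congr hε hε' hε0 hG hGε hγ'R c₀ hcong
  exact ⟨_, hγ'R, hne, hinv, γ ^ p * (g - z),
    R.mul_mem (R.pow_mem hγ p) (R.sub_mem hgR hz), hfinal⟩

end WdHyp

/-! ### the main theorem -/

/-- **T2 WildDepth.**  If `ε ∈ R^×` is a `p`-th power modulo `(ζ - 1)^p π` in every `V c`, then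
it is the `p`-th power of a unit of `R` modulo `(ζ - 1)^p π R`. -/
theorem wd_main {F : Type*} [Field F] (R : Subring F) [IsLocalRing R]
    {κ : Type*} [Nonempty κ] (V : κ → Subring F) (hRV : ∀ c, R ≤ V c)
    (p : ℕ) [Fact p.Prime]
    (ζ : F) (hζR : ζ ∈ R) (hζ : IsPrimitiveRoot ζ p)
    (π : F) (hπR : π ∈ R) (hπV : ∀ c, π⁻¹ ∉ V c)
    (e₁ : ℕ) (he₁ : 1 ≤ e₁) (u₀ : F) (hu₀ : u₀ ∈ R) (hu₀' : u₀⁻¹ ∈ R)
    (hlam : ζ - 1 = π ^ e₁ * u₀)
    (hSS1 : ∀ x ∈ R, (∀ c, ∃ y ∈ V c, x = π * y) → ∃ y ∈ R, x = π * y)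
    (hN1 : ∀ c, ∀ x ∈ V c, ∀ r ∈ R, (∃ y ∈ V c, x ^ p - r = π * y) →
      ∃ s ∈ R, ∃ y ∈ V c, x - s = π * y)
    (hN2 : ∀ c, ∀ x ∈ V c, ∀ r ∈ R, (∃ y ∈ V c, x ^ p - x - r = π * y) →
      ∃ s ∈ R, ∃ y ∈ V c, x - s = π * y)
    (hX : ∀ a : κ → R, (∀ c c', a c - a c' ∈ IsLocalRing.maximalIdeal R) →
      ∃ r : R, ∀ c, ∃ y ∈ V c, (r : F) - (a c : F) = π * y)
    (ε : F) (hε : ε ∈ R) (hε' : ε⁻¹ ∈ R) (hε0 : ε ≠ 0)
    (G : κ → F) (hG : ∀ c, G c ∈ V c)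
    (hGε : ∀ c, ∃ y ∈ V c, ε - G c ^ p = (ζ - 1) ^ p * π * y) :
    ∃ γ ∈ R, γ ≠ 0 ∧ γ⁻¹ ∈ R ∧ ∃ y ∈ R, ε - γ ^ p = (ζ - 1) ^ p * π * y := by
  have H : WdHyp R V p ζ π e₁ u₀ :=
    ⟨hRV, hζR, hζ, hπR, hπV, he₁, hu₀, hu₀', hlam, hSS1, hN1, hN2, hX⟩
  exact H.final hε hε' hε0 hG hGε (H.inv_of_le hε hε' hε0 hG hGε e₁ le_rfl)

end Fermat.Agent.S33


end ZBS33_005_0

/-! ### bundled: `Fermat.Agent.S33.WildAbsLoc` -/
section ZBS33_005_1

/-!
# S33 v2, C4 (WILD): the improved local shape (LS) at a closed point, from T2 + T4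

Abstract part (a local subring `O` of a field `F`, valuation subrings `V c ⊇ O` with uniformizer
`π`):

* `WabNormal O V p` : normality of the branch `V` of `O` in the two instances used by T2
  (`x ^ p ≡ r`, `x ^ p − x ≡ r` modulo `𝔪_V`, `r ∈ O` ⇒ `x ≡ s ∈ O`).
* `wab_normal_of_winding` : `WabNormal` from a winding generator (`WhWinding`, T4) of the branch.
* `wab_unif_of_hπV` : `𝔪_V = π V` from "`π` generates the value group" (the form `hπV` of T4).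
* `wab_loc_of_depth` : **(LS)**: `u = ε G ^ p` with `ε ∈ O^×` (T4) and `u / h_c ^ p ≡ 1` modulo
  `(ζ − 1) ^ p π V c` for all `c` (H1) give `g` with `u / g ^ p ∈ 1 + (ζ − 1) ^ p π O` (`wd_main`).
-/

set_option autoImplicit false
set_option linter.unusedSectionVars false
set_option linter.unusedVariables false
set_option linter.style.haveILetI false

namespace Fermat.Agent.S33

section Abstract

variable {F : Type*} [Field F]

/-- **Normality of a branch**, in the two instances used by the depth lemma (T2): an element of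
`V` whose image under `x ↦ x ^ p` resp. `x ↦ x ^ p − x` is congruent modulo `𝔪_V` to an element
of `O` is itself congruent to an element of `O`. -/
def WabNormal (O : Subring F) (V : ValuationSubring F) (p : ℕ) : Prop :=
  (∀ x ∈ V, ∀ r ∈ O, V.valuation (x ^ p - r) < 1 → ∃ s ∈ O, V.valuation (x - s) < 1) ∧
    ∀ x ∈ V, ∀ r ∈ O, V.valuation (x ^ p - x - r) < 1 → ∃ s ∈ O, V.valuation (x - s) < 1

/-- In a local subring, `η − X a` is invertible if `η` is and `X` is not. -/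
theorem wab_unit_sub (O : Subring F) [IsLocalRing O] {η X a : F} (hη0 : η ≠ 0) (hη : η ∈ O)
    (hη' : η⁻¹ ∈ O) (hX : X ∈ O) (hXnu : X⁻¹ ∉ O) (ha : a ∈ O) :
    η - X * a ≠ 0 ∧ (η - X * a)⁻¹ ∈ O := by
  have hηu : IsUnit (⟨η, hη⟩ : O) :=
    IsUnit.of_mul_eq_one ⟨η⁻¹, hη'⟩ (Subtype.ext (mul_inv_cancel₀ hη0))
  have hXa : ¬ IsUnit ((⟨X, hX⟩ : O) * ⟨a, ha⟩) := by
    intro h
    have hXu : IsUnit (⟨X, hX⟩ : O) := isUnit_of_mul_isUnit_left h
    obtain ⟨v, hv⟩ := hXu.exists_right_inv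
    have hv' : X * (v : F) = 1 := congrArg Subtype.val hv
    have hX0 : X ≠ 0 := by
      rintro rfl
      rw [zero_mul] at hv'
      exact zero_ne_one hv'
    apply hXnu
    have : X⁻¹ = (v : F) := by
      rw [← mul_one X⁻¹, ← hv', inv_mul_cancel_left₀ hX0]
    rw [this]
    exact v.2
  have hmem : (⟨X, hX⟩ : O) * ⟨a, ha⟩ ∈ IsLocalRing.maximalIdeal O :=
    (IsLocalRing.mem_maximalIdeal _).2 hXa
  have hu : IsUnit ((⟨η, hη⟩ : O) - (⟨X, hX⟩ : O) * ⟨a, ha⟩) := by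
    by_contra hcon
    have h1 : (⟨η, hη⟩ : O) - (⟨X, hX⟩ : O) * ⟨a, ha⟩ ∈ IsLocalRing.maximalIdeal O :=
      (IsLocalRing.mem_maximalIdeal _).2 hcon
    have h2 := (IsLocalRing.maximalIdeal O).add_mem h1 hmem
    rw [sub_add_cancel] at h2
    exact (IsLocalRing.mem_maximalIdeal _).1 h2 hηu
  obtain ⟨v, hv⟩ := hu.exists_right_inv
  have hv' : (η - X * a) * (v : F) = 1 := congrArg Subtype.val hv
  have h0 : η - X * a ≠ 0 := by
    intro h
    rw [h, zero_mul] at hv'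
    exact zero_ne_one hv'
  refine ⟨h0, ?_⟩
  have : (η - X * a)⁻¹ = (v : F) := by
    rw [← mul_one (η - X * a)⁻¹, ← hv', inv_mul_cancel_left₀ h0]
  rw [this]
  exact v.2

/-- the key computation: if `X ^ k x ≡ η ∈ O^×` modulo `𝔪_V`, then `(X ^ k x) ^ n` is not
congruent to a multiple of `X` in `O`. -/
theorem wab_winding_neg (O : Subring F) [IsLocalRing O] (V : ValuationSubring F) {X : F}
    (hW : WhWinding O V X) {y η : F} (hη0 : η ≠ 0) (hη : η ∈ O)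
    (hη' : η⁻¹ ∈ O) (hy : V.valuation (y - η) < 1) {n : ℕ}
    {c : F} (hc : c ∈ O) (hcy : V.valuation (y ^ n - X * c) < 1) :
    False := by
  have hηV : η ∈ V := hW.le η hη
  have hyV : y ∈ V := by
    have : y = (y - η) + η := by ring
    rw [this]
    exact add_mem ((V.valuation_le_one_iff _).1 hy.le) hηV
  have h1 : V.valuation (y ^ n - η ^ n) < 1 := by
    have hq' : y ^ n - η ^ n
        = (y - η) * ∑ i ∈ Finset.range n, y ^ i * η ^ (n - 1 - i) := by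
      rw [mul_comm, ← Commute.geom_sum₂_mul (Commute.all _ _)]
    rw [hq', map_mul]
    refine mul_lt_one_of_lt_of_le hy ((V.valuation_le_one_iff _).2 ?_)
    exact sum_mem fun i _ => mul_mem (pow_mem hyV i) (pow_mem hηV _)
  have h2 : V.valuation (η ^ n - X * c) < 1 := by
    have e : η ^ n - X * c = (y ^ n - X * c) - (y ^ n - η ^ n) := by ring
    rw [e]
    exact lt_of_le_of_lt (Valuation.map_sub _ _ _) (max_lt hcy h1)
  have hηn0 : η ^ n ≠ 0 := pow_ne_zero n hη0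
  have hηn' : (η ^ n)⁻¹ ∈ O := by rw [← inv_pow]; exact O.pow_mem hη' n
  obtain ⟨hy0, hy'⟩ := wab_unit_sub O hηn0 (O.pow_mem hη n) hηn' hW.mem hW.not_unit hc
  have hyO : η ^ n - X * c ∈ O := O.sub_mem (O.pow_mem hη n) (O.mul_mem hW.mem hc)
  have hv1 : V.valuation (η ^ n - X * c) = 1 := wh_val_of_unit O V hW.le hy0 hyO hy'
  rw [hv1] at h2
  exact lt_irrefl _ h2

/-- **(N) from a winding generator.**  If the branch `V` of the local ring `O` has a winding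
generator (the residue ring of the branch is a discrete valuation ring with uniformizer `X̄`),
the branch is normal. -/
theorem wab_normal_of_winding (O : Subring F) [IsLocalRing O] (V : ValuationSubring F) {X : F}
    (hW : WhWinding O V X) {p : ℕ} (hp : 2 ≤ p) : WabNormal O V p := by
  have hX0 : X ≠ 0 := wh_val_ne_zero V hW.val
  -- the common part: either `x ≡ s ∈ O`, or `X ^ k x ≡ η ∈ O^×` with `k > 0`
  have key : ∀ x ∈ V, (∃ s ∈ O, V.valuation (x - s) < 1) ∨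
      ∃ (k : ℕ) (η : F), 0 < k ∧ η ≠ 0 ∧ η ∈ O ∧ η⁻¹ ∈ O ∧ V.valuation (X ^ k * x - η) < 1 := by
    intro x hx
    by_cases hx1 : V.valuation x < 1
    · exact Or.inl ⟨0, O.zero_mem, by rwa [sub_zero]⟩
    have hx1' : V.valuation x = 1 :=
      le_antisymm ((V.valuation_le_one_iff x).2 hx) (not_lt.mp hx1)
    obtain ⟨m, η, hη0, hη, hη', hmη⟩ := hW.dvr x hx1'
    by_cases hm : 0 ≤ m
    · obtain ⟨k, rfl⟩ := Int.eq_ofNat_of_zero_le hm
      rw [zpow_natCast] at hmη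
      exact Or.inl ⟨X ^ k * η, O.mul_mem (O.pow_mem hW.mem k) hη, hmη⟩
    · right
      rw [not_le] at hm
      obtain ⟨k, hk⟩ := Int.exists_eq_neg_ofNat hm.le
      have hk0 : 0 < k := by
        rcases Nat.eq_zero_or_pos k with h | h
        · rw [h] at hk; simp at hk; omega
        · exact h
      refine ⟨k, η, hk0, hη0, hη, hη', ?_⟩
      rw [hk, zpow_neg, zpow_natCast] at hmη
      have e : X ^ k * x - η = X ^ k * (x - (X ^ k)⁻¹ * η) := by
        field_simp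
      rw [e, map_mul, map_pow, hW.val, one_pow, one_mul]
      exact hmη
  have hp0 : 0 < p := by omega
  refine ⟨fun x hx r hr hxr => ?_, fun x hx r hr hxr => ?_⟩
  · rcases key x hx with h | ⟨k, η, hk, hη0, hη, hη', hkη⟩
    · exact h
    · exfalso
      -- `(X^k x)^p = X^{kp} x^p ≡ X^{kp} r = X (X^{kp−1} r)`
      refine wab_winding_neg O V hW hη0 hη hη' hkη (n := p)
        (c := X ^ (k * p - 1) * r) (O.mul_mem (O.pow_mem hW.mem _) hr) ?_
      have hkp : 0 < k * p := Nat.mul_pos hk hp0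
      have e : (X ^ k * x) ^ p - X * (X ^ (k * p - 1) * r) = X ^ (k * p) * (x ^ p - r) := by
        have h1 : X * X ^ (k * p - 1) = X ^ (k * p) := by
          rw [← pow_succ', Nat.sub_add_cancel hkp]
        rw [mul_pow, ← pow_mul, ← mul_assoc, h1]
        ring
      rw [e, map_mul, map_pow, hW.val, one_pow, one_mul]
      exact hxr
  · rcases key x hx with h | ⟨k, η, hk, hη0, hη, hη', hkη⟩
    · exact h
    · exfalso
      -- `(X^k x)^p ≡ X^{k(p−1)} η + X^{kp} r = X (X^{k(p−1)−1} η + X^{kp−1} r)`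
      have hkp : 0 < k * p := Nat.mul_pos hk hp0
      have hkp1 : 0 < k * (p - 1) := Nat.mul_pos hk (by omega)
      refine wab_winding_neg O V hW hη0 hη hη' hkη (n := p)
        (c := X ^ (k * (p - 1) - 1) * η + X ^ (k * p - 1) * r)
        (O.add_mem (O.mul_mem (O.pow_mem hW.mem _) hη) (O.mul_mem (O.pow_mem hW.mem _) hr)) ?_
      have h1 : X * X ^ (k * p - 1) = X ^ (k * p) := by
        rw [← pow_succ', Nat.sub_add_cancel hkp]
      have h2 : X * X ^ (k * (p - 1) - 1) = X ^ (k * (p - 1)) := by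
        rw [← pow_succ', Nat.sub_add_cancel hkp1]
      have h3 : X ^ (k * p) = X ^ (k * (p - 1)) * X ^ k := by
        rw [← pow_add]
        congr 1
        have : p = (p - 1) + 1 := by omega
        conv_lhs => rw [this]
        ring
      have e : (X ^ k * x) ^ p - X * (X ^ (k * (p - 1) - 1) * η + X ^ (k * p - 1) * r)
          = X ^ (k * p) * (x ^ p - x - r) + X ^ (k * (p - 1)) * (X ^ k * x - η) := by
        rw [mul_add, ← mul_assoc, ← mul_assoc, h1, h2, mul_pow, ← pow_mul, h3]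
        ring
      rw [e]
      refine lt_of_le_of_lt (Valuation.map_add _ _ _) (max_lt ?_ ?_)
      · rw [map_mul, map_pow, hW.val, one_pow, one_mul]
        exact hxr
      · rw [map_mul, map_pow, hW.val, one_pow, one_mul]
        exact hkη

/-- `𝔪_V = π V` if `π` generates the value group of `V` (the form `hπV` of T4). -/
theorem wab_unif_of_hπV (V : ValuationSubring F) {π : F} (hπ : V.valuation π < 1)
    (hπV : ∀ z : F, z ≠ 0 → ∃ k : ℤ, V.valuation (z / π ^ k) = 1) :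
    ∀ x : F, V.valuation x < 1 → ∃ y ∈ V, x = π * y := by
  intro x hx
  by_cases hx0 : x = 0
  · exact ⟨0, V.zero_mem, by rw [hx0, mul_zero]⟩
  have hπ0 : π ≠ 0 := by
    rintro rfl
    obtain ⟨k, hk⟩ := hπV x hx0
    by_cases hk0 : k = 0
    · rw [hk0, zpow_zero, div_one] at hk
      rw [hk] at hx
      exact lt_irrefl _ hx
    · rw [zero_zpow k hk0, div_zero, map_zero] at hk
      exact zero_ne_one hk
  obtain ⟨k, hk⟩ := hπV x hx0
  have hxk : V.valuation x = V.valuation π ^ k := by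
    rw [map_div₀, map_zpow₀] at hk
    have h0 : V.valuation π ^ k ≠ 0 := zpow_ne_zero k ((Valuation.ne_zero_iff _).2 hπ0)
    rwa [div_eq_one_iff_eq h0] at hk
  have hk1 : 1 ≤ k := by
    by_contra hcon
    rw [not_le] at hcon
    have hk0 : k ≤ 0 := by omega
    have : 1 ≤ V.valuation π ^ k := by
      obtain ⟨j, hj⟩ := Int.exists_eq_neg_ofNat hk0
      rw [hj, zpow_neg, zpow_natCast]
      exact (one_le_inv₀ (pow_pos (zero_lt_iff.mpr ((Valuation.ne_zero_iff _).2 hπ0)) j)).2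
        (pow_le_one₀ zero_le hπ.le)
    rw [← hxk] at this
    exact absurd hx (not_lt.2 this)
  refine ⟨x / π, ?_, by field_simp⟩
  rw [← V.valuation_le_one_iff, map_div₀, hxk]
  obtain ⟨j, hj⟩ := Int.eq_ofNat_of_zero_le (by omega : 0 ≤ k - 1)
  have hkj : k = (j : ℤ) + 1 := by omega
  rw [hkj, zpow_add_one₀ ((Valuation.ne_zero_iff _).2 hπ0), zpow_natCast,
    mul_div_assoc, div_self ((Valuation.ne_zero_iff _).2 hπ0), mul_one]
  exact pow_le_one₀ zero_le hπ.le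

end Abstract

end Fermat.Agent.S33


end ZBS33_005_1

/-! ### bundled: `Fermat.Agent.S33.WildDepthVal` -/
section ZBS33_005_2
/-
S33 v2 / C4 WILD, piece T2 "WildDepth", valuation form (helper53): `wd_main` of
`S33/WildDepth.lean` restated for `ValuationSubring`s with the input/output shapes of
`wt_main` (`S33/WildTwist.lean`): "x ∈ d·V" is `V.valuation x ≤ V.valuation d`, the splitting is
`u / h ^ p - 1`.  `wd_local_shape` is the hypothesis (LS) of `wt_main` at one closed point, from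
a horizontal factorisation `u = ε * G₀ ^ p` (T4).  Helpers for (X) and (N).
-/

set_option autoImplicit false

namespace Fermat.Agent.S33
section Val

variable {F : Type*} [Field F]

theorem wd_val_le_iff (V : ValuationSubring F) {x d : F} :
    V.valuation x ≤ V.valuation d ↔ ∃ z ∈ V, x = d * z := by
  constructor
  · intro h
    by_cases hd : d = 0
    · subst hd
      rw [map_zero, le_zero_iff, map_eq_zero] at h
      exact ⟨0, V.zero_mem, by rw [h, mul_zero]⟩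
    · refine ⟨x / d, ?_, by field_simp⟩
      rw [← V.valuation_le_one_iff, map_div₀]
      exact div_le_one_of_le₀ h zero_le
  · rintro ⟨z, hz, rfl⟩
    rw [map_mul]
    exact mul_le_of_le_one_right zero_le ((V.valuation_le_one_iff z).2 hz)

theorem wd_inv_not_mem (V : ValuationSubring F) {π : F} (hπ0 : π ≠ 0) (hπ : V.valuation π < 1) :
    π⁻¹ ∉ V := by
  intro h
  have h1 : V.valuation π⁻¹ ≤ 1 := (V.valuation_le_one_iff _).mpr h
  have h2 : V.valuation (π * π⁻¹) < 1 := by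
    rw [map_mul]
    calc V.valuation π * V.valuation π⁻¹ ≤ V.valuation π * 1 := mul_le_mul_right h1 _
      _ = V.valuation π := mul_one _
      _ < 1 := hπ
  rw [mul_inv_cancel₀ hπ0, map_one] at h2
  exact lt_irrefl _ h2

/-- **T2 WildDepth, valuation form.**  Input and output in the division form used by
`wt_main` (`S33/WildTwist.lean`). -/
theorem wd_main_val (R : Subring F) [IsLocalRing R]
    {κ : Type*} [Nonempty κ] (V : κ → ValuationSubring F) (hRV : ∀ c, ∀ x ∈ R, x ∈ V c)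
    (p : ℕ) [hp : Fact p.Prime]
    (ζ : F) (hζR : ζ ∈ R) (hζ : IsPrimitiveRoot ζ p)
    (π : F) (hπR : π ∈ R) (hπV : ∀ c, (V c).valuation π < 1)
    (e₁ : ℕ) (he₁ : 1 ≤ e₁) (u₀ : F) (hu₀ : u₀ ∈ R) (hu₀' : u₀⁻¹ ∈ R)
    (hlam : ζ - 1 = π ^ e₁ * u₀)
    (hSS1 : ∀ x ∈ R, (∀ c, (V c).valuation x ≤ (V c).valuation π) → ∃ y ∈ R, x = π * y)
    (hN1 : ∀ c, ∀ x ∈ V c, ∀ r ∈ R, (V c).valuation (x ^ p - r) ≤ (V c).valuation π →
      ∃ s ∈ R, (V c).valuation (x - s) ≤ (V c).valuation π)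
    (hN2 : ∀ c, ∀ x ∈ V c, ∀ r ∈ R, (V c).valuation (x ^ p - x - r) ≤ (V c).valuation π →
      ∃ s ∈ R, (V c).valuation (x - s) ≤ (V c).valuation π)
    (hX : ∀ a : κ → R, (∀ c c', a c - a c' ∈ IsLocalRing.maximalIdeal R) →
      ∃ r : R, ∀ c, (V c).valuation ((r : F) - (a c : F)) ≤ (V c).valuation π)
    (ε : F) (hε : ε ∈ R) (hε' : ε⁻¹ ∈ R) (hε0 : ε ≠ 0)
    (hsplit : ∀ c, ∃ h : F, h ≠ 0 ∧
      (V c).valuation (ε / h ^ p - 1) ≤ (V c).valuation ((ζ - 1) ^ p * π)) :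
    ∃ γ ∈ R, γ ≠ 0 ∧ γ⁻¹ ∈ R ∧ ∃ y ∈ R, ε / γ ^ p - 1 = (ζ - 1) ^ p * π * y := by
  have hlam0 : ζ - 1 ≠ 0 := sub_ne_zero.mpr (hζ.ne_one hp.out.one_lt)
  have hπ0 : π ≠ 0 := by
    intro h
    apply hlam0
    rw [hlam, h, zero_pow (by omega), zero_mul]
  choose h hh0 hhv using hsplit
  have hz : ∀ c, ∃ z ∈ V c, ε / h c ^ p - 1 = (ζ - 1) ^ p * π * z := fun c =>
    (wd_val_le_iff (V c)).mp (hhv c)
  choose z hzV hze using hz
  have hεh : ∀ c, ε = h c ^ p * (1 + (ζ - 1) ^ p * π * z c) := by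
    intro c
    have := hze c
    have hhp : h c ^ p ≠ 0 := pow_ne_zero _ (hh0 c)
    field_simp at this
    linear_combination this
  have hlamV : ∀ c, ζ - 1 ∈ V c := fun c => hRV c _ (R.sub_mem hζR R.one_mem)
  -- `h c` is a unit of `V c`
  have hhV : ∀ c, h c ∈ V c := by
    intro c
    have hvε : (V c).valuation ε = 1 := by
      apply le_antisymm ((V c).valuation_le_one_iff _ |>.mpr (hRV c _ hε))
      have h1 : (V c).valuation ε⁻¹ ≤ 1 := (V c).valuation_le_one_iff _ |>.mpr (hRV c _ hε')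
      rw [map_inv₀] at h1
      have hne : (V c).valuation ε ≠ 0 := (map_ne_zero _).mpr hε0
      exact (inv_le_one₀ (zero_lt_iff.mpr hne)).mp h1
    have hsmall : (V c).valuation ((ζ - 1) ^ p * π * z c) < 1 := by
      rw [map_mul, map_mul]
      have h1 : (V c).valuation ((ζ - 1) ^ p) ≤ 1 :=
        (V c).valuation_le_one_iff _ |>.mpr ((V c).pow_mem (hlamV c) p)
      have h2 : (V c).valuation (z c) ≤ 1 := (V c).valuation_le_one_iff _ |>.mpr (hzV c)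
      calc (V c).valuation ((ζ - 1) ^ p) * (V c).valuation π * (V c).valuation (z c)
          ≤ 1 * (V c).valuation π * 1 := by gcongr
        _ = (V c).valuation π := by rw [one_mul, mul_one]
        _ < 1 := hπV c
    have h1z : (V c).valuation (1 + (ζ - 1) ^ p * π * z c) = 1 := by
      rw [Valuation.map_add_eq_of_lt_left _ (by rw [map_one]; exact hsmall), map_one]
    have hvh : (V c).valuation (h c) ^ p = 1 := by
      have := congrArg (V c).valuation (hεh c)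
      rw [hvε, map_mul, h1z, mul_one, map_pow] at this
      exact this.symm
    have hvh1 : (V c).valuation (h c) = 1 :=
      (pow_eq_one_iff_of_nonneg zero_le hp.out.ne_zero).mp hvh
    exact (V c).valuation_le_one_iff _ |>.mp hvh1.le
  obtain ⟨γ, hγ, hγ0, hγ', y, hy, hye⟩ := wd_main R (fun c => (V c).toSubring)
    (fun c x hx => hRV c x hx) p ζ hζR hζ π hπR (fun c => wd_inv_not_mem (V c) hπ0 (hπV c))
    e₁ he₁ u₀ hu₀ hu₀' hlam
    (fun x hx hc => hSS1 x hx (fun c => (wd_val_le_iff (V c)).mpr (hc c)))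
    (fun c x hx r hr hy => by
      obtain ⟨s, hs, hsv⟩ := hN1 c x hx r hr ((wd_val_le_iff (V c)).mpr hy)
      exact ⟨s, hs, (wd_val_le_iff (V c)).mp hsv⟩)
    (fun c x hx r hr hy => by
      obtain ⟨s, hs, hsv⟩ := hN2 c x hx r hr ((wd_val_le_iff (V c)).mpr hy)
      exact ⟨s, hs, (wd_val_le_iff (V c)).mp hsv⟩)
    (fun a ha => by
      obtain ⟨r, hr⟩ := hX a ha
      exact ⟨r, fun c => (wd_val_le_iff (V c)).mp (hr c)⟩)
    ε hε hε' hε0 h hhV
    (fun c => ⟨h c ^ p * z c,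
      (V c).toSubring.mul_mem ((V c).toSubring.pow_mem (hhV c) p) (hzV c), by
      have := hεh c
      linear_combination this⟩)
  refine ⟨γ, hγ, hγ0, hγ', y * (γ⁻¹) ^ p, R.mul_mem hy (R.pow_mem hγ' p), ?_⟩
  have hγp : γ ^ p ≠ 0 := pow_ne_zero _ hγ0
  simp only [inv_pow]
  field_simp
  linear_combination hye

/-- **(LS)** for `wt_main`: `u = ε G₀^p` with `ε ∈ R^×` (horizontal factorisation, T4) and
`u` split at the vertical valuations ⇒ `u / g^p ∈ 1 + λ^p π R`. -/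
theorem wd_local_shape (R : Subring F) [IsLocalRing R]
    {κ : Type*} [Nonempty κ] (V : κ → ValuationSubring F) (hRV : ∀ c, ∀ x ∈ R, x ∈ V c)
    (p : ℕ) [hp : Fact p.Prime]
    (ζ : F) (hζR : ζ ∈ R) (hζ : IsPrimitiveRoot ζ p)
    (π : F) (hπR : π ∈ R) (hπV : ∀ c, (V c).valuation π < 1)
    (e₁ : ℕ) (he₁ : 1 ≤ e₁) (u₀ : F) (hu₀ : u₀ ∈ R) (hu₀' : u₀⁻¹ ∈ R)
    (hlam : ζ - 1 = π ^ e₁ * u₀)
    (hSS1 : ∀ x ∈ R, (∀ c, (V c).valuation x ≤ (V c).valuation π) → ∃ y ∈ R, x = π * y)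
    (hN1 : ∀ c, ∀ x ∈ V c, ∀ r ∈ R, (V c).valuation (x ^ p - r) ≤ (V c).valuation π →
      ∃ s ∈ R, (V c).valuation (x - s) ≤ (V c).valuation π)
    (hN2 : ∀ c, ∀ x ∈ V c, ∀ r ∈ R, (V c).valuation (x ^ p - x - r) ≤ (V c).valuation π →
      ∃ s ∈ R, (V c).valuation (x - s) ≤ (V c).valuation π)
    (hX : ∀ a : κ → R, (∀ c c', a c - a c' ∈ IsLocalRing.maximalIdeal R) →
      ∃ r : R, ∀ c, (V c).valuation ((r : F) - (a c : F)) ≤ (V c).valuation π)
    (u ε G₀ : F) (hu : u = ε * G₀ ^ p) (hG₀ : G₀ ≠ 0)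
    (hε : ε ∈ R) (hε' : ε⁻¹ ∈ R) (hε0 : ε ≠ 0)
    (hsplit : ∀ c, ∃ h : F, h ≠ 0 ∧
      (V c).valuation (u / h ^ p - 1) ≤ (V c).valuation ((ζ - 1) ^ p * π)) :
    ∃ g : F, g ≠ 0 ∧ ∃ y ∈ R, u / g ^ p - 1 = (ζ - 1) ^ p * π * y := by
  obtain ⟨γ, hγ, hγ0, -, y, hy, hye⟩ := wd_main_val R V hRV p ζ hζR hζ π hπR hπV e₁ he₁ u₀ hu₀
    hu₀' hlam hSS1 hN1 hN2 hX ε hε hε' hε0 (fun c => by
      obtain ⟨h, hh0, hhv⟩ := hsplit c
      refine ⟨h / G₀, div_ne_zero hh0 hG₀, ?_⟩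
      have e : ε / (h / G₀) ^ p = u / h ^ p := by
        rw [hu, div_pow]
        field_simp
      rw [e]; exact hhv)
  refine ⟨γ * G₀, mul_ne_zero hγ0 hG₀, y, hy, ?_⟩
  have e : u / (γ * G₀) ^ p = ε / γ ^ p := by
    rw [hu, mul_pow]
    have := pow_ne_zero p hG₀
    have := pow_ne_zero p hγ0
    field_simp
  rw [e]; exact hye

/-- (X) for a single branch (smooth point of the special fibre). -/
theorem wd_X_of_subsingleton (R : Subring F) [IsLocalRing R] {κ : Type*} [Nonempty κ]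
    [Subsingleton κ] (V : κ → ValuationSubring F) (π : F) (a : κ → R) :
    ∃ r : R, ∀ c, (V c).valuation ((r : F) - (a c : F)) ≤ (V c).valuation π := by
  refine ⟨a (Classical.arbitrary κ), fun c => ?_⟩
  rw [Subsingleton.elim (Classical.arbitrary κ) c, sub_self, map_zero]
  exact zero_le

/-- (X) for two branches (ordinary double point): the pairwise form suffices. -/
theorem wd_X_of_two (R : Subring F) [IsLocalRing R] {κ : Type*}
    (V : κ → ValuationSubring F) (π : F) (c₁ c₂ : κ) (hκ : ∀ c, c = c₁ ∨ c = c₂)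
    (h2 : ∀ a b : R, a - b ∈ IsLocalRing.maximalIdeal R → ∃ r : R,
      (V c₁).valuation ((r : F) - (a : F)) ≤ (V c₁).valuation π ∧
      (V c₂).valuation ((r : F) - (b : F)) ≤ (V c₂).valuation π)
    (a : κ → R) (ha : ∀ c c', a c - a c' ∈ IsLocalRing.maximalIdeal R) :
    ∃ r : R, ∀ c, (V c).valuation ((r : F) - (a c : F)) ≤ (V c).valuation π := by
  obtain ⟨r, hr₁, hr₂⟩ := h2 (a c₁) (a c₂) (ha c₁ c₂)
  refine ⟨r, fun c => ?_⟩
  rcases hκ c with rfl | rfl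
  · exact hr₁
  · exact hr₂

open Polynomial in
/-- (N1) and (N2) from the polynomial form (N): the image of `R` in the residue field of `V`
is integrally closed. -/
theorem wd_N_of_monic (R : Subring F) (V : ValuationSubring F) (π : F) (p : ℕ) (hp0 : p ≠ 0)
    (hp1 : p ≠ 1)
    (hN : ∀ x ∈ V, ∀ P : Polynomial R, P.Monic →
      V.valuation (Polynomial.aeval x P) ≤ V.valuation π →
      ∃ s ∈ R, V.valuation (x - s) ≤ V.valuation π) :
    (∀ x ∈ V, ∀ r ∈ R, V.valuation (x ^ p - r) ≤ V.valuation π →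
      ∃ s ∈ R, V.valuation (x - s) ≤ V.valuation π) ∧
    (∀ x ∈ V, ∀ r ∈ R, V.valuation (x ^ p - x - r) ≤ V.valuation π →
      ∃ s ∈ R, V.valuation (x - s) ≤ V.valuation π) := by
  constructor
  · intro x hx r hr h
    refine hN x hx (X ^ p - C (⟨r, hr⟩ : R)) (monic_X_pow_sub_C _ hp0) ?_
    have e0 : algebraMap R F ⟨r, hr⟩ = r := rfl
    simpa [e0] using h
  · intro x hx r hr h
    obtain ⟨n, rfl⟩ : ∃ n, p = n + 1 := ⟨p - 1, by omega⟩
    have hmon : (X ^ (n + 1) - (X + C (⟨r, hr⟩ : R)) : Polynomial R).Monic := by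
      apply monic_X_pow_sub
      have hn : 1 ≤ n := by omega
      have h1 : (X + C (⟨r, hr⟩ : R) : Polynomial R).degree ≤ 1 := by
        refine (degree_add_le _ _).trans (max_le degree_X_le ?_)
        exact degree_C_le.trans (by norm_num)
      exact lt_of_le_of_lt h1 (by exact_mod_cast (show 1 < n + 1 by omega))
    refine hN x hx _ hmon ?_
    have e0 : algebraMap R F ⟨r, hr⟩ = r := rfl
    have e : Polynomial.aeval x (X ^ (n + 1) - (X + C (⟨r, hr⟩ : R)) : Polynomial R)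
        = x ^ (n + 1) - x - r := by
      simp [sub_sub, e0]
    rw [e]; exact h

end Val

end Fermat.Agent.S33


end ZBS33_005_2

/-! ### bundled: `Fermat.Agent.S33.WildAbsMain` -/
section ZBS33_005_3

/-!
# S33 v2, C4 (WILD): the abstract theorem (T)-wild  (T1 + T2 + T3 + T4 assembled)

Chart setting of `UNIP.at_main_two` over the DVR `A₀` (uniformizer `π`, `π ∣ p`, `ζ ∈ A₀` a
primitive `p`-th root of unity, `π ∣ ζ − 1`), two incomparable vertical valuation rings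
`V c₁`, `V c₂` with uniformizer `π`, `σ` a semilinear automorphism, trivial modulo `π` on both
charts, preserving the vertical valuations, `σ ζ = ζ ^ a`.

* `wab_ss1_loc`    : (SS1) in the local ring of a closed point of the special fibre.
* `wab_hloc_point` : the improved local shape (LS) at a closed point (`wd_local_shape`).
* `wab_main_two`   : **(T)-wild.**  If `u ≠ 0` is split at both vertical valuations (H1 = C3),
  and at every closed point of the special fibre of both charts: `u = ε G ^ p` with `ε` a unit of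
  the local ring (`hT4` = T4), the branches through the point are normal (`hN`: `WabNormal`, e.g.
  from `wab_normal_of_winding`), and at crossing points the maximal ideal is the sum of the two
  branch ideals (`hS` = `STB.stb_cp_sum`), then `σ u / u ^ a = c · h ^ p` with `c ∈ E^×`.
-/

set_option autoImplicit false
set_option linter.unusedSectionVars false
set_option linter.unusedVariables false
set_option linter.style.haveILetI false

namespace Fermat.Agent.S33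

open Polynomial IntermediateField Fermat.Agent.INJ Fermat.Agent.UNIP AlgebraicCurve

section Point

variable {A₀ E F : Type*} [CommRing A₀] [IsDomain A₀] [IsDiscreteValuationRing A₀]
  [Field E] [Algebra A₀ E] [IsFractionRing A₀ E] [CharZero E]
  [Field F] [Algebra E F] [Algebra A₀ F] [IsScalarTower A₀ E F]
  {π : A₀} {κ : Type*}

/-- **(SS1) in the local ring of a closed point**: an element of `(B_u)_𝔫` vanishing on all the
components through `𝔫` is divisible by `π` in `(B_u)_𝔫`. -/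
theorem wab_ss1_loc [Finite κ] {u : F} (V : κ → ValuationSubring F)
    (hBV : ∀ c (b : F), IsIntegral ↥(Algebra.adjoin A₀ {u}) b → b ∈ V c)
    (hSS1 : ∀ b : F, IsIntegral ↥(Algebra.adjoin A₀ {u}) b → (∀ c, b ∈ (V c).nonunits) →
      ∃ b' : F, IsIntegral ↥(Algebra.adjoin A₀ {u}) b' ∧ b = algebraMap A₀ F π * b')
    (𝔫 : AtPt (F := F) π u) {x : F} (hx : x ∈ atLoc 𝔫)
    (hxV : ∀ c, atThrough 𝔫 (V c) → x ∈ (V c).nonunits) :
    ∃ y ∈ atLoc 𝔫, x = algebraMap A₀ F π * y := by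
  classical
  haveI : Fintype κ := Fintype.ofFinite κ
  haveI h𝔫 : 𝔫.1.IsPrime := 𝔫.2.1.isPrime
  obtain ⟨b, s, hs, hsx⟩ := hx
  have hsx' : (s : F) * x = (b : F) := hsx
  have hmemV : ∀ (z : ↥(zchClosure (A₀ := A₀) ({u} : Set F))) (c : κ), (z : F) ∈ V c :=
    fun z c => hBV c _ (mem_zchClosure.mp z.2)
  have h1𝔫 : (1 : ↥(zchClosure (A₀ := A₀) ({u} : Set F))) ∉ 𝔫.1 := fun h =>
    h𝔫.ne_top ((Ideal.eq_top_iff_one 𝔫.1).mpr h)
  have hmult : ∀ c, ∃ m : ↥(zchClosure (A₀ := A₀) ({u} : Set F)), m ∉ 𝔫.1 ∧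
      (m : F) * (b : F) ∈ (V c).nonunits := by
    intro c
    by_cases hc : atThrough 𝔫 (V c)
    · refine ⟨1, h1𝔫, ?_⟩
      push_cast
      rw [one_mul, ← hsx']
      exact pwi_mul_mem_nonunits (V c) (hmemV s c) (hxV c hc)
    · obtain ⟨b', hb', hb'V⟩ := ats_cov (V c) 𝔫.1 hc
      refine ⟨b', hb', ?_⟩
      rw [mul_comm]
      exact pwi_mul_mem_nonunits (V c) (hmemV b c) hb'V
  choose m hm hmV using hmult
  set m₀ : ↥(zchClosure (A₀ := A₀) ({u} : Set F)) := ∏ c, m c with hm₀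
  have hm₀𝔫 : m₀ ∉ 𝔫.1 := by
    intro h
    obtain ⟨c, -, hc⟩ := (Ideal.IsPrime.prod_mem_iff).mp h
    exact hm c hc
  have hall : ∀ c, ((m₀ * b : ↥(zchClosure (A₀ := A₀) ({u} : Set F))) : F) ∈ (V c).nonunits := by
    intro c
    have hprod : m₀ = (∏ c' ∈ Finset.univ.erase c, m c') * m c := by
      rw [hm₀, Finset.prod_erase_mul _ _ (Finset.mem_univ c)]
    have e : ((m₀ * b : ↥(zchClosure (A₀ := A₀) ({u} : Set F))) : F)
        = ((∏ c' ∈ Finset.univ.erase c, m c' : ↥(zchClosure (A₀ := A₀) ({u} : Set F))) : F) *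
          ((m c : F) * (b : F)) := by
      rw [hprod]
      push_cast
      ring
    rw [e]
    exact pwi_mul_mem_nonunits (V c) (hmemV _ c) (hmV c)
  obtain ⟨b', hb', hbb'⟩ := hSS1 _ (mem_zchClosure.mp (m₀ * b).2) hall
  have hms : m₀ * s ∉ 𝔫.1 := fun h => by
    rcases h𝔫.mem_or_mem h with h' | h'
    · exact hm₀𝔫 h'
    · exact hs h'
  have hms0 : ((m₀ * s : ↥(zchClosure (A₀ := A₀) ({u} : Set F))) : F) ≠ 0 := by
    intro h0
    apply hms
    have : m₀ * s = 0 := Subtype.ext h0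
    rw [this]
    exact 𝔫.1.zero_mem
  refine ⟨b' / ((m₀ * s : ↥(zchClosure (A₀ := A₀) ({u} : Set F))) : F),
    ⟨⟨b', mem_zchClosure.mpr hb'⟩, m₀ * s, hms, ?_⟩, ?_⟩
  · change ((m₀ * s : ↥(zchClosure (A₀ := A₀) ({u} : Set F))) : F) *
      (b' / ((m₀ * s : ↥(zchClosure (A₀ := A₀) ({u} : Set F))) : F)) = b'
    rw [mul_div_cancel₀ _ hms0]
  · have e1 : ((m₀ * s : ↥(zchClosure (A₀ := A₀) ({u} : Set F))) : F) * x
        = algebraMap A₀ F π * b' := by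
      rw [← hbb']
      push_cast
      rw [mul_assoc, hsx']
    rw [mul_div_assoc', ← e1, mul_div_cancel_left₀ _ hms0]

/-- **(LS) at a closed point.**  The improved local shape `u / g ^ p ∈ 1 + (ζ−1)^p π (B_u)_𝔫`
from the horizontal factorisation `u = ε G ^ p` (T4), the splitting at the vertical valuations
(H1), normality of the branches through `𝔫` and `𝔫 = 𝔭₁ + 𝔭₂` at crossing points. -/
theorem wab_hloc_point (hπ : Irreducible π) (hinj : Function.Injective (algebraMap A₀ F))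
    [Finite κ] {u' : F} (V : κ → ValuationSubring F)
    (c₁ c₂ : κ) (hκ : ∀ c, c = c₁ ∨ c = c₂)
    (hBV : ∀ c (b : F), IsIntegral ↥(Algebra.adjoin A₀ {u'}) b → b ∈ V c)
    (hπV : ∀ c, algebraMap A₀ F π ∈ (V c).nonunits)
    (hSS1 : ∀ b : F, IsIntegral ↥(Algebra.adjoin A₀ {u'}) b → (∀ c, b ∈ (V c).nonunits) →
      ∃ b' : F, IsIntegral ↥(Algebra.adjoin A₀ {u'}) b' ∧ b = algebraMap A₀ F π * b')
    (hunif : ∀ c, ∀ x ∈ (V c).nonunits, ∃ y ∈ V c, x = algebraMap A₀ F π * y)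
    {p : ℕ} (hp : p.Prime) {ζ : A₀} (hζ : IsPrimitiveRoot ζ p) (hlam : π ∣ ζ - 1)
    (𝔫 : AtPt (F := F) π u')
    (hN : ∀ c, atThrough 𝔫 (V c) → WabNormal (atLoc 𝔫) (V c) p)
    (hS : atThrough 𝔫 (V c₁) → atThrough 𝔫 (V c₂) → ∀ x : atLoc 𝔫, ¬ IsUnit x →
      ∃ a b : atLoc 𝔫, (a : F) ∈ (V c₁).nonunits ∧ (b : F) ∈ (V c₂).nonunits ∧ x = a + b)
    {u : F}
    (hT4 : ∃ G ε : F, G ≠ 0 ∧ ε ≠ 0 ∧ ε ∈ atLoc 𝔫 ∧ ε⁻¹ ∈ atLoc 𝔫 ∧ u = ε * G ^ p)
    (hsplit : ∀ c, ∃ h : F, h ≠ 0 ∧ (V c).valuation (u / h ^ p - 1) ≤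
      (V c).valuation ((algebraMap A₀ F ζ - 1) ^ p * algebraMap A₀ F π)) :
    ∃ g : F, g ≠ 0 ∧ ∃ y ∈ atLoc 𝔫,
      u / g ^ p - 1 = (algebraMap A₀ F ζ - 1) ^ p * algebraMap A₀ F π * y := by
  classical
  haveI h𝔫 : 𝔫.1.IsPrime := 𝔫.2.1.isPrime
  haveI hloc : IsLocalRing (atLoc 𝔫) :=
    ls_localSubring_isLocalRing (F := F) Subtype.val_injective 𝔫.1
  haveI : Fact p.Prime := ⟨hp⟩
  have hζF : IsPrimitiveRoot (algebraMap A₀ F ζ) p := hζ.map_of_injective hinj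
  have hπV' : ∀ c, (V c).valuation (algebraMap A₀ F π) < 1 := fun c =>
    (ValuationSubring.mem_nonunits_iff (V c)).mp (hπV c)
  -- `≤ v(π)` versus `< 1`
  have hlt : ∀ c {x : F}, (V c).valuation x ≤ (V c).valuation (algebraMap A₀ F π) →
      (V c).valuation x < 1 := fun c x hx => lt_of_le_of_lt hx (hπV' c)
  have hle : ∀ c {x : F}, (V c).valuation x < 1 →
      (V c).valuation x ≤ (V c).valuation (algebraMap A₀ F π) := by
    intro c x hx
    obtain ⟨y, hy, rfl⟩ := hunif c x ((ValuationSubring.mem_nonunits_iff (V c)).mpr hx)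
    rw [map_mul]
    exact mul_le_of_le_one_right zero_le ((V c).valuation_le_one_iff y |>.2 hy)
  -- the points
  obtain ⟨c₀, hc₀⟩ := ats_hpt_chart V hBV hSS1 𝔫.1 𝔫.2.2
  haveI : Nonempty {c : κ // atThrough 𝔫 (V c)} := ⟨⟨c₀, hc₀⟩⟩
  -- `ζ − 1 = π ^ e₁ · unit`
  have hlam0 : ζ - 1 ≠ 0 := sub_ne_zero.mpr (hζ.ne_one hp.one_lt)
  obtain ⟨e₁, v, hv⟩ := IsDiscreteValuationRing.eq_unit_mul_pow_irreducible hlam0 hπ
  have he₁ : 1 ≤ e₁ := by
    rcases Nat.eq_zero_or_pos e₁ with h | h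
    · exfalso
      rw [h, pow_zero, mul_one] at hv
      have hu : IsUnit (ζ - 1) := hv ▸ v.isUnit
      exact hπ.not_isUnit (isUnit_of_dvd_unit hlam hu)
    · exact h
  have hlamF : algebraMap A₀ F ζ - 1
      = algebraMap A₀ F π ^ e₁ * algebraMap A₀ F (v : A₀) := by
    rw [← map_one (algebraMap A₀ F), ← map_sub, hv, map_mul, map_pow, mul_comm]
  have hvinv : (algebraMap A₀ F (v : A₀))⁻¹ = algebraMap A₀ F ((v⁻¹ : A₀ˣ) : A₀) := by
    have h1 : algebraMap A₀ F (v : A₀) * algebraMap A₀ F ((v⁻¹ : A₀ˣ) : A₀) = 1 := by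
      rw [← map_mul, Units.mul_inv, map_one]
    exact inv_eq_of_mul_eq_one_right h1
  obtain ⟨G, ε, hG0, hε0, hε, hε', huε⟩ := hT4
  -- (X)
  have hX : ∀ a : {c : κ // atThrough 𝔫 (V c)} → atLoc 𝔫,
      (∀ c c', a c - a c' ∈ IsLocalRing.maximalIdeal (atLoc 𝔫)) →
      ∃ r : atLoc 𝔫, ∀ c : {c : κ // atThrough 𝔫 (V c)},
        (V c.1).valuation ((r : F) - (a c : F)) ≤ (V c.1).valuation (algebraMap A₀ F π) := by
    by_cases h1 : atThrough 𝔫 (V c₁)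
    · by_cases h2 : atThrough 𝔫 (V c₂)
      · intro a ha
        refine wd_X_of_two (atLoc 𝔫) (fun c : {c : κ // atThrough 𝔫 (V c)} => V c.1)
          (algebraMap A₀ F π) ⟨c₁, h1⟩ ⟨c₂, h2⟩ (fun c => ?_) (fun x y hxy => ?_) a ha
        · rcases hκ c.1 with h | h
          · exact Or.inl (Subtype.ext h)
          · exact Or.inr (Subtype.ext h)
        · obtain ⟨a', b', ha', hb', hab⟩ := hS h1 h2 (x - y)
            ((IsLocalRing.mem_maximalIdeal _).1 hxy)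
          refine ⟨x - a', hle c₁ ?_, hle c₂ ?_⟩
          · have e : (((x - a' : atLoc 𝔫)) : F) - (x : F) = -(a' : F) := by
              push_cast; ring
            rw [e, Valuation.map_neg]
            exact (ValuationSubring.mem_nonunits_iff (V c₁)).mp ha'
          · have e : (((x - a' : atLoc 𝔫)) : F) - (y : F) = (b' : F) := by
              have h3 : ((x - y : atLoc 𝔫) : F) = ((a' + b' : atLoc 𝔫) : F) := by rw [hab]
              push_cast at h3 ⊢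
              linear_combination h3
            rw [e]
            exact (ValuationSubring.mem_nonunits_iff (V c₂)).mp hb'
      · haveI : Subsingleton {c : κ // atThrough 𝔫 (V c)} := ⟨fun x y => by
          apply Subtype.ext
          rcases hκ x.1 with hx | hx <;> rcases hκ y.1 with hy | hy
          · rw [hx, hy]
          · exact absurd (hy ▸ y.2) h2
          · exact absurd (hx ▸ x.2) h2
          · rw [hx, hy]⟩
        intro a _
        exact wd_X_of_subsingleton (atLoc 𝔫) (fun c : {c : κ // atThrough 𝔫 (V c)} => V c.1)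
          (algebraMap A₀ F π) a
    · haveI : Subsingleton {c : κ // atThrough 𝔫 (V c)} := ⟨fun x y => by
        apply Subtype.ext
        rcases hκ x.1 with hx | hx <;> rcases hκ y.1 with hy | hy
        · rw [hx, hy]
        · exact absurd (hx ▸ x.2) h1
        · exact absurd (hy ▸ y.2) h1
        · rw [hx, hy]⟩
      intro a _
      exact wd_X_of_subsingleton (atLoc 𝔫) (fun c : {c : κ // atThrough 𝔫 (V c)} => V c.1)
        (algebraMap A₀ F π) a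
  refine wd_local_shape (atLoc 𝔫) (fun c : {c : κ // atThrough 𝔫 (V c)} => V c.1)
    (fun c x hx => wab_atLoc_le 𝔫 (V c.1) (hBV c.1) c.2 hx) p (algebraMap A₀ F ζ)
    (wab_const_mem_atLoc 𝔫 ζ) hζF (algebraMap A₀ F π) (wab_const_mem_atLoc 𝔫 π)
    (fun c => hπV' c.1) e₁ he₁ (algebraMap A₀ F (v : A₀)) (wab_const_mem_atLoc 𝔫 _)
    (by rw [hvinv]; exact wab_const_mem_atLoc 𝔫 _) hlamF ?_ ?_ ?_ hX u ε G huε hG0 hε hε' hε0
    (fun c => hsplit c.1)
  · intro x hx hxV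
    exact wab_ss1_loc V hBV hSS1 𝔫 hx (fun c hc =>
      (ValuationSubring.mem_nonunits_iff (V c)).mpr (hlt c (hxV ⟨c, hc⟩)))
  · intro c x hx r hr hxr
    obtain ⟨s, hs, hxs⟩ := (hN c.1 c.2).1 x hx r hr (hlt c.1 hxr)
    exact ⟨s, hs, hle c.1 hxs⟩
  · intro c x hx r hr hxr
    obtain ⟨s, hs, hxs⟩ := (hN c.1 c.2).2 x hx r hr (hlt c.1 hxr)
    exact ⟨s, hs, hle c.1 hxs⟩

end Point

section Main

variable {A₀ E F : Type*} [CommRing A₀] [IsDomain A₀] [IsDiscreteValuationRing A₀]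
  [Field E] [Algebra A₀ E] [IsFractionRing A₀ E] [CharZero E]
  [Field F] [Algebra E F] [Algebra A₀ F] [IsScalarTower A₀ E F]
  {π : A₀} {κ : Type*}

/-- **(T)-wild, abstract form** (T1 + T2 + T3 + T4).  See the header of this file. -/
theorem wab_main_two (hπ : Irreducible π) {t : F} (ht : Transcendental E t)
    [FiniteDimensional E⟮t⟯ F]
    (hcl : ∀ x : F, IsAlgebraic E x → x ∈ (algebraMap E F).range)
    {p : ℕ} (hp : p.Prime) (hpπ : π ∣ (p : A₀)) {ζ : A₀} (hζ : IsPrimitiveRoot ζ p)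
    (hlam : π ∣ ζ - 1)
    [Finite κ] (V : κ → ValuationSubring F) (c₁ c₂ : κ) (hκ : ∀ c, c = c₁ ∨ c = c₂)
    (h12 : ¬ V c₁ ≤ V c₂) (h21 : ¬ V c₂ ≤ V c₁)
    (hBV₁ : ∀ c (b : F), IsIntegral ↥(Algebra.adjoin A₀ {t}) b → b ∈ V c)
    (hBV₂ : ∀ c (b : F), IsIntegral ↥(Algebra.adjoin A₀ {t⁻¹}) b → b ∈ V c)
    (hπV : ∀ c, algebraMap A₀ F π ∈ (V c).nonunits)
    (hSS1 : ∀ b : F, IsIntegral ↥(Algebra.adjoin A₀ {t}) b → (∀ c, b ∈ (V c).nonunits) →
      ∃ b' : F, IsIntegral ↥(Algebra.adjoin A₀ {t}) b' ∧ b = algebraMap A₀ F π * b')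
    (harch : ∀ c (a x : F), a ∈ (V c).nonunits → ∃ N : ℕ, a ^ N * x ∈ (V c).nonunits)
    (hunif : ∀ c, ∀ x ∈ (V c).nonunits, ∃ y ∈ V c, x = algebraMap A₀ F π * y)
    (σ : SemilinearAut E F)
    (hσB₁ : AtTrivMod π t σ) (hσB₂ : AtTrivMod π t⁻¹ σ)
    (hσV : ∀ c (f : F), f ≠ 0 → (V c).valuation (σ • f / f) = 1)
    {a : ℕ} (hσζ : σ • algebraMap A₀ F ζ = algebraMap A₀ F ζ ^ a)
    {u : F} (hu : u ≠ 0)
    (hsplit : ∀ c, ∃ h : F, h ≠ 0 ∧ (V c).valuation (u / h ^ p - 1) ≤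
      (V c).valuation ((algebraMap A₀ F ζ - 1) ^ p * algebraMap A₀ F π))
    (hT4 : ∀ i, ∃ G ε : F, G ≠ 0 ∧ ε ≠ 0 ∧ ε ∈ atO π t i ∧ ε⁻¹ ∈ atO π t i ∧ u = ε * G ^ p)
    (hN : ∀ i c, atInc π t V i c → WabNormal (atO π t i) (V c) p)
    (hS : ∀ i, atInc π t V i c₁ → atInc π t V i c₂ → ∀ x : atO π t i, ¬ IsUnit x →
      ∃ a b : atO π t i, (a : F) ∈ (V c₁).nonunits ∧ (b : F) ∈ (V c₂).nonunits ∧ x = a + b) :
    ∃ c : E, c ≠ 0 ∧ ∃ h : F, σ • u / u ^ a = algebraMap E F c * h ^ p := by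
  have hSS1' := ats_SS1_inv ht hπ V hBV₁ hSS1
  have hinj : Function.Injective (algebraMap A₀ F) :=
    zch_algebraMap_injective (A₀ := A₀) (E := E)
  refine wab_main_two_of_loc hπ ht hcl hp hpπ hζ hlam V c₁ c₂ hκ h12 h21 hBV₁ hBV₂ hπV hSS1
    harch σ hσB₁ hσB₂ hσV hσζ hu hsplit ?_
  rintro (𝔫 | 𝔫)
  · exact wab_hloc_point hπ hinj V c₁ c₂ hκ hBV₁ hπV hSS1 hunif hp hζ hlam 𝔫
      (hN (Sum.inl 𝔫)) (hS (Sum.inl 𝔫)) (hT4 (Sum.inl 𝔫)) hsplit
  · exact wab_hloc_point hπ hinj V c₁ c₂ hκ hBV₂ hπV hSS1' hunif hp hζ hlam 𝔫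
      (hN (Sum.inr 𝔫)) (hS (Sum.inr 𝔫)) (hT4 (Sum.inr 𝔫)) hsplit

end Main

end Fermat.Agent.S33


end ZBS33_005_3

/-! ### bundled: `Fermat.Agent.S33.WildNormal` -/
section ZBS33_005_4

/-!
# S33 v2, C4 (WILD), piece T5g: normality of the branches (`hN` of `wab_main_two`) (helper90)

`B` a noetherian chart (`B ⊆ F`), `𝔫` a prime of `B`, `V = B_𝔭` a valuation ring through `𝔫`
(`hBV`, `hthrough`, `hVloc`), `𝔫 = 𝔭 + (Y)` locally at `𝔫` (`hgen`, e.g. from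
`NodesLocGen 𝔫 {π, s}` at a smooth point, `NodesLocGen 𝔫 {π, X, Y}` at a crossing:
`STB.stb_gc_gen_disc`, `stb_gc_gen_node`, `stb_gc_gen_node'`).  Then the branch `(B/𝔭)_𝔫` is a
valuation ring (`STB.stb_gc_dvd`), hence integrally closed:

* `wn_dvd_total` (pure algebra): for `b, s ∈ B`, `s ∉ 𝔭`: either `s ∣ b` in `(B/𝔭)_𝔫`, or
  `s = d b` there with `d ∈ 𝔫`;
* `wn_normal_chart` : `WabNormal (ls_localSubring 𝔫) V p` (`2 ≤ p`);
* `wn_normal_point`, `wn_normal_smooth`, `wn_normal_cross₁`, `wn_normal_cross₂` : the same at a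
  closed point `𝔫 : AtPt π u` of the chart `u`, from `NodesLocGen` data;
* `WnPtData V 𝔫` : the local datum (smooth or crossing) at `𝔫`; `wn_normal_of_ptData`;
* `wn_hN` : the hypothesis `hN` of `wab_main_two` from `WnPtData` at all closed points of both
  charts.

No winding generator is needed (no hypothesis `X ∉ 𝔭`).
-/

set_option autoImplicit false
set_option linter.style.haveILetI false
set_option linter.unusedSectionVars false
set_option linter.unusedVariables false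

namespace Fermat.Agent.S33

open Polynomial IntermediateField Fermat.Agent.INJ AlgebraicCurve Fermat.Agent.UNIP
  Fermat.Agent.STB

section Algebra

variable {B : Type*} [CommRing B]

/-- **Dichotomy on the branch.**  `B` noetherian, `𝔭 ≤ 𝔫` primes, `𝔫 = 𝔭 + (Y)` locally at `𝔫`.
For `b, s ∈ B` with `s ∉ 𝔭`: either `u b ≡ c s mod 𝔭` with `u ∉ 𝔫` (`s` divides `b` in
`(B/𝔭)_𝔫`), or `u s ≡ d b mod 𝔭` with `u ∉ 𝔫`, `d ∈ 𝔫`. -/
theorem wn_dvd_total [IsNoetherianRing B] (𝔭 𝔫 : Ideal B) [h𝔭 : 𝔭.IsPrime] [h𝔫 : 𝔫.IsPrime]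
    (h𝔭𝔫 : 𝔭 ≤ 𝔫) (Y : B) (hY : Y ∈ 𝔫)
    (hgen : ∀ b ∈ 𝔫, ∃ u : B, u ∉ 𝔫 ∧ ∃ c : B, u * b - c * Y ∈ 𝔭)
    (b s : B) (hs : s ∉ 𝔭) :
    (∃ u c : B, u ∉ 𝔫 ∧ u * b - c * s ∈ 𝔭) ∨
      ∃ u d : B, u ∉ 𝔫 ∧ d ∈ 𝔫 ∧ u * s - d * b ∈ 𝔭 := by
  classical
  -- the branch `R = B / 𝔭` and its prime `𝔫̄`
  let R := B ⧸ 𝔭
  let mk : B →+* R := Ideal.Quotient.mk 𝔭
  have hmk : Function.Surjective mk := Ideal.Quotient.mk_surjective
  let 𝔫' : Ideal R := 𝔫.map mk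
  have hmem : ∀ x : B, mk x ∈ 𝔫' ↔ x ∈ 𝔫 := fun x => Ideal.mem_quotient_iff_mem h𝔭𝔫
  have h𝔫' : 𝔫'.IsPrime :=
    Ideal.map_isPrime_of_surjective hmk (by rw [Ideal.mk_ker]; exact h𝔭𝔫)
  let S := Localization.AtPrime 𝔫'
  have hinjS : Function.Injective (algebraMap R S) :=
    IsLocalization.injective S (Ideal.primeCompl_le_nonZeroDivisors 𝔫')
  have : IsDomain S := IsLocalization.isDomain_localization (Ideal.primeCompl_le_nonZeroDivisors 𝔫')
  have : IsNoetherianRing S := IsLocalization.isNoetherianRing 𝔫'.primeCompl S inferInstance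
  have hunit : ∀ x : B, x ∉ 𝔫 → IsUnit (algebraMap R S (mk x)) := fun x hx =>
    (IsLocalization.AtPrime.isUnit_to_map_iff S 𝔫' (mk x)).2 (fun h => hx ((hmem x).1 h))
  -- the maximal ideal of `S` is generated by the image of `Y`
  have hprinc : (IsLocalRing.maximalIdeal S).IsPrincipal := by
    refine ⟨⟨algebraMap R S (mk Y), ?_⟩⟩
    apply le_antisymm
    · intro x hx
      obtain ⟨r, t, rfl⟩ := IsLocalization.exists_mk'_eq 𝔫'.primeCompl x
      have hr : r ∈ 𝔫' := by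
        have h1 : algebraMap R S r ∈ IsLocalRing.maximalIdeal S := by
          have h2 : algebraMap R S r = IsLocalization.mk' S r t * algebraMap R S t := by
            rw [IsLocalization.mk'_spec]
          rw [h2]
          exact Ideal.mul_mem_right _ _ hx
        exact (IsLocalization.AtPrime.to_map_mem_maximal_iff S 𝔫' r).1 h1
      obtain ⟨b₀, rfl⟩ := hmk r
      have hb₀ : b₀ ∈ 𝔫 := (hmem b₀).1 hr
      obtain ⟨u, hu, c, huc⟩ := hgen b₀ hb₀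
      have e1 : mk u * mk b₀ = mk c * mk Y := by
        rw [← map_mul, ← map_mul, ← sub_eq_zero, ← map_sub]
        exact Ideal.Quotient.eq_zero_iff_mem.2 huc
      obtain ⟨v, hv⟩ := hunit u hu
      have e2 : algebraMap R S (mk b₀) = ((v⁻¹ : Sˣ) : S) * algebraMap R S (mk c)
          * algebraMap R S (mk Y) := by
        have e3 : (v : S) * algebraMap R S (mk b₀) =
            algebraMap R S (mk c) * algebraMap R S (mk Y) := by
          rw [hv, ← map_mul, e1, map_mul]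
        rw [mul_assoc, ← e3, ← mul_assoc, Units.inv_mul, one_mul]
      rw [Submodule.mem_span_singleton]
      obtain ⟨w, hw⟩ := IsLocalization.map_units S t
      refine ⟨((w⁻¹ : Sˣ) : S) * (((v⁻¹ : Sˣ) : S) * algebraMap R S (mk c)), ?_⟩
      have e4 : IsLocalization.mk' S (mk b₀) t = ((w⁻¹ : Sˣ) : S) * algebraMap R S (mk b₀) := by
        rw [IsLocalization.mk'_eq_iff_eq_mul, mul_comm _ (algebraMap R S (t : R)), ← hw,
          ← mul_assoc, Units.mul_inv, one_mul]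
      rw [e4, e2, smul_eq_mul]
      ring
    · rw [Submodule.span_le, Set.singleton_subset_iff]
      exact (IsLocalization.AtPrime.to_map_mem_maximal_iff S 𝔫' (mk Y)).2 ((hmem Y).2 hY)
  have hval : ValuationRing S :=
    ((tfae_of_isNoetherianRing_of_isLocalRing_of_isDomain S).out 4 1).1 hprinc
  -- the images of `b`, `s`
  set b' : S := algebraMap R S (mk b) with hb'
  set s' : S := algebraMap R S (mk s) with hs'
  -- from a divisibility in `S` to a congruence in `B`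
  have hback : ∀ (x y z : B) (q : S), algebraMap R S (mk x) = algebraMap R S (mk y) * q →
      ∃ u c : B, u ∉ 𝔫 ∧ u * x - c * y ∈ 𝔭 ∧
        (q ∈ IsLocalRing.maximalIdeal S → c ∈ 𝔫) := by
    intro x y z q hq
    obtain ⟨r, t, rfl⟩ := IsLocalization.exists_mk'_eq 𝔫'.primeCompl q
    obtain ⟨c, rfl⟩ := hmk r
    obtain ⟨u, hu⟩ := hmk (t : R)
    have hu𝔫 : u ∉ 𝔫 := fun h0 => t.2 (by rw [← hu]; exact (hmem u).2 h0)
    refine ⟨u, c, hu𝔫, ?_, ?_⟩
    · apply Ideal.Quotient.eq_zero_iff_mem.1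
      apply hinjS
      rw [map_zero, map_sub, map_sub, map_mul, map_mul, map_mul, map_mul, sub_eq_zero, hu, hq]
      have e5 : algebraMap R S (t : R) * IsLocalization.mk' S (mk c) t =
          algebraMap R S (mk c) := by
        rw [mul_comm, IsLocalization.mk'_spec]
      rw [mul_comm (algebraMap R S (mk y)), ← mul_assoc, e5]
    · intro hqm
      have h1 : algebraMap R S (mk c) ∈ IsLocalRing.maximalIdeal S := by
        have h2 : algebraMap R S (mk c) = IsLocalization.mk' S (mk c) t * algebraMap R S t := by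
          rw [IsLocalization.mk'_spec]
        rw [h2]
        exact Ideal.mul_mem_right _ _ hqm
      exact (hmem c).1 ((IsLocalization.AtPrime.to_map_mem_maximal_iff S 𝔫' (mk c)).1 h1)
  rcases ValuationRing.dvd_total s' b' with ⟨q, hq⟩ | ⟨q, hq⟩
  · obtain ⟨u, c, hu, huc, -⟩ := hback b s 0 q hq
    exact Or.inl ⟨u, c, hu, huc⟩
  · by_cases hqu : IsUnit q
    · obtain ⟨qu, rfl⟩ := hqu
      have hq' : b' = s' * ((qu⁻¹ : Sˣ) : S) := by
        rw [hq, mul_assoc, Units.mul_inv, mul_one]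
      obtain ⟨u, c, hu, huc, -⟩ := hback b s 0 _ hq'
      exact Or.inl ⟨u, c, hu, huc⟩
    · have hqm : q ∈ IsLocalRing.maximalIdeal S := (IsLocalRing.mem_maximalIdeal q).2 hqu
      obtain ⟨u, d, hu, hud, hd⟩ := hback s b 0 q hq
      exact Or.inr ⟨u, d, hu, hd hqm, hud⟩

end Algebra

section Chart

variable {F : Type*} [Field F] {B : Type*} [CommRing B] [Algebra B F]

/-- the reduction `B → k(V)` -/
noncomputable def wnRed (V : ValuationSubring F) (hBV : ∀ b : B, algebraMap B F b ∈ V) :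
    B →+* IsLocalRing.ResidueField V :=
  (IsLocalRing.residue V).comp ((algebraMap B F).codRestrict V.toSubring hBV)

theorem wnRed_eq_zero_iff (V : ValuationSubring F) (hBV : ∀ b : B, algebraMap B F b ∈ V)
    (b : B) : wnRed V hBV b = 0 ↔ algebraMap B F b ∈ V.nonunits := by
  unfold wnRed
  rw [RingHom.comp_apply, IsLocalRing.residue_eq_zero_iff]
  exact (ValuationSubring.coe_mem_nonunits_iff
    (a := (⟨algebraMap B F b, hBV b⟩ : V))).symm

/-- the reduction of an element of `V` -/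
theorem wn_res_eq_zero_iff (V : ValuationSubring F) {x : F} (hx : x ∈ V) :
    IsLocalRing.residue V ⟨x, hx⟩ = 0 ↔ x ∈ V.nonunits := by
  rw [IsLocalRing.residue_eq_zero_iff]
  exact (ValuationSubring.coe_mem_nonunits_iff (a := (⟨x, hx⟩ : V))).symm

theorem wn_nonunits_iff (V : ValuationSubring F) (x : F) :
    V.valuation x < 1 ↔ x ∈ V.nonunits := (ValuationSubring.mem_nonunits_iff V).symm

variable (hinj : Function.Injective (algebraMap B F)) (𝔫 : Ideal B) [h𝔫 : 𝔫.IsPrime]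

include hinj in
/-- **(N), chart form, wild.**  `V` a valuation ring through the prime `𝔫` of the noetherian chart
`B`, `V = B_𝔭` (`hVloc`), `𝔫 = 𝔭 + (Y)` locally at `𝔫` (`hgen`): the branch is normal. -/
theorem wn_normal_chart [IsNoetherianRing B] (V : ValuationSubring F)
    (hBV : ∀ b : B, algebraMap B F b ∈ V)
    (hthrough : ∀ b : B, algebraMap B F b ∈ V.nonunits → b ∈ 𝔫)
    (hVloc : ∀ x : F, x ∈ V → ∃ b s : B, algebraMap B F s ∉ V.nonunits ∧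
      algebraMap B F s * x = algebraMap B F b)
    (Y : B) (hY : Y ∈ 𝔫)
    (hgen : ∀ b ∈ 𝔫, ∃ u : B, u ∉ 𝔫 ∧ ∃ c : B, algebraMap B F (u * b - c * Y) ∈ V.nonunits)
    {p : ℕ} (hp : 2 ≤ p) : WabNormal (ls_localSubring (F := F) 𝔫) V p := by
  haveI := stb_gc_vert_isPrime V hBV
  have hOV := stb_gc_le 𝔫 V hBV hthrough
  have h𝔭𝔫 : stbGcVert V hBV ≤ 𝔫 := fun x hx => hthrough x hx
  -- the reduction maps
  set φ := wnRed V hBV with hφ
  have hφ0 : ∀ b : B, φ b = 0 ↔ algebraMap B F b ∈ V.nonunits := wnRed_eq_zero_iff V hBV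
  have hφres : ∀ (b : B), φ b = IsLocalRing.residue V ⟨algebraMap B F b, hBV b⟩ := fun b => rfl
  -- the common part: `x ≡ α ∈ O`, or `d̄ x̄ = ū` with `u ∉ 𝔫`, `d ∈ 𝔫`
  have key : ∀ x : F, ∀ hx : x ∈ V,
      (∃ s ∈ ls_localSubring (F := F) 𝔫, V.valuation (x - s) < 1) ∨
        ∃ u d : B, u ∉ 𝔫 ∧ d ∈ 𝔫 ∧ φ d * IsLocalRing.residue V ⟨x, hx⟩ = φ u := by
    intro x hx
    obtain ⟨b, s, hs, hsx⟩ := hVloc x hx
    have hvs : V.valuation (algebraMap B F s) = 1 := stb_gc_val_eq_one V (hBV s) hs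
    have hs0 : algebraMap B F s ≠ 0 := fun h0 => by
      rw [h0, map_zero] at hvs
      exact zero_ne_one hvs
    rcases wn_dvd_total (stbGcVert V hBV) 𝔫 h𝔭𝔫 Y hY
      (fun b hb => by
        obtain ⟨u, hu, c, hc⟩ := hgen b hb
        exact ⟨u, hu, c, hc⟩) b s hs with ⟨u, c, hu, huc⟩ | ⟨u, d, hu, hd, hud⟩
    · left
      have hu0 : algebraMap B F u ≠ 0 := stb_gc_algebraMap_ne_zero hinj 𝔫 hu
      have hvu : V.valuation (algebraMap B F u) = 1 :=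
        stb_gc_val_eq_one V (hBV u) (fun h => hu (hthrough u h))
      refine ⟨algebraMap B F c / algebraMap B F u, ⟨c, u, hu, by field_simp⟩, ?_⟩
      rw [wn_nonunits_iff]
      have e : x - algebraMap B F c / algebraMap B F u
          = (algebraMap B F s * algebraMap B F u)⁻¹ * algebraMap B F (u * b - c * s) := by
        rw [map_sub, map_mul, map_mul, ← hsx]
        field_simp
      rw [e]
      refine pwi_mul_mem_nonunits V ?_ huc
      rw [← V.valuation_le_one_iff, map_inv₀, map_mul, hvs, hvu, one_mul, inv_one]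
    · right
      refine ⟨u, d, hu, hd, ?_⟩
      -- `φ s (φ u - φ d x̄) = 0`
      have h1 : φ (u * s - d * b) = 0 := (hφ0 _).2 hud
      have h2 : φ b = φ s * IsLocalRing.residue V ⟨x, hx⟩ := by
        rw [hφres, hφres, ← map_mul]
        congr 1
        exact Subtype.ext hsx.symm
      have h3 : φ s ≠ 0 := fun h0 => hs ((hφ0 s).1 h0)
      rw [map_sub, map_mul, map_mul, h2] at h1
      have h4 : φ s * (φ u - φ d * IsLocalRing.residue V ⟨x, hx⟩) = 0 := by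
        linear_combination h1
      rcases mul_eq_zero.1 h4 with h5 | h5
      · exact absurd h5 h3
      · exact (sub_eq_zero.1 h5).symm
  -- an element of `O` in the residue field
  have hO : ∀ r ∈ ls_localSubring (F := F) 𝔫, ∀ hr : r ∈ V,
      ∃ r₁ r₂ : B, r₂ ∉ 𝔫 ∧ φ r₂ * IsLocalRing.residue V ⟨r, hr⟩ = φ r₁ := by
    rintro r ⟨r₁, r₂, hr₂, hrr⟩ hr
    refine ⟨r₁, r₂, hr₂, ?_⟩
    rw [hφres, hφres, ← map_mul]
    congr 1
    exact Subtype.ext hrr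
  have hne : ∀ z : B, z ∉ 𝔫 → φ z ≠ 0 := fun z hz h0 => hz (hthrough z ((hφ0 z).1 h0))
  have hin : ∀ z : B, z ∈ 𝔫 → ∀ w : B, φ z = φ w → w ∈ 𝔫 := by
    intro z hz w hzw
    have h1 : φ (w - z) = 0 := by rw [map_sub, hzw, sub_self]
    have h2 : w - z ∈ 𝔫 := hthrough _ ((hφ0 _).1 h1)
    have h3 : w = (w - z) + z := by ring
    rw [h3]
    exact 𝔫.add_mem h2 hz
  have hp0 : p ≠ 0 := by omega
  have hp1 : p - 1 ≠ 0 := by omega
  refine ⟨?_, ?_⟩
  · intro x hx r hr hxr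
    rcases key x hx with h | ⟨u, d, hu, hd, hud⟩
    · exact h
    exfalso
    have hrV : r ∈ V := hOV r hr
    obtain ⟨r₁, r₂, hr₂, hrr⟩ := hO r hr hrV
    -- `x̄ ^ p = r̄`
    have hxr' : IsLocalRing.residue V ⟨x, hx⟩ ^ p = IsLocalRing.residue V ⟨r, hrV⟩ := by
      rw [← map_pow, ← sub_eq_zero, ← map_sub]
      exact (wn_res_eq_zero_iff V (V.sub_mem (V.pow_mem hx p) hrV)).2
        ((wn_nonunits_iff V _).1 hxr)
    -- `r̄₂ ū ^ p = r̄₁ d̄ ^ p`
    have h1 : φ (r₂ * u ^ p) = φ (r₁ * d ^ p) := by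
      rw [map_mul, map_mul, map_pow, map_pow, ← hud, ← hrr, ← hxr']
      ring
    have h2 : r₂ * u ^ p ∈ 𝔫 := hin (r₁ * d ^ p) (𝔫.mul_mem_left _ (𝔫.pow_mem_of_mem hd p
      (Nat.pos_of_ne_zero hp0))) _ h1.symm
    rcases h𝔫.mem_or_mem h2 with h3 | h3
    · exact hr₂ h3
    · exact hu (h𝔫.mem_of_pow_mem p h3)
  · intro x hx r hr hxr
    rcases key x hx with h | ⟨u, d, hu, hd, hud⟩
    · exact h
    exfalso
    have hrV : r ∈ V := hOV r hr
    obtain ⟨r₁, r₂, hr₂, hrr⟩ := hO r hr hrV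
    -- `x̄ ^ p - x̄ = r̄`
    have hxr' : IsLocalRing.residue V ⟨x, hx⟩ ^ p - IsLocalRing.residue V ⟨x, hx⟩ =
        IsLocalRing.residue V ⟨r, hrV⟩ := by
      rw [← map_pow, ← map_sub, ← sub_eq_zero, ← map_sub]
      exact (wn_res_eq_zero_iff V
        (V.sub_mem (V.sub_mem (V.pow_mem hx p) hx) hrV)).2 ((wn_nonunits_iff V _).1 hxr)
    -- `r̄₂ ū ^ p = d̄ (r̄₂ d̄ ^ (p - 2) ū + r̄₁ d̄ ^ (p - 1))`
    obtain ⟨k, rfl⟩ : ∃ k, p = k + 2 := ⟨p - 2, by omega⟩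
    have h1 : φ (r₂ * u ^ (k + 2)) = φ (d * (r₂ * d ^ k * u + r₁ * d ^ (k + 1))) := by
      simp only [map_mul, map_add, map_pow]
      rw [← hud, ← hrr, ← hxr']
      ring
    have h2 : r₂ * u ^ (k + 2) ∈ 𝔫 := hin _ (𝔫.mul_mem_right _ hd) _ h1.symm
    rcases h𝔫.mem_or_mem h2 with h3 | h3
    · exact hr₂ h3
    · exact hu (h𝔫.mem_of_pow_mem _ h3)

end Chart

section Point

variable {A₀ E F : Type*} [CommRing A₀] [IsDomain A₀] [IsDiscreteValuationRing A₀]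
  [Field E] [Algebra A₀ E] [IsFractionRing A₀ E] [CharZero E]
  [Field F] [Algebra E F] [Algebra A₀ F] [IsScalarTower A₀ E F]
  {π : A₀} {κ : Type*}

/-- **(N), wild, at a closed point of the chart `u`**: branch `V` through `𝔫`, `V = (B_u)_𝔭`,
`𝔫 = 𝔭 + (Y)` locally at `𝔫`. -/
theorem wn_normal_point {u : F} [IsNoetherianRing ↥(zchClosure (A₀ := A₀) ({u} : Set F))]
    (V : ValuationSubring F)
    (hBV : ∀ b : F, IsIntegral ↥(Algebra.adjoin A₀ {u}) b → b ∈ V)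
    (hVloc : ∀ x : F, x ∈ V → ∃ b s : F, IsIntegral ↥(Algebra.adjoin A₀ {u}) b ∧
      IsIntegral ↥(Algebra.adjoin A₀ {u}) s ∧ s ∉ V.nonunits ∧ s * x = b)
    (𝔫 : AtPt (F := F) π u) (hthr : atThrough 𝔫 V)
    (Y : ↥(zchClosure (A₀ := A₀) ({u} : Set F))) (hY : Y ∈ 𝔫.1)
    (hgen : ∀ b ∈ 𝔫.1, ∃ w : ↥(zchClosure (A₀ := A₀) ({u} : Set F)), w ∉ 𝔫.1 ∧
      ∃ c : ↥(zchClosure (A₀ := A₀) ({u} : Set F)),
        algebraMap ↥(zchClosure (A₀ := A₀) ({u} : Set F)) F (w * b - c * Y) ∈ V.nonunits)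
    {p : ℕ} (hp : 2 ≤ p) : WabNormal (atLoc 𝔫) V p := by
  haveI := 𝔫.2.1.isPrime
  exact wn_normal_chart (B := ↥(zchClosure (A₀ := A₀) ({u} : Set F))) Subtype.val_injective 𝔫.1 V
    (fun b => hBV _ (mem_zchClosure.mp b.2)) hthr
    (fun x hx => by
      obtain ⟨b, s, hb, hs, hsV, hsx⟩ := hVloc x hx
      exact ⟨⟨b, mem_zchClosure.mpr hb⟩, ⟨s, mem_zchClosure.mpr hs⟩, hsV, hsx⟩)
    Y hY hgen hp

/-- **(N), wild, at a smooth closed point**: `𝔫 = (π, s)` locally. -/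
theorem wn_normal_smooth {u : F} [IsNoetherianRing ↥(zchClosure (A₀ := A₀) ({u} : Set F))]
    (V : ValuationSubring F)
    (hBV : ∀ b : F, IsIntegral ↥(Algebra.adjoin A₀ {u}) b → b ∈ V)
    (hπV : algebraMap A₀ F π ∈ V.nonunits)
    (hVloc : ∀ x : F, x ∈ V → ∃ b s : F, IsIntegral ↥(Algebra.adjoin A₀ {u}) b ∧
      IsIntegral ↥(Algebra.adjoin A₀ {u}) s ∧ s ∉ V.nonunits ∧ s * x = b)
    (𝔫 : AtPt (F := F) π u) (hthr : atThrough 𝔫 V)
    (s : ↥(zchClosure (A₀ := A₀) ({u} : Set F))) (hs : s ∈ 𝔫.1)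
    (hgen : NodesLocGen 𝔫.1 {algebraMap A₀ ↥(zchClosure (A₀ := A₀) ({u} : Set F)) π, s})
    {p : ℕ} (hp : 2 ≤ p) : WabNormal (atLoc 𝔫) V p := by
  haveI := 𝔫.2.1.isPrime
  exact wn_normal_point V hBV hVloc 𝔫 hthr s hs
    (stb_gc_gen_disc (B := ↥(zchClosure (A₀ := A₀) ({u} : Set F))) 𝔫.1 V
      (fun b => hBV _ (mem_zchClosure.mp b.2)) hgen hπV) hp

/-- **(N), wild, at a crossing point**, branch `V₁ ∋ π, X` (parameter `Y`). -/
theorem wn_normal_cross₁ {u : F} [IsNoetherianRing ↥(zchClosure (A₀ := A₀) ({u} : Set F))]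
    (V₁ : ValuationSubring F)
    (hBV₁ : ∀ b : F, IsIntegral ↥(Algebra.adjoin A₀ {u}) b → b ∈ V₁)
    (hπV₁ : algebraMap A₀ F π ∈ V₁.nonunits)
    (hVloc₁ : ∀ x : F, x ∈ V₁ → ∃ b s : F, IsIntegral ↥(Algebra.adjoin A₀ {u}) b ∧
      IsIntegral ↥(Algebra.adjoin A₀ {u}) s ∧ s ∉ V₁.nonunits ∧ s * x = b)
    (𝔫 : AtPt (F := F) π u) (hthr₁ : atThrough 𝔫 V₁)
    (X Y : ↥(zchClosure (A₀ := A₀) ({u} : Set F))) (hX : (X : F) ∈ V₁.nonunits) (hY : Y ∈ 𝔫.1)
    (hgen : NodesLocGen 𝔫.1 {algebraMap A₀ ↥(zchClosure (A₀ := A₀) ({u} : Set F)) π, X, Y})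
    {p : ℕ} (hp : 2 ≤ p) : WabNormal (atLoc 𝔫) V₁ p := by
  haveI := 𝔫.2.1.isPrime
  exact wn_normal_point V₁ hBV₁ hVloc₁ 𝔫 hthr₁ Y hY
    (stb_gc_gen_node (B := ↥(zchClosure (A₀ := A₀) ({u} : Set F))) 𝔫.1 V₁
      (fun b => hBV₁ _ (mem_zchClosure.mp b.2)) hgen hπV₁ hX) hp

/-- **(N), wild, at a crossing point**, branch `V₂ ∋ π, Y` (parameter `X`). -/
theorem wn_normal_cross₂ {u : F} [IsNoetherianRing ↥(zchClosure (A₀ := A₀) ({u} : Set F))]
    (V₂ : ValuationSubring F)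
    (hBV₂ : ∀ b : F, IsIntegral ↥(Algebra.adjoin A₀ {u}) b → b ∈ V₂)
    (hπV₂ : algebraMap A₀ F π ∈ V₂.nonunits)
    (hVloc₂ : ∀ x : F, x ∈ V₂ → ∃ b s : F, IsIntegral ↥(Algebra.adjoin A₀ {u}) b ∧
      IsIntegral ↥(Algebra.adjoin A₀ {u}) s ∧ s ∉ V₂.nonunits ∧ s * x = b)
    (𝔫 : AtPt (F := F) π u) (hthr₂ : atThrough 𝔫 V₂)
    (X Y : ↥(zchClosure (A₀ := A₀) ({u} : Set F))) (hX : X ∈ 𝔫.1) (hY : (Y : F) ∈ V₂.nonunits)
    (hgen : NodesLocGen 𝔫.1 {algebraMap A₀ ↥(zchClosure (A₀ := A₀) ({u} : Set F)) π, X, Y})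
    {p : ℕ} (hp : 2 ≤ p) : WabNormal (atLoc 𝔫) V₂ p := by
  haveI := 𝔫.2.1.isPrime
  exact wn_normal_point V₂ hBV₂ hVloc₂ 𝔫 hthr₂ X hX
    (stb_gc_gen_node' (B := ↥(zchClosure (A₀ := A₀) ({u} : Set F))) 𝔫.1 V₂
      (fun b => hBV₂ _ (mem_zchClosure.mp b.2)) hgen hπV₂ hY) hp

/-- **The local datum at a closed point `𝔫` of the chart `u`** used for (N): either `𝔫` is a
smooth point (`𝔫 = (π, s)` locally), or `𝔫` is a crossing of two components `c₁, c₂`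
(`𝔫 = (π, X, Y)` locally, `X ∈ 𝔪(V c₁)`, `Y ∈ 𝔪(V c₂)`, no other component through `𝔫`). -/
def WnPtData {u : F} (V : κ → ValuationSubring F) (𝔫 : AtPt (F := F) π u) : Prop :=
  (∃ s : ↥(zchClosure (A₀ := A₀) ({u} : Set F)), s ∈ 𝔫.1 ∧
      NodesLocGen 𝔫.1 {algebraMap A₀ ↥(zchClosure (A₀ := A₀) ({u} : Set F)) π, s}) ∨
    ∃ (c₁ c₂ : κ) (X Y : ↥(zchClosure (A₀ := A₀) ({u} : Set F))),
      (∀ c, atThrough 𝔫 (V c) → c = c₁ ∨ c = c₂) ∧ X ∈ 𝔫.1 ∧ Y ∈ 𝔫.1 ∧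
      (X : F) ∈ (V c₁).nonunits ∧ (Y : F) ∈ (V c₂).nonunits ∧
      NodesLocGen 𝔫.1 {algebraMap A₀ ↥(zchClosure (A₀ := A₀) ({u} : Set F)) π, X, Y}

/-- **(N), wild, at every closed point of the chart `u` and every branch through it.** -/
theorem wn_normal_of_ptData {u : F} [IsNoetherianRing ↥(zchClosure (A₀ := A₀) ({u} : Set F))]
    (V : κ → ValuationSubring F)
    (hBV : ∀ c (b : F), IsIntegral ↥(Algebra.adjoin A₀ {u}) b → b ∈ V c)
    (hπV : ∀ c, algebraMap A₀ F π ∈ (V c).nonunits)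
    (hVloc : ∀ c (x : F), x ∈ V c → ∃ b s : F, IsIntegral ↥(Algebra.adjoin A₀ {u}) b ∧
      IsIntegral ↥(Algebra.adjoin A₀ {u}) s ∧ s ∉ (V c).nonunits ∧ s * x = b)
    (𝔫 : AtPt (F := F) π u) (hdat : WnPtData V 𝔫) {p : ℕ} (hp : 2 ≤ p)
    (c : κ) (hthr : atThrough 𝔫 (V c)) : WabNormal (atLoc 𝔫) (V c) p := by
  rcases hdat with ⟨s, hs, hgen⟩ | ⟨c₁, c₂, X, Y, h12, hX, hY, hX₁, hY₂, hgen⟩
  · exact wn_normal_smooth (V c) (hBV c) (hπV c) (hVloc c) 𝔫 hthr s hs hgen hp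
  · rcases h12 c hthr with rfl | rfl
    · exact wn_normal_cross₁ (V c) (hBV c) (hπV c) (hVloc c) 𝔫 hthr X Y hX₁ hY hgen hp
    · exact wn_normal_cross₂ (V c) (hBV c) (hπV c) (hVloc c) 𝔫 hthr X Y hX hY₂ hgen hp

/-- **`hN` of `wab_main_two`** from the local data at the closed points of both charts. -/
theorem wn_hN {t : F} [IsNoetherianRing ↥(zchClosure (A₀ := A₀) ({t} : Set F))]
    [IsNoetherianRing ↥(zchClosure (A₀ := A₀) ({t⁻¹} : Set F))]
    (V : κ → ValuationSubring F)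
    (hBV₁ : ∀ c (b : F), IsIntegral ↥(Algebra.adjoin A₀ {t}) b → b ∈ V c)
    (hBV₂ : ∀ c (b : F), IsIntegral ↥(Algebra.adjoin A₀ {t⁻¹}) b → b ∈ V c)
    (hπV : ∀ c, algebraMap A₀ F π ∈ (V c).nonunits)
    (hVloc₁ : ∀ c (x : F), x ∈ V c → ∃ b s : F, IsIntegral ↥(Algebra.adjoin A₀ {t}) b ∧
      IsIntegral ↥(Algebra.adjoin A₀ {t}) s ∧ s ∉ (V c).nonunits ∧ s * x = b)
    (hVloc₂ : ∀ c (x : F), x ∈ V c → ∃ b s : F, IsIntegral ↥(Algebra.adjoin A₀ {t⁻¹}) b ∧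
      IsIntegral ↥(Algebra.adjoin A₀ {t⁻¹}) s ∧ s ∉ (V c).nonunits ∧ s * x = b)
    (hdat₁ : ∀ 𝔫 : AtPt (F := F) π t, WnPtData V 𝔫)
    (hdat₂ : ∀ 𝔫 : AtPt (F := F) π t⁻¹, WnPtData V 𝔫)
    {p : ℕ} (hp : 2 ≤ p) :
    ∀ i c, atInc π t V i c → WabNormal (atO π t i) (V c) p := by
  rintro (𝔫 | 𝔫) c hc
  · exact wn_normal_of_ptData V hBV₁ hπV hVloc₁ 𝔫 (hdat₁ 𝔫) hp c hc
  · exact wn_normal_of_ptData V hBV₂ hπV hVloc₂ 𝔫 (hdat₂ 𝔫) hp c hc

end Point

end Fermat.Agent.S33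


end ZBS33_005_4

/-! ### bundled: `Fermat.Agent.S33.WildMG` -/
section ZBS33_005_5

/-!
# S33 v2, C4 (WILD), piece T5 "WildMG", part 1: `wab_main_two` in the concrete setting

Setting of `UNIP/MGConcrete.lean` at residue characteristic `p`: `A ⊂ ℚ̄` a valuation ring over
`p`, `K₁ ⊂ ℚ̄` a field with `A′ = A ∩ E′` (`mgcA A K₁`, `E′ = ℚ̄^I · K₁ = mgcE A K₁`) a discrete
valuation ring, `F′ = F_{Mp}(E′) = mgcF A K₁ (M * p)`, charts `j`, `1 / j`, the two vertical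
valuation rings `V = mgvV hπ (mgdIota E′) hp hpM` (`true ↦ V_∞`, `false ↦ V_0`).

* `wmg_zeta`, `wmg_zeta_prim`, `wmg_dvd_zeta_sub_one`, `wmg_dvd_p` : a primitive `p`-th root of
  unity `ζ ∈ E′` lies in `A′`, `π ∣ ζ − 1`, `π ∣ p`.
* `wmg_smul_zeta` : `σ̂ ζ = ζ ^ a` on `F′` if `σ ζ = ζ ^ a`.
* `wmg_h12`, `wmg_h21` : `V_∞`, `V_0` are incomparable.
* `wmg_hunif` : `π` is a uniformizer of `V_∞`, `V_0`.
* `wmg_main` : `wab_main_two` for `V = mgvV`, with the hypotheses which do not depend on the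
  special fibre discharged.  Remaining hypotheses: (SS1), `AtTrivMod` on the two charts, the split
  hypothesis (H1), and the local hypotheses `hT4`, `hN`, `hS` at the closed points.
-/

set_option autoImplicit false
set_option linter.style.haveILetI false
set_option linter.unusedSectionVars false
set_option linter.unusedVariables false

noncomputable section

namespace Fermat.Agent.S33

open ModularCurve AlgebraicCurve Fermat.Agent.ES Fermat.Agent.ES.G2 Fermat.Agent.INJ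
open Fermat.Agent.UNIP IntermediateField

section Zeta

variable {A : ValuationSubring Qb} {K₀ : IntermediateField ℚ Qb}

/-- a root of unity of `K₀`, as an element of `A ∩ K₀` -/
def wmgZeta {ζ : Qb} {n : ℕ} (hn : n ≠ 0) (hζ : ζ ^ n = 1) (hζK : ζ ∈ K₀) : ↥(beta0Ring A K₀) :=
  ⟨⟨ζ, hζK⟩, Fermat.Agent.S31.rootOfUnity_mem A hn hζ⟩

@[simp]
theorem wmgZeta_coe {ζ : Qb} {n : ℕ} (hn : n ≠ 0) (hζ : ζ ^ n = 1) (hζK : ζ ∈ K₀) :
    (((wmgZeta (A := A) hn hζ hζK : ↥(beta0Ring A K₀)) : ↥K₀) : Qb) = ζ := rfl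

theorem wmg_coe_injective :
    Function.Injective (fun x : ↥(beta0Ring A K₀) => (((x : ↥K₀)) : Qb)) := by
  intro x y hxy
  exact Subtype.ext (Subtype.ext hxy)

theorem wmg_zeta_prim {ζ : Qb} {p : ℕ} (hp : p.Prime) (hζ : IsPrimitiveRoot ζ p)
    (hζK : ζ ∈ K₀) :
    IsPrimitiveRoot (wmgZeta (A := A) hp.ne_zero hζ.pow_eq_one hζK) p := by
  have hinj : Function.Injective
      ((algebraMap ↥K₀ Qb).comp (beta0Ring A K₀).subtype) := by
    intro x y hxy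
    exact wmg_coe_injective hxy
  exact IsPrimitiveRoot.of_map_of_injective (f := (algebraMap ↥K₀ Qb).comp
    (beta0Ring A K₀).subtype) hζ hinj

/-- `ζ − 1` lies in the maximal ideal of `A` (`ζ ^ p = 1`, `A` over `p`). -/
theorem wmg_zeta_sub_one_mem {ζ : Qb} {p : ℕ} (hp : p.Prime) (hA : A.LiesOverPrime p)
    (hζ : ζ ^ p = 1) : ζ - 1 ∈ A.nonunits := by
  haveI : Fact p.Prime := ⟨hp⟩
  haveI : CharP (IsLocalRing.ResidueField A) p := Fermat.Agent.RED.charP_residueField A hp hA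
  have hζA : ζ ∈ A := Fermat.Agent.S31.rootOfUnity_mem A hp.ne_zero hζ
  have h1 : (IsLocalRing.residue A ⟨ζ, hζA⟩ - 1) ^ p = 0 := by
    rw [sub_pow_char, one_pow, ← map_pow, sub_eq_zero]
    have : (⟨ζ, hζA⟩ : A) ^ p = 1 := Subtype.ext (by simpa using hζ)
    rw [this, map_one]
  have h2 : IsLocalRing.residue A (⟨ζ, hζA⟩ - 1) = 0 := by
    rw [map_sub, map_one]
    exact pow_eq_zero_iff (hp.ne_zero) |>.1 h1
  have h3 := (IsLocalRing.residue_eq_zero_iff _).1 h2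
  have h4 := ValuationSubring.coe_mem_nonunits_iff.2 h3
  simpa using h4

variable [IsDiscreteValuationRing ↥(beta0Ring A K₀)] {π : ↥(beta0Ring A K₀)}

theorem wmg_dvd_of_mem_nonunits (hπ : Irreducible π) (x : ↥(beta0Ring A K₀))
    (hx : (((x : ↥K₀)) : Qb) ∈ A.nonunits) : π ∣ x := by
  have h1 : x ∈ IsLocalRing.maximalIdeal ↥(beta0Ring A K₀) :=
    beta0Ring_mem_maximalIdeal_iff x |>.2 hx
  rw [hπ.maximalIdeal_eq] at h1
  exact Ideal.mem_span_singleton.1 h1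

theorem wmg_dvd_zeta_sub_one (hπ : Irreducible π) {ζ : Qb} {p : ℕ} (hp : p.Prime)
    (hA : A.LiesOverPrime p) (hζ : ζ ^ p = 1) (hζK : ζ ∈ K₀) :
    π ∣ wmgZeta (A := A) hp.ne_zero hζ hζK - 1 := by
  apply wmg_dvd_of_mem_nonunits hπ
  have : ((((wmgZeta (A := A) hp.ne_zero hζ hζK - 1 : ↥(beta0Ring A K₀)) : ↥K₀)) : Qb)
      = ζ - 1 := by
    push_cast
    rfl
  rw [this]
  exact wmg_zeta_sub_one_mem hp hA hζ

theorem wmg_dvd_p (hπ : Irreducible π) {p : ℕ} (hA : A.LiesOverPrime p) :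
    π ∣ ((p : ℕ) : ↥(beta0Ring A K₀)) := by
  apply wmg_dvd_of_mem_nonunits hπ
  have : (((((p : ℕ) : ↥(beta0Ring A K₀)) : ↥K₀)) : Qb) = (p : Qb) := by
    push_cast
    rfl
  rw [this]
  exact hA

end Zeta

end Fermat.Agent.S33

end
end ZBS33_005_5
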