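/- GENERATED FILE (helper35, build-time optimisation, NOTES/ZB.md): verbatim concatenation of the modules
   Fermat.Agent.S33.NTS
   Fermat.Agent.S33.NewRed
   Fermat.Agent.S33.C2
   Fermat.Agent.S33.PlanKey
   Fermat.Agent.S33.WildMGStmt
   Fermat.Agent.S33.NewSplitCls
   Fermat.Agent.S33.NewSplitFinal
   Fermat.Agent.S33.WildOfKummer
   Fermat.Agent.R38.Toric
   Fermat.Agent.R38.TresT0
   Fermat.Agent.R38.ToricP
   Fermat.Agent.S33.WildMGDesc
   Do not edit; do not import together with these modules. -/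
import Mathlib
import Fermat.Agent.ZB.STB_002
import Fermat.Agent.ZB.STB_001
import Fermat.Agent.ZB.ES_001
import Fermat.Agent.ZB.ES_007
import Fermat.Agent.ZB.INJ_007
import Fermat.Agent.ZB.RIB_001
import Fermat.Agent.ZB.ES_003
import Fermat.Agent.ZB.INJ_034
import Fermat.Agent.ZB.S33_005

/-! ### bundled: `Fermat.Agent.S33.NTS` -/
section ZBS33_001_0

/-!
# S33, route v2, block A1: modules without trivial sub-quotients (`NTS`)

`G` a group, `I ≤ G` a subgroup ("inertia"), `act : G → X → X` a plain map on an additive group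
(no axioms are asked; they are hypotheses of the lemmas that need them).

* `ntsSpan I act B` : the subgroup generated by `σ b − b`, `σ ∈ I`, `b ∈ B` (the "inertia span").
* `ntsStable I act B` : `B` is stable under `I`.
* `NTS I act Z` : every `I`-stable subgroup `B ≤ Z` is equal to its own inertia span, i.e. no
  `I`-stable subgroup of `Z` has a nonzero quotient with trivial action ("no trivial
  sub-quotient").

Permanence: `NTS.mono` (subgroups), `nts_transfer` (correspondences `X ←Ψ– F –Θ→ Y` with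
`ker Ψ ≤ ker Θ`), `NTS.map` (equivariant images), `NTS.comap_of_injective`, `NTS.of_ext`
(extensions), `NTS.pi` (finite products).
-/

set_option autoImplicit false

namespace Fermat.Agent.S33

variable {G : Type*} [Group G]

section defs

variable {X : Type*} [AddCommGroup X]

/-- the subgroup generated by `σ b − b`, `σ ∈ I`, `b ∈ B` -/
def ntsSpan (I : Subgroup G) (act : G → X → X) (B : AddSubgroup X) : AddSubgroup X :=
  AddSubgroup.closure {w | ∃ σ ∈ I, ∃ b ∈ B, w = act σ b - b}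

/-- `B` is stable under `I` -/
def ntsStable (I : Subgroup G) (act : G → X → X) (B : AddSubgroup X) : Prop :=
  ∀ σ ∈ I, ∀ b ∈ B, act σ b ∈ B

/-- **no trivial sub-quotient**: every `I`-stable subgroup of `Z` is its own inertia span -/
def NTS (I : Subgroup G) (act : G → X → X) (Z : AddSubgroup X) : Prop :=
  ∀ B : AddSubgroup X, B ≤ Z → ntsStable I act B → B ≤ ntsSpan I act B

variable {I : Subgroup G} {act : G → X → X}

theorem sub_mem_ntsSpan {B : AddSubgroup X} {σ : G} (hσ : σ ∈ I) {b : X} (hb : b ∈ B) :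
    act σ b - b ∈ ntsSpan I act B :=
  AddSubgroup.subset_closure ⟨σ, hσ, b, hb, rfl⟩

theorem ntsSpan_mono {B B' : AddSubgroup X} (h : B ≤ B') : ntsSpan I act B ≤ ntsSpan I act B' := by
  refine AddSubgroup.closure_mono ?_
  rintro w ⟨σ, hσ, b, hb, rfl⟩
  exact ⟨σ, hσ, b, h hb, rfl⟩

theorem ntsSpan_le_of_stable {B : AddSubgroup X} (h : ntsStable I act B) :
    ntsSpan I act B ≤ B := by
  rw [ntsSpan, AddSubgroup.closure_le]
  rintro w ⟨σ, hσ, b, hb, rfl⟩
  exact B.sub_mem (h σ hσ b hb) hb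

theorem NTS.mono {Z Z' : AddSubgroup X} (h : NTS I act Z) (hZ : Z' ≤ Z) : NTS I act Z' :=
  fun B hB hst => h B (hB.trans hZ) hst

theorem nts_bot : NTS I act (⊥ : AddSubgroup X) := by
  intro B hB _ b hb
  have : b = 0 := by simpa using hB hb
  rw [this]
  exact AddSubgroup.zero_mem _

end defs

section transfer

variable {F X Y : Type*} [AddCommGroup F] [AddCommGroup X] [AddCommGroup Y]
  {I : Subgroup G} {actF : G → F → F} {actX : G → X → X} {actY : G → Y → Y}

/-- image of an inertia span -/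
theorem ntsSpan_map_le (f : F →+ X) (hf : ∀ σ ∈ I, ∀ c, f (actF σ c) = actX σ (f c))
    (C : AddSubgroup F) : ntsSpan I actX (C.map f) ≤ (ntsSpan I actF C).map f := by
  rw [ntsSpan, AddSubgroup.closure_le]
  rintro w ⟨σ, hσ, b, hb, rfl⟩
  obtain ⟨c, hc, rfl⟩ := hb
  refine ⟨actF σ c - c, sub_mem_ntsSpan hσ hc, ?_⟩
  rw [map_sub, hf σ hσ]

theorem map_ntsSpan_le (f : F →+ X) (hf : ∀ σ ∈ I, ∀ c, f (actF σ c) = actX σ (f c))
    (C : AddSubgroup F) : (ntsSpan I actF C).map f ≤ ntsSpan I actX (C.map f) := by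
  rw [AddSubgroup.map_le_iff_le_comap, ntsSpan, AddSubgroup.closure_le]
  rintro w ⟨σ, hσ, c, hc, rfl⟩
  change f (actF σ c - c) ∈ ntsSpan I actX (C.map f)
  rw [map_sub, hf σ hσ]
  exact sub_mem_ntsSpan hσ ⟨c, hc, rfl⟩

/-- **Transfer along a correspondence.**  `Ψ : F → X`, `Θ : F → Y` equivariant with
`ker Ψ ≤ ker Θ`, `W ≤ F` stable with `Ψ W ≤ Z`: then `NTS Z` implies `NTS (Θ W)`. -/
theorem nts_transfer (Ψ : F →+ X) (Θ : F →+ Y)
    (hΨ : ∀ σ ∈ I, ∀ c, Ψ (actF σ c) = actX σ (Ψ c))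
    (hΘ : ∀ σ ∈ I, ∀ c, Θ (actF σ c) = actY σ (Θ c))
    (hker : ∀ c, Ψ c = 0 → Θ c = 0)
    {Z : AddSubgroup X} (hZ : NTS I actX Z) {W : AddSubgroup F} (hW : ntsStable I actF W)
    (hWZ : W.map Ψ ≤ Z) : NTS I actY (W.map Θ) := by
  intro B' hB' hst b' hb'
  set C : AddSubgroup F := W ⊓ B'.comap Θ with hC
  have hCst : ntsStable I actF C := by
    intro σ hσ c hc
    refine ⟨hW σ hσ c hc.1, ?_⟩
    change Θ (actF σ c) ∈ B'
    rw [hΘ σ hσ]
    exact hst σ hσ _ hc.2
  have hBZ : C.map Ψ ≤ Z := (AddSubgroup.map_mono inf_le_left).trans hWZ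
  have hBst : ntsStable I actX (C.map Ψ) := by
    rintro σ hσ _ ⟨c, hc, rfl⟩
    exact ⟨actF σ c, hCst σ hσ c hc, hΨ σ hσ c⟩
  have h1 := hZ (C.map Ψ) hBZ hBst
  obtain ⟨c, hcW, rfl⟩ := hB' hb'
  have hcC : c ∈ C := ⟨hcW, hb'⟩
  have h2 : Ψ c ∈ (ntsSpan I actF C).map Ψ := ntsSpan_map_le Ψ hΨ C (h1 ⟨c, hcC, rfl⟩)
  obtain ⟨c₁, hc₁, hc₁c⟩ := h2
  have h3 : Θ c = Θ c₁ := by
    have : Ψ (c - c₁) = 0 := by rw [map_sub, hc₁c, sub_self]
    have := hker _ this
    rw [map_sub, sub_eq_zero] at this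
    exact this
  change Θ c ∈ ntsSpan I actY B'
  rw [h3]
  have h4 : Θ c₁ ∈ ntsSpan I actY (C.map Θ) := map_ntsSpan_le Θ hΘ C ⟨c₁, hc₁, rfl⟩
  refine ntsSpan_mono ?_ h4
  rintro _ ⟨c', hc', rfl⟩
  exact hc'.2

/-- equivariant images -/
theorem NTS.map (f : X →+ Y) (hf : ∀ σ ∈ I, ∀ c, f (actX σ c) = actY σ (f c))
    {Z : AddSubgroup X} (hZ : NTS I actX Z) (hst : ntsStable I actX Z) :
    NTS I actY (Z.map f) :=
  nts_transfer (actF := actX) (actX := actX) (AddMonoidHom.id X) f (fun _ _ _ => rfl) hf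
    (fun c hc => by
    have : c = 0 := hc
    rw [this, map_zero]) hZ hst (by rw [AddSubgroup.map_id])

/-- pull-back along an injective equivariant map -/
theorem NTS.comap_of_injective (j : F →+ X) (hj : Function.Injective j)
    (hjeq : ∀ σ ∈ I, ∀ c, j (actF σ c) = actX σ (j c))
    {Z : AddSubgroup X} (hZ : NTS I actX Z) {W : AddSubgroup F} (hW : ntsStable I actF W)
    (hWZ : W.map j ≤ Z) : NTS I actF W := by
  have h := nts_transfer (actY := actF) j (AddMonoidHom.id F) hjeq (fun _ _ _ => rfl)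
    (fun c hc => by
      have : c = 0 := hj (by rw [hc, map_zero])
      rw [this, map_zero]) hZ hW hWZ
  rwa [AddSubgroup.map_id] at h

/-- **extensions** -/
theorem NTS.of_ext (f : X →+ Y) (hf : ∀ σ ∈ I, ∀ c, f (actX σ c) = actY σ (f c))
    (h0 : ∀ σ ∈ I, actY σ 0 = 0) {Z : AddSubgroup X}
    (h1 : NTS I actY (Z.map f)) (h2 : NTS I actX (Z ⊓ f.ker)) : NTS I actX Z := by
  intro B hB hst b hb
  have hB'st : ntsStable I actY (B.map f) := by
    rintro σ hσ _ ⟨c, hc, rfl⟩
    exact ⟨actX σ c, hst σ hσ c hc, hf σ hσ c⟩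
  have h3 := h1 (B.map f) (AddSubgroup.map_mono hB) hB'st ⟨b, hb, rfl⟩
  obtain ⟨w, hw, hwb⟩ := ntsSpan_map_le f hf B h3
  have hwB : w ∈ B := ntsSpan_le_of_stable hst hw
  set B₁ : AddSubgroup X := B ⊓ f.ker with hB₁
  have hB₁st : ntsStable I actX B₁ := by
    intro σ hσ c hc
    refine ⟨hst σ hσ c hc.1, ?_⟩
    have hc0 : f c = 0 := hc.2
    change f (actX σ c) = 0
    rw [hf σ hσ, hc0, h0 σ hσ]
  have hmem : b - w ∈ B₁ := by
    refine ⟨B.sub_mem hb hwB, ?_⟩
    change f (b - w) = 0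
    rw [map_sub, hwb, sub_self]
  have h4 := h2 B₁ (inf_le_inf_right _ hB) hB₁st hmem
  have h5 : b - w ∈ ntsSpan I actX B := ntsSpan_mono inf_le_left h4
  have : b = (b - w) + w := by abel
  rw [this]
  exact AddSubgroup.add_mem _ h5 hw

end transfer

section pi

variable {X : Type*} [AddCommGroup X] {I : Subgroup G} {act : G → X → X}

/-- **finite products** -/
theorem NTS.pi {ι : Type*} [Finite ι] {Z : AddSubgroup X} (hZ : NTS I act Z)
    (h0 : ∀ σ ∈ I, act σ 0 = 0) :
    NTS I (fun σ (f : ι → X) i => act σ (f i)) (AddSubgroup.pi Set.univ fun _ : ι => Z) := by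
  classical
  have := Fintype.ofFinite ι
  -- the subgroup of functions with values in `Z` and support in `s`
  let Zs : Finset ι → AddSubgroup (ι → X) := fun s =>
    AddSubgroup.pi Set.univ fun i : ι => if i ∈ s then Z else ⊥
  have key : ∀ s : Finset ι, NTS I (fun σ (f : ι → X) i => act σ (f i)) (Zs s) := by
    intro s
    induction s using Finset.induction_on with
    | empty =>
      refine nts_bot.mono ?_
      intro f hf
      rw [AddSubgroup.mem_bot]
      funext i
      have := hf i (Set.mem_univ i)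
      simpa using this
    | insert a s ha ih =>
      refine NTS.of_ext (actY := act) (Pi.evalAddMonoidHom (fun _ : ι => X) a)
        (fun _ _ _ => rfl) h0 ?_ ?_
      · refine hZ.mono ?_
        rintro _ ⟨f, hf, rfl⟩
        have := hf a (Set.mem_univ a)
        simpa using this
      · refine ih.mono ?_
        rintro f ⟨hf, hfa⟩ i -
        have hi := hf i (Set.mem_univ i)
        by_cases his : i ∈ s
        · simp only [his, if_true]
          have : i ∈ insert a s := Finset.mem_insert_of_mem his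
          simpa [this] using hi
        · simp only [his, if_false]
          by_cases hia : i = a
          · subst hia
            exact hfa
          · have : i ∉ insert a s := by
              rw [Finset.mem_insert, not_or]
              exact ⟨hia, his⟩
            simpa [this] using hi
  have := key Finset.univ
  refine this.mono ?_
  intro f hf i _
  simpa using hf i (Set.mem_univ i)

end pi

end Fermat.Agent.S33


end ZBS33_001_0

/-! ### bundled: `Fermat.Agent.S33.NewRed` -/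
section ZBS33_001_1

/-!
# S33 v2, piece C2 (generic part): reduction of `NTS (𝔄 J[pⁿ])` to the new part of exponent `p`
(helper92)

`G` a group, `I ≤ G`, `X`, `Y` additive groups with maps `actX : G → X → X`, `actY : G → Y → Y`,
`a b : X →+ Y` equivariant for `I` (in the application `X = J₀(pM)(ℚ̄)`, `Y = J₀(M)(ℚ̄)`,
`a = α_*`, `b = β_*`).

* `ntsTors X n` : the `n`-torsion subgroup;
* `NTS.of_ext₂` : `NTS (Z ⊓ ker a ⊓ ker b)`, `a Z ≤ W`, `b Z ≤ W`, `NTS W` ⇒ `NTS Z`;
* `nts_span_of_new` : the same for `Z = 𝔄 T`, `W = 𝔄 T'`, `a T ≤ T'`, `b T ≤ T'`;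
* `nts_filtration` : filtration by `p`: if `p Z_{n+1} ≤ Z_n`, `Z_0 = ⊥` and
  `NTS (Z_n ⊓ X[p])` for all `n` then `NTS (Z_n)` for all `n`;
* `nts_key_of_new` : **(KEY) for `X` from (KEY) for `Y` and `NTS` of the new part of exponent `p`**:
  `(∀ n, NTS (𝔄 Y[pⁿ])) → (∀ n, NTS (𝔄 X[pⁿ] ⊓ ker a ⊓ ker b ⊓ X[p])) → ∀ n, NTS (𝔄 X[pⁿ])`;
* `nts_top_of_sub`, `nts_sub_of_top` : `NTS (𝔄 T)` in `X` ⇔ `NTS (𝔄 ⊤)` in `↥T` (the shape of
  `nts_of_ann`, `S33/Transfer.lean`);
* `nts_of_scalar` : the trivial end of the route: if every `σ ∈ I` acts on `Z` through a scalar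
  `ω σ` and `ω σ₀ - 1` is invertible on `Z` for one `σ₀ ∈ I`, then `NTS Z`.
-/

set_option autoImplicit false

namespace Fermat.Agent.S33

variable {G : Type*} [Group G]

section tors

variable (X : Type*) [AddCommGroup X]

/-- the `n`-torsion subgroup -/
def ntsTors (n : ℕ) : AddSubgroup X := (nsmulAddMonoidHom n : X →+ X).ker

variable {X}

theorem mem_ntsTors {n : ℕ} {x : X} : x ∈ ntsTors X n ↔ n • x = 0 := Iff.rfl

theorem ntsTors_one : ntsTors X 1 = ⊥ := by
  ext x
  rw [mem_ntsTors, one_nsmul, AddSubgroup.mem_bot]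

theorem ntsTors_map_le {Y : Type*} [AddCommGroup Y] (f : X →+ Y) (n : ℕ) :
    (ntsTors X n).map f ≤ ntsTors Y n := by
  rintro _ ⟨x, hx, rfl⟩
  have hx' : n • x = 0 := hx
  show n • f x = 0
  rw [← map_nsmul, hx', map_zero]

theorem ntsTors_succ_map_le (p n : ℕ) :
    (ntsTors X (p ^ (n + 1))).map (nsmulAddMonoidHom p : X →+ X) ≤ ntsTors X (p ^ n) := by
  rintro _ ⟨x, hx, rfl⟩
  have hx' : p ^ (n + 1) • x = 0 := hx
  show p ^ n • (nsmulAddMonoidHom p : X →+ X) x = 0
  rw [nsmulAddMonoidHom_apply, ← mul_nsmul', ← pow_succ]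
  exact hx'

theorem ntsTors_mono {m n : ℕ} (h : m ∣ n) : ntsTors X m ≤ ntsTors X n := by
  intro x hx
  obtain ⟨k, rfl⟩ := h
  rw [mem_ntsTors] at hx ⊢
  rw [mul_comm, mul_nsmul', hx, nsmul_zero]

end tors

section red

variable {X Y : Type*} [AddCommGroup X] [AddCommGroup Y] {I : Subgroup G}
  {actX : G → X → X} {actY : G → Y → Y}

theorem ntsSpan_bot (h0 : ∀ σ ∈ I, actX σ 0 = 0) : ntsSpan I actX (⊥ : AddSubgroup X) = ⊥ := by
  rw [eq_bot_iff, ntsSpan, AddSubgroup.closure_le]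
  rintro w ⟨σ, hσ, b, hb, rfl⟩
  rw [AddSubgroup.mem_bot] at hb
  subst hb
  rw [h0 σ hσ, sub_zero]
  exact AddSubgroup.zero_mem _

theorem ntsStable_ntsSpan_of_stable {B : AddSubgroup X} (hB : ntsStable I actX B) :
    ntsStable I actX (ntsSpan I actX B) := by
  intro σ hσ w hw
  have h1 : w ∈ B := ntsSpan_le_of_stable hB hw
  have h2 : actX σ w - w ∈ ntsSpan I actX B := sub_mem_ntsSpan hσ h1
  have : actX σ w = (actX σ w - w) + w := by abel
  rw [this]
  exact AddSubgroup.add_mem _ h2 hw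

/-- extension along two maps -/
theorem NTS.of_ext₂ (a b : X →+ Y) (ha : ∀ σ ∈ I, ∀ c, a (actX σ c) = actY σ (a c))
    (hb : ∀ σ ∈ I, ∀ c, b (actX σ c) = actY σ (b c)) (h0 : ∀ σ ∈ I, actY σ 0 = 0)
    {Z : AddSubgroup X} {W : AddSubgroup Y} (hW : NTS I actY W) (haZ : Z.map a ≤ W)
    (hbZ : Z.map b ≤ W) (hnew : NTS I actX (Z ⊓ a.ker ⊓ b.ker)) : NTS I actX Z :=
  NTS.of_ext a ha h0 (hW.mono haZ)
    (NTS.of_ext b hb h0 (hW.mono ((AddSubgroup.map_mono inf_le_left).trans hbZ)) hnew)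

/-- the same for inertia spans -/
theorem nts_span_of_new (a b : X →+ Y) (ha : ∀ σ ∈ I, ∀ c, a (actX σ c) = actY σ (a c))
    (hb : ∀ σ ∈ I, ∀ c, b (actX σ c) = actY σ (b c)) (h0 : ∀ σ ∈ I, actY σ 0 = 0)
    {T : AddSubgroup X} {T' : AddSubgroup Y} (haT : T.map a ≤ T') (hbT : T.map b ≤ T')
    (hold : NTS I actY (ntsSpan I actY T'))
    (hnew : NTS I actX (ntsSpan I actX T ⊓ a.ker ⊓ b.ker)) : NTS I actX (ntsSpan I actX T) :=
  NTS.of_ext₂ a b ha hb h0 hold ((map_ntsSpan_le a ha T).trans (ntsSpan_mono haT))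
    ((map_ntsSpan_le b hb T).trans (ntsSpan_mono hbT)) hnew

/-- the action commutes with multiplication by `p` -/
theorem nts_act_nsmul (hadd : ∀ σ ∈ I, ∀ x y, actX σ (x + y) = actX σ x + actX σ y)
    {σ : G} (hσ : σ ∈ I) (p : ℕ) (x : X) : actX σ (p • x) = p • actX σ x := by
  have h0 : actX σ 0 = 0 := by
    have := hadd σ hσ 0 0
    rw [add_zero] at this
    exact left_eq_add.mp this
  induction p with
  | zero => rw [zero_nsmul, zero_nsmul, h0]
  | succ k ih => rw [succ_nsmul, succ_nsmul, hadd σ hσ, ih]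

theorem nts_act_zero (hadd : ∀ σ ∈ I, ∀ x y, actX σ (x + y) = actX σ x + actX σ y)
    {σ : G} (hσ : σ ∈ I) : actX σ 0 = 0 := by
  have := hadd σ hσ 0 0
  rw [add_zero] at this
  exact left_eq_add.mp this

/-- **filtration by `p`** -/
theorem nts_filtration (p : ℕ)
    (hadd : ∀ σ ∈ I, ∀ x y, actX σ (x + y) = actX σ x + actX σ y)
    (Z : ℕ → AddSubgroup X) (hZ0 : Z 0 = ⊥)
    (hZ : ∀ n, (Z (n + 1)).map (nsmulAddMonoidHom p : X →+ X) ≤ Z n)
    (h : ∀ n, NTS I actX (Z n ⊓ ntsTors X p)) (n : ℕ) : NTS I actX (Z n) := by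
  induction n with
  | zero =>
    rw [hZ0]
    exact nts_bot
  | succ k ih =>
    refine NTS.of_ext (actY := actX) (nsmulAddMonoidHom p : X →+ X) ?_
      (fun σ hσ => nts_act_zero hadd hσ) (ih.mono (hZ k)) (h (k + 1))
    intro σ hσ c
    rw [nsmulAddMonoidHom_apply, nsmulAddMonoidHom_apply]
    exact (nts_act_nsmul hadd hσ p c).symm

/-- **(KEY) for `X` from (KEY) for `Y` and the new part of exponent `p`.** -/
theorem nts_key_of_new (p : ℕ) (a b : X →+ Y)
    (ha : ∀ σ ∈ I, ∀ c, a (actX σ c) = actY σ (a c))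
    (hb : ∀ σ ∈ I, ∀ c, b (actX σ c) = actY σ (b c))
    (haddX : ∀ σ ∈ I, ∀ x y, actX σ (x + y) = actX σ x + actX σ y)
    (h0 : ∀ σ ∈ I, actY σ 0 = 0)
    (hold : ∀ n, NTS I actY (ntsSpan I actY (ntsTors Y (p ^ n))))
    (hnew : ∀ n, NTS I actX
      (ntsSpan I actX (ntsTors X (p ^ n)) ⊓ a.ker ⊓ b.ker ⊓ ntsTors X p)) (n : ℕ) :
    NTS I actX (ntsSpan I actX (ntsTors X (p ^ n))) := by
  refine nts_span_of_new a b ha hb h0 (ntsTors_map_le a _) (ntsTors_map_le b _) (hold n) ?_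
  refine nts_filtration p haddX
    (fun n => ntsSpan I actX (ntsTors X (p ^ n)) ⊓ a.ker ⊓ b.ker) ?_ ?_ hnew n
  · show ntsSpan I actX (ntsTors X (p ^ 0)) ⊓ a.ker ⊓ b.ker = ⊥
    rw [pow_zero, ntsTors_one, ntsSpan_bot (fun σ hσ => nts_act_zero haddX hσ), bot_inf_eq,
      bot_inf_eq]
  · intro k
    rintro _ ⟨x, ⟨⟨hx1, hx2⟩, hx3⟩, rfl⟩
    refine ⟨⟨?_, ?_⟩, ?_⟩
    · have h1 : (nsmulAddMonoidHom p : X →+ X) x
          ∈ (ntsSpan I actX (ntsTors X (p ^ (k + 1)))).map (nsmulAddMonoidHom p : X →+ X) :=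
        ⟨x, hx1, rfl⟩
      have h2 := map_ntsSpan_le (actX := actX) (nsmulAddMonoidHom p : X →+ X)
        (fun σ hσ c => by
          rw [nsmulAddMonoidHom_apply, nsmulAddMonoidHom_apply]
          exact (nts_act_nsmul haddX hσ p c).symm) (ntsTors X (p ^ (k + 1))) h1
      exact ntsSpan_mono (ntsTors_succ_map_le p k) h2
    · have hx2' : a x = 0 := hx2
      show a ((nsmulAddMonoidHom p : X →+ X) x) = 0
      rw [nsmulAddMonoidHom_apply, map_nsmul, hx2', nsmul_zero]
    · have hx3' : b x = 0 := hx3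
      show b ((nsmulAddMonoidHom p : X →+ X) x) = 0
      rw [nsmulAddMonoidHom_apply, map_nsmul, hx3', nsmul_zero]

/-- passing to a subgroup as ambient group -/
theorem nts_top_of_sub {T : AddSubgroup X} (actT : G → T → T)
    (hT : ∀ σ ∈ I, ∀ t : T, ((actT σ t : T) : X) = actX σ (t : X))
    (h : NTS I actX (ntsSpan I actX T)) : NTS I actT (ntsSpan I actT ⊤) := by
  have hst : ntsStable I actT (⊤ : AddSubgroup T) := fun _ _ _ _ => AddSubgroup.mem_top _
  refine NTS.comap_of_injective (actF := actT) (actX := actX) T.subtype Subtype.val_injective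
    hT h (ntsStable_ntsSpan_of_stable hst) ?_
  refine (map_ntsSpan_le (actF := actT) (actX := actX) T.subtype hT ⊤).trans (ntsSpan_mono ?_)
  rintro _ ⟨t, _, rfl⟩
  exact t.2

/-- passing from a subgroup as ambient group to the big group -/
theorem nts_sub_of_top {T : AddSubgroup X} (actT : G → T → T)
    (hT : ∀ σ ∈ I, ∀ t : T, ((actT σ t : T) : X) = actX σ (t : X))
    (h : NTS I actT (ntsSpan I actT ⊤)) : NTS I actX (ntsSpan I actX T) := by
  have hst : ntsStable I actT (⊤ : AddSubgroup T) := fun _ _ _ _ => AddSubgroup.mem_top _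
  have h1 := NTS.map (actX := actT) (actY := actX) T.subtype hT h
    (ntsStable_ntsSpan_of_stable hst)
  refine h1.mono ?_
  refine le_trans (ntsSpan_mono ?_) (ntsSpan_map_le (actF := actT) (actX := actX) T.subtype hT ⊤)
  intro t ht
  exact ⟨⟨t, ht⟩, AddSubgroup.mem_top _, rfl⟩

/-- **the end of the route**: if every `σ ∈ I` acts on `Z` through a scalar `ω σ` and
`(ω σ₀ - 1) c = 1 mod` the exponent of `Z` for one `σ₀ ∈ I`, then `NTS Z`. -/
theorem nts_of_scalar {Z : AddSubgroup X} (ω : G → ℤ)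
    (hω : ∀ σ ∈ I, ∀ z ∈ Z, actX σ z = ω σ • z) {σ₀ : G} (hσ₀ : σ₀ ∈ I) (c : ℤ)
    (hc : ∀ z ∈ Z, ((ω σ₀ - 1) * c) • z = z) : NTS I actX Z := by
  intro B hB _ b hb
  have h1 : actX σ₀ (c • b) - c • b ∈ ntsSpan I actX B :=
    sub_mem_ntsSpan hσ₀ (B.zsmul_mem hb c)
  have h2 : actX σ₀ (c • b) - c • b = b := by
    rw [hω σ₀ hσ₀ _ (Z.zsmul_mem (hB hb) c), ← mul_zsmul]
    have := hc b (hB hb)
    rwa [sub_mul, one_mul, sub_smul] at this
  rwa [h2] at h1

end red

end Fermat.Agent.S33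


end ZBS33_001_1

/-! ### bundled: `Fermat.Agent.S33.C2` -/
section ZBS33_001_2

/-!
# S33 v2, piece C2: `α_*`, `β_* : J₀(Mp)[pⁿ] → J₀(M)[pⁿ]` and the reduction of (KEY) to the
`p`-new part of exponent `p` (helper92)

`jAct M σ x = σ • x` is the Galois action on `J₀(M)(ℚ̄) = JZero M` as a plain map (the shape of
`S33/NTS.lean`), `I ≤ G_ℚ` any subgroup, `𝔄 T = ntsSpan I (jAct M) T`, `X[n] = ntsTors X n`.

* `c2_alpha_equivariant`, `c2_beta_equivariant` : `α_*`, `β_*` (`STB.stbPushAlpha`,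
  `STB.stbPushBeta`; Kummer form `STB.stb_kummerRel_pushAlpha/Beta` = norm along `α`, `β`)
  commute with `jAct`;
* `c2New M p n` : `𝔄 J₀(Mp)[pⁿ] ⊓ ker α_* ⊓ ker β_* ⊓ J₀(Mp)[p]`, the new part of exponent `p`;
* `c2_key_of_new` : `(∀ n, NTS (𝔄 J₀(M)[pⁿ])) → (∀ n, NTS (c2New M p n)) → ∀ n, NTS (𝔄 J₀(Mp)[pⁿ])`;
* `c2_pDiv_of_jZero` : transport to the `p`-divisible torsion `PDiv N p` (action `pDivGalois`);
* `c2_mem_new_iff`, `c2_kummer_of_mem_new` : a class of `c2New` has a Kummer function `u`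
  (`p · D = div u`) whose norms along `α` and `β` are `p`-th powers up to constants, i.e. are
  Kummer functions of `0`.
-/

set_option autoImplicit false
set_option linter.style.haveILetI false
set_option linter.unusedSectionVars false

noncomputable section

namespace Fermat.Agent.S33

open AlgebraicCurve ModularCurve Fermat.Agent.ES Fermat.Agent.STB

/-- the Galois action on `J₀(M)(ℚ̄)` as a plain map -/
def jAct (M : ℕ) [NeZero M] : GQ → JZero M → JZero M := fun σ x => σ • x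

theorem jAct_apply (M : ℕ) [NeZero M] (σ : GQ) (x : JZero M) : jAct M σ x = σ • x := rfl

theorem jAct_add (M : ℕ) [NeZero M] (σ : GQ) (x y : JZero M) :
    jAct M σ (x + y) = jAct M σ x + jAct M σ y := smul_add σ x y

theorem jAct_zero (M : ℕ) [NeZero M] (σ : GQ) : jAct M σ 0 = 0 := by
  show σ • (0 : JZero M) = 0
  exact smul_zero (A := JZero M) σ

theorem jAct_nsmul (M : ℕ) [NeZero M] (σ : GQ) (k : ℕ) (x : JZero M) :
    jAct M σ (k • x) = k • jAct M σ x :=
  map_nsmul (DistribSMul.toAddMonoidHom (JZero M) σ) k x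

/-- the Galois action on `PDiv M p` as a plain map -/
def pAct (M p : ℕ) [NeZero M] : GQ → PDiv M p → PDiv M p :=
  fun σ x => (letI := pDivGalois M p; σ • x)

theorem pAct_coe (M p : ℕ) [NeZero M] (σ : GQ) (x : PDiv M p) :
    ((pAct M p σ x : PDiv M p) : JZero M) = jAct M σ (x : JZero M) := rfl

section

variable (M p : ℕ) [NeZero M] [NeZero p]

theorem c2_alpha_equivariant (σ : GQ) (x : JZero (M * p)) :
    stbPushAlpha M p (jAct (M * p) σ x) = jAct M σ (stbPushAlpha M p x) :=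
  stbPushAlpha_galois M p σ x

theorem c2_beta_equivariant (σ : GQ) (x : JZero (M * p)) :
    stbPushBeta M p (jAct (M * p) σ x) = jAct M σ (stbPushBeta M p x) :=
  stbPushBeta_galois M p σ x

/-- the new part of exponent `p` of the inertia span of `J₀(Mp)[pⁿ]` -/
def c2New (I : Subgroup GQ) (n : ℕ) : AddSubgroup (JZero (M * p)) :=
  ntsSpan I (jAct (M * p)) (ntsTors (JZero (M * p)) (p ^ n)) ⊓ (stbPushAlpha M p).ker
    ⊓ (stbPushBeta M p).ker ⊓ ntsTors (JZero (M * p)) p

theorem c2_mem_new_iff (I : Subgroup GQ) (n : ℕ) (x : JZero (M * p)) :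
    x ∈ c2New M p I n ↔
      x ∈ ntsSpan I (jAct (M * p)) (ntsTors (JZero (M * p)) (p ^ n)) ∧
        stbPushAlpha M p x = 0 ∧ stbPushBeta M p x = 0 ∧ p • x = 0 := by
  constructor
  · rintro ⟨⟨⟨h1, h2⟩, h3⟩, h4⟩
    exact ⟨h1, h2, h3, h4⟩
  · rintro ⟨h1, h2, h3, h4⟩
    exact ⟨⟨⟨h1, h2⟩, h3⟩, h4⟩

/-- **(KEY) at level `Mp` from (KEY) at level `M` and `NTS` of the new part of exponent `p`.** -/
theorem c2_key_of_new (I : Subgroup GQ)
    (hold : ∀ n, NTS I (jAct M) (ntsSpan I (jAct M) (ntsTors (JZero M) (p ^ n))))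
    (hnew : ∀ n, NTS I (jAct (M * p)) (c2New M p I n)) (n : ℕ) :
    NTS I (jAct (M * p)) (ntsSpan I (jAct (M * p)) (ntsTors (JZero (M * p)) (p ^ n))) :=
  nts_key_of_new p (stbPushAlpha M p) (stbPushBeta M p)
    (fun σ _ c => c2_alpha_equivariant M p σ c) (fun σ _ c => c2_beta_equivariant M p σ c)
    (fun σ _ x y => jAct_add (M * p) σ x y) (fun σ _ => jAct_zero M σ) hold hnew n

/-- a class of the new part has a Kummer function whose norms along `α` and `β` are Kummer
functions of `0` (so `p`-th powers up to constants) -/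
theorem c2_kummer_of_mem_new (I : Subgroup GQ) (n : ℕ) {x : JZero (M * p)}
    (hx : x ∈ c2New M p I n) :
    ∃ u : modularFunctionFieldBar (M * p), KummerRel p x u ∧
      KummerRel p (0 : JZero M) (stbNorm (heckeAlphaBar (AlgebraicClosure ℚ) M p).toRingHom u) ∧
      KummerRel p (0 : JZero M) (stbNorm (heckeBetaBar (AlgebraicClosure ℚ) M p).toRingHom u) := by
  obtain ⟨_, h2, h3, h4⟩ := (c2_mem_new_iff M p I n x).1 hx
  obtain ⟨u, hu⟩ := exists_kummerRel (n := p) h4
  refine ⟨u, hu, ?_, ?_⟩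
  · have := stb_kummerRel_pushAlpha M p hu
    rwa [h2] at this
  · have := stb_kummerRel_pushBeta M p hu
    rwa [h3] at this

end

/-- transport of (KEY) from `J₀(N)(ℚ̄)` to the `p`-divisible torsion `PDiv N p` -/
theorem c2_pDiv_of_jZero (N p : ℕ) [NeZero N] (I : Subgroup GQ) (n : ℕ)
    (h : NTS I (jAct N) (ntsSpan I (jAct N) (ntsTors (JZero N) (p ^ n)))) :
    NTS I (pAct N p) (ntsSpan I (pAct N p) (ntsTors (PDiv N p) (p ^ n))) := by
  have hst : ntsStable I (pAct N p) (ntsTors (PDiv N p) (p ^ n)) := by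
    intro σ _ x hx
    have hx' : p ^ n • x = 0 := hx
    show p ^ n • pAct N p σ x = 0
    apply Subtype.ext
    rw [coe_nsmul_pDiv, pAct_coe, ← jAct_nsmul, ← coe_nsmul_pDiv, hx']
    exact jAct_zero N σ
  have heq : ∀ σ ∈ I, ∀ c : PDiv N p,
      (AddSubgroup.subtype (pDivTors p (JZero N))) (pAct N p σ c)
        = jAct N σ ((AddSubgroup.subtype (pDivTors p (JZero N))) c) := fun σ _ c => rfl
  refine NTS.comap_of_injective (actF := pAct N p) (actX := jAct N)
    (AddSubgroup.subtype (pDivTors p (JZero N))) Subtype.val_injective heq h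
    (ntsStable_ntsSpan_of_stable hst) ?_
  exact (map_ntsSpan_le (actF := pAct N p) (actX := jAct N)
    (AddSubgroup.subtype (pDivTors p (JZero N))) heq _).trans
    (ntsSpan_mono (ntsTors_map_le _ _))

end Fermat.Agent.S33

end
end ZBS33_001_2

/-! ### bundled: `Fermat.Agent.S33.PlanKey` -/
section ZBS33_001_3

/-!
# S33, route v2: interface of the final assembly (block C5)

* `KeyAt N p P` : (KEY) at level `N` and the place `P`: for every `n` the inertia span of
  `J₀(N)[pⁿ]` has no trivial sub-quotient.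
* `StmtKeyGood` : (KEY) at levels prime to `p` (block B4: S19 + `StmtNTSOfLattice`).
* `StmtWildT` : (C3) + (C4): for `p ∤ M`, `p` odd, `σ` in the inertia group at `P ∣ p` acting on
  `μ_p` through `ζ ↦ ζ ^ a`, every class `x` of the new part of exponent `p`
  (`c2New M p I n`, `S33/C2.lean`) satisfies `σ x = a x`.

`Assembly.lean` : `StmtKeyGood → StmtWildT →` the frozen statement S33.
-/

set_option autoImplicit false

namespace Fermat.Agent.S33

open ModularCurve Fermat.Agent.ES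

/-- (KEY) at level `N`, prime `p`, place `P` -/
def KeyAt (N p : ℕ) [NeZero N] (P : ValuationSubring (AlgebraicClosure ℚ)) : Prop :=
  ∀ n : ℕ, NTS (P.inertiaSubgroupIn ℚ) (jAct N)
    (ntsSpan (P.inertiaSubgroupIn ℚ) (jAct N) (ntsTors (JZero N) (p ^ n)))

/-- **B4**: (KEY) at levels prime to `p` -/
def StmtKeyGood : Prop :=
  ∀ (M p : ℕ) [NeZero M], p.Prime → p ≠ 2 → ¬ p ∣ M →
    ∀ P : ValuationSubring (AlgebraicClosure ℚ), P.LiesOverPrime p → KeyAt M p P

/-- **C3 + C4**: the inertia group acts on the new part of exponent `p` through the cyclotomic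
character -/
def StmtWildT : Prop :=
  ∀ (M p : ℕ) [NeZero M] [NeZero p], p.Prime → p ≠ 2 → ¬ p ∣ M →
    ∀ P : ValuationSubring (AlgebraicClosure ℚ), P.LiesOverPrime p →
      ∀ σ ∈ P.inertiaSubgroupIn ℚ, ∀ a : ℕ,
        (∀ ζ : AlgebraicClosure ℚ, ζ ^ p = 1 → σ ζ = ζ ^ a) →
          ∀ (n : ℕ) (x : JZero (M * p)), x ∈ c2New M p (P.inertiaSubgroupIn ℚ) n →
            jAct (M * p) σ x = a • x

end Fermat.Agent.S33


end ZBS33_001_3

/-! ### bundled: `Fermat.Agent.S33.WildMGStmt` -/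
section ZBS33_001_4

/-!
# S33 v2, C4 (WILD), piece T5 "WildMG": the Kummer form of (T)

`N = M p`, `p ∤ M`, `p` prime, `A ⊂ ℚ̄` a valuation ring over `p`, `σ` in the inertia group of `A`
acting on `μ_p` through `ζ ↦ ζ ^ a`.

* `StmtWildKummerAt hp hpM` : **(T) in Kummer form at level `M p`**: for every `u ∈ F_{Mp}^×` with
  `p ∣ div u` which is split at `A` (`IsSplitFn`, = output of C3) the function `σ u / u ^ a` is a
  `p`-th power in `F_{Mp}`.
* `StmtWildKummer` : the same at all levels, `p` odd.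
* `StmtWildKummerAux` : the same at the levels where the special-fibre data of UNIP exist
  (`p = 3 → 2 ∣ M`).

Glue (other files): `StmtWildKummerAux → StmtWildKummer` (cube descent, `S33/WildCube.lean`),
`StmtWildKummer → StmtWildT` (`S33/NewSplitFinal.lean` + Kummer classes).
-/

set_option autoImplicit false

noncomputable section

namespace Fermat.Agent.S33

open ModularCurve AlgebraicCurve Fermat.Agent.ES Fermat.Agent.ES.G2

/-- **(T) in Kummer form at level `M p`.** -/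
def StmtWildKummerAt {p M : ℕ} [NeZero p] [NeZero M] [NeZero (M * p)] (hp : p.Prime)
    (hpM : ¬ p ∣ M) : Prop :=
  ∀ A : ValuationSubring Qb, A.LiesOverPrime p →
    ∀ σ ∈ A.inertiaSubgroupIn ℚ, ∀ a : ℕ, (∀ ζ : Qb, ζ ^ p = 1 → σ ζ = ζ ^ a) →
      ∀ u : modularFunctionFieldBar (M * p), u ≠ 0 →
        (∀ P : Place Qb (modularFunctionFieldBar (M * p)), (p : ℤ) ∣ P.ord u) →
          IsSplitFn hp hpM A u →
            ∃ h : modularFunctionFieldBar (M * p),
              h ^ p = (arithmeticGalois (modularFunctionFieldFull (M * p)) σ • u) / u ^ a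

/-- **(T) in Kummer form**, all levels, `p` odd. -/
def StmtWildKummer : Prop :=
  ∀ (p M : ℕ) [NeZero p] [NeZero M] [NeZero (M * p)] (hp : p.Prime) (hpM : ¬ p ∣ M),
    p ≠ 2 → StmtWildKummerAt hp hpM

/-- **(T) in Kummer form** at the levels where the special-fibre data exist. -/
def StmtWildKummerAux : Prop :=
  ∀ (p M : ℕ) [NeZero p] [NeZero M] [NeZero (M * p)] (hp : p.Prime) (hpM : ¬ p ∣ M),
    p ≠ 2 → (p = 3 → 2 ∣ M) → StmtWildKummerAt hp hpM

end Fermat.Agent.S33

end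
end ZBS33_001_4

/-! ### bundled: `Fermat.Agent.S33.NewSplitCls` -/
section ZBS33_001_5

/-!
# S33, route v2, block C3/C5a: the new classes of exponent `p` are split (helper90)

`A ⊂ ℚ̄` a valuation ring over `p`, `I = I_A` its inertia group, `N = M p`, `p ∤ M`.

* `s33nc_gaussConst_of_pow` : `GaussConst (g ^ m) → GaussConst g`  (`ES.G2.pow_adjust`);
* `s33nc_exists_gaussConst` : a class of the inertia span of `J₀(N)[m]` has a Kummer function
  (of level `m`) which is Gauss-constant at `v_∞`  (`UNIP.cheap_infty`);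
* `s33nc_const_pow_of_kummerRel_zero` : a Kummer function of the class `0` is a constant times
  a `p`-th power;
* `s33nc_depth_of_mem_span` : a Kummer function (level `p`) of a class of exponent `p` of the
  inertia span of `J₀(N)[pⁿ]` has positive depth at `v_∞`;
* `s33_split_of_mem_new_of_start` : **every Kummer function of a class of `c2New M p I_A n` is
  split** (modulo `StmtDepthStart p`).
-/

set_option autoImplicit false
set_option linter.unusedSectionVars false

noncomputable section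

namespace Fermat.Agent.S33

open ModularCurve AlgebraicCurve Fermat.Agent.ES Fermat.Agent.ES.G2 Fermat.Agent.STB
  Fermat.Agent.UNIP

/-- `GaussConst (g ^ m) → GaussConst g` -/
theorem s33nc_gaussConst_of_pow {ℓ : ℕ} (hℓ : ℓ.Prime) (A : ValuationSubring Qb)
    (hA : A.LiesOverPrime ℓ) (N : ℕ) [NeZero N] {g : modularFunctionFieldBar N} {m : ℕ}
    (hm : 0 < m) (h : GaussConst A N (g ^ m)) : GaussConst A N g := by
  obtain ⟨c, hc, hR⟩ := h
  obtain ⟨d, hd⟩ := IsAlgClosed.exists_pow_nat_eq c hm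
  have hd0 : d ≠ 0 := by
    rintro rfl
    rw [zero_pow hm.ne'] at hd
    exact hc hd.symm
  have hpow : (algebraMap Qb (modularFunctionFieldBar N) d * g) ^ m =
      algebraMap Qb (modularFunctionFieldBar N) c * g ^ m := by
    rw [mul_pow, ← map_pow, hd]
  obtain ⟨ζ, hζ, hζR⟩ := pow_adjust stmtPrim N ℓ hℓ A hA m hm _ _ hR.ne_zero hR hpow
  have hζ0 : ζ ≠ 0 := by
    rintro rfl
    rw [zero_pow hm.ne'] at hζ
    exact zero_ne_one hζ
  refine ⟨d * ζ, mul_ne_zero hd0 hζ0, ?_⟩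
  have e : algebraMap Qb (modularFunctionFieldBar N) (d * ζ) * g =
      algebraMap Qb (modularFunctionFieldBar N) d * g *
        algebraMap Qb (modularFunctionFieldBar N) ζ := by
    rw [map_mul]; ring
  rw [e]
  exact hζR

/-- a class of the inertia span of the `m`-torsion has a Gauss-constant Kummer function of
level `m` -/
theorem s33nc_exists_gaussConst {ℓ : ℕ} (hℓ : ℓ.Prime) (A : ValuationSubring Qb)
    (hA : A.LiesOverPrime ℓ) (N : ℕ) [NeZero N] (m : ℕ) {x : JZero N}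
    (hx : x ∈ ntsSpan (A.inertiaSubgroupIn ℚ) (jAct N) (ntsTors (JZero N) m)) :
    ∃ U : modularFunctionFieldBar N, KummerRel m x U ∧ GaussConst A N U := by
  unfold ntsSpan at hx
  induction hx using AddSubgroup.closure_induction with
  | mem x hx =>
      obtain ⟨σ, hσ, b, hb, rfl⟩ := hx
      obtain ⟨u, hu⟩ := exists_kummerRel (n := m) (mem_ntsTors.1 hb)
      refine ⟨(arithmeticGalois (modularFunctionFieldFull N) σ • u) / u,
        (hu.galois σ).sub hu, ?_⟩
      exact cheap_infty N ℓ hℓ A hA σ hσ u hu.ne_zero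
  | zero => exact ⟨1, KummerRel.zero, GaussConst.one⟩
  | add x y _ _ hx hy =>
      obtain ⟨U, hU, hUG⟩ := hx
      obtain ⟨V, hV, hVG⟩ := hy
      exact ⟨U * V, hU.add hV, hUG.mul hVG⟩
  | neg x _ hx =>
      obtain ⟨U, hU, hUG⟩ := hx
      exact ⟨U⁻¹, hU.neg, hUG.inv⟩

/-- a Kummer function of the class `0` is a constant times a `p`-th power -/
theorem s33nc_const_pow_of_kummerRel_zero (M : ℕ) [NeZero M] (p : ℕ)
    {v : modularFunctionFieldBar M} (h : KummerRel p (0 : JZero M) v) :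
    ∃ (a : Qb) (f : modularFunctionFieldBar M),
      v = algebraMap Qb (modularFunctionFieldBar M) a * f ^ p := by
  obtain ⟨k, c, -, -, hc, hv⟩ := KummerRel.exists_eq_mul_pow (KummerRel.zero (n := p)) h
  obtain ⟨c₀, hc₀⟩ := mu_exists_const_of_ord_eq_zero c hc
  exact ⟨c₀, k, by rw [hv, hc₀, mul_one]⟩

/-- a Kummer function of level `p` of a class of the inertia span of `J₀(N)[pⁿ]` is, up to a
`p`-th power, Gauss-constant at `v_∞` -/
theorem s33nc_gaussConst_of_mem_span {p : ℕ} (hp : p.Prime) (A : ValuationSubring Qb)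
    (hA : A.LiesOverPrime p) (N : ℕ) [NeZero N] (n : ℕ) {x : JZero N}
    (hx : x ∈ ntsSpan (A.inertiaSubgroupIn ℚ) (jAct N) (ntsTors (JZero N) (p ^ n)))
    {u : modularFunctionFieldBar N} (hu : KummerRel p x u) :
    ∃ k : modularFunctionFieldBar N, k ≠ 0 ∧ GaussConst A N (u / k ^ p) := by
  obtain ⟨U, hU, hUG⟩ := s33nc_exists_gaussConst hp A hA N (p ^ n) hx
  have h1 : KummerRel (p ^ n * p) x (u ^ (p ^ n)) := hu.pow_left (p ^ n)
  have h2 : KummerRel (p ^ n * p) x (U ^ p) := by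
    have := hU.pow_left p
    rwa [mul_comm] at this
  obtain ⟨k, c, hk, hc, hcord, he⟩ := KummerRel.exists_eq_mul_pow h2 h1
  obtain ⟨c₀, hc₀⟩ := mu_exists_const_of_ord_eq_zero c hcord
  have hc₀0 : c₀ ≠ 0 := by
    rintro rfl
    rw [map_zero] at hc₀
    exact hc hc₀.symm
  refine ⟨k, hk, ?_⟩
  apply s33nc_gaussConst_of_pow hp A hA N (pow_pos hp.pos n)
  have e : (u / k ^ p) ^ (p ^ n) = algebraMap Qb (modularFunctionFieldBar N) c₀ * U ^ p := by
    rw [div_pow, he, hc₀, ← pow_mul, mul_comm p (p ^ n)]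
    exact mul_div_cancel_right₀ _ (pow_ne_zero _ hk)
  rw [e]
  exact GaussConst.const_mul hc₀0 (hUG.pow p)

section

variable {p M : ℕ} [NeZero p] [NeZero M] [NeZero (M * p)] (hp : p.Prime) (hpM : ¬ p ∣ M)

/-- depth of `u` from a uniform congruence for `c₁ · u / kᵖ` -/
theorem s33nc_depth_of_congr {A : ValuationSubring Qb} {N : ℕ} [NeZero N] (p : ℕ) {ϖ c₁ : Qb}
    (hc₁ : c₁ ≠ 0) {u k : modularFunctionFieldBar N} (hk : k ≠ 0)
    (h : CongrOneMod A N ϖ (algebraMap Qb (modularFunctionFieldBar N) c₁ * (u / k ^ p))) :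
    DepthInf A N p ϖ u := by
  refine ⟨c₁⁻¹, k, inv_ne_zero hc₁, hk, ?_⟩
  have e : u / (algebraMap Qb (modularFunctionFieldBar N) c₁⁻¹ * k ^ p) =
      algebraMap Qb (modularFunctionFieldBar N) c₁ * (u / k ^ p) := by
    rw [map_inv₀]
    have h1 : algebraMap Qb (modularFunctionFieldBar N) c₁ ≠ 0 := (map_ne_zero _).mpr hc₁
    have h2 : k ^ p ≠ 0 := pow_ne_zero _ hk
    field_simp
  rw [e]
  exact h

/-- **C3 for classes**, modulo the start: every Kummer function of a class of the new part of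
exponent `p` of the inertia span of `J₀(Mp)[pⁿ]` is split. -/
theorem s33_split_of_mem_new_of_start (hS : StmtDepthStart p) (A : ValuationSubring Qb)
    (hA : A.LiesOverPrime p) (n : ℕ) {x : JZero (M * p)}
    (hx : x ∈ c2New M p (A.inertiaSubgroupIn ℚ) n)
    {u : modularFunctionFieldBar (M * p)} (hu : KummerRel p x u) : IsSplitFn hp hpM A u := by
  obtain ⟨h1, h2, h3, -⟩ := (c2_mem_new_iff M p _ n x).1 hx
  have hNα : ∃ (a : Qb) (f : modularFunctionFieldBar M),
      stbNormAlpha M p u = algebraMap Qb (modularFunctionFieldBar M) a * f ^ p := by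
    have := stb_kummerRel_pushAlpha M p hu
    rw [h2] at this
    exact s33nc_const_pow_of_kummerRel_zero M p this
  have hNβ : ∃ (a : Qb) (f : modularFunctionFieldBar M),
      stbNormBeta M p u = algebraMap Qb (modularFunctionFieldBar M) a * f ^ p := by
    have := stb_kummerRel_pushBeta M p hu
    rw [h3] at this
    exact s33nc_const_pow_of_kummerRel_zero M p this
  obtain ⟨k, hk, c₁, hc₁, hR⟩ := s33nc_gaussConst_of_mem_span hp A hA (M * p) n h1 hu
  obtain ⟨ϖ, a, b, e, hϖ, ha, hb, -, hpa, hpe, hC⟩ := hS A hA (M * p) _ hR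
  exact s33ns_split hp hpM A hA hϖ ha hb hpa hpe hu.ne_zero hNα hNβ
    (Or.inl (s33nc_depth_of_congr p hc₁ hk hC))

end

end Fermat.Agent.S33

end
end ZBS33_001_5

/-! ### bundled: `Fermat.Agent.S33.NewSplitFinal` -/
section ZBS33_001_6

/-!
# S33, route v2, block C3 "NORM-DEPTH": final statements (helper90)

* `stmtNewSplit : StmtNewSplit hp hpM` — a function whose norms along `α`, `β` are constants times
  `p`-th powers and which is Gauss-constant at `v_∞` or at `v_0` is split;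
* `s33_split_of_mem_new` — every Kummer function (level `p`) of a class of
  `c2New M p I_A n` (the new part of exponent `p` of the inertia span of `J₀(Mp)[pⁿ]`) is split.

Inputs: `STB.stmtNormQ` (helper60), `S33/NormAlg.lean`, `S33/DepthStart.lean` (helper61),
`UNIP.cheap_infty` (helper20), `S33/C2.lean` (helper92).
-/

set_option autoImplicit false

noncomputable section

namespace Fermat.Agent.S33

open ModularCurve AlgebraicCurve Fermat.Agent.ES Fermat.Agent.ES.G2 Fermat.Agent.STB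
  Fermat.Agent.UNIP

section

variable {p M : ℕ} [NeZero p] [NeZero M] [NeZero (M * p)] (hp : p.Prime) (hpM : ¬ p ∣ M)

/-- **C3.** -/
theorem stmtNewSplit : StmtNewSplit hp hpM :=
  stmtNewSplit_of_start hp hpM (stmtDepthStart hp)

/-- **C3 for classes**: every Kummer function of a class of the new part of exponent `p` of the
inertia span of `J₀(Mp)[pⁿ]` is split. -/
theorem s33_split_of_mem_new (A : ValuationSubring Qb) (hA : A.LiesOverPrime p) (n : ℕ)
    {x : JZero (M * p)} (hx : x ∈ c2New M p (A.inertiaSubgroupIn ℚ) n)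
    {u : modularFunctionFieldBar (M * p)} (hu : KummerRel p x u) : IsSplitFn hp hpM A u :=
  s33_split_of_mem_new_of_start hp hpM (stmtDepthStart hp) A hA n hx hu

end

end Fermat.Agent.S33

end
end ZBS33_001_6

/-! ### bundled: `Fermat.Agent.S33.WildOfKummer` -/
section ZBS33_001_7

/-!
# S33, route v2, block C4 (WILD), top: `StmtWildKummer → StmtWildT`

`x ∈ c2New M p I n` has a Kummer function `u` of exponent `p` (`c2_kummer_of_mem_new`), which is
split (`s33_split_of_mem_new`, C3).  `StmtWildKummer` gives `σ u / u ^ a = h ^ p`, and `σ u / u ^ a`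
is a Kummer function of `σ x − a x`: hence `σ x = a x`.
-/

set_option autoImplicit false

noncomputable section

namespace Fermat.Agent.S33

open ModularCurve AlgebraicCurve Fermat.Agent.ES Fermat.Agent.ES.G2

section Generic

variable {K F : Type*} [Field K] [Field F] [Algebra K F]

/-- multiples: `u ^ a` is a Kummer function of `a • x` -/
theorem wok_kummerRel_nsmul {n : ℕ} {x : Pic0 K F} {u : F} (h : KummerRel n x u) (a : ℕ) :
    KummerRel n (a • x) (u ^ a) := by
  induction a with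
  | zero =>
    rw [zero_nsmul, pow_zero]
    exact KummerRel.zero
  | succ a ih =>
    rw [succ_nsmul, pow_succ]
    exact ih.add h

/-- the divisor of a Kummer function of exponent `n` is divisible by `n` -/
theorem wok_dvd_ord {n : ℕ} {x : Pic0 K F} {u : F} (h : KummerRel n x u) (v : Place K F) :
    (n : ℤ) ∣ v.ord u := by
  obtain ⟨D, -, -, hD⟩ := h
  exact ⟨_, (hD v).symm⟩

/-- If `u` is a Kummer function of `x` of exponent `n ≠ 0` and `g u / u ^ a` is an `n`-th power,
then `g x = a x`. -/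
theorem wok_smul_eq_nsmul (g : SemilinearAut K F) {n : ℕ} (hn : n ≠ 0) {x : Pic0 K F} {u : F}
    (hu : KummerRel n x u) (a : ℕ) {h : F} (hh : h ^ n = (g • u) / u ^ a) :
    g • x = a • x := by
  have h1 : KummerRel n (g • x - a • x) ((g • u) / u ^ a) :=
    (hu.smul g).sub (wok_kummerRel_nsmul hu a)
  rw [← hh] at h1
  have h2 : KummerRel n (g • x - a • x) (1 * h ^ n) := by rwa [one_mul]
  exact sub_eq_zero.mp (KummerRel.eq_zero_of_pow hn (fun v => v.ord_one) h2)

end Generic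

/-- **C4, top.**  The Kummer form of (C4) gives `StmtWildT`. -/
theorem stmtWildT_of_kummer (h : StmtWildKummer) : StmtWildT := by
  intro M p _ _ hp hp2 hpM P hP σ hσ a hζ n x hx
  obtain ⟨u, hu, -, -⟩ := c2_kummer_of_mem_new M p (P.inertiaSubgroupIn ℚ) n hx
  have hsplit : IsSplitFn hp hpM P u := s33_split_of_mem_new hp hpM P hP n hx hu
  obtain ⟨k, hk⟩ := h p M hp hpM hp2 P hP σ hσ a hζ u hu.ne_zero (wok_dvd_ord hu) hsplit
  exact wok_smul_eq_nsmul (arithmeticGalois (modularFunctionFieldFull (M * p)) σ) hp.ne_zero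
    hu a hk

end Fermat.Agent.S33

end
end ZBS33_001_7

/-! ### bundled: `Fermat.Agent.R38.Toric` -/
section ZBS33_001_8

/-!
# R38, piece PKG-TORIC (wiring): the `toric` clause from `S33.StmtWildT`

`S33.StmtWildT` (= C3 + C4 of S33 v2): the inertia group at `P ∣ p` acts through the cyclotomic
character on the new part of exponent `p` of the inertia span of `J₀(Mp)[pⁿ]`.

* `r38toric_cycloExp` : `σ ζ = ζ ^ cycloExp p σ` for every `p`-th root of unity `ζ`;
* `r38toric_jZero` : the `toric` clause on `J₀(Mp)(ℚ̄) = JZero (M * p)`;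
* `r38toric_pDiv`  : the `toric` clause on `PDiv (M * p) p` (action `pDivGalois`,
  `π = (stbPushAlphaP, stbPushBetaP)`).
-/

set_option autoImplicit false
set_option linter.style.haveILetI false

noncomputable section

namespace Fermat.Agent.R38

open ModularCurve Fermat.Agent.ES Fermat.Agent.STB Fermat.Agent.S33 ExtCitation

/-- the defining property of `cycloExp` -/
theorem r38toric_cycloExp (p : ℕ) [hpF : Fact p.Prime] (σ : GQ) (ζ : Qb) (hζ : ζ ^ p = 1) :
    σ ζ = ζ ^ cycloExp p σ := by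
  haveI : NeZero p := ⟨hpF.out.ne_zero⟩
  have hζ0 : ζ ≠ 0 := by
    rintro rfl
    rw [zero_pow hpF.out.ne_zero] at hζ
    exact zero_ne_one hζ
  let t : Qbˣ := Units.mk0 ζ hζ0
  have ht : t ∈ rootsOfUnity p Qb := by
    rw [mem_rootsOfUnity]
    apply Units.ext
    simpa [t] using hζ
  have h := modularCyclotomicCharacter.spec Qb (card_rootsOfUnity_eq_self p)
    (σ : Qb ≃+* Qb) (t := t) ht
  simpa [cycloExp, t] using h

section

variable (M p : ℕ) [NeZero M] [hpF : Fact p.Prime]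

/-- **PKG-TORIC on `J₀(Mp)(ℚ̄)`.** -/
theorem r38toric_jZero (hW : StmtWildT) (hp2 : p ≠ 2) (hpM : ¬ p ∣ M)
    (A : ValuationSubring Qb) (hA : A.LiesOverPrime p)
    (x : JZero (M * p)) (hx : p • x = 0)
    (hα : haveI : NeZero p := ⟨hpF.out.ne_zero⟩; stbPushAlpha M p x = 0)
    (hβ : haveI : NeZero p := ⟨hpF.out.ne_zero⟩; stbPushBeta M p x = 0)
    (σ : GQ) (hσ : σ ∈ A.inertiaSubgroupIn ℚ) (τ : GQ) (hτ : τ ∈ A.inertiaSubgroupIn ℚ) :
    τ • (σ • x - x) = cycloExp p τ • (σ • x - x) := by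
  haveI : NeZero p := ⟨hpF.out.ne_zero⟩
  have hmem : σ • x - x ∈ c2New M p (A.inertiaSubgroupIn ℚ) 1 := by
    rw [c2_mem_new_iff]
    refine ⟨?_, ?_, ?_, ?_⟩
    · have hxT : x ∈ ntsTors (JZero (M * p)) (p ^ 1) := by
        show p ^ 1 • x = 0
        rw [pow_one]
        exact hx
      exact sub_mem_ntsSpan (act := jAct (M * p)) hσ hxT
    · rw [map_sub, ← jAct_apply, c2_alpha_equivariant, hα, sub_zero]
      exact jAct_zero M σ
    · rw [map_sub, ← jAct_apply, c2_beta_equivariant, hβ, sub_zero]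
      exact jAct_zero M σ
    · rw [nsmul_sub, ← jAct_apply, ← jAct_nsmul, hx, sub_zero]
      exact jAct_zero (M * p) σ
  exact hW M p hpF.out hp2 hpM A hA τ hτ (cycloExp p τ)
    (fun ζ hζ => r38toric_cycloExp p τ ζ hζ) 1 (σ • x - x) hmem

/-- **PKG-TORIC on `PDiv (M * p) p`**, the `J` of the Eichler–Shimura package. -/
theorem r38toric_pDiv (hW : StmtWildT) (hp2 : p ≠ 2) (hpM : ¬ p ∣ M)
    (A : ValuationSubring Qb) (hA : A.LiesOverPrime p) :
    letI := pDivGalois (M * p) p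
    haveI : NeZero p := ⟨hpF.out.ne_zero⟩
    ∀ x : PDiv (M * p) p, p • x = 0 →
      stbPushAlphaP M p p x = 0 → stbPushBetaP M p p x = 0 →
      ∀ σ ∈ A.inertiaSubgroupIn ℚ, ∀ τ ∈ A.inertiaSubgroupIn ℚ,
        τ • (σ • x - x) = cycloExp p τ • (σ • x - x) := by
  letI := pDivGalois (M * p) p
  haveI : NeZero p := ⟨hpF.out.ne_zero⟩
  intro x hx hα hβ σ hσ τ hτ
  apply Subtype.ext
  have hx' : p • (x : JZero (M * p)) = 0 := by
    have := congrArg Subtype.val hx
    simpa using this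
  have hα' : stbPushAlpha M p (x : JZero (M * p)) = 0 := by
    have := congrArg Subtype.val hα
    rwa [stbPushAlphaP_coe] at this
  have hβ' : stbPushBeta M p (x : JZero (M * p)) = 0 := by
    have := congrArg Subtype.val hβ
    rwa [stbPushBetaP_coe] at this
  have key := r38toric_jZero M p hW hp2 hpM A hA (x : JZero (M * p)) hx' hα' hβ' σ hσ τ hτ
  simpa [pDivGalois_coe] using key

end

end Fermat.Agent.R38

end
end ZBS33_001_8

/-! ### bundled: `Fermat.Agent.R38.TresT0` -/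
section ZBS33_001_9

/-!
# Row 38, PKG-TRES, piece T0 (helper53): DEPTH⁺ ⇒ toric

`N = M p`, `p ∤ M`, `p` odd, `A ⊂ ℚ̄` a valuation ring over `p`, `x ∈ J₀(Mp)[p]` NEW in the
push-forward sense (`α_* x = 0 = β_* x`).  If one Kummer function of `x` is, up to a `p`-th power,
Gauss-constant at `v_∞` (or at `v_0`), then the inertia group of `A` acts on `x` through the
cyclotomic character.

Proof: the norms of a Kummer function `u` of `x` along `α`, `β` are Kummer functions of
`α_* x = 0`, `β_* x = 0`, so constants times `p`-th powers; with the Gauss-constancy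
`S33.stmtNewSplit` (C3, on main) makes `u` split, and (C4) `S33.StmtWildKummer` gives
`τ u / u ^ a ∈ F^{× p}`, `a = cycloExp p τ`, i.e. `τ x = a x`.

* `trest0_kummerRel_div_pow` : `u / k ^ n` is a Kummer function of `x` if `u` is;
* `trest0_split` : new + Gauss-constant at `v_∞` or `v_0` ⇒ split (`IsSplitFn`);
* `trest0_jZero_of_gauss` : the statement for a Kummer function which is Gauss-constant at `v_∞`
  or at `v_0`;
* `trest0_jZero_of_depth` : the same with `u / k ^ p` Gauss-constant (DEPTH⁺);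
* `trest0_jZero_trivInf`, `trest0_jZero_trivZero` : in the vocabulary `TrivInf`, `TrivZero` of
  `RIB/MP/Plan.lean`;
* `trest0_pDiv_trivInf`, `trest0_pDiv_trivZero` : on `PDiv (M * p) p`, the `J` of the package of
  row 38.
-/

set_option autoImplicit false
set_option linter.style.haveILetI false
set_option linter.unusedSectionVars false

noncomputable section

namespace Fermat.Agent.R38

open ModularCurve AlgebraicCurve Fermat.Agent.ES Fermat.Agent.ES.G2 Fermat.Agent.STB
  Fermat.Agent.S33 Fermat.Agent.RIB.MP ExtCitation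

section Generic

variable {K F : Type*} [Field K] [Field F] [Algebra K F]

/-- dividing a Kummer function by an `n`-th power -/
theorem trest0_kummerRel_div_pow [HasPrincipalDivisors K F] {n : ℕ} (hn : n ≠ 0)
    {x : Pic0 K F} {u : F} (h : KummerRel n x u) {k : F} (hk : k ≠ 0) :
    KummerRel n x (u / k ^ n) := by
  have hkn : k ^ n ≠ 0 := pow_ne_zero n hk
  have hu : u ≠ 0 := h.ne_zero
  have hdvd : ∀ v : Place K F, (n : ℤ) ∣ v.ord (u / k ^ n) := by
    intro v
    have h1 : v.ord (k ^ n) = (n : ℤ) * v.ord k := by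
      have := v.ord_zpow k (n : ℤ)
      rwa [zpow_natCast] at this
    rw [div_eq_mul_inv, v.ord_mul hu (inv_ne_zero hkn), v.ord_inv, h1]
    exact dvd_add (wok_dvd_ord h v) (Dvd.intro _ rfl).neg_right
  obtain ⟨x', -, hx'⟩ := exists_kummerRel_of_dvd hn (div_ne_zero hu hkn) hdvd
  have h2 : KummerRel n (x - x') (u / (u / k ^ n)) := h.sub hx'
  have e : u / (u / k ^ n) = 1 * k ^ n := by
    field_simp
  rw [e] at h2
  have h3 : x - x' = 0 := KummerRel.eq_zero_of_pow hn (fun v => v.ord_one) h2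
  rw [sub_eq_zero.mp h3]
  exact hx'

end Generic

section Main

variable (M p : ℕ) [NeZero M] [hpF : Fact p.Prime]

/-- **C3 for new classes**: a Kummer function of a new class which is Gauss-constant at `v_∞` or
at `v_0` is split. -/
theorem trest0_split (hpM : ¬ p ∣ M) (A : ValuationSubring Qb) (hA : A.LiesOverPrime p) :
    haveI : NeZero p := ⟨hpF.out.ne_zero⟩
    ∀ (x : JZero (M * p)), stbPushAlpha M p x = 0 → stbPushBeta M p x = 0 →
      ∀ u : modularFunctionFieldBar (M * p), KummerRel p x u →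
        (GaussConst A (M * p) u ∨
          GaussConst A (M * p) (Fermat.Agent.UNIP.atkinLehnerBar hpF.out hpM u)) →
        IsSplitFn hpF.out hpM A u := by
  haveI : NeZero p := ⟨hpF.out.ne_zero⟩
  intro x hα hβ u hu hG
  have hNα : ∃ (a : Qb) (f : modularFunctionFieldBar M),
      stbNormAlpha M p u = algebraMap Qb (modularFunctionFieldBar M) a * f ^ p := by
    have := stb_kummerRel_pushAlpha M p hu
    rw [hα] at this
    exact s33nc_const_pow_of_kummerRel_zero M p this
  have hNβ : ∃ (a : Qb) (f : modularFunctionFieldBar M),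
      stbNormBeta M p u = algebraMap Qb (modularFunctionFieldBar M) a * f ^ p := by
    have := stb_kummerRel_pushBeta M p hu
    rw [hβ] at this
    exact s33nc_const_pow_of_kummerRel_zero M p this
  exact stmtNewSplit hpF.out hpM A hA u hu.ne_zero hNα hNβ hG

/-- **TRES-T0 on `J₀(Mp)(ℚ̄)`**, for a Kummer function which is Gauss-constant at `v_∞` or at
`v_0`. -/
theorem trest0_jZero_of_gauss (hW : StmtWildKummer) (hp2 : p ≠ 2) (hpM : ¬ p ∣ M)
    (A : ValuationSubring Qb) (hA : A.LiesOverPrime p) :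
    haveI : NeZero p := ⟨hpF.out.ne_zero⟩
    ∀ (x : JZero (M * p)), stbPushAlpha M p x = 0 → stbPushBeta M p x = 0 →
      ∀ u : modularFunctionFieldBar (M * p), KummerRel p x u →
        (GaussConst A (M * p) u ∨
          GaussConst A (M * p) (Fermat.Agent.UNIP.atkinLehnerBar hpF.out hpM u)) →
        ∀ τ ∈ A.inertiaSubgroupIn ℚ, τ • x = cycloExp p τ • x := by
  haveI : NeZero p := ⟨hpF.out.ne_zero⟩
  intro x hα hβ u hu hG τ hτ
  have hsplit := trest0_split M p hpM A hA x hα hβ u hu hG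
  obtain ⟨k, hk⟩ := hW p M hpF.out hpM hp2 A hA τ hτ (cycloExp p τ)
    (fun ζ hζ => r38toric_cycloExp p τ ζ hζ) u hu.ne_zero (wok_dvd_ord hu) hsplit
  exact wok_smul_eq_nsmul (arithmeticGalois (modularFunctionFieldFull (M * p)) τ)
    hpF.out.ne_zero hu (cycloExp p τ) hk

/-- **TRES-T0 on `J₀(Mp)(ℚ̄)`, DEPTH⁺ form**: some Kummer function of `x` is, up to a `p`-th
power, Gauss-constant at `v_∞` or at `v_0`. -/
theorem trest0_jZero_of_depth (hW : StmtWildKummer) (hp2 : p ≠ 2) (hpM : ¬ p ∣ M)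
    (A : ValuationSubring Qb) (hA : A.LiesOverPrime p) :
    haveI : NeZero p := ⟨hpF.out.ne_zero⟩
    ∀ (x : JZero (M * p)), stbPushAlpha M p x = 0 → stbPushBeta M p x = 0 →
      ∀ u : modularFunctionFieldBar (M * p), KummerRel p x u →
        ∀ k : modularFunctionFieldBar (M * p), k ≠ 0 →
        (GaussConst A (M * p) (u / k ^ p) ∨
          GaussConst A (M * p) (Fermat.Agent.UNIP.atkinLehnerBar hpF.out hpM (u / k ^ p))) →
        ∀ τ ∈ A.inertiaSubgroupIn ℚ, τ • x = cycloExp p τ • x := by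
  haveI : NeZero p := ⟨hpF.out.ne_zero⟩
  intro x hα hβ u hu k hk hG τ hτ
  haveI : HasPrincipalDivisors (AlgebraicClosure ℚ) (modularFunctionFieldBar (M * p)) :=
    Fermat.Agent.ES.H.hasPrincipalDivisors_FF (M * p)
  exact trest0_jZero_of_gauss M p hW hp2 hpM A hA x hα hβ (u / k ^ p)
    (trest0_kummerRel_div_pow hpF.out.ne_zero hu hk) hG τ hτ

/-- **TRES-T0**, `TrivInf` form. -/
theorem trest0_jZero_trivInf (hW : StmtWildKummer) (hp2 : p ≠ 2) (hpM : ¬ p ∣ M)
    (A : ValuationSubring Qb) (hA : A.LiesOverPrime p) :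
    haveI : NeZero p := ⟨hpF.out.ne_zero⟩
    ∀ (x : JZero (M * p)), stbPushAlpha M p x = 0 → stbPushBeta M p x = 0 →
      TrivInf A p x → ∀ τ ∈ A.inertiaSubgroupIn ℚ, τ • x = cycloExp p τ • x := by
  haveI : NeZero p := ⟨hpF.out.ne_zero⟩
  intro x hα hβ hT τ hτ
  obtain ⟨u, hu, hG⟩ := hT
  exact trest0_jZero_of_gauss M p hW hp2 hpM A hA x hα hβ u hu (Or.inl hG) τ hτ

/-- **TRES-T0**, `TrivZero` form. -/
theorem trest0_jZero_trivZero (hW : StmtWildKummer) (hp2 : p ≠ 2) (hpM : ¬ p ∣ M)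
    (A : ValuationSubring Qb) (hA : A.LiesOverPrime p) :
    haveI : NeZero p := ⟨hpF.out.ne_zero⟩
    ∀ (x : JZero (M * p)), stbPushAlpha M p x = 0 → stbPushBeta M p x = 0 →
      TrivZero hpF.out hpM A p x → ∀ τ ∈ A.inertiaSubgroupIn ℚ, τ • x = cycloExp p τ • x := by
  haveI : NeZero p := ⟨hpF.out.ne_zero⟩
  intro x hα hβ hT τ hτ
  obtain ⟨u, hu, hG⟩ := hT
  exact trest0_jZero_of_gauss M p hW hp2 hpM A hA x hα hβ u hu (Or.inr hG) τ hτ

/-- **TRES-T0 on `PDiv (M * p) p`**, `TrivInf` form. -/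
theorem trest0_pDiv_trivInf (hW : StmtWildKummer) (hp2 : p ≠ 2) (hpM : ¬ p ∣ M)
    (A : ValuationSubring Qb) (hA : A.LiesOverPrime p) :
    letI := pDivGalois (M * p) p
    haveI : NeZero p := ⟨hpF.out.ne_zero⟩
    ∀ x : PDiv (M * p) p, stbPushAlphaP M p p x = 0 → stbPushBetaP M p p x = 0 →
      TrivInf A p (x : JZero (M * p)) →
      ∀ τ ∈ A.inertiaSubgroupIn ℚ, τ • x = cycloExp p τ • x := by
  letI := pDivGalois (M * p) p
  haveI : NeZero p := ⟨hpF.out.ne_zero⟩
  intro x hα hβ hT τ hτ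
  apply Subtype.ext
  have hα' : stbPushAlpha M p (x : JZero (M * p)) = 0 := by
    have := congrArg Subtype.val hα
    rwa [stbPushAlphaP_coe] at this
  have hβ' : stbPushBeta M p (x : JZero (M * p)) = 0 := by
    have := congrArg Subtype.val hβ
    rwa [stbPushBetaP_coe] at this
  have key := trest0_jZero_trivInf M p hW hp2 hpM A hA (x : JZero (M * p)) hα' hβ' hT τ hτ
  simpa [pDivGalois_coe] using key

/-- **TRES-T0 on `PDiv (M * p) p`**, `TrivZero` form. -/
theorem trest0_pDiv_trivZero (hW : StmtWildKummer) (hp2 : p ≠ 2) (hpM : ¬ p ∣ M)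
    (A : ValuationSubring Qb) (hA : A.LiesOverPrime p) :
    letI := pDivGalois (M * p) p
    haveI : NeZero p := ⟨hpF.out.ne_zero⟩
    ∀ x : PDiv (M * p) p, stbPushAlphaP M p p x = 0 → stbPushBetaP M p p x = 0 →
      TrivZero hpF.out hpM A p (x : JZero (M * p)) →
      ∀ τ ∈ A.inertiaSubgroupIn ℚ, τ • x = cycloExp p τ • x := by
  letI := pDivGalois (M * p) p
  haveI : NeZero p := ⟨hpF.out.ne_zero⟩
  intro x hα hβ hT τ hτ
  apply Subtype.ext
  have hα' : stbPushAlpha M p (x : JZero (M * p)) = 0 := by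
    have := congrArg Subtype.val hα
    rwa [stbPushAlphaP_coe] at this
  have hβ' : stbPushBeta M p (x : JZero (M * p)) = 0 := by
    have := congrArg Subtype.val hβ
    rwa [stbPushBetaP_coe] at this
  have key := trest0_jZero_trivZero M p hW hp2 hpM A hA (x : JZero (M * p)) hα' hβ' hT τ hτ
  simpa [pDivGalois_coe] using key

end Main

end Fermat.Agent.R38

namespace Fermat.Agent.R38

open Fermat.Agent.S33 in
/-- **TRES-T0** (`R38/PlanTres.lean`) from (C4) of S33 v2 in Kummer form. -/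
theorem stmtTresT0_of (hW : StmtWildKummer) : StmtTresT0 := by
  intro M p _ _ _ _ hp2 hpM A hA x _ hα hβ hT τ hτ
  exact trest0_jZero_trivInf M p hW hp2 hpM A hA x hα hβ hT τ hτ

end Fermat.Agent.R38

end
end ZBS33_001_9

/-! ### bundled: `Fermat.Agent.R38.ToricP` -/
section ZBS33_001_10

/-!
# R38, piece PKG-TORIC: `StmtToricP` from `S33.StmtWildT`

`stmtToricP_of : S33.StmtWildT → StmtToricP` (the `toric` clause of the frame `R38/PkgFrame.lean`).
-/

set_option autoImplicit false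

namespace Fermat.Agent.R38

/-- **PKG-TORIC** from C3 + C4 of S33 v2. -/
theorem stmtToricP_of (hW : Fermat.Agent.S33.StmtWildT) : StmtToricP := by
  intro M p _ _ _ hp2 hpM A hA x hx hα hβ σ hσ τ hτ
  exact r38toric_pDiv M p hW hp2 hpM A hA x hx hα hβ σ hσ τ hτ

end Fermat.Agent.R38


end ZBS33_001_10

/-! ### bundled: `Fermat.Agent.S33.WildMGDesc` -/
section ZBS33_001_11

/-!
# S33 v2, C4 (WILD), piece T5i "descent": from the `E′`-level statement to `StmtWildKummerAt`

* `StmtWildFieldAt hp hpM` : **(T) at `E′`-level**, the conclusion of `wab_main_two` in the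
  concrete setting `(A′, E′, F′) = (mgcA A K₁, mgcE A K₁, mgcF A K₁ (M p))`, `K₁` a number field,
  Galois over `ℚ`; hypotheses on `u₀ ∈ F′`: `p ∣ div u₀`, rational support (`MgcRat`), and the
  split hypothesis (H1) at `V = mgvV`.
* `stmtWildKummerAt_of_field` : `StmtWildFieldAt hp hpM → StmtWildKummerAt hp hpM` (`p ≥ 3`):
  field of definition of `u` (`mg_exists_descent`), `ζ_p ∈ K₁`, the bridge
  `wdb_hsplit_of_isSplitFn`, rational support (`rat_exists_field_rational`, D8), and the constant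
  `c ∈ E′^×` is a `p`-th power in `ℚ̄`.
-/

set_option autoImplicit false
set_option linter.style.haveILetI false
set_option linter.unusedSectionVars false
set_option linter.unusedVariables false

noncomputable section

namespace Fermat.Agent.S33

open ModularCurve AlgebraicCurve Fermat.Agent.ES Fermat.Agent.ES.G2 Fermat.Agent.INJ
open Fermat.Agent.UNIP IntermediateField

section

variable {p M : ℕ} [NeZero p] [NeZero M] [NeZero (M * p)]

/-- **(T) at `E′`-level.** -/
def StmtWildFieldAt (hp : p.Prime) (hpM : ¬ p ∣ M) : Prop :=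
  ∀ (A : ValuationSubring Qb) (hA : A.LiesOverPrime p) (K₁ : IntermediateField ℚ Qb)
    [NumberField K₁] [IsGalois ℚ K₁] [IsDiscreteValuationRing ↥(mgcA A K₁)]
    (ζ : ↥(mgcA A K₁)) (hζ : IsPrimitiveRoot ζ p)
    (π : ↥(mgcA A K₁)) (hπ : Irreducible π)
    (σ : Qb ≃ₐ[ℚ] Qb) (hσI : σ ∈ A.inertiaSubgroupIn ℚ)
    (hσ : ∀ x ∈ mgcE A K₁, σ x ∈ mgcE A K₁)
    (a : ℕ) (hσζ : σ (((ζ : ↥(mgcE A K₁)) : Qb)) = (((ζ : ↥(mgcE A K₁)) : Qb)) ^ a)
    (u₀ : ↥(mgcF A K₁ (M * p))), u₀ ≠ 0 →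
    (∀ P : Place Qb (modularFunctionFieldBar (M * p)),
      (p : ℤ) ∣ P.ord (nfEmb (mgcE A K₁) (M * p) u₀)) →
    MgcRat A K₁ (M * p) u₀ →
    (∀ c : Bool, ∃ h : ↥(mgcF A K₁ (M * p)), h ≠ 0 ∧
      (mgvV hπ (mgdIota (mgcE A K₁)) hp hpM c).valuation (u₀ / h ^ p - 1) ≤
        (mgvV hπ (mgdIota (mgcE A K₁)) hp hpM c).valuation
          ((algebraMap ↥(mgcA A K₁) ↥(mgcF A K₁ (M * p)) ζ - 1) ^ p *
            algebraMap ↥(mgcA A K₁) ↥(mgcF A K₁ (M * p)) π)) →
    ∃ c : ↥(mgcE A K₁), c ≠ 0 ∧ ∃ h : ↥(mgcF A K₁ (M * p)),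
      mgcGal (M * p) σ hσ • u₀ / u₀ ^ a =
        algebraMap ↥(mgcE A K₁) ↥(mgcF A K₁ (M * p)) c * h ^ p

set_option synthInstance.maxHeartbeats 400000 in
set_option maxHeartbeats 1600000 in
/-- **T5i, descent.**  The `E′`-level statement gives (T) in Kummer form over `ℚ̄`. -/
theorem stmtWildKummerAt_of_field (hp : p.Prime) (hpM : ¬ p ∣ M) (hp3 : 3 ≤ p)
    (h : StmtWildFieldAt hp hpM) : StmtWildKummerAt hp hpM := by
  intro A hA σ hσI a hσa u hu hdiv hsplit
  -- a primitive `p`-th root of unity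
  haveI : NeZero ((p : ℕ) : Qb) := ⟨by exact_mod_cast hp.ne_zero⟩
  obtain ⟨ζ₀, hζ₀⟩ := HasEnoughRootsOfUnity.exists_primitiveRoot Qb p
  -- the bridge
  obtain ⟨Kb, hKbfin, hbridge⟩ := wdb_hsplit_of_isSplitFn hp hpM hp3 A hsplit
  -- a number field of definition of `u`, containing `ζ₀`
  obtain ⟨K', hK'fin, hK'S, hK'⟩ := mg_exists_descent (N := M * p) {ζ₀} u.2
  have hζ₀K' : ζ₀ ∈ K' := hK'S ζ₀ (Finset.mem_singleton_self ζ₀)
  -- rationality of the support (D8)
  haveI := hK'fin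
  haveI := hKbfin
  have hE₁fin : FiniteDimensional ℚ ↥(K' ⊔ Kb) := IntermediateField.finiteDimensional_sup K' Kb
  obtain ⟨K₁, hE₁K₁, hK₁fin, hK₁gal, hrat⟩ :=
    rat_exists_field_rational (N := M * p) u hu (K' ⊔ Kb) hE₁fin
  haveI : NumberField K₁ := @NumberField.mk _ _ inferInstance hK₁fin
  haveI : IsGalois ℚ K₁ := hK₁gal
  haveI : Normal ℚ K₁ := hK₁gal.to_normal
  haveI : IsDiscreteValuationRing ↥(mgcA A K₁) := beta0Ring_isDVR_sup K₁ hp hA
  have hK₁E : K₁ ≤ mgcE A K₁ := le_sup_right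
  have hK'E : K' ≤ mgcE A K₁ := (le_sup_left.trans hE₁K₁).trans hK₁E
  have hKbE : Kb ≤ mgcE A K₁ := (le_sup_right.trans hE₁K₁).trans hK₁E
  obtain ⟨u₀, hu₀⟩ := hK' (mgcE A K₁) hK'E
  have hu₀' : nfEmb (mgcE A K₁) (M * p) u₀ = u := hu₀
  have hσ : ∀ x ∈ mgcE A K₁, σ x ∈ mgcE A K₁ := mga_stable_beta0_sup hσI K₁
  have hu₀0 : u₀ ≠ 0 := by
    rintro rfl
    apply hu
    rw [← hu₀', map_zero]
  obtain ⟨π, hπ⟩ := IsDiscreteValuationRing.exists_irreducible ↥(mgcA A K₁)
  -- `ζ` in `A′`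
  set ζ : ↥(mgcA A K₁) := wmgZeta (A := A) hp.ne_zero hζ₀.pow_eq_one (hK'E hζ₀K') with hζdef
  have hζ : IsPrimitiveRoot ζ p := wmg_zeta_prim hp hζ₀ (hK'E hζ₀K')
  have hlam : π ∣ ζ - 1 := wmg_dvd_zeta_sub_one hπ hp hA hζ₀.pow_eq_one (hK'E hζ₀K')
  have hR : MgcRat A K₁ (M * p) u₀ := fun Q s σ' hs hQ f hf =>
    hrat (mgcE A K₁) hK₁E u₀ hu₀' Q s σ' hs hQ f hf
  have hsp := hbridge (mgcE A K₁) hKbE hπ (mgdIota (mgcE A K₁)) hζ hlam u₀ hu₀'
  obtain ⟨c, hc0, h₀, hch⟩ := h A hA K₁ ζ hζ π hπ σ hσI hσ a (hσa ζ₀ hζ₀.pow_eq_one) u₀ hu₀0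
    (by rw [hu₀']; exact hdiv) hR hsp
  -- a `p`-th root of the constant
  obtain ⟨d, hd⟩ := IsAlgClosed.exists_pow_nat_eq ((c : Qb)) hp.pos
  refine ⟨algebraMap Qb (modularFunctionFieldBar (M * p)) d * nfEmb (mgcE A K₁) (M * p) h₀, ?_⟩
  have e1 := congrArg (nfEmb (mgcE A K₁) (M * p)) hch
  rw [map_div₀, map_pow, map_mul, map_pow, nfEmb_algebraMap, mgcGal_smul, nfEmb_mgAct, hu₀'] at e1
  rw [e1, mul_pow, ← map_pow, hd]
  rfl

end

end Fermat.Agent.S33

end
end ZBS33_001_11
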