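/- GENERATED FILE (helper35, build-time optimisation, NOTES/ZB.md): verbatim concatenation of the modules
   Fermat.Agent.S33.Reduction
   Fermat.Agent.S33.DetCyclo
   Fermat.Agent.R38.EDet
   Fermat.Agent.R38.S44Of
   Do not edit; do not import together with these modules. -/
import Mathlib
import Fermat.Prelude.Def_GaloisRep_LocalConditions
import Fermat.Agent.ZB.S53_001
import Fermat.Agent.ZB.Cheb_002
import Fermat.Agent.ZB.Common_003
import Fermat.Agent.ZB.Cheb_001
import Fermat.Agent.ZB.ES_001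
import Fermat.Agent.ZB.RED_001
import Fermat.Agent.ZB.S04_001
import Fermat.Agent.ZB.INJ_034
import Fermat.Agent.ZB.S33_001
import Fermat.Agent.ZB.S49_004

/-! ### bundled: `Fermat.Agent.S33.Reduction` -/
section ZBS33_002_0

/-!
# S33, step (A): the algebra

`isOrdinaryAt_of_pointwise`: a `GaloisRepAdic A` over a local ring `A` is ordinary at `p`
(in the prelude's sense) as soon as

* its residual representation is ordinary at `p`,
* for every place `P ∣ p` some element of the inertia group `I_P` acts non-trivially on the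
  residual representation (true when `p` is odd and the determinant is cyclotomic),
* (POINTWISE) for every place `P ∣ p` and every `t ≠ 0` in `A` there are a field `Ω`, a ring
  homomorphism `x : A → Ω` with `x t ≠ 0` and a nonzero `x`-semilinear `I_P`-invariant
  functional `V → Ω`.

Proof. `M :=` the `A`-span of `(σ − 1)V`, `σ ∈ I_P`. It is `D_P`-stable as `I_P` is normal in
`D_P`. Its image in `V̄` is the line `L̄`, so there is a basis `(m₀, v₁)` of `V` with `m₀ ∈ M`
(Nakayama). If `m = a m₀ + c v₁ ∈ M` then `c V ⊆ M`, so `c = 0` by (POINTWISE): `M = A m₀`.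
-/

set_option autoImplicit false

namespace Fermat.Agent.S33

open scoped TensorProduct

section core

variable {A : Type*} [CommRing A] [IsLocalRing A] {V : Type*} [AddCommGroup V] [Module A V]
  [Module.Finite A V]

/-- The abstract core: a submodule `M` of a free module of rank 2 over a local ring, whose image
in `k ⊗ V` is a nonzero part of a line spanned by a basis vector, and such that `V / M` is
faithful, is spanned by the first vector of a basis. -/
theorem exists_basis_span_eq (hV : Module.finrank A V = 2) (M : Submodule A V)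
    (bbar : Module.Basis (Fin 2) (IsLocalRing.ResidueField A) (IsLocalRing.ResidueField A ⊗[A] V))
    (hM : ∀ m ∈ M, (1 : IsLocalRing.ResidueField A) ⊗ₜ[A] m ∈
      Submodule.span (IsLocalRing.ResidueField A) {bbar 0})
    (m₀ : V) (hm₀mem : m₀ ∈ M) (hv₀ : (1 : IsLocalRing.ResidueField A) ⊗ₜ[A] m₀ ≠ 0)
    (hfaith : ∀ c : A, (∀ v : V, c • v ∈ M) → c = 0) :
    ∃ b : Module.Basis (Fin 2) A V, M = Submodule.span A {b 0} := by
  have hsurj : Function.Surjective
      (TensorProduct.mk A (IsLocalRing.ResidueField A) V 1) :=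
    TensorProduct.mk_surjective A V (IsLocalRing.ResidueField A)
      Ideal.Quotient.mk_surjective
  have hm₀L := hM m₀ hm₀mem
  rw [Submodule.mem_span_singleton] at hm₀L
  obtain ⟨c, hc⟩ := hm₀L
  have hc0 : c ≠ 0 := by
    rintro rfl
    rw [zero_smul] at hc
    exact hv₀ hc.symm
  obtain ⟨v₁, hv₁⟩ := hsurj (bbar 1)
  rw [TensorProduct.mk_apply] at hv₁
  -- the basis `(c • b̄₀, b̄₁)` of the residual representation
  let w : Fin 2 → IsLocalRing.ResidueField A := ![c, 1]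
  have hw : ∀ i, IsUnit (w i) := by
    intro i
    fin_cases i
    · exact IsUnit.mk0 c hc0
    · exact isUnit_one
  let b' : Module.Basis (Fin 2) (IsLocalRing.ResidueField A)
      (IsLocalRing.ResidueField A ⊗[A] V) := bbar.isUnitSMul hw
  let f : Fin 2 → V := ![m₀, v₁]
  have hfb : ∀ i, (1 : IsLocalRing.ResidueField A) ⊗ₜ[A] f i = b' i := by
    intro i
    rw [Module.Basis.isUnitSMul_apply]
    fin_cases i
    · exact hc.symm
    · simpa [f, w] using hv₁
  have hspan : Submodule.span A (Set.range f) = ⊤ :=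
    IsLocalRing.span_eq_top_of_tmul_eq_basis f b' hfb
  let b : Module.Basis (Fin 2) A V :=
    basisOfTopLeSpanOfCardEqFinrank f hspan.ge (by rw [Fintype.card_fin, hV])
  have hb0 : b 0 = m₀ := by
    rw [coe_basisOfTopLeSpanOfCardEqFinrank]; rfl
  have hsum : ∀ v : V, v = b.repr v 0 • b 0 + b.repr v 1 • b 1 := by
    intro v
    conv_lhs => rw [← b.sum_repr v, Fin.sum_univ_two]
  refine ⟨b, le_antisymm ?_ ?_⟩
  · intro m hm
    have hc1 : ∀ v : V, b.repr m 1 • v ∈ M := by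
      have h1 : b.repr m 1 • b 1 ∈ M := by
        have e : b.repr m 1 • b 1 = m - b.repr m 0 • b 0 := by
          rw [eq_sub_iff_add_eq']
          exact (hsum m).symm
        rw [e, hb0]
        exact Submodule.sub_mem _ hm (Submodule.smul_mem _ _ hm₀mem)
      intro v
      have e : b.repr m 1 • v =
          (b.repr m 1 * b.repr v 0) • b 0 + b.repr v 1 • (b.repr m 1 • b 1) := by
        conv_lhs => rw [hsum v]
        rw [smul_add, smul_smul, smul_smul, smul_smul, mul_comm (b.repr v 1)]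
      rw [e, hb0]
      exact Submodule.add_mem _ (Submodule.smul_mem _ _ hm₀mem) (Submodule.smul_mem _ _ h1)
    have hzero := hfaith _ hc1
    rw [Submodule.mem_span_singleton]
    refine ⟨b.repr m 0, ?_⟩
    have h := hsum m
    rw [hzero, zero_smul, add_zero] at h
    exact h.symm
  · rw [Submodule.span_singleton_le_iff_mem, hb0]
    exact hm₀mem

end core

variable {A : Type} [CommRing A] [IsLocalRing A]

/-- the submodule generated by `(σ − 1)V`, `σ` in the inertia group of `P` -/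
def inertiaSpan (ρ : GaloisRepAdic A) (P : ValuationSubring (AlgebraicClosure ℚ)) :
    Submodule A ρ.V :=
  Submodule.span A {w | ∃ σ ∈ P.inertiaSubgroupIn ℚ, ∃ v : ρ.V, w = ρ.ρ σ v - v}

theorem sub_mem_inertiaSpan (ρ : GaloisRepAdic A) (P : ValuationSubring (AlgebraicClosure ℚ))
    {σ : AlgebraicClosure ℚ ≃ₐ[ℚ] AlgebraicClosure ℚ} (hσ : σ ∈ P.inertiaSubgroupIn ℚ)
    (v : ρ.V) : ρ.ρ σ v - v ∈ inertiaSpan ρ P :=
  Submodule.subset_span ⟨σ, hσ, v, rfl⟩

theorem inertiaSubgroup_normal (P : ValuationSubring (AlgebraicClosure ℚ)) :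
    (P.inertiaSubgroup ℚ).Normal :=
  MonoidHom.normal_ker _

/-- the inertia group is normalised by the decomposition group -/
theorem conj_mem_inertiaSubgroupIn (P : ValuationSubring (AlgebraicClosure ℚ))
    {τ σ : AlgebraicClosure ℚ ≃ₐ[ℚ] AlgebraicClosure ℚ} (hτ : τ ∈ P.decompositionSubgroup ℚ)
    (hσ : σ ∈ P.inertiaSubgroupIn ℚ) : τ * σ * τ⁻¹ ∈ P.inertiaSubgroupIn ℚ := by
  rw [ValuationSubring.inertiaSubgroupIn, Subgroup.mem_map] at hσ ⊢
  obtain ⟨σ', hσ', rfl⟩ := hσ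
  have hn : (P.inertiaSubgroup ℚ).Normal := inertiaSubgroup_normal P
  let τ' : P.decompositionSubgroup ℚ := ⟨τ, hτ⟩
  refine ⟨τ' * σ' * τ'⁻¹, hn.conj_mem σ' hσ' τ', ?_⟩
  simp only [map_mul, map_inv, Subgroup.subtype_apply]
  rfl

/-- the inertia span is stable under the decomposition group -/
theorem map_mem_inertiaSpan (ρ : GaloisRepAdic A) (P : ValuationSubring (AlgebraicClosure ℚ))
    {τ : AlgebraicClosure ℚ ≃ₐ[ℚ] AlgebraicClosure ℚ} (hτ : τ ∈ P.decompositionSubgroup ℚ)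
    {w : ρ.V} (hw : w ∈ inertiaSpan ρ P) : ρ.ρ τ w ∈ inertiaSpan ρ P := by
  induction hw using Submodule.span_induction with
  | mem w hw =>
    obtain ⟨σ, hσ, v, rfl⟩ := hw
    have h1 : ρ.ρ τ (ρ.ρ σ v - v) = ρ.ρ (τ * σ * τ⁻¹) (ρ.ρ τ v) - ρ.ρ τ v := by
      rw [map_sub, ← Module.End.mul_apply, ← Module.End.mul_apply, ← map_mul, ← map_mul,
        inv_mul_cancel_right]
    rw [h1]
    exact sub_mem_inertiaSpan ρ P (conj_mem_inertiaSubgroupIn P hτ hσ) _
  | zero => rw [map_zero]; exact Submodule.zero_mem _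
  | add x y _ _ hx hy => rw [map_add]; exact Submodule.add_mem _ hx hy
  | smul a x _ hx => rw [map_smul]; exact Submodule.smul_mem _ _ hx

/-- (POINTWISE) at the place `P`: the points `x` of `A` at which `ρ_x` has a nonzero
`I_P`-coinvariant are dense. -/
def PointwiseAt (ρ : GaloisRepAdic A) (P : ValuationSubring (AlgebraicClosure ℚ)) : Prop :=
  ∀ t : A, t ≠ 0 → ∃ (Ω : Type) (_ : Field Ω) (x : A →+* Ω) (φ : ρ.V →+ Ω),
    x t ≠ 0 ∧ (∀ (a : A) (v : ρ.V), φ (a • v) = x a * φ v) ∧ (∃ v, φ v ≠ 0) ∧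
      ∀ σ ∈ P.inertiaSubgroupIn ℚ, ∀ v : ρ.V, φ (ρ.ρ σ v) = φ v

/-- under (POINTWISE) the quotient `V / inertiaSpan` is a faithful module -/
theorem eq_zero_of_smul_mem (ρ : GaloisRepAdic A) (P : ValuationSubring (AlgebraicClosure ℚ))
    (h : PointwiseAt ρ P) (c : A) (hc : ∀ v : ρ.V, c • v ∈ inertiaSpan ρ P) : c = 0 := by
  by_contra hc0
  obtain ⟨Ω, _, x, φ, hx, hsl, ⟨v, hv⟩, hinv⟩ := h c hc0
  have hvan : ∀ w ∈ inertiaSpan ρ P, φ w = 0 := by
    intro w hw
    induction hw using Submodule.span_induction with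
    | mem w hw =>
      obtain ⟨σ, hσ, v, rfl⟩ := hw
      rw [map_sub, hinv σ hσ, sub_self]
    | zero => exact map_zero φ
    | add x y _ _ hx hy => rw [map_add, hx, hy, add_zero]
    | smul a x _ hx => rw [hsl, hx, mul_zero]
  have h0 := hvan _ (hc v)
  rw [hsl] at h0
  exact (mul_ne_zero hx hv) h0

/-- **Step (A) of S33.** -/
theorem isOrdinaryAt_of_pointwise (ρ : GaloisRepAdic A) (p : ℕ)
    (hne : ∀ P : ValuationSubring (AlgebraicClosure ℚ), P.LiesOverPrime p →
      ∃ σ ∈ P.inertiaSubgroupIn ℚ, ρ.residual.ρ σ ≠ 1)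
    (hres : (GaloisRepAdic.ofResidualGaloisRep ρ.residual).IsOrdinaryAt p)
    (hpt : ∀ P : ValuationSubring (AlgebraicClosure ℚ), P.LiesOverPrime p → PointwiseAt ρ P) :
    ρ.IsOrdinaryAt p := by
  intro P hP
  have hres' : ∃ bbar : Module.Basis (Fin 2) (IsLocalRing.ResidueField A)
      (IsLocalRing.ResidueField A ⊗[A] ρ.V),
      ∀ σ ∈ P.inertiaSubgroupIn ℚ, ∀ w : IsLocalRing.ResidueField A ⊗[A] ρ.V,
        (ρ.ρ σ).baseChange (IsLocalRing.ResidueField A) w - w ∈
          Submodule.span (IsLocalRing.ResidueField A) {bbar 0} := by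
    obtain ⟨Lbar, ⟨bbar, hLbar⟩, -, hI⟩ := hres P hP
    exact ⟨bbar, fun σ hσ w => hLbar ▸ hI σ hσ w⟩
  obtain ⟨bbar, hI⟩ := hres'
  have hne' : ∃ σ₀ ∈ P.inertiaSubgroupIn ℚ,
      (ρ.ρ σ₀).baseChange (IsLocalRing.ResidueField A) ≠ LinearMap.id := by
    obtain ⟨σ₀, hσ₀, hσ₀ne⟩ := hne P hP
    exact ⟨σ₀, hσ₀, hσ₀ne⟩
  obtain ⟨σ₀, hσ₀, hσ₀ne⟩ := hne'
  have hsurj : Function.Surjective
      (TensorProduct.mk A (IsLocalRing.ResidueField A) ρ.V 1) :=
    TensorProduct.mk_surjective A ρ.V (IsLocalRing.ResidueField A)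
      Ideal.Quotient.mk_surjective
  -- an element of the inertia span that is nonzero in the residual representation
  have hex : ∃ v₀ : ρ.V, (1 : IsLocalRing.ResidueField A) ⊗ₜ[A] (ρ.ρ σ₀ v₀ - v₀) ≠ 0 := by
    by_contra hcon
    push Not at hcon
    apply hσ₀ne
    refine LinearMap.ext fun w => ?_
    obtain ⟨v, rfl⟩ := hsurj w
    have := hcon v
    rw [TensorProduct.tmul_sub, sub_eq_zero] at this
    rw [TensorProduct.mk_apply, LinearMap.baseChange_tmul, this, LinearMap.id_apply]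
  obtain ⟨v₀, hv₀⟩ := hex
  have hM : ∀ m ∈ inertiaSpan ρ P, (1 : IsLocalRing.ResidueField A) ⊗ₜ[A] m ∈
      Submodule.span (IsLocalRing.ResidueField A) {bbar 0} := by
    intro m hm
    induction hm using Submodule.span_induction with
    | mem w hw =>
      obtain ⟨σ, hσ, v, rfl⟩ := hw
      have := hI σ hσ ((1 : IsLocalRing.ResidueField A) ⊗ₜ[A] v)
      rw [LinearMap.baseChange_tmul, ← TensorProduct.tmul_sub] at this
      exact this
    | zero => rw [TensorProduct.tmul_zero]; exact Submodule.zero_mem _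
    | add x y _ _ hx hy => rw [TensorProduct.tmul_add]; exact Submodule.add_mem _ hx hy
    | smul a x _ hx =>
      rw [TensorProduct.tmul_smul]
      exact Submodule.smul_of_tower_mem _ a hx
  obtain ⟨b, hb⟩ := exists_basis_span_eq ρ.finrank_eq (inertiaSpan ρ P) bbar hM
    (ρ.ρ σ₀ v₀ - v₀) (sub_mem_inertiaSpan ρ P hσ₀ v₀) hv₀
    (eq_zero_of_smul_mem ρ P (hpt P hP))
  exact ⟨inertiaSpan ρ P, ⟨b, hb⟩, fun σ hσ v hv => map_mem_inertiaSpan ρ P hσ hv,
    fun σ hσ v => sub_mem_inertiaSpan ρ P hσ v⟩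

end Fermat.Agent.S33


end ZBS33_002_0

/-! ### bundled: `Fermat.Agent.S33.DetCyclo` -/
section ZBS33_002_1

/-!
# S33, steps (A1), (A2): the determinant of a Hecke–Galois datum is cyclotomic

* `detIsCyclotomic_of_datum`: for a `HeckeGaloisRepDatum` with `p ∈ 𝔪_𝒪`, `H.ρ.DetIsCyclotomic p`
  (weak Chebotarev + `charpoly_frob` + continuity + Krull's intersection theorem);
* `exists_inertia_inv_root`: for a place `P ∣ p` some `σ` in the inertia group of `P` inverts the
  `p`-th roots of unity (`ℚ(ζ_p)` is totally ramified at `p`);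
* `exists_inertia_residual_ne_one`: hence for `p` odd some `σ ∈ I_P` acts non-trivially on the
  residual representation of a representation with cyclotomic determinant;
* `isOrdinaryAt_of_datum_of_pointwise`: the statement of S33 under (POINTWISE).
-/

set_option autoImplicit false

namespace Fermat.Agent.S33

open Fermat.Agent.S31 Fermat.Agent.S34 Polynomial

/-- Krull: an ideal of a noetherian local ring is closed. -/
theorem mem_of_forall_exists_sub_mem {T : Type*} [CommRing T] [IsLocalRing T] [IsNoetherianRing T]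
    (I : Ideal T) (d : T)
    (h : ∀ k : ℕ, ∃ d₁ ∈ IsLocalRing.maximalIdeal T ^ k, d - d₁ ∈ I) : d ∈ I := by
  have hbot : (⨅ i : ℕ, (IsLocalRing.maximalIdeal T ^ i) • (⊤ : Submodule T (T ⧸ I))) = ⊥ :=
    Ideal.iInf_pow_smul_eq_bot_of_isLocalRing _ (Ideal.IsMaximal.ne_top inferInstance)
  have hmem : (Ideal.Quotient.mk I d : T ⧸ I) ∈
      (⨅ i : ℕ, (IsLocalRing.maximalIdeal T ^ i) • (⊤ : Submodule T (T ⧸ I))) := by
    rw [Submodule.mem_iInf]
    intro k
    obtain ⟨d₁, hd₁, hd⟩ := h k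
    have e : (Ideal.Quotient.mk I d : T ⧸ I) = d₁ • (1 : T ⧸ I) := by
      rw [Algebra.smul_def, mul_one]
      exact Ideal.Quotient.eq.mpr hd
    rw [e]
    exact Submodule.smul_mem_smul hd₁ Submodule.mem_top
  rw [hbot, Submodule.mem_bot] at hmem
  exact Ideal.Quotient.eq_zero_iff_mem.mp hmem

section datum

variable {p : ℕ} {N : ℕ} [NeZero N] {S : Finset ℕ}
  {𝒪 : Type} [CommRing 𝒪] [IsDomain 𝒪] [IsDiscreteValuationRing 𝒪]
  [IsAdicComplete (IsLocalRing.maximalIdeal 𝒪) 𝒪]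
  {θ : CuspForm.heckeAlgebra N 2 (↑S : Set ℕ) →+* IsLocalRing.ResidueField 𝒪}
  {T : Type} [CommRing T] [IsLocalRing T] [IsNoetherianRing T]
  [IsAdicComplete (IsLocalRing.maximalIdeal T) T] [Algebra 𝒪 T] [IsLocalHom (algebraMap 𝒪 T)]
  [Module.Finite 𝒪 T] [Module.Free 𝒪 T]

/-- **(A1)** the determinant of the representation of a Hecke–Galois datum is the `p`-adic
cyclotomic character. -/
theorem detIsCyclotomic_of_datum (hp : p.Prime)
    (hp𝒪 : (p : 𝒪) ∈ IsLocalRing.maximalIdeal 𝒪)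
    (H : CuspForm.HeckeGaloisRepDatum N (↑S : Set ℕ) 𝒪 θ T) : H.ρ.DetIsCyclotomic p := by
  have hpT : (p : T) ∈ IsLocalRing.maximalIdeal T := natCast_mem_maximalIdeal hp𝒪
  refine ⟨hpT, fun n σ a hσ => ?_⟩
  apply mem_of_forall_exists_sub_mem
  intro k
  obtain ⟨L, hLfin, hL⟩ := H.ρ.isAdicContinuous k
  have hM0 : p ^ n ≠ 0 := pow_ne_zero n hp.ne_zero
  have : NeZero ((p ^ n : ℕ) : AlgebraicClosure ℚ) := ⟨Nat.cast_ne_zero.mpr hM0⟩
  obtain ⟨ζ, hζ⟩ := HasEnoughRootsOfUnity.exists_primitiveRoot (AlgebraicClosure ℚ) (p ^ n)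
  have hζfin : FiniteDimensional ℚ (IntermediateField.adjoin ℚ {ζ}) :=
    IntermediateField.adjoin.finiteDimensional
      ((hζ.isIntegral (Nat.pos_of_ne_zero hM0)).tower_top)
  obtain ⟨F, hFfin, hFgal, -, hLF, hζF⟩ :=
    exists_galois_hull L L (IntermediateField.adjoin ℚ {ζ})
  have hζF' : ζ ∈ F := hζF (IntermediateField.mem_adjoin_simple_self ℚ ζ)
  obtain ⟨ℓ, A, τ, m, hℓ, hℓS, hA, hτ, hg⟩ :=
    Cheb.exists_frobenius_pow_eq F (S ∪ N.primeFactors ∪ {p}) σ
  have hℓS' : ℓ ∉ (↑S : Set ℕ) := fun h => hℓS (by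
    simp only [Finset.mem_union, Finset.mem_singleton]
    exact Or.inl (Or.inl h))
  have hℓN : ¬ ℓ ∣ N := fun h => hℓS (by
    simp only [Finset.mem_union, Finset.mem_singleton]
    exact Or.inl (Or.inr (Nat.mem_primeFactors.mpr ⟨hℓ, h, NeZero.ne N⟩)))
  have hℓp : ℓ ≠ p := fun h => hℓS (by
    simp only [Finset.mem_union, Finset.mem_singleton]
    exact Or.inr h)
  -- `ℓᵐ ≡ a mod pⁿ`
  have hζ1 : ζ ^ (p ^ n) = 1 := hζ.pow_eq_one
  have h1 : (τ ^ m) ζ = ζ ^ (ℓ ^ m) :=
    frob_pow_rootOfUnity A (natCast_pow_not_mem_nonunits A hp hℓ hℓp hA n) hM0 hτ hζ1 m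
  have h3 : ζ ^ (ℓ ^ m) = ζ ^ a := by
    rw [← h1, hg ζ hζF', hσ ζ hζ1]
  have h4 := (hζ.isOfFinOrder hM0).pow_eq_pow_iff_modEq.mp h3
  rw [← hζ.eq_orderOf] at h4
  have h5 : ((p ^ n : ℕ) : ℤ) ∣ ((ℓ ^ m : ℕ) : ℤ) - ((a : ℕ) : ℤ) :=
    (Nat.modEq_iff_dvd.mp h4.symm)
  obtain ⟨c, hc⟩ := h5
  have h6 : (ℓ : T) ^ m - (a : T) = ((p ^ n : ℕ) : T) * (c : T) := by
    have := congrArg (fun z : ℤ => (z : T)) hc
    simpa using this
  -- the determinant
  have h7 := det_congr_of_agree H.ρ k L hL (τ ^ m) σ fun a ha => hg a (hLF ha)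
  rw [map_pow, map_pow, det_of_charpoly H.ρ.finrank_eq (H.ρ.ρ τ) _ _
    (H.charpoly_frob ℓ hℓ hℓN hℓS' A hA τ hτ)] at h7
  refine ⟨LinearMap.det (H.ρ.ρ σ) - (ℓ : T) ^ m, h7, ?_⟩
  have e : LinearMap.det (H.ρ.ρ σ) - (a : T) - (LinearMap.det (H.ρ.ρ σ) - (ℓ : T) ^ m) =
      (ℓ : T) ^ m - (a : T) := by ring
  rw [e, h6]
  exact Ideal.mul_mem_right _ _ (Ideal.subset_span rfl)

end datum

/-- a `p`-th root of unity is congruent to `1` at a place over `p` -/
theorem sub_one_mem_nonunits_of_pow_eq_one {p : ℕ} (hp : p.Prime)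
    (P : ValuationSubring (AlgebraicClosure ℚ)) (hP : P.LiesOverPrime p)
    {μ : AlgebraicClosure ℚ} (hμ : μ ^ p = 1) : μ - 1 ∈ P.nonunits := by
  have hμP : μ ∈ P := rootOfUnity_mem P hp.ne_zero hμ
  have : Fact p.Prime := ⟨hp⟩
  have hp0 : ((p : ℕ) : IsLocalRing.ResidueField P) = 0 := by
    have h1 : ((p : P) : AlgebraicClosure ℚ) ∈ P.nonunits := by
      have : ((p : P) : AlgebraicClosure ℚ) = (p : AlgebraicClosure ℚ) := by simp
      rw [this]; exact hP
    rw [ValuationSubring.coe_mem_nonunits_iff, ← IsLocalRing.residue_eq_zero_iff] at h1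
    rw [← h1, map_natCast]
  have : CharP (IsLocalRing.ResidueField P) p := (CharP.charP_iff_prime_eq_zero hp).mpr hp0
  set z : P := ⟨μ, hμP⟩ with hz
  have hz1 : z ^ p = 1 := by
    apply Subtype.ext
    simpa using hμ
  have h2 : (IsLocalRing.residue P z - 1) ^ p = 0 := by
    rw [sub_pow_char, one_pow, ← map_pow, hz1, map_one, sub_self]
  have h3 : IsLocalRing.residue P (z - 1) = 0 := by
    rw [map_sub, map_one]
    exact pow_eq_zero_iff (hp.ne_zero) |>.mp h2
  rw [IsLocalRing.residue_eq_zero_iff, ← ValuationSubring.coe_mem_nonunits_iff] at h3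
  simpa using h3

/-- **(A2)** `ℚ(ζ_p)` is totally ramified at `p`: some element of the inertia group of a place
over `p` inverts the `p`-th roots of unity. -/
theorem exists_inertia_inv_root {p : ℕ} (hp : p.Prime)
    (P : ValuationSubring (AlgebraicClosure ℚ)) (hP : P.LiesOverPrime p) :
    ∃ σ ∈ P.inertiaSubgroupIn ℚ, ∀ μ : AlgebraicClosure ℚ, μ ^ p = 1 → σ μ = μ⁻¹ := by
  have : Fact p.Prime := ⟨hp⟩
  have : NeZero ((p : ℕ) : AlgebraicClosure ℚ) := ⟨Nat.cast_ne_zero.mpr hp.ne_zero⟩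
  obtain ⟨ζ, hζ⟩ := HasEnoughRootsOfUnity.exists_primitiveRoot (AlgebraicClosure ℚ) p
  set F : IntermediateField ℚ (AlgebraicClosure ℚ) := IntermediateField.adjoin ℚ {ζ} with hF
  have hζF : ζ ∈ F := IntermediateField.mem_adjoin_simple_self ℚ ζ
  have : NeZero p := ⟨hp.ne_zero⟩
  have hn := qbar_normal
  have : Algebra.IsAlgebraic ℚ (AlgebraicClosure ℚ) := hn.toIsAlgebraic
  have : Algebra.IsIntegral ℚ (AlgebraicClosure ℚ) :=
    Algebra.IsAlgebraic.isIntegral
  have hcyc : IsCyclotomicExtension {p} ℚ F :=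
    hζ.intermediateField_adjoin_isCyclotomicExtension ℚ
  have : IsGalois ℚ F := IsCyclotomicExtension.isGalois {p} ℚ F
  set c : AlgebraicClosure ℚ ≃ₐ[ℚ] AlgebraicClosure ℚ := complexConjugation with hc
  have hcroot : ∀ μ : AlgebraicClosure ℚ, μ ^ p = 1 → c μ = μ⁻¹ := fun μ hμ =>
    Fermat.Agent.S30.complexConj_root p μ hp.ne_zero hμ
  have hval : ∀ x : AlgebraicClosure ℚ, x ∈ P.nonunits ↔ P.valuation x < 1 := fun x =>
    P.mem_nonunits_iff
  have hle : ∀ x : AlgebraicClosure ℚ, x ∈ P ↔ P.valuation x ≤ 1 := fun x =>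
    (P.valuation_le_one_iff x).symm
  -- the induction over `ℤ[ζ]`
  have hind : ∀ x ∈ Algebra.adjoin ℤ ({ζ} : Set (AlgebraicClosure ℚ)),
      x ∈ P ∧ c x ∈ P ∧ c x - x ∈ P.nonunits := by
    intro x hx
    induction hx using Algebra.adjoin_induction with
    | mem x hx =>
      rw [Set.mem_singleton_iff] at hx
      subst hx
      have hζp : x ^ p = 1 := hζ.pow_eq_one
      have hinv : (x⁻¹) ^ p = 1 := by rw [inv_pow, hζp, inv_one]
      refine ⟨rootOfUnity_mem P hp.ne_zero hζp, ?_, ?_⟩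
      · rw [hcroot x hζp]
        exact rootOfUnity_mem P hp.ne_zero hinv
      · rw [hcroot x hζp]
        have h1 := sub_one_mem_nonunits_of_pow_eq_one hp P hP hζp
        have h2 := sub_one_mem_nonunits_of_pow_eq_one hp P hP hinv
        rw [hval] at h1 h2 ⊢
        have e : x⁻¹ - x = (x⁻¹ - 1) - (x - 1) := by ring
        rw [e]
        exact Valuation.map_sub_lt _ h2 h1
    | algebraMap r =>
      have h1 : (algebraMap ℤ (AlgebraicClosure ℚ) r) = (r : AlgebraicClosure ℚ) := rfl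
      rw [h1, map_intCast, sub_self]
      refine ⟨intCast_mem P r, intCast_mem P r, ?_⟩
      rw [hval, map_zero]
      exact zero_lt_one
    | add x y _ _ hx hy =>
      obtain ⟨hx1, hx2, hx3⟩ := hx
      obtain ⟨hy1, hy2, hy3⟩ := hy
      refine ⟨P.add_mem _ _ hx1 hy1, ?_, ?_⟩
      · rw [map_add]; exact P.add_mem _ _ hx2 hy2
      · rw [hval] at hx3 hy3 ⊢
        have e : c (x + y) - (x + y) = (c x - x) + (c y - y) := by rw [map_add]; ring
        rw [e]
        exact Valuation.map_add_lt _ hx3 hy3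
    | mul x y _ _ hx hy =>
      obtain ⟨hx1, hx2, hx3⟩ := hx
      obtain ⟨hy1, hy2, hy3⟩ := hy
      refine ⟨P.mul_mem _ _ hx1 hy1, ?_, ?_⟩
      · rw [map_mul]; exact P.mul_mem _ _ hx2 hy2
      · rw [hval] at hx3 hy3 ⊢
        rw [hle] at hx1 hy2
        have e : c (x * y) - x * y = (c x - x) * c y + x * (c y - y) := by rw [map_mul]; ring
        rw [e]
        apply Valuation.map_add_lt
        · rw [map_mul]
          calc P.valuation (c x - x) * P.valuation (c y)
              ≤ P.valuation (c x - x) * 1 := mul_le_mul_right hy2 _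
            _ = P.valuation (c x - x) := mul_one _
            _ < 1 := hx3
        · rw [map_mul]
          calc P.valuation x * P.valuation (c y - y)
              ≤ 1 * P.valuation (c y - y) := mul_le_mul_left hx1 _
            _ = P.valuation (c y - y) := one_mul _
            _ < 1 := hy3
  -- integral elements of `ℚ(ζ)` lie in `ℤ[ζ]`
  have hint : ∀ x ∈ F, IsIntegral ℤ x → x ∈ Algebra.adjoin ℤ ({ζ} : Set (AlgebraicClosure ℚ)) := by
    intro x hx hxi
    set ζ' : F := ⟨ζ, hζF⟩ with hζ'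
    have hζ'prim : IsPrimitiveRoot ζ' p :=
      IsPrimitiveRoot.of_map_of_injective (f := algebraMap F (AlgebraicClosure ℚ))
        (by exact hζ) (algebraMap F (AlgebraicClosure ℚ)).injective
    have hcl := IsCyclotomicExtension.Rat.isIntegralClosure_adjoin_singleton_of_prime
      (p := p) (K := F) hζ'prim
    have hxi' : IsIntegral ℤ (⟨x, hx⟩ : F) := by
      have h1 : IsIntegral ℤ (algebraMap F (AlgebraicClosure ℚ) ⟨x, hx⟩) := hxi
      exact (isIntegral_algebraMap_iff (algebraMap F (AlgebraicClosure ℚ)).injective).mp h1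
    obtain ⟨y, hy⟩ := hcl.isIntegral_iff.mp hxi'
    have hy' : (⟨x, hx⟩ : F) ∈ Algebra.adjoin ℤ ({ζ'} : Set F) := by
      rw [← hy]; exact y.2
    have hmap : (Algebra.adjoin ℤ ({ζ'} : Set F)).map
        ((IsScalarTower.toAlgHom ℤ F (AlgebraicClosure ℚ))) =
        Algebra.adjoin ℤ ({ζ} : Set (AlgebraicClosure ℚ)) := by
      rw [AlgHom.map_adjoin, Set.image_singleton]
      rfl
    rw [← hmap]
    exact ⟨⟨x, hx⟩, hy', rfl⟩
  obtain ⟨σ', hσ', hagree⟩ := Fermat.Agent.Common.exists_mem_inertiaSubgroupIn_of_congr F p hp P hP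
    c (fun x hx hxi => (hind x (hint x hx hxi)).2.2)
  refine ⟨σ', hσ', fun μ hμ => ?_⟩
  obtain ⟨i, -, rfl⟩ := hζ.eq_pow_of_pow_eq_one hμ
  rw [hagree _ (pow_mem hζF i), hcroot _ hμ]

variable {A : Type} [CommRing A] [IsLocalRing A]

/-- for `p` odd, some element of the inertia group of a place over `p` acts non-trivially on the
residual representation of a representation with cyclotomic determinant -/
theorem exists_inertia_residual_ne_one {p : ℕ} (hp : p.Prime) (hp2 : p ≠ 2) (ρ : GaloisRepAdic A)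
    (hdet : ρ.DetIsCyclotomic p)
    (P : ValuationSubring (AlgebraicClosure ℚ)) (hP : P.LiesOverPrime p) :
    ∃ σ ∈ P.inertiaSubgroupIn ℚ, ρ.residual.ρ σ ≠ 1 := by
  obtain ⟨σ, hσ, hinv⟩ := exists_inertia_inv_root hp P hP
  refine ⟨σ, hσ, fun h1 => ?_⟩
  obtain ⟨hpA, hcyc⟩ := hdet
  have hpos : 0 < p := hp.pos
  have h2 := hcyc 1 σ (p - 1) (fun μ hμ => by
    rw [pow_one] at hμ
    rw [hinv μ hμ]
    apply inv_eq_of_mul_eq_one_right
    rw [← pow_succ', Nat.sub_add_cancel hpos, hμ])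
  -- `det ρ(σ) ≡ p − 1 ≡ −1` modulo the maximal ideal
  have h3 : LinearMap.det (ρ.ρ σ) + 1 ∈ IsLocalRing.maximalIdeal A := by
    have h4 : LinearMap.det (ρ.ρ σ) - ((p - 1 : ℕ) : A) ∈ IsLocalRing.maximalIdeal A := by
      refine (Ideal.span_le.mpr ?_) h2
      intro x hx
      rw [Set.mem_singleton_iff] at hx
      rw [hx, pow_one]
      exact hpA
    have e : LinearMap.det (ρ.ρ σ) + 1 =
        (LinearMap.det (ρ.ρ σ) - ((p - 1 : ℕ) : A)) + (p : A) := by
      rw [Nat.cast_sub hpos, Nat.cast_one]; ring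
    rw [e]
    exact Ideal.add_mem _ h4 hpA
  -- `det ρ̄(σ) = 1`
  have h5 : LinearMap.det ((ρ.ρ σ).baseChange (IsLocalRing.ResidueField A)) = 1 := by
    have : (ρ.ρ σ).baseChange (IsLocalRing.ResidueField A) = LinearMap.id := h1
    rw [this, LinearMap.det_id]
  rw [LinearMap.det_baseChange] at h5
  have h6 : LinearMap.det (ρ.ρ σ) - 1 ∈ IsLocalRing.maximalIdeal A := by
    rw [← IsLocalRing.residue_eq_zero_iff, map_sub, map_one, sub_eq_zero]
    exact h5
  -- so `2 ∈ 𝔪`, and `p ∈ 𝔪`: contradiction as `p` is odd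
  have h7 : (2 : A) ∈ IsLocalRing.maximalIdeal A := by
    have e : (2 : A) = (LinearMap.det (ρ.ρ σ) + 1) - (LinearMap.det (ρ.ρ σ) - 1) := by ring
    rw [e]
    exact Ideal.sub_mem _ h3 h6
  have hcop : Nat.Coprime 2 p := (Nat.coprime_primes Nat.prime_two hp).mpr (Ne.symm hp2)
  obtain ⟨u, v, huv⟩ := Nat.Coprime.isCoprime hcop
  have h8 : (1 : A) = (u : A) * 2 + (v : A) * (p : A) := by
    have := congrArg (fun z : ℤ => (z : A)) huv
    simpa using this.symm
  have h9 : (1 : A) ∈ IsLocalRing.maximalIdeal A := by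
    rw [h8]
    exact Ideal.add_mem _ (Ideal.mul_mem_left _ _ h7) (Ideal.mul_mem_left _ _ hpA)
  exact (Ideal.ne_top_iff_one _).mp (Ideal.IsMaximal.ne_top inferInstance) h9

section datum2

variable {p : ℕ} {N : ℕ} [NeZero N] {S : Finset ℕ}
  {𝒪 : Type} [CommRing 𝒪] [IsDomain 𝒪] [IsDiscreteValuationRing 𝒪]
  [IsAdicComplete (IsLocalRing.maximalIdeal 𝒪) 𝒪]
  {θ : CuspForm.heckeAlgebra N 2 (↑S : Set ℕ) →+* IsLocalRing.ResidueField 𝒪}
  {T : Type} [CommRing T] [IsLocalRing T] [IsNoetherianRing T]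
  [IsAdicComplete (IsLocalRing.maximalIdeal T) T] [Algebra 𝒪 T] [IsLocalHom (algebraMap 𝒪 T)]
  [Module.Finite 𝒪 T] [Module.Free 𝒪 T]

/-- **S33 under (POINTWISE).** -/
theorem isOrdinaryAt_of_datum_of_pointwise (hp : p.Prime) (hp2 : p ≠ 2)
    (hp𝒪 : (p : 𝒪) ∈ IsLocalRing.maximalIdeal 𝒪)
    (H : CuspForm.HeckeGaloisRepDatum N (↑S : Set ℕ) 𝒪 θ T)
    (hres : (GaloisRepAdic.ofResidualGaloisRep H.ρ.residual).IsOrdinaryAt p)
    (hpt : ∀ P : ValuationSubring (AlgebraicClosure ℚ), P.LiesOverPrime p →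
      PointwiseAt H.ρ P) :
    H.ρ.IsOrdinaryAt p :=
  isOrdinaryAt_of_pointwise H.ρ p
    (fun P hP => exists_inertia_residual_ne_one hp hp2 H.ρ
      (detIsCyclotomic_of_datum hp hp𝒪 H) P hP) hres hpt

end datum2

end Fermat.Agent.S33


end ZBS33_002_1

/-! ### bundled: `Fermat.Agent.R38.EDet` -/
section ZBS33_002_2
/-
ROW 38, piece R38-EDET (helper35): inertia at `p` does not act on `E[p]` through the scalar `ω`
(`p` odd, `E[p]` irreducible).

`stmtEDet : StmtEDet`.

Proof.  Some `σ` in the inertia group of `A ∣ p` inverts the `p`-th roots of unity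
(`S33.exists_inertia_inv_root`), so `ω(σ) = -1`, `cycloExp p σ = p - 1`.  If `σ` acted on `E[p]` as
`ω(σ)`, i.e. as `-1`, then `det ρ̄(σ) = (-1)² = 1`; but `det ρ̄(σ) = ω(σ) = -1`
(`RED.det_of_model`), so `2 = 0` in `𝔽_p`, `p = 2`.
-/

set_option autoImplicit false

namespace Fermat.Agent.R38

open ExtCitation Fermat.Agent.EC.DetChar

/-- `ζ⁻¹ = ζ^(p-1)` for a `p`-th root of unity -/
theorem r38edet_inv_eq_pow {p : ℕ} (hp : 0 < p) {ζ : Qb} (hζ : ζ ^ p = 1) :
    ζ⁻¹ = ζ ^ (p - 1) := by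
  have : ζ * ζ ^ (p - 1) = 1 := by
    rw [← pow_succ', Nat.sub_add_cancel hp, hζ]
  exact inv_eq_of_mul_eq_one_right this

/-- if `σ` inverts the `p`-th roots of unity, then `cycloExp p σ = p - 1` -/
theorem r38edet_cycloExp (p : ℕ) [Fact p.Prime] (σ : Qb ≃ₐ[ℚ] Qb)
    (hinv : ∀ μ : Qb, μ ^ p = 1 → σ μ = μ⁻¹) : cycloExp p σ = p - 1 := by
  have hp : p.Prime := Fact.out
  have : NeZero p := ⟨hp.ne_zero⟩
  have : NeZero ((p : ℕ) : Qb) := ⟨Nat.cast_ne_zero.mpr hp.ne_zero⟩
  obtain ⟨ζ, hζ⟩ := HasEnoughRootsOfUnity.exists_primitiveRoot Qb p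
  have hspec := modularCyclotomicCharacter.spec Qb (card_rootsOfUnity_eq_self p)
    (σ : Qb ≃+* Qb) (t := hζ.toRootsOfUnity) (SetLike.coe_mem hζ.toRootsOfUnity)
  have hspec' : σ ζ = ζ ^ cycloExp p σ := by
    simpa [cycloExp] using hspec
  rw [hinv ζ hζ.pow_eq_one, r38edet_inv_eq_pow hp.pos hζ.pow_eq_one] at hspec'
  have hlt : cycloExp p σ < p := by
    unfold cycloExp
    exact ZMod.val_lt _
  exact (hζ.pow_inj (Nat.sub_lt hp.pos Nat.one_pos) hlt hspec').symm

/-- if `σ` inverts the `p`-th roots of unity, then `χ_p(σ) = -1` -/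
theorem r38edet_cycloChar (p : ℕ) [Fact p.Prime] (σ : Qb ≃ₐ[ℚ] Qb)
    (hinv : ∀ μ : Qb, μ ^ p = 1 → σ μ = μ⁻¹) :
    ((Fermat.Agent.S42.cycloChar p σ : (ZMod p)ˣ) : ZMod p) = -1 := by
  have hp : p.Prime := Fact.out
  have : NeZero p := ⟨hp.ne_zero⟩
  have : NeZero ((p : ℕ) : Qb) := ⟨Nat.cast_ne_zero.mpr hp.ne_zero⟩
  obtain ⟨ζ, hζ⟩ := HasEnoughRootsOfUnity.exists_primitiveRoot Qb p
  have hspec := Fermat.Agent.S42.cycloChar_spec p σ hζ
  rw [hinv ζ hζ.pow_eq_one, r38edet_inv_eq_pow hp.pos hζ.pow_eq_one] at hspec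
  have h3 := hζ.pow_inj (Nat.sub_lt hp.pos Nat.one_pos) (ZMod.val_lt _) hspec
  have h4 : ((Fermat.Agent.S42.cycloChar p σ : (ZMod p)ˣ) : ZMod p) = ((p - 1 : ℕ) : ZMod p) := by
    rw [h3, ZMod.natCast_zmod_val]
  rw [h4, Nat.cast_sub hp.one_le, ZMod.natCast_self, Nat.cast_one, zero_sub]

/-- **R38-EDET**. -/
theorem stmtEDet : StmtEDet := by
  intro W hΔ p _ hp2 hirr A hA
  have hp : p.Prime := Fact.out
  obtain ⟨σ, hσ, hinv⟩ := Fermat.Agent.S33.exists_inertia_inv_root hp A hA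
  refine ⟨σ, hσ, ?_⟩
  by_contra hcon
  push Not at hcon
  have hexp := r38edet_cycloExp p σ hinv
  have hcard := Fermat.Agent.RED.card_torsQbar W hΔ hp.ne_zero
  have hrank : Module.finrank (ZMod p) (TorsQbar (W.map (Int.castRingHom ℚ)) p) = 2 :=
    finrank_of_card hcard
  -- `ρ̄(σ) = -1`
  have hneg : rhoBar (W.map (Int.castRingHom ℚ)) p σ =
      (-1 : ZMod p) • (1 : Module.End (ZMod p) (TorsQbar (W.map (Int.castRingHom ℚ)) p)) := by
    apply LinearMap.ext
    intro x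
    rw [rhoBar_apply, LinearMap.smul_apply, Module.End.one_apply, neg_smul, one_smul]
    have h1 : σ • x = cycloExp p σ • x := hcon x
    rw [h1, hexp]
    have h2 : (p : ℕ) • x = 0 := by
      have := x.2
      rw [Submodule.mem_torsionBy_iff] at this
      apply Subtype.ext
      rw [Submodule.coe_smul_of_tower, Submodule.coe_zero]
      rw [← natCast_zsmul]
      exact this
    have h3 : (p - 1) • x + x = 0 := by
      rw [← succ_nsmul, Nat.sub_add_cancel hp.one_le, h2]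
    exact eq_neg_of_add_eq_zero_left h3
  have hdet := Fermat.Agent.RED.det_of_model W hΔ hirr σ
  rw [hneg, LinearMap.det_smul, hrank, map_one, r38edet_cycloChar p σ hinv] at hdet
  -- `1 = -1` in `ZMod p`
  have h2 : ((2 : ℕ) : ZMod p) = 0 := by
    have : (1 : ZMod p) + 1 = 0 := by linear_combination hdet
    rw [Nat.cast_ofNat, ← this]
    ring
  have h3 : p ∣ 2 := (ZMod.natCast_eq_zero_iff 2 p).mp h2
  exact hp2 ((Nat.prime_dvd_prime_iff_eq hp Nat.prime_two).mp h3)

end Fermat.Agent.R38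


end ZBS33_002_2

/-! ### bundled: `Fermat.Agent.R38.S44Of` -/
section ZBS33_002_3
/-
ROW 38, target S44: the top wiring (helper44).

`s44_of : S33.StmtWildKummer → StmtTresTriv → StmtEpmFrey → RIB.StmtP`
(`RIB.StmtP` is the shape of the frozen S44; it is also the input `StmtP` of row 37).

What is left of row 38 after this file:
* `S33.StmtWildKummer`  (S33, block C4: the wild team of S33);
* `StmtTresTriv`        (TRES: (FAC-p) + HOL-dlog, NOTES/R38-TRES.md);
* `StmtEpmFrey`         (EPEU-MULT: the Frey curve at `p ∣ abc` is peu ramifié, NOTES/R38-EPM.md).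
-/

set_option autoImplicit false

namespace Fermat.Agent.R38

/-- **Row 38 (S44 form) from the three open inputs.** -/
theorem s44_of (hWK : Fermat.Agent.S33.StmtWildKummer) (hTriv : StmtTresTriv)
    (hEpm : StmtEpmFrey) : Fermat.Agent.RIB.StmtP :=
  stmtP_of stmtLift stmtRep stmtEDet hEpm
    (stmtPkgCore5_of (stmtToricP_of (Fermat.Agent.S33.stmtWildT_of_kummer hWK))
      (stmtTresP5_of_triv hTriv (stmtTresT0_of hWK)))

end Fermat.Agent.R38


end ZBS33_002_3
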