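/- GENERATED FILE (helper35, build-time optimisation, NOTES/ZB.md): verbatim concatenation of the modules
   Fermat.Agent.HW.Plan2
   Fermat.Agent.HW.Sep
   Fermat.Agent.HW.KerFrob
   Fermat.Agent.HW.KerCount
   Fermat.Agent.HW.KerFinal
   Fermat.Agent.EC.TateFrob
   Fermat.Agent.EC.TateDet
   Fermat.Agent.EC.TateFrobAll
   Do not edit; do not import together with these modules. -/
import Fermat.Agent.ZB.HW_003
import Fermat.Agent.ZB.EC_002
import Mathlib
import Fermat.Agent.ZB.EC_007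
import Fermat.Agent.ZB.HW_006
import Fermat.Agent.ZB.S33_002

/-! ### bundled: `Fermat.Agent.HW.Plan2` -/
section ZBHW_007_0

/-!
# HW brick, part 2 — kernels of separable represented endomorphisms (helper51)

K1 : a represented endomorphism `α` with separable `x`-function `R` has `#ker α = ht R`.
K2 : in characteristic `p`, an inseparable `R` has `p ∣ ht R`; in characteristic `0` every
     nonconstant `R` is separable.
KF : `#ker (φ − m) = m² − t m + p` for `p ∤ m² − t m + p`  (`φ` = Frobenius, `t` = trace).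
Consumers: EC-adic (b) (charpoly of Frobenius on the Tate module), S58-plan.
-/

set_option autoImplicit false

open Polynomial

namespace Fermat.Agent.HW

noncomputable section

section Sep

variable {K : Type*} [Field K]

/-- `R` is separable: the Wronskian `num' · denom − num · denom'` is not zero
(equivalently `R ∉ K(X^p)`). -/
def RSep (R : RatFunc K) : Prop :=
  derivative R.num * R.denom - R.num * derivative R.denom ≠ 0

variable (K)

/-- K2 (characteristic `p`): an inseparable function has height divisible by `p`. -/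
def StmtInsepDvd : Prop := ∀ (p : ℕ), p.Prime → CharP K p → ∀ R : RatFunc K, ¬ RSep R → p ∣ ht R

/-- K2 (characteristic `0`): a nonconstant function is separable. -/
def StmtSepCharZero : Prop := CharZero K → ∀ R : RatFunc K, ht R ≠ 0 → RSep R

end Sep

section Ker

variable {K : Type*} [Field K] [DecidableEq K] (E : WeierstrassCurve K)

/-- K1: `#ker α = ht R` for a represented endomorphism with separable `R`.
Proof: choose a good point `P₀` with `u = x(α P₀)` outside the finite set of bad values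
(values of `x ∘ α` and of `R ∘ x` at bad points, critical values of `R`, degree-drop values, roots
of `Ψ₂²`); the fibre `α⁻¹(α P₀) = P₀ + ker α` maps bijectively (by `x`) onto the `ht R` distinct
roots of `num − u · denom` (Fermat/Agent/EC/Pencil.lean has the root count). -/
def StmtKerCount : Prop := Hyp E → ∀ (α : AddMonoid.End E.toAffine.Point) (R S : RatFunc K),
  Rep E (⇑α) R S → RSep R → Nat.card {P : E.toAffine.Point // α P = 0} = ht R

end Ker

section KerFrob

variable (p : ℕ) [Fact p.Prime] (W : WeierstrassCurve (ZMod p))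
  (K : Type*) [Field K] [DecidableEq K] [Algebra (ZMod p) K]

/-- KF: the number of solutions of `φ P = m • P` -/
def StmtKerFrob : Prop := p ≠ 2 → W.Δ ≠ 0 → IsAlgClosed K → ∀ m : ℤ,
  ¬ (p : ℤ) ∣ m ^ 2 - W.traceOfFrobenius * m + p →
  (Nat.card {P : (EK p W K).toAffine.Point // frobPt p W K P = m • P} : ℤ)
    = m ^ 2 - W.traceOfFrobenius * m + p

end KerFrob

end

end Fermat.Agent.HW


end ZBHW_007_0

/-! ### bundled: `Fermat.Agent.HW.Sep` -/
section ZBHW_007_1

/-!
# HW brick, piece K2: separability of rational functions (helper51)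
-/

set_option autoImplicit false

open Polynomial

namespace Fermat.Agent.HW

noncomputable section

variable {K : Type*} [Field K]

/-- if `a ∣ a'` for the derivative `a'` of `a`, then `a' = 0` -/
theorem sep_derivative_eq_zero_of_dvd {a : K[X]} (h : a ∣ derivative a) : derivative a = 0 := by
  by_contra hne
  have ha : a ≠ 0 := by
    rintro rfl
    simp at hne
  have h1 := natDegree_le_of_dvd h hne
  by_cases hd : a.natDegree = 0
  · rw [natDegree_eq_zero] at hd
    obtain ⟨c, rfl⟩ := hd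
    simp at hne
  · have h2 := natDegree_derivative_lt hd
    omega

/-- an inseparable function has numerator and denominator with zero derivative -/
theorem sep_derivative_num_denom {R : RatFunc K} (h : ¬ RSep R) :
    derivative R.num = 0 ∧ derivative R.denom = 0 := by
  have h0 : derivative R.num * R.denom - R.num * derivative R.denom = 0 := by
    by_contra hne
    exact h hne
  have hcop : IsCoprime R.num R.denom := R.isCoprime_num_denom
  have e : derivative R.num * R.denom = R.num * derivative R.denom := sub_eq_zero.mp h0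
  refine ⟨sep_derivative_eq_zero_of_dvd ?_, sep_derivative_eq_zero_of_dvd ?_⟩
  · exact hcop.dvd_of_dvd_mul_right ⟨derivative R.denom, e⟩
  · exact hcop.symm.dvd_of_dvd_mul_left ⟨derivative R.num, by rw [← e]; ring⟩

theorem sep_dvd_natDegree (p : ℕ) (hp : p.Prime) [CharP K p] {a : K[X]}
    (h : derivative a = 0) : p ∣ a.natDegree := by
  have e := expand_contract p h hp.ne_zero
  rw [← e, natDegree_expand]
  exact Dvd.intro_left _ rfl

theorem stmtInsepDvd : StmtInsepDvd K := by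
  intro p hp hchar R hR
  obtain ⟨h1, h2⟩ := sep_derivative_num_denom hR
  have d1 := sep_dvd_natDegree p hp h1
  have d2 := sep_dvd_natDegree p hp h2
  unfold ht
  rcases max_choice R.num.natDegree R.denom.natDegree with h | h <;> rw [h] <;> assumption

theorem stmtSepCharZero : StmtSepCharZero K := by
  intro hchar R hR hsep
  apply hR
  obtain ⟨h1, h2⟩ := sep_derivative_num_denom (R := R) (fun h => h hsep)
  unfold ht
  rw [Polynomial.derivative_eq_zero.mp h1, Polynomial.derivative_eq_zero.mp h2]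
  rfl

end

end Fermat.Agent.HW


end ZBHW_007_1

/-! ### bundled: `Fermat.Agent.HW.KerFrob` -/
section ZBHW_007_2

/-!
# HW brick, piece KF: `#ker (φ − m) = m² − t m + p` (helper51)

Conditional on K1 (`StmtKerCount`); the unconditional statement is in `KerFinal.lean`.
-/

set_option autoImplicit false

open Polynomial

namespace Fermat.Agent.HW

noncomputable section

section Frob

variable (p : ℕ) [Fact p.Prime] (W : WeierstrassCurve (ZMod p))
  (K : Type*) [Field K] [DecidableEq K] [Algebra (ZMod p) K]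

theorem hdeg_frobPt (I : ParInput (EK p W K)) :
    hdeg (EK p W K) (frobPt p W K) = (p : ℤ) := by
  rw [I.hdeg_eq (RepFrob.stmtRepFrob p W K I.hyp), ht_X_pow]

theorem rep_frobPt_sub_one (I : ParInput (EK p W K)) :
    Rep (EK p W K) (⇑(frobPt p W K + -1))
      (sumR (EK p W K) (RatFunc.X ^ p)
        (Psi2form (EK p W K) (RatFunc.X : RatFunc K) ^ ((p - 1) / 2)) RatFunc.X (-1))
      (sumS (EK p W K) (RatFunc.X ^ p)
        (Psi2form (EK p W K) (RatFunc.X : RatFunc K) ^ ((p - 1) / 2)) RatFunc.X (-1)) := by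
  have hp : p.Prime := Fact.out
  exact I.repAdd I.hyp _ _ _ _ _ _ (RepFrob.stmtRepFrob p W K I.hyp) (I.rep_neg I.rep_one)
    (X_pow_ne_X hp.two_le)

theorem hdeg_frobPt_sub_one (I : ParInput (EK p W K)) (hp2 : p ≠ 2) (hΔ : W.Δ ≠ 0) :
    hdeg (EK p W K) (frobPt p W K - 1) = (Nat.card W.toAffine.Point : ℤ) := by
  have hp : p.Prime := Fact.out
  have hodd : p % 2 = 1 := hp.eq_two_or_odd.resolve_left hp2
  rw [sub_eq_add_neg, I.hdeg_eq (rep_frobPt_sub_one p W K I)]
  have hc := stmtCount p W K hp2 hΔ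
  have e : sumR (EK p W K) (RatFunc.X ^ p)
      (Psi2form (EK p W K) (RatFunc.X : RatFunc K) ^ ((p - 1) / 2)) RatFunc.X (-1) =
      (Gform (EK p W K) (RatFunc.X ^ p) (RatFunc.X : RatFunc K)
        + Psi2form (EK p W K) (RatFunc.X : RatFunc K) ^ ((p + 1) / 2))
      / (2 * ((RatFunc.X : RatFunc K) ^ p - RatFunc.X) ^ 2) := by
    unfold sumR
    have e2 : (p + 1) / 2 = (p - 1) / 2 + 1 := by omega
    rw [e2, pow_succ]
    congr 1
    ring
  rw [e, hc]

/-- the degree of `a φ + b` -/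
theorem hdeg_zsmul_frobPt_add (I : ParInput (EK p W K)) (hp2 : p ≠ 2) (hΔ : W.Δ ≠ 0)
    (a b : ℤ) :
    hdeg (EK p W K) (a • frobPt p W K + b • (1 : AddMonoid.End (EK p W K).toAffine.Point))
      = a ^ 2 * p + a * b * W.traceOfFrobenius + b ^ 2 := by
  set S := reprSubring I with hS
  set h : S → ℤ := fun x => hdeg (EK p W K) (x : AddMonoid.End (EK p W K).toAffine.Point) with hh
  have H : IsParallelogram h := fun x y => I.hdeg_par x.2 y.2
  have h1 : h 1 = 1 := I.hdeg_one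
  set φ : S := ⟨frobPt p W K, Or.inr ⟨_, _, RepFrob.stmtRepFrob p W K I.hyp⟩⟩ with hφdef
  have hφ : h φ = (p : ℤ) := hdeg_frobPt p W K I
  have e : W.traceOfFrobenius = (p : ℤ) + 1 - (Nat.card W.toAffine.Point : ℤ) := by
    rw [WeierstrassCurve.traceOfFrobenius, WeierstrassCurve.card, Nat.card_eq_fintype_card,
      ZMod.card]
  have hφ1 : h (φ - 1) = (p : ℤ) + 1 - W.traceOfFrobenius := by
    show hdeg (EK p W K) (frobPt p W K - 1) = _
    rw [hdeg_frobPt_sub_one p W K I hp2 hΔ, e]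
    ring
  exact map_zsmul_add_zsmul_one H h1 φ (p : ℤ) W.traceOfFrobenius hφ hφ1 a b

theorem isRepr_zsmul_frobPt_add (I : ParInput (EK p W K)) (a b : ℤ) :
    IsRepr (EK p W K)
      (a • frobPt p W K + b • (1 : AddMonoid.End (EK p W K).toAffine.Point)) := by
  have h1 : frobPt p W K ∈ reprSubring I := Or.inr ⟨_, _, RepFrob.stmtRepFrob p W K I.hyp⟩
  exact (reprSubring I).add_mem ((reprSubring I).zsmul_mem h1 a)
    ((reprSubring I).zsmul_mem (reprSubring I).one_mem b)

/-- KF, conditional on K1 -/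
theorem stmtKerFrob_of (hK1 : StmtKerCount (EK p W K)) : StmtKerFrob p W K := by
  intro hp2 hΔ hK m hm
  have hp : p.Prime := Fact.out
  have I := parInput (EK p W K) (hyp_EK p W K hp2 hΔ hK)
  set α : AddMonoid.End (EK p W K).toAffine.Point :=
    (1 : ℤ) • frobPt p W K + (-m) • (1 : AddMonoid.End (EK p W K).toAffine.Point) with hα
  have hdeg_α : hdeg (EK p W K) α = m ^ 2 - W.traceOfFrobenius * m + p := by
    rw [hα, hdeg_zsmul_frobPt_add p W K I hp2 hΔ]
    ring
  have hrep : IsRepr (EK p W K) α := isRepr_zsmul_frobPt_add p W K I 1 (-m)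
  rcases hrep with h0 | ⟨R, S, hR⟩
  · exfalso
    rw [h0, I.hdeg_zero] at hdeg_α
    exact hm (hdeg_α ▸ dvd_zero _)
  · have hht : (ht R : ℤ) = m ^ 2 - W.traceOfFrobenius * m + p := by
      rw [← I.hdeg_eq hR, hdeg_α]
    have hchar : CharP K p := charP_of_injective_algebraMap (algebraMap (ZMod p) K).injective p
    have hsep : RSep R := by
      by_contra hns
      have := stmtInsepDvd (K := K) p hp hchar R hns
      apply hm
      rw [← hht]
      exact_mod_cast this
    have hcount := hK1 I.hyp α R S hR hsep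
    rw [← hht, ← hcount]
    congr 1
    refine Nat.card_congr (Equiv.subtypeEquivRight ?_)
    intro P
    have e : α P = frobPt p W K P - m • P := by
      rw [hα]
      show (1 : ℤ) • frobPt p W K P + (-m) • P = _
      rw [one_smul, neg_smul, sub_eq_add_neg]
    rw [e, sub_eq_zero]

end Frob

end

end Fermat.Agent.HW


end ZBHW_007_2

/-! ### bundled: `Fermat.Agent.HW.KerCount` -/
section ZBHW_007_3

/-!
# HW brick, part 2, piece K1: `#ker α = ht R` for separable represented endomorphisms (helper46)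

`stmtKerCount : StmtKerCount E`.  Proof: choose a good point `P₀` with `u = x(α P₀)` outside the
finite set of exceptional values; then the fibre `α⁻¹(α P₀) = P₀ + ker α` is mapped bijectively by
`x` onto the `ht R` distinct roots of `kcPoly R u = num − u · denom`.

Also usable on their own: `kc_card_roots` (generic member of the pencil `num − u · denom` has
`ht R` distinct roots), `kc_eq_or_eq_neg` (same `x` ⇒ equal or opposite).
-/

set_option autoImplicit false

open Polynomial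

namespace Fermat.Agent.HW

noncomputable section

section KcPoly

variable {K : Type*} [Field K]

/-- the pencil member `num − u · denom` -/
def kcPoly (R : RatFunc K) (u : K) : K[X] := R.num - C u * R.denom

lemma kc_eval (R : RatFunc K) (u a : K) :
    (kcPoly R u).eval a = R.num.eval a - u * R.denom.eval a := by
  simp [kcPoly]

lemma kc_natDegree_le (R : RatFunc K) (u : K) : (kcPoly R u).natDegree ≤ ht R := by
  unfold kcPoly ht
  refine (natDegree_sub_le _ _).trans ?_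
  exact max_le_max le_rfl (natDegree_C_mul_le _ _)

lemma kc_coeff (R : RatFunc K) (u : K) :
    (kcPoly R u).coeff (ht R) = R.num.coeff (ht R) - u * R.denom.coeff (ht R) := by
  simp [kcPoly]

lemma kc_ht_ne_zero {R : RatFunc K} (h : RSep R) : ht R ≠ 0 := by
  intro h0
  apply h
  have h1 : R.num.natDegree = 0 := by
    have := le_max_left R.num.natDegree R.denom.natDegree
    unfold ht at h0
    omega
  have h2 : R.denom.natDegree = 0 := by
    have := le_max_right R.num.natDegree R.denom.natDegree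
    unfold ht at h0
    omega
  rw [derivative_of_natDegree_zero h1, derivative_of_natDegree_zero h2]
  simp

lemma kc_natDegree (R : RatFunc K) (hR : ht R ≠ 0) (u : K)
    (hu : u ≠ R.num.coeff (ht R) / R.denom.coeff (ht R)) : (kcPoly R u).natDegree = ht R := by
  apply natDegree_eq_of_le_of_coeff_ne_zero (kc_natDegree_le R u)
  rw [kc_coeff]
  by_cases hd : R.denom.coeff (ht R) = 0
  · rw [hd, mul_zero, sub_zero]
    have hdne : R.denom ≠ 0 := R.denom_ne_zero
    have h1 : R.denom.natDegree ≠ ht R := by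
      intro h
      rw [← h] at hd
      exact hdne (leadingCoeff_eq_zero.mp hd)
    have h2 : ht R = R.num.natDegree := by
      unfold ht at h1 ⊢
      rcases max_choice R.num.natDegree R.denom.natDegree with h | h
      · exact h
      · exact absurd h.symm h1
    rw [h2]
    intro h0
    have h3 : R.num = 0 := leadingCoeff_eq_zero.mp h0
    rw [h3, natDegree_zero] at h2
    exact hR h2
  · intro h
    apply hu
    field_simp
    linear_combination -h

lemma kc_ne_zero (R : RatFunc K) (hR : ht R ≠ 0) (u : K)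
    (hu : u ≠ R.num.coeff (ht R) / R.denom.coeff (ht R)) : kcPoly R u ≠ 0 := by
  intro h
  have := kc_natDegree R hR u hu
  rw [h, natDegree_zero] at this
  exact hR this.symm

lemma kc_denom_ne_zero_of_root (R : RatFunc K) {u a : K} (h : (kcPoly R u).eval a = 0) :
    R.denom.eval a ≠ 0 := by
  intro hd
  have hn : R.num.eval a = 0 := by
    rw [kc_eval, hd, mul_zero, sub_zero] at h
    exact h
  obtain ⟨s, t, hst⟩ := R.isCoprime_num_denom
  have := congrArg (eval a) hst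
  simp [hn, hd] at this

lemma kc_rev_of_root (R : RatFunc K) {u a : K} (h : (kcPoly R u).eval a = 0) :
    Reg R a ∧ rev R a = u := by
  have hd := kc_denom_ne_zero_of_root R h
  refine ⟨hd, ?_⟩
  rw [hwEv_rev_eq]
  rw [kc_eval] at h
  field_simp
  linear_combination h

lemma kc_root_of_rev (R : RatFunc K) {u a : K} (hreg : Reg R a) (h : rev R a = u) :
    (kcPoly R u).eval a = 0 := by
  rw [hwEv_rev_eq] at h
  rw [kc_eval, ← h]
  have : R.denom.eval a ≠ 0 := hreg
  field_simp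
  ring

variable [DecidableEq K]

lemma kc_nodup (R : RatFunc K) (hsep : RSep R) (u : K) (hf : kcPoly R u ≠ 0)
    (hu : u ∉ (derivative R.num * R.denom - R.num * derivative R.denom).roots.toFinset.image
      (fun a => rev R a)) : (kcPoly R u).roots.Nodup := by
  rw [Multiset.nodup_iff_count_le_one]
  intro a
  rw [count_roots]
  by_contra hcon
  have hlt : 1 < (kcPoly R u).rootMultiplicity a := by omega
  obtain ⟨h0, h1⟩ := (one_lt_rootMultiplicity_iff_isRoot hf).1 hlt
  have hwr := Fermat.Agent.EC.pencil_wronskian_root h0 h1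
  apply hu
  rw [Finset.mem_image]
  refine ⟨a, ?_, (kc_rev_of_root R h0).2⟩
  rw [Multiset.mem_toFinset, mem_roots hsep]
  exact hwr

lemma kc_card_roots [IsAlgClosed K] (R : RatFunc K) (hsep : RSep R) (u : K)
    (hu1 : u ≠ R.num.coeff (ht R) / R.denom.coeff (ht R))
    (hu2 : u ∉ (derivative R.num * R.denom - R.num * derivative R.denom).roots.toFinset.image
      (fun a => rev R a)) : (kcPoly R u).roots.toFinset.card = ht R := by
  have hR := kc_ht_ne_zero hsep
  have hf := kc_ne_zero R hR u hu1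
  rw [Multiset.toFinset_card_of_nodup (kc_nodup R hsep u hf hu2), ← kc_natDegree R hR u hu1]
  exact IsAlgClosed.card_roots_eq_natDegree

end KcPoly

section KerMain

variable {K : Type*} [Field K] [DecidableEq K] (E : WeierstrassCurve K)

/-- two finite points with the same `x` are equal or opposite -/
lemma kc_eq_or_eq_neg (h2 : (2 : K) ≠ 0) {P Q : E.toAffine.Point} (hP : P ≠ 0) (hQ : Q ≠ 0)
    (hx : ptX E P = ptX E Q) : P = Q ∨ P = -Q := by
  have e1 := cp_stmtEtaSq E P hP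
  have e2 := cp_stmtEtaSq E Q hQ
  rw [hx] at e1
  have e3 : (ptEta E P - ptEta E Q) * (ptEta E P + ptEta E Q) = 0 := by
    linear_combination e1 - e2
  obtain ⟨hnQ, hxnQ, henQ⟩ := cp_stmtNegPt E Q hQ
  rcases mul_eq_zero.mp e3 with h | h
  · left
    exact cp_stmtPtExt E h2 P Q hP hQ hx (sub_eq_zero.mp h)
  · right
    exact cp_stmtPtExt E h2 P (-Q) hP hnQ (hx.trans hxnQ.symm)
      (by rw [henQ]; linear_combination h)

/-- a finite point of order two has `η = 0` -/
lemma kc_eta_zero_of_eq_neg (h2 : (2 : K) ≠ 0) {Q : E.toAffine.Point} (hQ : Q ≠ 0)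
    (h : Q = -Q) : ptEta E Q = 0 := by
  obtain ⟨_, _, he⟩ := cp_stmtNegPt E Q hQ
  rw [← h] at he
  have : 2 * ptEta E Q = 0 := by linear_combination he
  rcases mul_eq_zero.mp this with h' | h'
  · exact absurd h' h2
  · exact h'

lemma kc_finite_psi2 (h2 : (2 : K) ≠ 0) : {u : K | Psi2form E u = 0}.Finite := by
  set q : K[X] := C 4 * X ^ 3 + C E.b₂ * X ^ 2 + C (2 * E.b₄) * X + C E.b₆ with hq
  have h4 : (4 : K) ≠ 0 := by
    have : (4 : K) = 2 * 2 := by norm_num
    rw [this]; exact mul_ne_zero h2 h2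
  have hq0 : q ≠ 0 := by
    intro h0
    have := congrArg (fun f : K[X] => f.coeff 3) h0
    simp [hq, coeff_X_pow] at this
    exact h4 this
  refine (q.roots.toFinset.finite_toSet).subset ?_
  intro x hx
  simp only [Finset.mem_coe, Multiset.mem_toFinset]
  refine (mem_roots hq0).mpr ?_
  rw [Set.mem_ofPred_eq] at hx
  simp only [Psi2form, Algebra.algebraMap_self, RingHom.id_apply] at hx
  simp only [IsRoot.def, hq, eval_add, eval_mul, eval_C, eval_pow, eval_X]
  linear_combination hx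

/-- **K1**: a represented endomorphism with separable `x`-function `R` has `#ker α = ht R`. -/
theorem stmtKerCount : StmtKerCount E := by
  intro hyp α R S hRep hSep
  have := hyp.algClosed
  have I := parInput E hyp
  have : Infinite E.toAffine.Point := I.infinite_pt
  have h2 := hyp.two_ne
  have hN : ht R ≠ 0 := kc_ht_ne_zero hSep
  have hB : {P | ¬ GoodAt E (⇑α) R S P}.Finite := Filter.eventually_cofinite.mp hRep
  have hker : {P : E.toAffine.Point | α P = 0}.Finite :=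
    hB.subset fun P hP hg => hg.2.1 hP
  have hT1 : (Set.image2 (fun b k => b - k) {P | ¬ GoodAt E (⇑α) R S P}
      {P : E.toAffine.Point | α P = 0}).Finite := hB.image2 _ hker
  -- exceptional values
  obtain ⟨U, hUdef⟩ : ∃ U : Set K, U = {u | Psi2form E u = 0} ∪
      ↑((derivative R.num * R.denom - R.num * derivative R.denom).roots.toFinset.image
        (fun a => rev R a)) ∪ {R.num.coeff (ht R) / R.denom.coeff (ht R)} ∪
      (fun b => rev R (ptX E b)) '' {P | ¬ GoodAt E (⇑α) R S P} := ⟨_, rfl⟩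
  have hU : U.Finite := by
    rw [hUdef]
    exact (((kc_finite_psi2 E h2).union (Finset.finite_toSet _)).union
      (Set.finite_singleton _)).union (hB.image _)
  have hT2 : {P : E.toAffine.Point | rev R (ptX E P) ∈ U}.Finite := by
    have h1 : (⋃ c ∈ U, {x : K | rev R x = c}).Finite :=
      hU.biUnion fun c _ => stmtRevFiber R hN c
    have h2 : (⋃ x ∈ (⋃ c ∈ U, {x : K | rev R x = c}),
        {P : E.toAffine.Point | ptX E P = x}).Finite :=
      h1.biUnion fun x _ => cp_stmtFiberPt E x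
    refine h2.subset ?_
    intro P hP
    simp only [Set.mem_iUnion, Set.mem_ofPred_eq, exists_prop]
    exact ⟨ptX E P, ⟨_, hP, rfl⟩, rfl⟩
  obtain ⟨P₀, hP₀⟩ := ((hB.union hT1).union hT2).exists_notMem
  have hP₀B : GoodAt E (⇑α) R S P₀ := by
    by_contra h
    exact hP₀ (Or.inl (Or.inl h))
  have hP₀T1 : ∀ k, α k = 0 → GoodAt E (⇑α) R S (P₀ + k) := by
    intro k hk
    by_contra h
    apply hP₀
    left; right
    exact ⟨P₀ + k, h, k, hk, by simp⟩
  have hP₀U : rev R (ptX E P₀) ∉ U := fun h => hP₀ (Or.inr h)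
  obtain ⟨u, hu⟩ : ∃ u, u = rev R (ptX E P₀) := ⟨_, rfl⟩
  rw [← hu] at hP₀U
  have hu_psi : Psi2form E u ≠ 0 := fun h =>
    hP₀U (by rw [hUdef]; exact Or.inl (Or.inl (Or.inl h)))
  have hu_w : u ∉ (derivative R.num * R.denom - R.num * derivative R.denom).roots.toFinset.image
      (fun a => rev R a) := fun h =>
    hP₀U (by rw [hUdef]; exact Or.inl (Or.inl (Or.inr h)))
  have hu_d : u ≠ R.num.coeff (ht R) / R.denom.coeff (ht R) := fun h =>
    hP₀U (by rw [hUdef]; exact Or.inl (Or.inr h))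
  have hu_b : ∀ b, ¬ GoodAt E (⇑α) R S b → rev R (ptX E b) ≠ u := fun b hb h =>
    hP₀U (by rw [hUdef]; exact Or.inr ⟨b, hb, h⟩)
  have hcard := kc_card_roots R hSep u hu_d hu_w
  have hf := kc_ne_zero R hN u hu_d
  have hxα : ptX E (α P₀) = u := by rw [hu]; exact hP₀B.2.2.2.2.1
  have hαP₀ : α P₀ ≠ 0 := hP₀B.2.1
  have hη : ptEta E (α P₀) ≠ 0 := by
    intro h
    apply hu_psi
    rw [← hxα, ← cp_stmtEtaSq E _ hαP₀, h]
    ring
  have e1 : Nat.card {P : E.toAffine.Point // α P = 0}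
      = Nat.card {P : E.toAffine.Point // α P = α P₀} := by
    apply Nat.card_congr
    exact
      { toFun := fun k => ⟨k.1 + P₀, by rw [map_add, k.2, zero_add]⟩
        invFun := fun P => ⟨P.1 - P₀, by rw [map_sub, P.2, sub_self]⟩
        left_inv := fun k => by ext; simp
        right_inv := fun P => by ext; simp }
  rw [e1, ← hcard]
  have hgood : ∀ P : E.toAffine.Point, α P = α P₀ → GoodAt E (⇑α) R S P := by
    intro P hP
    have := hP₀T1 (P - P₀) (by rw [map_sub, hP, sub_self])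
    simpa using this
  have hroot : ∀ P : E.toAffine.Point, α P = α P₀ →
      ptX E P ∈ (kcPoly R u).roots.toFinset := by
    intro P hP
    have hg := hgood P hP
    rw [Multiset.mem_toFinset, mem_roots hf, IsRoot.def]
    apply kc_root_of_rev R hg.2.2.1
    rw [← hg.2.2.2.2.1, hP, hxα]
  rw [← Nat.card_eq_finsetCard]
  apply Nat.card_eq_of_bijective
    (fun P : {P : E.toAffine.Point // α P = α P₀} =>
      (⟨ptX E P.1, hroot P.1 P.2⟩ : {a // a ∈ (kcPoly R u).roots.toFinset}))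
  constructor
  · intro P P' h
    have hx : ptX E P.1 = ptX E P'.1 := congrArg Subtype.val h
    have hP := hgood P.1 P.2
    have hP' := hgood P'.1 P'.2
    rcases kc_eq_or_eq_neg E h2 hP.1 hP'.1 hx with h' | h'
    · exact Subtype.ext h'
    · exfalso
      apply hη
      apply kc_eta_zero_of_eq_neg E h2 hαP₀
      have h3 : α P.1 = - α P'.1 := by rw [h', map_neg]
      rw [P.2, P'.2] at h3
      exact h3
  · rintro ⟨a, ha⟩
    rw [Multiset.mem_toFinset, mem_roots hf, IsRoot.def] at ha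
    obtain ⟨hreg, hrev⟩ := kc_rev_of_root R ha
    obtain ⟨P, hP0, hPx⟩ := cp_stmtExistsPt E hyp.algClosed hyp.disc_ne a
    have hg : GoodAt E (⇑α) R S P := by
      by_contra h
      exact hu_b P h (by rw [hPx, hrev])
    have hxP : ptX E (α P) = ptX E (α P₀) := by rw [hg.2.2.2.2.1, hPx, hrev, hxα]
    rcases kc_eq_or_eq_neg E h2 hg.2.1 hαP₀ hxP with h' | h'
    · exact ⟨⟨P, h'⟩, Subtype.ext hPx⟩
    · refine ⟨⟨-P, by rw [map_neg, h', neg_neg]⟩, Subtype.ext ?_⟩
      show ptX E (-P) = a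
      rw [(cp_stmtNegPt E P hP0).2.1, hPx]

end KerMain

end

end Fermat.Agent.HW


end ZBHW_007_3

/-! ### bundled: `Fermat.Agent.HW.KerFinal` -/
section ZBHW_007_4

/-!
# HW brick, part 2: final statements (helper51)

* `stmtKerFrob` : `#{P ∈ E(K) | φ P = m • P} = m² − t m + p` whenever `p ∤ m² − t m + p`
  (`p ≠ 2`, `W` over `ZMod p`, `Δ ≠ 0`, `K ⊇ ZMod p` algebraically closed, `t = W.traceOfFrobenius`).
* `card_ker_of_rep` : K1 restated.
-/

set_option autoImplicit false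

namespace Fermat.Agent.HW

noncomputable section

variable (p : ℕ) [Fact p.Prime] (W : WeierstrassCurve (ZMod p))
  (K : Type*) [Field K] [DecidableEq K] [Algebra (ZMod p) K]

theorem stmtKerFrob : StmtKerFrob p W K := stmtKerFrob_of p W K (stmtKerCount _)

/-- `#ker (φ − m) = m² − t m + p` for `p ∤ m² − t m + p`. -/
theorem card_frobPt_eq_zsmul (hp2 : p ≠ 2) (hΔ : W.Δ ≠ 0) [hK : IsAlgClosed K] (m : ℤ)
    (hm : ¬ (p : ℤ) ∣ m ^ 2 - W.traceOfFrobenius * m + p) :
    (Nat.card {P : (EK p W K).toAffine.Point // frobPt p W K P = m • P} : ℤ)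
      = m ^ 2 - W.traceOfFrobenius * m + p :=
  stmtKerFrob p W K hp2 hΔ hK m hm

end

end Fermat.Agent.HW


end ZBHW_007_4

/-! ### bundled: `Fermat.Agent.EC.TateFrob` -/
section ZBHW_007_5

/-!
# Frobenius characteristic polynomial on the Tate module (EC package, brick EC-adic (b))

For an integral Weierstrass model `W`, a prime `lam`, a prime `ℓ ∉ {2, lam}` of good reduction
and a Frobenius `τ` at a place of `ℚ̄` over `ℓ`:

  `charpoly ((tateRepInt W hΔ lam).ρ τ) = X² − a_ℓ X + ℓ`,   `a_ℓ = W.apOfModel ℓ`.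

Proof.  The LINK (`RED/LinkAll.lean`) gives `f² − a_ℓ f + ℓ = 0` for `f = ρ τ` on `T_lam`.
By Cayley–Hamilton in rank 2, either the characteristic polynomial is `X² − a_ℓ X + ℓ`, or `f`
is a scalar `c`.  In the scalar case `τ = m` on `E[lam^n]` for every integer `m ≡ c mod lam^n`,
so `lam^(2n)` divides `#ker(φ − m) = m² − a_ℓ m + ℓ` on the reduced curve (HW part 2,
`card_frobPt_eq_zsmul`, and injectivity of the reduction on `E[lam^n]`).  Comparing `m` and
`m + ℓ·lam^n` gives `2c = a_ℓ`, hence `a_ℓ² = 4ℓ`, which is absurd.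
-/

set_option autoImplicit false

namespace Fermat.Agent.EC

open WeierstrassCurve WeierstrassCurve.Affine WeierstrassCurve.Affine.Point Polynomial

/-- `ℚ̄` -/
local notation "Qbar" => AlgebraicClosure ℚ
/-- `G_ℚ` -/
local notation "GQ" => (AlgebraicClosure ℚ ≃ₐ[ℚ] AlgebraicClosure ℚ)

section LinAlg2

variable {R : Type*} [CommRing R] [IsDomain R]

/-- A `2 × 2` matrix over a domain killed by `X² − aX + d` has that characteristic polynomial,
or is a scalar. -/
lemma matrix_charpoly_or_scalar (M : Matrix (Fin 2) (Fin 2) R) (a d : R)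
    (h : M * M - a • M + d • (1 : Matrix (Fin 2) (Fin 2) R) = 0) :
    M.charpoly = X ^ 2 - C a * X + C d ∨ ∃ c : R, M = c • 1 ∧ c * c - a * c + d = 0 := by
  have h00 := congrFun (congrFun h 0) 0
  have h01 := congrFun (congrFun h 0) 1
  have h10 := congrFun (congrFun h 1) 0
  have h11 := congrFun (congrFun h 1) 1
  simp only [Matrix.add_apply, Matrix.sub_apply, Matrix.mul_apply, Fin.sum_univ_two,
    Matrix.smul_apply, Matrix.one_apply_eq, Matrix.zero_apply, smul_eq_mul, mul_one,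
    Matrix.one_apply_ne, ne_eq, zero_ne_one, one_ne_zero, not_false_eq_true, mul_zero,
    add_zero] at h00 h01 h10 h11
  by_cases htr : M 0 0 + M 1 1 = a
  · left
    rw [Matrix.charpoly_fin_two, Matrix.trace_fin_two, Matrix.det_fin_two, htr]
    congr 2
    rw [← htr] at h00
    linear_combination -h00
  · right
    have hne : M 0 0 + M 1 1 - a ≠ 0 := sub_ne_zero.2 htr
    have q0 : M 0 1 = 0 := by
      have : M 0 1 * (M 0 0 + M 1 1 - a) = 0 := by linear_combination h01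
      exact (mul_eq_zero.1 this).resolve_right hne
    have r0 : M 1 0 = 0 := by
      have : M 1 0 * (M 0 0 + M 1 1 - a) = 0 := by linear_combination h10
      exact (mul_eq_zero.1 this).resolve_right hne
    have ps : M 0 0 = M 1 1 := by
      have : (M 0 0 - M 1 1) * (M 0 0 + M 1 1 - a) = 0 := by linear_combination h00 - h11
      exact sub_eq_zero.1 ((mul_eq_zero.1 this).resolve_right hne)
    refine ⟨M 0 0, ?_, ?_⟩
    · ext i j
      fin_cases i <;> fin_cases j <;> simp [q0, r0, ps]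
    · rw [q0] at h00
      linear_combination h00

variable {V : Type*} [AddCommGroup V] [Module R V] [Module.Free R V] [Module.Finite R V]

/-- An endomorphism of a free module of rank `2` over a domain killed by `X² − aX + d` has that
characteristic polynomial, or is a scalar. -/
lemma charpoly_or_scalar (hrk : Module.finrank R V = 2) (f : Module.End R V) (a d : R)
    (h : f * f - a • f + d • (1 : Module.End R V) = 0) :
    f.charpoly = X ^ 2 - C a * X + C d ∨ ∃ c : R, f = c • 1 ∧ c * c - a * c + d = 0 := by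
  classical
  let b : Module.Basis (Fin 2) R V := Module.finBasisOfFinrankEq R V hrk
  have hM : LinearMap.toMatrixAlgEquiv b f * LinearMap.toMatrixAlgEquiv b f
      - a • LinearMap.toMatrixAlgEquiv b f + d • (1 : Matrix (Fin 2) (Fin 2) R) = 0 := by
    rw [← map_mul, ← map_smul, ← map_one (LinearMap.toMatrixAlgEquiv b), ← map_smul, ← map_sub,
      ← map_add, h, _root_.map_zero]
  rcases matrix_charpoly_or_scalar _ a d hM with h1 | ⟨c, hc, hc2⟩
  · left
    rw [← h1]
    exact (LinearMap.charpoly_toMatrix f b).symm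
  · right
    refine ⟨c, ?_, hc2⟩
    apply (LinearMap.toMatrixAlgEquiv b).injective
    rw [hc, map_smul, map_one]

end LinAlg2

section Arith

variable (lam : ℕ) [hlam : Fact lam.Prime]

/-- If `lam^(2n) ∣ m² − a m + ℓ` for all integers `m ≡ c mod lam^n` with `ℓ ∤ m² − a m + ℓ`
(all `n`), then `2c = a` in `ℤ_lam`. -/
lemma two_mul_eq_of_forall_dvd {ℓ : ℕ} (hℓ : ℓ.Prime) (hℓ2 : ℓ ≠ 2) (hne : ℓ ≠ lam) (a : ℤ)
    (c : ℤ_[lam])
    (H : ∀ (n : ℕ) (m : ℤ), ((m : ℤ) : ZMod (lam ^ n)) = PadicInt.toZModPow n c →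
      ¬ (ℓ : ℤ) ∣ m ^ 2 - a * m + ℓ → ((lam : ℤ) ^ (2 * n)) ∣ m ^ 2 - a * m + ℓ) :
    2 * c = (a : ℤ_[lam]) := by
  have hℓint : Prime (ℓ : ℤ) := Nat.prime_iff_prime_int.1 hℓ
  have key : ∀ n, PadicInt.toZModPow n (2 * c - (a : ℤ_[lam])) = 0 := by
    intro n
    -- a residue class `r` mod `ℓ` with `r ≢ 0, a`
    obtain ⟨r, hr0, hra⟩ : ∃ r : ℤ, ¬ (ℓ : ℤ) ∣ r ∧ ¬ (ℓ : ℤ) ∣ r - a := by
      by_cases h1 : (ℓ : ℤ) ∣ 1 - a
      · refine ⟨2, ?_, ?_⟩
        · intro h2
          have h3 : ℓ ∣ 2 := by exact_mod_cast h2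
          exact hℓ2 ((Nat.prime_dvd_prime_iff_eq hℓ Nat.prime_two).1 h3)
        · intro h2
          have h3 : (ℓ : ℤ) ∣ 1 := by
            have := dvd_sub h2 h1
            have e : (2 - a) - (1 - a) = 1 := by ring
            rwa [e] at this
          exact hℓint.not_isUnit (isUnit_of_dvd_one h3)
      · exact ⟨1, fun h => hℓint.not_isUnit (isUnit_of_dvd_one h), h1⟩
    have hcop : IsCoprime ((lam : ℤ) ^ n) (ℓ : ℤ) := by
      apply IsCoprime.pow_left
      apply Nat.Coprime.isCoprime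
      exact (Nat.coprime_primes hlam.out hℓ).2 (Ne.symm hne)
    obtain ⟨u, v, huv⟩ := hcop
    set c₀ : ℤ := ((PadicInt.toZModPow n c).cast : ℤ) with hc₀
    have hc₀rep : ((c₀ : ℤ) : ZMod (lam ^ n)) = PadicInt.toZModPow n c := ZMod.intCast_zmod_cast _
    have hz : (((lam : ℤ) ^ n : ℤ) : ZMod (lam ^ n)) = 0 := by
      have := ZMod.natCast_self (lam ^ n)
      push_cast at this ⊢
      exact this
    -- the two test integers
    have hrep : ∀ t : ℤ, (((c₀ + (lam : ℤ) ^ n * t : ℤ)) : ZMod (lam ^ n))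
        = PadicInt.toZModPow n c := by
      intro t
      rw [Int.cast_add, Int.cast_mul, hz, zero_mul, add_zero, hc₀rep]
    have hmodℓ : ∀ s : ℤ, (ℓ : ℤ) ∣ (c₀ + (lam : ℤ) ^ n * ((r - c₀) * u + ℓ * s)) - r := by
      intro s
      refine ⟨(c₀ - r) * v + (lam : ℤ) ^ n * s, ?_⟩
      linear_combination (r - c₀) * huv
    have hnot : ∀ m : ℤ, (ℓ : ℤ) ∣ m - r → ¬ (ℓ : ℤ) ∣ m ^ 2 - a * m + ℓ := by
      intro m hm hdiv
      have h1 : (ℓ : ℤ) ∣ m * (m - a) := by
        have : m * (m - a) = (m ^ 2 - a * m + ℓ) - ℓ := by ring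
        rw [this]
        exact dvd_sub hdiv dvd_rfl
      rcases hℓint.dvd_or_dvd h1 with h2 | h2
      · apply hr0
        have : r = m - (m - r) := by ring
        rw [this]
        exact dvd_sub h2 hm
      · apply hra
        have : r - a = (m - a) - (m - r) := by ring
        rw [this]
        exact dvd_sub h2 hm
    set m₀ : ℤ := c₀ + (lam : ℤ) ^ n * ((r - c₀) * u + ℓ * 0) with hm₀
    set m₁ : ℤ := c₀ + (lam : ℤ) ^ n * ((r - c₀) * u + ℓ * 1) with hm₁
    have hD₀ := H n m₀ (hrep _) (hnot m₀ (hmodℓ 0))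
    have hD₁ := H n m₁ (hrep _) (hnot m₁ (hmodℓ 1))
    have hdiff : (m₁ ^ 2 - a * m₁ + ℓ) - (m₀ ^ 2 - a * m₀ + ℓ)
        = (lam : ℤ) ^ n * (ℓ * (2 * m₀ - a + ℓ * (lam : ℤ) ^ n)) := by
      rw [hm₁, hm₀]; ring
    have h1 : ((lam : ℤ) ^ n * (lam : ℤ) ^ n) ∣
        (lam : ℤ) ^ n * (ℓ * (2 * m₀ - a + ℓ * (lam : ℤ) ^ n)) := by
      rw [← hdiff, ← pow_add, ← two_mul]
      exact dvd_sub hD₁ hD₀
    have hlam0 : ((lam : ℤ) ^ n) ≠ 0 := pow_ne_zero _ (by exact_mod_cast hlam.out.ne_zero)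
    have h2 : ((lam : ℤ) ^ n) ∣ ℓ * (2 * m₀ - a + ℓ * (lam : ℤ) ^ n) :=
      (mul_dvd_mul_iff_left hlam0).1 h1
    have h3 : ((lam : ℤ) ^ n) ∣ 2 * m₀ - a + ℓ * (lam : ℤ) ^ n :=
      IsCoprime.dvd_of_dvd_mul_left ⟨u, v, huv⟩ h2
    have h4 : ((lam : ℤ) ^ n) ∣ 2 * m₀ - a := by
      have : 2 * m₀ - a = (2 * m₀ - a + ℓ * (lam : ℤ) ^ n) - ℓ * (lam : ℤ) ^ n := by ring
      rw [this]
      exact dvd_sub h3 (Dvd.intro_left _ rfl)
    have h5 : (((2 * m₀ - a : ℤ)) : ZMod (lam ^ n)) = 0 := by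
      rw [ZMod.intCast_zmod_eq_zero_iff_dvd]
      push_cast
      exact h4
    rw [map_sub, map_mul, map_intCast, ← hrep ((r - c₀) * u + ℓ * 0), ← hm₀]
    have h6 : PadicInt.toZModPow n (2 : ℤ_[lam]) = ((2 : ℤ) : ZMod (lam ^ n)) := by
      rw [Int.cast_ofNat, map_ofNat]
    rw [h6, ← Int.cast_mul, ← Int.cast_sub]
    exact h5
  have h0 : 2 * c - (a : ℤ_[lam]) = 0 :=
    PadicInt.ext_of_toZModPow.1 (fun n => by rw [key n, _root_.map_zero])
  exact sub_eq_zero.1 h0

/-- `a² = 4ℓ` is impossible for an odd prime `ℓ`. -/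
lemma sq_ne_four_mul_prime {ℓ : ℕ} (hℓ : ℓ.Prime) (hℓ2 : ℓ ≠ 2) (a : ℤ) : a ^ 2 ≠ 4 * (ℓ : ℤ) := by
  intro h
  have hℓint : Prime (ℓ : ℤ) := Nat.prime_iff_prime_int.1 hℓ
  have h1 : (ℓ : ℤ) ∣ a ^ 2 := ⟨4, by rw [h]; ring⟩
  obtain ⟨b, rfl⟩ := hℓint.dvd_of_dvd_pow h1
  have hℓ0 : (ℓ : ℤ) ≠ 0 := by exact_mod_cast hℓ.ne_zero
  have h2 : (ℓ : ℤ) * b ^ 2 = 4 := by
    apply mul_left_cancel₀ hℓ0
    linear_combination h
  have h3 : (ℓ : ℤ) ∣ 2 * 2 := ⟨b ^ 2, by rw [h2]; norm_num⟩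
  have h4 : (ℓ : ℤ) ∣ 2 := by
    rcases hℓint.dvd_or_dvd h3 with h | h <;> exact h
  have h5 : ℓ ∣ 2 := by exact_mod_cast h4
  exact hℓ2 ((Nat.prime_dvd_prime_iff_eq hℓ Nat.prime_two).1 h5)

/-- The scalar case is impossible. -/
lemma false_of_scalar {ℓ : ℕ} (hℓ : ℓ.Prime) (hℓ2 : ℓ ≠ 2) (hne : ℓ ≠ lam) (a : ℤ)
    (c : ℤ_[lam]) (hc : c * c - (a : ℤ_[lam]) * c + (ℓ : ℤ_[lam]) = 0)
    (H : ∀ (n : ℕ) (m : ℤ), ((m : ℤ) : ZMod (lam ^ n)) = PadicInt.toZModPow n c →
      ¬ (ℓ : ℤ) ∣ m ^ 2 - a * m + ℓ → ((lam : ℤ) ^ (2 * n)) ∣ m ^ 2 - a * m + ℓ) : False := by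
  have h2c := two_mul_eq_of_forall_dvd lam hℓ hℓ2 hne a c H
  have h1 : ((a ^ 2 : ℤ) : ℤ_[lam]) = ((4 * (ℓ : ℤ) : ℤ) : ℤ_[lam]) := by
    push_cast
    rw [← h2c] at hc ⊢
    linear_combination (-4 : ℤ_[lam]) * hc
  exact sq_ne_four_mul_prime hℓ hℓ2 a (Int.cast_injective h1)

end Arith

section Geo

open Fermat.Agent.RED

/-- If a Frobenius `τ` at a good prime `ℓ ≠ 2` acts as the integer `m` on `E[N](ℚ̄)` (`ℓ ∤ N`),
then `N² ∣ #ker(φ − m) = m² − a_ℓ m + ℓ`. -/
theorem sq_dvd_of_frob_eq_zsmul (W : WeierstrassCurve ℤ) (hΔ : W.Δ ≠ 0) {ℓ : ℕ} (hℓ : ℓ.Prime)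
    (hℓ2 : ℓ ≠ 2) (hgood : W.IsGoodPrimeFor ℓ) (A : ValuationSubring Qbar)
    (hA : A.LiesOverPrime ℓ) (τ : GQ) (hτ : A.IsFrobeniusAt τ ℓ)
    {N : ℕ} (hN : ¬ ℓ ∣ N) (hN0 : N ≠ 0) (m : ℤ)
    (hτm : ∀ P : ((W.map (Int.castRingHom ℚ)).toAffine⁄Qbar).Point, N • P = 0 → τ • P = m • P)
    (hm : ¬ (ℓ : ℤ) ∣ m ^ 2 - W.apOfModel ℓ * m + ℓ) :
    ((N : ℤ) ^ 2) ∣ m ^ 2 - W.apOfModel ℓ * m + ℓ := by
  have : Fact ℓ.Prime := ⟨hℓ⟩
  let _ : DecidableEq (IsLocalRing.ResidueField A) := Classical.decEq _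
  have : CharP (IsLocalRing.ResidueField A) ℓ := charP_residueField A hℓ hA
  let _ : Algebra (ZMod ℓ) (IsLocalRing.ResidueField A) := ZMod.algebra _ ℓ
  have : IsAlgClosed (IsLocalRing.ResidueField A) := isAlgClosed_residueField A
  have hΔA : IsUnit (modelA W A).Δ := isUnit_Δ_modelA hℓ hA hgood
  have hΔℓ : (W.reductionMod ℓ).Δ ≠ 0 := by
    rw [WeierstrassCurve.reductionMod, WeierstrassCurve.map_Δ]
    intro h0
    apply hgood
    have : ((W.Δ : ℤ) : ZMod ℓ) = 0 := by simpa using h0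
    exact (ZMod.intCast_zmod_eq_zero_iff_dvd W.Δ ℓ).1 this
  have hcount := Fermat.Agent.HW.card_frobPt_eq_zsmul ℓ (W.reductionMod ℓ)
    (IsLocalRing.ResidueField A) hℓ2 hΔℓ m hm
  have hcount' : (Nat.card {P : (Fermat.Agent.HW.EK ℓ (W.reductionMod ℓ)
        (IsLocalRing.ResidueField A)).toAffine.Point //
        Fermat.Agent.HW.frobPt ℓ (W.reductionMod ℓ) (IsLocalRing.ResidueField A) P = m • P} : ℤ)
      = m ^ 2 - W.apOfModel ℓ * m + ℓ := hcount
  -- the subgroup `φ = m` of the reduced curve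
  let φ : (Fermat.Agent.HW.EK ℓ (W.reductionMod ℓ) (IsLocalRing.ResidueField A)).toAffine.Point →+
      (Fermat.Agent.HW.EK ℓ (W.reductionMod ℓ) (IsLocalRing.ResidueField A)).toAffine.Point :=
    Fermat.Agent.HW.frobPt ℓ (W.reductionMod ℓ) (IsLocalRing.ResidueField A)
  let g : (Fermat.Agent.HW.EK ℓ (W.reductionMod ℓ) (IsLocalRing.ResidueField A)).toAffine.Point →+
      (Fermat.Agent.HW.EK ℓ (W.reductionMod ℓ) (IsLocalRing.ResidueField A)).toAffine.Point :=
    φ - zsmulAddGroupHom m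
  have hg : ∀ Q, Q ∈ g.ker ↔
      Fermat.Agent.HW.frobPt ℓ (W.reductionMod ℓ) (IsLocalRing.ResidueField A) Q = m • Q :=
    fun Q => by
      rw [AddMonoidHom.mem_ker, AddMonoidHom.sub_apply, zsmulAddGroupHom_apply, sub_eq_zero]
      rfl
  have hcardH : (Nat.card g.ker : ℤ) = m ^ 2 - W.apOfModel ℓ * m + ℓ := by
    rw [← hcount']
    congr 1
    exact Nat.card_congr (Equiv.subtypeEquivRight hg)
  let r : ((W.map (Int.castRingHom ℚ)).toAffine⁄Qbar).Point →+
      (Fermat.Agent.HW.EK ℓ (W.reductionMod ℓ) (IsLocalRing.ResidueField A)).toAffine.Point :=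
    redQ (ℓ := ℓ) hΔA
  have hr_frob : ∀ P, r (τ • P) = φ (r P) := fun P => redQ_frob (ℓ := ℓ) hΔA hτ P
  have hr_inj : ∀ P : ((W.map (Int.castRingHom ℚ)).toAffine⁄Qbar).Point, N • P = 0 →
      r P = 0 → P = 0 := fun P hP h0 =>
    eq_zero_of_redQ_eq_zero (ℓ := ℓ) hΔA hA hN hP h0
  -- the torsion subgroup
  let T : AddSubgroup ((W.map (Int.castRingHom ℚ)).toAffine⁄Qbar).Point :=
    (nsmulAddMonoidHom N).ker
  have hT : ∀ P, P ∈ T ↔ N • P = 0 := fun P => by
    rw [AddMonoidHom.mem_ker, nsmulAddMonoidHom_apply]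
  have hcardT : Nat.card T = N ^ 2 := by
    rw [← ec_card_torsion (W := (W.map (Int.castRingHom ℚ)).toAffine⁄Qbar)
      (tate_Δ_ne_zero _ (tate_map_Δ_ne_zero W hΔ)) tate_two_ne_zero (n := N)
      (tate_cast_ne_zero hN0)]
    exact Nat.card_congr (Equiv.subtypeEquivRight hT)
  -- reduction maps the torsion subgroup injectively into `ker (φ − m)`
  let ψ : T →+ g.ker := AddMonoidHom.codRestrict (r.comp T.subtype) g.ker
    (fun x => by
      rw [hg]
      have h1 := hr_frob x.1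
      rw [hτm x.1 ((hT _).1 x.2), map_zsmul] at h1
      exact h1.symm)
  have hψ : Function.Injective ψ := by
    rw [injective_iff_map_eq_zero]
    intro x hx
    have h1 : r x.1 = 0 := congrArg Subtype.val hx
    exact Subtype.ext (hr_inj x.1 ((hT _).1 x.2) h1)
  have hdvd := AddSubgroup.card_dvd_of_injective ψ hψ
  rw [hcardT] at hdvd
  have h2 : ((N ^ 2 : ℕ) : ℤ) ∣ (Nat.card g.ker : ℤ) := Int.natCast_dvd_natCast.2 hdvd
  rw [hcardH] at h2
  push_cast at h2
  exact h2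

end Geo

section Main

open Fermat.Agent.RED

variable (W : WeierstrassCurve ℤ) (hΔ : W.Δ ≠ 0) (lam : ℕ) [hlam : Fact lam.Prime]

/-- The Eichler–Shimura-type relation `f² − a_ℓ f + ℓ = 0` for `f = ρ(τ)` on the Tate module,
`τ` a Frobenius at a good prime `ℓ ≠ lam` (`ℓ = 2` allowed). -/
theorem tateRepInt_frob_quadratic {ℓ : ℕ} (hℓ : ℓ.Prime) (hgood : W.IsGoodPrimeFor ℓ)
    (hne : ℓ ≠ lam) (A : ValuationSubring Qbar) (hA : A.LiesOverPrime ℓ) (τ : GQ)
    (hτ : A.IsFrobeniusAt τ ℓ) :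
    (tateRepInt W hΔ lam).ρ τ * (tateRepInt W hΔ lam).ρ τ
      - (W.apOfModel ℓ) • (tateRepInt W hΔ lam).ρ τ
      + (ℓ : ℤ) • (1 : Module.End ℤ_[lam] (tateRepInt W hΔ lam).V) = 0 := by
  refine tateRep_rho_quadratic _ _ lam τ (W.apOfModel ℓ) (ℓ : ℤ) fun n P hP => ?_
  refine frobenius_relation_of_torsion_all W hℓ hgood A hA τ hτ (n := lam ^ n) ?_ P hP
  intro hdvd
  exact hne ((Nat.prime_dvd_prime_iff_eq hℓ hlam.out).1 (hℓ.dvd_of_dvd_pow hdvd))

/-- **EC-adic (b)**: the characteristic polynomial of a Frobenius at a good prime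
`ℓ ∉ {2, lam}` on the Tate module is `X² − a_ℓ X + ℓ`. -/
theorem tateRepInt_charpoly_frob {ℓ : ℕ} (hℓ : ℓ.Prime) (hℓ2 : ℓ ≠ 2)
    (hgood : W.IsGoodPrimeFor ℓ) (hne : ℓ ≠ lam) (A : ValuationSubring Qbar)
    (hA : A.LiesOverPrime ℓ) (τ : GQ) (hτ : A.IsFrobeniusAt τ ℓ) :
    LinearMap.charpoly ((tateRepInt W hΔ lam).ρ τ) =
      X ^ 2 - C ((W.apOfModel ℓ : ℤ) : ℤ_[lam]) * X + C ((ℓ : ℤ_[lam])) := by
  have hq := tateRepInt_frob_quadratic W hΔ lam hℓ hgood hne A hA τ hτ
  rw [← Int.cast_smul_eq_zsmul ℤ_[lam] (W.apOfModel ℓ), ← Int.cast_smul_eq_zsmul ℤ_[lam] (ℓ : ℤ),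
    Int.cast_natCast] at hq
  rcases charpoly_or_scalar (tateRepInt W hΔ lam).finrank_eq _ _ _ hq with h | ⟨c, hc, hc2⟩
  · exact h
  · exfalso
    refine false_of_scalar lam hℓ hℓ2 hne (W.apOfModel ℓ) c hc2 fun n m hm hnd => ?_
    have h1 := sq_dvd_of_frob_eq_zsmul W hΔ hℓ hℓ2 hgood A hA τ hτ (N := lam ^ n)
      (fun hdvd => hne ((Nat.prime_dvd_prime_iff_eq hℓ hlam.out).1 (hℓ.dvd_of_dvd_pow hdvd)))
      (pow_ne_zero n hlam.out.ne_zero) m ?_ hnd
    · rw [pow_mul, pow_right_comm]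
      push_cast at h1
      exact h1
    · intro P hP
      obtain ⟨v, rfl⟩ := (tateSys (W.map (Int.castRingHom ℚ)) lam
        (tate_map_Δ_ne_zero W hΔ)).lev_surjective n P hP
      have h2 := lev_tateRho (W.map (Int.castRingHom ℚ)) (tate_map_Δ_ne_zero W hΔ) lam τ v n
      have h3 : tateRho (W.map (Int.castRingHom ℚ)) (tate_map_Δ_ne_zero W hΔ) lam τ
          = c • (1 : Module.End ℤ_[lam] (Fin 2 → ℤ_[lam])) := hc
      rw [h3, LinearMap.smul_apply, Module.End.one_apply] at h2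
      rw [← h2]
      exact (tateSys (W.map (Int.castRingHom ℚ)) lam (tate_map_Δ_ne_zero W hΔ)).lev_smul
        n c v m hm

/-- Trace and determinant read off from a monic quadratic characteristic polynomial. -/
theorem trace_det_of_charpoly_eq {R : Type*} [CommRing R] [Nontrivial R]
    (f : Module.End R (Fin 2 → R)) (a d : R)
    (h : LinearMap.charpoly f = X ^ 2 - C a * X + C d) :
    LinearMap.trace R _ f = a ∧ LinearMap.det f = d := by
  have hM : (LinearMap.toMatrix (Pi.basisFun R (Fin 2)) (Pi.basisFun R (Fin 2)) f).charpoly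
      = X ^ 2 - C a * X + C d := by
    rw [LinearMap.charpoly_toMatrix, h]
  constructor
  · rw [LinearMap.trace_eq_matrix_trace R (Pi.basisFun R (Fin 2)) f,
      Matrix.trace_eq_neg_charpoly_coeff, hM]
    simp [coeff_X, coeff_C]
  · rw [← LinearMap.det_toMatrix (Pi.basisFun R (Fin 2)) f, Matrix.det_eq_sign_charpoly_coeff, hM]
    simp [coeff_X, coeff_C]

/-- Trace of Frobenius on the Tate module. -/
theorem tateRepInt_trace_frob {ℓ : ℕ} (hℓ : ℓ.Prime) (hℓ2 : ℓ ≠ 2)
    (hgood : W.IsGoodPrimeFor ℓ) (hne : ℓ ≠ lam) (A : ValuationSubring Qbar)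
    (hA : A.LiesOverPrime ℓ) (τ : GQ) (hτ : A.IsFrobeniusAt τ ℓ) :
    LinearMap.trace ℤ_[lam] (Fin 2 → ℤ_[lam]) ((tateRepInt W hΔ lam).ρ τ)
      = ((W.apOfModel ℓ : ℤ) : ℤ_[lam]) :=
  (trace_det_of_charpoly_eq _ _ _
    (tateRepInt_charpoly_frob W hΔ lam hℓ hℓ2 hgood hne A hA τ hτ)).1

/-- Determinant of Frobenius on the Tate module. -/
theorem tateRepInt_det_frob {ℓ : ℕ} (hℓ : ℓ.Prime) (hℓ2 : ℓ ≠ 2)
    (hgood : W.IsGoodPrimeFor ℓ) (hne : ℓ ≠ lam) (A : ValuationSubring Qbar)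
    (hA : A.LiesOverPrime ℓ) (τ : GQ) (hτ : A.IsFrobeniusAt τ ℓ) :
    LinearMap.det ((tateRepInt W hΔ lam).ρ τ : Module.End ℤ_[lam] (Fin 2 → ℤ_[lam]))
      = (ℓ : ℤ_[lam]) :=
  (trace_det_of_charpoly_eq _ _ _
    (tateRepInt_charpoly_frob W hΔ lam hℓ hℓ2 hgood hne A hA τ hτ)).2

end Main

end Fermat.Agent.EC


end ZBHW_007_5

/-! ### bundled: `Fermat.Agent.EC.TateDet` -/
section ZBHW_007_6

/-!
# The determinant of the Tate representation is the cyclotomic character (EC package, for S59)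

* `detIsCyclotomic_of_det_frob` : a `GaloisRepAdic T` (`T` noetherian local, `p ∈ 𝔪_T`) whose
  Frobenius elements at the primes `ℓ` outside a finite set have determinant `ℓ` has cyclotomic
  determinant (`GaloisRepAdic.DetIsCyclotomic`).  Proof as in `S33.detIsCyclotomic_of_datum`
  (helper33): weak Chebotarev + continuity + Krull.
* `tateRepInt_detIsCyclotomic` : `(tateRepInt W hΔ p).DetIsCyclotomic p`.
-/

set_option autoImplicit false

namespace Fermat.Agent.EC

open Fermat.Agent.S31 Fermat.Agent.S34 Fermat.Agent.S33 Polynomial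

/-- A representation whose Frobenius elements at almost all primes `ℓ` have determinant `ℓ`
has cyclotomic determinant. -/
theorem detIsCyclotomic_of_det_frob {T : Type} [CommRing T] [IsLocalRing T] [IsNoetherianRing T]
    {p : ℕ} (hp : p.Prime) (hpT : (p : T) ∈ IsLocalRing.maximalIdeal T) (ρ : GaloisRepAdic T)
    (S₀ : Finset ℕ)
    (hfrob : ∀ ℓ : ℕ, ℓ.Prime → ℓ ∉ S₀ → ℓ ≠ p →
      ∀ A : ValuationSubring (AlgebraicClosure ℚ), A.LiesOverPrime ℓ →
        ∀ τ : AlgebraicClosure ℚ ≃ₐ[ℚ] AlgebraicClosure ℚ, A.IsFrobeniusAt τ ℓ →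
          LinearMap.det (ρ.ρ τ) = (ℓ : T)) :
    ρ.DetIsCyclotomic p := by
  refine ⟨hpT, fun n σ a hσ => ?_⟩
  apply mem_of_forall_exists_sub_mem
  intro k
  obtain ⟨L, hLfin, hL⟩ := ρ.isAdicContinuous k
  have hM0 : p ^ n ≠ 0 := pow_ne_zero n hp.ne_zero
  have : NeZero ((p ^ n : ℕ) : AlgebraicClosure ℚ) := ⟨Nat.cast_ne_zero.mpr hM0⟩
  obtain ⟨ζ, hζ⟩ := HasEnoughRootsOfUnity.exists_primitiveRoot (AlgebraicClosure ℚ) (p ^ n)
  have hζfin : FiniteDimensional ℚ (IntermediateField.adjoin ℚ {ζ}) :=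
    IntermediateField.adjoin.finiteDimensional
      ((hζ.isIntegral (Nat.pos_of_ne_zero hM0)).tower_top)
  obtain ⟨F, hFfin, hFgal, -, hLF, hζF⟩ :=
    exists_galois_hull L L (IntermediateField.adjoin ℚ {ζ})
  have hζF' : ζ ∈ F := hζF (IntermediateField.mem_adjoin_simple_self ℚ ζ)
  obtain ⟨ℓ, A, τ, m, hℓ, hℓS, hA, hτ, hg⟩ :=
    Cheb.exists_frobenius_pow_eq F (S₀ ∪ {p}) σ
  have hℓS' : ℓ ∉ S₀ := fun h => hℓS (Finset.mem_union_left _ h)
  have hℓp : ℓ ≠ p := fun h => hℓS (by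
    simp only [Finset.mem_union, Finset.mem_singleton]
    exact Or.inr h)
  -- `ℓᵐ ≡ a mod pⁿ`
  have hζ1 : ζ ^ (p ^ n) = 1 := hζ.pow_eq_one
  have h1 : (τ ^ m) ζ = ζ ^ (ℓ ^ m) :=
    frob_pow_rootOfUnity A (natCast_pow_not_mem_nonunits A hp hℓ hℓp hA n) hM0 hτ hζ1 m
  have h3 : ζ ^ (ℓ ^ m) = ζ ^ a := by
    rw [← h1, hg ζ hζF', hσ ζ hζ1]
  have h4 := (hζ.isOfFinOrder hM0).pow_eq_pow_iff_modEq.mp h3
  rw [← hζ.eq_orderOf] at h4
  have h5 : ((p ^ n : ℕ) : ℤ) ∣ ((ℓ ^ m : ℕ) : ℤ) - ((a : ℕ) : ℤ) :=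
    (Nat.modEq_iff_dvd.mp h4.symm)
  obtain ⟨c, hc⟩ := h5
  have h6 : (ℓ : T) ^ m - (a : T) = ((p ^ n : ℕ) : T) * (c : T) := by
    have := congrArg (fun z : ℤ => (z : T)) hc
    simpa using this
  -- the determinant
  have h7 := det_congr_of_agree ρ k L hL (τ ^ m) σ fun a ha => hg a (hLF ha)
  rw [map_pow, map_pow, hfrob ℓ hℓ hℓS' hℓp A hA τ hτ] at h7
  refine ⟨LinearMap.det (ρ.ρ σ) - (ℓ : T) ^ m, h7, ?_⟩
  have e : LinearMap.det (ρ.ρ σ) - (a : T) - (LinearMap.det (ρ.ρ σ) - (ℓ : T) ^ m) =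
      (ℓ : T) ^ m - (a : T) := by ring
  rw [e, h6]
  exact Ideal.mul_mem_right _ _ (Ideal.subset_span rfl)

/-- **The determinant of the Tate representation of an elliptic curve over `ℚ` is the
`p`-adic cyclotomic character.** -/
theorem tateRepInt_detIsCyclotomic (W : WeierstrassCurve ℤ) (hΔ : W.Δ ≠ 0) (p : ℕ)
    [hp : Fact p.Prime] : (tateRepInt W hΔ p).DetIsCyclotomic p := by
  have hpT : (p : ℤ_[p]) ∈ IsLocalRing.maximalIdeal ℤ_[p] := by
    rw [PadicInt.maximalIdeal_eq_span_p]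
    exact Ideal.subset_span rfl
  refine detIsCyclotomic_of_det_frob hp.out hpT _ (insert 2 W.Δ.natAbs.primeFactors) ?_
  intro ℓ hℓ hℓS hℓp A hA τ hτ
  have hℓ2 : ℓ ≠ 2 := fun h => hℓS (h ▸ Finset.mem_insert_self _ _)
  have hgood : W.IsGoodPrimeFor ℓ := by
    intro hdvd
    apply hℓS
    apply Finset.mem_insert_of_mem
    rw [Nat.mem_primeFactors]
    exact ⟨hℓ, Int.natCast_dvd.mp hdvd, Int.natAbs_ne_zero.mpr hΔ⟩
  exact tateRepInt_det_frob W hΔ p hℓ hℓ2 hgood hℓp A hA τ hτ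

end Fermat.Agent.EC


end ZBHW_007_6

/-! ### bundled: `Fermat.Agent.EC.TateFrobAll` -/
section ZBHW_007_7

/-!
# Frobenius characteristic polynomial on the Tate module at EVERY good prime `ℓ ≠ lam`
(EC package, brick EC-adic (b), the case `ℓ = 2` included)

`tateRepInt_charpoly_frob_all` : for an integral Weierstrass model `W` with `Δ ≠ 0`, a prime
`lam`, a prime `ℓ ≠ lam` of good reduction (`ℓ = 2` allowed) and a Frobenius `τ` at a place of
`ℚ̄` over `ℓ`,

  `charpoly ((tateRepInt W hΔ lam).ρ τ) = X² − a_ℓ X + ℓ`,   `a_ℓ = W.apOfModel ℓ`.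

Proof.  `tateRepInt_frob_quadratic` (valid at `ℓ = 2`) gives `f² − a_ℓ f + ℓ = 0`, so by
Cayley–Hamilton in rank 2 either the characteristic polynomial is the expected one or `f` is a
scalar `c` with `c² − a_ℓ c + ℓ = 0`.  The determinant of the Tate representation is cyclotomic
(`tateRepInt_detIsCyclotomic`, proved from the Frobenius at the good primes `≠ 2`), and `τ`
raises the `lam`-power roots of unity to the `ℓ`-th power, so `det f = ℓ`, i.e. `c² = ℓ`.
Hence `a_ℓ c = 2 ℓ`, `a_ℓ² = 4 ℓ` in `ℤ`, and `ℓ` would be a square.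
-/

set_option autoImplicit false

namespace Fermat.Agent.EC

open WeierstrassCurve Polynomial

/-- `ℚ̄` -/
local notation "Qbar" => AlgebraicClosure ℚ
/-- `G_ℚ` -/
local notation "GQ" => (AlgebraicClosure ℚ ≃ₐ[ℚ] AlgebraicClosure ℚ)

section Arith

/-- `a² = 4 ℓ` is impossible for a prime `ℓ`. -/
theorem tfa_sq_ne_four_mul_prime {ℓ : ℕ} (hℓ : ℓ.Prime) (a : ℤ) : a ^ 2 ≠ 4 * (ℓ : ℤ) := by
  intro h
  have h2 : (2 : ℤ) ∣ a := by
    have : (2 : ℤ) ∣ a ^ 2 := ⟨2 * ℓ, by rw [h]; ring⟩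
    exact Int.prime_two.dvd_of_dvd_pow this
  obtain ⟨b, rfl⟩ := h2
  have hb : b ^ 2 = (ℓ : ℤ) := by nlinarith
  have hb' : b.natAbs ^ 2 = ℓ := by
    have := congrArg Int.natAbs hb
    rwa [Int.natAbs_pow, Int.natAbs_natCast] at this
  have hdvd : b.natAbs ∣ ℓ := ⟨b.natAbs, by rw [← hb']; ring⟩
  rcases (Nat.dvd_prime hℓ).1 hdvd with h1 | h1
  · rw [h1] at hb'
    exact hℓ.one_lt.ne' (by simpa using hb'.symm)
  · rw [h1] at hb'
    have : ℓ * ℓ = ℓ * 1 := by rw [mul_one, ← sq]; exact hb'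
    exact hℓ.one_lt.ne' (Nat.eq_of_mul_eq_mul_left hℓ.pos this)

end Arith

section Main

variable (W : WeierstrassCurve ℤ) (hΔ : W.Δ ≠ 0) (lam : ℕ) [hlam : Fact lam.Prime]

/-- The determinant of a Frobenius at ANY prime `ℓ ≠ lam` on the Tate module is `ℓ`
(from the cyclotomic determinant). -/
theorem tateRepInt_det_frob_all {ℓ : ℕ} (hℓ : ℓ.Prime) (hne : ℓ ≠ lam)
    (A : ValuationSubring Qbar) (hA : A.LiesOverPrime ℓ) (τ : GQ)
    (hτ : A.IsFrobeniusAt τ ℓ) :
    LinearMap.det ((tateRepInt W hΔ lam).ρ τ) = (ℓ : ℤ_[lam]) := by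
  have hcyc := (tateRepInt_detIsCyclotomic W hΔ lam).2
  rw [← sub_eq_zero, ← Ideal.mem_bot]
  apply Fermat.Agent.S33.mem_of_forall_exists_sub_mem
  intro k
  refine ⟨_, ?_, by rw [sub_self]; exact Ideal.zero_mem _⟩
  have h1 := hcyc k τ ℓ fun μ hμ =>
    Fermat.Agent.S31.frob_rootOfUnity A
      (Fermat.Agent.S31.natCast_pow_not_mem_nonunits A hlam.out hℓ hne hA k)
      (pow_ne_zero k hlam.out.ne_zero) hτ hμ
  rw [PadicInt.maximalIdeal_eq_span_p, Ideal.span_singleton_pow]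
  simpa using h1

/-- **EC-adic (b), all good primes**: the characteristic polynomial of a Frobenius at a good
prime `ℓ ≠ lam` (`ℓ = 2` included) on the Tate module is `X² − a_ℓ X + ℓ`. -/
theorem tateRepInt_charpoly_frob_all {ℓ : ℕ} (hℓ : ℓ.Prime)
    (hgood : W.IsGoodPrimeFor ℓ) (hne : ℓ ≠ lam) (A : ValuationSubring Qbar)
    (hA : A.LiesOverPrime ℓ) (τ : GQ) (hτ : A.IsFrobeniusAt τ ℓ) :
    LinearMap.charpoly ((tateRepInt W hΔ lam).ρ τ) =
      X ^ 2 - C ((W.apOfModel ℓ : ℤ) : ℤ_[lam]) * X + C ((ℓ : ℤ_[lam])) := by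
  have hq := tateRepInt_frob_quadratic W hΔ lam hℓ hgood hne A hA τ hτ
  rw [← Int.cast_smul_eq_zsmul ℤ_[lam] (W.apOfModel ℓ), ← Int.cast_smul_eq_zsmul ℤ_[lam] (ℓ : ℤ),
    Int.cast_natCast] at hq
  rcases charpoly_or_scalar (tateRepInt W hΔ lam).finrank_eq _ _ _ hq with h | ⟨c, hc, hc2⟩
  · exact h
  · exfalso
    have hdet := tateRepInt_det_frob_all W hΔ lam hℓ hne A hA τ hτ
    rw [hc, LinearMap.det_smul, (tateRepInt W hΔ lam).finrank_eq, map_one, mul_one] at hdet
    -- `c² = ℓ`, `c² − a c + ℓ = 0` ⇒ `a² = 4 ℓ`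
    have h4 : (((W.apOfModel ℓ) ^ 2 : ℤ) : ℤ_[lam]) = ((4 * (ℓ : ℤ) : ℤ) : ℤ_[lam]) := by
      have hac : ((W.apOfModel ℓ : ℤ) : ℤ_[lam]) * c = 2 * (ℓ : ℤ_[lam]) := by
        linear_combination -hc2 + hdet
      have hℓ0 : (ℓ : ℤ_[lam]) ≠ 0 := Nat.cast_ne_zero.2 hℓ.ne_zero
      have h5 : (ℓ : ℤ_[lam]) * ((W.apOfModel ℓ : ℤ) : ℤ_[lam]) ^ 2
          = (ℓ : ℤ_[lam]) * (4 * (ℓ : ℤ_[lam])) := by
        linear_combination (((W.apOfModel ℓ : ℤ) : ℤ_[lam]) * c + 2 * (ℓ : ℤ_[lam])) * hac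
          - ((W.apOfModel ℓ : ℤ) : ℤ_[lam]) ^ 2 * hdet
      have h6 := mul_left_cancel₀ hℓ0 h5
      push_cast
      exact h6
    exact tfa_sq_ne_four_mul_prime hℓ (W.apOfModel ℓ) (Int.cast_injective h4)

/-- Trace of a Frobenius at a good prime `ℓ ≠ lam` (`ℓ = 2` included) on the Tate module. -/
theorem tateRepInt_trace_frob_all {ℓ : ℕ} (hℓ : ℓ.Prime)
    (hgood : W.IsGoodPrimeFor ℓ) (hne : ℓ ≠ lam) (A : ValuationSubring Qbar)
    (hA : A.LiesOverPrime ℓ) (τ : GQ) (hτ : A.IsFrobeniusAt τ ℓ) :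
    LinearMap.trace ℤ_[lam] (Fin 2 → ℤ_[lam]) ((tateRepInt W hΔ lam).ρ τ)
      = ((W.apOfModel ℓ : ℤ) : ℤ_[lam]) :=
  (trace_det_of_charpoly_eq _ _ _
    (tateRepInt_charpoly_frob_all W hΔ lam hℓ hgood hne A hA τ hτ)).1

end Main

end Fermat.Agent.EC


end ZBHW_007_7
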