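/- GENERATED FILE (helper35, build-time optimisation, NOTES/ZB.md): verbatim concatenation of the modules
   Fermat.Agent.S13.Local.Branch
   Fermat.Agent.S13.Local.AtTwoVal
   Do not edit; do not import together with these modules. -/
import Mathlib
import Fermat.Agent.ZB.S13_004

/-! ### bundled: `Fermat.Agent.S13.Local.Branch` -/
section ZBS13_008_0

/-!
# S13, piece P3: branches at a node (any residue characteristic)

`W : y² + a₁xy = x³ + a₂x² + a₄x` (`a₃ = a₆ = 0`) over a valued field, with a node at the origin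
modulo the maximal ideal (`v a₄ < 1`, `v b₂ = 1`).  Let `s` be a root of `s² + a₁ s - a₂`
(a slope of the tangent cone).  A point `(x, y)` with `v x < 1` is *on the branch `s`* if
`v (y - s x) < v x`.

* `branch_sub_val`: two distinct points on the same branch with `v x' = v x` differ by a point
  `(x'', y'')` with `1 ≤ v x''` (i.e. the difference does not reduce to the node).
* `branch_exists`: a point with `v a₄ < v x < 1` is on one of the two branches.
-/

set_option autoImplicit false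
set_option linter.unusedSectionVars false
set_option linter.unusedVariables false

namespace Fermat.Agent.S13

open WeierstrassCurve WeierstrassCurve.Affine

variable {K : Type*} [Field K] [DecidableEq K]
variable {Γ₀ : Type*} [LinearOrderedCommGroupWithZero Γ₀] (v : Valuation K Γ₀)

/-- `(2s + a₁)² = b₂` for a root `s` of `s² + a₁ s - a₂`. -/
lemma branch_disc_sq {W : WeierstrassCurve K} {s : K} (hs : s ^ 2 + W.a₁ * s - W.a₂ = 0) :
    (2 * s + W.a₁) ^ 2 = W.b₂ := by
  simp only [WeierstrassCurve.b₂]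
  linear_combination 4 * hs

/-- `v (2s + a₁) = 1` when `b₂` is a unit. -/
lemma branch_disc_val {W : WeierstrassCurve K} {s : K} (hs : s ^ 2 + W.a₁ * s - W.a₂ = 0)
    (hb₂ : v W.b₂ = 1) : v (2 * s + W.a₁) = 1 := by
  have h := congrArg v (branch_disc_sq hs)
  rw [map_pow, hb₂] at h
  exact (pow_eq_one_iff_of_nonneg zero_le (by norm_num)).1 h

/-- The other root of `s² + a₁ s - a₂`. -/
lemma branch_other_root {W : WeierstrassCurve K} {s : K} (hs : s ^ 2 + W.a₁ * s - W.a₂ = 0) :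
    (-W.a₁ - s) ^ 2 + W.a₁ * (-W.a₁ - s) - W.a₂ = 0 := by
  linear_combination hs

/-- A root of the monic integral polynomial `s² + a₁ s - a₂` is integral. -/
lemma branch_root_val_le {W : WeierstrassCurve K} (h₁ : v W.a₁ ≤ 1) (h₂ : v W.a₂ ≤ 1) {s : K}
    (hs : s ^ 2 + W.a₁ * s - W.a₂ = 0) : v s ≤ 1 := by
  by_contra hcon
  rw [not_le] at hcon
  have hs0 : 0 < v s := lt_trans zero_lt_one hcon
  have hl2 : v s < v (s ^ 2) := by
    rw [map_pow, sq]
    calc v s = 1 * v s := (one_mul _).symm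
      _ < v s * v s := mul_lt_mul_of_pos_right hcon hs0
  have ha : v (W.a₁ * s) < v (s ^ 2) := by
    rw [map_mul]
    calc v W.a₁ * v s ≤ 1 * v s := mul_le_mul' h₁ le_rfl
      _ = v s := one_mul _
      _ < v (s ^ 2) := hl2
  have e1 : v (s ^ 2 + W.a₁ * s) = v (s ^ 2) := v.map_add_eq_of_lt_left ha
  have e2 : v (s ^ 2 + W.a₁ * s - W.a₂) = v (s ^ 2) := by
    rw [v.map_sub_eq_of_lt_left (by rw [e1]; exact lt_of_le_of_lt h₂ (lt_trans hcon hl2)), e1]
  rw [hs, map_zero] at e2
  rw [← e2] at hl2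
  exact not_lt_zero hl2

/-- The curve equation in branch form: `(y - s x)(y - s' x) = x (x² + a₄)`. -/
lemma branch_factor {W : WeierstrassCurve K} (ha₃ : W.a₃ = 0) (ha₆ : W.a₆ = 0) {s : K}
    (hs : s ^ 2 + W.a₁ * s - W.a₂ = 0) {x y : K} (h : W.toAffine.Equation x y) :
    (y - s * x) * (y - (-W.a₁ - s) * x) = x * (x ^ 2 + W.a₄) := by
  have e := (Affine.equation_iff x y).1 h
  rw [ha₃, ha₆] at e
  linear_combination e - x ^ 2 * hs

/-- A point with `v a₄ < v x < 1` lies on one of the two branches. -/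
theorem branch_exists {W : WeierstrassCurve K} (ha₃ : W.a₃ = 0) (ha₆ : W.a₆ = 0) {s : K}
    (hs : s ^ 2 + W.a₁ * s - W.a₂ = 0) {x y : K} (h : W.toAffine.Equation x y)
    (hx1 : v x < 1) (hx4 : v W.a₄ < v x) :
    v (y - s * x) < v x ∨ v (y - (-W.a₁ - s) * x) < v x := by
  have hx0 : 0 < v x := lt_of_le_of_lt zero_le hx4
  have hf := congrArg v (branch_factor ha₃ ha₆ hs h)
  rw [map_mul, map_mul] at hf
  have hx2 : v (x ^ 2) < v x := by
    rw [map_pow, sq]
    calc v x * v x < 1 * v x := mul_lt_mul_of_pos_right hx1 hx0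
      _ = v x := one_mul _
  have hlt : v (x ^ 2 + W.a₄) < v x := v.map_add_lt hx2 hx4
  by_contra hcon
  rw [not_or, not_lt, not_lt] at hcon
  have : v x * v x < v x * v x := by
    calc v x * v x ≤ v (y - s * x) * v (y - (-W.a₁ - s) * x) := mul_le_mul' hcon.1 hcon.2
      _ = v x * v (x ^ 2 + W.a₄) := hf
      _ < v x * v x := mul_lt_mul_of_pos_left hlt hx0
  exact lt_irrefl _ this

/-- The two branches are disjoint. -/
theorem branch_disjoint {W : WeierstrassCurve K} (hb₂ : v W.b₂ = 1) {s : K}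
    (hs : s ^ 2 + W.a₁ * s - W.a₂ = 0) {x y : K}
    (h1 : v (y - s * x) < v x) : ¬ v (y - (-W.a₁ - s) * x) < v x := by
  intro h2
  have e : (2 * s + W.a₁) * x = (y - (-W.a₁ - s) * x) - (y - s * x) := by ring
  have hv : v ((2 * s + W.a₁) * x) = v x := by
    rw [map_mul, branch_disc_val v hs hb₂, one_mul]
  rw [e] at hv
  have := v.map_sub_lt h2 h1
  rw [hv] at this
  exact lt_irrefl _ this

/-- **Branch lemma.** Two distinct points on the same branch of the node, with the same `v x`,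
differ by a point which does not reduce to the node. More precisely
`v x'' = (v x / v (x' - x))²` if `x' ≠ x`. -/
theorem branch_sub_val {W : WeierstrassCurve K} (ha₃ : W.a₃ = 0)
    (hb₂ : v W.b₂ = 1) {s : K} (hs : s ^ 2 + W.a₁ * s - W.a₂ = 0)
    {x y x' y' : K} (h : W.toAffine.Nonsingular x y) (h' : W.toAffine.Nonsingular x' y')
    (hx0 : x ≠ 0) (hx1 : v x < 1) (hxx : v x' = v x)
    (hb : v (y - s * x) < v x) (hb' : v (y' - s * x') < v x')
    (hne : Point.some x' y' h' ≠ Point.some x y h) :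
    ∃ (x'' y'' : K) (h'' : W.toAffine.Nonsingular x'' y''),
      Point.some x' y' h' - Point.some x y h = Point.some x'' y'' h'' ∧ 1 ≤ v x'' := by
  have hvx0 : 0 < v x := by rw [v.pos_iff]; exact hx0
  have hdisc := branch_disc_val v hs hb₂
  have hxe : x' ≠ x := by
    intro hxe
    have hxe' : x = x' := hxe.symm
    subst hxe'
    rcases Affine.Y_eq_of_X_eq h'.1 h.1 rfl with h1 | h1
    · subst h1; exact hne rfl
    · subst h1
      -- `negY x y - s x = -(y - s x) - (2s + a₁) x`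
      have e : W.toAffine.negY x y - s * x = -((2 * s + W.a₁) * x) - (y - s * x) := by
        simp only [Affine.negY, ha₃]; ring
      have hv : v ((2 * s + W.a₁) * x) = v x := by rw [map_mul, hdisc, one_mul]
      rw [e, v.map_sub_eq_of_lt_left (by rw [v.map_neg, hv]; exact hb), v.map_neg, hv] at hb'
      exact lt_irrefl _ hb'
  obtain ⟨x₃, y₃, h₃, hsub, hX⟩ := sub_xy_of_X_ne h h' hxe
  refine ⟨x₃, y₃, h₃, hsub, ?_⟩
  have hd : x' - x ≠ 0 := sub_ne_zero.2 hxe
  have hd0 : 0 < v (x' - x) := by rw [v.pos_iff]; exact hd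
  have hdle : v (x' - x) ≤ v x := by
    apply le_trans (v.map_sub_le (le_of_eq hxx) le_rfl) le_rfl
  -- `μ = ((2s + a₁) x + u + u') / (x' - x)`, `λ = s + μ`
  set u := y - s * x with hu
  set u' := y' - s * x' with hu'
  set μ := ((2 * s + W.a₁) * x + u + u') / (x' - x) with hμ
  have hlam : (y' - W.toAffine.negY x y) / (x' - x) = s + μ := by
    rw [hμ, hu, hu']
    simp only [Affine.negY, ha₃]
    field_simp
    ring
  have hN : v ((2 * s + W.a₁) * x + u + u') = v x := by
    have hv : v ((2 * s + W.a₁) * x) = v x := by rw [map_mul, hdisc, one_mul]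
    have e1 : v ((2 * s + W.a₁) * x + u) = v x := by
      rw [v.map_add_eq_of_lt_left (by rw [hv]; exact hb), hv]
    rw [v.map_add_eq_of_lt_left (by rw [e1, ← hxx]; exact hb'), e1]
  have hμv : v μ = v x / v (x' - x) := by
    rw [hμ, map_div₀, hN]
  have hμ1 : 1 ≤ v μ := by
    rw [hμv]
    exact (one_le_div₀ hd0).2 hdle
  -- `μ + (2s + a₁) = ((2s + a₁) x' + u + u') / (x' - x)`
  have hN' : v ((2 * s + W.a₁) * x' + u + u') = v x := by
    have hv : v ((2 * s + W.a₁) * x') = v x := by rw [map_mul, hdisc, one_mul, hxx]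
    have e1 : v ((2 * s + W.a₁) * x' + u) = v x := by
      rw [v.map_add_eq_of_lt_left (by rw [hv]; exact hb), hv]
    rw [v.map_add_eq_of_lt_left (by rw [e1, ← hxx]; exact hb'), e1]
  have hμ2 : v (μ + (2 * s + W.a₁)) = v x / v (x' - x) := by
    have e : μ + (2 * s + W.a₁) = ((2 * s + W.a₁) * x' + u + u') / (x' - x) := by
      rw [hμ]
      field_simp
      ring
    rw [e, map_div₀, hN']
  have hX' : x₃ = μ * (μ + (2 * s + W.a₁)) - (x' + x) := by
    rw [hX, hlam]
    linear_combination hs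
  have hprod : 1 ≤ v (μ * (μ + (2 * s + W.a₁))) := by
    rw [map_mul, hμ2, ← hμv]
    calc (1 : Γ₀) = 1 * 1 := (one_mul 1).symm
      _ ≤ v μ * v μ := mul_le_mul' hμ1 hμ1
  have hsum : v (x' + x) < 1 := by
    apply lt_of_le_of_lt (v.map_add_le (le_of_eq hxx) le_rfl) hx1
  rw [hX', v.map_sub_eq_of_lt_left (lt_of_lt_of_le hsum hprod)]
  exact hprod

end Fermat.Agent.S13


end ZBS13_008_0

/-! ### bundled: `Fermat.Agent.S13.Local.AtTwoVal` -/
section ZBS13_008_1

/-!
# S13, piece P4 (pure valuation part)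

For `W : y² + a₁xy = x³ + a₂x² + a₄x` with integral coefficients, `v b₂ = 1`, `v a₄ < 1`
(node at the origin modulo the maximal ideal, any residue characteristic):
a point with `v x = 1` has nonsingular reduction (`nonsing_of_unit_x`).
-/

set_option autoImplicit false
set_option linter.unusedSectionVars false
set_option linter.unusedVariables false

namespace Fermat.Agent.S13

open WeierstrassCurve WeierstrassCurve.Affine

variable {K : Type*} [Field K] [DecidableEq K]
variable {Γ₀ : Type*} [LinearOrderedCommGroupWithZero Γ₀] (v : Valuation K Γ₀)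

lemma polyY_sq {W : WeierstrassCurve K} (ha₃ : W.a₃ = 0) (ha₆ : W.a₆ = 0) {x y : K}
    (h : W.toAffine.Equation x y) :
    polyY W x y ^ 2 = x * (4 * x ^ 2 + W.b₂ * x + 4 * W.a₄) := by
  have e := (Affine.equation_iff x y).1 h
  rw [ha₃, ha₆] at e
  simp only [polyY, ha₃, WeierstrassCurve.b₂]
  linear_combination 4 * e

lemma polyX_polyY_comb {W : WeierstrassCurve K} (ha₃ : W.a₃ = 0) (x y : K) :
    2 * polyX W x y + W.a₁ * polyY W x y = 6 * x ^ 2 + W.b₂ * x + 2 * W.a₄ := by
  simp only [polyX, polyY, ha₃, WeierstrassCurve.b₂]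
  ring

lemma polyX_val_le {W : WeierstrassCurve K} (h₁ : v W.a₁ ≤ 1) (h₂ : v W.a₂ ≤ 1)
    (h₄ : v W.a₄ ≤ 1) {x y : K} (hx : v x ≤ 1) (hy : v y ≤ 1) : v (polyX W x y) ≤ 1 := by
  simp only [polyX]
  refine v.map_sub_le (v.map_add_le (v.map_add_le ?_ ?_) h₄) (keyAny_mul_le_one v h₁ hy)
  · exact keyAny_mul_le_one v (keyAny_val_three_le v) (keyAny_pow_le_one v hx 2)
  · exact keyAny_mul_le_one v (keyAny_mul_le_one v (keyAny_val_two_le v) h₂) hx

/-- A point with unit `x`-coordinate has nonsingular reduction. -/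
theorem nonsing_of_unit_x {W : WeierstrassCurve K} (ha₃ : W.a₃ = 0) (ha₆ : W.a₆ = 0)
    (h₁ : v W.a₁ ≤ 1) (h₂ : v W.a₂ ≤ 1) (hb₂ : v W.b₂ = 1) (ha₄ : v W.a₄ < 1)
    {x y : K} (h : W.toAffine.Equation x y) (hx : v x = 1) (hy : v y ≤ 1) :
    v (polyY W x y) = 1 ∨ v (polyX W x y) = 1 := by
  have h₃ : v W.a₃ ≤ 1 := by rw [ha₃, map_zero]; exact zero_le_one
  have hYle := polyY_val_le v h₁ h₃ hx.le hy
  have hXle := polyX_val_le v h₁ h₂ ha₄.le hx.le hy
  by_contra hcon
  rw [not_or] at hcon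
  have hY : v (polyY W x y) < 1 := lt_of_le_of_ne hYle hcon.1
  have hX : v (polyX W x y) < 1 := lt_of_le_of_ne hXle hcon.2
  have h2le := keyAny_val_two_le v
  -- `4x² + b₂x + 4a₄ ∈ 𝔪`
  have hA : v (4 * x ^ 2 + W.b₂ * x + 4 * W.a₄) < 1 := by
    have e := congrArg v (polyY_sq ha₃ ha₆ h)
    rw [map_pow, map_mul, hx, one_mul] at e
    rw [← e]
    exact pow_lt_one₀ zero_le hY (by norm_num)
  -- `6x² + b₂x + 2a₄ ∈ 𝔪`
  have hB : v (6 * x ^ 2 + W.b₂ * x + 2 * W.a₄) < 1 := by
    rw [← polyX_polyY_comb ha₃]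
    exact v.map_add_lt (keyAny_mul_lt_one v h2le hX) (keyAny_mul_lt_one v h₁ hY)
  have h2a : v (2 * W.a₄) < 1 := keyAny_mul_lt_one v h2le ha₄
  -- `2x² ∈ 𝔪`, hence `2 ∈ 𝔪`
  have h2x : v (2 * x ^ 2) < 1 := by
    have e : 2 * x ^ 2 = (6 * x ^ 2 + W.b₂ * x + 2 * W.a₄) -
        (4 * x ^ 2 + W.b₂ * x + 4 * W.a₄) + 2 * W.a₄ := by ring
    rw [e]
    exact v.map_add_lt (v.map_sub_lt hB hA) h2a
  have h2 : v (2 : K) < 1 := by
    rwa [map_mul, map_pow, hx, one_pow, mul_one] at h2x
  have h4 : v (4 : K) < 1 := by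
    have : (4 : K) = 2 * 2 := by norm_num
    rw [this]
    exact keyAny_mul_lt_one v h2le h2
  -- `b₂ x ∈ 𝔪`
  have hbx : v (W.b₂ * x) < 1 := by
    have e : W.b₂ * x = (4 * x ^ 2 + W.b₂ * x + 4 * W.a₄) - 4 * x ^ 2 - 4 * W.a₄ := by ring
    rw [e]
    refine v.map_sub_lt (v.map_sub_lt hA ?_) ?_
    · rw [map_mul, map_pow, hx, one_pow, mul_one]; exact h4
    · exact keyAny_mul_lt_one v (le_of_lt h4) ha₄
  rw [map_mul, hb₂, hx, one_mul] at hbx
  exact lt_irrefl _ hbx

/-- For a point with `v x = 1`, the double has `v x₂ · v(polyY)² = 1`. -/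
lemma dbl_num_val {W : WeierstrassCurve K} (ha₄ : v W.a₄ < 1) {x : K} (hx : v x = 1) :
    v (x ^ 2 - W.a₄) = 1 := by
  rw [v.map_sub_eq_of_lt_left (by rw [map_pow, hx, one_pow]; exact ha₄), map_pow, hx, one_pow]

end Fermat.Agent.S13


end ZBS13_008_1
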