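/- GENERATED FILE (helper35, build-time optimisation, NOTES/ZB.md): verbatim concatenation of the modules
   Fermat.Agent.RED.UnipRoots
   Fermat.Agent.RED.UnipTwoRoots
   Fermat.Agent.RED.UnipTwo
   Fermat.Agent.RED.Unip
   Fermat.Agent.RED.UnipTate
   Fermat.Agent.RED.UnipTwoTate
   Do not edit; do not import together with these modules. -/
import Mathlib
import Fermat.Agent.ZB.S05_002
import Fermat.Agent.ZB.S13_008
import Fermat.Agent.ZB.EC_003
import Fermat.Agent.ZB.S13_007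
import Fermat.Agent.ZB.RED_003
import Fermat.Prelude.Def_FLTPrelim_Modularity
import Fermat.Agent.ZB.EC_007

/-! ### bundled: `Fermat.Agent.RED.UnipRoots` -/
section ZBRED_002_0

/-!
# Brick RED / EC-adic (c): root data at a multiplicative place of odd residue characteristic

`W` a Weierstrass curve over an algebraically closed field `L`, `v` a valuation with `v 2 = 1`,
integral coefficients, `v Δ < 1`, `Δ ≠ 0`, `v c₄ = 1`.  Then the 2-division cubic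
`4x³ + b₂x² + 2b₄x + b₆` is `4 (x - r₁)(x - r₁ - e₂)(x - r₁ - e₃)` with `r₁, e₂, e₃` integral,
`0 < v e₂ < 1` (a node at `x ≡ r₁`) and `e₃`, `e₃ - e₂` units (`exists_rootData`).
-/

set_option autoImplicit false
set_option linter.unusedSectionVars false

namespace Fermat.Agent.RED

open WeierstrassCurve Fermat.Agent.S05 Polynomial

variable {L : Type*} [Field L] [DecidableEq L]
variable {Γ₀ : Type*} [LinearOrderedCommGroupWithZero Γ₀] (v : Valuation L Γ₀)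

/-- A root of a cubic `4x³ + b₂x² + cx + d` with integral coefficients is integral. -/
theorem root_integral (h2 : v (2 : L) = 1) {b c d ρ : L} (hb : v b ≤ 1) (hc : v c ≤ 1)
    (hd : v d ≤ 1) (hρ : 4 * ρ ^ 3 + b * ρ ^ 2 + c * ρ + d = 0) : v ρ ≤ 1 := by
  by_contra hlt
  rw [not_le] at hlt
  have h4 : v (4 : L) = 1 := key_val_four v h2
  have h0 : (0 : Γ₀) < v ρ := lt_trans zero_lt_one hlt
  have h3 : v (4 * ρ ^ 3) = v ρ ^ 3 := by rw [map_mul, h4, one_mul, map_pow]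
  have hρ2 : v ρ ^ 2 < v ρ ^ 3 := by
    calc v ρ ^ 2 = 1 * v ρ ^ 2 := (one_mul _).symm
      _ < v ρ * v ρ ^ 2 := mul_lt_mul_of_pos_right hlt (pow_pos h0 2)
      _ = v ρ ^ 3 := (pow_succ' _ _).symm
  have hρ1 : v ρ < v ρ ^ 2 := by
    calc v ρ = 1 * v ρ := (one_mul _).symm
      _ < v ρ * v ρ := mul_lt_mul_of_pos_right hlt h0
      _ = v ρ ^ 2 := (sq _).symm
  have e1 : v (b * ρ ^ 2) < v ρ ^ 3 := by
    rw [map_mul, map_pow]
    calc v b * v ρ ^ 2 ≤ 1 * v ρ ^ 2 := by gcongr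
      _ = v ρ ^ 2 := one_mul _
      _ < v ρ ^ 3 := hρ2
  have e2 : v (c * ρ) < v ρ ^ 3 := by
    rw [map_mul]
    calc v c * v ρ ≤ 1 * v ρ := by gcongr
      _ = v ρ := one_mul _
      _ < v ρ ^ 2 := hρ1
      _ < v ρ ^ 3 := hρ2
  have e3 : v d < v ρ ^ 3 := lt_of_le_of_lt hd (lt_trans hlt (lt_trans hρ1 hρ2))
  have e : 4 * ρ ^ 3 + b * ρ ^ 2 + c * ρ + d = 4 * ρ ^ 3 + (b * ρ ^ 2 + (c * ρ + d)) := by ring
  have : v (4 * ρ ^ 3 + b * ρ ^ 2 + c * ρ + d) = v ρ ^ 3 := by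
    rw [e, v.map_add_eq_of_lt_left (by rw [h3]; exact v.map_add_lt e1 (v.map_add_lt e2 e3)), h3]
  rw [hρ, map_zero] at this
  exact (ne_of_gt (pow_pos h0 3)) this.symm

/-- Over an algebraically closed field a monic cubic splits. -/
theorem exists_three_roots_monic [IsAlgClosed L] (β γ δ : L) :
    ∃ ρ₁ ρ₂ ρ₃ : L, β = -(ρ₁ + ρ₂ + ρ₃) ∧ γ = ρ₁ * ρ₂ + ρ₁ * ρ₃ + ρ₂ * ρ₃ ∧
      δ = -(ρ₁ * ρ₂ * ρ₃) := by
  have hdeg : (C (1 : L) * X ^ 3 + C β * X ^ 2 + C γ * X + C δ).degree ≠ 0 := by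
    rw [degree_cubic one_ne_zero]; decide
  obtain ⟨ρ₁, hρ₁⟩ := IsAlgClosed.exists_root _ hdeg
  simp only [IsRoot.def, eval_add, eval_mul, eval_C, eval_pow, eval_X, one_mul] at hρ₁
  have hdeg2 : (C (1 : L) * X ^ 2 + C (ρ₁ + β) * X + C (ρ₁ ^ 2 + β * ρ₁ + γ)).degree ≠ 0 := by
    rw [degree_quadratic one_ne_zero]; decide
  obtain ⟨ρ₂, hρ₂⟩ := IsAlgClosed.exists_root _ hdeg2
  simp only [IsRoot.def, eval_add, eval_mul, eval_C, eval_pow, eval_X, one_mul] at hρ₂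
  refine ⟨ρ₁, ρ₂, -(ρ₁ + β) - ρ₂, ?_, ?_, ?_⟩
  · ring
  · linear_combination hρ₂
  · linear_combination hρ₁ - ρ₁ * hρ₂

/-- Over an algebraically closed field a cubic `4x³ + bx² + cx + d` splits (`4 ≠ 0`). -/
theorem exists_three_roots [IsAlgClosed L] (h4 : (4 : L) ≠ 0) (b c d : L) :
    ∃ ρ₁ ρ₂ ρ₃ : L, b = -4 * (ρ₁ + ρ₂ + ρ₃) ∧ c = 4 * (ρ₁ * ρ₂ + ρ₁ * ρ₃ + ρ₂ * ρ₃) ∧
      d = -4 * (ρ₁ * ρ₂ * ρ₃) := by
  obtain ⟨ρ₁, ρ₂, ρ₃, h1, h2, h3⟩ := exists_three_roots_monic (b / 4) (c / 4) (d / 4)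
  refine ⟨ρ₁, ρ₂, ρ₃, ?_, ?_, ?_⟩
  · rw [div_eq_iff h4] at h1
    linear_combination h1
  · rw [div_eq_iff h4] at h2
    linear_combination h2
  · rw [div_eq_iff h4] at h3
    linear_combination h3

/-- Symmetric helper: the roots `ρ₂, ρ₃` are close. -/
theorem rootData_of_close (W : WeierstrassCurve L) (h2 : v (2 : L) = 1)
    {ρ₁ ρ₂ ρ₃ : L} (hb₂ : W.b₂ = -4 * (ρ₁ + ρ₂ + ρ₃))
    (hb₄ : W.b₄ = 2 * (ρ₁ * ρ₂ + ρ₁ * ρ₃ + ρ₂ * ρ₃)) (hb₆ : W.b₆ = -4 * (ρ₁ * ρ₂ * ρ₃))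
    (h₁ : v ρ₁ ≤ 1) (h₂ : v ρ₂ ≤ 1) (h₃ : v ρ₃ ≤ 1)
    (hΔ0 : W.Δ ≠ 0) (hc₄ : v W.c₄ = 1) (h23 : v (ρ₂ - ρ₃) < 1) :
    ∃ r₁ e₂ e₃ : L, RootData W r₁ e₂ e₃ ∧ v r₁ ≤ 1 ∧ v e₂ < 1 ∧ e₂ ≠ 0 ∧ v e₃ = 1 ∧
      v (e₃ - e₂) = 1 := by
  have h8 : v (8 : L) = 1 := by
    have : (8 : L) = 2 * 2 * 2 := by norm_num
    rw [this, map_mul, map_mul, h2, one_mul, one_mul]
  have hc₄eq : W.c₄ = 8 * ((ρ₁ - ρ₂) ^ 2 + (ρ₁ - ρ₃) ^ 2 + (ρ₂ - ρ₃) ^ 2) := by
    rw [WeierstrassCurve.c₄, hb₂, hb₄]; ring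
  have hΔeq : W.Δ = 16 * ((ρ₁ - ρ₂) * (ρ₁ - ρ₃) * (ρ₂ - ρ₃)) ^ 2 := by
    have hrel := W.b_relation
    rw [hb₂, hb₄, hb₆] at hrel
    rw [WeierstrassCurve.Δ, hb₂, hb₄, hb₆]
    linear_combination (-4 * (ρ₁ + ρ₂ + ρ₃) ^ 2) * hrel
  have hd12 : v (ρ₁ - ρ₂) ≤ 1 := v.map_sub_le h₁ h₂
  have hd13 : v (ρ₁ - ρ₃) ≤ 1 := v.map_sub_le h₁ h₃
  -- both other differences are units
  have hsmall : ∀ {a b c : L}, v a < 1 → v b < 1 → v c < 1 →
      v (8 * (a ^ 2 + b ^ 2 + c ^ 2)) < 1 := by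
    intro a b c ha hb hc
    rw [map_mul, h8, one_mul]
    have hsq : ∀ {z : L}, v z < 1 → v (z ^ 2) < 1 := by
      intro z hz
      rw [map_pow]
      exact pow_lt_one₀ zero_le hz two_ne_zero
    exact v.map_add_lt (v.map_add_lt (hsq ha) (hsq hb)) (hsq hc)
  have hu12 : v (ρ₁ - ρ₂) = 1 := by
    rcases hd12.lt_or_eq with hlt | heq
    · exfalso
      have h13 : v (ρ₁ - ρ₃) < 1 := by
        have : ρ₁ - ρ₃ = (ρ₁ - ρ₂) + (ρ₂ - ρ₃) := by ring
        rw [this]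
        exact v.map_add_lt hlt h23
      have := hsmall hlt h13 h23
      rw [← hc₄eq, hc₄] at this
      exact lt_irrefl _ this
    · exact heq
  have hu13 : v (ρ₁ - ρ₃) = 1 := by
    rcases hd13.lt_or_eq with hlt | heq
    · exfalso
      have h12 : v (ρ₁ - ρ₂) < 1 := by
        have : ρ₁ - ρ₂ = (ρ₁ - ρ₃) - (ρ₂ - ρ₃) := by ring
        rw [this]
        exact v.map_sub_lt hlt h23
      rw [hu12] at h12
      exact lt_irrefl _ h12
    · exact heq
  refine ⟨ρ₂, ρ₃ - ρ₂, ρ₁ - ρ₂, ⟨?_, ?_, ?_⟩, h₂, ?_, ?_, hu12, ?_⟩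
  · rw [hb₂]; ring
  · rw [hb₄]; ring
  · rw [hb₆]; ring
  · rw [← Valuation.map_neg, neg_sub]; exact h23
  · intro h0
    apply hΔ0
    rw [hΔeq]
    have : ρ₂ - ρ₃ = 0 := by linear_combination (-1 : L) * h0
    rw [this]; ring
  · have : ρ₁ - ρ₂ - (ρ₃ - ρ₂) = ρ₁ - ρ₃ := by ring
    rw [this]; exact hu13

/-- **Root data at a multiplicative place** (odd residue characteristic). -/
theorem exists_rootData [IsAlgClosed L] (W : WeierstrassCurve L) (h2 : v (2 : L) = 1)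
    (hb₂ : v W.b₂ ≤ 1) (hb₄ : v W.b₄ ≤ 1) (hb₆ : v W.b₆ ≤ 1)
    (hΔ0 : W.Δ ≠ 0) (hΔ : v W.Δ < 1) (hc₄ : v W.c₄ = 1) :
    ∃ r₁ e₂ e₃ : L, RootData W r₁ e₂ e₃ ∧ v r₁ ≤ 1 ∧ v e₂ < 1 ∧ e₂ ≠ 0 ∧ v e₃ = 1 ∧
      v (e₃ - e₂) = 1 := by
  have h20 : (2 : L) ≠ 0 := key_val_two_ne_zero v h2
  have h4v : v (4 : L) = 1 := key_val_four v h2
  have h40 : (4 : L) ≠ 0 := by
    intro h0; rw [h0, map_zero] at h4v; exact zero_ne_one h4v
  obtain ⟨ρ₁, ρ₂, ρ₃, e₂, e₄, e₆⟩ := exists_three_roots h40 W.b₂ (2 * W.b₄) W.b₆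
  have e₄' : W.b₄ = 2 * (ρ₁ * ρ₂ + ρ₁ * ρ₃ + ρ₂ * ρ₃) := by
    apply mul_left_cancel₀ h20
    linear_combination e₄
  have h2b₄ : v (2 * W.b₄) ≤ 1 := by rw [map_mul, h2, one_mul]; exact hb₄
  have hr₁ : v ρ₁ ≤ 1 := root_integral v h2 hb₂ h2b₄ hb₆ (by rw [e₂, e₄, e₆]; ring)
  have hr₂ : v ρ₂ ≤ 1 := root_integral v h2 hb₂ h2b₄ hb₆ (by rw [e₂, e₄, e₆]; ring)
  have hr₃ : v ρ₃ ≤ 1 := root_integral v h2 hb₂ h2b₄ hb₆ (by rw [e₂, e₄, e₆]; ring)
  have hΔeq : W.Δ = 16 * ((ρ₁ - ρ₂) * (ρ₁ - ρ₃) * (ρ₂ - ρ₃)) ^ 2 := by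
    have hrel := W.b_relation
    rw [e₂, e₄', e₆] at hrel
    rw [WeierstrassCurve.Δ, e₂, e₄', e₆]
    linear_combination (-4 * (ρ₁ + ρ₂ + ρ₃) ^ 2) * hrel
  have h16 : v (16 : L) = 1 := by
    have : (16 : L) = 4 * 4 := by norm_num
    rw [this, map_mul, h4v, one_mul]
  have hprod : v ((ρ₁ - ρ₂) * (ρ₁ - ρ₃) * (ρ₂ - ρ₃)) < 1 := by
    rw [hΔeq, map_mul, h16, one_mul, map_pow] at hΔ
    by_contra hge
    rw [not_lt] at hge
    have := one_le_pow₀ hge (n := 2)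
    exact absurd hΔ (not_lt.2 this)
  have hd12 : v (ρ₁ - ρ₂) ≤ 1 := v.map_sub_le hr₁ hr₂
  have hd13 : v (ρ₁ - ρ₃) ≤ 1 := v.map_sub_le hr₁ hr₃
  have hd23 : v (ρ₂ - ρ₃) ≤ 1 := v.map_sub_le hr₂ hr₃
  rcases hd23.lt_or_eq with h23 | h23
  · exact rootData_of_close v W h2 e₂ e₄' e₆ hr₁ hr₂ hr₃ hΔ0 hc₄ h23
  rcases hd13.lt_or_eq with h13 | h13
  · -- `ρ₁, ρ₃` close: use the order `(ρ₂, ρ₁, ρ₃)`
    exact rootData_of_close v W h2 (ρ₁ := ρ₂) (ρ₂ := ρ₁) (ρ₃ := ρ₃)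
      (by rw [e₂]; ring) (by rw [e₄']; ring) (by rw [e₆]; ring) hr₂ hr₁ hr₃ hΔ0 hc₄ h13
  rcases hd12.lt_or_eq with h12 | h12
  · -- `ρ₁, ρ₂` close: use the order `(ρ₃, ρ₁, ρ₂)`
    exact rootData_of_close v W h2 (ρ₁ := ρ₃) (ρ₂ := ρ₁) (ρ₃ := ρ₂)
      (by rw [e₂]; ring) (by rw [e₄']; ring) (by rw [e₆]; ring) hr₃ hr₁ hr₂ hΔ0 hc₄ h12
  · exfalso
    rw [map_mul, map_mul, h12, h13, h23] at hprod
    simp at hprod

end Fermat.Agent.RED


end ZBRED_002_0

/-! ### bundled: `Fermat.Agent.RED.UnipTwoRoots` -/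
section ZBRED_002_1

/-!
# Brick RED / EC-adic (c) at residue characteristic 2: root data

`W` a Weierstrass curve over an algebraically closed field `L`, `v` a valuation with `v 2 < 1`,
`2 ≠ 0`, integral coefficients, `v b₂ = 1` (equivalently `v c₄ = 1`), `Δ ≠ 0`, `v Δ < 1`
(multiplicative reduction at a place above `2`).

* `two_exists_integral_root`: the 2-division cubic `4x³ + b₂x² + 2b₄x + b₆` has an integral
  root `xT`.  With `yT := -(a₁ xT + a₃) / 2` the point `T = (xT, yT)` is a point of order 2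
  reducing to the node.
* `twoVC xT yT`: the translation moving `T` to the origin; the translated curve
  `twoVC xT yT • W` is `y² + a₁xy = x³ + a₂''x² + a₄''x` with `v b₂'' = 1`, `0 < v a₄'' < 1`
  (`two_data`).
* `two_root_close`: every integral root `x'` of the cubic has
  `v (x' - xT) ≤ v 4 * v a₄''`.
-/

set_option autoImplicit false
set_option linter.unusedSectionVars false
set_option linter.unusedVariables false

namespace Fermat.Agent.RED

open WeierstrassCurve Fermat.Agent.S13 Fermat.Agent.EC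

variable {L : Type*} [Field L] [DecidableEq L]
variable {Γ₀ : Type*} [LinearOrderedCommGroupWithZero Γ₀] (v : Valuation L Γ₀)

/-- A root of a monic quadratic with integral coefficients is integral. -/
theorem two_quad_integral {β γ y : L} (hβ : v β ≤ 1) (hγ : v γ ≤ 1)
    (h : y ^ 2 + β * y + γ = 0) : v y ≤ 1 := by
  by_contra hcon
  rw [not_le] at hcon
  have hs0 : 0 < v y := lt_trans zero_lt_one hcon
  have hl2 : v y < v (y ^ 2) := by
    rw [map_pow, sq]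
    calc v y = 1 * v y := (one_mul _).symm
      _ < v y * v y := mul_lt_mul_of_pos_right hcon hs0
  have ha : v (β * y) < v (y ^ 2) := by
    rw [map_mul]
    calc v β * v y ≤ 1 * v y := mul_le_mul' hβ le_rfl
      _ = v y := one_mul _
      _ < v (y ^ 2) := hl2
  have e1 : v (y ^ 2 + β * y) = v (y ^ 2) := v.map_add_eq_of_lt_left ha
  have e2 : v (y ^ 2 + β * y + γ) = v (y ^ 2) := by
    rw [v.map_add_eq_of_lt_left (by rw [e1]; exact lt_of_le_of_lt hγ (lt_trans hcon hl2)), e1]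
  rw [h, map_zero] at e2
  rw [← e2] at hl2
  exact not_lt_zero hl2

/-- If `ρ` is a non-integral root of `4x³ + bx² + 2cx + d` (`c, d` integral) then
`4ρ + b` lies in the maximal ideal. -/
theorem two_root_shift_lt {b c d ρ : L} (hc : v c ≤ 1) (hd : v d ≤ 1)
    (hρ : 4 * ρ ^ 3 + b * ρ ^ 2 + 2 * c * ρ + d = 0) (hlt : 1 < v ρ) : v (4 * ρ + b) < 1 := by
  have h0 : 0 < v ρ := lt_trans zero_lt_one hlt
  have e : ρ ^ 2 * (4 * ρ + b) = -(2 * c * ρ + d) := by linear_combination hρ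
  have h1 : v (2 * c * ρ + d) ≤ v ρ := by
    apply v.map_add_le
    · rw [map_mul]
      calc v (2 * c) * v ρ ≤ 1 * v ρ :=
            mul_le_mul' (keyAny_mul_le_one v (keyAny_val_two_le v) hc) le_rfl
        _ = v ρ := one_mul _
    · exact hd.trans hlt.le
  have h2 := congrArg v e
  rw [map_mul, map_pow, v.map_neg] at h2
  by_contra hge
  rw [not_lt] at hge
  have h3 : v ρ ^ 2 ≤ v ρ := by
    calc v ρ ^ 2 = v ρ ^ 2 * 1 := (mul_one _).symm
      _ ≤ v ρ ^ 2 * v (4 * ρ + b) := mul_le_mul' le_rfl hge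
      _ = v (2 * c * ρ + d) := h2
      _ ≤ v ρ := h1
  have h4 : v ρ < v ρ ^ 2 := by
    rw [sq]
    calc v ρ = 1 * v ρ := (one_mul _).symm
      _ < v ρ * v ρ := mul_lt_mul_of_pos_right hlt h0
  exact absurd h4 (not_lt.2 h3)

/-- **An integral root of the 2-division cubic** at a place above `2` with `v b = 1`. -/
theorem two_exists_integral_root [IsAlgClosed L] (h40 : (4 : L) ≠ 0) (h2 : v (2 : L) < 1)
    {b c d : L} (hb : v b = 1) (hc : v c ≤ 1) (hd : v d ≤ 1) :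
    ∃ ρ : L, v ρ ≤ 1 ∧ 4 * ρ ^ 3 + b * ρ ^ 2 + 2 * c * ρ + d = 0 := by
  obtain ⟨ρ₁, ρ₂, ρ₃, e₂, e₄, e₆⟩ := exists_three_roots h40 b (2 * c) d
  have r₁ : 4 * ρ₁ ^ 3 + b * ρ₁ ^ 2 + 2 * c * ρ₁ + d = 0 := by rw [e₂, e₄, e₆]; ring
  have r₂ : 4 * ρ₂ ^ 3 + b * ρ₂ ^ 2 + 2 * c * ρ₂ + d = 0 := by rw [e₂, e₄, e₆]; ring
  have r₃ : 4 * ρ₃ ^ 3 + b * ρ₃ ^ 2 + 2 * c * ρ₃ + d = 0 := by rw [e₂, e₄, e₆]; ring
  by_contra hcon
  have h₁ : 1 < v ρ₁ := by
    by_contra h; exact hcon ⟨ρ₁, not_lt.1 h, r₁⟩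
  have h₂ : 1 < v ρ₂ := by
    by_contra h; exact hcon ⟨ρ₂, not_lt.1 h, r₂⟩
  have h₃ : 1 < v ρ₃ := by
    by_contra h; exact hcon ⟨ρ₃, not_lt.1 h, r₃⟩
  have m₁ := two_root_shift_lt v hc hd r₁ h₁
  have m₂ := two_root_shift_lt v hc hd r₂ h₂
  have m₃ := two_root_shift_lt v hc hd r₃ h₃
  have key : b ^ 2 = (4 * ρ₁ + b) * (4 * ρ₂ + b) + (4 * ρ₁ + b) * (4 * ρ₃ + b) +
      (4 * ρ₂ + b) * (4 * ρ₃ + b) - 8 * c := by
    linear_combination (-2 * b) * e₂ + 4 * e₄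
  have h8 : v (8 * c) < 1 := by
    have : (8 : L) * c = 2 * (4 * c) := by ring
    rw [this, map_mul]
    have h4c : v (4 * c) ≤ 1 := by
      have : (4 : L) = 2 * 2 := by norm_num
      rw [this]
      exact keyAny_mul_le_one v (keyAny_mul_le_one v h2.le h2.le) hc
    calc v 2 * v (4 * c) ≤ v 2 * 1 := mul_le_mul' le_rfl h4c
      _ = v 2 := mul_one _
      _ < 1 := h2
  have hlt : v (b ^ 2) < 1 := by
    rw [key]
    exact v.map_sub_lt (v.map_add_lt (v.map_add_lt (keyAny_mul_lt_one v m₁.le m₂)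
      (keyAny_mul_lt_one v m₁.le m₃)) (keyAny_mul_lt_one v m₂.le m₃)) h8
  rw [map_pow, hb, one_pow] at hlt
  exact lt_irrefl _ hlt

/-! ### The translation moving a point of order 2 to the origin -/

/-- translation by the point `(xT, yT)` -/
def twoVC (xT yT : L) : VariableChange L := ⟨1, xT, 0, yT⟩

variable (W : WeierstrassCurve L) (xT yT : L)

lemma twoVC_a₁ : (twoVC xT yT • W).a₁ = W.a₁ := by
  simp [twoVC, variableChange_a₁]

lemma twoVC_a₂ : (twoVC xT yT • W).a₂ = W.a₂ + 3 * xT := by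
  simp [twoVC, variableChange_a₂]

lemma twoVC_a₃ : (twoVC xT yT • W).a₃ = 2 * yT + W.a₁ * xT + W.a₃ := by
  simp [twoVC, variableChange_a₃]; ring

lemma twoVC_a₄ : (twoVC xT yT • W).a₄ = W.a₄ + 2 * W.a₂ * xT + 3 * xT ^ 2 - W.a₁ * yT := by
  simp [twoVC, variableChange_a₄]; ring

lemma twoVC_a₆ : (twoVC xT yT • W).a₆ =
    W.a₆ + xT * W.a₄ + xT ^ 2 * W.a₂ + xT ^ 3 - yT * W.a₃ - yT ^ 2 - xT * yT * W.a₁ := by
  simp [twoVC, variableChange_a₆]

lemma twoVC_b₂ : (twoVC xT yT • W).b₂ = W.b₂ + 12 * xT := by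
  simp [twoVC, variableChange_b₂]

lemma twoVC_Δ : (twoVC xT yT • W).Δ = W.Δ := by
  simp [twoVC, variableChange_Δ]

lemma twoVC_vcX (x : L) : vcX (twoVC xT yT) x = x + xT := by
  simp [vcX, twoVC]

lemma twoVC_vcY (x y : L) : vcY (twoVC xT yT) x y = y + yT := by
  simp [vcY, twoVC]

lemma twoVC_polyY (x y : L) :
    polyY (twoVC xT yT • W) (x - xT) (y - yT) = polyY W x y := by
  simp only [polyY, twoVC_a₁, twoVC_a₃]; ring

lemma twoVC_polyX (x y : L) :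
    polyX (twoVC xT yT • W) (x - xT) (y - yT) = polyX W x y := by
  simp only [polyX, twoVC_a₁, twoVC_a₂, twoVC_a₄]; ring

/-- The discriminant of `y² + a₁xy = x³ + a₂x² + a₄x`. -/
lemma two_Δ_eq {W : WeierstrassCurve L} (ha₃ : W.a₃ = 0) (ha₆ : W.a₆ = 0) :
    W.Δ = W.a₄ ^ 2 * (W.b₂ ^ 2 - 64 * W.a₄) := by
  simp only [WeierstrassCurve.Δ, WeierstrassCurve.b₂, WeierstrassCurve.b₄, WeierstrassCurve.b₆,
    WeierstrassCurve.b₈, ha₃, ha₆]
  ring

/-- `(xT, yT)` is a point of order 2: `η = 0` and `xT` is a root of the 2-division cubic. -/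
structure TwoData (W : WeierstrassCurve L) (xT yT : L) : Prop where
  hη : 2 * yT + W.a₁ * xT + W.a₃ = 0
  hcub : 4 * xT ^ 3 + W.b₂ * xT ^ 2 + 2 * W.b₄ * xT + W.b₆ = 0

variable {W xT yT}

lemma TwoData.a₃_eq (hT : TwoData W xT yT) : (twoVC xT yT • W).a₃ = 0 := by
  rw [twoVC_a₃]; exact hT.hη

lemma TwoData.a₆_eq (hT : TwoData W xT yT) (h40 : (4 : L) ≠ 0) :
    (twoVC xT yT • W).a₆ = 0 := by
  rw [twoVC_a₆]
  apply mul_left_cancel₀ h40
  have h1 := hT.hη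
  have h2 := hT.hcub
  simp only [WeierstrassCurve.b₂, WeierstrassCurve.b₄, WeierstrassCurve.b₆] at h2
  linear_combination h2 - (2 * yT + W.a₁ * xT + W.a₃) * h1

/-- `2 a₄'' = 6 xT² + b₂ xT + b₄`. -/
lemma TwoData.two_a₄ (hT : TwoData W xT yT) :
    2 * (twoVC xT yT • W).a₄ = 6 * xT ^ 2 + W.b₂ * xT + W.b₄ := by
  rw [twoVC_a₄]
  have h1 := hT.hη
  simp only [WeierstrassCurve.b₂, WeierstrassCurve.b₄]
  linear_combination (-W.a₁) * h1

/-- `yT` is integral. -/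
lemma TwoData.val_y_le (hT : TwoData W xT yT) (h40 : (4 : L) ≠ 0)
    (h₁ : v W.a₁ ≤ 1) (h₂ : v W.a₂ ≤ 1) (h₃ : v W.a₃ ≤ 1) (h₄ : v W.a₄ ≤ 1) (h₆ : v W.a₆ ≤ 1)
    (hx : v xT ≤ 1) : v yT ≤ 1 := by
  have e := hT.a₆_eq h40
  rw [twoVC_a₆] at e
  have hβ : v (W.a₁ * xT + W.a₃) ≤ 1 := v.map_add_le (keyAny_mul_le_one v h₁ hx) h₃
  have hγ : v (-(xT ^ 3 + W.a₂ * xT ^ 2 + W.a₄ * xT + W.a₆)) ≤ 1 := by
    rw [v.map_neg]
    exact v.map_add_le (v.map_add_le (v.map_add_le (keyAny_pow_le_one v hx 3)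
      (keyAny_mul_le_one v h₂ (keyAny_pow_le_one v hx 2))) (keyAny_mul_le_one v h₄ hx)) h₆
  exact two_quad_integral v hβ hγ (by linear_combination -e)

/-- **The translated curve** has a node at the origin. -/
theorem two_data (hT : TwoData W xT yT) (h40 : (4 : L) ≠ 0) (h2 : v (2 : L) < 1)
    (h₁ : v W.a₁ ≤ 1) (h₂ : v W.a₂ ≤ 1) (h₃ : v W.a₃ ≤ 1) (h₄ : v W.a₄ ≤ 1) (h₆ : v W.a₆ ≤ 1)
    (hb₂ : v W.b₂ = 1) (hΔ0 : W.Δ ≠ 0) (hΔ : v W.Δ < 1) (hx : v xT ≤ 1) :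
    v (twoVC xT yT • W).a₂ ≤ 1 ∧ v (twoVC xT yT • W).b₂ = 1 ∧
      v (twoVC xT yT • W).a₄ < 1 ∧ (twoVC xT yT • W).a₄ ≠ 0 := by
  have hy := hT.val_y_le v h40 h₁ h₂ h₃ h₄ h₆ hx
  have h2le := keyAny_val_two_le v
  have h3le := keyAny_val_three_le v
  have ha₂ : v (twoVC xT yT • W).a₂ ≤ 1 := by
    rw [twoVC_a₂]
    exact v.map_add_le h₂ (keyAny_mul_le_one v h3le hx)
  have h12 : v (12 * xT) < 1 := by
    have : (12 : L) * xT = (6 * xT) * 2 := by ring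
    rw [this]
    refine keyAny_mul_lt_one v (keyAny_mul_le_one v ?_ hx) h2
    have : (6 : L) = 2 * 3 := by norm_num
    rw [this]
    exact keyAny_mul_le_one v h2le h3le
  have hb₂' : v (twoVC xT yT • W).b₂ = 1 := by
    rw [twoVC_b₂, v.map_add_eq_of_lt_left (by rw [hb₂]; exact h12), hb₂]
  have ha₄le : v (twoVC xT yT • W).a₄ ≤ 1 := by
    rw [twoVC_a₄]
    refine v.map_sub_le (v.map_add_le (v.map_add_le h₄ ?_) ?_) (keyAny_mul_le_one v h₁ hy)
    · exact keyAny_mul_le_one v (keyAny_mul_le_one v h2le h₂) hx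
    · exact keyAny_mul_le_one v h3le (keyAny_pow_le_one v hx 2)
  have hΔeq : W.Δ = (twoVC xT yT • W).a₄ ^ 2 *
      ((twoVC xT yT • W).b₂ ^ 2 - 64 * (twoVC xT yT • W).a₄) := by
    rw [← two_Δ_eq hT.a₃_eq (hT.a₆_eq h40), twoVC_Δ]
  refine ⟨ha₂, hb₂', ?_, ?_⟩
  · rcases ha₄le.lt_or_eq with hlt | heq
    · exact hlt
    · exfalso
      have h64 : v (64 * (twoVC xT yT • W).a₄) < 1 := by
        have : (64 : L) * (twoVC xT yT • W).a₄ = (32 * (twoVC xT yT • W).a₄) * 2 := by ring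
        rw [this]
        refine keyAny_mul_lt_one v (keyAny_mul_le_one v ?_ ha₄le) h2
        have : (32 : L) = 2 * 2 * 2 * 2 * 2 := by norm_num
        rw [this]
        exact keyAny_mul_le_one v (keyAny_mul_le_one v (keyAny_mul_le_one v
          (keyAny_mul_le_one v h2le h2le) h2le) h2le) h2le
      have hu : v ((twoVC xT yT • W).b₂ ^ 2 - 64 * (twoVC xT yT • W).a₄) = 1 := by
        rw [v.map_sub_eq_of_lt_left (by rw [map_pow, hb₂', one_pow]; exact h64), map_pow, hb₂',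
          one_pow]
      rw [hΔeq, map_mul, map_pow, heq, hu, one_pow, one_mul] at hΔ
      exact lt_irrefl _ hΔ
  · intro h0
    apply hΔ0
    rw [hΔeq, h0]
    ring

/-- **Closeness of the integral roots**: an integral root `x'` of the 2-division cubic has
`v (x' - xT) ≤ v 4 * v a₄''`. -/
theorem two_root_close (hT : TwoData W xT yT) (h2 : v (2 : L) < 1)
    (hb₂ : v W.b₂ = 1) (hx : v xT ≤ 1) {x' : L} (hx' : v x' ≤ 1)
    (hroot : 4 * x' ^ 3 + W.b₂ * x' ^ 2 + 2 * W.b₄ * x' + W.b₆ = 0) :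
    v (x' - xT) ≤ v 4 * v (twoVC xT yT • W).a₄ := by
  by_cases h0 : x' - xT = 0
  · rw [h0, map_zero]; exact zero_le
  have hfac : (x' - xT) * ((x' - xT) * (4 * (x' - xT) + (W.b₂ + 12 * xT)) +
      4 * (twoVC xT yT • W).a₄) = 0 := by
    have e := hT.two_a₄
    linear_combination hroot - hT.hcub + (2 * (x' - xT)) * e
  have hq : (x' - xT) * (4 * (x' - xT) + (W.b₂ + 12 * xT)) =
      -(4 * (twoVC xT yT • W).a₄) := by
    rcases mul_eq_zero.1 hfac with h | h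
    · exact absurd h h0
    · linear_combination h
  have hd : v (x' - xT) ≤ 1 := v.map_sub_le hx' hx
  have h2le := keyAny_val_two_le v
  have h4lt : v (4 * (x' - xT) + 12 * xT) < 1 := by
    have : 4 * (x' - xT) + 12 * xT = (2 * (x' - xT) + 6 * xT) * 2 := by ring
    rw [this]
    refine keyAny_mul_lt_one v (v.map_add_le (keyAny_mul_le_one v h2le hd)
      (keyAny_mul_le_one v ?_ hx)) h2
    have : (6 : L) = 2 * 3 := by norm_num
    rw [this]
    exact keyAny_mul_le_one v h2le (keyAny_val_three_le v)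
  have hu : v (4 * (x' - xT) + (W.b₂ + 12 * xT)) = 1 := by
    have : 4 * (x' - xT) + (W.b₂ + 12 * xT) = W.b₂ + (4 * (x' - xT) + 12 * xT) := by ring
    rw [this, v.map_add_eq_of_lt_left (by rw [hb₂]; exact h4lt), hb₂]
  have := congrArg v hq
  rw [map_mul, hu, mul_one, v.map_neg, map_mul] at this
  exact this.le

end Fermat.Agent.RED


end ZBRED_002_1

/-! ### bundled: `Fermat.Agent.RED.UnipTwo` -/
section ZBRED_002_2

/-!
# Brick RED / EC-adic (c) at residue characteristic 2: inertia is unipotent on odd torsion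

`W₀` a Weierstrass curve over `ℚ`, `L/ℚ` algebraic and algebraically closed, `A` a valuation
subring of `L` of residue characteristic `2` at which `W₀` has integral coefficients and
multiplicative reduction (`v b₂ = 1`, `v Δ < 1`, `Δ ≠ 0`).  For `σ, τ` in the inertia group of `A`
and an `n`-torsion point `P` (`n` odd):  `τ • (σ • P - P) = σ • P - P`   (`unip_two_local`).

Method: translate a point `T` of order 2 reducing to the node to the origin
(`UnipTwoRoots.lean`) and use the branch lemmas of `S13/Local` on the translated curve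
`y² + a₁xy = x³ + a₂''x² + a₄''x`; `T` is moved by inertia by at most `v a₄''`, which is smaller
than the distance of any odd torsion point to the node.
-/

set_option autoImplicit false
set_option linter.unusedSectionVars false
set_option linter.unusedVariables false

namespace Fermat.Agent.RED

open WeierstrassCurve WeierstrassCurve.Affine Fermat.Agent.S05 Fermat.Agent.S13 Fermat.Agent.EC

section Translate

variable {L : Type*} [Field L] [DecidableEq L]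

/-- the translated point -/
lemma two_vcEquiv_sub (W : WeierstrassCurve L) (xT yT : L) {x y : L}
    (h : W.toAffine.Nonsingular x y) :
    ∃ h'' : (twoVC xT yT • W).toAffine.Nonsingular (x - xT) (y - yT),
      vcEquiv W (twoVC xT yT) (Point.some (x - xT) (y - yT) h'') = Point.some x y h := by
  have h'' : (twoVC xT yT • W).toAffine.Nonsingular (x - xT) (y - yT) := by
    rw [vc_nonsingular_iff, twoVC_vcX, twoVC_vcY, sub_add_cancel, sub_add_cancel]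
    exact h
  refine ⟨h'', ?_⟩
  rw [vcEquiv_apply, vcFun_some, Point.some.injEq, twoVC_vcX, twoVC_vcY, sub_add_cancel,
    sub_add_cancel]
  exact ⟨rfl, rfl⟩

/-- the image of a point of the translated curve -/
lemma two_vcEquiv_add (W : WeierstrassCurve L) (xT yT : L) {X Y : L}
    (h'' : (twoVC xT yT • W).toAffine.Nonsingular X Y) :
    ∃ h : W.toAffine.Nonsingular (X + xT) (Y + yT),
      vcEquiv W (twoVC xT yT) (Point.some X Y h'') = Point.some (X + xT) (Y + yT) h := by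
  have h : W.toAffine.Nonsingular (X + xT) (Y + yT) := by
    have := (vc_nonsingular_iff W (twoVC xT yT) X Y).1 h''
    rwa [twoVC_vcX, twoVC_vcY] at this
  refine ⟨h, ?_⟩
  rw [vcEquiv_apply, vcFun_some, Point.some.injEq, twoVC_vcX, twoVC_vcY]
  exact ⟨rfl, rfl⟩

/-- A branch slope exists over an algebraically closed field. -/
theorem two_exists_slope [IsAlgClosed L] (h2 : (2 : L) ≠ 0) (W : WeierstrassCurve L) :
    ∃ s : L, s ^ 2 + W.a₁ * s - W.a₂ = 0 := by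
  obtain ⟨r, hr⟩ := IsAlgClosed.exists_pow_nat_eq W.b₂ (n := 2) (by norm_num)
  refine ⟨(r - W.a₁) / 2, ?_⟩
  simp only [WeierstrassCurve.b₂] at hr
  field_simp
  linear_combination hr

end Translate

variable {L : Type*} [Field L] [DecidableEq L] [Algebra ℚ L]

section Galois

variable (W₀ : WeierstrassCurve ℚ) (σ : L ≃ₐ[ℚ] L)

/-- `σ` permutes the roots of the 2-division cubic. -/
theorem two_galois_root {x : L}
    (h : 4 * x ^ 3 + (W₀.baseChange L).b₂ * x ^ 2 + 2 * (W₀.baseChange L).b₄ * x +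
      (W₀.baseChange L).b₆ = 0) :
    4 * (σ x) ^ 3 + (W₀.baseChange L).b₂ * (σ x) ^ 2 + 2 * (W₀.baseChange L).b₄ * (σ x) +
      (W₀.baseChange L).b₆ = 0 := by
  have hσb₂ : σ (W₀.baseChange L).b₂ = (W₀.baseChange L).b₂ := by
    simp [WeierstrassCurve.baseChange, WeierstrassCurve.map_b₂]
  have hσb₄ : σ (W₀.baseChange L).b₄ = (W₀.baseChange L).b₄ := by
    simp [WeierstrassCurve.baseChange, WeierstrassCurve.map_b₄]
  have hσb₆ : σ (W₀.baseChange L).b₆ = (W₀.baseChange L).b₆ := by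
    simp [WeierstrassCurve.baseChange, WeierstrassCurve.map_b₆]
  have := congrArg σ h
  simpa only [map_add, map_mul, map_pow, map_ofNat, hσb₂, hσb₄, hσb₆, map_zero] using this

/-- `2 (σ yT - yT) = -a₁ (σ xT - xT)`. -/
theorem two_galois_y {xT yT : L} (hT : TwoData (W₀.baseChange L) xT yT) :
    2 * (σ yT - yT) = -((W₀.baseChange L).a₁ * (σ xT - xT)) := by
  have h := hT.hη
  have h' := congrArg σ h
  rw [map_add, map_add, map_mul, map_mul, galois_a₁, galois_a₃, map_ofNat, map_zero] at h'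
  linear_combination h' - h

end Galois

section Fix

/-- **Nonsingular case.** An `n`-torsion point (`n` a unit at `A`) whose `x`-coordinate is not
congruent to the node is fixed by inertia. -/
theorem two_fix_of_nonsing (A : ValuationSubring L) {σ : L ≃ₐ[ℚ] L}
    (hσ : σ ∈ A.inertiaSubgroupIn ℚ) (W₀ : WeierstrassCurve ℚ)
    (h₁ : (W₀.baseChange L).a₁ ∈ A) (h₂ : (W₀.baseChange L).a₂ ∈ A)
    (h₃ : (W₀.baseChange L).a₃ ∈ A) (h₄ : (W₀.baseChange L).a₄ ∈ A)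
    (h₆ : (W₀.baseChange L).a₆ ∈ A)
    (h40 : (4 : L) ≠ 0) (h2 : A.valuation (2 : L) < 1)
    (hb₂ : A.valuation (W₀.baseChange L).b₂ = 1)
    (hΔ0 : (W₀.baseChange L).Δ ≠ 0) (hΔ : A.valuation (W₀.baseChange L).Δ < 1)
    (n : ℕ) (hn : (n : L) ∉ A.nonunits)
    {xT yT : L} (hT : TwoData (W₀.baseChange L) xT yT) (hxT : xT ∈ A)
    {x y : L} (h : (W₀.baseChange L).toAffine.Nonsingular x y)
    (htors : n • Point.some x y h = 0) (hx : A.valuation (x - xT) = 1) :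
    σ • (Point.some x y h : (W₀⁄L).Point) = Point.some x y h := by
  classical
  have hv₁ : A.valuation (W₀.baseChange L).a₁ ≤ 1 := (A.valuation_le_one_iff _).2 h₁
  have hv₂ : A.valuation (W₀.baseChange L).a₂ ≤ 1 := (A.valuation_le_one_iff _).2 h₂
  have hv₃ : A.valuation (W₀.baseChange L).a₃ ≤ 1 := (A.valuation_le_one_iff _).2 h₃
  have hv₄ : A.valuation (W₀.baseChange L).a₄ ≤ 1 := (A.valuation_le_one_iff _).2 h₄
  have hv₆ : A.valuation (W₀.baseChange L).a₆ ≤ 1 := (A.valuation_le_one_iff _).2 h₆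
  have hvxT : A.valuation xT ≤ 1 := (A.valuation_le_one_iff _).2 hxT
  have hvyT : A.valuation yT ≤ 1 := hT.val_y_le A.valuation h40 hv₁ hv₂ hv₃ hv₄ hv₆ hvxT
  obtain ⟨ha₂'', hb₂'', ha₄'', ha₄0''⟩ :=
    two_data A.valuation hT h40 h2 hv₁ hv₂ hv₃ hv₄ hv₆ hb₂ hΔ0 hΔ hvxT
  have hxA : x ∈ A := no_torsion_of_not_mem A _ h₁ h₂ h₃ h₄ h₆ n hn h htors
  have hyA : y ∈ A := no_torsion_of_not_mem_y A _ h₁ h₂ h₃ h₄ h₆ n hn h htors
  have hvx : A.valuation x ≤ 1 := (A.valuation_le_one_iff _).2 hxA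
  have hvy : A.valuation y ≤ 1 := (A.valuation_le_one_iff _).2 hyA
  have h' : (W₀.baseChange L).toAffine.Nonsingular (σ x) (σ y) :=
    (WeierstrassCurve.Affine.baseChange_nonsingular W₀ (f := σ.toAlgHom)
      σ.toAlgHom.injective x y).mpr h
  have hsm : σ • (Point.some x y h : (W₀⁄L).Point) = Point.some (σ x) (σ y) h' :=
    galois_smul_some σ h
  rw [hsm]
  by_contra hne
  have htors' : n • Point.some (σ x) (σ y) h' = 0 := by
    have := Point.algEquiv_smul_zsmul σ (n : ℤ) (Point.some x y h : (W₀⁄L).Point)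
    rw [natCast_zsmul, natCast_zsmul, htors, hsm] at this
    rw [← this]
    rfl
  have htorsQ : n • (Point.some (σ x) (σ y) h' - Point.some x y h) = 0 := by
    rw [smul_sub, htors, htors', sub_zero]
  have hxx : A.valuation (σ x - x) < 1 :=
    (A.mem_nonunits_iff).1 (inertia_apply_sub_mem_nonunits hσ hxA)
  have hyy : A.valuation (σ y - y) < 1 :=
    (A.mem_nonunits_iff).1 (inertia_apply_sub_mem_nonunits hσ hyA)
  obtain ⟨h'', -⟩ := two_vcEquiv_sub (W₀.baseChange L) xT yT h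
  have ha₁'' : A.valuation (twoVC xT yT • (W₀.baseChange L)).a₁ ≤ 1 := by
    rw [twoVC_a₁]; exact hv₁
  have hns'' := nonsing_of_unit_x A.valuation hT.a₃_eq (hT.a₆_eq h40) ha₁'' ha₂'' hb₂'' ha₄''
    h''.1 hx (A.valuation.map_sub_le hvy hvyT)
  rw [twoVC_polyY, twoVC_polyX] at hns''
  obtain ⟨x'', y'', hQ'', hQ, hlt⟩ :=
    key_nonsing_any A.valuation hv₁ hv₂ hv₃ h h' hvx hvy hxx hyy hne hns''
  rw [hQ] at htorsQ
  have := no_torsion_of_not_mem A _ h₁ h₂ h₃ h₄ h₆ n hn hQ'' htorsQ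
  rw [← A.valuation_le_one_iff] at this
  exact absurd hlt (not_lt.2 this)

end Fix

section Unip

variable [Algebra.IsAlgebraic ℚ L] [IsAlgClosed L]

/-- **Node case.** For an odd-torsion point `P` reducing to the node, `σ • P - P` is `0` or a
point whose `x`-coordinate is integral and not congruent to the node. -/
theorem two_sub_of_node (A : ValuationSubring L) {σ : L ≃ₐ[ℚ] L}
    (hσ : σ ∈ A.inertiaSubgroupIn ℚ) (W₀ : WeierstrassCurve ℚ)
    (h₁ : (W₀.baseChange L).a₁ ∈ A) (h₂ : (W₀.baseChange L).a₂ ∈ A)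
    (h₃ : (W₀.baseChange L).a₃ ∈ A) (h₄ : (W₀.baseChange L).a₄ ∈ A)
    (h₆ : (W₀.baseChange L).a₆ ∈ A)
    (h40 : (4 : L) ≠ 0) (h2 : A.valuation (2 : L) < 1)
    (hb₂ : A.valuation (W₀.baseChange L).b₂ = 1)
    (hΔ0 : (W₀.baseChange L).Δ ≠ 0) (hΔ : A.valuation (W₀.baseChange L).Δ < 1)
    (n : ℕ) (hn : (n : L) ∉ A.nonunits) (hodd : Odd n)
    {xT yT : L} (hT : TwoData (W₀.baseChange L) xT yT) (hxT : xT ∈ A)
    {x y : L} (h : (W₀.baseChange L).toAffine.Nonsingular x y)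
    (htors : n • Point.some x y h = 0) (hx : A.valuation (x - xT) < 1) :
    σ • (Point.some x y h : (W₀⁄L).Point) = Point.some x y h ∨
    ∃ (x'' y'' : L) (h'' : (W₀.baseChange L).toAffine.Nonsingular x'' y''),
      σ • (Point.some x y h : (W₀⁄L).Point) - Point.some x y h = Point.some x'' y'' h'' ∧
        A.valuation (x'' - xT) = 1 := by
  classical
  have h20 : (2 : L) ≠ 0 := by
    intro h0
    apply h40
    have : (4 : L) = 2 * 2 := by norm_num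
    rw [this, h0, mul_zero]
  have hv₁ : A.valuation (W₀.baseChange L).a₁ ≤ 1 := (A.valuation_le_one_iff _).2 h₁
  have hv₂ : A.valuation (W₀.baseChange L).a₂ ≤ 1 := (A.valuation_le_one_iff _).2 h₂
  have hv₃ : A.valuation (W₀.baseChange L).a₃ ≤ 1 := (A.valuation_le_one_iff _).2 h₃
  have hv₄ : A.valuation (W₀.baseChange L).a₄ ≤ 1 := (A.valuation_le_one_iff _).2 h₄
  have hv₆ : A.valuation (W₀.baseChange L).a₆ ≤ 1 := (A.valuation_le_one_iff _).2 h₆
  have hvxT : A.valuation xT ≤ 1 := (A.valuation_le_one_iff _).2 hxT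
  have hvyT : A.valuation yT ≤ 1 := hT.val_y_le A.valuation h40 hv₁ hv₂ hv₃ hv₄ hv₆ hvxT
  obtain ⟨ha₂'', hb₂'', ha₄'', ha₄0''⟩ :=
    two_data A.valuation hT h40 h2 hv₁ hv₂ hv₃ hv₄ hv₆ hb₂ hΔ0 hΔ hvxT
  have ha₁'' : A.valuation (twoVC xT yT • (W₀.baseChange L)).a₁ ≤ 1 := by
    rw [twoVC_a₁]; exact hv₁
  have ha₃'' := hT.a₃_eq
  have ha₆'' := hT.a₆_eq h40
  have hxA : x ∈ A := no_torsion_of_not_mem A _ h₁ h₂ h₃ h₄ h₆ n hn h htors
  have hyA : y ∈ A := no_torsion_of_not_mem_y A _ h₁ h₂ h₃ h₄ h₆ n hn h htors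
  have h' : (W₀.baseChange L).toAffine.Nonsingular (σ x) (σ y) :=
    (WeierstrassCurve.Affine.baseChange_nonsingular W₀ (f := σ.toAlgHom)
      σ.toAlgHom.injective x y).mpr h
  have hsm : σ • (Point.some x y h : (W₀⁄L).Point) = Point.some (σ x) (σ y) h' :=
    galois_smul_some σ h
  rw [hsm]
  by_cases hne : Point.some (σ x) (σ y) h' = Point.some x y h
  · exact Or.inl hne
  right
  have htors' : n • Point.some (σ x) (σ y) h' = 0 := by
    have := Point.algEquiv_smul_zsmul σ (n : ℤ) (Point.some x y h : (W₀⁄L).Point)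
    rw [natCast_zsmul, natCast_zsmul, htors, hsm] at this
    rw [← this]
    rfl
  have htorsQ : n • (Point.some (σ x) (σ y) h' - Point.some x y h) = 0 := by
    rw [smul_sub, htors, htors', sub_zero]
  -- the translated points
  obtain ⟨hP'', eP⟩ := two_vcEquiv_sub (W₀.baseChange L) xT yT h
  obtain ⟨hPσ'', ePσ⟩ := two_vcEquiv_sub (W₀.baseChange L) xT yT h'
  have htors'' : n • Point.some (x - xT) (y - yT) hP'' = 0 := by
    apply (vcEquiv (W₀.baseChange L) (twoVC xT yT)).injective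
    rw [map_nsmul, eP, map_zero]
    exact htors
  have hne'' : Point.some (σ x - xT) (σ y - yT) hPσ'' ≠ Point.some (x - xT) (y - yT) hP'' := by
    intro he
    apply hne
    rw [← ePσ, ← eP, he]
  -- the tropical step
  obtain ⟨hlow, -⟩ := tropical_torsion_any A.valuation ha₃'' ha₆'' h20 h2.le hb₂'' ha₄'' ha₄0''
    hodd hP'' htors'' hx
  have hX0 : x - xT ≠ 0 := by
    intro h0
    rw [h0, map_zero] at hlow
    exact not_lt_zero hlow
  have hXpos : 0 < A.valuation (x - xT) := lt_of_le_of_lt zero_le hlow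
  -- the displacement of `T`
  have h4le : A.valuation (4 : L) ≤ 1 := by
    have : (4 : L) = 2 * 2 := by norm_num
    rw [this]
    exact keyAny_mul_le_one _ h2.le h2.le
  have hσxT : σ xT ∈ A := (inertia_apply_mem_iff hσ xT).2 hxT
  have hδx4 : A.valuation (σ xT - xT) ≤
      A.valuation 4 * A.valuation (twoVC xT yT • (W₀.baseChange L)).a₄ :=
    two_root_close A.valuation hT h2 hb₂ hvxT ((A.valuation_le_one_iff _).2 hσxT)
      (two_galois_root W₀ σ hT.hcub)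
  have hδx : A.valuation (σ xT - xT) ≤ A.valuation (twoVC xT yT • (W₀.baseChange L)).a₄ := by
    refine hδx4.trans ?_
    calc A.valuation 4 * A.valuation (twoVC xT yT • (W₀.baseChange L)).a₄
        ≤ 1 * A.valuation (twoVC xT yT • (W₀.baseChange L)).a₄ := mul_le_mul' h4le le_rfl
      _ = _ := one_mul _
  have hδy : A.valuation (σ yT - yT) ≤ A.valuation (twoVC xT yT • (W₀.baseChange L)).a₄ := by
    have e := congrArg A.valuation (two_galois_y W₀ σ hT)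
    rw [map_mul, Valuation.map_neg, map_mul] at e
    have h2pos : 0 < A.valuation (2 : L) := by
      rw [Valuation.pos_iff]; exact h20
    have h44 : A.valuation (4 : L) = A.valuation 2 * A.valuation 2 := by
      have : (4 : L) = 2 * 2 := by norm_num
      rw [this, map_mul]
    have h1 : A.valuation 2 * A.valuation (σ yT - yT) ≤
        A.valuation 2 * (A.valuation 2 * A.valuation (twoVC xT yT • (W₀.baseChange L)).a₄) := by
      rw [e, ← mul_assoc, ← h44]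
      calc A.valuation (W₀.baseChange L).a₁ * A.valuation (σ xT - xT)
          ≤ 1 * A.valuation (σ xT - xT) := mul_le_mul' hv₁ le_rfl
        _ = A.valuation (σ xT - xT) := one_mul _
        _ ≤ _ := hδx4
    have h3 := le_of_mul_le_mul_left h1 h2pos
    refine h3.trans ?_
    calc A.valuation 2 * A.valuation (twoVC xT yT • (W₀.baseChange L)).a₄
        ≤ 1 * A.valuation (twoVC xT yT • (W₀.baseChange L)).a₄ := mul_le_mul' h2.le le_rfl
      _ = _ := one_mul _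
  have hδxlt : A.valuation (σ xT - xT) < A.valuation (x - xT) := lt_of_le_of_lt hδx hlow
  have hδylt : A.valuation (σ yT - yT) < A.valuation (x - xT) := lt_of_le_of_lt hδy hlow
  have hσX : A.valuation (σ (x - xT)) = A.valuation (x - xT) := inertia_valuation_apply hσ _
  have hXX : A.valuation (σ x - xT) = A.valuation (x - xT) := by
    have e : σ x - xT = σ (x - xT) + (σ xT - xT) := by rw [map_sub]; ring
    rw [e, Valuation.map_add_eq_of_lt_left _ (by rw [hσX]; exact hδxlt), hσX]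
  -- the claim for a branch slope
  have key : ∀ t : L, t ^ 2 + (twoVC xT yT • (W₀.baseChange L)).a₁ * t -
        (twoVC xT yT • (W₀.baseChange L)).a₂ = 0 →
      A.valuation ((y - yT) - t * (x - xT)) < A.valuation (x - xT) →
      ∃ (X Y : L) (hQ'' : (twoVC xT yT • (W₀.baseChange L)).toAffine.Nonsingular X Y),
        Point.some (σ x - xT) (σ y - yT) hPσ'' - Point.some (x - xT) (y - yT) hP'' =
          Point.some X Y hQ'' ∧ 1 ≤ A.valuation X := by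
    intro t ht hb
    have htv : A.valuation t ≤ 1 := branch_root_val_le A.valuation ha₁'' ha₂'' ht
    have htA : t ∈ A := (A.valuation_le_one_iff _).1 htv
    have htt : A.valuation (σ t - t) < 1 :=
      (A.mem_nonunits_iff).1 (inertia_apply_sub_mem_nonunits hσ htA)
    have hb' : A.valuation ((σ y - yT) - t * (σ x - xT)) < A.valuation (σ x - xT) := by
      have e : (σ y - yT) - t * (σ x - xT) =
          σ ((y - yT) - t * (x - xT)) + (σ t - t) * σ (x - xT) + (σ yT - yT) -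
            t * (σ xT - xT) := by
        simp only [map_sub, map_mul]; ring
      rw [e, hXX]
      refine Valuation.map_sub_lt _ (Valuation.map_add_lt _ (Valuation.map_add_lt _ ?_ ?_)
        hδylt) ?_
      · rw [inertia_valuation_apply hσ]; exact hb
      · rw [map_mul, hσX]
        calc A.valuation (σ t - t) * A.valuation (x - xT)
            < 1 * A.valuation (x - xT) := mul_lt_mul_of_pos_right htt hXpos
          _ = _ := one_mul _
      · rw [map_mul]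
        calc A.valuation t * A.valuation (σ xT - xT)
            ≤ 1 * A.valuation (σ xT - xT) := mul_le_mul' htv le_rfl
          _ = A.valuation (σ xT - xT) := one_mul _
          _ < _ := hδxlt
    exact branch_sub_val A.valuation ha₃'' hb₂'' ht hP'' hPσ'' hX0 hx hXX hb hb' hne''
  obtain ⟨s, hs⟩ := two_exists_slope h20 (twoVC xT yT • (W₀.baseChange L))
  have hQ : ∃ (X Y : L) (hQ'' : (twoVC xT yT • (W₀.baseChange L)).toAffine.Nonsingular X Y),
      Point.some (σ x - xT) (σ y - yT) hPσ'' - Point.some (x - xT) (y - yT) hP'' =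
        Point.some X Y hQ'' ∧ 1 ≤ A.valuation X := by
    rcases branch_exists A.valuation ha₃'' ha₆'' hs hP''.1 hx hlow with hb | hb
    · exact key s hs hb
    · exact key _ (branch_other_root hs) hb
  obtain ⟨X, Y, hQ'', hQe, hge⟩ := hQ
  obtain ⟨hQ', eQ⟩ := two_vcEquiv_add (W₀.baseChange L) xT yT hQ''
  have hsub : Point.some (σ x) (σ y) h' - Point.some x y h =
      Point.some (X + xT) (Y + yT) hQ' := by
    rw [← ePσ, ← eP, ← map_sub, hQe, eQ]
  refine ⟨X + xT, Y + yT, hQ', hsub, ?_⟩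
  rw [hsub] at htorsQ
  have hxQ : X + xT ∈ A := no_torsion_of_not_mem A _ h₁ h₂ h₃ h₄ h₆ n hn hQ' htorsQ
  have hXA : X ∈ A := by
    have : X = (X + xT) - xT := by ring
    rw [this]
    exact sub_mem hxQ hxT
  rw [add_sub_cancel_right]
  exact le_antisymm ((A.valuation_le_one_iff _).2 hXA) hge

/-- **Inertia at a place above `2` is unipotent on odd torsion at a node** (local statement). -/
theorem unip_two_local (A : ValuationSubring L) {σ τ : L ≃ₐ[ℚ] L}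
    (hσ : σ ∈ A.inertiaSubgroupIn ℚ) (hτ : τ ∈ A.inertiaSubgroupIn ℚ)
    (W₀ : WeierstrassCurve ℚ)
    (h₁ : (W₀.baseChange L).a₁ ∈ A) (h₂ : (W₀.baseChange L).a₂ ∈ A)
    (h₃ : (W₀.baseChange L).a₃ ∈ A) (h₄ : (W₀.baseChange L).a₄ ∈ A)
    (h₆ : (W₀.baseChange L).a₆ ∈ A)
    (h40 : (4 : L) ≠ 0) (h2 : A.valuation (2 : L) < 1)
    (hb₂ : A.valuation (W₀.baseChange L).b₂ = 1)
    (hΔ0 : (W₀.baseChange L).Δ ≠ 0) (hΔ : A.valuation (W₀.baseChange L).Δ < 1)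
    (n : ℕ) (hn : (n : L) ∉ A.nonunits) (hodd : Odd n)
    (P : (W₀⁄L).Point) (hP : n • P = 0) :
    τ • (σ • P - P) = σ • P - P := by
  classical
  obtain ⟨hb₂A, hb₄A, hb₆A, -⟩ := kernel_b_mem A h₁ h₂ h₃ h₄ h₆
  have h20 : (2 : L) ≠ 0 := by
    intro h0
    apply h40
    have : (4 : L) = 2 * 2 := by norm_num
    rw [this, h0, mul_zero]
  -- the point of order 2 at the node
  obtain ⟨xT, hvxT, hcub⟩ := two_exists_integral_root A.valuation h40 h2 hb₂
    ((A.valuation_le_one_iff _).2 hb₄A) ((A.valuation_le_one_iff _).2 hb₆A)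
  have hxT : xT ∈ A := (A.valuation_le_one_iff _).1 hvxT
  have hT : TwoData (W₀.baseChange L) xT
      (-((W₀.baseChange L).a₁ * xT + (W₀.baseChange L).a₃) / 2) :=
    ⟨by field_simp; ring, hcub⟩
  have hτ0 : τ • (0 : (W₀⁄L).Point) = 0 := galois_smul_zero τ
  rcases P with _ | ⟨x, y, h⟩
  · have h0 : σ • (0 : (W₀⁄L).Point) - 0 = 0 := by rw [galois_smul_zero, sub_zero]
    show τ • (σ • (0 : (W₀⁄L).Point) - 0) = σ • (0 : (W₀⁄L).Point) - 0
    rw [h0, hτ0]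
  · have hxA : x ∈ A := no_torsion_of_not_mem A _ h₁ h₂ h₃ h₄ h₆ n hn h hP
    have hs₁ : A.valuation (x - xT) ≤ 1 := (A.valuation_le_one_iff _).2 (sub_mem hxA hxT)
    have hσn : n • (σ • (Point.some x y h : (W₀⁄L).Point)) = 0 := by
      have := Point.algEquiv_smul_zsmul σ (n : ℤ) (Point.some x y h : (W₀⁄L).Point)
      rw [natCast_zsmul, natCast_zsmul, hP] at this
      rw [← this]
      exact galois_smul_zero σ
    rcases hs₁.lt_or_eq with hlt | heq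
    · rcases two_sub_of_node A hσ W₀ h₁ h₂ h₃ h₄ h₆ h40 h2 hb₂ hΔ0 hΔ n hn hodd hT hxT h hP hlt
        with hfix | ⟨x'', y'', h'', hQ, hu⟩
      · rw [hfix, sub_self, hτ0]
      · rw [hQ]
        have htorsQ : n • (Point.some x'' y'' h'' : (W₀⁄L).Point) = 0 := by
          rw [← hQ, smul_sub, hσn, hP, sub_zero]
        exact two_fix_of_nonsing A hτ W₀ h₁ h₂ h₃ h₄ h₆ h40 h2 hb₂ hΔ0 hΔ n hn hT hxT h''
          htorsQ hu
    · have hfix := two_fix_of_nonsing A hσ W₀ h₁ h₂ h₃ h₄ h₆ h40 h2 hb₂ hΔ0 hΔ n hn hT hxT h hP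
        heq
      rw [hfix, sub_self, hτ0]

end Unip

end Fermat.Agent.RED


end ZBRED_002_2

/-! ### bundled: `Fermat.Agent.RED.Unip` -/
section ZBRED_002_3

/-!
# Brick RED / EC-adic (c): inertia at a multiplicative prime `q ≠ 2` is unipotent on odd torsion

`W : WeierstrassCurve ℤ`, `Δ ≠ 0`, `q` an odd prime with `q ∣ Δ`, `q ∤ c₄` (multiplicative
reduction), `A` a valuation subring of `ℚ̄` over `q`, `σ, τ` in the inertia group of `A`,
`n` odd and prime to `q`, `n • P = 0`: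

  `τ • (σ • P - P) = σ • P - P`     (`inertia_unipotent_of_mult`),

in particular `(σ - 1)² P = 0` (`inertia_sub_sq_of_mult`, the hypothesis of
`Fermat.Agent.EC.tateRepInt_isUnipotentOnInertiaAt_of_torsion`).
-/

set_option autoImplicit false

namespace Fermat.Agent.RED

open WeierstrassCurve WeierstrassCurve.Affine Fermat.Agent.S05

/-- `ℚ̄` -/
local notation "Qbar" => AlgebraicClosure ℚ

section Coeff

variable (W : WeierstrassCurve ℤ)

theorem unip_a₁ : ((W.map (Int.castRingHom ℚ)).baseChange Qbar).a₁ = ((W.a₁ : ℤ) : Qbar) := by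
  simp [WeierstrassCurve.baseChange]

theorem unip_a₂ : ((W.map (Int.castRingHom ℚ)).baseChange Qbar).a₂ = ((W.a₂ : ℤ) : Qbar) := by
  simp [WeierstrassCurve.baseChange]

theorem unip_a₃ : ((W.map (Int.castRingHom ℚ)).baseChange Qbar).a₃ = ((W.a₃ : ℤ) : Qbar) := by
  simp [WeierstrassCurve.baseChange]

theorem unip_a₄ : ((W.map (Int.castRingHom ℚ)).baseChange Qbar).a₄ = ((W.a₄ : ℤ) : Qbar) := by
  simp [WeierstrassCurve.baseChange]

theorem unip_a₆ : ((W.map (Int.castRingHom ℚ)).baseChange Qbar).a₆ = ((W.a₆ : ℤ) : Qbar) := by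
  simp [WeierstrassCurve.baseChange]

theorem unip_Δ : ((W.map (Int.castRingHom ℚ)).baseChange Qbar).Δ = ((W.Δ : ℤ) : Qbar) := by
  simp [WeierstrassCurve.baseChange, WeierstrassCurve.map_Δ]

theorem unip_c₄ : ((W.map (Int.castRingHom ℚ)).baseChange Qbar).c₄ = ((W.c₄ : ℤ) : Qbar) := by
  simp [WeierstrassCurve.baseChange, WeierstrassCurve.map_c₄]

end Coeff

/-- **Inertia at a multiplicative prime `q ≠ 2` is unipotent on odd prime-to-`q` torsion.** -/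
theorem inertia_unipotent_of_mult (W : WeierstrassCurve ℤ) {q : ℕ} (hq : q.Prime) (hq2 : q ≠ 2)
    (hΔ0 : W.Δ ≠ 0) (hbad : (q : ℤ) ∣ W.Δ) (hc₄ : ¬ (q : ℤ) ∣ W.c₄)
    (A : ValuationSubring Qbar) (hA : A.LiesOverPrime q)
    {σ τ : Qbar ≃ₐ[ℚ] Qbar} (hσ : σ ∈ A.inertiaSubgroupIn ℚ) (hτ : τ ∈ A.inertiaSubgroupIn ℚ)
    {n : ℕ} (hn : ¬ q ∣ n) (hodd : Odd n)
    (P : ((W.map (Int.castRingHom ℚ)).toAffine⁄Qbar).Point) (hP : n • P = 0) :
    τ • (σ • P - P) = σ • P - P := by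
  have : Algebra.IsAlgebraic ℚ Qbar := isAlgebraic_rat_qbar
  have h2 : A.valuation (2 : Qbar) = 1 := valuation_two_eq_one A hq hA hq2
  have h₁ : ((W.map (Int.castRingHom ℚ)).baseChange Qbar).a₁ ∈ A := by
    rw [unip_a₁]; exact intCast_mem A _
  have h₂ : ((W.map (Int.castRingHom ℚ)).baseChange Qbar).a₂ ∈ A := by
    rw [unip_a₂]; exact intCast_mem A _
  have h₃ : ((W.map (Int.castRingHom ℚ)).baseChange Qbar).a₃ ∈ A := by
    rw [unip_a₃]; exact intCast_mem A _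
  have h₄ : ((W.map (Int.castRingHom ℚ)).baseChange Qbar).a₄ ∈ A := by
    rw [unip_a₄]; exact intCast_mem A _
  have h₆ : ((W.map (Int.castRingHom ℚ)).baseChange Qbar).a₆ ∈ A := by
    rw [unip_a₆]; exact intCast_mem A _
  obtain ⟨hb₂, hb₄, hb₆, -⟩ := kernel_b_mem A h₁ h₂ h₃ h₄ h₆
  have hΔ0' : ((W.map (Int.castRingHom ℚ)).baseChange Qbar).Δ ≠ 0 := by
    rw [unip_Δ]; exact_mod_cast hΔ0
  have hΔv : A.valuation ((W.map (Int.castRingHom ℚ)).baseChange Qbar).Δ < 1 := by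
    rw [unip_Δ]; exact (valuation_intCast_lt_one_iff A hq hA _).2 hbad
  have hc₄v : A.valuation ((W.map (Int.castRingHom ℚ)).baseChange Qbar).c₄ = 1 := by
    rw [unip_c₄]; exact (valuation_intCast_eq_one_iff A hq hA _).2 hc₄
  obtain ⟨r₁, e₂, e₃, hr, hr₁, he₂, he₂0, he₃, he₂₃⟩ :=
    exists_rootData A.valuation ((W.map (Int.castRingHom ℚ)).baseChange Qbar) h2
      ((A.valuation_le_one_iff _).2 hb₂) ((A.valuation_le_one_iff _).2 hb₄)
      ((A.valuation_le_one_iff _).2 hb₆) hΔ0' hΔv hc₄v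
  have hn' : (n : Qbar) ∉ A.nonunits := fun h => hn ((natCast_mem_nonunits_iff A hq hA n).1 h)
  exact unip_local A hσ hτ (W.map (Int.castRingHom ℚ)) h₁ h₂ h₃ h₄ h₆ h2 n hn' hodd hr
    ((A.valuation_le_one_iff _).1 hr₁) he₂ he₂0 he₃ he₂₃ P hP

/-- `(σ - 1)² = 0` on odd prime-to-`q` torsion, in the shape consumed by
`Fermat.Agent.EC.tateRepInt_isUnipotentOnInertiaAt_of_torsion`. -/
theorem inertia_sub_sq_of_mult (W : WeierstrassCurve ℤ) {q : ℕ} (hq : q.Prime) (hq2 : q ≠ 2)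
    (hΔ0 : W.Δ ≠ 0) (hbad : (q : ℤ) ∣ W.Δ) (hc₄ : ¬ (q : ℤ) ∣ W.c₄)
    {ℓ : ℕ} (hℓ : ℓ.Prime) (hℓ2 : ℓ ≠ 2) (hne : q ≠ ℓ) :
    ∀ A : ValuationSubring Qbar, A.LiesOverPrime q → ∀ σ ∈ A.inertiaSubgroupIn ℚ,
      ∀ (n : ℕ) (P : ((W.map (Int.castRingHom ℚ)).toAffine⁄Qbar).Point), ℓ ^ n • P = 0 →
        σ • (σ • P - P) - (σ • P - P) = 0 := by
  intro A hA σ hσ n P hP
  rw [sub_eq_zero]
  refine inertia_unipotent_of_mult W hq hq2 hΔ0 hbad hc₄ A hA hσ hσ (n := ℓ ^ n) ?_ ?_ P hP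
  · intro hdvd
    exact hne ((Nat.prime_dvd_prime_iff_eq hq hℓ).1 (hq.dvd_of_dvd_pow hdvd))
  · exact (hℓ.odd_of_ne_two hℓ2).pow

end Fermat.Agent.RED


end ZBRED_002_3

/-! ### bundled: `Fermat.Agent.RED.UnipTate` -/
section ZBRED_002_4

/-!
# EC-adic (c): the Tate representation is unipotent on inertia at multiplicative primes

`W : WeierstrassCurve ℤ`, `Δ ≠ 0`, `ℓ ≠ 2` prime, `q ≠ 2` prime, `q ≠ ℓ`, `q ∣ Δ`, `q ∤ c₄`:
`(tateRepInt W hΔ ℓ).IsUnipotentOnInertiaAt q`; and the same at every prime `q ∉ {2, ℓ}` for a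
semistable model.
-/

set_option autoImplicit false

namespace Fermat.Agent.RED

open WeierstrassCurve Fermat.Agent.EC

/-- **EC-adic (c).** -/
theorem tateRepInt_isUnipotentOnInertiaAt_of_mult (W : WeierstrassCurve ℤ) (hΔ : W.Δ ≠ 0)
    (ℓ : ℕ) [hℓ : Fact ℓ.Prime] (hℓ2 : ℓ ≠ 2) {q : ℕ} (hq : q.Prime) (hq2 : q ≠ 2)
    (hne : q ≠ ℓ) (hbad : (q : ℤ) ∣ W.Δ) (hc₄ : ¬ (q : ℤ) ∣ W.c₄) :
    (tateRepInt W hΔ ℓ).IsUnipotentOnInertiaAt q :=
  tateRepInt_isUnipotentOnInertiaAt_of_torsion W hΔ ℓ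
    (inertia_sub_sq_of_mult W hq hq2 hΔ hbad hc₄ hℓ.out hℓ2 hne)

/-- **EC-adic (c)+(d) for a semistable model**: unipotent on inertia at every prime
`q ∉ {2, ℓ}`. -/
theorem tateRepInt_isUnipotentOnInertiaAt_of_semistable (W : WeierstrassCurve ℤ) (hΔ : W.Δ ≠ 0)
    (hss : W.IsSemistableModel)
    (ℓ : ℕ) [hℓ : Fact ℓ.Prime] (hℓ2 : ℓ ≠ 2) {q : ℕ} (hq : q.Prime) (hq2 : q ≠ 2)
    (hne : q ≠ ℓ) : (tateRepInt W hΔ ℓ).IsUnipotentOnInertiaAt q := by
  by_cases hbad : (q : ℤ) ∣ W.Δ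
  · exact tateRepInt_isUnipotentOnInertiaAt_of_mult W hΔ ℓ hℓ2 hq hq2 hne hbad (hss q hq hbad)
  · exact tateRepInt_isUnipotentOnInertiaAt_of_good W hΔ ℓ hq hbad hne

end Fermat.Agent.RED


end ZBRED_002_4

/-! ### bundled: `Fermat.Agent.RED.UnipTwoTate` -/
section ZBRED_002_5

/-!
# EC-adic (c) at every multiplicative prime, including `q = 2`

`W : WeierstrassCurve ℤ`, `Δ ≠ 0`, `q` a prime with `q ∣ Δ`, `q ∤ c₄` (multiplicative
reduction), `A` a valuation subring of `ℚ̄` over `q`, `σ, τ` in the inertia group of `A`,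
`n` odd and prime to `q`, `n • P = 0`:

  `τ • (σ • P - P) = σ • P - P`     (`inertia_unipotent_of_mult_all`; `q = 2` is
  `inertia_unipotent_of_mult_two`),

hence for `ℓ ≠ 2` and every prime `q ≠ ℓ` of multiplicative reduction
`(tateRepInt W hΔ ℓ).IsUnipotentOnInertiaAt q` (`tateRepInt_isUnipotentOnInertiaAt_of_mult_all`),
and for a semistable model at every prime `q ≠ ℓ`
(`tateRepInt_isUnipotentOnInertiaAt_of_semistable_all`).
-/

set_option autoImplicit false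

namespace Fermat.Agent.RED

open WeierstrassCurve WeierstrassCurve.Affine Fermat.Agent.S05 Fermat.Agent.EC

/-- `ℚ̄` -/
local notation "Qbar" => AlgebraicClosure ℚ

theorem unip_b₂ (W : WeierstrassCurve ℤ) :
    ((W.map (Int.castRingHom ℚ)).baseChange Qbar).b₂ = ((W.b₂ : ℤ) : Qbar) := by
  simp [WeierstrassCurve.baseChange, WeierstrassCurve.map_b₂]

/-- **Inertia at `2` is unipotent on odd torsion** when the reduction at `2` is
multiplicative. -/
theorem inertia_unipotent_of_mult_two (W : WeierstrassCurve ℤ)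
    (hΔ0 : W.Δ ≠ 0) (hbad : ((2 : ℕ) : ℤ) ∣ W.Δ) (hc₄ : ¬ ((2 : ℕ) : ℤ) ∣ W.c₄)
    (A : ValuationSubring Qbar) (hA : A.LiesOverPrime 2)
    {σ τ : Qbar ≃ₐ[ℚ] Qbar} (hσ : σ ∈ A.inertiaSubgroupIn ℚ) (hτ : τ ∈ A.inertiaSubgroupIn ℚ)
    {n : ℕ} (hodd : Odd n)
    (P : ((W.map (Int.castRingHom ℚ)).toAffine⁄Qbar).Point) (hP : n • P = 0) :
    τ • (σ • P - P) = σ • P - P := by
  have : Algebra.IsAlgebraic ℚ Qbar := isAlgebraic_rat_qbar
  have hq : (2 : ℕ).Prime := Nat.prime_two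
  have h2 : A.valuation (2 : Qbar) < 1 := by
    have := (valuation_intCast_lt_one_iff A hq hA (2 : ℤ)).2 (by norm_num)
    simpa using this
  have h40 : (4 : Qbar) ≠ 0 := by norm_num
  have h₁ : ((W.map (Int.castRingHom ℚ)).baseChange Qbar).a₁ ∈ A := by
    rw [unip_a₁]; exact intCast_mem A _
  have h₂ : ((W.map (Int.castRingHom ℚ)).baseChange Qbar).a₂ ∈ A := by
    rw [unip_a₂]; exact intCast_mem A _
  have h₃ : ((W.map (Int.castRingHom ℚ)).baseChange Qbar).a₃ ∈ A := by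
    rw [unip_a₃]; exact intCast_mem A _
  have h₄ : ((W.map (Int.castRingHom ℚ)).baseChange Qbar).a₄ ∈ A := by
    rw [unip_a₄]; exact intCast_mem A _
  have h₆ : ((W.map (Int.castRingHom ℚ)).baseChange Qbar).a₆ ∈ A := by
    rw [unip_a₆]; exact intCast_mem A _
  have hΔ0' : ((W.map (Int.castRingHom ℚ)).baseChange Qbar).Δ ≠ 0 := by
    rw [unip_Δ]; exact_mod_cast hΔ0
  have hΔv : A.valuation ((W.map (Int.castRingHom ℚ)).baseChange Qbar).Δ < 1 := by
    rw [unip_Δ]; exact (valuation_intCast_lt_one_iff A hq hA _).2 hbad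
  have hb₂ : A.valuation ((W.map (Int.castRingHom ℚ)).baseChange Qbar).b₂ = 1 := by
    rw [unip_b₂]
    refine (valuation_intCast_eq_one_iff A hq hA _).2 ?_
    intro hdvd
    apply hc₄
    have hc : W.c₄ = W.b₂ ^ 2 - 24 * W.b₄ := by rw [WeierstrassCurve.c₄]
    rw [hc]
    exact dvd_sub (dvd_pow hdvd two_ne_zero) (Dvd.dvd.mul_right (by norm_num) _)
  have hn' : (n : Qbar) ∉ A.nonunits := fun h =>
    (Nat.not_even_iff_odd.2 hodd) (even_iff_two_dvd.2 ((natCast_mem_nonunits_iff A hq hA n).1 h))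
  exact unip_two_local A hσ hτ (W.map (Int.castRingHom ℚ)) h₁ h₂ h₃ h₄ h₆ h40 h2 hb₂ hΔ0' hΔv
    n hn' hodd P hP

/-- **Inertia at a multiplicative prime `q` (any `q`, including `2`) is unipotent on odd
prime-to-`q` torsion.** -/
theorem inertia_unipotent_of_mult_all (W : WeierstrassCurve ℤ) {q : ℕ} (hq : q.Prime)
    (hΔ0 : W.Δ ≠ 0) (hbad : (q : ℤ) ∣ W.Δ) (hc₄ : ¬ (q : ℤ) ∣ W.c₄)
    (A : ValuationSubring Qbar) (hA : A.LiesOverPrime q)
    {σ τ : Qbar ≃ₐ[ℚ] Qbar} (hσ : σ ∈ A.inertiaSubgroupIn ℚ) (hτ : τ ∈ A.inertiaSubgroupIn ℚ)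
    {n : ℕ} (hn : ¬ q ∣ n) (hodd : Odd n)
    (P : ((W.map (Int.castRingHom ℚ)).toAffine⁄Qbar).Point) (hP : n • P = 0) :
    τ • (σ • P - P) = σ • P - P := by
  by_cases hq2 : q = 2
  · subst hq2
    exact inertia_unipotent_of_mult_two W hΔ0 hbad hc₄ A hA hσ hτ hodd P hP
  · exact inertia_unipotent_of_mult W hq hq2 hΔ0 hbad hc₄ A hA hσ hτ hn hodd P hP

/-- `(σ - 1)² = 0` on `ℓ`-power torsion (`ℓ ≠ 2`) at every multiplicative prime `q ≠ ℓ`, in the
shape consumed by `Fermat.Agent.EC.tateRepInt_isUnipotentOnInertiaAt_of_torsion`. -/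
theorem inertia_sub_sq_of_mult_all (W : WeierstrassCurve ℤ) {q : ℕ} (hq : q.Prime)
    (hΔ0 : W.Δ ≠ 0) (hbad : (q : ℤ) ∣ W.Δ) (hc₄ : ¬ (q : ℤ) ∣ W.c₄)
    {ℓ : ℕ} (hℓ : ℓ.Prime) (hℓ2 : ℓ ≠ 2) (hne : q ≠ ℓ) :
    ∀ A : ValuationSubring Qbar, A.LiesOverPrime q → ∀ σ ∈ A.inertiaSubgroupIn ℚ,
      ∀ (n : ℕ) (P : ((W.map (Int.castRingHom ℚ)).toAffine⁄Qbar).Point), ℓ ^ n • P = 0 →
        σ • (σ • P - P) - (σ • P - P) = 0 := by
  intro A hA σ hσ n P hP
  rw [sub_eq_zero]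
  refine inertia_unipotent_of_mult_all W hq hΔ0 hbad hc₄ A hA hσ hσ (n := ℓ ^ n) ?_ ?_ P hP
  · intro hdvd
    exact hne ((Nat.prime_dvd_prime_iff_eq hq hℓ).1 (hq.dvd_of_dvd_pow hdvd))
  · exact (hℓ.odd_of_ne_two hℓ2).pow

/-- **EC-adic (c)** at every multiplicative prime `q ≠ ℓ` (including `q = 2`). -/
theorem tateRepInt_isUnipotentOnInertiaAt_of_mult_all (W : WeierstrassCurve ℤ) (hΔ : W.Δ ≠ 0)
    (ℓ : ℕ) [hℓ : Fact ℓ.Prime] (hℓ2 : ℓ ≠ 2) {q : ℕ} (hq : q.Prime)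
    (hne : q ≠ ℓ) (hbad : (q : ℤ) ∣ W.Δ) (hc₄ : ¬ (q : ℤ) ∣ W.c₄) :
    (tateRepInt W hΔ ℓ).IsUnipotentOnInertiaAt q :=
  tateRepInt_isUnipotentOnInertiaAt_of_torsion W hΔ ℓ
    (inertia_sub_sq_of_mult_all W hq hΔ hbad hc₄ hℓ.out hℓ2 hne)

/-- **EC-adic (c)+(d) for a semistable model**: unipotent on inertia at every prime `q ≠ ℓ`
(`ℓ ≠ 2`). -/
theorem tateRepInt_isUnipotentOnInertiaAt_of_semistable_all (W : WeierstrassCurve ℤ)
    (hΔ : W.Δ ≠ 0) (hss : W.IsSemistableModel)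
    (ℓ : ℕ) [hℓ : Fact ℓ.Prime] (hℓ2 : ℓ ≠ 2) {q : ℕ} (hq : q.Prime)
    (hne : q ≠ ℓ) : (tateRepInt W hΔ ℓ).IsUnipotentOnInertiaAt q := by
  by_cases hbad : (q : ℤ) ∣ W.Δ
  · exact tateRepInt_isUnipotentOnInertiaAt_of_mult_all W hΔ ℓ hℓ2 hq hne hbad (hss q hq hbad)
  · exact tateRepInt_isUnipotentOnInertiaAt_of_good W hΔ ℓ hq hbad hne

end Fermat.Agent.RED


end ZBRED_002_5
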