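/- GENERATED FILE (helper35, build-time optimisation, NOTES/ZB.md): verbatim concatenation of the modules
   Fermat.Agent.TW.S.LiftMat
   Fermat.Agent.TW.S.Core
   Fermat.Agent.TW.S.Frame
   Fermat.Agent.TW.S.Unr
   Fermat.Agent.TW.S.Iso
   Fermat.Agent.TW.S.Lev
   Fermat.Agent.TW.S.OrdPlan
   Fermat.Agent.TW.S.OrdGlue
   Do not edit; do not import together with these modules. -/
import Fermat.Agent.ZB.TW_001
import Fermat.Agent.ZB.PT_003

/-! ### bundled: `Fermat.Agent.TW.S.LiftMat` -/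
section ZBTW_016_0
/-
TW-S (helper54): matrix calculus over the dual numbers for the dictionary `IsCocOf`.
Shared by the pieces S-frame, S-coc, S-unr, S-trace, S-iso, S-min, S-ord.

For `M : M₂(k[ε])` write `M = M₀ + ε M₁`, `M₀ = dnFst M`, `M₁ = dnSnd M`.
* `dn_ext`                       : `M = N ↔ M₀ = N₀ ∧ M₁ = N₁`;
* `dnFst_mul`, `dnSnd_mul`       : `(MN)₀ = M₀N₀`, `(MN)₁ = M₀N₁ + M₁N₀`;
* `dnFst_liftMat`, `dnSnd_liftMat`: the parts of `(1 + εc)ρ̄`;
* `rhom_mul_inv`                 : `ρm σ * ρm σ⁻¹ = 1`;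
* `adMat_injective`, `adMat_ρ`   : `adMat` is injective, `adMat (σ·x) = ρm σ · adMat x · ρm σ⁻¹`;
* `isCocOf_iff_parts`            : `r σ = liftMat c σ ↔ (r σ)₀ = ρm σ ∧ (r σ)₁ = adMat (c σ) · ρm σ`.
-/

set_option autoImplicit false
set_option linter.unusedSectionVars false

noncomputable section

namespace Fermat.Agent.TW.S

open CategoryTheory groupCohomology IsLocalRing
open Fermat.Agent.PT Fermat.Agent.PT.B Fermat.Agent.S53 ExtCitation

section DN

variable {k : Type} [Field k]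

/-- the constant part of a matrix over the dual numbers -/
def dnFst (M : M2 (DualNumber k)) : M2 k := M.map TrivSqZeroExt.fst

/-- the `ε`-part of a matrix over the dual numbers -/
def dnSnd (M : M2 (DualNumber k)) : M2 k := M.map TrivSqZeroExt.snd

@[simp] lemma dnFst_apply (M : M2 (DualNumber k)) (i j : Fin 2) :
    dnFst M i j = (M i j).fst := rfl

@[simp] lemma dnSnd_apply (M : M2 (DualNumber k)) (i j : Fin 2) :
    dnSnd M i j = (M i j).snd := rfl

lemma dn_ext {M N : M2 (DualNumber k)} (h0 : dnFst M = dnFst N) (h1 : dnSnd M = dnSnd N) :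
    M = N := by
  ext i j
  · exact congrFun (congrFun h0 i) j
  · exact congrFun (congrFun h1 i) j

lemma dnFst_mul (M N : M2 (DualNumber k)) : dnFst (M * N) = dnFst M * dnFst N := by
  ext i j
  simp [Matrix.mul_apply]

lemma dnSnd_mul (M N : M2 (DualNumber k)) :
    dnSnd (M * N) = dnFst M * dnSnd N + dnSnd M * dnFst N := by
  ext i j
  simp only [dnSnd_apply, Matrix.mul_apply, Matrix.add_apply, dnFst_apply,
    TrivSqZeroExt.snd_sum, TrivSqZeroExt.snd_mul, smul_eq_mul, MulOpposite.smul_eq_mul_unop,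
    MulOpposite.unop_op, Finset.sum_add_distrib]

@[simp] lemma dnFst_one : dnFst (1 : M2 (DualNumber k)) = 1 := by
  ext i j
  by_cases h : i = j
  · subst h; simp
  · simp [Matrix.one_apply_ne h]

@[simp] lemma dnSnd_one : dnSnd (1 : M2 (DualNumber k)) = 0 := by
  ext i j
  by_cases h : i = j
  · subst h; simp
  · simp [Matrix.one_apply_ne h]

lemma dnFst_add (M N : M2 (DualNumber k)) : dnFst (M + N) = dnFst M + dnFst N := by
  ext i j; simp

lemma dnSnd_add (M N : M2 (DualNumber k)) : dnSnd (M + N) = dnSnd M + dnSnd N := by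
  ext i j; simp

@[simp] lemma dnFst_map_inl (M : M2 k) :
    dnFst (M.map (TrivSqZeroExt.inl : k → DualNumber k)) = M := by
  ext i j; simp

@[simp] lemma dnSnd_map_inl (M : M2 k) :
    dnSnd (M.map (TrivSqZeroExt.inl : k → DualNumber k)) = 0 := by
  ext i j; simp

@[simp] lemma dnFst_map_inr (M : M2 k) :
    dnFst (M.map (TrivSqZeroExt.inr : k → DualNumber k)) = 0 := by
  ext i j; simp

@[simp] lemma dnSnd_map_inr (M : M2 k) :
    dnSnd (M.map (TrivSqZeroExt.inr : k → DualNumber k)) = M := by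
  ext i j; simp

/-- `M = M₀ + ε M₁` -/
lemma dn_eq_parts (M : M2 (DualNumber k)) :
    M = (dnFst M).map (TrivSqZeroExt.inl : k → DualNumber k) +
      (dnSnd M).map (TrivSqZeroExt.inr : k → DualNumber k) := by
  apply dn_ext
  · rw [dnFst_add, dnFst_map_inl, dnFst_map_inr, add_zero]
  · rw [dnSnd_add, dnSnd_map_inl, dnSnd_map_inr, zero_add]

end DN

section Lift

variable {𝒪 : Type} [CommRing 𝒪] [IsLocalRing 𝒪] (p : ℕ) [Fact p.Prime]
  [CharP (ResidueField 𝒪) p] {ρbar : ResidualGaloisRep (ResidueField 𝒪)}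
  (D : RigidDatum 𝒪 ρbar)

lemma dnFst_liftMat (c : GQ → (adRep p ρbar).V) (σ : GQ) :
    dnFst (liftMat p D c σ) = D.ρm σ := by
  unfold liftMat
  rw [dnFst_add, dnFst_map_inl, dnFst_map_inr, add_zero]

lemma dnSnd_liftMat (c : GQ → (adRep p ρbar).V) (σ : GQ) :
    dnSnd (liftMat p D c σ) = adMat p D (c σ) * D.ρm σ := by
  unfold liftMat
  rw [dnSnd_add, dnSnd_map_inl, dnSnd_map_inr, zero_add]

lemma rhom_mul_inv (σ : GQ) : D.ρm σ * D.ρm σ⁻¹ = 1 := by
  rw [← map_mul, mul_inv_cancel, map_one]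

lemma rhom_inv_mul (σ : GQ) : D.ρm σ⁻¹ * D.ρm σ = 1 := by
  rw [← map_mul, inv_mul_cancel, map_one]

lemma adMat_injective : Function.Injective (adMat p D : (adRep p ρbar).V → M2 (ResidueField 𝒪)) :=
  fun _ _ h => adVal_injective p ρbar ((LinearMap.toMatrix D.b D.b).injective h)

lemma adMat_add (x y : (adRep p ρbar).V) : adMat p D (x + y) = adMat p D x + adMat p D y := by
  unfold adMat
  rw [map_add, map_add]

lemma adMat_sub (x y : (adRep p ρbar).V) : adMat p D (x - y) = adMat p D x - adMat p D y := by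
  unfold adMat
  rw [map_sub, map_sub]

@[simp] lemma adMat_zero : adMat p D (0 : (adRep p ρbar).V) = 0 := by
  unfold adMat
  rw [map_zero, map_zero]

lemma adMat_eq_zero_iff (x : (adRep p ρbar).V) : adMat p D x = 0 ↔ x = 0 := by
  constructor
  · intro h
    exact adMat_injective p D (h.trans (adMat_zero p D).symm)
  · rintro rfl
    exact adMat_zero p D

lemma adMat_surjective (M : M2 (ResidueField 𝒪)) : ∃ x : (adRep p ρbar).V, adMat p D x = M := by
  obtain ⟨x, hx⟩ := exists_adVal_eq p ρbar ((LinearMap.toMatrix D.b D.b).symm M)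
  exact ⟨x, by unfold adMat; rw [hx, LinearEquiv.apply_symm_apply]⟩

lemma toMatrix_rho (σ : GQ) : LinearMap.toMatrix D.b D.b (ρbar.ρ σ) = D.ρm σ := (D.ρm_eq σ).symm

/-- `adMat (σ·x) = ρm σ · adMat x · ρm σ⁻¹` -/
lemma adMat_ρ (σ : GQ) (x : (adRep p ρbar).V) :
    adMat p D ((adRep p ρbar).ρ σ x) = D.ρm σ * adMat p D x * D.ρm σ⁻¹ := by
  unfold adMat
  rw [adVal_ρ, LinearMap.toMatrix_mul, LinearMap.toMatrix_mul, toMatrix_rho, toMatrix_rho]

/-- the trace of `adVal x` is the trace of its matrix -/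
lemma trace_adVal (x : (adRep p ρbar).V) :
    LinearMap.trace (ResidueField 𝒪) ρbar.V (adVal p ρbar x) = (adMat p D x).trace := by
  unfold adMat
  rw [LinearMap.trace_eq_matrix_trace (ResidueField 𝒪) D.b]

/-- `r σ = (1 + ε c(σ)) ρ̄(σ)` in terms of the two parts -/
lemma eq_liftMat_iff (c : GQ → (adRep p ρbar).V) (σ : GQ)
    (M : M2 (DualNumber (ResidueField 𝒪))) :
    M = liftMat p D c σ ↔ dnFst M = D.ρm σ ∧ dnSnd M = adMat p D (c σ) * D.ρm σ := by
  constructor
  · rintro rfl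
    exact ⟨dnFst_liftMat p D c σ, dnSnd_liftMat p D c σ⟩
  · rintro ⟨h0, h1⟩
    apply dn_ext
    · rw [h0, dnFst_liftMat]
    · rw [h1, dnSnd_liftMat]

/-- the matrix of the cocycle from the two parts -/
lemma adMat_eq_of_liftMat (c : GQ → (adRep p ρbar).V) (σ : GQ) :
    adMat p D (c σ) = dnSnd (liftMat p D c σ) * D.ρm σ⁻¹ := by
  rw [dnSnd_liftMat, mul_assoc, rhom_mul_inv, mul_one]

end Lift

end Fermat.Agent.TW.S

end


end ZBTW_016_0

/-! ### bundled: `Fermat.Agent.TW.S.Core` -/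
section ZBTW_016_1
/-
TW-S (helper54): transfer between a deformation `ρ` and its matrix form `(1 + εc)ρ̄`.
Shared by the pieces S-unr, S-trace, S-min, S-ord.

For `IsCocOf p D ρ c`:
* `isCocOf_conj`       : `ρ σ = e⁻¹ ∘ toLin'(liftMat c σ) ∘ e` for a linear equivalence `e`;
* `isCocOf_rho_eq_one_iff` : `ρ σ = 1 ↔ liftMat c σ = 1`;
* `isCocOf_det`, `isCocOf_charpoly` : determinant and characteristic polynomial of `ρ σ`;
* `isCocOf_mul`        : `liftMat c (g h) = liftMat c g * liftMat c h`;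
* `isCocOf_matCont`    : the continuity of the matrix form.
-/

set_option autoImplicit false
set_option linter.unusedSectionVars false

noncomputable section

namespace Fermat.Agent.TW.S

open CategoryTheory groupCohomology IsLocalRing
open Fermat.Agent.PT Fermat.Agent.PT.B Fermat.Agent.S53 ExtCitation

variable {𝒪 : Type} [CommRing 𝒪] [IsLocalRing 𝒪] (p : ℕ) [Fact p.Prime]
  [CharP (ResidueField 𝒪) p] {ρbar : ResidualGaloisRep (ResidueField 𝒪)}
  (D : RigidDatum 𝒪 ρbar)
  {ρ : GaloisRepAdic (DualNumber (ResidueField 𝒪))} {c : GQ → (adRep p ρbar).V}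

/-- the deformation is conjugate to its matrix form -/
lemma isCocOf_conj (h : IsCocOf p D ρ c) :
    ∃ e : ρ.V ≃ₗ[DualNumber (ResidueField 𝒪)] (Fin 2 → DualNumber (ResidueField 𝒪)),
      ∀ σ : GQ, ρ.ρ σ = e.symm.conj (Matrix.toLin' (liftMat p D c σ)) := by
  obtain ⟨r, hr, ⟨e⟩, hlift⟩ := h
  refine ⟨e.toLinearEquiv, fun σ => ?_⟩
  apply LinearMap.ext
  intro x
  rw [LinearEquiv.conj_apply_apply, LinearEquiv.symm_symm, ← hlift σ]
  apply e.toLinearEquiv.injective
  rw [LinearEquiv.apply_symm_apply]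
  exact e.map_apply σ x

lemma isCocOf_rho_eq_one_iff (h : IsCocOf p D ρ c) (σ : GQ) :
    ρ.ρ σ = 1 ↔ liftMat p D c σ = 1 := by
  obtain ⟨e, he⟩ := isCocOf_conj p D h
  rw [he σ]
  constructor
  · intro h1
    have h2 : Matrix.toLin' (liftMat p D c σ) = 1 := by
      apply LinearMap.ext
      intro x
      have h4 := LinearMap.congr_fun h1 (e.symm x)
      rw [LinearEquiv.conj_apply_apply, LinearEquiv.symm_symm, LinearEquiv.apply_symm_apply,
        Module.End.one_apply] at h4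
      rw [Module.End.one_apply]
      exact e.symm.injective h4
    have h3 := congrArg LinearMap.toMatrix' h2
    rw [LinearMap.toMatrix'_toLin'] at h3
    rw [h3]
    exact LinearMap.toMatrix'_one
  · intro h1
    rw [h1, Matrix.toLin'_one]
    ext x
    simp [LinearEquiv.conj_apply]

lemma isCocOf_det (h : IsCocOf p D ρ c) (σ : GQ) :
    LinearMap.det (ρ.ρ σ) = (liftMat p D c σ).det := by
  obtain ⟨e, he⟩ := isCocOf_conj p D h
  rw [he σ, LinearEquiv.conj_apply, LinearMap.comp_assoc, LinearMap.det_conj,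
    LinearMap.det_toLin']

lemma isCocOf_charpoly (h : IsCocOf p D ρ c) (σ : GQ) :
    LinearMap.charpoly (ρ.ρ σ) = (liftMat p D c σ).charpoly := by
  obtain ⟨e, he⟩ := isCocOf_conj p D h
  rw [he σ, LinearEquiv.charpoly_conj, Matrix.charpoly_toLin']

lemma isCocOf_mul (h : IsCocOf p D ρ c) (g g' : GQ) :
    liftMat p D c (g * g') = liftMat p D c g * liftMat p D c g' := by
  obtain ⟨r, hr, -, hlift⟩ := h
  rw [← hlift, ← hlift, ← hlift, map_mul]

lemma isCocOf_one (h : IsCocOf p D ρ c) : liftMat p D c 1 = 1 := by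
  obtain ⟨r, hr, -, hlift⟩ := h
  rw [← hlift, map_one]

/-- the matrix form is trivial on `Gal(ℚ̄/F)` for some finite `F/ℚ` -/
lemma isCocOf_exists_level (h : IsCocOf p D ρ c) :
    ∃ F : QbarField, FiniteDimensional ℚ F ∧
      ∀ s : GQ, s ∈ F.fixingSubgroup → liftMat p D c s = 1 := by
  obtain ⟨r, hr, -, hlift⟩ := h
  obtain ⟨F, hF, hF2⟩ := hr 2
  refine ⟨F, hF, fun s hs => ?_⟩
  have hm : maximalIdeal (DualNumber (ResidueField 𝒪)) ^ 2 = ⊥ := by
    rw [eq_bot_iff]
    intro x hx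
    rw [pow_two] at hx
    refine Submodule.mul_induction_on hx ?_ ?_
    · intro a ha b hb
      rw [Ideal.mem_bot]
      have ha' : a.fst = 0 := by
        by_contra hne
        exact ha ((TrivSqZeroExt.isUnit_iff_isUnit_fst).2 (IsUnit.mk0 _ hne))
      have hb' : b.fst = 0 := by
        by_contra hne
        exact hb ((TrivSqZeroExt.isUnit_iff_isUnit_fst).2 (IsUnit.mk0 _ hne))
      apply TrivSqZeroExt.ext
      · simp [ha']
      · simp [ha', hb']
    · intro a b ha hb
      rw [Ideal.mem_bot] at ha hb ⊢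
      rw [ha, hb, add_zero]
  have h1 : ∀ i j, (r s - 1) i j = 0 := by
    intro i j
    have := hF2 s (fun x hx => (IntermediateField.mem_fixingSubgroup_iff F s).1 hs x hx) i j
    rw [hm] at this
    exact this
  rw [← hlift s]
  have h2 : r s - 1 = 0 := by
    apply Matrix.ext
    intro i j
    exact h1 i j
  exact sub_eq_zero.1 h2

end Fermat.Agent.TW.S

end


end ZBTW_016_1

/-! ### bundled: `Fermat.Agent.TW.S.Frame` -/
section ZBTW_016_2
/-
TW-S, piece S-frame (helper54): every deformation of `ρ̄` to `k[ε]` has a cocycle.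
-/

set_option autoImplicit false
set_option linter.unusedSectionVars false
set_option linter.style.haveILetI false

noncomputable section

namespace Fermat.Agent.TW.S

open CategoryTheory groupCohomology IsLocalRing
open Fermat.Agent.PT Fermat.Agent.PT.B Fermat.Agent.S53 ExtCitation

section

variable {𝒪 : Type} [CommRing 𝒪] [IsLocalRing 𝒪] (p : ℕ) [Fact p.Prime]
  [CharP (ResidueField 𝒪) p] {ρbar : ResidualGaloisRep (ResidueField 𝒪)}
  (D : RigidDatum 𝒪 ρbar)

/-- a framed matrix representation over `k[ε]` has constant part `ρm` -/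
lemma sframe_dnFst (r : Gal →* M2 (DualNumber (ResidueField 𝒪)))
    (hf : @Framed 𝒪 _ _ (DualNumber (ResidueField 𝒪)) _ _ (dnAlg 𝒪) D.ρm r) (σ : GQ) :
    dnFst (r σ) = D.ρm σ := by
  letI := dnAlg 𝒪
  ext i j
  obtain ⟨x, hx⟩ := residue_surjective (D.ρm σ i j)
  have h1 := hf σ i j x hx
  rw [dnAlg_algebraMap, hx] at h1
  have h2 : (r σ i j - TrivSqZeroExt.inl (D.ρm σ i j)).fst = 0 := by
    by_contra hne
    exact h1 ((TrivSqZeroExt.isUnit_iff_isUnit_fst).2 (IsUnit.mk0 _ hne))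
  rw [TrivSqZeroExt.fst_sub, TrivSqZeroExt.fst_inl, sub_eq_zero] at h2
  exact h2

/-- a framed matrix representation over `k[ε]` is `(1 + εc)ρ̄` -/
lemma sframe_exists (r : Gal →* M2 (DualNumber (ResidueField 𝒪)))
    (hf : @Framed 𝒪 _ _ (DualNumber (ResidueField 𝒪)) _ _ (dnAlg 𝒪) D.ρm r) :
    ∃ c : GQ → (adRep p ρbar).V, ∀ σ, r σ = liftMat p D c σ := by
  choose c hc using fun σ : GQ => adMat_surjective p D (dnSnd (r σ) * D.ρm σ⁻¹)
  refine ⟨c, fun σ => ?_⟩
  rw [eq_liftMat_iff]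
  refine ⟨sframe_dnFst D r hf σ, ?_⟩
  rw [hc σ, mul_assoc, rhom_inv_mul, mul_one]

end

/-- **S-frame.** -/
theorem stmtFrame : StmtFrame := by
  intro 𝒪 _ _ p _ _ ρbar D ρ h
  letI := dnAlg 𝒪
  letI := dnResAlg 𝒪
  obtain ⟨r, hr, hf, he⟩ := exists_framed_of_residual_isEquiv (A := DualNumber (ResidueField 𝒪)) D
    ((IsLocalRing.residue (DualNumber (ResidueField 𝒪))).comp
      (algebraMap (ResidueField 𝒪) (DualNumber (ResidueField 𝒪)))) (fun x => rfl) ρ h
  obtain ⟨c, hc⟩ := sframe_exists p D r hf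
  exact ⟨c, r, hr, he, hc⟩

end Fermat.Agent.TW.S

end


end ZBTW_016_2

/-! ### bundled: `Fermat.Agent.TW.S.Unr` -/
section ZBTW_016_3
/-
TW-S, pieces S-unr and S-coc (helper54).
-/

set_option autoImplicit false
set_option linter.unusedSectionVars false

noncomputable section

namespace Fermat.Agent.TW.S

open CategoryTheory groupCohomology IsLocalRing
open Fermat.Agent.PT Fermat.Agent.PT.B Fermat.Agent.S53 ExtCitation

section

variable {𝒪 : Type} [CommRing 𝒪] [IsLocalRing 𝒪] (p : ℕ) [Fact p.Prime]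
  [CharP (ResidueField 𝒪) p] {ρbar : ResidualGaloisRep (ResidueField 𝒪)}
  (D : RigidDatum 𝒪 ρbar)
  {ρ : GaloisRepAdic (DualNumber (ResidueField 𝒪))} {c : GQ → (adRep p ρbar).V}

/-- where the matrix form is trivial, so are `ρ̄` and the cocycle -/
lemma sunr_of_liftMat_eq_one (σ : GQ) (h1 : liftMat p D c σ = 1) : ρbar.ρ σ = 1 ∧ c σ = 0 := by
  have h0 : D.ρm σ = 1 := by
    rw [← dnFst_liftMat p D c σ, h1, dnFst_one]
  have hs : adMat p D (c σ) * D.ρm σ = 0 := by
    rw [← dnSnd_liftMat p D c σ, h1, dnSnd_one]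
  rw [h0, mul_one] at hs
  refine ⟨?_, (adMat_eq_zero_iff p D _).1 hs⟩
  apply (LinearMap.toMatrix D.b D.b).injective
  rw [toMatrix_rho, h0, LinearMap.toMatrix_one]

/-- cancel `B * B' = 1` in the middle of a product -/
lemma scoc_cancel {R : Type} [Monoid R] {B B' : R} (h : B * B' = 1) (M N : R) :
    M * B * (B' * N) = M * N := by
  rw [mul_assoc, ← mul_assoc B, h, one_mul]

/-- the cocycle identity -/
lemma scoc_mul (h : IsCocOf p D ρ c) (g g' : GQ) :
    c (g * g') = (adRep p ρbar).ρ g (c g') + c g := by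
  apply adMat_injective p D
  have h1 := congrArg dnSnd (isCocOf_mul p D h g g')
  rw [dnSnd_liftMat, dnSnd_mul, dnFst_liftMat, dnSnd_liftMat, dnSnd_liftMat, dnFst_liftMat,
    map_mul] at h1
  rw [adMat_add, adMat_ρ]
  have hB := rhom_mul_inv D g'
  have hA := rhom_mul_inv D g
  have h2 : adMat p D (c (g * g')) =
      (adMat p D (c (g * g')) * (D.ρm g * D.ρm g')) * (D.ρm g'⁻¹ * D.ρm g⁻¹) := by
    rw [← mul_assoc (adMat p D (c (g * g'))), scoc_cancel hB, mul_assoc, hA, mul_one]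
  rw [h2, h1, add_mul]
  congr 1
  · rw [← mul_assoc (D.ρm g), scoc_cancel hB]
  · rw [scoc_cancel hB, mul_assoc, hA, mul_one]

end

/-- **S-unr.** -/
theorem stmtUnr : StmtUnr := by
  intro 𝒪 _ _ p _ _ ρbar D ρ c h σ hσ
  exact sunr_of_liftMat_eq_one p D σ ((isCocOf_rho_eq_one_iff p D h σ).1 hσ)

/-- **S-coc.** -/
theorem stmtCoc : StmtCoc := by
  intro 𝒪 _ _ p _ _ ρbar D ρ c h
  refine ⟨fun g g' => scoc_mul p D h g g', ?_⟩
  obtain ⟨F, hF, hF1⟩ := isCocOf_exists_level p D h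
  refine ⟨F, hF, fun g s hs => ?_⟩
  have h1 := (sunr_of_liftMat_eq_one p D s (hF1 s hs)).2
  rw [scoc_mul p D h g s, h1, map_zero, zero_add]

end Fermat.Agent.TW.S

end


end ZBTW_016_3

/-! ### bundled: `Fermat.Agent.TW.S.Iso` -/
section ZBTW_016_4
/-
TW-S, piece S-iso (helper54): cohomologous cocycles belong to equivalent deformations.
-/

set_option autoImplicit false
set_option linter.unusedSectionVars false
set_option linter.style.haveILetI false

noncomputable section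

namespace Fermat.Agent.TW.S

open CategoryTheory groupCohomology IsLocalRing
open Fermat.Agent.PT Fermat.Agent.PT.B Fermat.Agent.S53 ExtCitation

section

variable {k : Type} [Field k]

/-- the matrix `1 + εX` over the dual numbers -/
def sisoOnePlus (X : M2 k) : M2 (DualNumber k) :=
  (1 : M2 k).map (TrivSqZeroExt.inl : k → DualNumber k) +
    X.map (TrivSqZeroExt.inr : k → DualNumber k)

lemma dnFst_sisoOnePlus (X : M2 k) : dnFst (sisoOnePlus X) = 1 := by
  unfold sisoOnePlus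
  rw [dnFst_add, dnFst_map_inl, dnFst_map_inr, add_zero]

lemma dnSnd_sisoOnePlus (X : M2 k) : dnSnd (sisoOnePlus X) = X := by
  unfold sisoOnePlus
  rw [dnSnd_add, dnSnd_map_inl, dnSnd_map_inr, zero_add]

lemma sisoOnePlus_mul (X Y : M2 k) : sisoOnePlus X * sisoOnePlus Y = sisoOnePlus (X + Y) := by
  apply dn_ext
  · rw [dnFst_mul, dnFst_sisoOnePlus, dnFst_sisoOnePlus, dnFst_sisoOnePlus, one_mul]
  · rw [dnSnd_mul, dnFst_sisoOnePlus, dnSnd_sisoOnePlus, dnSnd_sisoOnePlus, dnFst_sisoOnePlus,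
      dnSnd_sisoOnePlus, one_mul, mul_one, add_comm]

lemma sisoOnePlus_zero : sisoOnePlus (0 : M2 k) = 1 := by
  apply dn_ext
  · rw [dnFst_sisoOnePlus, dnFst_one]
  · rw [dnSnd_sisoOnePlus, dnSnd_one]

lemma isUnit_sisoOnePlus (X : M2 k) : IsUnit (sisoOnePlus X) :=
  ⟨⟨sisoOnePlus X, sisoOnePlus (-X), by rw [sisoOnePlus_mul, add_neg_cancel, sisoOnePlus_zero],
    by rw [sisoOnePlus_mul, neg_add_cancel, sisoOnePlus_zero]⟩, rfl⟩

end

/-- **S-iso.** -/
theorem stmtIso : StmtIso := by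
  intro 𝒪 _ _ p _ _ ρbar D ρ ρ' c c' h h' hx
  obtain ⟨x, hx⟩ := hx
  obtain ⟨r, hr, he, hlift⟩ := h
  obtain ⟨r', hr', he', hlift'⟩ := h'
  have hconj : Conj r r' := by
    refine ⟨sisoOnePlus (adMat p D x), isUnit_sisoOnePlus _, fun σ => ?_⟩
    rw [hlift σ, hlift' σ]
    have hx' := congrArg (adMat p D) (hx σ)
    rw [adMat_sub, adMat_sub, adMat_ρ] at hx'
    apply dn_ext
    · rw [dnFst_mul, dnFst_mul, dnFst_sisoOnePlus, dnFst_liftMat, dnFst_liftMat, one_mul,
        mul_one]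
    · rw [dnSnd_mul, dnSnd_mul, dnFst_sisoOnePlus, dnSnd_sisoOnePlus, dnFst_liftMat,
        dnSnd_liftMat, dnFst_liftMat, dnSnd_liftMat, one_mul]
      have h1 : adMat p D (c σ) = adMat p D (c' σ) +
          (D.ρm σ * adMat p D x * D.ρm σ⁻¹ - adMat p D x) := by
        rw [← hx']
        abel
      rw [h1, add_mul, sub_mul, mul_assoc (D.ρm σ * adMat p D x), rhom_inv_mul]
      simp only [mul_one]
      abel
  exact GaloisRepAdic_isEquiv_trans he
    (GaloisRepAdic_isEquiv_trans (isEquiv_of_conj hr hr' hconj)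
      (GaloisRepAdic_isEquiv_symm he'))

end Fermat.Agent.TW.S

end


end ZBTW_016_4

/-! ### bundled: `Fermat.Agent.TW.S.Lev` -/
section ZBTW_016_5

/-!
# TW-S / S-lev

`stmtLev : StmtLev`: the cocycle of a deformation of `ρ̄` to `k[ε]` which is unramified outside
`T` is constant modulo a level of the tower `towerS T`.

Proof.  `N := {g | (1 + ε c(g)) ρ̄(g) = 1}` is a normal subgroup of `G_ℚ` containing `Gal(ℚ̄/F)` for
a finite `F/ℚ` (`isCocOf_exists_level`) and the inertia groups outside `T`; by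
`PT.B.isTowerField_fixedField_of_normal` it is a member of the tower, and `c(g s) = c(g)` for
`s ∈ N` by multiplicativity of the matrix form.
-/

set_option autoImplicit false

noncomputable section

namespace Fermat.Agent.TW.S

open CategoryTheory groupCohomology IsLocalRing
open Fermat.Agent.PT Fermat.Agent.PT.B Fermat.Agent.S53 Fermat.Agent.TW.L ExtCitation

/-- the cocycle is right-invariant under the kernel of the matrix form -/
theorem slev_invariant {𝒪 : Type} [CommRing 𝒪] [IsLocalRing 𝒪] (p : ℕ) [Fact p.Prime]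
    [CharP (ResidueField 𝒪) p] {ρbar : ResidualGaloisRep (ResidueField 𝒪)}
    (D : RigidDatum 𝒪 ρbar) {ρ : GaloisRepAdic (DualNumber (ResidueField 𝒪))}
    {c : GQ → (adRep p ρbar).V} (h : IsCocOf p D ρ c) (g s : GQ)
    (hs : liftMat p D c s = 1) : c (g * s) = c g := by
  have hmul := isCocOf_mul p D h g s
  rw [hs, mul_one] at hmul
  have h0 : D.ρm (g * s) = D.ρm g := by
    rw [← dnFst_liftMat p D c (g * s), hmul, dnFst_liftMat]
  have h1 : adMat p D (c (g * s)) * D.ρm (g * s) = adMat p D (c g) * D.ρm g := by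
    rw [← dnSnd_liftMat p D c (g * s), hmul, dnSnd_liftMat]
  rw [h0] at h1
  apply adMat_injective p D
  have h2 := congrArg (· * D.ρm g⁻¹) h1
  simp only [mul_assoc, rhom_mul_inv, mul_one] at h2
  exact h2

/-- **S-lev.** -/
theorem stmtLev : StmtLev := by
  intro 𝒪 _ _ p _ _ _ ρbar D ρ c T hcoc hur
  obtain ⟨F, hF, hFtriv⟩ := isCocOf_exists_level p D hcoc
  let N : Subgroup GQ :=
    { carrier := {g | liftMat p D c g = 1}
      one_mem' := isCocOf_one p D hcoc
      mul_mem' := fun {a b} ha hb => by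
        show liftMat p D c (a * b) = 1
        rw [isCocOf_mul p D hcoc, (ha : liftMat p D c a = 1), (hb : liftMat p D c b = 1),
          one_mul]
      inv_mem' := fun {a} ha => by
        show liftMat p D c a⁻¹ = 1
        have h1 : liftMat p D c a⁻¹ * liftMat p D c a = 1 := by
          rw [← isCocOf_mul p D hcoc, inv_mul_cancel, isCocOf_one p D hcoc]
        rw [(ha : liftMat p D c a = 1), mul_one] at h1
        exact h1 }
  have : N.Normal := ⟨fun n hn g => by
    show liftMat p D c (g * n * g⁻¹) = 1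
    rw [isCocOf_mul p D hcoc, isCocOf_mul p D hcoc, (hn : liftMat p D c n = 1), mul_one,
      ← isCocOf_mul p D hcoc, mul_inv_cancel, isCocOf_one p D hcoc]⟩
  obtain ⟨hT, hfix⟩ := isTowerField_fixedField_of_normal T N F hF (fun s hs => hFtriv s hs)
    (fun q hq A hA g hg =>
      (isCocOf_rho_eq_one_iff p D hcoc g).mp (hur q hq A hA g hg))
  refine ⟨N, ⟨IntermediateField.fixedField N, hT.1, hfix.symm⟩, fun g s hs => ?_⟩
  exact slev_invariant p D hcoc g s hs

end Fermat.Agent.TW.S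

end


end ZBTW_016_5

/-! ### bundled: `Fermat.Agent.TW.S.OrdPlan` -/
section ZBTW_016_6

/-!
# TW-S / S-ord: interface of the split O1 – O4 (owner helper24)

* **O1** (helper48, `TW/S/OrdScalar.lean`): `stmtOrdScalar`, of type `StmtOrdScalar` below:
  the line `L` of a strictly ordinary deformation with cyclotomic determinant over `k[ε]`
  (at the place `padicPlace p`), with the two characters of the decomposition group in `k`.
* **O2** (helper22, `TW/S/OrdRed.lean`): `stmtOrdRed_of : StmtOrdScalar → StmtOrdRed`: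
  the line in the coordinates of the matrix form `(1 + ε c) ρ̄`, generated by `w₀ + ε w₁`, with
  `w₀` a generator of `L̄` (transport by `isCocOf_conj`, then `stmtLine`).
* **O3 + O4** (helper24, `TW/S/Ord.lean`): `stmtOrd_of_red : StmtOrdRed → StmtOrd` and the final
  `stmtOrd : StmtOrd`.
-/

set_option autoImplicit false

noncomputable section

namespace Fermat.Agent.TW.S

open CategoryTheory groupCohomology IsLocalRing
open Fermat.Agent.PT Fermat.Agent.PT.B Fermat.Agent.S53 Fermat.Agent.TW.L ExtCitation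

/-- the vector `w₀ + ε w₁` of `k[ε]²` -/
def sordVec {k : Type} [Field k] (w0 w1 : Fin 2 → k) : Fin 2 → DualNumber k :=
  fun i => TrivSqZeroExt.inl (w0 i) + TrivSqZeroExt.inr (w1 i)

/-- **O1** (the statement of helper48's `stmtOrdScalar`). -/
def StmtOrdScalar : Prop :=
  ∀ (k : Type) [Field k] (p : ℕ) [Fact p.Prime] [CharP k p], p ≠ 2 →
    ∀ (ρ : GaloisRepAdic (DualNumber k)), ρ.DetIsCyclotomic p → ρ.IsStrictOrdinaryAt p →
    ∃ L : Submodule (DualNumber k) ρ.V,
      (∃ b : Module.Basis (Fin 2) (DualNumber k) ρ.V, L = DualNumber k ∙ b 0) ∧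
      (∀ σ ∈ (padicPlace p).decompositionSubgroup ℚ, ∀ v ∈ L, ρ.ρ σ v ∈ L) ∧
      (∀ σ ∈ (padicPlace p).inertiaSubgroupIn ℚ, ∀ v : ρ.V, ρ.ρ σ v - v ∈ L) ∧
      ∀ σ ∈ (padicPlace p).decompositionSubgroup ℚ, ∃ x z : k, x ≠ 0 ∧ z ≠ 0 ∧
        (∀ w ∈ L, ρ.ρ σ w = (TrivSqZeroExt.inl x : DualNumber k) • w) ∧
        (∀ v : ρ.V, ρ.ρ σ v - (TrivSqZeroExt.inl z : DualNumber k) • v ∈ L)

/-- **O2**: the ordinary line of the deformation in the coordinates of the matrix form
`r σ = liftMat p D c σ = (1 + ε c(σ)) ρ̄(σ)`: it is generated by `w = w₀ + ε w₁`, where `w₀ ≠ 0`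
are the coordinates (basis `D.b`) of a vector of `L̄`; every `σ` of the decomposition group at
`padicPlace p` acts on `w` by a scalar `x ∈ kˣ` and on the quotient by a scalar `z ∈ kˣ`. -/
def StmtOrdRed : Prop :=
  ∀ (𝒪 : Type) [CommRing 𝒪] [IsLocalRing 𝒪] (p : ℕ) [Fact p.Prime] [CharP (ResidueField 𝒪) p]
    (ρbar : ResidualGaloisRep (ResidueField 𝒪)) (D : RigidDatum 𝒪 ρbar)
    (ρ : GaloisRepAdic (DualNumber (ResidueField 𝒪))) (c : GQ → (adRep p ρbar).V)
    (Lbar : Submodule (ResidueField 𝒪) ρbar.V), p ≠ 2 →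
    IsCocOf p D ρ c → ρ.DetIsCyclotomic p → ρ.IsStrictOrdinaryAt p → IsOrdLine p ρbar Lbar →
    ∃ w0 w1 : Fin 2 → ResidueField 𝒪, w0 ≠ 0 ∧ D.b.equivFun.symm w0 ∈ Lbar ∧
      ∀ σ ∈ (padicPlace p).decompositionSubgroup ℚ, ∃ x z : ResidueField 𝒪, x ≠ 0 ∧ z ≠ 0 ∧
        (liftMat p D c σ).mulVec (sordVec w0 w1) =
          (TrivSqZeroExt.inl x : DualNumber (ResidueField 𝒪)) • sordVec w0 w1 ∧
        ∀ v : Fin 2 → DualNumber (ResidueField 𝒪), ∃ t : DualNumber (ResidueField 𝒪),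
          (liftMat p D c σ).mulVec v - (TrivSqZeroExt.inl z : DualNumber (ResidueField 𝒪)) • v =
            t • sordVec w0 w1

end Fermat.Agent.TW.S

end


end ZBTW_016_6

/-! ### bundled: `Fermat.Agent.TW.S.OrdGlue` -/
section ZBTW_016_7
/-
TW-S / S-ord, GLUE (helper48): `StmtOrdRed` from O1 (`stmtOrdScalar`), the conjugation
`isCocOf_conj` and O2 (helper22's `sord_red`, taken here as the hypothesis `hred`).

`sord_glue_core` : the statement for given `e`, `L`, `b`;
`stmtOrdRed_of`  : `StmtOrdScalar → (hred) → StmtOrdRed`.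
-/

set_option autoImplicit false
set_option linter.unusedSectionVars false
set_option linter.style.haveILetI false

noncomputable section

namespace Fermat.Agent.TW.S

open CategoryTheory groupCohomology IsLocalRing
open Fermat.Agent.PT Fermat.Agent.PT.B Fermat.Agent.S53 Fermat.Agent.TW.L ExtCitation

section sordGlue

variable {𝒪 : Type} [CommRing 𝒪] [IsLocalRing 𝒪] (p : ℕ) [Fact p.Prime]
  [CharP (ResidueField 𝒪) p] {ρbar : ResidualGaloisRep (ResidueField 𝒪)}
  (D : RigidDatum 𝒪 ρbar)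
  {ρ : GaloisRepAdic (DualNumber (ResidueField 𝒪))} {c : GQ → (adRep p ρbar).V}

/-- a vector of `k[ε]²` is `w₀ + ε w₁` -/
lemma sordVec_fst_snd {k : Type} [Field k] (w : Fin 2 → DualNumber k) :
    sordVec (fun i => (w i).fst) (fun i => (w i).snd) = w := by
  funext i
  exact TrivSqZeroExt.inl_fst_add_inr_snd_eq (w i)

/-- the conjugation `e` intertwines `ρ σ` and the matrix form -/
lemma sord_glue_conj (e : ρ.V ≃ₗ[DualNumber (ResidueField 𝒪)]
      (Fin 2 → DualNumber (ResidueField 𝒪)))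
    (he : ∀ σ : GQ, ρ.ρ σ = e.symm.conj (Matrix.toLin' (liftMat p D c σ))) (σ : GQ) (v : ρ.V) :
    e (ρ.ρ σ v) = (liftMat p D c σ).mulVec (e v) := by
  rw [he σ, LinearEquiv.conj_apply_apply, LinearEquiv.symm_symm, LinearEquiv.apply_symm_apply,
    Matrix.toLin'_apply]

/-- **The glue of S-ord**, for a given conjugation and a given line. -/
theorem sord_glue_core (Lbar : Submodule (ResidueField 𝒪) ρbar.V)
    (e : ρ.V ≃ₗ[DualNumber (ResidueField 𝒪)] (Fin 2 → DualNumber (ResidueField 𝒪)))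
    (he : ∀ σ : GQ, ρ.ρ σ = e.symm.conj (Matrix.toLin' (liftMat p D c σ)))
    (L : Submodule (DualNumber (ResidueField 𝒪)) ρ.V)
    (b : Module.Basis (Fin 2) (DualNumber (ResidueField 𝒪)) ρ.V)
    (hL : L = DualNumber (ResidueField 𝒪) ∙ b 0)
    (hscal : ∀ σ ∈ (padicPlace p).decompositionSubgroup ℚ, ∃ x z : ResidueField 𝒪,
      x ≠ 0 ∧ z ≠ 0 ∧
      (∀ w ∈ L, ρ.ρ σ w = (TrivSqZeroExt.inl x : DualNumber (ResidueField 𝒪)) • w) ∧
      (∀ v : ρ.V, ρ.ρ σ v - (TrivSqZeroExt.inl z : DualNumber (ResidueField 𝒪)) • v ∈ L))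
    (hred : (∑ i, (e (b 0) i).fst • D.b i) ≠ 0 ∧ (∑ i, (e (b 0) i).fst • D.b i) ∈ Lbar) :
    ∃ w0 w1 : Fin 2 → ResidueField 𝒪, w0 ≠ 0 ∧ D.b.equivFun.symm w0 ∈ Lbar ∧
      ∀ σ ∈ (padicPlace p).decompositionSubgroup ℚ, ∃ x z : ResidueField 𝒪, x ≠ 0 ∧ z ≠ 0 ∧
        (liftMat p D c σ).mulVec (sordVec w0 w1) =
          (TrivSqZeroExt.inl x : DualNumber (ResidueField 𝒪)) • sordVec w0 w1 ∧
        ∀ v : Fin 2 → DualNumber (ResidueField 𝒪), ∃ t : DualNumber (ResidueField 𝒪),
          (liftMat p D c σ).mulVec v - (TrivSqZeroExt.inl z : DualNumber (ResidueField 𝒪)) • v =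
            t • sordVec w0 w1 := by
  have hb0 : b 0 ∈ L := by rw [hL]; exact Submodule.mem_span_singleton_self _
  have hsum : D.b.equivFun.symm (fun i => (e (b 0) i).fst) = ∑ i, (e (b 0) i).fst • D.b i :=
    Module.Basis.equivFun_symm_apply D.b _
  refine ⟨fun i => (e (b 0) i).fst, fun i => (e (b 0) i).snd, ?_, ?_, ?_⟩
  · intro h0
    apply hred.1
    rw [← hsum, h0, map_zero]
  · rw [hsum]
    exact hred.2
  · intro σ hσ
    obtain ⟨x, z, hx0, hz0, hx, hz⟩ := hscal σ hσ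
    refine ⟨x, z, hx0, hz0, ?_, fun v => ?_⟩
    · rw [sordVec_fst_snd, ← sord_glue_conj p D e he, hx _ hb0, map_smul]
    · have h1 := hz (e.symm v)
      rw [hL, Submodule.mem_span_singleton] at h1
      obtain ⟨t, ht⟩ := h1
      refine ⟨t, ?_⟩
      rw [sordVec_fst_snd]
      have h2 := congrArg e ht
      rw [map_smul, map_sub, map_smul, sord_glue_conj p D e he, LinearEquiv.apply_symm_apply]
        at h2
      exact h2.symm

end sordGlue

/-- **GLUE of S-ord**: `StmtOrdRed` from O1 and O2 (O2 in the form of helper22's `sord_red`). -/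
theorem stmtOrdRed_of (hscal : StmtOrdScalar)
    (hred : ∀ (𝒪 : Type) [CommRing 𝒪] [IsLocalRing 𝒪] (p : ℕ) [Fact p.Prime]
      [CharP (ResidueField 𝒪) p] (ρbar : ResidualGaloisRep (ResidueField 𝒪))
      (D : RigidDatum 𝒪 ρbar) (ρ : GaloisRepAdic (DualNumber (ResidueField 𝒪)))
      (c : GQ → (adRep p ρbar).V) (Lbar : Submodule (ResidueField 𝒪) ρbar.V),
      p ≠ 2 → ρ.DetIsCyclotomic p → IsOrdLine p ρbar Lbar →
      ∀ (e : ρ.V ≃ₗ[DualNumber (ResidueField 𝒪)] (Fin 2 → DualNumber (ResidueField 𝒪))),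
      (∀ σ : GQ, ρ.ρ σ = e.symm.conj (Matrix.toLin' (liftMat p D c σ))) →
      ∀ (L : Submodule (DualNumber (ResidueField 𝒪)) ρ.V)
        (b : Module.Basis (Fin 2) (DualNumber (ResidueField 𝒪)) ρ.V),
      L = DualNumber (ResidueField 𝒪) ∙ b 0 →
      (∀ σ ∈ (padicPlace p).decompositionSubgroup ℚ, ∀ v ∈ L, ρ.ρ σ v ∈ L) →
      (∀ σ ∈ (padicPlace p).inertiaSubgroupIn ℚ, ∀ v : ρ.V, ρ.ρ σ v - v ∈ L) →
      (∑ i, (e (b 0) i).fst • D.b i) ≠ 0 ∧ (∑ i, (e (b 0) i).fst • D.b i) ∈ Lbar) :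
    StmtOrdRed := by
  intro 𝒪 _ _ p _ _ ρbar D ρ c Lbar hp2 hcoc hdet hord hLbar
  obtain ⟨L, ⟨b, hb⟩, hD, hI, hS⟩ := hscal (ResidueField 𝒪) p hp2 ρ hdet hord
  obtain ⟨e, he⟩ := isCocOf_conj p D hcoc
  exact sord_glue_core p D Lbar e he L b hb hS
    (hred 𝒪 p ρbar D ρ c Lbar hp2 hdet hLbar e he L b hb hD hI)

end Fermat.Agent.TW.S

end


end ZBTW_016_7
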