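/- GENERATED FILE (helper35, build-time optimisation, NOTES/ZB.md): verbatim concatenation of the modules
   Fermat.Agent.TW.S.Trace
   Fermat.Agent.TW.S.OrdMove
   Fermat.Agent.TW.S.OrdScalar
   Do not edit; do not import together with these modules. -/
import Fermat.Agent.ZB.TW_001
import Fermat.Agent.ZB.TW_016
import Fermat.Agent.ZB.PT_003

/-! ### bundled: `Fermat.Agent.TW.S.Trace` -/
section ZBTW_017_0

/-!
# TW-S / S-trace

`stmtTrace : StmtTrace`: the cocycle of a deformation of `ρ̄` to `k[ε]` with cyclotomic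
determinant has trace `0`.

Proof.  Every `σ` acts on `μ_p` by an `a`-th power (`strace_exists_exp`), and `p = 0` in `k[ε]`,
so `det ρ(σ) = a` is a constant: its `ε`-part vanishes.  On the other hand
`det ((1 + ε c) ρ̄) = det ρ̄ + ε · det ρ̄ · tr c` (`strace_snd_det`), and `det ρ̄(σ)` is a unit.
-/

set_option autoImplicit false

noncomputable section

namespace Fermat.Agent.TW.S

open CategoryTheory groupCohomology IsLocalRing
open Fermat.Agent.PT Fermat.Agent.PT.B Fermat.Agent.S53 Fermat.Agent.TW.L ExtCitation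

/-- every `σ` acts on the `n`-th roots of unity by an `a`-th power -/
theorem strace_exists_exp (n : ℕ) [NeZero n] (σ : GQ) :
    ∃ a : ℕ, ∀ μ : AlgebraicClosure ℚ, μ ^ n = 1 → σ μ = μ ^ a := by
  refine ⟨(modularCyclotomicCharacter.toFun n
    (σ : AlgebraicClosure ℚ ≃+* AlgebraicClosure ℚ)).val, fun μ hμ => ?_⟩
  have hu : IsUnit μ := IsUnit.of_pow_eq_one hμ (NeZero.ne n)
  obtain ⟨u, rfl⟩ := hu
  have hmem : u ∈ rootsOfUnity n (AlgebraicClosure ℚ) := by
    rw [mem_rootsOfUnity]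
    exact Units.ext (by simpa using hμ)
  have := modularCyclotomicCharacter.toFun_spec
    (σ : AlgebraicClosure ℚ ≃+* AlgebraicClosure ℚ) (n := n) ⟨u, hmem⟩
  simpa using this

/-- the `ε`-part of `det (P + ε C P)` for `2 × 2` matrices -/
theorem strace_snd_det {k : Type} [Field k] (P C : M2 k) :
    (Matrix.det (P.map (TrivSqZeroExt.inl : k → DualNumber k) +
      (C * P).map (TrivSqZeroExt.inr : k → DualNumber k))).snd = P.det * C.trace := by
  simp only [Matrix.det_fin_two, Matrix.trace_fin_two, Matrix.add_apply, Matrix.map_apply,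
    Matrix.mul_apply, Fin.sum_univ_two, TrivSqZeroExt.snd_sub, TrivSqZeroExt.snd_mul,
    TrivSqZeroExt.fst_add, TrivSqZeroExt.snd_add, TrivSqZeroExt.fst_inl, TrivSqZeroExt.snd_inl,
    TrivSqZeroExt.fst_inr, TrivSqZeroExt.snd_inr, smul_eq_mul, MulOpposite.smul_eq_mul_unop,
    MulOpposite.unop_op, add_zero, zero_add]
  ring

/-- **S-trace.** -/
theorem stmtTrace : StmtTrace := by
  intro 𝒪 _ _ p _ _ ρbar D ρ c hcoc hdet σ
  obtain ⟨r, hr, ⟨e⟩, hrσ⟩ := hcoc
  have : NeZero (p ^ 1) := ⟨pow_ne_zero _ (Fact.out : p.Prime).ne_zero⟩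
  obtain ⟨a, ha⟩ := strace_exists_exp (p ^ 1) σ
  have h1 := hdet.2 1 σ a ha
  have hp0 : (((p ^ 1 : ℕ)) : DualNumber (ResidueField 𝒪)) = 0 := by
    rw [pow_one]
    refine TrivSqZeroExt.ext ?_ ?_
    · rw [TrivSqZeroExt.fst_natCast, CharP.cast_eq_zero, TrivSqZeroExt.fst_zero]
    · rw [TrivSqZeroExt.snd_natCast, TrivSqZeroExt.snd_zero]
  rw [hp0, Ideal.span_singleton_eq_bot.mpr rfl, Ideal.mem_bot, sub_eq_zero] at h1
  -- the determinant of `ρ σ` is that of the matrix
  have hconj : (ofMatrix r hr).ρ σ =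
      (e.toLinearEquiv : ρ.V →ₗ[_] _) ∘ₗ ρ.ρ σ ∘ₗ (e.toLinearEquiv.symm : _ →ₗ[_] ρ.V) := by
    refine LinearMap.ext fun v => ?_
    rw [LinearMap.comp_apply, LinearMap.comp_apply, LinearEquiv.coe_coe, LinearEquiv.coe_coe,
      e.map_apply, LinearEquiv.apply_symm_apply]
  have hdetr : LinearMap.det (ρ.ρ σ) = Matrix.det (r σ) := by
    rw [← LinearMap.det_conj (ρ.ρ σ) e.toLinearEquiv, ← hconj]
    exact LinearMap.det_toLin' (r σ)
  rw [hdetr, hrσ] at h1
  have h2 := congrArg TrivSqZeroExt.snd h1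
  rw [liftMat, strace_snd_det, TrivSqZeroExt.snd_natCast] at h2
  have hunit : (D.ρm σ).det ≠ 0 := by
    have h3 : (D.ρm σ).det * (D.ρm σ⁻¹).det = 1 := by
      rw [← Matrix.det_mul, ← map_mul, mul_inv_cancel, map_one, Matrix.det_one]
    exact left_ne_zero_of_mul_eq_one h3
  rw [LinearMap.trace_eq_matrix_trace _ D.b]
  exact (mul_eq_zero.mp h2).resolve_left hunit

end Fermat.Agent.TW.S

end


end ZBTW_017_0

/-! ### bundled: `Fermat.Agent.TW.S.OrdMove` -/
section ZBTW_017_1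

/-!
# TW-S / S-ord, pieces O3 + O4

`stmtOrd_of_red : StmtOrdRed → StmtOrd`: the cocycle of a strictly ordinary deformation with
cyclotomic determinant is, on `G_{ℚ_p}`, cohomologous to a cocycle with values in
`N = Hom(V̄/L̄, L̄)`.

In the coordinates of the matrix form `(1 + ε c(σ)) ρ̄(σ)` the ordinary line is generated by
`w₀ + ε w₁` (`StmtOrdRed`).  Choose a trace-zero `Y` with `Y w₀ = -w₁` (`sordm_exists_Y`); then
`1 + ε Y` moves the line to the constant line `k[ε] w₀`, and `c(σ) - (σ·Y - Y)` kills `w₀` and has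
image in `k w₀` (`sordm_core`), because the two characters of the decomposition group have values
in `k`.
-/

set_option autoImplicit false

noncomputable section

namespace Fermat.Agent.TW.S

open CategoryTheory groupCohomology IsLocalRing
open Fermat.Agent.PT Fermat.Agent.PT.B Fermat.Agent.S53 Fermat.Agent.TW.L ExtCitation

section Alg

variable {k : Type} [Field k]

/-- a trace-zero matrix with prescribed value on a nonzero vector -/
theorem sordm_exists_Y (w0 u : Fin 2 → k) (hw0 : w0 ≠ 0) :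
    ∃ Y : M2 k, Y.trace = 0 ∧ Y.mulVec w0 = u := by
  by_cases h0 : w0 0 = 0
  · have h1 : w0 1 ≠ 0 := by
      intro h1
      apply hw0
      funext i
      fin_cases i
      · exact h0
      · exact h1
    refine ⟨!![-(u 1 / w0 1), u 0 / w0 1; 0, u 1 / w0 1], ?_, ?_⟩
    · simp [Matrix.trace_fin_two]
    · funext i
      fin_cases i
      · simp [Matrix.mulVec, dotProduct, Fin.sum_univ_two, h0]
        field_simp
      · simp [Matrix.mulVec, dotProduct, Fin.sum_univ_two, h0]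
        field_simp
  · refine ⟨!![u 0 / w0 0, 0; (u 1 + u 0 / w0 0 * w0 1) / w0 0, -(u 0 / w0 0)], ?_, ?_⟩
    · simp [Matrix.trace_fin_two]
    · funext i
      fin_cases i
      · simp [Matrix.mulVec, dotProduct, Fin.sum_univ_two]
        field_simp
      · simp [Matrix.mulVec, dotProduct, Fin.sum_univ_two]
        field_simp
        ring

/-- **O3 + O4**, in coordinates: after moving the line to the constant line, the cocycle takes
values in `Hom(V̄/L̄, L̄)`. -/
theorem sordm_core (P Pinv C Y : M2 k) (hPP : P * Pinv = 1) (hPP' : Pinv * P = 1)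
    (w0 w1 : Fin 2 → k) (x z : k) (hx : x ≠ 0) (hz : z ≠ 0)
    (H1 : P.mulVec w0 = x • w0)
    (H2 : P.mulVec w1 + (C * P).mulVec w0 = x • w1)
    (H3 : ∀ v0 : Fin 2 → k, ∃ t0 t1 : k,
      P.mulVec v0 - z • v0 = t0 • w0 ∧ (C * P).mulVec v0 = t0 • w1 + t1 • w0)
    (hY : Y.mulVec w0 = -w1) :
    (C - (P * Y * Pinv - Y)).mulVec w0 = 0 ∧
      ∀ u : Fin 2 → k, ∃ s : k, (C - (P * Y * Pinv - Y)).mulVec u = s • w0 := by
  have hPinv_w0 : Pinv.mulVec w0 = x⁻¹ • w0 := by
    have h := congrArg (fun v => Pinv.mulVec v) H1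
    simp only [Matrix.mulVec_mulVec, hPP', Matrix.one_mulVec, Matrix.mulVec_smul] at h
    calc Pinv.mulVec w0 = x⁻¹ • (x • Pinv.mulVec w0) := by
          rw [smul_smul, inv_mul_cancel₀ hx, one_smul]
      _ = x⁻¹ • w0 := by rw [← h]
  have hC_w0 : x • C.mulVec w0 = x • w1 - P.mulVec w1 := by
    have h : (C * P).mulVec w0 = x • C.mulVec w0 := by
      rw [← Matrix.mulVec_mulVec, H1, Matrix.mulVec_smul]
    rw [← h, ← H2]
    abel
  constructor
  · have e1 : (P * Y * Pinv).mulVec w0 = -(x⁻¹ • P.mulVec w1) := by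
      rw [← Matrix.mulVec_mulVec, hPinv_w0, Matrix.mulVec_smul, ← Matrix.mulVec_mulVec, hY,
        Matrix.mulVec_neg, smul_neg]
    have e2 : C.mulVec w0 = w1 - x⁻¹ • P.mulVec w1 := by
      calc C.mulVec w0 = x⁻¹ • (x • C.mulVec w0) := by
            rw [smul_smul, inv_mul_cancel₀ hx, one_smul]
        _ = x⁻¹ • (x • w1 - P.mulVec w1) := by rw [hC_w0]
        _ = w1 - x⁻¹ • P.mulVec w1 := by
            rw [smul_sub, smul_smul, inv_mul_cancel₀ hx, one_smul]
    rw [Matrix.sub_mulVec, Matrix.sub_mulVec, e1, e2, hY]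
    abel
  · intro u
    obtain ⟨t0, t1, h3a, h3b⟩ := H3 (Pinv.mulVec u)
    obtain ⟨t0', -, h3a', -⟩ := H3 (Y.mulVec u)
    obtain ⟨t0'', -, h3a'', -⟩ := H3 w1
    have hPu : P.mulVec (Pinv.mulVec u) = u := by
      rw [Matrix.mulVec_mulVec, hPP, Matrix.one_mulVec]
    have hCu : C.mulVec u = t0 • w1 + t1 • w0 := by
      rw [← h3b, ← Matrix.mulVec_mulVec, hPu]
    rw [hPu] at h3a
    have hPinv_u : Pinv.mulVec u = z⁻¹ • (u - t0 • w0) := by
      rw [← h3a, sub_sub_cancel, smul_smul, inv_mul_cancel₀ hz, one_smul]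
    have hPYu : P.mulVec (Y.mulVec u) = z • Y.mulVec u + t0' • w0 := by
      rw [← h3a']; abel
    have hPw1 : P.mulVec w1 = z • w1 + t0'' • w0 := by
      rw [← h3a'']; abel
    have e1 : (P * Y * Pinv).mulVec u =
        Y.mulVec u + (z⁻¹ * t0') • w0 + t0 • w1 + (z⁻¹ * t0 * t0'') • w0 := by
      rw [← Matrix.mulVec_mulVec, hPinv_u, Matrix.mulVec_smul, ← Matrix.mulVec_mulVec,
        Matrix.mulVec_sub, Matrix.mulVec_smul, hY, Matrix.mulVec_sub, Matrix.mulVec_smul,
        Matrix.mulVec_neg, hPYu, hPw1]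
      simp only [smul_sub, smul_add, smul_neg, smul_smul]
      rw [inv_mul_cancel₀ hz, one_smul]
      have : z⁻¹ * (t0 * z) = t0 := by field_simp
      rw [this]
      have : z⁻¹ * (t0 * t0'') = z⁻¹ * t0 * t0'' := by ring
      rw [this]
      abel
    refine ⟨t1 - z⁻¹ * t0' - z⁻¹ * t0 * t0'', ?_⟩
    rw [Matrix.sub_mulVec, Matrix.sub_mulVec, e1, hCu]
    simp only [sub_smul]
    abel

/-- constant part of a matrix–vector product over the dual numbers -/
theorem sordm_fst_mulVec (M : M2 (DualNumber k)) (v : Fin 2 → DualNumber k) (i : Fin 2) :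
    (M.mulVec v i).fst = (dnFst M).mulVec (fun j => (v j).fst) i := by
  simp [Matrix.mulVec, dotProduct, Fin.sum_univ_two]

/-- `ε`-part of a matrix–vector product over the dual numbers -/
theorem sordm_snd_mulVec (M : M2 (DualNumber k)) (v : Fin 2 → DualNumber k) (i : Fin 2) :
    (M.mulVec v i).snd =
      (dnFst M).mulVec (fun j => (v j).snd) i + (dnSnd M).mulVec (fun j => (v j).fst) i := by
  simp only [Matrix.mulVec, dotProduct, Fin.sum_univ_two, TrivSqZeroExt.snd_add,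
    TrivSqZeroExt.snd_mul, dnFst_apply, dnSnd_apply, smul_eq_mul, MulOpposite.smul_eq_mul_unop,
    MulOpposite.unop_op]
  ring

theorem sordm_vec_fst (w0 w1 : Fin 2 → k) (j : Fin 2) : (sordVec w0 w1 j).fst = w0 j := by
  simp [sordVec]

theorem sordm_vec_snd (w0 w1 : Fin 2 → k) (j : Fin 2) : (sordVec w0 w1 j).snd = w1 j := by
  simp [sordVec]

end Alg

section Main

variable {𝒪 : Type} [CommRing 𝒪] [IsLocalRing 𝒪] (p : ℕ) [Fact p.Prime]
  [CharP (ResidueField 𝒪) p] {ρbar : ResidualGaloisRep (ResidueField 𝒪)}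
  (D : RigidDatum 𝒪 ρbar)

/-- the element of `ad⁰` with a given trace-zero matrix -/
theorem sordm_exists_ad0 (Y : M2 (ResidueField 𝒪)) (hY : Y.trace = 0) :
    ∃ y : (ad0Rep p ρbar).V, ad0Val p ρbar y = Matrix.toLin D.b D.b Y ∧
      adMat p D ((ad0Incl p ρbar).hom y) = Y := by
  have htr : LinearMap.trace (ResidueField 𝒪) ρbar.V (Matrix.toLin D.b D.b Y) = 0 := by
    rw [LinearMap.trace_eq_matrix_trace (ResidueField 𝒪) D.b, LinearMap.toMatrix_toLin, hY]
  obtain ⟨y, hy⟩ := exists_ad0Val_eq p ρbar (Matrix.toLin D.b D.b Y) htr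
  refine ⟨y, hy, ?_⟩
  unfold adMat
  rw [adVal_ad0Incl, hy, LinearMap.toMatrix_toLin]

/-- the three coordinate identities for one element of the decomposition group -/
theorem sordm_parts (c : GQ → (adRep p ρbar).V) (σ : GQ) (w0 w1 : Fin 2 → ResidueField 𝒪)
    (x z : ResidueField 𝒪)
    (hw : (liftMat p D c σ).mulVec (sordVec w0 w1) =
      (TrivSqZeroExt.inl x : DualNumber (ResidueField 𝒪)) • sordVec w0 w1)
    (hv : ∀ v : Fin 2 → DualNumber (ResidueField 𝒪), ∃ t : DualNumber (ResidueField 𝒪),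
      (liftMat p D c σ).mulVec v - (TrivSqZeroExt.inl z : DualNumber (ResidueField 𝒪)) • v =
        t • sordVec w0 w1) :
    (D.ρm σ).mulVec w0 = x • w0 ∧
    (D.ρm σ).mulVec w1 + (adMat p D (c σ) * D.ρm σ).mulVec w0 = x • w1 ∧
    ∀ v0 : Fin 2 → ResidueField 𝒪, ∃ t0 t1 : ResidueField 𝒪,
      (D.ρm σ).mulVec v0 - z • v0 = t0 • w0 ∧
        (adMat p D (c σ) * D.ρm σ).mulVec v0 = t0 • w1 + t1 • w0 := by
  refine ⟨?_, ?_, ?_⟩
  · funext i
    have h := congrArg TrivSqZeroExt.fst (congrFun hw i)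
    rw [sordm_fst_mulVec, dnFst_liftMat] at h
    simpa [sordm_vec_fst, sordm_vec_snd] using h
  · funext i
    have h := congrArg TrivSqZeroExt.snd (congrFun hw i)
    rw [sordm_snd_mulVec, dnFst_liftMat, dnSnd_liftMat] at h
    simpa [sordm_vec_fst, sordm_vec_snd] using h
  · intro v0
    obtain ⟨t, ht⟩ := hv (fun j => TrivSqZeroExt.inl (v0 j))
    refine ⟨t.fst, t.snd, ?_, ?_⟩
    · funext i
      have h := congrArg TrivSqZeroExt.fst (congrFun ht i)
      rw [Pi.sub_apply, TrivSqZeroExt.fst_sub, sordm_fst_mulVec, dnFst_liftMat] at h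
      simpa [sordm_vec_fst, sordm_vec_snd] using h
    · funext i
      have h := congrArg TrivSqZeroExt.snd (congrFun ht i)
      rw [Pi.sub_apply, TrivSqZeroExt.snd_sub, sordm_snd_mulVec, dnFst_liftMat,
        dnSnd_liftMat] at h
      simp only [TrivSqZeroExt.snd_inl, Pi.smul_apply, smul_eq_mul, TrivSqZeroExt.snd_mul,
        TrivSqZeroExt.fst_inl, TrivSqZeroExt.snd_inl, smul_zero, MulOpposite.smul_eq_mul_unop,
        MulOpposite.unop_op, mul_zero, add_zero, sub_zero, sordm_vec_fst, sordm_vec_snd,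
        TrivSqZeroExt.fst_inl] at h
      have h0 : (D.ρm σ).mulVec (fun _ : Fin 2 => (0 : ResidueField 𝒪)) i = 0 := by
        simp [Matrix.mulVec, dotProduct]
      rw [h0, zero_add] at h
      rw [h]
      simp only [Pi.add_apply, Pi.smul_apply, smul_eq_mul]

/-- **O3 + O4.** -/
theorem stmtOrd_of_red (hred : StmtOrdRed) : StmtOrd := by
  intro 𝒪 _ _ p _ _ ρbar D ρ c Lbar hp2 hcoc hdet hord hLbar
  obtain ⟨w0, w1, hw0, hw0L, hσ⟩ := hred 𝒪 p ρbar D ρ c Lbar hp2 hcoc hdet hord hLbar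
  obtain ⟨Y, hYtr, hYw⟩ := sordm_exists_Y w0 (-w1) hw0
  obtain ⟨y, hy, hyM⟩ := sordm_exists_ad0 p D Y hYtr
  refine ⟨y, fun τ => ?_⟩
  set σ : GQ := localGaloisToGlobal p τ with hσdef
  have hσD : σ ∈ (padicPlace p).decompositionSubgroup ℚ :=
    localGaloisToGlobal_mem_decompositionSubgroup p τ
  obtain ⟨x, z, hx, hz, hw, hv⟩ := hσ σ hσD
  obtain ⟨H1, H2, H3⟩ := sordm_parts p D c σ w0 w1 x z hw hv
  obtain ⟨hN0, hNim⟩ := sordm_core (D.ρm σ) (D.ρm σ⁻¹) (adMat p D (c σ)) Y (rhom_mul_inv D σ)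
    (rhom_inv_mul D σ) w0 w1 x z hx hz H1 H2 H3 hYw
  -- the matrix of `n`
  have hNtr : (adMat p D (c σ) - (D.ρm σ * Y * D.ρm σ⁻¹ - Y)).trace = 0 := by
    have h1 : (adMat p D (c σ)).trace = 0 := by
      rw [← trace_adVal p D]
      exact stmtTrace 𝒪 p ρbar D ρ c hcoc hdet σ
    have h2 : (D.ρm σ * Y * D.ρm σ⁻¹).trace = Y.trace := by
      rw [Matrix.trace_mul_comm, ← mul_assoc, rhom_inv_mul, one_mul]
    rw [Matrix.trace_sub, Matrix.trace_sub, h1, h2, sub_self, sub_zero]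
  obtain ⟨n, hn, hnM⟩ := sordm_exists_ad0 p D _ hNtr
  have hv0 : D.b.equivFun.symm w0 ≠ 0 := by
    intro h
    apply hw0
    have := congrArg D.b.equivFun h
    rwa [LinearEquiv.apply_symm_apply, map_zero] at this
  have hval : ∀ v : ρbar.V, ad0Val p ρbar n v =
      D.b.equivFun.symm
        ((adMat p D (c σ) - (D.ρm σ * Y * D.ρm σ⁻¹ - Y)).mulVec (D.b.repr v)) := by
    intro v
    rw [hn, Matrix.toLin_apply, Module.Basis.equivFun_symm_apply]
  refine ⟨n, ⟨fun v => ?_, fun v hvL => ?_⟩, ?_⟩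
  · obtain ⟨s, hs⟩ := hNim (D.b.repr v)
    rw [hval, hs, map_smul]
    exact Lbar.smul_mem s hw0L
  · -- `v` is a multiple of the generator
    have hfr : Module.finrank (ResidueField 𝒪) Lbar = 1 := hLbar.1
    obtain ⟨a, ha⟩ := (finrank_eq_one_iff_of_nonzero' (⟨D.b.equivFun.symm w0, hw0L⟩ : Lbar)
      (fun h => hv0 (congrArg Subtype.val h))).mp hfr ⟨v, hvL⟩
    have ha' : v = a • D.b.equivFun.symm w0 := by
      have := congrArg Subtype.val ha
      simpa using this.symm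
    have hrepr : (D.b.repr v : Fin 2 → ResidueField 𝒪) = a • w0 := by
      rw [ha']
      have : D.b.equivFun (a • D.b.equivFun.symm w0) = a • w0 := by
        rw [map_smul, LinearEquiv.apply_symm_apply]
      exact this
    rw [hval, hrepr, Matrix.mulVec_smul, hN0, smul_zero, map_zero]
  · apply adMat_injective p D
    rw [adMat_add, adMat_sub, adMat_ρ, hyM, hnM]
    abel

end Main

end Fermat.Agent.TW.S

end


end ZBTW_017_1

/-! ### bundled: `Fermat.Agent.TW.S.OrdScalar` -/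
section ZBTW_017_2
/-
TW-S / S-ord, piece O1 (helper48): for a strictly ordinary deformation `ρ` over `k[ε]` with
cyclotomic determinant (`p` odd), the two characters of the decomposition group at `p` on the
line `L` and on `V/L` take values in `k` (no `ε`-part).

Proof.  `x = a z` (strictness, `n = 1`, `p = 0` in `k[ε]`) and `x z = det ρ(σ) = a`
(basis adapted to `L`; cyclotomic determinant); `a` is a unit, so `z² = 1`, whose `ε`-part is
`2 z₀ z₁ = 0`.
-/

set_option autoImplicit false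
set_option linter.unusedSectionVars false
set_option linter.style.haveILetI false

noncomputable section

namespace Fermat.Agent.TW.S

open CategoryTheory groupCohomology IsLocalRing
open Fermat.Agent.PT Fermat.Agent.PT.B Fermat.Agent.S53 Fermat.Agent.TW.L ExtCitation

section sordScalar

variable {k : Type} [Field k]

/-- the determinant of an endomorphism which is triangular in a basis adapted to a line -/
theorem sord_det_eq_mul {A : Type} [CommRing A] {V : Type} [AddCommGroup V] [Module A V]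
    (b : Module.Basis (Fin 2) A V) (f : Module.End A V) (x z : A)
    (hx : f (b 0) = x • b 0) (hz : ∃ c : A, f (b 1) - z • b 1 = c • b 0) :
    LinearMap.det f = x * z := by
  obtain ⟨c, hc⟩ := hz
  have h1 : f (b 1) = z • b 1 + c • b 0 := by
    rw [← hc]; abel
  rw [← LinearMap.det_toMatrix b, Matrix.det_fin_two, LinearMap.toMatrix_apply,
    LinearMap.toMatrix_apply, LinearMap.toMatrix_apply, LinearMap.toMatrix_apply, hx, h1]
  simp

/-- `p = 0` in the dual numbers -/
lemma sord_p_eq_zero (p : ℕ) [CharP k p] : ((p : ℕ) : DualNumber k) = 0 := by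
  refine TrivSqZeroExt.ext ?_ ?_
  · rw [TrivSqZeroExt.fst_natCast, CharP.cast_eq_zero, TrivSqZeroExt.fst_zero]
  · rw [TrivSqZeroExt.snd_natCast, TrivSqZeroExt.snd_zero]

/-- **O1**, for a given line. -/
theorem sord_scalar (p : ℕ) [Fact p.Prime] [CharP k p] (hp2 : p ≠ 2)
    (ρ : GaloisRepAdic (DualNumber k)) (hdet : ρ.DetIsCyclotomic p)
    (L : Submodule (DualNumber k) ρ.V) (b : Module.Basis (Fin 2) (DualNumber k) ρ.V)
    (hL : L = DualNumber k ∙ b 0) (σ : GQ) (x z : DualNumber k)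
    (hx : ∀ w ∈ L, ρ.ρ σ w = x • w) (hz : ∀ v : ρ.V, ρ.ρ σ v - z • v ∈ L)
    (hstr : ∀ (n a : ℕ), (∀ μ : AlgebraicClosure ℚ, μ ^ p ^ n = 1 → σ μ = μ ^ a) →
      x - (a : DualNumber k) * z ∈ Ideal.span {((p ^ n : ℕ) : DualNumber k)}) :
    x.snd = 0 ∧ z.snd = 0 ∧ x.fst ≠ 0 ∧ z.fst ≠ 0 := by
  have : NeZero (p ^ 1) := ⟨pow_ne_zero _ (Fact.out : p.Prime).ne_zero⟩
  obtain ⟨a, ha⟩ := strace_exists_exp (p ^ 1) σ
  have hp0 : (((p ^ 1 : ℕ)) : DualNumber k) = 0 := by
    rw [pow_one]; exact sord_p_eq_zero p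
  -- `x = a z`
  have h1 := hstr 1 a ha
  rw [hp0, Ideal.span_singleton_eq_bot.mpr rfl, Ideal.mem_bot, sub_eq_zero] at h1
  -- `det = a`
  have h2 := hdet.2 1 σ a ha
  rw [hp0, Ideal.span_singleton_eq_bot.mpr rfl, Ideal.mem_bot, sub_eq_zero] at h2
  -- `det = x z`
  have hb0 : b 0 ∈ L := by rw [hL]; exact Submodule.mem_span_singleton_self _
  have h3 : LinearMap.det (ρ.ρ σ) = x * z := by
    refine sord_det_eq_mul b (ρ.ρ σ) x z (hx _ hb0) ?_
    have := hz (b 1)
    rw [hL, Submodule.mem_span_singleton] at this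
    obtain ⟨c, hc⟩ := this
    exact ⟨c, hc.symm⟩
  -- `det` is a unit
  have h4 : LinearMap.det (ρ.ρ σ) * LinearMap.det (ρ.ρ σ⁻¹) = 1 := by
    rw [← map_mul, ← map_mul, mul_inv_cancel, map_one, map_one]
  rw [h2] at h3 h4
  -- `a ≠ 0` in `k`
  have ha0 : ((a : ℕ) : k) ≠ 0 := by
    intro h0
    have h5 := congrArg TrivSqZeroExt.fst h4
    rw [TrivSqZeroExt.fst_mul, TrivSqZeroExt.fst_natCast, h0, zero_mul,
      TrivSqZeroExt.fst_one] at h5
    exact zero_ne_one h5
  -- components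
  have hx0 : x.fst = (a : k) * z.fst := by
    have := congrArg TrivSqZeroExt.fst h1
    rwa [TrivSqZeroExt.fst_mul, TrivSqZeroExt.fst_natCast] at this
  have hx1 : x.snd = (a : k) * z.snd := by
    have := congrArg TrivSqZeroExt.snd h1
    rw [TrivSqZeroExt.snd_mul, TrivSqZeroExt.fst_natCast, TrivSqZeroExt.snd_natCast] at this
    simpa using this
  have hd0 : (a : k) = x.fst * z.fst := by
    have := congrArg TrivSqZeroExt.fst h3
    rwa [TrivSqZeroExt.fst_mul, TrivSqZeroExt.fst_natCast] at this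
  have hd1 : 0 = x.fst * z.snd + z.fst * x.snd := by
    have := congrArg TrivSqZeroExt.snd h3
    rw [TrivSqZeroExt.snd_mul, TrivSqZeroExt.snd_natCast] at this
    simpa [mul_comm] using this
  have hz0 : z.fst ≠ 0 := by
    intro h0
    rw [h0, mul_zero] at hd0
    exact ha0 hd0
  have hx0' : x.fst ≠ 0 := by
    rw [hx0]
    exact mul_ne_zero ha0 hz0
  have h2k : (2 : k) ≠ 0 := by
    intro h0
    have h3 : ((2 : ℕ) : k) = 0 := by exact_mod_cast h0
    rw [CharP.cast_eq_zero_iff k p] at h3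
    have hp := (Fact.out : p.Prime)
    exact hp2 ((Nat.prime_dvd_prime_iff_eq hp Nat.prime_two).mp h3)
  have hz1 : z.snd = 0 := by
    rw [hx0, hx1] at hd1
    have h6 : (2 : k) * ((a : k) * z.fst) * z.snd = 0 := by
      rw [hd1]; ring
    rcases mul_eq_zero.mp h6 with h7 | h7
    · exact absurd h7 (mul_ne_zero h2k (mul_ne_zero ha0 hz0))
    · exact h7
  refine ⟨?_, hz1, hx0', hz0⟩
  rw [hx1, hz1, mul_zero]

/-- an element of the dual numbers without `ε`-part is a constant -/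
lemma sord_eq_inl (x : DualNumber k) (h : x.snd = 0) : x = TrivSqZeroExt.inl x.fst := by
  refine TrivSqZeroExt.ext ?_ ?_
  · rw [TrivSqZeroExt.fst_inl]
  · rw [TrivSqZeroExt.snd_inl, h]

/-- **O1**: the characters of a strictly ordinary deformation with cyclotomic determinant on the
ordinary line and on the quotient take values in `k`. -/
theorem stmtOrdScalar (p : ℕ) [Fact p.Prime] [CharP k p] (hp2 : p ≠ 2)
    (ρ : GaloisRepAdic (DualNumber k)) (hdet : ρ.DetIsCyclotomic p)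
    (hord : ρ.IsStrictOrdinaryAt p) :
    ∃ L : Submodule (DualNumber k) ρ.V,
      (∃ b : Module.Basis (Fin 2) (DualNumber k) ρ.V, L = DualNumber k ∙ b 0) ∧
      (∀ σ ∈ (padicPlace p).decompositionSubgroup ℚ, ∀ v ∈ L, ρ.ρ σ v ∈ L) ∧
      (∀ σ ∈ (padicPlace p).inertiaSubgroupIn ℚ, ∀ v : ρ.V, ρ.ρ σ v - v ∈ L) ∧
      ∀ σ ∈ (padicPlace p).decompositionSubgroup ℚ, ∃ x z : k, x ≠ 0 ∧ z ≠ 0 ∧
        (∀ w ∈ L, ρ.ρ σ w = (TrivSqZeroExt.inl x : DualNumber k) • w) ∧
        (∀ v : ρ.V, ρ.ρ σ v - (TrivSqZeroExt.inl z : DualNumber k) • v ∈ L) := by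
  obtain ⟨L, ⟨b, hb⟩, hD, hI, hS⟩ := hord.2 (padicPlace p) (lfrobex_liesOverPrime p)
  refine ⟨L, ⟨b, hb⟩, hD, hI, fun σ hσ => ?_⟩
  obtain ⟨x, z, hx, hz, hstr⟩ := hS σ hσ
  obtain ⟨h1, h2, h3, h4⟩ := sord_scalar p hp2 ρ hdet L b hb σ x z hx hz hstr
  refine ⟨x.fst, z.fst, h3, h4, ?_, ?_⟩
  · rw [← sord_eq_inl x h1]; exact hx
  · rw [← sord_eq_inl z h2]; exact hz

end sordScalar

end Fermat.Agent.TW.S

end


end ZBTW_017_2
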