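/- GENERATED FILE (helper35, build-time optimisation, NOTES/ZB.md): verbatim concatenation of the modules
   Fermat.Agent.TW.BC
   Fermat.Agent.TW.BCFinal
   Fermat.Agent.TW.Res
   Fermat.Agent.TW.W.Add
   Fermat.Agent.TW.W.Bridge
   Do not edit; do not import together with these modules. -/
import Fermat.Agent.ZB.S53_001
import Fermat.Prelude.Def_GaloisRep_LocalConditions
import Fermat.Prelude.Def_GaloisRep_StrictOrdinary
import Fermat.Prelude.Def_GaloisRep_Flat
import Fermat.Agent.ZB.TW_007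
import Fermat.Agent.ZB.S53_004
import Fermat.Agent.ZB.TW_001
import Fermat.Agent.ZB.TW_016
import Fermat.Agent.ZB.TW_017
import Fermat.Agent.ZB.W1_003
import Fermat.Agent.ZB.S28_005
import Fermat.Agent.ZB.PT_003

/-! ### bundled: `Fermat.Agent.TW.BC` -/
section ZBTW_008_0

/-!
# S56, piece TW-bc: the local conditions are stable under base change

* `DetIsCyclotomic`, `IsUnramifiedAt`, `IsUnipotentOnInertiaAt`, `IsStrictOrdinaryAt`,
  `IsOrdinaryAt` pass to the base change along ANY local homomorphism;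
* `IsFlatAt` passes to the base change along a SURJECTIVE local homomorphism `φ : A → B`:
  `(B ⊗ V) / J (B ⊗ V) ≅ V / φ⁻¹(J) V`, equivariantly.
* Hence `TwTanBC DQ` for the two conditions of S56.
-/

set_option autoImplicit false

namespace Fermat.Agent.TW

open IsLocalRing
open scoped TensorProduct

section Aux

variable {A B : Type} [CommRing A] [CommRing B] [Algebra A B]
variable {V : Type} [AddCommGroup V] [Module A V] [Module.Free A V] [Module.Finite A V]

theorem twbc_aux_charpoly (f : V →ₗ[A] V) (h : f.charpoly = (Polynomial.X - 1) ^ 2) :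
    (f.baseChange B).charpoly = (Polynomial.X - 1) ^ 2 := by
  rw [LinearMap.charpoly_baseChange, h]
  simp

theorem twbc_aux_det (f : V →ₗ[A] V) (a : ℕ) (m : ℕ)
    (h : LinearMap.det f - (a : A) ∈ Ideal.span {((m : ℕ) : A)}) :
    LinearMap.det (f.baseChange B) - (a : B) ∈ Ideal.span {((m : ℕ) : B)} := by
  rw [LinearMap.det_baseChange]
  obtain ⟨c, hc⟩ := Ideal.mem_span_singleton'.1 h
  refine Ideal.mem_span_singleton'.2 ⟨algebraMap A B c, ?_⟩
  have := congrArg (algebraMap A B) hc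
  rw [map_mul, map_natCast, map_sub, map_natCast] at this
  exact this

/-- `c ⊗ v ∈ B · (1 ⊗ b₀)` for `v ∈ A · b₀`. -/
theorem twbc_aux_tmul_mem {M : Type} [AddCommGroup M] [Module A M] (b₀ : M) (c : B) {v : M}
    (hv : v ∈ Submodule.span A {b₀}) :
    c ⊗ₜ[A] v ∈ Submodule.span B {(1 : B) ⊗ₜ[A] b₀} := by
  obtain ⟨a, rfl⟩ := Submodule.mem_span_singleton.1 hv
  refine Submodule.mem_span_singleton.2 ⟨c * algebraMap A B a, ?_⟩
  rw [TensorProduct.smul_tmul', smul_eq_mul, mul_one, TensorProduct.tmul_smul,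
    TensorProduct.smul_tmul', Algebra.smul_def, mul_comm]

/-- if `f - z` maps `M` into `A · b₀`, then `f_B - z` maps `B ⊗ M` into `B · (1 ⊗ b₀)`. -/
theorem twbc_aux_sub_mem {M : Type} [AddCommGroup M] [Module A M] (b₀ : M) (f : M →ₗ[A] M)
    (z : A) (h : ∀ v : M, f v - z • v ∈ Submodule.span A {b₀}) (w : B ⊗[A] M) :
    f.baseChange B w - algebraMap A B z • w ∈ Submodule.span B {(1 : B) ⊗ₜ[A] b₀} := by
  induction w using TensorProduct.induction_on with
  | zero => simp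
  | tmul c v =>
    have h1 : f.baseChange B (c ⊗ₜ[A] v) - algebraMap A B z • (c ⊗ₜ[A] v) =
        c ⊗ₜ[A] (f v - z • v) := by
      rw [LinearMap.baseChange_tmul, TensorProduct.tmul_sub, TensorProduct.tmul_smul,
        algebraMap_smul]
    rw [h1]
    exact twbc_aux_tmul_mem b₀ c (h v)
  | add x y hx hy =>
    have : f.baseChange B (x + y) - algebraMap A B z • (x + y) =
        (f.baseChange B x - algebraMap A B z • x) + (f.baseChange B y - algebraMap A B z • y) := by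
      rw [map_add, smul_add]; abel
    rw [this]
    exact Submodule.add_mem _ hx hy

/-- if `f = x` on `A · b₀`, then `f_B = x` on `B · (1 ⊗ b₀)`. -/
theorem twbc_aux_eq_smul {M : Type} [AddCommGroup M] [Module A M] (b₀ : M) (f : M →ₗ[A] M)
    (x : A) (h : ∀ v ∈ Submodule.span A {b₀}, f v = x • v) (w : B ⊗[A] M)
    (hw : w ∈ Submodule.span B {(1 : B) ⊗ₜ[A] b₀}) :
    f.baseChange B w = algebraMap A B x • w := by
  obtain ⟨c, rfl⟩ := Submodule.mem_span_singleton.1 hw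
  rw [map_smul, LinearMap.baseChange_tmul, h b₀ (Submodule.mem_span_singleton_self b₀),
    TensorProduct.tmul_smul, smul_comm, algebraMap_smul]

/-- strict ordinarity, module form -/
theorem twbc_aux_strict {G : Type} [Group G] {M : Type} [AddCommGroup M] [Module A M]
    (ρ : G →* Module.End A M) (D I : Set G) (cyc : G → ℕ → ℕ → Prop) (p : ℕ)
    (h : ∃ L : Submodule A M,
      (∃ b : Module.Basis (Fin 2) A M, L = Submodule.span A {b 0}) ∧
      (∀ σ ∈ D, ∀ v ∈ L, ρ σ v ∈ L) ∧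
      (∀ σ ∈ I, ∀ v : M, ρ σ v - v ∈ L) ∧
      (∀ σ ∈ D, ∃ x z : A,
        (∀ w ∈ L, ρ σ w = x • w) ∧ (∀ v : M, ρ σ v - z • v ∈ L) ∧
        ∀ (n a : ℕ), cyc σ n a → x - (a : A) * z ∈ Ideal.span {((p ^ n : ℕ) : A)})) :
    ∃ L : Submodule B (B ⊗[A] M),
      (∃ b : Module.Basis (Fin 2) B (B ⊗[A] M), L = Submodule.span B {b 0}) ∧
      (∀ σ ∈ D, ∀ v ∈ L, (ρ σ).baseChange B v ∈ L) ∧
      (∀ σ ∈ I, ∀ v : B ⊗[A] M, (ρ σ).baseChange B v - v ∈ L) ∧
      (∀ σ ∈ D, ∃ x z : B,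
        (∀ w ∈ L, (ρ σ).baseChange B w = x • w) ∧
        (∀ v : B ⊗[A] M, (ρ σ).baseChange B v - z • v ∈ L) ∧
        ∀ (n a : ℕ), cyc σ n a → x - (a : B) * z ∈ Ideal.span {((p ^ n : ℕ) : B)}) := by
  obtain ⟨L, ⟨b, rfl⟩, hD, hI, hS⟩ := h
  refine ⟨Submodule.span B {(1 : B) ⊗ₜ[A] b 0}, ⟨b.baseChange B, ?_⟩, ?_, ?_, ?_⟩
  · rw [Module.Basis.baseChange_apply]
  · intro σ hσ w hw
    obtain ⟨x, z, hx, -, -⟩ := hS σ hσ
    rw [twbc_aux_eq_smul (B := B) (b 0) (ρ σ) x hx w hw]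
    exact Submodule.smul_mem _ _ hw
  · intro σ hσ w
    have := twbc_aux_sub_mem (B := B) (b 0) (ρ σ) 1
      (fun v => by rw [one_smul]; exact hI σ hσ v) w
    rw [map_one, one_smul] at this
    exact this
  · intro σ hσ
    obtain ⟨x, z, hx, hz, hxz⟩ := hS σ hσ
    refine ⟨algebraMap A B x, algebraMap A B z, ?_, ?_, ?_⟩
    · intro w hw
      exact twbc_aux_eq_smul (B := B) (b 0) (ρ σ) x hx w hw
    · intro w
      exact twbc_aux_sub_mem (B := B) (b 0) (ρ σ) z hz w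
    · intro n a ha
      obtain ⟨c, hc⟩ := Ideal.mem_span_singleton'.1 (hxz n a ha)
      refine Ideal.mem_span_singleton'.2 ⟨algebraMap A B c, ?_⟩
      have := congrArg (algebraMap A B) hc
      rw [map_mul, map_natCast, map_sub, map_mul, map_natCast] at this
      exact this

/-- ordinarity, module form -/
theorem twbc_aux_ord {G : Type} [Group G] {M : Type} [AddCommGroup M] [Module A M]
    (ρ : G →* Module.End A M) (D I : Set G)
    (h : ∃ L : Submodule A M,
      (∃ b : Module.Basis (Fin 2) A M, L = Submodule.span A {b 0}) ∧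
      (∀ σ ∈ D, ∀ v ∈ L, ρ σ v ∈ L) ∧
      (∀ σ ∈ I, ∀ v : M, ρ σ v - v ∈ L)) :
    ∃ L : Submodule B (B ⊗[A] M),
      (∃ b : Module.Basis (Fin 2) B (B ⊗[A] M), L = Submodule.span B {b 0}) ∧
      (∀ σ ∈ D, ∀ v ∈ L, (ρ σ).baseChange B v ∈ L) ∧
      (∀ σ ∈ I, ∀ v : B ⊗[A] M, (ρ σ).baseChange B v - v ∈ L) := by
  obtain ⟨L, ⟨b, rfl⟩, hD, hI⟩ := h
  refine ⟨Submodule.span B {(1 : B) ⊗ₜ[A] b 0}, ⟨b.baseChange B, ?_⟩, ?_, ?_⟩
  · rw [Module.Basis.baseChange_apply]
  · intro σ hσ w hw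
    obtain ⟨c, rfl⟩ := Submodule.mem_span_singleton.1 hw
    rw [map_smul, LinearMap.baseChange_tmul]
    exact Submodule.smul_mem _ _ (twbc_aux_tmul_mem (b 0) 1
      (hD σ hσ _ (Submodule.mem_span_singleton_self _)))
  · intro σ hσ w
    have := twbc_aux_sub_mem (B := B) (b 0) (ρ σ) 1
      (fun v => by rw [one_smul]; exact hI σ hσ v) w
    rw [map_one, one_smul] at this
    exact this

end Aux

section Easy

variable {A B : Type} [CommRing A] [IsLocalRing A] [CommRing B] [IsLocalRing B]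

theorem twbc_map_mem_maximalIdeal (φ : A →+* B) (hφ : IsLocalHom φ) {a : A}
    (ha : a ∈ maximalIdeal A) : φ a ∈ maximalIdeal B :=
  haveI := hφ
  map_nonunit φ a ha

theorem twbc_isUnramifiedAt (φ : A →+* B) (hφ : IsLocalHom φ) (ρ : GaloisRepAdic A) (q : ℕ)
    (h : ρ.IsUnramifiedAt q) : (ρ.baseChangeAlong φ hφ).IsUnramifiedAt q := by
  intro P hP σ hσ
  have h1 := h P hP σ hσ
  have h2 : (ρ.baseChangeAlong φ hφ).ρ σ = (ρ.baseChangeAlong φ hφ).ρ 1 := by
    show (letI : Algebra A B := φ.toAlgebra; (ρ.ρ σ).baseChange B) =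
      (letI : Algebra A B := φ.toAlgebra; (ρ.ρ 1).baseChange B)
    rw [h1, map_one]
  rw [h2, map_one]

theorem twbc_isUnipotentOnInertiaAt (φ : A →+* B) (hφ : IsLocalHom φ) (ρ : GaloisRepAdic A)
    (q : ℕ) (h : ρ.IsUnipotentOnInertiaAt q) :
    (ρ.baseChangeAlong φ hφ).IsUnipotentOnInertiaAt q := by
  intro P hP σ hσ
  exact @twbc_aux_charpoly A B _ _ φ.toAlgebra ρ.V _ _ _ _ (ρ.ρ σ) (h P hP σ hσ)

theorem twbc_detIsCyclotomic (φ : A →+* B) (hφ : IsLocalHom φ) (ρ : GaloisRepAdic A) (p : ℕ)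
    (h : ρ.DetIsCyclotomic p) : (ρ.baseChangeAlong φ hφ).DetIsCyclotomic p := by
  obtain ⟨h1, h2⟩ := h
  refine ⟨?_, ?_⟩
  · have := twbc_map_mem_maximalIdeal φ hφ h1
    rwa [map_natCast] at this
  · intro n σ a ha
    exact @twbc_aux_det A B _ _ φ.toAlgebra ρ.V _ _ _ _ (ρ.ρ σ) a (p ^ n) (h2 n σ a ha)

theorem twbc_isStrictOrdinaryAt (φ : A →+* B) (hφ : IsLocalHom φ) (ρ : GaloisRepAdic A) (p : ℕ)
    (h : ρ.IsStrictOrdinaryAt p) : (ρ.baseChangeAlong φ hφ).IsStrictOrdinaryAt p := by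
  obtain ⟨h1, h2⟩ := h
  refine ⟨?_, ?_⟩
  · have := twbc_map_mem_maximalIdeal φ hφ h1
    rwa [map_natCast] at this
  · intro P hP
    exact @twbc_aux_strict A B _ _ φ.toAlgebra _ _ ρ.V _ _ ρ.ρ
      (P.decompositionSubgroup ℚ : Set _) (P.inertiaSubgroupIn ℚ : Set _)
      (fun σ n a => ∀ μ : AlgebraicClosure ℚ, μ ^ p ^ n = 1 → σ μ = μ ^ a) p (h2 P hP)

theorem twbc_isOrdinaryAt (φ : A →+* B) (hφ : IsLocalHom φ) (ρ : GaloisRepAdic A) (p : ℕ)
    (h : ρ.IsOrdinaryAt p) : (ρ.baseChangeAlong φ hφ).IsOrdinaryAt p := by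
  intro P hP
  exact @twbc_aux_ord A B _ _ φ.toAlgebra _ _ ρ.V _ _ ρ.ρ
    (P.decompositionSubgroup ℚ : Set _) (P.inertiaSubgroupIn ℚ : Set _) (h P hP)

end Easy

section FlatAux

variable {A B : Type} [CommRing A] [CommRing B] [Algebra A B]
variable {M : Type} [AddCommGroup M] [Module A M]

/-- an element of `J • ⊤` has all its coordinates in `J` -/
theorem twbc_repr_mem_of_mem_smul_top {ι : Type} {N : Type} [AddCommGroup N] [Module B N]
    (b : Module.Basis ι B N) (J : Ideal B) {x : N}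
    (hx : x ∈ J • (⊤ : Submodule B N)) (i : ι) : b.repr x i ∈ J := by
  refine Submodule.smul_induction_on (p := fun x => b.repr x i ∈ J) hx ?_ ?_
  · intro c hc n _
    rw [map_smul, Finsupp.smul_apply, smul_eq_mul]
    exact Ideal.mul_mem_right _ _ hc
  · intro x y hx hy
    rw [map_add, Finsupp.add_apply]
    exact Ideal.add_mem _ hx hy

/-- the map `v ↦ [1 ⊗ v]` -/
noncomputable def twbcPsi (J : Ideal B) :
    M →ₗ[A] ((B ⊗[A] M) ⧸ (J • (⊤ : Submodule B (B ⊗[A] M)))) :=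
  ((J • (⊤ : Submodule B (B ⊗[A] M))).mkQ.restrictScalars A).comp (TensorProduct.mk A B M 1)

theorem twbcPsi_apply (J : Ideal B) (v : M) :
    twbcPsi (A := A) J v = Submodule.Quotient.mk ((1 : B) ⊗ₜ[A] v) := rfl

theorem twbcPsi_surjective (hsurj : Function.Surjective (algebraMap A B)) (J : Ideal B) :
    Function.Surjective (twbcPsi (A := A) (M := M) J) := by
  intro y
  obtain ⟨w, rfl⟩ := Submodule.Quotient.mk_surjective _ y
  induction w using TensorProduct.induction_on with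
  | zero => exact ⟨0, by rw [map_zero]; rfl⟩
  | tmul c v =>
    obtain ⟨a, rfl⟩ := hsurj c
    refine ⟨a • v, ?_⟩
    rw [twbcPsi_apply, TensorProduct.tmul_smul, TensorProduct.smul_tmul', Algebra.smul_def, mul_one]
  | add x y hx hy =>
    obtain ⟨u, hu⟩ := hx
    obtain ⟨v, hv⟩ := hy
    exact ⟨u + v, by rw [map_add, hu, hv]; rfl⟩

theorem twbcPsi_ker {ι : Type} [Fintype ι] (b : Module.Basis ι A M) (J : Ideal B) :
    LinearMap.ker (twbcPsi (A := A) (M := M) J) =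
      (J.comap (algebraMap A B)) • (⊤ : Submodule A M) := by
  apply le_antisymm
  · intro v hv
    rw [LinearMap.mem_ker, twbcPsi_apply, Submodule.Quotient.mk_eq_zero] at hv
    have hcoord : ∀ i, b.repr v i ∈ J.comap (algebraMap A B) := by
      intro i
      have h1 := twbc_repr_mem_of_mem_smul_top (b.baseChange B) J hv i
      rw [Module.Basis.baseChange_repr_tmul, Algebra.smul_def, mul_one] at h1
      exact h1
    rw [← b.sum_repr v]
    exact Submodule.sum_mem _ fun i _ => Submodule.smul_mem_smul (hcoord i) Submodule.mem_top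
  · rw [Submodule.smul_le]
    intro a ha v _
    rw [LinearMap.mem_ker, twbcPsi_apply, Submodule.Quotient.mk_eq_zero, TensorProduct.tmul_smul,
      ← algebraMap_smul B a ((1 : B) ⊗ₜ[A] v)]
    exact Submodule.smul_mem_smul ha Submodule.mem_top

/-- `V / φ⁻¹(J) V ≃ (B ⊗ V) / J (B ⊗ V)` for `φ` surjective. -/
noncomputable def twbcEquiv {ι : Type} [Fintype ι] (b : Module.Basis ι A M)
    (hsurj : Function.Surjective (algebraMap A B)) (J : Ideal B) :
    (M ⧸ ((J.comap (algebraMap A B)) • (⊤ : Submodule A M))) ≃ₗ[A]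
      ((B ⊗[A] M) ⧸ (J • (⊤ : Submodule B (B ⊗[A] M)))) :=
  (Submodule.quotEquivOfEq _ _ (twbcPsi_ker b J).symm).trans
    ((twbcPsi (A := A) (M := M) J).quotKerEquivOfSurjective (twbcPsi_surjective hsurj J))

theorem twbcEquiv_mk {ι : Type} [Fintype ι] (b : Module.Basis ι A M)
    (hsurj : Function.Surjective (algebraMap A B)) (J : Ideal B) (v : M) :
    twbcEquiv b hsurj J (Submodule.Quotient.mk v) = Submodule.Quotient.mk ((1 : B) ⊗ₜ[A] v) :=
  rfl

theorem twbcEquiv_mapQ {ι : Type} [Fintype ι] (b : Module.Basis ι A M)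
    (hsurj : Function.Surjective (algebraMap A B)) (J : Ideal B) (f : M →ₗ[A] M)
    (hf : (J.comap (algebraMap A B)) • (⊤ : Submodule A M) ≤
      ((J.comap (algebraMap A B)) • (⊤ : Submodule A M)).comap f)
    (hf' : J • (⊤ : Submodule B (B ⊗[A] M)) ≤
      (J • (⊤ : Submodule B (B ⊗[A] M))).comap (f.baseChange B))
    (x : M ⧸ ((J.comap (algebraMap A B)) • (⊤ : Submodule A M))) :
    twbcEquiv b hsurj J (Submodule.mapQ _ _ f hf x) =
      Submodule.mapQ _ _ (f.baseChange B) hf' (twbcEquiv b hsurj J x) := by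
  obtain ⟨v, rfl⟩ := Submodule.Quotient.mk_surjective _ x
  rw [Submodule.mapQ_apply, twbcEquiv_mk, twbcEquiv_mk, Submodule.mapQ_apply,
    LinearMap.baseChange_tmul]

end FlatAux

section Flat

variable {A B : Type} [CommRing A] [IsLocalRing A] [CommRing B] [IsLocalRing B]

theorem twbc_finite_residueField (φ : A →+* B) (hsurj : Function.Surjective φ)
    [Finite (ResidueField A)] : Finite (ResidueField B) := by
  refine Finite.of_surjective (fun x : ResidueField A =>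
    residue B (φ (Function.surjInv (IsLocalRing.residue_surjective (R := A)) x))) ?_
  intro y
  obtain ⟨c, rfl⟩ := IsLocalRing.residue_surjective y
  obtain ⟨a, rfl⟩ := hsurj c
  refine ⟨residue A a, ?_⟩
  have h1 : residue A (Function.surjInv (IsLocalRing.residue_surjective (R := A)) (residue A a)) =
      residue A a := Function.surjInv_eq _ _
  have h2 : Function.surjInv (IsLocalRing.residue_surjective (R := A)) (residue A a) - a ∈
      maximalIdeal A := by
    rw [← residue_eq_zero_iff, map_sub, h1, sub_self]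
  have h3 : IsLocalHom φ := by
    refine ⟨fun a ha => ?_⟩
    by_contra hna
    have ham : a ∈ maximalIdeal A := (IsLocalRing.mem_maximalIdeal _).2 hna
    -- `1 - a b` is a unit for the preimage `b` of the inverse of `φ a`
    obtain ⟨u, hu⟩ := ha
    obtain ⟨b, hb⟩ := hsurj (↑u⁻¹ : B)
    have h4 : φ (1 - a * b) = 0 := by
      rw [map_sub, map_one, map_mul, hb, ← hu, Units.mul_inv, sub_self]
    have h5 : IsUnit (1 - a * b) := by
      by_contra h6
      have h7 : (1 - a * b) ∈ maximalIdeal A := (IsLocalRing.mem_maximalIdeal _).2 h6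
      have h8 : (1 : A) ∈ maximalIdeal A := by
        have := Ideal.add_mem _ h7 (Ideal.mul_mem_right b _ ham)
        simpa using this
      exact (Ideal.ne_top_iff_one _).1 (IsLocalRing.maximalIdeal.isMaximal A).ne_top h8
    have h9 := h5.map φ
    rw [h4] at h9
    exact not_isUnit_zero h9
  have h10 : φ (Function.surjInv (IsLocalRing.residue_surjective (R := A)) (residue A a) - a) ∈
      maximalIdeal B := twbc_map_mem_maximalIdeal φ h3 h2
  rw [map_sub, ← residue_eq_zero_iff, map_sub, sub_eq_zero] at h10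
  exact h10

theorem twbc_finite_quotient_comap (φ : A →+* B) (J : Ideal B) [Finite (B ⧸ J)] :
    Finite (A ⧸ J.comap φ) :=
  Finite.of_injective (Ideal.quotientMap J φ le_rfl)
    (Ideal.quotientMap_injective' le_rfl)

/-- **TW-bc, flat.** Flatness at `p` passes to the base change along a surjection. -/
theorem twbc_isFlatAt (φ : A →+* B) (hφ : IsLocalHom φ) (hsurj : Function.Surjective φ)
    (ρ : GaloisRepAdic A) (p : ℕ) (h : ρ.IsFlatAt p) : (ρ.baseChangeAlong φ hφ).IsFlatAt p := by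
  obtain ⟨hfin, hI⟩ := h
  refine ⟨twbc_finite_residueField φ hsurj, ?_⟩
  intro J hJ
  letI : Algebra A B := φ.toAlgebra
  have hsurj' : Function.Surjective (algebraMap A B) := hsurj
  obtain ⟨H, i1, i2, h1, h2, h3, e, he1, he2⟩ :=
    hI (J.comap φ) (twbc_finite_quotient_comap φ J)
  let b : Module.Basis (Fin 2) A ρ.V := Module.finBasisOfFinrankEq A ρ.V ρ.finrank_eq
  let E := twbcEquiv (B := B) b hsurj' J
  refine ⟨H, i1, i2, h1, h2, h3, e.trans E.toEquiv, ?_, ?_⟩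
  · intro f g
    show E (e (f * g)) = E (e f) + E (e g)
    rw [he1, map_add]
  · intro σ f g hfg
    show E (e g) = _
    rw [he2 σ f g hfg]
    exact twbcEquiv_mapQ b hsurj' J (ρ.ρ σ) _ _ (e f)

end Flat

section Conditions

variable (𝒪 : Type) [CommRing 𝒪]
variable {A B : Type} [CommRing A] [IsLocalRing A] [Algebra 𝒪 A] [CommRing B] [IsLocalRing B]
  [Algebra 𝒪 B]

theorem twbc_strictOrdinaryCondition (φ : A →+* B) (hφ : IsLocalHom φ) (p : ℕ) (S : Finset ℕ)
    (ρ : GaloisRepAdic A) (h : GaloisRep.strictOrdinaryCondition 𝒪 p S ρ) :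
    GaloisRep.strictOrdinaryCondition 𝒪 p S (ρ.baseChangeAlong φ hφ) :=
  ⟨twbc_detIsCyclotomic φ hφ ρ p h.1, twbc_isStrictOrdinaryAt φ hφ ρ p h.2.1,
    fun q hq hqS => twbc_isUnramifiedAt φ hφ ρ q (h.2.2 q hq hqS)⟩

theorem twbc_ordinaryCondition (φ : A →+* B) (hφ : IsLocalHom φ) (p : ℕ) (S : Finset ℕ)
    (ρ : GaloisRepAdic A) (h : GaloisRep.ordinaryCondition 𝒪 p S ρ) :
    GaloisRep.ordinaryCondition 𝒪 p S (ρ.baseChangeAlong φ hφ) :=
  ⟨twbc_detIsCyclotomic φ hφ ρ p h.1, twbc_isOrdinaryAt φ hφ ρ p h.2.1,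
    fun q hq hqS => twbc_isUnramifiedAt φ hφ ρ q (h.2.2 q hq hqS)⟩

theorem twbc_flatCondition (φ : A →+* B) (hφ : IsLocalHom φ) (hsurj : Function.Surjective φ)
    (p : ℕ) (S : Finset ℕ) (ρ : GaloisRepAdic A) (h : GaloisRep.flatCondition 𝒪 p S ρ) :
    GaloisRep.flatCondition 𝒪 p S (ρ.baseChangeAlong φ hφ) :=
  ⟨twbc_detIsCyclotomic φ hφ ρ p h.1, twbc_isFlatAt φ hφ hsurj ρ p h.2.1,
    fun q hq hqS => twbc_isUnramifiedAt φ hφ ρ q (h.2.2 q hq hqS)⟩

end Conditions

section TanBC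

variable {𝒪 : Type} [CommRing 𝒪] [IsDomain 𝒪] [IsDiscreteValuationRing 𝒪]
  [IsAdicComplete (maximalIdeal 𝒪) 𝒪]
variable {ρbar : ResidualGaloisRep (ResidueField 𝒪)}

/-- **TW-bc, ordinary case**: `TwTanBC` for the strictly ordinary condition of S56. -/
theorem twTanBC_ord (p : ℕ) (S' Smin : Finset ℕ)
    (DQ : GaloisRep.DeformationRingData 𝒪 ρbar (fun _A _ _ _ ρ =>
      GaloisRep.strictOrdinaryCondition 𝒪 p S' ρ ∧
        ∀ q ∈ Smin, q.Prime → q ≠ p → ρ.IsUnipotentOnInertiaAt q)) : TwTanBC DQ := by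
  intro q hq _
  exact ⟨twbc_strictOrdinaryCondition 𝒪 _ hq p S' DQ.ρ DQ.isOfType.1,
    fun l hl hlp hlne => twbc_isUnipotentOnInertiaAt _ hq DQ.ρ l (DQ.isOfType.2 l hl hlp hlne)⟩

/-- **TW-bc, flat case**: `TwTanBC` for the flat condition of S56. -/
theorem twTanBC_flat (p : ℕ) (S' Smin : Finset ℕ)
    (DQ : GaloisRep.DeformationRingData 𝒪 ρbar (fun _A _ _ _ ρ =>
      GaloisRep.flatCondition 𝒪 p S' ρ ∧
        ∀ q ∈ Smin, q.Prime → q ≠ p → ρ.IsUnipotentOnInertiaAt q)) : TwTanBC DQ := by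
  intro q hq hsurj
  exact ⟨twbc_flatCondition 𝒪 _ hq hsurj p S' DQ.ρ DQ.isOfType.1,
    fun l hl hlp hlne => twbc_isUnipotentOnInertiaAt _ hq DQ.ρ l (DQ.isOfType.2 l hl hlp hlne)⟩

end TanBC

end Fermat.Agent.TW


end ZBTW_008_0

/-! ### bundled: `Fermat.Agent.TW.BCFinal` -/
section ZBTW_008_1

/-!
# S56, TW-bc: the two base change statements of `TW/Plan.lean`
-/

set_option autoImplicit false

namespace Fermat.Agent.TW

open IsLocalRing

variable (𝒪 : Type) [CommRing 𝒪] [IsDomain 𝒪] [IsDiscreteValuationRing 𝒪]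
  [IsAdicComplete (maximalIdeal 𝒪) 𝒪] [Finite (ResidueField 𝒪)]

/-- **TW-bc, ordinary half.** -/
theorem stmtBCOrd : StmtBCOrd 𝒪 := by
  intro p _ ρbar Smin Q DQ
  exact twTanBC_ord p (Smin ∪ Q) Smin DQ

/-- **TW-bc, flat half.** -/
theorem stmtBCFlat : StmtBCFlat 𝒪 := by
  intro p _ ρbar Smin Q DQ
  exact twTanBC_flat p (Smin ∪ Q) Smin DQ

end Fermat.Agent.TW


end ZBTW_008_1

/-! ### bundled: `Fermat.Agent.TW.Res` -/
section ZBTW_008_2

/-!
# S56, piece TW-res: invariance under equivalence, and the residual representation is of type `𝒟`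

* `tweq_*`: the local conditions are invariant under `GaloisRepAdic.IsEquiv`;
* `twres_ord`, `twres_flat`: if a `DeformationRingData` for one of the two conditions of S56
  exists, then `ρbar` itself satisfies the condition.
-/

set_option autoImplicit false

namespace Fermat.Agent.TW

open IsLocalRing Fermat.Agent.S53

section Equiv

variable {A : Type} [CommRing A] [IsLocalRing A]

theorem tweq_ρ_eq_conj {ρ ρ' : GaloisRepAdic A} (e : GaloisRepAdic.Equiv ρ ρ')
    (σ : AlgebraicClosure ℚ ≃ₐ[ℚ] AlgebraicClosure ℚ) :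
    ρ'.ρ σ = e.toLinearEquiv.conj (ρ.ρ σ) := by
  apply LinearMap.ext
  intro y
  obtain ⟨x, rfl⟩ := e.toLinearEquiv.surjective y
  rw [LinearEquiv.conj_apply_apply, LinearEquiv.symm_apply_apply, e.map_apply]

theorem tweq_detIsCyclotomic {ρ ρ' : GaloisRepAdic A} (h : ρ.IsEquiv ρ') (p : ℕ)
    (hρ : ρ.DetIsCyclotomic p) : ρ'.DetIsCyclotomic p := by
  obtain ⟨e⟩ := h
  refine ⟨hρ.1, fun n σ a ha => ?_⟩
  have hdet : LinearMap.det (ρ'.ρ σ) = LinearMap.det (ρ.ρ σ) := by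
    rw [tweq_ρ_eq_conj e]
    exact LinearMap.det_conj (ρ.ρ σ) e.toLinearEquiv
  rw [hdet]
  exact hρ.2 n σ a ha

theorem tweq_isUnramifiedAt {ρ ρ' : GaloisRepAdic A} (h : ρ.IsEquiv ρ') (q : ℕ)
    (hρ : ρ.IsUnramifiedAt q) : ρ'.IsUnramifiedAt q := by
  obtain ⟨e⟩ := h
  intro P hP σ hσ
  rw [tweq_ρ_eq_conj e, hρ P hP σ hσ]
  apply LinearMap.ext
  intro y
  rw [LinearEquiv.conj_apply_apply, Module.End.one_apply, LinearEquiv.apply_symm_apply,
    Module.End.one_apply]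

theorem tweq_isUnipotentOnInertiaAt {ρ ρ' : GaloisRepAdic A} (h : ρ.IsEquiv ρ') (q : ℕ)
    (hρ : ρ.IsUnipotentOnInertiaAt q) : ρ'.IsUnipotentOnInertiaAt q := by
  obtain ⟨e⟩ := h
  intro P hP σ hσ
  rw [tweq_ρ_eq_conj e, LinearEquiv.charpoly_conj]
  exact hρ P hP σ hσ

theorem tweq_isStrictOrdinaryAt {ρ ρ' : GaloisRepAdic A} (h : ρ.IsEquiv ρ') (p : ℕ)
    (hρ : ρ.IsStrictOrdinaryAt p) : ρ'.IsStrictOrdinaryAt p := by
  obtain ⟨e⟩ := h
  refine ⟨hρ.1, fun P hP => ?_⟩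
  obtain ⟨L, ⟨b, rfl⟩, hD, hI, hS⟩ := hρ.2 P hP
  have hmem : ∀ v ∈ Submodule.span A {b 0},
      e.toLinearEquiv v ∈ Submodule.span A {(b.map e.toLinearEquiv) 0} := by
    intro v hv
    obtain ⟨a, rfl⟩ := Submodule.mem_span_singleton.1 hv
    rw [map_smul, Module.Basis.map_apply]
    exact Submodule.smul_mem _ _ (Submodule.mem_span_singleton_self _)
  have hmem' : ∀ w ∈ Submodule.span A {(b.map e.toLinearEquiv) 0},
      ∃ v ∈ Submodule.span A {b 0}, e.toLinearEquiv v = w := by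
    intro w hw
    obtain ⟨a, rfl⟩ := Submodule.mem_span_singleton.1 hw
    refine ⟨a • b 0, Submodule.smul_mem _ _ (Submodule.mem_span_singleton_self _), ?_⟩
    rw [map_smul, Module.Basis.map_apply]
  refine ⟨Submodule.span A {(b.map e.toLinearEquiv) 0}, ⟨b.map e.toLinearEquiv, rfl⟩, ?_, ?_, ?_⟩
  · intro σ hσ w hw
    obtain ⟨v, hv, rfl⟩ := hmem' w hw
    rw [← e.map_apply]
    exact hmem _ (hD σ hσ v hv)
  · intro σ hσ w
    obtain ⟨v, rfl⟩ := e.toLinearEquiv.surjective w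
    rw [← e.map_apply, ← map_sub]
    exact hmem _ (hI σ hσ v)
  · intro σ hσ
    obtain ⟨x, z, hx, hz, hxz⟩ := hS σ hσ
    refine ⟨x, z, ?_, ?_, hxz⟩
    · intro w hw
      obtain ⟨v, hv, rfl⟩ := hmem' w hw
      rw [← e.map_apply, hx v hv, map_smul]
    · intro w
      obtain ⟨v, rfl⟩ := e.toLinearEquiv.surjective w
      rw [← e.map_apply, ← map_smul, ← map_sub]
      exact hmem _ (hz v)

theorem tweq_isOrdinaryAt {ρ ρ' : GaloisRepAdic A} (h : ρ.IsEquiv ρ') (p : ℕ)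
    (hρ : ρ.IsOrdinaryAt p) : ρ'.IsOrdinaryAt p := by
  obtain ⟨e⟩ := h
  intro P hP
  obtain ⟨L, ⟨b, rfl⟩, hD, hI⟩ := hρ P hP
  have hmem : ∀ v ∈ Submodule.span A {b 0},
      e.toLinearEquiv v ∈ Submodule.span A {(b.map e.toLinearEquiv) 0} := by
    intro v hv
    obtain ⟨a, rfl⟩ := Submodule.mem_span_singleton.1 hv
    rw [map_smul, Module.Basis.map_apply]
    exact Submodule.smul_mem _ _ (Submodule.mem_span_singleton_self _)
  have hmem' : ∀ w ∈ Submodule.span A {(b.map e.toLinearEquiv) 0},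
      ∃ v ∈ Submodule.span A {b 0}, e.toLinearEquiv v = w := by
    intro w hw
    obtain ⟨a, rfl⟩ := Submodule.mem_span_singleton.1 hw
    refine ⟨a • b 0, Submodule.smul_mem _ _ (Submodule.mem_span_singleton_self _), ?_⟩
    rw [map_smul, Module.Basis.map_apply]
  refine ⟨Submodule.span A {(b.map e.toLinearEquiv) 0}, ⟨b.map e.toLinearEquiv, rfl⟩, ?_, ?_⟩
  · intro σ hσ w hw
    obtain ⟨v, hv, rfl⟩ := hmem' w hw
    rw [← e.map_apply]
    exact hmem _ (hD σ hσ v hv)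
  · intro σ hσ w
    obtain ⟨v, rfl⟩ := e.toLinearEquiv.surjective w
    rw [← e.map_apply, ← map_sub]
    exact hmem _ (hI σ hσ v)

/-- the isomorphism `V / I V ≃ V' / I V'` induced by an equivalence -/
noncomputable def tweqQuot {ρ ρ' : GaloisRepAdic A} (e : GaloisRepAdic.Equiv ρ ρ') (I : Ideal A) :
    (ρ.V ⧸ (I • (⊤ : Submodule A ρ.V))) ≃ₗ[A] (ρ'.V ⧸ (I • (⊤ : Submodule A ρ'.V))) :=
  Submodule.Quotient.equiv _ _ e.toLinearEquiv (by
    rw [Submodule.map_smul'', Submodule.map_top, LinearEquiv.range])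

theorem tweqQuot_mk {ρ ρ' : GaloisRepAdic A} (e : GaloisRepAdic.Equiv ρ ρ') (I : Ideal A)
    (v : ρ.V) : tweqQuot e I (Submodule.Quotient.mk v) =
      Submodule.Quotient.mk (e.toLinearEquiv v) := rfl

theorem tweqQuot_levelAction {ρ ρ' : GaloisRepAdic A} (e : GaloisRepAdic.Equiv ρ ρ')
    (I : Ideal A) (σ : AlgebraicClosure ℚ ≃ₐ[ℚ] AlgebraicClosure ℚ)
    (x : ρ.V ⧸ (I • (⊤ : Submodule A ρ.V))) :
    tweqQuot e I (ρ.levelAction I σ x) = ρ'.levelAction I σ (tweqQuot e I x) := by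
  obtain ⟨v, rfl⟩ := Submodule.Quotient.mk_surjective _ x
  show tweqQuot e I (Submodule.Quotient.mk (ρ.ρ σ v)) =
    Submodule.Quotient.mk (ρ'.ρ σ (e.toLinearEquiv v))
  rw [tweqQuot_mk, e.map_apply]

theorem tweq_isFlatAt {ρ ρ' : GaloisRepAdic A} (h : ρ.IsEquiv ρ') (p : ℕ)
    (hρ : ρ.IsFlatAt p) : ρ'.IsFlatAt p := by
  obtain ⟨e⟩ := h
  refine ⟨hρ.1, fun I hI => ?_⟩
  obtain ⟨H, i1, i2, h1, h2, h3, e₀, he1, he2⟩ := hρ.2 I hI
  refine ⟨H, i1, i2, h1, h2, h3, e₀.trans (tweqQuot e I).toEquiv, ?_, ?_⟩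
  · intro f g
    show tweqQuot e I (e₀ (f * g)) = tweqQuot e I (e₀ f) + tweqQuot e I (e₀ g)
    rw [he1, map_add]
  · intro σ f g hfg
    show tweqQuot e I (e₀ g) = _
    rw [he2 σ f g hfg]
    exact tweqQuot_levelAction e I σ (e₀ f)

end Equiv

section EquivConditions

variable (𝒪 : Type) [CommRing 𝒪]
variable {A : Type} [CommRing A] [IsLocalRing A] [Algebra 𝒪 A]

theorem tweq_strictOrdinaryCondition {ρ ρ' : GaloisRepAdic A} (h : ρ.IsEquiv ρ') (p : ℕ)
    (S : Finset ℕ) (hρ : GaloisRep.strictOrdinaryCondition 𝒪 p S ρ) :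
    GaloisRep.strictOrdinaryCondition 𝒪 p S ρ' :=
  ⟨tweq_detIsCyclotomic h p hρ.1, tweq_isStrictOrdinaryAt h p hρ.2.1,
    fun q hq hqS => tweq_isUnramifiedAt h q (hρ.2.2 q hq hqS)⟩

theorem tweq_ordinaryCondition {ρ ρ' : GaloisRepAdic A} (h : ρ.IsEquiv ρ') (p : ℕ)
    (S : Finset ℕ) (hρ : GaloisRep.ordinaryCondition 𝒪 p S ρ) :
    GaloisRep.ordinaryCondition 𝒪 p S ρ' :=
  ⟨tweq_detIsCyclotomic h p hρ.1, tweq_isOrdinaryAt h p hρ.2.1,
    fun q hq hqS => tweq_isUnramifiedAt h q (hρ.2.2 q hq hqS)⟩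

theorem tweq_flatCondition {ρ ρ' : GaloisRepAdic A} (h : ρ.IsEquiv ρ') (p : ℕ)
    (S : Finset ℕ) (hρ : GaloisRep.flatCondition 𝒪 p S ρ) :
    GaloisRep.flatCondition 𝒪 p S ρ' :=
  ⟨tweq_detIsCyclotomic h p hρ.1, tweq_isFlatAt h p hρ.2.1,
    fun q hq hqS => tweq_isUnramifiedAt h q (hρ.2.2 q hq hqS)⟩

end EquivConditions

section Residual

variable {𝒪 : Type} [CommRing 𝒪] [IsDomain 𝒪] [IsDiscreteValuationRing 𝒪]
  [IsAdicComplete (maximalIdeal 𝒪) 𝒪]
variable {ρbar : ResidualGaloisRep (ResidueField 𝒪)}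
  {𝒟 : ∀ ⦃A : Type⦄ [CommRing A] [IsLocalRing A] [Algebra 𝒪 A], GaloisRepAdic A → Prop}

/-- The residue map of the universal ring, as an `𝒪`-algebra map to `k = 𝒪 / 𝔪`. -/
noncomputable def twresPi (DQ : GaloisRep.DeformationRingData 𝒪 ρbar 𝒟) :
    DQ.R →ₐ[𝒪] ResidueField 𝒪 :=
  { tangentRes (psj_isResAlg DQ.residue_surjective) with
    commutes' := fun c => tangentRes_algebraMap (psj_isResAlg DQ.residue_surjective) c }

theorem twresPi_apply (DQ : GaloisRep.DeformationRingData 𝒪 ρbar 𝒟) (a : DQ.R) :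
    twresPi DQ a = tangentRes (psj_isResAlg DQ.residue_surjective) a := rfl

theorem twresPi_surjective (DQ : GaloisRep.DeformationRingData 𝒪 ρbar 𝒟) :
    Function.Surjective (twresPi DQ) := by
  intro y
  obtain ⟨c, rfl⟩ := IsLocalRing.residue_surjective y
  exact ⟨algebraMap 𝒪 DQ.R c, by rw [twresPi_apply, tangentRes_algebraMap]⟩

theorem twresPi_isLocalHom (DQ : GaloisRep.DeformationRingData 𝒪 ρbar 𝒟) :
    IsLocalHom ((twresPi DQ : DQ.R →ₐ[𝒪] ResidueField 𝒪) : DQ.R →+* ResidueField 𝒪) := by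
  refine ⟨fun a ha => ?_⟩
  by_contra hna
  have h1 : a ∈ maximalIdeal DQ.R := (IsLocalRing.mem_maximalIdeal _).2 hna
  have h2 : twresPi DQ a = 0 := by
    rw [twresPi_apply]
    exact (tangentRes_eq_zero_iff (psj_isResAlg DQ.residue_surjective) a).2 h1
  have h3 : IsUnit (twresPi DQ a) := ha
  rw [h2] at h3
  exact not_isUnit_zero h3

/-- The base change of the universal deformation to the residue field is `ρbar`. -/
theorem twres_isEquiv (DQ : GaloisRep.DeformationRingData 𝒪 ρbar 𝒟) :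
    (DQ.ρ.baseChangeAlong ((twresPi DQ : DQ.R →ₐ[𝒪] ResidueField 𝒪) : DQ.R →+* ResidueField 𝒪)
      (twresPi_isLocalHom DQ)).IsEquiv (GaloisRepAdic.ofResidualGaloisRep ρbar) := by
  obtain ⟨D⟩ := nonempty_rigidDatum (𝒪 := 𝒪) ρbar DQ.absIrr
  obtain ⟨r, hr, hfr, ⟨e⟩⟩ := exists_framed_of_residual_isEquiv (A := DQ.R) D
    (IsLocalRing.ResidueField.map (algebraMap 𝒪 DQ.R)) (fun _ => rfl) DQ.ρ DQ.residual_isEquiv
  have e1 := e.baseChangeAlong ((twresPi DQ : DQ.R →ₐ[𝒪] ResidueField 𝒪) :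
    DQ.R →+* ResidueField 𝒪) (twresPi_isLocalHom DQ)
  have e2 := ofMatrixBaseChangeEquiv ((twresPi DQ : DQ.R →ₐ[𝒪] ResidueField 𝒪) :
    DQ.R →+* ResidueField 𝒪) (twresPi_isLocalHom DQ) r hr
  have hmap : mapRep ((twresPi DQ : DQ.R →ₐ[𝒪] ResidueField 𝒪) : DQ.R →+* ResidueField 𝒪) r =
      D.ρm := by
    ext σ i j
    obtain ⟨x, hx⟩ := IsLocalRing.residue_surjective (D.ρm σ i j)
    have h1 := hfr σ i j x hx
    rw [mapRep_apply]
    show tangentRes (psj_isResAlg DQ.residue_surjective) (r σ i j) = _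
    rw [tangentRes_eq_of_sub_mem _ h1, hx]
  have e3 : GaloisRepAdic.Equiv (GaloisRepAdic.ofResidualGaloisRep ρbar)
      (ofMatrix D.ρm (matCont_bar D)) :=
    { toLinearEquiv := D.b.equivFun
      map_apply := fun σ x => by
        show D.b.equivFun (ρbar.ρ σ x) = (D.ρm σ).mulVec (D.b.equivFun x)
        rw [D.ρm_eq]
        exact (LinearMap.toMatrix_mulVec_repr D.b D.b (ρbar.ρ σ) x).symm }
  have e4 : GaloisRepAdic.Equiv
      (ofMatrix (mapRep ((twresPi DQ : DQ.R →ₐ[𝒪] ResidueField 𝒪) : DQ.R →+* ResidueField 𝒪) r)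
        (hr.map _ (twresPi_isLocalHom DQ))) (ofMatrix D.ρm (matCont_bar D)) := by
    have : ∀ (r' : Gal →* M2 (ResidueField 𝒪)) (hr' : MatCont (ResidueField 𝒪) r'),
        r' = D.ρm → Nonempty (GaloisRepAdic.Equiv (ofMatrix r' hr')
          (ofMatrix D.ρm (matCont_bar D))) := by
      intro r' hr' h
      subst h
      exact ⟨GaloisRepAdic.Equiv.refl _⟩
    exact (this _ _ hmap).some
  exact ⟨(e1.trans e2).trans (e4.trans e3.symm)⟩

/-- **TW-res, general form.** -/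
theorem twres_of (DQ : GaloisRep.DeformationRingData 𝒪 ρbar 𝒟)
    (hbc : ∀ (q : DQ.R →ₐ[𝒪] ResidueField 𝒪) (hq : IsLocalHom (q : DQ.R →+* ResidueField 𝒪)),
      Function.Surjective q → 𝒟 (DQ.ρ.baseChangeAlong (q : DQ.R →+* ResidueField 𝒪) hq))
    (heq : ∀ ρ ρ' : GaloisRepAdic (ResidueField 𝒪), ρ.IsEquiv ρ' → 𝒟 ρ → 𝒟 ρ') :
    𝒟 (GaloisRepAdic.ofResidualGaloisRep ρbar) :=
  heq _ _ (twres_isEquiv DQ) (hbc (twresPi DQ) (twresPi_isLocalHom DQ) (twresPi_surjective DQ))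

/-- **TW-res, ordinary case.** If a universal ring for the strictly ordinary condition of S56
exists, then `ρbar` satisfies the condition. -/
theorem twres_ord (p : ℕ) (S' Smin : Finset ℕ)
    (DQ : GaloisRep.DeformationRingData 𝒪 ρbar (fun _A _ _ _ ρ =>
      GaloisRep.strictOrdinaryCondition 𝒪 p S' ρ ∧
        ∀ q ∈ Smin, q.Prime → q ≠ p → ρ.IsUnipotentOnInertiaAt q)) :
    GaloisRep.strictOrdinaryCondition 𝒪 p S' (GaloisRepAdic.ofResidualGaloisRep ρbar) ∧
      ∀ q ∈ Smin, q.Prime → q ≠ p →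
        (GaloisRepAdic.ofResidualGaloisRep ρbar).IsUnipotentOnInertiaAt q := by
  refine twres_of DQ ?_ ?_
  · intro q hq _
    exact ⟨twbc_strictOrdinaryCondition 𝒪 _ hq p S' DQ.ρ DQ.isOfType.1,
      fun l hl hlp hlne => twbc_isUnipotentOnInertiaAt _ hq DQ.ρ l (DQ.isOfType.2 l hl hlp hlne)⟩
  · intro ρ ρ' h hρ
    exact ⟨tweq_strictOrdinaryCondition 𝒪 h p S' hρ.1,
      fun l hl hlp hlne => tweq_isUnipotentOnInertiaAt h l (hρ.2 l hl hlp hlne)⟩

/-- **TW-res, flat case.** -/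
theorem twres_flat (p : ℕ) (S' Smin : Finset ℕ)
    (DQ : GaloisRep.DeformationRingData 𝒪 ρbar (fun _A _ _ _ ρ =>
      GaloisRep.flatCondition 𝒪 p S' ρ ∧
        ∀ q ∈ Smin, q.Prime → q ≠ p → ρ.IsUnipotentOnInertiaAt q)) :
    GaloisRep.flatCondition 𝒪 p S' (GaloisRepAdic.ofResidualGaloisRep ρbar) ∧
      ∀ q ∈ Smin, q.Prime → q ≠ p →
        (GaloisRepAdic.ofResidualGaloisRep ρbar).IsUnipotentOnInertiaAt q := by
  refine twres_of DQ ?_ ?_
  · intro q hq hsurj
    exact ⟨twbc_flatCondition 𝒪 _ hq hsurj p S' DQ.ρ DQ.isOfType.1,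
      fun l hl hlp hlne => twbc_isUnipotentOnInertiaAt _ hq DQ.ρ l (DQ.isOfType.2 l hl hlp hlne)⟩
  · intro ρ ρ' h hρ
    exact ⟨tweq_flatCondition 𝒪 h p S' hρ.1,
      fun l hl hlp hlne => tweq_isUnipotentOnInertiaAt h l (hρ.2 l hl hlp hlne)⟩

end Residual

end Fermat.Agent.TW


end ZBTW_008_2

/-! ### bundled: `Fermat.Agent.TW.W.Add` -/
section ZBTW_008_3

/-!
# TW-W / W-add (helper64): the flat cocycles are closed under addition

`stmtAdd : StmtAdd`.  For flat deformations `ρ ≅ (1 + εc)ρ̄`, `ρ' ≅ (1 + εc')ρ̄` the matrix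
representation `(1 + ε(c + c'))ρ̄` is a deformation with cyclotomic determinant, and it is flat:
for an ideal `I ∋ ε` its reduction modulo `I` is that of `ρ`; for `I = 0` the module `V_{c+c'}` is
the Baer sum, a quotient of a subobject of `V_c × V_{c'}`.
-/

set_option autoImplicit false
set_option linter.unusedSectionVars false
set_option linter.style.haveILetI false

noncomputable section

namespace Fermat.Agent.TW.W

open CategoryTheory groupCohomology IsLocalRing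
open Fermat.Agent.PT Fermat.Agent.PT.B Fermat.Agent.TW.L Fermat.Agent.TW.S Fermat.Agent.S53
  Fermat.Agent.W1 ExtCitation

section Mat

variable {𝒪 : Type} [CommRing 𝒪] [IsLocalRing 𝒪] (p : ℕ) [Fact p.Prime]
  [CharP (ResidueField 𝒪) p] {ρbar : ResidualGaloisRep (ResidueField 𝒪)}
  (D : RigidDatum 𝒪 ρbar)

/-- multiplicativity of `liftMat` in terms of the `ε`-part -/
theorem wadd_mul_iff (c : GQ → (adRep p ρbar).V) (g h : GQ) :
    liftMat p D c (g * h) = liftMat p D c g * liftMat p D c h ↔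
      adMat p D (c (g * h)) * D.ρm (g * h) =
        D.ρm g * (adMat p D (c h) * D.ρm h) + adMat p D (c g) * D.ρm g * D.ρm h := by
  constructor
  · intro hmul
    have := congrArg dnSnd hmul
    rw [dnSnd_mul, dnSnd_liftMat, dnSnd_liftMat, dnSnd_liftMat, dnFst_liftMat, dnFst_liftMat]
      at this
    exact this
  · intro hs
    apply dn_ext
    · rw [dnFst_mul, dnFst_liftMat, dnFst_liftMat, dnFst_liftMat, map_mul]
    · rw [dnSnd_mul, dnSnd_liftMat, dnSnd_liftMat, dnSnd_liftMat, dnFst_liftMat, dnFst_liftMat]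
      exact hs

theorem wadd_one_iff (c : GQ → (adRep p ρbar).V) :
    liftMat p D c 1 = 1 ↔ adMat p D (c 1) = 0 := by
  constructor
  · intro h1
    have := congrArg dnSnd h1
    rw [dnSnd_liftMat, dnSnd_one, map_one, mul_one] at this
    exact this
  · intro hs
    apply dn_ext
    · rw [dnFst_liftMat, map_one, dnFst_one]
    · rw [dnSnd_liftMat, dnSnd_one, hs, zero_mul]

theorem wadd_eq_one_iff (c : GQ → (adRep p ρbar).V) (σ : GQ) :
    liftMat p D c σ = 1 ↔ D.ρm σ = 1 ∧ adMat p D (c σ) = 0 := by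
  constructor
  · intro h1
    have h0 := congrArg dnFst h1
    have hs := congrArg dnSnd h1
    rw [dnFst_liftMat, dnFst_one] at h0
    rw [dnSnd_liftMat, dnSnd_one, h0, mul_one] at hs
    exact ⟨h0, hs⟩
  · rintro ⟨h0, hs⟩
    apply dn_ext
    · rw [dnFst_liftMat, h0, dnFst_one]
    · rw [dnSnd_liftMat, dnSnd_one, hs, zero_mul]

/-- the matrix representation `(1 + ε(c + c'))ρ̄` -/
def waddRep (c c' : GQ → (adRep p ρbar).V)
    (hmul : ∀ g h, liftMat p D c (g * h) = liftMat p D c g * liftMat p D c h)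
    (hmul' : ∀ g h, liftMat p D c' (g * h) = liftMat p D c' g * liftMat p D c' h)
    (hone : liftMat p D c 1 = 1) (hone' : liftMat p D c' 1 = 1) :
    Gal →* M2 (DualNumber (ResidueField 𝒪)) where
  toFun σ := liftMat p D (fun σ => c σ + c' σ) σ
  map_one' := by
    rw [wadd_one_iff] at hone hone' ⊢
    simp only [adMat_add, hone, hone', add_zero]
  map_mul' := by
    intro g h
    have h1 := (wadd_mul_iff p D c g h).1 (hmul g h)
    have h2 := (wadd_mul_iff p D c' g h).1 (hmul' g h)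
    rw [wadd_mul_iff]
    simp only [adMat_add, add_mul, mul_add, h1, h2]
    abel

theorem waddRep_apply (c c' : GQ → (adRep p ρbar).V)
    (hmul : ∀ g h, liftMat p D c (g * h) = liftMat p D c g * liftMat p D c h)
    (hmul' : ∀ g h, liftMat p D c' (g * h) = liftMat p D c' g * liftMat p D c' h)
    (hone : liftMat p D c 1 = 1) (hone' : liftMat p D c' 1 = 1) (σ : GQ) :
    waddRep p D c c' hmul hmul' hone hone' σ = liftMat p D (fun σ => c σ + c' σ) σ := rfl

theorem waddRep_matCont (c c' : GQ → (adRep p ρbar).V)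
    (R : Gal →* M2 (DualNumber (ResidueField 𝒪)))
    (hR : ∀ σ, R σ = liftMat p D (fun σ => c σ + c' σ) σ)
    (hlev : ∃ F : QbarField, FiniteDimensional ℚ F ∧
      ∀ s : GQ, s ∈ F.fixingSubgroup → liftMat p D c s = 1)
    (hlev' : ∃ F : QbarField, FiniteDimensional ℚ F ∧
      ∀ s : GQ, s ∈ F.fixingSubgroup → liftMat p D c' s = 1) :
    MatCont (DualNumber (ResidueField 𝒪)) R := by
  obtain ⟨F, hF, hF1⟩ := hlev
  obtain ⟨F', hF', hF1'⟩ := hlev'
  intro n
  refine ⟨F ⊔ F', IntermediateField.finiteDimensional_sup F F', fun σ hσ i j => ?_⟩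
  have hσF : σ ∈ F.fixingSubgroup :=
    (IntermediateField.mem_fixingSubgroup_iff F σ).2 (fun x hx => hσ x
      ((le_sup_left : F ≤ F ⊔ F') hx))
  have hσF' : σ ∈ F'.fixingSubgroup :=
    (IntermediateField.mem_fixingSubgroup_iff F' σ).2 (fun x hx => hσ x
      ((le_sup_right : F' ≤ F ⊔ F') hx))
  have h1 := (wadd_eq_one_iff p D c σ).1 (hF1 σ hσF)
  have h2 := (wadd_eq_one_iff p D c' σ).1 (hF1' σ hσF')
  have h3 : R σ = 1 := by
    rw [hR, wadd_eq_one_iff]
    refine ⟨h1.1, ?_⟩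
    simp only [adMat_add, h1.2, h2.2, add_zero]
  rw [h3, sub_self]
  exact Ideal.zero_mem _

/-- the determinant of `(1 + εc)ρ̄` for a cocycle with values of trace `0` -/
theorem wadd_det (c : GQ → (adRep p ρbar).V) (σ : GQ)
    (htr : (adMat p D (c σ)).trace = 0) :
    (liftMat p D c σ).det = TrivSqZeroExt.inl ((D.ρm σ).det) := by
  refine TrivSqZeroExt.ext ?_ ?_
  · rw [TrivSqZeroExt.fst_inl]
    have h1 : (liftMat p D c σ).det.fst = (dnFst (liftMat p D c σ)).det := by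
      simp only [Matrix.det_fin_two, dnFst_apply, TrivSqZeroExt.fst_sub, TrivSqZeroExt.fst_mul]
    rw [h1, dnFst_liftMat]
  · rw [TrivSqZeroExt.snd_inl]
    unfold liftMat
    rw [strace_snd_det, htr, mul_zero]

end Mat

section Flat

variable {k : Type} [Field k]

/-- the vector `v + εw` -/
def waddEmb (v w : Fin 2 → k) : Fin 2 → DualNumber k :=
  fun i => TrivSqZeroExt.inl (v i) + TrivSqZeroExt.inr (w i)

theorem waddEmb_fst (v w : Fin 2 → k) (i : Fin 2) : (waddEmb v w i).fst = v i := by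
  simp [waddEmb]

theorem waddEmb_snd (v w : Fin 2 → k) (i : Fin 2) : (waddEmb v w i).snd = w i := by
  simp [waddEmb]

theorem waddEmb_add (v w v' w' : Fin 2 → k) :
    waddEmb (v + v') (w + w') = waddEmb v w + waddEmb v' w' := by
  funext i
  refine TrivSqZeroExt.ext ?_ ?_
  · simp [waddEmb]
  · simp [waddEmb]

theorem waddEmb_zero : waddEmb (0 : Fin 2 → k) 0 = 0 := by
  funext i
  refine TrivSqZeroExt.ext ?_ ?_
  · simp [waddEmb]
  · simp [waddEmb]

theorem waddEmb_parts (y : Fin 2 → DualNumber k) :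
    waddEmb (fun i => (y i).fst) (fun i => (y i).snd) = y := by
  funext i
  refine TrivSqZeroExt.ext ?_ ?_
  · simp [waddEmb]
  · simp [waddEmb]

theorem waddEmb_injective {v w v' w' : Fin 2 → k} (h : waddEmb v w = waddEmb v' w') :
    v = v' ∧ w = w' := by
  constructor
  · funext i
    have := congrArg TrivSqZeroExt.fst (congrFun h i)
    rwa [waddEmb_fst, waddEmb_fst] at this
  · funext i
    have := congrArg TrivSqZeroExt.snd (congrFun h i)
    rwa [waddEmb_snd, waddEmb_snd] at this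

/-- `(M₀ + εM₁)(v + εw) = M₀v + ε(M₀w + M₁v)` -/
theorem wadd_mulVec (M : M2 (DualNumber k)) (v w : Fin 2 → k) :
    M.mulVec (waddEmb v w) =
      waddEmb ((dnFst M).mulVec v) ((dnFst M).mulVec w + (dnSnd M).mulVec v) := by
  funext i
  refine TrivSqZeroExt.ext ?_ ?_
  · rw [waddEmb_fst]
    simp only [Matrix.mulVec, dotProduct, Fin.sum_univ_two, TrivSqZeroExt.fst_add,
      TrivSqZeroExt.fst_mul, waddEmb_fst, dnFst_apply]
  · rw [waddEmb_snd]
    simp only [Matrix.mulVec, dotProduct, Fin.sum_univ_two, TrivSqZeroExt.snd_add,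
      TrivSqZeroExt.snd_mul, waddEmb_fst, waddEmb_snd, dnFst_apply, dnSnd_apply, Pi.add_apply,
      smul_eq_mul, MulOpposite.smul_eq_mul_unop, MulOpposite.unop_op]
    ring

/-- an ideal of the dual numbers is `0` or contains `ε` -/
theorem wadd_ideal_cases (I : Ideal (DualNumber k)) :
    I = ⊥ ∨ (TrivSqZeroExt.inr (1 : k) : DualNumber k) ∈ I := by
  by_cases hI : I = ⊥
  · exact Or.inl hI
  right
  obtain ⟨x, hx, hx0⟩ := Submodule.exists_mem_ne_zero_of_ne_bot hI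
  by_cases hf : x.fst = 0
  · have hs : x.snd ≠ 0 := by
      intro hs
      exact hx0 (TrivSqZeroExt.ext (by simpa using hf) (by simpa using hs))
    have h1 : (TrivSqZeroExt.inr (1 : k) : DualNumber k) =
        (TrivSqZeroExt.inl (x.snd)⁻¹ : DualNumber k) * x := by
      refine TrivSqZeroExt.ext ?_ ?_
      · simp [hf]
      · simp [hf, inv_mul_cancel₀ hs]
    rw [h1]
    exact I.mul_mem_left _ hx
  · have hu : IsUnit x := (TrivSqZeroExt.isUnit_iff_isUnit_fst).2 (IsUnit.mk0 _ hf)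
    rw [I.eq_top_of_isUnit_mem hx hu]
    exact Submodule.mem_top

/-- a vector with coordinates in `I` lies in `I • ⊤` -/
theorem wadd_mem_smul_top {A : Type} [CommRing A] (I : Ideal A) (y : Fin 2 → A)
    (hy : ∀ i, y i ∈ I) : y ∈ I • (⊤ : Submodule A (Fin 2 → A)) := by
  have h : y = y 0 • (Pi.single 0 1 : Fin 2 → A) + y 1 • (Pi.single 1 1 : Fin 2 → A) := by
    funext i
    fin_cases i <;> simp
  rw [h]
  exact Submodule.add_mem _ (Submodule.smul_mem_smul (hy 0) Submodule.mem_top)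
    (Submodule.smul_mem_smul (hy 1) Submodule.mem_top)

theorem wadd_finite_dualNumber [Finite k] : Finite (DualNumber k) :=
  Finite.of_injective (fun x : DualNumber k => (x.fst, x.snd))
    (fun _ _ h => TrivSqZeroExt.ext (congrArg Prod.fst h) (congrArg Prod.snd h))

/-- **The Baer sum is flat** (matrix form). -/
theorem wadd_isFlatAt [Finite k] (p : ℕ) [Fact p.Prime]
    (r r' r'' : Gal →* M2 (DualNumber k))
    (hr : MatCont (DualNumber k) r) (hr' : MatCont (DualNumber k) r')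
    (hr'' : MatCont (DualNumber k) r'')
    (h0 : ∀ σ, dnFst (r' σ) = dnFst (r σ)) (h0' : ∀ σ, dnFst (r'' σ) = dnFst (r σ))
    (h1 : ∀ σ, dnSnd (r'' σ) = dnSnd (r σ) + dnSnd (r' σ))
    (hflat : (ofMatrix r hr).IsFlatAt p) (hflat' : (ofMatrix r' hr').IsFlatAt p) :
    (ofMatrix r'' hr'').IsFlatAt p := by
  haveI : Finite (DualNumber k) := wadd_finite_dualNumber
  haveI := Fermat.Agent.S28.ratLoc_isFractionRing p
  rw [sq_isFlatAt_iff] at hflat hflat' ⊢
  refine ⟨hflat.1, fun I hI => ?_⟩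
  have hfV : ∀ (s : Gal →* M2 (DualNumber k)) (hs : MatCont (DualNumber k) s)
      (J : Ideal (DualNumber k)),
      Finite ((ofMatrix s hs).V ⧸ (J • (⊤ : Submodule (DualNumber k) (ofMatrix s hs).V))) := by
    intro s hs J
    haveI : Finite (ofMatrix s hs).V := inferInstanceAs (Finite (Fin 2 → DualNumber k))
    exact Finite.of_surjective _ (Submodule.Quotient.mk_surjective _)
  haveI := hfV r hr I
  haveI := hfV r' hr' I
  rcases wadd_ideal_cases I with hIbot | hIeps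
  · -- `I = 0`: the Baer sum
    subst hIbot
    have hM := hasFiniteFlatModel_prod (hflat.2 ⊥ hI) (hflat'.2 ⊥ hI)
    have hbot : ∀ (W : GaloisRepAdic (DualNumber k)),
        ((⊥ : Ideal (DualNumber k)) • (⊤ : Submodule (DualNumber k) W.V)) = ⊥ :=
      fun W => Submodule.bot_smul _
    -- the sub-object
    let actN : Gal → ((Fin 2 → k) × (Fin 2 → k) × (Fin 2 → k)) →
        ((Fin 2 → k) × (Fin 2 → k) × (Fin 2 → k)) := fun σ x =>
      ((dnFst (r σ)).mulVec x.1,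
        (dnFst (r σ)).mulVec x.2.1 + (dnSnd (r σ)).mulVec x.1,
        (dnFst (r σ)).mulVec x.2.2 + (dnSnd (r' σ)).mulVec x.1)
    let ι : ((Fin 2 → k) × (Fin 2 → k) × (Fin 2 → k)) →+
        (((ofMatrix r hr).V ⧸ ((⊥ : Ideal (DualNumber k)) •
            (⊤ : Submodule (DualNumber k) (ofMatrix r hr).V))) ×
          ((ofMatrix r' hr').V ⧸ ((⊥ : Ideal (DualNumber k)) •
            (⊤ : Submodule (DualNumber k) (ofMatrix r' hr').V)))) :=
      { toFun := fun x => (Submodule.Quotient.mk (waddEmb x.1 x.2.1),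
          Submodule.Quotient.mk (waddEmb x.1 x.2.2))
        map_zero' := by
          simp only [Prod.fst_zero, Prod.snd_zero, waddEmb_zero]
          rfl
        map_add' := by
          intro x y
          simp only [Prod.fst_add, Prod.snd_add, waddEmb_add]
          rfl }
    let π : ((Fin 2 → k) × (Fin 2 → k) × (Fin 2 → k)) →+
        ((ofMatrix r'' hr'').V ⧸ ((⊥ : Ideal (DualNumber k)) •
            (⊤ : Submodule (DualNumber k) (ofMatrix r'' hr'').V))) :=
      { toFun := fun x => Submodule.Quotient.mk (waddEmb x.1 (x.2.1 + x.2.2))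
        map_zero' := by
          simp only [Prod.fst_zero, Prod.snd_zero, add_zero, waddEmb_zero]
          rfl
        map_add' := by
          intro x y
          simp only [Prod.fst_add, Prod.snd_add]
          rw [show x.2.1 + y.2.1 + (x.2.2 + y.2.2) = (x.2.1 + x.2.2) + (y.2.1 + y.2.2) by abel,
            waddEmb_add]
          rfl }
    refine hasFiniteFlatModel_of_subquotient hM actN ι ?_ ?_ π ?_ ?_
    · -- injectivity of `ι`
      intro x y hxy
      have h1 := congrArg Prod.fst hxy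
      have h2 := congrArg Prod.snd hxy
      simp only [ι, AddMonoidHom.coe_mk, ZeroHom.coe_mk] at h1 h2
      rw [Submodule.Quotient.eq] at h1 h2
      have hb1 := hbot (ofMatrix r hr)
      have hb2 := hbot (ofMatrix r' hr')
      rw [hb1, Submodule.mem_bot, sub_eq_zero] at h1
      rw [hb2, Submodule.mem_bot, sub_eq_zero] at h2
      obtain ⟨ha, hb⟩ := waddEmb_injective h1
      obtain ⟨-, hc⟩ := waddEmb_injective h2
      exact Prod.ext ha (Prod.ext hb hc)
    · -- equivariance of `ι`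
      intro σ x
      refine Prod.ext ?_ ?_
      · show Submodule.Quotient.mk (waddEmb _ _) =
          Submodule.Quotient.mk ((r σ).mulVec (waddEmb x.1 x.2.1))
        rw [wadd_mulVec]
      · show Submodule.Quotient.mk (waddEmb _ _) =
          Submodule.Quotient.mk ((r' σ).mulVec (waddEmb x.1 x.2.2))
        rw [wadd_mulVec, h0 σ]
    · -- surjectivity of `π`
      intro y
      obtain ⟨y, rfl⟩ := Submodule.Quotient.mk_surjective _ y
      refine ⟨(fun i => (y i).fst, fun i => (y i).snd, 0), ?_⟩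
      show Submodule.Quotient.mk (waddEmb _ _) = Submodule.Quotient.mk y
      rw [add_zero, waddEmb_parts]
    · -- equivariance of `π`
      intro σ x
      show Submodule.Quotient.mk (waddEmb _ _) =
          Submodule.Quotient.mk ((r'' σ).mulVec (waddEmb x.1 (x.2.1 + x.2.2)))
      rw [wadd_mulVec, h0' σ, h1 σ]
      have hw : (actN σ x).2.1 + (actN σ x).2.2 =
          (dnFst (r σ)).mulVec (x.2.1 + x.2.2) + (dnSnd (r σ) + dnSnd (r' σ)).mulVec x.1 := by
        simp only [actN, Matrix.mulVec_add, Matrix.add_mulVec]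
        abel
      rw [hw]
  · -- `ε ∈ I`: the reductions of `r''` and `r` modulo `I` agree
    have hM := hflat.2 I hI
    refine hasFiniteFlatModel_of_equiv hM (AddEquiv.refl _) ?_
    intro σ x
    obtain ⟨x, rfl⟩ := Submodule.Quotient.mk_surjective _ x
    show Submodule.Quotient.mk ((r σ).mulVec x) = Submodule.Quotient.mk ((r'' σ).mulVec x)
    rw [Submodule.Quotient.eq]
    rw [← Matrix.sub_mulVec]
    apply wadd_mem_smul_top
    intro i
    have hent : ∀ i j, (r σ - r'' σ) i j ∈ I := by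
      intro i j
      have hfst : ((r σ - r'' σ) i j).fst = 0 := by
        have := congrFun (congrFun (h0' σ) i) j
        simp only [dnFst_apply] at this
        rw [Matrix.sub_apply, TrivSqZeroExt.fst_sub, this, sub_self]
      have heq : (r σ - r'' σ) i j =
          (TrivSqZeroExt.inl ((r σ - r'' σ) i j).snd : DualNumber k) *
            TrivSqZeroExt.inr (1 : k) := by
        refine TrivSqZeroExt.ext ?_ ?_
        · rw [TrivSqZeroExt.fst_mul, TrivSqZeroExt.fst_inr, mul_zero]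
          exact hfst
        · rw [TrivSqZeroExt.snd_mul, TrivSqZeroExt.fst_inl, TrivSqZeroExt.snd_inr,
            TrivSqZeroExt.fst_inr, TrivSqZeroExt.snd_inl]
          simp
      rw [heq]
      exact I.mul_mem_left _ hIeps
    simp only [Matrix.mulVec, dotProduct, Fin.sum_univ_two]
    exact I.add_mem (I.mul_mem_right _ (hent i 0)) (I.mul_mem_right _ (hent i 1))

end Flat

section Final

variable {𝒪 : Type} [CommRing 𝒪] [IsLocalRing 𝒪] (p : ℕ) [Fact p.Prime]
  [CharP (ResidueField 𝒪) p] {ρbar : ResidualGaloisRep (ResidueField 𝒪)}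
  (D : RigidDatum 𝒪 ρbar)

theorem wadd_trace_zero (x : (ad0Rep p ρbar).V) :
    (adMat p D ((ad0Incl p ρbar).hom x)).trace = 0 := by
  rw [← trace_adVal, adVal_ad0Incl]
  exact trace_ad0Val p ρbar x

end Final

/-- the matrix form of the sum, in terms of `IsCocOf` data -/
theorem wadd_exists {𝒪 : Type} [CommRing 𝒪] [IsLocalRing 𝒪] (p : ℕ) [Fact p.Prime]
    [CharP (ResidueField 𝒪) p] [Finite (ResidueField 𝒪)]
    {ρbar : ResidualGaloisRep (ResidueField 𝒪)} (D : RigidDatum 𝒪 ρbar)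
    (C C' : GQ → (adRep p ρbar).V)
    (htr : ∀ σ, (adMat p D (C σ)).trace = 0) (htr' : ∀ σ, (adMat p D (C' σ)).trace = 0)
    (ρ ρ' : GaloisRepAdic (DualNumber (ResidueField 𝒪)))
    (hcoc : IsCocOf p D ρ C) (hcoc' : IsCocOf p D ρ' C')
    (hdet : ρ.DetIsCyclotomic p) (hflat : ρ.IsFlatAt p) (hflat' : ρ'.IsFlatAt p) :
    ∃ ρ'' : GaloisRepAdic (DualNumber (ResidueField 𝒪)),
      IsCocOf p D ρ'' (fun σ => C σ + C' σ) ∧ ρ''.DetIsCyclotomic p ∧ ρ''.IsFlatAt p := by
  have hmul := isCocOf_mul p D hcoc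
  have hmul' := isCocOf_mul p D hcoc'
  have hone := isCocOf_one p D hcoc
  have hone' := isCocOf_one p D hcoc'
  have hlev := isCocOf_exists_level p D hcoc
  have hlev' := isCocOf_exists_level p D hcoc'
  obtain ⟨R, hR⟩ : ∃ R : Gal →* M2 (DualNumber (ResidueField 𝒪)),
      ∀ σ, R σ = liftMat p D (fun σ => C σ + C' σ) σ :=
    ⟨waddRep p D C C' hmul hmul' hone hone', fun σ => rfl⟩
  have hr'' := waddRep_matCont p D C C' R hR hlev hlev'
  have hcoc'' : IsCocOf p D (ofMatrix R hr'') (fun σ => C σ + C' σ) :=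
    ⟨R, hr'', ⟨GaloisRepAdic.Equiv.refl _⟩, hR⟩
  refine ⟨ofMatrix R hr'', hcoc'', ?_, ?_⟩
  · refine ⟨hdet.1, fun n σ a ha => ?_⟩
    have h1 := isCocOf_det p D hcoc'' σ
    have h2 : (liftMat p D (fun σ => C σ + C' σ) σ).det =
        TrivSqZeroExt.inl ((D.ρm σ).det) := by
      apply wadd_det
      rw [adMat_add, Matrix.trace_add, htr, htr', add_zero]
    have h3 : LinearMap.det (ρ.ρ σ) = TrivSqZeroExt.inl ((D.ρm σ).det) := by
      rw [isCocOf_det p D hcoc σ]
      exact wadd_det p D C σ (htr σ)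
    rw [h1, h2, ← h3]
    exact hdet.2 n σ a ha
  · obtain ⟨r, hr, hequiv, hrσ⟩ := hcoc
    obtain ⟨r', hr', hequiv', hrσ'⟩ := hcoc'
    have hW : (ofMatrix r hr).IsFlatAt p := tweq_isFlatAt hequiv p hflat
    have hW' : (ofMatrix r' hr').IsFlatAt p := tweq_isFlatAt hequiv' p hflat'
    refine wadd_isFlatAt p r r' R hr hr' hr''
      (fun σ => ?_) (fun σ => ?_) (fun σ => ?_) hW hW'
    · rw [hrσ, hrσ', dnFst_liftMat, dnFst_liftMat]
    · rw [hrσ, hR, dnFst_liftMat, dnFst_liftMat]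
    · rw [hrσ, hrσ', hR, dnSnd_liftMat, dnSnd_liftMat, dnSnd_liftMat, adMat_add,
        add_mul]

/-- **W-add.** -/
theorem stmtAdd : StmtAdd := by
  intro p _ _ 𝒪 _ _ _ _ ρbar D c c' ⟨ρ, hcoc, hdet, hflat⟩ ⟨ρ', hcoc', hdet', hflat'⟩
  obtain ⟨ρ'', h1, h2, h3⟩ := wadd_exists p D _ _ (fun σ => wadd_trace_zero p D _)
    (fun σ => wadd_trace_zero p D _) ρ ρ' hcoc hcoc' hdet hflat hflat'
  refine ⟨ρ'', ?_, h2, h3⟩
  have hfun : (fun σ => (ad0Incl p ρbar).hom (((c + c' : cocycles₁ (ad0Rep p ρbar)) :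
      GQ → (ad0Rep p ρbar).V) σ)) =
      fun σ => (ad0Incl p ρbar).hom ((c : GQ → (ad0Rep p ρbar).V) σ) +
        (ad0Incl p ρbar).hom ((c' : GQ → (ad0Rep p ρbar).V) σ) := by
    funext σ
    rw [← map_add]
    rfl
  rw [hfun]
  exact h1

end Fermat.Agent.TW.W

end


end ZBTW_008_3

/-! ### bundled: `Fermat.Agent.TW.W.Bridge` -/
section ZBTW_008_4

/-!
# TW-W / W-bridge (helper64): a flat deformation satisfies the Galois-theoretic conditions

`stmtBridge_of : StmtLev → StmtEt1 → StmtEt2 → StmtBridge`.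

For a flat deformation `ρ ≅ (1 + εc)ρ̄ =: W` (matrix form, `W.V = k[ε]²`):
* `M := W.V / 0 ≅ V_c` has a Hopf lattice (`sq_lattice_of_model`), `p M = 0`: `StmtLev` gives
  `PLev`, `StmtEt2` (for `X = ε V̄`) gives `PEt2`;
* `W.V / 𝔪 ≅ V̄` has a Hopf lattice: `StmtEt1` gives `PEt1`;
* global inertia at `padicPlace p` is the image of `inertiaQ p` (`TW.L.stmtDecFull`).
-/

set_option autoImplicit false
set_option linter.unusedSectionVars false
set_option linter.style.haveILetI false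

noncomputable section

namespace Fermat.Agent.TW.W

open CategoryTheory groupCohomology IsLocalRing
open Fermat.Agent.PT Fermat.Agent.PT.B Fermat.Agent.TW.L Fermat.Agent.TW.S Fermat.Agent.S53
  Fermat.Agent.W1 ExtCitation

/-- global inertia at `padicPlace p` comes from local inertia -/
theorem wbr_inertia_lift (p : ℕ) [Fact p.Prime] (σ : GQ)
    (hσ : σ ∈ (padicPlace p).inertiaSubgroupIn ℚ) :
    ∃ τ ∈ inertiaQ p, localGaloisToGlobal p τ = σ := by
  have hdec : σ ∈ (padicPlace p).decompositionSubgroup ℚ := by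
    obtain ⟨x, -, rfl⟩ := Subgroup.mem_map.1 hσ
    exact x.2
  obtain ⟨τ, hτ⟩ := stmtDecFull p σ hdec
  refine ⟨τ, ?_, hτ⟩
  rw [mem_inertiaQ, hτ]
  exact hσ

section Dict

variable {𝒪 : Type} [CommRing 𝒪] [IsLocalRing 𝒪] (p : ℕ) [Fact p.Prime]
  [CharP (ResidueField 𝒪) p] {ρbar : ResidualGaloisRep (ResidueField 𝒪)}
  (D : RigidDatum 𝒪 ρbar)

/-- the vector `v + εw` of `k[ε]²` in the basis `D.b` -/
def wbrPsi (v w : ρbar.V) : Fin 2 → DualNumber (ResidueField 𝒪) :=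
  waddEmb (D.b.equivFun v) (D.b.equivFun w)

theorem wbrPsi_add (v w v' w' : ρbar.V) :
    wbrPsi D (v + v') (w + w') = wbrPsi D v w + wbrPsi D v' w' := by
  unfold wbrPsi
  rw [map_add, map_add, waddEmb_add]

theorem wbrPsi_zero : wbrPsi D (0 : ρbar.V) 0 = 0 := by
  unfold wbrPsi
  rw [map_zero, waddEmb_zero]

theorem wbrPsi_sub (v w v' w' : ρbar.V) :
    wbrPsi D (v - v') (w - w') = wbrPsi D v w - wbrPsi D v' w' := by
  have := wbrPsi_add D (v - v') (w - w') v' w'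
  rw [sub_add_cancel, sub_add_cancel] at this
  rw [this, add_sub_cancel_right]

theorem wbrPsi_injective {v w v' w' : ρbar.V} (h : wbrPsi D v w = wbrPsi D v' w') :
    v = v' ∧ w = w' := by
  obtain ⟨h1, h2⟩ := waddEmb_injective h
  exact ⟨D.b.equivFun.injective h1, D.b.equivFun.injective h2⟩

/-- the action of `(1 + εc)ρ̄` in coordinates -/
theorem wbr_mulVec (C : GQ → (adRep p ρbar).V) (σ : GQ) (v w : ρbar.V) :
    (liftMat p D C σ).mulVec (wbrPsi D v w) =
      wbrPsi D (ρbar.ρ σ v) (ρbar.ρ σ w + adVal p ρbar (C σ) (ρbar.ρ σ v)) := by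
  unfold wbrPsi
  rw [wadd_mulVec, dnFst_liftMat, dnSnd_liftMat]
  have h1 : ∀ x : ρbar.V, (D.ρm σ).mulVec (D.b.equivFun x) = D.b.equivFun (ρbar.ρ σ x) := by
    intro x
    rw [D.ρm_eq σ]
    exact LinearMap.toMatrix_mulVec_repr D.b D.b (ρbar.ρ σ) x
  have h2 : ∀ x : ρbar.V, (adMat p D (C σ)).mulVec (D.b.equivFun x) =
      D.b.equivFun (adVal p ρbar (C σ) x) := by
    intro x
    unfold adMat
    exact LinearMap.toMatrix_mulVec_repr D.b D.b (adVal p ρbar (C σ)) x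
  rw [h1, h1, ← Matrix.mulVec_mulVec, h1, h2, map_add]

theorem wbr_natCast_p : ((p : ℕ) : DualNumber (ResidueField 𝒪)) = 0 := by
  refine TrivSqZeroExt.ext ?_ ?_
  · rw [TrivSqZeroExt.fst_natCast, CharP.cast_eq_zero, TrivSqZeroExt.fst_zero]
  · rw [TrivSqZeroExt.snd_natCast, TrivSqZeroExt.snd_zero]

theorem wbr_nsmul_eq_zero {M : Type} [AddCommGroup M] [Module (DualNumber (ResidueField 𝒪)) M]
    (m : M) : p • m = 0 := by
  rw [← Nat.cast_smul_eq_nsmul (DualNumber (ResidueField 𝒪)) p m, wbr_natCast_p, zero_smul]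

theorem wbr_finite_quot [Finite (ResidueField 𝒪)]
    (W : GaloisRepAdic (DualNumber (ResidueField 𝒪)))
    (hV : W.V = (Fin 2 → DualNumber (ResidueField 𝒪)))
    (J : Ideal (DualNumber (ResidueField 𝒪))) :
    Finite (W.V ⧸ (J • (⊤ : Submodule (DualNumber (ResidueField 𝒪)) W.V))) := by
  haveI : Finite (DualNumber (ResidueField 𝒪)) := wadd_finite_dualNumber
  haveI : Finite W.V := by
    rw [hV]
    infer_instance
  exact Finite.of_surjective _ (Submodule.Quotient.mk_surjective _)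

theorem wbr_finite_ringQuot [Finite (ResidueField 𝒪)]
    (J : Ideal (DualNumber (ResidueField 𝒪))) :
    Finite (DualNumber (ResidueField 𝒪) ⧸ J) := by
  haveI : Finite (DualNumber (ResidueField 𝒪)) := wadd_finite_dualNumber
  exact Finite.of_surjective _ Ideal.Quotient.mk_surjective

/-- **level** -/
theorem wbr_level (C : GQ → (adRep p ρbar).V)
    (ρ : GaloisRepAdic (DualNumber (ResidueField 𝒪))) (hcoc : IsCocOf p D ρ C) :
    IsLevel₁ (towerLoc p) (locFun p C) := by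
  obtain ⟨-, F, hF, hF1⟩ := stmtCoc 𝒪 p ρbar D ρ C hcoc
  refine ⟨F.fixingSubgroup.comap (localGaloisToGlobal p), ⟨F, hF, rfl⟩, fun g s hs => ?_⟩
  unfold locFun
  rw [map_mul]
  exact hF1 _ _ hs

/-- **(LEV)** -/
theorem wbr_plev (hLev : StmtLev) (hp2 : p ≠ 2) [Finite (ResidueField 𝒪)]
    (C : GQ → (adRep p ρbar).V)
    (r : Gal →* M2 (DualNumber (ResidueField 𝒪)))
    (hr : MatCont (DualNumber (ResidueField 𝒪)) r)
    (hrσ : ∀ σ, r σ = liftMat p D C σ) (hW : (ofMatrix r hr).IsFlatAt p) :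
    PLev p ρbar (fun τ => adVal p ρbar (C (localGaloisToGlobal p τ))) := by
  intro T hT χ hχ hvan τ hτ
  haveI := wbr_finite_quot (ofMatrix r hr) rfl ⊥
  have hM := ((sq_isFlatAt_iff _ p).1 hW).2 ⊥ (wbr_finite_ringQuot ⊥)
  obtain ⟨H, hH⟩ := sq_lattice_of_model hM
  have hcocW : IsCocOf p D (ofMatrix r hr) C := ⟨r, hr, ⟨GaloisRepAdic.Equiv.refl _⟩, hrσ⟩
  refine hLev p hp2 _ _ H hH (fun m => wbr_nsmul_eq_zero (𝒪 := 𝒪) p m) T hT χ hχ ?_ τ hτ
  intro σ hσ hact
  have h1 : (ofMatrix r hr).ρ (localGaloisToGlobal p σ) = 1 := by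
    apply LinearMap.ext
    intro x
    have h2 := hact (Submodule.Quotient.mk x)
    have h3 : (Submodule.Quotient.mk ((ofMatrix r hr).ρ (localGaloisToGlobal p σ) x) :
        (ofMatrix r hr).V ⧸ ((⊥ : Ideal (DualNumber (ResidueField 𝒪))) •
          (⊤ : Submodule (DualNumber (ResidueField 𝒪)) (ofMatrix r hr).V))) =
        Submodule.Quotient.mk x := h2
    rw [Submodule.Quotient.eq, Submodule.bot_smul, Submodule.mem_bot, sub_eq_zero] at h3
    rw [h3, Module.End.one_apply]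
  obtain ⟨h4, h5⟩ := stmtUnr 𝒪 p ρbar D (ofMatrix r hr) C hcocW _ h1
  refine hvan σ hσ h4 ?_
  show adVal p ρbar (C (localGaloisToGlobal p σ)) = 0
  rw [h5, map_zero]

/-- the ideal `(ε)` -/
def wbrEps : Ideal (DualNumber (ResidueField 𝒪)) :=
  Ideal.span {(TrivSqZeroExt.inr (1 : ResidueField 𝒪) : DualNumber (ResidueField 𝒪))}

theorem wbr_fst_of_mem_eps {a : DualNumber (ResidueField 𝒪)} (ha : a ∈ wbrEps (𝒪 := 𝒪)) :
    a.fst = 0 := by
  obtain ⟨b, rfl⟩ := Ideal.mem_span_singleton'.1 ha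
  rw [TrivSqZeroExt.fst_mul, TrivSqZeroExt.fst_inr, mul_zero]

theorem wbr_inr_mem_eps (b : ResidueField 𝒪) :
    (TrivSqZeroExt.inr b : DualNumber (ResidueField 𝒪)) ∈ wbrEps (𝒪 := 𝒪) := by
  have h : (TrivSqZeroExt.inr b : DualNumber (ResidueField 𝒪)) =
      TrivSqZeroExt.inl b * TrivSqZeroExt.inr (1 : ResidueField 𝒪) := by
    refine TrivSqZeroExt.ext ?_ ?_
    · simp
    · simp
  rw [h]
  exact Ideal.mul_mem_left _ _ (Ideal.subset_span rfl)

theorem wbr_fst_of_mem_smul_top {y : Fin 2 → DualNumber (ResidueField 𝒪)}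
    (hy : y ∈ wbrEps (𝒪 := 𝒪) •
      (⊤ : Submodule (DualNumber (ResidueField 𝒪)) (Fin 2 → DualNumber (ResidueField 𝒪))))
    (i : Fin 2) : (y i).fst = 0 := by
  refine Submodule.smul_induction_on (p := fun y => (y i).fst = 0) hy ?_ ?_
  · intro a ha x _
    show (a * x i).fst = 0
    rw [TrivSqZeroExt.fst_mul, wbr_fst_of_mem_eps ha, zero_mul]
  · intro x y hx hy
    show (x i + y i).fst = 0
    rw [TrivSqZeroExt.fst_add, hx, hy, add_zero]

theorem wbrPsi_zero_left_mem (w : ρbar.V) :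
    wbrPsi D 0 w ∈ wbrEps (𝒪 := 𝒪) •
      (⊤ : Submodule (DualNumber (ResidueField 𝒪)) (Fin 2 → DualNumber (ResidueField 𝒪))) := by
  apply wadd_mem_smul_top
  intro i
  have h : wbrPsi D 0 w i = TrivSqZeroExt.inr (D.b.equivFun w i) := by
    unfold wbrPsi waddEmb
    rw [map_zero]
    simp
  rw [h]
  exact wbr_inr_mem_eps _

/-- **(E1)** -/
theorem wbr_pet1 (hEt1 : StmtEt1) (hp2 : p ≠ 2) [Finite (ResidueField 𝒪)]
    (C : GQ → (adRep p ρbar).V)
    (r : Gal →* M2 (DualNumber (ResidueField 𝒪)))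
    (hr : MatCont (DualNumber (ResidueField 𝒪)) r)
    (hrσ : ∀ σ, r σ = liftMat p D C σ) (hW : (ofMatrix r hr).IsFlatAt p) :
    PEt1 p ρbar := by
  intro v hv hfix
  haveI := wbr_finite_quot (ofMatrix r hr) rfl (wbrEps (𝒪 := 𝒪))
  have hM := ((sq_isFlatAt_iff _ p).1 hW).2 (wbrEps (𝒪 := 𝒪)) (wbr_finite_ringQuot _)
  obtain ⟨H, hH⟩ := sq_lattice_of_model hM
  -- the map `φ`
  let φ : ρbar.V →+ ((ofMatrix r hr).V ⧸ (wbrEps (𝒪 := 𝒪) •
      (⊤ : Submodule (DualNumber (ResidueField 𝒪)) (ofMatrix r hr).V))) :=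
    { toFun := fun v => Submodule.Quotient.mk (wbrPsi D v 0)
      map_zero' := by
        rw [wbrPsi_zero]
        rfl
      map_add' := by
        intro x y
        have := wbrPsi_add D x 0 y 0
        rw [add_zero] at this
        rw [this]
        rfl }
  have hφ : ∀ x, φ x = Submodule.Quotient.mk (wbrPsi D x 0) := fun x => rfl
  have hequiv : ∀ (σ : GQ) (x : ρbar.V),
      (ofMatrix r hr).levelAction (wbrEps (𝒪 := 𝒪)) σ (φ x) = φ (ρbar.ρ σ x) := by
    intro σ x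
    show Submodule.Quotient.mk ((r σ).mulVec (wbrPsi D x 0)) =
      Submodule.Quotient.mk (wbrPsi D (ρbar.ρ σ x) 0)
    rw [hrσ, wbr_mulVec, map_zero, zero_add, Submodule.Quotient.eq, ← wbrPsi_sub, sub_self,
      sub_zero]
    exact wbrPsi_zero_left_mem D _
  have h0 : φ v = 0 := by
    refine hEt1 p hp2 _ _ H hH (fun m => wbr_nsmul_eq_zero (𝒪 := 𝒪) p m) (φ v) ?_ ?_
    · -- `φ v ∈ I_aug M`
      have hle : iAugBar p ρbar ≤ (iAug p
          (fun σ => ⇑((ofMatrix r hr).levelAction (wbrEps (𝒪 := 𝒪)) σ))).comap φ := by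
        unfold iAugBar
        rw [AddSubgroup.closure_le]
        rintro x ⟨σ, hσ, w, rfl⟩
        show φ (rhoLoc p ρbar σ w - w) ∈ iAug p _
        rw [map_sub]
        unfold rhoLoc
        rw [← hequiv]
        exact AddSubgroup.subset_closure ⟨localGaloisToGlobal p σ, hσ, φ w, rfl⟩
      exact hle hv
    · intro σ hσ
      obtain ⟨τ, hτ, rfl⟩ := wbr_inertia_lift p σ hσ
      show (ofMatrix r hr).levelAction (wbrEps (𝒪 := 𝒪)) (localGaloisToGlobal p τ) (φ v) = φ v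
      rw [hequiv]
      exact congrArg φ (hfix τ hτ)
  rw [hφ, Submodule.Quotient.mk_eq_zero] at h0
  have h1 : D.b.equivFun v = 0 := by
    funext i
    have := wbr_fst_of_mem_smul_top h0 i
    unfold wbrPsi at this
    rw [waddEmb_fst] at this
    exact this
  exact D.b.equivFun.injective (by rw [h1, map_zero])

/-- **(E2)** -/
theorem wbr_pet2 (hEt2 : StmtEt2) (hp2 : p ≠ 2) [Finite (ResidueField 𝒪)]
    (C : GQ → (adRep p ρbar).V)
    (r : Gal →* M2 (DualNumber (ResidueField 𝒪)))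
    (hr : MatCont (DualNumber (ResidueField 𝒪)) r)
    (hrσ : ∀ σ, r σ = liftMat p D C σ) (hW : (ofMatrix r hr).IsFlatAt p) :
    PEt2 p ρbar (fun τ => adVal p ρbar (C (localGaloisToGlobal p τ))) := by
  intro w hw
  haveI := wbr_finite_quot (ofMatrix r hr) rfl ⊥
  have hM := ((sq_isFlatAt_iff _ p).1 hW).2 ⊥ (wbr_finite_ringQuot ⊥)
  obtain ⟨H, hH⟩ := sq_lattice_of_model hM
  -- the dictionary `Ψ : V̄ × V̄ → M`
  let Ψ : (ρbar.V × ρbar.V) →+ ((ofMatrix r hr).V ⧸
      ((⊥ : Ideal (DualNumber (ResidueField 𝒪))) •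
        (⊤ : Submodule (DualNumber (ResidueField 𝒪)) (ofMatrix r hr).V))) :=
    { toFun := fun x => Submodule.Quotient.mk (wbrPsi D x.1 x.2)
      map_zero' := by
        rw [Prod.fst_zero, Prod.snd_zero, wbrPsi_zero]
        rfl
      map_add' := by
        intro x y
        rw [Prod.fst_add, Prod.snd_add, wbrPsi_add]
        rfl }
  have hΨ : ∀ x, Ψ x = Submodule.Quotient.mk (wbrPsi D x.1 x.2) := fun x => rfl
  have hΨinj : Function.Injective Ψ := by
    intro x y hxy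
    rw [hΨ, hΨ, Submodule.Quotient.eq, Submodule.bot_smul, Submodule.mem_bot, sub_eq_zero]
      at hxy
    obtain ⟨h1, h2⟩ := wbrPsi_injective D hxy
    exact Prod.ext h1 h2
  have hequiv : ∀ (σ : GQ) (x : ρbar.V × ρbar.V),
      (ofMatrix r hr).levelAction ⊥ σ (Ψ x) =
        Ψ (ρbar.ρ σ x.1, ρbar.ρ σ x.2 + adVal p ρbar (C σ) (ρbar.ρ σ x.1)) := by
    intro σ x
    show Submodule.Quotient.mk ((r σ).mulVec (wbrPsi D x.1 x.2)) =
      Submodule.Quotient.mk (wbrPsi D _ _)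
    rw [hrσ, wbr_mulVec]
  -- the subgroup `X = ε V̄`
  let ψ₀ : ρbar.V →+ ((ofMatrix r hr).V ⧸
      ((⊥ : Ideal (DualNumber (ResidueField 𝒪))) •
        (⊤ : Submodule (DualNumber (ResidueField 𝒪)) (ofMatrix r hr).V))) :=
    Ψ.comp (AddMonoidHom.inr ρbar.V ρbar.V)
  have hψ₀ : ∀ u, ψ₀ u = Ψ (0, u) := fun u => rfl
  have hequiv₀ : ∀ (σ : GQ) (u : ρbar.V),
      (ofMatrix r hr).levelAction ⊥ σ (ψ₀ u) = ψ₀ (ρbar.ρ σ u) := by
    intro σ u
    rw [hψ₀, hequiv, hψ₀]
    simp only [map_zero, add_zero]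
  have hstab : ∀ σ : GQ, ∀ x ∈ ψ₀.range,
      (fun σ => ⇑((ofMatrix r hr).levelAction ⊥ σ)) σ x ∈ ψ₀.range := by
    rintro σ _ ⟨u, rfl⟩
    exact ⟨ρbar.ρ σ u, (hequiv₀ σ u).symm⟩
  have hmem : Ψ (0, w) ∈ iAug p (fun σ => ⇑((ofMatrix r hr).levelAction ⊥ σ)) := by
    have hle : iAugVc p ρbar (fun τ => adVal p ρbar (C (localGaloisToGlobal p τ))) ≤
        (iAug p (fun σ => ⇑((ofMatrix r hr).levelAction ⊥ σ))).comap Ψ := by
      unfold iAugVc
      rw [AddSubgroup.closure_le]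
      rintro x ⟨σ, hσ, y, rfl⟩
      show Ψ (vcAct p ρbar _ σ y - y) ∈ iAug p _
      rw [map_sub]
      have h1 : Ψ (vcAct p ρbar (fun τ => adVal p ρbar (C (localGaloisToGlobal p τ))) σ y) =
          (ofMatrix r hr).levelAction ⊥ (localGaloisToGlobal p σ) (Ψ y) := by
        rw [hequiv]
        rfl
      rw [h1]
      exact AddSubgroup.subset_closure ⟨localGaloisToGlobal p σ, hσ, Ψ y, rfl⟩
    exact hle hw
  have h2 := hEt2 p hp2 _ _ H hH (fun m => wbr_nsmul_eq_zero (𝒪 := 𝒪) p m) ψ₀.range hstab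
    (Ψ (0, w)) ⟨w, rfl⟩ hmem
  have hle2 : AddSubgroup.closure {y | ∃ σ ∈ (padicPlace p).inertiaSubgroupIn ℚ,
      ∃ m ∈ ψ₀.range, y = (fun σ => ⇑((ofMatrix r hr).levelAction ⊥ σ)) σ m - m} ≤
      (iAugBar p ρbar).map ψ₀ := by
    rw [AddSubgroup.closure_le]
    rintro y ⟨σ, hσ, _, ⟨u, rfl⟩, rfl⟩
    obtain ⟨τ, hτ, rfl⟩ := wbr_inertia_lift p σ hσ
    refine ⟨rhoLoc p ρbar τ u - u, AddSubgroup.subset_closure ⟨τ, hτ, u, rfl⟩, ?_⟩
    rw [map_sub]
    show ψ₀ (ρbar.ρ (localGaloisToGlobal p τ) u) - ψ₀ u = _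
    rw [← hequiv₀]
  obtain ⟨w', hw', hww'⟩ := hle2 h2
  have h3 : ((0, w') : ρbar.V × ρbar.V) = (0, w) := hΨinj hww'
  have h4 : w' = w := congrArg Prod.snd h3
  rw [← h4]
  exact hw'

/-- **W-bridge**, with the general cocycle `C`. -/
theorem wbr_bridge (hLev : StmtLev) (hEt1 : StmtEt1) (hEt2 : StmtEt2) (hp2 : p ≠ 2)
    [Finite (ResidueField 𝒪)] (C : GQ → (adRep p ρbar).V)
    (ρ : GaloisRepAdic (DualNumber (ResidueField 𝒪))) (hcoc : IsCocOf p D ρ C)
    (hflat : ρ.IsFlatAt p) :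
    IsLevel₁ (towerLoc p) (locFun p C) ∧
    PLev p ρbar (fun τ => adVal p ρbar (C (localGaloisToGlobal p τ))) ∧
    PEt1 p ρbar ∧
    PEt2 p ρbar (fun τ => adVal p ρbar (C (localGaloisToGlobal p τ))) := by
  have h1 := wbr_level p D C ρ hcoc
  obtain ⟨r, hr, hequiv, hrσ⟩ := hcoc
  have hW : (ofMatrix r hr).IsFlatAt p := tweq_isFlatAt hequiv p hflat
  exact ⟨h1, wbr_plev p D hLev hp2 C r hr hrσ hW, wbr_pet1 p D hEt1 hp2 C r hr hrσ hW,
    wbr_pet2 p D hEt2 hp2 C r hr hrσ hW⟩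

end Dict

/-- **W-bridge.** -/
theorem stmtBridge_of (hLev : StmtLev) (hEt1 : StmtEt1) (hEt2 : StmtEt2) : StmtBridge := by
  intro p _ hp2 𝒪 _ _ _ _ ρbar D c ⟨ρ, hcoc, _, hflat⟩
  obtain ⟨h1, h2, h3, h4⟩ := wbr_bridge p D hLev hEt1 hEt2 hp2 _ ρ hcoc hflat
  refine ⟨?_, h2, h3, h4⟩
  obtain ⟨U, hU, hU1⟩ := h1
  refine ⟨U, hU, fun g s hs => ?_⟩
  have h5 := hU1 g s hs
  have h6 := congrArg (adVal p ρbar) h5
  exact ad0Val_injective p ρbar h6

end Fermat.Agent.TW.W

end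


end ZBTW_008_4
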