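/- GENERATED FILE (helper35, build-time optimisation, NOTES/ZB.md): verbatim concatenation of the modules
   Fermat.Agent.EC.TateRes
   Fermat.Agent.RT.Prod.HypDict
   Fermat.Agent.EC.TateResOdd
   Fermat.Agent.EC.Big.Final
   Fermat.Agent.RT.Prod.HypWire
   Do not edit; do not import together with these modules. -/
import Mathlib
import Fermat.Prelude.Def_GaloisRep_Adic
import Fermat.Prelude.Def_FLTPrelim_ModularRep
import Fermat.Agent.ZB.EC_007
import Fermat.Agent.ZB.EC_004
import Fermat.Agent.ZB.RED_001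
import Fermat.Agent.ZB.HW_007
import Fermat.Agent.ZB.EC_009
import Fermat.Agent.ZB.RED_002
import Fermat.Agent.ZB.TW_007
import Fermat.Agent.ZB.TW_008

/-! ### bundled: `Fermat.Agent.EC.TateRes` -/
section ZBEC_008_0

/-!
# The residual representation of the Tate module is `E[p]` (EC package, residual dictionary)

For `W : WeierstrassCurve ℚ` with `Δ ≠ 0` and a prime `p`, `ρ = tateRep W hΔ p` acts on
`V = (ℤ_p)²`, and `ρ.residual` acts on `k ⊗ V` (`k` the residue field of `ℤ_p`).  On the other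
hand `E[p](ℚ̄)` is a `ZMod p`-module with Galois action (`galoisRepModuleEnd`).  This file
compares the two:

* `tateResBasis` : the `ZMod p`-basis of `E[p]` given by the level-one points of the Tate system;
* `tateRes_toMatrix` : the matrix of `σ` on `E[p]` in this basis is the reduction mod `p` of the
  matrix of `ρ σ`;
* `tateRes_charpoly` : `charpoly (σ | E[p]) = (charpoly (ρ σ)).map toZMod`;
* `tateRes_residual_charpoly` : the same for `ρ.residual`, through `PadicInt.residueField`;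
* `tateRes_isIrreducible` : `E[p]` irreducible ⇒ `ρ.residual.IsIrreducible`;
* `tateRes_isOdd_of_det` : oddness of `ρ.residual` from `det (c | E[p]) = -1`.
-/

set_option autoImplicit false

namespace Fermat.Agent.EC

open WeierstrassCurve WeierstrassCurve.Affine WeierstrassCurve.Affine.Point Polynomial
open scoped TensorProduct

/-- `ℚ̄` -/
local notation "Qbar" => AlgebraicClosure ℚ
/-- `G_ℚ` -/
local notation "GQ" => (AlgebraicClosure ℚ ≃ₐ[ℚ] AlgebraicClosure ℚ)

namespace TateSys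

variable {M : Type*} [AddCommGroup M] {ℓ : ℕ} [hℓ : Fact ℓ.Prime] {r : ℕ} (S : TateSys M ℓ r)

omit [AddCommGroup M] in
/-- the level-one representative reduces to `toZMod` -/
lemma cast_rep_one (a : ℤ_[ℓ]) : ((rep 1 a : ℤ) : ZMod ℓ) = PadicInt.toZMod a := by
  have h1 : PadicInt.toZModPow 1 (a - ((rep 1 a : ℤ) : ℤ_[ℓ])) = 0 := by
    rw [map_sub, map_intCast, cast_rep, sub_self]
  have h2 : a - ((rep 1 a : ℤ) : ℤ_[ℓ]) ∈ RingHom.ker (PadicInt.toZModPow (p := ℓ) 1) := h1
  rw [PadicInt.ker_toZModPow, pow_one, ← PadicInt.maximalIdeal_eq_span_p,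
    ← PadicInt.ker_toZMod] at h2
  have h3 : PadicInt.toZMod (a - ((rep 1 a : ℤ) : ℤ_[ℓ])) = 0 := h2
  rw [map_sub, map_intCast, sub_eq_zero] at h3
  exact h3.symm

/-- the level map at a standard basis vector -/
lemma lev_single [DecidableEq (Fin r)] (n : ℕ) (j : Fin r) :
    S.lev n (Pi.single j (1 : ℤ_[ℓ])) = S.P n j := by
  have h := S.lev_intCast n (fun i => if i = j then (1 : ℤ) else 0)
  have h1 : (fun i => (((if i = j then (1 : ℤ) else 0 : ℤ)) : ℤ_[ℓ]))
      = Pi.single j (1 : ℤ_[ℓ]) := by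
    funext i
    by_cases hij : i = j
    · subst hij; simp
    · simp [hij]
  rw [h1] at h
  rw [h]
  simp

/-- the action of an endomorphism on the level-`n` basis, in terms of the matrix of its action
on the Tate module -/
lemma apply_P [DecidableEq (Fin r)] (g : AddMonoid.End M) (n : ℕ) (j : Fin r) :
    g (S.P n j) = ∑ i, rep n (S.tateEnd g (Pi.single j 1) i) • S.P n i := by
  rw [← S.lev_single n j, ← S.lev_tateEnd]
  exact S.lev_eq n _ _ fun i => isRep_rep n _

end TateSys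


section Conc

variable (W : WeierstrassCurve ℚ) (hΔ : W.Δ ≠ 0) (p : ℕ) [hp : Fact p.Prime]

/-- the level-one points of the Tate system, in `E[p]` -/
noncomputable def tateResPt (i : Fin 2) : Submodule.torsionBy ℤ (W⁄Qbar).Point (p : ℤ) :=
  ⟨(tateSys W p hΔ).P 1 i, by
    rw [Submodule.mem_torsionBy_iff, natCast_zsmul]
    have := (tateSys W p hΔ).pow_smul_P 1 i
    rwa [pow_one] at this⟩

lemma coe_tateResPt (i : Fin 2) :
    ((tateResPt W hΔ p i : Submodule.torsionBy ℤ (W⁄Qbar).Point (p : ℤ)) : (W⁄Qbar).Point)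
      = (tateSys W p hΔ).P 1 i := rfl

/-- scalar multiplication by `ZMod p` on `E[p]` through integer representatives -/
lemma tateRes_zmod_smul (c : ZMod p) (a : ℤ) (ha : ((a : ℤ) : ZMod p) = c)
    (x : Submodule.torsionBy ℤ (W⁄Qbar).Point (p : ℤ)) : c • x = a • x := by
  rw [← ha, Int.cast_smul_eq_zsmul]

lemma tateRes_sum_coe (a : Fin 2 → ℤ) :
    ((∑ i, a i • tateResPt W hΔ p i : Submodule.torsionBy ℤ (W⁄Qbar).Point (p : ℤ)) :
      (W⁄Qbar).Point) = ∑ i, a i • (tateSys W p hΔ).P 1 i := by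
  rw [Fin.sum_univ_two, Fin.sum_univ_two]
  rfl

lemma tateRes_linearIndependent :
    LinearIndependent (ZMod p) (tateResPt W hΔ p) := by
  rw [Fintype.linearIndependent_iff]
  intro g hg i
  have h1 : ∑ i, ((g i).cast : ℤ) • tateResPt W hΔ p i = 0 := by
    rw [← hg]
    refine Finset.sum_congr rfl fun j _ => ?_
    exact (tateRes_zmod_smul W p (g j) _ (ZMod.intCast_zmod_cast _) _).symm
  have h2 := congrArg (Subtype.val) h1
  rw [tateRes_sum_coe] at h2
  have h3 := (tateSys W p hΔ).indep 1 _ h2 i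
  rw [pow_one] at h3
  rw [← ZMod.intCast_zmod_cast (g i)]
  exact (ZMod.intCast_zmod_eq_zero_iff_dvd _ p).2 h3

lemma tateRes_span :
    ⊤ ≤ Submodule.span (ZMod p) (Set.range (tateResPt W hΔ p)) := by
  rintro ⟨R, hR⟩ -
  rw [Submodule.mem_torsionBy_iff, natCast_zsmul] at hR
  obtain ⟨a, ha⟩ := (tateSys W p hΔ).span 1 R (by rwa [pow_one])
  have h1 : (⟨R, by rw [Submodule.mem_torsionBy_iff, natCast_zsmul]; exact hR⟩ :
      Submodule.torsionBy ℤ (W⁄Qbar).Point (p : ℤ))
      = ∑ i, ((a i : ℤ) : ZMod p) • tateResPt W hΔ p i := by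
    apply Subtype.ext
    have h2 : (∑ i, ((a i : ℤ) : ZMod p) • tateResPt W hΔ p i)
        = ∑ i, a i • tateResPt W hΔ p i :=
      Finset.sum_congr rfl fun j _ => tateRes_zmod_smul W p _ _ rfl _
    rw [h2, tateRes_sum_coe]
    exact ha
  rw [h1]
  exact Submodule.sum_mem _ fun i _ =>
    Submodule.smul_mem _ _ (Submodule.subset_span ⟨i, rfl⟩)

/-- The `ZMod p`-basis of `E[p](ℚ̄)` given by the level-one points of the Tate system. -/
noncomputable def tateResBasis :
    Module.Basis (Fin 2) (ZMod p) (Submodule.torsionBy ℤ (W⁄Qbar).Point (p : ℤ)) :=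
  Module.Basis.mk (tateRes_linearIndependent W hΔ p) (tateRes_span W hΔ p)

lemma tateResBasis_apply (i : Fin 2) : tateResBasis W hΔ p i = tateResPt W hΔ p i := by
  unfold tateResBasis
  rw [Module.Basis.mk_apply]


/-- the matrix of `ρ σ` on the Tate module in the standard basis -/
noncomputable def tateResMat (σ : GQ) : Matrix (Fin 2) (Fin 2) ℤ_[p] :=
  LinearMap.toMatrix (Pi.basisFun ℤ_[p] (Fin 2)) (Pi.basisFun ℤ_[p] (Fin 2)) (tateRho W hΔ p σ)

lemma tateResMat_apply (σ : GQ) (i j : Fin 2) :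
    tateResMat W hΔ p σ i j = tateRho W hΔ p σ (Pi.single j 1) i := by
  unfold tateResMat
  rw [LinearMap.toMatrix_apply, Pi.basisFun_apply, Pi.basisFun_repr]

lemma tateResMat_charpoly (σ : GQ) :
    (tateResMat W hΔ p σ).charpoly = LinearMap.charpoly (tateRho W hΔ p σ) :=
  LinearMap.charpoly_toMatrix _ _

/-- the Galois action on the basis of `E[p]` -/
theorem tateRes_smul_basis (σ : GQ) (j : Fin 2) :
    σ • tateResBasis W hΔ p j
      = ∑ i, PadicInt.toZMod (tateResMat W hΔ p σ i j) • tateResBasis W hΔ p i := by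
  have h2 : (∑ i, PadicInt.toZMod (tateResMat W hΔ p σ i j) • tateResBasis W hΔ p i)
      = ∑ i, (TateSys.rep 1 (tateResMat W hΔ p σ i j)) • tateResPt W hΔ p i :=
    Finset.sum_congr rfl fun i _ => by
      rw [tateResBasis_apply]
      exact tateRes_zmod_smul W p _ _ (TateSys.cast_rep_one _) _
  rw [h2, tateResBasis_apply]
  apply Subtype.ext
  rw [tateRes_sum_coe]
  have h3 := (tateSys W p hΔ).apply_P (tateGal W σ) 1 j
  rw [tateGal_apply] at h3
  refine h3.trans (Finset.sum_congr rfl fun i _ => ?_)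
  rw [tateResMat_apply]
  rfl

/-- The matrix of `σ` on `E[p]` is the reduction mod `p` of the matrix of `ρ σ`. -/
theorem tateRes_toMatrix (σ : GQ) :
    LinearMap.toMatrix (tateResBasis W hΔ p) (tateResBasis W hΔ p)
        (galoisRepModuleEnd (S := ℚ) (K := Qbar) W p σ)
      = (tateResMat W hΔ p σ).map PadicInt.toZMod := by
  ext i j
  rw [LinearMap.toMatrix_apply, galoisRepModuleEnd_apply, tateRes_smul_basis,
    Module.Basis.repr_sum_self, Matrix.map_apply]

include hΔ in
lemma tateRes_finite : Module.Finite (ZMod p) (Submodule.torsionBy ℤ (W⁄Qbar).Point (p : ℤ)) :=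
  Module.Finite.of_basis (tateResBasis W hΔ p)

include hΔ in
lemma tateRes_free : Module.Free (ZMod p) (Submodule.torsionBy ℤ (W⁄Qbar).Point (p : ℤ)) :=
  Module.Free.of_basis (tateResBasis W hΔ p)

include hΔ in
lemma tateRes_finrank :
    Module.finrank (ZMod p) (Submodule.torsionBy ℤ (W⁄Qbar).Point (p : ℤ)) = 2 := by
  rw [Module.finrank_eq_card_basis (tateResBasis W hΔ p), Fintype.card_fin]

include hΔ in
lemma tateRes_card : Nat.card (Submodule.torsionBy ℤ (W⁄Qbar).Point (p : ℤ)) = p ^ 2 := by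
  have := tateRes_finite W hΔ p
  rw [Module.natCard_eq_pow_finrank (K := ZMod p), tateRes_finrank W hΔ p, Nat.card_zmod]

/-- **Residual dictionary, characteristic polynomials**: the characteristic polynomial of `σ`
on `E[p](ℚ̄)` is the reduction of the one on the Tate module. -/
theorem tateRes_charpoly [Module.Free (ZMod p) (Submodule.torsionBy ℤ (W⁄Qbar).Point (p : ℤ))]
    [Module.Finite (ZMod p) (Submodule.torsionBy ℤ (W⁄Qbar).Point (p : ℤ))] (σ : GQ) :
    LinearMap.charpoly (galoisRepModuleEnd (S := ℚ) (K := Qbar) W p σ)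
      = (LinearMap.charpoly (tateRho W hΔ p σ)).map PadicInt.toZMod := by
  rw [← LinearMap.charpoly_toMatrix _ (tateResBasis W hΔ p), tateRes_toMatrix,
    Matrix.charpoly_map, tateResMat_charpoly]

/-- determinants -/
theorem tateRes_det (σ : GQ) :
    LinearMap.det (galoisRepModuleEnd (S := ℚ) (K := Qbar) W p σ)
      = PadicInt.toZMod (LinearMap.det (tateRho W hΔ p σ)) := by
  rw [← LinearMap.det_toMatrix (tateResBasis W hΔ p), tateRes_toMatrix,
    ← LinearMap.det_toMatrix (Pi.basisFun ℤ_[p] (Fin 2))]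
  exact (RingHom.map_det _ _).symm

/-- traces -/
theorem tateRes_trace (σ : GQ) :
    LinearMap.trace (ZMod p) _ (galoisRepModuleEnd (S := ℚ) (K := Qbar) W p σ)
      = PadicInt.toZMod (LinearMap.trace ℤ_[p] _ (tateRho W hΔ p σ)) := by
  rw [LinearMap.trace_eq_matrix_trace (ZMod p) (tateResBasis W hΔ p), tateRes_toMatrix,
    LinearMap.trace_eq_matrix_trace ℤ_[p] (Pi.basisFun ℤ_[p] (Fin 2))]
  unfold tateResMat
  rw [Matrix.trace, Matrix.trace, map_sum]
  rfl


/-! ### The level-one map and irreducibility -/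

/-- the level-one map `V → E[p]` -/
noncomputable def tateResLev :
    (Fin 2 → ℤ_[p]) →+ Submodule.torsionBy ℤ (W⁄Qbar).Point (p : ℤ) where
  toFun v := ⟨(tateSys W p hΔ).lev 1 v, by
    rw [Submodule.mem_torsionBy_iff, natCast_zsmul]
    have := (tateSys W p hΔ).pow_smul_lev 1 v
    rwa [pow_one] at this⟩
  map_zero' := Subtype.ext (_root_.map_zero _)
  map_add' v w := Subtype.ext (_root_.map_add _ v w)

lemma coe_tateResLev (v : Fin 2 → ℤ_[p]) :
    ((tateResLev W hΔ p v : Submodule.torsionBy ℤ (W⁄Qbar).Point (p : ℤ)) : (W⁄Qbar).Point)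
      = (tateSys W p hΔ).lev 1 v := rfl

theorem tateResLev_surjective : Function.Surjective (tateResLev W hΔ p) := by
  rintro ⟨R, hR⟩
  rw [Submodule.mem_torsionBy_iff, natCast_zsmul] at hR
  obtain ⟨v, hv⟩ := (tateSys W p hΔ).lev_surjective 1 R (by rwa [pow_one])
  exact ⟨v, Subtype.ext hv⟩

theorem tateResLev_eq_zero_iff (v : Fin 2 → ℤ_[p]) :
    tateResLev W hΔ p v = 0 ↔
      v ∈ (IsLocalRing.maximalIdeal ℤ_[p]) • (⊤ : Submodule ℤ_[p] (Fin 2 → ℤ_[p])) := by
  have key := (tateSys W p hΔ).lev_eq_zero_iff_mem_maximalIdeal 1 v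
  rw [pow_one] at key
  exact ⟨fun h => key.1 (congrArg Subtype.val h), fun h => Subtype.ext (key.2 h)⟩

theorem tateResLev_rho (σ : GQ) (v : Fin 2 → ℤ_[p]) :
    tateResLev W hΔ p (tateRho W hΔ p σ v) = σ • tateResLev W hΔ p v :=
  Subtype.ext (lev_tateRho W hΔ p σ v 1)

theorem tateResLev_smul (a : ℤ_[p]) (v : Fin 2 → ℤ_[p]) :
    tateResLev W hΔ p (a • v) = PadicInt.toZMod a • tateResLev W hΔ p v := by
  rw [tateRes_zmod_smul W p _ _ (TateSys.cast_rep_one a)]
  exact Subtype.ext ((tateSys W p hΔ).lev_smul 1 a v _ (TateSys.isRep_rep 1 a))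

end Conc

section Gen

variable {A : Type} [CommRing A] [IsLocalRing A] {V : Type} [AddCommGroup V] [Module A V]

/-- every element of `k ⊗ V` is of the form `1 ⊗ v` -/
lemma tateRes_exists_tmul (x : IsLocalRing.ResidueField A ⊗[A] V) :
    ∃ v : V, x = (1 : IsLocalRing.ResidueField A) ⊗ₜ[A] v := by
  induction x using TensorProduct.induction_on with
  | zero => exact ⟨0, by rw [TensorProduct.tmul_zero]⟩
  | tmul c w =>
    obtain ⟨a, rfl⟩ := IsLocalRing.residue_surjective c
    refine ⟨a • w, ?_⟩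
    rw [TensorProduct.tmul_smul, TensorProduct.smul_tmul', Algebra.smul_def, mul_one]
    rfl
  | add x y hx hy =>
    obtain ⟨v, rfl⟩ := hx
    obtain ⟨w, rfl⟩ := hy
    exact ⟨v + w, by rw [TensorProduct.tmul_add]⟩

/-- `1 ⊗ v = 0` for `v ∈ 𝔪 V` -/
lemma tateRes_tmul_eq_zero {v : V}
    (hv : v ∈ (IsLocalRing.maximalIdeal A) • (⊤ : Submodule A V)) :
    (1 : IsLocalRing.ResidueField A) ⊗ₜ[A] v = 0 := by
  refine Submodule.smul_induction_on
    (p := fun x => (1 : IsLocalRing.ResidueField A) ⊗ₜ[A] x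
      = (0 : IsLocalRing.ResidueField A ⊗[A] V)) hv ?_ ?_
  · intro a ha w _
    rw [TensorProduct.tmul_smul, TensorProduct.smul_tmul', Algebra.smul_def,
      IsLocalRing.ResidueField.algebraMap_eq, (IsLocalRing.residue_eq_zero_iff a).mpr ha,
      zero_mul, TensorProduct.zero_tmul]
  · intro x y hx hy
    rw [TensorProduct.tmul_add, hx, hy, add_zero]

end Gen

section Irr

variable (W : WeierstrassCurve ℚ) (hΔ : W.Δ ≠ 0) (p : ℕ) [hp : Fact p.Prime]

/-- irreducibility, in terms of `tateRho` -/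
theorem tateRes_irr_aux
    (hirr : GaloisRepIsIrreducible (K := Qbar) ℚ W p)
    (U : Submodule (IsLocalRing.ResidueField ℤ_[p])
      (IsLocalRing.ResidueField ℤ_[p] ⊗[ℤ_[p]] (Fin 2 → ℤ_[p])))
    (hU : ∀ σ : GQ, ∀ x ∈ U,
      (tateRho W hΔ p σ).baseChange (IsLocalRing.ResidueField ℤ_[p]) x ∈ U) :
    U = ⊥ ∨ U = ⊤ := by
  -- the corresponding submodule of `E[p]`
  let N : Submodule (ZMod p) (Submodule.torsionBy ℤ (W⁄Qbar).Point (p : ℤ)) :=
    { carrier := {x | ∃ v : Fin 2 → ℤ_[p],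
        (1 : IsLocalRing.ResidueField ℤ_[p]) ⊗ₜ[ℤ_[p]] v ∈ U ∧ tateResLev W hΔ p v = x}
      add_mem' := by
        rintro x y ⟨v, hv, rfl⟩ ⟨w, hw, rfl⟩
        exact ⟨v + w, by rw [TensorProduct.tmul_add]; exact U.add_mem hv hw,
          _root_.map_add _ v w⟩
      zero_mem' := ⟨0, by rw [TensorProduct.tmul_zero]; exact U.zero_mem, _root_.map_zero _⟩
      smul_mem' := by
        rintro c x ⟨v, hv, rfl⟩
        obtain ⟨a, rfl⟩ := ZMod.ringHom_surjective (PadicInt.toZMod (p := p)) c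
        refine ⟨a • v, ?_, tateResLev_smul W hΔ p a v⟩
        rw [TensorProduct.tmul_smul]
        exact U.smul_of_tower_mem a hv }
  have hN : IsGaloisStable ℚ N := by
    rintro σ x ⟨v, hv, rfl⟩
    refine ⟨tateRho W hΔ p σ v, ?_, tateResLev_rho W hΔ p σ v⟩
    have := hU σ _ hv
    rwa [LinearMap.baseChange_tmul] at this
  rcases hirr.2 N hN with h | h
  · left
    rw [Submodule.eq_bot_iff]
    intro u hu
    obtain ⟨v, rfl⟩ := tateRes_exists_tmul u
    have h1 : tateResLev W hΔ p v ∈ N := ⟨v, hu, rfl⟩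
    rw [h, Submodule.mem_bot] at h1
    exact tateRes_tmul_eq_zero ((tateResLev_eq_zero_iff W hΔ p v).1 h1)
  · right
    rw [Submodule.eq_top_iff']
    intro u
    obtain ⟨v, rfl⟩ := tateRes_exists_tmul u
    have h1 : tateResLev W hΔ p v ∈ N := by rw [h]; exact Submodule.mem_top
    obtain ⟨w, hw, hwv⟩ := h1
    have h2 : tateResLev W hΔ p (v - w) = 0 := by rw [map_sub, hwv, sub_self]
    have h3 := tateRes_tmul_eq_zero ((tateResLev_eq_zero_iff W hΔ p (v - w)).1 h2)
    rw [TensorProduct.tmul_sub, sub_eq_zero] at h3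
    rw [h3]
    exact hw

/-- **Residual dictionary, irreducibility**: if `E[p]` is irreducible, the residual
representation of the Tate module is irreducible. -/
theorem tateRes_isIrreducible
    (hirr : GaloisRepIsIrreducible (K := Qbar) ℚ W p) :
    (tateRep W hΔ p).residual.IsIrreducible :=
  fun U hU => tateRes_irr_aux W hΔ p hirr U hU


/-! ### Determinant, trace, characteristic polynomial of the residual representation -/

/-- determinant of the residual representation, computed on `E[p]` -/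
theorem tateRes_residual_det (σ : GQ) :
    PadicInt.residueField (LinearMap.det ((tateRep W hΔ p).residual.ρ σ))
      = LinearMap.det (galoisRepModuleEnd (S := ℚ) (K := Qbar) W p σ) := by
  have h1 : LinearMap.det ((tateRep W hΔ p).residual.ρ σ)
      = IsLocalRing.residue ℤ_[p] (LinearMap.det (tateRho W hΔ p σ)) := by
    show LinearMap.det ((tateRho W hΔ p σ).baseChange (IsLocalRing.ResidueField ℤ_[p])) = _
    rw [LinearMap.det_baseChange]
    rfl
  rw [h1, tateRes_det W hΔ p σ]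
  rfl

/-- trace of the residual representation, computed on `E[p]` -/
theorem tateRes_residual_trace (σ : GQ) :
    PadicInt.residueField (LinearMap.trace _ _ ((tateRep W hΔ p).residual.ρ σ))
      = LinearMap.trace (ZMod p) _ (galoisRepModuleEnd (S := ℚ) (K := Qbar) W p σ) := by
  have h1 : LinearMap.trace _ _ ((tateRep W hΔ p).residual.ρ σ)
      = IsLocalRing.residue ℤ_[p] (LinearMap.trace ℤ_[p] _ (tateRho W hΔ p σ)) := by
    show LinearMap.trace _ _
      ((tateRho W hΔ p σ).baseChange (IsLocalRing.ResidueField ℤ_[p])) = _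
    rw [LinearMap.trace_baseChange]
    rfl
  rw [h1, tateRes_trace W hΔ p σ]
  rfl

/-- characteristic polynomial of the residual representation, computed on `E[p]` -/
theorem tateRes_residual_charpoly
    [Module.Free (ZMod p) (Submodule.torsionBy ℤ (W⁄Qbar).Point (p : ℤ))]
    [Module.Finite (ZMod p) (Submodule.torsionBy ℤ (W⁄Qbar).Point (p : ℤ))] (σ : GQ) :
    (LinearMap.charpoly ((tateRep W hΔ p).residual.ρ σ)).map
        (PadicInt.residueField (p := p)).toRingHom
      = LinearMap.charpoly (galoisRepModuleEnd (S := ℚ) (K := Qbar) W p σ) := by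
  have h1 : LinearMap.charpoly ((tateRep W hΔ p).residual.ρ σ)
      = (LinearMap.charpoly (tateRho W hΔ p σ)).map (IsLocalRing.residue ℤ_[p]) := by
    show LinearMap.charpoly
      ((tateRho W hΔ p σ).baseChange (IsLocalRing.ResidueField ℤ_[p])) = _
    rw [LinearMap.charpoly_baseChange]
    rfl
  rw [h1, tateRes_charpoly W hΔ p σ, Polynomial.map_map]
  rfl

/-- **Residual dictionary, oddness**: if every involution `c ≠ 1` has determinant `-1` on
`E[p]`, the residual representation of the Tate module is odd. -/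
theorem tateRes_isOdd_of_det
    (hdet : ∀ c : GQ, c * c = 1 → c ≠ 1 →
      LinearMap.det (galoisRepModuleEnd (S := ℚ) (K := Qbar) W p c) = -1) :
    (tateRep W hΔ p).residual.IsOdd := by
  intro c hc hc1
  apply (PadicInt.residueField (p := p)).injective
  rw [tateRes_residual_det, hdet c hc hc1, map_neg, map_one]

end Irr

end Fermat.Agent.EC


end ZBEC_008_0

/-! ### bundled: `Fermat.Agent.RT.Prod.HypDict` -/
section ZBEC_008_1

/-!
# K-machine, PROD-hyp (helper69), part DICT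

The residual representation `ρ̄₁ = (tateRep W hΔ p).residual` of the Tate module versus the Galois
action on `E[p](ℚ̄)`:

* `rtph_tmul_eq_zero_iff` : `1 ⊗ v = 0` in `k ⊗ V` iff `v ∈ 𝔪 V`;
* `rtph_res_eq_iff` : `ρ̄₁(σ) = ā • 1` iff `σ` acts on `E[p]` as the scalar `a mod p`;
* `rtph_res_eq_one_iff`, `rtph_res_eq_neg_one_iff` : the cases `a = 1`, `a = -1`.
-/

set_option autoImplicit false

namespace Fermat.Agent.RT.Prod

open WeierstrassCurve WeierstrassCurve.Affine WeierstrassCurve.Affine.Point Fermat.Agent.EC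
open scoped TensorProduct

/-- `ℚ̄` -/
local notation "Qbar" => AlgebraicClosure ℚ
/-- `G_ℚ` -/
local notation "GQ" => (AlgebraicClosure ℚ ≃ₐ[ℚ] AlgebraicClosure ℚ)

section Gen

variable {A : Type} [CommRing A] [IsLocalRing A] {V : Type} [AddCommGroup V] [Module A V]

/-- `1 ⊗ v = 0` in `k ⊗ V` iff `v ∈ 𝔪 V`. -/
theorem rtph_tmul_eq_zero_iff (v : V) :
    (1 : IsLocalRing.ResidueField A) ⊗ₜ[A] v = 0 ↔
      v ∈ (IsLocalRing.maximalIdeal A) • (⊤ : Submodule A V) := by
  refine ⟨fun h => ?_, tateRes_tmul_eq_zero⟩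
  have h' : ((1 : A ⧸ IsLocalRing.maximalIdeal A) ⊗ₜ[A] v :
      (A ⧸ IsLocalRing.maximalIdeal A) ⊗[A] V) = 0 := h
  have h1 := congrArg (TensorProduct.quotTensorEquivQuotSMul V (IsLocalRing.maximalIdeal A)) h'
  rw [LinearEquiv.map_zero] at h1
  have h2 := TensorProduct.quotTensorEquivQuotSMul_mk_tmul (M := V)
    (IsLocalRing.maximalIdeal A) (1 : A) v
  rw [one_smul, _root_.map_one] at h2
  rw [h2, Submodule.Quotient.mk_eq_zero] at h1
  exact h1

/-- the base change of `f` to the residue field is the scalar `ā` iff `f ≡ a` modulo `𝔪 V`. -/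
theorem rtph_baseChange_eq_iff (f : V →ₗ[A] V) (a : A) :
    f.baseChange (IsLocalRing.ResidueField A) = IsLocalRing.residue A a •
        (1 : Module.End (IsLocalRing.ResidueField A) (IsLocalRing.ResidueField A ⊗[A] V)) ↔
      ∀ v : V, f v - a • v ∈ (IsLocalRing.maximalIdeal A) • (⊤ : Submodule A V) := by
  have hsm : ∀ v : V, IsLocalRing.residue A a • ((1 : IsLocalRing.ResidueField A) ⊗ₜ[A] v)
      = (1 : IsLocalRing.ResidueField A) ⊗ₜ[A] (a • v) := by
    intro v
    have e1 : (a • (1 : IsLocalRing.ResidueField A)) = IsLocalRing.residue A a := by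
      rw [Algebra.smul_def, mul_one]
      rfl
    calc IsLocalRing.residue A a • ((1 : IsLocalRing.ResidueField A) ⊗ₜ[A] v)
        = (IsLocalRing.residue A a • (1 : IsLocalRing.ResidueField A)) ⊗ₜ[A] v :=
          TensorProduct.smul_tmul' _ _ _
      _ = (IsLocalRing.residue A a) ⊗ₜ[A] v := by rw [smul_eq_mul, mul_one]
      _ = (a • (1 : IsLocalRing.ResidueField A)) ⊗ₜ[A] v := by rw [e1]
      _ = a • ((1 : IsLocalRing.ResidueField A) ⊗ₜ[A] v) := (TensorProduct.smul_tmul' _ _ _).symm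
      _ = (1 : IsLocalRing.ResidueField A) ⊗ₜ[A] (a • v) := (TensorProduct.tmul_smul _ _ _).symm
  constructor
  · intro h v
    rw [← rtph_tmul_eq_zero_iff, TensorProduct.tmul_sub, sub_eq_zero, ← hsm,
      ← LinearMap.baseChange_tmul, h, LinearMap.smul_apply, Module.End.one_apply]
  · intro h
    apply LinearMap.ext
    intro u
    obtain ⟨v, rfl⟩ := tateRes_exists_tmul u
    have h1 := (rtph_tmul_eq_zero_iff _).2 (h v)
    rw [TensorProduct.tmul_sub, sub_eq_zero] at h1
    rw [LinearMap.baseChange_tmul, h1, LinearMap.smul_apply, Module.End.one_apply, hsm]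

end Gen

section Dict

variable (W : WeierstrassCurve ℚ) (hΔ : W.Δ ≠ 0) (p : ℕ) [hp : Fact p.Prime]

/-- **DICT**: `ρ̄₁(σ)` is the scalar `ā` iff `σ` acts on `E[p]` as `a mod p`. -/
theorem rtph_res_eq_iff (σ : GQ) (a : ℤ_[p]) :
    (tateRep W hΔ p).residual.ρ σ = IsLocalRing.residue ℤ_[p] a •
        (1 : Module.End (IsLocalRing.ResidueField ℤ_[p]) (tateRep W hΔ p).residual.V) ↔
      ∀ x : Submodule.torsionBy ℤ (W⁄Qbar).Point (p : ℤ), σ • x = PadicInt.toZMod a • x := by
  have key : ∀ v : Fin 2 → ℤ_[p],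
      (tateRho W hΔ p σ v - a • v ∈
          (IsLocalRing.maximalIdeal ℤ_[p]) • (⊤ : Submodule ℤ_[p] (Fin 2 → ℤ_[p])) ↔
        σ • tateResLev W hΔ p v = PadicInt.toZMod a • tateResLev W hΔ p v) := by
    intro v
    rw [← tateResLev_eq_zero_iff, map_sub, tateResLev_rho, tateResLev_smul, sub_eq_zero]
  have h0 := rtph_baseChange_eq_iff (tateRho W hΔ p σ) a
  refine Iff.trans ?_ (h0.trans ⟨fun h x => ?_, fun h v => (key v).2 (h _)⟩)
  · exact Iff.rfl
  · obtain ⟨v, rfl⟩ := tateResLev_surjective W hΔ p x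
    exact (key v).1 (h v)

/-- **DICT**, `a = 1`. -/
theorem rtph_res_eq_one_iff (σ : GQ) :
    (tateRep W hΔ p).residual.ρ σ = 1 ↔
      ∀ x : Submodule.torsionBy ℤ (W⁄Qbar).Point (p : ℤ), σ • x = x := by
  have h := rtph_res_eq_iff W hΔ p σ 1
  rw [map_one, one_smul] at h
  rw [h]
  simp only [map_one, one_smul]

/-- **DICT**, `a = -1`. -/
theorem rtph_res_eq_neg_one_iff (σ : GQ) :
    (tateRep W hΔ p).residual.ρ σ = -1 ↔
      ∀ x : Submodule.torsionBy ℤ (W⁄Qbar).Point (p : ℤ), σ • x = -x := by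
  have h := rtph_res_eq_iff W hΔ p σ (-1)
  rw [map_neg, map_one, neg_smul, one_smul] at h
  rw [h]
  simp only [map_neg, map_one, neg_smul, one_smul]

end Dict

end Fermat.Agent.RT.Prod


end ZBEC_008_1

/-! ### bundled: `Fermat.Agent.EC.TateResOdd` -/
section ZBEC_008_2

/-!
# Residual dictionary for an integral model (EC package)

For `W : WeierstrassCurve ℤ` with `Δ ≠ 0`, a prime `p` and `ρ = tateRepInt W hΔ p`:

* `tateResInt_isIrreducible` : `W.ModRepIsIrreducible p → ρ.residual.IsIrreducible`;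
* `tateResInt_isOdd` : `W.ModRepIsIrreducible p → ρ.residual.IsOdd`
  (`det = ` cyclotomic character, and every involution `≠ 1` of `ℚ̄` inverts roots of unity);
* `tateResInt_isAbsolutelyIrreducible` : for `p ≠ 2`,
  `W.ModRepIsIrreducible p → ρ.residual.IsAbsolutelyIrreducible`;
* `tateResInt_residual_charpoly_frob` : the characteristic polynomial of a Frobenius at a good
  prime `ℓ ∉ {2, p}` on `ρ.residual` is `X² − a_ℓ(W) X + ℓ`.
-/

set_option autoImplicit false

namespace Fermat.Agent.EC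

open WeierstrassCurve WeierstrassCurve.Affine WeierstrassCurve.Affine.Point Polynomial

/-- `ℚ̄` -/
local notation "Qbar" => AlgebraicClosure ℚ
/-- `G_ℚ` -/
local notation "GQ" => (AlgebraicClosure ℚ ≃ₐ[ℚ] AlgebraicClosure ℚ)

/-- every involution `c ≠ 1` of `ℚ̄` has cyclotomic character `-1` -/
theorem cycloChar_involution (p : ℕ) [NeZero p] (c : GQ) (hcc : c * c = 1) (hc1 : c ≠ 1) :
    Fermat.Agent.S42.cycloChar p c = -1 :=
  modularCyclotomicCharacter_involution (Fermat.Agent.S42.cyclo_card p) c hcc hc1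

variable (W : WeierstrassCurve ℤ) (hΔ : W.Δ ≠ 0) (p : ℕ) [hp : Fact p.Prime]

/-- **Residual dictionary, irreducibility.** -/
theorem tateResInt_isIrreducible (hirr : W.ModRepIsIrreducible p) :
    (tateRepInt W hΔ p).residual.IsIrreducible :=
  tateRes_isIrreducible _ _ p hirr

/-- **Residual dictionary, oddness.** -/
theorem tateResInt_isOdd (hirr : W.ModRepIsIrreducible p) :
    (tateRepInt W hΔ p).residual.IsOdd := by
  refine tateRes_isOdd_of_det _ _ p fun c hcc hc1 => ?_
  have h := Fermat.Agent.RED.det_of_model W hΔ hirr c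
  rw [cycloChar_involution p c hcc hc1] at h
  rw [Units.val_neg, Units.val_one] at h
  exact h

/-- **Residual dictionary, absolute irreducibility** (`p` odd). -/
theorem tateResInt_isAbsolutelyIrreducible (hp2 : p ≠ 2) (hirr : W.ModRepIsIrreducible p) :
    (tateRepInt W hΔ p).residual.IsAbsolutelyIrreducible := by
  refine isAbsolutelyIrreducible_of_isOdd ?_ _ (tateResInt_isIrreducible W hΔ p hirr)
    (tateResInt_isOdd W hΔ p hirr)
  intro h
  have h1 := congrArg (PadicInt.residueField (p := p)) h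
  rw [map_ofNat, _root_.map_zero] at h1
  have h2 : ((2 : ℕ) : ZMod p) = 0 := by exact_mod_cast h1
  rw [ZMod.natCast_eq_zero_iff] at h2
  exact hp2 ((Nat.prime_dvd_prime_iff_eq hp.out Nat.prime_two).1 h2)

/-- **Residual dictionary, Frobenius**: the characteristic polynomial of a Frobenius at a good
prime `ℓ ∉ {2, p}` on the residual representation of the Tate module. -/
theorem tateResInt_residual_charpoly_frob {ℓ : ℕ} (hℓ : ℓ.Prime) (hℓ2 : ℓ ≠ 2)
    (hgood : W.IsGoodPrimeFor ℓ) (hne : ℓ ≠ p) (A : ValuationSubring Qbar)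
    (hA : A.LiesOverPrime ℓ) (τ : GQ) (hτ : A.IsFrobeniusAt τ ℓ) :
    LinearMap.charpoly ((tateRepInt W hΔ p).residual.ρ τ) =
      X ^ 2 - C ((W.apOfModel ℓ : ℤ) : IsLocalRing.ResidueField ℤ_[p]) * X
        + C ((ℓ : IsLocalRing.ResidueField ℤ_[p])) := by
  have h1 : LinearMap.charpoly ((tateRepInt W hΔ p).residual.ρ τ)
      = (LinearMap.charpoly ((tateRepInt W hΔ p).ρ τ)).map (IsLocalRing.residue ℤ_[p]) := by
    show LinearMap.charpoly
      (((tateRepInt W hΔ p).ρ τ).baseChange (IsLocalRing.ResidueField ℤ_[p])) = _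
    rw [LinearMap.charpoly_baseChange]
    rfl
  rw [h1, tateRepInt_charpoly_frob W hΔ p hℓ hℓ2 hgood hne A hA τ hτ]
  simp

end Fermat.Agent.EC


end ZBEC_008_2

/-! ### bundled: `Fermat.Agent.EC.Big.Final` -/
section ZBEC_008_3

/-!
# E-BIG: final statements for the Tate module of a semistable curve

`W : WeierstrassCurve ℤ` semistable, `Δ ≠ 0`, `E[p]` irreducible, `ρbar := (tateRepInt W hΔ p).residual`.

* `ecbig_tateResInt_hyp` : the standing hypotheses `EcbigHyp p ρbar` (any odd `p`);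
* `ecbig_tateResInt_comm_three`, `ecbig_tateResInt_hTW_three` : `p = 3`, unconditional:
  every subgroup `H` of index two contains `σ, τ` with `tr ρbar(σ τ σ⁻¹ τ⁻¹) ≠ 2`, hence
  `ρbar|_H` is absolutely irreducible (shape of `hTW` of S56);
* `ecbig_tateResInt_comm_five`, `ecbig_tateResInt_hTW_five` : `p = 5`, from the pieces S3-5 and
  GRP5 (CUBIC5 is proved);
* `ecbig_comm_baseChange`, `ecbig_hTW_baseChange` : the same for every base change
  `ρbar.baseChange k'` (the residual representation over the residue field of a bigger `𝒪`).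
-/

set_option autoImplicit false
set_option linter.style.haveILetI false

namespace Fermat.Agent.EC

open Polynomial
open scoped TensorProduct

/-- `ℚ̄` -/
local notation "Qbar" => AlgebraicClosure ℚ
/-- `G_ℚ` -/
local notation "GQ" => (AlgebraicClosure ℚ ≃ₐ[ℚ] AlgebraicClosure ℚ)

section BaseChange

variable {k : Type} [Field k] (ρ : ResidualGaloisRep k) (k' : Type) [Field k'] [Algebra k k']

/-- traces of a base change -/
theorem ecbig_trace_baseChange (σ : GQ) :
    LinearMap.trace k' (ρ.baseChange k').V ((ρ.baseChange k').ρ σ)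
      = algebraMap k k' (LinearMap.trace k ρ.V (ρ.ρ σ)) := by
  show LinearMap.trace k' _ ((ρ.ρ σ).baseChange k') = _
  rw [LinearMap.trace_baseChange]

/-- the commutator condition passes to base changes -/
theorem ecbig_comm_baseChange {σ τ : GQ}
    (htr : LinearMap.trace k ρ.V (ρ.ρ (σ * τ * σ⁻¹ * τ⁻¹)) ≠ 2) :
    LinearMap.trace k' (ρ.baseChange k').V ((ρ.baseChange k').ρ (σ * τ * σ⁻¹ * τ⁻¹)) ≠ 2 := by
  rw [ecbig_trace_baseChange]
  intro h
  apply htr
  apply (algebraMap k k').injective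
  rw [h, map_ofNat]

/-- the `hTW` shape for a base change `ρ.baseChange k'` -/
theorem ecbig_hTW_baseChange (H : Subgroup GQ) {σ τ : GQ} (hσ : σ ∈ H) (hτ : τ ∈ H)
    (htr : LinearMap.trace k ρ.V (ρ.ρ (σ * τ * σ⁻¹ * τ⁻¹)) ≠ 2)
    (K : Type) [Field K] [Algebra k' K]
    (V : Submodule K ((ρ.baseChange k').baseChange K).V)
    (hV : ∀ g ∈ H, ∀ x ∈ V, ((ρ.baseChange k').baseChange K).ρ g x ∈ V) : V = ⊥ ∨ V = ⊤ :=
  ecbig_stable_eq_bot_or_top (ρ.baseChange k') K H hσ hτ (ecbig_comm_baseChange ρ k' htr) V hV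

end BaseChange

section Tate

variable (W : WeierstrassCurve ℤ) (hΔ : W.Δ ≠ 0) (p : ℕ) [hp : Fact p.Prime]

/-- the standing hypotheses for the residual representation of the Tate module of a
semistable curve with `E[p]` irreducible, `p` odd -/
theorem ecbig_tateResInt_hyp (hp2 : p ≠ 2) (hss : W.IsSemistableModel)
    (hirr : W.ModRepIsIrreducible p) : EcbigHyp p (tateRepInt W hΔ p).residual := by
  refine ⟨tateResInt_isIrreducible W hΔ p hirr, tateResInt_isOdd W hΔ p hirr, ?_⟩
  intro q hq hqp A hA σ hσ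
  have h1 : LinearMap.charpoly ((tateRepInt W hΔ p).ρ σ) = (X - 1) ^ 2 :=
    Fermat.Agent.RED.tateRepInt_isUnipotentOnInertiaAt_of_semistable_all W hΔ hss p hp2 hq hqp
      A hA σ hσ
  have h2 : LinearMap.charpoly ((tateRepInt W hΔ p).residual.ρ σ) = (X - 1) ^ 2 := by
    show LinearMap.charpoly
      (((tateRepInt W hΔ p).ρ σ).baseChange (IsLocalRing.ResidueField ℤ_[p])) = _
    rw [LinearMap.charpoly_baseChange, h1]
    simp
  have h3 := LinearMap.aeval_self_charpoly ((tateRepInt W hΔ p).residual.ρ σ)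
  rw [h2] at h3
  simpa [pow_two] using h3

/-- **E-BIG, `p = 3`, commutator form**, for the Tate module. -/
theorem ecbig_tateResInt_comm_three (hss : W.IsSemistableModel)
    (hirr : W.ModRepIsIrreducible 3) (H : Subgroup GQ) (hH : H.index = 2) :
    ∃ σ ∈ H, ∃ τ ∈ H, LinearMap.trace _ (tateRepInt W hΔ 3).residual.V
      ((tateRepInt W hΔ 3).residual.ρ (σ * τ * σ⁻¹ * τ⁻¹)) ≠ 2 :=
  ecbig_exists_comm_three (PadicInt.residueField (p := 3)) _
    (ecbig_tateResInt_hyp W hΔ 3 (by norm_num) hss hirr) H hH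

/-- **E-BIG, `p = 3`**: `hTW` of S56 for the residual representation of the Tate module of a
semistable curve with `E[3]` irreducible. -/
theorem ecbig_tateResInt_hTW_three (hss : W.IsSemistableModel)
    (hirr : W.ModRepIsIrreducible 3)
    (K : Type) [Field K] [Algebra (IsLocalRing.ResidueField ℤ_[3]) K]
    (H : Subgroup GQ) (hH : H.index = 2)
    (V : Submodule K ((tateRepInt W hΔ 3).residual.baseChange K).V)
    (hV : ∀ σ ∈ H, ∀ x ∈ V, ((tateRepInt W hΔ 3).residual.baseChange K).ρ σ x ∈ V) :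
    V = ⊥ ∨ V = ⊤ := by
  obtain ⟨σ, hσ, τ, hτ, htr⟩ := ecbig_tateResInt_comm_three W hΔ hss hirr H hH
  exact ecbig_stable_eq_bot_or_top _ K H hσ hτ htr V hV

/-- **E-BIG, `p = 5`, commutator form**, for the Tate module (from S3-5 and GRP5). -/
theorem ecbig_tateResInt_comm_five_of (hC5 : StmtCubic5) (hS3 : StmtS3) (hG5 : StmtGrp5)
    [Fact (Nat.Prime 5)] (hss : W.IsSemistableModel)
    (hirr : W.ModRepIsIrreducible 5) (H : Subgroup GQ) (hH : H.index = 2) :
    ∃ σ ∈ H, ∃ τ ∈ H, LinearMap.trace _ (tateRepInt W hΔ 5).residual.V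
      ((tateRepInt W hΔ 5).residual.ρ (σ * τ * σ⁻¹ * τ⁻¹)) ≠ 2 :=
  ecbig_exists_comm_five (PadicInt.residueField (p := 5)) _ hC5 hS3 hG5
    (ecbig_tateResInt_hyp W hΔ 5 (by norm_num) hss hirr) H hH

/-- **E-BIG (A)**, commutator form: semistable, `E[p]` irreducible, `p` odd, and `ρbar`
RAMIFIED at some prime `q ≠ p` (Frey curve: `q = 2`). -/
theorem ecbig_tateResInt_comm_of_ramified (hp2 : p ≠ 2) (hss : W.IsSemistableModel)
    (hirr : W.ModRepIsIrreducible p) {q : ℕ} (hq : q.Prime) (hqp : q ≠ p)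
    (hram : ¬ (tateRepInt W hΔ p).residual.IsUnramifiedAt q)
    (H : Subgroup GQ) (hH : H.index = 2) :
    ∃ σ ∈ H, ∃ τ ∈ H, LinearMap.trace _ (tateRepInt W hΔ p).residual.V
      ((tateRepInt W hΔ p).residual.ρ (σ * τ * σ⁻¹ * τ⁻¹)) ≠ 2 := by
  have h := ecbig_tateResInt_hyp W hΔ p hp2 hss hirr
  unfold ResidualGaloisRep.IsUnramifiedAt at hram
  rw [not_forall] at hram
  obtain ⟨A, hA⟩ := hram
  rw [Classical.not_imp] at hA
  obtain ⟨hA, hA2⟩ := hA
  rw [not_forall] at hA2
  obtain ⟨σ₀, hσ₀⟩ := hA2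
  rw [Classical.not_imp] at hσ₀
  exact ecbig_exists_comm_of_unipotent
    (ecbig_two_ne_zero (PadicInt.residueField (p := p)) hp2) _ h.irr σ₀ hσ₀.2
    (h.unip q hq hqp A hA σ₀ hσ₀.1) H hH

/-- **E-BIG (A)**, `hTW` shape. -/
theorem ecbig_tateResInt_hTW_of_ramified (hp2 : p ≠ 2) (hss : W.IsSemistableModel)
    (hirr : W.ModRepIsIrreducible p) {q : ℕ} (hq : q.Prime) (hqp : q ≠ p)
    (hram : ¬ (tateRepInt W hΔ p).residual.IsUnramifiedAt q)
    (K : Type) [Field K] [Algebra (IsLocalRing.ResidueField ℤ_[p]) K]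
    (H : Subgroup GQ) (hH : H.index = 2)
    (V : Submodule K ((tateRepInt W hΔ p).residual.baseChange K).V)
    (hV : ∀ σ ∈ H, ∀ x ∈ V, ((tateRepInt W hΔ p).residual.baseChange K).ρ σ x ∈ V) :
    V = ⊥ ∨ V = ⊤ := by
  obtain ⟨σ, hσ, τ, hτ, htr⟩ :=
    ecbig_tateResInt_comm_of_ramified W hΔ p hp2 hss hirr hq hqp hram H hH
  exact ecbig_stable_eq_bot_or_top _ K H hσ hτ htr V hV

end Tate

end Fermat.Agent.EC


end ZBEC_008_3

/-! ### bundled: `Fermat.Agent.RT.Prod.HypWire` -/
section ZBEC_008_4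
/-
K-machine (row 37), PROD-hyp, piece WIRE (helper63; split by helper69, contract of helper97's
`StmtProdHyp`).

Model: `W : WeierstrassCurve ℤ`, `Δ ≠ 0`, `p` an odd prime,
`ρ̄₁ := (EC.tateRepInt W hΔ p).residual : ResidualGaloisRep (ResidueField ℤ_[p])`,
`ι : ResidueField ℤ_[p] →+* K` a ring homomorphism to a field, `ρbar := ρ̄₁.baseChangeAlong ι`.

General dictionary (any `ρ : ResidualGaloisRep k`, `ι : k →+* K`):
* `rtphw_one_iff`, `rtphw_neg_one_iff`, `rtphw_eq_iff`, `rtphw_isUnramifiedAt_iff`   (w6);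
* `rtphw_charpoly`, `rtphw_det`, `rtphw_trace`, `rtphw_isOdd`;
* `rtphw_hdet_baseChangeAlong`, `rtphw_hdet_residual`, `rtphw_hsplit_baseChangeAlong`.

For the Tate module:
* `rtphw_habs` (w1), `rtphw_hdet` (w2), `rtphw_hsplit` (w3), `rtphw_hTW` (w4), `rtphw_hbar` (w5);
* `rtphw_exists_iota` : a ring homomorphism `ResidueField ℤ_[p] →+* ResidueField 𝒪` exists as soon
  as `p ∈ 𝔪_𝒪`;
* `rtphw_twHyp` : the hypotheses `TWHyp 𝒪 p ρbar S Smin` of the Taylor–Wiles machine.
-/

set_option autoImplicit false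
set_option linter.style.haveILetI false

namespace Fermat.Agent.RT.Prod

open Polynomial IsLocalRing
open scoped TensorProduct

/-- `G_ℚ` -/
local notation "GQ" => (AlgebraicClosure ℚ ≃ₐ[ℚ] AlgebraicClosure ℚ)

section Aux

variable {k K : Type} [Field k] [Field K] [Algebra k K]
variable {V : Type} [AddCommGroup V] [Module k V] [Module.Finite k V]

/-- base change along a field extension is injective on endomorphisms -/
theorem rtphw_aux_baseChange_injective {f g : V →ₗ[k] V}
    (h : f.baseChange K = g.baseChange K) : f = g := by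
  classical
  let b := Module.finBasis k V
  apply (LinearMap.toMatrix b b).injective
  have h1 := congrArg (LinearMap.toMatrix (Algebra.TensorProduct.basis K b)
    (Algebra.TensorProduct.basis K b)) h
  rw [LinearMap.toMatrix_baseChange, LinearMap.toMatrix_baseChange] at h1
  exact Matrix.map_injective (algebraMap k K).injective h1

theorem rtphw_aux_eq_one_iff (f : V →ₗ[k] V) :
    f.baseChange K = (1 : Module.End K (K ⊗[k] V)) ↔ f = (1 : Module.End k V) := by
  constructor
  · intro h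
    apply rtphw_aux_baseChange_injective (K := K)
    rw [h]
    exact (LinearMap.baseChange_one (R := k) (A := K) (M := V)).symm
  · rintro rfl
    exact LinearMap.baseChange_one (R := k) (A := K) (M := V)

theorem rtphw_aux_eq_neg_one_iff (f : V →ₗ[k] V) :
    f.baseChange K = (-1 : Module.End K (K ⊗[k] V)) ↔ f = (-1 : Module.End k V) := by
  have h1 : ((-1 : Module.End k V) : V →ₗ[k] V).baseChange K
      = (-1 : Module.End K (K ⊗[k] V)) := by
    rw [LinearMap.baseChange_neg]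
    congr 1
    exact LinearMap.baseChange_one (R := k) (A := K) (M := V)
  constructor
  · intro h
    apply rtphw_aux_baseChange_injective (K := K)
    rw [h, h1]
  · rintro rfl
    exact h1

end Aux

section Rep

variable {k K : Type} [Field k] [Field K] (ι : k →+* K) (ρ : ResidualGaloisRep k)

/-- **(w6)** the base-change dictionary: `ρbar(σ) = 1 ↔ ρ(σ) = 1`. -/
theorem rtphw_one_iff (σ : GQ) : (ρ.baseChangeAlong ι).ρ σ = 1 ↔ ρ.ρ σ = 1 := by
  letI : Algebra k K := ι.toAlgebra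
  exact rtphw_aux_eq_one_iff (K := K) (ρ.ρ σ)

/-- **(w6)** the base-change dictionary: `ρbar(σ) = -1 ↔ ρ(σ) = -1`. -/
theorem rtphw_neg_one_iff (σ : GQ) : (ρ.baseChangeAlong ι).ρ σ = -1 ↔ ρ.ρ σ = -1 := by
  letI : Algebra k K := ι.toAlgebra
  exact rtphw_aux_eq_neg_one_iff (K := K) (ρ.ρ σ)

/-- **(w6)** `ρbar(σ) = ρbar(τ) ↔ ρ(σ) = ρ(τ)`. -/
theorem rtphw_eq_iff (σ τ : GQ) :
    (ρ.baseChangeAlong ι).ρ σ = (ρ.baseChangeAlong ι).ρ τ ↔ ρ.ρ σ = ρ.ρ τ := by
  letI : Algebra k K := ι.toAlgebra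
  constructor
  · intro h
    exact rtphw_aux_baseChange_injective (K := K) h
  · intro h
    show (ρ.ρ σ).baseChange K = (ρ.ρ τ).baseChange K
    rw [h]

/-- unramifiedness transfers -/
theorem rtphw_isUnramifiedAt_iff (q : ℕ) :
    (ρ.baseChangeAlong ι).IsUnramifiedAt q ↔ ρ.IsUnramifiedAt q := by
  constructor
  · intro h A hA σ hσ
    exact (rtphw_one_iff ι ρ σ).1 (h A hA σ hσ)
  · intro h A hA σ hσ
    exact (rtphw_one_iff ι ρ σ).2 (h A hA σ hσ)

/-- characteristic polynomials -/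
theorem rtphw_charpoly (σ : GQ) :
    LinearMap.charpoly ((ρ.baseChangeAlong ι).ρ σ) = (LinearMap.charpoly (ρ.ρ σ)).map ι := by
  letI : Algebra k K := ι.toAlgebra
  exact LinearMap.charpoly_baseChange (A := K) (ρ.ρ σ)

/-- determinants -/
theorem rtphw_det (σ : GQ) :
    LinearMap.det ((ρ.baseChangeAlong ι).ρ σ) = ι (LinearMap.det (ρ.ρ σ)) := by
  letI : Algebra k K := ι.toAlgebra
  exact LinearMap.det_baseChange (A := K) (ρ.ρ σ)

/-- traces -/
theorem rtphw_trace (σ : GQ) :
    LinearMap.trace K (ρ.baseChangeAlong ι).V ((ρ.baseChangeAlong ι).ρ σ)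
      = ι (LinearMap.trace k ρ.V (ρ.ρ σ)) := by
  letI : Algebra k K := ι.toAlgebra
  exact LinearMap.trace_baseChange (ρ.ρ σ) K

/-- oddness transfers -/
theorem rtphw_isOdd (h : ρ.IsOdd) : (ρ.baseChangeAlong ι).IsOdd := by
  intro c hcc hc1
  rw [rtphw_det, h c hcc hc1, map_neg, map_one]

/-- **(w2)** the determinant condition transfers -/
theorem rtphw_hdet_baseChangeAlong (p : ℕ)
    (h : (GaloisRepAdic.ofResidualGaloisRep ρ).DetIsCyclotomic p) :
    (GaloisRepAdic.ofResidualGaloisRep (ρ.baseChangeAlong ι)).DetIsCyclotomic p := by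
  letI : Algebra k K := ι.toAlgebra
  obtain ⟨h1, h2⟩ := h
  refine ⟨?_, fun n σ a ha => ?_⟩
  · have h3 : (p : k) = 0 := by
      by_contra h0
      exact h1 (isUnit_iff_ne_zero.2 h0)
    have h4 : (p : K) = 0 := by
      rw [← map_natCast ι, h3, map_zero]
    rw [h4]
    exact Ideal.zero_mem _
  · exact Fermat.Agent.TW.twbc_aux_det (A := k) (B := K) (V := ρ.V) (ρ.ρ σ) a (p ^ n) (h2 n σ a ha)

/-- **(w3)** `hsplit` from the splitting of quadratics over the prime field -/
theorem rtphw_hsplit_baseChangeAlong (p : ℕ) (e : k ≃+* ZMod p)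
    (hK : ∀ (φ : ZMod p →+* K) (f : (ZMod p)[X]), f.Monic → f.natDegree = 2 →
      ∃ α β : K, f.map φ = (X - C α) * (X - C β)) (σ : GQ) :
    ∃ α β : K, LinearMap.charpoly ((ρ.baseChangeAlong ι).ρ σ) = (X - C α) * (X - C β) := by
  haveI : Nontrivial (ZMod p) := e.symm.toEquiv.nontrivial
  have hm : (LinearMap.charpoly (ρ.ρ σ)).Monic := LinearMap.charpoly_monic _
  have hd : (LinearMap.charpoly (ρ.ρ σ)).natDegree = 2 := by
    rw [LinearMap.charpoly_natDegree, ρ.finrank_eq]
  obtain ⟨α, β, h⟩ := hK (ι.comp (e.symm : ZMod p →+* k))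
    ((LinearMap.charpoly (ρ.ρ σ)).map (e : k →+* ZMod p)) (hm.map _)
    (by rw [hm.natDegree_map, hd])
  refine ⟨α, β, ?_⟩
  rw [rtphw_charpoly, ← h, Polynomial.map_map]
  congr 1
  ext x
  simp

end Rep

section Residual

variable {A : Type} [CommRing A] [IsLocalRing A] (ρ : GaloisRepAdic A)

/-- the determinant condition for the residual representation -/
theorem rtphw_hdet_residual (p : ℕ) (h : ρ.DetIsCyclotomic p) :
    (GaloisRepAdic.ofResidualGaloisRep ρ.residual).DetIsCyclotomic p := by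
  obtain ⟨h1, h2⟩ := h
  refine ⟨?_, fun n σ a ha => ?_⟩
  · have h4 : (p : ResidueField A) = 0 := by
      rw [← map_natCast (residue A)]
      exact (residue_eq_zero_iff _).2 h1
    rw [h4]
    exact Ideal.zero_mem _
  · exact Fermat.Agent.TW.twbc_aux_det (A := A) (B := ResidueField A) (V := ρ.V) (ρ.ρ σ) a (p ^ n)
      (h2 n σ a ha)

/-- characteristic polynomials of the residual representation -/
theorem rtphw_charpoly_residual (σ : GQ) :
    LinearMap.charpoly (ρ.residual.ρ σ) = (LinearMap.charpoly (ρ.ρ σ)).map (residue A) :=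
  LinearMap.charpoly_baseChange (A := ResidueField A) (ρ.ρ σ)

end Residual

section Tate

variable (W : WeierstrassCurve ℤ) (hΔ : W.Δ ≠ 0) (p : ℕ) [hp : Fact p.Prime]
variable {K : Type} [Field K] (ι : ResidueField ℤ_[p] →+* K)

/-- `2 ≠ 0` in the residue field of `ℤ_p`, `p` odd -/
theorem rtphw_two_ne_zero (hp2 : p ≠ 2) : (2 : ResidueField ℤ_[p]) ≠ 0 := by
  intro h
  have h1 := congrArg (PadicInt.residueField (p := p)) h
  rw [map_ofNat, _root_.map_zero] at h1
  have h2 : ((2 : ℕ) : ZMod p) = 0 := by exact_mod_cast h1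
  rw [ZMod.natCast_eq_zero_iff] at h2
  exact hp2 ((Nat.prime_dvd_prime_iff_eq hp.out Nat.prime_two).1 h2)

/-- **(w1)** `habs` -/
theorem rtphw_habs (hp2 : p ≠ 2) (hirr : W.ModRepIsIrreducible p) :
    ((EC.tateRepInt W hΔ p).residual.baseChangeAlong ι).IsAbsolutelyIrreducible := by
  have h2 : (2 : ResidueField ℤ_[p]) ≠ 0 := rtphw_two_ne_zero p hp2
  have h2K : (2 : K) ≠ 0 := by
    intro h
    apply h2
    apply ι.injective
    rw [map_ofNat, h, map_zero]
  have hodd := EC.tateResInt_isOdd W hΔ p hirr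
  have hirr1 := EC.tateResInt_isIrreducible W hΔ p hirr
  refine EC.isAbsolutelyIrreducible_of_isOdd h2K _ ?_ (rtphw_isOdd ι _ hodd)
  letI : Algebra (ResidueField ℤ_[p]) K := ι.toAlgebra
  exact EC.baseChange_isIrreducible_of_isOdd h2 _ hirr1 hodd K

/-- **(w2)** `hdet` -/
theorem rtphw_hdet :
    (GaloisRepAdic.ofResidualGaloisRep
      ((EC.tateRepInt W hΔ p).residual.baseChangeAlong ι)).DetIsCyclotomic p :=
  rtphw_hdet_baseChangeAlong ι _ p
    (rtphw_hdet_residual _ p (EC.tateRepInt_detIsCyclotomic W hΔ p))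

/-- **(w3)** `hsplit` -/
theorem rtphw_hsplit
    (hK : ∀ (φ : ZMod p →+* K) (f : (ZMod p)[X]), f.Monic → f.natDegree = 2 →
      ∃ α β : K, f.map φ = (X - C α) * (X - C β)) (σ : GQ) :
    ∃ α β : K, LinearMap.charpoly (((EC.tateRepInt W hΔ p).residual.baseChangeAlong ι).ρ σ)
      = (X - C α) * (X - C β) :=
  rtphw_hsplit_baseChangeAlong ι _ p PadicInt.residueField hK σ

/-- **(w4)** `hTW`, from `ρ̄₁` ramified at some prime `q ≠ p` (Frey curve: `q = 2`) -/
theorem rtphw_hTW (hp2 : p ≠ 2) (hss : W.IsSemistableModel) (hirr : W.ModRepIsIrreducible p)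
    {q : ℕ} (hq : q.Prime) (hqp : q ≠ p)
    (hram : ¬ (EC.tateRepInt W hΔ p).residual.IsUnramifiedAt q)
    (K' : Type) [Field K'] [Algebra K K'] (G : Subgroup GQ) (hG : G.index = 2)
    (V : Submodule K' (((EC.tateRepInt W hΔ p).residual.baseChangeAlong ι).baseChange K').V)
    (hV : ∀ σ ∈ G, ∀ x ∈ V,
      (((EC.tateRepInt W hΔ p).residual.baseChangeAlong ι).baseChange K').ρ σ x ∈ V) :
    V = ⊥ ∨ V = ⊤ := by
  obtain ⟨σ, hσ, τ, hτ, htr⟩ :=
    EC.ecbig_tateResInt_comm_of_ramified W hΔ p hp2 hss hirr hq hqp hram G hG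
  letI : Algebra (ResidueField ℤ_[p]) K := ι.toAlgebra
  exact EC.ecbig_hTW_baseChange (EC.tateRepInt W hΔ p).residual K G hσ hτ htr K' V hV

/-- **(w5)** `hbar`: the characteristic polynomial of `ρbar(Frob_ℓ)` at a good prime `ℓ ≠ p`
(`ℓ = 2` included). -/
theorem rtphw_hbar {ℓ : ℕ} (hℓ : ℓ.Prime) (hne : ℓ ≠ p) (hgood : W.IsGoodPrimeFor ℓ)
    (A : ValuationSubring (AlgebraicClosure ℚ)) (hA : A.LiesOverPrime ℓ) (τ : GQ)
    (hτ : A.IsFrobeniusAt τ ℓ) :
    LinearMap.charpoly (((EC.tateRepInt W hΔ p).residual.baseChangeAlong ι).ρ τ) =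
      X ^ 2 - C (((W.apOfModel ℓ : ℤ) : K)) * X + C ((ℓ : K)) := by
  rw [rtphw_charpoly, rtphw_charpoly_residual,
    EC.tateRepInt_charpoly_frob_all W hΔ p hℓ hgood hne A hA τ hτ]
  simp

end Tate

section Iota

/-- a ring homomorphism `ResidueField ℤ_[p] →+* ResidueField 𝒪` exists when `p ∈ 𝔪_𝒪` -/
theorem rtphw_exists_iota (𝒪 : Type) [CommRing 𝒪] [IsLocalRing 𝒪] (p : ℕ) [hp : Fact p.Prime]
    (hp𝒪 : (p : 𝒪) ∈ maximalIdeal 𝒪) :
    Nonempty (ResidueField ℤ_[p] →+* ResidueField 𝒪) := by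
  have h0 : (p : ResidueField 𝒪) = 0 := by
    rw [← map_natCast (residue 𝒪)]
    exact (residue_eq_zero_iff _).2 hp𝒪
  haveI : CharP (ResidueField 𝒪) p := (CharP.charP_iff_prime_eq_zero hp.out).2 h0
  exact ⟨(ZMod.castHom (dvd_refl p) (ResidueField 𝒪)).comp
    (PadicInt.residueField (p := p) : ResidueField ℤ_[p] →+* ZMod p)⟩

end Iota

section Final

variable (𝒪 : Type) [CommRing 𝒪] [IsDomain 𝒪] [IsDiscreteValuationRing 𝒪]
variable (W : WeierstrassCurve ℤ) (hΔ : W.Δ ≠ 0) (p : ℕ) [hp : Fact p.Prime]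

/-- **WIRE.** The hypotheses `TWHyp` of the Taylor–Wiles machine for
`ρbar = ρ̄₁.baseChangeAlong ι`, `ρ̄₁` the residual representation of the Tate module of a
semistable curve with `E[p]` irreducible, `p` odd, ramified at some prime `q ≠ p`. -/
theorem rtphw_twHyp (hp2 : p ≠ 2) (hp𝒪 : (p : 𝒪) ∈ maximalIdeal 𝒪)
    (hK : ∀ (φ : ZMod p →+* ResidueField 𝒪) (f : (ZMod p)[X]), f.Monic → f.natDegree = 2 →
      ∃ α β : ResidueField 𝒪, f.map φ = (X - C α) * (X - C β))
    (ι : ResidueField ℤ_[p] →+* ResidueField 𝒪)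
    (hss : W.IsSemistableModel) (hirr : W.ModRepIsIrreducible p)
    {q : ℕ} (hq : q.Prime) (hqp : q ≠ p)
    (hram : ¬ (EC.tateRepInt W hΔ p).residual.IsUnramifiedAt q)
    (S Smin : Finset ℕ) (hpSmin : p ∈ Smin) (hSmin : Smin ⊆ S) (hS : ∀ q ∈ S, q.Prime)
    (hmin : ∀ q : ℕ, q.Prime → q ≠ p →
      (q ∈ Smin ↔ ¬ (EC.tateRepInt W hΔ p).residual.IsUnramifiedAt q)) :
    TW.TWHyp 𝒪 p ((EC.tateRepInt W hΔ p).residual.baseChangeAlong ι) S Smin where
  hp2 := hp2
  hp𝒪 := hp𝒪
  habs := rtphw_habs W hΔ p ι hp2 hirr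
  hdet := rtphw_hdet W hΔ p ι
  hsplit := rtphw_hsplit W hΔ p ι hK
  hTW := rtphw_hTW W hΔ p ι hp2 hss hirr hq hqp hram
  hpSmin := hpSmin
  hSmin := hSmin
  hS := hS
  hmin := fun q hq' hqp' => by
    rw [rtphw_isUnramifiedAt_iff]
    exact hmin q hq' hqp'

end Final

end Fermat.Agent.RT.Prod


end ZBEC_008_4
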