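/- GENERATED FILE (helper35, build-time optimisation, NOTES/ZB.md): verbatim concatenation of the modules
   Fermat.Agent.S13.Local.NoFixedVal
   Fermat.Agent.S13.Local.NoFixedFrey
   Do not edit; do not import together with these modules. -/
import Mathlib
import Fermat.Agent.ZB.S05_002
import Fermat.Agent.ZB.S04_001

/-! ### bundled: `Fermat.Agent.S13.Local.NoFixedVal` -/
section ZBS13_006_0

/-!
# S13, step 5 (no rational point of order `p`): valuations of rational numbers at a place over `q`

`A` a valuation subring of `L ⊇ ℚ` over the prime `q`: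
* `noFixed_val_lt_one`: `v q < 1`, `v q ≠ 0`;
* `noFixed_val_int`, `noFixed_val_rat`: the valuation of a nonzero rational number is `v q ^ n`;
* `noFixed_rat_residue_two`: at `q = 2` an integral rational number is `≡ 0` or `≡ 1` mod `𝔪`.
-/

set_option autoImplicit false
set_option linter.unusedSectionVars false
set_option linter.unusedVariables false

namespace Fermat.Agent.S13

open Fermat.Agent.S05

section RatVal

variable {L : Type*} [Field L] [Algebra ℚ L] (A : ValuationSubring L) {q : ℕ}

theorem noFixed_val_lt_one (hA : A.LiesOverPrime q) : A.valuation (q : L) < 1 :=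
  (A.mem_nonunits_iff).1 hA

theorem noFixed_val_ne_zero (hq : q.Prime) : A.valuation (q : L) ≠ 0 := by
  have := charZero_of_algebraRat L
  rw [Valuation.ne_zero_iff]
  exact_mod_cast hq.ne_zero

theorem noFixed_val_pos (hq : q.Prime) : 0 < A.valuation (q : L) :=
  zero_lt_iff.2 (noFixed_val_ne_zero A hq)

/-- the valuation of a nonzero natural number is a power of `v q`. -/
theorem noFixed_val_nat (hq : q.Prime) (hA : A.LiesOverPrime q) {n : ℕ} (hn : n ≠ 0) :
    ∃ e : ℕ, A.valuation (n : L) = A.valuation (q : L) ^ e ∧ (q ^ e ∣ n) ∧ ¬ q ^ (e + 1) ∣ n := by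
  obtain ⟨e, n', hn', rfl⟩ := Nat.exists_eq_pow_mul_and_not_dvd hn q hq.ne_one
  refine ⟨e, ?_, Dvd.intro _ rfl, ?_⟩
  · have h1 : A.valuation (n' : L) = 1 := by
      rw [valuation_natCast_eq_one_iff A hq hA]
      exact hn'
    rw [Nat.cast_mul, Nat.cast_pow, map_mul, map_pow, h1, mul_one]
  · intro hdvd
    rw [pow_succ] at hdvd
    exact hn' ((Nat.mul_dvd_mul_iff_left (pow_pos hq.pos e)).1 hdvd)

/-- the valuation of a nonzero rational number is an integral power of `v q`. -/
theorem noFixed_val_rat (hq : q.Prime) (hA : A.LiesOverPrime q) {r : ℚ} (hr : r ≠ 0) :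
    ∃ n : ℤ, A.valuation (algebraMap ℚ L r) = A.valuation (q : L) ^ n := by
  have hchar := charZero_of_algebraRat L
  have hnum : r.num.natAbs ≠ 0 := Int.natAbs_ne_zero.2 (Rat.num_ne_zero.2 hr)
  obtain ⟨e₁, h₁, -, -⟩ := noFixed_val_nat A hq hA hnum
  obtain ⟨e₂, h₂, -, -⟩ := noFixed_val_nat A hq hA r.den_ne_zero
  refine ⟨(e₁ : ℤ) - e₂, ?_⟩
  have hvnum : A.valuation ((r.num : ℤ) : L) = A.valuation (q : L) ^ e₁ := by
    rw [← h₁]
    rcases Int.natAbs_eq r.num with h | h
    · conv_lhs => rw [h]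
      simp
    · conv_lhs => rw [h]
      simp
  rw [eq_ratCast, Rat.cast_def, map_div₀, hvnum, h₂, zpow_sub₀ (noFixed_val_ne_zero A hq),
    zpow_natCast, zpow_natCast]

/-- at a place over `2`, an integer is `≡ 0` or `≡ 1` modulo the maximal ideal. -/
theorem noFixed_int_residue_two (hA : A.LiesOverPrime 2) (n : ℤ) :
    A.valuation (n : L) < 1 ∨ A.valuation ((n : L) - 1) < 1 := by
  rcases Int.even_or_odd n with h | h
  · left
    rw [valuation_intCast_lt_one_iff A Nat.prime_two hA]
    exact_mod_cast h.two_dvd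
  · right
    have : ((n : L) - 1) = ((n - 1 : ℤ) : L) := by push_cast; ring
    rw [this, valuation_intCast_lt_one_iff A Nat.prime_two hA]
    obtain ⟨k, hk⟩ := h
    exact ⟨k, by rw [hk]; push_cast; ring⟩

/-- at a place over `2`, an integral rational number is `≡ 0` or `≡ 1` modulo the maximal
ideal. -/
theorem noFixed_rat_residue_two (hA : A.LiesOverPrime 2) (r : ℚ)
    (hr : A.valuation (algebraMap ℚ L r) ≤ 1) :
    A.valuation (algebraMap ℚ L r) < 1 ∨ A.valuation (algebraMap ℚ L r - 1) < 1 := by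
  have hchar := charZero_of_algebraRat L
  have hden0 : (r.den : L) ≠ 0 := by exact_mod_cast r.den_ne_zero
  -- the denominator is odd
  have hden : A.valuation (r.den : L) = 1 := by
    rw [valuation_natCast_eq_one_iff A Nat.prime_two hA]
    intro h2
    have hnum : ¬ (2 : ℤ) ∣ r.num := by
      intro h2'
      have hcop := r.reduced
      have h3 : (2 : ℕ) ∣ r.num.natAbs := Int.natCast_dvd.1 (by exact_mod_cast h2')
      have := Nat.dvd_gcd h3 h2
      rw [Nat.Coprime] at hcop
      rw [hcop] at this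
      exact absurd this (by norm_num)
    have hvnum : A.valuation ((r.num : ℤ) : L) = 1 := by
      rw [valuation_intCast_eq_one_iff A Nat.prime_two hA]
      exact_mod_cast hnum
    have hvden : A.valuation (r.den : L) < 1 := by
      have := (valuation_intCast_lt_one_iff A Nat.prime_two hA (r.den : ℤ)).2 (by exact_mod_cast h2)
      simpa using this
    rw [eq_ratCast, Rat.cast_def, map_div₀, hvnum] at hr
    have hpos : 0 < A.valuation (r.den : L) := zero_lt_iff.2 ((Valuation.ne_zero_iff _).2 hden0)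
    rw [div_le_iff₀ hpos, one_mul] at hr
    exact absurd hvden (not_lt.2 hr)
  have e1 : algebraMap ℚ L r = (r.num : L) / (r.den : L) := by
    rw [eq_ratCast, Rat.cast_def]
  have e2 : algebraMap ℚ L r - 1 = (((r.num - r.den : ℤ) : L)) / (r.den : L) := by
    rw [e1]
    field_simp
    push_cast
    ring
  rcases Int.even_or_odd r.num with h | h
  · left
    rw [e1, map_div₀, hden, div_one, valuation_intCast_lt_one_iff A Nat.prime_two hA]
    exact_mod_cast h.two_dvd
  · right
    rw [e2, map_div₀, hden, div_one, valuation_intCast_lt_one_iff A Nat.prime_two hA]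
    have hdo : Odd (r.den : ℤ) := by
      rw [valuation_natCast_eq_one_iff A Nat.prime_two hA] at hden
      rw [← Int.not_even_iff_odd, even_iff_two_dvd]
      exact_mod_cast hden
    exact_mod_cast (h.sub_odd hdo).two_dvd

end RatVal

end Fermat.Agent.S13


end ZBS13_006_0

/-! ### bundled: `Fermat.Agent.S13.Local.NoFixedFrey` -/
section ZBS13_006_1

/-!
# S13, step 5: the Frey curve at a place over `2`

`a₂ ∈ A`, `a₄ ∈ A`, `v a₄ = v 2 ^ N` with `N ≥ 1`, `p ∤ 2N`; `v b₂ = 1`; `η = 2y + x`;
the duplication numerator is `(x² - a₄)²`.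
-/

set_option autoImplicit false
set_option linter.unusedSectionVars false
set_option linter.unusedVariables false

namespace Fermat.Agent.S13

open Fermat.Agent.S05 WeierstrassCurve

section FreyTwo

variable (P : FreyPackage) {L : Type*} [Field L] [Algebra ℚ L] (A : ValuationSubring L)

theorem noFixed_two_dvd_b : (2 : ℤ) ∣ P.b :=
  (ZMod.intCast_zmod_eq_zero_iff_dvd P.b 2).1 P.hb2

theorem noFixed_not_two_dvd_a : ¬ (2 : ℤ) ∣ P.a := by
  intro h
  have h1 : ((P.a : ℤ) : ZMod 2) = 0 := (ZMod.intCast_zmod_eq_zero_iff_dvd P.a 2).2 h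
  have h2 := P.ha4
  -- `a ≡ 3 mod 4` is odd
  have h3 : ((P.a : ℤ) : ZMod 2) = 1 := by
    have := congrArg (ZMod.castHom (show 2 ∣ 4 by norm_num) (ZMod 2)) h2
    simp only [map_intCast] at this
    rw [this]
    decide
  rw [h1] at h3
  exact absurd h3 (by decide)

/-- `a₂ ∈ A`. -/
theorem noFixed_a₂_mem : (P.freyCurve.baseChange L).a₂ ∈ A := by
  have hchar := charZero_of_algebraRat L
  obtain ⟨m, hm⟩ := Fermat.Agent.S04.frey_four_dvd P
  have : (P.freyCurve.baseChange L).a₂ = (m : L) := by
    rw [frey_a₂]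
    have h := congrArg (fun t : ℤ => (t : L)) hm
    simp only [Int.cast_sub, Int.cast_pow, Int.cast_one, Int.cast_mul, Int.cast_ofNat] at h
    rw [h]
    field_simp
  rw [this]
  exact intCast_mem A m

/-- `v a₄ = v 2 ^ N` with `1 ≤ N` and `p ∤ 2N`. -/
theorem noFixed_val_a₄ (hA : A.LiesOverPrime 2) :
    ∃ N : ℤ, 1 ≤ N ∧ ¬ (P.p : ℤ) ∣ 2 * N ∧
      A.valuation (P.freyCurve.baseChange L).a₄ = A.valuation (2 : L) ^ N := by
  have hchar := charZero_of_algebraRat L
  have hbn : P.b.natAbs ≠ 0 := Int.natAbs_ne_zero.2 P.hb0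
  obtain ⟨s, hs, hsdvd, -⟩ := noFixed_val_nat A Nat.prime_two hA hbn
  have hv2 : A.valuation (2 : L) ≠ 0 := by
    rw [Valuation.ne_zero_iff]
    exact two_ne_zero
  have hs1 : 1 ≤ s := by
    by_contra hcon
    have hs0 : s = 0 := by omega
    rw [hs0, pow_zero] at hs
    rw [valuation_natCast_eq_one_iff A Nat.prime_two hA] at hs
    apply hs
    have := noFixed_two_dvd_b P
    exact Int.natCast_dvd.1 (by exact_mod_cast this)
  have hvb : A.valuation (P.b : L) = A.valuation (2 : L) ^ s := by
    have : A.valuation ((P.b.natAbs : ℕ) : L) = A.valuation (P.b : L) := by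
      rcases Int.natAbs_eq P.b with h | h
      · conv_rhs => rw [h]
        simp
      · conv_rhs => rw [h]
        simp
    rw [← this, hs]
    simp
  have hva : A.valuation (P.a : L) = 1 := by
    rw [valuation_intCast_eq_one_iff A Nat.prime_two hA]
    exact_mod_cast noFixed_not_two_dvd_a P
  have hp5 := P.hp5
  refine ⟨(s : ℤ) * P.p - 4, ?_, ?_, ?_⟩
  · have : (5 : ℤ) ≤ (s : ℤ) * P.p := by
      have h1 : (1 : ℤ) ≤ s := by exact_mod_cast hs1
      have h2 : (5 : ℤ) ≤ P.p := by exact_mod_cast hp5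
      nlinarith
    omega
  · intro hdvd
    have h8 : (P.p : ℤ) ∣ 8 := by
      have e : (8 : ℤ) = 2 * (s : ℤ) * P.p - 2 * ((s : ℤ) * P.p - 4) := by ring
      rw [e]
      exact dvd_sub (Dvd.intro_left _ rfl) hdvd
    have h8' : P.p ∣ 8 := by exact_mod_cast h8
    have hle : P.p ≤ 8 := Nat.le_of_dvd (by norm_num) h8'
    have hpp := P.pp
    interval_cases h : P.p <;> simp_all (config := {decide := true})
  · have h16 : A.valuation (16 : L) = A.valuation (2 : L) ^ (4 : ℕ) := by
      rw [← map_pow]; norm_num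
    rw [frey_a₄, map_div₀, map_mul, Valuation.map_neg, map_pow, map_pow, hva, hvb, h16, one_pow,
      one_mul, ← pow_mul, zpow_sub₀ hv2]
    norm_cast

/-- `a₄ ∈ 𝔪`. -/
theorem noFixed_val_a₄_lt (hA : A.LiesOverPrime 2) :
    A.valuation (P.freyCurve.baseChange L).a₄ < 1 := by
  obtain ⟨N, hN, -, hv⟩ := noFixed_val_a₄ P A hA
  have h2 : A.valuation (2 : L) < 1 := by
    have := noFixed_val_lt_one A hA
    simpa using this
  have hpos : 0 < A.valuation (2 : L) := by
    have := noFixed_val_pos A Nat.prime_two (L := L)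
    simpa using this
  rw [hv, ← zpow_zero (A.valuation (2 : L)), zpow_lt_zpow_iff_right_of_lt_one₀ hpos h2]
  omega

theorem noFixed_a₄_mem (hA : A.LiesOverPrime 2) : (P.freyCurve.baseChange L).a₄ ∈ A :=
  (A.valuation_le_one_iff _).1 (noFixed_val_a₄_lt P A hA).le

/-- the coefficients of the Frey curve are integral at a place over `2`. -/
theorem noFixed_coeff_mem (hA : A.LiesOverPrime 2) :
    (P.freyCurve.baseChange L).a₁ ∈ A ∧ (P.freyCurve.baseChange L).a₂ ∈ A ∧
      (P.freyCurve.baseChange L).a₃ ∈ A ∧ (P.freyCurve.baseChange L).a₄ ∈ A ∧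
      (P.freyCurve.baseChange L).a₆ ∈ A := by
  refine ⟨?_, noFixed_a₂_mem P A, ?_, noFixed_a₄_mem P A hA, ?_⟩
  · rw [frey_a₁]; exact one_mem A
  · rw [frey_a₃]; exact zero_mem A
  · rw [frey_a₆]; exact zero_mem A

/-- `η = 2y + x` on the Frey curve. -/
theorem noFixed_eta (x y : L) : eta (P.freyCurve.baseChange L) x y = 2 * y + x := by
  rw [eta, frey_a₁, frey_a₃]; ring

/-- the duplication numerator of the Frey curve is `(x² - a₄)²`. -/
theorem noFixed_dupNum (x : L) :
    dupNum (P.freyCurve.baseChange L) x = (x ^ 2 - (P.freyCurve.baseChange L).a₄) ^ 2 := by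
  have hchar := charZero_of_algebraRat L
  rw [dupNum, frey_b₄, frey_b₆, frey_b₈, frey_a₄]
  field_simp
  ring

/-- `p` is a unit at a place over `2`. -/
theorem noFixed_p_unit (hA : A.LiesOverPrime 2) : (P.p : L) ∉ A.nonunits := by
  rw [natCast_mem_nonunits_iff A Nat.prime_two hA]
  intro h2
  have := (Nat.prime_dvd_prime_iff_eq Nat.prime_two P.pp).1 h2
  have := P.hp5
  omega

end FreyTwo

end Fermat.Agent.S13


end ZBS13_006_1
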