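/- GENERATED FILE (helper35, build-time optimisation, NOTES/ZB.md): verbatim concatenation of the modules
   Fermat.Agent.S13.Local.TropTwoVal
   Fermat.Agent.S13.Local.TropTwo
   Fermat.Agent.S13.Local.AtTwo
   Fermat.Agent.S13.Local.FreyAtTwo
   Fermat.Agent.S13.Local.NoFixed
   Do not edit; do not import together with these modules. -/
import Fermat.Agent.ZB.S05_004
import Fermat.Agent.ZB.S05_005
import Fermat.Agent.ZB.S05_002
import Mathlib
import Fermat.Agent.ZB.S13_008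
import Fermat.Agent.ZB.S05_003
import Fermat.Agent.ZB.S05_001
import Fermat.Agent.ZB.S13_001
import Fermat.Agent.ZB.S04_001
import Fermat.Agent.ZB.Common_001
import Fermat.Agent.ZB.S13_006
import Fermat.Agent.ZB.S13_004
import Fermat.Agent.ZB.S51_001

/-! ### bundled: `Fermat.Agent.S13.Local.TropTwoVal` -/
section ZBS13_007_0
/-
S13, tropical step in any residue characteristic (helper99, on helper13's request):
pure valuation case lemmas.  Adaptation of `Fermat/Agent/S05/TropCases.lean`, `TropNP.lean`,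
`TropDup.lean` (helper5, helper63, helper99) to the normalisation
  `(Xs + Xd) (X₁ - X₂)² = 2 (X₁ + X₂)(X₁ X₂ + κ) + β X₁ X₂`,   `Xs Xd (X₁ - X₂)² = (X₁ X₂ - κ)²`
with `v 2 ≤ 1`, `v β = 1`, `v κ < 1` (for the curve `y² + a₁xy = x³ + a₂x² + a₄x`: `β = b₂`, `κ = a₄`).
Regions for `X`: `E₀ = {1 ≤ v X}`, interior `= {v κ < v X < 1}`, `T₀ = {v X ≤ v κ}`.
-/

set_option autoImplicit false
set_option linter.unusedVariables false

namespace Fermat.Agent.S13

open Fermat.Agent.S05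

section TropTwoVal

variable {K : Type*} [Field K] {Γ₀ : Type*} [LinearOrderedCommGroupWithZero Γ₀]
  (v : Valuation K Γ₀) {κ β X₁ X₂ Xs Xd X X₃ η : K}

lemma trop2_v_four_le (h2 : v (2 : K) ≤ 1) : v (4 : K) ≤ 1 := by
  have : (4 : K) = 2 * 2 := by norm_num
  rw [this, map_mul]
  calc v 2 * v 2 ≤ 1 * 1 := mul_le_mul' h2 h2
    _ = 1 := one_mul 1

/-- bound for the numerator of the sum -/
lemma trop2_num_le (h2 : v (2 : K) ≤ 1) (hβ : v β = 1) {M : Γ₀}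
    (hA : v (X₁ + X₂) * v (X₁ * X₂ + κ) ≤ M) (hB : v (X₁ * X₂) ≤ M) :
    v (2 * ((X₁ + X₂) * (X₁ * X₂ + κ)) + β * (X₁ * X₂)) ≤ M := by
  refine v.map_add_le ?_ ?_
  · rw [map_mul, map_mul]
    calc v 2 * (v (X₁ + X₂) * v (X₁ * X₂ + κ)) ≤ 1 * M := mul_le_mul' h2 hA
      _ = M := one_mul M
  · rw [map_mul, hβ, one_mul]; exact hB

theorem trop2_E0_int (h2 : v (2 : K) ≤ 1) (hβ : v β = 1) (hκ : v κ < 1) (hκ0 : κ ≠ 0)
    (hne : X₁ ≠ X₂)
    (hS : (Xs + Xd) * (X₁ - X₂) ^ 2 = 2 * ((X₁ + X₂) * (X₁ * X₂ + κ)) + β * (X₁ * X₂))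
    (hP : Xs * Xd * (X₁ - X₂) ^ 2 = (X₁ * X₂ - κ) ^ 2)
    (h₁ : 1 ≤ v X₁) (h₂l : v κ < v X₂) (h₂u : v X₂ < 1) :
    v Xs = v X₂ ∧ v Xd = v X₂ := by
  have ha0 : 0 < v X₁ := lt_of_lt_of_le zero_lt_one h₁
  have hb0 : 0 < v X₂ := lt_of_le_of_lt zero_le h₂l
  have hlt : v X₂ < v X₁ := lt_of_lt_of_le h₂u h₁
  have hδ : v (X₁ - X₂) = v X₁ := v.map_sub_eq_of_lt_left hlt
  have hprod : v (X₁ * X₂) = v X₁ * v X₂ := v.map_mul _ _
  have hlt2 : v κ < v (X₁ * X₂) := by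
    rw [hprod]
    calc v κ < v X₂ := h₂l
      _ = 1 * v X₂ := (one_mul _).symm
      _ ≤ v X₁ * v X₂ := mul_le_mul' h₁ le_rfl
  have hnum : v (X₁ * X₂ - κ) = v X₁ * v X₂ := by
    rw [v.map_sub_eq_of_lt_left hlt2, hprod]
  have hPi : v Xs * v Xd = v X₂ ^ 2 := by
    have : v (Xs * Xd * (X₁ - X₂) ^ 2) = v ((X₁ * X₂ - κ) ^ 2) := by rw [hP]
    rw [v.map_mul, v.map_mul, v.map_pow, v.map_pow, hδ, hnum, mul_pow] at this
    have h3 : v X₁ ^ 2 ≠ 0 := pow_ne_zero 2 ha0.ne'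
    exact mul_right_cancel₀ h3 (this.trans (mul_comm _ _))
  have hSle : v (Xs + Xd) ≤ v X₂ := by
    have : v ((Xs + Xd) * (X₁ - X₂) ^ 2) =
        v (2 * ((X₁ + X₂) * (X₁ * X₂ + κ)) + β * (X₁ * X₂)) := by rw [hS]
    rw [v.map_mul, v.map_pow, hδ] at this
    have hA : v (X₁ + X₂) * v (X₁ * X₂ + κ) ≤ v X₁ ^ 2 * v X₂ := by
      have hA1 : v (X₁ + X₂) ≤ v X₁ := by
        rw [v.map_add_eq_of_lt_left hlt]
      have hA2 : v (X₁ * X₂ + κ) ≤ v X₁ * v X₂ := by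
        rw [v.map_add_eq_of_lt_left hlt2, hprod]
      calc v (X₁ + X₂) * v (X₁ * X₂ + κ) ≤ v X₁ * (v X₁ * v X₂) := mul_le_mul' hA1 hA2
        _ = v X₁ ^ 2 * v X₂ := by rw [pow_two, mul_assoc]
    have hB : v (X₁ * X₂) ≤ v X₁ ^ 2 * v X₂ := by
      rw [hprod]
      calc v X₁ * v X₂ = 1 * v X₁ * v X₂ := by rw [one_mul]
        _ ≤ v X₁ * v X₁ * v X₂ := mul_le_mul' (mul_le_mul' h₁ le_rfl) le_rfl
        _ = v X₁ ^ 2 * v X₂ := by rw [pow_two]
    have hN := trop2_num_le v h2 hβ hA hB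
    rw [← this] at hN
    have h3 : 0 < v X₁ ^ 2 := pow_pos ha0 2
    rw [mul_comm] at hN
    exact le_of_mul_le_mul_left hN h3
  have hnp : v (Xs + Xd) ^ 2 ≤ v Xs * v Xd := by
    rw [hPi]; exact pow_le_pow_left₀ zero_le hSle 2
  have heq := trop_np_eq v hnp
  rw [← heq, ← pow_two] at hPi
  have h1 : v Xs = v X₂ := (pow_left_inj₀ zero_le zero_le (by norm_num)).1 hPi
  exact ⟨h1, heq ▸ h1⟩

theorem trop2_E0_T0 (h2 : v (2 : K) ≤ 1) (hβ : v β = 1) (hκ : v κ < 1) (hκ0 : κ ≠ 0)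
    (hne : X₁ ≠ X₂)
    (hS : (Xs + Xd) * (X₁ - X₂) ^ 2 = 2 * ((X₁ + X₂) * (X₁ * X₂ + κ)) + β * (X₁ * X₂))
    (hP : Xs * Xd * (X₁ - X₂) ^ 2 = (X₁ * X₂ - κ) ^ 2)
    (h₁ : 1 ≤ v X₁) (h₂ : v X₂ ≤ v κ) :
    v Xs ≤ v κ ∧ v Xd ≤ v κ := by
  have ha0 : 0 < v X₁ := lt_of_lt_of_le zero_lt_one h₁
  have hlt : v X₂ < v X₁ := lt_of_le_of_lt h₂ (lt_of_lt_of_le hκ h₁)
  have hδ : v (X₁ - X₂) = v X₁ := v.map_sub_eq_of_lt_left hlt
  have hprod : v (X₁ * X₂) = v X₁ * v X₂ := v.map_mul _ _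
  have hprod_le : v (X₁ * X₂) ≤ v X₁ * v κ := by rw [hprod]; exact mul_le_mul' le_rfl h₂
  have hee_le : v κ ≤ v X₁ * v κ := by
    calc v κ = 1 * v κ := (one_mul _).symm
      _ ≤ v X₁ * v κ := mul_le_mul' h₁ le_rfl
  have hnum : v (X₁ * X₂ - κ) ≤ v X₁ * v κ := v.map_sub_le hprod_le hee_le
  have hnum' : v (X₁ * X₂ + κ) ≤ v X₁ * v κ := v.map_add_le hprod_le hee_le
  have h3 : 0 < v X₁ ^ 2 := pow_pos ha0 2
  have hPi : v Xs * v Xd ≤ v κ ^ 2 := by
    have : v (Xs * Xd * (X₁ - X₂) ^ 2) = v ((X₁ * X₂ - κ) ^ 2) := by rw [hP]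
    rw [v.map_mul, v.map_mul, v.map_pow, v.map_pow, hδ] at this
    have h4 : v Xs * v Xd * v X₁ ^ 2 ≤ v κ ^ 2 * v X₁ ^ 2 := by
      rw [this, ← mul_pow, mul_comm (v κ)]
      exact pow_le_pow_left₀ zero_le hnum 2
    exact le_of_mul_le_mul_right h4 h3
  have hSle : v (Xs + Xd) ≤ v κ := by
    have : v ((Xs + Xd) * (X₁ - X₂) ^ 2) =
        v (2 * ((X₁ + X₂) * (X₁ * X₂ + κ)) + β * (X₁ * X₂)) := by rw [hS]
    rw [v.map_mul, v.map_pow, hδ] at this
    have hA : v (X₁ + X₂) * v (X₁ * X₂ + κ) ≤ v X₁ ^ 2 * v κ := by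
      have hA1 : v (X₁ + X₂) ≤ v X₁ := by
        rw [v.map_add_eq_of_lt_left hlt]
      calc v (X₁ + X₂) * v (X₁ * X₂ + κ) ≤ v X₁ * (v X₁ * v κ) := mul_le_mul' hA1 hnum'
        _ = v X₁ ^ 2 * v κ := by rw [pow_two, mul_assoc]
    have hB : v (X₁ * X₂) ≤ v X₁ ^ 2 * v κ := by
      calc v (X₁ * X₂) ≤ v X₁ * v κ := hprod_le
        _ = 1 * v X₁ * v κ := by rw [one_mul]
        _ ≤ v X₁ * v X₁ * v κ := mul_le_mul' (mul_le_mul' h₁ le_rfl) le_rfl
        _ = v X₁ ^ 2 * v κ := by rw [pow_two]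
    have hN := trop2_num_le v h2 hβ hA hB
    rw [← this] at hN
    rw [mul_comm] at hN
    exact le_of_mul_le_mul_left hN h3
  exact trop_np_le v hPi hSle

theorem trop2_T0_int (h2 : v (2 : K) ≤ 1) (hβ : v β = 1) (hκ : v κ < 1) (hκ0 : κ ≠ 0)
    (hne : X₁ ≠ X₂)
    (hS : (Xs + Xd) * (X₁ - X₂) ^ 2 = 2 * ((X₁ + X₂) * (X₁ * X₂ + κ)) + β * (X₁ * X₂))
    (hP : Xs * Xd * (X₁ - X₂) ^ 2 = (X₁ * X₂ - κ) ^ 2)
    (h₁ : v X₁ ≤ v κ) (h₂l : v κ < v X₂) (h₂u : v X₂ < 1) :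
    v Xs * v X₂ = v κ ∧ v Xd * v X₂ = v κ := by
  have hε0 : 0 < v κ := by rw [zero_lt_iff, v.ne_zero_iff]; exact hκ0
  have hb0 : 0 < v X₂ := lt_trans hε0 h₂l
  have hlt : v X₁ < v X₂ := lt_of_le_of_lt h₁ h₂l
  have hδ : v (X₁ - X₂) = v X₂ := v.map_sub_eq_of_lt_right hlt
  have hprod : v (X₁ * X₂) = v X₁ * v X₂ := v.map_mul _ _
  have hprod_lt : v (X₁ * X₂) < v κ := by
    rw [hprod]
    calc v X₁ * v X₂ ≤ v κ * v X₂ := mul_le_mul' h₁ le_rfl
      _ < v κ * 1 := mul_lt_mul_of_pos_left h₂u hε0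
      _ = v κ := mul_one _
  have hnum : v (X₁ * X₂ - κ) = v κ := by
    rw [v.map_sub_eq_of_lt_right hprod_lt]
  have hnum' : v (X₁ * X₂ + κ) = v κ := by
    rw [v.map_add_eq_of_lt_right hprod_lt]
  have h3 : 0 < v X₂ ^ 2 := pow_pos hb0 2
  have hPi : v Xs * v Xd * v X₂ ^ 2 = v κ ^ 2 := by
    have : v (Xs * Xd * (X₁ - X₂) ^ 2) = v ((X₁ * X₂ - κ) ^ 2) := by rw [hP]
    rw [v.map_mul, v.map_mul, v.map_pow, v.map_pow, hδ, hnum] at this
    exact this
  have hSle : v (Xs + Xd) * v X₂ ≤ v κ := by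
    have : v ((Xs + Xd) * (X₁ - X₂) ^ 2) =
        v (2 * ((X₁ + X₂) * (X₁ * X₂ + κ)) + β * (X₁ * X₂)) := by rw [hS]
    rw [v.map_mul, v.map_pow, hδ] at this
    have hA : v (X₁ + X₂) * v (X₁ * X₂ + κ) ≤ v κ * v X₂ := by
      rw [hnum', v.map_add_eq_of_lt_right hlt, mul_comm]
    have hB : v (X₁ * X₂) ≤ v κ * v X₂ := by
      rw [hprod]; exact mul_le_mul' h₁ le_rfl
    have hN := trop2_num_le v h2 hβ hA hB
    rw [← this] at hN
    have hN' : v (Xs + Xd) * v X₂ * v X₂ ≤ v κ * v X₂ := by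
      rw [mul_assoc, ← pow_two]; exact hN
    exact le_of_mul_le_mul_right hN' hb0
  have hnp : v (Xs + Xd) ^ 2 ≤ v Xs * v Xd := by
    have h5 : v (Xs + Xd) ^ 2 * v X₂ ^ 2 ≤ v Xs * v Xd * v X₂ ^ 2 := by
      rw [hPi, ← mul_pow]
      exact pow_le_pow_left₀ zero_le hSle 2
    exact le_of_mul_le_mul_right h5 h3
  have heq := trop_np_eq v hnp
  have h6 : (v Xs * v X₂) ^ 2 = v κ ^ 2 := by
    rw [← hPi, ← heq, mul_pow, pow_two (v Xs)]
  have h1 : v Xs * v X₂ = v κ := (pow_left_inj₀ zero_le zero_le (by norm_num)).1 h6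
  exact ⟨h1, heq ▸ h1⟩

theorem trop2_T0_T0 (h2 : v (2 : K) ≤ 1) (hβ : v β = 1) (hκ : v κ < 1) (hκ0 : κ ≠ 0)
    (hne : X₁ ≠ X₂)
    (hS : (Xs + Xd) * (X₁ - X₂) ^ 2 = 2 * ((X₁ + X₂) * (X₁ * X₂ + κ)) + β * (X₁ * X₂))
    (hP : Xs * Xd * (X₁ - X₂) ^ 2 = (X₁ * X₂ - κ) ^ 2)
    (h₁ : v X₁ ≤ v κ) (h₂ : v X₂ ≤ v κ) :
    1 ≤ v Xs ∧ 1 ≤ v Xd := by
  have hε0 : 0 < v κ := by rw [zero_lt_iff, v.ne_zero_iff]; exact hκ0
  have hδle : v (X₁ - X₂) ≤ v κ := v.map_sub_le h₁ h₂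
  have hδ0 : 0 < v (X₁ - X₂) := by
    rw [zero_lt_iff, v.ne_zero_iff]; exact sub_ne_zero.2 hne
  have hprod : v (X₁ * X₂) = v X₁ * v X₂ := v.map_mul _ _
  have hprod_le : v (X₁ * X₂) ≤ v κ ^ 2 := by
    rw [hprod, pow_two]; exact mul_le_mul' h₁ h₂
  have hsq_lt : v κ ^ 2 < v κ := by
    calc v κ ^ 2 = v κ * v κ := pow_two _
      _ < v κ * 1 := mul_lt_mul_of_pos_left hκ hε0
      _ = v κ := mul_one _
  have hprod_lt : v (X₁ * X₂) < v κ := lt_of_le_of_lt hprod_le hsq_lt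
  have hnum : v (X₁ * X₂ - κ) = v κ := by
    rw [v.map_sub_eq_of_lt_right hprod_lt]
  have hnum' : v (X₁ * X₂ + κ) = v κ := by
    rw [v.map_add_eq_of_lt_right hprod_lt]
  have h3 : 0 < v (X₁ - X₂) ^ 2 := pow_pos hδ0 2
  have hPi : v Xs * v Xd * v (X₁ - X₂) ^ 2 = v κ ^ 2 := by
    have : v (Xs * Xd * (X₁ - X₂) ^ 2) = v ((X₁ * X₂ - κ) ^ 2) := by rw [hP]
    rw [v.map_mul, v.map_mul, v.map_pow, v.map_pow, hnum] at this
    exact this
  have hPi1 : 1 ≤ v Xs * v Xd := by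
    have h5 : 1 * v (X₁ - X₂) ^ 2 ≤ v Xs * v Xd * v (X₁ - X₂) ^ 2 := by
      rw [hPi, one_mul]
      exact pow_le_pow_left₀ zero_le hδle 2
    exact le_of_mul_le_mul_right h5 h3
  have hSle : v (Xs + Xd) ≤ v Xs * v Xd := by
    have : v ((Xs + Xd) * (X₁ - X₂) ^ 2) =
        v (2 * ((X₁ + X₂) * (X₁ * X₂ + κ)) + β * (X₁ * X₂)) := by rw [hS]
    rw [v.map_mul, v.map_pow] at this
    have hA : v (X₁ + X₂) * v (X₁ * X₂ + κ) ≤ v κ ^ 2 := by
      rw [hnum', pow_two]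
      exact mul_le_mul' (v.map_add_le h₁ h₂) le_rfl
    have hN := trop2_num_le v h2 hβ hA hprod_le
    rw [← this, ← hPi] at hN
    exact le_of_mul_le_mul_right hN h3
  exact trop_np_ge v hPi1 hSle

/-- Both points in the interior region: the cancellation case. -/
theorem trop2_int_int (h2 : v (2 : K) ≤ 1) (hβ : v β = 1) (hκ0 : κ ≠ 0) (hne : X₁ ≠ X₂)
    (hS : (Xs + Xd) * (X₁ - X₂) ^ 2 = 2 * ((X₁ + X₂) * (X₁ * X₂ + κ)) + β * (X₁ * X₂))
    (hP : Xs * Xd * (X₁ - X₂) ^ 2 = (X₁ * X₂ - κ) ^ 2)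
    (h₁l : v κ < v X₁) (h₁u : v X₁ < 1) (h₂l : v κ < v X₂) (h₂u : v X₂ < 1) :
    ∃ A B : Γ₀, ((v Xs = A ∧ v Xd = B) ∨ (v Xs = B ∧ v Xd = A)) ∧
      A * v (X₁ - X₂) ^ 2 = v X₁ * v X₂ ∧
      B * (v X₁ * v X₂) = v (X₁ * X₂ - κ) ^ 2 := by
  set a := v X₁ with ha
  set b := v X₂ with hb
  set ε := v κ with hε
  have hε0 : 0 < ε := by rw [hε]; exact zero_lt_iff.mpr ((Valuation.ne_zero_iff v).mpr hκ0)
  have ha0 : 0 < a := lt_trans hε0 h₁l
  have hb0 : 0 < b := lt_trans hε0 h₂l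
  have hab0 : 0 < a * b := mul_pos ha0 hb0
  have hD0 : X₁ - X₂ ≠ 0 := sub_ne_zero.mpr hne
  set δ := v (X₁ - X₂) with hδ
  have hδ0 : 0 < δ := by rw [hδ]; exact zero_lt_iff.mpr ((Valuation.ne_zero_iff v).mpr hD0)
  have hδle : δ ≤ max a b := Valuation.map_sub v X₁ X₂
  have hMlt : max a b < 1 := max_lt h₁u h₂u
  have hsum : v (X₁ + X₂) ≤ max a b := Valuation.map_add v X₁ X₂
  have key : max a b * max (a * b) ε < a * b := by
    rcases le_total a b with hle | hle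
    · rw [max_eq_right hle]
      rcases le_total (a * b) ε with h' | h'
      · rw [max_eq_right h', mul_comm]
        exact mul_lt_mul_of_pos_right h₁l hb0
      · rw [max_eq_left h']
        calc b * (a * b) < 1 * (a * b) := mul_lt_mul_of_pos_right h₂u hab0
          _ = a * b := one_mul _
    · rw [max_eq_left hle]
      rcases le_total (a * b) ε with h' | h'
      · rw [max_eq_right h']
        calc a * ε < a * b := by
              rw [mul_comm a ε, mul_comm a b]; exact mul_lt_mul_of_pos_right h₂l ha0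
          _ = a * b := rfl
      · rw [max_eq_left h']
        calc a * (a * b) < 1 * (a * b) := mul_lt_mul_of_pos_right h₁u hab0
          _ = a * b := one_mul _
  have hπle : v (X₁ * X₂ - κ) ≤ max (a * b) ε := by
    refine le_trans (Valuation.map_sub v _ _) ?_
    rw [map_mul]
  have hπle' : v (X₁ * X₂ + κ) ≤ max (a * b) ε := by
    refine le_trans (Valuation.map_add v _ _) ?_
    rw [map_mul]
  -- Step 1: valuation of the numerator of the sum
  have hN : v (2 * ((X₁ + X₂) * (X₁ * X₂ + κ)) + β * (X₁ * X₂)) = a * b := by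
    have hmain : v (β * (X₁ * X₂)) = a * b := by
      rw [map_mul, map_mul, hβ, one_mul]
    have hR : v (2 * ((X₁ + X₂) * (X₁ * X₂ + κ))) < a * b := by
      rw [map_mul, map_mul]
      calc v 2 * (v (X₁ + X₂) * v (X₁ * X₂ + κ))
          ≤ 1 * (max a b * max (a * b) ε) := mul_le_mul' h2 (mul_le_mul' hsum hπle')
        _ = max a b * max (a * b) ε := one_mul _
        _ < a * b := key
    rw [Valuation.map_add_eq_of_lt_right v (by rw [hmain]; exact hR), hmain]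
  have hSv : v (Xs + Xd) * δ ^ 2 = a * b := by
    have := congrArg v hS
    rw [map_mul, map_pow, hN] at this
    exact this
  have hPv : v (Xs * Xd) * δ ^ 2 = v (X₁ * X₂ - κ) ^ 2 := by
    have := congrArg v hP
    rw [map_mul, map_pow, map_pow] at this
    exact this
  have hunb : v (Xs * Xd) < v (Xs + Xd) ^ 2 := by
    have hδ2 : 0 < δ ^ 2 := pow_pos hδ0 2
    have hδ4 : 0 < δ ^ 2 * δ ^ 2 := mul_pos hδ2 hδ2
    have h1 : v (Xs * Xd) * (δ ^ 2 * δ ^ 2) < v (Xs + Xd) ^ 2 * (δ ^ 2 * δ ^ 2) := by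
      have e2 : v (Xs + Xd) ^ 2 * (δ ^ 2 * δ ^ 2) = (a * b) ^ 2 := by
        rw [← hSv, mul_pow, sq (δ ^ 2)]
      have e3 : v (Xs * Xd) * (δ ^ 2 * δ ^ 2) = (v (X₁ * X₂ - κ) * δ) ^ 2 := by
        rw [← mul_assoc, hPv, mul_pow]
      rw [e2, e3]
      refine pow_lt_pow_left₀ ?_ zero_le two_ne_zero
      calc v (X₁ * X₂ - κ) * δ ≤ max (a * b) ε * max a b := mul_le_mul' hπle hδle
        _ = max a b * max (a * b) ε := mul_comm _ _
        _ < a * b := key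
    exact lt_of_mul_lt_mul_right h1 zero_le
  rcases np_unbalanced v hunb with ⟨h1, h2'⟩ | ⟨h1, h2'⟩
  · refine ⟨v (Xs + Xd), v Xd, Or.inl ⟨h1, rfl⟩, hSv, ?_⟩
    rw [← hSv, ← mul_assoc, h2', hPv]
  · refine ⟨v (Xs + Xd), v Xs, Or.inr ⟨rfl, h1⟩, hSv, ?_⟩
    rw [← hSv, ← mul_assoc, h2', hPv]

/-- Duplication of a point in the region of `T`: the double lies in `E₀`. -/
theorem trop2_dup_T0 (h2 : v (2 : K) ≤ 1) (hβ : v β = 1) (hκ : v κ < 1) (hκ0 : κ ≠ 0)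
    (hη : η ^ 2 = X * (4 * X ^ 2 + β * X + 4 * κ))
    (hD : X₃ * η ^ 2 = (X ^ 2 - κ) ^ 2) (hη0 : η ≠ 0)
    (hX : v X ≤ v κ) : 1 ≤ v X₃ := by
  set ε := v κ with hε
  have hε0 : 0 < ε := by rw [hε]; exact zero_lt_iff.mpr ((Valuation.ne_zero_iff v).mpr hκ0)
  have h4 := trop2_v_four_le v h2
  have hX2 : v (X ^ 2) < ε := by
    rw [map_pow, sq]
    calc v X * v X ≤ ε * v X := mul_le_mul' hX le_rfl
      _ ≤ ε * ε := mul_le_mul' le_rfl hX
      _ < 1 * ε := mul_lt_mul_of_pos_right hκ hε0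
      _ = ε := one_mul _
  have hnum : v (X ^ 2 - κ) = ε := by
    rw [Valuation.map_sub_eq_of_lt_right v hX2]
  have hfac : v (4 * X ^ 2 + β * X + 4 * κ) ≤ ε := by
    refine v.map_add_le (v.map_add_le ?_ ?_) ?_
    · rw [map_mul]
      calc v 4 * v (X ^ 2) ≤ 1 * ε := mul_le_mul' h4 hX2.le
        _ = ε := one_mul _
    · rw [map_mul, hβ, one_mul]; exact hX
    · rw [map_mul]
      calc v 4 * v κ ≤ 1 * ε := mul_le_mul' h4 le_rfl
        _ = ε := one_mul _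
  have hηv : v (η ^ 2) ≤ ε ^ 2 := by
    rw [hη, map_mul]
    calc v X * v (4 * X ^ 2 + β * X + 4 * κ) ≤ ε * ε := mul_le_mul' hX hfac
      _ = ε ^ 2 := (sq ε).symm
  have hη2pos : 0 < v (η ^ 2) :=
    zero_lt_iff.mpr ((Valuation.ne_zero_iff v).mpr (pow_ne_zero 2 hη0))
  have hDv : v X₃ * v (η ^ 2) = ε ^ 2 := by
    have := congrArg v hD
    rw [map_mul, map_pow (v) (X ^ 2 - κ), hnum] at this
    exact this
  by_contra hlt
  rw [not_le] at hlt
  have : v X₃ * v (η ^ 2) < ε ^ 2 :=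
    calc v X₃ * v (η ^ 2) < 1 * v (η ^ 2) := mul_lt_mul_of_pos_right hlt hη2pos
      _ = v (η ^ 2) := one_mul _
      _ ≤ ε ^ 2 := hηv
  exact absurd hDv (ne_of_lt this)

/-- the second factor of `η²` at an interior point -/
lemma trop2_v_factor (h2 : v (2 : K) ≤ 1) (hβ : v β = 1) (hκ0 : κ ≠ 0)
    (hXl : v κ < v X) (hXu : v X < 1) : v (4 * X ^ 2 + β * X + 4 * κ) = v X := by
  have hε0 : 0 < v κ := zero_lt_iff.mpr ((Valuation.ne_zero_iff v).mpr hκ0)
  have ha0 : 0 < v X := lt_trans hε0 hXl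
  have h4 := trop2_v_four_le v h2
  have hmain : v (β * X) = v X := by rw [map_mul, hβ, one_mul]
  have h1 : v (4 * X ^ 2) < v X := by
    rw [map_mul, map_pow, sq]
    calc v 4 * (v X * v X) ≤ 1 * (v X * v X) := mul_le_mul' h4 le_rfl
      _ = v X * v X := one_mul _
      _ < 1 * v X := mul_lt_mul_of_pos_right hXu ha0
      _ = v X := one_mul _
  have h3 : v (4 * κ) < v X := by
    rw [map_mul]
    calc v 4 * v κ ≤ 1 * v κ := mul_le_mul' h4 le_rfl
      _ = v κ := one_mul _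
      _ < v X := hXl
  have e1 : v (4 * X ^ 2 + β * X) = v X := by
    rw [Valuation.map_add_eq_of_lt_right v (by rw [hmain]; exact h1), hmain]
  rw [Valuation.map_add_eq_of_lt_left v (by rw [e1]; exact h3), e1]

/-- Duplication of a point in the interior region. -/
theorem trop2_dup_int (h2 : v (2 : K) ≤ 1) (hβ : v β = 1) (hκ : v κ < 1) (hκ0 : κ ≠ 0)
    (hη : η ^ 2 = X * (4 * X ^ 2 + β * X + 4 * κ))
    (hD : X₃ * η ^ 2 = (X ^ 2 - κ) ^ 2) (hη0 : η ≠ 0)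
    (hXl : v κ < v X) (hXu : v X < 1) :
    (v κ < v X ^ 2 → v X₃ = v X ^ 2) ∧
    (v X ^ 2 < v κ → v X₃ * v X ^ 2 = v κ ^ 2) ∧
    (v X ^ 2 = v κ → v X₃ ≤ v κ) := by
  have hfac := trop2_v_factor v h2 hβ hκ0 hXl hXu
  set ε := v κ with hε
  set a := v X with ha
  have hε0 : 0 < ε := by rw [hε]; exact zero_lt_iff.mpr ((Valuation.ne_zero_iff v).mpr hκ0)
  have ha0 : 0 < a := lt_trans hε0 hXl
  have ha2 : 0 < a ^ 2 := pow_pos ha0 2
  have hηv : v (η ^ 2) = a ^ 2 := by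
    rw [hη, map_mul, hfac, sq]
  have hDv : v X₃ * a ^ 2 = v (X ^ 2 - κ) ^ 2 := by
    have := congrArg v hD
    rw [map_mul, map_pow (v) (X ^ 2 - κ), hηv] at this
    exact this
  refine ⟨fun h => ?_, fun h => ?_, fun h => ?_⟩
  · have hnum : v (X ^ 2 - κ) = a ^ 2 := by
      rw [Valuation.map_sub_eq_of_lt_left v (by rw [map_pow]; exact h), map_pow]
    rw [hnum] at hDv
    have h3 : v X₃ * a ^ 2 = a ^ 2 * a ^ 2 := by rw [hDv, sq (a ^ 2)]
    exact mul_right_cancel₀ (ne_of_gt ha2) h3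
  · have hnum : v (X ^ 2 - κ) = ε := by
      rw [Valuation.map_sub_eq_of_lt_right v (by rw [map_pow]; exact h)]
    rw [hnum] at hDv
    exact hDv
  · have hnum : v (X ^ 2 - κ) ≤ ε := by
      refine le_trans (Valuation.map_sub v _ _) (max_le ?_ le_rfl)
      rw [map_pow]; exact le_of_eq h
    have h3 : v X₃ * a ^ 2 ≤ ε * a ^ 2 := by
      rw [hDv, sq, h]
      exact mul_le_mul' hnum hnum
    exact le_of_mul_le_mul_right h3 ha2

/-- If `η² = X (4X² + βX + 4κ)` vanishes and `v X < 1`, then `X` is in the region of `T`. -/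
lemma trop2_eta_zero (h2 : v (2 : K) ≤ 1) (hβ : v β = 1) (hκ0 : κ ≠ 0)
    (hη : X * (4 * X ^ 2 + β * X + 4 * κ) = 0) (hXu : v X < 1) : v X ≤ v κ := by
  by_contra hcon
  rw [not_le] at hcon
  have hfac := trop2_v_factor v h2 hβ hκ0 hcon hXu
  have hε0 : 0 < v κ := zero_lt_iff.mpr ((Valuation.ne_zero_iff v).mpr hκ0)
  have hX0 : X ≠ 0 := (Valuation.ne_zero_iff v).mp (ne_of_gt (lt_trans hε0 hcon))
  have h0 : 4 * X ^ 2 + β * X + 4 * κ = 0 := (mul_eq_zero.mp hη).resolve_left hX0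
  rw [h0, map_zero] at hfac
  exact absurd hfac.symm (ne_of_gt (lt_trans hε0 hcon))

end TropTwoVal

end Fermat.Agent.S13


end ZBS13_007_0

/-! ### bundled: `Fermat.Agent.S13.Local.TropTwo` -/
section ZBS13_007_1
/-
S13, tropical step in any residue characteristic (helper99, on helper13's request).

For `W : y² + a₁xy = x³ + a₂x² + a₄x` (`a₃ = a₆ = 0`) over a valued field with `v 2 ≤ 1`, `2 ≠ 0`,
`v b₂ = 1`, `0 < v a₄ < 1` (a node at `(0,0)`), an odd `p` and a `p`-torsion point `(x, y)` with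
`v x < 1`:     `v a₄ < v x`   and   `v x ^ p ∈ v a₄ ^ (2ℤ)`.

Same route as `Fermat/Agent/S05/Tropical.lean` (helper5): `x`-only identities ⇒ quasi-parallelogram
law for the clipped valuation `nu v 0 (v a₄)` ⇒ induction (`S05.tropical_torsion_of_qp`).
-/

set_option autoImplicit false

namespace Fermat.Agent.S13

open WeierstrassCurve WeierstrassCurve.Affine Fermat.Agent.S05

section TropTwoAlg

variable {K : Type*} [Field K] {W : WeierstrassCurve K}

lemma trop2_b₄ (ha₃ : W.a₃ = 0) : W.b₄ = 2 * W.a₄ := by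
  rw [WeierstrassCurve.b₄, ha₃]; ring

lemma trop2_b₆ (ha₃ : W.a₃ = 0) (ha₆ : W.a₆ = 0) : W.b₆ = 0 := by
  rw [WeierstrassCurve.b₆, ha₃, ha₆]; ring

lemma trop2_b₈ (ha₃ : W.a₃ = 0) (ha₆ : W.a₆ = 0) : W.b₈ = -W.a₄ ^ 2 := by
  rw [WeierstrassCurve.b₈, ha₃, ha₆]; ring

/-- The sum identity in the normalisation of `TropTwoVal`. -/
lemma trop2_sum_identity (ha₃ : W.a₃ = 0) (ha₆ : W.a₆ = 0) {x₁ x₂ xs xd : K}
    (hS : (xs + xd) * (x₁ - x₂) ^ 2 =
      2 * x₁ * x₂ * (x₁ + x₂) + W.b₂ * x₁ * x₂ + W.b₄ * (x₁ + x₂) + W.b₆) :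
    ((xs - 0) + (xd - 0)) * ((x₁ - 0) - (x₂ - 0)) ^ 2 =
      2 * (((x₁ - 0) + (x₂ - 0)) * ((x₁ - 0) * (x₂ - 0) + W.a₄)) +
        W.b₂ * ((x₁ - 0) * (x₂ - 0)) := by
  rw [trop2_b₄ ha₃, trop2_b₆ ha₃ ha₆] at hS
  linear_combination hS

/-- The product identity in the normalisation of `TropTwoVal`. -/
lemma trop2_prod_identity (ha₃ : W.a₃ = 0) (ha₆ : W.a₆ = 0) {x₁ x₂ xs xd : K}
    (hP : xs * xd * (x₁ - x₂) ^ 2 =
      x₁ ^ 2 * x₂ ^ 2 - W.b₄ * x₁ * x₂ - W.b₆ * (x₁ + x₂) - W.b₈) :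
    (xs - 0) * (xd - 0) * ((x₁ - 0) - (x₂ - 0)) ^ 2 = ((x₁ - 0) * (x₂ - 0) - W.a₄) ^ 2 := by
  rw [trop2_b₄ ha₃, trop2_b₆ ha₃ ha₆, trop2_b₈ ha₃ ha₆] at hP
  linear_combination hP

/-- `η² = X (4X² + b₂X + 4a₄)`. -/
lemma trop2_cub_eq (ha₃ : W.a₃ = 0) (ha₆ : W.a₆ = 0) (x : K) :
    cub W x = (x - 0) * (4 * (x - 0) ^ 2 + W.b₂ * (x - 0) + 4 * W.a₄) := by
  rw [cub, trop2_b₄ ha₃, trop2_b₆ ha₃ ha₆]; ring

/-- The duplication identity. -/
lemma trop2_dup_identity (ha₃ : W.a₃ = 0) (ha₆ : W.a₆ = 0) {x x₃ η : K}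
    (hD : x₃ * η ^ 2 = dupNum W x) :
    (x₃ - 0) * η ^ 2 = ((x - 0) ^ 2 - W.a₄) ^ 2 := by
  rw [dupNum, trop2_b₄ ha₃, trop2_b₆ ha₃ ha₆, trop2_b₈ ha₃ ha₆] at hD
  linear_combination hD

end TropTwoAlg

section TropTwoQP

variable {K : Type*} [Field K] [DecidableEq K] {Γ₀ : Type*} [LinearOrderedCommGroupWithZero Γ₀]
  (v : Valuation K Γ₀) {W : WeierstrassCurve K}

/-- Quasi-parallelogram law, doubling case: `ν(2P) ∼ ν(P)²`. -/
theorem qp2_dup (ha₃ : W.a₃ = 0) (ha₆ : W.a₆ = 0) (h2 : v (2 : K) ≤ 1)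
    (hb₂ : v W.b₂ = 1) (ha₄ : v W.a₄ < 1) (ha₄0 : W.a₄ ≠ 0)
    {x y : K} (h : W.toAffine.Nonsingular x y) (hx : v (x - 0) < 1) :
    Sim (v W.a₄) (nu v 0 (v W.a₄) (Point.some x y h + Point.some x y h))
      (nu v 0 (v W.a₄) (Point.some x y h) * nu v 0 (v W.a₄) (Point.some x y h)) := by
  set ε := v W.a₄ with hε
  set X := x - 0 with hX
  have hε0 : 0 < ε := by rw [hε]; exact zero_lt_iff.mpr ((Valuation.ne_zero_iff v).mpr ha₄0)
  have hεne : ε ≠ 0 := ne_of_gt hε0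
  have hηsq : eta W x y ^ 2 = X * (4 * X ^ 2 + W.b₂ * X + 4 * W.a₄) := by
    rw [eta_sq W h.1, trop2_cub_eq ha₃ ha₆]
  have hT0 : v X ≤ ε → nu v 0 ε (Point.some x y h) = ε := fun hle => nu_of_le v 0 ε ha₄.le h hle
  by_cases hη0 : eta W x y = 0
  · -- `2P = 0`
    rw [add_self_of_eta_eq h hη0, nu_zero]
    have hprod : X * (4 * X ^ 2 + W.b₂ * X + 4 * W.a₄) = 0 := by
      rw [← hηsq, hη0]; ring
    have hXle : v X ≤ ε := trop2_eta_zero v h2 hb₂ ha₄0 hprod hx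
    rw [hT0 hXle]
    exact sim_one_sq hεne
  · obtain ⟨x₃, y₃, h₃, hadd, hdup⟩ := add_self_of_eta_ne h hη0
    rw [hadd]
    have hD : (x₃ - 0) * eta W x y ^ 2 = (X ^ 2 - W.a₄) ^ 2 := trop2_dup_identity ha₃ ha₆ hdup
    rcases le_or_gt (v X) ε with hle | hgt
    · have h1 : 1 ≤ v (x₃ - 0) := trop2_dup_T0 v h2 hb₂ ha₄ ha₄0 hηsq hD hη0 hle
      rw [nu_of_ge v 0 ε h₃ h1, hT0 hle]
      exact sim_one_sq hεne
    · have ha : nu v 0 ε (Point.some x y h) = v X := nu_of_mid v 0 ε h hgt.le hx.le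
      rw [ha]
      obtain ⟨c1, c2, c3⟩ := trop2_dup_int v h2 hb₂ ha₄ ha₄0 hηsq hD hη0 hgt hx
      have ha0 : 0 < v X := lt_trans hε0 hgt
      have ha2 : 0 < v X ^ 2 := pow_pos ha0 2
      have ha21 : v X ^ 2 ≤ 1 := pow_le_one₀ zero_le hx.le
      rcases lt_trichotomy ε (v X ^ 2) with hlt | heq | hlt
      · have e := c1 hlt
        rw [nu_of_mid v 0 ε h₃ (by rw [e]; exact hlt.le) (by rw [e]; exact ha21), e]
        exact Sim.of_eq (sq _)
      · have e := c3 heq.symm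
        rw [nu_of_le v 0 ε ha₄.le h₃ e]
        exact Sim.of_eq (by rw [heq, sq])
      · have e := c2 hlt
        have hlo : ε ≤ v (x₃ - 0) := by
          by_contra hcon
          rw [not_le] at hcon
          have : v (x₃ - 0) * v X ^ 2 < ε ^ 2 := by
            calc v (x₃ - 0) * v X ^ 2 ≤ ε * v X ^ 2 := mul_le_mul' hcon.le le_rfl
              _ = v X ^ 2 * ε := mul_comm _ _
              _ < ε * ε := mul_lt_mul_of_pos_right hlt hε0
              _ = ε ^ 2 := (sq ε).symm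
          exact absurd e (ne_of_lt this)
        have hhi : v (x₃ - 0) ≤ 1 := by
          by_contra hcon
          rw [not_le] at hcon
          have : ε ^ 2 < v (x₃ - 0) * v X ^ 2 := by
            calc ε ^ 2 < v X ^ 2 := pow_lt_pow_left₀ hgt zero_le two_ne_zero
              _ = 1 * v X ^ 2 := (one_mul _).symm
              _ < v (x₃ - 0) * v X ^ 2 := mul_lt_mul_of_pos_right hcon ha2
          exact absurd e (ne_of_gt this)
        rw [nu_of_mid v 0 ε h₃ hlo hhi]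
        exact Sim.of_mul_eq_sq (by rw [← sq]; exact e)

/-- The quasi-parallelogram law, case `x₁ ≠ x₂`. -/
theorem qp2_of_X_ne (ha₃ : W.a₃ = 0) (ha₆ : W.a₆ = 0) (h20 : (2 : K) ≠ 0)
    (h2 : v (2 : K) ≤ 1) (hb₂ : v W.b₂ = 1) (ha₄ : v W.a₄ < 1) (ha₄0 : W.a₄ ≠ 0)
    {x₁ y₁ x₂ y₂ : K} (h₁ : W.toAffine.Nonsingular x₁ y₁) (h₂ : W.toAffine.Nonsingular x₂ y₂)
    (hx : x₁ ≠ x₂) (hx₂ : v (x₂ - 0) < 1) :
    (Sim (v W.a₄) (nu v 0 (v W.a₄) (Point.some x₁ y₁ h₁ + Point.some x₂ y₂ h₂))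
        (nu v 0 (v W.a₄) (Point.some x₁ y₁ h₁) * nu v 0 (v W.a₄) (Point.some x₂ y₂ h₂)) ∧
      Sim (v W.a₄) (nu v 0 (v W.a₄) (Point.some x₁ y₁ h₁ - Point.some x₂ y₂ h₂))
        (nu v 0 (v W.a₄) (Point.some x₁ y₁ h₁) / nu v 0 (v W.a₄) (Point.some x₂ y₂ h₂))) ∨
    (Sim (v W.a₄) (nu v 0 (v W.a₄) (Point.some x₁ y₁ h₁ + Point.some x₂ y₂ h₂))
        (nu v 0 (v W.a₄) (Point.some x₁ y₁ h₁) / nu v 0 (v W.a₄) (Point.some x₂ y₂ h₂)) ∧
      Sim (v W.a₄) (nu v 0 (v W.a₄) (Point.some x₁ y₁ h₁ - Point.some x₂ y₂ h₂))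
        (nu v 0 (v W.a₄) (Point.some x₁ y₁ h₁) * nu v 0 (v W.a₄) (Point.some x₂ y₂ h₂))) := by
  obtain ⟨xs, ys, hs, xd, yd, hd, hadd, hsub, hS, hP⟩ := add_sub_X h20 h₁ h₂ hx
  have hS' := trop2_sum_identity ha₃ ha₆ hS
  have hP' := trop2_prod_identity ha₃ ha₆ hP
  rw [hadd, hsub]
  have hne : x₁ - 0 ≠ x₂ - 0 := fun h => hx (sub_left_injective h)
  set ε := v W.a₄ with hε
  have hε0 : 0 < ε := by rw [hε]; exact zero_lt_iff.mpr ((Valuation.ne_zero_iff v).mpr ha₄0)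
  have hεne : ε ≠ 0 := ne_of_gt hε0
  -- symmetric versions of the identities
  have hS'' : ((xs - 0) + (xd - 0)) * ((x₂ - 0) - (x₁ - 0)) ^ 2 =
      2 * (((x₂ - 0) + (x₁ - 0)) * ((x₂ - 0) * (x₁ - 0) + W.a₄)) +
        W.b₂ * ((x₂ - 0) * (x₁ - 0)) := by
    linear_combination hS'
  have hP'' : (xs - 0) * (xd - 0) * ((x₂ - 0) - (x₁ - 0)) ^ 2 =
      ((x₂ - 0) * (x₁ - 0) - W.a₄) ^ 2 := by
    linear_combination hP'
  rcases le_or_gt 1 (v (x₁ - 0)) with h1 | h1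
  · -- P₁ ∈ E₀
    rw [nu_of_ge v 0 ε h₁ h1]
    rcases lt_or_ge ε (v (x₂ - 0)) with h2l | h2l
    · -- (E₀, int)
      obtain ⟨e1, e2⟩ := trop2_E0_int v h2 hb₂ ha₄ ha₄0 hne hS' hP' h1 h2l hx₂
      have hb0 : v (x₂ - 0) ≠ 0 := ne_of_gt (lt_trans hε0 h2l)
      rw [nu_of_mid v 0 ε h₂ h2l.le hx₂.le, nu_of_mid v 0 ε hs (e1 ▸ h2l.le) (e1 ▸ hx₂.le),
        nu_of_mid v 0 ε hd (e2 ▸ h2l.le) (e2 ▸ hx₂.le), e1, e2]
      left
      exact ⟨Sim.of_eq (one_mul _).symm, Sim.of_mul_eq_one (by rw [one_div, mul_inv_cancel₀ hb0])⟩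
    · -- (E₀, T₀)
      obtain ⟨e1, e2⟩ := trop2_E0_T0 v h2 hb₂ ha₄ ha₄0 hne hS' hP' h1 h2l
      rw [nu_of_le v 0 ε ha₄.le h₂ h2l, nu_of_le v 0 ε ha₄.le hs e1,
        nu_of_le v 0 ε ha₄.le hd e2]
      left
      exact ⟨Sim.of_eq (one_mul _).symm, Sim.of_mul_eq_one (by rw [one_div, mul_inv_cancel₀ hεne])⟩
  · rcases lt_or_ge ε (v (x₁ - 0)) with h1l | h1l
    · -- P₁ interior
      have ha0 : 0 < v (x₁ - 0) := lt_trans hε0 h1l
      rw [nu_of_mid v 0 ε h₁ h1l.le h1.le]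
      rcases lt_or_ge ε (v (x₂ - 0)) with h2l | h2l
      · -- (int, int)
        have hb0 : 0 < v (x₂ - 0) := lt_trans hε0 h2l
        rw [nu_of_mid v 0 ε h₂ h2l.le hx₂.le]
        obtain ⟨A, B, hAB, hA, hB⟩ :=
          trop2_int_int v h2 hb₂ ha₄0 hne hS' hP' h1l h1 h2l hx₂
        have hδ0 : 0 < v ((x₁ - 0) - (x₂ - 0)) :=
          zero_lt_iff.mpr ((Valuation.ne_zero_iff v).mpr (sub_ne_zero.mpr hne))
        have hδ : (v (x₁ - 0) < v (x₂ - 0) → v ((x₁ - 0) - (x₂ - 0)) = v (x₂ - 0)) ∧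
            (v (x₂ - 0) < v (x₁ - 0) → v ((x₁ - 0) - (x₂ - 0)) = v (x₁ - 0)) ∧
            (v (x₁ - 0) = v (x₂ - 0) → v ((x₁ - 0) - (x₂ - 0)) ≤ v (x₁ - 0)) :=
          ⟨fun h => Valuation.map_sub_eq_of_lt_right v h,
           fun h => Valuation.map_sub_eq_of_lt_left v h,
           fun h => Valuation.map_sub_le v le_rfl h.symm.le⟩
        have hπ : (ε < v (x₁ - 0) * v (x₂ - 0) →
              v ((x₁ - 0) * (x₂ - 0) - W.a₄) = v (x₁ - 0) * v (x₂ - 0)) ∧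
            (v (x₁ - 0) * v (x₂ - 0) < ε → v ((x₁ - 0) * (x₂ - 0) - W.a₄) = ε) ∧
            (v (x₁ - 0) * v (x₂ - 0) = ε → v ((x₁ - 0) * (x₂ - 0) - W.a₄) ≤ ε) := by
          refine ⟨fun h => ?_, fun h => ?_, fun h => ?_⟩
          · rw [Valuation.map_sub_eq_of_lt_left v (by rw [map_mul]; exact h), map_mul]
          · rw [Valuation.map_sub_eq_of_lt_right v (by rw [map_mul]; exact h)]
          · exact Valuation.map_sub_le v (by rw [map_mul]; exact h.le) le_rfl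
        have sA := sim_quot hε0 h1l h1 h2l hx₂ hδ0 hδ hA
        have sB := sim_prod hε0 h1l h1 h2l hx₂ hπ hB
        rcases hAB with ⟨e1, e2⟩ | ⟨e1, e2⟩
        · right
          rw [nu_some, nu_some, e1, e2]
          exact ⟨sA, sB⟩
        · left
          rw [nu_some, nu_some, e1, e2]
          exact ⟨sB, sA⟩
      · -- (int, T₀): swap the roles
        obtain ⟨e1, e2⟩ := trop2_T0_int v h2 hb₂ ha₄ ha₄0 hne.symm hS'' hP'' h2l h1l h1
        obtain ⟨m1, m1'⟩ := tropQP_mid_of_mul ha0 h1l h1 e1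
        obtain ⟨m2, m2'⟩ := tropQP_mid_of_mul ha0 h1l h1 e2
        rw [nu_of_le v 0 ε ha₄.le h₂ h2l, nu_of_mid v 0 ε hs m1 m1',
          nu_of_mid v 0 ε hd m2 m2']
        left
        refine ⟨Sim.of_mul_eq_sq ?_, Sim.of_mul_eq_one ?_⟩
        · rw [← mul_assoc, e1, sq]
        · rw [div_eq_mul_inv, ← mul_assoc, e2, mul_inv_cancel₀ hεne]
    · -- P₁ ∈ T₀
      rw [nu_of_le v 0 ε ha₄.le h₁ h1l]
      rcases lt_or_ge ε (v (x₂ - 0)) with h2l | h2l
      · -- (T₀, int)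
        have hb0 : 0 < v (x₂ - 0) := lt_trans hε0 h2l
        obtain ⟨e1, e2⟩ := trop2_T0_int v h2 hb₂ ha₄ ha₄0 hne hS' hP' h1l h2l hx₂
        obtain ⟨m1, m1'⟩ := tropQP_mid_of_mul hb0 h2l hx₂ e1
        obtain ⟨m2, m2'⟩ := tropQP_mid_of_mul hb0 h2l hx₂ e2
        rw [nu_of_mid v 0 ε h₂ h2l.le hx₂.le, nu_of_mid v 0 ε hs m1 m1',
          nu_of_mid v 0 ε hd m2 m2']
        left
        refine ⟨Sim.of_mul_eq_sq ?_, Sim.of_eq ?_⟩
        · rw [mul_comm ε, ← mul_assoc, e1, sq]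
        · exact eq_div_of_mul_eq (ne_of_gt hb0) e2
      · -- (T₀, T₀)
        obtain ⟨e1, e2⟩ := trop2_T0_T0 v h2 hb₂ ha₄ ha₄0 hne hS' hP' h1l h2l
        rw [nu_of_le v 0 ε ha₄.le h₂ h2l, nu_of_ge v 0 ε hs e1, nu_of_ge v 0 ε hd e2]
        left
        exact ⟨sim_one_sq hεne, Sim.of_eq (div_self hεne).symm⟩

/-- The quasi-parallelogram law for the clipped valuation `nu v 0 (v a₄)`. -/
theorem qp2 (ha₃ : W.a₃ = 0) (ha₆ : W.a₆ = 0) (h20 : (2 : K) ≠ 0)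
    (h2 : v (2 : K) ≤ 1) (hb₂ : v W.b₂ = 1) (ha₄ : v W.a₄ < 1) (ha₄0 : W.a₄ ≠ 0)
    (P₁ P₂ : W.toAffine.Point) (hP₂ : nu v 0 (v W.a₄) P₂ < 1) :
    (Sim (v W.a₄) (nu v 0 (v W.a₄) (P₁ + P₂)) (nu v 0 (v W.a₄) P₁ * nu v 0 (v W.a₄) P₂) ∧
      Sim (v W.a₄) (nu v 0 (v W.a₄) (P₁ - P₂)) (nu v 0 (v W.a₄) P₁ / nu v 0 (v W.a₄) P₂)) ∨
    (Sim (v W.a₄) (nu v 0 (v W.a₄) (P₁ + P₂)) (nu v 0 (v W.a₄) P₁ / nu v 0 (v W.a₄) P₂) ∧
      Sim (v W.a₄) (nu v 0 (v W.a₄) (P₁ - P₂)) (nu v 0 (v W.a₄) P₁ * nu v 0 (v W.a₄) P₂)) := by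
  have hε0 : 0 < v W.a₄ := zero_lt_iff.mpr ((Valuation.ne_zero_iff v).mpr ha₄0)
  have hν0 : nu v 0 (v W.a₄) P₂ ≠ 0 :=
    ne_of_gt (lt_of_lt_of_le hε0 (le_nu v 0 (v W.a₄) ha₄.le P₂))
  obtain ⟨x₂, y₂, h₂, rfl, hx₂⟩ := exists_of_nu_lt_one v 0 (v W.a₄) hP₂
  cases P₁ with
  | zero =>
    left
    rw [show (Point.zero : W.toAffine.Point) = 0 from rfl, zero_add, zero_sub, nu_neg, nu_zero]
    exact ⟨Sim.of_eq (one_mul _).symm, Sim.of_mul_eq_one (by rw [one_div, mul_inv_cancel₀ hν0])⟩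
  | some x₁ y₁ h₁ =>
    by_cases hx : x₁ = x₂
    · subst hx
      have hnu : nu v 0 (v W.a₄) (Point.some x₁ y₁ h₁) = nu v 0 (v W.a₄) (Point.some x₁ y₂ h₂) :=
        rfl
      have hdup := qp2_dup v ha₃ ha₆ h2 hb₂ ha₄ ha₄0 h₂ hx₂
      rcases Affine.Y_eq_of_X_eq h₁.1 h₂.1 rfl with hy | hy
      · subst hy
        left
        rw [sub_self, nu_zero]
        exact ⟨hdup, Sim.of_eq (div_self hν0).symm⟩
      · have hneg : Point.some x₁ y₁ h₁ = -Point.some x₁ y₂ h₂ := by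
          rw [Point.neg_some]
          congr
        right
        rw [hnu]
        rw [hneg, neg_add_cancel, nu_zero, ← neg_add', nu_neg]
        exact ⟨Sim.of_eq (div_self hν0).symm, hdup⟩
    · exact qp2_of_X_ne v ha₃ ha₆ h20 h2 hb₂ ha₄ ha₄0 h₁ h₂ hx hx₂

/-- **Tropical step in any residue characteristic.** For `W : y² + a₁xy = x³ + a₂x² + a₄x` with
`v 2 ≤ 1`, `v b₂ = 1`, `0 < v a₄ < 1`: an odd-order torsion point `(x, y)` reducing to the node
(`v x < 1`) has `v a₄ < v x` and `v x ^ p ∈ v a₄ ^ (2ℤ)`. -/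
theorem tropical_torsion_any (v : Valuation K Γ₀) {W : WeierstrassCurve K}
    (ha₃ : W.a₃ = 0) (ha₆ : W.a₆ = 0) (h20 : (2 : K) ≠ 0) (h2 : v (2 : K) ≤ 1)
    (hb₂ : v W.b₂ = 1) (ha₄ : v W.a₄ < 1) (ha₄0 : W.a₄ ≠ 0)
    {p : ℕ} (hp : Odd p) {x y : K} (h : W.toAffine.Nonsingular x y)
    (htors : p • (WeierstrassCurve.Affine.Point.some x y h) = 0) (hx : v x < 1) :
    v W.a₄ < v x ∧ ∃ k : ℤ, v x ^ p = v W.a₄ ^ (2 * k) := by
  have hx' : v (x - 0) < 1 := by rw [sub_zero]; exact hx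
  have := tropical_torsion_of_qp v (W := W) (r₁ := 0) (e₂ := W.a₄) ha₄ ha₄0
    (fun P₁ P₂ hP₂ => qp2 v ha₃ ha₆ h20 h2 hb₂ ha₄ ha₄0 P₁ P₂ hP₂) hp h htors hx'
  rwa [sub_zero] at this

end TropTwoQP

end Fermat.Agent.S13


end ZBS13_007_1

/-! ### bundled: `Fermat.Agent.S13.Local.AtTwo` -/
section ZBS13_007_2

/-!
# S13, piece P4 (step 2, general form): inertia acts unipotently at a node

`W₀ : y² + a₁xy = x³ + a₂x² + a₄x` over `ℚ`, `L/ℚ` algebraic, `A` a valuation subring of `L` with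
`a₁, a₂ ∈ A`, `v b₂ = 1`, `0 < v a₄ < 1`, `p` odd and a unit of `A`, `σ` in the inertia group of
`A`.  Then for every `p`-torsion point `P` of `W₀(L)`:  `σ • (σ • P - P) = σ • P - P`
(`local_unipotent`), and `σ • P = P` if `x(P)` is a unit (`fix_of_unit_x`).
No hypothesis on the residue characteristic.
-/

set_option autoImplicit false
set_option linter.unusedSectionVars false
set_option linter.unusedVariables false

namespace Fermat.Agent.S13

open WeierstrassCurve WeierstrassCurve.Affine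
open Fermat.Agent.S05

section LocalUnip

variable {L : Type*} [Field L] [DecidableEq L] [Algebra ℚ L]

theorem atTwo_galois_a₂ (W₀ : WeierstrassCurve ℚ) (σ : L ≃ₐ[ℚ] L) :
    σ (W₀.baseChange L).a₂ = (W₀.baseChange L).a₂ := by
  simp [WeierstrassCurve.baseChange]

/-- Inertia fixes the slopes of the branches at the node. -/
theorem inertia_fix_root (A : ValuationSubring L) {σ : L ≃ₐ[ℚ] L}
    (hσ : σ ∈ A.inertiaSubgroupIn ℚ) (W₀ : WeierstrassCurve ℚ)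
    (h₁ : (W₀.baseChange L).a₁ ∈ A) (h₂ : (W₀.baseChange L).a₂ ∈ A)
    (hb₂ : A.valuation (W₀.baseChange L).b₂ = 1) {s : L}
    (hs : s ^ 2 + (W₀.baseChange L).a₁ * s - (W₀.baseChange L).a₂ = 0) : σ s = s := by
  have hv₁ : A.valuation (W₀.baseChange L).a₁ ≤ 1 := (A.valuation_le_one_iff _).2 h₁
  have hv₂ : A.valuation (W₀.baseChange L).a₂ ≤ 1 := (A.valuation_le_one_iff _).2 h₂
  have hsA : s ∈ A := (A.valuation_le_one_iff _).1 (branch_root_val_le A.valuation hv₁ hv₂ hs)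
  have hm := inertia_apply_sub_mem_nonunits hσ hsA
  have hroot : (σ s) ^ 2 + (W₀.baseChange L).a₁ * (σ s) - (W₀.baseChange L).a₂ = 0 := by
    have := congrArg σ hs
    rw [map_sub, map_add, map_mul, map_pow, galois_a₁, atTwo_galois_a₂, map_zero] at this
    exact this
  have hprod : (σ s - s) * (σ s - (-(W₀.baseChange L).a₁ - s)) = 0 := by
    linear_combination hroot - hs
  rcases mul_eq_zero.1 hprod with h | h
  · exact sub_eq_zero.1 h
  · exfalso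
    have e : σ s - s = -(2 * s + (W₀.baseChange L).a₁) := by
      linear_combination h
    rw [e, A.mem_nonunits_iff, Valuation.map_neg, branch_disc_val A.valuation hs hb₂] at hm
    exact lt_irrefl _ hm

/-- A `p`-torsion point with unit `x`-coordinate is fixed by inertia. -/
theorem fix_of_unit_x (A : ValuationSubring L) {σ : L ≃ₐ[ℚ] L}
    (hσ : σ ∈ A.inertiaSubgroupIn ℚ) (W₀ : WeierstrassCurve ℚ)
    (ha₃ : (W₀.baseChange L).a₃ = 0) (ha₆ : (W₀.baseChange L).a₆ = 0)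
    (h₁ : (W₀.baseChange L).a₁ ∈ A) (h₂ : (W₀.baseChange L).a₂ ∈ A)
    (hb₂ : A.valuation (W₀.baseChange L).b₂ = 1)
    (ha₄ : A.valuation (W₀.baseChange L).a₄ < 1)
    (p : ℕ) (hp : (p : L) ∉ A.nonunits)
    {x y : L} (h : (W₀.baseChange L).toAffine.Nonsingular x y)
    (htors : p • Point.some x y h = 0) (hx : A.valuation x = 1) : σ x = x ∧ σ y = y := by
  classical
  have h₃ : (W₀.baseChange L).a₃ ∈ A := by rw [ha₃]; exact zero_mem A
  have h₆ : (W₀.baseChange L).a₆ ∈ A := by rw [ha₆]; exact zero_mem A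
  have h₄ : (W₀.baseChange L).a₄ ∈ A := (A.valuation_le_one_iff _).1 ha₄.le
  have hv₁ : A.valuation (W₀.baseChange L).a₁ ≤ 1 := (A.valuation_le_one_iff _).2 h₁
  have hv₂ : A.valuation (W₀.baseChange L).a₂ ≤ 1 := (A.valuation_le_one_iff _).2 h₂
  have hv₃ : A.valuation (W₀.baseChange L).a₃ ≤ 1 := (A.valuation_le_one_iff _).2 h₃
  have hxA : x ∈ A := (A.valuation_le_one_iff _).1 hx.le
  have hyA : y ∈ A := no_torsion_of_not_mem_y A _ h₁ h₂ h₃ h₄ h₆ p hp h htors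
  have hvy : A.valuation y ≤ 1 := (A.valuation_le_one_iff _).2 hyA
  by_contra hcon
  have h' : (W₀.baseChange L).toAffine.Nonsingular (σ x) (σ y) :=
    (WeierstrassCurve.Affine.baseChange_nonsingular W₀ (f := σ.toAlgHom)
      σ.toAlgHom.injective x y).mpr h
  have hsm : σ • (Point.some x y h : (W₀⁄L).Point) = Point.some (σ x) (σ y) h' :=
    galois_smul_some σ h
  have htors' : p • Point.some (σ x) (σ y) h' = 0 := by
    have := Point.algEquiv_smul_zsmul σ (p : ℤ) (Point.some x y h : (W₀⁄L).Point)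
    rw [natCast_zsmul, natCast_zsmul, htors, hsm] at this
    rw [← this]
    rfl
  have hne : Point.some (σ x) (σ y) h' ≠ Point.some x y h := by
    intro heq
    rw [Point.some.injEq] at heq
    exact hcon heq
  have htorsQ : p • (Point.some (σ x) (σ y) h' - Point.some x y h) = 0 := by
    rw [smul_sub, htors, htors', sub_zero]
  have hxx : A.valuation (σ x - x) < 1 :=
    (A.mem_nonunits_iff).1 (inertia_apply_sub_mem_nonunits hσ hxA)
  have hyy : A.valuation (σ y - y) < 1 :=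
    (A.mem_nonunits_iff).1 (inertia_apply_sub_mem_nonunits hσ hyA)
  have hns := nonsing_of_unit_x A.valuation ha₃ ha₆ hv₁ hv₂ hb₂ ha₄ h.1 hx hvy
  obtain ⟨x'', y'', h'', hQ, hlt⟩ :=
    key_nonsing_any A.valuation hv₁ hv₂ hv₃ h h' hx.le hvy hxx hyy hne hns
  rw [hQ] at htorsQ
  have := no_torsion_of_not_mem A _ h₁ h₂ h₃ h₄ h₆ p hp h'' htorsQ
  rw [← A.valuation_le_one_iff] at this
  exact absurd hlt (not_lt.2 this)

/-- **Inertia acts unipotently at a node**: `(σ - 1)² = 0` on `p`-torsion points. -/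
theorem local_unipotent [Algebra.IsAlgebraic ℚ L] (A : ValuationSubring L) {σ : L ≃ₐ[ℚ] L}
    (hσ : σ ∈ A.inertiaSubgroupIn ℚ) (W₀ : WeierstrassCurve ℚ)
    (ha₃ : (W₀.baseChange L).a₃ = 0) (ha₆ : (W₀.baseChange L).a₆ = 0)
    (h₁ : (W₀.baseChange L).a₁ ∈ A) (h₂ : (W₀.baseChange L).a₂ ∈ A)
    (hb₂ : A.valuation (W₀.baseChange L).b₂ = 1)
    (ha₄ : A.valuation (W₀.baseChange L).a₄ < 1) (ha₄0 : (W₀.baseChange L).a₄ ≠ 0)
    (p : ℕ) (hp : (p : L) ∉ A.nonunits) (hodd : Odd p)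
    {s : L} (hs : s ^ 2 + (W₀.baseChange L).a₁ * s - (W₀.baseChange L).a₂ = 0)
    {x y : L} (h : (W₀.baseChange L).toAffine.Nonsingular x y)
    (htors : p • Point.some x y h = 0) :
    σ • (σ • (Point.some x y h : (W₀⁄L).Point) - Point.some x y h) =
      σ • (Point.some x y h : (W₀⁄L).Point) - Point.some x y h := by
  classical
  have hchar : CharZero L := algebraRat.charZero L
  have h20 : (2 : L) ≠ 0 := two_ne_zero
  have h₃ : (W₀.baseChange L).a₃ ∈ A := by rw [ha₃]; exact zero_mem A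
  have h₆ : (W₀.baseChange L).a₆ ∈ A := by rw [ha₆]; exact zero_mem A
  have h₄ : (W₀.baseChange L).a₄ ∈ A := (A.valuation_le_one_iff _).1 ha₄.le
  have hxA : x ∈ A := no_torsion_of_not_mem A _ h₁ h₂ h₃ h₄ h₆ p hp h htors
  have hyA : y ∈ A := no_torsion_of_not_mem_y A _ h₁ h₂ h₃ h₄ h₆ p hp h htors
  have hvx : A.valuation x ≤ 1 := (A.valuation_le_one_iff _).2 hxA
  have h' : (W₀.baseChange L).toAffine.Nonsingular (σ x) (σ y) :=
    (WeierstrassCurve.Affine.baseChange_nonsingular W₀ (f := σ.toAlgHom)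
      σ.toAlgHom.injective x y).mpr h
  have hsm : σ • (Point.some x y h : (W₀⁄L).Point) = Point.some (σ x) (σ y) h' :=
    galois_smul_some σ h
  have htors' : p • Point.some (σ x) (σ y) h' = 0 := by
    have := Point.algEquiv_smul_zsmul σ (p : ℤ) (Point.some x y h : (W₀⁄L).Point)
    rw [natCast_zsmul, natCast_zsmul, htors, hsm] at this
    rw [← this]
    rfl
  rw [hsm]
  by_cases hPP : Point.some (σ x) (σ y) h' = Point.some x y h
  · rw [hPP, sub_self]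
    exact galois_smul_zero σ
  have htorsQ : p • (Point.some (σ x) (σ y) h' - Point.some x y h) = 0 := by
    rw [smul_sub, htors, htors', sub_zero]
  rcases hvx.lt_or_eq with hlt | heq
  · -- `P` reduces to the node
    obtain ⟨hlow, -⟩ := tropical_torsion_any A.valuation ha₃ ha₆ h20
      (keyAny_val_two_le A.valuation) hb₂ ha₄ ha₄0 hodd h htors hlt
    have hx0 : x ≠ 0 := by
      intro h0
      rw [h0, map_zero] at hlow
      exact not_lt_zero hlow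
    have hvσ : A.valuation (σ x) = A.valuation x := inertia_valuation_apply hσ x
    -- the claim for a branch slope `t` fixed by `σ`
    have key : ∀ t : L, t ^ 2 + (W₀.baseChange L).a₁ * t - (W₀.baseChange L).a₂ = 0 →
        A.valuation (y - t * x) < A.valuation x →
        ∃ (x'' y'' : L) (h'' : (W₀.baseChange L).toAffine.Nonsingular x'' y''),
          Point.some (σ x) (σ y) h' - Point.some x y h = Point.some x'' y'' h'' ∧
            1 ≤ A.valuation x'' := by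
      intro t ht hb
      have hσt : σ t = t := inertia_fix_root A hσ W₀ h₁ h₂ hb₂ ht
      have hb' : A.valuation (σ y - t * σ x) < A.valuation (σ x) := by
        have e : σ y - t * σ x = σ (y - t * x) := by
          rw [map_sub, map_mul, hσt]
        rw [e, inertia_valuation_apply hσ, hvσ]
        exact hb
      exact branch_sub_val A.valuation ha₃ hb₂ ht h h' hx0 hlt hvσ hb hb' hPP
    have hQ : ∃ (x'' y'' : L) (h'' : (W₀.baseChange L).toAffine.Nonsingular x'' y''),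
        Point.some (σ x) (σ y) h' - Point.some x y h = Point.some x'' y'' h'' ∧
          1 ≤ A.valuation x'' := by
      rcases branch_exists A.valuation ha₃ ha₆ hs h.1 hlt hlow with hb | hb
      · exact key s hs hb
      · exact key _ (branch_other_root hs) hb
    obtain ⟨x'', y'', h'', hQe, hge⟩ := hQ
    rw [hQe] at htorsQ ⊢
    have hx''A : x'' ∈ A := no_torsion_of_not_mem A _ h₁ h₂ h₃ h₄ h₆ p hp h'' htorsQ
    have hvx'' : A.valuation x'' = 1 :=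
      le_antisymm ((A.valuation_le_one_iff _).2 hx''A) hge
    obtain ⟨e1, e2⟩ := fix_of_unit_x A hσ W₀ ha₃ ha₆ h₁ h₂ hb₂ ha₄ p hp h'' htorsQ hvx''
    exact galois_smul_some_eq_self σ h'' e1 e2
  · -- `x` is a unit: `σ P = P`
    obtain ⟨e1, e2⟩ := fix_of_unit_x A hσ W₀ ha₃ ha₆ h₁ h₂ hb₂ ha₄ p hp h htors heq
    exfalso
    apply hPP
    rw [Point.some.injEq]
    exact ⟨e1, e2⟩

end LocalUnip

end Fermat.Agent.S13


end ZBS13_007_2

/-! ### bundled: `Fermat.Agent.S13.Local.FreyAtTwo` -/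
section ZBS13_007_3

/-!
# S13, piece P4 (step 2): the Frey curve at a place over `2`

* `freyTwo_data`: at a place `A | 2` of a `ℚ`-algebra `L`, the Frey curve
  `y² + xy = x³ + a₂x² + a₄x` has `a₁, a₂ ∈ A`, `v b₂ = 1`, `0 < v a₄ < 1`, and `p` is a unit.
* `stmtAtTwo : StmtAtTwo`: inertia at (every) place over `2` acts unipotently on `E[p]`.
-/

set_option autoImplicit false
set_option linter.unusedSectionVars false
set_option linter.unusedVariables false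

namespace Fermat.Agent.S13

open WeierstrassCurve WeierstrassCurve.Affine
open Fermat.Agent.S05

section FreyTwo

variable (P : FreyPackage) {L : Type*} [Field L] [Algebra ℚ L]

theorem freyTwo_two_dvd_b (P : FreyPackage) : (2 : ℤ) ∣ P.b :=
  (ZMod.intCast_zmod_eq_zero_iff_dvd P.b 2).1 P.hb2

theorem freyTwo_not_two_dvd_a (P : FreyPackage) : ¬ (2 : ℤ) ∣ P.a := by
  intro h
  have h4 := P.ha4
  obtain ⟨k, hk⟩ := h
  rw [hk] at h4
  have : ((2 * k : ℤ) : ZMod 4) = 3 := h4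
  have h2 : ((2 * (2 * k) : ℤ) : ZMod 4) = 2 * 3 := by
    rw [Int.cast_mul, this]; rfl
  have h3 : ((2 * (2 * k) : ℤ) : ZMod 4) = 0 := by
    rw [(ZMod.intCast_zmod_eq_zero_iff_dvd _ 4)]
    exact ⟨k, by ring⟩
  rw [h3] at h2
  exact absurd h2 (by decide)

/-- `a₂` is an integer. -/
theorem freyTwo_a₂ : ∃ m : ℤ, (P.freyCurve.baseChange L).a₂ = (m : L) := by
  have hchar := charZero_of_algebraRat L
  obtain ⟨m, hm⟩ := Fermat.Agent.S04.frey_four_dvd P
  refine ⟨m, ?_⟩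
  rw [frey_a₂]
  have : ((P.b : L) ^ P.p - 1 - (P.a : L) ^ P.p) = 4 * (m : L) := by
    have := congrArg (fun t : ℤ => (t : L)) hm
    simpa using this
  rw [this]
  field_simp

/-- `a₄` is an even integer. -/
theorem freyTwo_a₄ : ∃ m : ℤ, (P.freyCurve.baseChange L).a₄ = ((2 * m : ℤ) : L) := by
  have hchar := charZero_of_algebraRat L
  obtain ⟨n, hn⟩ := Fermat.Agent.S04.frey_thirtytwo_dvd_b_pow P
  refine ⟨-(P.a ^ P.p) * n, ?_⟩
  rw [frey_a₄]
  have : (P.b : L) ^ P.p = 32 * (n : L) := by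
    have := congrArg (fun t : ℤ => (t : L)) hn
    simpa using this
  rw [this]
  push_cast
  ring

theorem freyTwo_a₄_ne_zero : (P.freyCurve.baseChange L).a₄ ≠ 0 := by
  have hchar := charZero_of_algebraRat L
  rw [frey_a₄]
  have ha : (P.a : L) ≠ 0 := by exact_mod_cast P.ha0
  have hb : (P.b : L) ≠ 0 := by exact_mod_cast P.hb0
  have h16 : (16 : L) ≠ 0 := by norm_num
  exact div_ne_zero (mul_ne_zero (neg_ne_zero.2 (pow_ne_zero _ ha)) (pow_ne_zero _ hb)) h16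

/-- `b₂ = b^p - a^p` is an odd integer. -/
theorem freyTwo_b₂_odd : ¬ (2 : ℤ) ∣ P.b ^ P.p - P.a ^ P.p := by
  intro h
  have hb : (2 : ℤ) ∣ P.b ^ P.p := dvd_pow (freyTwo_two_dvd_b P) P.hp0
  have ha : (2 : ℤ) ∣ P.a ^ P.p := by
    have := dvd_sub hb h
    simpa using this
  exact freyTwo_not_two_dvd_a P (Int.prime_two.dvd_of_dvd_pow ha)

/-- The data of the Frey curve at a place over `2`. -/
theorem freyTwo_data (A : ValuationSubring L) (hA : A.LiesOverPrime 2) :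
    (P.freyCurve.baseChange L).a₃ = 0 ∧ (P.freyCurve.baseChange L).a₆ = 0 ∧
    (P.freyCurve.baseChange L).a₁ ∈ A ∧ (P.freyCurve.baseChange L).a₂ ∈ A ∧
    A.valuation (P.freyCurve.baseChange L).b₂ = 1 ∧
    A.valuation (P.freyCurve.baseChange L).a₄ < 1 ∧
    (P.freyCurve.baseChange L).a₄ ≠ 0 ∧ ((P.p : ℕ) : L) ∉ A.nonunits := by
  have hchar := charZero_of_algebraRat L
  refine ⟨frey_a₃ P L, frey_a₆ P L, ?_, ?_, ?_, ?_, freyTwo_a₄_ne_zero P, ?_⟩
  · rw [frey_a₁]; exact A.one_mem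
  · obtain ⟨m, hm⟩ := freyTwo_a₂ P (L := L)
    rw [hm]; exact intCast_mem A m
  · rw [frey_b₂]
    have : (P.b : L) ^ P.p - (P.a : L) ^ P.p = ((P.b ^ P.p - P.a ^ P.p : ℤ) : L) := by
      push_cast; ring
    rw [this, valuation_intCast_eq_one_iff A Nat.prime_two hA]
    exact_mod_cast freyTwo_b₂_odd P
  · obtain ⟨m, hm⟩ := freyTwo_a₄ P (L := L)
    rw [hm, valuation_intCast_lt_one_iff A Nat.prime_two hA]
    exact ⟨m, by push_cast; ring⟩
  · rw [natCast_mem_nonunits_iff A Nat.prime_two hA]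
    intro hdvd
    have := (Nat.prime_dvd_prime_iff_eq Nat.prime_two P.pp).1 hdvd
    have h5 := P.hp5
    omega

end FreyTwo

section Stmt

open WeierstrassCurve.Affine.Point

/-- A branch slope exists over an algebraically closed field. -/
theorem exists_branch_root {L : Type*} [Field L] [IsAlgClosed L] (h2 : (2 : L) ≠ 0)
    (W : WeierstrassCurve L) : ∃ s : L, s ^ 2 + W.a₁ * s - W.a₂ = 0 := by
  obtain ⟨r, hr⟩ := IsAlgClosed.exists_pow_nat_eq W.b₂ (n := 2) (by norm_num)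
  refine ⟨(r - W.a₁) / 2, ?_⟩
  simp only [WeierstrassCurve.b₂] at hr
  field_simp
  linear_combination hr

/-- **`StmtAtTwo`**: at a place over `2`, inertia acts unipotently on `E[p]` of the Frey curve. -/
theorem stmtAtTwo : StmtAtTwo := by
  intro P
  obtain ⟨A, hA⟩ := Fermat.Agent.Common.exists_liesOverPrime 2 Nat.prime_two
  refine ⟨A, hA, ?_⟩
  intro σ hσ x
  have : Algebra.IsAlgebraic ℚ Qbar := isAlgebraic_rat_qbar_of _
  have hchar : CharZero Qbar := algebraRat.charZero Qbar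
  obtain ⟨ha₃, ha₆, h₁, h₂, hb₂, ha₄, ha₄0, hp⟩ := freyTwo_data P A hA
  obtain ⟨s, hs⟩ := exists_branch_root (two_ne_zero) (P.freyCurve.baseChange Qbar)
  apply Subtype.ext
  obtain ⟨Pt, hPt⟩ := x
  change σ • (σ • Pt - Pt) = σ • Pt - Pt
  rw [Submodule.mem_torsionBy_iff] at hPt
  cases Pt with
  | zero =>
    have h0 : (Point.zero : (P.freyCurve⁄Qbar).Point) = 0 := rfl
    rw [h0, galois_smul_zero, sub_self, galois_smul_zero]
  | some x y h =>
    have htors : P.p • (Point.some x y h : (P.freyCurve⁄Qbar).Point) = 0 := by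
      rw [← natCast_zsmul]; exact hPt
    exact local_unipotent A hσ P.freyCurve ha₃ ha₆ h₁ h₂ hb₂ ha₄ ha₄0 P.p hp P.hp_odd hs h htors

end Stmt

end Fermat.Agent.S13


end ZBS13_007_3

/-! ### bundled: `Fermat.Agent.S13.Local.NoFixed` -/
section ZBS13_007_4

/-!
# S13, step 5: the Frey curve has no rational point of order `p`

`noFixed_of_trop`: `StmtNoFixed` from the tropical statement at a place over `2`
(`NoFixedTrop`, an instance of `tropical_torsion_any`).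

Proof: a Galois-fixed `p`-torsion point `Q = (x₀, y₀) ≠ 0` has rational coordinates, integral at
`A ∣ 2`.  (i) `v x₀ < 1` is impossible by the tropical statement, since `v a₄ = v 2 ^ N` with
`p ∤ 2N` and `v x₀ ∈ v 2 ^ ℤ`.  (ii) If `v x₀ = 1`, then `2Q = (x₂, y₂)` has `x₂ ≡ x₀ ≡ 1` and
`y₂ ≡ y₀` or `y₂ ≡ y₀ + 1 ≡ -y₀ - x₀` modulo `𝔪` (the residue field of `ℚ ∩ A` is `𝔽₂`), so `2Q`
has the same nonsingular reduction as `Q` or as `-Q`; hence `Q` or `3Q` has non-integral `x`,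
contradicting the integrality of `p`-torsion points.
-/

set_option autoImplicit false
set_option linter.unusedSectionVars false
set_option linter.unusedVariables false

namespace Fermat.Agent.S13

open Fermat.Agent.S05 WeierstrassCurve WeierstrassCurve.Affine

/-- exponent arithmetic for step (i). -/
theorem noFixed_exponent {Γ : Type*} [LinearOrderedCommGroupWithZero Γ] {t : Γ} (ht0 : 0 < t)
    (ht1 : t < 1) {p : ℕ} (hp : p.Prime) {N n k : ℤ} (hN : ¬ (p : ℤ) ∣ 2 * N)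
    (h1 : t ^ N < t ^ n) (h2 : t ^ n < 1) (h3 : (t ^ n) ^ p = (t ^ N) ^ (2 * k)) : False := by
  have hnN : n < N := (zpow_lt_zpow_iff_right_of_lt_one₀ ht0 ht1).1 h1
  have hn0 : 0 < n := by
    rw [← zpow_zero t] at h2
    exact (zpow_lt_zpow_iff_right_of_lt_one₀ ht0 ht1).1 h2
  have heq : n * p = N * (2 * k) := by
    rw [← zpow_natCast, ← zpow_mul, ← zpow_mul] at h3
    exact (zpow_right_inj₀ ht0 ht1.ne).1 h3
  have hpk : (p : ℤ) ∣ k := by
    have hpp : Prime (p : ℤ) := Nat.prime_iff_prime_int.1 hp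
    have : (p : ℤ) ∣ (2 * N) * k := ⟨n, by linarith⟩
    exact (hpp.dvd_or_dvd this).resolve_left hN
  obtain ⟨k', rfl⟩ := hpk
  have hp0 : (p : ℤ) ≠ 0 := by exact_mod_cast hp.ne_zero
  have hn : n = 2 * N * k' := by
    have : n * p = (2 * N * k') * p := by rw [heq]; ring
    exact mul_right_cancel₀ hp0 this
  have hN0 : 0 < N := lt_trans hn0 hnN
  have hk' : 0 < k' := by
    by_contra hcon
    rw [not_lt] at hcon
    have : 2 * N * k' ≤ 0 := by nlinarith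
    omega
  nlinarith

/-- an element killed by two coprime integers is zero. -/
theorem noFixed_eq_zero_of_coprime {G : Type*} [AddGroup G] {Q : G} {m n : ℕ}
    (hmn : Nat.Coprime m n) (hm : m • Q = 0) (hn : n • Q = 0) : Q = 0 := by
  have h1 := addOrderOf_dvd_iff_nsmul_eq_zero.2 hm
  have h2 := addOrderOf_dvd_iff_nsmul_eq_zero.2 hn
  have h3 := Nat.dvd_gcd h1 h2
  rw [Nat.Coprime] at hmn
  rw [hmn] at h3
  exact AddMonoid.addOrderOf_eq_one_iff.1 (Nat.dvd_one.1 h3)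

section Fixed

variable (P : FreyPackage)

theorem noFixed_smul_add (σ : Gal) (Q R : (P.freyCurve⁄Qbar).Point) :
    σ • (Q + R) = σ • Q + σ • R := by
  rw [Point.algEquiv_smul_def, Point.algEquiv_smul_def, Point.algEquiv_smul_def, map_add]

/-- a Galois-fixed affine point has rational coordinates. -/
theorem noFixed_coords_rat {x y : Qbar}
    (h : (P.freyCurve.baseChange Qbar).toAffine.Nonsingular x y)
    (hfix : ∀ σ : Gal, σ • (Point.some x y h : (P.freyCurve⁄Qbar).Point) = Point.some x y h) :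
    (∃ r : ℚ, algebraMap ℚ Qbar r = x) ∧ (∃ r : ℚ, algebraMap ℚ Qbar r = y) := by
  have hxy : ∀ σ : Gal, σ x = x ∧ σ y = y := by
    intro σ
    have := hfix σ
    rw [galois_smul_some] at this
    exact Point.some.inj this
  exact ⟨Fermat.Agent.S51.galois_fixed_rat x (fun σ => (hxy σ).1),
    Fermat.Agent.S51.galois_fixed_rat y (fun σ => (hxy σ).2)⟩

/-- The tropical statement at a place over `2` (instance of `tropical_torsion_any`). -/
def NoFixedTrop (A : ValuationSubring Qbar) : Prop :=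
  ∀ {x y : Qbar} (h : (P.freyCurve.baseChange Qbar).toAffine.Nonsingular x y),
    P.p • Point.some x y h = 0 → A.valuation x < 1 →
    A.valuation (P.freyCurve.baseChange Qbar).a₄ < A.valuation x ∧
      ∃ k : ℤ, A.valuation x ^ P.p = A.valuation (P.freyCurve.baseChange Qbar).a₄ ^ (2 * k)

theorem noFixed_core (A : ValuationSubring Qbar) (hA : A.LiesOverPrime 2)
    (htrop : NoFixedTrop P A) {x₀ y₀ : Qbar}
    (h : (P.freyCurve.baseChange Qbar).toAffine.Nonsingular x₀ y₀)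
    (htors : P.p • Point.some x₀ y₀ h = 0)
    (hfix : ∀ σ : Gal,
      σ • (Point.some x₀ y₀ h : (P.freyCurve⁄Qbar).Point) = Point.some x₀ y₀ h) :
    False := by
  obtain ⟨h₁, h₂, h₃, h₄, h₆⟩ := noFixed_coeff_mem P A hA
  have hpu := noFixed_p_unit P A hA
  have hQ0 : (Point.some x₀ y₀ h : (P.freyCurve⁄Qbar).Point) ≠ 0 := Point.some_ne_zero h
  have hv2lt : A.valuation (2 : Qbar) < 1 := by
    have := noFixed_val_lt_one A hA
    simpa using this
  have hv2pos : 0 < A.valuation (2 : Qbar) := by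
    rw [zero_lt_iff, Valuation.ne_zero_iff]
    exact two_ne_zero
  have hva₁ : A.valuation (P.freyCurve.baseChange Qbar).a₁ ≤ 1 := (A.valuation_le_one_iff _).2 h₁
  have hva₂ : A.valuation (P.freyCurve.baseChange Qbar).a₂ ≤ 1 := (A.valuation_le_one_iff _).2 h₂
  have hva₃ : A.valuation (P.freyCurve.baseChange Qbar).a₃ ≤ 1 := (A.valuation_le_one_iff _).2 h₃
  -- integrality and rationality of `Q`
  have hx₀A : x₀ ∈ A := no_torsion_of_not_mem A _ h₁ h₂ h₃ h₄ h₆ P.p hpu h htors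
  have hy₀A : y₀ ∈ A := no_torsion_of_not_mem_y A _ h₁ h₂ h₃ h₄ h₆ P.p hpu h htors
  have hvx₀le : A.valuation x₀ ≤ 1 := (A.valuation_le_one_iff _).2 hx₀A
  have hvy₀le : A.valuation y₀ ≤ 1 := (A.valuation_le_one_iff _).2 hy₀A
  obtain ⟨⟨rx, hrx⟩, ⟨ry, hry⟩⟩ := noFixed_coords_rat P h hfix
  -- step (i): `v x₀ = 1`
  have hvx : A.valuation x₀ = 1 := by
    by_contra hne1
    have hlt : A.valuation x₀ < 1 := lt_of_le_of_ne hvx₀le hne1
    obtain ⟨hlow, k, hk⟩ := htrop h htors hlt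
    have hx0 : x₀ ≠ 0 := by
      intro h0
      rw [h0, map_zero] at hlow
      exact not_lt_zero hlow
    have hrx0 : rx ≠ 0 := by
      rintro rfl
      apply hx0
      rw [← hrx, map_zero]
    obtain ⟨n, hn⟩ := noFixed_val_rat A Nat.prime_two hA hrx0
    rw [hrx] at hn
    obtain ⟨N, hN1, hNp, hNv⟩ := noFixed_val_a₄ P A hA
    have hn' : A.valuation x₀ = A.valuation (2 : Qbar) ^ n := by simpa using hn
    rw [hn', hNv] at hk hlow
    rw [hn'] at hlt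
    exact noFixed_exponent hv2pos hv2lt P.pp hNp hlow hlt hk
  -- step (ii)
  have hη_eq : eta (P.freyCurve.baseChange Qbar) x₀ y₀ = 2 * y₀ + x₀ := noFixed_eta P x₀ y₀
  have hp5 := P.hp5
  have hcop2 : Nat.Coprime 2 P.p := (Nat.coprime_primes Nat.prime_two P.pp).2 (by omega)
  have hcop3 : Nat.Coprime 3 P.p := (Nat.coprime_primes Nat.prime_three P.pp).2 (by omega)
  have hη0 : eta (P.freyCurve.baseChange Qbar) x₀ y₀ ≠ 0 := by
    intro h0
    have h2Q : Point.some x₀ y₀ h + Point.some x₀ y₀ h = 0 := add_self_of_eta_eq h h0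
    have : 2 • (Point.some x₀ y₀ h : (P.freyCurve⁄Qbar).Point) = 0 := by
      rw [two_nsmul]; exact h2Q
    exact hQ0 (noFixed_eq_zero_of_coprime hcop2 this htors)
  obtain ⟨x₂, y₂, h₂', h2Q, hdup⟩ := add_self_of_eta_ne h hη0
  have h2Qtors : P.p • Point.some x₂ y₂ h₂' = 0 := by
    rw [← h2Q, smul_add, htors, add_zero]
  have h2Qfix : ∀ σ : Gal,
      σ • (Point.some x₂ y₂ h₂' : (P.freyCurve⁄Qbar).Point) = Point.some x₂ y₂ h₂' := by
    intro σ
    rw [← h2Q, noFixed_smul_add, hfix σ]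
  have hx₂A : x₂ ∈ A := no_torsion_of_not_mem A _ h₁ h₂ h₃ h₄ h₆ P.p hpu h₂' h2Qtors
  have hy₂A : y₂ ∈ A := no_torsion_of_not_mem_y A _ h₁ h₂ h₃ h₄ h₆ P.p hpu h₂' h2Qtors
  obtain ⟨⟨rx₂, hrx₂⟩, ⟨ry₂, hry₂⟩⟩ := noFixed_coords_rat P h₂' h2Qfix
  have ha₄lt := noFixed_val_a₄_lt P A hA
  have hnum : A.valuation (x₀ ^ 2 - (P.freyCurve.baseChange Qbar).a₄) = 1 := by
    rw [Valuation.map_sub_eq_of_lt_left _ (by rw [map_pow, hvx, one_pow]; exact ha₄lt), map_pow,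
      hvx, one_pow]
  have hηA : eta (P.freyCurve.baseChange Qbar) x₀ y₀ ∈ A := by
    rw [hη_eq]
    exact add_mem (mul_mem (ofNat_mem A 2) hy₀A) hx₀A
  have hvηle : A.valuation (eta (P.freyCurve.baseChange Qbar) x₀ y₀) ≤ 1 :=
    (A.valuation_le_one_iff _).2 hηA
  have hvx₂le : A.valuation x₂ ≤ 1 := (A.valuation_le_one_iff _).2 hx₂A
  have hvy₂le : A.valuation y₂ ≤ 1 := (A.valuation_le_one_iff _).2 hy₂A
  have hprod : A.valuation x₂ * A.valuation (eta (P.freyCurve.baseChange Qbar) x₀ y₀) ^ 2 = 1 := by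
    rw [← map_pow, ← map_mul, hdup, noFixed_dupNum, map_pow, hnum, one_pow]
  have hvη : A.valuation (eta (P.freyCurve.baseChange Qbar) x₀ y₀) = 1 := by
    by_contra hne
    have hlt := lt_of_le_of_ne hvηle hne
    have : A.valuation x₂ * A.valuation (eta (P.freyCurve.baseChange Qbar) x₀ y₀) ^ 2 < 1 := by
      calc A.valuation x₂ * A.valuation (eta (P.freyCurve.baseChange Qbar) x₀ y₀) ^ 2
          ≤ 1 * A.valuation (eta (P.freyCurve.baseChange Qbar) x₀ y₀) ^ 2 :=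
            mul_le_mul' hvx₂le le_rfl
        _ = A.valuation (eta (P.freyCurve.baseChange Qbar) x₀ y₀) ^ 2 := one_mul _
        _ < 1 := pow_lt_one₀ zero_le hlt two_ne_zero
    rw [hprod] at this
    exact lt_irrefl _ this
  have hvx₂ : A.valuation x₂ = 1 := by
    rw [hvη, one_pow, mul_one] at hprod
    exact hprod
  have hx₀1 : A.valuation (x₀ - 1) < 1 := by
    have := noFixed_rat_residue_two A hA rx (by rw [hrx]; exact hvx.le)
    rw [hrx] at this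
    rcases this with h' | h'
    · rw [hvx] at h'
      exact absurd h' (lt_irrefl _)
    · exact h'
  have hx₂1 : A.valuation (x₂ - 1) < 1 := by
    have := noFixed_rat_residue_two A hA rx₂ (by rw [hrx₂]; exact hvx₂.le)
    rw [hrx₂] at this
    rcases this with h' | h'
    · rw [hvx₂] at h'
      exact absurd h' (lt_irrefl _)
    · exact h'
  have hxx : A.valuation (x₂ - x₀) < 1 := by
    have e : x₂ - x₀ = (x₂ - 1) - (x₀ - 1) := by ring
    rw [e]
    exact Valuation.map_sub_lt _ hx₂1 hx₀1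
  have hyrat : algebraMap ℚ Qbar (ry₂ - ry) = y₂ - y₀ := by rw [map_sub, hry₂, hry]
  have hyyA : A.valuation (y₂ - y₀) ≤ 1 := (A.valuation_le_one_iff _).2 (sub_mem hy₂A hy₀A)
  rcases noFixed_rat_residue_two A hA (ry₂ - ry) (by rw [hyrat]; exact hyyA) with hc | hc
  · -- `2Q` and `Q` have the same reduction
    rw [hyrat] at hc
    have hne : Point.some x₂ y₂ h₂' ≠ Point.some x₀ y₀ h := by
      intro heq
      rw [← h2Q] at heq
      simp at heq
    obtain ⟨x'', y'', h'', hsub, hlt⟩ := key_nonsing_any A.valuation hva₁ hva₂ hva₃ h h₂'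
      hvx₀le hvy₀le hxx hc hne (Or.inl hvη)
    rw [← h2Q, add_sub_cancel_right, Point.some.injEq] at hsub
    rw [← hsub.1, hvx] at hlt
    exact lt_irrefl _ hlt
  · -- `2Q` and `-Q` have the same reduction
    rw [hyrat] at hc
    have hneg : (P.freyCurve.baseChange Qbar).toAffine.Nonsingular x₀
        ((P.freyCurve.baseChange Qbar).toAffine.negY x₀ y₀) :=
      (Affine.nonsingular_neg ..).mpr h
    have hnegQ : -(Point.some x₀ y₀ h : (P.freyCurve⁄Qbar).Point) =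
        Point.some x₀ ((P.freyCurve.baseChange Qbar).toAffine.negY x₀ y₀) hneg :=
      Point.neg_some h
    have hnegY : (P.freyCurve.baseChange Qbar).toAffine.negY x₀ y₀ = -y₀ - x₀ := by
      rw [Affine.negY]
      have e1 : (P.freyCurve.baseChange Qbar).toAffine.a₁ = 1 := frey_a₁ P Qbar
      have e3 : (P.freyCurve.baseChange Qbar).toAffine.a₃ = 0 := frey_a₃ P Qbar
      rw [e1, e3]
      ring
    have hvnegY : A.valuation ((P.freyCurve.baseChange Qbar).toAffine.negY x₀ y₀) ≤ 1 := by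
      rw [hnegY, A.valuation_le_one_iff]
      exact sub_mem (neg_mem hy₀A) hx₀A
    have hyy : A.valuation (y₂ - (P.freyCurve.baseChange Qbar).toAffine.negY x₀ y₀) < 1 := by
      have e : y₂ - (P.freyCurve.baseChange Qbar).toAffine.negY x₀ y₀ =
          ((y₂ - y₀ - 1) + 2 * y₀) + ((x₀ - 1) + 2) := by
        rw [hnegY]; ring
      rw [e]
      have h2y : A.valuation (2 * y₀) < 1 := by
        rw [map_mul]
        calc A.valuation 2 * A.valuation y₀ ≤ A.valuation 2 * 1 := mul_le_mul' le_rfl hvy₀le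
          _ = A.valuation 2 := mul_one _
          _ < 1 := hv2lt
      exact Valuation.map_add_lt _ (Valuation.map_add_lt _ hc h2y)
        (Valuation.map_add_lt _ hx₀1 hv2lt)
    have hne : Point.some x₂ y₂ h₂' ≠
        Point.some x₀ ((P.freyCurve.baseChange Qbar).toAffine.negY x₀ y₀) hneg := by
      intro heq
      rw [← h2Q, ← hnegQ] at heq
      have h3 : 3 • (Point.some x₀ y₀ h : (P.freyCurve⁄Qbar).Point) = 0 := by
        have e3 : 3 • (Point.some x₀ y₀ h : (P.freyCurve⁄Qbar).Point) =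
            (Point.some x₀ y₀ h + Point.some x₀ y₀ h) + Point.some x₀ y₀ h := by
          rw [show (3 : ℕ) = 2 + 1 from rfl, add_nsmul, two_nsmul, one_nsmul]
        rw [e3, heq, neg_add_cancel]
      exact hQ0 (noFixed_eq_zero_of_coprime hcop3 h3 htors)
    have hns : A.valuation (polyY (P.freyCurve.baseChange Qbar) x₀
        ((P.freyCurve.baseChange Qbar).toAffine.negY x₀ y₀)) = 1 := by
      have : polyY (P.freyCurve.baseChange Qbar) x₀
          ((P.freyCurve.baseChange Qbar).toAffine.negY x₀ y₀) =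
          -eta (P.freyCurve.baseChange Qbar) x₀ y₀ := eta_negY _ x₀ y₀
      rw [this, Valuation.map_neg, hvη]
    obtain ⟨x'', y'', h'', hsub, hlt⟩ := key_nonsing_any A.valuation hva₁ hva₂ hva₃ hneg h₂'
      hvx₀le hvnegY hxx hyy hne (Or.inl hns)
    have htors3 : P.p • Point.some x'' y'' h'' = 0 := by
      rw [← hsub, smul_sub, h2Qtors, ← hnegQ, smul_neg, htors, neg_zero, sub_zero]
    have hx''A : x'' ∈ A := no_torsion_of_not_mem A _ h₁ h₂ h₃ h₄ h₆ P.p hpu h'' htors3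
    exact absurd hlt (not_lt.2 ((A.valuation_le_one_iff _).2 hx''A))

end Fixed

/-- **S13, step 5** from the tropical statement at `2`. -/
theorem noFixed_of_trop
    (htrop : ∀ (P : FreyPackage) (A : ValuationSubring Qbar), A.LiesOverPrime 2 →
      NoFixedTrop P A) : StmtNoFixed := by
  intro P x hx
  obtain ⟨A, hA⟩ := Fermat.Agent.Common.exists_liesOverPrime 2 Nat.prime_two
  obtain ⟨Pt, hPt⟩ := x
  apply Subtype.ext
  change Pt = 0
  have hPt' := hPt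
  rw [Submodule.mem_torsionBy_iff] at hPt'
  cases Pt with
  | zero => rfl
  | some x₀ y₀ h =>
    exfalso
    have htors : P.p • (Point.some x₀ y₀ h : (P.freyCurve⁄Qbar).Point) = 0 := by
      rw [← natCast_zsmul]; exact hPt'
    have hfix : ∀ σ : Gal,
        σ • (Point.some x₀ y₀ h : (P.freyCurve⁄Qbar).Point) = Point.some x₀ y₀ h := by
      intro σ
      exact congrArg Subtype.val (hx σ)
    exact noFixed_core P A hA (htrop P A hA) h htors hfix

/-- **S13, step 5**: the Frey curve has no nonzero Galois-fixed `p`-torsion point. -/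
theorem stmtNoFixed : StmtNoFixed := by
  refine noFixed_of_trop ?_
  intro P A hA x y h htors hx
  obtain ⟨ha₃, ha₆, -, -, hb₂, ha₄, ha₄0, -⟩ := freyTwo_data P A hA
  have h20 : (2 : Qbar) ≠ 0 := by
    have := charZero_of_algebraRat Qbar
    exact two_ne_zero
  have h2 : A.valuation (2 : Qbar) ≤ 1 := (A.valuation_le_one_iff _).2 (ofNat_mem A 2)
  exact tropical_torsion_any A.valuation ha₃ ha₆ h20 h2 hb₂ ha₄ ha₄0 P.hp_odd h htors hx

end Fermat.Agent.S13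


end ZBS13_007_4
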