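/- GENERATED FILE (helper35, build-time optimisation, NOTES/ZB.md): verbatim concatenation of the modules
   Fermat.Agent.S13.DivPoly.Bridge
   Fermat.Agent.RIB.MP.AuxTwo
   Do not edit; do not import together with these modules. -/
import Mathlib
import Fermat.Agent.ZB.S13_003
import Fermat.Agent.ZB.S13_001
import Fermat.Agent.ZB.S13_007
import Fermat.Agent.ZB.S13_005
import Fermat.Agent.ZB.UNIP_006

/-! ### bundled: `Fermat.Agent.S13.DivPoly.Bridge` -/
section ZBS13_009_0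

/-!
# S13 / D-TZ + D-C bridge (helper68)

`psiAt W x y n` (the value of `ψ_n` at `(x, y)`, from `ZeroTors.lean`) agrees, for odd `n` and
`(x, y)` on the curve, with the value of the univariate polynomial `preΨ_n` at `x`.
Together with `psiAt_eq_zero_of_smul_eq_zero` and `smul_eq_zero_of_psiAt_eq_zero`
(`MFSomos.lean`) this gives `StmtTorsZero` and `StmtZeroTors` of `Interface.lean`.
-/

set_option autoImplicit false

namespace Fermat.Agent.S13

open WeierstrassCurve WeierstrassCurve.Affine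

section Bridge

variable {K : Type*} [Field K] (W : WeierstrassCurve K)

/-- `(2y + a₁x + a₃)² = Ψ₂Sq(x)` on the curve. -/
lemma bridge_eta_sq {x y : K} (h : W.toAffine.Equation x y) :
    (2 * y + W.a₁ * x + W.a₃) ^ 2 = W.Ψ₂Sq.eval x := by
  have h' := (Affine.equation_iff x y).1 h
  simp only [Ψ₂Sq, b₂, b₄, b₆, Polynomial.eval_add, Polynomial.eval_mul, Polynomial.eval_pow,
    Polynomial.eval_X, Polynomial.eval_C]
  linear_combination 4 * h'

/-- For odd `n`, `ψ_n(x, y) = preΨ_n(x)` on the curve. -/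
theorem psiAt_eq_eval_preΨ {x y : K} (h : W.toAffine.Equation x y) {n : ℤ} (hn : Odd n) :
    psiAt W x y n = (W.preΨ n).eval x := by
  have hne : ¬ Even n := Int.not_even_iff_odd.2 hn
  have e1 : (W.preΨ n).eval x =
      preNormEDS ((W.Ψ₂Sq.eval x) ^ 2) (W.Ψ₃.eval x) (W.preΨ₄.eval x) n := by
    rw [WeierstrassCurve.preΨ, ← Polynomial.coe_evalRingHom, map_preNormEDS, map_pow]
  rw [e1, psiAt, normEDS, if_neg hne, mul_one, ← bridge_eta_sq W h]
  congr 1
  ring

end Bridge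

section Frey

open WeierstrassCurve.Affine.Point

/-- **D-TZ**: torsion ⇒ zero of `preΨ_p`. -/
theorem stmtTorsZero : StmtTorsZero := by
  intro P x y h h0
  have hodd : Odd ((P.p : ℕ) : ℤ) := by exact_mod_cast P.hp_odd
  have := psiAt_eq_zero_of_smul_eq_zero (W := (P.freyCurve.baseChange Qbar)) two_ne_zero h P.pp h0
  rw [psiAt_eq_eval_preΨ _ h.1 hodd] at this
  exact this

/-- **D-C**: zero of `preΨ_p` ⇒ torsion. -/
theorem stmtZeroTors : StmtZeroTors := by
  intro P x y h h0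
  have hodd : Odd ((P.p : ℕ) : ℤ) := by exact_mod_cast P.hp_odd
  refine smul_eq_zero_of_psiAt_eq_zero (W := (P.freyCurve.baseChange Qbar)) two_ne_zero h P.p
    P.hppos ?_
  rw [psiAt_eq_eval_preΨ _ h.1 hodd]
  exact h0

end Frey

end Fermat.Agent.S13


end ZBS13_009_0

/-! ### bundled: `Fermat.Agent.RIB.MP.AuxTwo` -/
section ZBS13_009_1

/-!
# MP-AUX, part 1 (R2): the mod-`p` representation of the Frey curve is RAMIFIED at `2`

`P` a Frey package, `E = P.freyCurve` (`y² + xy = x³ + a₂x² + a₄x`, `a₃ = a₆ = 0`), `A ⊂ ℚ̄` a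
valuation ring over `2`, `v` its valuation; `v(a₄) = v(2)^N` with `p ∤ 2N`.

* `ribmp_aux_eds` : for the auxiliary sequence with `b = 0`: `W(2k+1) = ± c^e`, `e ≥ 1` if `k ≥ 1`;
* `ribmp_aux_eval_zero` : `preΨ_n(0) = ± (a₄²)^e`, `e ≥ 1`, for odd `n ≥ 3` (`a₃ = a₆ = 0`);
* `ribmp_aux_exists_root` : `preΨ_p` has a root `ξ ∈ ℚ̄` with `v(ξ) < 1`;
* `ribmp_aux_ramified_two` : some `σ` in the inertia group of `A` moves a point of `E[p]`;
* `ribmp_aux_not_unramified_two` : `¬ P.GaloisRepUnramifiedAt 2`.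

Proof of the last two: a `p`-torsion point `(ξ, y)` with `v(ξ) < 1` satisfies
`v(ξ)^p = v(a₄)^{2k}` (`S13.tropical_torsion_any`); if it were fixed by inertia, `v(ξ)` would be
an integral power of `v(2)` (`UNIP.beta0_valuation_eq_zpow`), which is impossible
(`S13.noFixed_exponent`).
-/

set_option autoImplicit false
set_option linter.unusedSectionVars false
set_option linter.unusedVariables false

namespace Fermat.Agent.RIB.MP

open Fermat.Agent.S13 Fermat.Agent.S05 WeierstrassCurve WeierstrassCurve.Affine Polynomial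

/-! ## 1. The auxiliary sequence with `b = 0` -/

theorem ribmp_aux_sign {R : Type*} [CommRing R] {s₁ s₂ : R} (h₁ : s₁ = 1 ∨ s₁ = -1)
    (h₂ : s₂ = 1 ∨ s₂ = -1) : s₁ * s₂ ^ 3 = 1 ∨ s₁ * s₂ ^ 3 = -1 := by
  rcases h₁ with rfl | rfl <;> rcases h₂ with rfl | rfl
  · left; ring
  · right; ring
  · right; ring
  · left; ring

theorem ribmp_aux_sign_neg {R : Type*} [CommRing R] {s₁ s₂ : R} (h₁ : s₁ = 1 ∨ s₁ = -1)
    (h₂ : s₂ = 1 ∨ s₂ = -1) : -(s₁ * s₂ ^ 3) = 1 ∨ -(s₁ * s₂ ^ 3) = -1 := by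
  rcases ribmp_aux_sign h₁ h₂ with h | h
  · right; rw [h]
  · left; rw [h, neg_neg]

theorem ribmp_aux_sign_pow {R : Type*} [CommRing R] {s : R} (h : s = 1 ∨ s = -1) (e : ℕ) :
    s * (-1) ^ e = 1 ∨ s * (-1) ^ e = -1 := by
  rcases Nat.even_or_odd e with h' | h'
  · rw [h'.neg_one_pow, mul_one]; exact h
  · rw [h'.neg_one_pow]
    rcases h with rfl | rfl
    · right; ring
    · left; ring

theorem ribmp_aux_eds {R : Type*} [CommRing R] (c d : R) (k : ℕ) :
    ∃ (e : ℕ) (s : R), (s = 1 ∨ s = -1) ∧ preNormEDS' 0 c d (2 * k + 1) = s * c ^ e ∧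
      (1 ≤ k → 1 ≤ e) := by
  induction k using Nat.strong_induction_on with
  | _ k ih =>
    rcases k with _ | _ | m
    · exact ⟨0, 1, Or.inl rfl, by simp, by omega⟩
    · exact ⟨1, 1, Or.inl rfl, by simp, by omega⟩
    · have hrec := preNormEDS'_odd (0 : R) c d m
      rcases Nat.even_or_odd' m with ⟨j, hj | hj⟩
      · -- `m = 2 j`
        have hev : Even m := ⟨j, by omega⟩
        obtain ⟨e₁, s₁, hs₁, h₁, -⟩ := ih j (by omega)
        obtain ⟨e₂, s₂, hs₂, h₂, he₂⟩ := ih (j + 1) (by omega)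
        have i1 : m + 1 = 2 * j + 1 := by omega
        have i2 : m + 3 = 2 * (j + 1) + 1 := by omega
        refine ⟨e₁ + 3 * e₂, -(s₁ * s₂ ^ 3), ?_, ?_, fun _ => ?_⟩
        · exact ribmp_aux_sign_neg hs₁ hs₂
        · rw [show 2 * (m + 1 + 1) + 1 = 2 * (m + 2) + 1 from rfl, hrec, if_pos hev, if_pos hev,
            i1, i2, h₁, h₂]
          ring
        · have := he₂ (by omega)
          omega
      · -- `m = 2 j + 1`
        have hod : ¬ Even m := by
          rw [Nat.not_even_iff_odd]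
          exact ⟨j, hj⟩
        obtain ⟨e₁, s₁, hs₁, h₁, -⟩ := ih (j + 2) (by omega)
        obtain ⟨e₂, s₂, hs₂, h₂, he₂⟩ := ih (j + 1) (by omega)
        have i1 : m + 4 = 2 * (j + 2) + 1 := by omega
        have i2 : m + 2 = 2 * (j + 1) + 1 := by omega
        refine ⟨e₁ + 3 * e₂, s₁ * s₂ ^ 3, ?_, ?_, fun _ => ?_⟩
        · exact ribmp_aux_sign hs₁ hs₂
        · rw [show 2 * (m + 1 + 1) + 1 = 2 * (m + 2) + 1 from rfl, hrec, if_neg hod, if_neg hod,
            i1, i2, h₁, h₂]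
          ring
        · have := he₂ (by omega)
          omega

/-! ## 2. `preΨ_n (0)` for a curve with `a₃ = a₆ = 0` -/

theorem ribmp_aux_eval_zero {K : Type*} [Field K] (W : WeierstrassCurve K) (ha₃ : W.a₃ = 0)
    (ha₆ : W.a₆ = 0) (k : ℕ) (hk : 1 ≤ k) :
    ∃ (e : ℕ) (s : K), (s = 1 ∨ s = -1) ∧ 1 ≤ e ∧
      (W.preΨ ((2 * k + 1 : ℕ) : ℤ)).eval 0 = s * (W.a₄ ^ 2) ^ e := by
  have e1 : (W.preΨ ((2 * k + 1 : ℕ) : ℤ)).eval 0 =
      preNormEDS ((W.Ψ₂Sq.eval 0) ^ 2) (W.Ψ₃.eval 0) (W.preΨ₄.eval 0) ((2 * k + 1 : ℕ) : ℤ) := by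
    rw [WeierstrassCurve.preΨ, ← Polynomial.coe_evalRingHom, map_preNormEDS, map_pow]
  have e2 : W.Ψ₂Sq.eval 0 = 0 := by
    simp [WeierstrassCurve.Ψ₂Sq, trop2_b₆ ha₃ ha₆]
  have e3 : W.Ψ₃.eval 0 = -(W.a₄ ^ 2) := by
    simp [WeierstrassCurve.Ψ₃, trop2_b₈ ha₃ ha₆]
  obtain ⟨e, s, hs, h, he⟩ := ribmp_aux_eds (-(W.a₄ ^ 2)) (W.preΨ₄.eval 0) k
  refine ⟨e, s * (-1) ^ e, ?_, he hk, ?_⟩
  · exact ribmp_aux_sign_pow hs e
  · rw [e1, e2, e3, preNormEDS_ofNat, zero_pow two_ne_zero, h, neg_pow]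
    ring

/-! ## 3. A root of `preΨ_p` of valuation `< 1` at `2` -/

section Frey

open WeierstrassCurve.Affine.Point

variable (P : FreyPackage)

theorem ribmp_aux_val_sign (A : ValuationSubring Qbar) {s : Qbar} (hs : s = 1 ∨ s = -1) :
    A.valuation s = 1 := by
  rcases hs with rfl | rfl
  · exact map_one _
  · rw [Valuation.map_neg, map_one]

theorem ribmp_aux_exists_root (A : ValuationSubring Qbar) (hA : A.LiesOverPrime 2) :
    ∃ ξ : Qbar, ((P.freyCurve.baseChange Qbar).preΨ P.p).eval ξ = 0 ∧ A.valuation ξ < 1 := by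
  obtain ⟨ha₃, ha₆, -, -, -, ha₄, ha₄0, hpu⟩ := freyTwo_data P A hA
  set f := (P.freyCurve.baseChange Qbar).preΨ P.p with hf
  have hsplit : f.Splits := IsAlgClosed.splits f
  have h0 := hsplit.eval_eq_prod_roots 0
  obtain ⟨k, hk⟩ := P.hp_odd
  have hk1 : 1 ≤ k := by
    have := P.hp5
    omega
  obtain ⟨e, s, hs, he, hval⟩ :=
    ribmp_aux_eval_zero (P.freyCurve.baseChange Qbar) ha₃ ha₆ k hk1
  have hpk : ((P.p : ℕ) : ℤ) = ((2 * k + 1 : ℕ) : ℤ) := by rw [hk]
  have hval' : f.eval 0 = s * ((P.freyCurve.baseChange Qbar).a₄ ^ 2) ^ e := by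
    rw [hf, hpk]
    exact hval
  have hlead : A.valuation f.leadingCoeff = 1 := by
    rw [hf, frey_leadingCoeff_preΨ, Fermat.Agent.UNIP.beta0_valuation_eq_one_iff]
    exact ⟨natCast_mem A P.p, hpu⟩
  have hlt : A.valuation (f.eval 0) < 1 := by
    rw [hval', map_mul, ribmp_aux_val_sign A hs, one_mul, map_pow, map_pow]
    exact pow_lt_one₀ zero_le (pow_lt_one₀ zero_le ha₄ two_ne_zero) (by omega)
  by_contra hcon
  push Not at hcon
  have hge : 1 ≤ (f.roots.map (fun ξ => A.valuation (0 - ξ))).prod := by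
    apply Multiset.one_le_prod_of_one_le
    intro z hz
    obtain ⟨ξ, hξ, rfl⟩ := Multiset.mem_map.mp hz
    rw [zero_sub, Valuation.map_neg]
    exact hcon ξ ((mem_roots'.mp hξ).2)
  have hprod : A.valuation (f.eval 0) = (f.roots.map (fun ξ => A.valuation (0 - ξ))).prod := by
    rw [h0, map_mul, hlead, one_mul, map_multiset_prod, Multiset.map_map]
    rfl
  rw [hprod] at hlt
  exact absurd hlt (not_lt.mpr hge)

/-! ## 4. (R2): the Frey representation is ramified at `2` -/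

/-- **(R2)**: at every place `A ∣ 2`, the inertia group moves a point of `E[p]`. -/
theorem ribmp_aux_ramified_two (A : ValuationSubring Qbar) (hA : A.LiesOverPrime 2) :
    ∃ σ ∈ A.inertiaSubgroupIn ℚ, ∃ x : Tors P, σ • x ≠ x := by
  obtain ⟨ξ, hξ, hvξ⟩ := ribmp_aux_exists_root P A hA
  have hcrit : ∀ (x y : Qbar) (h : (P.freyCurve⁄Qbar).Nonsingular x y),
      P.p • (Point.some x y h : (P.freyCurve⁄Qbar).Point) = 0 ↔
        ((P.freyCurve.baseChange Qbar).preΨ P.p).eval x = 0 :=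
    fun x y h => ⟨stmtTorsZero P x y h, stmtZeroTors P x y h⟩
  obtain ⟨y, h, hmem⟩ := (frey_root_iff P hcrit ξ).mp hξ
  have htors : P.p • (Point.some ξ y h : (P.freyCurve⁄Qbar).Point) = 0 := (hcrit ξ y h).2 hξ
  by_contra hcon
  push Not at hcon
  have hfix : ξ ∈ Fermat.Agent.UNIP.beta0Field A := by
    rw [Fermat.Agent.UNIP.mem_beta0Field]
    intro σ hσ
    have h1 := hcon σ hσ ⟨Point.some ξ y h, hmem⟩
    have h2 : σ • (Point.some ξ y h : (P.freyCurve⁄Qbar).Point) = Point.some ξ y h :=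
      congrArg Subtype.val h1
    rw [galois_smul_some] at h2
    exact (Point.some.inj h2).1
  obtain ⟨ha₃, ha₆, -, -, hb₂, ha₄, ha₄0, -⟩ := freyTwo_data P A hA
  have h20 : (2 : Qbar) ≠ 0 := by
    have := charZero_of_algebraRat Qbar
    exact two_ne_zero
  have h2 : A.valuation (2 : Qbar) ≤ 1 := (A.valuation_le_one_iff _).2 (ofNat_mem A 2)
  obtain ⟨hlow, k, hk⟩ :=
    tropical_torsion_any A.valuation ha₃ ha₆ h20 h2 hb₂ ha₄ ha₄0 P.hp_odd h htors hvξ
  have hξ0 : ξ ≠ 0 := by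
    intro h0
    rw [h0, _root_.map_zero] at hlow
    exact not_lt_zero hlow
  obtain ⟨n, hn⟩ := Fermat.Agent.UNIP.beta0_valuation_eq_zpow Nat.prime_two hA hfix hξ0
  have hn' : A.valuation ξ = A.valuation (2 : Qbar) ^ n := by simpa using hn
  obtain ⟨N, -, hNp, hNv⟩ := noFixed_val_a₄ P A hA
  have hv2lt : A.valuation (2 : Qbar) < 1 := by
    have := noFixed_val_lt_one A hA
    simpa using this
  have hv2pos : 0 < A.valuation (2 : Qbar) := by
    rw [zero_lt_iff, Valuation.ne_zero_iff]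
    exact h20
  rw [hn', hNv] at hk hlow
  rw [hn'] at hvξ
  exact noFixed_exponent hv2pos hv2lt P.pp hNp hlow hvξ hk

/-- **(R2)**: the mod-`p` representation of the Frey curve is ramified at `2`. -/
theorem ribmp_aux_not_unramified_two : ¬ P.GaloisRepUnramifiedAt 2 := by
  intro hunr
  obtain ⟨A, hA⟩ := Fermat.Agent.Common.exists_liesOverPrime 2 Nat.prime_two
  obtain ⟨σ, hσ, x, hx⟩ := ribmp_aux_ramified_two P A hA
  exact hx (hunr A hA σ hσ x)

end Frey

end Fermat.Agent.RIB.MP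


end ZBS13_009_1
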