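/- GENERATED FILE (helper35, build-time optimisation, NOTES/ZB.md): verbatim concatenation of the modules
   Fermat.Agent.S13.AssemblyAbs
   Fermat.Agent.S13.Assembly
   Do not edit; do not import together with these modules. -/
import Mathlib
import Fermat.Agent.ZB.S13_001
import Fermat.Agent.ZB.Common_001

/-! ### bundled: `Fermat.Agent.S13.AssemblyAbs` -/
section ZBZ2S13_001_0

/-!
# S13 assembly: abstract linear algebra

A group `G` acts additively on a finite `ZMod p`-module `T` with at most `p²` elements, and `N` is a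
`G`-stable submodule, `N ≠ ⊥, ⊤`.  Then `N` and `T ⧸ N` are lines, and a unipotent `σ`
(`(σ - 1)² = 0`) acts trivially on both.
-/

set_option autoImplicit false
set_option linter.style.haveILetI false

namespace Fermat.Agent.S13

section abs

variable {p : ℕ} [Fact p.Prime] {G T : Type*} [Group G] [AddCommGroup T] [Module (ZMod p) T]
  [DistribMulAction G T]

/-- An additive action commutes with the `ZMod p`-scalars. -/
theorem asm_smul_zmod_smul (σ : G) (c : ZMod p) (x : T) : σ • (c • x) = c • (σ • x) := by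
  have h : ∀ n : ℕ, σ • ((n : ZMod p) • x) = (n : ZMod p) • (σ • x) := by
    intro n
    rw [Nat.cast_smul_eq_nsmul, Nat.cast_smul_eq_nsmul]
    exact map_nsmul (DistribSMul.toAddMonoidHom T σ) n x
  have := h c.val
  rwa [ZMod.natCast_zmod_val] at this

theorem asm_smul_sub' (σ : G) (x y : T) : σ • (x - y) = σ • x - σ • y :=
  smul_sub σ x y

variable (p) in
/-- The two finranks. -/
theorem asm_finrank [Finite T] (hcard : Nat.card T ≤ p ^ 2) (N : Submodule (ZMod p) T)
    (hbot : N ≠ ⊥) (htop : N ≠ ⊤) :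
    Module.finrank (ZMod p) N = 1 ∧ Module.finrank (ZMod p) T = 2 := by
  have hp : p.Prime := Fact.out
  letI : Fintype T := Fintype.ofFinite T
  have hT : Nat.card T = p ^ Module.finrank (ZMod p) T := by
    rw [Nat.card_eq_fintype_card, Module.card_eq_pow_finrank (K := ZMod p) (V := T), ZMod.card]
  have h2 : Module.finrank (ZMod p) T ≤ 2 := by
    rw [hT] at hcard
    exact (Nat.pow_le_pow_iff_right hp.one_lt).1 hcard
  have h1 : 0 < Module.finrank (ZMod p) N := by
    rw [Module.finrank_pos_iff]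
    exact (Submodule.nontrivial_iff_ne_bot).2 hbot
  have h3 : Module.finrank (ZMod p) N < Module.finrank (ZMod p) T :=
    Submodule.finrank_lt htop
  omega

variable (p) in
/-- `N` is a line. -/
theorem asm_line [Finite T] (hcard : Nat.card T ≤ p ^ 2) (N : Submodule (ZMod p) T)
    (hbot : N ≠ ⊥) (htop : N ≠ ⊤) :
    ∃ v ∈ N, v ≠ 0 ∧ ∀ x ∈ N, ∃ c : ZMod p, x = c • v := by
  obtain ⟨h1, -⟩ := asm_finrank p hcard N hbot htop
  obtain ⟨v, hv0, hv⟩ := finrank_eq_one_iff'.1 h1
  refine ⟨v.1, v.2, fun h => hv0 (Subtype.ext h), fun x hx => ?_⟩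
  obtain ⟨c, hc⟩ := hv ⟨x, hx⟩
  exact ⟨c, by simpa using (congrArg Subtype.val hc).symm⟩

variable (p) in
/-- `T ⧸ N` is a line. -/
theorem asm_coline [Finite T] (hcard : Nat.card T ≤ p ^ 2) (N : Submodule (ZMod p) T)
    (hbot : N ≠ ⊥) (htop : N ≠ ⊤) :
    ∃ w : T, w ∉ N ∧ ∀ x : T, ∃ c : ZMod p, x - c • w ∈ N := by
  obtain ⟨h1, h2⟩ := asm_finrank p hcard N hbot htop
  have hq : Module.finrank (ZMod p) (T ⧸ N) = 1 := by
    have := Submodule.finrank_quotient_add_finrank N
    omega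
  obtain ⟨w', hw0, hw⟩ := finrank_eq_one_iff'.1 hq
  obtain ⟨w, rfl⟩ := Submodule.Quotient.mk_surjective N w'
  refine ⟨w, fun h => hw0 ((Submodule.Quotient.mk_eq_zero N).2 h), fun x => ?_⟩
  obtain ⟨c, hc⟩ := hw (Submodule.Quotient.mk x)
  refine ⟨c, ?_⟩
  rw [← Submodule.Quotient.mk_eq_zero N, Submodule.Quotient.mk_sub, Submodule.Quotient.mk_smul, hc,
    sub_self]

/-- A scalar `c` with `(c - 1)² • v = 0`, `v ≠ 0`, is `1`. -/
theorem asm_scalar_eq_one {c : ZMod p} {v : T} (hv : v ≠ 0) (h : ((c - 1) * (c - 1)) • v = 0) :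
    c = 1 := by
  rcases smul_eq_zero.1 h with h | h
  · rcases mul_self_eq_zero.1 h with h
    exact sub_eq_zero.1 h
  · exact absurd h hv

variable (p) in
/-- A unipotent `σ` fixes the stable line `N` pointwise. -/
theorem asm_unip_fix [Finite T] (hcard : Nat.card T ≤ p ^ 2) (N : Submodule (ZMod p) T)
    (hstab : ∀ σ : G, ∀ x ∈ N, σ • x ∈ N) (hbot : N ≠ ⊥) (htop : N ≠ ⊤) (σ : G)
    (hσ : ∀ x : T, σ • (σ • x - x) = σ • x - x) : ∀ x ∈ N, σ • x = x := by
  obtain ⟨v, hvN, hv0, hv⟩ := asm_line p hcard N hbot htop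
  obtain ⟨a, ha⟩ := hv (σ • v) (hstab σ v hvN)
  have h1 : ((a - 1) * (a - 1)) • v = 0 := by
    have := hσ v
    rw [ha, asm_smul_sub', asm_smul_zmod_smul, ha] at this
    have h2 : ((a - 1) * (a - 1)) • v = a • a • v - a • v - (a • v - v) := by
      simp only [sub_smul, mul_smul, one_smul, smul_sub]
    rw [h2, this, sub_self]
  have ha1 : a = 1 := asm_scalar_eq_one hv0 h1
  rw [ha1, one_smul] at ha
  intro x hx
  obtain ⟨c, rfl⟩ := hv x hx
  rw [asm_smul_zmod_smul, ha]

variable (p) in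
/-- A unipotent `σ` acts trivially on `T ⧸ N`. -/
theorem asm_unip_cofix [Finite T] (hcard : Nat.card T ≤ p ^ 2) (N : Submodule (ZMod p) T)
    (hstab : ∀ σ : G, ∀ x ∈ N, σ • x ∈ N) (hbot : N ≠ ⊥) (htop : N ≠ ⊤) (σ : G)
    (hσ : ∀ x : T, σ • (σ • x - x) = σ • x - x) : ∀ x : T, σ • x - x ∈ N := by
  have hfix := asm_unip_fix p hcard N hstab hbot htop σ hσ
  obtain ⟨w, hwN, hw⟩ := asm_coline p hcard N hbot htop
  obtain ⟨d, hd⟩ := hw (σ • w)
  -- `n' = σ w - d w ∈ N`
  set n' : T := σ • w - d • w with hn'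
  have hσw : σ • w = d • w + n' := by rw [hn']; abel
  have hfn : σ • n' = n' := hfix n' hd
  -- `(σ - 1)² w = (d - 1)² w + (d - 1) n'`
  have key : ((d - 1) * (d - 1)) • w + (d - 1) • n' = 0 := by
    have := hσ w
    have e1 : σ • w - w = (d - 1) • w + n' := by
      rw [hσw, sub_smul, one_smul]; abel
    rw [e1, smul_add, asm_smul_zmod_smul, hfn, hσw] at this
    have e2 : ((d - 1) * (d - 1)) • w + (d - 1) • n' =
        (d - 1) • (d • w + n') + n' - ((d - 1) • w + n') := by
      simp only [sub_smul, mul_smul, one_smul, smul_sub, smul_add]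
      abel
    rw [e2, this, sub_self]
  have hmem : ((d - 1) * (d - 1)) • w ∈ N := by
    have : ((d - 1) * (d - 1)) • w = -((d - 1) • n') := eq_neg_of_add_eq_zero_left key
    rw [this]
    exact N.neg_mem (N.smul_mem _ hd)
  have hd1 : d = 1 := by
    by_contra hne
    have hc : (d - 1) * (d - 1) ≠ 0 := mul_ne_zero (sub_ne_zero.2 hne) (sub_ne_zero.2 hne)
    apply hwN
    have := N.smul_mem ((d - 1) * (d - 1))⁻¹ hmem
    rwa [smul_smul, inv_mul_cancel₀ hc, one_smul] at this
  have hw1 : σ • w - w ∈ N := by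
    have : σ • w - w = n' := by rw [hn', hd1, one_smul]
    rw [this]; exact hd
  intro x
  obtain ⟨c, hc⟩ := hw x
  -- `x = c w + n`, `n ∈ N`
  have hx : σ • x - x = c • (σ • w - w) + (σ • (x - c • w) - (x - c • w)) := by
    rw [asm_smul_sub', asm_smul_zmod_smul, smul_sub]
    abel
  rw [hx]
  refine N.add_mem (N.smul_mem c hw1) ?_
  rw [hfix _ hc, sub_self]
  exact N.zero_mem

/-- The pointwise stabiliser of a stable submodule `N`. -/
def asmFix (N : Submodule (ZMod p) T) : Subgroup G where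
  carrier := {σ | ∀ x ∈ N, σ • x = x}
  mul_mem' := fun {a b} ha hb x hx => by rw [mul_smul, hb x hx, ha x hx]
  one_mem' := fun x _ => one_smul G x
  inv_mem' := fun {a} ha x hx => by
    have := congrArg (fun y => a⁻¹ • y) (ha x hx)
    simp only [inv_smul_smul] at this
    exact this.symm

theorem mem_asmFix {N : Submodule (ZMod p) T} {σ : G} :
    σ ∈ asmFix (G := G) N ↔ ∀ x ∈ N, σ • x = x := Iff.rfl

theorem asmFix_normal (N : Submodule (ZMod p) T) (hstab : ∀ σ : G, ∀ x ∈ N, σ • x ∈ N) :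
    (asmFix (G := G) N).Normal := by
  refine ⟨fun σ hσ g x hx => ?_⟩
  rw [mul_smul, mul_smul, hσ _ (hstab g⁻¹ x hx), smul_inv_smul]

/-- The subgroup acting trivially on `T ⧸ N`, for a stable `N`. -/
def asmCofix (N : Submodule (ZMod p) T) (hstab : ∀ σ : G, ∀ x ∈ N, σ • x ∈ N) : Subgroup G where
  carrier := {σ | ∀ x : T, σ • x - x ∈ N}
  mul_mem' := fun {a b} ha hb x => by
    have h : (a * b) • x - x = a • (b • x - x) + (a • x - x) := by
      rw [mul_smul, smul_sub]; abel
    rw [h]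
    exact N.add_mem (hstab a _ (hb x)) (ha x)
  one_mem' := fun x => by rw [one_smul, sub_self]; exact N.zero_mem
  inv_mem' := fun {a} ha x => by
    have h : a⁻¹ • x - x = -(a⁻¹ • (a • x - x)) := by
      rw [smul_sub, inv_smul_smul]; abel
    rw [h]
    exact N.neg_mem (hstab a⁻¹ _ (ha x))

theorem mem_asmCofix {N : Submodule (ZMod p) T} {hstab : ∀ σ : G, ∀ x ∈ N, σ • x ∈ N} {σ : G} :
    σ ∈ asmCofix N hstab ↔ ∀ x : T, σ • x - x ∈ N := Iff.rfl

theorem asm_sub_mem_of_fix (N : Submodule (ZMod p) T) (σ : G) (x : T) (h : σ • x = x) :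
    σ • x - x ∈ N := by
  rw [h, sub_self]
  exact N.zero_mem

theorem asmCofix_normal (N : Submodule (ZMod p) T) (hstab : ∀ σ : G, ∀ x ∈ N, σ • x ∈ N) :
    (asmCofix N hstab).Normal := by
  refine ⟨fun σ hσ g x => ?_⟩
  have h : (g * σ * g⁻¹) • x - x = g • (σ • (g⁻¹ • x) - g⁻¹ • x) := by
    rw [mul_smul, mul_smul, smul_sub, smul_inv_smul]
  rw [h]
  exact hstab g _ (hσ _)

end abs

end Fermat.Agent.S13


end ZBZ2S13_001_0

/-! ### bundled: `Fermat.Agent.S13.Assembly` -/
section ZBZ2S13_001_1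

/-!
# S13: assembly (piece P8)

`assembly : StmtNontrivial → StmtCard → StmtUnram → StmtAtTwo → StmtNoFixed → StmtAtP →
  StmtMinkowski → StmtS13`.
-/

set_option autoImplicit false
set_option linter.style.haveILetI false

namespace Fermat.Agent.S13

open WeierstrassCurve WeierstrassCurve.Affine WeierstrassCurve.Affine.Point

/-- The coordinates of a point. -/
noncomputable def asmCoords (W : WeierstrassCurve ℚ) : (W⁄Qbar).Point → Finset Qbar
  | .zero => ∅
  | .some x y _ => {x, y}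

theorem asm_some_eq_some {W : Affine Qbar} {x y x' y' : Qbar} {h : W.Nonsingular x y}
    {h' : W.Nonsingular x' y'} (hx : x = x') (hy : y = y') :
    Affine.Point.some x y h = Affine.Point.some x' y' h' := by
  subst hx hy
  rfl

/-- An automorphism fixing the coordinates of a point fixes the point. -/
theorem asm_smul_eq_of_coords (W : WeierstrassCurve ℚ) (σ : Gal) (Q : (W⁄Qbar).Point)
    (h : ∀ s ∈ asmCoords W Q, σ s = s) : σ • Q = Q := by
  rw [algEquiv_smul_def]
  cases Q with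
  | zero => rfl
  | some x y hxy =>
    have hx : σ x = x := h x (by simp [asmCoords])
    have hy : σ y = y := h y (by simp [asmCoords])
    rw [Point.map_some]
    exact asm_some_eq_some hx hy

/-- The action on `E[p]` factors through the stabiliser of a finite set of algebraic numbers. -/
theorem asm_exists_finset (P : FreyPackage) [Finite (Tors P)] :
    ∃ S : Finset Qbar, ∀ σ : Gal, (∀ s ∈ S, σ s = s) → ∀ x : Tors P, σ • x = x := by
  letI : Fintype (Tors P) := Fintype.ofFinite _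
  refine ⟨Finset.univ.biUnion fun x : Tors P => asmCoords P.freyCurve x.1, fun σ hσ x => ?_⟩
  apply Subtype.ext
  show σ • (x : (P.freyCurve⁄Qbar).Point) = x
  refine asm_smul_eq_of_coords P.freyCurve σ x.1 fun s hs => hσ s ?_
  exact Finset.mem_biUnion.2 ⟨x, Finset.mem_univ x, hs⟩

/-- **S13 from its pieces.** -/
theorem assembly (h1 : StmtNontrivial) (h2 : StmtCard) (h3 : StmtUnram) (h4 : StmtAtTwo)
    (h5 : StmtNoFixed) (h6 : StmtAtP) (h7 : StmtMinkowski) : StmtS13 := by
  intro P hred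
  haveI : Fact P.p.Prime := ⟨P.pp⟩
  haveI := h1 P
  obtain ⟨hfin, hcard⟩ := h2 P
  haveI := hfin
  -- a stable line
  have hex : ∃ N : Submodule (ZMod P.p) (Tors P), IsGaloisStable ℚ N ∧ N ≠ ⊥ ∧ N ≠ ⊤ := by
    by_contra hcon
    refine hred ⟨h1 P, fun N hN => ?_⟩
    by_contra h
    rw [not_or] at h
    exact hcon ⟨N, hN, h.1, h.2⟩
  obtain ⟨N, hN, hbot, htop⟩ := hex
  have hstab : ∀ σ : Gal, ∀ x ∈ N, σ • x ∈ N := hN
  -- the action factors through a finite quotient
  obtain ⟨S, hS⟩ := asm_exists_finset P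
  have hS1 : ∀ σ : Gal, (∀ s ∈ S, σ s = s) → σ ∈ asmFix (G := Gal) N :=
    fun σ hσ x _ => hS σ hσ x
  have hS2 : ∀ σ : Gal, (∀ s ∈ S, σ s = s) → σ ∈ asmCofix N hstab := fun σ hσ x =>
    asm_sub_mem_of_fix N σ x (hS σ hσ x)
  -- inertia away from `p`
  have hp2 : P.p ≠ 2 := by have := P.hp5; omega
  have haway : ∀ q : ℕ, q.Prime → q ≠ P.p → ∃ A : ValuationSubring Qbar, A.LiesOverPrime q ∧
      A.inertiaSubgroupIn ℚ ≤ asmFix (G := Gal) N ∧
      A.inertiaSubgroupIn ℚ ≤ asmCofix N hstab := by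
    intro q hq hqp
    by_cases hq2 : q = 2
    · subst hq2
      obtain ⟨A, hA, hun⟩ := h4 P
      exact ⟨A, hA, fun σ hσ => asm_unip_fix P.p hcard N hstab hbot htop σ (hun σ hσ),
        fun σ hσ => asm_unip_cofix P.p hcard N hstab hbot htop σ (hun σ hσ)⟩
    · obtain ⟨A, hA⟩ := Fermat.Agent.Common.exists_liesOverPrime q hq
      have hun := h3 P q hq hq2 hqp A hA
      exact ⟨A, hA, fun σ hσ x _ => hun σ hσ x,
        fun σ hσ x => asm_sub_mem_of_fix N σ x (hun σ hσ x)⟩
  -- inertia at `p`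
  obtain ⟨A, hA, hor⟩ := h6 P N hN hbot htop
  rcases hor with h | h
  · -- `Gal` fixes `N` pointwise: impossible
    exfalso
    have htopK : asmFix (G := Gal) N = ⊤ := by
      refine h7 _ (asmFix_normal N hstab) ⟨S, hS1⟩ fun q hq => ?_
      by_cases hqp : q = P.p
      · subst hqp
        exact ⟨A, hA, fun σ hσ => h σ hσ⟩
      · obtain ⟨B, hB, hB1, -⟩ := haway q hq hqp
        exact ⟨B, hB, hB1⟩
    obtain ⟨v, hvN, hv0, -⟩ := asm_line P.p hcard N hbot htop
    refine hv0 (h5 P v fun σ => ?_)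
    have hσ : σ ∈ asmFix (G := Gal) N := by rw [htopK]; exact Subgroup.mem_top σ
    exact hσ v hvN
  · -- `Gal` acts trivially on `T ⧸ N`
    have htopK : asmCofix N hstab = ⊤ := by
      refine h7 _ (asmCofix_normal N hstab) ⟨S, hS2⟩ fun q hq => ?_
      by_cases hqp : q = P.p
      · subst hqp
        exact ⟨A, hA, fun σ hσ => h σ hσ⟩
      · obtain ⟨B, hB, -, hB2⟩ := haway q hq hqp
        exact ⟨B, hB, hB2⟩
    refine ⟨N, hN, hbot, htop, fun σ x => ?_⟩
    have hσ : σ ∈ asmCofix N hstab := by rw [htopK]; exact Subgroup.mem_top σ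
    exact hσ x

end Fermat.Agent.S13


end ZBZ2S13_001_1
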