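/- GENERATED FILE (helper35, build-time optimisation, NOTES/ZB.md): verbatim concatenation of the modules
   Fermat.Agent.S13.StepPAux
   Fermat.Agent.S13.StepP
   Do not edit; do not import together with these modules. -/
import Mathlib
import Fermat.Agent.ZB.S05_002
import Fermat.Agent.ZB.S51_001
import Fermat.Agent.ZB.S13_001
import Fermat.Agent.ZB.Z2S13_001
import Fermat.Agent.ZB.Z2S13_002
import Fermat.Agent.ZB.Z2S13_003
import Fermat.Agent.ZB.Common_001

/-! ### bundled: `Fermat.Agent.S13.StepPAux` -/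
section ZBZ2S13_004_0

/-!
# S13, piece P5 (step at `p`), part 3: three small lemmas

* `stepP_aux_coeff_mem`: the division polynomials `preΨ n` of a curve with coefficients in a
  valuation subring `A` have coefficients in `A`.
* `stepP_aux_rat_inv_mem`: a rational number that is not in `A` (a place over `q`) has
  `(q * r)⁻¹ ∈ A`.
* `stepP_aux_prod_rat`: the product of a Galois-stable finite set of algebraic numbers is
  rational.
* `stepP_aux_prod_not_mem`: a nonempty product of elements outside `A` is outside `A`.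
-/

set_option autoImplicit false

namespace Fermat.Agent.S13

open Polynomial Fermat.Agent.S05

section Coeff

variable {L : Type*} [Field L]

theorem stepP_aux_coeff_mem (A : ValuationSubring L) (W : WeierstrassCurve L)
    (h₁ : W.a₁ ∈ A) (h₂ : W.a₂ ∈ A) (h₃ : W.a₃ ∈ A) (h₄ : W.a₄ ∈ A) (h₆ : W.a₆ ∈ A)
    (n : ℤ) (i : ℕ) : (W.preΨ n).coeff i ∈ A := by
  let WA : WeierstrassCurve A := ⟨⟨W.a₁, h₁⟩, ⟨W.a₂, h₂⟩, ⟨W.a₃, h₃⟩, ⟨W.a₄, h₄⟩, ⟨W.a₆, h₆⟩⟩
  have hmap : WA.map A.subtype = W := by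
    ext <;> rfl
  rw [← hmap, WeierstrassCurve.map_preΨ, Polynomial.coeff_map]
  exact SetLike.coe_mem _

/-- A nonempty product of elements outside `A` is outside `A`. -/
theorem stepP_aux_prod_not_mem (A : ValuationSubring L) (M : Multiset L)
    (hM : ∀ ξ ∈ M, ξ ∉ A) (h0 : M ≠ 0) : M.prod ∉ A := by
  have key : ∀ M : Multiset L, (∀ ξ ∈ M, ξ ∉ A) → M ≠ 0 → 1 < A.valuation M.prod := by
    intro M
    induction M using Multiset.induction_on with
    | empty => intro _ h; exact absurd rfl h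
    | cons a s ih =>
      intro hM _
      have ha : 1 < A.valuation a := by
        have := hM a (Multiset.mem_cons_self a s)
        rw [← A.valuation_le_one_iff] at this
        exact not_le.1 this
      rw [Multiset.prod_cons, map_mul]
      by_cases hs : s = 0
      · subst hs
        simpa using ha
      · have h1 := ih (fun ξ hξ => hM ξ (Multiset.mem_cons_of_mem hξ)) hs
        exact one_lt_mul_of_lt_of_le' ha h1.le
  intro hmem
  have := key M hM h0
  rw [← A.valuation_le_one_iff] at hmem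
  exact absurd hmem (not_le.2 this)

end Coeff

section Rat

variable {L : Type*} [Field L] [Algebra ℚ L]

theorem stepP_aux_rat_inv_mem (A : ValuationSubring L) {q : ℕ} (hq : q.Prime)
    (hA : A.LiesOverPrime q) (r : ℚ) (hr : algebraMap ℚ L r ∉ A) :
    ((q : L) * algebraMap ℚ L r)⁻¹ ∈ A := by
  have hchar := charZero_of_algebraRat L
  have hrw : algebraMap ℚ L r = (r.num : L) / (r.den : L) := by
    conv_lhs => rw [← Rat.num_div_den r]
    rw [map_div₀]
    simp
  have hden0 : (r.den : L) ≠ 0 := by exact_mod_cast r.den_ne_zero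
  have hq0 : (q : L) ≠ 0 := by exact_mod_cast hq.ne_zero
  by_cases hd : q ∣ r.den
  · -- `q ∤ num`
    have hn : ¬ (q : ℤ) ∣ r.num := by
      intro hn
      have h1 : q ∣ r.num.natAbs := Int.natCast_dvd.1 hn
      have h2 := Nat.dvd_gcd h1 hd
      rw [r.reduced.gcd_eq_one] at h2
      exact hq.one_lt.ne' (Nat.dvd_one.1 h2)
    have hvn : A.valuation (r.num : L) = 1 := (valuation_intCast_eq_one_iff A hq hA _).2 hn
    have hnum0 : (r.num : L) ≠ 0 := by
      intro h0
      rw [h0, map_zero] at hvn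
      exact zero_ne_one hvn
    obtain ⟨d', hd'⟩ := hd
    have e : ((q : L) * algebraMap ℚ L r)⁻¹ = (d' : L) * (r.num : L)⁻¹ := by
      rw [hrw]
      have : (r.den : L) = (q : L) * (d' : L) := by rw [hd']; push_cast; ring
      rw [this]
      have hd'0 : (d' : L) ≠ 0 := by
        intro h0
        rw [h0, mul_zero] at this
        exact hden0 this
      field_simp
    rw [e]
    refine mul_mem (natCast_mem A d') ?_
    rw [← A.valuation_le_one_iff, map_inv₀, hvn, inv_one]
  · exfalso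
    apply hr
    have hvd : A.valuation (r.den : L) = 1 := (valuation_natCast_eq_one_iff A hq hA _).2 hd
    rw [hrw, ← A.valuation_le_one_iff, map_div₀, hvd, div_one, A.valuation_le_one_iff]
    exact intCast_mem A _

end Rat

section Prod

/-- The product of a Galois-stable finite set of algebraic numbers is rational. -/
theorem stepP_aux_prod_rat (S : Finset Qbar) (hS : ∀ σ : Gal, ∀ s ∈ S, σ s ∈ S) :
    ∃ r : ℚ, algebraMap ℚ Qbar r = ∏ s ∈ S, s := by
  classical
  apply Fermat.Agent.S51.galois_fixed_rat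
  intro σ
  rw [map_prod]
  have himg : S.image (fun s => σ s) = S := by
    apply Finset.eq_of_subset_of_card_le
    · intro t ht
      obtain ⟨s, hs, rfl⟩ := Finset.mem_image.1 ht
      exact hS σ s hs
    · rw [Finset.card_image_of_injective _ σ.injective]
  conv_rhs => rw [← himg]
  rw [Finset.prod_image]
  intro a _ b _ hab
  exact σ.injective hab

end Prod

end Fermat.Agent.S13


end ZBZ2S13_004_0

/-! ### bundled: `Fermat.Agent.S13.StepP` -/
section ZBZ2S13_004_1

/-!
# S13, piece P5: the step at `p`  (`StmtCard → StmtTorsZero → StmtAtP`)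

Let `A` be a place of `ℚ̄` over `p = P.p`, `N` a Galois-stable line of `T = E[p](ℚ̄)`.
Call a point *non-integral* if it is affine with `x ∉ A`.

* Case B: the nonzero points of `N` are integral.  For `σ ∈ I_A`, `x ∈ N`: `σ x - x ∈ N` is `0` or
  non-integral (`stepP_frey_move`), hence `0`.  So `I_A` fixes `N` pointwise.
* Case A: the nonzero points of `N` are non-integral.  KEY (`stepP_key`): every point of `T ∖ N`
  is integral (Gauss lemma for `preΨ_p`, whose leading coefficient is `p`, against the rational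
  number `∏ x(N ∖ 0)`).  For `σ ∈ I_A`, `x ∉ N`: `σ x - x` is `0` or non-integral, hence in `N`.
  So `I_A` acts trivially on `T / N`.
-/

set_option autoImplicit false
set_option linter.unusedSectionVars false
set_option linter.unusedVariables false
set_option linter.style.haveILetI false

namespace Fermat.Agent.S13

open WeierstrassCurve WeierstrassCurve.Affine WeierstrassCurve.Affine.Point Fermat.Agent.S05
open Polynomial

section Basic

variable {K : Type*} [Field K] [DecidableEq K] {W : WeierstrassCurve K}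

/-- The `x`-coordinate of a point (`0` at infinity). -/
def stepP_xc : W.toAffine.Point → K
  | .zero => 0
  | .some x _ _ => x

/-- A point is non-integral at `A` if it is affine with `x ∉ A`. -/
def stepP_NonInt (A : ValuationSubring K) : W.toAffine.Point → Prop
  | .zero => False
  | .some x _ _ => x ∉ A

theorem stepP_nonInt_some (A : ValuationSubring K) {x y : K} (h : W.toAffine.Nonsingular x y) :
    stepP_NonInt A (Point.some x y h) ↔ x ∉ A := Iff.rfl

theorem stepP_not_nonInt_zero (A : ValuationSubring K) :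
    ¬ stepP_NonInt A (0 : W.toAffine.Point) := fun h => h

theorem stepP_nonInt_neg (A : ValuationSubring K) (Q : W.toAffine.Point) :
    stepP_NonInt A (-Q) ↔ stepP_NonInt A Q := by
  cases Q with
  | zero => exact Iff.rfl
  | some x y h => exact Iff.rfl

/-- Multiples of a non-integral point are `0` or non-integral (S05, `kernelQ_all`). -/
theorem stepP_nonInt_nsmul (A : ValuationSubring K) (h₁ : W.a₁ ∈ A) (h₂ : W.a₂ ∈ A)
    (h₃ : W.a₃ ∈ A) (h₄ : W.a₄ ∈ A) (h₆ : W.a₆ ∈ A) {Q : W.toAffine.Point}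
    (hQ : stepP_NonInt A Q) (m : ℕ) : m • Q = 0 ∨ stepP_NonInt A (m • Q) := by
  cases Q with
  | zero => exact absurd hQ (stepP_not_nonInt_zero A)
  | some x y h =>
    have hx : x ∉ A := hQ
    rcases (kernelQ_all A h₁ h₂ h₃ h₄ h₆ h hx m).1 with ⟨h0, -⟩ | ⟨x', y', h', he, c, hc, hcx, -⟩
    · exact Or.inl h0
    · right
      rw [he]
      intro hx'
      apply hx
      rw [← hcx]
      exact mul_mem hc hx'

/-- Two affine points with the same `x`-coordinate are equal or opposite. -/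
theorem stepP_eq_or_eq_neg_of_xc {Q₁ Q₂ : W.toAffine.Point} (h₁ : Q₁ ≠ 0) (h₂ : Q₂ ≠ 0)
    (hx : stepP_xc Q₁ = stepP_xc Q₂) : Q₁ = Q₂ ∨ Q₁ = -Q₂ := by
  cases Q₁ with
  | zero => exact absurd rfl h₁
  | some x₁ y₁ hh₁ =>
    cases Q₂ with
    | zero => exact absurd rfl h₂
    | some x₂ y₂ hh₂ =>
      have hx' : x₁ = x₂ := hx
      subst hx'
      rcases Affine.Y_eq_of_X_eq hh₁.1 hh₂.1 rfl with hy | hy
      · left
        subst hy
        rfl
      · right
        rw [Point.neg_some]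
        subst hy
        rfl

end Basic

section Frey

variable (P : FreyPackage)

theorem stepP_p_ne_two : P.p ≠ 2 := by
  have := P.hp5
  omega

/-- The torsion condition as an `ℕ`-multiple. -/
theorem stepP_nsmul_eq_zero (x : Tors P) : P.p • (x : (P.freyCurve⁄Qbar).Point) = 0 := by
  have h := x.2
  rw [Submodule.mem_torsionBy_iff] at h
  rw [← natCast_zsmul]
  exact h

/-- `x`-coordinates and the Galois action. -/
theorem stepP_xc_smul (σ : Gal) (Q : (P.freyCurve⁄Qbar).Point) :
    stepP_xc (σ • Q) = σ (stepP_xc Q) := by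
  cases Q with
  | zero => exact (map_zero σ).symm
  | some x y h => rfl

/-- Inertia at a place over `p` moves an integral `p`-torsion point inside the kernel of
reduction. -/
theorem stepP_move (A : ValuationSubring Qbar) (hA : A.LiesOverPrime P.p) {σ : Gal}
    (hσ : σ ∈ A.inertiaSubgroupIn ℚ) (Q : (P.freyCurve⁄Qbar).Point) (htors : P.p • Q = 0)
    (hint : ¬ stepP_NonInt A Q) : σ • Q - Q = 0 ∨ stepP_NonInt A (σ • Q - Q) := by
  cases Q with
  | zero =>
    left
    exact sub_self _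
  | some x y h =>
    have hxA : x ∈ A := not_not.1 hint
    by_cases hfix : σ • (Point.some x y h : (P.freyCurve⁄Qbar).Point) = Point.some x y h
    · left
      rw [hfix, sub_self]
    · right
      rw [galois_smul_some] at hfix ⊢
      obtain ⟨x'', y'', h'', he, hlt⟩ :=
        stepP_frey_move P P.pp (stepP_p_ne_two P) A hA hσ h htors hxA _ hfix
      rw [he]
      intro hx''
      rw [← A.valuation_le_one_iff] at hx''
      exact absurd hlt (not_lt.2 hx'')

/-- The `ZMod p`-scalars act through `ℕ`-multiples. -/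
theorem stepP_zmod_smul_coe (c : ZMod P.p) (x : Tors P) :
    ((c • x : Tors P) : (P.freyCurve⁄Qbar).Point) = c.val • (x : (P.freyCurve⁄Qbar).Point) := by
  haveI : NeZero P.p := ⟨P.hp0⟩
  have h1 : c • x = c.val • x := by
    conv_lhs => rw [← ZMod.natCast_zmod_val c]
    exact Nat.cast_smul_eq_nsmul (ZMod P.p) c.val x
  rw [h1]
  exact map_nsmul (Submodule.subtype _) c.val x

end Frey

section Key

open Classical in
/-- **KEY.** If the nonzero points of the stable line `N` are non-integral at `A | p`, then every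
point of `T ∖ N` is integral. -/
theorem stepP_key (hcard : StmtCard) (hroot : StmtTorsZero) (P : FreyPackage)
    (N : Submodule (ZMod P.p) (Tors P)) (hN : IsGaloisStable ℚ N) (hbot : N ≠ ⊥)
    (A : ValuationSubring Qbar) (hA : A.LiesOverPrime P.p)
    (hNn : ∀ x ∈ N, x ≠ 0 → stepP_NonInt A (x : (P.freyCurve⁄Qbar).Point)) :
    ∀ x : Tors P, x ≠ 0 → x ∉ N → ¬ stepP_NonInt A (x : (P.freyCurve⁄Qbar).Point) := by
  haveI : Finite (Tors P) := (hcard P).1
  letI : Fintype (Tors P) := Fintype.ofFinite _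
  have hp2 := stepP_p_ne_two P
  obtain ⟨h₁, h₂, h₃, h₄, h₆⟩ := frey_coeff_mem P A P.pp hp2 hA
  -- the division polynomial
  have hpQ : ((P.p : ℤ) : Qbar) ≠ 0 := by
    have := P.hp0
    exact_mod_cast this
  have hpQ' : (P.p : Qbar) ≠ 0 := by exact_mod_cast hpQ
  have hΨ0 : (P.freyCurve⁄Qbar).preΨ (P.p : ℤ) ≠ 0 := WeierstrassCurve.preΨ_ne_zero _ hpQ
  have hodd : ¬ Even (P.p : ℤ) := by
    rw [Int.not_even_iff_odd]
    exact_mod_cast P.hp_odd
  have hlc : ((P.freyCurve⁄Qbar).preΨ (P.p : ℤ)).leadingCoeff = (P.p : Qbar) := by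
    rw [WeierstrassCurve.leadingCoeff_preΨ _ hpQ, if_neg hodd]
    push_cast
    rfl
  have hcoeff : ∀ i, ((P.freyCurve⁄Qbar).preΨ (P.p : ℤ)).coeff i ∈ A :=
    fun i => stepP_aux_coeff_mem A _ h₁ h₂ h₃ h₄ h₆ _ i
  have hgauss := stepP_gauss_roots A _ hcoeff
  rw [hlc] at hgauss
  -- the `x`-coordinates of `N ∖ 0`
  have memval : ∀ {ξ : Qbar} {s : Finset Qbar}, ξ ∈ s.val ↔ ξ ∈ s := Iff.rfl
  set X₀ : Finset Qbar := (Finset.univ.filter (fun x : Tors P => x ∈ N ∧ x ≠ 0)).image
    (fun x : Tors P => stepP_xc (x : (P.freyCurve⁄Qbar).Point)) with hX₀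
  have hmemX₀ : ∀ ξ, ξ ∈ X₀ ↔ ∃ x : Tors P, (x ∈ N ∧ x ≠ 0) ∧
      stepP_xc (x : (P.freyCurve⁄Qbar).Point) = ξ := by
    intro ξ
    rw [hX₀, Finset.mem_image]
    constructor
    · rintro ⟨x, hx, rfl⟩
      exact ⟨x, (Finset.mem_filter.1 hx).2, rfl⟩
    · rintro ⟨x, hx, rfl⟩
      exact ⟨x, Finset.mem_filter.2 ⟨Finset.mem_univ _, hx⟩, rfl⟩
  -- roots of a torsion point
  have hrootT : ∀ x : Tors P, x ≠ 0 →
      stepP_xc (x : (P.freyCurve⁄Qbar).Point) ∈ ((P.freyCurve⁄Qbar).preΨ (P.p : ℤ)).roots := by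
    rintro ⟨Q, hQ⟩ hx0
    have htors := stepP_nsmul_eq_zero P ⟨Q, hQ⟩
    cases Q with
    | zero => exact absurd rfl hx0
    | some a b h =>
      rw [mem_roots hΨ0]
      exact hroot P a b h htors
  have hnonT : ∀ x : Tors P, stepP_NonInt A (x : (P.freyCurve⁄Qbar).Point) →
      stepP_xc (x : (P.freyCurve⁄Qbar).Point) ∉ A := by
    rintro ⟨Q, hQ⟩ hnon
    cases Q with
    | zero => exact absurd hnon (stepP_not_nonInt_zero A)
    | some a b h => exact hnon
  have hX₀root : ∀ ξ ∈ X₀, ξ ∈ ((P.freyCurve⁄Qbar).preΨ (P.p : ℤ)).roots ∧ ξ ∉ A := by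
    intro ξ hξ
    obtain ⟨x, ⟨hxN, hx0⟩, rfl⟩ := (hmemX₀ ξ).1 hξ
    exact ⟨hrootT x hx0, hnonT x (hNn x hxN hx0)⟩
  have hX₀stab : ∀ σ : Gal, ∀ s ∈ X₀, σ s ∈ X₀ := by
    intro σ s hs
    obtain ⟨x, ⟨hxN, hx0⟩, rfl⟩ := (hmemX₀ s).1 hs
    refine (hmemX₀ _).2 ⟨σ • x, ⟨hN σ x hxN, ?_⟩, ?_⟩
    · intro h0
      apply hx0
      have : σ⁻¹ • (σ • x) = σ⁻¹ • (0 : Tors P) := by rw [h0]
      rwa [inv_smul_smul, smul_zero] at this
    · exact stepP_xc_smul P σ x
  obtain ⟨v₀, hv₀N, hv₀0⟩ := Submodule.exists_mem_ne_zero_of_ne_bot hbot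
  have hX₀ne : X₀.val ≠ 0 := by
    intro h0
    have hmem : stepP_xc (v₀ : (P.freyCurve⁄Qbar).Point) ∈ X₀ := (hmemX₀ _).2 ⟨v₀, ⟨hv₀N, hv₀0⟩, rfl⟩
    rw [← memval, h0] at hmem
    exact absurd hmem (Multiset.notMem_zero _)
  have hprodval : ∏ s ∈ X₀, s = X₀.val.prod := by
    rw [Finset.prod_eq_multiset_prod, Multiset.map_id']
  obtain ⟨r, hr⟩ := stepP_aux_prod_rat X₀ hX₀stab
  have hπ : X₀.val.prod ∉ A :=
    stepP_aux_prod_not_mem A X₀.val (fun ξ hξ => (hX₀root ξ (memval.1 hξ)).2) hX₀ne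
  have hπ0 : X₀.val.prod ≠ 0 := by
    intro h0
    rw [h0] at hπ
    exact hπ (zero_mem A)
  have hinv : ((P.p : Qbar) * X₀.val.prod)⁻¹ ∈ A := by
    rw [← hprodval, ← hr]
    apply stepP_aux_rat_inv_mem A P.pp hA r
    rw [hr, hprodval]
    exact hπ
  -- multisets
  set M : Multiset Qbar :=
    (((P.freyCurve⁄Qbar).preΨ (P.p : ℤ)).roots.filter (fun ξ => ξ ∉ A)) with hM
  have hle : X₀.val ≤ M :=
    (Multiset.le_iff_subset X₀.nodup).2 (fun ξ hξ =>
      Multiset.mem_filter.2 (hX₀root ξ (memval.1 hξ)))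
  have hMsplit : M = X₀.val + (M - X₀.val) := (add_tsub_cancel_of_le hle).symm
  have hprod : M.prod = X₀.val.prod * (M - X₀.val).prod := by
    conv_lhs => rw [hMsplit]
    rw [Multiset.prod_add]
  have hrest : (M - X₀.val).prod ∈ A := by
    have e : (M - X₀.val).prod =
        ((P.p : Qbar) * X₀.val.prod)⁻¹ * ((P.p : Qbar) * M.prod) := by
      rw [hprod]
      field_simp
    rw [e]
    exact mul_mem hinv hgauss
  have hrest0 : M - X₀.val = 0 := by
    by_contra h0
    refine stepP_aux_prod_not_mem A _ (fun ξ hξ => ?_) h0 hrest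
    exact (Multiset.mem_filter.1 (Multiset.mem_of_le (Multiset.sub_le_self _ _) hξ)).2
  have hMle : M ≤ X₀.val := tsub_eq_zero_iff_le.1 hrest0
  -- conclusion
  intro x hx0 hxN hnon
  have haM : stepP_xc (x : (P.freyCurve⁄Qbar).Point) ∈ M :=
    Multiset.mem_filter.2 ⟨hrootT x hx0, hnonT x hnon⟩
  have haX : stepP_xc (x : (P.freyCurve⁄Qbar).Point) ∈ X₀ :=
    memval.1 (Multiset.mem_of_le hMle haM)
  obtain ⟨y, ⟨hyN, hy0⟩, hyx⟩ := (hmemX₀ _).1 haX
  have hx0' : (x : (P.freyCurve⁄Qbar).Point) ≠ 0 := fun h => hx0 (Subtype.ext h)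
  have hy0' : (y : (P.freyCurve⁄Qbar).Point) ≠ 0 := fun h => hy0 (Subtype.ext h)
  rcases stepP_eq_or_eq_neg_of_xc hx0' hy0' hyx.symm with h | h
  · have : x = y := Subtype.ext h
    exact hxN (this ▸ hyN)
  · have : x = -y := Subtype.ext h
    exact hxN (this ▸ N.neg_mem hyN)

end Key

section Main

/-- **P5 (step at `p`).** -/
theorem stmtAtP_of (hcard : StmtCard) (hroot : StmtTorsZero) : StmtAtP := by
  intro P N hN hbot htop
  haveI : Fact P.p.Prime := ⟨P.pp⟩
  haveI : NeZero P.p := ⟨P.hp0⟩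
  obtain ⟨hfin, hc⟩ := hcard P
  haveI := hfin
  obtain ⟨A, hA⟩ := Fermat.Agent.Common.exists_liesOverPrime P.p P.pp
  refine ⟨A, hA, ?_⟩
  have hp2 := stepP_p_ne_two P
  obtain ⟨h₁, h₂, h₃, h₄, h₆⟩ := frey_coeff_mem P A P.pp hp2 hA
  obtain ⟨v₀, hv₀N, hv₀0, hv₀⟩ := asm_line P.p hc N hbot htop
  have hv₀0' : (v₀ : (P.freyCurve⁄Qbar).Point) ≠ 0 := fun h => hv₀0 (Subtype.ext h)
  by_cases hcase : stepP_NonInt A (v₀ : (P.freyCurve⁄Qbar).Point)
  · -- Case A
    right
    have hall : ∀ x ∈ N, x ≠ 0 → stepP_NonInt A (x : (P.freyCurve⁄Qbar).Point) := by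
      intro x hxN hx0
      obtain ⟨c, rfl⟩ := hv₀ x hxN
      rw [stepP_zmod_smul_coe]
      rcases stepP_nonInt_nsmul A h₁ h₂ h₃ h₄ h₆ hcase c.val with h0 | h
      · exfalso
        apply hx0
        apply Subtype.ext
        rw [stepP_zmod_smul_coe]
        exact h0
      · exact h
    have hkey := stepP_key hcard hroot P N hN hbot A hA hall
    intro σ hσ x
    by_cases hxN : x ∈ N
    · exact N.sub_mem (hN σ x hxN) hxN
    · have hx0 : x ≠ 0 := fun h => hxN (h ▸ N.zero_mem)
      have hint := hkey x hx0 hxN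
      rcases stepP_move P A hA hσ x (stepP_nsmul_eq_zero P x) hint with h0 | hnon
      · have : σ • x - x = 0 := Subtype.ext h0
        rw [this]
        exact N.zero_mem
      · by_contra hnotin
        have hne0 : σ • x - x ≠ 0 := fun h => hnotin (h ▸ N.zero_mem)
        exact hkey (σ • x - x) hne0 hnotin hnon
  · -- Case B
    left
    have hall : ∀ x ∈ N, x ≠ 0 → ¬ stepP_NonInt A (x : (P.freyCurve⁄Qbar).Point) := by
      intro x hxN hx0 hnon
      obtain ⟨c, hxc⟩ := hv₀ x hxN
      have hc0 : c ≠ 0 := by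
        rintro rfl
        rw [zero_smul] at hxc
        exact hx0 hxc
      have hv : v₀ = c⁻¹ • x := by
        rw [hxc, smul_smul, inv_mul_cancel₀ hc0, one_smul]
      have hv' : (v₀ : (P.freyCurve⁄Qbar).Point) = (c⁻¹).val • (x : (P.freyCurve⁄Qbar).Point) := by
        conv_lhs => rw [hv]
        exact stepP_zmod_smul_coe P c⁻¹ x
      rcases stepP_nonInt_nsmul A h₁ h₂ h₃ h₄ h₆ hnon (c⁻¹).val with h0 | h
      · exact hv₀0' (hv'.trans h0)
      · rw [← hv'] at h
        exact hcase h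
    intro σ hσ x hxN
    by_cases hx0 : x = 0
    · rw [hx0, smul_zero]
    · have hint := hall x hxN hx0
      rcases stepP_move P A hA hσ x (stepP_nsmul_eq_zero P x) hint with h0 | hnon
      · have : σ • x - x = 0 := Subtype.ext h0
        exact sub_eq_zero.1 this
      · exfalso
        have hmem : σ • x - x ∈ N := N.sub_mem (hN σ x hxN) hxN
        have hne0 : σ • x - x ≠ 0 := by
          intro h
          have h' : ((σ • x - x : Tors P) : (P.freyCurve⁄Qbar).Point) = 0 := by rw [h]; rfl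
          have hnon' : stepP_NonInt A ((σ • x - x : Tors P) : (P.freyCurve⁄Qbar).Point) := hnon
          rw [h'] at hnon'
          exact stepP_not_nonInt_zero A hnon'
        exact hall _ hmem hne0 hnon

end Main

end Fermat.Agent.S13


end ZBZ2S13_004_1
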