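/- GENERATED FILE (helper35, build-time optimisation, NOTES/ZB.md): verbatim concatenation of the modules
   Fermat.Agent.S13.MinkowskiStmt
   Fermat.Agent.S13.Wiring
   Fermat.Agent.S13
   Do not edit; do not import together with these modules. -/
import Fermat.Agent.ZB.S13_001
import Fermat.Agent.ZB.Common_003
import Fermat.Agent.ZB.Z2S13_001
import Fermat.Agent.ZB.S13_005
import Fermat.Agent.ZB.Z2S13_004
import Fermat.Agent.ZB.S13_007
import Fermat.Agent.ZB.S05_002
import Fermat.Agent.ZB.S05_004
import Fermat.Statements.S13
import Fermat.Agent.ZB.S13_009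

/-! ### bundled: `Fermat.Agent.S13.MinkowskiStmt` -/
section ZBZ2S13_005_0

/-!
# S13, piece P7: `StmtMinkowski`

The interface statement `Fermat.Agent.S13.StmtMinkowski` of `Fermat/Agent/S13/Interface.lean`,
proved from `Fermat.Agent.S13.Minkowski.minkowski_glue`.
-/

set_option autoImplicit false

namespace Fermat.Agent.S13

/-- P7: a normal subgroup of `Gal(ℚ̄/ℚ)` that contains the pointwise stabiliser of a finite set
of algebraic numbers and, for every prime `q`, the inertia group of some place over `q`, is
everything. -/
theorem stmtMinkowski : StmtMinkowski :=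
  fun K hKn hS hI => Minkowski.minkowski_glue K hKn hS hI

end Fermat.Agent.S13


end ZBZ2S13_005_0

/-! ### bundled: `Fermat.Agent.S13.Wiring` -/
section ZBZ2S13_005_1

/-!
# S13: final wiring

`stmtS13_of_criterion : StmtTorsZero → StmtZeroTors → StmtS13`: everything except the division
polynomial criterion (both directions) is discharged here.
-/

set_option autoImplicit false

namespace Fermat.Agent.S13

open WeierstrassCurve WeierstrassCurve.Affine WeierstrassCurve.Affine.Point

/-- S05 in the interface shape. -/
theorem stmtUnram : StmtUnram := by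
  intro P q hq hq2 hqp
  refine Fermat.Agent.S05.frey_unramified_of_tropical P hq hq2 hqp ?_
  intro A hA r₁ e₂ e₃ hr hr₁ he₃ he₂ he₂0 x y h htors hx
  exact Fermat.Agent.S05.tropical_torsion A.valuation hr.hb₂ hr.hb₄ hr.hb₆
    (Fermat.Agent.S05.valuation_two_eq_one A hq hA hq2) he₃ he₂ he₂0 P.hp_odd h htors hx

/-- The criterion in the shape used by `Torsion.lean`. -/
theorem wiring_criterion (h1 : StmtTorsZero) (h2 : StmtZeroTors) :
    ∀ (P : FreyPackage) (x y : Qbar) (h : (P.freyCurve⁄Qbar).Nonsingular x y),
      P.p • (Point.some x y h : (P.freyCurve⁄Qbar).Point) = 0 ↔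
        ((P.freyCurve.baseChange Qbar).preΨ P.p).eval x = 0 :=
  fun P x y h => ⟨h1 P x y h, h2 P x y h⟩

/-- **S13 from the division polynomial criterion.** -/
theorem stmtS13_of_criterion (h1 : StmtTorsZero) (h2 : StmtZeroTors) : StmtS13 :=
  assembly (stmtNontrivial_of_criterion (wiring_criterion h1 h2))
    (stmtCard_of_criterion (wiring_criterion h1 h2)) stmtUnram stmtAtTwo stmtNoFixed
    (stmtAtP_of (stmtCard_of_criterion (wiring_criterion h1 h2)) h1) stmtMinkowski

end Fermat.Agent.S13


end ZBZ2S13_005_1

/-! ### bundled: `Fermat.Agent.S13` -/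
section ZBZ2S13_005_2
-- Statement S13 (row 12): if the mod-p representation of the Frey curve is reducible, it has a
-- Galois-stable cofixed line.
-- Proof (elementary, no Mazur; S13 team, captain helper77, co-captain helper57):
--   division polynomial criterion (DivPoly/*, MFSomos, EDS) gives E[p] nontrivial, card ≤ p²;
--   inertia at q ≠ 2, p acts trivially (S05), unipotently at 2 (Local/FreyAtTwo), and at p it
--   fixes a stable line or its quotient (StepP); Minkowski (no unramified extension of ℚ) makes one
--   of the two characters trivial; the Frey curve has no rational point of order p (Local/NoFixed),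
--   so it is the character on the quotient: the stable line is cofixed (Assembly).

set_option autoImplicit false
open WeierstrassCurve WeierstrassCurve.Affine WeierstrassCurve.Affine.Point
open CuspForm ModularFormClass UpperHalfPlane
open FreyPackage

namespace Fermat.Agent.S13

theorem result (P : FreyPackage) (hred : ¬ GaloisRepIsIrreducible (K := AlgebraicClosure ℚ) ℚ P.freyCurve P.p) : HasGaloisStableCofixedLine (K := AlgebraicClosure ℚ) ℚ P.freyCurve P.p := by
  exact stmtS13_of_criterion stmtTorsZero stmtZeroTors P hred

end Fermat.Agent.S13


end ZBZ2S13_005_2
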