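/- GENERATED FILE (helper35, build-time optimisation, NOTES/ZB.md): verbatim concatenation of the modules
   Fermat.Agent.S12.Plan
   Fermat.Agent.S12.Monod
   Fermat.Agent.S12.CoreBase
   Fermat.Agent.S12.StepToric
   Fermat.Agent.S12.StepCofixed
   Fermat.Agent.S12.StepSplitAlg
   Fermat.Agent.S12.StepSplitQuot
   Fermat.Agent.S12.StepSplitCard
   Fermat.Agent.S12.StepSplitAct
   Fermat.Agent.S12.StepSplitAdm
   Fermat.Agent.S12.StepSplitLoc
   Fermat.Agent.S12.StepSplit
   Fermat.Agent.S12.Core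
   Fermat.Agent.S12.GFrob
   Fermat.Agent.S12.GWrap
   Fermat.Agent.S12.L1
   Fermat.Agent.S12.HS15
   Fermat.Agent.S12.HS15Frey
   Fermat.Agent.S12.LocP
   Fermat.Agent.S12.Cyc
   Fermat.Agent.S12.RamP
   Fermat.Agent.S12.U1
   Do not edit; do not import together with these modules. -/
import Mathlib
import Fermat.Prelude.Def_FLTPrelim_FreyPackage
import Fermat.Prelude.Def_FLTPrelim_GaloisRep
import Fermat.Prelude.Def_FLTPrelim_Modularity
import Fermat.Prelude.Def_FLTPrelim_Ramification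
import Fermat.Prelude.Def_FLTPrelim_CofixedLine
import Fermat.Prelude.Def_EllipticCurve_ZeroComponentAt
import Fermat.Prelude.Def_ExtCitation_AdmissibleExtension_v2
import Fermat.Agent.ZB.S13_001
import Fermat.Agent.ZB.HW_006
import Fermat.Agent.ZB.RED_001
import Fermat.Agent.ZB.Common_003
import Fermat.Agent.ZB.S04_001
import Fermat.Agent.ZB.RED_002
import Fermat.Agent.ZB.Z2S15_004
import Fermat.Agent.ZB.S13_005
import Fermat.Agent.ZB.Common_001
import Fermat.Agent.ZB.Z2S13_004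
import Fermat.Agent.ZB.S13_004
import Fermat.Agent.ZB.S13_009
import Fermat.Agent.ZB.Z2S13_005
import Fermat.Agent.ZB.EC_002
import Fermat.Agent.ZB.HW_007
import Fermat.Agent.ZB.EC_008
import Fermat.Agent.ZB.EC_007
import Fermat.Agent.ZB.EC_001
import Fermat.Agent.ZB.S33_002

/-! ### bundled: `Fermat.Agent.S12.Plan` -/
section ZBZ2S12_001_0

/-!
# S12 (no cofixed line for `p ≥ 17`) — interface of the glue `S12 ⇐ S15 + S14`
(sub-captain helper47; design and proofs: `NOTES/S12-glue.md`)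

`E` = the Frey curve, `M = E(ℚ̄)`, `G = Gal(ℚ̄/ℚ)`, `p = P.p ≥ 17`.  A cofixed line is a
`G`-stable subgroup `K₁ ⊂ E[p]` of order `p` with `G` trivial on `E[p]/K₁`.

**Chain.**  `IsLevel k K` : `K ⊂ E[p^k]` cyclic of order `p^k`, `G`-stable, `G` trivial on
`E[p^k]/K`, `K₁ ⊂ K`, and `K` toric at every ramified place `A ∣ ℓ ≠ p`: `K ≤ monod A`, where
`monod A` is the subgroup generated by all `σ R - R`, `σ ∈ I_A`, `R ∈ E[p^∞]`.
* base: `K₁` has level `1` (toric by `HS15`);
* step: `V = [p]⁻¹K / K ⊃ C = (E[p] + K)/K` is an admissible extension (`S14` shape: fixed sub,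
  cyclotomic quotient; unramified outside `p` by `HUnip` + toric, locally split at `p` by
  `HLocP`), so it splits: `K⁺` = preimage of the complement; `K⁺` is toric by `HS15` and
  cofixed by Minkowski;
* end: `HFin` bounds `p^k`.

The elliptic curve enters only through the Props `HCard … HS15` about the `G`-module `M`; the
quotient curves `E/K` exist only inside the proof of `HS15` (`StmtVelu`), where the frozen `S15`
is applied to them.
-/

set_option autoImplicit false

namespace Fermat.Agent.S12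

open WeierstrassCurve WeierstrassCurve.Affine WeierstrassCurve.Affine.Point

/-- `ℚ̄` -/
abbrev Qb : Type := AlgebraicClosure ℚ

/-- `Gal(ℚ̄/ℚ)` -/
abbrev GQ : Type := Qb ≃ₐ[ℚ] Qb

/-! ## The abstract core -/

section Abstract

variable (M : Type) [AddCommGroup M] [DistribMulAction GQ M] (p : ℕ)

/-- The monodromy subgroup at `A`: generated by `σ R - R`, `σ ∈ I_A`, `R` of `p`-power order. -/
def monod (A : ValuationSubring Qb) : AddSubgroup M :=
  AddSubgroup.closure
    {x | ∃ σ ∈ A.inertiaSubgroupIn ℚ, ∃ (m : ℕ) (R : M), p ^ m • R = 0 ∧ x = σ • R - R}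

/-- **(CARD)** `#M[p^m] = p^{2m}`. -/
def HCard : Prop :=
  ∀ m : ℕ, Nat.card {x : M // p ^ m • x = 0} = p ^ (2 * m)

/-- **(OPEN)** the stabiliser of a `p`-power torsion point contains the fixer of a finite set of
algebraic numbers. -/
def HOpen : Prop :=
  ∀ x : M, (∃ m : ℕ, p ^ m • x = 0) →
    ∃ S : Finset Qb, ∀ σ : GQ, (∀ s ∈ S, σ s = s) → σ • x = x

/-- **(UNIP)** at every place `A ∣ ℓ ≠ p`, inertia fixes `σ R - R` (`σ ∈ I_A`, `R ∈ M[p^∞]`). -/
def HUnip : Prop :=
  ∀ ℓ : ℕ, ℓ.Prime → ℓ ≠ p → ∀ A : ValuationSubring Qb, A.LiesOverPrime ℓ →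
    ∀ σ ∈ A.inertiaSubgroupIn ℚ, ∀ τ ∈ A.inertiaSubgroupIn ℚ,
      ∀ (m : ℕ) (R : M), p ^ m • R = 0 → τ • (σ • R - R) = σ • R - R

/-- **(LOCP)** at every place `A ∣ p` there is a `D_A`-stable subgroup `Z` (the kernel of
reduction) which contains `σ R - R` for `σ ∈ I_A`, `R ∈ M[p^∞]`, and does not contain `M[p]`. -/
def HLocP : Prop :=
  ∀ A : ValuationSubring Qb, A.LiesOverPrime p → ∃ Z : AddSubgroup M,
    (∀ σ ∈ A.decompositionSubgroup ℚ, ∀ x ∈ Z, σ • x ∈ Z) ∧
    (∀ σ ∈ A.inertiaSubgroupIn ℚ, ∀ (m : ℕ) (R : M), p ^ m • R = 0 → σ • R - R ∈ Z) ∧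
    ∃ x : M, p • x = 0 ∧ x ∉ Z

/-- A cofixed line, as a subgroup of `M`. -/
structure IsCofixedLine (K₁ : AddSubgroup M) : Prop where
  card : Nat.card K₁ = p
  stable : ∀ σ : GQ, ∀ x ∈ K₁, σ • x ∈ K₁
  cofixed : ∀ σ : GQ, ∀ x : M, p • x = 0 → σ • x - x ∈ K₁

/-- **(CYC)** `G` acts on the cofixed line through the mod-`p` cyclotomic character. -/
def HCyc [Fact p.Prime] (K₁ : AddSubgroup M) : Prop :=
  ∀ σ : GQ, ∀ x ∈ K₁, σ • x = ExtCitation.cycloExp p σ • x

/-- **(RAMP)** at every place over `p`, inertia does not fix the cofixed line pointwise. -/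
def HRamP (K₁ : AddSubgroup M) : Prop :=
  ∀ A : ValuationSubring Qb, A.LiesOverPrime p →
    ∃ σ ∈ A.inertiaSubgroupIn ℚ, ∃ x ∈ K₁, σ • x ≠ x

/-- **(FIN)** a cyclic subgroup `K` of order `p^k` with `G` trivial on `M[p^k]/K` has
`p^k ≤ B` (Frobenius at a good prime `ℓ₀`: `B = 2ℓ₀ + 1`). -/
def HFin : Prop :=
  ∃ B : ℕ, ∀ (k : ℕ) (K : AddSubgroup M), Nat.card K = p ^ k →
    (∃ g : M, K = AddSubgroup.zmultiples g) →
    (∀ σ : GQ, ∀ x : M, p ^ k • x = 0 → σ • x - x ∈ K) → p ^ k ≤ B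

/-- **(HS15)** the consequence of the frozen `S15` (applied to `E/K`): for a `G`-stable cyclic
`K` of order `p^{k+1}` and `P₀ ∈ M[p] ∖ K` with `σ P₀ - P₀ ∈ K` for all `σ`, the point `P₀` is not
in `monod A + K` at any ramified place `A ∣ ℓ ≠ p`. -/
def HS15 : Prop :=
  ∀ (k : ℕ) (K : AddSubgroup M), Nat.card K = p ^ (k + 1) →
    (∃ g : M, K = AddSubgroup.zmultiples g) → (∀ σ : GQ, ∀ x ∈ K, σ • x ∈ K) →
    ∀ P₀ : M, p • P₀ = 0 → P₀ ∉ K → (∀ σ : GQ, σ • P₀ - P₀ ∈ K) →
      ∀ ℓ : ℕ, ℓ.Prime → ℓ ≠ p → ∀ A : ValuationSubring Qb, A.LiesOverPrime ℓ →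
        monod M p A ≠ ⊥ → ∀ t ∈ monod M p A, ∀ κ ∈ K, P₀ ≠ t + κ

/-- The chain property `P(k)`. -/
structure IsLevel (K₁ : AddSubgroup M) (k : ℕ) (K : AddSubgroup M) : Prop where
  card : Nat.card K = p ^ k
  cyc : ∃ g : M, K = AddSubgroup.zmultiples g
  stable : ∀ σ : GQ, ∀ x ∈ K, σ • x ∈ K
  cofixed : ∀ σ : GQ, ∀ x : M, p ^ k • x = 0 → σ • x - x ∈ K
  line : K₁ ≤ K
  toric : ∀ ℓ : ℕ, ℓ.Prime → ℓ ≠ p → ∀ A : ValuationSubring Qb, A.LiesOverPrime ℓ →
    monod M p A ≠ ⊥ → K ≤ monod M p A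

end Abstract

/-- Every prime has a place of `ℚ̄` above it. -/
def HPlaces : Prop :=
  ∀ q : ℕ, q.Prime → ∃ A : ValuationSubring Qb, A.LiesOverPrime q

/-- **CORE-BASE.** The cofixed line has level `1`. -/
def StmtCoreBase : Prop :=
  ∀ (M : Type) [AddCommGroup M] [DistribMulAction GQ M] (p : ℕ) [Fact p.Prime],
    HCard M p → HUnip M p → HS15 M p →
    ∀ K₁ : AddSubgroup M, IsCofixedLine M p K₁ → IsLevel M p K₁ 1 K₁

/-- **STEP-SPLIT.** (`S14`) A level `K` (`k ≥ 1`) has a `G`-stable cyclic overgroup `K'` of order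
`p^{k+1}`.  [`V = [p]⁻¹K / K`, `C = (M[p] + K)/K` is admissible; `K'` = preimage of the
complement.] -/
def StmtStepSplit : Prop :=
  ∀ (M : Type) [AddCommGroup M] [DistribMulAction GQ M] (p : ℕ) [Fact p.Prime], 3 ≤ p →
    ExtCitation.ExtVanishingCts p →
    HCard M p → HOpen M p → HUnip M p → HLocP M p →
    ∀ K₁ : AddSubgroup M, IsCofixedLine M p K₁ → HCyc M p K₁ → HRamP M p K₁ →
    ∀ (k : ℕ) (K : AddSubgroup M), 1 ≤ k → IsLevel M p K₁ k K →
      ∃ K' : AddSubgroup M, K ≤ K' ∧ Nat.card K' = p ^ (k + 1) ∧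
        (∃ g : M, K' = AddSubgroup.zmultiples g) ∧ (∀ σ : GQ, ∀ x ∈ K', σ • x ∈ K')

/-- **STEP-TORIC.** (`HS15`) The overgroup is toric at every ramified place. -/
def StmtStepToric : Prop :=
  ∀ (M : Type) [AddCommGroup M] [DistribMulAction GQ M] (p : ℕ) [Fact p.Prime],
    HCard M p → HUnip M p → HS15 M p →
    ∀ K₁ : AddSubgroup M, IsCofixedLine M p K₁ →
    ∀ (k : ℕ) (K : AddSubgroup M), 1 ≤ k → IsLevel M p K₁ k K →
    ∀ K' : AddSubgroup M, K ≤ K' → Nat.card K' = p ^ (k + 1) →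
      (∃ g : M, K' = AddSubgroup.zmultiples g) → (∀ σ : GQ, ∀ x ∈ K', σ • x ∈ K') →
      ∀ ℓ : ℕ, ℓ.Prime → ℓ ≠ p → ∀ A : ValuationSubring Qb, A.LiesOverPrime ℓ →
        monod M p A ≠ ⊥ → K' ≤ monod M p A

/-- **STEP-COFIXED.** (Minkowski) A `G`-stable cyclic subgroup `K'` of order `p^{k+1}` which
contains the cofixed line and is toric at every ramified place has `G` trivial on
`M[p^{k+1}]/K'`. -/
def StmtStepCofixed : Prop :=
  ∀ (M : Type) [AddCommGroup M] [DistribMulAction GQ M] (p : ℕ) [Fact p.Prime],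
    Fermat.Agent.S13.StmtMinkowski → HPlaces →
    HCard M p → HOpen M p → HUnip M p → HLocP M p →
    ∀ K₁ : AddSubgroup M, IsCofixedLine M p K₁ → HRamP M p K₁ →
    ∀ (k : ℕ) (K' : AddSubgroup M), K₁ ≤ K' → Nat.card K' = p ^ (k + 1) →
      (∃ g : M, K' = AddSubgroup.zmultiples g) → (∀ σ : GQ, ∀ x ∈ K', σ • x ∈ K') →
      (∀ ℓ : ℕ, ℓ.Prime → ℓ ≠ p → ∀ A : ValuationSubring Qb, A.LiesOverPrime ℓ →
        monod M p A ≠ ⊥ → K' ≤ monod M p A) →
      ∀ σ : GQ, ∀ x : M, p ^ (k + 1) • x = 0 → σ • x - x ∈ K'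

/-- **CORE-STEP.** From level `k ≥ 1` to level `k + 1`. -/
def StmtCoreStep : Prop :=
  ∀ (M : Type) [AddCommGroup M] [DistribMulAction GQ M] (p : ℕ) [Fact p.Prime], 3 ≤ p →
    ExtCitation.ExtVanishingCts p → Fermat.Agent.S13.StmtMinkowski → HPlaces →
    HCard M p → HOpen M p → HUnip M p → HLocP M p → HS15 M p →
    ∀ K₁ : AddSubgroup M, IsCofixedLine M p K₁ → HCyc M p K₁ → HRamP M p K₁ →
    ∀ (k : ℕ) (K : AddSubgroup M), 1 ≤ k → IsLevel M p K₁ k K →
      ∃ K' : AddSubgroup M, IsLevel M p K₁ (k + 1) K'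

/-- **CORE.** The hypotheses are contradictory. -/
def StmtCore : Prop :=
  ∀ (M : Type) [AddCommGroup M] [DistribMulAction GQ M] (p : ℕ) [Fact p.Prime], 3 ≤ p →
    ExtCitation.ExtVanishingCts p → Fermat.Agent.S13.StmtMinkowski → HPlaces →
    HCard M p → HOpen M p → HUnip M p → HLocP M p → HFin M p → HS15 M p →
    ∀ K₁ : AddSubgroup M, IsCofixedLine M p K₁ → HCyc M p K₁ → HRamP M p K₁ → False

/-- `CORE-STEP` from its three parts. -/
theorem stmtCoreStep_of (hsplit : StmtStepSplit) (htoric : StmtStepToric)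
    (hcof : StmtStepCofixed) : StmtCoreStep := by
  intro M _ _ p _ hp3 hS14 hMink hpl hcard hopen hunip hlocp hs15 K₁ hK₁ hcyc hramp k K hk hK
  obtain ⟨K', hKK', hcardK', hcycK', hstK'⟩ :=
    hsplit M p hp3 hS14 hcard hopen hunip hlocp K₁ hK₁ hcyc hramp k K hk hK
  have htor := htoric M p hcard hunip hs15 K₁ hK₁ k K hk hK K' hKK' hcardK' hcycK' hstK'
  exact ⟨K', ⟨hcardK', hcycK', hstK',
    hcof M p hMink hpl hcard hopen hunip hlocp K₁ hK₁ hramp k K' (hK.line.trans hKK') hcardK'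
      hcycK' hstK' htor,
    hK.line.trans hKK', htor⟩⟩

/-- `CORE` from `CORE-BASE` and `CORE-STEP`. -/
theorem stmtCore_of (hbase : StmtCoreBase) (hstep : StmtCoreStep) : StmtCore := by
  intro M _ _ p _ hp3 hS14 hMink hpl hcard hopen hunip hlocp hfin hs15 K₁ hK₁ hcyc hramp
  obtain ⟨B, hB⟩ := hfin
  have hp : p.Prime := Fact.out
  have hall : ∀ n : ℕ, ∃ K : AddSubgroup M, IsLevel M p K₁ (n + 1) K := by
    intro n
    induction n with
    | zero => exact ⟨K₁, hbase M p hcard hunip hs15 K₁ hK₁⟩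
    | succ n ih =>
      obtain ⟨K, hK⟩ := ih
      exact hstep M p hp3 hS14 hMink hpl hcard hopen hunip hlocp hs15 K₁ hK₁ hcyc hramp
        (n + 1) K (Nat.le_add_left 1 n) hK
  obtain ⟨K, hK⟩ := hall B
  have h1 := hB (B + 1) K hK.card hK.cyc hK.cofixed
  have h2 : B + 1 < p ^ (B + 1) := Nat.lt_pow_self hp.one_lt
  omega

/-! ## The geometric pieces (Frey curve) -/

/-- `E(ℚ̄)` for the Frey curve. -/
abbrev Pt (P : FreyPackage) : Type := (P.freyCurve⁄Qb).Point

/-- `W(ℚ̄)` for an integral model. -/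
abbrev PtZ (W : WeierstrassCurve ℤ) : Type := ((W.map (Int.castRingHom ℚ))⁄Qb).Point

/-- **G-LINE.** A cofixed line in the sense of the prelude gives one in the sense of the core. -/
def StmtLine : Prop :=
  ∀ P : FreyPackage,
    HasGaloisStableCofixedLine (K := AlgebraicClosure ℚ) ℚ P.freyCurve P.p →
      ∃ K₁ : AddSubgroup (Pt P), IsCofixedLine (Pt P) P.p K₁

/-- **G-CARD.** -/
def StmtCard : Prop := ∀ P : FreyPackage, HCard (Pt P) P.p

/-- **G-OPEN.** -/
def StmtOpen : Prop := ∀ P : FreyPackage, HOpen (Pt P) P.p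

/-- **G-UNIP.** -/
def StmtUnip : Prop := ∀ P : FreyPackage, HUnip (Pt P) P.p

/-- **G-LOCP.** -/
def StmtLocP : Prop :=
  ∀ (P : FreyPackage) (K₁ : AddSubgroup (Pt P)), IsCofixedLine (Pt P) P.p K₁ →
    HLocP (Pt P) P.p

/-- **G-CYC.** -/
def StmtCyc : Prop :=
  ∀ (P : FreyPackage) (K₁ : AddSubgroup (Pt P)), IsCofixedLine (Pt P) P.p K₁ →
    haveI : Fact P.p.Prime := ⟨P.pp⟩
    HCyc (Pt P) P.p K₁

/-- **G-RAMP.** -/
def StmtRamP : Prop :=
  ∀ (P : FreyPackage) (K₁ : AddSubgroup (Pt P)), IsCofixedLine (Pt P) P.p K₁ →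
    HRamP (Pt P) P.p K₁

/-- **G-FIN.** -/
def StmtFin : Prop := ∀ P : FreyPackage, HFin (Pt P) P.p

/-- The frozen statement `S15`, as a Prop. -/
def StmtS15 : Prop :=
  ∀ {p : ℕ} (_ : p.Prime) (_ : p ∉ ({2, 3, 5, 7, 13} : Finset ℕ))
    (W : WeierstrassCurve ℤ) (_ : W.Δ ≠ 0)
    (Q : ((W.map (Int.castRingHom ℚ))⁄(AlgebraicClosure ℚ)).Point)
    (_ : ∀ σ : AlgebraicClosure ℚ ≃ₐ[ℚ] AlgebraicClosure ℚ, σ • Q = Q)
    (_ : addOrderOf Q = p)
    (_ : (2 : ℤ) ∣ W.Δ) (_ : ¬ (2 : ℤ) ∣ W.c₄)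
    (_ : ∀ A : ValuationSubring (AlgebraicClosure ℚ), A.LiesOverPrime 2 →
      ¬ W.InZeroComponentAt A Q)
    (_ : (3 : ℤ) ∣ W.Δ) (_ : ¬ (3 : ℤ) ∣ W.c₄)
    (_ : ∀ A : ValuationSubring (AlgebraicClosure ℚ), A.LiesOverPrime 3 →
      ¬ W.InZeroComponentAt A Q)
    {ℓ : ℕ} (_ : ℓ.Prime) (_ : ℓ ≠ p) (_ : (ℓ : ℤ) ∣ W.Δ) (_ : ¬ (ℓ : ℤ) ∣ W.c₄)
    (A : ValuationSubring (AlgebraicClosure ℚ)) (_ : A.LiesOverPrime ℓ),
    ¬ W.InZeroComponentAt A Q

/-- **G-HS15.** -/
def StmtHS15 : Prop :=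
  StmtS15 → ∀ P : FreyPackage, 17 ≤ P.p → HS15 (Pt P) P.p

/-! ### Inputs of `G-HS15` -/

/-- **VELU.** The quotient of an integral model by a finite `G`-stable subgroup `K` of odd prime
power order: an integral model `W'` and a `G`-equivariant homomorphism `φ` with kernel `K`; a
prime `ℓ ≠ p` of multiplicative reduction of `W` does not divide `c₄(W')`. -/
def StmtVelu : Prop :=
  ∀ (W : WeierstrassCurve ℤ), W.Δ ≠ 0 → W.c₄ ≠ 0 → W.c₆ ≠ 0 →
    ∀ (p : ℕ), p.Prime → p ≠ 2 → ∀ (k : ℕ) (K : AddSubgroup (PtZ W)), Nat.card K = p ^ k →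
      (∀ σ : GQ, ∀ x ∈ K, σ • x ∈ K) →
      ∃ (W' : WeierstrassCurve ℤ) (φ : PtZ W →+ PtZ W'),
        W'.Δ ≠ 0 ∧ (∀ (σ : GQ) (x : PtZ W), φ (σ • x) = σ • φ x) ∧ (∀ x, φ x = 0 ↔ x ∈ K) ∧
        ∀ ℓ : ℕ, ℓ.Prime → ℓ ≠ p → (ℓ : ℤ) ∣ W.Δ → ¬ (ℓ : ℤ) ∣ W.c₄ → ¬ (ℓ : ℤ) ∣ W'.c₄

/-- **U1.** At a prime of multiplicative reduction (any `ℓ`, also `2`), inertia moves a torsion
point of odd order prime to `ℓ` inside the identity component. -/
def StmtU1 : Prop :=
  ∀ (W : WeierstrassCurve ℤ), W.Δ ≠ 0 → ∀ ℓ : ℕ, ℓ.Prime → (ℓ : ℤ) ∣ W.Δ → ¬ (ℓ : ℤ) ∣ W.c₄ →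
    ∀ A : ValuationSubring Qb, A.LiesOverPrime ℓ → ∀ σ ∈ A.inertiaSubgroupIn ℚ,
      ∀ n : ℕ, Odd n → ¬ ℓ ∣ n → ∀ R : PtZ W, n • R = 0 → W.InZeroComponentAt A (σ • R - R)

/-- **E0-ADD.** The identity component at `A` is a subgroup. -/
def StmtE0Add : Prop :=
  ∀ (W : WeierstrassCurve ℤ) (A : ValuationSubring Qb) (x y : PtZ W),
    W.InZeroComponentAt A x → W.InZeroComponentAt A y → W.InZeroComponentAt A (x - y)

/-- **L1-TWO.** A rational point of prime order `p ≥ 7` is not in the identity component at a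
place over `2` of multiplicative reduction. -/
def StmtL1Two : Prop :=
  ∀ (W : WeierstrassCurve ℤ), W.Δ ≠ 0 → (2 : ℤ) ∣ W.Δ → ¬ (2 : ℤ) ∣ W.c₄ →
    ∀ (p : ℕ), p.Prime → 7 ≤ p → ∀ Q : PtZ W, (∀ σ : GQ, σ • Q = Q) → addOrderOf Q = p →
      ∀ A : ValuationSubring Qb, A.LiesOverPrime 2 → ¬ W.InZeroComponentAt A Q

/-- **L1-THREE.** The same at `3` (`p ≥ 5`; from `ecloc_not_inZero`). -/
def StmtL1Three : Prop :=
  ∀ (W : WeierstrassCurve ℤ), W.Δ ≠ 0 → (3 : ℤ) ∣ W.Δ → ¬ (3 : ℤ) ∣ W.c₄ →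
    ∀ (p : ℕ), p.Prime → 5 ≤ p → ∀ Q : PtZ W, (∀ σ : GQ, σ • Q = Q) → addOrderOf Q = p →
      ∀ A : ValuationSubring Qb, A.LiesOverPrime 3 → ¬ W.InZeroComponentAt A Q

/-- **GOODTORS.** A rational point of prime order `p ≠ ℓ` on a model with good reduction at `ℓ`:
`p ≤ 2ℓ + 1`. -/
def StmtGoodTors : Prop :=
  ∀ (W : WeierstrassCurve ℤ), W.Δ ≠ 0 → ∀ ℓ : ℕ, ℓ.Prime → ¬ (ℓ : ℤ) ∣ W.Δ →
    ∀ (p : ℕ), p.Prime → p ≠ ℓ → ∀ Q : PtZ W, (∀ σ : GQ, σ • Q = Q) → addOrderOf Q = p →
      p ≤ 2 * ℓ + 1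

/-- **GOODLINE.** A model with good reduction at `ℓ ≠ p` and a cyclic subgroup `K` of order `p^k`
with `G` trivial on `E[p^k]/K`: `p^k ≤ 2ℓ + 1`. -/
def StmtGoodLine : Prop :=
  ∀ (W : WeierstrassCurve ℤ), W.Δ ≠ 0 → ∀ ℓ : ℕ, ℓ.Prime → ¬ (ℓ : ℤ) ∣ W.Δ →
    ∀ (p : ℕ), p.Prime → p ≠ ℓ → ∀ (k : ℕ) (K : AddSubgroup (PtZ W)), Nat.card K = p ^ k →
      (∃ g : PtZ W, K = AddSubgroup.zmultiples g) →
      (∀ σ : GQ, ∀ x : PtZ W, p ^ k • x = 0 → σ • x - x ∈ K) → p ^ k ≤ 2 * ℓ + 1

/-- **GOOD-UNR.** Good reduction at `ℓ`: inertia fixes the torsion of order prime to `ℓ`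
(`RED.inertia_smul_eq_of_good`). -/
def StmtGoodUnr : Prop :=
  ∀ (W : WeierstrassCurve ℤ), ∀ ℓ : ℕ, ℓ.Prime → ¬ (ℓ : ℤ) ∣ W.Δ →
    ∀ A : ValuationSubring Qb, A.LiesOverPrime ℓ → ∀ σ ∈ A.inertiaSubgroupIn ℚ,
      ∀ n : ℕ, ¬ ℓ ∣ n → ∀ R : PtZ W, n • R = 0 → σ • R = R

/-! ## Assembly -/

/-- The statement of S12. -/
def StmtS12 : Prop :=
  ∀ P : FreyPackage, 17 ≤ P.p →
    ¬ HasGaloisStableCofixedLine (K := AlgebraicClosure ℚ) ℚ P.freyCurve P.p

/-- **S12 from the pieces.** -/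
theorem s12_of (hcore : StmtCore) (hS14 : ∀ (p : ℕ) [Fact p.Prime], 3 ≤ p →
      ExtCitation.ExtVanishingCts p)
    (hMink : Fermat.Agent.S13.StmtMinkowski) (hpl : HPlaces)
    (hline : StmtLine) (hcard : StmtCard) (hopen : StmtOpen) (hunip : StmtUnip)
    (hlocp : StmtLocP) (hcyc : StmtCyc) (hramp : StmtRamP) (hfin : StmtFin)
    (hs15 : StmtS15 → ∀ P : FreyPackage, 17 ≤ P.p → HS15 (Pt P) P.p) (h15 : StmtS15) :
    StmtS12 := by
  intro P hp hcof
  have : Fact P.p.Prime := ⟨P.pp⟩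
  obtain ⟨K₁, hK₁⟩ := hline P hcof
  exact hcore (Pt P) P.p (by omega) (hS14 P.p (by omega)) hMink hpl (hcard P) (hopen P)
    (hunip P) (hlocp P K₁ hK₁) (hfin P) (hs15 h15 P hp) K₁ hK₁ (hcyc P K₁ hK₁) (hramp P K₁ hK₁)

end Fermat.Agent.S12


end ZBZ2S12_001_0

/-! ### bundled: `Fermat.Agent.S12.Monod` -/
section ZBZ2S12_001_1

/-!
# S12-GLUE: shared algebra for the chain (helper24)

`M` an abelian group with an action of `G_ℚ`, `p` a prime.
* `s12mT M p m`            : `M[p^m]` as a subgroup;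
* `s12m_surj`              : (a) `[p] : M[p^{m+1}] → M[p^m]` is surjective (from `HCard`);
* `s12m_torsion_of_mem`    : the elements of `monod A` are `p`-power torsion;
* `s12m_pdiv`              : (b) `monod A` is `p`-divisible;
* `s12m_exists_order_p`    : `monod A ≠ ⊥` contains an element of order `p`;
* `s12m_cyc_mem`, `s12m_cyc_eq` : subgroups of a cyclic group;
* `s12m_prime_gen`         : a group of prime order is generated by each nonzero element.
-/

set_option autoImplicit false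

namespace Fermat.Agent.S12

section General

variable {M : Type} [AddCommGroup M]

/-- `M[n]` -/
def s12mT (M : Type) [AddCommGroup M] (p m : ℕ) : AddSubgroup M where
  carrier := {x | p ^ m • x = 0}
  zero_mem' := smul_zero _
  add_mem' := by
    intro a b ha hb
    show p ^ m • (a + b) = 0
    rw [smul_add, ha, hb, add_zero]
  neg_mem' := by
    intro a ha
    show p ^ m • (-a) = 0
    rw [smul_neg, ha, neg_zero]

theorem s12m_mem_T {p m : ℕ} {x : M} : x ∈ s12mT M p m ↔ p ^ m • x = 0 := Iff.rfl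

/-- elements of a cyclic group killed by `b`, when the generator has order `a * b` -/
theorem s12m_cyc_mem {g x : M} {a b : ℕ} (hb : b ≠ 0) (hord : addOrderOf g = a * b)
    (hx : x ∈ AddSubgroup.zmultiples g) (hbx : b • x = 0) :
    x ∈ AddSubgroup.zmultiples (a • g) := by
  obtain ⟨n, rfl⟩ := AddSubgroup.mem_zmultiples_iff.mp hx
  have h1 : ((b : ℤ) * n) • g = 0 := by
    rw [mul_smul, natCast_zsmul]
    exact hbx
  have h2 : ((a * b : ℕ) : ℤ) ∣ (b : ℤ) * n := by
    rw [← hord]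
    exact addOrderOf_dvd_iff_zsmul_eq_zero.mpr h1
  have h3 : (a : ℤ) ∣ n := by
    rw [Nat.cast_mul, mul_comm (a : ℤ) (b : ℤ)] at h2
    exact (mul_dvd_mul_iff_left (Int.natCast_ne_zero.mpr hb)).mp h2
  obtain ⟨c, rfl⟩ := h3
  refine AddSubgroup.mem_zmultiples_iff.mpr ⟨c, ?_⟩
  rw [mul_comm, mul_smul, natCast_zsmul]

/-- the subgroup of order `b` of a cyclic group of order `a * b` -/
theorem s12m_cyc_eq {g : M} {a b : ℕ} (hb : b ≠ 0) (hord : addOrderOf g = a * b)
    (K : AddSubgroup M) (hK : K ≤ AddSubgroup.zmultiples g) (hcard : Nat.card K = b) :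
    K = AddSubgroup.zmultiples (a • g) := by
  have hle : K ≤ AddSubgroup.zmultiples (a • g) := by
    intro x hx
    refine s12m_cyc_mem hb hord (hK hx) ?_
    have h := card_nsmul_eq_zero' (G := K) (x := ⟨x, hx⟩)
    rw [hcard] at h
    exact congrArg Subtype.val h
  have hfin : Finite (AddSubgroup.zmultiples (a • g)) := by
    apply Nat.finite_of_card_ne_zero
    rw [Nat.card_zmultiples]
    intro h0
    have h1 : b • (a • g) = 0 := by
      rw [← mul_smul, mul_comm, ← hord]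
      exact addOrderOf_nsmul_eq_zero g
    have := addOrderOf_le_of_nsmul_eq_zero (Nat.pos_of_ne_zero hb) h1
    have hpos : 0 < addOrderOf (a • g) := by
      rw [addOrderOf_pos_iff]
      exact isOfFinAddOrder_iff_nsmul_eq_zero.mpr ⟨b, Nat.pos_of_ne_zero hb, h1⟩
    omega
  refine AddSubgroup.eq_of_le_of_card_ge hle ?_
  rw [hcard, Nat.card_zmultiples]
  refine addOrderOf_le_of_nsmul_eq_zero (Nat.pos_of_ne_zero hb) ?_
  rw [← mul_smul, mul_comm, ← hord]
  exact addOrderOf_nsmul_eq_zero g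

/-- a group of prime order is generated by each of its nonzero elements -/
theorem s12m_prime_gen {p : ℕ} (hp : p.Prime) (K : AddSubgroup M) (hcard : Nat.card K = p)
    {e : M} (he : e ∈ K) (he0 : e ≠ 0) : K = AddSubgroup.zmultiples e := by
  have hfin : Finite K := Nat.finite_of_card_ne_zero (by rw [hcard]; exact hp.ne_zero)
  have hle : AddSubgroup.zmultiples e ≤ K := (AddSubgroup.zmultiples_le_of_mem he)
  symm
  refine AddSubgroup.eq_of_le_of_card_ge hle ?_
  rw [hcard, Nat.card_zmultiples]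
  have hpe : p • e = 0 := by
    have h := card_nsmul_eq_zero' (G := K) (x := ⟨e, he⟩)
    rw [hcard] at h
    exact congrArg Subtype.val h
  have hdvd : addOrderOf e ∣ p := addOrderOf_dvd_iff_nsmul_eq_zero.mpr hpe
  rcases (Nat.dvd_prime hp).mp hdvd with h1 | h1
  · exact absurd (AddMonoid.addOrderOf_eq_one_iff.mp h1) he0
  · exact h1.ge

end General

section Surj

variable {M : Type} [AddCommGroup M] [DistribMulAction GQ M] {p : ℕ}

omit [DistribMulAction GQ M] in
/-- (a) `[p] : M[p^{m+1}] → M[p^m]` is surjective -/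
theorem s12m_surj (hp : p.Prime) (hcard : HCard M p) (m : ℕ) (R : M) (hR : p ^ m • R = 0) :
    ∃ R' : M, p • R' = R ∧ p ^ (m + 1) • R' = 0 := by
  have hc : ∀ n, Nat.card (s12mT M p n) = p ^ (2 * n) := fun n => hcard n
  have hfin : ∀ n, Finite (s12mT M p n) := fun n =>
    Nat.finite_of_card_ne_zero (by rw [hc]; exact pow_ne_zero _ hp.ne_zero)
  let f : s12mT M p (m + 1) →+ s12mT M p m :=
    AddMonoidHom.mk' (fun x => ⟨p • x.1, by
      show p ^ m • (p • x.1) = 0
      rw [← mul_smul, ← pow_succ]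
      exact x.2⟩) (fun a b => by
        apply Subtype.ext
        show p • ((a : M) + (b : M)) = p • (a : M) + p • (b : M)
        rw [smul_add])
  have hker : Nat.card f.ker = p ^ 2 := by
    rw [← mul_one 2, ← hc 1]
    refine Nat.card_congr
      { toFun := fun x => ⟨x.1.1, by
          have h := x.2
          rw [AddMonoidHom.mem_ker] at h
          have h' : p • (x.1.1 : M) = 0 := congrArg Subtype.val h
          show p ^ 1 • (x.1.1 : M) = 0
          rw [pow_one]; exact h'⟩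
        invFun := fun y => ⟨⟨y.1, by
          show p ^ (m + 1) • (y.1 : M) = 0
          have h : p ^ 1 • (y.1 : M) = 0 := y.2
          rw [pow_one] at h
          rw [pow_succ, mul_smul, h, smul_zero]⟩, by
          rw [AddMonoidHom.mem_ker]
          apply Subtype.ext
          show p • (y.1 : M) = 0
          have h : p ^ 1 • (y.1 : M) = 0 := y.2
          rw [pow_one] at h
          exact h⟩
        left_inv := fun x => rfl
        right_inv := fun y => rfl }
  have hrange : Nat.card f.range = p ^ (2 * m) := by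
    have h1 := AddSubgroup.card_mul_index f.ker
    rw [AddSubgroup.index_ker, hker, hc (m + 1)] at h1
    have h2 : p ^ (2 * (m + 1)) = p ^ 2 * p ^ (2 * m) := by
      rw [← pow_add]; congr 1; ring
    rw [h2] at h1
    exact Nat.eq_of_mul_eq_mul_left (pow_pos hp.pos 2) h1
  have htop : f.range = ⊤ := by
    have : Finite f.range := inferInstance
    exact AddSubgroup.eq_top_of_card_eq _ (by rw [hrange, hc m])
  have hmem : (⟨R, hR⟩ : s12mT M p m) ∈ f.range := by rw [htop]; trivial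
  obtain ⟨R', hR'⟩ := hmem
  exact ⟨R'.1, congrArg Subtype.val hR', R'.2⟩

end Surj

section Monod

variable {M : Type} [AddCommGroup M] [DistribMulAction GQ M] {p : ℕ}

/-- the elements of `monod A` are `p`-power torsion -/
theorem s12m_torsion_of_mem (A : ValuationSubring Qb) {x : M} (hx : x ∈ monod M p A) :
    ∃ m : ℕ, p ^ m • x = 0 := by
  induction hx using AddSubgroup.closure_induction with
  | mem x hx =>
    obtain ⟨σ, -, m, R, hR, rfl⟩ := hx
    refine ⟨m, ?_⟩
    rw [smul_sub, smul_comm, hR, smul_zero, sub_zero]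
  | zero => exact ⟨0, smul_zero _⟩
  | add x y _ _ hx hy =>
    obtain ⟨m, hm⟩ := hx
    obtain ⟨n, hn⟩ := hy
    refine ⟨m + n, ?_⟩
    have h1 : p ^ (m + n) • x = 0 := by rw [pow_add, mul_comm, mul_smul, hm, smul_zero]
    have h2 : p ^ (m + n) • y = 0 := by rw [pow_add, mul_smul, hn, smul_zero]
    rw [smul_add, h1, h2, add_zero]
  | neg x _ hx =>
    obtain ⟨m, hm⟩ := hx
    exact ⟨m, by rw [smul_neg, hm, neg_zero]⟩

/-- (b) `monod A` is `p`-divisible -/
theorem s12m_pdiv (hp : p.Prime) (hcard : HCard M p) (A : ValuationSubring Qb) {x : M}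
    (hx : x ∈ monod M p A) : ∃ t ∈ monod M p A, p • t = x := by
  induction hx using AddSubgroup.closure_induction with
  | mem x hx =>
    obtain ⟨σ, hσ, m, R, hR, rfl⟩ := hx
    obtain ⟨R', hR', hR'm⟩ := s12m_surj hp hcard m R hR
    refine ⟨σ • R' - R', AddSubgroup.subset_closure ⟨σ, hσ, m + 1, R', hR'm, rfl⟩, ?_⟩
    rw [smul_sub, smul_comm, hR']
  | zero => exact ⟨0, AddSubgroup.zero_mem _, smul_zero _⟩
  | add x y _ _ hx hy =>
    obtain ⟨t, ht, rfl⟩ := hx
    obtain ⟨s, hs, rfl⟩ := hy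
    exact ⟨t + s, AddSubgroup.add_mem _ ht hs, smul_add _ _ _⟩
  | neg x _ hx =>
    obtain ⟨t, ht, rfl⟩ := hx
    exact ⟨-t, AddSubgroup.neg_mem _ ht, smul_neg _ _⟩

/-- a nontrivial `monod A` contains an element of order `p` -/
theorem s12m_exists_order_p (A : ValuationSubring Qb) (hne : monod M p A ≠ ⊥) :
    ∃ e ∈ monod M p A, e ≠ 0 ∧ p • e = 0 := by
  classical
  obtain ⟨x, hx, hx0⟩ : ∃ x ∈ monod M p A, x ≠ 0 := by
    by_contra h
    simp only [not_exists, not_and, not_not] at h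
    exact hne ((AddSubgroup.eq_bot_iff_forall _).mpr h)
  have hex := s12m_torsion_of_mem A hx
  have hmin : ∀ k, k < Nat.find hex → ¬ p ^ k • x = 0 := fun k hk => Nat.find_min hex hk
  have hspec := Nat.find_spec hex
  set m := Nat.find hex with hm
  have hm0 : m ≠ 0 := by
    intro h0
    rw [h0, pow_zero, one_smul] at hspec
    exact hx0 hspec
  obtain ⟨n, hn⟩ := Nat.exists_eq_succ_of_ne_zero hm0
  refine ⟨p ^ n • x, AddSubgroup.nsmul_mem _ hx _, ?_, ?_⟩
  · exact hmin n (by omega)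
  · rw [← mul_smul, ← pow_succ', ← Nat.succ_eq_add_one, ← hn]
    exact hspec

end Monod

end Fermat.Agent.S12


end ZBZ2S12_001_1

/-! ### bundled: `Fermat.Agent.S12.CoreBase` -/
section ZBZ2S12_001_2

/-!
# S12-GLUE: CORE-BASE

`stmtCoreBase : StmtCoreBase`: the cofixed line `K₁` has level `1`.

Only the toric property needs an argument: at a ramified place `A`, `monod A` contains an
element `e ≠ 0` of order `p` (`s12m_exists_order_p`).  If `e ∈ K₁` then `K₁ = ℤ e ≤ monod A`.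
Otherwise `e ∈ M[p] ∖ K₁`, `σ e - e ∈ K₁`, and `e = e + 0 ∈ monod A + K₁` contradicts `HS15`.
-/

set_option autoImplicit false

namespace Fermat.Agent.S12

/-- a subgroup of prime order has a nonzero element -/
theorem s12b_exists_ne_zero {M : Type} [AddCommGroup M] {p : ℕ} (hp : p.Prime)
    (K : AddSubgroup M) (hcard : Nat.card K = p) : ∃ g ∈ K, g ≠ 0 := by
  by_contra h
  simp only [not_exists, not_and, not_not] at h
  have hbot : K = ⊥ := (AddSubgroup.eq_bot_iff_forall _).mpr h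
  rw [hbot, AddSubgroup.card_bot] at hcard
  exact hp.one_lt.ne hcard

/-- **CORE-BASE.** -/
theorem stmtCoreBase : StmtCoreBase := by
  intro M _ _ p hp hcard hunip hs15 K₁ hK₁
  have hpp : p.Prime := hp.out
  obtain ⟨g, hg, hg0⟩ := s12b_exists_ne_zero hpp K₁ hK₁.card
  have hcyc : ∃ g : M, K₁ = AddSubgroup.zmultiples g :=
    ⟨g, s12m_prime_gen hpp K₁ hK₁.card hg hg0⟩
  refine ⟨by rw [hK₁.card, pow_one], hcyc, hK₁.stable,
    fun σ x hx => hK₁.cofixed σ x (by rwa [pow_one] at hx), le_refl _, ?_⟩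
  intro ℓ hℓ hℓp A hA hne
  obtain ⟨e, he, he0, hpe⟩ := s12m_exists_order_p A hne
  by_cases heK : e ∈ K₁
  · rw [s12m_prime_gen hpp K₁ hK₁.card heK he0]
    exact AddSubgroup.zmultiples_le_of_mem he
  · exfalso
    exact hs15 0 K₁ (by rw [hK₁.card, zero_add, pow_one]) hcyc hK₁.stable e hpe heK
      (fun σ => hK₁.cofixed σ e hpe) ℓ hℓ hℓp A hA hne e he 0 K₁.zero_mem (add_zero e).symm

end Fermat.Agent.S12


end ZBZ2S12_001_2

/-! ### bundled: `Fermat.Agent.S12.StepToric` -/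
section ZBZ2S12_001_3

/-!
# S12-GLUE: STEP-TORIC

`stmtStepToric : StmtStepToric`: a `G`-stable cyclic overgroup `K' ⊇ K` of order `p^{k+1}` of a
level `K` is toric at every ramified place `A`.

`g'` a generator of `K'`; `p g'` generates `K ≤ monod A`; `t ∈ monod A` with `p t = p g'`
(`s12m_pdiv`); `e := t - g' ∈ M[p]`.  If `e ∈ K₁ ≤ monod A` then `g' = t - e ∈ monod A`.
Otherwise `e ∉ K'` (as `K' ∩ M[p] = K₁`), `σ e - e ∈ K₁ ≤ K'`, and `e = t + (-g')` contradicts
`HS15`.
-/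

set_option autoImplicit false

namespace Fermat.Agent.S12

/-- **STEP-TORIC.** -/
theorem stmtStepToric : StmtStepToric := by
  intro M _ _ p hp hcard hunip hs15 K₁ hK₁ k K hk hK K' hKK' hcardK' hcycK' hstK' ℓ hℓ hℓp A hA
    hne
  have hpp : p.Prime := hp.out
  obtain ⟨g', rfl⟩ := hcycK'
  have hord : addOrderOf g' = p ^ (k + 1) := by rw [← Nat.card_zmultiples, hcardK']
  have hKeq : K = AddSubgroup.zmultiples (p • g') :=
    s12m_cyc_eq (a := p) (b := p ^ k) (pow_ne_zero _ hpp.ne_zero) (by rw [hord, pow_succ'])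
      K hKK' hK.card
  have hg : p • g' ∈ monod M p A := by
    apply hK.toric ℓ hℓ hℓp A hA hne
    rw [hKeq]
    exact AddSubgroup.mem_zmultiples _
  obtain ⟨t, ht, hpt⟩ := s12m_pdiv hpp hcard A hg
  have hpe : p • (t - g') = 0 := by rw [smul_sub, hpt, sub_self]
  by_cases heK : t - g' ∈ K₁
  · have h1 : t - g' ∈ monod M p A := hK.toric ℓ hℓ hℓp A hA hne (hK.line heK)
    have h2 : g' ∈ monod M p A := by
      have : g' = t - (t - g') := by abel
      rw [this]
      exact AddSubgroup.sub_mem _ ht h1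
    exact AddSubgroup.zmultiples_le_of_mem h2
  · exfalso
    have hK₁eq : K₁ = AddSubgroup.zmultiples (p ^ k • g') :=
      s12m_cyc_eq (a := p ^ k) (b := p) hpp.ne_zero (by rw [hord, pow_succ])
        K₁ (hK.line.trans hKK') hK₁.card
    have heK' : t - g' ∉ AddSubgroup.zmultiples g' := by
      intro h
      apply heK
      rw [hK₁eq]
      exact s12m_cyc_mem (a := p ^ k) (b := p) hpp.ne_zero (by rw [hord, pow_succ]) h hpe
    exact hs15 k (AddSubgroup.zmultiples g') hcardK' ⟨g', rfl⟩ hstK' (t - g') hpe heK'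
      (fun σ => (hK.line.trans hKK') (hK₁.cofixed σ (t - g') hpe)) ℓ hℓ hℓp A hA hne t ht (-g')
      (AddSubgroup.neg_mem _ (AddSubgroup.mem_zmultiples g')) (sub_eq_add_neg t g')

end Fermat.Agent.S12


end ZBZ2S12_001_3

/-! ### bundled: `Fermat.Agent.S12.StepCofixed` -/
section ZBZ2S12_001_4

/-!
# S12 glue, piece STEP-COFIXED (helper60)

`stmtStepCofixed : StmtStepCofixed` — a `G`-stable cyclic subgroup `K'` of order `p^{k+1}` of
`M = E(ℚ̄)` which contains the cofixed line and is toric at every ramified place has `G` trivial on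
`M[p^{k+1}] / K'`.  Proof (NOTES/S12-glue.md): the set `H` of all `σ` acting trivially on
`M[p^{k+1}] / K'` is a normal subgroup containing the fixer of a finite set, so by Minkowski it is
enough to see `I_A ≤ H` for one place `A` over each prime `q`.
* `q ≠ p`: `σ x - x ∈ monod A ∩ M[p^{k+1}]`, and this group is `K'` (or `0`) by counting;
* `q = p`: `σ x - x ∈ Z ∩ M[p^{k+1}]` (`Z` the kernel of reduction, `HLocP`), and this group is
  `K'` by counting, because inertia acts on `K'` through a character which is nontrivial mod `p`.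

Pure algebra (names `s12c_*`): `s12c_card_le` (a finite abelian group killed by `p^n` with at most
`p` elements of order dividing `p` has at most `p^n` elements), `s12c_card_le_of_lt`,
`s12c_tors_surj` (a), `s12c_monod_div` (b), `s12c_monod_fix` (c), `s12c_monod_not_le` (d).
-/

set_option autoImplicit false

namespace Fermat.Agent.S12

/-! ## Counting in finite abelian `p`-groups -/

section Count

/-- A finite abelian group killed by `p ^ n` whose `p`-torsion has at most `p` elements has at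
most `p ^ n` elements. -/
theorem s12c_card_le (p : ℕ) (n : ℕ) :
    ∀ (X : Type) [AddCommGroup X] [Finite X], (∀ x : X, p ^ n • x = 0) →
      Nat.card {x : X // p • x = 0} ≤ p → Nat.card X ≤ p ^ n := by
  induction n with
  | zero =>
      intro X _ _ hkill _
      have hsub : Subsingleton X := ⟨fun a b => by
        have ha := hkill a
        have hb := hkill b
        rw [pow_zero, one_smul] at ha hb
        rw [ha, hb]⟩
      rw [pow_zero]
      exact (Nat.card_eq_one_iff_unique.mpr ⟨hsub, ⟨0⟩⟩).le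
  | succ n ih =>
      intro X _ _ hkill htors
      let f : X →+ X := DistribSMul.toAddMonoidHom X p
      have hf : ∀ x, f x = p • x := fun x => rfl
      -- the range is killed by `p ^ n`
      have hrange : ∀ y : f.range, p ^ n • y = 0 := by
        rintro ⟨y, x, rfl⟩
        apply Subtype.ext
        show p ^ n • f x = 0
        rw [hf, ← mul_smul, ← pow_succ]
        exact hkill x
      have htorsR : Nat.card {y : f.range // p • y = 0} ≤ p := by
        refine le_trans ?_ htors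
        refine Nat.card_le_card_of_injective
          (fun y : {y : f.range // p • y = 0} =>
            (⟨(y.1 : X), by
              have := congrArg Subtype.val y.2
              exact this⟩ : {x : X // p • x = 0})) ?_
        intro a b hab
        apply Subtype.ext
        apply Subtype.ext
        exact congrArg (fun t : {x : X // p • x = 0} => (t : X)) hab
      have h1 := ih f.range hrange htorsR
      -- the kernel
      have hker : Nat.card f.ker ≤ p := by
        refine le_trans ?_ htors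
        refine Nat.card_le_card_of_injective
          (fun y : f.ker => (⟨(y : X), y.2⟩ : {x : X // p • x = 0})) ?_
        intro a b hab
        apply Subtype.ext
        exact congrArg (fun t : {x : X // p • x = 0} => (t : X)) hab
      have h2 : Nat.card X = Nat.card f.ker * Nat.card f.range := by
        rw [AddSubgroup.card_eq_card_quotient_mul_card_addSubgroup f.ker, mul_comm]
        congr 1
        exact Nat.card_congr (QuotientAddGroup.quotientKerEquivRange f).toEquiv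
      rw [h2, pow_succ, mul_comm (p ^ n) p]
      exact Nat.mul_le_mul hker h1

end Count

/-! ## Subgroups of `M` -/

section Sub

variable {M : Type} [AddCommGroup M] (p : ℕ)

/-- `M[p^n]` as a subgroup -/
def s12cTors (n : ℕ) : AddSubgroup M where
  carrier := {x | p ^ n • x = 0}
  zero_mem' := smul_zero _
  add_mem' := by
    intro a b ha hb
    show p ^ n • (a + b) = 0
    rw [smul_add, ha, hb, add_zero]
  neg_mem' := by
    intro a ha
    show p ^ n • (-a) = 0
    rw [smul_neg, ha, neg_zero]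

theorem mem_s12cTors {n : ℕ} {x : M} : x ∈ s12cTors (M := M) p n ↔ p ^ n • x = 0 := Iff.rfl

theorem s12cTors_mono {m n : ℕ} (h : m ≤ n) : s12cTors (M := M) p m ≤ s12cTors p n := by
  intro x hx
  rw [mem_s12cTors] at hx ⊢
  obtain ⟨d, rfl⟩ := Nat.exists_eq_add_of_le h
  rw [pow_add, mul_comm, mul_smul, hx, smul_zero]

theorem s12c_card_tors (hcard : ∀ m : ℕ, Nat.card {x : M // p ^ m • x = 0} = p ^ (2 * m))
    (n : ℕ) : Nat.card (s12cTors (M := M) p n) = p ^ (2 * n) := hcard n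

theorem s12c_finite_tors (hp : 0 < p)
    (hcard : ∀ m : ℕ, Nat.card {x : M // p ^ m • x = 0} = p ^ (2 * m)) (n : ℕ) :
    Finite (s12cTors (M := M) p n) := by
  apply Nat.finite_of_card_ne_zero
  rw [s12c_card_tors p hcard]
  exact (pow_pos hp _).ne'

/-- a subgroup killed by `p ^ n` whose `p`-torsion has at most `p` elements has at most `p ^ n`
elements -/
theorem s12c_card_sub_le (n : ℕ) (X : AddSubgroup M) [Finite X]
    (hkill : ∀ x ∈ X, p ^ n • x = 0) (h1 : Nat.card ↥(X ⊓ s12cTors p 1) ≤ p) :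
    Nat.card X ≤ p ^ n := by
  refine s12c_card_le p n X (fun x => Subtype.ext (hkill x.1 x.2)) ?_
  refine le_trans ?_ h1
  have hfin : Finite ↥(X ⊓ s12cTors p 1) :=
    Finite.of_injective (fun y : ↥(X ⊓ s12cTors p 1) => (⟨(y : M), y.2.1⟩ : X))
      (fun a b hab => Subtype.ext (congrArg (fun t : X => (t : M)) hab))
  have hmem : ∀ y : {x : X // p • x = 0}, ((y.1 : X) : M) ∈ X ⊓ s12cTors p 1 := by
    intro y
    refine AddSubgroup.mem_inf.mpr ⟨y.1.2, ?_⟩
    rw [mem_s12cTors, pow_one]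
    exact congrArg Subtype.val y.2
  refine Nat.card_le_card_of_injective
    (fun y : {x : X // p • x = 0} => (⟨(y.1 : M), hmem y⟩ : ↥(X ⊓ s12cTors p 1))) ?_
  intro a b hab
  apply Subtype.ext
  apply Subtype.ext
  exact congrArg (fun t : ↥(X ⊓ s12cTors p 1) => (t : M)) hab

/-- a proper subgroup of a group of order `p²` has at most `p` elements -/
theorem s12c_card_le_of_ne (hp : p.Prime) (T Y : AddSubgroup M) (hT : Nat.card T = p ^ 2)
    (hY : Y ≤ T) (hne : ∃ x ∈ T, x ∉ Y) : Nat.card Y ≤ p := by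
  have : Finite T := Nat.finite_of_card_ne_zero (by rw [hT]; exact (pow_pos hp.pos _).ne')
  have hdvd : Nat.card Y ∣ p ^ 2 := hT ▸ AddSubgroup.card_dvd_of_le hY
  obtain ⟨i, hi, hcard⟩ := (Nat.dvd_prime_pow hp).1 hdvd
  rcases Nat.lt_or_ge i 2 with h | h
  · rw [hcard]
    calc p ^ i ≤ p ^ 1 := Nat.pow_le_pow_right hp.pos (by omega)
      _ = p := pow_one p
  · exfalso
    have hi2 : i = 2 := le_antisymm hi h
    have heq : Y = T := AddSubgroup.eq_of_le_of_card_ge hY (by rw [hT, hcard, hi2])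
    obtain ⟨x, hx, hxY⟩ := hne
    exact hxY (heq ▸ hx)

end Sub

/-! ## The monodromy subgroup -/

section Monod

variable {M : Type} [AddCommGroup M] [DistribMulAction GQ M] (p : ℕ)

omit [DistribMulAction GQ M] in
/-- (a) multiplication by `p` maps `M[p^{m+1}]` onto `M[p^m]` -/
theorem s12c_tors_surj (hp : p.Prime) (hcard : HCard M p) (m : ℕ) (x : M)
    (hx : p ^ m • x = 0) : ∃ y : M, p ^ (m + 1) • y = 0 ∧ p • y = x := by
  let f : ↥(s12cTors (M := M) p (m + 1)) →+ ↥(s12cTors (M := M) p m) :=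
    { toFun := fun y => ⟨p • (y : M), by
        rw [mem_s12cTors, ← mul_smul, ← pow_succ]
        exact y.2⟩
      map_zero' := Subtype.ext (smul_zero p)
      map_add' := fun a b => Subtype.ext (smul_add p (a : M) b) }
  have hf : ∀ y, ((f y : ↥(s12cTors (M := M) p m)) : M) = p • (y : M) := fun y => rfl
  have hfin1 : Finite ↥(s12cTors (M := M) p (m + 1)) := s12c_finite_tors p hp.pos hcard (m + 1)
  have hfin0 : Finite ↥(s12cTors (M := M) p m) := s12c_finite_tors p hp.pos hcard m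
  have hfinT : Finite ↥(s12cTors (M := M) p 1) := s12c_finite_tors p hp.pos hcard 1
  have hker : Nat.card f.ker ≤ p ^ 2 := by
    have h1 := s12c_card_tors p hcard 1
    rw [mul_one] at h1
    rw [← h1]
    have hmem : ∀ y : f.ker, ((y : ↥(s12cTors (M := M) p (m + 1))) : M) ∈
        s12cTors (M := M) p 1 := by
      intro y
      rw [mem_s12cTors, pow_one, ← hf]
      have := y.2
      rw [AddMonoidHom.mem_ker] at this
      rw [this]
      rfl
    refine Nat.card_le_card_of_injective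
      (fun y : f.ker => (⟨_, hmem y⟩ : ↥(s12cTors (M := M) p 1))) ?_
    intro a b hab
    apply Subtype.ext
    apply Subtype.ext
    exact congrArg (fun t : ↥(s12cTors (M := M) p 1) => (t : M)) hab
  have h2 : Nat.card ↥(s12cTors (M := M) p (m + 1)) = Nat.card f.ker * Nat.card f.range := by
    rw [AddSubgroup.card_eq_card_quotient_mul_card_addSubgroup f.ker, mul_comm]
    congr 1
    exact Nat.card_congr (QuotientAddGroup.quotientKerEquivRange f).toEquiv
  rw [s12c_card_tors p hcard] at h2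
  have h3 : p ^ (2 * m) ≤ Nat.card f.range := by
    have h4 : p ^ (2 * m) * p ^ 2 ≤ Nat.card f.range * p ^ 2 := by
      calc p ^ (2 * m) * p ^ 2 = p ^ (2 * (m + 1)) := by rw [← pow_add]; congr 1
        _ = Nat.card f.ker * Nat.card f.range := h2
        _ ≤ p ^ 2 * Nat.card f.range := Nat.mul_le_mul_right _ hker
        _ = Nat.card f.range * p ^ 2 := mul_comm _ _
    exact Nat.le_of_mul_le_mul_right h4 (pow_pos hp.pos 2)
  have hrange : f.range = ⊤ := by
    apply AddSubgroup.eq_top_of_le_card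
    rw [s12c_card_tors p hcard]
    exact h3
  obtain ⟨y, hy⟩ := (AddMonoidHom.range_eq_top.mp hrange) ⟨x, hx⟩
  exact ⟨y, y.2, congrArg Subtype.val hy⟩

/-- (b) the monodromy subgroup is `p`-divisible -/
theorem s12c_monod_div (hp : p.Prime) (hcard : HCard M p) (A : ValuationSubring Qb) :
    ∀ t ∈ monod M p A, ∃ t' ∈ monod M p A, p • t' = t := by
  intro t ht
  unfold monod at ht
  induction ht using AddSubgroup.closure_induction with
  | mem x hx =>
      obtain ⟨σ, hσ, m, R, hR, rfl⟩ := hx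
      obtain ⟨R', hR', hpR'⟩ := s12c_tors_surj p hp hcard m R hR
      refine ⟨σ • R' - R', AddSubgroup.subset_closure ⟨σ, hσ, m + 1, R', hR', rfl⟩, ?_⟩
      rw [smul_sub, smul_comm, hpR']
  | zero => exact ⟨0, zero_mem _, smul_zero p⟩
  | add x y _ _ ihx ihy =>
      obtain ⟨x', hx', rfl⟩ := ihx
      obtain ⟨y', hy', rfl⟩ := ihy
      exact ⟨x' + y', add_mem hx' hy', smul_add p x' y'⟩
  | neg x _ ih =>
      obtain ⟨x', hx', rfl⟩ := ih
      exact ⟨-x', neg_mem hx', smul_neg p x'⟩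

/-- (c) inertia fixes the monodromy subgroup pointwise -/
theorem s12c_monod_fix (hunip : HUnip M p) {ℓ : ℕ} (hℓ : ℓ.Prime) (hℓp : ℓ ≠ p)
    {A : ValuationSubring Qb} (hA : A.LiesOverPrime ℓ) :
    ∀ τ ∈ A.inertiaSubgroupIn ℚ, ∀ t ∈ monod M p A, τ • t = t := by
  intro τ hτ t ht
  unfold monod at ht
  induction ht using AddSubgroup.closure_induction with
  | mem x hx =>
      obtain ⟨σ, hσ, m, R, hR, rfl⟩ := hx
      exact hunip ℓ hℓ hℓp A hA σ hσ τ hτ m R hR
  | zero => exact smul_zero τ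
  | add x y _ _ ihx ihy => rw [smul_add, ihx, ihy]
  | neg x _ ih => rw [smul_neg, ih]

/-- (d) a nonzero monodromy subgroup does not contain `M[p]` -/
theorem s12c_monod_not_le (hp : p.Prime) (hcard : HCard M p) (hunip : HUnip M p) {ℓ : ℕ}
    (hℓ : ℓ.Prime) (hℓp : ℓ ≠ p) {A : ValuationSubring Qb} (hA : A.LiesOverPrime ℓ)
    (hne : monod M p A ≠ ⊥) : ∃ x ∈ s12cTors (M := M) p 1, x ∉ monod M p A := by
  by_contra hcon
  push Not at hcon
  have hall : ∀ m : ℕ, s12cTors (M := M) p m ≤ monod M p A := by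
    intro m
    induction m with
    | zero =>
        intro x hx
        rw [mem_s12cTors, pow_zero, one_smul] at hx
        rw [hx]
        exact zero_mem _
    | succ m ih =>
        intro x hx
        have hpx : p • x ∈ s12cTors (M := M) p m := by
          rw [mem_s12cTors, ← mul_smul, ← pow_succ]
          exact hx
        obtain ⟨t, ht, hpt⟩ := s12c_monod_div p hp hcard A (p • x) (ih hpx)
        have h1 : x - t ∈ s12cTors (M := M) p 1 := by
          rw [mem_s12cTors, pow_one, smul_sub, hpt, sub_self]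
        have h2 : x = t + (x - t) := by abel
        rw [h2]
        exact add_mem ht (hcon _ h1)
  apply hne
  rw [eq_bot_iff]
  unfold monod
  rw [AddSubgroup.closure_le]
  rintro x ⟨σ, hσ, m, R, hR, rfl⟩
  have hRm : R ∈ monod M p A := hall m hR
  have := s12c_monod_fix p hunip hℓ hℓp hA σ hσ R hRm
  show σ • R - R ∈ (⊥ : AddSubgroup M)
  rw [this, sub_self]
  exact zero_mem _

end Monod

/-! ## Counting inside `M` -/

section CountM

variable {M : Type} [AddCommGroup M] (p : ℕ)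

/-- a subgroup of order `p ^ n` is killed by `p ^ n` -/
theorem s12c_kill_of_card {n : ℕ} (K' : AddSubgroup M) (hK' : Nat.card K' = p ^ n) :
    ∀ x ∈ K', p ^ n • x = 0 := by
  intro x hx
  have h := card_nsmul_eq_zero' (G := K') (x := ⟨x, hx⟩)
  rw [hK'] at h
  exact congrArg Subtype.val h

/-- **Counting.** `K'` of order `p ^ n` inside a subgroup `Y` which does not contain `M[p]`
(`#M[p] = p²`): then `Y ∩ M[p^n] = K'`. -/
theorem s12c_mem_of_count (hp : p.Prime)
    (hcard : ∀ m : ℕ, Nat.card {x : M // p ^ m • x = 0} = p ^ (2 * m)) (n : ℕ)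
    (K' Y : AddSubgroup M) (hK' : Nat.card K' = p ^ n) (hKY : K' ≤ Y)
    (hY : ∃ x ∈ s12cTors (M := M) p 1, x ∉ Y) :
    ∀ r ∈ Y, p ^ n • r = 0 → r ∈ K' := by
  have hfinT : ∀ m, Finite ↥(s12cTors (M := M) p m) := s12c_finite_tors p hp.pos hcard
  have hfin_of_le : ∀ (m : ℕ) (X : AddSubgroup M), X ≤ s12cTors (M := M) p m → Finite X := by
    intro m X hX
    have := hfinT m
    exact Finite.of_injective (fun y : X => (⟨(y : M), hX y.2⟩ : ↥(s12cTors (M := M) p m)))
      (fun a b hab => Subtype.ext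
        (congrArg (fun t : ↥(s12cTors (M := M) p m) => (t : M)) hab))
  -- `Y₁ = Y ∩ M[p]` has at most `p` elements
  have hT1 : Nat.card (s12cTors (M := M) p 1) = p ^ 2 := by
    have := s12c_card_tors p hcard 1
    rwa [mul_one] at this
  have hY1 : Nat.card ↥(Y ⊓ s12cTors (M := M) p 1) ≤ p := by
    refine s12c_card_le_of_ne p hp (s12cTors p 1) _ hT1 inf_le_right ?_
    obtain ⟨x, hx, hxY⟩ := hY
    exact ⟨x, hx, fun h => hxY h.1⟩
  -- `X = Y ∩ M[p^n]`
  have hXle : Y ⊓ s12cTors (M := M) p n ≤ s12cTors (M := M) p n := inf_le_right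
  have hfinX : Finite ↥(Y ⊓ s12cTors (M := M) p n) := hfin_of_le n _ hXle
  have hfinY1 : Finite ↥(Y ⊓ s12cTors (M := M) p 1) := hfin_of_le 1 _ inf_le_right
  have hX1 : Nat.card ↥((Y ⊓ s12cTors (M := M) p n) ⊓ s12cTors (M := M) p 1) ≤ p := by
    refine le_trans ?_ hY1
    have hle : (Y ⊓ s12cTors (M := M) p n) ⊓ s12cTors (M := M) p 1 ≤
        Y ⊓ s12cTors (M := M) p 1 := inf_le_inf_right _ inf_le_left
    exact Nat.card_le_card_of_injective
      (fun y : ↥((Y ⊓ s12cTors (M := M) p n) ⊓ s12cTors (M := M) p 1) =>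
        (⟨(y : M), hle y.2⟩ : ↥(Y ⊓ s12cTors (M := M) p 1)))
      (fun a b hab => Subtype.ext
        (congrArg (fun t : ↥(Y ⊓ s12cTors (M := M) p 1) => (t : M)) hab))
  have hXcard : Nat.card ↥(Y ⊓ s12cTors (M := M) p n) ≤ p ^ n :=
    s12c_card_sub_le p n _ (fun x hx => hx.2) hX1
  have hKX : K' ≤ Y ⊓ s12cTors (M := M) p n :=
    le_inf hKY (fun x hx => s12c_kill_of_card p K' hK' x hx)
  have heq : K' = Y ⊓ s12cTors (M := M) p n :=
    AddSubgroup.eq_of_le_of_card_ge hKX (by rw [hK']; exact hXcard)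
  intro r hr hpr
  rw [heq]
  exact ⟨hr, hpr⟩

end CountM

/-! ## The character of inertia on `K'` -/

section Char

variable {M : Type} [AddCommGroup M] [DistribMulAction GQ M] (p : ℕ)

/-- If `σ₀` does not fix a point `x₁` of order `p` of the cyclic group `K' = ⟨g⟩` of order `p ^ n`
and `σ₀ g - g ∈ Z`, then `K' ≤ Z`. -/
theorem s12c_le_of_char (hp : p.Prime) (n : ℕ) (K' Z : AddSubgroup M) (g : M)
    (hg : K' = AddSubgroup.zmultiples g) (hK' : Nat.card K' = p ^ n) (σ₀ : GQ)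
    (hσ₀K : σ₀ • g ∈ K') (hσ₀Z : σ₀ • g - g ∈ Z) (x₁ : M) (hx₁ : x₁ ∈ K')
    (hpx₁ : p • x₁ = 0) (hne : σ₀ • x₁ ≠ x₁) : K' ≤ Z := by
  have hgK : g ∈ K' := hg ▸ AddSubgroup.mem_zmultiples g
  rw [hg] at hσ₀K hx₁
  obtain ⟨a, ha⟩ := AddSubgroup.mem_zmultiples_iff.mp hσ₀K
  obtain ⟨j, hj⟩ := AddSubgroup.mem_zmultiples_iff.mp hx₁
  have hσx : σ₀ • x₁ = a • x₁ := by
    rw [← hj, smul_comm σ₀ j g, ← ha, smul_comm j a g]
  have h1 : (a - 1) • x₁ ≠ 0 := by
    rw [sub_smul, one_smul, ← hσx]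
    exact sub_ne_zero.mpr hne
  have hndvd : ¬ (p : ℤ) ∣ (a - 1) := by
    rintro ⟨c, hc⟩
    apply h1
    rw [hc, mul_comm, mul_smul, natCast_zsmul, hpx₁, smul_zero]
  have hprime : Prime (p : ℤ) := Nat.prime_iff_prime_int.mp hp
  have hcop : IsCoprime (a - 1) ((p : ℤ) ^ n) :=
    ((Prime.coprime_iff_not_dvd hprime).mpr hndvd).symm.pow_right
  obtain ⟨u, v, huv⟩ := hcop
  have hpg : ((p : ℤ) ^ n) • g = 0 := by
    have := s12c_kill_of_card p K' hK' g hgK
    rw [← Nat.cast_pow, natCast_zsmul]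
    exact this
  have hag : (a - 1) • g = σ₀ • g - g := by rw [sub_smul, one_smul, ha]
  have hgZ : g ∈ Z := by
    have e : g = u • ((a - 1) • g) + v • (((p : ℤ) ^ n) • g) := by
      rw [← mul_smul, ← mul_smul, ← add_smul, huv, one_smul]
    rw [e, hpg, smul_zero, add_zero, hag]
    exact Z.zsmul_mem hσ₀Z u
  rw [hg]
  exact (AddSubgroup.zmultiples_le_of_mem hgZ)

end Char

/-! ## The subgroup `H` and Minkowski -/

section Main

variable {M : Type} [AddCommGroup M] [DistribMulAction GQ M] (p : ℕ)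

/-- the subgroup of all `σ` acting trivially on `M[p^n] / K'` -/
def s12cH (n : ℕ) (K' : AddSubgroup M) (hst : ∀ σ : GQ, ∀ x ∈ K', σ • x ∈ K') : Subgroup GQ where
  carrier := {σ | ∀ x : M, p ^ n • x = 0 → σ • x - x ∈ K'}
  one_mem' := fun x _ => by
    rw [one_smul, sub_self]
    exact zero_mem _
  mul_mem' := by
    intro σ τ hσ hτ x hx
    have h1 : (σ * τ) • x - x = σ • (τ • x - x) + (σ • x - x) := by
      rw [mul_smul, smul_sub]
      abel
    rw [h1]
    exact add_mem (hst σ _ (hτ x hx)) (hσ x hx)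
  inv_mem' := by
    intro σ hσ x hx
    have h1 : σ⁻¹ • x - x = -(σ⁻¹ • (σ • x - x)) := by
      rw [smul_sub, inv_smul_smul]
      abel
    rw [h1]
    exact neg_mem (hst σ⁻¹ _ (hσ x hx))

theorem mem_s12cH {n : ℕ} {K' : AddSubgroup M} {hst : ∀ σ : GQ, ∀ x ∈ K', σ • x ∈ K'}
    {σ : GQ} : σ ∈ s12cH p n K' hst ↔ ∀ x : M, p ^ n • x = 0 → σ • x - x ∈ K' := Iff.rfl

theorem s12cH_normal (n : ℕ) (K' : AddSubgroup M) (hst : ∀ σ : GQ, ∀ x ∈ K', σ • x ∈ K') :
    (s12cH p n K' hst).Normal := by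
  refine ⟨fun σ hσ τ => ?_⟩
  rw [mem_s12cH] at hσ ⊢
  intro x hx
  have hx' : p ^ n • (τ⁻¹ • x) = 0 := by rw [smul_comm, hx, smul_zero]
  have h1 : (τ * σ * τ⁻¹) • x - x = τ • (σ • (τ⁻¹ • x) - τ⁻¹ • x) := by
    rw [smul_sub, smul_inv_smul, mul_smul, mul_smul]
  rw [h1]
  exact hst τ _ (hσ _ hx')

theorem s12cH_open (hp : p.Prime) (hcard : HCard M p) (hopen : HOpen M p) (n : ℕ)
    (K' : AddSubgroup M) (hst : ∀ σ : GQ, ∀ x ∈ K', σ • x ∈ K') :
    ∃ S : Finset Qb, ∀ σ : GQ, (∀ s ∈ S, σ s = s) → σ ∈ s12cH p n K' hst := by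
  classical
  have hfin : Finite ↥(s12cTors (M := M) p n) := s12c_finite_tors p hp.pos hcard n
  have : Fintype ↥(s12cTors (M := M) p n) := Fintype.ofFinite _
  choose S hS using fun x : ↥(s12cTors (M := M) p n) => hopen (x : M) ⟨n, x.2⟩
  refine ⟨Finset.univ.biUnion S, fun σ hσ => ?_⟩
  rw [mem_s12cH]
  intro x hx
  have h1 : σ • x = x :=
    hS ⟨x, hx⟩ σ (fun s hs => hσ s (Finset.mem_biUnion.mpr ⟨⟨x, hx⟩, Finset.mem_univ _, hs⟩))
  rw [h1, sub_self]
  exact zero_mem _

/-- **STEP-COFIXED.** -/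
theorem stmtStepCofixed : StmtStepCofixed := by
  intro M _ _ p hpF hMink hpl hcard hopen hunip hlocp K₁ hK₁ hramp k K' hK₁K' hcardK' hcyc hst
    htoric
  have hp : p.Prime := hpF.out
  have hkill : ∀ x ∈ K', p ^ (k + 1) • x = 0 := s12c_kill_of_card p K' hcardK'
  have hkill₁ : ∀ x ∈ K₁, p • x = 0 := by
    intro x hx
    have := s12c_kill_of_card p (n := 1) K₁ (by rw [pow_one]; exact hK₁.card) x hx
    rwa [pow_one] at this
  have htop : s12cH p (k + 1) K' hst = ⊤ := by
    refine hMink _ (s12cH_normal p (k + 1) K' hst)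
      (s12cH_open p hp hcard hopen (k + 1) K' hst) ?_
    intro q hq
    obtain ⟨A, hA⟩ := hpl q hq
    refine ⟨A, hA, fun σ hσ => ?_⟩
    rw [mem_s12cH]
    intro x hx
    have hr : p ^ (k + 1) • (σ • x - x) = 0 := by
      rw [smul_sub, smul_comm, hx, smul_zero, sub_self]
    by_cases hqp : q = p
    · -- the place over `p`
      subst hqp
      obtain ⟨Z, -, hZ, x₀, hx₀, hx₀Z⟩ := hlocp A hA
      obtain ⟨σ₀, hσ₀, x₁, hx₁, hne⟩ := hramp A hA
      obtain ⟨g, hg⟩ := hcyc
      have hgK : g ∈ K' := hg ▸ AddSubgroup.mem_zmultiples g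
      have hKZ : K' ≤ Z :=
        s12c_le_of_char q hp (k + 1) K' Z g hg hcardK' σ₀ (hst σ₀ g hgK)
          (hZ σ₀ hσ₀ (k + 1) g (hkill g hgK)) x₁ (hK₁K' hx₁) (hkill₁ x₁ hx₁) hne
      refine s12c_mem_of_count q hp hcard (k + 1) K' Z hcardK' hKZ ?_ _
        (hZ σ hσ (k + 1) x hx) hr
      exact ⟨x₀, by rw [mem_s12cTors, pow_one]; exact hx₀, hx₀Z⟩
    · -- a place over `q ≠ p`
      have hrmon : σ • x - x ∈ monod M p A :=
        AddSubgroup.subset_closure ⟨σ, hσ, k + 1, x, hx, rfl⟩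
      by_cases hmon : monod M p A = ⊥
      · rw [hmon, AddSubgroup.mem_bot] at hrmon
        rw [hrmon]
        exact zero_mem _
      · exact s12c_mem_of_count p hp hcard (k + 1) K' (monod M p A) hcardK'
          (htoric q hq hqp A hA hmon)
          (s12c_monod_not_le p hp hcard hunip hq hqp hA hmon) _ hrmon hr
  intro σ x hx
  have hσ : σ ∈ s12cH p (k + 1) K' hst := by
    rw [htop]
    exact Subgroup.mem_top σ
  exact hσ x hx

end Main

end Fermat.Agent.S12


end ZBZ2S12_001_4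

/-! ### bundled: `Fermat.Agent.S12.StepSplitAlg` -/
section ZBZ2S12_001_5

/-!
# S12 / STEP-SPLIT, part 1: algebra of the `p`-power torsion (helper47)

`M` an abelian group with `#M[p^m] = p^{2m}` (`HCard`).
-/

set_option autoImplicit false
set_option linter.style.haveILetI false
set_option linter.unusedSectionVars false

namespace Fermat.Agent.S12

section Tors

variable {M : Type} [AddCommGroup M] (p : ℕ)

/-- `M[p^m]` -/
def s12sTors (m : ℕ) : AddSubgroup M := (nsmulAddMonoidHom (p ^ m) : M →+ M).ker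

variable {p}

theorem s12s_mem_tors {m : ℕ} {x : M} : x ∈ s12sTors (M := M) p m ↔ p ^ m • x = 0 := by
  simp [s12sTors, AddMonoidHom.mem_ker]

theorem s12s_mem_tors_one {x : M} : x ∈ s12sTors (M := M) p 1 ↔ p • x = 0 := by
  rw [s12s_mem_tors, pow_one]

theorem s12s_tors_mono {m n : ℕ} (h : m ≤ n) : s12sTors (M := M) p m ≤ s12sTors p n := by
  intro x hx
  rw [s12s_mem_tors] at hx ⊢
  obtain ⟨d, rfl⟩ := Nat.exists_eq_add_of_le h
  rw [pow_add, mul_comm, mul_smul, hx, smul_zero]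

variable [Fact p.Prime]

theorem s12s_card_tors (hcard : HCard M p) (m : ℕ) :
    Nat.card (s12sTors (M := M) p m) = p ^ (2 * m) := by
  rw [← hcard m]
  exact Nat.card_congr (Equiv.subtypeEquivRight fun x => s12s_mem_tors)

theorem s12s_finite_tors (hcard : HCard M p) (m : ℕ) : Finite (s12sTors (M := M) p m) := by
  apply Nat.finite_of_card_ne_zero
  rw [s12s_card_tors hcard]
  exact pow_ne_zero _ (Fact.out : p.Prime).ne_zero

/-- (a) `[p] : M[p^{m+1}] → M[p^m]` is surjective. -/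
theorem s12s_div (hcard : HCard M p) (m : ℕ) (x : M) (hx : p ^ m • x = 0) :
    ∃ y : M, p ^ (m + 1) • y = 0 ∧ p • y = x := by
  have hp : p.Prime := Fact.out
  haveI := s12s_finite_tors hcard (m + 1)
  haveI := s12s_finite_tors hcard m
  haveI := s12s_finite_tors hcard 1
  -- the map `[p] : M[p^{m+1}] → M[p^m]`
  let f : s12sTors (M := M) p (m + 1) →+ s12sTors (M := M) p m :=
    { toFun := fun y => ⟨p • (y : M), by
        rw [s12s_mem_tors, ← mul_smul, ← pow_succ]
        exact s12s_mem_tors.1 y.2⟩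
      map_zero' := by ext; simp
      map_add' := fun a b => by ext; simp [smul_add] }
  have hker : Nat.card f.ker = p ^ 2 := by
    have h2 : p ^ 2 = Nat.card (s12sTors (M := M) p 1) := by
      rw [s12s_card_tors hcard 1, mul_one]
    rw [h2]
    refine Nat.card_congr ⟨fun y => ⟨(y : s12sTors (M := M) p (m + 1)), ?_⟩,
      fun e => ⟨⟨(e : M), s12s_tors_mono (Nat.le_add_left 1 m) e.2⟩, ?_⟩, ?_, ?_⟩
    · have := y.2
      rw [AddMonoidHom.mem_ker] at this
      rw [s12s_mem_tors_one]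
      exact congrArg Subtype.val this
    · rw [AddMonoidHom.mem_ker]
      ext
      exact s12s_mem_tors_one.1 e.2
    · intro y; rfl
    · intro e; rfl
  have h1 := AddSubgroup.card_mul_index f.ker
  rw [AddSubgroup.index_ker, hker, s12s_card_tors hcard] at h1
  have hrange : Nat.card f.range = p ^ (2 * m) := by
    have h2 : p ^ 2 * Nat.card f.range = p ^ 2 * p ^ (2 * m) := by
      rw [h1, ← pow_add]; congr 1; ring
    exact Nat.eq_of_mul_eq_mul_left (pow_pos hp.pos 2) h2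
  have htop : f.range = ⊤ := by
    apply AddSubgroup.eq_top_of_card_eq
    rw [hrange, s12s_card_tors hcard]
  have hmem : (⟨x, s12s_mem_tors.2 hx⟩ : s12sTors (M := M) p m) ∈ f.range := by
    rw [htop]; exact AddSubgroup.mem_top _
  obtain ⟨y, hy⟩ := hmem
  exact ⟨(y : M), s12s_mem_tors.1 y.2, congrArg Subtype.val hy⟩

end Tors

section Cyclic

variable {M : Type} [AddCommGroup M] {p : ℕ} [Fact p.Prime]

/-- the order of a generator -/
theorem s12s_order_gen {k : ℕ} {K : AddSubgroup M} {g : M} (hg : K = AddSubgroup.zmultiples g)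
    (hK : Nat.card K = p ^ k) : addOrderOf g = p ^ k := by
  rw [← hK, hg, Nat.card_zmultiples]

/-- elements of a group of order `p^k` are killed by `p^k` -/
theorem s12s_pow_smul_of_mem {k : ℕ} {K : AddSubgroup M} (hK : Nat.card K = p ^ k) {x : M}
    (hx : x ∈ K) : p ^ k • x = 0 := by
  have hp : p.Prime := Fact.out
  have h := card_nsmul_eq_zero' (G := K) (x := ⟨x, hx⟩)
  rw [hK] at h
  exact congrArg Subtype.val h

/-- the `p`-torsion of a cyclic group of order `p^k`, `k ≥ 1` -/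
theorem s12s_cyc_ptors {k : ℕ} (hk : 1 ≤ k) {g : M} (hg : addOrderOf g = p ^ k) {x : M}
    (hx : x ∈ AddSubgroup.zmultiples g) (hpx : p • x = 0) :
    x ∈ AddSubgroup.zmultiples (p ^ (k - 1) • g) := by
  have hp : p.Prime := Fact.out
  obtain ⟨n, rfl⟩ := AddSubgroup.mem_zmultiples_iff.1 hx
  have h1 : ((p : ℤ) * n) • g = 0 := by
    rw [mul_smul, natCast_zsmul]; exact hpx
  have h2 : ((p ^ k : ℕ) : ℤ) ∣ (p : ℤ) * n := by
    rw [← hg]; exact addOrderOf_dvd_iff_zsmul_eq_zero.2 h1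
  obtain ⟨d, hd⟩ := Nat.exists_eq_add_of_le hk
  have hk1 : k - 1 = d := by omega
  have hk2 : k = d + 1 := by omega
  rw [hk1]
  rw [hk2] at h2
  have h3 : ((p : ℤ) ^ d) ∣ n := by
    have h4 : (p : ℤ) * (p : ℤ) ^ d ∣ (p : ℤ) * n := by
      have : ((p ^ (d + 1) : ℕ) : ℤ) = (p : ℤ) * (p : ℤ) ^ d := by push_cast; ring
      rwa [this] at h2
    exact (mul_dvd_mul_iff_left (by exact_mod_cast hp.ne_zero)).1 h4
  obtain ⟨n', rfl⟩ := h3
  refine AddSubgroup.mem_zmultiples_iff.2 ⟨n', ?_⟩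
  rw [mul_comm, mul_smul]
  congr 1
  rw [← natCast_zsmul]
  push_cast
  rfl

/-- the order of `p^{k-1} g` -/
theorem s12s_order_top {k : ℕ} (hk : 1 ≤ k) {g : M} (hg : addOrderOf g = p ^ k) :
    addOrderOf (p ^ (k - 1) • g) = p := by
  have hp : p.Prime := Fact.out
  obtain ⟨d, hd⟩ := Nat.exists_eq_add_of_le hk
  have hk1 : k - 1 = d := by omega
  have hk2 : k = d + 1 := by omega
  rw [hk1]
  have h0 : addOrderOf g ≠ 0 := by rw [hg]; exact pow_ne_zero _ hp.ne_zero
  have h1 : p ^ d ∣ addOrderOf g := by rw [hg, hk2]; exact pow_dvd_pow p (Nat.le_succ d)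
  rw [addOrderOf_nsmul_of_dvd (pow_ne_zero _ hp.ne_zero) h1, hg, hk2, pow_succ]
  exact Nat.mul_div_cancel_left p (pow_pos hp.pos d)

/-- (f) a subgroup of order `p` of a cyclic group of order `p^k` is its `p`-torsion. -/
theorem s12s_line_eq {k : ℕ} (hk : 1 ≤ k) {K K₁ : AddSubgroup M} {g : M}
    (hg : K = AddSubgroup.zmultiples g) (hK : Nat.card K = p ^ k) (hK₁ : Nat.card K₁ = p)
    (hle : K₁ ≤ K) : K₁ = AddSubgroup.zmultiples (p ^ (k - 1) • g) := by
  have hp : p.Prime := Fact.out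
  have hord := s12s_order_gen hg hK
  have hcardL : Nat.card (AddSubgroup.zmultiples (p ^ (k - 1) • g)) = p := by
    rw [Nat.card_zmultiples, s12s_order_top hk hord]
  haveI : Finite (AddSubgroup.zmultiples (p ^ (k - 1) • g)) := by
    apply Nat.finite_of_card_ne_zero
    rw [hcardL]; exact hp.ne_zero
  apply AddSubgroup.eq_of_le_of_card_ge
  · intro x hx
    have hx1 : p • x = 0 := by
      have := s12s_pow_smul_of_mem (k := 1) (by rw [hK₁, pow_one]) hx
      rwa [pow_one] at this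
    exact s12s_cyc_ptors hk hord (hg ▸ hle hx) hx1
  · rw [hcardL, hK₁]

/-- the `p`-torsion of `K` is the line -/
theorem s12s_mem_line {k : ℕ} (hk : 1 ≤ k) {K K₁ : AddSubgroup M}
    (hcyc : ∃ g : M, K = AddSubgroup.zmultiples g) (hK : Nat.card K = p ^ k)
    (hK₁ : Nat.card K₁ = p) (hle : K₁ ≤ K) {x : M} (hx : x ∈ K) (hpx : p • x = 0) : x ∈ K₁ := by
  obtain ⟨g, hg⟩ := hcyc
  rw [s12s_line_eq hk hg hK hK₁ hle]
  exact s12s_cyc_ptors hk (s12s_order_gen hg hK) (hg ▸ hx) hpx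

end Cyclic

section Monod

variable {M : Type} [AddCommGroup M] [DistribMulAction GQ M] {p : ℕ} [Fact p.Prime]

/-- generators of `monod A` -/
theorem s12s_gen_mem (A : ValuationSubring Qb) {σ : GQ} (hσ : σ ∈ A.inertiaSubgroupIn ℚ) {m : ℕ}
    {R : M} (hR : p ^ m • R = 0) : σ • R - R ∈ monod M p A :=
  AddSubgroup.subset_closure ⟨σ, hσ, m, R, hR, rfl⟩

/-- (c) inertia fixes `monod A` pointwise. -/
theorem s12s_monod_fixed (hunip : HUnip M p) {ℓ : ℕ} (hℓ : ℓ.Prime) (hℓp : ℓ ≠ p)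
    (A : ValuationSubring Qb) (hA : A.LiesOverPrime ℓ) {τ : GQ}
    (hτ : τ ∈ A.inertiaSubgroupIn ℚ) {x : M} (hx : x ∈ monod M p A) : τ • x = x := by
  induction hx using AddSubgroup.closure_induction with
  | mem x hx =>
    obtain ⟨σ, hσ, m, R, hR, rfl⟩ := hx
    exact hunip ℓ hℓ hℓp A hA σ hσ τ hτ m R hR
  | zero => exact smul_zero τ
  | add x y _ _ hx hy => rw [smul_add, hx, hy]
  | neg x _ hx => rw [smul_neg, hx]

/-- (b) `monod A` is `p`-divisible. -/
theorem s12s_monod_div (hcard : HCard M p) (A : ValuationSubring Qb) {x : M}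
    (hx : x ∈ monod M p A) : ∃ y ∈ monod M p A, p • y = x := by
  induction hx using AddSubgroup.closure_induction with
  | mem x hx =>
    obtain ⟨σ, hσ, m, R, hR, rfl⟩ := hx
    obtain ⟨R', hR', hpR'⟩ := s12s_div hcard m R hR
    refine ⟨σ • R' - R', s12s_gen_mem A hσ hR', ?_⟩
    rw [smul_sub, ← hpR']
    congr 1
    exact (smul_comm σ p R').symm
  | zero => exact ⟨0, zero_mem _, smul_zero _⟩
  | add x y _ _ hx hy =>
    obtain ⟨x', hx', rfl⟩ := hx
    obtain ⟨y', hy', rfl⟩ := hy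
    exact ⟨x' + y', add_mem hx' hy', smul_add _ _ _⟩
  | neg x _ hx =>
    obtain ⟨x', hx', rfl⟩ := hx
    exact ⟨-x', neg_mem hx', smul_neg _ _⟩

/-- elements of `monod A` have `p`-power order -/
theorem s12s_monod_tors (A : ValuationSubring Qb) {x : M} (hx : x ∈ monod M p A) :
    ∃ m : ℕ, p ^ m • x = 0 := by
  induction hx using AddSubgroup.closure_induction with
  | mem x hx =>
    obtain ⟨σ, hσ, m, R, hR, rfl⟩ := hx
    refine ⟨m, ?_⟩
    rw [smul_sub, hR, smul_comm, hR, smul_zero, sub_zero]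
  | zero => exact ⟨0, smul_zero _⟩
  | add x y _ _ hx hy =>
    obtain ⟨m, hm⟩ := hx
    obtain ⟨n, hn⟩ := hy
    refine ⟨m + n, ?_⟩
    have h1 : p ^ (m + n) • x = 0 := by rw [pow_add, mul_comm, mul_smul, hm, smul_zero]
    have h2 : p ^ (m + n) • y = 0 := by rw [pow_add, mul_smul, hn, smul_zero]
    rw [smul_add, h1, h2, add_zero]
  | neg x _ hx =>
    obtain ⟨m, hm⟩ := hx
    exact ⟨m, by rw [smul_neg, hm, neg_zero]⟩

/-- (d) a nonzero `monod A` does not contain `M[p]`. -/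
theorem s12s_monod_not_all (hcard : HCard M p) (hunip : HUnip M p) {ℓ : ℕ} (hℓ : ℓ.Prime)
    (hℓp : ℓ ≠ p) (A : ValuationSubring Qb) (hA : A.LiesOverPrime ℓ)
    (hne : monod M p A ≠ ⊥) : ∃ e : M, p • e = 0 ∧ e ∉ monod M p A := by
  by_contra hcon
  push Not at hcon
  have hall : ∀ (m : ℕ) (x : M), p ^ m • x = 0 → x ∈ monod M p A := by
    intro m
    induction m with
    | zero =>
      intro x hx
      rw [pow_zero, one_smul] at hx
      rw [hx]; exact zero_mem _
    | succ m ih =>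
      intro x hx
      have h1 : p ^ m • (p • x) = 0 := by rw [← mul_smul, ← pow_succ]; exact hx
      obtain ⟨y, hy, hpy⟩ := s12s_monod_div hcard A (ih _ h1)
      have h2 : p • (x - y) = 0 := by rw [smul_sub, hpy, sub_self]
      have h3 := add_mem (hcon _ h2) hy
      rwa [sub_add_cancel] at h3
  apply hne
  rw [monod, AddSubgroup.closure_eq_bot_iff]
  rintro x ⟨σ, hσ, m, R, hR, rfl⟩
  rw [Set.mem_singleton_iff, s12s_monod_fixed hunip hℓ hℓp A hA hσ (hall m R hR), sub_self]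

/-- (d') the `p`-torsion of a ramified `monod A` containing the line is the line. -/
theorem s12s_monod_ptors (hcard : HCard M p) (hunip : HUnip M p) {ℓ : ℕ} (hℓ : ℓ.Prime)
    (hℓp : ℓ ≠ p) (A : ValuationSubring Qb) (hA : A.LiesOverPrime ℓ)
    (hne : monod M p A ≠ ⊥) {K₁ : AddSubgroup M} (hK₁ : Nat.card K₁ = p)
    (hle : K₁ ≤ monod M p A) {x : M} (hx : x ∈ monod M p A) (hpx : p • x = 0) : x ∈ K₁ := by
  have hp : p.Prime := Fact.out
  haveI := s12s_finite_tors hcard 1
  set L : AddSubgroup M := monod M p A ⊓ s12sTors p 1 with hL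
  have hLt : L ≤ s12sTors p 1 := inf_le_right
  haveI : Finite L := Finite.of_injective (AddSubgroup.inclusion hLt)
    (AddSubgroup.inclusion_injective hLt)
  have hK₁t : K₁ ≤ s12sTors p 1 := by
    intro y hy
    rw [s12s_mem_tors_one]
    have := s12s_pow_smul_of_mem (k := 1) (by rw [hK₁, pow_one]) hy
    rwa [pow_one] at this
  have hK₁L : K₁ ≤ L := le_inf hle hK₁t
  have h1 : Nat.card L ∣ p ^ 2 := by
    have := AddSubgroup.card_dvd_of_le hLt
    rwa [s12s_card_tors hcard 1, mul_one] at this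
  have h2 : p ∣ Nat.card L := by
    have := AddSubgroup.card_dvd_of_le hK₁L
    rwa [hK₁] at this
  have h3 : Nat.card L ≠ p ^ 2 := by
    intro h
    obtain ⟨e, he, hne'⟩ := s12s_monod_not_all hcard hunip hℓ hℓp A hA hne
    have hLe : L = s12sTors p 1 := by
      apply AddSubgroup.eq_of_le_of_card_ge hLt
      rw [h, s12s_card_tors hcard 1, mul_one]
    have : e ∈ L := by rw [hLe]; exact s12s_mem_tors_one.2 he
    exact hne' this.1
  obtain ⟨j, hj, hLj⟩ := (Nat.dvd_prime_pow hp).1 h1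
  have hj1 : j = 1 := by
    have hj0 : j ≠ 0 := by
      rintro rfl
      rw [hLj, pow_zero] at h2
      exact hp.one_lt.ne' (Nat.dvd_one.1 h2)
    have hj2 : j ≠ 2 := by
      rintro rfl
      exact h3 hLj
    omega
  have hLK : K₁ = L := by
    apply AddSubgroup.eq_of_le_of_card_ge hK₁L
    rw [hLj, hj1, pow_one, hK₁]
  rw [hLK]
  exact ⟨hx, s12s_mem_tors_one.2 hpx⟩

end Monod

end Fermat.Agent.S12


end ZBZ2S12_001_5

/-! ### bundled: `Fermat.Agent.S12.StepSplitQuot` -/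
section ZBZ2S12_001_6

/-!
# S12 / STEP-SPLIT, part 2: the `G`-module `V = [p]⁻¹K / K` (helper47)

`S : StabSub M` a `G`-stable subgroup `K`; `SQ S = M ⧸ K` with its `G`-action;
`SV S p = (M ⧸ K)[p]`, a `ZMod p`-module with a commuting `G`-action.
-/

set_option autoImplicit false
set_option linter.style.haveILetI false
set_option linter.unusedSectionVars false

noncomputable section

namespace Fermat.Agent.S12

/-- a `G`-stable subgroup -/
structure StabSub (M : Type) [AddCommGroup M] [DistribMulAction GQ M] where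
  /-- the subgroup -/
  K : AddSubgroup M
  /-- it is stable -/
  stable : ∀ σ : GQ, ∀ x ∈ K, σ • x ∈ K

section Quot

variable {M : Type} [AddCommGroup M] [DistribMulAction GQ M]

/-- `M ⧸ K` -/
def SQ (S : StabSub M) : Type := M ⧸ S.K

instance (S : StabSub M) : AddCommGroup (SQ S) :=
  inferInstanceAs (AddCommGroup (M ⧸ S.K))

/-- the projection -/
def sqMk (S : StabSub M) : M →+ SQ S := QuotientAddGroup.mk' S.K

theorem sqMk_surjective (S : StabSub M) : Function.Surjective (sqMk S) :=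
  QuotientAddGroup.mk'_surjective S.K

theorem sqMk_eq_zero_iff (S : StabSub M) (x : M) : sqMk S x = 0 ↔ x ∈ S.K :=
  QuotientAddGroup.eq_zero_iff x

theorem sqMk_eq_iff (S : StabSub M) (x y : M) : sqMk S x = sqMk S y ↔ x - y ∈ S.K := by
  rw [← sub_eq_zero, ← map_sub, sqMk_eq_zero_iff]

/-- the action of `σ` on the quotient -/
def sqAct (S : StabSub M) (σ : GQ) : SQ S →+ SQ S :=
  QuotientAddGroup.map S.K S.K (DistribSMul.toAddMonoidHom M σ)
    (fun x hx => S.stable σ x hx)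

theorem sqAct_mk (S : StabSub M) (σ : GQ) (x : M) : sqAct S σ (sqMk S x) = sqMk S (σ • x) :=
  rfl

instance (S : StabSub M) : DistribMulAction GQ (SQ S) where
  smul σ v := sqAct S σ v
  one_smul v := by
    obtain ⟨x, rfl⟩ := sqMk_surjective S v
    show sqAct S 1 (sqMk S x) = sqMk S x
    rw [sqAct_mk, one_smul]
  mul_smul σ τ v := by
    obtain ⟨x, rfl⟩ := sqMk_surjective S v
    show sqAct S (σ * τ) (sqMk S x) = sqAct S σ (sqAct S τ (sqMk S x))
    rw [sqAct_mk, sqAct_mk, sqAct_mk, mul_smul]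
  smul_zero σ := map_zero (sqAct S σ)
  smul_add σ v w := map_add (sqAct S σ) v w

theorem sq_smul_mk (S : StabSub M) (σ : GQ) (x : M) : σ • sqMk S x = sqMk S (σ • x) := rfl

variable (p : ℕ)

/-- `(M ⧸ K)[p]` as a subgroup -/
def svSub (S : StabSub M) : AddSubgroup (SQ S) := (nsmulAddMonoidHom p : SQ S →+ SQ S).ker

/-- `V = (M ⧸ K)[p]` -/
abbrev SV (S : StabSub M) : Type := ↥(svSub p S)

variable {p}

theorem mem_svSub (S : StabSub M) (v : SQ S) : v ∈ svSub p S ↔ p • v = 0 := by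
  simp [svSub, AddMonoidHom.mem_ker]

theorem sv_nsmul (S : StabSub M) (v : SV p S) : p • v = 0 :=
  Subtype.ext ((mem_svSub S v.1).1 v.2)

instance (S : StabSub M) : Module (ZMod p) (SV p S) :=
  AddCommGroup.zmodModule (sv_nsmul S)

theorem sv_smul_def [NeZero p] (S : StabSub M) (c : ZMod p) (v : SV p S) : c • v = c.val • v := by
  conv_lhs => rw [← ZMod.natCast_zmod_val c]
  exact Nat.cast_smul_eq_nsmul (ZMod p) c.val v

theorem sv_natCast_smul (S : StabSub M) (n : ℕ) (v : SV p S) : (n : ZMod p) • v = n • v :=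
  Nat.cast_smul_eq_nsmul (ZMod p) n v

instance (S : StabSub M) : DistribMulAction GQ (SV p S) where
  smul σ v := ⟨σ • v.1, by
    rw [mem_svSub, ← smul_comm σ p v.1, (mem_svSub S v.1).1 v.2, smul_zero]⟩
  one_smul v := Subtype.ext (one_smul GQ v.1)
  mul_smul σ τ v := Subtype.ext (mul_smul σ τ v.1)
  smul_zero σ := Subtype.ext (smul_zero σ)
  smul_add σ v w := Subtype.ext (smul_add σ v.1 w.1)

theorem sv_smul_coe (S : StabSub M) (σ : GQ) (v : SV p S) : ((σ • v : SV p S) : SQ S) = σ • v.1 :=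
  rfl

instance [NeZero p] (S : StabSub M) : SMulCommClass GQ (ZMod p) (SV p S) where
  smul_comm σ c v := by
    rw [sv_smul_def, sv_smul_def]
    exact smul_comm σ c.val v

/-- the class of `y` with `p y ∈ K` -/
def svMk (S : StabSub M) (y : M) (hy : p • y ∈ S.K) : SV p S :=
  ⟨sqMk S y, by rw [mem_svSub, ← map_nsmul, sqMk_eq_zero_iff]; exact hy⟩

theorem svMk_coe (S : StabSub M) (y : M) (hy : p • y ∈ S.K) : (svMk S y hy : SQ S) = sqMk S y :=
  rfl

theorem sv_exists_rep (S : StabSub M) (v : SV p S) :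
    ∃ (y : M) (hy : p • y ∈ S.K), v = svMk S y hy := by
  obtain ⟨y, hy⟩ := sqMk_surjective S v.1
  have h : p • y ∈ S.K := by
    rw [← sqMk_eq_zero_iff, map_nsmul, hy]
    exact (mem_svSub S v.1).1 v.2
  exact ⟨y, h, Subtype.ext hy.symm⟩

theorem svMk_eq_iff (S : StabSub M) {y y' : M} (hy : p • y ∈ S.K) (hy' : p • y' ∈ S.K) :
    svMk S y hy = svMk S y' hy' ↔ y - y' ∈ S.K := by
  rw [← sqMk_eq_iff]
  exact ⟨fun h => congrArg Subtype.val h, fun h => Subtype.ext h⟩

theorem svMk_eq_zero_iff (S : StabSub M) {y : M} (hy : p • y ∈ S.K) :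
    svMk S y hy = 0 ↔ y ∈ S.K := by
  rw [← sqMk_eq_zero_iff]
  exact ⟨fun h => congrArg Subtype.val h, fun h => Subtype.ext h⟩

theorem sv_smul_mk (S : StabSub M) (σ : GQ) {y : M} (hy : p • y ∈ S.K) :
    σ • svMk S y hy = svMk S (σ • y) (by rw [← smul_comm σ p y]; exact S.stable σ _ hy) :=
  rfl

theorem sv_nsmul_mk (S : StabSub M) (n : ℕ) {y : M} (hy : p • y ∈ S.K) :
    n • svMk S y hy = svMk S (n • y) (by rw [smul_comm]; exact S.K.nsmul_mem hy n) := by
  apply Subtype.ext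
  show n • sqMk S y = sqMk S (n • y)
  rw [map_nsmul]

theorem sv_sub_mk (S : StabSub M) {y y' : M} (hy : p • y ∈ S.K) (hy' : p • y' ∈ S.K) :
    svMk S y hy - svMk S y' hy' = svMk S (y - y') (by rw [smul_sub]; exact sub_mem hy hy') := by
  apply Subtype.ext
  show sqMk S y - sqMk S y' = sqMk S (y - y')
  rw [map_sub]

end Quot

end Fermat.Agent.S12

end
end ZBZ2S12_001_6

/-! ### bundled: `Fermat.Agent.S12.StepSplitCard` -/
section ZBZ2S12_001_7

/-!
# S12 / STEP-SPLIT, part 3: `#V = p²`, `#C = p` (helper47)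
-/

set_option autoImplicit false
set_option linter.style.haveILetI false
set_option linter.unusedSectionVars false

noncomputable section

namespace Fermat.Agent.S12

theorem s12s_card_ker_range {G H : Type*} [AddGroup G] [AddGroup H] (f : G →+ H) :
    Nat.card f.ker * Nat.card f.range = Nat.card G := by
  rw [← AddSubgroup.index_ker]
  exact AddSubgroup.card_mul_index f.ker

section Card

variable {M : Type} [AddCommGroup M] [DistribMulAction GQ M] {p : ℕ} [Fact p.Prime]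

/-- `Y = [p]⁻¹ K` -/
def svY (p : ℕ) (S : StabSub M) : AddSubgroup M := S.K.comap (nsmulAddMonoidHom p : M →+ M)

theorem mem_svY (S : StabSub M) (y : M) : y ∈ svY p S ↔ p • y ∈ S.K := Iff.rfl

/-- the projection `Y → V` -/
def svOfY (p : ℕ) (S : StabSub M) : svY p S →+ SV p S where
  toFun y := svMk S y.1 y.2
  map_zero' := by
    apply Subtype.ext
    show sqMk S 0 = 0
    exact map_zero _
  map_add' a b := by
    apply Subtype.ext
    show sqMk S (a.1 + b.1) = sqMk S a.1 + sqMk S b.1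
    exact map_add _ _ _

theorem svOfY_eq_zero_iff (S : StabSub M) (y : svY p S) : svOfY p S y = 0 ↔ y.1 ∈ S.K :=
  svMk_eq_zero_iff S y.2

theorem svOfY_surjective (S : StabSub M) : Function.Surjective (svOfY p S) := by
  intro v
  obtain ⟨y, hy, rfl⟩ := sv_exists_rep S v
  exact ⟨⟨y, hy⟩, rfl⟩

/-- multiplication by `p`, `Y → K` -/
def svYK (p : ℕ) (S : StabSub M) : svY p S →+ S.K where
  toFun y := ⟨p • y.1, y.2⟩
  map_zero' := by ext; simp
  map_add' a b := by ext; simp [smul_add]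

theorem s12s_card_Y (hcard : HCard M p) (S : StabSub M) {k : ℕ} (hK : Nat.card S.K = p ^ k) :
    Nat.card (svY p S) = p ^ (k + 2) := by
  have hp : p.Prime := Fact.out
  have h1 := s12s_card_ker_range (svYK p S)
  have hker : Nat.card (svYK p S).ker = p ^ 2 := by
    have h2 : p ^ 2 = Nat.card (s12sTors (M := M) p 1) := by
      rw [s12s_card_tors hcard 1, mul_one]
    rw [h2]
    refine Nat.card_congr ⟨fun y => ⟨(y : svY p S).1, ?_⟩,
      fun e => ⟨⟨(e : M), ?_⟩, ?_⟩, ?_, ?_⟩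
    · have := y.2
      rw [AddMonoidHom.mem_ker] at this
      rw [s12s_mem_tors_one]
      exact congrArg Subtype.val this
    · rw [mem_svY, s12s_mem_tors_one.1 e.2]
      exact zero_mem _
    · rw [AddMonoidHom.mem_ker]
      ext
      exact s12s_mem_tors_one.1 e.2
    · intro y; rfl
    · intro e; rfl
  have hrange : (svYK p S).range = ⊤ := by
    rw [AddMonoidHom.range_eq_top]
    intro x
    obtain ⟨y, -, hy⟩ := s12s_div hcard k x.1 (s12s_pow_smul_of_mem hK x.2)
    exact ⟨⟨y, by rw [mem_svY, hy]; exact x.2⟩, Subtype.ext hy⟩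
  rw [hker, hrange, AddSubgroup.card_top, hK] at h1
  rw [← h1, pow_add, mul_comm]

theorem s12s_card_V (hcard : HCard M p) (S : StabSub M) {k : ℕ} (hK : Nat.card S.K = p ^ k) :
    Nat.card (SV p S) = p ^ 2 := by
  have hp : p.Prime := Fact.out
  have h1 := s12s_card_ker_range (svOfY p S)
  have hker : Nat.card (svOfY p S).ker = p ^ k := by
    refine Eq.trans ?_ hK
    refine Nat.card_congr ⟨fun y => ⟨(y : svY p S).1, ?_⟩,
      fun e => ⟨⟨(e : M), ?_⟩, ?_⟩, ?_, ?_⟩
    · have := y.2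
      rw [AddMonoidHom.mem_ker] at this
      exact (svOfY_eq_zero_iff S _).1 this
    · rw [mem_svY]
      exact S.K.nsmul_mem e.2 p
    · rw [AddMonoidHom.mem_ker]
      exact (svOfY_eq_zero_iff S _).2 e.2
    · intro y; rfl
    · intro e; rfl
  have hrange : (svOfY p S).range = ⊤ := AddMonoidHom.range_eq_top.2 (svOfY_surjective S)
  rw [hker, hrange, AddSubgroup.card_top, s12s_card_Y hcard S hK] at h1
  have h2 : p ^ k * Nat.card (SV p S) = p ^ k * p ^ 2 := by rw [h1, pow_add]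
  exact Nat.eq_of_mul_eq_mul_left (pow_pos hp.pos k) h2

/-- the map `M[p] → V` -/
def svOfTors (p : ℕ) (S : StabSub M) : s12sTors (M := M) p 1 →+ SV p S where
  toFun e := svMk S e.1 (by rw [s12s_mem_tors_one.1 e.2]; exact zero_mem _)
  map_zero' := by
    apply Subtype.ext
    show sqMk S 0 = 0
    exact map_zero _
  map_add' a b := by
    apply Subtype.ext
    show sqMk S (a.1 + b.1) = sqMk S a.1 + sqMk S b.1
    exact map_add _ _ _

theorem svOfTors_eq_zero_iff (S : StabSub M) (e : s12sTors (M := M) p 1) :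
    svOfTors p S e = 0 ↔ e.1 ∈ S.K :=
  svMk_eq_zero_iff S (by rw [s12s_mem_tors_one.1 e.2]; exact zero_mem _)

/-- `C`, the image of `M[p]` in `V` -/
def svC (p : ℕ) (S : StabSub M) : Submodule (ZMod p) (SV p S) :=
  AddSubgroup.toZModSubmodule p (svOfTors p S).range

theorem mem_svC (S : StabSub M) (v : SV p S) :
    v ∈ svC p S ↔ ∃ (e : M) (he : p • e = 0),
      v = svMk S e (by rw [he]; exact zero_mem _) := by
  show v ∈ (svOfTors p S).range ↔ _
  constructor
  · rintro ⟨e, rfl⟩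
    exact ⟨e.1, s12s_mem_tors_one.1 e.2, rfl⟩
  · rintro ⟨e, he, rfl⟩
    exact ⟨⟨e, s12s_mem_tors_one.2 he⟩, rfl⟩

theorem s12s_card_C (hcard : HCard M p) (S : StabSub M) {k : ℕ} (hk : 1 ≤ k)
    (hK : Nat.card S.K = p ^ k) (hcyc : ∃ g : M, S.K = AddSubgroup.zmultiples g)
    {K₁ : AddSubgroup M} (hK₁ : Nat.card K₁ = p) (hle : K₁ ≤ S.K) :
    Nat.card (svC p S) = p := by
  have hp : p.Prime := Fact.out
  have h1 := s12s_card_ker_range (svOfTors p S)
  have hK₁t : ∀ x ∈ K₁, p • x = 0 := by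
    intro y hy
    have := s12s_pow_smul_of_mem (k := 1) (by rw [hK₁, pow_one]) hy
    rwa [pow_one] at this
  have hker : Nat.card (svOfTors p S).ker = p := by
    refine Eq.trans ?_ hK₁
    refine Nat.card_congr ⟨fun y => ⟨(y : s12sTors (M := M) p 1).1, ?_⟩,
      fun e => ⟨⟨(e : M), ?_⟩, ?_⟩, ?_, ?_⟩
    · have := y.2
      rw [AddMonoidHom.mem_ker] at this
      have hyK : (y : s12sTors (M := M) p 1).1 ∈ S.K := (svOfTors_eq_zero_iff S _).1 this
      exact s12s_mem_line hk hcyc hK hK₁ hle hyK (s12s_mem_tors_one.1 y.1.2)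
    · exact s12s_mem_tors_one.2 (hK₁t _ e.2)
    · rw [AddMonoidHom.mem_ker]
      exact (svOfTors_eq_zero_iff S _).2 (hle e.2)
    · intro y; rfl
    · intro e; rfl
  rw [hker, s12s_card_tors hcard 1, mul_one] at h1
  have h2 : p * Nat.card (svOfTors p S).range = p * p := by rw [h1, sq]
  exact Nat.eq_of_mul_eq_mul_left hp.pos h2

end Card

end Fermat.Agent.S12

end
end ZBZ2S12_001_7

/-! ### bundled: `Fermat.Agent.S12.StepSplitAct` -/
section ZBZ2S12_001_8

/-!
# S12 / STEP-SPLIT, part 4: scalars, Lagrange in a group of order `p²` (helper47)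
-/

set_option autoImplicit false
set_option linter.style.haveILetI false
set_option linter.unusedSectionVars false

noncomputable section

namespace Fermat.Agent.S12

section Lagrange

variable {p : ℕ} [Fact p.Prime]

/-- subgroups of a group of order `p²` -/
theorem s12s_card_sq_cases {G : Type*} [AddGroup G] (hG : Nat.card G = p ^ 2)
    (H : AddSubgroup G) : Nat.card H = 1 ∨ Nat.card H = p ∨ Nat.card H = p ^ 2 := by
  have hp : p.Prime := Fact.out
  have h1 : Nat.card H ∣ p ^ 2 := hG ▸ AddSubgroup.card_addSubgroup_dvd_card H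
  obtain ⟨j, hj, hLj⟩ := (Nat.dvd_prime_pow hp).1 h1
  interval_cases j
  · left; simpa using hLj
  · right; left; simpa using hLj
  · right; right; exact hLj

theorem s12s_finite_of_card {G : Type*} {n : ℕ} (hG : Nat.card G = p ^ n) : Finite G := by
  apply Nat.finite_of_card_ne_zero
  rw [hG]
  exact pow_ne_zero _ (Fact.out : p.Prime).ne_zero

theorem s12s_eq_bot_of_card {G : Type*} [AddGroup G] (H : AddSubgroup G) (h : Nat.card H = 1) :
    H = ⊥ := AddSubgroup.card_eq_one.1 h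

theorem s12s_eq_top_of_card {G : Type*} [AddGroup G] {n : ℕ} (hG : Nat.card G = p ^ n)
    (H : AddSubgroup G) (h : Nat.card H = p ^ n) : H = ⊤ := by
  haveI := s12s_finite_of_card hG
  exact AddSubgroup.eq_top_of_card_eq H (by rw [h, hG])

end Lagrange

section Scalar

variable {M : Type} [AddCommGroup M] [DistribMulAction GQ M] {p : ℕ} [Fact p.Prime]

theorem s12s_smul_zsmul (σ : GQ) (n : ℤ) (x : M) : σ • (n • x) = n • (σ • x) :=
  map_zsmul (DistribSMul.toAddMonoidHom M σ) n x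

/-- `σ` acts on a stable cyclic group by an integer. -/
theorem s12s_scalar {K : AddSubgroup M} (hcyc : ∃ g : M, K = AddSubgroup.zmultiples g)
    (hst : ∀ σ : GQ, ∀ x ∈ K, σ • x ∈ K) (σ : GQ) : ∃ a : ℤ, ∀ x ∈ K, σ • x = a • x := by
  obtain ⟨g, hg⟩ := hcyc
  have hgK : g ∈ K := by rw [hg]; exact AddSubgroup.mem_zmultiples g
  have h1 := hst σ g hgK
  rw [hg] at h1
  obtain ⟨a, ha⟩ := AddSubgroup.mem_zmultiples_iff.1 h1
  refine ⟨a, fun x hx => ?_⟩
  rw [hg] at hx
  obtain ⟨n, rfl⟩ := AddSubgroup.mem_zmultiples_iff.1 hx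
  rw [s12s_smul_zsmul, ← ha, smul_comm]

/-- a nonzero element of the line -/
theorem s12s_exists_line_ne {K₁ : AddSubgroup M} (hK₁ : Nat.card K₁ = p) :
    ∃ x ∈ K₁, x ≠ 0 := by
  have hp : p.Prime := Fact.out
  by_contra hcon
  push Not at hcon
  have : K₁ = ⊥ := by
    rw [eq_bot_iff]
    intro x hx
    exact (AddSubgroup.mem_bot).2 (hcon x hx)
  rw [this, AddSubgroup.card_bot] at hK₁
  exact hp.one_lt.ne hK₁

theorem s12s_line_nsmul {K₁ : AddSubgroup M} (hK₁ : Nat.card K₁ = p) {x : M} (hx : x ∈ K₁) :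
    p • x = 0 := by
  have := s12s_pow_smul_of_mem (k := 1) (by rw [hK₁, pow_one]) hx
  rwa [pow_one] at this

/-- an integer that kills a nonzero element of order `p` is divisible by `p` -/
theorem s12s_dvd_of_zsmul {x : M} (hx : x ≠ 0) (hpx : p • x = 0) {n : ℤ} (hn : n • x = 0) :
    (p : ℤ) ∣ n := by
  have hp : p.Prime := Fact.out
  have h1 : addOrderOf x ∣ p := addOrderOf_dvd_iff_nsmul_eq_zero.2 hpx
  have h2 : addOrderOf x = p := by
    rcases (Nat.dvd_prime hp).1 h1 with h | h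
    · exact absurd (AddMonoid.addOrderOf_eq_one_iff.1 h) hx
    · exact h
  rw [← h2]
  exact addOrderOf_dvd_iff_zsmul_eq_zero.2 hn

/-- if `a` is a unit mod `p` and `a • x` lies in a subgroup, `x` of `p`-power order, then `x` does -/
theorem s12s_mem_of_unit_smul {Z : AddSubgroup M} {a : ℤ} (ha : ¬ (p : ℤ) ∣ a) {x : M} {k : ℕ}
    (hx : p ^ k • x = 0) (h : a • x ∈ Z) : x ∈ Z := by
  have hp : p.Prime := Fact.out
  have hcop : IsCoprime a ((p : ℤ) ^ k) := by
    apply IsCoprime.pow_right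
    rw [isCoprime_comm]
    exact (Int.isCoprime_iff_gcd_eq_one).2
      ((Nat.Prime.coprime_iff_not_dvd hp).2 (by
        intro h'
        exact ha (Int.natCast_dvd.2 h')) |> fun h' => by simpa [Int.gcd] using h')
  obtain ⟨u, v, huv⟩ := hcop
  have h1 : x = u • (a • x) + v • ((p : ℤ) ^ k • x) := by
    rw [← mul_smul, ← mul_smul, ← add_smul, huv, one_smul]
  have h2 : ((p : ℤ) ^ k) • x = 0 := by
    have : ((p : ℤ) ^ k) = ((p ^ k : ℕ) : ℤ) := by push_cast; rfl
    rw [this, natCast_zsmul]; exact hx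
  rw [h1, h2, smul_zero, add_zero]
  exact Z.zsmul_mem h u

/-- a subgroup containing the line but not all of `M[p]` meets `M[p]` in the line. -/
theorem s12s_ptors_of_not_all (hcard : HCard M p) {Z K₁ : AddSubgroup M}
    (hK₁ : Nat.card K₁ = p) (hle : K₁ ≤ Z) (hne : ∃ e : M, p • e = 0 ∧ e ∉ Z)
    {x : M} (hx : x ∈ Z) (hpx : p • x = 0) : x ∈ K₁ := by
  have hp : p.Prime := Fact.out
  haveI := s12s_finite_tors hcard 1
  set L : AddSubgroup M := Z ⊓ s12sTors p 1 with hL
  have hLt : L ≤ s12sTors p 1 := inf_le_right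
  haveI : Finite L := Finite.of_injective (AddSubgroup.inclusion hLt)
    (AddSubgroup.inclusion_injective hLt)
  have hK₁t : K₁ ≤ s12sTors p 1 := fun y hy => s12s_mem_tors_one.2 (s12s_line_nsmul hK₁ hy)
  have hK₁L : K₁ ≤ L := le_inf hle hK₁t
  have h1 : Nat.card L ∣ p ^ 2 := by
    have := AddSubgroup.card_dvd_of_le hLt
    rwa [s12s_card_tors hcard 1, mul_one] at this
  have h2 : p ∣ Nat.card L := by
    have := AddSubgroup.card_dvd_of_le hK₁L
    rwa [hK₁] at this
  have h3 : Nat.card L ≠ p ^ 2 := by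
    intro h
    obtain ⟨e, he, hne'⟩ := hne
    have hLe : L = s12sTors p 1 := by
      apply AddSubgroup.eq_of_le_of_card_ge hLt
      rw [h, s12s_card_tors hcard 1, mul_one]
    have : e ∈ L := by rw [hLe]; exact s12s_mem_tors_one.2 he
    exact hne' this.1
  obtain ⟨j, hj, hLj⟩ := (Nat.dvd_prime_pow hp).1 h1
  have hj1 : j = 1 := by
    have hj0 : j ≠ 0 := by
      rintro rfl
      rw [hLj, pow_zero] at h2
      exact hp.one_lt.ne' (Nat.dvd_one.1 h2)
    have hj2 : j ≠ 2 := by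
      rintro rfl
      exact h3 hLj
    omega
  have hLK : K₁ = L := by
    apply AddSubgroup.eq_of_le_of_card_ge hK₁L
    rw [hLj, hj1, pow_one, hK₁]
  rw [hLK]
  exact ⟨hx, s12s_mem_tors_one.2 hpx⟩

end Scalar

end Fermat.Agent.S12

end
end ZBZ2S12_001_8

/-! ### bundled: `Fermat.Agent.S12.StepSplitAdm` -/
section ZBZ2S12_001_9

/-!
# S12 / STEP-SPLIT, part 5: `V ⊃ C` is an admissible extension (helper47)
-/

set_option autoImplicit false
set_option linter.style.haveILetI false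
set_option linter.unusedSectionVars false

noncomputable section

namespace Fermat.Agent.S12

section Adm

variable {M : Type} [AddCommGroup M] [DistribMulAction GQ M] {p : ℕ} [Fact p.Prime]

/-- the stable subgroup of a level -/
def lvlStab {K₁ K : AddSubgroup M} {k : ℕ} (hK : IsLevel M p K₁ k K) : StabSub M :=
  ⟨K, hK.stable⟩

@[simp] theorem lvlStab_K {K₁ K : AddSubgroup M} {k : ℕ} (hK : IsLevel M p K₁ k K) :
    (lvlStab hK).K = K := rfl

theorem s12s_pow_of_one {k : ℕ} (hk : 1 ≤ k) {e : M} (he : p • e = 0) : p ^ k • e = 0 := by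
  obtain ⟨d, rfl⟩ := Nat.exists_eq_add_of_le hk
  rw [pow_add, pow_one, mul_comm, mul_smul, he, smul_zero]

theorem s12s_Y_tors {K₁ K : AddSubgroup M} {k : ℕ} (hK : IsLevel M p K₁ k K) {y : M}
    (hy : p • y ∈ K) : p ^ (k + 1) • y = 0 := by
  rw [pow_succ, mul_smul]
  exact s12s_pow_smul_of_mem hK.card hy

/-- `fixed_sub` -/
theorem s12s_fixed_sub {K₁ K : AddSubgroup M} {k : ℕ} (hk : 1 ≤ k) (hK : IsLevel M p K₁ k K)
    (σ : GQ) (x : SV p (lvlStab hK)) (hx : x ∈ svC p (lvlStab hK)) : σ • x = x := by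
  obtain ⟨e, he, rfl⟩ := (mem_svC _ _).1 hx
  rw [sv_smul_mk, svMk_eq_iff]
  exact hK.cofixed σ e (s12s_pow_of_one hk he)

/-- `cyclo_quot` -/
theorem s12s_cyclo_quot {K₁ K : AddSubgroup M} {k : ℕ} (hk : 1 ≤ k) (hK : IsLevel M p K₁ k K)
    (hK₁ : IsCofixedLine M p K₁) (hcyc : HCyc M p K₁)
    (σ : GQ) (x : SV p (lvlStab hK)) :
    σ • x - (ExtCitation.cycloExp p σ : ZMod p) • x ∈ svC p (lvlStab hK) := by
  have hp : p.Prime := Fact.out
  obtain ⟨y, hy, rfl⟩ := sv_exists_rep _ x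
  have hyK : p • y ∈ K := hy
  set c : ℕ := ExtCitation.cycloExp p σ with hc
  obtain ⟨a, ha⟩ := s12s_scalar hK.cyc hK.stable σ
  -- `p ∣ a - c`
  obtain ⟨x₁, hx₁, hx₁0⟩ := s12s_exists_line_ne hK₁.card
  have hpx₁ := s12s_line_nsmul hK₁.card hx₁
  have h1 : (a - (c : ℤ)) • x₁ = 0 := by
    rw [sub_smul, ← ha x₁ (hK.line hx₁), hcyc σ x₁ hx₁, natCast_zsmul, sub_self]
  obtain ⟨b, hb⟩ := s12s_dvd_of_zsmul hx₁0 hpx₁ h1
  -- the correction
  set κ : M := b • (p • y) with hκ
  have hκK : κ ∈ K := K.zsmul_mem hyK b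
  have hpe : p • (σ • y - c • y - κ) = 0 := by
    have e1 : p • (σ • y) = a • (p • y) := by
      rw [← ha _ hyK, smul_comm]
    have e2 : p • κ = (a - (c : ℤ)) • (p • y) := by
      rw [hκ, hb, mul_smul, natCast_zsmul]
    rw [smul_sub, smul_sub, e1, e2, sub_smul, natCast_zsmul, smul_comm p c y]
    abel
  rw [sv_natCast_smul, sv_smul_mk, sv_nsmul_mk, sv_sub_mk]
  refine (mem_svC _ _).2 ⟨σ • y - c • y - κ, hpe, ?_⟩
  rw [svMk_eq_iff]
  show σ • y - c • y - (σ • y - c • y - κ) ∈ K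
  rw [sub_sub_cancel]
  exact hκK

/-- `unramified_outside` -/
theorem s12s_unram {K₁ K : AddSubgroup M} {k : ℕ} (hk : 1 ≤ k) (hK : IsLevel M p K₁ k K)
    (hK₁ : IsCofixedLine M p K₁) (hcard : HCard M p) (hunip : HUnip M p)
    {ℓ : ℕ} (hℓ : ℓ.Prime) (hℓp : ℓ ≠ p) (A : ValuationSubring Qb) (hA : A.LiesOverPrime ℓ)
    {σ : GQ} (hσ : σ ∈ A.inertiaSubgroupIn ℚ) (x : SV p (lvlStab hK)) : σ • x = x := by
  obtain ⟨y, hy, rfl⟩ := sv_exists_rep _ x
  have hyK : p • y ∈ K := hy
  rw [sv_smul_mk, svMk_eq_iff]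
  show σ • y - y ∈ K
  have hr : σ • y - y ∈ monod M p A := s12s_gen_mem A hσ (s12s_Y_tors hK hyK)
  by_cases hne : monod M p A = ⊥
  · rw [hne, AddSubgroup.mem_bot] at hr
    rw [hr]; exact zero_mem _
  · have htor := hK.toric ℓ hℓ hℓp A hA hne
    have hpr : p • (σ • y - y) = 0 := by
      rw [smul_sub, smul_comm, s12s_monod_fixed hunip hℓ hℓp A hA hσ (htor hyK), sub_self]
    exact hK.line (s12s_monod_ptors hcard hunip hℓ hℓp A hA hne hK₁.card
      (hK.line.trans htor) hr hpr)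

end Adm

end Fermat.Agent.S12

end
end ZBZ2S12_001_9

/-! ### bundled: `Fermat.Agent.S12.StepSplitLoc` -/
section ZBZ2S12_001_10

/-!
# S12 / STEP-SPLIT, part 6: `locally_split` (helper47)
-/

set_option autoImplicit false
set_option linter.style.haveILetI false
set_option linter.unusedSectionVars false
set_option linter.unusedVariables false

noncomputable section

namespace Fermat.Agent.S12

section Compl

variable {p : ℕ} [Fact p.Prime]

/-- in a group of order `p²`: a subgroup of order `p` and a nonzero subgroup meeting it trivially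
are complementary -/
theorem s12s_isCompl_of_card {G : Type*} [AddCommGroup G] (hG : Nat.card G = p ^ 2)
    (C C' : AddSubgroup G) (hC : Nat.card C = p) (hdisj : ∀ x, x ∈ C → x ∈ C' → x = 0)
    (hne : ∃ x ∈ C', x ≠ 0) : IsCompl C C' := by
  have hp : p.Prime := Fact.out
  haveI : Finite G := s12s_finite_of_card hG
  have hinf : C ⊓ C' = ⊥ := by
    rw [eq_bot_iff]
    intro x hx
    exact AddSubgroup.mem_bot.2 (hdisj x hx.1 hx.2)
  refine ⟨disjoint_iff.2 hinf, codisjoint_iff.2 ?_⟩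
  rcases s12s_card_sq_cases hG (C ⊔ C') with h | h | h
  · exfalso
    have h1 : C ⊔ C' = ⊥ := s12s_eq_bot_of_card _ h
    have h2 : C = ⊥ := by
      rw [eq_bot_iff, ← h1]; exact le_sup_left
    rw [h2, AddSubgroup.card_bot] at hC
    exact hp.one_lt.ne hC
  · exfalso
    have h1 : C = C ⊔ C' := by
      apply AddSubgroup.eq_of_le_of_card_ge le_sup_left
      rw [h, hC]
    have h2 : C' ≤ C := by
      rw [h1]; exact le_sup_right
    obtain ⟨x, hx, hx0⟩ := hne
    exact hx0 (hdisj x (h2 hx) hx)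
  · exact s12s_eq_top_of_card hG _ h

end Compl

section Loc

variable {M : Type} [AddCommGroup M] [DistribMulAction GQ M] {p : ℕ} [Fact p.Prime]

/-- the image in `V` of a subgroup `Z` of `M` -/
def svImg (p : ℕ) (S : StabSub M) (Z : AddSubgroup M) : AddSubgroup (SV p S) :=
  (Z.addSubgroupOf (svY p S)).map (svOfY p S)

theorem mem_svImg (S : StabSub M) (Z : AddSubgroup M) (v : SV p S) :
    v ∈ svImg p S Z ↔ ∃ (z : M) (hz : p • z ∈ S.K), z ∈ Z ∧ v = svMk S z hz := by
  constructor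
  · rintro ⟨y, hy, rfl⟩
    exact ⟨y.1, y.2, hy, rfl⟩
  · rintro ⟨z, hz, hzZ, rfl⟩
    exact ⟨⟨z, hz⟩, hzZ, rfl⟩

theorem svC_eq (S : StabSub M) :
    svC p S = AddSubgroup.toZModSubmodule p (svOfTors p S).range := rfl

/-- `locally_split` -/
theorem s12s_locally_split {K₁ K : AddSubgroup M} {k : ℕ} (hk : 1 ≤ k)
    (hK : IsLevel M p K₁ k K) (hK₁ : IsCofixedLine M p K₁) (hcard : HCard M p)
    (hlocp : HLocP M p) (hramp : HRamP M p K₁)
    (A : ValuationSubring Qb) (hA : A.LiesOverPrime p) :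
    ∃ C' : Submodule (ZMod p) (SV p (lvlStab hK)),
      (∀ σ ∈ A.decompositionSubgroup ℚ, ∀ x ∈ C', σ • x ∈ C') ∧
        IsCompl (svC p (lvlStab hK)) C' := by
  have hp : p.Prime := Fact.out
  obtain ⟨Z, hZst, hZin, e₀, he₀, he₀Z⟩ := hlocp A hA
  obtain ⟨σ₀, hσ₀, x₁, hx₁, hx₁ne⟩ := hramp A hA
  obtain ⟨a₀, ha₀⟩ := s12s_scalar hK.cyc hK.stable σ₀
  have hunit : ¬ (p : ℤ) ∣ a₀ - 1 := by
    rintro ⟨b, hb⟩
    apply hx₁ne
    have h1 : a₀ = 1 + (p : ℤ) * b := by linarith
    rw [ha₀ x₁ (hK.line hx₁), h1, add_smul, one_smul, mul_comm, mul_smul, natCast_zsmul,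
      s12s_line_nsmul hK₁.card hx₁, smul_zero, add_zero]
  have hsub : ∀ x ∈ K, (a₀ - 1) • x = σ₀ • x - x := by
    intro x hx
    rw [sub_smul, one_smul, ha₀ x hx]
  have hKZ : K ≤ Z := by
    intro x hx
    have hxk := s12s_pow_smul_of_mem hK.card hx
    apply s12s_mem_of_unit_smul hunit hxk
    rw [hsub x hx]
    exact hZin σ₀ hσ₀ k x hxk
  have hZp : ∀ x ∈ Z, p • x = 0 → x ∈ K₁ := fun x hx hpx =>
    s12s_ptors_of_not_all hcard hK₁.card (hK.line.trans hKZ) ⟨e₀, he₀, he₀Z⟩ hx hpx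
  refine ⟨AddSubgroup.toZModSubmodule p (svImg p (lvlStab hK) Z), ?_, ?_⟩
  · intro σ hσ x hx
    obtain ⟨z, hz, hzZ, rfl⟩ := (mem_svImg _ _ _).1 hx
    rw [sv_smul_mk]
    exact (mem_svImg _ _ _).2 ⟨σ • z, _, hZst σ hσ z hzZ, rfl⟩
  · rw [svC_eq]
    refine (OrderIso.isCompl_iff (AddSubgroup.toZModSubmodule p)).1 ?_
    apply s12s_isCompl_of_card (s12s_card_V hcard (lvlStab hK) hK.card)
    · exact s12s_card_C hcard (lvlStab hK) hk hK.card hK.cyc hK₁.card hK.line
    · -- disjoint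
      rintro v ⟨e, rfl⟩ hv
      obtain ⟨z, hz, hzZ, hvz⟩ := (mem_svImg _ _ _).1 hv
      have h1 : (e : M) - z ∈ K :=
        (svMk_eq_iff (lvlStab hK)
          (by rw [s12s_mem_tors_one.1 e.2]; exact zero_mem _) hz).1 hvz
      have heZ : (e : M) ∈ Z := by
        have := add_mem (hKZ h1) hzZ
        rwa [sub_add_cancel] at this
      have heK : (e : M) ∈ K := hK.line (hZp _ heZ (s12s_mem_tors_one.1 e.2))
      exact (svOfTors_eq_zero_iff _ e).2 heK
    · -- a nonzero element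
      obtain ⟨g, hg⟩ := hK.cyc
      have hgK : g ∈ K := by rw [hg]; exact AddSubgroup.mem_zmultiples g
      have hgk := s12s_pow_smul_of_mem hK.card hgK
      obtain ⟨y, hy, hpy⟩ := s12s_div hcard k g hgk
      have hzZ : σ₀ • y - y ∈ Z := hZin σ₀ hσ₀ (k + 1) y hy
      have hpz : p • (σ₀ • y - y) = (a₀ - 1) • g := by
        rw [smul_sub, smul_comm, hpy, hsub g hgK]
      have hzY : p • (σ₀ • y - y) ∈ (lvlStab hK).K := by
        rw [hpz]; exact K.zsmul_mem hgK _
      refine ⟨svMk _ _ hzY, (mem_svImg _ _ _).2 ⟨_, hzY, hzZ, rfl⟩, ?_⟩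
      intro h0
      have hzK : σ₀ • y - y ∈ K := (svMk_eq_zero_iff _ hzY).1 h0
      have h2 := s12s_pow_smul_of_mem hK.card hzK
      obtain ⟨d, hd⟩ := Nat.exists_eq_add_of_le hk
      have hk1 : k - 1 = d := by omega
      have hk2 : k = d + 1 := by omega
      have h3 : (a₀ - 1) • (p ^ (k - 1) • g) = 0 := by
        rw [smul_comm, ← hpz, ← mul_smul, ← pow_succ, hk1, ← hk2]
        exact h2
      have hord := s12s_order_top hk (s12s_order_gen hg hK.card)
      have hne0 : p ^ (k - 1) • g ≠ 0 := by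
        intro h
        rw [h, addOrderOf_zero] at hord
        exact hp.one_lt.ne hord
      have hp0 : p • (p ^ (k - 1) • g) = 0 := by
        have := addOrderOf_nsmul_eq_zero (p ^ (k - 1) • g)
        rwa [hord] at this
      exact hunit (s12s_dvd_of_zsmul hne0 hp0 h3)

end Loc

end Fermat.Agent.S12

end
end ZBZ2S12_001_10

/-! ### bundled: `Fermat.Agent.S12.StepSplit` -/
section ZBZ2S12_001_11

/-!
# S12 / STEP-SPLIT: `stmtStepSplit : StmtStepSplit` (helper47)

A level `K` (`k ≥ 1`) has a `G`-stable cyclic overgroup `K'` of order `p^{k+1}`: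
`V = [p]⁻¹K / K ⊃ C = (M[p] + K)/K` is an admissible extension, `S14` splits it, `K'` is the
preimage of the complement.
-/

set_option autoImplicit false
set_option linter.style.haveILetI false
set_option linter.unusedSectionVars false
set_option linter.unusedVariables false

noncomputable section

namespace Fermat.Agent.S12

section Open

variable {M : Type} [AddCommGroup M] [DistribMulAction GQ M] {p : ℕ} [Fact p.Prime]

/-- `open_kernel` -/
theorem s12s_open_kernel {K₁ K : AddSubgroup M} {k : ℕ} (hK : IsLevel M p K₁ k K)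
    (hcard : HCard M p) (hopen : HOpen M p) :
    IsOpen {σ : GQ | ∀ v : SV p (lvlStab hK), σ • v = v} := by
  classical
  haveI : Finite (SV p (lvlStab hK)) := s12s_finite_of_card (s12s_card_V hcard (lvlStab hK) hK.card)
  letI : Fintype (SV p (lvlStab hK)) := Fintype.ofFinite _
  choose y hy hv using sv_exists_rep (p := p) (lvlStab hK)
  choose T hT using fun v => hopen (y v) ⟨k + 1, s12s_Y_tors hK (hy v)⟩
  let Sall : Finset Qb := Finset.univ.biUnion T
  let E : IntermediateField ℚ Qb := IntermediateField.adjoin ℚ (Sall : Set Qb)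
  haveI : FiniteDimensional ℚ E :=
    IntermediateField.finiteDimensional_adjoin
      (fun x _ => ((AlgebraicClosure.isAlgebraic ℚ).isAlgebraic x).isIntegral)
  let H : Subgroup GQ :=
    { carrier := {σ : GQ | ∀ v : SV p (lvlStab hK), σ • v = v}
      mul_mem' := fun {a b} ha hb v => by rw [mul_smul, hb v, ha v]
      one_mem' := fun v => one_smul _ v
      inv_mem' := fun {a} ha v => by
        have := ha v
        rw [inv_smul_eq_iff]
        exact this.symm }
  have hle : E.fixingSubgroup ≤ H := by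
    intro σ hσ v
    rw [IntermediateField.mem_fixingSubgroup_iff] at hσ
    have h1 : σ • y v = y v := by
      apply hT v σ
      intro s hs
      apply hσ
      apply IntermediateField.subset_adjoin
      exact Finset.mem_coe.2 (Finset.mem_biUnion.2 ⟨v, Finset.mem_univ _, hs⟩)
    rw [hv v, sv_smul_mk]
    exact (svMk_eq_iff _ _ _).2 (by rw [h1, sub_self]; exact zero_mem _)
  exact Subgroup.isOpen_mono hle (IntermediateField.fixingSubgroup_isOpen E)

end Open

section Main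

variable {M : Type} [AddCommGroup M] [DistribMulAction GQ M] {p : ℕ} [Fact p.Prime]

/-- the admissible extension -/
theorem s12s_admissible (hp3 : 3 ≤ p) {K₁ K : AddSubgroup M} {k : ℕ} (hk : 1 ≤ k)
    (hK : IsLevel M p K₁ k K) (hK₁ : IsCofixedLine M p K₁) (hcard : HCard M p)
    (hopen : HOpen M p) (hunip : HUnip M p) (hlocp : HLocP M p) (hcyc : HCyc M p K₁)
    (hramp : HRamP M p K₁) :
    haveI : NeZero p := ⟨(Fact.out : p.Prime).ne_zero⟩
    ExtCitation.IsAdmissibleExtensionCts p (SV p (lvlStab hK)) (svC p (lvlStab hK)) := by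
  haveI : NeZero p := ⟨(Fact.out : p.Prime).ne_zero⟩
  refine { toIsAdmissibleExtension := ?_, open_kernel := s12s_open_kernel hK hcard hopen }
  exact
    { stable := fun σ x hx => by rw [s12s_fixed_sub hk hK σ x hx]; exact hx
      fixed_sub := fun σ x hx => s12s_fixed_sub hk hK σ x hx
      cyclo_quot := fun σ x => s12s_cyclo_quot hk hK hK₁ hcyc σ x
      card_sub := s12s_card_C hcard (lvlStab hK) hk hK.card hK.cyc hK₁.card hK.line
      card_total := s12s_card_V hcard (lvlStab hK) hK.card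
      unramified_outside := fun ℓ hℓ hℓp A hA σ hσ x =>
        s12s_unram hk hK hK₁ hcard hunip hℓ hℓp A hA hσ x
      locally_split := fun A hA => s12s_locally_split hk hK hK₁ hcard hlocp hramp A hA }

/-- the order of a complement of `C` -/
theorem s12s_card_compl {G : Type*} [AddCommGroup G] (hG : Nat.card G = p ^ 2)
    (C C' : AddSubgroup G) (hC : Nat.card C = p) (hcompl : IsCompl C C') : Nat.card C' = p := by
  have hp : p.Prime := Fact.out
  haveI : Finite G := s12s_finite_of_card hG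
  rcases s12s_card_sq_cases hG C' with h | h | h
  · exfalso
    have h1 : C' = ⊥ := s12s_eq_bot_of_card _ h
    have h2 : C = ⊤ := by
      have := hcompl.sup_eq_top
      rwa [h1, sup_bot_eq] at this
    rw [h2, AddSubgroup.card_top, hG] at hC
    have : p ^ 2 = p ^ 1 := by rw [pow_one]; exact hC
    have := Nat.pow_right_injective hp.two_le this
    omega
  · exact h
  · exfalso
    have h1 : C' = ⊤ := s12s_eq_top_of_card hG _ h
    have h2 : C = ⊥ := by
      have := hcompl.inf_eq_bot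
      rwa [h1, inf_top_eq] at this
    rw [h2, AddSubgroup.card_bot] at hC
    exact hp.one_lt.ne hC

/-- the preimage of a stable complement -/
theorem s12s_of_compl (hcard : HCard M p) (S : StabSub M) {k : ℕ} (hk : 1 ≤ k)
    (hKcard : Nat.card S.K = p ^ k) (hKcyc : ∃ g : M, S.K = AddSubgroup.zmultiples g)
    {K₁ : AddSubgroup M} (hK₁card : Nat.card K₁ = p) (hline : K₁ ≤ S.K)
    (C'' : Submodule (ZMod p) (SV p S)) (hst : ∀ σ : GQ, ∀ x ∈ C'', σ • x ∈ C'')
    (hcompl : IsCompl (svC p S) C'') :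
    ∃ K' : AddSubgroup M, S.K ≤ K' ∧ Nat.card K' = p ^ (k + 1) ∧
      (∃ g : M, K' = AddSubgroup.zmultiples g) ∧ (∀ σ : GQ, ∀ x ∈ K', σ • x ∈ K') := by
  have hp : p.Prime := Fact.out
  haveI : NeZero p := ⟨hp.ne_zero⟩
  have hV := s12s_card_V hcard S hKcard
  have hCcard : Nat.card (svOfTors p S).range = p :=
    s12s_card_C hcard S hk hKcard hKcyc hK₁card hline
  -- complement as additive subgroups
  have hcompl' : IsCompl (svOfTors p S).range C''.toAddSubgroup := by
    have h1 : svC p S = AddSubgroup.toZModSubmodule p (svOfTors p S).range := rfl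
    have h2 : C'' = AddSubgroup.toZModSubmodule p C''.toAddSubgroup := by
      ext x; rfl
    rw [h1, h2] at hcompl
    exact (OrderIso.isCompl_iff (AddSubgroup.toZModSubmodule p)).2 hcompl
  have hC''card : Nat.card C''.toAddSubgroup = p := s12s_card_compl hV _ _ hCcard hcompl'
  have hdisj : ∀ v : SV p S, v ∈ (svOfTors p S).range → v ∈ C'' → v = 0 := by
    intro v hv hv'
    have : v ∈ (svOfTors p S).range ⊓ C''.toAddSubgroup := ⟨hv, hv'⟩
    rw [hcompl'.inf_eq_bot] at this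
    exact AddSubgroup.mem_bot.1 this
  -- the preimage
  set KY : AddSubgroup (svY p S) := C''.toAddSubgroup.comap (svOfY p S) with hKY
  set K' : AddSubgroup M := KY.map (svY p S).subtype with hK'
  have hmemK' : ∀ y : M, y ∈ K' ↔ ∃ hy : p • y ∈ S.K, svMk S y hy ∈ C'' := by
    intro y
    constructor
    · rintro ⟨z, hz, rfl⟩
      exact ⟨z.2, hz⟩
    · rintro ⟨hy, hmem⟩
      exact ⟨⟨y, hy⟩, hmem, rfl⟩
  have hKK' : S.K ≤ K' := by
    intro x hx
    have hx' : p • x ∈ S.K := S.K.nsmul_mem hx p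
    refine (hmemK' x).2 ⟨hx', ?_⟩
    rw [(svMk_eq_zero_iff S hx').2 hx]
    exact zero_mem _
  -- cardinality
  have hcardKY : Nat.card KY = p ^ (k + 1) := by
    have h1 := AddSubgroup.card_mul_index KY
    rw [hKY, AddSubgroup.index_comap_of_surjective _ (svOfY_surjective S), ← hKY,
      s12s_card_Y hcard S hKcard] at h1
    have h2 := AddSubgroup.card_mul_index C''.toAddSubgroup
    rw [hC''card, hV] at h2
    have h3 : C''.toAddSubgroup.index = p := by
      have : p * C''.toAddSubgroup.index = p * p := by rw [h2, sq]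
      exact Nat.eq_of_mul_eq_mul_left hp.pos this
    rw [h3] at h1
    have h4 : Nat.card KY * p = p ^ (k + 1) * p := by rw [h1]; ring
    exact Nat.eq_of_mul_eq_mul_right hp.pos h4
  have hcardK' : Nat.card K' = p ^ (k + 1) := by
    rw [← hcardKY]
    exact (Nat.card_congr
      (AddSubgroup.equivMapOfInjective KY (svY p S).subtype
        (AddSubgroup.subtype_injective _)).toEquiv).symm
  haveI : Finite K' := s12s_finite_of_card hcardK'
  -- stability
  have hstK' : ∀ σ : GQ, ∀ x ∈ K', σ • x ∈ K' := by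
    intro σ x hx
    obtain ⟨hy, hmem⟩ := (hmemK' x).1 hx
    refine (hmemK' _).2 ⟨by rw [← smul_comm σ p x]; exact S.stable σ _ hy, ?_⟩
    have := hst σ _ hmem
    rwa [sv_smul_mk] at this
  refine ⟨K', hKK', hcardK', ?_, hstK'⟩
  -- cyclic
  obtain ⟨g, hg⟩ := hKcyc
  have hgK : g ∈ S.K := by rw [hg]; exact AddSubgroup.mem_zmultiples g
  have hgk := s12s_pow_smul_of_mem hKcard hgK
  -- a point of `K' ∖ K`
  obtain ⟨v, hvC, hv0⟩ : ∃ v : SV p S, v ∈ C'' ∧ v ≠ 0 := by
    by_contra hcon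
    push Not at hcon
    have : C''.toAddSubgroup = ⊥ := by
      rw [eq_bot_iff]
      intro x hx
      exact AddSubgroup.mem_bot.2 (hcon x hx)
    rw [this, AddSubgroup.card_bot] at hC''card
    exact hp.one_lt.ne hC''card
  obtain ⟨y, hy, rfl⟩ := sv_exists_rep S v
  have hyK : p • y ∈ S.K := hy
  have hyK' : y ∈ K' := (hmemK' y).2 ⟨hy, hvC⟩
  have hynK : y ∉ S.K := fun h => hv0 ((svMk_eq_zero_iff S hy).2 h)
  have hpy : p • y ∈ AddSubgroup.zmultiples g := hg ▸ hyK
  obtain ⟨n, hn⟩ := AddSubgroup.mem_zmultiples_iff.1 hpy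
  have hnp : ¬ (p : ℤ) ∣ n := by
    rintro ⟨n', rfl⟩
    set κ : M := n' • g with hκ
    have hκK : κ ∈ S.K := S.K.zsmul_mem hgK n'
    have hpe : p • (y - κ) = 0 := by
      rw [smul_sub, ← hn, hκ, mul_smul, natCast_zsmul, sub_self]
    have heq : svMk S y hy = svMk S (y - κ) (by rw [hpe]; exact zero_mem _) := by
      rw [svMk_eq_iff]
      show y - (y - κ) ∈ S.K
      rw [sub_sub_cancel]; exact hκK
    have h1 : svMk S y hy ∈ (svOfTors p S).range := by
      rw [heq]
      exact ⟨⟨y - κ, s12s_mem_tors_one.2 hpe⟩, rfl⟩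
    exact hv0 (hdisj _ h1 hvC)
  have hgy : g ∈ AddSubgroup.zmultiples y := by
    apply s12s_mem_of_unit_smul hnp hgk
    rw [hn]
    exact (AddSubgroup.zmultiples y).nsmul_mem (AddSubgroup.mem_zmultiples y) p
  have hKy : S.K ≤ AddSubgroup.zmultiples y := by
    rw [hg]
    exact AddSubgroup.zmultiples_le_of_mem hgy
  have hyle : AddSubgroup.zmultiples y ≤ K' := AddSubgroup.zmultiples_le_of_mem hyK'
  haveI : Finite (AddSubgroup.zmultiples y) :=
    Finite.of_injective (AddSubgroup.inclusion hyle) (AddSubgroup.inclusion_injective hyle)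
  refine ⟨y, ?_⟩
  symm
  apply AddSubgroup.eq_of_le_of_card_ge hyle
  -- `#⟨y⟩ = p^{k+1}`
  have h1 : Nat.card (AddSubgroup.zmultiples y) ∣ p ^ (k + 1) := by
    rw [← hcardK']; exact AddSubgroup.card_dvd_of_le hyle
  have h2 : p ^ k ∣ Nat.card (AddSubgroup.zmultiples y) := by
    rw [← hKcard]; exact AddSubgroup.card_dvd_of_le hKy
  obtain ⟨j, hj, hcj⟩ := (Nat.dvd_prime_pow hp).1 h1
  have hkj : k ≤ j := by
    rw [hcj] at h2
    exact (Nat.pow_dvd_pow_iff_le_right hp.one_lt).1 h2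
  have hjk : j ≠ k := by
    rintro rfl
    have : S.K = AddSubgroup.zmultiples y := by
      apply AddSubgroup.eq_of_le_of_card_ge hKy
      rw [hcj, hKcard]
    exact hynK (this ▸ AddSubgroup.mem_zmultiples y)
  have hj' : j = k + 1 := by omega
  rw [hcardK', hcj, hj']

/-- **STEP-SPLIT.** -/
theorem stmtStepSplit : StmtStepSplit := by
  intro M _ _ p _ hp3 hS14 hcard hopen hunip hlocp K₁ hK₁ hcyc hramp k K hk hK
  have hp : p.Prime := Fact.out
  haveI : NeZero p := ⟨hp.ne_zero⟩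
  have hadm := s12s_admissible hp3 hk hK hK₁ hcard hopen hunip hlocp hcyc hramp
  obtain ⟨C'', hst, hcompl⟩ := hS14 (SV p (lvlStab hK)) (svC p (lvlStab hK)) hadm
  exact s12s_of_compl hcard (lvlStab hK) hk hK.card hK.cyc hK₁.card hK.line C'' hst hcompl

end Main

end Fermat.Agent.S12

end
end ZBZ2S12_001_11

/-! ### bundled: `Fermat.Agent.S12.Core` -/
section ZBZ2S12_001_12

/-!
# S12 / CORE: `stmtCore : StmtCore` (assembly; helper47)

`CORE-BASE` (helper24), `STEP-SPLIT` (helper47), `STEP-TORIC` (helper24), `STEP-COFIXED` (helper60).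
-/

set_option autoImplicit false

namespace Fermat.Agent.S12

/-- **CORE-STEP.** -/
theorem stmtCoreStep : StmtCoreStep :=
  stmtCoreStep_of stmtStepSplit stmtStepToric stmtStepCofixed

/-- **CORE.** The abstract hypotheses `HCard … HS15` together with a cofixed line are
contradictory. -/
theorem stmtCore : StmtCore :=
  stmtCore_of stmtCoreBase stmtCoreStep

end Fermat.Agent.S12


end ZBZ2S12_001_12

/-! ### bundled: `Fermat.Agent.S12.GFrob` -/
section ZBZ2S12_001_13

/-!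
# S12-GLUE: G-FROB (helper24)

* `stmtGoodTors : StmtGoodTors`, `stmtGoodLine : StmtGoodLine`, `stmtFin : StmtFin`.

Bricks: the Frobenius relation `τ² - a_ℓ τ + ℓ = 0` on torsion of order prime to `ℓ`
(`RED.frobenius_relation_of_torsion_all`), `N := ℓ + 1 - a_ℓ = #Ē(𝔽_ℓ) ∈ [1, 2ℓ + 1]`
(`s12f_card_le`), `#E[n] = n²` (`EC.ec_card_torsion`), existence of Frobenius elements.
If `G` is trivial on `M[p^k]/K` then `N · M[p^k] ⊆ K`; as `K` is cyclic, `p^k ∣ N` (`s12f_dvd`).
-/

set_option autoImplicit false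

namespace Fermat.Agent.S12

open WeierstrassCurve WeierstrassCurve.Affine

section Count

variable {F : Type} [Field F] (W : WeierstrassCurve F)

open Classical in
/-- a chosen point with given abscissa -/
noncomputable def s12fY0 (x : F) : F :=
  if h : ∃ y, W.toAffine.Equation x y then h.choose else 0

theorem s12fY0_spec {x y : F} (h : W.toAffine.Equation x y) :
    W.toAffine.Equation x (s12fY0 W x) := by
  have hex : ∃ y, W.toAffine.Equation x y := ⟨y, h⟩
  rw [s12fY0, dif_pos hex]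
  exact hex.choose_spec

open Classical in
/-- a point is determined by its abscissa and one bit -/
noncomputable def s12fCode : W.toAffine.Point → Option (F × Bool)
  | .zero => none
  | .some x y _ => some (x, decide (y = s12fY0 W x))

theorem s12fCode_injective : Function.Injective (s12fCode W) := by
  classical
  rintro (_ | ⟨x₁, y₁, h₁⟩) (_ | ⟨x₂, y₂, h₂⟩) h
  · rfl
  · simp [s12fCode] at h
  · simp [s12fCode] at h
  · simp only [s12fCode, Option.some.injEq, Prod.mk.injEq, decide_eq_decide] at h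
    obtain ⟨rfl, hy⟩ := h
    have hy₀ := s12fY0_spec W h₁.1
    have key : y₁ = y₂ := by
      by_cases h1 : y₁ = s12fY0 W x₁
      · rw [h1, ← hy.mp h1]
      · have h2 : ¬ y₂ = s12fY0 W x₁ := fun h2 => h1 (hy.mpr h2)
        have e1 := (Y_eq_of_X_eq h₁.1 hy₀ rfl).resolve_left h1
        have e2 := (Y_eq_of_X_eq h₂.1 hy₀ rfl).resolve_left h2
        rw [e1, e2]
    subst key
    rfl

/-- the trivial bound for the number of points -/
theorem s12f_card_le [Finite F] : Nat.card W.toAffine.Point ≤ 2 * Nat.card F + 1 := by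
  classical
  have : Fintype F := Fintype.ofFinite F
  have h1 := Nat.card_le_card_of_injective (s12fCode W) (s12fCode_injective W)
  have h2 : Nat.card (Option (F × Bool)) = 2 * Nat.card F + 1 := by
    rw [Nat.card_eq_fintype_card, Fintype.card_option, Fintype.card_prod, Fintype.card_bool,
      Nat.card_eq_fintype_card, mul_comm]
  rw [h2] at h1
  exact h1

theorem s12f_card_pos [Finite F] : 0 < Nat.card W.toAffine.Point :=
  Nat.card_pos

end Count

section Group

variable {M : Type} [AddCommGroup M] {p : ℕ}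

/-- iterated surjectivity of `[p]` -/
theorem s12f_surj_iter (hp : p.Prime) (hcard : HCard M p) (e : ℕ) (y : M) (hy : p • y = 0) :
    ∃ x : M, p ^ e • x = y ∧ p ^ (e + 1) • x = 0 := by
  induction e with
  | zero => exact ⟨y, by rw [pow_zero, one_smul], by rw [zero_add, pow_one]; exact hy⟩
  | succ e ih =>
    obtain ⟨x, hx, hx0⟩ := ih
    obtain ⟨R', hR', hR'0⟩ := s12m_surj hp hcard (e + 1) x hx0
    refine ⟨R', ?_, hR'0⟩
    rw [pow_succ, mul_smul, hR', hx]

/-- if `N` maps `M[p^k]` into a cyclic group of order `p^k`, then `p^k ∣ N` -/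
theorem s12f_dvd (hp : p.Prime) (hcard : HCard M p) (k : ℕ) (K : AddSubgroup M)
    (hK : Nat.card K = p ^ k) (hcyc : ∃ g : M, K = AddSubgroup.zmultiples g) (N : ℕ) (hN : N ≠ 0)
    (h : ∀ x : M, p ^ k • x = 0 → N • x ∈ K) : p ^ k ∣ N := by
  obtain ⟨e, n', hn', hNe⟩ := Nat.exists_eq_pow_mul_and_not_dvd hN p hp.ne_one
  by_cases hek : k ≤ e
  · rw [hNe]
    exact Dvd.dvd.mul_right (pow_dvd_pow p hek) n'
  exfalso
  have hek' : e + 1 ≤ k := by omega
  obtain ⟨g, rfl⟩ := hcyc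
  have hord : addOrderOf g = p ^ k := by rw [← Nat.card_zmultiples, hK]
  -- `M[p] ⊆ K`
  obtain ⟨c, -, hc⟩ := Nat.exists_mul_mod_eq_one_of_coprime
    ((Nat.Prime.coprime_iff_not_dvd hp).mpr hn').symm hp.one_lt
  have hsub : ∀ y : M, p • y = 0 → y ∈ AddSubgroup.zmultiples g := by
    intro y hy
    obtain ⟨x, hx, hx0⟩ := s12f_surj_iter hp hcard e y hy
    have hxk : p ^ k • (c • x) = 0 := by
      obtain ⟨d, rfl⟩ := Nat.exists_eq_add_of_le hek'
      rw [smul_comm, pow_add, mul_comm, mul_smul, hx0, smul_zero, smul_zero]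
    have h1 := h (c • x) hxk
    have h2 : N • (c • x) = y := by
      have h3 : n' * c = p * (n' * c / p) + 1 := by
        have := Nat.div_add_mod (n' * c) p
        rw [hc] at this
        exact this.symm
      rw [hNe, ← mul_smul, mul_assoc, h3, mul_smul, add_smul, one_smul, smul_add, hx,
        mul_smul, ← mul_smul (p ^ e) p, ← pow_succ, smul_comm, hx0, smul_zero, zero_add]
    rw [h2] at h1
    exact h1
  -- count
  have hk1 : k = (k - 1) + 1 := by omega
  have hle : s12mT M p 1 ≤ AddSubgroup.zmultiples (p ^ (k - 1) • g) := by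
    intro y hy
    have hy' : p • y = 0 := by
      have : p ^ 1 • y = 0 := hy
      rwa [pow_one] at this
    exact s12m_cyc_mem (a := p ^ (k - 1)) (b := p) hp.ne_zero
      (by rw [hord, ← pow_succ, ← hk1]) (hsub y hy') hy'
  have hpk : p • (p ^ (k - 1) • g) = 0 := by
    rw [← mul_smul, ← pow_succ', ← hk1, ← hord]
    exact addOrderOf_nsmul_eq_zero g
  have hfin : Finite (AddSubgroup.zmultiples (p ^ (k - 1) • g)) := by
    apply Nat.finite_of_card_ne_zero
    rw [Nat.card_zmultiples]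
    exact (addOrderOf_pos_iff.mpr
      (isOfFinAddOrder_iff_nsmul_eq_zero.mpr ⟨p, hp.pos, hpk⟩)).ne'
  have h1 := AddSubgroup.card_le_of_le hle
  have h2 : Nat.card (s12mT M p 1) = p ^ 2 := by
    have := hcard 1
    rw [mul_one] at this
    exact this
  rw [h2, Nat.card_zmultiples] at h1
  have h3 := addOrderOf_le_of_nsmul_eq_zero hp.pos hpk
  have h4 : p < p ^ 2 := by
    rw [pow_two]
    exact lt_mul_of_one_lt_left hp.pos hp.one_lt
  omega

end Group

section Frob

/-- the Frobenius relation with `N = ℓ + 1 - a_ℓ ∈ [1, 2ℓ + 1]` -/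
theorem s12f_frob (W : WeierstrassCurve ℤ) (ℓ : ℕ) (hℓ : ℓ.Prime) (hgood : ¬ (ℓ : ℤ) ∣ W.Δ) :
    ∃ (τ : GQ) (N : ℕ) (a : ℤ), 0 < N ∧ N ≤ 2 * ℓ + 1 ∧ (N : ℤ) = 1 - a + ℓ ∧
      ∀ n : ℕ, ¬ ℓ ∣ n → ∀ Q : PtZ W, n • Q = 0 →
        τ • τ • Q - a • τ • Q + (ℓ : ℤ) • Q = 0 := by
  have : Fact ℓ.Prime := ⟨hℓ⟩
  obtain ⟨A, τ, hA, hτ⟩ := Fermat.Agent.Common.exists_isFrobeniusAt ℓ hℓ
  refine ⟨τ, Nat.card (W.reductionMod ℓ).toAffine.Point, W.apOfModel ℓ,
    s12f_card_pos _, ?_, ?_, ?_⟩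
  · have := s12f_card_le (W.reductionMod ℓ)
    rwa [Nat.card_zmod] at this
  · rw [WeierstrassCurve.apOfModel, WeierstrassCurve.traceOfFrobenius, WeierstrassCurve.card,
      Nat.card_zmod]
    ring
  · intro n hn Q hQ
    exact Fermat.Agent.RED.frobenius_relation_of_torsion_all W hℓ hgood A hA τ hτ hn Q hQ

/-- `#E[p^m] = p^{2m}` for an integral model -/
theorem s12f_hcard (W : WeierstrassCurve ℤ) (hΔ : W.Δ ≠ 0) (p : ℕ) (hp : p ≠ 0) :
    HCard (PtZ W) p := by
  intro m
  have hΔ' : ((W.map (Int.castRingHom ℚ)).toAffine⁄(AlgebraicClosure ℚ)).Δ ≠ 0 := by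
    show ((W.map (Int.castRingHom ℚ)).map (algebraMap ℚ (AlgebraicClosure ℚ))).Δ ≠ 0
    rw [WeierstrassCurve.map_Δ, WeierstrassCurve.map_Δ]
    simpa using hΔ
  have h := Fermat.Agent.EC.ec_card_torsion hΔ' two_ne_zero (n := p ^ m)
    (Nat.cast_ne_zero.mpr (pow_ne_zero m hp))
  rw [← pow_mul, mul_comm] at h
  exact h

/-- **GOODTORS.** -/
theorem stmtGoodTors : StmtGoodTors := by
  intro W _ ℓ hℓ hgood p hp hpℓ Q hQ hord
  obtain ⟨τ, N, a, hN0, hN, hNa, hrel⟩ := s12f_frob W ℓ hℓ hgood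
  have hn : ¬ ℓ ∣ p := fun h => hpℓ ((Nat.prime_dvd_prime_iff_eq hℓ hp).1 h).symm
  have hpQ : p • Q = 0 := by rw [← hord]; exact addOrderOf_nsmul_eq_zero Q
  have h1 := hrel p hn Q hpQ
  rw [hQ τ, hQ τ] at h1
  have h2 : N • Q = 0 := by
    rw [← natCast_zsmul, hNa, add_zsmul, sub_zsmul, one_zsmul]
    exact h1
  have h3 : p ∣ N := by
    rw [← hord]
    exact addOrderOf_dvd_of_nsmul_eq_zero h2
  exact (Nat.le_of_dvd hN0 h3).trans hN

/-- **GOODLINE.** -/
theorem stmtGoodLine : StmtGoodLine := by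
  intro W hΔ ℓ hℓ hgood p hp hpℓ k K hK hcyc hcof
  obtain ⟨τ, N, a, hN0, hN, hNa, hrel⟩ := s12f_frob W ℓ hℓ hgood
  have hn : ¬ ℓ ∣ p ^ k := fun h =>
    hpℓ ((Nat.prime_dvd_prime_iff_eq hℓ hp).1 (hℓ.dvd_of_dvd_pow h)).symm
  have hKtors : ∀ x ∈ K, p ^ k • x = 0 := by
    intro x hx
    have h := card_nsmul_eq_zero' (G := K) (x := ⟨x, hx⟩)
    rw [hK] at h
    exact congrArg Subtype.val h
  have hmain : ∀ x : PtZ W, p ^ k • x = 0 → N • x ∈ K := by
    intro x hx
    have hκ₁ : τ • x - x ∈ K := hcof τ x hx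
    have hκ₂ : τ • (τ • x - x) - (τ • x - x) ∈ K := hcof τ _ (hKtors _ hκ₁)
    have h1 := hrel (p ^ k) hn x hx
    have h2 : N • x = a • (τ • x - x) - (τ • x - x) - (τ • x - x)
        - (τ • (τ • x - x) - (τ • x - x)) := by
      rw [← natCast_zsmul, hNa, smul_sub τ, ← sub_eq_zero, ← h1]
      simp only [add_zsmul, sub_zsmul, one_zsmul, zsmul_sub]
      abel
    rw [h2]
    exact K.sub_mem (K.sub_mem (K.sub_mem (K.zsmul_mem hκ₁ a) hκ₁) hκ₁) hκ₂
  have hdvd := s12f_dvd hp (s12f_hcard W hΔ p hp.ne_zero) k K hK hcyc N hN0.ne' hmain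
  exact (Nat.le_of_dvd hN0 hdvd).trans hN

/-- `HFin` for an integral model -/
theorem s12f_hfin (W : WeierstrassCurve ℤ) (hΔ : W.Δ ≠ 0) (p : ℕ) (hp : p.Prime) :
    HFin (PtZ W) p := by
  obtain ⟨ℓ, hℓ1, hℓ⟩ := Nat.exists_infinite_primes (W.Δ.natAbs + p + 1)
  have hgood : ¬ (ℓ : ℤ) ∣ W.Δ := by
    intro h
    have h1 : ℓ ∣ W.Δ.natAbs := Int.natCast_dvd.mp h
    have h2 := Nat.le_of_dvd (Int.natAbs_pos.mpr hΔ) h1
    omega
  have hpℓ : p ≠ ℓ := by omega
  exact ⟨2 * ℓ + 1, fun k K hK hcyc hcof =>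
    stmtGoodLine W hΔ ℓ hℓ hgood p hp hpℓ k K hK hcyc hcof⟩

/-- **G-FIN.** -/
theorem stmtFin : StmtFin := by
  intro P
  have h := s12f_hfin P.freyCurveInt (Fermat.Agent.S04.freyCurveInt_Δ_ne_zero P) P.p P.pp
  have e : P.freyCurveInt.map (Int.castRingHom ℚ) = P.freyCurve :=
    Fermat.Agent.S04.freyCurveInt_map P
  change HFin ((P.freyCurveInt.map (Int.castRingHom ℚ))⁄Qb).Point P.p at h
  rw [e] at h
  exact h

end Frob

end Fermat.Agent.S12


end ZBZ2S12_001_13

/-! ### bundled: `Fermat.Agent.S12.GWrap` -/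
section ZBZ2S12_001_14

/-!
# S12-GLUE: G-WRAP (helper24)

The wrappers `hPlaces`, `stmtGoodUnr`, `stmtE0Add`, `stmtCard`, `stmtOpen`, `stmtUnip`,
`stmtLine` of the interface `S12/Plan.lean`.
-/

set_option autoImplicit false

namespace Fermat.Agent.S12

open WeierstrassCurve WeierstrassCurve.Affine

/-- **HPlaces.** -/
theorem hPlaces : HPlaces := fun q hq => Fermat.Agent.Common.exists_liesOverPrime q hq

/-- **GOOD-UNR.** -/
theorem stmtGoodUnr : StmtGoodUnr := fun W _ hℓ hgood A hA _ hσ _ hn R hR =>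
  Fermat.Agent.RED.inertia_smul_eq_of_good W hℓ hgood A hA hσ hn R hR

/-- **E0-ADD.** -/
theorem stmtE0Add : StmtE0Add := by
  intro W A x y hx hy
  let _ : DecidableEq (IsLocalRing.ResidueField A) := Classical.decEq _
  rw [← Fermat.Agent.S15.ecloc_inE0_iff] at hx hy ⊢
  rw [map_sub]
  exact (Fermat.Agent.S15.ECL.E0 A (Fermat.Agent.RED.modelA W A)).sub_mem hx hy

/-- transport from the integral Frey curve to the Frey curve -/
theorem s12w_transport (P : FreyPackage) (C : ∀ (M : Type) [AddCommGroup M]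
    [DistribMulAction GQ M], Prop) (h : C (PtZ P.freyCurveInt)) : C (Pt P) := by
  have e : P.freyCurveInt.map (Int.castRingHom ℚ) = P.freyCurve :=
    Fermat.Agent.S04.freyCurveInt_map P
  change C ((P.freyCurveInt.map (Int.castRingHom ℚ))⁄Qb).Point at h
  rw [e] at h
  exact h

/-- **G-CARD.** -/
theorem stmtCard : StmtCard := fun P =>
  s12w_transport P (fun M _ _ => HCard M P.p)
    (s12f_hcard P.freyCurveInt (Fermat.Agent.S04.freyCurveInt_Δ_ne_zero P) P.p P.hp0)

/-- `HUnip` for a semistable integral model -/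
theorem s12w_hunip (W : WeierstrassCurve ℤ) (hΔ : W.Δ ≠ 0) (hss : W.IsSemistableModel)
    (p : ℕ) (hp : p.Prime) (hp2 : p ≠ 2) : HUnip (PtZ W) p := by
  intro ℓ hℓ hℓp A hA σ hσ τ hτ m R hR
  have hn : ¬ ℓ ∣ p ^ m := fun h =>
    hℓp ((Nat.prime_dvd_prime_iff_eq hℓ hp).1 (hℓ.dvd_of_dvd_pow h))
  by_cases hbad : (ℓ : ℤ) ∣ W.Δ
  · exact Fermat.Agent.RED.inertia_unipotent_of_mult_all W hℓ hΔ hbad (hss ℓ hℓ hbad) A hA hσ hτ
      hn (hp.odd_of_ne_two hp2).pow R hR
  · have h1 : σ • R = R :=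
      Fermat.Agent.RED.inertia_smul_eq_of_good W hℓ hbad A hA hσ hn R hR
    rw [h1, sub_self, smul_zero]

/-- **G-UNIP.** -/
theorem stmtUnip : StmtUnip := fun P =>
  s12w_transport P (fun M _ _ => HUnip M P.p)
    (s12w_hunip P.freyCurveInt (Fermat.Agent.S04.freyCurveInt_Δ_ne_zero P)
      (Fermat.Agent.S04.freyCurveInt_isSemistableModel P) P.p P.pp
      (by have := P.hp5; omega))

/-- `HOpen` for every curve over `ℚ` (and every point) -/
theorem s12w_hopen (E : WeierstrassCurve ℚ) (p : ℕ) : HOpen (E⁄Qb).Point p := by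
  classical
  intro x _
  rcases x with _ | ⟨x₀, y₀, h⟩
  · exact ⟨∅, fun σ _ => rfl⟩
  · refine ⟨{x₀, y₀}, fun σ hσ => ?_⟩
    have hx : σ x₀ = x₀ := hσ x₀ (by simp)
    have hy : σ y₀ = y₀ := hσ y₀ (by simp)
    rw [Point.algEquiv_smul_def]
    simp only [Point.map_some]
    congr 1

/-- **G-OPEN.** -/
theorem stmtOpen : StmtOpen := fun P => s12w_hopen P.freyCurve P.p

/-- **G-LINE.** -/
theorem stmtLine : StmtLine := by
  intro P ⟨N, hst, hbot, htop, hcof⟩
  have : Fact P.p.Prime := ⟨P.pp⟩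
  have hΔ' : (P.freyCurve⁄Qb).Δ ≠ 0 := by
    have e : P.freyCurveInt.map (Int.castRingHom ℚ) = P.freyCurve :=
      Fermat.Agent.S04.freyCurveInt_map P
    rw [← e]
    show ((P.freyCurveInt.map (Int.castRingHom ℚ)).map (algebraMap ℚ (AlgebraicClosure ℚ))).Δ ≠ 0
    rw [WeierstrassCurve.map_Δ, WeierstrassCurve.map_Δ]
    simpa using Fermat.Agent.S04.freyCurveInt_Δ_ne_zero P
  have hn : ((P.p : ℕ) : Qb) ≠ 0 := Nat.cast_ne_zero.mpr P.hp0
  have hcardT := Fermat.Agent.EC.ec_card_torsionBy hΔ' two_ne_zero hn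
  have hfinT := Fermat.Agent.EC.ec_finite_torsionBy hΔ' two_ne_zero hn
  have hcardN : Nat.card N = P.p :=
    (Fermat.Agent.S13.tc_card_of_proper hcardT.le N hbot htop).2.1
  refine ⟨AddSubgroup.map (Submodule.torsionBy ℤ (Pt P) P.p).subtype.toAddMonoidHom
    N.toAddSubgroup, ⟨?_, ?_, ?_⟩⟩
  · rw [AddSubgroup.card_map_of_injective]
    · exact hcardN
    · exact Subtype.val_injective
  · rintro σ _ ⟨y, hy, rfl⟩
    exact ⟨σ • y, hst σ y hy, rfl⟩
  · intro σ x hx
    have hx' : x ∈ Submodule.torsionBy ℤ (Pt P) P.p := by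
      rw [Submodule.mem_torsionBy_iff, natCast_zsmul]
      exact hx
    exact ⟨σ • (⟨x, hx'⟩ : Submodule.torsionBy ℤ (Pt P) P.p) - ⟨x, hx'⟩, hcof σ ⟨x, hx'⟩, rfl⟩

end Fermat.Agent.S12


end ZBZ2S12_001_14

/-! ### bundled: `Fermat.Agent.S12.L1` -/
section ZBZ2S12_001_15

/-!
# S12 glue, piece G-L1: rational points of prime order miss the identity component at `2`, `3`

* `s12l1_dvd_card` : a rational point `Q` of prime order `p ≠ ℓ` lying in the identity component
  at a place `A ∣ ℓ` gives `p ∣ #W(𝔽_ℓ)` (nonsingular points; no hypothesis on the reduction);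
* `stmtL1Three : StmtL1Three` (from `S15.ecloc_not_inZero`);
* `stmtL1Two : StmtL1Two` (`#W(𝔽₂) ≤ 5`).
-/

set_option autoImplicit false
set_option linter.unusedSectionVars false

namespace Fermat.Agent.S12

open WeierstrassCurve WeierstrassCurve.Affine Fermat.Agent.RED Fermat.Agent.S05
  Fermat.Agent.S15 Fermat.Agent.S15.ECL

/-- a rational point of prime order `p ≠ ℓ` in the identity component at `A ∣ ℓ` reduces to a
point of order `p` of the reduced curve: `p ∣ #W(𝔽_ℓ)` -/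
theorem s12l1_dvd_card (W : WeierstrassCurve ℤ) {p ℓ : ℕ} (hp : p.Prime) (hℓ : ℓ.Prime)
    (hℓp : ℓ ≠ p) (Q : PtZ W)
    (hQfix : ∀ σ : GQ, σ • Q = Q) (hQord : addOrderOf Q = p)
    (A : ValuationSubring Qb) (hA : A.LiesOverPrime ℓ) (h0 : W.InZeroComponentAt A Q) :
    p ∣ Nat.card (W⁄(ZMod ℓ)).Point := by
  have : Fact ℓ.Prime := ⟨hℓ⟩
  let _ : DecidableEq (IsLocalRing.ResidueField A) := Classical.decEq _
  have hchar : CharP (IsLocalRing.ResidueField A) ℓ := charP_residueField A hℓ hA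
  let ι : ZMod ℓ →+* IsLocalRing.ResidueField A := ZMod.castHom (dvd_refl ℓ) _
  let f : ZMod ℓ →ₐ[ℤ] IsLocalRing.ResidueField A := ι.toIntAlgHom
  have hfι : ∀ z, f z = ι z := fun z => rfl
  have hE0 : InE0 (pointCongr (baseChange_eq_curveK W A) Q) := (ecloc_inE0_iff Q).2 h0
  have hord' : addOrderOf (pointCongr (baseChange_eq_curveK W A) Q) = p := by
    rw [AddEquiv.addOrderOf_eq, hQord]
  have hpA : ((p : ℕ) : Qb) ∉ A.nonunits := fun h =>
    hℓp ((Nat.prime_dvd_prime_iff_eq hℓ hp).1 ((natCast_mem_nonunits_iff A hℓ hA p).1 h))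
  have hred := addOrderOf_redPt0 hp hpA hE0 hord'
  rcases Q with _ | ⟨x, y, h⟩
  · exfalso
    have h1 : (Point.zero : ((W.map (Int.castRingHom ℚ))⁄Qb).Point) = 0 := rfl
    rw [h1, addOrderOf_zero] at hQord
    exact hp.one_lt.ne hQord
  obtain ⟨rx, ry, rfl, rfl⟩ := ecloc_rat_of_fixed W h hQfix
  rw [pointCongr_some] at hE0 hred
  rcases hE0 with hx | ⟨hx, hy, hns⟩
  · exfalso
    rw [redPt0_of_not_mem _ hx, addOrderOf_zero] at hred
    exact hp.one_lt.ne hred
  rw [redPt0_coe (a := ⟨_, hx⟩) (b := ⟨_, hy⟩) _ hns] at hred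
  have ex := ecloc_residue_rat A ι hA rx hx
  have ey := ecloc_residue_rat A ι hA ry hy
  have hk : (W⁄(IsLocalRing.ResidueField A)).Nonsingular (f (eclocRatRes ℓ rx))
      (f (eclocRatRes ℓ ry)) := by
    rw [hfι, hfι, ← ex, ← ey]
    exact (ecloc_nsRes_iff hx hy).1 hns
  have h₀ : (W⁄(ZMod ℓ)).Nonsingular (eclocRatRes ℓ rx) (eclocRatRes ℓ ry) :=
    (WeierstrassCurve.Affine.baseChange_nonsingular W (f := f) f.injective _ _).1 hk
  have hmap : Point.map (W' := W) f (Point.some _ _ h₀) =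
      pointCongr (ecloc_curveRes_eq W A) (Point.some _ _ hns) := by
    rw [Point.map_some, pointCongr_some]
    exact some_congr _ _ (by rw [hfι, ← ex]) (by rw [hfι, ← ey])
  have hord₀ : addOrderOf (Point.some _ _ h₀ : (W⁄(ZMod ℓ)).Point) = p := by
    have e1 := addOrderOf_injective (Point.map (W' := W) f) (Point.map_injective f)
      (Point.some _ _ h₀)
    have e2 := AddEquiv.addOrderOf_eq (pointCongr (ecloc_curveRes_eq W A)) (Point.some _ _ hns)
    have e3 := congrArg addOrderOf hmap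
    exact e1.symm.trans (e3.trans (e2.trans hred))
  rw [← hord₀]
  exact addOrderOf_dvd_natCard _

/-- the points of a Weierstrass curve over `𝔽₂`, as a subset of `{∞} ∪ 𝔽₂²` -/
def s12l1_code (W : WeierstrassCurve ℤ) :
    (W⁄(ZMod 2)).Point → Option (ZMod 2 × ZMod 2)
  | .zero => none
  | .some x y _ => some (x, y)

theorem s12l1_code_injective (W : WeierstrassCurve ℤ) : Function.Injective (s12l1_code W) := by
  rintro (_ | ⟨x, y, h⟩) (_ | ⟨x', y', h'⟩) he
  · rfl
  · exact absurd he (by simp [s12l1_code])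
  · exact absurd he (by simp [s12l1_code])
  · have h2 : (x, y) = (x', y') := Option.some.inj he
    obtain ⟨rfl, rfl⟩ := Prod.mk.inj h2
    rfl

theorem s12l1_card_two (W : WeierstrassCurve ℤ) :
    0 < Nat.card (W⁄(ZMod 2)).Point ∧ Nat.card (W⁄(ZMod 2)).Point ≤ 5 := by
  have : Finite (W⁄(ZMod 2)).Point := Finite.of_injective _ (s12l1_code_injective W)
  refine ⟨Nat.card_pos, ?_⟩
  have h := Nat.card_le_card_of_injective _ (s12l1_code_injective W)
  have h5 : Nat.card (Option (ZMod 2 × ZMod 2)) = 5 := by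
    rw [Nat.card_eq_fintype_card, Fintype.card_option, Fintype.card_prod, ZMod.card]
  rwa [h5] at h

/-- **L1-TWO.** -/
theorem stmtL1Two : StmtL1Two := by
  intro W _ _ _ p hp hp7 Q hQfix hQord A hA h0
  have hdvd := s12l1_dvd_card W hp Nat.prime_two (by omega) Q hQfix hQord A hA h0
  obtain ⟨hpos, hle⟩ := s12l1_card_two W
  have := Nat.le_of_dvd hpos hdvd
  omega

/-- **L1-THREE.** -/
theorem stmtL1Three : StmtL1Three := by
  intro W _ h3Δ h3c p hp hp5 Q hQfix hQord A hA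
  refine ecloc_not_inZero W hp Nat.prime_three (by norm_num) (by omega) h3Δ h3c Q hQfix hQord
    ?_ ?_ A hA
  · intro hd
    have := Nat.le_of_dvd (by norm_num) hd
    omega
  · intro hd
    have := Nat.le_of_dvd (by norm_num) hd
    omega

end Fermat.Agent.S12


end ZBZ2S12_001_15

/-! ### bundled: `Fermat.Agent.S12.HS15` -/
section ZBZ2S12_001_16

/-!
# S12 / G-HS15: the consequence `HS15` of the frozen `S15` (helper47)

`s12h_hs15`: for an integral semistable model `W` with `c₄ c₆ Δ ≠ 0`, `2 ∣ Δ`, and `p ≥ 17`: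
`HS15 (PtZ W) p`, from `S15` applied to the quotient curves of `StmtVelu`.
-/

set_option autoImplicit false
set_option linter.style.haveILetI false
set_option linter.unusedSectionVars false
set_option linter.unusedVariables false

noncomputable section

namespace Fermat.Agent.S12

open WeierstrassCurve WeierstrassCurve.Affine

section HS15

variable {p : ℕ} [Fact p.Prime]

theorem s12h_not_dvd_pow {ℓ : ℕ} (hℓ : ℓ.Prime) (hℓp : ℓ ≠ p) (m : ℕ) : ¬ ℓ ∣ p ^ m := by
  have hp : p.Prime := Fact.out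
  intro h
  exact hℓp ((Nat.prime_dvd_prime_iff_eq hℓ hp).1 (hℓ.dvd_of_dvd_pow h))

theorem s12h_odd_pow (hp2 : p ≠ 2) (m : ℕ) : Odd (p ^ m) :=
  ((Fact.out : p.Prime).odd_of_ne_two hp2).pow

/-- the identity component is closed under the group operations -/
theorem s12h_inZero_zero (W : WeierstrassCurve ℤ) (A : ValuationSubring Qb) :
    W.InZeroComponentAt A (0 : PtZ W) := Or.inl rfl

theorem s12h_inZero_neg (hE0 : StmtE0Add) (W : WeierstrassCurve ℤ) (A : ValuationSubring Qb)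
    {x : PtZ W} (hx : W.InZeroComponentAt A x) : W.InZeroComponentAt A (-x) := by
  have := hE0 W A 0 x (s12h_inZero_zero W A) hx
  rwa [zero_sub] at this

theorem s12h_inZero_add (hE0 : StmtE0Add) (W : WeierstrassCurve ℤ) (A : ValuationSubring Qb)
    {x y : PtZ W} (hx : W.InZeroComponentAt A x) (hy : W.InZeroComponentAt A y) :
    W.InZeroComponentAt A (x + y) := by
  have := hE0 W A x (-y) hx (s12h_inZero_neg hE0 W A hy)
  rwa [sub_neg_eq_add] at this

/-- at a good prime, `monod A = ⊥` -/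
theorem s12h_monod_bot_of_good (hGU : StmtGoodUnr) (W : WeierstrassCurve ℤ) {ℓ : ℕ}
    (hℓ : ℓ.Prime) (hℓp : ℓ ≠ p) (hgood : ¬ (ℓ : ℤ) ∣ W.Δ) (A : ValuationSubring Qb)
    (hA : A.LiesOverPrime ℓ) : monod (PtZ W) p A = ⊥ := by
  rw [monod, AddSubgroup.closure_eq_bot_iff]
  rintro x ⟨σ, hσ, m, R, hR, rfl⟩
  rw [Set.mem_singleton_iff,
    hGU W ℓ hℓ hgood A hA σ hσ (p ^ m) (s12h_not_dvd_pow hℓ hℓp m) R hR, sub_self]

/-- a `p`-divisible subgroup of a finite `p`-group is trivial -/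
theorem s12h_monod_bot_of_le {W : WeierstrassCurve ℤ} (hcard : HCard (PtZ W) p)
    (A : ValuationSubring Qb) {K : AddSubgroup (PtZ W)} {n : ℕ} (hK : Nat.card K = p ^ n)
    (hle : monod (PtZ W) p A ≤ K) : monod (PtZ W) p A = ⊥ := by
  have hdiv : ∀ (j : ℕ) (x : PtZ W), x ∈ monod (PtZ W) p A →
      ∃ y ∈ monod (PtZ W) p A, p ^ j • y = x := by
    intro j
    induction j with
    | zero => intro x hx; exact ⟨x, hx, by rw [pow_zero, one_smul]⟩
    | succ j ih =>
      intro x hx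
      obtain ⟨y, hy, rfl⟩ := ih x hx
      obtain ⟨z, hz, rfl⟩ := s12s_monod_div hcard A hy
      exact ⟨z, hz, by rw [pow_succ, mul_smul]⟩
  rw [eq_bot_iff]
  intro x hx
  obtain ⟨y, hy, rfl⟩ := hdiv n x hx
  rw [AddSubgroup.mem_bot]
  exact s12s_pow_smul_of_mem hK (hle hy)

/-- `M[p]` is spanned by the `p`-torsion of a cyclic `K` and a point outside -/
theorem s12h_span {M : Type} [AddCommGroup M] [DistribMulAction GQ M] (hcard : HCard M p) {L₁ : AddSubgroup M}
    (hL₁ : Nat.card L₁ = p) {P₀ : M} (hP₀ : p • P₀ = 0) (hP₀L : P₀ ∉ L₁) {x : M}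
    (hx : p • x = 0) : ∃ (a : ℤ) (l : M), l ∈ L₁ ∧ x = a • P₀ + l := by
  have hp : p.Prime := Fact.out
  haveI := s12s_finite_tors hcard 1
  set H : AddSubgroup M := AddSubgroup.zmultiples P₀ ⊔ L₁ with hH
  have hL₁t : L₁ ≤ s12sTors p 1 := fun y hy => s12s_mem_tors_one.2 (s12s_line_nsmul hL₁ hy)
  have hPt : AddSubgroup.zmultiples P₀ ≤ s12sTors p 1 :=
    AddSubgroup.zmultiples_le_of_mem (s12s_mem_tors_one.2 hP₀)
  have hHt : H ≤ s12sTors p 1 := sup_le hPt hL₁t
  haveI : Finite H := Finite.of_injective (AddSubgroup.inclusion hHt)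
    (AddSubgroup.inclusion_injective hHt)
  have h1 : Nat.card H ∣ p ^ 2 := by
    have := AddSubgroup.card_dvd_of_le hHt
    rwa [s12s_card_tors hcard 1, mul_one] at this
  have hLH : L₁ ≤ H := le_sup_right
  have h2 : p ∣ Nat.card H := by
    have := AddSubgroup.card_dvd_of_le hLH
    rwa [hL₁] at this
  obtain ⟨j, hj, hLj⟩ := (Nat.dvd_prime_pow hp).1 h1
  have hj2 : j = 2 := by
    have hj0 : j ≠ 0 := by
      rintro rfl
      rw [hLj, pow_zero] at h2
      exact hp.one_lt.ne' (Nat.dvd_one.1 h2)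
    have hj1 : j ≠ 1 := by
      rintro rfl
      have : L₁ = H := by
        apply AddSubgroup.eq_of_le_of_card_ge hLH
        rw [hLj, pow_one, hL₁]
      apply hP₀L
      rw [this]
      exact (le_sup_left : AddSubgroup.zmultiples P₀ ≤ H) (AddSubgroup.mem_zmultiples P₀)
    omega
  have hHe : H = s12sTors p 1 := by
    apply AddSubgroup.eq_of_le_of_card_ge hHt
    rw [hLj, hj2, s12s_card_tors hcard 1, mul_one]
  have hxH : x ∈ H := by rw [hHe]; exact s12s_mem_tors_one.2 hx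
  obtain ⟨y, hy, l, hl, rfl⟩ := AddSubgroup.mem_sup.1 hxH
  obtain ⟨a, rfl⟩ := AddSubgroup.mem_zmultiples_iff.1 hy
  exact ⟨a, l, hl, rfl⟩

/-- the `p`-torsion line of `K` is cofixed when `P₀` is fixed modulo `K` -/
theorem s12h_cof {M : Type} [AddCommGroup M] [DistribMulAction GQ M] (hcard : HCard M p)
    {K L₁ : AddSubgroup M} (hL₁card : Nat.card L₁ = p) (hL₁K : L₁ ≤ K)
    (hKL₁ : ∀ x ∈ K, p • x = 0 → x ∈ L₁) (hKst : ∀ σ : GQ, ∀ x ∈ K, σ • x ∈ K)
    {P₀ : M} (hP₀ : p • P₀ = 0) (hP₀K : P₀ ∉ K) (hP₀fix : ∀ σ : GQ, σ • P₀ - P₀ ∈ K)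
    (σ : GQ) (x : M) (hx : p • x = 0) : σ • x - x ∈ L₁ := by
  have hP₀L : P₀ ∉ L₁ := fun h => hP₀K (hL₁K h)
  obtain ⟨a, l, hl, rfl⟩ := s12h_span hcard hL₁card hP₀ hP₀L hx
  have h1 : σ • (a • P₀ + l) - (a • P₀ + l) = a • (σ • P₀ - P₀) + (σ • l - l) := by
    rw [smul_add, s12s_smul_zsmul, smul_sub]
    abel
  rw [h1]
  have h2 : σ • P₀ - P₀ ∈ L₁ := by
    apply hKL₁ _ (hP₀fix σ)
    rw [smul_sub, smul_comm, hP₀, smul_zero, sub_zero]
  have h3 : σ • l - l ∈ L₁ := by
    have hpl := s12s_line_nsmul hL₁card hl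
    apply hKL₁ _ (sub_mem (hKst σ l (hL₁K hl)) (hL₁K hl))
    rw [smul_sub, smul_comm, hpl, smul_zero, sub_self]
  exact add_mem (L₁.zsmul_mem h2 a) h3

/-- **G-HS15**, general integral model. -/
theorem s12h_hs15 (hvelu : StmtVelu) (hU1 : StmtU1) (hE0 : StmtE0Add) (hL2 : StmtL1Two)
    (hL3 : StmtL1Three) (hGT : StmtGoodTors) (hGL : StmtGoodLine) (hGU : StmtGoodUnr)
    (h15 : StmtS15)
    (W : WeierstrassCurve ℤ) (hΔ : W.Δ ≠ 0) (hc₄ : W.c₄ ≠ 0) (hc₆ : W.c₆ ≠ 0)
    (hss : W.IsSemistableModel) (h2Δ : (2 : ℤ) ∣ W.Δ)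
    (hp17 : 17 ≤ p) (hcard : HCard (PtZ W) p) : HS15 (PtZ W) p := by
  have hp : p.Prime := Fact.out
  have hp2 : p ≠ 2 := by omega
  intro k K hKcard hKcyc hKst P₀ hP₀ hP₀K hP₀fix ℓ hℓ hℓp A hA hne t ht κ hκ heq
  obtain ⟨W', φ, hΔ', hφeq, hφker, hc₄'⟩ :=
    hvelu W hΔ hc₄ hc₆ p hp hp2 (k + 1) K hKcard hKst
  -- the rational point
  have hQfix : ∀ σ : GQ, σ • φ P₀ = φ P₀ := by
    intro σ
    rw [← hφeq]
    have h1 : σ • P₀ = P₀ + (σ • P₀ - P₀) := by abel
    rw [h1, map_add, (hφker _).2 (hP₀fix σ), add_zero]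
  have hQord : addOrderOf (φ P₀) = p := by
    apply addOrderOf_eq_prime
    · rw [← map_nsmul, hP₀, map_zero]
    · intro h
      exact hP₀K ((hφker _).1 h)
  -- the cofixed line `L₁ = K[p]`
  obtain ⟨g, hg⟩ := hKcyc
  have hk1 : 1 ≤ k + 1 := Nat.le_add_left 1 k
  have hgord := s12s_order_gen hg hKcard
  have hgK : g ∈ K := by rw [hg]; exact AddSubgroup.mem_zmultiples g
  set L₁ : AddSubgroup (PtZ W) := AddSubgroup.zmultiples (p ^ (k + 1 - 1) • g) with hL₁
  have hL₁card : Nat.card L₁ = p := by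
    rw [hL₁, Nat.card_zmultiples, s12s_order_top hk1 hgord]
  have hL₁K : L₁ ≤ K := by
    rw [hL₁]
    exact AddSubgroup.zmultiples_le_of_mem (K.nsmul_mem hgK _)
  have hKL₁ : ∀ x ∈ K, p • x = 0 → x ∈ L₁ := fun x hx hpx =>
    s12s_cyc_ptors hk1 hgord (hg ▸ hx) hpx
  have hP₀L : P₀ ∉ L₁ := fun h => hP₀K (hL₁K h)
  have hcof : ∀ σ : GQ, ∀ x : PtZ W, p ^ 1 • x = 0 → σ • x - x ∈ L₁ := by
    intro σ x hx
    rw [pow_one] at hx
    exact s12h_cof hcard hL₁card hL₁K hKL₁ hKst hP₀ hP₀K hP₀fix σ x hx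
  -- `3 ∣ Δ(W)`
  have h3Δ : (3 : ℤ) ∣ W.Δ := by
    by_contra h
    have h3p : p ≠ 3 := by omega
    have := hGL W hΔ 3 Nat.prime_three (by exact_mod_cast h) p hp h3p 1 L₁
      (by rw [hL₁card, pow_one]) ⟨_, hL₁⟩ hcof
    rw [pow_one] at this
    omega
  -- `2, 3 ∣ Δ(W')`
  have h2Δ' : (2 : ℤ) ∣ W'.Δ := by
    by_contra h
    have := hGT W' hΔ' 2 Nat.prime_two (by exact_mod_cast h) p hp hp2 (φ P₀) hQfix hQord
    omega
  have h3Δ' : (3 : ℤ) ∣ W'.Δ := by
    by_contra h
    have := hGT W' hΔ' 3 Nat.prime_three (by exact_mod_cast h) p hp (by omega) (φ P₀) hQfix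
      hQord
    omega
  have h2c₄' : ¬ (2 : ℤ) ∣ W'.c₄ := by
    have := hc₄' 2 Nat.prime_two (fun h => hp2 h.symm) (by exact_mod_cast h2Δ)
      (hss 2 Nat.prime_two (by exact_mod_cast h2Δ))
    exact_mod_cast this
  have h3c₄' : ¬ (3 : ℤ) ∣ W'.c₄ := by
    have := hc₄' 3 Nat.prime_three (by omega) (by exact_mod_cast h3Δ)
      (hss 3 Nat.prime_three (by exact_mod_cast h3Δ))
    exact_mod_cast this
  have h2 := hL2 W' hΔ' h2Δ' h2c₄' p hp (by omega) (φ P₀) hQfix hQord
  have h3 := hL3 W' hΔ' h3Δ' h3c₄' p hp (by omega) (φ P₀) hQfix hQord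
  -- the place `A`
  have hℓΔ : (ℓ : ℤ) ∣ W.Δ := by
    by_contra h
    exact hne (s12h_monod_bot_of_good hGU W hℓ hℓp h A hA)
  have hℓΔ' : (ℓ : ℤ) ∣ W'.Δ := by
    by_contra h
    apply hne
    apply s12h_monod_bot_of_le hcard A hKcard
    rw [monod, AddSubgroup.closure_le]
    rintro x ⟨σ, hσ, m, R, hR, rfl⟩
    apply (hφker _).1
    rw [map_sub, hφeq,
      hGU W' ℓ hℓ h A hA σ hσ (p ^ m) (s12h_not_dvd_pow hℓ hℓp m) (φ R)
        (by rw [← map_nsmul, hR, map_zero]), sub_self]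
  have hℓc₄' : ¬ (ℓ : ℤ) ∣ W'.c₄ := hc₄' ℓ hℓ hℓp hℓΔ (hss ℓ hℓ hℓΔ)
  have hpS : p ∉ ({2, 3, 5, 7, 13} : Finset ℕ) := by
    simp only [Finset.mem_insert, Finset.mem_singleton]
    omega
  have hnot := h15 hp hpS W' hΔ' (φ P₀) hQfix hQord h2Δ' h2c₄' h2 h3Δ' h3c₄' h3 hℓ hℓp hℓΔ'
    hℓc₄' A hA
  -- `φ (monod A) ⊆ W'⁰`
  have hin : ∀ x ∈ monod (PtZ W) p A, W'.InZeroComponentAt A (φ x) := by
    intro x hx
    induction hx using AddSubgroup.closure_induction with
    | mem x hx =>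
      obtain ⟨σ, hσ, m, R, hR, rfl⟩ := hx
      rw [map_sub, hφeq]
      exact hU1 W' hΔ' ℓ hℓ hℓΔ' hℓc₄' A hA σ hσ (p ^ m) (s12h_odd_pow hp2 m)
        (s12h_not_dvd_pow hℓ hℓp m) (φ R) (by rw [← map_nsmul, hR, map_zero])
    | zero => rw [map_zero]; exact s12h_inZero_zero W' A
    | add x y _ _ hx hy => rw [map_add]; exact s12h_inZero_add hE0 W' A hx hy
    | neg x _ hx => rw [map_neg]; exact s12h_inZero_neg hE0 W' A hx
  apply hnot
  rw [heq, map_add, (hφker _).2 hκ, add_zero]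
  exact hin t ht

end HS15

end Fermat.Agent.S12

end
end ZBZ2S12_001_16

/-! ### bundled: `Fermat.Agent.S12.HS15Frey` -/
section ZBZ2S12_001_17

/-!
# S12 / G-HS15 for the Frey curve (helper47)

`stmtHS15_of : StmtVelu → StmtU1 → StmtE0Add → StmtL1Two → StmtL1Three → StmtGoodTors →
  StmtGoodLine → StmtGoodUnr → StmtCard → StmtHS15`.
-/

set_option autoImplicit false
set_option linter.style.haveILetI false
set_option linter.unusedSectionVars false
set_option linter.unusedVariables false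

noncomputable section

namespace Fermat.Agent.S12

open WeierstrassCurve WeierstrassCurve.Affine

/-- `2 · c₆ = -(B - A)(2A + B)(A + 2B)` for the integral Frey curve (`A = a^p`, `B = b^p`). -/
theorem s12h_frey_c₆ (P : FreyPackage) :
    2 * P.freyCurveInt.c₆ = -(P.b ^ P.p - P.a ^ P.p) * (2 * P.a ^ P.p + P.b ^ P.p) *
      (P.a ^ P.p + 2 * P.b ^ P.p) := by
  obtain ⟨m, hm⟩ := Fermat.Agent.S04.frey_four_dvd P
  obtain ⟨n, hn⟩ := Fermat.Agent.S04.frey_sixteen_dvd P
  have h2 : (P.b ^ P.p - 1 - P.a ^ P.p) / 4 = m := by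
    rw [hm]; exact Int.mul_ediv_cancel_left _ (by norm_num)
  have h4 : -(P.a ^ P.p) * (P.b ^ P.p) / 16 = n := by
    rw [hn]; exact Int.mul_ediv_cancel_left _ (by norm_num)
  simp only [FreyPackage.freyCurveInt, WeierstrassCurve.c₆, WeierstrassCurve.b₂,
    WeierstrassCurve.b₄, WeierstrassCurve.b₆]
  rw [h2, h4]
  generalize P.a ^ P.p = A at *
  generalize P.b ^ P.p = B at *
  have hB : B = 4 * m + 1 + A := by linarith
  subst hB
  have hn' : 16 * n = -(A * (4 * m + 1 + A)) := by linarith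
  linear_combination (9 * (1 + 4 * m) : ℤ) * hn'

theorem s12h_frey_c₆_ne (P : FreyPackage) : P.freyCurveInt.c₆ ≠ 0 := by
  intro h
  have h1 := s12h_frey_c₆ P
  rw [h, mul_zero] at h1
  have h32 := Fermat.Agent.S04.frey_thirtytwo_dvd_b_pow P
  have hA4 := Fermat.Agent.S04.frey_a_pow_mod_four P
  have hAodd : ¬ (2 : ℤ) ∣ P.a ^ P.p := by
    intro hd
    have h2 : ((P.a ^ P.p : ℤ) : ZMod 2) = 0 := (ZMod.intCast_zmod_eq_zero_iff_dvd _ 2).2 hd
    have h3 : ((P.a ^ P.p : ℤ) : ZMod 4) = 3 := hA4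
    obtain ⟨c, hc⟩ := hd
    rw [hc] at h3
    have : ∀ x : ZMod 4, (2 : ZMod 4) * x ≠ 3 := by decide
    exact this (c : ZMod 4) (by simpa using h3)
  have hB2 : (2 : ℤ) ∣ P.b ^ P.p := Dvd.dvd.trans (by norm_num) h32
  have hgcd : IsCoprime (P.a ^ P.p) (P.b ^ P.p) := by
    apply IsCoprime.pow
    rw [Int.isCoprime_iff_gcd_eq_one]
    have := P.hgcdab
    simpa [Int.gcd, gcd] using this
  rcases mul_eq_zero.1 h1.symm with h | h
  · rcases mul_eq_zero.1 h with h | h
    · -- B = A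
      apply hAodd
      have : P.a ^ P.p = P.b ^ P.p := by linarith
      rw [this]
      exact hB2
    · -- B = -2A
      have hAB : P.a ^ P.p ∣ P.b ^ P.p := ⟨-2, by linarith⟩
      have hu : IsUnit (P.a ^ P.p) := hgcd.isUnit_of_dvd' dvd_rfl hAB
      rcases Int.isUnit_iff.1 hu with h1 | h1
      · rw [h1] at h
        have : P.b ^ P.p = -2 := by linarith
        rw [this] at h32
        omega
      · rw [h1] at h
        have : P.b ^ P.p = 2 := by linarith
        rw [this] at h32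
        omega
  · -- A = -2B
    apply hAodd
    exact ⟨-(P.b ^ P.p), by linarith⟩

theorem s12h_frey_c₄_ne (P : FreyPackage) : P.freyCurveInt.c₄ ≠ 0 := by
  rw [Fermat.Agent.S04.freyCurveInt_c₄]
  have hb : P.b ^ P.p ≠ 0 := pow_ne_zero _ P.hb0
  intro h
  apply hb
  have h4 : (2 * P.a ^ P.p + P.b ^ P.p) ^ 2 + 3 * (P.b ^ P.p) ^ 2 = 0 := by
    linear_combination 4 * h
  have hB : (P.b ^ P.p) ^ 2 = 0 := by
    nlinarith [sq_nonneg (2 * P.a ^ P.p + P.b ^ P.p), sq_nonneg (P.b ^ P.p)]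
  exact pow_eq_zero_iff (two_ne_zero) |>.1 hB

theorem s12h_frey_two_dvd_Δ (P : FreyPackage) : (2 : ℤ) ∣ P.freyCurveInt.Δ := by
  have h1 := Fermat.Agent.S04.freyCurveInt_Δ P
  obtain ⟨t, ht⟩ := Fermat.Agent.S04.frey_thirtytwo_dvd_b_pow P
  rw [ht] at h1
  have h2 : P.freyCurveInt.Δ = 2 * (2 * ((P.a ^ P.p) ^ 2 * t ^ 2 * (P.c ^ P.p) ^ 2)) := by
    have : (2 : ℤ) ^ 8 * P.freyCurveInt.Δ =
        2 ^ 8 * (2 * (2 * ((P.a ^ P.p) ^ 2 * t ^ 2 * (P.c ^ P.p) ^ 2))) := by
      rw [h1]; ring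
    exact mul_left_cancel₀ (by norm_num) this
  rw [h2]
  exact dvd_mul_right _ _

/-- transport along an equality of curves -/
theorem s12h_hs15_congr {E E' : WeierstrassCurve ℚ} (h : E = E') (p : ℕ)
    (H : HS15 ((E⁄Qb).Point) p) : HS15 ((E'⁄Qb).Point) p := by
  subst h; exact H

theorem s12h_hcard_congr {E E' : WeierstrassCurve ℚ} (h : E = E') (p : ℕ)
    (H : HCard ((E⁄Qb).Point) p) : HCard ((E'⁄Qb).Point) p := by
  subst h; exact H

/-- **G-HS15.** -/
theorem stmtHS15_of (hvelu : StmtVelu) (hU1 : StmtU1) (hE0 : StmtE0Add) (hL2 : StmtL1Two)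
    (hL3 : StmtL1Three) (hGT : StmtGoodTors) (hGL : StmtGoodLine) (hGU : StmtGoodUnr)
    (hC : StmtCard) : StmtHS15 := by
  intro h15 P hp17
  haveI : Fact P.p.Prime := ⟨P.pp⟩
  have hmap := Fermat.Agent.S04.freyCurveInt_map P
  have hcard : HCard (PtZ P.freyCurveInt) P.p := s12h_hcard_congr hmap.symm P.p (hC P)
  exact s12h_hs15_congr hmap P.p
    (s12h_hs15 hvelu hU1 hE0 hL2 hL3 hGT hGL hGU h15 P.freyCurveInt
      (Fermat.Agent.S04.freyCurveInt_Δ_ne_zero P) (s12h_frey_c₄_ne P) (s12h_frey_c₆_ne P)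
      (Fermat.Agent.S04.freyCurveInt_isSemistableModel P) (s12h_frey_two_dvd_Δ P) hp17 hcard)

end Fermat.Agent.S12

end
end ZBZ2S12_001_17

/-! ### bundled: `Fermat.Agent.S12.LocP` -/
section ZBZ2S12_001_18

/-!
# S12 / G-LOCP (helper8): the kernel of reduction of the Frey curve at a place over `p`

`stmtLocP : StmtLocP` : for every place `A ∣ p = P.p` the kernel of reduction
`Z = {O} ∪ {Q : x(Q) ∉ A}` (`s12locpZ`, = `S15.n3subKer`) is a `D_A`-stable subgroup of `E(ℚ̄)` which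
contains `σ R - R` for `σ ∈ I_A` and every `p`-power torsion point `R`, and which does not contain
`E[p]` (if there is a cofixed line).

* `s12locp_inertia_pow` : in residue characteristic `p`, if `v(X) ^ (p ^ j)` is the valuation of a
  nonzero rational number then `v(σ X - X) < v(X)` for `σ ∈ I_A` (`(σX/X)^(p^j) ≡ 1 ⇒ σX/X ≡ 1`).
* `s12locp_local_move` : `S13.stepP_local_move` with the node hypothesis in its final form.
* `s12locp_frey_move` : `S13.stepP_frey_move` for `p ^ m`-torsion at `A ∣ p`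
  (`S05.tropical_torsion` for the odd number `p ^ m`).
* `s12locp_exists` : `S13.stepP_key` (Gauss lemma for the division polynomial) + `#E[p] = p²`.
-/

set_option autoImplicit false
set_option linter.unusedSectionVars false
set_option linter.unusedVariables false
set_option linter.style.haveILetI false

namespace Fermat.Agent.S12

open WeierstrassCurve WeierstrassCurve.Affine WeierstrassCurve.Affine.Point
open Fermat.Agent.S05 Fermat.Agent.S13

section Val

variable {L : Type*} [Field L] [Algebra ℚ L]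

/-- in residue characteristic `p`: a unit `t` of `A` with `t ^ (p ^ j) ≡ 1` is `≡ 1` -/
theorem s12locp_sub_one_mem (A : ValuationSubring L) {p : ℕ} (hp : p.Prime)
    (hpA : (p : L) ∈ A.nonunits) (j : ℕ) {t : L} (ht : t ∈ A)
    (h : t ^ (p ^ j) - 1 ∈ A.nonunits) : t - 1 ∈ A.nonunits := by
  obtain ⟨r, hr⟩ := exists_add_pow_prime_pow_eq hp (⟨t, ht⟩ - 1 : A) (1 : A) j
  have hr' := congrArg (fun a : A => (a : L)) hr
  simp only [sub_add_cancel, one_pow] at hr'
  push_cast at hr'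
  have e : (t - 1) ^ (p ^ j) = (t ^ (p ^ j) - 1) - (p : L) * ((t - 1) * (r : L)) := by
    linear_combination (-1 : L) * hr'
  have h1 : (p : L) * ((t - 1) * (r : L)) ∈ A.nonunits :=
    vs_mul_mem_nonunits' A hpA (mul_mem (sub_mem ht A.one_mem) r.2)
  have h2 : (t - 1) ^ (p ^ j) ∈ A.nonunits := by
    rw [e]
    exact vs_nonunits_sub A h h1
  rw [A.mem_nonunits_iff] at h2 ⊢
  rw [map_pow] at h2
  by_contra hge
  rw [not_lt] at hge
  exact absurd h2 (not_lt.2 (one_le_pow₀ hge))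

/-- **inertia at `p` and `p`-power roots.**  If `v(X) ^ (p ^ j)` is the valuation of a nonzero
rational number and the residue characteristic is `p`, inertia moves `X` by less than `X`. -/
theorem s12locp_inertia_pow (A : ValuationSubring L) {σ : L ≃ₐ[ℚ] L}
    (hσ : σ ∈ A.inertiaSubgroupIn ℚ) {p : ℕ} (hp : p.Prime) (hpA : (p : L) ∈ A.nonunits)
    (j : ℕ) {X : L} {c : ℚ} (hc : c ≠ 0)
    (hX : A.valuation X ^ (p ^ j) = A.valuation (algebraMap ℚ L c)) :
    A.valuation (σ X - X) < A.valuation X := by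
  have hcL : algebraMap ℚ L c ≠ 0 := (map_ne_zero (algebraMap ℚ L)).2 hc
  have hvc : A.valuation (algebraMap ℚ L c) ≠ 0 := (Valuation.ne_zero_iff _).2 hcL
  have hpj : p ^ j ≠ 0 := pow_ne_zero _ hp.ne_zero
  have hX0 : X ≠ 0 := by
    rintro rfl
    rw [_root_.map_zero, zero_pow hpj] at hX
    exact hvc hX.symm
  have hvX0 : A.valuation X ≠ 0 := (Valuation.ne_zero_iff _).2 hX0
  -- the unit `u = X ^ (p ^ j) / c`
  set u : L := X ^ (p ^ j) / algebraMap ℚ L c with hu
  have hvu : A.valuation u = 1 := by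
    rw [hu, map_div₀, map_pow, hX, div_self hvc]
  have huA : u ∈ A := (A.valuation_le_one_iff _).1 hvu.le
  have hu0 : u ≠ 0 := by
    rw [← Valuation.ne_zero_iff A.valuation, hvu]
    exact one_ne_zero
  have h1 := inertia_apply_sub_mem_nonunits hσ huA
  set t : L := σ X / X with ht
  have hσu : σ u = t ^ (p ^ j) * u := by
    rw [hu, ht, map_div₀, map_pow, AlgEquiv.commutes, div_pow]
    field_simp
  have h2 : t ^ (p ^ j) - 1 ∈ A.nonunits := by
    have e : t ^ (p ^ j) - 1 = (σ u - u) * u⁻¹ := by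
      rw [hσu]
      field_simp
    rw [e]
    refine vs_mul_mem_nonunits' A h1 ?_
    rw [← A.valuation_le_one_iff, map_inv₀, hvu, inv_one]
  have hvt : A.valuation t = 1 := by
    have h3 : A.valuation (t ^ (p ^ j)) = 1 := by
      have e : t ^ (p ^ j) = 1 + (t ^ (p ^ j) - 1) := by ring
      rw [e, Valuation.map_add_eq_of_lt_left _
        (by rw [map_one]; exact (A.mem_nonunits_iff).1 h2), map_one]
    rw [map_pow] at h3
    exact (pow_eq_one_iff_of_nonneg zero_le hpj).1 h3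
  have htA : t ∈ A := (A.valuation_le_one_iff _).1 hvt.le
  have h4 := s12locp_sub_one_mem A hp hpA j htA h2
  rw [A.mem_nonunits_iff] at h4
  have e : σ X - X = (t - 1) * X := by
    rw [ht]
    field_simp
  rw [e, map_mul]
  calc A.valuation (t - 1) * A.valuation X < 1 * A.valuation X :=
        mul_lt_mul_of_pos_right h4 (zero_lt_iff.2 hvX0)
    _ = A.valuation X := one_mul _

end Val

section LocalMove

variable {L : Type*} [Field L] [DecidableEq L] [Algebra ℚ L]

/-- `S13.stepP_local_move` with the node hypothesis in its final form (no torsion hypothesis):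
an integral point `Q = (x, y)` is moved by inertia inside the kernel of reduction, provided that,
when `Q` reduces to the node, `v e₂ < v (x - r₁)` and `v (σ x - x) < v (x - r₁)`. -/
theorem s12locp_local_move (A : ValuationSubring L) {σ : L ≃ₐ[ℚ] L}
    (hσ : σ ∈ A.inertiaSubgroupIn ℚ)
    (W₀ : WeierstrassCurve ℚ)
    (h₁ : (W₀.baseChange L).a₁ ∈ A) (h₂ : (W₀.baseChange L).a₂ ∈ A)
    (h₃ : (W₀.baseChange L).a₃ ∈ A) (h₄ : (W₀.baseChange L).a₄ ∈ A)
    (h₆ : (W₀.baseChange L).a₆ ∈ A)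
    (h2 : A.valuation (2 : L) = 1)
    (r₁ e₂ e₃ : L) (hσr : σ r₁ = r₁) (hr₁ : r₁ ∈ A)
    (hr : RootData (W₀.baseChange L) r₁ e₂ e₃)
    (he₃ : A.valuation e₃ = 1) (he₂₃ : A.valuation (e₃ - e₂) = 1) (he₂ : A.valuation e₂ ≤ 1)
    {x y : L} (h : (W₀.baseChange L).toAffine.Nonsingular x y) (hxA : x ∈ A)
    (hnode : A.valuation e₂ < 1 → A.valuation (x - r₁) < 1 →
      A.valuation e₂ < A.valuation (x - r₁) ∧ A.valuation (σ x - x) < A.valuation (x - r₁))
    (h' : (W₀.baseChange L).toAffine.Nonsingular (σ x) (σ y))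
    (hne : Point.some (σ x) (σ y) h' ≠ Point.some x y h) :
    ∃ (x'' y'' : L) (h'' : (W₀.baseChange L).toAffine.Nonsingular x'' y''),
      Point.some (σ x) (σ y) h' - Point.some x y h = Point.some x'' y'' h'' ∧
        1 < A.valuation x'' := by
  classical
  obtain ⟨hb₂, hb₄, hb₆, hb₈⟩ := kernel_b_mem A h₁ h₂ h₃ h₄ h₆
  have hyA : y ∈ A := stepP_y_mem A _ h₁ h₂ h₃ h₄ h₆ h.1 hxA
  have hvb₂ : A.valuation (W₀.baseChange L).b₂ ≤ 1 := (A.valuation_le_one_iff _).2 hb₂
  have hvb₄ : A.valuation (W₀.baseChange L).b₄ ≤ 1 := (A.valuation_le_one_iff _).2 hb₄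
  have hvx : A.valuation x ≤ 1 := (A.valuation_le_one_iff _).2 hxA
  have hx'A : σ x ∈ A := (inertia_apply_mem_iff hσ x).2 hxA
  have hvx' : A.valuation (σ x) ≤ 1 := (A.valuation_le_one_iff _).2 hx'A
  have hηA : eta (W₀.baseChange L) x y ∈ A := by
    simp only [eta]
    exact add_mem (add_mem (mul_mem (ofNat_mem A 2) hyA) (mul_mem h₁ hxA)) h₃
  have hvη : A.valuation (eta (W₀.baseChange L) x y) ≤ 1 := (A.valuation_le_one_iff _).2 hηA
  have hxx : A.valuation (σ x - x) < 1 :=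
    (A.mem_nonunits_iff).1 (inertia_apply_sub_mem_nonunits hσ hxA)
  have hηη : A.valuation (eta (W₀.baseChange L) (σ x) (σ y) - eta (W₀.baseChange L) x y) < 1 := by
    rw [eta_galois]
    exact (A.mem_nonunits_iff).1 (inertia_apply_sub_mem_nonunits hσ hηA)
  have hη_sq : eta (W₀.baseChange L) x y ^ 2 = 4 * (x - r₁) * (x - r₁ - e₂) * (x - r₁ - e₃) := by
    rw [eta_sq _ h.1, hr.cub_eq]
  have hdc := hr.dcub_eq x
  have hs₁ : A.valuation (x - r₁) ≤ 1 := (A.valuation_le_one_iff _).2 (sub_mem hxA hr₁)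
  have he₂A : e₂ ∈ A := (A.valuation_le_one_iff _).1 he₂
  have he₃A : e₃ ∈ A := (A.valuation_le_one_iff _).1 he₃.le
  have hs₂ : A.valuation (x - r₁ - e₂) ≤ 1 :=
    (A.valuation_le_one_iff _).2 (sub_mem (sub_mem hxA hr₁) he₂A)
  have hs₃ : A.valuation (x - r₁ - e₃) ≤ 1 :=
    (A.valuation_le_one_iff _).2 (sub_mem (sub_mem hxA hr₁) he₃A)
  rcases hs₁.lt_or_eq with hlt | heq
  · -- `x ≡ r₁`
    have hs₃' : A.valuation (x - r₁ - e₃) = 1 := by
      rw [Valuation.map_sub_eq_of_lt_right _ (by rw [he₃]; exact hlt), he₃]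
    rcases he₂.lt_or_eq with he₂lt | he₂eq
    · -- the node case
      obtain ⟨hlow, hxx'⟩ := hnode he₂lt hlt
      have hX0 : x - r₁ ≠ 0 := by
        intro h0
        rw [h0, _root_.map_zero] at hlow
        exact not_lt_zero hlow
      have hvX0 : A.valuation (x - r₁) ≠ 0 := (Valuation.ne_zero_iff _).2 hX0
      have hs₂' : A.valuation (x - r₁ - e₂) = A.valuation (x - r₁) :=
        Valuation.map_sub_eq_of_lt_left _ hlow
      have h4 : A.valuation (4 : L) = 1 := key_val_four _ h2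
      have hηv : A.valuation (eta (W₀.baseChange L) x y) = A.valuation (x - r₁) := by
        have : A.valuation (eta (W₀.baseChange L) x y) ^ 2 = A.valuation (x - r₁) ^ 2 := by
          rw [← map_pow, hη_sq, map_mul, map_mul, map_mul, h4, hs₂', hs₃', one_mul, mul_one,
            sq]
        exact (pow_left_inj₀ zero_le zero_le two_ne_zero).1 this
      have ht : A.valuation (eta (W₀.baseChange L) x y / (x - r₁)) = 1 := by
        rw [map_div₀, hηv, div_self hvX0]
      have htA : eta (W₀.baseChange L) x y / (x - r₁) ∈ A :=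
        (A.valuation_le_one_iff _).1 ht.le
      have htt : A.valuation (eta (W₀.baseChange L) (σ x) (σ y) / (σ x - r₁) -
          eta (W₀.baseChange L) x y / (x - r₁)) < 1 := by
        have e : eta (W₀.baseChange L) (σ x) (σ y) / (σ x - r₁) =
            σ (eta (W₀.baseChange L) x y / (x - r₁)) := by
          rw [map_div₀, map_sub, hσr, eta_galois]
        rw [e]
        exact (A.mem_nonunits_iff).1 (inertia_apply_sub_mem_nonunits hσ htA)
      exact key_node _ hvb₂ h2 h h' r₁ hvx hvx' hX0 hxx' ht htt hne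
    · -- `e₂` is a unit: no node
      have hs₂' : A.valuation (x - r₁ - e₂) = 1 := by
        rw [Valuation.map_sub_eq_of_lt_right _ (by rw [he₂eq]; exact hlt), he₂eq]
      have hns := hns_of_two_units A.valuation h2 (η := eta (W₀.baseChange L) x y)
        (c := 0) (d := dcub (W₀.baseChange L) x) (u₁ := x - r₁ - e₂) (u₂ := x - r₁ - e₃)
        (s := x - r₁) (hη_sq.trans (by ring)) (hdc.trans (by ring)) hs₂' hs₃' hs₁
      exact key_nonsing _ hvb₂ hvb₄ h2 h h' hvx hvη hxx hηη hne hns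
  · -- `x ≢ r₁`
    rcases hs₂.lt_or_eq with hlt₂ | heq₂
    · have hs₃' : A.valuation (x - r₁ - e₃) = 1 := by
        have e : x - r₁ - e₃ = (x - r₁ - e₂) - (e₃ - e₂) := by ring
        rw [e, Valuation.map_sub_eq_of_lt_right _ (by rw [he₂₃]; exact hlt₂), he₂₃]
      have hns := hns_of_two_units A.valuation h2 (η := eta (W₀.baseChange L) x y)
        (c := 0) (d := dcub (W₀.baseChange L) x) (u₁ := x - r₁) (u₂ := x - r₁ - e₃)
        (s := x - r₁ - e₂) (hη_sq.trans (by ring)) (hdc.trans (by ring)) heq hs₃' hs₂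
      exact key_nonsing _ hvb₂ hvb₄ h2 h h' hvx hvη hxx hηη hne hns
    · have hns := hns_of_two_units A.valuation h2 (η := eta (W₀.baseChange L) x y)
        (c := 0) (d := dcub (W₀.baseChange L) x) (u₁ := x - r₁) (u₂ := x - r₁ - e₂)
        (s := x - r₁ - e₃) (hη_sq.trans (by ring)) (hdc.trans (by ring)) heq heq₂ hs₃
      exact key_nonsing _ hvb₂ hvb₄ h2 h h' hvx hvη hxx hηη hne hns

end LocalMove


section FreyMove

variable (P : FreyPackage) {L : Type*} [Field L] [DecidableEq L] [Algebra ℚ L]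

/-- For the Frey curve at a place over `p = P.p`: inertia moves an integral `p ^ m`-torsion point
inside the kernel of reduction. -/
theorem s12locp_frey_move
    (A : ValuationSubring L) (hA : A.LiesOverPrime P.p) {σ : L ≃ₐ[ℚ] L}
    (hσ : σ ∈ A.inertiaSubgroupIn ℚ) (m : ℕ)
    {x y : L} (h : (P.freyCurve.baseChange L).toAffine.Nonsingular x y)
    (htors : P.p ^ m • Point.some x y h = 0) (hxA : x ∈ A)
    (h' : (P.freyCurve.baseChange L).toAffine.Nonsingular (σ x) (σ y))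
    (hne : Point.some (σ x) (σ y) h' ≠ Point.some x y h) :
    ∃ (x'' y'' : L) (h'' : (P.freyCurve.baseChange L).toAffine.Nonsingular x'' y''),
      Point.some (σ x) (σ y) h' - Point.some x y h = Point.some x'' y'' h'' ∧
        1 < A.valuation x'' := by
  have hq : P.p.Prime := P.pp
  have hq2 : P.p ≠ 2 := stepP_p_ne_two P
  have hchar := charZero_of_algebraRat L
  obtain ⟨h₁, h₂, h₃, h₄, h₆⟩ := frey_coeff_mem P A hq hq2 hA
  have h2 : A.valuation (2 : L) = 1 := valuation_two_eq_one A hq hA hq2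
  have h4 : A.valuation (4 : L) = 1 := valuation_four_eq_one A hq hA hq2
  have hpA : (P.p : L) ∈ A.nonunits := (natCast_mem_nonunits_iff A hq hA P.p).2 dvd_rfl
  have hflt := frey_flt_cast P L
  have hodd : Odd (P.p ^ m) := P.hp_odd.pow
  have hσint : ∀ n : ℤ, σ ((n : L) ^ P.p / 4) = (n : L) ^ P.p / 4 := by
    intro n
    rw [map_div₀, map_pow, galois_fixes_int, map_ofNat]
  have hmem : ∀ n : ℤ, (n : L) ^ P.p / 4 ∈ A := by
    intro n
    rw [← A.valuation_le_one_iff, valuation_div_of_eq_one A h4, A.valuation_le_one_iff]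
    exact pow_mem (intCast_mem A n) _
  -- the node hypothesis in the three multiplicative cases
  have hnodeHyp : ∀ (n : ℤ) (r₁ e₂ e₃ : L), n ≠ 0 → σ r₁ = r₁ →
      A.valuation e₂ = A.valuation (n : L) ^ P.p →
      RootData (P.freyCurve.baseChange L) r₁ e₂ e₃ → r₁ ∈ A → A.valuation e₃ = 1 →
      A.valuation e₂ < 1 → A.valuation (x - r₁) < 1 →
      A.valuation e₂ < A.valuation (x - r₁) ∧
        A.valuation (σ x - x) < A.valuation (x - r₁) := by
    intro n r₁ e₂ e₃ hn hσr hval hr hr₁ he₃ he₂ hlt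
    have hnL : (n : L) ≠ 0 := by exact_mod_cast hn
    have hvn : A.valuation (n : L) ≠ 0 := (Valuation.ne_zero_iff _).2 hnL
    have he₂0 : e₂ ≠ 0 := by
      rw [← Valuation.ne_zero_iff A.valuation, hval]
      exact pow_ne_zero _ hvn
    obtain ⟨hlow, k, hk⟩ := tropical_torsion A.valuation hr.hb₂ hr.hb₄ hr.hb₆ h2 he₃ he₂ he₂0
      hodd h htors hlt
    refine ⟨hlow, ?_⟩
    cases m with
    | zero =>
      rw [pow_zero, one_nsmul] at htors
      exact absurd htors (Point.some_ne_zero _)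
    | succ j =>
      have hcast : algebraMap ℚ L ((n : ℚ) ^ (2 * k)) = (n : L) ^ (2 * k) := by
        rw [map_zpow₀, map_intCast]
      have hvc : A.valuation (algebraMap ℚ L ((n : ℚ) ^ (2 * k))) =
          A.valuation (n : L) ^ (2 * k) := by
        rw [hcast, map_zpow₀]
      have hX : A.valuation (x - r₁) ^ (P.p ^ j) =
          A.valuation (algebraMap ℚ L ((n : ℚ) ^ (2 * k))) := by
        have e1 : (A.valuation (x - r₁) ^ (P.p ^ j)) ^ P.p =
            (A.valuation (algebraMap ℚ L ((n : ℚ) ^ (2 * k)))) ^ P.p := by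
          rw [hvc, ← pow_mul, ← pow_succ, hk, hval,
            ← zpow_natCast (A.valuation (n : L)) P.p, ← zpow_mul,
            ← zpow_natCast (A.valuation (n : L) ^ (2 * k)) P.p, ← zpow_mul, mul_comm]
        exact (pow_left_inj₀ zero_le zero_le P.hp0).1 e1
      have hc : ((n : ℚ) ^ (2 * k)) ≠ 0 := zpow_ne_zero _ (by exact_mod_cast hn)
      have hmove := s12locp_inertia_pow A hσ hq hpA j hc hX
      have e : σ (x - r₁) - (x - r₁) = σ x - x := by rw [map_sub, hσr]; ring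
      rwa [e] at hmove
  have hvpow : ∀ n : ℤ, A.valuation ((n : L) ^ P.p / 4) = A.valuation (n : L) ^ P.p := by
    intro n
    rw [valuation_div_of_eq_one A h4, map_pow]
  have hvnpow : ∀ n : ℤ, A.valuation (-((n : L) ^ P.p) / 4) = A.valuation (n : L) ^ P.p := by
    intro n
    rw [valuation_div_of_eq_one A h4, Valuation.map_neg, map_pow]
  rcases frey_cases P hq with ⟨ha, hb, hc⟩ | ⟨ha, hb, hc⟩ | ⟨ha, hb, hc⟩ | ⟨ha, hb, hc⟩
  · -- good reduction
    refine s12locp_local_move A hσ P.freyCurve h₁ h₂ h₃ h₄ h₆ h2 0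
      ((P.a : L) ^ P.p / 4)
      (-((P.b : L) ^ P.p) / 4) (_root_.map_zero σ) (zero_mem A) (frey_rootData_a P L)
      (valuation_neg_pow_div_four_eq_one A hq hq2 hA hb _) ?_
      (valuation_pow_div_four_eq_one A hq hq2 hA ha _).le h hxA ?_ h' hne
    · have e : -((P.b : L) ^ P.p) / 4 - (P.a : L) ^ P.p / 4 = -((P.c : L) ^ P.p) / 4 := by
        rw [← hflt]; ring
      rw [e]
      exact valuation_neg_pow_div_four_eq_one A hq hq2 hA hc _
    · intro hlt _
      rw [valuation_pow_div_four_eq_one A hq hq2 hA ha _] at hlt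
      exact absurd hlt (lt_irrefl _)
  · -- `q ∣ a`
    refine s12locp_local_move A hσ P.freyCurve h₁ h₂ h₃ h₄ h₆ h2 0
      ((P.a : L) ^ P.p / 4)
      (-((P.b : L) ^ P.p) / 4) (_root_.map_zero σ) (zero_mem A) (frey_rootData_a P L)
      (valuation_neg_pow_div_four_eq_one A hq hq2 hA hb _) ?_
      (valuation_pow_div_four_lt_one A hq hq2 hA P.ha0 ha P.hp0).2.le h hxA ?_ h' hne
    · have e : -((P.b : L) ^ P.p) / 4 - (P.a : L) ^ P.p / 4 = -((P.c : L) ^ P.p) / 4 := by
        rw [← hflt]; ring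
      rw [e]
      exact valuation_neg_pow_div_four_eq_one A hq hq2 hA hc _
    · intro hlt hlt'
      exact hnodeHyp P.a 0 _ _ P.ha0 (_root_.map_zero σ) (hvpow _) (frey_rootData_a P L)
        (zero_mem A) (valuation_neg_pow_div_four_eq_one A hq hq2 hA hb _) hlt hlt'
  · -- `q ∣ b`
    refine s12locp_local_move A hσ P.freyCurve h₁ h₂ h₃ h₄ h₆ h2 0
      (-((P.b : L) ^ P.p) / 4)
      ((P.a : L) ^ P.p / 4) (_root_.map_zero σ) (zero_mem A) (frey_rootData_b P L)
      (valuation_pow_div_four_eq_one A hq hq2 hA ha _) ?_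
      (valuation_neg_pow_div_four_lt_one A hq hq2 hA P.hb0 hb P.hp0).2.le h hxA ?_ h' hne
    · have e : (P.a : L) ^ P.p / 4 - -((P.b : L) ^ P.p) / 4 = (P.c : L) ^ P.p / 4 := by
        rw [← hflt]; ring
      rw [e]
      exact valuation_pow_div_four_eq_one A hq hq2 hA hc _
    · intro hlt hlt'
      exact hnodeHyp P.b 0 _ _ P.hb0 (_root_.map_zero σ) (hvnpow _) (frey_rootData_b P L)
        (zero_mem A) (valuation_pow_div_four_eq_one A hq hq2 hA ha _) hlt hlt'
  · -- `q ∣ c`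
    refine s12locp_local_move A hσ P.freyCurve h₁ h₂ h₃ h₄ h₆ h2
      ((P.a : L) ^ P.p / 4)
      (-((P.c : L) ^ P.p) / 4) (-((P.a : L) ^ P.p) / 4) (hσint _) (hmem _)
      (frey_rootData_c P L)
      (valuation_neg_pow_div_four_eq_one A hq hq2 hA ha _) ?_
      (valuation_neg_pow_div_four_lt_one A hq hq2 hA P.hc0 hc P.hp0).2.le h hxA ?_ h' hne
    · have e : -((P.a : L) ^ P.p) / 4 - -((P.c : L) ^ P.p) / 4 = (P.b : L) ^ P.p / 4 := by
        rw [← hflt]; ring
      rw [e]
      exact valuation_pow_div_four_eq_one A hq hq2 hA hb _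
    · intro hlt hlt'
      exact hnodeHyp P.c _ _ _ P.hc0 (hσint _) (hvnpow _) (frey_rootData_c P L) (hmem _)
        (valuation_neg_pow_div_four_eq_one A hq hq2 hA ha _) hlt hlt'

end FreyMove


section Main

open Fermat.Agent.S15

/-- the Frey curve over `ℚ̄` has coefficients in `A`, for `A` over `p` -/
theorem s12locp_int (P : FreyPackage) (A : ValuationSubring Qb) (hA : A.LiesOverPrime P.p) :
    N3Int A (P.freyCurve.baseChange Qb) := by
  obtain ⟨h₁, h₂, h₃, h₄, h₆⟩ := frey_coeff_mem P A P.pp (stepP_p_ne_two P) hA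
  exact ⟨h₁, h₂, h₃, h₄, h₆⟩

/-- the kernel of reduction of the Frey curve at `A ∣ p` -/
noncomputable def s12locpZ (P : FreyPackage) (A : ValuationSubring Qb)
    (hA : A.LiesOverPrime P.p) : AddSubgroup (Pt P) :=
  n3subKer A (P.freyCurve.baseChange Qb) (s12locp_int P A hA)

theorem s12locp_mem_Z_iff (P : FreyPackage) (A : ValuationSubring Qb)
    (hA : A.LiesOverPrime P.p) (Q : Pt P) :
    Q ∈ s12locpZ P A hA ↔ (Q = 0 ∨ stepP_NonInt A Q) := by
  cases Q with
  | zero => exact ⟨fun _ => Or.inl rfl, fun _ => trivial⟩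
  | some x y h =>
    constructor
    · intro hx
      exact Or.inr hx
    · rintro (h0 | hx)
      · exact absurd h0 (Point.some_ne_zero _)
      · exact hx

/-- the decomposition group preserves the kernel of reduction -/
theorem s12locp_Z_stable (P : FreyPackage) (A : ValuationSubring Qb)
    (hA : A.LiesOverPrime P.p) {σ : GQ} (hσ : σ ∈ A.decompositionSubgroup ℚ) {Q : Pt P}
    (hQ : Q ∈ s12locpZ P A hA) : σ • Q ∈ s12locpZ P A hA := by
  cases Q with
  | zero =>
    have h0 : σ • (Point.zero : Pt P) = 0 := rfl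
    rw [h0]
    exact (s12locpZ P A hA).zero_mem
  | some x y h =>
    have hx : x ∉ A := hQ
    rw [galois_smul_some]
    show σ x ∉ A
    rw [apply_mem_iff_of_mem_decomposition hσ]
    exact hx

/-- inertia at `A ∣ p` moves the `p`-power torsion inside the kernel of reduction -/
theorem s12locp_move (P : FreyPackage) (A : ValuationSubring Qb)
    (hA : A.LiesOverPrime P.p) {σ : GQ} (hσ : σ ∈ A.inertiaSubgroupIn ℚ) (m : ℕ) (R : Pt P)
    (hR : P.p ^ m • R = 0) : σ • R - R ∈ s12locpZ P A hA := by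
  cases R with
  | zero =>
    have h0 : σ • (Point.zero : Pt P) - Point.zero = 0 := by
      have h1 : σ • (Point.zero : Pt P) = Point.zero := rfl
      rw [h1, sub_self]
    rw [h0]
    exact (s12locpZ P A hA).zero_mem
  | some x y h =>
    by_cases hxA : x ∈ A
    · by_cases hfix : σ • (Point.some x y h : Pt P) = Point.some x y h
      · rw [hfix, sub_self]
        exact (s12locpZ P A hA).zero_mem
      · rw [galois_smul_some] at hfix ⊢
        obtain ⟨x'', y'', h'', he, hlt⟩ := s12locp_frey_move P A hA hσ m h hR hxA _ hfix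
        rw [he]
        show x'' ∉ A
        intro hx''
        rw [← A.valuation_le_one_iff] at hx''
        exact absurd hlt (not_lt.2 hx'')
    · have h1 : (Point.some x y h : Pt P) ∈ s12locpZ P A hA := hxA
      exact (s12locpZ P A hA).sub_mem
        (s12locp_Z_stable P A hA (mem_decomposition_of_mem_inertiaIn hσ) h1) h1

end Main


section Exists

open Fermat.Agent.S15

/-- a cofixed line consists of `p`-torsion points -/
theorem s12locp_line_tors (P : FreyPackage) (K₁ : AddSubgroup (Pt P))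
    (hK₁ : IsCofixedLine (Pt P) P.p K₁) {x : Pt P} (hx : x ∈ K₁) : P.p • x = 0 := by
  have h := card_nsmul_eq_zero' (G := K₁) (x := ⟨x, hx⟩)
  rw [hK₁.card] at h
  have h2 := congrArg (fun t : K₁ => (t : Pt P)) h
  simpa using h2

/-- the cofixed line as a submodule of `E[p]` -/
noncomputable def s12locpN (P : FreyPackage) (K₁ : AddSubgroup (Pt P)) :
    Submodule (ZMod P.p) (Tors P) where
  carrier := {t | (t : Pt P) ∈ K₁}
  add_mem' := fun {a b} ha hb => K₁.add_mem ha hb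
  zero_mem' := K₁.zero_mem
  smul_mem' := fun c {x} hx => by
    show ((c • x : Tors P) : Pt P) ∈ K₁
    rw [stepP_zmod_smul_coe]
    exact K₁.nsmul_mem hx _

theorem s12locp_mem_N (P : FreyPackage) (K₁ : AddSubgroup (Pt P)) (t : Tors P) :
    t ∈ s12locpN P K₁ ↔ (t : Pt P) ∈ K₁ := Iff.rfl

/-- `E[p]` is not contained in the kernel of reduction at `A ∣ p`, if there is a cofixed line -/
theorem s12locp_exists (P : FreyPackage) (K₁ : AddSubgroup (Pt P))
    (hK₁ : IsCofixedLine (Pt P) P.p K₁) (A : ValuationSubring Qb) (hA : A.LiesOverPrime P.p) :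
    ∃ x : Pt P, P.p • x = 0 ∧ x ∉ s12locpZ P A hA := by
  have hcardS : Fermat.Agent.S13.StmtCard :=
    stmtCard_of_criterion (wiring_criterion stmtTorsZero stmtZeroTors)
  have hp1 : 1 < P.p := P.pp.one_lt
  have hN : IsGaloisStable ℚ (s12locpN P K₁) := fun σ x hx => hK₁.stable σ _ hx
  -- the line is not zero
  have hbot : s12locpN P K₁ ≠ ⊥ := by
    intro hb
    haveI : Finite K₁ := Nat.finite_of_card_ne_zero (by rw [hK₁.card]; exact P.hp0)
    have hsub : Subsingleton K₁ := by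
      refine ⟨fun a b => ?_⟩
      have ha : (⟨a.1, (Submodule.mem_torsionBy_iff _ _).2 (by
          rw [natCast_zsmul]; exact s12locp_line_tors P K₁ hK₁ a.2)⟩ : Tors P) ∈
          s12locpN P K₁ := a.2
      have hb' : (⟨b.1, (Submodule.mem_torsionBy_iff _ _).2 (by
          rw [natCast_zsmul]; exact s12locp_line_tors P K₁ hK₁ b.2)⟩ : Tors P) ∈
          s12locpN P K₁ := b.2
      rw [hb, Submodule.mem_bot] at ha hb'
      have ha0 : a.1 = 0 := congrArg (fun t : Tors P => (t : Pt P)) ha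
      have hb0 : b.1 = 0 := congrArg (fun t : Tors P => (t : Pt P)) hb'
      exact Subtype.ext (ha0.trans hb0.symm)
    have h1 : Nat.card K₁ ≤ 1 := Finite.card_le_one_iff_subsingleton.2 hsub
    rw [hK₁.card] at h1
    omega
  -- a torsion point outside the line
  have hout : ∃ x : Tors P, x ∉ s12locpN P K₁ := by
    by_contra hall
    push Not at hall
    haveI : Finite K₁ := Nat.finite_of_card_ne_zero (by rw [hK₁.card]; exact P.hp0)
    have hinj : Function.Injective (fun t : Tors P => (⟨(t : Pt P), hall t⟩ : K₁)) := by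
      intro a b hab
      have := congrArg (fun t : K₁ => (t : Pt P)) hab
      exact Subtype.ext this
    have h1 := Nat.card_le_card_of_injective _ hinj
    have hpQ : ((P.p : ℕ) : Qb) ≠ 0 := by exact_mod_cast P.hp0
    have h2 : Nat.card (Tors P) = P.p ^ 2 :=
      Fermat.Agent.EC.ec_card_torsionBy (frey_baseChange_Δ_ne_zero P Qb) two_ne_zero hpQ
    rw [h2, hK₁.card] at h1
    rw [sq] at h1
    have h3 : P.p * 2 ≤ P.p * P.p := Nat.mul_le_mul_left _ hp1
    omega
  by_cases hint : ∃ x : Tors P, x ∈ s12locpN P K₁ ∧ x ≠ 0 ∧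
      ¬ stepP_NonInt A (x : (P.freyCurve⁄Qbar).Point)
  · obtain ⟨x, -, hx0, hxint⟩ := hint
    refine ⟨x, stepP_nsmul_eq_zero P x, ?_⟩
    rw [s12locp_mem_Z_iff]
    rintro (h0 | h1)
    · exact hx0 (Subtype.ext h0)
    · exact hxint h1
  · push Not at hint
    have hkey := stepP_key hcardS stmtTorsZero P (s12locpN P K₁) hN hbot A hA
      (fun x hx hx0 => hint x hx hx0)
    obtain ⟨x, hxN⟩ := hout
    have hx0 : x ≠ 0 := fun h => hxN (h ▸ (s12locpN P K₁).zero_mem)
    refine ⟨x, stepP_nsmul_eq_zero P x, ?_⟩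
    rw [s12locp_mem_Z_iff]
    rintro (h0 | h1)
    · exact hx0 (Subtype.ext h0)
    · exact hkey x hx0 hxN h1

/-- **G-LOCP.** -/
theorem stmtLocP : StmtLocP := by
  intro P K₁ hK₁ A hA
  refine ⟨s12locpZ P A hA, ?_, ?_, s12locp_exists P K₁ hK₁ A hA⟩
  · intro σ hσ x hx
    exact s12locp_Z_stable P A hA hσ hx
  · intro σ hσ m R hR
    exact s12locp_move P A hA hσ m R hR

end Exists

end Fermat.Agent.S12


end ZBZ2S12_001_18

/-! ### bundled: `Fermat.Agent.S12.Cyc` -/
section ZBZ2S12_001_19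

/-!
# S12 glue, piece G-CYC (helper34): `stmtCyc : StmtCyc`

`E` an elliptic curve over `ℚ`, `p` a prime, `K₁ ⊂ E(ℚ̄)` a cofixed line: `#K₁ = p`, `K₁` is
`G_ℚ`-stable and `σ x - x ∈ K₁` for all `x ∈ E[p]`.

* `s12cyc_det` : `det (σ | E[p]) = cycloExp p σ` (no irreducibility: from the determinant of the
  Tate module, `EC.tateRepInt_detIsCyclotomic`, and the residual dictionary `EC.tateRes_det`);
* `s12cyc_core` : `σ x = cycloExp p σ • x` for `x ∈ K₁`.  (`σ` acts on `K₁` by an integer `k`, and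
  `(σ - k)(σ - 1) = 0` on `E[p]`; if `σ` is not a scalar then `det σ = k` by Cayley–Hamilton; if
  `σ` is a scalar then `σ = 1` and `k = 1 = det σ`.)
* `s12cyc_cycloExp_spec`, `s12cyc_cycloExp_of_inv` : `σ μ = μ ^ cycloExp p σ` on `μ_p`;
  `cycloExp p σ = p - 1` if `σ` inverts `μ_p` (for `StmtRamP`, helper1, `S12/RamP.lean`).
* `s12cyc_model` : the same for an integral model; `stmtCyc : StmtCyc`.
-/

set_option autoImplicit false
set_option linter.unusedSectionVars false

noncomputable section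

namespace Fermat.Agent.S12

open WeierstrassCurve WeierstrassCurve.Affine WeierstrassCurve.Affine.Point ExtCitation

/-! ### The cyclotomic exponent -/

/-- `σ μ = μ ^ cycloExp p σ` for every `p`-th root of unity `μ` -/
theorem s12cyc_cycloExp_spec (p : ℕ) [Fact p.Prime] (σ : GQ) {μ : Qb} (hμ : μ ^ p = 1) :
    σ μ = μ ^ cycloExp p σ := by
  have hp : p.Prime := Fact.out
  have : NeZero p := ⟨hp.ne_zero⟩
  have hμ0 : μ ≠ 0 := by
    rintro rfl
    rw [zero_pow hp.ne_zero] at hμ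
    exact zero_ne_one hμ
  have hmem : Units.mk0 μ hμ0 ∈ rootsOfUnity p Qb := by
    rw [mem_rootsOfUnity]
    apply Units.ext
    rw [Units.val_pow_eq_pow_val, Units.val_mk0, hμ, Units.val_one]
  have hspec := modularCyclotomicCharacter.spec Qb (card_rootsOfUnity_eq_self p)
    (σ : Qb ≃+* Qb) (t := Units.mk0 μ hμ0) hmem
  simpa [cycloExp] using hspec

/-- if `σ` inverts the `p`-th roots of unity, then `cycloExp p σ = p - 1` -/
theorem s12cyc_cycloExp_of_inv (p : ℕ) [Fact p.Prime] (σ : GQ)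
    (hinv : ∀ μ : Qb, μ ^ p = 1 → σ μ = μ⁻¹) : cycloExp p σ = p - 1 := by
  have hp : p.Prime := Fact.out
  have : NeZero p := ⟨hp.ne_zero⟩
  have : NeZero ((p : ℕ) : Qb) := ⟨Nat.cast_ne_zero.mpr hp.ne_zero⟩
  obtain ⟨ζ, hζ⟩ := HasEnoughRootsOfUnity.exists_primitiveRoot Qb p
  have hspec := s12cyc_cycloExp_spec p σ hζ.pow_eq_one
  have hinv' : ζ⁻¹ = ζ ^ (p - 1) := by
    have : ζ * ζ ^ (p - 1) = 1 := by
      rw [← pow_succ', Nat.sub_add_cancel hp.pos, hζ.pow_eq_one]
    exact inv_eq_of_mul_eq_one_right this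
  rw [hinv ζ hζ.pow_eq_one, hinv'] at hspec
  have hlt : cycloExp p σ < p := by
    unfold cycloExp
    exact ZMod.val_lt _
  exact (hζ.pow_inj (Nat.sub_lt hp.pos Nat.one_pos) hlt hspec).symm

/-! ### The determinant on `E[p]` -/

section Core

variable (E : WeierstrassCurve ℚ) (hΔ : E.Δ ≠ 0) (p : ℕ) [Fact p.Prime]

/-- **`det (σ | E[p]) = χ_p(σ)`**, from the determinant of the Tate module. -/
theorem s12cyc_det (hdet : (EC.tateRep E hΔ p).DetIsCyclotomic p) (σ : GQ) :
    LinearMap.det (galoisRepModuleEnd (S := ℚ) (K := Qb) E p σ) =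
      ((cycloExp p σ : ℕ) : ZMod p) := by
  rw [EC.tateRes_det E hΔ p σ]
  obtain ⟨-, h⟩ := hdet
  have h1 := h 1 σ (cycloExp p σ) (fun μ hμ => s12cyc_cycloExp_spec p σ (by simpa using hμ))
  have h2 : LinearMap.det (EC.tateRho E hΔ p σ) - ((cycloExp p σ : ℕ) : ℤ_[p]) ∈
      RingHom.ker (PadicInt.toZMod (p := p)) := by
    rw [PadicInt.ker_toZMod, PadicInt.maximalIdeal_eq_span_p]
    have e : (((p ^ 1 : ℕ)) : ℤ_[p]) = (p : ℤ_[p]) := by
      rw [pow_one]
    rw [e] at h1
    exact h1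
  rw [RingHom.mem_ker, map_sub, map_natCast, sub_eq_zero] at h2
  exact h2

variable {E p}

/-- the points of a subgroup of order `p` are killed by `p` -/
theorem s12cyc_smul_eq_zero {K₁ : AddSubgroup (E⁄Qb).Point} (hcard : Nat.card K₁ = p)
    {x : (E⁄Qb).Point} (hx : x ∈ K₁) : p • x = 0 := by
  have h1 : Nat.card K₁ • (⟨x, hx⟩ : K₁) = 0 := card_nsmul_eq_zero'
  rw [hcard] at h1
  exact congrArg Subtype.val h1

/-- a `p`-torsion point, as an element of `E[p]` -/
def s12cycPt (x : (E⁄Qb).Point) (hx : p • x = 0) : Submodule.torsionBy ℤ (E⁄Qb).Point (p : ℤ) :=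
  ⟨x, by
    rw [Submodule.mem_torsionBy_iff, natCast_zsmul]
    exact hx⟩

theorem s12cyc_torsion (v : Submodule.torsionBy ℤ (E⁄Qb).Point (p : ℤ)) :
    p • (v : (E⁄Qb).Point) = 0 := by
  have := v.2
  rw [Submodule.mem_torsionBy_iff, natCast_zsmul] at this
  exact this

/-- integers congruent mod `p` act in the same way on `p`-torsion points -/
theorem s12cyc_zsmul_congr {x : (E⁄Qb).Point} (hx : p • x = 0) {k l : ℤ}
    (h : (k : ZMod p) = (l : ZMod p)) : k • x = l • x := by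
  have h1 : (p : ℤ) ∣ k - l := by
    rw [← ZMod.intCast_zmod_eq_zero_iff_dvd, Int.cast_sub, h, sub_self]
  obtain ⟨c, hc⟩ := h1
  have h2 : (k - l) • x = 0 := by
    rw [hc, mul_comm, mul_smul, natCast_zsmul, hx, zsmul_zero]
  rw [sub_smul, sub_eq_zero] at h2
  exact h2

/-- a subgroup of prime order is generated by each of its nonzero elements -/
theorem s12cyc_exists_zsmul {K₁ : AddSubgroup (E⁄Qb).Point} (hcard : Nat.card K₁ = p)
    {g : (E⁄Qb).Point} (hg : g ∈ K₁) (hg0 : g ≠ 0) {x : (E⁄Qb).Point} (hx : x ∈ K₁) :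
    ∃ m : ℤ, x = m • g := by
  have hp : p.Prime := Fact.out
  have hfin : Finite K₁ := Nat.finite_of_card_ne_zero (by rw [hcard]; exact hp.ne_zero)
  have hg' : (⟨g, hg⟩ : K₁) ≠ 0 := fun h => hg0 (congrArg Subtype.val h)
  have hord : addOrderOf (⟨g, hg⟩ : K₁) = p := by
    have h1 : addOrderOf (⟨g, hg⟩ : K₁) ∣ p := by
      rw [← hcard]
      exact addOrderOf_dvd_natCard _
    rcases (Nat.dvd_prime hp).mp h1 with h2 | h2
    · exact absurd (AddMonoid.addOrderOf_eq_one_iff.mp h2) hg'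
    · exact h2
  have htop : AddSubgroup.zmultiples (⟨g, hg⟩ : K₁) = ⊤ := by
    apply AddSubgroup.eq_top_of_card_eq
    rw [Nat.card_zmultiples, hord, hcard]
  have hmem : (⟨x, hx⟩ : K₁) ∈ AddSubgroup.zmultiples (⟨g, hg⟩ : K₁) := by
    rw [htop]
    exact AddSubgroup.mem_top _
  obtain ⟨m, hm⟩ := AddSubgroup.mem_zmultiples_iff.mp hmem
  exact ⟨m, (congrArg Subtype.val hm).symm⟩

/-- **G-CYC, core**: `G_ℚ` acts on a cofixed line through the mod `p` cyclotomic character. -/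
theorem s12cyc_core (hdet : (EC.tateRep E hΔ p).DetIsCyclotomic p)
    (K₁ : AddSubgroup (E⁄Qb).Point) (hK : IsCofixedLine (E⁄Qb).Point p K₁) :
    HCyc (E⁄Qb).Point p K₁ := by
  have hp : p.Prime := Fact.out
  intro σ x hx
  -- a generator of `K₁`
  obtain ⟨g, hg, hg0⟩ : ∃ g ∈ K₁, g ≠ 0 := by
    have hfin : Finite K₁ := Nat.finite_of_card_ne_zero (by rw [hK.card]; exact hp.ne_zero)
    have h1 : 1 < Nat.card K₁ := by rw [hK.card]; exact hp.one_lt
    have : Nontrivial K₁ := Finite.one_lt_card_iff_nontrivial.mp h1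
    obtain ⟨y, hy⟩ := exists_ne (0 : K₁)
    exact ⟨y, y.2, fun h => hy (Subtype.ext h)⟩
  have hpg : p • g = 0 := s12cyc_smul_eq_zero hK.card hg
  obtain ⟨k, hk⟩ := s12cyc_exists_zsmul hK.card hg hg0 (hK.stable σ g hg)
  -- `σ` acts on `K₁` by `k`
  have hact : ∀ y ∈ K₁, σ • y = k • y := by
    intro y hy
    obtain ⟨m, rfl⟩ := s12cyc_exists_zsmul hK.card hg hg0 hy
    have e1 : σ • (m • g) = m • (σ • g) :=
      map_zsmul (DistribSMul.toAddMonoidHom (E⁄Qb).Point σ) m g
    rw [e1, hk, smul_comm]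
  -- the relation `(σ - k)(σ - 1) = 0` on `E[p]`
  set f : Module.End (ZMod p) (Submodule.torsionBy ℤ (E⁄Qb).Point (p : ℤ)) :=
    galoisRepModuleEnd (S := ℚ) (K := Qb) E p σ with hf
  have hfv : ∀ v : Submodule.torsionBy ℤ (E⁄Qb).Point (p : ℤ),
      ((f v : Submodule.torsionBy ℤ (E⁄Qb).Point (p : ℤ)) : (E⁄Qb).Point) =
        σ • (v : (E⁄Qb).Point) := fun v => rfl
  have hcoe : ∀ (c : ℤ) (v : Submodule.torsionBy ℤ (E⁄Qb).Point (p : ℤ)),
      (((c : ZMod p) • v : Submodule.torsionBy ℤ (E⁄Qb).Point (p : ℤ)) : (E⁄Qb).Point) =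
        c • (v : (E⁄Qb).Point) := by
    intro c v
    rw [Int.cast_smul_eq_zsmul]
    rfl
  have h2 : Module.finrank (ZMod p) (Submodule.torsionBy ℤ (E⁄Qb).Point (p : ℤ)) = 2 :=
    EC.tateRes_finrank E hΔ p
  have hrel : f ^ 2 - ((k : ZMod p) + 1) • f
      + (k : ZMod p) • (1 : Module.End (ZMod p) (Submodule.torsionBy ℤ (E⁄Qb).Point (p : ℤ)))
      = 0 := by
    apply LinearMap.ext
    intro v
    apply Subtype.ext
    have h3 := hact _ (hK.cofixed σ (v : (E⁄Qb).Point) (s12cyc_torsion v))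
    rw [smul_sub, zsmul_sub] at h3
    have e1 : ((k : ZMod p) + 1) = (((k + 1 : ℤ)) : ZMod p) := by push_cast; rfl
    rw [e1]
    simp only [LinearMap.add_apply, LinearMap.sub_apply, LinearMap.smul_apply, pow_two,
      Module.End.mul_apply, Module.End.one_apply, LinearMap.zero_apply]
    rw [Submodule.coe_add, Submodule.coe_sub, hcoe, hcoe, hfv, hfv, Submodule.coe_zero,
      add_zsmul, one_zsmul]
    have h4 : σ • σ • (v : (E⁄Qb).Point) = k • σ • (v : (E⁄Qb).Point) - k • (v : (E⁄Qb).Point)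
        + σ • (v : (E⁄Qb).Point) := by
      rw [← h3]; abel
    rw [h4]
    abel
  -- the determinant
  have hdetk : LinearMap.det f = (k : ZMod p) := by
    by_cases hns : EC.DetChar.IsScalarEnd f
    · -- scalar case: `f = 1`, `k = 1`
      obtain ⟨c, hc⟩ := hns
      have hc1 : c = 1 := by
        by_contra hne
        have hunit : c - 1 ≠ 0 := sub_ne_zero.mpr hne
        -- every point of `E[p]` is in `K₁`
        have hall : ∀ v : Submodule.torsionBy ℤ (E⁄Qb).Point (p : ℤ),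
            (v : (E⁄Qb).Point) ∈ K₁ := by
          intro v
          have h5 : ∀ w : Submodule.torsionBy ℤ (E⁄Qb).Point (p : ℤ),
              (((c - 1) • w : Submodule.torsionBy ℤ (E⁄Qb).Point (p : ℤ)) : (E⁄Qb).Point)
                ∈ K₁ := by
            intro w
            have h6 := hK.cofixed σ (w : (E⁄Qb).Point) (s12cyc_torsion w)
            have h7 : ((c - 1) • w : Submodule.torsionBy ℤ (E⁄Qb).Point (p : ℤ)) = f w - w := by
              rw [hc, LinearMap.smul_apply, Module.End.one_apply, sub_smul, one_smul]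
            rw [h7, Submodule.coe_sub, hfv]
            exact h6
          have h8 := h5 ((c - 1)⁻¹ • v)
          rwa [smul_smul, mul_inv_cancel₀ hunit, one_smul] at h8
        have hinj : Function.Injective
            (fun v : Submodule.torsionBy ℤ (E⁄Qb).Point (p : ℤ) =>
              (⟨(v : (E⁄Qb).Point), hall v⟩ : K₁)) := by
          intro v w hvw
          exact Subtype.ext (congrArg (fun z : K₁ => (z : (E⁄Qb).Point)) hvw)
        have hfinK : Finite K₁ :=
          Nat.finite_of_card_ne_zero (by rw [hK.card]; exact hp.ne_zero)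
        have hle := Nat.card_le_card_of_injective _ hinj
        rw [EC.tateRes_card E hΔ p, hK.card] at hle
        have : p < p ^ 2 := by
          rw [pow_two]
          exact lt_mul_self hp.one_lt
        omega
      have hf1 : f = 1 := by rw [hc, hc1, one_smul]
      have hk1 : (k : ZMod p) = 1 := by
        have h9 : σ • g = g := by
          have := hfv (s12cycPt g hpg)
          rw [hf1, Module.End.one_apply] at this
          exact this.symm
        rw [hk] at h9
        have h10 : (k - 1) • g = 0 := by rw [sub_smul, one_smul, h9, sub_self]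
        have hord : addOrderOf g = p := by
          have h1 : addOrderOf g ∣ p := addOrderOf_dvd_of_nsmul_eq_zero hpg
          rcases (Nat.dvd_prime hp).mp h1 with h2 | h2
          · exact absurd (AddMonoid.addOrderOf_eq_one_iff.mp h2) hg0
          · exact h2
        have h11 : (addOrderOf g : ℤ) ∣ k - 1 := addOrderOf_dvd_iff_zsmul_eq_zero.mpr h10
        rw [hord] at h11
        have h12 := (ZMod.intCast_zmod_eq_zero_iff_dvd (k - 1) p).mpr h11
        rw [Int.cast_sub, Int.cast_one, sub_eq_zero] at h12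
        exact h12
      rw [hf1, hk1]
      exact LinearMap.det_id
    · exact (EC.DetChar.trace_det_of_rel h2 hrel hns).2
  -- conclusion
  have hdet' := s12cyc_det E hΔ p hdet σ
  rw [← hf, hdetk] at hdet'
  rw [hact x hx, ← natCast_zsmul]
  apply s12cyc_zsmul_congr (s12cyc_smul_eq_zero hK.card hx)
  rw [hdet']
  push_cast
  rfl

end Core

/-! ### The Frey curve -/

/-- the determinant of the Tate module of a curve with an integral model is cyclotomic -/
theorem s12cyc_detIsCyclotomic (W : WeierstrassCurve ℤ) (hΔ : W.Δ ≠ 0) (p : ℕ) [Fact p.Prime]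
    (E : WeierstrassCurve ℚ) (h : W.map (Int.castRingHom ℚ) = E) (hΔ' : E.Δ ≠ 0) :
    (EC.tateRep E hΔ' p).DetIsCyclotomic p := by
  subst h
  exact EC.tateRepInt_detIsCyclotomic W hΔ p

theorem s12cyc_freyCurve_Δ_ne_zero (P : FreyPackage) : P.freyCurve.Δ ≠ 0 := by
  rw [← Fermat.Agent.S04.freyCurveInt_map]
  exact EC.tate_map_Δ_ne_zero _ (Fermat.Agent.S04.freyCurveInt_Δ_ne_zero P)

/-- **G-CYC** for an integral model. -/
theorem s12cyc_model (W : WeierstrassCurve ℤ) (hΔ : W.Δ ≠ 0) (p : ℕ) [Fact p.Prime]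
    (K₁ : AddSubgroup (PtZ W)) (hK : IsCofixedLine (PtZ W) p K₁) : HCyc (PtZ W) p K₁ :=
  s12cyc_core (EC.tate_map_Δ_ne_zero W hΔ) (EC.tateRepInt_detIsCyclotomic W hΔ p) K₁ hK

/-- **G-CYC.** -/
theorem stmtCyc : StmtCyc := by
  intro P K₁ hK
  have : Fact P.p.Prime := ⟨P.pp⟩
  exact s12cyc_core (s12cyc_freyCurve_Δ_ne_zero P)
    (s12cyc_detIsCyclotomic P.freyCurveInt (Fermat.Agent.S04.freyCurveInt_Δ_ne_zero P) P.p
      P.freyCurve (Fermat.Agent.S04.freyCurveInt_map P) (s12cyc_freyCurve_Δ_ne_zero P)) K₁ hK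

end Fermat.Agent.S12

end
end ZBZ2S12_001_19

/-! ### bundled: `Fermat.Agent.S12.RamP` -/
section ZBZ2S12_001_20
/-
S12 glue, piece G-RAMP (helper1): `stmtRamP_of : StmtCyc → StmtRamP`.

At every place `A ∣ p` some `σ ∈ I_A` inverts the `p`-th roots of unity
(`S33.exists_inertia_inv_root`: `ℚ(ζ_p)` is totally ramified at `p`), so `cycloExp p σ = p - 1`
and `σ` acts on the cofixed line as `-1` (`HCyc`); `-x ≠ x` for `x ≠ 0` of odd order `p`.
-/

set_option autoImplicit false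

namespace Fermat.Agent.S12

open ExtCitation

/-- `ζ⁻¹ = ζ^(p-1)` for a `p`-th root of unity -/
theorem s12ramp_inv_eq_pow {p : ℕ} (hp : 0 < p) {ζ : Qb} (hζ : ζ ^ p = 1) :
    ζ⁻¹ = ζ ^ (p - 1) := by
  have : ζ * ζ ^ (p - 1) = 1 := by
    rw [← pow_succ', Nat.sub_add_cancel hp, hζ]
  exact inv_eq_of_mul_eq_one_right this

/-- if `σ` inverts the `p`-th roots of unity, then `cycloExp p σ = p - 1` -/
theorem s12ramp_cycloExp (p : ℕ) [Fact p.Prime] (σ : GQ)
    (hinv : ∀ μ : Qb, μ ^ p = 1 → σ μ = μ⁻¹) : cycloExp p σ = p - 1 := by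
  have hp : p.Prime := Fact.out
  have : NeZero p := ⟨hp.ne_zero⟩
  have : NeZero ((p : ℕ) : Qb) := ⟨Nat.cast_ne_zero.mpr hp.ne_zero⟩
  obtain ⟨ζ, hζ⟩ := HasEnoughRootsOfUnity.exists_primitiveRoot Qb p
  have hspec := modularCyclotomicCharacter.spec Qb (card_rootsOfUnity_eq_self p)
    (σ : Qb ≃+* Qb) (t := hζ.toRootsOfUnity) (SetLike.coe_mem hζ.toRootsOfUnity)
  have hspec' : σ ζ = ζ ^ cycloExp p σ := by
    simpa [cycloExp] using hspec
  rw [hinv ζ hζ.pow_eq_one, s12ramp_inv_eq_pow hp.pos hζ.pow_eq_one] at hspec'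
  have hlt : cycloExp p σ < p := by
    unfold cycloExp
    exact ZMod.val_lt _
  exact (hζ.pow_inj (Nat.sub_lt hp.pos Nat.one_pos) hlt hspec').symm

/-- the abstract form: `HCyc → HRamP` for an odd prime `p`. -/
theorem s12ramp_of_hcyc (M : Type) [AddCommGroup M] [DistribMulAction GQ M] (p : ℕ)
    [Fact p.Prime] (hp2 : p ≠ 2) (K₁ : AddSubgroup M) (hK : IsCofixedLine M p K₁)
    (hcyc : HCyc M p K₁) : HRamP M p K₁ := by
  have hp : p.Prime := Fact.out
  intro A hA
  obtain ⟨σ, hσ, hinv⟩ := Fermat.Agent.S33.exists_inertia_inv_root hp A hA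
  have hexp : cycloExp p σ = p - 1 := s12ramp_cycloExp p σ hinv
  -- a nonzero element of the line
  have hfin : Finite K₁ := Nat.finite_of_card_ne_zero (by rw [hK.card]; exact hp.ne_zero)
  have hnt : Nontrivial K₁ := by
    rw [← Finite.one_lt_card_iff_nontrivial, hK.card]
    exact hp.one_lt
  obtain ⟨x, hx⟩ := exists_ne (0 : K₁)
  have hx0 : (x : M) ≠ 0 := fun h => hx (Subtype.ext h)
  have hpx : p • (x : M) = 0 := by
    have h1 : Nat.card K₁ • x = 0 := card_nsmul_eq_zero'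
    rw [hK.card] at h1
    have h2 := congrArg (fun y : K₁ => (y : M)) h1
    simpa using h2
  refine ⟨σ, hσ, x, x.2, fun hfix => hx0 ?_⟩
  have h1 : σ • (x : M) = (p - 1) • (x : M) := by
    rw [hcyc σ x x.2, hexp]
  rw [hfix] at h1
  -- `x = (p - 1) • x`, `p • x = 0` ⇒ `2 • x = 0`
  have h2 : (2 : ℕ) • (x : M) = 0 := by
    have h3 : (x : M) + (p - 1) • (x : M) = 0 := by
      rw [← succ_nsmul', Nat.sub_add_cancel hp.one_le, hpx]
    rw [← h1] at h3
    rw [two_nsmul]
    exact h3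
  -- `gcd(2, p) = 1`
  have hodd : Odd p := hp.odd_of_ne_two hp2
  obtain ⟨k, hk⟩ := hodd
  have h4 : (2 * k + 1) • (x : M) = k • ((2 : ℕ) • (x : M)) + (x : M) := by
    rw [add_nsmul, one_nsmul, mul_nsmul]
  rw [← hk, hpx, h2, nsmul_zero, zero_add] at h4
  exact h4.symm

/-- **G-RAMP** from **G-CYC**. -/
theorem stmtRamP_of (hcyc : StmtCyc) : StmtRamP := by
  intro P K₁ hK
  have : Fact P.p.Prime := ⟨P.pp⟩
  have hp2 : P.p ≠ 2 := by
    have := P.hp5
    omega
  exact s12ramp_of_hcyc (Pt P) P.p hp2 K₁ hK (hcyc P K₁ hK)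

end Fermat.Agent.S12


end ZBZ2S12_001_20

/-! ### bundled: `Fermat.Agent.S12.U1` -/
section ZBZ2S12_001_21

/-!
# S12 glue, piece G-U1: inertia moves odd torsion inside the identity component

`W : WeierstrassCurve ℤ`, `ℓ` a prime of multiplicative reduction (`ℓ ∣ Δ`, `ℓ ∤ c₄`; also
`ℓ = 2`), `A` a valuation subring of `ℚ̄` over `ℓ`, `σ` in the inertia group of `A`, `R` a torsion
point of odd order prime to `ℓ`:  `σ • R - R` lies in the identity component at `A`
(`stmtU1 : StmtU1`).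

The bricks `RED/UnipFix.lean` (`sub_of_node`, `fix_of_nonsing`) and `RED/UnipTwo.lean`
(`two_sub_of_node`, `two_fix_of_nonsing`) show that `σ • R - R` is `0` or an integral point whose
`x`-coordinate is not congruent to the node; such a point has nonsingular reduction
(`s12u1_nsRes`).
-/

set_option autoImplicit false
set_option linter.unusedSectionVars false
set_option linter.unusedVariables false

namespace Fermat.Agent.S12

open WeierstrassCurve WeierstrassCurve.Affine Fermat.Agent.RED Fermat.Agent.S05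
  Fermat.Agent.S13 Fermat.Agent.EC Fermat.Agent.S15 Fermat.Agent.S15.ECL

/-- the residue of an element of valuation `1` is nonzero -/
theorem s12u1_residue_ne_zero (A : ValuationSubring Qb) (z : A)
    (hz : A.valuation (z : Qb) = 1) : IsLocalRing.residue A z ≠ 0 := by
  intro h0
  rw [IsLocalRing.residue_eq_zero_iff] at h0
  have := (A.valuation_lt_one_iff z).1 h0
  rw [hz] at this
  exact lt_irrefl _ this

/-- an integral point at which one of the two partial derivatives is a unit has nonsingular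
reduction -/
theorem s12u1_nsRes (W : WeierstrassCurve ℤ) (A : ValuationSubring Qb) {x y : Qb}
    (h : ((W.map (Int.castRingHom ℚ)).baseChange Qb).toAffine.Equation x y)
    (hx : x ∈ A) (hy : y ∈ A)
    (hns : A.valuation (polyY ((W.map (Int.castRingHom ℚ)).baseChange Qb) x y) = 1 ∨
      A.valuation (polyX ((W.map (Int.castRingHom ℚ)).baseChange Qb) x y) = 1) :
    (W.map (Int.castRingHom (IsLocalRing.ResidueField A))).toAffine.Nonsingular
      (IsLocalRing.residue A ⟨x, hx⟩) (IsLocalRing.residue A ⟨y, hy⟩) := by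
  have hK : (curveK A (modelA W A)).toAffine.Equation ((⟨x, hx⟩ : A) : Qb)
      ((⟨y, hy⟩ : A) : Qb) := by
    have e := baseChange_eq_curveK W A
    exact e ▸ h
  have hA := equation_of_coe A (modelA W A) hK
  have hk := hA.map (IsLocalRing.residue A)
  have hcurve := ecloc_curveRes_eq W A
  rw [Affine.nonsingular_iff']
  refine ⟨?_, ?_⟩
  · rw [← hcurve]; exact hk
  · simp only [WeierstrassCurve.map_a₁, WeierstrassCurve.map_a₂, WeierstrassCurve.map_a₃,
      WeierstrassCurve.map_a₄]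
    rcases hns with h1 | h1
    · right
      have e : IsLocalRing.residue A
          (2 * ⟨y, hy⟩ + ((W.a₁ : ℤ) : A) * ⟨x, hx⟩ + ((W.a₃ : ℤ) : A)) ≠ 0 := by
        apply s12u1_residue_ne_zero
        rw [← h1]
        congr 1
      intro h0
      apply e
      simp only [map_add, map_mul, map_ofNat, map_intCast]
      simp only [eq_intCast] at h0
      exact h0
    · left
      have e : IsLocalRing.residue A
          (3 * ⟨x, hx⟩ ^ 2 + 2 * ((W.a₂ : ℤ) : A) * ⟨x, hx⟩ + ((W.a₄ : ℤ) : A)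
            - ((W.a₁ : ℤ) : A) * ⟨y, hy⟩) ≠ 0 := by
        apply s12u1_residue_ne_zero
        rw [← h1]
        congr 1
      intro h0
      apply e
      simp only [map_sub, map_add, map_mul, map_pow, map_ofNat, map_intCast]
      simp only [eq_intCast] at h0
      linear_combination -h0

/-- **U1** at an odd prime of multiplicative reduction -/
theorem s12u1_odd (W : WeierstrassCurve ℤ) (hΔ0 : W.Δ ≠ 0) {ℓ : ℕ} (hℓ : ℓ.Prime)
    (hℓ2 : ℓ ≠ 2) (hbad : (ℓ : ℤ) ∣ W.Δ) (hc₄ : ¬ (ℓ : ℤ) ∣ W.c₄) (A : ValuationSubring Qb)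
    (hA : A.LiesOverPrime ℓ) {σ : GQ} (hσ : σ ∈ A.inertiaSubgroupIn ℚ) {n : ℕ} (hodd : Odd n)
    (hn : ¬ ℓ ∣ n) (R : PtZ W) (hR : n • R = 0) : W.InZeroComponentAt A (σ • R - R) := by
  have : Algebra.IsAlgebraic ℚ Qb := isAlgebraic_rat_qbar
  have h2 : A.valuation (2 : Qb) = 1 := valuation_two_eq_one A hℓ hA hℓ2
  have h₁ : ((W.map (Int.castRingHom ℚ)).baseChange Qb).a₁ ∈ A := by
    rw [unip_a₁]; exact intCast_mem A _
  have h₂ : ((W.map (Int.castRingHom ℚ)).baseChange Qb).a₂ ∈ A := by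
    rw [unip_a₂]; exact intCast_mem A _
  have h₃ : ((W.map (Int.castRingHom ℚ)).baseChange Qb).a₃ ∈ A := by
    rw [unip_a₃]; exact intCast_mem A _
  have h₄ : ((W.map (Int.castRingHom ℚ)).baseChange Qb).a₄ ∈ A := by
    rw [unip_a₄]; exact intCast_mem A _
  have h₆ : ((W.map (Int.castRingHom ℚ)).baseChange Qb).a₆ ∈ A := by
    rw [unip_a₆]; exact intCast_mem A _
  obtain ⟨hb₂, hb₄, hb₆, -⟩ := kernel_b_mem A h₁ h₂ h₃ h₄ h₆
  have hΔ0' : ((W.map (Int.castRingHom ℚ)).baseChange Qb).Δ ≠ 0 := by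
    rw [unip_Δ]; exact_mod_cast hΔ0
  have hΔv : A.valuation ((W.map (Int.castRingHom ℚ)).baseChange Qb).Δ < 1 := by
    rw [unip_Δ]; exact (valuation_intCast_lt_one_iff A hℓ hA _).2 hbad
  have hc₄v : A.valuation ((W.map (Int.castRingHom ℚ)).baseChange Qb).c₄ = 1 := by
    rw [unip_c₄]; exact (valuation_intCast_eq_one_iff A hℓ hA _).2 hc₄
  obtain ⟨r₁, e₂, e₃, hr, hr₁v, he₂, he₂0, he₃, he₂₃⟩ :=
    exists_rootData A.valuation ((W.map (Int.castRingHom ℚ)).baseChange Qb) h2
      ((A.valuation_le_one_iff _).2 hb₂) ((A.valuation_le_one_iff _).2 hb₄)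
      ((A.valuation_le_one_iff _).2 hb₆) hΔ0' hΔv hc₄v
  have hr₁ : r₁ ∈ A := (A.valuation_le_one_iff _).1 hr₁v
  have hn' : (n : Qb) ∉ A.nonunits := fun h => hn ((natCast_mem_nonunits_iff A hℓ hA n).1 h)
  rcases R with _ | ⟨x, y, h⟩
  · left
    show σ • (0 : PtZ W) - 0 = 0
    rw [galois_smul_zero, sub_zero]
  · have hxA : x ∈ A := no_torsion_of_not_mem A _ h₁ h₂ h₃ h₄ h₆ n hn' h hR
    have hs₁ : A.valuation (x - r₁) ≤ 1 := (A.valuation_le_one_iff _).2 (sub_mem hxA hr₁)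
    have hσn : n • (σ • (Point.some x y h : PtZ W)) = 0 := by
      have := Point.algEquiv_smul_zsmul σ (n : ℤ) (Point.some x y h : PtZ W)
      rw [natCast_zsmul, natCast_zsmul, hR] at this
      rw [← this]
      exact galois_smul_zero σ
    rcases hs₁.lt_or_eq with hlt | heq
    · rcases sub_of_node A hσ (W.map (Int.castRingHom ℚ)) h₁ h₂ h₃ h₄ h₆ h2 n hn' hodd hr hr₁
        he₂ he₂0 he₃ he₂₃ h hR hlt with hfix | ⟨x'', y'', h'', hQ, hu⟩
      · left
        exact sub_eq_zero_of_eq hfix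
      · right
        have htorsQ : n • (Point.some x'' y'' h'' : PtZ W) = 0 := by
          rw [← hQ, nsmul_sub, hσn, hR, sub_zero]
        have hxQ : x'' ∈ A := no_torsion_of_not_mem A _ h₁ h₂ h₃ h₄ h₆ n hn' h'' htorsQ
        have hyQ : y'' ∈ A := no_torsion_of_not_mem_y A _ h₁ h₂ h₃ h₄ h₆ n hn' h'' htorsQ
        refine ⟨x'', y'', h'', hQ, Or.inr ⟨hxQ, hyQ, ?_⟩⟩
        apply s12u1_nsRes W A h''.1 hxQ hyQ
        have hη_sq : eta ((W.map (Int.castRingHom ℚ)).baseChange Qb) x'' y'' ^ 2 =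
            4 * (x'' - r₁) * (x'' - r₁ - e₂) * (x'' - r₁ - e₃) := by
          rw [eta_sq _ h''.1, hr.cub_eq]
        have hdc := hr.dcub_eq x''
        have he₃A : e₃ ∈ A := (A.valuation_le_one_iff _).1 he₃.le
        have hs₃ : A.valuation (x'' - r₁ - e₃) ≤ 1 :=
          (A.valuation_le_one_iff _).2 (sub_mem (sub_mem hxQ hr₁) he₃A)
        have hs₂ : A.valuation (x'' - r₁ - e₂) = 1 := by
          rw [Valuation.map_sub_eq_of_lt_left _ (by rw [hu]; exact he₂), hu]
        have hns := hns_of_two_units A.valuation h2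
          (η := eta ((W.map (Int.castRingHom ℚ)).baseChange Qb) x'' y'')
          (c := 0) (d := dcub ((W.map (Int.castRingHom ℚ)).baseChange Qb) x'')
          (u₁ := x'' - r₁) (u₂ := x'' - r₁ - e₂)
          (s := x'' - r₁ - e₃) (hη_sq.trans (by ring)) (hdc.trans (by ring)) hu hs₂ hs₃
        have hηA : eta ((W.map (Int.castRingHom ℚ)).baseChange Qb) x'' y'' ∈ A := by
          simp only [eta]
          exact add_mem (add_mem (mul_mem (ofNat_mem A 2) hyQ) (mul_mem h₁ hxQ)) h₃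
        have hvη : A.valuation (eta ((W.map (Int.castRingHom ℚ)).baseChange Qb) x'' y'') ≤ 1 :=
          (A.valuation_le_one_iff _).2 hηA
        rcases hvη.lt_or_eq with hηlt | hηeq
        · right
          have hd1 : A.valuation (dcub ((W.map (Int.castRingHom ℚ)).baseChange Qb) x'') = 1 := by
            rcases hns with h1 | h1
            · exact absurd h1 hηlt.ne
            · exact h1
          have e : 2 * polyX ((W.map (Int.castRingHom ℚ)).baseChange Qb) x'' y'' =
              dcub ((W.map (Int.castRingHom ℚ)).baseChange Qb) x'' -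
                ((W.map (Int.castRingHom ℚ)).baseChange Qb).a₁ *
                  eta ((W.map (Int.castRingHom ℚ)).baseChange Qb) x'' y'' := by
            simp only [polyX, dcub, eta, WeierstrassCurve.b₂, WeierstrassCurve.b₄]
            ring
          have hlt' : A.valuation (((W.map (Int.castRingHom ℚ)).baseChange Qb).a₁ *
              eta ((W.map (Int.castRingHom ℚ)).baseChange Qb) x'' y'') < 1 := by
            rw [map_mul]
            calc A.valuation ((W.map (Int.castRingHom ℚ)).baseChange Qb).a₁ *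
                  A.valuation (eta ((W.map (Int.castRingHom ℚ)).baseChange Qb) x'' y'')
                ≤ 1 * A.valuation (eta ((W.map (Int.castRingHom ℚ)).baseChange Qb) x'' y'') :=
                  mul_le_mul' ((A.valuation_le_one_iff _).2 h₁) le_rfl
              _ = _ := one_mul _
              _ < 1 := hηlt
          have e2 := congrArg A.valuation e
          rw [map_mul, h2, one_mul,
            Valuation.map_sub_eq_of_lt_left _ (by rw [hd1]; exact hlt'), hd1] at e2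
          exact e2
        · left
          exact hηeq
    · left
      have hfix := fix_of_nonsing A hσ (W.map (Int.castRingHom ℚ)) h₁ h₂ h₃ h₄ h₆ h2 n hn' hr
        hr₁ he₂ he₃ h hR heq
      exact sub_eq_zero_of_eq hfix

/-- **U1** at `2` (multiplicative reduction) -/
theorem s12u1_two (W : WeierstrassCurve ℤ) (hΔ0 : W.Δ ≠ 0)
    (hbad : ((2 : ℕ) : ℤ) ∣ W.Δ) (hc₄ : ¬ ((2 : ℕ) : ℤ) ∣ W.c₄) (A : ValuationSubring Qb)
    (hA : A.LiesOverPrime 2) {σ : GQ} (hσ : σ ∈ A.inertiaSubgroupIn ℚ) {n : ℕ} (hodd : Odd n)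
    (R : PtZ W) (hR : n • R = 0) : W.InZeroComponentAt A (σ • R - R) := by
  have : Algebra.IsAlgebraic ℚ Qb := isAlgebraic_rat_qbar
  have hq : (2 : ℕ).Prime := Nat.prime_two
  have h2 : A.valuation (2 : Qb) < 1 := by
    have := (valuation_intCast_lt_one_iff A hq hA (2 : ℤ)).2 (by norm_num)
    simpa using this
  have h40 : (4 : Qb) ≠ 0 := by norm_num
  have h₁ : ((W.map (Int.castRingHom ℚ)).baseChange Qb).a₁ ∈ A := by
    rw [unip_a₁]; exact intCast_mem A _
  have h₂ : ((W.map (Int.castRingHom ℚ)).baseChange Qb).a₂ ∈ A := by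
    rw [unip_a₂]; exact intCast_mem A _
  have h₃ : ((W.map (Int.castRingHom ℚ)).baseChange Qb).a₃ ∈ A := by
    rw [unip_a₃]; exact intCast_mem A _
  have h₄ : ((W.map (Int.castRingHom ℚ)).baseChange Qb).a₄ ∈ A := by
    rw [unip_a₄]; exact intCast_mem A _
  have h₆ : ((W.map (Int.castRingHom ℚ)).baseChange Qb).a₆ ∈ A := by
    rw [unip_a₆]; exact intCast_mem A _
  have hΔ0' : ((W.map (Int.castRingHom ℚ)).baseChange Qb).Δ ≠ 0 := by
    rw [unip_Δ]; exact_mod_cast hΔ0
  have hΔv : A.valuation ((W.map (Int.castRingHom ℚ)).baseChange Qb).Δ < 1 := by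
    rw [unip_Δ]; exact (valuation_intCast_lt_one_iff A hq hA _).2 hbad
  have hb₂ : A.valuation ((W.map (Int.castRingHom ℚ)).baseChange Qb).b₂ = 1 := by
    rw [unip_b₂]
    refine (valuation_intCast_eq_one_iff A hq hA _).2 ?_
    intro hdvd
    apply hc₄
    have hc : W.c₄ = W.b₂ ^ 2 - 24 * W.b₄ := by rw [WeierstrassCurve.c₄]
    rw [hc]
    exact dvd_sub (dvd_pow hdvd two_ne_zero) (Dvd.dvd.mul_right (by norm_num) _)
  have hn' : (n : Qb) ∉ A.nonunits := fun h =>
    (Nat.not_even_iff_odd.2 hodd) (even_iff_two_dvd.2 ((natCast_mem_nonunits_iff A hq hA n).1 h))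
  obtain ⟨hb₂A, hb₄A, hb₆A, -⟩ := kernel_b_mem A h₁ h₂ h₃ h₄ h₆
  -- the point of order 2 at the node
  obtain ⟨xT, hvxT, hcub⟩ := two_exists_integral_root A.valuation h40 h2 hb₂
    ((A.valuation_le_one_iff _).2 hb₄A) ((A.valuation_le_one_iff _).2 hb₆A)
  have hxT : xT ∈ A := (A.valuation_le_one_iff _).1 hvxT
  have hT : TwoData ((W.map (Int.castRingHom ℚ)).baseChange Qb) xT
      (-(((W.map (Int.castRingHom ℚ)).baseChange Qb).a₁ * xT +
        ((W.map (Int.castRingHom ℚ)).baseChange Qb).a₃) / 2) :=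
    ⟨by field_simp; ring, hcub⟩
  rcases R with _ | ⟨x, y, h⟩
  · left
    show σ • (0 : PtZ W) - 0 = 0
    rw [galois_smul_zero, sub_zero]
  · have hxA : x ∈ A := no_torsion_of_not_mem A _ h₁ h₂ h₃ h₄ h₆ n hn' h hR
    have hs₁ : A.valuation (x - xT) ≤ 1 := (A.valuation_le_one_iff _).2 (sub_mem hxA hxT)
    have hσn : n • (σ • (Point.some x y h : PtZ W)) = 0 := by
      have := Point.algEquiv_smul_zsmul σ (n : ℤ) (Point.some x y h : PtZ W)
      rw [natCast_zsmul, natCast_zsmul, hR] at this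
      rw [← this]
      exact galois_smul_zero σ
    rcases hs₁.lt_or_eq with hlt | heq
    · rcases two_sub_of_node A hσ (W.map (Int.castRingHom ℚ)) h₁ h₂ h₃ h₄ h₆ h40 h2 hb₂ hΔ0'
        hΔv n hn' hodd hT hxT h hR hlt with hfix | ⟨x'', y'', h'', hQ, hu⟩
      · left
        exact sub_eq_zero_of_eq hfix
      · right
        have htorsQ : n • (Point.some x'' y'' h'' : PtZ W) = 0 := by
          rw [← hQ, nsmul_sub, hσn, hR, sub_zero]
        have hxQ : x'' ∈ A := no_torsion_of_not_mem A _ h₁ h₂ h₃ h₄ h₆ n hn' h'' htorsQ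
        have hyQ : y'' ∈ A := no_torsion_of_not_mem_y A _ h₁ h₂ h₃ h₄ h₆ n hn' h'' htorsQ
        refine ⟨x'', y'', h'', hQ, Or.inr ⟨hxQ, hyQ, ?_⟩⟩
        apply s12u1_nsRes W A h''.1 hxQ hyQ
        have hv₁ : A.valuation ((W.map (Int.castRingHom ℚ)).baseChange Qb).a₁ ≤ 1 :=
          (A.valuation_le_one_iff _).2 h₁
        have hv₂ : A.valuation ((W.map (Int.castRingHom ℚ)).baseChange Qb).a₂ ≤ 1 :=
          (A.valuation_le_one_iff _).2 h₂
        have hv₃ : A.valuation ((W.map (Int.castRingHom ℚ)).baseChange Qb).a₃ ≤ 1 :=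
          (A.valuation_le_one_iff _).2 h₃
        have hv₄ : A.valuation ((W.map (Int.castRingHom ℚ)).baseChange Qb).a₄ ≤ 1 :=
          (A.valuation_le_one_iff _).2 h₄
        have hv₆ : A.valuation ((W.map (Int.castRingHom ℚ)).baseChange Qb).a₆ ≤ 1 :=
          (A.valuation_le_one_iff _).2 h₆
        have hvyT := hT.val_y_le A.valuation h40 hv₁ hv₂ hv₃ hv₄ hv₆ hvxT
        obtain ⟨ha₂'', hb₂'', ha₄'', ha₄0''⟩ :=
          two_data A.valuation hT h40 h2 hv₁ hv₂ hv₃ hv₄ hv₆ hb₂ hΔ0' hΔv hvxT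
        have hvy : A.valuation y'' ≤ 1 := (A.valuation_le_one_iff _).2 hyQ
        obtain ⟨h''', -⟩ := two_vcEquiv_sub ((W.map (Int.castRingHom ℚ)).baseChange Qb) xT
          (-(((W.map (Int.castRingHom ℚ)).baseChange Qb).a₁ * xT +
            ((W.map (Int.castRingHom ℚ)).baseChange Qb).a₃) / 2) h''
        have ha₁'' : A.valuation (twoVC xT
            (-(((W.map (Int.castRingHom ℚ)).baseChange Qb).a₁ * xT +
              ((W.map (Int.castRingHom ℚ)).baseChange Qb).a₃) / 2) •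
                ((W.map (Int.castRingHom ℚ)).baseChange Qb)).a₁ ≤ 1 := by
          rw [twoVC_a₁]; exact hv₁
        have hns'' := nonsing_of_unit_x A.valuation hT.a₃_eq (hT.a₆_eq h40) ha₁'' ha₂'' hb₂''
          ha₄'' h'''.1 hu (A.valuation.map_sub_le hvy hvyT)
        rw [twoVC_polyY, twoVC_polyX] at hns''
        exact hns''
    · left
      have hfix := two_fix_of_nonsing A hσ (W.map (Int.castRingHom ℚ)) h₁ h₂ h₃ h₄ h₆ h40 h2
        hb₂ hΔ0' hΔv n hn' hT hxT h hR heq
      exact sub_eq_zero_of_eq hfix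

/-- **U1.** At a prime of multiplicative reduction (any `ℓ`, also `2`), inertia moves a torsion
point of odd order prime to `ℓ` inside the identity component. -/
theorem stmtU1 : StmtU1 := by
  intro W hΔ0 ℓ hℓ hbad hc₄ A hA σ hσ n hodd hn R hR
  by_cases hℓ2 : ℓ = 2
  · subst hℓ2
    exact s12u1_two W hΔ0 hbad hc₄ A hA hσ hodd R hR
  · exact s12u1_odd W hΔ0 hℓ hℓ2 hbad hc₄ A hA hσ hodd hn R hR

end Fermat.Agent.S12


end ZBZ2S12_001_21
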