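/- GENERATED FILE (helper35, build-time optimisation, NOTES/ZB.md): verbatim concatenation of the modules
   Fermat.Agent.S12.VeluAn
   Fermat.Agent.S12.VeluPlan
   Fermat.Agent.S12.VeluWp
   Fermat.Agent.S12.VeluG
   Fermat.Agent.S12.VeluLat
   Fermat.Agent.S12.VeluRoot
   Fermat.Agent.S12.VeluHalf
   Do not edit; do not import together with these modules. -/
import Mathlib

/-! ### bundled: `Fermat.Agent.S12.VeluAn` -/
section ZBZ2S12_003_0
/-
Item 12 (S12 glue), piece `VELU`, analytic part 1 (helper13): the Weierstrass functions of a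
lattice `L'` in terms of those of a sublattice `L` of finite index (the analytic form of Vélu's
formulas).

`S` a finite set of representatives of `L' / L`:
  `℘[L'] z = ∑_{s ∈ S} (℘[L] (z - s) - ℘[L] s)`,   `℘'[L'] z = ∑_{s ∈ S} ℘'[L] (z - s)`,
  `G_n(L') = ∑_{s ∈ S} ∑_{l ∈ L} (l + s)⁻ⁿ`  (`n ≥ 3`).
-/

set_option autoImplicit false

noncomputable section

namespace Fermat.Agent.S12

open PeriodPair

/-- `S` is a system of representatives of `L' / L` -/
structure VeluCosetReps (L L' : PeriodPair) (S : Finset ℂ) : Prop where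
  le : L.lattice ≤ L'.lattice
  mem : ∀ s ∈ S, s ∈ L'.lattice
  exists_rep : ∀ l' ∈ L'.lattice, ∃ s ∈ S, l' - s ∈ L.lattice
  unique_rep : ∀ s ∈ S, ∀ s' ∈ S, s - s' ∈ L.lattice → s = s'

variable {L L' : PeriodPair} {S : Finset ℂ}

/-- the bijection `S × L ≃ L'`, `(s, l) ↦ s + l` -/
def veluCosetEquiv (h : VeluCosetReps L L' S) : S × L.lattice ≃ L'.lattice :=
  Equiv.ofBijective (fun p => ⟨p.1.1 + p.2.1, add_mem (h.mem _ p.1.2) (h.le p.2.2)⟩) (by
    constructor
    · rintro ⟨⟨s, hs⟩, ⟨l, hl⟩⟩ ⟨⟨s', hs'⟩, ⟨l', hl'⟩⟩ heq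
      have h1 : s + l = s' + l' := congrArg Subtype.val heq
      have h2 : s - s' ∈ L.lattice := by
        have : s - s' = l' - l := by linear_combination h1
        rw [this]
        exact sub_mem hl' hl
      have h3 : s = s' := h.unique_rep s hs s' hs' h2
      subst h3
      have h4 : l = l' := by linear_combination h1
      subst h4
      rfl
    · rintro ⟨l', hl'⟩
      obtain ⟨s, hs, hsl⟩ := h.exists_rep l' hl'
      refine ⟨⟨⟨s, hs⟩, ⟨l' - s, hsl⟩⟩, ?_⟩
      apply Subtype.ext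
      show s + (l' - s) = l'
      ring)

@[simp] theorem veluCosetEquiv_apply (h : VeluCosetReps L L' S) (p : S × L.lattice) :
    ((veluCosetEquiv h p : L'.lattice) : ℂ) = p.1.1 + p.2.1 := rfl

/-- **Coset splitting** of a sum over `L'`. -/
theorem velu_tsum_cosets (h : VeluCosetReps L L' S) (f : ℂ → ℂ)
    (hf : Summable fun l' : L'.lattice => f l') :
    ∑' l' : L'.lattice, f l' = ∑ s ∈ S, ∑' l : L.lattice, f (s + l) := by
  have hf' : Summable fun p : S × L.lattice => f (p.1.1 + p.2.1) := by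
    have := (veluCosetEquiv h).summable_iff.mpr hf
    exact this
  rw [← (veluCosetEquiv h).tsum_eq (fun l' : L'.lattice => f l')]
  simp only [veluCosetEquiv_apply]
  rw [hf'.tsum_prod, tsum_fintype, ← Finset.sum_coe_sort S (fun s => ∑' l : L.lattice, f (s + l))]

/-- summability on each coset -/
theorem velu_summable_coset (h : VeluCosetReps L L' S) (f : ℂ → ℂ)
    (hf : Summable fun l' : L'.lattice => f l') {s : ℂ} (hs : s ∈ S) :
    Summable fun l : L.lattice => f (s + l) := by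
  have hf' : Summable fun p : S × L.lattice => f (p.1.1 + p.2.1) :=
    (veluCosetEquiv h).summable_iff.mpr hf
  exact hf'.prod_factor ⟨s, hs⟩

end Fermat.Agent.S12

end
end ZBZ2S12_003_0

/-! ### bundled: `Fermat.Agent.S12.VeluPlan` -/
section ZBZ2S12_003_1
/-
Item 12 (S12 glue), piece `VELU` (sub-captain helper13): interface of the Mathlib-only sub-pieces.
Design: `NOTES/S12-velu.md`.

Route: ANALYTIC Vélu.  `W` over `ℂ` is uniformised by `ℂ / L` (S15 MOD-ADD + MOD-UNIF); a finite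
subgroup `K` of odd order corresponds to a lattice `L' ⊇ L`, and Vélu's formulas are the expressions
of `℘_{L'}`, `℘'_{L'}`, `g₂(L')`, `g₃(L')` through `℘_L`, `℘'_L`, `g₂(L)`, `g₃(L)`.

| piece | Prop | file | needs |
|---|---|---|---|
| V-LATa | `StmtVeluWp` | `S12/VeluAn.lean` (helper13) | Mathlib |
| V-LATb | `StmtVeluG` | `S12/VeluG.lean` | Mathlib (+ `velu_tsum_cosets` of VeluAn) |
| V-LATc | `StmtVeluLat` | `S12/VeluLat.lean` | Mathlib |
| V-HALF | `StmtVeluHalf` | `S12/VeluHalf.lean` | Mathlib |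
| V-ROOT | `StmtVeluRoot` | `S12/VeluRoot.lean` | Mathlib |
| V-NODE | `StmtVeluNode` | `S12/VeluNode.lean` | Mathlib (+ S15/NodalCount) |
-/

set_option autoImplicit false

noncomputable section

namespace Fermat.Agent.S12

open PeriodPair WeierstrassCurve

/-- **V-LATa.**  `℘` and `℘'` of a lattice through those of a sublattice of finite index. -/
def StmtVeluWp : Prop :=
  ∀ (L L' : PeriodPair) (S : Finset ℂ), VeluCosetReps L L' S → ∀ z : ℂ,
    ℘[L'] z = ∑ s ∈ S, (℘[L] (z - s) - ℘[L] s) ∧ ℘'[L'] z = ∑ s ∈ S, ℘'[L] (z - s)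

/-- **V-LATb.**  `g₂` and `g₃` of a lattice through the values of `℘` of a sublattice of finite
index at the nontrivial coset representatives:
`∑_{l ∈ L} (s + l)⁻⁴ = ℘''(s)/6 = ℘(s)² - g₂/12`,
`∑_{l ∈ L} (s + l)⁻⁶ = ℘''''(s)/120 = ℘(s)³ - (3/20) g₂ ℘(s) - g₃/10`. -/
def StmtVeluG : Prop :=
  ∀ (L L' : PeriodPair) (S : Finset ℂ), VeluCosetReps L L' S → ∀ s₀ ∈ S, s₀ ∈ L.lattice →
    L'.g₂ = L.g₂ + ∑ s ∈ S.erase s₀, (60 * ℘[L] s ^ 2 - 5 * L.g₂) ∧
    L'.g₃ = L.g₃ + ∑ s ∈ S.erase s₀, (140 * ℘[L] s ^ 3 - 21 * L.g₂ * ℘[L] s - 14 * L.g₃)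

/-- **V-LATc.**  A subgroup of `ℂ` between `L` and `n⁻¹ L` is the lattice of a period pair, and
has a finite system of representatives modulo `L`. -/
def StmtVeluLat : Prop :=
  ∀ (L : PeriodPair) (Λ' : AddSubgroup ℂ) (n : ℕ), n ≠ 0 →
    (∀ z ∈ L.lattice, z ∈ Λ') → (∀ z ∈ Λ', (n : ℂ) * z ∈ L.lattice) →
    ∃ (L' : PeriodPair) (S : Finset ℂ), (∀ z, z ∈ L'.lattice ↔ z ∈ Λ') ∧ VeluCosetReps L L' S

/-- **V-HALF.**  A finite set stable under negation without elements of order `≤ 2` is the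
disjoint union of a half system and its negative. -/
def StmtVeluHalf : Prop :=
  ∀ (G : Type) [AddCommGroup G] [DecidableEq G] (K : Finset G),
    (∀ P ∈ K, -P ∈ K) → (∀ P ∈ K, P ≠ -P) →
    ∃ R : Finset G, Disjoint R (R.image Neg.neg) ∧ K = R ∪ R.image Neg.neg

/-- **V-ROOT.**  For the `m - 1` nontrivial `m`-th roots of unity `ζ` of a field in which
`m` is invertible (every characteristic), with `X = ζ / (1 - ζ)²`:
`120 ∑ (6 X² + X) = m⁴ - 1`.
(`12 ∑ X = -(m² - 1)`, `720 ∑ X² = (m² - 1)(m² + 11)`; Newton identities for `w = 1/(1 - ζ)`,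
the roots of `wᵐ - (w - 1)ᵐ`, `X = w² - w`.) -/
def StmtVeluRoot : Prop :=
  ∀ (k : Type) [Field k] (m : ℕ) (μ : Finset k), (m : k) ≠ 0 →
    (∀ ζ, ζ ∈ μ ↔ ζ ^ m = 1 ∧ ζ ≠ 1) → μ.card + 1 = m →
    120 * ∑ ζ ∈ μ, (6 * (ζ / (1 - ζ) ^ 2) ^ 2 + ζ / (1 - ζ) ^ 2) = (m : k) ^ 4 - 1

/-- **V-NODE.**  The group of nonsingular points of a nodal Weierstrass cubic over a field `k` of
characteristic `≠ 2` in which `c₄` is a square (`β² = c₄`): an injective homomorphism `ψ` to `kˣ`
with `(x - x₀) (1 - u)² = β u` for `u = ψ(x, y)`, where `x₀` is the `x`-coordinate of the node;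
moreover `6 x² + b₂ x + b₄ = 6 (x - x₀)² + β (x - x₀)`. -/
def StmtVeluNode : Prop :=
  ∀ (k : Type) [Field k] [DecidableEq k] (W : WeierstrassCurve k), (2 : k) ≠ 0 → W.Δ = 0 →
    W.c₄ ≠ 0 → ∀ β : k, β ^ 2 = W.c₄ →
    ∃ (x₀ : k) (ψ : W.toAffine.Point →+ Additive kˣ),
      W.c₄ * x₀ = 18 * W.b₆ - W.b₂ * W.b₄ ∧ Function.Injective ψ ∧
      (∀ x : k, 6 * x ^ 2 + W.b₂ * x + W.b₄ = 6 * (x - x₀) ^ 2 + β * (x - x₀)) ∧
      ∀ (x y : k) (h : W.toAffine.Nonsingular x y),
        (x - x₀) * (1 - ((Additive.toMul (ψ (.some x y h)) : kˣ) : k)) ^ 2 =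
          β * ((Additive.toMul (ψ (.some x y h)) : kˣ) : k)

end Fermat.Agent.S12

end
end ZBZ2S12_003_1

/-! ### bundled: `Fermat.Agent.S12.VeluWp` -/
section ZBZ2S12_003_2
/-
Item 12 (S12 glue), piece `VELU` / V-LATa (helper13): the Weierstrass functions of a lattice `L'`
through those of a sublattice `L` of finite index.  Mathlib only.
-/

set_option autoImplicit false

noncomputable section

namespace Fermat.Agent.S12

open PeriodPair

/-- **V-LATa.** -/
theorem stmtVeluWp : StmtVeluWp := by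
  intro L L' S h z
  constructor
  · have hsum : Summable fun l' : L'.lattice =>
        (fun w : ℂ => 1 / (z - w) ^ 2 - 1 / w ^ 2) (l' : ℂ) :=
      (L'.hasSum_weierstrassP z).summable
    have h1 : ℘[L'] z =
        ∑' l' : L'.lattice, (fun w : ℂ => 1 / (z - w) ^ 2 - 1 / w ^ 2) (l' : ℂ) :=
      (L'.hasSum_weierstrassP z).tsum_eq.symm
    have h2 := velu_tsum_cosets h (fun w : ℂ => 1 / (z - w) ^ 2 - 1 / w ^ 2) hsum
    rw [h1, h2]
    refine Finset.sum_congr rfl fun s _ => ?_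
    have hA := L.hasSum_weierstrassP (z - s)
    have hB := L.hasSum_weierstrassP (-s)
    have hC := hA.sub hB
    rw [weierstrassP_neg] at hC
    rw [← hC.tsum_eq]
    refine tsum_congr fun l => ?_
    have e1 : z - (s + (l : ℂ)) = z - s - l := by ring
    have e2 : (-s - (l : ℂ)) ^ 2 = (s + l) ^ 2 := by ring
    simp only [e1, e2]
    ring
  · have hsum : Summable fun l' : L'.lattice => (fun w : ℂ => - 2 / (z - w) ^ 3) (l' : ℂ) :=
      (L'.hasSum_derivWeierstrassP z).summable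
    have h1 : ℘'[L'] z = ∑' l' : L'.lattice, (fun w : ℂ => - 2 / (z - w) ^ 3) (l' : ℂ) :=
      (L'.hasSum_derivWeierstrassP z).tsum_eq.symm
    have h2 := velu_tsum_cosets h (fun w : ℂ => - 2 / (z - w) ^ 3) hsum
    rw [h1, h2]
    refine Finset.sum_congr rfl fun s _ => ?_
    rw [← (L.hasSum_derivWeierstrassP (z - s)).tsum_eq]
    refine tsum_congr fun l => ?_
    have e1 : z - (s + (l : ℂ)) = z - s - l := by ring
    simp only [e1]

end Fermat.Agent.S12

end
end ZBZ2S12_003_2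

/-! ### bundled: `Fermat.Agent.S12.VeluG` -/
section ZBZ2S12_003_3

/-!
# S12 glue, piece VELU / **V-LATb** (helper56): `stmtVeluG : StmtVeluG`

`g₂`, `g₃` of a lattice `L'` through the values of `℘_L` at the nontrivial coset representatives
of `L' / L`.  Mathlib only (+ `velu_tsum_cosets`).

* `velug_P2`, `velug_P3`, `velug_P4` : `℘'' = 6℘² - g₂/2`, `℘''' = 12 ℘ ℘'`,
  `℘'''' = 120 ℘³ - 18 g₂ ℘ - 12 g₃` off the lattice (from Mathlib's `derivWeierstrassP_sq`;
  the factor `℘'` is removed by the identity theorem on the connected set `ℂ ∖ L`,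
  `℘' ≢ 0` because `℘` has a pole of order `2`);
* `velug_sum4`, `velug_sum6` : `∑_l (l - x)⁻⁴ = ℘(x)² - g₂/12`,
  `∑_l (l - x)⁻⁶ = ℘(x)³ - (3/20) g₂ ℘(x) - g₃/10` for `x ∉ L`
  (Mathlib's `iteratedDeriv_weierstrassPExcept_self`);
* `velug_G` : `G_n(L') = G_n(L) + ∑_{s ≠ s₀} ∑_l (l + s)⁻ⁿ`.
-/

set_option autoImplicit false

noncomputable section

namespace Fermat.Agent.S12

open PeriodPair Filter Topology

variable (L : PeriodPair)

/-! ## the differential equations of `℘` -/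

theorem velug_isOpen : IsOpen ((L.lattice : Set ℂ)ᶜ) := L.isClosed_lattice.isOpen_compl

theorem velug_isPreconnected : IsPreconnected ((L.lattice : Set ℂ)ᶜ) :=
  (Set.Countable.isConnected_compl_of_one_lt_rank (by simp)
    (countable_of_Lindelof_of_discrete (X := L.lattice))).2

theorem velug_mem_nhds {x : ℂ} (hx : x ∉ L.lattice) : ((L.lattice : Set ℂ)ᶜ) ∈ 𝓝 x :=
  (velug_isOpen L).mem_nhds hx

theorem velug_hasDerivAt_P {x : ℂ} (hx : x ∉ L.lattice) : HasDerivAt ℘[L] (℘'[L] x) x := by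
  have h := (L.differentiableOn_weierstrassP.differentiableAt (velug_mem_nhds L hx)).hasDerivAt
  rwa [L.deriv_weierstrassP] at h

theorem velug_hasDerivAt_P1 {x : ℂ} (hx : x ∉ L.lattice) :
    HasDerivAt ℘'[L] (deriv ℘'[L] x) x :=
  (L.differentiableOn_derivWeierstrassP.differentiableAt (velug_mem_nhds L hx)).hasDerivAt

/-- `℘'` does not vanish identically off the lattice -/
theorem velug_P1_not_zero : ¬ ∀ z ∈ ((L.lattice : Set ℂ)ᶜ), ℘'[L] z = 0 := by
  intro h
  obtain ⟨a, ha⟩ := (velug_isOpen L).exists_is_const_of_deriv_eq_zero (velug_isPreconnected L)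
    L.differentiableOn_weierstrassP (fun z hz => by
      rw [L.deriv_weierstrassP]
      exact h z hz)
  have hord := L.order_weierstrassP 0 (zero_mem _)
  have hcongr : ℘[L] =ᶠ[𝓝[≠] (0 : ℂ)] fun _ => a := by
    have h1 : ((L.lattice : Set ℂ) \ {0})ᶜ ∈ 𝓝 (0 : ℂ) :=
      L.compl_lattice_sdiff_singleton_mem_nhds 0
    have h2 : ((L.lattice : Set ℂ) \ {0})ᶜ ∩ {0}ᶜ ∈ 𝓝[≠] (0 : ℂ) :=
      inter_mem (mem_nhdsWithin_of_mem_nhds h1) self_mem_nhdsWithin
    filter_upwards [h2] with z hz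
    apply ha
    intro hzL
    exact hz.1 ⟨hzL, hz.2⟩
  rw [meromorphicOrderAt_congr hcongr] at hord
  classical
  rw [meromorphicOrderAt_const] at hord
  split_ifs at hord
  · exact absurd hord (WithTop.top_ne_coe (a := (-2 : ℤ)))
  · have h3 : (0 : WithTop ℤ) ≠ ((-2 : ℤ) : WithTop ℤ) := by
      intro h4
      have := WithTop.coe_injective (a₁ := (0 : ℤ)) (a₂ := (-2 : ℤ)) h4
      omega
    exact h3 hord

/-- `℘'' = 6 ℘² - g₂/2` off the lattice -/
theorem velug_P2 {x : ℂ} (hx : x ∉ L.lattice) :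
    deriv ℘'[L] x = 6 * ℘[L] x ^ 2 - L.g₂ / 2 := by
  have hmul : ∀ z ∈ ((L.lattice : Set ℂ)ᶜ),
      ℘'[L] z * (2 * deriv ℘'[L] z - 12 * ℘[L] z ^ 2 + L.g₂) = 0 := by
    intro z hz
    have hP := velug_hasDerivAt_P L hz
    have hP1 := velug_hasDerivAt_P1 L hz
    have h1 : HasDerivAt (fun w => ℘'[L] w ^ 2) (2 * ℘'[L] z * deriv ℘'[L] z) z := by
      have := hP1.fun_pow 2
      simpa using this
    have h2 : HasDerivAt (fun w => 4 * ℘[L] w ^ 3 - L.g₂ * ℘[L] w - L.g₃)
        (4 * (3 * ℘[L] z ^ 2 * ℘'[L] z) - L.g₂ * ℘'[L] z) z := by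
      have h3 := ((hP.fun_pow 3).const_mul 4).sub (hP.const_mul L.g₂)
      have h4 := h3.sub_const L.g₃
      simpa using h4
    have heq : (fun w => ℘'[L] w ^ 2) =ᶠ[𝓝 z] fun w => 4 * ℘[L] w ^ 3 - L.g₂ * ℘[L] w - L.g₃ := by
      filter_upwards [velug_mem_nhds L hz] with w hw
      exact L.derivWeierstrassP_sq w hw
    have h5 := (h1.congr_of_eventuallyEq heq.symm).unique h2
    linear_combination h5
  have han1 : AnalyticOnNhd ℂ ℘'[L] ((L.lattice : Set ℂ)ᶜ) := L.analyticOnNhd_derivWeierstrassP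
  have han0 : AnalyticOnNhd ℂ ℘[L] ((L.lattice : Set ℂ)ᶜ) := L.analyticOnNhd_weierstrassP
  have han2 : AnalyticOnNhd ℂ (deriv ℘'[L]) ((L.lattice : Set ℂ)ᶜ) := han1.deriv
  have hang : AnalyticOnNhd ℂ (fun z => 2 * deriv ℘'[L] z - 12 * ℘[L] z ^ 2 + L.g₂)
      ((L.lattice : Set ℂ)ᶜ) := by
    intro z hz
    have a0 := han0 z hz
    have a2 := han2 z hz
    fun_prop
  rcases AnalyticOnNhd.eq_zero_or_eq_zero_of_mul_eq_zero han1 hang hmul
    (velug_isPreconnected L) with h | h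
  · exact absurd h (velug_P1_not_zero L)
  · have := h x hx
    linear_combination this / 2


/-- the third derivative: `12 ℘ ℘'` off the lattice -/
theorem velug_P3 {x : ℂ} (hx : x ∉ L.lattice) :
    deriv (deriv ℘'[L]) x = 12 * ℘[L] x * ℘'[L] x := by
  have heq : deriv ℘'[L] =ᶠ[𝓝 x] fun z => 6 * ℘[L] z ^ 2 - L.g₂ / 2 := by
    filter_upwards [velug_mem_nhds L hx] with z hz
    exact velug_P2 L hz
  rw [heq.deriv_eq]
  have hP := velug_hasDerivAt_P L hx
  have h1 : HasDerivAt (fun z => 6 * ℘[L] z ^ 2 - L.g₂ / 2) (6 * (2 * ℘[L] x * ℘'[L] x)) x := by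
    have h2 := ((hP.fun_pow 2).const_mul 6).sub_const (L.g₂ / 2)
    simpa using h2
  rw [h1.deriv]
  ring

/-- the fourth derivative: `120 ℘³ - 18 g₂ ℘ - 12 g₃` off the lattice -/
theorem velug_P4 {x : ℂ} (hx : x ∉ L.lattice) :
    deriv (deriv (deriv ℘'[L])) x = 120 * ℘[L] x ^ 3 - 18 * L.g₂ * ℘[L] x - 12 * L.g₃ := by
  have heq : deriv (deriv ℘'[L]) =ᶠ[𝓝 x] fun z => 12 * ℘[L] z * ℘'[L] z := by
    filter_upwards [velug_mem_nhds L hx] with z hz
    exact velug_P3 L hz
  rw [heq.deriv_eq]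
  have hP := velug_hasDerivAt_P L hx
  have hP1 := velug_hasDerivAt_P1 L hx
  have h1 : HasDerivAt (fun z => 12 * ℘[L] z * ℘'[L] z)
      (12 * ℘'[L] x * ℘'[L] x + 12 * ℘[L] x * deriv ℘'[L] x) x :=
    (hP.const_mul 12).mul hP1
  rw [h1.deriv, velug_P2 L hx]
  have hode := L.derivWeierstrassP_sq x hx
  linear_combination 12 * hode

/-- the iterated derivatives of `℘` off the lattice as lattice sums -/
theorem velug_iteratedDeriv {x : ℂ} (hx : x ∉ L.lattice) (n : ℕ) (hn : n ≠ 0) :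
    iteratedDeriv n ℘[L] x = (n + 1).factorial * L.sumInvPow x (n + 2) := by
  have h := L.iteratedDeriv_weierstrassPExcept_self x (n := n)
  rw [L.weierstrassPExcept_of_notMem x hx, if_neg hn] at h
  exact h

/-- `∑ (l - x)⁻⁴ = ℘(x)² - g₂/12` -/
theorem velug_sum4 {x : ℂ} (hx : x ∉ L.lattice) :
    L.sumInvPow x 4 = ℘[L] x ^ 2 - L.g₂ / 12 := by
  have h1 := velug_iteratedDeriv L hx 2 (by norm_num)
  have h2 : iteratedDeriv 2 ℘[L] x = deriv ℘'[L] x := by
    rw [iteratedDeriv_succ, iteratedDeriv_one, L.deriv_weierstrassP]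
  rw [h2, velug_P2 L hx] at h1
  have h3 : ((2 + 1).factorial : ℂ) = 6 := by norm_num [Nat.factorial]
  rw [h3] at h1
  linear_combination -h1 / 6

/-- `∑ (l - x)⁻⁶ = ℘(x)³ - (3/20) g₂ ℘(x) - g₃/10` -/
theorem velug_sum6 {x : ℂ} (hx : x ∉ L.lattice) :
    L.sumInvPow x 6 = ℘[L] x ^ 3 - 3 / 20 * L.g₂ * ℘[L] x - L.g₃ / 10 := by
  have h1 := velug_iteratedDeriv L hx 4 (by norm_num)
  have h2 : iteratedDeriv 4 ℘[L] x = deriv (deriv (deriv ℘'[L])) x := by
    rw [iteratedDeriv_succ, iteratedDeriv_succ, iteratedDeriv_succ, iteratedDeriv_one,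
      L.deriv_weierstrassP]
  rw [h2, velug_P4 L hx] at h1
  have h3 : ((4 + 1).factorial : ℂ) = 120 := by norm_num [Nat.factorial]
  rw [h3] at h1
  linear_combination -h1 / 120

/-! ## the coset sums -/

variable {L}
variable {L' : PeriodPair} {S : Finset ℂ}

theorem velug_summable (n : ℕ) (hn : 2 < n) :
    Summable fun l' : L'.lattice => (fun z : ℂ => (z ^ n)⁻¹) l' := by
  have h := (L'.hasSum_sumInvPow 0 hn).summable
  simpa using h

/-- the sum over the trivial coset -/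
theorem velug_coset_mem (n : ℕ) {s : ℂ} (hs : s ∈ L.lattice) :
    ∑' l : L.lattice, (((s + (l : ℂ)) ^ n)⁻¹) = L.G n := by
  unfold PeriodPair.G
  have h := (Equiv.addLeft (⟨s, hs⟩ : L.lattice)).tsum_eq (fun l : L.lattice => (((l : ℂ)) ^ n)⁻¹)
  rw [← h]
  rfl

/-- the sum over a nontrivial coset -/
theorem velug_coset_notMem (n : ℕ) (s : ℂ) :
    ∑' l : L.lattice, (((s + (l : ℂ)) ^ n)⁻¹) = L.sumInvPow (-s) n := by
  unfold PeriodPair.sumInvPow
  refine tsum_congr fun l => ?_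
  rw [sub_neg_eq_add, add_comm]

theorem velug_G (h : VeluCosetReps L L' S) {s₀ : ℂ} (hs₀ : s₀ ∈ S) (hs₀L : s₀ ∈ L.lattice)
    (n : ℕ) (hn : 2 < n) :
    L'.G n = L.G n + ∑ s ∈ S.erase s₀, L.sumInvPow (-s) n := by
  have h1 : L'.G n = ∑ s ∈ S, ∑' l : L.lattice, (((s + (l : ℂ)) ^ n)⁻¹) := by
    unfold PeriodPair.G
    exact velu_tsum_cosets h (fun z : ℂ => (z ^ n)⁻¹) (velug_summable n hn)
  rw [h1, ← Finset.add_sum_erase S _ hs₀, velug_coset_mem n hs₀L]
  congr 1
  exact Finset.sum_congr rfl fun s _ => velug_coset_notMem n s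

theorem velug_notMem (h : VeluCosetReps L L' S) {s₀ : ℂ} (hs₀ : s₀ ∈ S) (hs₀L : s₀ ∈ L.lattice)
    {s : ℂ} (hs : s ∈ S.erase s₀) : -s ∉ L.lattice := by
  intro hmem
  have hsL : s ∈ L.lattice := by
    have := neg_mem hmem
    simpa using this
  have h1 : s = s₀ := h.unique_rep s (Finset.mem_of_mem_erase hs) s₀ hs₀ (sub_mem hsL hs₀L)
  exact (Finset.ne_of_mem_erase hs) h1

/-- **V-LATb.** -/
theorem stmtVeluG : StmtVeluG := by
  intro L L' S h s₀ hs₀ hs₀L
  constructor
  · unfold PeriodPair.g₂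
    rw [velug_G h hs₀ hs₀L 4 (by norm_num), mul_add, Finset.mul_sum]
    congr 1
    refine Finset.sum_congr rfl fun s hs => ?_
    rw [velug_sum4 L (velug_notMem h hs₀ hs₀L hs), L.weierstrassP_neg]
    unfold PeriodPair.g₂
    ring
  · unfold PeriodPair.g₃
    rw [velug_G h hs₀ hs₀L 6 (by norm_num), mul_add, Finset.mul_sum]
    congr 1
    refine Finset.sum_congr rfl fun s hs => ?_
    rw [velug_sum6 L (velug_notMem h hs₀ hs₀L hs), L.weierstrassP_neg]
    unfold PeriodPair.g₂ PeriodPair.g₃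
    ring

end Fermat.Agent.S12

end
end ZBZ2S12_003_3

/-! ### bundled: `Fermat.Agent.S12.VeluLat` -/
section ZBZ2S12_003_4
/-
# S12 / VELU / V-LATc (helper56)

`stmtVeluLat : StmtVeluLat`: a subgroup of `ℂ` between `L` and `n⁻¹ L` is the lattice of a period
pair (ZLattice API: discrete + spanning gives a ℤ-basis of two ℝ-independent vectors), with the
finite system of representatives `(a ω₁ + b ω₂) / n`, `0 ≤ a, b < n`, that lie in it.
-/

set_option autoImplicit false

noncomputable section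

namespace Fermat.Agent.S12

open PeriodPair Module

/-- the submodule of a subgroup between `L` and `n⁻¹ L` is discrete -/
theorem velulat_discrete (L : PeriodPair) (M : Submodule ℤ ℂ) (n : ℕ) (hn : n ≠ 0)
    (h2 : ∀ z ∈ M, (n : ℂ) * z ∈ L.lattice) : DiscreteTopology M := by
  have hinj : Function.Injective (fun z : ℂ => (n : ℂ) * z) := by
    intro x y hxy
    exact mul_left_cancel₀ (Nat.cast_ne_zero.mpr hn) hxy
  have hcont : Continuous (fun z : ℂ => (n : ℂ) * z) := by fun_prop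
  have h0 : DiscreteTopology ((L.lattice : Set ℂ)) := inferInstanceAs (DiscreteTopology L.lattice)
  have h3 : DiscreteTopology ((fun z : ℂ => (n : ℂ) * z) ⁻¹' (L.lattice : Set ℂ)) :=
    DiscreteTopology.preimage_of_continuous_injective (L.lattice : Set ℂ) hcont hinj
  exact DiscreteTopology.of_subset h3 (fun z hz => h2 z hz)

/-- a lattice containing `L.lattice`, contained in `n⁻¹ L.lattice`, is the lattice of a period
pair -/
theorem velulat_pair (L : PeriodPair) (M : Submodule ℤ ℂ) (n : ℕ) (hn : n ≠ 0)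
    (h1 : L.lattice ≤ M) (h2 : ∀ z ∈ M, (n : ℂ) * z ∈ L.lattice) :
    ∃ L' : PeriodPair, L'.lattice = M := by
  have : DiscreteTopology M := velulat_discrete L M n hn h2
  have : IsZLattice ℝ M := ⟨by
    rw [eq_top_iff, ← (inferInstance : IsZLattice ℝ L.lattice).span_top]
    exact Submodule.span_mono h1⟩
  have : Module.Finite ℤ M := ZLattice.module_finite ℝ M
  have : Module.Free ℤ M := ZLattice.module_free ℝ M
  have hrank : finrank ℤ M = 2 := by
    rw [ZLattice.rank ℝ M, Complex.finrank_real_complex]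
  let b : Basis (Fin 2) ℤ M := Module.finBasisOfFinrankEq ℤ M hrank
  let b' : Basis (Fin 2) ℝ ℂ := b.ofZLatticeBasis ℝ M
  have hb' : (⇑b' : Fin 2 → ℂ) = ![(b 0 : ℂ), (b 1 : ℂ)] := by
    funext i
    fin_cases i
    · simp [b']
    · simp [b']
  have hind : LinearIndependent ℝ ![(b 0 : ℂ), (b 1 : ℂ)] := by
    rw [← hb']
    exact b'.linearIndependent
  refine ⟨⟨b 0, b 1, hind⟩, ?_⟩
  have hspan : Submodule.span ℤ (Set.range b') = M := b.ofZLatticeBasis_span ℝ
  refine Eq.trans ?_ hspan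
  rw [hb']
  show Submodule.span ℤ {(b 0 : ℂ), (b 1 : ℂ)} = _
  congr 1
  ext z
  simp only [Set.mem_insert_iff, Set.mem_singleton_iff, Set.mem_range]
  constructor
  · rintro (rfl | rfl)
    · exact ⟨0, rfl⟩
    · exact ⟨1, rfl⟩
  · rintro ⟨i, rfl⟩
    fin_cases i
    · left; rfl
    · right; rfl


/-- the candidate representatives `(a ω₁ + b ω₂) / n`, `0 ≤ a, b < n` -/
def velulatPt (L : PeriodPair) (n : ℕ) (p : ℕ × ℕ) : ℂ :=
  ((p.1 : ℂ) * L.ω₁ + (p.2 : ℂ) * L.ω₂) / n

/-- two candidates congruent modulo `L` are equal -/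
theorem velulat_unique (L : PeriodPair) (n : ℕ) (hn : n ≠ 0) (p q : ℕ × ℕ)
    (hp1 : p.1 < n) (hp2 : p.2 < n) (hq1 : q.1 < n) (hq2 : q.2 < n)
    (h : velulatPt L n p - velulatPt L n q ∈ L.lattice) : p = q := by
  have hn' : (n : ℂ) ≠ 0 := Nat.cast_ne_zero.mpr hn
  have hnQ : (n : ℚ) ≠ 0 := Nat.cast_ne_zero.mpr hn
  have key : velulatPt L n p - velulatPt L n q =
      (((((p.1 : ℤ) - q.1 : ℤ) : ℚ) / n : ℚ) : ℂ) * L.ω₁ +
        (((((p.2 : ℤ) - q.2 : ℤ) : ℚ) / n : ℚ) : ℂ) * L.ω₂ := by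
    unfold velulatPt
    push_cast
    field_simp
    ring
  rw [key, mul_ω₁_add_mul_ω₂_mem_lattice] at h
  have aux : ∀ a b : ℕ, a < n → b < n → ((((a : ℤ) - b : ℤ) : ℚ) / n : ℚ).den = 1 → a = b := by
    intro a b ha hb hden
    obtain ⟨c, hc⟩ : ∃ c : ℤ, ((((a : ℤ) - b : ℤ) : ℚ) / n : ℚ) = c :=
      ⟨_, ((Rat.den_eq_one_iff _).mp hden).symm⟩
    have h1 : (((a : ℤ) - b : ℤ) : ℚ) = ((c * n : ℤ) : ℚ) := by
      push_cast
      field_simp at hc
      push_cast at hc
      linarith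
    have h2 : (a : ℤ) - b = c * n := by exact_mod_cast h1
    have h3 : c = 0 := by
      have hn0 : (0 : ℤ) < n := by exact_mod_cast Nat.pos_of_ne_zero hn
      have ha' : (a : ℤ) < n := by exact_mod_cast ha
      have hb' : (b : ℤ) < n := by exact_mod_cast hb
      have ha0 : (0 : ℤ) ≤ a := Int.natCast_nonneg a
      have hb0 : (0 : ℤ) ≤ b := Int.natCast_nonneg b
      by_contra hc0
      rcases lt_or_gt_of_ne hc0 with hlt | hgt
      · have : c ≤ -1 := by omega
        nlinarith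
      · have : 1 ≤ c := by omega
        nlinarith
    rw [h3, zero_mul] at h2
    omega
  exact Prod.ext (aux _ _ hp1 hq1 h.1) (aux _ _ hp2 hq2 h.2)

/-- every element of `n⁻¹ L` is congruent modulo `L` to a candidate -/
theorem velulat_exists (L : PeriodPair) (n : ℕ) (hn : n ≠ 0) (z : ℂ)
    (hz : (n : ℂ) * z ∈ L.lattice) :
    ∃ p : ℕ × ℕ, p.1 < n ∧ p.2 < n ∧ z - velulatPt L n p ∈ L.lattice := by
  have hn' : (n : ℂ) ≠ 0 := Nat.cast_ne_zero.mpr hn
  have hn0 : (0 : ℤ) < n := by exact_mod_cast Nat.pos_of_ne_zero hn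
  have hnz : (n : ℤ) ≠ 0 := hn0.ne'
  obtain ⟨a, b, hab⟩ := mem_lattice.mp hz
  have ha0 : 0 ≤ a % n := Int.emod_nonneg a hnz
  have hb0 : 0 ≤ b % n := Int.emod_nonneg b hnz
  have ha1 : a % n < n := Int.emod_lt_of_pos a hn0
  have hb1 : b % n < n := Int.emod_lt_of_pos b hn0
  refine ⟨((a % n).toNat, (b % n).toNat), by simp only; omega, by simp only; omega, ?_⟩
  have hda : (a : ℂ) = (n : ℂ) * ((a / n : ℤ) : ℂ) + (((a % n).toNat : ℕ) : ℂ) := by
    have h1 : ((((a % n).toNat : ℕ) : ℤ)) = a % n := Int.toNat_of_nonneg ha0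
    have h2 : a = n * (a / n) + a % n := (Int.mul_ediv_add_emod a n).symm
    have h3 : (((a % n).toNat : ℕ) : ℂ) = ((a % n : ℤ) : ℂ) := by
      rw [← h1]; push_cast; rfl
    rw [h3]
    exact_mod_cast congrArg (fun t : ℤ => (t : ℂ)) h2
  have hdb : (b : ℂ) = (n : ℂ) * ((b / n : ℤ) : ℂ) + (((b % n).toNat : ℕ) : ℂ) := by
    have h1 : ((((b % n).toNat : ℕ) : ℤ)) = b % n := Int.toNat_of_nonneg hb0
    have h2 : b = n * (b / n) + b % n := (Int.mul_ediv_add_emod b n).symm
    have h3 : (((b % n).toNat : ℕ) : ℂ) = ((b % n : ℤ) : ℂ) := by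
      rw [← h1]; push_cast; rfl
    rw [h3]
    exact_mod_cast congrArg (fun t : ℤ => (t : ℂ)) h2
  have key : z - velulatPt L n ((a % n).toNat, (b % n).toNat) =
      ((a / n : ℤ) : ℂ) * L.ω₁ + ((b / n : ℤ) : ℂ) * L.ω₂ := by
    unfold velulatPt
    simp only
    field_simp
    linear_combination (-1 : ℂ) * hab + L.ω₁ * hda + L.ω₂ * hdb
  rw [key]
  exact mem_lattice.mpr ⟨_, _, rfl⟩

/-- **V-LATc.** -/
theorem stmtVeluLat : StmtVeluLat := by
  classical
  intro L Λ' n hn h1 h2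
  obtain ⟨L', hL'⟩ := velulat_pair L (AddSubgroup.toIntSubmodule Λ') n hn
    (fun z hz => h1 z hz) (fun z hz => h2 z hz)
  have hmem : ∀ z, z ∈ L'.lattice ↔ z ∈ Λ' := by
    intro z
    rw [hL']
    exact Iff.rfl
  refine ⟨L', ((Finset.range n ×ˢ Finset.range n).image (velulatPt L n)).filter (· ∈ Λ'),
    hmem, ?_⟩
  refine ⟨fun z hz => (hmem z).2 (h1 z hz), ?_, ?_, ?_⟩
  · intro s hs
    rw [Finset.mem_filter] at hs
    exact (hmem s).2 hs.2
  · intro l' hl'
    have hl'' : l' ∈ Λ' := (hmem l').1 hl'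
    obtain ⟨p, hp1, hp2, hp⟩ := velulat_exists L n hn l' (h2 l' hl'')
    refine ⟨velulatPt L n p, ?_, hp⟩
    rw [Finset.mem_filter, Finset.mem_image]
    refine ⟨⟨p, ?_, rfl⟩, ?_⟩
    · rw [Finset.mem_product, Finset.mem_range, Finset.mem_range]
      exact ⟨hp1, hp2⟩
    · have : velulatPt L n p = l' - (l' - velulatPt L n p) := by ring
      rw [this]
      exact Λ'.sub_mem hl'' (h1 _ hp)
  · intro s hs s' hs' hss'
    rw [Finset.mem_filter, Finset.mem_image] at hs hs'
    obtain ⟨⟨p, hp, rfl⟩, -⟩ := hs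
    obtain ⟨⟨q, hq, rfl⟩, -⟩ := hs'
    rw [Finset.mem_product, Finset.mem_range, Finset.mem_range] at hp hq
    rw [velulat_unique L n hn p q hp.1 hp.2 hq.1 hq.2 hss']

end Fermat.Agent.S12

end
end ZBZ2S12_003_4

/-! ### bundled: `Fermat.Agent.S12.VeluRoot` -/
section ZBZ2S12_003_5
/-
Item 12 (S12 glue), piece `VELU / V-ROOT` (helper60): `stmtVeluRoot : StmtVeluRoot`.

For the `m - 1` nontrivial `m`-th roots of unity `ζ` of a field in which `m` is invertible, with
`X = ζ / (1 - ζ)²`: `120 ∑ (6 X² + X) = m⁴ - 1`.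

Route: `w = 1 / (1 - ζ)` runs through the roots of `P = Tᵐ - (T - 1)ᵐ` (degree `m - 1`, leading
coefficient `m`), so `m · e_j(w) = C(m, j + 1)` (Vieta); Newton's identities give the power sums
`p₁ … p₄`, and `X = w² - w`.  The final identity is an identity of integers (so that it holds in
every characteristic).
-/

set_option autoImplicit false

noncomputable section

namespace Fermat.Agent.S12

open Polynomial

/-! ### Elementary symmetric functions and power sums of a multiset -/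

theorem vroot_esymm_cons {R : Type*} [CommSemiring R] (a : R) (s : Multiset R) (n : ℕ) :
    (a ::ₘ s).esymm (n + 1) = s.esymm (n + 1) + a * s.esymm n := by
  simp only [Multiset.esymm, Multiset.powersetCard_cons, Multiset.map_add, Multiset.sum_add,
    Multiset.map_map, Function.comp_def, Multiset.prod_cons]
  rw [Multiset.sum_map_mul_left]

theorem vroot_esymm_zero {R : Type*} [CommSemiring R] (s : Multiset R) : s.esymm 0 = 1 := by
  simp [Multiset.esymm]

/-- Newton's identities for `p₁, …, p₄`. -/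
theorem vroot_newton {R : Type*} [CommRing R] (s : Multiset R) :
    (s.map (· ^ 1)).sum = s.esymm 1 ∧
    (s.map (· ^ 2)).sum = s.esymm 1 ^ 2 - 2 * s.esymm 2 ∧
    (s.map (· ^ 3)).sum = s.esymm 1 ^ 3 - 3 * s.esymm 1 * s.esymm 2 + 3 * s.esymm 3 ∧
    (s.map (· ^ 4)).sum = s.esymm 1 ^ 4 - 4 * s.esymm 1 ^ 2 * s.esymm 2
      + 4 * s.esymm 1 * s.esymm 3 + 2 * s.esymm 2 ^ 2 - 4 * s.esymm 4 := by
  induction s using Multiset.induction with
  | empty => simp [Multiset.esymm]
  | cons a s ih =>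
    obtain ⟨h1, h2, h3, h4⟩ := ih
    simp only [Multiset.map_cons, Multiset.sum_cons, vroot_esymm_cons, vroot_esymm_zero]
    refine ⟨?_, ?_, ?_, ?_⟩
    · linear_combination h1
    · linear_combination h2
    · linear_combination h3
    · linear_combination h4

/-! ### Binomial coefficients -/

theorem vroot_choose (m : ℕ) :
    2 * (m.choose 2 : ℚ) = m * (m - 1) ∧
    6 * (m.choose 3 : ℚ) = m * (m - 1) * (m - 2) ∧
    24 * (m.choose 4 : ℚ) = m * (m - 1) * (m - 2) * (m - 3) ∧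
    120 * (m.choose 5 : ℚ) = m * (m - 1) * (m - 2) * (m - 3) * (m - 4) := by
  have h1 : ∀ m : ℕ, (m.choose 1 : ℚ) = m := fun m => by simp
  have h2 : ∀ m : ℕ, 2 * (m.choose 2 : ℚ) = m * (m - 1) := by
    intro m
    induction m with
    | zero => simp
    | succ n ih =>
      rw [Nat.choose_succ_succ' n 1]; push_cast; rw [h1]; linear_combination ih
  have h3 : ∀ m : ℕ, 6 * (m.choose 3 : ℚ) = m * (m - 1) * (m - 2) := by
    intro m
    induction m with
    | zero => simp
    | succ n ih =>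
      rw [Nat.choose_succ_succ' n 2]; push_cast; linear_combination ih + 3 * h2 n
  have h4 : ∀ m : ℕ, 24 * (m.choose 4 : ℚ) = m * (m - 1) * (m - 2) * (m - 3) := by
    intro m
    induction m with
    | zero => simp
    | succ n ih =>
      rw [Nat.choose_succ_succ' n 3]; push_cast; linear_combination ih + 4 * h3 n
  have h5 : ∀ m : ℕ, 120 * (m.choose 5 : ℚ) = m * (m - 1) * (m - 2) * (m - 3) * (m - 4) := by
    intro m
    induction m with
    | zero => simp
    | succ n ih =>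
      rw [Nat.choose_succ_succ' n 4]; push_cast; linear_combination ih + 5 * h4 n
  exact ⟨h2 m, h3 m, h4 m, h5 m⟩

/-- The final identity, over `ℤ`. -/
theorem vroot_int_identity (m : ℕ) :
    120 * (6 * ((((m.choose 2 : ℤ)) ^ 4 - 4 * m * (m.choose 2 : ℤ) ^ 2 * (m.choose 3 : ℤ)
        + 4 * (m : ℤ) ^ 2 * (m.choose 2 : ℤ) * (m.choose 4 : ℤ)
        + 2 * (m : ℤ) ^ 2 * (m.choose 3 : ℤ) ^ 2 - 4 * (m : ℤ) ^ 3 * (m.choose 5 : ℤ))
        - 2 * m * ((m.choose 2 : ℤ) ^ 3 - 3 * m * (m.choose 2 : ℤ) * (m.choose 3 : ℤ)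
          + 3 * (m : ℤ) ^ 2 * (m.choose 4 : ℤ))
        + (m : ℤ) ^ 2 * ((m.choose 2 : ℤ) ^ 2 - 2 * m * (m.choose 3 : ℤ)))
      + (m : ℤ) ^ 2 * ((m.choose 2 : ℤ) ^ 2 - 2 * m * (m.choose 3 : ℤ))
      - (m : ℤ) ^ 3 * (m.choose 2 : ℤ)) = (m : ℤ) ^ 4 * ((m : ℤ) ^ 4 - 1) := by
  obtain ⟨h1, h2, h3, h4⟩ := vroot_choose m
  have key : ∀ (M a1 a2 a3 a4 : ℚ), 2 * a1 = M * (M - 1) → 6 * a2 = M * (M - 1) * (M - 2) →
      24 * a3 = M * (M - 1) * (M - 2) * (M - 3) →
      120 * a4 = M * (M - 1) * (M - 2) * (M - 3) * (M - 4) →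
      120 * (6 * ((a1 ^ 4 - 4 * M * a1 ^ 2 * a2 + 4 * M ^ 2 * a1 * a3 + 2 * M ^ 2 * a2 ^ 2
          - 4 * M ^ 3 * a4) - 2 * M * (a1 ^ 3 - 3 * M * a1 * a2 + 3 * M ^ 2 * a3)
          + M ^ 2 * (a1 ^ 2 - 2 * M * a2))
        + M ^ 2 * (a1 ^ 2 - 2 * M * a2) - M ^ 3 * a1) = M ^ 4 * (M ^ 4 - 1) := by
    intro M a1 a2 a3 a4 h1 h2 h3 h4
    have e1 : a1 = M * (M - 1) / 2 := by linarith
    have e2 : a2 = M * (M - 1) * (M - 2) / 6 := by linarith
    have e3 : a3 = M * (M - 1) * (M - 2) * (M - 3) / 24 := by linarith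
    have e4 : a4 = M * (M - 1) * (M - 2) * (M - 3) * (M - 4) / 120 := by linarith
    subst e1 e2 e3 e4
    ring
  have := key m (m.choose 2) (m.choose 3) (m.choose 4) (m.choose 5) h1 h2 h3 h4
  exact_mod_cast this

/-! ### The polynomial `Tᵐ - (T - 1)ᵐ` -/

/-- `P = Tᵐ - (T - 1)ᵐ`. -/
def vrootPoly (k : Type) [Field k] (m : ℕ) : k[X] := X ^ m - (X + C (-1)) ^ m

theorem vroot_coeff (k : Type) [Field k] (m j : ℕ) (hj : j < m) :
    (vrootPoly k m).coeff j = -((-1) ^ (m - j) * (m.choose j : k)) := by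
  rw [vrootPoly, coeff_sub, coeff_X_add_C_pow, coeff_X_pow, if_neg hj.ne, zero_sub]

theorem vroot_coeff_ge (k : Type) [Field k] (m j : ℕ) (hj : m ≤ j) :
    (vrootPoly k m).coeff j = 0 := by
  rw [vrootPoly, coeff_sub, coeff_X_add_C_pow, coeff_X_pow]
  rcases hj.eq_or_lt with rfl | hlt
  · simp
  · simp [hlt.ne', Nat.choose_eq_zero_of_lt hlt]

theorem vroot_natDegree (k : Type) [Field k] (m : ℕ) (hm : (m : k) ≠ 0) :
    (vrootPoly k m).natDegree = m - 1 ∧ (vrootPoly k m).leadingCoeff = m := by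
  have hm0 : m ≠ 0 := by rintro rfl; simp at hm
  have hc : (vrootPoly k m).coeff (m - 1) = m := by
    rw [vroot_coeff k m (m - 1) (by omega)]
    have : m - (m - 1) = 1 := by omega
    rw [this]
    have h2 : m.choose (m - 1) = m := by
      rw [show m.choose (m - 1) = m.choose (m - (m - 1)) from
        (Nat.choose_symm (by omega : m - 1 ≤ m)).symm, this, Nat.choose_one_right]
    rw [h2]; ring
  have hd : (vrootPoly k m).natDegree = m - 1 := by
    apply le_antisymm
    · rw [natDegree_le_iff_coeff_eq_zero]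
      intro N hN
      exact vroot_coeff_ge k m N (by omega)
    · apply le_natDegree_of_ne_zero
      rw [hc]; exact hm
  refine ⟨hd, ?_⟩
  rw [leadingCoeff, hd, hc]

/-- Vieta for `P`: `m · e_j(roots) = C(m, j + 1)`. -/
theorem vroot_vieta (k : Type) [Field k] (m : ℕ) (hm : (m : k) ≠ 0) (s : Multiset k)
    (hs : s = (vrootPoly k m).roots) (hcard : Multiset.card s + 1 = m) (j : ℕ) :
    (m : k) * s.esymm j = (m.choose (j + 1) : k) := by
  obtain ⟨hd, hl⟩ := vroot_natDegree k m hm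
  by_cases hj : j ≤ m - 1
  · have hroots : Multiset.card (vrootPoly k m).roots = (vrootPoly k m).natDegree := by
      rw [← hs, hd]; omega
    have hv := Polynomial.coeff_eq_esymm_roots_of_card hroots (k := m - 1 - j)
      (by rw [hd]; omega)
    rw [hd, hl, ← hs, vroot_coeff k m _ (by omega)] at hv
    have e1 : m - 1 - (m - 1 - j) = j := by omega
    have e2 : m - (m - 1 - j) = j + 1 := by omega
    have e3 : m.choose (m - 1 - j) = m.choose (j + 1) := by
      rw [← Nat.choose_symm (by omega : m - 1 - j ≤ m), e2]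
    rw [e1, e2, e3] at hv
    rw [pow_succ] at hv
    rcases neg_one_pow_eq_or k j with h | h
    · rw [h] at hv; linear_combination -hv
    · rw [h] at hv; linear_combination hv
  · have h1 : s.esymm j = 0 := by
      rw [Multiset.esymm, Multiset.powersetCard_eq_empty _ (by omega)]
      simp
    have h2 : m.choose (j + 1) = 0 := Nat.choose_eq_zero_of_lt (by omega)
    rw [h1, h2]; simp

/-! ### The statement -/

theorem stmtVeluRoot : StmtVeluRoot := by
  intro k _ m μ hm hμ hcard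
  classical
  have hm0 : m ≠ 0 := by rintro rfl; simp at hm
  -- the roots `w = 1 / (1 - ζ)`
  set w : k → k := fun ζ => (1 - ζ)⁻¹ with hw
  have hne : ∀ ζ ∈ μ, (1 : k) - ζ ≠ 0 := by
    intro ζ hζ h
    exact ((hμ ζ).1 hζ).2 (sub_eq_zero.1 h).symm
  set s : Multiset k := μ.val.map w with hsdef
  have hinj : Set.InjOn w (μ : Set k) := by
    intro a _ b _ hab
    have : (1 : k) - a = 1 - b := inv_injective hab
    linear_combination -this
  have hnodup : s.Nodup := by
    rw [hsdef]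
    exact Multiset.Nodup.map_on (fun a ha b hb hab => hinj (by simpa using ha) (by simpa using hb) hab)
      μ.nodup
  obtain ⟨hd, hl⟩ := vroot_natDegree k m hm
  have hP0 : vrootPoly k m ≠ 0 := by
    intro h
    rw [h] at hl
    simp at hl
    exact hm hl.symm
  have hsub : s ≤ (vrootPoly k m).roots := by
    rw [Multiset.le_iff_subset hnodup]
    intro x hx
    rw [hsdef, Multiset.mem_map] at hx
    obtain ⟨ζ, hζ, rfl⟩ := hx
    have hζ' : ζ ∈ μ := hζ
    rw [mem_roots hP0]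
    have h1 := hne ζ hζ'
    have hz := ((hμ ζ).1 hζ').1
    have hw1 : w ζ - 1 = ζ * w ζ := by
      simp only [hw]; field_simp; ring
    simp only [IsRoot, vrootPoly, eval_sub, eval_add, eval_pow, eval_X, eval_C]
    rw [← sub_eq_add_neg, hw1, mul_pow, hz, one_mul, sub_self]
  have hscard : Multiset.card s + 1 = m := by
    rw [hsdef, Multiset.card_map]; exact hcard
  have hseq : s = (vrootPoly k m).roots := by
    apply Multiset.eq_of_le_of_card_le hsub
    calc Multiset.card (vrootPoly k m).roots ≤ (vrootPoly k m).natDegree := card_roots' _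
      _ = m - 1 := hd
      _ = Multiset.card s := by omega
  -- Vieta
  have hv1 := vroot_vieta k m hm s hseq hscard 1
  have hv2 := vroot_vieta k m hm s hseq hscard 2
  have hv3 := vroot_vieta k m hm s hseq hscard 3
  have hv4 := vroot_vieta k m hm s hseq hscard 4
  -- Newton
  obtain ⟨hn1, hn2, hn3, hn4⟩ := vroot_newton s
  -- power sums as sums over `μ`
  have hp : ∀ j : ℕ, (s.map (· ^ j)).sum = ∑ ζ ∈ μ, w ζ ^ j := by
    intro j
    rw [hsdef, Multiset.map_map]; rfl
  rw [hp] at hn1 hn2 hn3 hn4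
  -- the summand
  have hX : ∀ ζ ∈ μ, 6 * (ζ / (1 - ζ) ^ 2) ^ 2 + ζ / (1 - ζ) ^ 2
      = 6 * (w ζ ^ 4 - 2 * w ζ ^ 3 + w ζ ^ 2) + (w ζ ^ 2 - w ζ ^ 1) := by
    intro ζ hζ
    have h1 := hne ζ hζ
    simp only [hw]; field_simp; ring
  rw [Finset.sum_congr rfl hX]
  simp only [Finset.sum_add_distrib, Finset.sum_sub_distrib, ← Finset.mul_sum]
  rw [hn1, hn2, hn3, hn4]
  -- the integer identity
  have hI := congrArg (Int.cast : ℤ → k) (vroot_int_identity m)
  push_cast at hI
  have hm4 : (m : k) ^ 4 ≠ 0 := pow_ne_zero _ hm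
  apply mul_left_cancel₀ hm4
  rw [← hI]
  rw [← hv1, ← hv2, ← hv3, ← hv4]
  ring

end Fermat.Agent.S12

end
end ZBZ2S12_003_5

/-! ### bundled: `Fermat.Agent.S12.VeluHalf` -/
section ZBZ2S12_003_6
/-
Item 12 (S12 glue), piece `VELU / V-HALF` (helper60): `stmtVeluHalf : StmtVeluHalf`.

A finite set stable under negation without elements of order `≤ 2` is the disjoint union of a
half system and its negative.  Induction on the cardinality: remove a pair `{P, -P}`.
-/

set_option autoImplicit false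

noncomputable section

namespace Fermat.Agent.S12

theorem vhalf_aux (G : Type) [AddCommGroup G] [DecidableEq G] :
    ∀ (n : ℕ) (K : Finset G), K.card = n →
      (∀ P ∈ K, -P ∈ K) → (∀ P ∈ K, P ≠ -P) →
      ∃ R : Finset G, Disjoint R (R.image Neg.neg) ∧ K = R ∪ R.image Neg.neg := by
  intro n
  induction n using Nat.strong_induction_on with
  | _ n ih =>
    intro K hK hneg hne
    rcases K.eq_empty_or_nonempty with rfl | ⟨P, hP⟩
    · exact ⟨∅, by simp, by simp⟩
    · set K' : Finset G := (K.erase P).erase (-P) with hK'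
      have hmem : ∀ Q, Q ∈ K' ↔ Q ∈ K ∧ Q ≠ P ∧ Q ≠ -P := by
        intro Q
        simp only [hK', Finset.mem_erase]
        tauto
      have hcard : K'.card < n := by
        rw [← hK]
        calc K'.card ≤ (K.erase P).card := Finset.card_erase_le
          _ < K.card := Finset.card_erase_lt_of_mem hP
      have hneg' : ∀ Q ∈ K', -Q ∈ K' := by
        intro Q hQ
        rw [hmem] at hQ ⊢
        refine ⟨hneg Q hQ.1, ?_, ?_⟩
        · intro h
          exact hQ.2.2 (by rw [← h, neg_neg])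
        · intro h
          exact hQ.2.1 (neg_injective h)
      have hne' : ∀ Q ∈ K', Q ≠ -Q := fun Q hQ => hne Q ((hmem Q).1 hQ).1
      obtain ⟨R', hdis, hR'⟩ := ih K'.card hcard K' rfl hneg' hne'
      have hR'sub : ∀ Q ∈ R', Q ∈ K' := by
        intro Q hQ
        rw [hR']
        exact Finset.mem_union_left _ hQ
      have hPR' : P ∉ R' := fun h => ((hmem P).1 (hR'sub P h)).2.1 rfl
      have hnPR' : -P ∉ R' := fun h => ((hmem (-P)).1 (hR'sub (-P) h)).2.2 rfl
      refine ⟨insert P R', ?_, ?_⟩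
      · rw [Finset.disjoint_left]
        intro Q hQ hQ'
        rw [Finset.mem_image] at hQ'
        obtain ⟨T, hT, rfl⟩ := hQ'
        rw [Finset.mem_insert] at hQ hT
        rcases hT with rfl | hT
        · rcases hQ with h | h
          · exact hne T hP h.symm
          · exact hnPR' h
        · rcases hQ with h | h
          · exact hnPR' (by rw [← h, neg_neg]; exact hT)
          · exact (Finset.disjoint_left.1 hdis h) (Finset.mem_image_of_mem _ hT)
      · ext Q
        simp only [Finset.mem_union, Finset.mem_insert, Finset.mem_image, exists_eq_or_imp]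
        constructor
        · intro hQ
          by_cases h1 : Q = P
          · exact Or.inl (Or.inl h1)
          by_cases h2 : Q = -P
          · exact Or.inr (Or.inl h2.symm)
          have hQ' : Q ∈ K' := (hmem Q).2 ⟨hQ, h1, h2⟩
          rw [hR', Finset.mem_union, Finset.mem_image] at hQ'
          rcases hQ' with h | h
          · exact Or.inl (Or.inr h)
          · exact Or.inr (Or.inr h)
        · rintro ((rfl | h) | (h | ⟨T, hT, rfl⟩))
          · exact hP
          · exact ((hmem Q).1 (hR'sub Q h)).1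
          · rw [← h]; exact hneg P hP
          · exact hneg T ((hmem T).1 (hR'sub T hT)).1

theorem stmtVeluHalf : StmtVeluHalf := by
  intro G _ _ K hneg hne
  exact vhalf_aux G K.card K rfl hneg hne

end Fermat.Agent.S12

end
end ZBZ2S12_003_6
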