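/- GENERATED FILE (helper35, build-time optimisation, NOTES/ZB.md): verbatim concatenation of the modules
   Fermat.Agent.S14.GoodPrimeFinal
   Fermat.Agent.PT.G2.SecondInequality
   Fermat.Agent.PT.G2.SplitDensity
   Do not edit; do not import together with these modules. -/
import Fermat.Agent.ZB.S14_001
import Fermat.Agent.ZB.PT_008

/-! ### bundled: `Fermat.Agent.S14.GoodPrimeFinal` -/
section ZBS14_002_0

/-!
# S14, piece N4d: the good prime (final form)

`goodPrimeStatement : LBoundedStatement → SplitBoundStatement p → GoodPrimeStatement p`,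
obtained from `goodPrimeStatement_of_euler` (GoodPrime.lean) and the Euler products of
Euler.lean / EulerAux.lean. Also the N4a statements E1c, E1d in their final form and
`idealZetaStatement` (N4c-Z).
-/

set_option autoImplicit false

open NumberField IsDedekindDomain

namespace Fermat.Agent.S14

theorem eulerE1 : EulerE1 := fun K _ _ _ hs => tsum_absNorm_rpow_complex K hs

theorem eulerE3 : EulerE3 := fun K _ _ χ s hs => tendsto_prod_norm_classChar K χ s hs

theorem eulerE4 : EulerE4 := fun K _ _ => by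
  obtain ⟨C, hC⟩ := exists_sum_not_prime_le K
  exact ⟨C, fun s hs => hC s hs.le⟩

/-- **N4d (good prime)**. -/
theorem goodPrimeStatement {p : ℕ} [Fact p.Prime] (h3 : 3 ≤ p) :
    LBoundedStatement → SplitBoundStatement p → GoodPrimeStatement p :=
  goodPrimeStatement_of_euler h3 eulerE1 eulerE3 eulerE4

section Zeta

variable (K : Type) [Field K] [NumberField K]

/-- (E1c) `ζ_K(s) ≤ C / (s - 1)` on `(1, 2]`. -/
theorem exists_zeta_le : ∃ C : ℝ, 0 < C ∧ ∀ s : ℝ, 1 < s → s ≤ 2 →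
    ∑' I : nonZeroDivisors (Ideal (𝓞 K)), (Ideal.absNorm (I : Ideal (𝓞 K)) : ℝ) ^ (-s) ≤
      C / (s - 1) :=
  exists_zeta_le_of K (fun _ hs => summable_absNorm_rpow K hs)
    (fun _ hs => tsum_absNorm_rpow_eq_dedekindZeta K hs)

/-- (E1d) `c / (s - 1) ≤ ζ_K(s)` on `(1, 2]`. -/
theorem exists_le_zeta : ∃ c : ℝ, 0 < c ∧ ∀ s : ℝ, 1 < s → s ≤ 2 →
    c / (s - 1) ≤
      ∑' I : nonZeroDivisors (Ideal (𝓞 K)), (Ideal.absNorm (I : Ideal (𝓞 K)) : ℝ) ^ (-s) :=
  exists_le_zeta_of K (fun _ hs => summable_absNorm_rpow K hs)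
    (fun _ hs => tsum_absNorm_rpow_eq_dedekindZeta K hs)

end Zeta

end Fermat.Agent.S14


end ZBS14_002_0

/-! ### bundled: `Fermat.Agent.PT.G2.SecondInequality` -/
section ZBS14_002_1
/-
PT-G2, piece M (helper88): assembly of the second inequality of class field theory (ideal-theoretic
form) from the four pieces `RayFiniteStatement`, `RayLBoundedStatement`, `RayEulerStatement`,
`SplitDensityStatement` of `Plan.lean`, together with `ζ_K(s) ≤ C / (s - 1)` (S14).

* `g2m_card_le_of_bounds` : the elementary real-analysis core.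
* `g2m_norm_rayL_one_le` : `‖L(s, 1)‖ ≤ ζ_K(s)`.
* `secondInequality_of_pieces`.
-/

set_option autoImplicit false

open NumberField IsDedekindDomain
open scoped nonZeroDivisors

namespace Fermat.Agent.PT.G2

/-- The elementary analytic core of the second inequality: if for every `s ∈ (1, 2]` there is
`P ≥ 0` with `c₁ / (s - 1) ≤ P ^ n` and `P ^ h ≤ C' / (s - 1)`, then `h ≤ n`. -/
theorem g2m_card_le_of_bounds (h n : ℕ) (c₁ C' : ℝ) (hc₁ : 0 < c₁) (hC' : 0 < C')
    (H : ∀ s : ℝ, 1 < s → s ≤ 2 →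
      ∃ P : ℝ, 0 ≤ P ∧ c₁ / (s - 1) ≤ P ^ n ∧ P ^ h ≤ C' / (s - 1)) :
    h ≤ n := by
  by_contra hlt
  rw [not_le] at hlt
  set t : ℝ := min 1 (c₁ ^ h / (2 * C' ^ n)) with ht
  have ht0 : 0 < t := lt_min one_pos (by positivity)
  have ht1 : t ≤ 1 := min_le_left _ _
  have ht2 : t ≤ c₁ ^ h / (2 * C' ^ n) := min_le_right _ _
  obtain ⟨P, hP0, hP1, hP2⟩ := H (1 + t) (by linarith) (by linarith)
  rw [add_sub_cancel_left] at hP1 hP2
  have e1 : (c₁ / t) ^ h ≤ (P ^ n) ^ h := pow_le_pow_left₀ (by positivity) hP1 h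
  have e2 : (P ^ h) ^ n ≤ (C' / t) ^ n := pow_le_pow_left₀ (by positivity) hP2 n
  have e3 : (P ^ n) ^ h = (P ^ h) ^ n := by rw [← pow_mul, ← pow_mul, mul_comm]
  have e4 : (c₁ / t) ^ h ≤ (C' / t) ^ n := by
    rw [e3] at e1
    exact e1.trans e2
  rw [div_pow, div_pow, div_le_div_iff₀ (by positivity) (by positivity)] at e4
  have e5 : t ^ h ≤ t ^ (n + 1) := pow_le_pow_of_le_one ht0.le ht1 hlt
  have htn : 0 < t ^ n := by positivity
  have e6 : c₁ ^ h * t ^ n ≤ (C' ^ n * t) * t ^ n := by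
    calc c₁ ^ h * t ^ n ≤ C' ^ n * t ^ h := e4
      _ ≤ C' ^ n * t ^ (n + 1) := by gcongr
      _ = (C' ^ n * t) * t ^ n := by rw [pow_succ]; ring
  have e7 : c₁ ^ h ≤ C' ^ n * t := le_of_mul_le_mul_right e6 htn
  have e8 : C' ^ n * t ≤ c₁ ^ h / 2 := by
    calc C' ^ n * t ≤ C' ^ n * (c₁ ^ h / (2 * C' ^ n)) := by gcongr
      _ = c₁ ^ h / 2 := by field_simp
  have e9 : 0 < c₁ ^ h := by positivity
  linarith

/-- The `L`-series of the trivial character is bounded by the zeta function. -/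
theorem g2m_norm_rayL_one_le {K : Type} [Field K] [NumberField K] (𝔪 : Ideal (𝓞 K))
    {A : Type} [CommGroup A] (c : Ideal (𝓞 K) → A) {s : ℝ} (hs : 1 < s) :
    ‖rayL 𝔪 c (1 : A →* ℂˣ) s‖ ≤
      ∑' I : nonZeroDivisors (Ideal (𝓞 K)), (Ideal.absNorm (I : Ideal (𝓞 K)) : ℝ) ^ (-s) := by
  refine tsum_of_norm_bounded (Fermat.Agent.S14.summable_absNorm_rpow K hs).hasSum (fun I => ?_)
  have hnn : (0 : ℝ) ≤ (Ideal.absNorm (I : Ideal (𝓞 K)) : ℝ) ^ (-s) :=
    Real.rpow_nonneg (Nat.cast_nonneg _) _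
  rw [rayTerm]
  by_cases hI : I ∈ coprimeTo 𝔪
  · rw [Set.indicator_of_mem hI]
    simp only [MonoidHom.one_apply, Units.val_one, one_mul, Complex.norm_real, Real.norm_eq_abs,
      abs_of_nonneg hnn, le_refl]
  · rw [Set.indicator_of_notMem hI, norm_zero]
    exact hnn

/-- **PT-G2, piece M**: the second inequality from the four analytic/algebraic pieces. -/
theorem secondInequality_of_pieces (hF : RayFiniteStatement) (hL : RayLBoundedStatement)
    (hE : RayEulerStatement) (hD : SplitDensityStatement) : SecondInequalityStatement := by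
  intro K L _ _ _ _ _ 𝔪 h𝔪 A _ c hc hsplit
  have : Finite A := hF K 𝔪 h𝔪 A c hc
  refine ⟨inferInstance, ?_⟩
  obtain ⟨C₀, hC₀, hζ⟩ := Fermat.Agent.S14.exists_zeta_le K
  obtain ⟨CE, hCE, hEul⟩ := hE K 𝔪 h𝔪 A c hc
  obtain ⟨c₁, hc₁, hDen⟩ := hD K L 𝔪 h𝔪
  have hLb : ∀ χ : A →* ℂˣ, ∃ C : ℝ, 0 ≤ C ∧
      (χ ≠ 1 → ∀ s : ℝ, 1 < s → s ≤ 2 → ‖rayL 𝔪 c χ s‖ ≤ C) := by
    intro χ
    by_cases hχ : χ = 1
    · exact ⟨0, le_rfl, fun h => absurd hχ h⟩
    · obtain ⟨C, hC⟩ := hL K 𝔪 h𝔪 A c hc χ hχ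
      exact ⟨max C 0, le_max_right _ _,
        fun _ s hs hs2 => (hC s hs hs2).trans (le_max_left _ _)⟩
  choose Cχ hCχ0 hCχ using hLb
  have : Fintype (A →* ℂˣ) := Fintype.ofFinite (A →* ℂˣ)
  classical
  set B : ℝ := ∏ χ ∈ (Finset.univ.erase (1 : A →* ℂˣ)), Cχ χ with hB
  have hB0 : 0 ≤ B := Finset.prod_nonneg (fun χ _ => hCχ0 χ)
  apply g2m_card_le_of_bounds (Nat.card A) (Module.finrank K L) c₁ (CE * (C₀ * B) + 1) hc₁
    (by positivity)
  intro s hs hs2
  have hs1 : 0 < s - 1 := by linarith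
  obtain ⟨T, hT, hTle⟩ := hDen s hs hs2
  refine ⟨∏ v ∈ T, (1 - (Ideal.absNorm v.asIdeal : ℝ) ^ (-s))⁻¹, ?_, hTle, ?_⟩
  · refine Finset.prod_nonneg (fun v _ => ?_)
    rw [inv_nonneg, sub_nonneg]
    exact (Fermat.Agent.S14.absNorm_rpow_lt_one K v (by linarith)).le
  · have h1 := hEul s hs hs2 T (fun v hv => ⟨(hT v hv).1, hsplit v (hT v hv)⟩)
    refine h1.trans ?_
    rw [finprod_eq_prod_of_fintype]
    have hprod : ∏ χ : A →* ℂˣ, ‖rayL 𝔪 c χ s‖ ≤ (C₀ / (s - 1)) * B := by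
      rw [← Finset.mul_prod_erase Finset.univ _ (Finset.mem_univ (1 : A →* ℂˣ))]
      refine mul_le_mul ((g2m_norm_rayL_one_le 𝔪 c hs).trans (hζ s hs hs2))
        (Finset.prod_le_prod (fun _ _ => norm_nonneg _)
          (fun χ hχ => hCχ χ (Finset.ne_of_mem_erase hχ) s hs hs2))
        (Finset.prod_nonneg (fun _ _ => norm_nonneg _)) (by positivity)
    calc CE * ∏ χ : A →* ℂˣ, ‖rayL 𝔪 c χ s‖ ≤ CE * ((C₀ / (s - 1)) * B) := by gcongr
      _ = (CE * (C₀ * B)) / (s - 1) := by ring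
      _ ≤ (CE * (C₀ * B) + 1) / (s - 1) := by gcongr; linarith

end Fermat.Agent.PT.G2


end ZBS14_002_1

/-! ### bundled: `Fermat.Agent.PT.G2.SplitDensity` -/
section ZBS14_002_2

/-!
# Project PT, piece G2-D: density of the split primes (product form)

`splitDensityStatement : SplitDensityStatement`: for a finite extension `L / K` of number fields
and a nonzero ideal `𝔪` of `𝓞 K` there is `c₁ > 0` such that for every `s ∈ (1, 2]` there is a
finite set `T` of primes `v ∤ 𝔪` of `K`, each with a prime of `L` of the same absolute norm above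
it, with `c₁ / (s - 1) ≤ (∏_{v ∈ T} (1 - N v ^ (-s))⁻¹) ^ [L : K]`.

Proof: Euler product of `ζ_L` (`S14.hasProd_zeta`), lower bound `ζ_L(s) ≥ c / (s - 1)`
(`S14.exists_le_zeta`); the primes `w` of `L` whose norm is not a prime number contribute a
bounded factor (`S14.exists_prod_not_prime_le`), the finitely many primes `w` over `𝔪` contribute
a factor `≤ 2` each; the remaining `w` have `N w = N (w ∩ 𝓞 K)`, and there are at most `[L : K]`
of them over each prime of `K`.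
-/

set_option autoImplicit false

open NumberField IsDedekindDomain
open scoped nonZeroDivisors

namespace Fermat.Agent.PT.G2

section SD

variable (K L : Type) [Field K] [NumberField K] [Field L] [NumberField L] [Algebra K L]

/-- The prime of `K` below a prime of `L`. -/
noncomputable def sdUnder (w : HeightOneSpectrum (𝓞 L)) : HeightOneSpectrum (𝓞 K) :=
  w.under (𝓞 K)

omit [NumberField K] [NumberField L] in
theorem sdUnder_asIdeal (w : HeightOneSpectrum (𝓞 L)) :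
    (sdUnder K L w).asIdeal = Ideal.comap (algebraMap (𝓞 K) (𝓞 L)) w.asIdeal := rfl

/-- `N w = N v ^ f` for `v` the prime below `w`. -/
theorem sd_absNorm_eq_pow (w : HeightOneSpectrum (𝓞 L)) :
    Ideal.absNorm w.asIdeal =
      Ideal.absNorm (sdUnder K L w).asIdeal ^ (w.asIdeal.inertiaDeg (𝓞 K)) := by
  have h1 := w.isMaximal
  have h2 := (sdUnder K L w).isMaximal
  have h3 : w.asIdeal.LiesOver (sdUnder K L w).asIdeal := ⟨rfl⟩
  have h4 := Ideal.relNorm_eq_pow_of_isMaximal w.asIdeal (sdUnder K L w).asIdeal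
  have h5 := Ideal.absNorm_relNorm (𝓞 K) (𝓞 L) w.asIdeal
  rw [← h5, h4, map_pow]

/-- If `N w` is a prime number then `N v = N w` for `v` the prime below `w`. -/
theorem sd_absNorm_eq_of_prime (w : HeightOneSpectrum (𝓞 L))
    (hw : (Ideal.absNorm w.asIdeal).Prime) :
    Ideal.absNorm w.asIdeal = Ideal.absNorm (sdUnder K L w).asIdeal := by
  have h := sd_absNorm_eq_pow K L w
  have hpos : 0 < w.asIdeal.inertiaDeg (𝓞 K) := by
    have := w.isPrime
    exact Ideal.inertiaDeg_pos w.asIdeal (𝓞 K)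
  have h2 : 2 ≤ Ideal.absNorm (sdUnder K L w).asIdeal :=
    Fermat.Agent.S14.gp_two_le_absNorm (sdUnder K L w)
  have hdvd : Ideal.absNorm (sdUnder K L w).asIdeal ∣ Ideal.absNorm w.asIdeal := by
    rw [h]
    exact dvd_pow_self _ hpos.ne'
  rcases (Nat.dvd_prime hw).mp hdvd with h1 | h1
  · omega
  · exact h1.symm

/-- The primes of `L` lying over a prime of `K` which is not coprime to `𝔪` are finite in
number. -/
theorem sd_bad_finite (𝔪 : Ideal (𝓞 K)) (h𝔪 : 𝔪 ≠ ⊥) :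
    {w : HeightOneSpectrum (𝓞 L) | ¬ IsCoprime (sdUnder K L w).asIdeal 𝔪}.Finite := by
  have hinj : Function.Injective (algebraMap (𝓞 K) (𝓞 L)) :=
    FaithfulSMul.algebraMap_injective (𝓞 K) (𝓞 L)
  have hmap : Ideal.map (algebraMap (𝓞 K) (𝓞 L)) 𝔪 ≠ 0 := by
    intro h
    exact h𝔪 ((Ideal.map_eq_bot_iff_of_injective hinj).mp h)
  refine (Ideal.finite_factors hmap).subset ?_
  intro w hw
  have hw' : ¬ IsCoprime (sdUnder K L w).asIdeal 𝔪 := hw
  show w.asIdeal ∣ Ideal.map (algebraMap (𝓞 K) (𝓞 L)) 𝔪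
  rw [Ideal.dvd_iff_le, Ideal.map_le_iff_le_comap, ← sdUnder_asIdeal]
  rw [Ideal.isCoprime_iff_sup_eq] at hw'
  have heq := (sdUnder K L w).isMaximal.eq_of_le hw' le_sup_left
  calc 𝔪 ≤ (sdUnder K L w).asIdeal ⊔ 𝔪 := le_sup_right
    _ = (sdUnder K L w).asIdeal := heq.symm

/-- At most `[L : K]` primes of `L` lie over a given prime of `K`. -/
theorem sd_card_fiber_le (T : Finset (HeightOneSpectrum (𝓞 L))) (v : HeightOneSpectrum (𝓞 K))
    [DecidablePred fun w : HeightOneSpectrum (𝓞 L) => sdUnder K L w = v] :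
    (T.filter (fun w => sdUnder K L w = v)).card ≤ Module.finrank K L := by
  classical
  have hv0 : v.asIdeal ≠ ⊥ := v.ne_bot
  have hmax : v.asIdeal.IsMaximal := v.isMaximal
  have : NoZeroSMulDivisors (𝓞 K) (𝓞 L) := ⟨fun {c x} h => by
    rw [Algebra.smul_def, mul_eq_zero] at h
    rcases h with h | h
    · left
      exact (FaithfulSMul.algebraMap_injective (𝓞 K) (𝓞 L)) (by rw [h, map_zero])
    · right
      exact h⟩
  have hcard := Ideal.card_primesOverFinset_le_finrank (R := 𝓞 K) (S := 𝓞 L) (K := K) (L := L)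
    (p := v.asIdeal) hv0
  refine le_trans ?_ hcard
  refine Finset.card_le_card_of_injOn (fun w => w.asIdeal) ?_ ?_
  · intro w hw
    have hwv : sdUnder K L w = v := (Finset.mem_filter.mp hw).2
    rw [Finset.mem_coe, IsDedekindDomain.mem_primesOverFinset_iff hv0]
    refine ⟨w.isPrime, ⟨?_⟩⟩
    rw [← hwv]
    rfl
  · intro w _ w' _ hww'
    exact HeightOneSpectrum.ext hww'

end SD

section Factor

variable {F : Type} [Field F] [NumberField F]

theorem sd_factor_pos (v : HeightOneSpectrum (𝓞 F)) {s : ℝ} (hs : 1 ≤ s) :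
    0 < (1 - (Ideal.absNorm v.asIdeal : ℝ) ^ (-s))⁻¹ := by
  have := Fermat.Agent.S14.gp_x_le_half v hs
  exact inv_pos.mpr (by linarith)

theorem sd_factor_one_le (v : HeightOneSpectrum (𝓞 F)) {s : ℝ} (hs : 1 ≤ s) :
    1 ≤ (1 - (Ideal.absNorm v.asIdeal : ℝ) ^ (-s))⁻¹ := by
  have h1 := Fermat.Agent.S14.gp_x_le_half v hs
  have h2 := Fermat.Agent.S14.gp_x_pos v s
  rw [one_le_inv₀ (by linarith)]
  linarith

theorem sd_factor_le_two (v : HeightOneSpectrum (𝓞 F)) {s : ℝ} (hs : 1 ≤ s) :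
    (1 - (Ideal.absNorm v.asIdeal : ℝ) ^ (-s))⁻¹ ≤ 2 := by
  have h1 := Fermat.Agent.S14.gp_x_le_half v hs
  rw [inv_le_comm₀ (by linarith) (by norm_num)]
  linarith

end Factor

/-- **G2-D**: density of the split primes, in product form. -/
theorem splitDensityStatement : SplitDensityStatement := by
  classical
  intro K L _ _ _ _ _ 𝔪 h𝔪
  obtain ⟨c, hc, hzeta⟩ := Fermat.Agent.S14.exists_le_zeta L
  obtain ⟨C₂, hC₂⟩ := Fermat.Agent.S14.exists_prod_not_prime_le L
  have hC₂1 : 1 ≤ C₂ := by simpa using hC₂ 1 le_rfl ∅ (by simp)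
  have hC₂pos : 0 < C₂ := by linarith
  set B : Finset (HeightOneSpectrum (𝓞 L)) := (sd_bad_finite K L 𝔪 h𝔪).toFinset with hB
  have hBmem : ∀ w : HeightOneSpectrum (𝓞 L), w ∈ B ↔ ¬ IsCoprime (sdUnder K L w).asIdeal 𝔪 := by
    intro w
    rw [hB, Set.Finite.mem_toFinset]
    exact Iff.rfl
  refine ⟨c / (2 * C₂ * 2 ^ B.card), by positivity, fun s hs1 hs2 => ?_⟩
  have hs0 : 0 < s - 1 := by linarith
  set g : HeightOneSpectrum (𝓞 L) → ℝ :=
    fun w => (1 - (Ideal.absNorm w.asIdeal : ℝ) ^ (-s))⁻¹ with hg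
  set gK : HeightOneSpectrum (𝓞 K) → ℝ :=
    fun v => (1 - (Ideal.absNorm v.asIdeal : ℝ) ^ (-s))⁻¹ with hgK
  set Z : ℝ := ∑' I : nonZeroDivisors (Ideal (𝓞 L)),
    (Ideal.absNorm (I : Ideal (𝓞 L)) : ℝ) ^ (-s) with hZ
  have hZc : c / (s - 1) ≤ Z := hzeta s hs1 hs2
  have hZpos : 0 < Z := lt_of_lt_of_le (div_pos hc hs0) hZc
  have hprod : HasProd g Z := Fermat.Agent.S14.hasProd_zeta L hs1
  have hgpos : ∀ w, 0 < g w := fun w => sd_factor_pos w hs1.le
  have hg1 : ∀ w, 1 ≤ g w := fun w => sd_factor_one_le w hs1.le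
  have hg2 : ∀ w, g w ≤ 2 := fun w => sd_factor_le_two w hs1.le
  have hgK1 : ∀ v, 1 ≤ gK v := fun v => sd_factor_one_le v hs1.le
  -- a finite partial product exceeding `Z / 2`
  obtain ⟨TL, hTL⟩ : ∃ TL : Finset (HeightOneSpectrum (𝓞 L)), Z / 2 < ∏ w ∈ TL, g w := by
    have hev : ∀ᶠ T : Finset (HeightOneSpectrum (𝓞 L)) in Filter.atTop,
        Z / 2 < ∏ w ∈ T, g w :=
      hprod.eventually (lt_mem_nhds (by linarith))
    exact hev.exists
  -- split `TL`
  set T1 := TL.filter (fun w => ¬ (Ideal.absNorm w.asIdeal).Prime) with hT1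
  set T0 := TL.filter (fun w => ¬ ¬ (Ideal.absNorm w.asIdeal).Prime) with hT0
  set T2 := T0.filter (fun w => ¬ IsCoprime (sdUnder K L w).asIdeal 𝔪) with hT2
  set T3 := T0.filter (fun w => ¬ ¬ IsCoprime (sdUnder K L w).asIdeal 𝔪) with hT3
  have hsplit1 : (∏ w ∈ T1, g w) * ∏ w ∈ T0, g w = ∏ w ∈ TL, g w :=
    Finset.prod_filter_mul_prod_filter_not TL _ g
  have hsplit2 : (∏ w ∈ T2, g w) * ∏ w ∈ T3, g w = ∏ w ∈ T0, g w :=
    Finset.prod_filter_mul_prod_filter_not T0 _ g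
  have hP1 : ∏ w ∈ T1, g w ≤ C₂ :=
    hC₂ s hs1.le T1 (fun w hw => (Finset.mem_filter.mp hw).2)
  have hP2 : ∏ w ∈ T2, g w ≤ 2 ^ B.card := by
    calc ∏ w ∈ T2, g w ≤ ∏ _w ∈ T2, (2 : ℝ) :=
          Finset.prod_le_prod (fun w _ => (hgpos w).le) (fun w _ => hg2 w)
      _ = 2 ^ T2.card := by rw [Finset.prod_const]
      _ ≤ 2 ^ B.card := by
          refine pow_le_pow_right₀ (by norm_num) (Finset.card_le_card ?_)
          intro w hw
          exact (hBmem w).mpr (Finset.mem_filter.mp hw).2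
  -- the good primes
  have hT3mem : ∀ w ∈ T3, (Ideal.absNorm w.asIdeal).Prime ∧
      IsCoprime (sdUnder K L w).asIdeal 𝔪 := by
    intro w hw
    obtain ⟨hw0, hw3⟩ := Finset.mem_filter.mp hw
    exact ⟨not_not.mp (Finset.mem_filter.mp hw0).2, not_not.mp hw3⟩
  set T : Finset (HeightOneSpectrum (𝓞 K)) := T3.image (sdUnder K L) with hT
  have hP3 : ∏ w ∈ T3, g w ≤ (∏ v ∈ T, gK v) ^ (Module.finrank K L) := by
    have h1 : ∏ w ∈ T3, g w = ∏ w ∈ T3, gK (sdUnder K L w) := by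
      refine Finset.prod_congr rfl (fun w hw => ?_)
      simp only [hg, hgK]
      rw [sd_absNorm_eq_of_prime K L w (hT3mem w hw).1]
    rw [h1, Finset.prod_comp gK (sdUnder K L), ← Finset.prod_pow]
    refine Finset.prod_le_prod (fun v _ => pow_nonneg (le_trans zero_le_one (hgK1 v)) _)
      (fun v _ => ?_)
    exact pow_le_pow_right₀ (hgK1 v) (sd_card_fiber_le K L T3 v)
  refine ⟨T, ?_, ?_⟩
  · intro v hv
    obtain ⟨w, hw, rfl⟩ := Finset.mem_image.mp hv
    exact ⟨(hT3mem w hw).2, w, rfl, sd_absNorm_eq_of_prime K L w (hT3mem w hw).1⟩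
  · have hP3nn : 0 ≤ ∏ w ∈ T3, g w := Finset.prod_nonneg (fun w _ => (hgpos w).le)
    have hP2nn : 0 ≤ ∏ w ∈ T2, g w := Finset.prod_nonneg (fun w _ => (hgpos w).le)
    have hP0nn : 0 ≤ ∏ w ∈ T0, g w := Finset.prod_nonneg (fun w _ => (hgpos w).le)
    set X := (∏ v ∈ T, gK v) ^ (Module.finrank K L) with hX
    have hXnn : 0 ≤ X := le_trans hP3nn hP3
    have hchain : Z / 2 < C₂ * (2 ^ B.card * X) := by
      calc Z / 2 < ∏ w ∈ TL, g w := hTL
        _ = (∏ w ∈ T1, g w) * ∏ w ∈ T0, g w := hsplit1.symm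
        _ ≤ C₂ * ∏ w ∈ T0, g w := mul_le_mul_of_nonneg_right hP1 hP0nn
        _ = C₂ * ((∏ w ∈ T2, g w) * ∏ w ∈ T3, g w) := by rw [hsplit2]
        _ ≤ C₂ * (2 ^ B.card * X) := by
            refine mul_le_mul_of_nonneg_left ?_ hC₂pos.le
            exact mul_le_mul hP2 hP3 hP3nn (by positivity)
    have hden : 0 < 2 * C₂ * 2 ^ B.card := by positivity
    rw [div_div, div_le_iff₀ (by positivity)]
    have h1 : c ≤ Z * (s - 1) := by
      rwa [div_le_iff₀ hs0] at hZc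
    calc c ≤ Z * (s - 1) := h1
      _ ≤ (2 * (C₂ * (2 ^ B.card * X))) * (s - 1) := by
          refine mul_le_mul_of_nonneg_right ?_ hs0.le
          linarith
      _ = X * (2 * C₂ * 2 ^ B.card * (s - 1)) := by ring

end Fermat.Agent.PT.G2


end ZBS14_002_2
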