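/- GENERATED FILE (helper35, build-time optimisation, NOTES/ZB.md): verbatim concatenation of the modules
   Fermat.Agent.S14.UnitWeight
   Fermat.Agent.S14.UnitWeightPartition
   Fermat.Agent.S14.UnitWeightBounds
   Do not edit; do not import together with these modules. -/
import Mathlib

/-! ### bundled: `Fermat.Agent.S14.UnitWeight` -/
section ZBS14_007_0
/-
S14, piece N4c1 (helper87): a Lipschitz partition of unity along the orbits of the unit group.

* `tent t = max 0 (1 - |t|)`;
* `unitCoord K x` : coordinates of `logMap x` in the basis of the unit lattice;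
* `unitWeight K x = (torsionOrder K)⁻¹ * ∏ i, tent (unitCoord K x i)` (`0` if `norm x = 0`).
-/

set_option autoImplicit false

open NumberField NumberField.mixedEmbedding NumberField.Units NumberField.InfinitePlace Module
open NumberField.Units.dirichletUnitTheorem

namespace Fermat.Agent.S14

/-- The tent function `max 0 (1 - |t|)`. -/
noncomputable def tent (t : ℝ) : ℝ := max 0 (1 - |t|)

variable (K : Type) [Field K] [NumberField K]

open scoped Classical in
/-- Coordinates of `logMap x` in the (real) basis of `logSpace K` given by a fundamental system of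
units. -/
noncomputable def unitCoord (x : mixedSpace K) : Fin (rank K) → ℝ :=
  ((basisUnitLattice K).ofZLatticeBasis ℝ (unitLattice K)).equivFun (logMap x)

/-- The weight: a partition of unity along the orbits of the unit group. -/
noncomputable def unitWeight (x : mixedSpace K) : ℝ :=
  if mixedEmbedding.norm x = 0 then 0
  else (torsionOrder K : ℝ)⁻¹ * ∏ i, tent (unitCoord K x i)

end Fermat.Agent.S14


end ZBS14_007_0

/-! ### bundled: `Fermat.Agent.S14.UnitWeightPartition` -/
section ZBS14_007_1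
/-
S14, piece N4c1 (helper87): the weight `unitWeight` is a partition of unity along unit orbits.
-/

set_option autoImplicit false

open NumberField NumberField.mixedEmbedding NumberField.Units NumberField.InfinitePlace Module
open NumberField.Units.dirichletUnitTheorem

namespace Fermat.Agent.S14

/-! ### The tent function -/

theorem tent_nonneg (t : ℝ) : 0 ≤ tent t := le_max_left _ _

theorem tent_le_one (t : ℝ) : tent t ≤ 1 := by
  unfold tent
  exact max_le zero_le_one (by linarith [abs_nonneg t])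

theorem tent_eq_zero_of_one_le_abs {t : ℝ} (h : 1 ≤ |t|) : tent t = 0 := by
  unfold tent
  exact max_eq_left (by linarith)

theorem abs_lt_one_of_tent_ne_zero {t : ℝ} (h : tent t ≠ 0) : |t| < 1 := by
  by_contra hcon
  exact h (tent_eq_zero_of_one_le_abs (not_lt.1 hcon))

theorem tent_of_abs_le_one {t : ℝ} (h : |t| ≤ 1) : tent t = 1 - |t| := by
  unfold tent
  exact max_eq_right (by linarith)

/-- The tent function is `1`-Lipschitz. -/
theorem abs_tent_sub_tent_le (a b : ℝ) : |tent a - tent b| ≤ |a - b| := by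
  unfold tent
  have h1 : |max 0 (1 - |a|) - max 0 (1 - |b|)| ≤ |(1 - |a|) - (1 - |b|)| := by
    have := abs_max_sub_max_le_abs (1 - |a|) (1 - |b|) (0 : ℝ)
    rwa [max_comm (1 - |a|) 0, max_comm (1 - |b|) 0] at this
  calc |max 0 (1 - |a|) - max 0 (1 - |b|)| ≤ |(1 - |a|) - (1 - |b|)| := h1
    _ = |(|b| - |a|)| := by congr 1; ring
    _ ≤ |b - a| := abs_abs_sub_abs_le b a
    _ = |a - b| := abs_sub_comm b a

/-- The integer translates of the tent function sum to `1`. -/
theorem hasSum_tent_add_int (c : ℝ) : HasSum (fun k : ℤ => tent (c + k)) 1 := by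
  classical
  have hfl := Int.floor_le c
  have hlt := Int.lt_floor_add_one c
  have hzero : ∀ k ∉ ({-⌊c⌋ - 1, -⌊c⌋} : Finset ℤ), tent (c + k) = 0 := by
    intro k hk
    simp only [Finset.mem_insert, Finset.mem_singleton, not_or] at hk
    apply tent_eq_zero_of_one_le_abs
    rcases lt_or_gt_of_ne hk.2 with h | h
    · -- k ≤ -⌊c⌋ - 1 and k ≠ -⌊c⌋ - 1, so k ≤ -⌊c⌋ - 2
      have hk2 : k ≤ -⌊c⌋ - 2 := by
        have := hk.1
        omega
      have : (k : ℝ) ≤ -(⌊c⌋ : ℝ) - 2 := by exact_mod_cast hk2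
      rw [le_abs]
      right
      linarith
    · have hk2 : -⌊c⌋ + 1 ≤ k := by omega
      have : -(⌊c⌋ : ℝ) + 1 ≤ (k : ℝ) := by exact_mod_cast hk2
      rw [le_abs]
      left
      linarith
  have h : HasSum (fun k : ℤ => tent (c + k))
      (∑ k ∈ ({-⌊c⌋ - 1, -⌊c⌋} : Finset ℤ), tent (c + k)) := hasSum_sum_of_ne_finset_zero hzero
  have hne : (-⌊c⌋ - 1 : ℤ) ≠ -⌊c⌋ := by omega
  rw [Finset.sum_pair hne] at h
  convert h using 1
  have h1 : |c + ((-⌊c⌋ - 1 : ℤ) : ℝ)| ≤ 1 := by
    push_cast
    rw [abs_le]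
    constructor <;> linarith
  have h2 : |c + ((-⌊c⌋ : ℤ) : ℝ)| ≤ 1 := by
    push_cast
    rw [abs_le]
    constructor <;> linarith
  rw [tent_of_abs_le_one h1, tent_of_abs_le_one h2]
  push_cast
  rw [abs_of_nonpos (by linarith), abs_of_nonneg (by linarith)]
  ring

/-- Products of tent functions: the translates by `ℤ^r` sum to `1`. -/
theorem hasSum_prod_tent_add_int {r : ℕ} (c : Fin r → ℝ) :
    HasSum (fun k : Fin r → ℤ => ∏ i, tent (c i + k i)) 1 := by
  classical
  let S : Fin r → Finset ℤ := fun i => {-⌊c i⌋ - 1, -⌊c i⌋}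
  have hS : ∀ i, ∀ k ∉ S i, tent (c i + k) = 0 := by
    intro i k hk
    by_contra hne
    have h := hasSum_tent_add_int (c i)
    -- reuse the support computation
    have hk' : k ∉ ({-⌊c i⌋ - 1, -⌊c i⌋} : Finset ℤ) := hk
    simp only [Finset.mem_insert, Finset.mem_singleton, not_or] at hk'
    have hfl := Int.floor_le (c i)
    have hlt := Int.lt_floor_add_one (c i)
    apply hne
    apply tent_eq_zero_of_one_le_abs
    rcases lt_or_gt_of_ne hk'.2 with h | h
    · have hk2 : k ≤ -⌊c i⌋ - 2 := by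
        have := hk'.1
        omega
      have : (k : ℝ) ≤ -(⌊c i⌋ : ℝ) - 2 := by exact_mod_cast hk2
      rw [le_abs]
      right
      linarith
    · have hk2 : -⌊c i⌋ + 1 ≤ k := by omega
      have : -(⌊c i⌋ : ℝ) + 1 ≤ (k : ℝ) := by exact_mod_cast hk2
      rw [le_abs]
      left
      linarith
  have hsum1 : ∀ i, ∑ j ∈ S i, tent (c i + j) = 1 := by
    intro i
    have h := hasSum_tent_add_int (c i)
    have h' : HasSum (fun k : ℤ => tent (c i + k)) (∑ j ∈ S i, tent (c i + j)) :=
      hasSum_sum_of_ne_finset_zero (hS i)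
    exact h'.unique h
  have hzero : ∀ k ∉ Fintype.piFinset S, ∏ i, tent (c i + k i) = 0 := by
    intro k hk
    rw [Fintype.mem_piFinset, not_forall] at hk
    obtain ⟨i, hi⟩ := hk
    exact Finset.prod_eq_zero (Finset.mem_univ i) (hS i _ hi)
  have h : HasSum (fun k : Fin r → ℤ => ∏ i, tent (c i + k i))
      (∑ k ∈ Fintype.piFinset S, ∏ i, tent (c i + k i)) := hasSum_sum_of_ne_finset_zero hzero
  convert h using 1
  have key := Finset.prod_univ_sum S (fun i (j : ℤ) => tent (c i + j))
  rw [← key]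
  simp [hsum1]

end Fermat.Agent.S14

namespace Fermat.Agent.S14

variable (K : Type) [Field K] [NumberField K]

/-! ### The unit group as `torsion × ℤ^r` -/

/-- The parametrisation of the unit group by `torsion K × ℤ^r` (Dirichlet's unit theorem). -/
noncomputable def unitParam : torsion K × (Fin (rank K) → ℤ) ≃ (𝓞 K)ˣ :=
  Equiv.ofBijective (fun ζe => (ζe.1 : (𝓞 K)ˣ) * ∏ i, fundSystem K i ^ ζe.2 i) (by
    constructor
    · intro a b hab
      obtain ⟨c, _, hc⟩ := exist_unique_eq_mul_prod K ((a.1 : (𝓞 K)ˣ) * ∏ i, fundSystem K i ^ a.2 i)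
      rw [hc a rfl, hc b hab]
    · intro u
      obtain ⟨c, hc, _⟩ := exist_unique_eq_mul_prod K u
      exact ⟨c, hc.symm⟩)

theorem unitParam_apply (ζe : torsion K × (Fin (rank K) → ℤ)) :
    unitParam K ζe = (ζe.1 : (𝓞 K)ˣ) * ∏ i, fundSystem K i ^ ζe.2 i := rfl

open scoped Classical in
theorem logEmbedding_unitParam (ζe : torsion K × (Fin (rank K) → ℤ)) :
    logEmbedding K (Additive.ofMul (unitParam K ζe)) =
      ∑ i, (ζe.2 i : ℝ) • ((basisUnitLattice K).ofZLatticeBasis ℝ (unitLattice K)) i := by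
  rw [unitParam_apply, ofMul_mul, map_add, (logEmbedding_eq_zero_iff (K := K)).2 ζe.1.2, zero_add,
    ofMul_prod, map_sum]
  refine Finset.sum_congr rfl fun i _ => ?_
  rw [ofMul_zpow, map_zsmul, logEmbedding_fundSystem, Basis.ofZLatticeBasis_apply,
    Int.cast_smul_eq_zsmul]

theorem unitCoord_unitParam_smul (ζe : torsion K × (Fin (rank K) → ℤ)) (x : mixedSpace K)
    (hx : mixedEmbedding.norm x ≠ 0) :
    unitCoord K (unitParam K ζe • x) = fun i => unitCoord K x i + ζe.2 i := by
  classical
  unfold unitCoord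
  rw [logMap_unit_smul _ hx, map_add, logEmbedding_unitParam]
  have h : ((basisUnitLattice K).ofZLatticeBasis ℝ (unitLattice K)).equivFun
      (∑ i, (ζe.2 i : ℝ) • ((basisUnitLattice K).ofZLatticeBasis ℝ (unitLattice K)) i)
      = fun i => (ζe.2 i : ℝ) := by
    rw [← Basis.equivFun_symm_apply, LinearEquiv.apply_symm_apply]
  rw [h]
  funext i
  simp [add_comm]

/-! ### The weight -/

theorem unitWeight_nonneg (x : mixedSpace K) : 0 ≤ unitWeight K x := by
  unfold unitWeight
  split_ifs
  · exact le_rfl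
  · exact mul_nonneg (inv_nonneg.2 (Nat.cast_nonneg _))
      (Finset.prod_nonneg fun i _ => tent_nonneg _)

theorem unitWeight_le_one (x : mixedSpace K) : unitWeight K x ≤ 1 := by
  unfold unitWeight
  split_ifs
  · exact zero_le_one
  · have h1 : (torsionOrder K : ℝ)⁻¹ ≤ 1 :=
      inv_le_one_of_one_le₀ (by exact_mod_cast (torsionOrder_pos K))
    have h2 : ∏ i, tent (unitCoord K x i) ≤ 1 :=
      Finset.prod_le_one (fun i _ => tent_nonneg _) (fun i _ => tent_le_one _)
    have h3 : 0 ≤ ∏ i, tent (unitCoord K x i) := Finset.prod_nonneg fun i _ => tent_nonneg _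
    calc (torsionOrder K : ℝ)⁻¹ * ∏ i, tent (unitCoord K x i)
        ≤ 1 * 1 := mul_le_mul h1 h2 h3 zero_le_one
      _ = 1 := one_mul 1

theorem unitWeight_of_norm_ne_zero {x : mixedSpace K} (hx : mixedEmbedding.norm x ≠ 0) :
    unitWeight K x = (torsionOrder K : ℝ)⁻¹ * ∏ i, tent (unitCoord K x i) := by
  unfold unitWeight
  rw [if_neg hx]

theorem norm_ne_zero_of_unitWeight_ne_zero {x : mixedSpace K} (h : unitWeight K x ≠ 0) :
    mixedEmbedding.norm x ≠ 0 := by
  intro hx
  apply h
  unfold unitWeight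
  rw [if_pos hx]

theorem hasSum_const_mul_aux {α β : Type} [Finite α] (g : β → ℝ) (hg : ∀ k, 0 ≤ g k)
    (h2 : HasSum g 1) (a : ℝ) (ha : 0 ≤ a) :
    HasSum (fun p : α × β => a * g p.2) (Nat.card α * a) := by
  classical
  let _ : Fintype α := Fintype.ofFinite _
  have h1 : HasSum (fun _ : α => a) (Nat.card α * a) := by
    have h := hasSum_fintype (fun _ : α => a)
    convert h using 1
    rw [Finset.sum_const, Finset.card_univ, nsmul_eq_mul, Nat.card_eq_fintype_card]
  have h3 := HasSum.mul h1 h2 (Summable.mul_of_nonneg h1.summable h2.summable (fun _ => ha) hg)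
  rw [mul_one] at h3
  exact h3

/-- **(W2)** The weight is a partition of unity along the orbits of the unit group. -/
theorem hasSum_unitWeight_smul (x : mixedSpace K) (hx : mixedEmbedding.norm x ≠ 0) :
    HasSum (fun u : (𝓞 K)ˣ => unitWeight K (u • x)) 1 := by
  have h3 := hasSum_const_mul_aux (α := torsion K)
    (fun k : Fin (rank K) → ℤ => ∏ i, tent (unitCoord K x i + k i))
    (fun k => Finset.prod_nonneg fun i _ => tent_nonneg _)
    (hasSum_prod_tent_add_int (unitCoord K x)) (torsionOrder K : ℝ)⁻¹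
    (inv_nonneg.2 (Nat.cast_nonneg _))
  have hone : (Nat.card (torsion K) : ℝ) * (torsionOrder K : ℝ)⁻¹ = 1 := by
    have : (Nat.card (torsion K) : ℝ) = torsionOrder K := rfl
    rw [this, mul_inv_cancel₀]
    exact_mod_cast (torsionOrder_pos K).ne'
  rw [hone] at h3
  have h4 : HasSum ((fun u : (𝓞 K)ˣ => unitWeight K (u • x)) ∘ (unitParam K)) 1 := by
    refine h3.congr_fun ?_
    intro ζe
    show unitWeight K (unitParam K ζe • x) = _
    rw [unitWeight_of_norm_ne_zero K (by rwa [norm_unit_smul]), unitCoord_unitParam_smul K ζe x hx]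
  exact (unitParam K).hasSum_iff.1 h4

end Fermat.Agent.S14


end ZBS14_007_1

/-! ### bundled: `Fermat.Agent.S14.UnitWeightBounds` -/
section ZBS14_007_2
/-
S14, piece N4c1 (helper87): support and Lipschitz bounds for `unitWeight`.
-/

set_option autoImplicit false

open NumberField NumberField.mixedEmbedding NumberField.Units NumberField.InfinitePlace Module
open NumberField.Units.dirichletUnitTheorem

namespace Fermat.Agent.S14

/-- Products of numbers in `[0, 1]` are `1`-Lipschitz in the `ℓ¹`-sense. -/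
theorem abs_prod_sub_prod_le_sum {ι : Type} (s : Finset ι) (a b : ι → ℝ)
    (ha : ∀ i, 0 ≤ a i ∧ a i ≤ 1) (hb : ∀ i, 0 ≤ b i ∧ b i ≤ 1) :
    |∏ i ∈ s, a i - ∏ i ∈ s, b i| ≤ ∑ i ∈ s, |a i - b i| := by
  classical
  induction s using Finset.induction_on with
  | empty => simp
  | insert j s hj ih =>
    rw [Finset.prod_insert hj, Finset.prod_insert hj, Finset.sum_insert hj]
    have hP : |∏ i ∈ s, a i| ≤ 1 := by
      rw [abs_of_nonneg (Finset.prod_nonneg fun i _ => (ha i).1)]
      exact Finset.prod_le_one (fun i _ => (ha i).1) (fun i _ => (ha i).2)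
    have hbj : |b j| ≤ 1 := by
      rw [abs_of_nonneg (hb j).1]
      exact (hb j).2
    have e : a j * ∏ i ∈ s, a i - b j * ∏ i ∈ s, b i
        = (a j - b j) * ∏ i ∈ s, a i + b j * (∏ i ∈ s, a i - ∏ i ∈ s, b i) := by ring
    rw [e]
    calc |(a j - b j) * ∏ i ∈ s, a i + b j * (∏ i ∈ s, a i - ∏ i ∈ s, b i)|
        ≤ |(a j - b j) * ∏ i ∈ s, a i| + |b j * (∏ i ∈ s, a i - ∏ i ∈ s, b i)| := abs_add_le _ _
      _ = |a j - b j| * |∏ i ∈ s, a i| + |b j| * |∏ i ∈ s, a i - ∏ i ∈ s, b i| := by
          rw [abs_mul, abs_mul]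
      _ ≤ |a j - b j| * 1 + 1 * ∑ i ∈ s, |a i - b i| := by
          refine add_le_add (mul_le_mul_of_nonneg_left hP (abs_nonneg _)) ?_
          exact mul_le_mul hbj ih (abs_nonneg _) zero_le_one
      _ = |a j - b j| + ∑ i ∈ s, |a i - b i| := by ring

variable (K : Type) [Field K] [NumberField K]

/-- The deviation `log |x|_w - (1/n) log |N x|`. -/
noncomputable def logDev (X : mixedSpace K) (w : InfinitePlace K) : ℝ :=
  Real.log (normAtPlace w X) - Real.log (mixedEmbedding.norm X) * (finrank ℚ K : ℝ)⁻¹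

theorem logMap_eq_mult_mul_logDev (X : mixedSpace K) (w : {w : InfinitePlace K // w ≠ w₀}) :
    logMap X w = mult w.1 * logDev K X w.1 := rfl

theorem sum_mult_mul_logDev (X : mixedSpace K) (hX : mixedEmbedding.norm X ≠ 0) :
    ∑ w : InfinitePlace K, (mult w : ℝ) * logDev K X w = 0 := by
  have hn : (finrank ℚ K : ℝ) ≠ 0 := Nat.cast_ne_zero.2 (finrank_pos).ne'
  have h1 : Real.log (mixedEmbedding.norm X)
      = ∑ w : InfinitePlace K, (mult w : ℝ) * Real.log (normAtPlace w X) := by
    rw [mixedEmbedding.norm_apply, Real.log_prod]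
    · refine Finset.sum_congr rfl fun w _ => ?_
      rw [Real.log_pow]
    · intro w _
      exact pow_ne_zero _ (mixedEmbedding.norm_ne_zero_iff.1 hX w)
  have h2 : ∑ w : InfinitePlace K, (mult w : ℝ) = (finrank ℚ K : ℝ) := by
    exact_mod_cast (sum_mult_eq (K := K))
  simp only [logDev, mul_sub]
  rw [Finset.sum_sub_distrib, ← h1, ← Finset.sum_mul, h2]
  field_simp
  ring

open scoped Classical in
theorem abs_logDev_le (X : mixedSpace K) (hX : mixedEmbedding.norm X ≠ 0) (w : InfinitePlace K) :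
    |logDev K X w| ≤ ∑ w' : {w : InfinitePlace K // w ≠ w₀}, |logMap X w'| := by
  have hmul : ∀ w : InfinitePlace K, |logDev K X w| ≤ |(mult w : ℝ) * logDev K X w| := by
    intro w
    rw [abs_mul, abs_of_nonneg (Nat.cast_nonneg (mult w) : (0 : ℝ) ≤ (mult w : ℝ))]
    exact le_mul_of_one_le_left (abs_nonneg _) one_le_mult
  by_cases hw : w = w₀
  · subst hw
    have h := sum_mult_mul_logDev K X hX
    rw [Fintype.sum_eq_add_sum_subtype_ne _ (w₀ : InfinitePlace K)] at h
    have h' : (mult (w₀ : InfinitePlace K) : ℝ) * logDev K X w₀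
        = -∑ w' : {w : InfinitePlace K // w ≠ w₀}, logMap X w' := by
      have : ∑ w' : {w : InfinitePlace K // w ≠ w₀}, logMap X w'
          = ∑ w' : {w : InfinitePlace K // w ≠ w₀}, (mult w'.1 : ℝ) * logDev K X w'.1 :=
        Finset.sum_congr rfl fun w' _ => logMap_eq_mult_mul_logDev K X w'
      rw [this]
      linarith
    calc |logDev K X w₀| ≤ |(mult (w₀ : InfinitePlace K) : ℝ) * logDev K X w₀| := hmul _
      _ = |∑ w' : {w : InfinitePlace K // w ≠ w₀}, logMap X w'| := by rw [h', abs_neg]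
      _ ≤ ∑ w' : {w : InfinitePlace K // w ≠ w₀}, |logMap X w'| := Finset.abs_sum_le_sum_abs _ _
  · calc |logDev K X w| ≤ |(mult w : ℝ) * logDev K X w| := hmul _
      _ = |logMap X ⟨w, hw⟩| := by rw [logMap_eq_mult_mul_logDev]
      _ ≤ ∑ w' : {w : InfinitePlace K // w ≠ w₀}, |logMap X w'| :=
          Finset.single_le_sum (f := fun w' : {w : InfinitePlace K // w ≠ w₀} => |logMap X w'|)
            (fun _ _ => abs_nonneg _) (Finset.mem_univ _)


open scoped Classical

/-- The coordinate map `logSpace K → ℝ^r` as a continuous linear map. -/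
noncomputable def coordCLM : logSpace K →L[ℝ] (Fin (rank K) → ℝ) :=
  LinearMap.toContinuousLinearMap
    ((basisUnitLattice K).ofZLatticeBasis ℝ (unitLattice K)).equivFun.toLinearMap

/-- The inverse of the coordinate map as a continuous linear map. -/
noncomputable def coordSymmCLM : (Fin (rank K) → ℝ) →L[ℝ] logSpace K :=
  LinearMap.toContinuousLinearMap
    ((basisUnitLattice K).ofZLatticeBasis ℝ (unitLattice K)).equivFun.symm.toLinearMap

theorem unitCoord_eq_coordCLM (X : mixedSpace K) : unitCoord K X = coordCLM K (logMap X) := rfl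

theorem logMap_eq_coordSymmCLM (X : mixedSpace K) :
    logMap X = coordSymmCLM K (unitCoord K X) := by
  classical
  exact (LinearEquiv.symm_apply_apply
    ((basisUnitLattice K).ofZLatticeBasis ℝ (unitLattice K)).equivFun (logMap X)).symm

theorem abs_unitCoord_lt_one_of_unitWeight_ne_zero {X : mixedSpace K} (h : unitWeight K X ≠ 0)
    (i : Fin (rank K)) : |unitCoord K X i| < 1 := by
  have hX := norm_ne_zero_of_unitWeight_ne_zero K h
  rw [unitWeight_of_norm_ne_zero K hX] at h
  have h2 : ∏ i, tent (unitCoord K X i) ≠ 0 := right_ne_zero_of_mul h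
  exact abs_lt_one_of_tent_ne_zero (Finset.prod_ne_zero_iff.1 h2 i (Finset.mem_univ i))

/-- The constant in the support bound. -/
noncomputable def suppConst : ℝ :=
  (Fintype.card {w : InfinitePlace K // w ≠ w₀} : ℝ) * ‖coordSymmCLM K‖

theorem suppConst_nonneg : 0 ≤ suppConst K :=
  mul_nonneg (Nat.cast_nonneg _) (norm_nonneg _)

theorem abs_logDev_le_suppConst {X : mixedSpace K} (h : unitWeight K X ≠ 0)
    (w : InfinitePlace K) : |logDev K X w| ≤ suppConst K := by
  classical
  have hX := norm_ne_zero_of_unitWeight_ne_zero K h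
  refine (abs_logDev_le K X hX w).trans ?_
  have hc : ‖unitCoord K X‖ ≤ 1 := by
    rw [pi_norm_le_iff_of_nonneg zero_le_one]
    intro i
    rw [Real.norm_eq_abs]
    exact (abs_unitCoord_lt_one_of_unitWeight_ne_zero K h i).le
  have hl : ‖logMap X‖ ≤ ‖coordSymmCLM K‖ := by
    rw [logMap_eq_coordSymmCLM]
    calc ‖coordSymmCLM K (unitCoord K X)‖ ≤ ‖coordSymmCLM K‖ * ‖unitCoord K X‖ :=
          ContinuousLinearMap.le_opNorm _ _
      _ ≤ ‖coordSymmCLM K‖ * 1 := mul_le_mul_of_nonneg_left hc (norm_nonneg _)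
      _ = ‖coordSymmCLM K‖ := mul_one _
  calc ∑ w' : {w : InfinitePlace K // w ≠ w₀}, |logMap X w'|
      ≤ ∑ _w' : {w : InfinitePlace K // w ≠ w₀}, ‖coordSymmCLM K‖ := by
        refine Finset.sum_le_sum fun w' _ => ?_
        rw [← Real.norm_eq_abs]
        exact (norm_le_pi_norm (logMap X) w').trans hl
    _ = suppConst K := by
        rw [Finset.sum_const, Finset.card_univ, nsmul_eq_mul, suppConst]

/-- **(W3)** On the support of the weight, `|N x| ≤ (B |x|_w)^n` for every place `w`. -/
theorem norm_le_of_unitWeight_ne_zero {X : mixedSpace K} (h : unitWeight K X ≠ 0)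
    (w : InfinitePlace K) :
    mixedEmbedding.norm X ≤ (Real.exp (suppConst K) * normAtPlace w X) ^ (finrank ℚ K) := by
  have hX := norm_ne_zero_of_unitWeight_ne_zero K h
  have hXpos : 0 < mixedEmbedding.norm X :=
    lt_of_le_of_ne (mixedEmbedding.norm_nonneg X) (Ne.symm hX)
  have hw : 0 < normAtPlace w X :=
    lt_of_le_of_ne (normAtPlace_nonneg w X) (Ne.symm (mixedEmbedding.norm_ne_zero_iff.1 hX w))
  have hn : (0 : ℝ) < (finrank ℚ K : ℝ) := Nat.cast_pos.2 finrank_pos
  have hd := abs_logDev_le_suppConst K h w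
  rw [abs_le] at hd
  have h1 : Real.log (mixedEmbedding.norm X) * (finrank ℚ K : ℝ)⁻¹
      ≤ suppConst K + Real.log (normAtPlace w X) := by
    have := hd.1
    unfold logDev at this
    linarith
  have h2 : Real.log (mixedEmbedding.norm X)
      ≤ (finrank ℚ K : ℝ) * (suppConst K + Real.log (normAtPlace w X)) := by
    have := mul_le_mul_of_nonneg_left h1 hn.le
    rwa [mul_comm (Real.log _) _, ← mul_assoc, mul_inv_cancel₀ hn.ne', one_mul] at this
  calc mixedEmbedding.norm X = Real.exp (Real.log (mixedEmbedding.norm X)) :=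
        (Real.exp_log hXpos).symm
    _ ≤ Real.exp ((finrank ℚ K : ℝ) * (suppConst K + Real.log (normAtPlace w X))) :=
        Real.exp_le_exp.2 h2
    _ = (Real.exp (suppConst K) * normAtPlace w X) ^ (finrank ℚ K) := by
        rw [mul_comm, Real.exp_mul, Real.exp_add, Real.exp_log hw, Real.rpow_natCast]

omit [NumberField K] in
theorem s14_mult_le_two (w : InfinitePlace K) : (mult w : ℝ) ≤ 2 := by
  unfold mult
  split_ifs <;> norm_num

/-- The Lipschitz constant. -/
noncomputable def lipConst : ℝ := (rank K : ℝ) * (‖coordCLM K‖ * 4)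

theorem lipConst_nonneg : 0 ≤ lipConst K :=
  mul_nonneg (Nat.cast_nonneg _) (mul_nonneg (norm_nonneg _) (by norm_num))

/-- **(W4)** The weight is Lipschitz with respect to the logarithms of the absolute values. -/
theorem abs_unitWeight_sub_le {X Y : mixedSpace K} (hX : mixedEmbedding.norm X ≠ 0)
    (hY : mixedEmbedding.norm Y ≠ 0) {ε : ℝ}
    (h : ∀ w : InfinitePlace K,
      |Real.log (normAtPlace w Y) - Real.log (normAtPlace w X)| ≤ ε) :
    |unitWeight K Y - unitWeight K X| ≤ lipConst K * ε := by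
  classical
  have hε : 0 ≤ ε := (abs_nonneg _).trans (h w₀)
  have hn : (0 : ℝ) < (finrank ℚ K : ℝ) := Nat.cast_pos.2 finrank_pos
  -- logarithm of the norm
  have hlogn : ∀ Z : mixedSpace K, mixedEmbedding.norm Z ≠ 0 →
      Real.log (mixedEmbedding.norm Z)
        = ∑ w : InfinitePlace K, (mult w : ℝ) * Real.log (normAtPlace w Z) := by
    intro Z hZ
    rw [mixedEmbedding.norm_apply, Real.log_prod]
    · refine Finset.sum_congr rfl fun w _ => ?_
      rw [Real.log_pow]
    · intro w _
      exact pow_ne_zero _ (mixedEmbedding.norm_ne_zero_iff.1 hZ w)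
  have hsum : ∑ w : InfinitePlace K, (mult w : ℝ) = (finrank ℚ K : ℝ) := by
    exact_mod_cast (sum_mult_eq (K := K))
  have hN : |Real.log (mixedEmbedding.norm Y) - Real.log (mixedEmbedding.norm X)|
      ≤ (finrank ℚ K : ℝ) * ε := by
    rw [hlogn Y hY, hlogn X hX, ← Finset.sum_sub_distrib]
    calc |∑ w : InfinitePlace K, ((mult w : ℝ) * Real.log (normAtPlace w Y)
            - (mult w : ℝ) * Real.log (normAtPlace w X))|
        ≤ ∑ w : InfinitePlace K, |(mult w : ℝ) * Real.log (normAtPlace w Y)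
            - (mult w : ℝ) * Real.log (normAtPlace w X)| := Finset.abs_sum_le_sum_abs _ _
      _ ≤ ∑ w : InfinitePlace K, (mult w : ℝ) * ε := by
          refine Finset.sum_le_sum fun w _ => ?_
          rw [← mul_sub, abs_mul, abs_of_nonneg (Nat.cast_nonneg (mult w) : (0:ℝ) ≤ (mult w : ℝ))]
          exact mul_le_mul_of_nonneg_left (h w) (Nat.cast_nonneg _)
      _ = (finrank ℚ K : ℝ) * ε := by rw [← Finset.sum_mul, hsum]
  have hdev : ∀ w : InfinitePlace K, |logDev K Y w - logDev K X w| ≤ 2 * ε := by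
    intro w
    have e : logDev K Y w - logDev K X w
        = (Real.log (normAtPlace w Y) - Real.log (normAtPlace w X))
          - (Real.log (mixedEmbedding.norm Y) - Real.log (mixedEmbedding.norm X))
            * (finrank ℚ K : ℝ)⁻¹ := by
      unfold logDev
      ring
    rw [e]
    have h2 : |(Real.log (mixedEmbedding.norm Y) - Real.log (mixedEmbedding.norm X))
            * (finrank ℚ K : ℝ)⁻¹| ≤ ε := by
      rw [abs_mul, abs_of_nonneg (inv_nonneg.2 hn.le)]
      calc |Real.log (mixedEmbedding.norm Y) - Real.log (mixedEmbedding.norm X)|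
            * (finrank ℚ K : ℝ)⁻¹
          ≤ ((finrank ℚ K : ℝ) * ε) * (finrank ℚ K : ℝ)⁻¹ :=
            mul_le_mul_of_nonneg_right hN (inv_nonneg.2 hn.le)
        _ = ε := by field_simp
    calc |(Real.log (normAtPlace w Y) - Real.log (normAtPlace w X))
          - (Real.log (mixedEmbedding.norm Y) - Real.log (mixedEmbedding.norm X))
            * (finrank ℚ K : ℝ)⁻¹|
        ≤ |Real.log (normAtPlace w Y) - Real.log (normAtPlace w X)|
          + |(Real.log (mixedEmbedding.norm Y) - Real.log (mixedEmbedding.norm X))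
            * (finrank ℚ K : ℝ)⁻¹| := abs_sub _ _
      _ ≤ ε + ε := add_le_add (h w) h2
      _ = 2 * ε := by ring
  have hlog : ‖logMap Y - logMap X‖ ≤ 4 * ε := by
    rw [pi_norm_le_iff_of_nonneg (by positivity)]
    intro w'
    rw [Pi.sub_apply, logMap_eq_mult_mul_logDev, logMap_eq_mult_mul_logDev, ← mul_sub,
      Real.norm_eq_abs, abs_mul,
      abs_of_nonneg (Nat.cast_nonneg (mult w'.1) : (0:ℝ) ≤ (mult w'.1 : ℝ))]
    calc (mult w'.1 : ℝ) * |logDev K Y w'.1 - logDev K X w'.1|
        ≤ 2 * (2 * ε) := mul_le_mul (s14_mult_le_two K _) (hdev _) (abs_nonneg _) (by norm_num)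
      _ = 4 * ε := by ring
  have hcoord : ∀ i, |unitCoord K Y i - unitCoord K X i| ≤ ‖coordCLM K‖ * (4 * ε) := by
    intro i
    have e : unitCoord K Y - unitCoord K X = coordCLM K (logMap Y - logMap X) := by
      rw [unitCoord_eq_coordCLM, unitCoord_eq_coordCLM, map_sub]
    calc |unitCoord K Y i - unitCoord K X i| = ‖(unitCoord K Y - unitCoord K X) i‖ := by
          rw [Real.norm_eq_abs, Pi.sub_apply]
      _ ≤ ‖unitCoord K Y - unitCoord K X‖ := norm_le_pi_norm _ i
      _ = ‖coordCLM K (logMap Y - logMap X)‖ := by rw [e]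
      _ ≤ ‖coordCLM K‖ * ‖logMap Y - logMap X‖ := ContinuousLinearMap.le_opNorm _ _
      _ ≤ ‖coordCLM K‖ * (4 * ε) := mul_le_mul_of_nonneg_left hlog (norm_nonneg _)
  have hprod : |∏ i, tent (unitCoord K Y i) - ∏ i, tent (unitCoord K X i)|
      ≤ (rank K : ℝ) * (‖coordCLM K‖ * (4 * ε)) := by
    refine (abs_prod_sub_prod_le_sum Finset.univ _ _
      (fun i => ⟨tent_nonneg _, tent_le_one _⟩) (fun i => ⟨tent_nonneg _, tent_le_one _⟩)).trans ?_
    calc ∑ i, |tent (unitCoord K Y i) - tent (unitCoord K X i)|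
        ≤ ∑ _i : Fin (rank K), ‖coordCLM K‖ * (4 * ε) :=
          Finset.sum_le_sum fun i _ => (abs_tent_sub_tent_le _ _).trans (hcoord i)
      _ = (rank K : ℝ) * (‖coordCLM K‖ * (4 * ε)) := by
          rw [Finset.sum_const, Finset.card_univ, Fintype.card_fin, nsmul_eq_mul]
  rw [unitWeight_of_norm_ne_zero K hX, unitWeight_of_norm_ne_zero K hY, ← mul_sub, abs_mul,
    abs_of_nonneg (inv_nonneg.2 (Nat.cast_nonneg _))]
  have hinv : (torsionOrder K : ℝ)⁻¹ ≤ 1 :=
    inv_le_one_of_one_le₀ (by exact_mod_cast (torsionOrder_pos K))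
  calc (torsionOrder K : ℝ)⁻¹ * |∏ i, tent (unitCoord K Y i) - ∏ i, tent (unitCoord K X i)|
      ≤ 1 * ((rank K : ℝ) * (‖coordCLM K‖ * (4 * ε))) :=
        mul_le_mul hinv hprod (abs_nonneg _) zero_le_one
    _ = lipConst K * ε := by
        unfold lipConst
        ring

end Fermat.Agent.S14


end ZBS14_007_2
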