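/- GENERATED FILE (helper35, build-time optimisation, NOTES/ZB.md): verbatim concatenation of the modules
   Fermat.Agent.S14.LBoundedPlan
   Fermat.Agent.S14.UnitWeightStatement
   Fermat.Agent.S14.EulerFinal
   Fermat.Agent.S14.OrbitSum
   Fermat.Agent.PT.G2.OrbitWeighted
   Do not edit; do not import together with these modules. -/
import Mathlib
import Fermat.Agent.ZB.S14_001
import Fermat.Agent.ZB.S14_007
import Fermat.Agent.ZB.S14_002

/-! ### bundled: `Fermat.Agent.S14.LBoundedPlan` -/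
section ZBS14_003_0

/-!
# S14, piece N4c (`LBoundedStatement`): sub-interface

Route (no measure theory, no lattice point counting with error terms):

* `UnitWeightStatement` (N4c-W): a weight `w : K → [0, 1]` with `∑_{ε ∈ 𝓞ˣ} w (ε x) = 1`, supported
  where all archimedean absolute values of `x` are comparable to `|N x|^(1/n)`, and multiplicatively
  Lipschitz.  (`w = |μ|⁻¹ ∏ᵢ τ(cᵢ(logMap x))`, `τ` the tent function, `cᵢ` the coordinates with
  respect to a system of fundamental units.)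
* `IdealZetaStatement` (N4c-Z): `∑_I N(I)^(-s)` converges for `s > 1` and `(s - 1) ∑_I N(I)^(-s)`
  is bounded on `(1, 2]`.
* `FiberwiseStatement` (N4c-F): for a nonzero ideal `𝔠`, the sum of `w x |N x|^(-s)` over
  `x ∈ 𝔠 ∖ 0` is `N(𝔠)^(-s)` times the partial zeta function of the class of `𝔠⁻¹`.
* main assembly (N4c-M, `LBounded.lean`): the three statements imply `LBoundedStatement`, via the
  shift estimate `∑_{x ∈ 𝔠} |f (x + r) - f x| ≤ C(r)` for `f x = w x |N x|^(-s)`.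
-/

set_option autoImplicit false

open NumberField

namespace Fermat.Agent.S14

/-- **N4c-W**: existence of a Lipschitz "partition of unity" for the action of the units. -/
def UnitWeightStatement : Prop :=
  ∀ (K : Type) [Field K] [NumberField K],
    ∃ (w : K → ℝ) (T : Finset (𝓞 K)ˣ) (B L : ℝ),
      0 < B ∧ 0 ≤ L ∧ (∀ x, 0 ≤ w x) ∧ (∀ x, w x ≤ 1) ∧
      (∀ x : K, x ≠ 0 → HasSum (fun ε : (𝓞 K)ˣ => w (((ε : 𝓞 K) : K) * x)) 1) ∧
      (∀ x : K, x ≠ 0 → w x ≠ 0 →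
        1 ≤ (NumberField.Units.torsionOrder K : ℝ) * ∑ ε ∈ T, w (((ε : 𝓞 K) : K) * x)) ∧
      (∀ x : K, x ≠ 0 → w x ≠ 0 → ∀ v : InfinitePlace K,
        |(Algebra.norm ℚ x : ℝ)| ≤ (B * v x) ^ (Module.finrank ℚ K)) ∧
      (∀ x u : K, x ≠ 0 → ∀ δ : ℝ, δ ≤ 1 / 2 → (∀ v : InfinitePlace K, v u ≤ δ) →
        |w (x * (1 + u)) - w x| ≤ L * δ)

/-- **N4c-Z**: the Dedekind zeta function as a sum over nonzero ideals: convergence for `s > 1`
and `(s - 1) ζ_K(s)` bounded on `(1, 2]`. -/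
def IdealZetaStatement : Prop :=
  ∀ (K : Type) [Field K] [NumberField K],
    (∀ s : ℝ, 1 < s → Summable (fun I : nonZeroDivisors (Ideal (𝓞 K)) =>
      ((Ideal.absNorm (I : Ideal (𝓞 K)) : ℝ) ^ (-s)))) ∧
    ∃ C : ℝ, ∀ s : ℝ, 1 < s → s ≤ 2 →
      (s - 1) * ∑' I : nonZeroDivisors (Ideal (𝓞 K)),
        ((Ideal.absNorm (I : Ideal (𝓞 K)) : ℝ) ^ (-s)) ≤ C

/-- **N4c-F**: unfolding of the partial zeta function of an ideal class along the elements of an
ideal in the inverse class. -/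
def FiberwiseStatement : Prop :=
  ∀ (K : Type) [Field K] [NumberField K] (w : K → ℝ), (∀ x, 0 ≤ w x) →
    (∀ x : K, x ≠ 0 → HasSum (fun ε : (𝓞 K)ˣ => w (((ε : 𝓞 K) : K) * x)) 1) →
    ∀ (𝔠 : nonZeroDivisors (Ideal (𝓞 K))) (s : ℝ), 1 < s →
      HasSum
        (fun x : {x : 𝓞 K // x ∈ (𝔠 : Ideal (𝓞 K)) ∧ x ≠ 0} =>
          w ((x : 𝓞 K) : K) * |(Algebra.norm ℚ (((x : 𝓞 K) : K)) : ℝ)| ^ (-s))
        ((Ideal.absNorm (𝔠 : Ideal (𝓞 K)) : ℝ) ^ (-s) *
          ∑' I : {I : nonZeroDivisors (Ideal (𝓞 K)) //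
              ClassGroup.mk0 I = (ClassGroup.mk0 𝔠)⁻¹},
            (Ideal.absNorm ((I : nonZeroDivisors (Ideal (𝓞 K))) : Ideal (𝓞 K)) : ℝ) ^ (-s))

end Fermat.Agent.S14


end ZBS14_003_0

/-! ### bundled: `Fermat.Agent.S14.UnitWeightStatement` -/
section ZBS14_003_1
/-
S14, piece N4c-W (helper87): proof of `UnitWeightStatement` (interface of helper75's
`LBoundedPlan.lean`): a Lipschitz partition of unity for the action of the units.
-/

set_option autoImplicit false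

open NumberField NumberField.mixedEmbedding NumberField.Units NumberField.InfinitePlace Module
open NumberField.Units.dirichletUnitTheorem

namespace Fermat.Agent.S14

theorem tent_sum_three {c : ℝ} (hc : |c| < 1) :
    ∑ j ∈ ({-1, 0, 1} : Finset ℤ), tent (c + j) = 1 := by
  have h1 : (-1 : ℤ) ∉ ({0, 1} : Finset ℤ) := by decide
  have h2 : (0 : ℤ) ∉ ({1} : Finset ℤ) := by decide
  rw [Finset.sum_insert h1, Finset.sum_insert h2, Finset.sum_singleton]
  push_cast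
  rw [abs_lt] at hc
  rcases le_total 0 c with h | h
  · have e1 : tent (c + -1) = c := by
      rw [tent_of_abs_le_one (by rw [abs_le]; constructor <;> linarith),
        abs_of_nonpos (by linarith)]
      ring
    have e2 : tent (c + 0) = 1 - c := by
      rw [add_zero, tent_of_abs_le_one (by rw [abs_le]; constructor <;> linarith),
        abs_of_nonneg h]
    have e3 : tent (c + 1) = 0 :=
      tent_eq_zero_of_one_le_abs (by rw [le_abs]; left; linarith)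
    rw [e1, e2, e3]
    ring
  · have e1 : tent (c + -1) = 0 :=
      tent_eq_zero_of_one_le_abs (by rw [le_abs]; right; linarith)
    have e2 : tent (c + 0) = 1 + c := by
      rw [add_zero, tent_of_abs_le_one (by rw [abs_le]; constructor <;> linarith),
        abs_of_nonpos h]
      ring
    have e3 : tent (c + 1) = -c := by
      rw [tent_of_abs_le_one (by rw [abs_le]; constructor <;> linarith),
        abs_of_nonneg (by linarith)]
      ring
    rw [e1, e2, e3]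
    ring

variable (K : Type) [Field K] [NumberField K]

open scoped Classical in
/-- The finite set of units used in the cover property. -/
noncomputable def coverSet : Finset (𝓞 K)ˣ :=
  (Fintype.piFinset (fun _ : Fin (rank K) => ({-1, 0, 1} : Finset ℤ))).image
    (fun k => unitParam K (1, k))

/-- **(W6)** cover property. -/
theorem unitWeight_cover {X : mixedSpace K} (h : unitWeight K X ≠ 0) :
    (torsionOrder K : ℝ) * ∑ u ∈ coverSet K, unitWeight K (u • X) = 1 := by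
  classical
  have hX := norm_ne_zero_of_unitWeight_ne_zero K h
  have hinj : Set.InjOn (fun k : Fin (rank K) → ℤ => unitParam K (1, k))
      (Fintype.piFinset (fun _ : Fin (rank K) => ({-1, 0, 1} : Finset ℤ)) : Set _) := by
    intro a _ b _ hab
    have := (unitParam K).injective hab
    exact (Prod.mk.injEq _ _ _ _ ▸ this).2
  unfold coverSet
  rw [Finset.sum_image hinj]
  have hterm : ∀ k : Fin (rank K) → ℤ, unitWeight K (unitParam K (1, k) • X)
      = (torsionOrder K : ℝ)⁻¹ * ∏ i, tent (unitCoord K X i + k i) := by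
    intro k
    rw [unitWeight_of_norm_ne_zero K (by rwa [norm_unit_smul]),
      unitCoord_unitParam_smul K (1, k) X hX]
  simp only [hterm]
  rw [← Finset.mul_sum]
  have key := Finset.prod_univ_sum (fun _ : Fin (rank K) => ({-1, 0, 1} : Finset ℤ))
    (fun i (j : ℤ) => tent (unitCoord K X i + j))
  rw [← key]
  have hone : ∀ i, ∑ j ∈ ({-1, 0, 1} : Finset ℤ), tent (unitCoord K X i + j) = 1 :=
    fun i => tent_sum_three (abs_unitCoord_lt_one_of_unitWeight_ne_zero K h i)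
  simp only [hone, Finset.prod_const_one, mul_one]
  exact mul_inv_cancel₀ (by exact_mod_cast (torsionOrder_pos K).ne')

/-- The weight on `K`. -/
noncomputable def unitWeightK (x : K) : ℝ := unitWeight K (mixedEmbedding K x)

theorem norm_mixedEmbedding_ne_zero {x : K} (hx : x ≠ 0) :
    mixedEmbedding.norm (mixedEmbedding K x) ≠ 0 := by
  rw [norm_eq_norm]
  exact_mod_cast abs_ne_zero.2 ((Algebra.norm_ne_zero_iff).2 hx)

theorem unitWeightK_unit_mul (ε : (𝓞 K)ˣ) (x : K) :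
    unitWeightK K (((ε : 𝓞 K) : K) * x) = unitWeight K (ε • mixedEmbedding K x) := by
  unfold unitWeightK
  rw [unitSMul_smul, map_mul]

theorem abs_log_one_add_le {t δ : ℝ} (hδ : δ ≤ 1 / 2) (ht : |t - 1| ≤ δ) :
    |Real.log t| ≤ 2 * δ := by
  have hδ0 : 0 ≤ δ := (abs_nonneg _).trans ht
  rw [abs_le] at ht
  have htpos : 0 < t := by linarith
  rw [abs_le]
  constructor
  · have h1 := Real.one_sub_inv_le_log_of_pos htpos
    have h3 : t⁻¹ ≤ 1 + 2 * δ := by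
      have hd : (0 : ℝ) < 1 - δ := by linarith
      have h4 : t⁻¹ ≤ (1 - δ)⁻¹ := inv_anti₀ hd (by linarith)
      have h5 : (1 - δ)⁻¹ ≤ 1 + 2 * δ := by
        rw [inv_le_iff_one_le_mul₀ hd]
        nlinarith
      exact h4.trans h5
    linarith
  · have h1 := Real.log_le_sub_one_of_pos htpos
    linarith

/-- **N4c-W.** -/
theorem unitWeightStatement : UnitWeightStatement := by
  intro K _ _
  classical
  refine ⟨unitWeightK K, coverSet K, Real.exp (suppConst K),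
    lipConst K * 2, Real.exp_pos _, mul_nonneg (lipConst_nonneg K) (by norm_num),
    fun x => unitWeight_nonneg K _, fun x => unitWeight_le_one K _, ?_, ?_, ?_, ?_⟩
  · -- partition
    intro x hx
    have h := hasSum_unitWeight_smul K (mixedEmbedding K x) (norm_mixedEmbedding_ne_zero K hx)
    refine h.congr_fun ?_
    intro ε
    exact unitWeightK_unit_mul K ε x
  · -- cover
    intro x hx hw
    have h := unitWeight_cover K (X := mixedEmbedding K x) hw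
    have e : ∑ ε ∈ coverSet K, unitWeightK K (((ε : 𝓞 K) : K) * x)
        = ∑ u ∈ coverSet K, unitWeight K (u • mixedEmbedding K x) :=
      Finset.sum_congr rfl fun ε _ => unitWeightK_unit_mul K ε x
    rw [e, h]
  · -- support
    intro x hx hw v
    have h := norm_le_of_unitWeight_ne_zero K (X := mixedEmbedding K x) hw v
    rw [norm_eq_norm, normAtPlace_apply] at h
    rwa [Rat.cast_abs] at h
  · -- Lipschitz
    intro x u hx δ hδ hu
    have hδ0 : 0 ≤ δ := (apply_nonneg (w₀ : InfinitePlace K) u).trans (hu w₀)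
    have h1u : ∀ v : InfinitePlace K, |v (1 + u) - 1| ≤ δ := by
      intro v
      have := v.1.abs_abv_sub_le_abv_sub (1 + u) 1
      rw [add_sub_cancel_left] at this
      have h1 : v.1 1 = 1 := v.1.map_one
      rw [h1] at this
      exact this.trans (hu v)
    have hne : (1 : K) + u ≠ 0 := by
      intro h0
      have := h1u w₀
      rw [h0, map_zero] at this
      norm_num at this
      linarith
    have hxu : x * (1 + u) ≠ 0 := mul_ne_zero hx hne
    have h := abs_unitWeight_sub_le K (X := mixedEmbedding K x)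
      (Y := mixedEmbedding K (x * (1 + u)))
      (norm_mixedEmbedding_ne_zero K hx) (norm_mixedEmbedding_ne_zero K hxu) (ε := 2 * δ) (by
        intro v
        rw [normAtPlace_apply, normAtPlace_apply, map_mul,
          Real.log_mul ((map_ne_zero v).2 hx) ((map_ne_zero v).2 hne), add_sub_cancel_left]
        exact abs_log_one_add_le hδ (h1u v))
    unfold unitWeightK
    calc |unitWeight K (mixedEmbedding K (x * (1 + u))) - unitWeight K (mixedEmbedding K x)|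
        ≤ lipConst K * (2 * δ) := h
      _ = lipConst K * 2 * δ := by ring

end Fermat.Agent.S14


end ZBS14_003_1

/-! ### bundled: `Fermat.Agent.S14.EulerFinal` -/
section ZBS14_003_2

/-!
# S14, piece N4c-Z: `IdealZetaStatement`

Glue of `Euler.lean` (E1a, E1b, E2, E3), `EulerAux.lean` and `GoodPrimeFinal.lean`
(`exists_zeta_le`, `exists_le_zeta`): `idealZetaStatement : IdealZetaStatement`.
-/

set_option autoImplicit false

open NumberField IsDedekindDomain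

namespace Fermat.Agent.S14

/-- **N4c-Z**. -/
theorem idealZetaStatement : IdealZetaStatement := by
  intro K _ _
  refine ⟨fun s hs ↦ summable_absNorm_rpow K hs, ?_⟩
  obtain ⟨C, hC, h⟩ := exists_zeta_le K
  refine ⟨C, fun s hs hs2 ↦ ?_⟩
  have hs' : 0 < s - 1 := sub_pos.mpr hs
  have := h s hs hs2
  rw [le_div_iff₀ hs'] at this
  linarith

end Fermat.Agent.S14


end ZBS14_003_2

/-! ### bundled: `Fermat.Agent.S14.OrbitSum` -/
section ZBS14_003_3

/-!
# S14, piece N4c-F: the orbit formula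

`fiberwise_of_summable` / `fiberwise_of_idealZeta : IdealZetaStatement → FiberwiseStatement`.

For a nonzero ideal `𝔠` the map `x ↦ (x) 𝔠⁻¹` from `𝔠 ∖ 0` onto the integral ideals in the class of
`𝔠⁻¹` has the unit orbits as fibres, and `|N x| = N 𝔠 · N ((x) 𝔠⁻¹)`.
-/

set_option autoImplicit false
set_option linter.unusedSectionVars false

open NumberField nonZeroDivisors

namespace Fermat.Agent.S14

section OrbitSum

variable {K : Type} [Field K] [NumberField K]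

/-- `|N_{K/ℚ} x|` is the absolute norm of the principal ideal `(x)`. -/
theorem os_abs_norm (x : 𝓞 K) :
    |(Algebra.norm ℚ ((x : 𝓞 K) : K) : ℝ)| = (Ideal.absNorm (Ideal.span {x}) : ℝ) := by
  rw [Ideal.absNorm_span_singleton, ← Algebra.coe_norm_int, Nat.cast_natAbs]
  push_cast
  rfl

variable (𝔠 : nonZeroDivisors (Ideal (𝓞 K)))

/-- The elements of `𝔠 ∖ 0`. -/
abbrev OsX : Type := {x : 𝓞 K // x ∈ (𝔠 : Ideal (𝓞 K)) ∧ x ≠ 0}

/-- The integral ideals in the class of `𝔠⁻¹`. -/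
abbrev OsJ : Type :=
  {I : nonZeroDivisors (Ideal (𝓞 K)) // ClassGroup.mk0 I = (ClassGroup.mk0 𝔠)⁻¹}

theorem os_c_ne : (𝔠 : Ideal (𝓞 K)) ≠ 0 := nonZeroDivisors.coe_ne_zero 𝔠

/-- Every `x ∈ 𝔠 ∖ 0` generates `𝔠 * I` for some `I` in the class of `𝔠⁻¹`. -/
theorem os_exists (x : OsX 𝔠) :
    ∃ I : OsJ 𝔠, Ideal.span {(x : 𝓞 K)} = (𝔠 : Ideal (𝓞 K)) * ((I : nonZeroDivisors (Ideal (𝓞 K))) : Ideal (𝓞 K)) := by
  have hle : Ideal.span {(x : 𝓞 K)} ≤ (𝔠 : Ideal (𝓞 K)) :=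
    (Ideal.span_singleton_le_iff_mem _).mpr x.2.1
  obtain ⟨J, hJ⟩ := Ideal.dvd_iff_le.mpr hle
  have hspan : Ideal.span {(x : 𝓞 K)} ≠ 0 := by
    rw [Ne, Ideal.zero_eq_bot, Ideal.span_singleton_eq_bot]
    exact x.2.2
  have hJ0 : J ≠ 0 := by
    rintro rfl
    rw [mul_zero] at hJ
    exact hspan hJ
  have hJmem : J ∈ nonZeroDivisors (Ideal (𝓞 K)) := mem_nonZeroDivisors_iff_ne_zero.mpr hJ0
  refine ⟨⟨⟨J, hJmem⟩, ?_⟩, hJ⟩
  rw [ClassGroup.mk0_eq_mk0_inv_iff]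
  exact ⟨(x : 𝓞 K), x.2.2, by rw [mul_comm]; exact hJ.symm⟩

/-- The map `x ↦ (x) 𝔠⁻¹`. -/
noncomputable def osPhi (x : OsX 𝔠) : OsJ 𝔠 := Classical.choose (os_exists 𝔠 x)

theorem osPhi_spec (x : OsX 𝔠) :
    Ideal.span {(x : 𝓞 K)} =
      (𝔠 : Ideal (𝓞 K)) * (((osPhi 𝔠 x : OsJ 𝔠) : nonZeroDivisors (Ideal (𝓞 K))) : Ideal (𝓞 K)) :=
  Classical.choose_spec (os_exists 𝔠 x)

theorem osPhi_eq_iff (x : OsX 𝔠) (I : OsJ 𝔠) :
    osPhi 𝔠 x = I ↔ Ideal.span {(x : 𝓞 K)} =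
      (𝔠 : Ideal (𝓞 K)) * ((I : nonZeroDivisors (Ideal (𝓞 K))) : Ideal (𝓞 K)) := by
  constructor
  · rintro rfl
    exact osPhi_spec 𝔠 x
  · intro h
    have h1 := osPhi_spec 𝔠 x
    rw [h] at h1
    have h2 := mul_left_cancel₀ (os_c_ne 𝔠) h1
    exact Subtype.ext (Subtype.ext h2.symm)

/-- `|N x| = N 𝔠 · N I` on the fibre over `I`. -/
theorem os_norm_eq (x : OsX 𝔠) :
    |(Algebra.norm ℚ (((x : 𝓞 K)) : K) : ℝ)| =
      (Ideal.absNorm (𝔠 : Ideal (𝓞 K)) : ℝ) *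
        (Ideal.absNorm (((osPhi 𝔠 x : OsJ 𝔠) : nonZeroDivisors (Ideal (𝓞 K))) : Ideal (𝓞 K)) : ℝ) := by
  rw [os_abs_norm, osPhi_spec 𝔠 x, map_mul]
  push_cast
  rfl

/-- The fibre of `osPhi` over `I` is a single orbit of the unit group: the sum of `w` over it
is `1`. -/
theorem os_fibre_hasSum (w : K → ℝ)
    (hU : ∀ x : K, x ≠ 0 → HasSum (fun ε : (𝓞 K)ˣ => w (((ε : 𝓞 K) : K) * x)) 1)
    (I : OsJ 𝔠) :
    HasSum (fun x : {x : OsX 𝔠 // osPhi 𝔠 x = I} => w (((x : OsX 𝔠) : 𝓞 K) : K)) 1 := by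
  -- a generator of `𝔠 * I`
  obtain ⟨x₀, hx₀ne, hx₀⟩ := ClassGroup.mk0_eq_mk0_inv_iff.mp I.2
  have hx₀' : Ideal.span {x₀} = (𝔠 : Ideal (𝓞 K)) *
      ((I : nonZeroDivisors (Ideal (𝓞 K))) : Ideal (𝓞 K)) := by
    rw [← hx₀, mul_comm]
  have hI0 : (((I : nonZeroDivisors (Ideal (𝓞 K))) : Ideal (𝓞 K))) ≠ 0 :=
    nonZeroDivisors.coe_ne_zero _
  have hmem : ∀ ε : (𝓞 K)ˣ, (ε : 𝓞 K) * x₀ ∈ (𝔠 : Ideal (𝓞 K)) ∧ (ε : 𝓞 K) * x₀ ≠ 0 := by
    intro ε
    refine ⟨?_, mul_ne_zero ε.ne_zero hx₀ne⟩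
    have : x₀ ∈ (𝔠 : Ideal (𝓞 K)) := by
      have h1 : x₀ ∈ Ideal.span {x₀} := Ideal.mem_span_singleton_self x₀
      rw [hx₀'] at h1
      exact Ideal.mul_le_left h1
    exact Ideal.mul_mem_left _ _ this
  have hspanε : ∀ ε : (𝓞 K)ˣ, Ideal.span {(ε : 𝓞 K) * x₀} = Ideal.span {x₀} := by
    intro ε
    exact Ideal.span_singleton_mul_left_unit ε.isUnit x₀
  let u : (𝓞 K)ˣ → {x : OsX 𝔠 // osPhi 𝔠 x = I} := fun ε =>
    ⟨⟨(ε : 𝓞 K) * x₀, hmem ε⟩, (osPhi_eq_iff 𝔠 _ I).mpr (by rw [← hx₀']; exact hspanε ε)⟩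
  have hu : Function.Bijective u := by
    constructor
    · intro ε ε' h
      have h1 : (ε : 𝓞 K) * x₀ = (ε' : 𝓞 K) * x₀ :=
        congrArg (fun y : {x : OsX 𝔠 // osPhi 𝔠 x = I} => ((y : OsX 𝔠) : 𝓞 K)) h
      exact Units.ext (mul_right_cancel₀ hx₀ne h1)
    · intro x
      have h1 := (osPhi_eq_iff 𝔠 x.1 I).mp x.2
      rw [← hx₀'] at h1
      obtain ⟨ε, hε⟩ := (Ideal.span_singleton_eq_span_singleton.mp h1.symm)
      refine ⟨ε, ?_⟩
      apply Subtype.ext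
      apply Subtype.ext
      change (ε : 𝓞 K) * x₀ = _
      rw [mul_comm]; exact hε
  have h2 := hU (x₀ : K) (by exact_mod_cast hx₀ne)
  have h3 : (fun ε : (𝓞 K)ˣ => w (((ε : 𝓞 K) : K) * (x₀ : K))) =
      (fun x : {x : OsX 𝔠 // osPhi 𝔠 x = I} => w (((x : OsX 𝔠) : 𝓞 K) : K)) ∘
        (Equiv.ofBijective u hu) := by
    funext ε
    simp [u]
  rw [h3] at h2
  exact (Equiv.hasSum_iff (Equiv.ofBijective u hu)).mp h2

/-- The orbit formula, given the summability of the ideal sum. -/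
theorem os_hasSum (w : K → ℝ) (hw : ∀ x, 0 ≤ w x)
    (hU : ∀ x : K, x ≠ 0 → HasSum (fun ε : (𝓞 K)ˣ => w (((ε : 𝓞 K) : K) * x)) 1)
    (s : ℝ)
    (hsum : Summable (fun I : nonZeroDivisors (Ideal (𝓞 K)) =>
      ((Ideal.absNorm (I : Ideal (𝓞 K)) : ℝ) ^ (-s)))) :
    HasSum
      (fun x : {x : 𝓞 K // x ∈ (𝔠 : Ideal (𝓞 K)) ∧ x ≠ 0} =>
        w ((x : 𝓞 K) : K) * |(Algebra.norm ℚ (((x : 𝓞 K) : K)) : ℝ)| ^ (-s))
      ((Ideal.absNorm (𝔠 : Ideal (𝓞 K)) : ℝ) ^ (-s) *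
        ∑' I : {I : nonZeroDivisors (Ideal (𝓞 K)) //
            ClassGroup.mk0 I = (ClassGroup.mk0 𝔠)⁻¹},
          (Ideal.absNorm ((I : nonZeroDivisors (Ideal (𝓞 K))) : Ideal (𝓞 K)) : ℝ) ^ (-s)) := by
  set f : OsX 𝔠 → ℝ := fun x =>
    w ((x : 𝓞 K) : K) * |(Algebra.norm ℚ (((x : 𝓞 K) : K)) : ℝ)| ^ (-s) with hf
  set g : OsJ 𝔠 → ℝ := fun I => (Ideal.absNorm (𝔠 : Ideal (𝓞 K)) : ℝ) ^ (-s) *
    (Ideal.absNorm ((I : nonZeroDivisors (Ideal (𝓞 K))) : Ideal (𝓞 K)) : ℝ) ^ (-s) with hg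
  -- fibrewise sums
  have h1 : ∀ I : OsJ 𝔠, HasSum (fun x : {x : OsX 𝔠 // osPhi 𝔠 x = I} => f x) (g I) := by
    intro I
    have h2 := (os_fibre_hasSum 𝔠 w hU I).mul_right (g I)
    rw [one_mul] at h2
    refine h2.congr_fun ?_
    rintro ⟨x, hx⟩
    simp only [hf, hg]
    rw [os_norm_eq 𝔠 x, hx, Real.mul_rpow (Nat.cast_nonneg _) (Nat.cast_nonneg _)]
  -- summability of `g`
  have h3 : Summable g := by
    have h4 : Summable (fun I : OsJ 𝔠 =>
        (Ideal.absNorm ((I : nonZeroDivisors (Ideal (𝓞 K))) : Ideal (𝓞 K)) : ℝ) ^ (-s)) :=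
      hsum.subtype _
    exact h4.mul_left _
  -- the sum over the sigma type
  set F : (Σ I : OsJ 𝔠, {x : OsX 𝔠 // osPhi 𝔠 x = I}) → ℝ := fun q => f q.2 with hF
  have hF0 : ∀ q, 0 ≤ F q := fun q =>
    mul_nonneg (hw _) (Real.rpow_nonneg (abs_nonneg _) _)
  have h5 : Summable F := by
    rw [summable_sigma_of_nonneg hF0]
    refine ⟨fun I => (h1 I).summable, ?_⟩
    have h6 : (fun I : OsJ 𝔠 => ∑' y : {x : OsX 𝔠 // osPhi 𝔠 x = I}, F ⟨I, y⟩) = g := by
      funext I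
      exact (h1 I).tsum_eq
    rw [h6]
    exact h3
  have h7 : HasSum F (∑' I, g I) := HasSum.sigma_of_hasSum h3.hasSum h1 h5
  have h8 : HasSum f (∑' I, g I) := by
    have h9 : F = f ∘ (Equiv.sigmaFiberEquiv (osPhi 𝔠)) := by
      funext q
      rfl
    rw [h9] at h7
    exact (Equiv.hasSum_iff (Equiv.sigmaFiberEquiv (osPhi 𝔠))).mp h7
  have h10 : ∑' I, g I = (Ideal.absNorm (𝔠 : Ideal (𝓞 K)) : ℝ) ^ (-s) *
      ∑' I : OsJ 𝔠,
        (Ideal.absNorm ((I : nonZeroDivisors (Ideal (𝓞 K))) : Ideal (𝓞 K)) : ℝ) ^ (-s) := by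
    simp only [hg]
    rw [tsum_mul_left]
  rw [← h10]
  exact h8

end OrbitSum

/-- **S14, piece N4c-F**: the orbit formula, given summability of `∑_I N(I)^(-s)` for `s > 1`. -/
theorem fiberwise_of_summable
    (hsum : ∀ (K : Type) [Field K] [NumberField K] (s : ℝ), 1 < s →
      Summable (fun I : nonZeroDivisors (Ideal (𝓞 K)) =>
        ((Ideal.absNorm (I : Ideal (𝓞 K)) : ℝ) ^ (-s)))) :
    FiberwiseStatement := by
  intro K _ _ w hw hU 𝔠 s hs
  exact os_hasSum 𝔠 w hw hU s (hsum K s hs)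

/-- **S14, piece N4c-F**: `IdealZetaStatement → FiberwiseStatement`. -/
theorem fiberwise_of_idealZeta (h : IdealZetaStatement) : FiberwiseStatement :=
  fiberwise_of_summable fun K _ _ s hs => (h K).1 s hs

end Fermat.Agent.S14


end ZBS14_003_3

/-! ### bundled: `Fermat.Agent.PT.G2.OrbitWeighted` -/
section ZBS14_003_4

/-!
# Project PT, piece G2-L1: the weighted orbit formula

`os_hasSum_weighted`: the orbit formula of `Fermat.Agent.S14.os_hasSum` with a bounded weight `Φ`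
on the ideals inserted (`φ x = Φ ((x) 𝔠⁻¹)` is automatically invariant under the units).
-/

set_option autoImplicit false
set_option linter.unusedSectionVars false

open NumberField nonZeroDivisors

namespace Fermat.Agent.PT.G2

open Fermat.Agent.S14

/-- **PT-G2, piece L1**: the orbit formula with a bounded weight on the ideals. -/
theorem os_hasSum_weighted {K : Type} [Field K] [NumberField K] (𝔠 : (Ideal (𝓞 K))⁰)
    (w : K → ℝ) (hw : ∀ x, 0 ≤ w x)
    (hU : ∀ x : K, x ≠ 0 → HasSum (fun ε : (𝓞 K)ˣ => w (((ε : 𝓞 K) : K) * x)) 1) (s : ℝ)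
    (hsum : Summable (fun I : (Ideal (𝓞 K))⁰ => ((Ideal.absNorm (I : Ideal (𝓞 K)) : ℝ) ^ (-s))))
    (Φ : Ideal (𝓞 K) → ℂ) (hΦ : ∀ I, ‖Φ I‖ ≤ 1) (φ : 𝓞 K → ℂ)
    (hφ : ∀ (x : 𝓞 K) (I : Ideal (𝓞 K)), x ≠ 0 → Ideal.span {x} = (𝔠 : Ideal (𝓞 K)) * I →
      φ x = Φ I) :
    HasSum (fun x : {x : 𝓞 K // x ∈ (𝔠 : Ideal (𝓞 K)) ∧ x ≠ 0} =>
        φ (x : 𝓞 K) *
          ((w ((x : 𝓞 K) : K) * |(Algebra.norm ℚ (((x : 𝓞 K) : K)) : ℝ)| ^ (-s) : ℝ) : ℂ))
      (((Ideal.absNorm (𝔠 : Ideal (𝓞 K)) : ℝ) ^ (-s) : ℝ) *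
        ∑' I : {I : (Ideal (𝓞 K))⁰ // ClassGroup.mk0 I = (ClassGroup.mk0 𝔠)⁻¹},
          Φ ((I : (Ideal (𝓞 K))⁰) : Ideal (𝓞 K)) *
            ((Ideal.absNorm ((I : (Ideal (𝓞 K))⁰) : Ideal (𝓞 K)) : ℝ) ^ (-s) : ℝ)) := by
  -- the real functions of `os_hasSum`
  set f₀ : OsX 𝔠 → ℝ := fun x =>
    w ((x : 𝓞 K) : K) * |(Algebra.norm ℚ (((x : 𝓞 K) : K)) : ℝ)| ^ (-s) with hf₀
  set g₀ : OsJ 𝔠 → ℝ := fun I => (Ideal.absNorm (𝔠 : Ideal (𝓞 K)) : ℝ) ^ (-s) *
    (Ideal.absNorm ((I : (Ideal (𝓞 K))⁰) : Ideal (𝓞 K)) : ℝ) ^ (-s) with hg₀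
  set f : OsX 𝔠 → ℂ := fun x => φ (x : 𝓞 K) * ((f₀ x : ℝ) : ℂ) with hf
  set g : OsJ 𝔠 → ℂ := fun I =>
    Φ ((I : (Ideal (𝓞 K))⁰) : Ideal (𝓞 K)) * ((g₀ I : ℝ) : ℂ) with hg
  have hf₀_nonneg : ∀ x, 0 ≤ f₀ x := fun x =>
    mul_nonneg (hw _) (Real.rpow_nonneg (abs_nonneg _) _)
  have hg₀_nonneg : ∀ I, 0 ≤ g₀ I := fun I =>
    mul_nonneg (Real.rpow_nonneg (Nat.cast_nonneg _) _) (Real.rpow_nonneg (Nat.cast_nonneg _) _)
  -- `φ` is constant on the fibres
  have hφfib : ∀ x : OsX 𝔠, φ (x : 𝓞 K) =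
      Φ (((osPhi 𝔠 x : OsJ 𝔠) : (Ideal (𝓞 K))⁰) : Ideal (𝓞 K)) := fun x =>
    hφ (x : 𝓞 K) _ x.2.2 (osPhi_spec 𝔠 x)
  -- fibrewise sums
  have h1 : ∀ I : OsJ 𝔠, HasSum (fun x : {x : OsX 𝔠 // osPhi 𝔠 x = I} => f x) (g I) := by
    intro I
    have h2 : HasSum (fun x : {x : OsX 𝔠 // osPhi 𝔠 x = I} =>
        ((w (((x : OsX 𝔠) : 𝓞 K) : K) : ℝ) : ℂ)) ((1 : ℝ) : ℂ) :=
      Complex.hasSum_ofReal.mpr (os_fibre_hasSum 𝔠 w hU I)
    have h3 := h2.mul_left (g I)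
    rw [Complex.ofReal_one, mul_one] at h3
    refine h3.congr_fun ?_
    rintro ⟨x, hx⟩
    simp only [hf, hg, hf₀, hg₀]
    rw [hφfib x, hx, os_norm_eq 𝔠 x, hx,
      Real.mul_rpow (Nat.cast_nonneg _) (Nat.cast_nonneg _)]
    push_cast
    ring
  -- summability of `g₀` and `g`
  have hg₀sum : Summable g₀ := by
    have h4 : Summable (fun I : OsJ 𝔠 =>
        (Ideal.absNorm ((I : (Ideal (𝓞 K))⁰) : Ideal (𝓞 K)) : ℝ) ^ (-s)) :=
      hsum.subtype _
    exact h4.mul_left _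
  have hgnorm : ∀ I, ‖g I‖ ≤ g₀ I := by
    intro I
    simp only [hg]
    rw [norm_mul, Complex.norm_real, Real.norm_of_nonneg (hg₀_nonneg I)]
    exact mul_le_of_le_one_left (hg₀_nonneg I) (hΦ _)
  have hgsum : Summable g := Summable.of_norm_bounded hg₀sum hgnorm
  -- summability of `f₀` (from `os_hasSum`) and `f`
  have hf₀sum : Summable f₀ := (os_hasSum 𝔠 w hw hU s hsum).summable
  have hfnorm : ∀ x, ‖f x‖ ≤ f₀ x := by
    intro x
    simp only [hf]
    rw [norm_mul, Complex.norm_real, Real.norm_of_nonneg (hf₀_nonneg x), hφfib x]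
    exact mul_le_of_le_one_left (hf₀_nonneg x) (hΦ _)
  have hfsum : Summable f := Summable.of_norm_bounded hf₀sum hfnorm
  -- the sum over the sigma type
  set F : (Σ I : OsJ 𝔠, {x : OsX 𝔠 // osPhi 𝔠 x = I}) → ℂ := fun q => f q.2 with hF
  have h9 : F = f ∘ (Equiv.sigmaFiberEquiv (osPhi 𝔠)) := by
    funext q
    rfl
  have h5 : Summable F := by
    rw [h9]
    exact (Equiv.summable_iff (Equiv.sigmaFiberEquiv (osPhi 𝔠))).mpr hfsum
  have h7 : HasSum F (∑' I, g I) := HasSum.sigma_of_hasSum hgsum.hasSum h1 h5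
  have h8 : HasSum f (∑' I, g I) := by
    rw [h9] at h7
    exact (Equiv.hasSum_iff (Equiv.sigmaFiberEquiv (osPhi 𝔠))).mp h7
  have h10 : ∑' I, g I = (((Ideal.absNorm (𝔠 : Ideal (𝓞 K)) : ℝ) ^ (-s) : ℝ) : ℂ) *
      ∑' I : OsJ 𝔠, Φ ((I : (Ideal (𝓞 K))⁰) : Ideal (𝓞 K)) *
        ((Ideal.absNorm ((I : (Ideal (𝓞 K))⁰) : Ideal (𝓞 K)) : ℝ) ^ (-s) : ℝ) := by
    rw [← tsum_mul_left]
    refine tsum_congr fun I => ?_
    simp only [hg, hg₀]
    push_cast
    ring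
  rw [← h10]
  exact h8

end Fermat.Agent.PT.G2


end ZBS14_003_4
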