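/- GENERATED FILE (helper35, build-time optimisation, NOTES/ZB.md): verbatim concatenation of the modules
   Fermat.Agent.S14.LBoundedCoset
   Do not edit; do not import together with these modules. -/
import Mathlib

/-! ### bundled: `Fermat.Agent.S14.LBoundedCoset` -/
section ZBS14_005_0

/-!
# S14, piece N4c (C): decomposition of a sum over `𝓞 K` along the cosets of an ideal
-/

set_option autoImplicit false
set_option linter.style.haveILetI false

open NumberField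

namespace Fermat.Agent.S14

theorem natCard_quot_eq_absNorm (K : Type) [Field K] [NumberField K]
    (𝔠 : nonZeroDivisors (Ideal (𝓞 K))) :
    Nat.card (𝓞 K ⧸ (𝔠 : Ideal (𝓞 K))) = Ideal.absNorm (𝔠 : Ideal (𝓞 K)) := by
  rw [Ideal.absNorm_apply, Submodule.cardQuot_apply]

theorem lb_finite_quot (K : Type) [Field K] [NumberField K]
    (𝔠 : nonZeroDivisors (Ideal (𝓞 K))) : Finite (𝓞 K ⧸ (𝔠 : Ideal (𝓞 K))) :=
  Ideal.finiteQuotientOfFreeOfNeBot _ (nonZeroDivisors.coe_ne_zero 𝔠)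

/-- The translation equivalence between an ideal and one of its cosets. -/
noncomputable def lbCosetEquiv (K : Type) [Field K] [NumberField K]
    (𝔠 : Ideal (𝓞 K)) (q : 𝓞 K ⧸ 𝔠) :
    (𝔠 : Ideal (𝓞 K)) ≃ {y : 𝓞 K // Ideal.Quotient.mk 𝔠 y = q} where
  toFun x := ⟨(x : 𝓞 K) + Quotient.out q, by
    rw [map_add, Ideal.Quotient.eq_zero_iff_mem.mpr x.2, zero_add]
    exact Quotient.out_eq q⟩
  invFun y := ⟨(y : 𝓞 K) - Quotient.out q, by
    rw [← Ideal.Quotient.eq_zero_iff_mem, map_sub, y.2, sub_eq_zero]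
    exact (Quotient.out_eq q).symm⟩
  left_inv x := by
    apply Subtype.ext
    simp
  right_inv y := by
    apply Subtype.ext
    simp

theorem tsum_eq_finsum_cosets (K : Type) [Field K] [NumberField K]
    (𝔠 : nonZeroDivisors (Ideal (𝓞 K))) (F : 𝓞 K → ℝ) (hF : Summable F) :
    ∑' y : 𝓞 K, F y = ∑ᶠ q : 𝓞 K ⧸ (𝔠 : Ideal (𝓞 K)),
      ∑' x : (𝔠 : Ideal (𝓞 K)), F ((x : 𝓞 K) + Quotient.out q) := by
  haveI := lb_finite_quot K 𝔠
  haveI : Fintype (𝓞 K ⧸ (𝔠 : Ideal (𝓞 K))) := Fintype.ofFinite _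
  have h1 : HasSum (fun q : 𝓞 K ⧸ (𝔠 : Ideal (𝓞 K)) =>
      ∑' y : {y : 𝓞 K // Ideal.Quotient.mk (𝔠 : Ideal (𝓞 K)) y = q}, F y) (∑' y : 𝓞 K, F y) := by
    have := hF.hasSum.tsum_fiberwise (Ideal.Quotient.mk (𝔠 : Ideal (𝓞 K)))
    exact this
  rw [← h1.tsum_eq, tsum_fintype, finsum_eq_sum_of_fintype]
  refine Finset.sum_congr rfl fun q _ => ?_
  rw [← (lbCosetEquiv K (𝔠 : Ideal (𝓞 K)) q).tsum_eq]
  rfl

end Fermat.Agent.S14


end ZBS14_005_0
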