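/- GENERATED FILE (helper35, build-time optimisation, NOTES/ZB.md): verbatim concatenation of the modules
   Fermat.Agent.S14.LBoundedChar
   Fermat.Agent.S14.LBounded
   Fermat.Agent.S14.LBoundedFinal
   Do not edit; do not import together with these modules. -/
import Mathlib
import Fermat.Agent.ZB.S14_003
import Fermat.Agent.ZB.S14_004
import Fermat.Agent.ZB.S14_005

/-! ### bundled: `Fermat.Agent.S14.LBoundedChar` -/
section ZBS14_006_0

/-!
# S14, piece N4c (E): from per-class bounds to the bound for the `L`-series of a character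

`lBounded_of_classDiff`: if the partial zeta functions of the ideal classes differ from the one of
the trivial class by bounded functions on `(1, 2]`, then the `L`-series of every nontrivial class
group character is bounded on `(1, 2]`.
-/

set_option autoImplicit false
set_option linter.style.haveILetI false

open NumberField

namespace Fermat.Agent.S14

/-- A class group character has values of norm one. -/
theorem lb_norm_char (K : Type) [Field K] [NumberField K]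
    (χ : ClassGroup (𝓞 K) →* ℂˣ) (c : ClassGroup (𝓞 K)) : ‖((χ c : ℂˣ) : ℂ)‖ = 1 := by
  have h1 : (χ c) ^ Fintype.card (ClassGroup (𝓞 K)) = 1 := by
    rw [← map_pow, pow_card_eq_one, map_one]
  have h2 : ((χ c : ℂˣ) : ℂ) ^ Fintype.card (ClassGroup (𝓞 K)) = 1 := by
    have := congrArg (fun u : ℂˣ => (u : ℂ)) h1
    simpa using this
  exact Complex.norm_eq_one_of_pow_eq_one h2 Fintype.card_ne_zero

/-- The sum of the values of a nontrivial class group character vanishes. -/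
theorem lb_sum_char (K : Type) [Field K] [NumberField K]
    (χ : ClassGroup (𝓞 K) →* ℂˣ) (hχ : χ ≠ 1) :
    ∑ c : ClassGroup (𝓞 K), ((χ c : ℂˣ) : ℂ) = 0 := by
  have h1 : (Units.coeHom ℂ).comp χ ≠ 1 := by
    intro h
    apply hχ
    ext c
    have := DFunLike.congr_fun h c
    simpa using this
  have := sum_hom_units_eq_zero ((Units.coeHom ℂ).comp χ) h1
  simpa using this

/-- The `L`-series of a class group character as a finite combination of the partial zeta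
functions. -/
theorem lb_lseries_eq (K : Type) [Field K] [NumberField K]
    (χ : ClassGroup (𝓞 K) →* ℂˣ) (s : ℝ)
    (hsum : Summable (fun I : nonZeroDivisors (Ideal (𝓞 K)) =>
      ((Ideal.absNorm (I : Ideal (𝓞 K)) : ℝ) ^ (-s)))) :
    ∑' I : nonZeroDivisors (Ideal (𝓞 K)),
        ((χ (ClassGroup.mk0 I) : ℂˣ) : ℂ) *
          ((Ideal.absNorm (I : Ideal (𝓞 K)) : ℝ) ^ (-s) : ℝ) =
      ∑ c : ClassGroup (𝓞 K), ((χ c : ℂˣ) : ℂ) *
        ((∑' I : {I : nonZeroDivisors (Ideal (𝓞 K)) // ClassGroup.mk0 I = c},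
          (Ideal.absNorm ((I : nonZeroDivisors (Ideal (𝓞 K))) : Ideal (𝓞 K)) : ℝ) ^ (-s) : ℝ) : ℂ) := by
  set f : nonZeroDivisors (Ideal (𝓞 K)) → ℂ := fun I =>
    ((χ (ClassGroup.mk0 I) : ℂˣ) : ℂ) * ((Ideal.absNorm (I : Ideal (𝓞 K)) : ℝ) ^ (-s) : ℝ) with hf
  have hfs : Summable f := by
    refine Summable.of_norm_bounded hsum fun I => ?_
    simp only [hf, norm_mul, lb_norm_char, one_mul, Complex.norm_real, Real.norm_eq_abs]
    rw [abs_of_nonneg (Real.rpow_nonneg (Nat.cast_nonneg _) _)]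
  have h1 := hfs.hasSum.tsum_fiberwise (fun I : nonZeroDivisors (Ideal (𝓞 K)) => ClassGroup.mk0 I)
  rw [← h1.tsum_eq, tsum_fintype]
  refine Finset.sum_congr rfl fun c _ => ?_
  have h2 : ∀ I : {I : nonZeroDivisors (Ideal (𝓞 K)) // ClassGroup.mk0 I = c},
      f I = ((χ c : ℂˣ) : ℂ) *
        (((Ideal.absNorm ((I : nonZeroDivisors (Ideal (𝓞 K))) : Ideal (𝓞 K)) : ℝ) ^ (-s) : ℝ) : ℂ) := by
    intro I
    simp only [hf, I.2]
  have h3 : (∑' I : {I : nonZeroDivisors (Ideal (𝓞 K)) // ClassGroup.mk0 I = c}, f I) =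
      ∑' I : {I : nonZeroDivisors (Ideal (𝓞 K)) // ClassGroup.mk0 I = c}, ((χ c : ℂˣ) : ℂ) *
        (((Ideal.absNorm ((I : nonZeroDivisors (Ideal (𝓞 K))) : Ideal (𝓞 K)) : ℝ) ^ (-s) : ℝ) : ℂ) :=
    tsum_congr h2
  have h4 : (∑' I : ((fun I : nonZeroDivisors (Ideal (𝓞 K)) => ClassGroup.mk0 I) ⁻¹' {c}), f I) =
      ∑' I : {I : nonZeroDivisors (Ideal (𝓞 K)) // ClassGroup.mk0 I = c}, f I := rfl
  rw [h4, h3, tsum_mul_left, Complex.ofReal_tsum]

theorem lBounded_of_classDiff (K : Type) [Field K] [NumberField K]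
    (hsum : ∀ s : ℝ, 1 < s → Summable (fun I : nonZeroDivisors (Ideal (𝓞 K)) =>
      ((Ideal.absNorm (I : Ideal (𝓞 K)) : ℝ) ^ (-s))))
    (hdiff : ∀ c : ClassGroup (𝓞 K), ∃ C : ℝ, ∀ s : ℝ, 1 < s → s ≤ 2 →
      |(∑' I : {I : nonZeroDivisors (Ideal (𝓞 K)) // ClassGroup.mk0 I = c},
          (Ideal.absNorm ((I : nonZeroDivisors (Ideal (𝓞 K))) : Ideal (𝓞 K)) : ℝ) ^ (-s))
        - ∑' I : {I : nonZeroDivisors (Ideal (𝓞 K)) // ClassGroup.mk0 I = 1},
          (Ideal.absNorm ((I : nonZeroDivisors (Ideal (𝓞 K))) : Ideal (𝓞 K)) : ℝ) ^ (-s)| ≤ C)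
    (χ : ClassGroup (𝓞 K) →* ℂˣ) (hχ : χ ≠ 1) :
    ∃ C : ℝ, ∀ s : ℝ, 1 < s → s ≤ 2 →
      ‖∑' I : nonZeroDivisors (Ideal (𝓞 K)),
        ((χ (ClassGroup.mk0 I) : ℂˣ) : ℂ) *
          ((Ideal.absNorm (I : Ideal (𝓞 K)) : ℝ) ^ (-s) : ℝ)‖ ≤ C := by
  choose C hC using hdiff
  refine ⟨∑ c : ClassGroup (𝓞 K), C c, fun s hs hs2 => ?_⟩
  rw [lb_lseries_eq K χ s (hsum s hs)]
  set Z : ClassGroup (𝓞 K) → ℝ := fun c =>
    ∑' I : {I : nonZeroDivisors (Ideal (𝓞 K)) // ClassGroup.mk0 I = c},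
      (Ideal.absNorm ((I : nonZeroDivisors (Ideal (𝓞 K))) : Ideal (𝓞 K)) : ℝ) ^ (-s) with hZ
  have h1 : ∑ c : ClassGroup (𝓞 K), ((χ c : ℂˣ) : ℂ) * ((Z c : ℝ) : ℂ) =
      ∑ c : ClassGroup (𝓞 K), ((χ c : ℂˣ) : ℂ) * (((Z c - Z 1 : ℝ)) : ℂ) := by
    have h2 : ∑ c : ClassGroup (𝓞 K), ((χ c : ℂˣ) : ℂ) * (((Z c - Z 1 : ℝ)) : ℂ) =
        ∑ c : ClassGroup (𝓞 K), ((χ c : ℂˣ) : ℂ) * ((Z c : ℝ) : ℂ) -
          (∑ c : ClassGroup (𝓞 K), ((χ c : ℂˣ) : ℂ)) * ((Z 1 : ℝ) : ℂ) := by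
      rw [Finset.sum_mul, ← Finset.sum_sub_distrib]
      refine Finset.sum_congr rfl fun c _ => ?_
      push_cast
      ring
    rw [h2, lb_sum_char K χ hχ, zero_mul, sub_zero]
  rw [h1]
  refine (norm_sum_le _ _).trans (Finset.sum_le_sum fun c _ => ?_)
  rw [norm_mul, lb_norm_char, one_mul, Complex.norm_real, Real.norm_eq_abs]
  exact hC c s hs hs2

end Fermat.Agent.S14


end ZBS14_006_0

/-! ### bundled: `Fermat.Agent.S14.LBounded` -/
section ZBS14_006_1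

/-!
# S14, piece N4c-M: `UnitWeightStatement → IdealZetaStatement → FiberwiseStatement →
LBoundedStatement`

For `f_s x = w x |N x|^(-s)` (`w` the unit weight) the sum of `f_s` over a nonzero ideal `𝔠` is
`N(𝔠)^(-s)` times the partial zeta function of the class of `𝔠⁻¹` (`FiberwiseStatement`), the sum
over `𝓞 K` is the partial zeta function of the trivial class, and the sums over the cosets of `𝔠`
differ from the sum over `𝔠` by a bounded amount (`lb_shift_sum`).  Hence all partial zeta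
functions differ by bounded functions on `(1, 2]` (`lb_class_diff`), which gives the bound for
the `L`-series of a nontrivial class group character (`lBounded_of_classDiff`).
-/

set_option autoImplicit false
set_option linter.unusedSectionVars false
set_option linter.style.haveILetI false
set_option linter.unusedVariables false

open NumberField
open scoped nonZeroDivisors

namespace Fermat.Agent.S14

section Main

variable {K : Type} [Field K] [NumberField K]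

/-- The summand `f_s x = w x |N x|^(-s)`. -/
noncomputable def fs (w : K → ℝ) (s : ℝ) (x : 𝓞 K) : ℝ := w (x : K) * nm (x : K) ^ (-s)

/-- The partial zeta function of an ideal class. -/
noncomputable def zetaClass (K : Type) [Field K] [NumberField K] (s : ℝ)
    (c : ClassGroup (𝓞 K)) : ℝ :=
  ∑' I : {I : (Ideal (𝓞 K))⁰ // ClassGroup.mk0 I = c},
    (Ideal.absNorm ((I : (Ideal (𝓞 K))⁰) : Ideal (𝓞 K)) : ℝ) ^ (-s)

/-- The Dedekind zeta function as a sum over nonzero ideals. -/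
noncomputable def zetaIdeal (K : Type) [Field K] [NumberField K] (s : ℝ) : ℝ :=
  ∑' I : (Ideal (𝓞 K))⁰, (Ideal.absNorm (I : Ideal (𝓞 K)) : ℝ) ^ (-s)

/-- The data of `UnitWeightStatement` for a fixed field. -/
structure IsUnitWeight (K : Type) [Field K] [NumberField K] (w : K → ℝ)
    (T : Finset (𝓞 K)ˣ) (B L : ℝ) : Prop where
  B_pos : 0 < B
  L_nonneg : 0 ≤ L
  nonneg : ∀ x, 0 ≤ w x
  le_one : ∀ x, w x ≤ 1
  hasSum : ∀ x : K, x ≠ 0 → HasSum (fun ε : (𝓞 K)ˣ => w (((ε : 𝓞 K) : K) * x)) 1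
  cover : ∀ x : K, x ≠ 0 → w x ≠ 0 →
    1 ≤ (NumberField.Units.torsionOrder K : ℝ) * ∑ ε ∈ T, w (((ε : 𝓞 K) : K) * x)
  supp : ∀ x : K, x ≠ 0 → w x ≠ 0 → ∀ v : InfinitePlace K,
    |(Algebra.norm ℚ x : ℝ)| ≤ (B * v x) ^ (Module.finrank ℚ K)
  lip : ∀ x u : K, x ≠ 0 → ∀ δ : ℝ, δ ≤ 1 / 2 → (∀ v : InfinitePlace K, v u ≤ δ) →
    |w (x * (1 + u)) - w x| ≤ L * δ

/-- `FiberwiseStatement` for a fixed field and weight. -/
def FiberwiseAt (K : Type) [Field K] [NumberField K] (w : K → ℝ) : Prop :=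
  ∀ (𝔠 : (Ideal (𝓞 K))⁰) (s : ℝ), 1 < s →
    HasSum (fun x : {x : 𝓞 K // x ∈ (𝔠 : Ideal (𝓞 K)) ∧ x ≠ 0} => fs w s (x : 𝓞 K))
      ((Ideal.absNorm (𝔠 : Ideal (𝓞 K)) : ℝ) ^ (-s) * zetaClass K s (ClassGroup.mk0 𝔠)⁻¹)

/-- `IdealZetaStatement` for a fixed field. -/
def IdealZetaAt (K : Type) [Field K] [NumberField K] : Prop :=
  (∀ s : ℝ, 1 < s → Summable (fun I : (Ideal (𝓞 K))⁰ =>
      ((Ideal.absNorm (I : Ideal (𝓞 K)) : ℝ) ^ (-s)))) ∧
    ∃ C : ℝ, ∀ s : ℝ, 1 < s → s ≤ 2 → (s - 1) * zetaIdeal K s ≤ C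

theorem coe_add_int (x r : 𝓞 K) : ((x + r : 𝓞 K) : K) = (x : K) + (r : K) := by
  push_cast; rfl

theorem fs_nonneg {w : K → ℝ} (hw0 : ∀ x, 0 ≤ w x) (s : ℝ) (x : 𝓞 K) : 0 ≤ fs w s x :=
  mul_nonneg (hw0 _) (Real.rpow_nonneg (nm_nonneg _) _)

theorem fs_zero (w : K → ℝ) {s : ℝ} (hs : s ≠ 0) : fs w s (0 : 𝓞 K) = 0 := by
  have h0 : (((0 : 𝓞 K)) : K) = 0 := map_zero _
  rw [fs, h0, nm_zero, Real.zero_rpow (neg_ne_zero.mpr hs), mul_zero]

theorem fs_le_one {w : K → ℝ} (hw0 : ∀ x, 0 ≤ w x) (hw1 : ∀ x, w x ≤ 1) {s : ℝ} (hs : 0 < s)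
    (x : 𝓞 K) : fs w s x ≤ 1 := by
  by_cases hx : x = 0
  · rw [hx, fs_zero w hs.ne']; exact zero_le_one
  · have h1 : nm (x : K) ^ (-s) ≤ 1 :=
      Real.rpow_le_one_of_one_le_of_nonpos (one_le_nm_of_integer hx) (by linarith)
    have h2 : 0 ≤ nm (x : K) ^ (-s) := Real.rpow_nonneg (nm_nonneg _) _
    calc fs w s x = w (x : K) * nm (x : K) ^ (-s) := rfl
      _ ≤ 1 * 1 := mul_le_mul (hw1 _) h1 h2 zero_le_one
      _ = 1 := one_mul 1

theorem zetaClass_nonneg (s : ℝ) (c : ClassGroup (𝓞 K)) : 0 ≤ zetaClass K s c :=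
  tsum_nonneg (fun _ => Real.rpow_nonneg (Nat.cast_nonneg _) _)

theorem zetaClass_le_zetaIdeal (hZ : IdealZetaAt K) {s : ℝ} (hs : 1 < s) (c : ClassGroup (𝓞 K)) :
    zetaClass K s c ≤ zetaIdeal K s := by
  have h := hZ.1 s hs
  exact Summable.tsum_subtype_le (fun I : (Ideal (𝓞 K))⁰ =>
      ((Ideal.absNorm (I : Ideal (𝓞 K)) : ℝ) ^ (-s))) {I | ClassGroup.mk0 I = c}
    (fun _ => Real.rpow_nonneg (Nat.cast_nonneg _) _) h

/-! ### Conversions between index types -/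

theorem hasSum_ideal_of_hasSum_ne_zero (𝔠 : Ideal (𝓞 K)) (F : 𝓞 K → ℝ) (hF0 : F 0 = 0) {a : ℝ}
    (h : HasSum (fun x : {x : 𝓞 K // x ∈ 𝔠 ∧ x ≠ 0} => F (x : 𝓞 K)) a) :
    HasSum (fun x : 𝔠 => F (x : 𝓞 K)) a := by
  have h1 : HasSum (Set.indicator {x : 𝓞 K | x ∈ 𝔠 ∧ x ≠ 0} F) a :=
    (hasSum_subtype_iff_indicator (s := {x : 𝓞 K | x ∈ 𝔠 ∧ x ≠ 0}) (f := F)).mp h
  have h2 : Set.indicator {x : 𝓞 K | x ∈ 𝔠 ∧ x ≠ 0} F = Set.indicator (𝔠 : Set (𝓞 K)) F := by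
    funext x
    by_cases hx : x = 0
    · subst hx
      simp [hF0]
    · by_cases hxc : x ∈ 𝔠
      · rw [Set.indicator_of_mem (show x ∈ {x : 𝓞 K | x ∈ 𝔠 ∧ x ≠ 0} from ⟨hxc, hx⟩),
          Set.indicator_of_mem (show x ∈ (𝔠 : Set (𝓞 K)) from hxc)]
      · rw [Set.indicator_of_notMem (fun h : x ∈ {x : 𝓞 K | x ∈ 𝔠 ∧ x ≠ 0} => hxc h.1),
          Set.indicator_of_notMem (fun h : x ∈ (𝔠 : Set (𝓞 K)) => hxc h)]
  rw [h2] at h1
  exact (hasSum_subtype_iff_indicator (s := (𝔠 : Set (𝓞 K))) (f := F)).mpr h1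

theorem hasSum_of_hasSum_top (F : 𝓞 K → ℝ) {a : ℝ}
    (h : HasSum (fun x : (⊤ : Ideal (𝓞 K)) => F (x : 𝓞 K)) a) : HasSum F a := by
  have h1 : HasSum (Set.indicator ((⊤ : Ideal (𝓞 K)) : Set (𝓞 K)) F) a :=
    (hasSum_subtype_iff_indicator (s := ((⊤ : Ideal (𝓞 K)) : Set (𝓞 K))) (f := F)).mp h
  have h2 : Set.indicator ((⊤ : Ideal (𝓞 K)) : Set (𝓞 K)) F = F := by
    funext x
    exact Set.indicator_of_mem (by simp) F
  rwa [h2] at h1

/-- `⊤` as a nonzero ideal. -/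
noncomputable def topIdeal (K : Type) [Field K] [NumberField K] : (Ideal (𝓞 K))⁰ :=
  ⟨⊤, mem_nonZeroDivisors_iff_ne_zero.mpr top_ne_bot⟩

theorem mk0_topIdeal : ClassGroup.mk0 (topIdeal K) = 1 := by
  rw [ClassGroup.mk0_eq_one_iff]
  exact ⟨⟨1, by simp [topIdeal]⟩⟩

/-! ### Consequences of the fiberwise formula -/

theorem hasSum_fs_ideal {w : K → ℝ} (hF : FiberwiseAt K w) (𝔠 : (Ideal (𝓞 K))⁰) {s : ℝ}
    (hs : 1 < s) :
    HasSum (fun x : (𝔠 : Ideal (𝓞 K)) => fs w s (x : 𝓞 K))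
      ((Ideal.absNorm (𝔠 : Ideal (𝓞 K)) : ℝ) ^ (-s) * zetaClass K s (ClassGroup.mk0 𝔠)⁻¹) :=
  hasSum_ideal_of_hasSum_ne_zero _ _ (fs_zero w (by linarith)) (hF 𝔠 s hs)

theorem hasSum_fs {w : K → ℝ} (hF : FiberwiseAt K w) {s : ℝ} (hs : 1 < s) :
    HasSum (fs w s) (zetaClass K s 1) := by
  have h := hasSum_fs_ideal hF (topIdeal K) hs
  rw [mk0_topIdeal, inv_one] at h
  have h2 : (Ideal.absNorm ((topIdeal K : (Ideal (𝓞 K))⁰) : Ideal (𝓞 K)) : ℝ) = 1 := by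
    simp [topIdeal]
  rw [h2, Real.one_rpow, one_mul] at h
  exact hasSum_of_hasSum_top _ h

/-! ### The covering weight -/

/-- The covering weight `|μ| ∑_{ε ∈ T} w (ε x)`; it is `≥ 1` on the support of `w`. -/
noncomputable def cov (w : K → ℝ) (T : Finset (𝓞 K)ˣ) (x : 𝓞 K) : ℝ :=
  (NumberField.Units.torsionOrder K : ℝ) * ∑ ε ∈ T, w (((ε : 𝓞 K) : K) * (x : K))

/-- The dominating summand `cov x |N x|^(-σ)`. -/
noncomputable def gs (w : K → ℝ) (T : Finset (𝓞 K)ˣ) (σ : ℝ) (x : 𝓞 K) : ℝ :=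
  cov w T x * nm (x : K) ^ (-σ)

theorem cov_nonneg {w : K → ℝ} (hw0 : ∀ x, 0 ≤ w x) (T : Finset (𝓞 K)ˣ) (x : 𝓞 K) :
    0 ≤ cov w T x :=
  mul_nonneg (Nat.cast_nonneg _) (Finset.sum_nonneg (fun _ _ => hw0 _))

theorem gs_nonneg {w : K → ℝ} (hw0 : ∀ x, 0 ≤ w x) (T : Finset (𝓞 K)ˣ) (σ : ℝ) (x : 𝓞 K) :
    0 ≤ gs w T σ x :=
  mul_nonneg (cov_nonneg hw0 T x) (Real.rpow_nonneg (nm_nonneg _) _)

theorem hasSum_fs_unit_mul {w : K → ℝ} (hF : FiberwiseAt K w) {σ : ℝ} (hσ : 1 < σ)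
    (ε : (𝓞 K)ˣ) :
    HasSum (fun x : 𝓞 K => w (((ε : 𝓞 K) : K) * (x : K)) * nm (x : K) ^ (-σ))
      (zetaClass K σ 1) := by
  have h := (Equiv.hasSum_iff (Units.mulLeft ε) (f := fs w σ) (a := zetaClass K σ 1)).mpr
    (hasSum_fs hF hσ)
  have e : (fun x : 𝓞 K => w (((ε : 𝓞 K) : K) * (x : K)) * nm (x : K) ^ (-σ)) =
      fs w σ ∘ (Units.mulLeft ε) := by
    funext x
    simp only [Function.comp_apply, Units.mulLeft_apply, fs, map_mul, nm_mul, nm_unit, one_mul]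
  rw [e]
  exact h

theorem hasSum_gs {w : K → ℝ} (hF : FiberwiseAt K w) (T : Finset (𝓞 K)ˣ) {σ : ℝ} (hσ : 1 < σ) :
    HasSum (gs w T σ)
      ((NumberField.Units.torsionOrder K : ℝ) * (T.card * zetaClass K σ 1)) := by
  have h1 : HasSum (fun x : 𝓞 K => ∑ ε ∈ T, w (((ε : 𝓞 K) : K) * (x : K)) * nm (x : K) ^ (-σ))
      (∑ _ε ∈ T, zetaClass K σ 1) :=
    hasSum_sum (fun ε _ => hasSum_fs_unit_mul hF hσ ε)
  have h2 := h1.mul_left (NumberField.Units.torsionOrder K : ℝ)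
  rw [Finset.sum_const, nsmul_eq_mul] at h2
  have e : gs w T σ = fun x : 𝓞 K => (NumberField.Units.torsionOrder K : ℝ) *
      ∑ ε ∈ T, w (((ε : 𝓞 K) : K) * (x : K)) * nm (x : K) ^ (-σ) := by
    funext x
    rw [gs, cov, mul_assoc, Finset.sum_mul]
  rw [e]
  exact h2

/-- The constant bounding `∑ gs`. -/
theorem tsum_gs_le {w : K → ℝ} (hF : FiberwiseAt K w) (hZ : IdealZetaAt K) (T : Finset (𝓞 K)ˣ)
    {σ : ℝ} (hσ : 1 < σ) :
    ∑' x : 𝓞 K, gs w T σ x ≤ (NumberField.Units.torsionOrder K : ℝ) * (T.card * zetaIdeal K σ) := by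
  rw [(hasSum_gs hF T hσ).tsum_eq]
  have := zetaClass_le_zetaIdeal hZ hσ (1 : ClassGroup (𝓞 K))
  gcongr

/-! ### The shift estimate -/

open scoped Classical in
/-- Indicator of `0`. -/
noncomputable def ind0 (x : 𝓞 K) : ℝ := if x = 0 then 1 else 0

theorem ind0_nonneg (x : 𝓞 K) : 0 ≤ ind0 x := by
  unfold ind0; split_ifs <;> norm_num

/-- The exponent `σ = 1 + 1/n`. -/
noncomputable def sig (K : Type) [Field K] [NumberField K] : ℝ :=
  1 + (Module.finrank ℚ K : ℝ)⁻¹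

theorem one_lt_sig : 1 < sig K := by
  have : (0 : ℝ) < (Module.finrank ℚ K : ℝ)⁻¹ :=
    inv_pos.mpr (Nat.cast_pos.mpr Module.finrank_pos)
  unfold sig; linarith

theorem le_gs_of_ne_zero {w : K → ℝ} {T : Finset (𝓞 K)ˣ} {B L : ℝ}
    (hW : IsUnitWeight K w T B L) (σ : ℝ) {x : 𝓞 K} (hx : x ≠ 0) (hwx : w (x : K) ≠ 0) :
    nm (x : K) ^ (-σ) ≤ gs w T σ x := by
  have hx' : (x : K) ≠ 0 := by
    intro h; exact hx (by exact_mod_cast h)
  have h1 := hW.cover (x : K) hx' hwx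
  have h2 : 0 ≤ nm (x : K) ^ (-σ) := Real.rpow_nonneg (nm_nonneg _) _
  calc nm (x : K) ^ (-σ) = 1 * nm (x : K) ^ (-σ) := (one_mul _).symm
    _ ≤ cov w T x * nm (x : K) ^ (-σ) := mul_le_mul_of_nonneg_right h1 h2

theorem lb_shift_dom {w : K → ℝ} {T : Finset (𝓞 K)ˣ} {B L : ℝ}
    (hW : IsUnitWeight K w T B L) (r : 𝓞 K) :
    ∃ A : ℝ, 0 ≤ A ∧ ∀ s : ℝ, 1 ≤ s → s ≤ 2 → ∀ x : 𝓞 K,
      |fs w s (x + r) - fs w s x| ≤
        A * (gs w T (sig K) x + gs w T (sig K) (x + r)) + ind0 x + ind0 (x + r) := by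
  obtain ⟨A₁, hA₁0, hA₁⟩ := lb_shift_pointwise hW.B_pos hW.L_nonneg hW.nonneg hW.le_one
    hW.supp hW.lip (r : K)
  obtain ⟨A₂, hA₂0, hA₂⟩ := lb_shift_pointwise hW.B_pos hW.L_nonneg hW.nonneg hW.le_one
    hW.supp hW.lip (-(r : K))
  refine ⟨A₁ + A₂, by positivity, ?_⟩
  intro s hs1 hs2 x
  have hs0 : (0 : ℝ) < s := by linarith
  have hg1 := gs_nonneg hW.nonneg T (sig K) x
  have hg2 := gs_nonneg hW.nonneg T (sig K) (x + r)
  have hi1 := ind0_nonneg x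
  have hi2 := ind0_nonneg (x + r)
  have hf1 := fs_nonneg hW.nonneg s x
  have hf2 := fs_nonneg hW.nonneg s (x + r)
  have hf1' := fs_le_one hW.nonneg hW.le_one hs0 x
  have hf2' := fs_le_one hW.nonneg hW.le_one hs0 (x + r)
  have hAg : 0 ≤ (A₁ + A₂) * (gs w T (sig K) x + gs w T (sig K) (x + r)) := by positivity
  by_cases hx : x = 0
  · have : ind0 x = 1 := by simp [ind0, hx]
    rw [abs_le]; constructor <;> nlinarith
  by_cases hy : x + r = 0
  · have : ind0 (x + r) = 1 := by simp [ind0, hy]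
    rw [abs_le]; constructor <;> nlinarith
  have hx' : (x : K) ≠ 0 := by
    intro h; exact hx (by exact_mod_cast h)
  have hy' : (x : K) + (r : K) ≠ 0 := by
    intro h; apply hy
    have : ((x + r : 𝓞 K) : K) = 0 := by rw [coe_add_int]; exact h
    exact_mod_cast this
  have hNx := one_le_nm_of_integer hx
  have hNy : 1 ≤ nm ((x : K) + (r : K)) := by
    have := one_le_nm_of_integer hy
    rwa [coe_add_int] at this
  have hcoe : fs w s (x + r) = w ((x : K) + (r : K)) * nm ((x : K) + (r : K)) ^ (-s) := by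
    rw [fs, coe_add_int]
  have hsig : sig K = 1 + (Module.finrank ℚ K : ℝ)⁻¹ := rfl
  by_cases hwx : w (x : K) ≠ 0
  · have h := hA₁ s hs1 hs2 (x : K) hx' hNx hy' hNy hwx
    rw [← hcoe, ← hsig] at h
    have h2 := le_gs_of_ne_zero hW (sig K) hx hwx
    have h3 : A₁ * nm (x : K) ^ (-sig K) ≤ A₁ * gs w T (sig K) x :=
      mul_le_mul_of_nonneg_left h2 hA₁0
    have h4 : fs w s x = w (x : K) * nm (x : K) ^ (-s) := rfl
    rw [← h4] at h
    have h5 : 0 ≤ A₂ * gs w T (sig K) x := mul_nonneg hA₂0 hg1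
    have h6 : 0 ≤ (A₁ + A₂) * gs w T (sig K) (x + r) := by positivity
    calc |fs w s (x + r) - fs w s x| ≤ A₁ * nm (x : K) ^ (-sig K) := h
      _ ≤ A₁ * gs w T (sig K) x := h3
      _ ≤ (A₁ + A₂) * (gs w T (sig K) x + gs w T (sig K) (x + r)) + ind0 x + ind0 (x + r) := by
          nlinarith
  · rw [not_not] at hwx
    by_cases hwy : w ((x : K) + (r : K)) ≠ 0
    · have hyx : (x : K) + (r : K) + (-(r : K)) = (x : K) := by ring
      have h := hA₂ s hs1 hs2 ((x : K) + (r : K)) hy' hNy (by rw [hyx]; exact hx')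
        (by rw [hyx]; exact hNx) hwy
      rw [hyx, ← hcoe, ← hsig] at h
      have h4 : fs w s x = w (x : K) * nm (x : K) ^ (-s) := rfl
      rw [← h4, abs_sub_comm] at h
      have hwy' : w (((x + r : 𝓞 K)) : K) ≠ 0 := by rwa [coe_add_int]
      have h2 := le_gs_of_ne_zero hW (sig K) hy hwy'
      rw [coe_add_int] at h2
      have h3 : A₂ * nm ((x : K) + (r : K)) ^ (-sig K) ≤ A₂ * gs w T (sig K) (x + r) :=
        mul_le_mul_of_nonneg_left h2 hA₂0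
      have h5 : 0 ≤ A₁ * gs w T (sig K) (x + r) := mul_nonneg hA₁0 hg2
      have h6 : 0 ≤ (A₁ + A₂) * gs w T (sig K) x := by positivity
      calc |fs w s (x + r) - fs w s x| ≤ A₂ * nm ((x : K) + (r : K)) ^ (-sig K) := h
        _ ≤ A₂ * gs w T (sig K) (x + r) := h3
        _ ≤ (A₁ + A₂) * (gs w T (sig K) x + gs w T (sig K) (x + r)) + ind0 x + ind0 (x + r) := by
            nlinarith
    · rw [not_not] at hwy
      have e1 : fs w s x = 0 := by rw [fs, hwx, zero_mul]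
      have e2 : fs w s (x + r) = 0 := by rw [hcoe, hwy, zero_mul]
      rw [e1, e2, sub_zero, abs_zero]
      linarith

theorem hasSum_ind0 : HasSum (ind0 : 𝓞 K → ℝ) 1 := by
  have h := hasSum_single (0 : 𝓞 K) (f := (ind0 : 𝓞 K → ℝ)) (fun b hb => by simp [ind0, hb])
  have e : (ind0 (0 : 𝓞 K) : ℝ) = 1 := by simp [ind0]
  rwa [e] at h

/-- The dominating function of the shift estimate is summable, with an explicit sum. -/
theorem hasSum_dom {w : K → ℝ} (hF : FiberwiseAt K w) (T : Finset (𝓞 K)ˣ) (A : ℝ) (r : 𝓞 K) :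
    HasSum (fun x : 𝓞 K =>
        A * (gs w T (sig K) x + gs w T (sig K) (x + r)) + ind0 x + ind0 (x + r))
      (A * ((∑' x : 𝓞 K, gs w T (sig K) x) + ∑' x : 𝓞 K, gs w T (sig K) x) + 1 + 1) := by
  have hg : HasSum (gs w T (sig K)) (∑' x : 𝓞 K, gs w T (sig K) x) :=
    (hasSum_gs hF T one_lt_sig).summable.hasSum
  have hg' : HasSum (fun x : 𝓞 K => gs w T (sig K) (x + r)) (∑' x : 𝓞 K, gs w T (sig K) x) :=
    (Equiv.hasSum_iff (Equiv.addRight r) (f := gs w T (sig K))).mpr hg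
  have hi : HasSum (fun x : 𝓞 K => ind0 (x + r)) 1 :=
    (Equiv.hasSum_iff (Equiv.addRight r) (f := (ind0 : 𝓞 K → ℝ))).mpr hasSum_ind0
  exact (((hg.add hg').mul_left A).add hasSum_ind0).add hi

/-- **Shift estimate**: the sums of `f_s` over `𝔠` and over `r + 𝔠` differ by a bounded amount,
uniformly in `s ∈ (1, 2]`. -/
theorem lb_shift_sum {w : K → ℝ} {T : Finset (𝓞 K)ˣ} {B L : ℝ}
    (hW : IsUnitWeight K w T B L) (hF : FiberwiseAt K w) (r : 𝓞 K) :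
    ∃ C : ℝ, ∀ s : ℝ, 1 < s → s ≤ 2 → ∀ 𝔠 : Ideal (𝓞 K),
      |∑' x : 𝔠, fs w s ((x : 𝓞 K) + r) - ∑' x : 𝔠, fs w s (x : 𝓞 K)| ≤ C := by
  obtain ⟨A, hA0, hA⟩ := lb_shift_dom hW r
  refine ⟨A * ((∑' x : 𝓞 K, gs w T (sig K) x) + ∑' x : 𝓞 K, gs w T (sig K) x) + 1 + 1, ?_⟩
  intro s hs1 hs2 𝔠
  have hfs : Summable (fs w s) := (hasSum_fs hF hs1).summable
  have h1 : Summable (fun x : 𝔠 => fs w s (x : 𝓞 K)) :=
    hfs.comp_injective Subtype.val_injective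
  have hinj : Function.Injective (fun x : 𝔠 => (x : 𝓞 K) + r) := by
    intro x y hxy
    exact Subtype.ext (add_right_cancel hxy)
  have h2 : Summable (fun x : 𝔠 => fs w s ((x : 𝓞 K) + r)) := hfs.comp_injective hinj
  have hdom := hasSum_dom hF T A r
  have hdomS : Summable (fun x : 𝔠 =>
      A * (gs w T (sig K) (x : 𝓞 K) + gs w T (sig K) ((x : 𝓞 K) + r)) + ind0 (x : 𝓞 K) +
        ind0 ((x : 𝓞 K) + r)) :=
    hdom.summable.comp_injective Subtype.val_injective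
  have hdom_nonneg : ∀ x : 𝓞 K, 0 ≤ A * (gs w T (sig K) x + gs w T (sig K) (x + r)) +
      ind0 x + ind0 (x + r) := by
    intro x
    have := gs_nonneg hW.nonneg T (sig K) x
    have := gs_nonneg hW.nonneg T (sig K) (x + r)
    have := ind0_nonneg x
    have := ind0_nonneg (x + r)
    positivity
  rw [← h2.tsum_sub h1]
  have hD : Summable (fun x : 𝔠 => |fs w s ((x : 𝓞 K) + r) - fs w s (x : 𝓞 K)|) :=
    Summable.of_nonneg_of_le (fun _ => abs_nonneg _)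
      (fun x => hA s hs1.le hs2 (x : 𝓞 K)) hdomS
  calc |∑' x : 𝔠, (fs w s ((x : 𝓞 K) + r) - fs w s (x : 𝓞 K))|
      ≤ ∑' x : 𝔠, |fs w s ((x : 𝓞 K) + r) - fs w s (x : 𝓞 K)| := by
        have := norm_tsum_le_tsum_norm (f := fun x : 𝔠 =>
          fs w s ((x : 𝓞 K) + r) - fs w s (x : 𝓞 K)) (by simpa [Real.norm_eq_abs] using hD)
        simpa [Real.norm_eq_abs] using this
    _ ≤ ∑' x : 𝔠, (A * (gs w T (sig K) (x : 𝓞 K) + gs w T (sig K) ((x : 𝓞 K) + r)) +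
          ind0 (x : 𝓞 K) + ind0 ((x : 𝓞 K) + r)) :=
        hD.tsum_le_tsum (fun x => hA s hs1.le hs2 (x : 𝓞 K)) hdomS
    _ ≤ ∑' x : 𝓞 K, (A * (gs w T (sig K) x + gs w T (sig K) (x + r)) + ind0 x + ind0 (x + r)) :=
        hdom.summable.tsum_subtype_le _ (𝔠 : Set (𝓞 K)) hdom_nonneg
    _ = _ := hdom.tsum_eq

/-! ### The per-class bound -/

theorem lb_one_sub_rpow_le {N s : ℝ} (hN : 1 ≤ N) (hs : 1 ≤ s) :
    0 ≤ 1 - N ^ (1 - s) ∧ 1 - N ^ (1 - s) ≤ (s - 1) * Real.log N := by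
  have hN0 : 0 < N := lt_of_lt_of_le zero_lt_one hN
  constructor
  · have := Real.rpow_le_one_of_one_le_of_nonpos hN (show 1 - s ≤ 0 by linarith)
    linarith
  · rw [Real.rpow_def_of_pos hN0]
    have := Real.add_one_le_exp (Real.log N * (1 - s))
    nlinarith

/-- **Per-class bound**: the partial zeta function of any class differs from the one of the
trivial class by a bounded function on `(1, 2]`. -/
theorem lb_class_diff {w : K → ℝ} {T : Finset (𝓞 K)ˣ} {B L : ℝ}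
    (hW : IsUnitWeight K w T B L) (hF : FiberwiseAt K w) (hZ : IdealZetaAt K)
    (c : ClassGroup (𝓞 K)) :
    ∃ C : ℝ, ∀ s : ℝ, 1 < s → s ≤ 2 → |zetaClass K s c - zetaClass K s 1| ≤ C := by
  obtain ⟨𝔠, h𝔠⟩ := ClassGroup.mk0_surjective c⁻¹
  have hc : (ClassGroup.mk0 𝔠)⁻¹ = c := by rw [h𝔠, inv_inv]
  haveI := lb_finite_quot K 𝔠
  letI : Fintype (𝓞 K ⧸ (𝔠 : Ideal (𝓞 K))) := Fintype.ofFinite _
  choose Cq hCq using fun q : 𝓞 K ⧸ (𝔠 : Ideal (𝓞 K)) => lb_shift_sum hW hF (Quotient.out q)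
  obtain ⟨Cζ, hCζ⟩ := hZ.2
  have hN1 : (1 : ℝ) ≤ (Ideal.absNorm (𝔠 : Ideal (𝓞 K)) : ℝ) := by
    have h0 : Ideal.absNorm (𝔠 : Ideal (𝓞 K)) ≠ 0 := by
      rw [Ne, Ideal.absNorm_eq_zero_iff]
      exact nonZeroDivisors.coe_ne_zero 𝔠
    exact_mod_cast Nat.one_le_iff_ne_zero.mpr h0
  set N : ℝ := (Ideal.absNorm (𝔠 : Ideal (𝓞 K)) : ℝ) with hN
  have hN0 : 0 < N := lt_of_lt_of_le zero_lt_one hN1
  have hlog : 0 ≤ Real.log N := Real.log_nonneg hN1
  refine ⟨Real.log N * Cζ + ∑ q, Cq q, fun s hs1 hs2 => ?_⟩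
  have hA := (hasSum_fs_ideal hF 𝔠 hs1).tsum_eq
  rw [hc] at hA
  have hZ1 := (hasSum_fs hF hs1).tsum_eq
  have hcos := tsum_eq_finsum_cosets K 𝔠 (fs w s) (hasSum_fs hF hs1).summable
  rw [finsum_eq_sum_of_fintype, hZ1] at hcos
  have hcard : (Fintype.card (𝓞 K ⧸ (𝔠 : Ideal (𝓞 K))) : ℝ) = N := by
    rw [← Nat.card_eq_fintype_card, natCard_quot_eq_absNorm]
  have h1 : |zetaClass K s 1 - N * (N ^ (-s) * zetaClass K s c)| ≤ ∑ q, Cq q := by
    rw [hcos, ← hA, ← hcard, ← nsmul_eq_mul, ← Finset.card_univ, ← Finset.sum_const,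
      ← Finset.sum_sub_distrib]
    exact (Finset.abs_sum_le_sum_abs _ _).trans
      (Finset.sum_le_sum fun q _ => hCq q s hs1 hs2 _)
  have hpow : N * (N ^ (-s) * zetaClass K s c) = N ^ (1 - s) * zetaClass K s c := by
    rw [← mul_assoc]
    congr 1
    rw [show (1 : ℝ) - s = 1 + -s by ring, Real.rpow_add hN0, Real.rpow_one]
  rw [hpow] at h1
  obtain ⟨h2, h3⟩ := lb_one_sub_rpow_le hN1 hs1.le
  have hZc0 := zetaClass_nonneg (K := K) s c
  have hZc1 := zetaClass_le_zetaIdeal hZ hs1 c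
  have hζ := hCζ s hs1 hs2
  have hs0 : 0 ≤ s - 1 := by linarith
  have h4 : (1 - N ^ (1 - s)) * zetaClass K s c ≤ Real.log N * Cζ := by
    calc (1 - N ^ (1 - s)) * zetaClass K s c
        ≤ ((s - 1) * Real.log N) * zetaClass K s c := mul_le_mul_of_nonneg_right h3 hZc0
      _ ≤ ((s - 1) * Real.log N) * zetaIdeal K s :=
          mul_le_mul_of_nonneg_left hZc1 (mul_nonneg hs0 hlog)
      _ = Real.log N * ((s - 1) * zetaIdeal K s) := by ring
      _ ≤ Real.log N * Cζ := mul_le_mul_of_nonneg_left hζ hlog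
  have h5 : 0 ≤ (1 - N ^ (1 - s)) * zetaClass K s c := mul_nonneg h2 hZc0
  rw [abs_le] at h1 ⊢
  constructor <;> nlinarith [h1.1, h1.2]

end Main

/-- **N4c-M**: the three sub-statements imply `LBoundedStatement`. -/
theorem lBounded_of_pieces (hU : UnitWeightStatement) (hZ : IdealZetaStatement)
    (hF : FiberwiseStatement) : LBoundedStatement := by
  intro K _ _ χ hχ
  obtain ⟨w, T, B, L, hB, hL, h0, h1, hsum, hcov, hsupp, hlip⟩ := hU K
  have hW : IsUnitWeight K w T B L := ⟨hB, hL, h0, h1, hsum, hcov, hsupp, hlip⟩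
  have hZ' : IdealZetaAt K := hZ K
  have hF' : FiberwiseAt K w := hF K w h0 hsum
  exact lBounded_of_classDiff K (hZ K).1 (fun c => lb_class_diff hW hF' hZ' c) χ hχ

end Fermat.Agent.S14


end ZBS14_006_1

/-! ### bundled: `Fermat.Agent.S14.LBoundedFinal` -/
section ZBS14_006_2

/-!
# S14, piece N4c: `lBoundedStatement : LBoundedStatement` (unconditional)

Glue of N4c-W (`unitWeightStatement`), N4c-Z (`idealZetaStatement`), N4c-F
(`fiberwise_of_idealZeta`) and N4c-M (`lBounded_of_pieces`).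
-/

set_option autoImplicit false

namespace Fermat.Agent.S14

/-- **N4c**: the `L`-series of a nontrivial class group character is bounded on `(1, 2]`. -/
theorem lBoundedStatement : LBoundedStatement :=
  lBounded_of_pieces unitWeightStatement idealZetaStatement
    (fiberwise_of_idealZeta idealZetaStatement)

end Fermat.Agent.S14


end ZBS14_006_2
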