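/- GENERATED FILE (helper35, build-time optimisation, NOTES/ZB.md): verbatim concatenation of the modules
   Fermat.Agent.S14.IdealStep
   Fermat.Agent.S14.UnitsFinish
   Do not edit; do not import together with these modules. -/
import Fermat.Agent.ZB.S14_001
import Fermat.Agent.ZB.Z2S14_012

/-! ### bundled: `Fermat.Agent.S14.IdealStep` -/
section ZBZ2S14_005_0

/-!
# S14, piece N1 — the ideal step

If `α ∈ ℚ(ζ_p)^×` is in the `ω²`-eigenspace modulo `p`-th powers and all its valuations are divisible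
by `p`, then `(α) = I^p` and the class of `I` is killed by `p` and is an `ω²`-eigen class; if such
classes are trivial then `α = u · δ^p` with `u` a unit.
-/

set_option autoImplicit false

noncomputable section

open NumberField IsDedekindDomain UniqueFactorizationMonoid
open scoped nonZeroDivisors

namespace Fermat.Agent.S14.IdealStep

section Dedekind

variable {R : Type*} [CommRing R] [IsDedekindDomain R]

/-- An ideal all of whose prime multiplicities are divisible by `p` is a `p`-th power. -/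
theorem exists_ideal_pow_eq {p : ℕ} (hp : p ≠ 0) (J : Ideal R) (hJ : J ≠ ⊥)
    (h : ∀ q : Ideal R, q ∈ normalizedFactors J → p ∣ Multiset.count q (normalizedFactors J)) :
    ∃ I : Ideal R, I ≠ ⊥ ∧ I ^ p = J := by
  classical
  obtain ⟨u, hu⟩ := Multiset.exists_smul_of_dvd_count _ h
  have hI : u.prod ^ p = J := by
    rw [← Multiset.prod_nsmul, ← hu, Ideal.prod_normalizedFactors_eq_self hJ]
  refine ⟨u.prod, ?_, hI⟩
  intro h0
  rw [h0] at hI
  exact hJ (by rw [← hI]; exact zero_pow hp)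

/-- `p`-th roots of ideals are unique. -/
theorem ideal_pow_left_injective {p : ℕ} (hp : p ≠ 0) {I₁ I₂ : Ideal R}
    (h : I₁ ^ p = I₂ ^ p) : I₁ = I₂ := by
  classical
  by_cases h1 : I₁ = ⊥
  · rw [h1] at h ⊢
    have : I₂ ^ p = ⊥ := by rw [← h]; exact zero_pow hp
    exact (pow_eq_zero_iff hp |>.mp this).symm
  by_cases h2 : I₂ = ⊥
  · rw [h2] at h
    have : I₁ ^ p = ⊥ := by rw [h]; exact zero_pow hp
    exact absurd (pow_eq_zero_iff hp |>.mp this) h1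
  have hn := congrArg normalizedFactors h
  rw [normalizedFactors_pow, normalizedFactors_pow] at hn
  have hn' : normalizedFactors I₁ = normalizedFactors I₂ := by
    ext q
    have := congrArg (Multiset.count q) hn
    rw [Multiset.count_nsmul, Multiset.count_nsmul] at this
    exact Nat.eq_of_mul_eq_mul_left (Nat.pos_of_ne_zero hp) this
  rw [← Ideal.prod_normalizedFactors_eq_self h1, ← Ideal.prod_normalizedFactors_eq_self h2, hn']

/-- If all valuations of `a ≠ 0` are divisible by `p`, all prime multiplicities of `(a)` are. -/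
theorem dvd_count_of_valuation {K : Type*} [Field K] [Algebra R K] [IsFractionRing R K]
    {p : ℕ} (a : R) (ha : a ≠ 0)
    (h : ∀ v : HeightOneSpectrum R, ∃ n : ℤ,
      v.valuation K (algebraMap R K a) = WithZero.exp ((p : ℤ) * n)) :
    ∀ q : Ideal R, q ∈ normalizedFactors (Ideal.span {a}) →
      p ∣ Multiset.count q (normalizedFactors (Ideal.span {a})) := by
  classical
  intro q hq
  have hJ : (Ideal.span {a} : Ideal R) ≠ 0 := by
    rw [Ne, Ideal.zero_eq_bot, Ideal.span_singleton_eq_bot]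
    exact ha
  have hqp : Prime q := prime_of_normalized_factor q hq
  have hq0 : q ≠ ⊥ := hqp.ne_zero
  let v : HeightOneSpectrum R := ⟨q, Ideal.isPrime_of_prime hqp, hq0⟩
  obtain ⟨n, hn⟩ := h v
  rw [HeightOneSpectrum.valuation_of_algebraMap,
    v.intValuation_eq_exp_neg_multiplicity ha, WithZero.exp_inj] at hn
  have hm : multiplicity q (Ideal.span {a}) = Multiset.count q (normalizedFactors (Ideal.span {a})) := by
    rw [multiplicity_eq_count_normalizedFactors hqp.irreducible hJ, normalize_eq]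
  have hv : v.asIdeal = q := rfl
  rw [hv, hm] at hn
  have : (p : ℤ) ∣ (Multiset.count q (normalizedFactors (Ideal.span {a})) : ℤ) :=
    ⟨-n, by linarith⟩
  exact Int.natCast_dvd_natCast.mp this

end Dedekind

section Cyclo

open JacobiSumStickelberger

variable {p : ℕ} [NeZero p] {K : Type} [Field K] [NumberField K] [IsCyclotomicExtension {p} ℚ K]

/-- The automorphism `σ_d` raises every primitive `p`-th root of unity to the power `d`. -/
theorem cycloGalEquiv_symm_apply_zeta {ζ : K} (hζ : IsPrimitiveRoot ζ p) (d : (ZMod p)ˣ) :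
    (cycloGalEquiv p K).symm d ζ = ζ ^ (d : ZMod p).val := by
  set σ := (cycloGalEquiv p K).symm d with hσ
  have h1 : cycloGalEquiv p K σ = d := MulEquiv.apply_symm_apply _ _
  have hz := IsCyclotomicExtension.zeta_spec p ℚ K
  have h2 : hz.autToPow ℚ σ = d := by
    rw [← h1]; rfl
  have h3 := hz.autToPow_spec ℚ σ
  rw [h2] at h3
  obtain ⟨j, -, hj⟩ := hz.eq_pow_of_pow_eq_one hζ.pow_eq_one
  rw [← hj, map_pow, ← h3, ← pow_mul, ← pow_mul, mul_comm]

/-- `clRingAction` is the restriction of `σ_d` to the ring of integers. -/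
theorem coe_clRingAction (d : (ZMod p)ˣ) (x : 𝓞 K) :
    algebraMap (𝓞 K) K (clRingAction p K d x) = (cycloGalEquiv p K).symm d (algebraMap (𝓞 K) K x) := by
  show algebraMap (𝓞 K) K (galRestrict ℤ ℚ K (𝓞 K) ((cycloGalEquiv p K).symm d) x) = _
  exact algebraMap_galRestrict_apply ℤ ((cycloGalEquiv p K).symm d) x

end Cyclo

section Integral

open JacobiSumStickelberger

variable {p : ℕ} [Fact p.Prime] {K : Type} [Field K] [NumberField K]
  [IsCyclotomicExtension {p} ℚ K]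

/-- The ideal step for an integral element. -/
theorem ideal_step_integral {ζ : K} (hζ : IsPrimitiveRoot ζ p) (a : 𝓞 K) (ha : a ≠ 0)
    (heig : IsOmegaSqEigen p ζ (algebraMap (𝓞 K) K a))
    (hord : ∀ v : HeightOneSpectrum (𝓞 K), PDvdOrd p v (algebraMap (𝓞 K) K a))
    (hcl : ClassEigenTrivial p K) :
    ∃ (u : (𝓞 K)ˣ) (δ : 𝓞 K), a = (u : 𝓞 K) * δ ^ p := by
  classical
  have hp0 : p ≠ 0 := (Fact.out : p.Prime).ne_zero
  have hJ : (Ideal.span {a} : Ideal (𝓞 K)) ≠ ⊥ := by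
    rw [Ne, Ideal.span_singleton_eq_bot]; exact ha
  -- the `p`-th root of the ideal `(a)`
  obtain ⟨I, hI0, hIp⟩ := exists_ideal_pow_eq hp0 (Ideal.span {a}) hJ
    (dvd_count_of_valuation (K := K) a ha hord)
  have hImem : I ∈ (Ideal (𝓞 K))⁰ := mem_nonZeroDivisors_iff_ne_zero.mpr hI0
  set c : ClassGroup (𝓞 K) := ClassGroup.mk0 ⟨I, hImem⟩ with hc
  have hprinc : ∀ x : 𝓞 K, ∀ hx : (Ideal.span {x} : Ideal (𝓞 K)) ∈ (Ideal (𝓞 K))⁰,
      ClassGroup.mk0 ⟨Ideal.span {x}, hx⟩ = 1 := fun x hx =>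
    (ClassGroup.mk0_eq_one_iff hx).mpr ⟨⟨x, rfl⟩⟩
  -- `c ^ p = 1`
  have hcp : c ^ p = 1 := by
    rw [hc, ← map_pow]
    have : (⟨I, hImem⟩ : (Ideal (𝓞 K))⁰) ^ p
        = ⟨Ideal.span {a}, mem_nonZeroDivisors_iff_ne_zero.mpr hJ⟩ := Subtype.ext hIp
    rw [this]
    exact hprinc a _
  -- eigen property
  have hceig : ∀ d : (ZMod p)ˣ,
      ClassGroup.mulEquiv (clRingAction p K d) c = c ^ ((d : ZMod p).val ^ 2) := by
    intro d
    set k := (d : ZMod p).val with hk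
    set g := clRingAction p K d with hg
    obtain ⟨γ, hγ⟩ := heig ((cycloGalEquiv p K).symm d) k (cycloGalEquiv_symm_apply_zeta hζ d)
    rw [← coe_clRingAction] at hγ
    have haK : algebraMap (𝓞 K) K a ≠ 0 := by
      simpa using ha
    have hga : g a ≠ 0 := by
      simpa using ha
    have hγ0 : γ ≠ 0 := by
      rintro rfl
      rw [zero_pow hp0, mul_zero] at hγ
      exact hga ((FaithfulSMul.algebraMap_injective (𝓞 K) K) (by rw [hγ, map_zero]))
    obtain ⟨num, den, hden, rfl⟩ := IsFractionRing.div_surjective (A := 𝓞 K) γ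
    have hden0 : den ≠ 0 := nonZeroDivisors.ne_zero hden
    have hdenK : algebraMap (𝓞 K) K den ≠ 0 := by simpa using hden0
    have hnum0 : num ≠ 0 := by
      rintro rfl
      simp at hγ0
    -- integral identity
    have hint : g a * den ^ p = a ^ (k ^ 2) * num ^ p := by
      apply FaithfulSMul.algebraMap_injective (𝓞 K) K
      rw [map_mul, map_mul, map_pow, map_pow, map_pow, hγ, div_pow]
      field_simp
    -- identity of ideals
    have hgI : (I.map (g : 𝓞 K →+* 𝓞 K)) ^ p = Ideal.span {g a} := by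
      rw [← Ideal.map_pow, hIp, Ideal.map_span, Set.image_singleton]
      rfl
    have hid : (I.map (g : 𝓞 K →+* 𝓞 K) * Ideal.span {den}) ^ p
        = (I ^ (k ^ 2) * Ideal.span {num}) ^ p := by
      rw [mul_pow, mul_pow, hgI, Ideal.span_singleton_pow, Ideal.span_singleton_pow,
        Ideal.span_singleton_mul_span_singleton, ← pow_mul, mul_comm (k ^ 2) p, pow_mul, hIp,
        Ideal.span_singleton_pow, Ideal.span_singleton_mul_span_singleton, hint]
    have hid' := ideal_pow_left_injective hp0 hid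
    -- pass to the class group
    rw [hc, ClassGroup.mulEquiv_mk0]
    have hden_mem : (Ideal.span {den} : Ideal (𝓞 K)) ∈ (Ideal (𝓞 K))⁰ :=
      mem_nonZeroDivisors_iff_ne_zero.mpr (by
        rw [Ne, Ideal.zero_eq_bot, Ideal.span_singleton_eq_bot]; exact hden0)
    have hnum_mem : (Ideal.span {num} : Ideal (𝓞 K)) ∈ (Ideal (𝓞 K))⁰ :=
      mem_nonZeroDivisors_iff_ne_zero.mpr (by
        rw [Ne, Ideal.zero_eq_bot, Ideal.span_singleton_eq_bot]; exact hnum0)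
    have e1 : Ideal.mapNonZero g ⟨I, hImem⟩ * ⟨Ideal.span {den}, hden_mem⟩
        = (⟨I, hImem⟩ : (Ideal (𝓞 K))⁰) ^ (k ^ 2) * ⟨Ideal.span {num}, hnum_mem⟩ :=
      Subtype.ext hid'
    have e2 := congrArg (ClassGroup.mk0 (R := 𝓞 K)) e1
    rw [map_mul, map_mul, map_pow, hprinc den hden_mem, hprinc num hnum_mem, mul_one,
      mul_one] at e2
    exact e2
  -- conclusion
  have hc1 : c = 1 := hcl c hcp hceig
  rw [hc, ClassGroup.mk0_eq_one_iff hImem] at hc1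
  obtain ⟨⟨δ, hδ⟩⟩ := hc1
  have hδ' : I = Ideal.span {δ} := hδ
  rw [hδ', Ideal.span_singleton_pow, Ideal.span_singleton_eq_span_singleton] at hIp
  obtain ⟨u, hu⟩ := hIp
  exact ⟨u, δ, by rw [← hu]; ring⟩

end Integral

end Fermat.Agent.S14.IdealStep

namespace Fermat.Agent.S14

open Fermat.Agent.S14.IdealStep

/-- **N1 (ideal step)**. -/
theorem idealStatement {p : ℕ} [Fact p.Prime] : IdealStatement p := by
  intro K _ _ _ ζ hζ α hα heig hord hcl
  have hp0 : p ≠ 0 := (Fact.out : p.Prime).ne_zero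
  obtain ⟨a, b, hb, rfl⟩ := IsFractionRing.div_surjective (A := 𝓞 K) α
  have hb0 : b ≠ 0 := nonZeroDivisors.ne_zero hb
  have hbK : algebraMap (𝓞 K) K b ≠ 0 := by simpa using hb0
  have ha0 : a ≠ 0 := by
    rintro rfl
    simp at hα
  have haK : algebraMap (𝓞 K) K a ≠ 0 := by simpa using ha0
  have hp1 : p - 1 + 1 = p := Nat.sub_add_cancel (Fact.out : p.Prime).one_le
  -- the integral element `a' = a * b ^ (p - 1) = α * b ^ p`
  have hβ : algebraMap (𝓞 K) K (a * b ^ (p - 1))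
      = (algebraMap (𝓞 K) K a / algebraMap (𝓞 K) K b) * (algebraMap (𝓞 K) K b) ^ p := by
    rw [map_mul, map_pow]
    conv_rhs => rw [← hp1, pow_succ]
    field_simp
  have ha'0 : a * b ^ (p - 1) ≠ 0 := mul_ne_zero ha0 (pow_ne_zero _ hb0)
  -- eigen property of `a'`
  have heig' : IsOmegaSqEigen p ζ (algebraMap (𝓞 K) K (a * b ^ (p - 1))) := by
    intro σ k hσ
    obtain ⟨γ, hγ⟩ := heig σ k hσ
    have hB : (algebraMap (𝓞 K) K b) ^ (k ^ 2) ≠ 0 := pow_ne_zero _ hbK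
    refine ⟨γ * σ (algebraMap (𝓞 K) K b) / (algebraMap (𝓞 K) K b) ^ (k ^ 2), ?_⟩
    rw [hβ, map_mul, map_pow, hγ, mul_pow _ ((algebraMap (𝓞 K) K b) ^ p), ← pow_mul,
      mul_comm p (k ^ 2), pow_mul, div_pow (γ * σ (algebraMap (𝓞 K) K b)), mul_pow γ]
    generalize (algebraMap (𝓞 K) K b) ^ (k ^ 2) = B at hB ⊢
    generalize ((algebraMap (𝓞 K) K a) / (algebraMap (𝓞 K) K b)) ^ (k ^ 2) = A
    field_simp
  -- valuations of `a'`
  have hord' : ∀ v : HeightOneSpectrum (𝓞 K), PDvdOrd p v (algebraMap (𝓞 K) K (a * b ^ (p - 1))) := by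
    intro v
    obtain ⟨n, hn⟩ := hord v
    have hvb : v.valuation K (algebraMap (𝓞 K) K b) ≠ 0 := (Valuation.ne_zero_iff _).mpr hbK
    obtain ⟨m, hm⟩ : ∃ m : ℤ, v.valuation K (algebraMap (𝓞 K) K b) = WithZero.exp m :=
      ⟨WithZero.log _, (WithZero.exp_log hvb).symm⟩
    refine ⟨n + m, ?_⟩
    rw [hβ, map_mul, map_pow, hn, hm, ← WithZero.exp_nsmul, ← WithZero.exp_add]
    congr 1
    simp only [nsmul_eq_mul]
    ring
  obtain ⟨u, δ, hu⟩ := ideal_step_integral hζ (a * b ^ (p - 1)) ha'0 heig' hord' hcl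
  have hδ0 : δ ≠ 0 := by
    rintro rfl
    rw [zero_pow hp0, mul_zero] at hu
    exact ha'0 hu
  refine ⟨u, algebraMap (𝓞 K) K δ / algebraMap (𝓞 K) K b, ?_, ?_⟩
  · exact div_ne_zero (by simpa using hδ0) hbK
  · have h1 := congrArg (algebraMap (𝓞 K) K) hu
    rw [hβ, map_mul, map_pow] at h1
    rw [div_pow, ← mul_div_assoc, ← h1, mul_div_assoc, div_self (pow_ne_zero p hbK), mul_one]

end Fermat.Agent.S14

end
end ZBZ2S14_005_0

/-! ### bundled: `Fermat.Agent.S14.UnitsFinish` -/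
section ZBZ2S14_005_1

/-!
# S14, piece N6b: removal of the torsion

`UnitsWeakDimStatement p → UnitsDimStatement p` for an odd prime `p`.
-/

set_option autoImplicit false
set_option linter.style.haveILetI false

open NumberField

namespace Fermat.Agent.S14

section Finish

variable {p : ℕ} [Fact p.Prime] {K : Type} [Field K] [NumberField K]

/-- an element of `K` whose `p`-th power is a unit of `𝓞 K` is a unit of `𝓞 K`. -/
theorem n6b_unit_of_pow {γ : K} {c : (𝓞 K)ˣ} (h : γ ^ p = ((c : 𝓞 K) : K)) :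
    ∃ w : (𝓞 K)ˣ, ((w : 𝓞 K) : K) = γ := by
  have hp : 0 < p := (Fact.out : p.Prime).pos
  have h1 : IsIntegral ℤ γ :=
    IsIntegral.of_pow hp (by rw [h]; exact RingOfIntegers.isIntegral_coe _)
  have h2 : IsIntegral ℤ γ⁻¹ := by
    refine IsIntegral.of_pow hp ?_
    have : (γ⁻¹) ^ p = (((c⁻¹ : (𝓞 K)ˣ) : 𝓞 K) : K) := by
      rw [inv_pow, h]
      have hc : ((c : 𝓞 K) : K) * (((c⁻¹ : (𝓞 K)ˣ) : 𝓞 K) : K) = 1 := by
        rw [← map_mul, Units.mul_inv, map_one]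
      exact inv_eq_of_mul_eq_one_right hc
    rw [this]
    exact RingOfIntegers.isIntegral_coe _
  have hγ0 : γ ≠ 0 := by
    intro h0
    rw [h0, zero_pow hp.ne'] at h
    exact (RingOfIntegers.coe_ne_zero_iff.mpr c.ne_zero) h.symm
  refine ⟨⟨⟨γ, h1⟩, ⟨γ⁻¹, h2⟩, ?_, ?_⟩, rfl⟩
  · apply RingOfIntegers.ext
    show γ * γ⁻¹ = 1
    exact mul_inv_cancel₀ hγ0
  · apply RingOfIntegers.ext
    show γ⁻¹ * γ = 1
    exact inv_mul_cancel₀ hγ0

/-- the image of a unit under a Galois automorphism, as a unit of `𝓞 K`. -/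
noncomputable def n6bGalUnit (σ : K ≃ₐ[ℚ] K) (u : (𝓞 K)ˣ) : (𝓞 K)ˣ :=
  Units.map ((galRestrict ℤ ℚ K (𝓞 K) σ : 𝓞 K ≃ₐ[ℤ] 𝓞 K) : 𝓞 K →* 𝓞 K) u

omit [Fact p.Prime] in
theorem n6b_coe_galUnit (σ : K ≃ₐ[ℚ] K) (u : (𝓞 K)ˣ) :
    (((n6bGalUnit σ u : (𝓞 K)ˣ) : 𝓞 K) : K) = σ ((u : 𝓞 K) : K) := by
  simp only [n6bGalUnit, Units.coe_map]
  exact algebraMap_galRestrict_apply ℤ σ (u : 𝓞 K)

/-- a strict `ω²`-eigen unit is weakly `ω²`-eigen. -/
theorem n6b_weak_of_eigen {ζ : K} {u : (𝓞 K)ˣ} (h : IsOmegaSqEigen p ζ ((u : 𝓞 K) : K)) :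
    IsWeakOmegaSqEigen p ζ u := by
  intro σ k hk
  obtain ⟨γ, hγ⟩ := h σ k hk
  have hu0 : ((u : 𝓞 K) : K) ≠ 0 := by simp
  have hc : γ ^ p = (((n6bGalUnit σ u * (u ^ (k ^ 2))⁻¹ : (𝓞 K)ˣ) : 𝓞 K) : K) := by
    have h1 : ((((u ^ (k ^ 2))⁻¹ : (𝓞 K)ˣ) : 𝓞 K) : K) = (((u : 𝓞 K) : K) ^ (k ^ 2))⁻¹ := by
      have h2 : ((((u ^ (k ^ 2)) : (𝓞 K)ˣ) : 𝓞 K) : K) *
          ((((u ^ (k ^ 2))⁻¹ : (𝓞 K)ˣ) : 𝓞 K) : K) = 1 := by
        rw [← map_mul, Units.mul_inv, map_one]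
      simp only [Units.val_pow_eq_pow_val, map_pow] at h2
      exact (inv_eq_of_mul_eq_one_right h2).symm
    simp only [Units.val_mul, map_mul]
    simp only [← RingOfIntegers.coe_eq_algebraMap]
    rw [n6b_coe_galUnit, hγ, h1]
    field_simp
  obtain ⟨w, hw⟩ := n6b_unit_of_pow hc
  refine ⟨1, w, one_mem _, ?_⟩
  rw [hγ, hw]
  simp

end Finish

section Main

variable {p : ℕ} [Fact p.Prime]

/-- in a cyclotomic field of odd prime conductor, a `p`-th root of unity which is a `p`-th power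
is trivial. -/
theorem n6b_root_eq_one (h3 : 3 ≤ p) {K : Type} [Field K] [NumberField K]
    [IsCyclotomicExtension {p} ℚ K] {ζ : K} (hζ : IsPrimitiveRoot ζ p) {c : K} {n : ℕ}
    (hc : c ^ p = ζ ^ n) : ζ ^ n = 1 := by
  have hpp : p.Prime := Fact.out
  haveI : NeZero p := ⟨hpp.ne_zero⟩
  have hpodd : Odd p := hpp.odd_of_ne_two (by omega)
  have hcfin : IsOfFinOrder c := by
    rw [isOfFinOrder_iff_pow_eq_one]
    refine ⟨p * p, Nat.mul_pos hpp.pos hpp.pos, ?_⟩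
    rw [pow_mul, hc, ← pow_mul, mul_comm, pow_mul, hζ.pow_eq_one, one_pow]
  obtain ⟨r, -, hr⟩ := hζ.exists_pow_or_neg_mul_pow_of_isOfFinOrder hpodd hcfin
  have hcp : c ^ p = 1 ∨ c ^ p = -1 := by
    rcases hr with rfl | rfl
    · left
      rw [← pow_mul, mul_comm, pow_mul, hζ.pow_eq_one, one_pow]
    · right
      rw [neg_pow, ← pow_mul, mul_comm r p, pow_mul, hζ.pow_eq_one, one_pow, mul_one,
        hpodd.neg_one_pow]
  rcases hcp with h | h
  · rw [← hc, h]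
  · exfalso
    have h1 : (ζ ^ n) ^ p = 1 := by
      rw [← pow_mul, mul_comm, pow_mul, hζ.pow_eq_one, one_pow]
    rw [← hc, h, hpodd.neg_one_pow] at h1
    have h2 : (2 : K) = 0 := by linear_combination -h1
    exact two_ne_zero h2

/-- **N6b**: removal of the torsion. -/
theorem unitsDimStatement_of_weak (h3 : 3 ≤ p) (h : UnitsWeakDimStatement p) :
    UnitsDimStatement p := by
  intro K _ _ _ ζ hζ u₁ u₂ h₁ h₂
  have hpp : p.Prime := Fact.out
  haveI : NeZero p := ⟨hpp.ne_zero⟩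
  have hpodd : Odd p := hpp.odd_of_ne_two (by omega)
  obtain ⟨i, j, t, w, ht, hij, hrel⟩ :=
    h K ζ hζ u₁ u₂ (n6b_weak_of_eigen h₁) (n6b_weak_of_eigen h₂)
  -- the relation in `K`
  have hrelK : ((u₁ : 𝓞 K) : K) ^ i =
      ((u₂ : 𝓞 K) : K) ^ j * ((t : 𝓞 K) : K) * ((w : 𝓞 K) : K) ^ p := by
    have := congrArg (fun x : (𝓞 K)ˣ => ((x : 𝓞 K) : K)) hrel
    simpa using this
  -- `t = ± ζ ^ a`
  have htfin : IsOfFinOrder ((t : 𝓞 K) : K) := by
    have h1 : IsOfFinOrder t := (CommGroup.mem_torsion _).mp ht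
    rw [isOfFinOrder_iff_pow_eq_one] at h1 ⊢
    obtain ⟨n, hn, hn1⟩ := h1
    refine ⟨n, hn, ?_⟩
    have := congrArg (fun x : (𝓞 K)ˣ => ((x : 𝓞 K) : K)) hn1
    simpa using this
  obtain ⟨a, -, hta⟩ := hζ.exists_pow_or_neg_mul_pow_of_isOfFinOrder hpodd htfin
  -- an automorphism with `σ ζ = ζ ^ 2`
  have h2p : Nat.Coprime 2 p := by
    rw [Nat.coprime_comm]
    exact (Nat.Prime.coprime_iff_not_dvd hpp).mpr (fun h => by
      have := Nat.le_of_dvd (by norm_num) h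
      omega)
  obtain ⟨σ, hσ⟩ : ∃ σ : K ≃ₐ[ℚ] K, σ ζ = ζ ^ 2 := by
    refine ⟨(JacobiSumStickelberger.cycloGalEquiv p K).symm (ZMod.unitOfCoprime 2 h2p), ?_⟩
    rw [IdealStep.cycloGalEquiv_symm_apply_zeta hζ]
    congr 1
    rw [ZMod.coe_unitOfCoprime]
    have : ((2 : ℕ) : ZMod p).val = 2 := by
      rw [ZMod.val_natCast]
      exact Nat.mod_eq_of_lt (by omega)
    exact this
  obtain ⟨γ₁, hγ₁⟩ := h₁ σ 2 hσ
  obtain ⟨γ₂, hγ₂⟩ := h₂ σ 2 hσ
  have hu₁ : ((u₁ : 𝓞 K) : K) ≠ 0 := by simp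
  have hu₂ : ((u₂ : 𝓞 K) : K) ≠ 0 := by simp
  have hw0 : ((w : 𝓞 K) : K) ≠ 0 := by simp
  have hζ0 : ζ ≠ 0 := hζ.ne_zero hpp.ne_zero
  have hγ₁0 : γ₁ ≠ 0 := by
    intro h0
    rw [h0, zero_pow hpp.ne_zero, mul_zero] at hγ₁
    exact hu₁ ((map_eq_zero σ).mp hγ₁)
  -- the sign
  obtain ⟨ε, s, hεs, hε2, hεp, hσε, htε⟩ : ∃ (ε : K) (s : (𝓞 K)ˣ), ((s : 𝓞 K) : K) = ε ∧
      ε ^ 2 = 1 ∧ ε ^ p = ε ∧ σ ε = ε ∧ ((t : 𝓞 K) : K) = ε * ζ ^ a := by
    rcases hta with h | h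
    · exact ⟨1, 1, by simp, by simp, by simp, by simp, by rw [h, one_mul]⟩
    · refine ⟨-1, -1, by simp, by simp, hpodd.neg_one_pow, by simp, by rw [h]; ring⟩
  have hε0 : ε ≠ 0 := by
    intro h0
    rw [h0] at hε2
    simp at hε2
  -- apply `σ` to the relation
  have hσrel := congrArg σ hrelK
  rw [map_pow, map_mul, map_mul, map_pow, map_pow, hγ₁, hγ₂, htε, map_mul, map_pow, hσε, hσ]
    at hσrel
  -- compare with the fourth power of the relation
  have h4 := congrArg (fun x => x ^ 4) hrelK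
  simp only [htε] at h4
  -- `ζ ^ (2 a)` is a `p`-th power
  have hkey : (ε * γ₂ ^ j * σ ((w : 𝓞 K) : K) / (((w : 𝓞 K) : K) ^ 4 * γ₁ ^ i)) ^ p
      = ζ ^ (2 * a) := by
    have hε4 : ε ^ 4 = 1 := by
      have : ε ^ 4 = (ε ^ 2) ^ 2 := by ring
      rw [this, hε2, one_pow]
    have hden : (((w : 𝓞 K) : K) ^ 4 * γ₁ ^ i) ^ p ≠ 0 :=
      pow_ne_zero _ (mul_ne_zero (pow_ne_zero _ hw0) (pow_ne_zero _ hγ₁0))
    rw [div_pow, div_eq_iff hden, mul_pow, mul_pow, hεp]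
    have hu₂j : ((u₂ : 𝓞 K) : K) ^ (4 * j) ≠ 0 := pow_ne_zero _ hu₂
    have hζa : ζ ^ (2 * a) ≠ 0 := pow_ne_zero _ hζ0
    apply mul_left_cancel₀ hu₂j
    apply mul_left_cancel₀ hζa
    have e1 : ((u₁ : 𝓞 K) : K) ^ (4 * i) =
        ((u₂ : 𝓞 K) : K) ^ (4 * j) * ζ ^ (4 * a) * ((w : 𝓞 K) : K) ^ (4 * p) := by
      have : ((u₁ : 𝓞 K) : K) ^ (4 * i) = (((u₁ : 𝓞 K) : K) ^ i) ^ 4 := by ring
      rw [this, h4]
      have : (((u₂ : 𝓞 K) : K) ^ j * (ε * ζ ^ a) * ((w : 𝓞 K) : K) ^ p) ^ 4 =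
          ((u₂ : 𝓞 K) : K) ^ (4 * j) * ε ^ 4 * ζ ^ (4 * a) * ((w : 𝓞 K) : K) ^ (4 * p) := by ring
      rw [this, hε4, mul_one]
    have e2 : ((u₁ : 𝓞 K) : K) ^ (4 * i) * γ₁ ^ (p * i) =
        ((u₂ : 𝓞 K) : K) ^ (4 * j) * γ₂ ^ (p * j) * (ε * ζ ^ (2 * a)) *
          σ ((w : 𝓞 K) : K) ^ p := by
      have : ((u₁ : 𝓞 K) : K) ^ (4 * i) * γ₁ ^ (p * i) =
          (((u₁ : 𝓞 K) : K) ^ 2 ^ 2 * γ₁ ^ p) ^ i := by ring
      rw [this, hσrel]
      ring
    rw [e1] at e2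
    linear_combination -e2
  have hζ2a : ζ ^ (2 * a) = 1 := n6b_root_eq_one h3 hζ hkey
  have hdvd : p ∣ a := by
    have h1 : p ∣ 2 * a := (hζ.pow_eq_one_iff_dvd _).mp hζ2a
    exact (Nat.Coprime.dvd_mul_left h2p.symm).mp h1
  have hζa1 : ζ ^ a = 1 := (hζ.pow_eq_one_iff_dvd _).mpr hdvd
  refine ⟨i, j, s * w, hij, ?_⟩
  apply Units.ext
  apply RingOfIntegers.ext
  have : ((((u₂ ^ j * (s * w) ^ p : (𝓞 K)ˣ) : 𝓞 K)) : K) =
      ((u₂ : 𝓞 K) : K) ^ j * (ε * ((w : 𝓞 K) : K)) ^ p := by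
    simp [hεs]
  have h5 : ((((u₁ ^ i : (𝓞 K)ˣ) : 𝓞 K)) : K) = ((u₁ : 𝓞 K) : K) ^ i := by simp
  show ((((u₁ ^ i : (𝓞 K)ˣ) : 𝓞 K)) : K) = ((((u₂ ^ j * (s * w) ^ p : (𝓞 K)ˣ) : 𝓞 K)) : K)
  rw [h5, this, hrelK, htε, hζa1, mul_pow, hεp]
  ring

end Main

end Fermat.Agent.S14


end ZBZ2S14_005_1
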