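/- GENERATED FILE (helper35, build-time optimisation, NOTES/ZB.md): verbatim concatenation of the modules
   Fermat.Agent.S14.Assembly
   Do not edit; do not import together with these modules. -/
import Fermat.Agent.ZB.S14_001

/-! ### bundled: `Fermat.Agent.S14.Assembly` -/
section ZBZ2S14_001_0

/-!
# S14: final assembly (piece A1)

`ExtVanishingCts p` from the glue statements G1–G4 and the number field `Core`.
-/

set_option autoImplicit false
set_option linter.style.haveILetI false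

open NumberField IsDedekindDomain

namespace Fermat.Agent.S14

section Instances

/-- `ℚ̄/ℚ` is Galois, for the `Algebra ℚ ℚ̄` instance found by unification
(`DivisionRing.toRatAlgebra`), for which instance search fails. -/
theorem qbar_isGalois : IsGalois ℚ (AlgebraicClosure ℚ) := by
  have h1 : @IsGalois ℚ _ (AlgebraicClosure ℚ) _ (AlgebraicClosure.instAlgebra ℚ) :=
    inferInstance
  convert h1
  exact Subsingleton.elim _ _

/-- `ℚ̄/ℚ` is normal. -/
theorem qbar_normal : Normal ℚ (AlgebraicClosure ℚ) :=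
  haveI := qbar_isGalois
  inferInstance

/-- `ℚ̄/ℚ` is algebraic. -/
theorem qbar_isAlgebraic : Algebra.IsAlgebraic ℚ (AlgebraicClosure ℚ) :=
  haveI := qbar_isGalois
  inferInstance

/-- `ℚ̄/ℚ` is integral. -/
theorem qbar_isIntegral : Algebra.IsIntegral ℚ (AlgebraicClosure ℚ) :=
  haveI := qbar_isAlgebraic
  inferInstance

end Instances

section Helpers

variable {p : ℕ} [Fact p.Prime]

/-- the cyclotomic exponent describes the action on `p`-th roots of unity. -/
theorem cycloExp_spec (σ : AlgebraicClosure ℚ ≃ₐ[ℚ] AlgebraicClosure ℚ)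
    {ζ : AlgebraicClosure ℚ} (hζ : ζ ^ p = 1) :
    σ ζ = ζ ^ (ExtCitation.cycloExp p σ) := by
  have : NeZero p := ⟨(Fact.out : p.Prime).ne_zero⟩
  have hζu : IsUnit ζ := IsUnit.of_pow_eq_one hζ (NeZero.ne p)
  obtain ⟨t, rfl⟩ := hζu
  have ht : t ∈ rootsOfUnity p (AlgebraicClosure ℚ) := by
    rw [mem_rootsOfUnity]
    exact Units.ext (by simpa using hζ)
  have := modularCyclotomicCharacter.spec (AlgebraicClosure ℚ)
    (ExtCitation.card_rootsOfUnity_eq_self p)
    (σ : AlgebraicClosure ℚ ≃+* AlgebraicClosure ℚ) ht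
  simpa [ExtCitation.cycloExp] using this

/-- `σ ζ = ζ ^ k` for a primitive root forces `cycloExp σ ≡ k`. -/
theorem cycloExp_cast_eq (σ : AlgebraicClosure ℚ ≃ₐ[ℚ] AlgebraicClosure ℚ)
    {ζ : AlgebraicClosure ℚ} (hζ : IsPrimitiveRoot ζ p) {k : ℕ} (hk : σ ζ = ζ ^ k) :
    (ExtCitation.cycloExp p σ : ZMod p) = (k : ZMod p) := by
  have h1 := cycloExp_spec (p := p) σ hζ.pow_eq_one
  rw [hk] at h1
  have hfin : IsOfFinOrder ζ :=
    isOfFinOrder_iff_pow_eq_one.mpr ⟨p, (Fact.out : p.Prime).pos, hζ.pow_eq_one⟩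
  have := hfin.pow_eq_pow_iff_modEq.mp h1
  rw [← hζ.eq_orderOf] at this
  exact ((ZMod.natCast_eq_natCast_iff _ _ _).mpr this).symm

/-- there is a primitive `p`-th root of unity in `AlgebraicClosure ℚ`. -/
theorem exists_primitiveRoot_qbar : ∃ ζ : AlgebraicClosure ℚ, IsPrimitiveRoot ζ p := by
  have : NeZero p := ⟨(Fact.out : p.Prime).ne_zero⟩
  have : NeZero (p : AlgebraicClosure ℚ) := ⟨Nat.cast_ne_zero.mpr (NeZero.ne p)⟩
  exact HasEnoughRootsOfUnity.exists_primitiveRoot (AlgebraicClosure ℚ) p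

/-- an element fixing `C` pointwise, acting trivially modulo `C` and stabilising a complement of
`C` acts trivially. -/
theorem smul_eq_self_of_isCompl {V : Type} [AddCommGroup V] [Module (ZMod p) V]
    [DistribMulAction (AlgebraicClosure ℚ ≃ₐ[ℚ] AlgebraicClosure ℚ) V]
    {C C' : Submodule (ZMod p) V} (hCC' : IsCompl C C')
    (σ : AlgebraicClosure ℚ ≃ₐ[ℚ] AlgebraicClosure ℚ)
    (hC : ∀ x ∈ C, σ • x = x) (hC' : ∀ x ∈ C', σ • x ∈ C')
    (hquot : ∀ x : V, σ • x - x ∈ C) (x : V) : σ • x = x := by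
  have hx : x ∈ C ⊔ C' := by rw [hCC'.sup_eq_top]; trivial
  obtain ⟨y, hy, z, hz, rfl⟩ := Submodule.mem_sup.mp hx
  have hz' : σ • z - z ∈ C ⊓ C' := ⟨hquot z, C'.sub_mem (hC' z hz) hz⟩
  rw [hCC'.inf_eq_bot, Submodule.mem_bot, sub_eq_zero] at hz'
  rw [smul_add, hC y hy, hz']

end Helpers

section Main

variable {p : ℕ} [Fact p.Prime]

/-- every height one prime of a number field contains a rational prime. -/
theorem exists_prime_mem_heightOne {K : Type} [Field K] [NumberField K]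
    (v : HeightOneSpectrum (𝓞 K)) : ∃ ℓ : ℕ, ℓ.Prime ∧ (ℓ : 𝓞 K) ∈ v.asIdeal := by
  have hprime : (Ideal.absNorm v.asIdeal) ≠ 1 := by
    rw [Ne, Ideal.absNorm_eq_one_iff]
    exact v.isPrime.ne_top
  have hmem : (Ideal.absNorm v.asIdeal : 𝓞 K) ∈ v.asIdeal := Ideal.absNorm_mem v.asIdeal
  have hne : Ideal.absNorm v.asIdeal ≠ 0 := by
    rw [Ne, Ideal.absNorm_eq_zero_iff]
    exact v.ne_bot
  -- a prime factor of the norm lies in `v`
  have key : ∀ n : ℕ, n ≠ 0 → (n : 𝓞 K) ∈ v.asIdeal → ∃ ℓ : ℕ, ℓ.Prime ∧ (ℓ : 𝓞 K) ∈ v.asIdeal := by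
    intro n
    induction n using Nat.strong_induction_on with
    | _ n ih =>
      intro hn0 hn
      have hn1 : n ≠ 1 := by
        rintro rfl
        exact v.isPrime.ne_top ((Ideal.eq_top_iff_one _).mpr (by simpa using hn))
      obtain ⟨q, hq, hqn⟩ := Nat.exists_prime_and_dvd hn1
      obtain ⟨m, rfl⟩ := hqn
      rw [Nat.cast_mul] at hn
      rcases v.isPrime.mem_or_mem hn with h | h
      · exact ⟨q, hq, h⟩
      · have hm0 : m ≠ 0 := by rintro rfl; simp at hn0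
        exact ih m (by nlinarith [hq.two_le, Nat.pos_of_ne_zero hm0]) hm0 h
  exact key _ hne hmem

/-- **A1**: the final assembly of S14 from the glue statements and the number field core. -/
theorem extVanishingCts_of_pieces
    (hS : SplitStatement p) (hK : KummerStatement p) (hI : InertiaStatement p)
    (hD : DecompStatement p) (hC : Core p) : ExtCitation.ExtVanishingCts p := by
  intro V _ _ _ _ C hadm
  by_cases htriv : ∀ τ : AlgebraicClosure ℚ ≃ₐ[ℚ] AlgebraicClosure ℚ,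
      (ExtCitation.cycloExp p τ : ZMod p) = 1 → ∀ x : V, τ • x = x
  · exact hS V C hadm.toIsAdmissibleExtension htriv
  exfalso
  push Not at htriv
  obtain ⟨τ, hτ, x, hx⟩ := htriv
  obtain ⟨ζ, hζ⟩ := exists_primitiveRoot_qbar (p := p)
  obtain ⟨a, ha0, haK, haK', hfix, heig⟩ := hK V C hadm ⟨τ, hτ, x, hx⟩ ζ hζ
  have hp0 : p ≠ 0 := (Fact.out : p.Prime).ne_zero
  haveI : NeZero p := ⟨hp0⟩
  haveI := qbar_isGalois
  haveI := qbar_normal
  haveI := qbar_isAlgebraic
  haveI := qbar_isIntegral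
  haveI hcyc : IsCyclotomicExtension {p} ℚ (IntermediateField.adjoin ℚ {ζ}) :=
    hζ.intermediateField_adjoin_isCyclotomicExtension ℚ
  haveI : NumberField (IntermediateField.adjoin ℚ {ζ}) :=
    IsCyclotomicExtension.numberField {p} ℚ _
  have hζmem : ζ ∈ IntermediateField.adjoin ℚ {ζ} := IntermediateField.mem_adjoin_simple_self ℚ ζ
  have hζK : IsPrimitiveRoot (⟨ζ, hζmem⟩ : IntermediateField.adjoin ℚ {ζ}) p :=
    IsPrimitiveRoot.coe_submonoidClass_iff.mp hζ
  have hα0 : (⟨a ^ p, haK⟩ : IntermediateField.adjoin ℚ {ζ}) ≠ 0 := by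
    intro h
    have := congrArg (fun x : IntermediateField.adjoin ℚ {ζ} => (x : AlgebraicClosure ℚ)) h
    simp only [ZeroMemClass.coe_zero] at this
    exact ha0 (pow_eq_zero_iff hp0 |>.mp this)
  -- the decomposition groups above `p` fix `a`
  have hdec : ∀ A : ValuationSubring (AlgebraicClosure ℚ), A.LiesOverPrime p →
      ∀ σ ∈ A.decompositionSubgroup ℚ, σ ζ = ζ → σ a = a := by
    intro A hA σ hσ hσζ
    obtain ⟨C', hC'stab, hcompl⟩ := hadm.locally_split A hA
    have h1 : (ExtCitation.cycloExp p σ : ZMod p) = 1 := by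
      have := cycloExp_cast_eq (p := p) σ hζ (k := 1) (by simpa using hσζ)
      simpa using this
    refine hfix σ (smul_eq_self_of_isCompl hcompl σ (hadm.fixed_sub σ) (hC'stab σ hσ) ?_)
    intro y
    have := hadm.cyclo_quot σ y
    rwa [h1, one_smul] at this
  -- eigen-property
  have heigen : IsOmegaSqEigen p (⟨ζ, hζmem⟩ : IntermediateField.adjoin ℚ {ζ})
      (⟨a ^ p, haK⟩ : IntermediateField.adjoin ℚ {ζ}) := by
    intro σK k hk
    set σ : AlgebraicClosure ℚ ≃ₐ[ℚ] AlgebraicClosure ℚ := σK.liftNormal (AlgebraicClosure ℚ)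
      with hσdef
    have hcomm : ∀ y : IntermediateField.adjoin ℚ {ζ},
        σ (y : AlgebraicClosure ℚ) = ((σK y : IntermediateField.adjoin ℚ {ζ}) :
          AlgebraicClosure ℚ) := fun y => σK.liftNormal_commutes (AlgebraicClosure ℚ) y
    have hσζ : σ ζ = ζ ^ k := by
      have := hcomm ⟨ζ, hζmem⟩
      rw [hk] at this
      simpa using this
    obtain ⟨γ, hγK, hγ⟩ := heig σ
    have hek : (ExtCitation.cycloExp p σ : ZMod p) = (k : ZMod p) := cycloExp_cast_eq σ hζ hσζ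
    set e := ExtCitation.cycloExp p σ with hedef
    have hsq : ((e ^ 2 : ℕ) : ZMod p) = ((k ^ 2 : ℕ) : ZMod p) := by
      push_cast
      rw [hek]
    have hdvd : (p : ℤ) ∣ ((e ^ 2 : ℕ) : ℤ) - ((k ^ 2 : ℕ) : ℤ) := by
      have h2 : (((e ^ 2 : ℕ) : ℤ) : ZMod p) = (((k ^ 2 : ℕ) : ℤ) : ZMod p) := by
        simpa using hsq
      have := (ZMod.intCast_eq_intCast_iff_dvd_sub _ _ p).mp h2.symm
      exact this
    obtain ⟨m, hm⟩ := hdvd
    refine ⟨(⟨a ^ p, haK⟩ : IntermediateField.adjoin ℚ {ζ}) ^ m * ⟨γ, hγK⟩, ?_⟩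
    apply Subtype.ext
    have h1 := hcomm ⟨a ^ p, haK⟩
    simp only at h1
    rw [← h1, map_pow, hγ]
    have hapow : ((a ^ p) ^ (e ^ 2) : AlgebraicClosure ℚ)
        = (a ^ p) ^ (k ^ 2) * ((a ^ p) ^ m) ^ p := by
      have hap0 : (a ^ p : AlgebraicClosure ℚ) ≠ 0 := pow_ne_zero _ ha0
      rw [← zpow_natCast ((a ^ p) ^ m) p, ← zpow_mul, ← zpow_natCast (a ^ p) (k ^ 2),
        ← zpow_add₀ hap0, ← zpow_natCast (a ^ p) (e ^ 2)]
      congr 1
      linarith
    push_cast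
    have hcoe : (((⟨a ^ p, haK⟩ : IntermediateField.adjoin ℚ {ζ}) ^ m :
        IntermediateField.adjoin ℚ {ζ}) : AlgebraicClosure ℚ) = (a ^ p) ^ m := by
      exact map_zpow₀ (IntermediateField.adjoin ℚ {ζ}).val _ m
    rw [mul_pow, ← pow_mul, mul_comm (e ^ 2) p, pow_mul, hapow, mul_pow, hcoe]
    ring
  -- valuations
  have hordloc : ∀ v : HeightOneSpectrum (𝓞 (IntermediateField.adjoin ℚ {ζ})),
      PDvdOrd p v (⟨a ^ p, haK⟩ : IntermediateField.adjoin ℚ {ζ}) ∧
      ((p : 𝓞 (IntermediateField.adjoin ℚ {ζ})) ∈ v.asIdeal →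
        LocPow p v (⟨a ^ p, haK⟩ : IntermediateField.adjoin ℚ {ζ})) := by
    intro v
    obtain ⟨ℓ, hℓ, hmem⟩ := exists_prime_mem_heightOne v
    by_cases hℓp : ℓ = p
    · subst hℓp
      have := hD ζ hζ ⟨a ^ ℓ, haK⟩ a ha0 rfl hdec v hmem
      exact ⟨this.1, fun _ => this.2⟩
    · have h1 := hI ζ hζ ⟨a ^ p, haK⟩ a ha0 rfl ℓ hℓ hℓp
        (fun A hA σ hσ => hfix σ (hadm.unramified_outside ℓ hℓ hℓp A hA σ hσ)) v hmem
      refine ⟨h1, fun hpmem => ?_⟩
      -- `ℓ` and `p` both in `v`: impossible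
      exfalso
      have hcop : Nat.Coprime ℓ p := (Nat.coprime_primes hℓ (Fact.out : p.Prime)).mpr hℓp
      obtain ⟨x, y, hxy⟩ : ∃ x y : ℤ, x * ℓ + y * p = 1 := by
        have := Nat.gcd_eq_gcd_ab ℓ p
        rw [hcop.gcd_eq_one] at this
        exact ⟨Nat.gcdA ℓ p, Nat.gcdB ℓ p, by push_cast at this; linarith⟩
      have h1mem : (1 : 𝓞 (IntermediateField.adjoin ℚ {ζ})) ∈ v.asIdeal := by
        have h2 : ((x * ℓ + y * p : ℤ) : 𝓞 (IntermediateField.adjoin ℚ {ζ})) ∈ v.asIdeal := by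
          push_cast
          exact v.asIdeal.add_mem (v.asIdeal.mul_mem_left _ hmem)
            (v.asIdeal.mul_mem_left _ hpmem)
        rw [hxy] at h2
        simpa using h2
      exact v.isPrime.ne_top ((Ideal.eq_top_iff_one _).mpr h1mem)
  obtain ⟨δ, hδ⟩ := hC (IntermediateField.adjoin ℚ {ζ}) ⟨ζ, hζmem⟩ hζK ⟨a ^ p, haK⟩ hα0 heigen
    (fun v => (hordloc v).1) (fun v hv => (hordloc v).2 hv)
  -- `a ^ p = δ ^ p`, so `a ∈ K`
  have hδ' : a ^ p = (δ : AlgebraicClosure ℚ) ^ p := by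
    have := congrArg (fun x : IntermediateField.adjoin ℚ {ζ} => (x : AlgebraicClosure ℚ)) hδ
    simpa using this
  have hδ0 : (δ : AlgebraicClosure ℚ) ≠ 0 := by
    intro h
    rw [h, zero_pow hp0] at hδ'
    exact ha0 (pow_eq_zero_iff hp0 |>.mp hδ')
  have hroot : (a / (δ : AlgebraicClosure ℚ)) ^ p = 1 := by
    rw [div_pow, hδ', div_self (pow_ne_zero _ hδ0)]
  obtain ⟨i, -, hi⟩ := hζ.eq_pow_of_pow_eq_one hroot
  apply haK'
  have : a = ζ ^ i * (δ : AlgebraicClosure ℚ) := by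
    rw [hi, div_mul_cancel₀ _ hδ0]
  rw [this]
  exact mul_mem (pow_mem hζmem i) δ.2

end Main

end Fermat.Agent.S14


end ZBZ2S14_001_0
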