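/- GENERATED FILE (helper35, build-time optimisation, NOTES/ZB.md): verbatim concatenation of the modules
   Fermat.Agent.S14.CoreAssembly
   Do not edit; do not import together with these modules. -/
import Fermat.Agent.ZB.S14_001

/-! ### bundled: `Fermat.Agent.S14.CoreAssembly` -/
section ZBZ2S14_002_0

/-!
# S14: assembly of the number field core (piece A2)

`Core p` for `p ≥ 5` from the ideal step (N1), the vanishing of the `ω²`-eigen classes (N5),
the dimension of the `ω²`-eigenspace of units (N6) and the local computation (N7).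
-/

set_option autoImplicit false
set_option linter.style.haveILetI false

open NumberField IsDedekindDomain

namespace Fermat.Agent.S14

section Basic

variable {p : ℕ} {K : Type} [Field K] [NumberField K]

/-- `LocPow` is stable under multiplication by `p`-th powers. -/
theorem LocPow.mul_pow {v : HeightOneSpectrum (𝓞 K)} {α : K} (h : LocPow p v α) {c : K}
    (hc : c ≠ 0) : LocPow p v (α * c ^ p) := by
  obtain ⟨b, hb, hv⟩ := h
  refine ⟨b * c, mul_ne_zero hb hc, ?_⟩
  have : α * c ^ p / (b * c) ^ p = α / b ^ p := by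
    rw [_root_.mul_pow]
    field_simp
  rwa [this]

/-- `LocPow` is stable under powers. -/
theorem LocPow.pow {v : HeightOneSpectrum (𝓞 K)} {α : K} (h : LocPow p v α) (n : ℕ) :
    LocPow p v (α ^ n) := by
  obtain ⟨b, hb, hv⟩ := h
  refine ⟨b ^ n, pow_ne_zero _ hb, ?_⟩
  have e1 : α ^ n / (b ^ n) ^ p = (α / b ^ p) ^ n := by
    rw [div_pow, ← pow_mul, ← pow_mul, mul_comm]
  rw [e1]
  set x := α / b ^ p with hx
  -- `x ^ n - 1 = (x - 1) * ∑ x ^ i` and `v x ≤ 1`
  have hx1 : v.valuation K x ≤ 1 := by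
    have : x = (x - 1) + 1 := by ring
    rw [this]
    refine le_trans (Valuation.map_add _ _ _) (max_le ?_ (by simp))
    exact le_trans hv (by
      rw [← WithZero.exp_zero]
      exact WithZero.exp_le_exp.mpr (by norm_num))
  have hgeom : x ^ n - 1 = (x - 1) * ∑ i ∈ Finset.range n, x ^ i := by
    rw [mul_comm, ← mul_geom_sum]
    ring
  rw [hgeom, map_mul]
  have hsum : v.valuation K (∑ i ∈ Finset.range n, x ^ i) ≤ 1 := by
    refine Valuation.map_sum_le _ (fun i _ => ?_)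
    rw [map_pow]
    exact pow_le_one₀ zero_le hx1
  calc v.valuation K (x - 1) * v.valuation K (∑ i ∈ Finset.range n, x ^ i)
      ≤ v.valuation K (x - 1) * 1 := by gcongr
    _ = v.valuation K (x - 1) := mul_one _
    _ ≤ _ := hv

/-- the `ω²`-eigen property is stable under multiplication by `p`-th powers. -/
theorem IsOmegaSqEigen.mul_pow {ζ α : K} (h : IsOmegaSqEigen p ζ α) (c : K) :
    IsOmegaSqEigen p ζ (α * c ^ p) := by
  intro σ k hk
  obtain ⟨γ, hγ⟩ := h σ k hk
  by_cases hc : c = 0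
  · subst hc
    by_cases hp : p = 0
    · subst hp
      refine ⟨1, ?_⟩
      simp only [pow_zero, mul_one] at hγ ⊢
      exact hγ
    · refine ⟨0, ?_⟩
      simp [zero_pow hp]
  refine ⟨γ * σ c / c ^ (k ^ 2), ?_⟩
  rw [map_mul, map_pow, hγ]
  have h1 : (c ^ k ^ 2) ^ p ≠ 0 := pow_ne_zero _ (pow_ne_zero _ hc)
  rw [_root_.mul_pow α, div_pow, _root_.mul_pow γ, ← pow_mul c, ← pow_mul c, mul_comm p (k ^ 2)]
  rw [← pow_mul c] at h1
  field_simp

end Basic

section Units

variable {p : ℕ} [Fact p.Prime]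

/-- there is a prime of `𝓞 K` above `p`. -/
theorem exists_heightOne_above (K : Type) [Field K] [NumberField K] :
    ∃ v : HeightOneSpectrum (𝓞 K), (p : 𝓞 K) ∈ v.asIdeal := by
  have hpp : (Fact.out : p.Prime) = (Fact.out : p.Prime) := rfl
  haveI : (Ideal.span {(p : ℤ)}).IsPrime :=
    (Ideal.span_singleton_prime (by exact_mod_cast (Fact.out : p.Prime).ne_zero)).mpr
      (Nat.prime_iff_prime_int.mp Fact.out)
  obtain ⟨Q, hQ, hQc⟩ := Ideal.exists_ideal_over_prime_of_isIntegral_of_isDomain (S := 𝓞 K)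
    (Ideal.span {(p : ℤ)}) (by
      rw [(RingHom.injective_iff_ker_eq_bot _).mp
        (FaithfulSMul.algebraMap_injective ℤ (𝓞 K))]
      exact bot_le)
  have hpQ : (p : 𝓞 K) ∈ Q := by
    have : (p : ℤ) ∈ Q.comap (algebraMap ℤ (𝓞 K)) := by
      rw [hQc]
      exact Ideal.mem_span_singleton_self _
    simpa using this
  have hQbot : Q ≠ ⊥ := by
    rintro rfl
    have : (p : 𝓞 K) = 0 := by simpa using hpQ
    exact (Fact.out : p.Prime).ne_zero (by exact_mod_cast this)
  exact ⟨⟨Q, hQ, hQbot⟩, hpQ⟩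

/-- **units step**: from the dimension bound (N6) and the local computation (N7). -/
theorem unitsStatement_of_pieces (hdim : UnitsDimStatement p)
    (hloc : haveI : NeZero p := ⟨(Fact.out : p.Prime).ne_zero⟩; ThaineLocalStatement p) :
    UnitsStatement p := by
  haveI : NeZero p := ⟨(Fact.out : p.Prime).ne_zero⟩
  intro K _ _ _ ζ hζ u hu hulp
  obtain ⟨hηunit, hηeig, hηloc⟩ := hloc K hζ.toInteger hζ.toInteger_isPrimitiveRoot
  obtain ⟨i, j, w, hij, hrel⟩ := hdim K ζ hζ u hηunit.unit hu (by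
    rw [IsUnit.unit_spec]
    exact hηeig)
  obtain ⟨v, hv⟩ := exists_heightOne_above (p := p) K
  have hrelK : ((u : 𝓞 K) : K) ^ i =
      ((thaineElt p hζ.toInteger : 𝓞 K) : K) ^ j * ((w : 𝓞 K) : K) ^ p := by
    have := congrArg (fun x : (𝓞 K)ˣ => ((x : 𝓞 K) : K)) hrel
    simpa using this
  have hw0 : ((w : 𝓞 K) : K) ≠ 0 := by
    simp
  have hpj : p ∣ j := by
    by_contra hpj
    apply hηloc j _ hpj hw0 v hv
    rw [← hrelK]
    exact (hulp v hv).pow i
  have hpi : ¬ p ∣ i := by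
    rcases hij with h | h
    · exact h
    · exact absurd hpj h
  obtain ⟨j', rfl⟩ := hpj
  -- `u ^ i` is a `p`-th power and `p ∤ i`
  have hcop : Nat.Coprime i p :=
    ((Nat.Prime.coprime_iff_not_dvd Fact.out).mpr hpi).symm
  have hbez : (i : ℤ) * Nat.gcdA i p + (p : ℤ) * Nat.gcdB i p = 1 := by
    have := Nat.gcd_eq_gcd_ab i p
    rw [hcop.gcd_eq_one] at this
    exact_mod_cast this.symm
  have hu0 : ((u : 𝓞 K) : K) ≠ 0 := by simp
  have hη0 : ((thaineElt p hζ.toInteger : 𝓞 K) : K) ≠ 0 := by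
    simpa using hηunit.ne_zero
  refine ⟨(((thaineElt p hζ.toInteger : 𝓞 K) : K) ^ j' * ((w : 𝓞 K) : K)) ^ (Nat.gcdA i p) *
    ((u : 𝓞 K) : K) ^ (Nat.gcdB i p), ?_⟩
  have h1 : ((u : 𝓞 K) : K) = ((u : 𝓞 K) : K) ^ ((i : ℤ) * Nat.gcdA i p + (p : ℤ) * Nat.gcdB i p) := by
    rw [hbez, zpow_one]
  rw [zpow_add₀ hu0, zpow_mul, zpow_natCast, hrelK, zpow_mul, zpow_natCast] at h1
  rw [_root_.mul_pow, ← zpow_natCast (_ ^ Nat.gcdA i p) p, ← zpow_mul, mul_comm (Nat.gcdA i p) (p : ℤ),
    zpow_mul, zpow_natCast, _root_.mul_pow, ← pow_mul, mul_comm j' p, ← zpow_natCast (_ ^ Nat.gcdB i p) p,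
    ← zpow_mul, mul_comm (Nat.gcdB i p) (p : ℤ), zpow_mul, zpow_natCast]
  exact h1

end Units

section CoreSec

variable {p : ℕ} [Fact p.Prime]

/-- **A2**: the core from the ideal step, the class group step and the units step. -/
theorem core_of_pieces
    (hI : haveI : NeZero p := ⟨(Fact.out : p.Prime).ne_zero⟩; IdealStatement p)
    (hCE : haveI : NeZero p := ⟨(Fact.out : p.Prime).ne_zero⟩;
      ∀ (K : Type) [Field K] [NumberField K] [IsCyclotomicExtension {p} ℚ K],
        ClassEigenTrivial p K)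
    (hU : UnitsStatement p) : Core p := by
  haveI : NeZero p := ⟨(Fact.out : p.Prime).ne_zero⟩
  intro K _ _ _ ζ hζ α hα0 heig hord hloc
  obtain ⟨u, δ, hδ0, hαu⟩ := hI K ζ hζ α hα0 heig hord (hCE K)
  have hδinv : (δ⁻¹ : K) ≠ 0 := inv_ne_zero hδ0
  have hu_eq : ((u : 𝓞 K) : K) = α * (δ⁻¹) ^ p := by
    rw [hαu, inv_pow, mul_assoc, mul_inv_cancel₀ (pow_ne_zero _ hδ0), mul_one]
  obtain ⟨w, hw⟩ := hU K ζ hζ u (by rw [hu_eq]; exact heig.mul_pow _)
    (fun v hv => by rw [hu_eq]; exact (hloc v hv).mul_pow hδinv)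
  exact ⟨w * δ, by rw [hαu, hw, _root_.mul_pow]⟩

end CoreSec

end Fermat.Agent.S14


end ZBZ2S14_002_0
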