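/- GENERATED FILE (helper35, build-time optimisation, NOTES/ZB.md): verbatim concatenation of the modules
   Fermat.Agent.S14.Kummer
   Do not edit; do not import together with these modules. -/
import Fermat.Agent.ZB.S14_001
import Fermat.Prelude.Def_ExtCitation_KummerBridge

/-! ### bundled: `Fermat.Agent.S14.Kummer` -/
section ZBZ2S14_004_0

/-!
# S14, piece G2: the Kummer generator of a non-split admissible extension

`kummerStatement : KummerStatement p`.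

Sketch. `N` = kernel of the action on `V` (open, normal), `τ₀` with `ω(τ₀) = 1` acting
non-trivially, `x₁` with `c₀ := τ₀ x₁ - x₁ ≠ 0`.  Then `C = 𝔽_p c₀`, `V = C ⊕ 𝔽_p x₁`, and every
`τ` with `ω(τ) = 1` is `τ₀^k n` with `n ∈ N`.  The Lagrange resolvent
`a = ∑_{j<p} ζ^{-j} τ₀^j θ` (`θ` in the fixed field of `N`) satisfies `τ₀ a = ζ a`, `n a = a`,
and is nonzero for a suitable `θ` (Dedekind independence of characters).
-/

set_option autoImplicit false
set_option linter.unusedSectionVars false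
set_option linter.style.haveILetI false

namespace Fermat.Agent.S14

open ExtCitation

/-- The absolute Galois group of `ℚ` (abbreviation used in this file). -/
abbrev KGal : Type := AlgebraicClosure ℚ ≃ₐ[ℚ] AlgebraicClosure ℚ

/-- `AlgebraicClosure ℚ` is Galois over `ℚ` (for the `Algebra ℚ _` instance found by
unification). -/
theorem kg_isGalois : IsGalois ℚ (AlgebraicClosure ℚ) := by
  have h1 : @IsGalois ℚ _ (AlgebraicClosure ℚ) _ (AlgebraicClosure.instAlgebra ℚ) :=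
    inferInstance
  convert h1
  exact Subsingleton.elim _ _

section Cyclo

variable (p : ℕ) [Fact p.Prime]

/-- `σ` raises every `p`-th root of unity to the power `cycloExp p σ`. -/
theorem kg_apply_root (σ : KGal) {ζ : AlgebraicClosure ℚ} (hζ : ζ ^ p = 1) :
    σ ζ = ζ ^ (cycloExp p σ) := by
  have : NeZero p := ⟨(Fact.out : p.Prime).ne_zero⟩
  have h := modularCyclotomicCharacter.spec (AlgebraicClosure ℚ) (card_rootsOfUnity_eq_self p)
    (σ : AlgebraicClosure ℚ ≃+* AlgebraicClosure ℚ)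
    (t := (rootsOfUnity.mkOfPowEq ζ hζ : (AlgebraicClosure ℚ)ˣ))
    (rootsOfUnity.mkOfPowEq ζ hζ).2
  simpa [cycloExp] using h

theorem kg_cycloExp_lt (σ : KGal) : cycloExp p σ < p := by
  have : NeZero p := ⟨(Fact.out : p.Prime).ne_zero⟩
  exact ZMod.val_lt _

/-- If `ω(σ) = 1` then `cycloExp p σ = 1` as a natural number. -/
theorem kg_cycloExp_eq_one {σ : KGal} (h : (cycloExp p σ : ZMod p) = 1) : cycloExp p σ = 1 := by
  have : NeZero p := ⟨(Fact.out : p.Prime).ne_zero⟩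
  have hp1 : 1 < p := (Fact.out : p.Prime).one_lt
  have h1 : ((cycloExp p σ : ℕ) : ZMod p) = ((1 : ℕ) : ZMod p) := by simpa using h
  rw [ZMod.natCast_eq_natCast_iff'] at h1
  rwa [Nat.mod_eq_of_lt (kg_cycloExp_lt p σ), Nat.mod_eq_of_lt hp1] at h1

/-- If `ω(σ) = 1` then `σ` fixes the `p`-th roots of unity. -/
theorem kg_apply_root_of_one {σ : KGal} (h : (cycloExp p σ : ZMod p) = 1)
    {ζ : AlgebraicClosure ℚ} (hζ : ζ ^ p = 1) : σ ζ = ζ := by
  rw [kg_apply_root p σ hζ, kg_cycloExp_eq_one p h, pow_one]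

/-- If `σ` fixes a primitive `p`-th root of unity then `ω(σ) = 1`. -/
theorem kg_cycloExp_of_fix {σ : KGal} {ζ : AlgebraicClosure ℚ} (hζ : IsPrimitiveRoot ζ p)
    (h : σ ζ = ζ) : (cycloExp p σ : ZMod p) = 1 := by
  have hp1 : 1 < p := (Fact.out : p.Prime).one_lt
  have h2 : ζ ^ (cycloExp p σ) = ζ ^ 1 := by
    rw [← kg_apply_root p σ hζ.pow_eq_one, h, pow_one]
  have := hζ.pow_inj (kg_cycloExp_lt p σ) hp1 h2
  rw [this]; simp

/-- `cycloExp` is conjugation invariant (in `ZMod p`). -/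
theorem kg_cycloExp_conj (σ τ : KGal) :
    (cycloExp p (σ⁻¹ * τ * σ) : ZMod p) = (cycloExp p τ : ZMod p) := by
  rw [← coe_cycloChar, ← coe_cycloChar, map_mul, map_mul, map_inv]
  congr 1
  rw [mul_comm, ← mul_assoc, mul_inv_cancel, one_mul]

end Cyclo

section ModuleSide

variable {p : ℕ} [Fact p.Prime]
variable {V : Type} [AddCommGroup V] [Module (ZMod p) V]
  [DistribMulAction KGal V] [SMulCommClass KGal (ZMod p) V]
  {C : Submodule (ZMod p) V}

/-- An element with `ω = 1` moves every vector inside its coset of `C`. -/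
theorem kg_sub_mem (hadm : IsAdmissibleExtension p V C) {τ : KGal}
    (hτ : (cycloExp p τ : ZMod p) = 1) (x : V) : τ • x - x ∈ C := by
  have := hadm.cyclo_quot τ x
  rwa [hτ, one_smul] at this

theorem kg_finite (hadm : IsAdmissibleExtension p V C) : Finite V := by
  have hp : 0 < p := (Fact.out : p.Prime).pos
  apply Nat.finite_of_card_ne_zero
  rw [hadm.card_total]
  positivity

theorem kg_finrank_V (hadm : IsAdmissibleExtension p V C) :
    Module.finrank (ZMod p) V = 2 := by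
  haveI := kg_finite hadm
  have hp1 : 1 < p := (Fact.out : p.Prime).one_lt
  have h := Module.natCard_eq_pow_finrank (K := ZMod p) (V := V)
  rw [hadm.card_total, Nat.card_zmod] at h
  exact (Nat.pow_right_injective hp1 h).symm

theorem kg_finrank_C (hadm : IsAdmissibleExtension p V C) :
    Module.finrank (ZMod p) C = 1 := by
  haveI := kg_finite hadm
  have hp1 : 1 < p := (Fact.out : p.Prime).one_lt
  have h := Module.natCard_eq_pow_finrank (K := ZMod p) (V := C)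
  rw [hadm.card_sub, Nat.card_zmod] at h
  have h' : p ^ 1 = p ^ Module.finrank (ZMod p) C := by simpa using h
  exact (Nat.pow_right_injective hp1 h').symm

/-- Every element of `C` is a multiple of a given nonzero element of `C`. -/
theorem kg_C_eq_span (hadm : IsAdmissibleExtension p V C) {c₀ : V} (hc₀ : c₀ ∈ C)
    (hne : c₀ ≠ 0) {c : V} (hc : c ∈ C) : ∃ m : ZMod p, c = m • c₀ := by
  have h1 := kg_finrank_C hadm
  have hne' : (⟨c₀, hc₀⟩ : C) ≠ 0 := fun h => hne (by simpa using congrArg Subtype.val h)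
  obtain ⟨m, hm⟩ := (finrank_eq_one_iff_of_nonzero' (⟨c₀, hc₀⟩ : C) hne').mp h1 ⟨c, hc⟩
  exact ⟨m, by simpa using (congrArg Subtype.val hm).symm⟩

/-- `V = C + 𝔽_p x₁` for `x₁ ∉ C`. -/
theorem kg_decomp (hadm : IsAdmissibleExtension p V C) {x₁ : V} (hx₁ : x₁ ∉ C) (v : V) :
    ∃ c ∈ C, ∃ m : ZMod p, v = c + m • x₁ := by
  haveI := kg_finite hadm
  have hlt : C < C ⊔ Submodule.span (ZMod p) {x₁} := by
    refine lt_of_le_of_ne le_sup_left fun h => hx₁ ?_
    rw [h]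
    exact Submodule.mem_sup_right (Submodule.mem_span_singleton_self x₁)
  have h2 : Module.finrank (ZMod p) ↥(C ⊔ Submodule.span (ZMod p) {x₁}) = 2 := by
    have h3 := Submodule.finrank_lt_finrank_of_lt hlt
    have h4 := Submodule.finrank_le (C ⊔ Submodule.span (ZMod p) {x₁})
    rw [kg_finrank_C hadm] at h3
    rw [kg_finrank_V hadm] at h4
    omega
  have htop : C ⊔ Submodule.span (ZMod p) {x₁} = ⊤ :=
    Submodule.eq_top_of_finrank_eq (by rw [h2, kg_finrank_V hadm])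
  have hv : v ∈ C ⊔ Submodule.span (ZMod p) {x₁} := by rw [htop]; trivial
  obtain ⟨c, hc, y, hy, rfl⟩ := Submodule.mem_sup.mp hv
  obtain ⟨m, rfl⟩ := Submodule.mem_span_singleton.mp hy
  exact ⟨c, hc, m, rfl⟩

/-- An automorphism fixing some `x₁ ∉ C` acts trivially on `V`. -/
theorem kg_trivial_of_fix (hadm : IsAdmissibleExtension p V C) {x₁ : V} (hx₁ : x₁ ∉ C)
    {n : KGal} (hn : n • x₁ = x₁) (v : V) : n • v = v := by
  obtain ⟨c, hc, m, rfl⟩ := kg_decomp hadm hx₁ v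
  rw [smul_add, hadm.fixed_sub n c hc, smul_comm, hn]

/-- An automorphism acting trivially on `V` has `ω = 1`. -/
theorem kg_cycloExp_of_trivial (hadm : IsAdmissibleExtension p V C) {x₁ : V} (hx₁ : x₁ ∉ C)
    {n : KGal} (hn : ∀ v : V, n • v = v) : (cycloExp p n : ZMod p) = 1 := by
  by_contra hne
  have h := hadm.cyclo_quot n x₁
  rw [hn x₁] at h
  have h2 : ((1 : ZMod p) - (cycloExp p n : ZMod p)) • x₁ ∈ C := by
    rwa [sub_smul, one_smul]
  have hu : (1 : ZMod p) - (cycloExp p n : ZMod p) ≠ 0 := fun h0 => hne (sub_eq_zero.mp h0).symm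
  have h3 := C.smul_mem ((1 : ZMod p) - (cycloExp p n : ZMod p))⁻¹ h2
  rw [smul_smul, inv_mul_cancel₀ hu, one_smul] at h3
  exact hx₁ h3

/-- Powers of `τ₀` translate `x₁` by multiples of `c₀ = τ₀ x₁ - x₁`. -/
theorem kg_pow_smul (hadm : IsAdmissibleExtension p V C) {τ₀ : KGal}
    (hτ₀ : (cycloExp p τ₀ : ZMod p) = 1) (x₁ : V) (k : ℕ) :
    (τ₀ ^ k) • x₁ = x₁ + (k : ZMod p) • (τ₀ • x₁ - x₁) := by
  induction k with
  | zero => simp
  | succ k ih =>
    have hc : τ₀ • (τ₀ • x₁ - x₁) = τ₀ • x₁ - x₁ :=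
      hadm.fixed_sub τ₀ _ (kg_sub_mem hadm hτ₀ x₁)
    rw [pow_succ', mul_smul, ih, smul_add, smul_comm, hc]
    push_cast
    rw [add_smul, one_smul]
    abel

/-- Every `τ` with `ω(τ) = 1` translates `x₁` by a multiple of `c₀`. -/
theorem kg_exists_exp (hadm : IsAdmissibleExtension p V C) {τ₀ : KGal}
    (hτ₀ : (cycloExp p τ₀ : ZMod p) = 1) {x₁ : V} (hmove : τ₀ • x₁ ≠ x₁)
    {τ : KGal} (hτ : (cycloExp p τ : ZMod p) = 1) :
    ∃ k : ℕ, τ • x₁ = x₁ + (k : ZMod p) • (τ₀ • x₁ - x₁) := by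
  have : NeZero p := ⟨(Fact.out : p.Prime).ne_zero⟩
  obtain ⟨m, hm⟩ := kg_C_eq_span hadm (kg_sub_mem hadm hτ₀ x₁) (sub_ne_zero.mpr hmove)
    (kg_sub_mem hadm hτ x₁)
  refine ⟨m.val, ?_⟩
  rw [ZMod.natCast_val, ZMod.cast_id, ← hm]
  abel

theorem kg_not_mem (hadm : IsAdmissibleExtension p V C) {τ₀ : KGal} {x₁ : V}
    (hmove : τ₀ • x₁ ≠ x₁) : x₁ ∉ C := fun h => hmove (hadm.fixed_sub τ₀ x₁ h)

/-- If `τ x₁ = x₁ + k c₀` then `(τ₀^k)⁻¹ τ` acts trivially on `V`. -/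
theorem kg_quot_trivial (hadm : IsAdmissibleExtension p V C) {τ₀ : KGal}
    (hτ₀ : (cycloExp p τ₀ : ZMod p) = 1) {x₁ : V} (hmove : τ₀ • x₁ ≠ x₁)
    {τ : KGal} {k : ℕ} (hk : τ • x₁ = x₁ + (k : ZMod p) • (τ₀ • x₁ - x₁)) (v : V) :
    ((τ₀ ^ k)⁻¹ * τ) • v = v := by
  refine kg_trivial_of_fix hadm (kg_not_mem hadm hmove) ?_ v
  rw [mul_smul, hk, ← kg_pow_smul hadm hτ₀ x₁ k, inv_smul_smul]

/-- Conjugation multiplies the translation exponent by `ω(σ)`. -/
theorem kg_conj_smul (hadm : IsAdmissibleExtension p V C) {τ₀ : KGal}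
    (hτ₀ : (cycloExp p τ₀ : ZMod p) = 1) {x₁ : V}
    (σ : KGal) {τ : KGal} {k : ℕ} (hk : τ • x₁ = x₁ + (k : ZMod p) • (τ₀ • x₁ - x₁)) :
    (σ⁻¹ * τ * σ) • x₁ = x₁ + ((cycloExp p σ * k : ℕ) : ZMod p) • (τ₀ • x₁ - x₁) := by
  set c₀ := τ₀ • x₁ - x₁ with hc₀
  have hc₀C : c₀ ∈ C := kg_sub_mem hadm hτ₀ x₁
  set c₁ := σ • x₁ - (cycloExp p σ : ZMod p) • x₁ with hc₁
  have hc₁C : c₁ ∈ C := hadm.cyclo_quot σ x₁
  have hσ : σ • x₁ = (cycloExp p σ : ZMod p) • x₁ + c₁ := by rw [hc₁]; abel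
  have h1 : τ • (σ • x₁) = σ • x₁ + ((cycloExp p σ * k : ℕ) : ZMod p) • c₀ := by
    rw [hσ, smul_add, smul_comm, hk, hadm.fixed_sub τ c₁ hc₁C, smul_add, smul_smul]
    push_cast
    abel
  rw [mul_smul, mul_smul, h1, smul_add, inv_smul_smul,
    hadm.fixed_sub σ⁻¹ _ (C.smul_mem _ hc₀C)]

end ModuleSide

section FieldSide

variable {p : ℕ} [Fact p.Prime]
variable {V : Type} [AddCommGroup V] [Module (ZMod p) V]
  [DistribMulAction KGal V] [SMulCommClass KGal (ZMod p) V]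
  {C : Submodule (ZMod p) V}

variable (V) in
/-- The kernel of the action on `V`. -/
def kgKer : Subgroup KGal where
  carrier := {σ | ∀ v : V, σ • v = v}
  one_mem' := fun v => one_smul _ v
  mul_mem' := fun {a b} ha hb v => by rw [mul_smul, hb v, ha v]
  inv_mem' := fun {a} ha v => by rw [inv_smul_eq_iff, ha v]

theorem kg_mem_kgKer {σ : KGal} : σ ∈ kgKer V ↔ ∀ v : V, σ • v = v := Iff.rfl

theorem kg_conj_mem {n : KGal} (hn : n ∈ kgKer V) (g : KGal) : g⁻¹ * n * g ∈ kgKer V := by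
  intro v
  rw [mul_smul, mul_smul, hn (g • v), inv_smul_smul]

/-- The Lagrange resolvent `∑_{j<p} ζ^{-j} τ₀^j θ`. -/
noncomputable def kgRes (p : ℕ) (ζ : AlgebraicClosure ℚ) (τ₀ : KGal) (θ : AlgebraicClosure ℚ) :
    AlgebraicClosure ℚ :=
  ∑ j ∈ Finset.range p, (ζ⁻¹) ^ j * (τ₀ ^ j) θ

/-- `τ₀` multiplies the resolvent by `ζ`. -/
theorem kg_res_apply (ζ : AlgebraicClosure ℚ) (hζ : ζ ^ p = 1) (τ₀ : KGal) (hτζ : τ₀ ζ = ζ)
    (θ : AlgebraicClosure ℚ) (hθ : (τ₀ ^ p) θ = θ) :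
    τ₀ (kgRes p ζ τ₀ θ) = ζ * kgRes p ζ τ₀ θ := by
  have hζ0 : ζ ≠ 0 := by
    rintro rfl
    have hp : p ≠ 0 := (Fact.out : p.Prime).ne_zero
    simp [hp] at hζ
  set F : ℕ → AlgebraicClosure ℚ := fun j => (ζ⁻¹) ^ j * (τ₀ ^ j) θ with hF
  have h1 : τ₀ (kgRes p ζ τ₀ θ) = ∑ j ∈ Finset.range p, ζ * F (j + 1) := by
    unfold kgRes
    rw [map_sum]
    refine Finset.sum_congr rfl fun j _ => ?_
    rw [map_mul, map_pow, map_inv₀, hτζ, hF]
    simp only
    rw [pow_succ' τ₀ j, AlgEquiv.mul_apply, pow_succ, ← mul_assoc, ← mul_assoc]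
    congr 1
    rw [mul_comm ζ, mul_assoc, mul_inv_cancel₀ hζ0, mul_one]
  have h2 : ∑ j ∈ Finset.range p, F (j + 1) = ∑ j ∈ Finset.range p, F j := by
    have h3 := Finset.sum_range_succ' F p
    have h4 := Finset.sum_range_succ F p
    have h5 : F p = F 0 := by
      simp only [hF, pow_zero, one_mul, AlgEquiv.one_apply]
      rw [inv_pow, hζ, inv_one, one_mul, hθ]
    rw [h4, h5] at h3
    exact (add_right_cancel h3).symm
  rw [h1, ← Finset.mul_sum, h2]
  rfl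

/-- Elements of the kernel fix the resolvent of an element of the fixed field of the kernel. -/
theorem kg_res_fixed (ζ : AlgebraicClosure ℚ) (τ₀ : KGal)
    {θ : AlgebraicClosure ℚ} (hθ : θ ∈ IntermediateField.fixedField (kgKer V))
    {n : KGal} (hn : n ∈ kgKer V) (hnζ : n ζ = ζ) :
    n (kgRes p ζ τ₀ θ) = kgRes p ζ τ₀ θ := by
  unfold kgRes
  rw [map_sum]
  refine Finset.sum_congr rfl fun j _ => ?_
  rw [map_mul, map_pow, map_inv₀, hnζ]
  congr 1
  have h1 : n ((τ₀ ^ j) θ) = (τ₀ ^ j) (((τ₀ ^ j)⁻¹ * n * (τ₀ ^ j)) θ) := by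
    simp only [AlgEquiv.mul_apply]
    rw [← AlgEquiv.mul_apply (τ₀ ^ j) (τ₀ ^ j)⁻¹, mul_inv_cancel, AlgEquiv.one_apply]
  rw [h1, (IntermediateField.mem_fixedField_iff _ θ).mp hθ _ (kg_conj_mem hn (τ₀ ^ j))]

/-- Dedekind independence: some element of the fixed field of the kernel has a nonzero
resolvent. -/
theorem kg_exists_res_ne_zero (hadm : IsAdmissibleExtensionCts p V C) {τ₀ : KGal}
    (hτ₀ : (cycloExp p τ₀ : ZMod p) = 1) {x₁ : V} (hmove : τ₀ • x₁ ≠ x₁)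
    (ζ : AlgebraicClosure ℚ) :
    ∃ θ ∈ IntermediateField.fixedField (kgKer V), kgRes p ζ τ₀ θ ≠ 0 := by
  have hadm' := hadm.toIsAdmissibleExtension
  have hp0 : 0 < p := (Fact.out : p.Prime).pos
  have hclosed : IsClosed ((kgKer V : Subgroup KGal) : Set KGal) :=
    Subgroup.isClosed_of_isOpen (kgKer V) hadm.open_kernel
  haveI := kg_isGalois
  have hfix : (IntermediateField.fixedField (kgKer V)).fixingSubgroup = kgKer V :=
    InfiniteGalois.fixingSubgroup_fixedField ⟨kgKer V, hclosed⟩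
  set L := IntermediateField.fixedField (kgKer V) with hL
  let f : Fin p → (L →* AlgebraicClosure ℚ) := fun j =>
    { toFun := fun x => (τ₀ ^ (j : ℕ)) (x : AlgebraicClosure ℚ)
      map_one' := by simp
      map_mul' := by intro x y; simp }
  have hf : Function.Injective f := by
    intro i j hij
    have h1 : ∀ x ∈ L, ((τ₀ ^ (i : ℕ))⁻¹ * τ₀ ^ (j : ℕ)) x = x := by
      intro x hx
      have h2 : (τ₀ ^ (i : ℕ)) x = (τ₀ ^ (j : ℕ)) x := by
        have := DFunLike.congr_fun hij ⟨x, hx⟩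
        simpa [f] using this
      rw [AlgEquiv.mul_apply, ← h2, ← AlgEquiv.mul_apply, inv_mul_cancel, AlgEquiv.one_apply]
    have h3 : (τ₀ ^ (i : ℕ))⁻¹ * τ₀ ^ (j : ℕ) ∈ kgKer V := by
      rw [← hfix]
      exact (IntermediateField.mem_fixingSubgroup_iff _ _).mpr h1
    have h4 := h3 x₁
    rw [mul_smul, inv_smul_eq_iff, kg_pow_smul hadm' hτ₀ x₁ j, kg_pow_smul hadm' hτ₀ x₁ i] at h4
    have h5 : (((j : ℕ) : ZMod p) - ((i : ℕ) : ZMod p)) • (τ₀ • x₁ - x₁) = 0 := by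
      rw [sub_smul, sub_eq_zero]
      exact add_left_cancel h4
    rcases smul_eq_zero.mp h5 with h6 | h6
    · rw [sub_eq_zero, ZMod.natCast_eq_natCast_iff'] at h6
      rw [Nat.mod_eq_of_lt j.2, Nat.mod_eq_of_lt i.2] at h6
      exact Fin.ext h6.symm
    · exact absurd (sub_eq_zero.mp h6) hmove
  have hli : LinearIndependent (AlgebraicClosure ℚ)
      (fun j : Fin p => ((f j : L →* AlgebraicClosure ℚ) : L → AlgebraicClosure ℚ)) :=
    (linearIndependent_monoidHom L (AlgebraicClosure ℚ)).comp f hf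
  by_contra hall
  simp only [not_exists, not_and, not_not] at hall
  have hsum : ∑ j : Fin p, ((ζ⁻¹) ^ (j : ℕ)) •
      ((f j : L →* AlgebraicClosure ℚ) : L → AlgebraicClosure ℚ) = 0 := by
    funext x
    have := hall x.1 x.2
    unfold kgRes at this
    rw [Finset.sum_range] at this
    simpa [f, Finset.sum_apply] using this
  have h0 := Fintype.linearIndependent_iff.mp hli (fun j => (ζ⁻¹) ^ (j : ℕ)) hsum ⟨0, hp0⟩
  simp at h0

/-- An automorphism fixing `ζ` fixes `ℚ(ζ)` pointwise. -/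
theorem kg_fix_adjoin {τ : KGal} {ζ : AlgebraicClosure ℚ} (hτ : τ ζ = ζ)
    {x : AlgebraicClosure ℚ} (hx : x ∈ IntermediateField.adjoin ℚ {ζ}) : τ x = x := by
  induction hx using IntermediateField.adjoin_induction with
  | mem y hy =>
    rw [Set.mem_singleton_iff] at hy
    rw [hy, hτ]
  | algebraMap y => exact τ.commutes y
  | add y z _ _ hy hz => rw [map_add, hy, hz]
  | inv y _ hy => rw [map_inv₀, hy]
  | mul y z _ _ hy hz => rw [map_mul, hy, hz]

/-- An element fixed by every automorphism fixing `ζ` lies in `ℚ(ζ)`. -/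
theorem kg_mem_adjoin {ζ x : AlgebraicClosure ℚ}
    (hx : ∀ τ : KGal, τ ζ = ζ → τ x = x) : x ∈ IntermediateField.adjoin ℚ {ζ} := by
  haveI := kg_isGalois
  rw [← InfiniteGalois.fixedField_fixingSubgroup (IntermediateField.adjoin ℚ {ζ}),
    IntermediateField.mem_fixedField_iff]
  intro τ hτ
  exact hx τ ((IntermediateField.mem_fixingSubgroup_iff _ _).mp hτ ζ
    (IntermediateField.mem_adjoin_simple_self ℚ ζ))

end FieldSide

/-- **S14, piece G2**: the Kummer generator of a non-split admissible extension. -/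
theorem kummerStatement {p : ℕ} [Fact p.Prime] (_h3 : 3 ≤ p) : KummerStatement p := by
  intro V _ _ _ _ C hadm hex ζ hζ
  obtain ⟨τ₀, hτ₀, x₁, hmove⟩ := hex
  have hadm' := hadm.toIsAdmissibleExtension
  have hp1 : 1 < p := (Fact.out : p.Prime).one_lt
  have hx₁ : x₁ ∉ C := kg_not_mem hadm' hmove
  have hζp : ζ ^ p = 1 := hζ.pow_eq_one
  have hζ0 : ζ ≠ 0 := hζ.ne_zero (by omega)
  have hτζ : τ₀ ζ = ζ := kg_apply_root_of_one p hτ₀ hζp
  have hNζ : ∀ n ∈ kgKer V, n ζ = ζ := fun n hn =>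
    kg_apply_root_of_one p (kg_cycloExp_of_trivial hadm' hx₁ hn) hζp
  have hτp : τ₀ ^ p ∈ kgKer V := by
    intro v
    refine kg_trivial_of_fix hadm' hx₁ ?_ v
    rw [kg_pow_smul hadm' hτ₀ x₁ p]
    simp
  obtain ⟨θ, hθL, hθne⟩ := kg_exists_res_ne_zero hadm hτ₀ hmove ζ
  set a := kgRes p ζ τ₀ θ with ha
  have ha1 : τ₀ a = ζ * a :=
    kg_res_apply ζ hζp τ₀ hτζ θ ((IntermediateField.mem_fixedField_iff _ θ).mp hθL _ hτp)
  have ha2 : ∀ n ∈ kgKer V, n a = a := fun n hn => kg_res_fixed ζ τ₀ hθL hn (hNζ n hn)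
  have ha3 : ∀ k : ℕ, (τ₀ ^ k) a = ζ ^ k * a := by
    intro k
    induction k with
    | zero => simp
    | succ k ih =>
      rw [pow_succ' τ₀ k, AlgEquiv.mul_apply, ih, map_mul, map_pow, hτζ, ha1]
      ring
  have ha4 : ∀ (τ : KGal) (k : ℕ), τ • x₁ = x₁ + (k : ZMod p) • (τ₀ • x₁ - x₁) →
      τ a = ζ ^ k * a := by
    intro τ k hk
    have hn : (τ₀ ^ k)⁻¹ * τ ∈ kgKer V := kg_quot_trivial hadm' hτ₀ hmove hk
    have h1 : τ = τ₀ ^ k * ((τ₀ ^ k)⁻¹ * τ) := by group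
    rw [h1, AlgEquiv.mul_apply, ha2 _ hn, ha3]
  refine ⟨a, hθne, ?_, ?_, ?_, ?_⟩
  · refine kg_mem_adjoin fun τ hτ => ?_
    obtain ⟨k, hk⟩ := kg_exists_exp hadm' hτ₀ hmove (kg_cycloExp_of_fix p hζ hτ)
    rw [map_pow, ha4 τ k hk, mul_pow, ← pow_mul, mul_comm k p, pow_mul, hζp, one_pow, one_mul]
  · intro haK
    have h1 : τ₀ a = a := kg_fix_adjoin hτζ haK
    rw [ha1] at h1
    have h2 : ζ = 1 := by
      have h3 : (ζ - 1) * a = 0 := by rw [sub_mul, one_mul, h1, sub_self]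
      rcases mul_eq_zero.mp h3 with h4 | h4
      · exact sub_eq_zero.mp h4
      · exact absurd h4 hθne
    exact hζ.ne_one hp1 h2
  · intro σ hσ
    exact ha2 σ hσ
  · intro σ
    have hak : a ^ ((cycloExp p σ) ^ 2) ≠ 0 := pow_ne_zero _ hθne
    refine ⟨σ a * (a ^ ((cycloExp p σ) ^ 2))⁻¹, ?_, ?_⟩
    · refine kg_mem_adjoin fun τ hτ => ?_
      obtain ⟨kτ, hkτ⟩ := kg_exists_exp hadm' hτ₀ hmove (kg_cycloExp_of_fix p hζ hτ)
      have h1 := kg_conj_smul hadm' hτ₀ σ hkτ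
      have h2 := ha4 _ _ h1
      have h3 : τ (σ a) = σ ((σ⁻¹ * τ * σ) a) := by
        simp only [AlgEquiv.mul_apply]
        rw [← AlgEquiv.mul_apply σ σ⁻¹, mul_inv_cancel, AlgEquiv.one_apply]
      have hζk : ζ ^ kτ ≠ 0 := pow_ne_zero _ hζ0
      rw [map_mul, map_inv₀, map_pow, h3, h2, map_mul, map_pow, kg_apply_root p σ hζp,
        ha4 τ kτ hkτ, mul_pow, mul_inv, ← pow_mul, ← pow_mul]
      have h4 : cycloExp p σ * (cycloExp p σ * kτ) = kτ * cycloExp p σ ^ 2 := by ring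
      rw [h4]
      have h5 : ζ ^ (kτ * cycloExp p σ ^ 2) ≠ 0 := pow_ne_zero _ hζ0
      field_simp
    · field_simp

end Fermat.Agent.S14


end ZBZ2S14_004_0
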