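/- GENERATED FILE (helper35, build-time optimisation, NOTES/ZB.md): verbatim concatenation of the modules
   Fermat.Agent.S14.EigenQuot
   Fermat.Agent.S14.Wiring
   Do not edit; do not import together with these modules. -/
import Mathlib
import Fermat.Agent.ZB.S14_001
import Fermat.Agent.ZB.Z2S14_001
import Fermat.Agent.ZB.Z2S14_002
import Fermat.Agent.ZB.Z2S14_003
import Fermat.Agent.ZB.Z2S14_004
import Fermat.Agent.ZB.Z2S14_005
import Fermat.Agent.ZB.Z2S14_006

/-! ### bundled: `Fermat.Agent.S14.EigenQuot` -/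
section ZBZ2S14_007_0

/-!
# S14, piece N5: the `ω²`-eigenspace of `Cl(K)/p` and of `Cl(K)[p]`

* `eigenQuotTrivial_of_pieces`: Thaine's relation + the good prime statement + the local
  computation for `thaineElt` give `EigenQuotTrivial p K`.
* `classEigenTrivial_of_eigenQuotTrivial`: `EigenQuotTrivial p K → ClassEigenTrivial p K`.
-/

set_option autoImplicit false

open NumberField IsDedekindDomain JacobiSumStickelberger

namespace Fermat.Agent.S14

section EigenQuot

variable {p : ℕ} [Fact p.Prime]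
variable (K : Type) [Field K] [NumberField K] [IsCyclotomicExtension {p} ℚ K]

/-- `proj2 b` is always an `ω²`-eigenvector. -/
theorem n5_proj2_isEigen (b : ClGalModule p (𝓞 K)) :
    Stickelberger.IsOmegaEigenvector (clGalAction p K) 2 (proj2 p K b) := by
  intro d
  unfold proj2
  simp only [LinearMap.sum_apply, LinearMap.smul_apply, map_sum, map_smul, Finset.smul_sum]
  refine Fintype.sum_equiv (Equiv.mulLeft d) _ _ (fun e => ?_)
  simp only [Equiv.coe_mulLeft, map_mul, Module.End.mul_apply, smul_smul]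
  congr 1
  have hd : ((d : ZMod p)) * (((d⁻¹ : (ZMod p)ˣ) : ZMod p)) = 1 := by
    rw [← Units.val_mul, mul_inv_cancel, Units.val_one]
  rw [mul_inv_rev, Units.val_mul]
  calc (((e⁻¹ : (ZMod p)ˣ) : ZMod p)) ^ 2
      = (((d : ZMod p)) * (((d⁻¹ : (ZMod p)ˣ) : ZMod p))) ^ 2 *
          (((e⁻¹ : (ZMod p)ˣ) : ZMod p)) ^ 2 := by rw [hd, one_pow, one_mul]
    _ = (d : ZMod p) ^ 2 * ((((e⁻¹ : (ZMod p)ˣ) : ZMod p)) *
          (((d⁻¹ : (ZMod p)ˣ) : ZMod p))) ^ 2 := by ring

/-- On an `ω²`-eigenvector, `proj2` is multiplication by `p - 1 = -1`. -/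
theorem n5_proj2_of_isEigen (a : ClGalModule p (𝓞 K))
    (ha : Stickelberger.IsOmegaEigenvector (clGalAction p K) 2 a) :
    proj2 p K a = -a := by
  unfold proj2
  simp only [LinearMap.sum_apply, LinearMap.smul_apply]
  have h1 : ∀ d : (ZMod p)ˣ,
      ((((d⁻¹ : (ZMod p)ˣ) : ZMod p)) ^ 2) • clGalAction p K d a = a := by
    intro d
    rw [ha d, smul_smul, ← mul_pow, ← Units.val_mul, inv_mul_cancel, Units.val_one, one_pow,
      one_smul]
  rw [Finset.sum_congr rfl (fun d _ => h1 d), Finset.sum_const, Finset.card_univ,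
    ZMod.card_units_eq_totient, Nat.totient_prime (Fact.out : p.Prime)]
  have hp1 : 1 ≤ p := (Fact.out : p.Prime).one_lt.le
  have : ((p - 1 : ℕ) : ZMod p) = -1 := by
    rw [Nat.cast_sub hp1, ZMod.natCast_self, Nat.cast_one, zero_sub]
  rw [← Nat.cast_smul_eq_nsmul (ZMod p), this, neg_one_smul]

/-- `proj2` vanishes identically as soon as the `ω²`-eigenspace of `Cl/p` is trivial. -/
theorem n5_proj2_eq_zero (h : EigenQuotTrivial p K) (b : ClGalModule p (𝓞 K)) :
    proj2 p K b = 0 :=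
  h _ (n5_proj2_isEigen K b)

/-- The (multiplicative) lift of `proj2` to the class group. -/
noncomputable def n5E (y : ClassGroup (𝓞 K)) : ClassGroup (𝓞 K) :=
  ∏ d : (ZMod p)ˣ, (ClassGroup.mulEquiv (clRingAction p K d) y) ^
    ((((d⁻¹ : (ZMod p)ˣ) : ZMod p)).val ^ 2)

theorem n5E_pow (y : ClassGroup (𝓞 K)) (n : ℕ) : n5E (p := p) K (y ^ n) = n5E (p := p) K y ^ n := by
  unfold n5E
  rw [← Finset.prod_pow]
  refine Finset.prod_congr rfl (fun d _ => ?_)
  rw [map_pow, ← pow_mul, ← pow_mul, mul_comm]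

theorem n5_clProj_n5E (y : ClassGroup (𝓞 K)) :
    clProj p (𝓞 K) (Additive.ofMul (n5E (p := p) K y)) =
      proj2 p K (clProj p (𝓞 K) (Additive.ofMul y)) := by
  unfold n5E proj2
  simp only [LinearMap.sum_apply, LinearMap.smul_apply, ofMul_prod, map_sum, ofMul_pow, map_nsmul]
  refine Finset.sum_congr rfl (fun d _ => ?_)
  rw [← Nat.cast_smul_eq_nsmul (ZMod p), Nat.cast_pow, ZMod.natCast_zmod_val]
  rfl

/-- If the `ω²`-eigenspace of `Cl/p` is trivial, `n5E y` is a `p`-th power for every `y`. -/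
theorem n5E_eq_pow (h : EigenQuotTrivial p K) (y : ClassGroup (𝓞 K)) :
    ∃ z : ClassGroup (𝓞 K), n5E (p := p) K y = z ^ p := by
  have h0 : clProj p (𝓞 K) (Additive.ofMul (n5E (p := p) K y)) = 0 := by
    rw [n5_clProj_n5E, n5_proj2_eq_zero K h]
  obtain ⟨w, hw⟩ := (ModP.proj_eq_zero_iff p (Additive (ClassGroup (𝓞 K)))).mp h0
  refine ⟨Additive.toMul w, ?_⟩
  have := congrArg Additive.toMul hw
  simpa using this.symm

/-- On an eigenclass killed by `p`, `n5E` is inversion. -/
theorem n5E_of_eigen (c : ClassGroup (𝓞 K)) (hc : c ^ p = 1)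
    (hcd : ∀ d : (ZMod p)ˣ,
      ClassGroup.mulEquiv (clRingAction p K d) c = c ^ ((d : ZMod p).val ^ 2)) :
    c * n5E (p := p) K c = 1 := by
  unfold n5E
  have h1 : ∀ d : (ZMod p)ˣ,
      (ClassGroup.mulEquiv (clRingAction p K d) c) ^ ((((d⁻¹ : (ZMod p)ˣ) : ZMod p)).val ^ 2)
        = c ^ (((d : ZMod p).val ^ 2 * (((d⁻¹ : (ZMod p)ˣ) : ZMod p)).val ^ 2) % p) := by
    intro d
    rw [hcd d, ← pow_mul]
    exact pow_eq_pow_mod _ hc
  have h2 : ∀ d : (ZMod p)ˣ,
      ((d : ZMod p).val ^ 2 * (((d⁻¹ : (ZMod p)ˣ) : ZMod p)).val ^ 2) % p = 1 := by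
    intro d
    have hp1 : 1 < p := (Fact.out : p.Prime).one_lt
    have hd : ((d : ZMod p)) * (((d⁻¹ : (ZMod p)ˣ) : ZMod p)) = 1 := by
      rw [← Units.val_mul, mul_inv_cancel, Units.val_one]
    have : (((d : ZMod p).val ^ 2 * (((d⁻¹ : (ZMod p)ˣ) : ZMod p)).val ^ 2 : ℕ) : ZMod p)
        = ((1 : ℕ) : ZMod p) := by
      simp only [Nat.cast_mul, Nat.cast_pow, ZMod.natCast_zmod_val, Nat.cast_one]
      rw [← mul_pow, hd, one_pow]
    rw [ZMod.natCast_eq_natCast_iff'] at this
    rw [this, Nat.mod_eq_of_lt hp1]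
  have h12 : ∀ d : (ZMod p)ˣ,
      (ClassGroup.mulEquiv (clRingAction p K d) c) ^ ((((d⁻¹ : (ZMod p)ˣ) : ZMod p)).val ^ 2)
        = c := by
    intro d
    rw [h1 d, h2 d, pow_one]
  rw [Finset.prod_congr rfl (fun d _ => h12 d),
    Finset.prod_const, Finset.card_univ, ZMod.card_units_eq_totient,
    Nat.totient_prime (Fact.out : p.Prime), ← pow_succ']
  have hp1 : 1 ≤ p := (Fact.out : p.Prime).one_lt.le
  rw [Nat.sub_add_cancel hp1, hc]

/-- An eigenclass killed by `p` is a `p^k`-th power for every `k`. -/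
theorem n5_eigen_pow (h : EigenQuotTrivial p K) (c : ClassGroup (𝓞 K)) (hc : c ^ p = 1)
    (hcd : ∀ d : (ZMod p)ˣ,
      ClassGroup.mulEquiv (clRingAction p K d) c = c ^ ((d : ZMod p).val ^ 2)) (k : ℕ) :
    ∃ y : ClassGroup (𝓞 K), c = y ^ (p ^ k) := by
  induction k with
  | zero => exact ⟨c, by simp⟩
  | succ k ih =>
    obtain ⟨y, hy⟩ := ih
    obtain ⟨z, hz⟩ := n5E_eq_pow K h y
    refine ⟨z⁻¹, ?_⟩
    have h1 : n5E (p := p) K c = z ^ (p ^ (k + 1)) := by
      rw [hy, n5E_pow, hz, ← pow_mul, pow_succ']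
    have h2 := n5E_of_eigen K c hc hcd
    rw [h1] at h2
    rw [inv_pow]
    exact eq_inv_of_mul_eq_one_left h2

/-- **N5, second half**: if the `ω²`-eigenspace of `Cl/p` is trivial, then so is the
`ω²`-eigenspace of `Cl[p]`. -/
theorem classEigenTrivial_of_eigenQuotTrivial (h : EigenQuotTrivial p K) :
    ClassEigenTrivial p K := by
  intro c hc hcd
  have hpp : p.Prime := Fact.out
  have hN : Fintype.card (ClassGroup (𝓞 K)) ≠ 0 := Fintype.card_ne_zero
  obtain ⟨k, m, hm, hNkm⟩ := Nat.exists_eq_pow_mul_and_not_dvd hN p hpp.ne_one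
  obtain ⟨y, hy⟩ := n5_eigen_pow K h c hc hcd k
  have hcm : c ^ m = 1 := by
    rw [hy, ← pow_mul, ← hNkm]
    exact pow_card_eq_one
  have h1 : orderOf c ∣ p := orderOf_dvd_of_pow_eq_one hc
  have h2 : orderOf c ∣ m := orderOf_dvd_of_pow_eq_one hcm
  have hcop : Nat.Coprime p m := (Nat.Prime.coprime_iff_not_dvd hpp).mpr hm
  have h3 : orderOf c ∣ 1 := by
    have := Nat.dvd_gcd h1 h2
    rwa [hcop.gcd_eq_one] at this
  exact orderOf_eq_one_iff.mp (Nat.dvd_one.mp h3)

/-- The class group character attached to a linear functional on `Cl/p` (composed with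
`proj2`). -/
noncomputable def n5Chi (φ : Module.Dual (ZMod p) (ClGalModule p (𝓞 K))) :
    ClassGroup (𝓞 K) →* ℂˣ :=
  MonoidHom.toHomUnits
    { toFun := fun c =>
        (ZMod.stdAddChar (N := p)) (φ (proj2 p K (clProj p (𝓞 K) (Additive.ofMul c))))
      map_one' := by
        rw [ofMul_one, map_zero, map_zero, map_zero, AddChar.map_zero_eq_one]
      map_mul' := fun c c' => by
        rw [ofMul_mul, map_add, map_add, map_add, AddChar.map_add_eq_mul] }

theorem n5Chi_apply (φ : Module.Dual (ZMod p) (ClGalModule p (𝓞 K))) (c : ClassGroup (𝓞 K)) :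
    ((n5Chi K φ c : ℂˣ) : ℂ) =
      (ZMod.stdAddChar (N := p)) (φ (proj2 p K (clProj p (𝓞 K) (Additive.ofMul c)))) := rfl

omit [IsCyclotomicExtension {p} ℚ K] in
/-- There is a prime of `𝓞 K` above `p`. -/
theorem n5_exists_prime_above :
    ∃ v : HeightOneSpectrum (𝓞 K), (p : 𝓞 K) ∈ v.asIdeal := by
  have hpp : p.Prime := Fact.out
  have : (Ideal.span {(p : ℤ)}).IsMaximal :=
    (Ideal.IsPrime.isMaximal
      ((Ideal.span_singleton_prime (by exact_mod_cast hpp.ne_zero)).mpr
        (Nat.prime_iff_prime_int.mp hpp))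
      (by simpa using hpp.ne_zero))
  obtain ⟨Q, hQmax, hQ⟩ := Ideal.exists_ideal_over_maximal_of_isIntegral (S := 𝓞 K)
    (Ideal.span {(p : ℤ)}) (by
      rw [(RingHom.injective_iff_ker_eq_bot _).mp
        (FaithfulSMul.algebraMap_injective ℤ (𝓞 K))]
      exact bot_le)
  have hpQ : (p : 𝓞 K) ∈ Q := by
    have : (p : ℤ) ∈ Ideal.comap (algebraMap ℤ (𝓞 K)) Q := by
      rw [hQ]; exact Ideal.mem_span_singleton_self _
    simpa using this
  refine ⟨⟨Q, hQmax.isPrime, ?_⟩, hpQ⟩
  rintro rfl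
  have : (p : 𝓞 K) = 0 := by simpa using hpQ
  exact hpp.ne_zero (by exact_mod_cast this)

/-- **N5, first half**: Thaine's relation, the good prime statement and the local computation
give the vanishing of the `ω²`-eigenspace of `Cl/p`. -/
theorem eigenQuotTrivial_of_pieces (h3 : 3 ≤ p) (hT : ThaineStatement p)
    (hG : GoodPrimeStatement p) (hL : ThaineLocalStatement p) :
    EigenQuotTrivial p K := by
  intro a ha
  by_contra ha0
  -- a primitive root in `𝓞 K`
  obtain ⟨ζ₀, hζ₀⟩ := IsCyclotomicExtension.exists_isPrimitiveRoot ℚ K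
    (Set.mem_singleton p) (NeZero.ne p)
  set ζ : 𝓞 K := hζ₀.toInteger with hζdef
  have hζ : IsPrimitiveRoot ζ p := hζ₀.toInteger_isPrimitiveRoot
  obtain ⟨hunit, -, hloc⟩ := hL K ζ hζ
  -- `thaineElt` is not a `p`-th power
  have hnotpow : ¬ ∃ y : K, ((thaineElt p ζ : 𝓞 K) : K) = y ^ p := by
    rintro ⟨y, hy⟩
    obtain ⟨v, hv⟩ := n5_exists_prime_above (p := p) K
    have hne : ((thaineElt p ζ : 𝓞 K) : K) ≠ 0 := by
      have : (thaineElt p ζ : 𝓞 K) ≠ 0 := hunit.ne_zero
      exact_mod_cast this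
    have hy0 : y ≠ 0 := by
      rintro rfl
      rw [zero_pow (NeZero.ne p)] at hy
      exact hne hy
    refine hloc 1 1 ?_ one_ne_zero v hv ⟨y, hy0, ?_⟩
    · intro h
      have := Nat.le_of_dvd Nat.one_pos h
      omega
    · rw [pow_one, one_pow, mul_one, hy, div_self (pow_ne_zero p hy0), sub_self, map_zero]
      exact zero_le
  -- the functional and the character
  have hpa : proj2 p K a ≠ 0 := by
    rw [n5_proj2_of_isEigen K a ha]
    exact neg_ne_zero.mpr ha0
  obtain ⟨φ, hφ⟩ : ∃ φ : Module.Dual (ZMod p) (ClGalModule p (𝓞 K)), φ (proj2 p K a) ≠ 0 := by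
    by_contra hcon
    push Not at hcon
    exact hpa ((Module.forall_dual_apply_eq_zero_iff (ZMod p) _).mp hcon)
  have hχ : n5Chi K φ ≠ 1 := by
    intro h1
    obtain ⟨C, rfl⟩ := clProj_surjective p (𝓞 K) a
    have h2 : ((n5Chi K φ (Additive.toMul C) : ℂˣ) : ℂ) = 1 := by rw [h1]; rfl
    rw [n5Chi_apply, ofMul_toMul, ← AddChar.map_zero_eq_one (ZMod.stdAddChar (N := p))] at h2
    exact hφ (ZMod.injective_stdAddChar h2)
  obtain ⟨v, hdeg, hχv, hres⟩ := hG K (thaineElt p ζ) hunit hnotpow (n5Chi K φ) hχ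
  apply hχv
  have h0 := hT K ζ hζ v hdeg hres
  apply Units.ext
  rw [n5Chi_apply, h0, map_zero, AddChar.map_zero_eq_one]
  rfl

/-- **N5, combined**: the form consumed by `core_of_pieces` (piece A2). -/
theorem classEigenTrivial_of_pieces (h3 : 3 ≤ p) (hT : ThaineStatement p)
    (hG : GoodPrimeStatement p) (hL : ThaineLocalStatement p) :
    ClassEigenTrivial p K :=
  classEigenTrivial_of_eigenQuotTrivial K (eigenQuotTrivial_of_pieces K h3 hT hG hL)

end EigenQuot

end Fermat.Agent.S14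


end ZBZ2S14_007_0

/-! ### bundled: `Fermat.Agent.S14.Wiring` -/
section ZBZ2S14_007_1

/-!
# S14: wiring of all pieces

`ExtVanishingCts p` from the pieces that are not yet landed (as hypotheses); everything else is
taken from the landed files.
-/

set_option autoImplicit false
set_option linter.style.haveILetI false

namespace Fermat.Agent.S14

variable {p : ℕ} [Fact p.Prime]

/-- the number field core for all primes `p ≥ 3`, from the open pieces. -/
theorem core_of_open (h3 : 3 ≤ p)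
    (hTh : haveI : NeZero p := ⟨(Fact.out : p.Prime).ne_zero⟩; 5 ≤ p → ThaineStatement p)
    (hGP : 5 ≤ p → GoodPrimeStatement p)
    (hUD : 5 ≤ p → UnitsDimStatement p)
    (hTL : haveI : NeZero p := ⟨(Fact.out : p.Prime).ne_zero⟩; 5 ≤ p → ThaineLocalStatement p) :
    Core p := by
  haveI : NeZero p := ⟨(Fact.out : p.Prime).ne_zero⟩
  by_cases h5 : 5 ≤ p
  · refine core_of_pieces idealStatement (fun K _ _ _ => ?_)
      (unitsStatement_of_pieces (hUD h5) (hTL h5))
    exact classEigenTrivial_of_pieces K h3 (hTh h5) (hGP h5) (hTL h5)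
  · have hp : p.Prime := Fact.out
    have h34 : p = 3 ∨ p = 4 := by omega
    rcases h34 with rfl | rfl
    · exact core_three
    · exact absurd hp (by decide)

/-- S14 from the open pieces. -/
theorem extVanishingCts_of_open (h3 : 3 ≤ p)
    (hI : InertiaStatement p) (hD : DecompStatement p)
    (hTh : haveI : NeZero p := ⟨(Fact.out : p.Prime).ne_zero⟩; 5 ≤ p → ThaineStatement p)
    (hGP : 5 ≤ p → GoodPrimeStatement p)
    (hUD : 5 ≤ p → UnitsDimStatement p)
    (hTL : haveI : NeZero p := ⟨(Fact.out : p.Prime).ne_zero⟩; 5 ≤ p → ThaineLocalStatement p) :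
    ExtCitation.ExtVanishingCts p :=
  extVanishingCts_of_pieces splitStatement (kummerStatement h3) hI hD
    (core_of_open h3 hTh hGP hUD hTL)

end Fermat.Agent.S14


end ZBZ2S14_007_1
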