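/- GENERATED FILE (helper35, build-time optimisation, NOTES/ZB.md): verbatim concatenation of the modules
   Fermat.Agent.S14.SplitPrimes
   Fermat.Agent.S14.SplitBoundCore
   Fermat.Agent.S14.SplitBound
   Do not edit; do not import together with these modules. -/
import Mathlib
import Fermat.Agent.ZB.S14_001

/-! ### bundled: `Fermat.Agent.S14.SplitPrimes` -/
section ZBZ2S14_011_0

/-!
# S14 / N4b, part 1 — splitting of degree one primes in a Kummer extension of prime degree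

Abstract form: `M/K` Galois of prime degree `p`, `a ∈ 𝓞 M` with `a^p = ε` a unit of `𝓞 K`,
`σ ∈ Gal(M/K)` with `σ a = ζ a`. If `v` is a prime of `K` not containing `p` such that `ε` is a
`p`-th power modulo `v`, then there are exactly `p` primes of `M` above `v`, all of norm `N v`.
-/

set_option autoImplicit false

open NumberField IsDedekindDomain Ideal
open scoped Pointwise

namespace Fermat.Agent.S14

section SplitAbstract

variable {p : ℕ} [hp : Fact p.Prime]
variable {K M : Type} [Field K] [NumberField K] [Field M] [NumberField M] [Algebra K M]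
  [IsGalois K M]

/-- If `1 - ζ ∈ v` for a primitive `p`-th root of unity `ζ`, then `p ∈ v`. -/
theorem natCast_mem_of_one_sub_zeta_mem {R : Type*} [CommRing R] [IsDomain R] {ζ : R}
    (hζ : IsPrimitiveRoot ζ p) (v : Ideal R) (h : 1 - ζ ∈ v) : (p : R) ∈ v := by
  have h1 : Ideal.Quotient.mk v ζ = 1 := by
    have : Ideal.Quotient.mk v (1 - ζ) = 0 := Ideal.Quotient.eq_zero_iff_mem.mpr h
    rw [map_sub, map_one, sub_eq_zero] at this
    exact this.symm
  have h2 : ∑ i ∈ Finset.range p, ζ ^ i = 0 := hζ.geom_sum_eq_zero hp.out.one_lt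
  have h3 := congrArg (Ideal.Quotient.mk v) h2
  rw [map_sum, map_zero] at h3
  simp only [map_pow, h1, one_pow, Finset.sum_const, Finset.card_range, nsmul_eq_mul,
    mul_one] at h3
  rw [← map_natCast (Ideal.Quotient.mk v)] at h3
  exact Ideal.Quotient.eq_zero_iff_mem.mp h3

theorem primesOver_split (hfin : Module.finrank K M = p)
    (ζ : 𝓞 K) (hζ : IsPrimitiveRoot ζ p) (ε : 𝓞 K) (hε : IsUnit ε)
    (a : 𝓞 M) (ha : a ^ p = algebraMap (𝓞 K) (𝓞 M) ε)
    (σ : Gal(M/K)) (hσ : σ • a = algebraMap (𝓞 K) (𝓞 M) ζ * a)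
    (v : Ideal (𝓞 K)) [hv : v.IsMaximal] (hv0 : v ≠ ⊥) (hvp : (p : 𝓞 K) ∉ v)
    (y : 𝓞 K) (hy : ε - y ^ p ∈ v) :
    (primesOver v (𝓞 M)).ncard = p ∧ ∀ P ∈ primesOver v (𝓞 M), absNorm P = absNorm v := by
  classical
  have hinj : Function.Injective (algebraMap (𝓞 K) (𝓞 M)) :=
    FaithfulSMul.algebraMap_injective (𝓞 K) (𝓞 M)
  set ζ' : 𝓞 M := algebraMap (𝓞 K) (𝓞 M) ζ with hζ'def
  set y' : 𝓞 M := algebraMap (𝓞 K) (𝓞 M) y with hy'def
  have hζ' : IsPrimitiveRoot ζ' p := hζ.map_of_injective hinj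
  have hσK : ∀ x : 𝓞 K, σ • (algebraMap (𝓞 K) (𝓞 M) x) = algebraMap (𝓞 K) (𝓞 M) x :=
    fun x => smul_algebraMap σ x
  -- pick a prime above `v`
  obtain ⟨⟨P, hPprime, hPover⟩⟩ : Nonempty (primesOver v (𝓞 M)) := inferInstance
  have hunder : ∀ x : 𝓞 K, algebraMap (𝓞 K) (𝓞 M) x ∈ P ↔ x ∈ v := by
    intro x
    rw [hPover.over]
    rfl
  -- some factor of `a^p - y^p` lies in `P`
  have hprod : ∏ η ∈ Polynomial.nthRootsFinset p (1 : 𝓞 M), (a - η * y') ∈ P := by
    rw [← hζ'.pow_sub_pow_eq_prod_sub_mul a y' hp.out.pos, ha, hy'def, ← map_pow, ← map_sub]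
    exact (hunder _).mpr hy
  obtain ⟨η, hη, hηP⟩ := (hPprime.prod_mem_iff).mp hprod
  have hηpow : η ^ p = 1 := (Polynomial.mem_nthRootsFinset hp.out.pos 1).mp hη
  obtain ⟨i, -, hi⟩ := hζ'.eq_pow_of_pow_eq_one hηpow
  have hση : σ • η = η := by
    rw [← hi, smul_pow', hζ'def, hσK]
  -- `σ • P ≠ P`
  have hne : σ • P ≠ P := by
    intro h
    have h1 : σ • (a - η * y') ∈ P := by
      have := Ideal.smul_mem_pointwise_smul σ _ P hηP
      rwa [h] at this
    rw [smul_sub, smul_mul', hσ, hση, hy'def, hσK] at h1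
    have h2 : ζ' * (a - η * y') ∈ P := P.mul_mem_left _ hηP
    have h3 : η * y' * (1 - ζ') ∈ P := by
      have := P.sub_mem h1 h2
      have e : ζ' * a - η * y' - ζ' * (a - η * y') = -(η * y' * (1 - ζ')) := by ring
      rw [← hy'def, e] at this
      exact neg_mem_iff.mp this
    rcases hPprime.mem_or_mem h3 with h4 | h4
    · rcases hPprime.mem_or_mem h4 with h5 | h5
      · -- `η` is a unit
        have : (1 : 𝓞 M) ∈ P := by
          rw [← hηpow]
          exact P.pow_mem_of_mem h5 p hp.out.pos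
        exact hPprime.ne_top ((Ideal.eq_top_iff_one P).mpr this)
      · -- `y ∈ v`, hence `ε ∈ v`
        have hyv : y ∈ v := (hunder y).mp h5
        have hεv : ε ∈ v := by
          have := v.add_mem hy (v.pow_mem_of_mem hyv p hp.out.pos)
          simpa using this
        exact hv.ne_top (Ideal.eq_top_of_isUnit_mem v hεv hε)
    · -- `1 - ζ ∈ v`, hence `p ∈ v`
      have : 1 - ζ ∈ v := by
        rw [← hunder, map_sub, map_one]
        exact h4
      exact hvp (natCast_mem_of_one_sub_zeta_mem hζ v this)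
  -- the fundamental identity
  have hfund := ncard_primesOver_mul_ramificationIdxIn_mul_inertiaDegIn v (𝓞 M) Gal(M/K)
  rw [IsGalois.card_aut_eq_finrank, hfin] at hfund
  have hσP : σ • P ∈ primesOver v (𝓞 M) := by
    rw [← Algebra.IsInvariant.orbit_eq_primesOver (𝓞 K) (𝓞 M) Gal(M/K) v P]
    exact MulAction.mem_orbit P σ
  have hPmem : P ∈ primesOver v (𝓞 M) := ⟨hPprime, hPover⟩
  have hfinite : (primesOver v (𝓞 M)).Finite := by
    by_contra hinf
    rw [Set.Infinite.ncard hinf, zero_mul] at hfund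
    exact hp.out.ne_zero hfund.symm
  have hcard2 : 1 < (primesOver v (𝓞 M)).ncard :=
    (Set.one_lt_ncard_iff hfinite).mpr ⟨σ • P, P, hσP, hPmem, hne⟩
  have hdvd : (primesOver v (𝓞 M)).ncard ∣ p := Dvd.intro _ hfund
  have hcard : (primesOver v (𝓞 M)).ncard = p := by
    rcases (Nat.dvd_prime hp.out).mp hdvd with h | h
    · omega
    · exact h
  have hef : ramificationIdxIn v (𝓞 M) * inertiaDegIn v (𝓞 M) = 1 := by
    rw [hcard] at hfund
    exact Nat.eq_of_mul_eq_mul_left hp.out.pos (by rw [hfund, mul_one])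
  have hf : inertiaDegIn v (𝓞 M) = 1 := Nat.eq_one_of_mul_eq_one_left hef
  refine ⟨hcard, ?_⟩
  rintro Q ⟨hQprime, hQover⟩
  have hQ0 : Q ≠ ⊥ := by
    intro h0
    apply hv0
    rw [hQover.over, h0]
    exact Ideal.under_bot _ _
  have hQmax : Q.IsMaximal := hQprime.isMaximal hQ0
  have h1 := absNorm_eq_pow_inertiaDeg'_of_liesOver Q v hv.isPrime hv0
  rw [inertiaDeg'_eq_inertiaDeg v Q, ← inertiaDegIn_eq_inertiaDeg v Q Gal(M/K), hf, pow_one] at h1
  exact h1

end SplitAbstract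

end Fermat.Agent.S14


end ZBZ2S14_011_0

/-! ### bundled: `Fermat.Agent.S14.SplitBoundCore` -/
section ZBZ2S14_011_1

/-!
# S14 / N4b, part 2 — the split bound from the Euler bound for the Dedekind zeta function

* `EulerBound M`: every finite partial Euler product of `ζ_M(s)` is `≤ C / (s - 1)` on `(1, 2]`.
* `exists_kummer_field`: the Kummer extension `M = K(ε^{1/p})`.
* `splitBound_of_eulerBound`: `(∀ M, EulerBound M) → SplitBoundStatement p`.
-/

set_option autoImplicit false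

open NumberField IsDedekindDomain Ideal Polynomial
open scoped Pointwise KummerExtension

namespace Fermat.Agent.S14

/-- Every finite partial Euler product of the Dedekind zeta function of `M` is bounded by
`C / (s - 1)` for `s ∈ (1, 2]`. -/
def EulerBound (M : Type) [Field M] [NumberField M] : Prop :=
  ∃ C : ℝ, ∀ s : ℝ, 1 < s → s ≤ 2 → ∀ T : Finset (Ideal (𝓞 M)), (∀ P ∈ T, P.IsPrime ∧ P ≠ ⊥) →
    ∏ P ∈ T, (1 - (Ideal.absNorm P : ℝ) ^ (-s))⁻¹ ≤ C / (s - 1)

/-- The Euler bound in terms of finsets of height one primes implies `EulerBound`. -/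
theorem eulerBound_of_heightOne (M : Type) [Field M] [NumberField M]
    (h : ∃ C : ℝ, ∀ s : ℝ, 1 < s → s ≤ 2 → ∀ T : Finset (HeightOneSpectrum (𝓞 M)),
      ∏ v ∈ T, (1 - (Ideal.absNorm v.asIdeal : ℝ) ^ (-s))⁻¹ ≤ C / (s - 1)) : EulerBound M := by
  classical
  obtain ⟨C, hC⟩ := h
  refine ⟨C, fun s hs1 hs2 T hT => ?_⟩
  let f : {P // P ∈ T} → HeightOneSpectrum (𝓞 M) := fun P =>
    ⟨P.1, (hT P.1 P.2).1, (hT P.1 P.2).2⟩
  have hf : Function.Injective f := by
    intro P Q hPQ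
    apply Subtype.ext
    exact congrArg HeightOneSpectrum.asIdeal hPQ
  have key : ∏ P ∈ T, (1 - (Ideal.absNorm P : ℝ) ^ (-s))⁻¹ =
      ∏ v ∈ T.attach.image f, (1 - (Ideal.absNorm v.asIdeal : ℝ) ^ (-s))⁻¹ := by
    rw [Finset.prod_image (fun P _ Q _ h => hf h)]
    exact (Finset.prod_attach T (fun P => (1 - (Ideal.absNorm P : ℝ) ^ (-s))⁻¹)).symm
  rw [key]
  exact hC s hs1 hs2 _

variable {p : ℕ} [hp : Fact p.Prime]

/-- The Kummer extension `K(ε^{1/p})` of a number field containing the `p`-th roots of unity. -/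
theorem exists_kummer_field (K : Type) [Field K] [NumberField K]
    (ζ : 𝓞 K) (hζ : IsPrimitiveRoot ζ p) (ε : 𝓞 K) (hnp : ¬ ∃ y : K, (ε : K) = y ^ p) :
    ∃ (M : Type) (_ : Field M) (_ : NumberField M) (_ : Algebra K M) (_ : IsGalois K M),
      Module.finrank K M = p ∧ ∃ (a : 𝓞 M) (σ : Gal(M/K)),
        a ^ p = algebraMap (𝓞 K) (𝓞 M) ε ∧ σ • a = algebraMap (𝓞 K) (𝓞 M) ζ * a := by
  have hirr : Irreducible (X ^ p - C (ε : K)) :=
    X_pow_sub_C_irreducible_of_prime hp.out (fun b hb => hnp ⟨b, hb.symm⟩)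
  have : Fact (Irreducible (X ^ p - C (ε : K))) := ⟨hirr⟩
  have hζK : IsPrimitiveRoot (ζ : K) p :=
    hζ.map_of_injective (FaithfulSMul.algebraMap_injective (𝓞 K) K)
  have hprim : (primitiveRoots p K).Nonempty :=
    ⟨(ζ : K), (mem_primitiveRoots hp.out.pos).mpr hζK⟩
  have : Module.Finite K K[p√(ε : K)] := (AdjoinRoot.powerBasis hirr.ne_zero).finite
  have : NumberField K[p√(ε : K)] := NumberField.of_module_finite K _
  have : IsSplittingField K K[p√(ε : K)] (X ^ p - C (ε : K)) :=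
    isSplittingField_AdjoinRoot_X_pow_sub_C hprim hirr
  have hgal : IsGalois K K[p√(ε : K)] := isGalois_of_isSplittingField_X_pow_sub_C hprim hirr _
  have hrank : Module.finrank K K[p√(ε : K)] = p :=
    finrank_of_isSplittingField_X_pow_sub_C hprim hirr _
  refine ⟨K[p√(ε : K)], inferInstance, inferInstance, inferInstance, hgal, hrank, ?_⟩
  -- the root, as an algebraic integer
  have hroot : (AdjoinRoot.root (X ^ p - C (ε : K))) ^ p = algebraMap K K[p√(ε : K)] (ε : K) :=
    root_X_pow_sub_C_pow p (ε : K)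
  have hint : IsIntegral ℤ (AdjoinRoot.root (X ^ p - C (ε : K))) := by
    refine IsIntegral.of_pow hp.out.pos ?_
    rw [hroot]
    exact (RingOfIntegers.isIntegral_coe ε).algebraMap
  -- the unit `ζ` as a root of unity
  have hζu : IsUnit (ζ : K) := hζK.isUnit hp.out.ne_zero
  let η : rootsOfUnity p K := ⟨hζu.unit, by
    rw [mem_rootsOfUnity]
    ext
    simp [hζK.pow_eq_one]⟩
  refine ⟨⟨_, hint⟩, autAdjoinRootXPowSubC p (ε : K) η, ?_, ?_⟩
  · apply RingOfIntegers.ext
    show (AdjoinRoot.root (X ^ p - C (ε : K))) ^ p = _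
    rw [hroot]
    rfl
  · apply RingOfIntegers.ext
    show (autAdjoinRootXPowSubC p (ε : K) η) (AdjoinRoot.root (X ^ p - C (ε : K))) = _
    rw [autAdjoinRootXPowSubC_root]
    show (ζ : K) • AdjoinRoot.root (X ^ p - C (ε : K)) = _
    rw [Algebra.smul_def]
    rfl


/-- A prime of degree one (in the sense of `IsDegOne`) does not contain `p`. -/
theorem natCast_notMem_of_isDegOne {K : Type} [Field K] [NumberField K]
    (v : HeightOneSpectrum (𝓞 K)) (hv : IsDegOne p v) : (p : 𝓞 K) ∉ v.asIdeal := by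
  intro hmem
  obtain ⟨hprime, hne⟩ := hv
  have h1 : ((Ideal.absNorm v.asIdeal : ℕ) : 𝓞 K) ∈ v.asIdeal := Ideal.absNorm_mem v.asIdeal
  have hcop : Nat.Coprime (Ideal.absNorm v.asIdeal) p :=
    (Nat.coprime_primes hprime hp.out).mpr hne
  have h2 : ((Nat.gcd (Ideal.absNorm v.asIdeal) p : ℕ) : 𝓞 K) ∈ v.asIdeal := by
    have hb := Nat.gcd_eq_gcd_ab (Ideal.absNorm v.asIdeal) p
    have : (((Nat.gcd (Ideal.absNorm v.asIdeal) p : ℕ) : ℤ) : 𝓞 K) ∈ v.asIdeal := by
      rw [hb]
      push_cast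
      exact v.asIdeal.add_mem (v.asIdeal.mul_mem_right _ h1) (v.asIdeal.mul_mem_right _ hmem)
    simpa using this
  rw [hcop, Nat.cast_one] at h2
  exact v.isPrime.ne_top ((Ideal.eq_top_iff_one _).mpr h2)

/-- `X ^ n ≤ Y` implies `X ≤ Y ^ (1 / n)` for nonnegative reals. -/
theorem le_rpow_inv_of_pow_le {X Y : ℝ} (hX : 0 ≤ X) {n : ℕ} (hn : n ≠ 0) (h : X ^ n ≤ Y) :
    X ≤ Y ^ ((n : ℝ)⁻¹) := by
  have h1 : X = (X ^ n) ^ ((n : ℝ)⁻¹) := (Real.pow_rpow_inv_natCast hX hn).symm
  rw [h1]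
  exact Real.rpow_le_rpow (pow_nonneg hX n) h (by positivity)

/-- **N4b from the Euler bound.** -/
theorem splitBound_of_eulerBound
    (hE : ∀ (M : Type) [Field M] [NumberField M], EulerBound M) : SplitBoundStatement p := by
  classical
  intro K _ _ hcyc ε hε hnp
  -- the primitive root of unity
  have : NeZero p := ⟨hp.out.ne_zero⟩
  have hζ0 := IsCyclotomicExtension.zeta_spec p ℚ K
  set ζ : 𝓞 K := hζ0.toInteger with hζdef
  have hζ : IsPrimitiveRoot ζ p := hζ0.toInteger_isPrimitiveRoot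
  obtain ⟨M, iF, iN, iA, iG, hrank, a, σ, ha, hσ⟩ := exists_kummer_field K ζ hζ ε hnp
  obtain ⟨C, hC⟩ := hE M
  refine ⟨|C| ^ ((p : ℝ)⁻¹), fun s hs1 hs2 F hF => ?_⟩
  have hs0 : 0 < s - 1 := by linarith
  -- the primes of `M` above the primes in `F`
  have hsplit : ∀ v ∈ F, (primesOver v.asIdeal (𝓞 M)).ncard = p ∧
      ∀ P ∈ primesOver v.asIdeal (𝓞 M), absNorm P = absNorm v.asIdeal := by
    intro v hv
    obtain ⟨hdeg, y, hy⟩ := hF v hv
    have : v.asIdeal.IsMaximal := v.isMaximal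
    exact primesOver_split hrank ζ hζ ε hε a ha σ hσ v.asIdeal v.ne_bot
      (natCast_notMem_of_isDegOne v hdeg) y hy
  have hfinite : ∀ v ∈ F, (primesOver v.asIdeal (𝓞 M)).Finite := by
    intro v hv
    by_contra hinf
    have := (hsplit v hv).1
    rw [Set.Infinite.ncard hinf] at this
    exact hp.out.ne_zero this.symm
  let Tv : HeightOneSpectrum (𝓞 K) → Finset (Ideal (𝓞 M)) := fun v =>
    if h : (primesOver v.asIdeal (𝓞 M)).Finite then h.toFinset else ∅
  have hTv : ∀ v ∈ F, ∀ P, P ∈ Tv v ↔ P ∈ primesOver v.asIdeal (𝓞 M) := by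
    intro v hv P
    simp only [Tv, dif_pos (hfinite v hv), Set.Finite.mem_toFinset]
  have hTvcard : ∀ v ∈ F, (Tv v).card = p := by
    intro v hv
    rw [← (hsplit v hv).1]
    simp only [Tv, dif_pos (hfinite v hv)]
    exact (Set.ncard_eq_toFinset_card _ (hfinite v hv)).symm
  have hdisj : Set.PairwiseDisjoint (↑F) Tv := by
    intro v hv v' hv' hne
    rw [Function.onFun, Finset.disjoint_left]
    intro P hP hP'
    have h1 := ((hTv v hv P).mp hP).2
    have h2 := ((hTv v' hv' P).mp hP').2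
    apply hne
    apply HeightOneSpectrum.ext
    rw [h1.over, h2.over]
  set T : Finset (Ideal (𝓞 M)) := F.biUnion Tv with hT
  have hTprime : ∀ P ∈ T, P.IsPrime ∧ P ≠ ⊥ := by
    intro P hP
    rw [hT, Finset.mem_biUnion] at hP
    obtain ⟨v, hv, hPv⟩ := hP
    obtain ⟨hPprime, hPover⟩ := (hTv v hv P).mp hPv
    refine ⟨hPprime, fun h0 => v.ne_bot ?_⟩
    rw [hPover.over, h0]
    exact Ideal.under_bot _ _
  have hbound := hC s hs1 hs2 T hTprime
  -- compute the product over `T`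
  have hprodT : ∏ P ∈ T, (1 - (Ideal.absNorm P : ℝ) ^ (-s))⁻¹ =
      (∏ v ∈ F, (1 - (Ideal.absNorm v.asIdeal : ℝ) ^ (-s))⁻¹) ^ p := by
    rw [hT, Finset.prod_biUnion hdisj, ← Finset.prod_pow]
    refine Finset.prod_congr rfl fun v hv => ?_
    rw [← hTvcard v hv, ← Finset.prod_const]
    refine Finset.prod_congr rfl fun P hP => ?_
    rw [(hsplit v hv).2 P ((hTv v hv P).mp hP)]
  rw [hprodT] at hbound
  -- positivity of the factors
  have hfac : ∀ v ∈ F, 0 ≤ (1 - (Ideal.absNorm v.asIdeal : ℝ) ^ (-s))⁻¹ := by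
    intro v hv
    obtain ⟨⟨hprime, -⟩, -⟩ := hF v hv
    have h1 : (1 : ℝ) < (Ideal.absNorm v.asIdeal : ℝ) := by exact_mod_cast hprime.one_lt
    have h2 : (Ideal.absNorm v.asIdeal : ℝ) ^ (-s) < 1 :=
      Real.rpow_lt_one_of_one_lt_of_neg h1 (by linarith)
    exact inv_nonneg.mpr (by linarith)
  have hX : 0 ≤ ∏ v ∈ F, (1 - (Ideal.absNorm v.asIdeal : ℝ) ^ (-s))⁻¹ :=
    Finset.prod_nonneg hfac
  have hbound' : (∏ v ∈ F, (1 - (Ideal.absNorm v.asIdeal : ℝ) ^ (-s))⁻¹) ^ p ≤ |C| / (s - 1) :=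
    hbound.trans (div_le_div_of_nonneg_right (le_abs_self C) hs0.le)
  have hfinal := le_rpow_inv_of_pow_le hX hp.out.ne_zero hbound'
  refine hfinal.trans (le_of_eq ?_)
  rw [Real.div_rpow (abs_nonneg C) hs0.le, div_eq_mul_inv, ← Real.rpow_neg hs0.le]
  congr 2
  rw [neg_div, one_div]

end Fermat.Agent.S14


end ZBZ2S14_011_1

/-! ### bundled: `Fermat.Agent.S14.SplitBound` -/
section ZBZ2S14_011_2

/-!
# S14, piece N4b (final): the split bound statement

`splitBoundStatement : SplitBoundStatement p`, obtained from `splitBound_of_eulerBound`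
(`SplitBoundCore.lean`), the bound of finite Euler products by the zeta sum
(`prod_one_sub_inv_le_zeta`, `Euler.lean`) and the bound `ζ_M(s) ≤ C / (s - 1)` on `(1, 2]`
(`exists_zeta_le_of`, `EulerAux.lean`).
-/

set_option autoImplicit false

open NumberField IsDedekindDomain

namespace Fermat.Agent.S14

/-- Every number field satisfies the Euler bound. -/
theorem eulerBound_numberField (M : Type) [Field M] [NumberField M] : EulerBound M := by
  refine eulerBound_of_heightOne M ?_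
  obtain ⟨C, -, hC⟩ := exists_zeta_le_of M (fun s hs => summable_absNorm_rpow M hs)
    (fun s hs => tsum_absNorm_rpow_eq_dedekindZeta M hs)
  exact ⟨C, fun s hs1 hs2 T => (prod_one_sub_inv_le_zeta M hs1 T).trans (hC s hs1 hs2)⟩

/-- **N4b**: the split bound statement. -/
theorem splitBoundStatement {p : ℕ} [Fact p.Prime] : SplitBoundStatement p :=
  splitBound_of_eulerBound (fun M _ _ => eulerBound_numberField M)

end Fermat.Agent.S14


end ZBZ2S14_011_2
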