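/- GENERATED FILE (helper35, build-time optimisation, NOTES/ZB.md): verbatim concatenation of the modules
   Fermat.Agent.S14.UnitsDimGal
   Do not edit; do not import together with these modules. -/
import Mathlib

/-! ### bundled: `Fermat.Agent.S14.UnitsDimGal` -/
section ZBZ2S14_014_0

/-!
# S14, piece N6a-T: the Galois action on the units modulo torsion and its trace

`udGalM σ` is the `ℤ`-linear action of `σ` on `Λ = Additive ((𝓞 K)ˣ ⧸ torsion K)`; through the
logarithmic embedding it is given by the explicit matrix `udMat σ`, whose trace is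
`rank K` if `σ` fixes every infinite place and `-1` if it fixes none.
-/

set_option autoImplicit false
set_option maxSynthPendingDepth 3

namespace Fermat.Agent.S14

open NumberField NumberField.Units NumberField.InfinitePlace
open NumberField.Units.dirichletUnitTheorem

/-- Transfer of traces from a `ℤ`-lattice to the ambient real vector space. -/
lemma unitsDim_trace_transfer {ι M V : Type*} [Fintype ι] [DecidableEq ι]
    [AddCommGroup M] [AddCommGroup V] [Module ℝ V]
    (b : Module.Basis ι ℤ M) (B : Module.Basis ι ℝ V) (φ : M →+ V) (hφ : ∀ i, φ (b i) = B i)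
    (f : M →ₗ[ℤ] M) (L : V →ₗ[ℝ] V) (h : ∀ m, φ (f m) = L (φ m)) :
    ((LinearMap.trace ℤ M f : ℤ) : ℝ) = LinearMap.trace ℝ V L := by
  have key : ∀ (m : M) (i : ι), B.repr (φ m) i = ((b.repr m i : ℤ) : ℝ) := by
    intro m i
    have h1 : φ m = ∑ k, ((b.repr m k : ℤ) : ℝ) • B k := by
      conv_lhs => rw [← b.sum_repr m]
      rw [map_sum]
      refine Finset.sum_congr rfl fun k _ => ?_
      rw [map_zsmul, hφ, Int.cast_smul_eq_zsmul]
    rw [h1, B.repr_sum_self]
  rw [LinearMap.trace_eq_matrix_trace ℤ b, LinearMap.trace_eq_matrix_trace ℝ B]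
  simp only [Matrix.trace, Matrix.diag]
  push_cast
  refine Finset.sum_congr rfl fun i _ => ?_
  rw [LinearMap.toMatrix_apply, LinearMap.toMatrix_apply, ← hφ i, ← h, key]


variable {K : Type} [Field K] [NumberField K]

/-- Galois action on the units of the ring of integers. -/
noncomputable def udGalUnits (σ : K ≃ₐ[ℚ] K) : (𝓞 K)ˣ →* (𝓞 K)ˣ :=
  Units.map ((RingOfIntegers.mapRingEquiv σ.toRingEquiv : 𝓞 K ≃+* 𝓞 K) : 𝓞 K →* 𝓞 K)

@[simp] lemma udGalUnits_coe (σ : K ≃ₐ[ℚ] K) (u : (𝓞 K)ˣ) :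
    ((udGalUnits σ u : 𝓞 K) : K) = σ ((u : 𝓞 K) : K) := rfl

lemma udGalUnits_mul (σ τ : K ≃ₐ[ℚ] K) (u : (𝓞 K)ˣ) :
    udGalUnits (σ * τ) u = udGalUnits σ (udGalUnits τ u) := by
  ext; rfl

lemma udGalUnits_one (u : (𝓞 K)ˣ) : udGalUnits (1 : K ≃ₐ[ℚ] K) u = u := by
  ext; rfl

lemma udGalUnits_torsion (σ : K ≃ₐ[ℚ] K) :
    torsion K ≤ (torsion K).comap (udGalUnits σ) := by
  intro u hu
  rw [Subgroup.mem_comap]
  exact (CommGroup.mem_torsion _).mpr (MonoidHom.isOfFinOrder _ ((CommGroup.mem_torsion _).mp hu))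

/-- The `ℤ`-linear action of the Galois group on the units modulo torsion. -/
noncomputable def udGalM (σ : K ≃ₐ[ℚ] K) :
    Additive ((𝓞 K)ˣ ⧸ torsion K) →ₗ[ℤ] Additive ((𝓞 K)ˣ ⧸ torsion K) :=
  (MonoidHom.toAdditive (QuotientGroup.map (torsion K) (torsion K) (udGalUnits σ)
    (udGalUnits_torsion σ))).toIntLinearMap

@[simp] lemma udGalM_mk (σ : K ≃ₐ[ℚ] K) (u : (𝓞 K)ˣ) :
    udGalM σ (Additive.ofMul (QuotientGroup.mk u : (𝓞 K)ˣ ⧸ torsion K)) =
      Additive.ofMul (QuotientGroup.mk (udGalUnits σ u) : (𝓞 K)ˣ ⧸ torsion K) := rfl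

lemma udGalM_mul (σ τ : K ≃ₐ[ℚ] K) : udGalM (σ * τ) = udGalM σ ∘ₗ udGalM τ := by
  ext x
  induction x using Additive.rec with | _ x =>
  induction x using QuotientGroup.induction_on with | _ u =>
  simp [udGalUnits_mul]

lemma udGalM_one : udGalM (1 : K ≃ₐ[ℚ] K) = LinearMap.id := by
  ext x
  induction x using Additive.rec with | _ x =>
  induction x using QuotientGroup.induction_on with | _ u =>
  simp [udGalUnits_one]

open scoped Classical in
/-- The matrix of the Galois action on the log space. -/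
noncomputable def udMat (σ : K ≃ₐ[ℚ] K) :
    Matrix {w : InfinitePlace K // w ≠ w₀} {w : InfinitePlace K // w ≠ w₀} ℝ :=
  Matrix.of fun w w' =>
    if σ⁻¹ • w.1 = w₀ then (-1 : ℝ) else if σ⁻¹ • w.1 = w'.1 then 1 else 0

lemma ud_mult_smul (σ : K ≃ₐ[ℚ] K) (w : InfinitePlace K) : mult (σ • w) = mult w := by
  unfold mult
  by_cases h : w.IsReal
  · rw [if_pos h, if_pos (isReal_smul_iff.mpr h)]
  · rw [if_neg h, if_neg (fun h' => h (isReal_smul_iff.mp h'))]

open scoped Classical in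
lemma udMat_mulVec_logEmbedding (σ : K ≃ₐ[ℚ] K) (u : (𝓞 K)ˣ) :
    (udMat σ).mulVec (logEmbedding K (Additive.ofMul u)) =
      logEmbedding K (Additive.ofMul (udGalUnits σ u)) := by
  funext w
  have key : (w.1 : InfinitePlace K) (σ ((u : 𝓞 K) : K)) = (σ⁻¹ • w.1) ((u : 𝓞 K) : K) := by
    rw [InfinitePlace.smul_apply]; rfl
  rw [logEmbedding_component]
  change _ = (mult w.1 : ℝ) * Real.log (w.1 (σ ((u : 𝓞 K) : K)))
  rw [key, ← ud_mult_smul σ⁻¹ w.1]
  by_cases h : σ⁻¹ • w.1 = w₀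
  · have h1 : ∀ w' : {w : InfinitePlace K // w ≠ w₀}, udMat σ w w' = -1 := by
      intro w'; simp [udMat, h]
    simp only [Matrix.mulVec, dotProduct, h1, neg_one_mul, Finset.sum_neg_distrib]
    rw [sum_logEmbedding_component, h]
    ring
  · have h1 : ∀ w' : {w : InfinitePlace K // w ≠ w₀},
        udMat σ w w' = if (⟨σ⁻¹ • w.1, h⟩ : {w : InfinitePlace K // w ≠ w₀}) = w' then 1 else 0 := by
      intro w'
      simp only [udMat, Matrix.of_apply, h, if_false]
      congr 1
      rw [Subtype.ext_iff]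
    simp only [Matrix.mulVec, dotProduct, h1, ite_mul, one_mul, zero_mul, Finset.sum_ite_eq,
      Finset.mem_univ, if_true]
    rw [logEmbedding_component]

open scoped Classical in
lemma udGalM_trace_cast (σ : K ≃ₐ[ℚ] K) :
    ((LinearMap.trace ℤ (Additive ((𝓞 K)ˣ ⧸ torsion K)) (udGalM σ) : ℤ) : ℝ) =
      Matrix.trace (udMat σ) := by
  classical
  rw [← Matrix.trace_toLin'_eq (udMat σ)]
  refine unitsDim_trace_transfer (basisModTorsion K)
    ((basisUnitLattice K).ofZLatticeBasis ℝ (unitLattice K)) (logEmbeddingQuot K) ?_ _ _ ?_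
  · intro i
    rw [Module.Basis.ofZLatticeBasis_apply, ← logEmbedding_fundSystem, ← fundSystem_mk,
      logEmbeddingQuot_apply]
  · intro m
    induction m using Additive.rec with | _ x =>
    induction x using QuotientGroup.induction_on with | _ u =>
    rw [udGalM_mk, logEmbeddingQuot_apply, logEmbeddingQuot_apply, Matrix.toLin'_apply,
      udMat_mulVec_logEmbedding]

open scoped Classical in
lemma udMat_trace_of_fix (σ : K ≃ₐ[ℚ] K) (h : ∀ w : InfinitePlace K, σ • w = w) :
    Matrix.trace (udMat σ) = (rank K : ℝ) := by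
  classical
  have h1 : ∀ w : {w : InfinitePlace K // w ≠ w₀}, udMat σ w w = 1 := by
    intro w
    have hw : σ⁻¹ • w.1 = w.1 := by rw [inv_smul_eq_iff, h]
    simp only [udMat, Matrix.of_apply, hw, if_neg w.2, if_true]
  simp only [Matrix.trace, Matrix.diag, h1, Finset.sum_const, Finset.card_univ, nsmul_eq_mul,
    mul_one]
  rw [Fintype.card_subtype_compl, Fintype.card_subtype_eq, rank]

open scoped Classical in
lemma udMat_trace_of_not_fix (σ : K ≃ₐ[ℚ] K) (h : ∀ w : InfinitePlace K, σ • w ≠ w) :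
    Matrix.trace (udMat σ) = -1 := by
  classical
  have hne : σ • (w₀ : InfinitePlace K) ≠ w₀ := h _
  have h1 : ∀ w : {w : InfinitePlace K // w ≠ w₀},
      udMat σ w w = if (⟨σ • w₀, hne⟩ : {w : InfinitePlace K // w ≠ w₀}) = w then -1 else 0 := by
    intro w
    have hw : σ⁻¹ • w.1 ≠ w.1 := by
      rw [Ne, inv_smul_eq_iff]
      exact fun h' => h _ h'.symm
    simp only [udMat, Matrix.of_apply, if_neg hw]
    congr 1
    rw [Subtype.ext_iff, inv_smul_eq_iff]
    exact propext ⟨fun h' => h'.symm, fun h' => h'.symm⟩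
  simp only [Matrix.trace, Matrix.diag, h1, Finset.sum_ite_eq, Finset.mem_univ, if_true]

lemma udGalM_trace_of_fix (σ : K ≃ₐ[ℚ] K) (h : ∀ w : InfinitePlace K, σ • w = w) :
    LinearMap.trace ℤ (Additive ((𝓞 K)ˣ ⧸ torsion K)) (udGalM σ) = (rank K : ℤ) := by
  have := udGalM_trace_cast σ
  rw [udMat_trace_of_fix σ h] at this
  exact_mod_cast this

lemma udGalM_trace_of_not_fix (σ : K ≃ₐ[ℚ] K) (h : ∀ w : InfinitePlace K, σ • w ≠ w) :
    LinearMap.trace ℤ (Additive ((𝓞 K)ˣ ⧸ torsion K)) (udGalM σ) = -1 := by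
  have := udGalM_trace_cast σ
  rw [udMat_trace_of_not_fix σ h] at this
  exact_mod_cast this

end Fermat.Agent.S14


end ZBZ2S14_014_0
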