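/- GENERATED FILE (helper35, build-time optimisation, NOTES/ZB.md): verbatim concatenation of the modules
   Fermat.Agent.S14.UnitsCharSum
   Do not edit; do not import together with these modules. -/
import Mathlib

/-! ### bundled: `Fermat.Agent.S14.UnitsCharSum` -/
section ZBZ2S14_015_0

/-!
# S14, piece N6a, C-sum: `∑_σ ω(σ)⁻² = 0` and `#Gal(ℚ(ζ_p)/ℚ) = p - 1`
-/

set_option autoImplicit false

open NumberField

namespace Fermat.Agent.S14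

/-- `#Gal(ℚ(ζ_p)/ℚ) = p - 1`. -/
theorem unitsDim_card_gal {p : ℕ} [Fact p.Prime] (K : Type) [Field K] [NumberField K]
    [IsCyclotomicExtension {p} ℚ K] : Fintype.card (K ≃ₐ[ℚ] K) = p - 1 := by
  have hp : p.Prime := Fact.out
  haveI : NeZero p := ⟨hp.ne_zero⟩
  haveI : IsGalois ℚ K := IsCyclotomicExtension.isGalois {p} ℚ K
  rw [← Nat.card_eq_fintype_card, IsGalois.card_aut_eq_finrank,
    IsCyclotomicExtension.finrank K (Polynomial.cyclotomic.irreducible_rat hp.pos),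
    Nat.totient_prime hp]

/-- The sum of `d ^ 2` over the units of `ZMod p` vanishes for `p ≥ 5`. -/
lemma unitsDim_sum_units_sq {p : ℕ} [Fact p.Prime] (h5 : 5 ≤ p) :
    ∑ d : (ZMod p)ˣ, ((d : ZMod p)) ^ 2 = 0 := by
  have hp : p.Prime := Fact.out
  -- the unit `2`
  have h2 : ((2 : ℕ) : ZMod p) ≠ 0 := by
    rw [Ne, ZMod.natCast_eq_zero_iff]
    intro h
    have := Nat.le_of_dvd (by norm_num) h
    omega
  let c : (ZMod p)ˣ := Units.mk0 ((2 : ℕ) : ZMod p) h2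
  have hc : (c : ZMod p) = 2 := by simp [c]
  have h3 : ((3 : ℕ) : ZMod p) ≠ 0 := by
    rw [Ne, ZMod.natCast_eq_zero_iff]
    intro h
    have := Nat.le_of_dvd (by norm_num) h
    omega
  have hre : ∑ d : (ZMod p)ˣ, (((c * d : (ZMod p)ˣ) : ZMod p)) ^ 2 =
      ∑ d : (ZMod p)ˣ, ((d : ZMod p)) ^ 2 :=
    Fintype.sum_equiv (Equiv.mulLeft c) _ _ (fun d => rfl)
  have hmul : ∑ d : (ZMod p)ˣ, (((c * d : (ZMod p)ˣ) : ZMod p)) ^ 2 =
      4 * ∑ d : (ZMod p)ˣ, ((d : ZMod p)) ^ 2 := by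
    rw [Finset.mul_sum]
    refine Finset.sum_congr rfl (fun d _ => ?_)
    rw [Units.val_mul, hc]; ring
  have h4 : (3 : ZMod p) * ∑ d : (ZMod p)ˣ, ((d : ZMod p)) ^ 2 = 0 := by
    have := hmul.symm.trans hre
    linear_combination this
  have h3' : (3 : ZMod p) ≠ 0 := by exact_mod_cast h3
  exact (mul_eq_zero.mp h4).resolve_left h3'

/-- `∑_σ ω(σ)⁻² = 0` for `p ≥ 5`. -/
theorem unitsDim_charSum {p : ℕ} [Fact p.Prime] (h5 : 5 ≤ p) (K : Type) [Field K] [NumberField K]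
    [IsCyclotomicExtension {p} ℚ K] (ζ : K) (hζ : IsPrimitiveRoot ζ p) :
    ∑ σ : K ≃ₐ[ℚ] K, ((((hζ.autToPow ℚ σ)⁻¹ : (ZMod p)ˣ) : ZMod p)) ^ 2 = 0 := by
  have hp : p.Prime := Fact.out
  haveI : NeZero p := ⟨hp.ne_zero⟩
  have hinj : Function.Injective (hζ.autToPow ℚ) := hζ.autToPow_injective ℚ
  have hcard : Fintype.card (K ≃ₐ[ℚ] K) = Fintype.card (ZMod p)ˣ := by
    rw [unitsDim_card_gal (p := p) K, ZMod.card_units_eq_totient, Nat.totient_prime hp]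
  have hbij : Function.Bijective (hζ.autToPow ℚ) :=
    (Fintype.bijective_iff_injective_and_card _).mpr ⟨hinj, hcard⟩
  let e : (K ≃ₐ[ℚ] K) ≃ (ZMod p)ˣ := Equiv.ofBijective _ hbij
  have h1 : ∑ σ : K ≃ₐ[ℚ] K, ((((hζ.autToPow ℚ σ)⁻¹ : (ZMod p)ˣ) : ZMod p)) ^ 2 =
      ∑ d : (ZMod p)ˣ, (((d⁻¹ : (ZMod p)ˣ) : ZMod p)) ^ 2 :=
    Fintype.sum_equiv e _ _ (fun σ => rfl)
  have h2 : ∑ d : (ZMod p)ˣ, (((d⁻¹ : (ZMod p)ˣ) : ZMod p)) ^ 2 =
      ∑ d : (ZMod p)ˣ, ((d : ZMod p)) ^ 2 :=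
    Fintype.sum_equiv (Equiv.inv (ZMod p)ˣ) _ _ (fun d => rfl)
  rw [h1, h2, unitsDim_sum_units_sq h5]

end Fermat.Agent.S14


end ZBZ2S14_015_0
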