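/- GENERATED FILE (helper35, build-time optimisation, NOTES/ZB.md): verbatim concatenation of the modules
   Fermat.Agent.S14.ThainePlan
   Fermat.Agent.S14.ThaineRel
   Fermat.Agent.S14.ThaineProjAux
   Fermat.Agent.S14.ThaineProj
   Do not edit; do not import together with these modules. -/
import Mathlib
import Fermat.Agent.ZB.S14_001

/-! ### bundled: `Fermat.Agent.S14.ThainePlan` -/
section ZBZ2S14_020_0

/-!
# S14, piece N2 (Thaine's relation): sub-interface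

`K = ℚ(ζ_p)`, `ℓ ≠ p` a prime, `F = K(ζ_ℓ)`: ANY number field `F` with `[Algebra K F]` and
`[IsCyclotomicExtension {ℓ} K F]` (do NOT specialise to `CyclotomicField ℓ K` inside the pieces:
its `𝓞 K`-algebra instances form a diamond; the user instantiates `F` at the very end).

* N2g `ThaineGalStatement p`  : `Gal(F/K)` is cyclic of order `ℓ - 1`, generator `τ`, `τ ζ_ℓ = ζ_ℓ ^ s`.
* N2r `ThaineRamStatement p`  : ramification of `F/K` (in terms of `intValuation`).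
* N2n `ThaineNormStatement p` : `N_{F/K}(1 + ζ ζ_ℓ) = 1` (`ℓ ≡ 1 mod p`; TRUE ONLY FOR `p` ODD).
* N2b `ThaineRelStatement p`  : Thaine's element `b ∈ 𝓞 K` (norm of a Hilbert-90 solution).
* N2c `ThaineRelStatement p → ThaineStatement p` : projection to the `ω²`-part of `Cl/p`.

The theorems (each in its own file, namespace `Fermat.Agent.S14`):
* `thaineGalStatement  [Fact p.Prime] : ThaineGalStatement p`                      (ThaineGal.lean)
* `thaineRamStatement  [Fact p.Prime] : ThaineRamStatement p`                      (ThaineRam.lean)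
* `thaineNormStatement [Fact p.Prime] (h3 : 3 ≤ p) : ThaineNormStatement p`        (ThaineNorm.lean)
* `thaineRelStatement  [Fact p.Prime] (h3 : 3 ≤ p) : ThaineGalStatement p → ThaineRamStatement p →
     ThaineNormStatement p → ThaineRelStatement p`                                 (ThaineRel.lean)
* `thaineStatement_of_rel [Fact p.Prime] (h3 : 3 ≤ p) : ThaineRelStatement p → ThaineStatement p`
                                                                                   (ThaineProj.lean)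
This file only contains definitions (statements as `Prop`s).
-/

set_option autoImplicit false

open NumberField IsDedekindDomain

namespace Fermat.Agent.S14

/-- **N2g**: there are a generator `τ` of `Gal(F/K)` and `s : ℕ` with `τ ζ_ℓ = ζ_ℓ ^ s` for every
primitive `ℓ`-th root of unity of `F`, and `[F:K] = ℓ - 1`. -/
def ThaineGalStatement (p : ℕ) : Prop :=
  ∀ (K : Type) [Field K] [NumberField K] [IsCyclotomicExtension {p} ℚ K]
    (ℓ : ℕ), ℓ.Prime → ℓ ≠ p →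
    ∀ (F : Type) [Field F] [NumberField F] [Algebra K F] [IsCyclotomicExtension {ℓ} K F],
    Module.finrank K F = ℓ - 1 ∧
    ∃ (τ : F ≃ₐ[K] F) (s : ℕ), (∀ g : F ≃ₐ[K] F, g ∈ Subgroup.zpowers τ) ∧
      (∀ ζℓ : F, IsPrimitiveRoot ζℓ ℓ → τ ζℓ = ζℓ ^ s)

/-- **N2r** (ramification in `F = K(ζ_ℓ)` over `K = ℚ(ζ_p)`, `ℓ ≠ p` prime).
For a prime `w` of `F` over the prime `u` of `K`:
* if `ℓ ∉ u`: `e(w|u) = 1`, in the form `ord_w(x) = ord_u(x)` for `x ∈ 𝓞 K`;
* if `ℓ ∈ u`: `e(w|u) = ℓ - 1`, `ord_w(1 - ζ_ℓ) = 1`, and `Gal(F/K)` acts trivially on `𝓞 F / w`. -/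
def ThaineRamStatement (p : ℕ) : Prop :=
  ∀ (K : Type) [Field K] [NumberField K] [IsCyclotomicExtension {p} ℚ K]
    (ℓ : ℕ), ℓ.Prime → ℓ ≠ p →
    ∀ (F : Type) [Field F] [NumberField F] [Algebra K F] [IsCyclotomicExtension {ℓ} K F]
      (w : HeightOneSpectrum (𝓞 F)) (u : HeightOneSpectrum (𝓞 K)),
        w.asIdeal.comap (algebraMap (𝓞 K) (𝓞 F)) = u.asIdeal →
        ((ℓ : 𝓞 K) ∉ u.asIdeal →
          ∀ x : 𝓞 K, w.intValuation (algebraMap (𝓞 K) (𝓞 F) x) = u.intValuation x) ∧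
        ((ℓ : 𝓞 K) ∈ u.asIdeal →
          (∀ x : 𝓞 K, w.intValuation (algebraMap (𝓞 K) (𝓞 F) x) = u.intValuation x ^ (ℓ - 1)) ∧
          (∀ ζℓ : 𝓞 F, IsPrimitiveRoot ζℓ ℓ → w.intValuation (1 - ζℓ) = WithZero.exp (-1 : ℤ)) ∧
          (∀ (g : F ≃ₐ[K] F) (x : 𝓞 F),
            galRestrict (𝓞 K) K F (𝓞 F) g x - x ∈ w.asIdeal))

/-- **N2n** (norm of Thaine's unit): `N_{F/K}(1 + ζ_p ζ_ℓ) = 1` when `ℓ ≡ 1 mod p`.
(False for `p = 2`; to be proved for odd primes `p`.) -/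
def ThaineNormStatement (p : ℕ) : Prop :=
  ∀ (K : Type) [Field K] [NumberField K] [IsCyclotomicExtension {p} ℚ K]
    (ℓ : ℕ), ℓ.Prime → ℓ ≠ p → ℓ % p = 1 →
    ∀ (F : Type) [Field F] [NumberField F] [Algebra K F] [IsCyclotomicExtension {ℓ} K F]
      (ζ : K) (ζℓ : F), IsPrimitiveRoot ζ p → IsPrimitiveRoot ζℓ ℓ →
      Algebra.norm K (1 + algebraMap K F ζ * ζℓ) = 1

/-- **N2b** (Thaine's relation, element form): for a prime `ℓ ≡ 1 mod p` there are `b ∈ 𝓞 K`,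
`b ≠ 0` and `s : ℕ` such that `p ∣ ord_u(b)` for every prime `u ∤ ℓ` and
`1 + ζ ≡ s ^ ord_u(b) mod u` for every prime `u ∣ ℓ`. -/
def ThaineRelStatement (p : ℕ) : Prop :=
  ∀ (K : Type) [Field K] [NumberField K] [IsCyclotomicExtension {p} ℚ K]
    (ζ : 𝓞 K), IsPrimitiveRoot ζ p →
    ∀ ℓ : ℕ, ℓ.Prime → ℓ ≠ p → ℓ % p = 1 →
    ∃ (b : 𝓞 K) (s : ℕ), b ≠ 0 ∧
      ∀ u : HeightOneSpectrum (𝓞 K),
        ((ℓ : 𝓞 K) ∉ u.asIdeal →
          ∃ n : ℕ, u.intValuation b = WithZero.exp (-((p * n : ℕ) : ℤ))) ∧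
        ((ℓ : 𝓞 K) ∈ u.asIdeal →
          ∃ n : ℕ, u.intValuation b = WithZero.exp (-(n : ℤ)) ∧
            (1 + ζ) - (s : 𝓞 K) ^ n ∈ u.asIdeal)

end Fermat.Agent.S14


end ZBZ2S14_020_0

/-! ### bundled: `Fermat.Agent.S14.ThaineRel` -/
section ZBZ2S14_020_1

/-!
# S14, piece N2b: Thaine's relation (element form)

`thaineRelStatement : ThaineGalStatement p → ThaineRamStatement p → ThaineNormStatement p →
  ThaineRelStatement p`.

`ξ = 1 + ζ ζ_ℓ` has norm one from `F = K(ζ_ℓ)` to `K`; Hilbert 90 gives `β ∈ 𝓞 F`, `β ≠ 0`,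
`ξ τ(β) = β`; `b := N_{F/K}(β)`.  All conjugates of `β` are associated to `β`, so
`ord_w(b) = (ℓ - 1) ord_w(β)` for every prime `w` of `F`; at the totally ramified primes
`ξ s^n ≡ 1 mod w`, `n = ord_w(β)`, where `τ ζ_ℓ = ζ_ℓ ^ s`.
-/

set_option autoImplicit false
set_option linter.unusedSectionVars false
set_option linter.style.haveILetI false
set_option linter.unusedVariables false

open NumberField IsDedekindDomain

namespace Fermat.Agent.S14

section ThaineRel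
variable {K F : Type} [Field K] [NumberField K] [Field F] [NumberField F] [Algebra K F]


/-- All Galois conjugates of a Hilbert-90 solution `β` are associated to `β`. -/
lemma thRel_assoc_conj {τ : F ≃ₐ[K] F}
    (hτ : ∀ g : F ≃ₐ[K] F, g ∈ Subgroup.zpowers τ) {β ξ : 𝓞 F} (hξ : IsUnit ξ)
    (h : ξ * galRestrict (𝓞 K) K F (𝓞 F) τ β = β) (g : F ≃ₐ[K] F) :
    Associated (galRestrict (𝓞 K) K F (𝓞 F) g β) β := by
  let H : Subgroup (F ≃ₐ[K] F) :=
    { carrier := {g | Associated (galRestrict (𝓞 K) K F (𝓞 F) g β) β}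
      one_mem' := by
        show Associated (galRestrict (𝓞 K) K F (𝓞 F) 1 β) β
        rw [map_one]; exact Associated.refl _
      mul_mem' := by
        intro a b ha hb
        show Associated (galRestrict (𝓞 K) K F (𝓞 F) (a * b) β) β
        rw [map_mul]
        have hb' : Associated (galRestrict (𝓞 K) K F (𝓞 F) a (galRestrict (𝓞 K) K F (𝓞 F) b β))
            (galRestrict (𝓞 K) K F (𝓞 F) a β) :=
          Associated.map (galRestrict (𝓞 K) K F (𝓞 F) a : 𝓞 F →* 𝓞 F) hb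
        exact hb'.trans ha
      inv_mem' := by
        intro a ha
        show Associated (galRestrict (𝓞 K) K F (𝓞 F) a⁻¹ β) β
        have h1 : Associated (galRestrict (𝓞 K) K F (𝓞 F) a⁻¹ (galRestrict (𝓞 K) K F (𝓞 F) a β))
            (galRestrict (𝓞 K) K F (𝓞 F) a⁻¹ β) :=
          Associated.map (galRestrict (𝓞 K) K F (𝓞 F) a⁻¹ : 𝓞 F →* 𝓞 F) ha
        have h2 : galRestrict (𝓞 K) K F (𝓞 F) a⁻¹ (galRestrict (𝓞 K) K F (𝓞 F) a β) = β := by
          rw [map_inv]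
          exact (galRestrict (𝓞 K) K F (𝓞 F) a).symm_apply_apply β
        rw [h2] at h1
        exact h1.symm }
  have hτH : τ ∈ H := by
    show Associated (galRestrict (𝓞 K) K F (𝓞 F) τ β) β
    exact ⟨hξ.unit, by rw [IsUnit.unit_spec, mul_comm]; exact h⟩
  have : Subgroup.zpowers τ ≤ H := by
    rw [Subgroup.zpowers_le]; exact hτH
  exact this (hτ g)


lemma thRel_intVal_unit {R : Type} [CommRing R] [IsDedekindDomain R] (w : HeightOneSpectrum R)
    {c : R} (hc : IsUnit c) : w.intValuation c = 1 := by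
  rw [HeightOneSpectrum.intValuation_eq_one_iff_mem_primeCompl]
  intro hmem
  exact w.isPrime.ne_top (Ideal.eq_top_of_isUnit_mem _ hmem hc)

lemma thRel_intVal_assoc {R : Type} [CommRing R] [IsDedekindDomain R] (w : HeightOneSpectrum R)
    {a b : R} (h : Associated a b) : w.intValuation a = w.intValuation b := by
  obtain ⟨c, rfl⟩ := h
  rw [map_mul, thRel_intVal_unit w c.isUnit, mul_one]

lemma thRel_exists_b [IsGalois K F] (β : 𝓞 F) :
    ∃ b : 𝓞 K, algebraMap (𝓞 K) (𝓞 F) b =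
      ∏ σ : F ≃ₐ[K] F, galRestrict (𝓞 K) K F (𝓞 F) σ β :=
  ⟨_, (prod_galRestrict_eq_norm (𝓞 K) K F (𝓞 F) β).symm⟩

lemma thRel_val_b [IsGalois K F] {β : 𝓞 F}
    (hassoc : ∀ g : F ≃ₐ[K] F, Associated (galRestrict (𝓞 K) K F (𝓞 F) g β) β)
    {b : 𝓞 K} (hb : algebraMap (𝓞 K) (𝓞 F) b =
      ∏ σ : F ≃ₐ[K] F, galRestrict (𝓞 K) K F (𝓞 F) σ β)
    (w : HeightOneSpectrum (𝓞 F)) :
    w.intValuation (algebraMap (𝓞 K) (𝓞 F) b) = w.intValuation β ^ Module.finrank K F := by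
  rw [hb, map_prod, Finset.prod_congr rfl (fun g _ => thRel_intVal_assoc w (hassoc g)),
    Finset.prod_const, Finset.card_univ, ← Nat.card_eq_fintype_card,
    IsGalois.card_aut_eq_finrank]


lemma thRel_exists_above (u : HeightOneSpectrum (𝓞 K)) :
    ∃ w : HeightOneSpectrum (𝓞 F), w.asIdeal.comap (algebraMap (𝓞 K) (𝓞 F)) = u.asIdeal := by
  haveI := u.isMaximal
  have hinj : Function.Injective (algebraMap (𝓞 K) (𝓞 F)) :=
    FaithfulSMul.algebraMap_injective (𝓞 K) (𝓞 F)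
  obtain ⟨Q, hQ, hQu⟩ := Ideal.exists_ideal_over_maximal_of_isIntegral (S := 𝓞 F) u.asIdeal
    (by rw [(RingHom.injective_iff_ker_eq_bot _).mp hinj]; exact bot_le)
  refine ⟨⟨Q, hQ.isPrime, ?_⟩, hQu⟩
  rintro rfl
  apply u.ne_bot
  rw [← hQu]
  exact (RingHom.injective_iff_ker_eq_bot _).mp hinj

/-- `v(x) = exp(-m)` for some natural `m`, `x ≠ 0`. -/
lemma thRel_intVal_eq_exp {R : Type} [CommRing R] [IsDedekindDomain R] (w : HeightOneSpectrum R)
    {x : R} (hx : x ≠ 0) : ∃ m : ℕ, w.intValuation x = WithZero.exp (-(m : ℤ)) :=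
  ⟨_, w.intValuation_eq_exp_neg_multiplicity hx⟩

lemma thRel_exp_pow (m n : ℕ) :
    (WithZero.exp (-(m : ℤ)) : WithZero (Multiplicative ℤ)) ^ n = WithZero.exp (-((n * m : ℕ) : ℤ)) := by
  rw [← WithZero.exp_nsmul]
  congr 1
  push_cast
  simp [mul_comm]


/-- The key congruence `ξ * s ^ n ≡ 1 mod w` at a totally ramified prime `w`. -/
lemma thRel_congr {τ : F ≃ₐ[K] F} {s : ℕ} {ζℓ β ξ : 𝓞 F} (w : HeightOneSpectrum (𝓞 F))
    (hζτ : galRestrict (𝓞 K) K F (𝓞 F) τ ζℓ = ζℓ ^ s)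
    (hπ : w.intValuation (1 - ζℓ) = WithZero.exp (-1 : ℤ))
    (htriv : ∀ x : 𝓞 F, galRestrict (𝓞 K) K F (𝓞 F) τ x - x ∈ w.asIdeal)
    (hβ : β ≠ 0) (h : ξ * galRestrict (𝓞 K) K F (𝓞 F) τ β = β)
    {n : ℕ} (hn : w.intValuation β = WithZero.exp (-(n : ℤ))) :
    ξ * (s : 𝓞 F) ^ n - 1 ∈ w.asIdeal := by
  set τ' := galRestrict (𝓞 K) K F (𝓞 F) τ with hτ'
  set π : 𝓞 F := 1 - ζℓ with hπdef
  have hπ0 : π ≠ 0 := by
    intro h0
    rw [h0, map_zero] at hπ
    exact WithZero.exp_ne_zero hπ.symm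
  have hπmem : π ∈ w.asIdeal := by
    rw [← HeightOneSpectrum.intValuation_lt_one_iff_mem, hπ, ← WithZero.exp_zero,
      WithZero.exp_lt_exp]
    norm_num
  -- the quotient `β / π ^ n` is a `w`-unit
  have hval : w.valuation F ((algebraMap (𝓞 F) F β) / (algebraMap (𝓞 F) F π) ^ n) ≤ 1 := by
    rw [map_div₀, map_pow, HeightOneSpectrum.valuation_of_algebraMap,
      HeightOneSpectrum.valuation_of_algebraMap, hn, hπ, ← WithZero.exp_nsmul]
    apply le_of_eq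
    rw [div_eq_one_iff_eq WithZero.exp_ne_zero]
    congr 1
    simp
  obtain ⟨z, y, hzy⟩ := HeightOneSpectrum.exists_primeCompl_mul_eq_of_integer w _ hval
  have hπF : (algebraMap (𝓞 F) F π) ≠ 0 := by
    rwa [Ne, FaithfulSMul.algebraMap_eq_zero_iff]
  have E1 : β * (y : 𝓞 F) = π ^ n * z := by
    apply FaithfulSMul.algebraMap_injective (𝓞 F) F
    rw [map_mul, map_mul, map_pow, ← hzy]
    field_simp
  have hy : (y : 𝓞 F) ∉ w.asIdeal := y.2
  have hz : z ∉ w.asIdeal := by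
    have h1 := congrArg w.intValuation E1
    rw [map_mul, map_mul, map_pow, hn, hπ,
      (HeightOneSpectrum.intValuation_eq_one_iff_mem_primeCompl w (y : 𝓞 F)).mpr y.2,
      mul_one, ← WithZero.exp_nsmul] at h1
    have h2 : w.intValuation z = 1 := by
      have h3 : (WithZero.exp (-(n : ℤ)) : WithZero (Multiplicative ℤ)) =
          WithZero.exp (n • (-1 : ℤ)) := by congr 1; simp
      rw [← h3] at h1
      have h4 : (WithZero.exp (-(n : ℤ)) : WithZero (Multiplicative ℤ)) * 1 =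
          WithZero.exp (-(n : ℤ)) * w.intValuation z := by rw [mul_one]; exact h1
      exact (mul_left_cancel₀ WithZero.exp_ne_zero h4).symm
    exact (HeightOneSpectrum.intValuation_eq_one_iff_mem_primeCompl w z).mp h2
  -- the action of `τ` on `π`
  set κ : 𝓞 F := ∑ i ∈ Finset.range s, ζℓ ^ i with hκ
  have hτπ : τ' π = π * κ := by
    rw [hπdef, map_sub, map_one, hζτ, hκ, mul_neg_geom_sum]
  have E2 : τ' β * τ' (y : 𝓞 F) = π ^ n * κ ^ n * τ' z := by
    have := congrArg τ' E1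
    rw [map_mul, map_mul, map_pow, hτπ, mul_pow] at this
    exact this
  have key : z * τ' (y : 𝓞 F) = ξ * κ ^ n * τ' z * (y : 𝓞 F) := by
    apply mul_left_cancel₀ (pow_ne_zero n hπ0)
    linear_combination (-(τ' (y : 𝓞 F))) * E1 + (ξ * (y : 𝓞 F)) * E2 - ((y : 𝓞 F) * τ' (y : 𝓞 F)) * h
  -- reduce modulo `w`
  have hq : ∀ x : 𝓞 F, Ideal.Quotient.mk w.asIdeal (τ' x) = Ideal.Quotient.mk w.asIdeal x := by
    intro x
    rw [← sub_eq_zero, ← map_sub, Ideal.Quotient.eq_zero_iff_mem]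
    exact htriv x
  have hqζ : Ideal.Quotient.mk w.asIdeal ζℓ = 1 := by
    have : Ideal.Quotient.mk w.asIdeal π = 0 := Ideal.Quotient.eq_zero_iff_mem.mpr hπmem
    rw [hπdef, map_sub, map_one, sub_eq_zero] at this
    exact this.symm
  have hqκ : Ideal.Quotient.mk w.asIdeal κ = (s : 𝓞 F ⧸ w.asIdeal) := by
    rw [hκ, map_sum]
    simp [hqζ]
  have hqy : Ideal.Quotient.mk w.asIdeal (y : 𝓞 F) ≠ 0 := by
    rwa [Ne, Ideal.Quotient.eq_zero_iff_mem]
  have hqz : Ideal.Quotient.mk w.asIdeal z ≠ 0 := by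
    rwa [Ne, Ideal.Quotient.eq_zero_iff_mem]
  have hkey := congrArg (Ideal.Quotient.mk w.asIdeal) key
  rw [map_mul, map_mul, map_mul, map_mul, map_pow, hq, hq, hqκ] at hkey
  have := w.isPrime
  have hfin : Ideal.Quotient.mk w.asIdeal ξ * (s : 𝓞 F ⧸ w.asIdeal) ^ n = 1 := by
    have h5 : (Ideal.Quotient.mk w.asIdeal ξ * (s : 𝓞 F ⧸ w.asIdeal) ^ n) *
        (Ideal.Quotient.mk w.asIdeal z * Ideal.Quotient.mk w.asIdeal (y : 𝓞 F)) =
        1 * (Ideal.Quotient.mk w.asIdeal z * Ideal.Quotient.mk w.asIdeal (y : 𝓞 F)) := by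
      linear_combination (-1 : 𝓞 F ⧸ w.asIdeal) * hkey
    exact mul_right_cancel₀ (mul_ne_zero hqz hqy) h5
  rw [← Ideal.Quotient.eq_zero_iff_mem, map_sub, map_mul, map_pow, map_natCast, map_one, hfin,
    sub_self]


/-- An integer of norm one is a unit. -/
lemma thRel_isUnit_of_norm [IsGalois K F] {ξ : 𝓞 F}
    (hξ : Algebra.norm K (algebraMap (𝓞 F) F ξ) = 1) : IsUnit ξ := by
  have h1 := prod_galRestrict_eq_norm (𝓞 K) K F (𝓞 F) ξ
  have h2 : (IsIntegralClosure.mk' (R := 𝓞 K) (𝓞 K) (Algebra.norm K <| algebraMap (𝓞 F) F ξ)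
      (Algebra.isIntegral_norm K (IsIntegralClosure.isIntegral (𝓞 K) F ξ).algebraMap)) = 1 := by
    apply IsIntegralClosure.algebraMap_injective (𝓞 K) (𝓞 K) K
    rw [IsIntegralClosure.algebraMap_mk', hξ, map_one]
  rw [h2, map_one] at h1
  apply isUnit_of_dvd_one
  rw [← h1]
  have : galRestrict (𝓞 K) K F (𝓞 F) 1 ξ = ξ := by rw [map_one]; rfl
  conv_lhs => rw [← this]
  exact Finset.dvd_prod_of_mem _ (Finset.mem_univ (1 : F ≃ₐ[K] F))

lemma thRel_pow_sub_one_mem {ℓ s : ℕ} (hℓ : ℓ.Prime) (hs : s.Coprime ℓ)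
    (u : HeightOneSpectrum (𝓞 K)) (hu : (ℓ : 𝓞 K) ∈ u.asIdeal) :
    (s : 𝓞 K) ^ (ℓ - 1) - 1 ∈ u.asIdeal := by
  haveI : Fact ℓ.Prime := ⟨hℓ⟩
  have h1 : (s : ZMod ℓ) ^ (ℓ - 1) = 1 := by
    apply ZMod.pow_card_sub_one_eq_one
    intro h0
    rw [ZMod.natCast_eq_zero_iff] at h0
    have := Nat.Coprime.eq_one_of_dvd hs.symm h0
    exact hℓ.one_lt.ne' this
  have h2 : ((s ^ (ℓ - 1) : ℕ) : ZMod ℓ) = ((1 : ℕ) : ZMod ℓ) := by
    push_cast; exact h1
  rw [ZMod.natCast_eq_natCast_iff] at h2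
  have h3 := (Nat.modEq_iff_dvd.mp h2)
  obtain ⟨c, hc⟩ := h3
  have h4 : ((s : 𝓞 K) ^ (ℓ - 1) - 1) = -((ℓ : 𝓞 K) * (c : 𝓞 K)) := by
    have := congrArg (Int.cast : ℤ → 𝓞 K) hc
    push_cast at this
    linear_combination -this
  rw [h4]
  exact neg_mem (Ideal.mul_mem_right _ _ hu)


/-- Main lemma, for a generic `F`. -/
lemma thRel_main {p ℓ : ℕ} [IsCyclotomicExtension {ℓ} K F]
    (hℓ : ℓ.Prime) (hpℓ : p ∣ ℓ - 1)
    (ζ : 𝓞 K)
    (hfin : Module.finrank K F = ℓ - 1)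
    (τ : F ≃ₐ[K] F) (s : ℕ) (hτ : ∀ g : F ≃ₐ[K] F, g ∈ Subgroup.zpowers τ)
    (hτζ : ∀ ζℓ : F, IsPrimitiveRoot ζℓ ℓ → τ ζℓ = ζℓ ^ s)
    (hR : ∀ (w : HeightOneSpectrum (𝓞 F)) (u : HeightOneSpectrum (𝓞 K)),
        w.asIdeal.comap (algebraMap (𝓞 K) (𝓞 F)) = u.asIdeal →
        ((ℓ : 𝓞 K) ∉ u.asIdeal →
          ∀ x : 𝓞 K, w.intValuation (algebraMap (𝓞 K) (𝓞 F) x) = u.intValuation x) ∧
        ((ℓ : 𝓞 K) ∈ u.asIdeal →
          (∀ x : 𝓞 K, w.intValuation (algebraMap (𝓞 K) (𝓞 F) x) = u.intValuation x ^ (ℓ - 1)) ∧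
          (∀ ζℓ : 𝓞 F, IsPrimitiveRoot ζℓ ℓ → w.intValuation (1 - ζℓ) = WithZero.exp (-1 : ℤ)) ∧
          (∀ (g : F ≃ₐ[K] F) (x : 𝓞 F),
            galRestrict (𝓞 K) K F (𝓞 F) g x - x ∈ w.asIdeal)))
    (hN : ∀ ζℓ : F, IsPrimitiveRoot ζℓ ℓ →
      Algebra.norm K (1 + algebraMap K F (algebraMap (𝓞 K) K ζ) * ζℓ) = 1) :
    ∃ (b : 𝓞 K) (s : ℕ), b ≠ 0 ∧
      ∀ u : HeightOneSpectrum (𝓞 K),
        ((ℓ : 𝓞 K) ∉ u.asIdeal →
          ∃ n : ℕ, u.intValuation b = WithZero.exp (-((p * n : ℕ) : ℤ))) ∧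
        ((ℓ : 𝓞 K) ∈ u.asIdeal →
          ∃ n : ℕ, u.intValuation b = WithZero.exp (-(n : ℤ)) ∧
            (1 + ζ) - (s : 𝓞 K) ^ n ∈ u.asIdeal) := by
  have hℓ2 : 2 ≤ ℓ := hℓ.two_le
  haveI : NeZero ℓ := ⟨hℓ.ne_zero⟩
  haveI : IsGalois K F := IsCyclotomicExtension.isGalois {ℓ} K F
  haveI : IsCyclic (F ≃ₐ[K] F) := ⟨⟨τ, hτ⟩⟩
  -- the primitive root
  obtain ⟨r, hr⟩ := IsCyclotomicExtension.exists_isPrimitiveRoot K F
    (Set.mem_singleton ℓ) hℓ.ne_zero
  set ζℓ : 𝓞 F := hr.toInteger with hζℓ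
  have hζℓprim : IsPrimitiveRoot ζℓ ℓ := hr.toInteger_isPrimitiveRoot
  have hζℓcoe : algebraMap (𝓞 F) F ζℓ = r := rfl
  set τ' := galRestrict (𝓞 K) K F (𝓞 F) τ with hτ'
  have hτζ' : τ' ζℓ = ζℓ ^ s := by
    apply FaithfulSMul.algebraMap_injective (𝓞 F) F
    rw [algebraMap_galRestrict_apply, map_pow, hζℓcoe]
    exact hτζ r hr
  -- `s` is prime to `ℓ`
  have hs : s.Coprime ℓ := by
    have h1 : IsPrimitiveRoot (r ^ s) ℓ := by
      rw [← hτζ r hr]
      exact hr.map_of_injective (f := (τ : F →+* F)) τ.injective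
    exact (hr.pow_iff_coprime hℓ.pos s).mp h1
  -- Thaine's unit
  set ζ' : 𝓞 F := algebraMap (𝓞 K) (𝓞 F) ζ with hζ'
  set ξ : 𝓞 F := 1 + ζ' * ζℓ with hξdef
  have hξnorm : Algebra.norm K (algebraMap (𝓞 F) F ξ) = 1 := by
    have := hN r hr
    rw [hξdef, map_add, map_one, map_mul, hζℓcoe, hζ',
      ← IsScalarTower.algebraMap_apply (𝓞 K) (𝓞 F) F,
      IsScalarTower.algebraMap_apply (𝓞 K) K F]
    exact this
  have hξunit : IsUnit ξ := thRel_isUnit_of_norm hξnorm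
  -- Hilbert 90
  obtain ⟨β, hβ0, hβ⟩ := groupCohomology.exists_mul_galRestrict_of_norm_eq_one
    (A := 𝓞 K) (B := 𝓞 F) hτ hξnorm
  have hassoc := thRel_assoc_conj hτ hξunit hβ
  obtain ⟨b, hb⟩ := thRel_exists_b (K := K) β
  have hb0 : b ≠ 0 := by
    rintro rfl
    rw [map_zero] at hb
    have := Finset.prod_eq_zero_iff.mp hb.symm
    obtain ⟨g, -, hg⟩ := this
    exact hβ0 ((map_eq_zero_iff _ (galRestrict (𝓞 K) K F (𝓞 F) g).injective).mp hg)
  refine ⟨b, s ^ (ℓ - 2), hb0, fun u => ?_⟩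
  obtain ⟨w, hwu⟩ := thRel_exists_above (F := F) u
  obtain ⟨m, hm⟩ := thRel_intVal_eq_exp w hβ0
  have hvb := thRel_val_b hassoc hb w
  rw [hfin, hm, thRel_exp_pow] at hvb
  obtain ⟨hunr, hram⟩ := hR w u hwu
  constructor
  · intro hu
    obtain ⟨t, ht⟩ := hpℓ
    refine ⟨t * m, ?_⟩
    rw [← hunr hu b, hvb, ht, mul_assoc]
  · intro hu
    obtain ⟨hpow, hπ, htriv⟩ := hram hu
    refine ⟨m, ?_, ?_⟩
    · obtain ⟨k, hk⟩ := thRel_intVal_eq_exp u hb0
      have h1 := hpow b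
      rw [hvb, hk, thRel_exp_pow, WithZero.exp_inj] at h1
      have h2 : (ℓ - 1) * m = (ℓ - 1) * k := by exact_mod_cast neg_injective h1
      have h3 : m = k := Nat.eq_of_mul_eq_mul_left (by omega) h2
      rw [hk, h3]
    · -- the congruence
      have hc := thRel_congr w hτζ' (hπ ζℓ hζℓprim) (htriv τ) hβ0 hβ hm
      have hπmem : 1 - ζℓ ∈ w.asIdeal := by
        rw [← HeightOneSpectrum.intValuation_lt_one_iff_mem, hπ ζℓ hζℓprim, ← WithZero.exp_zero,
          WithZero.exp_lt_exp]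
        norm_num
      have h1 : algebraMap (𝓞 K) (𝓞 F) ((1 + ζ) * (s : 𝓞 K) ^ m - 1) ∈ w.asIdeal := by
        have : algebraMap (𝓞 K) (𝓞 F) ((1 + ζ) * (s : 𝓞 K) ^ m - 1) =
            (ξ * (s : 𝓞 F) ^ m - 1) + ζ' * (s : 𝓞 F) ^ m * (1 - ζℓ) := by
          rw [map_sub, map_mul, map_add, map_one, map_pow, map_natCast, hξdef]
          ring
        rw [this]
        exact add_mem hc (Ideal.mul_mem_left _ _ hπmem)
      have h2 : (1 + ζ) * (s : 𝓞 K) ^ m - 1 ∈ u.asIdeal := by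
        rw [← hwu]; exact h1
      have h3 := thRel_pow_sub_one_mem hℓ hs u hu
      -- work in the quotient
      rw [← Ideal.Quotient.eq_zero_iff_mem] at h2 h3 ⊢
      rw [map_sub, map_mul, map_pow, map_one, sub_eq_zero] at h2
      rw [map_sub, map_pow, map_one, sub_eq_zero] at h3
      rw [map_sub, sub_eq_zero, map_pow]
      set a := Ideal.Quotient.mk u.asIdeal (1 + ζ)
      set c := Ideal.Quotient.mk u.asIdeal (s : 𝓞 K)
      have hc2 : c ^ (ℓ - 1) = c ^ (ℓ - 2) * c := by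
        rw [← pow_succ]; congr 1; omega
      have : Ideal.Quotient.mk u.asIdeal ((s ^ (ℓ - 2) : ℕ) : 𝓞 K) = c ^ (ℓ - 2) := by
        push_cast; rw [map_pow]
      rw [this]
      calc a = a * (c ^ (ℓ - 1)) ^ m := by rw [h3, one_pow, mul_one]
        _ = (a * c ^ m) * (c ^ (ℓ - 2)) ^ m := by rw [hc2]; ring
        _ = (c ^ (ℓ - 2)) ^ m := by rw [h2, one_mul]

end ThaineRel

/-- **N2b**: Thaine's relation (element form). -/
theorem thaineRelStatement {p : ℕ} [Fact p.Prime] (h3 : 3 ≤ p)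
    (hG : ThaineGalStatement p) (hR : ThaineRamStatement p) (hN : ThaineNormStatement p) :
    ThaineRelStatement p := by
  intro K _ _ _ ζ hζ ℓ hℓ hℓp hℓ1
  have hpℓ : p ∣ ℓ - 1 := by
    have h1 : ℓ % p = 1 % p := by
      rw [hℓ1, Nat.mod_eq_of_lt (by omega)]
    exact (Nat.modEq_iff_dvd' hℓ.one_le).mp h1.symm
  obtain ⟨hfin, τ, s, hτ, hτζ⟩ := hG K ℓ hℓ hℓp (CyclotomicField ℓ K)
  refine thRel_main (F := CyclotomicField ℓ K) hℓ hpℓ ζ hfin τ s hτ hτζ
    (fun w u => hR K ℓ hℓ hℓp (CyclotomicField ℓ K) w u) ?_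
  intro ζℓ hζℓ
  exact hN K ℓ hℓ hℓp hℓ1 (CyclotomicField ℓ K) _ ζℓ
    (hζ.map_of_injective (FaithfulSMul.algebraMap_injective (𝓞 K) K)) hζℓ

end Fermat.Agent.S14


end ZBZ2S14_020_1

/-! ### bundled: `Fermat.Agent.S14.ThaineProjAux` -/
section ZBZ2S14_020_2

/-!
# S14, piece N2c (auxiliary lemmas): from Thaine's relation to the vanishing of the
`ω²`-part of `[v]` in `Cl/p`

`thaineStatement_of_rel : ThaineRelStatement p → ThaineStatement p`.

Let `v` be a prime of degree one of `K = ℚ(ζ_p)`, `ℓ = N v`. Then `ℓ ≡ 1 mod p`, the primes above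
`ℓ` are the `σ_d v` (`d ∈ (ℤ/p)ˣ`, pairwise distinct), and Thaine's element `b` gives
`∑_d n_d [σ_d v] = 0` in `Cl/p` with `1 + ζ ≡ s ^ n_d mod σ_d v`. Applying `proj2` and
`σ_d⁻¹` we get `(∑_d n_d d²) · proj2 [v] = 0` and `thaineElt ≡ s ^ (∑_d n_d d²) mod v`.
-/

set_option autoImplicit false

open NumberField IsDedekindDomain JacobiSumStickelberger
open scoped Pointwise nonZeroDivisors

namespace Fermat.Agent.S14

section Basic

variable {p : ℕ} [hp : Fact p.Prime] {K : Type} [Field K] [NumberField K]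

omit [NumberField K] in
/-- `p ∉ u` if `u` contains a prime number `ℓ ≠ p`. -/
theorem tp_prime_notMem (u : HeightOneSpectrum (𝓞 K)) (ℓ : ℕ) (hℓ : ℓ.Prime) (hℓp : ℓ ≠ p)
    (hℓu : (ℓ : 𝓞 K) ∈ u.asIdeal) : (p : 𝓞 K) ∉ u.asIdeal := by
  intro hpu
  have hcop : Nat.Coprime p ℓ := (Nat.coprime_primes hp.out hℓ).mpr (Ne.symm hℓp)
  have h1 : ((Nat.gcd p ℓ : ℤ) : 𝓞 K) ∈ u.asIdeal := by
    rw [Nat.gcd_eq_gcd_ab]
    push_cast
    exact u.asIdeal.add_mem (u.asIdeal.mul_mem_right _ hpu) (u.asIdeal.mul_mem_right _ hℓu)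
  rw [hcop] at h1
  simp only [Nat.cast_one, Int.cast_one] at h1
  exact u.isPrime.ne_top ((Ideal.eq_top_iff_one _).mpr h1)

variable [IsCyclotomicExtension {p} ℚ K]

/-- For a primitive `p`-th root of unity `η`, `η - 1 ∉ u` when `p ∉ u`. -/
theorem tp_sub_one_notMem (u : HeightOneSpectrum (𝓞 K)) (hpu : (p : 𝓞 K) ∉ u.asIdeal)
    (η : 𝓞 K) (hη : IsPrimitiveRoot η p) : η - 1 ∉ u.asIdeal := by
  intro hmem
  have hηK : IsPrimitiveRoot (η : K) p := hη.map_of_injective RingOfIntegers.coe_injective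
  have hdvd : hηK.toInteger - 1 ∣ (p : 𝓞 K) := hηK.toInteger_sub_one_dvd_prime'
  have heq : hηK.toInteger = η := by
    ext; rfl
  rw [heq] at hdvd
  obtain ⟨c, hc⟩ := hdvd
  apply hpu
  rw [hc]
  exact u.asIdeal.mul_mem_right _ hmem

/-- For a primitive `p`-th root of unity `ζ` and `0 < k < p`, `ζ ^ k - 1 ∉ u`. -/
theorem tp_pow_sub_one_notMem (u : HeightOneSpectrum (𝓞 K)) (hpu : (p : 𝓞 K) ∉ u.asIdeal)
    (ζ : 𝓞 K) (hζ : IsPrimitiveRoot ζ p) (k : ℕ) (hk0 : 0 < k) (hkp : k < p) :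
    ζ ^ k - 1 ∉ u.asIdeal := by
  apply tp_sub_one_notMem u hpu
  apply hζ.pow_of_coprime
  exact (Nat.coprime_of_lt_prime hk0.ne' hkp hp.out).symm

omit [NumberField K] [IsCyclotomicExtension {p} ℚ K] in
theorem tp_zeta_notMem (u : HeightOneSpectrum (𝓞 K)) (ζ : 𝓞 K) (hζ : IsPrimitiveRoot ζ p)
    (k : ℕ) : ζ ^ k ∉ u.asIdeal := by
  intro h
  have h1 : (ζ ^ k) ^ p ∈ u.asIdeal := u.asIdeal.pow_mem_of_mem h p hp.out.pos
  rw [← pow_mul, mul_comm, pow_mul, hζ.pow_eq_one, one_pow] at h1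
  exact u.isPrime.ne_top ((Ideal.eq_top_iff_one _).mpr h1)

/-- Distinct powers of `ζ` are distinct modulo `u`. -/
theorem tp_pow_sub_pow_notMem (u : HeightOneSpectrum (𝓞 K)) (hpu : (p : 𝓞 K) ∉ u.asIdeal)
    (ζ : 𝓞 K) (hζ : IsPrimitiveRoot ζ p) (a b : ℕ) (ha : a < p) (hb : b < p) (hab : a ≠ b) :
    ζ ^ a - ζ ^ b ∉ u.asIdeal := by
  intro hmem
  rcases Nat.lt_or_gt_of_ne hab with h | h
  · have h1 : ζ ^ a - ζ ^ b = -(ζ ^ a * (ζ ^ (b - a) - 1)) := by
      rw [mul_sub, ← pow_add, Nat.add_sub_cancel' h.le]; ring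
    rw [h1, neg_mem_iff] at hmem
    rcases u.isPrime.mem_or_mem hmem with h2 | h2
    · exact tp_zeta_notMem u ζ hζ a h2
    · exact tp_pow_sub_one_notMem u hpu ζ hζ (b - a) (by omega) (by omega) h2
  · have h1 : ζ ^ a - ζ ^ b = ζ ^ b * (ζ ^ (a - b) - 1) := by
      rw [mul_sub, ← pow_add, Nat.add_sub_cancel' h.le]; ring
    rw [h1] at hmem
    rcases u.isPrime.mem_or_mem hmem with h2 | h2
    · exact tp_zeta_notMem u ζ hζ b h2
    · exact tp_pow_sub_one_notMem u hpu ζ hζ (a - b) (by omega) (by omega) h2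

omit hp [IsCyclotomicExtension {p} ℚ K] in
theorem tp_card_quot (v : HeightOneSpectrum (𝓞 K)) :
    Nat.card (𝓞 K ⧸ v.asIdeal) = Ideal.absNorm v.asIdeal := by
  rw [Ideal.absNorm_apply, Submodule.cardQuot_apply]

/-- The norm of a degree one prime is `≡ 1 mod p`. -/
theorem tp_mod_eq_one (v : HeightOneSpectrum (𝓞 K)) (hv : IsDegOne p v)
    (ζ : 𝓞 K) (hζ : IsPrimitiveRoot ζ p) : Ideal.absNorm v.asIdeal % p = 1 := by
  have hpv : (p : 𝓞 K) ∉ v.asIdeal :=
    tp_prime_notMem v _ hv.1 hv.2 (Ideal.absNorm_mem _)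
  have : v.asIdeal.IsMaximal := v.isMaximal
  let _ := Ideal.Quotient.field v.asIdeal
  have : Finite (𝓞 K ⧸ v.asIdeal) := v.asIdeal.finiteQuotientOfFreeOfNeBot v.ne_bot
  let _ := Fintype.ofFinite (𝓞 K ⧸ v.asIdeal)
  have hcard : Fintype.card (𝓞 K ⧸ v.asIdeal) = Ideal.absNorm v.asIdeal := by
    rw [← Nat.card_eq_fintype_card, tp_card_quot]
  set x : 𝓞 K ⧸ v.asIdeal := Ideal.Quotient.mk v.asIdeal ζ with hx
  have hxp : x ^ p = 1 := by
    rw [hx, ← map_pow, hζ.pow_eq_one, map_one]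
  have hx1 : x ≠ 1 := by
    intro h
    apply tp_sub_one_notMem v hpv ζ hζ
    rw [← Ideal.Quotient.eq_zero_iff_mem, map_sub, map_one, ← hx, h, sub_self]
  have hx0 : x ≠ 0 := by
    intro h
    rw [h, zero_pow hp.out.ne_zero] at hxp
    exact zero_ne_one hxp
  have hord : orderOf x = p := orderOf_eq_prime hxp hx1
  have hpow := FiniteField.pow_card_sub_one_eq_one x hx0
  rw [hcard] at hpow
  have hdvd : p ∣ Ideal.absNorm v.asIdeal - 1 := by
    rw [← hord]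
    exact orderOf_dvd_of_pow_eq_one hpow
  have hℓ : 1 ≤ Ideal.absNorm v.asIdeal := hv.1.one_lt.le
  obtain ⟨c, hc⟩ := hdvd
  have h2 : Ideal.absNorm v.asIdeal = 1 + p * c := by omega
  rw [h2, Nat.add_mul_mod_self_left, Nat.mod_eq_of_lt hp.out.one_lt]

omit hp [IsCyclotomicExtension {p} ℚ K] in
/-- Modulo a prime of degree one every integer of `K` is congruent to a rational integer. -/
theorem tp_exists_int_sub_mem (v : HeightOneSpectrum (𝓞 K)) (hv : IsDegOne p v) (x : 𝓞 K) :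
    ∃ m : ℤ, x - (m : 𝓞 K) ∈ v.asIdeal := by
  have : Fact (Ideal.absNorm v.asIdeal).Prime := ⟨hv.1⟩
  have h1 : (Ideal.Quotient.mk v.asIdeal (1 : 𝓞 K)) ≠ 0 := by
    intro h
    rw [Ideal.Quotient.eq_zero_iff_mem] at h
    exact v.isPrime.ne_top ((Ideal.eq_top_iff_one _).mpr h)
  have hmem := mem_zmultiples_of_prime_card (tp_card_quot v) h1
    (g' := Ideal.Quotient.mk v.asIdeal x)
  obtain ⟨m, hm⟩ := AddSubgroup.mem_zmultiples_iff.mp hmem
  refine ⟨m, ?_⟩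
  rw [← Ideal.Quotient.eq_zero_iff_mem, map_sub, ← hm, sub_eq_zero]
  rw [zsmul_eq_mul, map_one, mul_one, map_intCast]

/-- The Galois automorphism attached to `d` raises primitive `p`-th roots of unity to the
`d`-th power. -/
theorem tp_cycloGalEquiv_symm_apply (d : (ZMod p)ˣ) (ζ : K) (hζ : IsPrimitiveRoot ζ p) :
    (cycloGalEquiv p K).symm d ζ = ζ ^ (d : ZMod p).val := by
  have h1 := hζ.autToPow_spec ℚ ((cycloGalEquiv p K).symm d)
  rw [← h1]
  congr 2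
  have h2 : (IsCyclotomicExtension.zeta_spec p ℚ K).autToPow ℚ
      ((cycloGalEquiv p K).symm d) = d := by
    have := (cycloGalEquiv p K).apply_symm_apply d
    exact this
  rw [IsPrimitiveRoot.autToPow_eq_modularCyclotomicCharacter p ℚ hζ]
  rw [← IsPrimitiveRoot.autToPow_eq_modularCyclotomicCharacter p ℚ
    (IsCyclotomicExtension.zeta_spec p ℚ K), h2]

theorem tp_clRingAction_apply (d : (ZMod p)ˣ) (ζ : 𝓞 K) (hζ : IsPrimitiveRoot ζ p) :
    clRingAction p K d ζ = ζ ^ (d : ZMod p).val := by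
  have hζK : IsPrimitiveRoot (ζ : K) p := hζ.map_of_injective RingOfIntegers.coe_injective
  apply RingOfIntegers.coe_injective
  have := tp_cycloGalEquiv_symm_apply d (ζ : K) hζK
  rw [map_pow]
  rw [← this]
  exact algebraMap_galRestrict_apply ℤ ((cycloGalEquiv p K).symm d) ζ

/-- `proj2 ∘ σ_d = d² · proj2`. -/
theorem tp_proj2_clGalAction (d : (ZMod p)ˣ) (x : ClGalModule p (𝓞 K)) :
    proj2 p K (clGalAction p K d x) = ((d : ZMod p) ^ 2) • proj2 p K x := by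
  unfold proj2
  rw [LinearMap.sum_apply, LinearMap.sum_apply, Finset.smul_sum]
  refine Fintype.sum_equiv (Equiv.mulRight d) _ _ ?_
  intro e
  simp only [LinearMap.smul_apply, Equiv.coe_mulRight]
  rw [map_mul, Module.End.mul_apply, smul_smul]
  congr 1
  rw [mul_inv_rev, Units.val_mul, mul_pow, ← mul_assoc, ← mul_pow, ← Units.val_mul,
    mul_inv_cancel, Units.val_one, one_pow, one_mul]

omit hp [IsCyclotomicExtension {p} ℚ K] in
theorem tp_smul_ideal_eq_map (σ : K ≃ₐ[ℚ] K) (P : Ideal (𝓞 K)) :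
    σ • P = P.map ((galRestrict ℤ ℚ K (𝓞 K) σ : 𝓞 K ≃ₐ[ℤ] 𝓞 K) : 𝓞 K →+* 𝓞 K) := by
  rw [Ideal.pointwise_smul_def]
  congr 1
  ext x
  simp only [MulSemiringAction.toRingHom_apply]
  have := algebraMap_galRestrict_apply ℤ σ x
  exact this.symm

/-- Transitivity of the Galois action on the primes above `ℓ`. -/
theorem tp_exists_map_eq (P Q : Ideal (𝓞 K)) [P.IsPrime] [Q.IsPrime] (ℓ : ℕ)
    [P.LiesOver (Ideal.span {(ℓ : ℤ)})] [Q.LiesOver (Ideal.span {(ℓ : ℤ)})] :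
    ∃ d : (ZMod p)ˣ, Q = P.map ((clRingAction p K d : 𝓞 K ≃+* 𝓞 K) : 𝓞 K →+* 𝓞 K) := by
  have : IsGalois ℚ K := IsCyclotomicExtension.isGalois {p} ℚ K
  obtain ⟨σ, hσ⟩ := Ideal.exists_smul_eq_of_isGaloisGroup (Ideal.span {(ℓ : ℤ)}) P Q (K ≃ₐ[ℚ] K)
  refine ⟨cycloGalEquiv p K σ, ?_⟩
  rw [← hσ, tp_smul_ideal_eq_map]
  congr 1
  ext x
  simp only [clRingAction, MonoidHom.coe_comp, Function.comp_apply, MulEquiv.toMonoidHom_eq_coe,
    MonoidHom.coe_coe, MulEquiv.symm_apply_apply]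
  rfl

end Basic

section Count

variable {K : Type} [Field K] [NumberField K]

/-- The exponent of `u` in the factorisation of `(b)`. -/
noncomputable def tpCount (u : HeightOneSpectrum (𝓞 K)) (b : 𝓞 K) : ℕ :=
  (Associates.mk u.asIdeal).count (Associates.mk (Ideal.span {b} : Ideal (𝓞 K))).factors

theorem tp_intValuation_eq (u : HeightOneSpectrum (𝓞 K)) {b : 𝓞 K} (hb : b ≠ 0) :
    u.intValuation b = WithZero.exp (-(tpCount u b : ℤ)) :=
  u.intValuation_if_neg hb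

theorem tp_count_eq_of_intValuation (u : HeightOneSpectrum (𝓞 K)) {b : 𝓞 K} (hb : b ≠ 0)
    {n : ℕ} (h : u.intValuation b = WithZero.exp (-(n : ℤ))) : tpCount u b = n := by
  rw [tp_intValuation_eq u hb] at h
  have := WithZero.exp_injective h
  omega

/-- In the class group, the classes of the primes dividing `b`, weighted by their exponents,
add up to zero. -/
theorem tp_sum_count_smul_class (b : 𝓞 K) (hb : b ≠ 0) (S : Finset (HeightOneSpectrum (𝓞 K)))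
    (hS : ∀ u, tpCount u b ≠ 0 → u ∈ S) :
    ∑ u ∈ S, tpCount u b • (Additive.ofMul (primeClass u)) = 0 := by
  classical
  have hI : (Ideal.span {b} : Ideal (𝓞 K)) ≠ 0 := by
    rw [Ne, Ideal.zero_eq_bot, Ideal.span_singleton_eq_bot]
    exact hb
  have h1 := Ideal.finprod_heightOneSpectrum_factorization hI
  have hsupp : Function.mulSupport (fun u : HeightOneSpectrum (𝓞 K) =>
      u.maxPowDividing (Ideal.span {b})) ⊆ (S : Set (HeightOneSpectrum (𝓞 K))) := by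
    intro u hu
    rw [Function.mem_mulSupport] at hu
    apply hS
    intro h0
    apply hu
    unfold tpCount at h0
    rw [HeightOneSpectrum.maxPowDividing, h0, pow_zero]
  rw [finprod_eq_prod_of_mulSupport_subset _ hsupp] at h1
  -- lift to nonzero ideals
  set g : HeightOneSpectrum (𝓞 K) → (Ideal (𝓞 K))⁰ := fun u =>
    ⟨u.asIdeal, mem_nonZeroDivisors_iff_ne_zero.mpr u.ne_bot⟩ with hg
  have h2 : (∏ u ∈ S, g u ^ tpCount u b : (Ideal (𝓞 K))⁰) =
      ⟨Ideal.span {b}, mem_nonZeroDivisors_iff_ne_zero.mpr hI⟩ := by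
    apply Subtype.ext
    rw [Submonoid.coe_finsetProd]
    exact h1
  have h3 := congrArg (ClassGroup.mk0 (R := 𝓞 K)) h2
  rw [map_prod] at h3
  have h4 : ClassGroup.mk0 (⟨Ideal.span {b}, mem_nonZeroDivisors_iff_ne_zero.mpr hI⟩ :
      (Ideal (𝓞 K))⁰) = 1 := by
    rw [ClassGroup.mk0_eq_one_iff]
    exact ⟨⟨b, rfl⟩⟩
  rw [h4] at h3
  have h5 := congrArg Additive.ofMul h3
  rw [ofMul_prod, ofMul_one] at h5
  rw [← h5]
  refine Finset.sum_congr rfl ?_
  intro u _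
  rw [map_pow, ofMul_pow]
  rfl

theorem tp_hasFiniteSupport_count (b : 𝓞 K) (hb : b ≠ 0) :
    {u : HeightOneSpectrum (𝓞 K) | tpCount u b ≠ 0}.Finite := by
  have hI : (Ideal.span {b} : Ideal (𝓞 K)) ≠ 0 := by
    rw [Ne, Ideal.zero_eq_bot, Ideal.span_singleton_eq_bot]
    exact hb
  have h := Ideal.hasFiniteMulSupport hI
  refine Set.Finite.subset h ?_
  intro u hu
  rw [Function.mem_mulSupport]
  intro h1
  apply hu
  unfold tpCount
  rw [HeightOneSpectrum.maxPowDividing] at h1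
  by_contra h0
  have h2 : u.asIdeal ∣ u.asIdeal ^
      (Associates.mk u.asIdeal).count (Associates.mk (Ideal.span {b} : Ideal (𝓞 K))).factors :=
    dvd_pow_self _ h0
  rw [h1, Ideal.one_eq_top, Ideal.dvd_iff_le, top_le_iff] at h2
  exact u.isPrime.ne_top h2

end Count

end Fermat.Agent.S14


end ZBZ2S14_020_2

/-! ### bundled: `Fermat.Agent.S14.ThaineProj` -/
section ZBZ2S14_020_3

/-!
# S14, piece N2c: from Thaine's relation to the vanishing of the `ω²`-part of `[v]` in `Cl/p`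

`thaineStatement_of_rel : ThaineRelStatement p → ThaineStatement p`.
-/

set_option autoImplicit false

open NumberField IsDedekindDomain JacobiSumStickelberger
open scoped Pointwise nonZeroDivisors

namespace Fermat.Agent.S14

section Primes

variable {p : ℕ} [hp : Fact p.Prime] {K : Type} [Field K] [NumberField K]
  [IsCyclotomicExtension {p} ℚ K]

/-- The prime `σ_d v`. -/
noncomputable def tpPrime (v : HeightOneSpectrum (𝓞 K)) (d : (ZMod p)ˣ) :
    HeightOneSpectrum (𝓞 K) where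
  asIdeal := v.asIdeal.map ((clRingAction p K d : 𝓞 K ≃+* 𝓞 K) : 𝓞 K →+* 𝓞 K)
  isPrime := by
    have := v.isPrime
    exact Ideal.map_isPrime_of_equiv (clRingAction p K d : 𝓞 K ≃+* 𝓞 K)
  ne_bot := by
    have hinj : Function.Injective
        (((clRingAction p K d : 𝓞 K ≃+* 𝓞 K) : 𝓞 K →+* 𝓞 K)) := (clRingAction p K d).injective
    rw [Ne, Ideal.map_eq_bot_iff_of_injective hinj]
    exact v.ne_bot

theorem tp_apply_mem_tpPrime (v : HeightOneSpectrum (𝓞 K)) (d : (ZMod p)ˣ) {x : 𝓞 K}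
    (hx : x ∈ v.asIdeal) : clRingAction p K d x ∈ (tpPrime v d).asIdeal :=
  Ideal.mem_map_of_mem _ hx

theorem tp_mem_of_mem_tpPrime (v : HeightOneSpectrum (𝓞 K)) (d : (ZMod p)ˣ) {x : 𝓞 K}
    (hx : x ∈ (tpPrime v d).asIdeal) : clRingAction p K d⁻¹ x ∈ v.asIdeal := by
  obtain ⟨y, hy, rfl⟩ := (Ideal.mem_map_of_equiv (clRingAction p K d : 𝓞 K ≃+* 𝓞 K) x).mp hx
  have h1 : clRingAction p K d⁻¹ (clRingAction p K d y) = y := by
    rw [← RingAut.mul_apply, ← map_mul, inv_mul_cancel, map_one, RingAut.one_apply]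
  rw [h1]
  exact hy

theorem tp_natCast_mem_tpPrime (v : HeightOneSpectrum (𝓞 K)) (d : (ZMod p)ˣ) (ℓ : ℕ)
    (hℓ : (ℓ : 𝓞 K) ∈ v.asIdeal) : (ℓ : 𝓞 K) ∈ (tpPrime v d).asIdeal := by
  have := tp_apply_mem_tpPrime v d hℓ
  rwa [map_natCast] at this

theorem tp_primeClass_tpPrime (v : HeightOneSpectrum (𝓞 K)) (d : (ZMod p)ˣ) :
    clProj p (𝓞 K) (Additive.ofMul (primeClass (tpPrime v d))) =
      clGalAction p K d (clProj p (𝓞 K) (Additive.ofMul (primeClass v))) := by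
  unfold primeClass
  rw [clGalAction_clProj_mk0]
  rfl

/-- `d ↦ σ_d v` is injective for a prime `v` of degree one. -/
theorem tp_tpPrime_injective (v : HeightOneSpectrum (𝓞 K)) (hv : IsDegOne p v)
    (ζ : 𝓞 K) (hζ : IsPrimitiveRoot ζ p) : Function.Injective (tpPrime (p := p) v) := by
  intro d e hde
  have hℓv : ((Ideal.absNorm v.asIdeal : ℕ) : 𝓞 K) ∈ v.asIdeal := Ideal.absNorm_mem _
  have hpu : (p : 𝓞 K) ∉ (tpPrime v d).asIdeal :=
    tp_prime_notMem _ _ hv.1 hv.2 (tp_natCast_mem_tpPrime v d _ hℓv)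
  obtain ⟨m, hm⟩ := tp_exists_int_sub_mem v hv ζ
  have h1 := tp_apply_mem_tpPrime v d hm
  have h2 := tp_apply_mem_tpPrime v e hm
  rw [← hde] at h2
  rw [map_sub, map_intCast, tp_clRingAction_apply d ζ hζ] at h1
  rw [map_sub, map_intCast, tp_clRingAction_apply e ζ hζ] at h2
  have h3 : ζ ^ (d : ZMod p).val - ζ ^ (e : ZMod p).val ∈ (tpPrime v d).asIdeal := by
    have := (tpPrime v d).asIdeal.sub_mem h1 h2
    rwa [sub_sub_sub_cancel_right] at this
  by_contra hne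
  have hval : (d : ZMod p).val ≠ (e : ZMod p).val := by
    intro h
    apply hne
    exact Units.ext (ZMod.val_injective p h)
  exact tp_pow_sub_pow_notMem _ hpu ζ hζ _ _ (ZMod.val_lt _) (ZMod.val_lt _) hval h3

/-- Every prime above `ℓ = N v` is of the form `σ_d v`. -/
theorem tp_exists_eq_tpPrime (v : HeightOneSpectrum (𝓞 K)) (hv : IsDegOne p v)
    (u : HeightOneSpectrum (𝓞 K))
    (hu : ((Ideal.absNorm v.asIdeal : ℕ) : 𝓞 K) ∈ u.asIdeal) :
    ∃ d : (ZMod p)ˣ, u = tpPrime v d := by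
  set ℓ := Ideal.absNorm v.asIdeal with hℓ
  have hℓv : (ℓ : 𝓞 K) ∈ v.asIdeal := Ideal.absNorm_mem _
  have hmax : (Ideal.span {(ℓ : ℤ)}).IsMaximal :=
    (Ideal.span_singleton_prime (by exact_mod_cast hv.1.ne_zero)).mpr
      (Nat.prime_iff_prime_int.mp hv.1) |>.isMaximal (by
        rw [Ne, Ideal.span_singleton_eq_bot]; exact_mod_cast hv.1.ne_zero)
  have hlies : ∀ w : HeightOneSpectrum (𝓞 K), (ℓ : 𝓞 K) ∈ w.asIdeal →
      w.asIdeal.LiesOver (Ideal.span {(ℓ : ℤ)}) := by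
    intro w hw
    constructor
    have hle : Ideal.span {(ℓ : ℤ)} ≤ w.asIdeal.under ℤ := by
      rw [Ideal.span_singleton_le_iff_mem, Ideal.under_def, Ideal.mem_comap]
      simpa using hw
    have hne : w.asIdeal.under ℤ ≠ ⊤ := by
      have := w.isPrime
      exact (Ideal.IsPrime.under ℤ w.asIdeal).ne_top
    exact hmax.eq_of_le hne hle
  have := hlies v hℓv
  have := hlies u hu
  have := v.isPrime
  have := u.isPrime
  obtain ⟨d, hd⟩ := tp_exists_map_eq (p := p) v.asIdeal u.asIdeal ℓ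
  exact ⟨d, HeightOneSpectrum.ext hd⟩

omit [IsCyclotomicExtension {p} ℚ K] in
/-- `thaineElt ≡ s ^ (∑_d n_d d²) mod v`, given `1 + ζ ^ (d⁻¹) ≡ s ^ n_d mod v`. -/
theorem tp_thaineElt_sub_pow_mem (ζ : 𝓞 K) (v : HeightOneSpectrum (𝓞 K)) (s : ℕ)
    (n : (ZMod p)ˣ → ℕ)
    (hcong : ∀ d : (ZMod p)ˣ,
      (1 + ζ ^ ((d⁻¹ : (ZMod p)ˣ) : ZMod p).val) - (s : 𝓞 K) ^ (n d) ∈ v.asIdeal) :
    thaineElt p ζ - (s : 𝓞 K) ^ (∑ d : (ZMod p)ˣ, n d * ((d : ZMod p).val) ^ 2) ∈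
      v.asIdeal := by
  rw [← Ideal.Quotient.eq_zero_iff_mem, map_sub, sub_eq_zero, map_pow]
  unfold thaineElt
  rw [map_prod, ← Finset.prod_pow_eq_pow_sum]
  refine Fintype.prod_equiv (Equiv.inv (ZMod p)ˣ) _ _ ?_
  intro e
  rw [Equiv.inv_apply, map_pow, pow_mul]
  congr 1
  have h := hcong e⁻¹
  rw [inv_inv, ← Ideal.Quotient.eq_zero_iff_mem, map_sub, sub_eq_zero, map_pow] at h
  exact h

end Primes

/-- **N2c**: Thaine's relation implies the vanishing of the `ω²`-part of the class of a prime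
of degree one at which `thaineElt` is not a `p`-th power residue. -/
theorem thaineStatement_of_rel {p : ℕ} [hp : Fact p.Prime] (h3 : 3 ≤ p) :
    ThaineRelStatement p → ThaineStatement p := by
  classical
  clear h3
  intro hrel K _ _ _ ζ hζ v hv hnot
  by_contra hX
  have hℓv : ((Ideal.absNorm v.asIdeal : ℕ) : 𝓞 K) ∈ v.asIdeal := Ideal.absNorm_mem _
  have hmod : Ideal.absNorm v.asIdeal % p = 1 := tp_mod_eq_one v hv ζ hζ
  obtain ⟨b, s, hb0, hbs⟩ := hrel K ζ hζ (Ideal.absNorm v.asIdeal) hv.1 hv.2 hmod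
  have hmemw : ∀ d : (ZMod p)ˣ,
      ((Ideal.absNorm v.asIdeal : ℕ) : 𝓞 K) ∈ (tpPrime v d).asIdeal :=
    fun d => tp_natCast_mem_tpPrime v d _ hℓv
  choose n hn using fun d : (ZMod p)ˣ => (hbs (tpPrime v d)).2 (hmemw d)
  -- congruences modulo `v`
  have hcong : ∀ d : (ZMod p)ˣ,
      (1 + ζ ^ ((d⁻¹ : (ZMod p)ˣ) : ZMod p).val) - (s : 𝓞 K) ^ (n d) ∈ v.asIdeal := by
    intro d
    have h := tp_mem_of_mem_tpPrime v d (hn d).2
    rwa [map_sub, map_add, map_one, map_pow, map_natCast, tp_clRingAction_apply d⁻¹ ζ hζ] at h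
  have hthaine := tp_thaineElt_sub_pow_mem ζ v s n hcong
  -- the class group relation
  have hfin := tp_hasFiniteSupport_count b hb0
  set S : Finset (HeightOneSpectrum (𝓞 K)) :=
    hfin.toFinset ∪ Finset.univ.image (tpPrime (p := p) v) with hS
  have hSmem : ∀ u, tpCount u b ≠ 0 → u ∈ S := by
    intro u hu
    rw [hS, Finset.mem_union]
    left
    rw [Set.Finite.mem_toFinset]
    exact hu
  have hsum := tp_sum_count_smul_class b hb0 S hSmem
  have hsum2 : ∑ u ∈ S, tpCount u b • clProj p (𝓞 K) (Additive.ofMul (primeClass u)) = 0 := by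
    have := congrArg (clProj p (𝓞 K)) hsum
    rwa [map_sum, map_zero, Finset.sum_congr rfl (fun u _ => map_nsmul _ _ _)] at this
  rw [← Finset.sum_filter_add_sum_filter_not S
    (fun u => ((Ideal.absNorm v.asIdeal : ℕ) : 𝓞 K) ∈ u.asIdeal)] at hsum2
  have hzero : ∑ u ∈ S with ¬ ((Ideal.absNorm v.asIdeal : ℕ) : 𝓞 K) ∈ u.asIdeal,
      tpCount u b • clProj p (𝓞 K) (Additive.ofMul (primeClass u)) = 0 := by
    refine Finset.sum_eq_zero ?_
    intro u hu
    rw [Finset.mem_filter] at hu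
    obtain ⟨m, hm⟩ := (hbs u).1 hu.2
    rw [tp_count_eq_of_intValuation u hb0 hm, mul_smul]
    exact ZModModule.char_nsmul_eq_zero p _
  rw [hzero, add_zero] at hsum2
  have hfilter : S.filter (fun u => ((Ideal.absNorm v.asIdeal : ℕ) : 𝓞 K) ∈ u.asIdeal) =
      Finset.univ.image (tpPrime (p := p) v) := by
    ext u
    rw [Finset.mem_filter, Finset.mem_image]
    constructor
    · rintro ⟨_, hu⟩
      obtain ⟨d, hd⟩ := tp_exists_eq_tpPrime v hv u hu
      exact ⟨d, Finset.mem_univ _, hd.symm⟩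
    · rintro ⟨d, _, rfl⟩
      refine ⟨?_, hmemw d⟩
      rw [hS, Finset.mem_union]
      right
      exact Finset.mem_image_of_mem _ (Finset.mem_univ _)
  rw [hfilter, Finset.sum_image (fun d _ e _ h => tp_tpPrime_injective v hv ζ hζ h)] at hsum2
  -- apply `proj2`
  have hsum3 : ∑ d : (ZMod p)ˣ, ((n d : ZMod p) * (d : ZMod p) ^ 2) •
      proj2 p K (clProj p (𝓞 K) (Additive.ofMul (primeClass v))) = 0 := by
    have := congrArg (proj2 p K) hsum2
    rw [map_sum, map_zero] at this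
    rw [← this]
    refine Finset.sum_congr rfl ?_
    intro d _
    rw [tp_count_eq_of_intValuation _ hb0 (hn d).1, map_nsmul, tp_primeClass_tpPrime,
      tp_proj2_clGalAction, mul_smul, Nat.cast_smul_eq_nsmul]
  rw [← Finset.sum_smul] at hsum3
  rcases smul_eq_zero.mp hsum3 with h0 | h0
  · -- `p ∣ N`
    have hN : ((∑ d : (ZMod p)ˣ, n d * ((d : ZMod p).val) ^ 2 : ℕ) : ZMod p) = 0 := by
      rw [← h0]
      push_cast
      refine Finset.sum_congr rfl ?_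
      intro d _
      rw [ZMod.natCast_zmod_val]
    rw [ZMod.natCast_eq_zero_iff] at hN
    obtain ⟨c, hc⟩ := hN
    apply hnot
    refine ⟨(s : 𝓞 K) ^ c, ?_⟩
    rw [← pow_mul, mul_comm, ← hc]
    exact hthaine
  · exact hX h0

end Fermat.Agent.S14


end ZBZ2S14_020_3
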