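/- GENERATED FILE (helper35, build-time optimisation, NOTES/ZB.md): verbatim concatenation of the modules
   Fermat.Agent.S14.ThaineArith
   Fermat.Agent.S14.ThaineGal
   Fermat.Agent.S14.ThaineNorm
   Do not edit; do not import together with these modules. -/
import Mathlib
import Fermat.Agent.ZB.Z2S14_020

/-! ### bundled: `Fermat.Agent.S14.ThaineArith` -/
section ZBZ2S14_021_0

/-!
# S14, piece N2a: arithmetic of `F = K(ζ_ℓ)` over `K = ℚ(ζ_p)` (for Thaine's relation)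

`p ≠ ℓ` primes, `K` a `p`-th cyclotomic extension of `ℚ`, `F` an `ℓ`-th cyclotomic extension of `K`.
We prove: `F` is the `pℓ`-th cyclotomic field, `[F : K] = ℓ - 1`, `cyclotomic ℓ K` is irreducible,
`F / K` is unramified outside `ℓ` and totally ramified above `ℓ`, with uniformizer `1 - ζ_ℓ`
and trivial action of `Gal(F/K)` on the residue fields above `ℓ`.
-/

set_option autoImplicit false
set_option linter.style.haveILetI false

open NumberField IsDedekindDomain Ideal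

namespace Fermat.Agent.S14

section

variable (p ℓ : ℕ) [hp : Fact p.Prime] [hℓ : Fact ℓ.Prime]
variable (K F : Type) [Field K] [NumberField K] [IsCyclotomicExtension {p} ℚ K]
  [Field F] [NumberField F] [Algebra K F] [IsCyclotomicExtension {ℓ} K F]

include K in
/-- `F = ℚ(ζ_p, ζ_ℓ)` is the `pℓ`-th cyclotomic field. -/
theorem ta_isCyclotomicExtension_mul (hℓp : ℓ ≠ p) : IsCyclotomicExtension {p * ℓ} ℚ F := by
  haveI : NeZero p := ⟨hp.out.ne_zero⟩
  haveI : NeZero ℓ := ⟨hℓ.out.ne_zero⟩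
  haveI : NeZero (p * ℓ) := ⟨mul_ne_zero hp.out.ne_zero hℓ.out.ne_zero⟩
  have h1 : IsCyclotomicExtension ({p} ∪ {ℓ}) ℚ F :=
    IsCyclotomicExtension.trans {p} {ℓ} ℚ K F (algebraMap K F).injective
  have hζp : IsPrimitiveRoot (algebraMap K F (IsCyclotomicExtension.zeta p ℚ K)) p :=
    (IsCyclotomicExtension.zeta_spec p ℚ K).map_of_injective (algebraMap K F).injective
  have hζℓ : IsPrimitiveRoot (IsCyclotomicExtension.zeta ℓ K F) ℓ :=
    IsCyclotomicExtension.zeta_spec ℓ K F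
  have hcop : Nat.Coprime p ℓ := (Nat.coprime_primes hp.out hℓ.out).mpr (Ne.symm hℓp)
  have hprod : IsPrimitiveRoot
      (algebraMap K F (IsCyclotomicExtension.zeta p ℚ K) * IsCyclotomicExtension.zeta ℓ K F)
      (p * ℓ) := by
    have h := (Commute.all (algebraMap K F (IsCyclotomicExtension.zeta p ℚ K))
      (IsCyclotomicExtension.zeta ℓ K F)).orderOf_mul_eq_mul_orderOf_of_coprime
      (by rw [← hζp.eq_orderOf, ← hζℓ.eq_orderOf]; exact hcop)
    rw [← hζp.eq_orderOf, ← hζℓ.eq_orderOf] at h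
    rw [← h]
    exact IsPrimitiveRoot.orderOf _
  have h2 : IsCyclotomicExtension ({p} ∪ {ℓ} ∪ {p * ℓ}) ℚ F :=
    IsCyclotomicExtension.union_of_isPrimitiveRoot _ ℚ F hprod
  have h3 : ({p} ∪ {ℓ} ∪ {p * ℓ} : Set ℕ) = ({p * ℓ} ∪ {p}) ∪ {ℓ} := by
    ext x; simp only [Set.mem_union, Set.mem_singleton_iff]; tauto
  rw [h3] at h2
  have h4 : IsCyclotomicExtension ({p * ℓ} ∪ {p}) ℚ F :=
    (IsCyclotomicExtension.iff_union_of_dvd (n := ℓ) (S := {p * ℓ} ∪ {p}) ℚ F
      ⟨p * ℓ, by simp, NeZero.ne _, dvd_mul_left _ _⟩).mpr h2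
  exact (IsCyclotomicExtension.iff_union_of_dvd (n := p) (S := {p * ℓ}) ℚ F
      ⟨p * ℓ, by simp, NeZero.ne _, dvd_mul_right _ _⟩).mpr h4

include hp in
/-- `[F : K] = ℓ - 1`. -/
theorem ta_finrank (hℓp : ℓ ≠ p) : Module.finrank K F = ℓ - 1 := by
  haveI : NeZero p := ⟨hp.out.ne_zero⟩
  haveI : NeZero ℓ := ⟨hℓ.out.ne_zero⟩
  haveI : NeZero (p * ℓ) := ⟨mul_ne_zero hp.out.ne_zero hℓ.out.ne_zero⟩
  haveI := ta_isCyclotomicExtension_mul p ℓ K F hℓp
  have hcop : Nat.Coprime p ℓ := (Nat.coprime_primes hp.out hℓ.out).mpr (Ne.symm hℓp)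
  have hF : Module.finrank ℚ F = (p - 1) * (ℓ - 1) := by
    rw [IsCyclotomicExtension.finrank (n := p * ℓ) F
      (Polynomial.cyclotomic.irreducible_rat (NeZero.pos _)), Nat.totient_mul hcop,
      Nat.totient_prime hp.out, Nat.totient_prime hℓ.out]
  have hK : Module.finrank ℚ K = p - 1 := by
    rw [IsCyclotomicExtension.finrank (n := p) K
      (Polynomial.cyclotomic.irreducible_rat (NeZero.pos _)), Nat.totient_prime hp.out]
  have htower := Module.finrank_mul_finrank ℚ K F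
  rw [hF, hK] at htower
  have hp1 : 0 < p - 1 := Nat.sub_pos_of_lt hp.out.one_lt
  exact Nat.eq_of_mul_eq_mul_left hp1 htower

include hp F in
/-- The `ℓ`-th cyclotomic polynomial is irreducible over `K = ℚ(ζ_p)`. -/
theorem ta_irreducible (hℓp : ℓ ≠ p) : Irreducible (Polynomial.cyclotomic ℓ K) := by
  haveI : NeZero ℓ := ⟨hℓ.out.ne_zero⟩
  have hζ : IsPrimitiveRoot (IsCyclotomicExtension.zeta ℓ K F) ℓ :=
    IsCyclotomicExtension.zeta_spec ℓ K F
  have hint : IsIntegral K (IsCyclotomicExtension.zeta ℓ K F) :=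
    (IsCyclotomicExtension.integral {ℓ} K F).isIntegral _
  have hdvd : minpoly K (IsCyclotomicExtension.zeta ℓ K F) ∣ Polynomial.cyclotomic ℓ K := by
    apply minpoly.dvd
    have := hζ.isRoot_cyclotomic (NeZero.pos ℓ)
    rw [← Polynomial.map_cyclotomic ℓ (algebraMap K F)] at this
    simpa [Polynomial.aeval_def, Polynomial.eval₂_eq_eval_map] using this
  have hdeg : (minpoly K (IsCyclotomicExtension.zeta ℓ K F)).natDegree = ℓ - 1 := by
    rw [← IsPrimitiveRoot.powerBasis_dim K hζ, ← PowerBasis.finrank, ta_finrank p ℓ K F hℓp]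
  have heq : Polynomial.cyclotomic ℓ K = minpoly K (IsCyclotomicExtension.zeta ℓ K F) := by
    apply Polynomial.eq_of_monic_of_dvd_of_natDegree_le (minpoly.monic hint)
      (Polynomial.cyclotomic.monic ℓ K) hdvd
    rw [hdeg, Polynomial.natDegree_cyclotomic, Nat.totient_prime hℓ.out]
  rw [heq]
  exact minpoly.irreducible hint

/-- Ramification index over `ℤ` of a prime `P` of `𝓞 K`, `K = ℚ(ζ_p)`, above a rational prime. -/
theorem ta_ramIdx_K (q : ℕ) [hq : Fact q.Prime] (P : Ideal (𝓞 K)) [P.IsPrime]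
    [P.LiesOver (span {(q : ℤ)})] :
    P.ramificationIdx ℤ = if q = p then p - 1 else 1 := by
  haveI : NeZero p := ⟨hp.out.ne_zero⟩
  split_ifs with h
  · subst h
    exact IsCyclotomicExtension.Rat.ramificationIdx_eq_of_prime q K P
  · exact IsCyclotomicExtension.Rat.ramificationIdx_eq_of_not_dvd q K P
      (fun hd => h ((Nat.prime_dvd_prime_iff_eq hq.out hp.out).mp hd))

include K in
/-- Ramification index over `ℤ` of a prime `P` of `𝓞 F`, `F = ℚ(ζ_p, ζ_ℓ)`. -/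
theorem ta_ramIdx_F (hℓp : ℓ ≠ p) (q : ℕ) [hq : Fact q.Prime] (P : Ideal (𝓞 F)) [P.IsPrime]
    [P.LiesOver (span {(q : ℤ)})] :
    P.ramificationIdx ℤ = if q = p then p - 1 else if q = ℓ then ℓ - 1 else 1 := by
  haveI : NeZero p := ⟨hp.out.ne_zero⟩
  haveI : NeZero ℓ := ⟨hℓ.out.ne_zero⟩
  haveI : NeZero (p * ℓ) := ⟨mul_ne_zero hp.out.ne_zero hℓ.out.ne_zero⟩
  haveI := ta_isCyclotomicExtension_mul p ℓ K F hℓp
  split_ifs with h h'
  · subst h
    have := IsCyclotomicExtension.Rat.ramificationIdx_eq (q * ℓ) (m := ℓ) (p := q) (k := 0) F P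
      (by ring) (fun hd => hℓp ((Nat.prime_dvd_prime_iff_eq hq.out hℓ.out).mp hd).symm)
    simpa using this
  · subst h'
    have := IsCyclotomicExtension.Rat.ramificationIdx_eq (p * q) (m := p) (p := q) (k := 0) F P
      (by ring) (fun hd => h ((Nat.prime_dvd_prime_iff_eq hq.out hp.out).mp hd))
    simpa using this
  · exact IsCyclotomicExtension.Rat.ramificationIdx_eq_of_not_dvd (m := p * ℓ) q F P
      (fun hd => by
        rcases (Nat.Prime.dvd_mul hq.out).mp hd with hd | hd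
        · exact h ((Nat.prime_dvd_prime_iff_eq hq.out hp.out).mp hd)
        · exact h' ((Nat.prime_dvd_prime_iff_eq hq.out hℓ.out).mp hd))

open scoped Classical in
/-- The relative ramification index of `w ∣ u` in `F / K`. -/
theorem ta_ramIdx_rel (hℓp : ℓ ≠ p) (u : Ideal (𝓞 K)) (w : Ideal (𝓞 F)) [hwp : w.IsPrime]
    (hw : w ≠ ⊥) [hwu : w.LiesOver u] :
    u.ramificationIdx' w = if (ℓ : 𝓞 K) ∈ u then ℓ - 1 else 1 := by
  haveI : u.IsPrime := isPrime_of_liesOver w u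
  have hu : u ≠ ⊥ := by
    intro h
    apply hw
    have := hwu.over
    rw [h] at this
    exact eq_bot_of_comap_eq_bot this.symm
  haveI : NeZero u := ⟨hu⟩
  set q := absNorm (under ℤ u) with hq_def
  have hqprime : q.Prime := Nat.absNorm_under_prime u
  haveI : Fact q.Prime := ⟨hqprime⟩
  haveI huq : u.LiesOver (span {(q : ℤ)}) := Int.liesOver_span_absNorm u
  haveI hwq : w.LiesOver (span {(q : ℤ)}) := LiesOver.trans w u _
  have hq0 : (span {(q : ℤ)} : Ideal ℤ) ≠ ⊥ := by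
    simp [hqprime.ne_zero]
  have htower := ramificationIdx'_algebra_tower' (span {(q : ℤ)}) u w
  rw [ramificationIdx'_eq_ramificationIdx (span {(q : ℤ)}) w hq0,
    ramificationIdx'_eq_ramificationIdx (span {(q : ℤ)}) u hq0,
    ta_ramIdx_F p ℓ K F hℓp q w, ta_ramIdx_K p K q u] at htower
  have hmem : (ℓ : 𝓞 K) ∈ u ↔ q = ℓ := by
    have h1 : ((ℓ : ℤ) : 𝓞 K) ∈ u ↔ (q : ℤ) ∣ (ℓ : ℤ) := Int.cast_mem_ideal_iff
    rw [Int.cast_natCast, Int.natCast_dvd_natCast, Nat.prime_dvd_prime_iff_eq hqprime hℓ.out]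
      at h1
    exact h1
  have hp1 : 0 < p - 1 := Nat.sub_pos_of_lt hp.out.one_lt
  by_cases hqp : q = p
  · have hql : q ≠ ℓ := fun h => hℓp (h.symm.trans hqp)
    rw [if_pos hqp, if_pos hqp] at htower
    rw [if_neg (fun h => hql (hmem.mp h))]
    exact (Nat.eq_of_mul_eq_mul_left hp1 (by rw [mul_one]; exact htower.symm))
  · rw [if_neg hqp, if_neg hqp, one_mul] at htower
    by_cases hql : q = ℓ
    · rw [if_pos hql] at htower
      rw [if_pos (hmem.mpr hql)]
      exact htower.symm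
    · rw [if_neg hql] at htower
      rw [if_neg (fun h => hql (hmem.mp h))]
      exact htower.symm


/-- `F / K` is unramified at the primes not above `ℓ`. -/
theorem ta_ramIdx_rel_of_not_mem (hℓp : ℓ ≠ p) (u : Ideal (𝓞 K)) (w : Ideal (𝓞 F)) [w.IsPrime]
    (hw : w ≠ ⊥) [w.LiesOver u] (hu : (ℓ : 𝓞 K) ∉ u) : u.ramificationIdx' w = 1 := by
  classical
  rw [ta_ramIdx_rel p ℓ K F hℓp u w hw, if_neg hu]

/-- `F / K` is totally ramified at the primes above `ℓ`. -/
theorem ta_ramIdx_rel_of_mem (hℓp : ℓ ≠ p) (u : Ideal (𝓞 K)) (w : Ideal (𝓞 F)) [w.IsPrime]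
    (hw : w ≠ ⊥) [w.LiesOver u] (hu : (ℓ : 𝓞 K) ∈ u) : u.ramificationIdx' w = ℓ - 1 := by
  classical
  rw [ta_ramIdx_rel p ℓ K F hℓp u w hw, if_pos hu]

end

end Fermat.Agent.S14


end ZBZ2S14_021_0

/-! ### bundled: `Fermat.Agent.S14.ThaineGal` -/
section ZBZ2S14_021_1

/-!
# S14, piece N2g: the Galois group of `F = K(ζ_ℓ)` over `K = ℚ(ζ_p)` is cyclic of order `ℓ - 1`
-/

set_option autoImplicit false
set_option linter.style.haveILetI false

open NumberField IsDedekindDomain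

namespace Fermat.Agent.S14

/-- **N2g**. -/
theorem thaineGalStatement (p : ℕ) [hp : Fact p.Prime] : ThaineGalStatement p := by
  intro K _ _ _ ℓ hℓ hℓp F _ _ _ _
  haveI : Fact ℓ.Prime := ⟨hℓ⟩
  haveI : NeZero ℓ := ⟨hℓ.ne_zero⟩
  refine ⟨ta_finrank p ℓ K F hℓp, ?_⟩
  have hirr : Irreducible (Polynomial.cyclotomic ℓ K) := ta_irreducible p ℓ K F hℓp
  let e : (F ≃ₐ[K] F) ≃* (ZMod ℓ)ˣ := IsCyclotomicExtension.autEquivPow F hirr
  haveI : IsCyclic (ZMod ℓ)ˣ := inferInstance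
  haveI : IsCyclic (F ≃ₐ[K] F) := isCyclic_of_surjective e.symm e.symm.surjective
  obtain ⟨τ, hτ⟩ := IsCyclic.exists_generator (α := F ≃ₐ[K] F)
  have hζ₀ : IsPrimitiveRoot (IsCyclotomicExtension.zeta ℓ K F) ℓ :=
    IsCyclotomicExtension.zeta_spec ℓ K F
  refine ⟨τ, ((hζ₀.autToPow K τ : (ZMod ℓ)ˣ) : ZMod ℓ).val, hτ, ?_⟩
  intro ζℓ hζℓ
  obtain ⟨i, -, hi⟩ := hζ₀.eq_pow_of_pow_eq_one hζℓ.pow_eq_one
  have h0 := hζ₀.autToPow_spec K τ
  rw [← hi, map_pow, ← h0, ← pow_mul, ← pow_mul, mul_comm]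

end Fermat.Agent.S14


end ZBZ2S14_021_1

/-! ### bundled: `Fermat.Agent.S14.ThaineNorm` -/
section ZBZ2S14_021_2

/-!
# S14, piece N2n: `N_{F/K}(1 + ζ_p ζ_ℓ) = 1` for `ℓ ≡ 1 mod p`, `p` odd
-/

set_option autoImplicit false
set_option linter.style.haveILetI false

open NumberField IsDedekindDomain Polynomial

namespace Fermat.Agent.S14

/-- In a domain containing a primitive `ℓ`-th root of unity (`ℓ` an odd prime), the product of
`1 + μ y` over the primitive `ℓ`-th roots of unity `μ`, times `1 + y`, is `1 + y ^ ℓ`. -/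
theorem thaineNorm_prod_primitiveRoots {E : Type*} [CommRing E] [IsDomain E] {ℓ : ℕ}
    (hℓ : ℓ.Prime) (hodd : Odd ℓ) {μ₀ : E} (hμ₀ : IsPrimitiveRoot μ₀ ℓ) (y : E) :
    (1 + y) * ∏ μ ∈ primitiveRoots ℓ E, (1 + μ * y) = 1 + y ^ ℓ := by
  classical
  have h := hμ₀.pow_add_pow_eq_prod_add_mul (1 : E) y hodd
  rw [one_pow] at h
  rw [h, IsPrimitiveRoot.nthRoots_one_eq_biUnion_primitiveRoots, hℓ.divisors]
  have hdisj : Disjoint (primitiveRoots 1 E) (primitiveRoots ℓ E) :=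
    IsPrimitiveRoot.disjoint hℓ.one_lt.ne
  rw [show ({1, ℓ} : Finset ℕ) = insert 1 {ℓ} from rfl, Finset.biUnion_insert,
    Finset.singleton_biUnion, Finset.prod_union hdisj, IsPrimitiveRoot.primitiveRoots_one,
    Finset.prod_singleton, one_mul]

/-- **N2n**. -/
theorem thaineNormStatement (p : ℕ) [hp : Fact p.Prime] (h3 : 3 ≤ p) : ThaineNormStatement p := by
  intro K _ _ _ ℓ hℓ hℓp hmod F _ _ _ _ ζ ζℓ hζ hζℓ
  haveI : Fact ℓ.Prime := ⟨hℓ⟩
  haveI : NeZero ℓ := ⟨hℓ.ne_zero⟩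
  have hirr : Irreducible (cyclotomic ℓ K) := ta_irreducible p ℓ K F hℓp
  -- `ℓ` is odd
  have hodd : Odd ℓ := by
    rcases hℓ.eq_two_or_odd' with h2 | h
    · exfalso
      subst h2
      rw [Nat.mod_eq_of_lt (by omega)] at hmod
      omega
    · exact h
  let E := AlgebraicClosure F
  haveI := IsCyclotomicExtension.finiteDimensional {ℓ} K F
  haveI := IsCyclotomicExtension.isGalois {ℓ} K F
  apply (algebraMap K E).injective
  rw [Algebra.norm_eq_prod_embeddings K E, map_one]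
  -- the image of `ζ` in `E`
  set y : E := algebraMap K E ζ with hy
  have hyprim : IsPrimitiveRoot y p := hζ.map_of_injective (algebraMap K E).injective
  have hσ : ∀ σ : F →ₐ[K] E, σ (1 + algebraMap K F ζ * ζℓ) = 1 + σ ζℓ * y := by
    intro σ
    rw [map_add, map_one, map_mul, AlgHom.commutes, mul_comm]
  simp_rw [hσ]
  have Hprod : (∏ σ : F →ₐ[K] E, (1 + σ ζℓ * y)) = ∏ μ ∈ primitiveRoots ℓ E, (1 + μ * y) := by
    rw [← Finset.prod_attach (primitiveRoots ℓ E), ← Finset.univ_eq_attach]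
    refine Fintype.prod_equiv (hζℓ.embeddingsEquivPrimitiveRoots E hirr) _ _ fun σ => ?_
    simp
  rw [Hprod]
  have hμ₀ : IsPrimitiveRoot (algebraMap F E ζℓ) ℓ :=
    hζℓ.map_of_injective (algebraMap F E).injective
  have hmain := thaineNorm_prod_primitiveRoots hℓ hodd hμ₀ y
  -- `y ^ ℓ = y`
  have hyℓ : y ^ ℓ = y := by
    conv_lhs => rw [← Nat.div_add_mod ℓ p, hmod, pow_add, pow_mul, hyprim.pow_eq_one, one_pow,
      one_mul, pow_one]
  rw [hyℓ] at hmain
  -- `1 + y ≠ 0`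
  have hne : (1 + y : E) ≠ 0 := by
    intro h0
    have hy1 : y = -1 := by linear_combination h0
    have hy2 : y ^ 2 = 1 := by rw [hy1]; ring
    have := hyprim.dvd_of_pow_eq_one 2 hy2
    have := Nat.le_of_dvd (by norm_num) this
    omega
  exact mul_left_cancel₀ hne (by rw [hmain, mul_one])

end Fermat.Agent.S14


end ZBZ2S14_021_2
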