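/- GENERATED FILE (helper35, build-time optimisation, NOTES/ZB.md): verbatim concatenation of the modules
   Fermat.Agent.S14.ThaineRamAux
   Fermat.Agent.S14.ThaineRam
   Fermat.Agent.S14
   Do not edit; do not import together with these modules. -/
import Mathlib
import Fermat.Agent.ZB.Z2S14_020
import Fermat.Statements.S14
import Fermat.Agent.ZB.Z2S14_016
import Fermat.Agent.ZB.Z2S14_019
import Fermat.Agent.ZB.S14_006
import Fermat.Agent.ZB.Z2S14_021

/-! ### bundled: `Fermat.Agent.S14.ThaineRamAux` -/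
section ZBZ2S14_022_0
/-
S14 piece N2a (helper72): arithmetic of `F = K(ζ_ℓ)` over `K = ℚ(ζ_p)` for Thaine's relation.
`p ≠ ℓ` primes, `K` a `p`-th cyclotomic extension of `ℚ`, `F` an `ℓ`-th cyclotomic extension of `K`.
-/

set_option autoImplicit false
set_option linter.unusedSectionVars false

open NumberField IsDedekindDomain Ideal

namespace Fermat.Agent.S14.ThaineRamAux

section Setup

/-- `F = ℚ(ζ_{pℓ})`. -/
theorem isCyclotomicExtension_mul (p ℓ : ℕ) [hp : Fact p.Prime] [hℓ : Fact ℓ.Prime]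
    (K : Type) [Field K] [NumberField K] [IsCyclotomicExtension {p} ℚ K]
    (F : Type) [Field F] [NumberField F] [Algebra K F] [IsCyclotomicExtension {ℓ} K F]
    (hpℓ : p ≠ ℓ) : IsCyclotomicExtension {p * ℓ} ℚ F := by
  have h1 : IsCyclotomicExtension ({p} ∪ {ℓ}) ℚ F :=
    IsCyclotomicExtension.trans {p} {ℓ} ℚ K F (algebraMap K F).injective
  have hζp : IsPrimitiveRoot (algebraMap K F (IsCyclotomicExtension.zeta p ℚ K)) p :=
    (IsCyclotomicExtension.zeta_spec p ℚ K).map_of_injective (algebraMap K F).injective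
  have hζℓ : IsPrimitiveRoot (IsCyclotomicExtension.zeta ℓ K F) ℓ :=
    IsCyclotomicExtension.zeta_spec ℓ K F
  have hcop : Nat.Coprime p ℓ := (Nat.coprime_primes hp.out hℓ.out).mpr hpℓ
  have hprim : IsPrimitiveRoot
      (algebraMap K F (IsCyclotomicExtension.zeta p ℚ K) * IsCyclotomicExtension.zeta ℓ K F)
      (p * ℓ) := by
    rw [IsPrimitiveRoot.iff_orderOf,
      (Commute.all _ _).orderOf_mul_eq_mul_orderOf_of_coprime
        (by rw [← hζp.eq_orderOf, ← hζℓ.eq_orderOf]; exact hcop),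
      ← hζp.eq_orderOf, ← hζℓ.eq_orderOf]
  have : NeZero (p * ℓ) := ⟨Nat.mul_ne_zero hp.out.ne_zero hℓ.out.ne_zero⟩
  have : NeZero p := ⟨hp.out.ne_zero⟩
  have : NeZero ℓ := ⟨hℓ.out.ne_zero⟩
  have h2 : IsCyclotomicExtension ({p} ∪ {ℓ} ∪ {p * ℓ}) ℚ F :=
    IsCyclotomicExtension.union_of_isPrimitiveRoot _ ℚ F hprim
  -- now remove `p` and `ℓ`
  have h3 : IsCyclotomicExtension ({p * ℓ} ∪ {p}) ℚ F ↔ IsCyclotomicExtension {p * ℓ} ℚ F :=
    (IsCyclotomicExtension.iff_union_of_dvd (S := {p * ℓ}) ℚ F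
      ⟨p * ℓ, Set.mem_singleton _, NeZero.ne _, dvd_mul_right p ℓ⟩).symm
  have h4 : IsCyclotomicExtension ({p * ℓ} ∪ {p} ∪ {ℓ}) ℚ F ↔
      IsCyclotomicExtension ({p * ℓ} ∪ {p}) ℚ F :=
    (IsCyclotomicExtension.iff_union_of_dvd (S := {p * ℓ} ∪ {p}) ℚ F
      ⟨p * ℓ, Or.inl (Set.mem_singleton _), NeZero.ne _, dvd_mul_left ℓ p⟩).symm
  have e : ({p} ∪ {ℓ} ∪ {p * ℓ} : Set ℕ) = {p * ℓ} ∪ {p} ∪ {ℓ} := by
    ext x; simp only [Set.mem_union, Set.mem_singleton_iff]; tauto
  rw [e] at h2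
  exact h3.mp (h4.mp h2)

end Setup

section Ram

variable {p ℓ : ℕ} [hp : Fact p.Prime] [hℓ : Fact ℓ.Prime]
  {F : Type} [Field F] [NumberField F]

/-- Ramification index over `ℤ` of a prime of `F = ℚ(ζ_{pℓ})` above the rational prime `q`. -/
theorem ramificationIdx_int_F (K : Type) [Field K] [NumberField K] [IsCyclotomicExtension {p} ℚ K]
    [Algebra K F] [IsCyclotomicExtension {ℓ} K F] (hpℓ : p ≠ ℓ) (q : ℕ) [hq : Fact q.Prime]
    (Q : Ideal (𝓞 F)) [Q.IsPrime] [Q.LiesOver (span {(q : ℤ)})] :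
    Q.ramificationIdx ℤ = if q = p then p - 1 else if q = ℓ then ℓ - 1 else 1 := by
  have : IsCyclotomicExtension {p * ℓ} ℚ F := isCyclotomicExtension_mul p ℓ K F hpℓ
  have : NeZero (p * ℓ) := ⟨Nat.mul_ne_zero hp.out.ne_zero hℓ.out.ne_zero⟩
  split_ifs with h1 h2
  · subst h1
    have := IsCyclotomicExtension.Rat.ramificationIdx_eq (q * ℓ) (m := ℓ) (p := q) (k := 0) F Q
      (by simp) (fun h => hpℓ ((Nat.prime_dvd_prime_iff_eq hq.out hℓ.out).mp h))
    simpa using this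
  · subst h2
    have := IsCyclotomicExtension.Rat.ramificationIdx_eq (p * q) (m := p) (p := q) (k := 0) F Q
      (by simp [mul_comm]) (fun h => hpℓ ((Nat.prime_dvd_prime_iff_eq hq.out hp.out).mp h).symm)
    simpa using this
  · exact IsCyclotomicExtension.Rat.ramificationIdx_eq_of_not_dvd q F Q
      (fun h => by
        rcases (Nat.Prime.dvd_mul hq.out).mp h with h | h
        · exact h1 ((Nat.prime_dvd_prime_iff_eq hq.out hp.out).mp h)
        · exact h2 ((Nat.prime_dvd_prime_iff_eq hq.out hℓ.out).mp h))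

/-- Ramification index over `ℤ` of a prime of `K = ℚ(ζ_p)` above the rational prime `q`. -/
theorem ramificationIdx_int_K {K : Type} [Field K] [NumberField K]
    [IsCyclotomicExtension {p} ℚ K] (q : ℕ) [hq : Fact q.Prime]
    (P : Ideal (𝓞 K)) [P.IsPrime] [P.LiesOver (span {(q : ℤ)})] :
    P.ramificationIdx ℤ = if q = p then p - 1 else 1 := by
  have : NeZero p := ⟨hp.out.ne_zero⟩
  split_ifs with h1
  · subst h1
    have := IsCyclotomicExtension.Rat.ramificationIdx_eq q (m := 1) (p := q) (k := 0) K P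
      (by simp) (fun h => hq.out.one_lt.ne' (Nat.dvd_one.mp h))
    simpa using this
  · exact IsCyclotomicExtension.Rat.ramificationIdx_eq_of_not_dvd q K P
      (fun h => h1 ((Nat.prime_dvd_prime_iff_eq hq.out hp.out).mp h))


/-- `(ℓ : 𝓞 F) ∈ Q` iff the rational prime below `Q` is `ℓ`. -/
theorem natCast_mem_iff (Q : Ideal (𝓞 F)) [Q.IsPrime] [NeZero Q] :
    (ℓ : 𝓞 F) ∈ Q ↔ absNorm (under ℤ Q) = ℓ := by
  have hq : (absNorm (under ℤ Q)).Prime := Nat.absNorm_under_prime Q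
  have := Int.cast_mem_ideal_iff (I := Q) (d := (ℓ : ℤ))
  rw [Int.cast_natCast, Int.natCast_dvd_natCast, Nat.prime_dvd_prime_iff_eq hq hℓ.out] at this
  exact this

/-- Ramification index of a prime of `F` over `K`, in terms of the rational prime below. -/
theorem ramificationIdx_rel_aux (K : Type) [Field K] [NumberField K]
    [IsCyclotomicExtension {p} ℚ K]
    [Algebra K F] [IsCyclotomicExtension {ℓ} K F] (hpℓ : p ≠ ℓ)
    (Q : Ideal (𝓞 F)) [Q.IsPrime] [NeZero Q] :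
    Q.ramificationIdx (𝓞 K) = if absNorm (under ℤ Q) = ℓ then ℓ - 1 else 1 := by
  have hq : Fact (absNorm (under ℤ Q)).Prime := ⟨Nat.absNorm_under_prime Q⟩
  set q := absNorm (under ℤ Q) with hqdef
  have hQq : Q.LiesOver (span {(q : ℤ)}) := Int.liesOver_span_absNorm Q
  have hPq : (under (𝓞 K) Q).LiesOver (span {(q : ℤ)}) :=
    LiesOver.tower_bot Q (under (𝓞 K) Q) (span {(q : ℤ)})
  have htower := ramificationIdx_tower (R := ℤ) (under (𝓞 K) Q) Q
  rw [ramificationIdx_int_F K hpℓ q Q, ramificationIdx_int_K (p := p) q (under (𝓞 K) Q)] at htower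
  have hp1 : p - 1 ≠ 0 := Nat.sub_ne_zero_of_lt hp.out.one_lt
  by_cases h1 : q = p
  · have h2 : q ≠ ℓ := fun h => hpℓ (h1.symm.trans h)
    rw [if_pos h1, if_pos h1] at htower
    rw [if_neg h2]
    exact (Nat.eq_of_mul_eq_mul_left (Nat.pos_of_ne_zero hp1) (by rw [mul_one]; exact htower)).symm
  · rw [if_neg h1, if_neg h1, one_mul] at htower
    by_cases h2 : q = ℓ
    · rw [if_pos h2] at htower ⊢
      exact htower.symm
    · rw [if_neg h2] at htower ⊢
      exact htower.symm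

/-- Primes of `F` above `ℓ` have ramification index `ℓ - 1` over `K`. -/
theorem ramificationIdx_rel_of_mem (K : Type) [Field K] [NumberField K]
    [IsCyclotomicExtension {p} ℚ K]
    [Algebra K F] [IsCyclotomicExtension {ℓ} K F] (hpℓ : p ≠ ℓ)
    (Q : Ideal (𝓞 F)) [Q.IsPrime] [NeZero Q] (h : (ℓ : 𝓞 F) ∈ Q) :
    Q.ramificationIdx (𝓞 K) = ℓ - 1 := by
  rw [ramificationIdx_rel_aux K hpℓ Q, if_pos ((natCast_mem_iff Q).mp h)]

/-- Primes of `F` not above `ℓ` are unramified over `K`. -/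
theorem ramificationIdx_rel_of_notMem (K : Type) [Field K] [NumberField K]
    [IsCyclotomicExtension {p} ℚ K]
    [Algebra K F] [IsCyclotomicExtension {ℓ} K F] (hpℓ : p ≠ ℓ)
    (Q : Ideal (𝓞 F)) [Q.IsPrime] [NeZero Q] (h : (ℓ : 𝓞 F) ∉ Q) :
    Q.ramificationIdx (𝓞 K) = 1 := by
  rw [ramificationIdx_rel_aux K hpℓ Q, if_neg (fun h' => h ((natCast_mem_iff Q).mpr h'))]

end Ram

end Fermat.Agent.S14.ThaineRamAux


end ZBZ2S14_022_0

/-! ### bundled: `Fermat.Agent.S14.ThaineRam` -/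
section ZBZ2S14_022_1
/-
S14 piece N2r (helper72): ramification in `F = K(ζ_ℓ)` over `K = ℚ(ζ_p)`.
-/

set_option autoImplicit false
set_option linter.unusedSectionVars false

open NumberField IsDedekindDomain Ideal

namespace Fermat.Agent.S14

namespace ThaineRamAux

/-- `(1 - ζ)^(ℓ-1)` is associated to `ℓ` for a primitive `ℓ`-th root of unity `ζ`, `ℓ` prime. -/
theorem associated_one_sub_pow {ℓ : ℕ} (hℓ : ℓ.Prime) {R : Type} [CommRing R] [IsDomain R]
    {ζ : R} (hζ : IsPrimitiveRoot ζ ℓ) :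
    Associated ((1 - ζ) ^ (ℓ - 1)) (ℓ : R) := by
  obtain ⟨n, rfl⟩ : ∃ n, ℓ = n + 1 := ⟨ℓ - 1, (Nat.succ_pred_eq_of_pos hℓ.pos).symm⟩
  have h := hζ.prod_one_sub_pow_eq_order
  rw [Nat.add_sub_cancel, Nat.cast_add, Nat.cast_one, ← h]
  have e : (1 - ζ) ^ n = ∏ _k ∈ Finset.range n, (1 - ζ) := by
    rw [Finset.prod_const, Finset.card_range]
  rw [e]
  refine Associated.prod _ _ _ fun k hk => ?_
  have hk' : k < n := Finset.mem_range.mp hk
  have hcop : (k + 1).Coprime (n + 1) := by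
    refine ((Nat.Prime.coprime_iff_not_dvd hℓ).mpr ?_).symm
    exact Nat.not_dvd_of_pos_of_lt (Nat.succ_pos k) (by omega)
  have := hζ.associated_sub_one_pow_sub_one_of_coprime hcop
  have h2 := this.neg_left.neg_right
  rwa [neg_sub, neg_sub] at h2

section

variable {p ℓ : ℕ} [hp : Fact p.Prime] [hℓ : Fact ℓ.Prime]
  {F : Type} [Field F] [NumberField F]

/-- the valuation of a unit is `1` -/
theorem intValuation_of_isUnit (w : HeightOneSpectrum (𝓞 F)) {x : 𝓞 F} (hx : IsUnit x) :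
    w.intValuation x = 1 := by
  rw [HeightOneSpectrum.intValuation_eq_one_iff_mem_primeCompl]
  intro h
  exact w.isPrime.ne_top (Ideal.eq_top_of_isUnit_mem _ h hx)

/-- associated elements have the same valuation -/
theorem intValuation_of_associated (w : HeightOneSpectrum (𝓞 F)) {x y : 𝓞 F}
    (h : Associated x y) : w.intValuation x = w.intValuation y := by
  obtain ⟨u, rfl⟩ := h
  rw [map_mul, intValuation_of_isUnit w u.isUnit, mul_one]

/-- The valuation of `ℓ` at a prime of `F` above `ℓ`. -/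
theorem intValuation_natCast (K : Type) [Field K] [NumberField K]
    [IsCyclotomicExtension {p} ℚ K] [Algebra K F] [IsCyclotomicExtension {ℓ} K F] (hpℓ : p ≠ ℓ)
    (w : HeightOneSpectrum (𝓞 F)) (hw : (ℓ : 𝓞 F) ∈ w.asIdeal) :
    w.intValuation (ℓ : 𝓞 F) = WithZero.exp (-1 : ℤ) ^ (ℓ - 1) := by
  have hℓ0 : (ℓ : ℤ) ≠ 0 := Int.natCast_ne_zero.mpr hℓ.out.ne_zero
  have hprime : (span {(ℓ : ℤ)}).IsPrime :=
    (span_singleton_prime hℓ0).mpr (Nat.prime_iff_prime_int.mp hℓ.out)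
  let vℓ : HeightOneSpectrum ℤ := ⟨span {(ℓ : ℤ)}, hprime, by
    rw [Ne, span_singleton_eq_bot]; exact hℓ0⟩
  have : NeZero w.asIdeal := ⟨w.ne_bot⟩
  have habs : absNorm (under ℤ w.asIdeal) = ℓ := (natCast_mem_iff w.asIdeal).mp hw
  have hlo : w.asIdeal.LiesOver (span {(ℓ : ℤ)}) := by
    have := Int.liesOver_span_absNorm w.asIdeal
    rwa [habs] at this
  have hlo' : w.asIdeal.LiesOver vℓ.asIdeal := hlo
  have h1 := HeightOneSpectrum.intValuation_liesOver vℓ w (ℓ : ℤ)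
  have h2 : vℓ.asIdeal.ramificationIdx' w.asIdeal = ℓ - 1 := by
    rw [ramificationIdx'_eq_ramificationIdx vℓ.asIdeal w.asIdeal vℓ.ne_bot]
    have := ramificationIdx_int_F K hpℓ ℓ w.asIdeal
    rw [if_neg (Ne.symm hpℓ), if_pos rfl] at this
    exact this
  have h3 : vℓ.intValuation (ℓ : ℤ) = WithZero.exp (-1 : ℤ) :=
    HeightOneSpectrum.intValuation_singleton vℓ hℓ0 rfl
  rw [h2, h3] at h1
  rw [h1]
  simp

/-- The valuation of `1 - ζ_ℓ` at a prime of `F` above `ℓ` is `exp (-1)`. -/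
theorem intValuation_one_sub (K : Type) [Field K] [NumberField K]
    [IsCyclotomicExtension {p} ℚ K] [Algebra K F] [IsCyclotomicExtension {ℓ} K F] (hpℓ : p ≠ ℓ)
    (w : HeightOneSpectrum (𝓞 F)) (hw : (ℓ : 𝓞 F) ∈ w.asIdeal)
    (ζℓ : 𝓞 F) (hζ : IsPrimitiveRoot ζℓ ℓ) :
    w.intValuation (1 - ζℓ) = WithZero.exp (-1 : ℤ) := by
  have h1 := intValuation_of_associated w (associated_one_sub_pow hℓ.out hζ)
  rw [map_pow, intValuation_natCast K hpℓ w hw] at h1
  have hne : (1 : 𝓞 F) - ζℓ ≠ 0 := by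
    rw [sub_ne_zero]
    exact fun h => hζ.ne_one hℓ.out.one_lt h.symm
  rw [HeightOneSpectrum.intValuation_eq_exp_neg_multiplicity w hne] at h1 ⊢
  rw [← WithZero.exp_nsmul, ← WithZero.exp_nsmul, WithZero.exp_inj] at h1
  rw [WithZero.exp_inj]
  have hℓ1 : (0 : ℤ) < ((ℓ - 1 : ℕ) : ℤ) := by
    have := hℓ.out.one_lt
    omega
  simp only [nsmul_eq_mul] at h1
  exact mul_left_cancel₀ hℓ1.ne' h1


/-- a primitive `ℓ`-th root of unity is `≡ 1` modulo a prime above `ℓ` -/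
theorem one_sub_mem (K : Type) [Field K] [NumberField K]
    [IsCyclotomicExtension {p} ℚ K] [Algebra K F] [IsCyclotomicExtension {ℓ} K F] (hpℓ : p ≠ ℓ)
    (w : HeightOneSpectrum (𝓞 F)) (hw : (ℓ : 𝓞 F) ∈ w.asIdeal)
    (ζℓ : 𝓞 F) (hζ : IsPrimitiveRoot ζℓ ℓ) : 1 - ζℓ ∈ w.asIdeal := by
  rw [← HeightOneSpectrum.intValuation_lt_one_iff_mem, intValuation_one_sub K hpℓ w hw ζℓ hζ]
  rw [← WithZero.exp_zero, WithZero.exp_lt_exp]
  norm_num

/-- `Gal(F/K)` acts trivially on `𝓞 F / w` for `w` above `ℓ`. -/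
theorem galRestrict_sub_mem (K : Type) [Field K] [NumberField K]
    [IsCyclotomicExtension {p} ℚ K] [Algebra K F] [IsCyclotomicExtension {ℓ} K F] (hpℓ : p ≠ ℓ)
    (w : HeightOneSpectrum (𝓞 F)) (hw : (ℓ : 𝓞 F) ∈ w.asIdeal)
    (g : F ≃ₐ[K] F) (x : 𝓞 F) :
    galRestrict (𝓞 K) K F (𝓞 F) g x - x ∈ w.asIdeal := by
  have : IsCyclotomicExtension {p * ℓ} ℚ F := isCyclotomicExtension_mul p ℓ K F hpℓ
  have : NeZero (p * ℓ) := ⟨Nat.mul_ne_zero hp.out.ne_zero hℓ.out.ne_zero⟩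
  have : NeZero p := ⟨hp.out.ne_zero⟩
  have : NeZero ℓ := ⟨hℓ.out.ne_zero⟩
  have hζp : IsPrimitiveRoot (IsCyclotomicExtension.zeta p ℚ K) p :=
    IsCyclotomicExtension.zeta_spec p ℚ K
  have hζpF : IsPrimitiveRoot (algebraMap K F (IsCyclotomicExtension.zeta p ℚ K)) p :=
    hζp.map_of_injective (algebraMap K F).injective
  have hζℓ : IsPrimitiveRoot (IsCyclotomicExtension.zeta ℓ K F) ℓ :=
    IsCyclotomicExtension.zeta_spec ℓ K F
  have hcop : Nat.Coprime p ℓ := (Nat.coprime_primes hp.out hℓ.out).mpr hpℓ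
  have hprim : IsPrimitiveRoot
      (algebraMap K F (IsCyclotomicExtension.zeta p ℚ K) * IsCyclotomicExtension.zeta ℓ K F)
      (p * ℓ) := by
    rw [IsPrimitiveRoot.iff_orderOf,
      (Commute.all _ _).orderOf_mul_eq_mul_orderOf_of_coprime
        (by rw [← hζpF.eq_orderOf, ← hζℓ.eq_orderOf]; exact hcop),
      ← hζpF.eq_orderOf, ← hζℓ.eq_orderOf]
  have htop := IsCyclotomicExtension.Rat.adjoin_singleton_eq_top hprim
  set G := galRestrict (𝓞 K) K F (𝓞 F) g with hG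
  -- the generator
  have hgen : hprim.toInteger = algebraMap (𝓞 K) (𝓞 F) hζp.toInteger * hζℓ.toInteger := by
    apply RingOfIntegers.ext
    change _ = algebraMap (𝓞 F) F (algebraMap (𝓞 K) (𝓞 F) hζp.toInteger * hζℓ.toInteger)
    rw [map_mul, ← IsScalarTower.algebraMap_apply (𝓞 K) (𝓞 F) F,
      IsScalarTower.algebraMap_apply (𝓞 K) K F]
    rfl
  have hx : x ∈ Algebra.adjoin ℤ {hprim.toInteger} := by rw [htop]; trivial
  induction hx using Algebra.adjoin_induction with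
  | mem y hy =>
    rw [Set.mem_singleton_iff] at hy
    subst hy
    rw [hgen, map_mul, AlgEquiv.commutes, ← mul_sub]
    refine Ideal.mul_mem_left _ _ ?_
    have h1 := one_sub_mem K hpℓ w hw _ hζℓ.toInteger_isPrimitiveRoot
    have h2 := one_sub_mem K hpℓ w hw _
      (hζℓ.toInteger_isPrimitiveRoot.map_of_injective (f := G) G.injective)
    have e : G hζℓ.toInteger - hζℓ.toInteger =
        (1 - hζℓ.toInteger) - (1 - G hζℓ.toInteger) := by ring
    rw [e]
    exact Ideal.sub_mem _ h1 h2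
  | algebraMap r =>
    rw [eq_intCast, map_intCast, sub_self]
    exact Ideal.zero_mem _
  | add y z _ _ hy hz =>
    have e : G (y + z) - (y + z) = (G y - y) + (G z - z) := by rw [map_add]; ring
    rw [e]
    exact Ideal.add_mem _ hy hz
  | mul y z _ _ hy hz =>
    have e : G (y * z) - y * z = (G y - y) * G z + y * (G z - z) := by rw [map_mul]; ring
    rw [e]
    exact Ideal.add_mem _ (Ideal.mul_mem_right _ _ hy) (Ideal.mul_mem_left _ _ hz)

end

end ThaineRamAux

/-- **N2r**: ramification in `F = K(ζ_ℓ)` over `K = ℚ(ζ_p)`. -/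
theorem thaineRamStatement {p : ℕ} [hp : Fact p.Prime] : ThaineRamStatement p := by
  intro K _ _ _ ℓ hℓ hℓp F _ _ _ _ w u hwu
  have : Fact ℓ.Prime := ⟨hℓ⟩
  have hpℓ : p ≠ ℓ := Ne.symm hℓp
  have : w.asIdeal.LiesOver u.asIdeal := ⟨hwu.symm⟩
  have : NeZero w.asIdeal := ⟨w.ne_bot⟩
  have hmem : (ℓ : 𝓞 K) ∈ u.asIdeal ↔ (ℓ : 𝓞 F) ∈ w.asIdeal := by
    rw [← hwu, Ideal.mem_comap, map_natCast]
  have hval := fun x => HeightOneSpectrum.intValuation_liesOver u w x
  have he : u.asIdeal.ramificationIdx' w.asIdeal = w.asIdeal.ramificationIdx (𝓞 K) :=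
    ramificationIdx'_eq_ramificationIdx u.asIdeal w.asIdeal u.ne_bot
  refine ⟨fun h x => ?_, fun h => ⟨fun x => ?_, ?_, ?_⟩⟩
  · rw [← hval x, he,
      ThaineRamAux.ramificationIdx_rel_of_notMem K hpℓ w.asIdeal (mt hmem.mpr h), pow_one]
  · rw [← hval x, he, ThaineRamAux.ramificationIdx_rel_of_mem K hpℓ w.asIdeal (hmem.mp h)]
  · exact fun ζℓ hζ => ThaineRamAux.intValuation_one_sub K hpℓ w (hmem.mp h) ζℓ hζ
  · exact fun g x => ThaineRamAux.galRestrict_sub_mem K hpℓ w (hmem.mp h) g x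

end Fermat.Agent.S14


end ZBZ2S14_022_1

/-! ### bundled: `Fermat.Agent.S14` -/
section ZBZ2S14_022_2
-- Statement S14 (row 13): ExtVanishingCts p for every prime p ≥ 3.
-- Route: Kummer theory + Thaine's relation + boundedness of class character L-series at 1
-- + equivariant unit theorem + local computation at the prime above p (see NOTES/S14.md).

set_option autoImplicit false
open ExtCitation

namespace Fermat.Agent.S14

theorem result {p : ℕ} [Fact p.Prime] (h3 : 3 ≤ p) :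
    ExtCitation.ExtVanishingCts p := by
  exact extVanishingCts_of_three h3 (decompStatement h3)
    (fun _ => thaineStatement_of_rel h3
      (thaineRelStatement h3 (thaineGalStatement p) thaineRamStatement
        (thaineNormStatement p h3)))
    lBoundedStatement

end Fermat.Agent.S14


end ZBZ2S14_022_2
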