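/- GENERATED FILE (helper35, build-time optimisation, NOTES/ZB.md): verbatim concatenation of the modules
   Fermat.Agent.S12.VeluDefs
   Fermat.Agent.S12.VeluPlan2
   Fermat.Agent.S12.VeluMain
   Fermat.Agent.S12.VeluQb
   Fermat.Agent.S12.VeluGal
   Fermat.Agent.S12.VeluPlan3
   Fermat.Agent.S12.VeluVC
   Fermat.Agent.S12.VeluDisc
   Fermat.Agent.S12.VeluShort
   Fermat.Agent.S12.VeluMap
   Fermat.Agent.S12.VeluC4Nodal
   Fermat.Agent.S12.VeluC4Red
   Fermat.Agent.S12.VeluC4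
   Fermat.Agent.S12.VeluFinal
   Fermat.Agent.S12.VeluRat
   Fermat.Agent.S12.VeluDone
   Fermat.Agent.S12.Final
   Do not edit; do not import together with these modules. -/
import Mathlib
import Fermat.Agent.ZB.Z2S12_001
import Fermat.Agent.ZB.EC_003
import Fermat.Agent.ZB.S05_002
import Fermat.Agent.ZB.Common_001
import Fermat.Agent.ZB.S05_001
import Fermat.Agent.ZB.Z2S15_002
import Fermat.Agent.ZB.Z2S12_003
import Fermat.Agent.ZB.Z2S15_007
import Fermat.Agent.ZB.Z2S15_004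
import Fermat.Agent.ZB.Z2S15_003
import Fermat.Agent.ZB.Z2S13_005
import Fermat.Agent.ZB.Z2S14_022

/-! ### bundled: `Fermat.Agent.S12.VeluDefs` -/
section ZBZ2S12_002_0
/-
Item 12 (S12 glue), piece `VELU` (sub-captain helper13): Vélu's formulas, definitions.
Mathlib only.

For a finite subgroup `K` of a Weierstrass curve `W` (general form), with
  `t_Q = 6 x_Q² + b₂ x_Q + b₄`,   `u_Q + x_Q t_Q = 10 x_Q³ + 2 b₂ x_Q² + 3 b₄ x_Q + b₆`,
  `2 t = ∑_{Q ∈ K ∖ 0} t_Q`,      `2 w = ∑_{Q ∈ K ∖ 0} (u_Q + x_Q t_Q)`,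
the quotient `W / K` is `veluCurve W t w = (a₁, a₂, a₃, a₄ - 5 t, a₆ - b₂ t - 7 w)` and the
isogeny is `P ↦ (∑_{Q ∈ K} (x(P + Q) - x(Q)), ∑_{Q ∈ K} (y(P + Q) - y(Q)))` (with `x(0) = y(0) = 0`).
-/

set_option autoImplicit false

noncomputable section

namespace Fermat.Agent.S12

open WeierstrassCurve

section Ring

variable {R : Type*} [CommRing R]

/-- `t_Q = 6 x² + b₂ x + b₄` -/
def veluT (W : WeierstrassCurve R) (x : R) : R := 6 * x ^ 2 + W.b₂ * x + W.b₄

/-- `u_Q + x_Q t_Q = 10 x³ + 2 b₂ x² + 3 b₄ x + b₆` -/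
def veluU (W : WeierstrassCurve R) (x : R) : R :=
  10 * x ^ 3 + 2 * W.b₂ * x ^ 2 + 3 * W.b₄ * x + W.b₆

/-- Vélu's curve `(a₁, a₂, a₃, a₄ - 5 t, a₆ - b₂ t - 7 w)` -/
def veluCurve (W : WeierstrassCurve R) (t w : R) : WeierstrassCurve R :=
  ⟨W.a₁, W.a₂, W.a₃, W.a₄ - 5 * t, W.a₆ - W.b₂ * t - 7 * w⟩

@[simp] theorem veluCurve_a₁ (W : WeierstrassCurve R) (t w : R) :
    (veluCurve W t w).a₁ = W.a₁ := rfl
@[simp] theorem veluCurve_a₂ (W : WeierstrassCurve R) (t w : R) :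
    (veluCurve W t w).a₂ = W.a₂ := rfl
@[simp] theorem veluCurve_a₃ (W : WeierstrassCurve R) (t w : R) :
    (veluCurve W t w).a₃ = W.a₃ := rfl
@[simp] theorem veluCurve_a₄ (W : WeierstrassCurve R) (t w : R) :
    (veluCurve W t w).a₄ = W.a₄ - 5 * t := rfl
@[simp] theorem veluCurve_a₆ (W : WeierstrassCurve R) (t w : R) :
    (veluCurve W t w).a₆ = W.a₆ - W.b₂ * t - 7 * w := rfl

theorem veluCurve_b₂ (W : WeierstrassCurve R) (t w : R) :
    (veluCurve W t w).b₂ = W.b₂ := by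
  simp only [WeierstrassCurve.b₂, veluCurve_a₁, veluCurve_a₂]

theorem veluCurve_b₄ (W : WeierstrassCurve R) (t w : R) :
    (veluCurve W t w).b₄ = W.b₄ - 10 * t := by
  simp only [WeierstrassCurve.b₄, veluCurve_a₁, veluCurve_a₃, veluCurve_a₄]
  ring

theorem veluCurve_b₆ (W : WeierstrassCurve R) (t w : R) :
    (veluCurve W t w).b₆ = W.b₆ - 4 * W.b₂ * t - 28 * w := by
  simp only [WeierstrassCurve.b₆, WeierstrassCurve.b₂, veluCurve_a₃, veluCurve_a₆]
  ring

theorem veluCurve_c₄ (W : WeierstrassCurve R) (t w : R) :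
    (veluCurve W t w).c₄ = W.c₄ + 240 * t := by
  simp only [WeierstrassCurve.c₄, veluCurve_b₂, veluCurve_b₄]
  ring

theorem veluCurve_c₆ (W : WeierstrassCurve R) (t w : R) :
    (veluCurve W t w).c₆ = W.c₆ + 504 * W.b₂ * t + 6048 * w := by
  simp only [WeierstrassCurve.c₆, veluCurve_b₂, veluCurve_b₄, veluCurve_b₆]
  ring

theorem veluCurve_map {S : Type*} [CommRing S] (f : R →+* S) (W : WeierstrassCurve R) (t w : R) :
    (veluCurve W t w).map f = veluCurve (W.map f) (f t) (f w) := by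
  ext <;>
    simp only [WeierstrassCurve.map, veluCurve, WeierstrassCurve.b₂, map_sub, map_mul, map_add,
      map_pow, map_ofNat]

theorem veluT_map {S : Type*} [CommRing S] (f : R →+* S) (W : WeierstrassCurve R) (x : R) :
    veluT (W.map f) (f x) = f (veluT W x) := by
  simp only [veluT, WeierstrassCurve.map_b₂, WeierstrassCurve.map_b₄, map_add, map_mul, map_pow,
    map_ofNat]

theorem veluU_map {S : Type*} [CommRing S] (f : R →+* S) (W : WeierstrassCurve R) (x : R) :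
    veluU (W.map f) (f x) = f (veluU W x) := by
  simp only [veluU, WeierstrassCurve.map_b₂, WeierstrassCurve.map_b₄, WeierstrassCurve.map_b₆,
    map_add, map_mul, map_pow, map_ofNat]

/-- the `x`-coordinate of a point (`0` at the origin) -/
def veluX {W : WeierstrassCurve.Affine R} : W.Point → R
  | .zero => 0
  | .some x _ _ => x

/-- the `y`-coordinate of a point (`0` at the origin) -/
def veluY {W : WeierstrassCurve.Affine R} : W.Point → R
  | .zero => 0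
  | .some _ y _ => y

/-- `t_Q` of a point (`0` at the origin) -/
def veluTpt {W : WeierstrassCurve.Affine R} : W.Point → R
  | .zero => 0
  | .some x _ _ => veluT W x

/-- `u_Q + x_Q t_Q` of a point (`0` at the origin) -/
def veluUpt {W : WeierstrassCurve.Affine R} : W.Point → R
  | .zero => 0
  | .some x _ _ => veluU W x

@[simp] theorem veluX_zero {W : WeierstrassCurve.Affine R} : veluX (0 : W.Point) = 0 := rfl
@[simp] theorem veluY_zero {W : WeierstrassCurve.Affine R} : veluY (0 : W.Point) = 0 := rfl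
@[simp] theorem veluTpt_zero {W : WeierstrassCurve.Affine R} : veluTpt (0 : W.Point) = 0 := rfl
@[simp] theorem veluUpt_zero {W : WeierstrassCurve.Affine R} : veluUpt (0 : W.Point) = 0 := rfl

@[simp] theorem veluX_some {W : WeierstrassCurve.Affine R} {x y : R} (h : W.Nonsingular x y) :
    veluX (Affine.Point.some x y h) = x := rfl
@[simp] theorem veluY_some {W : WeierstrassCurve.Affine R} {x y : R} (h : W.Nonsingular x y) :
    veluY (Affine.Point.some x y h) = y := rfl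
@[simp] theorem veluTpt_some {W : WeierstrassCurve.Affine R} {x y : R} (h : W.Nonsingular x y) :
    veluTpt (Affine.Point.some x y h) = veluT W x := rfl
@[simp] theorem veluUpt_some {W : WeierstrassCurve.Affine R} {x y : R} (h : W.Nonsingular x y) :
    veluUpt (Affine.Point.some x y h) = veluU W x := rfl

end Ring

section Field

variable {F : Type*} [Field F] {W : WeierstrassCurve.Affine F}

theorem veluX_neg (P : W.Point) : veluX (-P) = veluX P := by
  rcases P with _ | ⟨x, y, h⟩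
  · rfl
  · rfl

theorem veluTpt_neg (P : W.Point) : veluTpt (-P) = veluTpt P := by
  rcases P with _ | ⟨x, y, h⟩
  · rfl
  · rfl

theorem veluUpt_neg (P : W.Point) : veluUpt (-P) = veluUpt P := by
  rcases P with _ | ⟨x, y, h⟩
  · rfl
  · rfl

end Field

end Fermat.Agent.S12

end
end ZBZ2S12_002_0

/-! ### bundled: `Fermat.Agent.S12.VeluPlan2` -/
section ZBZ2S12_002_1
/-
Item 12 (S12 glue), piece `VELU` (sub-captain helper13): interface, second wave.
Design: `NOTES/S12-velu.md`.  Definitions: `S12/VeluDefs.lean`.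

| piece | Prop | file | needs |
|---|---|---|---|
| V-DISC | `StmtVeluDisc` | `S12/VeluDisc.lean` | `S15/ModUnifLat` (`modunif_disc_ne_zero`, scaling) |
| V-MAP | `StmtVeluC` | `S12/VeluMap*.lean` (helper13) | V-LATa,b,c, V-DISC, `stmtModAdd`, MOD-UNIF |
| V-QB | `StmtVeluC → StmtVeluQb` | `S12/VeluQb.lean` | `embC`, `Point.map` |
| V-GAL | `StmtVeluGal` | `S12/VeluGal.lean` | `galois_smul_some` (S05/Inertia) |
| V-RAT | `StmtVeluRat` | `S12/VeluRat.lean` | `modxi_mem_of_torsion`, V-HALF, Galois descent |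
| V-C4 | `StmtVeluC4` | `S12/VeluC4.lean` | V-NODE, V-ROOT, `S15/ECLocRed` |
| V-ASM | `stmtVelu_of` | `S12/VeluMain.lean` | all of them, `vc_transport` (EC/VarChange) |
-/

set_option autoImplicit false

noncomputable section

namespace Fermat.Agent.S12

open WeierstrassCurve WeierstrassCurve.Affine

/-- **V-DISC.**  The discriminant of a lattice does not vanish. -/
def StmtVeluDisc : Prop :=
  ∀ L : PeriodPair, L.g₂ ^ 3 - 27 * L.g₃ ^ 2 ≠ 0

/-- **V-MAP.**  Vélu's isogeny over `ℂ`: for a finite subgroup `K` of `W(ℂ)`, the curve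
`veluCurve W t w` is nonsingular and `P ↦ (∑_{Q ∈ K} (x(P+Q) - x(Q)), ∑_{Q ∈ K} (y(P+Q) - y(Q)))`
is a homomorphism to it, with kernel `K`. -/
def StmtVeluC : Prop :=
  ∀ (W : WeierstrassCurve ℂ), W.Δ ≠ 0 → W.c₄ ≠ 0 → W.c₆ ≠ 0 →
    ∀ K : Finset W.toAffine.Point, 0 ∈ K → (∀ P ∈ K, ∀ Q ∈ K, P + Q ∈ K) → (∀ P ∈ K, -P ∈ K) →
      ∀ t w : ℂ, 2 * t = ∑ Q ∈ K, veluTpt Q → 2 * w = ∑ Q ∈ K, veluUpt Q →
        (veluCurve W t w).Δ ≠ 0 ∧
        ∃ φ : W.toAffine.Point →+ (veluCurve W t w).toAffine.Point,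
          (∀ P, φ P = 0 ↔ P ∈ K) ∧
          ∀ P, P ∉ K → ∃ h, φ P =
            .some (∑ Q ∈ K, (veluX (P + Q) - veluX Q)) (∑ Q ∈ K, (veluY (P + Q) - veluY Q)) h

/-- **V-QB.**  The same over `ℚ̄`, for a curve over `ℚ` and rational `t`, `w`. -/
def StmtVeluQb : Prop :=
  ∀ (W : WeierstrassCurve ℚ), W.Δ ≠ 0 → W.c₄ ≠ 0 → W.c₆ ≠ 0 →
    ∀ K : Finset (W⁄Qb).Point, 0 ∈ K → (∀ P ∈ K, ∀ Q ∈ K, P + Q ∈ K) → (∀ P ∈ K, -P ∈ K) →
      ∀ t w : ℚ, 2 * algebraMap ℚ Qb t = ∑ Q ∈ K, veluTpt Q →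
        2 * algebraMap ℚ Qb w = ∑ Q ∈ K, veluUpt Q →
        (veluCurve W t w).Δ ≠ 0 ∧
        ∃ φ : (W⁄Qb).Point →+ ((veluCurve W t w)⁄Qb).Point,
          (∀ P, φ P = 0 ↔ P ∈ K) ∧
          ∀ P, P ∉ K → ∃ h, φ P =
            .some (∑ Q ∈ K, (veluX (P + Q) - veluX Q)) (∑ Q ∈ K, (veluY (P + Q) - veluY Q)) h

/-- **V-GAL.**  A homomorphism given by Vélu's formulas for a Galois-stable `K` is
Galois-equivariant. -/
def StmtVeluGal : Prop :=
  ∀ (W W' : WeierstrassCurve ℚ) (K : Finset (W⁄Qb).Point) (φ : (W⁄Qb).Point →+ (W'⁄Qb).Point),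
    (∀ P ∈ K, ∀ Q ∈ K, P + Q ∈ K) → (∀ P ∈ K, -P ∈ K) →
    (∀ σ : GQ, ∀ P ∈ K, σ • P ∈ K) → (∀ P, φ P = 0 ↔ P ∈ K) →
    (∀ P, P ∉ K → ∃ h, φ P =
      .some (∑ Q ∈ K, (veluX (P + Q) - veluX Q)) (∑ Q ∈ K, (veluY (P + Q) - veluY Q)) h) →
    ∀ (σ : GQ) (P : (W⁄Qb).Point), φ (σ • P) = σ • φ P

/-- **V-RAT.**  For a Galois-stable subgroup `K` of odd prime power order `p ^ k` of an integral
model, `t` and `w` are rational with denominators powers of `p`. -/
def StmtVeluRat : Prop :=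
  ∀ (W : WeierstrassCurve ℤ) (p : ℕ), p.Prime → p ≠ 2 → ∀ (k : ℕ) (K : Finset (PtZ W)),
    0 ∈ K → (∀ P ∈ K, ∀ Q ∈ K, P + Q ∈ K) → (∀ P ∈ K, -P ∈ K) → K.card = p ^ k →
    (∀ σ : GQ, ∀ P ∈ K, σ • P ∈ K) →
    ∃ (N : ℕ) (t w : ℤ),
      2 * (t : Qb) = (p : Qb) ^ N * ∑ Q ∈ K, veluTpt Q ∧
      2 * (w : Qb) = (p : Qb) ^ N * ∑ Q ∈ K, veluUpt Q

/-- **V-C4.**  At a prime `ℓ ≠ p` of multiplicative reduction, `c₄(W / K) = c₄ + 240 t` is a
unit (`≡ m⁴ c₄`, `m = #(K ∩ E⁰)`). -/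
def StmtVeluC4 : Prop :=
  ∀ (W : WeierstrassCurve ℤ) (p ℓ : ℕ), p.Prime → ℓ.Prime → ℓ ≠ p → (ℓ : ℤ) ∣ W.Δ →
    ¬ (ℓ : ℤ) ∣ W.c₄ → ∀ (k : ℕ) (K : Finset (PtZ W)),
    0 ∈ K → (∀ P ∈ K, ∀ Q ∈ K, P + Q ∈ K) → (∀ P ∈ K, -P ∈ K) → K.card = p ^ k →
    ∀ A : ValuationSubring Qb, A.LiesOverPrime ℓ →
      A.valuation (((W.c₄ : ℤ) : Qb) + 120 * ∑ Q ∈ K, veluTpt Q) = 1

end Fermat.Agent.S12

end
end ZBZ2S12_002_1

/-! ### bundled: `Fermat.Agent.S12.VeluMain` -/
section ZBZ2S12_002_2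

/-!
# S12 / VELU, piece V-ASM (helper47)

`stmtVelu_of : StmtVeluQb → StmtVeluGal → StmtVeluRat → StmtVeluC4 → StmtVelu`.

`(N, t, w)` from V-RAT, `t_ℚ = t / p^N`, `w_ℚ = w / p^N`; the integral model
`veluIntCurve W p N t w = (p^N a₁, p^{2N} a₂, p^{3N} a₃, p^{4N} a₄ - 5 p^{3N} t,
p^{6N} a₆ - p^{5N} (b₂ t + 7 w))` is `C • veluCurve W_ℚ t_ℚ w_ℚ` for `C = ⟨(p^N)⁻¹, 0, 0, 0⟩`.
-/

set_option autoImplicit false
set_option linter.style.haveILetI false
set_option linter.unusedSectionVars false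
set_option linter.unusedVariables false

noncomputable section

namespace Fermat.Agent.S12

open WeierstrassCurve WeierstrassCurve.Affine

/-- the rescaled integral Vélu curve -/
def veluIntCurve (W : WeierstrassCurve ℤ) (p N : ℕ) (t w : ℤ) : WeierstrassCurve ℤ :=
  ⟨(p : ℤ) ^ N * W.a₁, ((p : ℤ) ^ N) ^ 2 * W.a₂, ((p : ℤ) ^ N) ^ 3 * W.a₃,
    ((p : ℤ) ^ N) ^ 4 * W.a₄ - 5 * ((p : ℤ) ^ N) ^ 3 * t,
    ((p : ℤ) ^ N) ^ 6 * W.a₆ - ((p : ℤ) ^ N) ^ 5 * (W.b₂ * t + 7 * w)⟩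

/-- the change of variables `u = (p^N)⁻¹` -/
def veluVC (p N : ℕ) (hp : p ≠ 0) : VariableChange ℚ :=
  ⟨(Units.mk0 ((p : ℚ) ^ N) (pow_ne_zero _ (Nat.cast_ne_zero.2 hp)))⁻¹, 0, 0, 0⟩

theorem veluVC_u_inv (p N : ℕ) (hp : p ≠ 0) :
    (((veluVC p N hp).u⁻¹ : ℚˣ) : ℚ) = (p : ℚ) ^ N := by
  simp [veluVC]

theorem veluIntCurve_map (W : WeierstrassCurve ℤ) (p N : ℕ) (hp : p ≠ 0) (t w : ℤ) :
    veluVC p N hp • veluCurve (W.map (Int.castRingHom ℚ)) ((t : ℚ) / (p : ℚ) ^ N)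
        ((w : ℚ) / (p : ℚ) ^ N) =
      (veluIntCurve W p N t w).map (Int.castRingHom ℚ) := by
  have hpN : ((p : ℚ) ^ N) ≠ 0 := pow_ne_zero _ (Nat.cast_ne_zero.2 hp)
  have hu := veluVC_u_inv p N hp
  ext
  · rw [variableChange_a₁, hu]
    simp [veluVC, veluIntCurve]
  · rw [variableChange_a₂, hu]
    simp [veluVC, veluIntCurve]
  · rw [variableChange_a₃, hu]
    simp [veluVC, veluIntCurve]
  · rw [variableChange_a₄, hu]
    simp only [veluVC, veluIntCurve, veluCurve_a₁, veluCurve_a₂, veluCurve_a₃, veluCurve_a₄,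
      WeierstrassCurve.map_a₁, WeierstrassCurve.map_a₂, WeierstrassCurve.map_a₃,
      WeierstrassCurve.map_a₄, eq_intCast]
    push_cast
    field_simp
    ring
  · rw [variableChange_a₆, hu]
    simp only [veluVC, veluIntCurve, veluCurve_a₁, veluCurve_a₂, veluCurve_a₃, veluCurve_a₄,
      veluCurve_a₆, WeierstrassCurve.map_a₁, WeierstrassCurve.map_a₂, WeierstrassCurve.map_a₃,
      WeierstrassCurve.map_a₄, WeierstrassCurve.map_a₆, WeierstrassCurve.map_b₂, eq_intCast]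
    push_cast
    field_simp
    ring

theorem veluIntCurve_c₄ (W : WeierstrassCurve ℤ) (p N : ℕ) (t w : ℤ) :
    (veluIntCurve W p N t w).c₄ = ((p : ℤ) ^ N) ^ 3 * ((p : ℤ) ^ N * W.c₄ + 240 * t) := by
  simp only [veluIntCurve, WeierstrassCurve.c₄, WeierstrassCurve.b₂, WeierstrassCurve.b₄]
  ring

theorem velu_map_Δ_ne {W : WeierstrassCurve ℤ} (h : W.Δ ≠ 0) :
    (W.map (Int.castRingHom ℚ)).Δ ≠ 0 := by
  rw [WeierstrassCurve.map_Δ]
  simpa using h

theorem velu_map_c₄_ne {W : WeierstrassCurve ℤ} (h : W.c₄ ≠ 0) :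
    (W.map (Int.castRingHom ℚ)).c₄ ≠ 0 := by
  rw [WeierstrassCurve.map_c₄]
  simpa using h

theorem velu_map_c₆_ne {W : WeierstrassCurve ℤ} (h : W.c₆ ≠ 0) :
    (W.map (Int.castRingHom ℚ)).c₆ ≠ 0 := by
  rw [WeierstrassCurve.map_c₆]
  simpa using h

/-- **V-ASM.** -/
theorem stmtVelu_of (hQb : StmtVeluQb) (hGal : StmtVeluGal) (hRat : StmtVeluRat)
    (hC4 : StmtVeluC4) : StmtVelu := by
  intro W hΔ hc₄ hc₆ p hp hp2 k K hKcard hKst
  have hp0 : p ≠ 0 := hp.ne_zero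
  have hpQ : ((p : ℚ) ^ 0) ≠ 0 := by simp
  -- the finset
  haveI : Finite K := Nat.finite_of_card_ne_zero (by rw [hKcard]; exact pow_ne_zero _ hp0)
  have hfin : (K : Set (PtZ W)).Finite := Set.toFinite _
  set Kf : Finset (PtZ W) := hfin.toFinset with hKf
  have hmem : ∀ x, x ∈ Kf ↔ x ∈ K := fun x => by rw [hKf, Set.Finite.mem_toFinset]; rfl
  have h0 : (0 : PtZ W) ∈ Kf := (hmem 0).2 K.zero_mem
  have hadd : ∀ P ∈ Kf, ∀ Q ∈ Kf, P + Q ∈ Kf := fun P hP Q hQ =>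
    (hmem _).2 (K.add_mem ((hmem P).1 hP) ((hmem Q).1 hQ))
  have hneg : ∀ P ∈ Kf, -P ∈ Kf := fun P hP => (hmem _).2 (K.neg_mem ((hmem P).1 hP))
  have hcardf : Kf.card = p ^ k := by
    rw [← hKcard, hKf, ← Set.ncard_eq_toFinset_card _ hfin]
    exact (_root_.Nat.card_coe_set_eq _).symm
  have hstf : ∀ σ : GQ, ∀ P ∈ Kf, σ • P ∈ Kf := fun σ P hP =>
    (hmem _).2 (hKst σ P ((hmem P).1 hP))
  obtain ⟨N, t, w, ht, hw⟩ := hRat W p hp hp2 k Kf h0 hadd hneg hcardf hstf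
  have hpN : ((p : ℚ) ^ N) ≠ 0 := pow_ne_zero _ (Nat.cast_ne_zero.2 hp0)
  have hpNb : ((p : Qb) ^ N) ≠ 0 := pow_ne_zero _ (Nat.cast_ne_zero.2 hp0)
  have htQ : 2 * algebraMap ℚ Qb ((t : ℚ) / (p : ℚ) ^ N) = ∑ Q ∈ Kf, veluTpt Q := by
    rw [map_div₀, map_pow, map_natCast, map_intCast, mul_div_assoc', ht,
      mul_div_cancel_left₀ _ hpNb]
  have hwQ : 2 * algebraMap ℚ Qb ((w : ℚ) / (p : ℚ) ^ N) = ∑ Q ∈ Kf, veluUpt Q := by
    rw [map_div₀, map_pow, map_natCast, map_intCast, mul_div_assoc', hw,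
      mul_div_cancel_left₀ _ hpNb]
  obtain ⟨hΔ'', φ₀, hker₀, hform₀⟩ := hQb (W.map (Int.castRingHom ℚ)) (velu_map_Δ_ne hΔ)
    (velu_map_c₄_ne hc₄) (velu_map_c₆_ne hc₆) Kf h0 hadd hneg _ _ htQ hwQ
  have hgal := hGal _ _ Kf φ₀ hadd hneg hstf hker₀ hform₀
  obtain ⟨e, he⟩ := Fermat.Agent.EC.vc_transport (K := Qb) _ _ (veluVC p N hp0)
    (veluIntCurve_map W p N hp0 t w)
  have hesymm : ∀ (σ : GQ) y, e.symm (σ • y) = σ • e.symm y := by
    intro σ y
    apply e.injective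
    rw [he, AddEquiv.apply_symm_apply, AddEquiv.apply_symm_apply]
  refine ⟨veluIntCurve W p N t w, e.symm.toAddMonoidHom.comp φ₀, ?_, ?_, ?_, ?_⟩
  · -- Δ ≠ 0
    intro h
    have h1 : ((veluIntCurve W p N t w).map (Int.castRingHom ℚ)).Δ = 0 := by
      rw [WeierstrassCurve.map_Δ, h, map_zero]
    rw [← veluIntCurve_map W p N hp0 t w, variableChange_Δ, veluVC_u_inv] at h1
    rcases mul_eq_zero.1 h1 with h2 | h2
    · exact pow_ne_zero _ hpN h2
    · exact hΔ'' h2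
  · intro σ x
    change e.symm (φ₀ (σ • x)) = σ • e.symm (φ₀ x)
    rw [hgal, hesymm]
  · intro x
    change e.symm (φ₀ x) = 0 ↔ x ∈ K
    rw [AddEquiv.map_eq_zero_iff, hker₀, hmem]
  · intro ℓ hℓ hℓp hℓΔ hℓc₄
    obtain ⟨A, hA⟩ := Fermat.Agent.Common.exists_liesOverPrime ℓ hℓ
    have hv := hC4 W p ℓ hp hℓ hℓp hℓΔ hℓc₄ k Kf h0 hadd hneg hcardf A hA
    rw [← Fermat.Agent.S05.valuation_intCast_eq_one_iff A hℓ hA, veluIntCurve_c₄]
    have hvp : A.valuation ((p : Qb)) = 1 := by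
      rw [Fermat.Agent.S05.valuation_natCast_eq_one_iff A hℓ hA]
      intro h
      exact hℓp ((Nat.prime_dvd_prime_iff_eq hℓ hp).1 h)
    have hcast : (((((p : ℤ) ^ N) ^ 3 * ((p : ℤ) ^ N * W.c₄ + 240 * t) : ℤ)) : Qb) =
        ((p : Qb) ^ N) ^ 4 * (((W.c₄ : ℤ) : Qb) + 120 * ∑ Q ∈ Kf, veluTpt Q) := by
      push_cast
      have : (240 : Qb) * (t : Qb) = 120 * ((p : Qb) ^ N * ∑ Q ∈ Kf, veluTpt Q) := by
        rw [← ht]; ring
      rw [this]
      ring
    rw [hcast, map_mul, hv, mul_one, map_pow, map_pow, hvp, one_pow, one_pow]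

end Fermat.Agent.S12

end
end ZBZ2S12_002_2

/-! ### bundled: `Fermat.Agent.S12.VeluQb` -/
section ZBZ2S12_002_3
/-
# S12 / VELU / V-QB (helper56)

`stmtVeluQb_of : StmtVeluC → StmtVeluQb`: descent of the Vélu isogeny from `ℂ` to `ℚ̄` along an
embedding `ι : ℚ̄ → ℂ` (`IsAlgClosed.lift`): the formulas commute with `ι`, nonsingularity descends
(`baseChange_nonsingular`), additivity by the injectivity of `Point.map ι`.
-/

set_option autoImplicit false

noncomputable section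

namespace Fermat.Agent.S12

open WeierstrassCurve WeierstrassCurve.Affine

section Generic

variable {F K : Type} [Field F] [Field K] [DecidableEq F] [DecidableEq K] [Algebra ℚ F]
  [Algebra ℚ K] (W : WeierstrassCurve ℚ) (f : F →ₐ[ℚ] K)

omit [DecidableEq F] [DecidableEq K] in
theorem veluqb_T_map (x : F) : veluT (W⁄K) (f x) = f (veluT (W⁄F) x) := by
  have h := veluT_map (f : F →+* K) (W⁄F) x
  rw [WeierstrassCurve.map_baseChange] at h
  exact h

omit [DecidableEq F] [DecidableEq K] in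
theorem veluqb_U_map (x : F) : veluU (W⁄K) (f x) = f (veluU (W⁄F) x) := by
  have h := veluU_map (f : F →+* K) (W⁄F) x
  rw [WeierstrassCurve.map_baseChange] at h
  exact h

theorem veluqb_X_pt (P : (W⁄F).Point) : veluX (Point.map f P) = f (veluX P) := by
  rcases P with _ | ⟨x, y, h⟩
  · exact (map_zero f).symm
  · rfl

theorem veluqb_Y_pt (P : (W⁄F).Point) : veluY (Point.map f P) = f (veluY P) := by
  rcases P with _ | ⟨x, y, h⟩
  · exact (map_zero f).symm
  · rfl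

theorem veluqb_T_pt (P : (W⁄F).Point) : veluTpt (Point.map f P) = f (veluTpt P) := by
  rcases P with _ | ⟨x, y, h⟩
  · exact (map_zero f).symm
  · exact veluqb_T_map W f x

theorem veluqb_U_pt (P : (W⁄F).Point) : veluUpt (Point.map f P) = f (veluUpt P) := by
  rcases P with _ | ⟨x, y, h⟩
  · exact (map_zero f).symm
  · exact veluqb_U_map W f x

end Generic

/-- **V-QB.** -/
theorem stmtVeluQb_of (hC : StmtVeluC) : StmtVeluQb := by
  classical
  intro W hΔ hc₄ hc₆ K h0 hadd hneg t w ht hw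
  have : Algebra.IsAlgebraic ℚ Qb := AlgebraicClosure.isAlgebraic ℚ
  let ι : Qb →ₐ[ℚ] ℂ := IsAlgClosed.lift
  let m : (W⁄Qb).Point →+ (W⁄ℂ).Point := Point.map ι
  have hm : Function.Injective m := Point.map_injective ι
  let KC : Finset (W⁄ℂ).Point := K.image m
  have hmemKC : ∀ P, m P ∈ KC ↔ P ∈ K := by
    intro P
    simp only [KC, Finset.mem_image]
    constructor
    · rintro ⟨Q, hQ, hQP⟩
      rw [← hm hQP]
      exact hQ
    · intro hP
      exact ⟨P, hP, rfl⟩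
  have hinj : ∀ a ∈ K, ∀ b ∈ K, m a = m b → a = b := fun a _ b _ h => hm h
  have hΔC : (W.baseChange ℂ).Δ ≠ 0 := by
    show (W.map (algebraMap ℚ ℂ)).Δ ≠ 0
    rw [WeierstrassCurve.map_Δ]
    exact (map_ne_zero_iff _ (algebraMap ℚ ℂ).injective).2 hΔ
  have hc₄C : (W.baseChange ℂ).c₄ ≠ 0 := by
    show (W.map (algebraMap ℚ ℂ)).c₄ ≠ 0
    rw [WeierstrassCurve.map_c₄]
    exact (map_ne_zero_iff _ (algebraMap ℚ ℂ).injective).2 hc₄
  have hc₆C : (W.baseChange ℂ).c₆ ≠ 0 := by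
    show (W.map (algebraMap ℚ ℂ)).c₆ ≠ 0
    rw [WeierstrassCurve.map_c₆]
    exact (map_ne_zero_iff _ (algebraMap ℚ ℂ).injective).2 hc₆
  have h0C : (0 : (W⁄ℂ).Point) ∈ KC := by
    have := (hmemKC 0).2 h0
    rwa [map_zero] at this
  have haddC : ∀ P ∈ KC, ∀ Q ∈ KC, P + Q ∈ KC := by
    intro P hP Q hQ
    simp only [KC, Finset.mem_image] at hP hQ
    obtain ⟨P', hP', rfl⟩ := hP
    obtain ⟨Q', hQ', rfl⟩ := hQ
    rw [← map_add]
    exact (hmemKC _).2 (hadd P' hP' Q' hQ')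
  have hnegC : ∀ P ∈ KC, -P ∈ KC := by
    intro P hP
    simp only [KC, Finset.mem_image] at hP
    obtain ⟨P', hP', rfl⟩ := hP
    rw [← map_neg]
    exact (hmemKC _).2 (hneg P' hP')
  have hsumT : 2 * (algebraMap ℚ ℂ t) = ∑ Q ∈ KC, veluTpt Q := by
    rw [Finset.sum_image hinj]
    have : ∀ Q ∈ K, veluTpt (m Q) = ι (veluTpt Q) := fun Q _ => veluqb_T_pt W ι Q
    rw [Finset.sum_congr rfl this, ← map_sum, ← ht, map_mul, map_ofNat, AlgHom.commutes]
  have hsumU : 2 * (algebraMap ℚ ℂ w) = ∑ Q ∈ KC, veluUpt Q := by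
    rw [Finset.sum_image hinj]
    have : ∀ Q ∈ K, veluUpt (m Q) = ι (veluUpt Q) := fun Q _ => veluqb_U_pt W ι Q
    rw [Finset.sum_congr rfl this, ← map_sum, ← hw, map_mul, map_ofNat, AlgHom.commutes]
  have e : veluCurve (W.baseChange ℂ) (algebraMap ℚ ℂ t) (algebraMap ℚ ℂ w) =
      (veluCurve W t w).baseChange ℂ := (veluCurve_map (algebraMap ℚ ℂ) W t w).symm
  have key : ∀ V : WeierstrassCurve ℂ,
      veluCurve (W.baseChange ℂ) (algebraMap ℚ ℂ t) (algebraMap ℚ ℂ w) = V →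
      V.Δ ≠ 0 ∧ ∃ φ : (W⁄ℂ).Point →+ V.toAffine.Point, (∀ P, φ P = 0 ↔ P ∈ KC) ∧
        ∀ P, P ∉ KC → ∃ h, φ P =
          .some (∑ Q ∈ KC, (veluX (P + Q) - veluX Q)) (∑ Q ∈ KC, (veluY (P + Q) - veluY Q)) h := by
    rintro V rfl
    exact hC (W.baseChange ℂ) hΔC hc₄C hc₆C KC h0C haddC hnegC _ _ hsumT hsumU
  obtain ⟨hΔ', φC, hkerC, hformC⟩ := key _ e
  -- the coordinates
  have hXC : ∀ P : (W⁄Qb).Point, ∑ Q ∈ KC, (veluX (m P + Q) - veluX Q) =
      ι (∑ Q ∈ K, (veluX (P + Q) - veluX Q)) := by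
    intro P
    rw [Finset.sum_image hinj, map_sum]
    refine Finset.sum_congr rfl fun Q _ => ?_
    rw [← map_add, map_sub]
    show veluX (Point.map ι (P + Q)) - veluX (Point.map ι Q) = _
    rw [veluqb_X_pt, veluqb_X_pt]
  have hYC : ∀ P : (W⁄Qb).Point, ∑ Q ∈ KC, (veluY (m P + Q) - veluY Q) =
      ι (∑ Q ∈ K, (veluY (P + Q) - veluY Q)) := by
    intro P
    rw [Finset.sum_image hinj, map_sum]
    refine Finset.sum_congr rfl fun Q _ => ?_
    rw [← map_add, map_sub]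
    show veluY (Point.map ι (P + Q)) - veluY (Point.map ι Q) = _
    rw [veluqb_Y_pt, veluqb_Y_pt]
  refine ⟨?_, ?_⟩
  · intro h
    apply hΔ'
    show ((veluCurve W t w).map (algebraMap ℚ ℂ)).Δ = 0
    rw [WeierstrassCurve.map_Δ, h, map_zero]
  · let m' : ((veluCurve W t w)⁄Qb).Point →+ ((veluCurve W t w)⁄ℂ).Point := Point.map ι
    have hm' : Function.Injective m' := Point.map_injective ι
    have hns : ∀ P : (W⁄Qb).Point, P ∉ K →
        ((veluCurve W t w)⁄Qb).Nonsingular (∑ Q ∈ K, (veluX (P + Q) - veluX Q))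
          (∑ Q ∈ K, (veluY (P + Q) - veluY Q)) := by
      intro P hP
      obtain ⟨h, -⟩ := hformC (m P) (fun hmem => hP ((hmemKC P).1 hmem))
      rw [hXC, hYC] at h
      exact (Affine.baseChange_nonsingular (veluCurve W t w) ι.injective _ _).1 h
    let φfun : (W⁄Qb).Point → ((veluCurve W t w)⁄Qb).Point := fun P =>
      if hP : P ∈ K then 0 else .some _ _ (hns P hP)
    have hφin : ∀ P, P ∈ K → φfun P = 0 := fun P hP => dif_pos hP
    have hφout : ∀ P (hP : P ∉ K), φfun P = .some _ _ (hns P hP) := fun P hP => dif_neg hP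
    have hcomm : ∀ P, m' (φfun P) = φC (m P) := by
      intro P
      by_cases hP : P ∈ K
      · rw [hφin P hP, map_zero, (hkerC (m P)).2 ((hmemKC P).2 hP)]
      · obtain ⟨h, hh⟩ := hformC (m P) (fun hmem => hP ((hmemKC P).1 hmem))
        rw [hφout P hP, hh]
        show Point.map ι (Point.some _ _ (hns P hP)) = _
        rw [Point.map_some]
        congr 1
        · exact (hXC P).symm
        · exact (hYC P).symm
    refine ⟨{ toFun := φfun, map_zero' := hφin 0 h0, map_add' := ?_ }, ?_, ?_⟩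
    · intro P Q
      apply hm'
      rw [map_add, hcomm, hcomm, hcomm, map_add, map_add]
    · intro P
      show φfun P = 0 ↔ P ∈ K
      constructor
      · intro h
        by_contra hP
        rw [hφout P hP] at h
        exact Point.some_ne_zero _ h
      · exact hφin P
    · intro P hP
      exact ⟨hns P hP, hφout P hP⟩

end Fermat.Agent.S12

end
end ZBZ2S12_002_3

/-! ### bundled: `Fermat.Agent.S12.VeluGal` -/
section ZBZ2S12_002_4
/-
# S12 / VELU / V-GAL (helper56)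

`stmtVeluGal : StmtVeluGal`: a homomorphism given by Vélu formulas for a Galois-stable `K` is
Galois-equivariant (the Galois action is coordinatewise; reindex the sums by `Q ↦ σ • Q`).
-/

set_option autoImplicit false

noncomputable section

namespace Fermat.Agent.S12

open WeierstrassCurve WeierstrassCurve.Affine

theorem velugal_X (W : WeierstrassCurve ℚ) (σ : GQ) (P : (W⁄Qb).Point) :
    veluX (σ • P) = σ (veluX P) :=
  veluqb_X_pt W σ.toAlgHom P

theorem velugal_Y (W : WeierstrassCurve ℚ) (σ : GQ) (P : (W⁄Qb).Point) :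
    veluY (σ • P) = σ (veluY P) :=
  veluqb_Y_pt W σ.toAlgHom P

/-- reindexing a sum over a Galois-stable set -/
theorem velugal_sum (W : WeierstrassCurve ℚ) (K : Finset (W⁄Qb).Point)
    (hK : ∀ σ : GQ, ∀ P ∈ K, σ • P ∈ K) (σ : GQ) (P : (W⁄Qb).Point)
    (c : (W⁄Qb).Point → Qb) (hc : ∀ Q, c (σ • Q) = σ (c Q)) :
    ∑ Q ∈ K, (c (σ • P + Q) - c Q) = σ (∑ Q ∈ K, (c (P + Q) - c Q)) := by
  rw [map_sum]
  symm
  refine Finset.sum_nbij' (fun Q => σ • Q) (fun Q => σ⁻¹ • Q) (fun Q hQ => hK σ Q hQ)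
    (fun Q hQ => hK σ⁻¹ Q hQ) (fun Q _ => inv_smul_smul σ Q) (fun Q _ => smul_inv_smul σ Q) ?_
  intro Q _
  have h1 : σ • (P + Q) = σ • P + σ • Q := (Point.map σ.toAlgHom).map_add P Q
  rw [map_sub, ← hc, ← hc, h1]

/-- **V-GAL.** -/
theorem stmtVeluGal : StmtVeluGal := by
  intro W W' K φ _ _ hK hker hform σ P
  by_cases hP : P ∈ K
  · rw [(hker P).2 hP, (hker _).2 (hK σ P hP)]
    rfl
  · have hσP : σ • P ∉ K := by
      intro h
      apply hP
      have := hK σ⁻¹ _ h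
      rwa [inv_smul_smul] at this
    obtain ⟨h, hh⟩ := hform P hP
    obtain ⟨h', hh'⟩ := hform (σ • P) hσP
    rw [hh, hh', Fermat.Agent.S05.galois_smul_some]
    congr 1
    · exact velugal_sum W K hK σ P veluX (velugal_X W σ)
    · exact velugal_sum W K hK σ P veluY (velugal_Y W σ)

end Fermat.Agent.S12

end
end ZBZ2S12_002_4

/-! ### bundled: `Fermat.Agent.S12.VeluPlan3` -/
section ZBZ2S12_002_5
/-
Item 12 (S12 glue), piece `VELU` (sub-captain helper13): interface of V-MAP (Vélu over `ℂ`).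

`StmtVeluC` is split into
* V-SHORT `StmtVeluShort` : Vélu for the curves `modCurve L` (analytic; helper13),
* V-VC `StmtVeluVC` : Vélu's construction commutes with changes of variables (algebraic, any field),
* MOD-UNIF : every `W / ℂ` with `c₄ c₆ Δ ≠ 0` is `C • W = modCurve (modLat τ)`.

Identities behind V-VC (`u = C.u`, `r = C.r`, `E = C • W`, `x_W = u² x_E + r`,
`y_W = u³ y_E + u² s x_E + t`):
  `veluT W (u² x + r) = u⁴ veluT E x`,
  `veluU W (u² x + r) = u⁶ veluU E x + r u⁴ veluT E x`,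
  `C • veluCurve W (u⁴ t) (u⁶ w + r u⁴ t) = veluCurve E t w`.
-/

set_option autoImplicit false

noncomputable section

namespace Fermat.Agent.S12

open WeierstrassCurve WeierstrassCurve.Affine Fermat.Agent.S15

/-- Vélu's theorem for the curve `W`: for every finite subgroup `K`, `veluCurve W t w` is
nonsingular and Vélu's formulas define a homomorphism to it with kernel `K`. -/
def VeluFor {F : Type} [Field F] [DecidableEq F] (W : WeierstrassCurve F) : Prop :=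
  ∀ K : Finset W.toAffine.Point, 0 ∈ K → (∀ P ∈ K, ∀ Q ∈ K, P + Q ∈ K) → (∀ P ∈ K, -P ∈ K) →
    ∀ t w : F, 2 * t = ∑ Q ∈ K, veluTpt Q → 2 * w = ∑ Q ∈ K, veluUpt Q →
      (veluCurve W t w).Δ ≠ 0 ∧
      ∃ φ : W.toAffine.Point →+ (veluCurve W t w).toAffine.Point,
        (∀ P, φ P = 0 ↔ P ∈ K) ∧
        ∀ P, P ∉ K → ∃ h, φ P =
          .some (∑ Q ∈ K, (veluX (P + Q) - veluX Q)) (∑ Q ∈ K, (veluY (P + Q) - veluY Q)) h

/-- **V-VC.**  Vélu's theorem is invariant under changes of variables. -/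
def StmtVeluVC : Prop :=
  ∀ (F : Type) [Field F] [DecidableEq F] (W : WeierstrassCurve F) (C : VariableChange F),
    VeluFor (C • W) → VeluFor W

/-- **V-SHORT.**  Vélu's theorem for the curve of a lattice. -/
def StmtVeluShort : Prop :=
  ∀ L : PeriodPair, VeluFor (modCurve L)

theorem stmtVeluC_iff : StmtVeluC ↔
    ∀ (W : WeierstrassCurve ℂ), W.Δ ≠ 0 → W.c₄ ≠ 0 → W.c₆ ≠ 0 → VeluFor W := Iff.rfl

end Fermat.Agent.S12

end
end ZBZ2S12_002_5

/-! ### bundled: `Fermat.Agent.S12.VeluVC` -/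
section ZBZ2S12_002_6
/-
Item 12 (S12 glue), piece `VELU` / V-VC (helper52): Vélu's construction commutes with changes of
variables.  Pure algebra over any field.

`E = C • W`, `u = C.u`, `r = C.r`, `e = vcEquiv W C : E(F) ≃+ W(F)`,
`x_W = u² x_E + r`, `y_W = u³ y_E + u² s x_E + t`:

* `vvc_veluT`, `vvc_veluU` : `veluT W (u² x + r) = u⁴ veluT E x`,
  `veluU W (u² x + r) = u⁶ veluU E x + r u⁴ veluT E x`;
* `vvc_veluCurve` : `C • veluCurve W (u⁴ t) (u⁶ w + r u⁴ t) = veluCurve E t w`;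
* `vvc_sumX`, `vvc_sumY` : Vélu's sums for `e P`, `e K` are `vcX`, `vcY` of those for `P`, `K`;
* `stmtVeluVC : StmtVeluVC`.
-/

set_option autoImplicit false
set_option linter.unusedSectionVars false

noncomputable section

namespace Fermat.Agent.S12

open WeierstrassCurve WeierstrassCurve.Affine Fermat.Agent.EC

section Identities

variable {F : Type*} [Field F] (W : WeierstrassCurve F) (C : VariableChange F)

theorem vvc_veluT (x : F) :
    veluT W (vcX C x) = (C.u : F) ^ 4 * veluT (C • W) x := by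
  have hu := vc_u_ne_zero C
  simp only [veluT, variableChange_b₂, variableChange_b₄, vc_inv_u, vcX]
  field_simp
  ring

theorem vvc_veluU (x : F) :
    veluU W (vcX C x) =
      (C.u : F) ^ 6 * veluU (C • W) x + C.r * ((C.u : F) ^ 4 * veluT (C • W) x) := by
  have hu := vc_u_ne_zero C
  simp only [veluU, veluT, variableChange_b₂, variableChange_b₄, variableChange_b₆, vc_inv_u, vcX]
  field_simp
  ring

theorem vvc_veluCurve (t w : F) :
    C • veluCurve W ((C.u : F) ^ 4 * t) ((C.u : F) ^ 6 * w + C.r * ((C.u : F) ^ 4 * t)) =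
      veluCurve (C • W) t w := by
  have hu := vc_u_ne_zero C
  ext
  · simp only [variableChange_a₁, veluCurve_a₁]
  · simp only [variableChange_a₂, veluCurve_a₂, veluCurve_a₁]
  · simp only [variableChange_a₃, veluCurve_a₃, veluCurve_a₁]
  · simp only [variableChange_a₄, veluCurve_a₄, veluCurve_a₃, veluCurve_a₂, veluCurve_a₁, vc_inv_u]
    field_simp
    ring
  · simp only [variableChange_a₆, veluCurve_a₆, veluCurve_a₄, veluCurve_a₃, veluCurve_a₂,
      veluCurve_a₁, vc_inv_u, WeierstrassCurve.b₂, variableChange_a₁, variableChange_a₂]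
    field_simp
    ring

end Identities

section Points

variable {F : Type} [Field F] [DecidableEq F] (W : WeierstrassCurve F) (C : VariableChange F)

theorem vvc_veluTpt (Q : (C • W).toAffine.Point) :
    veluTpt (vcEquiv W C Q) = (C.u : F) ^ 4 * veluTpt Q := by
  rcases Q with _ | ⟨x, y, h⟩
  · show veluTpt (0 : W.toAffine.Point) = (C.u : F) ^ 4 * veluTpt (0 : (C • W).toAffine.Point)
    rw [veluTpt_zero, veluTpt_zero, mul_zero]
  · rw [vcEquiv_apply, vcFun_some, veluTpt_some, veluTpt_some]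
    exact vvc_veluT W C x

theorem vvc_veluUpt (Q : (C • W).toAffine.Point) :
    veluUpt (vcEquiv W C Q) =
      (C.u : F) ^ 6 * veluUpt Q + C.r * ((C.u : F) ^ 4 * veluTpt Q) := by
  rcases Q with _ | ⟨x, y, h⟩
  · show veluUpt (0 : W.toAffine.Point) = (C.u : F) ^ 6 * veluUpt (0 : (C • W).toAffine.Point) +
      C.r * ((C.u : F) ^ 4 * veluTpt (0 : (C • W).toAffine.Point))
    rw [veluUpt_zero, veluUpt_zero, veluTpt_zero]
    ring
  · rw [vcEquiv_apply, vcFun_some, veluUpt_some, veluUpt_some, veluTpt_some]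
    exact vvc_veluU W C x

/-- the `x`-coordinate of `e R` -/
theorem vvc_veluX (R : (C • W).toAffine.Point) :
    veluX (vcEquiv W C R) = if R = 0 then 0 else vcX C (veluX R) := by
  rcases R with _ | ⟨x, y, h⟩
  · show veluX (0 : W.toAffine.Point) = if (0 : (C • W).toAffine.Point) = 0 then 0 else _
    rw [if_pos rfl, veluX_zero]
  · rw [if_neg (Point.some_ne_zero _), vcEquiv_apply, vcFun_some, veluX_some, veluX_some]

/-- the `y`-coordinate of `e R` -/
theorem vvc_veluY (R : (C • W).toAffine.Point) :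
    veluY (vcEquiv W C R) = if R = 0 then 0 else vcY C (veluX R) (veluY R) := by
  rcases R with _ | ⟨x, y, h⟩
  · show veluY (0 : W.toAffine.Point) = if (0 : (C • W).toAffine.Point) = 0 then 0 else _
    rw [if_pos rfl, veluY_zero]
  · rw [if_neg (Point.some_ne_zero _), vcEquiv_apply, vcFun_some, veluY_some, veluY_some,
      veluX_some]

variable (K : Finset (C • W).toAffine.Point)

/-- the subgroup `e K` of `W` -/
def vvcK : Finset W.toAffine.Point := K.map (vcEquiv W C).toEquiv.toEmbedding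

theorem vvc_mem (P : (C • W).toAffine.Point) : vcEquiv W C P ∈ vvcK W C K ↔ P ∈ K := by
  rw [vvcK, Finset.mem_map]
  constructor
  · rintro ⟨Q, hQ, hQP⟩
    have : Q = P := (vcEquiv W C).injective hQP
    exact this ▸ hQ
  · intro h
    exact ⟨P, h, rfl⟩

theorem vvc_sum (f : W.toAffine.Point → F) :
    ∑ Q ∈ vvcK W C K, f Q = ∑ Q ∈ K, f (vcEquiv W C Q) := by
  rw [vvcK, Finset.sum_map]
  rfl

theorem vvc_sum_ite (h0 : (0 : (C • W).toAffine.Point) ∈ K) (c : F) :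
    ∑ Q ∈ K, (if Q = 0 then c else 0) = c := by
  rw [Finset.sum_ite_eq' K 0 (fun _ => c), if_pos h0]

theorem vvc_sumX (h0 : (0 : (C • W).toAffine.Point) ∈ K) (hneg : ∀ P ∈ K, -P ∈ K)
    (P : (C • W).toAffine.Point) (hP : P ∉ K) :
    ∑ Q ∈ vvcK W C K, (veluX (vcEquiv W C P + Q) - veluX Q) =
      vcX C (∑ Q ∈ K, (veluX (P + Q) - veluX Q)) := by
  rw [vvc_sum]
  have hterm : ∀ Q ∈ K, veluX (vcEquiv W C P + vcEquiv W C Q) - veluX (vcEquiv W C Q) =
      (C.u : F) ^ 2 * (veluX (P + Q) - veluX Q) + (if Q = 0 then C.r else 0) := by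
    intro Q hQ
    have hPQ : P + Q ≠ 0 := by
      intro h
      apply hP
      have : P = -Q := eq_neg_of_add_eq_zero_left h
      rw [this]
      exact hneg Q hQ
    rw [← map_add, vvc_veluX, vvc_veluX, if_neg hPQ]
    by_cases hQ0 : Q = 0
    · rw [if_pos hQ0, if_pos hQ0, hQ0, veluX_zero]
      simp only [vcX]
      ring
    · rw [if_neg hQ0, if_neg hQ0]
      simp only [vcX]
      ring
  rw [Finset.sum_congr rfl hterm, Finset.sum_add_distrib, ← Finset.mul_sum, vvc_sum_ite W C K h0]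
  rfl

theorem vvc_sumY (h0 : (0 : (C • W).toAffine.Point) ∈ K) (hneg : ∀ P ∈ K, -P ∈ K)
    (P : (C • W).toAffine.Point) (hP : P ∉ K) :
    ∑ Q ∈ vvcK W C K, (veluY (vcEquiv W C P + Q) - veluY Q) =
      vcY C (∑ Q ∈ K, (veluX (P + Q) - veluX Q)) (∑ Q ∈ K, (veluY (P + Q) - veluY Q)) := by
  rw [vvc_sum]
  have hterm : ∀ Q ∈ K, veluY (vcEquiv W C P + vcEquiv W C Q) - veluY (vcEquiv W C Q) =
      (C.u : F) ^ 3 * (veluY (P + Q) - veluY Q) +
        (C.u : F) ^ 2 * C.s * (veluX (P + Q) - veluX Q) + (if Q = 0 then C.t else 0) := by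
    intro Q hQ
    have hPQ : P + Q ≠ 0 := by
      intro h
      apply hP
      have : P = -Q := eq_neg_of_add_eq_zero_left h
      rw [this]
      exact hneg Q hQ
    rw [← map_add, vvc_veluY, vvc_veluY, if_neg hPQ]
    by_cases hQ0 : Q = 0
    · rw [if_pos hQ0, if_pos hQ0, hQ0, veluX_zero, veluY_zero]
      simp only [vcY]
      ring
    · rw [if_neg hQ0, if_neg hQ0]
      simp only [vcY]
      ring
  rw [Finset.sum_congr rfl hterm, Finset.sum_add_distrib, Finset.sum_add_distrib,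
    ← Finset.mul_sum, ← Finset.mul_sum, vvc_sum_ite W C K h0]
  rfl

end Points

section Main

variable {F : Type} [Field F] [DecidableEq F]

theorem vvc_exists_some {W : WeierstrassCurve F} {x y x' y' : F}
    (h : W.toAffine.Nonsingular x y) (hx : x = x') (hy : y = y') :
    ∃ h', (Point.some x y h : W.toAffine.Point) = .some x' y' h' := by
  subst hx
  subst hy
  exact ⟨h, rfl⟩

/-- **V-VC.**  Vélu's theorem is invariant under changes of variables. -/
theorem stmtVeluVC : StmtVeluVC := by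
  intro F _ _ W C hE K h0 hadd hneg t w ht hw
  have hu : (C.u : F) ≠ 0 := vc_u_ne_zero C
  -- the subgroup of `E = C • W`
  set e := vcEquiv W C with he
  set K' : Finset (C • W).toAffine.Point := K.map e.symm.toEquiv.toEmbedding with hK'
  have hmemK' : ∀ Q, Q ∈ K' ↔ e Q ∈ K := by
    intro Q
    rw [hK', Finset.mem_map]
    constructor
    · rintro ⟨R, hR, hRQ⟩
      have : e Q = R := by
        rw [← hRQ]
        exact e.apply_symm_apply R
      rw [this]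
      exact hR
    · intro h
      exact ⟨e Q, h, e.symm_apply_apply Q⟩
  have hKK' : vvcK W C K' = K := by
    ext Q
    rw [← e.apply_symm_apply Q, vvc_mem, hmemK']
  have h0' : (0 : (C • W).toAffine.Point) ∈ K' := by
    rw [hmemK', map_zero]
    exact h0
  have hadd' : ∀ P ∈ K', ∀ Q ∈ K', P + Q ∈ K' := by
    intro P hP Q hQ
    rw [hmemK'] at hP hQ ⊢
    rw [map_add]
    exact hadd _ hP _ hQ
  have hneg' : ∀ P ∈ K', -P ∈ K' := by
    intro P hP
    rw [hmemK'] at hP ⊢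
    rw [map_neg]
    exact hneg _ hP
  -- the parameters
  set t' : F := t / (C.u : F) ^ 4 with ht'
  set w' : F := (w - C.r * t) / (C.u : F) ^ 6 with hw'
  have htt : (C.u : F) ^ 4 * t' = t := by
    rw [ht']
    field_simp
  have hww : (C.u : F) ^ 6 * w' + C.r * ((C.u : F) ^ 4 * t') = w := by
    rw [htt, hw']
    field_simp
    ring
  have hsT : ∑ Q ∈ K, veluTpt Q = (C.u : F) ^ 4 * ∑ Q ∈ K', veluTpt Q := by
    rw [← hKK', vvc_sum, Finset.mul_sum]
    exact Finset.sum_congr rfl fun Q _ => vvc_veluTpt W C Q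
  have hsU : ∑ Q ∈ K, veluUpt Q =
      (C.u : F) ^ 6 * ∑ Q ∈ K', veluUpt Q + C.r * ((C.u : F) ^ 4 * ∑ Q ∈ K', veluTpt Q) := by
    rw [← hKK', vvc_sum, Finset.mul_sum, Finset.mul_sum, Finset.mul_sum, ← Finset.sum_add_distrib]
    refine Finset.sum_congr rfl fun Q _ => ?_
    rw [vvc_veluUpt]
  have ht2 : 2 * t' = ∑ Q ∈ K', veluTpt Q := by
    have h1 : (C.u : F) ^ 4 * (2 * t') = (C.u : F) ^ 4 * ∑ Q ∈ K', veluTpt Q := by
      rw [← hsT, ← ht, ← htt]
      ring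
    exact mul_left_cancel₀ (pow_ne_zero 4 hu) h1
  have hw2 : 2 * w' = ∑ Q ∈ K', veluUpt Q := by
    have h1 : (C.u : F) ^ 6 * (2 * w') = (C.u : F) ^ 6 * ∑ Q ∈ K', veluUpt Q := by
      have h2 : 2 * w = (C.u : F) ^ 6 * ∑ Q ∈ K', veluUpt Q +
          C.r * ((C.u : F) ^ 4 * ∑ Q ∈ K', veluTpt Q) := by rw [hw, hsU]
      rw [← ht2, ← hww] at h2
      linear_combination h2
    exact mul_left_cancel₀ (pow_ne_zero 6 hu) h1
  obtain ⟨hΔ', φ', hker', hform'⟩ := hE K' h0' hadd' hneg' t' w' ht2 hw2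
  -- the curves
  have hcurve : C • veluCurve W t w = veluCurve (C • W) t' w' := by
    have h := vvc_veluCurve W C t' w'
    rw [hww, htt] at h
    exact h
  refine ⟨?_, ?_⟩
  · intro hΔ
    apply hΔ'
    rw [← hcurve, variableChange_Δ, hΔ, mul_zero]
  · set V := veluCurve W t w with hV
    let φ : W.toAffine.Point →+ V.toAffine.Point :=
      (vcEquiv V C).toAddMonoidHom.comp
        ((vcCast hcurve.symm).toAddMonoidHom.comp (φ'.comp e.symm.toAddMonoidHom))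
    have hφ : ∀ P, φ P = vcEquiv V C (vcCast hcurve.symm (φ' (e.symm P))) := fun _ => rfl
    refine ⟨φ, ?_, ?_⟩
    · intro P
      rw [hφ, map_eq_zero_iff _ (vcEquiv V C).injective,
        map_eq_zero_iff _ (vcCast hcurve.symm).injective, hker', hmemK', e.apply_symm_apply]
    · intro P hP
      have hP' : e.symm P ∉ K' := by
        rw [hmemK', e.apply_symm_apply]
        exact hP
      obtain ⟨h', hφ'⟩ := hform' (e.symm P) hP'
      rw [hφ, hφ', vcCast_some, vcEquiv_apply, vcFun_some]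
      refine vvc_exists_some _ ?_ ?_
      · have h1 := vvc_sumX W C K' h0' hneg' (e.symm P) hP'
        rw [hKK', ← he, e.apply_symm_apply] at h1
        exact h1.symm
      · have h1 := vvc_sumY W C K' h0' hneg' (e.symm P) hP'
        rw [hKK', ← he, e.apply_symm_apply] at h1
        exact h1.symm

end Main

end Fermat.Agent.S12

end
end ZBZ2S12_002_6

/-! ### bundled: `Fermat.Agent.S12.VeluDisc` -/
section ZBZ2S12_002_7
/-
# S12 / VELU / V-DISC (helper56)

`stmtVeluDisc : StmtVeluDisc`: `g₂(L)³ - 27 g₃(L)² ≠ 0` for every period pair `L`, by the homothety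
`L = ω₂ (ℤ τ + ℤ)`, `τ = ± ω₁ / ω₂`, and `modunif_disc_ne_zero` (`= (2π)¹² Δ(τ) ≠ 0`).
-/

set_option autoImplicit false

noncomputable section

namespace Fermat.Agent.S12

open PeriodPair UpperHalfPlane Fermat.Agent.S15

/-- the second period does not vanish -/
theorem veludisc_ω₂_ne_zero (L : PeriodPair) : L.ω₂ ≠ 0 := by
  intro h
  have := LinearIndependent.pair_iff.mp L.indep 0 1 (by simp [h])
  exact one_ne_zero this.2

/-- the ratio of the periods is not real -/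
theorem veludisc_im_ne_zero (L : PeriodPair) : (L.ω₁ / L.ω₂).im ≠ 0 := by
  intro h
  have h2 : L.ω₂ ≠ 0 := veludisc_ω₂_ne_zero L
  have h3 : L.ω₁ / L.ω₂ = ((L.ω₁ / L.ω₂).re : ℂ) := by
    apply Complex.ext
    · simp
    · simp [h]
  have h4 : L.ω₁ = ((L.ω₁ / L.ω₂).re : ℂ) * L.ω₂ := by
    rw [← h3]
    field_simp
  have := LinearIndependent.pair_iff.mp L.indep 1 (-(L.ω₁ / L.ω₂).re) (by
    simp only [one_smul, Complex.real_smul]
    push_cast
    linear_combination h4)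
  exact one_ne_zero this.1

/-- a lattice is homothetic to `ℤ τ + ℤ` -/
theorem veludisc_exists_tau (L : PeriodPair) :
    ∃ τ : ℍ, ∀ z, z ∈ (modLat τ).lattice ↔ L.ω₂ * z ∈ L.lattice := by
  have h2 : L.ω₂ ≠ 0 := veludisc_ω₂_ne_zero L
  rcases lt_or_gt_of_ne (veludisc_im_ne_zero L) with hlt | hgt
  · refine ⟨⟨-(L.ω₁ / L.ω₂), by simpa using hlt⟩, fun z => ?_⟩
    rw [mem_lattice, mem_lattice]
    simp only [modLat_ω₁, modLat_ω₂, mul_one]
    constructor
    · rintro ⟨m, n, rfl⟩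
      refine ⟨-m, n, ?_⟩
      show ((-m : ℤ) : ℂ) * L.ω₁ + n * L.ω₂ = L.ω₂ * (m * (-(L.ω₁ / L.ω₂)) + n)
      push_cast
      field_simp
    · rintro ⟨m, n, h⟩
      refine ⟨-m, n, ?_⟩
      show ((-m : ℤ) : ℂ) * (-(L.ω₁ / L.ω₂)) + n = z
      have : z = (m * L.ω₁ + n * L.ω₂) / L.ω₂ := by
        rw [h]
        field_simp
      rw [this]
      push_cast
      field_simp
  · refine ⟨⟨L.ω₁ / L.ω₂, hgt⟩, fun z => ?_⟩
    rw [mem_lattice, mem_lattice]
    simp only [modLat_ω₁, modLat_ω₂, mul_one]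
    constructor
    · rintro ⟨m, n, rfl⟩
      refine ⟨m, n, ?_⟩
      show (m : ℂ) * L.ω₁ + n * L.ω₂ = L.ω₂ * (m * (L.ω₁ / L.ω₂) + n)
      field_simp
    · rintro ⟨m, n, h⟩
      refine ⟨m, n, ?_⟩
      show (m : ℂ) * (L.ω₁ / L.ω₂) + n = z
      have : z = (m * L.ω₁ + n * L.ω₂) / L.ω₂ := by
        rw [h]
        field_simp
      rw [this]
      field_simp

/-- **V-DISC.** -/
theorem stmtVeluDisc : StmtVeluDisc := by
  intro L
  obtain ⟨τ, hτ⟩ := veludisc_exists_tau L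
  have h2 : L.ω₂ ≠ 0 := veludisc_ω₂_ne_zero L
  have hg₂ : (modLat τ).g₂ = L.ω₂ ^ 4 * L.g₂ := modunif_g₂_scale h2 hτ
  have hg₃ : (modLat τ).g₃ = L.ω₂ ^ 6 * L.g₃ := modunif_g₃_scale h2 hτ
  have h := modunif_disc_ne_zero τ
  rw [hg₂, hg₃] at h
  intro h0
  apply h
  linear_combination L.ω₂ ^ 12 * h0

end Fermat.Agent.S12

end
end ZBZ2S12_002_7

/-! ### bundled: `Fermat.Agent.S12.VeluShort` -/
section ZBZ2S12_002_8
/-
Item 12 (S12 glue), piece `VELU` / V-SHORT (helper13): Vélu's theorem for the curve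
`modCurve L : y² = x³ - (g₂/4) x - g₃/4` of a lattice, by uniformisation.

`θ_L : ℂ / L ≅ E_L(ℂ)` (S15 MOD-ADD); a finite subgroup `K` is `θ_L (L' / L)` for a lattice
`L' ⊇ L` (V-LATc); `veluCurve (modCurve L) t w = modCurve L'` (V-LATb); the isogeny is
`θ_{L'} ∘ θ_L⁻¹`, and Vélu's formulas are the expressions of `℘_{L'}`, `℘'_{L'}` through `℘_L`,
`℘'_L` (V-LATa).
-/

set_option autoImplicit false

noncomputable section

namespace Fermat.Agent.S12

open PeriodPair WeierstrassCurve WeierstrassCurve.Affine Fermat.Agent.S15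

/-- in a finite subgroup, the order kills every element -/
theorem velushort_card_nsmul {G : Type*} [AddGroup G] (K : Finset G) (h0 : 0 ∈ K)
    (hadd : ∀ P ∈ K, ∀ Q ∈ K, P + Q ∈ K) (hneg : ∀ P ∈ K, -P ∈ K) (P : G) (hP : P ∈ K) :
    K.card • P = 0 := by
  let H : AddSubgroup G :=
    { carrier := (K : Set G)
      zero_mem' := h0
      add_mem' := fun {a b} ha hb => hadd a ha b hb
      neg_mem' := fun {a} ha => hneg a ha }
  have hcard : Nat.card H = K.card := by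
    have h1 : Nat.card H = ((K : Set G)).ncard := Nat.card_coe_set_eq (K : Set G)
    rw [h1, Set.ncard_coe_finset]
  have hfin : Finite H := K.finite_toSet.to_subtype
  have h2 : Nat.card H • (⟨P, hP⟩ : H) = 0 := card_nsmul_eq_zero'
  have h3 := congrArg (Subtype.val : H → G) h2
  rw [hcard] at h3
  simpa using h3

section Core

variable {L L' : PeriodPair} {S : Finset ℂ}
  {θ : ℂ →+ (modCurve L).toAffine.Point} {K : Finset (modCurve L).toAffine.Point}

theorem velushort_X (hker : ∀ z, θ z = 0 ↔ z ∈ L.lattice)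
    (hval : ∀ z, z ∉ L.lattice →
      ∃ h : (modCurve L).toAffine.Nonsingular (℘[L] z) (℘'[L] z / 2),
        θ z = .some (℘[L] z) (℘'[L] z / 2) h) (z : ℂ) :
    veluX (θ z) = ℘[L] z := by
  by_cases hz : z ∈ L.lattice
  · rw [(hker z).2 hz, veluX_zero]
    exact (L.weierstrassP_coe ⟨z, hz⟩).symm
  · obtain ⟨h, hθ⟩ := hval z hz
    rw [hθ, veluX_some]

theorem velushort_Y (hker : ∀ z, θ z = 0 ↔ z ∈ L.lattice)
    (hval : ∀ z, z ∉ L.lattice →
      ∃ h : (modCurve L).toAffine.Nonsingular (℘[L] z) (℘'[L] z / 2),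
        θ z = .some (℘[L] z) (℘'[L] z / 2) h) (z : ℂ) :
    veluY (θ z) = ℘'[L] z / 2 := by
  by_cases hz : z ∈ L.lattice
  · rw [(hker z).2 hz, veluY_zero]
    have := L.derivWeierstrassP_coe ⟨z, hz⟩
    simp only at this
    rw [this, zero_div]
  · obtain ⟨h, hθ⟩ := hval z hz
    rw [hθ, veluY_some]

theorem velushort_T
    (hval : ∀ z, z ∉ L.lattice →
      ∃ h : (modCurve L).toAffine.Nonsingular (℘[L] z) (℘'[L] z / 2),
        θ z = .some (℘[L] z) (℘'[L] z / 2) h) {z : ℂ} (hz : z ∉ L.lattice) :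
    veluTpt (θ z) = 6 * ℘[L] z ^ 2 - L.g₂ / 2 := by
  obtain ⟨h, hθ⟩ := hval z hz
  rw [hθ, veluTpt_some]
  simp only [veluT, modCurve, WeierstrassCurve.b₂, WeierstrassCurve.b₄]
  ring

theorem velushort_U
    (hval : ∀ z, z ∉ L.lattice →
      ∃ h : (modCurve L).toAffine.Nonsingular (℘[L] z) (℘'[L] z / 2),
        θ z = .some (℘[L] z) (℘'[L] z / 2) h) {z : ℂ} (hz : z ∉ L.lattice) :
    veluUpt (θ z) = 10 * ℘[L] z ^ 3 - 3 / 2 * L.g₂ * ℘[L] z - L.g₃ := by
  obtain ⟨h, hθ⟩ := hval z hz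
  rw [hθ, veluUpt_some]
  simp only [veluU, modCurve, WeierstrassCurve.b₂, WeierstrassCurve.b₄, WeierstrassCurve.b₆]
  ring

/-- sums over `K` are sums over the representatives -/
theorem velushort_sum (hS : VeluCosetReps L L' S) (hker : ∀ z, θ z = 0 ↔ z ∈ L.lattice)
    (hsurj : Function.Surjective θ) (hK : ∀ z, θ z ∈ K ↔ z ∈ L'.lattice)
    (f : (modCurve L).toAffine.Point → ℂ) :
    ∑ Q ∈ K, f Q = ∑ s ∈ S, f (θ s) := by
  symm
  refine Finset.sum_bij (fun s _ => θ s) ?_ ?_ ?_ ?_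
  · intro s hs
    exact (hK s).2 (hS.mem s hs)
  · intro s hs s' hs' h
    apply hS.unique_rep s hs s' hs'
    rw [← hker, map_sub, h, sub_self]
  · intro Q hQ
    obtain ⟨z, rfl⟩ := hsurj Q
    obtain ⟨s, hs, hsl⟩ := hS.exists_rep z ((hK z).1 hQ)
    refine ⟨s, hs, ?_⟩
    have h1 : θ (z - s) = 0 := (hker _).2 hsl
    rw [map_sub, sub_eq_zero] at h1
    exact h1.symm
  · intro s hs
    rfl

/-- sums over `K` are sums over the negatives of the representatives -/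
theorem velushort_sum_neg (hS : VeluCosetReps L L' S) (hker : ∀ z, θ z = 0 ↔ z ∈ L.lattice)
    (hsurj : Function.Surjective θ) (hK : ∀ z, θ z ∈ K ↔ z ∈ L'.lattice)
    (hneg : ∀ P ∈ K, -P ∈ K) (f : (modCurve L).toAffine.Point → ℂ) :
    ∑ Q ∈ K, f Q = ∑ s ∈ S, f (θ (-s)) := by
  have h1 : ∑ Q ∈ K, f Q = ∑ Q ∈ K, f (-Q) :=
    Finset.sum_nbij' (fun Q => -Q) (fun Q => -Q) hneg hneg (fun a _ => neg_neg a)
      (fun a _ => neg_neg a) (fun a _ => by rw [neg_neg])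
  rw [h1, velushort_sum hS hker hsurj hK (fun Q => f (-Q))]
  refine Finset.sum_congr rfl fun s _ => ?_
  rw [map_neg]

end Core

/-- **V-SHORT.** -/
theorem stmtVeluShort : StmtVeluShort := by
  intro L K h0 hadd hneg t w ht hw
  obtain ⟨θ, hker, hsurj, hval⟩ := stmtModAdd L (stmtVeluDisc L)
  -- the lattice of `K`
  let Λ' : AddSubgroup ℂ :=
    { carrier := {z | θ z ∈ K}
      zero_mem' := by
        show θ 0 ∈ K
        rw [map_zero]
        exact h0
      add_mem' := fun {a b} ha hb => by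
        show θ (a + b) ∈ K
        rw [map_add]
        exact hadd _ ha _ hb
      neg_mem' := fun {a} ha => by
        show θ (-a) ∈ K
        rw [map_neg]
        exact hneg _ ha }
  have hΛ' : ∀ z, z ∈ Λ' ↔ θ z ∈ K := fun z => Iff.rfl
  have hcard : K.card ≠ 0 := Finset.card_ne_zero.2 ⟨0, h0⟩
  have h1 : ∀ z ∈ L.lattice, z ∈ Λ' := by
    intro z hz
    rw [hΛ', (hker z).2 hz]
    exact h0
  have h2 : ∀ z ∈ Λ', (K.card : ℂ) * z ∈ L.lattice := by
    intro z hz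
    rw [← hker, ← nsmul_eq_mul, map_nsmul]
    exact velushort_card_nsmul K h0 hadd hneg (θ z) hz
  obtain ⟨L', S, hL', hS⟩ := stmtVeluLat L Λ' K.card hcard h1 h2
  have hK : ∀ z, θ z ∈ K ↔ z ∈ L'.lattice := fun z => by rw [hL', hΛ']
  -- the trivial representative
  obtain ⟨s₀, hs₀, hs₀L⟩ : ∃ s₀ ∈ S, s₀ ∈ L.lattice := by
    obtain ⟨s, hs, hsl⟩ := hS.exists_rep 0 (zero_mem _)
    refine ⟨s, hs, ?_⟩
    have h3 := neg_mem hsl
    simpa using h3
  obtain ⟨hg₂, hg₃⟩ := stmtVeluG L L' S hS s₀ hs₀ hs₀L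
  have hnot : ∀ s ∈ S.erase s₀, s ∉ L.lattice := by
    intro s hs hsL
    exact (Finset.ne_of_mem_erase hs)
      (hS.unique_rep s (Finset.mem_of_mem_erase hs) s₀ hs₀ (sub_mem hsL hs₀L))
  -- `t` and `w` analytically
  have ht' : 2 * t = ∑ s ∈ S.erase s₀, (6 * ℘[L] s ^ 2 - L.g₂ / 2) := by
    rw [ht, velushort_sum hS hker hsurj hK, ← Finset.add_sum_erase S _ hs₀, (hker s₀).2 hs₀L,
      veluTpt_zero, zero_add]
    exact Finset.sum_congr rfl fun s hs => velushort_T hval (hnot s hs)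
  have hw' : 2 * w = ∑ s ∈ S.erase s₀, (10 * ℘[L] s ^ 3 - 3 / 2 * L.g₂ * ℘[L] s - L.g₃) := by
    rw [hw, velushort_sum hS hker hsurj hK, ← Finset.add_sum_erase S _ hs₀, (hker s₀).2 hs₀L,
      veluUpt_zero, zero_add]
    exact Finset.sum_congr rfl fun s hs => velushort_U hval (hnot s hs)
  have hg₂' : L'.g₂ = L.g₂ + 20 * t := by
    have h3 : ∑ s ∈ S.erase s₀, (60 * ℘[L] s ^ 2 - 5 * L.g₂) =
        10 * ∑ s ∈ S.erase s₀, (6 * ℘[L] s ^ 2 - L.g₂ / 2) := by
      rw [Finset.mul_sum]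
      exact Finset.sum_congr rfl fun s _ => by ring
    rw [hg₂, h3, ← ht']
    ring
  have hg₃' : L'.g₃ = L.g₃ + 28 * w := by
    have h3 : ∑ s ∈ S.erase s₀, (140 * ℘[L] s ^ 3 - 21 * L.g₂ * ℘[L] s - 14 * L.g₃) =
        14 * ∑ s ∈ S.erase s₀, (10 * ℘[L] s ^ 3 - 3 / 2 * L.g₂ * ℘[L] s - L.g₃) := by
      rw [Finset.mul_sum]
      exact Finset.sum_congr rfl fun s _ => by ring
    rw [hg₃, h3, ← hw']
    ring
  have hcurve : veluCurve (modCurve L) t w = modCurve L' := by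
    ext
    · rfl
    · rfl
    · rfl
    · show -L.g₂ / 4 - 5 * t = -L'.g₂ / 4
      rw [hg₂']
      ring
    · show -L.g₃ / 4 - (modCurve L).b₂ * t - 7 * w = -L'.g₃ / 4
      rw [hg₃']
      simp only [modCurve, WeierstrassCurve.b₂]
      ring
  rw [hcurve]
  obtain ⟨θ', hker', hsurj', hval'⟩ := stmtModAdd L' (stmtVeluDisc L')
  refine ⟨?_, ?_⟩
  · have hΔ : (modCurve L').Δ = L'.g₂ ^ 3 - 27 * L'.g₃ ^ 2 := by
      simp only [modCurve, WeierstrassCurve.Δ, WeierstrassCurve.b₂, WeierstrassCurve.b₄,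
        WeierstrassCurve.b₆, WeierstrassCurve.b₈]
      ring
    rw [hΔ]
    exact stmtVeluDisc L'
  · have hle : θ.ker ≤ θ'.ker := by
      intro z hz
      rw [AddMonoidHom.mem_ker] at hz ⊢
      rw [hker']
      exact hS.le ((hker z).1 hz)
    let φ : (modCurve L).toAffine.Point →+ (modCurve L').toAffine.Point :=
      AddMonoidHom.liftOfRightInverse θ (Function.surjInv hsurj)
        (Function.rightInverse_surjInv hsurj) ⟨θ', hle⟩
    have hφ : ∀ z, φ (θ z) = θ' z := fun z =>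
      AddMonoidHom.liftOfRightInverse_comp_apply θ (Function.surjInv hsurj)
        (Function.rightInverse_surjInv hsurj) ⟨θ', hle⟩ z
    refine ⟨φ, ?_, ?_⟩
    · intro P
      obtain ⟨z, rfl⟩ := hsurj P
      rw [hφ, hker', hK]
    · intro P hP
      obtain ⟨z, rfl⟩ := hsurj P
      have hz' : z ∉ L'.lattice := fun h => hP ((hK z).2 h)
      obtain ⟨h', hθ'⟩ := hval' z hz'
      obtain ⟨hWp, hWp'⟩ := stmtVeluWp L L' S hS z
      obtain ⟨-, hWp0⟩ := stmtVeluWp L L' S hS 0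
      have hX : ∑ Q ∈ K, (veluX (θ z + Q) - veluX Q) = ℘[L'] z := by
        rw [velushort_sum_neg hS hker hsurj hK hneg, hWp]
        refine Finset.sum_congr rfl fun s _ => ?_
        rw [← map_add, velushort_X hker hval, velushort_X hker hval, L.weierstrassP_neg,
          ← sub_eq_add_neg]
      have hY : ∑ Q ∈ K, (veluY (θ z + Q) - veluY Q) = ℘'[L'] z / 2 := by
        rw [velushort_sum_neg hS hker hsurj hK hneg]
        have h3 : ∀ s ∈ S, veluY (θ z + θ (-s)) - veluY (θ (-s)) =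
            ℘'[L] (z - s) / 2 - ℘'[L] (0 - s) / 2 := by
          intro s _
          rw [← map_add, velushort_Y hker hval, velushort_Y hker hval, zero_sub,
            ← sub_eq_add_neg]
        rw [Finset.sum_congr rfl h3, Finset.sum_sub_distrib, ← Finset.sum_div, ← Finset.sum_div,
          ← hWp', ← hWp0, L'.derivWeierstrassP_zero]
        ring
      have key : ∀ X Y : ℂ, X = ℘[L'] z → Y = ℘'[L'] z / 2 →
          ∃ h, (Point.some (℘[L'] z) (℘'[L'] z / 2) h' : (modCurve L').toAffine.Point) =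
            .some X Y h := by
        intro X Y hX hY
        subst hX
        subst hY
        exact ⟨h', rfl⟩
      rw [hφ, hθ']
      exact key _ _ hX hY

end Fermat.Agent.S12

end
end ZBZ2S12_002_8

/-! ### bundled: `Fermat.Agent.S12.VeluMap` -/
section ZBZ2S12_002_9
/-
Item 12 (S12 glue), piece `VELU` / V-MAP (helper13): Vélu's theorem over `ℂ`, from V-SHORT
(`stmtVeluShort`), V-VC (`StmtVeluVC`) and the uniformisation of S15 MOD-UNIF.
-/

set_option autoImplicit false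

noncomputable section

namespace Fermat.Agent.S12

open PeriodPair WeierstrassCurve WeierstrassCurve.Affine Fermat.Agent.S15 Fermat.Agent.S24

/-- every complex Weierstrass curve with `c₄ c₆ Δ ≠ 0` is, after a change of variables, the
curve of a lattice -/
theorem velumap_exists_lattice (W : WeierstrassCurve ℂ) (hΔ : W.Δ ≠ 0) (hc₄ : W.c₄ ≠ 0)
    (hc₆ : W.c₆ ≠ 0) :
    ∃ (L : PeriodPair) (C : VariableChange ℂ), C • W = modCurve L := by
  obtain ⟨τ₁, hτ₁⟩ := Jfun_surjective (W.c₄ ^ 3 / W.Δ)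
  have hJW : Jfun τ₁ * W.Δ = W.c₄ ^ 3 := by rw [hτ₁, div_mul_cancel₀ _ hΔ]
  have hD := modunif_disc_ne_zero τ₁
  have hJ := modunif_Jfun_tau τ₁
  obtain ⟨-, -, v, hv, h4, h6⟩ :=
    modunif_exists_scale W hc₄ hc₆ (modLat τ₁).g₂ (modLat τ₁).g₃ (Jfun τ₁) hD hJ hJW
  obtain ⟨C, hC, -⟩ := modunif_vc_short W two_ne_zero three_ne_zero v hv
    (modLat τ₁).g₂ (modLat τ₁).g₃ h4 h6
  exact ⟨modLat τ₁, C, hC⟩

/-- **V-MAP.** -/
theorem stmtVeluC_of (hVC : StmtVeluVC) : StmtVeluC := by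
  rw [stmtVeluC_iff]
  intro W hΔ hc₄ hc₆
  obtain ⟨L, C, hC⟩ := velumap_exists_lattice W hΔ hc₄ hc₆
  apply hVC ℂ W C
  rw [hC]
  exact stmtVeluShort L

end Fermat.Agent.S12

end
end ZBZ2S12_002_9

/-! ### bundled: `Fermat.Agent.S12.VeluC4Nodal` -/
section ZBZ2S12_002_10
/-
Item 12 (S12 glue), piece `VELU / V-C4`, part 1 (helper60): the sum of `t_Q` over a finite
subgroup of a split nodal cubic.

`k` a field of characteristic `≠ 2`, `W` nodal (`Δ = 0`, `c₄ ≠ 0`) with split node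
(`γ² = nodeG W`), `H` a finite subgroup of `W_ns(k)` of order `m` invertible in `k`:

  `120 ∑_{Q ∈ H} t_Q = c₄ (m⁴ - 1)`,   `t_Q = 6 x² + b₂ x + b₄`.

(`ψ : W_ns(k) ↪ kˣ` of V-NODE maps `H` onto `μ_m`; `t_Q = c₄ (6 X² + X)`, `X = ζ/(1-ζ)²`; V-ROOT.)
-/

set_option autoImplicit false

noncomputable section

namespace Fermat.Agent.S12

open WeierstrassCurve Fermat.Agent.S15.ECL

/-! ### Finsets closed under the group operations -/

/-- the subgroup with a given finite carrier -/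
def veluc4Sub {G : Type*} [AddCommGroup G] (H : Finset G) (h0 : 0 ∈ H)
    (hadd : ∀ P ∈ H, ∀ Q ∈ H, P + Q ∈ H) (hneg : ∀ P ∈ H, -P ∈ H) : AddSubgroup G where
  carrier := ↑H
  zero_mem' := h0
  add_mem' := fun {P Q} hP hQ => hadd P hP Q hQ
  neg_mem' := fun {P} hP => hneg P hP

theorem veluc4_mem_sub {G : Type*} [AddCommGroup G] (H : Finset G) (h0 : 0 ∈ H)
    (hadd : ∀ P ∈ H, ∀ Q ∈ H, P + Q ∈ H) (hneg : ∀ P ∈ H, -P ∈ H) (Q : G) :
    Q ∈ veluc4Sub H h0 hadd hneg ↔ Q ∈ H := Iff.rfl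

theorem veluc4_card_sub {G : Type*} [AddCommGroup G] (H : Finset G) (h0 : 0 ∈ H)
    (hadd : ∀ P ∈ H, ∀ Q ∈ H, P + Q ∈ H) (hneg : ∀ P ∈ H, -P ∈ H) :
    Nat.card (veluc4Sub H h0 hadd hneg) = H.card := by
  have : Nat.card (veluc4Sub H h0 hadd hneg) = Nat.card (↑H : Set G) := rfl
  rw [this, Nat.card_coe_set_eq, Set.ncard_coe_finset]

theorem veluc4_finite_sub {G : Type*} [AddCommGroup G] (H : Finset G) (h0 : 0 ∈ H)
    (hadd : ∀ P ∈ H, ∀ Q ∈ H, P + Q ∈ H) (hneg : ∀ P ∈ H, -P ∈ H) :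
    Finite (veluc4Sub H h0 hadd hneg) :=
  (Finset.finite_toSet H).to_subtype

/-- Lagrange for a finset closed under the group operations. -/
theorem veluc4_lagrange {G : Type*} [AddCommGroup G] (H : Finset G) (h0 : 0 ∈ H)
    (hadd : ∀ P ∈ H, ∀ Q ∈ H, P + Q ∈ H) (hneg : ∀ P ∈ H, -P ∈ H) :
    ∀ Q ∈ H, H.card • Q = 0 := by
  intro Q hQ
  have hfin := veluc4_finite_sub H h0 hadd hneg
  have h1 : Nat.card (veluc4Sub H h0 hadd hneg) •
      (⟨Q, hQ⟩ : veluc4Sub H h0 hadd hneg) = 0 := card_nsmul_eq_zero'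
  rw [veluc4_card_sub] at h1
  have h2 := congrArg Subtype.val h1
  simpa using h2

theorem veluc4_card_dvd {G : Type*} [AddCommGroup G] (H₁ H₂ : Finset G) (h0 : 0 ∈ H₁)
    (hadd : ∀ P ∈ H₁, ∀ Q ∈ H₁, P + Q ∈ H₁) (hneg : ∀ P ∈ H₁, -P ∈ H₁) (h0' : 0 ∈ H₂)
    (hadd' : ∀ P ∈ H₂, ∀ Q ∈ H₂, P + Q ∈ H₂) (hneg' : ∀ P ∈ H₂, -P ∈ H₂) (hsub : H₁ ⊆ H₂) :
    H₁.card ∣ H₂.card := by
  have hle : veluc4Sub H₁ h0 hadd hneg ≤ veluc4Sub H₂ h0' hadd' hneg' := fun Q hQ => hsub hQ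
  have := AddSubgroup.card_dvd_of_le hle
  rwa [veluc4_card_sub, veluc4_card_sub] at this

/-! ### The nodal sum -/

variable {k : Type} [Field k] [DecidableEq k] {W : WeierstrassCurve k}

theorem veluc4_U_nsmul (h2 : (2 : k) ≠ 0) (hΔ : W.Δ = 0) (hc : W.c₄ ≠ 0) {γ : k}
    (hγ : γ ^ 2 = nodeG W) (n : ℕ) (Q : W.toAffine.Point) :
    velunodeU W γ (n • Q) = velunodeU W γ Q ^ n := by
  have h := map_nsmul (velunodePsi h2 hΔ hc hγ) n Q
  have h' := congrArg (fun a => ((Additive.toMul a : kˣ) : k)) h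
  simp only [toMul_nsmul, Units.val_pow_eq_pow_val, velunodePsi_val] at h'
  exact h'

theorem veluc4_U_injective (h2 : (2 : k) ≠ 0) (hΔ : W.Δ = 0) (hc : W.c₄ ≠ 0) {γ : k}
    (hγ : γ ^ 2 = nodeG W) : Function.Injective (velunodeU W γ) := by
  intro P Q h
  apply velunodePsi_injective h2 hΔ hc hγ
  apply Additive.toMul.injective
  apply Units.ext
  rw [velunodePsi_val, velunodePsi_val]
  exact h

/-- `t_Q = c₄ (6 X² + X)` with `X = u / (1 - u)²`, `u = ψ(Q) ≠ 1`. -/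
theorem veluc4_T_eq (h2 : (2 : k) ≠ 0) (hΔ : W.Δ = 0) (hc : W.c₄ ≠ 0) {γ : k}
    (hγ : γ ^ 2 = nodeG W) (Q : W.toAffine.Point) (hQ : Q ≠ 0) :
    veluTpt Q = W.c₄ * (6 * (velunodeU W γ Q / (1 - velunodeU W γ Q) ^ 2) ^ 2
      + velunodeU W γ Q / (1 - velunodeU W γ Q) ^ 2) := by
  rcases Q with _ | ⟨x, y, h⟩
  · exact absurd rfl hQ
  have hu1 : velunodeU W γ (.some x y h) ≠ 1 := by
    intro h1
    apply hQ
    apply veluc4_U_injective h2 hΔ hc hγ
    rw [h1]; rfl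
  have hrel := velunodeU_rel h2 hΔ hc hγ h
  have h1u : (1 - velunodeU W γ (.some x y h)) ≠ 0 := sub_ne_zero.2 (Ne.symm hu1)
  obtain ⟨u, hu⟩ : ∃ u, u = velunodeU W γ (.some x y h) := ⟨_, rfl⟩
  rw [← hu] at hrel h1u ⊢
  have hX : x - nodeX W = nodeG W * (u / (1 - u) ^ 2) := by
    field_simp
    linear_combination hrel
  rw [veluTpt_some, veluT, velunode_six h2 hΔ hc, hX, ← nodeG_sq hΔ hc]
  ring

theorem veluc4_nodal_sum (h2 : (2 : k) ≠ 0) (hΔ : W.Δ = 0) (hc : W.c₄ ≠ 0) {γ : k}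
    (hγ : γ ^ 2 = nodeG W) (H : Finset W.toAffine.Point) (h0 : 0 ∈ H)
    (hm : (H.card : k) ≠ 0) (htors : ∀ Q ∈ H, H.card • Q = 0) :
    120 * ∑ Q ∈ H, veluTpt Q = W.c₄ * ((H.card : k) ^ 4 - 1) := by
  obtain ⟨m, hmdef⟩ : ∃ m, m = H.card := ⟨_, rfl⟩
  rw [← hmdef] at hm htors ⊢
  have hmpos : 0 < m := by rw [hmdef]; exact Finset.card_pos.2 ⟨0, h0⟩
  have hinj := veluc4_U_injective h2 hΔ hc hγ
  set μ : Finset k := (H.erase 0).image (velunodeU W γ) with hμdef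
  have hμcard : μ.card + 1 = m := by
    rw [hμdef, Finset.card_image_of_injective _ hinj, Finset.card_erase_of_mem h0, hmdef]
    have := Finset.card_pos.2 ⟨0, h0⟩
    omega
  have hμ1 : ∀ ζ ∈ μ, ζ ^ m = 1 ∧ ζ ≠ 1 := by
    intro ζ hζ
    rw [hμdef, Finset.mem_image] at hζ
    obtain ⟨Q, hQ, rfl⟩ := hζ
    rw [Finset.mem_erase] at hQ
    refine ⟨?_, ?_⟩
    · rw [← veluc4_U_nsmul h2 hΔ hc hγ, htors Q hQ.2]; rfl
    · intro h1
      apply hQ.1
      apply hinj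
      rw [h1]; rfl
  have hsub : insert 1 μ ⊆ Polynomial.nthRootsFinset m (1 : k) := by
    intro ζ hζ
    rw [Polynomial.mem_nthRootsFinset hmpos]
    rcases Finset.mem_insert.1 hζ with rfl | hζ
    · exact one_pow m
    · exact (hμ1 ζ hζ).1
  have h1μ : (1 : k) ∉ μ := fun h => (hμ1 1 h).2 rfl
  have hcard2 : (Polynomial.nthRootsFinset m (1 : k)).card ≤ (insert 1 μ).card := by
    rw [Finset.card_insert_of_notMem h1μ, hμcard]
    calc (Polynomial.nthRootsFinset m (1 : k)).card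
        ≤ Multiset.card (Polynomial.nthRoots m (1 : k)) := by
          rw [Polynomial.nthRootsFinset_def]
          exact Multiset.toFinset_card_le _
      _ ≤ m := Polynomial.card_nthRoots m 1
  have heq := Finset.eq_of_subset_of_card_le hsub hcard2
  have hμ : ∀ ζ, ζ ∈ μ ↔ ζ ^ m = 1 ∧ ζ ≠ 1 := by
    intro ζ
    refine ⟨hμ1 ζ, fun ⟨h1, h2'⟩ => ?_⟩
    have : ζ ∈ insert 1 μ := by
      rw [heq, Polynomial.mem_nthRootsFinset hmpos]
      exact h1
    rcases Finset.mem_insert.1 this with h | h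
    · exact absurd h h2'
    · exact h
  have hroot := stmtVeluRoot k m μ hm hμ hμcard
  have hsum : ∑ Q ∈ H, veluTpt Q = W.c₄ * ∑ ζ ∈ μ, (6 * (ζ / (1 - ζ) ^ 2) ^ 2
      + ζ / (1 - ζ) ^ 2) := by
    rw [← Finset.add_sum_erase H _ h0, veluTpt_zero, zero_add, hμdef,
      Finset.sum_image (fun a _ b _ hab => hinj hab), Finset.mul_sum]
    apply Finset.sum_congr rfl
    intro Q hQ
    exact veluc4_T_eq h2 hΔ hc hγ Q (Finset.mem_erase.1 hQ).1
  rw [hsum]
  linear_combination W.c₄ * hroot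

end Fermat.Agent.S12

end
end ZBZ2S12_002_10

/-! ### bundled: `Fermat.Agent.S12.VeluC4Red` -/
section ZBZ2S12_002_11
/-
Item 12 (S12 glue), piece `VELU / V-C4`, part 2 (helper60): reduction at a place of
multiplicative reduction.

`A` a valuation subring of a field `K`, `W₀` a Weierstrass curve over `A` whose reduction is
nodal (`Δ̄ = 0`, `c̄₄ ≠ 0`), residue field with square roots; `𝒦` a finite subgroup of `W₀(K)` of
order a unit of `A`.  Then `c₄ + 120 ∑_{Q ∈ 𝒦} t_Q` is a unit of `A`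
(`≡ m⁴ c₄`, `m = #(𝒦 ∩ E⁰)`).
-/

set_option autoImplicit false
set_option linter.unusedSectionVars false

noncomputable section

namespace Fermat.Agent.S12

open WeierstrassCurve Fermat.Agent.RED Fermat.Agent.S05 Fermat.Agent.S15.ECL

variable {K : Type} [Field K] [DecidableEq K] {A : ValuationSubring K}
  [DecidableEq (IsLocalRing.ResidueField A)] {W₀ : WeierstrassCurve A}

/-- torsion points of order a unit of `A` are integral -/
theorem veluc4_int {n : ℕ} (hn : (n : K) ∉ A.nonunits) {x y : K}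
    (h : (curveK A W₀).toAffine.Nonsingular x y)
    (htors : n • (Affine.Point.some x y h : (curveK A W₀).toAffine.Point) = 0) :
    x ∈ A ∧ y ∈ A := by
  have hx : x ∈ A := no_torsion_of_not_mem A (curveK A W₀) (curveK_a₁_mem A W₀)
    (curveK_a₂_mem A W₀) (curveK_a₃_mem A W₀) (curveK_a₄_mem A W₀) (curveK_a₆_mem A W₀) n hn h htors
  exact ⟨hx, y_mem_of_x_mem A W₀ h.1 hx⟩

open Classical in
/-- `t_Q` as an element of `A` (junk value `0` if `t_Q ∉ A`) -/
def veluc4TA (Q : (curveK A W₀).toAffine.Point) : A :=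
  if h : veluTpt Q ∈ A then ⟨veluTpt Q, h⟩ else 0

theorem veluc4_T_mem {n : ℕ} (hn : (n : K) ∉ A.nonunits)
    {Q : (curveK A W₀).toAffine.Point} (htors : n • Q = 0) : veluTpt Q ∈ A := by
  rcases Q with _ | ⟨x, y, h⟩
  · exact A.zero_mem
  · obtain ⟨hx, -⟩ := veluc4_int hn h htors
    rw [veluTpt_some]
    have := veluT_map A.subtype W₀ ⟨x, hx⟩
    have e : veluT (curveK A W₀) x = ((veluT W₀ ⟨x, hx⟩ : A) : K) := this
    rw [e]
    exact (veluT W₀ ⟨x, hx⟩).2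

theorem veluc4TA_coe {n : ℕ} (hn : (n : K) ∉ A.nonunits)
    {Q : (curveK A W₀).toAffine.Point} (htors : n • Q = 0) :
    ((veluc4TA Q : A) : K) = veluTpt Q := by
  unfold veluc4TA
  rw [dif_pos (veluc4_T_mem hn htors)]

open Classical in
/-- the residue of `t_Q`: `t` of the reduction on `E⁰`, and `0` at the node -/
theorem veluc4TA_res (h2 : (2 : IsLocalRing.ResidueField A) ≠ 0)
    (hΔ : (curveRes A W₀).Δ = 0) (hc : (curveRes A W₀).c₄ ≠ 0)
    {n : ℕ} (hn : (n : K) ∉ A.nonunits)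
    {Q : (curveK A W₀).toAffine.Point} (htors : n • Q = 0) :
    IsLocalRing.residue A (veluc4TA Q) = if InE0 Q then veluTpt (redPt0 Q) else 0 := by
  have hmem := veluc4_T_mem hn htors
  rcases Q with _ | ⟨x, y, h⟩
  · have h0 : veluc4TA (Affine.Point.zero : (curveK A W₀).toAffine.Point) = 0 := by
      apply Subtype.ext
      rw [veluc4TA_coe hn htors]
      rfl
    rw [h0, map_zero, if_pos (show InE0 (Affine.Point.zero : (curveK A W₀).toAffine.Point)
      from trivial)]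
    rfl
  · obtain ⟨hx, hy⟩ := veluc4_int hn h htors
    have e1 : veluc4TA (Affine.Point.some x y h : (curveK A W₀).toAffine.Point)
        = veluT W₀ ⟨x, hx⟩ := by
      apply Subtype.ext
      rw [veluc4TA_coe hn htors, veluTpt_some]
      exact veluT_map A.subtype W₀ ⟨x, hx⟩
    have e2 : IsLocalRing.residue A (veluT W₀ ⟨x, hx⟩)
        = veluT (curveRes A W₀) (IsLocalRing.residue A ⟨x, hx⟩) :=
      (veluT_map (IsLocalRing.residue A) W₀ ⟨x, hx⟩).symm
    rw [e1, e2]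
    by_cases hE : InE0 (Affine.Point.some x y h : (curveK A W₀).toAffine.Point)
    · rw [if_pos hE]
      have hns : NsRes W₀ ⟨x, hx⟩ ⟨y, hy⟩ :=
        (inE0_coe_iff (a := ⟨x, hx⟩) (b := ⟨y, hy⟩) h).1 hE
      rw [redPt0_coe (a := ⟨x, hx⟩) (b := ⟨y, hy⟩) h hns, veluTpt_some]
    · rw [if_neg hE]
      have hns : ¬ NsRes W₀ ⟨x, hx⟩ ⟨y, hy⟩ := fun hns =>
        hE ((inE0_coe_iff (a := ⟨x, hx⟩) (b := ⟨y, hy⟩) h).2 hns)
      have heq : (curveRes A W₀).toAffine.Equation (IsLocalRing.residue A ⟨x, hx⟩)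
          (IsLocalRing.residue A ⟨y, hy⟩) :=
        Affine.Equation.map (IsLocalRing.residue A)
          (equation_of_coe A W₀ (a := ⟨x, hx⟩) (b := ⟨y, hy⟩) h.1)
      have hx0 : IsLocalRing.residue A ⟨x, hx⟩ = nodeX (curveRes A W₀) := by
        by_contra hne
        exact hns ((node_nonsingular_iff h2 hΔ hc _ _).2 ⟨heq, hne⟩)
      rw [veluT, velunode_six h2 hΔ hc, hx0]
      ring

/-- **V-C4, generic form.** -/
theorem veluc4_generic (hΔ : (curveRes A W₀).Δ = 0) (hc : (curveRes A W₀).c₄ ≠ 0)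
    (hsq : ∀ a : IsLocalRing.ResidueField A, ∃ b : IsLocalRing.ResidueField A, b ^ 2 = a)
    (𝒦 : Finset (curveK A W₀).toAffine.Point) (h0 : 0 ∈ 𝒦)
    (hadd : ∀ P ∈ 𝒦, ∀ Q ∈ 𝒦, P + Q ∈ 𝒦) (hneg : ∀ P ∈ 𝒦, -P ∈ 𝒦)
    (hn : (𝒦.card : K) ∉ A.nonunits) :
    A.valuation (((W₀.c₄ : A) : K) + 120 * ∑ Q ∈ 𝒦, veluTpt Q) = 1 := by
  classical
  have htors := veluc4_lagrange 𝒦 h0 hadd hneg
  -- the sum as an element of `A`
  have hT : ((∑ Q ∈ 𝒦, veluc4TA Q : A) : K) = ∑ Q ∈ 𝒦, veluTpt Q := by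
    rw [← A.subtype_apply, map_sum]
    apply Finset.sum_congr rfl
    intro Q hQ
    exact veluc4TA_coe hn (htors Q hQ)
  have hcoe : ((W₀.c₄ : A) : K) + 120 * ∑ Q ∈ 𝒦, veluTpt Q
      = ((W₀.c₄ + 120 * ∑ Q ∈ 𝒦, veluc4TA Q : A) : K) := by
    rw [← hT]
    push_cast
    rfl
  rw [hcoe, ← residue_ne_zero_iff_val_eq_one, map_add, map_mul, map_ofNat]
  have hc4 : IsLocalRing.residue A W₀.c₄ = (curveRes A W₀).c₄ :=
    (WeierstrassCurve.map_c₄ W₀ (IsLocalRing.residue A)).symm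
  rw [hc4]
  by_cases h120 : (120 : IsLocalRing.ResidueField A) = 0
  · rw [h120, zero_mul, add_zero]
    exact hc
  have h2 : (2 : IsLocalRing.ResidueField A) ≠ 0 := by
    intro h
    apply h120
    have : (120 : IsLocalRing.ResidueField A) = 2 * 60 := by norm_num
    rw [this, h, zero_mul]
  obtain ⟨γ, hγ⟩ := hsq (nodeG (curveRes A W₀))
  -- the residue of the sum
  set K0 : Finset (curveK A W₀).toAffine.Point := 𝒦.filter (fun Q => InE0 Q) with hK0
  have hK0mem : ∀ Q, Q ∈ K0 ↔ Q ∈ 𝒦 ∧ InE0 Q := fun Q => by rw [hK0, Finset.mem_filter]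
  have hK0zero : (0 : (curveK A W₀).toAffine.Point) ∈ K0 := (hK0mem 0).2 ⟨h0, inE0_zero⟩
  have hK0add : ∀ P ∈ K0, ∀ Q ∈ K0, P + Q ∈ K0 := by
    intro P hP Q hQ
    rw [hK0mem] at hP hQ ⊢
    exact ⟨hadd P hP.1 Q hQ.1, (inE0_add_and hP.2 hQ.2).1⟩
  have hK0neg : ∀ P ∈ K0, -P ∈ K0 := by
    intro P hP
    rw [hK0mem] at hP ⊢
    exact ⟨hneg P hP.1, inE0_neg hP.2⟩
  have hinj : Set.InjOn (redPt0 (A := A) (W₀ := W₀)) (K0 : Set (curveK A W₀).toAffine.Point) := by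
    intro P hP Q hQ hPQ
    have hP' := (hK0mem P).1 hP
    have hQ' := (hK0mem Q).1 hQ
    have hD : P + -Q ∈ K0 := hK0add P hP (-Q) (hK0neg Q hQ)
    have hD' := (hK0mem _).1 hD
    have hred : redPt0 (P + -Q) = 0 := by
      rw [(inE0_add_and hP'.2 (inE0_neg hQ'.2)).2, redPt0_neg hQ'.2, hPQ, add_neg_cancel]
    have hz : (⟨P + -Q, hD'.2⟩ : E0 A W₀) = 0 :=
      eq_zero_of_red0_eq_zero_of_nsmul (P := ⟨P + -Q, hD'.2⟩) hn
        (Subtype.ext (htors _ hD'.1)) hred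
    have hz' : P + -Q = 0 := congrArg Subtype.val hz
    rw [← sub_eq_add_neg, sub_eq_zero] at hz'
    exact hz'
  set H : Finset (curveRes A W₀).toAffine.Point := K0.image redPt0 with hH
  have hHcard : H.card = K0.card := Finset.card_image_of_injOn hinj
  have hH0 : (0 : (curveRes A W₀).toAffine.Point) ∈ H := by
    rw [hH, Finset.mem_image]
    exact ⟨0, hK0zero, redPt0_zero⟩
  have hHadd : ∀ P ∈ H, ∀ Q ∈ H, P + Q ∈ H := by
    intro P hP Q hQ
    rw [hH, Finset.mem_image] at hP hQ ⊢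
    obtain ⟨P', hP', rfl⟩ := hP
    obtain ⟨Q', hQ', rfl⟩ := hQ
    exact ⟨P' + Q', hK0add P' hP' Q' hQ',
      (inE0_add_and ((hK0mem P').1 hP').2 ((hK0mem Q').1 hQ').2).2⟩
  have hHneg : ∀ P ∈ H, -P ∈ H := by
    intro P hP
    rw [hH, Finset.mem_image] at hP ⊢
    obtain ⟨P', hP', rfl⟩ := hP
    exact ⟨-P', hK0neg P' hP', redPt0_neg ((hK0mem P').1 hP').2⟩
  have hHtors := veluc4_lagrange H hH0 hHadd hHneg
  have hdvd : H.card ∣ 𝒦.card := by
    rw [hHcard]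
    exact veluc4_card_dvd K0 𝒦 hK0zero hK0add hK0neg h0 hadd hneg (Finset.filter_subset _ _)
  have hnk : ((𝒦.card : ℕ) : IsLocalRing.ResidueField A) ≠ 0 := by
    have h1 : ((𝒦.card : ℕ) : IsLocalRing.ResidueField A)
        = IsLocalRing.residue A ((𝒦.card : ℕ) : A) := by rw [map_natCast]
    rw [h1, residue_ne_zero_iff_val_eq_one]
    have h3 : A.valuation ((((𝒦.card : ℕ) : A)) : K) ≤ 1 :=
      (A.valuation_le_one_iff _).2 (SetLike.coe_mem _)
    have h4 : ((((𝒦.card : ℕ) : A)) : K) = ((𝒦.card : ℕ) : K) := by push_cast; rfl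
    rw [h4] at h3 ⊢
    rw [ValuationSubring.mem_nonunits_iff, not_lt] at hn
    exact le_antisymm h3 hn
  have hmk : ((H.card : ℕ) : IsLocalRing.ResidueField A) ≠ 0 := by
    intro h
    obtain ⟨c, hc'⟩ := hdvd
    apply hnk
    rw [hc', Nat.cast_mul, h, zero_mul]
  have hsumres : IsLocalRing.residue A (∑ Q ∈ 𝒦, veluc4TA Q) = ∑ R ∈ H, veluTpt R := by
    rw [map_sum, hH, Finset.sum_image hinj, hK0, Finset.sum_filter]
    apply Finset.sum_congr rfl
    intro Q hQ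
    exact veluc4TA_res h2 hΔ hc hn (htors Q hQ)
  rw [hsumres, veluc4_nodal_sum h2 hΔ hc hγ H hH0 hmk hHtors]
  have : (curveRes A W₀).c₄ + (curveRes A W₀).c₄ *
      (((H.card : ℕ) : IsLocalRing.ResidueField A) ^ 4 - 1)
      = (curveRes A W₀).c₄ * ((H.card : ℕ) : IsLocalRing.ResidueField A) ^ 4 := by ring
  rw [this]
  exact mul_ne_zero hc (pow_ne_zero 4 hmk)

end Fermat.Agent.S12

end
end ZBZ2S12_002_11

/-! ### bundled: `Fermat.Agent.S12.VeluC4` -/
section ZBZ2S12_002_12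
/-
Item 12 (S12 glue), piece `VELU / V-C4` (helper60): `stmtVeluC4 : StmtVeluC4`.

At a prime `ℓ ≠ p` of multiplicative reduction, `c₄ + 120 ∑_{Q ∈ K} t_Q` (`= c₄(W / K)`) is a unit
at every place `A ∣ ℓ` of `ℚ̄` (`≡ m⁴ c₄`, `m = #(K ∩ E⁰)`).  Specialisation of
`veluc4_generic` (`S12/VeluC4Red.lean`).
-/

set_option autoImplicit false

noncomputable section

namespace Fermat.Agent.S12

open WeierstrassCurve WeierstrassCurve.Affine Fermat.Agent.RED Fermat.Agent.S05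
  Fermat.Agent.S15 Fermat.Agent.S15.ECL

theorem veluc4_Tpt_congr {F : Type*} [Field F] [DecidableEq F] {E₁ E₂ : WeierstrassCurve F}
    (h : E₁ = E₂) (Q : E₁.toAffine.Point) : veluTpt (pointCongr h Q) = veluTpt Q := by
  subst h
  rfl

theorem stmtVeluC4 : StmtVeluC4 := by
  intro W p ℓ hp hℓ hℓp hℓΔ hℓc₄ k K h0 hadd hneg hcard A hA
  let _ : DecidableEq (IsLocalRing.ResidueField A) := Classical.decEq _
  obtain ⟨e, he⟩ : ∃ e : PtZ W ≃+ (curveK A (modelA W A)).toAffine.Point,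
      e = pointCongr (baseChange_eq_curveK W A) := ⟨_, rfl⟩
  have hΔ : (curveRes A (modelA W A)).Δ = 0 := by
    rw [ecloc_curveRes_eq]
    exact modxi_res_Δ hℓ hA hℓΔ
  have hc : (curveRes A (modelA W A)).c₄ ≠ 0 := by
    rw [ecloc_curveRes_eq]
    exact modxi_res_c₄ hℓ hA hℓc₄
  have hsq : ∀ a : IsLocalRing.ResidueField A, ∃ b : IsLocalRing.ResidueField A, b ^ 2 = a := by
    intro a
    have := isAlgClosed_residueField A
    exact IsAlgClosed.exists_pow_nat_eq a zero_lt_two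
  have h0' : (0 : (curveK A (modelA W A)).toAffine.Point) ∈ K.map e.toEquiv.toEmbedding := by
    rw [Finset.mem_map]
    exact ⟨0, h0, map_zero e⟩
  have hadd' : ∀ P ∈ K.map e.toEquiv.toEmbedding, ∀ Q ∈ K.map e.toEquiv.toEmbedding,
      P + Q ∈ K.map e.toEquiv.toEmbedding := by
    intro P hP Q hQ
    rw [Finset.mem_map] at hP hQ ⊢
    obtain ⟨P', hP', rfl⟩ := hP
    obtain ⟨Q', hQ', rfl⟩ := hQ
    exact ⟨P' + Q', hadd P' hP' Q' hQ', map_add e P' Q'⟩
  have hneg' : ∀ P ∈ K.map e.toEquiv.toEmbedding, -P ∈ K.map e.toEquiv.toEmbedding := by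
    intro P hP
    rw [Finset.mem_map] at hP ⊢
    obtain ⟨P', hP', rfl⟩ := hP
    exact ⟨-P', hneg P' hP', map_neg e P'⟩
  have hn : (((K.map e.toEquiv.toEmbedding).card : ℕ) : Qb) ∉ A.nonunits := by
    rw [Finset.card_map, hcard]
    intro h
    have h1 := (natCast_mem_nonunits_iff A hℓ hA (p ^ k)).1 h
    exact hℓp ((Nat.prime_dvd_prime_iff_eq hℓ hp).1 (hℓ.dvd_of_dvd_pow h1))
  have key := veluc4_generic hΔ hc hsq (K.map e.toEquiv.toEmbedding) h0' hadd' hneg' hn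
  have hsum : ∑ Q ∈ K.map e.toEquiv.toEmbedding, veluTpt Q = ∑ Q ∈ K, veluTpt Q := by
    rw [Finset.sum_map]
    apply Finset.sum_congr rfl
    intro Q _
    show veluTpt (e Q) = veluTpt Q
    rw [he]
    exact veluc4_Tpt_congr _ Q
  have hc4 : (((modelA W A).c₄ : A) : Qb) = ((W.c₄ : ℤ) : Qb) := by
    rw [WeierstrassCurve.map_c₄]
    simp
  rw [hsum, hc4] at key
  exact key

end Fermat.Agent.S12

end
end ZBZ2S12_002_12

/-! ### bundled: `Fermat.Agent.S12.VeluFinal` -/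
section ZBZ2S12_002_13
/-
Item 12 (S12 glue), piece `VELU` (helper13): the wiring.
`stmtVelu_of_rat : StmtVeluRat → StmtVelu`; all the other pieces are proved:
V-LATa/b/c, V-DISC, V-SHORT, V-VC, V-MAP, V-QB, V-GAL, V-C4, V-ASM.
-/

set_option autoImplicit false

namespace Fermat.Agent.S12

/-- **V-MAP**, unconditional. -/
theorem stmtVeluC : StmtVeluC := stmtVeluC_of stmtVeluVC

/-- **V-QB**, unconditional. -/
theorem stmtVeluQb : StmtVeluQb := stmtVeluQb_of stmtVeluC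

/-- **VELU** from V-RAT and V-C4. -/
theorem stmtVelu_of_rat_c4 (hRat : StmtVeluRat) (hC4 : StmtVeluC4) : StmtVelu :=
  stmtVelu_of stmtVeluQb stmtVeluGal hRat hC4

/-- **VELU** from V-RAT. -/
theorem stmtVelu_of_rat (hRat : StmtVeluRat) : StmtVelu :=
  stmtVelu_of_rat_c4 hRat stmtVeluC4

end Fermat.Agent.S12


end ZBZ2S12_002_13

/-! ### bundled: `Fermat.Agent.S12.VeluRat` -/
section ZBZ2S12_002_14
/-
# S12 / VELU / V-RAT (helper56)

`stmtVeluRat : StmtVeluRat`: for a Galois-stable subgroup `K` of odd prime power order of an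
integral model, `∑_K t_Q = 2 t / p^N` and `∑_K u_Q = 2 w / p^N` with `t, w ∈ ℤ`: half system
(V-HALF), Galois descent, integrality of torsion of order prime to `ℓ` (`modxi_mem_of_torsion`).
-/

set_option autoImplicit false

noncomputable section

namespace Fermat.Agent.S12

open WeierstrassCurve WeierstrassCurve.Affine

/-- a rational number whose denominator is prime to every prime `ℓ ≠ p` has denominator a power
of `p` -/
theorem velurat_den (p : ℕ) (r : ℚ) (h : ∀ ℓ : ℕ, ℓ.Prime → ℓ ≠ p → ¬ ℓ ∣ r.den) :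
    ∃ (N : ℕ) (t : ℤ), (t : ℚ) = (p : ℚ) ^ N * r := by
  have h1 : r.den = p ^ r.den.primeFactorsList.length :=
    Nat.eq_prime_pow_of_unique_prime_dvd r.den_ne_zero (fun {d} hd hdvd => by
      by_contra hne
      exact h d hd hne hdvd)
  refine ⟨r.den.primeFactorsList.length, r.num, ?_⟩
  have h2 : r * (r.den : ℚ) = r.num := Rat.mul_den_eq_num r
  rw [← h2, mul_comm]
  congr 1
  exact_mod_cast h1

/-- a Galois-fixed algebraic number which is integral at all places not over `p` is in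
`ℤ[1/p]` -/
theorem velurat_core (p : ℕ) (x : Qb) (hfix : ∀ σ : GQ, σ x = x)
    (hint : ∀ ℓ : ℕ, ℓ.Prime → ℓ ≠ p → ∀ A : ValuationSubring Qb, A.LiesOverPrime ℓ → x ∈ A) :
    ∃ (N : ℕ) (t : ℤ), (t : Qb) = (p : Qb) ^ N * x := by
  obtain ⟨r, hr⟩ := Fermat.Agent.Common.exists_rat_of_fixed x hfix
  have h : ∀ ℓ : ℕ, ℓ.Prime → ℓ ≠ p → ¬ ℓ ∣ r.den := by
    intro ℓ hℓ hℓp
    obtain ⟨A, hA⟩ := Fermat.Agent.Common.exists_liesOverPrime ℓ hℓ
    have : Fact ℓ.Prime := ⟨hℓ⟩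
    refine (Fermat.Agent.S15.ecloc_rat_mem_iff A hA r).1 ?_
    rw [hr]
    exact hint ℓ hℓ hℓp A hA
  obtain ⟨N, t, ht⟩ := velurat_den p r h
  refine ⟨N, t, ?_⟩
  have h2 := congrArg (algebraMap ℚ Qb) ht
  rw [map_intCast, map_mul, map_pow, map_natCast, hr] at h2
  exact h2

section Sum

variable (W : WeierstrassCurve ℤ) (p : ℕ) (k : ℕ) (K : Finset (PtZ W))

/-- Lagrange for a finite subgroup given as a `Finset` -/
theorem velurat_tors (h0 : (0 : PtZ W) ∈ K) (hadd : ∀ P ∈ K, ∀ Q ∈ K, P + Q ∈ K)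
    (hneg : ∀ P ∈ K, -P ∈ K) (hcard : K.card = p ^ k) : ∀ Q ∈ K, p ^ k • Q = 0 := by
  intro Q hQ
  let H : AddSubgroup (PtZ W) :=
    { carrier := (K : Set (PtZ W))
      add_mem' := fun {a b} ha hb => hadd a ha b hb
      zero_mem' := h0
      neg_mem' := fun {a} ha => hneg a ha }
  have hH : Nat.card H = p ^ k := by
    rw [← hcard, ← Set.ncard_coe_finset K, ← Nat.card_coe_set_eq]
    rfl
  have h1 : Nat.card H • (⟨Q, hQ⟩ : H) = 0 := card_nsmul_eq_zero'
  rw [hH] at h1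
  have h2 := congrArg (Subtype.val : H → PtZ W) h1
  simpa using h2

/-- no `2`-torsion in a subgroup of odd prime power order -/
theorem velurat_ne_neg (hp : p.Prime) (hp2 : p ≠ 2) (htors : ∀ Q ∈ K, p ^ k • Q = 0) :
    ∀ P ∈ K, P ≠ 0 → P ≠ -P := by
  intro P hP hP0 hPP
  apply hP0
  have h2 : 2 • P = 0 := by
    rw [two_nsmul]
    nth_rewrite 2 [hPP]
    exact add_neg_cancel P
  have h3 : addOrderOf P ∣ 2 := addOrderOf_dvd_of_nsmul_eq_zero h2
  have h4 : addOrderOf P ∣ p ^ k := addOrderOf_dvd_of_nsmul_eq_zero (htors P hP)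
  have hcop : Nat.Coprime 2 (p ^ k) :=
    Nat.Coprime.pow_right k ((Nat.coprime_primes Nat.prime_two hp).2 (Ne.symm hp2))
  have h5 : addOrderOf P = 1 := Nat.eq_one_of_dvd_coprimes hcop h3 h4
  exact AddMonoid.addOrderOf_eq_one_iff.mp h5

/-- the sums of Vélu's formulas are in `ℤ[1/p]`, and even -/
theorem velurat_sum (hp : p.Prime) (hp2 : p ≠ 2)
    (h0 : (0 : PtZ W) ∈ K) (hadd : ∀ P ∈ K, ∀ Q ∈ K, P + Q ∈ K)
    (hneg : ∀ P ∈ K, -P ∈ K) (hcard : K.card = p ^ k) (hK : ∀ σ : GQ, ∀ P ∈ K, σ • P ∈ K)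
    (c : PtZ W → Qb) (hc0 : c 0 = 0) (hcneg : ∀ Q, c (-Q) = c Q)
    (hcσ : ∀ (σ : GQ) (Q : PtZ W), c (σ • Q) = σ (c Q))
    (hcint : ∀ ℓ : ℕ, ℓ.Prime → ℓ ≠ p → ∀ A : ValuationSubring Qb, A.LiesOverPrime ℓ →
      ∀ Q : PtZ W, p ^ k • Q = 0 → c Q ∈ A) :
    ∃ (N : ℕ) (t : ℤ), 2 * (t : Qb) = (p : Qb) ^ N * ∑ Q ∈ K, c Q := by
  classical
  have htors := velurat_tors W p k K h0 hadd hneg hcard
  have hnn := velurat_ne_neg W p k K hp hp2 htors
  obtain ⟨R, hdisj, hunion⟩ := stmtVeluHalf (PtZ W) (K.erase 0)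
    (fun P hP => by
      rw [Finset.mem_erase] at hP ⊢
      exact ⟨neg_ne_zero.mpr hP.1, hneg P hP.2⟩)
    (fun P hP => by
      rw [Finset.mem_erase] at hP
      exact hnn P hP.2 hP.1)
  have hRK : ∀ Q ∈ R, Q ∈ K := by
    intro Q hQ
    have : Q ∈ K.erase 0 := by
      rw [hunion]
      exact Finset.mem_union_left _ hQ
    exact Finset.mem_of_mem_erase this
  have hsum : ∑ Q ∈ K, c Q = 2 * ∑ Q ∈ R, c Q := by
    rw [← Finset.add_sum_erase K c h0, hc0, zero_add, hunion, Finset.sum_union hdisj,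
      Finset.sum_image (fun a _ b _ h => neg_injective h)]
    simp only [hcneg]
    ring
  have hfixT : ∀ σ : GQ, σ (∑ Q ∈ K, c Q) = ∑ Q ∈ K, c Q := by
    intro σ
    rw [map_sum]
    refine Finset.sum_nbij' (fun Q => σ • Q) (fun Q => σ⁻¹ • Q) (fun Q hQ => hK σ Q hQ)
      (fun Q hQ => hK σ⁻¹ Q hQ) (fun Q _ => inv_smul_smul σ Q) (fun Q _ => smul_inv_smul σ Q) ?_
    intro Q _
    exact (hcσ σ Q).symm
  have hfix : ∀ σ : GQ, σ (∑ Q ∈ R, c Q) = ∑ Q ∈ R, c Q := by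
    intro σ
    have h1 := hfixT σ
    rw [hsum, map_mul, map_ofNat] at h1
    exact mul_left_cancel₀ two_ne_zero h1
  have hint : ∀ ℓ : ℕ, ℓ.Prime → ℓ ≠ p → ∀ A : ValuationSubring Qb, A.LiesOverPrime ℓ →
      ∑ Q ∈ R, c Q ∈ A := by
    intro ℓ hℓ hℓp A hA
    exact sum_mem fun Q hQ => hcint ℓ hℓ hℓp A hA Q (htors Q (hRK Q hQ))
  obtain ⟨N, t, ht⟩ := velurat_core p _ hfix hint
  refine ⟨N, t, ?_⟩
  rw [ht, hsum]
  ring

end Sum

section Int

variable (W : WeierstrassCurve ℤ)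

theorem velurat_b₂ : (((W.map (Int.castRingHom ℚ)))⁄Qb).b₂ = ((W.b₂ : ℤ) : Qb) := by
  simp only [WeierstrassCurve.baseChange, WeierstrassCurve.map_b₂, eq_intCast, map_intCast]

theorem velurat_b₄ : (((W.map (Int.castRingHom ℚ)))⁄Qb).b₄ = ((W.b₄ : ℤ) : Qb) := by
  simp only [WeierstrassCurve.baseChange, WeierstrassCurve.map_b₄, eq_intCast, map_intCast]

theorem velurat_b₆ : (((W.map (Int.castRingHom ℚ)))⁄Qb).b₆ = ((W.b₆ : ℤ) : Qb) := by
  simp only [WeierstrassCurve.baseChange, WeierstrassCurve.map_b₆, eq_intCast, map_intCast]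

theorem velurat_T_mem (A : ValuationSubring Qb) {x : Qb} (hx : x ∈ A) :
    veluT (((W.map (Int.castRingHom ℚ)))⁄Qb) x ∈ A := by
  unfold veluT
  rw [velurat_b₂, velurat_b₄]
  have h6 : (6 : Qb) ∈ A := by exact_mod_cast natCast_mem A 6
  exact add_mem (add_mem (mul_mem h6 (pow_mem hx 2)) (mul_mem (intCast_mem A _) hx))
    (intCast_mem A _)

theorem velurat_U_mem (A : ValuationSubring Qb) {x : Qb} (hx : x ∈ A) :
    veluU (((W.map (Int.castRingHom ℚ)))⁄Qb) x ∈ A := by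
  unfold veluU
  rw [velurat_b₂, velurat_b₄, velurat_b₆]
  have h10 : (10 : Qb) ∈ A := by exact_mod_cast natCast_mem A 10
  have h2 : (2 : Qb) ∈ A := by exact_mod_cast natCast_mem A 2
  have h3 : (3 : Qb) ∈ A := by exact_mod_cast natCast_mem A 3
  exact add_mem (add_mem (add_mem (mul_mem h10 (pow_mem hx 3))
    (mul_mem (mul_mem h2 (intCast_mem A _)) (pow_mem hx 2)))
    (mul_mem (mul_mem h3 (intCast_mem A _)) hx)) (intCast_mem A _)

end Int

/-- **V-RAT.** -/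
theorem stmtVeluRat : StmtVeluRat := by
  intro W p hp hp2 k K h0 hadd hneg hcard hK
  have hndvd : ∀ ℓ : ℕ, ℓ.Prime → ℓ ≠ p → ¬ ℓ ∣ p ^ k := by
    intro ℓ hℓ hℓp hdvd
    exact hℓp ((Nat.prime_dvd_prime_iff_eq hℓ hp).1 (hℓ.dvd_of_dvd_pow hdvd))
  obtain ⟨N₁, t₁, h₁⟩ := velurat_sum W p k K hp hp2 h0 hadd hneg hcard hK veluTpt veluTpt_zero
    veluTpt_neg (fun σ Q => veluqb_T_pt (W.map (Int.castRingHom ℚ)) σ.toAlgHom Q)
    (fun ℓ hℓ hℓp A hA Q hQ => by
      rcases Q with _ | ⟨x, y, h⟩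
      · exact zero_mem A
      · exact velurat_T_mem W A
          (Fermat.Agent.S15.modxi_mem_of_torsion hℓ hA (hndvd ℓ hℓ hℓp) h hQ))
  obtain ⟨N₂, t₂, h₂⟩ := velurat_sum W p k K hp hp2 h0 hadd hneg hcard hK veluUpt veluUpt_zero
    veluUpt_neg (fun σ Q => veluqb_U_pt (W.map (Int.castRingHom ℚ)) σ.toAlgHom Q)
    (fun ℓ hℓ hℓp A hA Q hQ => by
      rcases Q with _ | ⟨x, y, h⟩
      · exact zero_mem A
      · exact velurat_U_mem W A
          (Fermat.Agent.S15.modxi_mem_of_torsion hℓ hA (hndvd ℓ hℓ hℓp) h hQ))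
  refine ⟨N₁ + N₂, (p : ℤ) ^ N₂ * t₁, (p : ℤ) ^ N₁ * t₂, ?_, ?_⟩
  · push_cast
    rw [pow_add]
    linear_combination (p : Qb) ^ N₂ * h₁
  · push_cast
    rw [pow_add]
    linear_combination (p : Qb) ^ N₁ * h₂

end Fermat.Agent.S12

end
end ZBZ2S12_002_14

/-! ### bundled: `Fermat.Agent.S12.VeluDone` -/
section ZBZ2S12_002_15
/-
Item 12 (S12 glue), piece `VELU` (sub-captain helper13): **VELU is proved.**

`stmtVelu : StmtVelu` — the quotient of an integral model by a finite Galois-stable subgroup of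
odd prime power order, with `ℓ ∤ c₄` at the primes `ℓ ≠ p` of multiplicative reduction.

Pieces: V-LATa (helper13), V-LATb, V-LATc, V-DISC, V-QB, V-GAL, V-RAT (helper56), V-HALF, V-ROOT,
V-NODE, V-C4 (helper60), V-VC (helper52), V-SHORT, V-MAP (helper13), V-ASM (helper47);
S15 MOD-ADD (helper51), MOD-UNIF (helper13), EC/VarChange (helper6).
-/

set_option autoImplicit false

namespace Fermat.Agent.S12

/-- **VELU.** -/
theorem stmtVelu : StmtVelu := stmtVelu_of_rat stmtVeluRat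

end Fermat.Agent.S12


end ZBZ2S12_002_15

/-! ### bundled: `Fermat.Agent.S12.Final` -/
section ZBZ2S12_002_16

/-!
# S12: final assembly (helper47)

`s12_of_s15 : StmtS15 → StmtS12`: `S12` from the frozen statement of `S15` — unconditional.
Pieces: the abstract core (`stmtCore`: CORE-BASE, STEP-TORIC helper24; STEP-COFIXED helper60;
STEP-SPLIT helper47), `S14`, Minkowski (`S13`), `G-WRAP`, `G-FROB` (helper24), `G-L1`, `G-U1`
(helper49), `G-HS15` (helper47), `VELU` (helper13, helper56, helper60, helper52, helper47),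
`G-LOCP` (helper8), `G-CYC` (helper34), `G-RAMP` (helper1).
-/

set_option autoImplicit false

namespace Fermat.Agent.S12

/-- `G-HS15`, unconditional. -/
theorem stmtHS15 : StmtHS15 :=
  stmtHS15_of stmtVelu stmtU1 stmtE0Add stmtL1Two stmtL1Three stmtGoodTors stmtGoodLine
    stmtGoodUnr stmtCard

/-- **S12 from S15.** -/
theorem s12_of_s15 (h15 : StmtS15) : StmtS12 :=
  s12_of stmtCore (fun _ _ h3 => Fermat.Agent.S14.result h3) Fermat.Agent.S13.stmtMinkowski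
    hPlaces stmtLine stmtCard stmtOpen stmtUnip stmtLocP stmtCyc (stmtRamP_of stmtCyc) stmtFin
    stmtHS15 h15

end Fermat.Agent.S12


end ZBZ2S12_002_16
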