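/- GENERATED FILE (helper35, build-time optimisation, NOTES/ZB.md): verbatim concatenation of the modules
   Fermat.Agent.Kummer.KLDirichlet
   Do not edit; do not import together with these modules. -/
import Mathlib

/-! ### bundled: `Fermat.Agent.Kummer.KLDirichlet` -/
section ZBZ2Kummer_004_0

/-!
# Kummer's lemma, global half (Dirichlet count)

If `(p-1)/2` units of the `p`-th cyclotomic ring of integers are independent modulo
"integers mod `p`", then every unit congruent to an integer mod `p` is a `p`-th power.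
-/

namespace Fermat.Agent.Kummer

open NumberField Units

section PowCongr

variable {p : ℕ} [hp : Fact p.Prime] {K : Type*} [Field K] [NumberField K]
  [IsCyclotomicExtension {p} ℚ K]

/-- In the `p`-th cyclotomic ring of integers, every `p`-th power is congruent to a rational
integer modulo `p`. -/
theorem exists_int_dvd_pow_sub (x : 𝓞 K) : ∃ m : ℤ, ((p : ℕ) : 𝓞 K) ∣ x ^ p - (m : 𝓞 K) := by
  have hζ := IsCyclotomicExtension.zeta_spec p ℚ K
  have htop : Algebra.adjoin ℤ {hζ.toInteger} = ⊤ := by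
    have := hζ.integralPowerBasis.adjoin_gen_eq_top
    rwa [hζ.integralPowerBasis_gen] at this
  have hx : x ∈ Algebra.adjoin ℤ {hζ.toInteger} := by rw [htop]; trivial
  induction hx using Algebra.adjoin_induction with
  | mem y hy =>
    rw [Set.mem_singleton_iff] at hy
    subst hy
    refine ⟨1, ?_⟩
    have : hζ.toInteger ^ p = 1 := hζ.toInteger_isPrimitiveRoot.pow_eq_one
    simp [this]
  | algebraMap r =>
    refine ⟨r ^ p, ?_⟩
    simp
  | add y z _ _ hy hz =>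
    obtain ⟨m, hm⟩ := hy
    obtain ⟨n, hn⟩ := hz
    obtain ⟨r, hr⟩ := exists_add_pow_prime_eq hp.out y z
    refine ⟨m + n, ?_⟩
    have : (y + z) ^ p - ((m + n : ℤ) : 𝓞 K) =
        (y ^ p - m) + (z ^ p - n) + (p : 𝓞 K) * (y * z * r) := by
      rw [hr]; push_cast; ring
    rw [this]
    exact dvd_add (dvd_add hm hn) (dvd_mul_right _ _)
  | mul y z _ _ hy hz =>
    obtain ⟨m, hm⟩ := hy
    obtain ⟨n, hn⟩ := hz
    refine ⟨m * n, ?_⟩
    have : (y * z) ^ p - ((m * n : ℤ) : 𝓞 K) = (y ^ p - m) * z ^ p + m * (z ^ p - n) := by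
      push_cast; ring
    rw [this]
    exact dvd_add (dvd_mul_of_dvd_left hm _) (dvd_mul_of_dvd_right hn _)

end PowCongr

end Fermat.Agent.Kummer

namespace Fermat.Agent.Kummer

open NumberField Units

section Count

variable {p : ℕ} [hp : Fact p.Prime] {K : Type*} [Field K] [NumberField K]
  [IsCyclotomicExtension {p} ℚ K]

theorem rank_cyclotomic_add_one (hp2 : p ≠ 2) : rank K + 1 = (p - 1) / 2 := by
  have h3 : 2 < p := lt_of_le_of_ne hp.out.two_le (Ne.symm hp2)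
  dsimp only [rank]
  rw [InfinitePlace.card_eq_nrRealPlaces_add_nrComplexPlaces,
    IsCyclotomicExtension.Rat.nrRealPlaces_eq_zero (n := p) K h3, zero_add,
    IsCyclotomicExtension.Rat.nrComplexPlaces_eq_totient_div_two (n := p),
    Nat.totient_prime hp.out]
  have : 1 ≤ (p - 1) / 2 := by omega
  omega

/-- congruences modulo `d` multiply -/
theorem dvd_mul_sub_mul {R : Type*} [CommRing R] {d a b m n : R} (h1 : d ∣ a - m)
    (h2 : d ∣ b - n) : d ∣ a * b - m * n := by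
  have : a * b - m * n = (a - m) * b + m * (b - n) := by ring
  rw [this]
  exact dvd_add (dvd_mul_of_dvd_left h1 _) (dvd_mul_of_dvd_right h2 _)

/-- Dirichlet's unit theorem, modulo `p`-th powers: every unit is `ζ^k ∏ fᵢ^(eᵢ) w^p`. -/
theorem exists_eq_zeta_pow_mul_prod_mul_pow (hp2 : p ≠ 2) (ζu : (𝓞 K)ˣ)
    (hζu : IsPrimitiveRoot ((ζu : 𝓞 K) : K) p) (x : (𝓞 K)ˣ) :
    ∃ (k : Fin p) (e : Fin (rank K) → Fin p) (w : (𝓞 K)ˣ),
      x = ζu ^ (k : ℕ) * (∏ i, fundSystem K i ^ (e i : ℕ)) * w ^ p := by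
  have hpos : 0 < p := hp.out.pos
  have hodd : Odd p := hp.out.odd_of_ne_two hp2
  obtain ⟨⟨t, E⟩, hx, -⟩ := exist_unique_eq_mul_prod K x
  simp only at hx
  have ht : IsOfFinOrder (((t : (𝓞 K)ˣ) : 𝓞 K) : K) := by
    have h1 : IsOfFinOrder (t : (𝓞 K)ˣ) := (CommGroup.mem_torsion _).1 t.2
    obtain ⟨n, hn, hn'⟩ := isOfFinOrder_iff_pow_eq_one.1 h1
    refine isOfFinOrder_iff_pow_eq_one.2 ⟨n, hn, ?_⟩
    have := congrArg (fun u : (𝓞 K)ˣ => ((u : 𝓞 K) : K)) hn'
    simpa using this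
  obtain ⟨r, hr, hrt⟩ := hζu.exists_pow_or_neg_mul_pow_of_isOfFinOrder hodd ht
  -- the torsion part is `ζ^r` times a `p`-th power
  obtain ⟨s, hs⟩ : ∃ s : (𝓞 K)ˣ, (t : (𝓞 K)ˣ) = ζu ^ r * s ^ p := by
    rcases hrt with h | h
    · refine ⟨1, ?_⟩
      apply Units.ext
      apply RingOfIntegers.ext
      simpa using h
    · refine ⟨-1, ?_⟩
      apply Units.ext
      apply RingOfIntegers.ext
      simp [h, hodd.neg_one_pow]
  refine ⟨⟨r, hr⟩, fun i => ⟨(E i % (p : ℤ)).toNat, ?_⟩,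
    s * ∏ i, fundSystem K i ^ (E i / (p : ℤ)), ?_⟩
  · have h1 : 0 ≤ E i % (p : ℤ) := Int.emod_nonneg _ (by exact_mod_cast hpos.ne')
    have h2 : E i % (p : ℤ) < p := Int.emod_lt_of_pos _ (by exact_mod_cast hpos)
    omega
  · rw [hx, hs, mul_pow, ← Finset.prod_pow]
    have key : ∀ i, fundSystem K i ^ (E i) =
        fundSystem K i ^ ((E i % (p : ℤ)).toNat) * (fundSystem K i ^ (E i / (p : ℤ))) ^ p := by
      intro i
      have h1 : 0 ≤ E i % (p : ℤ) := Int.emod_nonneg _ (by exact_mod_cast hpos.ne')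
      rw [← zpow_natCast (fundSystem K i) ((E i % (p : ℤ)).toNat), Int.toNat_of_nonneg h1,
        ← zpow_natCast (fundSystem K i ^ (E i / (p : ℤ))) p, ← zpow_mul, ← zpow_add]
      congr 1
      rw [mul_comm]
      exact (Int.emod_add_mul_ediv (E i) p).symm
    simp_rw [key, Finset.prod_mul_distrib]
    rw [mul_mul_mul_comm, mul_assoc]

/-- the group of units modulo `p`-th powers -/
abbrev UnitsModPow (p : ℕ) (K : Type*) [Field K] : Type _ :=
  (𝓞 K)ˣ ⧸ (powMonoidHom p : (𝓞 K)ˣ →* (𝓞 K)ˣ).range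

omit hp [NumberField K] [IsCyclotomicExtension {p} ℚ K] in
theorem unitsModPow_mk_eq_iff {x y : (𝓞 K)ˣ} :
    (QuotientGroup.mk x : UnitsModPow p K) = QuotientGroup.mk y ↔ ∃ w : (𝓞 K)ˣ, x = y * w ^ p := by
  rw [QuotientGroup.eq]
  constructor
  · rintro ⟨w, hw⟩
    refine ⟨w⁻¹, ?_⟩
    simp only [powMonoidHom_apply] at hw
    rw [inv_pow, hw]
    simp
  · rintro ⟨w, rfl⟩
    exact ⟨w⁻¹, by simp⟩

theorem finite_unitsModPow_and_card_le (hp2 : p ≠ 2) :
    Finite (UnitsModPow p K) ∧ Nat.card (UnitsModPow p K) ≤ p ^ ((p - 1) / 2) := by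
  have hζ := IsCyclotomicExtension.zeta_spec p ℚ K
  have hne : p ≠ 0 := hp.out.ne_zero
  have : NeZero p := ⟨hne⟩
  let ζu : (𝓞 K)ˣ := (hζ.toInteger_isPrimitiveRoot.isUnit hne).unit
  have hζu : IsPrimitiveRoot ((ζu : 𝓞 K) : K) p := hζ
  let g : Fin p × (Fin (rank K) → Fin p) → UnitsModPow p K := fun ke =>
    QuotientGroup.mk (ζu ^ (ke.1 : ℕ) * (∏ i, fundSystem K i ^ (ke.2 i : ℕ)))
  have hg : Function.Surjective g := by
    intro q
    obtain ⟨x, rfl⟩ := QuotientGroup.mk_surjective q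
    obtain ⟨k, e, w, hx⟩ := exists_eq_zeta_pow_mul_prod_mul_pow hp2 ζu hζu x
    refine ⟨(k, e), ?_⟩
    exact (unitsModPow_mk_eq_iff.2 ⟨w, hx⟩).symm
  have hfin : Finite (UnitsModPow p K) := Finite.of_surjective g hg
  refine ⟨hfin, ?_⟩
  calc Nat.card (UnitsModPow p K) ≤ Nat.card (Fin p × (Fin (rank K) → Fin p)) :=
        Nat.card_le_card_of_surjective g hg
    _ = p ^ ((p - 1) / 2) := by
        rw [Nat.card_prod, Nat.card_fun, Nat.card_fin, Nat.card_fin,
          ← rank_cyclotomic_add_one (K := K) hp2, pow_succ, mul_comm]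

end Count

end Fermat.Agent.Kummer

namespace Fermat.Agent.Kummer

open NumberField Units

section Main

variable {p : ℕ} [hp : Fact p.Prime] {K : Type*} [Field K] [NumberField K]
  [IsCyclotomicExtension {p} ℚ K]

/-- every unit which is a `p`-th power is congruent to an integer mod `p`. -/
theorem exists_int_dvd_unit_pow_sub (w : (𝓞 K)ˣ) :
    ∃ m : ℤ, ((p : ℕ) : 𝓞 K) ∣ ((w ^ p : (𝓞 K)ˣ) : 𝓞 K) - (m : 𝓞 K) := by
  obtain ⟨m, hm⟩ := exists_int_dvd_pow_sub (p := p) (w : 𝓞 K)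
  exact ⟨m, by simpa using hm⟩

/-- **Kummer's lemma**, assuming that `(p-1)/2` given units are independent modulo `p`. -/
theorem kummer_lemma_of_indep (hp2 : p ≠ 2) (c : Fin ((p - 1) / 2) → (𝓞 K)ˣ)
    (hc : ∀ (e : Fin ((p - 1) / 2) → ℕ) (n : ℤ),
      ((p : ℕ) : 𝓞 K) ∣ ((∏ a, c a ^ e a : (𝓞 K)ˣ) : 𝓞 K) - (n : 𝓞 K) → ∀ a, p ∣ e a)
    (u : (𝓞 K)ˣ) (hu : ∃ n : ℤ, ((p : ℕ) : 𝓞 K) ∣ (u : 𝓞 K) - (n : 𝓞 K)) :
    ∃ v : (𝓞 K)ˣ, u = v ^ p := by
  have hpos : 0 < p := hp.out.pos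
  obtain ⟨hfin, hcard⟩ := finite_unitsModPow_and_card_le (p := p) (K := K) hp2
  let f : (Fin ((p - 1) / 2) → Fin p) → UnitsModPow p K := fun e =>
    QuotientGroup.mk (∏ a, c a ^ (e a : ℕ))
  have hf : Function.Injective f := by
    intro e e' hee'
    obtain ⟨w, hw⟩ := unitsModPow_mk_eq_iff.1 hee'
    -- `∏ c^(e + (p - e')) = (w ∏ c)^p`
    have h1 : (∏ a, c a ^ ((e a : ℕ) + (p - (e' a : ℕ)))) = (w * ∏ a, c a) ^ p := by
      simp_rw [pow_add, Finset.prod_mul_distrib]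
      rw [hw, mul_pow, ← Finset.prod_pow]
      have : ∀ a, c a ^ p = c a ^ (e' a : ℕ) * c a ^ (p - (e' a : ℕ)) := by
        intro a
        rw [← pow_add]
        congr 1
        have := (e' a).2
        omega
      simp_rw [this, Finset.prod_mul_distrib]
      rw [mul_comm _ (w ^ p), mul_assoc]
    obtain ⟨m, hm⟩ := exists_int_dvd_unit_pow_sub (p := p) (w * ∏ a, c a)
    rw [← h1] at hm
    have h2 := hc _ m hm
    funext a
    have h3 := h2 a
    have h4 := (e a).2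
    have h5 := (e' a).2
    apply Fin.ext
    obtain ⟨k, hk⟩ := h3
    have hk1 : k = 1 := by
      rcases Nat.lt_or_ge k 1 with h | h
      · have : k = 0 := by omega
        subst this
        omega
      · rcases Nat.lt_or_ge 1 k with h' | h'
        · have : p * 2 ≤ p * k := Nat.mul_le_mul_left p h'
          omega
        · omega
    subst hk1
    omega
  have hbij : Function.Bijective f := by
    refine hf.bijective_of_nat_card_le ?_
    rw [Nat.card_fun, Nat.card_fin, Nat.card_fin]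
    exact hcard
  obtain ⟨e, he⟩ := hbij.2 (QuotientGroup.mk u)
  obtain ⟨w, hw⟩ := unitsModPow_mk_eq_iff.1 he
  -- `∏ c^e = u * w^p`, so it is congruent to an integer
  obtain ⟨n, hn⟩ := hu
  obtain ⟨m, hm⟩ := exists_int_dvd_unit_pow_sub (p := p) w
  have h1 : ((p : ℕ) : 𝓞 K) ∣ ((∏ a, c a ^ (e a : ℕ) : (𝓞 K)ˣ) : 𝓞 K) - ((n * m : ℤ) : 𝓞 K) := by
    rw [hw]
    push_cast
    exact dvd_mul_sub_mul hn (by simpa using hm)
  have h2 := hc _ _ h1
  have h3 : ∀ a, (e a : ℕ) = 0 := by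
    intro a
    have := (e a).2
    exact Nat.eq_zero_of_dvd_of_lt (h2 a) this
  have h4 : (∏ a, c a ^ (e a : ℕ)) = 1 := by
    simp [h3]
  rw [h4] at hw
  refine ⟨w⁻¹, ?_⟩
  rw [inv_pow, eq_inv_iff_mul_eq_one, ← hw]

end Main

end Fermat.Agent.Kummer


end ZBZ2Kummer_004_0
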