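/- GENERATED FILE (helper35, build-time optimisation, NOTES/ZB.md): verbatim concatenation of the modules
   Fermat.Agent.Kummer.PIDTools
   Fermat.Agent.Kummer.PID11
   Do not edit; do not import together with these modules. -/
import Mathlib

/-! ### bundled: `Fermat.Agent.Kummer.PIDTools` -/
section ZBZ2Kummer_008_0

/-!
# Tools for proving that `ℤ[ζ_p]` is a PID for small `p` (Kummer sub-project, S10/S11)

* `exists_isPrincipal_mem_primesOver`: Kummer–Dedekind certificate for a principal prime over `q`.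
* `lt_pow_orderOf_of_forall`: lower bound for `q ^ orderOf (q : ZMod p)`.
* `floor_minkowski_le`: upper bound for the floor of the Minkowski bound.
-/

set_option autoImplicit false

namespace Fermat.Agent.Kummer

open NumberField Polynomial Ideal RingOfIntegers Module InfinitePlace

section KD

variable {K : Type*} [Field K] [NumberField K]

/-- If `Q mod q` is a monic irreducible factor of the `n`-th cyclotomic polynomial mod `q`
and `(q, Q(ζ)) = (α)`, then there is a principal prime of `𝓞 K` over `q`. -/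
theorem exists_isPrincipal_mem_primesOver {n : ℕ} [NeZero n] [IsCyclotomicExtension {n} ℚ K]
    {ζ : K} (hζ : IsPrimitiveRoot ζ n) (q : ℕ) [Fact q.Prime] (Q : ℤ[X])
    (hQirr : Irreducible (Q.map (Int.castRingHom (ZMod q))))
    (hQmonic : (Q.map (Int.castRingHom (ZMod q))).Monic)
    (hQdvd : Q.map (Int.castRingHom (ZMod q)) ∣ cyclotomic n (ZMod q))
    (α : 𝓞 K) (hα : span {(q : 𝓞 K), aeval hζ.toInteger Q} = span {α}) :
    ∃ P ∈ primesOver (span {(q : ℤ)}) (𝓞 K), Submodule.IsPrincipal P := by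
  have h₁ : ¬ q ∣ exponent hζ.toInteger := by
    rw [exponent_eq_one_iff.mpr <| IsCyclotomicExtension.Rat.adjoin_singleton_eq_top hζ]
    exact (Fact.out : q.Prime).not_dvd_one
  have hmin0 : minpoly ℤ hζ.toInteger = cyclotomic n ℤ := by
    rw [← RingOfIntegers.minpoly_coe]
    exact (cyclotomic_eq_minpoly hζ (NeZero.pos _)).symm
  have hmin : (minpoly ℤ hζ.toInteger).map (Int.castRingHom (ZMod q)) = cyclotomic n (ZMod q) := by
    rw [hmin0, map_cyclotomic_int]
  have hQ : Q.map (Int.castRingHom (ZMod q)) ∈ monicFactorsMod hζ.toInteger q := by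
    rw [Multiset.mem_toFinset, Polynomial.mem_normalizedFactors_iff
      (map_monic_ne_zero (minpoly.monic hζ.toInteger.isIntegral))]
    exact ⟨hQirr, hQmonic, hmin ▸ hQdvd⟩
  refine ⟨_, ((primesOverSpanEquivMonicFactorsMod h₁).symm ⟨_, hQ⟩).prop, ?_⟩
  rw [primesOverSpanEquivMonicFactorsMod_symm_apply_eq_span h₁ hQ, hα]
  exact ⟨⟨α, rfl⟩⟩

end KD

section order

/-- If no power `q ^ j ≤ B` (with `1 ≤ j ≤ 8`) is `≡ 1 mod p`, then `B < q ^ orderOf (q : ZMod p)`. -/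
theorem lt_pow_orderOf_of_forall (p q B : ℕ) [Fact p.Prime] (hq2 : 2 ≤ q) (hqp : ¬ p ∣ q)
    (hB : B < 2 ^ 9) (h : ∀ j ∈ Finset.Icc 1 8, q ^ j ≤ B → q ^ j % p ≠ 1) :
    B < q ^ orderOf (q : ZMod p) := by
  have hp : p.Prime := Fact.out
  by_contra hle
  rw [not_lt] at hle
  set d := orderOf (q : ZMod p) with hd
  have hq0 : (q : ZMod p) ≠ 0 := by
    rwa [Ne, ZMod.natCast_eq_zero_iff]
  have hdpos : 0 < d := by
    rw [hd, orderOf_pos_iff]
    exact isOfFinOrder_iff_pow_eq_one.mpr ⟨p - 1, by have := hp.two_le; omega,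
      ZMod.pow_card_sub_one_eq_one hq0⟩
  have hd9 : d < 9 := by
    by_contra h9
    rw [not_lt] at h9
    have h1 : 2 ^ 9 ≤ q ^ d :=
      (Nat.pow_le_pow_right (by norm_num) h9).trans (Nat.pow_le_pow_left hq2 d)
    omega
  have hmem : d ∈ Finset.Icc 1 8 := Finset.mem_Icc.mpr ⟨hdpos, by omega⟩
  refine h d hmem hle ?_
  have h1 : ((q ^ d : ℕ) : ZMod p) = ((1 : ℕ) : ZMod p) := by
    push_cast
    exact pow_orderOf_eq_one _
  have h2 := (ZMod.natCast_eq_natCast_iff' _ _ _).mp h1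
  rw [h2, Nat.mod_eq_of_lt hp.one_lt]

end order

section assembly

open scoped Real
open Nat

variable (K : Type*) [Field K] [NumberField K]

/-- Assembly lemma: `𝓞 K` is a PID for the `p`-th cyclotomic field as soon as the floor of the
Minkowski bound is `≤ B < 512`, and every prime `q ≤ B` is `p`, or has a principal prime above
it, or has no power `q ^ j ≤ B` congruent to `1` mod `p`. -/
theorem isPrincipalIdealRing_of_checks (p : ℕ) [Fact p.Prime] [IsCyclotomicExtension {p} ℚ K]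
    (B : ℕ) (hB : B < 2 ^ 9)
    (hM : ⌊(4 / π) ^ nrComplexPlaces K *
      ((finrank ℚ K)! / (finrank ℚ K) ^ (finrank ℚ K) * √|discr K|)⌋₊ ≤ B)
    (hcheck : ∀ q ∈ Finset.Icc 1 B, q.Prime → q = p ∨
      (∃ P ∈ primesOver (span {(q : ℤ)}) (𝓞 K), Submodule.IsPrincipal P) ∨
      ∀ j ∈ Finset.Icc 1 8, q ^ j ≤ B → q ^ j % p ≠ 1) :
    IsPrincipalIdealRing (𝓞 K) := by
  have hp : p.Prime := Fact.out
  have : IsGalois ℚ K := IsCyclotomicExtension.isGalois {p} ℚ K
  apply RingOfIntegers.isPrincipalIdealRing_of_isPrincipal_of_lt_or_isPrincipal_of_mem_primesOver_of_mem_Icc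
  intro q hq hqprime
  have hqB : q ∈ Finset.Icc 1 B := by
    rw [Finset.mem_Icc] at hq ⊢
    exact ⟨hq.1, hq.2.trans hM⟩
  have : Fact q.Prime := ⟨hqprime⟩
  obtain ⟨⟨P, hP1, hP2⟩⟩ := (span {(q : ℤ)}).nonempty_primesOver (S := 𝓞 K)
  have hself : ∀ (hqp : q = p), ∃ P ∈ primesOver (span {(q : ℤ)}) (𝓞 K),
      ⌊(4 / π) ^ nrComplexPlaces K *
        ((finrank ℚ K)! / (finrank ℚ K) ^ (finrank ℚ K) * √|discr K|)⌋₊ < q ^ P.inertiaDeg ℤ ∨
      Submodule.IsPrincipal P := by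
    intro hqp
    subst hqp
    refine ⟨P, ⟨hP1, hP2⟩, Or.inr ?_⟩
    rw [IsCyclotomicExtension.Rat.eq_span_zeta_sub_one_of_liesOver' q K
      (IsCyclotomicExtension.zeta_spec q ℚ K) P]
    exact ⟨⟨_, rfl⟩⟩
  by_cases hqp' : q = p
  · exact hself hqp'
  rcases hcheck q hqB hqprime with h | ⟨P', hP', hprinc⟩ | hj
  · exact hself h
  · exact ⟨P', hP', Or.inr hprinc⟩
  · refine ⟨P, ⟨hP1, hP2⟩, Or.inl ?_⟩
    have hqp : ¬ p ∣ q := fun hdvd =>
      hqp' ((Nat.prime_dvd_prime_iff_eq hp hqprime).mp hdvd).symm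
    have hnd : ¬ q ∣ p := fun hdvd =>
      hqp' ((Nat.prime_dvd_prime_iff_eq hqprime hp).mp hdvd)
    rw [IsCyclotomicExtension.Rat.inertiaDeg_eq_of_not_dvd q K P hnd]
    exact lt_of_le_of_lt hM (lt_pow_orderOf_of_forall p q B hqprime.two_le hqp hB hj)

end assembly

end Fermat.Agent.Kummer


end ZBZ2Kummer_008_0

/-! ### bundled: `Fermat.Agent.Kummer.PID11` -/
section ZBZ2Kummer_008_1

/-!
# `ℤ[ζ₁₁]` is a PID
-/

set_option autoImplicit false

namespace Fermat.Agent.Kummer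

open NumberField Polynomial Ideal RingOfIntegers Module InfinitePlace

theorem sum_pow_zmod_11_23 : ∑ x ∈ Finset.range 11, (13 : ZMod 23) ^ x = 0 := by decide

section

variable {K : Type*} [Field K] [NumberField K] [IsCyclotomicExtension {11} ℚ K]

/-- There is a principal prime above `23` in `ℤ[ζ₁₁]`, generated by `1 - ζ + ζ³`. -/
theorem exists_isPrincipal_primesOver_11_23 :
    ∃ P ∈ primesOver (span {((23 : ℕ) : ℤ)}) (𝓞 K), Submodule.IsPrincipal P := by
  have : Fact (Nat.Prime 23) := ⟨by norm_num⟩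
  have : Fact (Nat.Prime 11) := ⟨by norm_num⟩
  have hζ := IsCyclotomicExtension.zeta_spec 11 ℚ K
  set ζ : 𝓞 K := hζ.toInteger with hζdef
  have hΦ : 1 + ζ + ζ ^ 2 + ζ ^ 3 + ζ ^ 4 + ζ ^ 5 + ζ ^ 6 + ζ ^ 7 + ζ ^ 8 + ζ ^ 9 + ζ ^ 10 = 0 := by
    have := hζ.toInteger_isPrimitiveRoot.geom_sum_eq_zero (by norm_num)
    simpa [Finset.sum_range_succ] using this
  have hmap : (X - C (13 : ℤ)).map (Int.castRingHom (ZMod 23)) = X - C (13 : ZMod 23) := by
    rw [Polynomial.map_sub, Polynomial.map_X, Polynomial.map_C]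
    rfl
  refine exists_isPrincipal_mem_primesOver hζ 23 (X - C 13) ?_ ?_ ?_ (1 - ζ + ζ ^ 3) ?_
  · rw [hmap]; exact irreducible_X_sub_C (13 : ZMod 23)
  · rw [hmap]; exact monic_X_sub_C (13 : ZMod 23)
  · rw [hmap, dvd_iff_isRoot, cyclotomic_prime]
    simp only [IsRoot.def, eval_finset_sum, eval_pow, eval_X]
    exact sum_pow_zmod_11_23
  · have e : aeval ζ (X - C 13 : ℤ[X]) = ζ - 13 := by
      rw [map_sub, aeval_X, aeval_C]; simp
    rw [e]
    apply le_antisymm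
    · rw [Ideal.span_le]
      rintro x (rfl | rfl)
      · refine Ideal.mem_span_singleton.mpr
          ⟨8 - 2 * ζ - ζ ^ 2 - 8 * ζ ^ 3 - 5 * ζ ^ 4 - 3 * ζ ^ 5 + 6 * ζ ^ 6 + 12 * ζ ^ 7
            + 16 * ζ ^ 8 + 11 * ζ ^ 9, ?_⟩
        push_cast
        linear_combination (-(-15 + 5 * ζ + 11 * ζ ^ 2)) * hΦ
      · refine Ideal.mem_span_singleton.mpr
          ⟨-5 + ζ + 4 * ζ ^ 3 + 2 * ζ ^ 4 + ζ ^ 5 - 4 * ζ ^ 6 - 7 * ζ ^ 7
            - 9 * ζ ^ 8 - 6 * ζ ^ 9, ?_⟩
        linear_combination (-(8 - 3 * ζ - 6 * ζ ^ 2)) * hΦ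
    · rw [Ideal.span_singleton_le_iff_mem, Ideal.mem_span_pair]
      refine ⟨95, 168 + 13 * ζ + ζ ^ 2, ?_⟩
      push_cast
      ring

end

end Fermat.Agent.Kummer

namespace Fermat.Agent.Kummer

open NumberField Polynomial Ideal RingOfIntegers Module InfinitePlace
open scoped Real
open Nat

/-- Numerical check for `p = 11`, `B = 59`: every `q ≤ 59` is `1`, or has a proper divisor among
`2, 3, 5, 7`, or is `11` or `23`, or has no power `≤ 59` congruent to `1` mod `11`. -/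
theorem check_eleven : ∀ q < 60, q = 0 ∨ q = 1 ∨ (2 ∣ q ∧ q ≠ 2) ∨ (3 ∣ q ∧ q ≠ 3) ∨ (5 ∣ q ∧ q ≠ 5) ∨
    (7 ∣ q ∧ q ≠ 7) ∨ q = 11 ∨ q = 23 ∨
    ∀ j ∈ Finset.Icc 1 8, q ^ j ≤ 59 → q ^ j % 11 ≠ 1 := by
  decide

/-- The ring of integers of the `11`-th cyclotomic field is a PID. -/
theorem eleven_pid (K : Type*) [Field K] [NumberField K] [IsCyclotomicExtension {11} ℚ K] :
    IsPrincipalIdealRing (𝓞 K) := by
  have : Fact (Nat.Prime 11) := ⟨by norm_num⟩
  refine isPrincipalIdealRing_of_checks K 11 59 (by norm_num) ?_ ?_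
  · -- Minkowski bound
    rw [IsCyclotomicExtension.Rat.discr_prime 11 K, IsCyclotomicExtension.Rat.finrank 11 K,
      IsCyclotomicExtension.Rat.nrComplexPlaces_eq_totient_div_two 11,
      totient_prime Nat.prime_eleven]
    have hpi : (4 / π : ℝ) ≤ 4 / 3.14 :=
      div_le_div_of_nonneg_left (by norm_num) (by norm_num) Real.pi_gt_d2.le
    have hsqrt : √((11 : ℝ) ^ 9) ≤ 48559 := by
      rw [Real.sqrt_le_left (by norm_num)]
      norm_num
    have h1 : (4 / π : ℝ) ^ 5 ≤ (4 / 3.14) ^ 5 := by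
      gcongr
    have hfac : ((10 : ℕ)! : ℝ) = 3628800 := by
      norm_num [Nat.factorial]
    have habs : ((|((-1 : ℤ) ^ ((11 - 1) / 2) * (11 : ℕ) ^ (11 - 2))| : ℤ) : ℝ) = (11 : ℝ) ^ 9 := by
      norm_num
    have hlt : (4 / π : ℝ) ^ ((11 - 1) / 2) * ((((11 - 1 : ℕ))! : ℝ) / ((11 - 1 : ℕ) : ℝ) ^ (11 - 1) *
        √(((|((-1 : ℤ) ^ ((11 - 1) / 2) * (11 : ℕ) ^ (11 - 2))| : ℤ) : ℝ))) < 60 := by
      have key : (4 / π : ℝ) ^ 5 * (3628800 / 10 ^ 10 * √(11 ^ 9)) < 60 :=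
        calc (4 / π : ℝ) ^ 5 * (3628800 / 10 ^ 10 * √(11 ^ 9))
            ≤ (4 / 3.14) ^ 5 * (3628800 / 10 ^ 10 * 48559) := by gcongr
          _ < 60 := by norm_num
      rw [habs, show (11 - 1) / 2 = 5 from rfl, show (11 - 1 : ℕ) = 10 from rfl, hfac]
      exact_mod_cast key
    have hfloor := (Nat.floor_lt (by positivity)).mpr hlt
    exact Nat.lt_succ_iff.mp (by exact_mod_cast hfloor)
  · intro q hq hqprime
    rw [Finset.mem_Icc] at hq
    rcases check_eleven q (by omega) with h | h | h | h | h | h | h | h | h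
    · omega
    · exact absurd hqprime (h ▸ Nat.not_prime_one)
    · exact absurd ((Nat.prime_dvd_prime_iff_eq Nat.prime_two hqprime).mp h.1).symm h.2
    · exact absurd ((Nat.prime_dvd_prime_iff_eq Nat.prime_three hqprime).mp h.1).symm h.2
    · exact absurd ((Nat.prime_dvd_prime_iff_eq Nat.prime_five hqprime).mp h.1).symm h.2
    · exact absurd ((Nat.prime_dvd_prime_iff_eq (by norm_num) hqprime).mp h.1).symm h.2
    · exact Or.inl h
    · subst h
      exact Or.inr (Or.inl exists_isPrincipal_primesOver_11_23)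
    · exact Or.inr (Or.inr h)

end Fermat.Agent.Kummer


end ZBZ2Kummer_008_1
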