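/- GENERATED FILE (helper35, build-time optimisation, NOTES/ZB.md): verbatim concatenation of the modules
   Fermat.Agent.Kummer.Glue
   Fermat.Agent.Kummer.CaseIIField
   Fermat.Agent.S11
   Do not edit; do not import together with these modules. -/
import Mathlib
import Fermat.Prelude.Def_FLTPrelim_FreyPackage
import Fermat.Agent.ZB.Z2Kummer_002
import Fermat.Statements.S11
import Fermat.Agent.ZB.Z2Kummer_001
import Fermat.Agent.ZB.Z2Kummer_004
import Fermat.Agent.ZB.Z2Kummer_005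
import Fermat.Agent.ZB.Z2Kummer_008

/-! ### bundled: `Fermat.Agent.Kummer.Glue` -/
section ZBZ2Kummer_003_0

/-!
# Kummer sub-project, part E (glue) and C0 (passage from `ℤ` to `𝓞 K`)

* `Fermat.Agent.Kummer.CaseIIGen p K` : the generalised case II statement in `𝓞 K`
  (same shape as Mathlib's `FermatLastTheoremForThreeGen`).
* `Fermat.Agent.Kummer.caseII_int_of_gen` : `CaseIIGen p K` implies case II of FLT over `ℤ`.
* `Fermat.Agent.Kummer.no_freyPackage_of_parts` : case I + `CaseIIGen` ⇒ no Frey package with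
  `P.p = p`.
-/

set_option autoImplicit false

namespace Fermat.Agent.Kummer

open NumberField

/-- The generalised case II statement in `𝓞 K`: the equation `a ^ p + b ^ p = u * c ^ p`
has no solution with `c ≠ 0`, `λ ∤ a`, `λ ∤ b`, `λ ∣ c`, `a` and `b` coprime (`λ = ζ - 1`). -/
def CaseIIGen (p : ℕ) [Fact p.Prime] (K : Type*) [Field K] [NumberField K]
    [IsCyclotomicExtension {p} ℚ K] : Prop :=
  ∀ (ζ : K) (hζ : IsPrimitiveRoot ζ p) (a b c : 𝓞 K) (u : (𝓞 K)ˣ), c ≠ 0 →
    ¬ (hζ.toInteger - 1) ∣ a → ¬ (hζ.toInteger - 1) ∣ b → (hζ.toInteger - 1) ∣ c →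
    IsCoprime a b → a ^ p + b ^ p ≠ u * c ^ p

section

variable {p : ℕ} [hp : Fact p.Prime] {K : Type*} [Field K] [NumberField K]
  [IsCyclotomicExtension {p} ℚ K]

/-- Case II over `ℤ` when `p ∣ c`, from the generalised statement. -/
theorem caseII_int_of_gen_of_dvd_c (H : CaseIIGen p K) {a b c : ℤ} (hc : c ≠ 0)
    (hpa : ¬ (p : ℤ) ∣ a) (hpb : ¬ (p : ℤ) ∣ b) (hpc : (p : ℤ) ∣ c) (hab : IsCoprime a b) :
    a ^ p + b ^ p ≠ c ^ p := by
  intro h
  have hζ := IsCyclotomicExtension.zeta_spec p ℚ K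
  refine H _ hζ a b c 1 (by exact_mod_cast hc) (fun hdvd ↦ hpa ?_) (fun hdvd ↦ hpb ?_) ?_ ?_ ?_
  · exact (IsCyclotomicExtension.Rat.zeta_sub_one_dvd_intCast_iff' p hζ).1 hdvd
  · exact (IsCyclotomicExtension.Rat.zeta_sub_one_dvd_intCast_iff' p hζ).1 hdvd
  · exact (IsCyclotomicExtension.Rat.zeta_sub_one_dvd_intCast_iff' p hζ).2 hpc
  · exact IsCoprime.intCast hab
  · simpa using mod_cast h

/-- If `a ^ p + b ^ p = c ^ p` and `a`, `b` are coprime then `a`, `c` are coprime. -/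
theorem isCoprime_left_of_FLT {p : ℕ} (hp0 : p ≠ 0) {a b c : ℤ} (hab : IsCoprime a b)
    (h : a ^ p + b ^ p = c ^ p) : IsCoprime a c := by
  rw [← IsCoprime.pow_right_iff (Nat.pos_of_ne_zero hp0), ← h]
  have h1 : IsCoprime a (b ^ p + a * a ^ (p - 1)) := (hab.pow_right).add_mul_left_right _
  have h2 : a * a ^ (p - 1) = a ^ p := by
    rw [← pow_succ', Nat.sub_add_cancel (Nat.one_le_iff_ne_zero.2 hp0)]
  rwa [h2, add_comm] at h1

/-- Case II of Fermat's last theorem over `ℤ` for the odd prime `p`, from the generalised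
statement in `𝓞 K`. -/
theorem caseII_int_of_gen (hp2 : p ≠ 2) (H : CaseIIGen p K) {a b c : ℤ}
    (ha : a ≠ 0) (hb : b ≠ 0) (hc : c ≠ 0) (hab : IsCoprime a b)
    (hdvd : (p : ℤ) ∣ a * b * c) : a ^ p + b ^ p ≠ c ^ p := by
  intro h
  have hpp : Prime (p : ℤ) := Nat.prime_iff_prime_int.1 hp.out
  have hodd : Odd p := hp.out.odd_of_ne_two hp2
  have hp0 : p ≠ 0 := hp.out.ne_zero
  have hnu : ¬ IsUnit (p : ℤ) := hpp.not_isUnit
  -- pairwise coprimality
  have hac : IsCoprime a c := isCoprime_left_of_FLT hp0 hab h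
  have hbc : IsCoprime b c := isCoprime_left_of_FLT hp0 hab.symm (by rw [add_comm]; exact h)
  have key : ∀ {x y : ℤ}, IsCoprime x y → (p : ℤ) ∣ x → ¬ (p : ℤ) ∣ y := fun hxy hx hy ↦
    hnu (hxy.isUnit_of_dvd' hx hy)
  rcases hpp.dvd_or_dvd hdvd with hd | hpc
  · rcases hpp.dvd_or_dvd hd with hpa | hpb
    · -- `p ∣ a`: use the solution `(c, -b, a)`
      refine caseII_int_of_gen_of_dvd_c H (a := c) (b := -b) (c := a) ha (key hac hpa)
        (by rw [dvd_neg]; exact key hab hpa) hpa hbc.symm.neg_right ?_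
      rw [hodd.neg_pow, ← h]; ring
    · -- `p ∣ b`: use the solution `(c, -a, b)`
      refine caseII_int_of_gen_of_dvd_c H (a := c) (b := -a) (c := b) hb (key hbc hpb)
        (by rw [dvd_neg]; exact key hab.symm hpb) hpb hac.symm.neg_right ?_
      rw [hodd.neg_pow, ← h]; ring
  · exact caseII_int_of_gen_of_dvd_c H hc (key hac.symm hpc) (key hbc.symm hpc) hpc hab h

/-- Fermat's last theorem over `ℤ` for coprime triples, from case I and the generalised
case II statement. -/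
theorem flt_int_of_parts (hp2 : p ≠ 2)
    (hI : ∀ a b c : ℤ, IsCoprime a b → ¬ (p : ℤ) ∣ a * b * c → a ^ p + b ^ p ≠ c ^ p)
    (H : CaseIIGen p K) {a b c : ℤ}
    (ha : a ≠ 0) (hb : b ≠ 0) (hc : c ≠ 0) (hab : IsCoprime a b) : a ^ p + b ^ p ≠ c ^ p := by
  by_cases hdvd : (p : ℤ) ∣ a * b * c
  · exact caseII_int_of_gen hp2 H ha hb hc hab hdvd
  · exact hI a b c hab hdvd

/-- No Frey package with `P.p = p`, from case I and the generalised case II statement. -/
theorem no_freyPackage_of_parts (hp2 : p ≠ 2)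
    (hI : ∀ a b c : ℤ, IsCoprime a b → ¬ (p : ℤ) ∣ a * b * c → a ^ p + b ^ p ≠ c ^ p)
    (H : CaseIIGen p K) (P : FreyPackage) (hP : P.p = p) : False := by
  have hab : IsCoprime P.a P.b := by
    have h1 : gcd P.a P.b = 1 := P.hgcdab
    rw [← Int.coe_gcd] at h1
    exact Int.isCoprime_iff_gcd_eq_one.2 (by exact_mod_cast h1)
  exact flt_int_of_parts hp2 hI H P.ha0 P.hb0 P.hc0 hab (hP ▸ P.hFLT)

end

end Fermat.Agent.Kummer


end ZBZ2Kummer_003_0

/-! ### bundled: `Fermat.Agent.Kummer.CaseIIField` -/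
section ZBZ2Kummer_003_1

/-!
# Case II of Fermat's Last Theorem in `𝓞 K`, `K = ℚ(ζ_p)`, from PID + Kummer's lemma

We instantiate the abstract descent of `Fermat.Agent.Kummer.CaseII` with `R = 𝓞 K`.
-/

set_option autoImplicit false

namespace Fermat.Agent.Kummer

open NumberField Polynomial

section

variable {p : ℕ} [hp : Fact p.Prime] {K : Type*} [Field K] [NumberField K]
  [IsCyclotomicExtension {p} ℚ K]

/-- Every element of `𝓞 K` is congruent to a rational integer modulo `ζ - 1`. -/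
theorem exists_int_zeta_sub_one_dvd_sub {ζ : K} (hζ : IsPrimitiveRoot ζ p) (x : 𝓞 K) :
    ∃ n : ℤ, (hζ.toInteger - 1) ∣ x - (n : 𝓞 K) := by
  haveI : NeZero p := ⟨hp.out.ne_zero⟩
  obtain ⟨f, hf⟩ := hζ.integralPowerBasis.exists_eq_aeval' x
  rw [IsPrimitiveRoot.integralPowerBasis_gen] at hf
  obtain ⟨g, hg⟩ := Polynomial.X_sub_C_dvd_sub_C_eval (a := (1 : ℤ)) (p := f)
  refine ⟨f.eval 1, aeval hζ.toInteger g, ?_⟩
  have h := congrArg (aeval hζ.toInteger) hg
  simp only [map_sub, map_mul, aeval_X, eq_intCast, map_one, map_intCast] at h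
  rw [hf, h]

/-- The descent data attached to the ring of integers of `ℚ(ζ_p)`. -/
noncomputable def descentDataOfField (hp3 : 3 ≤ p) {ζ : K} (hζ : IsPrimitiveRoot ζ p)
    (hkum : ∀ u : (𝓞 K)ˣ, (∃ n : ℤ, ((p : ℕ) : 𝓞 K) ∣ (u : 𝓞 K) - (n : 𝓞 K)) →
      ∃ v : (𝓞 K)ˣ, u = v ^ p) : DescentData (𝓞 K) p where
  ζ := hζ.toInteger
  hp := hp.out
  hp3 := hp3
  hζ := hζ.toInteger_isPrimitiveRoot
  prime_pi := hζ.zeta_sub_one_prime'
  assoc := (IsCyclotomicExtension.Rat.associated_zeta_sub_one_pow_prime p hζ).symm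
  int_mod := exists_int_zeta_sub_one_dvd_sub hζ
  dvd_int := fun _ h => (IsCyclotomicExtension.Rat.zeta_sub_one_dvd_intCast_iff' p hζ).mp h
  kummer := hkum

/-- **Case II** in `𝓞 K`: if `𝓞 K` is a PID and Kummer's lemma holds, then the generalised
Fermat equation has no solution in case II. -/
theorem caseIIGen_of_pid_of_kummer (hp3 : 3 ≤ p) [IsPrincipalIdealRing (𝓞 K)]
    (hkum : ∀ u : (𝓞 K)ˣ, (∃ n : ℤ, ((p : ℕ) : 𝓞 K) ∣ (u : 𝓞 K) - (n : 𝓞 K)) →
      ∃ v : (𝓞 K)ˣ, u = v ^ p) : CaseIIGen p K := by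
  intro ζ hζ a b c u hc _ hb hcdvd hab
  exact (descentDataOfField hp3 hζ hkum).caseII_gen u hc hb hcdvd hab

end

end Fermat.Agent.Kummer


end ZBZ2Kummer_003_1

/-! ### bundled: `Fermat.Agent.S11` -/
section ZBZ2Kummer_003_2
-- Statement S11: no Galois-stable cofixed line for the Frey curve at p = 11.
-- Route: there is no Frey package with p = 11 (Fermat's Last Theorem for exponent 11, by Kummer's
-- method: the 11-th cyclotomic ring of integers is a PID, Sophie Germain for case I, descent for case II).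

set_option autoImplicit false
open WeierstrassCurve WeierstrassCurve.Affine WeierstrassCurve.Affine.Point
open CuspForm ModularFormClass UpperHalfPlane
open FreyPackage

namespace Fermat.Agent.S11

open NumberField in
/-- There is no Frey package with `p = 11`. -/
theorem no_freyPackage_eleven (P : FreyPackage) (hp : P.p = 11) : False := by
  have : Fact (Nat.Prime 11) := ⟨by norm_num⟩
  have : IsCyclotomicExtension {11} ℚ (CyclotomicField 11 ℚ) :=
    CyclotomicField.isCyclotomicExtension 11 ℚ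
  have : NumberField (CyclotomicField 11 ℚ) := IsCyclotomicExtension.numberField {11} ℚ _
  have : IsPrincipalIdealRing (𝓞 (CyclotomicField 11 ℚ)) :=
    Fermat.Agent.Kummer.eleven_pid (CyclotomicField 11 ℚ)
  have hkum : ∀ u : (𝓞 (CyclotomicField 11 ℚ))ˣ,
      (∃ n : ℤ, ((11 : ℕ) : 𝓞 (CyclotomicField 11 ℚ)) ∣
        (u : 𝓞 (CyclotomicField 11 ℚ)) - (n : 𝓞 (CyclotomicField 11 ℚ))) →
      ∃ v : (𝓞 (CyclotomicField 11 ℚ))ˣ, u = v ^ 11 := by
    obtain ⟨c, hc⟩ := Fermat.Agent.Kummer.cyclo_units_indep_eleven (K := CyclotomicField 11 ℚ)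
    exact Fermat.Agent.Kummer.kummer_lemma_of_indep (p := 11) (by norm_num) c hc
  have H : Fermat.Agent.Kummer.CaseIIGen 11 (CyclotomicField 11 ℚ) :=
    Fermat.Agent.Kummer.caseIIGen_of_pid_of_kummer (by norm_num) hkum
  exact Fermat.Agent.Kummer.no_freyPackage_of_parts (p := 11) (K := CyclotomicField 11 ℚ)
    (by norm_num)
    (fun a b c hab hnd h =>
      Fermat.Agent.Kummer.CaseI.caseI (Or.inr (Or.inr (Or.inl rfl))) h hab hnd)
    H P hp

theorem result (P : FreyPackage) (hp : P.p = 11) : ¬ HasGaloisStableCofixedLine (K := AlgebraicClosure ℚ) ℚ P.freyCurve P.p := by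
  exact (no_freyPackage_eleven P hp).elim

end Fermat.Agent.S11


end ZBZ2Kummer_003_2
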