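/- GENERATED FILE (helper35, build-time optimisation, NOTES/ZB.md): verbatim concatenation of the modules
   Fermat.Agent.Kummer.KLIndep
   Fermat.Agent.Kummer.KLIndep5
   Fermat.Agent.Kummer.KLIndep7
   Fermat.Agent.Kummer.KLIndep13
   Fermat.Agent.Kummer.KLIndep11
   Do not edit; do not import together with these modules. -/
import Mathlib

/-! ### bundled: `Fermat.Agent.Kummer.KLIndep` -/
section ZBZ2Kummer_005_0
/-
Kummer's lemma, local half (helper11).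

For a prime `p` and the ring of integers `𝓞 K` of the `p`-th cyclotomic field we construct a ring
homomorphism `Φ : 𝓞 K → (𝔽_p[T]/(T^(p-2)))[ε]` with `ζ ↦ 1 + T + ε`, and the logarithmic derivative
`δ u = snd (Φ u) / fst (Φ u)`, a homomorphism from the units to the additive group of
`𝔽_p[T]/(T^(p-2))` which kills every unit congruent to a rational integer mod `p`.
-/

set_option autoImplicit false
set_option linter.unusedSectionVars false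
set_option linter.unusedSimpArgs false

namespace Fermat.Agent.Kummer

open Polynomial NumberField

noncomputable section

/-- The truncated polynomial ring `𝔽_p[T]/(T^(p-2))`. -/
abbrev KLTrunc (p : ℕ) : Type := AdjoinRoot ((X : (ZMod p)[X]) ^ (p - 2))

/-- Dual numbers over the truncated polynomial ring. -/
abbrev KLDual (p : ℕ) : Type := DualNumber (KLTrunc p)

/-- The class of `T`. -/
def klT (p : ℕ) : KLTrunc p := AdjoinRoot.root _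

/-- The image of `ζ`: `1 + T + ε`. -/
def klZeta (p : ℕ) : KLDual p := TrivSqZeroExt.inl (1 + klT p) + TrivSqZeroExt.inr 1

lemma klT_pow (p : ℕ) : klT p ^ (p - 2) = 0 := by
  have h := AdjoinRoot.eval₂_root ((X : (ZMod p)[X]) ^ (p - 2))
  simpa [klT] using h

lemma klZeta_fst (p : ℕ) : (klZeta p).fst = 1 + klT p := by
  simp [klZeta]

lemma klZeta_snd (p : ℕ) : (klZeta p).snd = 1 := by
  simp [klZeta]



lemma klZeta_sub_one_pow (p : ℕ) (h3 : 3 ≤ p) : (klZeta p - 1) ^ (p - 1) = 0 := by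
  have hT := klT_pow p
  have hT' : klT p ^ (p - 1) = 0 := by
    have : p - 1 = (p - 2) + 1 := by omega
    rw [this, pow_succ, hT, zero_mul]
  have h2 : p - 1 - 1 = p - 2 := by omega
  ext
  · simp [klZeta, hT']
  · simp [klZeta, TrivSqZeroExt.snd_pow, h2, hT]

variable (p : ℕ) [hp : Fact p.Prime]

lemma aeval_klZeta_cyclotomic (h3 : 3 ≤ p) : aeval (klZeta p) (cyclotomic p ℤ) = 0 := by
  have h1 : cyclotomic p (ZMod p) = (X - 1) ^ (p - 1) := by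
    have := cyclotomic_mul_prime_pow_eq (ZMod p) (p := p) (m := 1) (by
      intro h; exact hp.out.one_lt.ne' (Nat.dvd_one.mp h)) (k := 1) one_pos
    simpa [cyclotomic_one] using this
  have h2 : aeval (klZeta p) (cyclotomic p ℤ) = aeval (klZeta p) (cyclotomic p (ZMod p)) := by
    rw [← map_cyclotomic_int p (ZMod p), aeval_def, aeval_def, eval₂_map]
    congr 1
  rw [h2, h1]
  simp [klZeta_sub_one_pow p h3]

variable {K : Type*} [Field K] [NumberField K] [IsCyclotomicExtension {p} ℚ K]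

lemma klPhi_aux (h3 : 3 ≤ p) {ζ : K} (hζ : IsPrimitiveRoot ζ p) :
    aeval (klZeta p) (minpoly ℤ hζ.integralPowerBasis.gen) = 0 := by
  rw [hζ.integralPowerBasis_gen, ← RingOfIntegers.minpoly_coe]
  have h1 : ((hζ.toInteger : 𝓞 K) : K) = ζ := rfl
  rw [h1, ← cyclotomic_eq_minpoly hζ hp.out.pos]
  exact aeval_klZeta_cyclotomic p h3

/-- The ring homomorphism `𝓞 K → (𝔽_p[T]/(T^(p-2)))[ε]`, `ζ ↦ 1 + T + ε`. -/
def klPhi (h3 : 3 ≤ p) {ζ : K} (hζ : IsPrimitiveRoot ζ p) : 𝓞 K →ₐ[ℤ] KLDual p :=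
  hζ.integralPowerBasis.lift (klZeta p) (klPhi_aux p h3 hζ)

lemma klPhi_zeta (h3 : 3 ≤ p) {ζ : K} (hζ : IsPrimitiveRoot ζ p) :
    klPhi p h3 hζ hζ.toInteger = klZeta p := by
  have := hζ.integralPowerBasis.lift_gen (klZeta p) (klPhi_aux p h3 hζ)
  rw [hζ.integralPowerBasis_gen] at this
  exact this

lemma klPhi_natCast_p (h3 : 3 ≤ p) {ζ : K} (hζ : IsPrimitiveRoot ζ p) :
    klPhi p h3 hζ (p : 𝓞 K) = 0 := by
  rw [map_natCast, ← map_natCast (algebraMap (ZMod p) (KLDual p)), ZMod.natCast_self, map_zero]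

/-- The logarithmic derivative. -/
def klDelta (h3 : 3 ≤ p) {ζ : K} (hζ : IsPrimitiveRoot ζ p) (u : (𝓞 K)ˣ) : KLTrunc p :=
  (klPhi p h3 hζ (u : 𝓞 K)).snd * (klPhi p h3 hζ ((u⁻¹ : (𝓞 K)ˣ) : 𝓞 K)).fst

lemma klPhi_fst_mul_inv (h3 : 3 ≤ p) {ζ : K} (hζ : IsPrimitiveRoot ζ p) (u : (𝓞 K)ˣ) :
    (klPhi p h3 hζ (u : 𝓞 K)).fst * (klPhi p h3 hζ ((u⁻¹ : (𝓞 K)ˣ) : 𝓞 K)).fst = 1 := by
  rw [← TrivSqZeroExt.fst_mul, ← map_mul, ← Units.val_mul, mul_inv_cancel]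
  simp

lemma klDelta_mul (h3 : 3 ≤ p) {ζ : K} (hζ : IsPrimitiveRoot ζ p) (u v : (𝓞 K)ˣ) :
    klDelta p h3 hζ (u * v) = klDelta p h3 hζ u + klDelta p h3 hζ v := by
  have hu := klPhi_fst_mul_inv p h3 hζ u
  have hv := klPhi_fst_mul_inv p h3 hζ v
  simp only [klDelta, mul_inv, Units.val_mul, map_mul, TrivSqZeroExt.fst_mul,
    TrivSqZeroExt.snd_mul, smul_eq_mul, MulOpposite.smul_eq_mul_unop, MulOpposite.unop_op]
  linear_combination ((klPhi p h3 hζ (v : 𝓞 K)).snd * (klPhi p h3 hζ ((v⁻¹ : (𝓞 K)ˣ) : 𝓞 K)).fst) * hu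
    + ((klPhi p h3 hζ (u : 𝓞 K)).snd * (klPhi p h3 hζ ((u⁻¹ : (𝓞 K)ˣ) : 𝓞 K)).fst) * hv

lemma klDelta_one (h3 : 3 ≤ p) {ζ : K} (hζ : IsPrimitiveRoot ζ p) :
    klDelta p h3 hζ 1 = 0 := by
  simp [klDelta]

/-- The logarithmic derivative as a monoid homomorphism. -/
def klDeltaHom (h3 : 3 ≤ p) {ζ : K} (hζ : IsPrimitiveRoot ζ p) :
    (𝓞 K)ˣ →* Multiplicative (KLTrunc p) where
  toFun u := Multiplicative.ofAdd (klDelta p h3 hζ u)
  map_one' := by simp [klDelta_one]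
  map_mul' u v := by simp [klDelta_mul, ofAdd_add]

lemma klDelta_pow (h3 : 3 ≤ p) {ζ : K} (hζ : IsPrimitiveRoot ζ p) (u : (𝓞 K)ˣ) (n : ℕ) :
    klDelta p h3 hζ (u ^ n) = n • klDelta p h3 hζ u := by
  have := map_pow (klDeltaHom p h3 hζ) u n
  simpa [klDeltaHom] using congrArg Multiplicative.toAdd this

lemma klDelta_prod (h3 : 3 ≤ p) {ζ : K} (hζ : IsPrimitiveRoot ζ p) {ι : Type*} (s : Finset ι)
    (f : ι → (𝓞 K)ˣ) :
    klDelta p h3 hζ (∏ i ∈ s, f i) = ∑ i ∈ s, klDelta p h3 hζ (f i) := by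
  classical
  induction s using Finset.induction_on with
  | empty => simp [klDelta_one]
  | insert a s ha ih => rw [Finset.prod_insert ha, Finset.sum_insert ha, klDelta_mul, ih]

/-- A unit congruent to a rational integer mod `p` has trivial logarithmic derivative. -/
lemma klDelta_eq_zero_of_dvd (h3 : 3 ≤ p) {ζ : K} (hζ : IsPrimitiveRoot ζ p) (u : (𝓞 K)ˣ) (n : ℤ)
    (h : (p : 𝓞 K) ∣ (u : 𝓞 K) - n) : klDelta p h3 hζ u = 0 := by
  obtain ⟨x, hx⟩ := h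
  have hu : (u : 𝓞 K) = n + p * x := by rw [← hx]; ring
  have : (klPhi p h3 hζ (u : 𝓞 K)).snd = 0 := by
    rw [hu, map_add, map_mul, klPhi_natCast_p, zero_mul, add_zero, map_intCast]
    simp
  simp [klDelta, this]

/-- Local half of Kummer's lemma: if the logarithmic derivatives of the units `c a` are linearly
independent over `𝔽_p`, then `∏ c a ^ e a ≡ n mod p` forces `p ∣ e a` for all `a`. -/
theorem kl_indep_of_linearIndependent (h3 : 3 ≤ p) {ζ : K} (hζ : IsPrimitiveRoot ζ p)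
    {m : ℕ} (c : Fin m → (𝓞 K)ˣ)
    (hc : LinearIndependent (ZMod p) (fun a => klDelta p h3 hζ (c a)))
    (e : Fin m → ℕ) (n : ℤ)
    (h : ((p : ℕ) : 𝓞 K) ∣ ((∏ a, c a ^ e a : (𝓞 K)ˣ) : 𝓞 K) - (n : 𝓞 K)) :
    ∀ a, p ∣ e a := by
  have h0 := klDelta_eq_zero_of_dvd p h3 hζ _ n h
  rw [klDelta_prod] at h0
  simp only [klDelta_pow] at h0
  rw [Fintype.linearIndependent_iff] at hc
  have := hc (fun a => (e a : ZMod p)) (by
    rw [← h0]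
    refine Finset.sum_congr rfl fun a _ => ?_
    rw [Nat.cast_smul_eq_nsmul])
  intro a
  exact (ZMod.natCast_eq_zero_iff _ _).mp (this a)


lemma klDelta_eq_of_mul_eq (h3 : 3 ≤ p) {ζ : K} (hζ : IsPrimitiveRoot ζ p) (u : (𝓞 K)ˣ)
    (q : KLTrunc p)
    (h : (klPhi p h3 hζ (u : 𝓞 K)).snd = q * (klPhi p h3 hζ (u : 𝓞 K)).fst) :
    klDelta p h3 hζ u = q := by
  have hu := klPhi_fst_mul_inv p h3 hζ u
  rw [klDelta, h, mul_assoc, hu, mul_one]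

/-- `ζ` as a unit of `𝓞 K`. -/
def klUnitZeta {ζ : K} (hζ : IsPrimitiveRoot ζ p) : (𝓞 K)ˣ :=
  (hζ.toInteger_isPrimitiveRoot.isUnit hp.out.ne_zero).unit

@[simp] lemma klUnitZeta_val {ζ : K} (hζ : IsPrimitiveRoot ζ p) :
    ((klUnitZeta p hζ : (𝓞 K)ˣ) : 𝓞 K) = hζ.toInteger := rfl

/-- The cyclotomic unit `1 + ζ + ⋯ + ζ^(a-1)`. -/
def klUnitGeom {ζ : K} (hζ : IsPrimitiveRoot ζ p) (a : ℕ) (ha : a.Coprime p) : (𝓞 K)ˣ :=
  (hζ.toInteger_isPrimitiveRoot.geom_sum_isUnit hp.out.two_le ha).unit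

@[simp] lemma klUnitGeom_val {ζ : K} (hζ : IsPrimitiveRoot ζ p) (a : ℕ) (ha : a.Coprime p) :
    ((klUnitGeom p hζ a ha : (𝓞 K)ˣ) : 𝓞 K) = ∑ i ∈ Finset.range a, hζ.toInteger ^ i := rfl

lemma klPhi_zeta_fst (h3 : 3 ≤ p) {ζ : K} (hζ : IsPrimitiveRoot ζ p) :
    (klPhi p h3 hζ hζ.toInteger).fst = 1 + klT p := by
  rw [klPhi_zeta, klZeta_fst]

lemma klPhi_zeta_snd (h3 : 3 ≤ p) {ζ : K} (hζ : IsPrimitiveRoot ζ p) :
    (klPhi p h3 hζ hζ.toInteger).snd = 1 := by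
  rw [klPhi_zeta, klZeta_snd]

lemma klPhi_geom_fst (h3 : 3 ≤ p) {ζ : K} (hζ : IsPrimitiveRoot ζ p) (a : ℕ) :
    (klPhi p h3 hζ (∑ i ∈ Finset.range a, hζ.toInteger ^ i)).fst
      = ∑ i ∈ Finset.range a, (1 + klT p) ^ i := by
  simp [map_sum, map_pow, klPhi_zeta, klZeta_fst, TrivSqZeroExt.fst_sum]

lemma klPhi_geom_snd (h3 : 3 ≤ p) {ζ : K} (hζ : IsPrimitiveRoot ζ p) (a : ℕ) :
    (klPhi p h3 hζ (∑ i ∈ Finset.range a, hζ.toInteger ^ i)).snd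
      = ∑ i ∈ Finset.range a, (i : KLTrunc p) * (1 + klT p) ^ (i - 1) := by
  simp [map_sum, map_pow, klPhi_zeta, klZeta_fst, klZeta_snd, TrivSqZeroExt.snd_sum,
    TrivSqZeroExt.snd_pow]

/-- Linear independence in `𝔽_p[T]/(T^(p-2))` from a coefficient criterion. -/
lemma kl_linearIndependent_mk {m : ℕ} (Q : Fin m → (ZMod p)[X])
    (hQ : ∀ e : Fin m → ZMod p, (∀ j < p - 2, ∑ a, e a * (Q a).coeff j = 0) → ∀ a, e a = 0) :
    LinearIndependent (ZMod p)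
      (fun a => (AdjoinRoot.mk ((X : (ZMod p)[X]) ^ (p - 2)) (Q a) : KLTrunc p)) := by
  rw [Fintype.linearIndependent_iff]
  intro e he
  apply hQ e
  intro j hj
  have h1 : (AdjoinRoot.mk ((X : (ZMod p)[X]) ^ (p - 2))) (∑ a, C (e a) * Q a) = 0 := by
    rw [← he, map_sum]
    refine Finset.sum_congr rfl fun a _ => ?_
    rw [map_mul, AdjoinRoot.mk_C, Algebra.smul_def]
    rfl
  rw [AdjoinRoot.mk_eq_zero, X_pow_dvd_iff] at h1
  have h2 := h1 j hj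
  simpa [Polynomial.finsetSum_coeff] using h2

end

end Fermat.Agent.Kummer


end ZBZ2Kummer_005_0

/-! ### bundled: `Fermat.Agent.Kummer.KLIndep5` -/
section ZBZ2Kummer_005_1
/-
Kummer's lemma, local half for p = 5: explicit certificate (generated by script; helper11).
-/

set_option autoImplicit false
set_option linter.unusedSimpArgs false
set_option linter.unusedVariables false

namespace Fermat.Agent.Kummer

open Polynomial NumberField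

noncomputable section

lemma kl_fact_prime_5 : Fact (Nat.Prime 5) := ⟨by norm_num⟩

lemma kl_T_pow_5 : klT 5 ^ 3 = 0 := klT_pow 5

lemma kl_char_5 : (5 : KLTrunc 5) = 0 := by
  have h : ((5 : ZMod 5) : ZMod 5) = 0 := by decide
  have := congrArg (algebraMap (ZMod 5) (KLTrunc 5)) h
  rwa [map_ofNat, map_zero] at this

/-- logarithmic derivative of the `0`-th unit, as a polynomial -/
def klQ_5_0 : (ZMod 5)[X] := C 1 * X ^ 0 + C 4 * X ^ 1 + C 1 * X ^ 2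

/-- logarithmic derivative of the `1`-th unit, as a polynomial -/
def klQ_5_1 : (ZMod 5)[X] := C 3 * X ^ 0 + C 1 * X ^ 1 + C 2 * X ^ 2

/-- the family of polynomials -/
def klQ_5 : Fin 2 → (ZMod 5)[X] := ![klQ_5_0, klQ_5_1]

lemma klQ_5_0_mk : (AdjoinRoot.mk ((X : (ZMod 5)[X]) ^ (5 - 2)) klQ_5_0 : KLTrunc 5) = 1 + 4 * klT 5 + 1 * klT 5 ^ 2 := by
  simp only [klQ_5_0, map_add, map_mul, map_pow, AdjoinRoot.mk_X, AdjoinRoot.mk_C, map_ofNat, map_one, map_zero, pow_zero, pow_one, mul_one, zero_mul, add_zero, zero_add, one_mul]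
  rfl

lemma klQ_5_1_mk : (AdjoinRoot.mk ((X : (ZMod 5)[X]) ^ (5 - 2)) klQ_5_1 : KLTrunc 5) = 3 + 1 * klT 5 + 2 * klT 5 ^ 2 := by
  simp only [klQ_5_1, map_add, map_mul, map_pow, AdjoinRoot.mk_X, AdjoinRoot.mk_C, map_ofNat, map_one, map_zero, pow_zero, pow_one, mul_one, zero_mul, add_zero, zero_add, one_mul]
  rfl

variable {K : Type*} [Field K] [NumberField K] [IsCyclotomicExtension {5} ℚ K]

attribute [local instance] kl_fact_prime_5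

/-- the cyclotomic units -/
def klC_5 {ζ : K} (hζ : IsPrimitiveRoot ζ 5) : Fin 2 → (𝓞 K)ˣ := ![klUnitZeta 5 hζ, klUnitGeom 5 hζ 2 (by norm_num)]

lemma klDelta_5_0 {ζ : K} (hζ : IsPrimitiveRoot ζ 5) :
    klDelta 5 (by norm_num) hζ (klUnitZeta 5 hζ) = AdjoinRoot.mk ((X : (ZMod 5)[X]) ^ (5 - 2)) klQ_5_0 := by
  apply klDelta_eq_of_mul_eq
  rw [klUnitZeta_val, klPhi_zeta_fst, klPhi_zeta_snd, klQ_5_0_mk]
  have hT := kl_T_pow_5
  have hp := kl_char_5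
  linear_combination (-1) * hT + (-1 * klT 5 - 1 * klT 5 ^ 2) * hp

lemma klDelta_5_1 {ζ : K} (hζ : IsPrimitiveRoot ζ 5) :
    klDelta 5 (by norm_num) hζ (klUnitGeom 5 hζ 2 (by norm_num)) = AdjoinRoot.mk ((X : (ZMod 5)[X]) ^ (5 - 2)) klQ_5_1 := by
  apply klDelta_eq_of_mul_eq
  rw [klUnitGeom_val, klPhi_geom_fst, klPhi_geom_snd, klQ_5_1_mk]
  simp only [Finset.sum_range_succ, Finset.sum_range_zero, Nat.cast_ofNat, Nat.cast_one, Nat.cast_zero]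
  have hT := kl_T_pow_5
  have hp := kl_char_5
  linear_combination (-2) * hT + (-1 - 1 * klT 5 - 1 * klT 5 ^ 2) * hp

lemma klDelta_5_family {ζ : K} (hζ : IsPrimitiveRoot ζ 5) :
    (fun a => klDelta 5 (by norm_num) hζ (klC_5 hζ a)) = fun a => (AdjoinRoot.mk ((X : (ZMod 5)[X]) ^ (5 - 2)) (klQ_5 a) : KLTrunc 5) := by
  funext a
  fin_cases a
  · exact klDelta_5_0 hζ
  · exact klDelta_5_1 hζ

lemma klQ_5_coeff (e : Fin 2 → ZMod 5)
    (h : ∀ j < 5 - 2, ∑ a, e a * (klQ_5 a).coeff j = 0) : ∀ a, e a = 0 := by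
  have hp : (5 : ZMod 5) = 0 := by decide
  have h0 := h 0 (by norm_num)
  have h1 := h 1 (by norm_num)
  simp [Fin.sum_univ_succ, Fin.sum_univ_zero, klQ_5, klQ_5_0, klQ_5_1, Matrix.cons_val_zero, Matrix.cons_val_succ, coeff_add, coeff_C_mul_X_pow, coeff_C_mul, coeff_C, coeff_X_pow, coeff_X, coeff_one, coeff_C_mul_X] at h0 h1
  intro a
  fin_cases a
  · show e 0 = 0
    linear_combination 4 * h0 + 3 * h1 + ((-3) * e 0 + (-3) * e 1) * hp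
  · show e 1 = 0
    linear_combination 4 * h0 + 4 * h1 + ((-4) * e 0 + (-3) * e 1) * hp

lemma klDelta_5_linearIndependent {ζ : K} (hζ : IsPrimitiveRoot ζ 5) :
    LinearIndependent (ZMod 5) (fun a => klDelta 5 (by norm_num) hζ (klC_5 hζ a)) := by
  rw [klDelta_5_family]
  exact kl_linearIndependent_mk 5 klQ_5 klQ_5_coeff

/-- Local half of Kummer's lemma for `p = 5`. -/
theorem cyclo_units_indep_five {K : Type*} [Field K] [NumberField K]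
    [IsCyclotomicExtension {5} ℚ K] : ∃ c : Fin 2 → (𝓞 K)ˣ,
    ∀ (e : Fin 2 → ℕ) (n : ℤ),
      ((5 : ℕ) : 𝓞 K) ∣ ((∏ a, c a ^ e a : (𝓞 K)ˣ) : 𝓞 K) - (n : 𝓞 K) → ∀ a, 5 ∣ e a := by
  have hζ := IsCyclotomicExtension.zeta_spec 5 ℚ K
  exact ⟨klC_5 hζ, fun e n h =>
    kl_indep_of_linearIndependent 5 (by norm_num) hζ (klC_5 hζ)
      (klDelta_5_linearIndependent hζ) e n h⟩

end

end Fermat.Agent.Kummer



end ZBZ2Kummer_005_1

/-! ### bundled: `Fermat.Agent.Kummer.KLIndep7` -/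
section ZBZ2Kummer_005_2
/-
Kummer's lemma, local half for p = 7: explicit certificate (generated by script; helper11).
-/

set_option autoImplicit false
set_option linter.unusedSimpArgs false
set_option linter.unusedVariables false

namespace Fermat.Agent.Kummer

open Polynomial NumberField

noncomputable section

lemma kl_fact_prime_7 : Fact (Nat.Prime 7) := ⟨by norm_num⟩

lemma kl_T_pow_7 : klT 7 ^ 5 = 0 := klT_pow 7

lemma kl_char_7 : (7 : KLTrunc 7) = 0 := by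
  have h : ((7 : ZMod 7) : ZMod 7) = 0 := by decide
  have := congrArg (algebraMap (ZMod 7) (KLTrunc 7)) h
  rwa [map_ofNat, map_zero] at this

/-- logarithmic derivative of the `0`-th unit, as a polynomial -/
def klQ_7_0 : (ZMod 7)[X] := C 1 * X ^ 0 + C 6 * X ^ 1 + C 1 * X ^ 2 + C 6 * X ^ 3 + C 1 * X ^ 4

/-- logarithmic derivative of the `1`-th unit, as a polynomial -/
def klQ_7_1 : (ZMod 7)[X] := C 4 * X ^ 0 + C 5 * X ^ 1 + C 1 * X ^ 2 + C 3 * X ^ 3 + C 2 * X ^ 4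

/-- logarithmic derivative of the `2`-th unit, as a polynomial -/
def klQ_7_2 : (ZMod 7)[X] := C 1 * X ^ 0 + C 2 * X ^ 1 + C 0 * X ^ 2 + C 4 * X ^ 3 + C 3 * X ^ 4

/-- the family of polynomials -/
def klQ_7 : Fin 3 → (ZMod 7)[X] := ![klQ_7_0, klQ_7_1, klQ_7_2]

lemma klQ_7_0_mk : (AdjoinRoot.mk ((X : (ZMod 7)[X]) ^ (7 - 2)) klQ_7_0 : KLTrunc 7) = 1 + 6 * klT 7 + 1 * klT 7 ^ 2 + 6 * klT 7 ^ 3 + 1 * klT 7 ^ 4 := by
  simp only [klQ_7_0, map_add, map_mul, map_pow, AdjoinRoot.mk_X, AdjoinRoot.mk_C, map_ofNat, map_one, map_zero, pow_zero, pow_one, mul_one, zero_mul, add_zero, zero_add, one_mul]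
  rfl

lemma klQ_7_1_mk : (AdjoinRoot.mk ((X : (ZMod 7)[X]) ^ (7 - 2)) klQ_7_1 : KLTrunc 7) = 4 + 5 * klT 7 + 1 * klT 7 ^ 2 + 3 * klT 7 ^ 3 + 2 * klT 7 ^ 4 := by
  simp only [klQ_7_1, map_add, map_mul, map_pow, AdjoinRoot.mk_X, AdjoinRoot.mk_C, map_ofNat, map_one, map_zero, pow_zero, pow_one, mul_one, zero_mul, add_zero, zero_add, one_mul]
  rfl

lemma klQ_7_2_mk : (AdjoinRoot.mk ((X : (ZMod 7)[X]) ^ (7 - 2)) klQ_7_2 : KLTrunc 7) = 1 + 2 * klT 7 + 4 * klT 7 ^ 3 + 3 * klT 7 ^ 4 := by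
  simp only [klQ_7_2, map_add, map_mul, map_pow, AdjoinRoot.mk_X, AdjoinRoot.mk_C, map_ofNat, map_one, map_zero, pow_zero, pow_one, mul_one, zero_mul, add_zero, zero_add, one_mul]
  rfl

variable {K : Type*} [Field K] [NumberField K] [IsCyclotomicExtension {7} ℚ K]

attribute [local instance] kl_fact_prime_7

/-- the cyclotomic units -/
def klC_7 {ζ : K} (hζ : IsPrimitiveRoot ζ 7) : Fin 3 → (𝓞 K)ˣ := ![klUnitZeta 7 hζ, klUnitGeom 7 hζ 2 (by norm_num), klUnitGeom 7 hζ 3 (by norm_num)]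

lemma klDelta_7_0 {ζ : K} (hζ : IsPrimitiveRoot ζ 7) :
    klDelta 7 (by norm_num) hζ (klUnitZeta 7 hζ) = AdjoinRoot.mk ((X : (ZMod 7)[X]) ^ (7 - 2)) klQ_7_0 := by
  apply klDelta_eq_of_mul_eq
  rw [klUnitZeta_val, klPhi_zeta_fst, klPhi_zeta_snd, klQ_7_0_mk]
  have hT := kl_T_pow_7
  have hp := kl_char_7
  linear_combination (-1) * hT + (-1 * klT 7 - 1 * klT 7 ^ 2 - 1 * klT 7 ^ 3 - 1 * klT 7 ^ 4) * hp

lemma klDelta_7_1 {ζ : K} (hζ : IsPrimitiveRoot ζ 7) :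
    klDelta 7 (by norm_num) hζ (klUnitGeom 7 hζ 2 (by norm_num)) = AdjoinRoot.mk ((X : (ZMod 7)[X]) ^ (7 - 2)) klQ_7_1 := by
  apply klDelta_eq_of_mul_eq
  rw [klUnitGeom_val, klPhi_geom_fst, klPhi_geom_snd, klQ_7_1_mk]
  simp only [Finset.sum_range_succ, Finset.sum_range_zero, Nat.cast_ofNat, Nat.cast_one, Nat.cast_zero]
  have hT := kl_T_pow_7
  have hp := kl_char_7
  linear_combination (-2) * hT + (-1 - 2 * klT 7 - 1 * klT 7 ^ 2 - 1 * klT 7 ^ 3 - 1 * klT 7 ^ 4) * hp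

lemma klDelta_7_2 {ζ : K} (hζ : IsPrimitiveRoot ζ 7) :
    klDelta 7 (by norm_num) hζ (klUnitGeom 7 hζ 3 (by norm_num)) = AdjoinRoot.mk ((X : (ZMod 7)[X]) ^ (7 - 2)) klQ_7_2 := by
  apply klDelta_eq_of_mul_eq
  rw [klUnitGeom_val, klPhi_geom_fst, klPhi_geom_snd, klQ_7_2_mk]
  simp only [Finset.sum_range_succ, Finset.sum_range_zero, Nat.cast_ofNat, Nat.cast_one, Nat.cast_zero]
  have hT := kl_T_pow_7
  have hp := kl_char_7
  linear_combination (-13 - 3 * klT 7) * hT + (-1 * klT 7 - 1 * klT 7 ^ 2 - 2 * klT 7 ^ 3 - 3 * klT 7 ^ 4) * hp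

lemma klDelta_7_family {ζ : K} (hζ : IsPrimitiveRoot ζ 7) :
    (fun a => klDelta 7 (by norm_num) hζ (klC_7 hζ a)) = fun a => (AdjoinRoot.mk ((X : (ZMod 7)[X]) ^ (7 - 2)) (klQ_7 a) : KLTrunc 7) := by
  funext a
  fin_cases a
  · exact klDelta_7_0 hζ
  · exact klDelta_7_1 hζ
  · exact klDelta_7_2 hζ

lemma klQ_7_coeff (e : Fin 3 → ZMod 7)
    (h : ∀ j < 7 - 2, ∑ a, e a * (klQ_7 a).coeff j = 0) : ∀ a, e a = 0 := by
  have hp : (7 : ZMod 7) = 0 := by decide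
  have h0 := h 0 (by norm_num)
  have h1 := h 1 (by norm_num)
  have h2 := h 3 (by norm_num)
  simp [Fin.sum_univ_succ, Fin.sum_univ_zero, klQ_7, klQ_7_0, klQ_7_1, klQ_7_2, Matrix.cons_val_zero, Matrix.cons_val_succ, coeff_add, coeff_C_mul_X_pow, coeff_C_mul, coeff_C, coeff_X_pow, coeff_X, coeff_one, coeff_C_mul_X] at h0 h1 h2
  intro a
  fin_cases a
  · show e 0 = 0
    linear_combination 0 * h0 + 5 * h1 + 1 * h2 + ((-5) * e 0 + (-4) * e 1 + (-2) * e 2) * hp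
  · show e 1 = 0
    linear_combination 3 * h0 + 4 * h1 + 6 * h2 + ((-9) * e 0 + (-7) * e 1 + (-5) * e 2) * hp
  · show e 2 = 0
    linear_combination 3 * h0 + 0 * h1 + 3 * h2 + ((-3) * e 0 + (-3) * e 1 + (-2) * e 2) * hp

lemma klDelta_7_linearIndependent {ζ : K} (hζ : IsPrimitiveRoot ζ 7) :
    LinearIndependent (ZMod 7) (fun a => klDelta 7 (by norm_num) hζ (klC_7 hζ a)) := by
  rw [klDelta_7_family]
  exact kl_linearIndependent_mk 7 klQ_7 klQ_7_coeff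

/-- Local half of Kummer's lemma for `p = 7`. -/
theorem cyclo_units_indep_seven {K : Type*} [Field K] [NumberField K]
    [IsCyclotomicExtension {7} ℚ K] : ∃ c : Fin 3 → (𝓞 K)ˣ,
    ∀ (e : Fin 3 → ℕ) (n : ℤ),
      ((7 : ℕ) : 𝓞 K) ∣ ((∏ a, c a ^ e a : (𝓞 K)ˣ) : 𝓞 K) - (n : 𝓞 K) → ∀ a, 7 ∣ e a := by
  have hζ := IsCyclotomicExtension.zeta_spec 7 ℚ K
  exact ⟨klC_7 hζ, fun e n h =>
    kl_indep_of_linearIndependent 7 (by norm_num) hζ (klC_7 hζ)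
      (klDelta_7_linearIndependent hζ) e n h⟩

end

end Fermat.Agent.Kummer



end ZBZ2Kummer_005_2

/-! ### bundled: `Fermat.Agent.Kummer.KLIndep13` -/
section ZBZ2Kummer_005_3
/-
Kummer's lemma, local half for p = 13: explicit certificate (generated by script; helper11).
-/

set_option autoImplicit false
set_option linter.unusedSimpArgs false
set_option linter.unusedVariables false

namespace Fermat.Agent.Kummer

open Polynomial NumberField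

noncomputable section

lemma kl_fact_prime_13 : Fact (Nat.Prime 13) := ⟨by norm_num⟩

lemma kl_T_pow_13 : klT 13 ^ 11 = 0 := klT_pow 13

lemma kl_char_13 : (13 : KLTrunc 13) = 0 := by
  have h : ((13 : ZMod 13) : ZMod 13) = 0 := by decide
  have := congrArg (algebraMap (ZMod 13) (KLTrunc 13)) h
  rwa [map_ofNat, map_zero] at this

/-- logarithmic derivative of the `0`-th unit, as a polynomial -/
def klQ_13_0 : (ZMod 13)[X] := C 1 * X ^ 0 + C 12 * X ^ 1 + C 1 * X ^ 2 + C 12 * X ^ 3 + C 1 * X ^ 4 + C 12 * X ^ 5 + C 1 * X ^ 6 + C 12 * X ^ 7 + C 1 * X ^ 8 + C 12 * X ^ 9 + C 1 * X ^ 10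

/-- logarithmic derivative of the `1`-th unit, as a polynomial -/
def klQ_13_1 : (ZMod 13)[X] := C 7 * X ^ 0 + C 3 * X ^ 1 + C 5 * X ^ 2 + C 4 * X ^ 3 + C 11 * X ^ 4 + C 1 * X ^ 5 + C 6 * X ^ 6 + C 10 * X ^ 7 + C 8 * X ^ 8 + C 9 * X ^ 9 + C 2 * X ^ 10

/-- logarithmic derivative of the `2`-th unit, as a polynomial -/
def klQ_13_2 : (ZMod 13)[X] := C 1 * X ^ 0 + C 4 * X ^ 1 + C 0 * X ^ 2 + C 3 * X ^ 3 + C 10 * X ^ 4 + C 2 * X ^ 5 + C 12 * X ^ 6 + C 9 * X ^ 7 + C 0 * X ^ 8 + C 10 * X ^ 9 + C 3 * X ^ 10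

/-- logarithmic derivative of the `3`-th unit, as a polynomial -/
def klQ_13_3 : (ZMod 13)[X] := C 8 * X ^ 0 + C 3 * X ^ 1 + C 11 * X ^ 2 + C 11 * X ^ 3 + C 1 * X ^ 4 + C 1 * X ^ 5 + C 11 * X ^ 6 + C 5 * X ^ 7 + C 4 * X ^ 8 + C 9 * X ^ 9 + C 4 * X ^ 10

/-- logarithmic derivative of the `4`-th unit, as a polynomial -/
def klQ_13_4 : (ZMod 13)[X] := C 2 * X ^ 0 + C 0 * X ^ 1 + C 12 * X ^ 2 + C 6 * X ^ 3 + C 0 * X ^ 4 + C 2 * X ^ 5 + C 11 * X ^ 6 + C 4 * X ^ 7 + C 7 * X ^ 8 + C 3 * X ^ 9 + C 5 * X ^ 10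

/-- logarithmic derivative of the `5`-th unit, as a polynomial -/
def klQ_13_5 : (ZMod 13)[X] := C 9 * X ^ 0 + C 8 * X ^ 1 + C 3 * X ^ 2 + C 8 * X ^ 3 + C 9 * X ^ 4 + C 1 * X ^ 5 + C 6 * X ^ 6 + C 7 * X ^ 7 + C 6 * X ^ 8 + C 7 * X ^ 9 + C 6 * X ^ 10

/-- the family of polynomials -/
def klQ_13 : Fin 6 → (ZMod 13)[X] := ![klQ_13_0, klQ_13_1, klQ_13_2, klQ_13_3, klQ_13_4, klQ_13_5]

lemma klQ_13_0_mk : (AdjoinRoot.mk ((X : (ZMod 13)[X]) ^ (13 - 2)) klQ_13_0 : KLTrunc 13) = 1 + 12 * klT 13 + 1 * klT 13 ^ 2 + 12 * klT 13 ^ 3 + 1 * klT 13 ^ 4 + 12 * klT 13 ^ 5 + 1 * klT 13 ^ 6 + 12 * klT 13 ^ 7 + 1 * klT 13 ^ 8 + 12 * klT 13 ^ 9 + 1 * klT 13 ^ 10 := by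
  simp only [klQ_13_0, map_add, map_mul, map_pow, AdjoinRoot.mk_X, AdjoinRoot.mk_C, map_ofNat, map_one, map_zero, pow_zero, pow_one, mul_one, zero_mul, add_zero, zero_add, one_mul]
  rfl

lemma klQ_13_1_mk : (AdjoinRoot.mk ((X : (ZMod 13)[X]) ^ (13 - 2)) klQ_13_1 : KLTrunc 13) = 7 + 3 * klT 13 + 5 * klT 13 ^ 2 + 4 * klT 13 ^ 3 + 11 * klT 13 ^ 4 + 1 * klT 13 ^ 5 + 6 * klT 13 ^ 6 + 10 * klT 13 ^ 7 + 8 * klT 13 ^ 8 + 9 * klT 13 ^ 9 + 2 * klT 13 ^ 10 := by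
  simp only [klQ_13_1, map_add, map_mul, map_pow, AdjoinRoot.mk_X, AdjoinRoot.mk_C, map_ofNat, map_one, map_zero, pow_zero, pow_one, mul_one, zero_mul, add_zero, zero_add, one_mul]
  rfl

lemma klQ_13_2_mk : (AdjoinRoot.mk ((X : (ZMod 13)[X]) ^ (13 - 2)) klQ_13_2 : KLTrunc 13) = 1 + 4 * klT 13 + 3 * klT 13 ^ 3 + 10 * klT 13 ^ 4 + 2 * klT 13 ^ 5 + 12 * klT 13 ^ 6 + 9 * klT 13 ^ 7 + 10 * klT 13 ^ 9 + 3 * klT 13 ^ 10 := by
  simp only [klQ_13_2, map_add, map_mul, map_pow, AdjoinRoot.mk_X, AdjoinRoot.mk_C, map_ofNat, map_one, map_zero, pow_zero, pow_one, mul_one, zero_mul, add_zero, zero_add, one_mul]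
  rfl

lemma klQ_13_3_mk : (AdjoinRoot.mk ((X : (ZMod 13)[X]) ^ (13 - 2)) klQ_13_3 : KLTrunc 13) = 8 + 3 * klT 13 + 11 * klT 13 ^ 2 + 11 * klT 13 ^ 3 + 1 * klT 13 ^ 4 + 1 * klT 13 ^ 5 + 11 * klT 13 ^ 6 + 5 * klT 13 ^ 7 + 4 * klT 13 ^ 8 + 9 * klT 13 ^ 9 + 4 * klT 13 ^ 10 := by
  simp only [klQ_13_3, map_add, map_mul, map_pow, AdjoinRoot.mk_X, AdjoinRoot.mk_C, map_ofNat, map_one, map_zero, pow_zero, pow_one, mul_one, zero_mul, add_zero, zero_add, one_mul]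
  rfl

lemma klQ_13_4_mk : (AdjoinRoot.mk ((X : (ZMod 13)[X]) ^ (13 - 2)) klQ_13_4 : KLTrunc 13) = 2 + 12 * klT 13 ^ 2 + 6 * klT 13 ^ 3 + 2 * klT 13 ^ 5 + 11 * klT 13 ^ 6 + 4 * klT 13 ^ 7 + 7 * klT 13 ^ 8 + 3 * klT 13 ^ 9 + 5 * klT 13 ^ 10 := by
  simp only [klQ_13_4, map_add, map_mul, map_pow, AdjoinRoot.mk_X, AdjoinRoot.mk_C, map_ofNat, map_one, map_zero, pow_zero, pow_one, mul_one, zero_mul, add_zero, zero_add, one_mul]
  rfl

lemma klQ_13_5_mk : (AdjoinRoot.mk ((X : (ZMod 13)[X]) ^ (13 - 2)) klQ_13_5 : KLTrunc 13) = 9 + 8 * klT 13 + 3 * klT 13 ^ 2 + 8 * klT 13 ^ 3 + 9 * klT 13 ^ 4 + 1 * klT 13 ^ 5 + 6 * klT 13 ^ 6 + 7 * klT 13 ^ 7 + 6 * klT 13 ^ 8 + 7 * klT 13 ^ 9 + 6 * klT 13 ^ 10 := by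
  simp only [klQ_13_5, map_add, map_mul, map_pow, AdjoinRoot.mk_X, AdjoinRoot.mk_C, map_ofNat, map_one, map_zero, pow_zero, pow_one, mul_one, zero_mul, add_zero, zero_add, one_mul]
  rfl

variable {K : Type*} [Field K] [NumberField K] [IsCyclotomicExtension {13} ℚ K]

attribute [local instance] kl_fact_prime_13

/-- the cyclotomic units -/
def klC_13 {ζ : K} (hζ : IsPrimitiveRoot ζ 13) : Fin 6 → (𝓞 K)ˣ := ![klUnitZeta 13 hζ, klUnitGeom 13 hζ 2 (by norm_num), klUnitGeom 13 hζ 3 (by norm_num), klUnitGeom 13 hζ 4 (by norm_num), klUnitGeom 13 hζ 5 (by norm_num), klUnitGeom 13 hζ 6 (by norm_num)]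

lemma klDelta_13_0 {ζ : K} (hζ : IsPrimitiveRoot ζ 13) :
    klDelta 13 (by norm_num) hζ (klUnitZeta 13 hζ) = AdjoinRoot.mk ((X : (ZMod 13)[X]) ^ (13 - 2)) klQ_13_0 := by
  apply klDelta_eq_of_mul_eq
  rw [klUnitZeta_val, klPhi_zeta_fst, klPhi_zeta_snd, klQ_13_0_mk]
  have hT := kl_T_pow_13
  have hp := kl_char_13
  linear_combination (-1) * hT + (-1 * klT 13 - 1 * klT 13 ^ 2 - 1 * klT 13 ^ 3 - 1 * klT 13 ^ 4 - 1 * klT 13 ^ 5 - 1 * klT 13 ^ 6 - 1 * klT 13 ^ 7 - 1 * klT 13 ^ 8 - 1 * klT 13 ^ 9 - 1 * klT 13 ^ 10) * hp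

lemma klDelta_13_1 {ζ : K} (hζ : IsPrimitiveRoot ζ 13) :
    klDelta 13 (by norm_num) hζ (klUnitGeom 13 hζ 2 (by norm_num)) = AdjoinRoot.mk ((X : (ZMod 13)[X]) ^ (13 - 2)) klQ_13_1 := by
  apply klDelta_eq_of_mul_eq
  rw [klUnitGeom_val, klPhi_geom_fst, klPhi_geom_snd, klQ_13_1_mk]
  simp only [Finset.sum_range_succ, Finset.sum_range_zero, Nat.cast_ofNat, Nat.cast_one, Nat.cast_zero]
  have hT := kl_T_pow_13
  have hp := kl_char_13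
  linear_combination (-2) * hT + (-1 - 1 * klT 13 - 1 * klT 13 ^ 2 - 1 * klT 13 ^ 3 - 2 * klT 13 ^ 4 - 1 * klT 13 ^ 5 - 1 * klT 13 ^ 6 - 2 * klT 13 ^ 7 - 2 * klT 13 ^ 8 - 2 * klT 13 ^ 9 - 1 * klT 13 ^ 10) * hp

lemma klDelta_13_2 {ζ : K} (hζ : IsPrimitiveRoot ζ 13) :
    klDelta 13 (by norm_num) hζ (klUnitGeom 13 hζ 3 (by norm_num)) = AdjoinRoot.mk ((X : (ZMod 13)[X]) ^ (13 - 2)) klQ_13_2 := by
  apply klDelta_eq_of_mul_eq
  rw [klUnitGeom_val, klPhi_geom_fst, klPhi_geom_snd, klQ_13_2_mk]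
  simp only [Finset.sum_range_succ, Finset.sum_range_zero, Nat.cast_ofNat, Nat.cast_one, Nat.cast_zero]
  have hT := kl_T_pow_13
  have hp := kl_char_13
  linear_combination (-19 - 3 * klT 13) * hT + (-1 * klT 13 - 1 * klT 13 ^ 2 - 1 * klT 13 ^ 3 - 3 * klT 13 ^ 4 - 3 * klT 13 ^ 5 - 4 * klT 13 ^ 6 - 5 * klT 13 ^ 7 - 3 * klT 13 ^ 8 - 3 * klT 13 ^ 9 - 3 * klT 13 ^ 10) * hp

lemma klDelta_13_3 {ζ : K} (hζ : IsPrimitiveRoot ζ 13) :
    klDelta 13 (by norm_num) hζ (klUnitGeom 13 hζ 4 (by norm_num)) = AdjoinRoot.mk ((X : (ZMod 13)[X]) ^ (13 - 2)) klQ_13_3 := by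
  apply klDelta_eq_of_mul_eq
  rw [klUnitGeom_val, klPhi_geom_fst, klPhi_geom_snd, klQ_13_3_mk]
  simp only [Finset.sum_range_succ, Finset.sum_range_zero, Nat.cast_ofNat, Nat.cast_one, Nat.cast_zero]
  have hT := kl_T_pow_13
  have hp := kl_char_13
  linear_combination (-64 - 25 * klT 13 - 4 * klT 13 ^ 2) * hT + (-2 - 4 * klT 13 - 7 * klT 13 ^ 2 - 10 * klT 13 ^ 3 - 9 * klT 13 ^ 4 - 5 * klT 13 ^ 5 - 5 * klT 13 ^ 6 - 7 * klT 13 ^ 7 - 7 * klT 13 ^ 8 - 7 * klT 13 ^ 9 - 7 * klT 13 ^ 10) * hp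

lemma klDelta_13_4 {ζ : K} (hζ : IsPrimitiveRoot ζ 13) :
    klDelta 13 (by norm_num) hζ (klUnitGeom 13 hζ 5 (by norm_num)) = AdjoinRoot.mk ((X : (ZMod 13)[X]) ^ (13 - 2)) klQ_13_4 := by
  apply klDelta_eq_of_mul_eq
  rw [klUnitGeom_val, klPhi_geom_fst, klPhi_geom_snd, klQ_13_4_mk]
  simp only [Finset.sum_range_succ, Finset.sum_range_zero, Nat.cast_ofNat, Nat.cast_one, Nat.cast_zero]
  have hT := kl_T_pow_13
  have hp := kl_char_13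
  linear_combination (-119 - 72 * klT 13 - 28 * klT 13 ^ 2 - 5 * klT 13 ^ 3) * hT + (-5 * klT 13 ^ 2 - 12 * klT 13 ^ 3 - 14 * klT 13 ^ 4 - 10 * klT 13 ^ 5 - 9 * klT 13 ^ 6 - 12 * klT 13 ^ 7 - 15 * klT 13 ^ 8 - 14 * klT 13 ^ 9 - 12 * klT 13 ^ 10) * hp

lemma klDelta_13_5 {ζ : K} (hζ : IsPrimitiveRoot ζ 13) :
    klDelta 13 (by norm_num) hζ (klUnitGeom 13 hζ 6 (by norm_num)) = AdjoinRoot.mk ((X : (ZMod 13)[X]) ^ (13 - 2)) klQ_13_5 := by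
  apply klDelta_eq_of_mul_eq
  rw [klUnitGeom_val, klPhi_geom_fst, klPhi_geom_snd, klQ_13_5_mk]
  simp only [Finset.sum_range_succ, Finset.sum_range_zero, Nat.cast_ofNat, Nat.cast_one, Nat.cast_zero]
  have hT := kl_T_pow_13
  have hp := kl_char_13
  linear_combination (-368 - 268 * klT 13 - 138 * klT 13 ^ 2 - 43 * klT 13 ^ 3 - 6 * klT 13 ^ 4) * hT + (-3 - 11 * klT 13 - 21 * klT 13 ^ 2 - 28 * klT 13 ^ 3 - 31 * klT 13 ^ 4 - 31 * klT 13 ^ 5 - 29 * klT 13 ^ 6 - 26 * klT 13 ^ 7 - 26 * klT 13 ^ 8 - 29 * klT 13 ^ 9 - 31 * klT 13 ^ 10) * hp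

lemma klDelta_13_family {ζ : K} (hζ : IsPrimitiveRoot ζ 13) :
    (fun a => klDelta 13 (by norm_num) hζ (klC_13 hζ a)) = fun a => (AdjoinRoot.mk ((X : (ZMod 13)[X]) ^ (13 - 2)) (klQ_13 a) : KLTrunc 13) := by
  funext a
  fin_cases a
  · exact klDelta_13_0 hζ
  · exact klDelta_13_1 hζ
  · exact klDelta_13_2 hζ
  · exact klDelta_13_3 hζ
  · exact klDelta_13_4 hζ
  · exact klDelta_13_5 hζ

lemma klQ_13_coeff (e : Fin 6 → ZMod 13)
    (h : ∀ j < 13 - 2, ∑ a, e a * (klQ_13 a).coeff j = 0) : ∀ a, e a = 0 := by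
  have hp : (13 : ZMod 13) = 0 := by decide
  have h0 := h 0 (by norm_num)
  have h1 := h 1 (by norm_num)
  have h2 := h 3 (by norm_num)
  have h3 := h 5 (by norm_num)
  have h4 := h 7 (by norm_num)
  have h5 := h 9 (by norm_num)
  simp [Fin.sum_univ_succ, Fin.sum_univ_zero, klQ_13, klQ_13_0, klQ_13_1, klQ_13_2, klQ_13_3, klQ_13_4, klQ_13_5, Matrix.cons_val_zero, Matrix.cons_val_succ, coeff_add, coeff_C_mul_X_pow, coeff_C_mul, coeff_C, coeff_X_pow, coeff_X, coeff_one, coeff_C_mul_X] at h0 h1 h2 h3 h4 h5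
  intro a
  fin_cases a
  · show e 0 = 0
    linear_combination 1 * h0 + 3 * h1 + 3 * h2 + 9 * h3 + 7 * h4 + 4 * h5 + ((-24) * e 0 + (-11) * e 1 + (-11) * e 2 + (-10) * e 3 + (-6) * e 4 + (-11) * e 5) * hp
  · show e 1 = 0
    linear_combination 10 * h0 + 2 * h1 + 10 * h2 + 7 * h3 + 11 * h4 + 6 * h5 + ((-34) * e 0 + (-22) * e 1 + (-17) * e 2 + (-24) * e 3 + (-12) * e 4 + (-24) * e 5) * hp
  · show e 2 = 0
    linear_combination 12 * h0 + 12 * h1 + 2 * h2 + 4 * h3 + 0 * h4 + 7 * h5 + ((-24) * e 0 + (-15) * e 1 + (-11) * e 2 + (-17) * e 3 + (-5) * e 4 + (-21) * e 5) * hp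
  · show e 3 = 0
    linear_combination 7 * h0 + 11 * h1 + 9 * h2 + 9 * h3 + 6 * h4 + 11 * h5 + ((-43) * e 0 + (-22) * e 1 + (-20) * e 2 + (-25) * e 3 + (-11) * e 4 + (-27) * e 5) * hp
  · show e 4 = 0
    linear_combination 4 * h0 + 2 * h1 + 2 * h2 + 7 * h3 + 1 * h4 + 5 * h5 + ((-16) * e 0 + (-8) * e 1 + (-7) * e 2 + (-9) * e 3 + (-4) * e 4 + (-9) * e 5) * hp
  · show e 5 = 0
    linear_combination 4 * h0 + 1 * h1 + 2 * h2 + 11 * h3 + 1 * h4 + 2 * h5 + ((-16) * e 0 + (-6) * e 1 + (-5) * e 2 + (-7) * e 3 + (-4) * e 4 + (-7) * e 5) * hp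

lemma klDelta_13_linearIndependent {ζ : K} (hζ : IsPrimitiveRoot ζ 13) :
    LinearIndependent (ZMod 13) (fun a => klDelta 13 (by norm_num) hζ (klC_13 hζ a)) := by
  rw [klDelta_13_family]
  exact kl_linearIndependent_mk 13 klQ_13 klQ_13_coeff

/-- Local half of Kummer's lemma for `p = 13`. -/
theorem cyclo_units_indep_thirteen {K : Type*} [Field K] [NumberField K]
    [IsCyclotomicExtension {13} ℚ K] : ∃ c : Fin 6 → (𝓞 K)ˣ,
    ∀ (e : Fin 6 → ℕ) (n : ℤ),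
      ((13 : ℕ) : 𝓞 K) ∣ ((∏ a, c a ^ e a : (𝓞 K)ˣ) : 𝓞 K) - (n : 𝓞 K) → ∀ a, 13 ∣ e a := by
  have hζ := IsCyclotomicExtension.zeta_spec 13 ℚ K
  exact ⟨klC_13 hζ, fun e n h =>
    kl_indep_of_linearIndependent 13 (by norm_num) hζ (klC_13 hζ)
      (klDelta_13_linearIndependent hζ) e n h⟩

end

end Fermat.Agent.Kummer



end ZBZ2Kummer_005_3

/-! ### bundled: `Fermat.Agent.Kummer.KLIndep11` -/
section ZBZ2Kummer_005_4
/-
Kummer's lemma, local half for p = 11: explicit certificate (generated by script; helper11).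
-/

set_option autoImplicit false
set_option linter.unusedSimpArgs false
set_option linter.unusedVariables false

namespace Fermat.Agent.Kummer

open Polynomial NumberField

noncomputable section

lemma kl_fact_prime_11 : Fact (Nat.Prime 11) := ⟨by norm_num⟩

lemma kl_T_pow_11 : klT 11 ^ 9 = 0 := klT_pow 11

lemma kl_char_11 : (11 : KLTrunc 11) = 0 := by
  have h : ((11 : ZMod 11) : ZMod 11) = 0 := by decide
  have := congrArg (algebraMap (ZMod 11) (KLTrunc 11)) h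
  rwa [map_ofNat, map_zero] at this

/-- logarithmic derivative of the `0`-th unit, as a polynomial -/
def klQ_11_0 : (ZMod 11)[X] := C 1 * X ^ 0 + C 10 * X ^ 1 + C 1 * X ^ 2 + C 10 * X ^ 3 + C 1 * X ^ 4 + C 10 * X ^ 5 + C 1 * X ^ 6 + C 10 * X ^ 7 + C 1 * X ^ 8

/-- logarithmic derivative of the `1`-th unit, as a polynomial -/
def klQ_11_1 : (ZMod 11)[X] := C 6 * X ^ 0 + C 8 * X ^ 1 + C 7 * X ^ 2 + C 2 * X ^ 3 + C 10 * X ^ 4 + C 6 * X ^ 5 + C 8 * X ^ 6 + C 7 * X ^ 7 + C 2 * X ^ 8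

/-- logarithmic derivative of the `2`-th unit, as a polynomial -/
def klQ_11_2 : (ZMod 11)[X] := C 1 * X ^ 0 + C 7 * X ^ 1 + C 0 * X ^ 2 + C 5 * X ^ 3 + C 6 * X ^ 4 + C 7 * X ^ 5 + C 2 * X ^ 6 + C 3 * X ^ 7 + C 0 * X ^ 8

/-- logarithmic derivative of the `3`-th unit, as a polynomial -/
def klQ_11_3 : (ZMod 11)[X] := C 7 * X ^ 0 + C 8 * X ^ 1 + C 1 * X ^ 2 + C 8 * X ^ 3 + C 7 * X ^ 4 + C 6 * X ^ 5 + C 4 * X ^ 6 + C 0 * X ^ 7 + C 0 * X ^ 8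

/-- logarithmic derivative of the `4`-th unit, as a polynomial -/
def klQ_11_4 : (ZMod 11)[X] := C 2 * X ^ 0 + C 0 * X ^ 1 + C 10 * X ^ 2 + C 3 * X ^ 3 + C 0 * X ^ 4 + C 6 * X ^ 5 + C 5 * X ^ 6 + C 6 * X ^ 7 + C 5 * X ^ 8

/-- the family of polynomials -/
def klQ_11 : Fin 5 → (ZMod 11)[X] := ![klQ_11_0, klQ_11_1, klQ_11_2, klQ_11_3, klQ_11_4]

lemma klQ_11_0_mk : (AdjoinRoot.mk ((X : (ZMod 11)[X]) ^ (11 - 2)) klQ_11_0 : KLTrunc 11) = 1 + 10 * klT 11 + 1 * klT 11 ^ 2 + 10 * klT 11 ^ 3 + 1 * klT 11 ^ 4 + 10 * klT 11 ^ 5 + 1 * klT 11 ^ 6 + 10 * klT 11 ^ 7 + 1 * klT 11 ^ 8 := by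
  simp only [klQ_11_0, map_add, map_mul, map_pow, AdjoinRoot.mk_X, AdjoinRoot.mk_C, map_ofNat, map_one, map_zero, pow_zero, pow_one, mul_one, zero_mul, add_zero, zero_add, one_mul]
  rfl

lemma klQ_11_1_mk : (AdjoinRoot.mk ((X : (ZMod 11)[X]) ^ (11 - 2)) klQ_11_1 : KLTrunc 11) = 6 + 8 * klT 11 + 7 * klT 11 ^ 2 + 2 * klT 11 ^ 3 + 10 * klT 11 ^ 4 + 6 * klT 11 ^ 5 + 8 * klT 11 ^ 6 + 7 * klT 11 ^ 7 + 2 * klT 11 ^ 8 := by
  simp only [klQ_11_1, map_add, map_mul, map_pow, AdjoinRoot.mk_X, AdjoinRoot.mk_C, map_ofNat, map_one, map_zero, pow_zero, pow_one, mul_one, zero_mul, add_zero, zero_add, one_mul]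
  rfl

lemma klQ_11_2_mk : (AdjoinRoot.mk ((X : (ZMod 11)[X]) ^ (11 - 2)) klQ_11_2 : KLTrunc 11) = 1 + 7 * klT 11 + 5 * klT 11 ^ 3 + 6 * klT 11 ^ 4 + 7 * klT 11 ^ 5 + 2 * klT 11 ^ 6 + 3 * klT 11 ^ 7 := by
  simp only [klQ_11_2, map_add, map_mul, map_pow, AdjoinRoot.mk_X, AdjoinRoot.mk_C, map_ofNat, map_one, map_zero, pow_zero, pow_one, mul_one, zero_mul, add_zero, zero_add, one_mul]
  rfl

lemma klQ_11_3_mk : (AdjoinRoot.mk ((X : (ZMod 11)[X]) ^ (11 - 2)) klQ_11_3 : KLTrunc 11) = 7 + 8 * klT 11 + 1 * klT 11 ^ 2 + 8 * klT 11 ^ 3 + 7 * klT 11 ^ 4 + 6 * klT 11 ^ 5 + 4 * klT 11 ^ 6 := by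
  simp only [klQ_11_3, map_add, map_mul, map_pow, AdjoinRoot.mk_X, AdjoinRoot.mk_C, map_ofNat, map_one, map_zero, pow_zero, pow_one, mul_one, zero_mul, add_zero, zero_add, one_mul]
  rfl

lemma klQ_11_4_mk : (AdjoinRoot.mk ((X : (ZMod 11)[X]) ^ (11 - 2)) klQ_11_4 : KLTrunc 11) = 2 + 10 * klT 11 ^ 2 + 3 * klT 11 ^ 3 + 6 * klT 11 ^ 5 + 5 * klT 11 ^ 6 + 6 * klT 11 ^ 7 + 5 * klT 11 ^ 8 := by
  simp only [klQ_11_4, map_add, map_mul, map_pow, AdjoinRoot.mk_X, AdjoinRoot.mk_C, map_ofNat, map_one, map_zero, pow_zero, pow_one, mul_one, zero_mul, add_zero, zero_add, one_mul]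
  rfl

variable {K : Type*} [Field K] [NumberField K] [IsCyclotomicExtension {11} ℚ K]

attribute [local instance] kl_fact_prime_11

/-- the cyclotomic units -/
def klC_11 {ζ : K} (hζ : IsPrimitiveRoot ζ 11) : Fin 5 → (𝓞 K)ˣ := ![klUnitZeta 11 hζ, klUnitGeom 11 hζ 2 (by norm_num), klUnitGeom 11 hζ 3 (by norm_num), klUnitGeom 11 hζ 4 (by norm_num), klUnitGeom 11 hζ 5 (by norm_num)]

lemma klDelta_11_0 {ζ : K} (hζ : IsPrimitiveRoot ζ 11) :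
    klDelta 11 (by norm_num) hζ (klUnitZeta 11 hζ) = AdjoinRoot.mk ((X : (ZMod 11)[X]) ^ (11 - 2)) klQ_11_0 := by
  apply klDelta_eq_of_mul_eq
  rw [klUnitZeta_val, klPhi_zeta_fst, klPhi_zeta_snd, klQ_11_0_mk]
  have hT := kl_T_pow_11
  have hp := kl_char_11
  linear_combination (-1) * hT + (-1 * klT 11 - 1 * klT 11 ^ 2 - 1 * klT 11 ^ 3 - 1 * klT 11 ^ 4 - 1 * klT 11 ^ 5 - 1 * klT 11 ^ 6 - 1 * klT 11 ^ 7 - 1 * klT 11 ^ 8) * hp

lemma klDelta_11_1 {ζ : K} (hζ : IsPrimitiveRoot ζ 11) :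
    klDelta 11 (by norm_num) hζ (klUnitGeom 11 hζ 2 (by norm_num)) = AdjoinRoot.mk ((X : (ZMod 11)[X]) ^ (11 - 2)) klQ_11_1 := by
  apply klDelta_eq_of_mul_eq
  rw [klUnitGeom_val, klPhi_geom_fst, klPhi_geom_snd, klQ_11_1_mk]
  simp only [Finset.sum_range_succ, Finset.sum_range_zero, Nat.cast_ofNat, Nat.cast_one, Nat.cast_zero]
  have hT := kl_T_pow_11
  have hp := kl_char_11
  linear_combination (-2) * hT + (-1 - 2 * klT 11 - 2 * klT 11 ^ 2 - 1 * klT 11 ^ 3 - 2 * klT 11 ^ 4 - 2 * klT 11 ^ 5 - 2 * klT 11 ^ 6 - 2 * klT 11 ^ 7 - 1 * klT 11 ^ 8) * hp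

lemma klDelta_11_2 {ζ : K} (hζ : IsPrimitiveRoot ζ 11) :
    klDelta 11 (by norm_num) hζ (klUnitGeom 11 hζ 3 (by norm_num)) = AdjoinRoot.mk ((X : (ZMod 11)[X]) ^ (11 - 2)) klQ_11_2 := by
  apply klDelta_eq_of_mul_eq
  rw [klUnitGeom_val, klPhi_geom_fst, klPhi_geom_snd, klQ_11_2_mk]
  simp only [Finset.sum_range_succ, Finset.sum_range_zero, Nat.cast_ofNat, Nat.cast_one, Nat.cast_zero]
  have hT := kl_T_pow_11
  have hp := kl_char_11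
  linear_combination (-3) * hT + (-2 * klT 11 - 2 * klT 11 ^ 2 - 2 * klT 11 ^ 3 - 3 * klT 11 ^ 4 - 4 * klT 11 ^ 5 - 3 * klT 11 ^ 6 - 2 * klT 11 ^ 7 - 1 * klT 11 ^ 8) * hp

lemma klDelta_11_3 {ζ : K} (hζ : IsPrimitiveRoot ζ 11) :
    klDelta 11 (by norm_num) hζ (klUnitGeom 11 hζ 4 (by norm_num)) = AdjoinRoot.mk ((X : (ZMod 11)[X]) ^ (11 - 2)) klQ_11_3 := by
  apply klDelta_eq_of_mul_eq
  rw [klUnitGeom_val, klPhi_geom_fst, klPhi_geom_snd, klQ_11_3_mk]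
  simp only [Finset.sum_range_succ, Finset.sum_range_zero, Nat.cast_ofNat, Nat.cast_one, Nat.cast_zero]
  have hT := kl_T_pow_11
  have hp := kl_char_11
  linear_combination (-4) * hT + (-2 - 6 * klT 11 - 7 * klT 11 ^ 2 - 7 * klT 11 ^ 3 - 8 * klT 11 ^ 4 - 9 * klT 11 ^ 5 - 8 * klT 11 ^ 6 - 5 * klT 11 ^ 7 - 2 * klT 11 ^ 8) * hp

lemma klDelta_11_4 {ζ : K} (hζ : IsPrimitiveRoot ζ 11) :
    klDelta 11 (by norm_num) hζ (klUnitGeom 11 hζ 5 (by norm_num)) = AdjoinRoot.mk ((X : (ZMod 11)[X]) ^ (11 - 2)) klQ_11_4 := by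
  apply klDelta_eq_of_mul_eq
  rw [klUnitGeom_val, klPhi_geom_fst, klPhi_geom_snd, klQ_11_4_mk]
  simp only [Finset.sum_range_succ, Finset.sum_range_zero, Nat.cast_ofNat, Nat.cast_one, Nat.cast_zero]
  have hT := kl_T_pow_11
  have hp := kl_char_11
  linear_combination (-141 - 85 * klT 11 - 31 * klT 11 ^ 2 - 5 * klT 11 ^ 3) * hT + (-5 * klT 11 ^ 2 - 11 * klT 11 ^ 3 - 12 * klT 11 ^ 4 - 10 * klT 11 ^ 5 - 10 * klT 11 ^ 6 - 13 * klT 11 ^ 7 - 15 * klT 11 ^ 8) * hp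

lemma klDelta_11_family {ζ : K} (hζ : IsPrimitiveRoot ζ 11) :
    (fun a => klDelta 11 (by norm_num) hζ (klC_11 hζ a)) = fun a => (AdjoinRoot.mk ((X : (ZMod 11)[X]) ^ (11 - 2)) (klQ_11 a) : KLTrunc 11) := by
  funext a
  fin_cases a
  · exact klDelta_11_0 hζ
  · exact klDelta_11_1 hζ
  · exact klDelta_11_2 hζ
  · exact klDelta_11_3 hζ
  · exact klDelta_11_4 hζ

lemma klQ_11_coeff (e : Fin 5 → ZMod 11)
    (h : ∀ j < 11 - 2, ∑ a, e a * (klQ_11 a).coeff j = 0) : ∀ a, e a = 0 := by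
  have hp : (11 : ZMod 11) = 0 := by decide
  have h0 := h 0 (by norm_num)
  have h1 := h 1 (by norm_num)
  have h2 := h 3 (by norm_num)
  have h3 := h 5 (by norm_num)
  have h4 := h 7 (by norm_num)
  simp [Fin.sum_univ_succ, Fin.sum_univ_zero, klQ_11, klQ_11_0, klQ_11_1, klQ_11_2, klQ_11_3, klQ_11_4, Matrix.cons_val_zero, Matrix.cons_val_succ, coeff_add, coeff_C_mul_X_pow, coeff_C_mul, coeff_C, coeff_X_pow, coeff_X, coeff_one, coeff_C_mul_X] at h0 h1 h2 h3 h4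
  intro a
  fin_cases a
  · show e 0 = 0
    linear_combination 9 * h0 + 1 * h1 + 9 * h2 + 0 * h3 + 9 * h4 + ((-18) * e 0 + (-13) * e 1 + (-8) * e 2 + (-13) * e 3 + (-9) * e 4) * hp
  · show e 1 = 0
    linear_combination 6 * h0 + 8 * h1 + 0 * h2 + 8 * h3 + 1 * h4 + ((-16) * e 0 + (-14) * e 1 + (-11) * e 2 + (-14) * e 3 + (-6) * e 4) * hp
  · show e 2 = 0
    linear_combination 7 * h0 + 7 * h1 + 1 * h2 + 5 * h3 + 5 * h4 + ((-17) * e 0 + (-15) * e 1 + (-10) * e 2 + (-13) * e 3 + (-7) * e 4) * hp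
  · show e 3 = 0
    linear_combination 0 * h0 + 4 * h1 + 3 * h2 + 0 * h3 + 4 * h4 + ((-10) * e 0 + (-6) * e 1 + (-5) * e 2 + (-5) * e 3 + (-3) * e 4) * hp
  · show e 4 = 0
    linear_combination 2 * h0 + 2 * h1 + 1 * h2 + 1 * h3 + 9 * h4 + ((-12) * e 0 + (-9) * e 1 + (-5) * e 2 + (-4) * e 3 + (-6) * e 4) * hp

lemma klDelta_11_linearIndependent {ζ : K} (hζ : IsPrimitiveRoot ζ 11) :
    LinearIndependent (ZMod 11) (fun a => klDelta 11 (by norm_num) hζ (klC_11 hζ a)) := by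
  rw [klDelta_11_family]
  exact kl_linearIndependent_mk 11 klQ_11 klQ_11_coeff

/-- Local half of Kummer's lemma for `p = 11`. -/
theorem cyclo_units_indep_eleven {K : Type*} [Field K] [NumberField K]
    [IsCyclotomicExtension {11} ℚ K] : ∃ c : Fin 5 → (𝓞 K)ˣ,
    ∀ (e : Fin 5 → ℕ) (n : ℤ),
      ((11 : ℕ) : 𝓞 K) ∣ ((∏ a, c a ^ e a : (𝓞 K)ˣ) : 𝓞 K) - (n : 𝓞 K) → ∀ a, 11 ∣ e a := by
  have hζ := IsCyclotomicExtension.zeta_spec 11 ℚ K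
  exact ⟨klC_11 hζ, fun e n h =>
    kl_indep_of_linearIndependent 11 (by norm_num) hζ (klC_11 hζ)
      (klDelta_11_linearIndependent hζ) e n h⟩

end

end Fermat.Agent.Kummer



end ZBZ2Kummer_005_4
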