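/- GENERATED FILE (helper35, build-time optimisation, NOTES/ZB.md): verbatim concatenation of the modules
   Fermat.Agent.Kummer.PID7
   Do not edit; do not import together with these modules. -/
import Mathlib

/-! ### bundled: `Fermat.Agent.Kummer.PID7` -/
section ZBZ2Kummer_006_0

set_option autoImplicit false

namespace Fermat.Agent.Kummer

open NumberField Polynomial InfinitePlace Nat Real Ideal Module

universe u

variable (K : Type u) [Field K] [NumberField K]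

/-- In the `p`-th cyclotomic field, for a prime `q ≠ p` and a prime ideal `P` above `q`,
`q ^ f(P|q) ≡ 1 mod p`. -/
theorem pow_inertiaDeg_modEq_one (p : ℕ) [Fact p.Prime] [IsCyclotomicExtension {p} ℚ K]
    (q : ℕ) [Fact q.Prime] (hqp : q ≠ p) (P : Ideal (𝓞 K)) [P.IsPrime]
    [P.LiesOver (span {(q : ℤ)})] : q ^ P.inertiaDeg ℤ ≡ 1 [MOD p] := by
  have hndvd : ¬ q ∣ p := fun h =>
    hqp ((Nat.prime_dvd_prime_iff_eq (Fact.out : q.Prime) (Fact.out : p.Prime)).mp h)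
  have hp0 : NeZero p := ⟨(Fact.out : p.Prime).ne_zero⟩
  rw [IsCyclotomicExtension.Rat.inertiaDeg_eq_of_not_dvd q K P hndvd]
  rw [← ZMod.natCast_eq_natCast_iff]
  push_cast
  exact pow_orderOf_eq_one _

/-- In the `p`-th cyclotomic field, for a prime `q ≠ p` and a prime ideal `P` above `q`,
`p < q ^ f(P|q)`. -/
theorem lt_pow_inertiaDeg (p : ℕ) [Fact p.Prime] [IsCyclotomicExtension {p} ℚ K]
    (q : ℕ) [Fact q.Prime] (hqp : q ≠ p) (P : Ideal (𝓞 K)) [P.IsPrime]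
    [P.LiesOver (span {(q : ℤ)})] : p < q ^ P.inertiaDeg ℤ := by
  have h := pow_inertiaDeg_modEq_one K p q hqp P
  have hf : 0 < P.inertiaDeg ℤ := by
    have hndvd : ¬ q ∣ p := fun h =>
      hqp ((Nat.prime_dvd_prime_iff_eq (Fact.out : q.Prime) (Fact.out : p.Prime)).mp h)
    have hp0 : NeZero p := ⟨(Fact.out : p.Prime).ne_zero⟩
    rw [IsCyclotomicExtension.Rat.inertiaDeg_eq_of_not_dvd q K P hndvd]
    have hcop : q.Coprime p := (Fact.out : q.Prime).coprime_iff_not_dvd.mpr hndvd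
    have : (q : ZMod p) = ((ZMod.unitOfCoprime q hcop : (ZMod p)ˣ) : ZMod p) := rfl
    rw [this, orderOf_units]
    exact orderOf_pos _
  have h1 : 1 < q ^ P.inertiaDeg ℤ := Nat.one_lt_pow hf.ne' (Fact.out : q.Prime).one_lt
  have h2 : p ∣ q ^ P.inertiaDeg ℤ - 1 := (Nat.modEq_iff_dvd' h1.le).mp h.symm
  have h3 := Nat.le_of_dvd (by omega) h2
  omega

/-- The Minkowski bound of `ℚ(ζ₇)` is `< 5`. -/
theorem minkowski_bound_seven_lt [IsCyclotomicExtension {7} ℚ K] :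
    (4 / π) ^ nrComplexPlaces K *
      ((finrank ℚ K)! / (finrank ℚ K) ^ (finrank ℚ K) * √|discr K|) < 5 := by
  have : Fact (Nat.Prime 7) := ⟨by norm_num⟩
  rw [IsCyclotomicExtension.Rat.discr_prime 7 K, IsCyclotomicExtension.finrank (n := 7) K
    (cyclotomic.irreducible_rat (by simp)), IsCyclotomicExtension.Rat.nrComplexPlaces_eq_totient_div_two 7,
    totient_prime (by norm_num : Nat.Prime 7)]
  have hd : √|(((-1 : ℤ) ^ ((7 - 1) / 2) * ((7 : ℕ) : ℤ) ^ (7 - 2) : ℤ) : ℝ)| < 130 := by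
    rw [Real.sqrt_lt' (by norm_num)]
    norm_num
  have hpi : (4 / π) ^ ((7 - 1) / 2) < (4 / 3) ^ 3 := by
    have h3 : (7 - 1) / 2 = 3 := by norm_num
    rw [h3]
    have : (4 : ℝ) / π < 4 / 3 := by
      gcongr
      exact pi_gt_three
    gcongr
  have hfac : (((7 - 1)! : ℕ) : ℝ) / (((7 - 1 : ℕ)) : ℝ) ^ (7 - 1) = 720 / 46656 := by
    norm_num [Nat.factorial]
  rw [hfac]
  calc (4 / π) ^ ((7 - 1) / 2) * (720 / 46656 * √|(((-1 : ℤ) ^ ((7 - 1) / 2) * ((7 : ℕ) : ℤ) ^ (7 - 2) : ℤ) : ℝ)|)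
      < (4 / 3) ^ 3 * (720 / 46656 * 130) := by
        gcongr
    _ < 5 := by norm_num

/-- If `IsCyclotomicExtension {7} ℚ K` then `𝓞 K` is a principal ideal domain. -/
theorem seven_pid [IsCyclotomicExtension {7} ℚ K] : IsPrincipalIdealRing (𝓞 K) := by
  have : Fact (Nat.Prime 7) := ⟨by norm_num⟩
  have : IsGalois ℚ K := IsCyclotomicExtension.isGalois {7} ℚ K
  have hB : ⌊(4 / π) ^ nrComplexPlaces K *
      ((finrank ℚ K)! / (finrank ℚ K) ^ (finrank ℚ K) * √|discr K|)⌋₊ < 5 := by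
    rw [Nat.floor_lt (by positivity)]
    exact_mod_cast minkowski_bound_seven_lt K
  apply RingOfIntegers.isPrincipalIdealRing_of_isPrincipal_of_lt_or_isPrincipal_of_mem_primesOver_of_mem_Icc
  intro q hq hqp
  rw [Finset.mem_Icc] at hq
  have : Fact q.Prime := ⟨hqp⟩
  have hq7 : q ≠ 7 := by omega
  have : (span {(q : ℤ)}).IsPrime :=
    (Ideal.span_singleton_prime (by exact_mod_cast hqp.ne_zero)).mpr
      (Nat.prime_iff_prime_int.mp hqp)
  obtain ⟨⟨P, hP⟩⟩ := Ideal.nonempty_primesOver (S := 𝓞 K) (span {(q : ℤ)})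
  refine ⟨P, hP, Or.inl ?_⟩
  have := hP.1
  have := hP.2
  have := lt_pow_inertiaDeg K 7 q hq7 P
  omega

end Fermat.Agent.Kummer


end ZBZ2Kummer_006_0
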