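/- GENERATED FILE (helper35, build-time optimisation, NOTES/ZB.md): verbatim concatenation of the modules
   Fermat.Agent.S19
   Do not edit; do not import together with these modules. -/
import Fermat.Statements.S19
import Fermat.Agent.ZB.Z2W1_001
import Fermat.Agent.ZB.Z2W1_003
import Fermat.Agent.ZB.DEU_005
import Fermat.Agent.ZB.ES_027

/-! ### bundled: `Fermat.Agent.S19` -/
section ZBW1_013_0

set_option autoImplicit false
open ModularCurve
open ModularCurve

namespace Fermat.Agent.S19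

theorem result
    (p : ℕ) [NeZero p] (ℓ : ℕ) [Fact ℓ.Prime] (hℓp : ¬ ℓ ∣ p) (k : ℕ) :
    ∃ (H : Type) (_ : CommRing H) (_ : HopfAlgebra (GaloisRep.ratLocalizedAt ℓ) H),
      Module.Finite (GaloisRep.ratLocalizedAt ℓ) H ∧ Module.Flat (GaloisRep.ratLocalizedAt ℓ) H ∧
      Coalgebra.IsCocomm (GaloisRep.ratLocalizedAt ℓ) H ∧
      ∃ e : WithConv (H →ₐ[GaloisRep.ratLocalizedAt ℓ] AlgebraicClosure ℚ) ≃
          ↥(Submodule.torsionBy ℤ (JZero p) ((ℓ : ℤ) ^ k)),
        (∀ f g, e (f * g) = e f + e g) ∧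
        ∀ (σ : AlgebraicClosure ℚ ≃ₐ[ℚ] AlgebraicClosure ℚ)
          (f g : WithConv (H →ₐ[GaloisRep.ratLocalizedAt ℓ] AlgebraicClosure ℚ)),
          (∀ h : H, g h = σ (f h)) → ((e g : JZero p)) = σ • (e f : JZero p) :=
  Fermat.Agent.W1.s19f_frozen
    (Fermat.Agent.DEU.hasModPR_s19 Fermat.Agent.ES.I2aux.stmtI2AuxAll)
    Fermat.Agent.W1.stmtLevelUpS19 p ℓ hℓp k

end Fermat.Agent.S19


end ZBW1_013_0
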