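/- GENERATED FILE (helper35, build-time optimisation, NOTES/ZB.md): verbatim concatenation of the modules
   Fermat.Agent.S32.Algebra
   Fermat.Agent.S32.Setup
   Fermat.Agent.S32.Plan
   Fermat.Agent.RT.K8.Comm
   Fermat.Agent.RT.K8.KTors
   Do not edit; do not import together with these modules. -/
import Mathlib
import Fermat.Agent.ZB.S53_001
import Fermat.Agent.ZB.W1_003
import Fermat.Agent.ZB.W1_001
import Fermat.Agent.ZB.ES_009
import Fermat.Agent.ZB.S30_001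

/-! ### bundled: `Fermat.Agent.S32.Algebra` -/
section ZBS32_001_0

/-!
# S32 glue, algebra part 1: the quadratic relation and annihilators

`G` a group acting on a ring `E` through `a : G →* E`; `χ : G → E` central and multiplicative;
`t g := a g + χ g * a g⁻¹` ("the trace of `g`") is assumed to commute with all `a h`.
If `b = Σ c_g g` acts as zero, `Σ c_g a g = 0`, then `D := Σ c_g t g` satisfies

* `s32_D_eq`      : `D = Σ c_g χ g a g⁻¹`,
* `s32_D_mul_comm` : `D * a g * a h = D * a h * a g`,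
* `s32_D_mul_t_sub` : `D * (t (g h g') - t (h g g')) = 0`.
-/

set_option autoImplicit false

namespace Fermat.Agent.S32

variable {E : Type*} [Ring E] {G : Type*} [Group G]

section

variable (a : G →* E) (χ : G → E) (t : G → E)

/-- the hypotheses on `(a, χ, t)` -/
structure QuadRel : Prop where
  chi_one : χ 1 = 1
  chi_mul : ∀ g h, χ (g * h) = χ g * χ h
  chi_comm : ∀ g (e : E), χ g * e = e * χ g
  t_eq : ∀ g, t g = a g + χ g * a g⁻¹
  t_comm : ∀ g h, t g * a h = a h * t g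

variable {a χ t}

theorem QuadRel.a_inv_mul (_h : QuadRel a χ t) (g : G) : a g⁻¹ * a g = 1 := by
  rw [← map_mul, inv_mul_cancel, map_one]

theorem QuadRel.a_mul_inv (_h : QuadRel a χ t) (g : G) : a g * a g⁻¹ = 1 := by
  rw [← map_mul, mul_inv_cancel, map_one]

theorem QuadRel.chi_inv_mul (h : QuadRel a χ t) (g : G) : χ g⁻¹ * χ g = 1 := by
  rw [← h.chi_mul, inv_mul_cancel, h.chi_one]

theorem QuadRel.chi_mul_inv (h : QuadRel a χ t) (g : G) : χ g * χ g⁻¹ = 1 := by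
  rw [← h.chi_mul, mul_inv_cancel, h.chi_one]

/-- `D = Σ c_g t g` -/
def dSum (t : G → E) (c : G →₀ ℤ) : E := c.sum fun g z => z • t g

theorem dSum_comm (h : QuadRel a χ t) (c : G →₀ ℤ) (g : G) :
    dSum t c * a g = a g * dSum t c := by
  unfold dSum Finsupp.sum
  rw [Finset.sum_mul, Finset.mul_sum]
  refine Finset.sum_congr rfl fun x _ => ?_
  rw [smul_mul_assoc, mul_smul_comm, h.t_comm]

/-- if `Σ c_g a g = 0` then `D = Σ c_g χ g a g⁻¹` -/
theorem s32_D_eq (h : QuadRel a χ t) (c : G →₀ ℤ) (hb : (c.sum fun g z => z • a g) = 0) :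
    dSum t c = c.sum fun g z => z • (χ g * a g⁻¹) := by
  have h1 : dSum t c = (c.sum fun g z => z • a g) + c.sum fun g z => z • (χ g * a g⁻¹) := by
    unfold dSum Finsupp.sum
    rw [← Finset.sum_add_distrib]
    refine Finset.sum_congr rfl fun x _ => ?_
    dsimp only
    rw [h.t_eq, smul_add]
  rw [h1, hb, zero_add]

/-- the shifted sum: `Σ c_x t (g⁻¹ x) = χ g⁻¹ * D * a g` when `Σ c_x a x = 0` -/
theorem s32_shift (h : QuadRel a χ t) (c : G →₀ ℤ) (hb : (c.sum fun g z => z • a g) = 0) (g : G) :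
    (c.sum fun x z => z • t (g⁻¹ * x)) = χ g⁻¹ * dSum t c * a g := by
  have h1 : (c.sum fun x z => z • t (g⁻¹ * x)) =
      a g⁻¹ * (c.sum fun x z => z • a x) +
        χ g⁻¹ * (c.sum fun x z => z • (χ x * a x⁻¹)) * a g := by
    unfold Finsupp.sum
    rw [Finset.mul_sum, Finset.mul_sum, Finset.sum_mul, ← Finset.sum_add_distrib]
    refine Finset.sum_congr rfl fun x _ => ?_
    dsimp only
    rw [h.t_eq, smul_add, mul_smul_comm, mul_smul_comm, smul_mul_assoc, map_mul, h.chi_mul,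
      mul_inv_rev, inv_inv, map_mul]
    congr 1
    rw [mul_assoc, mul_assoc, mul_assoc]
  rw [h1, hb, mul_zero, zero_add, ← s32_D_eq h c hb]

/-- `D * a g` commutes with every `a h` -/
theorem s32_D_mul_central (h : QuadRel a χ t) (c : G →₀ ℤ)
    (hb : (c.sum fun g z => z • a g) = 0) (g g' : G) :
    dSum t c * a g * a g' = a g' * (dSum t c * a g) := by
  -- the shifted sum is a sum of `t`'s, hence commutes with `a g'`
  have h1 : (c.sum fun x z => z • t (g⁻¹ * x)) * a g' =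
      a g' * (c.sum fun x z => z • t (g⁻¹ * x)) := by
    unfold Finsupp.sum
    rw [Finset.sum_mul, Finset.mul_sum]
    refine Finset.sum_congr rfl fun x _ => ?_
    rw [smul_mul_assoc, mul_smul_comm, h.t_comm]
  rw [s32_shift h c hb g] at h1
  have h2 : χ g * (χ g⁻¹ * dSum t c * a g * a g') = χ g * (a g' * (χ g⁻¹ * dSum t c * a g)) := by
    rw [h1]
  have e1 : χ g * (χ g⁻¹ * dSum t c * a g * a g') = dSum t c * a g * a g' := by
    rw [← mul_assoc, ← mul_assoc, ← mul_assoc, h.chi_mul_inv, one_mul]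
  have e2 : χ g * (a g' * (χ g⁻¹ * dSum t c * a g)) = a g' * (dSum t c * a g) := by
    rw [h.chi_comm g, mul_assoc (a g'), ← h.chi_comm g, ← mul_assoc (χ g), ← mul_assoc (χ g),
      h.chi_mul_inv, one_mul]
  rw [e1, e2] at h2
  exact h2

/-- `D` kills the commutators -/
theorem s32_D_mul_comm (h : QuadRel a χ t) (c : G →₀ ℤ)
    (hb : (c.sum fun g z => z • a g) = 0) (g g' : G) :
    dSum t c * a g * a g' = dSum t c * a g' * a g := by
  rw [s32_D_mul_central h c hb g g', ← mul_assoc, ← dSum_comm h c g']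

/-- **the annihilator lemma**: `D * (t (g h g') - t (h g g')) = 0` -/
theorem s32_D_mul_t_sub (h : QuadRel a χ t) (c : G →₀ ℤ)
    (hb : (c.sum fun g z => z • a g) = 0) (g₁ g₂ g₃ : G) :
    dSum t c * (t (g₁ * g₂ * g₃) - t (g₂ * g₁ * g₃)) = 0 := by
  set D := dSum t c with hD
  have hc := s32_D_mul_comm h c hb
  have hDc := dSum_comm h c
  have hχ : χ (g₁ * g₂ * g₃) = χ (g₂ * g₁ * g₃) := by
    rw [h.chi_mul, h.chi_mul, h.chi_mul, h.chi_mul]
    congr 1
    have := h.chi_comm g₁ (χ g₂)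
    exact this
  rw [h.t_eq, h.t_eq, ← hχ]
  have e1 : D * (a (g₁ * g₂ * g₃) + χ (g₁ * g₂ * g₃) * a (g₁ * g₂ * g₃)⁻¹ -
      (a (g₂ * g₁ * g₃) + χ (g₁ * g₂ * g₃) * a (g₂ * g₁ * g₃)⁻¹)) =
      (D * a g₁ * a g₂ - D * a g₂ * a g₁) * a g₃ +
        χ (g₁ * g₂ * g₃) * (a g₃⁻¹ * (D * a g₂⁻¹ * a g₁⁻¹ - D * a g₁⁻¹ * a g₂⁻¹)) := by
    have hD3 : a g₃⁻¹ * D = D * a g₃⁻¹ := (hDc g₃⁻¹).symm
    rw [map_mul, map_mul, map_mul, map_mul, mul_inv_rev, mul_inv_rev, mul_inv_rev, mul_inv_rev,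
      map_mul, map_mul, map_mul, map_mul]
    have hx : ∀ e : E, D * (χ (g₁ * g₂ * g₃) * e) = χ (g₁ * g₂ * g₃) * (D * e) := by
      intro e
      rw [← mul_assoc, ← h.chi_comm, mul_assoc]
    rw [mul_sub, mul_add, mul_add, hx, hx, mul_sub, mul_sub, sub_mul]
    have e3 : ∀ x y : E, a g₃⁻¹ * (D * x * y) = D * (a g₃⁻¹ * (x * y)) := by
      intro x y
      rw [mul_assoc D, ← mul_assoc (a g₃⁻¹), hD3, mul_assoc]
    rw [e3, e3]
    simp only [mul_assoc]
    abel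
  rw [e1, hc g₁ g₂, sub_self, zero_mul, zero_add, hc g₂⁻¹ g₁⁻¹, sub_self, mul_zero, mul_zero]

end

end Fermat.Agent.S32


end ZBS32_001_0

/-! ### bundled: `Fermat.Agent.S32.Setup` -/
section ZBS32_001_1

/-!
# S32 glue, part 2: the `pⁿ`-torsion of the Eichler–Shimura package as a `G_ℚ × Hecke`-module

* `tors J p n` : `J[pⁿ]` as a Hecke submodule, with its Galois action `torsGalois`;
* `galEnd`, `heckeEnd` : the two actions as homomorphisms to `Module.End ℤ (J[pⁿ])`;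
* `quadRel` : for Frobenius data `g = τ_g ^ {m_g}` on a field `F` of definition of `J[pⁿ]`
  containing `μ_{pⁿ}`, the triple `(galEnd, ℓ_g ^ {m_g}, heckeEnd (s_{m_g}(T_{ℓ_g}, ℓ_g)))`
  satisfies the hypotheses `QuadRel` of `Algebra.lean`.
-/

set_option autoImplicit false
set_option linter.unusedSectionVars false

namespace Fermat.Agent.S32

open ModularCurve Fermat.Agent.ES Fermat.Agent.S31

variable (J : Type) [AddCommGroup J] [Module HeckeAlg J] [DistribMulAction GQ J] (p n : ℕ)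

/-- `J[pⁿ]` as a Hecke submodule -/
def tors : Submodule HeckeAlg J where
  carrier := {x | p ^ n • x = 0}
  zero_mem' := smul_zero _
  add_mem' := by
    intro x y hx hy
    show p ^ n • (x + y) = 0
    rw [smul_add, hx, hy, add_zero]
  smul_mem' := by
    intro t x hx
    show p ^ n • (t • x) = 0
    rw [smul_comm, hx, smul_zero]

variable {J p n}

theorem mem_tors {x : J} : x ∈ tors J p n ↔ p ^ n • x = 0 := Iff.rfl

variable (J p n)

/-- the Galois action on `J[pⁿ]` -/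
noncomputable instance torsGalois : DistribMulAction GQ ↥(tors J p n) where
  smul σ x := ⟨σ • (x : J), torsion_smul n σ x.2⟩
  one_smul x := Subtype.ext (one_smul _ _)
  mul_smul σ τ x := Subtype.ext (mul_smul _ _ _)
  smul_zero σ := Subtype.ext (smul_zero _)
  smul_add σ x y := Subtype.ext (smul_add _ _ _)

variable {J p n}

@[simp] theorem coe_smul_tors (σ : GQ) (x : ↥(tors J p n)) :
    ((σ • x : ↥(tors J p n)) : J) = σ • (x : J) := rfl

@[simp] theorem coe_hecke_smul_tors (t : HeckeAlg) (x : ↥(tors J p n)) :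
    ((t • x : ↥(tors J p n)) : J) = t • (x : J) := rfl

theorem pow_smul_tors (x : ↥(tors J p n)) : p ^ n • x = 0 :=
  Subtype.ext x.2

variable (J p n)

/-- the Galois action as a homomorphism to the endomorphism ring -/
noncomputable def galEnd : GQ →* Module.End ℤ ↥(tors J p n) :=
  DistribMulAction.toModuleEnd ℤ ↥(tors J p n)

/-- the Hecke action as a homomorphism to the endomorphism ring -/
noncomputable def heckeEnd : HeckeAlg →+* Module.End ℤ ↥(tors J p n) :=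
  Module.toModuleEnd ℤ ↥(tors J p n)

variable {J p n}

@[simp] theorem galEnd_apply (σ : GQ) (x : ↥(tors J p n)) : galEnd J p n σ x = σ • x := rfl

@[simp] theorem heckeEnd_apply (t : HeckeAlg) (x : ↥(tors J p n)) : heckeEnd J p n t x = t • x :=
  rfl

/-- `pⁿ = 0` in the endomorphism ring of `J[pⁿ]` -/
theorem natCast_pow_end : ((p ^ n : ℕ) : Module.End ℤ ↥(tors J p n)) = 0 := by
  ext x
  rw [Module.End.natCast_apply, pow_smul_tors, LinearMap.zero_apply]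

/-- congruent integers are equal in the endomorphism ring of `J[pⁿ]` -/
theorem natCast_end_eq_of_modEq {a b : ℕ} (h : a ≡ b [MOD p ^ n]) :
    (a : Module.End ℤ ↥(tors J p n)) = (b : Module.End ℤ ↥(tors J p n)) := by
  obtain ⟨q, hq⟩ := (Nat.modEq_iff_dvd.mp h)
  have h1 : ((b : ℤ) : Module.End ℤ ↥(tors J p n)) - ((a : ℤ) : Module.End ℤ ↥(tors J p n)) =
      (((p ^ n : ℕ) : ℤ) : Module.End ℤ ↥(tors J p n)) * (q : Module.End ℤ ↥(tors J p n)) := by
    rw [← Int.cast_sub, hq, Int.cast_mul]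
  rw [Int.cast_natCast, Int.cast_natCast, Int.cast_natCast, natCast_pow_end, zero_mul] at h1
  exact (sub_eq_zero.mp h1).symm

section quad

variable {N : ℕ}

/-- the cyclotomic congruences for Frobenius data -/
theorem cyclo_mul (hp : p.Prime) {ζ : AlgebraicClosure ℚ} (hζ : IsPrimitiveRoot ζ (p ^ n))
    (F : IntermediateField ℚ (AlgebraicClosure ℚ)) (hζF : ζ ∈ F)
    (ℓ : GQ → ℕ) (A : GQ → ValuationSubring (AlgebraicClosure ℚ)) (τ : GQ → GQ) (m : GQ → ℕ)
    (hℓ : ∀ g, (ℓ g).Prime) (hℓp : ∀ g, ℓ g ≠ p) (hA : ∀ g, (A g).LiesOverPrime (ℓ g))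
    (hτ : ∀ g, (A g).IsFrobeniusAt (τ g) (ℓ g))
    (hg : ∀ g, ∀ a ∈ F, ((τ g) ^ (m g)) a = g a) :
    (∀ g, g ζ = ζ ^ (ℓ g ^ m g)) ∧ (ℓ 1 ^ m 1 ≡ 1 [MOD p ^ n]) ∧
      ∀ g h, ℓ (g * h) ^ m (g * h) ≡ ℓ g ^ m g * ℓ h ^ m h [MOD p ^ n] := by
  have hM0 : p ^ n ≠ 0 := pow_ne_zero n hp.ne_zero
  have hζ1 : ζ ^ (p ^ n) = 1 := hζ.pow_eq_one
  have key : ∀ g, g ζ = ζ ^ (ℓ g ^ m g) := by
    intro g
    rw [← hg g ζ hζF]
    exact frob_pow_rootOfUnity (A g)
      (natCast_pow_not_mem_nonunits (A g) hp (hℓ g) (hℓp g) (hA g) n) hM0 (hτ g) hζ1 (m g)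
  have hmod : ∀ a b : ℕ, ζ ^ a = ζ ^ b → a ≡ b [MOD p ^ n] := by
    intro a b hab
    have h6 := (hζ.isOfFinOrder hM0).pow_eq_pow_iff_modEq.mp hab
    rw [← hζ.eq_orderOf] at h6
    exact h6
  refine ⟨key, ?_, ?_⟩
  · apply hmod
    rw [← key 1, pow_one, AlgEquiv.one_apply]
  · intro g h
    apply hmod
    rw [← key (g * h), AlgEquiv.mul_apply, key h, map_pow, key g, ← pow_mul]

/-- **the quadratic relation on `J[pⁿ]`** -/
theorem quadRel (hJ : ESDataInf N p J) (hp : p.Prime) {ζ : AlgebraicClosure ℚ}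
    (hζ : IsPrimitiveRoot ζ (p ^ n))
    (F : IntermediateField ℚ (AlgebraicClosure ℚ)) (hζF : ζ ∈ F)
    (hF : ∀ σ : GQ, (∀ a ∈ F, σ a = a) → ∀ x : J, p ^ n • x = 0 → σ • x = x)
    (ℓ : GQ → ℕ) (A : GQ → ValuationSubring (AlgebraicClosure ℚ)) (τ : GQ → GQ) (m : GQ → ℕ)
    (hℓ : ∀ g, (ℓ g).Prime) (hℓNp : ∀ g, ¬ ℓ g ∣ N * p) (hA : ∀ g, (A g).LiesOverPrime (ℓ g))
    (hτ : ∀ g, (A g).IsFrobeniusAt (τ g) (ℓ g))
    (hg : ∀ g, ∀ a ∈ F, ((τ g) ^ (m g)) a = g a) :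
    QuadRel (galEnd J p n) (fun g => ((ℓ g ^ m g : ℕ) : Module.End ℤ ↥(tors J p n)))
      (fun g => heckeEnd J p n (lucasS (heckeGen ⟨ℓ g, hℓ g⟩) (ℓ g : HeckeAlg) (m g))) := by
  have hℓp : ∀ g, ℓ g ≠ p := by
    intro g h
    exact hℓNp g (h ▸ dvd_mul_left _ _)
  obtain ⟨-, h1, hmul⟩ := cyclo_mul hp hζ F hζF ℓ A τ m hℓ hℓp hA hτ hg
  refine ⟨?_, ?_, ?_, ?_, ?_⟩
  · show ((ℓ 1 ^ m 1 : ℕ) : Module.End ℤ ↥(tors J p n)) = 1
    rw [natCast_end_eq_of_modEq h1, Nat.cast_one]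
  · intro g h
    show ((ℓ (g * h) ^ m (g * h) : ℕ) : Module.End ℤ ↥(tors J p n)) = _
    rw [natCast_end_eq_of_modEq (hmul g h), Nat.cast_mul]
  · intro g e
    exact Nat.cast_comm _ _
  · intro g
    ext x
    have := lucas_galois hJ n F hF (hℓ g) (hℓNp g) (hA g) (hτ g) (m g) g (hg g) x.2
    simp only [heckeEnd_apply, coe_hecke_smul_tors, LinearMap.add_apply, galEnd_apply,
      coe_smul_tors, Module.End.mul_apply, Module.End.natCast_apply, Submodule.coe_add,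
      Submodule.coe_smul_of_tower]
    exact this.symm
  · intro g h
    ext x
    simp only [Module.End.mul_apply, heckeEnd_apply, galEnd_apply, coe_smul_tors,
      coe_hecke_smul_tors]
    exact (hJ.smul_comm h _ _).symm

end quad

end Fermat.Agent.S32


end ZBS32_001_1

/-! ### bundled: `Fermat.Agent.S32.Plan` -/
section ZBS32_001_2

/-!
# S32 glue (W1-32): interface — exact statements of the pieces

Target: the frozen S32 (`H.ρ.IsFlatAt p` for a Hecke–Galois datum, `p` odd, `p ∤ N`) from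

* weak Chebotarev (DONE, `Cheb.weakChebotarev_holds`),
* `S32Pkg N p` : ONE `G_ℚ × Hecke`-module `J` carrying the faithful `p`-adic Eichler–Shimura
  package (`ES.ESDataInf`, `S31.ESFaith`) AND a finite flat model of every `J[pⁿ]`
  (the output of WALL 1).

Pieces:

* **S32-A** `s32_key` (file `Key.lean`): for every `k` there is `n` such that every element of
  `ℤ[G_ℚ]` which kills `J[pⁿ]` maps `V` into `𝔪ᵏ V` (`AnnProp`).
  [quadratic relation `g + χ(g) g⁻¹ = s_m(T_ℓ, ℓ)` on `J[pⁿ]` + faithfulness + Burnside;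
  `Algebra.lean`, `Setup.lean`]
* **S32-B** `StmtSubquot` (pure algebra, file `Subquot.lean`): `Ann_{ℤ[G]}(X) ⊆ Ann_{ℤ[G]}(Y)`
  ⇒ `Y` is a subquotient of `X ^ (Y × X)` ⇒ a finite flat model of `X` gives one of `Y`
  (W1-SQ: `hasFiniteFlatModel_pi`, `hasFiniteFlatModel_of_subquotient`).
* **S32-C** `StmtTransport` (file `Transport.lean`): finite flat models of
  `torsionBy ℤ (JZero N) (pᵏ)` (= the output of S19's chain) give finite flat models of the
  `pⁿ`-torsion of `PDiv N p` (the module of the ES package), by `hasFiniteFlatModel_of_injective`.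
* **S32-D** (file `Final.lean`): `s32_isFlatAt_of_pkg`, and `Fermat/Agent/S32.lean`.
-/

set_option autoImplicit false

namespace Fermat.Agent.S32

open ModularCurve Fermat.Agent.ES Fermat.Agent.S31 Fermat.Agent.W1

/-- the action of `G_ℚ` on `J[pⁿ]` as a plain map -/
noncomputable def torsAction (J : Type) [AddCommGroup J] [Module HeckeAlg J] [DistribMulAction GQ J]
    (p n : ℕ) : GQ → ↥(tors J p n) → ↥(tors J p n) :=
  fun σ x => σ • x

/-- The package consumed by S32: the faithful `p`-adic Eichler–Shimura data on a module `J`,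
together with a finite flat model of every `J[pⁿ]`. -/
def S32Pkg (N p : ℕ) [NeZero N] : Prop :=
  ∃ (J : Type) (_ : AddCommGroup J) (_ : Module HeckeAlg J) (_ : DistribMulAction GQ J),
    ESDataInf N p J ∧ ESFaith N p J ∧
      ∀ n : ℕ, HasFiniteFlatModel (GaloisRep.ratLocalizedAt p) ↥(tors J p n) (torsAction J p n)

/-- every element of `ℤ[G_ℚ]` which kills `J[pⁿ]` maps `V` into `I V` -/
def AnnProp (J : Type) [AddCommGroup J] [Module HeckeAlg J] [DistribMulAction GQ J] (p n : ℕ)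
    {T : Type} [CommRing T] [IsLocalRing T] (ρ : GaloisRepAdic T) (I : Ideal T) : Prop :=
  ∀ c : GQ →₀ ℤ, (∀ x : J, p ^ n • x = 0 → (c.sum fun g z => z • g • x) = 0) →
    ∀ v : ρ.V, (c.sum fun g z => z • ρ.ρ g v) ∈ I • (⊤ : Submodule T ρ.V)

/-- **S32-B** (pure algebra): if every element of `ℤ[G_ℚ]` which kills `X` kills `Y`
(`X`, `Y` finite abelian groups with additive actions of `G_ℚ`), then a finite flat model of `X`
gives a finite flat model of `Y`. -/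
def StmtSubquot : Prop :=
  ∀ (R : Subring ℚ) (_ : IsPrincipalIdealRing R) (_ : IsFractionRing R ℚ)
    (X : Type) (_ : AddCommGroup X) (_ : Finite X) (actX : GQ → X → X)
    (Y : Type) (_ : AddCommGroup Y) (_ : Finite Y) (actY : GQ → Y → Y),
    (∀ σ x x', actX σ (x + x') = actX σ x + actX σ x') →
    (∀ σ τ x, actX (σ * τ) x = actX σ (actX τ x)) →
    (∀ σ y y', actY σ (y + y') = actY σ y + actY σ y') →
    (∀ σ τ y, actY (σ * τ) y = actY σ (actY τ y)) →
    (∀ y, actY 1 y = y) →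
    (∀ c : GQ →₀ ℤ, (∀ x : X, (c.sum fun g z => z • actX g x) = 0) →
      ∀ y : Y, (c.sum fun g z => z • actY g y) = 0) →
    HasFiniteFlatModel R X actX → HasFiniteFlatModel R Y actY

/-- **S32-C**: transport of the finite flat models from `J₀(N)[pᵏ]` (S19's chain) to the
`pⁿ`-torsion of the module `PDiv N p` of the Eichler–Shimura package. -/
def StmtTransport : Prop :=
  ∀ (N p : ℕ) [NeZero N], p.Prime →
    (∀ k : ℕ, HasFiniteFlatModel (GaloisRep.ratLocalizedAt p)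
      ↥(Submodule.torsionBy ℤ (JZero N) ((p : ℤ) ^ k)) (torsAct (JZero N) ((p : ℤ) ^ k))) →
    letI := pDivModule N p
    letI := pDivGalois N p
    ∀ n : ℕ, HasFiniteFlatModel (GaloisRep.ratLocalizedAt p) ↥(tors (PDiv N p) p n)
      (torsAction (PDiv N p) p n)

end Fermat.Agent.S32


end ZBS32_001_2

/-! ### bundled: `Fermat.Agent.RT.K8.Comm` -/
section ZBS32_001_3

/-!
# RT-K8, algebra part 1: two lemmas on the quadratic relation

Setting of `Fermat/Agent/S32/Algebra.lean`: a ring `E`, a group `G` acting through `a : G →* E`,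
`χ : G → E` central and multiplicative, `t g = a g + χ g * a g⁻¹` commuting with all `a h`
(`S32.QuadRel a χ t`).

* `rtk8_unram` (**Lemma A**): if `χ σ = 1` and `t (g * σ) = t g` for all `g`, then
  `(a σ - 1) * (t (g₁ g₂ g₃) - t (g₂ g₁ g₃)) = 0`.
* `rtk8_scalar` (**Lemma B**): if `e` commutes with all `a g` and `a Φ * e = χ Φ * e`, then
  `(χ Φ - 1) * (t (g₁ g₂ g₃) - t (g₂ g₁ g₃)) * e = 0`.
-/

set_option autoImplicit false
set_option linter.unusedSectionVars false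

namespace Fermat.Agent.RT.K8

open Fermat.Agent.S32

variable {E : Type*} [Ring E] {G : Type*} [Group G]
variable {a : G →* E} {χ : G → E} {t : G → E}

/-- `t 1 = 2` -/
theorem rtk8_t_one (h : QuadRel a χ t) : t 1 = 2 := by
  rw [h.t_eq, inv_one, map_one, h.chi_one, one_mul, one_add_one_eq_two]

/-- `χ` takes commuting values -/
theorem rtk8_chi_chi (h : QuadRel a χ t) (g g' : G) : χ g * χ g' = χ g' * χ g :=
  h.chi_comm g (χ g')

/-- cancellation of the central unit `χ g` -/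
theorem rtk8_chi_cancel (h : QuadRel a χ t) (g : G) {x y : E} (hxy : χ g * x = χ g * y) :
    x = y := by
  have := congrArg (fun z => χ g⁻¹ * z) hxy
  simp only [← mul_assoc, h.chi_inv_mul, one_mul] at this
  exact this

section LemmaA

variable (h : QuadRel a χ t) {σ : G} (hσ : χ σ = 1) (hun : ∀ g, t (g * σ) = t g)

include h hσ hun

/-- `a σ + a σ⁻¹ = 2` -/
theorem rtk8_unram_sum : a σ + a σ⁻¹ = 2 := by
  have h1 := hun 1
  rw [one_mul, h.t_eq, hσ, one_mul, rtk8_t_one h] at h1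
  exact h1

/-- `a σ⁻¹ = 1 - (a σ - 1)` -/
theorem rtk8_unram_inv : a σ⁻¹ = 1 - (a σ - 1) := by
  have h1 := rtk8_unram_sum h hσ hun
  have : a σ⁻¹ = 2 - a σ := by rw [← h1]; abel
  rw [this]
  have : (2 : E) = 1 + 1 := one_add_one_eq_two.symm
  rw [this]; abel

/-- `(a σ - 1)² = 0` -/
theorem rtk8_unram_sq : (a σ - 1) * (a σ - 1) = 0 := by
  have h1 := rtk8_unram_inv h hσ hun
  have h2 : a σ * a σ⁻¹ = 1 := h.a_mul_inv σ
  rw [h1] at h2
  have h3 : a σ = 1 + (a σ - 1) := by abel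
  rw [h3] at h2
  have h4 : (1 + (a σ - 1)) * (1 - (1 + (a σ - 1) - 1)) = 1 - (a σ - 1) * (a σ - 1) := by
    noncomm_ring
  rw [h4] at h2
  have := sub_eq_self.mp h2
  exact this

/-- `a g * (a σ - 1) = χ g * ((a σ - 1) * a g⁻¹)` -/
theorem rtk8_unram_conj (g : G) : a g * (a σ - 1) = χ g * ((a σ - 1) * a g⁻¹) := by
  have h1 := hun g
  rw [h.t_eq, h.t_eq, h.chi_mul, hσ, mul_one, mul_inv_rev, map_mul, map_mul,
    rtk8_unram_inv h hσ hun] at h1
  have h2 : a g * a σ + χ g * ((1 - (a σ - 1)) * a g⁻¹) - (a g + χ g * a g⁻¹) = 0 := by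
    rw [h1, sub_self]
  have h3 : a g * a σ + χ g * ((1 - (a σ - 1)) * a g⁻¹) - (a g + χ g * a g⁻¹) =
      a g * (a σ - 1) - χ g * ((a σ - 1) * a g⁻¹) := by
    noncomm_ring
  rw [h3] at h2
  exact sub_eq_zero.mp h2

/-- `(a σ - 1)` kills the commutators of the inverses -/
theorem rtk8_unram_comm_inv (g g' : G) :
    (a σ - 1) * (a g⁻¹ * a g'⁻¹) = (a σ - 1) * (a g'⁻¹ * a g⁻¹) := by
  have hgg := rtk8_unram_conj h hσ hun (g * g')
  rw [map_mul, h.chi_mul, mul_inv_rev, map_mul] at hgg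
  have e1 : a g * a g' * (a σ - 1) = χ g' * (χ g * ((a σ - 1) * (a g⁻¹ * a g'⁻¹))) := by
    rw [mul_assoc (a g), rtk8_unram_conj h hσ hun g', ← mul_assoc (a g), ← h.chi_comm g' (a g),
      mul_assoc (χ g'), ← mul_assoc (a g), rtk8_unram_conj h hσ hun g, mul_assoc (χ g),
      mul_assoc (a σ - 1)]
  rw [e1, rtk8_chi_chi h g g', mul_assoc (χ g')] at hgg
  exact rtk8_chi_cancel h g (rtk8_chi_cancel h g' hgg)

/-- `(a σ - 1)` kills the commutators -/
theorem rtk8_unram_comm (g g' : G) :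
    (a σ - 1) * (a g * a g') = (a σ - 1) * (a g' * a g) := by
  have := rtk8_unram_comm_inv h hσ hun g⁻¹ g'⁻¹
  rwa [inv_inv, inv_inv] at this

/-- three factors -/
theorem rtk8_unram_comm3 (x y z : G) :
    (a σ - 1) * (a x * a y * a z) = (a σ - 1) * (a x * a z * a y) := by
  have c := rtk8_unram_comm h hσ hun
  calc (a σ - 1) * (a x * a y * a z) = (a σ - 1) * (a x * a (y * z)) := by
        simp only [map_mul, mul_assoc]
    _ = (a σ - 1) * (a (y * z) * a x) := c x (y * z)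
    _ = (a σ - 1) * (a y * a z) * a x := by simp only [map_mul, mul_assoc]
    _ = (a σ - 1) * (a z * a y) * a x := by rw [c y z]
    _ = (a σ - 1) * (a (z * y) * a x) := by simp only [map_mul, mul_assoc]
    _ = (a σ - 1) * (a x * a (z * y)) := (c x (z * y)).symm
    _ = (a σ - 1) * (a x * a z * a y) := by simp only [map_mul, mul_assoc]

/-- **Lemma A**: `(a σ - 1) * (t (g₁ g₂ g₃) - t (g₂ g₁ g₃)) = 0`. -/
theorem rtk8_unram (g₁ g₂ g₃ : G) :
    (a σ - 1) * (t (g₁ * g₂ * g₃) - t (g₂ * g₁ * g₃)) = 0 := by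
  have hχ : χ (g₁ * g₂ * g₃) = χ (g₂ * g₁ * g₃) := by
    rw [h.chi_mul, h.chi_mul, h.chi_mul, h.chi_mul, rtk8_chi_chi h g₁ g₂]
  have e1 : (a σ - 1) * a (g₁ * g₂ * g₃) = (a σ - 1) * a (g₂ * g₁ * g₃) := by
    calc (a σ - 1) * a (g₁ * g₂ * g₃) = (a σ - 1) * (a g₁ * a g₂) * a g₃ := by
          simp only [map_mul, mul_assoc]
      _ = (a σ - 1) * (a g₂ * a g₁) * a g₃ := by rw [rtk8_unram_comm h hσ hun g₁ g₂]
      _ = (a σ - 1) * a (g₂ * g₁ * g₃) := by simp only [map_mul, mul_assoc]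
  have e2 : (a σ - 1) * a (g₁ * g₂ * g₃)⁻¹ = (a σ - 1) * a (g₂ * g₁ * g₃)⁻¹ := by
    calc (a σ - 1) * a (g₁ * g₂ * g₃)⁻¹ = (a σ - 1) * (a g₃⁻¹ * a g₂⁻¹ * a g₁⁻¹) := by
          simp only [mul_inv_rev, map_mul, mul_assoc]
      _ = (a σ - 1) * (a g₃⁻¹ * a g₁⁻¹ * a g₂⁻¹) := rtk8_unram_comm3 h hσ hun g₃⁻¹ g₂⁻¹ g₁⁻¹
      _ = (a σ - 1) * a (g₂ * g₁ * g₃)⁻¹ := by simp only [mul_inv_rev, map_mul, mul_assoc]
  have e3 : (a σ - 1) * (χ (g₁ * g₂ * g₃) * a (g₁ * g₂ * g₃)⁻¹) =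
      (a σ - 1) * (χ (g₁ * g₂ * g₃) * a (g₂ * g₁ * g₃)⁻¹) := by
    rw [h.chi_comm, h.chi_comm (g₁ * g₂ * g₃) (a (g₂ * g₁ * g₃)⁻¹), ← mul_assoc, ← mul_assoc, e2]
  rw [h.t_eq, h.t_eq, ← hχ, mul_sub, mul_add, mul_add, e1, e3, sub_self]

end LemmaA

section LemmaB

variable (h : QuadRel a χ t) {e : E} (he : ∀ g, e * a g = a g * e) {Φ : G}
  (hΦ : a Φ * e = χ Φ * e)

include h he hΦ

/-- `χ Φ * (a Φ⁻¹ * e) = e` -/
theorem rtk8_scalar_inv : χ Φ * (a Φ⁻¹ * e) = e := by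
  have h1 : a Φ⁻¹ * (a Φ * e) = a Φ⁻¹ * (χ Φ * e) := by rw [hΦ]
  rw [← mul_assoc, h.a_inv_mul, one_mul] at h1
  rw [← mul_assoc, h.chi_comm Φ (a Φ⁻¹), mul_assoc]
  exact h1.symm

/-- `(t (g Φ) - t g) * e = (χ Φ - 1) * a g * e` -/
theorem rtk8_scalar_t (g : G) : (t (g * Φ) - t g) * e = (χ Φ - 1) * a g * e := by
  have h1 : a (g * Φ) * e = χ Φ * a g * e := by
    rw [map_mul, mul_assoc, hΦ, ← mul_assoc, ← h.chi_comm]
  have h2 : χ (g * Φ) * a (g * Φ)⁻¹ * e = χ g * a g⁻¹ * e := by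
    calc χ (g * Φ) * a (g * Φ)⁻¹ * e = χ g * (χ Φ * (a Φ⁻¹ * (a g⁻¹ * e))) := by
          simp only [h.chi_mul, mul_inv_rev, map_mul, mul_assoc]
      _ = χ g * (χ Φ * (a Φ⁻¹ * (e * a g⁻¹))) := by rw [he g⁻¹]
      _ = χ g * ((χ Φ * (a Φ⁻¹ * e)) * a g⁻¹) := by simp only [mul_assoc]
      _ = χ g * (e * a g⁻¹) := by rw [rtk8_scalar_inv h he hΦ]
      _ = χ g * a g⁻¹ * e := by rw [he g⁻¹, mul_assoc]
  rw [h.t_eq, h.t_eq, sub_mul, add_mul, add_mul, h1, h2]
  noncomm_ring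

/-- `(χ Φ - 1)` is central -/
theorem rtk8_scalar_central (x : E) : (χ Φ - 1) * x = x * (χ Φ - 1) := by
  rw [sub_mul, mul_sub, h.chi_comm, one_mul, mul_one]

/-- `(χ Φ - 1)` kills the commutators on the image of `e` -/
theorem rtk8_scalar_comm (g g' : G) :
    (χ Φ - 1) * (a g * a g') * e = (χ Φ - 1) * (a g' * a g) * e := by
  have hc := rtk8_scalar_central h he hΦ
  have hH : (t (g * Φ) - t g) * a g' = a g' * (t (g * Φ) - t g) := by
    rw [sub_mul, mul_sub, h.t_comm, h.t_comm]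
  calc (χ Φ - 1) * (a g * a g') * e = (χ Φ - 1) * (a g * (a g' * e)) := by
        simp only [mul_assoc]
    _ = (χ Φ - 1) * (a g * (e * a g')) := by rw [he g']
    _ = ((χ Φ - 1) * a g * e) * a g' := by simp only [mul_assoc]
    _ = (t (g * Φ) - t g) * e * a g' := by rw [rtk8_scalar_t h he hΦ g]
    _ = (t (g * Φ) - t g) * (a g' * e) := by rw [mul_assoc, he g']
    _ = a g' * ((t (g * Φ) - t g) * e) := by rw [← mul_assoc, hH, mul_assoc]
    _ = a g' * ((χ Φ - 1) * a g * e) := by rw [rtk8_scalar_t h he hΦ g]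
    _ = (a g' * (χ Φ - 1)) * (a g * e) := by simp only [mul_assoc]
    _ = ((χ Φ - 1) * a g') * (a g * e) := by rw [hc (a g')]
    _ = (χ Φ - 1) * (a g' * a g) * e := by simp only [mul_assoc]

/-- **Lemma B**: `(χ Φ - 1) * (t (g₁ g₂ g₃) - t (g₂ g₁ g₃)) * e = 0`. -/
theorem rtk8_scalar (g₁ g₂ g₃ : G) :
    (χ Φ - 1) * (t (g₁ * g₂ * g₃) - t (g₂ * g₁ * g₃)) * e = 0 := by
  have hc := rtk8_scalar_central h he hΦ
  have hχ : χ (g₁ * g₂ * g₃) = χ (g₂ * g₁ * g₃) := by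
    rw [h.chi_mul, h.chi_mul, h.chi_mul, h.chi_mul, rtk8_chi_chi h g₁ g₂]
  have e1 : (χ Φ - 1) * a (g₁ * g₂ * g₃) * e = (χ Φ - 1) * a (g₂ * g₁ * g₃) * e := by
    calc (χ Φ - 1) * a (g₁ * g₂ * g₃) * e = (χ Φ - 1) * (a g₁ * a g₂) * (a g₃ * e) := by
          simp only [map_mul, mul_assoc]
      _ = (χ Φ - 1) * (a g₁ * a g₂) * (e * a g₃) := by rw [he g₃]
      _ = ((χ Φ - 1) * (a g₁ * a g₂) * e) * a g₃ := by simp only [mul_assoc]
      _ = ((χ Φ - 1) * (a g₂ * a g₁) * e) * a g₃ := by rw [rtk8_scalar_comm h he hΦ g₁ g₂]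
      _ = (χ Φ - 1) * (a g₂ * a g₁) * (e * a g₃) := by simp only [mul_assoc]
      _ = (χ Φ - 1) * (a g₂ * a g₁) * (a g₃ * e) := by rw [he g₃]
      _ = (χ Φ - 1) * a (g₂ * g₁ * g₃) * e := by simp only [map_mul, mul_assoc]
  have e2 : (χ Φ - 1) * a (g₁ * g₂ * g₃)⁻¹ * e = (χ Φ - 1) * a (g₂ * g₁ * g₃)⁻¹ * e := by
    calc (χ Φ - 1) * a (g₁ * g₂ * g₃)⁻¹ * e
        = ((χ Φ - 1) * a g₃⁻¹) * ((a g₂⁻¹ * a g₁⁻¹) * e) := by
          simp only [mul_inv_rev, map_mul, mul_assoc]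
      _ = (a g₃⁻¹ * (χ Φ - 1)) * ((a g₂⁻¹ * a g₁⁻¹) * e) := by rw [hc (a g₃⁻¹)]
      _ = a g₃⁻¹ * ((χ Φ - 1) * (a g₂⁻¹ * a g₁⁻¹) * e) := by simp only [mul_assoc]
      _ = a g₃⁻¹ * ((χ Φ - 1) * (a g₁⁻¹ * a g₂⁻¹) * e) := by
          rw [rtk8_scalar_comm h he hΦ g₂⁻¹ g₁⁻¹]
      _ = (a g₃⁻¹ * (χ Φ - 1)) * ((a g₁⁻¹ * a g₂⁻¹) * e) := by simp only [mul_assoc]
      _ = ((χ Φ - 1) * a g₃⁻¹) * ((a g₁⁻¹ * a g₂⁻¹) * e) := by rw [hc (a g₃⁻¹)]
      _ = (χ Φ - 1) * a (g₂ * g₁ * g₃)⁻¹ * e := by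
          simp only [mul_inv_rev, map_mul, mul_assoc]
  have e3 : (χ Φ - 1) * (χ (g₁ * g₂ * g₃) * a (g₁ * g₂ * g₃)⁻¹) * e =
      (χ Φ - 1) * (χ (g₁ * g₂ * g₃) * a (g₂ * g₁ * g₃)⁻¹) * e := by
    calc (χ Φ - 1) * (χ (g₁ * g₂ * g₃) * a (g₁ * g₂ * g₃)⁻¹) * e
        = ((χ Φ - 1) * χ (g₁ * g₂ * g₃)) * (a (g₁ * g₂ * g₃)⁻¹ * e) := by
          simp only [mul_assoc]
      _ = (χ (g₁ * g₂ * g₃) * (χ Φ - 1)) * (a (g₁ * g₂ * g₃)⁻¹ * e) := by
          rw [hc (χ (g₁ * g₂ * g₃))]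
      _ = χ (g₁ * g₂ * g₃) * ((χ Φ - 1) * a (g₁ * g₂ * g₃)⁻¹ * e) := by simp only [mul_assoc]
      _ = χ (g₁ * g₂ * g₃) * ((χ Φ - 1) * a (g₂ * g₁ * g₃)⁻¹ * e) := by rw [e2]
      _ = (χ (g₁ * g₂ * g₃) * (χ Φ - 1)) * (a (g₂ * g₁ * g₃)⁻¹ * e) := by
          simp only [mul_assoc]
      _ = ((χ Φ - 1) * χ (g₁ * g₂ * g₃)) * (a (g₂ * g₁ * g₃)⁻¹ * e) := by
          rw [hc (χ (g₁ * g₂ * g₃))]
      _ = (χ Φ - 1) * (χ (g₁ * g₂ * g₃) * a (g₂ * g₁ * g₃)⁻¹) * e := by simp only [mul_assoc]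
  rw [h.t_eq, h.t_eq, ← hχ, mul_sub, sub_mul, mul_add, mul_add, add_mul, add_mul, e1, e3,
    sub_self]

end LemmaB

end Fermat.Agent.RT.K8


end ZBS32_001_3

/-! ### bundled: `Fermat.Agent.RT.K8.KTors` -/
section ZBS32_001_4

/-!
# RT-K8, part 3: the module `Z = J[pⁿ][𝔎]` and its quadratic relation

`𝔎 = {h Hecke polynomial outside S : χ(h) ∈ I}`, `Z = {x ∈ J[pⁿ] : 𝔎 x = 0}`.

* `kTors` : `Z` as a Hecke submodule of `J`;
* `kGal` : the Galois action on `Z` (needs that Galois and Hecke commute);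
* `kHecke` : the Hecke action on `Z`;
* `kTors_quadRel` : the quadratic relation on `Z` for representatives `P g` of
  `g + χ_cyc(g) g⁻¹` on `J[pⁿ]`.
-/

set_option autoImplicit false
set_option linter.unusedSectionVars false

namespace Fermat.Agent.RT.K8

open ModularCurve Fermat.Agent.ES Fermat.Agent.S31 Fermat.Agent.S32 Fermat.Agent.S30

variable (p : ℕ) {N : ℕ} [NeZero N] (J : Type) [AddCommGroup J] [Module HeckeAlg J]
  [DistribMulAction GQ J] (n : ℕ) (S : Finset ℕ) {𝒪' : Type} [CommRing 𝒪']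
  (χ : CuspForm.heckeAlgebra N 2 (↑S : Set ℕ) →+* 𝒪') (I : Ideal 𝒪')

/-- `Z = J[pⁿ][𝔎]` as a Hecke submodule -/
noncomputable def kTors : Submodule HeckeAlg J where
  carrier := {x | p ^ n • x = 0 ∧
    ∀ h ∈ MvPolynomial.supported ℤ (outsideVars (↑S : Set ℕ)), chiHom S χ h ∈ I → h • x = 0}
  zero_mem' := ⟨smul_zero _, fun _ _ _ => smul_zero _⟩
  add_mem' := by
    rintro x y ⟨hx, hx'⟩ ⟨hy, hy'⟩
    refine ⟨?_, fun h hh hI => ?_⟩
    · rw [smul_add, hx, hy, add_zero]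
    · rw [smul_add, hx' h hh hI, hy' h hh hI, add_zero]
  smul_mem' := by
    rintro c x ⟨hx, hx'⟩
    refine ⟨?_, fun h hh hI => ?_⟩
    · show p ^ n • (c • x) = 0
      rw [smul_comm, hx, smul_zero]
    · show h • (c • x) = 0
      rw [smul_comm, hx' h hh hI, smul_zero]

variable {p J n S χ I}

theorem mem_kTors {x : J} : x ∈ kTors p J n S χ I ↔ p ^ n • x = 0 ∧
    ∀ h ∈ MvPolynomial.supported ℤ (outsideVars (↑S : Set ℕ)), chiHom S χ h ∈ I → h • x = 0 :=
  Iff.rfl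

theorem kTors_pow_smul (x : ↥(kTors p J n S χ I)) : p ^ n • x = 0 :=
  Subtype.ext x.2.1

theorem kTors_kill (x : ↥(kTors p J n S χ I)) {h : HeckeAlg}
    (hh : h ∈ MvPolynomial.supported ℤ (outsideVars (↑S : Set ℕ))) (hI : chiHom S χ h ∈ I) :
    h • x = 0 :=
  Subtype.ext (x.2.2 h hh hI)

variable (p J n S χ I)

/-- the Galois action on `Z` -/
noncomputable def kGal (hcomm : ∀ (σ : GQ) (t : HeckeAlg) (x : J), σ • t • x = t • σ • x) :
    GQ →* Module.End ℤ ↥(kTors p J n S χ I) where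
  toFun σ := AddMonoidHom.toIntLinearMap
    { toFun := fun x => ⟨σ • (x : J), torsion_smul n σ x.2.1, fun h hh hI => by
        rw [← hcomm, x.2.2 h hh hI, smul_zero]⟩
      map_zero' := Subtype.ext (smul_zero σ)
      map_add' := fun x y => Subtype.ext (smul_add σ (x : J) (y : J)) }
  map_one' := by
    ext x
    exact one_smul GQ (x : J)
  map_mul' σ τ := by
    ext x
    exact mul_smul σ τ (x : J)

/-- the Hecke action on `Z` -/
noncomputable def kHecke : HeckeAlg →+* Module.End ℤ ↥(kTors p J n S χ I) :=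
  Module.toModuleEnd ℤ ↥(kTors p J n S χ I)

variable {p J n S χ I}

@[simp] theorem kGal_apply (hcomm : ∀ (σ : GQ) (t : HeckeAlg) (x : J), σ • t • x = t • σ • x)
    (σ : GQ) (x : ↥(kTors p J n S χ I)) :
    ((kGal p J n S χ I hcomm σ x : ↥(kTors p J n S χ I)) : J) = σ • (x : J) := rfl

@[simp] theorem kHecke_apply (h : HeckeAlg) (x : ↥(kTors p J n S χ I)) :
    ((kHecke p J n S χ I h x : ↥(kTors p J n S χ I)) : J) = h • (x : J) := rfl

/-- congruent integers are equal in the endomorphism ring of `Z` -/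
theorem kTors_natCast_eq {a b : ℕ} (h : a ≡ b [MOD p ^ n]) :
    (a : Module.End ℤ ↥(kTors p J n S χ I)) = (b : Module.End ℤ ↥(kTors p J n S χ I)) := by
  ext x
  rw [Module.End.natCast_apply, Module.End.natCast_apply]
  exact congrArg Subtype.val (nsmul_eq_of_modEq h (kTors_pow_smul x))

/-- Hecke polynomials with congruent `χ`-values act in the same way on `Z` -/
theorem kHecke_eq_of_sub_mem {h h' : HeckeAlg}
    (hh : h ∈ MvPolynomial.supported ℤ (outsideVars (↑S : Set ℕ)))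
    (hh' : h' ∈ MvPolynomial.supported ℤ (outsideVars (↑S : Set ℕ)))
    (hI : chiHom S χ h - chiHom S χ h' ∈ I) :
    kHecke p J n S χ I h = kHecke p J n S χ I h' := by
  rw [← sub_eq_zero, ← map_sub]
  ext x
  rw [LinearMap.zero_apply, ZeroMemClass.coe_zero, kHecke_apply]
  exact x.2.2 _ (sub_mem hh hh') (by rwa [map_sub])

/-- **the quadratic relation on `Z`** -/
theorem kTors_quadRel [Fact p.Prime]
    (hcomm : ∀ (σ : GQ) (t : HeckeAlg) (x : J), σ • t • x = t • σ • x)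
    (P : GQ → HeckeAlg) (hP : ∀ g, Approx p J n g (P g)) :
    QuadRel (kGal p J n S χ I hcomm)
      (fun g => ((cycE p n g : ℕ) : Module.End ℤ ↥(kTors p J n S χ I)))
      (fun g => kHecke p J n S χ I (P g)) := by
  refine ⟨?_, ?_, ?_, ?_, ?_⟩
  · show ((cycE p n 1 : ℕ) : Module.End ℤ ↥(kTors p J n S χ I)) = 1
    rw [kTors_natCast_eq (cycE_one p n), Nat.cast_one]
  · intro g h
    show ((cycE p n (g * h) : ℕ) : Module.End ℤ ↥(kTors p J n S χ I)) = _
    rw [kTors_natCast_eq (cycE_mul p n g h), Nat.cast_mul]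
  · intro g e
    exact Nat.cast_comm _ _
  · intro g
    ext x
    have := hP g (x : J) x.2.1
    simp only [kHecke_apply, LinearMap.add_apply, Submodule.coe_add, kGal_apply,
      Module.End.mul_apply, Module.End.natCast_apply, Submodule.coe_smul_of_tower]
    exact this.symm
  · intro g h
    ext x
    simp only [Module.End.mul_apply, kHecke_apply, kGal_apply]
    exact (hcomm h _ _).symm

end Fermat.Agent.RT.K8


end ZBS32_001_4
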