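/- GENERATED FILE (helper35, build-time optimisation, NOTES/ZB.md): verbatim concatenation of the modules
   Fermat.Agent.S32.KeyAlg
   Fermat.Agent.S32.Key
   Fermat.Agent.S32.Final
   Do not edit; do not import together with these modules. -/
import Fermat.Agent.ZB.S53_001
import Fermat.Agent.ZB.Cheb_001
import Fermat.Agent.ZB.S32_001
import Fermat.Agent.ZB.S28_005

/-! ### bundled: `Fermat.Agent.S32.KeyAlg` -/
section ZBS32_002_0

/-!
# S32 glue, algebra part 2: consequences of absolute irreducibility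

`ρ : GaloisRepAdic A`, `A` local, residual representation absolutely irreducible.

* `exists_unit_trace` : there are `g₁ g₂ g₃` with `tr ρ(g₁ g₂ g₃) - tr ρ(g₂ g₁ g₃) ∉ 𝔪`
  (the trilinear form `tr ((XY - YX) Z)` on `M₂(A)` takes the value `1`, and `ρ(G)` spans `M₂(A)`).
* `end_mem_smul_top_of_trace` : if `tr (B ρ(g)) ∈ I` for all `g`, then `B V ⊆ I V`.
-/

set_option autoImplicit false
set_option linter.unusedSectionVars false

namespace Fermat.Agent.S32

open Module IsLocalRing Fermat.Agent.S31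

variable {A : Type} [CommRing A] [IsLocalRing A]

/-- the trilinear form `tr ((XY - YX) Z)` -/
def phi3 (X Y Z : Matrix (Fin 2) (Fin 2) A) : A :=
  (X * Y * Z).trace - (Y * X * Z).trace

theorem phi3_add_left (X X' Y Z : Matrix (Fin 2) (Fin 2) A) :
    phi3 (X + X') Y Z = phi3 X Y Z + phi3 X' Y Z := by
  unfold phi3
  rw [add_mul, add_mul, mul_add, add_mul, Matrix.trace_add, Matrix.trace_add]
  ring

theorem phi3_smul_left (a : A) (X Y Z : Matrix (Fin 2) (Fin 2) A) :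
    phi3 (a • X) Y Z = a * phi3 X Y Z := by
  unfold phi3
  rw [Matrix.smul_mul, Matrix.smul_mul, Matrix.mul_smul, Matrix.smul_mul, Matrix.trace_smul,
    Matrix.trace_smul, smul_eq_mul, smul_eq_mul]
  ring

theorem phi3_add_mid (X Y Y' Z : Matrix (Fin 2) (Fin 2) A) :
    phi3 X (Y + Y') Z = phi3 X Y Z + phi3 X Y' Z := by
  unfold phi3
  rw [mul_add, add_mul, add_mul, add_mul, Matrix.trace_add, Matrix.trace_add]
  ring

theorem phi3_smul_mid (a : A) (X Y Z : Matrix (Fin 2) (Fin 2) A) :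
    phi3 X (a • Y) Z = a * phi3 X Y Z := by
  unfold phi3
  rw [Matrix.mul_smul, Matrix.smul_mul, Matrix.smul_mul, Matrix.smul_mul, Matrix.trace_smul,
    Matrix.trace_smul, smul_eq_mul, smul_eq_mul]
  ring

theorem phi3_add_right (X Y Z Z' : Matrix (Fin 2) (Fin 2) A) :
    phi3 X Y (Z + Z') = phi3 X Y Z + phi3 X Y Z' := by
  unfold phi3
  rw [mul_add, mul_add, Matrix.trace_add, Matrix.trace_add]
  ring

theorem phi3_smul_right (a : A) (X Y Z : Matrix (Fin 2) (Fin 2) A) :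
    phi3 X Y (a • Z) = a * phi3 X Y Z := by
  unfold phi3
  rw [Matrix.mul_smul, Matrix.mul_smul, Matrix.trace_smul, Matrix.trace_smul, smul_eq_mul,
    smul_eq_mul]
  ring

theorem phi3_zero_left (Y Z : Matrix (Fin 2) (Fin 2) A) : phi3 0 Y Z = 0 := by
  unfold phi3; simp

theorem phi3_zero_mid (X Z : Matrix (Fin 2) (Fin 2) A) : phi3 X 0 Z = 0 := by
  unfold phi3; simp

theorem phi3_zero_right (X Y : Matrix (Fin 2) (Fin 2) A) : phi3 X Y 0 = 0 := by
  unfold phi3; simp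

theorem phi3_special :
    phi3 (Matrix.single (0 : Fin 2) (1 : Fin 2) (1 : A)) (Matrix.single (1 : Fin 2) (0 : Fin 2) 1)
      (Matrix.single (0 : Fin 2) (0 : Fin 2) 1) = 1 := by
  unfold phi3
  simp [Matrix.trace_fin_two, Matrix.mul_apply, Fin.sum_univ_two, Matrix.single_apply]

/-- **a unit commutator trace** -/
theorem exists_unit_trace (ρ : GaloisRepAdic A) (habs : ρ.residual.IsAbsolutelyIrreducible) :
    ∃ g₁ g₂ g₃ : AlgebraicClosure ℚ ≃ₐ[ℚ] AlgebraicClosure ℚ,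
      LinearMap.trace A ρ.V (ρ.ρ (g₁ * g₂ * g₃)) - LinearMap.trace A ρ.V (ρ.ρ (g₂ * g₁ * g₃)) ∉
        maximalIdeal A := by
  classical
  by_contra hcon
  have hall : ∀ g₁ g₂ g₃ : AlgebraicClosure ℚ ≃ₐ[ℚ] AlgebraicClosure ℚ,
      LinearMap.trace A ρ.V (ρ.ρ (g₁ * g₂ * g₃)) - LinearMap.trace A ρ.V (ρ.ρ (g₂ * g₁ * g₃)) ∈
        maximalIdeal A := by
    intro g₁ g₂ g₃
    by_contra h
    exact hcon ⟨g₁, g₂, g₃, h⟩
  let b : Basis (Fin 2) A ρ.V := Module.finBasisOfFinrankEq A ρ.V ρ.finrank_eq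
  set R : (AlgebraicClosure ℚ ≃ₐ[ℚ] AlgebraicClosure ℚ) → Matrix (Fin 2) (Fin 2) A :=
    fun g => LinearMap.toMatrix b b (ρ.ρ g) with hR
  have hspan := span_range_toMatrix_eq_top ρ habs b
  have hmem : ∀ X : Matrix (Fin 2) (Fin 2) A, X ∈ Submodule.span A (Set.range R) := by
    intro X
    rw [hR, hspan]
    exact Submodule.mem_top
  have h0 : ∀ g₁ g₂ g₃, phi3 (R g₁) (R g₂) (R g₃) ∈ maximalIdeal A := by
    intro g₁ g₂ g₃
    have := hall g₁ g₂ g₃
    unfold phi3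
    rw [hR]
    simp only
    rw [← LinearMap.toMatrix_mul, ← LinearMap.toMatrix_mul, ← LinearMap.toMatrix_mul,
      ← LinearMap.toMatrix_mul, ← map_mul, ← map_mul, ← map_mul, ← map_mul,
      ← LinearMap.trace_eq_matrix_trace, ← LinearMap.trace_eq_matrix_trace]
    exact this
  have h1 : ∀ X, ∀ g₂ g₃, phi3 X (R g₂) (R g₃) ∈ maximalIdeal A := by
    intro X
    refine Submodule.span_induction (p := fun X _ => ∀ g₂ g₃, phi3 X (R g₂) (R g₃) ∈
      maximalIdeal A) ?_ ?_ ?_ ?_ (hmem X)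
    · rintro _ ⟨g₁, rfl⟩ g₂ g₃
      exact h0 g₁ g₂ g₃
    · intro g₂ g₃
      rw [phi3_zero_left]; exact zero_mem _
    · intro x y _ _ hx hy g₂ g₃
      rw [phi3_add_left]; exact add_mem (hx g₂ g₃) (hy g₂ g₃)
    · intro a x _ hx g₂ g₃
      rw [phi3_smul_left]; exact Ideal.mul_mem_left _ _ (hx g₂ g₃)
  have h2 : ∀ X Y, ∀ g₃, phi3 X Y (R g₃) ∈ maximalIdeal A := by
    intro X Y
    refine Submodule.span_induction (p := fun Y _ => ∀ g₃, phi3 X Y (R g₃) ∈
      maximalIdeal A) ?_ ?_ ?_ ?_ (hmem Y)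
    · rintro _ ⟨g₂, rfl⟩ g₃
      exact h1 X g₂ g₃
    · intro g₃
      rw [phi3_zero_mid]; exact zero_mem _
    · intro x y _ _ hx hy g₃
      rw [phi3_add_mid]; exact add_mem (hx g₃) (hy g₃)
    · intro a x _ hx g₃
      rw [phi3_smul_mid]; exact Ideal.mul_mem_left _ _ (hx g₃)
  have h3 : ∀ X Y Z, phi3 X Y Z ∈ maximalIdeal A := by
    intro X Y Z
    refine Submodule.span_induction (p := fun Z _ => phi3 X Y Z ∈ maximalIdeal A)
      ?_ ?_ ?_ ?_ (hmem Z)
    · rintro _ ⟨g₃, rfl⟩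
      exact h2 X Y g₃
    · rw [phi3_zero_right]; exact zero_mem _
    · intro x y _ _ hx hy
      rw [phi3_add_right]; exact add_mem hx hy
    · intro a x _ hx
      rw [phi3_smul_right]; exact Ideal.mul_mem_left _ _ hx
  have h4 := h3 (Matrix.single (0 : Fin 2) (1 : Fin 2) (1 : A))
    (Matrix.single (1 : Fin 2) (0 : Fin 2) 1) (Matrix.single (0 : Fin 2) (0 : Fin 2) 1)
  rw [phi3_special] at h4
  exact (Ideal.ne_top_iff_one _).mp (Ideal.IsMaximal.ne_top inferInstance) h4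

/-- if `tr (B ρ(g)) ∈ I` for all `g`, then `B` maps `V` into `I V` -/
theorem end_mem_smul_top_of_trace (ρ : GaloisRepAdic A)
    (habs : ρ.residual.IsAbsolutelyIrreducible) (I : Ideal A) (B : Module.End A ρ.V)
    (h : ∀ g : AlgebraicClosure ℚ ≃ₐ[ℚ] AlgebraicClosure ℚ,
      LinearMap.trace A ρ.V (B * ρ.ρ g) ∈ I) (v : ρ.V) :
    B v ∈ I • (⊤ : Submodule A ρ.V) := by
  classical
  let b : Basis (Fin 2) A ρ.V := Module.finBasisOfFinrankEq A ρ.V ρ.finrank_eq
  set Y : Matrix (Fin 2) (Fin 2) A := LinearMap.toMatrix b b B with hY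
  let L : Matrix (Fin 2) (Fin 2) A →ₗ[A] A :=
    (Matrix.traceLinearMap (Fin 2) A A).comp (LinearMap.mulLeft A Y)
  have hL : ∀ Z, L Z = (Y * Z).trace := fun Z => rfl
  have hspan := span_range_toMatrix_eq_top ρ habs b
  have hLI : ∀ Z, L Z ∈ I := by
    intro Z
    have hZ : Z ∈ Submodule.span A (Set.range fun g : AlgebraicClosure ℚ ≃ₐ[ℚ] AlgebraicClosure ℚ =>
        LinearMap.toMatrix b b (ρ.ρ g)) := by
      rw [hspan]; exact Submodule.mem_top
    refine Submodule.span_induction (p := fun Z _ => L Z ∈ I) ?_ ?_ ?_ ?_ hZ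
    · rintro _ ⟨g, rfl⟩
      rw [hL, hY, ← LinearMap.toMatrix_mul, ← LinearMap.trace_eq_matrix_trace]
      exact h g
    · rw [map_zero]; exact zero_mem _
    · intro x y _ _ hx hy
      rw [map_add]; exact add_mem hx hy
    · intro a x _ hx
      rw [map_smul, smul_eq_mul]; exact Ideal.mul_mem_left _ _ hx
  have hentry : ∀ i j, Y i j ∈ I := by
    intro i j
    have h1 := hLI (Matrix.single j i (1 : A))
    rw [hL, Matrix.trace_mul_single] at h1
    simpa using h1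
  -- `B v = Σ_i (Σ_j Y i j * v_j) b_i`
  have hrepr : ∀ i, b.repr (B v) i = ∑ j, Y i j * b.repr v j := by
    intro i
    have := LinearMap.toMatrix_mulVec_repr b b B v
    rw [← this]
    rfl
  rw [← b.sum_repr (B v)]
  refine Submodule.sum_mem _ fun i _ => ?_
  refine Submodule.smul_mem_smul ?_ Submodule.mem_top
  rw [hrepr i]
  exact I.sum_mem fun j _ => Ideal.mul_mem_right _ _ (hentry i j)

end Fermat.Agent.S32


end ZBS32_002_0

/-! ### bundled: `Fermat.Agent.S32.Key` -/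
section ZBS32_002_1

/-!
# S32-A: the key lemma

`s32_trace_mem` : for every `k` there is `n` such that for every `c ∈ ℤ[G_ℚ]` which kills
`J[pⁿ]` one has `Σ c_g tr ρ(g) ∈ 𝔪ᵏ`.
`s32_key` : for every `k` there is `n` with `AnnProp J p n H.ρ (𝔪ᵏ)`.

Proof of `s32_trace_mem`. Choose `n` for `k` by faithfulness, `F/ℚ` finite Galois containing a
field of definition of `J[pⁿ]`, of `ρ mod 𝔪ᵏ` and `μ_{pⁿ}`, and for every `g` Frobenius data
`g = τ_g ^ {m_g}` on `F` (weak Chebotarev).  With `P_g := s_{m_g}(T_{ℓ_g}, ℓ_g)`: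
`tr ρ(g) ≡ π(P_g) mod 𝔪ᵏ`, and on `J[pⁿ]` the operators `P_g` satisfy the quadratic relation
(`quadRel`).  If `c` kills `J[pⁿ]`, then `D := Σ c_g P_g` satisfies `D · (P_{g₁g₂g₃} - P_{g₂g₁g₃}) = 0`
on `J[pⁿ]` (`s32_D_mul_t_sub`), so `π(D) · π(P_{g₁g₂g₃} - P_{g₂g₁g₃}) ∈ pᵏ T`; for suitable
`g₁, g₂, g₃` the second factor is a unit (`exists_unit_trace`).
-/

set_option autoImplicit false

namespace Fermat.Agent.S32

open ModularCurve Fermat.Agent.ES Fermat.Agent.S31

variable {p : ℕ} {N : ℕ} [NeZero N] {S : Finset ℕ}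
  {𝒪 : Type} [CommRing 𝒪] [IsDomain 𝒪] [IsDiscreteValuationRing 𝒪]
  [IsAdicComplete (IsLocalRing.maximalIdeal 𝒪) 𝒪]
  {θ : CuspForm.heckeAlgebra N 2 (↑S : Set ℕ) →+* IsLocalRing.ResidueField 𝒪}
  {T : Type} [CommRing T] [IsLocalRing T] [IsNoetherianRing T]
  [IsAdicComplete (IsLocalRing.maximalIdeal T) T] [Algebra 𝒪 T] [IsLocalHom (algebraMap 𝒪 T)]
  [Module.Finite 𝒪 T] [Module.Free 𝒪 T]
  {J : Type} [AddCommGroup J] [Module HeckeAlg J] [DistribMulAction GQ J]

/-- **S32-A, trace form.** -/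
theorem s32_trace_mem (hcheb : Cheb.WeakChebotarev) (hJ : ESDataInf N p J)
    (hfaith : ESFaith N p J) (hp : p.Prime)
    (hp𝒪 : (p : 𝒪) ∈ IsLocalRing.maximalIdeal 𝒪) (hpS : p ∈ S)
    (hNS : ∀ q : ℕ, q.Prime → q ∣ N → q ∈ S)
    (H : CuspForm.HeckeGaloisRepDatum N (↑S : Set ℕ) 𝒪 θ T) (k : ℕ) :
    ∃ n : ℕ, ∀ c : GQ →₀ ℤ,
      (∀ x : J, p ^ n • x = 0 → (c.sum fun g z => z • g • x) = 0) →
        (c.sum fun g z => z • LinearMap.trace T H.ρ.V (H.ρ.ρ g)) ∈
          IsLocalRing.maximalIdeal T ^ k := by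
  classical
  rcases Nat.eq_zero_or_pos k with rfl | hkpos
  · refine ⟨0, fun c _ => ?_⟩
    rw [pow_zero, Ideal.one_eq_top]
    exact Submodule.mem_top
  -- the primes outside `S` are good
  have hgoodN : ∀ r : ℕ, r.Prime → r ∉ S → ¬ r ∣ N := fun r hr hrS h => hrS (hNS r hr h)
  have hgood : ∀ r : ℕ, r.Prime → r ∉ S → ¬ r ∣ N * p := by
    intro r hr hrS h
    rcases (Nat.Prime.dvd_mul hr).mp h with h | h
    · exact hrS (hNS r hr h)
    · have : r = p := (Nat.prime_dvd_prime_iff_eq hr hp).mp h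
      exact hrS (this ▸ hpS)
  set Sg : Set Nat.Primes := outsideVars (↑S : Set ℕ) with hSgdef
  have hSg : Sg ⊆ goodPrimes N p := fun r hr => hgood r r.2 hr
  have hSg' : ∀ r ∈ Sg, ¬ (r : ℕ) ∣ N ∧ (r : ℕ) ∉ (↑S : Set ℕ) := fun r hr =>
    ⟨hgoodN r r.2 hr, hr⟩
  obtain ⟨n, hn⟩ := hfaith Sg hSg k
  refine ⟨n, ?_⟩
  -- the fields
  obtain ⟨E, hEfin, hE⟩ := exists_common_field hJ n
  obtain ⟨L, hLfin, hL⟩ := H.ρ.isAdicContinuous k
  have hM0 : p ^ n ≠ 0 := pow_ne_zero n hp.ne_zero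
  have : NeZero ((p ^ n : ℕ) : AlgebraicClosure ℚ) := ⟨Nat.cast_ne_zero.mpr hM0⟩
  obtain ⟨ζ, hζ⟩ := HasEnoughRootsOfUnity.exists_primitiveRoot (AlgebraicClosure ℚ) (p ^ n)
  have hζfin : FiniteDimensional ℚ (IntermediateField.adjoin ℚ {ζ}) :=
    IntermediateField.adjoin.finiteDimensional ((hζ.isIntegral (Nat.pos_of_ne_zero hM0)).tower_top)
  obtain ⟨F, hFfin, hFgal, hEF, hLF, hζF⟩ :=
    exists_galois_hull E L (IntermediateField.adjoin ℚ {ζ})
  have hζF' : ζ ∈ F := hζF (IntermediateField.mem_adjoin_simple_self ℚ ζ)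
  have hF : ∀ σ : GQ, (∀ a ∈ F, σ a = a) → ∀ x : J, p ^ n • x = 0 → σ • x = x :=
    fun σ h => hE σ fun a ha => h a (hEF ha)
  -- Frobenius data for every `g`
  choose ℓ A τ m hℓ hℓS hA hτ hg using fun g : GQ => hcheb F S g
  have hℓS' : ∀ g, ℓ g ∉ (↑S : Set ℕ) := fun g => hℓS g
  have hQ := quadRel hJ hp hζ F hζF' hF ℓ A τ m hℓ (fun g => hgood (ℓ g) (hℓ g) (hℓS g)) hA hτ hg
  -- the Hecke polynomials `P g`
  set P : GQ → HeckeAlg := fun g => lucasS (heckeGen ⟨ℓ g, hℓ g⟩) (ℓ g : HeckeAlg) (m g) with hP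
  have hPsupp : ∀ g, P g ∈ MvPolynomial.supported ℤ Sg := by
    intro g
    refine lucasS_mem_subalgebra _ ?_ (natCast_mem _ (ℓ g)) (m g)
    exact (MvPolynomial.X_mem_supported (R := ℤ)).mpr (hℓS' g)
  -- values in `T`
  have hval : ∀ g, H.π (evalS N (↑S : Set ℕ) (P g)) =
      lucasS (H.π (CuspForm.heckeAlgebra.T (hℓ g) (hgoodN (ℓ g) (hℓ g) (hℓS g)) (hℓS' g)))
        (ℓ g : T) (m g) := by
    intro g
    have := lucasS_map (H.π.comp (evalS N (↑S : Set ℕ)).toRingHom) (heckeGen ⟨ℓ g, hℓ g⟩)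
      (ℓ g : HeckeAlg) (m g)
    simp only [RingHom.comp_apply, AlgHom.toRingHom_eq_coe, RingHom.coe_coe, map_natCast] at this
    rw [hP]
    simp only
    rw [this, evalS_heckeGen (hℓ g) (hgoodN (ℓ g) (hℓ g) (hℓS g)) (hℓS' g)]
  -- the trace congruences
  have htr : ∀ g, LinearMap.trace T H.ρ.V (H.ρ.ρ g) - H.π (evalS N (↑S : Set ℕ) (P g)) ∈
      IsLocalRing.maximalIdeal T ^ k := by
    intro g
    have h1 : LinearMap.trace T H.ρ.V (H.ρ.ρ (τ g ^ m g)) =
        lucasS (H.π (CuspForm.heckeAlgebra.T (hℓ g) (hgoodN (ℓ g) (hℓ g) (hℓS g)) (hℓS' g)))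
          (ℓ g : T) (m g) := by
      rw [map_pow]
      exact trace_pow_eq_lucasS H.ρ.finrank_eq (H.ρ.ρ (τ g)) _ _
        (H.charpoly_frob (ℓ g) (hℓ g) (hgoodN (ℓ g) (hℓ g) (hℓS g)) (hℓS' g) (A g) (hA g)
          (τ g) (hτ g)) (m g)
    have hc1 := trace_congr_of_agree H.ρ k L hL (τ g ^ m g) g fun a ha => hg g a (hLF ha)
    rw [h1, ← hval g] at hc1
    exact hc1
  -- a unit
  obtain ⟨g₁, g₂, g₃, hunit⟩ := exists_unit_trace H.ρ H.residual_absIrr
  set u : HeckeAlg := P (g₁ * g₂ * g₃) - P (g₂ * g₁ * g₃) with hu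
  have hle : IsLocalRing.maximalIdeal T ^ k ≤ IsLocalRing.maximalIdeal T :=
    Ideal.pow_le_self hkpos.ne'
  have huunit : IsUnit (H.π (evalS N (↑S : Set ℕ) u)) := by
    rw [← IsLocalRing.notMem_maximalIdeal]
    intro hmem
    apply hunit
    have e : LinearMap.trace T H.ρ.V (H.ρ.ρ (g₁ * g₂ * g₃)) -
        LinearMap.trace T H.ρ.V (H.ρ.ρ (g₂ * g₁ * g₃)) =
        (LinearMap.trace T H.ρ.V (H.ρ.ρ (g₁ * g₂ * g₃)) -
            H.π (evalS N (↑S : Set ℕ) (P (g₁ * g₂ * g₃)))) -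
          (LinearMap.trace T H.ρ.V (H.ρ.ρ (g₂ * g₁ * g₃)) -
            H.π (evalS N (↑S : Set ℕ) (P (g₂ * g₁ * g₃)))) +
          H.π (evalS N (↑S : Set ℕ) u) := by
      rw [hu, map_sub, map_sub]; ring
    rw [e]
    exact add_mem (sub_mem (hle (htr _)) (hle (htr _))) hmem
  -- the main argument
  intro c hc
  set D : HeckeAlg := c.sum fun g z => z • P g with hD
  have hDsupp : D ∈ MvPolynomial.supported ℤ Sg := by
    rw [hD]
    exact Subalgebra.sum_mem _ fun g _ => Subalgebra.zsmul_mem _ (hPsupp g) _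
  have husupp : u ∈ MvPolynomial.supported ℤ Sg := sub_mem (hPsupp _) (hPsupp _)
  -- `c` kills `J[pⁿ]`, in the endomorphism ring
  have hb : (c.sum fun g z => z • galEnd J p n g) = 0 := by
    ext x
    rw [Finsupp.sum, LinearMap.sum_apply]
    have := hc x x.2
    rw [Finsupp.sum] at this
    simp only [LinearMap.smul_apply, galEnd_apply, LinearMap.zero_apply]
    rw [AddSubmonoidClass.coe_finsetSum]
    simp only [Submodule.coe_smul_of_tower, coe_smul_tors, ZeroMemClass.coe_zero]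
    exact this
  have hkill0 := s32_D_mul_t_sub hQ c hb g₁ g₂ g₃
  -- translate: `heckeEnd (D * u) = 0`
  have hdsum : dSum (fun g => heckeEnd J p n (P g)) c = heckeEnd J p n D := by
    unfold dSum
    rw [hD, Finsupp.sum, Finsupp.sum, map_sum]
    refine Finset.sum_congr rfl fun g _ => ?_
    rw [map_zsmul]
  have hkill1 : heckeEnd J p n (D * u) = 0 := by
    rw [map_mul, hu, map_sub, ← hdsum]
    exact hkill0
  have hDkill : ∀ x : J, p ^ n • x = 0 → (D * u) • x = 0 := by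
    intro x hx
    have := congrArg (fun f : Module.End ℤ ↥(tors J p n) => ((f ⟨x, hx⟩ : ↥(tors J p n)) : J)) hkill1
    rw [mul_smul]
    simpa using this
  obtain ⟨s, hs, hDs⟩ := hn (D * u) (mul_mem hDsupp husupp) hDkill
  -- the image of `D * u` in the Hecke algebra is divisible by `pᵏ`
  have hev : evalS N (↑S : Set ℕ) (D * u) = (p : ℤ) ^ k • evalS N (↑S : Set ℕ) s := by
    apply Subtype.ext
    rw [coe_evalS_eq hSg' (mul_mem hDsupp husupp), hDs]
    have := coe_evalS_eq hSg' hs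
    rw [Subalgebra.coe_smul, Subalgebra.coe_smul, this]
  have hπmem : H.π (evalS N (↑S : Set ℕ) (D * u)) ∈ IsLocalRing.maximalIdeal T ^ k := by
    rw [hev, map_zsmul, zsmul_eq_mul, Int.cast_pow, Int.cast_natCast]
    exact Ideal.mul_mem_right _ _ (Ideal.pow_mem_pow (natCast_mem_maximalIdeal hp𝒪) k)
  have hπD : H.π (evalS N (↑S : Set ℕ) D) ∈ IsLocalRing.maximalIdeal T ^ k := by
    rw [map_mul, map_mul] at hπmem
    exact (Ideal.unit_mul_mem_iff_mem _ huunit).mp (by rwa [mul_comm] at hπmem)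
  -- conclusion
  have hsum : (c.sum fun g z => z • LinearMap.trace T H.ρ.V (H.ρ.ρ g)) =
      (c.sum fun g z => z • (LinearMap.trace T H.ρ.V (H.ρ.ρ g) -
        H.π (evalS N (↑S : Set ℕ) (P g)))) + H.π (evalS N (↑S : Set ℕ) D) := by
    rw [hD, Finsupp.sum, Finsupp.sum, Finsupp.sum, map_sum, map_sum, ← Finset.sum_add_distrib]
    refine Finset.sum_congr rfl fun g _ => ?_
    rw [map_zsmul, map_zsmul, smul_sub, sub_add_cancel]
  rw [hsum]
  refine add_mem ?_ hπD
  rw [Finsupp.sum]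
  exact Ideal.sum_mem _ fun g _ => by
    rw [zsmul_eq_mul]
    exact Ideal.mul_mem_left _ _ (htr g)

/-- **S32-A.** For every `k` there is `n` such that every element of `ℤ[G_ℚ]` which kills `J[pⁿ]`
maps `V` into `𝔪ᵏ V`. -/
theorem s32_key (hcheb : Cheb.WeakChebotarev) (hJ : ESDataInf N p J)
    (hfaith : ESFaith N p J) (hp : p.Prime)
    (hp𝒪 : (p : 𝒪) ∈ IsLocalRing.maximalIdeal 𝒪) (hpS : p ∈ S)
    (hNS : ∀ q : ℕ, q.Prime → q ∣ N → q ∈ S)
    (H : CuspForm.HeckeGaloisRepDatum N (↑S : Set ℕ) 𝒪 θ T) (k : ℕ) :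
    ∃ n : ℕ, AnnProp J p n H.ρ (IsLocalRing.maximalIdeal T ^ k) := by
  classical
  obtain ⟨n, hn⟩ := s32_trace_mem hcheb hJ hfaith hp hp𝒪 hpS hNS H k
  refine ⟨n, fun c hc v => ?_⟩
  set B : Module.End T H.ρ.V := c.sum fun g z => z • H.ρ.ρ g with hB
  have hBv : (c.sum fun g z => z • H.ρ.ρ g v) = B v := by
    rw [hB, Finsupp.sum, Finsupp.sum, LinearMap.sum_apply]
    refine Finset.sum_congr rfl fun g _ => ?_
    rw [LinearMap.smul_apply]
  rw [hBv]
  apply end_mem_smul_top_of_trace H.ρ H.residual_absIrr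
  intro g₀
  -- the shifted element `c · g₀`
  set c' : GQ →₀ ℤ := Finsupp.mapDomain (fun g => g * g₀) c with hc'
  have hsum : ∀ {M : Type} [AddCommGroup M] (f : GQ → M),
      (c'.sum fun g z => z • f g) = c.sum fun g z => z • f (g * g₀) := by
    intro M _ f
    rw [hc']
    exact Finsupp.sum_mapDomain_index (fun _ => zero_smul _ _) (fun _ _ _ => add_smul _ _ _)
  have hc'kill : ∀ x : J, p ^ n • x = 0 → (c'.sum fun g z => z • g • x) = 0 := by
    intro x hx
    rw [hsum fun g => g • x]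
    have := hc (g₀ • x) (torsion_smul n g₀ hx)
    simpa only [mul_smul] using this
  have h1 := hn c' hc'kill
  rw [hsum fun g => LinearMap.trace T H.ρ.V (H.ρ.ρ g)] at h1
  have h2 : LinearMap.trace T H.ρ.V (B * H.ρ.ρ g₀) =
      c.sum fun g z => z • LinearMap.trace T H.ρ.V (H.ρ.ρ (g * g₀)) := by
    rw [hB, Finsupp.sum, Finsupp.sum, Finset.sum_mul, map_sum]
    refine Finset.sum_congr rfl fun g _ => ?_
    rw [smul_mul_assoc, map_zsmul, (H.ρ.ρ).map_mul]
  rw [h2]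
  exact h1

end Fermat.Agent.S32


end ZBS32_002_1

/-! ### bundled: `Fermat.Agent.S32.Final` -/
section ZBS32_002_2

/-!
# S32-D: the frozen statement S32 from the pieces

`s32_isFlatAt_of_pkg` : weak Chebotarev + `StmtSubquot` (S32-B) + `S32Pkg N p` give
`H.ρ.IsFlatAt p` for every Hecke–Galois datum `H` of level `N` away from `S ∋ p`.

Proof. `Finite (ResidueField T)` by `H.residue_surjective`.  For `I` with `T ⧸ I` finite choose
`k` with `𝔪ᵏ ≤ I` (`exists_pow_le_of_finite_quotient`), `n` for `k` by the key lemma `s32_key`;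
then every element of `ℤ[G_ℚ]` which kills `J[pⁿ]` kills `V ⧸ I V`, and `StmtSubquot` transports the
finite flat model of `J[pⁿ]` to `V ⧸ I V`.
-/

set_option autoImplicit false
set_option linter.style.haveILetI false

namespace Fermat.Agent.S32

open ModularCurve Fermat.Agent.ES Fermat.Agent.S31 Fermat.Agent.W1

section local_algebra

variable {T : Type} [CommRing T] [IsLocalRing T] [IsNoetherianRing T]

/-- an ideal of finite index of a noetherian local ring contains a power of the maximal ideal -/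
theorem exists_pow_le_of_finite_quotient (I : Ideal T) [Finite (T ⧸ I)] :
    ∃ k : ℕ, IsLocalRing.maximalIdeal T ^ k ≤ I := by
  apply Ideal.exists_pow_le_of_le_radical_of_fg _ (IsNoetherian.noetherian _)
  rw [Ideal.radical_eq_sInf]
  refine le_sInf ?_
  rintro P ⟨hIP, hP⟩
  haveI := hP
  have hfin : Finite (T ⧸ P) :=
    Finite.of_surjective _ (Ideal.Quotient.factor_surjective hIP)
  have hfield : IsField (T ⧸ P) := Finite.isField_of_domain (T ⧸ P)
  have hmax : P.IsMaximal := Ideal.Quotient.maximal_of_isField P hfield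
  rw [IsLocalRing.eq_maximalIdeal hmax]

end local_algebra

section level

variable {A : Type} [CommRing A] [IsLocalRing A] (ρ : GaloisRepAdic A) (I : Ideal A)

theorem levelAction_mk (σ : GQ) (v : ρ.V) :
    ρ.levelAction I σ (Submodule.Quotient.mk v) = Submodule.Quotient.mk (ρ.ρ σ v) := rfl

theorem levelAction_mul (σ τ : GQ) (y : ρ.V ⧸ (I • (⊤ : Submodule A ρ.V))) :
    ρ.levelAction I (σ * τ) y = ρ.levelAction I σ (ρ.levelAction I τ y) := by
  obtain ⟨v, rfl⟩ := Submodule.Quotient.mk_surjective _ y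
  rw [levelAction_mk, levelAction_mk, levelAction_mk, map_mul, Module.End.mul_apply]

theorem levelAction_one (y : ρ.V ⧸ (I • (⊤ : Submodule A ρ.V))) :
    ρ.levelAction I 1 y = y := by
  obtain ⟨v, rfl⟩ := Submodule.Quotient.mk_surjective _ y
  rw [levelAction_mk, map_one, Module.End.one_apply]

end level

variable {p : ℕ} {N : ℕ} [NeZero N] {S : Finset ℕ}
  {𝒪 : Type} [CommRing 𝒪] [IsDomain 𝒪] [IsDiscreteValuationRing 𝒪]
  [IsAdicComplete (IsLocalRing.maximalIdeal 𝒪) 𝒪]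
  {θ : CuspForm.heckeAlgebra N 2 (↑S : Set ℕ) →+* IsLocalRing.ResidueField 𝒪}
  {T : Type} [CommRing T] [IsLocalRing T] [IsNoetherianRing T]
  [IsAdicComplete (IsLocalRing.maximalIdeal T) T] [Algebra 𝒪 T] [IsLocalHom (algebraMap 𝒪 T)]
  [Module.Finite 𝒪 T] [Module.Free 𝒪 T]

/-- the residue field of `T` is finite -/
theorem finite_residueField [Finite (IsLocalRing.ResidueField 𝒪)]
    (H : CuspForm.HeckeGaloisRepDatum N (↑S : Set ℕ) 𝒪 θ T) :
    Finite (IsLocalRing.ResidueField T) := by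
  have hsurj : Function.Surjective (IsLocalRing.ResidueField.map (algebraMap 𝒪 T)) := by
    intro y
    obtain ⟨a, ha⟩ := H.residue_surjective y
    exact ⟨IsLocalRing.residue 𝒪 a, ha⟩
  exact Finite.of_surjective _ hsurj

/-- **S32-D.** The frozen statement S32 from weak Chebotarev, the sub-quotient lemma and the
package `S32Pkg N p`. -/
theorem s32_isFlatAt_of_pkg (hcheb : Cheb.WeakChebotarev) (hsub : StmtSubquot)
    (hpkg : S32Pkg N p) [Finite (IsLocalRing.ResidueField 𝒪)]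
    (hp : p.Prime) (hp𝒪 : (p : 𝒪) ∈ IsLocalRing.maximalIdeal 𝒪)
    (hpS : p ∈ S) (hNS : ∀ q : ℕ, q.Prime → q ∣ N → q ∈ S)
    (H : CuspForm.HeckeGaloisRepDatum N (↑S : Set ℕ) 𝒪 θ T) :
    H.ρ.IsFlatAt p := by
  classical
  haveI : Fact p.Prime := ⟨hp⟩
  obtain ⟨J, _, _, _, hJ, hfaith, hmodel⟩ := hpkg
  rw [sq_isFlatAt_iff]
  refine ⟨finite_residueField H, fun I hI => ?_⟩
  haveI := hI
  obtain ⟨k, hk⟩ := exists_pow_le_of_finite_quotient I
  obtain ⟨n, hn⟩ := s32_key hcheb hJ hfaith hp hp𝒪 hpS hNS H k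
  -- finiteness
  haveI hfinX : Finite ↥(tors J p n) := (hJ.finite n).to_subtype
  haveI hfinY : Finite (H.ρ.V ⧸ (I • (⊤ : Submodule T H.ρ.V))) := by
    have : Module.Finite (T ⧸ I) (H.ρ.V ⧸ (I • (⊤ : Submodule T H.ρ.V))) :=
      Module.Finite.of_restrictScalars_finite T _ _
    exact Module.finite_of_finite (T ⧸ I)
  refine hsub (GaloisRep.ratLocalizedAt p) inferInstance inferInstance
    ↥(tors J p n) inferInstance hfinX (torsAction J p n)
    (H.ρ.V ⧸ (I • (⊤ : Submodule T H.ρ.V))) inferInstance hfinY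
    (fun σ => H.ρ.levelAction I σ) ?_ ?_ ?_ ?_ ?_ ?_ (hmodel n)
  · intro σ x x'
    exact smul_add σ x x'
  · intro σ τ x
    exact mul_smul σ τ x
  · intro σ y y'
    exact map_add _ y y'
  · intro σ τ y
    exact levelAction_mul H.ρ I σ τ y
  · intro y
    exact levelAction_one H.ρ I y
  · intro c hc y
    obtain ⟨v, rfl⟩ := Submodule.Quotient.mk_surjective _ y
    have hc' : ∀ x : J, p ^ n • x = 0 → (c.sum fun g z => z • g • x) = 0 := by
      intro x hx
      have := congrArg (fun t : ↥(tors J p n) => (t : J)) (hc ⟨x, hx⟩)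
      simp only [torsAction, Finsupp.sum, AddSubmonoidClass.coe_finsetSum,
        Submodule.coe_smul_of_tower, coe_smul_tors, ZeroMemClass.coe_zero] at this
      exact this
    have hmem := hn c hc' v
    have hmem' : (c.sum fun g z => z • H.ρ.ρ g v) ∈ I • (⊤ : Submodule T H.ρ.V) :=
      Submodule.smul_mono_left hk hmem
    have e : (c.sum fun g z => z • H.ρ.levelAction I g (Submodule.Quotient.mk v)) =
        (I • (⊤ : Submodule T H.ρ.V)).mkQ (c.sum fun g z => z • H.ρ.ρ g v) := by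
      rw [Finsupp.sum, Finsupp.sum, map_sum]
      refine Finset.sum_congr rfl fun g _ => ?_
      rw [map_zsmul]
      rfl
    rw [e, Submodule.mkQ_apply]
    exact (Submodule.Quotient.mk_eq_zero _).mpr hmem'

end Fermat.Agent.S32


end ZBS32_002_2
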