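/- GENERATED FILE (helper35, build-time optimisation, NOTES/ZB.md): verbatim concatenation of the modules
   Fermat.Agent.S32.Transport
   Fermat.Agent.S32.Frozen
   Do not edit; do not import together with these modules. -/
import Fermat.Agent.ZB.S32_001
import Fermat.Agent.ZB.ES_035
import Fermat.Agent.ZB.ES_012
import Fermat.Agent.ZB.S28_005
import Fermat.Agent.ZB.Z4S32_001
import Fermat.Agent.ZB.S32_003
import Fermat.Agent.ZB.INJ_034
import Fermat.Agent.ZB.Cheb_002
import Fermat.Agent.ZB.Z2W1_001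

/-! ### bundled: `Fermat.Agent.S32.Transport` -/
section ZBZ4S32_002_0

/-!
# S32-C: transport of the finite flat models from `J₀(N)[pᵏ]` to the `pⁿ`-torsion of `PDiv N p`

`PDiv N p ⊂ JZero N` is the `p`-divisible part of the `p`-power torsion (the module of the faithful
Eichler–Shimura package).  Its `pⁿ`-torsion embeds `G_ℚ`-equivariantly into
`torsionBy ℤ (JZero N) (pⁿ)`, which is finite (`ES.jFinite_of_torsionUnif`); so a finite flat model
of the latter gives one of the former (`W1.hasFiniteFlatModel_of_injective`).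
-/

set_option autoImplicit false

namespace Fermat.Agent.S32

open ModularCurve Fermat.Agent.ES Fermat.Agent.S31 Fermat.Agent.W1

/-- `J₀(N)[pᵏ]` is finite. -/
theorem s32c_finite (N p : ℕ) [NeZero N] (hp : p.Prime) (k : ℕ) :
    Finite ↥(Submodule.torsionBy ℤ (JZero N) ((p : ℤ) ^ k)) := by
  have h : JFinite N (p ^ k) :=
    jFinite_of_torsionUnif (pow_ne_zero k hp.ne_zero)
      (torsionUnif_proved N (p ^ k) (pow_pos hp.pos k))
  have hset : ((Submodule.torsionBy ℤ (JZero N) ((p : ℤ) ^ k) : Submodule ℤ (JZero N)) :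
      Set (JZero N)) = {x : JZero N | (p ^ k) • x = 0} := by
    ext x
    rw [SetLike.mem_coe, Submodule.mem_torsionBy_iff, Set.mem_setOf_eq]
    have e : ((p : ℤ) ^ k) • x = (p ^ k) • x := by
      rw [← natCast_zsmul]
      push_cast
      rfl
    rw [e]
  have hfin : ((Submodule.torsionBy ℤ (JZero N) ((p : ℤ) ^ k) : Submodule ℤ (JZero N)) :
      Set (JZero N)).Finite := by
    rw [hset]
    exact h
  exact hfin.to_subtype

/-- **S32-C**. -/
theorem stmtTransport : StmtTransport := by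
  intro N p _ hp hM
  letI := pDivModule N p
  letI := pDivGalois N p
  intro n
  haveI : Fact p.Prime := ⟨hp⟩
  haveI := Fermat.Agent.S28.ratLoc_isFractionRing p
  haveI := Fermat.Agent.W1.ratLoc_isPrincipalIdealRing p
  haveI : Finite ↥(Submodule.torsionBy ℤ (JZero N) ((p : ℤ) ^ n)) := s32c_finite N p hp n
  -- the inclusion
  let ι : ↥(tors (PDiv N p) p n) →+ ↥(Submodule.torsionBy ℤ (JZero N) ((p : ℤ) ^ n)) :=
    { toFun := fun x => ⟨((x : PDiv N p) : JZero N), by
        rw [Submodule.mem_torsionBy_iff]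
        have hx : p ^ n • (x : PDiv N p) = 0 := x.2
        have hx' : (p ^ n) • ((x : PDiv N p) : JZero N) = 0 := by
          rw [← AddSubgroup.coe_nsmul, hx]
          rfl
        have e : ((p : ℤ) ^ n) • ((x : PDiv N p) : JZero N)
            = (p ^ n) • ((x : PDiv N p) : JZero N) := by
          rw [← natCast_zsmul]
          push_cast
          rfl
        rw [e, hx']⟩
      map_zero' := rfl
      map_add' := fun x y => rfl }
  refine hasFiniteFlatModel_of_injective (hM n) ι ?_ ?_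
  · intro x y hxy
    have h1 : ((x : PDiv N p) : JZero N) = ((y : PDiv N p) : JZero N) :=
      congrArg (fun z : ↥(Submodule.torsionBy ℤ (JZero N) ((p : ℤ) ^ n)) => (z : JZero N)) hxy
    exact Subtype.ext (Subtype.ext h1)
  · intro σ x
    rfl

end Fermat.Agent.S32


end ZBZ4S32_002_0

/-! ### bundled: `Fermat.Agent.S32.Frozen` -/
section ZBZ4S32_002_1

/-!
# S32 from the two open pieces of S19

`s32_of_s19pieces : W1.StmtModPRS19 → W1.StmtLevelUpS19 → (frozen S32)`.
All other inputs of `s32_of_inputs` are on main: weak Chebotarev, `stmtSubquot` (S32-B, helper9),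
`stmtTransport` (S32-C, helper73), `INJ.injAll_stmtINJAll`, `ES.torsionUnif_proved`.
-/

set_option autoImplicit false

namespace Fermat.Agent.S32

variable {p : ℕ} {N : ℕ} [NeZero N] {S : Finset ℕ}
  {𝒪 : Type} [CommRing 𝒪] [IsDomain 𝒪] [IsDiscreteValuationRing 𝒪]
  [IsAdicComplete (IsLocalRing.maximalIdeal 𝒪) 𝒪]
  {θ : CuspForm.heckeAlgebra N 2 (↑S : Set ℕ) →+* IsLocalRing.ResidueField 𝒪}
  {T : Type} [CommRing T] [IsLocalRing T] [IsNoetherianRing T]
  [IsAdicComplete (IsLocalRing.maximalIdeal T) T] [Algebra 𝒪 T] [IsLocalHom (algebraMap 𝒪 T)]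
  [Module.Finite 𝒪 T] [Module.Free 𝒪 T]

/-- **S32 from the conclusions of S19** (all other inputs are proved). -/
theorem s32_of_s19 
    (hS19 : ∀ (N p : ℕ) [NeZero N] [Fact p.Prime], ¬ p ∣ N → ∀ k : ℕ,
      Fermat.Agent.W1.S19Conclusion N p k)
    [Finite (IsLocalRing.ResidueField 𝒪)]
    (hp : p.Prime) (hp𝒪 : (p : 𝒪) ∈ IsLocalRing.maximalIdeal 𝒪) (hpN : ¬ p ∣ N)
    (hpS : p ∈ S) (hNS : ∀ q : ℕ, q.Prime → q ∣ N → q ∈ S)
    (H : CuspForm.HeckeGaloisRepDatum N (↑S : Set ℕ) 𝒪 θ T) :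
    H.ρ.IsFlatAt p :=
  s32_of_inputs Fermat.Agent.Cheb.weakChebotarev_holds stmtSubquot stmtTransport
    Fermat.Agent.INJ.injAll_stmtINJAll
    (fun N p _ hp => Fermat.Agent.ES.torsionUnif_proved N p hp.pos)
    hS19 hp hp𝒪 hpN hpS hNS H

/-- **S32 from the two open pieces of S19** (GEO-PR at the S19 levels and GEO-LVL). -/
theorem s32_of_s19pieces (hPR : Fermat.Agent.W1.StmtModPRS19)
    (hLvl : Fermat.Agent.W1.StmtLevelUpS19)
    [Finite (IsLocalRing.ResidueField 𝒪)]
    (hp : p.Prime) (hp𝒪 : (p : 𝒪) ∈ IsLocalRing.maximalIdeal 𝒪) (hpN : ¬ p ∣ N)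
    (hpS : p ∈ S) (hNS : ∀ q : ℕ, q.Prime → q ∣ N → q ∈ S)
    (H : CuspForm.HeckeGaloisRepDatum N (↑S : Set ℕ) 𝒪 θ T) :
    H.ρ.IsFlatAt p :=
  s32_of_s19 (fun N p _ _ h k => Fermat.Agent.W1.s19f_final hPR hLvl N p h k)
    hp hp𝒪 hpN hpS hNS H

end Fermat.Agent.S32


end ZBZ4S32_002_1
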