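/- GENERATED FILE (helper35, build-time optimisation, NOTES/ZB.md): verbatim concatenation of the modules
   Fermat.Agent.S33.Count
   Do not edit; do not import together with these modules. -/
import Fermat.Agent.ZB.S33_002
import Fermat.Agent.ZB.S33_001
import Fermat.Prelude.Def_GaloisRep_Flat

/-! ### bundled: `Fermat.Agent.S33.Count` -/
section ZBS33_008_0

/-!
# S33, route v2, block A2: `NTS` at every finite level gives "ordinary"

`ρ : GaloisRepAdic A`, `A` a noetherian local ring, `P` a place over `p`, `L = inertiaSpan ρ P`.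

* `levelSpan ρ P J` : the image of `L` in `V / J V` (as an additive subgroup).
* `NTSAt ρ P J` : `NTS` for `levelSpan ρ P J` under the inertia group of `P`
  (action `ρ.levelAction J`).
* `faithful_of_nts` : if `NTSAt ρ P (𝔪 ^ n)` for all `n` and the image of `L` in the residual
  representation lies on the line spanned by the first vector of a basis, then `V / L` is a
  faithful `A`-module.
  Proof. `c V ⊆ L` ⇒ `B := image of c V` is an `I`-stable subgroup of `levelSpan`, so
  `B = 𝔄 B = image of c L`, i.e. `c V ⊆ c L + 𝔪ⁿ V` for all `n`; by Krull `c V ⊆ c L`; then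
  `c (v₁ − ℓ) = 0` with `v₁ − ℓ ∉ 𝔪 V`, and `V` is free: `c = 0`.
* `isOrdinaryAt_of_faithful`, `isOrdinaryAt_of_nts` : the prelude's `IsOrdinaryAt` from these.
-/

set_option autoImplicit false

namespace Fermat.Agent.S33

open scoped TensorProduct

variable {A : Type} [CommRing A] [IsLocalRing A]

/-- the image of the inertia span in `V / J V` -/
def levelSpan (ρ : GaloisRepAdic A) (P : ValuationSubring (AlgebraicClosure ℚ)) (J : Ideal A) :
    AddSubgroup (ρ.V ⧸ (J • (⊤ : Submodule A ρ.V))) :=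
  ((inertiaSpan ρ P).map (Submodule.mkQ (J • (⊤ : Submodule A ρ.V)))).toAddSubgroup

/-- `NTS` for the image of the inertia span in `V / J V` -/
def NTSAt (ρ : GaloisRepAdic A) (P : ValuationSubring (AlgebraicClosure ℚ)) (J : Ideal A) :
    Prop :=
  NTS (P.inertiaSubgroupIn ℚ) (fun σ => ρ.levelAction J σ) (levelSpan ρ P J)

theorem levelAction_mkQ (ρ : GaloisRepAdic A) (J : Ideal A)
    (σ : AlgebraicClosure ℚ ≃ₐ[ℚ] AlgebraicClosure ℚ) (v : ρ.V) :
    ρ.levelAction J σ (Submodule.mkQ (J • (⊤ : Submodule A ρ.V)) v) =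
      Submodule.mkQ (J • (⊤ : Submodule A ρ.V)) (ρ.ρ σ v) := rfl

/-- an element of a free module over a local ring which is nonzero in the residual module is
not killed by any nonzero scalar -/
theorem eq_zero_of_smul_eq_zero_of_residue_ne_zero {V : Type*} [AddCommGroup V] [Module A V]
    [Module.Free A V] {w : V}
    (hw : (1 : IsLocalRing.ResidueField A) ⊗ₜ[A] w ≠ 0) {c : A} (hc : c • w = 0) : c = 0 := by
  classical
  let b := Module.Free.chooseBasis A V
  by_contra hc0
  apply hw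
  -- all coordinates of `w` are non-units
  have hcoord : ∀ i, b.repr w i ∈ IsLocalRing.maximalIdeal A := by
    intro i
    by_contra hi
    have hu : IsUnit (b.repr w i) := by
      rwa [IsLocalRing.mem_maximalIdeal, mem_nonunits_iff, not_not] at hi
    have h1 : b.repr (c • w) i = 0 := by rw [hc, map_zero]; rfl
    rw [map_smul, Finsupp.smul_apply, smul_eq_mul] at h1
    exact hc0 (hu.mul_left_eq_zero.mp h1)
  rw [← b.linearCombination_repr w, Finsupp.linearCombination_apply, Finsupp.sum,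
    TensorProduct.tmul_sum]
  refine Finset.sum_eq_zero fun i _ => ?_
  have hres0 : algebraMap A (IsLocalRing.ResidueField A) (b.repr w i) = 0 := by
    rw [IsLocalRing.ResidueField.algebraMap_eq]
    exact (IsLocalRing.residue_eq_zero_iff _).mpr (hcoord i)
  have h1 : (1 : IsLocalRing.ResidueField A) ⊗ₜ[A] (b.repr w i • b i) =
      (algebraMap A (IsLocalRing.ResidueField A) (b.repr w i)) ⊗ₜ[A] b i := by
    rw [← TensorProduct.smul_tmul, Algebra.smul_def, mul_one]
  rw [h1, hres0, TensorProduct.zero_tmul]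

/-- Krull: a submodule of a finitely generated module over a noetherian local ring is closed -/
theorem mem_of_forall_exists_sub_mem_smul [IsNoetherianRing A] {V : Type*} [AddCommGroup V]
    [Module A V] [Module.Finite A V] (N : Submodule A V) (x : V)
    (h : ∀ n : ℕ, ∃ y ∈ N, x - y ∈ (IsLocalRing.maximalIdeal A ^ n) • (⊤ : Submodule A V)) :
    x ∈ N := by
  have hbot := Ideal.iInf_pow_smul_eq_bot_of_isLocalRing (M := V ⧸ N)
    (IsLocalRing.maximalIdeal A) (IsLocalRing.maximalIdeal.isMaximal A).ne_top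
  have hx : N.mkQ x ∈ ⨅ i : ℕ, (IsLocalRing.maximalIdeal A ^ i) • (⊤ : Submodule A (V ⧸ N)) := by
    rw [Submodule.mem_iInf]
    intro n
    obtain ⟨y, hy, hxy⟩ := h n
    have hy0 : N.mkQ y = 0 := (Submodule.Quotient.mk_eq_zero N).mpr hy
    have h1 : N.mkQ x = N.mkQ (x - y) := by
      rw [map_sub, hy0, sub_zero]
    rw [h1]
    have h2 : N.mkQ (x - y) ∈
        ((IsLocalRing.maximalIdeal A ^ n) • (⊤ : Submodule A V)).map N.mkQ :=
      Submodule.mem_map_of_mem hxy
    rw [Submodule.map_smul''] at h2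
    exact Submodule.smul_mono le_rfl le_top h2
  rw [hbot, Submodule.mem_bot] at hx
  exact (Submodule.Quotient.mk_eq_zero N).mp hx

/-- **`V / L` is faithful** as soon as `L` has no trivial sub-quotient at any finite level and
its image in the residual representation lies on a line. -/
theorem faithful_of_nts [IsNoetherianRing A] (ρ : GaloisRepAdic A)
    (P : ValuationSubring (AlgebraicClosure ℚ))
    (bbar : Module.Basis (Fin 2) (IsLocalRing.ResidueField A)
      (IsLocalRing.ResidueField A ⊗[A] ρ.V))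
    (hM : ∀ m ∈ inertiaSpan ρ P, (1 : IsLocalRing.ResidueField A) ⊗ₜ[A] m ∈
      Submodule.span (IsLocalRing.ResidueField A) {bbar 0})
    (hnts : ∀ n : ℕ, NTSAt ρ P (IsLocalRing.maximalIdeal A ^ n))
    (c : A) (hc : ∀ v : ρ.V, c • v ∈ inertiaSpan ρ P) : c = 0 := by
  classical
  set L := inertiaSpan ρ P with hL
  -- the submodule `c L`
  set cL : Submodule A ρ.V := L.map (LinearMap.lsmul A ρ.V c) with hcL
  -- Step 1: `c V ⊆ c L + 𝔪ⁿ V` for all `n`
  have step1 : ∀ (n : ℕ) (v : ρ.V), ∃ y ∈ cL,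
      c • v - y ∈ (IsLocalRing.maximalIdeal A ^ n) • (⊤ : Submodule A ρ.V) := by
    intro n v
    set J := IsLocalRing.maximalIdeal A ^ n with hJ
    set q := Submodule.mkQ (J • (⊤ : Submodule A ρ.V)) with hq
    -- the subgroup `B`, image of `c V`
    let φ : ρ.V →+ (ρ.V ⧸ (J • (⊤ : Submodule A ρ.V))) :=
      (q.comp (LinearMap.lsmul A ρ.V c)).toAddMonoidHom
    have hφ : ∀ w, φ w = q (c • w) := fun _ => rfl
    set B : AddSubgroup (ρ.V ⧸ (J • (⊤ : Submodule A ρ.V))) := (⊤ : AddSubgroup ρ.V).map φ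
      with hB
    have hBle : B ≤ levelSpan ρ P J := by
      rintro _ ⟨w, -, rfl⟩
      exact ⟨c • w, hc w, rfl⟩
    have hBst : ntsStable (P.inertiaSubgroupIn ℚ) (fun σ => ρ.levelAction J σ) B := by
      rintro σ - _ ⟨w, -, rfl⟩
      refine ⟨ρ.ρ σ w, trivial, ?_⟩
      rw [hφ, hφ]
      change q (c • ρ.ρ σ w) = ρ.levelAction J σ (q (c • w))
      rw [levelAction_mkQ, map_smul (ρ.ρ σ)]
    have h1 := hnts n B hBle hBst
    -- the inertia span of `B` is in the image of `c L`
    have h2 : ntsSpan (P.inertiaSubgroupIn ℚ) (fun σ => ρ.levelAction J σ) B ≤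
        (cL.map q).toAddSubgroup := by
      rw [ntsSpan, AddSubgroup.closure_le]
      rintro _ ⟨σ, hσ, _, ⟨w, -, rfl⟩, rfl⟩
      refine ⟨c • (ρ.ρ σ w - w), ⟨ρ.ρ σ w - w, sub_mem_inertiaSpan ρ P hσ w, rfl⟩, ?_⟩
      rw [hφ]
      change q (c • (ρ.ρ σ w - w)) = ρ.levelAction J σ (q (c • w)) - q (c • w)
      rw [levelAction_mkQ, map_smul (ρ.ρ σ), ← map_sub, smul_sub]
    have h3 : q (c • v) ∈ (cL.map q).toAddSubgroup := h2 (h1 ⟨v, trivial, rfl⟩)
    obtain ⟨y, hy, hyq⟩ := h3
    refine ⟨y, hy, ?_⟩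
    have : q (c • v - y) = 0 := by rw [map_sub, hyq, sub_self]
    rw [hq, Submodule.mkQ_apply, Submodule.Quotient.mk_eq_zero] at this
    exact this
  -- Step 2: `c V ⊆ c L` (Krull)
  have step2 : ∀ v : ρ.V, c • v ∈ cL := fun v =>
    mem_of_forall_exists_sub_mem_smul cL (c • v) fun n => step1 n v
  -- Step 3: a vector `v₁` lifting `b̄₁`
  have hsurj : Function.Surjective
      (TensorProduct.mk A (IsLocalRing.ResidueField A) ρ.V 1) :=
    TensorProduct.mk_surjective A ρ.V (IsLocalRing.ResidueField A)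
      Ideal.Quotient.mk_surjective
  obtain ⟨v₁, hv₁⟩ := hsurj (bbar 1)
  rw [TensorProduct.mk_apply] at hv₁
  obtain ⟨ℓ, hℓ, hℓv⟩ := step2 v₁
  have hℓv' : c • ℓ = c • v₁ := hℓv
  have hw : (1 : IsLocalRing.ResidueField A) ⊗ₜ[A] (v₁ - ℓ) ≠ 0 := by
    intro h0
    rw [TensorProduct.tmul_sub, sub_eq_zero, hv₁] at h0
    have hmem := hM ℓ hℓ
    rw [← h0, Submodule.mem_span_singleton] at hmem
    obtain ⟨a, ha⟩ := hmem
    -- `b̄₁ = a b̄₀` contradicts linear independence
    have hli := bbar.linearIndependent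
    have h01 : (0 : Fin 2) ≠ 1 := by decide
    have := hli.ne_zero (1 : Fin 2)
    have hrepr : bbar.repr (bbar 1) 1 = 1 := by simp
    rw [← ha, map_smul, Finsupp.smul_apply, Module.Basis.repr_self,
      Finsupp.single_eq_of_ne (by decide), smul_zero] at hrepr
    exact zero_ne_one hrepr
  refine eq_zero_of_smul_eq_zero_of_residue_ne_zero hw ?_
  rw [smul_sub, hℓv', sub_self]

/-- **Step (A) of S33, abstract form**: `IsOrdinaryAt` from the residual hypothesis and the
faithfulness of `V / inertiaSpan`. -/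
theorem isOrdinaryAt_of_faithful (ρ : GaloisRepAdic A) (p : ℕ)
    (hne : ∀ P : ValuationSubring (AlgebraicClosure ℚ), P.LiesOverPrime p →
      ∃ σ ∈ P.inertiaSubgroupIn ℚ, ρ.residual.ρ σ ≠ 1)
    (hres : (GaloisRepAdic.ofResidualGaloisRep ρ.residual).IsOrdinaryAt p)
    (hf : ∀ P : ValuationSubring (AlgebraicClosure ℚ), P.LiesOverPrime p →
      ∀ bbar : Module.Basis (Fin 2) (IsLocalRing.ResidueField A)
        (IsLocalRing.ResidueField A ⊗[A] ρ.V),
      (∀ m ∈ inertiaSpan ρ P, (1 : IsLocalRing.ResidueField A) ⊗ₜ[A] m ∈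
        Submodule.span (IsLocalRing.ResidueField A) {bbar 0}) →
      ∀ c : A, (∀ v : ρ.V, c • v ∈ inertiaSpan ρ P) → c = 0) :
    ρ.IsOrdinaryAt p := by
  intro P hP
  have hres' : ∃ bbar : Module.Basis (Fin 2) (IsLocalRing.ResidueField A)
      (IsLocalRing.ResidueField A ⊗[A] ρ.V),
      ∀ σ ∈ P.inertiaSubgroupIn ℚ, ∀ w : IsLocalRing.ResidueField A ⊗[A] ρ.V,
        (ρ.ρ σ).baseChange (IsLocalRing.ResidueField A) w - w ∈
          Submodule.span (IsLocalRing.ResidueField A) {bbar 0} := by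
    obtain ⟨Lbar, ⟨bbar, hLbar⟩, -, hI⟩ := hres P hP
    exact ⟨bbar, fun σ hσ w => hLbar ▸ hI σ hσ w⟩
  obtain ⟨bbar, hI⟩ := hres'
  have hne' : ∃ σ₀ ∈ P.inertiaSubgroupIn ℚ,
      (ρ.ρ σ₀).baseChange (IsLocalRing.ResidueField A) ≠ LinearMap.id := by
    obtain ⟨σ₀, hσ₀, hσ₀ne⟩ := hne P hP
    exact ⟨σ₀, hσ₀, hσ₀ne⟩
  obtain ⟨σ₀, hσ₀, hσ₀ne⟩ := hne'
  have hsurj : Function.Surjective
      (TensorProduct.mk A (IsLocalRing.ResidueField A) ρ.V 1) :=
    TensorProduct.mk_surjective A ρ.V (IsLocalRing.ResidueField A)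
      Ideal.Quotient.mk_surjective
  have hex : ∃ v₀ : ρ.V, (1 : IsLocalRing.ResidueField A) ⊗ₜ[A] (ρ.ρ σ₀ v₀ - v₀) ≠ 0 := by
    by_contra hcon
    push Not at hcon
    apply hσ₀ne
    refine LinearMap.ext fun w => ?_
    obtain ⟨v, rfl⟩ := hsurj w
    have := hcon v
    rw [TensorProduct.tmul_sub, sub_eq_zero] at this
    rw [TensorProduct.mk_apply, LinearMap.baseChange_tmul, this, LinearMap.id_apply]
  obtain ⟨v₀, hv₀⟩ := hex
  have hM : ∀ m ∈ inertiaSpan ρ P, (1 : IsLocalRing.ResidueField A) ⊗ₜ[A] m ∈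
      Submodule.span (IsLocalRing.ResidueField A) {bbar 0} := by
    intro m hm
    induction hm using Submodule.span_induction with
    | mem w hw =>
      obtain ⟨σ, hσ, v, rfl⟩ := hw
      have := hI σ hσ ((1 : IsLocalRing.ResidueField A) ⊗ₜ[A] v)
      rw [LinearMap.baseChange_tmul, ← TensorProduct.tmul_sub] at this
      exact this
    | zero => rw [TensorProduct.tmul_zero]; exact Submodule.zero_mem _
    | add x y _ _ hx hy => rw [TensorProduct.tmul_add]; exact Submodule.add_mem _ hx hy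
    | smul a x _ hx =>
      rw [TensorProduct.tmul_smul]
      exact Submodule.smul_of_tower_mem _ a hx
  obtain ⟨b, hb⟩ := exists_basis_span_eq ρ.finrank_eq (inertiaSpan ρ P) bbar hM
    (ρ.ρ σ₀ v₀ - v₀) (sub_mem_inertiaSpan ρ P hσ₀ v₀) hv₀ (hf P hP bbar hM)
  exact ⟨inertiaSpan ρ P, ⟨b, hb⟩, fun σ hσ v hv => map_mem_inertiaSpan ρ P hσ hv,
    fun σ hσ v => sub_mem_inertiaSpan ρ P hσ v⟩

/-- **S33, block A2**: `IsOrdinaryAt` from `NTS` at all finite levels. -/
theorem isOrdinaryAt_of_nts [IsNoetherianRing A] (ρ : GaloisRepAdic A) (p : ℕ)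
    (hne : ∀ P : ValuationSubring (AlgebraicClosure ℚ), P.LiesOverPrime p →
      ∃ σ ∈ P.inertiaSubgroupIn ℚ, ρ.residual.ρ σ ≠ 1)
    (hres : (GaloisRepAdic.ofResidualGaloisRep ρ.residual).IsOrdinaryAt p)
    (hnts : ∀ P : ValuationSubring (AlgebraicClosure ℚ), P.LiesOverPrime p →
      ∀ n : ℕ, NTSAt ρ P (IsLocalRing.maximalIdeal A ^ n)) :
    ρ.IsOrdinaryAt p :=
  isOrdinaryAt_of_faithful ρ p hne hres fun P hP bbar hM =>
    faithful_of_nts ρ P bbar hM (hnts P hP)

end Fermat.Agent.S33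


end ZBS33_008_0
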