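/- GENERATED FILE (helper35, build-time optimisation, NOTES/ZB.md): verbatim concatenation of the modules
   Fermat.Agent.S33.Transfer
   Fermat.Agent.S33.OfNTS
   Fermat.Agent.S33.Assembly
   Do not edit; do not import together with these modules. -/
import Fermat.Agent.ZB.S33_001
import Fermat.Agent.ZB.S32_003
import Fermat.Agent.ZB.S33_008
import Fermat.Agent.ZB.S33_002
import Fermat.Agent.ZB.S32_002
import Fermat.Agent.ZB.ES_005
import Fermat.Agent.ZB.ES_012
import Fermat.Agent.ZB.INJ_034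
import Fermat.Agent.ZB.Cheb_002

/-! ### bundled: `Fermat.Agent.S33.Transfer` -/
section ZBS33_009_0

/-!
# S33, route v2, block A3: transfer of `NTS` along annihilators

`X`, `Y` finite abelian groups with additive multiplicative maps `actX`, `actY` of a group `G`
(`actY 1 = id`), `I ≤ G` a subgroup.  If every element of `ℤ[G]` which kills `X` kills `Y`, and
the inertia span `𝔄 X := ntsSpan I actX ⊤` has no trivial sub-quotient, then neither has `𝔄 Y`.

Proof. `Y` is an equivariant quotient `π : M ↠ Y` of an equivariant subobject `ι : M ↪ X ^ (Y × X)`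
(`S32.s32b_subquot_data`, helper9).  `NTS` passes to finite products (`NTS.pi`), to stable
subgroups of subobjects (`NTS.comap_of_injective`) and to images (`NTS.map`); and
`𝔄 Y ≤ π (ι⁻¹ ((𝔄 X) ^ (Y × X)))`.
-/

set_option autoImplicit false
set_option linter.unusedSectionVars false

namespace Fermat.Agent.S33

section stable

variable {G : Type*} [Group G] {X : Type*} [AddCommGroup X]

/-- an additive map commutes with subtraction -/
theorem act_sub_of_add {act : G → X → X}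
    (hadd : ∀ σ x x', act σ (x + x') = act σ x + act σ x') (σ : G) (x y : X) :
    act σ (x - y) = act σ x - act σ y := by
  have h := hadd σ (x - y) y
  rw [sub_add_cancel] at h
  rw [h, add_sub_cancel_right]

theorem act_zero_of_add {act : G → X → X}
    (hadd : ∀ σ x x', act σ (x + x') = act σ x + act σ x') (σ : G) : act σ 0 = 0 := by
  have h := act_sub_of_add hadd σ 0 0
  rwa [sub_self, sub_self] at h

/-- the inertia span of any subgroup is stable under `I` -/
theorem ntsStable_ntsSpan (I : Subgroup G) (act : G → X → X)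
    (hadd : ∀ σ x x', act σ (x + x') = act σ x + act σ x')
    (hmul : ∀ σ τ x, act (σ * τ) x = act σ (act τ x)) (B : AddSubgroup X) :
    ntsStable I act (ntsSpan I act B) := by
  intro τ hτ w hw
  let f : X →+ X := AddMonoidHom.mk' (act τ) (hadd τ)
  have hf : ∀ v, f v = act τ v := fun _ => rfl
  have hle : ntsSpan I act B ≤ (ntsSpan I act B).comap f := by
    rw [ntsSpan, AddSubgroup.closure_le]
    rintro _ ⟨σ, hσ, b, hb, rfl⟩
    change f (act σ b - b) ∈ ntsSpan I act B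
    rw [map_sub, hf, hf, ← hmul]
    have e : act (τ * σ) b - act τ b = (act (τ * σ) b - b) - (act τ b - b) := by abel
    rw [e]
    exact AddSubgroup.sub_mem _ (sub_mem_ntsSpan (I.mul_mem hτ hσ) hb) (sub_mem_ntsSpan hτ hb)
  exact hle hw

end stable

/-- **Transfer of `NTS` along annihilators.** -/
theorem nts_of_ann {G : Type} [Group G] (I : Subgroup G)
    (X : Type) [AddCommGroup X] [Finite X] (actX : G → X → X)
    (Y : Type) [AddCommGroup Y] [Finite Y] (actY : G → Y → Y)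
    (haddX : ∀ σ x x', actX σ (x + x') = actX σ x + actX σ x')
    (hmulX : ∀ σ τ x, actX (σ * τ) x = actX σ (actX τ x))
    (haddY : ∀ σ y y', actY σ (y + y') = actY σ y + actY σ y')
    (hmulY : ∀ σ τ y, actY (σ * τ) y = actY σ (actY τ y))
    (honeY : ∀ y, actY 1 y = y)
    (hann : ∀ c : G →₀ ℤ, (∀ x : X, (c.sum fun g z => z • actX g x) = 0) →
      ∀ y : Y, (c.sum fun g z => z • actY g y) = 0)
    (hX : NTS I actX (ntsSpan I actX ⊤)) : NTS I actY (ntsSpan I actY ⊤) := by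
  classical
  obtain ⟨M, _, actM, ι, π, hι, hιeq, hπ, hπeq⟩ :=
    Fermat.Agent.S32.s32b_subquot_data X actX Y actY haddX hmulX haddY hmulY honeY hann
  -- the product
  set Zpi : AddSubgroup (Y × X → X) :=
    AddSubgroup.pi Set.univ fun _ : Y × X => ntsSpan I actX ⊤ with hZpi
  have hpi : NTS I (fun σ (f : Y × X → X) i => actX σ (f i)) Zpi :=
    NTS.pi hX fun σ _ => act_zero_of_add haddX σ
  -- the subobject
  set W : AddSubgroup M := Zpi.comap ι with hW
  have hWst : ntsStable I actM W := by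
    intro σ hσ m hm
    change ι (actM σ m) ∈ Zpi
    rw [hιeq]
    intro i hi
    exact ntsStable_ntsSpan I actX haddX hmulX ⊤ σ hσ _ (hm i hi)
  have hWnts : NTS I actM W :=
    NTS.comap_of_injective (actX := fun σ (f : Y × X → X) i => actX σ (f i)) ι hι
      (fun σ _ c => hιeq σ c) hpi hWst (AddSubgroup.map_comap_le _ _)
  -- the image
  have hmap : NTS I actY (W.map π) :=
    NTS.map (actX := actM) π (fun σ _ c => hπeq σ c) hWnts hWst
  refine hmap.mono ?_
  rw [ntsSpan, AddSubgroup.closure_le]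
  rintro _ ⟨σ, hσ, y, -, rfl⟩
  obtain ⟨m, rfl⟩ := hπ y
  refine ⟨actM σ m - m, ?_, ?_⟩
  · change ι (actM σ m - m) ∈ Zpi
    rw [map_sub, hιeq]
    intro i _
    exact sub_mem_ntsSpan hσ (AddSubgroup.mem_top _)
  · rw [map_sub, hπeq]

end Fermat.Agent.S33


end ZBS33_009_0

/-! ### bundled: `Fermat.Agent.S33.OfNTS` -/
section ZBS33_009_1

/-!
# S33, route v2, block A4: the frozen statement S33 from the package `S33Pkg N p`

* `S33Pkg N p` : ONE `G_ℚ × Hecke`-module `J` carrying the faithful `p`-adic Eichler–Shimura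
  package (`ES.ESDataInf`, `S31.ESFaith`) AND such that for every place `P` over `p` and every `n`
  the inertia span `𝔄 J[pⁿ]` has no trivial sub-quotient (`NTS`, KEY of `NOTES/S33-v2.md`).
* `s33_isOrdinaryAt_of_pkg` : weak Chebotarev + `S33Pkg N p` give `H.ρ.IsOrdinaryAt p` for every
  Hecke–Galois datum `H` of level `N` away from `S ∋ p` with ordinary residual representation.

Proof. For `n` choose `m` by the key lemma of S32 (`S32.s32_key`, which does not use `p ∤ N`):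
every element of `ℤ[G_ℚ]` which kills `J[pᵐ]` kills `V ⧸ 𝔪ⁿ V`.  By `nts_of_ann` the inertia span of
`V ⧸ 𝔪ⁿ V` has no trivial sub-quotient; it contains the image of the `T`-span `inertiaSpan`
(`levelSpan_le_ntsSpan`); conclude by `isOrdinaryAt_of_nts`.
-/

set_option autoImplicit false
set_option linter.unusedSectionVars false
set_option linter.style.haveILetI false

namespace Fermat.Agent.S33

open ModularCurve Fermat.Agent.ES Fermat.Agent.S31

/-- The package consumed by S33 (route v2): the faithful `p`-adic Eichler–Shimura data on a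
module `J`, together with `NTS` for the inertia span of every `J[pⁿ]`, at every place over `p`. -/
def S33Pkg (N p : ℕ) [NeZero N] : Prop :=
  ∃ (J : Type) (_ : AddCommGroup J) (_ : Module HeckeAlg J) (_ : DistribMulAction GQ J),
    ESDataInf N p J ∧ ESFaith N p J ∧
      ∀ P : ValuationSubring (AlgebraicClosure ℚ), P.LiesOverPrime p → ∀ n : ℕ,
        NTS (P.inertiaSubgroupIn ℚ) (Fermat.Agent.S32.torsAction J p n)
          (ntsSpan (P.inertiaSubgroupIn ℚ) (Fermat.Agent.S32.torsAction J p n) ⊤)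

section level

variable {A : Type} [CommRing A] [IsLocalRing A]

/-- the image of the `A`-span `inertiaSpan` in `V ⧸ J V` is contained in the inertia span
(as a group) of `V ⧸ J V` -/
theorem levelSpan_le_ntsSpan (ρ : GaloisRepAdic A) (P : ValuationSubring (AlgebraicClosure ℚ))
    (J : Ideal A) :
    levelSpan ρ P J ≤ ntsSpan (P.inertiaSubgroupIn ℚ) (fun σ => ρ.levelAction J σ) ⊤ := by
  rintro _ ⟨x, hx, rfl⟩
  have key : ∀ a : A, Submodule.mkQ (J • (⊤ : Submodule A ρ.V)) (a • x) ∈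
      ntsSpan (P.inertiaSubgroupIn ℚ) (fun σ => ρ.levelAction J σ) ⊤ := by
    induction hx using Submodule.span_induction with
    | mem w hw =>
      obtain ⟨σ, hσ, v, rfl⟩ := hw
      intro a
      have e : a • (ρ.ρ σ v - v) = ρ.ρ σ (a • v) - a • v := by
        rw [smul_sub, map_smul]
      rw [e, map_sub, ← levelAction_mkQ]
      exact sub_mem_ntsSpan hσ (AddSubgroup.mem_top _)
    | zero =>
      intro a
      rw [smul_zero, map_zero]
      exact AddSubgroup.zero_mem _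
    | add x y _ _ hx hy =>
      intro a
      rw [smul_add, map_add]
      exact AddSubgroup.add_mem _ (hx a) (hy a)
    | smul b x _ hx =>
      intro a
      rw [smul_smul]
      exact hx (a * b)
  have := key 1
  rwa [one_smul] at this

end level

variable {p : ℕ} {N : ℕ} [NeZero N] {S : Finset ℕ}
  {𝒪 : Type} [CommRing 𝒪] [IsDomain 𝒪] [IsDiscreteValuationRing 𝒪]
  [IsAdicComplete (IsLocalRing.maximalIdeal 𝒪) 𝒪]
  {θ : CuspForm.heckeAlgebra N 2 (↑S : Set ℕ) →+* IsLocalRing.ResidueField 𝒪}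
  {T : Type} [CommRing T] [IsLocalRing T] [IsNoetherianRing T]
  [IsAdicComplete (IsLocalRing.maximalIdeal T) T] [Algebra 𝒪 T] [IsLocalHom (algebraMap 𝒪 T)]
  [Module.Finite 𝒪 T] [Module.Free 𝒪 T]

/-- `NTS` at every finite level of the representation of a Hecke–Galois datum, from the package -/
theorem ntsAt_of_pkg (hcheb : Cheb.WeakChebotarev) (hpkg : S33Pkg N p)
    [Finite (IsLocalRing.ResidueField 𝒪)]
    (hp : p.Prime) (hp𝒪 : (p : 𝒪) ∈ IsLocalRing.maximalIdeal 𝒪)
    (hpS : p ∈ S) (hNS : ∀ q : ℕ, q.Prime → q ∣ N → q ∈ S)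
    (H : CuspForm.HeckeGaloisRepDatum N (↑S : Set ℕ) 𝒪 θ T)
    (P : ValuationSubring (AlgebraicClosure ℚ)) (hP : P.LiesOverPrime p) (n : ℕ) :
    NTSAt H.ρ P (IsLocalRing.maximalIdeal T ^ n) := by
  classical
  obtain ⟨J, _, _, _, hJ, hfaith, hkey⟩ := hpkg
  obtain ⟨m, hm⟩ := Fermat.Agent.S32.s32_key hcheb hJ hfaith hp hp𝒪 hpS hNS H n
  set I : Ideal T := IsLocalRing.maximalIdeal T ^ n with hI
  -- finiteness
  haveI hfinX : Finite ↥(Fermat.Agent.S32.tors J p m) := (hJ.finite m).to_subtype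
  haveI hfinres : Finite (IsLocalRing.ResidueField T) := Fermat.Agent.S32.finite_residueField H
  haveI hfinres' : Finite (T ⧸ IsLocalRing.maximalIdeal T) := hfinres
  haveI hfinQ : Finite (T ⧸ I) :=
    Ideal.finite_quotient_pow (IsNoetherian.noetherian _) n
  haveI hfinY : Finite (H.ρ.V ⧸ (I • (⊤ : Submodule T H.ρ.V))) := by
    have : Module.Finite (T ⧸ I) (H.ρ.V ⧸ (I • (⊤ : Submodule T H.ρ.V))) :=
      Module.Finite.of_restrictScalars_finite T _ _
    exact Module.finite_of_finite (T ⧸ I)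
  have h := nts_of_ann (P.inertiaSubgroupIn ℚ)
    ↥(Fermat.Agent.S32.tors J p m) (Fermat.Agent.S32.torsAction J p m)
    (H.ρ.V ⧸ (I • (⊤ : Submodule T H.ρ.V))) (fun σ => H.ρ.levelAction I σ)
    (fun σ x x' => smul_add σ x x') (fun σ τ x => mul_smul σ τ x)
    (fun σ y y' => map_add _ y y')
    (fun σ τ y => Fermat.Agent.S32.levelAction_mul H.ρ I σ τ y)
    (fun y => Fermat.Agent.S32.levelAction_one H.ρ I y) ?_ (hkey P hP m)
  · exact h.mono (levelSpan_le_ntsSpan H.ρ P I)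
  · intro c hc y
    obtain ⟨v, rfl⟩ := Submodule.Quotient.mk_surjective _ y
    have hc' : ∀ x : J, p ^ m • x = 0 → (c.sum fun g z => z • g • x) = 0 := by
      intro x hx
      have := congrArg (fun t : ↥(Fermat.Agent.S32.tors J p m) => (t : J)) (hc ⟨x, hx⟩)
      simp only [Fermat.Agent.S32.torsAction, Finsupp.sum, AddSubmonoidClass.coe_finsetSum,
        Submodule.coe_smul_of_tower, Fermat.Agent.S32.coe_smul_tors,
        ZeroMemClass.coe_zero] at this
      exact this
    have hmem := hm c hc' v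
    have e : (c.sum fun g z => z • H.ρ.levelAction I g (Submodule.Quotient.mk v)) =
        (I • (⊤ : Submodule T H.ρ.V)).mkQ (c.sum fun g z => z • H.ρ.ρ g v) := by
      rw [Finsupp.sum, Finsupp.sum, map_sum]
      refine Finset.sum_congr rfl fun g _ => ?_
      rw [map_zsmul]
      rfl
    rw [e, Submodule.mkQ_apply]
    exact (Submodule.Quotient.mk_eq_zero _).mpr hmem

/-- **S33 from the package** (route v2). -/
theorem s33_isOrdinaryAt_of_pkg (hcheb : Cheb.WeakChebotarev) (hpkg : S33Pkg N p)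
    [Finite (IsLocalRing.ResidueField 𝒪)]
    (hp : p.Prime) (hp2 : p ≠ 2) (hp𝒪 : (p : 𝒪) ∈ IsLocalRing.maximalIdeal 𝒪)
    (hpS : p ∈ S) (hNS : ∀ q : ℕ, q.Prime → q ∣ N → q ∈ S)
    (H : CuspForm.HeckeGaloisRepDatum N (↑S : Set ℕ) 𝒪 θ T)
    (hres : (GaloisRepAdic.ofResidualGaloisRep H.ρ.residual).IsOrdinaryAt p) :
    H.ρ.IsOrdinaryAt p :=
  isOrdinaryAt_of_nts H.ρ p
    (fun P hP => exists_inertia_residual_ne_one hp hp2 H.ρ
      (detIsCyclotomic_of_datum hp hp𝒪 H) P hP) hres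
    (fun P hP n => ntsAt_of_pkg hcheb hpkg hp hp𝒪 hpS hNS H P hP n)

end Fermat.Agent.S33


end ZBS33_009_1

/-! ### bundled: `Fermat.Agent.S33.Assembly` -/
section ZBS33_009_2

/-!
# S33, route v2, block C5: the final assembly

`s33_of_key` : `StmtKeyGood` (B4) and `StmtWildT` (C3 + C4) give the frozen statement S33.

* `exists_cyclo_exp` : every `σ ∈ G_ℚ` acts on `μ_p` through `ζ ↦ ζ ^ a`;
* `nts_c2New_of_wild` : `StmtWildT` ⇒ `NTS` of the new part of exponent `p` (`nts_of_scalar`,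
  with `σ₀ ∈ I` acting on `μ_p` by inversion, `S33.exists_inertia_inv_root`; `p` odd);
* `keyAt_mul_of` : (KEY) at level `M p` (`c2_key_of_new`, helper92);
* `s33Pkg_of_keyAt` : the package `S33Pkg N p` for the module `PDiv N p` of the Eichler–Shimura
  package (`c2_pDiv_of_jZero`);
* `s33_of_key` : the frozen statement.
-/

set_option autoImplicit false
set_option linter.unusedSectionVars false
set_option linter.style.haveILetI false

namespace Fermat.Agent.S33

open ModularCurve Fermat.Agent.ES Fermat.Agent.S31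

/-- every `σ ∈ G_ℚ` acts on the `p`-th roots of unity by `ζ ↦ ζ ^ a` -/
theorem exists_cyclo_exp {p : ℕ} (hp : p.Prime) (σ : GQ) :
    ∃ a : ℕ, ∀ ζ : AlgebraicClosure ℚ, ζ ^ p = 1 → σ ζ = ζ ^ a := by
  have : NeZero p := ⟨hp.ne_zero⟩
  have : NeZero ((p : ℕ) : AlgebraicClosure ℚ) := ⟨Nat.cast_ne_zero.mpr hp.ne_zero⟩
  obtain ⟨ζ₀, hζ₀⟩ := HasEnoughRootsOfUnity.exists_primitiveRoot (AlgebraicClosure ℚ) p
  have h1 : (σ ζ₀) ^ p = 1 := by rw [← map_pow, hζ₀.pow_eq_one, map_one]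
  obtain ⟨a, -, ha⟩ := hζ₀.eq_pow_of_pow_eq_one h1
  refine ⟨a, fun ζ hζ => ?_⟩
  obtain ⟨k, -, hk⟩ := hζ₀.eq_pow_of_pow_eq_one hζ
  rw [← hk, map_pow, ← ha, ← pow_mul, ← pow_mul, mul_comm]

/-- **`NTS` of the new part of exponent `p`** from (C3) + (C4). -/
theorem nts_c2New_of_wild (hwild : StmtWildT) (M p : ℕ) [NeZero M] [NeZero p] (hp : p.Prime)
    (hp2 : p ≠ 2) (hpM : ¬ p ∣ M) (P : ValuationSubring (AlgebraicClosure ℚ))
    (hP : P.LiesOverPrime p) (n : ℕ) :
    NTS (P.inertiaSubgroupIn ℚ) (jAct (M * p)) (c2New M p (P.inertiaSubgroupIn ℚ) n) := by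
  classical
  -- the exponents
  choose ω hω using fun σ : GQ => exists_cyclo_exp hp σ
  obtain ⟨σ₀, hσ₀, hinv⟩ := exists_inertia_inv_root hp P hP
  -- `ω σ₀ ≡ -1 mod p`
  have : NeZero ((p : ℕ) : AlgebraicClosure ℚ) := ⟨Nat.cast_ne_zero.mpr hp.ne_zero⟩
  obtain ⟨ζ₀, hζ₀⟩ := HasEnoughRootsOfUnity.exists_primitiveRoot (AlgebraicClosure ℚ) p
  have h1 : ζ₀ ^ (ω σ₀ + 1) = 1 := by
    have := hω σ₀ ζ₀ hζ₀.pow_eq_one
    rw [hinv ζ₀ hζ₀.pow_eq_one] at this
    rw [pow_succ, ← this]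
    exact inv_mul_cancel₀ (hζ₀.ne_zero hp.ne_zero)
  have h2 : p ∣ ω σ₀ + 1 := (hζ₀.pow_eq_one_iff_dvd _).mp h1
  -- `ω σ₀ - 1` is prime to `p`
  have hcop : IsCoprime ((ω σ₀ : ℤ) - 1) (p : ℤ) := by
    have hpz : Prime (p : ℤ) := Nat.prime_iff_prime_int.mp hp
    rw [isCoprime_comm]
    refine (Prime.coprime_iff_not_dvd hpz).mpr ?_
    intro hdvd
    have h3 : (p : ℤ) ∣ (ω σ₀ : ℤ) + 1 := by exact_mod_cast h2
    have h4 : (p : ℤ) ∣ 2 := by
      have := dvd_sub h3 hdvd
      have e : ((ω σ₀ : ℤ) + 1) - ((ω σ₀ : ℤ) - 1) = 2 := by ring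
      rwa [e] at this
    have h5 : p ∣ 2 := by exact_mod_cast h4
    exact hp2 ((Nat.prime_dvd_prime_iff_eq hp Nat.prime_two).mp h5)
  obtain ⟨c, d, hcd⟩ := hcop
  refine nts_of_scalar (fun σ => (ω σ : ℤ)) ?_ hσ₀ c ?_
  · intro σ hσ z hz
    rw [natCast_zsmul]
    exact hwild M p hp hp2 hpM P hP σ hσ (ω σ) (hω σ) n z hz
  · intro z hz
    have hz' : p • z = 0 := ((c2_mem_new_iff M p _ n z).1 hz).2.2.2
    have e : ((ω σ₀ : ℤ) - 1) * c = 1 - d * (p : ℤ) := by linear_combination hcd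
    rw [e, sub_smul, one_smul, mul_smul, natCast_zsmul, hz', smul_zero, sub_zero]

/-- **(KEY) at level `M p`** from (KEY) at level `M` and (C3) + (C4). -/
theorem keyAt_mul_of (hgood : StmtKeyGood) (hwild : StmtWildT) (M p : ℕ) [NeZero M] [NeZero p]
    (hp : p.Prime) (hp2 : p ≠ 2) (hpM : ¬ p ∣ M) (P : ValuationSubring (AlgebraicClosure ℚ))
    (hP : P.LiesOverPrime p) : KeyAt (M * p) p P :=
  fun n => c2_key_of_new M p (P.inertiaSubgroupIn ℚ) (hgood M p hp hp2 hpM P hP)
    (fun n => nts_c2New_of_wild hwild M p hp hp2 hpM P hP n) n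

/-- (KEY) at every level exactly divisible by `p` -/
theorem keyAt_of (hgood : StmtKeyGood) (hwild : StmtWildT) (N p : ℕ) [NeZero N]
    (hp : p.Prime) (hp2 : p ≠ 2) (hN : p ∣ N ∧ ¬ p ^ 2 ∣ N)
    (P : ValuationSubring (AlgebraicClosure ℚ)) (hP : P.LiesOverPrime p) : KeyAt N p P := by
  obtain ⟨M, hM⟩ := hN.1
  have hM' : N = M * p := by rw [hM, mul_comm]
  have hM0 : M ≠ 0 := by
    rintro rfl
    rw [zero_mul] at hM'
    exact NeZero.ne N hM'
  haveI : NeZero M := ⟨hM0⟩
  haveI : NeZero p := ⟨hp.ne_zero⟩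
  have hpM : ¬ p ∣ M := by
    rintro ⟨k, hk⟩
    apply hN.2
    rw [hM, hk, ← mul_assoc, ← pow_two]
    exact dvd_mul_right _ _
  subst hM'
  exact keyAt_mul_of hgood hwild M p hp hp2 hpM P hP

/-- **the package of S33** for the module `PDiv N p` of the Eichler–Shimura package. -/
theorem s33Pkg_of_keyAt (hINJ : Fermat.Agent.INJ.StmtINJAll) {N p : ℕ} [NeZero N]
    (hp : p.Prime) (hUT : TorsionUnif N p)
    (hkey : ∀ P : ValuationSubring (AlgebraicClosure ℚ), P.LiesOverPrime p → KeyAt N p P) :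
    S33Pkg N p := by
  haveI : Fact p.Prime := ⟨hp⟩
  obtain ⟨μ, h⟩ := hUT
  have hp0 : p ≠ 0 := hp.ne_zero
  have hm := multData_of_torsionUnifData hp0 h
  refine ⟨PDiv N p, inferInstance, pDivModule N p, pDivGalois N p,
    hm.esDataInf (stmtFiniteLevel N p hp0) (G2.stmtFrob_of_stmtINJAll hINJ N p)
      (G2.stmtUnram_of_stmtINJAll hINJ N p), hm.esFaith hp0, ?_⟩
  intro P hP n
  letI := pDivModule N p
  letI := pDivGalois N p
  have h1 := c2_pDiv_of_jZero N p (P.inertiaSubgroupIn ℚ) n (hkey P hP n)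
  -- pass to the subtype `tors (PDiv N p) p n`
  let j : ↥(Fermat.Agent.S32.tors (PDiv N p) p n) →+ PDiv N p :=
    (Fermat.Agent.S32.tors (PDiv N p) p n).subtype.toAddMonoidHom
  have hj : Function.Injective j := Subtype.val_injective
  have hjeq : ∀ σ ∈ P.inertiaSubgroupIn ℚ, ∀ c : ↥(Fermat.Agent.S32.tors (PDiv N p) p n),
      j (Fermat.Agent.S32.torsAction (PDiv N p) p n σ c) = pAct N p σ (j c) := fun _ _ _ => rfl
  have hst : ntsStable (P.inertiaSubgroupIn ℚ) (Fermat.Agent.S32.torsAction (PDiv N p) p n)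
      (⊤ : AddSubgroup ↥(Fermat.Agent.S32.tors (PDiv N p) p n)) :=
    fun _ _ _ _ => AddSubgroup.mem_top _
  refine NTS.comap_of_injective (actF := Fermat.Agent.S32.torsAction (PDiv N p) p n)
    (actX := pAct N p) j hj hjeq h1 (ntsStable_ntsSpan_of_stable hst) ?_
  refine (map_ntsSpan_le (actF := Fermat.Agent.S32.torsAction (PDiv N p) p n)
    (actX := pAct N p) j hjeq ⊤).trans (ntsSpan_mono ?_)
  rintro _ ⟨t, -, rfl⟩
  exact t.2

variable {p : ℕ} {N : ℕ} [NeZero N] {S : Finset ℕ}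
  {𝒪 : Type} [CommRing 𝒪] [IsDomain 𝒪] [IsDiscreteValuationRing 𝒪]
  [IsAdicComplete (IsLocalRing.maximalIdeal 𝒪) 𝒪]
  {θ : CuspForm.heckeAlgebra N 2 (↑S : Set ℕ) →+* IsLocalRing.ResidueField 𝒪}
  {T : Type} [CommRing T] [IsLocalRing T] [IsNoetherianRing T]
  [IsAdicComplete (IsLocalRing.maximalIdeal T) T] [Algebra 𝒪 T] [IsLocalHom (algebraMap 𝒪 T)]
  [Module.Finite 𝒪 T] [Module.Free 𝒪 T]

/-- **S33 from (KEY)**: the frozen statement S33 from `StmtKeyGood` (B4) and `StmtWildT`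
(C3 + C4). -/
theorem s33_of_key (hgood : StmtKeyGood) (hwild : StmtWildT)
    [Finite (IsLocalRing.ResidueField 𝒪)] [CharZero 𝒪]
    (hp : p.Prime) (hp2 : p ≠ 2) (hp𝒪 : (p : 𝒪) ∈ IsLocalRing.maximalIdeal 𝒪)
    (hN : p ∣ N ∧ ¬ p ^ 2 ∣ N)
    (hNS : ∀ q : ℕ, q.Prime → q ∣ N → q ∈ S)
    (H : CuspForm.HeckeGaloisRepDatum N (↑S : Set ℕ) 𝒪 θ T)
    (hres : (GaloisRepAdic.ofResidualGaloisRep H.ρ.residual).IsOrdinaryAt p) :
    H.ρ.IsOrdinaryAt p :=
  s33_isOrdinaryAt_of_pkg Fermat.Agent.Cheb.weakChebotarev_holds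
    (s33Pkg_of_keyAt Fermat.Agent.INJ.injAll_stmtINJAll hp
      (torsionUnif_proved N p hp.pos)
      (fun P hP => keyAt_of hgood hwild N p hp hp2 hN P hP))
    hp hp2 hp𝒪 (hNS p hp hN.1) hNS H hres

end Fermat.Agent.S33


end ZBS33_009_2
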