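/- GENERATED FILE (helper35, build-time optimisation, NOTES/ZB.md): verbatim concatenation of the modules
   Fermat.Agent.S33.Plan2
   Fermat.Agent.S33.FlatOrd
   Fermat.Agent.S33.NTSJZero
   Fermat.Agent.S33.RayLiteStmt
   Fermat.Agent.S33.SQLocLin
   Fermat.Agent.S33.SQLocQuot
   Fermat.Agent.S33.NTSOfLattice
   Fermat.Agent.S33.FlatOrdFinal
   Fermat.Agent.S33.OfWild
   Do not edit; do not import together with these modules. -/
import Fermat.Agent.ZB.S33_001
import Fermat.Agent.ZB.W1_001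
import Fermat.Agent.ZB.S33_008
import Fermat.Agent.ZB.W1_003
import Fermat.Agent.ZB.W1_013
import Fermat.Agent.ZB.Z2W1_001
import Fermat.Agent.ZB.S33_011
import Fermat.Agent.ZB.UNIP_006
import Fermat.Agent.ZB.S05_001
import Fermat.Agent.ZB.S33_002
import Fermat.Agent.ZB.S33_009

/-! ### bundled: `Fermat.Agent.S33.Plan2` -/
section ZBS33_010_0

/-!
# S33, route v2 — interface of the ALGEBRA pieces (block B "Raynaud-lite")

Plan: `NOTES/S33-v2.md`.  `Qb = ℚ̄`, `G_ℚ = Gal(ℚ̄/ℚ)`, `P ⊂ ℚ̄` a valuation ring over `p`,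
`I_P = P.inertiaSubgroupIn ℚ`.

Block A (files `NTS.lean`, `Count.lean`, `Transfer.lean`, `OfNTS.lean`, helper33):
  S33 ⇐ `NTS I_P (𝔄 J[pⁿ])` for all `n`  (`𝔄 X = ntsSpan I_P act ⊤`, the inertia span).

Block B (this file): `NTS I_P (𝔄 M)` for every finite `p`-group `M` with a Hopf order over
`ℤ_(p)` (`W1.IsHopfLattice`), `p` odd.  Pieces:

* **B1 `StmtSQLocQuot`** (SQ-loc): quotients of Hopf lattices over `(R, I)`, `R ⊂ ℚ̄` a PID whose
  fraction field is the fixed field of `I` — helper17's `W1.sq_quot` with `(ℤ_(p), ℚ, G_ℚ)`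
  replaced by `(R, Frac R, I)`  (copy-adapt `W1/SubQuot{Basic,Lin,Quot}.lean`).
* **B2 `StmtRayLite`** (Raynaud-lite, finite differences): a family `ℱ` of `R`-valued functions on
  an abelian group `Q`, closed under comultiplication, with `φ q ≡ φ 0 mod p` for all `φ ∈ ℱ`,
  takes the same value at `q` and at `0` when `p q = 0`, `p` odd.
  Proof. `D_i φ := Σ_k (-1)^{i-k} C(i,k) φ(k q)`; `D_i φ = Σ_j s_j D_{i-1}(α_j) D_1(β_j)`;
  `D_1 ∈ p^s R` (all `φ`) ⇒ `D_i ∈ p^{is} R`; Newton: `0 = Σ_{i=1}^p C(p,i) D_i φ` ⇒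
  `p D_1 φ ∈ p^{min(1+2s, ps)} R` ⇒ `D_1 φ ∈ p^{s+1} R`; so `D_1 φ ∈ ⋂ p^s R = 0`.
* **B3 `StmtNTSOfLattice`**: assembly (connected part `M⁰ ⊇ 𝔄 M`, restriction to `B`, quotient
  `B / 𝔄 B` by B1, values in `A₀ = P ∩ ℚ̄^{I_P}`, `𝔪_P ∩ A₀ = p A₀` (`UNIP.beta0_div_mem`), B2).
-/

set_option autoImplicit false

namespace Fermat.Agent.S33

open Fermat.Agent.W1

/-- `Gal(ℚ̄/ℚ)` -/
abbrev GQb : Type := AlgebraicClosure ℚ ≃ₐ[ℚ] AlgebraicClosure ℚ

/-- The `R`-subalgebra `H` of `M → ℚ̄` is a Hopf order for the action of the subgroup `I`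
(`R ⊂ ℚ̄` a subring fixed by `I`).  Same fields as `W1.IsHopfLattice`, without antipode and
counit (not needed here). -/
structure IsHopfLatticeOver (R : Subring (AlgebraicClosure ℚ)) (I : Subgroup GQb)
    {M : Type} [AddCommGroup M] (act : GQb → M → M)
    (H : Subalgebra R (M → AlgebraicClosure ℚ)) : Prop where
  fg : (Subalgebra.toSubmodule H).FG
  equivariant : ∀ h ∈ H, ∀ σ ∈ I, ∀ x : M, h (act σ x) = σ (h x)
  separates : ∀ x y : M, (∀ h ∈ H, h x = h y) → x = y
  comul_mem : ∀ h ∈ H, (fun xy : M × M => h (xy.1 + xy.2)) ∈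
    Submodule.span R {F : M × M → AlgebraicClosure ℚ |
      ∃ a ∈ H, ∃ b ∈ H, F = fun xy => a xy.1 * b xy.2}

/-- pull-back of functions along `π`, as an `R`-algebra homomorphism -/
noncomputable def pullFnOver (R : Subring (AlgebraicClosure ℚ)) {M M'' : Type} (π : M → M'') :
    (M'' → AlgebraicClosure ℚ) →ₐ[R] (M → AlgebraicClosure ℚ) :=
  AlgHom.pi (fun m => Pi.evalAlgHom R (fun _ : M'' => AlgebraicClosure ℚ) (π m))

@[simp] theorem pullFnOver_apply (R : Subring (AlgebraicClosure ℚ)) {M M'' : Type} (π : M → M'')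
    (φ : M'' → AlgebraicClosure ℚ) (m : M) : pullFnOver R π φ m = φ (π m) := rfl

/-- **B1 (SQ-loc).**  Quotients of Hopf lattices over `(R, I)`: `R` a PID fixed by `I`, every
`I`-fixed element of `ℚ̄` is a fraction of elements of `R`. -/
def StmtSQLocQuot : Prop :=
  ∀ (R : Subring (AlgebraicClosure ℚ)) (I : Subgroup GQb), IsPrincipalIdealRing R →
    (∀ r ∈ R, ∀ σ ∈ I, σ r = r) →
    (∀ x : AlgebraicClosure ℚ, (∀ σ ∈ I, σ x = x) → ∃ r ∈ R, ∃ s ∈ R, s ≠ 0 ∧ x * s = r) →
    ∀ (M : Type) (_ : AddCommGroup M) (_ : Finite M) (act : GQb → M → M)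
      (M'' : Type) (_ : AddCommGroup M'') (act'' : GQb → M'' → M'')
      (H : Subalgebra R (M → AlgebraicClosure ℚ)), IsHopfLatticeOver R I act H →
      ∀ π : M →+ M'', Function.Surjective π →
        (∀ σ ∈ I, ∀ m, π (act σ m) = act'' σ (π m)) →
        IsHopfLatticeOver R I act'' (H.comap (pullFnOver R π))

/-- **B2 (Raynaud-lite).**  `R ⊂ K` a subring of a field of characteristic zero which is
`p`-adically separated, `p` an odd prime, `q` an element of order dividing `p` of an abelian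
group `Q`, `ℱ` a set of `R`-valued functions on `Q` closed under comultiplication with
`φ q ≡ φ 0 mod p R` for all `φ ∈ ℱ`.  Then `φ q = φ 0` for all `φ ∈ ℱ`. -/
def StmtRayLite : Prop :=
  ∀ (K : Type) (_ : Field K) (_ : CharZero K) (R : Subring K) (p : ℕ), p.Prime → p ≠ 2 →
    (∀ x : K, (∀ s : ℕ, x / (p : K) ^ s ∈ R) → x = 0) →
    ∀ (Q : Type) (_ : AddCommGroup Q) (q : Q), p • q = 0 →
    ∀ ℱ : Set (Q → K),
      (∀ φ ∈ ℱ, ∀ x, φ x ∈ R) →
      (∀ φ ∈ ℱ, (fun xy : Q × Q => φ (xy.1 + xy.2)) ∈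
        Submodule.span R {F : Q × Q → K | ∃ a ∈ ℱ, ∃ b ∈ ℱ, F = fun xy => a xy.1 * b xy.2}) →
      (∀ φ ∈ ℱ, (φ q - φ 0) / (p : K) ∈ R) →
      ∀ φ ∈ ℱ, φ q = φ 0

/-- **B3.**  A finite `p`-group with a Hopf order over `ℤ_(p)` (`p` odd): its inertia span at a
place `P ∣ p` has no trivial sub-quotient. -/
def StmtNTSOfLattice : Prop :=
  ∀ (p : ℕ), p.Prime → p ≠ 2 →
    ∀ P : ValuationSubring (AlgebraicClosure ℚ), P.LiesOverPrime p →
    ∀ (M : Type) (_ : AddCommGroup M) (_ : Finite M) (act : GQb → M → M), IsContAction act →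
      (∃ m : ℕ, ∀ x : M, p ^ m • x = 0) →
      ∀ H : Subalgebra (GaloisRep.ratLocalizedAt p) (M → AlgebraicClosure ℚ),
        IsHopfLattice (GaloisRep.ratLocalizedAt p) act H →
        NTS (P.inertiaSubgroupIn ℚ) act (ntsSpan (P.inertiaSubgroupIn ℚ) act ⊤)

end Fermat.Agent.S33


end ZBS33_010_0

/-! ### bundled: `Fermat.Agent.S33.FlatOrd` -/
section ZBS33_010_1

/-!
# S33 v2, piece FO (helper15): flat + residually ordinary ⇒ ordinary

* `fo_isContAction` : the action of `G_ℚ` on `V / 𝔪ⁿ V` is a continuous action (`W1.IsContAction`);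
* `fo_levelSpan_le` : the image of the inertia span of `V` in `V / J V` lies in the inertia span
  of `V / J V`;
* `fo_ntsAt_of_isFlatAt` : `StmtNTSOfLattice` (B3) and `ρ.IsFlatAt p` give `NTSAt ρ P (𝔪ⁿ)`;
* `fo_isOrdinaryAt_of_isFlatAt` : **flat at `p` + residually ordinary + inertia acts non-trivially
  on the residual representation ⇒ ordinary at `p`** (`p` odd), from B3.
-/

set_option autoImplicit false
set_option linter.style.haveILetI false

namespace Fermat.Agent.S33

open Fermat.Agent.W1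

variable {A : Type} [CommRing A] [IsLocalRing A]

/-- the action of `G_ℚ` on `V / 𝔪ⁿ V` is continuous -/
theorem fo_isContAction (ρ : GaloisRepAdic A) (n : ℕ) :
    IsContAction (fun σ => ρ.levelAction (IsLocalRing.maximalIdeal A ^ n) σ) where
  one := by
    intro P
    obtain ⟨v, rfl⟩ := Submodule.mkQ_surjective _ P
    rw [levelAction_mkQ, map_one, Module.End.one_apply]
  mul := by
    intro σ τ P
    obtain ⟨v, rfl⟩ := Submodule.mkQ_surjective _ P
    rw [levelAction_mkQ, levelAction_mkQ, levelAction_mkQ, map_mul, Module.End.mul_apply]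
  add := fun σ P Q => map_add _ P Q
  open_stab := by
    intro P
    obtain ⟨v, rfl⟩ := Submodule.mkQ_surjective _ P
    obtain ⟨L, hL, h⟩ := ρ.isAdicContinuous n
    refine ⟨L, hL, fun σ hσ => ?_⟩
    rw [levelAction_mkQ, ← sub_eq_zero, ← map_sub]
    exact (Submodule.Quotient.mk_eq_zero _).2 (h σ hσ v)

/-- the inertia span of `V / J V` is stable under scalars -/
theorem fo_smul_mem_ntsSpan (ρ : GaloisRepAdic A) (P : ValuationSubring (AlgebraicClosure ℚ))
    (J : Ideal A) (a : A) {x : ρ.V ⧸ (J • (⊤ : Submodule A ρ.V))}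
    (hx : x ∈ ntsSpan (P.inertiaSubgroupIn ℚ) (fun σ => ρ.levelAction J σ) ⊤) :
    a • x ∈ ntsSpan (P.inertiaSubgroupIn ℚ) (fun σ => ρ.levelAction J σ) ⊤ := by
  unfold ntsSpan at hx ⊢
  induction hx using AddSubgroup.closure_induction with
  | mem w hw =>
    obtain ⟨σ, hσ, b, _, rfl⟩ := hw
    refine AddSubgroup.subset_closure ⟨σ, hσ, a • b, AddSubgroup.mem_top _, ?_⟩
    show a • (ρ.levelAction J σ b - b) = ρ.levelAction J σ (a • b) - a • b
    rw [smul_sub, map_smul]
  | zero => rw [smul_zero]; exact AddSubgroup.zero_mem _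
  | add x y _ _ hx hy => rw [smul_add]; exact AddSubgroup.add_mem _ hx hy
  | neg x _ hx => rw [smul_neg]; exact AddSubgroup.neg_mem _ hx

/-- the image of the inertia span of `V` lies in the inertia span of `V / J V` -/
theorem fo_levelSpan_le (ρ : GaloisRepAdic A) (P : ValuationSubring (AlgebraicClosure ℚ))
    (J : Ideal A) :
    levelSpan ρ P J ≤ ntsSpan (P.inertiaSubgroupIn ℚ) (fun σ => ρ.levelAction J σ) ⊤ := by
  rintro _ ⟨w, hw, rfl⟩
  induction hw using Submodule.span_induction with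
  | mem w hw =>
    obtain ⟨σ, hσ, v, rfl⟩ := hw
    have h1 : Submodule.mkQ (J • (⊤ : Submodule A ρ.V)) (ρ.ρ σ v - v) =
        ρ.levelAction J σ (Submodule.mkQ _ v) - Submodule.mkQ _ v := by
      rw [map_sub, levelAction_mkQ]
    rw [h1]
    exact sub_mem_ntsSpan hσ (AddSubgroup.mem_top _)
  | zero => rw [map_zero]; exact AddSubgroup.zero_mem _
  | add x y _ _ hx hy => rw [map_add]; exact AddSubgroup.add_mem _ hx hy
  | smul a x _ hx => rw [map_smul]; exact fo_smul_mem_ntsSpan ρ P J a hx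

/-- `V / 𝔪ⁿ V` is killed by `pⁿ` -/
theorem fo_pow_smul (ρ : GaloisRepAdic A) {p : ℕ}
    (hpA : (p : A) ∈ IsLocalRing.maximalIdeal A) (n : ℕ)
    (x : ρ.V ⧸ ((IsLocalRing.maximalIdeal A ^ n) • (⊤ : Submodule A ρ.V))) : p ^ n • x = 0 := by
  obtain ⟨v, rfl⟩ := Submodule.mkQ_surjective _ x
  rw [← map_nsmul]
  refine (Submodule.Quotient.mk_eq_zero _).2 ?_
  have h1 : p ^ n • v = ((p : A) ^ n) • v := by
    rw [← Nat.cast_pow, Nat.cast_smul_eq_nsmul]
  rw [h1]
  exact Submodule.smul_mem_smul (Ideal.pow_mem_pow hpA n) Submodule.mem_top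

/-- **B3 + flat ⇒ NTS at every finite level.** -/
theorem fo_ntsAt_of_isFlatAt (hB3 : StmtNTSOfLattice) [IsNoetherianRing A]
    (ρ : GaloisRepAdic A) {p : ℕ} (hp : p.Prime) (hp2 : p ≠ 2)
    (hpA : (p : A) ∈ IsLocalRing.maximalIdeal A) (hflat : ρ.IsFlatAt p)
    (P : ValuationSubring (AlgebraicClosure ℚ)) (hP : P.LiesOverPrime p) (n : ℕ) :
    NTSAt ρ P (IsLocalRing.maximalIdeal A ^ n) := by
  obtain ⟨hfinres, hmodel⟩ := (sq_isFlatAt_iff ρ p).1 hflat
  haveI : Finite (A ⧸ IsLocalRing.maximalIdeal A) := hfinres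
  haveI hfinq : Finite (A ⧸ IsLocalRing.maximalIdeal A ^ n) :=
    Ideal.finite_quotient_pow (IsNoetherian.noetherian _) n
  haveI hfinY : Finite (ρ.V ⧸ ((IsLocalRing.maximalIdeal A ^ n) • (⊤ : Submodule A ρ.V))) := by
    have : Module.Finite (A ⧸ IsLocalRing.maximalIdeal A ^ n)
        (ρ.V ⧸ ((IsLocalRing.maximalIdeal A ^ n) • (⊤ : Submodule A ρ.V))) :=
      Module.Finite.of_restrictScalars_finite A _ _
    exact Module.finite_of_finite (A ⧸ IsLocalRing.maximalIdeal A ^ n)
  obtain ⟨H, hH⟩ := sq_lattice_of_model (hmodel _ hfinq)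
  have h := hB3 p hp hp2 P hP _ inferInstance hfinY _ (fo_isContAction ρ n)
    ⟨n, fo_pow_smul ρ hpA n⟩ H hH
  exact h.mono (fo_levelSpan_le ρ P _)

/-- **FO: flat at `p` + residually ordinary ⇒ ordinary at `p`** (`p` odd, inertia at `p` acts
non-trivially on the residual representation), from B3. -/
theorem fo_isOrdinaryAt_of_isFlatAt (hB3 : StmtNTSOfLattice) [IsNoetherianRing A]
    (ρ : GaloisRepAdic A) {p : ℕ} (hp : p.Prime) (hp2 : p ≠ 2)
    (hpA : (p : A) ∈ IsLocalRing.maximalIdeal A)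
    (hne : ∀ P : ValuationSubring (AlgebraicClosure ℚ), P.LiesOverPrime p →
      ∃ σ ∈ P.inertiaSubgroupIn ℚ, ρ.residual.ρ σ ≠ 1)
    (hres : (GaloisRepAdic.ofResidualGaloisRep ρ.residual).IsOrdinaryAt p)
    (hflat : ρ.IsFlatAt p) : ρ.IsOrdinaryAt p :=
  isOrdinaryAt_of_nts ρ p hne hres fun P hP n =>
    fo_ntsAt_of_isFlatAt hB3 ρ hp hp2 hpA hflat P hP n

end Fermat.Agent.S33


end ZBS33_010_1

/-! ### bundled: `Fermat.Agent.S33.NTSJZero` -/
section ZBS33_010_2

/-!
# S33 v2, piece B4 (helper15): (KEY) at a level prime to `p`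

`J = J₀(N)`, `p ∤ N`, `p` odd, `P ∣ p`, `I = I_P`.  From S19 (`Fermat.Agent.S19.result`, a finite
flat model of `J[pᵏ]` over `ℤ_(p)`) and B3 (`StmtNTSOfLattice`):

* `fo_nts_jzero_tors` : `NTS I (𝔄 ⊤)` on the group `J[pᵏ]` (`Submodule.torsionBy`, `W1.torsAct`);
* `fo_nts_jzero` : `NTS I (𝔄 J[pᵏ])` inside `J` (`ntsTors (JZero N) (p ^ k)`, the shape of
  `nts_key_of_new`).
-/

set_option autoImplicit false
set_option linter.style.haveILetI false

namespace Fermat.Agent.S33

open ModularCurve Fermat.Agent.W1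

/-- **B4, torsion form.** -/
theorem fo_nts_jzero_tors (hB3 : StmtNTSOfLattice) (N : ℕ) [NeZero N] {p : ℕ} (hp : p.Prime)
    (hp2 : p ≠ 2) (hpN : ¬ p ∣ N) (P : ValuationSubring (AlgebraicClosure ℚ))
    (hP : P.LiesOverPrime p) (k : ℕ) :
    NTS (P.inertiaSubgroupIn ℚ) (torsAct (JZero N) ((p : ℤ) ^ k))
      (ntsSpan (P.inertiaSubgroupIn ℚ) (torsAct (JZero N) ((p : ℤ) ^ k)) ⊤) := by
  haveI : Fact p.Prime := ⟨hp⟩
  have hmodel : HasFiniteFlatModel (GaloisRep.ratLocalizedAt p)
      ↥(Submodule.torsionBy ℤ (JZero N) ((p : ℤ) ^ k)) (torsAct (JZero N) ((p : ℤ) ^ k)) := by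
    obtain ⟨H, i1, i2, h1, h2, h3, e, he1, he2⟩ := Fermat.Agent.S19.result N p hpN k
    exact ⟨H, i1, i2, h1, h2, h3, e, he1, fun σ f g hfg => Subtype.ext (he2 σ f g hfg)⟩
  haveI hfin : Finite ↥(Submodule.torsionBy ℤ (JZero N) ((p : ℤ) ^ k)) :=
    s19f_finite N p hp.ne_zero k
  obtain ⟨H, hH⟩ := sq_lattice_of_model hmodel
  refine hB3 p hp hp2 P hP _ inferInstance hfin _ (s19f_cont N p hp.ne_zero k)
    ⟨k, fun x => ?_⟩ H hH
  apply Subtype.ext
  rw [AddSubmonoidClass.coe_nsmul]
  exact s19f_nsmul_of_mem p k x.2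

/-- **B4, ambient form** (the shape of the hypothesis `hold` of `nts_key_of_new`). -/
theorem fo_nts_jzero (hB3 : StmtNTSOfLattice) (N : ℕ) [NeZero N] {p : ℕ} (hp : p.Prime)
    (hp2 : p ≠ 2) (hpN : ¬ p ∣ N) (P : ValuationSubring (AlgebraicClosure ℚ))
    (hP : P.LiesOverPrime p) (k : ℕ) :
    NTS (P.inertiaSubgroupIn ℚ)
      (fun (σ : AlgebraicClosure ℚ ≃ₐ[ℚ] AlgebraicClosure ℚ) (x : JZero N) => σ • x)
      (ntsSpan (P.inertiaSubgroupIn ℚ)
        (fun (σ : AlgebraicClosure ℚ ≃ₐ[ℚ] AlgebraicClosure ℚ) (x : JZero N) => σ • x)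
        (ntsTors (JZero N) (p ^ k))) := by
  have h0 := fo_nts_jzero_tors hB3 N hp hp2 hpN P hP k
  set f : ↥(Submodule.torsionBy ℤ (JZero N) ((p : ℤ) ^ k)) →+ JZero N :=
    (Submodule.torsionBy ℤ (JZero N) ((p : ℤ) ^ k)).subtype.toAddMonoidHom with hf
  have hfeq : ∀ σ ∈ P.inertiaSubgroupIn ℚ,
      ∀ c : ↥(Submodule.torsionBy ℤ (JZero N) ((p : ℤ) ^ k)),
        f (torsAct (JZero N) ((p : ℤ) ^ k) σ c) = σ • f c := fun _ _ _ => rfl
  have hst : ntsStable (P.inertiaSubgroupIn ℚ) (torsAct (JZero N) ((p : ℤ) ^ k))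
      (⊤ : AddSubgroup ↥(Submodule.torsionBy ℤ (JZero N) ((p : ℤ) ^ k))) :=
    fun _ _ _ _ => AddSubgroup.mem_top _
  have h1 := NTS.map (actX := torsAct (JZero N) ((p : ℤ) ^ k))
    (actY := fun (σ : AlgebraicClosure ℚ ≃ₐ[ℚ] AlgebraicClosure ℚ) (x : JZero N) => σ • x)
    f hfeq h0 (ntsStable_ntsSpan_of_stable hst)
  refine h1.mono ?_
  refine le_trans (ntsSpan_mono ?_)
    (ntsSpan_map_le (actF := torsAct (JZero N) ((p : ℤ) ^ k))
      (actX := fun (σ : AlgebraicClosure ℚ ≃ₐ[ℚ] AlgebraicClosure ℚ) (x : JZero N) => σ • x)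
      f hfeq ⊤)
  intro t ht
  have ht' : t ∈ Submodule.torsionBy ℤ (JZero N) ((p : ℤ) ^ k) := by
    rw [Submodule.mem_torsionBy_iff, ← s19f_cast, natCast_zsmul]
    exact ht
  exact ⟨⟨t, ht'⟩, AddSubgroup.mem_top _, rfl⟩

end Fermat.Agent.S33


end ZBS33_010_2

/-! ### bundled: `Fermat.Agent.S33.RayLiteStmt` -/
section ZBS33_010_3

/-!
# S33 v2, piece B2: `stmtRayLite : StmtRayLite` (helper53)

The exact `Prop` of `S33/Plan2.lean`, deduced from the core `raylite_eq` of `S33/RayLite.lean`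
(functions with values in the ring `B := R`).
-/

set_option autoImplicit false

namespace Fermat.Agent.S33

/-- composition with the inclusion `R → K`, as an `R`-linear map on functions -/
def rayliteIncl {K : Type} [Field K] (R : Subring K) (X : Type) : (X → R) →ₗ[R] (X → K) where
  toFun f := fun x => (f x : K)
  map_add' f g := by funext x; simp
  map_smul' c f := by funext x; simp [Subring.smul_def]

theorem rayliteIncl_injective {K : Type} [Field K] (R : Subring K) (X : Type) :
    Function.Injective (rayliteIncl R X) := by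
  intro f g h
  funext x
  exact Subtype.ext (congrFun h x)

/-- **B2 (Raynaud-lite)**, the exact statement of `Plan2.lean`. -/
theorem stmtRayLite : StmtRayLite := by
  intro K _ _ R p hp hp2 hsepK Q _ q hq ℱ hval hcomul hconn φ hφ
  have hpK : (p : K) ≠ 0 := Nat.cast_ne_zero.mpr hp.ne_zero
  -- the `R`-valued family
  let H : Set (Q → R) := {h | rayliteIncl R Q h ∈ ℱ}
  -- every element of `ℱ` comes from `H`
  have hlift : ∀ a ∈ ℱ, ∃ a' ∈ H, rayliteIncl R Q a' = a := by
    intro a ha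
    refine ⟨fun x => ⟨a x, hval a ha x⟩, ?_, rfl⟩
    show rayliteIncl R Q _ ∈ ℱ
    exact ha
  have hH : RayliteComul H := by
    intro h hh
    have h1 := hcomul _ hh
    -- the set of pure tensors is the image of `raylitePure H`
    have hset : {F : Q × Q → K | ∃ a ∈ ℱ, ∃ b ∈ ℱ, F = fun xy => a xy.1 * b xy.2}
        = (rayliteIncl R (Q × Q)) '' (raylitePure H) := by
      ext F
      constructor
      · rintro ⟨a, ha, b, hb, rfl⟩
        obtain ⟨a', ha', rfl⟩ := hlift a ha
        obtain ⟨b', hb', rfl⟩ := hlift b hb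
        exact ⟨fun xy => a' xy.1 * b' xy.2, ⟨a', ha', b', hb', rfl⟩, by
          funext xy; simp [rayliteIncl]⟩
      · rintro ⟨G, ⟨a', ha', b', hb', rfl⟩, rfl⟩
        exact ⟨rayliteIncl R Q a', ha', rayliteIncl R Q b', hb', by
          funext xy; simp [rayliteIncl]⟩
    rw [hset, ← Submodule.map_span] at h1
    obtain ⟨G, hG, hG'⟩ := h1
    have : G = fun PQ : Q × Q => h (PQ.1 + PQ.2) := by
      apply rayliteIncl_injective R (Q × Q)
      rw [hG']
      rfl
    rw [← this]
    exact hG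
  have hreg : ∀ x : R, ((p : ℕ) : R) * x = 0 → x = 0 := by
    intro x hx
    have hpR : ((p : ℕ) : R) ≠ 0 := by
      intro h0
      apply hpK
      have := congrArg (Subtype.val) h0
      simpa using this
    rcases mul_eq_zero.mp hx with h | h
    · exact absurd h hpR
    · exact h
  have hsep : ∀ x : R, (∀ s : ℕ, ((p : ℕ) : R) ^ s ∣ x) → x = 0 := by
    intro x hx
    apply Subtype.ext
    show (x : K) = 0
    apply hsepK
    intro s
    obtain ⟨y, hy⟩ := hx s
    have : (x : K) = (p : K) ^ s * (y : K) := by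
      have := congrArg (Subtype.val) hy
      simpa using this
    rw [this, mul_div_cancel_left₀ _ (pow_ne_zero _ hpK)]
    exact y.2
  obtain ⟨φ', hφ', rfl⟩ := hlift φ hφ
  have hc : ∀ h ∈ H, ((p : ℕ) : R) ∣ h q - h 0 := by
    intro h hh
    have := hconn _ hh
    refine ⟨⟨_, this⟩, ?_⟩
    apply Subtype.ext
    show ((h q - h 0 : R) : K) = (((p : ℕ) : R) : K) * _
    have e1 : ((h q - h 0 : R) : K) = (h q : K) - (h 0 : K) := by push_cast; rfl
    have e2 : (((p : ℕ) : R) : K) = (p : K) := by push_cast; rfl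
    rw [e1, e2]
    show (h q : K) - (h 0 : K) = (p : K) * ((rayliteIncl R Q h q - rayliteIncl R Q h 0) / (p : K))
    show (h q : K) - (h 0 : K) = (p : K) * (((h q : K) - (h 0 : K)) / (p : K))
    field_simp
  have := raylite_eq hH hp hp2 hreg hsep q hq hc φ' hφ'
  show ((φ' q : R) : K) = ((φ' 0 : R) : K)
  rw [this]

end Fermat.Agent.S33


end ZBS33_010_3

/-! ### bundled: `Fermat.Agent.S33.SQLocLin` -/
section ZBS33_010_4

/-!
# S33 v2, piece B1 (SQ-loc), part 1: linear algebra of a lattice of `I`-equivariant functions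

`R ⊂ ℚ̄` a subring, `I ≤ G_ℚ` a subgroup, every `I`-fixed element of `ℚ̄` a fraction of elements
of `R` (`SqlocFrac R I`).  For a finite set `M` and an `R`-subalgebra `H ⊂ Map(M, ℚ̄)`:

* `sqloc_span_top`       : the `ℚ̄`-span of a separating `H` is the space of all functions;
* `sqloc_linearIndependent` : Artin's lemma — a family of `I`-equivariant functions which is
  linearly independent over `R` is linearly independent over `ℚ̄`;
* `sqloc_exists_basis`   : (`R` a PID) a finitely generated `I`-equivariant `H` has an `R`-basis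
  which is linearly independent over `ℚ̄`;
* `sqloc_exists_smul_mem`: every `I`-equivariant function has a non-zero `R`-multiple in a
  finitely generated, equivariant, separating `H`.

This is helper17's `W1/SubQuotLin.lean` with `(ℤ_(p), ℚ, G_ℚ)` replaced by `(R, ℚ̄^I, I)`.
-/

set_option autoImplicit false
set_option linter.unusedSectionVars false
set_option linter.unusedSimpArgs false
set_option linter.style.haveILetI false

namespace Fermat.Agent.S33

/-- every `I`-fixed element of `ℚ̄` is a fraction of elements of `R` -/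
def SqlocFrac (R : Subring (AlgebraicClosure ℚ)) (I : Subgroup GQb) : Prop :=
  ∀ x : AlgebraicClosure ℚ, (∀ σ ∈ I, σ x = x) → ∃ r ∈ R, ∃ s ∈ R, s ≠ 0 ∧ x * s = r

section SpanTop

variable {R : Subring (AlgebraicClosure ℚ)} {M : Type}

/-- The `ℚ̄`-span of a subalgebra is a `ℚ̄`-subalgebra. -/
theorem sqloc_span_eq_adjoin (H : Subalgebra R (M → AlgebraicClosure ℚ)) :
    Submodule.span (AlgebraicClosure ℚ) (H : Set (M → AlgebraicClosure ℚ)) =
      Subalgebra.toSubmodule
        (Algebra.adjoin (AlgebraicClosure ℚ) (H : Set (M → AlgebraicClosure ℚ))) := by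
  rw [Algebra.adjoin_eq_span]
  congr 1
  have h1 : ((H.toSubsemiring.toSubmonoid : Submonoid (M → AlgebraicClosure ℚ)) :
      Set (M → AlgebraicClosure ℚ)) = (H : Set (M → AlgebraicClosure ℚ)) := rfl
  rw [← h1, Submonoid.closure_eq]

/-- Over a finite set, the `ℚ̄`-span of a separating subalgebra is everything. -/
theorem sqloc_span_top [Finite M] (H : Subalgebra R (M → AlgebraicClosure ℚ))
    (hsep : ∀ P Q : M, (∀ h ∈ H, h P = h Q) → P = Q) :
    Submodule.span (AlgebraicClosure ℚ) (H : Set (M → AlgebraicClosure ℚ)) = ⊤ := by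
  classical
  haveI : Fintype M := Fintype.ofFinite M
  rw [sqloc_span_eq_adjoin]
  set A := Algebra.adjoin (AlgebraicClosure ℚ) (H : Set (M → AlgebraicClosure ℚ)) with hA
  -- separating functions
  have hex : ∀ P Q : M, P ≠ Q → ∃ h ∈ H, h P ≠ h Q := by
    intro P Q hPQ
    by_contra hcon
    refine hPQ (hsep P Q fun h hh => ?_)
    by_contra hne
    exact hcon ⟨h, hh, hne⟩
  -- the indicator functions
  have hind : ∀ P : M, (fun x => if x = P then (1 : AlgebraicClosure ℚ) else 0) ∈ A := by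
    intro P
    -- a factor for every `Q ≠ P`
    have hfac : ∀ Q : M, ∃ g ∈ A, g P = 1 ∧ (Q ≠ P → g Q = 0) := by
      intro Q
      by_cases hQ : Q = P
      · exact ⟨1, A.one_mem, rfl, fun h => absurd hQ h⟩
      · obtain ⟨h, hh, hne⟩ := hex P Q (Ne.symm hQ)
        have hne' : h P - h Q ≠ 0 := sub_ne_zero.2 hne
        refine ⟨(h P - h Q)⁻¹ • (h - algebraMap (AlgebraicClosure ℚ) _ (h Q)),
          A.smul_mem (A.sub_mem (Algebra.subset_adjoin hh) (A.algebraMap_mem _)) _, ?_, ?_⟩
        · simp [Pi.algebraMap_apply, hne']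
        · intro _
          simp [Pi.algebraMap_apply]
    choose g hgA hgP hgQ using hfac
    have h1 : (∏ Q ∈ Finset.univ.erase P, g Q) ∈ A := A.prod_mem fun Q _ => hgA Q
    convert h1 using 1
    funext x
    rw [Finset.prod_apply]
    by_cases hx : x = P
    · subst hx
      rw [if_pos rfl]
      symm
      refine Finset.prod_eq_one fun Q hQ => ?_
      by_cases hQx : Q = x
      · exact absurd hQx (Finset.ne_of_mem_erase hQ)
      · exact hgP Q
    · rw [if_neg hx]
      symm
      refine Finset.prod_eq_zero (Finset.mem_erase.2 ⟨hx, Finset.mem_univ x⟩) ?_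
      exact hgQ x hx
  rw [eq_top_iff]
  intro f _
  have hf : f = ∑ P : M, f P • (fun x => if x = P then (1 : AlgebraicClosure ℚ) else 0) := by
    funext x
    simp [Finset.sum_apply]
  rw [hf]
  exact (Subalgebra.mem_toSubmodule A).2 (A.sum_mem fun P _ => A.smul_mem (hind P) _)

end SpanTop

section Artin

variable {R : Subring (AlgebraicClosure ℚ)} {I : Subgroup GQb}

/-- a common denominator in `R` of finitely many `I`-fixed elements -/
theorem sqloc_common_den {ι : Type*} (hfrac : SqlocFrac R I) (t : Finset ι)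
    (c : ι → AlgebraicClosure ℚ) (hc : ∀ i ∈ t, ∀ σ ∈ I, σ (c i) = c i) :
    ∃ d ∈ R, d ≠ 0 ∧ ∀ i ∈ t, d * c i ∈ R := by
  classical
  induction t using Finset.induction_on with
  | empty => exact ⟨1, R.one_mem, one_ne_zero, fun i hi => absurd hi (Finset.notMem_empty i)⟩
  | insert a s has ih =>
    obtain ⟨d, hd, hd0, hds⟩ := ih fun i hi => hc i (Finset.mem_insert_of_mem hi)
    obtain ⟨r, hr, s', hs', hs'0, hrs⟩ := hfrac (c a) (hc a (Finset.mem_insert_self a s))
    refine ⟨d * s', R.mul_mem hd hs', mul_ne_zero hd0 hs'0, fun i hi => ?_⟩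
    rcases Finset.mem_insert.1 hi with rfl | hi
    · have : d * s' * c i = d * r := by rw [← hrs]; ring
      rw [this]
      exact R.mul_mem hd hr
    · have : d * s' * c i = s' * (d * c i) := by ring
      rw [this]
      exact R.mul_mem hs' (hds i hi)

/-- **Artin's lemma** for `I`-equivariant functions: linear independence over `R` implies linear
independence over `ℚ̄`. -/
theorem sqloc_linearIndependent {X ι : Type*} (hfrac : SqlocFrac R I)
    (act : GQb → X → X) (h : ι → X → AlgebraicClosure ℚ)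
    (hequiv : ∀ i, ∀ σ ∈ I, ∀ x : X, h i (act σ x) = σ (h i x))
    (hR : LinearIndependent R h) : LinearIndependent (AlgebraicClosure ℚ) h := by
  classical
  rw [linearIndependent_iff']
  intro s
  induction s using Finset.induction_on with
  | empty => intro g _ i hi; simp at hi
  | insert a s has ih =>
    intro g hg
    -- twisting a relation by `σ`
    have twist : ∀ (t : Finset ι) (c : ι → AlgebraicClosure ℚ),
        ∑ i ∈ t, c i • h i = 0 →
        ∀ σ ∈ I, ∑ i ∈ t, (σ (c i)) • h i = 0 := by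
      intro t c hc σ hσ
      funext x
      have h1 := congrFun hc (act σ⁻¹ x)
      simp only [Finset.sum_apply, Pi.smul_apply, smul_eq_mul, Pi.zero_apply] at h1 ⊢
      have h2 := congrArg σ h1
      simp only [map_sum, map_mul, map_zero] at h2
      rw [← h2]
      refine Finset.sum_congr rfl fun i _ => ?_
      rw [hequiv i σ⁻¹ (I.inv_mem hσ) x]
      have : σ (σ⁻¹ (h i x)) = h i x := by
        rw [← AlgEquiv.mul_apply, mul_inv_cancel, AlgEquiv.one_apply]
      rw [this]
    by_cases hga : g a = 0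
    · -- reduce to `s`
      have hs : ∑ i ∈ s, g i • h i = 0 := by
        rw [Finset.sum_insert has, hga, zero_smul, zero_add] at hg
        exact hg
      intro i hi
      rcases Finset.mem_insert.1 hi with rfl | hi
      · exact hga
      · exact ih g hs i hi
    · exfalso
      -- normalise
      set c : ι → AlgebraicClosure ℚ := fun i => (g a)⁻¹ * g i with hc
      have hca : c a = 1 := by simp [hc, hga]
      have hcrel : ∑ i ∈ insert a s, c i • h i = 0 := by
        have : ∑ i ∈ insert a s, c i • h i = (g a)⁻¹ • ∑ i ∈ insert a s, g i • h i := by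
          rw [Finset.smul_sum]
          refine Finset.sum_congr rfl fun i _ => ?_
          simp [hc, mul_smul]
        rw [this, hg, smul_zero]
      -- all coefficients are fixed
      have hfix : ∀ i ∈ insert a s, ∀ σ ∈ I, σ (c i) = c i := by
        intro i hi σ hσ
        have h1 := twist _ c hcrel σ hσ
        have h2 : ∑ i ∈ s, (σ (c i) - c i) • h i = 0 := by
          have h3 : ∑ i ∈ insert a s, (σ (c i) - c i) • h i = 0 := by
            simp only [sub_smul, Finset.sum_sub_distrib, h1, hcrel, sub_zero]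
          rw [Finset.sum_insert has, hca, map_one, sub_self, zero_smul, zero_add] at h3
          exact h3
        rcases Finset.mem_insert.1 hi with rfl | hi
        · rw [hca, map_one]
        · exact sub_eq_zero.1 (ih _ h2 i hi)
      obtain ⟨d, hd, hd0, hdc⟩ := sqloc_common_den hfrac (insert a s) c hfix
      set q : ι → R := fun i => if hi : i ∈ insert a s then ⟨d * c i, hdc i hi⟩ else 0 with hq
      have hqv : ∀ i ∈ insert a s, ((q i : R) : AlgebraicClosure ℚ) = d * c i := by
        intro i hi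
        simp only [hq, dif_pos hi]
      have hqrel : ∑ i ∈ insert a s, q i • h i = 0 := by
        have e : ∑ i ∈ insert a s, q i • h i = d • ∑ i ∈ insert a s, c i • h i := by
          rw [Finset.smul_sum]
          refine Finset.sum_congr rfl fun i hi => ?_
          funext x
          show ((q i : R) : AlgebraicClosure ℚ) * h i x = d * (c i * h i x)
          rw [hqv i hi, mul_assoc]
        rw [e, hcrel, smul_zero]
      have h0 := linearIndependent_iff'.1 hR _ q hqrel a (Finset.mem_insert_self a s)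
      have h1 := hqv a (Finset.mem_insert_self a s)
      rw [h0, hca, mul_one] at h1
      exact hd0 h1.symm

end Artin

section Basis

variable {R : Subring (AlgebraicClosure ℚ)} {I : Subgroup GQb} {M : Type}
  {act : GQb → M → M} {H : Subalgebra R (M → AlgebraicClosure ℚ)}

/-- The lattice is torsion free. -/
theorem sqloc_isTorsionFree (H : Subalgebra R (M → AlgebraicClosure ℚ)) :
    Module.IsTorsionFree R H := by
  refine Module.IsTorsionFree.of_smul_eq_zero fun r h hrh => ?_
  by_cases hr : r = 0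
  · exact Or.inl hr
  · right
    apply Subtype.ext
    funext P
    have h1 : r • ((h : M → AlgebraicClosure ℚ) P) = 0 :=
      congrArg (fun x : H => (x : M → AlgebraicClosure ℚ) P) hrh
    have h2 : (r : AlgebraicClosure ℚ) * (h : M → AlgebraicClosure ℚ) P = 0 := h1
    rcases mul_eq_zero.1 h2 with h3 | h3
    · exact absurd (Subtype.ext h3) hr
    · simpa using h3

/-- Evaluation of a scalar multiple in a lattice. -/
theorem sqloc_coe_smul_apply (H : Subalgebra R (M → AlgebraicClosure ℚ)) (r : R) (h : H)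
    (Q : M) :
    ((r • h : H) : M → AlgebraicClosure ℚ) Q =
      (r : AlgebraicClosure ℚ) * (h : M → AlgebraicClosure ℚ) Q := rfl

variable [IsPrincipalIdealRing R]

/-- A finitely generated lattice of `I`-equivariant functions has an `R`-basis which is linearly
independent over `ℚ̄`. -/
theorem sqloc_exists_basis (hfrac : SqlocFrac R I) (hfg : (Subalgebra.toSubmodule H).FG)
    (hequiv : ∀ h ∈ H, ∀ σ ∈ I, ∀ P : M, h (act σ P) = σ (h P)) :
    ∃ (n : ℕ) (b : Module.Basis (Fin n) R H),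
      LinearIndependent (AlgebraicClosure ℚ)
        (fun i => ((b i : H) : M → AlgebraicClosure ℚ)) := by
  haveI : Module.Finite R H := Module.Finite.iff_fg.2 hfg
  haveI : Module.IsTorsionFree R H := sqloc_isTorsionFree H
  haveI : Module.Free R H := Module.free_of_finite_type_torsion_free'
  refine ⟨_, Module.finBasis R H, ?_⟩
  set b := Module.finBasis R H
  have h1 : LinearIndependent R (fun i => ((b i : H) : M → AlgebraicClosure ℚ)) := by
    have := b.linearIndependent.map' (Subalgebra.toSubmodule H).subtype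
      (Submodule.ker_subtype _)
    exact this
  exact sqloc_linearIndependent hfrac act _ (fun i σ hσ x => hequiv _ (b i).2 σ hσ x) h1

/-- An `R`-basis of a separating lattice spans all functions over `ℚ̄`. -/
theorem sqloc_basis_span_top [Finite M] (hsep : ∀ P Q : M, (∀ h ∈ H, h P = h Q) → P = Q)
    {n : ℕ} (b : Module.Basis (Fin n) R H) :
    Submodule.span (AlgebraicClosure ℚ)
      (Set.range fun i => ((b i : H) : M → AlgebraicClosure ℚ)) = ⊤ := by
  rw [eq_top_iff, ← sqloc_span_top H hsep, Submodule.span_le]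
  intro h hh
  have h1 : (⟨h, hh⟩ : H) = ∑ i, b.repr ⟨h, hh⟩ i • b i := (b.sum_repr _).symm
  have h2 : h = ∑ i, ((b.repr ⟨h, hh⟩ i : R) : AlgebraicClosure ℚ) •
      ((b i : H) : M → AlgebraicClosure ℚ) := by
    have h3 := congrArg (fun x : H => (x : M → AlgebraicClosure ℚ)) h1
    simp only [AddSubmonoidClass.coe_finsetSum] at h3
    refine h3.trans ?_
    refine Finset.sum_congr rfl fun i _ => ?_
    funext x
    rfl
  rw [h2]
  exact Submodule.sum_mem _ fun i _ =>
    Submodule.smul_mem _ _ (Submodule.subset_span ⟨i, rfl⟩)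

/-- **`Frac(R) H = Map_I(M, ℚ̄)`**: every `I`-equivariant function has a non-zero `R`-multiple
in a separating lattice `H`. -/
theorem sqloc_exists_smul_mem [Finite M] (hfrac : SqlocFrac R I)
    (hfg : (Subalgebra.toSubmodule H).FG)
    (hequiv : ∀ h ∈ H, ∀ σ ∈ I, ∀ P : M, h (act σ P) = σ (h P))
    (hsep : ∀ P Q : M, (∀ h ∈ H, h P = h Q) → P = Q)
    (f : M → AlgebraicClosure ℚ)
    (hf : ∀ σ ∈ I, ∀ P : M, f (act σ P) = σ (f P)) :
    ∃ d : R, d ≠ 0 ∧ d • f ∈ H := by
  classical
  obtain ⟨n, b, hli⟩ := sqloc_exists_basis hfrac hfg hequiv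
  have hspan := sqloc_basis_span_top hsep b
  set v : Fin n → M → AlgebraicClosure ℚ := fun i => ((b i : H) : M → AlgebraicClosure ℚ)
    with hv
  have hfmem : f ∈ Submodule.span (AlgebraicClosure ℚ) (Set.range v) := by
    rw [hspan]; trivial
  obtain ⟨c, hc⟩ := (Submodule.mem_span_range_iff_exists_fun (AlgebraicClosure ℚ)).1 hfmem
  -- the coefficients are invariant
  have hfix : ∀ i ∈ (Finset.univ : Finset (Fin n)), ∀ σ ∈ I, σ (c i) = c i := by
    intro i _ σ hσ
    have h1 : ∑ i, σ (c i) • v i = f := by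
      funext x
      have h2 := congrFun hc (act σ⁻¹ x)
      simp only [Finset.sum_apply, Pi.smul_apply, smul_eq_mul] at h2 ⊢
      have h3 := congrArg σ h2
      rw [hf σ⁻¹ (I.inv_mem hσ) x] at h3
      have e : ∀ y : AlgebraicClosure ℚ, σ (σ⁻¹ y) = y := fun y => by
        rw [← AlgEquiv.mul_apply, mul_inv_cancel, AlgEquiv.one_apply]
      simp only [map_sum, map_mul, e] at h3
      rw [← h3]
      refine Finset.sum_congr rfl fun i _ => ?_
      have h5 : v i (act σ⁻¹ x) = σ⁻¹ (v i x) := hequiv _ (b i).2 σ⁻¹ (I.inv_mem hσ) x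
      rw [h5, e]
    have h4 : ∑ i, (σ (c i) - c i) • v i = 0 := by
      simp only [sub_smul, Finset.sum_sub_distrib, h1, hc, sub_self]
    exact sub_eq_zero.1 (Fintype.linearIndependent_iff.1 hli _ h4 i)
  obtain ⟨d, hd, hd0, hdc⟩ := sqloc_common_den hfrac Finset.univ c hfix
  refine ⟨⟨d, hd⟩, fun h => hd0 (congrArg Subtype.val h), ?_⟩
  have h5 : (⟨d, hd⟩ : R) • f =
      ∑ i, (⟨d * c i, hdc i (Finset.mem_univ i)⟩ : R) • v i := by
    rw [← hc, Finset.smul_sum]
    refine Finset.sum_congr rfl fun i _ => ?_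
    funext x
    show d * (c i * v i x) = d * c i * v i x
    rw [mul_assoc]
  rw [h5]
  exact H.sum_mem fun i _ => H.smul_mem (b i).2 _

end Basis

end Fermat.Agent.S33


end ZBS33_010_4

/-! ### bundled: `Fermat.Agent.S33.SQLocQuot` -/
section ZBS33_010_5

/-!
# S33 v2, piece B1 (SQ-loc), part 2: quotients of Hopf lattices over `(R, I)`

`stmtSQLocQuot : StmtSQLocQuot` (`Plan2.lean`): if `H` is a Hopf lattice over `(R, I)` on the
finite group `M` (`R ⊂ ℚ̄` a PID fixed by `I`, every `I`-fixed element of `ℚ̄` a fraction of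
elements of `R`) and `π : M → M''` is a surjective `I`-equivariant additive map, then
`H'' = {φ : M'' → ℚ̄ | φ ∘ π ∈ H}` is a Hopf lattice over `(R, I)` on `M''`.

* finitely generated: `R` is noetherian;
* separation: the traces `P'' ↦ ∑_{π x = P''} h x` are `I`-equivariant, hence have a multiple in
  `H''` (`sqloc_exists_smul_mem`), and they separate points because `H` spans all functions;
* comultiplication: `H''` is saturated in `H`; expand `(P, Q) ↦ h (P + Q)` in `ℚ̄`-linearly
  independent `R`-bases and use the invariance under the kernel of `π` in each variable.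

This is helper17's `W1/SubQuotQuot.lean` (`W1.sq_quot`) with `(ℤ_(p), ℚ, G_ℚ)` replaced by
`(R, ℚ̄^I, I)`.
-/

set_option autoImplicit false
set_option linter.unusedSectionVars false
set_option linter.unusedSimpArgs false
set_option linter.style.haveILetI false

namespace Fermat.Agent.S33

section Quot

variable {R : Subring (AlgebraicClosure ℚ)} {I : Subgroup GQb}
  {M M'' : Type} [AddCommGroup M] [AddCommGroup M'']
  {act : GQb → M → M} {act'' : GQb → M'' → M''}
  {H : Subalgebra R (M → AlgebraicClosure ℚ)}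

/-- Pull-back along a surjective map is injective. -/
theorem sqloc_pull_injective {π : M → M''} (hπ : Function.Surjective π) :
    Function.Injective (pullFnOver R π) := by
  intro f g hfg
  funext P''
  obtain ⟨P, rfl⟩ := hπ P''
  exact congrFun hfg P

theorem sqloc_mem_comap {π : M → M''} {φ : M'' → AlgebraicClosure ℚ} :
    φ ∈ H.comap (pullFnOver R π) ↔ (fun P => φ (π P)) ∈ H := Iff.rfl

theorem sqloc_apply_inv_apply (σ : GQb) (y : AlgebraicClosure ℚ) : σ (σ⁻¹ y) = y := by
  rw [← AlgEquiv.mul_apply, mul_inv_cancel, AlgEquiv.one_apply]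

theorem sqloc_inv_apply_apply (σ : GQb) (y : AlgebraicClosure ℚ) : σ⁻¹ (σ y) = y := by
  rw [← AlgEquiv.mul_apply, inv_mul_cancel, AlgEquiv.one_apply]

/-- The action of `I` is by permutations (1). -/
theorem sqloc_act_inv_act
    (hequiv : ∀ h ∈ H, ∀ σ ∈ I, ∀ P : M, h (act σ P) = σ (h P))
    (hsep : ∀ P Q : M, (∀ h ∈ H, h P = h Q) → P = Q)
    (σ : GQb) (hσ : σ ∈ I) (P : M) : act σ⁻¹ (act σ P) = P := by
  refine hsep _ _ fun h hh => ?_
  rw [hequiv h hh σ⁻¹ (I.inv_mem hσ), hequiv h hh σ hσ, sqloc_inv_apply_apply]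

/-- The action of `I` is by permutations (2). -/
theorem sqloc_act_act_inv
    (hequiv : ∀ h ∈ H, ∀ σ ∈ I, ∀ P : M, h (act σ P) = σ (h P))
    (hsep : ∀ P Q : M, (∀ h ∈ H, h P = h Q) → P = Q)
    (σ : GQb) (hσ : σ ∈ I) (P : M) : act σ (act σ⁻¹ P) = P := by
  refine hsep _ _ fun h hh => ?_
  rw [hequiv h hh σ hσ, hequiv h hh σ⁻¹ (I.inv_mem hσ), sqloc_apply_inv_apply]

/-- The sum of a function over the fibres of `π`. -/
noncomputable def sqlocTrace [Fintype M] [DecidableEq M''] (π : M → M'')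
    (h : M → AlgebraicClosure ℚ) : M'' → AlgebraicClosure ℚ :=
  fun P'' => ∑ x ∈ Finset.univ.filter (fun x => π x = P''), h x

/-- The trace of an element of `H` is equivariant. -/
theorem sqloc_trace_equivariant [Fintype M] [DecidableEq M'']
    (hequiv : ∀ h ∈ H, ∀ σ ∈ I, ∀ P : M, h (act σ P) = σ (h P))
    (hsep : ∀ P Q : M, (∀ h ∈ H, h P = h Q) → P = Q)
    {π : M → M''} (hπ : Function.Surjective π)
    (hπequiv : ∀ σ ∈ I, ∀ P, π (act σ P) = act'' σ (π P))
    (h : M → AlgebraicClosure ℚ) (hh : h ∈ H)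
    (σ : GQb) (hσ : σ ∈ I) (P'' : M'') :
    sqlocTrace π h (act'' σ P'') = σ (sqlocTrace π h P'') := by
  unfold sqlocTrace
  rw [map_sum]
  symm
  refine Finset.sum_nbij' (fun x => act σ x) (fun y => act σ⁻¹ y) ?_ ?_ ?_ ?_ ?_
  · intro a ha
    simp only [Finset.mem_filter, Finset.mem_univ, true_and] at ha ⊢
    rw [hπequiv σ hσ, ha]
  · intro y hy
    simp only [Finset.mem_filter, Finset.mem_univ, true_and] at hy ⊢
    obtain ⟨x₀, rfl⟩ := hπ P''
    rw [hπequiv σ⁻¹ (I.inv_mem hσ), hy, ← hπequiv σ hσ, ← hπequiv σ⁻¹ (I.inv_mem hσ),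
      sqloc_act_inv_act hequiv hsep σ hσ]
  · intro a _
    exact sqloc_act_inv_act hequiv hsep σ hσ a
  · intro y _
    exact sqloc_act_act_inv hequiv hsep σ hσ y
  · intro a _
    exact (hequiv h hh σ hσ a).symm

variable [IsPrincipalIdealRing R]

/-- The quotient lattice is finitely generated. -/
theorem sqloc_quot_fg (hfg : (Subalgebra.toSubmodule H).FG) {π : M → M''}
    (hπ : Function.Surjective π) :
    (Subalgebra.toSubmodule (H.comap (pullFnOver R π))).FG := by
  haveI : IsNoetherian R (Subalgebra.toSubmodule H) := isNoetherian_of_fg_of_noetherian _ hfg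
  refine Submodule.fg_of_fg_map_injective (pullFnOver R π).toLinearMap
    (sqloc_pull_injective (R := R) hπ) ?_
  have hle : (Subalgebra.toSubmodule (H.comap (pullFnOver R π))).map
      (pullFnOver R π).toLinearMap ≤ Subalgebra.toSubmodule H := by
    rintro _ ⟨f, hf, rfl⟩
    exact hf
  exact isNoetherian_submodule.1 inferInstance _ hle

/-- The quotient lattice is equivariant. -/
theorem sqloc_quot_equivariant
    (hequiv : ∀ h ∈ H, ∀ σ ∈ I, ∀ P : M, h (act σ P) = σ (h P))
    {π : M → M''} (hπ : Function.Surjective π)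
    (hπequiv : ∀ σ ∈ I, ∀ P, π (act σ P) = act'' σ (π P)) :
    ∀ φ ∈ H.comap (pullFnOver R π), ∀ σ ∈ I, ∀ P : M'', φ (act'' σ P) = σ (φ P) := by
  intro φ hφ σ hσ P''
  obtain ⟨P, rfl⟩ := hπ P''
  rw [← hπequiv σ hσ]
  exact hequiv _ hφ σ hσ P

/-- The quotient lattice separates points. -/
theorem sqloc_quot_separates [Finite M] (hfrac : SqlocFrac R I)
    (hfg : (Subalgebra.toSubmodule H).FG)
    (hequiv : ∀ h ∈ H, ∀ σ ∈ I, ∀ P : M, h (act σ P) = σ (h P))
    (hsep : ∀ P Q : M, (∀ h ∈ H, h P = h Q) → P = Q)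
    {π : M → M''} (hπ : Function.Surjective π)
    (hπequiv : ∀ σ ∈ I, ∀ P, π (act σ P) = act'' σ (π P)) :
    ∀ P Q : M'', (∀ φ ∈ H.comap (pullFnOver R π), φ P = φ Q) → P = Q := by
  classical
  haveI : Fintype M := Fintype.ofFinite M
  intro P'' Q'' hPQ
  by_contra hne
  -- traces agree
  have htr : ∀ h ∈ H, sqlocTrace π h P'' = sqlocTrace π h Q'' := by
    intro h hh
    have he : ∀ σ ∈ I, ∀ P : M,
        (fun P => sqlocTrace π h (π P)) (act σ P) = σ ((fun P => sqlocTrace π h (π P)) P) := by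
      intro σ hσ P
      show sqlocTrace π h (π (act σ P)) = σ (sqlocTrace π h (π P))
      rw [hπequiv σ hσ]
      exact sqloc_trace_equivariant hequiv hsep hπ hπequiv h hh σ hσ (π P)
    obtain ⟨d, hd0, hd⟩ := sqloc_exists_smul_mem hfrac hfg hequiv hsep
      (fun P => sqlocTrace π h (π P)) he
    have h1 : d • sqlocTrace π h ∈ H.comap (pullFnOver R π) := by
      rw [sqloc_mem_comap]
      exact hd
    have h2 : (d : AlgebraicClosure ℚ) * sqlocTrace π h P'' =
        (d : AlgebraicClosure ℚ) * sqlocTrace π h Q'' := hPQ _ h1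
    have hdK : (d : AlgebraicClosure ℚ) ≠ 0 := fun h => hd0 (Subtype.ext h)
    exact mul_left_cancel₀ hdK h2
  -- the linear functional
  let L : (M → AlgebraicClosure ℚ) →ₗ[AlgebraicClosure ℚ] AlgebraicClosure ℚ :=
    { toFun := fun f => sqlocTrace π f P'' - sqlocTrace π f Q''
      map_add' := by
        intro f g
        simp only [sqlocTrace, Pi.add_apply, Finset.sum_add_distrib]
        ring
      map_smul' := by
        intro c f
        simp only [sqlocTrace, Pi.smul_apply, smul_eq_mul, ← Finset.mul_sum, RingHom.id_apply]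
        ring }
  have hL : Submodule.span (AlgebraicClosure ℚ) (H : Set (M → AlgebraicClosure ℚ)) ≤
      LinearMap.ker L := by
    rw [Submodule.span_le]
    intro h hh
    rw [SetLike.mem_coe, LinearMap.mem_ker]
    show sqlocTrace π h P'' - sqlocTrace π h Q'' = 0
    rw [htr h hh, sub_self]
  rw [sqloc_span_top H hsep] at hL
  have h3 : L (fun x => if π x = P'' then 1 else 0) = 0 :=
    LinearMap.mem_ker.1 (hL trivial)
  have h4 : L (fun x => if π x = P'' then 1 else 0) =
      ((Finset.univ.filter (fun x => π x = P'')).card : AlgebraicClosure ℚ) := by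
    show sqlocTrace π _ P'' - sqlocTrace π _ Q'' = _
    have h5 : sqlocTrace π (fun x => if π x = P'' then (1 : AlgebraicClosure ℚ) else 0) P'' =
        ((Finset.univ.filter (fun x => π x = P'')).card : AlgebraicClosure ℚ) := by
      unfold sqlocTrace
      rw [Finset.sum_congr rfl (g := fun _ => (1 : AlgebraicClosure ℚ))]
      · simp
      · intro x hx
        simp only [Finset.mem_filter, Finset.mem_univ, true_and] at hx
        show (if π x = P'' then (1 : AlgebraicClosure ℚ) else 0) = 1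
        rw [if_pos hx]
    have h6 : sqlocTrace π (fun x => if π x = P'' then (1 : AlgebraicClosure ℚ) else 0) Q'' =
        0 := by
      unfold sqlocTrace
      refine Finset.sum_eq_zero fun x hx => ?_
      simp only [Finset.mem_filter, Finset.mem_univ, true_and] at hx
      show (if π x = P'' then (1 : AlgebraicClosure ℚ) else 0) = 0
      rw [if_neg]
      intro h7
      exact hne (h7.symm.trans hx)
    rw [h5, h6, sub_zero]
  rw [h4] at h3
  obtain ⟨x₀, hx₀⟩ := hπ P''
  have h8 : (Finset.univ.filter (fun x => π x = P'')).card ≠ 0 := by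
    refine Finset.card_ne_zero.2 ⟨x₀, ?_⟩
    simp [hx₀]
  exact h8 (Nat.cast_eq_zero.1 h3)

omit [IsPrincipalIdealRing R] [AddCommGroup M] in
/-- Comparison of coefficients with respect to a linearly independent family. -/
theorem sqloc_coeff_eq {X Y : Type} {n : ℕ} (v : Fin n → Y → AlgebraicClosure ℚ)
    (hv : LinearIndependent (AlgebraicClosure ℚ) v)
    (g : Fin n → X → AlgebraicClosure ℚ) (x x' : X)
    (h : ∀ y, ∑ j, g j x * v j y = ∑ j, g j x' * v j y) : ∀ j, g j x = g j x' := by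
  have h1 : ∑ j, (g j x - g j x') • v j = 0 := by
    funext y
    simp only [Finset.sum_apply, Pi.smul_apply, smul_eq_mul, Pi.zero_apply, sub_mul,
      Finset.sum_sub_distrib]
    rw [h y, sub_self]
  intro j
  exact sub_eq_zero.1 (Fintype.linearIndependent_iff.1 hv _ h1 j)

/-- A function invariant under translation by the kernel of `π` factors through `π`. -/
theorem sqloc_descend (π : M →+ M'') (hπ : Function.Surjective π)
    (g : M → AlgebraicClosure ℚ)
    (hinv : ∀ P m, π m = 0 → g (P + m) = g P) :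
    ∃ g'' : M'' → AlgebraicClosure ℚ, ∀ P, g'' (π P) = g P := by
  refine ⟨fun P'' => g (Function.surjInv hπ P''), fun P => ?_⟩
  have h1 : π (Function.surjInv hπ (π P)) = π P := Function.surjInv_eq hπ _
  have h2 : π (P - Function.surjInv hπ (π P)) = 0 := by rw [map_sub, h1, sub_self]
  have h3 := hinv (Function.surjInv hπ (π P)) _ h2
  rw [add_sub_cancel] at h3
  exact h3.symm

/-- The quotient lattice is closed under the comultiplication. -/
theorem sqloc_quot_comul [Finite M] (hfrac : SqlocFrac R I)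
    (hH : IsHopfLatticeOver R I act H) (π : M →+ M'')
    (hπ : Function.Surjective π) (hπequiv : ∀ σ ∈ I, ∀ P, π (act σ P) = act'' σ (π P)) :
    ∀ φ ∈ H.comap (pullFnOver R π), (fun PQ : M'' × M'' => φ (PQ.1 + PQ.2)) ∈
      Submodule.span R {F : M'' × M'' → AlgebraicClosure ℚ |
        ∃ a ∈ H.comap (pullFnOver R π), ∃ b ∈ H.comap (pullFnOver R π),
          F = fun PQ => a PQ.1 * b PQ.2} := by
  classical
  intro φ hφ
  obtain ⟨n, y, hy⟩ := sqloc_exists_basis (act := act) hfrac hH.fg hH.equivariant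
  have hfg'' := sqloc_quot_fg hH.fg hπ
  have hequiv'' := sqloc_quot_equivariant (act'' := act'') hH.equivariant hπ hπequiv
  obtain ⟨k, u, hu⟩ := sqloc_exists_basis (act := act'') hfrac hfg'' hequiv''
  -- the pulled back basis of `H''` is linearly independent on `M`
  have hu' : LinearIndependent (AlgebraicClosure ℚ)
      (fun i => fun P : M =>
        ((u i : H.comap (pullFnOver R π)) : M'' → AlgebraicClosure ℚ) (π P)) := by
    have h1 := hu.map' (LinearMap.funLeft (AlgebraicClosure ℚ) (AlgebraicClosure ℚ) π)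
      (LinearMap.ker_eq_bot.2 (LinearMap.funLeft_injective_of_surjective _ _ π hπ))
    exact h1
  -- Step 1: expansion of `F` in the second variable
  have hstep1 : ∀ F ∈ Submodule.span R {F : M × M → AlgebraicClosure ℚ |
      ∃ a ∈ H, ∃ b ∈ H, F = fun PQ => a PQ.1 * b PQ.2},
      ∃ g : Fin n → M → AlgebraicClosure ℚ, (∀ j, g j ∈ H) ∧
        ∀ P Q, F (P, Q) = ∑ j, g j P * ((y j : H) : M → AlgebraicClosure ℚ) Q := by
    intro F hF
    induction hF using Submodule.span_induction with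
    | mem F hF =>
      obtain ⟨a, ha, b, hb, rfl⟩ := hF
      refine ⟨fun j => y.repr ⟨b, hb⟩ j • a, fun j => H.smul_mem ha _, fun P Q => ?_⟩
      have h1 : (⟨b, hb⟩ : H) = ∑ j, y.repr ⟨b, hb⟩ j • y j := (y.sum_repr _).symm
      have h2 := congrArg (fun x : H => (x : M → AlgebraicClosure ℚ) Q) h1
      simp only [AddSubmonoidClass.coe_finsetSum, Finset.sum_apply] at h2
      show a P * b Q = _
      rw [h2, Finset.mul_sum]
      refine Finset.sum_congr rfl fun j _ => ?_
      rw [sqloc_coe_smul_apply]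
      show _ = ((y.repr ⟨b, hb⟩ j : R) : AlgebraicClosure ℚ) * a P * _
      ring
    | zero =>
      exact ⟨fun _ => 0, fun _ => H.zero_mem, fun P Q => by simp⟩
    | add F G _ _ hF hG =>
      obtain ⟨g, hg, hgF⟩ := hF
      obtain ⟨g', hg', hgG⟩ := hG
      refine ⟨fun j => g j + g' j, fun j => H.add_mem (hg j) (hg' j), fun P Q => ?_⟩
      simp only [Pi.add_apply, hgF, hgG, add_mul, Finset.sum_add_distrib]
    | smul r F _ hF =>
      obtain ⟨g, hg, hgF⟩ := hF
      refine ⟨fun j => r • g j, fun j => H.smul_mem (hg j) _, fun P Q => ?_⟩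
      show (r : AlgebraicClosure ℚ) * F (P, Q) =
        ∑ j, ((r : AlgebraicClosure ℚ) * g j P) * ((y j : H) : M → AlgebraicClosure ℚ) Q
      rw [hgF, Finset.mul_sum]
      refine Finset.sum_congr rfl fun j _ => ?_
      ring
  obtain ⟨g, hg, hgF⟩ := hstep1 _ (hH.comul_mem _ hφ)
  have hF : ∀ P Q : M, φ (π (P + Q)) = ∑ j, g j P * ((y j : H) : M → AlgebraicClosure ℚ) Q :=
    fun P Q => hgF P Q
  -- Step 2: the `g j` are invariant under the kernel
  have hginv : ∀ j P m, π m = 0 → g j (P + m) = g j P := by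
    intro j P m hm
    refine sqloc_coeff_eq _ hy g (P + m) P (fun Q => ?_) j
    rw [← hF, ← hF]
    congr 1
    rw [map_add, map_add, map_add, hm, add_zero]
  choose g'' hg'' using fun j => sqloc_descend π hπ (g j) (hginv j)
  have hg''mem : ∀ j, g'' j ∈ H.comap (pullFnOver R π) := by
    intro j
    rw [sqloc_mem_comap]
    have : (fun P => g'' j (π P)) = g j := funext (hg'' j)
    rw [this]
    exact hg j
  -- Step 3: expansion in the basis of `H''`
  have hexp : ∀ j (P'' : M''), g'' j P'' =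
      ∑ i, ((u.repr ⟨g'' j, hg''mem j⟩ i : R) : AlgebraicClosure ℚ) *
        ((u i : H.comap (pullFnOver R π)) : M'' → AlgebraicClosure ℚ) P'' := by
    intro j P''
    have h1 : (⟨g'' j, hg''mem j⟩ : H.comap (pullFnOver R π)) =
        ∑ i, u.repr ⟨g'' j, hg''mem j⟩ i • u i := (u.sum_repr _).symm
    have h2 := congrArg
      (fun x : H.comap (pullFnOver R π) => (x : M'' → AlgebraicClosure ℚ) P'') h1
    simp only [AddSubmonoidClass.coe_finsetSum, Finset.sum_apply] at h2
    refine h2.trans ?_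
    refine Finset.sum_congr rfl fun i _ => ?_
    exact sqloc_coe_smul_apply _ _ _ _
  set kk : Fin k → M → AlgebraicClosure ℚ := fun i =>
    ∑ j, u.repr ⟨g'' j, hg''mem j⟩ i • ((y j : H) : M → AlgebraicClosure ℚ) with hkk
  have hkkmem : ∀ i, kk i ∈ H := fun i =>
    H.sum_mem fun j _ => H.smul_mem (y j).2 _
  have hkkval : ∀ i Q, kk i Q = ∑ j, ((u.repr ⟨g'' j, hg''mem j⟩ i : R) : AlgebraicClosure ℚ) *
      ((y j : H) : M → AlgebraicClosure ℚ) Q := by
    intro i Q
    simp only [hkk, Finset.sum_apply]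
    rfl
  have hF2 : ∀ P Q : M, φ (π (P + Q)) =
      ∑ i, kk i Q * ((u i : H.comap (pullFnOver R π)) : M'' → AlgebraicClosure ℚ) (π P) := by
    intro P Q
    rw [hF]
    have h1 : ∀ j, g j P = ∑ i, ((u.repr ⟨g'' j, hg''mem j⟩ i : R) : AlgebraicClosure ℚ) *
        ((u i : H.comap (pullFnOver R π)) : M'' → AlgebraicClosure ℚ) (π P) := by
      intro j
      rw [← hg'' j P, hexp]
    simp only [h1, hkkval, Finset.sum_mul]
    rw [Finset.sum_comm]
    refine Finset.sum_congr rfl fun i _ => ?_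
    refine Finset.sum_congr rfl fun j _ => ?_
    ring
  -- Step 4: the `kk i` are invariant under the kernel
  have hkinv : ∀ i Q m, π m = 0 → kk i (Q + m) = kk i Q := by
    intro i Q m hm
    refine sqloc_coeff_eq _ hu' kk (Q + m) Q (fun P => ?_) i
    show ∑ i, kk i (Q + m) *
        ((u i : H.comap (pullFnOver R π)) : M'' → AlgebraicClosure ℚ) (π P) =
      ∑ i, kk i Q * ((u i : H.comap (pullFnOver R π)) : M'' → AlgebraicClosure ℚ) (π P)
    rw [← hF2, ← hF2]
    congr 1
    rw [map_add, map_add, map_add, hm, add_zero]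
  choose k'' hk'' using fun i => sqloc_descend π hπ (kk i) (hkinv i)
  have hk''mem : ∀ i, k'' i ∈ H.comap (pullFnOver R π) := by
    intro i
    rw [sqloc_mem_comap]
    have : (fun P => k'' i (π P)) = kk i := funext (hk'' i)
    rw [this]
    exact hkkmem i
  -- Step 5
  have hfinal : (fun PQ : M'' × M'' => φ (PQ.1 + PQ.2)) =
      ∑ i, (fun PQ : M'' × M'' =>
        ((u i : H.comap (pullFnOver R π)) : M'' → AlgebraicClosure ℚ) PQ.1 * k'' i PQ.2) := by
    funext ⟨P'', Q''⟩
    obtain ⟨P, rfl⟩ := hπ P''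
    obtain ⟨Q, rfl⟩ := hπ Q''
    rw [Finset.sum_apply]
    show φ (π P + π Q) = _
    rw [← map_add, hF2]
    refine Finset.sum_congr rfl fun i _ => ?_
    rw [hk'' i Q, mul_comm]
  rw [hfinal]
  exact Submodule.sum_mem _ fun i _ =>
    Submodule.subset_span ⟨_, (u i).2, _, hk''mem i, rfl⟩

/-- **(SQ-loc)** The quotient of a Hopf lattice over `(R, I)` by an `I`-equivariant surjection is
a Hopf lattice over `(R, I)`. -/
theorem sqloc_quot [Finite M] (hfrac : SqlocFrac R I) (hH : IsHopfLatticeOver R I act H)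
    (π : M →+ M'') (hπ : Function.Surjective π)
    (hπequiv : ∀ σ ∈ I, ∀ P, π (act σ P) = act'' σ (π P)) :
    IsHopfLatticeOver R I act'' (H.comap (pullFnOver R π)) where
  fg := sqloc_quot_fg hH.fg hπ
  equivariant := sqloc_quot_equivariant hH.equivariant hπ hπequiv
  separates := sqloc_quot_separates hfrac hH.fg hH.equivariant hH.separates hπ hπequiv
  comul_mem := sqloc_quot_comul hfrac hH π hπ hπequiv

end Quot

/-- **B1 (SQ-loc)** of `Plan2.lean`. -/
theorem stmtSQLocQuot : StmtSQLocQuot := by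
  intro R I hPID _ hfrac M _ _ act M'' _ act'' H hH π hπ hπequiv
  exact sqloc_quot hfrac hH π hπ hπequiv

end Fermat.Agent.S33


end ZBS33_010_5

/-! ### bundled: `Fermat.Agent.S33.NTSOfLattice` -/
section ZBS33_010_6

/-!
# S33 v2, piece B3: `stmtNTSOfLattice_of : StmtSQLocQuot → StmtNTSOfLattice` (helper53)

A finite `p`-group `M` with a Hopf order `H` over `ℤ_(p)` (`p` odd), `P ∣ p` a place of `ℚ̄`,
`I = I_P`: the inertia span `𝔄 M` has no trivial sub-quotient.

Proof.  `A₀ = P ∩ ℚ̄^I` (a PID with uniformizer `p`: `UNIP.beta0Ring_isDVR_base`,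
`UNIP.beta0_div_mem`).
1. values of `h ∈ H` lie in `P` (integrality);
2. `M⁰ = {m | ∀ h ∈ H, h m ≡ h 0 mod 𝔪_P}` is a subgroup containing `𝔄 M`;
3. for an `I`-stable `B ≤ 𝔄 M`: `H_B` := the `A₀`-algebra generated by the restrictions `h|_B`;
   it is a Hopf lattice over `(A₀, I)` with values in `P`, `≡` value at `0` mod `𝔪_P`;
4. `Q = B / 𝔄 B`, trivial action, `H_Q = H_B.comap π^*` is a Hopf lattice over `(A₀, I)` (B1);
   its values are `I`-fixed, in `P`, `≡` value at `0`; so `(φ q - φ 0) / p ∈ A₀`;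
5. Raynaud-lite (B2): `φ q = φ 0` for `p q = 0`, hence `q = 0`; so `Q = 0`, i.e. `B = 𝔄 B`.
-/

set_option autoImplicit false
set_option linter.unusedSectionVars false
set_option linter.unusedSimpArgs false
set_option linter.style.haveILetI false

namespace Fermat.Agent.S33

open Fermat.Agent.W1 Fermat.Agent.UNIP

/-- `ℚ̄` -/
abbrev NQb : Type := AlgebraicClosure ℚ

section A0

variable (P : ValuationSubring NQb)

/-- `A₀ = P ∩ ℚ̄^{I_P}` as a subring of `ℚ̄`. -/
noncomputable def ntslA0 : Subring NQb := P.toSubring ⊓ (beta0Field P).toSubring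

variable {P}

theorem mem_ntslA0 {x : NQb} : x ∈ ntslA0 P ↔ x ∈ P ∧ x ∈ beta0Field P := Iff.rfl

theorem ntslA0_fixed {r : NQb} (hr : r ∈ ntslA0 P) {σ : GQb} (hσ : σ ∈ P.inertiaSubgroupIn ℚ) :
    σ r = r :=
  mem_beta0Field.mp hr.2 σ hσ

theorem ntslA0_frac (x : NQb) (hx : ∀ σ ∈ P.inertiaSubgroupIn ℚ, σ x = x) :
    ∃ r ∈ ntslA0 P, ∃ s ∈ ntslA0 P, s ≠ 0 ∧ x * s = r := by
  have hxE : x ∈ beta0Field P := mem_beta0Field.mpr hx
  rcases P.mem_or_inv_mem x with h | h
  · exact ⟨x, ⟨h, hxE⟩, 1, (ntslA0 P).one_mem, one_ne_zero, mul_one x⟩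
  · by_cases hx0 : x = 0
    · exact ⟨0, (ntslA0 P).zero_mem, 1, (ntslA0 P).one_mem, one_ne_zero, by rw [hx0, zero_mul]⟩
    · exact ⟨1, (ntslA0 P).one_mem, x⁻¹, ⟨h, (beta0Field P).inv_mem hxE⟩, inv_ne_zero hx0,
        mul_inv_cancel₀ hx0⟩

/-- the surjection `beta0Ring P E₀ → A₀` -/
noncomputable def ntslA0Hom : beta0Ring P (beta0Field P) →+* ntslA0 P where
  toFun y := ⟨((y : beta0Field P) : NQb), ⟨y.2, (y : beta0Field P).2⟩⟩
  map_one' := rfl
  map_mul' _ _ := rfl
  map_zero' := rfl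
  map_add' _ _ := rfl

theorem ntslA0Hom_surjective : Function.Surjective (ntslA0Hom (P := P)) := by
  rintro ⟨x, hxP, hxE⟩
  exact ⟨⟨⟨x, hxE⟩, hxP⟩, rfl⟩

theorem ntslA0_isPrincipalIdealRing {p : ℕ} (hp : p.Prime) (hP : P.LiesOverPrime p) :
    IsPrincipalIdealRing (ntslA0 P) := by
  haveI : IsDiscreteValuationRing (beta0Ring P (beta0Field P)) := beta0Ring_isDVR_base hp hP
  exact IsPrincipalIdealRing.of_surjective (ntslA0Hom (P := P)) ntslA0Hom_surjective

theorem ntslA0_div_mem {p : ℕ} (hp : p.Prime) (hP : P.LiesOverPrime p) {x : NQb}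
    (hx : x ∈ ntslA0 P) (hx' : x ∈ P.nonunits) : x / (p : NQb) ∈ ntslA0 P :=
  ⟨beta0_div_mem hp hP hx.2 hx', (beta0Field P).div_mem hx.2 (natCast_mem _ p)⟩

theorem ntslA0_sep {p : ℕ} (hp : p.Prime) (hP : P.LiesOverPrime p) (x : NQb)
    (hx : ∀ s : ℕ, x / (p : NQb) ^ s ∈ ntslA0 P) : x = 0 := by
  haveI := ntslA0_isPrincipalIdealRing hp hP
  have hpK : (p : NQb) ≠ 0 := Nat.cast_ne_zero.mpr hp.ne_zero
  have hx0 : x ∈ ntslA0 P := by simpa using hx 0
  by_contra hne
  -- `p` is not a unit of `A₀`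
  have hpnu : ¬ IsUnit ((p : ℕ) : ntslA0 P) := by
    intro hu
    obtain ⟨u, hu⟩ := hu
    have h1 : ((u⁻¹ : (ntslA0 P)ˣ) : ntslA0 P) * ((p : ℕ) : ntslA0 P) = 1 := by
      rw [← hu]; exact Units.inv_mul u
    have h2 : (((u⁻¹ : (ntslA0 P)ˣ) : ntslA0 P) : NQb) * (p : NQb) = 1 := by
      have := congrArg (Subtype.val) h1
      simpa using this
    have h3 : (p : NQb)⁻¹ ∈ P := by
      have : (p : NQb)⁻¹ = (((u⁻¹ : (ntslA0 P)ˣ) : ntslA0 P) : NQb) := by
        field_simp
        rw [mul_comm]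
        exact h2.symm
      rw [this]
      exact ((u⁻¹ : (ntslA0 P)ˣ) : ntslA0 P).2.1
    have h4 : (p : NQb) ∈ P.nonunits := hP
    rw [ValuationSubring.mem_nonunits_iff] at h4
    have h5 : P.valuation ((p : NQb)⁻¹) ≤ 1 := (P.valuation_le_one_iff _).mpr h3
    rw [map_inv₀] at h5
    have h6 : P.valuation (p : NQb) ≠ 0 := by
      rw [Ne, Valuation.zero_iff]; exact hpK
    have h7 : 1 ≤ P.valuation (p : NQb) := by
      have := (inv_le_one₀ (zero_lt_iff.mpr h6)).mp h5
      exact this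
    exact absurd h4 (not_lt.mpr h7)
  have hxne : (⟨x, hx0⟩ : ntslA0 P) ≠ 0 := by
    intro h
    exact hne (congrArg Subtype.val h)
  have hfin : FiniteMultiplicity ((p : ℕ) : ntslA0 P) (⟨x, hx0⟩ : ntslA0 P) :=
    FiniteMultiplicity.of_not_isUnit hpnu hxne
  obtain ⟨n, hn⟩ := hfin
  apply hn
  refine ⟨⟨x / (p : NQb) ^ (n + 1), hx (n + 1)⟩, ?_⟩
  apply Subtype.ext
  show x = (((((p : ℕ) : ntslA0 P) ^ (n + 1) : ntslA0 P)) : NQb) * (x / (p : NQb) ^ (n + 1))
  have e : (((((p : ℕ) : ntslA0 P) ^ (n + 1) : ntslA0 P)) : NQb) = (p : NQb) ^ (n + 1) := by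
    push_cast
    rfl
  rw [e, mul_div_cancel₀ _ (pow_ne_zero _ hpK)]

end A0

section Nonunits

variable {P : ValuationSubring NQb}

theorem ntsl_nu_zero : (0 : NQb) ∈ P.nonunits := by
  rw [ValuationSubring.mem_nonunits_iff, map_zero]
  exact zero_lt_one

theorem ntsl_nu_add {x y : NQb} (hx : x ∈ P.nonunits) (hy : y ∈ P.nonunits) :
    x + y ∈ P.nonunits := by
  rw [ValuationSubring.mem_nonunits_iff] at *
  exact lt_of_le_of_lt (P.valuation.map_add x y) (max_lt hx hy)

theorem ntsl_nu_neg {x : NQb} (hx : x ∈ P.nonunits) : -x ∈ P.nonunits := by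
  rw [ValuationSubring.mem_nonunits_iff] at *
  rwa [Valuation.map_neg]

theorem ntsl_nu_sub {x y : NQb} (hx : x ∈ P.nonunits) (hy : y ∈ P.nonunits) :
    x - y ∈ P.nonunits := by
  rw [sub_eq_add_neg]
  exact ntsl_nu_add hx (ntsl_nu_neg hy)

theorem ntsl_nu_mul {a x : NQb} (ha : a ∈ P) (hx : x ∈ P.nonunits) : a * x ∈ P.nonunits := by
  rw [ValuationSubring.mem_nonunits_iff] at *
  rw [map_mul]
  have h1 : P.valuation a ≤ 1 := (P.valuation_le_one_iff a).mpr ha
  calc P.valuation a * P.valuation x ≤ 1 * P.valuation x := mul_le_mul' h1 le_rfl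
    _ = P.valuation x := one_mul _
    _ < 1 := hx

theorem ntsl_nu_mem {x : NQb} (hx : x ∈ P.nonunits) : x ∈ P := by
  rw [ValuationSubring.mem_nonunits_iff] at hx
  exact (P.valuation_le_one_iff x).mp hx.le

/-- congruence of products -/
theorem ntsl_nu_mul_sub_mul {a a' b b' : NQb} (ha : a ∈ P) (hb' : b' ∈ P)
    (h1 : a - a' ∈ P.nonunits) (h2 : b - b' ∈ P.nonunits) : a * b - a' * b' ∈ P.nonunits := by
  have e : a * b - a' * b' = a * (b - b') + b' * (a - a') := by ring
  rw [e]
  exact ntsl_nu_add (ntsl_nu_mul ha h2) (ntsl_nu_mul hb' h1)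

end Nonunits

section Lattice

variable {p : ℕ} {P : ValuationSubring NQb} {M : Type} [AddCommGroup M] {act : GQb → M → M}
  {H : Subalgebra (GaloisRep.ratLocalizedAt p) (M → NQb)}

/-- `ℤ_(p) ⊂ P` -/
theorem ntsl_rat_mem (hp : p.Prime) (hP : P.LiesOverPrime p) (r : GaloisRep.ratLocalizedAt p) :
    algebraMap ℚ NQb (r : ℚ) ∈ P :=
  (desc_rat_mem_iff hp P hP (r : ℚ)).mpr r.2

/-- `ℤ_(p) ⊂ A₀` -/
theorem ntsl_rat_mem_A0 (hp : p.Prime) (hP : P.LiesOverPrime p)
    (r : GaloisRep.ratLocalizedAt p) : algebraMap ℚ NQb (r : ℚ) ∈ ntslA0 P :=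
  ⟨ntsl_rat_mem hp hP r, (beta0Field P).algebraMap_mem _⟩

/-- the ring homomorphism `ℤ_(p) → P` -/
noncomputable def ntslRatHom (hp : p.Prime) (hP : P.LiesOverPrime p) :
    GaloisRep.ratLocalizedAt p →+* P where
  toFun r := ⟨algebraMap ℚ NQb (r : ℚ), ntsl_rat_mem hp hP r⟩
  map_one' := by apply Subtype.ext; simp
  map_mul' x y := by apply Subtype.ext; simp
  map_zero' := by apply Subtype.ext; simp
  map_add' x y := by apply Subtype.ext; simp

/-- an element of `ℚ̄` which is integral over `ℤ_(p)` lies in `P` -/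
theorem ntsl_mem_of_isIntegral (hp : p.Prime) (hP : P.LiesOverPrime p) {y : NQb}
    (hy : IsIntegral (GaloisRep.ratLocalizedAt p) y) : y ∈ P := by
  obtain ⟨f, hf, hf0⟩ := hy
  have h3 : IsIntegral P y := by
    refine ⟨f.map (ntslRatHom hp hP), hf.map _, ?_⟩
    rw [Polynomial.eval₂_map]
    exact hf0
  obtain ⟨z, hz⟩ := (IsIntegrallyClosed.isIntegral_iff (R := P) (K := NQb)).mp h3
  rw [← hz]
  exact z.2

/-- values of a Hopf lattice over `ℤ_(p)` lie in `P` -/
theorem ntsl_value_mem (hp : p.Prime) (hP : P.LiesOverPrime p)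
    (hfg : (Subalgebra.toSubmodule H).FG) {h : M → NQb} (hh : h ∈ H) (x : M) : h x ∈ P := by
  have h1 : IsIntegral (GaloisRep.ratLocalizedAt p) h := IsIntegral.of_mem_of_fg H hfg h hh
  have h2 : IsIntegral (GaloisRep.ratLocalizedAt p) (h x) :=
    h1.map (Pi.evalAlgHom (GaloisRep.ratLocalizedAt p) (fun _ : M => NQb) x)
  exact ntsl_mem_of_isIntegral hp hP h2

theorem ntsl_R_smul_apply {X : Type} (r : GaloisRep.ratLocalizedAt p) (F : X → NQb) (x : X) :
    (r • F) x = algebraMap ℚ NQb (r : ℚ) * F x := by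
  rw [Pi.smul_apply, Algebra.smul_def]
  rfl

/-- **Congruence through the comultiplication**: if `a x ≡ a x'` and `b y ≡ b y'` for all
`a, b ∈ H` then `h (x + y) ≡ h (x' + y')` for all `h ∈ H`. -/
theorem ntsl_comul_congr (hp : p.Prime) (hP : P.LiesOverPrime p)
    (hH : IsHopfLattice (GaloisRep.ratLocalizedAt p) act H) {x x' y y' : M}
    (hx : ∀ a ∈ H, a x - a x' ∈ P.nonunits) (hy : ∀ b ∈ H, b y - b y' ∈ P.nonunits)
    {h : M → NQb} (hh : h ∈ H) : h (x + y) - h (x' + y') ∈ P.nonunits := by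
  have key : ∀ F ∈ Submodule.span (GaloisRep.ratLocalizedAt p)
      {F : M × M → NQb | ∃ a ∈ H, ∃ b ∈ H, F = fun PQ => a PQ.1 * b PQ.2},
      F (x, y) - F (x', y') ∈ P.nonunits := by
    intro F hF
    induction hF using Submodule.span_induction with
    | mem F hF =>
      obtain ⟨a, ha, b, hb, rfl⟩ := hF
      exact ntsl_nu_mul_sub_mul (ntsl_value_mem hp hP hH.fg ha x)
        (ntsl_value_mem hp hP hH.fg hb y') (hx a ha) (hy b hb)
    | zero =>
      simp only [Pi.zero_apply, sub_zero]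
      exact ntsl_nu_zero
    | add F G _ _ hF hG =>
      have e : (F + G) (x, y) - (F + G) (x', y') =
          (F (x, y) - F (x', y')) + (G (x, y) - G (x', y')) := by
        simp only [Pi.add_apply]; ring
      rw [e]
      exact ntsl_nu_add hF hG
    | smul r F _ hF =>
      have e : (r • F) (x, y) - (r • F) (x', y') =
          algebraMap ℚ NQb (r : ℚ) * (F (x, y) - F (x', y')) := by
        rw [ntsl_R_smul_apply, ntsl_R_smul_apply]
        ring
      rw [e]
      exact ntsl_nu_mul (ntsl_rat_mem hp hP r) hF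
  exact key _ (hH.comul_mem h hh)

/-- the "connected part" `M⁰ = {m | ∀ h ∈ H, h m ≡ h 0 mod 𝔪_P}` -/
def ntslConn (hp : p.Prime) (hP : P.LiesOverPrime p)
    (hH : IsHopfLattice (GaloisRep.ratLocalizedAt p) act H) : AddSubgroup M where
  carrier := {m | ∀ h ∈ H, h m - h 0 ∈ P.nonunits}
  zero_mem' := by
    intro h _
    rw [sub_self]
    exact ntsl_nu_zero
  add_mem' := by
    intro x y hx hy h hh
    have := ntsl_comul_congr hp hP hH (x := x) (x' := 0) (y := y) (y' := 0) hx hy hh
    rwa [add_zero] at this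
  neg_mem' := by
    intro x hx h hh
    have := hx _ (hH.antipode_mem h hh)
    simpa using this

theorem mem_ntslConn (hp : p.Prime) (hP : P.LiesOverPrime p)
    (hH : IsHopfLattice (GaloisRep.ratLocalizedAt p) act H) {m : M} :
    m ∈ ntslConn hp hP hH ↔ ∀ h ∈ H, h m - h 0 ∈ P.nonunits := Iff.rfl

/-- `𝔄 M ≤ M⁰` -/
theorem ntsl_span_le_conn (hp : p.Prime) (hP : P.LiesOverPrime p)
    (hH : IsHopfLattice (GaloisRep.ratLocalizedAt p) act H) :
    ntsSpan (P.inertiaSubgroupIn ℚ) act ⊤ ≤ ntslConn hp hP hH := by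
  rw [ntsSpan, AddSubgroup.closure_le]
  rintro w ⟨σ, hσ, m, -, rfl⟩ h hh
  have h1 : ∀ a ∈ H, a (act σ m) - a m ∈ P.nonunits := by
    intro a ha
    rw [hH.equivariant a ha σ m]
    exact Fermat.Agent.S05.inertia_apply_sub_mem_nonunits hσ (ntsl_value_mem hp hP hH.fg ha m)
  have h2 : ∀ b ∈ H, b (-m) - b (-m) ∈ P.nonunits := by
    intro b _
    rw [sub_self]
    exact ntsl_nu_zero
  have := ntsl_comul_congr hp hP hH h1 h2 hh
  rwa [add_neg_cancel, ← sub_eq_add_neg] at this

end Lattice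

section Pure

variable {R : Subring NQb} {X : Type}

/-- the span of the pure tensors of a subalgebra is closed under multiplication -/
theorem ntsl_pure_mul (Hs : Subalgebra R (X → NQb)) {G₁ G₂ : X × X → NQb}
    (h1 : G₁ ∈ Submodule.span R {F : X × X → NQb | ∃ a ∈ Hs, ∃ b ∈ Hs,
      F = fun xy => a xy.1 * b xy.2})
    (h2 : G₂ ∈ Submodule.span R {F : X × X → NQb | ∃ a ∈ Hs, ∃ b ∈ Hs,
      F = fun xy => a xy.1 * b xy.2}) :
    G₁ * G₂ ∈ Submodule.span R {F : X × X → NQb | ∃ a ∈ Hs, ∃ b ∈ Hs,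
      F = fun xy => a xy.1 * b xy.2} := by
  have h := Submodule.mul_mem_mul h1 h2
  rw [Submodule.span_mul_span] at h
  refine Submodule.span_mono ?_ h
  rintro _ ⟨_, ⟨a, ha, b, hb, rfl⟩, _, ⟨a', ha', b', hb', rfl⟩, rfl⟩
  refine ⟨a * a', Hs.mul_mem ha ha', b * b', Hs.mul_mem hb hb', ?_⟩
  funext xy
  simp only [Pi.mul_apply]
  ring

end Pure

section Restrict

variable {p : ℕ} {P : ValuationSubring NQb} {M : Type} [AddCommGroup M] {act : GQb → M → M}
  {H : Subalgebra (GaloisRep.ratLocalizedAt p) (M → NQb)}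

/-- restriction of functions to `B`, as a ring homomorphism -/
def ntslRes (B : AddSubgroup M) : (M → NQb) →+* (B → NQb) where
  toFun f := fun b => f b
  map_one' := rfl
  map_mul' _ _ := rfl
  map_zero' := rfl
  map_add' _ _ := rfl

@[simp] theorem ntslRes_apply (B : AddSubgroup M) (f : M → NQb) (b : B) :
    ntslRes B f b = f b := rfl

/-- the generating set: restrictions of the elements of `H` -/
def ntslGen (H : Subalgebra (GaloisRep.ratLocalizedAt p) (M → NQb)) (B : AddSubgroup M) :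
    Set (B → NQb) := {f | ∃ h ∈ H, f = ntslRes B h}

variable (P) in
/-- the `A₀`-algebra generated by the restrictions of the elements of `H` -/
noncomputable def ntslHB (H : Subalgebra (GaloisRep.ratLocalizedAt p) (M → NQb))
    (B : AddSubgroup M) : Subalgebra (ntslA0 P) (B → NQb) :=
  Algebra.adjoin (ntslA0 P) (ntslGen H B)

open Classical in
/-- the restricted action -/
noncomputable def ntslAct (act : GQb → M → M) (B : AddSubgroup M) : GQb → B → B :=
  fun σ b => if h : act σ b ∈ B then ⟨act σ b, h⟩ else b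

theorem ntslAct_coe {B : AddSubgroup M} {σ : GQb} {b : B} (h : act σ b ∈ B) :
    ((ntslAct act B σ b : B) : M) = act σ b := by
  unfold ntslAct
  rw [dif_pos h]

theorem ntsl_A0_algebraMap_apply {X : Type} (r : ntslA0 P) (x : X) :
    algebraMap (ntslA0 P) (X → NQb) r x = (r : NQb) := rfl

theorem ntsl_A0_smul_apply {X : Type} (r : ntslA0 P) (F : X → NQb) (x : X) :
    (r • F) x = (r : NQb) * F x := rfl

theorem ntsl_res_mem (B : AddSubgroup M) {h : M → NQb} (hh : h ∈ H) :
    ntslRes B h ∈ ntslHB P H B :=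
  Algebra.subset_adjoin ⟨h, hh, rfl⟩

/-- (a) values in `P` -/
theorem ntslHB_value_mem (hp : p.Prime) (hP : P.LiesOverPrime p)
    (hH : IsHopfLattice (GaloisRep.ratLocalizedAt p) act H) (B : AddSubgroup M)
    {f : B → NQb} (hf : f ∈ ntslHB P H B) (b : B) : f b ∈ P := by
  unfold ntslHB at hf
  induction hf using Algebra.adjoin_induction with
  | mem f hf =>
    obtain ⟨h, hh, rfl⟩ := hf
    exact ntsl_value_mem hp hP hH.fg hh _
  | algebraMap r => exact r.2.1
  | add f g _ _ hf hg => exact P.add_mem _ _ hf hg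
  | mul f g _ _ hf hg => exact P.mul_mem _ _ hf hg

/-- (b) equivariance under `I` -/
theorem ntslHB_equivariant (hH : IsHopfLattice (GaloisRep.ratLocalizedAt p) act H)
    {B : AddSubgroup M} (hst : ntsStable (P.inertiaSubgroupIn ℚ) act B)
    {f : B → NQb} (hf : f ∈ ntslHB P H B) {σ : GQb} (hσ : σ ∈ P.inertiaSubgroupIn ℚ) (b : B) :
    f (ntslAct act B σ b) = σ (f b) := by
  unfold ntslHB at hf
  induction hf using Algebra.adjoin_induction with
  | mem f hf =>
    obtain ⟨h, hh, rfl⟩ := hf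
    show h ((ntslAct act B σ b : B) : M) = σ (h b)
    rw [ntslAct_coe (hst σ hσ b b.2)]
    exact hH.equivariant h hh σ b
  | algebraMap r =>
    rw [ntsl_A0_algebraMap_apply, ntsl_A0_algebraMap_apply]
    exact (ntslA0_fixed r.2 hσ).symm
  | add f g _ _ hf hg =>
    simp only [Pi.add_apply, map_add, hf, hg]
  | mul f g _ _ hf hg =>
    simp only [Pi.mul_apply, map_mul, hf, hg]

/-- (c) congruence: `f b ≡ f 0 mod 𝔪_P` when `B ≤ M⁰` -/
theorem ntslHB_congr (hp : p.Prime) (hP : P.LiesOverPrime p)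
    (hH : IsHopfLattice (GaloisRep.ratLocalizedAt p) act H) {B : AddSubgroup M}
    (hB : B ≤ ntslConn hp hP hH) {f : B → NQb} (hf : f ∈ ntslHB P H B) (b : B) :
    f b - f 0 ∈ P.nonunits := by
  have hf' := hf
  unfold ntslHB at hf
  induction hf using Algebra.adjoin_induction with
  | mem f hf =>
    obtain ⟨h, hh, rfl⟩ := hf
    exact hB b.2 h hh
  | algebraMap r =>
    rw [ntsl_A0_algebraMap_apply, ntsl_A0_algebraMap_apply, sub_self]
    exact ntsl_nu_zero
  | add f g hf0 hg0 hf hg =>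
    have e : (f + g) b - (f + g) 0 = (f b - f 0) + (g b - g 0) := by
      simp only [Pi.add_apply]; ring
    rw [e]
    exact ntsl_nu_add (hf hf0) (hg hg0)
  | mul f g hf0 hg0 hf hg =>
    exact ntsl_nu_mul_sub_mul (ntslHB_value_mem hp hP hH B hf0 b)
      (ntslHB_value_mem hp hP hH B hg0 0) (hf hf0) (hg hg0)

/-- (d) separation of points -/
theorem ntslHB_separates (hH : IsHopfLattice (GaloisRep.ratLocalizedAt p) act H)
    (B : AddSubgroup M) (x y : B) (hxy : ∀ f ∈ ntslHB P H B, f x = f y) : x = y := by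
  apply Subtype.ext
  apply hH.separates
  intro h hh
  exact hxy _ (ntsl_res_mem B hh)

/-- the ring homomorphism `ℤ_(p) → A₀` -/
noncomputable def ntslRatHomA0 (hp : p.Prime) (hP : P.LiesOverPrime p) :
    GaloisRep.ratLocalizedAt p →+* ntslA0 P where
  toFun r := ⟨algebraMap ℚ NQb (r : ℚ), ntsl_rat_mem_A0 hp hP r⟩
  map_one' := by apply Subtype.ext; simp
  map_mul' x y := by apply Subtype.ext; simp
  map_zero' := by apply Subtype.ext; simp
  map_add' x y := by apply Subtype.ext; simp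

theorem ntsl_res_smul (hp : p.Prime) (hP : P.LiesOverPrime p) (B : AddSubgroup M)
    (r : GaloisRep.ratLocalizedAt p) (h : M → NQb) :
    ntslRes B (r • h) = ntslRatHomA0 hp hP r • ntslRes B h := by
  funext b
  rw [ntslRes_apply, ntsl_R_smul_apply, ntsl_A0_smul_apply]
  rfl

/-- restrictions of elements of the `ℤ_(p)`-span of `t` lie in the `A₀`-algebra generated by the
restrictions of the elements of `t` -/
theorem ntsl_res_mem_adjoin (hp : p.Prime) (hP : P.LiesOverPrime p) (B : AddSubgroup M)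
    (t : Set (M → NQb)) {h : M → NQb}
    (hh : h ∈ Submodule.span (GaloisRep.ratLocalizedAt p) t) :
    ntslRes B h ∈ Algebra.adjoin (ntslA0 P) ((ntslRes B) '' t) := by
  induction hh using Submodule.span_induction with
  | mem h hh => exact Algebra.subset_adjoin ⟨h, hh, rfl⟩
  | zero => rw [map_zero]; exact Subalgebra.zero_mem _
  | add f g _ _ hf hg => rw [map_add]; exact Subalgebra.add_mem _ hf hg
  | smul r f _ hf =>
    rw [ntsl_res_smul hp hP]
    exact Subalgebra.smul_mem _ hf _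

/-- (e) `H_B` is a finitely generated `A₀`-module -/
theorem ntslHB_fg (hp : p.Prime) (hP : P.LiesOverPrime p)
    (hH : IsHopfLattice (GaloisRep.ratLocalizedAt p) act H) (B : AddSubgroup M) :
    (Subalgebra.toSubmodule (ntslHB P H B)).FG := by
  obtain ⟨t, ht⟩ := hH.fg
  have htH : ∀ g ∈ t, g ∈ H := by
    intro g hg
    have : g ∈ Subalgebra.toSubmodule H := by
      rw [← ht]
      exact Submodule.subset_span hg
    exact this
  have heq : ntslHB P H B = Algebra.adjoin (ntslA0 P) ((ntslRes B) '' (t : Set (M → NQb))) := by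
    apply le_antisymm
    · unfold ntslHB
      rw [Algebra.adjoin_le_iff]
      rintro f ⟨h, hh, rfl⟩
      apply ntsl_res_mem_adjoin hp hP B
      rw [ht]
      exact hh
    · apply Algebra.adjoin_mono
      rintro _ ⟨g, hg, rfl⟩
      exact ⟨g, htH g hg, rfl⟩
  rw [heq]
  apply fg_adjoin_of_finite ((t.finite_toSet).image _)
  rintro _ ⟨g, hg, rfl⟩
  -- integrality of `res g` over `A₀`
  have h1 : IsIntegral (GaloisRep.ratLocalizedAt p) g :=
    IsIntegral.of_mem_of_fg H hH.fg g (htH g hg)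
  obtain ⟨f, hf, hf0⟩ := h1
  refine ⟨f.map (ntslRatHomA0 hp hP), hf.map _, ?_⟩
  rw [Polynomial.eval₂_map]
  have hcomp : (algebraMap (ntslA0 P) (B → NQb)).comp (ntslRatHomA0 hp hP)
      = (ntslRes B).comp (algebraMap (GaloisRep.ratLocalizedAt p) (M → NQb)) := by
    ext r b
    rfl
  rw [hcomp, ← Polynomial.hom_eval₂, hf0, map_zero]

/-- (f) `H_B` is closed under comultiplication -/
theorem ntslHB_comul (hp : p.Prime) (hP : P.LiesOverPrime p)
    (hH : IsHopfLattice (GaloisRep.ratLocalizedAt p) act H) (B : AddSubgroup M)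
    {f : B → NQb} (hf : f ∈ ntslHB P H B) :
    (fun xy : B × B => f (xy.1 + xy.2)) ∈
      Submodule.span (ntslA0 P) {F : B × B → NQb | ∃ a ∈ ntslHB P H B, ∃ b ∈ ntslHB P H B,
        F = fun xy => a xy.1 * b xy.2} := by
  unfold ntslHB at hf
  induction hf using Algebra.adjoin_induction with
  | mem f hf =>
    obtain ⟨h, hh, rfl⟩ := hf
    -- restrict the comultiplication of `h`
    have key : ∀ G ∈ Submodule.span (GaloisRep.ratLocalizedAt p)
        {F : M × M → NQb | ∃ a ∈ H, ∃ b ∈ H, F = fun PQ => a PQ.1 * b PQ.2},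
        (fun xy : B × B => G ((xy.1 : M), (xy.2 : M))) ∈
          Submodule.span (ntslA0 P) {F : B × B → NQb | ∃ a ∈ ntslHB P H B,
            ∃ b ∈ ntslHB P H B, F = fun xy => a xy.1 * b xy.2} := by
      intro G hG
      induction hG using Submodule.span_induction with
      | mem G hG =>
        obtain ⟨a, ha, b, hb, rfl⟩ := hG
        exact Submodule.subset_span ⟨ntslRes B a, ntsl_res_mem B ha, ntslRes B b,
          ntsl_res_mem B hb, rfl⟩
      | zero => exact Submodule.zero_mem _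
      | add F G _ _ hF hG => exact Submodule.add_mem _ hF hG
      | smul r F _ hF =>
        have e : (fun xy : B × B => (r • F) ((xy.1 : M), (xy.2 : M)))
            = ntslRatHomA0 hp hP r • (fun xy : B × B => F ((xy.1 : M), (xy.2 : M))) := by
          funext xy
          rw [ntsl_R_smul_apply, ntsl_A0_smul_apply]
          rfl
        rw [e]
        exact Submodule.smul_mem _ _ hF
    exact key _ (hH.comul_mem h hh)
  | algebraMap r =>
    have e : (fun xy : B × B => algebraMap (ntslA0 P) (B → NQb) r (xy.1 + xy.2))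
        = r • (fun xy : B × B => (1 : B → NQb) xy.1 * (1 : B → NQb) xy.2) := by
      funext xy
      rw [ntsl_A0_algebraMap_apply, ntsl_A0_smul_apply]
      simp
    rw [e]
    exact Submodule.smul_mem _ _ (Submodule.subset_span
      ⟨1, Subalgebra.one_mem _, 1, Subalgebra.one_mem _, rfl⟩)
  | add f g _ _ hf hg =>
    exact Submodule.add_mem _ hf hg
  | mul f g _ _ hf hg =>
    exact ntsl_pure_mul (Algebra.adjoin (ntslA0 P) (ntslGen H B)) hf hg

/-- `H_B` is a Hopf lattice over `(A₀, I)` -/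
theorem ntslHB_isHopfLatticeOver (hp : p.Prime) (hP : P.LiesOverPrime p)
    (hH : IsHopfLattice (GaloisRep.ratLocalizedAt p) act H) {B : AddSubgroup M}
    (hst : ntsStable (P.inertiaSubgroupIn ℚ) act B) :
    IsHopfLatticeOver (ntslA0 P) (P.inertiaSubgroupIn ℚ) (ntslAct act B) (ntslHB P H B) where
  fg := ntslHB_fg hp hP hH B
  equivariant := fun _ hf _ hσ b => ntslHB_equivariant hH hst hf hσ b
  separates := ntslHB_separates hH B
  comul_mem := fun _ hf => ntslHB_comul hp hP hH B hf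

end Restrict

section Final

/-- a group of exponent `p^m` without elements of order `p` is trivial -/
theorem ntsl_eq_zero_of_pow {Q : Type*} [AddCommGroup Q] {p : ℕ}
    (h1 : ∀ q : Q, p • q = 0 → q = 0) (m : ℕ) (q : Q) (hq : p ^ m • q = 0) : q = 0 := by
  induction m generalizing q with
  | zero => simpa using hq
  | succ m ih =>
    apply ih
    apply h1
    rw [← mul_smul, ← pow_succ']
    exact hq

/-- **B3**, from B1 and B2. -/
theorem stmtNTSOfLattice_of (hB1 : StmtSQLocQuot) : StmtNTSOfLattice := by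
  intro p hp hp2 P hP M _ _ act hact hpow H hH B hB hst b hb
  obtain ⟨m, hm⟩ := hpow
  -- the quotient `Q = B / 𝔄 B`
  set C : AddSubgroup M := ntsSpan (P.inertiaSubgroupIn ℚ) act B with hC
  let C' : AddSubgroup B := C.addSubgroupOf B
  let π : B →+ B ⧸ C' := QuotientAddGroup.mk' C'
  have hπ : Function.Surjective π := QuotientAddGroup.mk'_surjective C'
  let act'' : GQb → B ⧸ C' → B ⧸ C' := fun _ x => x
  have hequiv : ∀ σ ∈ P.inertiaSubgroupIn ℚ, ∀ x : B, π (ntslAct act B σ x) = act'' σ (π x) := by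
    intro σ hσ x
    show π (ntslAct act B σ x) = π x
    rw [← sub_eq_zero, ← map_sub]
    apply (QuotientAddGroup.eq_zero_iff _).mpr
    show ((ntslAct act B σ x - x : B) : M) ∈ C
    rw [AddSubgroup.coe_sub, ntslAct_coe (hst σ hσ x x.2)]
    exact sub_mem_ntsSpan hσ x.2
  -- the Hopf lattice on `Q`
  have hHB := ntslHB_isHopfLatticeOver hp hP hH hst
  have hQ := hB1 (ntslA0 P) (P.inertiaSubgroupIn ℚ) (ntslA0_isPrincipalIdealRing hp hP)
    (fun r hr σ hσ => ntslA0_fixed hr hσ) ntslA0_frac B inferInstance inferInstance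
    (ntslAct act B) (B ⧸ C') inferInstance act'' (ntslHB P H B) hHB π hπ hequiv
  have hBconn : B ≤ ntslConn hp hP hH := hB.trans (ntsl_span_le_conn hp hP hH)
  -- no element of order `p` in `Q`
  have hnop : ∀ q : B ⧸ C', p • q = 0 → q = 0 := by
    intro q hq
    apply hQ.separates
    have hval : ∀ φ ∈ ((ntslHB P H B).comap (pullFnOver (ntslA0 P) π) : Set (B ⧸ C' → NQb)),
        ∀ x, φ x ∈ ntslA0 P := by
      intro φ hφ x
      obtain ⟨y, rfl⟩ := hπ x
      refine ⟨ntslHB_value_mem hp hP hH B hφ y, ?_⟩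
      show φ (π y) ∈ beta0Field P
      rw [mem_beta0Field]
      intro σ hσ
      exact (hQ.equivariant φ hφ σ hσ (π y)).symm
    have hconn : ∀ φ ∈ ((ntslHB P H B).comap (pullFnOver (ntslA0 P) π) : Set (B ⧸ C' → NQb)),
        (φ q - φ 0) / (p : NQb) ∈ ntslA0 P := by
      intro φ hφ
      apply ntslA0_div_mem hp hP ((ntslA0 P).sub_mem (hval φ hφ q) (hval φ hφ 0))
      obtain ⟨y, rfl⟩ := hπ q
      have := ntslHB_congr hp hP hH hBconn hφ y
      simpa using this
    exact stmtRayLite NQb inferInstance inferInstance (ntslA0 P) p hp hp2 (ntslA0_sep hp hP)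
      (B ⧸ C') inferInstance q hq _ hval hQ.comul_mem hconn
  -- conclusion
  have hzero : π ⟨b, hb⟩ = 0 := by
    apply ntsl_eq_zero_of_pow hnop m
    rw [← map_nsmul]
    have : p ^ m • (⟨b, hb⟩ : B) = 0 := by
      apply Subtype.ext
      simpa using hm b
    rw [this, map_zero]
  have := (QuotientAddGroup.eq_zero_iff _).mp hzero
  exact this

/-- **B3** (`Plan2.lean`), unconditional. -/
theorem stmtNTSOfLattice : StmtNTSOfLattice := stmtNTSOfLattice_of stmtSQLocQuot

end Final

end Fermat.Agent.S33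


end ZBS33_010_6

/-! ### bundled: `Fermat.Agent.S33.FlatOrdFinal` -/
section ZBS33_010_7

/-!
# S33 v2, pieces B4 + FO (helper15), unconditional forms

* `isOrdinaryAt_of_isFlatAt` : **flat at `p` + residually ordinary + cyclotomic determinant ⇒
  ordinary at `p`** (`p` odd), for every `GaloisRepAdic` over a Noetherian local ring.
* `nts_jzero_good` : (KEY) at a level prime to `p`: `NTS I_P (𝔄 J₀(N)[pᵏ])`, `p ∤ N`, `p` odd
  (the hypothesis `hold` of `nts_key_of_new`).
* `nts_jzero_good_tors` : the same on the group `J₀(N)[pᵏ]` itself.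
-/

set_option autoImplicit false

namespace Fermat.Agent.S33

open ModularCurve Fermat.Agent.W1

/-- **FO.**  A representation which is flat at the odd prime `p`, residually ordinary at `p` and
has cyclotomic determinant is ordinary at `p`. -/
theorem isOrdinaryAt_of_isFlatAt {A : Type} [CommRing A] [IsLocalRing A] [IsNoetherianRing A]
    (ρ : GaloisRepAdic A) {p : ℕ} (hp : p.Prime) (hp2 : p ≠ 2)
    (hdet : ρ.DetIsCyclotomic p)
    (hres : (GaloisRepAdic.ofResidualGaloisRep ρ.residual).IsOrdinaryAt p)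
    (hflat : ρ.IsFlatAt p) : ρ.IsOrdinaryAt p :=
  fo_isOrdinaryAt_of_isFlatAt stmtNTSOfLattice ρ hp hp2 hdet.1
    (fun P hP => exists_inertia_residual_ne_one hp hp2 ρ hdet P hP) hres hflat

/-- **B4** (torsion form): `NTS` for the inertia span of `J₀(N)[pᵏ]`, `p ∤ N`, `p` odd. -/
theorem nts_jzero_good_tors (N : ℕ) [NeZero N] {p : ℕ} (hp : p.Prime)
    (hp2 : p ≠ 2) (hpN : ¬ p ∣ N) (P : ValuationSubring (AlgebraicClosure ℚ))
    (hP : P.LiesOverPrime p) (k : ℕ) :
    NTS (P.inertiaSubgroupIn ℚ) (torsAct (JZero N) ((p : ℤ) ^ k))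
      (ntsSpan (P.inertiaSubgroupIn ℚ) (torsAct (JZero N) ((p : ℤ) ^ k)) ⊤) :=
  fo_nts_jzero_tors stmtNTSOfLattice N hp hp2 hpN P hP k

/-- **B4** (ambient form, the hypothesis `hold` of `nts_key_of_new`). -/
theorem nts_jzero_good (N : ℕ) [NeZero N] {p : ℕ} (hp : p.Prime)
    (hp2 : p ≠ 2) (hpN : ¬ p ∣ N) (P : ValuationSubring (AlgebraicClosure ℚ))
    (hP : P.LiesOverPrime p) (k : ℕ) :
    NTS (P.inertiaSubgroupIn ℚ)
      (fun (σ : AlgebraicClosure ℚ ≃ₐ[ℚ] AlgebraicClosure ℚ) (x : JZero N) => σ • x)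
      (ntsSpan (P.inertiaSubgroupIn ℚ)
        (fun (σ : AlgebraicClosure ℚ ≃ₐ[ℚ] AlgebraicClosure ℚ) (x : JZero N) => σ • x)
        (ntsTors (JZero N) (p ^ k))) :=
  fo_nts_jzero stmtNTSOfLattice N hp hp2 hpN P hP k

end Fermat.Agent.S33


end ZBS33_010_7

/-! ### bundled: `Fermat.Agent.S33.OfWild` -/
section ZBS33_010_8

/-!
# S33, route v2: the frozen statement from (C3) + (C4) alone

* `stmtKeyGood : StmtKeyGood` : (KEY) at levels prime to `p` (B4, helper15: `nts_jzero_good`).
* `s33_of_wild : StmtWildT →` the frozen statement S33.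
-/

set_option autoImplicit false
set_option linter.unusedSectionVars false
set_option linter.unusedVariables false

namespace Fermat.Agent.S33

open ModularCurve Fermat.Agent.ES

/-- **B4**: (KEY) at levels prime to `p`. -/
theorem stmtKeyGood : StmtKeyGood :=
  fun M p _ hp hp2 hpM P hP n => nts_jzero_good M hp hp2 hpM P hP n

variable {p : ℕ} {N : ℕ} [NeZero N] {S : Finset ℕ}
  {𝒪 : Type} [CommRing 𝒪] [IsDomain 𝒪] [IsDiscreteValuationRing 𝒪]
  [IsAdicComplete (IsLocalRing.maximalIdeal 𝒪) 𝒪]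
  {θ : CuspForm.heckeAlgebra N 2 (↑S : Set ℕ) →+* IsLocalRing.ResidueField 𝒪}
  {T : Type} [CommRing T] [IsLocalRing T] [IsNoetherianRing T]
  [IsAdicComplete (IsLocalRing.maximalIdeal T) T] [Algebra 𝒪 T] [IsLocalHom (algebraMap 𝒪 T)]
  [Module.Finite 𝒪 T] [Module.Free 𝒪 T]

/-- **S33 from (C3) + (C4).** -/
theorem s33_of_wild (hwild : StmtWildT)
    [Finite (IsLocalRing.ResidueField 𝒪)] [CharZero 𝒪]
    (hp : p.Prime) (hp2 : p ≠ 2) (hp𝒪 : (p : 𝒪) ∈ IsLocalRing.maximalIdeal 𝒪)
    (hN : p ∣ N ∧ ¬ p ^ 2 ∣ N)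
    (hNS : ∀ q : ℕ, q.Prime → q ∣ N → q ∈ S)
    (H : CuspForm.HeckeGaloisRepDatum N (↑S : Set ℕ) 𝒪 θ T)
    (hres : (GaloisRepAdic.ofResidualGaloisRep H.ρ.residual).IsOrdinaryAt p) :
    H.ρ.IsOrdinaryAt p :=
  s33_of_key stmtKeyGood hwild hp hp2 hp𝒪 hN hNS H hres

end Fermat.Agent.S33


end ZBS33_010_8
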