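/- GENERATED FILE (helper35, build-time optimisation, NOTES/ZB.md): verbatim concatenation of the modules
   Fermat.Agent.S33.WildThick
   Fermat.Agent.S33.WildThickChart
   Fermat.Agent.S33.WildHT4
   Fermat.Agent.S33.WildTop
   Fermat.Agent.S33.WildCusp
   Fermat.Agent.S33.WildCuspPt
   Fermat.Agent.S33.WildPts
   Do not edit; do not import together with these modules. -/
import Fermat.Agent.ZB.UNIP_007
import Fermat.Agent.ZB.S15_001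
import Fermat.Agent.ZB.STB_003
import Fermat.Agent.ZB.UNIP_010
import Fermat.Agent.ZB.S33_005
import Fermat.Agent.ZB.INJ_031
import Fermat.Agent.ZB.UNIP_035
import Fermat.Agent.ZB.STB_004
import Fermat.Agent.ZB.UNIP_014
import Fermat.Agent.ZB.UNIP_032

/-! ### bundled: `Fermat.Agent.S33.WildThick` -/
section ZBS33_006_0

/-!
# S33 v2, C4 (WILD), piece T5f: the nodes have FINITE THICKNESS

Abstract setting of `S33/WildHor.lean`: `O = B_𝔫 ⊆ F` the local ring of a crossing point, `V₁`,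
`V₂` the two vertical valuation rings through it, `ord : ι → F → ℤ` the horizontal places of the
tube, `hN` normality of `O`.

A *stage datum* is `X, Y, G ∈ O`, `X · Y = q ^ n' · G`, with `X` a uniformizer of the branch
`O/𝔭₂` (`WhWinding O V₂ X`) and `Y` a unit of `V₁`.  (UNIP's Morse iteration gives stage data with
`n' ≥ n` or `G ∉ 𝔫`, for every `n`.)

* `wth_bound` : if `U ∈ O` is a tube-unit with `U · V' = q ^ N`, `V' ∈ O` (the modular unit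
  `q¹² Δ(qz)/Δ(z)`, `N = 12`: `S36/ThinUnit.lean`), of branch order `k` on the branch `O/𝔭₂`, then
  `n' · k ≤ N` for every stage datum.
* `wth_branch_pos` : `k ≥ 1` if `U` is not a unit of `V₁`.
* `wth_final_stage` : hence the stage data with `n = N + 1` are final: `G` is a unit of `O`.

Proof of the bound: `T := X ^ k / U` has no horizontal pole, is a unit at `V₂`, and
`T · Y ^ k = q ^ (n' k − N) · G ^ k · V'`; if `n' k > N` then `T ∈ 𝔪(V₁)`, so `T ∈ O` is not a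
unit; but `T ≡ η⁻¹` on the branch `O/𝔭₂`, so `T` is a unit (`rad`).
-/

set_option autoImplicit false

namespace Fermat.Agent.S33

section Thick

variable {F : Type*} [Field F] {ι : Type*}

/-- **The thickness bound.** -/
theorem wth_bound (ord : ι → F → ℤ)
    (hmul : ∀ i x y, x ≠ 0 → y ≠ 0 → ord i (x * y) = ord i x + ord i y)
    (O : Subring F) (V₁ V₂ : ValuationSubring F) (hOV₁ : ∀ x ∈ O, x ∈ V₁)
    (hN : ∀ z : F, z ≠ 0 → (∀ j, 0 ≤ ord j z) → z ∈ V₁ → z ∈ V₂ → z ∈ O)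
    (hordO : ∀ z ∈ O, z ≠ 0 → ∀ j, 0 ≤ ord j z)
    {X : F} (hW : WhWinding O V₂ X)
    {q : F} (hq0 : q ≠ 0) (hq₁ : V₁.valuation q < 1)
    {Y G : F} {n' : ℕ} (hYV₁ : V₁.valuation Y = 1) (hG : G ∈ O) (hXY : X * Y = q ^ n' * G)
    {U V' : F} {N : ℕ} (hV' : V' ∈ O) (hUV : U * V' = q ^ N)
    (hUtube : ∀ j, ord j U = 0)
    {k : ℕ} (hk : WhBranch O V₂ X U (k : ℤ)) :
    n' * k ≤ N := by
  by_contra hcon
  rw [not_le] at hcon
  have hU2 : V₂.valuation U = 1 := hk.val_eq hW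
  have hU0 : U ≠ 0 := wh_val_ne_zero V₂ hU2
  have hX0 : X ≠ 0 := wh_val_ne_zero V₂ hW.val
  have hY0 : Y ≠ 0 := wh_val_ne_zero V₁ hYV₁
  have hXk0 : X ^ k ≠ 0 := pow_ne_zero k hX0
  have hT0 : X ^ k / U ≠ 0 := div_ne_zero hXk0 hU0
  -- horizontal orders
  have hTord : ∀ j, 0 ≤ ord j (X ^ k / U) := by
    intro j
    have h1 := hmul j (X ^ k / U) U hT0 hU0
    rw [div_mul_cancel₀ _ hU0, hUtube j, add_zero] at h1
    rw [← h1]
    exact hordO _ (O.pow_mem hW.mem k) hXk0 j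
  -- `V₂`
  have hTV₂ : V₂.valuation (X ^ k / U) = 1 :=
    wh_val_div V₂ (wh_val_pow V₂ hW.val k) hU2
  -- `V₁`
  have hkey : X ^ k / U * Y ^ k = q ^ (n' * k - N) * (G ^ k * V') := by
    have h1 : X ^ k * Y ^ k = q ^ (n' * k) * G ^ k := by
      rw [← mul_pow, hXY, mul_pow, ← pow_mul]
    have h2 : q ^ (n' * k) = q ^ N * q ^ (n' * k - N) := by
      rw [← pow_add, Nat.add_sub_cancel' hcon.le]
    have hqN : q ^ N ≠ 0 := pow_ne_zero N hq0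
    have hV0 : V' ≠ 0 := by
      rintro rfl
      rw [mul_zero] at hUV
      exact hqN hUV.symm
    have h3 : U = q ^ N / V' := by
      rw [eq_div_iff hV0, hUV]
    rw [h3, div_div_eq_mul_div, div_mul_eq_mul_div, div_eq_iff hqN]
    calc X ^ k * V' * Y ^ k = (X ^ k * Y ^ k) * V' := by ring
      _ = q ^ N * q ^ (n' * k - N) * G ^ k * V' := by rw [h1, h2]
      _ = q ^ (n' * k - N) * (G ^ k * V') * q ^ N := by ring
  have hTV₁ : V₁.valuation (X ^ k / U) < 1 := by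
    have h1 : V₁.valuation (X ^ k / U * Y ^ k) = V₁.valuation (X ^ k / U) := by
      rw [map_mul, map_pow, hYV₁, one_pow, mul_one]
    rw [← h1, hkey, map_mul]
    have h2 : V₁.valuation (q ^ (n' * k - N)) < 1 := by
      rw [map_pow]
      exact pow_lt_one₀ zero_le hq₁ (by omega)
    refine mul_lt_one_of_lt_of_le h2 ((V₁.valuation_le_one_iff _).2 ?_)
    exact hOV₁ _ (O.mul_mem (O.pow_mem hG k) hV')
  have hTO : X ^ k / U ∈ O :=
    hN _ hT0 hTord ((V₁.valuation_le_one_iff _).1 hTV₁.le) ((V₂.valuation_le_one_iff _).1 hTV₂.le)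
  -- the branch
  obtain ⟨η, hη0, hη, hη', hUη⟩ := hk
  rw [zpow_natCast] at hUη
  have hηV₂ : V₂.valuation η = 1 := hW.val_unit hη0 hη hη'
  have h1 : V₂.valuation (X ^ k / U * η - 1) < 1 := by
    have e : X ^ k / U * η - 1 = -((U - X ^ k * η) / U) := by
      field_simp
      ring
    rw [e, Valuation.map_neg, map_div₀, hU2, div_one]
    exact hUη
  have hinv : (X ^ k / U * η)⁻¹ ∈ O := hW.rad _ (O.mul_mem hTO hη) h1
  have h2 : V₁.valuation (X ^ k / U * η)⁻¹ ≤ 1 := (V₁.valuation_le_one_iff _).2 (hOV₁ _ hinv)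
  have h3 : V₁.valuation (X ^ k / U * η) < 1 := by
    rw [map_mul]
    exact mul_lt_one_of_lt_of_le hTV₁ ((V₁.valuation_le_one_iff _).2 (hOV₁ _ hη))
  have h4 : V₁.valuation (X ^ k / U * η) ≠ 0 :=
    (Valuation.ne_zero_iff _).2 (mul_ne_zero hT0 hη0)
  rw [map_inv₀] at h2
  have h5 : 1 ≤ V₁.valuation (X ^ k / U * η) := by
    have := (inv_le_one₀ (zero_lt_iff.mpr h4)).1 h2
    exact this
  exact absurd h3 (not_lt.2 h5)

/-- the branch order of a non-unit of `V₁` in `O` (which is a unit of `V₂`) is positive -/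
theorem wth_branch_pos (O : Subring F) (V₁ V₂ : ValuationSubring F) (hOV₁ : ∀ x ∈ O, x ∈ V₁)
    {X : F} (hW : WhWinding O V₂ X) {U : F} (hU : U ∈ O) (hU₁ : V₁.valuation U < 1)
    (hU₂ : V₂.valuation U = 1) :
    ∃ k : ℕ, 1 ≤ k ∧ WhBranch O V₂ X U (k : ℤ) := by
  have h := whOrd_spec hW hU₂
  have hnn := whOrd_nonneg hW hU hU₂
  obtain ⟨k, hk⟩ := Int.eq_ofNat_of_zero_le hnn
  rw [hk] at h
  refine ⟨k, ?_, h⟩
  rcases Nat.eq_zero_or_pos k with h0 | h0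
  · exfalso
    rw [h0] at hk
    have hinv : U⁻¹ ∈ O := whOrd_unit hW hU hU₂ (by rw [hk]; rfl)
    have h1 : V₁.valuation U⁻¹ ≤ 1 := (V₁.valuation_le_one_iff _).2 (hOV₁ _ hinv)
    have hU0 : U ≠ 0 := wh_val_ne_zero V₂ hU₂
    rw [map_inv₀] at h1
    have h2 : 1 ≤ V₁.valuation U :=
      (inv_le_one₀ (zero_lt_iff.mpr ((Valuation.ne_zero_iff _).2 hU0))).1 h1
    exact absurd hU₁ (not_lt.2 h2)
  · exact h0

/-- **Finite thickness.**  If stage data exist for every `n` (with `n ≤ n'` or `G` a unit of `O`)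
and `U` is a tube-unit of `O` with `U · V' = q ^ N`, unit at `V₂` and non-unit at `V₁`, then there
is a FINAL stage datum: `X · Y = q ^ n' · G` with `G ∈ O^×`. -/
theorem wth_final_stage (ord : ι → F → ℤ)
    (hmul : ∀ i x y, x ≠ 0 → y ≠ 0 → ord i (x * y) = ord i x + ord i y)
    (O : Subring F) (V₁ V₂ : ValuationSubring F) (hOV₁ : ∀ x ∈ O, x ∈ V₁)
    (hN : ∀ z : F, z ≠ 0 → (∀ j, 0 ≤ ord j z) → z ∈ V₁ → z ∈ V₂ → z ∈ O)
    (hordO : ∀ z ∈ O, z ≠ 0 → ∀ j, 0 ≤ ord j z)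
    {q : F} (hq0 : q ≠ 0) (hq₁ : V₁.valuation q < 1)
    {U V' : F} {N : ℕ} (hU : U ∈ O) (hV' : V' ∈ O) (hUV : U * V' = q ^ N)
    (hUtube : ∀ j, ord j U = 0) (hU₁ : V₁.valuation U < 1) (hU₂ : V₂.valuation U = 1)
    (P : F → F → F → ℕ → Prop)
    (hstage : ∀ n : ℕ, 1 ≤ n → ∃ (n' : ℕ) (X Y G : F), P X Y G n' ∧ WhWinding O V₂ X ∧
      V₁.valuation Y = 1 ∧ G ∈ O ∧ X * Y = q ^ n' * G ∧ (n ≤ n' ∨ G⁻¹ ∈ O)) :
    ∃ (n' : ℕ) (X Y G : F), P X Y G n' ∧ WhWinding O V₂ X ∧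
      V₁.valuation Y = 1 ∧ G ∈ O ∧ G⁻¹ ∈ O ∧ X * Y = q ^ n' * G := by
  obtain ⟨n', X, Y, G, hP, hW, hY, hG, hXY, h⟩ := hstage (N + 1) (by omega)
  rcases h with h | h
  · exfalso
    obtain ⟨k, hk1, hk⟩ := wth_branch_pos O V₁ V₂ hOV₁ hW hU hU₁ hU₂
    have hb := wth_bound ord hmul O V₁ V₂ hOV₁ hN hordO hW hq0 hq₁ hY hG hXY hV' hUV hUtube hk
    have : n' ≤ n' * k := Nat.le_mul_of_pos_right n' hk1
    omega
  · exact ⟨n', X, Y, G, hP, hW, hY, hG, h, hXY⟩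

end Thick

end Fermat.Agent.S33


end ZBS33_006_0

/-! ### bundled: `Fermat.Agent.S33.WildThickChart` -/
section ZBS33_006_1

/-!
# S33 v2, C4 (WILD), piece T5f, chart level: the crossing points have FINITE THICKNESS

Chart `B_u = zchClosure {u}` over the (ramified) base `A₀`, `𝔫 ∋ π` a prime, `V c₁`, `V c₂` the
two vertical valuation rings through `𝔫`.

* `wthc_inv_notMem` : `b ∈ 𝔫`, `b ≠ 0` ⇒ `b⁻¹ ∉ B_𝔫`.
* `wthc_final` : stage data for every `n` (the form `hstage` of `UNIP.unip_hcoord_node`, i.e. the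
  output of `unip_morse_iter_vert`) + a tube-unit `U ∈ B_𝔫`, `U · V' = q ^ N`, `V' ∈ B_𝔫`,
  `U ∈ 𝔪(V c₁)`, `U ∉ 𝔪(V c₂)` (the modular unit `q¹² Δ(qz)/Δ(z)`, `N = 12`)
  ⇒ a FINAL stage datum `X Y = q ^ n' G`, `G ∉ 𝔫`, `𝔫 = (π, X, Y)` locally,
  `X ∈ 𝔪(V c₁) ∖ 𝔪(V c₂)`, `Y ∈ 𝔪(V c₂) ∖ 𝔪(V c₁)`: the input of `whc_node_factor` (T4c), for
  both branches.
* `wthc_of_nodes` : the same from the output of U5 at `𝔫.comap j` on the unramified chart `R`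
  (`MgcRamified j π p`, `j p = q`): smooth point or crossing of finite thickness.
-/

set_option autoImplicit false
set_option linter.style.haveILetI false
set_option linter.unusedSectionVars false
set_option linter.unusedVariables false

namespace Fermat.Agent.S33

open Polynomial IntermediateField Fermat.Agent.INJ AlgebraicCurve Fermat.Agent.UNIP
  Fermat.Agent.STB

section Loc

variable {F : Type*} [Field F] {B : Type*} [CommRing B] [Algebra B F]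

/-- a nonzero element of `𝔫` is not a unit of `B_𝔫` -/
theorem wthc_inv_notMem (hinj : Function.Injective (algebraMap B F)) (𝔫 : Ideal B) [𝔫.IsPrime]
    {b : B} (hb : b ∈ 𝔫) (hb0 : algebraMap B F b ≠ 0) :
    (algebraMap B F b)⁻¹ ∉ ls_localSubring (F := F) 𝔫 := by
  rintro ⟨c, s, hs, hsx⟩
  apply hs
  have e : algebraMap B F s = algebraMap B F (c * b) := by
    rw [map_mul, ← hsx]; field_simp
  rw [hinj e]
  exact 𝔫.mul_mem_left _ hb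

/-- an element of `B` outside `𝔫` is a unit of `B_𝔫` -/
theorem wthc_inv_mem (𝔫 : Ideal B) [h𝔫 : 𝔫.IsPrime] {b : B} (hb : b ∉ 𝔫)
    (hb0 : algebraMap B F b ≠ 0) :
    (algebraMap B F b)⁻¹ ∈ ls_localSubring (F := F) 𝔫 :=
  ⟨1, b, hb, by rw [map_one]; exact mul_inv_cancel₀ hb0⟩

end Loc

section ThickChart

variable {A₀ E F : Type*} [CommRing A₀] [IsDomain A₀] [IsDiscreteValuationRing A₀]
  [Field E] [Algebra A₀ E] [IsFractionRing A₀ E] [CharZero E]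
  [Field F] [Algebra E F] [Algebra A₀ F] [IsScalarTower A₀ E F]
  {π : A₀} {κ : Type*}

/-- **Finite thickness at a crossing point, chart level.** -/
theorem wthc_final (hπ : Irreducible π) {u : F} (hu : Transcendental E u)
    [FiniteDimensional E⟮u⟯ F] [Finite κ]
    [IsNoetherianRing ↥(zchClosure (A₀ := A₀) ({u} : Set F))]
    (V : κ → ValuationSubring F)
    (hBV : ∀ c (b : F), IsIntegral ↥(Algebra.adjoin A₀ {u}) b → b ∈ V c)
    (hπV : ∀ c, algebraMap A₀ F π ∈ (V c).nonunits)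
    (hSS1 : ∀ b : F, IsIntegral ↥(Algebra.adjoin A₀ {u}) b → (∀ c, b ∈ (V c).nonunits) →
      ∃ b' : F, IsIntegral ↥(Algebra.adjoin A₀ {u}) b' ∧ b = algebraMap A₀ F π * b')
    (hVloc : ∀ c (x : F), x ∈ V c → ∃ b s : F, IsIntegral ↥(Algebra.adjoin A₀ {u}) b ∧
      IsIntegral ↥(Algebra.adjoin A₀ {u}) s ∧ s ∉ (V c).nonunits ∧ s * x = b)
    (𝔫 : Ideal ↥(zchClosure (A₀ := A₀) ({u} : Set F))) [𝔫.IsPrime]
    (hπ𝔫 : algebraMap A₀ ↥(zchClosure (A₀ := A₀) ({u} : Set F)) π ∈ 𝔫)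
    (c₁ c₂ : κ)
    (hthr : ∀ c, (∀ b : ↥(zchClosure (A₀ := A₀) ({u} : Set F)),
      (b : F) ∈ (V c).nonunits → b ∈ 𝔫) → c = c₁ ∨ c = c₂)
    (h₁ : ∀ b : ↥(zchClosure (A₀ := A₀) ({u} : Set F)), (b : F) ∈ (V c₁).nonunits → b ∈ 𝔫)
    (h₂ : ∀ b : ↥(zchClosure (A₀ := A₀) ({u} : Set F)), (b : F) ∈ (V c₂).nonunits → b ∈ 𝔫)
    (q : A₀) (hq0 : q ≠ 0) (hqπ : π ∣ q)
    {U V' : F} {N : ℕ} (hU : U ∈ ls_localSubring (F := F) 𝔫)
    (hV' : V' ∈ ls_localSubring (F := F) 𝔫) (hUV : U * V' = algebraMap A₀ F q ^ N)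
    (hU₁ : U ∈ (V c₁).nonunits) (hU₂ : U ∉ (V c₂).nonunits)
    (hstage : ∀ n : ℕ, 1 ≤ n → ∃ (n' : ℕ) (X Y G : ↥(zchClosure (A₀ := A₀) ({u} : Set F))),
      (X : F) ∈ (V c₁).nonunits ∧ (Y : F) ∈ (V c₂).nonunits ∧
      (X : F) ∉ (V c₂).nonunits ∧ (Y : F) ∉ (V c₁).nonunits ∧
      X * Y = algebraMap A₀ ↥(zchClosure (A₀ := A₀) ({u} : Set F)) q ^ n' * G ∧
      NodesLocGen 𝔫 {algebraMap A₀ ↥(zchClosure (A₀ := A₀) ({u} : Set F)) π, X, Y} ∧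
      (n ≤ n' ∨ G ∉ 𝔫)) :
    ∃ (n' : ℕ) (X Y G : ↥(zchClosure (A₀ := A₀) ({u} : Set F))),
      (X : F) ∈ (V c₁).nonunits ∧ (Y : F) ∈ (V c₂).nonunits ∧
      (X : F) ∉ (V c₂).nonunits ∧ (Y : F) ∉ (V c₁).nonunits ∧
      X * Y = algebraMap A₀ ↥(zchClosure (A₀ := A₀) ({u} : Set F)) (q ^ n') * G ∧
      NodesLocGen 𝔫 {algebraMap A₀ ↥(zchClosure (A₀ := A₀) ({u} : Set F)) π, X, Y} ∧
      G ∉ 𝔫 := by
  classical
  haveI : Fintype κ := Fintype.ofFinite κ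
  have hinj : Function.Injective (algebraMap ↥(zchClosure (A₀ := A₀) ({u} : Set F)) F) :=
    Subtype.val_injective
  have hB := unip_chart_range (A₀ := A₀) u
  have hπ0 : algebraMap A₀ F π ≠ 0 := unip_algebraMap_irreducible_ne_zero E hπ
  have hBV' : ∀ c (b : ↥(zchClosure (A₀ := A₀) ({u} : Set F))),
      algebraMap ↥(zchClosure (A₀ := A₀) ({u} : Set F)) F b ∈ V c :=
    fun c b => hBV c _ (mem_zchClosure.mp b.2)
  -- the tube
  set T := {P : Place E F // LsTube ↥(zchClosure (A₀ := A₀) ({u} : Set F)) u 𝔫 P} with hT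
  have hmul : ∀ (P : T) (x z : F), x ≠ 0 → z ≠ 0 →
      P.1.ord (x * z) = P.1.ord x + P.1.ord z := fun P x z hx hz => Place.ord_mul P.1 hx hz
  -- normality
  set ϖ : ↥(zchClosure (A₀ := A₀) ({u} : Set F)) :=
    algebraMap A₀ ↥(zchClosure (A₀ := A₀) ({u} : Set F)) π with hϖdef
  have hϖ : algebraMap ↥(zchClosure (A₀ := A₀) ({u} : Set F)) F ϖ = algebraMap A₀ F π := rfl
  set vert : Finset (Ideal ↥(zchClosure (A₀ := A₀) ({u} : Set F))) :=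
    Finset.univ.image (fun c : κ => crossingIdeal (A₀ := A₀) {u} (V c) (hBV c)) with hvert
  have hvert_mem : ∀ 𝔭 ∈ vert, ∃ c : κ, 𝔭 = crossingIdeal (A₀ := A₀) {u} (V c) (hBV c) := by
    intro 𝔭 h𝔭
    obtain ⟨c, -, hc⟩ := Finset.mem_image.mp h𝔭
    exact ⟨c, hc.symm⟩
  have hprime : ∀ 𝔭 ∈ vert, 𝔭.IsPrime := by
    intro 𝔭 h𝔭
    obtain ⟨c, rfl⟩ := hvert_mem 𝔭 h𝔭
    exact at_crossingIdeal_isPrime (V c) (hBV c)
  have hϖv : ∀ 𝔭 ∈ vert, ϖ ∈ 𝔭 := by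
    intro 𝔭 h𝔭
    obtain ⟨c, rfl⟩ := hvert_mem 𝔭 h𝔭
    exact hπV c
  have hSS1' : ∀ b : ↥(zchClosure (A₀ := A₀) ({u} : Set F)), (∀ 𝔭 ∈ vert, b ∈ 𝔭) → ϖ ∣ b := by
    intro b hb
    obtain ⟨b', hb', hbb'⟩ := hSS1 (b : F) (mem_zchClosure.mp b.2) (fun c =>
      hb _ (Finset.mem_image.mpr ⟨c, Finset.mem_univ c, rfl⟩))
    exact ⟨⟨b', mem_zchClosure.mpr hb'⟩, Subtype.ext hbb'⟩
  have hN : ∀ z : F, z ≠ 0 → (∀ P : T, 0 ≤ P.1.ord z) → z ∈ V c₁ → z ∈ V c₂ →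
      z ∈ ls_localSubring (F := F) 𝔫 := by
    intro z hz0 hzT hz₁ hz₂
    obtain ⟨s, hs, b, hb⟩ := unip_unitCrit_mem hπ u hu hinj hB ϖ hϖ 𝔫 vert hprime hϖv hSS1' z
      (fun P hP hc => hzT ⟨P, hP, hc⟩)
      (fun 𝔭 h𝔭 hle => by
        obtain ⟨c, rfl⟩ := hvert_mem 𝔭 h𝔭
        have hzc : z ∈ V c := by
          rcases hthr c (fun b hb => hle hb) with h | h
          · rw [h]; exact hz₁
          · rw [h]; exact hz₂
        obtain ⟨b, d, hb, hd, hdV, hdz⟩ := hVloc c z hzc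
        exact ⟨⟨d, mem_zchClosure.mpr hd⟩, hdV, ⟨b, mem_zchClosure.mpr hb⟩, hdz.symm⟩)
    exact ⟨b, s, hs, hb.symm⟩
  have hOV₁ : ∀ x ∈ ls_localSubring (F := F) 𝔫, x ∈ V c₁ := stb_gc_le 𝔫 (V c₁) (hBV' c₁) h₁
  have hOV₂ : ∀ x ∈ ls_localSubring (F := F) 𝔫, x ∈ V c₂ := stb_gc_le 𝔫 (V c₂) (hBV' c₂) h₂
  have hordO : ∀ z ∈ ls_localSubring (F := F) 𝔫, z ≠ 0 → ∀ P : T, 0 ≤ P.1.ord z := by
    rintro z ⟨b, s, hs, hsz⟩ hz P
    have hs0 : algebraMap ↥(zchClosure (A₀ := A₀) ({u} : Set F)) F s ≠ 0 :=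
      stb_gc_algebraMap_ne_zero hinj 𝔫 hs
    have h1 := unip_ord_chart_nonneg u hB P.1 P.2.1 b
    have h2 := unip_ord_eq_zero_of_notMem u hB 𝔫 P.1 P.2.1 P.2.2 hs
    rw [← hsz, Place.ord_mul P.1 hs0 hz, h2, zero_add] at h1
    exact h1
  have hqF0 : algebraMap A₀ F q ≠ 0 := fun h =>
    hq0 (unip_algebraMap_injective E (by rw [h, map_zero]))
  have hq₁ : (V c₁).valuation (algebraMap A₀ F q) < 1 := by
    obtain ⟨r, rfl⟩ := hqπ
    rw [map_mul]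
    have hr : algebraMap A₀ F r ∈ V c₁ := by
      have := hBV' c₁ (algebraMap A₀ ↥(zchClosure (A₀ := A₀) ({u} : Set F)) r)
      exact this
    rw [← ValuationSubring.mem_nonunits_iff, mul_comm]
    exact pwi_mul_mem_nonunits (V c₁) hr (hπV c₁)
  have hqN0 : algebraMap A₀ F q ^ N ≠ 0 := pow_ne_zero N hqF0
  have hU0 : U ≠ 0 := fun h => hqN0 (by rw [← hUV, h, zero_mul])
  have hV0 : V' ≠ 0 := fun h => hqN0 (by rw [← hUV, h, mul_zero])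
  have hUtube : ∀ P : T, P.1.ord U = 0 := by
    intro P
    have h1 := hordO U hU hU0 P
    have h2 := hordO V' hV' hV0 P
    have h3 : P.1.ord (U * V') = 0 := by
      rw [hUV, ← map_pow]
      exact unip_ord_const P.1 (q ^ N)
    rw [Place.ord_mul P.1 hU0 hV0] at h3
    omega
  have hU₁' : (V c₁).valuation U < 1 := (ValuationSubring.mem_nonunits_iff (V c₁)).1 hU₁
  have hU₂' : (V c₂).valuation U = 1 := stb_gc_val_eq_one (V c₂) (hOV₂ U hU) hU₂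
  obtain ⟨n', X, Y, G, ⟨X', Y', G', hXe, hYe, hGe, hX1, hY2, hX2, hY1, hXY', hgen⟩, hW, hY, hG,
      hGinv, hXY⟩ :=
    wth_final_stage (fun (P : T) x => P.1.ord x) hmul (ls_localSubring (F := F) 𝔫) (V c₁) (V c₂)
      hOV₁ hN hordO hqF0 hq₁ hU hV' hUV hUtube hU₁' hU₂'
      (fun X Y G n' => ∃ X' Y' G' : ↥(zchClosure (A₀ := A₀) ({u} : Set F)),
        (X' : F) = X ∧ (Y' : F) = Y ∧ (G' : F) = G ∧
        (X' : F) ∈ (V c₁).nonunits ∧ (Y' : F) ∈ (V c₂).nonunits ∧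
        (X' : F) ∉ (V c₂).nonunits ∧ (Y' : F) ∉ (V c₁).nonunits ∧
        X' * Y' = algebraMap A₀ ↥(zchClosure (A₀ := A₀) ({u} : Set F)) q ^ n' * G' ∧
        NodesLocGen 𝔫 {algebraMap A₀ ↥(zchClosure (A₀ := A₀) ({u} : Set F)) π, X', Y'})
      (by
        intro n hn
        obtain ⟨n', X, Y, G, hX1, hY2, hX2, hY1, hXY, hgen, hthin⟩ := hstage n hn
        have hXF : (X : F) ≠ 0 := fun h => hX2 (by rw [h]; exact (V c₂).nonunits.zero_mem)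
        have hYF : (Y : F) ≠ 0 := fun h => hY1 (by rw [h]; exact (V c₁).nonunits.zero_mem)
        have hXYF : (X : F) * (Y : F) = algebraMap A₀ F q ^ n' * (G : F) := by
          have := congrArg (algebraMap ↥(zchClosure (A₀ := A₀) ({u} : Set F)) F) hXY
          rw [map_mul, map_mul, map_pow] at this
          exact this
        have hGF : (G : F) ≠ 0 := by
          intro h
          rw [h, mul_zero] at hXYF
          exact mul_ne_zero hXF hYF hXYF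
        refine ⟨n', (X : F), (Y : F), (G : F),
          ⟨X, Y, G, rfl, rfl, rfl, hX1, hY2, hX2, hY1, hXY, hgen⟩, ?_, ?_, ?_, hXYF, ?_⟩
        · refine whc_winding hinj 𝔫 (V c₂) (hBV' c₂) h₂ ?_ X (h₁ X hX1) hX2 ?_
          · intro x hx
            obtain ⟨b, d, hb, hd, hdV, hdx⟩ := hVloc c₂ x hx
            exact ⟨⟨b, mem_zchClosure.mpr hb⟩, ⟨d, mem_zchClosure.mpr hd⟩, hdV, hdx⟩
          · exact stb_gc_gen_node' 𝔫 (V c₂) (hBV' c₂) hgen (hπV c₂) hY2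
        · exact stb_gc_val_eq_one (V c₁) (hBV' c₁ Y) hY1
        · exact ls_algebraMap_mem 𝔫 G
        · rcases hthin with h | h
          · exact Or.inl h
          · exact Or.inr (wthc_inv_mem 𝔫 h hGF))
  refine ⟨n', X', Y', G', hX1, hY2, hX2, hY1, ?_, hgen, ?_⟩
  · rw [map_pow]; exact hXY'
  · intro hG'
    have hGF : (G' : F) ≠ 0 := by
      intro h
      have hXF : (X' : F) ≠ 0 := fun h => hX2 (by rw [h]; exact (V c₂).nonunits.zero_mem)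
      have hYF : (Y' : F) ≠ 0 := fun h => hY1 (by rw [h]; exact (V c₁).nonunits.zero_mem)
      have := congrArg (algebraMap ↥(zchClosure (A₀ := A₀) ({u} : Set F)) F) hXY'
      rw [map_mul, map_mul] at this
      have h' : algebraMap ↥(zchClosure (A₀ := A₀) ({u} : Set F)) F G' = 0 := h
      rw [h', mul_zero] at this
      exact mul_ne_zero hXF hYF this
    refine wthc_inv_notMem hinj 𝔫 hG' hGF ?_
    have : algebraMap ↥(zchClosure (A₀ := A₀) ({u} : Set F)) F G' = G := hGe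
    rw [this]
    exact hGinv

/-- **Smooth point or crossing of finite thickness**, from the output of U5 at `𝔫.comap j` on the
unramified chart `R` (`MgcRamified j π p`, `j p = q`) and the tube-unit `U`. -/
theorem wthc_of_nodes (hπ : Irreducible π) {u : F} (hu : Transcendental E u)
    [FiniteDimensional E⟮u⟯ F] [Finite κ]
    [IsNoetherianRing ↥(zchClosure (A₀ := A₀) ({u} : Set F))]
    (V : κ → ValuationSubring F)
    (hBV : ∀ c (b : F), IsIntegral ↥(Algebra.adjoin A₀ {u}) b → b ∈ V c)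
    (hπV : ∀ c, algebraMap A₀ F π ∈ (V c).nonunits)
    (hSS1 : ∀ b : F, IsIntegral ↥(Algebra.adjoin A₀ {u}) b → (∀ c, b ∈ (V c).nonunits) →
      ∃ b' : F, IsIntegral ↥(Algebra.adjoin A₀ {u}) b' ∧ b = algebraMap A₀ F π * b')
    (hVloc : ∀ c (x : F), x ∈ V c → ∃ b s : F, IsIntegral ↥(Algebra.adjoin A₀ {u}) b ∧
      IsIntegral ↥(Algebra.adjoin A₀ {u}) s ∧ s ∉ (V c).nonunits ∧ s * x = b)
    (𝔫 : Ideal ↥(zchClosure (A₀ := A₀) ({u} : Set F))) [𝔫.IsPrime]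
    (hπ𝔫 : algebraMap A₀ ↥(zchClosure (A₀ := A₀) ({u} : Set F)) π ∈ 𝔫)
    (q : A₀) (hq0 : q ≠ 0) (hqπ : π ∣ q)
    {R : Type*} [CommRing R] (j : R →+* ↥(zchClosure (A₀ := A₀) ({u} : Set F))) (p : R)
    (hram : MgcRamified j (algebraMap A₀ ↥(zchClosure (A₀ := A₀) ({u} : Set F)) π) p)
    (hjp : j p = algebraMap A₀ ↥(zchClosure (A₀ := A₀) ({u} : Set F)) q)
    (c₁ c₂ : κ) (hκ : ∀ c, c = c₁ ∨ c = c₂)
    {U V' : F} {N : ℕ}
    (hUO : (∀ x : R, ((j x : ↥(zchClosure (A₀ := A₀) ({u} : Set F))) : F) ∈ (V c₁).nonunits →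
          j x ∈ 𝔫) →
       (∀ x : R, ((j x : ↥(zchClosure (A₀ := A₀) ({u} : Set F))) : F) ∈ (V c₂).nonunits →
          j x ∈ 𝔫) → U ∈ ls_localSubring (F := F) 𝔫 ∧ V' ∈ ls_localSubring (F := F) 𝔫)
    (hUV : U * V' = algebraMap A₀ F q ^ N)
    (hU₁ : U ∈ (V c₁).nonunits) (hU₂ : U ∉ (V c₂).nonunits)
    (hnode : (∃ s : R, j s ∈ 𝔫 ∧ NodesLocGen (𝔫.comap j) {p, s}) ∨
      ((∀ x : R, ((j x : ↥(zchClosure (A₀ := A₀) ({u} : Set F))) : F) ∈ (V c₁).nonunits →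
          j x ∈ 𝔫) ∧
       (∀ x : R, ((j x : ↥(zchClosure (A₀ := A₀) ({u} : Set F))) : F) ∈ (V c₂).nonunits →
          j x ∈ 𝔫) ∧
       ∃ X Y : R, ((j X : ↥(zchClosure (A₀ := A₀) ({u} : Set F))) : F) ∈ (V c₁).nonunits ∧
         ((j Y : ↥(zchClosure (A₀ := A₀) ({u} : Set F))) : F) ∈ (V c₂).nonunits ∧
         NodesLocGen (𝔫.comap j) {p, X, Y})) :
    (∃ s : ↥(zchClosure (A₀ := A₀) ({u} : Set F)), s ∈ 𝔫 ∧
      NodesLocGen 𝔫 {algebraMap A₀ ↥(zchClosure (A₀ := A₀) ({u} : Set F)) π, s}) ∨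
    ((∀ b : ↥(zchClosure (A₀ := A₀) ({u} : Set F)), (b : F) ∈ (V c₁).nonunits → b ∈ 𝔫) ∧
     (∀ b : ↥(zchClosure (A₀ := A₀) ({u} : Set F)), (b : F) ∈ (V c₂).nonunits → b ∈ 𝔫) ∧
     ∃ (n' : ℕ) (X Y G : ↥(zchClosure (A₀ := A₀) ({u} : Set F))),
      (X : F) ∈ (V c₁).nonunits ∧ (Y : F) ∈ (V c₂).nonunits ∧
      (X : F) ∉ (V c₂).nonunits ∧ (Y : F) ∉ (V c₁).nonunits ∧
      X * Y = algebraMap A₀ ↥(zchClosure (A₀ := A₀) ({u} : Set F)) (q ^ n') * G ∧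
      NodesLocGen 𝔫 {algebraMap A₀ ↥(zchClosure (A₀ := A₀) ({u} : Set F)) π, X, Y} ∧
      G ∉ 𝔫) := by
  set B := ↥(zchClosure (A₀ := A₀) ({u} : Set F)) with hBdef
  rcases hnode with ⟨s, hs, hgen⟩ | ⟨hthr₁, hthr₂, X, Y, hX, hY, hgen⟩
  · exact Or.inl ⟨j s, hs, hram.mgg_locGen_pair hπ𝔫 s hgen⟩
  -- the two branches on `R`
  haveI h1p := at_crossingIdeal_isPrime (A₀ := A₀) (S := {u}) (V c₁) (hBV c₁)
  haveI h2p := at_crossingIdeal_isPrime (A₀ := A₀) (S := {u}) (V c₂) (hBV c₂)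
  set 𝔭₁ : Ideal R := (crossingIdeal (A₀ := A₀) {u} (V c₁) (hBV c₁)).comap j with h𝔭₁
  set 𝔭₂ : Ideal R := (crossingIdeal (A₀ := A₀) {u} (V c₂) (hBV c₂)).comap j with h𝔭₂
  haveI : 𝔭₁.IsPrime := Ideal.comap_isPrime j _
  haveI : 𝔭₂.IsPrime := Ideal.comap_isPrime j _
  haveI : (𝔫.comap j).IsPrime := Ideal.comap_isPrime j _
  have hϖ1 : algebraMap A₀ B π ∈ crossingIdeal (A₀ := A₀) {u} (V c₁) (hBV c₁) := hπV c₁
  have hϖ2 : algebraMap A₀ B π ∈ crossingIdeal (A₀ := A₀) {u} (V c₂) (hBV c₂) := hπV c₂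
  have hp1 : p ∈ 𝔭₁ := by
    rw [h𝔭₁, Ideal.mem_comap]
    obtain ⟨z, hz⟩ := hram.dvd
    rw [hz]
    exact Ideal.mul_mem_right _ _ hϖ1
  have hp2 : p ∈ 𝔭₂ := by
    rw [h𝔭₂, Ideal.mem_comap]
    obtain ⟨z, hz⟩ := hram.dvd
    rw [hz]
    exact Ideal.mul_mem_right _ _ hϖ2
  have hSS1R : ∀ y : R, y ∈ 𝔭₁ → y ∈ 𝔭₂ → p ∣ y := by
    intro y hy1 hy2
    apply hram.cancel
    obtain ⟨b', hb', hyb'⟩ := hSS1 ((j y : B) : F) (mem_zchClosure.mp (j y).2) (fun c => by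
      rcases hκ c with rfl | rfl
      · exact hy1
      · exact hy2)
    exact ⟨⟨b', mem_zchClosure.mpr hb'⟩, Subtype.ext hyb'⟩
  rcases unip_stage_or_disc (𝔫.comap j) 𝔭₁ 𝔭₂ (fun y hy => hthr₁ y hy) (fun y hy => hthr₂ y hy)
    p hp1 hp2 hSS1R X Y hX hY hgen with ⟨s, hs, hgen'⟩ | hstage
  · exact Or.inl ⟨j s, hs, hram.mgg_locGen_pair hπ𝔫 s hgen'⟩
  -- "through" on `B`
  have hthrB : ∀ c : κ, (∀ y : R, ((j y : B) : F) ∈ (V c).nonunits → j y ∈ 𝔫) →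
      ∀ b : B, (b : F) ∈ (V c).nonunits → b ∈ 𝔫 := by
    intro c hthr b hb
    obtain ⟨y, z, rfl⟩ := hram.decomp b
    have hϖz : algebraMap A₀ B π * z ∈ crossingIdeal (A₀ := A₀) {u} (V c) (hBV c) :=
      Ideal.mul_mem_right _ _ (hπV c)
    have hjy : j y ∈ crossingIdeal (A₀ := A₀) {u} (V c) (hBV c) := by
      have : j y = (j y + algebraMap A₀ B π * z) - algebraMap A₀ B π * z := by ring
      rw [this]
      exact Ideal.sub_mem _ hb hϖz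
    exact Ideal.add_mem _ (hthr y hjy) (Ideal.mul_mem_right _ _ hπ𝔫)
  obtain ⟨hU, hV'⟩ := hUO hthr₁ hthr₂
  refine Or.inr ⟨hthrB c₁ hthr₁, hthrB c₂ hthr₂, ?_⟩
  refine wthc_final hπ hu V hBV hπV hSS1 hVloc 𝔫 hπ𝔫 c₁ c₂ (fun c _ => hκ c)
    (hthrB c₁ hthr₁) (hthrB c₂ hthr₂) q hq0 hqπ hU hV' hUV hU₁ hU₂ ?_
  intro n hn
  obtain ⟨n', X', Y', G', -, hX1', hY2', hX2', hY1', hXY', hgen', hthin⟩ := hstage n hn
  refine ⟨n', j X', j Y', j G', hX1', hY2', hX2', hY1', ?_,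
    hram.mgg_locGen_triple hπ𝔫 X' Y' hgen', ?_⟩
  · rw [← map_mul, hXY', map_mul, map_pow, hjp]
  · rcases hthin with h | h
    · exact Or.inl h
    · exact Or.inr (fun hG => h (Ideal.mem_comap.mpr hG))

end ThickChart

end Fermat.Agent.S33


end ZBS33_006_1

/-! ### bundled: `Fermat.Agent.S33.WildHT4` -/
section ZBS33_006_2

/-!
# S33 v2, C4 (WILD), pieces T5d + T5e (assembly): the local hypotheses of `wab_main_two` from the
dichotomy "smooth point / crossing of finite thickness" at every closed point (helper92)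

Chart `B_u = zchClosure {u}` over the (ramified) base `A₀` (uniformizer `π`), vertical valuation
rings `V c` (`c = c₁` or `c = c₂`), `𝔫 : AtPt π u` a closed point of the special fibre.

* `WhtPtData V c₁ c₂ 𝔫` : the local datum at `𝔫` — EXACTLY the conclusion of
  `wthc_of_nodes` (T5f, helper29) with `q ^ n'` replaced by any `q' ≠ 0`:
  `𝔫 = (π, s)` locally (smooth point), or both components pass through `𝔫`,
  `𝔫 = (π, X, Y)` locally, `X ∈ 𝔪(V c₁) ∖ 𝔪(V c₂)`, `Y ∈ 𝔪(V c₂) ∖ 𝔪(V c₁)`, `X Y = q' G`,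
  `G ∉ 𝔫` (crossing of finite thickness).
* `whtPtData_of_nodes` : `WhtPtData` from the output of U5 on the unramified chart and a
  tube-unit (wrapper of `wthc_of_nodes`).
* `wht_wnPtData` : `WhtPtData → WnPtData` (the datum of T5g, helper90).
* `wht_facAt` : **(H)** `StbFacAt (atLoc 𝔫) p y` at every closed point with `WhtPtData`, for `y`
  with `p ∣ ord_P y` on the tube, rational support on the tube, and `y ≡ h_c ^ p` at every
  vertical valuation (`hsplit`, only `< 1` is used).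
  Smooth point: `STB.stb_smooth_facAt` (the vertical multiplicity of `y` is `p k` by `hsplit`).
  Crossing: `whc_node_facAt` (T4c).
* `wht_hT4_of_facAt`, `wht_hT4` : the hypothesis `hT4` of `wab_main_two`.
* `wht_hS_point` : the hypothesis `hS` of `wab_main_two` at a point (`STB.stb_cp_sum`; at a
  smooth point only one component passes).
* `wht_main` : **(T)-wild from point data** = `wab_main_two` with `hunif`, `hT4`, `hN`, `hS`
  replaced by `hVloc₁`, `hVloc₂`, `WhtPtData` at all closed points of both charts and the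
  divisor hypotheses `hfin`, `hm`, `hrat` on `u`.
-/

set_option autoImplicit false
set_option linter.style.haveILetI false
set_option linter.unusedSectionVars false
set_option linter.unusedVariables false

namespace Fermat.Agent.S33

open Polynomial IntermediateField Fermat.Agent.INJ AlgebraicCurve Fermat.Agent.UNIP
  Fermat.Agent.STB

section PtData

variable {A₀ E F : Type*} [CommRing A₀] [IsDomain A₀] [IsDiscreteValuationRing A₀]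
  [Field E] [Algebra A₀ E] [IsFractionRing A₀ E] [CharZero E]
  [Field F] [Algebra E F] [Algebra A₀ F] [IsScalarTower A₀ E F]
  {π : A₀} {κ : Type*}

/-- **The local datum at a closed point `𝔫` of the chart `u`** for (H), (N), (S): `𝔫` is a smooth
point (`𝔫 = (π, s)` locally), or `𝔫` is a crossing of finite thickness of the two components
`c₁`, `c₂`. -/
def WhtPtData {u : F} (V : κ → ValuationSubring F) (c₁ c₂ : κ) (𝔫 : AtPt (F := F) π u) : Prop :=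
  (∃ s : ↥(zchClosure (A₀ := A₀) ({u} : Set F)), s ∈ 𝔫.1 ∧
      NodesLocGen 𝔫.1 {algebraMap A₀ ↥(zchClosure (A₀ := A₀) ({u} : Set F)) π, s}) ∨
    (atThrough 𝔫 (V c₁) ∧ atThrough 𝔫 (V c₂) ∧
      ∃ (q' : A₀) (X Y G : ↥(zchClosure (A₀ := A₀) ({u} : Set F))), q' ≠ 0 ∧
        (X : F) ∈ (V c₁).nonunits ∧ (Y : F) ∈ (V c₂).nonunits ∧
        (X : F) ∉ (V c₂).nonunits ∧ (Y : F) ∉ (V c₁).nonunits ∧
        X * Y = algebraMap A₀ ↥(zchClosure (A₀ := A₀) ({u} : Set F)) q' * G ∧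
        NodesLocGen 𝔫.1 {algebraMap A₀ ↥(zchClosure (A₀ := A₀) ({u} : Set F)) π, X, Y} ∧
        G ∉ 𝔫.1)

/-- `WhtPtData` from the output of U5 at `𝔫.comap j` on the unramified chart `R`
(`MgcRamified j π p`, `j p = q`) and a tube-unit `U` (`U · V' = q ^ N`): wrapper of
`wthc_of_nodes`. -/
theorem whtPtData_of_nodes (hπ : Irreducible π) {u : F} (hu : Transcendental E u)
    [FiniteDimensional E⟮u⟯ F] [Finite κ]
    [IsNoetherianRing ↥(zchClosure (A₀ := A₀) ({u} : Set F))]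
    (V : κ → ValuationSubring F)
    (hBV : ∀ c (b : F), IsIntegral ↥(Algebra.adjoin A₀ {u}) b → b ∈ V c)
    (hπV : ∀ c, algebraMap A₀ F π ∈ (V c).nonunits)
    (hSS1 : ∀ b : F, IsIntegral ↥(Algebra.adjoin A₀ {u}) b → (∀ c, b ∈ (V c).nonunits) →
      ∃ b' : F, IsIntegral ↥(Algebra.adjoin A₀ {u}) b' ∧ b = algebraMap A₀ F π * b')
    (hVloc : ∀ c (x : F), x ∈ V c → ∃ b s : F, IsIntegral ↥(Algebra.adjoin A₀ {u}) b ∧
      IsIntegral ↥(Algebra.adjoin A₀ {u}) s ∧ s ∉ (V c).nonunits ∧ s * x = b)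
    (𝔫 : AtPt (F := F) π u)
    (q : A₀) (hq0 : q ≠ 0) (hqπ : π ∣ q)
    {R : Type*} [CommRing R] (j : R →+* ↥(zchClosure (A₀ := A₀) ({u} : Set F))) (p : R)
    (hram : MgcRamified j (algebraMap A₀ ↥(zchClosure (A₀ := A₀) ({u} : Set F)) π) p)
    (hjp : j p = algebraMap A₀ ↥(zchClosure (A₀ := A₀) ({u} : Set F)) q)
    (c₁ c₂ : κ) (hκ : ∀ c, c = c₁ ∨ c = c₂)
    {U V' : F} {N : ℕ}
    (hUO : (∀ x : R, ((j x : ↥(zchClosure (A₀ := A₀) ({u} : Set F))) : F) ∈ (V c₁).nonunits →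
          j x ∈ 𝔫.1) →
       (∀ x : R, ((j x : ↥(zchClosure (A₀ := A₀) ({u} : Set F))) : F) ∈ (V c₂).nonunits →
          j x ∈ 𝔫.1) → U ∈ atLoc 𝔫 ∧ V' ∈ atLoc 𝔫)
    (hUV : U * V' = algebraMap A₀ F q ^ N)
    (hU₁ : U ∈ (V c₁).nonunits) (hU₂ : U ∉ (V c₂).nonunits)
    (hnode : (∃ s : R, j s ∈ 𝔫.1 ∧ NodesLocGen (𝔫.1.comap j) {p, s}) ∨
      ((∀ x : R, ((j x : ↥(zchClosure (A₀ := A₀) ({u} : Set F))) : F) ∈ (V c₁).nonunits →
          j x ∈ 𝔫.1) ∧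
       (∀ x : R, ((j x : ↥(zchClosure (A₀ := A₀) ({u} : Set F))) : F) ∈ (V c₂).nonunits →
          j x ∈ 𝔫.1) ∧
       ∃ X Y : R, ((j X : ↥(zchClosure (A₀ := A₀) ({u} : Set F))) : F) ∈ (V c₁).nonunits ∧
         ((j Y : ↥(zchClosure (A₀ := A₀) ({u} : Set F))) : F) ∈ (V c₂).nonunits ∧
         NodesLocGen (𝔫.1.comap j) {p, X, Y})) :
    WhtPtData V c₁ c₂ 𝔫 := by
  haveI := 𝔫.2.1.isPrime
  rcases wthc_of_nodes hπ hu V hBV hπV hSS1 hVloc 𝔫.1 𝔫.2.2 q hq0 hqπ j p hram hjp c₁ c₂ hκ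
    hUO hUV hU₁ hU₂ hnode with h | ⟨h₁, h₂, n', X, Y, G, hX1, hY2, hX2, hY1, hXY, hgen, hG⟩
  · exact Or.inl h
  · exact Or.inr ⟨h₁, h₂, q ^ n', X, Y, G, pow_ne_zero n' hq0, hX1, hY2, hX2, hY1, hXY, hgen, hG⟩

/-- the datum of (N) (T5g) from the datum of (H) -/
theorem wht_wnPtData {u : F} (V : κ → ValuationSubring F) (c₁ c₂ : κ)
    (hκ : ∀ c, c = c₁ ∨ c = c₂) (𝔫 : AtPt (F := F) π u) (hdat : WhtPtData V c₁ c₂ 𝔫) :
    WnPtData V 𝔫 := by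
  rcases hdat with h | ⟨h₁, h₂, q', X, Y, G, -, hX1, hY2, -, -, -, hgen, -⟩
  · exact Or.inl h
  · exact Or.inr ⟨c₁, c₂, X, Y, fun c _ => hκ c, h₁ X hX1, h₂ Y hY2, hX1, hY2, hgen⟩

/-- distinct vertical valuation rings are incomparable -/
theorem wht_hnle (hπ0 : algebraMap A₀ F π ≠ 0) (V : κ → ValuationSubring F)
    (hπV : ∀ c, algebraMap A₀ F π ∈ (V c).nonunits)
    (hne : ∀ c c', c ≠ c' → V c ≠ V c')
    (harch : ∀ c (a x : F), a ∈ (V c).nonunits → ∃ N : ℕ, a ^ N * x ∈ (V c).nonunits) :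
    ∀ c c', c ≠ c' → ¬ V c ≤ V c' := by
  have harch' : ∀ c, StbArch (V c) := fun c x a ha => by
    obtain ⟨N, hN⟩ := harch c a x ha
    exact ⟨N, by rw [mul_comm]; exact hN⟩
  exact fun c c' hcc' => stb_not_le_of_ne (harch' c) hπ0 (hπV c') (hne c c' hcc')

/-- **(H) at every closed point with `WhtPtData`**, in the form `StbFacAt (atLoc 𝔫) p y`. -/
theorem wht_facAt (hπ : Irreducible π) {u : F} (hu : Transcendental E u)
    [FiniteDimensional E⟮u⟯ F] [Finite κ]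
    [IsNoetherianRing ↥(zchClosure (A₀ := A₀) ({u} : Set F))]
    (V : κ → ValuationSubring F) (c₁ c₂ : κ) (hκ : ∀ c, c = c₁ ∨ c = c₂)
    (hBV : ∀ c (b : F), IsIntegral ↥(Algebra.adjoin A₀ {u}) b → b ∈ V c)
    (hπV : ∀ c, algebraMap A₀ F π ∈ (V c).nonunits)
    (hSS1 : ∀ b : F, IsIntegral ↥(Algebra.adjoin A₀ {u}) b → (∀ c, b ∈ (V c).nonunits) →
      ∃ b' : F, IsIntegral ↥(Algebra.adjoin A₀ {u}) b' ∧ b = algebraMap A₀ F π * b')
    (hVloc : ∀ c (x : F), x ∈ V c → ∃ b s : F, IsIntegral ↥(Algebra.adjoin A₀ {u}) b ∧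
      IsIntegral ↥(Algebra.adjoin A₀ {u}) s ∧ s ∉ (V c).nonunits ∧ s * x = b)
    (hne : ∀ c c', c ≠ c' → V c ≠ V c')
    (harch : ∀ c (a x : F), a ∈ (V c).nonunits → ∃ N : ℕ, a ^ N * x ∈ (V c).nonunits)
    (𝔫 : AtPt (F := F) π u) (hdat : WhtPtData V c₁ c₂ 𝔫)
    {y : F} (hy : y ≠ 0) (p : ℕ)
    (hfin : {P : Place E F | LsTube ↥(zchClosure (A₀ := A₀) ({u} : Set F)) u 𝔫.1 P ∧
      P.ord y ≠ 0}.Finite)
    (hm : ∀ P : Place E F, LsTube ↥(zchClosure (A₀ := A₀) ({u} : Set F)) u 𝔫.1 P →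
      (p : ℤ) ∣ P.ord y)
    (hrat : ∀ P : Place E F, LsTube ↥(zchClosure (A₀ := A₀) ({u} : Set F)) u 𝔫.1 P →
      P.ord y ≠ 0 → ∀ f ∈ P.toValuationSubring,
        ∃ c : E, f - algebraMap E F c ∈ P.toValuationSubring.nonunits)
    (hsplit : ∀ c, ∃ h : F, h ≠ 0 ∧ (V c).valuation (y / h ^ p - 1) < 1) :
    StbFacAt (atLoc 𝔫) p y := by
  have hπ0 : algebraMap A₀ F π ≠ 0 := unip_algebraMap_irreducible_ne_zero E hπ
  rcases hdat with ⟨s, hs, hgen⟩ |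
    ⟨h₁, h₂, q', X, Y, G, hq', hX1, hY2, hX2, hY1, hXY, hgen, hG⟩
  · -- smooth point
    obtain ⟨c, hc, honly⟩ := stb_sx_exists_unique V hBV hπV hSS1 hVloc
      (wht_hnle hπ0 V hπV hne harch) 𝔫 s hs hgen
    obtain ⟨h, hh0, hval⟩ := hsplit c
    obtain ⟨k, hk⟩ := stb_sp_hunif hπ0 V hBV hπV hSS1 hVloc hne harch c h hh0
    refine stb_smooth_facAt hπ hu V hBV hπV hSS1 hVloc 𝔫 s hs hgen hy p k ?_ hfin hm hrat
    intro c' hc'
    rw [honly c' hc']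
    have h1 : (V c).valuation (y / h ^ p) = 1 := wh_val_of_one (V c) hval
    have hπk : algebraMap A₀ F π ^ k ≠ 0 := zpow_ne_zero k hπ0
    have e : y / (algebraMap A₀ F π ^ k) ^ p = y / h ^ p * (h / algebraMap A₀ F π ^ k) ^ p := by
      rw [div_pow]
      field_simp
    rw [e, map_mul, h1, map_pow, hk, one_pow, mul_one]
  · -- crossing of finite thickness
    obtain ⟨h, hh0, hval⟩ := hsplit c₂
    refine whc_node_facAt hπ hu V hBV hπV hSS1 hVloc hne harch 𝔫 c₁ c₂ (fun c _ => hκ c) h₂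
      X Y G q' hq' (h₁ X hX1) hX2 hY2 hXY hG hgen hy p hfin hm hrat ?_
    refine ⟨1, h, one_ne_zero, Subring.one_mem _, ?_, hh0, ?_⟩
    · rw [inv_one]; exact Subring.one_mem _
    · rw [one_mul]; exact hval

/-- from `StbFacAt O p y` to the form of `hT4` in `wab_main_two` -/
theorem wht_hT4_of_facAt (O : Subring F) {p : ℕ} (hp : p ≠ 0) {y : F} (hy : y ≠ 0)
    (h : StbFacAt O p y) :
    ∃ G ε : F, G ≠ 0 ∧ ε ≠ 0 ∧ ε ∈ O ∧ ε⁻¹ ∈ O ∧ y = ε * G ^ p := by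
  obtain ⟨γ, ε, hε, hyε⟩ := h
  have hε0 : (ε : F) ≠ 0 := by
    intro h0
    rw [h0, zero_mul] at hyε
    exact hy hyε
  have hγ0 : γ ≠ 0 := by
    rintro rfl
    rw [zero_pow hp, mul_zero] at hyε
    exact hy hyε
  obtain ⟨ε', hε'⟩ := hε.exists_right_inv
  have hinv : (ε : F)⁻¹ = (ε' : F) := by
    have h1 : (ε : F) * (ε' : F) = 1 := by
      have := congrArg (fun x : O => (x : F)) hε'
      simpa using this
    exact inv_eq_of_mul_eq_one_right h1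
  refine ⟨γ, (ε : F), hγ0, hε0, ε.2, ?_, hyε⟩
  rw [hinv]
  exact ε'.2

end PtData

section Main

universe u

variable {A₀ E F : Type u} [CommRing A₀] [IsDomain A₀] [IsDiscreteValuationRing A₀]
  [Field E] [Algebra A₀ E] [IsFractionRing A₀ E] [CharZero E]
  [Field F] [Algebra E F] [Algebra A₀ F] [IsScalarTower A₀ E F]
  {π : A₀} {κ : Type*}

/-- **`hT4` of `wab_main_two`** from `WhtPtData` at all closed points of both charts. -/
theorem wht_hT4 (hπ : Irreducible π) {t : F} (ht : Transcendental E t)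
    [FiniteDimensional E⟮t⟯ F] [Finite κ]
    (V : κ → ValuationSubring F) (c₁ c₂ : κ) (hκ : ∀ c, c = c₁ ∨ c = c₂)
    (hBV₁ : ∀ c (b : F), IsIntegral ↥(Algebra.adjoin A₀ {t}) b → b ∈ V c)
    (hBV₂ : ∀ c (b : F), IsIntegral ↥(Algebra.adjoin A₀ {t⁻¹}) b → b ∈ V c)
    (hπV : ∀ c, algebraMap A₀ F π ∈ (V c).nonunits)
    (hSS1 : ∀ b : F, IsIntegral ↥(Algebra.adjoin A₀ {t}) b → (∀ c, b ∈ (V c).nonunits) →
      ∃ b' : F, IsIntegral ↥(Algebra.adjoin A₀ {t}) b' ∧ b = algebraMap A₀ F π * b')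
    (hVloc₁ : ∀ c (x : F), x ∈ V c → ∃ b s : F, IsIntegral ↥(Algebra.adjoin A₀ {t}) b ∧
      IsIntegral ↥(Algebra.adjoin A₀ {t}) s ∧ s ∉ (V c).nonunits ∧ s * x = b)
    (hVloc₂ : ∀ c (x : F), x ∈ V c → ∃ b s : F, IsIntegral ↥(Algebra.adjoin A₀ {t⁻¹}) b ∧
      IsIntegral ↥(Algebra.adjoin A₀ {t⁻¹}) s ∧ s ∉ (V c).nonunits ∧ s * x = b)
    (hne : ∀ c c', c ≠ c' → V c ≠ V c')
    (harch : ∀ c (a x : F), a ∈ (V c).nonunits → ∃ N : ℕ, a ^ N * x ∈ (V c).nonunits)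
    (hdat₁ : ∀ 𝔫 : AtPt (F := F) π t, WhtPtData V c₁ c₂ 𝔫)
    (hdat₂ : ∀ 𝔫 : AtPt (F := F) π t⁻¹, WhtPtData V c₁ c₂ 𝔫)
    {u : F} (hu : u ≠ 0) {p : ℕ} (hp : p ≠ 0)
    (hfin : {P : Place E F | P.ord u ≠ 0}.Finite)
    (hm : ∀ P : Place E F, (p : ℤ) ∣ P.ord u)
    (hrat : ∀ P : Place E F, P.ord u ≠ 0 → ∀ f ∈ P.toValuationSubring,
      ∃ c : E, f - algebraMap E F c ∈ P.toValuationSubring.nonunits)
    (hsplit : ∀ c, ∃ h : F, h ≠ 0 ∧ (V c).valuation (u / h ^ p - 1) < 1) :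
    ∀ i, ∃ G ε : F, G ≠ 0 ∧ ε ≠ 0 ∧ ε ∈ atO π t i ∧ ε⁻¹ ∈ atO π t i ∧ u = ε * G ^ p := by
  have ht' : Transcendental E t⁻¹ := zch_transcendental_inv ht
  haveI : FiniteDimensional E⟮t⁻¹⟯ F := at_finiteDimensional_inv t
  haveI : IsNoetherianRing ↥(zchClosure (A₀ := A₀) ({t} : Set F)) :=
    chart_closure_isNoetherianRing (A₀ := A₀) (E := E) ht
  haveI : IsNoetherianRing ↥(zchClosure (A₀ := A₀) ({t⁻¹} : Set F)) :=
    chart_closure_isNoetherianRing (A₀ := A₀) (E := E) ht'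
  have hSS1' := ats_SS1_inv ht hπ V hBV₁ hSS1
  rintro (𝔫 | 𝔫)
  · exact wht_hT4_of_facAt (atLoc 𝔫) hp hu
      (wht_facAt hπ ht V c₁ c₂ hκ hBV₁ hπV hSS1 hVloc₁ hne harch 𝔫 (hdat₁ 𝔫) hu p
        (hfin.subset fun P hP => hP.2) (fun P _ => hm P) (fun P _ hP => hrat P hP) hsplit)
  · exact wht_hT4_of_facAt (atLoc 𝔫) hp hu
      (wht_facAt hπ ht' V c₁ c₂ hκ hBV₂ hπV hSS1' hVloc₂ hne harch 𝔫 (hdat₂ 𝔫) hu p
        (hfin.subset fun P hP => hP.2) (fun P _ => hm P) (fun P _ hP => hrat P hP) hsplit)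

/-- **(S) at a closed point with `WhtPtData`** through which both components pass. -/
theorem wht_hS_point (hπ0 : algebraMap A₀ F π ≠ 0) {u : F} [Finite κ]
    [IsNoetherianRing ↥(zchClosure (A₀ := A₀) ({u} : Set F))]
    (V : κ → ValuationSubring F) (c₁ c₂ : κ) (hc : c₁ ≠ c₂)
    (hBV : ∀ c (b : F), IsIntegral ↥(Algebra.adjoin A₀ {u}) b → b ∈ V c)
    (hπV : ∀ c, algebraMap A₀ F π ∈ (V c).nonunits)
    (hSS1 : ∀ b : F, IsIntegral ↥(Algebra.adjoin A₀ {u}) b → (∀ c, b ∈ (V c).nonunits) →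
      ∃ b' : F, IsIntegral ↥(Algebra.adjoin A₀ {u}) b' ∧ b = algebraMap A₀ F π * b')
    (hVloc : ∀ c (x : F), x ∈ V c → ∃ b s : F, IsIntegral ↥(Algebra.adjoin A₀ {u}) b ∧
      IsIntegral ↥(Algebra.adjoin A₀ {u}) s ∧ s ∉ (V c).nonunits ∧ s * x = b)
    (hne : ∀ c c', c ≠ c' → V c ≠ V c')
    (harch : ∀ c (a x : F), a ∈ (V c).nonunits → ∃ N : ℕ, a ^ N * x ∈ (V c).nonunits)
    (𝔫 : AtPt (F := F) π u) (hdat : WhtPtData V c₁ c₂ 𝔫)
    (hthr₁ : atThrough 𝔫 (V c₁)) (hthr₂ : atThrough 𝔫 (V c₂)) :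
    ∀ x : atLoc 𝔫, ¬ IsUnit x →
      ∃ a b : atLoc 𝔫, (a : F) ∈ (V c₁).nonunits ∧ (b : F) ∈ (V c₂).nonunits ∧ x = a + b := by
  rcases hdat with ⟨s, hs, hgen⟩ | ⟨-, -, q', X, Y, G, -, hX1, hY2, -, -, -, hgen, -⟩
  · exfalso
    obtain ⟨c, -, honly⟩ := stb_sx_exists_unique V hBV hπV hSS1 hVloc
      (wht_hnle hπ0 V hπV hne harch) 𝔫 s hs hgen
    exact hc ((honly c₁ hthr₁).trans (honly c₂ hthr₂).symm)
  · exact stb_cp_sum (V c₁) (V c₂) (hBV c₁) (hBV c₂) (hπV c₁) 𝔫 hthr₁ hthr₂ X Y hX1 hY2 hgen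

/-- **(T)-wild from point data**: `wab_main_two` with the local hypotheses `hunif`, `hT4`, `hN`,
`hS` replaced by `hVloc₁`, `hVloc₂`, the datum `WhtPtData` (smooth point or crossing of finite
thickness) at every closed point of both charts, and the divisor hypotheses on `u`
(`p ∣ div u`, finite and rational support). -/
theorem wht_main (hπ : Irreducible π) {t : F} (ht : Transcendental E t)
    [FiniteDimensional E⟮t⟯ F]
    (hcl : ∀ x : F, IsAlgebraic E x → x ∈ (algebraMap E F).range)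
    {p : ℕ} (hp : p.Prime) (hpπ : π ∣ (p : A₀)) {ζ : A₀} (hζ : IsPrimitiveRoot ζ p)
    (hlam : π ∣ ζ - 1)
    [Finite κ] (V : κ → ValuationSubring F) (c₁ c₂ : κ) (hκ : ∀ c, c = c₁ ∨ c = c₂)
    (hne : V c₁ ≠ V c₂)
    (hBV₁ : ∀ c (b : F), IsIntegral ↥(Algebra.adjoin A₀ {t}) b → b ∈ V c)
    (hBV₂ : ∀ c (b : F), IsIntegral ↥(Algebra.adjoin A₀ {t⁻¹}) b → b ∈ V c)
    (hπV : ∀ c, algebraMap A₀ F π ∈ (V c).nonunits)
    (hSS1 : ∀ b : F, IsIntegral ↥(Algebra.adjoin A₀ {t}) b → (∀ c, b ∈ (V c).nonunits) →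
      ∃ b' : F, IsIntegral ↥(Algebra.adjoin A₀ {t}) b' ∧ b = algebraMap A₀ F π * b')
    (harch : ∀ c (a x : F), a ∈ (V c).nonunits → ∃ N : ℕ, a ^ N * x ∈ (V c).nonunits)
    (hVloc₁ : ∀ c (x : F), x ∈ V c → ∃ b s : F, IsIntegral ↥(Algebra.adjoin A₀ {t}) b ∧
      IsIntegral ↥(Algebra.adjoin A₀ {t}) s ∧ s ∉ (V c).nonunits ∧ s * x = b)
    (hVloc₂ : ∀ c (x : F), x ∈ V c → ∃ b s : F, IsIntegral ↥(Algebra.adjoin A₀ {t⁻¹}) b ∧
      IsIntegral ↥(Algebra.adjoin A₀ {t⁻¹}) s ∧ s ∉ (V c).nonunits ∧ s * x = b)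
    (σ : SemilinearAut E F)
    (hσB₁ : AtTrivMod π t σ) (hσB₂ : AtTrivMod π t⁻¹ σ)
    (hσV : ∀ c (f : F), f ≠ 0 → (V c).valuation (σ • f / f) = 1)
    {a : ℕ} (hσζ : σ • algebraMap A₀ F ζ = algebraMap A₀ F ζ ^ a)
    {u : F} (hu : u ≠ 0)
    (hsplit : ∀ c, ∃ h : F, h ≠ 0 ∧ (V c).valuation (u / h ^ p - 1) ≤
      (V c).valuation ((algebraMap A₀ F ζ - 1) ^ p * algebraMap A₀ F π))
    (hfin : {P : Place E F | P.ord u ≠ 0}.Finite)
    (hm : ∀ P : Place E F, (p : ℤ) ∣ P.ord u)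
    (hrat : ∀ P : Place E F, P.ord u ≠ 0 → ∀ f ∈ P.toValuationSubring,
      ∃ c : E, f - algebraMap E F c ∈ P.toValuationSubring.nonunits)
    (hdat₁ : ∀ 𝔫 : AtPt (F := F) π t, WhtPtData V c₁ c₂ 𝔫)
    (hdat₂ : ∀ 𝔫 : AtPt (F := F) π t⁻¹, WhtPtData V c₁ c₂ 𝔫) :
    ∃ c : E, c ≠ 0 ∧ ∃ h : F, σ • u / u ^ a = algebraMap E F c * h ^ p := by
  have hπ0 : algebraMap A₀ F π ≠ 0 := unip_algebraMap_irreducible_ne_zero E hπ
  have ht' : Transcendental E t⁻¹ := zch_transcendental_inv ht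
  haveI : FiniteDimensional E⟮t⁻¹⟯ F := at_finiteDimensional_inv t
  haveI : IsNoetherianRing ↥(zchClosure (A₀ := A₀) ({t} : Set F)) :=
    chart_closure_isNoetherianRing (A₀ := A₀) (E := E) ht
  haveI : IsNoetherianRing ↥(zchClosure (A₀ := A₀) ({t⁻¹} : Set F)) :=
    chart_closure_isNoetherianRing (A₀ := A₀) (E := E) ht'
  have hSS1' := ats_SS1_inv ht hπ V hBV₁ hSS1
  have hc : c₁ ≠ c₂ := fun h => hne (by rw [h])
  have hne' : ∀ c c', c ≠ c' → V c ≠ V c' := by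
    intro c c' hcc' h
    rcases hκ c with rfl | rfl <;> rcases hκ c' with rfl | rfl
    · exact hcc' rfl
    · exact hne h
    · exact hne h.symm
    · exact hcc' rfl
  have hnle := wht_hnle hπ0 V hπV hne' harch
  -- `hsplit` in the weak form
  have hsplit' : ∀ c, ∃ h : F, h ≠ 0 ∧ (V c).valuation (u / h ^ p - 1) < 1 := by
    intro c
    obtain ⟨h, hh0, hval⟩ := hsplit c
    refine ⟨h, hh0, lt_of_le_of_lt hval ?_⟩
    have h1 : (algebraMap A₀ F ζ - 1) ^ p ∈ V c := by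
      have e : (algebraMap A₀ F ζ - 1) ^ p = algebraMap A₀ F ((ζ - 1) ^ p) := by
        rw [map_pow, map_sub, map_one]
      rw [e]
      exact hBV₁ c _ (mem_zchClosure.mp
        (algebraMap A₀ ↥(zchClosure (A₀ := A₀) ({t} : Set F)) ((ζ - 1) ^ p)).2)
    exact wh_val_mul_lt (V c) ((V c).valuation_le_one_iff _ |>.2 h1)
      ((ValuationSubring.mem_nonunits_iff (V c)).1 (hπV c))
  refine wab_main_two hπ ht hcl hp hpπ hζ hlam V c₁ c₂ hκ (hnle c₁ c₂ hc) (hnle c₂ c₁ hc.symm)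
    hBV₁ hBV₂ hπV hSS1 harch ?_ σ hσB₁ hσB₂ hσV hσζ hu hsplit ?_ ?_ ?_
  · -- `hunif`
    intro c
    exact stb_sp_princ V hBV₁ hSS1 hVloc₁ c fun c' hc' => hnle c c' (Ne.symm hc')
  · -- `hT4`
    exact wht_hT4 hπ ht V c₁ c₂ hκ hBV₁ hBV₂ hπV hSS1 hVloc₁ hVloc₂ hne' harch hdat₁ hdat₂ hu
      hp.ne_zero hfin hm hrat hsplit'
  · -- `hN`
    exact wn_hN V hBV₁ hBV₂ hπV hVloc₁ hVloc₂ (fun 𝔫 => wht_wnPtData V c₁ c₂ hκ 𝔫 (hdat₁ 𝔫))
      (fun 𝔫 => wht_wnPtData V c₁ c₂ hκ 𝔫 (hdat₂ 𝔫)) hp.two_le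
  · -- `hS`
    rintro (𝔫 | 𝔫) h₁ h₂
    · exact wht_hS_point hπ0 V c₁ c₂ hc hBV₁ hπV hSS1 hVloc₁ hne' harch 𝔫 (hdat₁ 𝔫) h₁ h₂
    · exact wht_hS_point hπ0 V c₁ c₂ hc hBV₂ hπV hSS1' hVloc₂ hne' harch 𝔫 (hdat₂ 𝔫) h₁ h₂

end Main

end Fermat.Agent.S33


end ZBS33_006_2

/-! ### bundled: `Fermat.Agent.S33.WildTop` -/
section ZBS33_006_3

/-!
# S33 v2, C4 (WILD), T5 top, part 1: the `E′`-level instance of `wht_main` (helper90)

Setting of `UNIP/MGConcrete.lean` + `UNIP/MGVertInertia.lean` at the level `M * p` with the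
residue characteristic `q := p` (twin of `STB.stbData_of_inputs`):
`E′ = mgcE A K₁ = ℚ̄^I · K₁`, `A′ = mgcA A K₁` (a discrete valuation ring, uniformizer `π`),
`F′ = mgcF A K₁ (M * p)`, `j = mgcT …`, `V = mgvV hπ ιC hp hpM` (`true ↦ V_∞`, `false ↦ V_0`),
`σ` in the inertia group of `A`, acting on `F′` through `mgcGal (M * p) σ hσ`.

* `wtop_hσζ` : `σ̂ ζ = ζ ^ a` on constants.
* `wtop_field` : **(T)-wild over `E′`**: for `u₀ ∈ F′^×` with `p ∣ div u₀`, rational support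
  (`MgcRat`) and split (`hsplit`, the output of C3 through the deep bridge `wdb_*`):
  `σ̂ u₀ / u₀ ^ a = c · h ^ p`, `c ∈ E′^×`.  The only hypotheses which are not discharged here are
  the point data `WhtPtData` at the closed points of the two charts (T5f-mod).
-/

set_option autoImplicit false
set_option linter.style.haveILetI false
set_option linter.unusedSectionVars false
set_option linter.unusedVariables false

noncomputable section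

namespace Fermat.Agent.S33

open ModularCurve AlgebraicCurve Fermat.Agent.ES Fermat.Agent.ES.G2 Fermat.Agent.INJ
open Fermat.Agent.UNIP Fermat.Agent.STB IntermediateField

section Field

variable {A : ValuationSubring Qb} {K₁ : IntermediateField ℚ Qb} {M p : ℕ} [NeZero M] [NeZero p]
  [IsDiscreteValuationRing ↥(mgcA A K₁)] {π : ↥(mgcA A K₁)} (hπ : Irreducible π)
  (ιC : ↥(mgcE A K₁) →+* ℂ) (hp : p.Prime) (hpM : ¬ p ∣ M)

/-- `π ∣ p` in `A′` -/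
theorem wtop_dvd_natCast (hπ : Irreducible π) (hA : A.LiesOverPrime p) :
    π ∣ ((p : ℕ) : ↥(mgcA A K₁)) := by
  have h1 : ((p : ℕ) : ↥(mgcA A K₁)) ∈ IsLocalRing.maximalIdeal ↥(mgcA A K₁) := by
    rw [beta0Ring_mem_maximalIdeal_iff]
    have e : ((((p : ℕ) : ↥(mgcA A K₁)) : ↥(mgcE A K₁)) : Qb) = ((p : ℕ) : Qb) := by
      push_cast
      rfl
    rw [e]
    exact hA
  rw [hπ.maximalIdeal_eq] at h1
  exact Ideal.mem_span_singleton.mp h1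

/-- `σ̂ ζ = ζ ^ a` on the constants of `F′` -/
theorem wtop_hσζ (N : ℕ) {ζ : ↥(mgcA A K₁)} {σ : Qb ≃ₐ[ℚ] Qb}
    (hσ : ∀ x ∈ mgcE A K₁, σ x ∈ mgcE A K₁) {a : ℕ}
    (hσζ : σ (((ζ : ↥(mgcE A K₁)) : Qb)) = (((ζ : ↥(mgcE A K₁)) : Qb)) ^ a) :
    mgcGal N σ hσ • algebraMap ↥(mgcA A K₁) ↥(mgcF A K₁ N) ζ =
      algebraMap ↥(mgcA A K₁) ↥(mgcF A K₁ N) ζ ^ a := by
  rw [mgcGal_smul, mgcAlgAGen_algebraMap, mgAct_algebraMap, ← map_pow]
  congr 1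
  apply Subtype.ext
  rw [mgRestrict_coe, hσζ]
  rfl

variable [NumberField K₁] [IsGalois ℚ K₁]

set_option synthInstance.maxHeartbeats 400000 in
set_option maxHeartbeats 1600000 in
/-- **(T)-wild over `E′`** from the point data at the closed points of the two charts. -/
theorem wtop_field (hA : A.LiesOverPrime p) (h2 : p = 2 → 3 ∣ M) (h3 : p = 3 → 2 ∣ M)
    (hdat₁ : ∀ 𝔫 : AtPt (F := ↥(mgcF A K₁ (M * p))) π (mgcT A K₁ (M * p)),
      WhtPtData (mgvV hπ ιC hp hpM) true false 𝔫)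
    (hdat₂ : ∀ 𝔫 : AtPt (F := ↥(mgcF A K₁ (M * p))) π (mgcT A K₁ (M * p))⁻¹,
      WhtPtData (mgvV hπ ιC hp hpM) true false 𝔫)
    {ζ : ↥(mgcA A K₁)} (hζ : IsPrimitiveRoot ζ p) (hlam : π ∣ ζ - 1)
    {σ : Qb ≃ₐ[ℚ] Qb} (hσI : σ ∈ A.inertiaSubgroupIn ℚ)
    (hσ : ∀ x ∈ mgcE A K₁, σ x ∈ mgcE A K₁) {a : ℕ}
    (hσζ : σ (((ζ : ↥(mgcE A K₁)) : Qb)) = (((ζ : ↥(mgcE A K₁)) : Qb)) ^ a)
    {u₀ : ↥(mgcF A K₁ (M * p))} (hu₀ : u₀ ≠ 0)
    (hdiv : ∀ P : Place Qb (modularFunctionFieldBar (M * p)),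
      ((p : ℕ) : ℤ) ∣ P.ord (nfEmb (mgcE A K₁) (M * p) u₀))
    (hR : MgcRat A K₁ (M * p) u₀)
    (hsplit : ∀ c, ∃ h : ↥(mgcF A K₁ (M * p)), h ≠ 0 ∧
      (mgvV hπ ιC hp hpM c).valuation (u₀ / h ^ p - 1) ≤
        (mgvV hπ ιC hp hpM c).valuation
          ((algebraMap ↥(mgcA A K₁) ↥(mgcF A K₁ (M * p)) ζ - 1) ^ p *
            algebraMap ↥(mgcA A K₁) ↥(mgcF A K₁ (M * p)) π)) :
    ∃ c : ↥(mgcE A K₁), c ≠ 0 ∧ ∃ h : ↥(mgcF A K₁ (M * p)),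
      mgcGal (M * p) σ hσ • u₀ / u₀ ^ a =
        algebraMap ↥(mgcE A K₁) ↥(mgcF A K₁ (M * p)) c * h ^ p := by
  haveI := mgc_finiteDimensional A K₁ (M * p)
  have ht := mgc_transcendental A K₁ (M * p)
  have hSS1 := mgcb_reg_SS1_J (K₀ := mgcE A K₁) hπ ιC hp hpM hA
    (stb_regChart_conc_J M hp hA le_sup_left hπ hpM h2 h3)
  obtain ⟨hσB₁, -, hσB₂, -, -, -⟩ := mgcb_G3 K₁ (M * p) hp hA (u5c_hπu₁ hp hA hpM h2 h3)
    (u5c_hred₁ hp hA hpM h2 h3) (u5c_hπu₂ hp hA hpM h2 h3) (u5c_hred₂ hp hA hpM h2 h3) hπ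
    hσI hσI hσ hσ
  have hrat' : ∀ P : Place ↥(mgcE A K₁) ↥(mgcF A K₁ (M * p)), P.ord u₀ ≠ 0 →
      ∀ f ∈ P.toValuationSubring, ∃ c : ↥(mgcE A K₁),
        f - algebraMap ↥(mgcE A K₁) ↥(mgcF A K₁ (M * p)) c ∈
          P.toValuationSubring.nonunits := by
    intro P hP f hf
    refine hR P 1 1 (fun a => rfl) ?_ f hf
    rw [map_one, one_smul]
    exact hP
  exact wht_main hπ ht (mgc_hcl A K₁ (M * p)) hp (wtop_dvd_natCast hπ hA) hζ hlam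
    (mgvV hπ ιC hp hpM) true false (fun c => by cases c <;> simp) (mgvl_hne hπ ιC hp hpM hA)
    (mgv_hBV₁ hπ ιC hp hpM) (mgv_hBV₂ hπ ιC hp hpM) (mgv_hπV hπ ιC hp hpM) hSS1
    (mgv_harch hπ ιC hp hpM) (mgv_hVloc₁ hπ ιC hp hpM hA hSS1)
    (mgv_hVloc₂ hπ ιC hp hpM hA hSS1) (mgcGal (M * p) σ hσ) hσB₁ hσB₂
    (fun c f hf => mgv_hσV hπ ιC hp hpM hσI hσ c f hf) (wtop_hσζ (M * p) hσ hσζ) hu₀ hsplit
    (mg_hfin (mgcE A K₁) (M * p) u₀ hu₀) (mg_dvd_ord (mgcE A K₁) (M * p) _ u₀ hdiv) hrat'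
    hdat₁ hdat₂

end Field

end Fermat.Agent.S33

end
end ZBS33_006_3

/-! ### bundled: `Fermat.Agent.S33.WildCusp` -/
section ZBS33_006_4

/-!
# S33 v2, C4 (WILD), piece T5f-cusp: the cusps are not crossing points

Chart `B_u = zchClosure {u}` over `A₀` (think `u = 1 / j`), `V₁ = V_∞`, `V₂ = V_0` the two
vertical valuation rings.  The modular unit `U = q¹² Δ(qz)/Δ(z)` and `V' = q¹²/U` are integral over
`A₀[j]`, but have poles at the cusps (`u = 0`).  So the tube-unit hypothesis `U, V' ∈ B_𝔫` of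
`wthc_final` needs `u ∉ 𝔫` at the crossing points `𝔫` of the chart `u`.

* `wcp_not_mem` : **the cusps are not crossing points.**  If `e ∈ B_u` with `e ≡ 1` on `V₁` and
  `e ^ k ≡ u ^ m` on `V₂` (`m ≠ 0`), then `u ∉ 𝔫` for every prime `𝔫` of `B_u` through which both
  `V₁` and `V₂` pass.  (Modular: `e = j_p / j ^ p`, `k = p`, `m = p² − 1`:
  `j_p ≡ j ^ p` on `V_∞`, `j ≡ j_p ^ p` on `V_0`; `e` is integral over `ℤ[1/j]` by the shape of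
  the modular equation at infinity.)
* `wcp_mem_loc` : `u ∉ 𝔫`, `U` integral over `A₀[u⁻¹]` ⇒ `U ∈ B_𝔫`.
* `wcp_mem_loc_self` : `U` integral over `A₀[u]` ⇒ `U ∈ B_𝔫`.
* `wcp_of_nodes`, `wcp_of_nodes_inv` : `wthc_of_nodes` on the chart `t` resp. `t⁻¹` for a
  tube-unit which is integral over `A₀[t]`.
-/

set_option autoImplicit false
set_option linter.style.haveILetI false
set_option linter.unusedSectionVars false
set_option linter.unusedVariables false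

namespace Fermat.Agent.S33

open Polynomial IntermediateField Fermat.Agent.INJ AlgebraicCurve Fermat.Agent.UNIP
  Fermat.Agent.STB

section Cusp

variable {A₀ E F : Type*} [CommRing A₀] [IsDomain A₀] [IsDiscreteValuationRing A₀]
  [Field E] [Algebra A₀ E] [IsFractionRing A₀ E] [CharZero E]
  [Field F] [Algebra E F] [Algebra A₀ F] [IsScalarTower A₀ E F]
  {π : A₀} {κ : Type*}

/-- **The cusps are not crossing points.** -/
theorem wcp_not_mem {u : F} (V₁ V₂ : ValuationSubring F)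
    (𝔫 : Ideal ↥(zchClosure (A₀ := A₀) ({u} : Set F))) [h𝔫 : 𝔫.IsPrime]
    (h₁ : ∀ b : ↥(zchClosure (A₀ := A₀) ({u} : Set F)), (b : F) ∈ V₁.nonunits → b ∈ 𝔫)
    (h₂ : ∀ b : ↥(zchClosure (A₀ := A₀) ({u} : Set F)), (b : F) ∈ V₂.nonunits → b ∈ 𝔫)
    {e : F} (he : IsIntegral ↥(Algebra.adjoin A₀ ({u} : Set F)) e)
    (he₁ : e - 1 ∈ V₁.nonunits) {k m : ℕ} (hm : m ≠ 0) (he₂ : e ^ k - u ^ m ∈ V₂.nonunits)
    (ū : ↥(zchClosure (A₀ := A₀) ({u} : Set F))) (hū : (ū : F) = u) : ū ∉ 𝔫 := by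
  intro hu
  set ē : ↥(zchClosure (A₀ := A₀) ({u} : Set F)) := ⟨e, mem_zchClosure.mpr he⟩ with hē
  have e1 : ē - 1 ∈ 𝔫 := h₁ _ he₁
  have e2 : ē ^ k - ū ^ m ∈ 𝔫 := by
    apply h₂
    have : ((ē ^ k - ū ^ m : ↥(zchClosure (A₀ := A₀) ({u} : Set F))) : F) =
        e ^ k - (ū : F) ^ m := rfl
    rw [this, hū]
    exact he₂
  have e3 : ū ^ m ∈ 𝔫 := Ideal.pow_mem_of_mem _ hu _ (Nat.pos_of_ne_zero hm)
  have e4 : ē ^ k ∈ 𝔫 := by
    have : ē ^ k = (ē ^ k - ū ^ m) + ū ^ m := by ring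
    rw [this]
    exact 𝔫.add_mem e2 e3
  have e5 : ē ∈ 𝔫 := h𝔫.mem_of_pow_mem k e4
  have e6 : (1 : ↥(zchClosure (A₀ := A₀) ({u} : Set F))) ∈ 𝔫 := by
    have : (1 : ↥(zchClosure (A₀ := A₀) ({u} : Set F))) = ē - (ē - 1) := by ring
    rw [this]
    exact 𝔫.sub_mem e5 e1
  exact h𝔫.ne_top ((Ideal.eq_top_iff_one 𝔫).mpr e6)

/-- the constants lie in `B_𝔫` -/
theorem wcp_const_mem {u : F} (𝔫 : Ideal ↥(zchClosure (A₀ := A₀) ({u} : Set F))) [𝔫.IsPrime]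
    (a : A₀) : algebraMap A₀ F a ∈ ls_localSubring (F := F) 𝔫 :=
  ls_algebraMap_mem 𝔫 (algebraMap A₀ ↥(zchClosure (A₀ := A₀) ({u} : Set F)) a)

/-- an element which is integral over a subalgebra contained in `B_𝔫` lies in `B_𝔫` -/
theorem wcp_mem_of_le {u : F} (𝔫 : Ideal ↥(zchClosure (A₀ := A₀) ({u} : Set F))) [𝔫.IsPrime]
    (S : Subalgebra A₀ F) (hS : ∀ x ∈ S, x ∈ ls_localSubring (F := F) 𝔫)
    {U : F} (hU : IsIntegral ↥S U) : U ∈ ls_localSubring (F := F) 𝔫 := by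
  apply ls_isIntegral_mem_localSubring (fun x hx => at_chart_integrallyClosed u x hx) 𝔫
  obtain ⟨q, hq, hqx⟩ := hU
  let f : ↥S →+* ↥(ls_localSubring (F := F) 𝔫) :=
    { toFun := fun b => ⟨b.1, hS b.1 b.2⟩
      map_one' := rfl
      map_mul' := fun _ _ => rfl
      map_zero' := rfl
      map_add' := fun _ _ => rfl }
  refine ⟨q.map f, hq.map f, ?_⟩
  rw [eval₂_map]
  exact hqx

/-- `U` integral over `A₀[u]` lies in `B_𝔫` -/
theorem wcp_mem_loc_self {u : F} (𝔫 : Ideal ↥(zchClosure (A₀ := A₀) ({u} : Set F))) [𝔫.IsPrime]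
    {U : F} (hU : IsIntegral ↥(Algebra.adjoin A₀ ({u} : Set F)) U) :
    U ∈ ls_localSubring (F := F) 𝔫 :=
  ls_algebraMap_mem 𝔫 (⟨U, mem_zchClosure.mpr hU⟩ : ↥(zchClosure (A₀ := A₀) ({u} : Set F)))

/-- `u ∉ 𝔫`, `U` integral over `A₀[u⁻¹]` ⇒ `U ∈ B_𝔫` -/
theorem wcp_mem_loc {u : F} (𝔫 : Ideal ↥(zchClosure (A₀ := A₀) ({u} : Set F))) [𝔫.IsPrime]
    (ū : ↥(zchClosure (A₀ := A₀) ({u} : Set F))) (hū : (ū : F) = u) (hu𝔫 : ū ∉ 𝔫)
    {U : F} (hU : IsIntegral ↥(Algebra.adjoin A₀ ({u⁻¹} : Set F)) U) :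
    U ∈ ls_localSubring (F := F) 𝔫 := by
  have hinj : Function.Injective (algebraMap ↥(zchClosure (A₀ := A₀) ({u} : Set F)) F) :=
    Subtype.val_injective
  have hu0 : algebraMap ↥(zchClosure (A₀ := A₀) ({u} : Set F)) F ū ≠ 0 :=
    stb_gc_algebraMap_ne_zero hinj 𝔫 hu𝔫
  have hinv : u⁻¹ ∈ ls_localSubring (F := F) 𝔫 := by
    have := wthc_inv_mem (F := F) 𝔫 hu𝔫 hu0
    have e : algebraMap ↥(zchClosure (A₀ := A₀) ({u} : Set F)) F ū = u := hū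
    rwa [e] at this
  refine wcp_mem_of_le 𝔫 (Algebra.adjoin A₀ ({u⁻¹} : Set F)) ?_ hU
  intro x hx
  induction hx using Algebra.adjoin_induction with
  | mem y hy =>
    rw [Set.mem_singleton_iff] at hy
    rw [hy]
    exact hinv
  | algebraMap a => exact wcp_const_mem 𝔫 a
  | add y z _ _ hy hz => exact Subring.add_mem _ hy hz
  | mul y z _ _ hy hz => exact Subring.mul_mem _ hy hz

end Cusp

end Fermat.Agent.S33


end ZBS33_006_4

/-! ### bundled: `Fermat.Agent.S33.WildCuspPt` -/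
section ZBS33_006_5

/-!
# S33 v2, C4 (WILD), piece T5f-cusp, part 2: `WhtPtData` on the two charts from U5 + the tube-unit

`t` the coordinate (`j`), charts `t` and `t⁻¹`; `V c₁ = V_∞`, `V c₂ = V_0`; `U`, `V'` integral over
`A₀[t]`, `U · V' = q ^ N`, `U ∈ 𝔪(V c₁)`, `U ∉ 𝔪(V c₂)` (the modular unit); `e` integral over
`A₀[t⁻¹]`, `e ≡ 1` on `V c₁`, `e ^ k ≡ (t⁻¹) ^ m` on `V c₂` (`e = j_p / j ^ p`).

* `wcp_through_of_ram` : "through" on `B_u` from "through" on the unramified chart `R`.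
* `wcp_ptData`     : `WhtPtData V c₁ c₂ 𝔫` at every closed point of the chart `t`.
* `wcp_ptData_inv` : `WhtPtData V c₁ c₂ 𝔫` at every closed point of the chart `t⁻¹`.

`hnode` is `STB.StbNodeAt (V c₁) (V c₂) 𝔫 j p` unfolded (`STB/MainTwo.lean`; output of
`STB.stbmn_hnode₁`, `STB.stbmn_hnode₂`).
-/

set_option autoImplicit false
set_option linter.style.haveILetI false
set_option linter.unusedSectionVars false
set_option linter.unusedVariables false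

namespace Fermat.Agent.S33

open Polynomial IntermediateField Fermat.Agent.INJ AlgebraicCurve Fermat.Agent.UNIP
  Fermat.Agent.STB

section CuspPt

variable {A₀ E F : Type*} [CommRing A₀] [IsDomain A₀] [IsDiscreteValuationRing A₀]
  [Field E] [Algebra A₀ E] [IsFractionRing A₀ E] [CharZero E]
  [Field F] [Algebra E F] [Algebra A₀ F] [IsScalarTower A₀ E F]
  {π : A₀} {κ : Type*}

/-- "through" on `B_u` from "through" on the unramified chart -/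
theorem wcp_through_of_ram {u : F} (W : ValuationSubring F)
    (hBW : ∀ b : F, IsIntegral ↥(Algebra.adjoin A₀ {u}) b → b ∈ W)
    (hπW : algebraMap A₀ F π ∈ W.nonunits)
    (𝔫 : Ideal ↥(zchClosure (A₀ := A₀) ({u} : Set F)))
    (hπ𝔫 : algebraMap A₀ ↥(zchClosure (A₀ := A₀) ({u} : Set F)) π ∈ 𝔫)
    {R : Type*} [CommRing R] (j : R →+* ↥(zchClosure (A₀ := A₀) ({u} : Set F))) (p : R)
    (hram : MgcRamified j (algebraMap A₀ ↥(zchClosure (A₀ := A₀) ({u} : Set F)) π) p)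
    (hthr : ∀ x : R, ((j x : ↥(zchClosure (A₀ := A₀) ({u} : Set F))) : F) ∈ W.nonunits →
      j x ∈ 𝔫) :
    ∀ b : ↥(zchClosure (A₀ := A₀) ({u} : Set F)), (b : F) ∈ W.nonunits → b ∈ 𝔫 := by
  intro b hb
  obtain ⟨y, z, rfl⟩ := hram.decomp b
  have hz : (z : F) ∈ W := hBW _ (mem_zchClosure.mp z.2)
  have hϖz : ((algebraMap A₀ ↥(zchClosure (A₀ := A₀) ({u} : Set F)) π * z :
      ↥(zchClosure (A₀ := A₀) ({u} : Set F))) : F) ∈ W.nonunits := by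
    have e : ((algebraMap A₀ ↥(zchClosure (A₀ := A₀) ({u} : Set F)) π * z :
        ↥(zchClosure (A₀ := A₀) ({u} : Set F))) : F) = (z : F) * algebraMap A₀ F π := by
      rw [mul_comm]; rfl
    rw [e]
    exact pwi_mul_mem_nonunits W hz hπW
  have hjy : ((j y : ↥(zchClosure (A₀ := A₀) ({u} : Set F))) : F) ∈ W.nonunits := by
    have e : ((j y : ↥(zchClosure (A₀ := A₀) ({u} : Set F))) : F) =
        ((j y + algebraMap A₀ ↥(zchClosure (A₀ := A₀) ({u} : Set F)) π * z :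
          ↥(zchClosure (A₀ := A₀) ({u} : Set F))) : F) -
        ((algebraMap A₀ ↥(zchClosure (A₀ := A₀) ({u} : Set F)) π * z :
          ↥(zchClosure (A₀ := A₀) ({u} : Set F))) : F) := by
      push_cast
      ring
    rw [e]
    exact W.nonunits.sub_mem hb hϖz
  exact Ideal.add_mem _ (hthr y hjy) (Ideal.mul_mem_right _ _ hπ𝔫)

/-- **`WhtPtData` at the closed points of the chart `t`**: the tube-unit is integral over
`A₀[t]`. -/
theorem wcp_ptData (hπ : Irreducible π) {t : F} (ht : Transcendental E t)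
    [FiniteDimensional E⟮t⟯ F] [Finite κ]
    [IsNoetherianRing ↥(zchClosure (A₀ := A₀) ({t} : Set F))]
    (V : κ → ValuationSubring F)
    (hBV : ∀ c (b : F), IsIntegral ↥(Algebra.adjoin A₀ {t}) b → b ∈ V c)
    (hπV : ∀ c, algebraMap A₀ F π ∈ (V c).nonunits)
    (hSS1 : ∀ b : F, IsIntegral ↥(Algebra.adjoin A₀ {t}) b → (∀ c, b ∈ (V c).nonunits) →
      ∃ b' : F, IsIntegral ↥(Algebra.adjoin A₀ {t}) b' ∧ b = algebraMap A₀ F π * b')
    (hVloc : ∀ c (x : F), x ∈ V c → ∃ b s : F, IsIntegral ↥(Algebra.adjoin A₀ {t}) b ∧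
      IsIntegral ↥(Algebra.adjoin A₀ {t}) s ∧ s ∉ (V c).nonunits ∧ s * x = b)
    (𝔫 : AtPt (F := F) π t)
    (q : A₀) (hq0 : q ≠ 0) (hqπ : π ∣ q)
    {R : Type*} [CommRing R] (j : R →+* ↥(zchClosure (A₀ := A₀) ({t} : Set F))) (p : R)
    (hram : MgcRamified j (algebraMap A₀ ↥(zchClosure (A₀ := A₀) ({t} : Set F)) π) p)
    (hjp : j p = algebraMap A₀ ↥(zchClosure (A₀ := A₀) ({t} : Set F)) q)
    (c₁ c₂ : κ) (hκ : ∀ c, c = c₁ ∨ c = c₂)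
    {U V' : F} {N : ℕ}
    (hU : IsIntegral ↥(Algebra.adjoin A₀ ({t} : Set F)) U)
    (hV' : IsIntegral ↥(Algebra.adjoin A₀ ({t} : Set F)) V')
    (hUV : U * V' = algebraMap A₀ F q ^ N)
    (hU₁ : U ∈ (V c₁).nonunits) (hU₂ : U ∉ (V c₂).nonunits)
    (hnode : (∃ s : R, j s ∈ 𝔫.1 ∧ NodesLocGen (𝔫.1.comap j) {p, s}) ∨
      ((∀ x : R, ((j x : ↥(zchClosure (A₀ := A₀) ({t} : Set F))) : F) ∈ (V c₁).nonunits →
          j x ∈ 𝔫.1) ∧
       (∀ x : R, ((j x : ↥(zchClosure (A₀ := A₀) ({t} : Set F))) : F) ∈ (V c₂).nonunits →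
          j x ∈ 𝔫.1) ∧
       ∃ X Y : R, ((j X : ↥(zchClosure (A₀ := A₀) ({t} : Set F))) : F) ∈ (V c₁).nonunits ∧
         ((j Y : ↥(zchClosure (A₀ := A₀) ({t} : Set F))) : F) ∈ (V c₂).nonunits ∧
         NodesLocGen (𝔫.1.comap j) {p, X, Y})) :
    WhtPtData V c₁ c₂ 𝔫 := by
  haveI := 𝔫.2.1.isPrime
  exact whtPtData_of_nodes hπ ht V hBV hπV hSS1 hVloc 𝔫 q hq0 hqπ j p hram hjp c₁ c₂ hκ
    (fun _ _ => ⟨wcp_mem_loc_self 𝔫.1 hU, wcp_mem_loc_self 𝔫.1 hV'⟩) hUV hU₁ hU₂ hnode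

/-- **`WhtPtData` at the closed points of the chart `t⁻¹`**: the tube-unit is integral over
`A₀[t]`, and the cusps are not crossing points (`e`). -/
theorem wcp_ptData_inv (hπ : Irreducible π) {t : F} (ht' : Transcendental E t⁻¹)
    [FiniteDimensional E⟮t⁻¹⟯ F] [Finite κ]
    [IsNoetherianRing ↥(zchClosure (A₀ := A₀) ({t⁻¹} : Set F))]
    (V : κ → ValuationSubring F)
    (hBV : ∀ c (b : F), IsIntegral ↥(Algebra.adjoin A₀ {t⁻¹}) b → b ∈ V c)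
    (hπV : ∀ c, algebraMap A₀ F π ∈ (V c).nonunits)
    (hSS1 : ∀ b : F, IsIntegral ↥(Algebra.adjoin A₀ {t⁻¹}) b → (∀ c, b ∈ (V c).nonunits) →
      ∃ b' : F, IsIntegral ↥(Algebra.adjoin A₀ {t⁻¹}) b' ∧ b = algebraMap A₀ F π * b')
    (hVloc : ∀ c (x : F), x ∈ V c → ∃ b s : F, IsIntegral ↥(Algebra.adjoin A₀ {t⁻¹}) b ∧
      IsIntegral ↥(Algebra.adjoin A₀ {t⁻¹}) s ∧ s ∉ (V c).nonunits ∧ s * x = b)
    (𝔫 : AtPt (F := F) π t⁻¹)
    (q : A₀) (hq0 : q ≠ 0) (hqπ : π ∣ q)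
    {R : Type*} [CommRing R] (j : R →+* ↥(zchClosure (A₀ := A₀) ({t⁻¹} : Set F))) (p : R)
    (hram : MgcRamified j (algebraMap A₀ ↥(zchClosure (A₀ := A₀) ({t⁻¹} : Set F)) π) p)
    (hjp : j p = algebraMap A₀ ↥(zchClosure (A₀ := A₀) ({t⁻¹} : Set F)) q)
    (c₁ c₂ : κ) (hκ : ∀ c, c = c₁ ∨ c = c₂)
    {U V' : F} {N : ℕ}
    (hU : IsIntegral ↥(Algebra.adjoin A₀ ({t} : Set F)) U)
    (hV' : IsIntegral ↥(Algebra.adjoin A₀ ({t} : Set F)) V')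
    (hUV : U * V' = algebraMap A₀ F q ^ N)
    (hU₁ : U ∈ (V c₁).nonunits) (hU₂ : U ∉ (V c₂).nonunits)
    {e : F} (he : IsIntegral ↥(Algebra.adjoin A₀ ({t⁻¹} : Set F)) e)
    (he₁ : e - 1 ∈ (V c₁).nonunits) {k m : ℕ} (hm : m ≠ 0)
    (he₂ : e ^ k - t⁻¹ ^ m ∈ (V c₂).nonunits)
    (hnode : (∃ s : R, j s ∈ 𝔫.1 ∧ NodesLocGen (𝔫.1.comap j) {p, s}) ∨
      ((∀ x : R, ((j x : ↥(zchClosure (A₀ := A₀) ({t⁻¹} : Set F))) : F) ∈ (V c₁).nonunits →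
          j x ∈ 𝔫.1) ∧
       (∀ x : R, ((j x : ↥(zchClosure (A₀ := A₀) ({t⁻¹} : Set F))) : F) ∈ (V c₂).nonunits →
          j x ∈ 𝔫.1) ∧
       ∃ X Y : R, ((j X : ↥(zchClosure (A₀ := A₀) ({t⁻¹} : Set F))) : F) ∈ (V c₁).nonunits ∧
         ((j Y : ↥(zchClosure (A₀ := A₀) ({t⁻¹} : Set F))) : F) ∈ (V c₂).nonunits ∧
         NodesLocGen (𝔫.1.comap j) {p, X, Y})) :
    WhtPtData V c₁ c₂ 𝔫 := by
  haveI := 𝔫.2.1.isPrime
  refine whtPtData_of_nodes hπ ht' V hBV hπV hSS1 hVloc 𝔫 q hq0 hqπ j p hram hjp c₁ c₂ hκ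
    ?_ hUV hU₁ hU₂ hnode
  intro hthr₁ hthr₂
  have h₁ := wcp_through_of_ram (V c₁) (hBV c₁) (hπV c₁) 𝔫.1 𝔫.2.2 j p hram hthr₁
  have h₂ := wcp_through_of_ram (V c₂) (hBV c₂) (hπV c₂) 𝔫.1 𝔫.2.2 j p hram hthr₂
  -- the coordinate of the chart
  have htint : IsIntegral ↥(Algebra.adjoin A₀ ({t⁻¹} : Set F)) t⁻¹ := by
    have : t⁻¹ = algebraMap ↥(Algebra.adjoin A₀ ({t⁻¹} : Set F)) F
        ⟨t⁻¹, Algebra.subset_adjoin (Set.mem_singleton _)⟩ := rfl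
    rw [this]
    exact isIntegral_algebraMap
  set ū : ↥(zchClosure (A₀ := A₀) ({t⁻¹} : Set F)) := ⟨t⁻¹, mem_zchClosure.mpr htint⟩ with hū
  have hu𝔫 : ū ∉ 𝔫.1 := wcp_not_mem (V c₁) (V c₂) 𝔫.1 h₁ h₂ he he₁ hm he₂ ū rfl
  have hU' : IsIntegral ↥(Algebra.adjoin A₀ ({(t⁻¹)⁻¹} : Set F)) U := by
    rw [inv_inv]; exact hU
  have hV'' : IsIntegral ↥(Algebra.adjoin A₀ ({(t⁻¹)⁻¹} : Set F)) V' := by
    rw [inv_inv]; exact hV'
  exact ⟨wcp_mem_loc 𝔫.1 ū rfl hu𝔫 hU', wcp_mem_loc 𝔫.1 ū rfl hu𝔫 hV''⟩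

end CuspPt

end Fermat.Agent.S33


end ZBS33_006_5

/-! ### bundled: `Fermat.Agent.S33.WildPts` -/
section ZBS33_006_6

/-!
# S33 v2, C4 (WILD), T5f-mod: the POINT DATA `hdat₁`, `hdat₂` of `wht_main` in the `mgc` setting

Setting of `STB/MGData.lean` with `q := p` (the residue characteristic is the Kummer exponent):
`A` a valuation subring of `ℚ̄` over `p`, `K₁ / ℚ` finite Galois, `E′ = mgcE A K₁`,
`A′ = mgcA A K₁` (a discrete valuation ring, uniformizer `π`), `F′ = mgcF A K₁ (M p)`,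
`t = mgcT A K₁ (M p) = j`, `V = mgvV hπ ιC hp hpM` (`true ↦ V_∞`, `false ↦ V_0`).

* `WptUnit`  : the modular tube-unit: `U V' = p ^ N`, `U`, `V'` integral over `A′[j]`,
  `U ∈ 𝔪(V_∞)`, `U ∉ 𝔪(V_0)`  (`U = p¹² Δ(pz)/Δ(z)`; T5f-U).
* `WptFrobE` : `e` integral over `A′[1/j]`, `e ≡ 1` on `V_∞`, `e ^ k ≡ (1/j) ^ m` on `V_0`,
  `m ≠ 0`  (`e = j_p / j ^ p`; T5f-Φ + Frobenius).
* `wpt_hdat₁` : `WptUnit → ∀ 𝔫, WhtPtData V true false 𝔫` on the chart `j`.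
* `wpt_hdat₂` : `WptUnit → WptFrobE → ∀ 𝔫, WhtPtData V true false 𝔫` on the chart `1 / j`.

Inputs: `STB.stbmn_hnode₁`, `STB.stbmn_hnode₂` (the dichotomy of U5, unconditional),
`UNIP.mgcb_all_SS1`, `UNIP.mgv_*`, `wcp_ptData`, `wcp_ptData_inv`.
-/

set_option autoImplicit false
set_option linter.style.haveILetI false
set_option linter.unusedSectionVars false
set_option linter.unusedVariables false

noncomputable section

namespace Fermat.Agent.S33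

open ModularCurve AlgebraicCurve Fermat.Agent.ES Fermat.Agent.ES.G2 Fermat.Agent.INJ
  Fermat.Agent.UNIP Fermat.Agent.STB Fermat.Agent.AL
open IntermediateField Polynomial

section Pts

variable {A : ValuationSubring Qb} (K₁ : IntermediateField ℚ Qb)
  {M p : ℕ} [NeZero M] [NeZero p] [NeZero (M * p)]
  [IsDiscreteValuationRing ↥(mgcA A K₁)]

/-- `π ∣ p` in `A′` -/
theorem wpt_dvd_natCast {π : ↥(mgcA A K₁)} (hπ : Irreducible π) (hA : A.LiesOverPrime p) :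
    π ∣ ((p : ℕ) : ↥(mgcA A K₁)) := by
  have h1 : ((p : ℕ) : ↥(mgcA A K₁)) ∈ IsLocalRing.maximalIdeal ↥(mgcA A K₁) := by
    rw [beta0Ring_mem_maximalIdeal_iff]
    have e : ((((p : ℕ) : ↥(mgcA A K₁)) : ↥(mgcE A K₁)) : Qb) = ((p : ℕ) : Qb) := by
      push_cast
      rfl
    rw [e]
    exact hA
  rw [hπ.maximalIdeal_eq] at h1
  exact Ideal.mem_span_singleton.mp h1

/-- `p ≠ 0` in `A′` -/
theorem wpt_natCast_ne_zero (hp : p.Prime) : ((p : ℕ) : ↥(mgcA A K₁)) ≠ 0 := by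
  intro h
  have e : ((((p : ℕ) : ↥(mgcA A K₁)) : ↥(mgcE A K₁)) : Qb) = ((p : ℕ) : Qb) := by
    push_cast
    rfl
  rw [h] at e
  have h0 : ((p : ℕ) : Qb) = 0 := by
    rw [← e]
    rfl
  exact hp.ne_zero (Nat.cast_eq_zero.mp h0)

variable {K₁}

/-- **The modular tube-unit** (T5f-U). -/
def WptUnit {π : ↥(mgcA A K₁)} (hπ : Irreducible π) (ιC : ↥(mgcE A K₁) →+* ℂ)
    (hp : p.Prime) (hpM : ¬ p ∣ M) : Prop :=
  ∃ (U V' : ↥(mgcF A K₁ (M * p))) (N : ℕ),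
    IsIntegral ↥(Algebra.adjoin ↥(mgcA A K₁)
      ({mgcT A K₁ (M * p)} : Set ↥(mgcF A K₁ (M * p)))) U ∧
    IsIntegral ↥(Algebra.adjoin ↥(mgcA A K₁)
      ({mgcT A K₁ (M * p)} : Set ↥(mgcF A K₁ (M * p)))) V' ∧
    U * V' = algebraMap ↥(mgcA A K₁) ↥(mgcF A K₁ (M * p)) ((p : ℕ) : ↥(mgcA A K₁)) ^ N ∧
    U ∈ (mgvV hπ ιC hp hpM true).nonunits ∧ U ∉ (mgvV hπ ιC hp hpM false).nonunits

/-- **The separating function at the cusps** (T5f-Φ + Frobenius). -/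
def WptFrobE {π : ↥(mgcA A K₁)} (hπ : Irreducible π) (ιC : ↥(mgcE A K₁) →+* ℂ)
    (hp : p.Prime) (hpM : ¬ p ∣ M) : Prop :=
  ∃ (e : ↥(mgcF A K₁ (M * p))) (k m : ℕ), m ≠ 0 ∧
    IsIntegral ↥(Algebra.adjoin ↥(mgcA A K₁)
      ({(mgcT A K₁ (M * p))⁻¹} : Set ↥(mgcF A K₁ (M * p)))) e ∧
    e - 1 ∈ (mgvV hπ ιC hp hpM true).nonunits ∧
    e ^ k - (mgcT A K₁ (M * p))⁻¹ ^ m ∈ (mgvV hπ ιC hp hpM false).nonunits

variable (K₁) [NumberField K₁] [IsGalois ℚ K₁]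

set_option synthInstance.maxHeartbeats 400000 in
set_option maxHeartbeats 1600000 in
/-- **`hdat₁` of `wht_main`**: the point data on the chart `j`. -/
theorem wpt_hdat₁ (hp : p.Prime) (hpM : ¬ p ∣ M) (hA : A.LiesOverPrime p)
    (h2 : p = 2 → 3 ∣ M) (h3 : p = 3 → 2 ∣ M)
    {π : ↥(mgcA A K₁)} (hπ : Irreducible π) (ιC : ↥(mgcE A K₁) →+* ℂ)
    (hU : WptUnit hπ ιC hp hpM) :
    ∀ 𝔫 : AtPt (F := ↥(mgcF A K₁ (M * p))) π (mgcT A K₁ (M * p)),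
      WhtPtData (mgvV hπ ιC hp hpM) true false 𝔫 := by
  haveI := mgc_finiteDimensional A K₁ (M * p)
  have ht := mgc_transcendental A K₁ (M * p)
  haveI : IsNoetherianRing ↥(zchClosure (A₀ := ↥(mgcA A K₁))
      ({mgcT A K₁ (M * p)} : Set ↥(mgcF A K₁ (M * p)))) :=
    chart_closure_isNoetherianRing (A₀ := ↥(mgcA A K₁)) (E := ↥(mgcE A K₁)) ht
  have hSS1 := mgcb_all_SS1 K₁ hp hpM hA h2 h3 hπ ιC
  obtain ⟨R₁, _, j₁, p₁, hram₁, hjp₁, hnode₁⟩ := stbmn_hnode₁ K₁ hp hpM hA h2 h3 hπ ιC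
  obtain ⟨U, V', N, hUi, hVi, hUV, hU₁, hU₂⟩ := hU
  intro 𝔫
  exact wcp_ptData hπ ht (mgvV hπ ιC hp hpM) (mgv_hBV₁ hπ ιC hp hpM) (mgv_hπV hπ ιC hp hpM)
    hSS1 (mgv_hVloc₁ hπ ιC hp hpM hA hSS1) 𝔫 ((p : ℕ) : ↥(mgcA A K₁))
    (wpt_natCast_ne_zero K₁ hp) (wpt_dvd_natCast K₁ hπ hA) j₁ p₁ hram₁ hjp₁ true false
    (fun c => by cases c <;> simp) hUi hVi hUV hU₁ hU₂ (hnode₁ 𝔫)

set_option synthInstance.maxHeartbeats 400000 in
set_option maxHeartbeats 1600000 in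
/-- **`hdat₂` of `wht_main`**: the point data on the chart `1 / j`. -/
theorem wpt_hdat₂ (hp : p.Prime) (hpM : ¬ p ∣ M) (hA : A.LiesOverPrime p)
    (h2 : p = 2 → 3 ∣ M) (h3 : p = 3 → 2 ∣ M)
    {π : ↥(mgcA A K₁)} (hπ : Irreducible π) (ιC : ↥(mgcE A K₁) →+* ℂ)
    (hU : WptUnit hπ ιC hp hpM) (hE : WptFrobE hπ ιC hp hpM) :
    ∀ 𝔫 : AtPt (F := ↥(mgcF A K₁ (M * p))) π (mgcT A K₁ (M * p))⁻¹,
      WhtPtData (mgvV hπ ιC hp hpM) true false 𝔫 := by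
  haveI := mgc_finiteDimensional A K₁ (M * p)
  have ht := mgc_transcendental A K₁ (M * p)
  have ht' : Transcendental ↥(mgcE A K₁) (mgcT A K₁ (M * p))⁻¹ := zch_transcendental_inv ht
  haveI : FiniteDimensional (↥(mgcE A K₁))⟮(mgcT A K₁ (M * p))⁻¹⟯ ↥(mgcF A K₁ (M * p)) :=
    at_finiteDimensional_inv (mgcT A K₁ (M * p))
  haveI : IsNoetherianRing ↥(zchClosure (A₀ := ↥(mgcA A K₁))
      ({(mgcT A K₁ (M * p))⁻¹} : Set ↥(mgcF A K₁ (M * p)))) :=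
    chart_closure_isNoetherianRing (A₀ := ↥(mgcA A K₁)) (E := ↥(mgcE A K₁)) ht'
  have hSS1 := mgcb_all_SS1 K₁ hp hpM hA h2 h3 hπ ιC
  have hSS1' := ats_SS1_inv ht hπ (mgvV hπ ιC hp hpM) (mgv_hBV₁ hπ ιC hp hpM) hSS1
  obtain ⟨R₂, _, j₂, p₂, hram₂, hjp₂, hnode₂⟩ := stbmn_hnode₂ K₁ hp hpM hA h2 h3 hπ ιC
  obtain ⟨U, V', N, hUi, hVi, hUV, hU₁, hU₂⟩ := hU
  obtain ⟨e, k, m, hm, hei, he₁, he₂⟩ := hE
  intro 𝔫
  exact wcp_ptData_inv hπ ht' (mgvV hπ ιC hp hpM) (mgv_hBV₂ hπ ιC hp hpM)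
    (mgv_hπV hπ ιC hp hpM) hSS1' (mgv_hVloc₂ hπ ιC hp hpM hA hSS1) 𝔫
    ((p : ℕ) : ↥(mgcA A K₁)) (wpt_natCast_ne_zero K₁ hp) (wpt_dvd_natCast K₁ hπ hA) j₂ p₂
    hram₂ hjp₂ true false (fun c => by cases c <;> simp) hUi hVi hUV hU₁ hU₂ hei he₁ hm he₂
    (hnode₂ 𝔫)

end Pts

end Fermat.Agent.S33

end
end ZBS33_006_6
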