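/- GENERATED FILE (helper35, build-time optimisation, NOTES/ZB.md): verbatim concatenation of the modules
   Fermat.Agent.S33.WildCubeGen
   Fermat.Agent.S33.WildCube
   Fermat.Agent.S33.WildCubeEq
   Fermat.Agent.S33.WildPull
   Fermat.Agent.S33.WildMGFinal
   Fermat.Agent.S33.WildTopField
   Fermat.Agent.S33.WildPhiDeg
   Fermat.Agent.S33.WildFrobE
   Fermat.Agent.S33.WildPtsFinal
   Fermat.Agent.S33.WildKummerFinal
   Fermat.Agent.R38.S44Tres
   Do not edit; do not import together with these modules. -/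
import Mathlib
import Fermat.Agent.ZB.S28_002
import Fermat.Agent.ZB.INJ_012
import Fermat.Agent.ZB.S33_001
import Fermat.Agent.ZB.INJ_025
import Fermat.Agent.ZB.S34_001
import Fermat.Agent.ZB.S33_006
import Fermat.Agent.ZB.UNIP_012
import Fermat.Agent.ZB.UNIP_014
import Fermat.Agent.ZB.S36_002
import Fermat.Agent.ZB.S33_002
import Fermat.Agent.ZB.S13_005

/-! ### bundled: `Fermat.Agent.S33.WildCubeGen` -/
section ZBS33_007_0

/-!
# S33 v2 / C4 / T5j — cube descent, generic part (helper61)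

* `wcu_exists_aut` : a degree-3 extension `L/K` (with `ζ₃ ∈ K`) generated by a cube root of an element
  of `K` that is not a cube in `K` is Galois: every `t ∉ K` is moved by some `σ ∈ Gal(L/K)`.
* `wcu_exists_aut_int` : the same for a tower `K ≤ L` of intermediate fields of `E/k`.
* `wcu_val_root`, `wcu_root_unique` : for an additive valuation `v` with values in `ℤ ∪ {∞}` and
  `v j = -d`, `d` odd, `v 256 = 0`: the cubic `j X² = (X + 256)³` has at most one root (every root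
  has valuation `-d`; two distinct roots force a third root of valuation `2 d`).
-/

set_option autoImplicit false

noncomputable section

namespace Fermat.Agent.S33

open Polynomial IntermediateField

/-- A Kummer extension of degree `3` moves every element outside the base. -/
theorem wcu_exists_aut {K L : Type*} [Field K] [Field L] [Algebra K L]
    (hdeg : Module.finrank K L = 3) (hζ : (primitiveRoots 3 K).Nonempty)
    {a : K} {h : L} (hh : h ^ 3 = algebraMap K L a) (hno : ∀ b : K, b ^ 3 ≠ a)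
    {t : L} (ht : t ∉ (algebraMap K L).range) : ∃ σ : L ≃ₐ[K] L, σ t ≠ t := by
  have : FiniteDimensional K L := Module.finite_of_finrank_pos (by rw [hdeg]; norm_num)
  have hirr : Irreducible (X ^ 3 - C a : K[X]) :=
    X_pow_sub_C_irreducible_of_prime Nat.prime_three hno
  have htop : K⟮h⟯ = ⊤ := by
    have := IntermediateField.isSimpleOrder_of_finrank_prime K L
      (by rw [hdeg]; exact Nat.prime_three)
    rcases eq_bot_or_eq_top K⟮h⟯ with hb | ht'
    · exfalso
      have h1 : h ∈ (⊥ : IntermediateField K L) := hb ▸ mem_adjoin_simple_self K h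
      obtain ⟨b, rfl⟩ := IntermediateField.mem_bot.mp h1
      apply hno b
      apply (algebraMap K L).injective
      rw [map_pow, hh]
    · exact ht'
  have hζ' : (primitiveRoots (Module.finrank K L) K).Nonempty := by rwa [hdeg]
  have hh' : h ^ (Module.finrank K L) = algebraMap K L a := by rwa [hdeg]
  have hsplit : IsSplittingField K L (X ^ 3 - C a) := by
    have := isSplittingField_X_pow_sub_C_of_root_adjoin_eq_top hζ' hh' htop
    rwa [hdeg] at this
  have : IsGalois K L := isGalois_of_isSplittingField_X_pow_sub_C hζ hirr L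
  by_contra hcon
  have hfix : ∀ σ : L ≃ₐ[K] L, σ t = t := fun σ => by
    by_contra hne
    exact hcon ⟨σ, hne⟩
  have h1 : t ∈ (⊥ : IntermediateField K L) := (IsGalois.mem_bot_iff_fixed t).mpr hfix
  exact ht (IntermediateField.mem_bot.mp h1)

/-- `wcu_exists_aut` for a tower `K ≤ L` of intermediate fields. -/
theorem wcu_exists_aut_int {k E : Type*} [Field k] [Field E] [Algebra k E]
    {K L : IntermediateField k E} (hKL : K ≤ L) (hdeg : K.relfinrank L = 3)
    (hζ : (primitiveRoots 3 k).Nonempty) {h : E} (hh : h ∈ L) (hw : h ^ 3 ∈ K)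
    (hno : ∀ g ∈ K, g ^ 3 ≠ h ^ 3) {t : E} (ht : t ∈ L) (htK : t ∉ K) :
    ∃ σ : IntermediateField.extendScalars hKL ≃ₐ[K] IntermediateField.extendScalars hKL,
      ((σ ⟨t, ht⟩ : IntermediateField.extendScalars hKL) : E) ≠ t := by
  have hdeg' : Module.finrank K (IntermediateField.extendScalars hKL) = 3 := by
    rw [← IntermediateField.relfinrank_eq_finrank_of_le hKL, hdeg]
  have hζK : (primitiveRoots 3 K).Nonempty := by
    obtain ⟨ζ, hζ⟩ := hζ
    rw [mem_primitiveRoots (by norm_num)] at hζ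
    exact ⟨algebraMap k K ζ, (mem_primitiveRoots (by norm_num)).mpr
      (hζ.map_of_injective (algebraMap k K).injective)⟩
  obtain ⟨σ, hσ⟩ := wcu_exists_aut (K := K) (L := IntermediateField.extendScalars hKL) hdeg' hζK
    (a := ⟨h ^ 3, hw⟩) (h := ⟨h, hh⟩) (by apply Subtype.ext; rfl)
    (by
      intro b hb
      apply hno b.1 b.2
      have := congrArg Subtype.val hb
      simpa using this)
    (t := ⟨t, ht⟩)
    (by
      rintro ⟨b, hb⟩
      apply htK
      have := congrArg Subtype.val hb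
      have h2 : (b : E) = t := this
      rw [← h2]
      exact b.2)
  refine ⟨σ, fun hcon => hσ ?_⟩
  exact Subtype.ext hcon

/-! ### the valuation argument -/

section Val

theorem wcu_nsmul_coe (k : ℕ) (n : ℤ) :
    k • ((n : ℤ) : WithTop ℤ) = (((k : ℤ) * n : ℤ) : WithTop ℤ) := by
  rw [← WithTop.coe_nsmul, nsmul_eq_mul]

variable {E : Type*} [Field E] (v : AddValuation E (WithTop ℤ))

/-- Every root of `j X² = (X + 256)³` has valuation `-d` when `v j = -d`, `d` odd. -/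
theorem wcu_val_root {j x : E} {d : ℕ} (hd : Odd d)
    (hj : v j = ((-(d : ℤ) : ℤ) : WithTop ℤ)) (h256 : v (256 : E) = 0)
    (hx : j * x ^ 2 = (x + 256) ^ 3) : v x = ((-(d : ℤ) : ℤ) : WithTop ℤ) := by
  have hx0 : x ≠ 0 := by
    rintro rfl
    have h1 : v ((0 + 256 : E) ^ 3) = ⊤ := by
      rw [← hx]
      simp
    rw [zero_add, AddValuation.map_pow, h256] at h1
    simp at h1
  obtain ⟨n, hn⟩ := WithTop.ne_top_iff_exists.mp ((AddValuation.ne_top_iff v).mpr hx0)
  have hL : v (j * x ^ 2) = ((-(d : ℤ) + 2 * n : ℤ) : WithTop ℤ) := by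
    rw [AddValuation.map_mul, AddValuation.map_pow, hj, ← hn, wcu_nsmul_coe, ← WithTop.coe_add]
    rfl
  have hd1 : 1 ≤ d := hd.pos
  rcases lt_trichotomy n 0 with hlt | heq | hgt
  · have h1 : v x < v (256 : E) := by
      rw [h256, ← hn]
      exact_mod_cast hlt
    have h2 : v (x + 256) = v x := AddValuation.map_add_eq_of_lt_left v h1
    have h3 : v ((x + 256) ^ 3) = ((3 * n : ℤ) : WithTop ℤ) := by
      rw [AddValuation.map_pow, h2, ← hn, wcu_nsmul_coe]
      rfl
    rw [hx, h3] at hL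
    have h4 : 3 * n = -(d : ℤ) + 2 * n := by exact_mod_cast hL
    rw [← hn]
    have h5 : n = -(d : ℤ) := by omega
    rw [h5]
  · exfalso
    subst heq
    have h1 : (0 : WithTop ℤ) ≤ v (x + 256) := by
      refine AddValuation.map_le_add v ?_ ?_
      · rw [← hn]; rfl
      · rw [h256]
    have h3 : (0 : WithTop ℤ) ≤ v ((x + 256) ^ 3) := by
      rw [AddValuation.map_pow]
      exact nsmul_nonneg h1 3
    rw [← hx, hL] at h3
    have h4 : (0 : ℤ) ≤ -(d : ℤ) + 2 * 0 := by exact_mod_cast h3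
    omega
  · exfalso
    have h1 : v (256 : E) < v x := by
      rw [h256, ← hn]
      exact_mod_cast hgt
    have h2 : v (x + 256) = v (256 : E) := AddValuation.map_add_eq_of_lt_right v h1
    have h3 : v ((x + 256) ^ 3) = ((0 : ℤ) : WithTop ℤ) := by
      rw [AddValuation.map_pow, h2, h256]
      simp
    rw [hx, h3] at hL
    have h4 : (0 : ℤ) = -(d : ℤ) + 2 * n := by exact_mod_cast hL
    obtain ⟨m, hm⟩ := hd
    omega

/-- The cubic `j X² = (X + 256)³` has at most one root when `v j = -d`, `d` odd. -/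
theorem wcu_root_unique {j x t : E} {d : ℕ} (hd : Odd d)
    (hj : v j = ((-(d : ℤ) : ℤ) : WithTop ℤ)) (h256 : v (256 : E) = 0)
    (hx : j * x ^ 2 = (x + 256) ^ 3) (ht : j * t ^ 2 = (t + 256) ^ 3) : x = t := by
  by_contra hne
  have hS : x ^ 2 + x * t + t ^ 2 + (768 - j) * (x + t) + 3 * 256 ^ 2 = 0 := by
    have h1 : (x - t) * (x ^ 2 + x * t + t ^ 2 + (768 - j) * (x + t) + 3 * 256 ^ 2) = 0 := by
      linear_combination ht - hx
    rcases mul_eq_zero.mp h1 with h2 | h2
    · exact absurd (sub_eq_zero.mp h2) hne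
    · exact h2
  have hy : j * (j - 768 - x - t) ^ 2 = ((j - 768 - x - t) + 256) ^ 3 := by
    linear_combination (-(j - 768 - x - t - x)) * hS + hx
  have hprod : x * t * (j - 768 - x - t) = -(256 ^ 3) := by
    linear_combination -hx - x * hS
  have hvx := wcu_val_root v hd hj h256 hx
  have hvt := wcu_val_root v hd hj h256 ht
  have hvy := wcu_val_root v hd hj h256 hy
  have h1 := congrArg v hprod
  rw [AddValuation.map_mul, AddValuation.map_mul, hvx, hvt, hvy, AddValuation.map_neg,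
    AddValuation.map_pow, h256] at h1
  have h2 : ((-(d : ℤ) + -(d : ℤ) + -(d : ℤ) : ℤ) : WithTop ℤ) = ((0 : ℤ) : WithTop ℤ) := by
    rw [WithTop.coe_add, WithTop.coe_add, h1]
    simp
  have h3 : -(d : ℤ) + -(d : ℤ) + -(d : ℤ) = 0 := by exact_mod_cast h2
  have hd1 : 1 ≤ d := hd.pos
  omega

end Val

end Fermat.Agent.S33

end
end ZBS33_007_0

/-! ### bundled: `Fermat.Agent.S33.WildCube` -/
section ZBS33_007_1

/-!
# S33 v2 / C4 / T5j — CUBE DESCENT from level `2N` to level `N` (`N` odd)  (helper61)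

`wcu_cube_descent` : `N` odd, `w ∈ F_N`, `h ∈ F_{N·2}` (inside `ℚ̄((q))`), `h³ = w`  ⇒  `∃ g ∈ F_N, g³ = w`.

Proof.  Otherwise `F_{2N} = F_N(h)` is a Kummer extension of degree `3 = [F_{2N} : F_N]`
(`ES.G2.hdeg_relfinrank`), hence Galois.  For `d ∣ N` the dilated Hauptmodul `t_d = hm2(q^d) ∈ F_{2N}`
is a root of `j_d X² = (X + 256)³` (`INJ.hm2_j`); so are its conjugates, which lie in `ℚ̄((q))`; by the
`q`-order argument of `wcu_root_unique` (`d` is odd) that cubic has only one root in `ℚ̄((q))`: `t_d ∈ F_N`.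
Then `j_{2d} = (t_d + 16)³ / t_d ∈ F_N` (`INJ.hm2_j2`), so `F_{2N} ≤ F_N`: contradiction with the degree.
-/

set_option autoImplicit false

noncomputable section

namespace Fermat.Agent.S33

open ModularCurve IntermediateField Fermat.Agent.ES.G2 Fermat.Agent.INJ Fermat.Agent.S24

/-- `F_N = ℚ̄(j(q^d) : d ∣ N)`. -/
theorem wcu_bar_eq (N : ℕ) : modularFunctionFieldBar N = modularFunctionFieldFullC Kb N :=
  hdeg_laurentBaseChange_full Kb N

/-- the dilated Hauptmodul `hm2(q^d)` lies in `F_{N·2}` for `d ∣ N`. -/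
theorem wcu_td_mem (N : ℕ) [NeZero N] {d : ℕ} [NeZero d] (hd : d ∣ N) :
    qExpand Kb d (hm2 Kb) ∈ modularFunctionFieldBar (N * 2) := by
  have h2 : hm2 Kb ∈ modularFunctionFieldFullC Kb 2 := by
    rw [← wcu_bar_eq]
    exact hm2_mem_two
  have h3 : qExpand Kb d (hm2 Kb) ∈ modularFunctionFieldFullC Kb (2 * d) :=
    full_degeneracyC_map_le Kb 2 d ⟨hm2 Kb, h2, rfl⟩
  rw [wcu_bar_eq]
  have hdvd : 2 * d ∣ N * 2 := by
    rw [mul_comm 2 d]
    exact Nat.mul_dvd_mul_right hd 2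
  exact full_degeneracyC_le Kb hdvd h3

theorem wcu_qExpand_congr {e e' : ℕ} [NeZero e] [NeZero e'] (h : e = e')
    (f : LaurentSeries Kb) : qExpand Kb e f = qExpand Kb e' f := by
  subst h
  rfl

theorem wcu_td_ne_zero (d : ℕ) [NeZero d] : qExpand Kb d (hm2 Kb) ≠ 0 :=
  Fermat.Agent.S28.qExpand_ne_zero hm2_ne_zero

/-- `j_d t_d² = (t_d + 256)³`. -/
theorem wcu_td_j (d : ℕ) [NeZero d] :
    qExpand Kb d (jqModC Kb) * qExpand Kb d (hm2 Kb) ^ 2 = (qExpand Kb d (hm2 Kb) + 256) ^ 3 := by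
  have h := congrArg (qExpand Kb d) (hm2_j Kb)
  simpa only [map_mul, map_pow, map_add, map_ofNat] using h

/-- `j_{2d} t_d = (t_d + 16)³`. -/
theorem wcu_td_j2 (d : ℕ) [NeZero d] [NeZero (d * 2)] :
    qExpand Kb (d * 2) (jqModC Kb) * qExpand Kb d (hm2 Kb) = (qExpand Kb d (hm2 Kb) + 16) ^ 3 := by
  have h := congrArg (qExpand Kb d) (hm2_j2 Kb)
  rw [jqNModC, map_mul, qExpand_qExpand] at h
  simpa only [map_pow, map_add, map_ofNat] using h

/-- the `q`-order valuation of `j(q^d)` is `-d`. -/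
theorem wcu_val_jd (d : ℕ) [NeZero d] :
    HahnSeries.addVal ℤ Kb (qExpand Kb d (jqModC Kb)) = ((-(d : ℤ) : ℤ) : WithTop ℤ) := by
  have hne : qExpand Kb d (jqModC Kb) ≠ 0 :=
    Fermat.Agent.S28.qExpand_ne_zero (Fermat.Agent.S28.jqModC_ne_zero Kb)
  rw [HahnSeries.addVal_apply_of_ne hne, Fermat.Agent.S28.order_qExpand,
    Fermat.Agent.S28.order_jqModC, mul_neg, mul_one]

theorem wcu_val_256 : HahnSeries.addVal ℤ Kb (256 : LaurentSeries Kb) = 0 := by
  have h3 : (256 : LaurentSeries Kb) = HahnSeries.C (256 : Kb) :=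
    (map_ofNat (HahnSeries.C : Kb →+* LaurentSeries Kb) 256).symm
  have hne : (256 : LaurentSeries Kb) ≠ 0 := by
    rw [h3, Ne, map_eq_zero]
    norm_num
  rw [HahnSeries.addVal_apply_of_ne hne, h3, HahnSeries.order_C]
  rfl

/-- **Key step**: if `w = h³` is not a cube in `F_N`, the dilated Hauptmoduln lie in `F_N`. -/
theorem wcu_td_mem_low (N : ℕ) [NeZero N] (hN : ¬ 2 ∣ N) {h : LaurentSeries Kb}
    (hh : h ∈ modularFunctionFieldBar (N * 2)) (hw : h ^ 3 ∈ modularFunctionFieldBar N)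
    (hno : ∀ g ∈ modularFunctionFieldBar N, g ^ 3 ≠ h ^ 3) {d : ℕ} [NeZero d] (hd : d ∣ N) :
    qExpand Kb d (hm2 Kb) ∈ modularFunctionFieldBar N := by
  by_contra htK
  have hKL : modularFunctionFieldBar N ≤ modularFunctionFieldBar (N * 2) := hdeg_bar_le N 2
  have hdeg : (modularFunctionFieldBar N).relfinrank (modularFunctionFieldBar (N * 2)) = 3 :=
    hdeg_relfinrank N 2 Nat.prime_two hN
  have hζ : (primitiveRoots 3 Kb).Nonempty := by
    obtain ⟨ζ, hζ⟩ := HasEnoughRootsOfUnity.exists_primitiveRoot Kb 3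
    exact ⟨ζ, (mem_primitiveRoots (by norm_num)).mpr hζ⟩
  have ht := wcu_td_mem N hd
  obtain ⟨σ, hσ⟩ := wcu_exists_aut_int hKL hdeg hζ hh hw hno ht htK
  have hjK : qExpand Kb d (jqModC Kb) ∈ modularFunctionFieldBar N := by
    rw [wcu_bar_eq]
    exact jqModCd_mem_full Kb N hd
  -- the equation in `L`
  have heq : algebraMap (modularFunctionFieldBar N) (IntermediateField.extendScalars hKL)
      ⟨qExpand Kb d (jqModC Kb), hjK⟩ *
        (⟨qExpand Kb d (hm2 Kb), ht⟩ : IntermediateField.extendScalars hKL) ^ 2 =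
      ((⟨qExpand Kb d (hm2 Kb), ht⟩ : IntermediateField.extendScalars hKL) + 256) ^ 3 := by
    apply Subtype.ext
    exact wcu_td_j d
  have heq' := congrArg σ heq
  rw [map_mul, AlgEquiv.commutes, map_pow, map_pow, map_add, map_ofNat] at heq'
  have heq'' := congrArg (Subtype.val) heq'
  have hx : qExpand Kb d (jqModC Kb) *
      ((σ ⟨qExpand Kb d (hm2 Kb), ht⟩ : IntermediateField.extendScalars hKL) : LaurentSeries Kb) ^ 2
      = (((σ ⟨qExpand Kb d (hm2 Kb), ht⟩ : IntermediateField.extendScalars hKL) :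
          LaurentSeries Kb) + 256) ^ 3 := heq''
  have hodd : Odd d := by
    rw [← Nat.not_even_iff_odd]
    intro he
    exact hN (he.two_dvd.trans hd)
  exact hσ (wcu_root_unique (HahnSeries.addVal ℤ Kb) hodd (wcu_val_jd d) wcu_val_256 hx (wcu_td_j d))

/-- **CUBE DESCENT** (`p = 3`, `2 ∤ N`): a cube in `F_{N·2}` of an element of `F_N` is a cube in `F_N`. -/
theorem wcu_cube_descent (N : ℕ) [NeZero N] (hN : ¬ 2 ∣ N) {w h : LaurentSeries Kb}
    (hw : w ∈ modularFunctionFieldBar N) (hh : h ∈ modularFunctionFieldBar (N * 2))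
    (hwh : h ^ 3 = w) : ∃ g ∈ modularFunctionFieldBar N, g ^ 3 = w := by
  by_contra hcon
  subst hwh
  have hno : ∀ g ∈ modularFunctionFieldBar N, g ^ 3 ≠ h ^ 3 := fun g hg hg3 => hcon ⟨g, hg, hg3⟩
  have hdeg : (modularFunctionFieldBar N).relfinrank (modularFunctionFieldBar (N * 2)) = 3 :=
    hdeg_relfinrank N 2 Nat.prime_two hN
  have hle : modularFunctionFieldBar (N * 2) ≤ modularFunctionFieldBar N := by
    rw [wcu_bar_eq (N * 2), modularFunctionFieldFullC, IntermediateField.adjoin_le_iff]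
    rintro _ ⟨e, hne, he, rfl⟩
    have := hne
    by_cases h2 : 2 ∣ e
    · obtain ⟨d, rfl⟩ := h2
      have hd : d ∣ N := by
        rw [mul_comm N 2] at he
        exact Nat.dvd_of_mul_dvd_mul_left (by norm_num) he
      have hd0 : d ≠ 0 := fun h0 => NeZero.ne (2 * d) (by rw [h0, mul_zero])
      have : NeZero d := ⟨hd0⟩
      have : NeZero (d * 2) := ⟨Nat.mul_ne_zero hd0 (by norm_num)⟩
      have ht := wcu_td_mem_low N hN hh hw hno hd
      have hj2 := wcu_td_j2 d
      have h3 : qExpand Kb (2 * d) (jqModC Kb) =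
          (qExpand Kb d (hm2 Kb) + 16) ^ 3 / qExpand Kb d (hm2 Kb) := by
        rw [eq_div_iff (wcu_td_ne_zero d), ← hj2, wcu_qExpand_congr (mul_comm 2 d)]
      show qExpand Kb (2 * d) (jqModC Kb) ∈ modularFunctionFieldBar N
      rw [h3]
      refine div_mem (pow_mem (add_mem ht ?_) 3) ht
      exact ofNat_mem _ 16
    · have hcop : Nat.Coprime e 2 := by
        rw [Nat.coprime_comm, Nat.Prime.coprime_iff_not_dvd Nat.prime_two]
        exact h2
      have he' : e ∣ N := hcop.dvd_of_dvd_mul_right he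
      show qExpand Kb e (jqModC Kb) ∈ modularFunctionFieldBar N
      rw [wcu_bar_eq]
      exact jqModCd_mem_full Kb N he'
  have h1 : (modularFunctionFieldBar N).relfinrank (modularFunctionFieldBar (N * 2)) = 1 :=
    IntermediateField.relfinrank_eq_one_of_le hle
  rw [hdeg] at h1
  norm_num at h1

/-- **CUBE DESCENT**, subtype form (`F_N ⊂ F_{N·2}` through `heckeAlphaBar`). -/
theorem wcu_cube_descent_sub (N : ℕ) [NeZero N] (hN : ¬ 2 ∣ N) (w : modularFunctionFieldBar N)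
    (h : modularFunctionFieldBar (N * 2)) (hwh : h ^ 3 = heckeAlphaBar Kb N 2 w) :
    ∃ g : modularFunctionFieldBar N, g ^ 3 = w := by
  have h1 : (h : LaurentSeries Kb) ^ 3 = (w : LaurentSeries Kb) := by
    have := congrArg Subtype.val hwh
    rw [coe_heckeAlphaBar] at this
    rw [← this]
    exact (SubmonoidClass.coe_pow h 3).symm
  obtain ⟨g, hg, hg3⟩ := wcu_cube_descent N hN w.2 h.2 h1
  refine ⟨⟨g, hg⟩, ?_⟩
  apply Subtype.ext
  rw [← hg3]
  exact SubmonoidClass.coe_pow (⟨g, hg⟩ : modularFunctionFieldBar N) 3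

end Fermat.Agent.S33

end
end ZBS33_007_1

/-! ### bundled: `Fermat.Agent.S33.WildCubeEq` -/
section ZBS33_007_2

/-!
# S33 v2 / C4 / T5j — cube descent, transport forms (helper61)

`wcu_cube_descent_eq` : the cube descent `F_{N'} → F_N` for any `N'` with `N' = N * 2` (e.g.
`N = M * 3`, `N' = M * 2 * 3`), `wcu_cube_descent_level3` : the instance `F_{(M·2)·3} → F_{M·3}`.
-/

set_option autoImplicit false

noncomputable section

namespace Fermat.Agent.S33

open ModularCurve Fermat.Agent.S24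

/-- cube descent with the upper level given up to equality -/
theorem wcu_cube_descent_eq (N N' : ℕ) [NeZero N] (hN : ¬ 2 ∣ N) (hN' : N' = N * 2)
    {w h : LaurentSeries Kb} (hw : w ∈ modularFunctionFieldBar N)
    (hh : h ∈ modularFunctionFieldBar N') (hwh : h ^ 3 = w) :
    ∃ g ∈ modularFunctionFieldBar N, g ^ 3 = w := by
  subst hN'
  exact wcu_cube_descent N hN hw hh hwh

/-- cube descent `F_{(M·2)·3} → F_{M·3}` for odd `M` -/
theorem wcu_cube_descent_level3 (M : ℕ) [NeZero M] (hM : ¬ 2 ∣ M)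
    {w h : LaurentSeries Kb} (hw : w ∈ modularFunctionFieldBar (M * 3))
    (hh : h ∈ modularFunctionFieldBar (M * 2 * 3)) (hwh : h ^ 3 = w) :
    ∃ g ∈ modularFunctionFieldBar (M * 3), g ^ 3 = w := by
  have : NeZero (M * 3) := ⟨Nat.mul_ne_zero (NeZero.ne M) (by norm_num)⟩
  have hN : ¬ 2 ∣ M * 3 := by
    intro h2
    rcases (Nat.Prime.dvd_mul Nat.prime_two).mp h2 with h3 | h3
    · exact hM h3
    · norm_num at h3
  exact wcu_cube_descent_eq (M * 3) (M * 2 * 3) hN (by ring) hw hh hwh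

/-- cube descent `F_{(M·2)·p} → F_{M·p}` for odd `M`, `p = 3` as a variable -/
theorem wcu_cube_descent_levelp (M p : ℕ) [NeZero M] (hM : ¬ 2 ∣ M) (hp : p = 3)
    {w h : LaurentSeries Kb} (hw : w ∈ modularFunctionFieldBar (M * p))
    (hh : h ∈ modularFunctionFieldBar (M * 2 * p)) (hwh : h ^ p = w) :
    ∃ g ∈ modularFunctionFieldBar (M * p), g ^ p = w := by
  subst hp
  exact wcu_cube_descent_level3 M hM hw hh hwh

end Fermat.Agent.S33

end
end ZBS33_007_2

/-! ### bundled: `Fermat.Agent.S33.WildPull` -/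
section ZBS33_007_3

/-!
# S33 v2, C4 (WILD), piece T5-pull: the case `p = 3`, `2 ∤ M` (helper92)

UNIP's special-fibre data at the residue characteristic `3` exist only at the levels `N` with
`2 ∣ N`.  For the wild statement (C4) at the level `M * 3`, `M` odd, one passes to the level
`(M * 2) * 3` and comes back by the CUBE DESCENT `wcu_cube_descent_levelp` (helper61).

Everything except the cube descent is proved for a general prime `p` and a general auxiliary
prime `r`, `p ∤ M * r`, `r ∤ M * p`: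

* `wpl_bar_le` : `F_{M p} ≤ F_{(M r) p}` (subfields of `ℚ̄((q))`), `wplIncl` the inclusion;
* `wpl_al_fullC`, `wpl_al_bar` : the Atkin–Lehner involution `w_p` of the level `(M r) p`
  restricts to `w_p` of the level `M p`;
* `wpl_dvd_ord` : `m ∣ div u` pulls back;
* `wpl_depthInf`, `wpl_depthZero`, `wpl_isSplitFn` : `DepthInf`, `DepthZero`, `IsSplitFn` pull
  back;
* `wpl_coe_galois` : the `q`-expansion of `σ u / u ^ a` does not depend on the level;
* `wpl_pull` : **T5-pull** — (C4) in Kummer form at the level `(M * 2) * p` gives (C4) in Kummer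
  form at the level `M * p`, for `p = 3` and `M` odd (both statements spelled out; they are the
  bodies of `StmtWildKummerAt`).
-/

set_option autoImplicit false
set_option linter.unusedSectionVars false
set_option linter.unusedVariables false

noncomputable section

namespace Fermat.Agent.S33

open ModularCurve AlgebraicCurve Fermat.Agent.ES Fermat.Agent.ES.G2 Fermat.Agent.STB
open Fermat.Agent.S23 Fermat.Agent.S24 Fermat.Agent.S28

/-! ### The inclusion `F_{M p} ≤ F_{(M r) p}` -/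

theorem wpl_bar_le (M r p : ℕ) :
    modularFunctionFieldBar (M * p) ≤ modularFunctionFieldBar (M * r * p) := by
  have h := hdeg_bar_le (M * p) r
  rwa [Nat.mul_right_comm] at h

theorem wpl_fullC_le (K : Type*) [Field K] (M r p : ℕ) :
    modularFunctionFieldFullC K (M * p) ≤ modularFunctionFieldFullC K (M * r * p) :=
  Fermat.Agent.S28.UB.full_mono K ⟨r, by ring⟩

/-- the inclusion `F_{M p} → F_{(M r) p}` -/
def wplIncl (M r p : ℕ) :
    modularFunctionFieldBar (M * p) →ₐ[Qb] modularFunctionFieldBar (M * r * p) :=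
  IntermediateField.inclusion (wpl_bar_le M r p)

theorem wplIncl_coe (M r p : ℕ) (u : modularFunctionFieldBar (M * p)) :
    ((wplIncl M r p u : modularFunctionFieldBar (M * r * p)) : LaurentSeries Qb) =
      (u : LaurentSeries Qb) :=
  IntermediateField.coe_inclusion (wpl_bar_le M r p) u

theorem wplIncl_ne_zero (M r p : ℕ) {u : modularFunctionFieldBar (M * p)} (hu : u ≠ 0) :
    wplIncl M r p u ≠ 0 :=
  (map_ne_zero_iff _ (wplIncl M r p).toRingHom.injective).mpr hu

/-! ### Atkin–Lehner at the two levels -/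

section AL

variable (K : Type*) [Field K] (ι : K →+* ℂ) {p M r : ℕ} [NeZero p] [NeZero M] [NeZero (M * p)]
  [NeZero (M * r)] [NeZero (M * r * p)] (hp : p.Prime) (hpM : ¬ p ∣ M) (hpMr : ¬ p ∣ M * r)

/-- **`w_p` of the level `(M r) p` restricts to `w_p` of the level `M p`** (over any field `K`
with a complex embedding). -/
theorem wpl_al_fullC (f : modularFunctionFieldFullC K (M * p)) :
    ((Fermat.Agent.AL.atkinLehner K ι hp hpMr
        (IntermediateField.inclusion (wpl_fullC_le K M r p) f) :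
        modularFunctionFieldFullC K (M * r * p)) : LaurentSeries K) =
      ((Fermat.Agent.AL.atkinLehner K ι hp hpM f : modularFunctionFieldFullC K (M * p)) :
        LaurentSeries K) := by
  set φ₁ : modularFunctionFieldFullC K (M * p) →+* LaurentSeries K :=
    ((IntermediateField.val (modularFunctionFieldFullC K (M * r * p))).toRingHom.comp
      (Fermat.Agent.AL.atkinLehner K ι hp hpMr).toAlgHom.toRingHom).comp
      (IntermediateField.inclusion (wpl_fullC_le K M r p)).toRingHom with hφ₁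
  set φ₂ : modularFunctionFieldFullC K (M * p) →+* LaurentSeries K :=
    (IntermediateField.val (modularFunctionFieldFullC K (M * p))).toRingHom.comp
      (Fermat.Agent.AL.atkinLehner K ι hp hpM).toAlgHom.toRingHom with hφ₂
  have key : φ₁ = φ₂ := by
    refine Fermat.Agent.AL.al_ringHom_ext K (M * p) φ₁ φ₂ ?_ ?_
    · intro c
      simp only [hφ₁, hφ₂, RingHom.comp_apply, AlgHom.toRingHom_eq_coe, RingHom.coe_coe,
        AlgHom.commutes]
    · intro d hd0 hd
      have hp0 : p ≠ 0 := hp.ne_zero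
      rcases Fermat.Agent.AL.al_divisor_cases hp hpM hd with hdM | ⟨d', hd'M, rfl⟩
      · -- `d ∣ M`
        have : NeZero (d * p) := ⟨Nat.mul_ne_zero (NeZero.ne d) hp0⟩
        have h2 := Fermat.Agent.AL.atkinLehner_low K ι hp hpM hdM
        have h1 := Fermat.Agent.AL.atkinLehner_low K ι hp hpMr (hdM.mul_right r)
        have e1 : φ₁ ⟨qExpand K d (jqModC K), jqModCd_mem_full K (M * p) hd⟩ =
            qExpand K (d * p) (jqModC K) := by
          rw [← h1]
          rfl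
        have e2 : φ₂ ⟨qExpand K d (jqModC K), jqModCd_mem_full K (M * p) hd⟩ =
            qExpand K (d * p) (jqModC K) := by
          rw [← h2]
          rfl
        rw [e1, e2]
      · -- `d = d' p`, `d' ∣ M`
        have hd'0 : d' ≠ 0 := fun h => NeZero.ne (d' * p) (by rw [h, zero_mul])
        have : NeZero d' := ⟨hd'0⟩
        have h2 := Fermat.Agent.AL.atkinLehner_high K ι hp hpM hd'M
        have h1 := Fermat.Agent.AL.atkinLehner_high K ι hp hpMr (hd'M.mul_right r)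
        have e1 : φ₁ ⟨qExpand K (d' * p) (jqModC K), jqModCd_mem_full K (M * p) hd⟩ =
            qExpand K d' (jqModC K) := by
          rw [← h1]
          rfl
        have e2 : φ₂ ⟨qExpand K (d' * p) (jqModC K), jqModCd_mem_full K (M * p) hd⟩ =
            qExpand K d' (jqModC K) := by
          rw [← h2]
          rfl
        rw [e1, e2]
  exact congrArg (fun φ : modularFunctionFieldFullC K (M * p) →+* LaurentSeries K => φ f) key

end AL

section Pull

variable {p M r : ℕ} [NeZero p] [NeZero M] [NeZero (M * p)] [NeZero (M * r)]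
  [NeZero (M * r * p)] (hp : p.Prime) (hpM : ¬ p ∣ M) (hpMr : ¬ p ∣ M * r)

/-- **`w_p` of the level `(M r) p` restricts to `w_p` of the level `M p`** (over `ℚ̄`). -/
theorem wpl_al_bar (u : modularFunctionFieldBar (M * p)) :
    ((Fermat.Agent.UNIP.atkinLehnerBar hp hpMr (wplIncl M r p u) :
        modularFunctionFieldBar (M * r * p)) : LaurentSeries Qb) =
      ((Fermat.Agent.UNIP.atkinLehnerBar hp hpM u : modularFunctionFieldBar (M * p)) :
        LaurentSeries Qb) := by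
  rw [Fermat.Agent.UNIP.atkinLehnerBar_coe, Fermat.Agent.UNIP.atkinLehnerBar_coe]
  have e : (⟨((wplIncl M r p u : modularFunctionFieldBar (M * r * p)) : LaurentSeries Qb),
      Fermat.Agent.UNIP.cheap_mem_fullC (wplIncl M r p u).2⟩ :
        modularFunctionFieldFullC Qb (M * r * p)) =
      IntermediateField.inclusion (wpl_fullC_le Qb M r p)
        ⟨(u : LaurentSeries Qb), Fermat.Agent.UNIP.cheap_mem_fullC u.2⟩ := by
    apply Subtype.ext
    rw [IntermediateField.coe_inclusion]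
    exact wplIncl_coe M r p u
  rw [e]
  exact wpl_al_fullC Qb Fermat.Agent.UNIP.cheapIota hp hpM hpMr _

end Pull

/-! ### `DepthInf` is monotone in the level -/

section Depth

/-- the `q`-expansion of `u / (c h ^ p)` -/
theorem wpl_coe_expr (N : ℕ) (p : ℕ) (c : Qb) (u h : modularFunctionFieldBar N) :
    ((u / (algebraMap Qb (modularFunctionFieldBar N) c * h ^ p) : modularFunctionFieldBar N) :
      LaurentSeries Qb) =
      (u : LaurentSeries Qb) /
        (algebraMap Qb (LaurentSeries Qb) c * (h : LaurentSeries Qb) ^ p) := by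
  rw [IntermediateField.coe_div, IntermediateField.coe_mul, IntermediateField.coe_pow]
  rfl

/-- `DepthInf` only depends on the `q`-expansion, and is monotone in the field. -/
theorem wpl_depthInf_of_coe (A : ValuationSubring Qb) {N N' : ℕ} [NeZero N] [NeZero N']
    (hle : modularFunctionFieldBar N ≤ modularFunctionFieldBar N') (p : ℕ) (ϖ : Qb)
    (u : modularFunctionFieldBar N) (u' : modularFunctionFieldBar N')
    (huu' : (u' : LaurentSeries Qb) = (u : LaurentSeries Qb)) (h : DepthInf A N p ϖ u) :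
    DepthInf A N' p ϖ u' := by
  obtain ⟨c, h, hc, hh, y₁, y₂, hy₁, hy₂, hk₁, hk₂, hcong, heq⟩ := h
  have hh' : (⟨(h : LaurentSeries Qb), hle h.2⟩ : modularFunctionFieldBar N') ≠ 0 := by
    intro h0
    apply hh
    have h1 : (h : LaurentSeries Qb) =
        ((0 : modularFunctionFieldBar N') : LaurentSeries Qb) := congrArg Subtype.val h0
    rw [ZeroMemClass.coe_zero] at h1
    apply Subtype.ext
    rw [ZeroMemClass.coe_zero]
    exact h1
  refine ⟨c, ⟨(h : LaurentSeries Qb), hle h.2⟩, hc, hh', y₁, y₂, hle hy₁, hle hy₂, hk₁, hk₂,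
    hcong, ?_⟩
  rw [wpl_coe_expr, huu']
  rw [wpl_coe_expr] at heq
  exact heq

end Depth

section Pull2

variable {p M r : ℕ} [NeZero p] [NeZero M] [NeZero (M * p)] [NeZero (M * r)]
  [NeZero (M * r * p)] (hp : p.Prime) (hpM : ¬ p ∣ M) (hpMr : ¬ p ∣ M * r)

/-- `DepthInf` pulls back to the level `(M r) p` -/
theorem wpl_depthInf (A : ValuationSubring Qb) (ϖ : Qb) (u : modularFunctionFieldBar (M * p))
    (h : DepthInf A (M * p) p ϖ u) : DepthInf A (M * r * p) p ϖ (wplIncl M r p u) :=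
  wpl_depthInf_of_coe A (wpl_bar_le M r p) p ϖ u _ (wplIncl_coe M r p u) h

/-- `DepthZero` pulls back to the level `(M r) p` -/
theorem wpl_depthZero (A : ValuationSubring Qb) (ϖ : Qb) (u : modularFunctionFieldBar (M * p))
    (h : DepthZero hp hpM A ϖ u) : DepthZero hp hpMr A ϖ (wplIncl M r p u) := by
  unfold DepthZero at h ⊢
  exact wpl_depthInf_of_coe A (wpl_bar_le M r p) p ϖ _ _ (wpl_al_bar hp hpM hpMr u) h

/-- `IsSplitFn` pulls back to the level `(M r) p` -/
theorem wpl_isSplitFn (A : ValuationSubring Qb) (u : modularFunctionFieldBar (M * p))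
    (h : IsSplitFn hp hpM A u) : IsSplitFn hp hpMr A (wplIncl M r p u) :=
  fun k => ⟨wpl_depthInf A _ u (h k).1, wpl_depthZero hp hpM hpMr A _ u (h k).2⟩

end Pull2

section Ord

/-- transport of "`m ∣ div u`" along an equality of levels -/
theorem wpl_dvd_ord_cast {N N' : ℕ} (hN : N = N') (m : ℕ) (u : modularFunctionFieldBar N)
    (u' : modularFunctionFieldBar N')
    (huu' : (u' : LaurentSeries Qb) = (u : LaurentSeries Qb))
    (h : ∀ P : Place Qb (modularFunctionFieldBar N), (m : ℤ) ∣ P.ord u) :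
    ∀ P : Place Qb (modularFunctionFieldBar N'), (m : ℤ) ∣ P.ord u' := by
  subst hN
  have e : u' = u := Subtype.ext huu'
  subst e
  exact h

/-- **`m ∣ div u` pulls back** to the level `(M r) p` -/
theorem wpl_dvd_ord {p M r : ℕ} [NeZero (M * p)] (hr : r.Prime) (hrN : ¬ r ∣ M * p) (m : ℕ)
    (u : modularFunctionFieldBar (M * p))
    (hdvd : ∀ P : Place Qb (modularFunctionFieldBar (M * p)), (m : ℤ) ∣ P.ord u) :
    ∀ P : Place Qb (modularFunctionFieldBar (M * r * p)), (m : ℤ) ∣ P.ord (wplIncl M r p u) := by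
  have : NeZero r := ⟨hr.ne_zero⟩
  have : NeZero (M * p * r) := ⟨Nat.mul_ne_zero (NeZero.ne (M * p)) hr.ne_zero⟩
  refine wpl_dvd_ord_cast (Nat.mul_right_comm M p r) m (heckeAlphaBar Qb (M * p) r u)
    (wplIncl M r p u) ?_ (Fermat.Agent.UNIP.unip_dvd_ord_pullback (M * p) r hr hrN m u hdvd)
  rw [wplIncl_coe, coe_heckeAlphaBar]

end Ord

section Galois

/-- the `q`-expansion of `σ u / u ^ a` -/
theorem wpl_coe_gal (N : ℕ) (σ : Qb ≃ₐ[ℚ] Qb) (a : ℕ) (u : modularFunctionFieldBar N) :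
    (((arithmeticGalois (modularFunctionFieldFull N) σ • u) / u ^ a :
        modularFunctionFieldBar N) : LaurentSeries Qb) =
      coeffMap (σ : Qb →+* Qb) (u : LaurentSeries Qb) / (u : LaurentSeries Qb) ^ a := rfl

/-- the `q`-expansion of `σ u / u ^ a` does not depend on the level -/
theorem wpl_coe_galois (M r p : ℕ) (σ : Qb ≃ₐ[ℚ] Qb) (a : ℕ)
    (u : modularFunctionFieldBar (M * p)) :
    (((arithmeticGalois (modularFunctionFieldFull (M * r * p)) σ • (wplIncl M r p u)) /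
        (wplIncl M r p u) ^ a : modularFunctionFieldBar (M * r * p)) : LaurentSeries Qb) =
      (((arithmeticGalois (modularFunctionFieldFull (M * p)) σ • u) / u ^ a :
        modularFunctionFieldBar (M * p)) : LaurentSeries Qb) := by
  rw [wpl_coe_gal, wpl_coe_gal, wplIncl_coe]

end Galois

/-! ### T5-pull -/

section Main

/-- **T5-pull.**  For `p = 3` and `M` odd, (C4) in Kummer form at the level `(M * 2) * p` gives
(C4) in Kummer form at the level `M * p`. -/
theorem wpl_pull {p M : ℕ} [NeZero p] [NeZero M] [NeZero (M * p)] [NeZero (M * 2)]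
    [NeZero (M * 2 * p)] (hp : p.Prime) (hp3 : p = 3) (hpM : ¬ p ∣ M) (hpM2 : ¬ p ∣ M * 2)
    (hM2 : ¬ 2 ∣ M) (H : StmtWildKummerAt hp hpM2) : StmtWildKummerAt hp hpM := by
  intro A hA σ hσ a hζ u hu hdvd hsplit
  have h2N : ¬ 2 ∣ M * p := by
    intro h2
    rcases (Nat.Prime.dvd_mul Nat.prime_two).mp h2 with h | h
    · exact hM2 h
    · rw [hp3] at h
      norm_num at h
  obtain ⟨h', hh'⟩ := H A hA σ hσ a hζ (wplIncl M 2 p u) (wplIncl_ne_zero M 2 p hu)
    (wpl_dvd_ord Nat.prime_two h2N p u hdvd) (wpl_isSplitFn hp hpM hpM2 A u hsplit)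
  have hw : (((arithmeticGalois (modularFunctionFieldFull (M * p)) σ • u) / u ^ a :
      modularFunctionFieldBar (M * p)) : LaurentSeries Qb) ∈ modularFunctionFieldBar (M * p) :=
    Subtype.property _
  have hwh : (h' : LaurentSeries Qb) ^ p =
      (((arithmeticGalois (modularFunctionFieldFull (M * p)) σ • u) / u ^ a :
        modularFunctionFieldBar (M * p)) : LaurentSeries Qb) := by
    rw [← wpl_coe_galois M 2 p σ a u, ← hh']
    exact (SubmonoidClass.coe_pow h' p).symm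
  obtain ⟨g, hg, hg3⟩ := wcu_cube_descent_levelp M p hM2 hp3 hw h'.2 hwh
  refine ⟨⟨g, hg⟩, Subtype.ext ?_⟩
  rw [← hg3]
  exact SubmonoidClass.coe_pow (⟨g, hg⟩ : modularFunctionFieldBar (M * p)) p

/-- **T5-pull, final form**: `StmtWildKummerAux → StmtWildKummer`. -/
theorem stmtWildKummer_of_aux (H : StmtWildKummerAux) : StmtWildKummer := by
  intro p M _ _ _ hp hpM hp2
  by_cases h3 : p = 3
  · by_cases hM2 : 2 ∣ M
    · exact H p M hp hpM hp2 (fun _ => hM2)
    · have hpM2 : ¬ p ∣ M * 2 := by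
        intro h
        rcases (Nat.Prime.dvd_mul hp).mp h with h | h
        · exact hpM h
        · rw [h3] at h
          norm_num at h
      have : NeZero (M * 2) := ⟨Nat.mul_ne_zero (NeZero.ne M) two_ne_zero⟩
      have : NeZero (M * 2 * p) := ⟨Nat.mul_ne_zero (NeZero.ne (M * 2)) hp.ne_zero⟩
      exact wpl_pull hp h3 hpM hpM2 hM2
        (H p (M * 2) hp hpM2 hp2 (fun _ => Dvd.intro_left M rfl))
  · exact H p M hp hpM hp2 (fun h => absurd h h3)

end Main

end Fermat.Agent.S33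

end
end ZBS33_007_3

/-! ### bundled: `Fermat.Agent.S33.WildMGFinal` -/
section ZBS33_007_4

/-!
# S33 v2, C4 (WILD), piece T5: `StmtWildT` from the `E′`-level statement

The chain `StmtWildFieldAt` (at the levels `M p` with `p = 3 → 2 ∣ M`) `→ StmtWildKummerAux`
(`stmtWildKummerAt_of_field`, descent) `→ StmtWildKummer` (`stmtWildKummer_of_aux`, T5-pull,
helper92) `→ StmtWildT` (`stmtWildT_of_kummer`, helper33).

So what is left of S33 is exactly: `StmtWildFieldAt hp hpM` for every odd prime `p ∤ M` with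
`p = 3 → 2 ∣ M`  (= `wab_main_two` in the concrete setting + the point data at `q := p`).
-/

set_option autoImplicit false

noncomputable section

namespace Fermat.Agent.S33

/-- `StmtWildKummerAux` from the `E′`-level statements. -/
theorem stmtWildKummerAux_of_field
    (h : ∀ (p M : ℕ) [NeZero p] [NeZero M] [NeZero (M * p)] (hp : p.Prime) (hpM : ¬ p ∣ M),
      p ≠ 2 → (p = 3 → 2 ∣ M) → StmtWildFieldAt hp hpM) : StmtWildKummerAux := by
  intro p M _ _ _ hp hpM hp2 h3
  have hp3 : 3 ≤ p := by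
    have := hp.two_le
    omega
  exact stmtWildKummerAt_of_field hp hpM hp3 (h p M hp hpM hp2 h3)

/-- **`StmtWildT`** (C3 + C4 of S33 v2) from the `E′`-level statements at the levels with a base
line. -/
theorem stmtWildT_of_field
    (h : ∀ (p M : ℕ) [NeZero p] [NeZero M] [NeZero (M * p)] (hp : p.Prime) (hpM : ¬ p ∣ M),
      p ≠ 2 → (p = 3 → 2 ∣ M) → StmtWildFieldAt hp hpM) : StmtWildT :=
  stmtWildT_of_kummer (stmtWildKummer_of_aux (stmtWildKummerAux_of_field h))

end Fermat.Agent.S33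

end
end ZBS33_007_4

/-! ### bundled: `Fermat.Agent.S33.WildTopField` -/
section ZBS33_007_5

/-!
# S33 v2, C4 (WILD), T5-mid, part 2: `StmtWildFieldAt` from the point data (helper90)

* `StmtWildPtsAt hp hpM` : **the point data** (T5f-mod): at every closed point `𝔫` of the special
  fibre of the two charts `j`, `1 / j` of `F′ = mgcF A K₁ (M * p)` over `A′ = mgcA A K₁` (any `A`
  over `p`, any number field `K₁` Galois over `ℚ` with `A′` discrete, any uniformizer `π`), the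
  datum `WhtPtData (mgvV hπ (mgdIota E′) hp hpM) true false 𝔫` (`S33/WildHT4.lean`: smooth point or
  crossing of finite thickness of `V_∞`, `V_0`).
* `wtop_hlam` : `π ∣ ζ - 1` for every `ζ ∈ A′` with `ζ ^ p = 1`.
* `stmtWildFieldAt_of_pts : p ≠ 2 → (p = 3 → 2 ∣ M) → StmtWildPtsAt hp hpM → StmtWildFieldAt hp hpM`
  (`StmtWildFieldAt` = the hypothesis of `stmtWildKummerAt_of_field`, `S33/WildMGDesc.lean`).
* `stmtWildKummerAt_of_pts` : `… → StmtWildPtsAt hp hpM → StmtWildKummerAt hp hpM`.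
* `stmtWildT_of_pts` : `StmtWildT` (C3 + C4 of S33 v2) from the point data at the levels with a
  base line (`p ≠ 2`, `p = 3 → 2 ∣ M`).
-/

set_option autoImplicit false
set_option linter.style.haveILetI false
set_option linter.unusedSectionVars false
set_option linter.unusedVariables false

noncomputable section

namespace Fermat.Agent.S33

open ModularCurve AlgebraicCurve Fermat.Agent.ES Fermat.Agent.ES.G2 Fermat.Agent.INJ
open Fermat.Agent.UNIP Fermat.Agent.STB IntermediateField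

section

variable {p M : ℕ} [NeZero p] [NeZero M] [NeZero (M * p)]

/-- **The point data** at the closed points of the special fibre of the two charts, level `M p`,
residue characteristic `p`. -/
def StmtWildPtsAt (hp : p.Prime) (hpM : ¬ p ∣ M) : Prop :=
  ∀ (A : ValuationSubring Qb) (hA : A.LiesOverPrime p) (K₁ : IntermediateField ℚ Qb)
    [NumberField K₁] [IsGalois ℚ K₁] [IsDiscreteValuationRing ↥(mgcA A K₁)]
    (π : ↥(mgcA A K₁)) (hπ : Irreducible π),
    (∀ 𝔫 : AtPt (F := ↥(mgcF A K₁ (M * p))) π (mgcT A K₁ (M * p)),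
      WhtPtData (mgvV hπ (mgdIota (mgcE A K₁)) hp hpM) true false 𝔫) ∧
    (∀ 𝔫 : AtPt (F := ↥(mgcF A K₁ (M * p))) π (mgcT A K₁ (M * p))⁻¹,
      WhtPtData (mgvV hπ (mgdIota (mgcE A K₁)) hp hpM) true false 𝔫)

/-- `π ∣ ζ - 1` for a `p`-th root of unity `ζ` of `A′`, `A` over `p` -/
theorem wtop_hlam {A : ValuationSubring Qb} {K₀ : IntermediateField ℚ Qb}
    [IsDiscreteValuationRing ↥(beta0Ring A K₀)] {π : ↥(beta0Ring A K₀)} (hπ : Irreducible π)
    (hp : p.Prime) (hA : A.LiesOverPrime p) {ζ : ↥(beta0Ring A K₀)} (hζ : ζ ^ p = 1) :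
    π ∣ ζ - 1 := by
  apply wmg_dvd_of_mem_nonunits hπ
  have e : ((((ζ - 1 : ↥(beta0Ring A K₀)) : ↥K₀)) : Qb) = (((ζ : ↥K₀)) : Qb) - 1 := by
    push_cast
    rfl
  rw [e]
  refine wmg_zeta_sub_one_mem hp hA ?_
  have h1 := congrArg (fun x : ↥(beta0Ring A K₀) => (((x : ↥K₀)) : Qb)) hζ
  simpa using h1

/-- **T5-mid.**  The `E′`-level statement from the point data. -/
theorem stmtWildFieldAt_of_pts (hp : p.Prime) (hpM : ¬ p ∣ M) (hp2 : p ≠ 2)
    (h3 : p = 3 → 2 ∣ M) (h : StmtWildPtsAt hp hpM) : StmtWildFieldAt hp hpM := by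
  intro A hA K₁ _ _ _ ζ hζ π hπ σ hσI hσ a hσζ u₀ hu₀ hdiv hR hsplit
  obtain ⟨hdat₁, hdat₂⟩ := h A hA K₁ π hπ
  exact wtop_field hπ (mgdIota (mgcE A K₁)) hp hpM hA (fun h => absurd h hp2) h3 hdat₁ hdat₂ hζ
    (wtop_hlam hπ hp hA hζ.pow_eq_one) hσI hσ hσζ hu₀ hdiv hR hsplit

/-- **(T) in Kummer form at level `M p`** from the point data. -/
theorem stmtWildKummerAt_of_pts (hp : p.Prime) (hpM : ¬ p ∣ M) (hp2 : p ≠ 2)
    (h3 : p = 3 → 2 ∣ M) (h : StmtWildPtsAt hp hpM) : StmtWildKummerAt hp hpM :=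
  stmtWildKummerAt_of_field hp hpM
    (lt_of_le_of_ne hp.two_le (Ne.symm hp2)) (stmtWildFieldAt_of_pts hp hpM hp2 h3 h)

end

/-- **`StmtWildT`** from the point data at all levels `M p`, `p` odd, `p = 3 → 2 ∣ M`. -/
theorem stmtWildT_of_pts
    (h : ∀ (p M : ℕ) [NeZero p] [NeZero M] [NeZero (M * p)] (hp : p.Prime) (hpM : ¬ p ∣ M),
      p ≠ 2 → (p = 3 → 2 ∣ M) → StmtWildPtsAt hp hpM) : StmtWildT :=
  stmtWildT_of_field fun p M _ _ _ hp hpM hp2 h3 =>
    stmtWildFieldAt_of_pts hp hpM hp2 h3 (h p M hp hpM hp2 h3)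

end Fermat.Agent.S33

end
end ZBS33_007_5

/-! ### bundled: `Fermat.Agent.S33.WildPhiDeg` -/
section ZBS33_007_6

/-!
# S33 v2 / C4 / T5f-Φ — degrees of the coefficients of the modular polynomial (helper61)

`Φ = nodesSwapPhi p hp = X^{p+1} + Σ_{a ≤ p} c_a(Y) X^a ∈ ℤ[Y][X]`, `Φ(j(Q^p), j) = 0 = Φ(j, j(Q^p))`.

* `wpd_deg_pos : 1 ≤ a → (Φ.coeff a).natDegree ≤ p`, `wpd_deg_zero : (Φ.coeff 0).natDegree ≤ p + 1`
  (from the `q`-orders of the two relations only: a vanishing sum attains its minimal order twice).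
* `wpd_e_evalInt` : a monic `Ψ ∈ ℤ[Y][X]` with `Ψ(e, x) = 0` for `x = J⁻¹`, `e = Jp · x ^ p`, whenever
  `Φ(Jp, J) = 0`, `J ≠ 0` in a field.
* `wpd_e_integral` : `e = Jp · (J⁻¹) ^ p` is integral over `A[J⁻¹]` in `F = modularFunctionFieldFullC E (M * p)`.
-/

set_option autoImplicit false

noncomputable section

namespace Fermat.Agent.S33

open Polynomial ModularCurve Fermat.Agent.S28 Fermat.Agent.UNIP

/-! ### valuations of polynomial expressions -/

section Val

variable {K : Type*} [Field K] (v : AddValuation K (WithTop ℤ))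

theorem wpd_val_pow {z : K} {m : ℕ} (hz : v z = ((-(m : ℤ) : ℤ) : WithTop ℤ)) (a : ℕ) :
    v (z ^ a) = ((-((m : ℤ) * a) : ℤ) : WithTop ℤ) := by
  rw [AddValuation.map_pow, hz, wcu_nsmul_coe]
  congr 1
  ring

/-- valuation of `c(y)` for `c ∈ ℤ[Y]` nonzero, `v y = -m < 0`, `v` trivial on nonzero integers -/
theorem wpd_val_evalInt (hv : ∀ n : ℤ, n ≠ 0 → v (n : K) = 0) {y : K} {m : ℕ} (hm : 0 < m)
    (hy : v y = ((-(m : ℤ) : ℤ) : WithTop ℤ)) {c : Polynomial ℤ} (hc : c ≠ 0) :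
    v (evalInt y c) = ((-((m : ℤ) * c.natDegree) : ℤ) : WithTop ℤ) := by
  have hterm : ∀ i, c.coeff i ≠ 0 →
      v ((Int.castRingHom K) (c.coeff i) * y ^ i) = ((-((m : ℤ) * i) : ℤ) : WithTop ℤ) := by
    intro i hi
    rw [AddValuation.map_mul, eq_intCast, hv _ hi, zero_add, wpd_val_pow v hy]
  show v (Polynomial.eval₂ (Int.castRingHom K) y c) = _
  rw [Polynomial.eval₂_eq_sum_range, Finset.sum_range_succ]
  have htop := hterm c.natDegree (leadingCoeff_ne_zero.mpr hc)
  have hrest : ((-((m : ℤ) * c.natDegree) : ℤ) : WithTop ℤ) <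
      v (∑ i ∈ Finset.range c.natDegree, (Int.castRingHom K) (c.coeff i) * y ^ i) := by
    apply AddValuation.map_lt_sum v WithTop.coe_ne_top
    intro i hi
    rw [Finset.mem_range] at hi
    by_cases h0 : c.coeff i = 0
    · rw [h0, map_zero, zero_mul, AddValuation.map_zero]
      exact WithTop.coe_lt_top _
    · rw [hterm i h0]
      have h1 : (m : ℤ) * i < (m : ℤ) * c.natDegree := by
        have : (i : ℤ) < c.natDegree := by exact_mod_cast hi
        have hm' : (0 : ℤ) < m := by exact_mod_cast hm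
        exact mul_lt_mul_of_pos_left this hm'
      exact_mod_cast (by omega : -((m : ℤ) * c.natDegree) < -((m : ℤ) * i))
  rw [AddValuation.map_add_eq_of_lt_right v (by rwa [htop]), htop]

/-- valuation of a term `c(y) z^a` -/
theorem wpd_val_term (hv : ∀ n : ℤ, n ≠ 0 → v (n : K) = 0) {y z : K} {m m' : ℕ} (hm : 0 < m)
    (hy : v y = ((-(m : ℤ) : ℤ) : WithTop ℤ)) (hz : v z = ((-(m' : ℤ) : ℤ) : WithTop ℤ))
    {c : Polynomial ℤ} (hc : c ≠ 0) (a : ℕ) :
    v (evalInt y c * z ^ a) =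
      ((-(((m * c.natDegree + m' * a : ℕ) : ℤ)) : ℤ) : WithTop ℤ) := by
  rw [AddValuation.map_mul, wpd_val_evalInt v hv hm hy hc, wpd_val_pow v hz, ← WithTop.coe_add]
  congr 1
  push_cast
  ring

/-- **A vanishing sum attains its minimal order twice.** -/
theorem wpd_no_unique_max (hv : ∀ n : ℤ, n ≠ 0 → v (n : K) = 0) {y z : K} {m m' : ℕ}
    (hm : 0 < m) (hy : v y = ((-(m : ℤ) : ℤ) : WithTop ℤ))
    (hz : v z = ((-(m' : ℤ) : ℤ) : WithTop ℤ))
    (Φ : Polynomial (Polynomial ℤ)) (h : Φ.eval₂ (evalInt y) z = 0) (a₀ : ℕ)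
    (h0 : Φ.coeff a₀ ≠ 0) :
    ∃ a, a ≠ a₀ ∧ Φ.coeff a ≠ 0 ∧
      m * (Φ.coeff a₀).natDegree + m' * a₀ ≤ m * (Φ.coeff a).natDegree + m' * a := by
  by_contra hcon
  have hlt : ∀ a, a ≠ a₀ → Φ.coeff a ≠ 0 →
      m * (Φ.coeff a).natDegree + m' * a < m * (Φ.coeff a₀).natDegree + m' * a₀ := by
    intro a ha hca
    by_contra hge
    exact hcon ⟨a, ha, hca, not_lt.mp hge⟩
  have ha₀ : a₀ ∈ Finset.range (Φ.natDegree + 1) :=
    Finset.mem_range.mpr (Nat.lt_succ_of_le (Polynomial.le_natDegree_of_ne_zero h0))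
  rw [Polynomial.eval₂_eq_sum_range, ← Finset.add_sum_erase _ _ ha₀] at h
  have hv0 := wpd_val_term v hv hm hy hz h0 a₀
  have hrest : v (evalInt y (Φ.coeff a₀) * z ^ a₀) <
      v (∑ a ∈ (Finset.range (Φ.natDegree + 1)).erase a₀, evalInt y (Φ.coeff a) * z ^ a) := by
    rw [hv0]
    apply AddValuation.map_lt_sum v WithTop.coe_ne_top
    intro a ha
    have hne : a ≠ a₀ := Finset.ne_of_mem_erase ha
    by_cases hca : Φ.coeff a = 0
    · rw [hca, map_zero, zero_mul, AddValuation.map_zero]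
      exact WithTop.coe_lt_top _
    · rw [wpd_val_term v hv hm hy hz hca a]
      have := hlt a hne hca
      exact_mod_cast (by omega :
        -(((m * (Φ.coeff a₀).natDegree + m' * a₀ : ℕ) : ℤ)) <
          -(((m * (Φ.coeff a).natDegree + m' * a : ℕ) : ℤ)))
  have h2 := AddValuation.map_add_eq_of_lt_left v hrest
  rw [h, AddValuation.map_zero, hv0] at h2
  exact WithTop.coe_ne_top h2.symm

end Val

/-! ### the combinatorial core -/

section Comb

theorem wpd_aux (p : ℕ) (hp : 2 ≤ p) (D : ℕ → ℕ) (lo hi : ℕ) (hlt : lo < hi) (hhi : hi ≤ p + 1)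
    (heq : p * D lo + lo = p * D hi + hi) :
    D lo = D hi + 1 ∧ hi = lo + p := by
  have h1 : D hi < D lo := by
    by_contra h
    have h' : p * D lo ≤ p * D hi := Nat.mul_le_mul_left _ (not_lt.mp h)
    omega
  have h2 : D lo ≤ D hi + 1 := by
    by_contra h
    have h' : p * (D hi + 2) ≤ p * D lo := Nat.mul_le_mul_left _ (by omega)
    rw [mul_add] at h'
    omega
  have h3 : D lo = D hi + 1 := by omega
  refine ⟨h3, ?_⟩
  rw [h3, mul_add, mul_one] at heq
  omega

theorem wpd_comb (p : ℕ) (hp : 2 ≤ p) (D : ℕ → ℕ) (S : ℕ → Prop)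
    (hS : ∀ a, S a → a ≤ p + 1) (hS1 : S (p + 1)) (hD1 : D (p + 1) = 0)
    (H2 : ∀ a₀, S a₀ → ∃ a, a ≠ a₀ ∧ S a ∧ p * D a₀ + a₀ ≤ p * D a + a)
    (H1 : ∀ a₀, S a₀ → ∃ a, a ≠ a₀ ∧ S a ∧ D a₀ + p * a₀ ≤ D a + p * a) :
    ∀ a, S a → (1 ≤ a → D a ≤ p) ∧ D a ≤ p + 1 := by
  classical
  -- a maximizer of the weight `p D a + a`
  obtain ⟨a₀, ha₀, hmax⟩ := Finset.exists_max_image ((Finset.range (p + 2)).filter S)
    (fun a => p * D a + a) ⟨p + 1, by simp [hS1]⟩
  have hSa₀ : S a₀ := (Finset.mem_filter.mp ha₀).2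
  have hmax' : ∀ a, S a → p * D a + a ≤ p * D a₀ + a₀ := fun a ha =>
    hmax a (Finset.mem_filter.mpr ⟨Finset.mem_range.mpr (by have := hS a ha; omega), ha⟩)
  obtain ⟨a₁, hne, hSa₁, hle⟩ := H2 a₀ hSa₀
  have heq : p * D a₀ + a₀ = p * D a₁ + a₁ := le_antisymm hle (hmax' a₁ hSa₁)
  -- the two indices are `lo < hi`
  obtain ⟨lo, hi, hSlo, hShi, hlt, hW, hD⟩ : ∃ lo hi, S lo ∧ S hi ∧ lo < hi ∧
      (∀ a, S a → p * D a + a ≤ p * D hi + hi) ∧ p * D lo + lo = p * D hi + hi := by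
    rcases lt_or_gt_of_ne hne with h | h
    · exact ⟨a₁, a₀, hSa₁, hSa₀, h, hmax', heq.symm⟩
    · exact ⟨a₀, a₁, hSa₀, hSa₁, h, fun a ha => heq ▸ hmax' a ha, heq⟩
  obtain ⟨hDlo, hhi⟩ := wpd_aux p hp D lo hi hlt (hS hi hShi) hD
  have hhi' := hS hi hShi
  have hlo : lo = 0 ∨ lo = 1 := by omega
  rcases hlo with rfl | rfl
  · -- Case 0: `hi = p`, `D 0 = D p + 1`
    have hhi0 : hi = p := by omega
    subst hhi0
    have hd : D hi ≤ hi := by
      by_contra hd
      obtain ⟨a, hane, hSa, hale⟩ := H1 hi hShi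
      have ha := hS a hSa
      have hWa := hW a hSa
      rcases Nat.lt_or_ge a hi with hlt' | hge
      · rcases Nat.eq_zero_or_pos a with rfl | hpos
        · rw [hDlo] at hale
          have : hi * hi ≥ 2 * hi := Nat.mul_le_mul_right _ hp
          omega
        · have h1 : D a ≤ D hi := by
            by_contra h
            have h' : hi * (D hi + 1) ≤ hi * D a := Nat.mul_le_mul_left _ (by omega)
            rw [mul_add, mul_one] at h'
            omega
          have h2 : hi * a ≤ hi * (hi - 1) := Nat.mul_le_mul_left _ (by omega)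
          have h3 : hi * (hi - 1) + hi = hi * hi := by
            rw [← Nat.mul_succ]
            congr 1
            omega
          omega
      · have hap : a = hi + 1 := by omega
        subst hap
        rw [hD1, mul_add, mul_one] at hale
        omega
    intro a hSa
    have hWa := hW a hSa
    have h1 : hi * D hi ≤ hi * hi := Nat.mul_le_mul_left _ hd
    constructor
    · intro ha
      by_contra h
      have h' : hi * (hi + 1) ≤ hi * D a := Nat.mul_le_mul_left _ (by omega)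
      rw [mul_add, mul_one] at h'
      omega
    · by_contra h
      have h' : hi * (hi + 2) ≤ hi * D a := Nat.mul_le_mul_left _ (by omega)
      rw [mul_add] at h'
      omega
  · -- Case 1: `hi = p + 1`: impossible
    exfalso
    have hhi1 : hi = p + 1 := by omega
    subst hhi1
    rw [hD1, mul_zero, zero_add] at hW
    obtain ⟨a, hane, hSa, hale⟩ := H1 (p + 1) hShi
    have ha := hS a hSa
    have hWa := hW a hSa
    rw [hD1, zero_add] at hale
    have h1 : D a ≤ 1 := by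
      by_contra h
      have h' : p * 2 ≤ p * D a := Nat.mul_le_mul_left _ (by omega)
      omega
    have h2 : p * a ≤ p * p := Nat.mul_le_mul_left _ (by omega)
    rw [mul_add, mul_one] at hale
    omega

end Comb

/-! ### the degrees of the coefficients of `Φ` -/

section Deg

variable (p : ℕ) [NeZero p] (hp : p.Prime)

theorem wpd_val_int (n : ℤ) (hn : n ≠ 0) :
    HahnSeries.addVal ℤ ℚ ((n : LaurentSeries ℚ)) = 0 := by
  have h3 : (n : LaurentSeries ℚ) = HahnSeries.C (n : ℚ) :=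
    (map_intCast (HahnSeries.C : ℚ →+* LaurentSeries ℚ) n).symm
  have hne : (n : LaurentSeries ℚ) ≠ 0 := by
    rw [h3, Ne, map_eq_zero]
    exact_mod_cast hn
  rw [HahnSeries.addVal_apply_of_ne hne, h3, HahnSeries.order_C]
  rfl

theorem wpd_val_j :
    HahnSeries.addVal ℤ ℚ (jqModC ℚ) = ((-((1 : ℕ) : ℤ) : ℤ) : WithTop ℤ) := by
  rw [HahnSeries.addVal_apply_of_ne (Fermat.Agent.S28.jqModC_ne_zero ℚ),
    Fermat.Agent.S28.order_jqModC]
  rfl

theorem wpd_val_jp :
    HahnSeries.addVal ℤ ℚ (qExpand ℚ p (jqModC ℚ)) = ((-((p : ℕ) : ℤ) : ℤ) : WithTop ℤ) := by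
  have hne : qExpand ℚ p (jqModC ℚ) ≠ 0 :=
    Fermat.Agent.S28.qExpand_ne_zero (Fermat.Agent.S28.jqModC_ne_zero ℚ)
  rw [HahnSeries.addVal_apply_of_ne hne, Fermat.Agent.S28.order_qExpand,
    Fermat.Agent.S28.order_jqModC, mul_neg, mul_one]

/-- **Degree bound**, both parts. -/
theorem wpd_deg (a : ℕ) :
    (1 ≤ a → ((nodesSwapPhi p hp).coeff a).natDegree ≤ p) ∧
      ((nodesSwapPhi p hp).coeff a).natDegree ≤ p + 1 := by
  by_cases ha : (nodesSwapPhi p hp).coeff a = 0
  · rw [ha, natDegree_zero]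
    exact ⟨fun _ => Nat.zero_le _, Nat.zero_le _⟩
  have hmonic := nodesSwapPhi_monic p hp
  have hdeg := nodesSwapPhi_natDegree p hp
  refine wpd_comb p hp.two_le (fun a => ((nodesSwapPhi p hp).coeff a).natDegree)
    (fun a => (nodesSwapPhi p hp).coeff a ≠ 0) ?_ ?_ ?_ ?_ ?_ a ha
  · intro b hb
    rw [← hdeg]
    exact Polynomial.le_natDegree_of_ne_zero hb
  · show (nodesSwapPhi p hp).coeff (p + 1) ≠ 0
    rw [← hdeg, Polynomial.coeff_natDegree, hmonic.leadingCoeff]
    exact one_ne_zero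
  · show ((nodesSwapPhi p hp).coeff (p + 1)).natDegree = 0
    rw [← hdeg, Polynomial.coeff_natDegree, hmonic.leadingCoeff, natDegree_one]
  · intro a₀ ha₀
    obtain ⟨b, hb, hb0, hle⟩ := wpd_no_unique_max (HahnSeries.addVal ℤ ℚ) wpd_val_int
      hp.pos (wpd_val_jp p) wpd_val_j (nodesSwapPhi p hp) (nodesSwapPhi_series' p hp ℚ) a₀ ha₀
    exact ⟨b, hb, hb0, by simpa using hle⟩
  · intro a₀ ha₀
    obtain ⟨b, hb, hb0, hle⟩ := wpd_no_unique_max (HahnSeries.addVal ℤ ℚ) wpd_val_int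
      Nat.one_pos wpd_val_j (wpd_val_jp p) (nodesSwapPhi p hp) (nodesSwapPhi_series p hp ℚ) a₀ ha₀
    exact ⟨b, hb, hb0, by simpa using hle⟩

theorem wpd_deg_pos {a : ℕ} (ha : 1 ≤ a) : ((nodesSwapPhi p hp).coeff a).natDegree ≤ p :=
  (wpd_deg p hp a).1 ha

theorem wpd_deg_zero : ((nodesSwapPhi p hp).coeff 0).natDegree ≤ p + 1 :=
  (wpd_deg p hp 0).2

/-- `deg c_a ≤ p (p + 1 - a)` for `a ≤ p + 1`. -/
theorem wpd_deg_le {a : ℕ} (ha : a ≤ p + 1) :
    ((nodesSwapPhi p hp).coeff a).natDegree ≤ p * (p + 1 - a) := by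
  rcases Nat.eq_zero_or_pos a with rfl | hpos
  · refine (wpd_deg_zero p hp).trans ?_
    rw [Nat.sub_zero]
    exact Nat.le_mul_of_pos_left _ hp.pos
  · rcases Nat.lt_or_ge a (p + 1) with hlt | hge
    · refine (wpd_deg_pos p hp hpos).trans ?_
      exact Nat.le_mul_of_pos_right _ (by omega)
    · have h1 : a = p + 1 := le_antisymm ha hge
      subst h1
      rw [← nodesSwapPhi_natDegree p hp, Polynomial.coeff_natDegree,
        (nodesSwapPhi_monic p hp).leadingCoeff, natDegree_one]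
      exact Nat.zero_le _

end Deg

/-! ### integrality of `e = Jp / J ^ p` over `ℤ[1 / J]` -/

section Integral

/-- the reflected polynomial `Ψ(X, Y) = Y^{p(p+1)} Φ(X Y^{-p}, Y^{-1})` -/
def wpdPsi (p : ℕ) (Φ : Polynomial (Polynomial ℤ)) : Polynomial (Polynomial ℤ) :=
  ∑ a ∈ Finset.range (p + 2), C (reflect (p * (p + 1 - a)) (Φ.coeff a)) * X ^ a

theorem wpdPsi_monic (p : ℕ) (Φ : Polynomial (Polynomial ℤ)) (hΦ : Φ.Monic)
    (hdeg : Φ.natDegree = p + 1) : (wpdPsi p Φ).Monic := by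
  have h1 : wpdPsi p Φ = X ^ (p + 1) +
      ∑ a ∈ Finset.range (p + 1), C (reflect (p * (p + 1 - a)) (Φ.coeff a)) * X ^ a := by
    rw [wpdPsi, Finset.sum_range_succ, add_comm]
    congr 1
    rw [← hdeg, Polynomial.coeff_natDegree, hΦ.leadingCoeff, Nat.sub_self, mul_zero,
      ← Polynomial.C_1, Polynomial.reflect_C, pow_zero, mul_one, Polynomial.C_1, Polynomial.C_1,
      one_mul]
  rw [h1]
  apply Polynomial.monic_X_pow_add
  refine lt_of_le_of_lt (Polynomial.degree_le_of_natDegree_le (n := p) ?_)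
    (by exact_mod_cast Nat.lt_succ_self p)
  apply Polynomial.natDegree_sum_le_of_forall_le
  intro a ha
  exact (Polynomial.natDegree_C_mul_X_pow_le _ _).trans (Nat.le_of_lt_succ (Finset.mem_range.mp ha))

theorem wpd_evalInt_reflect {F : Type*} [Field F] {J : F} (hJ : J ≠ 0) (N : ℕ)
    (c : Polynomial ℤ) (hc : c.natDegree ≤ N) :
    evalInt J⁻¹ (reflect N c) = evalInt J c * J⁻¹ ^ N := by
  let _ : Invertible J := invertibleOfNonzero hJ
  have h := Polynomial.eval₂_reflect_mul_pow (Int.castRingHom F) J N c hc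
  rw [invOf_eq_inv] at h
  show Polynomial.eval₂ (Int.castRingHom F) J⁻¹ (reflect N c) =
    Polynomial.eval₂ (Int.castRingHom F) J c * J⁻¹ ^ N
  rw [← h, mul_assoc, ← mul_pow, mul_inv_cancel₀ hJ, one_pow, mul_one]

/-- `Ψ(e, 1/J) = 0` for `e = Jp / J ^ p`. -/
theorem wpdPsi_eval {F : Type*} [Field F] {p : ℕ} (Φ : Polynomial (Polynomial ℤ))
    (hdeg : Φ.natDegree = p + 1)
    (hc : ∀ a, a ≤ p + 1 → (Φ.coeff a).natDegree ≤ p * (p + 1 - a))
    {J Jp : F} (hJ : J ≠ 0) (h : Φ.eval₂ (evalInt J) Jp = 0) :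
    (wpdPsi p Φ).eval₂ (evalInt J⁻¹) (Jp * J⁻¹ ^ p) = 0 := by
  rw [Polynomial.eval₂_eq_sum_range, hdeg] at h
  rw [wpdPsi, Polynomial.eval₂_finsetSum]
  have hterm : ∀ a ∈ Finset.range (p + 2),
      Polynomial.eval₂ (evalInt J⁻¹) (Jp * J⁻¹ ^ p)
        (C (reflect (p * (p + 1 - a)) (Φ.coeff a)) * X ^ a) =
      J⁻¹ ^ (p * (p + 1)) * (evalInt J (Φ.coeff a) * Jp ^ a) := by
    intro a ha
    have ha' : a ≤ p + 1 := Nat.le_of_lt_succ (Finset.mem_range.mp ha)
    rw [Polynomial.eval₂_mul, Polynomial.eval₂_C, Polynomial.eval₂_pow, Polynomial.eval₂_X,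
      wpd_evalInt_reflect hJ _ _ (hc a ha'), mul_pow, ← pow_mul]
    have hN : p * (p + 1) = p * (p + 1 - a) + p * a := by
      rw [← Nat.mul_add, Nat.sub_add_cancel ha']
    rw [hN, pow_add]
    ring
  rw [Finset.sum_congr rfl hterm, ← Finset.mul_sum, h, mul_zero]

/-- **`e = Jp / J ^ p` is a root of a monic polynomial over `ℤ[1 / J]`.** -/
theorem wpd_e_evalInt (p : ℕ) [NeZero p] (hp : p.Prime) {F : Type*} [Field F] {J Jp : F}
    (hJ : J ≠ 0) (h : (nodesSwapPhi p hp).eval₂ (evalInt J) Jp = 0) :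
    ∃ Ψ : Polynomial (Polynomial ℤ), Ψ.Monic ∧ Ψ.eval₂ (evalInt J⁻¹) (Jp * J⁻¹ ^ p) = 0 :=
  ⟨wpdPsi p (nodesSwapPhi p hp),
    wpdPsi_monic p _ (nodesSwapPhi_monic p hp) (nodesSwapPhi_natDegree p hp),
    wpdPsi_eval _ (nodesSwapPhi_natDegree p hp) (fun _ ha => wpd_deg_le p hp ha) hJ h⟩

/-- abstract form: integrality of `Jp / J ^ p` over `A[1 / J]` from `Φ(Jp, J) = 0` -/
theorem wpd_e_integral_of_eval (p : ℕ) [NeZero p] (hp : p.Prime) {A F : Type*} [CommRing A]
    [Field F] [Algebra A F] {J Jp : F} (hJ : J ≠ 0)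
    (h : (nodesSwapPhi p hp).eval₂ (evalInt J) Jp = 0) :
    IsIntegral (Algebra.adjoin A {J⁻¹}) (Jp * J⁻¹ ^ p) := by
  obtain ⟨Ψ, hΨ, hev⟩ := wpd_e_evalInt p hp hJ h
  exact nodesSwap_isIntegral_of_evalInt hΨ hev

variable (p : ℕ) [NeZero p] (E : Type*) [Field E] (M : ℕ) [NeZero M] [NeZero (M * p)]

theorem wpd_J_ne_zero : nodesFrobJ E M p ≠ 0 := by
  intro h
  have h1 := congrArg Subtype.val h
  exact Fermat.Agent.S28.jqModC_ne_zero E h1

/-- **T5f-Φ**: `e = Jp · (J⁻¹) ^ p` is integral over `A[J⁻¹]` in `F_{Mp}(E)`. -/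
theorem wpd_e_integral (hp : p.Prime) {A : Type*} [CommRing A]
    [Algebra A ↥(modularFunctionFieldFullC E (M * p))] :
    IsIntegral (Algebra.adjoin A {(nodesFrobJ E M p)⁻¹})
      (nodesFrobJq E M p * (nodesFrobJ E M p)⁻¹ ^ p) :=
  wpd_e_integral_of_eval p hp (wpd_J_ne_zero p E M) (nodesSwapPhi_eval p hp E M)

end Integral

end Fermat.Agent.S33

end
end ZBS33_007_6

/-! ### bundled: `Fermat.Agent.S33.WildFrobE` -/
section ZBS33_007_7

/-!
# S33 v2 / C4 / T5f (e) — the element `e = j(Q^p) / j^p` at the cusps (helper61)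

Setting of `UNIP/MGConcrete.lean` + `UNIP/MGVertInertia.lean` with `q := p`: `E′ = mgcE A K₁`,
`A′ = mgcA A K₁` (a discrete valuation ring, uniformizer `π`), `F′ = mgcF A K₁ (M * p)`,
`t = mgcT A K₁ (M * p)` (`= j`), `V = mgvV hπ ιC hp hpM` (`true ↦ V_∞`, `false ↦ V_0`).

* `wfeE A K₁ M p = Jp · (t⁻¹) ^ p`;
* `wfe_integral` : `e` is integral over `A′[t⁻¹]` (`wpd_e_integral`);
* `wfe_sub_one_mem` : `e − 1 = (Jp − j^p) / j^p ∈ 𝔪(V_∞)` (Kronecker's congruence, `mgvl_hsep`);
* `wfe_pow_sub_mem` : `e^p − (t⁻¹)^(p² − 1) = (Jp^p − j) / j^(p²) ∈ 𝔪(V_0)` (`mgvl_hsep'`);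
* `wfe_exists` : the three together (input `(e)` of `wcp_ptData_inv`).
-/

set_option autoImplicit false
set_option linter.unusedSectionVars false

noncomputable section

namespace Fermat.Agent.S33

open ModularCurve Fermat.Agent.UNIP Fermat.Agent.AL Fermat.Agent.ES Fermat.Agent.ES.G2 Fermat.Agent.INJ

section Concrete

variable (A : ValuationSubring Qb) (K₁ : IntermediateField ℚ Qb) (M p : ℕ)
  [NeZero M] [NeZero p] [NeZero (M * p)]

/-- `t = j` is `nodesFrobJ`. -/
theorem wfe_T_eq : mgcT A K₁ (M * p) = nodesFrobJ ↥(mgcE A K₁) M p := Subtype.ext rfl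

/-- `e = j(Q^p) · (1 / j) ^ p ∈ F′` -/
def wfeE : ↥(mgcF A K₁ (M * p)) :=
  nodesFrobJq ↥(mgcE A K₁) M p * (mgcT A K₁ (M * p))⁻¹ ^ p

theorem wfe_T_ne_zero : mgcT A K₁ (M * p) ≠ 0 := by
  rw [wfe_T_eq]
  exact wpd_J_ne_zero p ↥(mgcE A K₁) M

variable {A K₁ M p}

/-- `e` is integral over `A′[1 / j]`. -/
theorem wfe_integral (hp : p.Prime) :
    IsIntegral ↥(Algebra.adjoin ↥(mgcA A K₁)
      ({(mgcT A K₁ (M * p))⁻¹} : Set ↥(mgcF A K₁ (M * p)))) (wfeE A K₁ M p) := by
  rw [wfeE, wfe_T_eq]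
  exact wpd_e_integral p ↥(mgcE A K₁) M hp

/-- `e − 1 = c / j^p`, `c = j(Q^p) − j^p`. -/
theorem wfe_sub_one_eq :
    wfeE A K₁ M p - 1 = (mgcT A K₁ (M * p))⁻¹ ^ p * nodesFrobC ↥(mgcE A K₁) M p := by
  have h0 := wfe_T_ne_zero A K₁ M p
  have h1 : (mgcT A K₁ (M * p))⁻¹ ^ p * mgcT A K₁ (M * p) ^ p = 1 := by
    rw [← mul_pow, inv_mul_cancel₀ h0, one_pow]
  rw [wfeE, nodesFrobC, ← wfe_T_eq]
  linear_combination h1

/-- `e^p − (1/j)^(p² − 1) = −(1/j)^(p²) · w c`, `w c = j − j(Q^p)^p`. -/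
theorem wfe_pow_sub_eq (hp1 : 1 ≤ p) :
    wfeE A K₁ M p ^ p - (mgcT A K₁ (M * p))⁻¹ ^ (p ^ 2 - 1) =
      -((mgcT A K₁ (M * p))⁻¹ ^ (p ^ 2)) *
        (nodesFrobJ ↥(mgcE A K₁) M p - nodesFrobJq ↥(mgcE A K₁) M p ^ p) := by
  have h0 := wfe_T_ne_zero A K₁ M p
  have hp2 : p ^ 2 = (p ^ 2 - 1) + 1 := (Nat.sub_add_cancel (Nat.one_le_pow _ _ hp1)).symm
  have h1 : (mgcT A K₁ (M * p))⁻¹ ^ (p ^ 2 - 1) =
      (mgcT A K₁ (M * p))⁻¹ ^ (p ^ 2) * mgcT A K₁ (M * p) := by
    conv_rhs => rw [hp2, pow_succ, mul_assoc, inv_mul_cancel₀ h0, mul_one]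
  rw [h1, wfeE, ← wfe_T_eq, mul_pow, ← pow_mul, ← sq]
  ring

variable [IsDiscreteValuationRing ↥(mgcA A K₁)] {π : ↥(mgcA A K₁)} (hπ : Irreducible π)
  (ιC : ↥(mgcE A K₁) →+* ℂ) (hp : p.Prime) (hpM : ¬ p ∣ M)

/-- `1 / j ∈ V c` -/
theorem wfe_T_inv_mem (c : Bool) : (mgcT A K₁ (M * p))⁻¹ ∈ mgvV hπ ιC hp hpM c :=
  mgv_T_inv_mem hπ ιC hp hpM c

/-- **`e − 1 ∈ 𝔪(V_∞)`** -/
theorem wfe_sub_one_mem (hA : A.LiesOverPrime p) :
    wfeE A K₁ M p - 1 ∈ (mgvV hπ ιC hp hpM true).nonunits := by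
  rw [wfe_sub_one_eq]
  exact vt_mul_mem_nonunits _ (pow_mem (wfe_T_inv_mem hπ ιC hp hpM true) p)
    (mgvl_hsep hπ ιC hp hpM hA).1

/-- **`e^p − (1/j)^(p² − 1) ∈ 𝔪(V_0)`** -/
theorem wfe_pow_sub_mem (hA : A.LiesOverPrime p) :
    wfeE A K₁ M p ^ p - (mgcT A K₁ (M * p))⁻¹ ^ (p ^ 2 - 1) ∈
      (mgvV hπ ιC hp hpM false).nonunits := by
  rw [wfe_pow_sub_eq hp.one_le]
  have h1 := (mgvl_hsep' hπ ιC hp hpM hA).1
  rw [nodesFrob_atkinLehner_C] at h1
  exact vt_mul_mem_nonunits _ (neg_mem (pow_mem (wfe_T_inv_mem hπ ιC hp hpM false) (p ^ 2))) h1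

/-- **(e)**: the element `e` of `wcp_ptData_inv` in the modular setting. -/
theorem wfe_exists (hA : A.LiesOverPrime p) :
    ∃ e : ↥(mgcF A K₁ (M * p)),
      IsIntegral ↥(Algebra.adjoin ↥(mgcA A K₁)
        ({(mgcT A K₁ (M * p))⁻¹} : Set ↥(mgcF A K₁ (M * p)))) e ∧
      e - 1 ∈ (mgvV hπ ιC hp hpM true).nonunits ∧
      e ^ p - (mgcT A K₁ (M * p))⁻¹ ^ (p ^ 2 - 1) ∈ (mgvV hπ ιC hp hpM false).nonunits :=
  ⟨wfeE A K₁ M p, wfe_integral hp, wfe_sub_one_mem hπ ιC hp hpM hA,
    wfe_pow_sub_mem hπ ιC hp hpM hA⟩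

/-- the exponent `m = p² − 1` is not zero -/
theorem wfe_exp_ne_zero (hp : p.Prime) : p ^ 2 - 1 ≠ 0 := by
  have h2 := hp.two_le
  have : 4 ≤ p ^ 2 := by nlinarith
  omega

end Concrete

end Fermat.Agent.S33

end
end ZBS33_007_7

/-! ### bundled: `Fermat.Agent.S33.WildPtsFinal` -/
section ZBS33_007_8

/-!
# S33 v2, C4 (WILD), T5f-mod: the point data of `wht_main`, UNCONDITIONAL

* `wpt_unit`  : `WptUnit hπ ιC hp hpM`  (helper28's `wun_exists`, `U = s36tuU`, `N = 12`);
* `wpt_frobE` : `WptFrobE hπ ιC hp hpM` (helper61's `wfe_exists`, `e = j_p / j ^ p`);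
* `wpt_pts₁`, `wpt_pts₂` : `WhtPtData (mgvV hπ ιC hp hpM) true false 𝔫` at every closed point of
  the charts `j`, `1 / j` = the hypotheses `hdat₁`, `hdat₂` of `wht_main` / `wtop_field`.
-/

set_option autoImplicit false
set_option linter.style.haveILetI false
set_option linter.unusedSectionVars false
set_option linter.unusedVariables false

noncomputable section

namespace Fermat.Agent.S33

open ModularCurve AlgebraicCurve Fermat.Agent.ES Fermat.Agent.ES.G2 Fermat.Agent.INJ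
  Fermat.Agent.UNIP Fermat.Agent.STB Fermat.Agent.AL
open IntermediateField Polynomial

section PtsFinal

variable {A : ValuationSubring Qb} (K₁ : IntermediateField ℚ Qb)
  {M p : ℕ} [NeZero M] [NeZero p] [NeZero (M * p)]
  [IsDiscreteValuationRing ↥(mgcA A K₁)]

/-- the modular tube-unit exists -/
theorem wpt_unit (hp : p.Prime) (hpM : ¬ p ∣ M) (hA : A.LiesOverPrime p)
    {π : ↥(mgcA A K₁)} (hπ : Irreducible π) (ιC : ↥(mgcE A K₁) →+* ℂ) :
    WptUnit hπ ιC hp hpM := by
  obtain ⟨U, V', h1, h2, h3, h4, h5⟩ := wun_exists (K₁ := K₁) hπ ιC hp hpM hA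
  exact ⟨U, V', 12, h1, h2, h3, h4, h5⟩

/-- the separating function at the cusps exists -/
theorem wpt_frobE (hp : p.Prime) (hpM : ¬ p ∣ M) (hA : A.LiesOverPrime p)
    {π : ↥(mgcA A K₁)} (hπ : Irreducible π) (ιC : ↥(mgcE A K₁) →+* ℂ) :
    WptFrobE hπ ιC hp hpM := by
  obtain ⟨e, h1, h2, h3⟩ := wfe_exists (K₁ := K₁) hπ ιC hp hpM hA
  exact ⟨e, p, p ^ 2 - 1, wfe_exp_ne_zero hp, h1, h2, h3⟩

variable [NumberField K₁] [IsGalois ℚ K₁]

/-- **`hdat₁` of `wht_main` / `wtop_field`, unconditional.** -/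
theorem wpt_pts₁ (hp : p.Prime) (hpM : ¬ p ∣ M) (hA : A.LiesOverPrime p)
    (h2 : p = 2 → 3 ∣ M) (h3 : p = 3 → 2 ∣ M)
    {π : ↥(mgcA A K₁)} (hπ : Irreducible π) (ιC : ↥(mgcE A K₁) →+* ℂ) :
    ∀ 𝔫 : AtPt (F := ↥(mgcF A K₁ (M * p))) π (mgcT A K₁ (M * p)),
      WhtPtData (mgvV hπ ιC hp hpM) true false 𝔫 :=
  wpt_hdat₁ K₁ hp hpM hA h2 h3 hπ ιC (wpt_unit K₁ hp hpM hA hπ ιC)

/-- **`hdat₂` of `wht_main` / `wtop_field`, unconditional.** -/
theorem wpt_pts₂ (hp : p.Prime) (hpM : ¬ p ∣ M) (hA : A.LiesOverPrime p)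
    (h2 : p = 2 → 3 ∣ M) (h3 : p = 3 → 2 ∣ M)
    {π : ↥(mgcA A K₁)} (hπ : Irreducible π) (ιC : ↥(mgcE A K₁) →+* ℂ) :
    ∀ 𝔫 : AtPt (F := ↥(mgcF A K₁ (M * p))) π (mgcT A K₁ (M * p))⁻¹,
      WhtPtData (mgvV hπ ιC hp hpM) true false 𝔫 :=
  wpt_hdat₂ K₁ hp hpM hA h2 h3 hπ ιC (wpt_unit K₁ hp hpM hA hπ ιC)
    (wpt_frobE K₁ hp hpM hA hπ ιC)

end PtsFinal

end Fermat.Agent.S33

end
end ZBS33_007_8

/-! ### bundled: `Fermat.Agent.S33.WildKummerFinal` -/
section ZBS33_007_9

/-!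
# S33 v2, C4 (WILD): the Kummer form, unconditional

* `stmtWildFieldAt` : (T) at `E′`-level at the levels `M p`, `p` odd, `p ∤ M`, `p = 3 → 2 ∣ M`;
* `stmtWildKummerAux : StmtWildKummerAux`, `stmtWildKummer : StmtWildKummer` — **(C4) in Kummer
  form**: for `A ∣ p`, `σ` in the inertia group of `A` acting on `μ_p` through `ζ ↦ ζ ^ a`, and
  `u ∈ F_{Mp}(ℚ̄)^×` with `p ∣ div u`, split at `A`: `σ u / u ^ a` is a `p`-th power.

(The statement `stmtWildT : StmtWildT` for classes is in `S33/WildFinal.lean`.)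
-/

set_option autoImplicit false

noncomputable section

namespace Fermat.Agent.S33

open Fermat.Agent.UNIP

/-- **(T) at `E′`-level**, unconditional. -/
theorem stmtWildFieldAt {p M : ℕ} [NeZero p] [NeZero M] [NeZero (M * p)] (hp : p.Prime)
    (hpM : ¬ p ∣ M) (hp2 : p ≠ 2) (h3 : p = 3 → 2 ∣ M) : StmtWildFieldAt hp hpM :=
  stmtWildFieldAt_of_pts hp hpM hp2 h3 fun A hA K₁ _ _ _ _ hπ =>
    ⟨wpt_pts₁ K₁ hp hpM hA (fun h => absurd h hp2) h3 hπ (mgdIota (mgcE A K₁)),
      wpt_pts₂ K₁ hp hpM hA (fun h => absurd h hp2) h3 hπ (mgdIota (mgcE A K₁))⟩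

/-- **(C4) in Kummer form** at the levels with a base line. -/
theorem stmtWildKummerAux : StmtWildKummerAux :=
  stmtWildKummerAux_of_field fun _ _ _ _ _ hp hpM hp2 h3 => stmtWildFieldAt hp hpM hp2 h3

/-- **(C4) in Kummer form**, all levels `M p`, `p` odd, `p ∤ M`. -/
theorem stmtWildKummer : StmtWildKummer :=
  stmtWildKummer_of_aux stmtWildKummerAux

end Fermat.Agent.S33

end
end ZBS33_007_9

/-! ### bundled: `Fermat.Agent.R38.S44Tres` -/
section ZBS33_007_10
/-
ROW 38, target S44 (helper44): the LAST open input.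

`S33.stmtWildKummer` (S33 block C4, landed) and `stmtEpmFrey` (EPEU-MULT, landed) are plugged
into the top wiring `s44_of` (`R38/S44Of.lean`):

* `stmtTresT0 : StmtTresT0`            (TRES-T0, unconditional);
* `stmtToricP' : StmtToricP`           is inside `s44_of`;
* `s44_of_tres : StmtTresTriv → RIB.StmtP` — S44 (and the input `StmtP` of row 37) from TRES-TRIV.
-/

set_option autoImplicit false

namespace Fermat.Agent.R38

/-- **TRES-T0**, unconditional. -/
theorem stmtTresT0 : StmtTresT0 :=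
  stmtTresT0_of Fermat.Agent.S33.stmtWildKummer

/-- **Row 38 (S44 form) from TRES-TRIV alone.** -/
theorem s44_of_tres (hTriv : StmtTresTriv) : Fermat.Agent.RIB.StmtP :=
  s44_of Fermat.Agent.S33.stmtWildKummer hTriv stmtEpmFrey

end Fermat.Agent.R38


end ZBS33_007_10
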