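/- GENERATED FILE (helper35, build-time optimisation, NOTES/ZB.md): verbatim concatenation of the modules
   Fermat.Agent.S33.WildFinal
   Do not edit; do not import together with these modules. -/
import Fermat.Agent.ZB.S33_007

/-! ### bundled: `Fermat.Agent.S33.WildFinal` -/
section ZBS33_012_0

/-!
# S33 v2, C4 (WILD): the final wiring — `stmtWildT : StmtWildT`

`stmtWildT_of_pts` (helper90: `wtop_field` = `wht_main` in the `mgc` setting; helper39: descent
to `ℚ̄`; helper92: pull-back for `p = 3`, `2 ∤ M`; helper33: top) applied to the point data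
`wpt_pts₁`, `wpt_pts₂` (helper29, with the tube-unit of helper28 and the separating function of
helper61).
-/

set_option autoImplicit false

noncomputable section

namespace Fermat.Agent.S33

open Fermat.Agent.UNIP

/-- **C3 + C4 of S33 v2**: the inertia group at `p` acts through the cyclotomic character on the
new part of exponent `p` of the inertia span of `J₀(M p)[pⁿ]`. -/
theorem stmtWildT : StmtWildT :=
  stmtWildT_of_pts fun p M _ _ _ hp hpM hp2 h3 A hA K₁ _ _ _ π hπ =>
    ⟨wpt_pts₁ K₁ hp hpM hA (fun h => absurd h hp2) h3 hπ (mgdIota (mgcE A K₁)),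
      wpt_pts₂ K₁ hp hpM hA (fun h => absurd h hp2) h3 hπ (mgdIota (mgcE A K₁))⟩

end Fermat.Agent.S33

end
end ZBS33_012_0
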