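/- GENERATED FILE (helper35, build-time optimisation, NOTES/ZB.md): verbatim concatenation of the modules
   Fermat.Agent.S34.Final
   Fermat.Agent.S34.OfInputs
   Do not edit; do not import together with these modules. -/
import Fermat.Agent.ZB.S53_001
import Fermat.Agent.ZB.Cheb_002
import Mathlib
import Fermat.Agent.ZB.ES_005
import Fermat.Agent.ZB.Z2UNIP_001

/-! ### bundled: `Fermat.Agent.S34.Final` -/
section ZBZ4S34_001_0

/-!
# S34 from the faithful `p`-adic Eichler–Shimura package with unipotent inertia alone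

Weak Chebotarev is proved (`Fermat.Agent.Cheb.weakChebotarev_holds`), so S34 needs only
`ESPkgUnip N p`.
-/

set_option autoImplicit false

namespace Fermat.Agent.S34

variable {p : ℕ} {N : ℕ} [NeZero N] {S : Finset ℕ}
  {𝒪 : Type} [CommRing 𝒪] [IsDomain 𝒪] [IsDiscreteValuationRing 𝒪]
  [IsAdicComplete (IsLocalRing.maximalIdeal 𝒪) 𝒪]
  {θ : CuspForm.heckeAlgebra N 2 (↑S : Set ℕ) →+* IsLocalRing.ResidueField 𝒪}
  {T : Type} [CommRing T] [IsLocalRing T] [IsNoetherianRing T]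
  [IsAdicComplete (IsLocalRing.maximalIdeal T) T] [Algebra 𝒪 T] [IsLocalHom (algebraMap 𝒪 T)]
  [Module.Finite 𝒪 T] [Module.Free 𝒪 T]

/-- **S34 from the package.** -/
theorem unipotent_of_esPkgUnip (hpkg : ESPkgUnip N p) (hp : p.Prime)
    (hp𝒪 : (p : 𝒪) ∈ IsLocalRing.maximalIdeal 𝒪) (hpS : p ∈ S)
    (hNS : ∀ q : ℕ, q.Prime → q ∣ N → q ∈ S)
    (H : CuspForm.HeckeGaloisRepDatum N (↑S : Set ℕ) 𝒪 θ T)
    (q : ℕ) (hq : q.Prime) (hqp : q ≠ p) (hqN : q ∣ N) (hq2 : ¬ q ^ 2 ∣ N) :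
    H.ρ.IsUnipotentOnInertiaAt q :=
  unipotent_of_pkg Fermat.Agent.Cheb.weakChebotarev_holds hpkg hp hp𝒪 hpS hNS H q hq hqp hqN hq2

end Fermat.Agent.S34


end ZBZ4S34_001_0

/-! ### bundled: `Fermat.Agent.S34.OfInputs` -/
section ZBZ4S34_001_1

/-!
# S34 from the remaining inputs of the Eichler–Shimura mountain (helper31)

* `esUnip_pDiv` : the clause `ESUnip N p` for `J₀(N)(ℚ̄)` gives the clause for the `p`-divisible
  torsion `PDiv N p` (on which the faithful `p`-adic package lives, `ES/TopFaith.lean`);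
* `esPkgUnip_of_inputs` : `ESPkgUnip N p` from `INJ.StmtINJAll` (G2), `TorsionUnif N p` (G1) and
  `ESUnip N p (JZero N)`;
* `s34_of_inputs` : S34 (frozen type) from `INJ.StmtINJAll`, `TorsionUnif N p` and
  `UNIP.StmtUnipKummer`.
-/

set_option autoImplicit false
set_option linter.style.haveILetI false

namespace Fermat.Agent.S34

open Fermat.Agent.ES ModularCurve IsLocalRing CuspForm CuspForm.HeckeGaloisRepDatum

section Pkg

variable {N p : ℕ} [NeZero N]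

theorem esUnip_pDiv (h : ESUnip N p (JZero N)) :
    letI := pDivGalois N p
    ESUnip N p (PDiv N p) := by
  letI := pDivGalois N p
  intro q hq hqp hqN hq2 P hP σ hσ x _
  exact Subtype.ext (h q hq hqp hqN hq2 P hP σ hσ x x.2.1)

theorem esPkgUnip_of_inputs (hINJ : Fermat.Agent.INJ.StmtINJAll) (hp : p.Prime)
    (hUT : TorsionUnif N p) (hU : ESUnip N p (JZero N)) : ESPkgUnip N p := by
  haveI : Fact p.Prime := ⟨hp⟩
  obtain ⟨μ, h⟩ := hUT
  have hm := multData_of_torsionUnifData hp.ne_zero h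
  exact ⟨PDiv N p, inferInstance, pDivModule N p, pDivGalois N p,
    hm.esDataInf (stmtFiniteLevel N p hp.ne_zero)
      (Fermat.Agent.ES.G2.stmtFrob_of_stmtINJAll hINJ N p)
      (Fermat.Agent.ES.G2.stmtUnram_of_stmtINJAll hINJ N p),
    hm.esFaith hp.ne_zero, esUnip_pDiv hU⟩

end Pkg

theorem s34_of_inputs (hINJ : Fermat.Agent.INJ.StmtINJAll)
    (hUK : Fermat.Agent.UNIP.StmtUnipKummer)
    {𝒪 : Type} [CommRing 𝒪] [IsDomain 𝒪] [IsDiscreteValuationRing 𝒪]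
    [IsAdicComplete (maximalIdeal 𝒪) 𝒪] [Finite (ResidueField 𝒪)] [CharZero 𝒪]
    {p : ℕ} (hp : p.Prime) (hp𝒪 : (p : 𝒪) ∈ maximalIdeal 𝒪)
    {N : ℕ} [NeZero N] (hUT : TorsionUnif N p)
    {S : Finset ℕ} (hpS : p ∈ S) (hNS : ∀ q : ℕ, q.Prime → q ∣ N → q ∈ S)
    {θ : CuspForm.heckeAlgebra N 2 (↑S : Set ℕ) →+* ResidueField 𝒪}
    {T : Type} [CommRing T] [IsLocalRing T] [IsNoetherianRing T]
    [IsAdicComplete (maximalIdeal T) T] [Algebra 𝒪 T] [IsLocalHom (algebraMap 𝒪 T)]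
    [Module.Finite 𝒪 T] [Module.Free 𝒪 T]
    (H : CuspForm.HeckeGaloisRepDatum N (↑S : Set ℕ) 𝒪 θ T)
    (q : ℕ) (hq : q.Prime) (hqp : q ≠ p) (hqN : q ∣ N) (hq2 : ¬ q ^ 2 ∣ N) :
    H.ρ.IsUnipotentOnInertiaAt q :=
  unipotent_of_esPkgUnip
    (esPkgUnip_of_inputs hINJ hp hUT (Fermat.Agent.UNIP.esUnip_of_stmtUnipKummer hUK N p hp))
    hp hp𝒪 hpS hNS H q hq hqp hqN hq2

end Fermat.Agent.S34


end ZBZ4S34_001_1
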