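/- GENERATED FILE (helper35, build-time optimisation, NOTES/ZB.md): verbatim concatenation of the modules
   Fermat.Agent.STB.FrobRat
   Fermat.Agent.STB.CrossFrob
   Fermat.Agent.RIB.MP.FrobFac
   Fermat.Agent.STB.MGFrob
   Fermat.Agent.STB.MGFrobJ
   Do not edit; do not import together with these modules. -/
import Mathlib
import Fermat.Agent.ZB.UNIP_012
import Fermat.Agent.ZB.STB_003
import Fermat.Agent.ZB.STB_004
import Fermat.Agent.ZB.UNIP_007
import Fermat.Agent.ZB.RED_001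

/-! ### bundled: `Fermat.Agent.STB.FrobRat` -/
section ZBSTB_008_0

/-!
# STB-X (`FrobFix`), part 2c: the closed points of the special fibre are rational

`R` a local ring with algebraically closed residue field (e.g. `A′ = A ∩ E′`,
`stb_isAlgClosed_residue`), `F` an `R`-algebra (a field), `S ⊆ F` a subalgebra which is integral
over `R[u]` (a chart, `S = zchClosure {u}`), `𝔫` a maximal ideal of `S` containing `𝔪_R`.
Then `S ⧸ 𝔫` is the residue field of `R`:

* `stb_rational` : `∀ b : S, ∃ a : R, b - algebraMap R S a ∈ 𝔫`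
  (the hypothesis `hrat` of `stb_cross_hfrobB`).

Proof: `S ⧸ 𝔫` is a field, integral over the image of `κ[X]` (`X ↦ u`), hence the kernel of
`κ[X] → S ⧸ 𝔫` is maximal, and `κ → κ[X] ⧸ P` is integral (Zariski's lemma,
`Polynomial.quotient_mk_comp_C_isIntegral_of_isJacobsonRing`); `κ` is algebraically closed.
-/

set_option autoImplicit false
set_option linter.style.haveILetI false
set_option linter.unusedSectionVars false

namespace Fermat.Agent.STB

open Polynomial Fermat.Agent.UNIP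

variable {R F : Type*} [CommRing R] [IsLocalRing R] [Field F] [Algebra R F]

/-- **The closed points of the special fibre of a chart are rational** over a base with
algebraically closed residue field. -/
theorem stb_rational [IsAlgClosed (IsLocalRing.ResidueField R)] (S : Subalgebra R F) {u : F}
    (hu : u ∈ S) (hS : ∀ b ∈ S, IsIntegral (Algebra.adjoin R {u}) b)
    (𝔫 : Ideal S) [h𝔫 : 𝔫.IsMaximal]
    (h𝔪 : ∀ a ∈ IsLocalRing.maximalIdeal R, algebraMap R S a ∈ 𝔫) (b : S) :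
    ∃ a : R, b - algebraMap R S a ∈ 𝔫 := by
  letI : Field (S ⧸ 𝔫) := Ideal.Quotient.field 𝔫
  set f : R →+* S ⧸ 𝔫 := (Ideal.Quotient.mk 𝔫).comp (algebraMap R S) with hf
  -- `f` factors through the residue field
  set g : IsLocalRing.ResidueField R →+* S ⧸ 𝔫 :=
    Ideal.Quotient.lift (IsLocalRing.maximalIdeal R) f (fun a ha => by
      rw [hf, RingHom.comp_apply]
      exact Ideal.Quotient.eq_zero_iff_mem.mpr (h𝔪 a ha)) with hg
  have hgf : ∀ a : R, g (IsLocalRing.residue R a) = f a := fun a => rfl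
  set uS : S := ⟨u, hu⟩ with huS
  set ev : (IsLocalRing.ResidueField R)[X] →+* S ⧸ 𝔫 :=
    Polynomial.eval₂RingHom g (Ideal.Quotient.mk 𝔫 uS) with hev
  -- the two maps `R[X] → S ⧸ 𝔫` agree
  have hcomp : ev.comp (Polynomial.mapRingHom (IsLocalRing.residue R)) =
      (Ideal.Quotient.mk 𝔫).comp ((aeval uS : R[X] →ₐ[R] S) : R[X] →+* S) := by
    apply Polynomial.ringHom_ext
    · intro a
      simp only [RingHom.comp_apply, Polynomial.coe_mapRingHom, Polynomial.map_C, hev,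
        Polynomial.coe_eval₂RingHom, Polynomial.eval₂_C, hgf, hf, RingHom.coe_coe,
        Polynomial.aeval_C]
    · simp only [RingHom.comp_apply, Polynomial.coe_mapRingHom, Polynomial.map_X, hev,
        Polynomial.coe_eval₂RingHom, Polynomial.eval₂_X, RingHom.coe_coe, Polynomial.aeval_X]
  -- `ev` is integral
  have hint : ev.IsIntegral := by
    intro x
    obtain ⟨c, rfl⟩ := Ideal.Quotient.mk_surjective x
    obtain ⟨p, hp, hpc⟩ := (cusp_isIntegral_adjoin_iff (A := R) u (c : F)).mp (hS c c.2)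
    refine ⟨p.map (Polynomial.mapRingHom (IsLocalRing.residue R)), hp.map _, ?_⟩
    rw [Polynomial.eval₂_map, hcomp, ← Polynomial.hom_eval₂]
    have h0 : p.eval₂ ((aeval uS : R[X] →ₐ[R] S) : R[X] →+* S) c = 0 := by
      apply Subtype.val_injective
      have h1 := Polynomial.hom_eval₂ p ((aeval uS : R[X] →ₐ[R] S) : R[X] →+* S)
        (S.val : S →+* F) c
      have h2 : (S.val : S →+* F).comp ((aeval uS : R[X] →ₐ[R] S) : R[X] →+* S) =
          ((aeval u : R[X] →ₐ[R] F) : R[X] →+* F) := by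
        apply Polynomial.ringHom_ext
        · intro a
          simp
        · simp [huS]
      rw [h2] at h1
      have h3 : (S.val : S →+* F) c = (c : F) := rfl
      rw [h3, hpc] at h1
      rw [ZeroMemClass.coe_zero]
      exact h1
    rw [h0, map_zero]
  -- the kernel of `ev` is maximal
  haveI hmax : (RingHom.ker ev).IsMaximal := by
    rw [RingHom.ker_eq_comap_bot]
    haveI : (⊥ : Ideal (S ⧸ 𝔫)).IsMaximal := Ideal.bot_isMaximal
    exact Ideal.isMaximal_comap_of_isIntegral_of_isMaximal' ev hint ⊥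
  have hJ := Polynomial.quotient_mk_comp_C_isIntegral_of_isJacobsonRing (RingHom.ker ev)
  have hlift : (RingHom.kerLift ev).IsIntegral := by
    have h1 : ((RingHom.kerLift ev).comp (Ideal.Quotient.mk (RingHom.ker ev))).IsIntegral := by
      have : (RingHom.kerLift ev).comp (Ideal.Quotient.mk (RingHom.ker ev)) = ev := by
        ext x <;> simp [RingHom.kerLift_mk]
      rw [this]
      exact hint
    exact RingHom.IsIntegral.tower_top _ _ h1
  have hgint : g.IsIntegral := by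
    have h1 := hJ.trans _ _ hlift
    have h2 : (RingHom.kerLift ev).comp ((Ideal.Quotient.mk (RingHom.ker ev)).comp C) = g := by
      ext x
      simp [RingHom.kerLift_mk, hev]
    rw [h2] at h1
    exact h1
  obtain ⟨x, hx⟩ := (IsAlgClosed.ringHom_bijective_of_isIntegral g hgint).2
    (Ideal.Quotient.mk 𝔫 b)
  obtain ⟨a, rfl⟩ := IsLocalRing.residue_surjective x
  refine ⟨a, ?_⟩
  rw [← Ideal.Quotient.eq_zero_iff_mem, map_sub, ← hx, hgf, hf, RingHom.comp_apply, sub_self]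

end Fermat.Agent.STB


end ZBSTB_008_0

/-! ### bundled: `Fermat.Agent.STB.CrossFrob` -/
section ZBSTB_008_1

/-!
# STB-C3 — `StbCrossFrob` at a crossing point from `StbFrobVal` (STB-X)

`stb_cf_crossFrob` : the Frobenius hypotheses `StbCrossFrob g (q ^ 2) 𝔫` of `stb_mt_hpts` /
`stb_main_two` at a crossing point `𝔫` of the chart `u`, from

* `h : StbFrobVal (zchClosure {u}).toSubring V₁ V₂ w Ψ q` (helper45, `STB/FrobPoint.lean`),
* `g • x = Ψ (Ψ x)`,
* the Frobenius congruence on the base `Ψ a = a ^ q + π c` (`stb_frob_congr_ring`),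
* the residue field of the base is algebraically closed (`stb_isAlgClosed_residue`).
-/

set_option autoImplicit false
set_option linter.style.haveILetI false
set_option linter.unusedSectionVars false
set_option linter.unusedVariables false

namespace Fermat.Agent.STB

open Polynomial IntermediateField Fermat.Agent.INJ AlgebraicCurve Fermat.Agent.UNIP

section CrossFrob

variable {A₀ E F : Type*} [CommRing A₀] [IsDomain A₀] [IsDiscreteValuationRing A₀]
  [Field E] [Algebra A₀ E] [IsFractionRing A₀ E] [CharZero E]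
  [Field F] [Algebra E F] [Algebra A₀ F] [IsScalarTower A₀ E F]
  {π : A₀}

/-- the closed points of the special fibre of the chart `u` are rational over the base -/
theorem stb_cf_rational [IsAlgClosed (IsLocalRing.ResidueField A₀)] (hπ : Irreducible π)
    {u : F} (𝔫 : AtPt (F := F) π u) (b : ↥(zchClosure (A₀ := A₀) ({u} : Set F))) :
    ∃ a : A₀, b - algebraMap A₀ ↥(zchClosure (A₀ := A₀) ({u} : Set F)) a ∈ 𝔫.1 := by
  haveI := 𝔫.2.1
  refine stb_rational (zchClosure (A₀ := A₀) ({u} : Set F)) (u := u) ?_ ?_ 𝔫.1 ?_ b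
  · exact mem_zchClosure.mpr (isIntegral_algebraMap (R := ↥(Algebra.adjoin A₀ ({u} : Set F)))
      (x := ⟨u, Algebra.subset_adjoin (Set.mem_singleton u)⟩))
  · exact fun b hb => mem_zchClosure.mp hb
  · intro a ha
    rw [hπ.maximalIdeal_eq, Ideal.mem_span_singleton] at ha
    obtain ⟨c, rfl⟩ := ha
    rw [map_mul]
    exact Ideal.mul_mem_right _ _ 𝔫.2.2

/-- **STB-C3.**  `StbCrossFrob g (q ^ 2) 𝔫` at a crossing point from `StbFrobVal`. -/
theorem stb_cf_crossFrob [IsAlgClosed (IsLocalRing.ResidueField A₀)] (hπ : Irreducible π)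
    {u : F} (V₁ V₂ : ValuationSubring F) (w Ψ : F ≃+* F) (q : ℕ) (hq : q ≠ 0)
    (h : StbFrobVal (zchClosure (A₀ := A₀) ({u} : Set F)).toSubring V₁ V₂ w Ψ q)
    (g : SemilinearAut E F) (hg : ∀ x : F, g • x = Ψ (Ψ x))
    (hΨR : ∀ a : A₀, ∃ c : A₀, Ψ (algebraMap A₀ F a) = algebraMap A₀ F (a ^ q + π * c))
    (𝔫 : AtPt (F := F) π u) (hc₁ : atThrough 𝔫 V₁) (hc₂ : atThrough 𝔫 V₂) :
    StbCrossFrob g (q ^ 2) 𝔫 := by
  haveI := 𝔫.2.1.isPrime
  have hg' : ∀ x : F, g⁻¹ • x = Ψ.symm (Ψ.symm x) := by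
    intro x
    have h1 : g • (Ψ.symm (Ψ.symm x)) = x := by
      rw [hg, RingEquiv.apply_symm_apply, RingEquiv.apply_symm_apply]
    calc g⁻¹ • x = g⁻¹ • (g • (Ψ.symm (Ψ.symm x))) := by rw [h1]
      _ = Ψ.symm (Ψ.symm x) := inv_smul_smul _ _
  refine ⟨fun b hb => ?_, fun b hb => ?_, fun b => ?_⟩
  · obtain ⟨b', hb', e⟩ := stb_cross_hgB h hq 𝔫.1 hc₁ hc₂ b hb
    exact ⟨b', hb', by rw [hg]; exact e⟩
  · obtain ⟨b', hb', e⟩ := stb_cross_hgB' h hq 𝔫.1 hc₁ hc₂ b hb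
    exact ⟨b', hb', by rw [hg']; exact e⟩
  · obtain ⟨c, hc, e⟩ := stb_cross_hfrobB h hq 𝔫.1 hc₁ hc₂ π 𝔫.2.2 hΨR
      (stb_cf_rational hπ 𝔫) b
    exact ⟨c, hc, by rw [hg]; exact e⟩

end CrossFrob

end Fermat.Agent.STB


end ZBSTB_008_1

/-! ### bundled: `Fermat.Agent.RIB.MP.FrobFac` -/
section ZBSTB_008_2
/-
Row 37, Mazur's principle, piece **MP-FROB** (helper3), part 3: the transfer of the local
factorisation (F) from the charts over the unramified base `A₀` to the charts over a ramified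
base `A'` (generic).

Setting: two chart settings `(A₀, E₀, F₀, u)` and `(A', E', F', up u)` (as in
`UNIP/AbstractT.lean`), a ring homomorphism `up : F₀ →+* F'` compatible with `ι : A₀ →+* A'` on the
constants, uniformizers `π₀`, `π'` with `π' ∣ ι π₀`.  If the closed points of the special fibre of
the chart `up u` are rational over `ι A₀` (`hrat`), then every closed point `𝔫'` of the chart
`up u` lies over a closed point `𝔫` of the chart `u`, `up (atLoc 𝔫) ⊆ atLoc 𝔫'`, and (F) at `𝔫`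
for `y` gives (F) at `𝔫'` for `up y`.

* `ribmpFrobChartMap`, `ribmp_frob_exists_below`, `ribmp_frob_up_atLoc`, `ribmp_frob_fac_up`,
  `ribmp_frob_fac_up_charts`.
-/

set_option autoImplicit false
set_option linter.style.haveILetI false
set_option linter.unusedSectionVars false
set_option linter.unusedVariables false

namespace Fermat.Agent.RIB.MP

open Polynomial IntermediateField Fermat.Agent.INJ Fermat.Agent.UNIP Fermat.Agent.STB

section Up

variable {A₀ E₀ F₀ : Type*} [CommRing A₀] [IsDomain A₀] [IsDiscreteValuationRing A₀]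
  [Field E₀] [Algebra A₀ E₀] [IsFractionRing A₀ E₀] [CharZero E₀]
  [Field F₀] [Algebra E₀ F₀] [Algebra A₀ F₀] [IsScalarTower A₀ E₀ F₀]
  {A' E' F' : Type*} [CommRing A'] [IsDomain A'] [IsDiscreteValuationRing A']
  [Field E'] [Algebra A' E'] [IsFractionRing A' E'] [CharZero E']
  [Field F'] [Algebra E' F'] [Algebra A' F'] [IsScalarTower A' E' F']
  {π₀ : A₀} {π' : A'}
  (up : F₀ →+* F') (ι : A₀ →+* A')
  (hup : ∀ a : A₀, up (algebraMap A₀ F₀ a) = algebraMap A' F' (ι a))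

include hup in
/-- `up` maps `A₀[u]` into `A'[up u]` -/
theorem ribmp_frob_up_adjoin (u : F₀) {x : F₀}
    (hx : x ∈ Algebra.adjoin A₀ ({u} : Set F₀)) :
    up x ∈ Algebra.adjoin A' ({up u} : Set F') := by
  induction hx using Algebra.adjoin_induction with
  | mem x hx =>
    rw [Set.mem_singleton_iff] at hx
    rw [hx]
    exact Algebra.subset_adjoin (Set.mem_singleton _)
  | algebraMap r =>
    rw [hup]
    exact Subalgebra.algebraMap_mem _ _
  | add x y _ _ hx hy =>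
    rw [map_add]
    exact Subalgebra.add_mem _ hx hy
  | mul x y _ _ hx hy =>
    rw [map_mul]
    exact Subalgebra.mul_mem _ hx hy

include hup in
/-- `up` maps the chart `B_u` into the chart `B'_{up u}` -/
theorem ribmp_frob_up_isIntegral (u : F₀) {x : F₀}
    (hx : IsIntegral ↥(Algebra.adjoin A₀ ({u} : Set F₀)) x) :
    IsIntegral ↥(Algebra.adjoin A' ({up u} : Set F')) (up x) := by
  let φ : ↥(Algebra.adjoin A₀ ({u} : Set F₀)) →+* ↥(Algebra.adjoin A' ({up u} : Set F')) :=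
    { toFun := fun a => ⟨up (a : F₀), ribmp_frob_up_adjoin up ι hup u a.2⟩
      map_one' := Subtype.ext (map_one up)
      map_mul' := fun a b => Subtype.ext (map_mul up (a : F₀) (b : F₀))
      map_zero' := Subtype.ext (map_zero up)
      map_add' := fun a b => Subtype.ext (map_add up (a : F₀) (b : F₀)) }
  exact hx.map_of_comp_eq φ up (by ext a; rfl)

/-- the map of charts `B_u → B'_{up u}` -/
def ribmpFrobChartMap (u : F₀) :
    ↥(zchClosure (A₀ := A₀) ({u} : Set F₀)) →+* ↥(zchClosure (A₀ := A') ({up u} : Set F')) where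
  toFun b := ⟨up (b : F₀), mem_zchClosure.mpr
    (ribmp_frob_up_isIntegral up ι hup u (mem_zchClosure.mp b.2))⟩
  map_one' := Subtype.ext (map_one up)
  map_mul' a b := Subtype.ext (map_mul up (a : F₀) (b : F₀))
  map_zero' := Subtype.ext (map_zero up)
  map_add' a b := Subtype.ext (map_add up (a : F₀) (b : F₀))

theorem ribmpFrobChartMap_coe (u : F₀) (b : ↥(zchClosure (A₀ := A₀) ({u} : Set F₀))) :
    ((ribmpFrobChartMap up ι hup u b : ↥(zchClosure (A₀ := A') ({up u} : Set F'))) : F')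
      = up (b : F₀) := rfl

theorem ribmpFrobChartMap_algebraMap (u : F₀) (a : A₀) :
    ribmpFrobChartMap up ι hup u (algebraMap A₀ ↥(zchClosure (A₀ := A₀) ({u} : Set F₀)) a)
      = algebraMap A' ↥(zchClosure (A₀ := A') ({up u} : Set F')) (ι a) :=
  Subtype.ext (hup a)

/-- **Every closed point of the chart `up u` lies over a closed point of the chart `u`.** -/
theorem ribmp_frob_exists_below (hπ₀ : Irreducible π₀) (hdvd : π' ∣ ι π₀) (u : F₀)
    (𝔫' : AtPt (F := F') π' (up u))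
    (hrat : ∀ b' : ↥(zchClosure (A₀ := A') ({up u} : Set F')), ∃ a : A₀,
      b' - algebraMap A' ↥(zchClosure (A₀ := A') ({up u} : Set F')) (ι a) ∈ 𝔫'.1) :
    ∃ 𝔫 : AtPt (F := F₀) π₀ u, 𝔫.1 = 𝔫'.1.comap (ribmpFrobChartMap up ι hup u) := by
  haveI := 𝔫'.2.1
  have hπ𝔫 : algebraMap A₀ ↥(zchClosure (A₀ := A₀) ({u} : Set F₀)) π₀ ∈
      𝔫'.1.comap (ribmpFrobChartMap up ι hup u) := by
    rw [Ideal.mem_comap, ribmpFrobChartMap_algebraMap]
    obtain ⟨c, hc⟩ := hdvd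
    rw [hc, map_mul]
    exact Ideal.mul_mem_right _ _ 𝔫'.2.2
  have hmax : (𝔫'.1.comap (ribmpFrobChartMap up ι hup u)).IsMaximal := by
    rw [Ideal.isMaximal_iff]
    refine ⟨fun h1 => ?_, fun J x hJ hx hxJ => ?_⟩
    · rw [Ideal.mem_comap, map_one] at h1
      exact 𝔫'.2.1.ne_top ((Ideal.eq_top_iff_one _).mpr h1)
    · obtain ⟨a, ha⟩ := hrat (ribmpFrobChartMap up ι hup u x)
      have h2 : x - algebraMap A₀ ↥(zchClosure (A₀ := A₀) ({u} : Set F₀)) a ∈
          𝔫'.1.comap (ribmpFrobChartMap up ι hup u) := by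
        rw [Ideal.mem_comap, map_sub, ribmpFrobChartMap_algebraMap]
        exact ha
      have haJ : algebraMap A₀ ↥(zchClosure (A₀ := A₀) ({u} : Set F₀)) a ∈ J := by
        have := J.sub_mem hxJ (hJ h2)
        rwa [sub_sub_cancel] at this
      have hau : IsUnit a := by
        by_contra hau
        have h3 : a ∈ IsLocalRing.maximalIdeal A₀ := (IsLocalRing.mem_maximalIdeal a).2 hau
        rw [hπ₀.maximalIdeal_eq, Ideal.mem_span_singleton] at h3
        obtain ⟨c, rfl⟩ := h3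
        apply hx
        have h4 : algebraMap A₀ ↥(zchClosure (A₀ := A₀) ({u} : Set F₀)) (π₀ * c) ∈
            𝔫'.1.comap (ribmpFrobChartMap up ι hup u) := by
          rw [map_mul]
          exact Ideal.mul_mem_right _ _ hπ𝔫
        have := Ideal.add_mem _ h2 h4
        rwa [sub_add_cancel] at this
      have hu' : IsUnit (algebraMap A₀ ↥(zchClosure (A₀ := A₀) ({u} : Set F₀)) a) :=
        hau.map _
      have := J.eq_top_of_isUnit_mem haJ hu'
      rw [this]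
      exact Submodule.mem_top
  exact ⟨⟨𝔫'.1.comap (ribmpFrobChartMap up ι hup u), hmax, hπ𝔫⟩, rfl⟩

/-- `up` maps the local ring at `𝔫` into the local ring at `𝔫'` -/
theorem ribmp_frob_up_atLoc (u : F₀) (𝔫 : AtPt (F := F₀) π₀ u) (𝔫' : AtPt (F := F') π' (up u))
    (h : 𝔫.1 = 𝔫'.1.comap (ribmpFrobChartMap up ι hup u)) {x : F₀} (hx : x ∈ atLoc 𝔫) :
    up x ∈ atLoc 𝔫' := by
  obtain ⟨b, s, hs, hsx⟩ := hx
  refine ⟨ribmpFrobChartMap up ι hup u b, ribmpFrobChartMap up ι hup u s, ?_, ?_⟩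
  · intro hh
    apply hs
    rw [h, Ideal.mem_comap]
    exact hh
  · have e : (s : F₀) * x = (b : F₀) := hsx
    show up (s : F₀) * up x = up (b : F₀)
    rw [← map_mul, e]

/-- **(F)-transfer at a point.** -/
theorem ribmp_frob_fac_up_at (u : F₀) (𝔫 : AtPt (F := F₀) π₀ u)
    (𝔫' : AtPt (F := F') π' (up u))
    (h : 𝔫.1 = 𝔫'.1.comap (ribmpFrobChartMap up ι hup u)) {m : ℕ} {y : F₀}
    (hy : StbFacAt (atLoc 𝔫) m y) : StbFacAt (atLoc 𝔫') m (up y) := by
  obtain ⟨γ, ε, hε, hyε⟩ := hy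
  obtain ⟨ε', hε'⟩ := hε.exists_right_inv
  have h1 : (ε : F₀) * (ε' : F₀) = 1 := congrArg Subtype.val hε'
  refine ⟨up γ, ⟨up (ε : F₀), ribmp_frob_up_atLoc up ι hup u 𝔫 𝔫' h ε.2⟩, ?_, ?_⟩
  · refine IsUnit.of_mul_eq_one
      (⟨up (ε' : F₀), ribmp_frob_up_atLoc up ι hup u 𝔫 𝔫' h ε'.2⟩ : atLoc 𝔫') ?_
    apply Subtype.ext
    show up (ε : F₀) * up (ε' : F₀) = 1
    rw [← map_mul, h1, map_one]
  · show up y = up (ε : F₀) * up γ ^ m
    rw [hyε, map_mul, map_pow]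

include hup in
/-- **(F)-transfer, chart `u`.** -/
theorem ribmp_frob_fac_up (hπ₀ : Irreducible π₀) (hdvd : π' ∣ ι π₀) (u : F₀)
    (hrat : ∀ (𝔫' : AtPt (F := F') π' (up u))
      (b' : ↥(zchClosure (A₀ := A') ({up u} : Set F'))), ∃ a : A₀,
      b' - algebraMap A' ↥(zchClosure (A₀ := A') ({up u} : Set F')) (ι a) ∈ 𝔫'.1)
    {m : ℕ} {y : F₀} (hy : ∀ 𝔫 : AtPt (F := F₀) π₀ u, StbFacAt (atLoc 𝔫) m y)
    (𝔫' : AtPt (F := F') π' (up u)) : StbFacAt (atLoc 𝔫') m (up y) := by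
  obtain ⟨𝔫, h𝔫⟩ := ribmp_frob_exists_below up ι hup hπ₀ hdvd u 𝔫' (hrat 𝔫')
  exact ribmp_frob_fac_up_at up ι hup u 𝔫 𝔫' h𝔫 (hy 𝔫)

include hup in
/-- **(F)-transfer, chart `u`**, the closed points being rational (algebraically closed residue
field of `A'`, which is the residue field of `A₀`). -/
theorem ribmp_frob_fac_up_chart [IsAlgClosed (IsLocalRing.ResidueField A')]
    (hπ₀ : Irreducible π₀) (hπ' : Irreducible π') (hdvd : π' ∣ ι π₀)
    (hres : ∀ a' : A', ∃ a : A₀, π' ∣ a' - ι a)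
    {u : F₀} {u' : F'} (hu : up u = u') {m : ℕ} {y : F₀}
    (hy : ∀ 𝔫 : AtPt (F := F₀) π₀ u, StbFacAt (atLoc 𝔫) m y)
    (𝔫' : AtPt (F := F') π' u') : StbFacAt (atLoc 𝔫') m (up y) := by
  subst hu
  refine ribmp_frob_fac_up up ι hup hπ₀ hdvd u ?_ hy 𝔫'
  intro 𝔫'' b'
  obtain ⟨a', ha'⟩ := stb_cf_rational hπ' 𝔫'' b'
  obtain ⟨a, c, hc⟩ := hres a'
  refine ⟨a, ?_⟩
  have e : b' - algebraMap A' ↥(zchClosure (A₀ := A') ({up u} : Set F')) (ι a)
      = (b' - algebraMap A' ↥(zchClosure (A₀ := A') ({up u} : Set F')) a')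
        + algebraMap A' ↥(zchClosure (A₀ := A') ({up u} : Set F')) (a' - ι a) := by
    rw [map_sub]
    ring
  rw [e]
  refine Ideal.add_mem _ ha' ?_
  rw [hc, map_mul]
  exact Ideal.mul_mem_right _ _ 𝔫''.2.2

include hup in
/-- **(F)-transfer, both charts.** -/
theorem ribmp_frob_fac_up_charts [IsAlgClosed (IsLocalRing.ResidueField A')]
    (hπ₀ : Irreducible π₀) (hπ' : Irreducible π') (hdvd : π' ∣ ι π₀)
    (hres : ∀ a' : A', ∃ a : A₀, π' ∣ a' - ι a)
    {t : F₀} {t' : F'} (ht : up t = t') {m : ℕ} {y : F₀}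
    (hy : ∀ i : AtPt (F := F₀) π₀ t ⊕ AtPt (F := F₀) π₀ t⁻¹, StbFacAt (atO π₀ t i) m y) :
    ∀ i' : AtPt (F := F') π' t' ⊕ AtPt (F := F') π' t'⁻¹,
      StbFacAt (atO π' t' i') m (up y) := by
  rintro (𝔫' | 𝔫')
  · exact ribmp_frob_fac_up_chart up ι hup hπ₀ hπ' hdvd hres ht (fun 𝔫 => hy (Sum.inl 𝔫)) 𝔫'
  · exact ribmp_frob_fac_up_chart up ι hup hπ₀ hπ' hdvd hres
      (show up t⁻¹ = t'⁻¹ by rw [map_inv₀, ht]) (fun 𝔫 => hy (Sum.inr 𝔫)) 𝔫'

end Up

end Fermat.Agent.RIB.MP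


end ZBSTB_008_2

/-! ### bundled: `Fermat.Agent.STB.MGFrob` -/
section ZBSTB_008_3

/-!
# STB-MG, `hfrob₁` / `hfrob₂` : `StbCrossFrob` in the concrete setting

Setting of `UNIP/MGConcrete.lean` : `E′ = mgcE A K₁`, `A′ = mgcA A K₁`, `F′ = mgcF A K₁ N`,
`φ` a Frobenius element at `A`, `g = φ̂²` (`φ̂ = mgcGal N φ hφ`).

* `stbmf_hΨR` : the Frobenius congruence on the base in the form `hΨR` of `stb_cross_hfrobB`;
* `stbmf_crossFrob` : `StbCrossFrob g (q ^ 2) 𝔫` at a crossing point `𝔫` of the chart `u`, from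
  `StbFrobVal (zchClosure {u}).toSubring V₁ V₂ w (mgRingAut N s) q` (STB-X, helper45).
-/

set_option autoImplicit false
set_option linter.style.haveILetI false
set_option linter.unusedSectionVars false
set_option linter.unusedVariables false

noncomputable section

namespace Fermat.Agent.STB

open ModularCurve AlgebraicCurve Fermat.Agent.ES Fermat.Agent.ES.G2 Fermat.Agent.INJ
open IntermediateField Fermat.Agent.UNIP

section Concrete

variable {A : ValuationSubring Qb} {K₁ : IntermediateField ℚ Qb} {N : ℕ} [NeZero N]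
  [IsDiscreteValuationRing ↥(mgcA A K₁)]

/-- the Frobenius congruence on the base `A′`, in the form `hΨR` of `stb_cross_hfrobB` -/
theorem stbmf_hΨR {q : ℕ} {φ : Qb ≃ₐ[ℚ] Qb} (hφF : A.IsFrobeniusAt φ q)
    (hφ : ∀ x ∈ mgcE A K₁, φ x ∈ mgcE A K₁)
    {π : ↥(mgcA A K₁)} (hπ : Irreducible π) (a : ↥(mgcA A K₁)) :
    ∃ c : ↥(mgcA A K₁),
      mgRingAut N (mgaRestrictEquiv (mgcE A K₁) φ hφ)
          (algebraMap ↥(mgcA A K₁) ↥(mgcF A K₁ N) a) =
        algebraMap ↥(mgcA A K₁) ↥(mgcF A K₁ N) (a ^ q + π * c) := by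
  obtain ⟨c, hc⟩ := stb_frob_congr_ring (mgcE A K₁) hφF hφ hπ a
  refine ⟨c, ?_⟩
  rw [← hc]
  exact mgRingAut_algebraMap N (mgaRestrictEquiv (mgcE A K₁) φ hφ) (a : ↥(mgcE A K₁))

/-- **`hfrob`, concrete form, one chart.**  `StbCrossFrob g (q ^ 2) 𝔫` at a crossing point `𝔫`
of the chart `u` of `F′ = F_N(E′)` over `A′`, `g = φ̂²`, from `StbFrobVal` on the chart. -/
theorem stbmf_crossFrob {q : ℕ} (hq : q.Prime) (hA : A.LiesOverPrime q)
    {π : ↥(mgcA A K₁)} (hπ : Irreducible π)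
    {φ : Qb ≃ₐ[ℚ] Qb} (hφF : A.IsFrobeniusAt φ q) (hφ : ∀ x ∈ mgcE A K₁, φ x ∈ mgcE A K₁)
    {u : ↥(mgcF A K₁ N)} (V₁ V₂ : ValuationSubring ↥(mgcF A K₁ N))
    (w : ↥(mgcF A K₁ N) ≃+* ↥(mgcF A K₁ N))
    (h : StbFrobVal (zchClosure (A₀ := ↥(mgcA A K₁)) ({u} : Set ↥(mgcF A K₁ N))).toSubring
      V₁ V₂ w (mgRingAut N (mgaRestrictEquiv (mgcE A K₁) φ hφ)) q)
    (g : SemilinearAut ↥(mgcE A K₁) ↥(mgcF A K₁ N))
    (hg : ∀ x : ↥(mgcF A K₁ N), g • x = mgcGal N φ hφ • (mgcGal N φ hφ • x))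
    (𝔫 : AtPt (F := ↥(mgcF A K₁ N)) π u) (hc₁ : atThrough 𝔫 V₁) (hc₂ : atThrough 𝔫 V₂) :
    StbCrossFrob g (q ^ 2) 𝔫 := by
  haveI : IsAlgClosed (IsLocalRing.ResidueField ↥(mgcA A K₁)) :=
    stb_isAlgClosed_residue hq hA (le_sup_left : beta0Field A ≤ mgcE A K₁)
  exact stb_cf_crossFrob hπ V₁ V₂ w (mgRingAut N (mgaRestrictEquiv (mgcE A K₁) φ hφ)) q
    hq.ne_zero h g (fun x => hg x) (stbmf_hΨR hφF hφ hπ) 𝔫 hc₁ hc₂

end Concrete

end Fermat.Agent.STB

end
end ZBSTB_008_3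

/-! ### bundled: `Fermat.Agent.STB.MGFrobJ` -/
section ZBSTB_008_4

/-!
# STB-MG, `hfrob₁` / `hfrob₂` of `stb_mt_hpts`, final concrete form

Setting of `UNIP/MGConcrete.lean`, level `M * q`, `V = mgvV hπ ιC hq hqM`, `φ` a Frobenius element
at `A`, `g = φ̂²`:

* `stbmf_hfrob_J`    : `StbCrossFrob g (q ^ 2) 𝔫` at every crossing point `𝔫` of the chart `j`;
* `stbmf_hfrob_Jinv` : the same for the chart `1 / j`;
* `stbmf_hfrob_J_reg`, `stbmf_hfrob_Jinv_reg` : the same with the regularity of the chart of level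
  `M` as a hypothesis (`RegChart π (bgJ E′ M)`), instead of `h2 : q = 2 → 3 ∣ M`,
  `h3 : q = 3 → 2 ∣ M`.

Inputs: helper45's `stb_frobVal_conc_J`, `stb_frobVal_all_J` (`STB/FrobLift.lean`,
`STB/FrobReg.lean`) and `stbmf_crossFrob` (`STB/MGFrob.lean`).
-/

set_option autoImplicit false
set_option linter.style.haveILetI false
set_option linter.unusedSectionVars false
set_option linter.unusedVariables false

noncomputable section

namespace Fermat.Agent.STB

open ModularCurve AlgebraicCurve Fermat.Agent.ES Fermat.Agent.ES.G2 Fermat.Agent.INJ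
open IntermediateField Fermat.Agent.UNIP

section Concrete

variable {A : ValuationSubring Qb} {K₁ : IntermediateField ℚ Qb}
  [IsDiscreteValuationRing ↥(mgcA A K₁)] {π : ↥(mgcA A K₁)} (hπ : Irreducible π)
  (ιC : ↥(mgcE A K₁) →+* ℂ) {q M : ℕ} [NeZero q] [NeZero M] [NeZero (M * q)]
  (hq : q.Prime) (hqM : ¬ q ∣ M)

/-- `hfrob₁` with the regularity of the chart of level `M` as a hypothesis. -/
theorem stbmf_hfrob_J_reg (hA : A.LiesOverPrime q) {φ : Qb ≃ₐ[ℚ] Qb}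
    (hφF : A.IsFrobeniusAt φ q) (hφ : ∀ x ∈ mgcE A K₁, φ x ∈ mgcE A K₁)
    (h : RegChart (E := ↥(mgcE A K₁)) π (bgJ ↥(mgcE A K₁) M))
    (g : SemilinearAut ↥(mgcE A K₁) ↥(mgcF A K₁ (M * q)))
    (hg : ∀ x : ↥(mgcF A K₁ (M * q)),
      g • x = mgcGal (M * q) φ hφ • (mgcGal (M * q) φ hφ • x))
    (𝔫 : AtPt (F := ↥(mgcF A K₁ (M * q))) π (mgcT A K₁ (M * q)))
    (hc₁ : atThrough 𝔫 (mgvV hπ ιC hq hqM true))
    (hc₂ : atThrough 𝔫 (mgvV hπ ιC hq hqM false)) :
    StbCrossFrob g (q ^ 2) 𝔫 :=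
  stbmf_crossFrob (N := M * q) hq hA hπ hφF hφ (mgvV hπ ιC hq hqM true)
    (mgvV hπ ιC hq hqM false) (stbAtk ιC hq hqM)
    (stb_frobVal_conc_J hπ ιC hq hqM hA hφF hφ h) g hg 𝔫 hc₁ hc₂

/-- `hfrob₂` with the regularity of the chart of level `M` as a hypothesis. -/
theorem stbmf_hfrob_Jinv_reg (hA : A.LiesOverPrime q) {φ : Qb ≃ₐ[ℚ] Qb}
    (hφF : A.IsFrobeniusAt φ q) (hφ : ∀ x ∈ mgcE A K₁, φ x ∈ mgcE A K₁)
    (h : RegChart (E := ↥(mgcE A K₁)) π (bgJ ↥(mgcE A K₁) M)⁻¹)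
    (g : SemilinearAut ↥(mgcE A K₁) ↥(mgcF A K₁ (M * q)))
    (hg : ∀ x : ↥(mgcF A K₁ (M * q)),
      g • x = mgcGal (M * q) φ hφ • (mgcGal (M * q) φ hφ • x))
    (𝔫 : AtPt (F := ↥(mgcF A K₁ (M * q))) π (mgcT A K₁ (M * q))⁻¹)
    (hc₁ : atThrough 𝔫 (mgvV hπ ιC hq hqM true))
    (hc₂ : atThrough 𝔫 (mgvV hπ ιC hq hqM false)) :
    StbCrossFrob g (q ^ 2) 𝔫 :=
  stbmf_crossFrob (N := M * q) hq hA hπ hφF hφ (mgvV hπ ιC hq hqM true)
    (mgvV hπ ιC hq hqM false) (stbAtk ιC hq hqM)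
    (stb_frobVal_conc_Jinv hπ ιC hq hqM hA hφF hφ h) g hg 𝔫 hc₁ hc₂

/-- **`hfrob₁`** : the Frobenius hypotheses at the crossing points of the chart `j`,
all inputs discharged. -/
theorem stbmf_hfrob_J (hA : A.LiesOverPrime q) (h2 : q = 2 → 3 ∣ M) (h3 : q = 3 → 2 ∣ M)
    {φ : Qb ≃ₐ[ℚ] Qb}
    (hφF : A.IsFrobeniusAt φ q) (hφ : ∀ x ∈ mgcE A K₁, φ x ∈ mgcE A K₁)
    (g : SemilinearAut ↥(mgcE A K₁) ↥(mgcF A K₁ (M * q)))
    (hg : ∀ x : ↥(mgcF A K₁ (M * q)),
      g • x = mgcGal (M * q) φ hφ • (mgcGal (M * q) φ hφ • x))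
    (𝔫 : AtPt (F := ↥(mgcF A K₁ (M * q))) π (mgcT A K₁ (M * q)))
    (hc₁ : atThrough 𝔫 (mgvV hπ ιC hq hqM true))
    (hc₂ : atThrough 𝔫 (mgvV hπ ιC hq hqM false)) :
    StbCrossFrob g (q ^ 2) 𝔫 :=
  stbmf_hfrob_J_reg hπ ιC hq hqM hA hφF hφ
    (stb_regChart_conc_J M hq hA (le_sup_left : beta0Field A ≤ mgcE A K₁) hπ hqM h2 h3)
    g hg 𝔫 hc₁ hc₂

/-- **`hfrob₂`** : the Frobenius hypotheses at the crossing points of the chart `1 / j`,
all inputs discharged. -/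
theorem stbmf_hfrob_Jinv (hA : A.LiesOverPrime q) (h2 : q = 2 → 3 ∣ M) (h3 : q = 3 → 2 ∣ M)
    {φ : Qb ≃ₐ[ℚ] Qb}
    (hφF : A.IsFrobeniusAt φ q) (hφ : ∀ x ∈ mgcE A K₁, φ x ∈ mgcE A K₁)
    (g : SemilinearAut ↥(mgcE A K₁) ↥(mgcF A K₁ (M * q)))
    (hg : ∀ x : ↥(mgcF A K₁ (M * q)),
      g • x = mgcGal (M * q) φ hφ • (mgcGal (M * q) φ hφ • x))
    (𝔫 : AtPt (F := ↥(mgcF A K₁ (M * q))) π (mgcT A K₁ (M * q))⁻¹)
    (hc₁ : atThrough 𝔫 (mgvV hπ ιC hq hqM true))
    (hc₂ : atThrough 𝔫 (mgvV hπ ιC hq hqM false)) :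
    StbCrossFrob g (q ^ 2) 𝔫 :=
  stbmf_hfrob_Jinv_reg hπ ιC hq hqM hA hφF hφ
    (stb_regChart_conc_Jinv M hq hA (le_sup_left : beta0Field A ≤ mgcE A K₁) hπ hqM h2 h3)
    g hg 𝔫 hc₁ hc₂

end Concrete

end Fermat.Agent.STB

end
end ZBSTB_008_4
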