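/- GENERATED FILE (helper35, build-time optimisation, NOTES/ZB.md): verbatim concatenation of the modules
   Fermat.Agent.STB.SwapT
   Fermat.Agent.RIB.MP.FrobPts
   Fermat.Agent.STB.SwapFrob
   Do not edit; do not import together with these modules. -/
import Fermat.Agent.ZB.STB_003
import Fermat.Agent.ZB.STB_008

/-! ### bundled: `Fermat.Agent.STB.SwapT` -/
section ZBSTB_007_0
/-
RIB / MP (Mazur's principle), piece MP-SW (helper45): the SWAP TWIN of `STB/AbstractT2.lean`.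

Chart setting of `stb_main_points` (two vertical components `V c₁ ≠ V c₂`, reduced special fibre).
Instead of an endomorphism `Φ` preserving the components, `g : F →+* F` SWAPS them
(`g 𝔪(V (s c)) ⊆ 𝔪(V c)`, `s` the transposition of `c₁`, `c₂`; `g = σ ∘ w_q`), and at the crossing
points `g x ≡ x ^ Q` modulo the maximal ideal (Fr′).  For a TORIC `y` (`y ≡ (tt c) ^ m` at `V c`)
with local factorisations:   `g y · y ^ Q` is an `m`-th power in `F`   (`m = p ^ r`).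

The sign is `+`: at a crossing point the two branch units of `g y · y ^ Q` are
`β₁ = g α₂ · α₁ ^ Q`, `β₂ = g α₁ · α₂ ^ Q`, both `≡ (α₁ α₂) ^ Q` at the point — the gluing invariant
is trivial because the expression is SYMMETRIC in the two branches.

* `stbsw_vertical`  : `g y · y ^ Q / H ^ m ≡ 1` at `V` (`H ≡ g t' · t ^ Q`).
* `stbsw_branch`    : `H / (g γ' · γ ^ Q) ≡ g α' · α ^ Q` at `V`.
* `stbsw_glue`      : the point datum of `PwiShape` at a crossing point.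
* `stbsw_point_one` : the point datum at a point with one component (`O₁` = the local ring of the
  preimage of the point under `g`, on the OTHER component).
* `stbsw_main`, `stbsw_main_points` : the theorems.
-/

set_option autoImplicit false
set_option linter.unusedSectionVars false
set_option linter.unusedVariables false
set_option linter.style.haveILetI false

namespace Fermat.Agent.STB

open Polynomial IntermediateField Fermat.Agent.INJ Fermat.Agent.UNIP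

section Local

variable {F : Type*} [Field F]

/-- a ring endomorphism mapping `𝔪(V')` into `𝔪(V)` maps `1 + 𝔪(V')` into `1 + 𝔪(V)` -/
theorem stbsw_congr_map (V V' : ValuationSubring F) (g : F →+* F)
    (hg : ∀ x ∈ V'.nonunits, g x ∈ V.nonunits) {x : F} (hx : x - 1 ∈ V'.nonunits) :
    g x - 1 ∈ V.nonunits := by
  have := hg _ hx
  rwa [map_sub, map_one] at this

/-- **Vertical part of the shape** (swap form).  `y ≡ t ^ m` at `V`, `y ≡ t' ^ m` at `V'`,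
`g 𝔪(V') ⊆ 𝔪(V)`, `H ≡ g t' · t ^ Q` at `V` ⇒ `g y · y ^ Q / H ^ m ≡ 1` at `V`. -/
theorem stbsw_vertical (V V' : ValuationSubring F) (g : F →+* F)
    (hg : ∀ x ∈ V'.nonunits, g x ∈ V.nonunits) (Q m : ℕ) {y t t' H : F}
    (ht : y / t ^ m - 1 ∈ V.nonunits) (ht' : y / t' ^ m - 1 ∈ V'.nonunits)
    (hH : H / (g t' * t ^ Q) - 1 ∈ V.nonunits) :
    g y * y ^ Q / H ^ m - 1 ∈ V.nonunits := by
  have hr0 := stb_ne_zero_of_congr V ht
  have hy0 : y ≠ 0 := fun h => hr0 (by rw [h, zero_div])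
  have htm0 : t ^ m ≠ 0 := fun h => hr0 (by rw [h, div_zero])
  have hr0' := stb_ne_zero_of_congr V' ht'
  have ht'm0 : t' ^ m ≠ 0 := fun h => hr0' (by rw [h, div_zero])
  have hH0' := stb_ne_zero_of_congr V hH
  have hH0 : H ≠ 0 := fun h => hH0' (by rw [h, zero_div])
  have hT0 : g t' * t ^ Q ≠ 0 := fun h => hH0' (by rw [h, div_zero])
  have hgt'0 : g t' ≠ 0 := left_ne_zero_of_mul hT0
  have htQ0 : t ^ Q ≠ 0 := right_ne_zero_of_mul hT0
  have hgt'm0 : g t' ^ m ≠ 0 := pow_ne_zero _ hgt'0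
  have h1 : g (y / t' ^ m) * (y / t ^ m) ^ Q - 1 ∈ V.nonunits :=
    pwi_congr_mul V (stbsw_congr_map V V' g hg ht') (pwi_congr_pow V ht Q)
  have h2 : (H / (g t' * t ^ Q)) ^ m - 1 ∈ V.nonunits := pwi_congr_pow V hH m
  have h3 := stb_congr_div V h1 h2
  have e : g y * y ^ Q / H ^ m
      = g (y / t' ^ m) * (y / t ^ m) ^ Q / (H / (g t' * t ^ Q)) ^ m := by
    rw [map_div₀, map_pow]
    simp only [div_pow, mul_pow]
    field_simp
    ring
  rw [e]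
  exact h3

/-- **Branch unit** (swap form).  `α ≡ t / γ` at `V`, `α' ≡ t' / γ'` at `V'` (units),
`H ≡ g t' · t ^ Q` at `V` ⇒ `H / (g γ' · γ ^ Q) ≡ g α' · α ^ Q` at `V`. -/
theorem stbsw_branch (V V' : ValuationSubring F) (g : F →+* F)
    (hg : ∀ x ∈ V'.nonunits, g x ∈ V.nonunits) (Q : ℕ) {γ γ' t t' H α α' : F}
    (hγ0 : γ ≠ 0) (hγ'0 : γ' ≠ 0)
    (hvα : V.valuation α = 1) (hvα' : V'.valuation α' = 1)
    (hα : t / γ - α ∈ V.nonunits) (hα' : t' / γ' - α' ∈ V'.nonunits)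
    (hH : H / (g t' * t ^ Q) - 1 ∈ V.nonunits) :
    H / (g γ' * γ ^ Q) / (g α' * α ^ Q) - 1 ∈ V.nonunits := by
  have hα0 : α ≠ 0 := fun h => by rw [h, map_zero] at hvα; exact zero_ne_one hvα
  have hα'0 : α' ≠ 0 := fun h => by rw [h, map_zero] at hvα'; exact zero_ne_one hvα'
  have hH0' := stb_ne_zero_of_congr V hH
  have hT0 : g t' * t ^ Q ≠ 0 := fun h => hH0' (by rw [h, div_zero])
  have hgt'0 : g t' ≠ 0 := left_ne_zero_of_mul hT0
  have htQ0 : t ^ Q ≠ 0 := right_ne_zero_of_mul hT0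
  have hgγ'0 : g γ' ≠ 0 := (_root_.map_ne_zero g).2 hγ'0
  have hgα'0 : g α' ≠ 0 := (_root_.map_ne_zero g).2 hα'0
  have h1 : g (t' / γ' / α') - 1 ∈ V.nonunits :=
    stbsw_congr_map V V' g hg (stb_div_congr V' hvα' hα')
  have h2 : (t / γ / α) ^ Q - 1 ∈ V.nonunits := pwi_congr_pow V (stb_div_congr V hvα hα) Q
  have h3 := pwi_congr_mul V hH (pwi_congr_mul V h1 h2)
  have e : H / (g γ' * γ ^ Q) / (g α' * α ^ Q)
      = H / (g t' * t ^ Q) * (g (t' / γ' / α') * (t / γ / α) ^ Q) := by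
    rw [map_div₀, map_div₀]
    simp only [div_pow]
    field_simp
  rw [e]
  exact h3

end Local

section Point

variable {F : Type*} [Field F] (O : Subring F) [IsLocalRing O]

/-- a sum of a unit and a nonunit of a local ring is a unit -/
theorem stbsw_isUnit_add {a z : O} (ha : IsUnit a) (hz : z ∈ IsLocalRing.maximalIdeal O) :
    IsUnit (a + z) := by
  by_contra hu
  have h1 : a + z ∈ IsLocalRing.maximalIdeal O := (IsLocalRing.mem_maximalIdeal _).2 hu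
  have h2 : a ∈ IsLocalRing.maximalIdeal O := by
    have := Ideal.sub_mem _ h1 hz
    rwa [add_sub_cancel_right] at this
  exact (IsLocalRing.mem_maximalIdeal _).1 h2 ha

/-- **MP-SW, crossing point.**  `O` the local ring of a crossing point, `V₁`, `V₂` the two
vertical valuations through it; `g` swaps `𝔪(V₁)` and `𝔪(V₂)` and `g x ≡ x ^ Q` modulo the
maximal ideal of `O` (Fr′); `y = ε γ ^ m`, `y ≡ t_i ^ m` at `V_i`; `H ≡ g t₂ · t₁ ^ Q` at `V₁`,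
`H ≡ g t₁ · t₂ ^ Q` at `V₂`.  Then `g y · y ^ Q / H ^ m` has the point datum of `PwiShape`. -/
theorem stbsw_glue (J : Ideal O) (V₁ V₂ : ValuationSubring F)
    (hO₁ : ∀ x ∈ O, x ∈ V₁) (hO₂ : ∀ x ∈ O, x ∈ V₂)
    (hinter : ∀ x : O, (x : F) ∈ V₁.nonunits → (x : F) ∈ V₂.nonunits → x ∈ J)
    (hsum : ∀ x ∈ IsLocalRing.maximalIdeal O, ∃ a b : O,
      (a : F) ∈ V₁.nonunits ∧ (b : F) ∈ V₂.nonunits ∧ x = a + b)
    (hres₁ : StbRes O V₁) (hres₂ : StbRes O V₂)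
    (g : F →+* F) (Q : ℕ)
    (hg₁ : ∀ x ∈ V₂.nonunits, g x ∈ V₁.nonunits)
    (hg₂ : ∀ x ∈ V₁.nonunits, g x ∈ V₂.nonunits)
    (hfrob : ∀ x : O, ∃ z ∈ IsLocalRing.maximalIdeal O, (z : F) = g (x : F) - (x : F) ^ Q)
    {m : ℕ} (hm : 0 < m) {y γ t₁ t₂ H : F} (ε : O) (hε : IsUnit ε)
    (hy : y = (ε : F) * γ ^ m)
    (ht₁ : y / t₁ ^ m - 1 ∈ V₁.nonunits) (ht₂ : y / t₂ ^ m - 1 ∈ V₂.nonunits)
    (hH₁ : H / (g t₂ * t₁ ^ Q) - 1 ∈ V₁.nonunits)
    (hH₂ : H / (g t₁ * t₂ ^ Q) - 1 ∈ V₂.nonunits) :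
    ∃ ε' γ' : F, ∃ hε' : ε' ∈ O, (⟨ε', hε'⟩ - 1 : O) ∈ J ∧
      γ' - 1 ∈ V₁.nonunits ∧ γ' - 1 ∈ V₂.nonunits ∧
      g y * y ^ Q / H ^ m = ε' * γ' ^ m := by
  obtain ⟨α₁, hα₁u, hα₁, hvα₁⟩ := stb_branch_unit O V₁ hO₁ hres₁ hm ε hε hy ht₁
  obtain ⟨α₂, hα₂u, hα₂, hvα₂⟩ := stb_branch_unit O V₂ hO₂ hres₂ hm ε hε hy ht₂
  have hr0 := stb_ne_zero_of_congr V₁ ht₁
  have hy0 : y ≠ 0 := fun h => hr0 (by rw [h, zero_div])
  have hγ0 : γ ≠ 0 := fun h => hy0 (by rw [hy, h, zero_pow hm.ne', mul_zero])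
  have hgγ0 : g γ ≠ 0 := (_root_.map_ne_zero g).2 hγ0
  have hH0 : H ≠ 0 := fun h => stb_ne_zero_of_congr V₁ hH₁ (by rw [h, zero_div])
  -- `g α_i ∈ O`
  obtain ⟨z₁, hz₁, hz₁eq⟩ := hfrob α₁
  obtain ⟨z₂, hz₂, hz₂eq⟩ := hfrob α₂
  obtain ⟨zε, hzε, hzεeq⟩ := hfrob ε
  set gα₁ : O := α₁ ^ Q + z₁ with hgα₁
  set gα₂ : O := α₂ ^ Q + z₂ with hgα₂
  set gε : O := ε ^ Q + zε with hgε
  have hgα₁F : (gα₁ : F) = g (α₁ : F) := by rw [hgα₁]; push_cast; rw [hz₁eq]; ring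
  have hgα₂F : (gα₂ : F) = g (α₂ : F) := by rw [hgα₂]; push_cast; rw [hz₂eq]; ring
  have hgεF : (gε : F) = g (ε : F) := by rw [hgε]; push_cast; rw [hzεeq]; ring
  have hgα₁u : IsUnit gα₁ := stbsw_isUnit_add O (hα₁u.pow Q) hz₁
  have hgα₂u : IsUnit gα₂ := stbsw_isUnit_add O (hα₂u.pow Q) hz₂
  have hgεu : IsUnit gε := stbsw_isUnit_add O (hε.pow Q) hzε
  -- the two branch units
  set β₁ : O := gα₂ * α₁ ^ Q with hβ₁
  set β₂ : O := gα₁ * α₂ ^ Q with hβ₂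
  have hβ₁u : IsUnit β₁ := hgα₂u.mul (hα₁u.pow Q)
  have hβ₂u : IsUnit β₂ := hgα₁u.mul (hα₂u.pow Q)
  have hβ₁F : (β₁ : F) = g (α₂ : F) * (α₁ : F) ^ Q := by rw [hβ₁]; push_cast; rw [hgα₂F]
  have hβ₂F : (β₂ : F) = g (α₁ : F) * (α₂ : F) ^ Q := by rw [hβ₂]; push_cast; rw [hgα₁F]
  have hG₁ : H / (g γ * γ ^ Q) / (β₁ : F) - 1 ∈ V₁.nonunits := by
    rw [hβ₁F]
    exact stbsw_branch V₁ V₂ g hg₁ Q hγ0 hγ0 hvα₁ hvα₂ hα₁ hα₂ hH₁
  have hG₂ : H / (g γ * γ ^ Q) / (β₂ : F) - 1 ∈ V₂.nonunits := by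
    rw [hβ₂F]
    exact stbsw_branch V₂ V₁ g hg₂ Q hγ0 hγ0 hvα₂ hvα₁ hα₂ hα₁ hH₂
  -- the gluing invariant is trivial: `β₁ ≡ β₂` modulo the maximal ideal
  have hd : β₁ - β₂ ∈ IsLocalRing.maximalIdeal O := by
    have e : β₁ - β₂ = z₂ * α₁ ^ Q - z₁ * α₂ ^ Q := by rw [hβ₁, hβ₂, hgα₁, hgα₂]; ring
    rw [e]
    exact Ideal.sub_mem _ (Ideal.mul_mem_right _ _ hz₂) (Ideal.mul_mem_right _ _ hz₁)
  obtain ⟨a, b, ha, hb, hab⟩ := hsum _ hd
  have haM := stb_mem_maximalIdeal_of_nonunits O V₁ hO₁ a ha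
  set δ : O := β₁ - a with hδ
  have hδu : IsUnit δ := by
    have : δ = β₁ + (-a) := by rw [hδ]; ring
    rw [this]
    exact stbsw_isUnit_add O hβ₁u ((IsLocalRing.maximalIdeal O).neg_mem haM)
  have hδ₁ : (δ : F) - (β₁ : F) ∈ V₁.nonunits := by
    have e : (δ : F) - (β₁ : F) = -(a : F) := by rw [hδ]; push_cast; ring
    rw [e]
    exact V₁.nonunits.neg_mem ha
  have hδ₂ : (δ : F) - (β₂ : F) ∈ V₂.nonunits := by
    have e0 : δ = β₂ + b := by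
      rw [hδ]
      have : β₁ = β₂ + (a + b) := by rw [← hab]; ring
      rw [this]; ring
    have e : (δ : F) - (β₂ : F) = (b : F) := by rw [e0]; push_cast; ring
    rw [e]
    exact hb
  have hvβ₁ := stb_val_unit O V₁ hO₁ hβ₁u
  have hvβ₂ := stb_val_unit O V₂ hO₂ hβ₂u
  have hvδ := stb_val_unit O V₁ hO₁ hδu
  have hδ0 : (δ : F) ≠ 0 := fun h => by
    rw [h, map_zero] at hvδ
    exact zero_ne_one hvδ
  have hβ₁0 : (β₁ : F) ≠ 0 := fun h => by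
    rw [h, map_zero] at hvβ₁
    exact zero_ne_one hvβ₁
  have hβ₂0 : (β₂ : F) ≠ 0 := fun h => by
    rw [h, map_zero] at hvβ₂
    exact zero_ne_one hvβ₂
  have hvε := stb_val_unit O V₁ hO₁ hε
  have hε0 : (ε : F) ≠ 0 := fun h => by
    rw [h, map_zero] at hvε
    exact zero_ne_one hvε
  have hgε0 : g (ε : F) ≠ 0 := (_root_.map_ne_zero g).2 hε0
  -- `γ'`
  have hγ₁ : (δ : F) / (H / (g γ * γ ^ Q)) - 1 ∈ V₁.nonunits := by
    have e : (δ : F) / (H / (g γ * γ ^ Q))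
        = (δ : F) / (β₁ : F) / (H / (g γ * γ ^ Q) / (β₁ : F)) := by
      field_simp
    rw [e]
    exact stb_congr_div V₁ (stb_div_congr V₁ hvβ₁ hδ₁) hG₁
  have hγ₂ : (δ : F) / (H / (g γ * γ ^ Q)) - 1 ∈ V₂.nonunits := by
    have e : (δ : F) / (H / (g γ * γ ^ Q))
        = (δ : F) / (β₂ : F) / (H / (g γ * γ ^ Q) / (β₂ : F)) := by
      field_simp
    rw [e]
    exact stb_congr_div V₂ (stb_div_congr V₂ hvβ₂ hδ₂) hG₂
  have hγ'0 : (δ : F) / (H / (g γ * γ ^ Q)) ≠ 0 := stb_ne_zero_of_congr V₁ hγ₁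
  -- `ε'`
  obtain ⟨uδ, huδ⟩ := hδu
  set ε' : O := gε * ε ^ Q * ((uδ⁻¹ : Oˣ) : O) ^ m with hε'
  have hε'F : (ε' : F) = g (ε : F) * (ε : F) ^ Q / (δ : F) ^ m := by
    rw [hε']
    push_cast
    rw [stb_coe_inv O uδ, huδ, hgεF, inv_pow]
    field_simp
  have hfac : g y * y ^ Q / H ^ m = (ε' : F) * ((δ : F) / (H / (g γ * γ ^ Q))) ^ m := by
    rw [hε'F, hy, map_mul, map_pow]
    simp only [div_pow, mul_pow]
    field_simp
    ring
  have hε'eq : (ε' : F) = g y * y ^ Q / H ^ m / ((δ : F) / (H / (g γ * γ ^ Q))) ^ m := by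
    rw [hfac]
    field_simp
  refine ⟨(ε' : F), (δ : F) / (H / (g γ * γ ^ Q)), ε'.2, ?_, hγ₁, hγ₂, hfac⟩
  apply hinter
  · show (((⟨(ε' : F), ε'.2⟩ : O) - 1 : O) : F) ∈ V₁.nonunits
    push_cast
    rw [hε'eq]
    exact stb_congr_div V₁ (stbsw_vertical V₁ V₂ g hg₁ Q m ht₁ ht₂ hH₁)
      (pwi_congr_pow V₁ hγ₁ m)
  · show (((⟨(ε' : F), ε'.2⟩ : O) - 1 : O) : F) ∈ V₂.nonunits
    push_cast
    rw [hε'eq]
    exact stb_congr_div V₂ (stbsw_vertical V₂ V₁ g hg₂ Q m ht₂ ht₁ hH₂)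
      (pwi_congr_pow V₂ hγ₂ m)

/-- **MP-SW, point with ONE component.**  `O` the local ring of a closed point with exactly one
vertical valuation `V` through it (`hinter`), `O₁` the local ring of its preimage under `g`
(`g O₁ ⊆ O`), which lies on the OTHER component `V'` (`g 𝔪(V') ⊆ 𝔪(V)`).  `y` has local
factorisations at `O` and at `O₁` and is toric at `V` and `V'`; `H ≡ g t' · t ^ Q` at `V`.  Then
`g y · y ^ Q / H ^ m` has the point datum of `PwiShape`. -/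
theorem stbsw_point_one (O₁ : Subring F) [IsLocalRing O₁] (J : Ideal O)
    (V V' : ValuationSubring F) (hOV : ∀ x ∈ O, x ∈ V) (hO₁V : ∀ x ∈ O₁, x ∈ V')
    (hinter : ∀ x : O, (x : F) ∈ V.nonunits → x ∈ J)
    (hres : StbRes O V) (hres₁ : StbRes O₁ V')
    (g : F →+* F) (Q : ℕ) (hg : ∀ x ∈ V'.nonunits, g x ∈ V.nonunits)
    (hgO : ∀ x ∈ O₁, g x ∈ O)
    {m : ℕ} (hm : 0 < m) {y t t' H : F} (hfac : StbFacAt O m y) (hfac₁ : StbFacAt O₁ m y)
    (ht : y / t ^ m - 1 ∈ V.nonunits) (ht' : y / t' ^ m - 1 ∈ V'.nonunits)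
    (hH : H / (g t' * t ^ Q) - 1 ∈ V.nonunits) :
    ∃ ε' γ' : F, ∃ hε' : ε' ∈ O, (⟨ε', hε'⟩ - 1 : O) ∈ J ∧ γ' - 1 ∈ V.nonunits ∧
      g y * y ^ Q / H ^ m = ε' * γ' ^ m := by
  obtain ⟨γ, ε, hε, hy⟩ := hfac
  obtain ⟨γ₁, ε₁, hε₁, hy₁⟩ := hfac₁
  obtain ⟨α, hαu, hα, hvα⟩ := stb_branch_unit O V hOV hres hm ε hε hy ht
  obtain ⟨α₁, hα₁u, hα₁, hvα₁⟩ := stb_branch_unit O₁ V' hO₁V hres₁ hm ε₁ hε₁ hy₁ ht'
  have hr0 := stb_ne_zero_of_congr V ht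
  have hy0 : y ≠ 0 := fun h => hr0 (by rw [h, zero_div])
  have hγ0 : γ ≠ 0 := fun h => hy0 (by rw [hy, h, zero_pow hm.ne', mul_zero])
  have hγ₁0 : γ₁ ≠ 0 := fun h => hy0 (by rw [hy₁, h, zero_pow hm.ne', mul_zero])
  have hH0 : H ≠ 0 := fun h => stb_ne_zero_of_congr V hH (by rw [h, zero_div])
  have hgγ₁0 : g γ₁ ≠ 0 := (_root_.map_ne_zero g).2 hγ₁0
  have hα0 : (α : F) ≠ 0 := fun h => by
    rw [h, map_zero] at hvα
    exact zero_ne_one hvα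
  have hα₁0 : (α₁ : F) ≠ 0 := fun h => by
    rw [h, map_zero] at hvα₁
    exact zero_ne_one hvα₁
  have hgα₁0 : g (α₁ : F) ≠ 0 := (_root_.map_ne_zero g).2 hα₁0
  have hε0 : (ε : F) ≠ 0 := fun h => hy0 (by rw [hy, h, zero_mul])
  have hε₁0 : (ε₁ : F) ≠ 0 := fun h => hy0 (by rw [hy₁, h, zero_mul])
  -- units
  obtain ⟨uα, huα⟩ := hαu
  obtain ⟨uα₁, huα₁⟩ := hα₁u
  have hinvα : (((uα⁻¹ : Oˣ) : O) : F) = (α : F)⁻¹ := by
    rw [stb_coe_inv O uα, huα]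
  have hinvα₁ : (((uα₁⁻¹ : O₁ˣ) : O₁) : F) = (α₁ : F)⁻¹ := by
    rw [stb_coe_inv O₁ uα₁, huα₁]
  -- the elements of `O`
  set β' : O := ⟨g (((uα₁⁻¹ : O₁ˣ) : O₁) : F), hgO _ ((uα₁⁻¹ : O₁ˣ) : O₁).2⟩ *
    ((uα⁻¹ : Oˣ) : O) ^ Q with hβ'
  have hβ'F : (β' : F) = (g (α₁ : F) * (α : F) ^ Q)⁻¹ := by
    rw [hβ']
    push_cast
    rw [hinvα₁, hinvα, map_inv₀, inv_pow, mul_inv]
  set ε' : O := ⟨g (ε₁ : F), hgO _ ε₁.2⟩ * ε ^ Q * β' ^ m with hε'
  have hε'F : (ε' : F) = g (ε₁ : F) * (ε : F) ^ Q * (β' : F) ^ m := by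
    rw [hε']
    push_cast
    rfl
  -- `γ'`
  have hG := stbsw_branch V V' g hg Q hγ0 hγ₁0 hvα hvα₁ hα hα₁ hH
  have hγ' : g γ₁ * γ ^ Q / H / (β' : F) - 1 ∈ V.nonunits := by
    have e : g γ₁ * γ ^ Q / H / (β' : F)
        = (H / (g γ₁ * γ ^ Q) / (g (α₁ : F) * (α : F) ^ Q))⁻¹ := by
      rw [hβ'F]
      field_simp
    rw [e]
    exact stb_congr_inv V hG
  have hw : g y * y ^ Q / H ^ m = (ε' : F) * (g γ₁ * γ ^ Q / H / (β' : F)) ^ m := by
    have e1 : g y = g (ε₁ : F) * g γ₁ ^ m := by rw [hy₁, map_mul, map_pow]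
    have e2 : y ^ Q = (ε : F) ^ Q * (γ ^ Q) ^ m := by
      rw [hy, mul_pow, ← pow_mul, ← pow_mul, mul_comm m Q]
    have hβ'0 : (β' : F) ≠ 0 := by
      rw [hβ'F]
      exact inv_ne_zero (mul_ne_zero hgα₁0 (pow_ne_zero _ hα0))
    rw [hε'F, e1, e2, div_pow, div_pow, mul_pow]
    field_simp
  refine ⟨ε', g γ₁ * γ ^ Q / H / (β' : F), ε'.2, hinter _ ?_, hγ', hw⟩
  have hvert := stbsw_vertical V V' g hg Q m ht ht' hH
  have hγm := pwi_congr_pow V hγ' m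
  have hγm0 := stb_ne_zero_of_congr V hγm
  have e : (((⟨(ε' : F), ε'.2⟩ - 1 : O) : O) : F)
      = g y * y ^ Q / H ^ m / (g γ₁ * γ ^ Q / H / (β' : F)) ^ m - 1 := by
    rw [hw, mul_div_cancel_right₀ _ hγm0]
    rfl
  rw [e]
  exact stb_congr_div V hvert hγm

end Point

section Main

variable {A₀ E F : Type*} [CommRing A₀] [IsDomain A₀] [IsDiscreteValuationRing A₀]
  [Field E] [Algebra A₀ E] [IsFractionRing A₀ E] [CharZero E]
  [Field F] [Algebra E F] [Algebra A₀ F] [IsScalarTower A₀ E F]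
  {π : A₀} {κ : Type*}

/-- **MP-SW, abstract per-point form** (swap twin of `stb_main`).  Chart setting of (T′) with two
components `V c₁ ≠ V c₂`; `g : F →+* F` with `g 𝔪(V (s c)) ⊆ 𝔪(V c)`; `y` toric.  If for every `H`
with `H ≡ g (tt (s c)) · (tt c) ^ Q` at `V c` the function `g y · y ^ Q / H ^ (p ^ r)` has the
point datum of `PwiShape` at every closed point, then `g y · y ^ Q` is a `p ^ r`-th power. -/
theorem stbsw_main (hπ : Irreducible π) {t : F} (ht : Transcendental E t)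
    [FiniteDimensional E⟮t⟯ F]
    (hcl : ∀ x : F, IsAlgebraic E x → x ∈ (algebraMap E F).range)
    {p : ℕ} (hp : p.Prime) (hpu : IsUnit (p : A₀)) {ζ : A₀} (hζ : IsPrimitiveRoot ζ p)
    (hunit : ∀ a : A₀, IsUnit a → ∃ d : A₀, d ^ p = a)
    [Finite κ] (V : κ → ValuationSubring F) (c₁ c₂ : κ) (hκ : ∀ c, c = c₁ ∨ c = c₂)
    (hne : V c₁ ≠ V c₂)
    (hBV₁ : ∀ c (b : F), IsIntegral ↥(Algebra.adjoin A₀ {t}) b → b ∈ V c)
    (hBV₂ : ∀ c (b : F), IsIntegral ↥(Algebra.adjoin A₀ {t⁻¹}) b → b ∈ V c)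
    (hπV : ∀ c, algebraMap A₀ F π ∈ (V c).nonunits)
    (hSS1 : ∀ b : F, IsIntegral ↥(Algebra.adjoin A₀ {t}) b → (∀ c, b ∈ (V c).nonunits) →
      ∃ b' : F, IsIntegral ↥(Algebra.adjoin A₀ {t}) b' ∧ b = algebraMap A₀ F π * b')
    (harch : ∀ c (a x : F), a ∈ (V c).nonunits → ∃ N : ℕ, a ^ N * x ∈ (V c).nonunits)
    (g : F →+* F) (s : κ → κ)
    (hgV : ∀ c, ∀ x ∈ (V (s c)).nonunits, g x ∈ (V c).nonunits) (Q r : ℕ)
    {y : F} (tt : κ → F) (htoric : ∀ c, y / tt c ^ (p ^ r) - 1 ∈ (V c).nonunits)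
    (hpoint : ∀ H : F, (∀ c, H / (g (tt (s c)) * tt c ^ Q) - 1 ∈ (V c).nonunits) →
      ∀ i, ∃ ε' γ' : F, ∃ hε' : ε' ∈ atO π t i, (⟨ε', hε'⟩ - 1 : atO π t i) ∈ atJ π t i ∧
        (∀ c, atInc π t V i c → γ' - 1 ∈ (V c).nonunits) ∧
        g y * y ^ Q / H ^ (p ^ r) = ε' * γ' ^ (p ^ r)) :
    ∃ h : F, h ^ (p ^ r) = g y * y ^ Q := by
  have hm : 0 < p ^ r := pow_pos hp.pos r
  have hπ0 : algebraMap A₀ F π ≠ 0 :=
    (map_ne_zero_iff _ (zch_algebraMap_injective (A₀ := A₀) (E := E) (L := F))).mpr hπ.ne_zero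
  have htt0 : ∀ c, tt c ≠ 0 := by
    intro c h
    have h1 := stb_ne_zero_of_congr (V c) (htoric c)
    rw [h, zero_pow hm.ne', div_zero] at h1
    exact h1 rfl
  have hT0 : ∀ c, g (tt (s c)) * tt c ^ Q ≠ 0 := fun c =>
    mul_ne_zero ((_root_.map_ne_zero g).2 (htt0 (s c))) (pow_ne_zero _ (htt0 c))
  have hA : ∀ c, StbArch (V c) := by
    intro c x z hz
    obtain ⟨N, hN⟩ := harch c z x hz
    exact ⟨N, by rwa [mul_comm] at hN⟩
  have h12 : ¬ V c₁ ≤ V c₂ := stb_not_le_of_ne (hA c₁) hπ0 (hπV c₂) hne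
  have h21 : ¬ V c₂ ≤ V c₁ := stb_not_le_of_ne (hA c₂) hπ0 (hπV c₁) hne.symm
  obtain ⟨H, hH0, hH1, hH2⟩ :=
    stb_weakApprox_of_not_le h12 h21 (hA c₁) (hA c₂) (hT0 c₁) (hT0 c₂)
  have hH : ∀ c, H / (g (tt (s c)) * tt c ^ Q) - 1 ∈ (V c).nonunits := by
    intro c
    rcases hκ c with rfl | rfl
    · exact hH1
    · exact hH2
  have hshape : PwiShape V (atO π t) (atJ π t) (atInc π t V) (p ^ r)
      (g y * y ^ Q / H ^ (p ^ r)) :=
    ⟨fun c => stbsw_vertical (V c) (V (s c)) g (hgV c) Q (p ^ r) (htoric c) (htoric (s c)) (hH c),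
      hpoint H hH⟩
  obtain ⟨h, hh⟩ := at_pow_of_shape hπ ht hcl hp hpu hζ hunit V hBV₁ hBV₂ hπV hSS1 harch
    (at_hconn_two hπ ht hcl V hBV₁ hBV₂ hπV hSS1 c₁ c₂ hκ) r _ hshape
  refine ⟨h * H, ?_⟩
  rw [mul_pow, hh]
  field_simp

/-- the hypotheses at a point `O` with ONE component `V` through it, in the swap setting: `O₁` is
the local ring of the preimage of the point under `g`, which lies on the other component `V'`. -/
def StbSwapSmooth (O O₁ : Subring F) (V V' : ValuationSubring F) (g : F →+* F) (m : ℕ)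
    (y : F) : Prop :=
  (∀ x ∈ O₁, g x ∈ O) ∧ StbRes O V ∧ StbRes O₁ V' ∧ StbFacAt O m y ∧ StbFacAt O₁ m y

/-- **MP-SW** (swap twin of `stb_main_points`).  `g` swaps the two components
(`g 𝔪(V (s c)) ⊆ 𝔪(V c)`, `s c₁ = c₂`, `s c₂ = c₁`); every closed point `i` of the special fibre
is either a crossing point with `StbCross … g Q …` ((S), (N), (Fr′): `g x ≡ x ^ Q` modulo the
maximal ideal, (F)) or has exactly one component `c` through it and a preimage `i₁` under `g` on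
the component `s c` (`StbSwapSmooth`).  Then `g y · y ^ Q` is a `p ^ r`-th power in `F`. -/
theorem stbsw_main_points (hπ : Irreducible π) {t : F} (ht : Transcendental E t)
    [FiniteDimensional E⟮t⟯ F]
    (hcl : ∀ x : F, IsAlgebraic E x → x ∈ (algebraMap E F).range)
    {p : ℕ} (hp : p.Prime) (hpu : IsUnit (p : A₀)) {ζ : A₀} (hζ : IsPrimitiveRoot ζ p)
    (hunit : ∀ a : A₀, IsUnit a → ∃ d : A₀, d ^ p = a)
    [Finite κ] (V : κ → ValuationSubring F) (c₁ c₂ : κ) (hκ : ∀ c, c = c₁ ∨ c = c₂)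
    (hne : V c₁ ≠ V c₂)
    (hBV₁ : ∀ c (b : F), IsIntegral ↥(Algebra.adjoin A₀ {t}) b → b ∈ V c)
    (hBV₂ : ∀ c (b : F), IsIntegral ↥(Algebra.adjoin A₀ {t⁻¹}) b → b ∈ V c)
    (hπV : ∀ c, algebraMap A₀ F π ∈ (V c).nonunits)
    (hSS1 : ∀ b : F, IsIntegral ↥(Algebra.adjoin A₀ {t}) b → (∀ c, b ∈ (V c).nonunits) →
      ∃ b' : F, IsIntegral ↥(Algebra.adjoin A₀ {t}) b' ∧ b = algebraMap A₀ F π * b')
    (harch : ∀ c (a x : F), a ∈ (V c).nonunits → ∃ N : ℕ, a ^ N * x ∈ (V c).nonunits)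
    (g : F →+* F) (s : κ → κ) (hs₁ : s c₁ = c₂) (hs₂ : s c₂ = c₁)
    (hgV : ∀ c, ∀ x ∈ (V (s c)).nonunits, g x ∈ (V c).nonunits) (Q r : ℕ)
    {y : F} (tt : κ → F) (htoric : ∀ c, y / tt c ^ (p ^ r) - 1 ∈ (V c).nonunits)
    (hpts : ∀ i : AtPt (F := F) π t ⊕ AtPt (F := F) π t⁻¹,
      (atInc π t V i c₁ ∧ atInc π t V i c₂ ∧
        StbCross (atO π t i) (V c₁) (V c₂) g Q (p ^ r) y) ∨
      (∃ c, atInc π t V i c ∧ (∀ c', atInc π t V i c' → c' = c) ∧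
        ∃ i₁ : AtPt (F := F) π t ⊕ AtPt (F := F) π t⁻¹, atInc π t V i₁ (s c) ∧
          StbSwapSmooth (atO π t i) (atO π t i₁) (V c) (V (s c)) g (p ^ r) y)) :
    ∃ h : F, h ^ (p ^ r) = g y * y ^ Q := by
  have hm : 0 < p ^ r := pow_pos hp.pos r
  refine stbsw_main hπ ht hcl hp hpu hζ hunit V c₁ c₂ hκ hne hBV₁ hBV₂ hπV hSS1 harch g s hgV
    Q r tt htoric ?_
  intro H hH i
  haveI := stb_atO_isLocalRing (π := π) t i
  rcases hpts i with ⟨hi1, hi2, hsum, hres1, hres2, hfrob, γ, ε, hε, hy⟩ |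
    ⟨c, hc, honly, i₁, hi₁, hgO, hres, hres₁, hfac, hfac₁⟩
  · have hg₁ : ∀ x ∈ (V c₂).nonunits, g x ∈ (V c₁).nonunits := by
      have := hgV c₁
      rwa [hs₁] at this
    have hg₂ : ∀ x ∈ (V c₁).nonunits, g x ∈ (V c₂).nonunits := by
      have := hgV c₂
      rwa [hs₂] at this
    have hH₁ : H / (g (tt c₂) * tt c₁ ^ Q) - 1 ∈ (V c₁).nonunits := by
      have := hH c₁
      rwa [hs₁] at this
    have hH₂ : H / (g (tt c₁) * tt c₂ ^ Q) - 1 ∈ (V c₂).nonunits := by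
      have := hH c₂
      rwa [hs₂] at this
    obtain ⟨ε', γ', hε', hJ, hγ1, hγ2, hw⟩ := stbsw_glue (atO π t i) (atJ π t i) (V c₁) (V c₂)
      (stb_atO_le V hBV₁ hBV₂ i c₁ hi1) (stb_atO_le V hBV₁ hBV₂ i c₂ hi2)
      (fun x h1 h2 => stb_atO_inter hπ ht V hBV₁ hBV₂ hSS1 i x (fun c _ => by
        rcases hκ c with rfl | rfl
        · exact h1
        · exact h2))
      (fun x hx => hsum x ((IsLocalRing.mem_maximalIdeal _).1 hx))
      hres1 hres2 g Q hg₁ hg₂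
      (fun x => by
        obtain ⟨z, hz, hzx⟩ := hfrob x
        exact ⟨z, (IsLocalRing.mem_maximalIdeal _).2 hz, hzx⟩)
      hm ε hε hy (htoric c₁) (htoric c₂) hH₁ hH₂
    refine ⟨ε', γ', hε', hJ, fun c _ => ?_, hw⟩
    rcases hκ c with rfl | rfl
    · exact hγ1
    · exact hγ2
  · haveI := stb_atO_isLocalRing (π := π) t i₁
    obtain ⟨ε', γ', hε', hJ, hγ, hw⟩ := stbsw_point_one (atO π t i) (atO π t i₁) (atJ π t i)
      (V c) (V (s c))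
      (stb_atO_le V hBV₁ hBV₂ i c hc) (stb_atO_le V hBV₁ hBV₂ i₁ (s c) hi₁)
      (fun x hx => stb_atO_inter hπ ht V hBV₁ hBV₂ hSS1 i x (fun c' hc' => by
        rw [honly c' hc']
        exact hx))
      hres hres₁ g Q (hgV c) hgO hm hfac hfac₁ (htoric c) (htoric (s c)) (hH c)
    refine ⟨ε', γ', hε', hJ, fun c' hc' => ?_, hw⟩
    rw [honly c' hc']
    exact hγ

end Main

end Fermat.Agent.STB


end ZBSTB_007_0

/-! ### bundled: `Fermat.Agent.RIB.MP.FrobPts` -/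
section ZBSTB_007_1
/-
Row 37, Mazur's principle, piece **MP-FROB** (helper3), part 2: the per-point hypothesis `hpts`
of `STB.stbsw_main_points` (swap twin of `STB.stb_mt_hpts`), generic charts.

Setting of `UNIP/AbstractT.lean`: `A₀` a DVR with uniformizer `π`, `E = Frac A₀`, `F / E(t)`
finite, two vertical valuation rings `V true`, `V false`, the dichotomy of U5 (`StbNodeAt`) at
every closed point of the two charts `t`, `t⁻¹`.

* `ribmp_frob_chart` : at a closed point `𝔫` of the chart `u`: either both components pass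
  through `𝔫`, with (S) and (N) at both branches, or exactly one component `c` passes through
  `𝔫`, with (N);
* `ribmp_frob_point` : the same on the index type `AtPt π t ⊕ AtPt π t⁻¹`;
* `ribmp_frob_hpts`  : `hpts` of `stbsw_main_points` from the dichotomy, (Fr′) at the crossing
  points, the preimage points at the one-component points and (F) at every point.
-/

set_option autoImplicit false
set_option linter.style.haveILetI false
set_option linter.unusedSectionVars false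
set_option linter.unusedVariables false

namespace Fermat.Agent.RIB.MP

open Polynomial IntermediateField Fermat.Agent.INJ AlgebraicCurve Fermat.Agent.UNIP
  Fermat.Agent.STB

section Chart

variable {A₀ E F : Type*} [CommRing A₀] [IsDomain A₀] [IsDiscreteValuationRing A₀]
  [Field E] [Algebra A₀ E] [IsFractionRing A₀ E] [CharZero E]
  [Field F] [Algebra E F] [Algebra A₀ F] [IsScalarTower A₀ E F]
  {π : A₀}

/-- **The dichotomy at a closed point of the chart `u`, with (S) and (N).** -/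
theorem ribmp_frob_chart {u : F}
    [IsNoetherianRing ↥(zchClosure (A₀ := A₀) ({u} : Set F))]
    (V : Bool → ValuationSubring F)
    (hBV : ∀ c (b : F), IsIntegral ↥(Algebra.adjoin A₀ {u}) b → b ∈ V c)
    (hπV : ∀ c, algebraMap A₀ F π ∈ (V c).nonunits)
    (hSS1 : ∀ b : F, IsIntegral ↥(Algebra.adjoin A₀ {u}) b → (∀ c, b ∈ (V c).nonunits) →
      ∃ b' : F, IsIntegral ↥(Algebra.adjoin A₀ {u}) b' ∧ b = algebraMap A₀ F π * b')
    (hVloc : ∀ c (x : F), x ∈ V c → ∃ b s : F, IsIntegral ↥(Algebra.adjoin A₀ {u}) b ∧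
      IsIntegral ↥(Algebra.adjoin A₀ {u}) s ∧ s ∉ (V c).nonunits ∧ s * x = b)
    (hnle : ∀ c c', c ≠ c' → ¬ V c ≤ V c')
    {R : Type*} [CommRing R] (j : R →+* ↥(zchClosure (A₀ := A₀) ({u} : Set F))) (p : R)
    (hram : MgcRamified j (algebraMap A₀ ↥(zchClosure (A₀ := A₀) ({u} : Set F)) π) p)
    (𝔫 : AtPt (F := F) π u) (hnode : StbNodeAt (V true) (V false) 𝔫 j p) :
    (atThrough 𝔫 (V true) ∧ atThrough 𝔫 (V false) ∧
      (∀ x : atLoc 𝔫, ¬ IsUnit x → ∃ a b : atLoc 𝔫, (a : F) ∈ (V true).nonunits ∧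
        (b : F) ∈ (V false).nonunits ∧ x = a + b) ∧
      StbRes (atLoc 𝔫) (V true) ∧ StbRes (atLoc 𝔫) (V false)) ∨
    (∃ c, atThrough 𝔫 (V c) ∧ (∀ c', atThrough 𝔫 (V c') → c' = c) ∧
      StbRes (atLoc 𝔫) (V c)) := by
  rcases hnode with ⟨s, hs, hgen⟩ | ⟨hthr₁, hthr₂, X, Y, hX, hY, hgen⟩
  · right
    have hG := hram.mgg_locGen_pair 𝔫.2.2 s hgen
    obtain ⟨c, hc, honly⟩ := stb_sx_exists_unique V hBV hπV hSS1 hVloc hnle 𝔫 (j s) hs hG
    exact ⟨c, hc, honly, stb_sp_res (V c) (hBV c) (hπV c) (hVloc c) 𝔫 hc (j s) hs hG⟩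
  · left
    have hT₁ : atThrough 𝔫 (V true) :=
      stb_cp_through (V true) (hBV true) (hπV true) 𝔫 j p hram hthr₁
    have hT₂ : atThrough 𝔫 (V false) :=
      stb_cp_through (V false) (hBV false) (hπV false) 𝔫 j p hram hthr₂
    have hG := stb_cp_locGen 𝔫 j p hram X Y hgen
    refine ⟨hT₁, hT₂, ?_, ?_, ?_⟩
    · exact stb_cp_sum (V true) (V false) (hBV true) (hBV false) (hπV true) 𝔫 hT₁ hT₂
        (j X) (j Y) hX hY hG
    · exact stb_cp_res₁ (V true) (hBV true) (hπV true) (hVloc true) 𝔫 hT₁ (j X) (j Y) hX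
        (hT₂ _ hY) hG
    · exact stb_cp_res₂ (V false) (hBV false) (hπV false) (hVloc false) 𝔫 hT₂ (j X) (j Y)
        (hT₁ _ hX) hY hG

end Chart

section Points

variable {A₀ E F : Type*} [CommRing A₀] [IsDomain A₀] [IsDiscreteValuationRing A₀]
  [Field E] [Algebra A₀ E] [IsFractionRing A₀ E] [CharZero E]
  [Field F] [Algebra E F] [Algebra A₀ F] [IsScalarTower A₀ E F]
  {π : A₀}

/-- **The dichotomy at every closed point of the two charts, with (S) and (N).** -/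
theorem ribmp_frob_point (hπ : Irreducible π) {t : F} (ht : Transcendental E t)
    [FiniteDimensional E⟮t⟯ F]
    [IsNoetherianRing ↥(zchClosure (A₀ := A₀) ({t} : Set F))]
    [IsNoetherianRing ↥(zchClosure (A₀ := A₀) ({t⁻¹} : Set F))]
    (V : Bool → ValuationSubring F) (hne : V true ≠ V false)
    (hBV₁ : ∀ c (b : F), IsIntegral ↥(Algebra.adjoin A₀ {t}) b → b ∈ V c)
    (hBV₂ : ∀ c (b : F), IsIntegral ↥(Algebra.adjoin A₀ {t⁻¹}) b → b ∈ V c)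
    (hπV : ∀ c, algebraMap A₀ F π ∈ (V c).nonunits)
    (hSS1 : ∀ b : F, IsIntegral ↥(Algebra.adjoin A₀ {t}) b → (∀ c, b ∈ (V c).nonunits) →
      ∃ b' : F, IsIntegral ↥(Algebra.adjoin A₀ {t}) b' ∧ b = algebraMap A₀ F π * b')
    (harch : ∀ c (a x : F), a ∈ (V c).nonunits → ∃ N : ℕ, a ^ N * x ∈ (V c).nonunits)
    (hVloc₁ : ∀ c (x : F), x ∈ V c → ∃ b s : F, IsIntegral ↥(Algebra.adjoin A₀ {t}) b ∧
      IsIntegral ↥(Algebra.adjoin A₀ {t}) s ∧ s ∉ (V c).nonunits ∧ s * x = b)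
    (hVloc₂ : ∀ c (x : F), x ∈ V c → ∃ b s : F, IsIntegral ↥(Algebra.adjoin A₀ {t⁻¹}) b ∧
      IsIntegral ↥(Algebra.adjoin A₀ {t⁻¹}) s ∧ s ∉ (V c).nonunits ∧ s * x = b)
    {R₁ : Type*} [CommRing R₁] (j₁ : R₁ →+* ↥(zchClosure (A₀ := A₀) ({t} : Set F))) (p₁ : R₁)
    (hram₁ : MgcRamified j₁ (algebraMap A₀ ↥(zchClosure (A₀ := A₀) ({t} : Set F)) π) p₁)
    {R₂ : Type*} [CommRing R₂] (j₂ : R₂ →+* ↥(zchClosure (A₀ := A₀) ({t⁻¹} : Set F))) (p₂ : R₂)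
    (hram₂ : MgcRamified j₂ (algebraMap A₀ ↥(zchClosure (A₀ := A₀) ({t⁻¹} : Set F)) π) p₂)
    (hnode₁ : ∀ 𝔫 : AtPt (F := F) π t, StbNodeAt (V true) (V false) 𝔫 j₁ p₁)
    (hnode₂ : ∀ 𝔫 : AtPt (F := F) π t⁻¹, StbNodeAt (V true) (V false) 𝔫 j₂ p₂)
    (i : AtPt (F := F) π t ⊕ AtPt (F := F) π t⁻¹) :
    (atInc π t V i true ∧ atInc π t V i false ∧
      (∀ x : atO π t i, ¬ IsUnit x → ∃ a b : atO π t i, (a : F) ∈ (V true).nonunits ∧
        (b : F) ∈ (V false).nonunits ∧ x = a + b) ∧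
      StbRes (atO π t i) (V true) ∧ StbRes (atO π t i) (V false)) ∨
    (∃ c, atInc π t V i c ∧ (∀ c', atInc π t V i c' → c' = c) ∧
      StbRes (atO π t i) (V c)) := by
  have hπ0 : algebraMap A₀ F π ≠ 0 := unip_algebraMap_irreducible_ne_zero E hπ
  have harch' : ∀ c, StbArch (V c) := fun c x a ha => by
    obtain ⟨N, hN⟩ := harch c a x ha
    exact ⟨N, by rw [mul_comm]; exact hN⟩
  have hne' : ∀ c c' : Bool, c ≠ c' → V c ≠ V c' := by
    intro c c' hcc' h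
    cases c <;> cases c'
    · exact hcc' rfl
    · exact hne h.symm
    · exact hne h
    · exact hcc' rfl
  have hnle : ∀ c c' : Bool, c ≠ c' → ¬ V c ≤ V c' := fun c c' hcc' =>
    stb_not_le_of_ne (harch' c) hπ0 (hπV c') (hne' c c' hcc')
  rcases i with 𝔫 | 𝔫
  · exact ribmp_frob_chart V hBV₁ hπV hSS1 hVloc₁ hnle j₁ p₁ hram₁ 𝔫 (hnode₁ 𝔫)
  · exact ribmp_frob_chart V hBV₂ hπV (ats_SS1_inv ht hπ V hBV₁ hSS1) hVloc₂ hnle j₂ p₂ hram₂ 𝔫
      (hnode₂ 𝔫)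

/-- **`hpts` of `stbsw_main_points`** from the dichotomy of U5, (Fr′) at the crossing points,
the preimage points at the one-component points and (F) at every closed point. -/
theorem ribmp_frob_hpts (hπ : Irreducible π) {t : F} (ht : Transcendental E t)
    [FiniteDimensional E⟮t⟯ F]
    [IsNoetherianRing ↥(zchClosure (A₀ := A₀) ({t} : Set F))]
    [IsNoetherianRing ↥(zchClosure (A₀ := A₀) ({t⁻¹} : Set F))]
    (V : Bool → ValuationSubring F) (hne : V true ≠ V false)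
    (hBV₁ : ∀ c (b : F), IsIntegral ↥(Algebra.adjoin A₀ {t}) b → b ∈ V c)
    (hBV₂ : ∀ c (b : F), IsIntegral ↥(Algebra.adjoin A₀ {t⁻¹}) b → b ∈ V c)
    (hπV : ∀ c, algebraMap A₀ F π ∈ (V c).nonunits)
    (hSS1 : ∀ b : F, IsIntegral ↥(Algebra.adjoin A₀ {t}) b → (∀ c, b ∈ (V c).nonunits) →
      ∃ b' : F, IsIntegral ↥(Algebra.adjoin A₀ {t}) b' ∧ b = algebraMap A₀ F π * b')
    (harch : ∀ c (a x : F), a ∈ (V c).nonunits → ∃ N : ℕ, a ^ N * x ∈ (V c).nonunits)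
    (hVloc₁ : ∀ c (x : F), x ∈ V c → ∃ b s : F, IsIntegral ↥(Algebra.adjoin A₀ {t}) b ∧
      IsIntegral ↥(Algebra.adjoin A₀ {t}) s ∧ s ∉ (V c).nonunits ∧ s * x = b)
    (hVloc₂ : ∀ c (x : F), x ∈ V c → ∃ b s : F, IsIntegral ↥(Algebra.adjoin A₀ {t⁻¹}) b ∧
      IsIntegral ↥(Algebra.adjoin A₀ {t⁻¹}) s ∧ s ∉ (V c).nonunits ∧ s * x = b)
    {R₁ : Type*} [CommRing R₁] (j₁ : R₁ →+* ↥(zchClosure (A₀ := A₀) ({t} : Set F))) (p₁ : R₁)
    (hram₁ : MgcRamified j₁ (algebraMap A₀ ↥(zchClosure (A₀ := A₀) ({t} : Set F)) π) p₁)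
    {R₂ : Type*} [CommRing R₂] (j₂ : R₂ →+* ↥(zchClosure (A₀ := A₀) ({t⁻¹} : Set F))) (p₂ : R₂)
    (hram₂ : MgcRamified j₂ (algebraMap A₀ ↥(zchClosure (A₀ := A₀) ({t⁻¹} : Set F)) π) p₂)
    (hnode₁ : ∀ 𝔫 : AtPt (F := F) π t, StbNodeAt (V true) (V false) 𝔫 j₁ p₁)
    (hnode₂ : ∀ 𝔫 : AtPt (F := F) π t⁻¹, StbNodeAt (V true) (V false) 𝔫 j₂ p₂)
    (g : F →+* F) (Q m : ℕ) {y : F}
    (hfrob : ∀ i : AtPt (F := F) π t ⊕ AtPt (F := F) π t⁻¹,
      atInc π t V i true → atInc π t V i false →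
      ∀ x : atO π t i, ∃ z : atO π t i, ¬ IsUnit z ∧ (z : F) = g (x : F) - (x : F) ^ Q)
    (hgeom : ∀ (i : AtPt (F := F) π t ⊕ AtPt (F := F) π t⁻¹) (c : Bool),
      atInc π t V i c → (∀ c', atInc π t V i c' → c' = c) →
      ∃ i₁ : AtPt (F := F) π t ⊕ AtPt (F := F) π t⁻¹, atInc π t V i₁ (!c) ∧
        (∀ c', atInc π t V i₁ c' → c' = !c) ∧ ∀ x ∈ atO π t i₁, g x ∈ atO π t i)
    (hfac : ∀ i : AtPt (F := F) π t ⊕ AtPt (F := F) π t⁻¹, StbFacAt (atO π t i) m y)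
    (i : AtPt (F := F) π t ⊕ AtPt (F := F) π t⁻¹) :
    (atInc π t V i true ∧ atInc π t V i false ∧
      StbCross (atO π t i) (V true) (V false) g Q m y) ∨
    (∃ c, atInc π t V i c ∧ (∀ c', atInc π t V i c' → c' = c) ∧
      ∃ i₁ : AtPt (F := F) π t ⊕ AtPt (F := F) π t⁻¹, atInc π t V i₁ (!c) ∧
        StbSwapSmooth (atO π t i) (atO π t i₁) (V c) (V (!c)) g m y) := by
  have key := ribmp_frob_point hπ ht V hne hBV₁ hBV₂ hπV hSS1 harch hVloc₁ hVloc₂ j₁ p₁ hram₁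
    j₂ p₂ hram₂ hnode₁ hnode₂
  rcases key i with ⟨h1, h2, hsum, hres1, hres2⟩ | ⟨c, hc, honly, hres⟩
  · left
    exact ⟨h1, h2, hsum, hres1, hres2, hfrob i h1 h2, hfac i⟩
  · right
    obtain ⟨i₁, hi₁, honly₁, hg⟩ := hgeom i c hc honly
    refine ⟨c, hc, honly, i₁, hi₁, hg, hres, ?_, hfac i, hfac i₁⟩
    rcases key i₁ with ⟨h1, h2, -⟩ | ⟨c', hc', honly', hres'⟩
    · exfalso
      have e1 : true = !c := honly₁ true h1
      have e2 : false = !c := honly₁ false h2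
      have e3 : true = false := e1.trans e2.symm
      exact Bool.noConfusion e3
    · have e : (!c) = c' := honly' _ hi₁
      rw [e]
      exact hres'

end Points

end Fermat.Agent.RIB.MP


end ZBSTB_007_1

/-! ### bundled: `Fermat.Agent.STB.SwapFrob` -/
section ZBSTB_007_2
/-
RIB / MP, piece MP-SW part 2 (helper45): the hypotheses of `stbsw_main_points` which concern the
SWAPPING endomorphism `g = Ψ ∘ w` (`Ψ` a Frobenius lift, `w` the Atkin–Lehner involution), from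
`StbFrobVal` (STB-X, `STB/FrobPoint.lean`).

* `StbFrobVal.swapFrob_sub_pow` : (Fr′), set form: at a crossing point `N` of the chart `B`,
  `g (B_N) ⊆ B_N` and `g x − x ^ q ∈ N B_N`.
* `stbsw_cross_hfrob` : (Fr′) in the form of the 4th field of `StbCross (atLoc 𝔫) V₁ V₂ g q m y`.
* `stbsw_exists_preimage` : for a local subring `O` of `F` with `g (B_u) ⊆ O` (rational residue
  field): the point `𝔫₁ = B_u ∩ g⁻¹ 𝔪_O` of the chart `u`, `g (atLoc 𝔫₁) ⊆ O`, and incidence.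
-/

set_option autoImplicit false
set_option linter.unusedSectionVars false
set_option linter.unusedVariables false
set_option linter.style.haveILetI false

namespace Fermat.Agent.STB

open Polynomial IntermediateField Fermat.Agent.INJ Fermat.Agent.UNIP

section SetForm

variable {F : Type*} [Field F]

/-- cancellation of a unit of the local ring `B_N` -/
theorem StbPt.loc_of_unit_mul {B : Subring F} {N : Set F} (h : StbPt B N) {a x : F}
    (ha : a ∈ stbLoc B N) (ha' : a ∉ stbLocMax B N) (hax : a * x ∈ stbLoc B N) :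
    x ∈ stbLoc B N := by
  obtain ⟨s₁, hs₁, hs₁N, hb₁⟩ := ha
  obtain ⟨s₂, hs₂, hs₂N, hb₂⟩ := hax
  have hb₁N : s₁ * a ∉ N := fun hh => ha' ⟨s₁, hs₁, hs₁N, hh⟩
  refine ⟨s₂ * (s₁ * a), B.mul_mem hs₂ hb₁, h.not_mem_mul hs₂ hb₁ hs₂N hb₁N, ?_⟩
  have e : s₂ * (s₁ * a) * x = s₁ * (s₂ * (a * x)) := by ring
  rw [e]
  exact B.mul_mem hs₁ hb₂

theorem StbPt.loc_add {B : Subring F} {N : Set F} (h : StbPt B N) {x y : F}
    (hx : x ∈ stbLoc B N) (hy : y ∈ stbLoc B N) : x + y ∈ stbLoc B N := by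
  obtain ⟨s, hs, hsN, hsx⟩ := hx
  obtain ⟨t, ht, htN, hty⟩ := hy
  refine ⟨s * t, B.mul_mem hs ht, h.not_mem_mul hs ht hsN htN, ?_⟩
  have e : s * t * (x + y) = t * (s * x) + s * (t * y) := by ring
  rw [e]
  exact B.add_mem (B.mul_mem ht hsx) (B.mul_mem hs hty)

theorem StbPt.loc_neg {B : Subring F} {N : Set F} (h : StbPt B N) {x : F}
    (hx : x ∈ stbLoc B N) : -x ∈ stbLoc B N := by
  obtain ⟨s, hs, hsN, hsx⟩ := hx
  refine ⟨s, hs, hsN, ?_⟩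
  rw [mul_neg]
  exact B.neg_mem hsx

theorem StbPt.loc_sub {B : Subring F} {N : Set F} (h : StbPt B N) {x y : F}
    (hx : x ∈ stbLoc B N) (hy : y ∈ stbLoc B N) : x - y ∈ stbLoc B N := by
  rw [sub_eq_add_neg]
  exact h.loc_add hx (h.loc_neg hy)

theorem StbPt.locMax_sub {B : Subring F} {N : Set F} (h : StbPt B N) {x y : F}
    (hx : x ∈ stbLocMax B N) (hy : y ∈ stbLocMax B N) : x - y ∈ stbLocMax B N := by
  rw [sub_eq_add_neg]
  exact h.locMax_add hx (h.locMax_neg hy)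

/-- `x ≡ y` modulo `N B_N` implies `x ^ n ≡ y ^ n` -/
theorem StbPt.locMax_pow_sub_pow {B : Subring F} {N : Set F} (h : StbPt B N) {x y : F}
    (hx : x ∈ stbLoc B N) (hy : y ∈ stbLoc B N) (hxy : x - y ∈ stbLocMax B N) (n : ℕ) :
    x ^ n - y ^ n ∈ stbLocMax B N := by
  induction n with
  | zero =>
    rw [pow_zero, pow_zero, sub_self]
    exact (h.mem_locMax_iff B.zero_mem).mpr h.zero
  | succ n ih =>
    have e : x ^ (n + 1) - y ^ (n + 1) = x ^ n * (x - y) + y * (x ^ n - y ^ n) := by ring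
    rw [e]
    exact h.locMax_add (h.locMax_mul (h.loc_pow hx n) hxy) (h.locMax_mul hy ih)

namespace StbFrobVal

variable {B : Subring F} {Vinf V0 : ValuationSubring F} {w Ψ : F ≃+* F} {q : ℕ} {N : Set F}

/-- `g B ⊆ B_N` at a crossing point, `g = Ψ ∘ w` -/
theorem swapFrob_chart_mem_loc (h : StbFrobVal B Vinf V0 w Ψ q) (hN : StbCrossPt B Vinf V0 N)
    {b : F} (hb : b ∈ B) : Ψ (w b) ∈ stbLoc B N := by
  rw [h.hΨw]
  exact h.swap_mem_loc hN (h.hΨB b hb)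

/-- `g⁻¹ (N B_N) ∩ B = N` at a crossing point -/
theorem swapFrob_chart_mem_locMax_iff (h : StbFrobVal B Vinf V0 w Ψ q) (hq : q ≠ 0)
    (hN : StbCrossPt B Vinf V0 N) {b : F} (hb : b ∈ B) :
    Ψ (w b) ∈ stbLocMax B N ↔ b ∈ N := by
  rw [h.hΨw, h.swap_mem_iff hq hN (h.hΨB b hb), RingEquiv.symm_apply_apply]

/-- `g (B_N) ⊆ B_N` at a crossing point -/
theorem swapFrob_mem_loc (h : StbFrobVal B Vinf V0 w Ψ q) (hq : q ≠ 0)
    (hN : StbCrossPt B Vinf V0 N) {x : F} (hx : x ∈ stbLoc B N) : Ψ (w x) ∈ stbLoc B N := by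
  obtain ⟨s, hs, hsN, hsx⟩ := hx
  have h1 : Ψ (w s) * Ψ (w x) ∈ stbLoc B N := by
    rw [← map_mul, ← map_mul]
    exact h.swapFrob_chart_mem_loc hN hsx
  exact hN.toStbPt.loc_of_unit_mul (h.swapFrob_chart_mem_loc hN hs)
    (fun hh => hsN ((h.swapFrob_chart_mem_locMax_iff hq hN hs).mp hh)) h1

/-- `g (N B_N) ⊆ N B_N` at a crossing point -/
theorem swapFrob_mem_locMax (h : StbFrobVal B Vinf V0 w Ψ q) (hq : q ≠ 0)
    (hN : StbCrossPt B Vinf V0 N) {x : F} (hx : x ∈ stbLocMax B N) :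
    Ψ (w x) ∈ stbLocMax B N := by
  obtain ⟨s, hs, hsN, hsx⟩ := hx
  have h1 : Ψ (w s) * Ψ (w x) ∈ stbLocMax B N := by
    rw [← map_mul, ← map_mul]
    exact (h.swapFrob_chart_mem_locMax_iff hq hN (hN.toStbPt.sub _ hsx)).mpr hsx
  exact (hN.toStbPt.locMax_prime (h.swapFrob_chart_mem_loc hN hs)
    (h.swapFrob_mem_loc hq hN (hN.toStbPt.locMax_le_loc ⟨s, hs, hsN, hsx⟩)) h1).resolve_left
    (fun hh => hsN ((h.swapFrob_chart_mem_locMax_iff hq hN hs).mp hh))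

/-- **(Fr′), set form.**  At a crossing point `N` of the chart `B`, rational over the base `R`
(`hrat`), `w` fixing the constants and `Ψ a ≡ a ^ q mod π` on `R`:
`g x − x ^ q ∈ N B_N` for every `x ∈ B_N`, `g = Ψ ∘ w`. -/
theorem swapFrob_sub_pow {R : Type*} [CommRing R] (ι : R →+* F)
    (h : StbFrobVal B Vinf V0 w Ψ q) (hq : q ≠ 0) (hN : StbCrossPt B Vinf V0 N)
    (hιB : ∀ a : R, ι a ∈ B) (π : R) (hπ : ι π ∈ N)
    (hwR : ∀ a : R, w (ι a) = ι a)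
    (hΨR : ∀ a : R, ∃ c : R, Ψ (ι a) = ι (a ^ q + π * c))
    (hrat : ∀ b ∈ B, ∃ a : R, b - ι a ∈ N) {x : F} (hx : x ∈ stbLoc B N) :
    Ψ (w x) - x ^ q ∈ stbLocMax B N := by
  have hP := hN.toStbPt
  -- chart level
  have hchart : ∀ b ∈ B, Ψ (w b) - b ^ q ∈ stbLocMax B N := by
    intro b hb
    obtain ⟨a, ha⟩ := hrat b hb
    obtain ⟨c, hc⟩ := hΨR a
    have h1 : Ψ (w (b - ι a)) ∈ stbLocMax B N :=
      (h.swapFrob_chart_mem_locMax_iff hq hN (hP.sub _ ha)).mpr ha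
    have h2 : ι π * ι c ∈ stbLocMax B N := by
      rw [mul_comm]
      exact (hP.mem_locMax_iff (B.mul_mem (hιB c) (hιB π))).mpr (hP.mul _ (hιB c) _ hπ)
    have h3 : b ^ q - ι a ^ q ∈ stbLocMax B N :=
      hP.locMax_pow_sub_pow (hP.loc_of_mem hb) (hP.loc_of_mem (hιB a))
        ((hP.mem_locMax_iff (B.sub_mem hb (hιB a))).mpr ha) q
    have e : Ψ (w b) - b ^ q = Ψ (w (b - ι a)) + ι π * ι c - (b ^ q - ι a ^ q) := by
      rw [map_sub, map_sub, hwR, hc, map_add, map_mul, map_pow]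
      ring
    rw [e]
    exact hP.locMax_sub (hP.locMax_add h1 h2) h3
  obtain ⟨s, hs, hsN, hsx⟩ := hx
  have hxO : x ∈ stbLoc B N := ⟨s, hs, hsN, hsx⟩
  have hgs : Ψ (w s) ∈ stbLoc B N := h.swapFrob_chart_mem_loc hN hs
  have hgs' : Ψ (w s) ∉ stbLocMax B N :=
    fun hh => hsN ((h.swapFrob_chart_mem_locMax_iff hq hN hs).mp hh)
  have hsq : s ^ q ∈ stbLoc B N := hP.loc_pow (hP.loc_of_mem hs) q
  have hsq' : s ^ q ∉ stbLocMax B N := fun hh =>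
    hsN ((hP.mem_locMax_iff hs).mp (hP.locMax_of_pow (hP.loc_of_mem hs) hh))
  have hgx : Ψ (w x) ∈ stbLoc B N := h.swapFrob_mem_loc hq hN hxO
  have hxq : x ^ q ∈ stbLoc B N := hP.loc_pow hxO q
  -- `g s · s ^ q · (g x − x ^ q) = s ^ q · (g (s x) − (s x) ^ q) − (s x) ^ q · (g s − s ^ q)`
  have e : (Ψ (w s) * s ^ q) * (Ψ (w x) - x ^ q) =
      s ^ q * (Ψ (w (s * x)) - (s * x) ^ q) - (s * x) ^ q * (Ψ (w s) - s ^ q) := by
    rw [map_mul, map_mul, mul_pow]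
    ring
  have h4 : (Ψ (w s) * s ^ q) * (Ψ (w x) - x ^ q) ∈ stbLocMax B N := by
    rw [e]
    exact hP.locMax_sub (hP.locMax_mul hsq (hchart _ hsx))
      (hP.locMax_mul (hP.loc_pow (hP.loc_of_mem hsx) q) (hchart s hs))
  have h5 : Ψ (w s) * s ^ q ∉ stbLocMax B N := fun hh =>
    (hP.locMax_prime hgs hsq hh).elim hgs' hsq'
  exact (hP.locMax_prime (hP.loc_mul hgs hsq) (hP.loc_sub hgx hxq) h4).resolve_left h5

end StbFrobVal

end SetForm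

section AtForm

variable {A₀ E F : Type*} [CommRing A₀] [IsDomain A₀] [IsDiscreteValuationRing A₀]
  [Field E] [Algebra A₀ E] [IsFractionRing A₀ E] [CharZero E]
  [Field F] [Algebra E F] [Algebra A₀ F] [IsScalarTower A₀ E F]
  {π : A₀}

/-- the local ring `atLoc 𝔫` in set form -/
theorem stbsw_mem_atLoc_iff {u : F} (𝔫 : AtPt (F := F) π u) {x : F} :
    x ∈ atLoc 𝔫 ↔
      x ∈ stbLoc (zchClosure (A₀ := A₀) ({u} : Set F)).toSubring
        (stbIdealSet (zchClosure (A₀ := A₀) ({u} : Set F)) 𝔫.1) := by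
  constructor
  · rintro ⟨b, s, hs, hsx⟩
    refine ⟨(s : F), s.2, fun hh => hs ((coe_mem_stbIdealSet s).mp hh), ?_⟩
    have e : (s : F) * x = (b : F) := hsx
    rw [e]
    exact b.2
  · rintro ⟨s, hs, hsN, hsx⟩
    exact ⟨⟨s * x, hsx⟩, ⟨s, hs⟩, fun hh => hsN ⟨hs, hh⟩, rfl⟩

/-- nonunits of the local ring `atLoc 𝔫` in set form -/
theorem stbsw_not_isUnit_of_locMax {u : F} (𝔫 : AtPt (F := F) π u) (z : atLoc 𝔫)
    (hz : (z : F) ∈ stbLocMax (zchClosure (A₀ := A₀) ({u} : Set F)).toSubring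
      (stbIdealSet (zchClosure (A₀ := A₀) ({u} : Set F)) 𝔫.1)) : ¬ IsUnit z := by
  haveI := 𝔫.2.1.isPrime
  have hP := stbPt_of_isPrime (S := zchClosure (A₀ := A₀) ({u} : Set F)) 𝔫.1
  intro hu
  obtain ⟨z', hz'⟩ := hu.exists_right_inv
  have h1 : (z' : F) * (z : F) = 1 := by
    rw [mul_comm]
    exact congrArg Subtype.val hz'
  have h2 := hP.locMax_mul ((stbsw_mem_atLoc_iff 𝔫).mp z'.2) hz
  rw [h1] at h2
  exact hP.one_not_mem_locMax h2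

/-- **(Fr′) at a crossing point, swap form** : the 4th field of
`StbCross (atLoc 𝔫) V₁ V₂ g q m y` for `g = Ψ ∘ w`, from `StbFrobVal` on the chart `u`. -/
theorem stbsw_cross_hfrob [IsAlgClosed (IsLocalRing.ResidueField A₀)] (hπ : Irreducible π)
    {u : F} (V₁ V₂ : ValuationSubring F) (w Ψ : F ≃+* F) (q : ℕ) (hq : q ≠ 0)
    (h : StbFrobVal (zchClosure (A₀ := A₀) ({u} : Set F)).toSubring V₁ V₂ w Ψ q)
    (g : F →+* F) (hg : ∀ x : F, g x = Ψ (w x))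
    (hwR : ∀ a : A₀, w (algebraMap A₀ F a) = algebraMap A₀ F a)
    (hΨR : ∀ a : A₀, ∃ c : A₀, Ψ (algebraMap A₀ F a) = algebraMap A₀ F (a ^ q + π * c))
    (𝔫 : AtPt (F := F) π u) (hc₁ : atThrough 𝔫 V₁) (hc₂ : atThrough 𝔫 V₂) (x : atLoc 𝔫) :
    ∃ z : atLoc 𝔫, ¬ IsUnit z ∧ (z : F) = g (x : F) - (x : F) ^ q := by
  haveI := 𝔫.2.1.isPrime
  have hN := stbCrossPt_of_isPrime (S := zchClosure (A₀ := A₀) ({u} : Set F)) 𝔫.1 V₁ V₂ hc₁ hc₂
  have hx := (stbsw_mem_atLoc_iff 𝔫).mp x.2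
  have hιB : ∀ a : A₀, algebraMap A₀ F a ∈ (zchClosure (A₀ := A₀) ({u} : Set F)).toSubring :=
    fun a => (zchClosure (A₀ := A₀) ({u} : Set F)).algebraMap_mem a
  have hπN : algebraMap A₀ F π ∈ stbIdealSet (zchClosure (A₀ := A₀) ({u} : Set F)) 𝔫.1 :=
    ⟨hιB π, 𝔫.2.2⟩
  have hrat : ∀ b ∈ (zchClosure (A₀ := A₀) ({u} : Set F)).toSubring,
      ∃ a : A₀, b - algebraMap A₀ F a ∈ stbIdealSet (zchClosure (A₀ := A₀) ({u} : Set F)) 𝔫.1 := by
    intro b hb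
    obtain ⟨a, ha⟩ := stb_cf_rational hπ 𝔫 ⟨b, hb⟩
    exact ⟨a, Subalgebra.sub_mem _ hb (hιB a), ha⟩
  have key := h.swapFrob_sub_pow (algebraMap A₀ F) hq hN hιB π hπN hwR hΨR hrat hx
  have hmem : g (x : F) - (x : F) ^ q ∈ atLoc 𝔫 := by
    rw [hg]
    exact (stbsw_mem_atLoc_iff 𝔫).mpr (hN.toStbPt.locMax_le_loc key)
  refine ⟨⟨_, hmem⟩, stbsw_not_isUnit_of_locMax 𝔫 _ ?_, rfl⟩
  show g (x : F) - (x : F) ^ q ∈ _
  rw [hg]
  exact key

/-- nonunits of the local ring `atLoc 𝔫`, set form, converse -/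
theorem stbsw_locMax_of_not_isUnit {u : F} (𝔫 : AtPt (F := F) π u) (z : atLoc 𝔫)
    (hz : ¬ IsUnit z) :
    (z : F) ∈ stbLocMax (zchClosure (A₀ := A₀) ({u} : Set F)).toSubring
      (stbIdealSet (zchClosure (A₀ := A₀) ({u} : Set F)) 𝔫.1) := by
  haveI := 𝔫.2.1.isPrime
  obtain ⟨b, s, hs, hsx⟩ := z.2
  have hb : b ∈ 𝔫.1 := by
    by_contra hb
    exact hz (ls_isUnit_of_not_mem Subtype.val_injective 𝔫.1 z hb hs hsx)
  refine ⟨(s : F), s.2, fun hh => hs ((coe_mem_stbIdealSet s).mp hh), ?_⟩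
  have e : (s : F) * (z : F) = (b : F) := hsx
  rw [e]
  exact (coe_mem_stbIdealSet b).mpr hb

/-- the closed points are rational: every element of `atLoc 𝔫` is congruent to a constant -/
theorem stbsw_atLoc_rational [IsAlgClosed (IsLocalRing.ResidueField A₀)] (hπ : Irreducible π)
    {u : F} (𝔫 : AtPt (F := F) π u) {x : F} (hx : x ∈ atLoc 𝔫) :
    ∃ a : A₀, x - algebraMap A₀ F a ∈
      stbLocMax (zchClosure (A₀ := A₀) ({u} : Set F)).toSubring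
        (stbIdealSet (zchClosure (A₀ := A₀) ({u} : Set F)) 𝔫.1) := by
  haveI := 𝔫.2.1.isPrime
  obtain ⟨b, s, hs, hsx⟩ := hx
  have hsx' : (s : F) * x = (b : F) := hsx
  obtain ⟨a₁, ha₁⟩ := stb_cf_rational hπ 𝔫 b
  obtain ⟨a₂, ha₂⟩ := stb_cf_rational hπ 𝔫 s
  have ha₂u : IsUnit a₂ := by
    by_contra hnu
    have hmem : a₂ ∈ IsLocalRing.maximalIdeal A₀ := (IsLocalRing.mem_maximalIdeal a₂).mpr hnu
    rw [hπ.maximalIdeal_eq, Ideal.mem_span_singleton] at hmem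
    obtain ⟨c, rfl⟩ := hmem
    apply hs
    have h1 : algebraMap A₀ ↥(zchClosure (A₀ := A₀) ({u} : Set F)) (π * c) ∈ 𝔫.1 := by
      rw [map_mul]
      exact Ideal.mul_mem_right _ _ 𝔫.2.2
    have := 𝔫.1.add_mem ha₂ h1
    rwa [sub_add_cancel] at this
  obtain ⟨a₃, ha₃⟩ := ha₂u.exists_right_inv
  refine ⟨a₁ * a₃, (s : F), s.2, fun hh => hs ((coe_mem_stbIdealSet s).mp hh), ?_⟩
  have h3 : algebraMap A₀ F a₂ * algebraMap A₀ F a₃ = 1 := by
    rw [← map_mul, ha₃, map_one]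
  have key := (coe_mem_stbIdealSet (𝔫 := 𝔫.1)
    ((b - algebraMap A₀ ↥(zchClosure (A₀ := A₀) ({u} : Set F)) a₁) -
      (s - algebraMap A₀ ↥(zchClosure (A₀ := A₀) ({u} : Set F)) a₂) *
        algebraMap A₀ ↥(zchClosure (A₀ := A₀) ({u} : Set F)) (a₁ * a₃))).mpr
    (𝔫.1.sub_mem ha₁ (Ideal.mul_mem_right _ _ ha₂))
  have e : (s : F) * (x - algebraMap A₀ F (a₁ * a₃)) =
      ((b : F) - algebraMap A₀ F a₁) - ((s : F) - algebraMap A₀ F a₂) *
        algebraMap A₀ F (a₁ * a₃) := by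
    rw [mul_sub, hsx', map_mul]
    linear_combination (-(algebraMap A₀ F a₁)) * h3
  rw [e]
  exact key

/-- **The preimage of a closed point under `g`.**  `𝔫` a closed point of the chart `u₀`,
`g (B_u) ⊆ atLoc 𝔫`, `g a ≡ a ^ q mod π` on the base (residue field algebraically closed).  Then
`𝔫₁ = B_u ∩ g⁻¹ (𝔪 (atLoc 𝔫))` is a closed point of the chart `u`, `g (atLoc 𝔫₁) ⊆ atLoc 𝔫`, and
if `g 𝔪(W') ⊆ 𝔪(W)` and `W` passes through `𝔫` then `W'` passes through `𝔫₁`. -/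
theorem stbsw_exists_preimage_iff [IsAlgClosed (IsLocalRing.ResidueField A₀)]
    (hπ : Irreducible π)
    {u u₀ : F} (𝔫 : AtPt (F := F) π u₀) (g : F →+* F) (q : ℕ) (hq : q ≠ 0)
    (hgB : ∀ b : F, IsIntegral ↥(Algebra.adjoin A₀ {u}) b → g b ∈ atLoc 𝔫)
    (hgA : ∀ a : A₀, ∃ c : A₀, g (algebraMap A₀ F a) = algebraMap A₀ F (a ^ q + π * c)) :
    ∃ 𝔫₁ : AtPt (F := F) π u, (∀ x ∈ atLoc 𝔫₁, g x ∈ atLoc 𝔫) ∧
      (∀ W W' : ValuationSubring F, (∀ x ∈ W'.nonunits, g x ∈ W.nonunits) →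
        (∀ b : F, IsIntegral ↥(Algebra.adjoin A₀ {u₀}) b → b ∈ W) → atThrough 𝔫 W →
        atThrough 𝔫₁ W') ∧
      ∀ b : ↥(zchClosure (A₀ := A₀) ({u} : Set F)), b ∈ 𝔫₁.1 ↔
        g (b : F) ∈ stbLocMax (zchClosure (A₀ := A₀) ({u₀} : Set F)).toSubring
          (stbIdealSet (zchClosure (A₀ := A₀) ({u₀} : Set F)) 𝔫.1) := by
  haveI := 𝔫.2.1.isPrime
  haveI hloc : IsLocalRing (atLoc 𝔫) := ls_localSubring_isLocalRing Subtype.val_injective 𝔫.1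
  have hP₀ := stbPt_of_isPrime (S := zchClosure (A₀ := A₀) ({u₀} : Set F)) 𝔫.1
  have hιB : ∀ a : A₀, algebraMap A₀ F a ∈ (zchClosure (A₀ := A₀) ({u₀} : Set F)).toSubring :=
    fun a => (zchClosure (A₀ := A₀) ({u₀} : Set F)).algebraMap_mem a
  have hιS : ∀ a : A₀, algebraMap A₀ F a ∈ zchClosure (A₀ := A₀) ({u} : Set F) :=
    fun a => (zchClosure (A₀ := A₀) ({u} : Set F)).algebraMap_mem a
  -- the ring homomorphism `φ : B_u → atLoc 𝔫`
  let φ : ↥(zchClosure (A₀ := A₀) ({u} : Set F)) →+* ↥(atLoc 𝔫) :=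
    (g.comp (zchClosure (A₀ := A₀) ({u} : Set F)).val.toRingHom).codRestrict (atLoc 𝔫)
      (fun b => hgB _ (mem_zchClosure.mp b.2))
  have hφ : ∀ b : ↥(zchClosure (A₀ := A₀) ({u} : Set F)), ((φ b : atLoc 𝔫) : F) = g (b : F) :=
    fun b => rfl
  have hiff : ∀ b : ↥(zchClosure (A₀ := A₀) ({u} : Set F)),
      b ∈ Ideal.comap φ (IsLocalRing.maximalIdeal (atLoc 𝔫)) ↔
        g (b : F) ∈ stbLocMax (zchClosure (A₀ := A₀) ({u₀} : Set F)).toSubring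
          (stbIdealSet (zchClosure (A₀ := A₀) ({u₀} : Set F)) 𝔫.1) := by
    intro b
    rw [Ideal.mem_comap, IsLocalRing.mem_maximalIdeal, mem_nonunits_iff]
    constructor
    · intro h
      exact stbsw_locMax_of_not_isUnit 𝔫 (φ b) h
    · intro h
      exact stbsw_not_isUnit_of_locMax 𝔫 (φ b) h
  have hπmax : algebraMap A₀ F π ∈ stbLocMax (zchClosure (A₀ := A₀) ({u₀} : Set F)).toSubring
      (stbIdealSet (zchClosure (A₀ := A₀) ({u₀} : Set F)) 𝔫.1) :=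
    (hP₀.mem_locMax_iff (hιB π)).mpr ⟨hιB π, 𝔫.2.2⟩
  have hconst : ∀ a : A₀, algebraMap A₀ F a ∈
      stbLoc (zchClosure (A₀ := A₀) ({u₀} : Set F)).toSubring
        (stbIdealSet (zchClosure (A₀ := A₀) ({u₀} : Set F)) 𝔫.1) :=
    fun a => hP₀.loc_of_mem (hιB a)
  have hπc : ∀ c : A₀, algebraMap A₀ F (π * c) ∈
      stbLocMax (zchClosure (A₀ := A₀) ({u₀} : Set F)).toSubring
        (stbIdealSet (zchClosure (A₀ := A₀) ({u₀} : Set F)) 𝔫.1) := by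
    intro c
    rw [map_mul, mul_comm]
    exact hP₀.locMax_mul (hconst c) hπmax
  have hgπ : ∀ c : A₀, g (algebraMap A₀ F (π * c)) ∈
      stbLocMax (zchClosure (A₀ := A₀) ({u₀} : Set F)).toSubring
        (stbIdealSet (zchClosure (A₀ := A₀) ({u₀} : Set F)) 𝔫.1) := by
    intro c
    obtain ⟨d, hd⟩ := hgA (π * c)
    have e : (π * c) ^ q + π * d = π * (π ^ (q - 1) * c ^ q + d) := by
      obtain ⟨n, rfl⟩ := Nat.exists_eq_succ_of_ne_zero hq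
      rw [Nat.succ_sub_one, mul_pow, pow_succ]
      ring
    rw [hd, e]
    exact hπc _
  -- maximality
  have hmax : (Ideal.comap φ (IsLocalRing.maximalIdeal (atLoc 𝔫))).IsMaximal := by
    rw [Ideal.isMaximal_iff]
    refine ⟨fun h1 => ?_, fun J x hIJ hxI hxJ => ?_⟩
    · rw [Ideal.mem_comap, map_one] at h1
      exact (IsLocalRing.maximalIdeal.isMaximal _).ne_top ((Ideal.eq_top_iff_one _).mpr h1)
    · obtain ⟨a', ha'⟩ := stbsw_atLoc_rational hπ 𝔫 (hgB _ (mem_zchClosure.mp x.2))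
      obtain ⟨z, hz⟩ := IsAlgClosed.exists_pow_nat_eq (IsLocalRing.residue A₀ a')
        (Nat.pos_of_ne_zero hq)
      obtain ⟨a₁, rfl⟩ := IsLocalRing.residue_surjective z
      have hres : a₁ ^ q - a' ∈ IsLocalRing.maximalIdeal A₀ := by
        rw [← IsLocalRing.residue_eq_zero_iff, map_sub, map_pow, hz, sub_self]
      rw [hπ.maximalIdeal_eq, Ideal.mem_span_singleton] at hres
      obtain ⟨d, hd⟩ := hres
      obtain ⟨c, hc⟩ := hgA a₁
      have hxa : x - algebraMap A₀ ↥(zchClosure (A₀ := A₀) ({u} : Set F)) a₁ ∈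
          Ideal.comap φ (IsLocalRing.maximalIdeal (atLoc 𝔫)) := by
        rw [hiff]
        have e : g ((x - algebraMap A₀ ↥(zchClosure (A₀ := A₀) ({u} : Set F)) a₁ :
            ↥(zchClosure (A₀ := A₀) ({u} : Set F))) : F) =
            (g (x : F) - algebraMap A₀ F a') - algebraMap A₀ F (π * (d + c)) := by
          have e1 : ((x - algebraMap A₀ ↥(zchClosure (A₀ := A₀) ({u} : Set F)) a₁ :
              ↥(zchClosure (A₀ := A₀) ({u} : Set F))) : F) = (x : F) - algebraMap A₀ F a₁ := rfl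
          have e2 : algebraMap A₀ F (a₁ ^ q) - algebraMap A₀ F a' = algebraMap A₀ F (π * d) := by
            rw [← map_sub, hd]
          rw [e1, map_sub, hc, map_add, mul_add, map_add]
          linear_combination -e2
        rw [e]
        exact hP₀.locMax_sub ha' (hπc _)
      have ha₁u : IsUnit a₁ := by
        by_contra hnu
        have hmem : a₁ ∈ IsLocalRing.maximalIdeal A₀ := (IsLocalRing.mem_maximalIdeal a₁).mpr hnu
        rw [hπ.maximalIdeal_eq, Ideal.mem_span_singleton] at hmem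
        obtain ⟨e, rfl⟩ := hmem
        apply hxI
        have h1 : algebraMap A₀ ↥(zchClosure (A₀ := A₀) ({u} : Set F)) (π * e) ∈
            Ideal.comap φ (IsLocalRing.maximalIdeal (atLoc 𝔫)) := by
          rw [hiff]
          exact hgπ e
        have := Ideal.add_mem _ hxa h1
        rwa [sub_add_cancel] at this
      obtain ⟨a₃, ha₃⟩ := ha₁u.exists_left_inv
      have h2 : algebraMap A₀ ↥(zchClosure (A₀ := A₀) ({u} : Set F)) a₁ ∈ J := by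
        have := J.sub_mem hxJ (hIJ hxa)
        rwa [sub_sub_cancel] at this
      have h3 := J.mul_mem_left (algebraMap A₀ ↥(zchClosure (A₀ := A₀) ({u} : Set F)) a₃) h2
      rwa [← map_mul, ha₃, map_one] at h3
  have hπI : algebraMap A₀ ↥(zchClosure (A₀ := A₀) ({u} : Set F)) π ∈
      Ideal.comap φ (IsLocalRing.maximalIdeal (atLoc 𝔫)) := by
    rw [hiff]
    have := hgπ 1
    rwa [mul_one] at this
  refine ⟨⟨Ideal.comap φ (IsLocalRing.maximalIdeal (atLoc 𝔫)), hmax, hπI⟩, ?_, ?_, hiff⟩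
  · rintro x ⟨b, s, hs, hsx⟩
    have hsx' : (s : F) * x = (b : F) := hsx
    have hsu : IsUnit (φ s) := by
      by_contra hnu
      exact hs ((Ideal.mem_comap).mpr ((IsLocalRing.mem_maximalIdeal _).mpr hnu))
    obtain ⟨v, hv⟩ := hsu.exists_left_inv
    have hv' : (v : F) * g (s : F) = 1 := by
      have := congrArg Subtype.val hv
      simpa [hφ] using this
    have e : g x = (v : F) * g (b : F) := by
      rw [← hsx', map_mul, ← mul_assoc, hv', one_mul]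
    rw [e]
    exact (atLoc 𝔫).mul_mem v.2 (φ b).2
  · intro W W' hgW hBW hthr b hb
    show b ∈ Ideal.comap φ (IsLocalRing.maximalIdeal (atLoc 𝔫))
    rw [hiff]
    exact hP₀.locMax_of_nonunits W (fun b hb => hBW b (mem_zchClosure.mp hb))
      (fun b hb hbW => ⟨hb, hthr ⟨b, hb⟩ hbW⟩)
      ((stbsw_mem_atLoc_iff 𝔫).mp (hgB _ (mem_zchClosure.mp b.2))) (hgW _ hb)

/-- `stbsw_exists_preimage_iff` without the characterisation of `𝔫₁` -/
theorem stbsw_exists_preimage [IsAlgClosed (IsLocalRing.ResidueField A₀)] (hπ : Irreducible π)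
    {u u₀ : F} (𝔫 : AtPt (F := F) π u₀) (g : F →+* F) (q : ℕ) (hq : q ≠ 0)
    (hgB : ∀ b : F, IsIntegral ↥(Algebra.adjoin A₀ {u}) b → g b ∈ atLoc 𝔫)
    (hgA : ∀ a : A₀, ∃ c : A₀, g (algebraMap A₀ F a) = algebraMap A₀ F (a ^ q + π * c)) :
    ∃ 𝔫₁ : AtPt (F := F) π u, (∀ x ∈ atLoc 𝔫₁, g x ∈ atLoc 𝔫) ∧
      ∀ W W' : ValuationSubring F, (∀ x ∈ W'.nonunits, g x ∈ W.nonunits) →
        (∀ b : F, IsIntegral ↥(Algebra.adjoin A₀ {u₀}) b → b ∈ W) → atThrough 𝔫 W →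
        atThrough 𝔫₁ W' := by
  obtain ⟨𝔫₁, h1, h2, -⟩ := stbsw_exists_preimage_iff hπ (u := u) 𝔫 g q hq hgB hgA
  exact ⟨𝔫₁, h1, h2⟩

/-- `A₀[t] ⊆ atLoc 𝔫` if `t ∈ atLoc 𝔫` -/
theorem stbsw_adjoin_le_atLoc {u t : F} (𝔫 : AtPt (F := F) π u) (ht : t ∈ atLoc 𝔫) :
    ∀ x ∈ Algebra.adjoin A₀ ({t} : Set F), x ∈ atLoc 𝔫 := by
  haveI := 𝔫.2.1.isPrime
  intro x hx
  induction hx using Algebra.adjoin_induction with
  | mem y hy =>
    rw [Set.mem_singleton_iff] at hy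
    rw [hy]
    exact ht
  | algebraMap r =>
    exact ls_algebraMap_mem 𝔫.1 (algebraMap A₀ ↥(zchClosure (A₀ := A₀) ({u} : Set F)) r)
  | add x y _ _ hx hy => exact (atLoc 𝔫).add_mem hx hy
  | mul x y _ _ hx hy => exact (atLoc 𝔫).mul_mem hx hy

/-- integrality over `A₀[t]` implies integrality over every subring containing `A₀[t]` -/
theorem stbsw_isIntegral_of_adjoin_le (O : Subring F) {t : F}
    (h : ∀ x ∈ Algebra.adjoin A₀ ({t} : Set F), x ∈ O)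
    {b : F} (hb : IsIntegral ↥(Algebra.adjoin A₀ ({t} : Set F)) b) : IsIntegral ↥O b := by
  obtain ⟨p, hp, hpb⟩ := hb
  let j : ↥(Algebra.adjoin A₀ ({t} : Set F)) →+* ↥O :=
    (Algebra.adjoin A₀ ({t} : Set F)).val.toRingHom.codRestrict O (fun x => h x x.2)
  refine ⟨p.map j, hp.map j, ?_⟩
  rw [Polynomial.eval₂_map]
  exact hpb

/-- the chart `B_t` lies in `atLoc 𝔫` if `t ∈ atLoc 𝔫` (`atLoc 𝔫` is integrally closed) -/
theorem stbsw_isIntegral_mem_atLoc {u t : F} (𝔫 : AtPt (F := F) π u) (ht : t ∈ atLoc 𝔫)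
    {b : F} (hb : IsIntegral ↥(Algebra.adjoin A₀ ({t} : Set F)) b) : b ∈ atLoc 𝔫 := by
  haveI := 𝔫.2.1.isPrime
  exact ls_isIntegral_mem_localSubring (at_chart_integrallyClosed (A₀ := A₀) u) 𝔫.1 b
    (stbsw_isIntegral_of_adjoin_le (atLoc 𝔫) (stbsw_adjoin_le_atLoc 𝔫 ht) hb)

/-- **Swap geometry at the points of the two charts.**  `g` preserves the chart `t`, maps the
chart `t⁻¹` into `B_{t⁻¹}[1/e]` with multipliers `e ≡ 1 mod t⁻¹`, and `g 𝔪(V (s c)) ⊆ 𝔪(V c)`.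
Then every closed point `i` on the component `c` has a preimage `i₁` on the component `s c`:
`g (atO i₁) ⊆ atO i`  (first field of `StbSwapSmooth`). -/
theorem stbsw_smooth_geom [IsAlgClosed (IsLocalRing.ResidueField A₀)] (hπ : Irreducible π)
    {κ : Type*} {t : F} (V : κ → ValuationSubring F)
    (hBV₁ : ∀ c (b : F), IsIntegral ↥(Algebra.adjoin A₀ {t}) b → b ∈ V c)
    (hBV₂ : ∀ c (b : F), IsIntegral ↥(Algebra.adjoin A₀ {t⁻¹}) b → b ∈ V c)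
    (g : F →+* F) (q : ℕ) (hq : q ≠ 0)
    (hgA : ∀ a : A₀, ∃ c : A₀, g (algebraMap A₀ F a) = algebraMap A₀ F (a ^ q + π * c))
    (s : κ → κ) (hgV : ∀ c, ∀ x ∈ (V (s c)).nonunits, g x ∈ (V c).nonunits)
    (hgJ : ∀ b : F, IsIntegral ↥(Algebra.adjoin A₀ {t}) b →
      IsIntegral ↥(Algebra.adjoin A₀ {t}) (g b))
    (hgL : ∀ b : F, IsIntegral ↥(Algebra.adjoin A₀ {t⁻¹}) b →
      ∃ e e' : F, IsIntegral ↥(Algebra.adjoin A₀ {t⁻¹}) e ∧
        IsIntegral ↥(Algebra.adjoin A₀ {t⁻¹}) e' ∧ e = 1 + t⁻¹ * e' ∧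
        IsIntegral ↥(Algebra.adjoin A₀ {t⁻¹}) (e * g b))
    (i : AtPt (F := F) π t ⊕ AtPt (F := F) π t⁻¹) (c : κ) (hc : atInc π t V i c) :
    ∃ i₁ : AtPt (F := F) π t ⊕ AtPt (F := F) π t⁻¹, atInc π t V i₁ (s c) ∧
      ∀ x ∈ atO π t i₁, g x ∈ atO π t i := by
  rcases i with 𝔫 | 𝔫
  · haveI := 𝔫.2.1.isPrime
    obtain ⟨𝔫₁, h1, h2⟩ := stbsw_exists_preimage hπ (u := t) 𝔫 g q hq
      (fun b hb => ls_algebraMap_mem 𝔫.1
        (⟨g b, mem_zchClosure.mpr (hgJ b hb)⟩ : ↥(zchClosure (A₀ := A₀) ({t} : Set F)))) hgA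
    exact ⟨Sum.inl 𝔫₁, h2 (V c) (V (s c)) (hgV c) (hBV₁ c) hc, h1⟩
  · haveI := 𝔫.2.1.isPrime
    have htinv : IsIntegral ↥(Algebra.adjoin A₀ ({t⁻¹} : Set F)) t⁻¹ :=
      isIntegral_algebraMap (R := ↥(Algebra.adjoin A₀ ({t⁻¹} : Set F)))
        (x := ⟨t⁻¹, Algebra.subset_adjoin (Set.mem_singleton _)⟩)
    by_cases hcusp : (⟨t⁻¹, mem_zchClosure.mpr htinv⟩ :
        ↥(zchClosure (A₀ := A₀) ({t⁻¹} : Set F))) ∈ 𝔫.1
    · -- a point over `t = ∞`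
      obtain ⟨𝔫₁, h1, h2⟩ := stbsw_exists_preimage hπ (u := t⁻¹) 𝔫 g q hq
        (fun b hb => by
          obtain ⟨e, e', he, he', hee', heb⟩ := hgL b hb
          refine ⟨⟨e * g b, mem_zchClosure.mpr heb⟩, ⟨e, mem_zchClosure.mpr he⟩, ?_, rfl⟩
          intro he𝔫
          have h3 : (⟨t⁻¹, mem_zchClosure.mpr htinv⟩ :
              ↥(zchClosure (A₀ := A₀) ({t⁻¹} : Set F))) * ⟨e', mem_zchClosure.mpr he'⟩ ∈ 𝔫.1 :=
            Ideal.mul_mem_right _ _ hcusp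
          have h4 := 𝔫.1.sub_mem he𝔫 h3
          have h5 : (⟨e, mem_zchClosure.mpr he⟩ : ↥(zchClosure (A₀ := A₀) ({t⁻¹} : Set F))) -
              ⟨t⁻¹, mem_zchClosure.mpr htinv⟩ * ⟨e', mem_zchClosure.mpr he'⟩ = 1 := by
            apply Subtype.ext
            show e - t⁻¹ * e' = 1
            rw [hee']
            ring
          rw [h5] at h4
          exact 𝔫.2.1.ne_top ((Ideal.eq_top_iff_one _).mpr h4)) hgA
      exact ⟨Sum.inr 𝔫₁, h2 (V c) (V (s c)) (hgV c) (hBV₂ c) hc, h1⟩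
    · -- a point of the chart `t⁻¹` which lies on the chart `t`
      have ht0 : t ≠ 0 := by
        rintro rfl
        apply hcusp
        have : (⟨(0 : F)⁻¹, mem_zchClosure.mpr htinv⟩ :
            ↥(zchClosure (A₀ := A₀) ({(0 : F)⁻¹} : Set F))) = 0 := Subtype.ext inv_zero
        rw [this]
        exact 𝔫.1.zero_mem
      have ht : t ∈ atLoc 𝔫 :=
        ⟨1, ⟨t⁻¹, mem_zchClosure.mpr htinv⟩, hcusp, by
          show t⁻¹ * t = ((1 : ↥(zchClosure (A₀ := A₀) ({t⁻¹} : Set F))) : F)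
          rw [inv_mul_cancel₀ ht0]
          rfl⟩
      obtain ⟨𝔫₁, h1, h2⟩ := stbsw_exists_preimage hπ (u := t) 𝔫 g q hq
        (fun b hb => stbsw_isIntegral_mem_atLoc 𝔫 ht (hgJ b hb)) hgA
      exact ⟨Sum.inl 𝔫₁, h2 (V c) (V (s c)) (hgV c) (hBV₂ c) hc, h1⟩

/-- **A crossing preimage forces equality of the points.**  If the preimage `𝔫₁` (chart `u`) of
`𝔫` (chart `u₀`) under `g = Ψ ∘ w` is a crossing point, then `B_u ⊆ atLoc 𝔫` and
`𝔪 (atLoc 𝔫) ∩ B_u = 𝔫₁`. -/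
theorem stbsw_preimage_cross {u u₀ : F} (V₁ V₂ : ValuationSubring F) (w Ψ : F ≃+* F) (q : ℕ)
    (hq : q ≠ 0)
    (h : StbFrobVal (zchClosure (A₀ := A₀) ({u} : Set F)).toSubring V₁ V₂ w Ψ q)
    (g : F →+* F) (hg : ∀ x : F, g x = Ψ (w x))
    (𝔫 : AtPt (F := F) π u₀) (𝔫₁ : AtPt (F := F) π u)
    (hc₁ : atThrough 𝔫₁ V₁) (hc₂ : atThrough 𝔫₁ V₂)
    (hgO : ∀ x ∈ atLoc 𝔫₁, g x ∈ atLoc 𝔫)
    (hiff : ∀ b : ↥(zchClosure (A₀ := A₀) ({u} : Set F)), b ∈ 𝔫₁.1 ↔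
      g (b : F) ∈ stbLocMax (zchClosure (A₀ := A₀) ({u₀} : Set F)).toSubring
        (stbIdealSet (zchClosure (A₀ := A₀) ({u₀} : Set F)) 𝔫.1))
    (b : ↥(zchClosure (A₀ := A₀) ({u} : Set F))) :
    (b : F) ∈ atLoc 𝔫 ∧
      ((b : F) ∈ stbLocMax (zchClosure (A₀ := A₀) ({u₀} : Set F)).toSubring
        (stbIdealSet (zchClosure (A₀ := A₀) ({u₀} : Set F)) 𝔫.1) ↔ b ∈ 𝔫₁.1) := by
  haveI := 𝔫.2.1.isPrime
  haveI := 𝔫₁.2.1.isPrime
  have hP₀ := stbPt_of_isPrime (S := zchClosure (A₀ := A₀) ({u₀} : Set F)) 𝔫.1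
  have hN₁ := stbCrossPt_of_isPrime (S := zchClosure (A₀ := A₀) ({u} : Set F)) 𝔫₁.1 V₁ V₂ hc₁ hc₂
  have hP₁ := hN₁.toStbPt
  have hb : (b : F) ∈ (zchClosure (A₀ := A₀) ({u} : Set F)).toSubring := b.2
  obtain ⟨s', hs', hs'N, hb'⟩ := h.swap_mem_loc hN₁ (h.hΨB' _ hb)
  have hgb : g (w (Ψ.symm (b : F))) = (b : F) := by
    rw [hg, h.hww, RingEquiv.apply_symm_apply]
  have e : g s' * (b : F) = g (s' * w (Ψ.symm (b : F))) := by
    rw [map_mul, hgb]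
  have hgs : g s' ∈ stbLoc (zchClosure (A₀ := A₀) ({u₀} : Set F)).toSubring
      (stbIdealSet (zchClosure (A₀ := A₀) ({u₀} : Set F)) 𝔫.1) :=
    (stbsw_mem_atLoc_iff 𝔫).mp (hgO _ ((stbsw_mem_atLoc_iff 𝔫₁).mpr (hP₁.loc_of_mem hs')))
  have hgs' : g s' ∉ stbLocMax (zchClosure (A₀ := A₀) ({u₀} : Set F)).toSubring
      (stbIdealSet (zchClosure (A₀ := A₀) ({u₀} : Set F)) 𝔫.1) := fun hh =>
    hs'N ((coe_mem_stbIdealSet (⟨s', hs'⟩ : ↥(zchClosure (A₀ := A₀) ({u} : Set F)))).mpr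
      ((hiff ⟨s', hs'⟩).mpr hh))
  have hgb' : g (s' * w (Ψ.symm (b : F))) ∈
      stbLoc (zchClosure (A₀ := A₀) ({u₀} : Set F)).toSubring
        (stbIdealSet (zchClosure (A₀ := A₀) ({u₀} : Set F)) 𝔫.1) :=
    (stbsw_mem_atLoc_iff 𝔫).mp (hgO _ ((stbsw_mem_atLoc_iff 𝔫₁).mpr (hP₁.loc_of_mem hb')))
  have hbO : (b : F) ∈ stbLoc (zchClosure (A₀ := A₀) ({u₀} : Set F)).toSubring
      (stbIdealSet (zchClosure (A₀ := A₀) ({u₀} : Set F)) 𝔫.1) :=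
    hP₀.loc_of_unit_mul hgs hgs' (by rw [e]; exact hgb')
  refine ⟨(stbsw_mem_atLoc_iff 𝔫).mpr hbO, ?_⟩
  have e1 : (b : F) ∈ stbLocMax (zchClosure (A₀ := A₀) ({u₀} : Set F)).toSubring
      (stbIdealSet (zchClosure (A₀ := A₀) ({u₀} : Set F)) 𝔫.1) ↔
      g (s' * w (Ψ.symm (b : F))) ∈ stbLocMax (zchClosure (A₀ := A₀) ({u₀} : Set F)).toSubring
        (stbIdealSet (zchClosure (A₀ := A₀) ({u₀} : Set F)) 𝔫.1) := by
    rw [← e]
    constructor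
    · intro hh
      exact hP₀.locMax_mul hgs hh
    · intro hh
      exact (hP₀.locMax_prime hgs hbO hh).resolve_left hgs'
  have e2 : g (s' * w (Ψ.symm (b : F))) ∈
      stbLocMax (zchClosure (A₀ := A₀) ({u₀} : Set F)).toSubring
        (stbIdealSet (zchClosure (A₀ := A₀) ({u₀} : Set F)) 𝔫.1) ↔
      s' * w (Ψ.symm (b : F)) ∈ stbIdealSet (zchClosure (A₀ := A₀) ({u} : Set F)) 𝔫₁.1 := by
    rw [← hiff ⟨_, hb'⟩]
    exact (coe_mem_stbIdealSet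
      (⟨_, hb'⟩ : ↥(zchClosure (A₀ := A₀) ({u} : Set F)))).symm
  have e3 : s' * w (Ψ.symm (b : F)) ∈ stbIdealSet (zchClosure (A₀ := A₀) ({u} : Set F)) 𝔫₁.1 ↔
      w (Ψ.symm (b : F)) ∈ stbLocMax (zchClosure (A₀ := A₀) ({u} : Set F)).toSubring
        (stbIdealSet (zchClosure (A₀ := A₀) ({u} : Set F)) 𝔫₁.1) := by
    constructor
    · intro hh
      exact ⟨s', hs', hs'N, hh⟩
    · intro hh
      exact (hP₁.mem_locMax_iff hb').mp (hP₁.locMax_mul (hP₁.loc_of_mem hs') hh)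
  have e4 := h.mem_iff_swap hq hN₁ hb
  rw [e1, e2, e3, ← e4]
  exact coe_mem_stbIdealSet b

/-- transfer of incidence along an equality of points -/
theorem stbsw_through_transfer {u u₀ : F} (𝔫 : AtPt (F := F) π u₀) (𝔫₁ : AtPt (F := F) π u)
    (hB : ∀ b : ↥(zchClosure (A₀ := A₀) ({u} : Set F)), (b : F) ∈ atLoc 𝔫 ∧
      ((b : F) ∈ stbLocMax (zchClosure (A₀ := A₀) ({u₀} : Set F)).toSubring
        (stbIdealSet (zchClosure (A₀ := A₀) ({u₀} : Set F)) 𝔫.1) ↔ b ∈ 𝔫₁.1))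
    (hB₀ : ∀ b : ↥(zchClosure (A₀ := A₀) ({u₀} : Set F)), (b : F) ∈ atLoc 𝔫₁)
    (W : ValuationSubring F)
    (hBW : ∀ b : F, IsIntegral ↥(Algebra.adjoin A₀ {u}) b → b ∈ W)
    (hW : atThrough 𝔫₁ W) : atThrough 𝔫 W := by
  haveI := 𝔫.2.1.isPrime
  haveI := 𝔫₁.2.1.isPrime
  have hP₀ := stbPt_of_isPrime (S := zchClosure (A₀ := A₀) ({u₀} : Set F)) 𝔫.1
  have hP₁ := stbPt_of_isPrime (S := zchClosure (A₀ := A₀) ({u} : Set F)) 𝔫₁.1
  intro b hb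
  have h1 : (b : F) ∈ stbLocMax (zchClosure (A₀ := A₀) ({u} : Set F)).toSubring
      (stbIdealSet (zchClosure (A₀ := A₀) ({u} : Set F)) 𝔫₁.1) :=
    hP₁.locMax_of_nonunits W (fun x hx => hBW x (mem_zchClosure.mp hx))
      (fun x hx hxW => ⟨hx, hW ⟨x, hx⟩ hxW⟩) ((stbsw_mem_atLoc_iff 𝔫₁).mp (hB₀ b)) hb
  obtain ⟨s', hs', hs'N, hb'⟩ := h1
  have hs0 := hB ⟨s', hs'⟩
  have hb0 := hB ⟨s' * (b : F), hP₁.sub _ hb'⟩
  have h2 : s' * (b : F) ∈ stbLocMax (zchClosure (A₀ := A₀) ({u₀} : Set F)).toSubring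
      (stbIdealSet (zchClosure (A₀ := A₀) ({u₀} : Set F)) 𝔫.1) :=
    hb0.2.mpr hb'.2
  have h3 : s' ∉ stbLocMax (zchClosure (A₀ := A₀) ({u₀} : Set F)).toSubring
      (stbIdealSet (zchClosure (A₀ := A₀) ({u₀} : Set F)) 𝔫.1) := fun hh =>
    hs'N ⟨hs', hs0.2.mp hh⟩
  have h4 := (hP₀.locMax_prime ((stbsw_mem_atLoc_iff 𝔫).mp hs0.1) (hP₀.loc_of_mem b.2)
    h2).resolve_left h3
  exact (coe_mem_stbIdealSet b).mp ((hP₀.mem_locMax_iff b.2).mp h4)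

/-- **Swap geometry at the one-component points** (complete form).  As `stbsw_smooth_geom`,
with `g = Ψ ∘ w` and `StbFrobVal` on both charts: if only the component `c` passes through `i`,
then only `s c` passes through the preimage `i₁`. -/
theorem stbsw_smooth_geom_only [IsAlgClosed (IsLocalRing.ResidueField A₀)] (hπ : Irreducible π)
    {κ : Type*} {t : F} (V : κ → ValuationSubring F) (c₁ c₂ : κ) (hκ : ∀ c, c = c₁ ∨ c = c₂)
    (hBV₁ : ∀ c (b : F), IsIntegral ↥(Algebra.adjoin A₀ {t}) b → b ∈ V c)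
    (hBV₂ : ∀ c (b : F), IsIntegral ↥(Algebra.adjoin A₀ {t⁻¹}) b → b ∈ V c)
    (w Ψ : F ≃+* F) (q : ℕ) (hq : q ≠ 0)
    (h₁ : StbFrobVal (zchClosure (A₀ := A₀) ({t} : Set F)).toSubring (V c₁) (V c₂) w Ψ q)
    (h₂ : StbFrobVal (zchClosure (A₀ := A₀) ({t⁻¹} : Set F)).toSubring (V c₁) (V c₂) w Ψ q)
    (g : F →+* F) (hg : ∀ x : F, g x = Ψ (w x))
    (hgA : ∀ a : A₀, ∃ c : A₀, g (algebraMap A₀ F a) = algebraMap A₀ F (a ^ q + π * c))
    (s : κ → κ) (hgV : ∀ c, ∀ x ∈ (V (s c)).nonunits, g x ∈ (V c).nonunits)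
    (hgJ : ∀ b : F, IsIntegral ↥(Algebra.adjoin A₀ {t}) b →
      IsIntegral ↥(Algebra.adjoin A₀ {t}) (g b))
    (hgL : ∀ b : F, IsIntegral ↥(Algebra.adjoin A₀ {t⁻¹}) b →
      ∃ e e' : F, IsIntegral ↥(Algebra.adjoin A₀ {t⁻¹}) e ∧
        IsIntegral ↥(Algebra.adjoin A₀ {t⁻¹}) e' ∧ e = 1 + t⁻¹ * e' ∧
        IsIntegral ↥(Algebra.adjoin A₀ {t⁻¹}) (e * g b))
    (i : AtPt (F := F) π t ⊕ AtPt (F := F) π t⁻¹) (c : κ) (hc : atInc π t V i c)
    (honly : ∀ c', atInc π t V i c' → c' = c) :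
    ∃ i₁ : AtPt (F := F) π t ⊕ AtPt (F := F) π t⁻¹, atInc π t V i₁ (s c) ∧
      (∀ c', atInc π t V i₁ c' → c' = s c) ∧
      ∀ x ∈ atO π t i₁, g x ∈ atO π t i := by
  -- the common final step: if all components pass through `i`, we are done
  have hfin : (∀ c', atInc π t V i c') → ∀ c', c' = s c := fun hall c' => by
    rw [honly c' (hall c'), honly (s c) (hall (s c))]
  -- both components pass through `i₁` as soon as some `c' ≠ s c` does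
  have hboth : ∀ (P : κ → Prop), P (s c) → ∀ c', P c' → c' ≠ s c → P c₁ ∧ P c₂ := by
    intro P hsc c' hc' hne
    rcases hκ c' with rfl | rfl
    · rcases hκ (s c) with h | h
      · exact absurd h.symm hne
      · exact ⟨hc', h ▸ hsc⟩
    · rcases hκ (s c) with h | h
      · exact ⟨h ▸ hsc, hc'⟩
      · exact absurd h.symm hne
  rcases i with 𝔫 | 𝔫
  · haveI := 𝔫.2.1.isPrime
    obtain ⟨𝔫₁, h1, h2, h3⟩ := stbsw_exists_preimage_iff hπ (u := t) 𝔫 g q hq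
      (fun b hb => ls_algebraMap_mem 𝔫.1
        (⟨g b, mem_zchClosure.mpr (hgJ b hb)⟩ : ↥(zchClosure (A₀ := A₀) ({t} : Set F)))) hgA
    haveI := 𝔫₁.2.1.isPrime
    have hsc : atThrough 𝔫₁ (V (s c)) := h2 (V c) (V (s c)) (hgV c) (hBV₁ c) hc
    refine ⟨Sum.inl 𝔫₁, hsc, fun c' hc' => ?_, h1⟩
    by_contra hne
    obtain ⟨hth₁, hth₂⟩ := hboth (fun c'' => atThrough 𝔫₁ (V c'')) hsc c' hc' hne
    have hX := stbsw_preimage_cross (V c₁) (V c₂) w Ψ q hq h₁ g hg 𝔫 𝔫₁ hth₁ hth₂ h1 h3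
    have hall : ∀ c'', atInc π t V (Sum.inl 𝔫) c'' := by
      intro c''
      refine stbsw_through_transfer 𝔫 𝔫₁ hX (fun b => ls_algebraMap_mem 𝔫₁.1 b) (V c'')
        (hBV₁ c'') ?_
      rcases hκ c'' with rfl | rfl
      · exact hth₁
      · exact hth₂
    exact hne (hfin hall c')
  · haveI := 𝔫.2.1.isPrime
    have htinv : IsIntegral ↥(Algebra.adjoin A₀ ({t⁻¹} : Set F)) t⁻¹ :=
      isIntegral_algebraMap (R := ↥(Algebra.adjoin A₀ ({t⁻¹} : Set F)))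
        (x := ⟨t⁻¹, Algebra.subset_adjoin (Set.mem_singleton _)⟩)
    by_cases hcusp : (⟨t⁻¹, mem_zchClosure.mpr htinv⟩ :
        ↥(zchClosure (A₀ := A₀) ({t⁻¹} : Set F))) ∈ 𝔫.1
    · obtain ⟨𝔫₁, h1, h2, h3⟩ := stbsw_exists_preimage_iff hπ (u := t⁻¹) 𝔫 g q hq
        (fun b hb => by
          obtain ⟨e, e', he, he', hee', heb⟩ := hgL b hb
          refine ⟨⟨e * g b, mem_zchClosure.mpr heb⟩, ⟨e, mem_zchClosure.mpr he⟩, ?_, rfl⟩
          intro he𝔫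
          have h3 : (⟨t⁻¹, mem_zchClosure.mpr htinv⟩ :
              ↥(zchClosure (A₀ := A₀) ({t⁻¹} : Set F))) * ⟨e', mem_zchClosure.mpr he'⟩ ∈ 𝔫.1 :=
            Ideal.mul_mem_right _ _ hcusp
          have h4 := 𝔫.1.sub_mem he𝔫 h3
          have h5 : (⟨e, mem_zchClosure.mpr he⟩ : ↥(zchClosure (A₀ := A₀) ({t⁻¹} : Set F))) -
              ⟨t⁻¹, mem_zchClosure.mpr htinv⟩ * ⟨e', mem_zchClosure.mpr he'⟩ = 1 := by
            apply Subtype.ext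
            show e - t⁻¹ * e' = 1
            rw [hee']
            ring
          rw [h5] at h4
          exact 𝔫.2.1.ne_top ((Ideal.eq_top_iff_one _).mpr h4)) hgA
      haveI := 𝔫₁.2.1.isPrime
      have hsc : atThrough 𝔫₁ (V (s c)) := h2 (V c) (V (s c)) (hgV c) (hBV₂ c) hc
      refine ⟨Sum.inr 𝔫₁, hsc, fun c' hc' => ?_, h1⟩
      by_contra hne
      obtain ⟨hth₁, hth₂⟩ := hboth (fun c'' => atThrough 𝔫₁ (V c'')) hsc c' hc' hne
      have hX := stbsw_preimage_cross (V c₁) (V c₂) w Ψ q hq h₂ g hg 𝔫 𝔫₁ hth₁ hth₂ h1 h3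
      have hall : ∀ c'', atInc π t V (Sum.inr 𝔫) c'' := by
        intro c''
        refine stbsw_through_transfer 𝔫 𝔫₁ hX (fun b => ls_algebraMap_mem 𝔫₁.1 b) (V c'')
          (hBV₂ c'') ?_
        rcases hκ c'' with rfl | rfl
        · exact hth₁
        · exact hth₂
      exact hne (hfin hall c')
    · have ht0 : t ≠ 0 := by
        rintro rfl
        apply hcusp
        have : (⟨(0 : F)⁻¹, mem_zchClosure.mpr htinv⟩ :
            ↥(zchClosure (A₀ := A₀) ({(0 : F)⁻¹} : Set F))) = 0 := Subtype.ext inv_zero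
        rw [this]
        exact 𝔫.1.zero_mem
      have ht : t ∈ atLoc 𝔫 :=
        ⟨1, ⟨t⁻¹, mem_zchClosure.mpr htinv⟩, hcusp, by
          show t⁻¹ * t = ((1 : ↥(zchClosure (A₀ := A₀) ({t⁻¹} : Set F))) : F)
          rw [inv_mul_cancel₀ ht0]
          rfl⟩
      obtain ⟨𝔫₁, h1, h2, h3⟩ := stbsw_exists_preimage_iff hπ (u := t) 𝔫 g q hq
        (fun b hb => stbsw_isIntegral_mem_atLoc 𝔫 ht (hgJ b hb)) hgA
      haveI := 𝔫₁.2.1.isPrime
      have hsc : atThrough 𝔫₁ (V (s c)) := h2 (V c) (V (s c)) (hgV c) (hBV₂ c) hc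
      refine ⟨Sum.inl 𝔫₁, hsc, fun c' hc' => ?_, h1⟩
      by_contra hne
      obtain ⟨hth₁, hth₂⟩ := hboth (fun c'' => atThrough 𝔫₁ (V c'')) hsc c' hc' hne
      have hX := stbsw_preimage_cross (V c₁) (V c₂) w Ψ q hq h₁ g hg 𝔫 𝔫₁ hth₁ hth₂ h1 h3
      -- `t ∉ 𝔫₁`, hence `t⁻¹ ∈ atLoc 𝔫₁` and `B_{t⁻¹} ⊆ atLoc 𝔫₁`
      have hP₀ := stbPt_of_isPrime (S := zchClosure (A₀ := A₀) ({t⁻¹} : Set F)) 𝔫.1
      have htint : IsIntegral ↥(Algebra.adjoin A₀ ({t} : Set F)) t :=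
        isIntegral_algebraMap (R := ↥(Algebra.adjoin A₀ ({t} : Set F)))
          (x := ⟨t, Algebra.subset_adjoin (Set.mem_singleton _)⟩)
      have ht𝔫₁ : (⟨t, mem_zchClosure.mpr htint⟩ : ↥(zchClosure (A₀ := A₀) ({t} : Set F))) ∉
          𝔫₁.1 := by
        intro hmem
        have h5 := (hX ⟨t, mem_zchClosure.mpr htint⟩).2.mpr hmem
        have h6 := hP₀.locMax_mul
          (hP₀.loc_of_mem (mem_zchClosure.mpr htinv : t⁻¹ ∈ zchClosure (A₀ := A₀) ({t⁻¹} : Set F)))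
          h5
        have h7 : t⁻¹ * t = 1 := inv_mul_cancel₀ ht0
        rw [show t⁻¹ * ((⟨t, mem_zchClosure.mpr htint⟩ :
          ↥(zchClosure (A₀ := A₀) ({t} : Set F))) : F) = 1 from h7] at h6
        exact hP₀.one_not_mem_locMax h6
      have htinv₁ : t⁻¹ ∈ atLoc 𝔫₁ :=
        ⟨1, ⟨t, mem_zchClosure.mpr htint⟩, ht𝔫₁, by
          show t * t⁻¹ = ((1 : ↥(zchClosure (A₀ := A₀) ({t} : Set F))) : F)
          rw [mul_inv_cancel₀ ht0]
          rfl⟩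
      have hall : ∀ c'', atInc π t V (Sum.inr 𝔫) c'' := by
        intro c''
        refine stbsw_through_transfer 𝔫 𝔫₁ hX
          (fun b => stbsw_isIntegral_mem_atLoc 𝔫₁ htinv₁ (mem_zchClosure.mp b.2)) (V c'')
          (hBV₁ c'') ?_
        rcases hκ c'' with rfl | rfl
        · exact hth₁
        · exact hth₂
      exact hne (hfin hall c')

end AtForm

end Fermat.Agent.STB


end ZBSTB_007_2
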