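/- GENERATED FILE (helper35, build-time optimisation, NOTES/ZB.md): verbatim concatenation of the modules
   Fermat.Agent.UNIP.MGVertFrob
   Fermat.Agent.RT.K6.DIVert
   Fermat.Agent.RT.K6.DIVertInc
   Fermat.Agent.RT.K6.M5Transfer
   Do not edit; do not import together with these modules. -/
import Fermat.Agent.ZB.S34_001
import Fermat.Agent.ZB.ES1_009
import Fermat.Agent.ZB.UNIP_014
import Fermat.Agent.ZB.INJ_003
import Fermat.Agent.ZB.ES1_007
import Fermat.Agent.ZB.ES1_002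

/-! ### bundled: `Fermat.Agent.UNIP.MGVertFrob` -/
section ZBUNIP_038_0

/-!
# UNIP MG-8c (S35 plan STB, field `hΦV` of the modular data): the decomposition group preserves
the vertical valuations  (helper60)

`A` a valuation subring of `ℚ̄`, `K₀ ⊆ ℚ̄` an intermediate field such that `A ∩ K₀`
(`beta0Ring A K₀`) is a discrete valuation ring, level `M q`.  For `φ` in the decomposition group
of `A` (for instance a Frobenius element, its square, its inverse) with `φ K₀ ⊆ K₀`: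

* `mgvfHom K₀ hφ hK : A ∩ K₀ →+* A ∩ K₀`, the restriction of `φ`, a local homomorphism;
* `vt_compat_of_decomp K₀ hφ hK : ∃ κ, VtCompat … (mgRestrict K₀ φ hK) κ` (`κ` = the induced
  endomorphism of the residue field);
* `mgvf_mem_nonunits_iff`, `mgvf_mem_iff`, `mgvf_valuation_eq_one_iff` :
  `mgAct K₀ (M q) φ hK x ∈ 𝔪(V c) ↔ x ∈ 𝔪(V c)`, the same for `V c` and for the units;
* `mgvf_hΦV`, `mgvf_hΦV_symm` : the hypotheses `hΦV`, `hΦV'` of `STB/AbstractT2.lean`,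
  `STB/SmoothTransport.lean` for `Φ = mgaActEquiv K₀ φ (M q) hK` and for `mgAct`;
* `mgvf_hΦV_frob`, `mgvf_hΦV_frob_sq` : the same for a Frobenius element and for its square;
* **valuation form** `mgvf_hgV : v_c (φ f / f) = 1` for `f ≠ 0` (`vt_unif_of_decomp`: `φ` moves the
  uniformizer by a unit; generic `mgvf_valuation_div_eq_one`, `mgvf_unif_of_leftInverse` =
  helper91's lemmas for an arbitrary map `κ` of the residue field), `mgvf_hgV_frob(_sq)`;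
* in the shape of `STB/MainTwo.lean` / `STB/CrossFac.lean`, for `g = mgcGal N σ _`, `g²`, `(g²)⁻¹`
  (`σ` in the decomposition group, `K₀ = mgcE A K₁`): `mgvf_hgV_gal`, `mgvf_hgV_gal_sq`,
  `mgvf_hgV_gal_sq_inv`, `mgvf_hΦV_gal`, `mgvf_hΦV_gal_sq`, `mgvf_hgA_gal`, `mgvf_hgA_gal_inv`,
  `mgvf_hgA_gal_sq`, `mgvf_hgA_gal_sq_inv`, `mgvf_gal_natCast`;
* closure lemmas for any `SemilinearAut`: `mgvf_val_mul`, `mgvf_val_inv`, `mgvf_val_pow`,
  `mgvf_nonunits_mul`, `mgvf_hgA_mul`.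
-/

set_option autoImplicit false
set_option linter.unusedSectionVars false
set_option linter.style.haveILetI false

noncomputable section

namespace Fermat.Agent.UNIP

open ModularCurve AlgebraicCurve Fermat.Agent.ES Fermat.Agent.ES.G2 Fermat.Agent.INJ
open Fermat.Agent.AL

section Generic

variable {A E k : Type*} [CommRing A] [Field E] [Field k]
  {ι : A →+* E} {r : A →+* k} {π : A} {F : Type*} [Field F]
  (hB : VtBase ι r π) (e : F →+* LaurentSeries E) (hfrac : ∀ x : F, VtFrac ι (e x))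

include hB in
/-- the uniformizer is moved by a unit, if the endomorphism has a left inverse of the same
kind (`vt_unif_of_leftInverse` for arbitrary maps `κ`, `κ'` of the residue field) -/
theorem mgvf_unif_of_leftInverse {s s' : E →+* E} {κ κ' : k →+* k}
    (hc : VtCompat ι r ι r s κ) (hc' : VtCompat ι r ι r s' κ') (hinv : ∀ x, s' (s x) = x) :
    ∃ c : A, s (ι π) = ι π * ι c ∧ r c ≠ 0 := by
  obtain ⟨a, ha, har⟩ := hc π
  rw [hB.rπ, map_zero] at har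
  obtain ⟨c, rfl⟩ := hB.ker a har
  refine ⟨c, by rw [← ha, map_mul], fun hrc => ?_⟩
  obtain ⟨c₂, rfl⟩ := hB.ker c hrc
  obtain ⟨b, hb, hbr⟩ := hc' π
  obtain ⟨c₃, hc₃, -⟩ := hc' c₂
  have h1 : ι π = ι (b * (b * c₃)) := by
    have := hinv (ι π)
    rw [← ha, map_mul, map_mul, map_mul, map_mul, ← hb, ← hc₃] at this
    rw [map_mul, map_mul]
    exact this.symm
  have h2 := hB.inj h1
  rw [hB.rπ, map_zero] at hbr
  obtain ⟨d, rfl⟩ := hB.ker b hbr
  have h3 : ι π * (1 - ι (d * (π * d) * c₃)) = 0 := by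
    rw [mul_assoc] at h2
    have := congrArg ι h2
    simp only [map_mul] at this ⊢
    linear_combination this
  rcases mul_eq_zero.mp h3 with h4 | h4
  · exact hB.ιπ_ne h4
  · have h5 : ι (d * (π * d) * c₃) = ι 1 := by
      rw [map_one]
      exact (sub_eq_zero.mp h4).symm
    have h6 := congrArg r (hB.inj h5)
    rw [map_mul, map_mul, map_mul, hB.rπ, map_one] at h6
    simp at h6

/-- **(V-σ) for the decomposition group**: an endomorphism of the coefficients which preserves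
`A` (inducing ANY map `κ` on the residue field) and moves the uniformizer by a unit preserves the
vertical valuation: `v (σ f / f) = 1`. -/
theorem mgvf_valuation_div_eq_one {s : E →+* E} {κ : k →+* k} (hc : VtCompat ι r ι r s κ)
    (hsπ : ∃ c : A, s (ι π) = ι π * ι c ∧ r c ≠ 0)
    (sF : F →+* F) (hsF : ∀ x, e (sF x) = coeffMap s (e x)) {f : F} (hf : f ≠ 0) :
    (vtSub hB e hfrac).valuation (sF f / f) = 1 := by
  rw [vtSub_valuation_eq_one_iff, map_div₀, hsF]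
  obtain ⟨c, hcπ, hrc⟩ := hsπ
  have hef : e f ≠ 0 := (map_ne_zero e).mpr hf
  have hCπ := hB.Cιπ_ne
  have key : ∀ (d : ℕ) (u : LaurentSeries E), VtUnit ι r u →
      VtUnit ι r (coeffMap s (HahnSeries.C (ι π) ^ d * u) / (HahnSeries.C (ι π) ^ d * u)) := by
    intro d u hu
    have hu0 := hu.ne_zero hB.inj
    have h1 : coeffMap s (HahnSeries.C (ι π) ^ d * u) / (HahnSeries.C (ι π) ^ d * u) =
        HahnSeries.C (ι c) ^ d * (coeffMap s u / u) := by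
      rw [map_mul, map_pow, coeffMap_hahnC, hcπ, map_mul, mul_pow, div_eq_iff
        (mul_ne_zero (pow_ne_zero _ hCπ) hu0)]
      have h2 : coeffMap s u / u * u = coeffMap s u := div_mul_cancel₀ _ hu0
      linear_combination (-(HahnSeries.C (ι π) ^ d * HahnSeries.C (ι c) ^ d)) * h2
    rw [h1]
    exact ((vtUnit_C hrc).pow d).mul ((hu.compat hc).div hB.inj hu)
  obtain ⟨d, u, hu, h | h⟩ := vt_exists_pow_mul hB hef (hfrac f)
  · rw [h]
    exact key d u hu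
  · have h2 := (key d u hu).inv hB.inj
    rw [← h, map_inv₀, inv_div_inv, inv_div] at h2
    exact h2

end Generic

section GenericFam

variable {A E k : Type*} [CommRing A] [Field E] [Field k]
  {ι : A →+* E} {r : A →+* k} {π : A} (hB : VtBase ι r π)
  (ιC : E →+* ℂ) {q M : ℕ} [NeZero q] [NeZero M] [NeZero (M * q)]
  (hq : q.Prime) (hqM : ¬ q ∣ M)

/-- (V-σ) for the two vertical valuations of `F_{Mq}(E)` and a compatible endomorphism of the
base inducing any map on the residue field -/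
theorem mgvf_vtFam_valuation_div {s : E →+* E} {κ : k →+* k} (hc : VtCompat ι r ι r s κ)
    (hsπ : ∃ c : A, s (ι π) = ι π * ι c ∧ r c ≠ 0) (c : Bool)
    {f : modularFunctionFieldFullC E (M * q)} (hf : f ≠ 0) :
    (vtFam hB ιC hq hqM c).valuation (mgaCoeffHom s (M * q) f / f) = 1 :=
  mgvf_valuation_div_eq_one hB _ _ hc hsπ (mgaCoeffHom s (M * q))
    (fun y => vtEmbFam_coeffHom ιC hq hqM s ιC c y) hf

end GenericFam

section Decomp

variable {A : ValuationSubring Qb} (K₀ : IntermediateField ℚ Qb)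

/-- the decomposition group maps `A` into `A` -/
theorem mgvf_apply_mem {φ : Qb ≃ₐ[ℚ] Qb} (hφ : φ ∈ A.decompositionSubgroup ℚ) {x : Qb}
    (hx : x ∈ A) : φ x ∈ A :=
  (kronDecompHom φ hφ ⟨x, hx⟩).2

/-- the decomposition group maps the nonunits of `A` into the nonunits -/
theorem mgvf_apply_mem_nonunits {φ : Qb ≃ₐ[ℚ] Qb} (hφ : φ ∈ A.decompositionSubgroup ℚ) {x : Qb}
    (hx : x ∈ A.nonunits) : φ x ∈ A.nonunits := by
  rw [vt_mem_nonunits_iff] at hx ⊢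
  rcases hx with rfl | hx
  · exact Or.inl (map_zero φ)
  · right
    intro h
    apply hx
    have h' := mgvf_apply_mem (kron_symm_mem_decomposition hφ) h
    rwa [← map_inv₀, AlgEquiv.symm_apply_apply] at h'

/-- the restriction of `φ` to `A ∩ K₀` -/
def mgvfHom {φ : Qb ≃ₐ[ℚ] Qb} (hφ : φ ∈ A.decompositionSubgroup ℚ)
    (hK : ∀ x ∈ K₀, φ x ∈ K₀) : ↥(beta0Ring A K₀) →+* ↥(beta0Ring A K₀) where
  toFun a := ⟨mgRestrict K₀ φ hK (a : ↥K₀), mgvf_apply_mem hφ a.2⟩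
  map_one' := Subtype.ext (map_one (mgRestrict K₀ φ hK))
  map_mul' a b := Subtype.ext (map_mul (mgRestrict K₀ φ hK) (a : ↥K₀) (b : ↥K₀))
  map_zero' := Subtype.ext (map_zero (mgRestrict K₀ φ hK))
  map_add' a b := Subtype.ext (map_add (mgRestrict K₀ φ hK) (a : ↥K₀) (b : ↥K₀))

theorem mgvfHom_coe {φ : Qb ≃ₐ[ℚ] Qb} (hφ : φ ∈ A.decompositionSubgroup ℚ)
    (hK : ∀ x ∈ K₀, φ x ∈ K₀) (a : ↥(beta0Ring A K₀)) :
    ((mgvfHom K₀ hφ hK a : ↥(beta0Ring A K₀)) : ↥K₀) = mgRestrict K₀ φ hK (a : ↥K₀) := rfl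

theorem mgvfHom_isLocalHom {φ : Qb ≃ₐ[ℚ] Qb} (hφ : φ ∈ A.decompositionSubgroup ℚ)
    (hK : ∀ x ∈ K₀, φ x ∈ K₀) : IsLocalHom (mgvfHom K₀ hφ hK) := by
  refine ⟨fun a ha => ?_⟩
  by_contra hna
  have h1 : a ∈ IsLocalRing.maximalIdeal ↥(beta0Ring A K₀) :=
    (IsLocalRing.mem_maximalIdeal a).mpr hna
  rw [beta0Ring_mem_maximalIdeal_iff] at h1
  have h2 : mgvfHom K₀ hφ hK a ∈ IsLocalRing.maximalIdeal ↥(beta0Ring A K₀) := by
    rw [beta0Ring_mem_maximalIdeal_iff]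
    exact mgvf_apply_mem_nonunits hφ h1
  exact (IsLocalRing.mem_maximalIdeal _).mp h2 ha

/-- **The decomposition group acts on the base compatibly with the residue field**: for `φ` in
the decomposition group of `A` and `K₀` stable under `φ`, the restriction of `φ` to `K₀`
preserves `A ∩ K₀` and induces an endomorphism `κ` of its residue field. -/
theorem vt_compat_of_decomp {φ : Qb ≃ₐ[ℚ] Qb} (hφ : φ ∈ A.decompositionSubgroup ℚ)
    (hK : ∀ x ∈ K₀, φ x ∈ K₀) :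
    ∃ κ : IsLocalRing.ResidueField ↥(beta0Ring A K₀) →+*
        IsLocalRing.ResidueField ↥(beta0Ring A K₀),
      VtCompat (algebraMap ↥(beta0Ring A K₀) ↥K₀) (IsLocalRing.residue ↥(beta0Ring A K₀))
        (algebraMap ↥(beta0Ring A K₀) ↥K₀) (IsLocalRing.residue ↥(beta0Ring A K₀))
        (mgRestrict K₀ φ hK) κ := by
  haveI : IsLocalHom (mgvfHom K₀ hφ hK) := mgvfHom_isLocalHom K₀ hφ hK
  refine ⟨IsLocalRing.ResidueField.map (mgvfHom K₀ hφ hK), fun a => ?_⟩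
  exact ⟨mgvfHom K₀ hφ hK a, rfl, rfl⟩

/-- **The decomposition group moves the uniformizer by a unit.** -/
theorem vt_unif_of_decomp [IsDiscreteValuationRing ↥(beta0Ring A K₀)]
    {π : ↥(beta0Ring A K₀)} (hπ : Irreducible π)
    {φ : Qb ≃ₐ[ℚ] Qb} (hφ : φ ∈ A.decompositionSubgroup ℚ) (hK : ∀ x ∈ K₀, φ x ∈ K₀) :
    ∃ c : ↥(beta0Ring A K₀),
      mgRestrict K₀ φ hK (algebraMap ↥(beta0Ring A K₀) ↥K₀ π) =
        algebraMap ↥(beta0Ring A K₀) ↥K₀ π * algebraMap ↥(beta0Ring A K₀) ↥K₀ c ∧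
      IsLocalRing.residue ↥(beta0Ring A K₀) c ≠ 0 := by
  obtain ⟨κ, hκ⟩ := vt_compat_of_decomp K₀ hφ hK
  obtain ⟨κ', hκ'⟩ := vt_compat_of_decomp K₀ (kron_symm_mem_decomposition hφ)
    (mga_stable_symm K₀ φ hK)
  exact mgvf_unif_of_leftInverse (vtBase_residue hπ) hκ hκ'
    (fun x => Subtype.ext (φ.symm_apply_apply _))

end Decomp

section Concrete

variable {A : ValuationSubring Qb} {K₀ : IntermediateField ℚ Qb}
  [IsDiscreteValuationRing ↥(beta0Ring A K₀)] {π : ↥(beta0Ring A K₀)} (hπ : Irreducible π)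
  (ιC : ↥K₀ →+* ℂ) {q M : ℕ} [NeZero q] [NeZero M] [NeZero (M * q)]
  (hq : q.Prime) (hqM : ¬ q ∣ M)

/-- the decomposition group preserves `𝔪(V c)` (both directions) -/
theorem mgvf_mem_nonunits_iff {φ : Qb ≃ₐ[ℚ] Qb} (hφ : φ ∈ A.decompositionSubgroup ℚ)
    (hK : ∀ x ∈ K₀, φ x ∈ K₀) (c : Bool) (x : ↥(modularFunctionFieldFullC ↥K₀ (M * q))) :
    mgAct K₀ (M * q) φ hK x ∈ (mgvV hπ ιC hq hqM c).nonunits ↔
      x ∈ (mgvV hπ ιC hq hqM c).nonunits := by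
  obtain ⟨κ, hκ⟩ := vt_compat_of_decomp K₀ hφ hK
  exact vtFam_baseChange_mem_nonunits_iff (vtBase_residue hπ) (vtBase_residue hπ) ιC ιC hq hqM
    hκ c x

/-- the decomposition group preserves `V c` (both directions) -/
theorem mgvf_mem_iff {φ : Qb ≃ₐ[ℚ] Qb} (hφ : φ ∈ A.decompositionSubgroup ℚ)
    (hK : ∀ x ∈ K₀, φ x ∈ K₀) (c : Bool) (x : ↥(modularFunctionFieldFullC ↥K₀ (M * q))) :
    mgAct K₀ (M * q) φ hK x ∈ mgvV hπ ιC hq hqM c ↔ x ∈ mgvV hπ ιC hq hqM c := by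
  obtain ⟨κ, hκ⟩ := vt_compat_of_decomp K₀ hφ hK
  rw [← ValuationSubring.mem_comap]
  have h := vtFam_comap_baseChange (vtBase_residue hπ) (vtBase_residue hπ) ιC ιC hq hqM hκ c
  have h' : (mgvV hπ ιC hq hqM c).comap (mgAct K₀ (M * q) φ hK) = mgvV hπ ιC hq hqM c := h
  rw [h']

/-- **`hgV`, valuation form**: `v_c (φ f / f) = 1` for `φ` in the decomposition group, `f ≠ 0` -/
theorem mgvf_hgV {φ : Qb ≃ₐ[ℚ] Qb} (hφ : φ ∈ A.decompositionSubgroup ℚ)
    (hK : ∀ x ∈ K₀, φ x ∈ K₀) (c : Bool)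
    (f : ↥(modularFunctionFieldFullC ↥K₀ (M * q))) (hf : f ≠ 0) :
    (mgvV hπ ιC hq hqM c).valuation (mgAct K₀ (M * q) φ hK f / f) = 1 := by
  obtain ⟨κ, hκ⟩ := vt_compat_of_decomp K₀ hφ hK
  exact mgvf_vtFam_valuation_div (vtBase_residue hπ) ιC hq hqM hκ
    (vt_unif_of_decomp K₀ hπ hφ hK) c hf

/-- **`hgV` for a Frobenius element** -/
theorem mgvf_hgV_frob {φ : Qb ≃ₐ[ℚ] Qb} {ℓ : ℕ} (hφ : A.IsFrobeniusAt φ ℓ)
    (hK : ∀ x ∈ K₀, φ x ∈ K₀) (c : Bool)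
    (f : ↥(modularFunctionFieldFullC ↥K₀ (M * q))) (hf : f ≠ 0) :
    (mgvV hπ ιC hq hqM c).valuation (mgAct K₀ (M * q) φ hK f / f) = 1 :=
  mgvf_hgV hπ ιC hq hqM hφ.mem_decompositionSubgroup hK c f hf

/-- **`hgV` for the square of a Frobenius element** (`Φ = φ²`), composite form -/
theorem mgvf_hgV_frob_sq {φ : Qb ≃ₐ[ℚ] Qb} {ℓ : ℕ} (hφ : A.IsFrobeniusAt φ ℓ)
    (hK : ∀ x ∈ K₀, φ x ∈ K₀) (c : Bool)
    (f : ↥(modularFunctionFieldFullC ↥K₀ (M * q))) (hf : f ≠ 0) :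
    (mgvV hπ ιC hq hqM c).valuation
      (mgAct K₀ (M * q) φ hK (mgAct K₀ (M * q) φ hK f) / f) = 1 := by
  have hφf : mgAct K₀ (M * q) φ hK f ≠ 0 :=
    (map_ne_zero_iff _ (mga_act_bijective K₀ φ (M * q) hK).1).mpr hf
  have h1 := mgvf_hgV_frob hπ ιC hq hqM hφ hK c _ hφf
  have h2 := mgvf_hgV_frob hπ ιC hq hqM hφ hK c f hf
  have e : mgAct K₀ (M * q) φ hK (mgAct K₀ (M * q) φ hK f) / f =
      (mgAct K₀ (M * q) φ hK (mgAct K₀ (M * q) φ hK f) / mgAct K₀ (M * q) φ hK f) *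
        (mgAct K₀ (M * q) φ hK f / f) := by
    field_simp
  rw [e, map_mul, h1, h2, one_mul]

/-- **`hΦV`** for an element of the decomposition group -/
theorem mgvf_hΦV {φ : Qb ≃ₐ[ℚ] Qb} (hφ : φ ∈ A.decompositionSubgroup ℚ)
    (hK : ∀ x ∈ K₀, φ x ∈ K₀) :
    ∀ c : Bool, ∀ x ∈ (mgvV hπ ιC hq hqM c).nonunits,
      mgAct K₀ (M * q) φ hK x ∈ (mgvV hπ ιC hq hqM c).nonunits :=
  fun c x hx => (mgvf_mem_nonunits_iff hπ ιC hq hqM hφ hK c x).mpr hx

/-- **`hΦV`** in the form for the ring automorphism `mgaActEquiv` -/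
theorem mgvf_hΦV_equiv {φ : Qb ≃ₐ[ℚ] Qb} (hφ : φ ∈ A.decompositionSubgroup ℚ)
    (hK : ∀ x ∈ K₀, φ x ∈ K₀) :
    ∀ c : Bool, ∀ x ∈ (mgvV hπ ιC hq hqM c).nonunits,
      mgaActEquiv K₀ φ (M * q) hK x ∈ (mgvV hπ ιC hq hqM c).nonunits :=
  mgvf_hΦV hπ ιC hq hqM hφ hK

/-- **`hΦV'`**: the inverse of the ring automorphism `mgaActEquiv` -/
theorem mgvf_hΦV_symm {φ : Qb ≃ₐ[ℚ] Qb} (hφ : φ ∈ A.decompositionSubgroup ℚ)
    (hK : ∀ x ∈ K₀, φ x ∈ K₀) :
    ∀ c : Bool, ∀ x ∈ (mgvV hπ ιC hq hqM c).nonunits,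
      (mgaActEquiv K₀ φ (M * q) hK).symm x ∈ (mgvV hπ ιC hq hqM c).nonunits := by
  intro c x hx
  rw [← mgvf_mem_nonunits_iff hπ ιC hq hqM hφ hK c, ← mgaActEquiv_apply,
    RingEquiv.apply_symm_apply]
  exact hx

/-- `V c` is stable under the decomposition group -/
theorem mgvf_act_mem {φ : Qb ≃ₐ[ℚ] Qb} (hφ : φ ∈ A.decompositionSubgroup ℚ)
    (hK : ∀ x ∈ K₀, φ x ∈ K₀) (c : Bool) (x : ↥(modularFunctionFieldFullC ↥K₀ (M * q)))
    (hx : x ∈ mgvV hπ ιC hq hqM c) : mgAct K₀ (M * q) φ hK x ∈ mgvV hπ ιC hq hqM c :=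
  (mgvf_mem_iff hπ ιC hq hqM hφ hK c x).mpr hx

/-- the decomposition group preserves the valuation `1` -/
theorem mgvf_valuation_eq_one_iff {φ : Qb ≃ₐ[ℚ] Qb} (hφ : φ ∈ A.decompositionSubgroup ℚ)
    (hK : ∀ x ∈ K₀, φ x ∈ K₀) (c : Bool) (x : ↥(modularFunctionFieldFullC ↥K₀ (M * q))) :
    (mgvV hπ ιC hq hqM c).valuation (mgAct K₀ (M * q) φ hK x) = 1 ↔
      (mgvV hπ ιC hq hqM c).valuation x = 1 := by
  rw [vt_valuation_eq_one_iff, vt_valuation_eq_one_iff, ← map_inv₀,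
    mgvf_mem_iff hπ ιC hq hqM hφ hK c, mgvf_mem_iff hπ ιC hq hqM hφ hK c,
    map_ne_zero_iff _ (mga_act_bijective K₀ φ (M * q) hK).1]

/-- **`hΦV` for a Frobenius element** `φ` at `A` -/
theorem mgvf_hΦV_frob {φ : Qb ≃ₐ[ℚ] Qb} {ℓ : ℕ} (hφ : A.IsFrobeniusAt φ ℓ)
    (hK : ∀ x ∈ K₀, φ x ∈ K₀) :
    ∀ c : Bool, ∀ x ∈ (mgvV hπ ιC hq hqM c).nonunits,
      mgAct K₀ (M * q) φ hK x ∈ (mgvV hπ ιC hq hqM c).nonunits :=
  mgvf_hΦV hπ ιC hq hqM hφ.mem_decompositionSubgroup hK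

/-- **`hΦV` for the square of a Frobenius element**, as the composite `mgAct φ ∘ mgAct φ` -/
theorem mgvf_hΦV_frob_sq {φ : Qb ≃ₐ[ℚ] Qb} {ℓ : ℕ} (hφ : A.IsFrobeniusAt φ ℓ)
    (hK : ∀ x ∈ K₀, φ x ∈ K₀) :
    ∀ c : Bool, ∀ x ∈ (mgvV hπ ιC hq hqM c).nonunits,
      mgAct K₀ (M * q) φ hK (mgAct K₀ (M * q) φ hK x) ∈ (mgvV hπ ιC hq hqM c).nonunits :=
  fun c x hx => mgvf_hΦV_frob hπ ιC hq hqM hφ hK c _ (mgvf_hΦV_frob hπ ιC hq hqM hφ hK c x hx)

end Concrete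

section Closure

variable {E F : Type*} [Field E] [Field F] [Algebra E F] (V : ValuationSubring F)

/-- the property `hgV` is stable under products -/
theorem mgvf_val_mul {g h : SemilinearAut E F}
    (hg : ∀ f : F, f ≠ 0 → V.valuation (g • f / f) = 1)
    (hh : ∀ f : F, f ≠ 0 → V.valuation (h • f / f) = 1) :
    ∀ f : F, f ≠ 0 → V.valuation ((g * h) • f / f) = 1 := by
  intro f hf
  have hhf : h • f ≠ 0 := by simpa using hf
  have e : (g * h) • f / f = (g • (h • f) / (h • f)) * (h • f / f) := by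
    rw [mul_smul]
    field_simp
  rw [e, map_mul, hg _ hhf, hh f hf, one_mul]

/-- the property `hgV` is stable under inverses -/
theorem mgvf_val_inv {g : SemilinearAut E F}
    (hg : ∀ f : F, f ≠ 0 → V.valuation (g • f / f) = 1) :
    ∀ f : F, f ≠ 0 → V.valuation (g⁻¹ • f / f) = 1 := by
  intro f hf
  have h1 : g⁻¹ • f ≠ 0 := by simpa using hf
  have h2 := hg (g⁻¹ • f) h1
  rw [smul_inv_smul] at h2
  rw [← inv_div, map_inv₀, h2, inv_one]

/-- the property `hgV` is stable under powers -/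
theorem mgvf_val_pow {g : SemilinearAut E F}
    (hg : ∀ f : F, f ≠ 0 → V.valuation (g • f / f) = 1) (n : ℕ) :
    ∀ f : F, f ≠ 0 → V.valuation ((g ^ n) • f / f) = 1 := by
  induction n with
  | zero =>
      intro f hf
      rw [pow_zero, one_smul, div_self hf, map_one]
  | succ n ih =>
      rw [pow_succ]
      exact mgvf_val_mul V ih hg

/-- the property `hΦV` (nonunits are mapped to nonunits) is stable under products -/
theorem mgvf_nonunits_mul {g h : SemilinearAut E F}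
    (hg : ∀ x ∈ V.nonunits, g • x ∈ V.nonunits) (hh : ∀ x ∈ V.nonunits, h • x ∈ V.nonunits) :
    ∀ x ∈ V.nonunits, (g * h) • x ∈ V.nonunits := by
  intro x hx
  rw [mul_smul]
  exact hg _ (hh x hx)

variable {A₀ : Type*} [CommRing A₀] [Algebra A₀ F]

/-- the property `hgA` is stable under products -/
theorem mgvf_hgA_mul {g h : SemilinearAut E F}
    (hg : ∀ α : A₀, ∃ α' : A₀, g • algebraMap A₀ F α = algebraMap A₀ F α')
    (hh : ∀ α : A₀, ∃ α' : A₀, h • algebraMap A₀ F α = algebraMap A₀ F α') :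
    ∀ α : A₀, ∃ α' : A₀, (g * h) • algebraMap A₀ F α = algebraMap A₀ F α' := by
  intro α
  obtain ⟨β, hβ⟩ := hh α
  obtain ⟨γ, hγ⟩ := hg β
  exact ⟨γ, by rw [mul_smul, hβ, hγ]⟩

end Closure

section ConcreteGal

variable {A : ValuationSubring Qb} {K₁ : IntermediateField ℚ Qb}
  [IsDiscreteValuationRing ↥(mgcA A K₁)] {π : ↥(mgcA A K₁)} (hπ : Irreducible π)
  (ιC : ↥(mgcE A K₁) →+* ℂ) {q M : ℕ} [NeZero q] [NeZero M] [NeZero (M * q)]
  (hq : q.Prime) (hqM : ¬ q ∣ M)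

/-- **`hgV`** for `g = mgcGal (M q) σ _`, `σ` in the decomposition group of `A` -/
theorem mgvf_hgV_gal {σ : Qb ≃ₐ[ℚ] Qb} (hσ : σ ∈ A.decompositionSubgroup ℚ)
    (hσE : ∀ x ∈ mgcE A K₁, σ x ∈ mgcE A K₁) :
    ∀ c (f : ↥(mgcF A K₁ (M * q))), f ≠ 0 →
      (mgvV hπ ιC hq hqM c).valuation (mgcGal (M * q) σ hσE • f / f) = 1 :=
  fun c f hf => mgvf_hgV hπ ιC hq hqM hσ hσE c f hf

/-- **`hgV`** for `g = (mgcGal (M q) φ _)²` -/
theorem mgvf_hgV_gal_sq {σ : Qb ≃ₐ[ℚ] Qb} (hσ : σ ∈ A.decompositionSubgroup ℚ)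
    (hσE : ∀ x ∈ mgcE A K₁, σ x ∈ mgcE A K₁) :
    ∀ c (f : ↥(mgcF A K₁ (M * q))), f ≠ 0 →
      (mgvV hπ ιC hq hqM c).valuation ((mgcGal (M * q) σ hσE ^ 2) • f / f) = 1 :=
  fun c => mgvf_val_pow _ (mgvf_hgV_gal hπ ιC hq hqM hσ hσE c) 2

/-- **`hgV`** for `g = ((mgcGal (M q) φ _)²)⁻¹` -/
theorem mgvf_hgV_gal_sq_inv {σ : Qb ≃ₐ[ℚ] Qb} (hσ : σ ∈ A.decompositionSubgroup ℚ)
    (hσE : ∀ x ∈ mgcE A K₁, σ x ∈ mgcE A K₁) :
    ∀ c (f : ↥(mgcF A K₁ (M * q))), f ≠ 0 →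
      (mgvV hπ ιC hq hqM c).valuation ((mgcGal (M * q) σ hσE ^ 2)⁻¹ • f / f) = 1 :=
  fun c => mgvf_val_inv _ (mgvf_hgV_gal_sq hπ ιC hq hqM hσ hσE c)

/-- **`hΦV`** for `g = mgcGal (M q) σ _` -/
theorem mgvf_hΦV_gal {σ : Qb ≃ₐ[ℚ] Qb} (hσ : σ ∈ A.decompositionSubgroup ℚ)
    (hσE : ∀ x ∈ mgcE A K₁, σ x ∈ mgcE A K₁) :
    ∀ c, ∀ x ∈ (mgvV hπ ιC hq hqM c).nonunits,
      mgcGal (M * q) σ hσE • x ∈ (mgvV hπ ιC hq hqM c).nonunits :=
  mgvf_hΦV hπ ιC hq hqM hσ hσE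

/-- **`hΦV`** for `g = (mgcGal (M q) σ _)²` -/
theorem mgvf_hΦV_gal_sq {σ : Qb ≃ₐ[ℚ] Qb} (hσ : σ ∈ A.decompositionSubgroup ℚ)
    (hσE : ∀ x ∈ mgcE A K₁, σ x ∈ mgcE A K₁) :
    ∀ c, ∀ x ∈ (mgvV hπ ιC hq hqM c).nonunits,
      (mgcGal (M * q) σ hσE ^ 2) • x ∈ (mgvV hπ ιC hq hqM c).nonunits := by
  intro c
  rw [pow_two]
  exact mgvf_nonunits_mul _ (mgvf_hΦV_gal hπ ιC hq hqM hσ hσE c)
    (mgvf_hΦV_gal hπ ιC hq hqM hσ hσE c)

omit [IsDiscreteValuationRing ↥(mgcA A K₁)] [NeZero q] [NeZero M] [NeZero (M * q)] in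
/-- **`hgA`** for `g = mgcGal N σ _`: the decomposition group preserves the constants `A′` -/
theorem mgvf_hgA_gal (N : ℕ) {σ : Qb ≃ₐ[ℚ] Qb} (hσ : σ ∈ A.decompositionSubgroup ℚ)
    (hσE : ∀ x ∈ mgcE A K₁, σ x ∈ mgcE A K₁) :
    ∀ α : ↥(mgcA A K₁), ∃ α' : ↥(mgcA A K₁),
      mgcGal N σ hσE • algebraMap ↥(mgcA A K₁) ↥(mgcF A K₁ N) α =
        algebraMap ↥(mgcA A K₁) ↥(mgcF A K₁ N) α' := by
  intro α
  refine ⟨mgvfHom (mgcE A K₁) hσ hσE α, ?_⟩
  exact mgAct_algebraMap (mgcE A K₁) N σ hσE (α : ↥(mgcE A K₁))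

omit [IsDiscreteValuationRing ↥(mgcA A K₁)] [NeZero q] [NeZero M] [NeZero (M * q)] in
/-- **`hgA'`** for `g = mgcGal N σ _` -/
theorem mgvf_hgA_gal_inv (N : ℕ) {σ : Qb ≃ₐ[ℚ] Qb} (hσ : σ ∈ A.decompositionSubgroup ℚ)
    (hσE : ∀ x ∈ mgcE A K₁, σ x ∈ mgcE A K₁) :
    ∀ α : ↥(mgcA A K₁), ∃ α' : ↥(mgcA A K₁),
      (mgcGal N σ hσE)⁻¹ • algebraMap ↥(mgcA A K₁) ↥(mgcF A K₁ N) α =
        algebraMap ↥(mgcA A K₁) ↥(mgcF A K₁ N) α' := by
  intro α
  have hσ' : σ.symm ∈ A.decompositionSubgroup ℚ := kron_symm_mem_decomposition hσ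
  have hσE' : ∀ x ∈ mgcE A K₁, σ.symm x ∈ mgcE A K₁ := mga_stable_symm (mgcE A K₁) σ hσE
  refine ⟨mgvfHom (mgcE A K₁) hσ' hσE' α, ?_⟩
  rw [inv_smul_eq_iff]
  have h := mgAct_algebraMap (mgcE A K₁) N σ hσE
    ((mgvfHom (mgcE A K₁) hσ' hσE' α : ↥(mgcA A K₁)) : ↥(mgcE A K₁))
  have e : mgRestrict (mgcE A K₁) σ hσE
      ((mgvfHom (mgcE A K₁) hσ' hσE' α : ↥(mgcA A K₁)) : ↥(mgcE A K₁)) =
        (α : ↥(mgcE A K₁)) := Subtype.ext (σ.apply_symm_apply _)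
  rw [e] at h
  exact h.symm

omit [IsDiscreteValuationRing ↥(mgcA A K₁)] [NeZero q] [NeZero M] [NeZero (M * q)] in
/-- **`hgA`** for `g = (mgcGal N σ _)²` -/
theorem mgvf_hgA_gal_sq (N : ℕ) {σ : Qb ≃ₐ[ℚ] Qb} (hσ : σ ∈ A.decompositionSubgroup ℚ)
    (hσE : ∀ x ∈ mgcE A K₁, σ x ∈ mgcE A K₁) :
    ∀ α : ↥(mgcA A K₁), ∃ α' : ↥(mgcA A K₁),
      (mgcGal N σ hσE ^ 2) • algebraMap ↥(mgcA A K₁) ↥(mgcF A K₁ N) α =
        algebraMap ↥(mgcA A K₁) ↥(mgcF A K₁ N) α' := by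
  rw [pow_two]
  exact mgvf_hgA_mul (mgvf_hgA_gal N hσ hσE) (mgvf_hgA_gal N hσ hσE)

omit [IsDiscreteValuationRing ↥(mgcA A K₁)] [NeZero q] [NeZero M] [NeZero (M * q)] in
/-- **`hgA'`** for `g = (mgcGal N σ _)²` -/
theorem mgvf_hgA_gal_sq_inv (N : ℕ) {σ : Qb ≃ₐ[ℚ] Qb} (hσ : σ ∈ A.decompositionSubgroup ℚ)
    (hσE : ∀ x ∈ mgcE A K₁, σ x ∈ mgcE A K₁) :
    ∀ α : ↥(mgcA A K₁), ∃ α' : ↥(mgcA A K₁),
      (mgcGal N σ hσE ^ 2)⁻¹ • algebraMap ↥(mgcA A K₁) ↥(mgcF A K₁ N) α =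
        algebraMap ↥(mgcA A K₁) ↥(mgcF A K₁ N) α' := by
  have e : (mgcGal (A := A) (K₁ := K₁) N σ hσE ^ 2)⁻¹ =
      (mgcGal N σ hσE)⁻¹ * (mgcGal N σ hσE)⁻¹ := by
    rw [pow_two, mul_inv_rev]
  rw [e]
  exact mgvf_hgA_mul (mgvf_hgA_gal_inv N hσ hσE) (mgvf_hgA_gal_inv N hσ hσE)

omit [IsDiscreteValuationRing ↥(mgcA A K₁)] [NeZero q] [NeZero M] [NeZero (M * q)] in
/-- a constant of `ℚ` (for instance the prime `q`) is fixed by `mgcGal N σ _` -/
theorem mgvf_gal_natCast (N : ℕ) (σ : Qb ≃ₐ[ℚ] Qb)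
    (hσE : ∀ x ∈ mgcE A K₁, σ x ∈ mgcE A K₁) (n : ℕ) :
    mgcGal N σ hσE • ((n : ↥(mgcF A K₁ N))) = (n : ↥(mgcF A K₁ N)) :=
  map_natCast (SemilinearAut.toRingAut (mgcGal N σ hσE)) n

end ConcreteGal

end Fermat.Agent.UNIP

end
end ZBUNIP_038_0

/-! ### bundled: `Fermat.Agent.RT.K6.DIVert` -/
section ZBUNIP_038_1
/-
K-machine, piece K6 / D-I (helper82), part 2: THE TWO BASIC VERTICAL VALUATION RINGS of
`F′ = fieldC E L M H` — generic base.

`(A, ι, r, π)` a base (`UNIP.VtBase ι r π`), `F = fieldC E L M H ⊆ E((q))`,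
`w : F ≃ₐ[E] F` an ABSTRACT Atkin–Lehner automorphism (piece B / DIW supplies it).

* `rtk6dvEmb`, `rtk6dv_frac` : every element of `F` is a quotient of two series over `A`;
* `rtk6dvFam hB L M H w : Bool → ValuationSubring F` : `true ↦ V_∞` (Gauss valuation of the
  `q`-expansion), `false ↦ V_0 = V_∞.comap w`;
* (V-max) `rtk6dvFam_mem_nonunits_iff`, `rtk6dvFam_const_mem_nonunits_iff`,
  `rtk6dvFam_unif_mem_nonunits`; `rtk6dvFam_arch`; `rtk6dvFam_exists_pow_mul`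
  (every `f ≠ 0` is `π ^ n · unit`: `π` is a uniformizer of `V c`);
* `Rtk6dvMapJ` : "`w` maps `j(q^d)` to `j(q^{d'})`" (the field `map_j` of `IsWAt`, over `E`);
  `rtk6dv_w_incl` : then `w ∘ incl = incl ∘ atkinLehner` on the `Γ₀(M₁ q)`-field;
* `rtk6dvFam_comap_incl` : `(V c).comap incl = UNIP.vtFam c` — the restrictions to the
  `Γ₀`-field are UNIP's two valuations;
* coefficientwise maps: `rtk6dvFam_hτV`, `rtk6dvFam_hσV`, `rtk6dvFam_map_mem` for a ring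
  endomorphism `Ψ` of `F` acting on the `c`-expansion through `s : E →+* E` (`VtCompat`):
  at `c = true` for `Ψ = rtk6diCoeffHom s`, at `c = false` for every `Ψ` with
  `w (Ψ x) = rtk6diCoeffHom s (w x)` (e.g. `Ψ = δ_c ∘ σ̂`, by `IsWAt.galois`);
* linear automorphisms: `rtk6dv_val_of_map_mem` (`γ V ⊆ V`, `γ` fixes `π` ⇒ `v (γ f / f) = 1`).
-/

set_option autoImplicit false
set_option linter.style.haveILetI false
set_option linter.unusedSectionVars false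
set_option linter.unusedVariables false

noncomputable section

namespace Fermat.Agent.RT.K6

open ModularCurve AlgebraicCurve Fermat.Agent.ES Fermat.Agent.ES.G2 Fermat.Agent.INJ
open Fermat.Agent.UNIP Fermat.Agent.ES1 Fermat.Agent.ES1.G2 Fermat.Agent.AL IntermediateField

/-! ### The embedding and the fractions -/

section Frac

variable {A E k : Type*} [CommRing A] [Field E] [Field k]
  {ι : A →+* E} {r : A →+* k} {π : A}

/-- The embedding `fieldC E L M H ⊆ E((q))` as a ring homomorphism. -/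
def rtk6dvEmb (E : Type*) [Field E] (L M : ℕ) (H : Subgroup (ZMod M)ˣ) :
    ↥(fieldC E L M H) →+* LaurentSeries E :=
  ((fieldC E L M H).val : _ →+* LaurentSeries E)

@[simp]
theorem rtk6dvEmb_apply (L M : ℕ) (H : Subgroup (ZMod M)ˣ) (x : ↥(fieldC E L M H)) :
    rtk6dvEmb E L M H x = (x : LaurentSeries E) := rfl

/-- **Every element of `fieldC E L M H` is a quotient of two series over `A`.** -/
theorem rtk6dv_frac (hB : VtBase ι r π) (L M : ℕ) (H : Subgroup (ZMod M)ˣ)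
    {x : LaurentSeries E} (hx : x ∈ fieldC E L M H) : VtFrac ι x := by
  have hx' : x ∈ Subfield.closure
      (Set.range (algebraMap E (LaurentSeries E)) ∪
        (divisorExpansionsC E L ∪ diamondExpansionsC E L M H)) := hx
  clear hx
  induction hx' using Subfield.closure_induction with
  | mem y hy =>
      rcases hy with ⟨a, rfl⟩ | ⟨d, hd, hdN, rfl⟩ | ⟨e, he, a, heL, rfl⟩
      · rw [algebraMap_laurentSeries_eq_single]
        exact vtFrac_C hB.frac a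
      · have : coeffMap ι (qExpand A d (jqModC A)) = qExpand E d (jqModC E) :=
          coeffMap_jqNModC ι d
        rw [← this]
        exact vtFrac_coeffMap _
      · have : coeffMap ι (qExpand A e (sS A M H a)) = qExpand E e (sS E M H a) :=
          es1f_coeffMap_qExpand_sS ι M H a e
        rw [← this]
        exact vtFrac_coeffMap _
  | one => exact VtFrac.one
  | add x y _ _ hx hy => exact hx.add hB.inj hy
  | neg x _ hx => exact hx.neg
  | inv x _ hx => exact hx.inv hB.inj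
  | mul x y _ _ hx hy => exact hx.mul hB.inj hy

end Frac

/-! ### The two valuation rings -/

section Fam

variable {A E k : Type*} [CommRing A] [Field E] [Field k]
  {ι : A →+* E} {r : A →+* k} {π : A} (hB : VtBase ι r π)
  (L M : ℕ) (H : Subgroup (ZMod M)ˣ)
  (w : ↥(fieldC E L M H) ≃ₐ[E] ↥(fieldC E L M H))

/-- The two `q`-expansions: `true ↦` at `∞`, `false ↦` at `0` (twisted by `w`). -/
def rtk6dvEmbFam : Bool → (↥(fieldC E L M H) →+* LaurentSeries E)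
  | true => rtk6dvEmb E L M H
  | false => (rtk6dvEmb E L M H).comp w.toRingEquiv.toRingHom

theorem rtk6dvEmbFam_true (x : ↥(fieldC E L M H)) :
    rtk6dvEmbFam L M H w true x = (x : LaurentSeries E) := rfl

theorem rtk6dvEmbFam_false (x : ↥(fieldC E L M H)) :
    rtk6dvEmbFam L M H w false x = ((w x : ↥(fieldC E L M H)) : LaurentSeries E) := rfl

include hB in
theorem rtk6dv_frac_fam (c : Bool) (x : ↥(fieldC E L M H)) :
    VtFrac ι (rtk6dvEmbFam L M H w c x) := by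
  cases c
  · exact rtk6dv_frac hB L M H (w x).2
  · exact rtk6dv_frac hB L M H x.2

/-- **The two basic vertical valuation subrings** of `fieldC E L M H`:
`rtk6dvFam … true = V_∞` (Gauss valuation of the `q`-expansion), `rtk6dvFam … false = V_0 =
V_∞.comap w`. -/
def rtk6dvFam (c : Bool) : ValuationSubring ↥(fieldC E L M H) :=
  vtSub hB (rtk6dvEmbFam L M H w c) (rtk6dv_frac_fam hB L M H w c)

theorem mem_rtk6dvFam {c : Bool} {x : ↥(fieldC E L M H)} :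
    x ∈ rtk6dvFam hB L M H w c ↔ rtk6dvEmbFam L M H w c x ∈ gaussRing ι r := Iff.rfl

theorem mem_rtk6dvFam_true {x : ↥(fieldC E L M H)} :
    x ∈ rtk6dvFam hB L M H w true ↔ (x : LaurentSeries E) ∈ gaussRing ι r := Iff.rfl

theorem mem_rtk6dvFam_false {x : ↥(fieldC E L M H)} :
    x ∈ rtk6dvFam hB L M H w false ↔ w x ∈ rtk6dvFam hB L M H w true := Iff.rfl

/-- **`V_0 = V_∞.comap w`** -/
theorem rtk6dvFam_false_eq_comap :
    rtk6dvFam hB L M H w false =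
      (rtk6dvFam hB L M H w true).comap w.toRingEquiv.toRingHom := rfl

/-- `V_∞` does not depend on `w` -/
theorem rtk6dvFam_true_congr (w' : ↥(fieldC E L M H) ≃ₐ[E] ↥(fieldC E L M H)) :
    rtk6dvFam hB L M H w true = rtk6dvFam hB L M H w' true := rfl

/-- constants -/
theorem rtk6dvEmbFam_const (c : Bool) (a : E) :
    rtk6dvEmbFam L M H w c (algebraMap E ↥(fieldC E L M H) a) = HahnSeries.C a := by
  cases c
  · rw [rtk6dvEmbFam_false, AlgEquiv.commutes]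
    exact algebraMap_laurentSeries_eq_single E a
  · exact algebraMap_laurentSeries_eq_single E a

/-! ### (V-max), (V-int) -/

/-- **(V-max)** the maximal ideal of `V c` is the kernel of the reduction of the `c`-expansion -/
theorem rtk6dvFam_mem_nonunits_iff (c : Bool) {x : ↥(fieldC E L M H)} :
    x ∈ (rtk6dvFam hB L M H w c).nonunits ↔
      ∃ h : rtk6dvEmbFam L M H w c x ∈ gaussRing ι r,
        gaussRed r hB.inj ⟨rtk6dvEmbFam L M H w c x, h⟩ = 0 :=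
  vtSub_mem_nonunits_iff hB _ _

theorem rtk6dvFam_valuation_eq_one_iff (c : Bool) {x : ↥(fieldC E L M H)} :
    (rtk6dvFam hB L M H w c).valuation x = 1 ↔ VtUnit ι r (rtk6dvEmbFam L M H w c x) :=
  vtSub_valuation_eq_one_iff hB _ _

/-- the constants of `A` lie in `V c` -/
theorem rtk6dvFam_const_mem (c : Bool) (a : A) :
    algebraMap E ↥(fieldC E L M H) (ι a) ∈ rtk6dvFam hB L M H w c :=
  vtSub_const_mem hB _ _ (rtk6dvEmbFam_const L M H w c (ι a))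

/-- a constant of `A` lies in the maximal ideal of `V c` iff it reduces to `0` -/
theorem rtk6dvFam_const_mem_nonunits_iff (c : Bool) (a : A) :
    algebraMap E ↥(fieldC E L M H) (ι a) ∈ (rtk6dvFam hB L M H w c).nonunits ↔ r a = 0 :=
  vtSub_const_mem_nonunits_iff hB _ _ (rtk6dvEmbFam_const L M H w c (ι a))

/-- `π ∈ 𝔪(V c)` -/
theorem rtk6dvFam_unif_mem_nonunits (c : Bool) :
    algebraMap E ↥(fieldC E L M H) (ι π) ∈ (rtk6dvFam hB L M H w c).nonunits :=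
  vtSub_unif_mem_nonunits hB _ _ (rtk6dvEmbFam_const L M H w c (ι π))

/-- `V c ≠ ⊤` -/
theorem rtk6dvFam_ne_top (c : Bool) : rtk6dvFam hB L M H w c ≠ ⊤ :=
  vtSub_ne_top hB _ _ (rtk6dvEmbFam_const L M H w c (ι π))

/-- **harch**: `V c` is archimedean -/
theorem rtk6dvFam_arch (c : Bool) {a : ↥(fieldC E L M H)}
    (ha : a ∈ (rtk6dvFam hB L M H w c).nonunits) (x : ↥(fieldC E L M H)) :
    ∃ n : ℕ, a ^ n * x ∈ (rtk6dvFam hB L M H w c).nonunits :=
  vtSub_arch hB _ _ ha x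

/-- **`π` is a uniformizer of `V c`**: every `f ≠ 0` is `π ^ n · unit` or `π ^ (-n) · unit`. -/
theorem rtk6dvFam_exists_pow_mul (c : Bool) {f : ↥(fieldC E L M H)} (hf : f ≠ 0) :
    ∃ n : ℤ, (rtk6dvFam hB L M H w c).valuation
      (f * algebraMap E ↥(fieldC E L M H) (ι π) ^ n) = 1 := by
  have hef : rtk6dvEmbFam L M H w c f ≠ 0 := (map_ne_zero _).mpr hf
  have hCπ := hB.Cιπ_ne
  obtain ⟨d, u, hu, h | h⟩ := vt_exists_pow_mul hB hef (rtk6dv_frac_fam hB L M H w c f)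
  · refine ⟨-(d : ℤ), ?_⟩
    rw [rtk6dvFam_valuation_eq_one_iff, map_mul, map_zpow₀, rtk6dvEmbFam_const, h]
    have e : HahnSeries.C (ι π) ^ d * u * (HahnSeries.C (ι π) : LaurentSeries E) ^ (-(d : ℤ))
        = u := by
      rw [zpow_neg, zpow_natCast]
      field_simp
    rw [e]
    exact hu
  · refine ⟨(d : ℤ), ?_⟩
    rw [rtk6dvFam_valuation_eq_one_iff, map_mul, map_zpow₀, rtk6dvEmbFam_const]
    have hu0 := hu.ne_zero hB.inj
    have e : rtk6dvEmbFam L M H w c f * (HahnSeries.C (ι π) : LaurentSeries E) ^ (d : ℤ)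
        = u⁻¹ := by
      have h1 : rtk6dvEmbFam L M H w c f = (HahnSeries.C (ι π) ^ d * u)⁻¹ := by
        rw [← h, inv_inv]
      rw [h1, zpow_natCast]
      field_simp
    rw [e]
    exact hu.inv hB.inj

/-- the charts lie in `V c`: an element of `F` integral over `R[S]`, where the image of `R`
consists of constants of `A` and `S ⊆ V c`, lies in `V c`. -/
theorem rtk6dvFam_mem_of_isIntegral (c : Bool) {R : Type*} [CommRing R]
    [Algebra R ↥(fieldC E L M H)]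
    (hR : ∀ a : R, ∃ a' : A,
      algebraMap R ↥(fieldC E L M H) a = algebraMap E ↥(fieldC E L M H) (ι a'))
    (S : Set ↥(fieldC E L M H)) (hS : ∀ s ∈ S, s ∈ rtk6dvFam hB L M H w c)
    {x : ↥(fieldC E L M H)} (hx : IsIntegral (Algebra.adjoin R S) x) :
    x ∈ rtk6dvFam hB L M H w c := by
  refine vt_mem_of_isIntegral _ (fun y => ?_) hx
  show ((y : Algebra.adjoin R S) : ↥(fieldC E L M H)) ∈ rtk6dvFam hB L M H w c
  obtain ⟨y, hy⟩ := y
  show y ∈ rtk6dvFam hB L M H w c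
  induction hy using Algebra.adjoin_induction with
  | mem s hs => exact hS s hs
  | algebraMap a =>
    obtain ⟨a', ha'⟩ := hR a
    rw [ha']
    exact rtk6dvFam_const_mem hB L M H w c a'
  | add s t _ _ hs ht => exact (rtk6dvFam hB L M H w c).add_mem _ _ hs ht
  | mul s t _ _ hs ht => exact (rtk6dvFam hB L M H w c).mul_mem _ _ hs ht

/-! ### Coefficientwise maps -/

/-- **(V-τ)**: `Ψ x − x ∈ 𝔪(V c)` for `x ∈ V c`, if `Ψ` acts on the `c`-expansion through an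
endomorphism `s` of `E` preserving `A` and trivial on the residue field. -/
theorem rtk6dvFam_hτV {s : E →+* E} (hc : VtCompat ι r ι r s (RingHom.id k)) (c : Bool)
    (Ψ : ↥(fieldC E L M H) →+* ↥(fieldC E L M H))
    (hΨ : ∀ y, rtk6dvEmbFam L M H w c (Ψ y) = coeffMap s (rtk6dvEmbFam L M H w c y))
    {x : ↥(fieldC E L M H)} (hx : x ∈ rtk6dvFam hB L M H w c) :
    Ψ x - x ∈ (rtk6dvFam hB L M H w c).nonunits :=
  vtSub_sub_mem_nonunits hB _ _ hc Ψ hΨ hx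

/-- **(V-σ)**: `v_c (Ψ f / f) = 1` for `f ≠ 0`, if `Ψ` acts on the `c`-expansion through an
endomorphism `s` of `E` preserving `A`, moving the uniformizer by a unit (any map on the
residue field). -/
theorem rtk6dvFam_hσV {s : E →+* E} {κ : k →+* k} (hc : VtCompat ι r ι r s κ)
    (hsπ : ∃ c : A, s (ι π) = ι π * ι c ∧ r c ≠ 0) (c : Bool)
    (Ψ : ↥(fieldC E L M H) →+* ↥(fieldC E L M H))
    (hΨ : ∀ y, rtk6dvEmbFam L M H w c (Ψ y) = coeffMap s (rtk6dvEmbFam L M H w c y))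
    {f : ↥(fieldC E L M H)} (hf : f ≠ 0) :
    (rtk6dvFam hB L M H w c).valuation (Ψ f / f) = 1 :=
  mgvf_valuation_div_eq_one hB _ _ hc hsπ Ψ hΨ hf

theorem rtk6dvFam_map_mem {s : E →+* E} (hc : VtCompat ι r ι r s (RingHom.id k)) (c : Bool)
    (Ψ : ↥(fieldC E L M H) →+* ↥(fieldC E L M H))
    (hΨ : ∀ y, rtk6dvEmbFam L M H w c (Ψ y) = coeffMap s (rtk6dvEmbFam L M H w c y))
    {x : ↥(fieldC E L M H)} (hx : x ∈ rtk6dvFam hB L M H w c) :
    Ψ x ∈ rtk6dvFam hB L M H w c :=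
  vtSub_map_mem hB _ _ hc Ψ hΨ hx

/-- at `∞` the coefficientwise map acts on the expansion -/
theorem rtk6dvEmbFam_true_coeffHom (s : E →+* E) (y : ↥(fieldC E L M H)) :
    rtk6dvEmbFam L M H w true (rtk6diCoeffHom L M H s y) =
      coeffMap s (rtk6dvEmbFam L M H w true y) := rfl

/-- at `0` every `Ψ` with `w ∘ Ψ = ŝ ∘ w` acts on the expansion -/
theorem rtk6dvEmbFam_false_of_comm (s : E →+* E)
    (Ψ : ↥(fieldC E L M H) →+* ↥(fieldC E L M H))
    (hΨ : ∀ x, w (Ψ x) = rtk6diCoeffHom L M H s (w x)) (y : ↥(fieldC E L M H)) :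
    rtk6dvEmbFam L M H w false (Ψ y) = coeffMap s (rtk6dvEmbFam L M H w false y) := by
  rw [rtk6dvEmbFam_false, hΨ, rtk6dvEmbFam_false]
  rfl

end Fam

/-! ### Linear automorphisms preserving a valuation ring -/

section Lin

variable {E F : Type*} [Field E] [Field F] [Algebra E F]

/-- a ring endomorphism `γ` of `F` with `γ V ⊆ V` fixing a uniformizer `ϖ` of `V` preserves
the valuation: `v (γ f / f) = 1`. -/
theorem rtk6dv_val_of_map_mem (V : ValuationSubring F) (γ : F →+* F)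
    (hγ : ∀ x ∈ V, γ x ∈ V) (ϖ : F) (hϖ0 : ϖ ≠ 0) (hγϖ : γ ϖ = ϖ)
    (hunif : ∀ f : F, f ≠ 0 → ∃ n : ℤ, V.valuation (f * ϖ ^ n) = 1)
    {f : F} (hf : f ≠ 0) : V.valuation (γ f / f) = 1 := by
  obtain ⟨n, hn⟩ := hunif f hf
  set x := f * ϖ ^ n with hxdef
  have hx0 : x ≠ 0 := mul_ne_zero hf (zpow_ne_zero _ hϖ0)
  have hxV : x ∈ V := (V.valuation_le_one_iff x).mp hn.le
  have hxV' : x⁻¹ ∈ V := by
    rw [← V.valuation_le_one_iff, map_inv₀, hn, inv_one]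
  have h1 : V.valuation (γ x) ≤ 1 := (V.valuation_le_one_iff _).mpr (hγ x hxV)
  have h2 : V.valuation (γ x)⁻¹ ≤ 1 := by
    have := (V.valuation_le_one_iff _).mpr (hγ _ hxV')
    rwa [map_inv₀] at this
  have hγx0 : γ x ≠ 0 := (map_ne_zero γ).mpr hx0
  have h3 : V.valuation (γ x) = 1 := by
    refine le_antisymm h1 ?_
    rw [map_inv₀] at h2
    have h4 : V.valuation (γ x) ≠ 0 := (Valuation.ne_zero_iff _).mpr hγx0
    by_contra hlt
    push Not at hlt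
    have h5 : 1 < (V.valuation (γ x))⁻¹ := (one_lt_inv₀ (zero_lt_iff.mpr h4)).mpr hlt
    exact absurd h2 (not_le.mpr h5)
  have e : γ f / f = γ x / x := by
    rw [hxdef, map_mul, map_zpow₀, hγϖ]
    have hz : ϖ ^ n ≠ 0 := zpow_ne_zero _ hϖ0
    field_simp
  rw [e, map_div₀, h3, hn, div_one]

end Lin

end Fermat.Agent.RT.K6

end
end ZBUNIP_038_1

/-! ### bundled: `Fermat.Agent.RT.K6.DIVertInc` -/
section ZBUNIP_038_2
/-
K-machine, piece K6 / D-I (helper82), part 2c: the inclusion of the `Γ₀(L)`-field into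
`fieldC K L M H` and the two basic vertical valuations.

* transfer along `rtk6diIncl` (generic field `K`, `A′` a valuation subring of `K`):
  `rtk6dvInclA` (the inclusion as an `A′`-algebra homomorphism), `rtk6dv_incl_mem_adjoin`,
  `rtk6dv_exists_of_mem_adjoin`, `rtk6dv_isIntegral_incl`, `rtk6dv_primeTo_of_incl`;
* `Rtk6dvMapJ E L M H q w` : `w` maps `j(q^d)` to `j(q^{d'})` (`d' = d / q` or `d q`);
  `Rtk6dvWIncl ιC hq hqM M H w` : `w ∘ incl = incl ∘ atkinLehner`;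
  `rtk6dv_wIncl_of_mapJ`;
* `rtk6dvEmbFam_incl`, `rtk6dvFam_comap_incl` : `(V c).comap incl = UNIP.vtFam c`;
  `rtk6dvFam_incl_mem_iff`, `rtk6dvFam_incl_mem_nonunits_iff`;
* `rtk6dvFam_ne` : `V_∞ ≠ V_0` (residue characteristic `q`).
-/

set_option autoImplicit false
set_option linter.style.haveILetI false
set_option linter.unusedSectionVars false
set_option linter.unusedVariables false

noncomputable section

namespace Fermat.Agent.RT.K6

open ModularCurve AlgebraicCurve Fermat.Agent.ES Fermat.Agent.ES.G2 Fermat.Agent.INJ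
open Fermat.Agent.UNIP Fermat.Agent.ES1 Fermat.Agent.ES1.G2 Fermat.Agent.AL IntermediateField

/-! ### Transfer along the inclusion -/

section Transfer

variable {K : Type*} [Field K] (A' : ValuationSubring K) (L M : ℕ) (H : Subgroup (ZMod M)ˣ)

theorem rtk6dv_incl_algebraMapA (a : ↥A') :
    rtk6diIncl L M H (algebraMap ↥A' ↥(modularFunctionFieldFullC K L) a) =
      algebraMap ↥A' ↥(fieldC K L M H) a :=
  rtk6diIncl_algebraMap L M H (a : K)

/-- the inclusion of the `Γ₀(L)`-field as an `A′`-algebra homomorphism -/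
def rtk6dvInclA : ↥(modularFunctionFieldFullC K L) →ₐ[↥A'] ↥(fieldC K L M H) :=
  { rtk6diIncl L M H with
    commutes' := fun a => rtk6dv_incl_algebraMapA A' L M H a }

@[simp]
theorem rtk6dvInclA_apply (x : ↥(modularFunctionFieldFullC K L)) :
    rtk6dvInclA A' L M H x = rtk6diIncl L M H x := rfl

variable {A' L M H}

theorem rtk6dv_incl_mem_adjoin {u₀ s₀ : ↥(modularFunctionFieldFullC K L)}
    (hs : s₀ ∈ Algebra.adjoin ↥A' ({u₀} : Set ↥(modularFunctionFieldFullC K L))) :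
    rtk6diIncl L M H s₀ ∈
      Algebra.adjoin ↥A' ({rtk6diIncl L M H u₀} : Set ↥(fieldC K L M H)) := by
  induction hs using Algebra.adjoin_induction with
  | mem x hx =>
      rw [Set.mem_singleton_iff] at hx
      rw [hx]
      exact Algebra.subset_adjoin (Set.mem_singleton _)
  | algebraMap a =>
      rw [rtk6dv_incl_algebraMapA]
      exact Subalgebra.algebraMap_mem _ a
  | add x y _ _ hx hy => rw [map_add]; exact Subalgebra.add_mem _ hx hy
  | mul x y _ _ hx hy => rw [map_mul]; exact Subalgebra.mul_mem _ hx hy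

theorem rtk6dv_exists_of_mem_adjoin {u₀ : ↥(modularFunctionFieldFullC K L)}
    {s : ↥(fieldC K L M H)}
    (hs : s ∈ Algebra.adjoin ↥A' ({rtk6diIncl L M H u₀} : Set ↥(fieldC K L M H))) :
    ∃ s₀ ∈ Algebra.adjoin ↥A' ({u₀} : Set ↥(modularFunctionFieldFullC K L)),
      rtk6diIncl L M H s₀ = s := by
  induction hs using Algebra.adjoin_induction with
  | mem x hx =>
      rw [Set.mem_singleton_iff] at hx
      exact ⟨u₀, Algebra.subset_adjoin (Set.mem_singleton _), hx.symm⟩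
  | algebraMap a =>
      exact ⟨algebraMap ↥A' _ a, Subalgebra.algebraMap_mem _ a, rtk6dv_incl_algebraMapA A' L M H a⟩
  | add x y _ _ hx hy =>
      obtain ⟨x₀, hx₀, rfl⟩ := hx
      obtain ⟨y₀, hy₀, rfl⟩ := hy
      exact ⟨x₀ + y₀, Subalgebra.add_mem _ hx₀ hy₀, map_add _ _ _⟩
  | mul x y _ _ hx hy =>
      obtain ⟨x₀, hx₀, rfl⟩ := hx
      obtain ⟨y₀, hy₀, rfl⟩ := hy
      exact ⟨x₀ * y₀, Subalgebra.mul_mem _ hx₀ hy₀, map_mul _ _ _⟩

variable (A' L M H)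

/-- the inclusion on the chart rings -/
def rtk6dvInclAdj (u₀ : ↥(modularFunctionFieldFullC K L)) :
    ↥(Algebra.adjoin ↥A' ({u₀} : Set ↥(modularFunctionFieldFullC K L))) →+*
      ↥(Algebra.adjoin ↥A' ({rtk6diIncl L M H u₀} : Set ↥(fieldC K L M H))) :=
  RingHom.codRestrict ((rtk6diIncl L M H).comp
      (Algebra.adjoin ↥A' ({u₀} : Set ↥(modularFunctionFieldFullC K L))).val.toRingHom)
    (Algebra.adjoin ↥A' ({rtk6diIncl L M H u₀} : Set ↥(fieldC K L M H)))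
    (fun x => rtk6dv_incl_mem_adjoin (A' := A') (L := L) (M := M) (H := H) x.2)

variable {A' L M H}

/-- integrality over the chart ring is preserved by the inclusion -/
theorem rtk6dv_isIntegral_incl {u₀ b₀ : ↥(modularFunctionFieldFullC K L)}
    (hb : IsIntegral ↥(Algebra.adjoin ↥A' ({u₀} : Set ↥(modularFunctionFieldFullC K L))) b₀) :
    IsIntegral ↥(Algebra.adjoin ↥A' ({rtk6diIncl L M H u₀} : Set ↥(fieldC K L M H)))
      (rtk6diIncl L M H b₀) :=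
  IsIntegral.map_of_comp_eq (rtk6dvInclAdj A' L M H u₀) (rtk6diIncl L M H)
    (RingHom.ext fun _ => rfl) hb

/-- an element of the chart ring of `fieldC` prime to `π` comes from an element of the chart
ring of the `Γ₀(L)`-field prime to `π` -/
theorem rtk6dv_primeTo_of_incl {π : ↥A'} {u₀ : ↥(modularFunctionFieldFullC K L)}
    {s : ↥(fieldC K L M H)} (hs : EIPrimeTo π (rtk6diIncl L M H u₀) s) :
    ∃ s₀ : ↥(modularFunctionFieldFullC K L), EIPrimeTo π u₀ s₀ ∧ rtk6diIncl L M H s₀ = s := by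
  obtain ⟨s₀, hs₀, rfl⟩ := rtk6dv_exists_of_mem_adjoin hs.1
  refine ⟨s₀, ⟨hs₀, fun r hr he => ?_⟩, rfl⟩
  refine hs.2 (rtk6diIncl L M H r) (rtk6dv_incl_mem_adjoin hr) ?_
  rw [he, map_mul, rtk6dv_incl_algebraMapA]

end Transfer

/-! ### The Atkin–Lehner automorphism on the `Γ₀`-field -/

section MapJ

variable {E : Type*} [Field E]

/-- `w` maps `j(q^d)` to `j(q^{d'})`, `d' = d / q` for `q ∣ d` and `d' = d q` otherwise
(the field `map_j` of `IsWAt`, over any field of coefficients). -/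
def Rtk6dvMapJ (E : Type*) [Field E] (L M : ℕ) (H : Subgroup (ZMod M)ˣ) (q : ℕ)
    (w : ↥(fieldC E L M H) ≃ₐ[E] ↥(fieldC E L M H)) : Prop :=
  ∀ (d d' : ℕ) [NeZero d] [NeZero d'], d ∣ L → d' = (if q ∣ d then d / q else d * q) →
    ∀ x : ↥(fieldC E L M H), (x : LaurentSeries E) = qExpand E d (jqModC E) →
      ((w x : ↥(fieldC E L M H)) : LaurentSeries E) = qExpand E d' (jqModC E)

variable (ιC : E →+* ℂ) {q M₁ : ℕ} [NeZero q] [NeZero M₁] [NeZero (M₁ * q)]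
  (hq : q.Prime) (hqM : ¬ q ∣ M₁) (M : ℕ) (H : Subgroup (ZMod M)ˣ)
  (w : ↥(fieldC E (M₁ * q) M H) ≃ₐ[E] ↥(fieldC E (M₁ * q) M H))

/-- `w` restricts to the Atkin–Lehner involution of the `Γ₀(M₁ q)`-field. -/
def Rtk6dvWIncl : Prop :=
  ∀ x : ↥(modularFunctionFieldFullC E (M₁ * q)),
    w (rtk6diIncl (M₁ * q) M H x) = rtk6diIncl (M₁ * q) M H (atkinLehner E ιC hq hqM x)

theorem rtk6dv_wIncl_of_mapJ (hw : Rtk6dvMapJ E (M₁ * q) M H q w) :
    Rtk6dvWIncl ιC hq hqM M H w := by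
  intro x
  have key : (w.toRingEquiv.toRingHom.comp (rtk6diIncl (M₁ * q) M H)) =
      (rtk6diIncl (M₁ * q) M H).comp (atkinLehner E ιC hq hqM).toRingEquiv.toRingHom := by
    apply al_ringHom_ext E (M₁ * q)
    · intro c
      show w (rtk6diIncl (M₁ * q) M H (algebraMap E _ c)) =
        rtk6diIncl (M₁ * q) M H (atkinLehner E ιC hq hqM (algebraMap E _ c))
      rw [AlgEquiv.commutes, rtk6diIncl_algebraMap, AlgEquiv.commutes]
    · intro d _ hd
      show w (rtk6diIncl (M₁ * q) M H ⟨qExpand E d (jqModC E), _⟩) =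
        rtk6diIncl (M₁ * q) M H (atkinLehner E ιC hq hqM ⟨qExpand E d (jqModC E), _⟩)
      have hd' : alSwap q (M₁ * q) d ∣ M₁ * q := alSwap_dvd hq hqM hd
      haveI hne : NeZero (alSwap q (M₁ * q) d) :=
        ⟨fun h0 => NeZero.ne (M₁ * q) (Nat.eq_zero_of_zero_dvd (h0 ▸ hd'))⟩
      have e0 : (⟨qExpand E d (jqModC E), jqModCd_mem_full E (M₁ * q) hd⟩ :
          modularFunctionFieldFullC E (M₁ * q)) = ⟨alGen E (M₁ * q) d, alGen_mem E d⟩ :=
        Subtype.ext (alGen_of_dvd E hd).symm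
      rw [e0]
      apply Subtype.ext
      rw [rtk6diIncl_coe, atkinLehner_gen, alGen_of_dvd E hd']
      refine hw d (alSwap q (M₁ * q) d) hd ?_ _ ?_
      · rw [alSwap, if_pos hd]
      · rw [rtk6diIncl_coe]
        exact alGen_of_dvd E hd
  exact congrArg (fun φ : modularFunctionFieldFullC E (M₁ * q) →+*
    ↥(fieldC E (M₁ * q) M H) => φ x) key

end MapJ

/-! ### The restrictions to the `Γ₀`-field are UNIP's two valuations -/

section Comap

variable {A E k : Type*} [CommRing A] [Field E] [Field k]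
  {ι : A →+* E} {r : A →+* k} {π : A} (hB : VtBase ι r π)
  (ιC : E →+* ℂ) {q M₁ : ℕ} [NeZero q] [NeZero M₁] [NeZero (M₁ * q)]
  (hq : q.Prime) (hqM : ¬ q ∣ M₁) (M : ℕ) (H : Subgroup (ZMod M)ˣ)
  (w : ↥(fieldC E (M₁ * q) M H) ≃ₐ[E] ↥(fieldC E (M₁ * q) M H))

theorem rtk6dvEmbFam_incl (hw : Rtk6dvWIncl ιC hq hqM M H w) (c : Bool)
    (x : ↥(modularFunctionFieldFullC E (M₁ * q))) :
    rtk6dvEmbFam (M₁ * q) M H w c (rtk6diIncl (M₁ * q) M H x) = vtEmbFam ιC hq hqM c x := by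
  cases c
  · rw [rtk6dvEmbFam_false, hw x, rtk6diIncl_coe]
    rfl
  · rw [rtk6dvEmbFam_true, rtk6diIncl_coe]
    rfl

/-- **`(V c).comap incl = UNIP.vtFam c`** -/
theorem rtk6dvFam_comap_incl (hw : Rtk6dvWIncl ιC hq hqM M H w) (c : Bool) :
    (rtk6dvFam hB (M₁ * q) M H w c).comap (rtk6diIncl (M₁ * q) M H) =
      vtFam hB ιC hq hqM c := by
  ext x
  rw [ValuationSubring.mem_comap, mem_rtk6dvFam, rtk6dvEmbFam_incl ιC hq hqM M H w hw]
  rfl

theorem rtk6dvFam_incl_mem_iff (hw : Rtk6dvWIncl ιC hq hqM M H w) (c : Bool)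
    (x : ↥(modularFunctionFieldFullC E (M₁ * q))) :
    rtk6diIncl (M₁ * q) M H x ∈ rtk6dvFam hB (M₁ * q) M H w c ↔ x ∈ vtFam hB ιC hq hqM c := by
  rw [← ValuationSubring.mem_comap, rtk6dvFam_comap_incl hB ιC hq hqM M H w hw]

theorem rtk6dvFam_incl_mem_nonunits_iff (hw : Rtk6dvWIncl ιC hq hqM M H w) (c : Bool)
    (x : ↥(modularFunctionFieldFullC E (M₁ * q))) :
    rtk6diIncl (M₁ * q) M H x ∈ (rtk6dvFam hB (M₁ * q) M H w c).nonunits ↔
      x ∈ (vtFam hB ιC hq hqM c).nonunits := by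
  rw [← vt_mem_nonunits_comap, rtk6dvFam_comap_incl hB ιC hq hqM M H w hw]

end Comap

section Ne

variable {A E k : Type*} [CommRing A] [IsDomain A] [Field E] [Algebra A E] [IsFractionRing A E]
  [Field k] {r : A →+* k} {π : A} (hB : VtBase (algebraMap A E) r π) (ιC : E →+* ℂ)
  {q M₁ : ℕ} [NeZero q] [NeZero M₁] [NeZero (M₁ * q)] (hq : q.Prime) (hqM : ¬ q ∣ M₁)
  (M : ℕ) (H : Subgroup (ZMod M)ˣ)
  (w : ↥(fieldC E (M₁ * q) M H) ≃ₐ[E] ↥(fieldC E (M₁ * q) M H))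
  [Fact q.Prime] [CharP k q]

/-- **hne** (generic base): `V_∞ ≠ V_0`. -/
theorem rtk6dvFam_ne (hw : Rtk6dvWIncl ιC hq hqM M H w) :
    rtk6dvFam hB (M₁ * q) M H w true ≠ rtk6dvFam hB (M₁ * q) M H w false := by
  intro h
  have h1 := (rtk6dvFam_incl_mem_nonunits_iff hB ιC hq hqM M H w hw true _).mpr
    (mgvl_C_mem_true hB ιC hq hqM)
  rw [h] at h1
  exact mgvl_C_not_mem_false hB ιC hq hqM
    ((rtk6dvFam_incl_mem_nonunits_iff hB ιC hq hqM M H w hw false _).mp h1)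

end Ne

end Fermat.Agent.RT.K6

end
end ZBUNIP_038_2

/-! ### bundled: `Fermat.Agent.RT.K6.M5Transfer` -/
section ZBUNIP_038_3
/-
K-machine, piece K6 / M5 (helper96), part 1: THE TORIC TRANSFER for the vertical valuations of
`F′ = fieldC E′ L M H` (fork of `STB/ToricTransfer.lean`, through the generic core
`STB.stb_mgt_core`).

`A` a valuation subring of `ℚ̄`, `E′` an intermediate field of `ℚ̄ / ℚ`, `hB : VtBase ι r π` a
discrete base with fraction field `E′`, compatible with `A` (`(c1)`, `(c2)`; for the base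
`A ∩ E′`: `STB.stb_mgt_c1`, `STB.stb_mgt_c2`), `w′ : F′ ≃ₐ[E′] F′` with `nfEmbH ∘ w′ = w ∘ nfEmbH`
(`nfEmbH_rtk6diwW`), `V = rtk6dvFam hB L M H w′ : Bool → ValuationSubring F′`.

* `rtk6m5_inf`  (t∞) : `ReducesToOneF A (nfEmbH x₀) → x₀ - 1 ∈ 𝔪(V true)`;
* `rtk6m5_zero` (t0) : `ReducesToOneF A (w (nfEmbH x₀)) → x₀ - 1 ∈ 𝔪(V false)`;
* `rtk6m5_comap` : the transfer at a conjugate `(V b).comap γ`.
-/

set_option autoImplicit false
set_option linter.style.haveILetI false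
set_option linter.unusedSectionVars false
set_option linter.unusedVariables false

noncomputable section

namespace Fermat.Agent.RT.K6

open ModularCurve AlgebraicCurve Fermat.Agent.ES Fermat.Agent.ES.G2 Fermat.Agent.INJ
open Fermat.Agent.UNIP Fermat.Agent.ES1 Fermat.Agent.ES1.G2 IntermediateField

section Transfer

variable {A₀ k : Type*} [CommRing A₀] [Field k] {E' : IntermediateField ℚ Qb}
  {ι : A₀ →+* ↥E'} {r : A₀ →+* k} {π : A₀} (hB : VtBase ι r π) (A : ValuationSubring Qb)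
  (L M : ℕ) (H : Subgroup (ZMod M)ˣ)
  (w' : ↥(fieldC ↥E' L M H) ≃ₐ[↥E'] ↥(fieldC ↥E' L M H))

/-- **(t∞)**  `x₀ ∈ F′` reduces to one at `A` ⇒ `x₀ ≡ 1` at the vertical valuation `V_∞`. -/
theorem rtk6m5_inf (h1 : ∀ a, algebraMap ↥E' Qb (ι a) ∈ A)
    (h2 : ∀ a, algebraMap ↥E' Qb (ι a) ∈ A.nonunits → r a = 0)
    {x₀ : ↥(fieldC ↥E' L M H)}
    (hx : ReducesToOneF A (fieldBar L M H) (nfEmbH E' L M H x₀)) :
    x₀ - 1 ∈ (rtk6dvFam hB L M H w' true).nonunits := by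
  obtain ⟨y₁, y₂, -, -, hy₁, hy₂, hc, hxy⟩ := hx
  rw [rtk6dvFam_mem_nonunits_iff]
  have key := Fermat.Agent.STB.stb_mgt_core (ψ := algebraMap ↥E' Qb) hB h1 h2
    (rtk6dv_frac hB L M H x₀.2) hy₁ hy₂ hc hxy
  have e : rtk6dvEmbFam L M H w' true (x₀ - 1) = (x₀ : LaurentSeries ↥E') - 1 := by
    rw [map_sub, map_one]
    rfl
  obtain ⟨h, h0⟩ := key
  refine ⟨by rw [e]; exact h, ?_⟩
  have e' : (⟨rtk6dvEmbFam L M H w' true (x₀ - 1), by rw [e]; exact h⟩ : gaussRing ι r) =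
      ⟨_, h⟩ := Subtype.ext e
  rw [e']
  exact h0

/-- **(t0)**  `w x₀` reduces to one at `A` ⇒ `x₀ ≡ 1` at the vertical valuation `V_0`. -/
theorem rtk6m5_zero (h1 : ∀ a, algebraMap ↥E' Qb (ι a) ∈ A)
    (h2 : ∀ a, algebraMap ↥E' Qb (ι a) ∈ A.nonunits → r a = 0)
    {w : fieldBar L M H ≃ₐ[Qb] fieldBar L M H}
    (hw : ∀ x : ↥(fieldC ↥E' L M H), nfEmbH E' L M H (w' x) = w (nfEmbH E' L M H x))
    {x₀ : ↥(fieldC ↥E' L M H)}
    (hx : ReducesToOneF A (fieldBar L M H) (w (nfEmbH E' L M H x₀))) :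
    x₀ - 1 ∈ (rtk6dvFam hB L M H w' false).nonunits := by
  rw [← hw] at hx
  have h := rtk6m5_inf hB A L M H w' h1 h2 hx
  rw [rtk6dvFam_mem_nonunits_iff] at h ⊢
  have e : rtk6dvEmbFam L M H w' false (x₀ - 1) = rtk6dvEmbFam L M H w' true (w' x₀ - 1) := by
    rw [rtk6dvEmbFam_false, rtk6dvEmbFam_true, map_sub, map_one]
  obtain ⟨h, h0⟩ := h
  refine ⟨by rw [e]; exact h, ?_⟩
  have e' : (⟨rtk6dvEmbFam L M H w' false (x₀ - 1), by rw [e]; exact h⟩ : gaussRing ι r) =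
      ⟨_, h⟩ := Subtype.ext e
  rw [e']
  exact h0

/-- **(t∞) and (t0) together.** -/
theorem rtk6m5_fam (h1 : ∀ a, algebraMap ↥E' Qb (ι a) ∈ A)
    (h2 : ∀ a, algebraMap ↥E' Qb (ι a) ∈ A.nonunits → r a = 0)
    {w : fieldBar L M H ≃ₐ[Qb] fieldBar L M H}
    (hw : ∀ x : ↥(fieldC ↥E' L M H), nfEmbH E' L M H (w' x) = w (nfEmbH E' L M H x))
    {x₀ : ↥(fieldC ↥E' L M H)} (b : Bool)
    (hx : ReducesToOneF A (fieldBar L M H)
      (bif b then nfEmbH E' L M H x₀ else w (nfEmbH E' L M H x₀))) :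
    x₀ - 1 ∈ (rtk6dvFam hB L M H w' b).nonunits := by
  cases b
  · exact rtk6m5_zero hB A L M H w' h1 h2 hw hx
  · exact rtk6m5_inf hB A L M H w' h1 h2 hx

/-- **The transfer at a conjugate** `(V b).comap γ`. -/
theorem rtk6m5_comap (h1 : ∀ a, algebraMap ↥E' Qb (ι a) ∈ A)
    (h2 : ∀ a, algebraMap ↥E' Qb (ι a) ∈ A.nonunits → r a = 0)
    {w : fieldBar L M H ≃ₐ[Qb] fieldBar L M H}
    (hw : ∀ x : ↥(fieldC ↥E' L M H), nfEmbH E' L M H (w' x) = w (nfEmbH E' L M H x))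
    (γ : ↥(fieldC ↥E' L M H) →+* ↥(fieldC ↥E' L M H))
    {x₀ : ↥(fieldC ↥E' L M H)} (b : Bool)
    (hx : ReducesToOneF A (fieldBar L M H)
      (bif b then nfEmbH E' L M H (γ x₀) else w (nfEmbH E' L M H (γ x₀)))) :
    x₀ - 1 ∈ ((rtk6dvFam hB L M H w' b).comap γ).nonunits := by
  rw [vt_mem_nonunits_comap, map_sub, map_one]
  exact rtk6m5_fam hB A L M H w' h1 h2 hw b hx

end Transfer

end Fermat.Agent.RT.K6

end
end ZBUNIP_038_3
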