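/- GENERATED FILE (helper35, build-time optimisation, NOTES/ZB.md): verbatim concatenation of the modules
   Fermat.Agent.STB.PrimePow
   Fermat.Agent.STB.MGMain
   Fermat.Agent.STB.SwapFrobMG
   Fermat.Agent.STB.MGData
   Do not edit; do not import together with these modules. -/
import Fermat.Agent.ZB.INJ_025
import Fermat.Agent.ZB.INJ_005
import Fermat.Agent.ZB.UNIP_032
import Fermat.Agent.ZB.STB_003
import Fermat.Agent.ZB.STB_001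
import Fermat.Agent.ZB.UNIP_006
import Fermat.Agent.ZB.STB_007
import Fermat.Agent.ZB.STB_008
import Fermat.Agent.ZB.UNIP_038
import Fermat.Agent.ZB.S34_001
import Fermat.Agent.ZB.UNIP_014
import Fermat.Agent.ZB.INJ_031

/-! ### bundled: `Fermat.Agent.STB.PrimePow` -/
section ZBSTB_009_0
/-
S35 phase 2 (plan "STB"), piece STB-MG-7 "prime powers suffice" (helper18); twin of
`UNIP/MGPrimePow.lean`.

* `StmtNewFrobKummerAtPP M₁ q` : `StmtNewFrobKummerAt M₁ q` (`STB/Stmt.lean`) for exponents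
  `m = p ^ r`, `p ≠ q` prime.
* `stmtNewFrobKummerAt_of_pp : StmtNewFrobKummerAtPP M₁ q → StmtNewFrobKummerAt M₁ q`.
* `stmtNewFrobKummer_of_pp_aux` : with STB-D (`STB/Descent.lean`): `StmtNewFrobKummer` follows from
  `StmtNewFrobKummerAtPP M₁ q` at the levels with `(q = 2 → 3 ∣ M₁)`, `(q = 3 → 2 ∣ M₁)`.
-/

set_option autoImplicit false

noncomputable section

namespace Fermat.Agent.STB

open ModularCurve AlgebraicCurve Fermat.Agent.ES Fermat.Agent.ES.G2 Fermat.Agent.UNIP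

/-- (P7-a) in Kummer form at level `M₁ q`, for prime power exponents `m = p ^ r`, `p ≠ q`. -/
def StmtNewFrobKummerAtPP (M₁ q : ℕ) [NeZero M₁] [NeZero q] : Prop :=
  ∀ A : ValuationSubring Qb, A.LiesOverPrime q →
    ∀ p : ℕ, p.Prime → p ≠ q → ∀ r : ℕ,
      ∀ σ : Qb ≃ₐ[ℚ] Qb, A.IsFrobeniusAt σ q →
        ∀ u : modularFunctionFieldBar (M₁ * q), u ≠ 0 →
          (∀ P : Place Qb (modularFunctionFieldBar (M₁ * q)), ((p ^ r : ℕ) : ℤ) ∣ P.ord u) →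
          (∃ (c : Qb) (f : modularFunctionFieldBar M₁),
            stbNormAlpha M₁ q u = algebraMap Qb (modularFunctionFieldBar M₁) c * f ^ (p ^ r)) →
          (∃ (c : Qb) (f : modularFunctionFieldBar M₁),
            stbNormBeta M₁ q u = algebraMap Qb (modularFunctionFieldBar M₁) c * f ^ (p ^ r)) →
            ∃ h : modularFunctionFieldBar (M₁ * q),
              h ^ (p ^ r) = stbFrobExpr
                (fun y => arithmeticGalois (modularFunctionFieldFull (M₁ * q)) σ • y)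
                (q ^ 2) u

/-- `c · f ^ m` is `c · (f ^ k) ^ d` when `m = d k`. -/
theorem stb_pp_norm_hyp {F : Type*} [Field F] {x : F} {m d : ℕ} (hd : d ∣ m)
    {K : Type*} [Field K] [Algebra K F]
    (h : ∃ (c : K) (f : F), x = algebraMap K F c * f ^ m) :
    ∃ (c : K) (f : F), x = algebraMap K F c * f ^ d := by
  obtain ⟨c, f, hf⟩ := h
  obtain ⟨k, rfl⟩ := hd
  exact ⟨c, f ^ k, by rw [hf, ← pow_mul, Nat.mul_comm k d]⟩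

/-- **STB-MG-7**: prime power exponents suffice. -/
theorem stmtNewFrobKummerAt_of_pp (M₁ q : ℕ) [NeZero M₁] [NeZero q] (hq : q.Prime)
    (h : StmtNewFrobKummerAtPP M₁ q) : StmtNewFrobKummerAt M₁ q := by
  intro A hA m hm σ hσ u hu hdiv hα hβ
  have hm0 : m ≠ 0 := by
    rintro rfl
    exact hm (dvd_zero q)
  refine mg_pow_of_prime_powers _ m (fun p r hp hd => ?_) hm0
  by_cases hr : r = 0
  · subst hr
    exact ⟨_, pow_one _⟩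
  have hpq : p ≠ q := by
    rintro rfl
    exact hm (dvd_trans (dvd_pow_self p hr) hd)
  refine h A hA p hp hpq r σ hσ u hu (fun P => ?_) (stb_pp_norm_hyp hd hα)
    (stb_pp_norm_hyp hd hβ)
  have h1 : ((p ^ r : ℕ) : ℤ) ∣ (m : ℤ) := by exact_mod_cast hd
  exact dvd_trans h1 (hdiv P)

/-- STB-D + STB-MG-7: `StmtNewFrobKummer` from the prime power statement at the levels where the
base line of the KEY route exists. -/
theorem stmtNewFrobKummer_of_pp_aux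
    (h : ∀ (M₁ q : ℕ) [NeZero M₁] [NeZero q], q.Prime → ¬ q ∣ M₁ →
      (q = 2 → 3 ∣ M₁) → (q = 3 → 2 ∣ M₁) → StmtNewFrobKummerAtPP M₁ q) :
    StmtNewFrobKummer :=
  stmtNewFrobKummer_of_aux fun M₁ q _ _ hq hqM h2 h3 =>
    stmtNewFrobKummerAt_of_pp M₁ q hq (h M₁ q hq hqM h2 h3)

end Fermat.Agent.STB

end
end ZBSTB_009_0

/-! ### bundled: `Fermat.Agent.STB.MGMain` -/
section ZBSTB_009_1

/-!
# STB-MG (S35 phase 2): `stb_main_points` in the concrete setting, and the final reduction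

Twin of `UNIP/MGMain.lean` + `UNIP/MGFinal.lean`.  Setting of `UNIP/MGConcrete.lean` at the level
`N = M₁ * q`: `E′ = mgcE A K₁`, `A′ = mgcA A K₁`, `F′ = mgcF A K₁ (M₁ * q)`, `j = mgcT …`;
`φ` a Frobenius element at `A`, `g = mgAct E′ N φ hφ`, `Φ = g ∘ g`.

* `stbcPhi N φ hφ : F′ →+* F′` — `Φ`.
* `stb_frobExpr_eq` : `Φ y / y ^ Q = stbFrobExpr g Q u` for `y = Φ u / u`.
* `stbc_main` : `stb_main_points` in the concrete setting (base hypotheses discharged).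
* `StbData A K₁ hq hqM φ hφ` : the special-fibre inputs.
* `stmtNewFrobKummerAtPP_of_data` : `StmtKronQ` + `StbData` everywhere ⇒ `StmtNewFrobKummerAtPP`.
-/

set_option autoImplicit false
set_option linter.style.haveILetI false
set_option linter.unusedSectionVars false
set_option linter.unusedVariables false

noncomputable section

namespace Fermat.Agent.STB

open ModularCurve AlgebraicCurve Fermat.Agent.ES Fermat.Agent.ES.G2 Fermat.Agent.INJ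
open Fermat.Agent.UNIP IntermediateField

/-- `Φ y / y ^ Q = g⁴ u · u ^ Q / (g² u) ^ (Q + 1)` for `y = g² u / u`. -/
theorem stb_frobExpr_eq {F : Type*} [Field F] (g : F →+* F) (Q : ℕ) {u : F} (hu : u ≠ 0) :
    (g.comp g) ((g.comp g) u / u) / ((g.comp g) u / u) ^ Q = stbFrobExpr g Q u := by
  have h2 : g (g u) ≠ 0 := (map_ne_zero g).mpr ((map_ne_zero g).mpr hu)
  unfold stbFrobExpr
  simp only [RingHom.comp_apply, map_div₀]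
  rw [div_pow, pow_succ]
  field_simp

section Main

variable {A : ValuationSubring Qb} {K₁ : IntermediateField ℚ Qb} (N : ℕ) [NeZero N]
  [IsDiscreteValuationRing ↥(mgcA A K₁)]

/-- `Φ = φ²` on `F′` -/
def stbcPhi (φ : Qb ≃ₐ[ℚ] Qb) (hφ : ∀ x ∈ mgcE A K₁, φ x ∈ mgcE A K₁) :
    ↥(mgcF A K₁ N) →+* ↥(mgcF A K₁ N) :=
  (mgAct (mgcE A K₁) N φ hφ).comp (mgAct (mgcE A K₁) N φ hφ)

theorem nfEmb_stbcPhi (φ : Qb ≃ₐ[ℚ] Qb) (hφ : ∀ x ∈ mgcE A K₁, φ x ∈ mgcE A K₁)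
    (x : ↥(mgcF A K₁ N)) :
    nfEmb (mgcE A K₁) N (stbcPhi N φ hφ x)
      = arithmeticGalois (modularFunctionFieldFull N) φ •
          arithmeticGalois (modularFunctionFieldFull N) φ • nfEmb (mgcE A K₁) N x := by
  unfold stbcPhi
  rw [RingHom.comp_apply, nfEmb_mgAct, nfEmb_mgAct]

variable {N}

/-- **`stb_main_points` in the concrete setting.** -/
theorem stbc_main {q : ℕ} (hq : q.Prime) (hA : A.LiesOverPrime q)
    {π : ↥(mgcA A K₁)} (hπ : Irreducible π)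
    {p : ℕ} (hp : p.Prime) (hpq : p ≠ q)
    {κ : Type*} [Finite κ] (V : κ → ValuationSubring ↥(mgcF A K₁ N)) (c₁ c₂ : κ)
    (hκ : ∀ c, c = c₁ ∨ c = c₂) (hne : V c₁ ≠ V c₂)
    (hBV₁ : ∀ c (b : ↥(mgcF A K₁ N)),
      IsIntegral ↥(Algebra.adjoin ↥(mgcA A K₁) {mgcT A K₁ N}) b → b ∈ V c)
    (hBV₂ : ∀ c (b : ↥(mgcF A K₁ N)),
      IsIntegral ↥(Algebra.adjoin ↥(mgcA A K₁) {(mgcT A K₁ N)⁻¹}) b → b ∈ V c)
    (hπV : ∀ c, algebraMap ↥(mgcA A K₁) ↥(mgcF A K₁ N) π ∈ (V c).nonunits)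
    (hSS1 : ∀ b : ↥(mgcF A K₁ N),
      IsIntegral ↥(Algebra.adjoin ↥(mgcA A K₁) {mgcT A K₁ N}) b →
      (∀ c, b ∈ (V c).nonunits) →
      ∃ b' : ↥(mgcF A K₁ N), IsIntegral ↥(Algebra.adjoin ↥(mgcA A K₁) {mgcT A K₁ N}) b' ∧
        b = algebraMap ↥(mgcA A K₁) ↥(mgcF A K₁ N) π * b')
    (harch : ∀ c (a x : ↥(mgcF A K₁ N)), a ∈ (V c).nonunits →
      ∃ n : ℕ, a ^ n * x ∈ (V c).nonunits)
    (Φ : ↥(mgcF A K₁ N) →+* ↥(mgcF A K₁ N))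
    (hΦV : ∀ c, ∀ x ∈ (V c).nonunits, Φ x ∈ (V c).nonunits) (Q r : ℕ)
    {y : ↥(mgcF A K₁ N)} (tt : κ → ↥(mgcF A K₁ N))
    (htoric : ∀ c, y / tt c ^ (p ^ r) - 1 ∈ (V c).nonunits)
    (hpts : ∀ i : AtPt (F := ↥(mgcF A K₁ N)) π (mgcT A K₁ N) ⊕
        AtPt (F := ↥(mgcF A K₁ N)) π (mgcT A K₁ N)⁻¹,
      (atInc π (mgcT A K₁ N) V i c₁ ∧ atInc π (mgcT A K₁ N) V i c₂ ∧
        StbCross (atO π (mgcT A K₁ N) i) (V c₁) (V c₂) Φ Q (p ^ r) y) ∨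
      (∃ c, atInc π (mgcT A K₁ N) V i c ∧ (∀ c', atInc π (mgcT A K₁ N) V i c' → c' = c) ∧
        ∃ i₁ : AtPt (F := ↥(mgcF A K₁ N)) π (mgcT A K₁ N) ⊕
            AtPt (F := ↥(mgcF A K₁ N)) π (mgcT A K₁ N)⁻¹,
          atInc π (mgcT A K₁ N) V i₁ c ∧
          StbSmooth (atO π (mgcT A K₁ N) i) (atO π (mgcT A K₁ N) i₁) (V c) Φ (p ^ r) y)) :
    ∃ h : ↥(mgcF A K₁ N), h ^ (p ^ r) = Φ y / y ^ Q := by
  haveI := mgc_finiteDimensional A K₁ N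
  have hM : ((p : ℕ) : Qb) ∉ A.nonunits := by
    have := Fermat.Agent.S31.natCast_pow_not_mem_nonunits A hp hq (Ne.symm hpq) hA 1
    rwa [pow_one] at this
  have hE : beta0Field A ≤ mgcE A K₁ := le_sup_left
  obtain ⟨ζ, hζ⟩ := beta0Ring_exists_primitiveRoot (A := A) (K₀ := mgcE A K₁) hE hp.ne_zero hM
  have hpu : IsUnit ((p : ℕ) : ↥(mgcA A K₁)) := beta0Ring_hpu hM
  have hunit := beta0Ring_hunit (A := A) (K₀ := mgcE A K₁) hq hA hE hp.ne_zero hM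
  exact stb_main_points hπ (mgc_transcendental A K₁ N) (mgc_hcl A K₁ N) hp hpu hζ hunit V c₁ c₂
    hκ hne hBV₁ hBV₂ hπV hSS1 harch Φ hΦV Q r tt htoric hpts

end Main

section Data

variable (A : ValuationSubring Qb) (K₁ : IntermediateField ℚ Qb) {M₁ q : ℕ} [NeZero M₁] [NeZero q]
  (hq : q.Prime) (hqM : ¬ q ∣ M₁) [IsDiscreteValuationRing ↥(mgcA A K₁)]

/-- the special-fibre inputs of `stbc_main` at `(A, K₁, φ)`, level `M₁ * q`: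
a uniformizer `π` of `A′`, the two vertical valuation rings `V true` (at `∞`), `V false`
(at `0`) of `F′` with
* the hypotheses of `stb_main_points` on `V` (MG-8) and `hΦV`,
* the toric transfer from `ReducesToOne` over `ℚ̄` (STB-MG-t),
* the per-point hypotheses `hpts` for `y = Φ u₀ / u₀`, for every `u₀` with `m ∣ div u₀` and
  rational support, and every toric datum `tt`. -/
def StbData (φ : Qb ≃ₐ[ℚ] Qb) (hφ : ∀ x ∈ mgcE A K₁, φ x ∈ mgcE A K₁) : Prop :=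
  ∃ (π : ↥(mgcA A K₁)) (V : Bool → ValuationSubring ↥(mgcF A K₁ (M₁ * q))),
    Irreducible π ∧ V true ≠ V false ∧
    (∀ c (b : ↥(mgcF A K₁ (M₁ * q))),
      IsIntegral ↥(Algebra.adjoin ↥(mgcA A K₁) {mgcT A K₁ (M₁ * q)}) b → b ∈ V c) ∧
    (∀ c (b : ↥(mgcF A K₁ (M₁ * q))),
      IsIntegral ↥(Algebra.adjoin ↥(mgcA A K₁) {(mgcT A K₁ (M₁ * q))⁻¹}) b → b ∈ V c) ∧
    (∀ c, algebraMap ↥(mgcA A K₁) ↥(mgcF A K₁ (M₁ * q)) π ∈ (V c).nonunits) ∧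
    (∀ b : ↥(mgcF A K₁ (M₁ * q)),
      IsIntegral ↥(Algebra.adjoin ↥(mgcA A K₁) {mgcT A K₁ (M₁ * q)}) b →
      (∀ c, b ∈ (V c).nonunits) →
      ∃ b' : ↥(mgcF A K₁ (M₁ * q)),
        IsIntegral ↥(Algebra.adjoin ↥(mgcA A K₁) {mgcT A K₁ (M₁ * q)}) b' ∧
        b = algebraMap ↥(mgcA A K₁) ↥(mgcF A K₁ (M₁ * q)) π * b') ∧
    (∀ c (a x : ↥(mgcF A K₁ (M₁ * q))), a ∈ (V c).nonunits →
      ∃ n : ℕ, a ^ n * x ∈ (V c).nonunits) ∧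
    (∀ c, ∀ x ∈ (V c).nonunits, stbcPhi (M₁ * q) φ hφ x ∈ (V c).nonunits) ∧
    (∀ x₀ : ↥(mgcF A K₁ (M₁ * q)),
      ReducesToOne A (M₁ * q) (nfEmb (mgcE A K₁) (M₁ * q) x₀) → x₀ - 1 ∈ (V true).nonunits) ∧
    (∀ x₀ : ↥(mgcF A K₁ (M₁ * q)),
      ReducesToOne A (M₁ * q)
        (Fermat.Agent.UNIP.atkinLehnerBar hq hqM (nfEmb (mgcE A K₁) (M₁ * q) x₀)) →
      x₀ - 1 ∈ (V false).nonunits) ∧
    ∀ m : ℕ, ¬ q ∣ m → ∀ u₀ : ↥(mgcF A K₁ (M₁ * q)), u₀ ≠ 0 →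
      (∀ P : Place NfQb (modularFunctionFieldBar (M₁ * q)),
        (m : ℤ) ∣ P.ord (nfEmb (mgcE A K₁) (M₁ * q) u₀)) →
      MgcRat A K₁ (M₁ * q) u₀ →
      ∀ tt : Bool → ↥(mgcF A K₁ (M₁ * q)),
      (∀ c, (stbcPhi (M₁ * q) φ hφ u₀ / u₀) / tt c ^ m - 1 ∈ (V c).nonunits) →
      ∀ i : AtPt (F := ↥(mgcF A K₁ (M₁ * q))) π (mgcT A K₁ (M₁ * q)) ⊕
          AtPt (F := ↥(mgcF A K₁ (M₁ * q))) π (mgcT A K₁ (M₁ * q))⁻¹,
        (atInc π (mgcT A K₁ (M₁ * q)) V i true ∧ atInc π (mgcT A K₁ (M₁ * q)) V i false ∧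
          StbCross (atO π (mgcT A K₁ (M₁ * q)) i) (V true) (V false)
            (stbcPhi (M₁ * q) φ hφ) (q ^ 2) m (stbcPhi (M₁ * q) φ hφ u₀ / u₀)) ∨
        (∃ c, atInc π (mgcT A K₁ (M₁ * q)) V i c ∧
          (∀ c', atInc π (mgcT A K₁ (M₁ * q)) V i c' → c' = c) ∧
          ∃ i₁ : AtPt (F := ↥(mgcF A K₁ (M₁ * q))) π (mgcT A K₁ (M₁ * q)) ⊕
              AtPt (F := ↥(mgcF A K₁ (M₁ * q))) π (mgcT A K₁ (M₁ * q))⁻¹,
            atInc π (mgcT A K₁ (M₁ * q)) V i₁ c ∧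
            StbSmooth (atO π (mgcT A K₁ (M₁ * q)) i) (atO π (mgcT A K₁ (M₁ * q)) i₁) (V c)
              (stbcPhi (M₁ * q) φ hφ) m (stbcPhi (M₁ * q) φ hφ u₀ / u₀))

end Data

/-- three elements of `F_N(ℚ̄)` descend to `F_N(K₂)` for every `K₂` containing a suitable number
field -/
theorem stb_exists_descent₃ (N : ℕ) (x y z : modularFunctionFieldBar N) :
    ∃ K₁ : IntermediateField ℚ Qb, FiniteDimensional ℚ K₁ ∧
      ∀ K₂ : IntermediateField ℚ Qb, K₁ ≤ K₂ →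
        ∃ x₂ y₂ z₂ : modularFunctionFieldFullC K₂ N,
          nfEmb K₂ N x₂ = x ∧ nfEmb K₂ N y₂ = y ∧ nfEmb K₂ N z₂ = z := by
  classical
  obtain ⟨K₁, hfin, -, hK⟩ := nf_exists_descent_finset (N := N) ∅
    {(x : LaurentSeries Qb), (y : LaurentSeries Qb), (z : LaurentSeries Qb)}
    (fun w hw => by
      simp only [Finset.mem_insert, Finset.mem_singleton] at hw
      rcases hw with rfl | rfl | rfl
      · exact x.2
      · exact y.2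
      · exact z.2)
  refine ⟨K₁, hfin, fun K₂ h12 => ?_⟩
  obtain ⟨x₂, hx₂, hx⟩ := hK K₂ h12 x (by simp)
  obtain ⟨y₂, hy₂, hy⟩ := hK K₂ h12 y (by simp)
  obtain ⟨z₂, hz₂, hz⟩ := hK K₂ h12 z (by simp)
  exact ⟨⟨x₂, hx₂⟩, ⟨y₂, hy₂⟩, ⟨z₂, hz₂⟩, Subtype.ext hx, Subtype.ext hy, Subtype.ext hz⟩

set_option maxHeartbeats 1600000 in
/-- **STB-MG, final reduction.**  `StmtNewFrobKummerAtPP M₁ q` from Kronecker at `q` (STB-K) and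
the special-fibre data at every `(A, K₁, φ)`. -/
theorem stmtNewFrobKummerAtPP_of_data (M₁ q : ℕ) [NeZero M₁] [NeZero q] (hq : q.Prime)
    (hqM : ¬ q ∣ M₁) (hK : StmtKronQ hq hqM)
    (h : ∀ (A : ValuationSubring Qb) (hA : A.LiesOverPrime q) (K₁ : IntermediateField ℚ Qb)
      [NumberField K₁] [IsGalois ℚ K₁] [IsDiscreteValuationRing ↥(mgcA A K₁)]
      (φ : Qb ≃ₐ[ℚ] Qb) (_ : A.IsFrobeniusAt φ q)
      (hφ : ∀ x ∈ mgcE A K₁, φ x ∈ mgcE A K₁), StbData A K₁ hq hqM φ hφ) :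
    StmtNewFrobKummerAtPP M₁ q := by
  intro A hA p hp hpq r φ hφF u hu hdiv hα hβ
  have hm0 : p ^ r ≠ 0 := pow_ne_zero r hp.ne_zero
  have hqm : ¬ q ∣ p ^ r := fun hd =>
    hpq ((Nat.prime_dvd_prime_iff_eq hq hp).mp (hq.dvd_of_dvd_pow hd)).symm
  -- (A): toric data over `ℚ̄`
  obtain ⟨t, t', ht, ht', hR, hR'⟩ :=
    stb_a_exists_toric_kummer hq hqM A φ hφF (hK A hA φ hφF) hu (p ^ r) hm0 hα hβ
  -- a number field of definition of `u`, `t`, `t'`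
  obtain ⟨K', hK'fin, hK'⟩ := stb_exists_descent₃ (M₁ * q) u t t'
  -- rationality of the support (D8)
  obtain ⟨K₁, hK'K₁, hK₁fin, hK₁gal, hrat⟩ :=
    rat_exists_field_rational (M₁ * q) u hu K' hK'fin
  haveI : NumberField K₁ := @NumberField.mk _ _ inferInstance hK₁fin
  haveI : IsGalois ℚ K₁ := hK₁gal
  haveI : Normal ℚ K₁ := hK₁gal.to_normal
  haveI : IsDiscreteValuationRing ↥(mgcA A K₁) := beta0Ring_isDVR_sup K₁ hq hA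
  have hK₁E : K₁ ≤ mgcE A K₁ := le_sup_right
  obtain ⟨u₀, t₀, t₀', hu₀, ht₀, ht₀'⟩ := hK' (mgcE A K₁) (hK'K₁.trans hK₁E)
  have hφ : ∀ x ∈ mgcE A K₁, φ x ∈ mgcE A K₁ := fun x hx =>
    beta0_sup_decomp_apply_mem K₁ hφF.mem_decompositionSubgroup hx
  have hu₀0 : u₀ ≠ 0 := by
    rintro rfl
    apply hu
    rw [← hu₀, map_zero]
  obtain ⟨π, V, hπ, hne, hBV₁, hBV₂, hπV, hSS1, harch, hΦV, htr, htr', hpts⟩ :=
    h A hA K₁ φ hφF hφ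
  have hR₀ : MgcRat A K₁ (M₁ * q) u₀ := fun Q s σ' hs hQ f hf =>
    hrat (mgcE A K₁) hK₁E u₀ hu₀ Q s σ' hs hQ f hf
  set y₀ : ↥(mgcF A K₁ (M₁ * q)) := stbcPhi (M₁ * q) φ hφ u₀ / u₀ with hy₀
  have hy₀e : nfEmb (mgcE A K₁) (M₁ * q) y₀
      = (arithmeticGalois (modularFunctionFieldFull (M₁ * q)) φ •
          arithmeticGalois (modularFunctionFieldFull (M₁ * q)) φ • u) / u := by
    rw [hy₀, map_div₀, nfEmb_stbcPhi, hu₀]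
  let tt : Bool → ↥(mgcF A K₁ (M₁ * q)) := fun c => if c then t₀ else t₀'
  have htoric : ∀ c, y₀ / tt c ^ (p ^ r) - 1 ∈ (V c).nonunits := by
    intro c
    cases c
    · apply htr'
      show ReducesToOne A (M₁ * q) (Fermat.Agent.UNIP.atkinLehnerBar hq hqM
        (nfEmb (mgcE A K₁) (M₁ * q) (y₀ / t₀' ^ (p ^ r))))
      rw [map_div₀, map_pow, hy₀e, ht₀']
      exact hR'
    · apply htr
      show ReducesToOne A (M₁ * q) (nfEmb (mgcE A K₁) (M₁ * q) (y₀ / t₀ ^ (p ^ r)))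
      rw [map_div₀, map_pow, hy₀e, ht₀]
      exact hR
  have hdiv₀ : ∀ P : Place NfQb (modularFunctionFieldBar (M₁ * q)),
      ((p ^ r : ℕ) : ℤ) ∣ P.ord (nfEmb (mgcE A K₁) (M₁ * q) u₀) := by
    rw [hu₀]
    exact hdiv
  obtain ⟨h₀, hh₀⟩ := stbc_main hq hA hπ hp hpq V true false
    (fun c => by cases c <;> simp) hne hBV₁ hBV₂ hπV hSS1 harch (stbcPhi (M₁ * q) φ hφ) hΦV
    (q ^ 2) r tt htoric (hpts (p ^ r) hqm u₀ hu₀0 hdiv₀ hR₀ tt htoric)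
  refine ⟨nfEmb (mgcE A K₁) (M₁ * q) h₀, ?_⟩
  rw [← map_pow, hh₀]
  have e1 : stbcPhi (M₁ * q) φ hφ y₀ / y₀ ^ (q ^ 2)
      = stbFrobExpr (mgAct (mgcE A K₁) (M₁ * q) φ hφ) (q ^ 2) u₀ :=
    stb_frobExpr_eq (mgAct (mgcE A K₁) (M₁ * q) φ hφ) (q ^ 2) hu₀0
  rw [e1]
  unfold stbFrobExpr
  simp only [map_div₀, map_mul, map_pow, nfEmb_mgAct, hu₀]

end Fermat.Agent.STB

end
end ZBSTB_009_1

/-! ### bundled: `Fermat.Agent.STB.SwapFrobMG` -/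
section ZBSTB_009_2
/-
RIB / MP, piece MP-SW part 3 (helper45): the hypotheses of `stbsw_main_points` concerning
`g = φ̂ ∘ w_q` in the CONCRETE setting of `UNIP/MGConcrete.lean` (`F′ = mgcF A K₁ (M q)`,
`V = mgvV hπ ιC hq hqM`, `t = mgcT`), twin of `STB/MGFrob.lean`, `STB/MGFrobJ.lean`.

* `stbswG`            : `g = φ̂ ∘ w_q` as a ring endomorphism of `F′`;
* `stbsw_mf_hgV`      : `g 𝔪(V (!c)) ⊆ 𝔪(V c)`;
* `stbsw_mf_hfrob_J`, `stbsw_mf_hfrob_Jinv` : (Fr′) at the crossing points of the two charts;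
* `stbsw_mf_geom`     : the preimage points at the one-component points.
-/

set_option autoImplicit false
set_option linter.style.haveILetI false
set_option linter.unusedSectionVars false
set_option linter.unusedVariables false

noncomputable section

namespace Fermat.Agent.STB

open ModularCurve AlgebraicCurve Fermat.Agent.ES Fermat.Agent.ES.G2 Fermat.Agent.INJ
open IntermediateField Fermat.Agent.UNIP Fermat.Agent.AL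

section Concrete

variable {A : ValuationSubring Qb} {K₁ : IntermediateField ℚ Qb}
  [IsDiscreteValuationRing ↥(mgcA A K₁)] {π : ↥(mgcA A K₁)} (hπ : Irreducible π)
  (ιC : ↥(mgcE A K₁) →+* ℂ) {q M : ℕ} [NeZero q] [NeZero M] [NeZero (M * q)]
  (hq : q.Prime) (hqM : ¬ q ∣ M)

/-- `g = φ̂ ∘ w_q` on `F′ = F_{Mq}(E′)` -/
def stbswG (φ : Qb ≃ₐ[ℚ] Qb) (hφ : ∀ x ∈ mgcE A K₁, φ x ∈ mgcE A K₁) :
    ↥(mgcF A K₁ (M * q)) →+* ↥(mgcF A K₁ (M * q)) :=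
  (mgAct (mgcE A K₁) (M * q) φ hφ).comp
    ((stbAtk ιC hq hqM : ↥(mgcF A K₁ (M * q)) ≃+* ↥(mgcF A K₁ (M * q))) :
      ↥(mgcF A K₁ (M * q)) →+* ↥(mgcF A K₁ (M * q)))

theorem stbswG_apply (φ : Qb ≃ₐ[ℚ] Qb) (hφ : ∀ x ∈ mgcE A K₁, φ x ∈ mgcE A K₁)
    (x : ↥(mgcF A K₁ (M * q))) :
    stbswG ιC hq hqM φ hφ x =
      mgRingAut (M * q) (mgaRestrictEquiv (mgcE A K₁) φ hφ) (stbAtk ιC hq hqM x) := rfl

theorem stbswG_smul (φ : Qb ≃ₐ[ℚ] Qb) (hφ : ∀ x ∈ mgcE A K₁, φ x ∈ mgcE A K₁)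
    (x : ↥(mgcF A K₁ (M * q))) :
    stbswG ιC hq hqM φ hφ x =
      mgcGal (M * q) φ hφ • (atkinLehner ↥(mgcE A K₁) ιC hq hqM x) := rfl

/-- `g = φ̂ ∘ w_q` over `ℚ̄` : the image of `g x` in `F_{Mq}(ℚ̄)` is `φ • w_q (image of x)`. -/
theorem nfEmb_stbswG (φ : Qb ≃ₐ[ℚ] Qb) (hφ : ∀ x ∈ mgcE A K₁, φ x ∈ mgcE A K₁)
    (x : ↥(mgcF A K₁ (M * q))) :
    nfEmb (mgcE A K₁) (M * q) (stbswG ιC hq hqM φ hφ x) =
      arithmeticGalois (modularFunctionFieldFull (M * q)) φ •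
        atkinLehnerBar hq hqM (nfEmb (mgcE A K₁) (M * q) x) := by
  rw [stb_mgt_atkinLehnerBar_nfEmb' ιC hq hqM x, ← nfEmb_mgAct]
  rfl

/-- `w_q` fixes the constants -/
theorem stbsw_mf_hwR (a : ↥(mgcA A K₁)) :
    stbAtk ιC hq hqM (algebraMap ↥(mgcA A K₁) ↥(mgcF A K₁ (M * q)) a) =
      algebraMap ↥(mgcA A K₁) ↥(mgcF A K₁ (M * q)) a := by
  rw [mgcAlgAGen_algebraMap]
  exact (atkinLehner ↥(mgcE A K₁) ιC hq hqM).commutes _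

/-- the Frobenius congruence of `g` on the base -/
theorem stbsw_mf_hgA (hπ₀ : Irreducible π) {φ : Qb ≃ₐ[ℚ] Qb} (hφF : A.IsFrobeniusAt φ q)
    (hφ : ∀ x ∈ mgcE A K₁, φ x ∈ mgcE A K₁) (a : ↥(mgcA A K₁)) :
    ∃ c : ↥(mgcA A K₁),
      stbswG ιC hq hqM φ hφ (algebraMap ↥(mgcA A K₁) ↥(mgcF A K₁ (M * q)) a) =
        algebraMap ↥(mgcA A K₁) ↥(mgcF A K₁ (M * q)) (a ^ q + π * c) := by
  obtain ⟨c, hc⟩ := stbmf_hΨR (N := M * q) hφF hφ hπ₀ a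
  refine ⟨c, ?_⟩
  rw [stbswG_apply, stbsw_mf_hwR]
  exact hc

/-- **`hgV`** : `g = φ̂ ∘ w_q` swaps the two vertical components. -/
theorem stbsw_mf_hgV {φ : Qb ≃ₐ[ℚ] Qb} (hφD : φ ∈ A.decompositionSubgroup ℚ)
    (hφ : ∀ x ∈ mgcE A K₁, φ x ∈ mgcE A K₁) :
    ∀ c : Bool, ∀ x ∈ (mgvV hπ ιC hq hqM (!c)).nonunits,
      stbswG ιC hq hqM φ hφ x ∈ (mgvV hπ ιC hq hqM c).nonunits := by
  have hV0 : ∀ x : ↥(mgcF A K₁ (M * q)), x ∈ (mgvV hπ ιC hq hqM false).nonunits ↔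
      stbAtk ιC hq hqM x ∈ (mgvV hπ ιC hq hqM true).nonunits := fun x =>
    stb_mem_nonunits_comap (mgvV hπ ιC hq hqM true)
      (atkinLehner ↥(mgcE A K₁) ιC hq hqM).toRingEquiv.toRingHom x
  intro c x hx
  cases c
  · -- `c = false`
    rw [hV0, stbswG_apply, stbAtk_mgRingAut, stbAtk_invol]
    exact mgvf_hΦV_gal hπ ιC hq hqM hφD hφ true x hx
  · -- `c = true`
    exact mgvf_hΦV_gal hπ ιC hq hqM hφD hφ true _ ((hV0 x).mp hx)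

/-- **(Fr′), chart `j`** : the 4th field of `StbCross (atLoc 𝔫) (V true) (V false) g q m y` at
every crossing point of the chart `j`, `g = φ̂ ∘ w_q`. -/
theorem stbsw_mf_hfrob_J (hA : A.LiesOverPrime q) (h2 : q = 2 → 3 ∣ M) (h3 : q = 3 → 2 ∣ M)
    {φ : Qb ≃ₐ[ℚ] Qb} (hφF : A.IsFrobeniusAt φ q) (hφ : ∀ x ∈ mgcE A K₁, φ x ∈ mgcE A K₁)
    (𝔫 : AtPt (F := ↥(mgcF A K₁ (M * q))) π (mgcT A K₁ (M * q)))
    (hc₁ : atThrough 𝔫 (mgvV hπ ιC hq hqM true))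
    (hc₂ : atThrough 𝔫 (mgvV hπ ιC hq hqM false)) (x : atLoc 𝔫) :
    ∃ z : atLoc 𝔫, ¬ IsUnit z ∧
      (z : ↥(mgcF A K₁ (M * q))) =
        stbswG ιC hq hqM φ hφ (x : ↥(mgcF A K₁ (M * q))) - (x : ↥(mgcF A K₁ (M * q))) ^ q := by
  haveI : IsAlgClosed (IsLocalRing.ResidueField ↥(mgcA A K₁)) :=
    stb_isAlgClosed_residue hq hA (le_sup_left : beta0Field A ≤ mgcE A K₁)
  exact stbsw_cross_hfrob hπ (mgvV hπ ιC hq hqM true) (mgvV hπ ιC hq hqM false)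
    (stbAtk ιC hq hqM) (mgRingAut (M * q) (mgaRestrictEquiv (mgcE A K₁) φ hφ)) q hq.ne_zero
    (stb_frobVal_all_J hπ ιC hq hqM hA (le_sup_left : beta0Field A ≤ mgcE A K₁) h2 h3 hφF hφ)
    (stbswG ιC hq hqM φ hφ) (stbswG_apply ιC hq hqM φ hφ) (stbsw_mf_hwR ιC hq hqM)
    (stbmf_hΨR (N := M * q) hφF hφ hπ) 𝔫 hc₁ hc₂ x

/-- **(Fr′), chart `1 / j`**. -/
theorem stbsw_mf_hfrob_Jinv (hA : A.LiesOverPrime q) (h2 : q = 2 → 3 ∣ M) (h3 : q = 3 → 2 ∣ M)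
    {φ : Qb ≃ₐ[ℚ] Qb} (hφF : A.IsFrobeniusAt φ q) (hφ : ∀ x ∈ mgcE A K₁, φ x ∈ mgcE A K₁)
    (𝔫 : AtPt (F := ↥(mgcF A K₁ (M * q))) π (mgcT A K₁ (M * q))⁻¹)
    (hc₁ : atThrough 𝔫 (mgvV hπ ιC hq hqM true))
    (hc₂ : atThrough 𝔫 (mgvV hπ ιC hq hqM false)) (x : atLoc 𝔫) :
    ∃ z : atLoc 𝔫, ¬ IsUnit z ∧
      (z : ↥(mgcF A K₁ (M * q))) =
        stbswG ιC hq hqM φ hφ (x : ↥(mgcF A K₁ (M * q))) - (x : ↥(mgcF A K₁ (M * q))) ^ q := by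
  haveI : IsAlgClosed (IsLocalRing.ResidueField ↥(mgcA A K₁)) :=
    stb_isAlgClosed_residue hq hA (le_sup_left : beta0Field A ≤ mgcE A K₁)
  exact stbsw_cross_hfrob hπ (mgvV hπ ιC hq hqM true) (mgvV hπ ιC hq hqM false)
    (stbAtk ιC hq hqM) (mgRingAut (M * q) (mgaRestrictEquiv (mgcE A K₁) φ hφ)) q hq.ne_zero
    (stb_frobVal_all_Jinv hπ ιC hq hqM hA (le_sup_left : beta0Field A ≤ mgcE A K₁) h2 h3 hφF hφ)
    (stbswG ιC hq hqM φ hφ) (stbswG_apply ιC hq hqM φ hφ) (stbsw_mf_hwR ιC hq hqM)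
    (stbmf_hΨR (N := M * q) hφF hφ hπ) 𝔫 hc₁ hc₂ x

/-- **`hgJ`** : `g = φ̂ ∘ w_q` preserves the chart `j`. -/
theorem stbsw_mf_hgJ {φ : Qb ≃ₐ[ℚ] Qb} (hφD : φ ∈ A.decompositionSubgroup ℚ)
    (hφ : ∀ x ∈ mgcE A K₁, φ x ∈ mgcE A K₁) (b : ↥(mgcF A K₁ (M * q)))
    (hb : IsIntegral ↥(Algebra.adjoin ↥(mgcA A K₁) {mgcT A K₁ (M * q)}) b) :
    IsIntegral ↥(Algebra.adjoin ↥(mgcA A K₁) {mgcT A K₁ (M * q)})
      (stbswG ιC hq hqM φ hφ b) := by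
  rw [stbswG_smul]
  refine stb_mt_isIntegral_smul (mgcGal (M * q) φ hφ) (mgc_smul_T (M * q) φ hφ)
    (mgvf_hgA_gal (M * q) hφD hφ) ?_
  exact nodesSwap_chartJ (A := ↥(mgcA A K₁)) (E := ↥(mgcE A K₁)) (M := M) (q := q) ιC hq hqM hb

/-- `L = 1 + j⁻¹ · ℓ′`, `ℓ′` integral over `A[j⁻¹]` -/
theorem stbsw_mf_L_eq :
    ∃ e' : ↥(mgcF A K₁ (M * q)),
      IsIntegral ↥(Algebra.adjoin ↥(mgcA A K₁) {(mgcT A K₁ (M * q))⁻¹}) e' ∧
      nodesSwapL ↥(mgcE A K₁) M q hq = 1 + (mgcT A K₁ (M * q))⁻¹ * e' := by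
  refine ⟨(Polynomial.divX (cuspEll (nodesSwapPhi q hq))).eval₂
      (Int.castRingHom ↥(mgcF A K₁ (M * q))) (mgcT A K₁ (M * q))⁻¹,
    nodesSwap_eval₂_int_isIntegral (A := ↥(mgcA A K₁)) _ _, ?_⟩
  have h0 : (cuspEll (nodesSwapPhi q hq)).coeff 0 = 1 :=
    cuspEll_coeff_zero (nodesSwapPhi_monic q hq)
  have h1 := Polynomial.divX_mul_X_add (cuspEll (nodesSwapPhi q hq))
  rw [h0] at h1
  show (cuspEll (nodesSwapPhi q hq)).eval₂ (Int.castRingHom ↥(mgcF A K₁ (M * q)))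
      (mgcT A K₁ (M * q))⁻¹ = _
  conv_lhs => rw [← h1]
  rw [Polynomial.eval₂_add, Polynomial.eval₂_mul, Polynomial.eval₂_X, Polynomial.eval₂_C,
    map_one]
  ring

/-- `L ^ N = 1 + j⁻¹ · e′`, `e′` integral over `A[j⁻¹]` -/
theorem stbsw_mf_L_pow_eq (N : ℕ) :
    ∃ e' : ↥(mgcF A K₁ (M * q)),
      IsIntegral ↥(Algebra.adjoin ↥(mgcA A K₁) {(mgcT A K₁ (M * q))⁻¹}) e' ∧
      nodesSwapL ↥(mgcE A K₁) M q hq ^ N = 1 + (mgcT A K₁ (M * q))⁻¹ * e' := by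
  obtain ⟨l, hl, hL⟩ := stbsw_mf_L_eq (A := A) (K₁ := K₁) (M := M) hq
  have htinv : IsIntegral ↥(Algebra.adjoin ↥(mgcA A K₁) {(mgcT A K₁ (M * q))⁻¹})
      (mgcT A K₁ (M * q))⁻¹ :=
    isIntegral_algebraMap (R := ↥(Algebra.adjoin ↥(mgcA A K₁) {(mgcT A K₁ (M * q))⁻¹}))
      (x := ⟨(mgcT A K₁ (M * q))⁻¹, Algebra.subset_adjoin (Set.mem_singleton _)⟩)
  induction N with
  | zero => exact ⟨0, isIntegral_zero, by rw [pow_zero, mul_zero, add_zero]⟩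
  | succ n ih =>
    obtain ⟨e', he', hn⟩ := ih
    refine ⟨e' + l + (mgcT A K₁ (M * q))⁻¹ * (e' * l),
      (he'.add hl).add (htinv.mul (he'.mul hl)), ?_⟩
    rw [pow_succ, hn, hL]
    ring

/-- **`hgL`** : on the chart `1 / j`, `g b` becomes integral after multiplication by a unit
`e ≡ 1 mod j⁻¹`. -/
theorem stbsw_mf_hgL {φ : Qb ≃ₐ[ℚ] Qb} (hφD : φ ∈ A.decompositionSubgroup ℚ)
    (hφ : ∀ x ∈ mgcE A K₁, φ x ∈ mgcE A K₁) (b : ↥(mgcF A K₁ (M * q)))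
    (hb : IsIntegral ↥(Algebra.adjoin ↥(mgcA A K₁) {(mgcT A K₁ (M * q))⁻¹}) b) :
    ∃ e e' : ↥(mgcF A K₁ (M * q)),
      IsIntegral ↥(Algebra.adjoin ↥(mgcA A K₁) {(mgcT A K₁ (M * q))⁻¹}) e ∧
      IsIntegral ↥(Algebra.adjoin ↥(mgcA A K₁) {(mgcT A K₁ (M * q))⁻¹}) e' ∧
      e = 1 + (mgcT A K₁ (M * q))⁻¹ * e' ∧
      IsIntegral ↥(Algebra.adjoin ↥(mgcA A K₁) {(mgcT A K₁ (M * q))⁻¹})
        (e * stbswG ιC hq hqM φ hφ b) := by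
  -- `g b = w (φ̂ b)`
  have hΨb : IsIntegral ↥(Algebra.adjoin ↥(mgcA A K₁) {(mgcT A K₁ (M * q))⁻¹})
      (mgcGal (M * q) φ hφ • b) :=
    stb_mt_isIntegral_smul (mgcGal (M * q) φ hφ) (at_smul_inv (mgc_smul_T (M * q) φ hφ))
      (mgvf_hgA_gal (M * q) hφD hφ) hb
  obtain ⟨N, hN⟩ := nodesSwap_chartInv (A := ↥(mgcA A K₁)) (E := ↥(mgcE A K₁)) (M := M)
    (q := q) ιC hq hqM hΨb
  obtain ⟨e', he', hLN⟩ := stbsw_mf_L_pow_eq (A := A) (K₁ := K₁) (M := M) hq N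
  refine ⟨nodesSwapL ↥(mgcE A K₁) M q hq ^ N, e',
    (nodesSwap_L_isIntegral (A := ↥(mgcA A K₁)) (E := ↥(mgcE A K₁)) (M := M) (q := q) hq).pow N,
    he', hLN, ?_⟩
  have e : stbswG ιC hq hqM φ hφ b =
      atkinLehner ↥(mgcE A K₁) ιC hq hqM (mgcGal (M * q) φ hφ • b) := by
    rw [stbswG_apply]
    exact stbAtk_mgRingAut ιC hq hqM (mgaRestrictEquiv (mgcE A K₁) φ hφ) b
  rw [e]
  exact hN

/-- **Swap geometry at the one-component points, concrete form.**  If only the component `c`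
passes through the closed point `i` (of the chart `j` or `1 / j`), there is a closed point `i₁`
through which only the component `!c` passes, with `g (atO i₁) ⊆ atO i`, `g = φ̂ ∘ w_q`
(the point `i₁` and the first field of `StbSwapSmooth` in `stbsw_main_points`). -/
theorem stbsw_mf_geom (hA : A.LiesOverPrime q) (h2 : q = 2 → 3 ∣ M) (h3 : q = 3 → 2 ∣ M)
    {φ : Qb ≃ₐ[ℚ] Qb} (hφF : A.IsFrobeniusAt φ q) (hφ : ∀ x ∈ mgcE A K₁, φ x ∈ mgcE A K₁)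
    (i : AtPt (F := ↥(mgcF A K₁ (M * q))) π (mgcT A K₁ (M * q)) ⊕
      AtPt (F := ↥(mgcF A K₁ (M * q))) π (mgcT A K₁ (M * q))⁻¹) (c : Bool)
    (hc : atInc π (mgcT A K₁ (M * q)) (mgvV hπ ιC hq hqM) i c)
    (honly : ∀ c', atInc π (mgcT A K₁ (M * q)) (mgvV hπ ιC hq hqM) i c' → c' = c) :
    ∃ i₁ : AtPt (F := ↥(mgcF A K₁ (M * q))) π (mgcT A K₁ (M * q)) ⊕
        AtPt (F := ↥(mgcF A K₁ (M * q))) π (mgcT A K₁ (M * q))⁻¹,
      atInc π (mgcT A K₁ (M * q)) (mgvV hπ ιC hq hqM) i₁ (!c) ∧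
      (∀ c', atInc π (mgcT A K₁ (M * q)) (mgvV hπ ιC hq hqM) i₁ c' → c' = !c) ∧
      ∀ x ∈ atO π (mgcT A K₁ (M * q)) i₁,
        stbswG ιC hq hqM φ hφ x ∈ atO π (mgcT A K₁ (M * q)) i := by
  haveI : IsAlgClosed (IsLocalRing.ResidueField ↥(mgcA A K₁)) :=
    stb_isAlgClosed_residue hq hA (le_sup_left : beta0Field A ≤ mgcE A K₁)
  have hφD : φ ∈ A.decompositionSubgroup ℚ := hφF.mem_decompositionSubgroup
  exact stbsw_smooth_geom_only hπ (mgvV hπ ιC hq hqM) true false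
    (fun c => by cases c <;> simp) (mgv_hBV₁ hπ ιC hq hqM) (mgv_hBV₂ hπ ιC hq hqM)
    (stbAtk ιC hq hqM) (mgRingAut (M * q) (mgaRestrictEquiv (mgcE A K₁) φ hφ)) q hq.ne_zero
    (stb_frobVal_all_J hπ ιC hq hqM hA (le_sup_left : beta0Field A ≤ mgcE A K₁) h2 h3 hφF hφ)
    (stb_frobVal_all_Jinv hπ ιC hq hqM hA (le_sup_left : beta0Field A ≤ mgcE A K₁) h2 h3 hφF hφ)
    (stbswG ιC hq hqM φ hφ) (stbswG_apply ιC hq hqM φ hφ)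
    (stbsw_mf_hgA ιC hq hqM hπ hφF hφ) (fun c => !c)
    (stbsw_mf_hgV hπ ιC hq hqM hφD hφ) (stbsw_mf_hgJ ιC hq hqM hφD hφ)
    (stbsw_mf_hgL ιC hq hqM hφD hφ) i c hc honly

end Concrete

section Main

variable {A : ValuationSubring Qb} {K₁ : IntermediateField ℚ Qb} {N : ℕ} [NeZero N]
  [IsDiscreteValuationRing ↥(mgcA A K₁)]

/-- **`stbsw_main_points` in the concrete setting** (twin of `stbc_main`). -/
theorem stbsw_c_main {q : ℕ} (hq : q.Prime) (hA : A.LiesOverPrime q)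
    {π : ↥(mgcA A K₁)} (hπ : Irreducible π)
    {p : ℕ} (hp : p.Prime) (hpq : p ≠ q)
    {κ : Type*} [Finite κ] (V : κ → ValuationSubring ↥(mgcF A K₁ N)) (c₁ c₂ : κ)
    (hκ : ∀ c, c = c₁ ∨ c = c₂) (hne : V c₁ ≠ V c₂)
    (hBV₁ : ∀ c (b : ↥(mgcF A K₁ N)),
      IsIntegral ↥(Algebra.adjoin ↥(mgcA A K₁) {mgcT A K₁ N}) b → b ∈ V c)
    (hBV₂ : ∀ c (b : ↥(mgcF A K₁ N)),
      IsIntegral ↥(Algebra.adjoin ↥(mgcA A K₁) {(mgcT A K₁ N)⁻¹}) b → b ∈ V c)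
    (hπV : ∀ c, algebraMap ↥(mgcA A K₁) ↥(mgcF A K₁ N) π ∈ (V c).nonunits)
    (hSS1 : ∀ b : ↥(mgcF A K₁ N),
      IsIntegral ↥(Algebra.adjoin ↥(mgcA A K₁) {mgcT A K₁ N}) b →
      (∀ c, b ∈ (V c).nonunits) →
      ∃ b' : ↥(mgcF A K₁ N), IsIntegral ↥(Algebra.adjoin ↥(mgcA A K₁) {mgcT A K₁ N}) b' ∧
        b = algebraMap ↥(mgcA A K₁) ↥(mgcF A K₁ N) π * b')
    (harch : ∀ c (a x : ↥(mgcF A K₁ N)), a ∈ (V c).nonunits →
      ∃ n : ℕ, a ^ n * x ∈ (V c).nonunits)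
    (g : ↥(mgcF A K₁ N) →+* ↥(mgcF A K₁ N)) (s : κ → κ) (hs₁ : s c₁ = c₂) (hs₂ : s c₂ = c₁)
    (hgV : ∀ c, ∀ x ∈ (V (s c)).nonunits, g x ∈ (V c).nonunits) (Q r : ℕ)
    {y : ↥(mgcF A K₁ N)} (tt : κ → ↥(mgcF A K₁ N))
    (htoric : ∀ c, y / tt c ^ (p ^ r) - 1 ∈ (V c).nonunits)
    (hpts : ∀ i : AtPt (F := ↥(mgcF A K₁ N)) π (mgcT A K₁ N) ⊕
        AtPt (F := ↥(mgcF A K₁ N)) π (mgcT A K₁ N)⁻¹,
      (atInc π (mgcT A K₁ N) V i c₁ ∧ atInc π (mgcT A K₁ N) V i c₂ ∧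
        StbCross (atO π (mgcT A K₁ N) i) (V c₁) (V c₂) g Q (p ^ r) y) ∨
      (∃ c, atInc π (mgcT A K₁ N) V i c ∧ (∀ c', atInc π (mgcT A K₁ N) V i c' → c' = c) ∧
        ∃ i₁ : AtPt (F := ↥(mgcF A K₁ N)) π (mgcT A K₁ N) ⊕
            AtPt (F := ↥(mgcF A K₁ N)) π (mgcT A K₁ N)⁻¹,
          atInc π (mgcT A K₁ N) V i₁ (s c) ∧
          StbSwapSmooth (atO π (mgcT A K₁ N) i) (atO π (mgcT A K₁ N) i₁) (V c) (V (s c)) g
            (p ^ r) y)) :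
    ∃ h : ↥(mgcF A K₁ N), h ^ (p ^ r) = g y * y ^ Q := by
  haveI := mgc_finiteDimensional A K₁ N
  have hM : ((p : ℕ) : Qb) ∉ A.nonunits := by
    have := Fermat.Agent.S31.natCast_pow_not_mem_nonunits A hp hq (Ne.symm hpq) hA 1
    rwa [pow_one] at this
  have hE : beta0Field A ≤ mgcE A K₁ := le_sup_left
  obtain ⟨ζ, hζ⟩ := beta0Ring_exists_primitiveRoot (A := A) (K₀ := mgcE A K₁) hE hp.ne_zero hM
  have hpu : IsUnit ((p : ℕ) : ↥(mgcA A K₁)) := beta0Ring_hpu hM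
  have hunit := beta0Ring_hunit (A := A) (K₀ := mgcE A K₁) hq hA hE hp.ne_zero hM
  exact stbsw_main_points hπ (mgc_transcendental A K₁ N) (mgc_hcl A K₁ N) hp hpu hζ hunit V c₁ c₂
    hκ hne hBV₁ hBV₂ hπV hSS1 harch g s hs₁ hs₂ hgV Q r tt htoric hpts

end Main

end Fermat.Agent.STB

end
end ZBSTB_009_2

/-! ### bundled: `Fermat.Agent.STB.MGData` -/
section ZBSTB_009_3

/-!
# STB-MG-asm (S35 phase 2): the assembly of `StbData` (helper76)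

Setting of `UNIP/MGConcrete.lean` + `UNIP/MGVertInertia.lean` at the level `M₁ * q`:
`E′ = mgcE A K₁`, `A′ = mgcA A K₁` (a discrete valuation ring, uniformizer `π`),
`F′ = mgcF A K₁ (M₁ * q)`, `j = mgcT …`, `V = mgvV hπ ιC hq hqM` (`true ↦ V_∞`, `false ↦ V_0`),
`φ` a Frobenius element at `A`, `g = stbdG (M₁ * q) φ hφ = mgcGal … φ hφ * mgcGal … φ hφ`.

* `StbdInputs hπ ιC hq hqM` : the inputs which are NOT formal — one field per owner: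
  `hSS1` ((SS1) on the chart `j`; `UNIP.mgd_hSS1` from U5 at the base), `hnode₁`, `hnode₂`
  (the dichotomy of U5 at the closed points of the two charts; U5-concrete + MG-4: helper3,
  helper18).
* `stbData_of_inputs` : `StbdInputs … → StbData A K₁ hq hqM φ hφ`; everything else is discharged
  here: `hne` (`mgvl_hne`, helper3), `hBV₁`, `hBV₂`, `hπV`, `harch`, `hVloc₁`, `hVloc₂`
  (`mgv_*`, helper91), `hΦV`,
  `hgV`, `hgA`, `hgA'`, `g q = q` (`mgvf_*`, helper60), the toric transfer (`stb_mgt_htor₁_mgc`,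
  `stb_mgt_htor₂_mgc`, helper28), the Frobenius hypotheses at the crossing points
  (`stbmf_hfrob_J`, `stbmf_hfrob_Jinv`, helper95 + helper45), `hfin`, `hm`, `hrat` (`mg_hfin`,
  `mg_dvd_ord`, `MgcRat`), and the per-point hypothesis `hpts` by `stb_mt_hpts` (STB-C4,
  helper95).
-/

set_option autoImplicit false
set_option linter.style.haveILetI false
set_option linter.unusedSectionVars false
set_option linter.unusedVariables false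

noncomputable section

namespace Fermat.Agent.STB

open ModularCurve AlgebraicCurve Fermat.Agent.ES Fermat.Agent.ES.G2 Fermat.Agent.INJ
open Fermat.Agent.UNIP IntermediateField

section G

variable {A : ValuationSubring Qb} {K₁ : IntermediateField ℚ Qb} (N : ℕ)

/-- `g = φ̂²` as a semilinear automorphism of `F′` -/
def stbdG (φ : Qb ≃ₐ[ℚ] Qb) (hφ : ∀ x ∈ mgcE A K₁, φ x ∈ mgcE A K₁) :
    SemilinearAut ↥(mgcE A K₁) ↥(mgcF A K₁ N) :=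
  mgcGal N φ hφ * mgcGal N φ hφ

theorem stbdG_eq_pow (φ : Qb ≃ₐ[ℚ] Qb) (hφ : ∀ x ∈ mgcE A K₁, φ x ∈ mgcE A K₁) :
    stbdG N φ hφ = mgcGal N φ hφ ^ 2 :=
  (pow_two _).symm

theorem stbdG_smul (φ : Qb ≃ₐ[ℚ] Qb) (hφ : ∀ x ∈ mgcE A K₁, φ x ∈ mgcE A K₁)
    (x : ↥(mgcF A K₁ N)) :
    stbdG N φ hφ • x = mgcGal N φ hφ • mgcGal N φ hφ • x :=
  rfl

variable [NeZero N] [IsDiscreteValuationRing ↥(mgcA A K₁)]

/-- `Φ = stbcPhi` is the action of `g = stbdG` -/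
theorem stbcPhi_eq_smul (φ : Qb ≃ₐ[ℚ] Qb) (hφ : ∀ x ∈ mgcE A K₁, φ x ∈ mgcE A K₁)
    (x : ↥(mgcF A K₁ N)) :
    stbcPhi N φ hφ x = stbdG N φ hφ • x :=
  rfl

end G

section Inputs

variable {A : ValuationSubring Qb} {K₁ : IntermediateField ℚ Qb} {M₁ q : ℕ} [NeZero M₁] [NeZero q]
  [IsDiscreteValuationRing ↥(mgcA A K₁)] {π : ↥(mgcA A K₁)} (hπ : Irreducible π)
  (ιC : ↥(mgcE A K₁) →+* ℂ) (hq : q.Prime) (hqM : ¬ q ∣ M₁)

/-- **The non-formal inputs of `StbData`** at `(A, K₁, π)`, level `M₁ * q`, for the vertical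
valuation rings `V = mgvV hπ ιC hq hqM`. -/
structure StbdInputs : Prop where
  /-- (SS1) on the chart `j` -/
  hSS1 : ∀ b : ↥(mgcF A K₁ (M₁ * q)),
    IsIntegral ↥(Algebra.adjoin ↥(mgcA A K₁) {mgcT A K₁ (M₁ * q)}) b →
    (∀ c, b ∈ (mgvV hπ ιC hq hqM c).nonunits) →
    ∃ b' : ↥(mgcF A K₁ (M₁ * q)),
      IsIntegral ↥(Algebra.adjoin ↥(mgcA A K₁) {mgcT A K₁ (M₁ * q)}) b' ∧
      b = algebraMap ↥(mgcA A K₁) ↥(mgcF A K₁ (M₁ * q)) π * b'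
  /-- the dichotomy of U5 at the closed points of the chart `j` -/
  hnode₁ : ∃ (R₁ : Type) (_ : CommRing R₁)
    (j₁ : R₁ →+* ↥(zchClosure (A₀ := ↥(mgcA A K₁))
      ({mgcT A K₁ (M₁ * q)} : Set ↥(mgcF A K₁ (M₁ * q))))) (p₁ : R₁),
    MgcRamified j₁ (algebraMap ↥(mgcA A K₁) ↥(zchClosure (A₀ := ↥(mgcA A K₁))
      ({mgcT A K₁ (M₁ * q)} : Set ↥(mgcF A K₁ (M₁ * q)))) π) p₁ ∧
    j₁ p₁ = algebraMap ↥(mgcA A K₁) ↥(zchClosure (A₀ := ↥(mgcA A K₁))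
      ({mgcT A K₁ (M₁ * q)} : Set ↥(mgcF A K₁ (M₁ * q)))) ((q : ℕ) : ↥(mgcA A K₁)) ∧
    ∀ 𝔫 : AtPt (F := ↥(mgcF A K₁ (M₁ * q))) π (mgcT A K₁ (M₁ * q)),
      StbNodeAt (mgvV hπ ιC hq hqM true) (mgvV hπ ιC hq hqM false) 𝔫 j₁ p₁
  /-- the dichotomy of U5 at the closed points of the chart `1 / j` -/
  hnode₂ : ∃ (R₂ : Type) (_ : CommRing R₂)
    (j₂ : R₂ →+* ↥(zchClosure (A₀ := ↥(mgcA A K₁))
      ({(mgcT A K₁ (M₁ * q))⁻¹} : Set ↥(mgcF A K₁ (M₁ * q))))) (p₂ : R₂),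
    MgcRamified j₂ (algebraMap ↥(mgcA A K₁) ↥(zchClosure (A₀ := ↥(mgcA A K₁))
      ({(mgcT A K₁ (M₁ * q))⁻¹} : Set ↥(mgcF A K₁ (M₁ * q)))) π) p₂ ∧
    j₂ p₂ = algebraMap ↥(mgcA A K₁) ↥(zchClosure (A₀ := ↥(mgcA A K₁))
      ({(mgcT A K₁ (M₁ * q))⁻¹} : Set ↥(mgcF A K₁ (M₁ * q)))) ((q : ℕ) : ↥(mgcA A K₁)) ∧
    ∀ 𝔫 : AtPt (F := ↥(mgcF A K₁ (M₁ * q))) π (mgcT A K₁ (M₁ * q))⁻¹,
      StbNodeAt (mgvV hπ ιC hq hqM true) (mgvV hπ ιC hq hqM false) 𝔫 j₂ p₂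

variable {hπ ιC hq hqM} {φ : Qb ≃ₐ[ℚ] Qb} {hφ : ∀ x ∈ mgcE A K₁, φ x ∈ mgcE A K₁}

/-- `π ∣ q` in `A′` -/
theorem stbd_dvd_natCast (hπ : Irreducible π) (hA : A.LiesOverPrime q) :
    π ∣ ((q : ℕ) : ↥(mgcA A K₁)) := by
  have h1 : ((q : ℕ) : ↥(mgcA A K₁)) ∈ IsLocalRing.maximalIdeal ↥(mgcA A K₁) := by
    rw [beta0Ring_mem_maximalIdeal_iff]
    have e : ((((q : ℕ) : ↥(mgcA A K₁)) : ↥(mgcE A K₁)) : Qb) = ((q : ℕ) : Qb) := by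
      push_cast
      rfl
    rw [e]
    exact hA
  rw [hπ.maximalIdeal_eq] at h1
  exact Ideal.mem_span_singleton.mp h1

/-- `q ≠ 0` in `A′` -/
theorem stbd_natCast_ne_zero (hq : q.Prime) : ((q : ℕ) : ↥(mgcA A K₁)) ≠ 0 := by
  intro h
  have e : ((((q : ℕ) : ↥(mgcA A K₁)) : ↥(mgcE A K₁)) : Qb) = ((q : ℕ) : Qb) := by
    push_cast
    rfl
  rw [h] at e
  have h0 : ((q : ℕ) : Qb) = 0 := by
    rw [← e]
    rfl
  exact hq.ne_zero (Nat.cast_eq_zero.mp h0)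

set_option maxHeartbeats 1600000 in
/-- **STB-MG-asm.**  The special-fibre data `StbData` from the non-formal inputs. -/
theorem stbData_of_inputs (hA : A.LiesOverPrime q) (h2 : q = 2 → 3 ∣ M₁) (h3 : q = 3 → 2 ∣ M₁)
    (hφF : A.IsFrobeniusAt φ q) (h : StbdInputs hπ ιC hq hqM) :
    StbData A K₁ hq hqM φ hφ := by
  have hφD : φ ∈ A.decompositionSubgroup ℚ := hφF.mem_decompositionSubgroup
  haveI := mgc_finiteDimensional A K₁ (M₁ * q)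
  have ht := mgc_transcendental A K₁ (M₁ * q)
  have ht' : Transcendental ↥(mgcE A K₁) (mgcT A K₁ (M₁ * q))⁻¹ := zch_transcendental_inv ht
  haveI : FiniteDimensional (↥(mgcE A K₁))⟮(mgcT A K₁ (M₁ * q))⁻¹⟯ ↥(mgcF A K₁ (M₁ * q)) :=
    at_finiteDimensional_inv (mgcT A K₁ (M₁ * q))
  haveI : IsNoetherianRing ↥(zchClosure (A₀ := ↥(mgcA A K₁))
      ({mgcT A K₁ (M₁ * q)} : Set ↥(mgcF A K₁ (M₁ * q)))) :=
    chart_closure_isNoetherianRing (A₀ := ↥(mgcA A K₁)) (E := ↥(mgcE A K₁)) ht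
  haveI : IsNoetherianRing ↥(zchClosure (A₀ := ↥(mgcA A K₁))
      ({(mgcT A K₁ (M₁ * q))⁻¹} : Set ↥(mgcF A K₁ (M₁ * q)))) :=
    chart_closure_isNoetherianRing (A₀ := ↥(mgcA A K₁)) (E := ↥(mgcE A K₁)) ht'
  have hne := mgvl_hne hπ ιC hq hqM hA
  refine ⟨π, mgvV hπ ιC hq hqM, hπ, hne, mgv_hBV₁ hπ ιC hq hqM, mgv_hBV₂ hπ ιC hq hqM,
    mgv_hπV hπ ιC hq hqM, h.hSS1, mgv_harch hπ ιC hq hqM,
    mgvf_hΦV_frob_sq hπ ιC hq hqM hφF hφ, stb_mgt_htor₁_mgc hπ ιC hq hqM,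
    stb_mgt_htor₂_mgc hπ ιC hq hqM, ?_⟩
  intro m hqm u₀ hu₀ hdiv hrat tt htoric
  obtain ⟨R₁, _, j₁, p₁, hram₁, hjp₁, hnode₁⟩ := h.hnode₁
  obtain ⟨R₂, _, j₂, p₂, hram₂, hjp₂, hnode₂⟩ := h.hnode₂
  have hgt : stbdG (M₁ * q) φ hφ • mgcT A K₁ (M₁ * q) = mgcT A K₁ (M₁ * q) := by
    rw [stbdG_smul, mgc_smul_T, mgc_smul_T]
  have hgq : stbdG (M₁ * q) φ hφ •
      algebraMap ↥(mgcA A K₁) ↥(mgcF A K₁ (M₁ * q)) ((q : ℕ) : ↥(mgcA A K₁)) =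
      algebraMap ↥(mgcA A K₁) ↥(mgcF A K₁ (M₁ * q)) ((q : ℕ) : ↥(mgcA A K₁)) := by
    rw [map_natCast, stbdG_smul, mgvf_gal_natCast, mgvf_gal_natCast]
  have hrat' : ∀ P : Place ↥(mgcE A K₁) ↥(mgcF A K₁ (M₁ * q)), P.ord u₀ ≠ 0 →
      ∀ f ∈ P.toValuationSubring, ∃ c : ↥(mgcE A K₁),
        f - algebraMap ↥(mgcE A K₁) ↥(mgcF A K₁ (M₁ * q)) c ∈
          P.toValuationSubring.nonunits := by
    intro P hP f hf
    refine hrat P 1 1 (fun a => rfl) ?_ f hf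
    rw [map_one, one_smul]
    exact hP
  have hgV : ∀ c (f : ↥(mgcF A K₁ (M₁ * q))), f ≠ 0 →
      (mgvV hπ ιC hq hqM c).valuation (stbdG (M₁ * q) φ hφ • f / f) = 1 := fun c =>
    mgvf_val_mul _ (mgvf_hgV_gal hπ ιC hq hqM hφD hφ c) (mgvf_hgV_gal hπ ιC hq hqM hφD hφ c)
  have hgA : ∀ α : ↥(mgcA A K₁), ∃ α' : ↥(mgcA A K₁),
      stbdG (M₁ * q) φ hφ • algebraMap ↥(mgcA A K₁) ↥(mgcF A K₁ (M₁ * q)) α =
        algebraMap ↥(mgcA A K₁) ↥(mgcF A K₁ (M₁ * q)) α' :=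
    mgvf_hgA_mul (mgvf_hgA_gal (M₁ * q) hφD hφ) (mgvf_hgA_gal (M₁ * q) hφD hφ)
  have hgA' : ∀ α : ↥(mgcA A K₁), ∃ α' : ↥(mgcA A K₁),
      (stbdG (M₁ * q) φ hφ)⁻¹ • algebraMap ↥(mgcA A K₁) ↥(mgcF A K₁ (M₁ * q)) α =
        algebraMap ↥(mgcA A K₁) ↥(mgcF A K₁ (M₁ * q)) α' := by
    have e : (stbdG (A := A) (K₁ := K₁) (M₁ * q) φ hφ)⁻¹ =
        (mgcGal (M₁ * q) φ hφ)⁻¹ * (mgcGal (M₁ * q) φ hφ)⁻¹ := mul_inv_rev _ _
    rw [e]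
    exact mgvf_hgA_mul (mgvf_hgA_gal_inv (M₁ * q) hφD hφ) (mgvf_hgA_gal_inv (M₁ * q) hφD hφ)
  exact stb_mt_hpts hπ ht (mgvV hπ ιC hq hqM) true false (fun c => by cases c <;> simp) hne
    (mgv_hBV₁ hπ ιC hq hqM) (mgv_hBV₂ hπ ιC hq hqM) (mgv_hπV hπ ιC hq hqM) h.hSS1
    (mgv_harch hπ ιC hq hqM) (mgv_hVloc₁ hπ ιC hq hqM hA h.hSS1)
    (mgv_hVloc₂ hπ ιC hq hqM hA h.hSS1) (stbdG (M₁ * q) φ hφ) hgt
    hgV hgA hgA' ((q : ℕ) : ↥(mgcA A K₁)) (stbd_natCast_ne_zero hq)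
    (stbd_dvd_natCast hπ hA) hgq j₁ p₁ hram₁ hjp₁ j₂ p₂ hram₂ hjp₂ hnode₁ hnode₂ (q ^ 2)
    (stbmf_hfrob_J hπ ιC hq hqM hA h2 h3 hφF hφ (stbdG (M₁ * q) φ hφ) (fun x => rfl))
    (stbmf_hfrob_Jinv hπ ιC hq hqM hA h2 h3 hφF hφ (stbdG (M₁ * q) φ hφ) (fun x => rfl))
    (stbcPhi (M₁ * q) φ hφ) (stbcPhi_eq_smul (M₁ * q) φ hφ) hu₀ m
    (mg_hfin (mgcE A K₁) (M₁ * q) u₀ hu₀) (mg_dvd_ord (mgcE A K₁) (M₁ * q) _ u₀ hdiv) hrat' tt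
    htoric

end Inputs

end Fermat.Agent.STB

end
end ZBSTB_009_3
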