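/- GENERATED FILE (helper35, build-time optimisation, NOTES/ZB.md): verbatim concatenation of the modules
   Fermat.Agent.ES.WilesLattice
   Fermat.Agent.ES.WilesIntegral
   Fermat.Agent.ES.WilesBridge
   Fermat.Agent.S30.OfPseudoChar
   Fermat.Agent.S35.OfPseudoChar
   Do not edit; do not import together with these modules. -/
import Mathlib
import Fermat.Agent.ZB.ES_033
import Fermat.Statements.S30
import Fermat.Agent.ZB.S53_002
import Fermat.Statements.S35

/-! ### bundled: `Fermat.Agent.ES.WilesLattice` -/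
section ZBES_034_0
/-
S30 glue (helper59), part 3: stable lattices.

A representation `ρ : G →* M_k(K)` over the fraction field `K` of a PID `𝒪` with bounded
denominators (`δ • ρ g` integral for all `g`, `δ ≠ 0`) is conjugate to an integral one:
there are `B ∈ M_k(𝒪)` with `det B ≠ 0` and `M : G →* M_k(𝒪)` with `B * M g = ρ g * B`.
(The lattice is `Λ = ∑_g ρ(g) 𝒪ᵏ`, free of rank `k` over the PID `𝒪`.)  Pure Mathlib.
-/

set_option autoImplicit false
set_option linter.unusedSectionVars false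
set_option linter.unusedSimpArgs false

namespace Fermat.Agent.ES.Wiles

open Matrix

section Lattice

variable {𝒪 K G : Type*} [CommRing 𝒪] [IsDomain 𝒪] [IsPrincipalIdealRing 𝒪]
  [Field K] [Algebra 𝒪 K] [IsFractionRing 𝒪 K] [Monoid G] {k : ℕ}

/-- **Stable lattice**: a representation over the fraction field of a PID with bounded
denominators is conjugate, by an integral matrix `B` with `det B ≠ 0`, to an integral
representation. -/
theorem exists_stable_lattice (ρ : G →* Matrix (Fin k) (Fin k) K) (δ : 𝒪) (hδ : δ ≠ 0)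
    (hb : ∀ g i j, ∃ y : 𝒪, algebraMap 𝒪 K y = algebraMap 𝒪 K δ * ρ g i j) :
    ∃ (B : Matrix (Fin k) (Fin k) 𝒪) (M : G →* Matrix (Fin k) (Fin k) 𝒪),
      B.det ≠ 0 ∧ ∀ g, B.map (algebraMap 𝒪 K) * (M g).map (algebraMap 𝒪 K)
        = ρ g * B.map (algebraMap 𝒪 K) := by
  classical
  have hinj : Function.Injective (algebraMap 𝒪 K) := IsFractionRing.injective 𝒪 K
  let ι : (Fin k → 𝒪) →ₗ[𝒪] (Fin k → K) := (Algebra.linearMap 𝒪 K).compLeft (Fin k)
  have hι_apply : ∀ (x : Fin k → 𝒪) (i : Fin k), ι x i = algebraMap 𝒪 K (x i) := fun x i => rfl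
  have hι : Function.Injective ι := by
    intro x y hxy
    funext i
    exact hinj (by rw [← hι_apply, ← hι_apply, hxy])
  choose w hw using hb
  let N : Submodule 𝒪 (Fin k → 𝒪) :=
    Submodule.span 𝒪 (Set.range fun p : G × Fin k => fun i => w p.1 i p.2)
  -- stability of the lattice
  have hstab : ∀ g, ∀ x ∈ N, ∃ x' ∈ N, ι x' = (ρ g).mulVec (ι x) := by
    intro g x hx
    induction hx using Submodule.span_induction with
    | mem x hx =>
      obtain ⟨⟨h, j⟩, rfl⟩ := hx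
      refine ⟨fun i => w (g * h) i j, Submodule.subset_span ⟨(g * h, j), rfl⟩, ?_⟩
      funext i
      rw [hι_apply, hw, map_mul, Matrix.mul_apply, Matrix.mulVec, dotProduct, Finset.mul_sum]
      refine Finset.sum_congr rfl fun l _ => ?_
      rw [hι_apply, hw]; ring
    | zero => exact ⟨0, N.zero_mem, by rw [map_zero, Matrix.mulVec_zero]⟩
    | add x y _ _ hx hy =>
      obtain ⟨x', hx', ex⟩ := hx
      obtain ⟨y', hy', ey⟩ := hy
      exact ⟨x' + y', N.add_mem hx' hy', by rw [map_add, map_add, Matrix.mulVec_add, ex, ey]⟩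
    | smul a x _ hx =>
      obtain ⟨x', hx', ex⟩ := hx
      exact ⟨a • x', N.smul_mem a hx', by rw [map_smul, map_smul, Matrix.mulVec_smul, ex]⟩
  -- a basis of the lattice
  obtain ⟨m, β⟩ := Submodule.basisOfPid (Pi.basisFun 𝒪 (Fin k)) N
  have h1 : LinearIndependent 𝒪 (fun j => (β j : Fin k → 𝒪)) :=
    β.linearIndependent.map' N.subtype N.ker_subtype
  let v : Fin m → (Fin k → K) := fun j => ι (β j)
  have hli𝒪 : LinearIndependent 𝒪 v := h1.map' ι (LinearMap.ker_eq_bot.mpr hι)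
  have hliK : LinearIndependent K v := (LinearIndependent.iff_fractionRing 𝒪 K).mp hli𝒪
  have hNspan : ∀ x ∈ N, ι x ∈ Submodule.span K (Set.range v) := by
    intro x hx
    have e1 : x = ∑ j, (β.repr ⟨x, hx⟩ j) • (β j : Fin k → 𝒪) := by
      have := congrArg N.subtype (β.sum_repr ⟨x, hx⟩)
      rw [map_sum] at this
      simpa using this.symm
    rw [e1, map_sum]
    refine Submodule.sum_mem _ fun j _ => ?_
    rw [map_smul, ← algebraMap_smul K]
    exact Submodule.smul_mem _ _ (Submodule.subset_span ⟨j, rfl⟩)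
  have hsp : ⊤ ≤ Submodule.span K (Set.range v) := by
    intro x _
    have hx : x = ∑ i, x i • (Pi.single i (1 : K) : Fin k → K) := by
      funext l
      simp [Finset.sum_apply, Pi.single_apply]
    rw [hx]
    refine Submodule.sum_mem _ fun i _ => Submodule.smul_mem _ _ ?_
    have hcol : (fun l => w 1 l i) ∈ N := Submodule.subset_span ⟨(1, i), rfl⟩
    have e2 : ι (fun l => w 1 l i) = algebraMap 𝒪 K δ • (Pi.single i (1 : K) : Fin k → K) := by
      funext l
      rw [hι_apply, hw, map_one, Matrix.one_apply, Pi.smul_apply, Pi.single_apply, smul_eq_mul]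
    have hδK : algebraMap 𝒪 K δ ≠ 0 := fun h0 => hδ (hinj (by rw [h0, map_zero]))
    have := Submodule.smul_mem _ (algebraMap 𝒪 K δ)⁻¹ (hNspan _ hcol)
    rwa [e2, smul_smul, inv_mul_cancel₀ hδK, one_smul] at this
  have hm : m = k := by
    have := Module.finrank_eq_card_basis (Module.Basis.mk hliK hsp)
    simpa using this.symm
  subst hm
  -- the matrices
  choose x' hx'N hx' using fun (g : G) (j : Fin m) => hstab g (β j) (β j).2
  let Mf : G → Matrix (Fin m) (Fin m) 𝒪 := fun g => Matrix.of fun i j => β.repr ⟨x' g j, hx'N g j⟩ i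
  let B : Matrix (Fin m) (Fin m) 𝒪 := Matrix.of fun i j => (β j : Fin m → 𝒪) i
  have hBM : ∀ g, B.map (algebraMap 𝒪 K) * (Mf g).map (algebraMap 𝒪 K)
      = ρ g * B.map (algebraMap 𝒪 K) := by
    intro g
    ext i j
    have e1 : x' g j = ∑ l, (β.repr ⟨x' g j, hx'N g j⟩ l) • (β l : Fin m → 𝒪) := by
      have := congrArg N.subtype (β.sum_repr ⟨x' g j, hx'N g j⟩)
      rw [map_sum] at this
      simpa using this.symm
    have e2 := congrFun (hx' g j) i
    rw [hι_apply, Matrix.mulVec, dotProduct] at e2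
    rw [Matrix.mul_apply, Matrix.mul_apply]
    simp only [Matrix.map_apply, B, Mf, Matrix.of_apply]
    rw [show (∑ l, ρ g i l * algebraMap 𝒪 K ((β j : Fin m → 𝒪) l)) = _ from e2.symm]
    conv_rhs => rw [e1]
    rw [Finset.sum_apply, map_sum]
    refine Finset.sum_congr rfl fun l _ => ?_
    rw [Pi.smul_apply, smul_eq_mul, map_mul, mul_comm]
  have hBdet : B.det ≠ 0 := by
    intro h0
    obtain ⟨u, hu, hBu⟩ := Matrix.exists_mulVec_eq_zero_iff.mpr h0
    apply hu
    have := Fintype.linearIndependent_iff.mp h1 u (by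
      funext i
      have := congrFun hBu i
      rw [Matrix.mulVec, dotProduct] at this
      rw [Pi.zero_apply] at this
      rw [Finset.sum_apply, Pi.zero_apply, ← this]
      refine Finset.sum_congr rfl fun l _ => ?_
      simp only [B, Matrix.of_apply, Pi.smul_apply, smul_eq_mul, mul_comm])
    funext i
    exact this i
  have hBu : IsUnit (B.map (algebraMap 𝒪 K)) := by
    rw [Matrix.isUnit_iff_isUnit_det]
    have : (B.map (algebraMap 𝒪 K)).det = algebraMap 𝒪 K B.det := by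
      rw [RingHom.map_det]; rfl
    rw [this, isUnit_iff_ne_zero]
    exact fun h0 => hBdet (hinj (by rw [h0, map_zero]))
  have hmapinj : Function.Injective
      (fun A : Matrix (Fin m) (Fin m) 𝒪 => A.map (algebraMap 𝒪 K)) :=
    Matrix.map_injective hinj
  refine ⟨B, ⟨⟨Mf, ?_⟩, ?_⟩, hBdet, hBM⟩
  · apply hmapinj
    apply hBu.mul_left_cancel
    show B.map (algebraMap 𝒪 K) * (Mf 1).map (algebraMap 𝒪 K)
      = B.map (algebraMap 𝒪 K) * (1 : Matrix (Fin m) (Fin m) 𝒪).map (algebraMap 𝒪 K)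
    rw [hBM, map_one, one_mul, Matrix.map_one _ (map_zero _) (map_one _), mul_one]
  · intro g h
    apply hmapinj
    apply hBu.mul_left_cancel
    show B.map (algebraMap 𝒪 K) * (Mf (g * h)).map (algebraMap 𝒪 K)
      = B.map (algebraMap 𝒪 K) * (Mf g * Mf h).map (algebraMap 𝒪 K)
    rw [hBM, Matrix.map_mul, ← mul_assoc, hBM, map_mul, mul_assoc, mul_assoc, hBM]

end Lattice

end Fermat.Agent.ES.Wiles


end ZBES_034_0

/-! ### bundled: `Fermat.Agent.ES.WilesIntegral` -/
section ZBES_034_1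
/-
S30 glue (helper59), part 4: Wiles' lemma, integral form (`exists_integral_rep`).
-/

set_option autoImplicit false
set_option linter.unusedSectionVars false
set_option linter.unusedSimpArgs false

namespace Fermat.Agent.ES.Wiles

open Matrix

section Integral

variable {𝒪 K G E : Type*} [CommRing 𝒪] [IsDomain 𝒪] [IsPrincipalIdealRing 𝒪]
  [Field K] [CharZero K] [Algebra 𝒪 K] [IsFractionRing 𝒪 K] [Group G]
  [Ring E] [Algebra K E] [Nontrivial E]

/-- **Wiles' lemma, integral form.**  Let `𝒪` be a PID with fraction field `K` of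
characteristic `0`, `G` a group acting on a nonzero `K`-algebra `E` (e.g. `End_K W`, `W ≠ 0`)
such that `σ + ε(σ) σ⁻¹ = t(σ)` for all `σ`, with `t`, `ε` integral, and `c ∈ G` with `c² = 1`,
`ε(c) = -1`.  Then there is a representation `M : G → M₂(𝒪)` with `tr M = t`, `det M = ε`,
which is as continuous as `t`: there is `δ ≠ 0` such that, whenever `t(σ g) ≡ t(g)` modulo
an ideal `I` for all `g`, we have `δ (M σ - 1) ≡ 0` modulo `I`. -/
theorem exists_integral_rep (r : G →* E) (ε₀ : G →* 𝒪) (t₀ : G → 𝒪) (c : G)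
    (h : CHDatum r ((algebraMap 𝒪 K : 𝒪 →* K).comp ε₀) (fun g => algebraMap 𝒪 K (t₀ g)) c) :
    ∃ (M : G →* Matrix (Fin 2) (Fin 2) 𝒪) (δ : 𝒪), δ ≠ 0 ∧
      (∀ g, (M g).trace = t₀ g) ∧ (∀ g, (M g).det = ε₀ g) ∧
      ∀ (σ : G) (I : Ideal 𝒪), (∀ g, t₀ (σ * g) - t₀ g ∈ I) →
        ∀ i j, δ * (M σ - 1) i j ∈ I := by
  classical
  have hinj : Function.Injective (algebraMap 𝒪 K) := IsFractionRing.injective 𝒪 K
  obtain ⟨ρ, σ₀, τ₀, hρ, htr, hdet⟩ := h.exists_rep
  -- facts about `t₀`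
  have ht1 : t₀ 1 = 2 := hinj (by rw [map_ofNat]; exact h.t_one)
  have htc : t₀ c = 0 := hinj (by rw [map_zero]; exact h.t_c)
  have htcomm : ∀ x y, t₀ (x * y) = t₀ (y * x) := fun x y => hinj (h.t_comm x y)
  -- integral numerators
  set A₂ : G → 𝒪 := fun x => t₀ x + t₀ (x * c) with hA₂
  set D₂ : G → 𝒪 := fun x => t₀ x - t₀ (x * c) with hD₂
  set X₄ : G → G → 𝒪 := fun x y => 2 * A₂ (x * y) - A₂ x * A₂ y with hX₄
  have hA : ∀ x, chA (fun g => algebraMap 𝒪 K (t₀ g)) c x = algebraMap 𝒪 K (A₂ x) / 2 := by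
    intro x; rw [chA, hA₂]; simp only [map_add]
  have hD : ∀ x, chD (fun g => algebraMap 𝒪 K (t₀ g)) c x = algebraMap 𝒪 K (D₂ x) / 2 := by
    intro x; rw [chD, hD₂]; simp only [map_sub]
  have hX : ∀ x y, chXi (fun g => algebraMap 𝒪 K (t₀ g)) c x y
      = algebraMap 𝒪 K (X₄ x y) / 4 := by
    intro x y
    rw [chXi, hA, hA, hA, hX₄]
    simp only [map_sub, map_mul, map_ofNat]
    ring
  have hA₂1 : A₂ 1 = 2 := by simp only [hA₂, one_mul, ht1, htc, add_zero]
  -- the denominator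
  set n : 𝒪 := if X₄ σ₀ τ₀ = 0 then 1 else X₄ σ₀ τ₀ with hn
  have hn0 : n ≠ 0 := by
    rw [hn]; split_ifs with h0
    · exact one_ne_zero
    · exact h0
  have h4 : (4 : 𝒪) ≠ 0 := by
    intro h0
    have := congrArg (algebraMap 𝒪 K) h0
    rw [map_ofNat, map_zero] at this
    exact (by norm_num : (4 : K) ≠ 0) this
  set δ₂ : 𝒪 := 4 * n with hδ₂def
  have hδ₂ : δ₂ ≠ 0 := mul_ne_zero h4 hn0
  set b₀ : G → 𝒪 := fun x => if X₄ σ₀ τ₀ = 0 then 0 else 4 * X₄ x τ₀ with hb₀
  set Z : G → Matrix (Fin 2) (Fin 2) 𝒪 :=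
    fun g => !![2 * n * A₂ g, b₀ g; n * X₄ σ₀ g, 2 * n * D₂ g] with hZdef
  have hZ : ∀ g, (Z g).map (algebraMap 𝒪 K) = algebraMap 𝒪 K δ₂ • ρ g := by
    intro g
    rw [hρ, hA, hD, hX, hX, hX]
    ext i j
    fin_cases i <;> fin_cases j
    · simp only [hZdef, hδ₂def, Matrix.map_apply, Matrix.smul_apply, smul_eq_mul, map_mul,
        map_ofNat, Fin.zero_eta, Fin.isValue, Matrix.of_apply, Matrix.cons_val', Matrix.cons_val_zero,
        Matrix.cons_val_fin_one]
      ring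
    · simp only [hZdef, hδ₂def, hb₀, hn, Matrix.map_apply, Matrix.smul_apply, smul_eq_mul, map_mul,
        map_ofNat, Fin.zero_eta, Fin.mk_one, Fin.isValue, Matrix.of_apply, Matrix.cons_val',
        Matrix.cons_val_zero, Matrix.cons_val_one, Matrix.cons_val_fin_one]
      split_ifs with h0
      · rw [h0]; simp
      · have h0' : algebraMap 𝒪 K (X₄ σ₀ τ₀) ≠ 0 := fun hh => h0 (hinj (by rw [hh, map_zero]))
        rw [map_mul, map_ofNat]
        field_simp
    · simp only [hZdef, hδ₂def, Matrix.map_apply, Matrix.smul_apply, smul_eq_mul, map_mul,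
        map_ofNat, Fin.zero_eta, Fin.mk_one, Fin.isValue, Matrix.of_apply, Matrix.cons_val',
        Matrix.cons_val_zero, Matrix.cons_val_one, Matrix.cons_val_fin_one]
      ring
    · simp only [hZdef, hδ₂def, Matrix.map_apply, Matrix.smul_apply, smul_eq_mul, map_mul,
        map_ofNat, Fin.mk_one, Fin.isValue, Matrix.of_apply, Matrix.cons_val',
        Matrix.cons_val_one, Matrix.cons_val_fin_one]
      ring
  -- the stable lattice
  obtain ⟨B, M, hBdet, hBM⟩ := exists_stable_lattice ρ δ₂ hδ₂ (fun g i j =>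
    ⟨Z g i j, by
      have := congrFun (congrFun (hZ g) i) j
      rwa [Matrix.map_apply, Matrix.smul_apply, smul_eq_mul] at this⟩)
  have hdetB' : (B.map (algebraMap 𝒪 K)).det = algebraMap 𝒪 K B.det := by
    rw [RingHom.map_det]; rfl
  have hdetB'0 : (B.map (algebraMap 𝒪 K)).det ≠ 0 := by
    rw [hdetB']
    exact fun h0 => hBdet (hinj (by rw [h0, map_zero]))
  refine ⟨M, δ₂ * B.det, mul_ne_zero hδ₂ hBdet, fun g => ?_, fun g => ?_, fun σ I hσ => ?_⟩
  · -- trace
    apply hinj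
    have e1 : algebraMap 𝒪 K (M g).trace = ((M g).map (algebraMap 𝒪 K)).trace := by
      rw [Matrix.trace_fin_two, Matrix.trace_fin_two, map_add]; rfl
    have e2 : (B.map (algebraMap 𝒪 K) * (M g).map (algebraMap 𝒪 K)
        * Matrix.adjugate (B.map (algebraMap 𝒪 K))).trace
        = (ρ g * B.map (algebraMap 𝒪 K) * Matrix.adjugate (B.map (algebraMap 𝒪 K))).trace := by
      rw [hBM]
    rw [Matrix.trace_mul_cycle, Matrix.adjugate_mul, mul_assoc, Matrix.mul_adjugate,
      Matrix.smul_mul, one_mul, Matrix.mul_smul, mul_one, Matrix.trace_smul, Matrix.trace_smul,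
      smul_eq_mul, smul_eq_mul] at e2
    rw [e1, mul_left_cancel₀ hdetB'0 e2, htr]
  · -- determinant
    apply hinj
    have e1 : algebraMap 𝒪 K (M g).det = ((M g).map (algebraMap 𝒪 K)).det := by
      rw [RingHom.map_det]; rfl
    have e2 := congrArg Matrix.det (hBM g)
    rw [Matrix.det_mul, Matrix.det_mul, mul_comm] at e2
    rw [e1, mul_right_cancel₀ hdetB'0 e2, hdet]
    rfl
  · -- continuity
    have hA₂l : ∀ g, A₂ (σ * g) - A₂ g ∈ I := by
      intro g
      have e : A₂ (σ * g) - A₂ g = (t₀ (σ * g) - t₀ g) + (t₀ (σ * (g * c)) - t₀ (g * c)) := by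
        simp only [hA₂, mul_assoc]; ring
      rw [e]
      exact I.add_mem (hσ g) (hσ (g * c))
    have hA₂r : ∀ g, A₂ (g * σ) - A₂ g ∈ I := by
      intro g
      have e : A₂ (g * σ) - A₂ g = (t₀ (σ * g) - t₀ g) + (t₀ (σ * (c * g)) - t₀ (c * g)) := by
        simp only [hA₂]
        rw [htcomm g σ, htcomm (g * σ) c, ← mul_assoc, htcomm (c * g) σ, htcomm g c]
        ring
      rw [e]
      exact I.add_mem (hσ g) (hσ (c * g))
    have hA₂σ : A₂ σ - 2 ∈ I := by
      have := hA₂l 1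
      rwa [mul_one, hA₂1] at this
    have hD₂σ : D₂ σ - 2 ∈ I := by
      have e : D₂ σ - 2 = (t₀ (σ * 1) - t₀ 1) - (t₀ (σ * c) - t₀ c) := by
        simp only [hD₂, mul_one, ht1, htc]; ring
      rw [e]
      exact I.sub_mem (hσ 1) (hσ c)
    have hXl : ∀ y, X₄ σ y ∈ I := by
      intro y
      have e : X₄ σ y = 2 * (A₂ (σ * y) - A₂ y) - (A₂ σ - 2) * A₂ y := by
        simp only [hX₄]; ring
      rw [e]
      exact I.sub_mem (I.mul_mem_left _ (hA₂l y)) (I.mul_mem_right _ hA₂σ)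
    have hXr : ∀ x, X₄ x σ ∈ I := by
      intro x
      have e : X₄ x σ = 2 * (A₂ (x * σ) - A₂ x) - A₂ x * (A₂ σ - 2) := by
        simp only [hX₄]; ring
      rw [e]
      exact I.sub_mem (I.mul_mem_left _ (hA₂r x)) (I.mul_mem_left _ hA₂σ)
    -- the numerator matrix of `δ₂ (ρ σ - 1)`
    set Y : Matrix (Fin 2) (Fin 2) 𝒪 := Z σ - δ₂ • 1 with hY
    have hYmem : ∀ i j, Y i j ∈ I := by
      intro i j
      fin_cases i <;> fin_cases j
      · have e : Y 0 0 = 2 * n * (A₂ σ - 2) := by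
          simp [hY, hZdef, hδ₂def]; ring
        show Y 0 0 ∈ I
        rw [e]; exact I.mul_mem_left _ hA₂σ
      · have e : Y 0 1 = b₀ σ := by
          simp [hY, hZdef, hδ₂def]
        show Y 0 1 ∈ I
        rw [e, hb₀]
        simp only
        split_ifs
        · exact I.zero_mem
        · exact I.mul_mem_left _ (hXl τ₀)
      · have e : Y 1 0 = n * X₄ σ₀ σ := by
          simp [hY, hZdef, hδ₂def]
        show Y 1 0 ∈ I
        rw [e]; exact I.mul_mem_left _ (hXr σ₀)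
      · have e : Y 1 1 = 2 * n * (D₂ σ - 2) := by
          simp [hY, hZdef, hδ₂def]; ring
        show Y 1 1 ∈ I
        rw [e]; exact I.mul_mem_left _ hD₂σ
    have hYmap : Y.map (algebraMap 𝒪 K) = algebraMap 𝒪 K δ₂ • (ρ σ - 1) := by
      rw [hY, Matrix.map_sub (f := algebraMap 𝒪 K) (fun a b => map_sub _ a b), hZ, smul_sub]
      congr 1
      ext i j
      simp only [Matrix.map_apply, Matrix.smul_apply, Matrix.one_apply, smul_eq_mul]
      split_ifs <;> simp
    have hkey : Matrix.adjugate B * Y * B = (δ₂ * B.det) • (M σ - 1) := by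
      apply Matrix.map_injective hinj
      show (Matrix.adjugate B * Y * B).map (algebraMap 𝒪 K)
        = ((δ₂ * B.det) • (M σ - 1)).map (algebraMap 𝒪 K)
      have e1 : (Matrix.adjugate B).map (algebraMap 𝒪 K)
          = Matrix.adjugate (B.map (algebraMap 𝒪 K)) := by
        have := RingHom.map_adjugate (algebraMap 𝒪 K) B
        exact this
      have e2 : ((δ₂ * B.det) • (M σ - 1)).map (algebraMap 𝒪 K)
          = (algebraMap 𝒪 K δ₂ * algebraMap 𝒪 K B.det) •
            ((M σ).map (algebraMap 𝒪 K) - 1) := by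
        ext i j
        simp only [Matrix.map_apply, Matrix.smul_apply, Matrix.sub_apply, Matrix.one_apply,
          smul_eq_mul, map_mul, map_sub]
        split_ifs <;> simp
      have e3 : Matrix.adjugate (B.map (algebraMap 𝒪 K)) * (ρ σ - 1) * B.map (algebraMap 𝒪 K)
          = algebraMap 𝒪 K B.det • ((M σ).map (algebraMap 𝒪 K) - 1) := by
        rw [mul_assoc, sub_mul, one_mul, ← hBM, ← mul_sub_one, ← mul_assoc,
          Matrix.adjugate_mul, hdetB', Matrix.smul_mul, one_mul]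
      rw [Matrix.map_mul, Matrix.map_mul, e1, hYmap, e2, Matrix.mul_smul, Matrix.smul_mul,
        e3, smul_smul]
    intro i j
    have := congrFun (congrFun hkey i) j
    rw [Matrix.smul_apply, smul_eq_mul] at this
    rw [← this, Matrix.mul_apply]
    refine Ideal.sum_mem _ fun l _ => I.mul_mem_right _ ?_
    rw [Matrix.mul_apply]
    exact Ideal.sum_mem _ fun l' _ => I.mul_mem_left _ (hYmem l' l)

end Integral

end Fermat.Agent.ES.Wiles


end ZBES_034_1

/-! ### bundled: `Fermat.Agent.ES.WilesBridge` -/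
section ZBES_034_2
/-
S30 glue (helper59), part 5: from a pseudo-character to a representation.

`exists_integral_rep_of_pseudoChar`: over a PID `𝒪` of characteristic `0`, a function
`t : G → 𝒪` with `t 1 = 2`, `t(xy) = t(yx)`, `t(xy) + ε(y) t(xy⁻¹) = t(x) t(y)` and a
"complex conjugation" `c` (`c² = 1`, `ε c = -1`) is the trace of `M : G →* M₂(𝒪)`, `det M = ε`.
The Cayley–Hamilton datum lives on the space of functions `f` on `G` with
`f(xσy) + ε(σ) f(xσ⁻¹y) = t(σ) f(xy)` (it contains `t`), `G` acting by right translation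
(the idea of the translate space is helper92's).
-/

set_option autoImplicit false
set_option linter.unusedSectionVars false
set_option linter.unusedSimpArgs false

namespace Fermat.Agent.ES.Wiles

section Bridge

variable {G K : Type*} [Group G] [Field K]

/-- A two-dimensional pseudo-character with determinant `ε` (in the form
`t(xy) + ε(y) t(xy⁻¹) = t(x) t(y)`). -/
structure PseudoChar (ε : G →* K) (t : G → K) : Prop where
  t_one : t 1 = 2
  t_comm : ∀ x y, t (x * y) = t (y * x)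
  t_mul : ∀ x y, t (x * y) + ε y * t (x * y⁻¹) = t x * t y

/-- The space of functions `f` on `G` with `f(xσy) + ε(σ) f(xσ⁻¹y) = t(σ) f(xy)`. -/
def chSpace (ε : G →* K) (t : G → K) : Submodule K (G → K) where
  carrier := {f | ∀ σ x y, f (x * σ * y) + ε σ * f (x * σ⁻¹ * y) = t σ * f (x * y)}
  add_mem' := by
    intro f g hf hg σ x y
    simp only [Pi.add_apply]
    linear_combination hf σ x y + hg σ x y
  zero_mem' := by
    intro σ x y
    simp
  smul_mem' := by
    intro a f hf σ x y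
    simp only [Pi.smul_apply, smul_eq_mul]
    linear_combination a * hf σ x y

lemma mem_chSpace {ε : G →* K} {t : G → K} {f : G → K} :
    f ∈ chSpace ε t ↔ ∀ σ x y, f (x * σ * y) + ε σ * f (x * σ⁻¹ * y) = t σ * f (x * y) :=
  Iff.rfl

lemma PseudoChar.self_mem {ε : G →* K} {t : G → K} (h : PseudoChar ε t) : t ∈ chSpace ε t := by
  intro σ x y
  have e1 : t (x * σ * y) = t (y * x * σ) := by rw [h.t_comm, mul_assoc]
  have e2 : t (x * σ⁻¹ * y) = t (y * x * σ⁻¹) := by rw [h.t_comm, mul_assoc]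
  rw [e1, e2, h.t_mul, h.t_comm y x, mul_comm]

/-- right translation on the space `chSpace` -/
def chTransl (ε : G →* K) (t : G → K) (σ : G) : chSpace ε t →ₗ[K] chSpace ε t where
  toFun f := ⟨fun x => f.1 (x * σ), by
    intro τ x y
    have := f.2 τ x (y * σ)
    simpa only [mul_assoc] using this⟩
  map_add' f g := by
    apply Subtype.ext; funext x; rfl
  map_smul' a f := by
    apply Subtype.ext; funext x; rfl

@[simp] lemma chTransl_apply (ε : G →* K) (t : G → K) (σ : G) (f : chSpace ε t) (x : G) :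
    (chTransl ε t σ f).1 x = f.1 (x * σ) := rfl

/-- the action of `G` on `chSpace` by right translation -/
def chRep (ε : G →* K) (t : G → K) : G →* Module.End K (chSpace ε t) where
  toFun := chTransl ε t
  map_one' := by
    apply LinearMap.ext; intro f; apply Subtype.ext; funext x
    simp only [chTransl_apply, mul_one, Module.End.one_apply]
  map_mul' σ τ := by
    apply LinearMap.ext; intro f; apply Subtype.ext; funext x
    simp only [chTransl_apply, Module.End.mul_apply, mul_assoc]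

lemma chRep_apply (ε : G →* K) (t : G → K) (σ : G) (f : chSpace ε t) (x : G) :
    (chRep ε t σ f).1 x = f.1 (x * σ) := rfl

/-- For a pseudo-character `t`, the space `chSpace` contains `t ≠ 0`. -/
theorem PseudoChar.nontrivial_end [CharZero K] {ε : G →* K} {t : G → K} (h : PseudoChar ε t) :
    Nontrivial (Module.End K (chSpace ε t)) := by
  refine ⟨⟨1, 0, fun h10 => ?_⟩⟩
  have := congrArg (fun φ : Module.End K (chSpace ε t) => (φ ⟨t, h.self_mem⟩).1 1) h10
  simp only [Module.End.one_apply, LinearMap.zero_apply] at this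
  rw [h.t_one] at this
  exact two_ne_zero this

/-- **Bridge**: the Cayley–Hamilton relation holds on `chSpace` (by its definition). -/
theorem chDatum_chSpace (ε : G →* K) (t : G → K) (c : G)
    (hc : c * c = 1) (hεc : ε c = -1) :
    CHDatum (E := Module.End K (chSpace ε t)) (chRep ε t) ε t c where
  ch σ := by
    apply LinearMap.ext; intro f; apply Subtype.ext; funext x
    have := f.2 σ x 1
    simp only [mul_one] at this
    simpa [chRep_apply] using this
  c_sq := hc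
  ε_c := hεc

end Bridge

section Final

variable {𝒪 G : Type*} [CommRing 𝒪] [IsDomain 𝒪] [IsPrincipalIdealRing 𝒪] [CharZero 𝒪] [Group G]

/-- **Wiles' lemma for integral pseudo-characters.**  Let `𝒪` be a PID of characteristic `0`,
`t : G → 𝒪` a two-dimensional pseudo-character with determinant `ε : G →* 𝒪`
(`t 1 = 2`, `t(xy) = t(yx)`, `t(xy) + ε(y) t(xy⁻¹) = t(x) t(y)`), and `c ∈ G` with `c² = 1`,
`ε(c) = -1`.  Then `t` is the trace of a representation `M : G → M₂(𝒪)` with determinant `ε`,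
which is as continuous as `t`. -/
theorem exists_integral_rep_of_pseudoChar (ε₀ : G →* 𝒪) (t₀ : G → 𝒪) (c : G)
    (h1 : t₀ 1 = 2) (h2 : ∀ x y, t₀ (x * y) = t₀ (y * x))
    (h3 : ∀ x y, t₀ (x * y) + ε₀ y * t₀ (x * y⁻¹) = t₀ x * t₀ y)
    (hc : c * c = 1) (hεc : ε₀ c = -1) :
    ∃ (M : G →* Matrix (Fin 2) (Fin 2) 𝒪) (δ : 𝒪), δ ≠ 0 ∧
      (∀ g, (M g).trace = t₀ g) ∧ (∀ g, (M g).det = ε₀ g) ∧
      ∀ (σ : G) (I : Ideal 𝒪), (∀ g, t₀ (σ * g) - t₀ g ∈ I) →
        ∀ i j, δ * (M σ - 1) i j ∈ I := by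
  set K := FractionRing 𝒪
  have hP : PseudoChar ((algebraMap 𝒪 K : 𝒪 →* K).comp ε₀) (fun g => algebraMap 𝒪 K (t₀ g)) := by
    refine ⟨?_, fun x y => ?_, fun x y => ?_⟩
    · rw [h1, map_ofNat]
    · rw [h2]
    · have := congrArg (algebraMap 𝒪 K) (h3 x y)
      rw [map_add, map_mul, map_mul] at this
      exact this
  have := hP.nontrivial_end
  exact exists_integral_rep (K := K) (E := Module.End K (chSpace _ _)) _ ε₀ t₀ c
    (chDatum_chSpace _ _ c hc (by
      show algebraMap 𝒪 K (ε₀ c) = -1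
      rw [hεc, map_neg, map_one]))

end Final

end Fermat.Agent.ES.Wiles


end ZBES_034_2

/-! ### bundled: `Fermat.Agent.S30.OfPseudoChar` -/
section ZBES_034_3
/-
S30 glue (helper59): S30 from a pseudo-character.

`s30_of_pseudoChar`: if there is a function `t : G_ℚ → 𝒪'` which is a two-dimensional
pseudo-character with determinant `ε` (P1–P3), with `t(Frob_ℓ) = χ(T_ℓ)`, `ε(Frob_ℓ) = ℓ` (P4),
invariant under translation by inertia at `q ∤ Np` (P5), continuous (P6), and if `c² = 1`,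
`ε(c) = -1`, then the conclusion of S30 holds for `χ`, with `𝒪'' = 𝒪'`.
(Wiles' lemma + stable lattice: `Fermat/Agent/ES/Wiles*.lean`.)
-/

set_option autoImplicit false

open Polynomial

namespace Fermat.Agent.S30

open Fermat.Agent.S53 (Gal M2 MatCont ofMatrix)

/-- In a discrete valuation ring, division by a nonzero element loses only a bounded
power of the maximal ideal. -/
theorem exists_shift_of_ne_zero {A : Type*} [CommRing A] [IsDomain A]
    [IsDiscreteValuationRing A] (δ : A) (hδ : δ ≠ 0) :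
    ∃ v : ℕ, ∀ (n : ℕ) (x : A), δ * x ∈ IsLocalRing.maximalIdeal A ^ (n + v) →
      x ∈ IsLocalRing.maximalIdeal A ^ n := by
  obtain ⟨ϖ, hϖ⟩ := IsDiscreteValuationRing.exists_irreducible A
  obtain ⟨v, u, hu⟩ := IsDiscreteValuationRing.eq_unit_mul_pow_irreducible hδ hϖ
  refine ⟨v, fun n x hx => ?_⟩
  rw [hϖ.maximalIdeal_eq, Ideal.span_singleton_pow, Ideal.mem_span_singleton'] at hx ⊢
  obtain ⟨y, hy⟩ := hx
  refine ⟨↑u⁻¹ * y, ?_⟩
  have hϖv : ϖ ^ v ≠ 0 := pow_ne_zero _ hϖ.ne_zero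
  apply mul_left_cancel₀ hϖv
  apply mul_left_cancel₀ u.ne_zero
  calc (u : A) * (ϖ ^ v * (↑u⁻¹ * y * ϖ ^ n))
      = (↑u * ↑u⁻¹) * (y * ϖ ^ (n + v)) := by rw [pow_add]; ring
    _ = δ * x := by rw [Units.mul_inv, one_mul, hy]
    _ = (u : A) * (ϖ ^ v * x) := by rw [hu]; ring

/-- The conclusion of S30 for `χ`. -/
def S30Concl (p N : ℕ) [NeZero N] (S : Finset ℕ) (𝒪' : Type) [CommRing 𝒪']
    (χ : CuspForm.heckeAlgebra N 2 (↑S : Set ℕ) →+* 𝒪') : Prop :=
  ∃ (𝒪'' : Type) (_ : CommRing 𝒪'') (_ : IsDomain 𝒪'') (_ : IsDiscreteValuationRing 𝒪'')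
    (_ : IsAdicComplete (IsLocalRing.maximalIdeal 𝒪'') 𝒪'')
    (_ : Finite (IsLocalRing.ResidueField 𝒪'')) (_ : CharZero 𝒪'')
    (_ : Algebra 𝒪' 𝒪'') (_ : Module.Finite 𝒪' 𝒪'') (_ : IsLocalHom (algebraMap 𝒪' 𝒪'')),
  Function.Injective (algebraMap 𝒪' 𝒪'') ∧
  ∃ ρ : GaloisRepAdic 𝒪'',
    (∀ (ℓ : ℕ) (hℓ : ℓ.Prime) (hℓN : ¬ ℓ ∣ N) (hℓS : ℓ ∉ (↑S : Set ℕ)),
      ∀ A : ValuationSubring (AlgebraicClosure ℚ), A.LiesOverPrime ℓ →
        ∀ σ : AlgebraicClosure ℚ ≃ₐ[ℚ] AlgebraicClosure ℚ, A.IsFrobeniusAt σ ℓ →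
          LinearMap.charpoly (ρ.ρ σ) =
            X ^ 2 - C (algebraMap 𝒪' 𝒪'' (χ (CuspForm.heckeAlgebra.T hℓ hℓN hℓS))) * X
              + C ((ℓ : 𝒪''))) ∧
    (∀ q : ℕ, q.Prime → ¬ q ∣ N → q ≠ p → ρ.IsUnramifiedAt q)

/-- **S30 from a pseudo-character** (with `𝒪'' = 𝒪'`). -/
theorem s30_of_pseudoChar (p N : ℕ) [NeZero N] (S : Finset ℕ)
    (𝒪' : Type) [CommRing 𝒪'] [IsDomain 𝒪'] [IsDiscreteValuationRing 𝒪']
    [IsAdicComplete (IsLocalRing.maximalIdeal 𝒪') 𝒪'] [Finite (IsLocalRing.ResidueField 𝒪')]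
    [CharZero 𝒪']
    (χ : CuspForm.heckeAlgebra N 2 (↑S : Set ℕ) →+* 𝒪')
    (t : Gal → 𝒪') (ε : Gal →* 𝒪') (c : Gal)
    (h1 : t 1 = 2) (h2 : ∀ x y, t (x * y) = t (y * x))
    (h3 : ∀ x y, t (x * y) + ε y * t (x * y⁻¹) = t x * t y)
    (hc : c * c = 1) (hεc : ε c = -1)
    (h4 : ∀ (ℓ : ℕ) (hℓ : ℓ.Prime) (hℓN : ¬ ℓ ∣ N) (hℓS : ℓ ∉ (↑S : Set ℕ)),
      ∀ A : ValuationSubring (AlgebraicClosure ℚ), A.LiesOverPrime ℓ →
        ∀ σ : Gal, A.IsFrobeniusAt σ ℓ →
          t σ = χ (CuspForm.heckeAlgebra.T hℓ hℓN hℓS) ∧ ε σ = (ℓ : 𝒪'))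
    (h5 : ∀ q : ℕ, q.Prime → ¬ q ∣ N → q ≠ p →
      ∀ P : ValuationSubring (AlgebraicClosure ℚ), P.LiesOverPrime q →
        ∀ σ ∈ P.inertiaSubgroupIn ℚ, ∀ g : Gal, t (σ * g) = t g)
    (h6 : ∀ k : ℕ, ∃ E : IntermediateField ℚ (AlgebraicClosure ℚ), FiniteDimensional ℚ E ∧
      ∀ σ : Gal, (∀ x ∈ E, σ x = x) →
        ∀ g : Gal, t (σ * g) - t g ∈ IsLocalRing.maximalIdeal 𝒪' ^ k) :
    S30Concl p N S 𝒪' χ := by
  obtain ⟨M, δ, hδ, htr, hdet, hcont⟩ :=
    Fermat.Agent.ES.Wiles.exists_integral_rep_of_pseudoChar ε t c h1 h2 h3 hc hεc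
  obtain ⟨v, hv⟩ := exists_shift_of_ne_zero δ hδ
  have hM : MatCont 𝒪' M := by
    intro n
    obtain ⟨E, hE, hEσ⟩ := h6 (n + v)
    exact ⟨E, hE, fun σ hσ i j => hv n _ (hcont σ _ (hEσ σ hσ) i j)⟩
  refine ⟨𝒪', inferInstance, inferInstance, inferInstance, inferInstance, inferInstance,
    inferInstance, Algebra.id 𝒪', inferInstance, ⟨fun _ h => h⟩, Function.injective_id,
    ofMatrix M hM, ?_, ?_⟩
  · intro ℓ hℓ hℓN hℓS A hA σ hσ
    obtain ⟨e1, e2⟩ := h4 ℓ hℓ hℓN hℓS A hA σ hσ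
    have hρ : (ofMatrix M hM).ρ σ = Matrix.toLin' (M σ) := rfl
    rw [hρ, Matrix.charpoly_toLin', Matrix.charpoly_fin_two, htr, hdet, e1, e2]
    rfl
  · intro q hq hqN hqp P hP σ hσ
    have h0 : ∀ i j, δ * (M σ - 1) i j ∈ (⊥ : Ideal 𝒪') :=
      hcont σ ⊥ fun g => by rw [h5 q hq hqN hqp P hP σ hσ g, sub_self]; exact Ideal.zero_mem _
    have hM1 : M σ = 1 := by
      rw [← sub_eq_zero]
      ext i j
      have := h0 i j
      rw [Ideal.mem_bot] at this
      exact (mul_eq_zero.mp this).resolve_left hδ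
    show (ofMatrix M hM).ρ σ = 1
    have hρ : (ofMatrix M hM).ρ σ = Matrix.toLin' (M σ) := rfl
    rw [hρ, hM1, Matrix.toLin'_one]
    rfl

end Fermat.Agent.S30


end ZBES_034_3

/-! ### bundled: `Fermat.Agent.S35.OfPseudoChar` -/
section ZBES_034_4
/-
S35 glue (helper59): S35 from a pseudo-character.

`s35_of_pseudoChar`: if there is a function `t : G_ℚ → O'` which is a two-dimensional
pseudo-character with determinant `ε` (P1–P3), with `t(Frob_ℓ) = χ(T_ℓ)`, `ε(Frob_ℓ) = ℓ` at the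
good primes outside `S` (P4), continuous (P6), with `t(σ) = ±(q + 1)`, `ε(σ) = q` for every
Frobenius element `σ` at a prime `q ≠ lam`, `q ∥ M` (P7), and if `c² = 1`, `ε(c) = -1`, then the
conclusion of S35 holds, with `O'' = O'`.
(Wiles' lemma + stable lattice: `Fermat/Agent/ES/Wiles*.lean`.)
-/

set_option autoImplicit false

open Polynomial

namespace Fermat.Agent.S35

open Fermat.Agent.S53 (Gal M2 MatCont ofMatrix)

/-- The conclusion of S35 for `χ` (`χ = iota.comp chig.rangeRestrict` in S35). -/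
def S35Concl (lam M : ℕ) [NeZero M] (S : Finset ℕ) (O' : Type) [CommRing O']
    (χ : CuspForm.heckeAlgebra M 2 (↑S : Set ℕ) →+* O') : Prop :=
  ∃ (O'' : Type) (_ : CommRing O'') (_ : IsDomain O'') (_ : IsDiscreteValuationRing O'')
    (_ : IsAdicComplete (IsLocalRing.maximalIdeal O'') O'')
    (_ : Finite (IsLocalRing.ResidueField O''))
    (_ : CharZero O'') (_ : Algebra O' O'') (_ : Module.Finite O' O'')
    (_ : IsLocalHom (algebraMap O' O'')),
    Function.Injective (algebraMap O' O'') ∧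
    ∃ ρ : GaloisRepAdic O'',
      (∀ (ℓ : ℕ) (hℓ : ℓ.Prime) (hℓM : ¬ ℓ ∣ M) (hℓS : ℓ ∉ (↑S : Set ℕ)),
        ∀ A : ValuationSubring (AlgebraicClosure ℚ), A.LiesOverPrime ℓ →
          ∀ σ : AlgebraicClosure ℚ ≃ₐ[ℚ] AlgebraicClosure ℚ, A.IsFrobeniusAt σ ℓ →
            LinearMap.charpoly (ρ.ρ σ) =
              X ^ 2 - C (algebraMap O' O'' (χ (CuspForm.heckeAlgebra.T hℓ hℓM hℓS))) * X
                + C ((ℓ : O''))) ∧
      (∀ q : ℕ, q.Prime → q ≠ lam → q ∣ M → ¬ q ^ 2 ∣ M →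
        ∀ A : ValuationSubring (AlgebraicClosure ℚ), A.LiesOverPrime q →
          ∀ σ : AlgebraicClosure ℚ ≃ₐ[ℚ] AlgebraicClosure ℚ, A.IsFrobeniusAt σ q →
            LinearMap.charpoly (ρ.ρ σ) = X ^ 2 - C ((q : O'') + 1) * X + C ((q : O'')) ∨
            LinearMap.charpoly (ρ.ρ σ) = X ^ 2 + C ((q : O'') + 1) * X + C ((q : O'')))

/-- **S35 from a pseudo-character** (with `O'' = O'`). -/
theorem s35_of_pseudoChar (lam M : ℕ) [NeZero M] (S : Finset ℕ)
    (O' : Type) [CommRing O'] [IsDomain O'] [IsDiscreteValuationRing O']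
    [IsAdicComplete (IsLocalRing.maximalIdeal O') O'] [Finite (IsLocalRing.ResidueField O')]
    [CharZero O']
    (χ : CuspForm.heckeAlgebra M 2 (↑S : Set ℕ) →+* O')
    (t : Gal → O') (ε : Gal →* O') (c : Gal)
    (h1 : t 1 = 2) (h2 : ∀ x y, t (x * y) = t (y * x))
    (h3 : ∀ x y, t (x * y) + ε y * t (x * y⁻¹) = t x * t y)
    (hc : c * c = 1) (hεc : ε c = -1)
    (h4 : ∀ (ℓ : ℕ) (hℓ : ℓ.Prime) (hℓM : ¬ ℓ ∣ M) (hℓS : ℓ ∉ (↑S : Set ℕ)),
      ∀ A : ValuationSubring (AlgebraicClosure ℚ), A.LiesOverPrime ℓ →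
        ∀ σ : Gal, A.IsFrobeniusAt σ ℓ →
          t σ = χ (CuspForm.heckeAlgebra.T hℓ hℓM hℓS) ∧ ε σ = (ℓ : O'))
    (h6 : ∀ k : ℕ, ∃ E : IntermediateField ℚ (AlgebraicClosure ℚ), FiniteDimensional ℚ E ∧
      ∀ σ : Gal, (∀ x ∈ E, σ x = x) →
        ∀ g : Gal, t (σ * g) - t g ∈ IsLocalRing.maximalIdeal O' ^ k)
    (h7 : ∀ q : ℕ, q.Prime → q ≠ lam → q ∣ M → ¬ q ^ 2 ∣ M →
      ∀ A : ValuationSubring (AlgebraicClosure ℚ), A.LiesOverPrime q →
        ∀ σ : Gal, A.IsFrobeniusAt σ q →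
          (t σ = (q : O') + 1 ∨ t σ = -((q : O') + 1)) ∧ ε σ = (q : O')) :
    S35Concl lam M S O' χ := by
  obtain ⟨Mρ, δ, hδ, htr, hdet, hcont⟩ :=
    Fermat.Agent.ES.Wiles.exists_integral_rep_of_pseudoChar ε t c h1 h2 h3 hc hεc
  obtain ⟨v, hv⟩ := Fermat.Agent.S30.exists_shift_of_ne_zero δ hδ
  have hM : MatCont O' Mρ := by
    intro n
    obtain ⟨E, hE, hEσ⟩ := h6 (n + v)
    exact ⟨E, hE, fun σ hσ i j => hv n _ (hcont σ _ (hEσ σ hσ) i j)⟩
  refine ⟨O', inferInstance, inferInstance, inferInstance, inferInstance, inferInstance,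
    inferInstance, Algebra.id O', inferInstance, ⟨fun _ h => h⟩, Function.injective_id,
    ofMatrix Mρ hM, ?_, ?_⟩
  · intro ℓ hℓ hℓN hℓS A hA σ hσ
    obtain ⟨e1, e2⟩ := h4 ℓ hℓ hℓN hℓS A hA σ hσ
    have hρ : (ofMatrix Mρ hM).ρ σ = Matrix.toLin' (Mρ σ) := rfl
    rw [hρ, Matrix.charpoly_toLin', Matrix.charpoly_fin_two, htr, hdet, e1, e2]
    rfl
  · intro q hq hqlam hqM hq2 A hA σ hσ
    obtain ⟨e1, e2⟩ := h7 q hq hqlam hqM hq2 A hA σ hσ
    have hρ : (ofMatrix Mρ hM).ρ σ = Matrix.toLin' (Mρ σ) := rfl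
    rw [hρ, Matrix.charpoly_toLin', Matrix.charpoly_fin_two, htr, hdet, e2]
    rcases e1 with e1 | e1
    · left; rw [e1]
    · right; rw [e1, map_neg, neg_mul, sub_neg_eq_add]

end Fermat.Agent.S35


end ZBES_034_4
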