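/- GENERATED FILE (helper35, build-time optimisation, NOTES/ZB.md): verbatim concatenation of the modules
   Fermat.Agent.S30.PseudoChar
   Fermat.Agent.RT.K8.Plan
   Fermat.Agent.S35.FinalAbs
   Fermat.Agent.S35.FinalPDiv
   Fermat.Agent.S35.Final
   Do not edit; do not import together with these modules. -/
import Mathlib
import Fermat.Agent.ZB.S05_001
import Fermat.Agent.ZB.Cheb_001
import Fermat.Agent.ZB.ES_009
import Fermat.Agent.ZB.ES_005
import Fermat.Statements.S35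
import Fermat.Agent.ZB.ES_034

/-! ### bundled: `Fermat.Agent.S30.PseudoChar` -/
section ZBS30_001_0

/-!
# S30 input (I): the pseudo-character attached to a point of the Hecke algebra

From the faithful `p`-adic Eichler–Shimura package (`S31.ESPkgFaith N p`) and weak Chebotarev we
construct, for every ring homomorphism `χ : heckeAlgebra N 2 S →+* 𝒪'` into a complete local ring
with `p ∈ 𝔪`, a function `t : G_ℚ → 𝒪'` which is a 2-dimensional pseudo-character with determinant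
the `p`-adic cyclotomic character `ε`:

* `t 1 = 2`, `t (x * y) = t (y * x)`, `t (x * y) + ε y * t (x * y⁻¹) = t x * t y`;
* `t (Frob_ℓ) = χ (T_ℓ)` for `ℓ ∉ S`;
* `t (σ * g) = t g` for `σ` in an inertia group at `q ∤ N p`;
* `t` is adically continuous.

Construction: on `J[pⁿ]` the operator `g + χ_cyc(g) g⁻¹` is a Hecke polynomial `h` in the variables
outside `S` (weak Chebotarev + Lucas); `h` is unique up to polynomials killing `J[pⁿ]`, and by
faithfulness `χ(h)` is well defined modulo `pᵏ`. Then `t g = lim χ(h)`.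
-/

set_option autoImplicit false

noncomputable section

namespace Fermat.Agent.S30

open ModularCurve Fermat.Agent.ES Fermat.Agent.S31

/-! ### the integer `e_n(g)` representing `χ_cyc(g) mod p ^ n` -/

section cycE

variable (p : ℕ) [Fact p.Prime]

/-- the natural number `< p ^ n` representing the cyclotomic character of `g` modulo `p ^ n` -/
def cycE (n : ℕ) (g : GQ) : ℕ :=
  (((padicCyclo p g : ℤ_[p]ˣ) : ℤ_[p]).toZModPow n).val

theorem cycE_cast (n : ℕ) (g : GQ) :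
    ((cycE p n g : ℕ) : ZMod (p ^ n)) = ((padicCyclo p g : ℤ_[p]ˣ) : ℤ_[p]).toZModPow n := by
  have : NeZero (p ^ n) := ⟨pow_ne_zero _ (Fact.out : p.Prime).ne_zero⟩
  exact ZMod.natCast_zmod_val _

theorem cycE_modEq_iff (n : ℕ) (g : GQ) (a : ℕ) :
    cycE p n g ≡ a [MOD p ^ n] ↔
      ((padicCyclo p g : ℤ_[p]ˣ) : ℤ_[p]).toZModPow n = (a : ZMod (p ^ n)) := by
  rw [← ZMod.natCast_eq_natCast_iff, cycE_cast]

theorem cycE_one (n : ℕ) : cycE p n 1 ≡ 1 [MOD p ^ n] := by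
  rw [cycE_modEq_iff, map_one, Units.val_one, map_one, Nat.cast_one]

theorem cycE_mul (n : ℕ) (g h : GQ) : cycE p n (g * h) ≡ cycE p n g * cycE p n h [MOD p ^ n] := by
  rw [cycE_modEq_iff, map_mul, Units.val_mul, map_mul, Nat.cast_mul, cycE_cast, cycE_cast]

theorem cycE_conj (n : ℕ) (y g : GQ) : cycE p n (y * g * y⁻¹) = cycE p n g := by
  unfold cycE
  rw [map_mul, map_mul, map_inv, mul_comm, inv_mul_cancel_left]

theorem cycE_mul_inv (n : ℕ) (g : GQ) : cycE p n g * cycE p n g⁻¹ ≡ 1 [MOD p ^ n] :=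
  ((cycE_mul p n g g⁻¹).symm.trans (by rw [mul_inv_cancel]; exact cycE_one p n))

theorem cycE_restrict {n' n : ℕ} (h : n' ≤ n) (g : GQ) :
    cycE p n g ≡ cycE p n' g [MOD p ^ n'] := by
  rw [Nat.ModEq.comm, cycE_modEq_iff, ← PadicInt.zmod_cast_comp_toZModPow n' n h]
  simp only [RingHom.comp_apply, ZMod.castHom_apply]
  unfold cycE
  rw [ZMod.natCast_val]

theorem cycE_of_apply (n : ℕ) (g : GQ) (a : ℕ) {ζ : AlgebraicClosure ℚ}
    (hζ : IsPrimitiveRoot ζ (p ^ n)) (h : g ζ = ζ ^ a) : cycE p n g ≡ a [MOD p ^ n] := by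
  rw [cycE_modEq_iff]
  exact padicCyclo_toZModPow p g n a hζ h

theorem cycE_of_eq_one (n : ℕ) (g : GQ) (h : padicCyclo p g = 1) : cycE p n g ≡ 1 [MOD p ^ n] := by
  rw [cycE_modEq_iff, h, Units.val_one, map_one, Nat.cast_one]

theorem cycloCharO_sub_cycE {S : Type*} [CommRing S] (I : Ideal S) [IsAdicComplete I S]
    (hp : (p : S) ∈ I) (n : ℕ) (g : GQ) :
    ((cycloCharO p I hp g : Sˣ) : S) - (cycE p n g : S) ∈ Ideal.span {(p : S) ^ n} := by
  obtain ⟨y, hy⟩ := Ideal.mem_span_singleton'.mp (padicCyclo_sub_mem p g n)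
  rw [Ideal.mem_span_singleton']
  refine ⟨padicToComplete p I hp y, ?_⟩
  have := congrArg (padicToComplete p I hp) hy
  rw [map_mul, map_pow, map_natCast, map_sub, map_natCast] at this
  rw [cycloCharO_coe]
  exact this

end cycE

/-! ### finite level: Hecke polynomials representing `g + χ_cyc(g) g⁻¹` on `J[p ^ n]` -/

section approx

variable (p : ℕ) [Fact p.Prime] (J : Type) [AddCommGroup J] [Module HeckeAlg J]
  [DistribMulAction GQ J]

/-- `h` represents the operator `g + χ_cyc(g) g⁻¹` on `J[p ^ n]` -/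
def Approx (n : ℕ) (g : GQ) (h : HeckeAlg) : Prop :=
  ∀ x : J, p ^ n • x = 0 → g • x + cycE p n g • (g⁻¹ • x) = h • x

variable {p J}

omit [Fact p.Prime] [DistribMulAction GQ J] in
theorem torsion_hecke (n : ℕ) (h : HeckeAlg) {x : J} (hx : p ^ n • x = 0) :
    p ^ n • (h • x) = 0 := by
  rw [smul_comm, hx, smul_zero]

omit [Fact p.Prime] [DistribMulAction GQ J] [Module HeckeAlg J] in
theorem torsion_le {n' n : ℕ} (h : n' ≤ n) {x : J} (hx : p ^ n' • x = 0) : p ^ n • x = 0 := by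
  obtain ⟨d, rfl⟩ := Nat.exists_eq_add_of_le h
  rw [pow_add, mul_comm, mul_smul, hx, smul_zero]

theorem approx_one (n : ℕ) : Approx p J n 1 2 := by
  intro x hx
  rw [one_smul, inv_one, one_smul, nsmul_eq_of_modEq (cycE_one p n) hx, one_smul, two_smul]

theorem approx_restrict {n' n : ℕ} (hn : n' ≤ n) {g : GQ} {h : HeckeAlg}
    (H : Approx p J n g h) : Approx p J n' g h := by
  intro x hx
  rw [← H x (torsion_le hn hx),
    nsmul_eq_of_modEq (cycE_restrict p hn g) (torsion_smul n' g⁻¹ hx)]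

theorem approx_conj (hcomm : ∀ (σ : GQ) (t : HeckeAlg) (x : J), σ • t • x = t • σ • x)
    {n : ℕ} {g : GQ} {h : HeckeAlg} (H : Approx p J n g h) (y : GQ) :
    Approx p J n (y * g * y⁻¹) h := by
  intro x hx
  have h1 := H (y⁻¹ • x) (torsion_smul n y⁻¹ hx)
  have h2 := congrArg (fun w => y • w) h1
  simp only [smul_add] at h2
  rw [hcomm, smul_inv_smul, smul_comm y (cycE p n g)] at h2
  rw [← h2, cycE_conj, mul_inv_rev, mul_inv_rev, inv_inv, mul_smul, mul_smul, mul_smul, mul_smul]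

/-- if `σ` acts trivially on `J[p ^ n]` and on `μ_{p ^ n}`, then `σ g` and `g` have the same
representatives -/
theorem approx_mul_left_of_trivial {n : ℕ} {σ g : GQ} {h : HeckeAlg}
    (hσ : ∀ x : J, p ^ n • x = 0 → σ • x = x) (hσe : cycE p n σ ≡ 1 [MOD p ^ n])
    (H : Approx p J n g h) : Approx p J n (σ * g) h := by
  intro x hx
  have hσinv : σ⁻¹ • x = x := by
    have := hσ x hx
    rw [← this, inv_smul_smul, this]
  have he : cycE p n (σ * g) ≡ cycE p n g [MOD p ^ n] := by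
    have := (cycE_mul p n σ g).trans (Nat.ModEq.mul_right _ hσe)
    rwa [one_mul] at this
  rw [mul_smul, hσ _ (torsion_smul n g hx), mul_inv_rev, mul_smul, hσinv,
    nsmul_eq_of_modEq he (torsion_smul n g⁻¹ hx)]
  exact H x hx

/-- the pseudo-character identity at finite level -/
theorem approx_mul (hcomm : ∀ (σ : GQ) (t : HeckeAlg) (x : J), σ • t • x = t • σ • x)
    {n : ℕ} {x y : GQ} {hx hy hxy hxy' : HeckeAlg}
    (Hx : Approx p J n x hx) (Hy : Approx p J n y hy) (Hxy : Approx p J n (x * y) hxy)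
    (Hxy' : Approx p J n (x * y⁻¹) hxy') (z : J) (hz : p ^ n • z = 0) :
    (hxy + (cycE p n y : HeckeAlg) * hxy' - hx * hy) • z = 0 := by
  -- (1)
  have e1 : hxy • z = x • y • z + (cycE p n x * cycE p n y) • (y⁻¹ • x⁻¹ • z) := by
    rw [← Hxy z hz, mul_smul, mul_inv_rev, mul_smul,
      nsmul_eq_of_modEq (cycE_mul p n x y) (torsion_smul n _ (torsion_smul n _ hz))]
  -- (2)
  have hmod : cycE p n y * cycE p n (x * y⁻¹) ≡ cycE p n x [MOD p ^ n] := by
    have h1 : cycE p n y * cycE p n (x * y⁻¹) ≡ cycE p n y * (cycE p n x * cycE p n y⁻¹)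
        [MOD p ^ n] := Nat.ModEq.mul_left _ (cycE_mul p n x y⁻¹)
    have h2 : cycE p n y * (cycE p n x * cycE p n y⁻¹)
        = cycE p n x * (cycE p n y * cycE p n y⁻¹) := by ring
    rw [h2] at h1
    have h3 : cycE p n x * (cycE p n y * cycE p n y⁻¹) ≡ cycE p n x * 1 [MOD p ^ n] :=
      Nat.ModEq.mul_left _ (cycE_mul_inv p n y)
    rw [mul_one] at h3
    exact h1.trans h3
  have e2 : ((cycE p n y : HeckeAlg) * hxy') • z
      = cycE p n y • (x • y⁻¹ • z) + cycE p n x • (y • x⁻¹ • z) := by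
    rw [mul_smul, ← Hxy' z hz, Nat.cast_smul_eq_nsmul, smul_add, mul_smul, mul_inv_rev, inv_inv,
      mul_smul, ← mul_smul (cycE p n y) (cycE p n (x * y⁻¹)),
      nsmul_eq_of_modEq hmod (torsion_smul n _ (torsion_smul n _ hz))]
  -- (3)
  have e3 : (hx * hy) • z = x • y • z + cycE p n y • (x • y⁻¹ • z)
      + cycE p n x • (y • x⁻¹ • z + cycE p n y • (y⁻¹ • x⁻¹ • z)) := by
    rw [mul_smul, ← Hx (hy • z) (torsion_hecke n hy hz), hcomm x⁻¹ hy z,
      ← Hy (x⁻¹ • z) (torsion_smul n _ hz), ← Hy z hz, smul_add, smul_comm x (cycE p n y)]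
  rw [sub_smul, add_smul, e1, e2, e3]
  generalize x • y • z = a
  generalize y⁻¹ • x⁻¹ • z = b
  generalize x • y⁻¹ • z = c
  generalize y • x⁻¹ • z = d
  module

end approx

/-! ### existence of representatives -/

section exists_approx

variable {p : ℕ} [Fact p.Prime] {N : ℕ} {J : Type} [AddCommGroup J] [Module HeckeAlg J]
  [DistribMulAction GQ J]

theorem ne_of_not_dvd_mul {r : ℕ} (hr : ¬ r ∣ N * p) : r ≠ p := by
  rintro rfl
  exact hr (dvd_mul_left _ _)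

/-- a Frobenius `τ` at `ℓ ∤ N p` is represented by `T_ℓ` -/
theorem approx_frob (hJ : ESDataInf N p J) (n : ℕ) {ℓ : ℕ} (hℓ : ℓ.Prime) (hℓNp : ¬ ℓ ∣ N * p)
    {A : ValuationSubring (AlgebraicClosure ℚ)} (hA : A.LiesOverPrime ℓ)
    {τ : GQ} (hτ : A.IsFrobeniusAt τ ℓ) : Approx p J n τ (heckeGen ⟨ℓ, hℓ⟩) := by
  intro x hx
  have h := hJ.frob ℓ hℓ hℓNp A hA τ hτ (τ⁻¹ • x) ⟨n, torsion_smul n τ⁻¹ hx⟩
  rw [smul_inv_smul] at h
  have he : cycE p n τ ≡ ℓ [MOD p ^ n] := by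
    rw [cycE_modEq_iff, padicCyclo_frob p ℓ hℓ (ne_of_not_dvd_mul hℓNp) A hA τ hτ, map_natCast]
  rw [nsmul_eq_of_modEq he (torsion_smul n τ⁻¹ hx)]
  have h2 : τ • x + ℓ • τ⁻¹ • x - heckeGen ⟨ℓ, hℓ⟩ • x = 0 := by
    rw [← h]; abel
  exact sub_eq_zero.mp h2

/-- every `g` has a representative at every level (weak Chebotarev + Lucas) -/
theorem exists_approx (hcheb : Cheb.WeakChebotarev) (hJ : ESDataInf N p J) (S : Finset ℕ)
    (hgood : ∀ r : ℕ, r.Prime → r ∉ S → ¬ r ∣ N * p) (n : ℕ) (g : GQ) :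
    ∃ h ∈ MvPolynomial.supported ℤ (outsideVars (↑S : Set ℕ)), Approx p J n g h := by
  have hp : p.Prime := Fact.out
  obtain ⟨E, hEfin, hE⟩ := exists_common_field hJ n
  have hM0 : p ^ n ≠ 0 := pow_ne_zero n hp.ne_zero
  have : NeZero ((p ^ n : ℕ) : AlgebraicClosure ℚ) := ⟨Nat.cast_ne_zero.mpr hM0⟩
  obtain ⟨ζ, hζ⟩ := HasEnoughRootsOfUnity.exists_primitiveRoot (AlgebraicClosure ℚ) (p ^ n)
  have hζfin : FiniteDimensional ℚ (IntermediateField.adjoin ℚ {ζ}) :=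
    IntermediateField.adjoin.finiteDimensional ((hζ.isIntegral (Nat.pos_of_ne_zero hM0)).tower_top)
  obtain ⟨F, hFfin, hFgal, hEF, -, hζF⟩ :=
    exists_galois_hull E E (IntermediateField.adjoin ℚ {ζ})
  have hζF' : ζ ∈ F := hζF (IntermediateField.mem_adjoin_simple_self ℚ ζ)
  have hF : ∀ σ : GQ, (∀ a ∈ F, σ a = a) → ∀ x : J, p ^ n • x = 0 → σ • x = x :=
    fun σ h => hE σ fun a ha => h a (hEF ha)
  obtain ⟨ℓ, A, τ, m, hℓ, hℓS, hA, hτ, hg⟩ := hcheb F S g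
  have hℓNp := hgood ℓ hℓ hℓS
  refine ⟨lucasS (heckeGen ⟨ℓ, hℓ⟩) (ℓ : HeckeAlg) m, ?_, ?_⟩
  · refine lucasS_mem_subalgebra _ ?_ (natCast_mem _ ℓ) m
    exact (MvPolynomial.X_mem_supported (R := ℤ)).mpr hℓS
  · intro x hx
    have h1 := lucas_galois hJ n F hF hℓ hℓNp hA hτ m g hg hx
    have hζ1 : ζ ^ (p ^ n) = 1 := hζ.pow_eq_one
    have h2 : (τ ^ m) ζ = ζ ^ (ℓ ^ m) :=
      frob_pow_rootOfUnity A (natCast_pow_not_mem_nonunits A hp hℓ (ne_of_not_dvd_mul hℓNp) hA n)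
        hM0 hτ hζ1 m
    have h3 : g ζ = ζ ^ (ℓ ^ m) := by rw [← hg ζ hζF', h2]
    have he : cycE p n g ≡ ℓ ^ m [MOD p ^ n] := cycE_of_apply p n g _ hζ h3
    rw [nsmul_eq_of_modEq he (torsion_smul n g⁻¹ hx)]
    exact h1

/-- adic continuity at finite level: there is a finite extension `E/ℚ` such that `σ g` and `g`
have the same representatives at level `n` for all `σ` fixing `E` -/
theorem exists_field_approx (hJ : ESDataInf N p J) (n : ℕ) :
    ∃ E : IntermediateField ℚ (AlgebraicClosure ℚ), FiniteDimensional ℚ E ∧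
      ∀ σ : GQ, (∀ a ∈ E, σ a = a) → ∀ (g : GQ) (h : HeckeAlg),
        Approx p J n g h → Approx p J n (σ * g) h := by
  have hp : p.Prime := Fact.out
  obtain ⟨E, hEfin, hE⟩ := exists_common_field hJ n
  have hM0 : p ^ n ≠ 0 := pow_ne_zero n hp.ne_zero
  have : NeZero ((p ^ n : ℕ) : AlgebraicClosure ℚ) := ⟨Nat.cast_ne_zero.mpr hM0⟩
  obtain ⟨ζ, hζ⟩ := HasEnoughRootsOfUnity.exists_primitiveRoot (AlgebraicClosure ℚ) (p ^ n)
  have hζfin : FiniteDimensional ℚ (IntermediateField.adjoin ℚ {ζ}) :=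
    IntermediateField.adjoin.finiteDimensional ((hζ.isIntegral (Nat.pos_of_ne_zero hM0)).tower_top)
  obtain ⟨F, hFfin, hFgal, hEF, -, hζF⟩ :=
    exists_galois_hull E E (IntermediateField.adjoin ℚ {ζ})
  have hζF' : ζ ∈ F := hζF (IntermediateField.mem_adjoin_simple_self ℚ ζ)
  refine ⟨F, hFfin, ?_⟩
  intro σ hσ g h H
  apply approx_mul_left_of_trivial (fun x hx => hE σ (fun a ha => hσ a (hEF ha)) x hx) _ H
  apply cycE_of_apply p n σ 1 hζ
  rw [pow_one]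
  exact hσ ζ hζF'

/-- inertia at `q ∤ N p`: `σ g` and `g` have the same representatives -/
theorem approx_inertia (hJ : ESDataInf N p J) (n : ℕ) {q : ℕ} (hq : q.Prime)
    (hqNp : ¬ q ∣ N * p) {P : ValuationSubring (AlgebraicClosure ℚ)} (hP : P.LiesOverPrime q)
    {σ : GQ} (hσ : σ ∈ P.inertiaSubgroupIn ℚ) {g : GQ} {h : HeckeAlg}
    (H : Approx p J n g h) : Approx p J n (σ * g) h := by
  apply approx_mul_left_of_trivial (fun x hx => hJ.unram q hq hqNp P hP σ hσ x ⟨n, hx⟩) _ H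
  exact cycE_of_eq_one p n σ (padicCyclo_inertia p q hq (ne_of_not_dvd_mul hqNp) P hP σ hσ)

end exists_approx

/-! ### faithfulness and the limit -/

section limit

variable {p : ℕ} [Fact p.Prime] {N : ℕ} [NeZero N] {J : Type} [AddCommGroup J]
  [Module HeckeAlg J] [DistribMulAction GQ J] (S : Finset ℕ) {𝒪' : Type*} [CommRing 𝒪']
  (χ : CuspForm.heckeAlgebra N 2 (↑S : Set ℕ) →+* 𝒪')

/-- the value of `χ` on Hecke polynomials -/
def chiHom : HeckeAlg →+* 𝒪' := χ.comp (evalS N (↑S : Set ℕ)).toRingHom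

theorem chiHom_apply (h : HeckeAlg) : chiHom S χ h = χ (evalS N (↑S : Set ℕ) h) := rfl

theorem chiHom_heckeGen {ℓ : ℕ} (hℓ : ℓ.Prime) (hℓN : ¬ ℓ ∣ N) (hℓS : ℓ ∉ (↑S : Set ℕ)) :
    chiHom S χ (heckeGen ⟨ℓ, hℓ⟩) = χ (CuspForm.heckeAlgebra.T hℓ hℓN hℓS) := by
  rw [chiHom_apply, evalS_heckeGen hℓ hℓN hℓS]

variable (p J) in
/-- level `n` is good for the precision `k`: a Hecke polynomial (in the variables outside `S`)
killing `J[p ^ n]` has `χ`-value divisible by `p ^ k` -/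
def Good (k n : ℕ) : Prop :=
  ∀ h ∈ MvPolynomial.supported ℤ (outsideVars (↑S : Set ℕ)),
    (∀ x : J, p ^ n • x = 0 → h • x = 0) → chiHom S χ h ∈ Ideal.span {(p : 𝒪') ^ k}

variable {S χ}

omit [Fact p.Prime] [DistribMulAction GQ J] in
theorem Good.mono_level {k n n' : ℕ} (h : Good p J S χ k n) (hn : n ≤ n') : Good p J S χ k n' :=
  fun t ht hkill => h t ht (fun x hx => hkill x (torsion_le hn hx))

omit [Fact p.Prime] [DistribMulAction GQ J] in
theorem Good.mono_prec {k k' n : ℕ} (h : Good p J S χ k n) (hk : k' ≤ k) : Good p J S χ k' n := by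
  intro t ht hkill
  exact (Ideal.span_singleton_le_span_singleton.mpr (pow_dvd_pow _ hk)) (h t ht hkill)

variable (S χ)

omit [Fact p.Prime] [DistribMulAction GQ J] in
theorem exists_good (hfaith : ESFaith N p J) (hgoodN : ∀ r : ℕ, r.Prime → r ∉ S → ¬ r ∣ N)
    (hgood : ∀ r : ℕ, r.Prime → r ∉ S → ¬ r ∣ N * p) (k : ℕ) :
    ∃ n : ℕ, k ≤ n ∧ Good p J S χ k n := by
  set Sg : Set Nat.Primes := outsideVars (↑S : Set ℕ) with hSgdef
  have hSg : Sg ⊆ goodPrimes N p := fun r hr => hgood r r.2 hr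
  have hSg' : ∀ r ∈ Sg, ¬ (r : ℕ) ∣ N ∧ (r : ℕ) ∉ (↑S : Set ℕ) := fun r hr =>
    ⟨hgoodN r r.2 hr, hr⟩
  obtain ⟨n, hn⟩ := hfaith Sg hSg k
  have hG : Good p J S χ k n := by
    intro D hDsupp hDkill
    obtain ⟨s, hs, hDs⟩ := hn D hDsupp hDkill
    have hev : evalS N (↑S : Set ℕ) D = (p : ℤ) ^ k • evalS N (↑S : Set ℕ) s := by
      apply Subtype.ext
      rw [coe_evalS_eq hSg' hDsupp, hDs]
      have := coe_evalS_eq hSg' hs
      rw [Subalgebra.coe_smul, Subalgebra.coe_smul, this]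
    rw [chiHom_apply, hev, map_zsmul, zsmul_eq_mul, Int.cast_pow, Int.cast_natCast]
    exact Ideal.mem_span_singleton'.mpr ⟨_, mul_comm _ _⟩
  exact ⟨max k n, le_max_left _ _, hG.mono_level (le_max_right _ _)⟩

variable {S χ}

/-- two representatives of `g` at good levels have the same `χ`-value modulo `p ^ k` -/
theorem approx_unique {k n n' : ℕ} (hn : Good p J S χ k n) (hn' : Good p J S χ k n') {g : GQ}
    {h h' : HeckeAlg} (hh : h ∈ MvPolynomial.supported ℤ (outsideVars (↑S : Set ℕ)))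
    (hh' : h' ∈ MvPolynomial.supported ℤ (outsideVars (↑S : Set ℕ)))
    (H : Approx p J n g h) (H' : Approx p J n' g h') :
    chiHom S χ h - chiHom S χ h' ∈ Ideal.span {(p : 𝒪') ^ k} := by
  rw [← map_sub]
  rcases le_total n n' with hle | hle
  · apply hn _ (sub_mem hh hh')
    intro x hx
    rw [sub_smul, ← H x hx, ← approx_restrict hle H' x hx, sub_self]
  · apply hn' _ (sub_mem hh hh')
    intro x hx
    rw [sub_smul, ← H' x hx, ← approx_restrict hle H x hx, sub_self]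

omit [Fact p.Prime] [NeZero N] in
theorem span_pow_le (I : Ideal 𝒪') (hpI : (p : 𝒪') ∈ I) (k : ℕ) :
    Ideal.span {(p : 𝒪') ^ k} ≤ I ^ k := by
  rw [Ideal.span_singleton_le_iff_mem]
  exact Ideal.pow_mem_pow hpI k

/-- **the trace function**: `t g` is the limit of the `χ`-values of the representatives of `g`. -/
theorem exists_traceFun (I : Ideal 𝒪') [IsAdicComplete I 𝒪'] (hpI : (p : 𝒪') ∈ I)
    (hcheb : Cheb.WeakChebotarev) (hJ : ESDataInf N p J) (hfaith : ESFaith N p J)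
    (hgoodN : ∀ r : ℕ, r.Prime → r ∉ S → ¬ r ∣ N)
    (hgood : ∀ r : ℕ, r.Prime → r ∉ S → ¬ r ∣ N * p) :
    ∃ t : GQ → 𝒪', ∀ (g : GQ) (k n : ℕ) (h : HeckeAlg), Good p J S χ k n →
      h ∈ MvPolynomial.supported ℤ (outsideVars (↑S : Set ℕ)) → Approx p J n g h →
        t g - chiHom S χ h ∈ I ^ k := by
  choose lvl hlvl_ge hlvl using exists_good (J := J) S χ hfaith hgoodN hgood
  have hex : ∀ (g : GQ) (k : ℕ), ∃ h ∈ MvPolynomial.supported ℤ (outsideVars (↑S : Set ℕ)),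
      Approx p J (lvl k) g h := fun g k => exists_approx hcheb hJ S hgood (lvl k) g
  choose H hHsupp hHapprox using hex
  have hcauchy : ∀ g : GQ, ∃ L : 𝒪', ∀ k : ℕ,
      chiHom S χ (H g k) ≡ L [SMOD (I ^ k • ⊤ : Submodule 𝒪' 𝒪')] := by
    intro g
    apply IsPrecomplete.prec (I := I) (M := 𝒪') inferInstance
    intro m n hmn
    rw [SModEq.sub_mem, smul_eq_mul, Ideal.mul_top]
    exact span_pow_le I hpI m (approx_unique (hlvl m) ((hlvl n).mono_prec hmn)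
      (hHsupp g m) (hHsupp g n) (hHapprox g m) (hHapprox g n))
  choose t ht using hcauchy
  refine ⟨t, fun g k n h hG hh hA => ?_⟩
  have h1 := ht g k
  rw [SModEq.sub_mem, smul_eq_mul, Ideal.mul_top] at h1
  have h2 := span_pow_le I hpI k (approx_unique (hlvl k) hG (hHsupp g k) hh (hHapprox g k) hA)
  have : t g - chiHom S χ h = -(chiHom S χ (H g k) - t g)
      + (chiHom S χ (H g k) - chiHom S χ h) := by ring
  rw [this]
  exact add_mem (neg_mem h1) h2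

end limit

/-! ### the pseudo-character -/

/-- a 2-dimensional pseudo-character `t` with determinant `ε` -/
structure IsPseudoChar2 {G R : Type*} [Group G] [CommRing R] (ε : G →* Rˣ) (t : G → R) :
    Prop where
  map_one : t 1 = 2
  comm : ∀ x y : G, t (x * y) = t (y * x)
  mul : ∀ x y : G, t (x * y) + (ε y : R) * t (x * y⁻¹) = t x * t y

section main

variable {p : ℕ} [Fact p.Prime] {N : ℕ} [NeZero N] {J : Type} [AddCommGroup J]
  [Module HeckeAlg J] [DistribMulAction GQ J] {S : Finset ℕ} {𝒪' : Type*} [CommRing 𝒪']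
  {χ : CuspForm.heckeAlgebra N 2 (↑S : Set ℕ) →+* 𝒪'}

omit [Fact p.Prime] [NeZero N] in
theorem eq_of_forall_sub_mem (I : Ideal 𝒪') [IsAdicComplete I 𝒪'] {a b : 𝒪'}
    (h : ∀ k : ℕ, a - b ∈ I ^ k) : a = b := by
  rw [← sub_eq_zero]
  apply IsHausdorff.haus (I := I) (M := 𝒪') inferInstance
  intro k
  rw [SModEq.sub_mem, sub_zero, smul_eq_mul, Ideal.mul_top]
  exact h k

/-- the properties of the trace function -/
theorem pseudoChar_of_spec (I : Ideal 𝒪') [IsAdicComplete I 𝒪'] (hpI : (p : 𝒪') ∈ I)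
    (hcheb : Cheb.WeakChebotarev) (hJ : ESDataInf N p J) (hfaith : ESFaith N p J)
    (hgoodN : ∀ r : ℕ, r.Prime → r ∉ S → ¬ r ∣ N)
    (hgood : ∀ r : ℕ, r.Prime → r ∉ S → ¬ r ∣ N * p)
    (t : GQ → 𝒪')
    (ht : ∀ (g : GQ) (k n : ℕ) (h : HeckeAlg), Good p J S χ k n →
      h ∈ MvPolynomial.supported ℤ (outsideVars (↑S : Set ℕ)) → Approx p J n g h →
        t g - chiHom S χ h ∈ I ^ k) :
    IsPseudoChar2 (cycloCharO p I hpI) t ∧
    (∀ (ℓ : ℕ) (hℓ : ℓ.Prime) (hℓN : ¬ ℓ ∣ N) (hℓS : ℓ ∉ (↑S : Set ℕ)),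
      ∀ A : ValuationSubring (AlgebraicClosure ℚ), A.LiesOverPrime ℓ →
        ∀ τ : GQ, A.IsFrobeniusAt τ ℓ → t τ = χ (CuspForm.heckeAlgebra.T hℓ hℓN hℓS)) ∧
    (∀ q : ℕ, q.Prime → ¬ q ∣ N * p → ∀ P : ValuationSubring (AlgebraicClosure ℚ),
      P.LiesOverPrime q → ∀ σ ∈ P.inertiaSubgroupIn ℚ, ∀ g : GQ, t (σ * g) = t g) ∧
    (∀ k : ℕ, ∃ E : IntermediateField ℚ (AlgebraicClosure ℚ), FiniteDimensional ℚ E ∧
      ∀ σ : GQ, (∀ a ∈ E, σ a = a) → ∀ g : GQ, t (σ * g) - t g ∈ I ^ k) := by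
  have hG := exists_good (J := J) S χ hfaith hgoodN hgood
  have hA := fun n g => exists_approx hcheb hJ S hgood n g
  -- a general principle: same representative ⇒ congruent values
  have hsame : ∀ (k n : ℕ) (g g' : GQ) (h : HeckeAlg), Good p J S χ k n →
      h ∈ MvPolynomial.supported ℤ (outsideVars (↑S : Set ℕ)) → Approx p J n g h →
      Approx p J n g' h → t g' - t g ∈ I ^ k := by
    intro k n g g' h hGn hh H H'
    have h1 := ht g k n h hGn hh H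
    have h2 := ht g' k n h hGn hh H'
    have : t g' - t g = (t g' - chiHom S χ h) - (t g - chiHom S χ h) := by ring
    rw [this]
    exact sub_mem h2 h1
  refine ⟨⟨?_, ?_, ?_⟩, ?_, ?_, ?_⟩
  · -- `t 1 = 2`
    apply eq_of_forall_sub_mem I
    intro k
    obtain ⟨n, -, hn⟩ := hG k
    have := ht 1 k n 2 hn (ofNat_mem _ 2) (approx_one n)
    rwa [map_ofNat] at this
  · -- `t (x y) = t (y x)`
    intro x y
    apply eq_of_forall_sub_mem I
    intro k
    obtain ⟨n, -, hn⟩ := hG k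
    obtain ⟨h, hh, H⟩ := hA n (y * x)
    have H' := approx_conj hJ.smul_comm H y⁻¹
    have e : y⁻¹ * (y * x) * y⁻¹⁻¹ = x * y := by group
    rw [e] at H'
    exact hsame k n (y * x) (x * y) h hn hh H H'
  · -- the pseudo-character identity
    intro x y
    apply eq_of_forall_sub_mem I
    intro k
    obtain ⟨n, hkn, hn⟩ := hG k
    obtain ⟨hx, hhx, Hx⟩ := hA n x
    obtain ⟨hy, hhy, Hy⟩ := hA n y
    obtain ⟨hxy, hhxy, Hxy⟩ := hA n (x * y)
    obtain ⟨hxy', hhxy', Hxy'⟩ := hA n (x * y⁻¹)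
    have hD := approx_mul hJ.smul_comm Hx Hy Hxy Hxy'
    have hDsupp : hxy + (cycE p n y : HeckeAlg) * hxy' - hx * hy ∈
        MvPolynomial.supported ℤ (outsideVars (↑S : Set ℕ)) :=
      sub_mem (add_mem hhxy (mul_mem (natCast_mem _ _) hhxy')) (mul_mem hhx hhy)
    have h0 := span_pow_le I hpI k (hn _ hDsupp hD)
    rw [map_sub, map_add, map_mul, map_mul, map_natCast] at h0
    have h1 := ht x k n hx hn hhx Hx
    have h2 := ht y k n hy hn hhy Hy
    have h3 := ht (x * y) k n hxy hn hhxy Hxy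
    have h4 := ht (x * y⁻¹) k n hxy' hn hhxy' Hxy'
    have h5 : ((cycloCharO p I hpI y : 𝒪'ˣ) : 𝒪') - (cycE p n y : 𝒪') ∈ I ^ k :=
      Ideal.pow_le_pow_right hkn (span_pow_le I hpI n (cycloCharO_sub_cycE p I hpI n y))
    rw [← Ideal.Quotient.eq_zero_iff_mem] at h0 h1 h2 h3 h4 h5 ⊢
    rw [map_sub, sub_eq_zero] at h1 h2 h3 h4 h5
    simp only [map_sub, map_add, map_mul] at h0 ⊢
    rw [h1, h2, h3, h4, h5]
    exact h0
  · -- Frobenius
    intro ℓ hℓ hℓN hℓS A hAℓ τ hτ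
    apply eq_of_forall_sub_mem I
    intro k
    obtain ⟨n, -, hn⟩ := hG k
    have hℓNp : ¬ ℓ ∣ N * p := hgood ℓ hℓ hℓS
    have := ht τ k n (heckeGen ⟨ℓ, hℓ⟩) hn
      ((MvPolynomial.X_mem_supported (R := ℤ)).mpr hℓS) (approx_frob hJ n hℓ hℓNp hAℓ hτ)
    rwa [chiHom_heckeGen S χ hℓ hℓN hℓS] at this
  · -- inertia
    intro q hq hqNp P hP σ hσ g
    apply eq_of_forall_sub_mem I
    intro k
    obtain ⟨n, -, hn⟩ := hG k
    obtain ⟨h, hh, H⟩ := hA n g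
    exact hsame k n g (σ * g) h hn hh H (approx_inertia hJ n hq hqNp hP hσ H)
  · -- continuity
    intro k
    obtain ⟨n, -, hn⟩ := hG k
    obtain ⟨E, hEfin, hE⟩ := exists_field_approx (J := J) hJ n
    refine ⟨E, hEfin, fun σ hσ g => ?_⟩
    obtain ⟨h, hh, H⟩ := hA n g
    exact hsame k n g (σ * g) h hn hh H (hE σ hσ g h H)

/-- **S30 input (I).** From weak Chebotarev and the faithful `p`-adic Eichler–Shimura package:
for every `χ : heckeAlgebra N 2 S →+* 𝒪'` (`𝒪'` `I`-adically complete, `p ∈ I`) there is a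
2-dimensional pseudo-character `t : G_ℚ → 𝒪'` with determinant the cyclotomic character,
`t(Frob_ℓ) = χ(T_ℓ)` for `ℓ ∉ S`, trivial on inertia at `q ∤ N p`, and adically continuous. -/
theorem exists_pseudoChar (hcheb : Cheb.WeakChebotarev) (hpkg : ESPkgFaith N p)
    (hpS : p ∈ S) (hNS : ∀ q : ℕ, q.Prime → q ∣ N → q ∈ S)
    (I : Ideal 𝒪') [IsAdicComplete I 𝒪'] (hpI : (p : 𝒪') ∈ I)
    (χ : CuspForm.heckeAlgebra N 2 (↑S : Set ℕ) →+* 𝒪') :
    ∃ t : GQ → 𝒪', IsPseudoChar2 (cycloCharO p I hpI) t ∧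
    (∀ (ℓ : ℕ) (hℓ : ℓ.Prime) (hℓN : ¬ ℓ ∣ N) (hℓS : ℓ ∉ (↑S : Set ℕ)),
      ∀ A : ValuationSubring (AlgebraicClosure ℚ), A.LiesOverPrime ℓ →
        ∀ τ : GQ, A.IsFrobeniusAt τ ℓ → t τ = χ (CuspForm.heckeAlgebra.T hℓ hℓN hℓS)) ∧
    (∀ q : ℕ, q.Prime → ¬ q ∣ N * p → ∀ P : ValuationSubring (AlgebraicClosure ℚ),
      P.LiesOverPrime q → ∀ σ ∈ P.inertiaSubgroupIn ℚ, ∀ g : GQ, t (σ * g) = t g) ∧
    (∀ k : ℕ, ∃ E : IntermediateField ℚ (AlgebraicClosure ℚ), FiniteDimensional ℚ E ∧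
      ∀ σ : GQ, (∀ a ∈ E, σ a = a) → ∀ g : GQ, t (σ * g) - t g ∈ I ^ k) := by
  have hp : p.Prime := Fact.out
  obtain ⟨J, _, _, _, hJ, hfaith⟩ := hpkg
  have hgoodN : ∀ r : ℕ, r.Prime → r ∉ S → ¬ r ∣ N := fun r hr hrS h => hrS (hNS r hr h)
  have hgood : ∀ r : ℕ, r.Prime → r ∉ S → ¬ r ∣ N * p := by
    intro r hr hrS h
    rcases (Nat.Prime.dvd_mul hr).mp h with h | h
    · exact hrS (hNS r hr h)
    · have : r = p := (Nat.prime_dvd_prime_iff_eq hr hp).mp h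
      exact hrS (this ▸ hpS)
  obtain ⟨t, ht⟩ := exists_traceFun (J := J) (χ := χ) I hpI hcheb hJ hfaith hgoodN hgood
  exact ⟨t, pseudoChar_of_spec I hpI hcheb hJ hfaith hgoodN hgood t ht⟩

end main

end Fermat.Agent.S30

end
end ZBS30_001_0

/-! ### bundled: `Fermat.Agent.RT.K8.Plan` -/
section ZBS30_001_1

/-!
# RT-K8 (new at `q ∥ M` ⇒ ramified at `q`): the interface

* `GeoClause p J S χ q A φ` : the geometric clause **(G)**.  There is a Hecke polynomial `C₀` in the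
  variables outside `S` with `χ(C₀) ≠ 0` such that, for every `p`-power torsion point `x` of `J`
  fixed by the inertia group of `A ∣ q`,   `φ² (C₀ x) = q² (C₀ x)`.
* `StmtK8Abs` : the abstract theorem.  For a `G_ℚ × Hecke`-module `J` carrying the faithful
  `p`-adic Eichler–Shimura package, a function `t : G_ℚ → 𝒪'` with the specification of the trace
  function of S30 (`𝒪'` a noetherian local domain of characteristic `0` with `p ∈ 𝔪`), which is
  not "reducible" (`t (g₁ g₂ g₃) ≠ t (g₂ g₁ g₃)` for some `g₁ g₂ g₃`), a prime `q ≠ p`, a place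
  `A ∣ q` with a Frobenius `φ`, and **(G)**:

    some `σ` in the inertia group of `A` and some `g` have `t (g σ) ≠ t g`.

Proved in `Fermat/Agent/RT/K8/Abs.lean` (`Fermat.Agent.RT.K8.stmtK8Abs`); see NOTES/RT-K8.md.
-/

set_option autoImplicit false

namespace Fermat.Agent.RT.K8

open ModularCurve Fermat.Agent.ES Fermat.Agent.S31 Fermat.Agent.S30

/-- the geometric clause **(G)** -/
def GeoClause (p : ℕ) {N : ℕ} [NeZero N] (J : Type) [AddCommGroup J] [Module HeckeAlg J]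
    [DistribMulAction GQ J] (S : Finset ℕ) {𝒪' : Type} [CommRing 𝒪']
    (χ : CuspForm.heckeAlgebra N 2 (↑S : Set ℕ) →+* 𝒪') (q : ℕ)
    (A : ValuationSubring (AlgebraicClosure ℚ)) (φ : GQ) : Prop :=
  ∃ C₀ ∈ MvPolynomial.supported ℤ (outsideVars (↑S : Set ℕ)), chiHom S χ C₀ ≠ 0 ∧
    ∀ x : J, IsPPowerTorsion p x → (∀ σ ∈ A.inertiaSubgroupIn ℚ, σ • x = x) →
      (φ * φ) • (C₀ • x) = (q ^ 2) • (C₀ • x)

/-- **K8**, abstract form. -/
def StmtK8Abs : Prop :=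
  ∀ (p N : ℕ) [Fact p.Prime] [NeZero N]
    (J : Type) [AddCommGroup J] [Module HeckeAlg J] [DistribMulAction GQ J]
    (S : Finset ℕ)
    (𝒪' : Type) [CommRing 𝒪'] [IsDomain 𝒪'] [IsLocalRing 𝒪'] [IsNoetherianRing 𝒪'] [CharZero 𝒪']
    (χ : CuspForm.heckeAlgebra N 2 (↑S : Set ℕ) →+* 𝒪'),
    (p : 𝒪') ∈ IsLocalRing.maximalIdeal 𝒪' →
    Cheb.WeakChebotarev → ESDataInf N p J → ESFaith N p J →
    (∀ r : ℕ, r.Prime → r ∉ S → ¬ r ∣ N) →
    (∀ r : ℕ, r.Prime → r ∉ S → ¬ r ∣ N * p) →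
    ∀ t : GQ → 𝒪',
    (∀ (g : GQ) (k n : ℕ) (h : HeckeAlg), Good p J S χ k n →
      h ∈ MvPolynomial.supported ℤ (outsideVars (↑S : Set ℕ)) → Approx p J n g h →
        t g - chiHom S χ h ∈ IsLocalRing.maximalIdeal 𝒪' ^ k) →
    (∃ g₁ g₂ g₃ : GQ, t (g₁ * g₂ * g₃) ≠ t (g₂ * g₁ * g₃)) →
    ∀ q : ℕ, q.Prime → q ≠ p →
    ∀ A : ValuationSubring (AlgebraicClosure ℚ), A.LiesOverPrime q →
    ∀ φ : GQ, A.IsFrobeniusAt φ q →
    GeoClause p J S χ q A φ →
    ∃ σ ∈ A.inertiaSubgroupIn ℚ, ∃ g : GQ, t (g * σ) ≠ t g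

end Fermat.Agent.RT.K8


end ZBS30_001_1

/-! ### bundled: `Fermat.Agent.S35.FinalAbs` -/
section ZBS30_001_2

/-!
# STB-F (S35, phase 2 of item 34), abstract part (helper76)

`J` a `G_ℚ × Hecke`-module with the `p`-adic Eichler–Shimura data (`ESDataInf`, `ESFaith`),
`t : G_ℚ → 𝒪'` the trace function of `S30.exists_traceFun` (characterised by its spec).

`s35f_trace_sq` : let `σ` be a Frobenius element at `q ≠ p` and `P` a Hecke polynomial in the
variables outside `S` with `χ(P) ≠ 0` such that `(σ⁴ − (q² + 1) σ² + q²) (P x) = 0` for all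
`p`-power torsion `x` (this is (P7-a) on the `q`-new part, which contains `P · J[p^∞]`).
Then `t(σ)² = (q + 1)²`.

`s35f_trace_eq_or` : hence `t σ = q + 1 ∨ t σ = −(q + 1)` (`𝒪'` a domain).
-/

set_option autoImplicit false

noncomputable section

namespace Fermat.Agent.S35

open ModularCurve Fermat.Agent.ES Fermat.Agent.S31 Fermat.Agent.S30

section Finite

variable {p : ℕ} [Fact p.Prime] {J : Type} [AddCommGroup J] [Module HeckeAlg J]
  [DistribMulAction GQ J]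

/-- **finite level.**  If `h` represents `σ + q σ⁻¹` on `J[pⁿ]` and `y ∈ J[pⁿ]` satisfies
`σ⁴ y + q² y = (q² + 1) σ² y`, then `(h² − (q + 1)²) y = 0`. -/
theorem s35f_kills {n : ℕ} {σ : GQ} {h : HeckeAlg} (H : Approx p J n σ h) {q : ℕ}
    (he : cycE p n σ ≡ q [MOD p ^ n]) {y : J} (hy : p ^ n • y = 0)
    (hnew : σ • σ • σ • σ • y + q ^ 2 • y = (q ^ 2 + 1) • (σ • σ • y)) :
    (h * h - (((q + 1) ^ 2 : ℕ) : HeckeAlg)) • y = 0 := by
  -- `h y = σ y + q σ⁻¹ y`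
  have h1 : h • y = σ • y + q • (σ⁻¹ • y) := by
    rw [← H y hy, nsmul_eq_of_modEq he (torsion_smul n σ⁻¹ hy)]
  have hhy : p ^ n • (h • y) = 0 := torsion_hecke n h hy
  have h2 : h • (h • y) = σ • (h • y) + q • (σ⁻¹ • (h • y)) := by
    rw [← H (h • y) hhy, nsmul_eq_of_modEq he (torsion_smul n σ⁻¹ hhy)]
  -- apply `σ⁻²` to `hnew`
  have a1 : σ⁻¹ • σ⁻¹ • (σ • σ • σ • σ • y) = σ • σ • y := by
    rw [inv_smul_smul, inv_smul_smul]
  have a2 : σ⁻¹ • σ⁻¹ • (q ^ 2 • y) = q ^ 2 • (σ⁻¹ • σ⁻¹ • y) := by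
    rw [smul_comm σ⁻¹ (q ^ 2) y, smul_comm σ⁻¹ (q ^ 2) (σ⁻¹ • y)]
  have a3 : σ⁻¹ • σ⁻¹ • ((q ^ 2 + 1) • (σ • σ • y)) = (q ^ 2 + 1) • y := by
    rw [smul_comm σ⁻¹ (q ^ 2 + 1) (σ • σ • y), smul_comm σ⁻¹ (q ^ 2 + 1) (σ⁻¹ • σ • σ • y),
      inv_smul_smul, inv_smul_smul]
  have h3 : σ • σ • y + q ^ 2 • (σ⁻¹ • σ⁻¹ • y) = (q ^ 2 + 1) • y := by
    rw [← a1, ← a2, ← a3, ← smul_add, ← smul_add, hnew]
  -- expand `h (h y)`
  have b1 : σ • (σ • y + q • (σ⁻¹ • y)) = σ • σ • y + q • y := by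
    rw [smul_add, smul_comm σ q (σ⁻¹ • y), smul_inv_smul]
  have b2 : σ⁻¹ • (σ • y + q • (σ⁻¹ • y)) = y + q • (σ⁻¹ • σ⁻¹ • y) := by
    rw [smul_add, inv_smul_smul, smul_comm σ⁻¹ q (σ⁻¹ • y)]
  have h4 : σ • σ • y = (q ^ 2 + 1) • y - q ^ 2 • (σ⁻¹ • σ⁻¹ • y) := by
    rw [← h3]; abel
  rw [sub_smul, mul_smul, Nat.cast_smul_eq_nsmul, h2, h1, b1, b2, h4]
  generalize σ⁻¹ • σ⁻¹ • y = z
  module

end Finite

section Limit

variable {p : ℕ} [Fact p.Prime] {N : ℕ} [NeZero N] {J : Type} [AddCommGroup J]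
  [Module HeckeAlg J] [DistribMulAction GQ J] {S : Finset ℕ} {𝒪' : Type*} [CommRing 𝒪']
  {χ : CuspForm.heckeAlgebra N 2 (↑S : Set ℕ) →+* 𝒪'}

/-- **(P7) from (P7-a) + (P7-b), abstract form**: `t(σ)² = (q + 1)²`. -/
theorem s35f_trace_sq [IsDomain 𝒪'] (I : Ideal 𝒪') [IsAdicComplete I 𝒪'] (hpI : (p : 𝒪') ∈ I)
    (hcheb : Cheb.WeakChebotarev) (hJ : ESDataInf N p J) (hfaith : ESFaith N p J)
    (hgoodN : ∀ r : ℕ, r.Prime → r ∉ S → ¬ r ∣ N)
    (hgood : ∀ r : ℕ, r.Prime → r ∉ S → ¬ r ∣ N * p)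
    (t : GQ → 𝒪')
    (ht : ∀ (g : GQ) (k n : ℕ) (h : HeckeAlg), Good p J S χ k n →
      h ∈ MvPolynomial.supported ℤ (outsideVars (↑S : Set ℕ)) → Approx p J n g h →
        t g - chiHom S χ h ∈ I ^ k)
    {q : ℕ} (hq : q.Prime) (hqp : q ≠ p)
    (A : ValuationSubring (AlgebraicClosure ℚ)) (hA : A.LiesOverPrime q)
    (σ : GQ) (hσ : A.IsFrobeniusAt σ q)
    (P : HeckeAlg) (hP : P ∈ MvPolynomial.supported ℤ (outsideVars (↑S : Set ℕ)))
    (hχP : chiHom S χ P ≠ 0)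
    (hnew : ∀ x : J, IsPPowerTorsion p x →
      σ • σ • σ • σ • (P • x) + q ^ 2 • (P • x) = (q ^ 2 + 1) • (σ • σ • (P • x))) :
    t σ * t σ = ((q : 𝒪') + 1) ^ 2 := by
  have key : ∀ k : ℕ, t σ * t σ * chiHom S χ P - ((q : 𝒪') + 1) ^ 2 * chiHom S χ P ∈ I ^ k := by
    intro k
    obtain ⟨n, -, hG⟩ := exists_good (J := J) S χ hfaith hgoodN hgood k
    obtain ⟨h, hh, H⟩ := exists_approx hcheb hJ S hgood n σ
    have he : cycE p n σ ≡ q [MOD p ^ n] := by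
      rw [cycE_modEq_iff, padicCyclo_frob p q hq hqp A hA σ hσ, map_natCast]
    have hsupp : (h * h - (((q + 1) ^ 2 : ℕ) : HeckeAlg)) * P
        ∈ MvPolynomial.supported ℤ (outsideVars (↑S : Set ℕ)) :=
      mul_mem (sub_mem (mul_mem hh hh) (natCast_mem _ _)) hP
    have hkill : ∀ x : J, p ^ n • x = 0 →
        ((h * h - (((q + 1) ^ 2 : ℕ) : HeckeAlg)) * P) • x = 0 := by
      intro x hx
      rw [mul_smul]
      exact s35f_kills H he (torsion_hecke n P hx) (hnew x ⟨n, hx⟩)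
    have h1 := span_pow_le I hpI k (hG _ hsupp hkill)
    rw [map_mul, map_sub, map_mul, map_natCast] at h1
    have h2 := ht σ k n h hG hh H
    have e : t σ * t σ * chiHom S χ P - ((q : 𝒪') + 1) ^ 2 * chiHom S χ P
        = (t σ - chiHom S χ h) * ((t σ + chiHom S χ h) * chiHom S χ P)
          + (chiHom S χ h * chiHom S χ h - (((q + 1) ^ 2 : ℕ) : 𝒪')) * chiHom S χ P := by
      push_cast
      ring
    rw [e]
    exact add_mem (Ideal.mul_mem_right _ _ h2) h1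
  have h0 := eq_of_forall_sub_mem I key
  exact mul_right_cancel₀ hχP h0

/-- **(P7), abstract form**: `t σ = q + 1 ∨ t σ = −(q + 1)`. -/
theorem s35f_trace_eq_or [IsDomain 𝒪'] (I : Ideal 𝒪') [IsAdicComplete I 𝒪'] (hpI : (p : 𝒪') ∈ I)
    (hcheb : Cheb.WeakChebotarev) (hJ : ESDataInf N p J) (hfaith : ESFaith N p J)
    (hgoodN : ∀ r : ℕ, r.Prime → r ∉ S → ¬ r ∣ N)
    (hgood : ∀ r : ℕ, r.Prime → r ∉ S → ¬ r ∣ N * p)
    (t : GQ → 𝒪')
    (ht : ∀ (g : GQ) (k n : ℕ) (h : HeckeAlg), Good p J S χ k n →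
      h ∈ MvPolynomial.supported ℤ (outsideVars (↑S : Set ℕ)) → Approx p J n g h →
        t g - chiHom S χ h ∈ I ^ k)
    {q : ℕ} (hq : q.Prime) (hqp : q ≠ p)
    (A : ValuationSubring (AlgebraicClosure ℚ)) (hA : A.LiesOverPrime q)
    (σ : GQ) (hσ : A.IsFrobeniusAt σ q)
    (P : HeckeAlg) (hP : P ∈ MvPolynomial.supported ℤ (outsideVars (↑S : Set ℕ)))
    (hχP : chiHom S χ P ≠ 0)
    (hnew : ∀ x : J, IsPPowerTorsion p x →
      σ • σ • σ • σ • (P • x) + q ^ 2 • (P • x) = (q ^ 2 + 1) • (σ • σ • (P • x))) :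
    t σ = (q : 𝒪') + 1 ∨ t σ = -((q : 𝒪') + 1) := by
  have h := s35f_trace_sq I hpI hcheb hJ hfaith hgoodN hgood t ht hq hqp A hA σ hσ P hP hχP hnew
  have h2 : (t σ - ((q : 𝒪') + 1)) * (t σ + ((q : 𝒪') + 1)) = 0 := by
    have : (t σ - ((q : 𝒪') + 1)) * (t σ + ((q : 𝒪') + 1))
        = t σ * t σ - ((q : 𝒪') + 1) ^ 2 := by ring
    rw [this, h, sub_self]
  rcases mul_eq_zero.mp h2 with h3 | h3
  · left; exact sub_eq_zero.mp h3
  · right; exact eq_neg_of_add_eq_zero_left h3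

end Limit

end Fermat.Agent.S35

end
end ZBS30_001_2

/-! ### bundled: `Fermat.Agent.S35.FinalPDiv` -/
section ZBS30_001_3

/-!
# STB-F (S35, phase 2 of item 34), the `q`-new part of `PDiv (M₁ q) p` (helper76)

`J := PDiv (M₁ * q) p`, the `p`-divisible torsion of `J₀(M₁ q)(ℚ̄)` with the Hecke module structure
`pDivModule` and the Galois action `pDivGalois`.

* `StmtNewMem` : (P2) + (P3) in the form of `STB.stb_p3_new` (helper92, helper59): if a Hecke
  polynomial `P` in good variables kills the cusp forms of level `M₁` then `P x` is `q`-new.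
* `s35f_hnew` : hence `(σ⁴ − (q² + 1) σ² + q²)(P x) = 0` (from (P7-a) = `StmtNewFrobJ`).
-/

set_option autoImplicit false

noncomputable section

namespace Fermat.Agent.S35

open ModularCurve Fermat.Agent.ES Fermat.Agent.S31 Fermat.Agent.S30 Fermat.Agent.STB

/-- **(P2) + (P3)** (= `STB.stb_p3_new`): a Hecke polynomial in the good variables of level
`M₁ q` which vanishes on `S₂(Γ₀(M₁))` maps `PDiv (M₁ q) p` into the `q`-new part. -/
def StmtNewMem : Prop :=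
  ∀ (M₁ q p : ℕ) [NeZero M₁] [NeZero q], p.Prime → q.Prime → ¬ q ∣ M₁ → ∀ t : HeckeAlg,
    t ∈ MvPolynomial.supported ℤ (goodPrimes (M₁ * q) p) → CuspForm.heckeEvalForms M₁ 2 t = 0 →
      ∀ x : PDiv (M₁ * q) p,
        (((letI := pDivModule (M₁ * q) p; t • x) : PDiv (M₁ * q) p) : JZero (M₁ * q)) ∈
          stbNew M₁ q

section New

variable {M₁ q : ℕ} [NeZero M₁] [NeZero q] {p : ℕ} [Fact p.Prime]

/-- **(P7-a) on `P · PDiv`**: `(σ⁴ − (q² + 1) σ² + q²)(P x) = 0`. -/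
theorem s35f_hnew (hNF : StmtNewFrobJ M₁ q p) (hNM : StmtNewMem) (hq : q.Prime)
    (hqM₁ : ¬ q ∣ M₁)
    (S : Finset ℕ) (hgood : ∀ r : ℕ, r.Prime → r ∉ S → ¬ r ∣ M₁ * q * p)
    (P : HeckeAlg) (hP : P ∈ MvPolynomial.supported ℤ (outsideVars (↑S : Set ℕ)))
    (hP0 : CuspForm.heckeEvalForms M₁ 2 P = 0)
    (A₀ : ValuationSubring (AlgebraicClosure ℚ)) (hA : A₀.LiesOverPrime q)
    (σ : GQ) (hσ : A₀.IsFrobeniusAt σ q) (x : PDiv (M₁ * q) p) :
    letI := pDivModule (M₁ * q) p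
    letI := pDivGalois (M₁ * q) p
    σ • σ • σ • σ • (P • x) + q ^ 2 • (P • x) = (q ^ 2 + 1) • (σ • σ • (P • x)) := by
  have hp : p.Prime := Fact.out
  have hsub : outsideVars (↑S : Set ℕ) ⊆ goodPrimes (M₁ * q) p :=
    fun ℓ hℓ => hgood (ℓ : ℕ) ℓ.2 hℓ
  have hPgood : P ∈ MvPolynomial.supported ℤ (goodPrimes (M₁ * q) p) :=
    MvPolynomial.supported_mono hsub hP
  have hnew := hNM M₁ q p hp hq hqM₁ P hPgood hP0 x
  have h := hNF A₀ hA σ hσ _ (isPPowerTorsion_coe _) hnew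
  apply Subtype.ext
  rw [AddSubgroup.coe_add, coe_nsmul_pDiv, coe_nsmul_pDiv]
  exact h

end New

end Fermat.Agent.S35

end
end ZBS30_001_3

/-! ### bundled: `Fermat.Agent.S35.Final` -/
section ZBS30_001_4

/-!
# STB-F: S35 (frozen type) from the inputs of plan STB (helper76)

`s35_of_stb` : the statement of S35, verbatim, from

* `hNF` : `STB.StmtNewFrobJ M₁ q p` for all `q ∤ M₁`, `p ≠ q`        ((P7-a), target of STB-MG/STB-J),
* `hNP : StmtNewPoly`  (a Hecke polynomial killing level `M₁` with `χ_g(P) ≠ 0`; STB-P1, helper46),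
* `hNM : StmtNewMem`  (`P = 0` on `S₂(Γ₀(M₁))` ⇒ `P · PDiv (M₁ q) p` is `q`-new;
  STB-P2 + STB-P3 = `STB.stb_p3_new`, helper59 + helper92).

and from the (landed) inputs of the Eichler–Shimura package, kept as hypotheses here to keep the
import closure of this file small: `hcheb : Cheb.WeakChebotarev` (`Cheb.weakChebotarev_holds`) and
`hES : StmtESIn` (`ES.torsionUnif_proved`, `ES.stmtFiniteLevel`, `ES.G2.stmtFrob_of_stmtINJAll`,
`ES.G2.stmtUnram_of_stmtINJAll` with `INJ.injAll_stmtINJAll`).  They are discharged in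
`S35/FinalInputs.lean`.

Everything else is landed: the trace function and the pseudo-character (`S30/PseudoChar.lean`),
Wiles' lemma (`s35_of_pseudoChar`).
-/

set_option autoImplicit false

open Polynomial

noncomputable section

namespace Fermat.Agent.S35

open ModularCurve Fermat.Agent.ES Fermat.Agent.S31 Fermat.Agent.S30 Fermat.Agent.STB

/-- **(P1)**, in the form consumed by S35: for a newform `g` of level `M` and a proper divisor
`M₁` of `M` there is a Hecke polynomial `P` in the variables outside `S` which kills the cusp forms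
of level `M₁` and with `χ_g(P) ≠ 0` (STB-P1, helper46: `stb_p1` + its corollary (b)). -/
def StmtNewPoly : Prop :=
  ∀ {M : ℕ} [NeZero M] {g : CuspForm (CongruenceSubgroup.Gamma0 M) 2}, g.IsNewform →
    ∀ (M₁ : ℕ) [NeZero M₁], M₁ ∣ M → M₁ ≠ M →
      ∀ (S : Finset ℕ), (∀ q : ℕ, q.Prime → q ∣ M → q ∈ S) →
        ∀ (O' : Type) [CommRing O'] [IsDomain O'] [CharZero O']
          (chig : CuspForm.heckeAlgebra M 2 (↑S : Set ℕ) →+* ℂ),
          (∀ (ℓ : ℕ) (hℓ : ℓ.Prime) (hℓM : ¬ ℓ ∣ M) (hℓS : ℓ ∉ (↑S : Set ℕ)),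
            chig (CuspForm.heckeAlgebra.T hℓ hℓM hℓS) = ModularFormClass.qCoeff g ℓ) →
          ∀ iota : chig.range →+* O',
            ∃ P ∈ MvPolynomial.supported ℤ (outsideVars (↑S : Set ℕ)),
              CuspForm.heckeEvalForms M₁ 2 P = 0 ∧
                iota (chig.rangeRestrict (evalS M (↑S : Set ℕ) P)) ≠ 0

/-- the inputs of the Eichler–Shimura package on `PDiv N p` (all landed: `ES.torsionUnif_proved`,
`ES.stmtFiniteLevel`, `ES.G2.stmtFrob_of_stmtINJAll`, `ES.G2.stmtUnram_of_stmtINJAll`). -/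
def StmtESIn : Prop :=
  ∀ (N p : ℕ) [NeZero N], p.Prime →
    TorsionUnif N p ∧ StmtFiniteLevel N p ∧ StmtFrob N p ∧ StmtUnram N p

/-- **(P7)** at level `M₁ * q` for the trace function `t` on `PDiv (M₁ * q) lam`. -/
theorem s35f_h7 (hcheb : Cheb.WeakChebotarev) (hES : StmtESIn)
    (hNF : ∀ (M₁ q p : ℕ) [NeZero M₁] [NeZero q], q.Prime → ¬ q ∣ M₁ → p.Prime → p ≠ q →
      StmtNewFrobJ M₁ q p)
    (hNP : StmtNewPoly) (hNM : StmtNewMem)
    {M₁ q lam : ℕ} [NeZero M₁] [NeZero q] [Fact lam.Prime] (hq : q.Prime) (hqM₁ : ¬ q ∣ M₁)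
    (hqlam : q ≠ lam)
    {g : CuspForm (CongruenceSubgroup.Gamma0 (M₁ * q)) 2} (hg : g.IsNewform)
    (S : Finset ℕ)
    (O' : Type) [CommRing O'] [IsDomain O'] [IsDiscreteValuationRing O']
    [IsAdicComplete (IsLocalRing.maximalIdeal O') O'] [CharZero O']
    (hlamO' : (lam : O') ∈ IsLocalRing.maximalIdeal O')
    (chig : CuspForm.heckeAlgebra (M₁ * q) 2 (↑S : Set ℕ) →+* ℂ)
    (hchig : ∀ (ℓ : ℕ) (hℓ : ℓ.Prime) (hℓM : ¬ ℓ ∣ M₁ * q) (hℓS : ℓ ∉ (↑S : Set ℕ)),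
      chig (CuspForm.heckeAlgebra.T hℓ hℓM hℓS) = ModularFormClass.qCoeff g ℓ)
    (iota : chig.range →+* O')
    (hlamS : lam ∈ S) (hMS : ∀ r : ℕ, r.Prime → r ∣ M₁ * q → r ∈ S)
    (t : GQ → O')
    (ht : letI := pDivModule (M₁ * q) lam
      ∀ (γ : GQ) (k n : ℕ) (h : HeckeAlg),
        Good lam (PDiv (M₁ * q) lam) S (iota.comp chig.rangeRestrict) k n →
        h ∈ MvPolynomial.supported ℤ (outsideVars (↑S : Set ℕ)) →
        (letI := pDivGalois (M₁ * q) lam; Approx lam (PDiv (M₁ * q) lam) n γ h) →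
          t γ - chiHom S (iota.comp chig.rangeRestrict) h ∈ IsLocalRing.maximalIdeal O' ^ k)
    (A : ValuationSubring (AlgebraicClosure ℚ)) (hA : A.LiesOverPrime q)
    (σ : GQ) (hσ : A.IsFrobeniusAt σ q) :
    t σ = (q : O') + 1 ∨ t σ = -((q : O') + 1) := by
  letI := pDivModule (M₁ * q) lam
  letI := pDivGalois (M₁ * q) lam
  have hp : lam.Prime := Fact.out
  have hp0 : lam ≠ 0 := hp.ne_zero
  obtain ⟨⟨μ, hμd⟩, hlev, hfrob, hunr⟩ := hES (M₁ * q) lam hp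
  have hm := multData_of_torsionUnifData hp0 hμd
  have hJ : ESDataInf (M₁ * q) lam (PDiv (M₁ * q) lam) := hm.esDataInf hlev hfrob hunr
  have hfaith : ESFaith (M₁ * q) lam (PDiv (M₁ * q) lam) := hm.esFaith hp0
  have hgoodN : ∀ r : ℕ, r.Prime → r ∉ S → ¬ r ∣ M₁ * q := fun r hr hrS h => hrS (hMS r hr h)
  have hgood : ∀ r : ℕ, r.Prime → r ∉ S → ¬ r ∣ M₁ * q * lam := by
    intro r hr hrS h
    rcases (Nat.Prime.dvd_mul hr).mp h with h | h
    · exact hrS (hMS r hr h)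
    · have : r = lam := (Nat.prime_dvd_prime_iff_eq hr hp).mp h
      exact hrS (this ▸ hlamS)
  have hM₁ne : M₁ ≠ M₁ * q := by
    intro h
    have h1 : M₁ * 1 = M₁ * q := by rw [mul_one]; exact h
    have h2 : 1 = q := Nat.eq_of_mul_eq_mul_left (Nat.pos_of_ne_zero (NeZero.ne M₁)) h1
    exact hq.one_lt.ne h2
  obtain ⟨P, hP, hP0, hχP⟩ := hNP hg M₁ (dvd_mul_right M₁ q) hM₁ne S hMS O' chig hchig iota
  refine s35f_trace_eq_or (J := PDiv (M₁ * q) lam) (IsLocalRing.maximalIdeal O') hlamO'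
    hcheb hJ hfaith hgoodN hgood t ht hq hqlam A hA σ hσ P hP hχP ?_
  intro x _
  exact s35f_hnew (hNF M₁ q lam hq hqM₁ hp hqlam.symm) hNM hq hqM₁ S hgood P hP hP0
    A hA σ hσ x

/-- **(P7)** at a level `M` with `q ∥ M`. -/
theorem s35f_h7_dvd (hcheb : Cheb.WeakChebotarev) (hES : StmtESIn)
    (hNF : ∀ (M₁ q p : ℕ) [NeZero M₁] [NeZero q], q.Prime → ¬ q ∣ M₁ → p.Prime → p ≠ q →
      StmtNewFrobJ M₁ q p)
    (hNP : StmtNewPoly) (hNM : StmtNewMem)
    {M q lam : ℕ} [NeZero M] [Fact lam.Prime] (hq : q.Prime) (hqM : q ∣ M) (hq2 : ¬ q ^ 2 ∣ M)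
    (hqlam : q ≠ lam)
    {g : CuspForm (CongruenceSubgroup.Gamma0 M) 2} (hg : g.IsNewform)
    (S : Finset ℕ)
    (O' : Type) [CommRing O'] [IsDomain O'] [IsDiscreteValuationRing O']
    [IsAdicComplete (IsLocalRing.maximalIdeal O') O'] [CharZero O']
    (hlamO' : (lam : O') ∈ IsLocalRing.maximalIdeal O')
    (chig : CuspForm.heckeAlgebra M 2 (↑S : Set ℕ) →+* ℂ)
    (hchig : ∀ (ℓ : ℕ) (hℓ : ℓ.Prime) (hℓM : ¬ ℓ ∣ M) (hℓS : ℓ ∉ (↑S : Set ℕ)),
      chig (CuspForm.heckeAlgebra.T hℓ hℓM hℓS) = ModularFormClass.qCoeff g ℓ)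
    (iota : chig.range →+* O')
    (hlamS : lam ∈ S) (hMS : ∀ r : ℕ, r.Prime → r ∣ M → r ∈ S)
    (t : GQ → O')
    (ht : letI := pDivModule M lam
      ∀ (γ : GQ) (k n : ℕ) (h : HeckeAlg),
        Good lam (PDiv M lam) S (iota.comp chig.rangeRestrict) k n →
        h ∈ MvPolynomial.supported ℤ (outsideVars (↑S : Set ℕ)) →
        (letI := pDivGalois M lam; Approx lam (PDiv M lam) n γ h) →
          t γ - chiHom S (iota.comp chig.rangeRestrict) h ∈ IsLocalRing.maximalIdeal O' ^ k)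
    (A : ValuationSubring (AlgebraicClosure ℚ)) (hA : A.LiesOverPrime q)
    (σ : GQ) (hσ : A.IsFrobeniusAt σ q) :
    t σ = (q : O') + 1 ∨ t σ = -((q : O') + 1) := by
  obtain ⟨M₁, hM⟩ := hqM
  have hM' : M = M₁ * q := by rw [hM, mul_comm]
  clear hM
  subst hM'
  haveI : NeZero M₁ := ⟨fun h => NeZero.ne (M₁ * q) (by rw [h, zero_mul])⟩
  haveI : NeZero q := ⟨hq.ne_zero⟩
  have hqM₁ : ¬ q ∣ M₁ := by
    rintro ⟨c, hc⟩
    apply hq2
    exact ⟨c, by rw [hc]; ring⟩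
  exact s35f_h7 hcheb hES hNF hNP hNM hq hqM₁ hqlam hg S O' hlamO' chig hchig iota hlamS hMS
    t ht A hA σ hσ

/-- **S35 verbatim**, from the inputs of plan STB. -/
theorem s35_of_stb (hcheb : Cheb.WeakChebotarev) (hES : StmtESIn)
    (hNF : ∀ (M₁ q p : ℕ) [NeZero M₁] [NeZero q], q.Prime → ¬ q ∣ M₁ → p.Prime → p ≠ q →
      StmtNewFrobJ M₁ q p)
    (hNP : StmtNewPoly) (hNM : StmtNewMem)
    {M : ℕ} [NeZero M] {g : CuspForm (CongruenceSubgroup.Gamma0 M) 2} (hg : g.IsNewform)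
    (lam : ℕ) [Fact lam.Prime]
    (S : Finset ℕ)
    (O' : Type) [CommRing O'] [IsDomain O'] [IsDiscreteValuationRing O']
    [IsAdicComplete (IsLocalRing.maximalIdeal O') O'] [Finite (IsLocalRing.ResidueField O')]
    [CharZero O'] (hlamO' : (lam : O') ∈ IsLocalRing.maximalIdeal O')
    (chig : CuspForm.heckeAlgebra M 2 (↑S : Set ℕ) →+* ℂ)
    (hchig : ∀ (ℓ : ℕ) (hℓ : ℓ.Prime) (hℓM : ¬ ℓ ∣ M) (hℓS : ℓ ∉ (↑S : Set ℕ)),
      chig (CuspForm.heckeAlgebra.T hℓ hℓM hℓS) = ModularFormClass.qCoeff g ℓ)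
    (iota : chig.range →+* O')
    (hlamS : lam ∈ S) (hMS : ∀ q : ℕ, q.Prime → q ∣ M → q ∈ S) :
    ∃ (O'' : Type) (_ : CommRing O'') (_ : IsDomain O'') (_ : IsDiscreteValuationRing O'')
      (_ : IsAdicComplete (IsLocalRing.maximalIdeal O'') O'')
      (_ : Finite (IsLocalRing.ResidueField O''))
      (_ : CharZero O'') (_ : Algebra O' O'') (_ : Module.Finite O' O'')
      (_ : IsLocalHom (algebraMap O' O'')),
      Function.Injective (algebraMap O' O'') ∧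
      ∃ ρ : GaloisRepAdic O'',
        (∀ (ℓ : ℕ) (hℓ : ℓ.Prime) (hℓM : ¬ ℓ ∣ M) (hℓS : ℓ ∉ (↑S : Set ℕ)),
          ∀ A : ValuationSubring (AlgebraicClosure ℚ), A.LiesOverPrime ℓ →
            ∀ σ : AlgebraicClosure ℚ ≃ₐ[ℚ] AlgebraicClosure ℚ, A.IsFrobeniusAt σ ℓ →
              LinearMap.charpoly (ρ.ρ σ) =
                X ^ 2 - C (algebraMap O' O'' ((iota.comp chig.rangeRestrict)
                  (CuspForm.heckeAlgebra.T hℓ hℓM hℓS))) * X
                  + C ((ℓ : O''))) ∧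
        (∀ q : ℕ, q.Prime → q ≠ lam → q ∣ M → ¬ q ^ 2 ∣ M →
          ∀ A : ValuationSubring (AlgebraicClosure ℚ), A.LiesOverPrime q →
            ∀ σ : AlgebraicClosure ℚ ≃ₐ[ℚ] AlgebraicClosure ℚ, A.IsFrobeniusAt σ q →
              LinearMap.charpoly (ρ.ρ σ) = X ^ 2 - C ((q : O'') + 1) * X + C ((q : O'')) ∨
              LinearMap.charpoly (ρ.ρ σ) = X ^ 2 + C ((q : O'') + 1) * X + C ((q : O''))) := by
  have hp : lam.Prime := Fact.out
  have hp0 : lam ≠ 0 := hp.ne_zero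
  obtain ⟨⟨μ, hμd⟩, hlev, hfrob, hunr⟩ := hES M lam hp
  have hm := multData_of_torsionUnifData hp0 hμd
  have hgoodN : ∀ r : ℕ, r.Prime → r ∉ S → ¬ r ∣ M := fun r hr hrS h => hrS (hMS r hr h)
  have hgood : ∀ r : ℕ, r.Prime → r ∉ S → ¬ r ∣ M * lam := by
    intro r hr hrS h
    rcases (Nat.Prime.dvd_mul hr).mp h with h | h
    · exact hrS (hMS r hr h)
    · have : r = lam := (Nat.prime_dvd_prime_iff_eq hr hp).mp h
      exact hrS (this ▸ hlamS)
  have hne : ∀ ℓ : ℕ, ℓ ∉ (↑S : Set ℕ) → ℓ ≠ lam := by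
    rintro ℓ hℓS rfl
    exact hℓS hlamS
  have key : ∃ t : GQ → O',
      IsPseudoChar2 (cycloCharO lam (IsLocalRing.maximalIdeal O') hlamO') t ∧
      (∀ (ℓ : ℕ) (hℓ : ℓ.Prime) (hℓN : ¬ ℓ ∣ M) (hℓS : ℓ ∉ (↑S : Set ℕ)),
        ∀ A : ValuationSubring (AlgebraicClosure ℚ), A.LiesOverPrime ℓ →
          ∀ τ : GQ, A.IsFrobeniusAt τ ℓ →
            t τ = (iota.comp chig.rangeRestrict) (CuspForm.heckeAlgebra.T hℓ hℓN hℓS)) ∧
      (∀ k : ℕ, ∃ E : IntermediateField ℚ (AlgebraicClosure ℚ), FiniteDimensional ℚ E ∧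
        ∀ σ : GQ, (∀ a ∈ E, σ a = a) → ∀ γ : GQ,
          t (σ * γ) - t γ ∈ IsLocalRing.maximalIdeal O' ^ k) ∧
      (∀ q : ℕ, q.Prime → q ≠ lam → q ∣ M → ¬ q ^ 2 ∣ M →
        ∀ A : ValuationSubring (AlgebraicClosure ℚ), A.LiesOverPrime q →
          ∀ σ : GQ, A.IsFrobeniusAt σ q → t σ = (q : O') + 1 ∨ t σ = -((q : O') + 1)) := by
    letI := pDivModule M lam
    letI := pDivGalois M lam
    have hJ : ESDataInf M lam (PDiv M lam) := hm.esDataInf hlev hfrob hunr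
    have hfaith : ESFaith M lam (PDiv M lam) := hm.esFaith hp0
    obtain ⟨t, ht⟩ := exists_traceFun (J := PDiv M lam) (χ := iota.comp chig.rangeRestrict)
      (IsLocalRing.maximalIdeal O') hlamO' hcheb hJ hfaith hgoodN hgood
    obtain ⟨hps, h4, -, h6⟩ := pseudoChar_of_spec (IsLocalRing.maximalIdeal O') hlamO'
      hcheb hJ hfaith hgoodN hgood t ht
    refine ⟨t, hps, h4, h6, ?_⟩
    intro q hq hqlam hqM hq2 A hA σ hσ
    exact s35f_h7_dvd hcheb hES hNF hNP hNM hq hqM hq2 hqlam hg S O' hlamO' chig hchig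
      iota hlamS hMS t ht A hA σ hσ
  obtain ⟨t, ⟨h1, h2, h3⟩, h4, h6, h7⟩ := key
  refine s35_of_pseudoChar lam M S O' (iota.comp chig.rangeRestrict) t
    ((Units.coeHom O').comp (cycloCharO lam (IsLocalRing.maximalIdeal O') hlamO'))
    complexConjugation h1 h2 h3 complexConjugation_mul_self
    (cycloCharO_conj lam (IsLocalRing.maximalIdeal O') hlamO') ?_ h6 ?_
  · intro ℓ hℓ hℓN hℓS A hA σ hσ
    exact ⟨h4 ℓ hℓ hℓN hℓS A hA σ hσ,
      cycloCharO_frob lam (IsLocalRing.maximalIdeal O') hlamO' ℓ hℓ (hne ℓ hℓS) A hA σ hσ⟩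
  · intro q hq hqlam hqM hq2 A hA σ hσ
    exact ⟨h7 q hq hqlam hqM hq2 A hA σ hσ,
      cycloCharO_frob lam (IsLocalRing.maximalIdeal O') hlamO' q hq hqlam A hA σ hσ⟩

end Fermat.Agent.S35

end
end ZBS30_001_4
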