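/- GENERATED FILE (helper35, build-time optimisation, NOTES/ZB.md): verbatim concatenation of the modules
   Fermat.Agent.STB.P1Conj
   Fermat.Agent.STB.P1Smo
   Fermat.Agent.STB.NewPoly
   Fermat.Agent.RT.Interp.Eigen
   Do not edit; do not import together with these modules. -/
import Mathlib
import Fermat.Agent.ZB.S30_001
import Fermat.Agent.ZB.S49_001
import Fermat.Agent.ZB.Cheb_002
import Fermat.Agent.ZB.Common_003
import Fermat.Agent.ZB.S23_001
import Fermat.Agent.ZB.S22_001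
import Fermat.Agent.ZB.S49_003
import Fermat.Agent.ZB.S49_002
import Fermat.Prelude.Def_CuspForm_Newforms
import Fermat.Agent.ZB.S49_004

/-! ### bundled: `Fermat.Agent.STB.P1Conj` -/
section ZBSTB_006_0

/-!
# STB-P1, field theory (helper46)

* `stb_p1_exists_equiv` : a ring automorphism of `ℚ̄ ⊂ ℂ` extends to a ring automorphism of `ℂ`;
* `stb_p1_exists_sigma` : two ring homomorphisms `ψ, χ : A → ℂ` with integral values and
  `ker ψ ≤ ker χ` are conjugate: `χ = σ ∘ ψ` for a ring automorphism `σ` of `ℂ`;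
* `stb_p1_eq_zero_of_forall_pow_mul` : an algebraic integer divisible by `p ^ k` for all `k` in the
  ring of all algebraic integers is zero.
-/

set_option autoImplicit false

namespace Fermat.Agent.STB

open MvPolynomial

/-- A ring automorphism of the algebraic closure of `ℚ` in `ℂ` extends to `ℂ`. -/
theorem stb_p1_exists_equiv (τ : algebraicClosure ℚ ℂ ≃+* algebraicClosure ℚ ℂ) :
    ∃ σ : ℂ ≃+* ℂ, ∀ z : algebraicClosure ℚ ℂ, σ (z : ℂ) = (τ z : ℂ) := by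
  obtain ⟨s, hs⟩ := exists_isTranscendenceBasis (algebraicClosure ℚ ℂ) ℂ
  have := IsAlgClosed.isAlgClosure_of_transcendence_basis ((↑) : s → ℂ) hs
  let e : Algebra.adjoin (algebraicClosure ℚ ℂ) (Set.range ((↑) : s → ℂ)) ≃+*
      Algebra.adjoin (algebraicClosure ℚ ℂ) (Set.range ((↑) : s → ℂ)) :=
    hs.1.aevalEquiv.symm.toRingEquiv.trans
      ((MvPolynomial.mapEquiv s τ).trans hs.1.aevalEquiv.toRingEquiv)
  refine ⟨IsAlgClosure.equivOfEquiv ℂ ℂ e, fun z => ?_⟩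
  have h1 : (hs.1.aevalEquiv (C z) : ℂ) = z := by
    simp [AlgebraicIndependent.aevalEquiv_apply_coe]
  have h2 : (e (hs.1.aevalEquiv (C z)) : ℂ) = (τ z : ℂ) := by
    simp [e, AlgebraicIndependent.aevalEquiv_apply_coe]
  have h3 := IsAlgClosure.equivOfEquiv_algebraMap ℂ ℂ e (hs.1.aevalEquiv (C z))
  have h4 : algebraMap (Algebra.adjoin (algebraicClosure ℚ ℂ) (Set.range ((↑) : s → ℂ))) ℂ
      (hs.1.aevalEquiv (C z)) = z := h1
  have h5 : algebraMap (Algebra.adjoin (algebraicClosure ℚ ℂ) (Set.range ((↑) : s → ℂ))) ℂ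
      (e (hs.1.aevalEquiv (C z))) = (τ z : ℂ) := h2
  rw [h4, h5] at h3
  exact h3


/-- If `ψ : D → ℂ` is injective with integral values, then every ring homomorphism from `D` to a
ring of characteristic zero is injective. -/
theorem stb_p1_injective_of_integral {D : Type*} [CommRing D] {R : Type*} [CommRing R]
    [CharZero R] (ψ : D →+* ℂ) (χ : D →+* R)
    (hψ : Function.Injective ψ) (hint : ∀ d, IsIntegral ℤ (ψ d)) : Function.Injective χ := by
  rw [injective_iff_map_eq_zero]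
  intro d hd
  by_contra hne
  have hψd : ψ d ≠ 0 := fun h => hne (hψ (h.trans (map_zero ψ).symm))
  have hc : (minpoly ℤ (ψ d)).coeff 0 ≠ 0 := by
    have hQ := minpoly.coeff_zero_ne_zero (A := ℚ) (hint d).tower_top hψd
    rw [minpoly.isIntegrallyClosed_eq_field_fractions' ℚ (hint d), Polynomial.coeff_map] at hQ
    intro h
    apply hQ
    rw [h, map_zero]
  have h0 : Polynomial.eval₂ (algebraMap ℤ ℂ) (ψ d) (minpoly ℤ (ψ d)) = 0 := by
    rw [← Polynomial.aeval_def]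
    exact minpoly.aeval ℤ (ψ d)
  have h1 : Polynomial.eval₂ (algebraMap ℤ D) d (minpoly ℤ (ψ d)) = 0 := by
    apply hψ
    rw [map_zero, Polynomial.hom_eval₂]
    have hc : ψ.comp (algebraMap ℤ D) = algebraMap ℤ ℂ := RingHom.ext_int _ _
    rw [hc]
    exact h0
  have h2 : Polynomial.eval₂ (algebraMap ℤ R) (χ d) (minpoly ℤ (ψ d)) = 0 := by
    have := congrArg χ h1
    rw [map_zero, Polynomial.hom_eval₂] at this
    have hc : χ.comp (algebraMap ℤ D) = algebraMap ℤ R := RingHom.ext_int _ _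
    rw [hc] at this
    exact this
  rw [hd, Polynomial.eval₂_at_zero] at h2
  apply hc
  have h3 : (((minpoly ℤ (ψ d)).coeff 0 : ℤ) : R) = 0 := h2
  exact_mod_cast h3

/-- Two ring homomorphisms `ψ, χ : A → ℂ` with `ψ` integral-valued and `ker ψ ≤ ker χ` are
conjugate under a ring automorphism of `ℂ`. -/
theorem stb_p1_exists_sigma {A : Type*} [CommRing A] (ψ χ : A →+* ℂ)
    (hint : ∀ a, IsIntegral ℤ (ψ a)) (hker : RingHom.ker ψ ≤ RingHom.ker χ) :
    ∃ σ : ℂ ≃+* ℂ, ∀ a, σ (ψ a) = χ a := by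
  classical
  have hprime : (RingHom.ker ψ).IsPrime := RingHom.ker_isPrime ψ
  obtain ⟨ψb, hψb⟩ : ∃ ψb : A ⧸ RingHom.ker ψ →+* ℂ, ψb = RingHom.kerLift ψ := ⟨_, rfl⟩
  have hψinj : Function.Injective ψb := hψb ▸ RingHom.kerLift_injective ψ
  have hψmk : ∀ a, ψb (Ideal.Quotient.mk _ a) = ψ a := fun a => by
    rw [hψb]
    exact RingHom.kerLift_mk ψ a
  obtain ⟨χb, hχb⟩ : ∃ χb : A ⧸ RingHom.ker ψ →+* ℂ,
      χb = Ideal.Quotient.lift (RingHom.ker ψ) χ (fun a ha => hker ha) := ⟨_, rfl⟩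
  have hχmk : ∀ a, χb (Ideal.Quotient.mk _ a) = χ a := fun a => by
    rw [hχb]
    exact Ideal.Quotient.lift_mk _ _ _
  have hintb : ∀ d, IsIntegral ℤ (ψb d) := by
    intro d
    obtain ⟨a, rfl⟩ := Ideal.Quotient.mk_surjective d
    rw [hψmk]
    exact hint a
  have hχinj : Function.Injective χb := stb_p1_injective_of_integral ψb χb hψinj hintb
  have hψQ : ∀ d, ψb d ∈ algebraicClosure ℚ ℂ := fun d =>
    mem_algebraicClosure_iff.mpr
      ((hintb d).isAlgebraic.extendScalars (algebraMap ℤ ℚ).injective_int)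
  obtain ⟨i₁, hi₁⟩ : ∃ i₁ : A ⧸ RingHom.ker ψ →+* algebraicClosure ℚ ℂ,
      i₁ = ψb.codRestrict (algebraicClosure ℚ ℂ) hψQ := ⟨_, rfl⟩
  have hi₁c : ∀ d, ((i₁ d : algebraicClosure ℚ ℂ) : ℂ) = ψb d := fun d => by rw [hi₁]; rfl
  have hi₁inj : Function.Injective i₁ := fun a b hab => hψinj (by rw [← hi₁c, ← hi₁c, hab])
  let alg1 : Algebra (A ⧸ RingHom.ker ψ) (algebraicClosure ℚ ℂ) := i₁.toAlgebra
  let alg2 : Algebra (A ⧸ RingHom.ker ψ) ℂ := χb.toAlgebra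
  have hQalg : Algebra.IsAlgebraic ℚ (algebraicClosure ℚ ℂ) := algebraicClosure.isAlgebraic ℚ ℂ
  have htf1 : Module.IsTorsionFree (A ⧸ RingHom.ker ψ) (algebraicClosure ℚ ℂ) :=
    Module.isTorsionFree_iff_algebraMap_injective.mpr hi₁inj
  have htf2 : Module.IsTorsionFree (A ⧸ RingHom.ker ψ) ℂ :=
    Module.isTorsionFree_iff_algebraMap_injective.mpr hχinj
  have halg : Algebra.IsAlgebraic (A ⧸ RingHom.ker ψ) (algebraicClosure ℚ ℂ) := by
    refine ⟨fun z => ?_⟩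
    have hz : IsAlgebraic ℤ z := by
      have hzQ : IsAlgebraic ℚ z := Algebra.IsAlgebraic.isAlgebraic z
      exact (IsFractionRing.isAlgebraic_iff ℤ ℚ (algebraicClosure ℚ ℂ)).mpr hzQ
    obtain ⟨P, hP0, hP⟩ := hz
    refine ⟨P.map (algebraMap ℤ (A ⧸ RingHom.ker ψ)), ?_, ?_⟩
    · intro h
      apply hP0
      have hinjZ : Function.Injective (algebraMap ℤ (A ⧸ RingHom.ker ψ)) := by
        intro m n hmn
        have := congrArg ψb hmn
        simpa using this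
      exact (Polynomial.map_eq_zero_iff hinjZ).mp h
    · rw [Polynomial.aeval_map_algebraMap]
      exact hP
  obtain ⟨τ₀⟩ : Nonempty (algebraicClosure ℚ ℂ →ₐ[A ⧸ RingHom.ker ψ] ℂ) :=
    ⟨IsAlgClosed.lift⟩
  have hτ₀Q : ∀ z, τ₀ z ∈ algebraicClosure ℚ ℂ := by
    intro z
    rw [mem_algebraicClosure_iff]
    have hzQ : IsAlgebraic ℚ z := Algebra.IsAlgebraic.isAlgebraic z
    obtain ⟨P, hP0, hP⟩ := hzQ
    refine ⟨P, hP0, ?_⟩
    have h1 : Polynomial.eval₂ (algebraMap ℚ (algebraicClosure ℚ ℂ)) z P = 0 := by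
      rw [← Polynomial.aeval_def]; exact hP
    have h2 := congrArg (τ₀ : algebraicClosure ℚ ℂ →+* ℂ) h1
    rw [map_zero, Polynomial.hom_eval₂] at h2
    have hc : (τ₀ : algebraicClosure ℚ ℂ →+* ℂ).comp (algebraMap ℚ (algebraicClosure ℚ ℂ)) =
        algebraMap ℚ ℂ := RingHom.ext_rat _ _
    rw [hc] at h2
    rw [Polynomial.aeval_def]
    exact h2
  obtain ⟨τ₁, hτ₁⟩ : ∃ τ₁ : algebraicClosure ℚ ℂ →ₐ[ℚ] algebraicClosure ℚ ℂ,
      ∀ z, ((τ₁ z : algebraicClosure ℚ ℂ) : ℂ) = τ₀ z :=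
    ⟨((τ₀ : algebraicClosure ℚ ℂ →+* ℂ).codRestrict (algebraicClosure ℚ ℂ) hτ₀Q).toRatAlgHom,
      fun z => rfl⟩
  have hbij : Function.Bijective τ₁ := Algebra.IsAlgebraic.algHom_bijective τ₁
  obtain ⟨σ, hσ⟩ := stb_p1_exists_equiv (AlgEquiv.ofBijective τ₁ hbij).toRingEquiv
  refine ⟨σ, fun a => ?_⟩
  have h1 : ψ a = ((i₁ (Ideal.Quotient.mk _ a) : algebraicClosure ℚ ℂ) : ℂ) := by
    rw [hi₁c, hψmk]
  rw [h1, hσ]
  have h2 : ((AlgEquiv.ofBijective τ₁ hbij).toRingEquiv (i₁ (Ideal.Quotient.mk _ a)) :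
      algebraicClosure ℚ ℂ) = τ₁ (i₁ (Ideal.Quotient.mk _ a)) := rfl
  rw [h2, hτ₁]
  have h3 : τ₀ (i₁ (Ideal.Quotient.mk _ a)) = χb (Ideal.Quotient.mk _ a) :=
    τ₀.commutes (Ideal.Quotient.mk _ a)
  rw [h3, hχmk]


/-- A nonzero algebraic integer divides a nonzero rational integer in the ring of algebraic
integers. -/
theorem stb_p1_exists_int_eq_mul {x : ℂ} (hx : IsIntegral ℤ x) (hx0 : x ≠ 0) :
    ∃ (c : ℤ) (w : ℂ), c ≠ 0 ∧ IsIntegral ℤ w ∧ (c : ℂ) = x * w := by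
  have hc : (minpoly ℤ x).coeff 0 ≠ 0 := by
    have hQ := minpoly.coeff_zero_ne_zero (A := ℚ) hx.tower_top hx0
    rw [minpoly.isIntegrallyClosed_eq_field_fractions' ℚ hx, Polynomial.coeff_map] at hQ
    intro h
    apply hQ
    rw [h, map_zero]
  refine ⟨(minpoly ℤ x).coeff 0, - Polynomial.aeval x (minpoly ℤ x).divX, hc, ?_, ?_⟩
  · apply IsIntegral.neg
    have h1 := Polynomial.aeval_subalgebra_coe (minpoly ℤ x).divX (integralClosure ℤ ℂ) ⟨x, hx⟩
    rw [← h1]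
    exact (Polynomial.aeval (⟨x, hx⟩ : integralClosure ℤ ℂ) (minpoly ℤ x).divX).2
  · have h0 : Polynomial.aeval x (minpoly ℤ x) = 0 := minpoly.aeval ℤ x
    have h1 : Polynomial.aeval x (minpoly ℤ x) =
        x * Polynomial.aeval x (minpoly ℤ x).divX + (((minpoly ℤ x).coeff 0 : ℤ) : ℂ) := by
      conv_lhs => rw [← Polynomial.X_mul_divX_add (minpoly ℤ x)]
      rw [map_add, map_mul, Polynomial.aeval_X, Polynomial.aeval_C]
      rfl
    rw [h0] at h1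
    linear_combination -h1

/-- An algebraic integer which is divisible by `p ^ k` for every `k`, in the ring of all algebraic
integers, is zero. -/
theorem stb_p1_eq_zero_of_forall_pow_mul {p : ℕ} (hp : 1 < p) (x : ℂ)
    (h : ∀ k : ℕ, ∃ y : ℂ, IsIntegral ℤ y ∧ x = (p : ℂ) ^ k * y) : x = 0 := by
  by_contra hx0
  have hx : IsIntegral ℤ x := by
    obtain ⟨y, hy, hxy⟩ := h 0
    rw [hxy, pow_zero, one_mul]
    exact hy
  obtain ⟨c, w, hc, hw, hcw⟩ := stb_p1_exists_int_eq_mul hx hx0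
  have hdvd : ∀ k : ℕ, ((p : ℤ) ^ k) ∣ c := by
    intro k
    obtain ⟨y, hy, hxy⟩ := h k
    have hp0 : (p : ℂ) ^ k ≠ 0 := pow_ne_zero _ (Nat.cast_ne_zero.mpr (by omega))
    have hyw : IsIntegral ℤ (y * w) := hy.mul hw
    have hq : y * w = (((c : ℚ) / (p : ℚ) ^ k : ℚ) : ℂ) := by
      push_cast
      rw [eq_div_iff hp0, hcw, hxy]
      ring
    rw [hq] at hyw
    have hyw' : IsIntegral ℤ ((c : ℚ) / (p : ℚ) ^ k : ℚ) :=
      (isIntegral_algebraMap_iff (algebraMap ℚ ℂ).injective).mp hyw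
    obtain ⟨m, hm⟩ := IsIntegrallyClosed.isIntegral_iff.mp hyw'
    refine ⟨m, ?_⟩
    have hp0' : (p : ℚ) ^ k ≠ 0 := pow_ne_zero _ (Nat.cast_ne_zero.mpr (by omega))
    have h2 : (c : ℚ) = (p : ℚ) ^ k * (m : ℚ) := by
      have : (m : ℚ) = (c : ℚ) / (p : ℚ) ^ k := hm
      rw [this]
      field_simp
    exact_mod_cast h2
  have h1 := hdvd c.natAbs
  have h2 : p ^ c.natAbs ∣ c.natAbs := by
    have := Int.natAbs_dvd_natAbs.mpr h1
    rwa [Int.natAbs_pow, Int.natAbs_natCast] at this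
  have h3 : p ^ c.natAbs ≤ c.natAbs :=
    Nat.le_of_dvd (Int.natAbs_pos.mpr hc) h2
  exact absurd h3 (not_le.mpr (Nat.lt_pow_self hp))

end Fermat.Agent.STB


end ZBSTB_006_0

/-! ### bundled: `Fermat.Agent.STB.P1Smo` -/
section ZBSTB_006_1

/-!
# STB-P1, strong multiplicity one from the Eichler–Shimura package (helper46)

* `stb_p1_esDataInf_prod` : the `p`-adic Eichler–Shimura data of levels `M` and `M₁ ∣ M` give
  Eichler–Shimura data of level `M` on the product;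
* `stb_p1_eval_eigen`, `stb_p1_isIntegral_heckeValue`, `stb_p1_heckeValue_congr` : Hecke polynomials
  on normalised eigenforms;
* `stb_p1_smo_core`, `stb_p1_smo` : **strong multiplicity one**: normalised eigenforms `g`, `f₁`
  of levels `M`, `M₁ ∣ M` with `a_ℓ(f₁) = a_ℓ(g)` for all primes `ℓ` outside a finite set have
  `a_ℓ(f₁) = a_ℓ(g)` for all primes `ℓ ∤ M`.
-/

set_option autoImplicit false

noncomputable section

namespace Fermat.Agent.STB

open ModularCurve Fermat.Agent.ES Fermat.Agent.S31 Fermat.Agent.S30 ModularFormClass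
  CongruenceSubgroup

section prod

variable {M M₁ p : ℕ} {J J' : Type} [AddCommGroup J] [Module HeckeAlg J] [DistribMulAction GQ J]
  [AddCommGroup J'] [Module HeckeAlg J'] [DistribMulAction GQ J']

/-- Eichler–Shimura data of levels `M` and `M₁ ∣ M` give Eichler–Shimura data on the product. -/
theorem stb_p1_esDataInf_prod (hM₁ : M₁ ∣ M) (hJ : ESDataInf M p J) (hJ' : ESDataInf M₁ p J') :
    ESDataInf M p (J × J') where
  finite n := by
    refine ((hJ.finite n).prod (hJ'.finite n)).subset ?_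
    rintro ⟨x, y⟩ hxy
    have h1 : p ^ n • x = 0 := congrArg Prod.fst hxy
    have h2 : p ^ n • y = 0 := congrArg Prod.snd hxy
    exact ⟨h1, h2⟩
  divisible := by
    rintro ⟨x, y⟩ ⟨n, hn⟩
    obtain ⟨x', ⟨a, ha⟩, hx'⟩ := hJ.divisible x ⟨n, congrArg Prod.fst hn⟩
    obtain ⟨y', ⟨b, hb⟩, hy'⟩ := hJ'.divisible y ⟨n, congrArg Prod.snd hn⟩
    refine ⟨(x', y'), ⟨max a b, ?_⟩, ?_⟩
    · exact Prod.ext (torsion_le (le_max_left a b) ha) (torsion_le (le_max_right a b) hb)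
    · exact Prod.ext hx' hy'
  smul_comm σ t := by
    rintro ⟨x, y⟩
    exact Prod.ext (hJ.smul_comm σ t x) (hJ'.smul_comm σ t y)
  finite_level := by
    rintro ⟨x, y⟩ ⟨n, hn⟩
    obtain ⟨E₁, hE₁, h₁⟩ := hJ.finite_level x ⟨n, congrArg Prod.fst hn⟩
    obtain ⟨E₂, hE₂, h₂⟩ := hJ'.finite_level y ⟨n, congrArg Prod.snd hn⟩
    refine ⟨E₁ ⊔ E₂, IntermediateField.finiteDimensional_sup E₁ E₂, fun σ hσ => ?_⟩
    have hle₁ : E₁ ≤ E₁ ⊔ E₂ := le_sup_left
    have hle₂ : E₂ ≤ E₁ ⊔ E₂ := le_sup_right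
    exact Prod.ext (h₁ σ fun a ha => hσ a (hle₁ ha)) (h₂ σ fun a ha => hσ a (hle₂ ha))
  frob ℓ hℓ hℓMp A hA τ hτ := by
    rintro ⟨x, y⟩ ⟨n, hn⟩
    have hℓ' : ¬ ℓ ∣ M₁ * p := fun h => hℓMp (h.trans (Nat.mul_dvd_mul_right hM₁ p))
    exact Prod.ext (hJ.frob ℓ hℓ hℓMp A hA τ hτ x ⟨n, congrArg Prod.fst hn⟩)
      (hJ'.frob ℓ hℓ hℓ' A hA τ hτ y ⟨n, congrArg Prod.snd hn⟩)
  unram ℓ hℓ hℓMp A hA σ hσ := by
    rintro ⟨x, y⟩ ⟨n, hn⟩
    have hℓ' : ¬ ℓ ∣ M₁ * p := fun h => hℓMp (h.trans (Nat.mul_dvd_mul_right hM₁ p))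
    exact Prod.ext (hJ.unram ℓ hℓ hℓMp A hA σ hσ x ⟨n, congrArg Prod.fst hn⟩)
      (hJ'.unram ℓ hℓ hℓ' A hA σ hσ y ⟨n, congrArg Prod.snd hn⟩)
  supp g hg 𝔪 h𝔪 hp𝔪 := by
    obtain ⟨v, hv, hpv, hvt⟩ := hJ.supp g hg 𝔪 h𝔪 hp𝔪
    have h0 : p • (0 : J') = 0 := smul_zero _
    refine ⟨(v, 0), fun h => hv (congrArg Prod.fst h), Prod.ext hpv h0, ?_⟩
    intro t ht hz
    have h1 : t • (0 : J') = 0 := smul_zero _
    exact Prod.ext (hvt t ht hz) h1

end prod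


section eigen

variable {N : ℕ} [NeZero N]

omit [NeZero N] in
theorem stb_p1_heckeValue_X (g : CuspForm (Gamma0 N) 2) (ℓ : Nat.Primes) :
    heckeValue g (MvPolynomial.X ℓ) = qCoeff ⇑g ℓ := by
  unfold heckeValue
  exact MvPolynomial.aeval_X _ ℓ

omit [NeZero N] in
theorem stb_p1_heckeValue_algebraMap (g : CuspForm (Gamma0 N) 2) (r : ℤ) :
    heckeValue g (algebraMap ℤ HeckeAlg r) = (r : ℂ) := by
  unfold heckeValue
  rw [AlgHom.commutes]
  rfl

omit [NeZero N] in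
theorem stb_p1_heckeValue_add (g : CuspForm (Gamma0 N) 2) (x y : HeckeAlg) :
    heckeValue g (x + y) = heckeValue g x + heckeValue g y := by
  unfold heckeValue
  exact map_add _ x y

omit [NeZero N] in
theorem stb_p1_heckeValue_sub (g : CuspForm (Gamma0 N) 2) (x y : HeckeAlg) :
    heckeValue g (x - y) = heckeValue g x - heckeValue g y := by
  unfold heckeValue
  exact map_sub _ x y

omit [NeZero N] in
theorem stb_p1_heckeValue_mul (g : CuspForm (Gamma0 N) 2) (x y : HeckeAlg) :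
    heckeValue g (x * y) = heckeValue g x * heckeValue g y := by
  unfold heckeValue
  exact map_mul _ x y

/-- a Hecke polynomial in good variables acts on a normalised eigenform through `heckeValue` -/
theorem stb_p1_eval_eigen (g : CuspForm (Gamma0 N) 2) (hg : g.IsNormalizedEigenform)
    {Sg : Set Nat.Primes} (hSg : ∀ ℓ ∈ Sg, ¬ (ℓ : ℕ) ∣ N) {t : HeckeAlg}
    (ht : t ∈ MvPolynomial.supported ℤ Sg) :
    ((CuspForm.heckeEvalForms N 2 t : CuspForm.heckeAlgebra N 2 ∅) :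
      Module.End ℂ (CuspForm (Gamma0 N) 2)) g = heckeValue g t • g := by
  rw [MvPolynomial.supported_eq_adjoin_X] at ht
  induction ht using Algebra.adjoin_induction with
  | mem x hx =>
    obtain ⟨ℓ, hℓ, rfl⟩ := hx
    have h1 : CuspForm.heckeEvalForms N 2 (MvPolynomial.X ℓ) =
        CuspForm.heckeAlgebra.T ℓ.2 (hSg ℓ hℓ) (Set.notMem_empty _) :=
      CuspForm.heckeEvalForms_heckeGen_of_not_dvd (N := N) (k := 2) (ℓ := ℓ) (hSg ℓ hℓ)
    rw [h1, CuspForm.heckeAlgebra.coe_T, stb_p1_heckeValue_X]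
    exact Fermat.Agent.S42.heckeTLin_apply_eq_smul g hg ℓ.2 (hSg ℓ hℓ)
  | algebraMap r =>
    have h1 : CuspForm.heckeEvalForms N 2 (algebraMap ℤ HeckeAlg r) =
        algebraMap ℤ (CuspForm.heckeAlgebra N 2 ∅) r := CuspForm.heckeEvalForms_C N 2 r
    rw [h1, stb_p1_heckeValue_algebraMap, Subalgebra.coe_algebraMap, Algebra.algebraMap_eq_smul_one,
      LinearMap.smul_apply, Module.End.one_apply]
    exact (Int.cast_smul_eq_zsmul ℂ r g).symm
  | add x y _ _ ihx ihy =>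
    rw [map_add, Subalgebra.coe_add, LinearMap.add_apply, ihx, ihy, stb_p1_heckeValue_add,
      add_smul]
  | mul x y _ _ ihx ihy =>
    rw [map_mul, Subalgebra.coe_mul, Module.End.mul_apply, ihy, map_smul, ihx,
      stb_p1_heckeValue_mul, smul_smul, mul_comm]

/-- values of Hecke polynomials in good variables on a normalised eigenform are algebraic
integers -/
theorem stb_p1_isIntegral_heckeValue (g : CuspForm (Gamma0 N) 2) (hg : g.IsNormalizedEigenform)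
    {Sg : Set Nat.Primes} (hSg : ∀ ℓ ∈ Sg, ¬ (ℓ : ℕ) ∣ N) {t : HeckeAlg}
    (ht : t ∈ MvPolynomial.supported ℤ Sg) : IsIntegral ℤ (heckeValue g t) := by
  rw [MvPolynomial.supported_eq_adjoin_X] at ht
  induction ht using Algebra.adjoin_induction with
  | mem x hx =>
    obtain ⟨ℓ, hℓ, rfl⟩ := hx
    rw [stb_p1_heckeValue_X]
    exact Fermat.Agent.S42.isIntegral_qCoeff_prime g hg ℓ.2 (hSg ℓ hℓ)
  | algebraMap r =>
    rw [stb_p1_heckeValue_algebraMap]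
    exact isIntegral_algebraMap (R := ℤ) (A := ℂ) (x := r)
  | add x y _ _ ihx ihy =>
    rw [stb_p1_heckeValue_add]
    exact ihx.add ihy
  | mul x y _ _ ihx ihy =>
    rw [stb_p1_heckeValue_mul]
    exact ihx.mul ihy

omit [NeZero N] in
/-- the values of a Hecke polynomial on two eigenforms whose coefficients agree at the variables -/
theorem stb_p1_heckeValue_congr {N' : ℕ} (g : CuspForm (Gamma0 N) 2) (f : CuspForm (Gamma0 N') 2)
    {Sg : Set Nat.Primes} (hSg : ∀ ℓ ∈ Sg, qCoeff ⇑f (ℓ : ℕ) = qCoeff ⇑g (ℓ : ℕ)) {t : HeckeAlg}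
    (ht : t ∈ MvPolynomial.supported ℤ Sg) : heckeValue f t = heckeValue g t := by
  rw [MvPolynomial.supported_eq_adjoin_X] at ht
  induction ht using Algebra.adjoin_induction with
  | mem x hx =>
    obtain ⟨ℓ, hℓ, rfl⟩ := hx
    unfold heckeValue
    rw [MvPolynomial.aeval_X, MvPolynomial.aeval_X]
    exact hSg ℓ hℓ
  | algebraMap r =>
    unfold heckeValue
    rw [AlgHom.commutes, AlgHom.commutes]
  | add x y _ _ ihx ihy =>
    unfold heckeValue at ihx ihy ⊢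
    rw [map_add, map_add, ihx, ihy]
  | mul x y _ _ ihx ihy =>
    unfold heckeValue at ihx ihy ⊢
    rw [map_mul, map_mul, ihx, ihy]

end eigen


section smo

variable {M M₁ : ℕ} [NeZero M] [NeZero M₁]

/-- **Strong multiplicity one**, core: with an auxiliary prime `p ≠ ℓ₀`. -/
theorem stb_p1_smo_core (hM₁ : M₁ ∣ M) {p : ℕ} [Fact p.Prime]
    (hpkg : ESPkgFaith M p) (hpkg₁ : ESPkgFaith M₁ p)
    (g : CuspForm (Gamma0 M) 2) (hg : g.IsNormalizedEigenform)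
    (f₁ : CuspForm (Gamma0 M₁) 2) (hf₁ : f₁.IsNormalizedEigenform)
    (S : Finset ℕ) (hS : ∀ ℓ : ℕ, ℓ.Prime → ℓ ∉ S → qCoeff ⇑f₁ ℓ = qCoeff ⇑g ℓ)
    {ℓ₀ : ℕ} (hℓ₀ : ℓ₀.Prime) (hℓ₀M : ¬ ℓ₀ ∣ M) (hℓ₀p : ℓ₀ ≠ p) :
    qCoeff ⇑f₁ ℓ₀ = qCoeff ⇑g ℓ₀ := by
  classical
  obtain ⟨ℓ₀', rfl⟩ : ∃ ℓ₀' : Nat.Primes, (ℓ₀' : ℕ) = ℓ₀ := ⟨⟨ℓ₀, hℓ₀⟩, rfl⟩
  have hp : p.Prime := Fact.out
  have hM0 : M ≠ 0 := NeZero.ne M
  obtain ⟨J, _, _, _, hJ, hFJ⟩ := hpkg
  obtain ⟨J', _, _, _, hJ', hFJ'⟩ := hpkg₁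
  have hdvd₁ : ∀ r : ℕ, ¬ r ∣ M * p → ¬ r ∣ M₁ * p := fun r h h' =>
    h (h'.trans (Nat.mul_dvd_mul_right hM₁ p))
  -- the enlarged finite set
  obtain ⟨S', hS'⟩ : ∃ S' : Finset ℕ, S' = S ∪ M.primeFactors ∪ {p} := ⟨_, rfl⟩
  have hSS' : ∀ r : ℕ, r ∉ S' → r ∉ S := fun r h h' =>
    h (by rw [hS']; exact Finset.mem_union_left _ (Finset.mem_union_left _ h'))
  have hgood : ∀ r : ℕ, r.Prime → r ∉ S' → ¬ r ∣ M * p := by
    intro r hr hrS' h
    apply hrS'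
    rw [hS']
    rcases (Nat.Prime.dvd_mul hr).mp h with h | h
    · exact Finset.mem_union_left _ (Finset.mem_union_right _
        (Nat.mem_primeFactors.mpr ⟨hr, h, hM0⟩))
    · exact Finset.mem_union_right _
        (Finset.mem_singleton.mpr ((Nat.prime_dvd_prime_iff_eq hr hp).mp h))
  have hℓ₀Mp : ¬ (ℓ₀' : ℕ) ∣ M * p := by
    intro h
    rcases (Nat.Prime.dvd_mul hℓ₀).mp h with h | h
    · exact hℓ₀M h
    · exact hℓ₀p ((Nat.prime_dvd_prime_iff_eq hℓ₀ hp).mp h)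
  -- the set of variables
  obtain ⟨Sg, hSgdef⟩ : ∃ Sg : Set Nat.Primes,
      Sg = outsideVars (↑S' : Set ℕ) ∪ ({ℓ₀'} : Set Nat.Primes) := ⟨_, rfl⟩
  have hSg : ∀ r ∈ Sg, ¬ (r : ℕ) ∣ M * p := by
    intro r hr
    rw [hSgdef] at hr
    rcases hr with hr | hr
    · exact hgood r r.2 hr
    · rw [Set.mem_singleton_iff] at hr
      rw [hr]
      exact hℓ₀Mp
  have hSgM : Sg ⊆ goodPrimes M p := fun r hr => hSg r hr
  have hSgM₁ : Sg ⊆ goodPrimes M₁ p := fun r hr => hdvd₁ r (hSg r hr)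
  have hSgN : ∀ r ∈ Sg, ¬ (r : ℕ) ∣ M := fun r hr h => hSg r hr (h.mul_right p)
  have hSgN₁ : ∀ r ∈ Sg, ¬ (r : ℕ) ∣ M₁ := fun r hr h => hSgN r hr (h.trans hM₁)
  have hprod := stb_p1_esDataInf_prod hM₁ hJ hJ'
  obtain ⟨A, τ₀, hA, hτ₀⟩ := Fermat.Agent.Common.exists_isFrobeniusAt (ℓ₀' : ℕ) hℓ₀
  -- the key divisibility
  have key : ∀ k : ℕ, ∃ y : ℂ, IsIntegral ℤ y ∧
      qCoeff ⇑g (ℓ₀' : ℕ) - qCoeff ⇑f₁ (ℓ₀' : ℕ) = (p : ℂ) ^ k * y := by
    intro k
    obtain ⟨n₁, hn₁⟩ := hFJ Sg hSgM k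
    obtain ⟨n₂, hn₂⟩ := hFJ' Sg hSgM₁ k
    obtain ⟨h, hh, hApp⟩ := exists_approx Fermat.Agent.Cheb.weakChebotarev_holds hprod S' hgood
      (max n₁ n₂) τ₀
    have hfrob : Approx p (J × J') (max n₁ n₂) τ₀ (heckeGen ℓ₀') :=
      approx_frob hprod (max n₁ n₂) hℓ₀ hℓ₀Mp hA hτ₀
    have hh' : h ∈ MvPolynomial.supported ℤ Sg := by
      rw [hSgdef]
      exact MvPolynomial.supported_mono Set.subset_union_left hh
    have hX : heckeGen ℓ₀' ∈ MvPolynomial.supported ℤ Sg := by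
      rw [hSgdef]
      exact (MvPolynomial.X_mem_supported (R := ℤ)).mpr (Set.mem_union_right _ rfl)
    have hD : heckeGen ℓ₀' - h ∈ MvPolynomial.supported ℤ Sg := Subalgebra.sub_mem _ hX hh'
    have hDkill : ∀ z : J × J', p ^ (max n₁ n₂) • z = 0 → (heckeGen ℓ₀' - h) • z = 0 := by
      intro z hz
      rw [sub_smul, ← hfrob z hz, ← hApp z hz, sub_self]
    have hDJ : ∀ x : J, p ^ n₁ • x = 0 → (heckeGen ℓ₀' - h) • x = 0 := by
      intro x hx
      have h0 : p ^ (max n₁ n₂) • (0 : J') = 0 := smul_zero _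
      have hz : p ^ (max n₁ n₂) • ((x, 0) : J × J') = 0 :=
        Prod.ext (torsion_le (le_max_left n₁ n₂) hx) h0
      exact congrArg Prod.fst (hDkill (x, 0) hz)
    have hDJ' : ∀ x : J', p ^ n₂ • x = 0 → (heckeGen ℓ₀' - h) • x = 0 := by
      intro x hx
      have h0 : p ^ (max n₁ n₂) • (0 : J) = 0 := smul_zero _
      have hz : p ^ (max n₁ n₂) • ((0, x) : J × J') = 0 :=
        Prod.ext h0 (torsion_le (le_max_right n₁ n₂) hx)
      exact congrArg Prod.snd (hDkill (0, x) hz)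
    obtain ⟨s, hs, hDs⟩ := hn₁ _ hD hDJ
    obtain ⟨s', hs', hDs'⟩ := hn₂ _ hD hDJ'
    -- eigenvalues
    have e1 : heckeValue g (heckeGen ℓ₀' - h) = (p : ℂ) ^ k * heckeValue g s := by
      have h1 := stb_p1_eval_eigen g hg hSgN hD
      have h2 := stb_p1_eval_eigen g hg hSgN hs
      rw [hDs, Subalgebra.coe_smul, LinearMap.smul_apply, h2] at h1
      have h3 : ((p : ℤ) ^ k • heckeValue g s - heckeValue g (heckeGen ℓ₀' - h)) • g = 0 := by
        rw [sub_smul, ← h1, smul_assoc, sub_self]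
      rcases smul_eq_zero.mp h3 with h4 | h4
      · have h5 := (sub_eq_zero.mp h4).symm
        rw [h5, zsmul_eq_mul]
        push_cast
        rfl
      · exact absurd h4 (Fermat.Agent.S42.normalizedEigenform_ne_zero g hg)
    have e2 : heckeValue f₁ (heckeGen ℓ₀' - h) = (p : ℂ) ^ k * heckeValue f₁ s' := by
      have h1 := stb_p1_eval_eigen f₁ hf₁ hSgN₁ hD
      have h2 := stb_p1_eval_eigen f₁ hf₁ hSgN₁ hs'
      rw [hDs', Subalgebra.coe_smul, LinearMap.smul_apply, h2] at h1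
      have h3 : ((p : ℤ) ^ k • heckeValue f₁ s' -
          heckeValue f₁ (heckeGen ℓ₀' - h)) • f₁ = 0 := by
        rw [sub_smul, ← h1, smul_assoc, sub_self]
      rcases smul_eq_zero.mp h3 with h4 | h4
      · have h5 := (sub_eq_zero.mp h4).symm
        rw [h5, zsmul_eq_mul]
        push_cast
        rfl
      · exact absurd h4 (Fermat.Agent.S42.normalizedEigenform_ne_zero f₁ hf₁)
    have e3 : heckeValue f₁ h = heckeValue g h :=
      stb_p1_heckeValue_congr g f₁ (fun r hr => hS r r.2 (hSS' r hr)) hh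
    refine ⟨heckeValue g s - heckeValue f₁ s',
      (stb_p1_isIntegral_heckeValue g hg hSgN hs).sub
        (stb_p1_isIntegral_heckeValue f₁ hf₁ hSgN₁ hs'), ?_⟩
    rw [stb_p1_heckeValue_sub] at e1 e2
    have x1 : heckeValue g (heckeGen ℓ₀') = qCoeff ⇑g (ℓ₀' : ℕ) := stb_p1_heckeValue_X g ℓ₀'
    have x2 : heckeValue f₁ (heckeGen ℓ₀') = qCoeff ⇑f₁ (ℓ₀' : ℕ) :=
      stb_p1_heckeValue_X f₁ ℓ₀'
    rw [x1] at e1
    rw [x2, e3] at e2
    linear_combination e1 - e2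
  have hzero := stb_p1_eq_zero_of_forall_pow_mul hp.one_lt _ key
  exact (sub_eq_zero.mp hzero).symm

/-- **Strong multiplicity one** from the Eichler–Shimura package: two normalised eigenforms of
levels `M` and `M₁ ∣ M` whose `a_ℓ` agree for all primes `ℓ` outside a finite set `S` have the same
`a_ℓ` for every prime `ℓ ∤ M`. -/
theorem stb_p1_smo
    (hpkg : ∀ (N p : ℕ) [NeZero N], p.Prime → ESPkgFaith N p) (hM₁ : M₁ ∣ M)
    (g : CuspForm (Gamma0 M) 2) (hg : g.IsNormalizedEigenform)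
    (f₁ : CuspForm (Gamma0 M₁) 2) (hf₁ : f₁.IsNormalizedEigenform)
    (S : Finset ℕ) (hS : ∀ ℓ : ℕ, ℓ.Prime → ℓ ∉ S → qCoeff ⇑f₁ ℓ = qCoeff ⇑g ℓ)
    (ℓ₀ : ℕ) (hℓ₀ : ℓ₀.Prime) (hℓ₀M : ¬ ℓ₀ ∣ M) :
    qCoeff ⇑f₁ ℓ₀ = qCoeff ⇑g ℓ₀ := by
  by_cases h2 : ℓ₀ = 2
  · have : Fact (Nat.Prime 3) := ⟨Nat.prime_three⟩
    exact stb_p1_smo_core hM₁ (hpkg M 3 Nat.prime_three) (hpkg M₁ 3 Nat.prime_three) g hg f₁ hf₁
      S hS hℓ₀ hℓ₀M (by omega)
  · have : Fact (Nat.Prime 2) := ⟨Nat.prime_two⟩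
    exact stb_p1_smo_core hM₁ (hpkg M 2 Nat.prime_two) (hpkg M₁ 2 Nat.prime_two) g hg f₁ hf₁
      S hS hℓ₀ hℓ₀M h2

end smo

end Fermat.Agent.STB

end
end ZBSTB_006_1

/-! ### bundled: `Fermat.Agent.STB.NewPoly` -/
section ZBSTB_006_2

/-!
# STB-P1 (helper46): a Hecke polynomial separating a newform from the lower level

`stb_p1` : for a newform `g` of level `M` (prelude `CuspForm.IsNewform`), a proper divisor
`M₁ ∣ M` and a finite set of primes `S` containing the primes of `M`, there is a Hecke polynomial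
`P ∈ ℤ[X_ℓ : ℓ ∉ S]` which kills `S₂(Γ₀(M₁))` and has `χ_g(P) ≠ 0`.

Hypothesis `hpkg`: the faithful `p`-adic Eichler–Shimura package at every level and prime (the
same hypothesis as in `Fermat.Agent.S30.s30_statement_of_pkg`); it is used for strong
multiplicity one only (`stb_p1_smo`).

Variants: `stb_p1_chig` (`χ_g` given as a character `chig` of `heckeAlgebra M 2 S`, as in S35),
`stb_p1_iota` (after a ring homomorphism `iota : chig.range → O'`, `O'` of characteristic zero).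
-/

set_option autoImplicit false

noncomputable section

namespace Fermat.Agent.STB

open ModularCurve Fermat.Agent.ES Fermat.Agent.S31 Fermat.Agent.S30 ModularFormClass
  CongruenceSubgroup

/-- A common eigenvector whose character is dominated by a given character of a subring. -/
theorem stb_p1_abstract {𝕋 : Type*} [CommRing 𝕋] [Module.Finite ℤ 𝕋]
    {A : Type*} [CommRing A] (ι : A →+* 𝕋)
    {V : Type*} [AddCommGroup V] [Module ℂ V] [FiniteDimensional ℂ V]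
    (ρ : 𝕋 →+* Module.End ℂ V) (hρ : Function.Injective ρ)
    (χ : A →+* ℂ) (hker : RingHom.ker ι ≤ RingHom.ker χ) :
    ∃ (v : V) (ψ : 𝕋 →+* ℂ), v ≠ 0 ∧ (∀ t, ρ t v = ψ t • v) ∧
      RingHom.ker (ψ.comp ι) ≤ RingHom.ker χ := by
  classical
  have hint : Algebra.IsIntegral ℤ 𝕋 := inferInstance
  have hιint : ι.IsIntegral := by
    intro x
    obtain ⟨P, hP, hPx⟩ := Algebra.IsIntegral.isIntegral (R := ℤ) x
    refine ⟨P.map (Int.castRingHom A), hP.map _, ?_⟩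
    rw [Polynomial.eval₂_map]
    have hc : ι.comp (Int.castRingHom A) = algebraMap ℤ 𝕋 := RingHom.ext_int _ _
    rw [hc]
    exact hPx
  let _ : Algebra A 𝕋 := ι.toAlgebra
  have hAint : Algebra.IsIntegral A 𝕋 := ⟨hιint⟩
  have hprime : (RingHom.ker χ).IsPrime := RingHom.ker_isPrime χ
  have hbot : (⊥ : Ideal 𝕋).comap (algebraMap A 𝕋) ≤ RingHom.ker χ := hker
  obtain ⟨Q, -, hQprime, hQ⟩ :=
    Ideal.exists_ideal_over_prime_of_isIntegral (S := 𝕋) (RingHom.ker χ) ⊥ hbot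
  obtain ⟨v, ψ, hv, hψ, hkerψ⟩ := Fermat.Agent.S49.exists_eigenvector_of_injective ρ hρ Q
  refine ⟨v, ψ, hv, hψ, ?_⟩
  intro a ha
  rw [← hQ]
  exact hkerψ ha

/-- The conjugate of a normalised eigenform under a ring endomorphism of `ℂ`. -/
theorem stb_p1_conj_eigenform {N : ℕ} [NeZero N] (σ : ℂ →+* ℂ) (f : CuspForm (Gamma0 N) 2)
    (hf : f.IsNormalizedEigenform) :
    ∃ f' : CuspForm (Gamma0 N) 2, f'.IsNormalizedEigenform ∧
      ∀ n : ℕ, qCoeff ⇑f' n = σ (qCoeff ⇑f n) := by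
  obtain ⟨f', hf'⟩ := Fermat.Agent.S23.main_stmtSigma N 2 σ f
  have hq : ∀ n : ℕ, qCoeff ⇑f' n = σ (qCoeff ⇑f n) := fun n => by
    unfold qCoeff
    rw [hf', PowerSeries.coeff_map]
  refine ⟨f', ⟨?_, ?_, ?_, ?_⟩, hq⟩
  · rw [hq, hf.qCoeff_one, map_one]
  · intro m n hmn
    rw [hq, hq, hq, hf.qCoeff_mul_of_coprime m n hmn, map_mul]
  · intro p r hp hpN
    rw [hq, hq, hq, hq, hf.qCoeff_prime_pow_of_not_dvd p r hp hpN, map_sub, map_mul, map_mul,
      map_natCast]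
  · intro p r hp hpN
    rw [hq, hq, hq, hf.qCoeff_prime_pow_of_dvd p r hp hpN, map_mul]

section p1

variable {M M₁ : ℕ} [NeZero M] [NeZero M₁]

/-- **STB-P1**: a Hecke polynomial in the variables outside `S` which kills the cusp forms of the
lower level `M₁` and does not kill the newform `g`. -/
theorem stb_p1 (hpkg : ∀ (N p : ℕ) [NeZero N], p.Prime → ESPkgFaith N p)
    {g : CuspForm (Gamma0 M) 2} (hg : g.IsNewform) (hM₁ : M₁ ∣ M) (hne : M₁ ≠ M)
    (S : Finset ℕ) (hMS : ∀ q : ℕ, q.Prime → q ∣ M → q ∈ S) :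
    ∃ P ∈ MvPolynomial.supported ℤ (outsideVars (↑S : Set ℕ)),
      CuspForm.heckeEvalForms M₁ 2 P = 0 ∧ heckeValue g P ≠ 0 := by
  classical
  by_contra hcon
  push Not at hcon
  obtain ⟨A, hA⟩ : ∃ A : Subalgebra ℤ HeckeAlg,
      A = MvPolynomial.supported ℤ (outsideVars (↑S : Set ℕ)) := ⟨_, rfl⟩
  obtain ⟨ι, hι⟩ : ∃ ι : A →+* CuspForm.heckeAlgebra M₁ 2 ∅,
      ∀ a : A, ι a = CuspForm.heckeEvalForms M₁ 2 (a : HeckeAlg) :=
    ⟨(CuspForm.heckeEvalForms M₁ 2).comp A.val.toRingHom, fun a => rfl⟩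
  obtain ⟨χ, hχ⟩ : ∃ χ : A →+* ℂ, ∀ a : A, χ a = heckeValue g (a : HeckeAlg) :=
    ⟨((MvPolynomial.aeval (fun ℓ : Nat.Primes => qCoeff ⇑g ℓ) :
      HeckeAlg →ₐ[ℤ] ℂ) : HeckeAlg →+* ℂ).comp A.val.toRingHom, fun a => rfl⟩
  have hker : RingHom.ker ι ≤ RingHom.ker χ := by
    intro a ha
    rw [RingHom.mem_ker] at ha ⊢
    rw [hχ]
    rw [hι] at ha
    exact hcon (a : HeckeAlg) (hA ▸ a.2) ha
  have hfin : Module.Finite ℤ (CuspForm.heckeAlgebra M₁ 2 ∅) :=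
    Fermat.Agent.S22.moduleFinite_heckeAlgebra M₁ 2 ∅
  have hfd : FiniteDimensional ℂ (CuspForm (Gamma0 M₁) 2) :=
    Fermat.Agent.S49.finiteDimensional_cuspForm M₁ 2
  obtain ⟨v, ψ, hv, hψ, hkψ⟩ := stb_p1_abstract ι
    ((CuspForm.heckeAlgebra M₁ 2 ∅).val.toRingHom) Subtype.val_injective χ hker
  obtain ⟨f, hf, hfq⟩ := Fermat.Agent.S49.exists_normalized_eigenform v hv ψ hψ
  have hint : ∀ a, IsIntegral ℤ ((ψ.comp ι) a) := fun a =>
    map_isIntegral_int ψ (Algebra.IsIntegral.isIntegral (ι a))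
  obtain ⟨σ, hσ⟩ := stb_p1_exists_sigma (ψ.comp ι) χ hint hkψ
  obtain ⟨f₁, hf₁, hf₁q⟩ := stb_p1_conj_eigenform (σ : ℂ →+* ℂ) f hf
  have hout : ∀ ℓ : ℕ, ℓ.Prime → ℓ ∉ S → qCoeff ⇑f₁ ℓ = qCoeff ⇑g ℓ := by
    intro ℓ hℓ hℓS
    have hℓM : ¬ ℓ ∣ M := fun h => hℓS (hMS ℓ hℓ h)
    have hℓM₁ : ¬ ℓ ∣ M₁ := fun h => hℓM (h.trans hM₁)
    obtain ⟨ℓ', rfl⟩ : ∃ ℓ' : Nat.Primes, (ℓ' : ℕ) = ℓ := ⟨⟨ℓ, hℓ⟩, rfl⟩
    have hX : (MvPolynomial.X ℓ' : HeckeAlg) ∈ A := by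
      rw [hA]
      exact (MvPolynomial.X_mem_supported (R := ℤ)).mpr hℓS
    have h1 : ι ⟨MvPolynomial.X ℓ', hX⟩ =
        CuspForm.heckeAlgebra.T hℓ hℓM₁ (Set.notMem_empty _) := by
      rw [hι]
      exact CuspForm.heckeEvalForms_heckeGen_of_not_dvd (N := M₁) (k := 2) (ℓ := ℓ') hℓM₁
    have h2 := hσ ⟨MvPolynomial.X ℓ', hX⟩
    rw [RingHom.comp_apply, h1, ← hfq (ℓ' : ℕ) hℓ hℓM₁, hχ] at h2
    rw [hf₁q]
    exact h2.trans (stb_p1_heckeValue_X g ℓ')
  have hall := stb_p1_smo hpkg hM₁ g hg.1 f₁ hf₁ S hout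
  exact hg.2 M₁ hM₁ hne ⟨f₁, hf₁, hall⟩

/-- on Hecke polynomials in the variables outside `S`, a character `chig` of the Hecke algebra
with `chig T_ℓ = a_ℓ(g)` is `heckeValue g` -/
theorem stb_p1_chig_eq {g : CuspForm (Gamma0 M) 2} (S : Set ℕ)
    (hMS : ∀ ℓ : ℕ, ℓ.Prime → ℓ ∉ S → ¬ ℓ ∣ M)
    (chig : CuspForm.heckeAlgebra M 2 S →+* ℂ)
    (hchig : ∀ (ℓ : ℕ) (hℓ : ℓ.Prime) (hℓM : ¬ ℓ ∣ M) (hℓS : ℓ ∉ S),
      chig (CuspForm.heckeAlgebra.T hℓ hℓM hℓS) = qCoeff ⇑g ℓ)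
    {t : HeckeAlg} (ht : t ∈ MvPolynomial.supported ℤ (outsideVars S)) :
    chig (evalS M S t) = heckeValue g t := by
  rw [MvPolynomial.supported_eq_adjoin_X] at ht
  induction ht using Algebra.adjoin_induction with
  | mem x hx =>
    obtain ⟨ℓ, hℓ, rfl⟩ := hx
    have hℓS : (ℓ : ℕ) ∉ S := hℓ
    have h1 : evalS M S (MvPolynomial.X ℓ) =
        CuspForm.heckeAlgebra.T ℓ.2 (hMS ℓ ℓ.2 hℓS) hℓS :=
      evalS_heckeGen ℓ.2 (hMS ℓ ℓ.2 hℓS) hℓS
    rw [h1]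
    exact (hchig (ℓ : ℕ) ℓ.2 (hMS ℓ ℓ.2 hℓS) hℓS).trans (stb_p1_heckeValue_X g ℓ).symm
  | algebraMap r =>
    rw [AlgHom.commutes, stb_p1_heckeValue_algebraMap, eq_intCast, map_intCast]
  | add x y _ _ ihx ihy =>
    rw [map_add, map_add, ihx, ihy, stb_p1_heckeValue_add]
  | mul x y _ _ ihx ihy =>
    rw [map_mul, map_mul, ihx, ihy, stb_p1_heckeValue_mul]

/-- **STB-P1**, in terms of a character `chig` of the Hecke algebra away from `S` (as in S35). -/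
theorem stb_p1_chig (hpkg : ∀ (N p : ℕ) [NeZero N], p.Prime → ESPkgFaith N p)
    {g : CuspForm (Gamma0 M) 2} (hg : g.IsNewform) (hM₁ : M₁ ∣ M) (hne : M₁ ≠ M)
    (S : Finset ℕ) (hMS : ∀ q : ℕ, q.Prime → q ∣ M → q ∈ S)
    (chig : CuspForm.heckeAlgebra M 2 (↑S : Set ℕ) →+* ℂ)
    (hchig : ∀ (ℓ : ℕ) (hℓ : ℓ.Prime) (hℓM : ¬ ℓ ∣ M) (hℓS : ℓ ∉ (↑S : Set ℕ)),
      chig (CuspForm.heckeAlgebra.T hℓ hℓM hℓS) = qCoeff ⇑g ℓ) :
    ∃ P ∈ MvPolynomial.supported ℤ (outsideVars (↑S : Set ℕ)),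
      CuspForm.heckeEvalForms M₁ 2 P = 0 ∧ chig (evalS M (↑S : Set ℕ) P) ≠ 0 := by
  obtain ⟨P, hP, hP0, hPg⟩ := stb_p1 hpkg hg hM₁ hne S hMS
  refine ⟨P, hP, hP0, ?_⟩
  rw [stb_p1_chig_eq (↑S : Set ℕ) (fun ℓ hℓ hℓS h => hℓS (hMS ℓ hℓ h)) chig hchig hP]
  exact hPg

/-- a ring homomorphism from the range of a character of the Hecke algebra to a ring of
characteristic zero is injective -/
theorem stb_p1_iota_injective (S : Set ℕ) (chig : CuspForm.heckeAlgebra M 2 S →+* ℂ)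
    {O' : Type*} [CommRing O'] [CharZero O'] (iota : chig.range →+* O') :
    Function.Injective iota := by
  have hfin : Module.Finite ℤ (CuspForm.heckeAlgebra M 2 S) :=
    Fermat.Agent.S22.moduleFinite_heckeAlgebra M 2 S
  refine stb_p1_injective_of_integral chig.range.subtype iota Subtype.val_injective ?_
  rintro ⟨d, t, rfl⟩
  exact map_isIntegral_int chig (Algebra.IsIntegral.isIntegral t)

/-- **STB-P1**, after a ring homomorphism `iota : chig.range → O'` (as in S35). -/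
theorem stb_p1_iota (hpkg : ∀ (N p : ℕ) [NeZero N], p.Prime → ESPkgFaith N p)
    {g : CuspForm (Gamma0 M) 2} (hg : g.IsNewform) (hM₁ : M₁ ∣ M) (hne : M₁ ≠ M)
    (S : Finset ℕ) (hMS : ∀ q : ℕ, q.Prime → q ∣ M → q ∈ S)
    (chig : CuspForm.heckeAlgebra M 2 (↑S : Set ℕ) →+* ℂ)
    (hchig : ∀ (ℓ : ℕ) (hℓ : ℓ.Prime) (hℓM : ¬ ℓ ∣ M) (hℓS : ℓ ∉ (↑S : Set ℕ)),
      chig (CuspForm.heckeAlgebra.T hℓ hℓM hℓS) = qCoeff ⇑g ℓ)
    {O' : Type*} [CommRing O'] [CharZero O'] (iota : chig.range →+* O') :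
    ∃ P ∈ MvPolynomial.supported ℤ (outsideVars (↑S : Set ℕ)),
      CuspForm.heckeEvalForms M₁ 2 P = 0 ∧
        (iota.comp chig.rangeRestrict) (evalS M (↑S : Set ℕ) P) ≠ 0 := by
  obtain ⟨P, hP, hP0, hPg⟩ := stb_p1_chig hpkg hg hM₁ hne S hMS chig hchig
  refine ⟨P, hP, hP0, fun h => hPg ?_⟩
  rw [RingHom.comp_apply] at h
  have h1 := stb_p1_iota_injective (↑S : Set ℕ) chig iota (h.trans (map_zero iota).symm)
  exact congrArg Subtype.val h1

end p1

end Fermat.Agent.STB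

end
end ZBSTB_006_2

/-! ### bundled: `Fermat.Agent.RT.Interp.Eigen` -/
section ZBSTB_006_3

/-!
# K-machine, piece INTERP (helper46), layer B: from a characteristic-zero point to an eigenform

* `rtint_exists_eigenform` : every character `χ : A → ℂ` of a ring of Hecke polynomials that
  factors through the Hecke algebra of `S₂(Γ₀(N))` is the eigensystem of a normalised eigenform
  (eigenvector of the full Hecke algebra + Galois conjugation, from the STB-P1 toolbox).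
* `rtint_exists_embedding` : a domain of characteristic zero that is integral over `ℤ` embeds
  into `ℂ`.
* `rtint_point` : a system `a : Nat.Primes → A` of Hecke eigenvalues in a local domain `A` of
  characteristic zero and residue characteristic `p` which OCCURS in `S₂(Γ₀(N))` (every Hecke
  polynomial in the variables outside `S` that kills `S₂(Γ₀(N))` vanishes at `a`) comes from a
  normalised eigenform `f` of level `N`: there are an injective `e : ℤ[a] → ℂ` with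
  `a_ℓ(f) = e (a ℓ)` and a maximal ideal `𝔪'` of `ℤ̄` over `p` such that `e b ∈ 𝔪'` whenever
  `b ∈ 𝔪_A`.
-/

set_option autoImplicit false

noncomputable section

namespace Fermat.Agent.RT.Interp

open ModularCurve Fermat.Agent.S31 ModularFormClass CongruenceSubgroup

/-- **Every character of the Hecke algebra is the eigensystem of a normalised eigenform.** -/
theorem rtint_exists_eigenform {N : ℕ} [NeZero N] {A : Type*} [CommRing A]
    (ι : A →+* CuspForm.heckeAlgebra N 2 ∅) (χ : A →+* ℂ)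
    (hker : RingHom.ker ι ≤ RingHom.ker χ) :
    ∃ f : CuspForm (Gamma0 N) 2, f.IsNormalizedEigenform ∧
      ∀ (a : A) (ℓ : ℕ) (hℓ : ℓ.Prime) (hℓN : ¬ ℓ ∣ N),
        ι a = CuspForm.heckeAlgebra.T hℓ hℓN (Set.notMem_empty ℓ) → qCoeff ⇑f ℓ = χ a := by
  classical
  have hfin : Module.Finite ℤ (CuspForm.heckeAlgebra N 2 ∅) :=
    Fermat.Agent.S22.moduleFinite_heckeAlgebra N 2 ∅
  have hfd : FiniteDimensional ℂ (CuspForm (Gamma0 N) 2) :=
    Fermat.Agent.S49.finiteDimensional_cuspForm N 2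
  obtain ⟨v, ψ, hv, hψ, hkψ⟩ := Fermat.Agent.STB.stb_p1_abstract ι
    ((CuspForm.heckeAlgebra N 2 ∅).val.toRingHom) Subtype.val_injective χ hker
  obtain ⟨f, hf, hfq⟩ := Fermat.Agent.S49.exists_normalized_eigenform v hv ψ hψ
  have hint : ∀ a, IsIntegral ℤ ((ψ.comp ι) a) := fun a =>
    map_isIntegral_int ψ (Algebra.IsIntegral.isIntegral (ι a))
  obtain ⟨σ, hσ⟩ := Fermat.Agent.STB.stb_p1_exists_sigma (ψ.comp ι) χ hint hkψ
  obtain ⟨f₁, hf₁, hf₁q⟩ := Fermat.Agent.STB.stb_p1_conj_eigenform (σ : ℂ →+* ℂ) f hf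
  refine ⟨f₁, hf₁, fun a ℓ hℓ hℓN ha => ?_⟩
  rw [hf₁q, hfq ℓ hℓ hℓN, ← ha]
  exact hσ a

/-- A domain of characteristic zero that is integral over `ℤ` embeds into `ℂ`. -/
theorem rtint_exists_embedding (B : Type*) [CommRing B] [IsDomain B] [CharZero B]
    (hint : ∀ b : B, (Int.castRingHom B).IsIntegralElem b) :
    ∃ e : B →+* ℂ, Function.Injective e := by
  classical
  have : Algebra.IsIntegral ℤ B := ⟨fun b => hint b⟩
  let K := FractionRing B
  have : CharZero K := charZero_of_injective_algebraMap (IsFractionRing.injective B K)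
  let _ : Algebra ℚ K := DivisionRing.toRatAlgebra
  have : Algebra.IsAlgebraic ℤ K :=
    (IsFractionRing.isAlgebraic_iff' ℤ B K).mp inferInstance
  have : Algebra.IsAlgebraic ℚ K := by
    refine ⟨fun x => ?_⟩
    obtain ⟨P, hP0, hP⟩ := Algebra.IsAlgebraic.isAlgebraic (R := ℤ) x
    refine ⟨P.map (Int.castRingHom ℚ), ?_, ?_⟩
    · rwa [Ne, Polynomial.map_eq_zero_iff Int.cast_injective]
    · rw [Polynomial.aeval_def, Polynomial.eval₂_map]
      have hc : (algebraMap ℚ K).comp (Int.castRingHom ℚ) = algebraMap ℤ K :=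
        RingHom.ext_int _ _
      rw [hc]
      exact hP
  let φ : K →ₐ[ℚ] ℂ := IsAlgClosed.lift
  refine ⟨(φ : K →+* ℂ).comp (algebraMap B K), ?_⟩
  exact (φ : K →+* ℂ).injective.comp (IsFractionRing.injective B K)

/-- integrality passes to a quotient through which a character factors -/
theorem rtint_isIntegral_quotient {R 𝕋 : Type*} [CommRing R] [CommRing 𝕋]
    [Algebra.IsIntegral ℤ 𝕋] (ι : R →+* 𝕋) (I : Ideal R) (hker : RingHom.ker ι ≤ I)
    (x : R ⧸ I) : (Int.castRingHom (R ⧸ I)).IsIntegralElem x := by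
  obtain ⟨r, rfl⟩ := Ideal.Quotient.mk_surjective x
  obtain ⟨P, hP, hPr⟩ := Algebra.IsIntegral.isIntegral (R := ℤ) (ι r)
  refine ⟨P, hP, ?_⟩
  have h1 : ι (Polynomial.eval₂ (Int.castRingHom R) r P) = 0 := by
    rw [Polynomial.hom_eval₂]
    have hc : ι.comp (Int.castRingHom R) = algebraMap ℤ 𝕋 := RingHom.ext_int _ _
    rw [hc]
    exact hPr
  have h2 : Polynomial.eval₂ (Int.castRingHom R) r P ∈ I := hker h1
  have h3 : Ideal.Quotient.mk I (Polynomial.eval₂ (Int.castRingHom R) r P) = 0 :=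
    Ideal.Quotient.eq_zero_iff_mem.mpr h2
  rw [Polynomial.hom_eval₂] at h3
  have hc : (Ideal.Quotient.mk I).comp (Int.castRingHom R) = Int.castRingHom (R ⧸ I) :=
    RingHom.ext_int _ _
  rw [hc] at h3
  exact h3

/-- the embedding and the maximal ideal, for an abstract domain `T` integral over `ℤ` -/
theorem rtint_point_core {T A : Type*} [CommRing T] [IsDomain T] [CharZero T]
    (hint : ∀ x : T, (Int.castRingHom T).IsIntegralElem x)
    [CommRing A] [IsLocalRing A] (κ : T →+* A) {p : ℕ} (hp : p.Prime)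
    (hpA : (p : A) ∈ IsLocalRing.maximalIdeal A) :
    ∃ (e : T →+* ℂ) (𝔪' : Ideal (integralClosure ℤ ℂ)), Function.Injective e ∧ 𝔪'.IsMaximal ∧
      (p : integralClosure ℤ ℂ) ∈ 𝔪' ∧
      ∀ x : T, κ x ∈ IsLocalRing.maximalIdeal A →
        ∀ b : integralClosure ℤ ℂ, (b : ℂ) = e x → b ∈ 𝔪' := by
  classical
  have hTint : Algebra.IsIntegral ℤ T := ⟨fun b => hint b⟩
  obtain ⟨e, he⟩ := rtint_exists_embedding T hint
  obtain ⟨𝔪₁, h𝔪₁⟩ : ∃ 𝔪₁ : Ideal T, 𝔪₁ = (IsLocalRing.maximalIdeal A).comap κ := ⟨_, rfl⟩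
  have h𝔪₁prime : 𝔪₁.IsPrime := h𝔪₁ ▸ Ideal.comap_isPrime κ _
  have hp𝔪₁ : ((p : ℤ) : T) ∈ 𝔪₁ := by
    rw [h𝔪₁, Ideal.mem_comap, map_intCast]
    exact_mod_cast hpA
  have h𝔪₁max : 𝔪₁.IsMaximal := by
    apply Ideal.isMaximal_of_isIntegral_of_isMaximal_comap (R := ℤ) 𝔪₁
    have hpr : (𝔪₁.comap (algebraMap ℤ T)).IsPrime := Ideal.comap_isPrime _ _
    apply hpr.isMaximal
    intro hbot
    have hmem : (p : ℤ) ∈ 𝔪₁.comap (algebraMap ℤ T) := by
      rw [Ideal.mem_comap, eq_intCast]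
      exact hp𝔪₁
    rw [hbot, Ideal.mem_bot] at hmem
    exact hp.ne_zero (by exact_mod_cast hmem)
  obtain ⟨ψ', 𝔪', hψ', h𝔪'max, h𝔪'⟩ := Fermat.Agent.S49.exists_maximal_over e 𝔪₁
    (fun x hx => by
      rw [RingHom.mem_ker] at hx
      rw [he (hx.trans (map_zero e).symm)]
      exact 𝔪₁.zero_mem)
  refine ⟨e, 𝔪', he, h𝔪'max, ?_, ?_⟩
  · have h1 : ψ' ((p : ℤ) : T) ∈ 𝔪' := by
      have : ((p : ℤ) : T) ∈ 𝔪'.comap ψ' := h𝔪'.symm ▸ hp𝔪₁
      exact this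
    rw [map_intCast] at h1
    exact_mod_cast h1
  · intro x hx b hb
    have h1 : x ∈ 𝔪₁ := by
      rw [h𝔪₁, Ideal.mem_comap]
      exact hx
    have h2 : ψ' x ∈ 𝔪' := by
      have : x ∈ 𝔪'.comap ψ' := h𝔪'.symm ▸ h1
      exact this
    have h3 : b = ψ' x := by
      apply Subtype.ext
      rw [hb, hψ']
    rw [h3]
    exact h2

section point

variable {N : ℕ} [NeZero N]

/-- **From a characteristic-zero point to an eigenform.**  `A` a local domain of characteristic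
zero with `p ∈ 𝔪_A`; `a : Nat.Primes → A` a system of eigenvalues which occurs in `S₂(Γ₀(N))`
(`hocc`).  Then there are a normalised eigenform `f` of level `N` and a maximal ideal `𝔪'` of
`ℤ̄` over `p` with
* (CONJ) a Hecke polynomial outside `S` vanishes at the eigenvalues of `f` iff it vanishes at
  `a`;
* (CONG) if the value at `a` of a Hecke polynomial outside `S` is in `𝔪_A` then its value at the
  eigenvalues of `f` is in `𝔪'`. -/
theorem rtint_point (S : Set ℕ) (hNS : ∀ ℓ : ℕ, ℓ.Prime → ℓ ∣ N → ℓ ∈ S)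
    {A : Type*} [CommRing A] [IsLocalRing A] [IsDomain A] [CharZero A]
    {p : ℕ} (hp : p.Prime) (hpA : (p : A) ∈ IsLocalRing.maximalIdeal A)
    (a : Nat.Primes → A)
    (hocc : ∀ t ∈ MvPolynomial.supported ℤ (outsideVars S),
      CuspForm.heckeEvalForms N 2 t = 0 → MvPolynomial.aeval a t = 0) :
    ∃ (f : CuspForm (Gamma0 N) 2) (𝔪' : Ideal (integralClosure ℤ ℂ)),
      f.IsNormalizedEigenform ∧ 𝔪'.IsMaximal ∧ (p : integralClosure ℤ ℂ) ∈ 𝔪' ∧
      (∀ t ∈ MvPolynomial.supported ℤ (outsideVars S),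
        Fermat.Agent.ES.heckeValue f t = 0 ↔ MvPolynomial.aeval a t = 0) ∧
      (∀ t ∈ MvPolynomial.supported ℤ (outsideVars S),
        MvPolynomial.aeval a t ∈ IsLocalRing.maximalIdeal A →
          ∀ b : integralClosure ℤ ℂ, (b : ℂ) = Fermat.Agent.ES.heckeValue f t → b ∈ 𝔪') := by
  classical
  obtain ⟨R, hR⟩ : ∃ R : Subalgebra ℤ HeckeAlg,
      R = MvPolynomial.supported ℤ (outsideVars S) := ⟨_, rfl⟩
  obtain ⟨ι, hι⟩ : ∃ ι : R →+* CuspForm.heckeAlgebra N 2 ∅,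
      ∀ r : R, ι r = CuspForm.heckeEvalForms N 2 (r : HeckeAlg) :=
    ⟨(CuspForm.heckeEvalForms N 2).comp R.val.toRingHom, fun r => rfl⟩
  obtain ⟨χA, hχA⟩ : ∃ χA : R →+* A, ∀ r : R, χA r = MvPolynomial.aeval a (r : HeckeAlg) :=
    ⟨((MvPolynomial.aeval a : HeckeAlg →ₐ[ℤ] A) : HeckeAlg →+* A).comp R.val.toRingHom,
      fun r => rfl⟩
  have hkerA : RingHom.ker ι ≤ RingHom.ker χA := by
    intro r hr
    rw [RingHom.mem_ker] at hr ⊢
    rw [hχA]
    rw [hι] at hr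
    exact hocc (r : HeckeAlg) (hR ▸ r.2) hr
  have hfin : Module.Finite ℤ (CuspForm.heckeAlgebra N 2 ∅) :=
    Fermat.Agent.S22.moduleFinite_heckeAlgebra N 2 ∅
  have hprime : (RingHom.ker χA).IsPrime := RingHom.ker_isPrime χA
  -- the quotient `T = R / ker χA`
  have hTint : ∀ x : R ⧸ RingHom.ker χA,
      (Int.castRingHom (R ⧸ RingHom.ker χA)).IsIntegralElem x :=
    rtint_isIntegral_quotient ι (RingHom.ker χA) hkerA
  have hTdom : IsDomain (R ⧸ RingHom.ker χA) := Ideal.Quotient.isDomain _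
  obtain ⟨κ, hκ⟩ : ∃ κ : R ⧸ RingHom.ker χA →+* A, κ = RingHom.kerLift χA := ⟨_, rfl⟩
  have hκinj : Function.Injective κ := hκ ▸ RingHom.kerLift_injective χA
  have hκmk : ∀ r : R, κ (Ideal.Quotient.mk _ r) = χA r := fun r => by
    rw [hκ]; exact RingHom.kerLift_mk χA r
  have hTchar : CharZero (R ⧸ RingHom.ker χA) := by
    refine ⟨fun m n hmn => ?_⟩
    have := congrArg κ hmn
    rw [map_natCast, map_natCast] at this
    exact Nat.cast_injective this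
  obtain ⟨e, 𝔪', he, h𝔪'max, hp𝔪', hcong⟩ := rtint_point_core hTint κ hp hpA
  -- the complex character
  obtain ⟨χ, hχ⟩ : ∃ χ : R →+* ℂ, ∀ r, χ r = e (Ideal.Quotient.mk _ r) :=
    ⟨e.comp (Ideal.Quotient.mk _), fun r => rfl⟩
  have hker : RingHom.ker ι ≤ RingHom.ker χ := by
    intro r hr
    have h1 : r ∈ RingHom.ker χA := hkerA hr
    rw [RingHom.mem_ker, hχ, Ideal.Quotient.eq_zero_iff_mem.mpr h1, map_zero]
  obtain ⟨f, hf, hfq⟩ := rtint_exists_eigenform ι χ hker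
  -- values of Hecke polynomials
  have key0 : ∀ t, t ∈ MvPolynomial.supported ℤ (outsideVars S) →
      ∃ htR : t ∈ R, Fermat.Agent.ES.heckeValue f t = χ ⟨t, htR⟩ := by
    intro t ht'
    rw [MvPolynomial.supported_eq_adjoin_X] at ht'
    induction ht' using Algebra.adjoin_induction with
    | mem x hx =>
      obtain ⟨ℓ, hℓ, rfl⟩ := hx
      have hℓS : (ℓ : ℕ) ∉ S := hℓ
      have hℓN : ¬ (ℓ : ℕ) ∣ N := fun h => hℓS (hNS ℓ ℓ.2 h)
      have hX : (MvPolynomial.X ℓ : HeckeAlg) ∈ R := by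
        rw [hR]
        exact (MvPolynomial.X_mem_supported (R := ℤ)).mpr hℓS
      refine ⟨hX, ?_⟩
      rw [Fermat.Agent.STB.stb_p1_heckeValue_X]
      refine hfq _ (ℓ : ℕ) ℓ.2 hℓN ?_
      rw [hι]
      exact CuspForm.heckeEvalForms_heckeGen_of_not_dvd (N := N) (k := 2) (ℓ := ℓ) hℓN
    | algebraMap r =>
      refine ⟨R.algebraMap_mem r, ?_⟩
      rw [Fermat.Agent.STB.stb_p1_heckeValue_algebraMap]
      have : (⟨algebraMap ℤ HeckeAlg r, R.algebraMap_mem r⟩ : R) = algebraMap ℤ R r := rfl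
      rw [this, eq_intCast, map_intCast]
    | add x y hx hy ihx ihy =>
      obtain ⟨hxR, ihx⟩ := ihx
      obtain ⟨hyR, ihy⟩ := ihy
      refine ⟨R.add_mem hxR hyR, ?_⟩
      rw [Fermat.Agent.STB.stb_p1_heckeValue_add, ihx, ihy, ← map_add]
      rfl
    | mul x y hx hy ihx ihy =>
      obtain ⟨hxR, ihx⟩ := ihx
      obtain ⟨hyR, ihy⟩ := ihy
      refine ⟨R.mul_mem hxR hyR, ?_⟩
      rw [Fermat.Agent.STB.stb_p1_heckeValue_mul, ihx, ihy, ← map_mul]
      rfl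
  have key : ∀ t (ht' : t ∈ MvPolynomial.supported ℤ (outsideVars S)),
      Fermat.Agent.ES.heckeValue f t = χ ⟨t, hR ▸ ht'⟩ := fun t ht' => (key0 t ht').2
  refine ⟨f, 𝔪', hf, h𝔪'max, hp𝔪', ?_, ?_⟩
  · intro t ht
    have htR : t ∈ R := hR ▸ ht
    constructor
    · intro h0
      rw [key t ht, hχ] at h0
      have h1 : Ideal.Quotient.mk (RingHom.ker χA) ⟨t, htR⟩ = 0 :=
        he (h0.trans (map_zero e).symm)
      have h2 := hκmk ⟨t, htR⟩
      rw [h1, map_zero, hχA] at h2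
      exact h2.symm
    · intro h0
      have h2 := hκmk ⟨t, htR⟩
      rw [hχA, h0] at h2
      have h1 : Ideal.Quotient.mk (RingHom.ker χA) ⟨t, htR⟩ = 0 :=
        hκinj (h2.trans (map_zero κ).symm)
      rw [key t ht, hχ, h1, map_zero]
  · intro t ht hmem b hb
    have htR : t ∈ R := hR ▸ ht
    refine hcong (Ideal.Quotient.mk (RingHom.ker χA) ⟨t, htR⟩) ?_ b ?_
    · rw [hκmk, hχA]
      exact hmem
    · rw [hb, key t ht, hχ]

end point

end Fermat.Agent.RT.Interp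

end
end ZBSTB_006_3
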