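/- GENERATED FILE (helper35, build-time optimisation, NOTES/ZB.md): verbatim concatenation of the modules
   Fermat.Agent.STB.JForm
   Fermat.Agent.S35.FinalInputs
   Do not edit; do not import together with these modules. -/
import Fermat.Agent.ZB.ES_005
import Fermat.Agent.ZB.ES_007
import Fermat.Agent.ZB.ES_001
import Fermat.Agent.ZB.S30_001
import Fermat.Agent.ZB.STB_006
import Fermat.Agent.ZB.STB_002
import Fermat.Agent.ZB.ES_012
import Fermat.Agent.ZB.INJ_034
import Fermat.Agent.ZB.Cheb_002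

/-! ### bundled: `Fermat.Agent.STB.JForm` -/
section ZBSTB_010_0

/-!
# STB-J: the Kummer form of (P7-a) gives (P7-a) on `J₀(M₁ q)[p^∞]`

`x = [D]`, `pⁿ D = div u`.  `α_* x = 0` ⇒ `α_* D = div f` ⇒ `div (N_α u) = pⁿ div f` ⇒
`N_α u = c f^(pⁿ)`; the same for `β`.  `StmtNewFrobKummerAt` gives
`h ^ (pⁿ) = (φ² − q²)(φ² − 1) u`, hence `φ⁴ D + q² D − (q² + 1) φ² D = div h`.
-/

set_option autoImplicit false
set_option linter.style.haveILetI false

noncomputable section

namespace Fermat.Agent.STB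

open ModularCurve AlgebraicCurve Fermat.Agent.ES Fermat.Agent.ES.G2 Fermat.Agent.ES.H
open Fermat.Agent.S24

section Generic

variable {K F : Type*} [Field K] [Field F] [Algebra K F]

theorem stb_ord_smul_eq (G : SemilinearAut K F) (v : Place K F) (u : F) :
    v.ord (G • u) = (G⁻¹ • v).ord u := by
  have := SemilinearAut.ord_smul G (G⁻¹ • v) u
  rwa [smul_inv_smul] at this

theorem stb_smul_ne_zero (G : SemilinearAut K F) {u : F} (hu : u ≠ 0) : G • u ≠ 0 := by
  rw [SemilinearAut.smul_def]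
  exact (map_ne_zero_iff _ (SemilinearAut.toRingAut G).injective).mpr hu

/-- If `m D = div u` and `(G − Q)(G − 1) u = h ^ m` then `(G − Q)(G − 1) [D] = 0`. -/
theorem stb_pic0_of_pow (G : SemilinearAut K F) (D : Divisor.degZero (K := K) (F := F))
    (m : ℕ) (hm : m ≠ 0) (u : F) (hu : u ≠ 0)
    (hD : ∀ v : Place K F, (m : ℤ) * (D : Divisor K F) v = v.ord u) (Q : ℕ)
    (h : F) (hh : h ^ m = (G • G • u) * u ^ Q / (G • u) ^ (Q + 1)) :
    G • G • Pic0.mk D + Q • Pic0.mk D = (Q + 1) • (G • Pic0.mk D) := by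
  have hGu : G • u ≠ 0 := stb_smul_ne_zero G hu
  have hGGu : G • G • u ≠ 0 := stb_smul_ne_zero G hGu
  have hm' : (m : ℤ) ≠ 0 := by exact_mod_cast hm
  have hh0 : h ≠ 0 := by
    intro h0
    rw [h0, zero_pow hm] at hh
    exact (div_ne_zero (mul_ne_zero hGGu (pow_ne_zero _ hu)) (pow_ne_zero _ hGu)) hh.symm
  -- the divisor `E = G²D + Q D − (Q+1) G D`
  set E : Divisor.degZero (K := K) (F := F) :=
    SemilinearAut.degZeroSMulHom G (SemilinearAut.degZeroSMulHom G D) + Q • D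
      - (Q + 1) • SemilinearAut.degZeroSMulHom G D with hE
  have key : ∀ v : Place K F, (E : Divisor K F) v = v.ord h := by
    intro v
    have h1 : (m : ℤ) * v.ord h
        = v.ord (G • G • u) + Q * v.ord u - (Q + 1 : ℕ) * v.ord (G • u) := by
      rw [← unram_ord_pow, hh, unram_ord_div v (mul_ne_zero hGGu (pow_ne_zero _ hu))
        (pow_ne_zero _ hGu), v.ord_mul hGGu (pow_ne_zero _ hu), unram_ord_pow,
        unram_ord_pow]
    have h2 : v.ord (G • G • u) = (m : ℤ) * (D : Divisor K F) (G⁻¹ • G⁻¹ • v) := by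
      rw [stb_ord_smul_eq, stb_ord_smul_eq, hD]
    have h3 : v.ord (G • u) = (m : ℤ) * (D : Divisor K F) (G⁻¹ • v) := by
      rw [stb_ord_smul_eq, hD]
    have e1 : (E : Divisor K F) v
        = (D : Divisor K F) (G⁻¹ • G⁻¹ • v) + Q * (D : Divisor K F) v
          - (Q + 1 : ℕ) * (D : Divisor K F) (G⁻¹ • v) := by
      show ((G • (G • (D : Divisor K F))) + Q • (D : Divisor K F)
          - (Q + 1) • (G • (D : Divisor K F))) v = _
      rw [Finsupp.sub_apply, Finsupp.add_apply, Finsupp.smul_apply, Finsupp.smul_apply,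
        SemilinearAut.divisor_smul_apply, SemilinearAut.divisor_smul_apply,
        SemilinearAut.divisor_smul_apply, nsmul_eq_mul, nsmul_eq_mul]
    have h4 : (m : ℤ) * v.ord h = (m : ℤ) * (E : Divisor K F) v := by
      rw [h1, h2, h3, ← hD v, e1]
      push_cast
      ring
    exact (mul_left_cancel₀ hm' h4).symm
  have hzero : Pic0.mk E = 0 := by
    unfold Pic0.mk
    rw [QuotientAddGroup.eq_zero_iff, AddSubgroup.mem_addSubgroupOf]
    exact ⟨h, hh0, key⟩
  have e2 : Pic0.mk E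
      = G • G • Pic0.mk D + Q • Pic0.mk D - (Q + 1) • (G • Pic0.mk D) := by
    rw [SemilinearAut.pic0_smul_mk, SemilinearAut.pic0_smul_mk]
    rfl
  rw [e2, sub_eq_zero] at hzero
  exact hzero

end Generic

variable (M₁ q : ℕ) [NeZero M₁] [NeZero q]

/-- If `m D = div u` and the push-forward of the class of `D` along `φ` vanishes, then the norm
of `u` along `φ` is a constant times an `m`-th power. -/
theorem stb_norm_eq_of_push_eq_zero
    (φ : modularFunctionFieldBar M₁ →ₐ[Kb] modularFunctionFieldBar (M₁ * q))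
    (hfin : FiniteAlong Kb φ)
    (D : Divisor.degZero (K := Kb) (F := modularFunctionFieldBar (M₁ * q)))
    (hpush : stbPushAlong M₁ q φ hfin (Pic0.mk D) = 0)
    (m : ℕ) (u : modularFunctionFieldBar (M₁ * q)) (hu : u ≠ 0)
    (hD : ∀ v : Place Kb (modularFunctionFieldBar (M₁ * q)),
      (m : ℤ) * (D : Divisor Kb (modularFunctionFieldBar (M₁ * q))) v = v.ord u) :
    ∃ (c : Kb) (f : modularFunctionFieldBar M₁),
      stbNormAlong M₁ q φ u = algebraMap Kb (modularFunctionFieldBar M₁) c * f ^ m := by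
  letI := algebraAlong φ
  haveI := isScalarTower_along φ
  haveI : FiniteDimensional (FF M₁) (FF (M₁ * q)) := hfin
  haveI : Algebra.IsIntegral (FF M₁) (FF (M₁ * q)) := Algebra.IsIntegral.of_finite _ _
  haveI := hasPrincipalDivisors_FF (M₁ * q)
  have hNF : Divisor.PushforwardNormFormula Kb (FF M₁) (FF (M₁ * q)) :=
    pushforwardNormFormula (residue_bijective_FF M₁) (residue_bijective_FF (M₁ * q))
  -- `φ_* D = div f`
  have h1 : Pic0.mk (Pic0.pushforwardDegZeroHom (K := Kb) (FF M₁) D) = 0 := hpush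
  unfold Pic0.mk at h1
  rw [QuotientAddGroup.eq_zero_iff, AddSubgroup.mem_addSubgroupOf] at h1
  obtain ⟨f, hf, hDf⟩ := h1
  -- `div (N u) = φ_* (div u) = m φ_* D`
  haveI : Module.Free (FF M₁) (FF (M₁ * q)) := Module.Free.of_divisionRing _ _
  have hN0 : Algebra.norm (FF M₁) u ≠ 0 := Algebra.norm_ne_zero_iff.mpr hu
  have hmD : ∀ w : Place Kb (FF (M₁ * q)),
      ((m • (D : Divisor Kb (FF (M₁ * q))) : Divisor Kb (FF (M₁ * q)))) w = w.ord u := by
    intro w
    rw [Finsupp.smul_apply, nsmul_eq_mul]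
    exact hD w
  have h2 : ∀ v : Place Kb (FF M₁),
      v.ord (Algebra.norm (FF M₁) u) = (m : ℤ) * v.ord f := by
    intro v
    rw [← hNF u hu (m • (D : Divisor Kb (FF (M₁ * q)))) hmD v, map_nsmul, Finsupp.smul_apply,
      nsmul_eq_mul]
    congr 1
    exact hDf v
  -- `N u / f ^ m` is a constant
  have h3 : ∀ v : Place Kb (FF M₁), v.ord (Algebra.norm (FF M₁) u / f ^ m) = 0 := by
    intro v
    rw [unram_ord_div v hN0 (pow_ne_zero _ hf), unram_ord_pow, h2]
    ring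
  obtain ⟨c, hc⟩ := mu_exists_const_of_ord_eq_zero _ h3
  refine ⟨c, f, ?_⟩
  show Algebra.norm (FF M₁) u = _
  rw [hc, div_mul_cancel₀ _ (pow_ne_zero _ hf)]

/-- **STB-J.**  The Kummer form of (P7-a) gives (P7-a) on `J₀(M₁ q)[p^∞]`. -/
theorem stmtNewFrobJ_of_kummer (h : StmtNewFrobKummerAt M₁ q) (hq : q.Prime)
    (p : ℕ) (hp : p.Prime) (hpq : p ≠ q) : StmtNewFrobJ M₁ q p := by
  intro A hA σ hσ x hx hnew
  obtain ⟨n, hn⟩ := hx
  obtain ⟨D, rfl⟩ := Pic0.mk_surjective x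
  rw [mem_stbNew] at hnew
  have hp0 : p ≠ 0 := hp.ne_zero
  have hqp' : ¬ q ∣ p := fun hd => hpq ((Nat.prime_dvd_prime_iff_eq hq hp).mp hd).symm
  have hqpn : ¬ q ∣ p ^ n := fun hd => hqp' (hq.dvd_of_dvd_pow hd)
  have hpn0 : p ^ n ≠ 0 := pow_ne_zero n hp0
  have hprin : ((p ^ n • D : Divisor.degZero (K := Qb) (F := modularFunctionFieldBar (M₁ * q))) :
      Divisor Qb (modularFunctionFieldBar (M₁ * q))) ∈ Divisor.principal := by
    have h1 : Pic0.mk (p ^ n • D) = 0 := by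
      rw [← hn]; rfl
    unfold Pic0.mk at h1
    rw [QuotientAddGroup.eq_zero_iff, AddSubgroup.mem_addSubgroupOf] at h1
    exact h1
  obtain ⟨u, hu, hDu⟩ := hprin
  have hDu' : ∀ v : Place Qb (modularFunctionFieldBar (M₁ * q)),
      ((p ^ n : ℕ) : ℤ) * (D : Divisor Qb (modularFunctionFieldBar (M₁ * q))) v = v.ord u := by
    intro v
    rw [← hDu v, AddSubgroup.coe_nsmul, Finsupp.smul_apply, nsmul_eq_mul]
  have hdvd : ∀ P : Place Qb (modularFunctionFieldBar (M₁ * q)),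
      ((p ^ n : ℕ) : ℤ) ∣ P.ord u := fun P => ⟨_, (hDu' P).symm⟩
  have hα := stb_norm_eq_of_push_eq_zero M₁ q (heckeAlphaBar Kb M₁ q)
    (finiteAlong_heckeAlphaBar M₁ q) D hnew.1 (p ^ n) u hu hDu'
  have hβ := stb_norm_eq_of_push_eq_zero M₁ q (heckeBetaBar Kb M₁ q)
    (finiteAlong_heckeBetaBar M₁ q) D hnew.2 (p ^ n) u hu hDu'
  set g := arithmeticGalois (modularFunctionFieldFull (M₁ * q)) σ with hg
  obtain ⟨k, hk⟩ := h A hA (p ^ n) hqpn σ hσ u hu hdvd hα hβ
  have e1 : ∀ y : modularFunctionFieldBar (M₁ * q), (g * g) • y = g • g • y :=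
    fun y => mul_smul g g y
  have hk' : k ^ (p ^ n) = ((g * g) • (g * g) • u) * u ^ (q ^ 2) / ((g * g) • u) ^ (q ^ 2 + 1) := by
    rw [e1, e1]
    exact hk
  have key := stb_pic0_of_pow (g * g) D (p ^ n) hpn0 u hu hDu' (q ^ 2) k hk'
  have e2 : ∀ y : JZero (M₁ * q), (g * g) • y = σ • σ • y := fun y => mul_smul g g y
  rw [e2, e2] at key
  exact key

end Fermat.Agent.STB

end
end ZBSTB_010_0

/-! ### bundled: `Fermat.Agent.S35.FinalInputs` -/
section ZBSTB_010_1

/-!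
# STB-F: S35 (frozen type) from `StmtNewFrobJ` alone (helper76)

All the other inputs of `s35_of_stb` are landed and discharged here:

* `stmtESIn_proved` : the Eichler–Shimura inputs (`ES.torsionUnif_proved`, `ES.stmtFiniteLevel`,
  `ES.G2.stmtFrob_of_stmtINJAll`, `ES.G2.stmtUnram_of_stmtINJAll`, `INJ.injAll_stmtINJAll`);
* `stmtNewPoly_proved` : (P1) = `STB.stb_p1_iota` (helper46);
* `stmtNewMem_proved` : (P2) + (P3) = `STB.stb_p3_new` (helper59, helper92).

`s35_of_newFrob` : S35 verbatim from `hNF : ∀ M₁ q p, q ∤ M₁ → p ≠ q → STB.StmtNewFrobJ M₁ q p`.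
-/

set_option autoImplicit false

open Polynomial

noncomputable section

namespace Fermat.Agent.S35

open ModularCurve Fermat.Agent.ES Fermat.Agent.S31 Fermat.Agent.S30 Fermat.Agent.STB

theorem stmtESIn_proved : StmtESIn := fun N p _ hp =>
  ⟨torsionUnif_proved N p hp.pos, stmtFiniteLevel N p hp.ne_zero,
    G2.stmtFrob_of_stmtINJAll Fermat.Agent.INJ.injAll_stmtINJAll N p,
    G2.stmtUnram_of_stmtINJAll Fermat.Agent.INJ.injAll_stmtINJAll N p⟩

theorem stmtNewPoly_proved : StmtNewPoly := by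
  intro M _ g hg M₁ _ hM₁ hne S hMS O' _ _ _ chig hchig iota
  exact stb_p1_iota
    (fun N p _ hp => esPkgFaith_of_inputs Fermat.Agent.INJ.injAll_stmtINJAll hp
      (torsionUnif_proved N p hp.pos))
    hg hM₁ hne S hMS chig hchig iota

theorem stmtNewMem_proved : StmtNewMem := fun _ _ _ _ _ hp hq hqM₁ t ht h0 x =>
  stb_p3_new hp hq hqM₁ t ht h0 x

/-- **S35 verbatim**, from `StmtNewFrobJ` ((P7-a), the target of STB-MG/STB-J) alone. -/
theorem s35_of_newFrob
    (hNF : ∀ (M₁ q p : ℕ) [NeZero M₁] [NeZero q], q.Prime → ¬ q ∣ M₁ → p.Prime → p ≠ q →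
      StmtNewFrobJ M₁ q p)
    {M : ℕ} [NeZero M] {g : CuspForm (CongruenceSubgroup.Gamma0 M) 2} (hg : g.IsNewform)
    (lam : ℕ) [Fact lam.Prime]
    (S : Finset ℕ)
    (O' : Type) [CommRing O'] [IsDomain O'] [IsDiscreteValuationRing O']
    [IsAdicComplete (IsLocalRing.maximalIdeal O') O'] [Finite (IsLocalRing.ResidueField O')]
    [CharZero O'] (hlamO' : (lam : O') ∈ IsLocalRing.maximalIdeal O')
    (chig : CuspForm.heckeAlgebra M 2 (↑S : Set ℕ) →+* ℂ)
    (hchig : ∀ (ℓ : ℕ) (hℓ : ℓ.Prime) (hℓM : ¬ ℓ ∣ M) (hℓS : ℓ ∉ (↑S : Set ℕ)),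
      chig (CuspForm.heckeAlgebra.T hℓ hℓM hℓS) = ModularFormClass.qCoeff g ℓ)
    (iota : chig.range →+* O')
    (hlamS : lam ∈ S) (hMS : ∀ q : ℕ, q.Prime → q ∣ M → q ∈ S) :
    ∃ (O'' : Type) (_ : CommRing O'') (_ : IsDomain O'') (_ : IsDiscreteValuationRing O'')
      (_ : IsAdicComplete (IsLocalRing.maximalIdeal O'') O'')
      (_ : Finite (IsLocalRing.ResidueField O''))
      (_ : CharZero O'') (_ : Algebra O' O'') (_ : Module.Finite O' O'')
      (_ : IsLocalHom (algebraMap O' O'')),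
      Function.Injective (algebraMap O' O'') ∧
      ∃ ρ : GaloisRepAdic O'',
        (∀ (ℓ : ℕ) (hℓ : ℓ.Prime) (hℓM : ¬ ℓ ∣ M) (hℓS : ℓ ∉ (↑S : Set ℕ)),
          ∀ A : ValuationSubring (AlgebraicClosure ℚ), A.LiesOverPrime ℓ →
            ∀ σ : AlgebraicClosure ℚ ≃ₐ[ℚ] AlgebraicClosure ℚ, A.IsFrobeniusAt σ ℓ →
              LinearMap.charpoly (ρ.ρ σ) =
                X ^ 2 - C (algebraMap O' O'' ((iota.comp chig.rangeRestrict)
                  (CuspForm.heckeAlgebra.T hℓ hℓM hℓS))) * X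
                  + C ((ℓ : O''))) ∧
        (∀ q : ℕ, q.Prime → q ≠ lam → q ∣ M → ¬ q ^ 2 ∣ M →
          ∀ A : ValuationSubring (AlgebraicClosure ℚ), A.LiesOverPrime q →
            ∀ σ : AlgebraicClosure ℚ ≃ₐ[ℚ] AlgebraicClosure ℚ, A.IsFrobeniusAt σ q →
              LinearMap.charpoly (ρ.ρ σ) = X ^ 2 - C ((q : O'') + 1) * X + C ((q : O'')) ∨
              LinearMap.charpoly (ρ.ρ σ) = X ^ 2 + C ((q : O'') + 1) * X + C ((q : O''))) :=
  s35_of_stb Fermat.Agent.Cheb.weakChebotarev_holds stmtESIn_proved hNF stmtNewPoly_proved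
    stmtNewMem_proved hg lam S O' hlamO' chig hchig iota hlamS hMS

/-- `StmtNewFrobJ` at all levels from the Kummer form `StmtNewFrobKummer` (STB-J, helper50). -/
theorem stmtNewFrobJ_all_of_kummer (hK : StmtNewFrobKummer)
    (M₁ q p : ℕ) [NeZero M₁] [NeZero q] (hq : q.Prime) (hqM₁ : ¬ q ∣ M₁) (hp : p.Prime)
    (hpq : p ≠ q) : StmtNewFrobJ M₁ q p :=
  stmtNewFrobJ_of_kummer M₁ q (hK M₁ q hq hqM₁) hq p hp hpq

end Fermat.Agent.S35

end
end ZBSTB_010_1
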