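/- GENERATED FILE (helper35, build-time optimisation, NOTES/ZB.md): verbatim concatenation of the modules
   Fermat.Agent.STB.MGTop
   Fermat.Agent.S35.FinalTop
   Fermat.Agent.STB.MGInputsFinal
   Do not edit; do not import together with these modules. -/
import Fermat.Agent.ZB.STB_009
import Fermat.Agent.ZB.STB_001
import Fermat.Agent.ZB.STB_010
import Fermat.Agent.ZB.STB_003
import Fermat.Agent.ZB.UNIP_035

/-! ### bundled: `Fermat.Agent.STB.MGTop` -/
section ZBSTB_011_0

/-!
# STB-MG, top: `StmtNewFrobKummer` from the non-formal inputs `StbdInputs` (helper76)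

* `StmtStbdInputs` : the inputs `StbdInputs hπ ιC hq hqM` (`STB/MGData.lean`) for SOME uniformizer
  `π` of `A′ = mgcA A K₁` and SOME embedding `ιC`, at every level `M₁ * q` with `q ∤ M₁`,
  `(q = 2 → 3 ∣ M₁)`, `(q = 3 → 2 ∣ M₁)`, every `A` over `q` and every number field `K₁` Galois
  over `ℚ` for which `A′` is a discrete valuation ring.
* `stmtNewFrobKummer_of_inputs : StmtStbdInputs → StmtNewFrobKummer`
  (`stbData_of_inputs`, `stmtNewFrobKummerAtPP_of_data` (helper50), `stmtKronQ` (helper60, STB-K),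
  `stmtNewFrobKummer_of_pp_aux` (helper18, STB-D + STB-MG-7)).
-/

set_option autoImplicit false
set_option linter.style.haveILetI false
set_option linter.unusedSectionVars false
set_option linter.unusedVariables false

noncomputable section

namespace Fermat.Agent.STB

open ModularCurve AlgebraicCurve Fermat.Agent.ES Fermat.Agent.ES.G2 Fermat.Agent.INJ
open Fermat.Agent.UNIP IntermediateField

/-- the non-formal inputs of `StbData` at all levels where the base line of KEY exists -/
def StmtStbdInputs : Prop :=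
  ∀ (M₁ q : ℕ) [NeZero M₁] [NeZero q] (hq : q.Prime) (hqM : ¬ q ∣ M₁),
    (q = 2 → 3 ∣ M₁) → (q = 3 → 2 ∣ M₁) →
    ∀ (A : ValuationSubring Qb), A.LiesOverPrime q →
    ∀ (K₁ : IntermediateField ℚ Qb) [NumberField K₁] [IsGalois ℚ K₁]
      [IsDiscreteValuationRing ↥(mgcA A K₁)],
      ∃ (π : ↥(mgcA A K₁)) (hπ : Irreducible π) (ιC : ↥(mgcE A K₁) →+* ℂ),
        StbdInputs hπ ιC hq hqM

/-- **STB-MG, top.**  (P7-a) in Kummer form at all levels from the non-formal inputs. -/
theorem stmtNewFrobKummer_of_inputs (h : StmtStbdInputs) : StmtNewFrobKummer :=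
  stmtNewFrobKummer_of_pp_aux fun M₁ q _ _ hq hqM h2 h3 =>
    stmtNewFrobKummerAtPP_of_data M₁ q hq hqM (stmtKronQ hq hqM)
      fun A hA K₁ _ _ _ φ hφF hφ => by
        obtain ⟨π, hπ, ιC, hin⟩ := h M₁ q hq hqM h2 h3 A hA K₁
        exact stbData_of_inputs hA h2 h3 hφF hin

end Fermat.Agent.STB

end
end ZBSTB_011_0

/-! ### bundled: `Fermat.Agent.S35.FinalTop` -/
section ZBSTB_011_1

/-!
# STB-F, top: S35 (frozen type) from the non-formal special-fibre inputs (helper76)

`s35_of_stbdInputs : STB.StmtStbdInputs → <S35 statement>`: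
`STB.stmtNewFrobKummer_of_inputs` (STB-MG), `stmtNewFrobJ_all_of_kummer` (STB-J), `s35_of_newFrob`.
-/

set_option autoImplicit false

open Polynomial

noncomputable section

namespace Fermat.Agent.S35

open Fermat.Agent.STB

/-- **S35 verbatim**, from the non-formal special-fibre inputs `STB.StmtStbdInputs`. -/
theorem s35_of_stbdInputs (h : StmtStbdInputs)
    {M : ℕ} [NeZero M] {g : CuspForm (CongruenceSubgroup.Gamma0 M) 2} (hg : g.IsNewform)
    (lam : ℕ) [Fact lam.Prime]
    (S : Finset ℕ)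
    (O' : Type) [CommRing O'] [IsDomain O'] [IsDiscreteValuationRing O']
    [IsAdicComplete (IsLocalRing.maximalIdeal O') O'] [Finite (IsLocalRing.ResidueField O')]
    [CharZero O'] (hlamO' : (lam : O') ∈ IsLocalRing.maximalIdeal O')
    (chig : CuspForm.heckeAlgebra M 2 (↑S : Set ℕ) →+* ℂ)
    (hchig : ∀ (ℓ : ℕ) (hℓ : ℓ.Prime) (hℓM : ¬ ℓ ∣ M) (hℓS : ℓ ∉ (↑S : Set ℕ)),
      chig (CuspForm.heckeAlgebra.T hℓ hℓM hℓS) = ModularFormClass.qCoeff g ℓ)
    (iota : chig.range →+* O')
    (hlamS : lam ∈ S) (hMS : ∀ q : ℕ, q.Prime → q ∣ M → q ∈ S) :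
    ∃ (O'' : Type) (_ : CommRing O'') (_ : IsDomain O'') (_ : IsDiscreteValuationRing O'')
      (_ : IsAdicComplete (IsLocalRing.maximalIdeal O'') O'')
      (_ : Finite (IsLocalRing.ResidueField O''))
      (_ : CharZero O'') (_ : Algebra O' O'') (_ : Module.Finite O' O'')
      (_ : IsLocalHom (algebraMap O' O'')),
      Function.Injective (algebraMap O' O'') ∧
      ∃ ρ : GaloisRepAdic O'',
        (∀ (ℓ : ℕ) (hℓ : ℓ.Prime) (hℓM : ¬ ℓ ∣ M) (hℓS : ℓ ∉ (↑S : Set ℕ)),
          ∀ A : ValuationSubring (AlgebraicClosure ℚ), A.LiesOverPrime ℓ →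
            ∀ σ : AlgebraicClosure ℚ ≃ₐ[ℚ] AlgebraicClosure ℚ, A.IsFrobeniusAt σ ℓ →
              LinearMap.charpoly (ρ.ρ σ) =
                X ^ 2 - C (algebraMap O' O'' ((iota.comp chig.rangeRestrict)
                  (CuspForm.heckeAlgebra.T hℓ hℓM hℓS))) * X
                  + C ((ℓ : O''))) ∧
        (∀ q : ℕ, q.Prime → q ≠ lam → q ∣ M → ¬ q ^ 2 ∣ M →
          ∀ A : ValuationSubring (AlgebraicClosure ℚ), A.LiesOverPrime q →
            ∀ σ : AlgebraicClosure ℚ ≃ₐ[ℚ] AlgebraicClosure ℚ, A.IsFrobeniusAt σ q →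
              LinearMap.charpoly (ρ.ρ σ) = X ^ 2 - C ((q : O'') + 1) * X + C ((q : O'')) ∨
              LinearMap.charpoly (ρ.ρ σ) = X ^ 2 + C ((q : O'') + 1) * X + C ((q : O''))) :=
  s35_of_newFrob (stmtNewFrobJ_all_of_kummer (stmtNewFrobKummer_of_inputs h))
    hg lam S O' hlamO' chig hchig iota hlamS hMS

end Fermat.Agent.S35

end
end ZBSTB_011_1

/-! ### bundled: `Fermat.Agent.STB.MGInputsFinal` -/
section ZBSTB_011_2

/-!
# STB-MG, final: the non-formal inputs of `StbData` at all levels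

`stbd_stmtStbdInputs : StmtStbdInputs` from
* `UNIP.mgcb_all_SS1` (helper16) : (SS1) on the chart `j`,
* `stbmn_hnode₁`, `stbmn_hnode₂` (helper3) : the node dichotomy on the charts `j`, `1 / j`,
hence `stbd_stmtNewFrobKummer : StmtNewFrobKummer`.
-/

set_option autoImplicit false
set_option linter.style.haveILetI false
set_option linter.unusedSectionVars false
set_option linter.unusedVariables false

noncomputable section

namespace Fermat.Agent.STB

open ModularCurve AlgebraicCurve Fermat.Agent.ES Fermat.Agent.ES.G2 Fermat.Agent.INJ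
open Fermat.Agent.UNIP IntermediateField

set_option synthInstance.maxHeartbeats 400000 in
set_option maxHeartbeats 3200000 in
/-- **The non-formal inputs of `StbData`**, at all levels. -/
theorem stbd_stmtStbdInputs : StmtStbdInputs := by
  intro M₁ q _ _ hq hqM h2 h3 A hA K₁ _ _ _
  obtain ⟨π, hπ⟩ := IsDiscreteValuationRing.exists_irreducible ↥(mgcA A K₁)
  exact ⟨π, hπ, mgdIota (mgcE A K₁),
    ⟨mgcb_all_SS1 K₁ hq hqM hA h2 h3 hπ (mgdIota (mgcE A K₁)),
      stbmn_hnode₁ K₁ hq hqM hA h2 h3 hπ (mgdIota (mgcE A K₁)),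
      stbmn_hnode₂ K₁ hq hqM hA h2 h3 hπ (mgdIota (mgcE A K₁))⟩⟩

/-- **(P7-a) in Kummer form**, unconditional. -/
theorem stbd_stmtNewFrobKummer : StmtNewFrobKummer :=
  stmtNewFrobKummer_of_inputs stbd_stmtStbdInputs

end Fermat.Agent.STB

end
end ZBSTB_011_2
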