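/- GENERATED FILE (helper35, build-time optimisation, NOTES/ZB.md): verbatim concatenation of the modules
   Fermat.Agent.S36.OfPseudoChar
   Do not edit; do not import together with these modules. -/
import Fermat.Statements.S36
import Fermat.Agent.ZB.ES_034

/-! ### bundled: `Fermat.Agent.S36.OfPseudoChar` -/
section ZBS36_012_0
/-
S36 glue (helper99): S36 from a pseudo-character.

`s36_of_pseudoChar`: if there is a function `t : G_ℚ → O'` which is a two-dimensional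
pseudo-character with determinant `ε` (P1–P3), with `t(Frob_ℓ) = χ(T_ℓ)`, `ε(Frob_ℓ) = ℓ` at the
good primes outside `S` (P4), continuous (P6), with `c² = 1`, `ε(c) = -1`, and such that
for every prime `q ≠ lam` with `q² ∥ M` SOME inertia element `σ` at `q` has `t σ ≠ 2` (h8),
then the conclusion of S36 holds, with `O'' = O'`.

Twin of `Fermat.Agent.S35.s35_of_pseudoChar` (helper59); the hypothesis `hres` of S36 is not
needed on this route (see NOTES/S36-route.md).
-/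

set_option autoImplicit false

open Polynomial

namespace Fermat.Agent.S36

open Fermat.Agent.S53 (Gal M2 MatCont ofMatrix)

/-- The conclusion of S36 for `χ` (`χ = iota.comp chig.rangeRestrict` in S36). -/
def S36Concl (lam M : ℕ) [NeZero M] (S : Finset ℕ) (O' : Type) [CommRing O']
    (χ : CuspForm.heckeAlgebra M 2 (↑S : Set ℕ) →+* O') : Prop :=
  ∃ (O'' : Type) (_ : CommRing O'') (_ : IsDomain O'') (_ : IsDiscreteValuationRing O'')
    (_ : IsAdicComplete (IsLocalRing.maximalIdeal O'') O'')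
    (_ : Finite (IsLocalRing.ResidueField O''))
    (_ : CharZero O'') (_ : Algebra O' O'') (_ : Module.Finite O' O'')
    (_ : IsLocalHom (algebraMap O' O'')),
    Function.Injective (algebraMap O' O'') ∧
    ∃ ρ : GaloisRepAdic O'',
      (∀ (ℓ : ℕ) (hℓ : ℓ.Prime) (hℓM : ¬ ℓ ∣ M) (hℓS : ℓ ∉ (↑S : Set ℕ)),
        ∀ A : ValuationSubring (AlgebraicClosure ℚ), A.LiesOverPrime ℓ →
          ∀ σ : AlgebraicClosure ℚ ≃ₐ[ℚ] AlgebraicClosure ℚ, A.IsFrobeniusAt σ ℓ →
            LinearMap.charpoly (ρ.ρ σ) =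
              X ^ 2 - C (algebraMap O' O'' (χ (CuspForm.heckeAlgebra.T hℓ hℓM hℓS))) * X
                + C ((ℓ : O''))) ∧
      (∀ q : ℕ, q.Prime → q ≠ lam → M.factorization q = 2 → ¬ ρ.IsUnipotentOnInertiaAt q)

/-- A monic quadratic `X² − aX + b` with `a ≠ 2` is not `(X − 1)²`. -/
theorem s36_quadratic_ne {R : Type} [CommRing R] (a b : R) (ha : a ≠ 2) :
    (X ^ 2 - C a * X + C b : R[X]) ≠ (X - 1) ^ 2 := by
  intro h
  apply ha
  have h1 := congrArg (fun p : R[X] => p.coeff 1) h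
  have e2 : ((X - 1) ^ 2 : R[X]) = X ^ 2 - C 2 * X + C 1 := by
    simp only [map_ofNat, map_one]; ring
  rw [e2] at h1
  simp only [coeff_add, coeff_sub, coeff_X_pow, coeff_C_mul, coeff_X_one, coeff_C,
    mul_one] at h1
  norm_num at h1
  exact h1

/-- **S36 from a pseudo-character** (with `O'' = O'`). -/
theorem s36_of_pseudoChar (lam M : ℕ) [NeZero M] (S : Finset ℕ)
    (O' : Type) [CommRing O'] [IsDomain O'] [IsDiscreteValuationRing O']
    [IsAdicComplete (IsLocalRing.maximalIdeal O') O'] [Finite (IsLocalRing.ResidueField O')]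
    [CharZero O']
    (χ : CuspForm.heckeAlgebra M 2 (↑S : Set ℕ) →+* O')
    (t : Gal → O') (ε : Gal →* O') (c : Gal)
    (h1 : t 1 = 2) (h2 : ∀ x y, t (x * y) = t (y * x))
    (h3 : ∀ x y, t (x * y) + ε y * t (x * y⁻¹) = t x * t y)
    (hc : c * c = 1) (hεc : ε c = -1)
    (h4 : ∀ (ℓ : ℕ) (hℓ : ℓ.Prime) (hℓM : ¬ ℓ ∣ M) (hℓS : ℓ ∉ (↑S : Set ℕ)),
      ∀ A : ValuationSubring (AlgebraicClosure ℚ), A.LiesOverPrime ℓ →
        ∀ σ : Gal, A.IsFrobeniusAt σ ℓ →
          t σ = χ (CuspForm.heckeAlgebra.T hℓ hℓM hℓS) ∧ ε σ = (ℓ : O'))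
    (h6 : ∀ k : ℕ, ∃ E : IntermediateField ℚ (AlgebraicClosure ℚ), FiniteDimensional ℚ E ∧
      ∀ σ : Gal, (∀ x ∈ E, σ x = x) →
        ∀ g : Gal, t (σ * g) - t g ∈ IsLocalRing.maximalIdeal O' ^ k)
    (h8 : ∀ q : ℕ, q.Prime → q ≠ lam → M.factorization q = 2 →
      ∃ A : ValuationSubring (AlgebraicClosure ℚ), A.LiesOverPrime q ∧
        ∃ σ : Gal, σ ∈ A.inertiaSubgroupIn ℚ ∧ t σ ≠ 2) :
    S36Concl lam M S O' χ := by
  obtain ⟨Mρ, δ, hδ, htr, hdet, hcont⟩ :=
    Fermat.Agent.ES.Wiles.exists_integral_rep_of_pseudoChar ε t c h1 h2 h3 hc hεc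
  obtain ⟨v, hv⟩ := Fermat.Agent.S30.exists_shift_of_ne_zero δ hδ
  have hM : MatCont O' Mρ := by
    intro n
    obtain ⟨E, hE, hEσ⟩ := h6 (n + v)
    exact ⟨E, hE, fun σ hσ i j => hv n _ (hcont σ _ (hEσ σ hσ) i j)⟩
  refine ⟨O', inferInstance, inferInstance, inferInstance, inferInstance, inferInstance,
    inferInstance, Algebra.id O', inferInstance, ⟨fun _ h => h⟩, Function.injective_id,
    ofMatrix Mρ hM, ?_, ?_⟩
  · intro ℓ hℓ hℓN hℓS A hA σ hσ
    obtain ⟨e1, e2⟩ := h4 ℓ hℓ hℓN hℓS A hA σ hσ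
    have hρ : (ofMatrix Mρ hM).ρ σ = Matrix.toLin' (Mρ σ) := rfl
    rw [hρ, Matrix.charpoly_toLin', Matrix.charpoly_fin_two, htr, hdet, e1, e2]
    rfl
  · intro q hq hqlam hqM hU
    obtain ⟨A, hA, σ, hσ, hne⟩ := h8 q hq hqlam hqM
    have h := hU A hA σ hσ
    have hρ : (ofMatrix Mρ hM).ρ σ = Matrix.toLin' (Mρ σ) := rfl
    rw [hρ, Matrix.charpoly_toLin', Matrix.charpoly_fin_two, htr, hdet] at h
    exact s36_quadratic_ne (t σ) (ε σ) hne h

/-- **S36 from `S36Concl`** (exact shape of the frozen statement, given the glue conclusion for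
`χ = iota.comp chig.rangeRestrict`). -/
theorem s36_of_concl
    {M : ℕ} [NeZero M] (lam : ℕ)
    (S : Finset ℕ)
    (O' : Type) [CommRing O'] [IsDomain O'] [IsDiscreteValuationRing O']
    [IsAdicComplete (IsLocalRing.maximalIdeal O') O'] [Finite (IsLocalRing.ResidueField O')]
    [CharZero O']
    (chig : CuspForm.heckeAlgebra M 2 (↑S : Set ℕ) →+* ℂ)
    (iota : chig.range →+* O')
    (h : S36Concl lam M S O' (iota.comp chig.rangeRestrict)) :
    ∃ (O'' : Type) (_ : CommRing O'') (_ : IsDomain O'') (_ : IsDiscreteValuationRing O'')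
      (_ : IsAdicComplete (IsLocalRing.maximalIdeal O'') O'') (_ : Finite (IsLocalRing.ResidueField O''))
      (_ : CharZero O'') (_ : Algebra O' O'') (_ : Module.Finite O' O'') (_ : IsLocalHom (algebraMap O' O'')),
      Function.Injective (algebraMap O' O'') ∧
      ∃ ρ : GaloisRepAdic O'',
        (∀ (ℓ : ℕ) (hℓ : ℓ.Prime) (hℓM : ¬ ℓ ∣ M) (hℓS : ℓ ∉ (↑S : Set ℕ)),
          ∀ A : ValuationSubring (AlgebraicClosure ℚ), A.LiesOverPrime ℓ →
            ∀ σ : AlgebraicClosure ℚ ≃ₐ[ℚ] AlgebraicClosure ℚ, A.IsFrobeniusAt σ ℓ →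
              LinearMap.charpoly (ρ.ρ σ) =
                X ^ 2 - C (algebraMap O' O'' ((iota.comp chig.rangeRestrict) (CuspForm.heckeAlgebra.T hℓ hℓM hℓS))) * X
                  + C ((ℓ : O''))) ∧
        (∀ q : ℕ, q.Prime → q ≠ lam → M.factorization q = 2 → ¬ ρ.IsUnipotentOnInertiaAt q) :=
  h

end Fermat.Agent.S36


end ZBS36_012_0
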