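/- GENERATED FILE (helper35, build-time optimisation, NOTES/ZB.md): verbatim concatenation of the modules
   Fermat.Agent.S36.WilesRing
   Fermat.Agent.RT.K7.WilesLocal
   Fermat.Agent.RT.K7.WilesBase
   Fermat.Agent.RT.K7.PlanGRA
   Fermat.Agent.RT.K7.GRAAlg
   Fermat.Agent.RT.K7.GRA
   Do not edit; do not import together with these modules. -/
import Mathlib
import Fermat.Prelude.Def_GaloisRep_LocalConditions
import Fermat.Agent.ZB.S53_002

/-! ### bundled: `Fermat.Agent.S36.WilesRing` -/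
section ZBS36_010_0

/-!
# S36, piece A1: Wiles' lemma over a commutative ring, and unipotency on a module

`R` a commutative ring in which `2` is invertible, `E` an `R`-algebra (in the application
`E = End_R Z`), `r : G →* E`, `ε, t : G → R` with the Cayley–Hamilton identity
`r σ + ε σ • r σ⁻¹ = t σ • 1`, and `c ∈ G` with `c² = 1`, `ε c = -1`.

To avoid divisions we work with the doubled idempotents `P = 1 + r c`, `Q = 1 - r c`
(`P + Q = 2`, `P² = 2 P`, `P Q = 0`) and the doubled entries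
`A = t x + t (x c)` (`= 2a`), `D = t x - t (x c)` (`= 2d`),
`Ξ x y = 2 A (x y) - A x A y` (`= 4ξ`), `Ξ' x y = 2 D (x y) - D x D y`.

* `S36CH.PxP`, `QxQ`, `PxQyP`, `QxPyQ` : `P r(x) P = A x • P`, …, `P r(x) Q r(y) P = Ξ x y • P`.
* `S36CH.unip` : if the four entries of "`(mat σ − 1)(mat τ − 1)`" vanish and `Ξ' τ₁ σ₁` is
  invertible, then `(r σ − 1)(r τ − 1) = 0` in `E`.
-/

set_option autoImplicit false
set_option linter.unusedSectionVars false

namespace Fermat.Agent.S36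

variable {G R E : Type*} [Group G] [CommRing R] [Ring E] [Algebra R E]

/-- Cayley–Hamilton datum over a commutative ring. -/
structure S36CH (r : G →* E) (ε : G → R) (t : G → R) (c : G) : Prop where
  ch : ∀ σ, r σ + ε σ • r σ⁻¹ = t σ • (1 : E)
  ε_mul : ∀ (x y : G) (e : E), ε (x * y) • e = (ε x * ε y) • e
  c_sq : c * c = 1
  ε_c : ∀ e : E, ε c • e = -e

/-- a Cayley–Hamilton datum from exact identities for `ε` -/
theorem S36CH.of_exact {r : G →* E} {ε : G → R} {t : G → R} {c : G}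
    (ch : ∀ σ, r σ + ε σ • r σ⁻¹ = t σ • (1 : E))
    (ε_mul : ∀ x y, ε (x * y) = ε x * ε y) (c_sq : c * c = 1) (ε_c : ε c = -1) :
    S36CH r ε t c :=
  ⟨ch, fun x y e => by rw [ε_mul], c_sq, fun e => by rw [ε_c, neg_smul, one_smul]⟩

/-- `2a = t(x) + t(xc)`. -/
def s36A (t : G → R) (c : G) (x : G) : R := t x + t (x * c)
/-- `2d = t(x) - t(xc)`. -/
def s36D (t : G → R) (c : G) (x : G) : R := t x - t (x * c)
/-- `4ξ(x,y) = 2·(2a)(xy) - (2a)(x)(2a)(y)`. -/
def s36Xi (t : G → R) (c : G) (x y : G) : R := 2 * s36A t c (x * y) - s36A t c x * s36A t c y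
/-- `4ξ'(x,y) = 2·(2d)(xy) - (2d)(x)(2d)(y)`. -/
def s36Xi' (t : G → R) (c : G) (x y : G) : R := 2 * s36D t c (x * y) - s36D t c x * s36D t c y

/-- `2 e₊ = 1 + r c` -/
def s36P (r : G →* E) (c : G) : E := 1 + r c
/-- `2 e₋ = 1 - r c` -/
def s36Q (r : G →* E) (c : G) : E := 1 - r c

namespace S36CH

variable {r : G →* E} {ε : G → R} {t : G → R} {c : G}

lemma polar (h : S36CH r ε t c) (x y : G) :
    r x * r y + r y * r x - t x • r y - t y • r x + (t x * t y) • (1 : E) = t (x * y) • 1 := by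
  have hx : ε x • r x⁻¹ = t x • (1 : E) - r x := eq_sub_of_add_eq' (h.ch x)
  have hy : ε y • r y⁻¹ = t y • (1 : E) - r y := eq_sub_of_add_eq' (h.ch y)
  have hxy := h.ch (x * y)
  rw [mul_inv_rev, map_mul r x y, map_mul r y⁻¹ x⁻¹, h.ε_mul, mul_comm (ε x) (ε y),
    ← smul_mul_smul_comm, hx, hy] at hxy
  rw [← hxy]
  simp only [sub_mul, mul_sub, smul_mul_assoc, mul_smul_comm, one_mul, mul_one]
  module

lemma c_inv (h : S36CH r ε t c) : c⁻¹ = c := inv_eq_of_mul_eq_one_left h.c_sq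

lemma tc_smul (h : S36CH r ε t c) (y : E) : t c • y = 0 := by
  have h1 := h.ch c
  rw [h.c_inv, h.ε_c] at h1
  have h2 : t c • (1 : E) = 0 := by rw [← h1]; abel
  calc t c • y = (t c • (1 : E)) * y := by rw [smul_mul_assoc, one_mul]
    _ = 0 := by rw [h2, zero_mul]

lemma rc_sq (h : S36CH r ε t c) : r c * r c = 1 := by
  rw [← map_mul, h.c_sq, map_one]

lemma mul_c (h : S36CH r ε t c) (x : G) :
    r x * r c + r c * r x = t x • r c + t (x * c) • (1 : E) := by
  have h1 := h.polar x c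
  have h2 : t c • r x = 0 := h.tc_smul _
  have h3 : (t x * t c) • (1 : E) = 0 := by rw [mul_comm, mul_smul, h.tc_smul]
  rw [h2, h3] at h1
  linear_combination (norm := module) h1

lemma c_mul_c (h : S36CH r ε t c) (x : G) :
    r c * r x * r c = t x • (1 : E) + t (x * c) • r c - r x := by
  have h1 : r c * r x = t x • r c + t (x * c) • (1 : E) - r x * r c :=
    eq_sub_of_add_eq' (h.mul_c x)
  rw [h1, sub_mul, add_mul, smul_mul_assoc, smul_mul_assoc, one_mul, mul_assoc, h.rc_sq, mul_one]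

local notation "P" => s36P r c
local notation "Q" => s36Q r c

lemma P_add_Q : P + Q = (2 : R) • (1 : E) := by
  rw [s36P, s36Q]; module

lemma PP (h : S36CH r ε t c) : P * P = (2 : R) • P := by
  rw [s36P, mul_add, add_mul, add_mul, h.rc_sq]; simp only [one_mul, mul_one]; module

lemma QQ (h : S36CH r ε t c) : Q * Q = (2 : R) • Q := by
  rw [s36Q, mul_sub, sub_mul, sub_mul, h.rc_sq]; simp only [one_mul, mul_one]; module

lemma PQ (h : S36CH r ε t c) : P * Q = 0 := by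
  rw [s36P, s36Q, mul_sub, add_mul, add_mul, h.rc_sq]; simp only [one_mul, mul_one]; abel

lemma QP (h : S36CH r ε t c) : Q * P = 0 := by
  rw [s36P, s36Q, mul_add, sub_mul, sub_mul, h.rc_sq]; simp only [one_mul, mul_one]; abel

/-- `P X P = A(x) P`. -/
lemma PxP (h : S36CH r ε t c) (x : G) : P * r x * P = s36A t c x • P := by
  have h1 := h.mul_c x
  have h2 := h.c_mul_c x
  rw [s36P, s36A]
  simp only [mul_add, add_mul, one_mul, mul_one]
  linear_combination (norm := module) h1 + h2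

/-- `Q X Q = D(x) Q`. -/
lemma QxQ (h : S36CH r ε t c) (x : G) : Q * r x * Q = s36D t c x • Q := by
  have h1 := h.mul_c x
  have h2 := h.c_mul_c x
  rw [s36Q, s36D]
  simp only [mul_sub, sub_mul, one_mul, mul_one]
  linear_combination (norm := module) - h1 + h2

/-- `P X Q Y P = Ξ(x,y) P`. -/
lemma PxQyP (h : S36CH r ε t c) (x y : G) :
    P * r x * Q * r y * P = s36Xi t c x y • P := by
  have e1 := h.PxP (x * y)
  have ex := h.PxP x
  have ey := h.PxP y
  have hQ : Q = (2 : R) • (1 : E) - P := by rw [← P_add_Q (r := r) (c := c)]; abel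
  have split : P * r x * Q * r y * P
      = (2 : R) • (P * r (x * y) * P) - (P * r x * P) * r y * P := by
    rw [hQ, map_mul]
    simp only [mul_sub, sub_mul, mul_smul_comm, smul_mul_assoc, mul_one, mul_assoc]
  rw [split, e1, ex, smul_mul_assoc, smul_mul_assoc, ey, s36Xi]
  module

/-- `Q X P Y Q = Ξ'(x,y) Q`. -/
lemma QxPyQ (h : S36CH r ε t c) (x y : G) :
    Q * r x * P * r y * Q = s36Xi' t c x y • Q := by
  have e1 := h.QxQ (x * y)
  have ex := h.QxQ x
  have ey := h.QxQ y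
  have hP : P = (2 : R) • (1 : E) - Q := by rw [← P_add_Q (r := r) (c := c)]; abel
  have split : Q * r x * P * r y * Q
      = (2 : R) • (Q * r (x * y) * Q) - (Q * r x * Q) * r y * Q := by
    rw [hP, map_mul]
    simp only [mul_sub, sub_mul, mul_smul_comm, smul_mul_assoc, mul_one, mul_assoc]
  rw [split, e1, ex, smul_mul_assoc, smul_mul_assoc, ey, s36Xi']
  module

/-- **Unipotency on a Cayley–Hamilton module.**  If the four (doubled) entries of
`(mat σ − 1)(mat τ − 1)` vanish and `Ξ'(τ₁, σ₁)` and `2` are invertible, then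
`(r σ − 1)(r τ − 1) = 0`. -/
theorem unip (h : S36CH r ε t c) (i2 : R) (hi2 : ∀ e : E, (2 * i2) • e = e) (σ₁ τ₁ : G)
    (w : R) (hw : ∀ e : E, (w * s36Xi' t c τ₁ σ₁) • e = e) (σ τ : G)
    (ha : ∀ e : E, (s36A t c (σ * τ) - s36A t c σ - s36A t c τ + 2) • e = 0)
    (hd : ∀ e : E, (s36D t c (σ * τ) - s36D t c σ - s36D t c τ + 2) • e = 0)
    (hb : ∀ e : E, (s36Xi t c (σ * τ) τ₁ - s36Xi t c σ τ₁ - s36Xi t c τ τ₁) • e = 0)
    (hc : ∀ e : E, (s36Xi t c σ₁ (σ * τ) - s36Xi t c σ₁ σ - s36Xi t c σ₁ τ) • e = 0) :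
    (r σ - 1) * (r τ - 1) = 0 := by
  set X : E := r (σ * τ) - r σ - r τ + 1 with hX
  have hXeq : (r σ - 1) * (r τ - 1) = X := by
    rw [hX, map_mul]; noncomm_ring
  rw [hXeq]
  -- the four blocks
  have hPXP : P * X * P = 0 := by
    have : P * X * P = (s36A t c (σ * τ) - s36A t c σ - s36A t c τ + 2) • P := by
      rw [hX]
      simp only [mul_add, mul_sub, add_mul, sub_mul, mul_one, h.PxP, h.PP]
      module
    rw [this, ha]
  have hQXQ : Q * X * Q = 0 := by
    have : Q * X * Q = (s36D t c (σ * τ) - s36D t c σ - s36D t c τ + 2) • Q := by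
      rw [hX]
      simp only [mul_add, mul_sub, add_mul, sub_mul, mul_one, h.QxQ, h.QQ]
      module
    rw [this, hd]
  have hPXQ : P * X * Q = 0 := by
    have e1 : P * X * Q * r τ₁ * P = 0 := by
      have : P * X * Q * r τ₁ * P
          = (s36Xi t c (σ * τ) τ₁ - s36Xi t c σ τ₁ - s36Xi t c τ τ₁) • P := by
        rw [hX]
        simp only [mul_add, mul_sub, add_mul, sub_mul, mul_one, h.PxQyP, h.PQ, zero_mul]
        module
      rw [this, hb]
    have e2 : P * X * Q * r τ₁ * P * r σ₁ * Q = s36Xi' t c τ₁ σ₁ • (P * X * Q) := by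
      have : P * X * Q * r τ₁ * P * r σ₁ * Q = P * X * (Q * r τ₁ * P * r σ₁ * Q) := by
        simp only [mul_assoc]
      rw [this, h.QxPyQ, mul_smul_comm]
    rw [e1, zero_mul, zero_mul] at e2
    calc P * X * Q = (w * s36Xi' t c τ₁ σ₁) • (P * X * Q) := (hw _).symm
      _ = 0 := by rw [mul_smul, ← e2, smul_zero]
  have hQXP : Q * X * P = 0 := by
    have e1 : P * r σ₁ * Q * X * P = 0 := by
      have : P * r σ₁ * Q * X * P
          = (s36Xi t c σ₁ (σ * τ) - s36Xi t c σ₁ σ - s36Xi t c σ₁ τ) • P := by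
        rw [hX]
        simp only [mul_add, mul_sub, add_mul, sub_mul, mul_one, mul_assoc]
        simp only [← mul_assoc, h.PxQyP]
        have hz : P * r σ₁ * Q * P = 0 := by rw [mul_assoc, h.QP, mul_zero]
        rw [hz]
        module
      rw [this, hc]
    have e2 : Q * r τ₁ * (P * r σ₁ * Q * X * P) = s36Xi' t c τ₁ σ₁ • (Q * X * P) := by
      have : Q * r τ₁ * (P * r σ₁ * Q * X * P) = (Q * r τ₁ * P * r σ₁ * Q) * X * P := by
        simp only [mul_assoc]
      rw [this, h.QxPyQ, smul_mul_assoc, smul_mul_assoc]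
    rw [e1, mul_zero] at e2
    calc Q * X * P = (w * s36Xi' t c τ₁ σ₁) • (Q * X * P) := (hw _).symm
      _ = 0 := by rw [mul_smul, ← e2, smul_zero]
  have h4 : ((2 : R) • (1 : E)) * X * ((2 : R) • (1 : E)) = 0 := by
    rw [← P_add_Q (r := r) (c := c)]
    simp only [mul_add, add_mul]
    rw [hPXP, hQXP, hPXQ, hQXQ]
    simp
  have h5 : ((2 : R) * 2) • X = 0 := by
    rw [← h4]
    simp only [smul_mul_assoc, mul_smul_comm, one_mul, mul_one, smul_smul]
  calc X = (2 * i2) • (2 * i2) • X := by rw [hi2, hi2]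
    _ = ((i2 * i2) * ((2 : R) * 2)) • X := by rw [smul_smul]; congr 1; ring
    _ = 0 := by rw [mul_smul, h5, smul_zero]

end S36CH

end Fermat.Agent.S36


end ZBS36_010_0

/-! ### bundled: `Fermat.Agent.RT.K7.WilesLocal` -/
section ZBS36_010_1

/-!
# K-machine, piece K7a: Wiles' lemma over a commutative ring

`R` a commutative ring in which `2` is invertible (`2 * i2 = 1`), `G` a group, `ε : G →* R`,
`t : G → R` a two-dimensional pseudo-character with determinant `ε`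
(`t 1 = 2`, `t (x y) = t (y x)`, `t (x y) + ε y · t (x y⁻¹) = t x · t y`) and `c ∈ G` with
`c² = 1`, `ε c = -1`.  With

  `a x = (t x + t (x c)) / 2`,  `d x = (t x − t (x c)) / 2`,  `ξ x y = a (x y) − a x · a y`

the triple `(a, d, ξ)` satisfies the identities of the entries of a `2 × 2` representation
(`rtk7_pseudoRep`), and if `ξ σ₀ τ₀` is invertible (`u · ξ σ₀ τ₀ = 1`) then

  `ρ x = !![a x, ξ x τ₀ · u; ξ σ₀ x, d x]`

is a representation `G →* M₂(R)` with trace `t` and determinant `ε` (`rtk7_exists_rep`).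
No field, no domain, no reducedness: this is the form needed for the local Hecke rings `T_Q`.

The Cayley–Hamilton algebra is `End_R` of the space of functions `f` on `G` with
`f (x σ y) + ε σ · f (x σ⁻¹ y) = t σ · f (x y)` (it contains `t`), `G` acting by right
translation; the block identities are those of `Fermat.Agent.S36.S36CH`.
-/

set_option autoImplicit false
set_option linter.unusedSectionVars false
set_option linter.unusedSimpArgs false

namespace Fermat.Agent.RT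

open Fermat.Agent.S36 Matrix

section Space

variable {G R : Type*} [Group G] [CommRing R]

/-- The space of functions `f` on `G` with `f(xσy) + ε(σ) f(xσ⁻¹y) = t(σ) f(xy)`. -/
def rtk7Space (ε : G →* R) (t : G → R) : Submodule R (G → R) where
  carrier := {f | ∀ σ x y, f (x * σ * y) + ε σ * f (x * σ⁻¹ * y) = t σ * f (x * y)}
  add_mem' := by
    intro f g hf hg σ x y
    simp only [Pi.add_apply]
    linear_combination hf σ x y + hg σ x y
  zero_mem' := by
    intro σ x y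
    simp
  smul_mem' := by
    intro a f hf σ x y
    simp only [Pi.smul_apply, smul_eq_mul]
    linear_combination a * hf σ x y

theorem rtk7_self_mem {ε : G →* R} {t : G → R} (h2 : ∀ x y, t (x * y) = t (y * x))
    (h3 : ∀ x y, t (x * y) + ε y * t (x * y⁻¹) = t x * t y) : t ∈ rtk7Space ε t := by
  intro σ x y
  have e1 : t (x * σ * y) = t (y * x * σ) := by rw [h2, mul_assoc]
  have e2 : t (x * σ⁻¹ * y) = t (y * x * σ⁻¹) := by rw [h2, mul_assoc]
  rw [e1, e2, h3, h2 y x, mul_comm]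

/-- right translation on `rtk7Space` -/
def rtk7Transl (ε : G →* R) (t : G → R) (σ : G) : rtk7Space ε t →ₗ[R] rtk7Space ε t where
  toFun f := ⟨fun x => f.1 (x * σ), by
    intro τ x y
    have := f.2 τ x (y * σ)
    simpa only [mul_assoc] using this⟩
  map_add' f g := by
    apply Subtype.ext; funext x; rfl
  map_smul' a f := by
    apply Subtype.ext; funext x; rfl

@[simp] theorem rtk7Transl_apply (ε : G →* R) (t : G → R) (σ : G) (f : rtk7Space ε t) (x : G) :
    (rtk7Transl ε t σ f).1 x = f.1 (x * σ) := rfl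

/-- the action of `G` on `rtk7Space` by right translation -/
def rtk7Rep (ε : G →* R) (t : G → R) : G →* Module.End R (rtk7Space ε t) where
  toFun := rtk7Transl ε t
  map_one' := by
    apply LinearMap.ext; intro f; apply Subtype.ext; funext x
    simp only [rtk7Transl_apply, mul_one, Module.End.one_apply]
  map_mul' σ τ := by
    apply LinearMap.ext; intro f; apply Subtype.ext; funext x
    simp only [rtk7Transl_apply, Module.End.mul_apply, mul_assoc]

theorem rtk7Rep_apply (ε : G →* R) (t : G → R) (σ : G) (f : rtk7Space ε t) (x : G) :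
    (rtk7Rep ε t σ f).1 x = f.1 (x * σ) := rfl

/-- the Cayley–Hamilton relation holds on `rtk7Space` (by its definition) -/
theorem rtk7_ch (ε : G →* R) (t : G → R) (c : G) (hc : c * c = 1) (hεc : ε c = -1) :
    S36CH (E := Module.End R (rtk7Space ε t)) (rtk7Rep ε t) ε t c :=
  S36CH.of_exact
    (fun σ => by
      apply LinearMap.ext; intro f; apply Subtype.ext; funext x
      have := f.2 σ x 1
      simp only [mul_one] at this
      simpa [rtk7Rep_apply] using this)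
    (fun x y => map_mul ε x y) hc hεc

end Space

section General

variable {G R E : Type*} [Group G] [CommRing R] [Ring E] [Algebra R E]
  {r : G →* E} {ε : G → R} {t : G → R} {c : G}

theorem rtk7g_eq_of_smul (hP : ∀ k : R, k • s36P r c = 0 → k = 0) {k k' : R}
    (hk : k • s36P r c = k' • s36P r c) : k = k' := by
  have : (k - k') • s36P r c = 0 := by
    rw [sub_smul, hk, sub_self]
  exact sub_eq_zero.mp (hP _ this)

/-- `2 Ξ(x,y) Ξ(u,v) = 2 Ξ'(y,u) Ξ(x,v)` -/
theorem rtk7g_xi_swap (h : S36CH r ε t c) (hP : ∀ k : R, k • s36P r c = 0 → k = 0)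
    (x y u v : G) :
    s36Xi t c x y * s36Xi t c u v * 2 = 2 * s36Xi' t c y u * s36Xi t c x v := by
  have e1 : (s36P r c * r x * s36Q r c * r y * s36P r c)
        * (s36P r c * r u * s36Q r c * r v * s36P r c)
      = (2 : R) • (s36P r c * r x * (s36Q r c * r y * s36P r c * r u * s36Q r c) * r v
          * s36P r c) := by
    have : (s36P r c * r x * s36Q r c * r y * s36P r c)
          * (s36P r c * r u * s36Q r c * r v * s36P r c)
        = s36P r c * r x * s36Q r c * r y * (s36P r c * s36P r c) * r u * s36Q r c * r v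
            * s36P r c := by simp only [mul_assoc]
    rw [this, h.PP]
    simp only [mul_assoc, mul_smul_comm, smul_mul_assoc]
  rw [h.PxQyP, h.PxQyP, h.QxPyQ, smul_mul_smul_comm, h.PP, mul_smul_comm,
    smul_mul_assoc, smul_mul_assoc, h.PxQyP, smul_smul, smul_smul, smul_smul] at e1
  exact rtk7g_eq_of_smul hP e1

/-- `2 Ξ(xy, v) = A(x) Ξ(y,v) + Ξ(x,v) D(y)` -/
theorem rtk7g_xi_mul_left (h : S36CH r ε t c) (hP : ∀ k : R, k • s36P r c = 0 → k = 0)
    (x y v : G) :
    2 * s36Xi t c (x * y) v = s36A t c x * s36Xi t c y v + s36Xi t c x v * s36D t c y := by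
  have e1 : (2 : R) • (s36P r c * r (x * y) * s36Q r c * r v * s36P r c)
      = (s36P r c * r x * s36P r c) * r y * s36Q r c * r v * s36P r c
        + s36P r c * r x * (s36Q r c * r y * s36Q r c) * r v * s36P r c := by
    rw [map_mul]
    have : (2 : R) • (s36P r c * (r x * r y) * s36Q r c * r v * s36P r c)
        = s36P r c * r x * ((2 : R) • (1 : E)) * r y * s36Q r c * r v * s36P r c := by
      simp only [mul_assoc, mul_smul_comm, smul_mul_assoc, one_mul]
    rw [this, ← S36CH.P_add_Q (r := r) (c := c)]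
    simp only [mul_add, add_mul, mul_assoc]
  rw [h.PxQyP, h.PxP, h.QxQ, smul_mul_assoc, smul_mul_assoc, smul_mul_assoc, smul_mul_assoc,
    h.PxQyP, mul_smul_comm, smul_mul_assoc, smul_mul_assoc, h.PxQyP, smul_smul, smul_smul,
    smul_smul, ← add_smul] at e1
  have := rtk7g_eq_of_smul hP e1
  linear_combination this

/-- `2 Ξ(u, xy) = Ξ(u,x) A(y) + D(x) Ξ(u,y)` -/
theorem rtk7g_xi_mul_right (h : S36CH r ε t c) (hP : ∀ k : R, k • s36P r c = 0 → k = 0)
    (u x y : G) :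
    2 * s36Xi t c u (x * y) = s36Xi t c u x * s36A t c y + s36D t c x * s36Xi t c u y := by
  have e1 : (2 : R) • (s36P r c * r u * s36Q r c * r (x * y) * s36P r c)
      = (s36P r c * r u * s36Q r c * r x * s36P r c) * r y * s36P r c
        + s36P r c * r u * (s36Q r c * r x * s36Q r c) * r y * s36P r c := by
    rw [map_mul]
    have : (2 : R) • (s36P r c * r u * s36Q r c * (r x * r y) * s36P r c)
        = s36P r c * r u * s36Q r c * r x * ((2 : R) • (1 : E)) * r y * s36P r c := by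
      simp only [mul_assoc, mul_smul_comm, smul_mul_assoc, one_mul]
    rw [this, ← S36CH.P_add_Q (r := r) (c := c)]
    simp only [mul_add, add_mul, mul_assoc]
  rw [h.PxQyP, h.PxQyP, h.QxQ, smul_mul_assoc, smul_mul_assoc, mul_smul_comm,
    smul_mul_assoc, smul_mul_assoc, h.PxP, h.PxQyP, smul_smul, smul_smul, smul_smul,
    ← add_smul] at e1
  have := rtk7g_eq_of_smul hP e1
  linear_combination this

/-- `A(x²) = t(x) A(x) − 2 ε(x)` -/
theorem rtk7g_A_sq (h : S36CH r ε t c) (hP : ∀ k : R, k • s36P r c = 0 → k = 0) (x : G) :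
    s36A t c (x * x) = t x * s36A t c x - 2 * ε x := by
  have hquad : r x * r x - t x • r x + ε x • (1 : E) = 0 := by
    have := congrArg (fun z => r x * z) (h.ch x)
    simp only [mul_add, mul_smul_comm, mul_one, ← map_mul, mul_inv_cancel, map_one] at this
    rw [map_mul] at this
    linear_combination (norm := module) this
  have e1 : s36P r c * (r x * r x - t x • r x + ε x • (1 : E)) * s36P r c = 0 := by
    rw [hquad, mul_zero, zero_mul]
  rw [mul_add, mul_sub, add_mul, sub_mul, mul_smul_comm, mul_smul_comm, smul_mul_assoc,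
    smul_mul_assoc, mul_one, h.PP, ← map_mul, h.PxP, h.PxP, smul_smul,
    smul_smul, ← sub_smul, ← add_smul] at e1
  have := hP _ e1
  linear_combination this

end General

section Identities

variable {G R : Type*} [Group G] [CommRing R] (ε : G →* R) (t : G → R) (c : G)
  (h1 : t 1 = 2) (h2 : ∀ x y, t (x * y) = t (y * x))
  (h3 : ∀ x y, t (x * y) + ε y * t (x * y⁻¹) = t x * t y)
  (hc : c * c = 1) (hεc : ε c = -1) (i2 : R) (hi2 : 2 * i2 = 1)

include h1 h2 h3 hi2 in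
/-- `s36P` acts faithfully: evaluate on `t` at `1`. -/
theorem rtk7_P_faithful (htc : t c = 0) {k : R}
    (hk : k • s36P (E := Module.End R (rtk7Space ε t)) (rtk7Rep ε t) c = 0) : k = 0 := by
  have := congrArg (fun φ : Module.End R (rtk7Space ε t) => (φ ⟨t, rtk7_self_mem h2 h3⟩).1 1) hk
  simp only [s36P, smul_add, LinearMap.add_apply, LinearMap.smul_apply, Module.End.one_apply,
    LinearMap.zero_apply, Submodule.coe_add, Submodule.coe_smul, Pi.add_apply, Pi.smul_apply,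
    smul_eq_mul, rtk7Rep_apply, one_mul, Submodule.coe_zero, Pi.zero_apply, h1, htc, mul_zero,
    add_zero] at this
  linear_combination i2 * this - k * hi2

include h1 h2 h3 hi2 in
/-- `s36Q` acts faithfully: evaluate on `t` at `1`. -/
theorem rtk7_Q_faithful (htc : t c = 0) {k : R}
    (hk : k • s36Q (E := Module.End R (rtk7Space ε t)) (rtk7Rep ε t) c = 0) : k = 0 := by
  have := congrArg (fun φ : Module.End R (rtk7Space ε t) => (φ ⟨t, rtk7_self_mem h2 h3⟩).1 1) hk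
  simp only [s36Q, smul_sub, LinearMap.sub_apply, LinearMap.smul_apply, Module.End.one_apply,
    LinearMap.zero_apply, Submodule.coe_sub, Submodule.coe_smul, Pi.sub_apply, Pi.smul_apply,
    smul_eq_mul, rtk7Rep_apply, one_mul, Submodule.coe_zero, Pi.zero_apply, h1, htc, mul_zero,
    sub_zero] at this
  linear_combination i2 * this - k * hi2

include h1 h3 hc hεc hi2 in
theorem rtk7_t_c : t c = 0 := by
  have hcinv : c⁻¹ = c := inv_eq_of_mul_eq_one_left hc
  have := h3 1 c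
  rw [hcinv, hεc, h1] at this
  simp only [one_mul] at this
  linear_combination -i2 * this - (t c) * hi2

include h2 h3 hc hεc in
/-- `Ξ'(x, y) = Ξ(y, x)` -/
theorem rtk7_xi'_eq (x y : G) : s36Xi' t c x y = s36Xi t c y x := by
  have hcinv : c⁻¹ = c := inv_eq_of_mul_eq_one_left hc
  have hA := h3 x (y * c)
  have hB := h3 (x * c) y
  rw [map_mul, hεc, _root_.mul_inv_rev, hcinv] at hA
  have e1 : t (x * c * y) = t (y * x * c) := by rw [h2, mul_assoc]
  have e2 : t (x * (c * y⁻¹)) = t (x * c * y⁻¹) := by rw [mul_assoc]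
  have e3 : t (x * (y * c)) = t (x * y * c) := by rw [mul_assoc]
  have e4 : t (y * x) = t (x * y) := h2 y x
  rw [e2, e3] at hA
  rw [e1] at hB
  simp only [s36Xi', s36Xi, s36A, s36D]
  linear_combination -2 * hA - 2 * hB - 2 * e4

section E

include h1 h2 h3 hc hεc hi2 in
theorem rtk7_faithful (k : R)
    (hk : k • s36P (E := Module.End R (rtk7Space ε t)) (rtk7Rep ε t) c = 0) : k = 0 :=
  rtk7_P_faithful ε t c h1 h2 h3 i2 hi2 (rtk7_t_c ε t c h1 h3 hc hεc i2 hi2) hk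

include h1 h2 h3 hc hεc hi2 in
/-- `Ξ(x,y) Ξ(u,v) = Ξ(x,v) Ξ(u,y)` -/
theorem rtk7_xi_swap (x y u v : G) :
    s36Xi t c x y * s36Xi t c u v = s36Xi t c x v * s36Xi t c u y := by
  have := rtk7g_xi_swap (rtk7_ch ε t c hc hεc)
    (rtk7_faithful ε t c h1 h2 h3 hc hεc i2 hi2) x y u v
  rw [rtk7_xi'_eq ε t c h2 h3 hc hεc] at this
  linear_combination i2 * this - (s36Xi t c x y * s36Xi t c u v
    - s36Xi t c x v * s36Xi t c u y) * hi2

include h1 h2 h3 hc hεc hi2 in
/-- `2 Ξ(xy, v) = A(x) Ξ(y,v) + Ξ(x,v) D(y)` -/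
theorem rtk7_xi_mul_left (x y v : G) :
    2 * s36Xi t c (x * y) v = s36A t c x * s36Xi t c y v + s36Xi t c x v * s36D t c y :=
  rtk7g_xi_mul_left (rtk7_ch ε t c hc hεc) (rtk7_faithful ε t c h1 h2 h3 hc hεc i2 hi2) x y v

include h1 h2 h3 hc hεc hi2 in
/-- `2 Ξ(u, xy) = Ξ(u,x) A(y) + D(x) Ξ(u,y)` -/
theorem rtk7_xi_mul_right (u x y : G) :
    2 * s36Xi t c u (x * y) = s36Xi t c u x * s36A t c y + s36D t c x * s36Xi t c u y :=
  rtk7g_xi_mul_right (rtk7_ch ε t c hc hεc) (rtk7_faithful ε t c h1 h2 h3 hc hεc i2 hi2) u x y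

include h1 h2 h3 hc hεc hi2 in
/-- `A(x²) = t(x) A(x) − 2 ε(x)` -/
theorem rtk7_A_sq (x : G) :
    s36A t c (x * x) = t x * s36A t c x - 2 * ε x :=
  rtk7g_A_sq (rtk7_ch ε t c hc hεc) (rtk7_faithful ε t c h1 h2 h3 hc hεc i2 hi2) x

end E

end Identities

/-! ### The halved entries and the representation -/

section Rep

variable {G R : Type*} [Group G] [CommRing R]

/-- `a x = (t x + t (x c)) / 2` -/
def rtk7A (t : G → R) (c : G) (i2 : R) (x : G) : R := i2 * (t x + t (x * c))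
/-- `d x = (t x − t (x c)) / 2` -/
def rtk7D (t : G → R) (c : G) (i2 : R) (x : G) : R := i2 * (t x - t (x * c))
/-- `ξ x y = a (x y) − a x · a y` -/
def rtk7Xi (t : G → R) (c : G) (i2 : R) (x y : G) : R :=
  rtk7A t c i2 (x * y) - rtk7A t c i2 x * rtk7A t c i2 y

/-- the matrix `!![a x, ξ x τ₀ · u; ξ σ₀ x, d x]` -/
def rtk7Mat (t : G → R) (c : G) (i2 : R) (σ₀ τ₀ : G) (u : R) (x : G) :
    Matrix (Fin 2) (Fin 2) R :=
  !![rtk7A t c i2 x, rtk7Xi t c i2 x τ₀ * u; rtk7Xi t c i2 σ₀ x, rtk7D t c i2 x]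

variable (ε : G →* R) (t : G → R) (c : G)
  (h1 : t 1 = 2) (h2 : ∀ x y, t (x * y) = t (y * x))
  (h3 : ∀ x y, t (x * y) + ε y * t (x * y⁻¹) = t x * t y)
  (hc : c * c = 1) (hεc : ε c = -1) (i2 : R) (hi2 : 2 * i2 = 1)

theorem rtk7A_eq (x : G) : rtk7A t c i2 x = i2 * s36A t c x := rfl

theorem rtk7D_eq (x : G) : rtk7D t c i2 x = i2 * s36D t c x := rfl

include hi2 in
theorem rtk7Xi_eq (x y : G) : rtk7Xi t c i2 x y = i2 * i2 * s36Xi t c x y := by
  rw [rtk7Xi, rtk7A_eq, rtk7A_eq, rtk7A_eq, s36Xi]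
  linear_combination (-i2 * s36A t c (x * y)) * hi2

theorem rtk7A_add_D (x : G) (hi2 : 2 * i2 = 1) : rtk7A t c i2 x + rtk7D t c i2 x = t x := by
  rw [rtk7A, rtk7D]
  linear_combination (t x) * hi2

include h1 h3 hc hεc hi2 in
theorem rtk7A_one : rtk7A t c i2 1 = 1 := by
  rw [rtk7A, one_mul, h1, rtk7_t_c ε t c h1 h3 hc hεc i2 hi2]
  linear_combination hi2

include h1 h3 hc hεc hi2 in
theorem rtk7D_one : rtk7D t c i2 1 = 1 := by
  rw [rtk7D, one_mul, h1, rtk7_t_c ε t c h1 h3 hc hεc i2 hi2]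
  linear_combination hi2

theorem rtk7A_mul (x y : G) :
    rtk7A t c i2 (x * y) = rtk7A t c i2 x * rtk7A t c i2 y + rtk7Xi t c i2 x y := by
  rw [rtk7Xi]; ring

include h2 h3 hc hεc hi2 in
theorem rtk7D_mul (x y : G) :
    rtk7D t c i2 (x * y) = rtk7D t c i2 x * rtk7D t c i2 y + rtk7Xi t c i2 y x := by
  have e := rtk7_xi'_eq ε t c h2 h3 hc hεc x y
  rw [rtk7Xi_eq t c i2 hi2, rtk7D_eq, rtk7D_eq, rtk7D_eq, ← e, s36Xi']
  linear_combination (-i2 * s36D t c (x * y)) * hi2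

include h1 h2 h3 hc hεc hi2 in
theorem rtk7Xi_swap (x y u v : G) :
    rtk7Xi t c i2 x y * rtk7Xi t c i2 u v = rtk7Xi t c i2 x v * rtk7Xi t c i2 u y := by
  have e := rtk7_xi_swap ε t c h1 h2 h3 hc hεc i2 hi2 x y u v
  simp only [rtk7Xi_eq t c i2 hi2]
  linear_combination (i2 * i2 * i2 * i2) * e

include h1 h2 h3 hc hεc hi2 in
theorem rtk7Xi_mul_left (x y v : G) :
    rtk7Xi t c i2 (x * y) v
      = rtk7A t c i2 x * rtk7Xi t c i2 y v + rtk7Xi t c i2 x v * rtk7D t c i2 y := by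
  have e := rtk7_xi_mul_left ε t c h1 h2 h3 hc hεc i2 hi2 x y v
  simp only [rtk7Xi_eq t c i2 hi2, rtk7A_eq, rtk7D_eq]
  linear_combination (i2 * i2 * i2) * e - (i2 * i2 * s36Xi t c (x * y) v) * hi2

include h1 h2 h3 hc hεc hi2 in
theorem rtk7Xi_mul_right (u x y : G) :
    rtk7Xi t c i2 u (x * y)
      = rtk7Xi t c i2 u x * rtk7A t c i2 y + rtk7D t c i2 x * rtk7Xi t c i2 u y := by
  have e := rtk7_xi_mul_right ε t c h1 h2 h3 hc hεc i2 hi2 u x y
  simp only [rtk7Xi_eq t c i2 hi2, rtk7A_eq, rtk7D_eq]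
  linear_combination (i2 * i2 * i2) * e - (i2 * i2 * s36Xi t c u (x * y)) * hi2

include h1 h2 h3 hc hεc hi2 in
theorem rtk7_det (x : G) :
    rtk7A t c i2 x * rtk7D t c i2 x - rtk7Xi t c i2 x x = ε x := by
  have e := rtk7_A_sq ε t c h1 h2 h3 hc hεc i2 hi2 x
  have e2 := rtk7A_add_D t c i2 x hi2
  rw [rtk7Xi, rtk7A_eq t c i2 (x * x), e]
  rw [rtk7A_eq] at e2 ⊢
  linear_combination (i2 * s36A t c x) * e2 + (ε x) * hi2

include h1 h3 hc hεc hi2 in
theorem rtk7Xi_one_left (v : G) : rtk7Xi t c i2 1 v = 0 := by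
  rw [rtk7Xi, one_mul, rtk7A_one ε t c h1 h3 hc hεc i2 hi2]; ring

include h1 h3 hc hεc hi2 in
theorem rtk7Xi_one_right (u : G) : rtk7Xi t c i2 u 1 = 0 := by
  rw [rtk7Xi, mul_one, rtk7A_one ε t c h1 h3 hc hεc i2 hi2]; ring

variable (σ₀ τ₀ : G) (u : R) (hu : u * rtk7Xi t c i2 σ₀ τ₀ = 1)

include h1 h3 hc hεc hi2 in
theorem rtk7Mat_one : rtk7Mat t c i2 σ₀ τ₀ u 1 = 1 := by
  rw [rtk7Mat, rtk7A_one ε t c h1 h3 hc hεc i2 hi2, rtk7D_one ε t c h1 h3 hc hεc i2 hi2,
    rtk7Xi_one_left ε t c h1 h3 hc hεc i2 hi2, rtk7Xi_one_right ε t c h1 h3 hc hεc i2 hi2,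
    zero_mul]
  exact Matrix.one_fin_two.symm

include h1 h2 h3 hc hεc hi2 hu in
theorem rtk7_xi_base (x y : G) :
    rtk7Xi t c i2 x τ₀ * u * rtk7Xi t c i2 σ₀ y = rtk7Xi t c i2 x y := by
  have e := rtk7Xi_swap ε t c h1 h2 h3 hc hεc i2 hi2 x τ₀ σ₀ y
  linear_combination u * e + (rtk7Xi t c i2 x y) * hu

include h1 h2 h3 hc hεc hi2 hu in
theorem rtk7Mat_mul (x y : G) :
    rtk7Mat t c i2 σ₀ τ₀ u (x * y) = rtk7Mat t c i2 σ₀ τ₀ u x * rtk7Mat t c i2 σ₀ τ₀ u y := by
  rw [rtk7Mat, rtk7Mat, rtk7Mat, Matrix.mul_fin_two]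
  have e00 : rtk7A t c i2 x * rtk7A t c i2 y + rtk7Xi t c i2 x τ₀ * u * rtk7Xi t c i2 σ₀ y
      = rtk7A t c i2 (x * y) := by
    rw [rtk7_xi_base ε t c h1 h2 h3 hc hεc i2 hi2 σ₀ τ₀ u hu, rtk7A_mul]
  have e01 : rtk7A t c i2 x * (rtk7Xi t c i2 y τ₀ * u) + rtk7Xi t c i2 x τ₀ * u * rtk7D t c i2 y
      = rtk7Xi t c i2 (x * y) τ₀ * u := by
    rw [rtk7Xi_mul_left ε t c h1 h2 h3 hc hεc i2 hi2]; ring
  have e10 : rtk7Xi t c i2 σ₀ x * rtk7A t c i2 y + rtk7D t c i2 x * rtk7Xi t c i2 σ₀ y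
      = rtk7Xi t c i2 σ₀ (x * y) := by
    rw [rtk7Xi_mul_right ε t c h1 h2 h3 hc hεc i2 hi2]
  have e11 : rtk7Xi t c i2 σ₀ x * (rtk7Xi t c i2 y τ₀ * u) + rtk7D t c i2 x * rtk7D t c i2 y
      = rtk7D t c i2 (x * y) := by
    have e := rtk7_xi_base ε t c h1 h2 h3 hc hεc i2 hi2 σ₀ τ₀ u hu y x
    rw [rtk7D_mul ε t c h2 h3 hc hεc i2 hi2]
    linear_combination e
  rw [e00, e01, e10, e11]

/-- **Wiles' lemma over a commutative ring**: the representation attached to a
pseudo-character and a base point `(σ₀, τ₀)` with `ξ σ₀ τ₀` invertible. -/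
def rtk7MatRep : G →* Matrix (Fin 2) (Fin 2) R where
  toFun := rtk7Mat t c i2 σ₀ τ₀ u
  map_one' := rtk7Mat_one ε t c h1 h3 hc hεc i2 hi2 σ₀ τ₀ u
  map_mul' := rtk7Mat_mul ε t c h1 h2 h3 hc hεc i2 hi2 σ₀ τ₀ u hu

theorem rtk7MatRep_apply (x : G) :
    rtk7MatRep ε t c h1 h2 h3 hc hεc i2 hi2 σ₀ τ₀ u hu x
      = !![rtk7A t c i2 x, rtk7Xi t c i2 x τ₀ * u; rtk7Xi t c i2 σ₀ x, rtk7D t c i2 x] := rfl

theorem rtk7MatRep_trace (x : G) :
    (rtk7MatRep ε t c h1 h2 h3 hc hεc i2 hi2 σ₀ τ₀ u hu x).trace = t x := by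
  rw [rtk7MatRep_apply, Matrix.trace_fin_two_of, rtk7A_add_D t c i2 x hi2]

theorem rtk7MatRep_det (x : G) :
    (rtk7MatRep ε t c h1 h2 h3 hc hεc i2 hi2 σ₀ τ₀ u hu x).det = ε x := by
  rw [rtk7MatRep_apply, Matrix.det_fin_two_of,
    rtk7_xi_base ε t c h1 h2 h3 hc hεc i2 hi2 σ₀ τ₀ u hu, rtk7_det ε t c h1 h2 h3 hc hεc i2 hi2]

include h1 h2 h3 hc hεc hi2 hu in
/-- **K7a.** Wiles' lemma over a commutative ring, existence form. -/
theorem rtk7_exists_rep :
    ∃ ρ : G →* Matrix (Fin 2) (Fin 2) R,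
      (∀ x, ρ x = !![rtk7A t c i2 x, rtk7Xi t c i2 x τ₀ * u;
                      rtk7Xi t c i2 σ₀ x, rtk7D t c i2 x]) ∧
      (∀ x, (ρ x).trace = t x) ∧ (∀ x, (ρ x).det = ε x) :=
  ⟨rtk7MatRep ε t c h1 h2 h3 hc hεc i2 hi2 σ₀ τ₀ u hu, fun _ => rfl,
    rtk7MatRep_trace ε t c h1 h2 h3 hc hεc i2 hi2 σ₀ τ₀ u hu,
    rtk7MatRep_det ε t c h1 h2 h3 hc hεc i2 hi2 σ₀ τ₀ u hu⟩

end Rep

end Fermat.Agent.RT


end ZBS36_010_1

/-! ### bundled: `Fermat.Agent.RT.K7.WilesBase` -/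
section ZBS36_010_2

/-!
# K-machine, piece K7a (continued): congruences and the base point

* `rtk7Mat_sub_one_mem` : if `t (σ g) ≡ t g` modulo an ideal `I` for all `g`, then
  `ρ σ ≡ 1` modulo `I` (entrywise), for `ρ = rtk7Mat …`; `rtk7Mat_eq_one` : the exact form
  (`ρ σ = 1` if `t (σ g) = t g` for all `g`: inertia at the unramified primes).
* `rtk7_exists_xi_ne_zero` : over a field of characteristic `≠ 2`, if `G` acts on `V ≠ 0` with the
  Cayley–Hamilton relation and without stable line, then `Ξ(x, y) ≠ 0` for some `x, y`.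
* `rtk7_exists_unit` : over a local ring `R` with `2 ∈ Rˣ`: if the residual pseudo-character is
  carried by such a `V`, then `ξ σ₀ τ₀` is invertible for some `σ₀, τ₀`.
-/

set_option autoImplicit false
set_option linter.unusedSectionVars false
set_option linter.unusedSimpArgs false

namespace Fermat.Agent.RT

open Fermat.Agent.S36 Matrix

section Cong

variable {G R : Type*} [Group G] [CommRing R] (ε : G →* R) (t : G → R) (c : G)
  (h1 : t 1 = 2) (h2 : ∀ x y, t (x * y) = t (y * x))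
  (h3 : ∀ x y, t (x * y) + ε y * t (x * y⁻¹) = t x * t y)
  (hc : c * c = 1) (hεc : ε c = -1) (i2 : R) (hi2 : 2 * i2 = 1)
  (I : Ideal R) (σ : G) (hσ : ∀ g, t (σ * g) - t g ∈ I)

include hσ in
theorem rtk7A_left_mem (g : G) : rtk7A t c i2 (σ * g) - rtk7A t c i2 g ∈ I := by
  have e : rtk7A t c i2 (σ * g) - rtk7A t c i2 g
      = i2 * (t (σ * g) - t g) + i2 * (t (σ * (g * c)) - t (g * c)) := by
    rw [rtk7A, rtk7A, mul_assoc]; ring
  rw [e]
  exact I.add_mem (I.mul_mem_left _ (hσ g)) (I.mul_mem_left _ (hσ (g * c)))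

include h2 hσ in
theorem rtk7A_right_mem (g : G) : rtk7A t c i2 (g * σ) - rtk7A t c i2 g ∈ I := by
  have e1 : t (g * σ) = t (σ * g) := h2 g σ
  have e2 : t (g * σ * c) = t (σ * (c * g)) := by rw [mul_assoc, h2, mul_assoc]
  have e3 : t (g * c) = t (c * g) := h2 g c
  have e : rtk7A t c i2 (g * σ) - rtk7A t c i2 g
      = i2 * (t (σ * g) - t g) + i2 * (t (σ * (c * g)) - t (c * g)) := by
    rw [rtk7A, rtk7A, e1, e2, e3]; ring
  rw [e]
  exact I.add_mem (I.mul_mem_left _ (hσ g)) (I.mul_mem_left _ (hσ (c * g)))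

include h1 h3 hc hεc hi2 hσ in
theorem rtk7A_sub_one_mem : rtk7A t c i2 σ - 1 ∈ I := by
  have := rtk7A_left_mem t c i2 I σ hσ 1
  rwa [mul_one, rtk7A_one ε t c h1 h3 hc hεc i2 hi2] at this

include h1 h3 hc hεc hi2 hσ in
theorem rtk7D_sub_one_mem : rtk7D t c i2 σ - 1 ∈ I := by
  have e : rtk7D t c i2 σ - 1 = (t σ - t 1) - (rtk7A t c i2 σ - 1) := by
    have := rtk7A_add_D t c i2 σ hi2
    rw [h1]
    linear_combination this
  rw [e]
  have h0 := hσ 1
  rw [mul_one] at h0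
  exact I.sub_mem h0 (rtk7A_sub_one_mem ε t c h1 h3 hc hεc i2 hi2 I σ hσ)

include h1 h3 hc hεc hi2 hσ in
theorem rtk7Xi_left_mem (g : G) : rtk7Xi t c i2 σ g ∈ I := by
  have e : rtk7Xi t c i2 σ g = (rtk7A t c i2 (σ * g) - rtk7A t c i2 g)
      - (rtk7A t c i2 σ - 1) * rtk7A t c i2 g := by
    rw [rtk7Xi]; ring
  rw [e]
  exact I.sub_mem (rtk7A_left_mem t c i2 I σ hσ g)
    (I.mul_mem_right _ (rtk7A_sub_one_mem ε t c h1 h3 hc hεc i2 hi2 I σ hσ))

include h1 h2 h3 hc hεc hi2 hσ in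
theorem rtk7Xi_right_mem (g : G) : rtk7Xi t c i2 g σ ∈ I := by
  have e : rtk7Xi t c i2 g σ = (rtk7A t c i2 (g * σ) - rtk7A t c i2 g)
      - rtk7A t c i2 g * (rtk7A t c i2 σ - 1) := by
    rw [rtk7Xi]; ring
  rw [e]
  exact I.sub_mem (rtk7A_right_mem t c h2 i2 I σ hσ g)
    (I.mul_mem_left _ (rtk7A_sub_one_mem ε t c h1 h3 hc hεc i2 hi2 I σ hσ))

include h1 h2 h3 hc hεc hi2 hσ in
/-- **Congruence.**  If `t (σ g) ≡ t g` modulo `I` for all `g`, then `ρ σ ≡ 1` modulo `I`. -/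
theorem rtk7Mat_sub_one_mem (σ₀ τ₀ : G) (u : R) (i j : Fin 2) :
    (rtk7Mat t c i2 σ₀ τ₀ u σ - 1) i j ∈ I := by
  have hA := rtk7A_sub_one_mem ε t c h1 h3 hc hεc i2 hi2 I σ hσ
  have hD := rtk7D_sub_one_mem ε t c h1 h3 hc hεc i2 hi2 I σ hσ
  have hL := rtk7Xi_left_mem ε t c h1 h3 hc hεc i2 hi2 I σ hσ τ₀
  have hR := rtk7Xi_right_mem ε t c h1 h2 h3 hc hεc i2 hi2 I σ hσ σ₀
  fin_cases i <;> fin_cases j
  · simpa [rtk7Mat] using hA
  · simpa [rtk7Mat] using I.mul_mem_right u hL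
  · simpa [rtk7Mat] using hR
  · simpa [rtk7Mat] using hD

include h1 h2 h3 hc hεc hi2 in
/-- **Exact form.**  If `t (σ g) = t g` for all `g`, then `ρ σ = 1`. -/
theorem rtk7Mat_eq_one (σ₀ τ₀ : G) (u : R) (σ : G) (hσ : ∀ g, t (σ * g) = t g) :
    rtk7Mat t c i2 σ₀ τ₀ u σ = 1 := by
  have h := rtk7Mat_sub_one_mem ε t c h1 h2 h3 hc hεc i2 hi2 ⊥ σ
    (fun g => by rw [hσ g, sub_self]; exact (⊥ : Ideal R).zero_mem) σ₀ τ₀ u
  ext i j
  have := h i j
  rw [Ideal.mem_bot, Matrix.sub_apply, sub_eq_zero] at this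
  exact this

end Cong

section Base

variable {G k V : Type*} [Group G] [Field k] [AddCommGroup V] [Module k V]

/-- a nonzero vector in the image of `P` gives a stable line when `Ξ ≡ 0` -/
theorem rtk7_keyP (h2ne : (2 : k) ≠ 0) (r : G →* Module.End k V) (ε : G → k) (t : G → k)
    (c : G) (hCH : S36CH r ε t c) (hcon : ∀ x y, s36Xi t c x y = 0)
    (hirr : ∀ v : V, v ≠ 0 → ∃ g, ∀ a : k, r g v ≠ a • v)
    (v' : V) (hne : s36P r c v' ≠ 0) : False := by
  have hPQ : ∀ z : V, s36P r c z + s36Q r c z = (2 : k) • z := by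
    intro z
    have := congrArg (fun φ : Module.End k V => φ z) (S36CH.P_add_Q (R := k) (r := r) (c := c))
    simpa using this
  by_cases hA : ∀ y, s36Q r c (r y (s36P r c v')) = 0
  · obtain ⟨g, hg⟩ := hirr _ hne
    have e1 : (2 : k) • r g (s36P r c v') = s36A t c g • s36P r c v' := by
      rw [← hPQ, hA g, add_zero]
      have h2 := congrArg (fun φ : Module.End k V => φ v') (hCH.PxP g)
      simpa using h2
    refine hg ((2 : k)⁻¹ * s36A t c g) ?_
    rw [mul_smul, ← e1, smul_smul, inv_mul_cancel₀ h2ne, one_smul]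
  · push Not at hA
    obtain ⟨y₀, hy₀⟩ := hA
    have hPw : ∀ x, s36P r c (r x (s36Q r c (r y₀ (s36P r c v')))) = 0 := by
      intro x
      have h2 := congrArg (fun φ : Module.End k V => φ v') (hCH.PxQyP x y₀)
      rw [hcon, zero_smul] at h2
      simpa using h2
    obtain ⟨g, hg⟩ := hirr _ hy₀
    have e1 : (2 : k) • r g (s36Q r c (r y₀ (s36P r c v')))
        = s36D t c g • s36Q r c (r y₀ (s36P r c v')) := by
      rw [← hPQ, hPw g, zero_add]
      have h2 := congrArg (fun φ : Module.End k V => φ (r y₀ (s36P r c v'))) (hCH.QxQ g)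
      simpa using h2
    refine hg ((2 : k)⁻¹ * s36D t c g) ?_
    rw [mul_smul, ← e1, smul_smul, inv_mul_cancel₀ h2ne, one_smul]

/-- a nonzero vector in the image of `Q` gives a stable line when `Ξ' ≡ 0` -/
theorem rtk7_keyQ (h2ne : (2 : k) ≠ 0) (r : G →* Module.End k V) (ε : G → k) (t : G → k)
    (c : G) (hCH : S36CH r ε t c) (hcon : ∀ x y, s36Xi' t c x y = 0)
    (hirr : ∀ v : V, v ≠ 0 → ∃ g, ∀ a : k, r g v ≠ a • v)
    (v' : V) (hne : s36Q r c v' ≠ 0) : False := by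
  have hPQ : ∀ z : V, s36P r c z + s36Q r c z = (2 : k) • z := by
    intro z
    have := congrArg (fun φ : Module.End k V => φ z) (S36CH.P_add_Q (R := k) (r := r) (c := c))
    simpa using this
  by_cases hA : ∀ y, s36P r c (r y (s36Q r c v')) = 0
  · obtain ⟨g, hg⟩ := hirr _ hne
    have e1 : (2 : k) • r g (s36Q r c v') = s36D t c g • s36Q r c v' := by
      rw [← hPQ, hA g, zero_add]
      have h2 := congrArg (fun φ : Module.End k V => φ v') (hCH.QxQ g)
      simpa using h2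
    refine hg ((2 : k)⁻¹ * s36D t c g) ?_
    rw [mul_smul, ← e1, smul_smul, inv_mul_cancel₀ h2ne, one_smul]
  · push Not at hA
    obtain ⟨y₀, hy₀⟩ := hA
    have hQw : ∀ x, s36Q r c (r x (s36P r c (r y₀ (s36Q r c v')))) = 0 := by
      intro x
      have h2 := congrArg (fun φ : Module.End k V => φ v') (hCH.QxPyQ x y₀)
      rw [hcon, zero_smul] at h2
      simpa using h2
    obtain ⟨g, hg⟩ := hirr _ hy₀
    have e1 : (2 : k) • r g (s36P r c (r y₀ (s36Q r c v')))
        = s36A t c g • s36P r c (r y₀ (s36Q r c v')) := by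
      rw [← hPQ, hQw g, add_zero]
      have h2 := congrArg (fun φ : Module.End k V => φ (r y₀ (s36Q r c v'))) (hCH.PxP g)
      simpa using h2
    refine hg ((2 : k)⁻¹ * s36A t c g) ?_
    rw [mul_smul, ← e1, smul_smul, inv_mul_cancel₀ h2ne, one_smul]

/-- **No stable line ⇒ `Ξ ≢ 0`.** -/
theorem rtk7_exists_xi_ne_zero [Nontrivial V] (h2ne : (2 : k) ≠ 0)
    (r : G →* Module.End k V) (ε : G → k) (t : G → k) (c : G) (hCH : S36CH r ε t c)
    (hxi' : ∀ x y, s36Xi' t c x y = s36Xi t c y x)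
    (hirr : ∀ v : V, v ≠ 0 → ∃ g, ∀ a : k, r g v ≠ a • v) :
    ∃ x y, s36Xi t c x y ≠ 0 := by
  by_contra hcon
  push Not at hcon
  have hcon' : ∀ x y, s36Xi' t c x y = 0 := fun x y => by rw [hxi', hcon]
  obtain ⟨v, hv⟩ := exists_ne (0 : V)
  have hPQ : s36P r c v + s36Q r c v = (2 : k) • v := by
    have := congrArg (fun φ : Module.End k V => φ v) (S36CH.P_add_Q (R := k) (r := r) (c := c))
    simpa using this
  by_cases hP : s36P r c v = 0
  · have hQ : s36Q r c v ≠ 0 := by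
      intro hQ
      rw [hP, hQ, add_zero] at hPQ
      exact hv ((smul_eq_zero.mp hPQ.symm).resolve_left h2ne)
    exact rtk7_keyQ h2ne r ε t c hCH hcon' hirr v hQ
  · exact rtk7_keyP h2ne r ε t c hCH hcon hirr v hP

end Base

section Local

variable {G R : Type*} [Group G] [CommRing R] [IsLocalRing R] (ε : G →* R) (t : G → R) (c : G)
  (h2 : ∀ x y, t (x * y) = t (y * x))
  (h3 : ∀ x y, t (x * y) + ε y * t (x * y⁻¹) = t x * t y)
  (hc : c * c = 1) (hεc : ε c = -1) (i2 : R) (hi2 : 2 * i2 = 1)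

include h2 h3 hc hεc hi2 in
/-- **The base point.**  `R` local with `2 ∈ Rˣ`; if the residual pseudo-character is carried by
a nonzero space `V` over the residue field (Cayley–Hamilton relation) without stable line, then
`ξ σ₀ τ₀` is invertible for some `σ₀, τ₀`. -/
theorem rtk7_exists_unit {V : Type*} [AddCommGroup V] [Module (IsLocalRing.ResidueField R) V]
    [Nontrivial V] (r : G →* Module.End (IsLocalRing.ResidueField R) V)
    (hch : ∀ σ, r σ + IsLocalRing.residue R (ε σ) • r σ⁻¹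
      = IsLocalRing.residue R (t σ) • (1 : Module.End (IsLocalRing.ResidueField R) V))
    (hirr : ∀ v : V, v ≠ 0 → ∃ g, ∀ a : IsLocalRing.ResidueField R, r g v ≠ a • v) :
    ∃ (σ₀ τ₀ : G) (u : R), u * rtk7Xi t c i2 σ₀ τ₀ = 1 := by
  set res := IsLocalRing.residue R with hres
  set εb : G →* IsLocalRing.ResidueField R := (res : R →* IsLocalRing.ResidueField R).comp ε
    with hεb
  set tb : G → IsLocalRing.ResidueField R := fun g => res (t g) with htb
  have h2ne : (2 : IsLocalRing.ResidueField R) ≠ 0 := by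
    intro h
    have := congrArg res hi2
    rw [map_mul, map_ofNat, h, zero_mul, map_one] at this
    exact zero_ne_one this
  have hεcb : εb c = -1 := by
    show res (ε c) = -1
    rw [hεc, map_neg, map_one]
  have hCH : S36CH r εb tb c :=
    S36CH.of_exact (fun σ => hch σ) (fun x y => map_mul εb x y) hc hεcb
  have h2b : ∀ x y, tb (x * y) = tb (y * x) := fun x y => by
    show res _ = res _
    rw [h2]
  have h3b : ∀ x y, tb (x * y) + εb y * tb (x * y⁻¹) = tb x * tb y := fun x y => by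
    have := congrArg res (h3 x y)
    rw [map_add, map_mul, map_mul] at this
    exact this
  obtain ⟨x, y, hxy⟩ := rtk7_exists_xi_ne_zero h2ne r εb tb c hCH
    (rtk7_xi'_eq εb tb c h2b h3b hc hεcb) hirr
  have hxy' : s36Xi tb c x y = res (s36Xi t c x y) := by
    simp only [s36Xi, s36A, htb, map_sub, map_mul, map_add, map_ofNat]
  rw [hxy'] at hxy
  have hunit : IsUnit (s36Xi t c x y) := by
    by_contra hnu
    exact hxy ((IsLocalRing.residue_eq_zero_iff _).mpr hnu)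
  obtain ⟨w, hw⟩ := hunit.exists_left_inv
  refine ⟨x, y, 4 * w, ?_⟩
  rw [rtk7Xi_eq t c i2 hi2]
  linear_combination (4 * i2 * i2) * hw + (2 * i2 + 1) * hi2

end Local

end Fermat.Agent.RT


end ZBS36_010_2

/-! ### bundled: `Fermat.Agent.RT.K7.PlanGRA` -/
section ZBS36_010_3

/-!
# K-machine, piece K7-GRA: from the pseudo-character to the representation (interface)

Sub-captain helper59, `NOTES/RT-K7.md`.  `T` a local ring with `2 ∈ Tˣ` (in the application the
Hecke ring `𝕋_Q`, complete, finite residue field), `t : G_ℚ → T` the pseudo-character of K7b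
(`rtk7b_exists`, `rtk7b_pseudo`), `ε` the cyclotomic character, `c` a complex conjugation,
`ρbar` the residual representation (irreducible, trace `t mod 𝔪`, determinant `ε mod 𝔪`).

`StmtK7GRA` : there are `σ₀, τ₀` with `ξ(σ₀, τ₀) ∈ Tˣ` and a `GaloisRepAdic T` whose matrices in a
basis are EXACTLY Wiles' matrices `rtk7Mat t c i2 σ₀ τ₀ u` (so that `rtk7t_transfer` applies to
it), with cyclotomic determinant, residual representation `≅ ρbar`, and trivial on every `σ`
which leaves `t` invariant (inertia at the unramified primes).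

Proof route: `rtk7_exists_unit` (base point; the Cayley–Hamilton relation of `ρbar` from
`LinearMap.charpoly`, no stable line from `IsIrreducible`), `rtk7MatRep` + `S53.ofMatrix`
(continuity from `rtk7Mat_sub_one_mem` with `I = 𝔪 ^ k`), `rtk7Mat_eq_one`; the residual
equivalence: in an eigenbasis `(e₊, e₋)` of `ρbar c` scaled so that the upper right entry of
`ρbar σ₀` is `ξ(σ₀, τ₀)·u mod 𝔪`, the matrix of `ρbar g` is `rtk7Mat (t mod 𝔪) … g`
(`a, d` from the traces of `g`, `g c`; `b(g) c(h) = ξ(g, h)`).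
-/

set_option autoImplicit false

namespace Fermat.Agent.RT

open IsLocalRing

/-- **K7-GRA.** -/
def StmtK7GRA : Prop :=
  ∀ (p : ℕ), p.Prime → p ≠ 2 →
  ∀ (T : Type) [CommRing T] [IsLocalRing T], (p : T) ∈ maximalIdeal T →
  ∀ (ρbar : ResidualGaloisRep (ResidueField T)), ρbar.IsIrreducible →
  ∀ (t : (AlgebraicClosure ℚ ≃ₐ[ℚ] AlgebraicClosure ℚ) → T)
    (ε : (AlgebraicClosure ℚ ≃ₐ[ℚ] AlgebraicClosure ℚ) →* T)
    (c : AlgebraicClosure ℚ ≃ₐ[ℚ] AlgebraicClosure ℚ) (i2 : T),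
    t 1 = 2 → (∀ x y, t (x * y) = t (y * x)) →
    (∀ x y, t (x * y) + ε y * t (x * y⁻¹) = t x * t y) →
    c * c = 1 → ε c = -1 → 2 * i2 = 1 →
    (∀ (n : ℕ) (σ : AlgebraicClosure ℚ ≃ₐ[ℚ] AlgebraicClosure ℚ) (a : ℕ),
      (∀ μ : AlgebraicClosure ℚ, μ ^ p ^ n = 1 → σ μ = μ ^ a) →
        ε σ - (a : T) ∈ Ideal.span {((p ^ n : ℕ) : T)}) →
    (∀ σ, residue T (t σ) = LinearMap.trace (ResidueField T) ρbar.V (ρbar.ρ σ)) →
    (∀ σ, residue T (ε σ) = LinearMap.det (ρbar.ρ σ)) →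
    (∀ k : ℕ, ∃ E : IntermediateField ℚ (AlgebraicClosure ℚ), FiniteDimensional ℚ E ∧
      ∀ σ : AlgebraicClosure ℚ ≃ₐ[ℚ] AlgebraicClosure ℚ, (∀ x ∈ E, σ x = x) →
        ∀ g, t (σ * g) - t g ∈ maximalIdeal T ^ k) →
    ∃ (σ₀ τ₀ : AlgebraicClosure ℚ ≃ₐ[ℚ] AlgebraicClosure ℚ) (u : T),
      u * rtk7Xi t c i2 σ₀ τ₀ = 1 ∧
      ∃ (ρ : GaloisRepAdic T) (b : Module.Basis (Fin 2) T ρ.V),
        (∀ g, LinearMap.toMatrix b b (ρ.ρ g) = rtk7Mat t c i2 σ₀ τ₀ u g) ∧
        ρ.DetIsCyclotomic p ∧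
        ρ.residual.IsEquiv ρbar ∧
        ∀ σ : AlgebraicClosure ℚ ≃ₐ[ℚ] AlgebraicClosure ℚ, (∀ g, t (σ * g) = t g) → ρ.ρ σ = 1

/-- **K7-GRA, fixed base point** (THE FORM TO PROVE; `StmtK7GRA` follows with
`rtk7_exists_unit`).  The base point `σ₀, τ₀` and the unit `u = ξ(σ₀, τ₀)⁻¹` are given: in the
application `σ₀, τ₀` depend only on `ρbar`, so that the matrices of the representations over
all Hecke rings `𝕋_Q` are compatible with the maps `𝕋_Q → 𝕋_∅` entry by entry. -/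
def StmtK7GRAFix : Prop :=
  ∀ (p : ℕ), p.Prime → p ≠ 2 →
  ∀ (T : Type) [CommRing T] [IsLocalRing T], (p : T) ∈ maximalIdeal T →
  ∀ (ρbar : ResidualGaloisRep (ResidueField T)), ρbar.IsIrreducible →
  ∀ (t : (AlgebraicClosure ℚ ≃ₐ[ℚ] AlgebraicClosure ℚ) → T)
    (ε : (AlgebraicClosure ℚ ≃ₐ[ℚ] AlgebraicClosure ℚ) →* T)
    (c : AlgebraicClosure ℚ ≃ₐ[ℚ] AlgebraicClosure ℚ) (i2 : T),
    t 1 = 2 → (∀ x y, t (x * y) = t (y * x)) →
    (∀ x y, t (x * y) + ε y * t (x * y⁻¹) = t x * t y) →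
    c * c = 1 → ε c = -1 → 2 * i2 = 1 →
    (∀ (n : ℕ) (σ : AlgebraicClosure ℚ ≃ₐ[ℚ] AlgebraicClosure ℚ) (a : ℕ),
      (∀ μ : AlgebraicClosure ℚ, μ ^ p ^ n = 1 → σ μ = μ ^ a) →
        ε σ - (a : T) ∈ Ideal.span {((p ^ n : ℕ) : T)}) →
    (∀ σ, residue T (t σ) = LinearMap.trace (ResidueField T) ρbar.V (ρbar.ρ σ)) →
    (∀ σ, residue T (ε σ) = LinearMap.det (ρbar.ρ σ)) →
    (∀ k : ℕ, ∃ E : IntermediateField ℚ (AlgebraicClosure ℚ), FiniteDimensional ℚ E ∧
      ∀ σ : AlgebraicClosure ℚ ≃ₐ[ℚ] AlgebraicClosure ℚ, (∀ x ∈ E, σ x = x) →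
        ∀ g, t (σ * g) - t g ∈ maximalIdeal T ^ k) →
    ∀ (σ₀ τ₀ : AlgebraicClosure ℚ ≃ₐ[ℚ] AlgebraicClosure ℚ) (u : T),
      u * rtk7Xi t c i2 σ₀ τ₀ = 1 →
      ∃ (ρ : GaloisRepAdic T) (b : Module.Basis (Fin 2) T ρ.V),
        (∀ g, LinearMap.toMatrix b b (ρ.ρ g) = rtk7Mat t c i2 σ₀ τ₀ u g) ∧
        ρ.DetIsCyclotomic p ∧
        ρ.residual.IsEquiv ρbar ∧
        ∀ σ : AlgebraicClosure ℚ ≃ₐ[ℚ] AlgebraicClosure ℚ, (∀ g, t (σ * g) = t g) → ρ.ρ σ = 1

end Fermat.Agent.RT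


end ZBS36_010_3

/-! ### bundled: `Fermat.Agent.RT.K7.GRAAlg` -/
section ZBS36_010_4

/-!
# K-machine, piece K7-GRA, algebra: a Cayley–Hamilton module with a unit `ξ(σ₀, τ₀)` is the
standard module of Wiles' matrices

`k` a commutative ring with `2 ∈ kˣ`, `V` a `k`-module, `r : G →* End_k V` with the
Cayley–Hamilton datum `S36CH r ε t c` and `u · ξ(σ₀, τ₀) = 1`.  For `v₀ ∈ V` put
`e₊ = P v₀`, `e₋ = (u / 2) · Q r(τ₀) P v₀` (`P = 1 + r c`, `Q = 1 − r c`).  Then
`r g e₊ = a(g) e₊ + ξ(σ₀, g) e₋`, `r g e₋ = ξ(g, τ₀) u e₊ + d(g) e₋`: the map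
`Φ : k² → V`, `x ↦ x₀ e₊ + x₁ e₋` intertwines `rtk7Mat t c i2 σ₀ τ₀ u g` with `r g`
(`rtk7g2_intertwine`).  Over a field, with `dim V = 2`, `Φ` is an isomorphism for a suitable `v₀`
(`rtk7g_exists_equiv` in `RT/K7/GRA.lean`).
-/

set_option autoImplicit false
set_option linter.unusedSectionVars false

namespace Fermat.Agent.RT

open Fermat.Agent.S36 Matrix

section Ops

variable {G R E : Type*} [Group G] [CommRing R] [Ring E] [Algebra R E]
  {r : G →* E} {ε t : G → R} {c : G}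

/-- `Ξ'(τ₀, σ₀) • Q r(g) P = Ξ(σ₀, g) • Q r(τ₀) P` -/
theorem rtk7g2_QgP (h : S36CH r ε t c) (σ₀ τ₀ g : G) :
    s36Xi' t c τ₀ σ₀ • (s36Q r c * r g * s36P r c)
      = s36Xi t c σ₀ g • (s36Q r c * r τ₀ * s36P r c) := by
  have h1 := h.QxPyQ τ₀ σ₀
  have h2 := h.PxQyP σ₀ g
  calc s36Xi' t c τ₀ σ₀ • (s36Q r c * r g * s36P r c)
      = (s36Xi' t c τ₀ σ₀ • s36Q r c) * r g * s36P r c := by
        simp only [smul_mul_assoc]
    _ = (s36Q r c * r τ₀ * s36P r c * r σ₀ * s36Q r c) * r g * s36P r c := by rw [h1]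
    _ = s36Q r c * r τ₀ * (s36P r c * r σ₀ * s36Q r c * r g * s36P r c) := by
        simp only [mul_assoc]
    _ = s36Q r c * r τ₀ * (s36Xi t c σ₀ g • s36P r c) := by rw [h2]
    _ = s36Xi t c σ₀ g • (s36Q r c * r τ₀ * s36P r c) := by
        simp only [mul_smul_comm]

/-- `2 r(g) P = A(g) P + Q r(g) P` -/
theorem rtk7g2_gP (h : S36CH r ε t c) (g : G) :
    (2 : R) • (r g * s36P r c) = s36A t c g • s36P r c + s36Q r c * r g * s36P r c := by
  have h1 := h.PxP g
  have h2 : (2 : R) • (r g * s36P r c) = (s36P r c + s36Q r c) * (r g * s36P r c) := by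
    rw [S36CH.P_add_Q (R := R) (r := r) (c := c), smul_mul_assoc, one_mul]
  rw [h2, add_mul, ← mul_assoc, ← mul_assoc, h1]

/-- `2 r(g) (Q r(τ₀) P) = Ξ(g, τ₀) P + D(g) Q r(τ₀) P` -/
theorem rtk7g2_gQ (h : S36CH r ε t c) (τ₀ g : G) :
    (2 : R) • (r g * (s36Q r c * r τ₀ * s36P r c))
      = s36Xi t c g τ₀ • s36P r c + s36D t c g • (s36Q r c * r τ₀ * s36P r c) := by
  have h1 := h.PxQyP g τ₀
  have h2 := h.QxQ g
  have h3 : (2 : R) • (r g * (s36Q r c * r τ₀ * s36P r c))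
      = (s36P r c + s36Q r c) * (r g * (s36Q r c * r τ₀ * s36P r c)) := by
    rw [S36CH.P_add_Q (R := R) (r := r) (c := c), smul_mul_assoc, one_mul]
  have h4 : s36P r c * (r g * (s36Q r c * r τ₀ * s36P r c))
      = s36P r c * r g * s36Q r c * r τ₀ * s36P r c := by simp only [mul_assoc]
  have h5 : s36Q r c * (r g * (s36Q r c * r τ₀ * s36P r c))
      = (s36Q r c * r g * s36Q r c) * r τ₀ * s36P r c := by simp only [mul_assoc]
  rw [h3, add_mul, h4, h5, h1, h2]
  simp only [smul_mul_assoc]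

end Ops

section Vec

variable {G k V : Type*} [Group G] [CommRing k] [AddCommGroup V] [Module k V]
  {r : G →* Module.End k V} {ε : G →* k} {t : G → k} {c : G}

/-- the first vector -/
def rtk7g2Plus (r : G →* Module.End k V) (c : G) (v₀ : V) : V := s36P r c v₀

/-- the second vector -/
def rtk7g2Minus (r : G →* Module.End k V) (c : G) (i2 u : k) (τ₀ : G) (v₀ : V) : V :=
  (u * i2) • s36Q r c (r τ₀ (s36P r c v₀))

variable (h : S36CH r ε t c) (h2 : ∀ x y, t (x * y) = t (y * x))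
  (h3 : ∀ x y, t (x * y) + ε y * t (x * y⁻¹) = t x * t y)
  (hc : c * c = 1) (hεc : ε c = -1)
  (i2 : k) (hi2 : 2 * i2 = 1) (σ₀ τ₀ : G) (u : k) (hu : u * rtk7Xi t c i2 σ₀ τ₀ = 1)

include h hi2 in
theorem rtk7g2_apply_plus' (g : G) (v₀ : V) :
    r g (rtk7g2Plus r c v₀) = rtk7A t c i2 g • rtk7g2Plus r c v₀
      + i2 • s36Q r c (r g (s36P r c v₀)) := by
  have e := congrArg (fun f : Module.End k V => i2 • f v₀) (rtk7g2_gP h g)
  simp only [LinearMap.smul_apply, LinearMap.add_apply, Module.End.mul_apply, smul_add] at e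
  rw [smul_smul, mul_comm, hi2, one_smul] at e
  rw [rtk7g2Plus, rtk7A_eq, mul_smul]
  exact e

include h h2 h3 hc hεc hi2 hu in
theorem rtk7g2_QgP_vec (g : G) (v₀ : V) :
    i2 • s36Q r c (r g (s36P r c v₀))
      = rtk7Xi t c i2 σ₀ g • rtk7g2Minus r c i2 u τ₀ v₀ := by
  have hX : s36Xi' t c τ₀ σ₀ = s36Xi t c σ₀ τ₀ := rtk7_xi'_eq ε t c h2 h3 hc hεc τ₀ σ₀
  have e := congrArg (fun f : Module.End k V => (u * i2 * i2 * i2) • f v₀)
    (rtk7g2_QgP h σ₀ τ₀ g)
  simp only [LinearMap.smul_apply, Module.End.mul_apply] at e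
  rw [hX, smul_smul, smul_smul] at e
  have hu' : u * (i2 * i2 * s36Xi t c σ₀ τ₀) = 1 := by
    rw [← rtk7Xi_eq t c i2 hi2]; exact hu
  have e1 : u * i2 * i2 * i2 * s36Xi t c σ₀ τ₀ = i2 := by
    linear_combination i2 * hu'
  rw [e1] at e
  rw [e, rtk7g2Minus, smul_smul, rtk7Xi_eq t c i2 hi2]
  congr 1
  ring

include h h2 h3 hc hεc hi2 hu in
/-- `r g e₊ = a(g) e₊ + ξ(σ₀, g) e₋` -/
theorem rtk7g2_apply_plus (g : G) (v₀ : V) :
    r g (rtk7g2Plus r c v₀) = rtk7A t c i2 g • rtk7g2Plus r c v₀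
      + rtk7Xi t c i2 σ₀ g • rtk7g2Minus r c i2 u τ₀ v₀ := by
  rw [rtk7g2_apply_plus' h i2 hi2 g v₀, rtk7g2_QgP_vec h h2 h3 hc hεc i2 hi2 σ₀ τ₀ u hu g v₀]

include h hi2 in
/-- `r g e₋ = ξ(g, τ₀) u e₊ + d(g) e₋` -/
theorem rtk7g2_apply_minus (g : G) (v₀ : V) :
    r g (rtk7g2Minus r c i2 u τ₀ v₀) = (rtk7Xi t c i2 g τ₀ * u) • rtk7g2Plus r c v₀
      + rtk7D t c i2 g • rtk7g2Minus r c i2 u τ₀ v₀ := by
  have e := congrArg (fun f : Module.End k V => (u * i2 * i2) • f v₀) (rtk7g2_gQ h τ₀ g)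
  simp only [LinearMap.smul_apply, LinearMap.add_apply, Module.End.mul_apply, smul_add] at e
  rw [smul_smul, smul_smul, smul_smul] at e
  have e1 : u * i2 * i2 * 2 = u * i2 := by linear_combination (u * i2) * hi2
  rw [e1] at e
  rw [rtk7g2Minus, map_smul, e, rtk7g2Plus, rtk7Xi_eq t c i2 hi2, rtk7D_eq, smul_smul]
  congr 1
  · congr 1; ring
  · congr 1; ring

/-- the map `k² → V`, `x ↦ x₀ e₊ + x₁ e₋` -/
def rtk7g2Phi (r : G →* Module.End k V) (c : G) (i2 u : k) (τ₀ : G) (v₀ : V) :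
    (Fin 2 → k) →ₗ[k] V where
  toFun x := x 0 • rtk7g2Plus r c v₀ + x 1 • rtk7g2Minus r c i2 u τ₀ v₀
  map_add' x y := by simp only [Pi.add_apply, add_smul]; abel
  map_smul' a x := by
    simp only [Pi.smul_apply, smul_eq_mul, RingHom.id_apply, smul_add, smul_smul]

include h h2 h3 hc hεc hi2 hu in
/-- **the intertwining relation** -/
theorem rtk7g2_intertwine (g : G) (v₀ : V) (x : Fin 2 → k) :
    r g (rtk7g2Phi r c i2 u τ₀ v₀ x)
      = rtk7g2Phi r c i2 u τ₀ v₀ ((rtk7Mat t c i2 σ₀ τ₀ u g).mulVec x) := by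
  simp only [rtk7g2Phi, LinearMap.coe_mk, AddHom.coe_mk, map_add, map_smul,
    rtk7g2_apply_plus h h2 h3 hc hεc i2 hi2 σ₀ τ₀ u hu g v₀,
    rtk7g2_apply_minus h i2 hi2 τ₀ u g v₀, rtk7Mat, Matrix.mulVec, dotProduct,
    Fin.sum_univ_two, Matrix.of_apply, Matrix.cons_val_zero, Matrix.cons_val_one]
  module

end Vec

end Fermat.Agent.RT


end ZBS36_010_4

/-! ### bundled: `Fermat.Agent.RT.K7.GRA` -/
section ZBS36_010_5

/-!
# K-machine, piece K7-GRA: from the pseudo-character to the representation (proof)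

`stmtK7GRAFix : StmtK7GRAFix` and `stmtK7GRA : StmtK7GRA` (`RT/K7/PlanGRA.lean`).

* `rtk7g_ch_mat`, `rtk7g_ch_end` : Cayley–Hamilton `f + det f • f⁻¹ = tr f • 1` on a plane.
* `rtk7g_exists_P_ne`, `rtk7g_phi_injective`, `rtk7g_phiEquiv` : over a field, for a
  Cayley–Hamilton plane with `ξ(σ₀, τ₀)` a unit, the map `Φ : k² → V` of `GRAAlg.lean` is an
  isomorphism for a suitable `v₀`.
* `rtk7g_map_mat` : the entries of Wiles' matrices commute with ring homomorphisms.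
* `stmtK7GRAFix`, `stmtK7GRA`.
-/

set_option autoImplicit false
set_option linter.unusedSectionVars false
set_option linter.unusedSimpArgs false
set_option linter.unnecessarySeqFocus false

namespace Fermat.Agent.RT

open Fermat.Agent.S36 Matrix IsLocalRing

section CH

variable {k : Type*} [Field k]

/-- Cayley–Hamilton for an invertible `2 × 2` matrix. -/
theorem rtk7g_ch_mat (M M' : Matrix (Fin 2) (Fin 2) k) (h : M * M' = 1) :
    M + M.det • M' = M.trace • (1 : Matrix (Fin 2) (Fin 2) k) := by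
  have h1 : M.adjugate = M.det • M' := by
    calc M.adjugate = M.adjugate * (M * M') := by rw [h, mul_one]
      _ = (M.adjugate * M) * M' := by rw [mul_assoc]
      _ = M.det • M' := by rw [Matrix.adjugate_mul, Matrix.smul_mul, one_mul]
  rw [← h1, Matrix.adjugate_fin_two]
  ext i j
  fin_cases i <;> fin_cases j <;>
    simp [Matrix.trace_fin_two] <;> ring

/-- Cayley–Hamilton for an invertible endomorphism of a plane. -/
theorem rtk7g_ch_end {V : Type*} [AddCommGroup V] [Module k V]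
    (hV : Module.finrank k V = 2) (f f' : Module.End k V) (h : f * f' = 1) :
    f + LinearMap.det f • f' = LinearMap.trace k V f • (1 : Module.End k V) := by
  have : Module.Finite k V := Module.finite_of_finrank_eq_succ hV
  let b : Module.Basis (Fin 2) k V := Module.finBasisOfFinrankEq k V hV
  apply (LinearMap.toMatrixAlgEquiv b).injective
  rw [map_add, map_smul, map_smul, map_one]
  have hM : LinearMap.toMatrixAlgEquiv b f * LinearMap.toMatrixAlgEquiv b f' = 1 := by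
    rw [← map_mul, h, map_one]
  have e := rtk7g_ch_mat _ _ hM
  have e1 : (LinearMap.toMatrixAlgEquiv b f).det = LinearMap.det f :=
    LinearMap.det_toMatrix b f
  have e2 : (LinearMap.toMatrixAlgEquiv b f).trace = LinearMap.trace k V f :=
    (LinearMap.trace_eq_matrix_trace k b f).symm
  rw [e1, e2] at e
  exact e

end CH

section Field

variable {G k V : Type*} [Group G] [Field k] [AddCommGroup V] [Module k V]
  {r : G →* Module.End k V} {ε : G →* k} {t : G → k} {c : G}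
  (h : S36CH r ε t c) (h2 : ∀ x y, t (x * y) = t (y * x))
  (h3 : ∀ x y, t (x * y) + ε y * t (x * y⁻¹) = t x * t y)
  (hc : c * c = 1) (hεc : ε c = -1)
  (i2 : k) (hi2 : 2 * i2 = 1) (σ₀ τ₀ : G) (u : k) (hu : u * rtk7Xi t c i2 σ₀ τ₀ = 1)

include hi2 in
theorem rtk7g_two_ne : (2 : k) ≠ 0 := by
  intro h0
  rw [h0, zero_mul] at hi2
  exact zero_ne_one hi2

include hi2 in
theorem rtk7g_i2_ne : i2 ≠ 0 := by
  intro h0
  rw [h0, mul_zero] at hi2
  exact zero_ne_one hi2

include hi2 hu in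
theorem rtk7g_xi_ne : s36Xi t c σ₀ τ₀ ≠ 0 := by
  intro h0
  rw [rtk7Xi_eq t c i2 hi2, h0, mul_zero, mul_zero] at hu
  exact zero_ne_one hu

include hu in
theorem rtk7g_u_ne : u ≠ 0 := by
  intro h0
  rw [h0, zero_mul] at hu
  exact zero_ne_one hu

include h h2 h3 hc hεc hi2 hu in
/-- `P ≠ 0`: there is a vector `v₀` with `P v₀ ≠ 0`. -/
theorem rtk7g_exists_P_ne [Nontrivial V] : ∃ v₀ : V, s36P r c v₀ ≠ 0 := by
  by_contra hcon
  push Not at hcon
  have hP : s36P r c = 0 := LinearMap.ext fun v => by rw [hcon v, LinearMap.zero_apply]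
  have hQ : s36Q r c = (2 : k) • (1 : Module.End k V) := by
    have := S36CH.P_add_Q (R := k) (r := r) (c := c)
    rw [hP, zero_add] at this
    exact this
  have e := h.QxPyQ τ₀ σ₀
  rw [hP, mul_zero, zero_mul, zero_mul, rtk7_xi'_eq ε t c h2 h3 hc hεc τ₀ σ₀, hQ, smul_smul] at e
  obtain ⟨v, hv⟩ := exists_ne (0 : V)
  have e' := congrArg (fun φ : Module.End k V => φ v) e
  simp only [LinearMap.zero_apply, LinearMap.smul_apply, Module.End.one_apply] at e'
  rcases smul_eq_zero.mp e'.symm with h0 | h0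
  · rcases mul_eq_zero.mp h0 with h1 | h1
    · exact rtk7g_xi_ne i2 hi2 σ₀ τ₀ u hu h1
    · exact rtk7g_two_ne i2 hi2 h1
  · exact hv h0

include h hi2 hu in
/-- the second vector is nonzero -/
theorem rtk7g_minus_ne (v₀ : V) (hv₀ : s36P r c v₀ ≠ 0) :
    rtk7g2Minus r c i2 u τ₀ v₀ ≠ 0 := by
  intro h0
  rw [rtk7g2Minus] at h0
  have h1 : s36Q r c (r τ₀ (s36P r c v₀)) = 0 :=
    (smul_eq_zero.mp h0).resolve_left
      (mul_ne_zero (rtk7g_u_ne i2 σ₀ τ₀ u hu) (rtk7g_i2_ne i2 hi2))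
  have e := congrArg (fun φ : Module.End k V => φ v₀) (h.PxQyP σ₀ τ₀)
  simp only [Module.End.mul_apply, LinearMap.smul_apply] at e
  rw [h1, map_zero, map_zero] at e
  exact hv₀ ((smul_eq_zero.mp e.symm).resolve_left (rtk7g_xi_ne i2 hi2 σ₀ τ₀ u hu))

include h hi2 hu in
/-- `Φ` is injective -/
theorem rtk7g_phi_injective (v₀ : V) (hv₀ : s36P r c v₀ ≠ 0) :
    Function.Injective (rtk7g2Phi r c i2 u τ₀ v₀) := by
  rw [injective_iff_map_eq_zero]
  intro x hx
  have hx' : x 0 • rtk7g2Plus r c v₀ + x 1 • rtk7g2Minus r c i2 u τ₀ v₀ = 0 := hx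
  have hPP : s36P r c (s36P r c v₀) = (2 : k) • s36P r c v₀ := by
    have := congrArg (fun φ : Module.End k V => φ v₀) h.PP
    simpa only [Module.End.mul_apply, LinearMap.smul_apply] using this
  have hPQ : ∀ w : V, s36P r c (s36Q r c w) = 0 := fun w => by
    have := congrArg (fun φ : Module.End k V => φ w) h.PQ
    simpa only [Module.End.mul_apply, LinearMap.zero_apply] using this
  have e : s36P r c (x 0 • rtk7g2Plus r c v₀ + x 1 • rtk7g2Minus r c i2 u τ₀ v₀)
      = s36P r c 0 := by rw [hx']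
  rw [map_add, map_smul, map_smul, rtk7g2Plus, rtk7g2Minus, map_smul, hPQ, smul_zero, smul_zero,
    add_zero, hPP, smul_smul, map_zero] at e
  have hx0 : x 0 = 0 := by
    rcases smul_eq_zero.mp e with h0 | h0
    · exact (mul_eq_zero.mp h0).resolve_right (rtk7g_two_ne i2 hi2)
    · exact absurd h0 hv₀
  rw [hx0, zero_smul, zero_add] at hx'
  have hx1 : x 1 = 0 :=
    (smul_eq_zero.mp hx').resolve_right (rtk7g_minus_ne h i2 hi2 σ₀ τ₀ u hu v₀ hv₀)
  funext i
  fin_cases i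
  · exact hx0
  · exact hx1

/-- `Φ` as a linear equivalence `k² ≃ V` (`dim V = 2`) -/
noncomputable def rtk7gPhiEquiv (hV : Module.finrank k V = 2) (r : G →* Module.End k V) (c : G)
    (i2 u : k) (τ₀ : G) (v₀ : V)
    (hinj : Function.Injective (rtk7g2Phi r c i2 u τ₀ v₀)) : (Fin 2 → k) ≃ₗ[k] V :=
  haveI : Module.Finite k V := Module.finite_of_finrank_eq_succ hV
  LinearMap.linearEquivOfInjective (rtk7g2Phi r c i2 u τ₀ v₀) hinj
    (by rw [hV, Module.finrank_fin_fun])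

theorem rtk7gPhiEquiv_apply (hV : Module.finrank k V = 2) (r : G →* Module.End k V) (c : G)
    (i2 u : k) (τ₀ : G) (v₀ : V)
    (hinj : Function.Injective (rtk7g2Phi r c i2 u τ₀ v₀)) (x : Fin 2 → k) :
    rtk7gPhiEquiv hV r c i2 u τ₀ v₀ hinj x = rtk7g2Phi r c i2 u τ₀ v₀ x := rfl

end Field

section Map

variable {G R R' : Type*} [Group G] [CommRing R] [CommRing R'] (φ : R →+* R') (t : G → R)
  (c : G) (i2 : R) (σ₀ τ₀ : G) (u : R)

theorem rtk7g_map_A (x : G) :
    φ (rtk7A t c i2 x) = rtk7A (fun g => φ (t g)) c (φ i2) x := by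
  simp only [rtk7A, map_mul, map_add]

theorem rtk7g_map_D (x : G) :
    φ (rtk7D t c i2 x) = rtk7D (fun g => φ (t g)) c (φ i2) x := by
  simp only [rtk7D, map_mul, map_sub]

theorem rtk7g_map_Xi (x y : G) :
    φ (rtk7Xi t c i2 x y) = rtk7Xi (fun g => φ (t g)) c (φ i2) x y := by
  simp only [rtk7Xi, map_sub, map_mul, rtk7g_map_A]

/-- the entries of Wiles' matrices commute with ring homomorphisms -/
theorem rtk7g_map_mat (x : G) :
    (rtk7Mat t c i2 σ₀ τ₀ u x).map φ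
      = rtk7Mat (fun g => φ (t g)) c (φ i2) σ₀ τ₀ (φ u) x := by
  ext i j
  fin_cases i <;> fin_cases j <;>
    simp [rtk7Mat, rtk7g_map_A, rtk7g_map_D, rtk7g_map_Xi]

end Map

section Main

open Fermat.Agent.S53 (Gal M2 MatCont ofMatrix residualMatEquiv residualMatEquiv_apply)

variable {T : Type} [CommRing T] [IsLocalRing T]

/-- the Cayley–Hamilton relation of the residual representation -/
theorem rtk7g_resid_ch (ρbar : ResidualGaloisRep (ResidueField T)) (t : Gal → T) (ε : Gal →* T)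
    (htr : ∀ σ, residue T (t σ) = LinearMap.trace (ResidueField T) ρbar.V (ρbar.ρ σ))
    (hdet : ∀ σ, residue T (ε σ) = LinearMap.det (ρbar.ρ σ)) (σ : Gal) :
    ρbar.ρ σ + residue T (ε σ) • ρbar.ρ σ⁻¹
      = residue T (t σ) • (1 : Module.End (ResidueField T) ρbar.V) := by
  rw [htr, hdet]
  refine rtk7g_ch_end ρbar.finrank_eq _ _ ?_
  rw [← map_mul, mul_inv_cancel, map_one]

/-- no stable line in an irreducible plane -/
theorem rtk7g_no_line (ρbar : ResidualGaloisRep (ResidueField T)) (hirr : ρbar.IsIrreducible)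
    (v : ρbar.V) (hv : v ≠ 0) : ∃ g, ∀ a : ResidueField T, ρbar.ρ g v ≠ a • v := by
  by_contra hcon
  push Not at hcon
  have hst : ∀ σ : Gal, ∀ x ∈ Submodule.span (ResidueField T) {v},
      ρbar.ρ σ x ∈ Submodule.span (ResidueField T) {v} := by
    intro σ x hx
    obtain ⟨a, rfl⟩ := Submodule.mem_span_singleton.mp hx
    obtain ⟨b, hb⟩ := hcon σ
    rw [map_smul, hb, smul_smul]
    exact Submodule.mem_span_singleton.mpr ⟨_, rfl⟩
  rcases hirr _ hst with h0 | h0
  · exact hv ((Submodule.span_singleton_eq_bot).mp h0)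
  · have h1 : Module.finrank (ResidueField T)
        (Submodule.span (ResidueField T) {v}) = 1 := finrank_span_singleton hv
    rw [h0, finrank_top, ρbar.finrank_eq] at h1
    exact absurd h1 (by norm_num)

/-- **K7-GRA, fixed base point.** -/
theorem stmtK7GRAFix : StmtK7GRAFix := by
  intro p _hp _hp2 T _ _ hpT ρbar _hirr t ε c i2 h1 h2 h3 hc hεc hi2 hcyc htr hdet hcont
    σ₀ τ₀ u hu
  -- the matrix representation
  set r : Gal →* M2 T := rtk7MatRep ε t c h1 h2 h3 hc hεc i2 hi2 σ₀ τ₀ u hu with hr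
  have hrσ : ∀ σ, r σ = rtk7Mat t c i2 σ₀ τ₀ u σ := fun _ => rfl
  have hrc : MatCont T r := by
    intro n
    obtain ⟨E, hE, hσE⟩ := hcont n
    refine ⟨E, hE, fun σ hσ i j => ?_⟩
    exact rtk7Mat_sub_one_mem ε t c h1 h2 h3 hc hεc i2 hi2 (maximalIdeal T ^ n) σ (hσE σ hσ)
      σ₀ τ₀ u i j
  -- the residual data
  set res := residue T with hres
  set εb : Gal →* ResidueField T := (res : T →* ResidueField T).comp ε with hεb
  set tb : Gal → ResidueField T := fun g => res (t g) with htb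
  have hεcb : εb c = -1 := by
    show res (ε c) = -1
    rw [hεc, map_neg, map_one]
  have hCH : S36CH ρbar.ρ εb tb c :=
    S36CH.of_exact (fun σ => rtk7g_resid_ch ρbar t ε htr hdet σ)
      (fun x y => map_mul εb x y) hc hεcb
  have h2b : ∀ x y, tb (x * y) = tb (y * x) := fun x y => by
    show res _ = res _
    rw [h2]
  have h3b : ∀ x y, tb (x * y) + εb y * tb (x * y⁻¹) = tb x * tb y := fun x y => by
    have := congrArg res (h3 x y)
    rw [map_add, map_mul, map_mul] at this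
    exact this
  have hi2b : 2 * res i2 = 1 := by
    have := congrArg res hi2
    rw [map_mul, map_ofNat, map_one] at this
    exact this
  have hub : res u * rtk7Xi tb c (res i2) σ₀ τ₀ = 1 := by
    have := congrArg res hu
    rw [map_mul, map_one, rtk7g_map_Xi] at this
    exact this
  have : Nontrivial ρbar.V :=
    Module.nontrivial_of_finrank_pos (R := ResidueField T) (by rw [ρbar.finrank_eq]; norm_num)
  obtain ⟨v₀, hv₀⟩ := rtk7g_exists_P_ne hCH h2b h3b hc hεcb (res i2) hi2b σ₀ τ₀ (res u) hub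
  have hinj := rtk7g_phi_injective hCH (res i2) hi2b σ₀ τ₀ (res u) hub v₀ hv₀
  refine ⟨ofMatrix r hrc, Pi.basisFun T (Fin 2), ?_, ⟨hpT, ?_⟩, ?_, ?_⟩
  · intro g
    rw [← hrσ g]
    show LinearMap.toMatrix (Pi.basisFun T (Fin 2)) (Pi.basisFun T (Fin 2))
      (Matrix.toLin' (r g)) = r g
    rw [LinearMap.toMatrix_eq_toMatrix', LinearMap.toMatrix'_toLin']
  · intro n σ a hσ
    have e : LinearMap.det ((ofMatrix r hrc).ρ σ) = ε σ := by
      show LinearMap.det (Matrix.toLin' (r σ)) = ε σ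
      rw [LinearMap.det_toLin']
      exact rtk7MatRep_det ε t c h1 h2 h3 hc hεc i2 hi2 σ₀ τ₀ u hu σ
    rw [e]
    exact hcyc n σ a hσ
  · refine ⟨{ toLinearEquiv := (residualMatEquiv r hrc).trans
                (rtk7gPhiEquiv ρbar.finrank_eq ρbar.ρ c (res i2) (res u) τ₀ v₀ hinj),
              map_apply := fun σ x => ?_ }⟩
    rw [LinearEquiv.trans_apply, LinearEquiv.trans_apply, residualMatEquiv_apply, hrσ,
      rtk7g_map_mat, rtk7gPhiEquiv_apply, rtk7gPhiEquiv_apply]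
    exact (rtk7g2_intertwine hCH h2b h3b hc hεcb (res i2) hi2b σ₀ τ₀ (res u) hub σ v₀ _).symm
  · intro σ hσ
    refine LinearMap.ext fun v => ?_
    show (r σ).mulVec v = v
    rw [hrσ, rtk7Mat_eq_one ε t c h1 h2 h3 hc hεc i2 hi2 σ₀ τ₀ u σ hσ, Matrix.one_mulVec]

/-- **K7-GRA.** -/
theorem stmtK7GRA : StmtK7GRA := by
  intro p hp hp2 T _ _ hpT ρbar hirr t ε c i2 h1 h2 h3 hc hεc hi2 hcyc htr hdet hcont
  have : Nontrivial ρbar.V :=
    Module.nontrivial_of_finrank_pos (R := ResidueField T) (by rw [ρbar.finrank_eq]; norm_num)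
  obtain ⟨σ₀, τ₀, u, hu⟩ := rtk7_exists_unit ε t c h2 h3 hc hεc i2 hi2 ρbar.ρ
    (fun σ => rtk7g_resid_ch ρbar t ε htr hdet σ) (rtk7g_no_line ρbar hirr)
  exact ⟨σ₀, τ₀, u, hu, stmtK7GRAFix p hp hp2 T hpT ρbar hirr t ε c i2 h1 h2 h3 hc hεc hi2
    hcyc htr hdet hcont σ₀ τ₀ u hu⟩

end Main

end Fermat.Agent.RT


end ZBS36_010_5
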