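/- GENERATED FILE (helper35, build-time optimisation, NOTES/ZB.md): verbatim concatenation of the modules
   Fermat.Agent.S36.PlanAlg
   Fermat.Agent.S36.H3Div
   Fermat.Agent.S36.PushPolyDiv
   Do not edit; do not import together with these modules. -/
import Fermat.Agent.ZB.ES_005
import Fermat.Agent.ZB.S36_010
import Fermat.Agent.ZB.S30_001
import Fermat.Agent.ZB.S53_002
import Fermat.Agent.ZB.ES_009
import Fermat.Agent.ZB.STB_001
import Fermat.Agent.ZB.STB_002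

/-! ### bundled: `Fermat.Agent.S36.PlanAlg` -/
section ZBS36_013_0

/-!
# S36: the interface of the algebraic part (pieces H3′, A3, A4 of NOTES/S36-plan.md)

* `StmtPushHeckeDiv` : **(H3′)** `α_*`, `β_*` commute with `T_ℓ` on torsion, for `q ∣ M₁`
  (STB-P3 `stb_p3_alpha/beta` is the case `q ∤ M₁`).
* `StmtResidUnit` : **(A3)** for a matrix representation over `O'` with absolutely irreducible
  residual representation and a complex conjugation, some `Ξ'(τ₁, σ₁) = 4 ξ'(τ₁, σ₁)` is a unit.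
* `StmtLargeAt M p` : **(A4, LARGE)** a Hecke polynomial which kills the `χ`-eigenpart
  `{x ∈ J[p^k] : h x = 0 for all h with χ(h) ∈ 𝔪^k}` has `χ`-value in `𝔪^k`.
* `StmtNewMemDiv` : (P2) + (H3′): `P · PDiv (M₁ q) p` is `q`-new if `P` kills level `M₁`, `q ∣ M₁`.
  (The algebraic half (h8) is `StmtH8` in `S36/T/Plan.lean`, helper99.)
-/

set_option autoImplicit false
set_option linter.style.haveILetI false

noncomputable section

namespace Fermat.Agent.S36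

open ModularCurve AlgebraicCurve Fermat.Agent.ES Fermat.Agent.STB Fermat.Agent.S31
open Fermat.Agent.S30 (chiHom)
open Fermat.Agent.S53 (Gal M2 MatCont ofMatrix)

/-- **(H3′)** push-forward along the two degeneracy maps commutes with the good Hecke
operators on torsion points, at levels `M₁ q` with `q ∣ M₁`. -/
def StmtPushHeckeDiv : Prop :=
  ∀ (M₁ q : ℕ) [NeZero M₁] [NeZero q], q.Prime → q ∣ M₁ →
    ∀ ℓ : Nat.Primes, ¬ (ℓ : ℕ) ∣ M₁ * q → ∀ n : ℕ, n ≠ 0 →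
      ∀ x : JZero (M₁ * q), n • x = 0 →
        stbPushAlpha M₁ q (heckeOperatorBar (M₁ * q) ℓ x) =
            heckeOperatorBar M₁ ℓ (stbPushAlpha M₁ q x) ∧
          stbPushBeta M₁ q (heckeOperatorBar (M₁ * q) ℓ x) =
            heckeOperatorBar M₁ ℓ (stbPushBeta M₁ q x)

/-- **(A3)** residual absolute irreducibility gives a unit `Ξ'(τ₁, σ₁)`
(`s36Xi' t c x y = 2 D(xy) − D(x) D(y)`, `D(x) = t x − t (x c)`, see `S36/WilesRing.lean`). -/
def StmtResidUnit : Prop :=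
  ∀ (O' : Type) [CommRing O'] [IsDomain O'] [IsDiscreteValuationRing O']
    (Mρ : Gal →* M2 O') (hM : MatCont O' Mρ) (c : Gal),
    c * c = 1 → (Mρ c).det = -1 → IsUnit (2 : O') →
    (ofMatrix Mρ hM).residual.IsAbsolutelyIrreducible →
      ∃ σ₁ τ₁ : Gal, IsUnit (s36Xi' (fun σ => (Mρ σ).trace) c τ₁ σ₁)

/-- **(A4, LARGE)** at level `M` and the prime `p`, on `J = PDiv M p`. -/
def StmtLargeAt (M p : ℕ) [NeZero M] : Prop :=
  ∀ (S : Finset ℕ), p ∈ S → (∀ q : ℕ, q.Prime → q ∣ M → q ∈ S) →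
    ∀ (g : CuspForm (CongruenceSubgroup.Gamma0 M) 2), g.IsNormalizedEigenform →
    ∀ (O' : Type) [CommRing O'] [IsDomain O'] [IsDiscreteValuationRing O'] [CharZero O']
      [Finite (IsLocalRing.ResidueField O')],
      (p : O') ∈ IsLocalRing.maximalIdeal O' →
    ∀ (chig : CuspForm.heckeAlgebra M 2 (↑S : Set ℕ) →+* ℂ),
      (∀ (ℓ : ℕ) (hℓ : ℓ.Prime) (hℓM : ¬ ℓ ∣ M) (hℓS : ℓ ∉ (↑S : Set ℕ)),
        chig (CuspForm.heckeAlgebra.T hℓ hℓM hℓS) = ModularFormClass.qCoeff g ℓ) →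
    ∀ (iota : chig.range →+* O'),
    ∀ Θ ∈ MvPolynomial.supported ℤ (outsideVars (↑S : Set ℕ)), ∀ k : ℕ,
      (∀ x : PDiv M p, p ^ k • x = 0 →
        (∀ h ∈ MvPolynomial.supported ℤ (outsideVars (↑S : Set ℕ)),
          chiHom S (iota.comp chig.rangeRestrict) h ∈ IsLocalRing.maximalIdeal O' ^ k →
            (letI := pDivModule M p; h • x) = 0) →
          (letI := pDivModule M p; Θ • x) = 0) →
        chiHom S (iota.comp chig.rangeRestrict) Θ ∈ IsLocalRing.maximalIdeal O' ^ k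

/-- (A4, LARGE) at all levels and primes. -/
def StmtLarge : Prop :=
  ∀ (M p : ℕ) [NeZero M], p.Prime → StmtLargeAt M p

/-- **(P2) + (H3′)**: a Hecke polynomial in the good variables of level `M₁ q`, `q ∣ M₁`, which
vanishes on `S₂(Γ₀(M₁))` maps `PDiv (M₁ q) p` into the `q`-new part.
(`S35.StmtNewMem` is the case `q ∤ M₁`.) -/
def StmtNewMemDiv : Prop :=
  ∀ (M₁ q p : ℕ) [NeZero M₁] [NeZero q], p.Prime → q.Prime → q ∣ M₁ → ∀ t : HeckeAlg,
    t ∈ MvPolynomial.supported ℤ (goodPrimes (M₁ * q) p) → CuspForm.heckeEvalForms M₁ 2 t = 0 →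
      ∀ x : PDiv (M₁ * q) p,
        (((letI := pDivModule (M₁ * q) p; t • x) : PDiv (M₁ * q) p) : JZero (M₁ * q)) ∈
          stbNew M₁ q

end Fermat.Agent.S36

end
end ZBS36_013_0

/-! ### bundled: `Fermat.Agent.S36.H3Div` -/
section ZBS36_013_1

/-!
# S36, piece H3′: `StmtPushHeckeDiv` (helper92)

`α_*`, `β_* : J₀(M₁q) → J₀(M₁)` commute with `T_ℓ` (`ℓ ∤ M₁ q`) on torsion points, for a prime
`q ∣ M₁`.  Proof in `STB/PushHeckeDiv.lean` (`stbd_p3_alpha`, `stbd_p3_beta`): Kummer form,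
transitivity of norms, base change of the norm in the square `F_{M₁} ⊂ F_{M₁q}`,
`F_{M₁ℓ} ⊂ F_{M₁ℓq}`; the `q` embeddings are the rotations `Q ↦ ζ^b Q` (over `β (F)`) and their
conjugates by the Fricke involution (over `α (F)`); the degree is `q` by Igusa's theorem.
-/

set_option autoImplicit false

namespace Fermat.Agent.S36

open Fermat.Agent.STB

/-- **(H3′)** -/
theorem stmtPushHeckeDiv_of_fricke : StmtPushHeckeDiv :=
  fun M₁ q _ _ hq hqM ℓ hℓ _ hn x hx =>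
    ⟨stbd_p3_alpha M₁ q hq hqM ℓ hn x hx, stbd_p3_beta M₁ q hq hqM ℓ hℓ hn x hx⟩

end Fermat.Agent.S36


end ZBS36_013_1

/-! ### bundled: `Fermat.Agent.S36.PushPolyDiv` -/
section ZBS36_013_2

/-!
# S36: the polynomial step on top of (H3′) — `StmtNewMemDiv` (helper92)

Fork of `STB/PushPoly.lean` (`stb_p3_new`, case `q ∤ M₁`) for `q ∣ M₁`.

* `s36pp_new_of_comm` : generic in the level — if `α_*`, `β_*` commute with the good `T_ℓ` on
  torsion, then a Hecke polynomial `t` in the good variables of level `M₁ q` which vanishes on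
  `S₂(Γ₀(M₁))` maps `PDiv (M₁ q) p` into `stbNew M₁ q`;
* `stmtNewMemDiv_of_pushHeckeDiv : StmtPushHeckeDiv → StmtNewMemDiv`;
* `stmtNewMemDiv : StmtNewMemDiv`.
-/

set_option autoImplicit false
set_option linter.style.haveILetI false
set_option linter.unusedSectionVars false

noncomputable section

namespace Fermat.Agent.S36

open AlgebraicCurve ModularCurve Fermat.Agent.ES Fermat.Agent.STB

section

variable {M₁ q p : ℕ} [NeZero M₁] [NeZero q]

/-- `α_*` intertwines the operators `T_ℓ` on the `p`-divisible torsion, `ℓ` good -/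
theorem s36pp_pDivOp_alpha (hp : p.Prime)
    (hcomm : ∀ ℓ : Nat.Primes, ¬ (ℓ : ℕ) ∣ M₁ * q → ∀ n : ℕ, n ≠ 0 →
      ∀ x : JZero (M₁ * q), n • x = 0 →
        stbPushAlpha M₁ q (heckeOperatorBar (M₁ * q) ℓ x) =
          heckeOperatorBar M₁ ℓ (stbPushAlpha M₁ q x))
    {ℓ : Nat.Primes} (hℓ : ℓ ∈ goodPrimes (M₁ * q) p) (x : PDiv (M₁ * q) p) :
    stbPushAlphaP M₁ q p (pDivOp (M₁ * q) p ℓ x) = pDivOp M₁ p ℓ (stbPushAlphaP M₁ q p x) := by
  apply Subtype.ext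
  obtain ⟨n, hn⟩ := x.2.1
  rw [stbPushAlphaP_coe, pDivOp_of_good hℓ, pDivOp_of_good (stb_good_of_good hℓ),
    stbPushAlphaP_coe]
  exact hcomm ℓ (stb_not_dvd_of_good hℓ) _ (pow_ne_zero n hp.ne_zero) (x : JZero (M₁ * q)) hn

/-- `β_*` intertwines the operators `T_ℓ` on the `p`-divisible torsion, `ℓ` good -/
theorem s36pp_pDivOp_beta (hp : p.Prime)
    (hcomm : ∀ ℓ : Nat.Primes, ¬ (ℓ : ℕ) ∣ M₁ * q → ∀ n : ℕ, n ≠ 0 →
      ∀ x : JZero (M₁ * q), n • x = 0 →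
        stbPushBeta M₁ q (heckeOperatorBar (M₁ * q) ℓ x) =
          heckeOperatorBar M₁ ℓ (stbPushBeta M₁ q x))
    {ℓ : Nat.Primes} (hℓ : ℓ ∈ goodPrimes (M₁ * q) p) (x : PDiv (M₁ * q) p) :
    stbPushBetaP M₁ q p (pDivOp (M₁ * q) p ℓ x) = pDivOp M₁ p ℓ (stbPushBetaP M₁ q p x) := by
  apply Subtype.ext
  obtain ⟨n, hn⟩ := x.2.1
  rw [stbPushBetaP_coe, pDivOp_of_good hℓ, pDivOp_of_good (stb_good_of_good hℓ),
    stbPushBetaP_coe]
  exact hcomm ℓ (stb_not_dvd_of_good hℓ) _ (pow_ne_zero n hp.ne_zero) (x : JZero (M₁ * q)) hn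

/-- polynomial form, `α` -/
theorem s36pp_poly_alpha (hp : p.Prime)
    (hcomm : ∀ ℓ : Nat.Primes, ¬ (ℓ : ℕ) ∣ M₁ * q → ∀ n : ℕ, n ≠ 0 →
      ∀ x : JZero (M₁ * q), n • x = 0 →
        stbPushAlpha M₁ q (heckeOperatorBar (M₁ * q) ℓ x) =
          heckeOperatorBar M₁ ℓ (stbPushAlpha M₁ q x))
    (t : HeckeAlg) (ht : t ∈ MvPolynomial.supported ℤ (goodPrimes (M₁ * q) p))
    (x : PDiv (M₁ * q) p) :
    stbPushAlphaP M₁ q p (letI := pDivModule (M₁ * q) p; t • x) =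
      (letI := pDivModule M₁ p; t • stbPushAlphaP M₁ q p x) := by
  rw [stb_pDiv_smul_def (M₁ * q) hp, stb_pDiv_smul_def M₁ hp]
  exact stb_tfEval_comm_of_comm _ _ (stbPushAlphaP M₁ q p) (goodPrimes (M₁ * q) p)
    (fun ℓ hℓ y => s36pp_pDivOp_alpha hp hcomm hℓ y) t ht x

/-- polynomial form, `β` -/
theorem s36pp_poly_beta (hp : p.Prime)
    (hcomm : ∀ ℓ : Nat.Primes, ¬ (ℓ : ℕ) ∣ M₁ * q → ∀ n : ℕ, n ≠ 0 →
      ∀ x : JZero (M₁ * q), n • x = 0 →
        stbPushBeta M₁ q (heckeOperatorBar (M₁ * q) ℓ x) =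
          heckeOperatorBar M₁ ℓ (stbPushBeta M₁ q x))
    (t : HeckeAlg) (ht : t ∈ MvPolynomial.supported ℤ (goodPrimes (M₁ * q) p))
    (x : PDiv (M₁ * q) p) :
    stbPushBetaP M₁ q p (letI := pDivModule (M₁ * q) p; t • x) =
      (letI := pDivModule M₁ p; t • stbPushBetaP M₁ q p x) := by
  rw [stb_pDiv_smul_def (M₁ * q) hp, stb_pDiv_smul_def M₁ hp]
  exact stb_tfEval_comm_of_comm _ _ (stbPushBetaP M₁ q p) (goodPrimes (M₁ * q) p)
    (fun ℓ hℓ y => s36pp_pDivOp_beta hp hcomm hℓ y) t ht x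

/-- **generic (P2) + (P3)**: if `α_*`, `β_*` commute with the good Hecke operators on torsion,
a Hecke polynomial in the good variables of level `M₁ q` which vanishes on `S₂(Γ₀(M₁))` maps
`PDiv (M₁ q) p` into `stbNew M₁ q`. -/
theorem s36pp_new_of_comm (hp : p.Prime)
    (hcomm : ∀ ℓ : Nat.Primes, ¬ (ℓ : ℕ) ∣ M₁ * q → ∀ n : ℕ, n ≠ 0 →
      ∀ x : JZero (M₁ * q), n • x = 0 →
        stbPushAlpha M₁ q (heckeOperatorBar (M₁ * q) ℓ x) =
            heckeOperatorBar M₁ ℓ (stbPushAlpha M₁ q x) ∧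
          stbPushBeta M₁ q (heckeOperatorBar (M₁ * q) ℓ x) =
            heckeOperatorBar M₁ ℓ (stbPushBeta M₁ q x))
    (t : HeckeAlg) (ht : t ∈ MvPolynomial.supported ℤ (goodPrimes (M₁ * q) p))
    (h0 : CuspForm.heckeEvalForms M₁ 2 t = 0) (x : PDiv (M₁ * q) p) :
    (((letI := pDivModule (M₁ * q) p; t • x) : PDiv (M₁ * q) p) : JZero (M₁ * q)) ∈
      stbNew M₁ q := by
  have hkill : ∀ y : PDiv M₁ p, (letI := pDivModule M₁ p; t • y) = 0 := by
    intro y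
    refine stb_p2_kills hp t (MvPolynomial.supported_mono ?_ ht) h0 y
    intro ℓ hℓ
    exact stb_good_of_good hℓ
  rw [mem_stbNew]
  constructor
  · have h := s36pp_poly_alpha hp (fun ℓ hℓ n hn x hx => (hcomm ℓ hℓ n hn x hx).1) t ht x
    rw [hkill] at h
    exact congrArg (fun y : PDiv M₁ p => (y : JZero M₁)) h
  · have h := s36pp_poly_beta hp (fun ℓ hℓ n hn x hx => (hcomm ℓ hℓ n hn x hx).2) t ht x
    rw [hkill] at h
    exact congrArg (fun y : PDiv M₁ p => (y : JZero M₁)) h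

end

/-- `StmtPushHeckeDiv → StmtNewMemDiv` -/
theorem stmtNewMemDiv_of_pushHeckeDiv (h : StmtPushHeckeDiv) : StmtNewMemDiv :=
  fun M₁ q _ _ _ hp hq hqM t ht h0 x =>
    s36pp_new_of_comm hp (fun ℓ hℓ n hn y hy => h M₁ q hq hqM ℓ hℓ n hn y hy) t ht h0 x

/-- **`StmtNewMemDiv`** -/
theorem stmtNewMemDiv : StmtNewMemDiv :=
  stmtNewMemDiv_of_pushHeckeDiv stmtPushHeckeDiv_of_fricke

end Fermat.Agent.S36

end
end ZBS36_013_2
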