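/- GENERATED FILE (helper35, build-time optimisation, NOTES/ZB.md): verbatim concatenation of the modules
   Fermat.Agent.S36.T.Plan
   Fermat.Agent.S36.Final
   Fermat.Agent.S36.Inputs
   Do not edit; do not import together with these modules. -/
import Fermat.Agent.ZB.S30_001
import Fermat.Statements.S36
import Fermat.Agent.ZB.S36_012
import Fermat.Agent.ZB.S36_013
import Fermat.Agent.ZB.S32_002
import Fermat.Agent.ZB.STB_002
import Fermat.Agent.ZB.Common_001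
import Fermat.Agent.ZB.STB_006
import Fermat.Agent.ZB.ES_005
import Fermat.Agent.ZB.ES_012
import Fermat.Agent.ZB.INJ_034
import Fermat.Agent.ZB.Cheb_002

/-! ### bundled: `Fermat.Agent.S36.T.Plan` -/
section ZBS36_014_0

/-!
# S36, route T: the interface

`StmtH8` : the abstract theorem **(h8)** of route T (NOTES/S36-routeT.md).  For a
`G_ℚ × Hecke`-module `J` carrying the faithful `p`-adic Eichler–Shimura package, the trace
function `t` of S30 (`S30.exists_traceFun`), a unit commutator trace (absolute irreducibility of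
the residual representation), a `G_ℚ`-stable subgroup `New ≤ J` whose `p`-power torsion inertia
invariants at a place `A ∣ q` (`q ≠ p`) are killed by a constant `c ≠ 0`, and a Hecke polynomial
`Θ` in the variables outside `S` with `Θ · J[p^∞] ⊆ New` and `χ(Θ) ≠ 0`:

  some `σ` in the inertia group of `A` has `t σ ≠ 2`.

Proved in `Fermat/Agent/S36/T/H8.lean` (`Fermat.Agent.S36.stmtH8`).
-/

set_option autoImplicit false

namespace Fermat.Agent.S36

open ModularCurve Fermat.Agent.ES Fermat.Agent.S31 Fermat.Agent.S30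

/-- **(h8)**, abstract form (route T). -/
def StmtH8 : Prop :=
  ∀ (p N : ℕ) [Fact p.Prime] [NeZero N]
    (J : Type) [AddCommGroup J] [Module HeckeAlg J] [DistribMulAction GQ J]
    (S : Finset ℕ)
    (𝒪' : Type) [CommRing 𝒪'] [IsDomain 𝒪'] [IsDiscreteValuationRing 𝒪'] [CharZero 𝒪']
    (χ : CuspForm.heckeAlgebra N 2 (↑S : Set ℕ) →+* 𝒪'),
    (p : 𝒪') ∈ IsLocalRing.maximalIdeal 𝒪' →
    Cheb.WeakChebotarev → ESDataInf N p J → ESFaith N p J →
    (∀ r : ℕ, r.Prime → r ∉ S → ¬ r ∣ N) →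
    (∀ r : ℕ, r.Prime → r ∉ S → ¬ r ∣ N * p) →
    ∀ t : GQ → 𝒪',
    (∀ (g : GQ) (k n : ℕ) (h : HeckeAlg), Good p J S χ k n →
      h ∈ MvPolynomial.supported ℤ (outsideVars (↑S : Set ℕ)) → Approx p J n g h →
        t g - chiHom S χ h ∈ IsLocalRing.maximalIdeal 𝒪' ^ k) →
    (∃ g₁ g₂ g₃ : GQ, t (g₁ * g₂ * g₃) - t (g₂ * g₁ * g₃) ∉ IsLocalRing.maximalIdeal 𝒪') →
    ∀ q : ℕ, q.Prime → q ≠ p →
    ∀ A : ValuationSubring (AlgebraicClosure ℚ), A.LiesOverPrime q →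
    ∀ New : AddSubgroup J, (∀ (σ : GQ), ∀ x ∈ New, σ • x ∈ New) →
    (∃ c : ℕ, c ≠ 0 ∧ ∀ x : J, IsPPowerTorsion p x → x ∈ New →
      (∀ σ ∈ A.inertiaSubgroupIn ℚ, σ • x = x) → c • x = 0) →
    ∀ Θ ∈ MvPolynomial.supported ℤ (outsideVars (↑S : Set ℕ)),
    (∀ x : J, IsPPowerTorsion p x → Θ • x ∈ New) →
    chiHom S χ Θ ≠ 0 →
    ∃ σ ∈ A.inertiaSubgroupIn ℚ, t σ ≠ 2

end Fermat.Agent.S36


end ZBS36_014_0

/-! ### bundled: `Fermat.Agent.S36.Final` -/
section ZBS36_014_1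

/-!
# S36 (frozen type) from its inputs (helper31)

`s36_of_inputs` : the statement of S36, verbatim, from

* `hG  : StmtCarayol`     — the geometric clause (G36-J) (`S36/Plan.lean`; target of the geometry),
* `hH8 : StmtH8`          — the algebraic half (route T, helper99, `S36/T/Plan.lean`),
* `hNM : StmtNewMemDiv`   — (P2) + (H3′): `P · PDiv (M₁ q) p` is `q`-new, `q ∣ M₁` (`S36/PlanAlg.lean`),
* `hNP : S35.StmtNewPoly` — STB-P1 (landed), `hES : S35.StmtESIn`, `hcheb` — the ES package (landed).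

The hypothesis `hres` of S36 is used once: applied to the representation `ρ` attached to the
pseudo-character `t` it gives the unit commutator trace (U) (`S32.exists_unit_trace`).
-/

set_option autoImplicit false
set_option linter.style.haveILetI false
set_option linter.unusedVariables false

open Polynomial

noncomputable section

namespace Fermat.Agent.S36

open ModularCurve Fermat.Agent.ES Fermat.Agent.S31 Fermat.Agent.S30 Fermat.Agent.STB
open Fermat.Agent.S35 (StmtNewPoly StmtESIn)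
open Fermat.Agent.S53 (Gal M2 MatCont ofMatrix)

/-- the `q`-new part of `PDiv (M₁ q) p` -/
def s36New (M₁ q p : ℕ) [NeZero M₁] [NeZero q] : AddSubgroup (PDiv (M₁ * q) p) :=
  (stbNew M₁ q).comap (pDivTors p (JZero (M₁ * q))).subtype

theorem mem_s36New {M₁ q p : ℕ} [NeZero M₁] [NeZero q] {x : PDiv (M₁ * q) p} :
    x ∈ s36New M₁ q p ↔ (x : JZero (M₁ * q)) ∈ stbNew M₁ q := Iff.rfl

/-- the `q`-new part is stable under Galois -/
theorem s36New_galois {M₁ q p : ℕ} [NeZero M₁] [NeZero q] (σ : GQ) {x : PDiv (M₁ * q) p}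
    (hx : x ∈ s36New M₁ q p) :
    (letI := pDivGalois (M₁ * q) p; σ • x) ∈ s36New M₁ q p := by
  rw [mem_s36New] at hx ⊢
  rw [pDivGalois_coe]
  rw [mem_stbNew] at hx ⊢
  rw [stbPushAlpha_galois, stbPushBeta_galois, hx.1, hx.2]
  exact ⟨@smul_zero GQ (JZero M₁) _ _ σ, @smul_zero GQ (JZero M₁) _ _ σ⟩

/-- **(h8)** at level `M₁ * q`, `q ∥ M₁`, for the trace function `t` on `PDiv (M₁ * q) lam`. -/
theorem s36f_h8 (hcheb : Cheb.WeakChebotarev) (hES : StmtESIn) (hG : StmtCarayol)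
    (hNP : StmtNewPoly) (hNM : StmtNewMemDiv) (hH8 : StmtH8)
    {M₁ q lam : ℕ} [NeZero M₁] [NeZero q] [Fact lam.Prime] (hq : q.Prime) (hqM₁ : q ∣ M₁)
    (hq2 : ¬ q ^ 2 ∣ M₁) (hqlam : q ≠ lam) (hlam2 : lam ≠ 2)
    {g : CuspForm (CongruenceSubgroup.Gamma0 (M₁ * q)) 2} (hg : g.IsNewform)
    (S : Finset ℕ)
    (O' : Type) [CommRing O'] [IsDomain O'] [IsDiscreteValuationRing O']
    [IsAdicComplete (IsLocalRing.maximalIdeal O') O'] [CharZero O']
    (hlamO' : (lam : O') ∈ IsLocalRing.maximalIdeal O')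
    (chig : CuspForm.heckeAlgebra (M₁ * q) 2 (↑S : Set ℕ) →+* ℂ)
    (hchig : ∀ (ℓ : ℕ) (hℓ : ℓ.Prime) (hℓM : ¬ ℓ ∣ M₁ * q) (hℓS : ℓ ∉ (↑S : Set ℕ)),
      chig (CuspForm.heckeAlgebra.T hℓ hℓM hℓS) = ModularFormClass.qCoeff g ℓ)
    (iota : chig.range →+* O')
    (hlamS : lam ∈ S) (hMS : ∀ r : ℕ, r.Prime → r ∣ M₁ * q → r ∈ S)
    (t : GQ → O')
    (ht : letI := pDivModule (M₁ * q) lam
      ∀ (γ : GQ) (k n : ℕ) (h : HeckeAlg),
        Good lam (PDiv (M₁ * q) lam) S (iota.comp chig.rangeRestrict) k n →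
        h ∈ MvPolynomial.supported ℤ (outsideVars (↑S : Set ℕ)) →
        (letI := pDivGalois (M₁ * q) lam; Approx lam (PDiv (M₁ * q) lam) n γ h) →
          t γ - chiHom S (iota.comp chig.rangeRestrict) h ∈ IsLocalRing.maximalIdeal O' ^ k)
    (hU : ∃ g₁ g₂ g₃ : GQ, t (g₁ * g₂ * g₃) - t (g₂ * g₁ * g₃) ∉ IsLocalRing.maximalIdeal O') :
    ∃ A : ValuationSubring (AlgebraicClosure ℚ), A.LiesOverPrime q ∧
      ∃ σ : GQ, σ ∈ A.inertiaSubgroupIn ℚ ∧ t σ ≠ 2 := by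
  letI := pDivModule (M₁ * q) lam
  letI := pDivGalois (M₁ * q) lam
  have hp : lam.Prime := Fact.out
  have hp0 : lam ≠ 0 := hp.ne_zero
  obtain ⟨⟨μ, hμd⟩, hlev, hfrob, hunr⟩ := hES (M₁ * q) lam hp
  have hm := multData_of_torsionUnifData hp0 hμd
  have hJ : ESDataInf (M₁ * q) lam (PDiv (M₁ * q) lam) := hm.esDataInf hlev hfrob hunr
  have hfaith : ESFaith (M₁ * q) lam (PDiv (M₁ * q) lam) := hm.esFaith hp0
  have hgoodN : ∀ r : ℕ, r.Prime → r ∉ S → ¬ r ∣ M₁ * q := fun r hr hrS h => hrS (hMS r hr h)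
  have hgood : ∀ r : ℕ, r.Prime → r ∉ S → ¬ r ∣ M₁ * q * lam := by
    intro r hr hrS h
    rcases (Nat.Prime.dvd_mul hr).mp h with h | h
    · exact hrS (hMS r hr h)
    · have : r = lam := (Nat.prime_dvd_prime_iff_eq hr hp).mp h
      exact hrS (this ▸ hlamS)
  have hM₁ne : M₁ ≠ M₁ * q := by
    intro h
    have h1 : M₁ * 1 = M₁ * q := by rw [mul_one]; exact h
    have h2 : 1 = q := Nat.eq_of_mul_eq_mul_left (Nat.pos_of_ne_zero (NeZero.ne M₁)) h1
    exact hq.one_lt.ne h2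
  obtain ⟨P, hP, hP0, hχP⟩ := hNP hg M₁ (dvd_mul_right M₁ q) hM₁ne S hMS O' chig hchig iota
  obtain ⟨A, hA⟩ := Fermat.Agent.Common.exists_liesOverPrime q hq
  obtain ⟨c, hc0, hc⟩ := hG M₁ q lam hq hp hqlam.symm hlam2 hqM₁ hq2 A hA
  have hsub : outsideVars (↑S : Set ℕ) ⊆ goodPrimes (M₁ * q) lam :=
    fun ℓ hℓ => hgood (ℓ : ℕ) ℓ.2 hℓ
  have hPgood : P ∈ MvPolynomial.supported ℤ (goodPrimes (M₁ * q) lam) :=
    MvPolynomial.supported_mono hsub hP
  obtain ⟨σ, hσ, hne⟩ := hH8 lam (M₁ * q) (PDiv (M₁ * q) lam) S O'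
    (iota.comp chig.rangeRestrict) hlamO' hcheb hJ hfaith hgoodN hgood t ht hU q hq hqlam
    A hA (s36New M₁ q lam) (fun σ x hx => s36New_galois σ hx)
    ⟨c, hc0, fun x _ hx hinv => by
      apply Subtype.ext
      rw [coe_nsmul_pDiv]
      refine hc (x : JZero (M₁ * q)) (isPPowerTorsion_coe x) (mem_s36New.mp hx) ?_
      intro τ hτ
      have := congrArg (fun y : PDiv (M₁ * q) lam => (y : JZero (M₁ * q))) (hinv τ hτ)
      exact this⟩
    P hP (fun x _ => mem_s36New.mpr (hNM M₁ q lam hp hq hqM₁ P hPgood hP0 x)) hχP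
  exact ⟨A, hA, σ, hσ, hne⟩

/-- **(h8)** at a level `M` with `q² ∥ M`. -/
theorem s36f_h8_dvd (hcheb : Cheb.WeakChebotarev) (hES : StmtESIn) (hG : StmtCarayol)
    (hNP : StmtNewPoly) (hNM : StmtNewMemDiv) (hH8 : StmtH8)
    {M q lam : ℕ} [NeZero M] [Fact lam.Prime] (hq : q.Prime) (hqM : M.factorization q = 2)
    (hqlam : q ≠ lam) (hlam2 : lam ≠ 2)
    {g : CuspForm (CongruenceSubgroup.Gamma0 M) 2} (hg : g.IsNewform)
    (S : Finset ℕ)
    (O' : Type) [CommRing O'] [IsDomain O'] [IsDiscreteValuationRing O']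
    [IsAdicComplete (IsLocalRing.maximalIdeal O') O'] [CharZero O']
    (hlamO' : (lam : O') ∈ IsLocalRing.maximalIdeal O')
    (chig : CuspForm.heckeAlgebra M 2 (↑S : Set ℕ) →+* ℂ)
    (hchig : ∀ (ℓ : ℕ) (hℓ : ℓ.Prime) (hℓM : ¬ ℓ ∣ M) (hℓS : ℓ ∉ (↑S : Set ℕ)),
      chig (CuspForm.heckeAlgebra.T hℓ hℓM hℓS) = ModularFormClass.qCoeff g ℓ)
    (iota : chig.range →+* O')
    (hlamS : lam ∈ S) (hMS : ∀ r : ℕ, r.Prime → r ∣ M → r ∈ S)
    (t : GQ → O')
    (ht : letI := pDivModule M lam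
      ∀ (γ : GQ) (k n : ℕ) (h : HeckeAlg),
        Good lam (PDiv M lam) S (iota.comp chig.rangeRestrict) k n →
        h ∈ MvPolynomial.supported ℤ (outsideVars (↑S : Set ℕ)) →
        (letI := pDivGalois M lam; Approx lam (PDiv M lam) n γ h) →
          t γ - chiHom S (iota.comp chig.rangeRestrict) h ∈ IsLocalRing.maximalIdeal O' ^ k)
    (hU : ∃ g₁ g₂ g₃ : GQ, t (g₁ * g₂ * g₃) - t (g₂ * g₁ * g₃) ∉ IsLocalRing.maximalIdeal O') :
    ∃ A : ValuationSubring (AlgebraicClosure ℚ), A.LiesOverPrime q ∧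
      ∃ σ : GQ, σ ∈ A.inertiaSubgroupIn ℚ ∧ t σ ≠ 2 := by
  have hM0 : M ≠ 0 := NeZero.ne M
  have h2 : q ^ 2 ∣ M := (hq.pow_dvd_iff_le_factorization hM0).mpr hqM.ge
  have h3 : ¬ q ^ 3 ∣ M := by
    rw [hq.pow_dvd_iff_le_factorization hM0, hqM]
    norm_num
  obtain ⟨M₁, hM⟩ : q ∣ M := dvd_trans (dvd_pow_self q two_ne_zero) h2
  have hM' : M = M₁ * q := by rw [hM, mul_comm]
  clear hM
  subst hM'
  haveI : NeZero M₁ := ⟨fun h => NeZero.ne (M₁ * q) (by rw [h, zero_mul])⟩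
  haveI : NeZero q := ⟨hq.ne_zero⟩
  have hqM₁ : q ∣ M₁ := by
    obtain ⟨c, hc⟩ := h2
    refine ⟨c, ?_⟩
    have h4 : M₁ * q = q * c * q := by rw [hc]; ring
    exact Nat.eq_of_mul_eq_mul_right hq.pos h4
  have hq2 : ¬ q ^ 2 ∣ M₁ := by
    rintro ⟨c, hc⟩
    apply h3
    exact ⟨c, by rw [hc]; ring⟩
  exact s36f_h8 hcheb hES hG hNP hNM hH8 hq hqM₁ hq2 hqlam hlam2 hg S O' hlamO' chig hchig iota
    hlamS hMS t ht hU

/-- **S36 verbatim**, from its inputs. -/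
theorem s36_of_inputs (hcheb : Cheb.WeakChebotarev) (hES : StmtESIn) (hG : StmtCarayol)
    (hNP : StmtNewPoly) (hNM : StmtNewMemDiv) (hH8 : StmtH8)
    {M : ℕ} [NeZero M] {g : CuspForm (CongruenceSubgroup.Gamma0 M) 2} (hg : g.IsNewform)
    (lam : ℕ) [Fact lam.Prime]
    (S : Finset ℕ)
    (O' : Type) [CommRing O'] [IsDomain O'] [IsDiscreteValuationRing O']
    [IsAdicComplete (IsLocalRing.maximalIdeal O') O'] [Finite (IsLocalRing.ResidueField O')]
    [CharZero O'] (hlamO' : (lam : O') ∈ IsLocalRing.maximalIdeal O')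
    (hlam2 : lam ≠ 2)
    (chig : CuspForm.heckeAlgebra M 2 (↑S : Set ℕ) →+* ℂ)
    (hchig : ∀ (ℓ : ℕ) (hℓ : ℓ.Prime) (hℓM : ¬ ℓ ∣ M) (hℓS : ℓ ∉ (↑S : Set ℕ)),
      chig (CuspForm.heckeAlgebra.T hℓ hℓM hℓS) = ModularFormClass.qCoeff g ℓ)
    (iota : chig.range →+* O')
    (hlamS : lam ∈ S) (hMS : ∀ q : ℕ, q.Prime → q ∣ M → q ∈ S)
    (hres : ∀ (O'' : Type) [CommRing O''] [IsDomain O''] [IsDiscreteValuationRing O'']
      [IsAdicComplete (IsLocalRing.maximalIdeal O'') O''] [Finite (IsLocalRing.ResidueField O'')]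
      [CharZero O''] [Algebra O' O''] [Module.Finite O' O''] [IsLocalHom (algebraMap O' O'')],
      Function.Injective (algebraMap O' O'') → ∀ (ρ : GaloisRepAdic O''),
      (∀ (ℓ : ℕ) (hℓ : ℓ.Prime) (hℓlam : ℓ ≠ lam) (hℓM : ¬ ℓ ∣ M) (hℓS : ℓ ∉ (↑S : Set ℕ)),
        ∀ A : ValuationSubring (AlgebraicClosure ℚ), A.LiesOverPrime ℓ →
          ∀ σ : AlgebraicClosure ℚ ≃ₐ[ℚ] AlgebraicClosure ℚ, A.IsFrobeniusAt σ ℓ →
            LinearMap.charpoly (ρ.ρ σ) =
              X ^ 2 - C (algebraMap O' O'' ((iota.comp chig.rangeRestrict)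
                (CuspForm.heckeAlgebra.T hℓ hℓM hℓS))) * X + C ((ℓ : O'')))
      → ρ.residual.IsAbsolutelyIrreducible ∧ ρ.residual.IsOdd) :
    S36Concl lam M S O' (iota.comp chig.rangeRestrict) := by
  have hp : lam.Prime := Fact.out
  have hp0 : lam ≠ 0 := hp.ne_zero
  obtain ⟨⟨μ, hμd⟩, hlev, hfrob, hunr⟩ := hES M lam hp
  have hm := multData_of_torsionUnifData hp0 hμd
  have hgoodN : ∀ r : ℕ, r.Prime → r ∉ S → ¬ r ∣ M := fun r hr hrS h => hrS (hMS r hr h)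
  have hgood : ∀ r : ℕ, r.Prime → r ∉ S → ¬ r ∣ M * lam := by
    intro r hr hrS h
    rcases (Nat.Prime.dvd_mul hr).mp h with h | h
    · exact hrS (hMS r hr h)
    · have : r = lam := (Nat.prime_dvd_prime_iff_eq hr hp).mp h
      exact hrS (this ▸ hlamS)
  have hne : ∀ ℓ : ℕ, ℓ ∉ (↑S : Set ℕ) → ℓ ≠ lam := by
    rintro ℓ hℓS rfl
    exact hℓS hlamS
  have key : ∃ t : GQ → O',
      IsPseudoChar2 (cycloCharO lam (IsLocalRing.maximalIdeal O') hlamO') t ∧
      (∀ (ℓ : ℕ) (hℓ : ℓ.Prime) (hℓN : ¬ ℓ ∣ M) (hℓS : ℓ ∉ (↑S : Set ℕ)),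
        ∀ A : ValuationSubring (AlgebraicClosure ℚ), A.LiesOverPrime ℓ →
          ∀ τ : GQ, A.IsFrobeniusAt τ ℓ →
            t τ = (iota.comp chig.rangeRestrict) (CuspForm.heckeAlgebra.T hℓ hℓN hℓS)) ∧
      (∀ k : ℕ, ∃ E : IntermediateField ℚ (AlgebraicClosure ℚ), FiniteDimensional ℚ E ∧
        ∀ σ : GQ, (∀ a ∈ E, σ a = a) → ∀ γ : GQ,
          t (σ * γ) - t γ ∈ IsLocalRing.maximalIdeal O' ^ k) ∧
      (∀ q : ℕ, q.Prime → q ≠ lam → M.factorization q = 2 →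
        ∃ A : ValuationSubring (AlgebraicClosure ℚ), A.LiesOverPrime q ∧
          ∃ σ : GQ, σ ∈ A.inertiaSubgroupIn ℚ ∧ t σ ≠ 2) := by
    letI := pDivModule M lam
    letI := pDivGalois M lam
    have hJ : ESDataInf M lam (PDiv M lam) := hm.esDataInf hlev hfrob hunr
    have hfaith : ESFaith M lam (PDiv M lam) := hm.esFaith hp0
    obtain ⟨t, ht⟩ := exists_traceFun (J := PDiv M lam) (χ := iota.comp chig.rangeRestrict)
      (IsLocalRing.maximalIdeal O') hlamO' hcheb hJ hfaith hgoodN hgood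
    obtain ⟨hps, h4, -, h6⟩ := pseudoChar_of_spec (IsLocalRing.maximalIdeal O') hlamO'
      hcheb hJ hfaith hgoodN hgood t ht
    refine ⟨t, hps, h4, h6, ?_⟩
    -- the unit commutator trace, from `hres` applied to the representation attached to `t`
    have hU : ∃ g₁ g₂ g₃ : GQ,
        t (g₁ * g₂ * g₃) - t (g₂ * g₁ * g₃) ∉ IsLocalRing.maximalIdeal O' := by
      obtain ⟨h1, h2, h3⟩ := hps
      obtain ⟨Mρ, δ, hδ, htr, hdet, hcont⟩ :=
        Fermat.Agent.ES.Wiles.exists_integral_rep_of_pseudoChar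
          ((Units.coeHom O').comp (cycloCharO lam (IsLocalRing.maximalIdeal O') hlamO')) t
          complexConjugation h1 h2 h3 complexConjugation_mul_self
          (cycloCharO_conj lam (IsLocalRing.maximalIdeal O') hlamO')
      obtain ⟨v, hv⟩ := Fermat.Agent.S30.exists_shift_of_ne_zero δ hδ
      have hM : MatCont O' Mρ := by
        intro n
        obtain ⟨E, hE, hEσ⟩ := h6 (n + v)
        exact ⟨E, hE, fun σ hσ i j => hv n _ (hcont σ _ (hEσ σ hσ) i j)⟩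
      have hρ : ∀ σ, (ofMatrix Mρ hM).ρ σ = Matrix.toLin' (Mρ σ) := fun _ => rfl
      have habs := (@hres O' _ _ _ _ _ _ (Algebra.id O') _ ⟨fun _ h => h⟩
        Function.injective_id (ofMatrix Mρ hM) (by
          intro ℓ hℓ hℓlam hℓN hℓS A hA σ hσ
          have e1 := h4 ℓ hℓ hℓN hℓS A hA σ hσ
          have e2 := cycloCharO_frob lam (IsLocalRing.maximalIdeal O') hlamO' ℓ hℓ hℓlam
            A hA σ hσ
          rw [hρ, Matrix.charpoly_toLin', Matrix.charpoly_fin_two, htr, hdet, e1]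
          have e3 : ((Units.coeHom O').comp
              (cycloCharO lam (IsLocalRing.maximalIdeal O') hlamO')) σ = (ℓ : O') := e2
          rw [e3]
          rfl)).1
      obtain ⟨g₁, g₂, g₃, hg⟩ := Fermat.Agent.S32.exists_unit_trace (ofMatrix Mρ hM) habs
      refine ⟨g₁, g₂, g₃, ?_⟩
      have htrace : ∀ σ, LinearMap.trace O' (ofMatrix Mρ hM).V ((ofMatrix Mρ hM).ρ σ) = t σ := by
        intro σ
        rw [← htr σ]
        exact Matrix.trace_toLin'_eq (Mρ σ)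
      rwa [htrace, htrace] at hg
    intro q hq hqlam hqM
    exact s36f_h8_dvd hcheb hES hG hNP hNM hH8 hq hqM hqlam hlam2 hg S O' hlamO' chig hchig
      iota hlamS hMS t ht hU
  obtain ⟨t, ⟨h1, h2, h3⟩, h4, h6, h8⟩ := key
  refine s36_of_pseudoChar lam M S O' (iota.comp chig.rangeRestrict) t
    ((Units.coeHom O').comp (cycloCharO lam (IsLocalRing.maximalIdeal O') hlamO'))
    complexConjugation h1 h2 h3 complexConjugation_mul_self
    (cycloCharO_conj lam (IsLocalRing.maximalIdeal O') hlamO') ?_ h6 h8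
  intro ℓ hℓ hℓN hℓS A hA σ hσ
  exact ⟨h4 ℓ hℓ hℓN hℓS A hA σ hσ,
    cycloCharO_frob lam (IsLocalRing.maximalIdeal O') hlamO' ℓ hℓ (hne ℓ hℓS) A hA σ hσ⟩

end Fermat.Agent.S36

end
end ZBS36_014_1

/-! ### bundled: `Fermat.Agent.S36.Inputs` -/
section ZBS36_014_2

/-!
# S36: the landed inputs of `s36_of_inputs`, discharged (helper31)

* `s36in_esIn : S35.StmtESIn` — the Eichler–Shimura package on `PDiv N p`;
* `s36in_newPoly : S35.StmtNewPoly` — STB-P1 (helper46);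
* `s36_of_geometry` : S36 (in the form `S36Concl`) from the two open inputs, the geometric clause
  `StmtCarayol` and the algebraic half `StmtH8`.
-/

set_option autoImplicit false
set_option linter.unusedVariables false

open Polynomial

noncomputable section

namespace Fermat.Agent.S36

open ModularCurve Fermat.Agent.ES Fermat.Agent.S31 Fermat.Agent.S30 Fermat.Agent.STB
open Fermat.Agent.S35 (StmtNewPoly StmtESIn)

/-- the Eichler–Shimura package on `PDiv N p` -/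
theorem s36in_esIn : StmtESIn := fun N p _ hp =>
  ⟨torsionUnif_proved N p hp.pos, stmtFiniteLevel N p hp.ne_zero,
    G2.stmtFrob_of_stmtINJAll Fermat.Agent.INJ.injAll_stmtINJAll N p,
    G2.stmtUnram_of_stmtINJAll Fermat.Agent.INJ.injAll_stmtINJAll N p⟩

/-- the faithful package at every level -/
theorem s36in_pkg (N p : ℕ) [NeZero N] (hp : p.Prime) : ESPkgFaith N p :=
  esPkgFaith_of_inputs Fermat.Agent.INJ.injAll_stmtINJAll hp (torsionUnif_proved N p hp.pos)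

/-- STB-P1 in the form consumed by the final glue -/
theorem s36in_newPoly : StmtNewPoly := by
  intro M _ g hg M₁ _ hM₁ hne S hMS O' _ _ _ chig hchig iota
  exact stb_p1_iota (fun N p _ hp => s36in_pkg N p hp) hg hM₁ hne S hMS chig hchig iota

/-- **S36 from the geometric clause and the algebraic half.** -/
theorem s36_of_geometry (hG : StmtCarayol) (hH8 : StmtH8)
    {M : ℕ} [NeZero M] {g : CuspForm (CongruenceSubgroup.Gamma0 M) 2} (hg : g.IsNewform)
    (lam : ℕ) [Fact lam.Prime]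
    (S : Finset ℕ)
    (O' : Type) [CommRing O'] [IsDomain O'] [IsDiscreteValuationRing O']
    [IsAdicComplete (IsLocalRing.maximalIdeal O') O'] [Finite (IsLocalRing.ResidueField O')]
    [CharZero O'] (hlamO' : (lam : O') ∈ IsLocalRing.maximalIdeal O')
    (hlam2 : lam ≠ 2)
    (chig : CuspForm.heckeAlgebra M 2 (↑S : Set ℕ) →+* ℂ)
    (hchig : ∀ (ℓ : ℕ) (hℓ : ℓ.Prime) (hℓM : ¬ ℓ ∣ M) (hℓS : ℓ ∉ (↑S : Set ℕ)),
      chig (CuspForm.heckeAlgebra.T hℓ hℓM hℓS) = ModularFormClass.qCoeff g ℓ)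
    (iota : chig.range →+* O')
    (hlamS : lam ∈ S) (hMS : ∀ q : ℕ, q.Prime → q ∣ M → q ∈ S)
    (hres : ∀ (O'' : Type) [CommRing O''] [IsDomain O''] [IsDiscreteValuationRing O'']
      [IsAdicComplete (IsLocalRing.maximalIdeal O'') O''] [Finite (IsLocalRing.ResidueField O'')]
      [CharZero O''] [Algebra O' O''] [Module.Finite O' O''] [IsLocalHom (algebraMap O' O'')],
      Function.Injective (algebraMap O' O'') → ∀ (ρ : GaloisRepAdic O''),
      (∀ (ℓ : ℕ) (hℓ : ℓ.Prime) (hℓlam : ℓ ≠ lam) (hℓM : ¬ ℓ ∣ M) (hℓS : ℓ ∉ (↑S : Set ℕ)),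
        ∀ A : ValuationSubring (AlgebraicClosure ℚ), A.LiesOverPrime ℓ →
          ∀ σ : AlgebraicClosure ℚ ≃ₐ[ℚ] AlgebraicClosure ℚ, A.IsFrobeniusAt σ ℓ →
            LinearMap.charpoly (ρ.ρ σ) =
              X ^ 2 - C (algebraMap O' O'' ((iota.comp chig.rangeRestrict)
                (CuspForm.heckeAlgebra.T hℓ hℓM hℓS))) * X + C ((ℓ : O'')))
      → ρ.residual.IsAbsolutelyIrreducible ∧ ρ.residual.IsOdd) :
    S36Concl lam M S O' (iota.comp chig.rangeRestrict) :=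
  s36_of_inputs Cheb.weakChebotarev_holds s36in_esIn hG s36in_newPoly stmtNewMemDiv hH8 hg lam S
    O' hlamO' hlam2 chig hchig iota hlamS hMS hres

end Fermat.Agent.S36

end
end ZBS36_014_2
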