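/- GENERATED FILE (helper35, build-time optimisation, NOTES/ZB.md): verbatim concatenation of the modules
   Fermat.Agent.S36.T.DetTrick
   Fermat.Agent.RT.K8.DualDet
   Fermat.Agent.RT.K8.Abs
   Do not edit; do not import together with these modules. -/
import Mathlib
import Fermat.Agent.ZB.S32_001

/-! ### bundled: `Fermat.Agent.S36.T.DetTrick` -/
section ZBS36_011_0

/-!
# S36, route T, piece DT: the determinant trick (Mathlib only)

* `s36t_smul_mem_range` : for an endomorphism `u` of a finite abelian group `M`, the cokernel of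
  `u` has the order of the kernel; hence `B • x ∈ range u` as soon as `|ker u| ∣ B`.
* `s36t_closure_eq_top` : if `pⁿ M = 0` and every element of `M` is congruent modulo `p M` to an
  element of `T`, then `T` generates `M`.
* `s36t_det_trick` : if `M` is generated by `m i` (`i ∈ ι`, finite) and `B • M ⊆ (t - 1) M`, then
  there is `f ∈ ℤ[X]` with `f(1) = B ^ |ι|` and `f(t) = 0` on `M`.
-/

set_option autoImplicit false

open Polynomial

namespace Fermat.Agent.S36

section Card

variable {M : Type*} [AddCommGroup M] [Finite M]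

/-- the cokernel of an endomorphism of a finite abelian group has the order of its kernel -/
theorem s36t_card_quot_range (u : M →+ M) : Nat.card (M ⧸ u.range) = Nat.card u.ker := by
  have h1 := AddSubgroup.card_eq_card_quotient_mul_card_addSubgroup u.range
  have h2 := AddSubgroup.card_eq_card_quotient_mul_card_addSubgroup u.ker
  have h3 : Nat.card (M ⧸ u.ker) = Nat.card u.range :=
    Nat.card_congr (QuotientAddGroup.quotientKerEquivRange u).toEquiv
  rw [h3] at h2
  have h4 : 0 < Nat.card u.range := Nat.card_pos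
  have h5 : Nat.card (M ⧸ u.range) * Nat.card u.range = Nat.card u.ker * Nat.card u.range := by
    rw [← h1, h2, mul_comm]
  exact Nat.eq_of_mul_eq_mul_right h4 h5

/-- if `|ker u| ∣ B` then `B • M ⊆ range u` -/
theorem s36t_smul_mem_range (u : M →+ M) (B : ℕ) (hB : Nat.card u.ker ∣ B) (x : M) :
    B • x ∈ u.range := by
  obtain ⟨d, rfl⟩ := hB
  have h1 : Nat.card (M ⧸ u.range) • (QuotientAddGroup.mk x : M ⧸ u.range) = 0 :=
    card_nsmul_eq_zero'
  rw [s36t_card_quot_range u] at h1
  have h2 : ((Nat.card u.ker * d) • x : M) = d • (Nat.card u.ker • x) := by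
    rw [mul_comm, mul_smul]
  rw [h2]
  apply AddSubgroup.nsmul_mem
  rw [← QuotientAddGroup.eq_zero_iff]
  exact h1

end Card

section Gen

variable {M : Type*} [AddCommGroup M]

/-- if `pⁿ M = 0` and every element of `M` is congruent modulo `p M` to an element of `T`,
then `T` generates `M` -/
theorem s36t_closure_eq_top (p n : ℕ) (hM : ∀ x : M, p ^ n • x = 0) (T : Set M)
    (hT : ∀ x : M, ∃ s ∈ T, ∃ z : M, x = s + p • z) :
    AddSubgroup.closure T = ⊤ := by
  have key : ∀ k : ℕ, ∀ x : M, ∃ y ∈ AddSubgroup.closure T, ∃ z : M, x = y + p ^ k • z := by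
    intro k
    induction k with
    | zero =>
      intro x
      exact ⟨0, zero_mem _, x, by rw [pow_zero, one_smul, zero_add]⟩
    | succ k ih =>
      intro x
      obtain ⟨y, hy, z, rfl⟩ := ih x
      obtain ⟨s, hs, z', rfl⟩ := hT z
      refine ⟨y + p ^ k • s, add_mem hy (AddSubgroup.nsmul_mem _ (AddSubgroup.subset_closure hs) _),
        z', ?_⟩
      rw [smul_add, pow_succ, mul_smul, add_assoc]
  rw [eq_top_iff]
  intro x _
  obtain ⟨y, hy, z, rfl⟩ := key n x
  rw [hM z, add_zero]
  exact hy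

end Gen

section Det

variable {M : Type*} [AddCommGroup M]

/-- **the determinant trick.** -/
theorem s36t_det_trick {ι : Type*} [Fintype ι] [DecidableEq ι] (m : ι → M)
    (hm : Submodule.span ℤ (Set.range m) = ⊤) (t : Module.End ℤ M) (B : ℕ)
    (hB : ∀ x : M, ∃ y : M, B • x = t y - y) :
    ∃ f : ℤ[X], f.eval 1 = (B : ℤ) ^ Fintype.card ι ∧ ∀ x : M, aeval t f x = 0 := by
  classical
  -- the matrix `a`
  have hex : ∀ i : ι, ∃ c : ι → ℤ, B • m i = t (∑ j, c j • m j) - ∑ j, c j • m j := by
    intro i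
    obtain ⟨y, hy⟩ := hB (m i)
    have hy' : y ∈ Submodule.span ℤ (Set.range m) := by rw [hm]; exact Submodule.mem_top
    obtain ⟨c, hc⟩ := (Submodule.mem_span_range_iff_exists_fun ℤ).mp hy'
    exact ⟨c, by rw [hc]; exact hy⟩
  choose a ha using hex
  -- the matrix over `ℤ[X]`
  set Nmat : Matrix ι ι ℤ[X] := fun i j =>
    (if i = j then C (B : ℤ) else 0) - (X - 1) * C (a i j) with hN
  refine ⟨Nmat.det, ?_, ?_⟩
  · -- the value at `1`
    have h1 : (Nmat.det).eval 1 = ((evalRingHom (1 : ℤ)).mapMatrix Nmat).det := by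
      rw [← RingHom.map_det]; rfl
    rw [h1]
    have h2 : (evalRingHom (1 : ℤ)).mapMatrix Nmat = (B : ℤ) • (1 : Matrix ι ι ℤ) := by
      ext i j
      rw [RingHom.mapMatrix_apply, Matrix.map_apply, Matrix.smul_apply, Matrix.one_apply,
        smul_eq_mul]
      show evalRingHom (1 : ℤ) ((if i = j then C (B : ℤ) else 0) - (X - 1) * C (a i j)) = _
      rw [coe_evalRingHom, eval_sub, eval_mul, eval_sub, eval_X, eval_one, sub_self, zero_mul,
        sub_zero]
      split_ifs
      · rw [eval_C, mul_one]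
      · rw [eval_zero, mul_zero]
    rw [h2, Matrix.det_smul, Matrix.det_one, mul_one]
  · -- `det N` kills `M`
    have hrow : ∀ i : ι, ∑ j, aeval t (Nmat i j) (m j) = 0 := by
      intro i
      have e : ∀ j, aeval t (Nmat i j) (m j) =
          (if i = j then B • m j else 0) - (t (a i j • m j) - a i j • m j) := by
        intro j
        show aeval t ((if i = j then C (B : ℤ) else 0) - (X - 1) * C (a i j)) (m j) = _
        rw [map_sub, map_mul, map_sub, aeval_X, map_one, aeval_C, LinearMap.sub_apply,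
          Module.End.mul_apply, LinearMap.sub_apply, Module.End.one_apply,
          Module.algebraMap_end_apply]
        congr 1
        split_ifs with h
        · rw [aeval_C, Module.algebraMap_end_apply, natCast_zsmul]
        · rw [map_zero, LinearMap.zero_apply]
      simp only [e]
      rw [Finset.sum_sub_distrib, Finset.sum_ite_eq, if_pos (Finset.mem_univ i),
        Finset.sum_sub_distrib, ← map_sum, ha i, sub_self]
    have hkill : ∀ k : ι, aeval t Nmat.det (m k) = 0 := by
      intro k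
      have hadj : ∀ j, ∑ i, Nmat.adjugate k i * Nmat i j = if k = j then Nmat.det else 0 := by
        intro j
        have := congrFun (congrFun (Matrix.adjugate_mul Nmat) k) j
        rw [Matrix.mul_apply, Matrix.smul_apply, Matrix.one_apply, smul_eq_mul] at this
        rw [this]
        split_ifs <;> simp
      have e1 : aeval t Nmat.det (m k) =
          ∑ j, aeval t (∑ i, Nmat.adjugate k i * Nmat i j) (m j) := by
        simp only [hadj]
        rw [Finset.sum_eq_single k]
        · rw [if_pos rfl]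
        · intro j _ hjk
          rw [if_neg (Ne.symm hjk), map_zero, LinearMap.zero_apply]
        · intro h
          exact absurd (Finset.mem_univ k) h
      rw [e1]
      have e2 : ∀ j, aeval t (∑ i, Nmat.adjugate k i * Nmat i j) (m j) =
          ∑ i, aeval t (Nmat.adjugate k i) (aeval t (Nmat i j) (m j)) := by
        intro j
        rw [map_sum, LinearMap.sum_apply]
        refine Finset.sum_congr rfl fun i _ => ?_
        rw [map_mul, Module.End.mul_apply]
      simp only [e2]
      rw [Finset.sum_comm]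
      refine Finset.sum_eq_zero fun i _ => ?_
      rw [← map_sum, hrow i, map_zero]
    intro x
    have hx : x ∈ Submodule.span ℤ (Set.range m) := by rw [hm]; exact Submodule.mem_top
    refine Submodule.span_induction (p := fun x _ => aeval t Nmat.det x = 0) ?_ ?_ ?_ ?_ hx
    · rintro _ ⟨k, rfl⟩
      exact hkill k
    · exact map_zero _
    · intro x y _ _ hx hy
      rw [map_add, hx, hy, add_zero]
    · intro c x _ hx
      rw [map_smul, hx, smul_zero]

end Det

end Fermat.Agent.S36


end ZBS36_011_0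

/-! ### bundled: `Fermat.Agent.RT.K8.DualDet` -/
section ZBS36_011_1

/-!
# RT-K8, algebra part 2: the dual determinant trick (Mathlib only)

`R` a commutative ring, `X` a finite `R`-module killed by `pⁿ`, `K` an ideal of `R`, `C : R`.

* `rtk8_det_trick` : if `M` is generated by `m i` (`i ∈ ι`, finite) and `C • m i ∈ K • M`, then
  `C ^ |ι| + a` kills `M` for some `a ∈ K`.
* `rtk8_dual_det` : if `C` kills `X[K] = {x : ∀ h ∈ K, h • x = 0}`, then `C ^ r + a` kills `X`
  for some `a ∈ K` and some `r ≤ |X[p]|`.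

Proof of the second statement: on the Pontryagin dual `Y = Hom(X, ℂˣ)` (with the transposed
action) the double annihilator theorem gives `C • Y ⊆ K • Y`; `Y` is generated by representatives
of `Y / p Y`, and `|Y / p Y| = |Y[p]| ≤ |X / p X| = |X[p]|`.
-/

set_option autoImplicit false
set_option linter.style.haveILetI false

universe u v

namespace Fermat.Agent.RT.K8

open Fermat.Agent.S36

section Det

/-- **the determinant trick with an ideal.** -/
theorem rtk8_det_trick {R M : Type*} [CommRing R] [AddCommGroup M] [Module R M]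
    {ι : Type*} [Fintype ι] [DecidableEq ι] (m : ι → M)
    (hm : Submodule.span R (Set.range m) = ⊤) (K : Ideal R) (C : R)
    (hC : ∀ i : ι, C • m i ∈ K • (⊤ : Submodule R M)) :
    ∃ a ∈ K, ∀ x : M, (C ^ Fintype.card ι + a) • x = 0 := by
  classical
  have hex : ∀ i : ι, ∃ c : ι → R, (∀ j, c j ∈ K) ∧ ∑ j, c j • m j = C • m i := by
    intro i
    have h1 := hC i
    rw [← hm, Submodule.mem_ideal_smul_span_iff_exists_sum] at h1
    obtain ⟨c, hc, hsum⟩ := h1
    refine ⟨fun j => c j, hc, ?_⟩
    rw [← hsum, Finsupp.sum_fintype]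
    intro j
    exact zero_smul _ _
  choose A hA hAeq using hex
  set Nmat : Matrix ι ι R := fun i j => (if i = j then C else 0) - A i j with hN
  refine ⟨Nmat.det - C ^ Fintype.card ι, ?_, ?_⟩
  · rw [← Ideal.Quotient.eq_zero_iff_mem, map_sub, map_pow, RingHom.map_det]
    have h2 : (Ideal.Quotient.mk K).mapMatrix Nmat =
        (Ideal.Quotient.mk K C) • (1 : Matrix ι ι (R ⧸ K)) := by
      ext i j
      rw [RingHom.mapMatrix_apply, Matrix.map_apply, Matrix.smul_apply, Matrix.one_apply,
        smul_eq_mul]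
      show Ideal.Quotient.mk K ((if i = j then C else 0) - A i j) = _
      rw [map_sub, Ideal.Quotient.eq_zero_iff_mem.mpr (hA i j), sub_zero]
      split_ifs
      · rw [mul_one]
      · rw [map_zero, mul_zero]
    rw [h2, Matrix.det_smul, Matrix.det_one, mul_one, sub_self]
  · have hrow : ∀ i : ι, ∑ j, Nmat i j • m j = 0 := by
      intro i
      have e : ∀ j, Nmat i j • m j = (if i = j then C • m j else 0) - A i j • m j := by
        intro j
        show ((if i = j then C else 0) - A i j) • m j = _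
        rw [sub_smul]
        congr 1
        split_ifs
        · rfl
        · rw [zero_smul]
      simp only [e]
      rw [Finset.sum_sub_distrib, Finset.sum_ite_eq, if_pos (Finset.mem_univ i), hAeq i,
        sub_self]
    have hkill : ∀ k : ι, Nmat.det • m k = 0 := by
      intro k
      have hadj : ∀ j, ∑ i, Nmat.adjugate k i * Nmat i j = if k = j then Nmat.det else 0 := by
        intro j
        have := congrFun (congrFun (Matrix.adjugate_mul Nmat) k) j
        rw [Matrix.mul_apply, Matrix.smul_apply, Matrix.one_apply, smul_eq_mul] at this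
        rw [this]
        split_ifs <;> simp
      have e1 : Nmat.det • m k = ∑ j, (∑ i, Nmat.adjugate k i * Nmat i j) • m j := by
        simp only [hadj]
        rw [Finset.sum_eq_single k]
        · rw [if_pos rfl]
        · intro j _ hjk
          rw [if_neg (Ne.symm hjk), zero_smul]
        · intro h
          exact absurd (Finset.mem_univ k) h
      rw [e1]
      have e2 : ∀ j, (∑ i, Nmat.adjugate k i * Nmat i j) • m j =
          ∑ i, Nmat.adjugate k i • (Nmat i j • m j) := by
        intro j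
        rw [Finset.sum_smul]
        refine Finset.sum_congr rfl fun i _ => ?_
        rw [mul_smul]
      simp only [e2]
      rw [Finset.sum_comm]
      refine Finset.sum_eq_zero fun i _ => ?_
      rw [← Finset.smul_sum, hrow i, smul_zero]
    intro x
    have hx : x ∈ Submodule.span R (Set.range m) := by rw [hm]; exact Submodule.mem_top
    have e : C ^ Fintype.card ι + (Nmat.det - C ^ Fintype.card ι) = Nmat.det := by ring
    rw [e]
    refine Submodule.span_induction (p := fun x _ => Nmat.det • x = 0) ?_ ?_ ?_ ?_ hx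
    · rintro _ ⟨k, rfl⟩
      exact hkill k
    · exact smul_zero _
    · intro x y _ _ hx hy
      rw [smul_add, hx, hy, add_zero]
    · intro c x _ hx
      rw [smul_comm, hx, smul_zero]

end Det

section Dual

variable (R X : Type*) [CommRing R] [AddCommGroup X] [Module R X]

/-- the transposed action of `R` on the characters of `X` -/
@[reducible] noncomputable def rtk8DualModule : Module R (AddChar X ℂ) where
  smul h ψ := ψ.compAddMonoidHom (DistribSMul.toAddMonoidHom X h)
  one_smul ψ := by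
    apply DFunLike.ext
    intro x
    show ψ ((1 : R) • x) = ψ x
    rw [one_smul]
  mul_smul h h' ψ := by
    apply DFunLike.ext
    intro x
    show ψ ((h * h') • x) = ψ (h' • h • x)
    rw [mul_comm, mul_smul]
  smul_zero h := by
    apply DFunLike.ext
    intro x
    rfl
  smul_add h ψ φ := by
    apply DFunLike.ext
    intro x
    rfl
  add_smul h h' ψ := by
    apply DFunLike.ext
    intro x
    show ψ ((h + h') • x) = ψ (h • x) * ψ (h' • x)
    rw [add_smul, AddChar.map_add_eq_mul]
  zero_smul ψ := by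
    apply DFunLike.ext
    intro x
    show ψ ((0 : R) • x) = 1
    rw [zero_smul, AddChar.map_zero_eq_one]

end Dual

section Main

variable {R : Type u} {X : Type v} [CommRing R] [AddCommGroup X] [Module R X]

theorem rtk8_dual_smul_apply (h : R) (ψ : AddChar X ℂ) (x : X) :
    (letI := rtk8DualModule R X; h • ψ) x = ψ (h • x) := rfl

/-- `|Y[p]| ≤ |X / p X|` for the dual `Y` of a finite abelian group `X` -/
theorem rtk8_card_dual_ker_le [Finite X] (p : ℕ) :
    Nat.card (nsmulAddMonoidHom (α := AddChar X ℂ) p).ker ≤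
      Nat.card (X ⧸ (nsmulAddMonoidHom (α := X) p).range) := by
  classical
  set H : AddSubgroup X := (nsmulAddMonoidHom (α := X) p).range with hH
  haveI : Fintype (X ⧸ H) := Fintype.ofFinite _
  have hc : Nat.card (AddChar (X ⧸ H) ℂ) = Nat.card (X ⧸ H) := by
    haveI : Fintype (AddChar (X ⧸ H) ℂ) := Fintype.ofFinite _
    rw [Nat.card_eq_fintype_card, Nat.card_eq_fintype_card]
    convert AddChar.card_eq (α := X ⧸ H)
  rw [← hc]
  have hker : ∀ ψ : (nsmulAddMonoidHom (α := AddChar X ℂ) p).ker, ∀ x ∈ H,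
      (ψ : AddChar X ℂ).toAddMonoidHom x = 0 := by
    rintro ⟨ψ, hψ⟩ _ ⟨x, rfl⟩
    have h1 : p • ψ = 0 := hψ
    have h2 := congrArg (fun φ : AddChar X ℂ => φ x) h1
    simp only [AddChar.nsmul_apply, AddChar.zero_apply] at h2
    show Additive.ofMul (ψ (p • x)) = 0
    rw [AddChar.map_nsmul_eq_pow, h2]
    rfl
  let F : (nsmulAddMonoidHom (α := AddChar X ℂ) p).ker → AddChar (X ⧸ H) ℂ := fun ψ =>
    AddChar.toAddMonoidHomEquiv.symm
      (QuotientAddGroup.lift H (ψ : AddChar X ℂ).toAddMonoidHom (hker ψ))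
  apply Nat.card_le_card_of_injective F
  intro ψ ψ' hψ
  apply Subtype.ext
  apply DFunLike.ext
  intro x
  have := congrArg (fun φ : AddChar (X ⧸ H) ℂ => φ (QuotientAddGroup.mk x)) hψ
  exact this

/-- the dual of a finite abelian group killed by `pⁿ` is generated by at most `|X[p]|`
elements -/
theorem rtk8_dual_generators [Finite X] (p n : ℕ) (hX : ∀ x : X, p ^ n • x = 0) :
    ∃ (ι : Type v) (_ : Fintype ι) (m : ι → AddChar X ℂ),
      Fintype.card ι ≤ Nat.card (nsmulAddMonoidHom (α := X) p).ker ∧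
      AddSubgroup.closure (Set.range m) = ⊤ := by
  classical
  set u : AddChar X ℂ →+ AddChar X ℂ := nsmulAddMonoidHom p with hu
  haveI : Fintype (AddChar X ℂ ⧸ u.range) := Fintype.ofFinite _
  refine ⟨AddChar X ℂ ⧸ u.range, inferInstance, fun q => Quotient.out q, ?_, ?_⟩
  · rw [← Nat.card_eq_fintype_card, s36t_card_quot_range u]
    refine (rtk8_card_dual_ker_le p).trans ?_
    rw [s36t_card_quot_range (nsmulAddMonoidHom (α := X) p)]
  · apply s36t_closure_eq_top p n
    · intro ψ
      apply DFunLike.ext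
      intro x
      rw [AddChar.nsmul_apply, ← AddChar.map_nsmul_eq_pow, hX, AddChar.map_zero_eq_one]
      rfl
    · intro ψ
      refine ⟨Quotient.out (QuotientAddGroup.mk ψ : AddChar X ℂ ⧸ u.range), ⟨_, rfl⟩, ?_⟩
      have h1 : (QuotientAddGroup.mk (Quotient.out (QuotientAddGroup.mk ψ :
          AddChar X ℂ ⧸ u.range)) : AddChar X ℂ ⧸ u.range) = QuotientAddGroup.mk ψ :=
        QuotientAddGroup.out_eq' _
      rw [QuotientAddGroup.eq] at h1
      obtain ⟨z, hz⟩ := h1
      refine ⟨z, ?_⟩
      have hz' : p • z = -Quotient.out (QuotientAddGroup.mk ψ : AddChar X ℂ ⧸ u.range) + ψ := hz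
      rw [hz']
      abel

/-- **the double annihilator**: if `C` kills `X[K]` then `C • Y ⊆ K • Y` -/
theorem rtk8_dual_smul_mem [Finite X] (K : Ideal R) (C : R)
    (hC : ∀ x : X, (∀ h ∈ K, h • x = 0) → C • x = 0) (ψ : AddChar X ℂ) :
    letI := rtk8DualModule R X
    C • ψ ∈ K • (⊤ : Submodule R (AddChar X ℂ)) := by
  letI := rtk8DualModule R X
  classical
  by_contra hcon
  set H : Submodule R (AddChar X ℂ) := K • ⊤ with hH
  have hne : (H.mkQ (C • ψ)) ≠ 0 := by
    intro h0
    exact hcon ((Submodule.Quotient.mk_eq_zero H).mp h0)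
  obtain ⟨θ, hθ⟩ := AddChar.exists_apply_ne_zero.mpr hne
  set Θ : AddChar (AddChar X ℂ) ℂ := θ.compAddMonoidHom H.mkQ.toAddMonoidHom with hΘ
  obtain ⟨x, hx⟩ := (AddChar.doubleDualEmb_bijective (α := X)).2 Θ
  have hxΘ : ∀ φ : AddChar X ℂ, φ x = Θ φ := by
    intro φ
    rw [← hx]
    rfl
  have hxK : ∀ h ∈ K, h • x = 0 := by
    intro h hh
    rw [← AddChar.forall_apply_eq_zero]
    intro φ
    have h1 : φ (h • x) = (h • φ) x := rfl
    rw [h1, hxΘ]
    have h2 : h • φ ∈ H := Submodule.smul_mem_smul hh Submodule.mem_top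
    show θ (H.mkQ (h • φ)) = 1
    rw [Submodule.mkQ_apply, (Submodule.Quotient.mk_eq_zero H).mpr h2, AddChar.map_zero_eq_one]
  have h3 : Θ (C • ψ) = 1 := by
    rw [← hxΘ]
    show ψ (C • x) = 1
    rw [hC x hxK, AddChar.map_zero_eq_one]
  exact hθ h3

/-- **the dual determinant trick.** -/
theorem rtk8_dual_det [Finite X] (p n : ℕ) (hX : ∀ x : X, p ^ n • x = 0) (K : Ideal R) (C : R)
    (hC : ∀ x : X, (∀ h ∈ K, h • x = 0) → C • x = 0) :
    ∃ r ≤ Nat.card (nsmulAddMonoidHom (α := X) p).ker, ∃ a ∈ K,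
      ∀ x : X, (C ^ r + a) • x = 0 := by
  letI := rtk8DualModule R X
  classical
  obtain ⟨ι, _, m, hcard, hgen⟩ := rtk8_dual_generators (X := X) p n hX
  have hspan : Submodule.span R (Set.range m) = ⊤ := by
    rw [eq_top_iff]
    intro ψ _
    have h1 : ψ ∈ AddSubgroup.closure (Set.range m) := by rw [hgen]; exact AddSubgroup.mem_top _
    have h2 : AddSubgroup.closure (Set.range m) ≤
        (Submodule.span R (Set.range m)).toAddSubgroup :=
      (AddSubgroup.closure_le _).mpr Submodule.subset_span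
    exact h2 h1
  obtain ⟨a, ha, hkill⟩ := rtk8_det_trick m hspan K C
    (fun i => rtk8_dual_smul_mem K C hC (m i))
  refine ⟨Fintype.card ι, hcard, a, ha, fun x => ?_⟩
  rw [← AddChar.forall_apply_eq_zero]
  intro φ
  have h1 : φ ((C ^ Fintype.card ι + a) • x) = ((C ^ Fintype.card ι + a) • φ) x := rfl
  rw [h1, hkill φ]
  rfl

end Main

end Fermat.Agent.RT.K8


end ZBS36_011_1

/-! ### bundled: `Fermat.Agent.RT.K8.Abs` -/
section ZBS36_011_2

/-!
# RT-K8: proof of the abstract theorem `StmtK8Abs`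

See `Fermat/Agent/RT/K8/Plan.lean` for the statement and NOTES/RT-K8.md for the proof:

* (a) `t (g σ) = t g` for all `g` ⇒ `(σ - 1) P' = 0` on `Z = J[pⁿ][𝔎]` (Lemma A), where `P'`
  represents `t (g₁ g₂ g₃) - t (g₂ g₁ g₃)`;
* (b) the geometric clause ⇒ `φ² = q²` on `C₀ P' Z`;
* (c) Lemma B ⇒ `C := (q² - 1) P' C₀ P'` kills `Z`;
* (d) the dual determinant trick ⇒ `C ^ r + a` kills `J[pⁿ]` with `χ(a) ∈ 𝔪ᵏ`, `r ≤ |J[p]|`;
  faithfulness ⇒ `χ(C) ^ r ∈ 𝔪ᵏ` for all `k`: contradiction.
-/

set_option autoImplicit false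
set_option linter.style.haveILetI false

namespace Fermat.Agent.RT.K8

open ModularCurve Fermat.Agent.ES Fermat.Agent.S31 Fermat.Agent.S32 Fermat.Agent.S30

/-- the kernel of multiplication by `p` on `J[pⁿ]` has at most `|J[p]|` elements -/
theorem rtk8_card_ker_le {J : Type} [AddCommGroup J] [Module HeckeAlg J]
    [DistribMulAction GQ J] (p n : ℕ)
    [Finite ↥(tors J p 1)] :
    Nat.card (nsmulAddMonoidHom (α := ↥(tors J p n)) p).ker ≤ Nat.card ↥(tors J p 1) := by
  have hmem : ∀ x : (nsmulAddMonoidHom (α := ↥(tors J p n)) p).ker,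
      ((x : ↥(tors J p n)) : J) ∈ tors J p 1 := by
    rintro ⟨x, hx⟩
    have h1 : p • x = 0 := hx
    have := congrArg (fun w : ↥(tors J p n) => (w : J)) h1
    rw [mem_tors, pow_one]
    simpa using this
  exact Nat.card_le_card_of_injective
    (fun x => (⟨((x : ↥(tors J p n)) : J), hmem x⟩ : ↥(tors J p 1)))
    (fun x y hxy => Subtype.ext (Subtype.ext
      (congrArg (fun w : ↥(tors J p 1) => (w : J)) hxy)))

/-- **K8**, abstract form. -/
theorem stmtK8Abs : StmtK8Abs := by
  intro p N _ _ J _ _ _ S 𝒪' _ _ _ _ _ χ hpI hcheb hJ hfaith hgoodN hgood t ht hU q hq hqp A hA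
    φ hφ hG
  obtain ⟨g₁, g₂, g₃, hne⟩ := hU
  obtain ⟨C₀, hC₀, hχC₀, hgeo⟩ := hG
  classical
  by_contra hcon
  have hun : ∀ σ ∈ A.inertiaSubgroupIn ℚ, ∀ g, t (g * σ) = t g := by
    intro σ hσ g
    by_contra h
    exact hcon ⟨σ, hσ, g, h⟩
  have hp : p.Prime := Fact.out
  have hfin : ∀ n : ℕ, Finite ↥(tors J p n) := fun n => (hJ.finite n).to_subtype
  haveI := hfin 1
  set s₁ : ℕ := Nat.card ↥(tors J p 1) with hs₁
  set Sg : Set Nat.Primes := outsideVars (↑S : Set ℕ) with hSg
  -- the nonzero element `z`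
  set d : 𝒪' := t (g₁ * g₂ * g₃) - t (g₂ * g₁ * g₃) with hd
  have hd0 : d ≠ 0 := sub_ne_zero.mpr hne
  have hq1 : ((q : 𝒪') ^ 2 - 1) ≠ 0 := by
    intro h0
    have h1 : ((q ^ 2 : ℕ) : 𝒪') = ((1 : ℕ) : 𝒪') := by
      push_cast
      exact sub_eq_zero.mp h0
    have h2 : q ^ 2 = 1 := Nat.cast_injective h1
    have h3 : 1 < q ^ 2 := Nat.one_lt_pow (by norm_num) hq.one_lt
    omega
  set z : 𝒪' := ((q : 𝒪') ^ 2 - 1) * d * (chiHom S χ C₀ * d) with hz
  have hz0 : z ^ s₁ ≠ 0 :=
    pow_ne_zero _ (mul_ne_zero (mul_ne_zero hq1 hd0) (mul_ne_zero hχC₀ hd0))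
  obtain ⟨k, hzk⟩ : ∃ k : ℕ, z ^ s₁ ∉ IsLocalRing.maximalIdeal 𝒪' ^ k := by
    by_contra h
    have h : ∀ k : ℕ, z ^ s₁ ∈ IsLocalRing.maximalIdeal 𝒪' ^ k := by
      intro k
      by_contra hk
      exact h ⟨k, hk⟩
    apply hz0
    have h1 : z ^ s₁ ∈ ⨅ i : ℕ, IsLocalRing.maximalIdeal 𝒪' ^ i := by
      rw [Ideal.mem_iInf]; exact h
    rw [Ideal.iInf_pow_eq_bot_of_isLocalRing _ (Ideal.IsMaximal.ne_top inferInstance)] at h1
    exact h1
  obtain ⟨n, -, hGood⟩ := exists_good (J := J) S χ hfaith hgoodN hgood k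
  haveI := hfin n
  set I : Ideal 𝒪' := IsLocalRing.maximalIdeal 𝒪' ^ k with hI
  -- representatives
  choose P hPsupp hPapprox using fun g : GQ => exists_approx hcheb hJ S hgood n g
  have htr : ∀ g, t g - chiHom S χ (P g) ∈ I := fun g =>
    ht g k n (P g) hGood (hPsupp g) (hPapprox g)
  set P' : HeckeAlg := P (g₁ * g₂ * g₃) - P (g₂ * g₁ * g₃) with hP'
  have hP'supp : P' ∈ MvPolynomial.supported ℤ Sg := sub_mem (hPsupp _) (hPsupp _)
  have hχP' : chiHom S χ P' - d ∈ I := by
    have e : chiHom S χ P' - d = (t (g₂ * g₁ * g₃) - chiHom S χ (P (g₂ * g₁ * g₃))) -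
        (t (g₁ * g₂ * g₃) - chiHom S χ (P (g₁ * g₂ * g₃))) := by
      rw [hP', hd, map_sub]; ring
    rw [e]
    exact sub_mem (htr _) (htr _)
  -- the quadratic relation on `Z`
  have hQR := kTors_quadRel (S := S) (χ := χ) (I := I) hJ.smul_comm P hPapprox
  -- (a) inertia acts trivially on `P' Z`
  have hA1 : ∀ σ ∈ A.inertiaSubgroupIn ℚ, ∀ x : J, x ∈ kTors p J n S χ I →
      σ • (P' • x) = P' • x := by
    intro σ hσ x hx
    have hσ1 : ((cycE p n σ : ℕ) : Module.End ℤ ↥(kTors p J n S χ I)) = 1 := by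
      rw [kTors_natCast_eq (cycE_of_eq_one p n σ (padicCyclo_inertia p q hq hqp A hA σ hσ)),
        Nat.cast_one]
    have hunE : ∀ g, kHecke p J n S χ I (P (g * σ)) = kHecke p J n S χ I (P g) := by
      intro g
      apply kHecke_eq_of_sub_mem (hPsupp _) (hPsupp _)
      have e : chiHom S χ (P (g * σ)) - chiHom S χ (P g) =
          (t g - chiHom S χ (P g)) - (t (g * σ) - chiHom S χ (P (g * σ))) := by
        rw [hun σ hσ g]; ring
      rw [e]
      exact sub_mem (htr _) (htr _)
    have h1 := rtk8_unram hQR hσ1 hunE g₁ g₂ g₃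
    have h2 := congrArg (fun f : Module.End ℤ ↥(kTors p J n S χ I) =>
      ((f ⟨x, hx⟩ : ↥(kTors p J n S χ I)) : J)) h1
    simp only [← map_sub, Module.End.mul_apply, LinearMap.sub_apply, Module.End.one_apply,
      LinearMap.zero_apply, ZeroMemClass.coe_zero, AddSubgroupClass.coe_sub, kGal_apply,
      kHecke_apply] at h2
    rw [← hP'] at h2
    exact sub_eq_zero.mp h2
  -- (b) `φ² = q²` on `C₀ P' Z`
  have hB1 : ∀ x : J, x ∈ kTors p J n S χ I →
      (φ * φ) • ((C₀ * P') • x) = (q ^ 2) • ((C₀ * P') • x) := by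
    intro x hx
    rw [mul_smul C₀ P' x]
    apply hgeo
    · exact ⟨n, torsion_hecke n P' hx.1⟩
    · intro σ hσ
      exact hA1 σ hσ x hx
  -- (c) `C` kills `Z`
  set C : HeckeAlg := ((q : HeckeAlg) ^ 2 - 1) * P' * (C₀ * P') with hC
  have hCsupp : C ∈ MvPolynomial.supported ℤ Sg :=
    mul_mem (mul_mem (sub_mem (pow_mem (natCast_mem _ q) 2) (one_mem _)) hP'supp)
      (mul_mem hC₀ hP'supp)
  have hC1 : ∀ x : J, x ∈ kTors p J n S χ I → C • x = 0 := by
    intro x hx
    have hΦe : cycE p n (φ * φ) ≡ q ^ 2 [MOD p ^ n] := by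
      have h1 : cycE p n φ ≡ q [MOD p ^ n] := by
        rw [cycE_modEq_iff, padicCyclo_frob p q hq hqp A hA φ hφ, map_natCast]
      have h2 := (cycE_mul p n φ φ).trans (Nat.ModEq.mul h1 h1)
      rw [pow_two]
      exact h2
    have he : ∀ g, kHecke p J n S χ I (C₀ * P') * kGal p J n S χ I hJ.smul_comm g =
        kGal p J n S χ I hJ.smul_comm g * kHecke p J n S χ I (C₀ * P') := by
      intro g
      ext y
      simp only [Module.End.mul_apply, kHecke_apply, kGal_apply]
      exact (hJ.smul_comm g _ _).symm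
    have hΦ : kGal p J n S χ I hJ.smul_comm (φ * φ) * kHecke p J n S χ I (C₀ * P') =
        ((cycE p n (φ * φ) : ℕ) : Module.End ℤ ↥(kTors p J n S χ I)) *
          kHecke p J n S χ I (C₀ * P') := by
      rw [kTors_natCast_eq hΦe]
      ext y
      simp only [Module.End.mul_apply, kHecke_apply, kGal_apply, Module.End.natCast_apply,
        Submodule.coe_smul_of_tower]
      exact hB1 (y : J) y.2
    have h1 := rtk8_scalar hQR he hΦ g₁ g₂ g₃
    rw [kTors_natCast_eq hΦe] at h1
    have h2 := congrArg (fun f : Module.End ℤ ↥(kTors p J n S χ I) =>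
      ((f ⟨x, hx⟩ : ↥(kTors p J n S χ I)) : J)) h1
    simp only [← map_sub, Module.End.mul_apply, LinearMap.sub_apply, Module.End.one_apply,
      LinearMap.zero_apply, ZeroMemClass.coe_zero, AddSubgroupClass.coe_sub, kHecke_apply,
      Module.End.natCast_apply, Submodule.coe_smul_of_tower] at h2
    rw [← hP'] at h2
    rw [hC, mul_smul, mul_smul, sub_smul, one_smul, ← Nat.cast_pow, Nat.cast_smul_eq_nsmul]
    exact h2
  -- (d) the dual determinant trick
  set R := ↥(MvPolynomial.supported ℤ Sg) with hR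
  set f : R →+* 𝒪' := (chiHom S χ).comp (MvPolynomial.supported ℤ Sg).val.toRingHom with hf
  set K : Ideal R := Ideal.comap f I with hK
  have hX : ∀ x : ↥(tors J p n), p ^ n • x = 0 := fun x => pow_smul_tors x
  have hCX : ∀ x : ↥(tors J p n), (∀ h ∈ K, h • x = 0) → (⟨C, hCsupp⟩ : R) • x = 0 := by
    intro x hx
    apply Subtype.ext
    show C • (x : J) = 0
    apply hC1
    refine ⟨x.2, fun h hh hhI => ?_⟩
    have h1 : (⟨h, hh⟩ : R) ∈ K := hhI
    have h2 := congrArg (fun w : ↥(tors J p n) => (w : J)) (hx _ h1)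
    exact h2
  obtain ⟨r, hr, a, ha, hkill⟩ := rtk8_dual_det p n hX K (⟨C, hCsupp⟩ : R) hCX
  have hr' : r ≤ s₁ := hr.trans (rtk8_card_ker_le p n)
  -- faithfulness
  have hkill' : ∀ x : J, p ^ n • x = 0 → ((C ^ r + (a : HeckeAlg)) : HeckeAlg) • x = 0 := by
    intro x hx
    have := congrArg (fun w : ↥(tors J p n) => (w : J)) (hkill ⟨x, hx⟩)
    exact this
  have hmem := span_pow_le (IsLocalRing.maximalIdeal 𝒪') hpI k
    (hGood (C ^ r + (a : HeckeAlg)) (add_mem (pow_mem hCsupp r) a.2) hkill')
  have haI : chiHom S χ (a : HeckeAlg) ∈ I := ha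
  have hCr : chiHom S χ C ^ r ∈ I := by
    rw [map_add, map_pow] at hmem
    have := sub_mem hmem haI
    rwa [add_sub_cancel_right] at this
  -- `χ(C) ≡ z`
  have hCz : chiHom S χ C - z ∈ I := by
    rw [← Ideal.Quotient.eq] at hχP' ⊢
    rw [hC, hz]
    simp only [map_mul, map_sub, map_pow, map_natCast, map_one, hχP']
  have hzr : z ^ r ∈ I := by
    have h1 : chiHom S χ C ^ r - z ^ r ∈ I :=
      I.mem_of_dvd (sub_dvd_pow_sub_pow _ _ r) hCz
    have := sub_mem hCr h1
    rwa [sub_sub_cancel] at this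
  apply hzk
  obtain ⟨e, he⟩ := Nat.exists_eq_add_of_le hr'
  rw [he, pow_add]
  exact Ideal.mul_mem_right _ _ hzr

end Fermat.Agent.RT.K8


end ZBS36_011_2
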