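/- GENERATED FILE (helper35, build-time optimisation, NOTES/ZB.md): verbatim concatenation of the modules
   Fermat.Agent.TW.G.Plan
   Fermat.Agent.TW.G.Sel
   Fermat.Agent.TW.G.Asm
   Fermat.Agent.TW.G.Syl
   Fermat.Agent.TW.G.Idx
   Fermat.Agent.TW.G.Frattini
   Fermat.Agent.TW.G.BorelBasic
   Fermat.Agent.TW.G.BorelU
   Fermat.Agent.TW.G.BorelT
   Fermat.Agent.TW.G.Norm
   Fermat.Agent.TW.G.Concl
   Do not edit; do not import together with these modules. -/
import Mathlib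
import Fermat.Agent.ZB.TW_006

/-! ### bundled: `Fermat.Agent.TW.G.Plan` -/
section ZBTW_034_0

/-!
# TW-G / G-sel (helper26, sub-captain): the group theory behind Taylor–Wiles primes — INTERFACE

Abstract finite group theory, Mathlib only.  `Γ` is any group (later `G_ℚ`), `k` a finite field of
odd characteristic `p`, `ρ : Γ →* GL₂(k)`, `N ⊴ Γ` with `Γ/N` cyclic (later: the stabiliser of
`μ_{p^{n+1}}`).  The module is `M = ad⁰(1) = ad⁰ ⊗ det ρ`, realised as the trace-zero `2 × 2`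
matrices with the TWISTED adjoint action `g ⋆ m = g m adj(g) = det(g)·g m g⁻¹` (`≅ Sym²`).

GOAL `StmtGSel`: a cocycle `ψ : Γ → M` that is not a coboundary is not a coboundary at some
`σ ∈ N` with `ρ(σ)` of distinct eigenvalues.   Proofs and piece table: `NOTES/TW-G.md`.
-/

set_option autoImplicit false

namespace Fermat.Agent.TW.G.Sel

open Matrix Polynomial

/-- `2 × 2` matrices over `k`. -/
abbrev M2 (k : Type) [Field k] : Type := Matrix (Fin 2) (Fin 2) k

variable {k : Type} [Field k] {Γ : Type} [Group Γ]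

/-- The twisted adjoint action `g ⋆ m = g m adj(g)` (`= det(g)·g m g⁻¹` for invertible `g`). -/
def act (g m : M2 k) : M2 k := g * m * g.adjugate

/-- standard basis of the trace-zero matrices -/
def eE : M2 k := !![0, 1; 0, 0]
/-- standard basis of the trace-zero matrices -/
def eH : M2 k := !![1, 0; 0, -1]
/-- standard basis of the trace-zero matrices -/
def eF : M2 k := !![0, 0; 1, 0]
/-- the upper unipotent matrix `u_x` -/
def uU (x : k) : M2 k := !![1, x; 0, 1]

/-- all eigenvalues in `k` -/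
def IsSplit (g : M2 k) : Prop := ∃ α β : k, g.charpoly = (X - C α) * (X - C β)

/-- two distinct eigenvalues in `k` -/
def HasDistinctEig (g : M2 k) : Prop :=
  ∃ α β : k, α ≠ β ∧ g.charpoly = (X - C α) * (X - C β)

/-! ## Level `Γ` -/

/-- `ψ` is a 1-cocycle of `Γ` with values in `ad⁰(1)`. -/
structure IsCoc (ρ : Γ →* GL (Fin 2) k) (ψ : Γ → M2 k) : Prop where
  trace_zero : ∀ σ, (ψ σ).trace = 0
  map_mul : ∀ σ τ, ψ (σ * τ) = ψ σ + act (ρ σ).1 (ψ τ)

/-- `ψ` is a coboundary. -/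
def IsCob (ρ : Γ →* GL (Fin 2) k) (ψ : Γ → M2 k) : Prop :=
  ∃ m : M2 k, m.trace = 0 ∧ ∀ σ, ψ σ = act (ρ σ).1 m - m

/-- `ψ(σ) ∈ (σ − 1)·ad⁰(1)`: the restriction of `ψ` to the (pro)cyclic group of `σ` is trivial. -/
def IsCobAt (ρ : Γ →* GL (Fin 2) k) (ψ : Γ → M2 k) (σ : Γ) : Prop :=
  ∃ m : M2 k, m.trace = 0 ∧ ψ σ = act (ρ σ).1 m - m

/-- `H` has no common eigenvector over the algebraic closure: `ρ|_H` is absolutely irreducible. -/
def NoEigen (ρ : Γ →* GL (Fin 2) k) (H : Subgroup Γ) : Prop :=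
  ∀ v : Fin 2 → AlgebraicClosure k, v ≠ 0 →
    ¬ ∀ σ ∈ H, ∃ c : AlgebraicClosure k,
      ((ρ σ).1.map (algebraMap k (AlgebraicClosure k))) *ᵥ v = c • v

/-- The standing hypotheses (those of S56, in coordinates). -/
structure Hyp (p : ℕ) (ρ : Γ →* GL (Fin 2) k) (N : Subgroup Γ) : Prop where
  odd : p ≠ 2
  /-- `det ρ` takes values in the prime field … -/
  det_int : ∀ σ, ∃ a : ℤ, (ρ σ).1.det = (a : k)
  /-- … and all nonzero values (`det ρ` = mod `p` cyclotomic character, surjective) -/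
  det_surj : ∀ a : ℤ, (a : k) ≠ 0 → ∃ σ, (ρ σ).1.det = (a : k)
  det_N : ∀ σ ∈ N, (ρ σ).1.det = 1
  split : ∀ σ, IsSplit (ρ σ).1
  /-- absolute irreducibility on `Γ` and on every subgroup of index 2 -/
  irr : ∀ H : Subgroup Γ, (H = ⊤ ∨ H.index = 2) → NoEigen ρ H
  normal : N.Normal
  /-- `Γ/N` is cyclic, in elementary form -/
  cyc : ∃ γ : Γ, ∀ σ : Γ, ∃ n : ℤ, γ ^ n * σ ∈ N

/-- GOAL of TW-G/G-sel. -/
def StmtGSel : Prop :=
  ∀ (p : ℕ) [Fact p.Prime] (k : Type) [Field k] [Finite k] [CharP k p] (Γ : Type) [Group Γ]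
    (ρ : Γ →* GL (Fin 2) k) (N : Subgroup Γ), Hyp p ρ N →
    ∀ ψ : Γ → M2 k, IsCoc ρ ψ → ¬ IsCob ρ ψ →
      ∃ σ ∈ N, HasDistinctEig (ρ σ).1 ∧ ¬ IsCobAt ρ ψ σ

/-- (P1, G-adirr) `ad⁰` has no proper nonzero `Γ`-stable subspace. -/
def StmtAdIrr : Prop :=
  ∀ (p : ℕ) [Fact p.Prime] (k : Type) [Field k] [Finite k] [CharP k p] (Γ : Type) [Group Γ]
    (ρ : Γ →* GL (Fin 2) k) (N : Subgroup Γ), Hyp p ρ N →
    ∀ W : Submodule k (M2 k), (∀ w ∈ W, w.trace = 0) →
      (∀ σ : Γ, ∀ w ∈ W, act (ρ σ).1 w ∈ W) → W = ⊥ ∨ ∀ m : M2 k, m.trace = 0 → m ∈ W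

/-- (P2, G-dist) some `σ ∈ N` has distinct eigenvalues. -/
def StmtDist : Prop :=
  ∀ (p : ℕ) [Fact p.Prime] (k : Type) [Field k] [Finite k] [CharP k p] (Γ : Type) [Group Γ]
    (ρ : Γ →* GL (Fin 2) k) (N : Subgroup Γ), Hyp p ρ N →
    ∃ σ ∈ N, HasDistinctEig (ρ σ).1

/-- (P3, G-find) a cocycle that does not vanish on `Z = N ∩ ker ρ` is nontrivial at some `σ ∈ N`
with distinct eigenvalues. -/
def StmtFind : Prop :=
  ∀ (p : ℕ) [Fact p.Prime] (k : Type) [Field k] [Finite k] [CharP k p] (Γ : Type) [Group Γ]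
    (ρ : Γ →* GL (Fin 2) k) (N : Subgroup Γ), Hyp p ρ N →
    ∀ ψ : Γ → M2 k, IsCoc ρ ψ → (∃ z ∈ N, ρ z = 1 ∧ ψ z ≠ 0) →
      ∃ σ ∈ N, HasDistinctEig (ρ σ).1 ∧ ¬ IsCobAt ρ ψ σ

/-! ## Level `G = ρ(Γ) ⊆ GL₂(k)`: vanishing of `H¹(G, ad⁰(1))` -/

/-- cocycle condition on a subgroup `G` of `GL₂(k)`, for a function defined on all of `GL₂(k)`
(values outside `G` are irrelevant) -/
def IsCocOn (G : Subgroup (GL (Fin 2) k)) (ψ : GL (Fin 2) k → M2 k) : Prop :=
  (∀ g ∈ G, (ψ g).trace = 0) ∧ ∀ g ∈ G, ∀ h ∈ G, ψ (g * h) = ψ g + act g.1 (ψ h)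

/-- coboundary on `G` -/
def IsCobOn (G : Subgroup (GL (Fin 2) k)) (ψ : GL (Fin 2) k → M2 k) : Prop :=
  ∃ m : M2 k, m.trace = 0 ∧ ∀ g ∈ G, ψ g = act g.1 m - m

/-- no common eigenvector over the algebraic closure -/
def NoEigenOn (G : Subgroup (GL (Fin 2) k)) : Prop :=
  ∀ v : Fin 2 → AlgebraicClosure k, v ≠ 0 →
    ¬ ∀ g ∈ G, ∃ c : AlgebraicClosure k,
      (g.1.map (algebraMap k (AlgebraicClosure k))) *ᵥ v = c • v

/-- hypotheses on the finite group `G = ρ(Γ)` -/
structure FinHyp (p : ℕ) (G : Subgroup (GL (Fin 2) k)) : Prop where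
  odd : p ≠ 2
  det_int : ∀ g ∈ G, ∃ a : ℤ, g.1.det = (a : k)
  det_surj : ∀ a : ℤ, (a : k) ≠ 0 → ∃ g ∈ G, g.1.det = (a : k)
  split : ∀ g ∈ G, IsSplit g.1
  irr : NoEigenOn G

/-- (G-fin) `H¹(G, ad⁰(1)) = 0`. -/
def StmtFin : Prop :=
  ∀ (p : ℕ) [Fact p.Prime] (k : Type) [Field k] [Finite k] [CharP k p]
    (G : Subgroup (GL (Fin 2) k)), FinHyp p G →
    ∀ ψ : GL (Fin 2) k → M2 k, IsCocOn G ψ → IsCobOn G ψ

/-- (G-fin, normalised) the same when `u_1 ∈ G` (a Sylow `p`-subgroup is upper unipotent). -/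
def StmtFinNorm : Prop :=
  ∀ (p : ℕ) [Fact p.Prime] (k : Type) [Field k] [Finite k] [CharP k p]
    (G : Subgroup (GL (Fin 2) k)), FinHyp p G → (∃ g ∈ G, g.1 = uU 1) →
    ∀ ψ : GL (Fin 2) k → M2 k, IsCocOn G ψ → IsCobOn G ψ

/-- the parameters of the upper unipotent elements of `G` -/
def Xset (G : Subgroup (GL (Fin 2) k)) : Set k := {x | ∃ g ∈ G, g.1 = uU x}

/-- the squares of the upper-left entries of the upper triangular elements of determinant 1 -/
def Asq (G : Subgroup (GL (Fin 2) k)) : Set k :=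
  {s | ∃ g ∈ G, g.1 1 0 = 0 ∧ g.1.det = 1 ∧ s = g.1 0 0 ^ 2}

/-- (P6, G-syl) restriction to a subgroup of index prime to `p` is injective on `H¹`. -/
def StmtSyl : Prop :=
  ∀ (p : ℕ) [Fact p.Prime] (k : Type) [Field k] [Finite k] [CharP k p]
    (G H : Subgroup (GL (Fin 2) k)), H ≤ G → ¬ p ∣ (H.subgroupOf G).index →
    ∀ ψ : GL (Fin 2) k → M2 k, IsCocOn G ψ → IsCobOn H ψ → IsCobOn G ψ

/-- (P6', G-idx) the upper unipotent elements of `G` form a subgroup of index prime to `p`, as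
soon as there is a nontrivial one. -/
def StmtIdx : Prop :=
  ∀ (p : ℕ) [Fact p.Prime] (k : Type) [Field k] [Finite k] [CharP k p]
    (G : Subgroup (GL (Fin 2) k)), (∃ g ∈ G, g.1 = uU 1) →
    ∃ U : Subgroup (GL (Fin 2) k), U ≤ G ∧ (∀ g, g ∈ U ↔ g ∈ G ∧ ∃ x, g.1 = uU x) ∧
      ¬ p ∣ (U.subgroupOf G).index

/-- (P5, G-norm) conjugation invariance and normalisation. -/
def StmtNorm : Prop := StmtSyl → StmtFinNorm → StmtFin

/-- (P7a, G-borel-1) normal form of a cocycle on the upper unipotent subgroup. -/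
def StmtBorelU : Prop :=
  ∀ (p : ℕ) [Fact p.Prime] (k : Type) [Field k] [Finite k] [CharP k p], p ≠ 2 →
    ∀ (G : Subgroup (GL (Fin 2) k)), (∃ g ∈ G, g.1 = uU 1) →
    ∀ ψ : GL (Fin 2) k → M2 k, IsCocOn G ψ →
    ∃ (m : M2 k) (c : k) (α : k → k), m.trace = 0 ∧ (c = 0 ∨ (3 : k) ≠ 0) ∧
      (∀ x ∈ Xset G, ∀ y ∈ Xset G, α (x + y) = α x + α y) ∧
      ∀ g ∈ G, ∀ x : k, g.1 = uU x →
        ψ g = act g.1 m - m + c • (x • eF + (x ^ 2 / 2) • eH - (x ^ 3 / 3) • eE) + α x • eE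

/-- (P7b, G-borel-2) invariance of the class on `U` under the upper triangular elements. -/
def StmtBorelT : Prop :=
  ∀ (p : ℕ) [Fact p.Prime] (k : Type) [Field k] [Finite k] [CharP k p], p ≠ 2 →
    ∀ (G : Subgroup (GL (Fin 2) k)), (∃ g ∈ G, g.1 = uU 1) →
    ∀ ψ : GL (Fin 2) k → M2 k, IsCocOn G ψ → ∀ (c : k) (α : k → k),
      (∀ g ∈ G, ∀ x : k, g.1 = uU x →
        ψ g = c • (x • eF + (x ^ 2 / 2) • eH - (x ^ 3 / 3) • eE) + α x • eE) →
      ∀ t ∈ G, t.1 1 0 = 0 →
        c * (t.1 0 0 - t.1 1 1 ^ 3) = 0 ∧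
        (c = 0 → ∃ l : k, ∀ x ∈ Xset G,
          α (t.1 0 0 / t.1 1 1 * x) = t.1 0 0 ^ 2 * α x + l * x)

/-- (P8, G-frattini) every determinant of `G` is the determinant of an upper triangular element. -/
def StmtFrattini : Prop :=
  ∀ (p : ℕ) [Fact p.Prime] (k : Type) [Field k] [Finite k] [CharP k p]
    (G : Subgroup (GL (Fin 2) k)), (∃ g ∈ G, g.1 = uU 1) →
    ∀ g ∈ G, ∃ t ∈ G, t.1 1 0 = 0 ∧ t.1.det = g.1.det

/-- (P9, G-dickson) Dickson, counting form: if `G ⊆ GL₂(k)` (all elements split over `k`) is not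
upper triangular and has `q` upper unipotent elements, its upper triangular elements of
determinant 1 have at least `(q − 1)/2` different squares `a²` of upper-left entries. -/
def StmtDickson : Prop :=
  ∀ (p : ℕ) [Fact p.Prime] (k : Type) [Field k] [Finite k] [CharP k p], p ≠ 2 →
    ∀ (G : Subgroup (GL (Fin 2) k)), (∀ g ∈ G, IsSplit g.1) → (∃ g ∈ G, g.1 1 0 ≠ 0) →
      Nat.card (Xset G) ≤ 2 * Nat.card (Asq G) + 1

/-- (P10, G-concl) the normalised vanishing theorem from the pieces. -/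
def StmtConcl : Prop :=
  StmtSyl → StmtIdx → StmtBorelU → StmtBorelT → StmtFrattini → StmtDickson → StmtFinNorm

/-- (P4, G-asm) assembly on the level of `Γ`. -/
def StmtAsm : Prop := StmtAdIrr → StmtFind → StmtFin → StmtGSel

end Fermat.Agent.TW.G.Sel


end ZBTW_034_0

/-! ### bundled: `Fermat.Agent.TW.G.Sel` -/
section ZBTW_034_1

/-!
# TW-G / G-sel, pieces P1 (G-adirr), P2 (G-dist), P3 (G-find)  (helper86)

Targets of `Fermat/Agent/TW/G/Plan.lean`: `stmtAdIrr : StmtAdIrr`, `stmtDist : StmtDist`,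
`stmtFind : StmtFind`.  Elementary `2 × 2` matrix algebra, no classification of subgroups.

* `gsel_eigen`: a nonzero `2 × 2` matrix `n` of determinant `0` has a vector `v ≠ 0` (a column)
  which is an eigenvector of every `g` with `g n = c • n g`.
* `gsel_line_false`: under `Hyp` there is no `Γ`-stable line in the trace-zero matrices
  (`det w = 0`: `n = w`; `det w ≠ 0`: `n = w + s`, `s² = -det w`, and the subgroup of index `≤ 2`
  commuting with `w`).
* P1: dimension count with the trace form (`gw_finrank_perpL`).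
* P2: if `tr² = 4` on all of `N`, the trace-zero parts `2g - tr g` of `ρ(N)` span a stable,
  totally isotropic subspace: it is `0` by P1, `ρ(N)` is scalar and `ρ(Γ)` has an eigenvector.
* P3: the span of `ψ(N ∩ ker ρ)` is stable, hence everything (P1); a regular `σ₀ ∈ N` (P2).
-/

set_option autoImplicit false

namespace Fermat.Agent.TW.G.Sel

open Matrix Polynomial Module

variable {k : Type} [Field k]

/-! ### `2 × 2` matrix identities -/

/-- Cayley–Hamilton in size 2 -/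
lemma gsel_ch (g : M2 k) : g * g = g.trace • g - g.det • (1 : M2 k) := by
  ext i j
  fin_cases i <;> fin_cases j <;>
    simp [Matrix.mul_apply, Fin.sum_univ_two, Matrix.trace_fin_two, Matrix.det_fin_two] <;> ring

/-- the trace form is nondegenerate -/
lemma gsel_eq_zero_of_trace (y : M2 k) (h : ∀ x : M2 k, (x * y).trace = 0) : y = 0 := by
  ext i j
  have := h (Matrix.single j i 1)
  rw [Matrix.trace_single_mul] at this
  simpa using this

/-- `n d n = tr(n d) n - det(n) adj(d)` -/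
lemma gsel_sandwich (n d : M2 k) :
    n * d * n = (n * d).trace • n - n.det • d.adjugate := by
  ext i j
  fin_cases i <;> fin_cases j <;>
    simp [Matrix.mul_apply, Fin.sum_univ_two, Matrix.trace_fin_two, Matrix.det_fin_two,
      Matrix.adjugate_fin_two] <;> ring

lemma gsel_act_one (m : M2 k) : act (1 : M2 k) m = m := by
  simp [act]

lemma gsel_act_mul (g h m : M2 k) : act (g * h) m = act g (act h m) := by
  simp only [act, Matrix.adjugate_mul_distrib, mul_assoc]

lemma gsel_act_add (g m m' : M2 k) : act g (m + m') = act g m + act g m' := by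
  simp only [act, mul_add, add_mul]

lemma gsel_act_smul (g : M2 k) (c : k) (m : M2 k) : act g (c • m) = c • act g m := by
  simp only [act, Matrix.mul_smul, Matrix.smul_mul]

lemma gsel_act_sub (g m m' : M2 k) : act g (m - m') = act g m - act g m' := by
  simp only [act, mul_sub, sub_mul]

/-- `(g ⋆ m) g = det g • g m` -/
lemma gsel_act_mul_self (g m : M2 k) : act g m * g = g.det • (g * m) := by
  rw [act, mul_assoc, Matrix.adjugate_mul, Matrix.mul_smul, mul_one]

lemma gsel_act_trace (g m : M2 k) : (act g m).trace = g.det * m.trace := by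
  rw [act, Matrix.trace_mul_comm, ← mul_assoc, Matrix.adjugate_mul, Matrix.smul_mul, one_mul,
    Matrix.trace_smul, smul_eq_mul]

lemma gsel_act_trace_mul (g x y : M2 k) :
    (act g x * act g y).trace = g.det ^ 2 * (x * y).trace := by
  have h : act g x * act g y = g.det • act g (x * y) := by
    simp only [act]
    calc g * x * g.adjugate * (g * y * g.adjugate)
        = g * x * (g.adjugate * g) * y * g.adjugate := by simp only [mul_assoc]
      _ = g.det • (g * (x * y) * g.adjugate) := by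
          rw [Matrix.adjugate_mul]
          simp only [Matrix.mul_smul, Matrix.smul_mul, mul_one, mul_assoc]
  rw [h, Matrix.trace_smul, gsel_act_trace, smul_eq_mul]
  ring

/-! ### The eigenvector lemma -/

/-- a `2 × 2` matrix of determinant `0` has proportional rows and columns -/
lemma gsel_rank_one {K : Type} [Field K] (n : M2 K) (hdet : n.det = 0) (y : Fin 2 → K)
    (a i j : Fin 2) : (n *ᵥ y) a * n i j = (n *ᵥ y) i * n a j := by
  rw [Matrix.det_fin_two] at hdet
  fin_cases a <;> fin_cases i <;> fin_cases j <;>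
    simp [Matrix.mulVec, dotProduct, Fin.sum_univ_two] <;>
    first
      | ring1
      | linear_combination (y 1) * hdet
      | linear_combination (-(y 1)) * hdet
      | linear_combination (y 0) * hdet
      | linear_combination (-(y 0)) * hdet

/-- A nonzero `2 × 2` matrix `n` of determinant `0` has rank one: a nonzero column `v` of `n`
is an eigenvector of every `g` that normalises `n` up to a scalar. -/
lemma gsel_eigen {K : Type} [Field K] (n : M2 K) (hn : n ≠ 0) (hdet : n.det = 0) :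
    ∃ v : Fin 2 → K, v ≠ 0 ∧
      ∀ g : M2 K, (∃ c : K, g * n = c • (n * g)) → ∃ c : K, g *ᵥ v = c • v := by
  have hij : ∃ i j, n i j ≠ 0 := by
    by_contra hcon
    push Not at hcon
    exact hn (by ext i j; simpa using hcon i j)
  obtain ⟨i, j, hnij⟩ := hij
  have hcol : ∀ a, (n *ᵥ Pi.single j 1) a = n a j := by
    intro a
    simp
  refine ⟨n *ᵥ Pi.single j 1, ?_, ?_⟩
  · intro h0
    apply hnij
    rw [← hcol i, h0]
    rfl
  · rintro g ⟨c, hc⟩
    refine ⟨c * ((n *ᵥ (g *ᵥ Pi.single j 1)) i / n i j), ?_⟩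
    rw [Matrix.mulVec_mulVec, hc, Matrix.smul_mulVec, ← Matrix.mulVec_mulVec]
    ext a
    simp only [Pi.smul_apply, smul_eq_mul, hcol]
    have h := gsel_rank_one n hdet (g *ᵥ Pi.single j 1) a i j
    field_simp
    linear_combination c * h

/-! ### No stable line in `ad⁰` -/

lemma gsel_two_ne_zero (p : ℕ) [Fact p.Prime] [CharP k p] (hodd : p ≠ 2) : (2 : k) ≠ 0 := by
  intro h
  have h2 : ((2 : ℕ) : k) = 0 := by exact_mod_cast h
  rw [CharP.cast_eq_zero_iff k p] at h2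
  exact hodd ((Nat.prime_dvd_prime_iff_eq Fact.out Nat.prime_two).1 h2)

lemma gsel_det_ne_zero (g : GL (Fin 2) k) : g.1.det ≠ 0 :=
  (Matrix.isUnits_det_units g).ne_zero

lemma gsel_inv_mul (g : GL (Fin 2) k) : (g⁻¹).1 * g.1 = 1 := by
  rw [← Units.val_mul, inv_mul_cancel, Units.val_one]

lemma gsel_mul_inv (g : GL (Fin 2) k) : g.1 * (g⁻¹).1 = 1 := by
  rw [← Units.val_mul, mul_inv_cancel, Units.val_one]

/-- from the twisted action to a commutation relation -/
lemma gsel_rel_of_act (g w : M2 k) (hg : g.det ≠ 0) (c : k) (h : act g w = c • w) :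
    g * w = (c / g.det) • (w * g) := by
  have h1 := gsel_act_mul_self g w
  rw [h, Matrix.smul_mul] at h1
  rw [div_eq_inv_mul, mul_smul, h1, smul_smul, inv_mul_cancel₀ hg, one_smul]

/-- `c • g = 0` with `g` invertible forces `c = 0` -/
lemma gsel_smul_unit_eq_zero (g : GL (Fin 2) k) (c : k) (h : c • g.1 = 0) : c = 0 := by
  have h1 : (c • g.1) * (g⁻¹).1 = 0 := by rw [h, zero_mul]
  rw [Matrix.smul_mul, gsel_mul_inv] at h1
  have := congrFun (congrFun h1 0) 0
  simpa using this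

/-- the square of a trace-zero matrix -/
lemma gsel_sq_of_trace_zero (m : M2 k) (htr : m.trace = 0) :
    m * m = (-m.det) • (1 : M2 k) := by
  rw [gsel_ch, htr, zero_smul, zero_sub, neg_smul]

/-- Under `Hyp` there is no stable line in the trace-zero matrices. -/
lemma gsel_line_false (p : ℕ) [Fact p.Prime] [CharP k p] {Γ : Type} [Group Γ]
    (ρ : Γ →* GL (Fin 2) k) (N : Subgroup Γ) (hyp : Hyp p ρ N) (w : M2 k) (hw : w ≠ 0)
    (htr : w.trace = 0) (hst : ∀ σ, ∃ c : k, act (ρ σ).1 w = c • w) : False := by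
  classical
  have h2 : (2 : k) ≠ 0 := gsel_two_ne_zero p hyp.odd
  set ι : k →+* AlgebraicClosure k := algebraMap k (AlgebraicClosure k) with hι
  have hιinj : Function.Injective ι := (algebraMap k (AlgebraicClosure k)).injective
  -- commutation up to scalars
  have hrel : ∀ σ, ∃ ε : k, (ρ σ).1 * w = ε • (w * (ρ σ).1) := fun σ => by
    obtain ⟨c, hc⟩ := hst σ
    exact ⟨_, gsel_rel_of_act _ w (gsel_det_ne_zero _) c hc⟩
  have hmap : ∀ (g : M2 k) (ε : k), g * w = ε • (w * g) →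
      g.map ι * w.map ι = ι ε • (w.map ι * g.map ι) := by
    intro g ε h
    rw [← Matrix.map_mul, ← Matrix.map_mul, ← Matrix.map_smul' _ _ _ (map_mul ι), h]
  have hw' : w.map ι ≠ 0 := by
    intro h0
    apply hw
    apply Matrix.map_injective hιinj
    show w.map ι = (0 : M2 k).map ι
    rw [h0]
    ext i j
    simp
  by_cases hdet : w.det = 0
  · -- nilpotent case
    have hdet' : (w.map ι).det = 0 := by
      rw [← RingHom.mapMatrix_apply, ← RingHom.map_det, hdet, map_zero]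
    obtain ⟨v, hv, hE⟩ := gsel_eigen (w.map ι) hw' hdet'
    refine hyp.irr ⊤ (Or.inl rfl) v hv (fun σ _ => ?_)
    obtain ⟨ε, hε⟩ := hrel σ
    exact hE _ ⟨ι ε, hmap _ ε hε⟩
  · -- semisimple case
    obtain ⟨s, hs⟩ := IsAlgClosed.exists_pow_nat_eq (ι (- w.det)) (n := 2) (by norm_num)
    have hsq : w * w = (-w.det) • (1 : M2 k) := gsel_sq_of_trace_zero w htr
    have hs0 : s ≠ 0 := by
      intro h0
      rw [h0, zero_pow (by norm_num)] at hs
      have : - w.det = 0 := hιinj (by rw [← hs, map_zero])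
      exact hdet (neg_eq_zero.1 this)
    have h2K : (2 : AlgebraicClosure k) ≠ 0 := by
      intro h
      apply h2
      apply hιinj
      rw [map_ofNat, h, map_zero]
    set n : M2 (AlgebraicClosure k) := w.map ι + s • (1 : M2 (AlgebraicClosure k)) with hn
    have hndet : n.det = 0 := by
      have h1 : ι (w 0 0) + ι (w 1 1) = 0 := by
        rw [← map_add, ← Matrix.trace_fin_two, htr, map_zero]
      have h3 : s ^ 2 = - (ι (w 0 0) * ι (w 1 1) - ι (w 0 1) * ι (w 1 0)) := by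
        rw [hs, Matrix.det_fin_two]
        simp
      simp only [hn, Matrix.det_fin_two, Matrix.add_apply, Matrix.map_apply, Matrix.smul_apply,
        Matrix.one_apply_eq, smul_eq_mul, mul_one]
      simp
      linear_combination s * h1 + h3
    have hn0 : n ≠ 0 := by
      intro h0
      have h1 : ι (w 0 0) + ι (w 1 1) = 0 := by
        rw [← map_add, ← Matrix.trace_fin_two, htr, map_zero]
      have ht : n.trace = 0 := by rw [h0, Matrix.trace_zero]
      simp only [hn, Matrix.trace_fin_two, Matrix.add_apply, Matrix.map_apply, Matrix.smul_apply,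
        Matrix.one_apply_eq, smul_eq_mul, mul_one] at ht
      have : (2 : AlgebraicClosure k) * s = 0 := by linear_combination ht - h1
      rcases mul_eq_zero.1 this with h | h
      · exact h2K h
      · exact hs0 h
    -- the subgroup commuting with `w`
    let H : Subgroup Γ :=
      { carrier := {σ | (ρ σ).1 * w = w * (ρ σ).1}
        one_mem' := by simp
        mul_mem' := by
          intro a b ha hb
          have ha' : (ρ a).1 * w = w * (ρ a).1 := ha
          have hb' : (ρ b).1 * w = w * (ρ b).1 := hb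
          show (ρ (a * b)).1 * w = w * (ρ (a * b)).1
          rw [map_mul, Units.val_mul, mul_assoc, hb', ← mul_assoc, ha', mul_assoc]
        inv_mem' := by
          intro a ha
          have ha : (ρ a).1 * w = w * (ρ a).1 := ha
          show (ρ a⁻¹).1 * w = w * (ρ a⁻¹).1
          rw [map_inv]
          calc ((ρ a)⁻¹).1 * w = ((ρ a)⁻¹).1 * w * ((ρ a).1 * ((ρ a)⁻¹).1) := by
                rw [gsel_mul_inv, mul_one]
            _ = ((ρ a)⁻¹).1 * (w * (ρ a).1) * ((ρ a)⁻¹).1 := by simp only [mul_assoc]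
            _ = ((ρ a)⁻¹).1 * ((ρ a).1 * w) * ((ρ a)⁻¹).1 := by rw [ha]
            _ = (((ρ a)⁻¹).1 * (ρ a).1) * w * ((ρ a)⁻¹).1 := by simp only [mul_assoc]
            _ = w * ((ρ a)⁻¹).1 := by rw [gsel_inv_mul, one_mul] }
    have hHmem : ∀ σ, σ ∈ H ↔ (ρ σ).1 * w = w * (ρ σ).1 := fun σ => Iff.rfl
    have hneg : ∀ σ, σ ∉ H → (ρ σ).1 * w = - (w * (ρ σ).1) := by
      intro σ hσ
      obtain ⟨ε, hε⟩ := hrel σ
      have h4 : ((-w.det) * (1 - ε ^ 2)) • (ρ σ).1 = 0 := by
        have e1 : (ρ σ).1 * (w * w) = (ε ^ 2) • ((w * w) * (ρ σ).1) := by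
          calc (ρ σ).1 * (w * w) = ((ρ σ).1 * w) * w := by rw [mul_assoc]
            _ = (ε • (w * (ρ σ).1)) * w := by rw [hε]
            _ = ε • (w * ((ρ σ).1 * w)) := by rw [Matrix.smul_mul, mul_assoc]
            _ = ε • (w * (ε • (w * (ρ σ).1))) := by rw [hε]
            _ = (ε ^ 2) • ((w * w) * (ρ σ).1) := by
                rw [Matrix.mul_smul, smul_smul, mul_assoc, pow_two]
        rw [hsq, Matrix.mul_smul, Matrix.smul_mul, mul_one, one_mul, smul_smul] at e1
        rw [mul_sub, mul_one, sub_smul, e1, mul_comm (ε ^ 2), sub_self]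
      have h5 := gsel_smul_unit_eq_zero (ρ σ) _ h4
      have h6 : ε ^ 2 = 1 := by
        rcases mul_eq_zero.1 h5 with h | h
        · exact absurd (neg_eq_zero.1 h) hdet
        · exact (sub_eq_zero.1 h).symm
      have h7 : (ε - 1) * (ε + 1) = 0 := by linear_combination h6
      rcases mul_eq_zero.1 h7 with h | h
      · exfalso
        apply hσ
        rw [hHmem, hε, sub_eq_zero.1 h, one_smul]
      · rw [hε, eq_neg_of_add_eq_zero_left h, neg_smul, one_smul]
    have hH : H = ⊤ ∨ H.index = 2 := by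
      by_cases htop : H = ⊤
      · exact Or.inl htop
      · right
        obtain ⟨a, ha⟩ : ∃ a, a ∉ H := by
          by_contra hcon
          push Not at hcon
          exact htop (eq_top_iff.2 (fun x _ => hcon x))
        rw [Subgroup.index_eq_two_iff]
        refine ⟨a, fun b => ?_⟩
        by_cases hb : b ∈ H
        · refine Or.inr ⟨hb, fun hba => ha ?_⟩
          have := H.mul_mem (H.inv_mem hb) hba
          rwa [inv_mul_cancel_left] at this
        · refine Or.inl ⟨?_, hb⟩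
          rw [hHmem, map_mul, Units.val_mul, mul_assoc, hneg a ha, Matrix.mul_neg, ← mul_assoc,
            hneg b hb, Matrix.neg_mul, neg_neg, mul_assoc]
    obtain ⟨v, hv, hE⟩ := gsel_eigen n hn0 hndet
    refine hyp.irr H hH v hv (fun σ hσ => hE _ ⟨1, ?_⟩)
    have hc : (ρ σ).1.map ι * w.map ι = w.map ι * (ρ σ).1.map ι := by
      rw [← Matrix.map_mul, ← Matrix.map_mul, (hHmem σ).1 hσ]
    rw [one_smul, hn, mul_add, add_mul, hc, Matrix.mul_smul, Matrix.smul_mul, mul_one, one_mul]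

/-! ### P1: `ad⁰` is irreducible -/

/-- the trace form on `M₂(k)` -/
def gselB (k : Type) [Field k] : M2 k →ₗ[k] M2 k →ₗ[k] k :=
  LinearMap.mk₂ k (fun x y => (x * y).trace)
    (fun x x' y => by simp only [add_mul, Matrix.trace_add])
    (fun c x y => by simp only [Matrix.smul_mul, Matrix.trace_smul])
    (fun x y y' => by simp only [mul_add, Matrix.trace_add])
    (fun c x y => by simp only [Matrix.mul_smul, Matrix.trace_smul])

lemma gselB_apply (x y : M2 k) : gselB k x y = (x * y).trace := rfl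

lemma gsel_trace_smul_one (c : k) : (c • (1 : M2 k)).trace = 2 * c := by
  rw [Matrix.trace_smul, Matrix.trace_one, Fintype.card_fin, smul_eq_mul]
  push_cast
  ring

/-- (P1, G-adirr) -/
theorem stmtAdIrr : StmtAdIrr := by
  intro p _ k _ _ _ Γ _ ρ N hyp W hWtr hWst
  classical
  by_contra hcon
  push Not at hcon
  obtain ⟨hW0, m₀, hm₀tr, hm₀⟩ := hcon
  have h2 : (2 : k) ≠ 0 := gsel_two_ne_zero p hyp.odd
  -- `W₁ = W ⊕ k·1`
  have hdisj : W ⊓ Submodule.span k {(1 : M2 k)} = ⊥ := by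
    rw [eq_bot_iff]
    rintro x ⟨hxW, hx1⟩
    obtain ⟨c, rfl⟩ := Submodule.mem_span_singleton.1 hx1
    have h := hWtr _ hxW
    rw [gsel_trace_smul_one] at h
    rcases mul_eq_zero.1 h with h | h
    · exact absurd h h2
    · rw [h, zero_smul]
      exact Submodule.zero_mem _
  have hfr1 : finrank k ↥(W ⊔ Submodule.span k {(1 : M2 k)}) = finrank k W + 1 := by
    have := Submodule.finrank_sup_add_finrank_inf_eq W (Submodule.span k {(1 : M2 k)})
    rw [hdisj, finrank_bot, add_zero, finrank_span_singleton one_ne_zero] at this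
    exact this
  have hmemW₁ : ∀ y ∈ W ⊔ Submodule.span k {(1 : M2 k)}, ∃ w ∈ W, ∃ c : k,
      y = w + c • (1 : M2 k) := by
    intro y hy
    obtain ⟨w, hw, z, hz, rfl⟩ := Submodule.mem_sup.1 hy
    obtain ⟨c, rfl⟩ := Submodule.mem_span_singleton.1 hz
    exact ⟨w, hw, c, rfl⟩
  have hm₀' : m₀ ∉ W ⊔ Submodule.span k {(1 : M2 k)} := by
    intro hmem
    obtain ⟨w, hw, c, rfl⟩ := hmemW₁ _ hmem
    rw [Matrix.trace_add, hWtr w hw, zero_add, gsel_trace_smul_one] at hm₀tr
    rcases mul_eq_zero.1 hm₀tr with h | h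
    · exact h2 h
    · apply hm₀
      rw [h, zero_smul, add_zero]
      exact hw
  have hlt : finrank k ↥(W ⊔ Submodule.span k {(1 : M2 k)}) < 4 := by
    have h := Submodule.finrank_lt
      (s := W ⊔ Submodule.span k {(1 : M2 k)}) (fun h => hm₀' (h ▸ Submodule.mem_top))
    have h4 : finrank k (M2 k) = 4 := by
      rw [Module.finrank_matrix]
      simp
    rwa [h4] at h
  have hpos : 1 ≤ finrank k W := Submodule.one_le_finrank_iff.2 hW0
  have hBr : ∀ y : M2 k, (∀ x, gselB k x y = 0) → y = 0 := fun y hy =>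
    gsel_eq_zero_of_trace y hy
  have hperp := Fermat.Agent.TW.F.gw_finrank_perpL (gselB k) hBr
    (W ⊔ Submodule.span k {(1 : M2 k)})
  have h4 : finrank k (M2 k) = 4 := by
    rw [Module.finrank_matrix]
    simp
  rw [h4] at hperp
  have hcases : finrank k W = 1 ∨
      finrank k ↥(Fermat.Agent.TW.F.gwPerpL (gselB k) (W ⊔ Submodule.span k {(1 : M2 k)})) = 1 := by
    omega
  rcases hcases with h1 | h1
  · -- `W` is a line
    obtain ⟨⟨w, hwW⟩, hw0, hwall⟩ := finrank_eq_one_iff'.1 h1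
    refine gsel_line_false p ρ N hyp w (fun h => hw0 (Subtype.ext h)) (hWtr w hwW) (fun σ => ?_)
    obtain ⟨c, hc⟩ := hwall ⟨act (ρ σ).1 w, hWst σ w hwW⟩
    exact ⟨c, (congrArg Subtype.val hc).symm⟩
  · -- the orthogonal complement of `W` in the trace-zero matrices is a line
    obtain ⟨⟨x, hxL⟩, hx0, hxall⟩ := finrank_eq_one_iff'.1 h1
    have hLtr : ∀ y ∈ Fermat.Agent.TW.F.gwPerpL (gselB k)
        (W ⊔ Submodule.span k {(1 : M2 k)}), y.trace = 0 := by
      intro y hy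
      have := hy 1 (Submodule.mem_sup_right (Submodule.mem_span_singleton_self _))
      rwa [gselB_apply, mul_one] at this
    have hLst : ∀ σ, ∀ y ∈ Fermat.Agent.TW.F.gwPerpL (gselB k)
        (W ⊔ Submodule.span k {(1 : M2 k)}), act (ρ σ).1 y ∈ Fermat.Agent.TW.F.gwPerpL (gselB k)
        (W ⊔ Submodule.span k {(1 : M2 k)}) := by
      intro σ y hy z hz
      obtain ⟨w, hw, c, rfl⟩ := hmemW₁ z hz
      rw [gselB_apply, mul_add, Matrix.trace_add, Matrix.mul_smul, mul_one, Matrix.trace_smul,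
        gsel_act_trace, hLtr y hy, mul_zero, smul_zero, add_zero]
      have hw' : w = act (ρ σ).1 (act (ρ σ⁻¹).1 w) := by
        rw [← gsel_act_mul, map_inv, gsel_mul_inv, gsel_act_one]
      rw [hw', gsel_act_trace_mul]
      have := hy (act (ρ σ⁻¹).1 w) (Submodule.mem_sup_left (hWst σ⁻¹ w hw))
      rw [gselB_apply] at this
      rw [this, mul_zero]
    refine gsel_line_false p ρ N hyp x (fun h => hx0 (Subtype.ext h)) (hLtr x hxL) (fun σ => ?_)
    obtain ⟨c, hc⟩ := hxall ⟨act (ρ σ).1 x, hLst σ x hxL⟩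
    exact ⟨c, (congrArg Subtype.val hc).symm⟩

/-! ### P2: a regular element in `N` -/

/-- trace and determinant of a split matrix -/
lemma gsel_split_trace_det (g : M2 k) (α β : k)
    (h : g.charpoly = (X - C α) * (X - C β)) : g.trace = α + β ∧ g.det = α * β := by
  rw [Matrix.charpoly_fin_two] at h
  have h0 := congrArg (Polynomial.eval 0) h
  have h1 := congrArg (Polynomial.eval 1) h
  simp only [Polynomial.eval_add, Polynomial.eval_sub, Polynomial.eval_mul, Polynomial.eval_pow,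
    Polynomial.eval_X, Polynomial.eval_C] at h0 h1
  have hd : g.det = α * β := by linear_combination h0
  refine ⟨?_, hd⟩
  linear_combination hd - h1

/-- conversely -/
lemma gsel_charpoly_of_trace_det (g : M2 k) (α β : k) (ht : g.trace = α + β)
    (hd : g.det = α * β) : g.charpoly = (X - C α) * (X - C β) := by
  rw [Matrix.charpoly_fin_two, ht, hd, C_add, C_mul]
  ring

/-- twice the trace-zero part of `g` -/
def gselN (g : M2 k) : M2 k := (2 : k) • g - g.trace • (1 : M2 k)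

lemma gselN_trace (g : M2 k) : (gselN g).trace = 0 := by
  rw [gselN, Matrix.trace_sub, Matrix.trace_smul, gsel_trace_smul_one, smul_eq_mul]
  ring

lemma gselN_trace_mul_gselN (g h : M2 k) :
    (gselN g * gselN h).trace = 4 * (g * h).trace - 2 * g.trace * h.trace := by
  simp only [gselN, sub_mul, mul_sub, Matrix.smul_mul, Matrix.mul_smul, mul_one, one_mul,
    Matrix.trace_sub, Matrix.trace_smul, smul_eq_mul, Matrix.trace_one, Fintype.card_fin,
    Nat.cast_ofNat]
  ring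

lemma gselN_trace_mul_self (g : M2 k) :
    (gselN g * g).trace = g.trace ^ 2 - 4 * g.det := by
  rw [gselN, sub_mul, Matrix.smul_mul, Matrix.smul_mul, one_mul, gsel_ch, Matrix.trace_sub,
    Matrix.trace_smul, Matrix.trace_smul, Matrix.trace_sub, Matrix.trace_smul,
    gsel_trace_smul_one]
  simp only [smul_eq_mul]
  ring

/-- `tr(g² h) = tr g · tr(g h) - det g · tr h` -/
lemma gsel_trace_sq_mul (g h : M2 k) :
    (g * g * h).trace = g.trace * (g * h).trace - g.det * h.trace := by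
  rw [gsel_ch, sub_mul, Matrix.smul_mul, Matrix.smul_mul, one_mul, Matrix.trace_sub,
    Matrix.trace_smul, Matrix.trace_smul, smul_eq_mul, smul_eq_mul]

lemma gsel_adj (g : GL (Fin 2) k) : g.1.adjugate = g.1.det • (g⁻¹).1 := by
  have h : (g⁻¹).1 * (g.1 * g.1.adjugate) = (g⁻¹).1 * (g.1.det • (1 : M2 k)) :=
    congrArg (fun x => (g⁻¹).1 * x) (Matrix.mul_adjugate g.1)
  rw [← mul_assoc, gsel_inv_mul, one_mul, Matrix.mul_smul, mul_one] at h
  exact h

lemma gsel_act_unit (g : GL (Fin 2) k) (m : M2 k) :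
    act g.1 m = g.1.det • (g.1 * m * (g⁻¹).1) := by
  rw [act, gsel_adj, Matrix.mul_smul]

lemma gselN_conj (g : GL (Fin 2) k) (h : M2 k) :
    gselN (g.1 * h * (g⁻¹).1) = g.1 * gselN h * (g⁻¹).1 := by
  have ht : (g.1 * h * (g⁻¹).1).trace = h.trace := by
    rw [Matrix.trace_mul_comm, ← mul_assoc, gsel_inv_mul, one_mul]
  rw [gselN, gselN, ht, mul_sub, sub_mul, Matrix.mul_smul, Matrix.smul_mul, Matrix.mul_smul,
    Matrix.smul_mul, mul_one, gsel_mul_inv]

lemma gsel_act_gselN (g : GL (Fin 2) k) (h : M2 k) :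
    act g.1 (gselN h) = g.1.det • gselN (g.1 * h * (g⁻¹).1) := by
  rw [gsel_act_unit, gselN_conj]

/-- the stabiliser of the line `k v` in `GL₂(k)` -/
def gselLineStab (v : Fin 2 → k) (hv : v ≠ 0) : Subgroup (GL (Fin 2) k) where
  carrier := {g | ∃ c : k, g.1 *ᵥ v = c • v}
  one_mem' := ⟨1, by simp⟩
  mul_mem' := by
    rintro a b ⟨c, hc⟩ ⟨d, hd⟩
    refine ⟨d * c, ?_⟩
    rw [Units.val_mul, ← Matrix.mulVec_mulVec, hd, Matrix.mulVec_smul, hc, smul_smul]
  inv_mem' := by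
    rintro a ⟨c, hc⟩
    have hc0 : c ≠ 0 := by
      rintro rfl
      rw [zero_smul] at hc
      apply hv
      have h := congrArg (fun x => (a⁻¹).1 *ᵥ x) hc
      simp only [Matrix.mulVec_mulVec, gsel_inv_mul, Matrix.one_mulVec, Matrix.mulVec_zero] at h
      exact h
    refine ⟨c⁻¹, ?_⟩
    have h := congrArg (fun x => c⁻¹ • (a⁻¹).1 *ᵥ x) hc
    simp only [Matrix.mulVec_mulVec, gsel_inv_mul, Matrix.one_mulVec, Matrix.mulVec_smul,
      smul_smul, inv_mul_cancel₀ hc0, one_smul] at h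
    exact h.symm

lemma gsel_mem_lineStab (v : Fin 2 → k) (hv : v ≠ 0) (g : GL (Fin 2) k) :
    g ∈ gselLineStab v hv ↔ ∃ c : k, g.1 *ᵥ v = c • v := Iff.rfl

/-- (P2, G-dist) -/
theorem stmtDist : StmtDist := by
  intro p _ k _ _ _ Γ _ ρ N hyp
  classical
  by_contra hno
  push Not at hno
  have h2 : (2 : k) ≠ 0 := gsel_two_ne_zero p hyp.odd
  have htr : ∀ σ ∈ N, (ρ σ).1.trace ^ 2 = 4 := by
    intro σ hσ
    obtain ⟨α, β, hαβ⟩ := hyp.split σ
    have hab : α = β := by
      by_contra hne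
      exact hno σ hσ ⟨α, β, hne, hαβ⟩
    subst hab
    obtain ⟨ht, hd⟩ := gsel_split_trace_det _ α α hαβ
    rw [hyp.det_N σ hσ] at hd
    rw [ht]
    linear_combination (-4 : k) * hd
  have hpair : ∀ σ ∈ N, ∀ τ ∈ N, (gselN (ρ σ).1 * gselN (ρ τ).1).trace = 0 := by
    intro σ hσ τ hτ
    have t1 := htr σ hσ
    have t2 := htr τ hτ
    have s2 := htr (σ * τ) (N.mul_mem hσ hτ)
    have s3 := htr (σ * σ * τ) (N.mul_mem (N.mul_mem hσ hσ) hτ)
    rw [map_mul, Units.val_mul] at s2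
    rw [map_mul, map_mul, Units.val_mul, Units.val_mul, gsel_trace_sq_mul, hyp.det_N σ hσ,
      one_mul] at s3
    rw [gselN_trace_mul_gselN]
    have key : 8 * ((ρ σ).1.trace * (ρ τ).1.trace - 2 * ((ρ σ).1 * (ρ τ).1).trace) = 0 := by
      linear_combination
        (4 * ((ρ σ).1 * (ρ τ).1).trace +
          ((ρ σ).1 * (ρ τ).1).trace * (((ρ σ).1 * (ρ τ).1).trace ^ 2 - 4)) * t1 +
        ((ρ σ).1 * (ρ τ).1).trace * t2 +
        (4 * ((ρ σ).1 * (ρ τ).1).trace - 2 * (ρ σ).1.trace * (ρ τ).1.trace) * s2 -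
        ((ρ σ).1 * (ρ τ).1).trace * s3
    have h8 : (8 : k) ≠ 0 := by
      have : (8 : k) = 2 ^ 3 := by norm_num
      rw [this]
      exact pow_ne_zero _ h2
    have hu := (mul_eq_zero.1 key).resolve_left h8
    linear_combination (-2 : k) * hu
  set Y : Submodule k (M2 k) := Submodule.span k {y | ∃ σ ∈ N, y = gselN (ρ σ).1} with hY
  have hYtr : ∀ y ∈ Y, y.trace = 0 := by
    intro y hy
    induction hy using Submodule.span_induction with
    | mem x hx =>
      obtain ⟨σ, _, rfl⟩ := hx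
      exact gselN_trace _
    | zero => exact Matrix.trace_zero _ _
    | add x y _ _ hx hy => rw [Matrix.trace_add, hx, hy, add_zero]
    | smul c x _ hx => rw [Matrix.trace_smul, hx, smul_zero]
  have hYiso1 : ∀ τ ∈ N, ∀ y ∈ Y, (y * gselN (ρ τ).1).trace = 0 := by
    intro τ hτ y hy
    induction hy using Submodule.span_induction with
    | mem x hx =>
      obtain ⟨σ, hσ, rfl⟩ := hx
      exact hpair σ hσ τ hτ
    | zero => rw [zero_mul, Matrix.trace_zero]
    | add x y _ _ hx hy => rw [add_mul, Matrix.trace_add, hx, hy, add_zero]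
    | smul c x _ hx => rw [Matrix.smul_mul, Matrix.trace_smul, hx, smul_zero]
  have hYiso : ∀ y ∈ Y, ∀ y' ∈ Y, (y * y').trace = 0 := by
    intro y hy y' hy'
    induction hy' using Submodule.span_induction with
    | mem x hx =>
      obtain ⟨τ, hτ, rfl⟩ := hx
      exact hYiso1 τ hτ y hy
    | zero => rw [mul_zero, Matrix.trace_zero]
    | add x z _ _ hx hz => rw [mul_add, Matrix.trace_add, hx, hz, add_zero]
    | smul c x _ hx => rw [Matrix.mul_smul, Matrix.trace_smul, hx, smul_zero]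
  have hYst : ∀ σ : Γ, ∀ y ∈ Y, act (ρ σ).1 y ∈ Y := by
    intro σ y hy
    induction hy using Submodule.span_induction with
    | mem x hx =>
      obtain ⟨τ, hτ, rfl⟩ := hx
      rw [gsel_act_gselN]
      refine Y.smul_mem _ (Submodule.subset_span ⟨σ * τ * σ⁻¹, hyp.normal.conj_mem τ hτ σ, ?_⟩)
      rw [map_mul, map_mul, map_inv, Units.val_mul, Units.val_mul]
    | zero =>
      rw [act, mul_zero, zero_mul]
      exact Y.zero_mem
    | add x z _ _ hx hz =>
      rw [gsel_act_add]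
      exact Y.add_mem hx hz
    | smul c x _ hx =>
      rw [gsel_act_smul]
      exact Y.smul_mem c hx
  rcases stmtAdIrr p k Γ ρ N hyp Y hYtr hYst with hbot | hall
  · -- `ρ(N)` is scalar
    have hsc : ∀ σ ∈ N, ∃ c : k, (ρ σ).1 = c • (1 : M2 k) := by
      intro σ hσ
      have hmem : gselN (ρ σ).1 ∈ Y := Submodule.subset_span ⟨σ, hσ, rfl⟩
      rw [hbot, Submodule.mem_bot, gselN, sub_eq_zero] at hmem
      refine ⟨2⁻¹ * (ρ σ).1.trace, ?_⟩
      have h := congrArg (fun x => (2 : k)⁻¹ • x) hmem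
      simp only [smul_smul, inv_mul_cancel₀ h2, one_smul] at h
      exact h
    obtain ⟨γ, hγ⟩ := hyp.cyc
    obtain ⟨α, β, hαβ⟩ := hyp.split γ
    obtain ⟨ht, hd⟩ := gsel_split_trace_det _ α β hαβ
    have hdet0 : ((ρ γ).1 - α • (1 : M2 k)).det = 0 := by
      rw [Matrix.det_fin_two] at hd ⊢
      rw [Matrix.trace_fin_two] at ht
      simp only [Matrix.sub_apply, Matrix.smul_apply, Matrix.one_apply_eq, smul_eq_mul, mul_one,
        ne_eq, zero_ne_one, one_ne_zero, not_false_eq_true, Matrix.one_apply_ne, mul_zero,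
        sub_zero]
      linear_combination hd - α * ht
    obtain ⟨v, hv, hvE⟩ := Matrix.exists_mulVec_eq_zero_iff.2 hdet0
    have hγv : (ρ γ).1 *ᵥ v = α • v := by
      rw [Matrix.sub_mulVec, Matrix.smul_mulVec, Matrix.one_mulVec, sub_eq_zero] at hvE
      exact hvE
    have hall : ∀ σ, ρ σ ∈ gselLineStab v hv := by
      intro σ
      obtain ⟨n, hn⟩ := hγ σ
      have hN : ρ (γ ^ n * σ) ∈ gselLineStab v hv := by
        obtain ⟨c, hc⟩ := hsc _ hn
        exact ⟨c, by rw [hc, Matrix.smul_mulVec, Matrix.one_mulVec]⟩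
      have hγE : ρ γ ∈ gselLineStab v hv := ⟨α, hγv⟩
      have : ρ σ = (ρ γ ^ n)⁻¹ * ρ (γ ^ n * σ) := by
        rw [map_mul, map_zpow, inv_mul_cancel_left]
      rw [this]
      exact Subgroup.mul_mem _ (Subgroup.inv_mem _ (Subgroup.zpow_mem _ hγE n)) hN
    refine hyp.irr ⊤ (Or.inl rfl) (algebraMap k (AlgebraicClosure k) ∘ v) ?_ (fun σ _ => ?_)
    · intro h0
      apply hv
      ext i
      have := congrFun h0 i
      simp only [Function.comp_apply, Pi.zero_apply] at this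
      exact (map_eq_zero (algebraMap k (AlgebraicClosure k))).1 this
    · obtain ⟨c, hc⟩ := hall σ
      refine ⟨algebraMap k (AlgebraicClosure k) c, ?_⟩
      ext i
      rw [← RingHom.map_mulVec, hc]
      simp
  · have hH : eH ∈ Y := hall eH (by simp [eH, Matrix.trace_fin_two])
    have := hYiso eH hH eH hH
    simp [eH, Matrix.trace_fin_two] at this
    exact h2 (by linear_combination this)

/-! ### P3: a cocycle not vanishing on `N ∩ ker ρ` -/

/-- a coboundary at `σ` (with `det ρ(σ) = 1`) is orthogonal to `ρ(σ)` for the trace form -/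
lemma gsel_cob_trace (g m : M2 k) (hdet : g.det = 1) : ((act g m - m) * g).trace = 0 := by
  rw [sub_mul, gsel_act_mul_self, hdet, one_smul, Matrix.trace_sub, Matrix.trace_mul_comm,
    sub_self]

/-- a cocycle is equivariant on the kernel of `ρ` -/
lemma gsel_coc_conj {Γ : Type} [Group Γ] (ρ : Γ →* GL (Fin 2) k) (ψ : Γ → M2 k)
    (hψ : IsCoc ρ ψ) (σ z : Γ) (hz : ρ z = 1) :
    ψ (σ * z * σ⁻¹) = act (ρ σ).1 (ψ z) := by
  have h1 := hψ.map_mul (σ * z * σ⁻¹) σ
  have h2 := hψ.map_mul σ z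
  have hρ : ρ (σ * z * σ⁻¹) = 1 := by
    rw [map_mul, map_mul, hz, mul_one, map_inv, mul_inv_cancel]
  rw [hρ, Units.val_one, gsel_act_one] at h1
  have e : σ * z * σ⁻¹ * σ = σ * z := by group
  rw [e, h2] at h1
  have h3 : act (ρ σ).1 (ψ z) + ψ σ = ψ (σ * z * σ⁻¹) + ψ σ := by
    rw [← h1, add_comm]
  exact (add_right_cancel h3).symm

/-- (P3, G-find) -/
theorem stmtFind : StmtFind := by
  intro p _ k _ _ _ Γ _ ρ N hyp ψ hψ hz
  classical
  obtain ⟨z₀, hz₀N, hz₀ρ, hz₀ψ⟩ := hz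
  set W : Submodule k (M2 k) := Submodule.span k {y | ∃ z ∈ N, ρ z = 1 ∧ y = ψ z} with hW
  have hWtr : ∀ w ∈ W, w.trace = 0 := by
    intro y hy
    induction hy using Submodule.span_induction with
    | mem x hx =>
      obtain ⟨z, _, _, rfl⟩ := hx
      exact hψ.trace_zero z
    | zero => exact Matrix.trace_zero _ _
    | add x y _ _ hx hy => rw [Matrix.trace_add, hx, hy, add_zero]
    | smul c x _ hx => rw [Matrix.trace_smul, hx, smul_zero]
  have hWst : ∀ σ : Γ, ∀ w ∈ W, act (ρ σ).1 w ∈ W := by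
    intro σ y hy
    induction hy using Submodule.span_induction with
    | mem x hx =>
      obtain ⟨z, hzN, hzρ, rfl⟩ := hx
      rw [← gsel_coc_conj ρ ψ hψ σ z hzρ]
      refine Submodule.subset_span ⟨σ * z * σ⁻¹, hyp.normal.conj_mem z hzN σ, ?_, rfl⟩
      rw [map_mul, map_mul, hzρ, mul_one, map_inv, mul_inv_cancel]
    | zero =>
      rw [act, mul_zero, zero_mul]
      exact W.zero_mem
    | add x z _ _ hx hz =>
      rw [gsel_act_add]
      exact W.add_mem hx hz
    | smul c x _ hx =>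
      rw [gsel_act_smul]
      exact W.smul_mem c hx
  have hWall : ∀ m : M2 k, m.trace = 0 → m ∈ W := by
    rcases stmtAdIrr p k Γ ρ N hyp W hWtr hWst with h | h
    · exfalso
      apply hz₀ψ
      have hmem : ψ z₀ ∈ W := Submodule.subset_span ⟨z₀, hz₀N, hz₀ρ, rfl⟩
      rw [h] at hmem
      exact (Submodule.mem_bot k).1 hmem
    · exact h
  obtain ⟨σ₀, hσ₀N, α, β, hne, hαβ⟩ := stmtDist p k Γ ρ N hyp
  obtain ⟨ht, hd⟩ := gsel_split_trace_det _ α β hαβ
  have hdet1 := hyp.det_N σ₀ hσ₀N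
  have hw : (gselN (ρ σ₀).1 * (ρ σ₀).1).trace ≠ 0 := by
    rw [gselN_trace_mul_self, ht, hd]
    have e : (α + β) ^ 2 - 4 * (α * β) = (α - β) ^ 2 := by ring
    rw [e]
    exact pow_ne_zero _ (sub_ne_zero.2 hne)
  have hex : ∃ z ∈ N, ρ z = 1 ∧ (ψ z * (ρ σ₀).1).trace ≠ 0 := by
    by_contra hcon
    push Not at hcon
    have hall : ∀ y ∈ W, (y * (ρ σ₀).1).trace = 0 := by
      intro y hy
      induction hy using Submodule.span_induction with
      | mem x hx =>
        obtain ⟨z, hzN, hzρ, rfl⟩ := hx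
        exact hcon z hzN hzρ
      | zero => rw [zero_mul, Matrix.trace_zero]
      | add x y _ _ hx hy => rw [add_mul, Matrix.trace_add, hx, hy, add_zero]
      | smul c x _ hx => rw [Matrix.smul_mul, Matrix.trace_smul, hx, smul_zero]
    exact hw (hall _ (hWall _ (gselN_trace _)))
  obtain ⟨z, hzN, hzρ, hzt⟩ := hex
  by_cases h0 : (ψ σ₀ * (ρ σ₀).1).trace = 0
  · have hρ : ρ (z * σ₀) = ρ σ₀ := by rw [map_mul, hzρ, one_mul]
    refine ⟨z * σ₀, N.mul_mem hzN hσ₀N, ?_, ?_⟩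
    · rw [hρ]
      exact ⟨α, β, hne, hαβ⟩
    · rintro ⟨m, _, hcob⟩
      have hψz : ψ (z * σ₀) = ψ z + ψ σ₀ := by
        rw [hψ.map_mul, hzρ, Units.val_one, gsel_act_one]
      rw [hρ] at hcob
      have h := gsel_cob_trace (ρ σ₀).1 m hdet1
      rw [← hcob, hψz, add_mul, Matrix.trace_add, h0, add_zero] at h
      exact hzt h
  · refine ⟨σ₀, hσ₀N, ⟨α, β, hne, hαβ⟩, ?_⟩
    rintro ⟨m, _, hcob⟩
    have h := gsel_cob_trace (ρ σ₀).1 m hdet1
    rw [← hcob] at h
    exact h0 h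

end Fermat.Agent.TW.G.Sel


end ZBTW_034_1

/-! ### bundled: `Fermat.Agent.TW.G.Asm` -/
section ZBTW_034_2

/-!
# TW-G / P4 (G-asm): assembly on the level of `Γ`  (helper86)

`stmtAsm : StmtAsm`, i.e. `StmtAdIrr → StmtFind → StmtFin → StmtGSel`.

`Z := N ∩ ker ρ`.  If `ψ|_Z ≠ 0`: `StmtFind`.  Otherwise `ψ` vanishes on all of `ker ρ`
(for `z ∈ ker ρ` and `g ∈ Γ` the commutator `c = g z g⁻¹ z⁻¹` lies in `Z`, and `g z = c (z g)` gives
`g ⋆ ψ(z) = ψ(z)`: a `Γ`-fixed vector of `ad⁰(1)`, hence `0` by `gsel_line_false`), so `ψ` descends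
to a cocycle on `G = ρ(Γ)`, which is a coboundary by `StmtFin`.
-/

set_option autoImplicit false

namespace Fermat.Agent.TW.G.Sel

open Matrix Polynomial

variable {k : Type} [Field k] {Γ : Type} [Group Γ]

/-- commutators lie in `N` when `Γ/N` is cyclic -/
lemma gasm_comm_mem (N : Subgroup Γ) [N.Normal] (γ : Γ)
    (hγ : ∀ σ : Γ, ∃ n : ℤ, γ ^ n * σ ∈ N) (a b : Γ) : a * b * a⁻¹ * b⁻¹ ∈ N := by
  obtain ⟨m, hm⟩ := hγ a
  obtain ⟨n, hn⟩ := hγ b
  rw [← QuotientGroup.eq_one_iff] at hm hn ⊢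
  simp only [QuotientGroup.mk_mul, QuotientGroup.mk_zpow, QuotientGroup.mk_inv] at hm hn ⊢
  have ha : (a : Γ ⧸ N) = ((γ : Γ ⧸ N) ^ m)⁻¹ := eq_inv_of_mul_eq_one_right hm
  have hb : (b : Γ ⧸ N) = ((γ : Γ ⧸ N) ^ n)⁻¹ := eq_inv_of_mul_eq_one_right hn
  rw [ha, hb]
  group

/-- (P4, G-asm) -/
theorem stmtAsm : StmtAsm := by
  intro _ hFind hFin p _ k _ _ _ Γ _ ρ N hyp ψ hψ hncob
  classical
  by_cases hZ : ∃ z ∈ N, ρ z = 1 ∧ ψ z ≠ 0
  · exact hFind p k Γ ρ N hyp ψ hψ hZ
  exfalso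
  push Not at hZ
  have := hyp.normal
  obtain ⟨γ, hγ⟩ := hyp.cyc
  -- `ψ` vanishes on `ker ρ`
  have hker : ∀ z, ρ z = 1 → ψ z = 0 := by
    intro z hz
    by_contra hne
    refine gsel_line_false p ρ N hyp (ψ z) hne (hψ.trace_zero z) (fun g => ⟨1, ?_⟩)
    rw [one_smul]
    have hc : g * z * g⁻¹ * z⁻¹ ∈ N := gasm_comm_mem N γ hγ g z
    have hcρ : ρ (g * z * g⁻¹ * z⁻¹) = 1 := by simp [hz]
    have hc0 := hZ _ hc hcρ
    have e : (g * z * g⁻¹ * z⁻¹) * (z * g) = g * z := by group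
    have h1 := hψ.map_mul g z
    have h2 := hψ.map_mul (g * z * g⁻¹ * z⁻¹) (z * g)
    have h3 := hψ.map_mul z g
    rw [e, hc0, hcρ, Units.val_one, gsel_act_one, zero_add, h3, hz, Units.val_one, gsel_act_one,
      h1] at h2
    exact add_left_cancel (a := ψ g) (by rw [h2, add_comm])
  -- `ψ` factors through `ρ`
  have hwd : ∀ σ τ, ρ σ = ρ τ → ψ σ = ψ τ := by
    intro σ τ h
    have hk : ρ (τ⁻¹ * σ) = 1 := by rw [map_mul, map_inv, h, inv_mul_cancel]
    have := hψ.map_mul τ (τ⁻¹ * σ)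
    rw [mul_inv_cancel_left, hker _ hk] at this
    rw [this, act, mul_zero, zero_mul, add_zero]
  set ψ' : GL (Fin 2) k → M2 k := fun g => if h : ∃ σ, ρ σ = g then ψ h.choose else 0 with hψ'
  have hψ'ρ : ∀ σ, ψ' (ρ σ) = ψ σ := by
    intro σ
    have h : ∃ τ, ρ τ = ρ σ := ⟨σ, rfl⟩
    simp only [hψ', dif_pos h]
    exact hwd _ _ h.choose_spec
  have hcoc : IsCocOn ρ.range ψ' := by
    refine ⟨?_, ?_⟩
    · rintro g ⟨σ, rfl⟩
      rw [hψ'ρ]
      exact hψ.trace_zero σ
    · rintro g ⟨σ, rfl⟩ h ⟨τ, rfl⟩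
      rw [← map_mul, hψ'ρ, hψ'ρ, hψ'ρ]
      exact hψ.map_mul σ τ
  have hfin : FinHyp p ρ.range := by
    refine ⟨hyp.odd, ?_, ?_, ?_, ?_⟩
    · rintro g ⟨σ, rfl⟩
      exact hyp.det_int σ
    · intro a ha
      obtain ⟨σ, hσ⟩ := hyp.det_surj a ha
      exact ⟨ρ σ, ⟨σ, rfl⟩, hσ⟩
    · rintro g ⟨σ, rfl⟩
      exact hyp.split σ
    · intro v hv hall
      exact hyp.irr ⊤ (Or.inl rfl) v hv (fun σ _ => hall (ρ σ) ⟨σ, rfl⟩)
  obtain ⟨m, hm, hcob⟩ := hFin p k ρ.range hfin ψ' hcoc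
  exact hncob ⟨m, hm, fun σ => by rw [← hψ'ρ]; exact hcob (ρ σ) ⟨σ, rfl⟩⟩

end Fermat.Agent.TW.G.Sel


end ZBTW_034_2

/-! ### bundled: `Fermat.Agent.TW.G.Syl` -/
section ZBTW_034_3

/-!
# TW-G / P6 G-syl (helper64): restriction to a subgroup of index prime to `p` is injective on
`H¹(G, ad⁰(1))`, for cocycles given as functions on `GL₂(k)`.
-/

set_option autoImplicit false

namespace Fermat.Agent.TW.G.Sel

open Matrix

variable {k : Type} [Field k]

theorem gsyl_act_add (g m n : M2 k) : act g (m + n) = act g m + act g n := by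
  simp [act, mul_add, add_mul]

theorem gsyl_act_sub (g m n : M2 k) : act g (m - n) = act g m - act g n := by
  simp [act, mul_sub, sub_mul]

theorem gsyl_act_neg (g m : M2 k) : act g (-m) = -act g m := by
  simp [act]

theorem gsyl_act_zero (g : M2 k) : act g (0 : M2 k) = 0 := by
  simp [act]

theorem gsyl_act_smul (g : M2 k) (c : k) (m : M2 k) : act g (c • m) = c • act g m := by
  simp [act]

theorem gsyl_act_mul (g h m : M2 k) : act (g * h) m = act g (act h m) := by
  simp only [act, Matrix.adjugate_mul_distrib, mul_assoc]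

theorem gsyl_act_one (m : M2 k) : act (1 : M2 k) m = m := by
  simp [act]

theorem gsyl_act_sum {ι : Type} (s : Finset ι) (g : M2 k) (f : ι → M2 k) :
    act g (∑ i ∈ s, f i) = ∑ i ∈ s, act g (f i) := by
  simp [act, Finset.mul_sum, Finset.sum_mul]

theorem gsyl_trace_act (g m : M2 k) : (act g m).trace = g.det * m.trace := by
  unfold act
  rw [Matrix.trace_mul_comm, ← mul_assoc, Matrix.adjugate_mul, Matrix.smul_mul, one_mul,
    Matrix.trace_smul, smul_eq_mul]

theorem gsyl_trace_act_zero (g m : M2 k) (hm : m.trace = 0) : (act g m).trace = 0 := by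
  rw [gsyl_trace_act, hm, mul_zero]

/-- Subtracting a coboundary from a cocycle gives a cocycle. -/
theorem gsyl_isCocOn_sub (G : Subgroup (GL (Fin 2) k)) (ψ : GL (Fin 2) k → M2 k)
    (hψ : IsCocOn G ψ) (m : M2 k) (hm : m.trace = 0) :
    IsCocOn G (fun g => ψ g - (act g.1 m - m)) := by
  refine ⟨fun g hg => ?_, fun g hg h hh => ?_⟩
  · simp only [Matrix.trace_sub, hψ.1 g hg, gsyl_trace_act_zero _ _ hm, hm, sub_zero]
  · simp only [hψ.2 g hg h hh, Units.val_mul, gsyl_act_mul, gsyl_act_sub]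
    abel

/-- A cocycle vanishing on `H` is constant on the left cosets of `H`. -/
theorem gsyl_const_coset (G H : Subgroup (GL (Fin 2) k)) (hHG : H ≤ G)
    (ψ : GL (Fin 2) k → M2 k) (hψ : IsCocOn G ψ) (h0 : ∀ h ∈ H, ψ h = 0)
    (g : GL (Fin 2) k) (hg : g ∈ G) (h : GL (Fin 2) k) (hh : h ∈ H) : ψ (g * h) = ψ g := by
  rw [hψ.2 g hg h (hHG hh), h0 h hh, gsyl_act_zero, add_zero]

/-- Averaging: a cocycle on `G` vanishing on a subgroup `H` of index invertible in `k` is a
coboundary. -/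
theorem gsyl_of_vanish (p : ℕ) [Fact p.Prime] [Finite k] [CharP k p]
    (G H : Subgroup (GL (Fin 2) k)) (hHG : H ≤ G) (hidx : ¬ p ∣ (H.subgroupOf G).index)
    (ψ : GL (Fin 2) k → M2 k) (hψ : IsCocOn G ψ) (h0 : ∀ h ∈ H, ψ h = 0) :
    IsCobOn G ψ := by
  classical
  haveI : Finite (GL (Fin 2) k) := inferInstance
  haveI : Fintype (↥G ⧸ H.subgroupOf G) := Fintype.ofFinite _
  -- the function induced on the cosets
  let f : (↥G ⧸ H.subgroupOf G) → M2 k :=
    Quotient.lift (s := QuotientGroup.leftRel (H.subgroupOf G)) (fun g : ↥G => ψ g.1) (by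
      intro a b hab
      have hab' : a⁻¹ * b ∈ H.subgroupOf G := QuotientGroup.leftRel_apply.mp hab
      have hb : (b : GL (Fin 2) k) = a.1 * (a⁻¹ * b : ↥G).1 := by
        simp
      show ψ a.1 = ψ b.1
      rw [hb]
      exact (gsyl_const_coset G H hHG ψ hψ h0 a.1 a.2 _ (Subgroup.mem_subgroupOf.mp hab')).symm)
  have hf : ∀ g : ↥G, f (QuotientGroup.mk g) = ψ g.1 := fun g => rfl
  set n : ℕ := (H.subgroupOf G).index with hn
  have hn0 : (n : k) ≠ 0 := by
    intro h
    exact hidx ((CharP.cast_eq_zero_iff k p n).mp h)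
  have hcard : Fintype.card (↥G ⧸ H.subgroupOf G) = n := by
    rw [hn, Subgroup.index, Nat.card_eq_fintype_card]
  set S : M2 k := ∑ y : ↥G ⧸ H.subgroupOf G, f y with hS
  have htrf : ∀ y, (f y).trace = 0 := by
    intro y
    induction y using QuotientGroup.induction_on with
    | H g => rw [hf]; exact hψ.1 g.1 g.2
  have hStr : S.trace = 0 := by
    rw [hS, Matrix.trace_sum]
    exact Finset.sum_eq_zero (fun y _ => htrf y)
  -- the key identity
  have key : ∀ x : ↥G, S = (n : k) • ψ x.1 + act x.1.1 S := by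
    intro x
    have h1 : ∀ y : ↥G ⧸ H.subgroupOf G, f (x • y) = ψ x.1 + act x.1.1 (f y) := by
      intro y
      induction y using QuotientGroup.induction_on with
      | H g =>
        have : x • (QuotientGroup.mk g : ↥G ⧸ H.subgroupOf G) = QuotientGroup.mk (x * g) := rfl
        rw [this, hf, hf]
        exact hψ.2 x.1 x.2 g.1 g.2
    have h2 : ∑ y : ↥G ⧸ H.subgroupOf G, f (x • y) = S := by
      rw [hS]
      exact Fintype.sum_equiv (MulAction.toPerm x) _ _ (fun y => rfl)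
    have h3 : ∑ y : ↥G ⧸ H.subgroupOf G, f (x • y) = (n : k) • ψ x.1 + act x.1.1 S := by
      simp only [h1, Finset.sum_add_distrib, Finset.sum_const, Finset.card_univ, hcard,
        ← gsyl_act_sum]
      rw [← Nat.cast_smul_eq_nsmul k]
    rw [← h3, h2]
  refine ⟨-((n : k)⁻¹ • S), ?_, fun g hg => ?_⟩
  · rw [Matrix.trace_neg, Matrix.trace_smul, hStr, smul_zero, neg_zero]
  · have hk := key ⟨g, hg⟩
    simp only at hk
    have h3 : (n : k) • ψ g = S - act g.1 S := by
      rw [eq_sub_iff_add_eq]; exact hk.symm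
    have h4 : ψ g = (n : k)⁻¹ • (S - act g.1 S) := by
      rw [← h3, smul_smul, inv_mul_cancel₀ hn0, one_smul]
    rw [h4, gsyl_act_neg, gsyl_act_smul, smul_sub]
    abel

/-- (P6, G-syl) -/
theorem stmtSyl : StmtSyl := by
  intro p _ k _ _ _ G H hHG hidx ψ hψ ⟨m, hm, hcob⟩
  have hcoc := gsyl_isCocOn_sub G ψ hψ m hm
  have h0 : ∀ h ∈ H, (fun g : GL (Fin 2) k => ψ g - (act g.1 m - m)) h = 0 := by
    intro h hh
    simp only [hcob h hh, sub_self]
  obtain ⟨m', hm', hcob'⟩ := gsyl_of_vanish p G H hHG hidx _ hcoc h0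
  refine ⟨m + m', by rw [Matrix.trace_add, hm, hm', add_zero], fun g hg => ?_⟩
  have := hcob' g hg
  simp only at this
  rw [gsyl_act_add]
  rw [sub_eq_iff_eq_add] at this
  rw [this]
  abel

end Fermat.Agent.TW.G.Sel


end ZBTW_034_3

/-! ### bundled: `Fermat.Agent.TW.G.Idx` -/
section ZBTW_034_4
/-
TW-G piece P6' G-idx (helper87): the upper unipotent elements of `G ≤ GL₂(k)` form a subgroup
of index prime to `p`, as soon as `u_1 ∈ G`.

Proof: `U` is a `p`-group; a Sylow `p`-subgroup `Q ⊇ U` of `G` is a `p`-group acting on `k²`,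
so it fixes a nonzero vector, which is fixed by `u_1`, hence a multiple of `e₁`; so every
element of `Q` is `[[1, b], [0, d]]`, and `d = det` has `p`-power order in `kˣ`, i.e. `d = 1`.
-/

set_option autoImplicit false
set_option linter.style.haveILetI false

namespace Fermat.Agent.TW.G.Sel

open Matrix

variable {k : Type} [Field k]

theorem gidx_uU_mul (x y : k) : uU x * uU y = uU (x + y) := by
  ext i j
  fin_cases i <;> fin_cases j <;> simp [uU, Matrix.mul_apply, Fin.sum_univ_two, add_comm]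

theorem gidx_uU_zero : uU (0 : k) = 1 := by
  ext i j
  fin_cases i <;> fin_cases j <;> simp [uU]

theorem gidx_uU_injective : Function.Injective (uU : k → M2 k) := by
  intro x y h
  have := congrFun (congrFun h 0) 1
  simpa [uU] using this

/-- The inverse of an upper unipotent element. -/
theorem gidx_inv_val (g : GL (Fin 2) k) (x : k) (h : g.1 = uU x) : (g⁻¹).1 = uU (-x) := by
  have h1 : (g⁻¹).1 * g.1 = 1 := by
    rw [← Units.val_mul, inv_mul_cancel, Units.val_one]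
  calc (g⁻¹).1 = (g⁻¹).1 * (uU x * uU (-x)) := by
        rw [gidx_uU_mul, add_neg_cancel, gidx_uU_zero, mul_one]
    _ = ((g⁻¹).1 * g.1) * uU (-x) := by rw [h, mul_assoc]
    _ = uU (-x) := by rw [h1, one_mul]

/-- The upper unipotent elements of `G`. -/
def gidxU (G : Subgroup (GL (Fin 2) k)) : Subgroup (GL (Fin 2) k) where
  carrier := {g | g ∈ G ∧ ∃ x, g.1 = uU x}
  mul_mem' := by
    rintro g h ⟨hg, x, hx⟩ ⟨hh, y, hy⟩
    exact ⟨G.mul_mem hg hh, x + y, by rw [Units.val_mul, hx, hy, gidx_uU_mul]⟩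
  one_mem' := ⟨G.one_mem, 0, by rw [Units.val_one, gidx_uU_zero]⟩
  inv_mem' := by
    rintro g ⟨hg, x, hx⟩
    exact ⟨G.inv_mem hg, -x, gidx_inv_val g x hx⟩

theorem gidx_mem_U (G : Subgroup (GL (Fin 2) k)) (g : GL (Fin 2) k) :
    g ∈ gidxU G ↔ g ∈ G ∧ ∃ x, g.1 = uU x := Iff.rfl

theorem gidxU_le (G : Subgroup (GL (Fin 2) k)) : gidxU G ≤ G := fun _ h => h.1

/-- powers of an upper unipotent element -/
theorem gidx_pow_val (g : GL (Fin 2) k) (x : k) (h : g.1 = uU x) (n : ℕ) :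
    (g ^ n).1 = uU (n * x) := by
  induction n with
  | zero => rw [pow_zero, Units.val_one, Nat.cast_zero, zero_mul, gidx_uU_zero]
  | succ n ih =>
    rw [pow_succ, Units.val_mul, ih, h, gidx_uU_mul]
    congr 1
    push_cast
    ring

/-- a matrix fixing `e₁` with determinant `1` is upper unipotent -/
theorem gidx_eq_uU_of_fix (g : M2 k) (h00 : g 0 0 = 1) (h10 : g 1 0 = 0) (hdet : g.det = 1) :
    g = uU (g 0 1) := by
  have h11 : g 1 1 = 1 := by
    rw [Matrix.det_fin_two, h00, h10, mul_zero, sub_zero, one_mul] at hdet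
    exact hdet
  ext i j
  fin_cases i <;> fin_cases j <;> simp [uU, h00, h10, h11]

theorem gidx_mulVec (M : M2 k) (b : Fin 2 → k) (i : Fin 2) :
    (M *ᵥ b) i = M i 0 * b 0 + M i 1 * b 1 := by
  simp [Matrix.mulVec, dotProduct, Fin.sum_univ_two]

/-- in characteristic `p`, an element of `p`-power order in `kˣ` is `1` -/
theorem gidx_eq_one_of_pow (p : ℕ) [Fact p.Prime] [CharP k p] (d : k) (n : ℕ)
    (h : d ^ p ^ n = 1) : d = 1 := by
  have h1 : (d - 1) ^ p ^ n = 0 := by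
    rw [sub_pow_char_pow, one_pow, h, sub_self]
  exact sub_eq_zero.mp (pow_eq_zero_iff (pow_ne_zero n (Fact.out : p.Prime).ne_zero) |>.mp h1)

/-- A `p`-subgroup of `GL₂(k)` containing `u_1` consists of upper unipotent matrices. -/
theorem gidx_pgroup_unipotent (p : ℕ) [Fact p.Prime] [Finite k] [CharP k p]
    (Q : Subgroup (GL (Fin 2) k)) (hQ : IsPGroup p Q) (g₁ : GL (Fin 2) k) (hg₁Q : g₁ ∈ Q)
    (hg₁ : g₁.1 = uU 1) (g : GL (Fin 2) k) (hg : g ∈ Q) : ∃ x, g.1 = uU x := by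
  classical
  letI : MulAction Q (Fin 2 → k) :=
    { smul := fun h v => (h.1.1 : M2 k) *ᵥ v
      one_smul := fun v => by
        show ((1 : Q).1.1 : M2 k) *ᵥ v = v
        simp
      mul_smul := fun a b v => by
        show ((a * b).1.1 : M2 k) *ᵥ v = (a.1.1 : M2 k) *ᵥ ((b.1.1 : M2 k) *ᵥ v)
        rw [Matrix.mulVec_mulVec]
        rfl }
  have hsmul : ∀ (h : Q) (v : Fin 2 → k), h • v = (h.1.1 : M2 k) *ᵥ v := fun _ _ => rfl
  have hp : p.Prime := Fact.out
  have hcard : p ∣ Nat.card (Fin 2 → k) := by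
    haveI := Fintype.ofFinite k
    obtain ⟨n, -, hn⟩ := FiniteField.card k p
    rw [Nat.card_eq_fintype_card, Fintype.card_fun, hn, Fintype.card_fin]
    exact dvd_pow (dvd_pow_self p n.ne_zero) (by norm_num)
  have h0 : (0 : Fin 2 → k) ∈ MulAction.fixedPoints Q (Fin 2 → k) := by
    intro h
    rw [hsmul, Matrix.mulVec_zero]
  obtain ⟨b, hb, hb0⟩ := hQ.exists_fixed_point_of_prime_dvd_card_of_fixed_point
    (α := Fin 2 → k) hcard h0
  -- `b = (b₀, 0)`
  have hb1 : b 1 = 0 := by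
    have h1 := hb ⟨g₁, hg₁Q⟩
    rw [hsmul] at h1
    have h2 := congrFun h1 0
    rw [gidx_mulVec] at h2
    have e00 : (g₁.1 : M2 k) 0 0 = 1 := by rw [hg₁]; simp [uU]
    have e01 : (g₁.1 : M2 k) 0 1 = 1 := by rw [hg₁]; simp [uU]
    change (g₁.1 : M2 k) 0 0 * b 0 + (g₁.1 : M2 k) 0 1 * b 1 = b 0 at h2
    rw [e00, e01, one_mul, one_mul] at h2
    exact left_eq_add.mp h2.symm
  have hb00 : b 0 ≠ 0 := by
    intro h
    apply hb0
    funext i
    fin_cases i
    · exact h.symm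
    · exact hb1.symm
  -- every `g ∈ Q` fixes `e₁`
  have h1 := hb ⟨g, hg⟩
  rw [hsmul] at h1
  have h00 : g.1 0 0 = 1 := by
    have h2 := congrFun h1 0
    rw [gidx_mulVec] at h2
    change g.1 0 0 * b 0 + g.1 0 1 * b 1 = b 0 at h2
    rw [hb1, mul_zero, add_zero] at h2
    exact mul_right_cancel₀ hb00 (by rw [h2, one_mul])
  have h10 : g.1 1 0 = 0 := by
    have h2 := congrFun h1 1
    rw [gidx_mulVec] at h2
    change g.1 1 0 * b 0 + g.1 1 1 * b 1 = b 1 at h2
    rw [hb1, mul_zero, add_zero] at h2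
    rcases mul_eq_zero.mp h2 with h3 | h3
    · exact h3
    · exact absurd h3 hb00
  -- determinant
  obtain ⟨n, hn⟩ := hQ ⟨g, hg⟩
  have hn' : g ^ p ^ n = 1 := by
    have := congrArg (fun x : Q => (x : GL (Fin 2) k)) hn
    simpa using this
  have hdet : g.1.det = 1 := by
    apply gidx_eq_one_of_pow p _ n
    rw [← Matrix.det_pow, ← Units.val_pow_eq_pow_val, hn', Units.val_one, Matrix.det_one]
  exact ⟨g.1 0 1, gidx_eq_uU_of_fix g.1 h00 h10 hdet⟩

/-- **P6' G-idx**. -/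
theorem stmtIdx : StmtIdx := by
  intro p _ k _ _ _ G hex
  obtain ⟨g₁, hg₁G, hg₁⟩ := hex
  classical
  refine ⟨gidxU G, gidxU_le G, fun g => Iff.rfl, ?_⟩
  haveI : Finite (GL (Fin 2) k) := Finite.of_injective (fun g : GL (Fin 2) k => g.1) Units.val_injective
  -- `U` is a `p`-group
  have hUp : IsPGroup p ((gidxU G).subgroupOf G) := by
    rintro ⟨⟨g, hgG⟩, hgU⟩
    obtain ⟨x, hx⟩ := ((Subgroup.mem_subgroupOf).mp hgU).2
    refine ⟨1, ?_⟩
    rw [pow_one]
    apply Subtype.ext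
    apply Subtype.ext
    apply Units.ext
    show (g ^ p).1 = 1
    rw [gidx_pow_val g x hx, CharP.cast_eq_zero, zero_mul, gidx_uU_zero]
  obtain ⟨Q, hQ⟩ := hUp.exists_le_sylow
  have hQle : (Q : Subgroup G) ≤ (gidxU G).subgroupOf G := by
    intro g hg
    rw [Subgroup.mem_subgroupOf]
    refine ⟨g.2, ?_⟩
    -- the image of `Q` in `GL₂(k)`
    have hQp : IsPGroup p ((Q : Subgroup G).map G.subtype) :=
      Q.isPGroup'.map G.subtype
    have hg₁Q : g₁ ∈ (Q : Subgroup G).map G.subtype := by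
      refine ⟨⟨g₁, hg₁G⟩, hQ ?_, rfl⟩
      rw [Subgroup.mem_subgroupOf]
      exact ⟨hg₁G, 1, hg₁⟩
    exact gidx_pgroup_unipotent p _ hQp g₁ hg₁Q hg₁ g.1 ⟨g, hg, rfl⟩
  have heq : (gidxU G).subgroupOf G = Q := le_antisymm hQ hQle
  rw [heq]
  exact Q.not_dvd_index

end Fermat.Agent.TW.G.Sel


end ZBTW_034_4

/-! ### bundled: `Fermat.Agent.TW.G.Frattini` -/
section ZBTW_034_5
/-
TW-G piece P8 G-frattini (helper87): every determinant of `G ≤ GL₂(k)` is the determinant of an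
upper triangular element of `G`, as soon as `u_1 ∈ G`.

Proof: Frattini's argument.  `G₁ = G ∩ SL₂` is normal in `G`, the upper unipotent elements form
a Sylow `p`-subgroup `U` of `G₁` (`gidx_pgroup_unipotent`), so `G = N_G(U) · G₁`; an element
normalising `U` maps the unique line fixed by `u_1` to a line fixed by some `u_y ≠ 1`, i.e. to
itself, so it is upper triangular.
-/

set_option autoImplicit false
set_option linter.style.haveILetI false

namespace Fermat.Agent.TW.G.Sel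

open Matrix

variable {k : Type} [Field k]

/-- `t u_1 = u_y t` with `y ≠ 0` forces `t` to be upper triangular. -/
theorem gfrat_upper_of_conj (t : M2 k) (y : k) (hy : y ≠ 0) (h : t * uU 1 = uU y * t) :
    t 1 0 = 0 := by
  have h1 := congrFun (congrFun h 0) 0
  simp [uU, Matrix.mul_apply, Fin.sum_univ_two] at h1
  rcases h1 with h1 | h1
  · exact absurd h1 hy
  · exact h1

/-- **P8 G-frattini**. -/
theorem stmtFrattini : StmtFrattini := by
  intro p _ k _ _ _ G hex g hg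
  obtain ⟨g₁, hg₁G, hg₁⟩ := hex
  classical
  haveI : Finite (GL (Fin 2) k) :=
    Finite.of_injective (fun g : GL (Fin 2) k => g.1) Units.val_injective
  -- the determinant on `G` and its kernel `N`
  let φ : G →* kˣ := (Matrix.GeneralLinearGroup.det).comp G.subtype
  have hφ : ∀ x : G, ((φ x : kˣ) : k) = x.1.1.det := fun x => rfl
  -- the upper unipotent elements of `N`
  let UN : Subgroup φ.ker := ((gidxU G).subgroupOf G).subgroupOf φ.ker
  have hUNp : IsPGroup p UN := by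
    rintro ⟨⟨⟨u, huG⟩, huN⟩, huU⟩
    have huU' : u ∈ gidxU G := huU
    obtain ⟨x, hx⟩ := huU'.2
    refine ⟨1, ?_⟩
    rw [pow_one]
    apply Subtype.ext
    apply Subtype.ext
    apply Subtype.ext
    apply Units.ext
    show (u ^ p).1 = 1
    rw [gidx_pow_val u x hx, CharP.cast_eq_zero, zero_mul, gidx_uU_zero]
  obtain ⟨Q, hQ⟩ := hUNp.exists_le_sylow
  -- the image of `Q` in `GL₂(k)` is a `p`-group containing `u_1`
  let Q' : Subgroup (GL (Fin 2) k) := ((Q : Subgroup φ.ker).map φ.ker.subtype).map G.subtype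
  have hQ'p : IsPGroup p Q' := (Q.isPGroup'.map φ.ker.subtype).map G.subtype
  have hg₁N : (⟨g₁, hg₁G⟩ : G) ∈ φ.ker := by
    rw [MonoidHom.mem_ker]
    apply Units.ext
    rw [hφ, Units.val_one]
    show g₁.1.det = 1
    rw [hg₁]
    simp [uU, Matrix.det_fin_two]
  have hg₁Q : (⟨⟨g₁, hg₁G⟩, hg₁N⟩ : φ.ker) ∈ (Q : Subgroup φ.ker) := by
    apply hQ
    show g₁ ∈ gidxU G
    exact ⟨hg₁G, 1, hg₁⟩
  have hg₁Q' : g₁ ∈ Q' :=
    Subgroup.mem_map_of_mem G.subtype
      (Subgroup.mem_map_of_mem φ.ker.subtype hg₁Q)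
  -- Frattini
  have hfrat := Sylow.normalizer_sup_eq_top Q
  have hmem : (⟨g, hg⟩ : G) ∈
      Subgroup.normalizer (((Q : Subgroup φ.ker).map φ.ker.subtype : Subgroup G) : Set G)
        ⊔ φ.ker := by
    rw [hfrat]
    exact Subgroup.mem_top _
  obtain ⟨t, ht, h, hh, hth⟩ := Subgroup.mem_sup_of_normal_right.mp hmem
  refine ⟨t.1, t.2, ?_, ?_⟩
  · -- `t` is upper triangular
    have h1 : t * ⟨g₁, hg₁G⟩ * t⁻¹ ∈ (Q : Subgroup φ.ker).map φ.ker.subtype :=
      (Subgroup.mem_normalizer_iff.mp ht _).mp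
        (Subgroup.mem_map_of_mem φ.ker.subtype hg₁Q)
    have h2 : t.1 * g₁ * t.1⁻¹ ∈ Q' := by
      have h3 := Subgroup.mem_map_of_mem G.subtype h1
      rw [map_mul, map_mul, map_inv] at h3
      exact h3
    obtain ⟨y, hy⟩ := gidx_pgroup_unipotent p Q' hQ'p g₁ hg₁Q' hg₁ _ h2
    have hy0 : y ≠ 0 := by
      rintro rfl
      rw [gidx_uU_zero] at hy
      have h3 : t.1 * g₁ * t.1⁻¹ = 1 := Units.ext hy
      have h4 : g₁ = 1 := by
        have := congrArg (fun z => t.1⁻¹ * z * t.1) h3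
        simpa [mul_assoc] using this
      rw [h4, Units.val_one] at hg₁
      have := congrFun (congrFun hg₁ 0) 1
      simp [uU] at this
    apply gfrat_upper_of_conj t.1.1 y hy0
    rw [← hg₁, ← hy]
    rw [← Units.val_mul, ← Units.val_mul]
    congr 1
    group
  · -- determinants
    have h1 : φ (t * h) = φ ⟨g, hg⟩ := by rw [hth]
    rw [map_mul, MonoidHom.mem_ker.mp hh, mul_one] at h1
    have h2 := congrArg (fun u : kˣ => (u : k)) h1
    exact h2

end Fermat.Agent.TW.G.Sel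


end ZBTW_034_5

/-! ### bundled: `Fermat.Agent.TW.G.BorelBasic` -/
section ZBTW_034_6

/-!
# TW-G / P7 (helper41): basic matrix computations for the Borel pieces

Shared by `BorelU.lean` (P7a) and `BorelT.lean` (P7b).  Names `gbb_*`.  Mathlib only.
-/

set_option autoImplicit false

namespace Fermat.Agent.TW.G.Sel

open Matrix

variable {k : Type} [Field k]

/-- the twisted adjoint action of an upper triangular matrix, in coordinates -/
theorem gbb_act_upper (a b d p q r s : k) :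
    act (!![a, b; 0, d] : M2 k) !![p, q; r, s] =
      !![(a * p + b * r) * d, (a * q + b * s) * a - (a * p + b * r) * b;
         d * d * r, d * s * a - d * r * b] := by
  ext i j
  fin_cases i <;> fin_cases j <;>
    simp [act, Matrix.adjugate_fin_two, Matrix.mul_apply, Fin.sum_univ_two] <;> ring

theorem gbb_uU_mul (x y : k) : uU x * uU y = uU (x + y) := by
  ext i j
  fin_cases i <;> fin_cases j <;>
    simp [uU, Matrix.mul_apply, Fin.sum_univ_two, add_comm]

theorem gbb_uU_zero : uU (0 : k) = 1 := by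
  ext i j
  fin_cases i <;> fin_cases j <;> simp [uU]

/-- the unit of `GL₂(k)` with matrix `u_x` -/
def gbbU (x : k) : GL (Fin 2) k :=
  ⟨uU x, uU (-x), by rw [gbb_uU_mul, add_neg_cancel, gbb_uU_zero],
    by rw [gbb_uU_mul, neg_add_cancel, gbb_uU_zero]⟩

@[simp] theorem gbbU_val (x : k) : (gbbU x).1 = uU x := rfl

theorem gbbU_mul (x y : k) : gbbU x * gbbU y = gbbU (x + y) :=
  Units.ext (gbb_uU_mul x y)

theorem gbbU_zero : gbbU (0 : k) = 1 := Units.ext gbb_uU_zero

theorem gbb_eq_gbbU {g : GL (Fin 2) k} {x : k} (h : g.1 = uU x) : g = gbbU x :=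
  Units.ext h

theorem gbb_mem_of_xset {G : Subgroup (GL (Fin 2) k)} {x : k} (hx : x ∈ Xset G) :
    gbbU x ∈ G := by
  obtain ⟨g, hg, hgx⟩ := hx
  rwa [← gbb_eq_gbbU hgx]

theorem gbb_xset_of_mem {G : Subgroup (GL (Fin 2) k)} {x : k} (hx : gbbU x ∈ G) :
    x ∈ Xset G := ⟨gbbU x, hx, rfl⟩

theorem gbb_xset_add {G : Subgroup (GL (Fin 2) k)} {x y : k} (hx : x ∈ Xset G)
    (hy : y ∈ Xset G) : x + y ∈ Xset G := by
  apply gbb_xset_of_mem
  rw [← gbbU_mul]
  exact G.mul_mem (gbb_mem_of_xset hx) (gbb_mem_of_xset hy)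

theorem gbb_xset_zero (G : Subgroup (GL (Fin 2) k)) : (0 : k) ∈ Xset G := by
  apply gbb_xset_of_mem
  rw [gbbU_zero]
  exact G.one_mem

theorem gbb_xset_one {G : Subgroup (GL (Fin 2) k)} (h : ∃ g ∈ G, g.1 = uU 1) :
    (1 : k) ∈ Xset G := h

/-- a trace-zero matrix in coordinates -/
theorem gbb_eta (m : M2 k) (h : m.trace = 0) : m = !![m 0 0, m 0 1; m 1 0, - m 0 0] := by
  have h11 : m 1 1 = - m 0 0 := by
    rw [Matrix.trace_fin_two] at h
    linear_combination h
  ext i j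
  fin_cases i <;> fin_cases j <;> simp [h11]

theorem gbb_act_one (m : M2 k) : act (1 : M2 k) m = m := by
  simp [act]

theorem gbb_psi_one {G : Subgroup (GL (Fin 2) k)} {ψ : GL (Fin 2) k → M2 k}
    (h : IsCocOn G ψ) : ψ 1 = 0 := by
  have := h.2 1 G.one_mem 1 G.one_mem
  rw [mul_one, Units.val_one, gbb_act_one] at this
  exact left_eq_add.mp this

/-- the action of `u_x` on a trace-zero matrix, in coordinates -/
theorem gbb_act_uU (x p q r : k) :
    act (uU x) (!![p, q; r, -p] : M2 k) =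
      !![p + x * r, q - 2 * x * p - x ^ 2 * r; r, -(p + x * r)] := by
  have := gbb_act_upper (1 : k) x 1 p q r (-p)
  rw [show (uU x : M2 k) = !![1, x; 0, 1] from rfl, this]
  ext i j
  fin_cases i <;> fin_cases j <;> simp <;> ring

/-- the cocycle relation on the upper unipotent elements, in coordinates -/
theorem gbb_coc_uU {G : Subgroup (GL (Fin 2) k)} {ψ : GL (Fin 2) k → M2 k}
    (h : IsCocOn G ψ) {x y : k} (hx : x ∈ Xset G) (hy : y ∈ Xset G) :
    ψ (gbbU (x + y)) 1 0 = ψ (gbbU x) 1 0 + ψ (gbbU y) 1 0 ∧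
    ψ (gbbU (x + y)) 0 0 = ψ (gbbU x) 0 0 + ψ (gbbU y) 0 0 + x * ψ (gbbU y) 1 0 ∧
    ψ (gbbU (x + y)) 0 1 = ψ (gbbU x) 0 1 + ψ (gbbU y) 0 1 - 2 * x * ψ (gbbU y) 0 0
      - x ^ 2 * ψ (gbbU y) 1 0 := by
  have hgx := gbb_mem_of_xset hx
  have hgy := gbb_mem_of_xset hy
  have key := h.2 _ hgx _ hgy
  rw [gbbU_mul, gbbU_val, gbb_eta (ψ (gbbU y)) (h.1 _ hgy), gbb_act_uU] at key
  refine ⟨?_, ?_, ?_⟩
  · have := congrFun (congrFun key 1) 0
    simpa using this
  · have := congrFun (congrFun key 0) 0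
    simp at this
    rw [this]; ring
  · have := congrFun (congrFun key 0) 1
    simp at this
    rw [this]; ring

end Fermat.Agent.TW.G.Sel


end ZBTW_034_6

/-! ### bundled: `Fermat.Agent.TW.G.BorelU` -/
section ZBTW_034_7

/-!
# TW-G / P7a G-borel-1 (helper41): normal form of a cocycle on the upper unipotent subgroup

`stmtBorelU : StmtBorelU`.  For `x ∈ X = Xset G` write `ψ(u_x) = α(x) e + β(x) h + γ(x) f`.
The cocycle rule gives `γ` additive, `β(x+y) = β(x) + β(y) + x γ(y)`,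
`α(x+y) = α(x) + α(y) − 2xβ(y) − x²γ(y)`; symmetry in `(x, y)` and `1 ∈ X` give `γ = c x`,
`β = c x²/2 + b x`, and `α + c x³/3 + b x²` additive (`p = 3` forces `c = 0`).
Names `gbu_*`.  Mathlib only.
-/

set_option autoImplicit false

namespace Fermat.Agent.TW.G.Sel

open Matrix

variable {k : Type} [Field k]

/-- abstract form of the computation: three functions on an additive set `X ∋ 1`;
`i2` is the inverse of `2`. -/
theorem gbu_shape (i2 : k) (h2i : 2 * i2 = 1) (X : Set k) (h1 : (1 : k) ∈ X)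
    (A B C : k → k)
    (hB : ∀ x ∈ X, ∀ y ∈ X, B (x + y) = B x + B y + x * C y)
    (hA : ∀ x ∈ X, ∀ y ∈ X, A (x + y) = A x + A y - 2 * x * B y - x ^ 2 * C y) :
    (∀ x ∈ X, C x = C 1 * x) ∧
    (∀ x ∈ X, B x = C 1 * x ^ 2 * i2 + (B 1 - C 1 * i2) * x) ∧
    (∀ x ∈ X, ∀ y ∈ X, A (x + y) = A x + A y - C 1 * (x * y * (x + y))
      - 2 * (B 1 - C 1 * i2) * (x * y)) := by
  have hCx : ∀ x ∈ X, C x = C 1 * x := by
    intro x hx
    have e1 := hB x hx 1 h1
    have e2 := hB 1 h1 x hx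
    rw [add_comm 1 x] at e2
    linear_combination e1 - e2
  have hBx : ∀ x ∈ X, B x = C 1 * x ^ 2 * i2 + (B 1 - C 1 * i2) * x := by
    intro x hx
    have e1 := hA x hx 1 h1
    have e2 := hA 1 h1 x hx
    rw [add_comm 1 x] at e2
    rw [hCx x hx] at e2
    linear_combination i2 * (e2 - e1) - (B x - B 1 * x) * h2i
  refine ⟨hCx, hBx, ?_⟩
  intro x hx y hy
  rw [hA x hx y hy, hBx y hy, hCx y hy]
  linear_combination (-(C 1 * x * y ^ 2)) * h2i

/-- in characteristic `3` the cubic term vanishes -/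
theorem gbu_char_three (i2 : k) (h2i : 2 * i2 = 1) (h3 : (3 : k) = 0) (X : Set k)
    (h1 : (1 : k) ∈ X) (hadd : ∀ x ∈ X, ∀ y ∈ X, x + y ∈ X)
    (A B C : k → k) (hA0 : A 0 = 0)
    (hB : ∀ x ∈ X, ∀ y ∈ X, B (x + y) = B x + B y + x * C y)
    (hA : ∀ x ∈ X, ∀ y ∈ X, A (x + y) = A x + A y - 2 * x * B y - x ^ 2 * C y) :
    C 1 = 0 := by
  obtain ⟨-, -, hA'⟩ := gbu_shape i2 h2i X h1 A B C hB hA
  have h11 : (1 : k) + 1 ∈ X := hadd 1 h1 1 h1
  have e1 := hA' 1 h1 1 h1
  have e2 := hA' (1 + 1) h11 1 h1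
  have e3 : (1 : k) + 1 + 1 = 0 := by linear_combination h3
  rw [e3, hA0] at e2
  rw [e1] at e2
  generalize B 1 - C 1 * i2 = b at e2
  linear_combination (-C 1) * h2i + i2 * e2 + (A 1 - 2 * b) * i2 * h3

/-- (P7a, G-borel-1) normal form of a cocycle on the upper unipotent subgroup. -/
theorem stmtBorelU : StmtBorelU := by
  intro p _ k _ _ _ hp2 G hG ψ hψ
  have h2 : (2 : k) ≠ 0 := by
    intro h
    have h' : ((2 : ℕ) : k) = 0 := by exact_mod_cast h
    rw [CharP.cast_eq_zero_iff k p] at h'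
    have hp : p.Prime := Fact.out
    have := (Nat.prime_dvd_prime_iff_eq hp Nat.prime_two).mp h'
    exact hp2 this
  have h2i : (2 : k) * (2 : k)⁻¹ = 1 := mul_inv_cancel₀ h2
  have h1 : (1 : k) ∈ Xset G := gbb_xset_one hG
  have hadd : ∀ x ∈ Xset G, ∀ y ∈ Xset G, x + y ∈ Xset G :=
    fun x hx y hy => gbb_xset_add hx hy
  have hB : ∀ x ∈ Xset G, ∀ y ∈ Xset G, ψ (gbbU (x + y)) 0 0 =
      ψ (gbbU x) 0 0 + ψ (gbbU y) 0 0 + x * ψ (gbbU y) 1 0 :=
    fun x hx y hy => (gbb_coc_uU hψ hx hy).2.1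
  have hA : ∀ x ∈ Xset G, ∀ y ∈ Xset G, ψ (gbbU (x + y)) 0 1 =
      ψ (gbbU x) 0 1 + ψ (gbbU y) 0 1 - 2 * x * ψ (gbbU y) 0 0 - x ^ 2 * ψ (gbbU y) 1 0 :=
    fun x hx y hy => (gbb_coc_uU hψ hx hy).2.2
  have hA0 : ψ (gbbU (0 : k)) 0 1 = 0 := by
    rw [gbbU_zero, gbb_psi_one hψ]
    rfl
  obtain ⟨hCx, hBx, hA'⟩ := gbu_shape (2 : k)⁻¹ h2i (Xset G) h1
    (fun x => ψ (gbbU x) 0 1) (fun x => ψ (gbbU x) 0 0) (fun x => ψ (gbbU x) 1 0) hB hA
  have hc3 : ψ (gbbU (1 : k)) 1 0 = 0 ∨ (3 : k) ≠ 0 := by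
    by_cases h3 : (3 : k) = 0
    · exact Or.inl (gbu_char_three (2 : k)⁻¹ h2i h3 (Xset G) h1 hadd
        (fun x => ψ (gbbU x) 0 1) (fun x => ψ (gbbU x) 0 0) (fun x => ψ (gbbU x) 1 0)
        hA0 hB hA)
    · exact Or.inr h3
  generalize hc : ψ (gbbU (1 : k)) 1 0 = c at hCx hBx hA' hc3
  generalize hb : ψ (gbbU (1 : k)) 0 0 - c * (2 : k)⁻¹ = b at hBx hA'
  refine ⟨b • eF, c, fun x => ψ (gbbU x) 0 1 + c * (x ^ 3 / 3) + b * x ^ 2, ?_, hc3, ?_, ?_⟩
  · simp [eF, Matrix.trace_fin_two]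
  · intro x hx y hy
    show ψ (gbbU (x + y)) 0 1 + c * ((x + y) ^ 3 / 3) + b * (x + y) ^ 2 =
      ψ (gbbU x) 0 1 + c * (x ^ 3 / 3) + b * x ^ 2 +
        (ψ (gbbU y) 0 1 + c * (y ^ 3 / 3) + b * y ^ 2)
    rw [hA' x hx y hy]
    rcases hc3 with h0 | h3
    · rw [h0]; ring
    · have h3i : (3 : k) * (3 : k)⁻¹ = 1 := mul_inv_cancel₀ h3
      simp only [div_eq_mul_inv]
      linear_combination (c * x * y * (x + y)) * h3i
  · intro g hg x hgx
    have hxX : x ∈ Xset G := ⟨g, hg, hgx⟩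
    have hgU : g = gbbU x := gbb_eq_gbbU hgx
    have htr : (ψ (gbbU x)).trace = 0 := hψ.1 _ (gbb_mem_of_xset hxX)
    have hBx' := hBx x hxX
    have hCx' := hCx x hxX
    have hm : (b • eF : M2 k) = !![0, 0; b, -0] := by
      ext i j
      fin_cases i <;> fin_cases j <;> simp [eF]
    rw [hgx, hgU, gbb_eta _ htr, hm, gbb_act_uU, hBx', hCx']
    ext i j
    fin_cases i <;> fin_cases j <;> simp [eE, eH, eF, div_eq_mul_inv] <;> ring

end Fermat.Agent.TW.G.Sel


end ZBTW_034_7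

/-! ### bundled: `Fermat.Agent.TW.G.BorelT` -/
section ZBTW_034_8

/-!
# TW-G / P7b G-borel-2 (helper41): invariance of the class on `U` under the Borel subgroup

`stmtBorelT : StmtBorelT`.  For `t = [[a,b],[0,d]] ∈ G` and `u = u_x ∈ G` one has
`t u t⁻¹ = u_{(a/d)x}` and `ψ(t u t⁻¹) + (t u t⁻¹)⋆ψ(t) = ψ(t) + t⋆ψ(u)`.
The `f`-component gives `c (a − d³) = 0`; if `c = 0` the `h`-component gives `ψ(t)_f = 0` and
the `e`-component gives `α((a/d)x) = a² α(x) + l x` with `l = 2 ψ(t)_h a/d`.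
Names `gbt_*`.  Mathlib only.
-/

set_option autoImplicit false

namespace Fermat.Agent.TW.G.Sel

open Matrix

variable {k : Type} [Field k]

/-- the normal form of `ψ(u_x)` as an explicit matrix -/
theorem gbt_form (c x ax : k) :
    c • (x • eF + (x ^ 2 / 2) • eH - (x ^ 3 / 3) • eE) + ax • eE =
      (!![c * (x ^ 2 / 2), ax - c * (x ^ 3 / 3); c * x, -(c * (x ^ 2 / 2))] : M2 k) := by
  ext i j
  fin_cases i <;> fin_cases j <;> simp [eE, eH, eF]
  ring

/-- an upper triangular invertible matrix in coordinates -/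
theorem gbt_upper (t : GL (Fin 2) k) (h : t.1 1 0 = 0) :
    t.1 = !![t.1 0 0, t.1 0 1; 0, t.1 1 1] ∧ t.1 0 0 ≠ 0 ∧ t.1 1 1 ≠ 0 := by
  have e : t.1 = !![t.1 0 0, t.1 0 1; 0, t.1 1 1] := by
    ext i j
    fin_cases i <;> fin_cases j <;> simp [h]
  have hdet : t.1.det ≠ 0 := by
    have := Matrix.isUnits_det_units t
    exact this.ne_zero
  rw [Matrix.det_fin_two, h, mul_zero, sub_zero] at hdet
  exact ⟨e, left_ne_zero_of_mul hdet, right_ne_zero_of_mul hdet⟩

/-- conjugation of `u_x` by an upper triangular element -/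
theorem gbt_conj {G : Subgroup (GL (Fin 2) k)} (t : GL (Fin 2) k) (ht : t ∈ G)
    (h : t.1 1 0 = 0) {x : k} (hx : x ∈ Xset G) :
    gbbU (t.1 0 0 / t.1 1 1 * x) ∈ G ∧ gbbU (t.1 0 0 / t.1 1 1 * x) * t = t * gbbU x := by
  obtain ⟨e, ha, hd⟩ := gbt_upper t h
  have hcomm : gbbU (t.1 0 0 / t.1 1 1 * x) * t = t * gbbU x := by
    apply Units.ext
    rw [Units.val_mul, Units.val_mul, gbbU_val, gbbU_val]
    generalize t.1 0 0 = a at *
    generalize t.1 0 1 = b at *
    generalize t.1 1 1 = d at *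
    rw [e]
    ext i j
    fin_cases i <;> fin_cases j <;> simp [uU, Matrix.mul_apply, Fin.sum_univ_two]
    field_simp
    ring
  refine ⟨?_, hcomm⟩
  have : gbbU (t.1 0 0 / t.1 1 1 * x) = t * gbbU x * t⁻¹ := by
    rw [← hcomm, mul_assoc, mul_inv_cancel, mul_one]
  rw [this]
  exact G.mul_mem (G.mul_mem ht (gbb_mem_of_xset hx)) (G.inv_mem ht)

/-- the three coordinate equations of the cocycle rule for `t u_x = u_{x'} t` -/
theorem gbt_entries {G : Subgroup (GL (Fin 2) k)} {ψ : GL (Fin 2) k → M2 k}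
    (hψ : IsCocOn G ψ) (c : k) (α : k → k)
    (hform : ∀ g ∈ G, ∀ x : k, g.1 = uU x →
        ψ g = c • (x • eF + (x ^ 2 / 2) • eH - (x ^ 3 / 3) • eE) + α x • eE)
    (t : GL (Fin 2) k) (ht : t ∈ G) (h : t.1 1 0 = 0) {x : k} (hx : x ∈ Xset G) :
    c * (t.1 0 0 / t.1 1 1 * x) = t.1 1 1 * t.1 1 1 * (c * x) ∧
    (c = 0 → (t.1 0 0 / t.1 1 1 * x) * ψ t 1 0 = 0 ∧
      α (t.1 0 0 / t.1 1 1 * x) = t.1 0 0 ^ 2 * α x
        + 2 * (t.1 0 0 / t.1 1 1 * x) * ψ t 0 0
        + (t.1 0 0 / t.1 1 1 * x) ^ 2 * ψ t 1 0) := by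
  obtain ⟨e, ha, hd⟩ := gbt_upper t h
  obtain ⟨hmem, hcomm⟩ := gbt_conj t ht h hx
  have hgx := gbb_mem_of_xset hx
  have k1 := hψ.2 _ ht _ hgx
  have k2 := hψ.2 _ hmem _ ht
  rw [hcomm] at k2
  have key := k2.symm.trans k1
  rw [hform _ hmem _ rfl, hform _ hgx _ rfl, gbt_form, gbt_form, gbbU_val,
    gbb_eta (ψ t) (hψ.1 _ ht), gbb_act_uU] at key
  generalize ψ t 0 0 = τh at key ⊢
  generalize ψ t 0 1 = τe at key ⊢
  generalize ψ t 1 0 = τf at key ⊢
  generalize α (t.1 0 0 / t.1 1 1 * x) = αx' at key ⊢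
  generalize α x = αx at key ⊢
  generalize t.1 0 0 / t.1 1 1 * x = x' at key ⊢
  rw [e, gbb_act_upper] at key
  have e10 := congrFun (congrFun key 1) 0
  have e00 := congrFun (congrFun key 0) 0
  have e01 := congrFun (congrFun key 0) 1
  simp at e10 e00 e01
  refine ⟨?_, ?_⟩
  · linear_combination e10
  · intro hc
    subst hc
    simp at e00 e01
    refine ⟨?_, ?_⟩
    · exact mul_eq_zero.mpr e00
    · linear_combination e01

/-- (P7b, G-borel-2) invariance of the class on `U` under the upper triangular elements. -/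
theorem stmtBorelT : StmtBorelT := by
  intro p _ k _ _ _ _ G hG ψ hψ c α hform t ht h
  obtain ⟨e, ha, hd⟩ := gbt_upper t h
  have h1 : (1 : k) ∈ Xset G := gbb_xset_one hG
  refine ⟨?_, ?_⟩
  · have := (gbt_entries hψ c α hform t ht h h1).1
    field_simp at this
    linear_combination this
  · intro hc
    have hτf : ψ t 1 0 = 0 := by
      have := ((gbt_entries hψ c α hform t ht h h1).2 hc).1
      rw [mul_one] at this
      rcases mul_eq_zero.mp this with h0 | h0
      · exact absurd h0 (div_ne_zero ha hd)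
      · exact h0
    refine ⟨2 * (t.1 0 0 / t.1 1 1) * ψ t 0 0, ?_⟩
    intro x hx
    have := ((gbt_entries hψ c α hform t ht h hx).2 hc).2
    rw [this, hτf]
    ring

end Fermat.Agent.TW.G.Sel


end ZBTW_034_8

/-! ### bundled: `Fermat.Agent.TW.G.Norm` -/
section ZBTW_034_9

/-!
# TW-G / P5 G-norm (helper41): conjugation invariance and normalisation

`stmtNorm : StmtNorm`, i.e. `StmtSyl → StmtFinNorm → StmtFin`.
If `p ∤ |G|`, apply `StmtSyl` with `H = ⊥`.  Otherwise `G` has an element `g₀` of order `p`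
(Cauchy); `g₀ − 1` is nilpotent, so `g₀ P = P u_1` for an explicit invertible `P`; transport
`G` and `ψ` by `P` (`act (h g h⁻¹) (h m h⁻¹) = h (act g m) h⁻¹`) and apply `StmtFinNorm`.
Names `gnorm_*`.  Mathlib only.
-/

set_option autoImplicit false

namespace Fermat.Agent.TW.G.Sel

open Matrix Polynomial

variable {k : Type} [Field k]

theorem gnorm_adj_unit (h : GL (Fin 2) k) : h.1.adjugate = h.1.det • h⁻¹.1 := by
  have h1 : h.1.adjugate * h.1 = h.1.det • (1 : M2 k) := Matrix.adjugate_mul h.1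
  calc h.1.adjugate = h.1.adjugate * (h.1 * h⁻¹.1) := by
        rw [← Units.val_mul, mul_inv_cancel, Units.val_one, mul_one]
    _ = (h.1.adjugate * h.1) * h⁻¹.1 := by rw [mul_assoc]
    _ = h.1.det • h⁻¹.1 := by rw [h1, Matrix.smul_mul, one_mul]

theorem gnorm_det_inv_mul (h : GL (Fin 2) k) : h⁻¹.1.det * h.1.det = 1 := by
  rw [← Matrix.det_mul, ← Units.val_mul, inv_mul_cancel, Units.val_one, Matrix.det_one]

/-- the twisted adjoint action commutes with (untwisted) conjugation -/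
theorem gnorm_act_conj (h : GL (Fin 2) k) (g m : M2 k) :
    act (h.1 * g * h⁻¹.1) (h.1 * m * h⁻¹.1) = h.1 * act g m * h⁻¹.1 := by
  have e1 : h⁻¹.1 * h.1 = 1 := by rw [← Units.val_mul, inv_mul_cancel, Units.val_one]
  have e2 : (h.1 * g * h⁻¹.1).adjugate = h.1 * g.adjugate * h⁻¹.1 := by
    rw [Matrix.adjugate_mul_distrib, Matrix.adjugate_mul_distrib, gnorm_adj_unit h,
      gnorm_adj_unit h⁻¹, inv_inv]
    simp only [Matrix.smul_mul, Matrix.mul_smul, smul_smul]
    have e3 : h.1.det * h⁻¹.1.det = 1 := by rw [mul_comm]; exact gnorm_det_inv_mul h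
    rw [e3, one_smul, mul_assoc]
  unfold act
  rw [e2]
  calc h.1 * g * h⁻¹.1 * (h.1 * m * h⁻¹.1) * (h.1 * g.adjugate * h⁻¹.1)
      = h.1 * g * (h⁻¹.1 * h.1) * m * (h⁻¹.1 * h.1) * g.adjugate * h⁻¹.1 := by
        simp only [mul_assoc]
    _ = h.1 * (g * m * g.adjugate) * h⁻¹.1 := by
        rw [e1]; simp only [mul_one, mul_assoc]

/-- an element of order `p` of `GL₂(k)` is conjugate to `u_1` -/
theorem gnorm_conj_uU (p : ℕ) [Fact p.Prime] [CharP k p] (g : GL (Fin 2) k)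
    (hg1 : g ≠ 1) (hgp : g ^ p = 1) :
    ∃ P : GL (Fin 2) k, g * P = P * gbbU 1 := by
  -- `N = g − 1` is nilpotent
  have hgp' : g.1 ^ p = 1 := by
    rw [← Units.val_pow_eq_pow_val, hgp, Units.val_one]
  have hN : (g.1 - 1) ^ p = 0 := by
    rw [sub_pow_char_of_commute p (Commute.one_right g.1), hgp', one_pow, sub_self]
  have hnil : IsNilpotent (g.1 - 1) := ⟨p, hN⟩
  have htr : (g.1 - 1).trace = 0 :=
    (Matrix.isNilpotent_trace_of_isNilpotent hnil).eq_zero
  have hdet : (g.1 - 1).det = 0 := by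
    have h0 : (g.1 - 1).det ^ p = 0 := by
      rw [← Matrix.det_pow, hN]
      simp
    exact pow_eq_zero_iff (Fact.out : p.Prime).ne_zero |>.mp h0
  have hne : g.1 - 1 ≠ 0 := by
    intro h
    apply hg1
    apply Units.ext
    rw [Units.val_one]
    exact sub_eq_zero.mp h
  -- coordinates
  obtain ⟨a, b, c, d, hgabcd⟩ : ∃ a b c d : k, g.1 = !![1 + a, b; c, 1 + d] := by
    refine ⟨g.1 0 0 - 1, g.1 0 1, g.1 1 0, g.1 1 1 - 1, ?_⟩
    ext i j
    fin_cases i <;> fin_cases j <;> simp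
  have hN' : g.1 - 1 = !![a, b; c, d] := by
    rw [hgabcd]
    ext i j
    fin_cases i <;> fin_cases j <;> simp
  rw [hN'] at htr hdet hne
  rw [Matrix.trace_fin_two] at htr
  rw [Matrix.det_fin_two] at hdet
  simp at htr hdet
  by_cases hc : c = 0
  · -- `c = 0`, hence `a = d = 0`, `b ≠ 0`
    have ha : a = 0 := by
      have : a * a = 0 := by
        have hd : d = -a := by linear_combination htr
        rw [hc, hd] at hdet
        linear_combination -hdet
      exact mul_self_eq_zero.mp this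
    have hd : d = 0 := by linear_combination htr - ha
    have hb : b ≠ 0 := by
      intro hb
      apply hne
      rw [ha, hb, hc, hd]
      ext i j
      fin_cases i <;> fin_cases j <;> simp
    have hP : (!![b, 0; 0, 1] : M2 k).det ≠ 0 := by
      rw [Matrix.det_fin_two]; simpa using hb
    refine ⟨Matrix.GeneralLinearGroup.mkOfDetNeZero _ hP, ?_⟩
    apply Units.ext
    rw [Units.val_mul, Units.val_mul, gbbU_val, hgabcd, ha, hc, hd]
    show !![1 + 0, b; 0, 1 + 0] * (!![b, 0; 0, 1] : M2 k) = !![b, 0; 0, 1] * uU 1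
    ext i j
    fin_cases i <;> fin_cases j <;> simp [uU, Matrix.mul_apply, Fin.sum_univ_two]
  · have hP : (!![a, 1; c, 0] : M2 k).det ≠ 0 := by
      rw [Matrix.det_fin_two]; simpa using hc
    refine ⟨Matrix.GeneralLinearGroup.mkOfDetNeZero _ hP, ?_⟩
    apply Units.ext
    rw [Units.val_mul, Units.val_mul, gbbU_val, hgabcd]
    show !![1 + a, b; c, 1 + d] * (!![a, 1; c, 0] : M2 k) = !![a, 1; c, 0] * uU 1
    have hd : d = -a := by linear_combination htr
    have hbc : b * c = -(a * a) := by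
      rw [hd] at hdet
      linear_combination -hdet
    ext i j
    fin_cases i <;> fin_cases j <;> simp [uU, Matrix.mul_apply, Fin.sum_univ_two]
    · linear_combination hbc
    · ring
    · linear_combination c * htr

/-- transport of structure along conjugation by `P` -/
theorem gnorm_transport (p : ℕ) [Fact p.Prime] [Finite k] [CharP k p]
    (hFN : StmtFinNorm) (G : Subgroup (GL (Fin 2) k)) (hG : FinHyp p G)
    (P : GL (Fin 2) k) (g₀ : GL (Fin 2) k) (hg₀ : g₀ ∈ G) (hP : g₀ * P = P * gbbU 1)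
    (ψ : GL (Fin 2) k → M2 k) (hψ : IsCocOn G ψ) : IsCobOn G ψ := by
  -- the conjugate group `G' = P⁻¹ G P`
  set G' : Subgroup (GL (Fin 2) k) := G.comap (MulAut.conj P).toMonoidHom with hG'
  have hmem : ∀ g', g' ∈ G' ↔ P * g' * P⁻¹ ∈ G := by
    intro g'
    rw [hG', Subgroup.mem_comap]
    rfl
  have hmem' : ∀ g ∈ G, P⁻¹ * g * P ∈ G' := by
    intro g hg
    rw [hmem]
    have : P * (P⁻¹ * g * P) * P⁻¹ = g := by group
    rwa [this]
  have hval : ∀ g' : GL (Fin 2) k, (P * g' * P⁻¹).1 = P.1 * g'.1 * P⁻¹.1 := by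
    intro g'
    rw [Units.val_mul, Units.val_mul]
  have hval' : ∀ g : GL (Fin 2) k, (P⁻¹ * g * P).1 = P⁻¹.1 * g.1 * P.1 := by
    intro g
    rw [Units.val_mul, Units.val_mul]
  have ePP : P.1 * P⁻¹.1 = 1 := by rw [← Units.val_mul, mul_inv_cancel, Units.val_one]
  have ePP' : P⁻¹.1 * P.1 = 1 := by rw [← Units.val_mul, inv_mul_cancel, Units.val_one]
  -- the transported cocycle
  set ψ' : GL (Fin 2) k → M2 k := fun g' => P⁻¹.1 * ψ (P * g' * P⁻¹) * P.1 with hψ'
  have hconj' : ∀ X Y : M2 k,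
      act (P⁻¹.1 * X * P.1) (P⁻¹.1 * Y * P.1) = P⁻¹.1 * act X Y * P.1 := by
    intro X Y
    have := gnorm_act_conj P⁻¹ X Y
    rwa [inv_inv] at this
  have hcoc' : IsCocOn G' ψ' := by
    refine ⟨fun g' hg' => ?_, fun g₁ hg₁ g₂ hg₂ => ?_⟩
    · rw [hψ', Matrix.trace_mul_comm, ← mul_assoc, ePP, one_mul]
      exact hψ.1 _ ((hmem g').mp hg')
    · have h1 := hψ.2 _ ((hmem g₁).mp hg₁) _ ((hmem g₂).mp hg₂)
      have h2 : P * (g₁ * g₂) * P⁻¹ = (P * g₁ * P⁻¹) * (P * g₂ * P⁻¹) := by group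
      simp only [hψ']
      rw [h2, h1, mul_add, add_mul, ← hconj']
      congr 2
      rw [hval, ← mul_assoc, ← mul_assoc, ePP', one_mul, mul_assoc, ePP', mul_one]
  -- the hypotheses for `G'`
  have hdet : ∀ g' : GL (Fin 2) k, (P * g' * P⁻¹).1.det = g'.1.det := by
    intro g'
    rw [hval, Matrix.det_mul, Matrix.det_mul, mul_comm, ← mul_assoc, gnorm_det_inv_mul,
      one_mul]
  have hFin' : FinHyp p G' := by
    refine ⟨hG.odd, ?_, ?_, ?_, ?_⟩
    · intro g' hg'
      obtain ⟨a, ha⟩ := hG.det_int _ ((hmem g').mp hg')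
      exact ⟨a, by rw [← ha, hdet]⟩
    · intro a ha
      obtain ⟨g, hg, hga⟩ := hG.det_surj a ha
      refine ⟨P⁻¹ * g * P, hmem' g hg, ?_⟩
      have e : P * (P⁻¹ * g * P) * P⁻¹ = g := by group
      have h3 := hdet (P⁻¹ * g * P)
      rw [e] at h3
      rw [← h3, hga]
    · intro g' hg'
      obtain ⟨α, β, hαβ⟩ := hG.split _ ((hmem g').mp hg')
      refine ⟨α, β, ?_⟩
      rw [← hαβ, hval, Matrix.coe_units_inv, Matrix.charpoly_units_conj]
    · intro v hv hall
      apply hG.irr ((P.1.map (algebraMap k (AlgebraicClosure k))) *ᵥ v)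
      · intro h0
        apply hv
        have := congrArg (fun w => (P⁻¹.1.map (algebraMap k (AlgebraicClosure k))) *ᵥ w) h0
        simp only [Matrix.mulVec_mulVec, Matrix.mulVec_zero] at this
        rw [← Matrix.map_mul, ePP', Matrix.map_one _ (map_zero _) (map_one _),
          Matrix.one_mulVec] at this
        exact this
      · intro g hg
        obtain ⟨c, hc⟩ := hall _ (hmem' g hg)
        refine ⟨c, ?_⟩
        rw [Matrix.mulVec_mulVec, ← Matrix.map_mul]
        have e : g.1 * P.1 = P.1 * (P⁻¹ * g * P).1 := by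
          rw [hval', ← mul_assoc, ← mul_assoc, ePP, one_mul]
        rw [e, Matrix.map_mul, ← Matrix.mulVec_mulVec, hc, Matrix.mulVec_smul]
  have hu : ∃ g' ∈ G', g'.1 = uU 1 := by
    refine ⟨gbbU 1, ?_, rfl⟩
    rw [hmem, ← hP]
    have : g₀ * P * P⁻¹ = g₀ := by group
    rwa [this]
  obtain ⟨m', hm', hcob'⟩ := hFN p k G' hFin' hu ψ' hcoc'
  refine ⟨P.1 * m' * P⁻¹.1, ?_, fun g hg => ?_⟩
  · rw [Matrix.trace_mul_comm, ← mul_assoc, ePP', one_mul, hm']
  · have h1 := hcob' _ (hmem' g hg)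
    have h2 : P * (P⁻¹ * g * P) * P⁻¹ = g := by group
    simp only [hψ'] at h1
    rw [h2] at h1
    have h3 : ψ g = P.1 * (P⁻¹.1 * ψ g * P.1) * P⁻¹.1 := by
      rw [← mul_assoc, ← mul_assoc, ePP, one_mul, mul_assoc, ePP, mul_one]
    rw [h3, h1, mul_sub, sub_mul, ← gnorm_act_conj, hval', ← mul_assoc, ← mul_assoc, ePP,
      one_mul, mul_assoc, ePP, mul_one]

/-- (P5, G-norm) conjugation invariance and normalisation. -/
theorem stmtNorm : StmtNorm := by
  intro hSyl hFN p _ k _ _ _ G hG ψ hψ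
  classical
  have hfin : Finite (GL (Fin 2) k) := inferInstance
  by_cases hdvd : p ∣ Nat.card G
  · -- Cauchy
    haveI : Fintype G := Fintype.ofFinite _
    rw [Nat.card_eq_fintype_card] at hdvd
    obtain ⟨x, hx⟩ := exists_prime_orderOf_dvd_card p hdvd
    have hp : p.Prime := Fact.out
    have hx1 : x.1 ≠ 1 := by
      intro h
      have : x = 1 := Subtype.ext h
      rw [this, orderOf_one] at hx
      exact hp.one_lt.ne hx
    have hxp : x.1 ^ p = 1 := by
      have := pow_orderOf_eq_one x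
      rw [hx] at this
      have h2 := congrArg Subtype.val this
      simpa using h2
    obtain ⟨P, hP⟩ := gnorm_conj_uU p x.1 hx1 hxp
    exact gnorm_transport p hFN G hG P x.1 x.2 hP ψ hψ
  · -- `p ∤ |G|`
    apply hSyl p k G ⊥ bot_le _ ψ hψ
    · refine ⟨0, by simp, fun g hg => ?_⟩
      rw [Subgroup.mem_bot] at hg
      rw [hg, gbb_psi_one hψ, gsyl_act_zero, sub_zero]
    · rw [Subgroup.bot_subgroupOf, Subgroup.index_bot]
      exact hdvd

end Fermat.Agent.TW.G.Sel


end ZBTW_034_9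

/-! ### bundled: `Fermat.Agent.TW.G.Concl` -/
section ZBTW_034_10

/-!
# TW-G / P10 G-concl (helper64): the normalised vanishing theorem from the pieces

`StmtSyl → StmtIdx → StmtBorelU → StmtBorelT → StmtFrattini → StmtDickson → StmtFinNorm`.
-/

set_option autoImplicit false

namespace Fermat.Agent.TW.G.Sel

open Matrix

variable {k : Type} [Field k]

theorem gconcl_uU_mul (x y : k) : uU x * uU y = uU (x + y) := by
  ext i j
  fin_cases i <;> fin_cases j <;> simp [uU, Matrix.mul_apply, Fin.sum_univ_two, add_comm]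

theorem gconcl_uU_zero : uU (0 : k) = 1 := by
  ext i j
  fin_cases i <;> fin_cases j <;> simp [uU]

/-- the parameters of the upper unipotent elements of `G`, as an additive subgroup -/
def gconclX (G : Subgroup (GL (Fin 2) k)) : AddSubgroup k where
  carrier := Xset G
  zero_mem' := ⟨1, G.one_mem, by rw [gconcl_uU_zero]; rfl⟩
  add_mem' := by
    rintro x y ⟨g, hg, hgx⟩ ⟨h, hh, hhy⟩
    exact ⟨g * h, G.mul_mem hg hh, by rw [Units.val_mul, hgx, hhy, gconcl_uU_mul]⟩
  neg_mem' := by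
    rintro x ⟨g, hg, hgx⟩
    refine ⟨g⁻¹, G.inv_mem hg, ?_⟩
    have h1 : g.1 * uU (-x) = 1 := by rw [hgx, gconcl_uU_mul, add_neg_cancel, gconcl_uU_zero]
    have h2 : (g⁻¹).1 * (g.1 * uU (-x)) = (g⁻¹).1 := by rw [h1, mul_one]
    rw [← mul_assoc, ← Units.val_mul, inv_mul_cancel, Units.val_one, one_mul] at h2
    exact h2.symm

theorem gconcl_mem_X (G : Subgroup (GL (Fin 2) k)) (x : k) : x ∈ gconclX G ↔ x ∈ Xset G :=
  Iff.rfl

/-- upper triangular elements of `G` act on `X` through `a/d` -/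
theorem gconcl_X_scale (G : Subgroup (GL (Fin 2) k)) (t : GL (Fin 2) k) (ht : t ∈ G)
    (ht0 : t.1 1 0 = 0) (x : k) (hx : x ∈ Xset G) : t.1 0 0 / t.1 1 1 * x ∈ Xset G := by
  obtain ⟨g, hg, hgx⟩ := hx
  have hdet : t.1.det ≠ 0 := by
    have := t.isUnit.map (Matrix.detMonoidHom (n := Fin 2) (R := k))
    exact this.ne_zero
  rw [Matrix.det_fin_two, ht0, mul_zero, sub_zero] at hdet
  have hd : t.1 1 1 ≠ 0 := right_ne_zero_of_mul hdet
  refine ⟨t * g * t⁻¹, G.mul_mem (G.mul_mem ht hg) (G.inv_mem ht), ?_⟩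
  have h1 : t.1 * uU x = uU (t.1 0 0 / t.1 1 1 * x) * t.1 := by
    ext i j
    fin_cases i <;> fin_cases j <;>
      simp [uU, Matrix.mul_apply, Fin.sum_univ_two, ht0]
    · field_simp
      ring
  rw [Units.val_mul, Units.val_mul, hgx, h1, mul_assoc, ← Units.val_mul, mul_inv_cancel,
    Units.val_one, mul_one]

/-- `α` is odd and vanishes at `0` -/
theorem gconcl_add_zero (X : AddSubgroup k) (α : k → k)
    (hadd : ∀ x ∈ X, ∀ y ∈ X, α (x + y) = α x + α y) : α 0 = 0 := by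
  have := hadd 0 X.zero_mem 0 X.zero_mem
  rw [add_zero] at this
  exact left_eq_add.mp this

theorem gconcl_add_neg (X : AddSubgroup k) (α : k → k)
    (hadd : ∀ x ∈ X, ∀ y ∈ X, α (x + y) = α x + α y) (x : k) (hx : x ∈ X) :
    α (-x) = -α x := by
  have := hadd x hx (-x) (X.neg_mem hx)
  rw [add_neg_cancel, gconcl_add_zero X α hadd] at this
  exact eq_neg_of_add_eq_zero_right this.symm

/-- the ring of multipliers of `(X, α)` -/
def gconclR (X : AddSubgroup k) (h1 : (1 : k) ∈ X) (α : k → k)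
    (hadd : ∀ x ∈ X, ∀ y ∈ X, α (x + y) = α x + α y) : Subring k where
  carrier := {s | s ∈ X ∧ ∀ x ∈ X, s * x ∈ X ∧ α (s * x) = s * α x + (α s - s * α 1) * x}
  zero_mem' := by
    refine ⟨X.zero_mem, fun x _ => ?_⟩
    simp only [zero_mul, gconcl_add_zero X α hadd, sub_zero, add_zero, and_true]
    exact X.zero_mem
  one_mem' := by
    refine ⟨h1, fun x hx => ?_⟩
    simp only [one_mul, sub_self, zero_mul, add_zero, and_true]
    exact hx
  add_mem' := by
    rintro s s' ⟨hs, hsR⟩ ⟨hs', hsR'⟩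
    refine ⟨X.add_mem hs hs', fun x hx => ?_⟩
    obtain ⟨h1x, h1α⟩ := hsR x hx
    obtain ⟨h2x, h2α⟩ := hsR' x hx
    rw [add_mul]
    refine ⟨X.add_mem h1x h2x, ?_⟩
    rw [hadd _ h1x _ h2x, h1α, h2α, hadd _ hs _ hs']
    ring
  neg_mem' := by
    rintro s ⟨hs, hsR⟩
    refine ⟨X.neg_mem hs, fun x hx => ?_⟩
    obtain ⟨h1x, h1α⟩ := hsR x hx
    rw [neg_mul]
    refine ⟨X.neg_mem h1x, ?_⟩
    rw [gconcl_add_neg X α hadd _ h1x, h1α, gconcl_add_neg X α hadd _ hs]
    ring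
  mul_mem' := by
    rintro s s' ⟨hs, hsR⟩ ⟨hs', hsR'⟩
    refine ⟨(hsR s' hs').1, fun x hx => ?_⟩
    obtain ⟨h2x, h2α⟩ := hsR' x hx
    obtain ⟨h3x, h3α⟩ := hsR _ h2x
    rw [mul_assoc]
    refine ⟨h3x, ?_⟩
    rw [h3α, h2α, (hsR s' hs').2]
    ring

theorem gconcl_mem_R (X : AddSubgroup k) (h1 : (1 : k) ∈ X) (α : k → k)
    (hadd : ∀ x ∈ X, ∀ y ∈ X, α (x + y) = α x + α y) (s : k) :
    s ∈ gconclR X h1 α hadd ↔
      s ∈ X ∧ ∀ x ∈ X, s * x ∈ X ∧ α (s * x) = s * α x + (α s - s * α 1) * x :=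
  Iff.rfl

/-- a derivation of a finite field vanishes -/
theorem gconcl_R_linear [Finite k] (X : AddSubgroup k) (h1 : (1 : k) ∈ X) (α : k → k)
    (hadd : ∀ x ∈ X, ∀ y ∈ X, α (x + y) = α x + α y) (s : k)
    (hs : s ∈ gconclR X h1 α hadd) : α s = α 1 * s := by
  classical
  haveI : Fintype k := Fintype.ofFinite k
  have key : ∀ n : ℕ, α (s ^ (n + 1)) - s ^ (n + 1) * α 1 =
      ((n + 1 : ℕ) : k) * s ^ n * (α s - s * α 1) := by
    intro n
    induction n with
    | zero => simp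
    | succ n ih =>
      have hpow : s ^ (n + 1) ∈ gconclR X h1 α hadd := Subring.pow_mem _ hs _
      have h2 := (hs.2 (s ^ (n + 1)) hpow.1).2
      have h3 : s ^ (n + 1 + 1) = s * s ^ (n + 1) := pow_succ' s (n + 1)
      rw [h3, h2]
      have h4 : α (s ^ (n + 1)) = s ^ (n + 1) * α 1 +
          ((n + 1 : ℕ) : k) * s ^ n * (α s - s * α 1) := by
        rw [← ih]; ring
      rw [h4]
      push_cast
      ring
  have hN : 0 < Fintype.card k := Fintype.card_pos
  obtain ⟨n, hn⟩ : ∃ n, Fintype.card k = n + 1 := ⟨Fintype.card k - 1, by omega⟩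
  have h5 := key n
  rw [← hn, FiniteField.pow_card, FiniteField.cast_card_eq_zero, zero_mul, zero_mul] at h5
  rw [sub_eq_zero] at h5
  rw [h5, mul_comm]

/-- The abstract linearity statement: if enough multipliers act on `(X, α)`, `α` is linear. -/
theorem gconcl_linear_of_scaling [Finite k] (X : AddSubgroup k) (h1 : (1 : k) ∈ X)
    (α : k → k) (hadd : ∀ x ∈ X, ∀ y ∈ X, α (x + y) = α x + α y)
    (A : Set k) (hA : ∀ s ∈ A, ∀ x ∈ X, s * x ∈ X)
    (hAα : ∀ s ∈ A, ∃ l : k, ∀ x ∈ X, α (s * x) = s * α x + l * x)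
    (hA0 : (0 : k) ∉ A)
    (hcard : Nat.card X ≤ 2 * Nat.card A + 1) :
    ∀ x ∈ X, α x = α 1 * x := by
  classical
  set R := gconclR X h1 α hadd with hR
  have hAR : ∀ s ∈ A, s ∈ R := by
    intro s hs
    have hsX : s ∈ X := by simpa using hA s hs 1 h1
    obtain ⟨l, hl⟩ := hAα s hs
    have hl1 := hl 1 h1
    rw [mul_one, mul_one] at hl1
    refine ⟨hsX, fun x hx => ⟨hA s hs x hx, ?_⟩⟩
    rw [hl x hx, hl1]
    ring
  have hRX : R.toAddSubgroup ≤ X := fun s hs => hs.1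
  -- cardinalities
  have hdvd : Nat.card R.toAddSubgroup ∣ Nat.card X := AddSubgroup.card_dvd_of_le hRX
  have hins : insert (0 : k) A ⊆ (R : Set k) := by
    intro s hs
    rcases hs with rfl | hs
    · exact R.zero_mem
    · exact hAR s hs
  have hAfin : A.Finite := Set.toFinite A
  have hc1 : Nat.card A + 1 ≤ Nat.card R.toAddSubgroup := by
    have h2 : (insert (0 : k) A).ncard = A.ncard + 1 := Set.ncard_insert_of_notMem hA0 hAfin
    have h3 : (insert (0 : k) A).ncard ≤ (R : Set k).ncard :=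
      Set.ncard_le_ncard hins (Set.toFinite _)
    rw [h2] at h3
    rw [Nat.card_coe_set_eq]
    exact h3
  have hXpos : 0 < Nat.card X := Nat.card_pos
  have hRpos : 0 < Nat.card R.toAddSubgroup := Nat.card_pos
  have hcard_eq : Nat.card R.toAddSubgroup = Nat.card X := by
    obtain ⟨j, hj⟩ := hdvd
    have hj1 : j < 2 := by
      by_contra hcon
      have : 2 ≤ j := by omega
      have : 2 * Nat.card R.toAddSubgroup ≤ Nat.card R.toAddSubgroup * j := by
        rw [mul_comm]; exact Nat.mul_le_mul_left _ this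
      omega
    have hj0 : j ≠ 0 := by
      rintro rfl
      rw [mul_zero] at hj
      omega
    have : j = 1 := by omega
    rw [hj, this, mul_one]
  have hXR : ∀ x ∈ X, x ∈ R := by
    have h4 : (R.toAddSubgroup : Set k) = (X : Set k) := by
      apply Set.eq_of_subset_of_ncard_le hRX _ (Set.toFinite _)
      rw [← Nat.card_coe_set_eq, ← Nat.card_coe_set_eq]
      exact hcard_eq.ge
    intro x hx
    have : x ∈ (R.toAddSubgroup : Set k) := by rw [h4]; exact hx
    exact this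
  intro x hx
  exact gconcl_R_linear X h1 α hadd x (hXR x hx)

/-- elements of `Asq G` are the scaling factors `a/d` of determinant-one upper triangular
elements -/
theorem gconcl_asq_data (G : Subgroup (GL (Fin 2) k)) (s : k) (hs : s ∈ Asq G) :
    ∃ g ∈ G, g.1 1 0 = 0 ∧ g.1 0 0 * g.1 1 1 = 1 ∧ s = g.1 0 0 ^ 2 ∧
      g.1 0 0 / g.1 1 1 = s := by
  obtain ⟨g, hg, hg0, hdet, hs⟩ := hs
  rw [Matrix.det_fin_two, hg0, mul_zero, sub_zero] at hdet
  refine ⟨g, hg, hg0, hdet, hs, ?_⟩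
  have hd : g.1 1 1 ≠ 0 := right_ne_zero_of_mul_eq_one hdet
  rw [hs, div_eq_iff hd, pow_two, mul_assoc, hdet, mul_one]

theorem gconcl_asq_ne_zero (G : Subgroup (GL (Fin 2) k)) : (0 : k) ∉ Asq G := by
  intro h
  obtain ⟨g, -, -, hdet, hs, -⟩ := gconcl_asq_data G 0 h
  have ha : g.1 0 0 = 0 := by
    have := hs.symm
    exact pow_eq_zero_iff (n := 2) (by norm_num) |>.mp this
  rw [ha, zero_mul] at hdet
  exact zero_ne_one hdet

/-- `G` is not upper triangular -/
theorem gconcl_nontri (G : Subgroup (GL (Fin 2) k)) (hirr : NoEigenOn G) :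
    ∃ g ∈ G, g.1 1 0 ≠ 0 := by
  by_contra hcon
  have hall : ∀ g ∈ G, g.1 1 0 = 0 := by
    intro g hg
    by_contra h
    exact hcon ⟨g, hg, h⟩
  refine hirr ![1, 0] ?_ (fun g hg => ⟨algebraMap k (AlgebraicClosure k) (g.1 0 0), ?_⟩)
  · intro h
    have := congrFun h 0
    simp at this
  · ext i
    fin_cases i <;>
      simp [Matrix.mulVec, dotProduct, Fin.sum_univ_two, Matrix.map_apply, hall g hg]

theorem gconcl_zmod5 : ∀ x : ZMod 5, x ^ 2 - 2 ≠ 0 := by decide

/-- the constant `c` of a cocycle vanishes -/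
theorem gconcl_c_zero (p : ℕ) [Fact p.Prime] [Finite k] [CharP k p]
    (G : Subgroup (GL (Fin 2) k)) (hG : FinHyp p G) (hu1 : ∃ g ∈ G, g.1 = uU 1)
    (hFr : ∀ g ∈ G, ∃ t ∈ G, t.1 1 0 = 0 ∧ t.1.det = g.1.det)
    (hDk : Nat.card (Xset G) ≤ 2 * Nat.card (Asq G) + 1)
    (h3 : (3 : k) ≠ 0)
    (hT : ∀ t ∈ G, t.1 1 0 = 0 → t.1 0 0 = t.1 1 1 ^ 3) : False := by
  classical
  -- step 1: `Asq G ⊆ {1, -1}`
  have hsub : Asq G ⊆ ({1, -1} : Set k) := by
    intro s hs
    obtain ⟨g, hg, hg0, hdet, hs2, -⟩ := gconcl_asq_data G s hs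
    have had := hT g hg hg0
    have hd4 : g.1 1 1 ^ 4 = 1 := by
      rw [had] at hdet
      rw [← hdet]; ring
    have hss : s * s = 1 := by
      rw [hs2, had]
      have : (g.1 1 1 ^ 3) ^ 2 * (g.1 1 1 ^ 3) ^ 2 = (g.1 1 1 ^ 4) ^ 3 := by ring
      rw [this, hd4, one_pow]
    rcases mul_self_eq_one_iff.mp hss with h | h
    · left; exact h
    · right; exact h
  have hA2 : Nat.card (Asq G) ≤ 2 := by
    rw [Nat.card_coe_set_eq]
    calc (Asq G).ncard ≤ ({1, -1} : Set k).ncard := Set.ncard_le_ncard hsub (Set.toFinite _)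
      _ ≤ ({-1} : Set k).ncard + 1 := Set.ncard_insert_le _ _
      _ = 2 := by rw [Set.ncard_singleton]
  have hX5 : Nat.card (Xset G) ≤ 5 := by omega
  -- step 2: `p ≤ |X|`
  have h1X : (1 : k) ∈ gconclX G := hu1
  have hzle : AddSubgroup.zmultiples (1 : k) ≤ gconclX G :=
    (AddSubgroup.zmultiples_le).mpr h1X
  have hzcard : Nat.card (AddSubgroup.zmultiples (1 : k)) = p := by
    rw [Nat.card_zmultiples]
    exact CharP.eq k (CharP.addOrderOf_one k) (inferInstance : CharP k p)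
  have hXX : Nat.card (gconclX G) = Nat.card (Xset G) := rfl
  have hple : p ≤ Nat.card (Xset G) := by
    rw [← hzcard, ← hXX]
    exact Nat.le_of_dvd Nat.card_pos (AddSubgroup.card_dvd_of_le hzle)
  have hp2 : p ≠ 2 := hG.odd
  have hp3 : p ≠ 3 := by
    rintro rfl
    apply h3
    have := CharP.cast_eq_zero k 3
    exact_mod_cast this
  have hpp : p.Prime := Fact.out
  have hp5 : p = 5 := by
    have hle : p ≤ 5 := by omega
    have h2le := hpp.two_le
    interval_cases p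
    · exact absurd rfl hp2
    · exact absurd rfl hp3
    · exact absurd hpp (by decide)
    · rfl
  subst hp5
  -- step 3: `X = 𝔽₅`
  have hXz : ∀ x ∈ Xset G, x ∈ AddSubgroup.zmultiples (1 : k) := by
    have h4 : ((AddSubgroup.zmultiples (1 : k)) : Set k) = (gconclX G : Set k) := by
      apply Set.eq_of_subset_of_ncard_le hzle _ (Set.toFinite _)
      rw [← Nat.card_coe_set_eq, ← Nat.card_coe_set_eq]
      show Nat.card (gconclX G) ≤ Nat.card (AddSubgroup.zmultiples (1 : k))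
      rw [hzcard, hXX]
      exact hX5
    intro x hx
    have : x ∈ ((AddSubgroup.zmultiples (1 : k)) : Set k) := by rw [h4]; exact hx
    exact this
  -- step 4: an upper triangular element of determinant 2
  have h2ne : ((2 : ℤ) : k) ≠ 0 := by
    intro h
    have := (CharP.intCast_eq_zero_iff k 5 2).mp h
    omega
  obtain ⟨g, hg, hgdet⟩ := hG.det_surj 2 h2ne
  obtain ⟨t, ht, ht0, htdet⟩ := hFr g hg
  rw [hgdet, Matrix.det_fin_two, ht0, mul_zero, sub_zero] at htdet
  have had := hT t ht ht0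
  have hd0 : t.1 1 1 ≠ 0 := by
    intro h
    rw [h, mul_zero] at htdet
    exact h2ne htdet.symm
  have hd4 : t.1 1 1 ^ 4 = ((2 : ℤ) : k) := by
    rw [← htdet, had]; ring
  have hsc := gconcl_X_scale G t ht ht0 1 h1X
  rw [mul_one] at hsc
  have hd2 : t.1 0 0 / t.1 1 1 = t.1 1 1 ^ 2 := by
    rw [div_eq_iff hd0, had]; ring
  rw [hd2] at hsc
  obtain ⟨n, hn⟩ := AddSubgroup.mem_zmultiples_iff.mp (hXz _ hsc)
  have hn' : (n : k) = t.1 1 1 ^ 2 := by
    rw [← hn]; simp
  have h5 : ((n ^ 2 - 2 : ℤ) : k) = 0 := by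
    push_cast
    rw [hn']
    have : (t.1 1 1 ^ 2) ^ 2 = t.1 1 1 ^ 4 := by ring
    rw [this, hd4]
    push_cast
    ring
  have hdvd : ((5 : ℕ) : ℤ) ∣ n ^ 2 - 2 := (CharP.intCast_eq_zero_iff k 5 _).mp h5
  have hz : ((n ^ 2 - 2 : ℤ) : ZMod 5) = 0 :=
    (ZMod.intCast_zmod_eq_zero_iff_dvd _ 5).mpr hdvd
  push_cast at hz
  exact gconcl_zmod5 _ hz

theorem gconcl_act_uU_eH (x : k) : act (uU x) (eH : M2 k) - eH = (-2 * x) • eE := by
  ext i j
  fin_cases i <;> fin_cases j <;>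
    simp [act, uU, eH, eE, Matrix.mul_apply, Fin.sum_univ_two, Matrix.adjugate_fin_two]
  ring

theorem gconcl_trace_eH : (eH : M2 k).trace = 0 := by
  simp [eH, Matrix.trace_fin_two]

/-- (P10, G-concl) -/
theorem stmtConcl : StmtConcl := by
  intro hSyl hIdx hBU hBT hFr hDk p _ k _ _ _ G hG hu1 ψ hψ
  obtain ⟨U, hUG, hUmem, hUidx⟩ := hIdx p k G hu1
  refine hSyl p k G U hUG hUidx ψ hψ ?_
  obtain ⟨m, c, α, hm, hc3, hadd, hform⟩ := hBU p k hG.odd G hu1 ψ hψ
  have hψ' := gsyl_isCocOn_sub G ψ hψ m hm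
  have hform' : ∀ g ∈ G, ∀ x : k, g.1 = uU x →
      (fun g : GL (Fin 2) k => ψ g - (act g.1 m - m)) g =
        c • (x • eF + (x ^ 2 / 2) • eH - (x ^ 3 / 3) • eE) + α x • eE := by
    intro g hg x hx
    simp only
    rw [hform g hg x hx]
    abel
  have hT := hBT p k hG.odd G hu1 _ hψ' c α hform'
  have hnontri := gconcl_nontri G hG.irr
  have hcard := hDk p k hG.odd G hG.split hnontri
  have hc : c = 0 := by
    by_contra hc
    have h3 : (3 : k) ≠ 0 := hc3.resolve_left hc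
    refine gconcl_c_zero p G hG hu1 (hFr p k G hu1) hcard h3 (fun t ht ht0 => ?_)
    rcases mul_eq_zero.mp (hT t ht ht0).1 with h | h
    · exact absurd h hc
    · exact sub_eq_zero.mp h
  have h1X : (1 : k) ∈ gconclX G := hu1
  have hlin : ∀ x ∈ gconclX G, α x = α 1 * x := by
    refine gconcl_linear_of_scaling (gconclX G) h1X α hadd (Asq G) ?_ ?_
      (gconcl_asq_ne_zero G) hcard
    · intro s hs x hx
      obtain ⟨g, hg, hg0, -, -, hsc⟩ := gconcl_asq_data G s hs
      rw [← hsc]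
      exact gconcl_X_scale G g hg hg0 x hx
    · intro s hs
      obtain ⟨g, hg, hg0, -, hs2, hsc⟩ := gconcl_asq_data G s hs
      obtain ⟨l, hl⟩ := (hT g hg hg0).2 hc
      refine ⟨l, fun x hx => ?_⟩
      have := hl x hx
      rw [hsc, ← hs2] at this
      exact this
  refine ⟨m - (α 1 / 2) • eH, ?_, fun g hg => ?_⟩
  · rw [Matrix.trace_sub, Matrix.trace_smul, hm, gconcl_trace_eH, smul_zero, sub_zero]
  · obtain ⟨hgG, x, hx⟩ := (hUmem g).mp hg
    have hxX : x ∈ gconclX G := ⟨g, hgG, hx⟩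
    have h2 : (2 : k) ≠ 0 := by
      intro h
      have h' : ((2 : ℕ) : k) = 0 := by exact_mod_cast h
      have hdvd := (CharP.cast_eq_zero_iff k p 2).mp h'
      have hpp : p.Prime := Fact.out
      have := (Nat.prime_dvd_prime_iff_eq hpp Nat.prime_two).mp hdvd
      exact hG.odd this
    rw [hform g hgG x hx, hc, zero_smul, add_zero, hlin x hxX, gsyl_act_sub, gsyl_act_smul]
    have h5 := gconcl_act_uU_eH x
    rw [hx]
    have h6 : act (uU x) (eH : M2 k) = eH + (-2 * x) • eE := by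
      rw [← h5]; abel
    rw [h6, smul_add, smul_smul]
    have h7 : α 1 / 2 * (-2 * x) = -(α 1 * x) := by
      field_simp
    rw [h7, neg_smul]
    abel

end Fermat.Agent.TW.G.Sel


end ZBTW_034_10
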