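/- GENERATED FILE (helper35, build-time optimisation, NOTES/ZB.md): verbatim concatenation of the modules
   Fermat.Agent.TW.G.Dickson.ClassEq
   Fermat.Agent.TW.G.Dickson.Plan
   Fermat.Agent.TW.G.Dickson.Central
   Fermat.Agent.TW.G.Dickson.Normal
   Fermat.Agent.TW.G.Dickson.Index
   Fermat.Agent.TW.G.Dickson.Final
   Fermat.Agent.TW.G.Dickson.Borel
   Fermat.Agent.TW.G.Dickson.BorelCard
   Fermat.Agent.TW.G.Dickson.SylowD
   Fermat.Agent.TW.G.Dickson.CentE
   Fermat.Agent.TW.G.GSel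
   Do not edit; do not import together with these modules. -/
import Mathlib
import Fermat.Agent.ZB.TW_034

/-! ### bundled: `Fermat.Agent.TW.G.Dickson.ClassEq` -/
section ZBTW_035_0

/-!
# TW-G / P9 G-dickson, part CE (helper26): the class equation, abstract form

`G` a finite group, `Z` a central subgroup, such that the centraliser of every `g ∉ Z` is abelian.
Then `G ∖ Z` is partitioned into the classes `gdkClass Z g` (elements conjugate into the
centraliser of `g`), of size `(|C(g)| - |Z|)·[G : N(C(g))]`.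
-/

set_option autoImplicit false

namespace Fermat.Agent.TW.G.Dk

open Subgroup

variable {G : Type*} [Group G]

/-- the class of `g`: the elements outside `Z` which are conjugate into the centraliser of `g` -/
def gdkClass (Z : Subgroup G) (g : G) : Set G :=
  {h | h ∉ Z ∧ ∃ x : G, x⁻¹ * h * x ∈ centralizer {g}}

/-- the centraliser hypothesis -/
def GdkCA (Z : Subgroup G) : Prop :=
  ∀ g : G, g ∉ Z → ∀ x y : G, x ∈ centralizer {g} → y ∈ centralizer {g} → x * y = y * x

lemma gdk_mem_centralizer_iff (g x : G) : x ∈ centralizer {g} ↔ g * x = x * g := by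
  rw [mem_centralizer_iff]
  constructor
  · intro h; exact h g rfl
  · intro h y hy; rw [Set.mem_singleton_iff] at hy; rw [hy]; exact h

lemma gdk_self_mem (g : G) : g ∈ centralizer {g} := (gdk_mem_centralizer_iff g g).2 rfl

lemma gdk_le_centralizer {Z : Subgroup G} (hZ : Z ≤ center G) (g : G) : Z ≤ centralizer {g} := by
  intro z hz
  rw [gdk_mem_centralizer_iff]
  exact (mem_center_iff.1 (hZ hz)) g

/-- centralisers of non-central elements of an abelian centraliser coincide -/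
lemma gdk_centralizer_eq {Z : Subgroup G} (hCA : GdkCA Z) {g h : G} (hg : g ∉ Z) (hh : h ∉ Z)
    (hmem : h ∈ centralizer {g}) : centralizer {h} = centralizer {g} := by
  have hgh : g * h = h * g := (gdk_mem_centralizer_iff g h).1 hmem
  ext x
  rw [gdk_mem_centralizer_iff, gdk_mem_centralizer_iff]
  constructor
  · intro hx
    -- x, g ∈ C(h), abelian
    have h1 : x ∈ centralizer {h} := (gdk_mem_centralizer_iff h x).2 hx
    have h2 : g ∈ centralizer {h} := (gdk_mem_centralizer_iff h g).2 hgh.symm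
    exact hCA h hh g x h2 h1
  · intro hx
    have h1 : x ∈ centralizer {g} := (gdk_mem_centralizer_iff g x).2 hx
    exact hCA g hg h x hmem h1

lemma gdk_centralizer_conj (g x : G) :
    ∀ y : G, y ∈ centralizer {x⁻¹ * g * x} ↔ x * y * x⁻¹ ∈ centralizer {g} := by
  intro y
  rw [gdk_mem_centralizer_iff, gdk_mem_centralizer_iff]
  constructor
  · intro h
    have : x * (x⁻¹ * g * x * y) * x⁻¹ = x * (y * (x⁻¹ * g * x)) * x⁻¹ := by rw [h]
    simpa [mul_assoc] using this
  · intro h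
    have : x⁻¹ * (g * (x * y * x⁻¹)) * x = x⁻¹ * (x * y * x⁻¹ * g) * x := by rw [h]
    simpa [mul_assoc] using this

lemma gdk_conj_notMem {Z : Subgroup G} (hZ : Z ≤ center G) {h : G} (x : G) :
    x⁻¹ * h * x ∈ Z ↔ h ∈ Z := by
  constructor
  · intro hx
    have hc := mem_center_iff.1 (hZ hx)
    have h1 : x * (x⁻¹ * h * x) = x⁻¹ * h * x * x := hc x
    have h2 : h * x = x⁻¹ * h * x * x := by
      rw [← h1]; simp [mul_assoc]
    have h3 : h = x⁻¹ * h * x := mul_right_cancel h2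
    rw [h3]; exact hx
  · intro hh
    have hc := mem_center_iff.1 (hZ hh)
    have h1 : x⁻¹ * h = h * x⁻¹ := hc x⁻¹
    have : x⁻¹ * h * x = h := by
      rw [h1, mul_assoc, inv_mul_cancel, mul_one]
    rw [this]; exact hh

lemma gdk_self_mem_class {Z : Subgroup G} {g : G} (hg : g ∉ Z) : g ∈ gdkClass Z g :=
  ⟨hg, 1, by simpa using gdk_self_mem g⟩

/-- membership in the normaliser of the centraliser -/
lemma gdk_conj_mem_iff {Z : Subgroup G} (hZ : Z ≤ center G) (hCA : GdkCA Z) {g h' : G}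
    (hg : g ∉ Z) (hh' : h' ∉ Z) (hmem : h' ∈ centralizer {g}) (y : G) :
    y⁻¹ * h' * y ∈ centralizer {g} ↔ y ∈ normalizer (centralizer {g} : Set G) := by
  have hC : centralizer {h'} = centralizer {g} := gdk_centralizer_eq hCA hg hh' hmem
  constructor
  · intro hy
    have hy' : y⁻¹ * h' * y ∉ Z := fun h => hh' ((gdk_conj_notMem hZ y).1 h)
    have hC' : centralizer {y⁻¹ * h' * y} = centralizer {g} := gdk_centralizer_eq hCA hg hy' hy
    rw [mem_normalizer_iff]
    intro w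
    -- w ∈ C(g) ↔ y w y⁻¹ ∈ C(g)
    have := gdk_centralizer_conj h' y w
    rw [hC', hC] at this
    exact this
  · intro hy
    rw [mem_normalizer_iff] at hy
    have := (hy (y⁻¹ * h' * y)).2
    apply this
    have : y * (y⁻¹ * h' * y) * y⁻¹ = h' := by simp [mul_assoc]
    rw [this]; exact hmem

/-- two classes with a common element coincide -/
lemma gdk_class_eq {Z : Subgroup G} (hZ : Z ≤ center G) (hCA : GdkCA Z) {g g' h : G}
    (hg : g ∉ Z) (hg' : g' ∉ Z) (h1 : h ∈ gdkClass Z g) (h2 : h ∈ gdkClass Z g') :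
    gdkClass Z g = gdkClass Z g' := by
  -- it suffices: gdkClass g ⊆ gdkClass g' (symmetric)
  have key : ∀ {a b c : G}, a ∉ Z → b ∉ Z → c ∈ gdkClass Z a → c ∈ gdkClass Z b →
      gdkClass Z a ⊆ gdkClass Z b := by
    intro a b c ha hb hca hcb w hw
    obtain ⟨hcZ, x, hx⟩ := hca
    obtain ⟨_, y, hy⟩ := hcb
    obtain ⟨hwZ, u, hu⟩ := hw
    refine ⟨hwZ, ?_⟩
    -- C(x⁻¹cx) = C(a), C(y⁻¹cy) = C(b)
    have hx' : x⁻¹ * c * x ∉ Z := fun h => hcZ ((gdk_conj_notMem hZ x).1 h)
    have hy' : y⁻¹ * c * y ∉ Z := fun h => hcZ ((gdk_conj_notMem hZ y).1 h)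
    have hCa : centralizer {x⁻¹ * c * x} = centralizer {a} := gdk_centralizer_eq hCA ha hx' hx
    have hCb : centralizer {y⁻¹ * c * y} = centralizer {b} := gdk_centralizer_eq hCA hb hy' hy
    -- u⁻¹ w u ∈ C(a) = C(x⁻¹ c x); so x u⁻¹ w u x⁻¹ ∈ C(c); so y⁻¹ x u⁻¹ w u x⁻¹ y ∈ C(y⁻¹ c y) = C(b)
    refine ⟨u * x⁻¹ * y, ?_⟩
    rw [← hCb, gdk_centralizer_conj c y]
    rw [← hCa, gdk_centralizer_conj c x] at hu
    have : y * ((u * x⁻¹ * y)⁻¹ * w * (u * x⁻¹ * y)) * y⁻¹ = x * (u⁻¹ * w * u) * x⁻¹ := by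
      simp [mul_assoc]
    rw [this]; exact hu
  exact Set.Subset.antisymm (key hg hg' h1 h2) (key hg' hg h2 h1)


/-- the elements of the centraliser outside `Z` -/
lemma gdk_card_diff [Finite G] {Z : Subgroup G} (hZ : Z ≤ center G) (g : G) :
    Nat.card {c : G // c ∈ centralizer {g} ∧ c ∉ Z} + Nat.card Z =
      Nat.card (centralizer {g}) := by
  classical
  have hle : (Z : Set G) ⊆ (centralizer {g} : Set G) := gdk_le_centralizer hZ g
  have h1 : Nat.card {c : G // c ∈ centralizer {g} ∧ c ∉ Z} =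
      ((centralizer {g} : Set G) \ (Z : Set G)).ncard := by
    rw [← Nat.card_coe_set_eq]
    rfl
  have h2 : Nat.card Z = (Z : Set G).ncard := (Nat.card_coe_set_eq _).symm ▸ rfl
  have h3 : Nat.card (centralizer {g}) = (centralizer {g} : Set G).ncard :=
    (Nat.card_coe_set_eq _).symm ▸ rfl
  rw [h1, h2, h3]
  exact Set.ncard_sdiff_add_ncard_of_subset hle (Set.toFinite _)

/-- **class size**: `|K(g)|·|N(C(g))| = |G|·(|C(g)| - |Z|)`. -/
theorem gdk_card_class [Finite G] {Z : Subgroup G} (hZ : Z ≤ center G) (hCA : GdkCA Z) {g : G}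
    (hg : g ∉ Z) :
    Nat.card (gdkClass Z g) * Nat.card (normalizer (centralizer {g} : Set G)) =
      Nat.card G * Nat.card {c : G // c ∈ centralizer {g} ∧ c ∉ Z} := by
  classical
  -- the set of pairs
  let P := {q : G × G // q.1 ∉ Z ∧ q.2⁻¹ * q.1 * q.2 ∈ centralizer {g}}
  have e1 : P ≃ G × {c : G // c ∈ centralizer {g} ∧ c ∉ Z} :=
    { toFun := fun q => (q.1.2, ⟨q.1.2⁻¹ * q.1.1 * q.1.2, q.2.2,
        fun h => q.2.1 ((gdk_conj_notMem hZ q.1.2).1 h)⟩)
      invFun := fun r => ⟨(r.1 * r.2.1 * r.1⁻¹, r.1), by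
        constructor
        · intro h
          apply r.2.2.2
          have := (gdk_conj_notMem hZ (h := r.2.1) r.1⁻¹).2
          have h' : (r.1⁻¹)⁻¹ * r.2.1 * r.1⁻¹ = r.1 * r.2.1 * r.1⁻¹ := by simp
          rw [← h'] at h
          exact (gdk_conj_notMem hZ r.1⁻¹).1 h
        · have : r.1⁻¹ * (r.1 * r.2.1 * r.1⁻¹) * r.1 = r.2.1 := by simp [mul_assoc]
          show r.1⁻¹ * (r.1 * r.2.1 * r.1⁻¹) * r.1 ∈ centralizer {g}
          rw [this]; exact r.2.2.1⟩
      left_inv := by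
        intro q
        apply Subtype.ext
        apply Prod.ext
        · show q.1.2 * (q.1.2⁻¹ * q.1.1 * q.1.2) * q.1.2⁻¹ = q.1.1
          simp [mul_assoc]
        · rfl
      right_inv := by
        intro r
        apply Prod.ext
        · rfl
        · apply Subtype.ext
          show r.1⁻¹ * (r.1 * r.2.1 * r.1⁻¹) * r.1 = r.2.1
          simp [mul_assoc] }
  -- a chosen conjugator for each element of the class
  have hx0 : ∀ h : gdkClass Z g, ∃ x : G, x⁻¹ * h.1 * x ∈ centralizer {g} := fun h => h.2.2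
  choose x0 hx0' using hx0
  have e2 : P ≃ gdkClass Z g × normalizer (centralizer {g} : Set G) :=
    { toFun := fun q => (⟨q.1.1, q.2.1, q.1.2, q.2.2⟩,
        ⟨(x0 ⟨q.1.1, q.2.1, q.1.2, q.2.2⟩)⁻¹ * q.1.2, by
          set h : gdkClass Z g := ⟨q.1.1, q.2.1, q.1.2, q.2.2⟩ with hh
          have hh' : (x0 h)⁻¹ * h.1 * x0 h ∉ Z := fun hz => q.2.1 ((gdk_conj_notMem hZ _).1 hz)
          rw [← gdk_conj_mem_iff hZ hCA hg hh' (hx0' h)]
          have : ((x0 h)⁻¹ * q.1.2)⁻¹ * ((x0 h)⁻¹ * h.1 * x0 h) * ((x0 h)⁻¹ * q.1.2) =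
              q.1.2⁻¹ * q.1.1 * q.1.2 := by
            simp [mul_assoc, hh]
          rw [this]; exact q.2.2⟩)
      invFun := fun r => ⟨(r.1.1, x0 r.1 * r.2.1), by
        refine ⟨r.1.2.1, ?_⟩
        have hh' : (x0 r.1)⁻¹ * r.1.1 * x0 r.1 ∉ Z :=
          fun hz => r.1.2.1 ((gdk_conj_notMem hZ _).1 hz)
        have := (gdk_conj_mem_iff hZ hCA hg hh' (hx0' r.1) r.2.1).2 r.2.2
        have h2 : (x0 r.1 * r.2.1)⁻¹ * r.1.1 * (x0 r.1 * r.2.1) =
            r.2.1⁻¹ * ((x0 r.1)⁻¹ * r.1.1 * x0 r.1) * r.2.1 := by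
          simp [mul_assoc]
        show (x0 r.1 * r.2.1)⁻¹ * r.1.1 * (x0 r.1 * r.2.1) ∈ centralizer {g}
        rw [h2]; exact this⟩
      left_inv := by
        intro q
        apply Subtype.ext
        apply Prod.ext
        · rfl
        · show x0 _ * ((x0 _)⁻¹ * q.1.2) = q.1.2
          simp
      right_inv := by
        intro r
        apply Prod.ext
        · rfl
        · apply Subtype.ext
          show (x0 r.1)⁻¹ * (x0 r.1 * r.2.1) = r.2.1
          simp }
  have h1 := Nat.card_congr e1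
  have h2 := Nat.card_congr e2
  rw [Nat.card_prod] at h1 h2
  rw [← h1, ← h2]


lemma gdk_class_disjoint {Z : Subgroup G} (hZ : Z ≤ center G) (hCA : GdkCA Z) {g g' : G}
    (hg : g ∉ Z) (hg' : g' ∉ Z) (hne : g' ∉ gdkClass Z g) :
    Disjoint (gdkClass Z g) (gdkClass Z g') := by
  rw [Set.disjoint_left]
  intro h h1 h2
  apply hne
  rw [gdk_class_eq hZ hCA hg hg' h1 h2]
  exact gdk_self_mem_class hg'

lemma gdk_class_subset (Z : Subgroup G) (g : G) : gdkClass Z g ⊆ (Z : Set G)ᶜ :=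
  fun _ h => h.1

/-- `2|Z| ≤ |C(g)|` for `g ∉ Z` -/
lemma gdk_two_mul_le [Finite G] {Z : Subgroup G} (hZ : Z ≤ center G) {g : G} (hg : g ∉ Z) :
    2 * Nat.card Z ≤ Nat.card (centralizer {g}) := by
  have hle : Z ≤ centralizer {g} := gdk_le_centralizer hZ g
  have hdvd : Nat.card Z ∣ Nat.card (centralizer {g}) := Subgroup.card_dvd_of_le hle
  obtain ⟨c, hc⟩ := hdvd
  have hpos : 0 < Nat.card (centralizer {g}) := Nat.card_pos
  have hZpos : 0 < Nat.card Z := Nat.card_pos
  have hc1 : c ≠ 1 := by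
    intro h1
    rw [h1, mul_one] at hc
    have : Z = centralizer {g} := Subgroup.eq_of_le_of_card_ge hle hc.le
    exact hg (this ▸ gdk_self_mem g)
  have hc0 : c ≠ 0 := by
    intro h0; rw [h0, mul_zero] at hc; omega
  have hc2 : 2 ≤ c := by omega
  calc 2 * Nat.card Z = Nat.card Z * 2 := mul_comm _ _
    _ ≤ Nat.card Z * c := Nat.mul_le_mul_left _ hc2
    _ = Nat.card (centralizer {g}) := hc.symm

/-- the normaliser has index 1 or 2 if it has index at most 2 -/
lemma gdk_card_normalizer [Finite G] (C : Subgroup G)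
    (hν : Nat.card (normalizer (C : Set G)) ≤ 2 * Nat.card C) :
    Nat.card (normalizer (C : Set G)) = Nat.card C ∨
      Nat.card (normalizer (C : Set G)) = 2 * Nat.card C := by
  have hdvd : Nat.card C ∣ Nat.card (normalizer (C : Set G)) :=
    Subgroup.card_dvd_of_le le_normalizer
  obtain ⟨c, hc⟩ := hdvd
  have hpos : 0 < Nat.card (normalizer (C : Set G)) := Nat.card_pos
  have hCpos : 0 < Nat.card C := Nat.card_pos
  have hc0 : c ≠ 0 := by
    intro h0; rw [h0, mul_zero] at hc; omega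
  have hc2 : c ≤ 2 := by
    by_contra h
    have : 3 ≤ c := by omega
    have : Nat.card C * 3 ≤ Nat.card C * c := Nat.mul_le_mul_left _ this
    omega
  rcases (by omega : c = 1 ∨ c = 2) with h | h
  · left; rw [hc, h, mul_one]
  · right; rw [hc, h, mul_comm]

/-- every class has at least `|G|/4` elements if the normaliser has index at most 2 -/
lemma gdk_four_mul_class [Finite G] {Z : Subgroup G} (hZ : Z ≤ center G) (hCA : GdkCA Z) {g : G}
    (hg : g ∉ Z)
    (hν : Nat.card (normalizer (centralizer {g} : Set G)) ≤ 2 * Nat.card (centralizer {g})) :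
    Nat.card G ≤ 4 * Nat.card (gdkClass Z g) := by
  have h1 := gdk_card_class hZ hCA hg
  have h2 := gdk_card_diff hZ g
  have h3 := gdk_two_mul_le hZ hg
  have hNpos : 0 < Nat.card (normalizer (centralizer {g} : Set G)) := Nat.card_pos
  set K := Nat.card (gdkClass Z g)
  set N := Nat.card (normalizer (centralizer {g} : Set G))
  set C := Nat.card (centralizer {g})
  set D := Nat.card {c : G // c ∈ centralizer {g} ∧ c ∉ Z}
  set z := Nat.card Z
  set n := Nat.card G
  -- C ≤ 2 D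
  have h4 : C ≤ 2 * D := by omega
  -- n * N ≤ n * (2 C) ≤ n * 4 D = 4 K N
  have h5 : n * N ≤ 4 * K * N := by
    calc n * N ≤ n * (2 * C) := Nat.mul_le_mul_left _ hν
      _ ≤ n * (2 * (2 * D)) := Nat.mul_le_mul_left _ (Nat.mul_le_mul_left _ h4)
      _ = 4 * (n * D) := by ring
      _ = 4 * (K * N) := by rw [h1]
      _ = 4 * K * N := by ring
  exact Nat.le_of_mul_le_mul_right h5 hNpos

/-- every class with self-normalising centraliser has at least `|G|/2` elements -/
lemma gdk_two_mul_class [Finite G] {Z : Subgroup G} (hZ : Z ≤ center G) (hCA : GdkCA Z) {g : G}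
    (hg : g ∉ Z)
    (hν : Nat.card (normalizer (centralizer {g} : Set G)) = Nat.card (centralizer {g})) :
    Nat.card G ≤ 2 * Nat.card (gdkClass Z g) := by
  have h1 := gdk_card_class hZ hCA hg
  have h2 := gdk_card_diff hZ g
  have h3 := gdk_two_mul_le hZ hg
  have hNpos : 0 < Nat.card (normalizer (centralizer {g} : Set G)) := Nat.card_pos
  set K := Nat.card (gdkClass Z g)
  set N := Nat.card (normalizer (centralizer {g} : Set G))
  set C := Nat.card (centralizer {g})
  set D := Nat.card {c : G // c ∈ centralizer {g} ∧ c ∉ Z}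
  set z := Nat.card Z
  set n := Nat.card G
  have h4 : C ≤ 2 * D := by omega
  have h5 : n * N ≤ 2 * K * N := by
    calc n * N = n * C := by rw [hν]
      _ ≤ n * (2 * D) := Nat.mul_le_mul_left _ h4
      _ = 2 * (n * D) := by ring
      _ = 2 * (K * N) := by rw [h1]
      _ = 2 * K * N := by ring
  exact Nat.le_of_mul_le_mul_right h5 hNpos


/-- pure arithmetic at the end of the class equation -/
lemma gdk_arith_final (n m q t c₂ : ℕ) (hn : n = 1 + m * q) (hm : 1 ≤ m) (hq : 2 ≤ q) (ht : 1 ≤ t)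
    (h : n * t = c₂ * (1 + m * (q - 2))) : q ≤ 2 * t + 1 := by
  obtain ⟨q', rfl⟩ : ∃ q', q = q' + 2 := ⟨q - 2, by omega⟩
  simp only [Nat.add_sub_cancel] at h
  set D := 1 + m * q' with hD
  have hnD : n = D + 2 * m := by rw [hn, hD]; ring
  have hdvd : D ∣ n * t := ⟨c₂, by rw [h, mul_comm]⟩
  have h1 : D ∣ Nat.gcd D n * t := (Nat.dvd_gcd_mul_iff_dvd_mul).2 hdvd
  have hg2 : Nat.gcd D n ∣ 2 := by
    have ha : Nat.gcd D n ∣ D := Nat.gcd_dvd_left _ _
    have hb : Nat.gcd D n ∣ n := Nat.gcd_dvd_right _ _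
    have hc : Nat.gcd D n ∣ 2 * m := by
      have : Nat.gcd D n ∣ n - D := Nat.dvd_sub hb ha
      have h2 : n - D = 2 * m := by omega
      rwa [h2] at this
    -- gcd ∣ 2 * n and gcd ∣ (q'+2) * (2m)
    have hd : Nat.gcd D n ∣ 2 * n := Dvd.dvd.mul_left hb 2
    have he : Nat.gcd D n ∣ (q' + 2) * (2 * m) := Dvd.dvd.mul_left hc _
    have hf : 2 * n - (q' + 2) * (2 * m) = 2 := by
      have : 2 * n = 2 + (q' + 2) * (2 * m) := by rw [hn]; ring
      omega
    have := Nat.dvd_sub hd he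
    rwa [hf] at this
  have h3 : D ∣ 2 * t := h1.trans (Nat.mul_dvd_mul_right hg2 t)
  have h4 : D ≤ 2 * t := Nat.le_of_dvd (by omega) h3
  have h5 : 1 + q' ≤ D := by
    rw [hD]
    have : 1 * q' ≤ m * q' := Nat.mul_le_mul_right _ hm
    omega
  omega


/-- saturated sets: unions of `Z` and classes -/
def GdkSat (Z : Subgroup G) (T : Set G) : Prop :=
  (Z : Set G) ⊆ T ∧ ∀ h ∈ T, h ∉ Z → gdkClass Z h ⊆ T

lemma gdkSat_Z (Z : Subgroup G) : GdkSat Z (Z : Set G) :=
  ⟨subset_rfl, fun _ h hn => absurd h hn⟩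

lemma gdkSat_union {Z : Subgroup G} (hZ : Z ≤ center G) (hCA : GdkCA Z) {T : Set G}
    (hT : GdkSat Z T) {g : G} (hg : g ∉ Z) : GdkSat Z (T ∪ gdkClass Z g) := by
  refine ⟨hT.1.trans Set.subset_union_left, ?_⟩
  rintro h (h1 | h1) hhZ
  · exact (hT.2 h h1 hhZ).trans Set.subset_union_left
  · rw [gdk_class_eq hZ hCA hhZ hg (gdk_self_mem_class hhZ) h1]
    exact Set.subset_union_right

lemma gdkSat_disjoint {Z : Subgroup G} (hZ : Z ≤ center G) (hCA : GdkCA Z) {T : Set G}
    (hT : GdkSat Z T) {g : G} (hg : g ∉ T) : Disjoint T (gdkClass Z g) := by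
  have hgZ : g ∉ Z := fun h => hg (hT.1 h)
  rw [Set.disjoint_left]
  intro h h1 h2
  apply hg
  have hhZ : h ∉ Z := h2.1
  have := hT.2 h h1 hhZ
  rw [gdk_class_eq hZ hCA hhZ hgZ (gdk_self_mem_class hhZ) h2] at this
  exact this (gdk_self_mem_class hgZ)

/-- adding the class of an element outside a saturated set -/
lemma gdkSat_ncard [Finite G] {Z : Subgroup G} (hZ : Z ≤ center G) (hCA : GdkCA Z) {T : Set G}
    (hT : GdkSat Z T) {g : G} (hg : g ∉ T) :
    (T ∪ gdkClass Z g).ncard = T.ncard + (gdkClass Z g).ncard :=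
  Set.ncard_union_eq (gdkSat_disjoint hZ hCA hT hg) (Set.toFinite _) (Set.toFinite _)

omit [Group G] in
lemma gdk_exists_notMem [Finite G] (T : Set G) (hT : T.ncard < Nat.card G) : ∃ g, g ∉ T := by
  by_contra h
  have h' : ∀ g, g ∈ T := fun g => by_contra fun hg => h ⟨g, hg⟩
  have : T = Set.univ := Set.eq_univ_of_forall h'
  rw [this, Set.ncard_univ] at hT
  exact lt_irrefl _ hT

/-- one step: outside a saturated set `T ⊇ Z ∪ K(g₀)` which is not everything, there is a class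
`K` with `|T| + |K| ≤ |G| ≤ 4|K|`, and `T ∪ K` is saturated. -/
lemma gdk_step [Finite G] {Z : Subgroup G} (hZ : Z ≤ center G) (hCA : GdkCA Z) (g₀ : G)
    (hν : ∀ g : G, g ∉ Z → g ∉ gdkClass Z g₀ →
      Nat.card (normalizer (centralizer {g} : Set G)) ≤ 2 * Nat.card (centralizer {g}))
    {T : Set G} (hT : GdkSat Z T) (hK₀ : gdkClass Z g₀ ⊆ T) (hlt : T.ncard < Nat.card G) :
    ∃ g : G, g ∉ Z ∧ g ∉ gdkClass Z g₀ ∧ g ∉ T ∧ GdkSat Z (T ∪ gdkClass Z g) ∧
      (T ∪ gdkClass Z g).ncard = T.ncard + (gdkClass Z g).ncard ∧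
      T.ncard + (gdkClass Z g).ncard ≤ Nat.card G ∧
      Nat.card G ≤ 4 * (gdkClass Z g).ncard := by
  obtain ⟨g, hg⟩ := gdk_exists_notMem T hlt
  have hgZ : g ∉ Z := fun h => hg (hT.1 h)
  have hgK : g ∉ gdkClass Z g₀ := fun h => hg (hK₀ h)
  have h1 := gdkSat_ncard hZ hCA hT hg
  have h2 : (T ∪ gdkClass Z g).ncard ≤ Nat.card G := Set.ncard_le_card _
  have h3 := gdk_four_mul_class hZ hCA hgZ (hν g hgZ hgK)
  rw [Nat.card_coe_set_eq] at h3
  exact ⟨g, hgZ, hgK, hg, gdkSat_union hZ hCA hT hgZ, h1, h1 ▸ h2, h3⟩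

/-- arithmetic: the final equation -/
lemma gdk_arith_eq (n m q t z c₂ k₂ Dg : ℕ) (hn : n = 1 + m * q) (hz : 0 < z) (hq : 2 ≤ q)
    (h1 : 2 * k₂ + n * z * q + 2 * z = n * z * q * t + 2 * (n * z))
    (h2 : k₂ * (2 * (z * c₂)) = n * (z * q * t) * Dg) (h3 : Dg + z = z * c₂) :
    n * t = c₂ * (1 + m * (q - 2)) := by
  obtain ⟨q', rfl⟩ : ∃ q', q = q' + 2 := ⟨q - 2, by omega⟩
  simp only [Nat.add_sub_cancel]
  zify at h1 h2 h3 hn ⊢
  have hzne : (z : ℤ) ≠ 0 := by exact_mod_cast hz.ne'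
  have hDg : (Dg : ℤ) = z * c₂ - z := by linarith
  have e2 : (2 * (k₂ : ℤ)) = n * z * (q' + 2) * t + 2 * (n * z) - n * z * (q' + 2) - 2 * z := by
    linarith
  have e3 : (2 * (k₂ : ℤ)) * (z * c₂) = n * (z * (q' + 2) * t) * (z * c₂ - z) := by
    rw [← hDg]; linarith [h2]
  rw [e2] at e3
  have e4 : (z : ℤ) * z * ((n : ℤ) * t - c₂ * (1 + m * q')) * (q' + 2) = 0 := by
    have h5 : (n : ℤ) - 1 = m * (q' + 2) := by linarith
    linear_combination e3 + ((z:ℤ) * z * c₂ * q') * h5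
  have hq'pos : ((q' : ℤ) + 2) ≠ 0 := by positivity
  have e5 : (n : ℤ) * t - c₂ * (1 + m * q') = 0 := by
    rcases mul_eq_zero.1 e4 with h | h
    · rcases mul_eq_zero.1 h with h | h
      · rcases mul_eq_zero.1 h with h | h <;> exact absurd h hzne
      · exact h
    · exact absurd h hq'pos
  linarith

/-- class size, in `ncard` form -/
lemma gdk_class_ncard [Finite G] {Z : Subgroup G} (hZ : Z ≤ center G) (hCA : GdkCA Z) {g : G}
    (hg : g ∉ Z) :
    ∃ D : ℕ, D + Nat.card Z = Nat.card (centralizer {g}) ∧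
      (gdkClass Z g).ncard * Nat.card (normalizer (centralizer {g} : Set G)) = Nat.card G * D := by
  refine ⟨_, gdk_card_diff hZ g, ?_⟩
  rw [← Nat.card_coe_set_eq]
  exact gdk_card_class hZ hCA hg

lemma gdk_arith_t1 (n z q D₀ k : ℕ) (hz : 0 < z) (hq : 4 ≤ q) (hD : D₀ + z = z * q)
    (h1 : z + n * D₀ + k ≤ n * (z * q)) (h2 : n * (z * q) ≤ 4 * k) : False := by
  have e : n * D₀ + n * z = n * (z * q) := by rw [← hD]; ring
  have f : 4 * (n * z) ≤ n * (z * q) := by
    have : n * (z * q) = q * (n * z) := by ring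
    rw [this]; exact Nat.mul_le_mul_right _ hq
  omega

lemma gdk_arith_t2a (n z q t D₀ Db k₁ k : ℕ) (hz : 0 < z) (hq : 4 ≤ q) (ht : 2 ≤ t)
    (hD : D₀ + z = z * q) (hDb : Db + z = z * t)
    (hk₁ : k₁ * (z * t) = n * (z * q * t) * Db)
    (h1 : z + n * D₀ + k₁ + k ≤ n * (z * q * t)) (h2 : n * (z * q * t) ≤ 4 * k) : False := by
  have hzt : 0 < z * t := by positivity
  have hk₁' : k₁ = n * q * Db := by
    have : k₁ * (z * t) = n * q * Db * (z * t) := by rw [hk₁]; ring
    exact Nat.eq_of_mul_eq_mul_right hzt this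
  have e : n * D₀ + n * z = n * (z * q) := by rw [← hD]; ring
  have e2 : k₁ + n * (z * q) = n * (z * q * t) := by
    rw [hk₁']
    have : n * q * (Db + z) = n * q * (z * t) := by rw [hDb]
    calc n * q * Db + n * (z * q) = n * q * (Db + z) := by ring
      _ = n * q * (z * t) := this
      _ = n * (z * q * t) := by ring
  have f : 4 * (n * z) ≤ n * (z * q) := by
    have : n * (z * q) = q * (n * z) := by ring
    rw [this]; exact Nat.mul_le_mul_right _ hq
  have g : n * (z * q) ≤ n * (z * q * t) := by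
    have : n * (z * q * t) = n * (z * q) * t := by ring
    rw [this]; exact Nat.le_mul_of_pos_right _ (by omega)
  omega

/-- the facts in the case `|N_b| = 2zt` -/
lemma gdk_arith_t2b (n z q t D₀ Db k₁ : ℕ) (hz : 0 < z) (hq : 4 ≤ q) (ht : 2 ≤ t) (hn : 2 ≤ n)
    (hD : D₀ + z = z * q) (hDb : Db + z = z * t)
    (hk₁ : k₁ * (2 * (z * t)) = n * (z * q * t) * Db) :
    n * D₀ + n * z = n * (z * q) ∧ 2 * k₁ + n * (z * q) = n * (z * q * t) ∧
      4 * (n * z) ≤ n * (z * q) ∧ n * (z * q) ≤ n * (z * q * t) ∧ z < n * z := by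
  have hzt : 0 < z * t := by positivity
  have hk₁' : 2 * k₁ = n * q * Db := by
    have : 2 * k₁ * (z * t) = n * q * Db * (z * t) := by
      calc 2 * k₁ * (z * t) = k₁ * (2 * (z * t)) := by ring
        _ = n * (z * q * t) * Db := hk₁
        _ = n * q * Db * (z * t) := by ring
    exact Nat.eq_of_mul_eq_mul_right hzt this
  refine ⟨by rw [← hD]; ring, ?_, ?_, ?_, ?_⟩
  · rw [hk₁']
    have : n * q * (Db + z) = n * q * (z * t) := by rw [hDb]
    calc n * q * Db + n * (z * q) = n * q * (Db + z) := by ring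
      _ = n * q * (z * t) := this
      _ = n * (z * q * t) := by ring
  · have : n * (z * q) = q * (n * z) := by ring
    rw [this]; exact Nat.mul_le_mul_right _ hq
  · have : n * (z * q * t) = n * (z * q) * t := by ring
    rw [this]; exact Nat.le_mul_of_pos_right _ (by omega)
  · calc z = 1 * z := (one_mul z).symm
      _ < n * z := Nat.mul_lt_mul_of_pos_right (by omega) hz

/-- **The class equation, counting form.** -/
theorem gdk_class_equation [Finite G] (Z : Subgroup G) (hZ : Z ≤ center G) (hCA : GdkCA Z)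
    (g₀ : G) (hg₀ : g₀ ∉ Z) (z q t m : ℕ) (hz : Nat.card Z = z)
    (hC : Nat.card (centralizer {g₀}) = z * q)
    (hN : Nat.card (normalizer (centralizer {g₀} : Set G)) = z * q * t)
    (hG : Nat.card G = (1 + m * q) * (z * q * t)) (hm : 1 ≤ m)
    (hν : ∀ g : G, g ∉ Z → g ∉ gdkClass Z g₀ →
      Nat.card (normalizer (centralizer {g} : Set G)) ≤ 2 * Nat.card (centralizer {g}))
    (hb : 2 ≤ t → ∃ b : G, b ∉ Z ∧ b ∉ gdkClass Z g₀ ∧ Nat.card (centralizer {b}) = z * t) :
    q ≤ 2 * t + 1 := by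
  classical
  by_contra hcon
  have hcon' : 2 * t + 1 < q := not_le.1 hcon
  have hzpos : 0 < z := hz ▸ Nat.card_pos
  have hNpos : 0 < z * q * t := hN ▸ Nat.card_pos
  have ht : 1 ≤ t := by
    rcases Nat.eq_zero_or_pos t with h | h
    · rw [h, mul_zero] at hNpos; omega
    · exact h
  have hq : 4 ≤ q := by omega
  obtain ⟨n, hn⟩ : ∃ n, n = 1 + m * q := ⟨_, rfl⟩
  have hn2 : 2 ≤ n := by
    have : 1 * 4 ≤ m * q := Nat.mul_le_mul hm hq
    omega
  rw [← hn] at hG
  -- the class of g₀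
  obtain ⟨D₀, hD₀, hk₀⟩ := gdk_class_ncard hZ hCA hg₀
  rw [hz, hC] at hD₀
  rw [hN, hG] at hk₀
  have hk₀' : (gdkClass Z g₀).ncard = n * D₀ := by
    have : (gdkClass Z g₀).ncard * (z * q * t) = n * D₀ * (z * q * t) := by
      rw [hk₀]; ring
    exact Nat.eq_of_mul_eq_mul_right hNpos this
  have hZcard : (Z : Set G).ncard = z := by rw [← hz, ← Nat.card_coe_set_eq]; rfl
  -- T₁ = Z ∪ K₀
  have hg₀' : g₀ ∉ (Z : Set G) := hg₀
  have hS₁ : GdkSat Z ((Z : Set G) ∪ gdkClass Z g₀) := gdkSat_union hZ hCA (gdkSat_Z Z) hg₀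
  have hT₁ : ((Z : Set G) ∪ gdkClass Z g₀).ncard = z + n * D₀ := by
    rw [gdkSat_ncard hZ hCA (gdkSat_Z Z) hg₀', hZcard, hk₀']
  have hK₀T₁ : gdkClass Z g₀ ⊆ (Z : Set G) ∪ gdkClass Z g₀ := Set.subset_union_right
  by_cases ht1 : t = 1
  · -- case t = 1
    subst ht1
    rw [mul_one] at hG
    have hlt : ((Z : Set G) ∪ gdkClass Z g₀).ncard < Nat.card G := by
      rw [hT₁, hG]
      have e : n * D₀ + n * z = n * (z * q) := by rw [← hD₀]; ring
      have h2 : z < n * z := by
        calc z = 1 * z := (one_mul z).symm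
          _ < n * z := Nat.mul_lt_mul_of_pos_right (by omega) hzpos
      omega
    obtain ⟨g, -, -, -, -, -, h5, h4⟩ := gdk_step hZ hCA g₀ hν hS₁ hK₀T₁ hlt
    rw [hT₁, hG] at h5
    rw [hG] at h4
    exact gdk_arith_t1 n z q D₀ _ hzpos hq hD₀ h5 h4
  · have ht2 : 2 ≤ t := by omega
    obtain ⟨b, hbZ, hbK, hbC⟩ := hb ht2
    obtain ⟨Db, hDb, hkb⟩ := gdk_class_ncard hZ hCA hbZ
    rw [hz, hbC] at hDb
    rw [hG] at hkb
    have hbT₁ : b ∉ (Z : Set G) ∪ gdkClass Z g₀ := fun h => h.elim hbZ hbK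
    have hS₂ : GdkSat Z (((Z : Set G) ∪ gdkClass Z g₀) ∪ gdkClass Z b) :=
      gdkSat_union hZ hCA hS₁ hbZ
    have hT₂ : (((Z : Set G) ∪ gdkClass Z g₀) ∪ gdkClass Z b).ncard =
        z + n * D₀ + (gdkClass Z b).ncard := by
      rw [gdkSat_ncard hZ hCA hS₁ hbT₁, hT₁]
    have hK₀T₂ : gdkClass Z g₀ ⊆ ((Z : Set G) ∪ gdkClass Z g₀) ∪ gdkClass Z b :=
      hK₀T₁.trans Set.subset_union_left
    rcases gdk_card_normalizer _ (hν b hbZ hbK) with hNb | hNb
    · -- |N_b| = z t
      rw [hNb, hbC] at hkb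
      have hlt : (((Z : Set G) ∪ gdkClass Z g₀) ∪ gdkClass Z b).ncard < Nat.card G := by
        by_contra hge
        have heq : (((Z : Set G) ∪ gdkClass Z g₀) ∪ gdkClass Z b).ncard = Nat.card G :=
          le_antisymm (Set.ncard_le_card _) (not_lt.1 hge)
        rw [hT₂, hG] at heq
        exact gdk_arith_t2a n z q t D₀ Db _ 0 hzpos hq ht2 hD₀ hDb hkb (by omega) (by
          have hzt : 0 < z * t := by positivity
          have hk₁' : (gdkClass Z b).ncard = n * q * Db := by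
            have : (gdkClass Z b).ncard * (z * t) = n * q * Db * (z * t) := by rw [hkb]; ring
            exact Nat.eq_of_mul_eq_mul_right hzt this
          exfalso
          have e : n * D₀ + n * z = n * (z * q) := by rw [← hD₀]; ring
          have e2 : (gdkClass Z b).ncard + n * (z * q) = n * (z * q * t) := by
            rw [hk₁']
            have : n * q * (Db + z) = n * q * (z * t) := by rw [hDb]
            calc n * q * Db + n * (z * q) = n * q * (Db + z) := by ring
              _ = n * q * (z * t) := this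
              _ = n * (z * q * t) := by ring
          have h2 : z < n * z := by
            calc z = 1 * z := (one_mul z).symm
              _ < n * z := Nat.mul_lt_mul_of_pos_right (by omega) hzpos
          omega)
      obtain ⟨g, -, -, -, -, -, h5, h4⟩ := gdk_step hZ hCA g₀ hν hS₂ hK₀T₂ hlt
      rw [hT₂, hG] at h5
      rw [hG] at h4
      exact gdk_arith_t2a n z q t D₀ Db _ _ hzpos hq ht2 hD₀ hDb hkb h5 h4
    · -- |N_b| = 2 z t
      rw [hNb, hbC] at hkb
      obtain ⟨e1, e2, e3, e4, e5⟩ := gdk_arith_t2b n z q t D₀ Db _ hzpos hq ht2 hn2 hD₀ hDb hkb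
      have hlt : (((Z : Set G) ∪ gdkClass Z g₀) ∪ gdkClass Z b).ncard < Nat.card G := by
        rw [hT₂, hG]; omega
      obtain ⟨g, hgZ, hgK, hgT, hS₃, hT₃, h5, h4⟩ := gdk_step hZ hCA g₀ hν hS₂ hK₀T₂ hlt
      rw [hT₂] at hT₃
      rw [hT₂, hG] at h5
      rw [hG] at h4
      obtain ⟨Dg, hDg, hkg⟩ := gdk_class_ncard hZ hCA hgZ
      rw [hz] at hDg
      rw [hG] at hkg
      rcases gdk_card_normalizer _ (hν g hgZ hgK) with hNg | hNg
      · -- self-normalising: 2 k₂ ≥ |G|
        have h2 := gdk_two_mul_class hZ hCA hgZ hNg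
        rw [Nat.card_coe_set_eq, hG] at h2
        omega
      · -- index 2
        rw [hNg] at hkg
        have hall : ((((Z : Set G) ∪ gdkClass Z g₀) ∪ gdkClass Z b) ∪ gdkClass Z g).ncard =
            Nat.card G := by
          by_contra hne
          have hlt' : ((((Z : Set G) ∪ gdkClass Z g₀) ∪ gdkClass Z b) ∪ gdkClass Z g).ncard <
              Nat.card G := lt_of_le_of_ne (Set.ncard_le_card _) hne
          obtain ⟨g', -, -, -, -, -, h5', h4'⟩ := gdk_step hZ hCA g₀ hν hS₃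
            (hK₀T₂.trans Set.subset_union_left) hlt'
          rw [hT₃, hG] at h5'
          rw [hG] at h4'
          omega
        rw [hT₃, hG] at hall
        obtain ⟨c₂, hc₂⟩ : z ∣ Nat.card (centralizer {g}) :=
          hz ▸ Subgroup.card_dvd_of_le (gdk_le_centralizer hZ g)
        rw [hc₂] at hkg hDg
        have hq2 : 2 ≤ q := by omega
        have hfin := gdk_arith_final n m q t c₂ hn hm hq2 ht
          (gdk_arith_eq n m q t z c₂ _ Dg hn hzpos hq2 (by
            have : n * z * q = n * (z * q) := by ring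
            have h' : n * (z * q) * t = n * (z * q * t) := by ring
            rw [this, h']; omega) hkg hDg)
        omega

end Fermat.Agent.TW.G.Dk


end ZBTW_035_0

/-! ### bundled: `Fermat.Agent.TW.G.Dickson.Plan` -/
section ZBTW_035_1

/-!
# TW-G / P9 G-dickson (helper26): interface for the concrete part

Goal: `Fermat.Agent.TW.G.Sel.StmtDickson`, by the abstract class equation
`Fermat.Agent.TW.G.Dk.gdk_class_equation` applied to the finite group `↥G`, `G ≤ GL₂(k)` with
`det = 1` on `G`, `Z = G ∩ {±1}`, `g₀ = u_{x₀}`.  One `Prop` per piece.  Proofs: NOTES/TW-G.md §3.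
-/

set_option autoImplicit false

namespace Fermat.Agent.TW.G.Dk

open Matrix Polynomial Subgroup Fermat.Agent.TW.G.Sel

/-- `{±1}` in `GL₂(k)` -/
def dkZgl (k : Type) [Field k] : Subgroup (GL (Fin 2) k) where
  carrier := {g | g.1 = 1 ∨ g.1 = -1}
  one_mem' := Or.inl rfl
  mul_mem' := by
    rintro a b (ha | ha) (hb | hb)
    · left; show (a * b).1 = 1; rw [Units.val_mul, ha, hb, mul_one]
    · right; show (a * b).1 = -1; rw [Units.val_mul, ha, hb, one_mul]
    · right; show (a * b).1 = -1; rw [Units.val_mul, ha, hb, mul_one]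
    · left; show (a * b).1 = 1; rw [Units.val_mul, ha, hb]; simp
  inv_mem' := by
    rintro a (ha | ha)
    · left
      have : a = 1 := Units.ext ha
      rw [this]; simp
    · right
      have h1 : (a * a).1 = 1 := by rw [Units.val_mul, ha]; simp
      have h2 : a * a = 1 := Units.ext h1
      have h3 : a⁻¹ = a := inv_eq_of_mul_eq_one_left h2
      rw [h3, ha]

/-- the upper triangular matrices in `GL₂(k)` -/
def dkBgl (k : Type) [Field k] : Subgroup (GL (Fin 2) k) where
  carrier := {g | g.1 1 0 = 0}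
  one_mem' := by simp
  mul_mem' := by
    intro a b ha hb
    change a.1 1 0 = 0 at ha
    change b.1 1 0 = 0 at hb
    show (a * b).1 1 0 = 0
    rw [Units.val_mul, Matrix.mul_apply, Fin.sum_univ_two, ha, hb]; simp
  inv_mem' := by
    intro a ha
    change a.1 1 0 = 0 at ha
    show (a⁻¹).1 1 0 = 0
    have h : (a⁻¹ : GL (Fin 2) k).1 = (a.1)⁻¹ := Matrix.coe_units_inv a
    rw [h, Matrix.inv_def, Matrix.smul_apply, Matrix.adjugate_fin_two]
    simp [ha]

/-- the matrices `±u_x` in `GL₂(k)` -/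
def dkZUgl (k : Type) [Field k] : Subgroup (GL (Fin 2) k) where
  carrier := {g | g.1 1 0 = 0 ∧ g.1 0 0 = g.1 1 1 ∧ (g.1 0 0 = 1 ∨ g.1 0 0 = -1)}
  one_mem' := by simp
  mul_mem' := by
    rintro a b ⟨ha, ha', ha''⟩ ⟨hb, hb', hb''⟩
    show (a * b).1 1 0 = 0 ∧ (a * b).1 0 0 = (a * b).1 1 1 ∧ ((a * b).1 0 0 = 1 ∨ (a * b).1 0 0 = -1)
    rw [Units.val_mul]
    simp only [Matrix.mul_apply, Fin.sum_univ_two, ha, hb, ← ha', ← hb']
    refine ⟨by simp, by simp, ?_⟩
    rcases ha'' with h | h <;> rcases hb'' with h' | h' <;> simp [h, h']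
  inv_mem' := by
    rintro a ⟨ha, ha', ha''⟩
    show (a⁻¹).1 1 0 = 0 ∧ (a⁻¹).1 0 0 = (a⁻¹).1 1 1 ∧ ((a⁻¹).1 0 0 = 1 ∨ (a⁻¹).1 0 0 = -1)
    have h : (a⁻¹ : GL (Fin 2) k).1 = (a.1)⁻¹ := Matrix.coe_units_inv a
    have hdet : a.1.det = 1 := by
      rw [Matrix.det_fin_two, ha, ← ha']
      rcases ha'' with h | h <;> simp [h]
    rw [h, Matrix.inv_def, hdet]
    simp only [Ring.inverse_one, one_smul, Matrix.adjugate_fin_two, Matrix.of_apply,
      Matrix.cons_val', Matrix.cons_val_zero, Matrix.cons_val_one, Matrix.empty_val',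
      Matrix.cons_val_fin_one]
    refine ⟨by simp [ha], ha'.symm, ?_⟩
    rw [← ha']; exact ha''

variable {k : Type} [Field k]

/-- standing assumptions for the counting -/
structure DkHyp (p : ℕ) (G : Subgroup (GL (Fin 2) k)) : Prop where
  odd : p ≠ 2
  det_one : ∀ g ∈ G, g.1.det = 1
  split : ∀ g ∈ G, IsSplit g.1
  uni : ∃ g ∈ G, ∃ x : k, x ≠ 0 ∧ g.1 = uU x
  nontri : ∃ g ∈ G, g.1 1 0 ≠ 0

/-- `Z = G ∩ {±1}` as a subgroup of `↥G` -/
abbrev dkZ (G : Subgroup (GL (Fin 2) k)) : Subgroup ↥G := (dkZgl k).subgroupOf G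

/-- (DkA) `Z` is central and centralisers of elements outside `Z` are abelian. -/
def StmtDkA : Prop :=
  ∀ (p : ℕ) [Fact p.Prime] (k : Type) [Field k] [Finite k] [CharP k p]
    (G : Subgroup (GL (Fin 2) k)), DkHyp p G →
    dkZ G ≤ center ↥G ∧ GdkCA (dkZ G)

/-- (DkB) centraliser and normaliser of a nontrivial upper unipotent element. -/
def StmtDkB : Prop :=
  ∀ (p : ℕ) [Fact p.Prime] (k : Type) [Field k] [Finite k] [CharP k p]
    (G : Subgroup (GL (Fin 2) k)), DkHyp p G →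
    ∀ g₀ : ↥G, (∃ x : k, x ≠ 0 ∧ g₀.1.1 = uU x) →
      centralizer {g₀} = (dkZUgl k).subgroupOf G ∧
      normalizer (centralizer {g₀} : Set ↥G) = (dkBgl k).subgroupOf G

/-- (DkB') the orders of `ZU` and `B`. -/
def StmtDkB' : Prop :=
  ∀ (p : ℕ) [Fact p.Prime] (k : Type) [Field k] [Finite k] [CharP k p]
    (G : Subgroup (GL (Fin 2) k)), DkHyp p G →
    Nat.card ((dkZUgl k).subgroupOf G) = Nat.card (dkZ G) * Nat.card (Xset G) ∧
    Nat.card ((dkBgl k).subgroupOf G) =
      Nat.card (dkZ G) * Nat.card (Xset G) * Nat.card (Asq G)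

/-- (DkC) the index of `B`: `[G : B] = 1 + m q` with `m ≥ 1`. -/
def StmtDkC : Prop :=
  ∀ (p : ℕ) [Fact p.Prime] (k : Type) [Field k] [Finite k] [CharP k p]
    (G : Subgroup (GL (Fin 2) k)), DkHyp p G →
    ∃ m : ℕ, 1 ≤ m ∧
      Nat.card ↥G = (1 + m * Nat.card (Xset G)) * Nat.card ((dkBgl k).subgroupOf G)

/-- (DkD1) the centraliser of an element with distinct eigenvalues has index at most 2 in its
normaliser. -/
def StmtDkD1 : Prop :=
  ∀ (p : ℕ) [Fact p.Prime] (k : Type) [Field k] [Finite k] [CharP k p]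
    (G : Subgroup (GL (Fin 2) k)), DkHyp p G →
    ∀ g : ↥G, HasDistinctEig g.1.1 →
      Nat.card (normalizer (centralizer {g} : Set ↥G)) ≤ 2 * Nat.card (centralizer {g})

/-- (DkD2) every element of `G ∖ Z` without distinct eigenvalues is conjugate in `G` to some
`±u_x` (Sylow). -/
def StmtDkD2 : Prop :=
  StmtDkB' → StmtDkC →
  ∀ (p : ℕ) [Fact p.Prime] (k : Type) [Field k] [Finite k] [CharP k p]
    (G : Subgroup (GL (Fin 2) k)), DkHyp p G →
    ∀ g : ↥G, g ∉ dkZ G → ¬ HasDistinctEig g.1.1 →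
      ∃ x : ↥G, x⁻¹ * g * x ∈ (dkZUgl k).subgroupOf G

/-- (DkE) if `t ≥ 2` there is an upper triangular element with distinct eigenvalues whose
centraliser has order `z t`. -/
def StmtDkE : Prop :=
  StmtDkB' →
  ∀ (p : ℕ) [Fact p.Prime] (k : Type) [Field k] [Finite k] [CharP k p]
    (G : Subgroup (GL (Fin 2) k)), DkHyp p G → 2 ≤ Nat.card (Asq G) →
    ∃ b : ↥G, HasDistinctEig b.1.1 ∧
      Nat.card (centralizer {b}) = Nat.card (dkZ G) * Nat.card (Asq G)

/-- (DkF) assembly. -/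
def StmtDkF : Prop :=
  StmtDkA → StmtDkB → StmtDkB' → StmtDkC → StmtDkD1 → StmtDkD2 → StmtDkE → StmtDickson

end Fermat.Agent.TW.G.Dk


end ZBTW_035_1

/-! ### bundled: `Fermat.Agent.TW.G.Dickson.Central` -/
section ZBTW_035_2

/-!
# TW-G / P9 Dickson, piece DkA

`stmtDkA : StmtDkA`: for `G ≤ GL₂(k)` with `det = 1` on `G`, the subgroup `Z = G ∩ {±1}` is
central and the centraliser of every element outside `Z` is commutative.

The centraliser of a non-scalar `2 × 2` matrix `M` is `k[M] = {α + a M}` (`gdka_mem_span`).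
-/

set_option autoImplicit false

namespace Fermat.Agent.TW.G.Dk

open Matrix Polynomial Subgroup Fermat.Agent.TW.G.Sel

section Alg

variable {k : Type} [Field k]

/-- a `2 × 2` matrix is non-scalar -/
def GdkaNonScalar (M : M2 k) : Prop := M 0 1 ≠ 0 ∨ M 1 0 ≠ 0 ∨ M 0 0 ≠ M 1 1

/-- the entries of the commutation relation -/
lemma gdka_comm_entries {M X : M2 k} (h : X * M = M * X) :
    X 0 1 * M 1 0 = M 0 1 * X 1 0 ∧
    M 0 1 * (X 0 0 - X 1 1) = X 0 1 * (M 0 0 - M 1 1) ∧
    X 1 0 * (M 0 0 - M 1 1) = M 1 0 * (X 0 0 - X 1 1) := by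
  have h00 := congrFun (congrFun h 0) 0
  have h01 := congrFun (congrFun h 0) 1
  have h10 := congrFun (congrFun h 1) 0
  simp only [Matrix.mul_apply, Fin.sum_univ_two] at h00 h01 h10
  refine ⟨?_, ?_, ?_⟩
  · linear_combination h00
  · linear_combination h01
  · linear_combination h10

/-- the centraliser of a non-scalar matrix `M` is `k[M]` -/
theorem gdka_mem_span {M X : M2 k} (hM : GdkaNonScalar M) (h : X * M = M * X) :
    ∃ α a : k, X = α • (1 : M2 k) + a • M := by
  obtain ⟨h1, h2, h3⟩ := gdka_comm_entries h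
  have key : ∀ a : k, a * M 0 1 = X 0 1 → a * M 1 0 = X 1 0 →
      a * (M 0 0 - M 1 1) = X 0 0 - X 1 1 →
      X = (X 0 0 - a * M 0 0) • (1 : M2 k) + a • M := by
    intro a e1 e2 e3
    refine Matrix.ext fun i j => ?_
    fin_cases i <;> fin_cases j
    · simp
    · simp [e1]
    · simp [e2]
    · simp only [Fin.mk_one, Fin.isValue, Matrix.add_apply, Matrix.smul_apply,
        Matrix.one_apply_eq, smul_eq_mul, mul_one]
      linear_combination e3
  rcases hM with hm | hm | hm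
  · refine ⟨_, _, key (X 0 1 / M 0 1) ?_ ?_ ?_⟩
    · field_simp
    · field_simp
      linear_combination h1
    · field_simp
      linear_combination -h2
  · refine ⟨_, _, key (X 1 0 / M 1 0) ?_ ?_ ?_⟩
    · field_simp
      linear_combination -h1
    · field_simp
    · field_simp
      linear_combination h3
  · have hm' : M 0 0 - M 1 1 ≠ 0 := sub_ne_zero.mpr hm
    refine ⟨_, _, key ((X 0 0 - X 1 1) / (M 0 0 - M 1 1)) ?_ ?_ ?_⟩
    · field_simp
      linear_combination h2
    · field_simp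
      linear_combination -h3
    · field_simp

/-- two matrices commuting with a non-scalar matrix commute -/
theorem gdka_comm_of_nonscalar {M X Y : M2 k} (hM : GdkaNonScalar M) (hX : X * M = M * X)
    (hY : Y * M = M * Y) : X * Y = Y * X := by
  obtain ⟨α, a, rfl⟩ := gdka_mem_span hM hX
  obtain ⟨β, b, rfl⟩ := gdka_mem_span hM hY
  have hc : Commute M (β • (1 : M2 k) + b • M) :=
    ((Commute.one_right M).smul_right β).add_right ((Commute.refl M).smul_right b)
  have : Commute (α • (1 : M2 k) + a • M) (β • (1 : M2 k) + b • M) :=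
    ((Commute.one_left _).smul_left α).add_left (hc.smul_left a)
  exact this

/-- a matrix of determinant `1` which is not `±1` is non-scalar -/
theorem gdka_nonscalar_of_det {M : M2 k} (hdet : M.det = 1) (h1 : M ≠ 1) (h2 : M ≠ -1) :
    GdkaNonScalar M := by
  by_contra hns
  unfold GdkaNonScalar at hns
  simp only [not_or, ne_eq, not_not] at hns
  obtain ⟨e1, e2, e3⟩ := hns
  rw [Matrix.det_fin_two, e1, e2, ← e3] at hdet
  have hsq : (M 0 0 - 1) * (M 0 0 + 1) = 0 := by linear_combination hdet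
  rcases mul_eq_zero.mp hsq with h | h
  · apply h1
    have h00 : M 0 0 = 1 := by linear_combination h
    refine Matrix.ext fun i j => ?_
    fin_cases i <;> fin_cases j
    · simpa using h00
    · simpa using e1
    · simpa using e2
    · simpa using e3.symm.trans h00
  · apply h2
    have h00 : M 0 0 = -1 := by linear_combination h
    refine Matrix.ext fun i j => ?_
    fin_cases i <;> fin_cases j
    · simpa using h00
    · simpa using e1
    · simpa using e2
    · simpa using e3.symm.trans h00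

end Alg

/-- the elements of `G` outside `Z` are non-scalar -/
theorem gdka_nonscalar {k : Type} [Field k] {p : ℕ} {G : Subgroup (GL (Fin 2) k)}
    (hG : DkHyp p G) (g : ↥G) (hg : g ∉ dkZ G) : GdkaNonScalar g.1.1 := by
  apply gdka_nonscalar_of_det (hG.det_one g.1 g.2)
  · intro h
    exact hg (Subgroup.mem_subgroupOf.mpr (Or.inl h))
  · intro h
    exact hg (Subgroup.mem_subgroupOf.mpr (Or.inr h))

/-- **DkA.** -/
theorem stmtDkA : StmtDkA := by
  intro p _ k _ _ _ G hG
  refine ⟨fun z hz => ?_, fun g hg x y hx hy => ?_⟩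
  · rw [Subgroup.mem_center_iff]
    intro x
    have hz' : z.1.1 = 1 ∨ z.1.1 = -1 := Subgroup.mem_subgroupOf.mp hz
    apply Subtype.ext
    apply Units.ext
    show x.1.1 * z.1.1 = z.1.1 * x.1.1
    rcases hz' with h | h <;> rw [h] <;> simp
  · have hns := gdka_nonscalar hG g hg
    have hx' : x.1.1 * g.1.1 = g.1.1 * x.1.1 := by
      have := (gdk_mem_centralizer_iff g x).mp hx
      have h2 := congrArg (fun t : ↥G => t.1.1) this
      exact h2.symm
    have hy' : y.1.1 * g.1.1 = g.1.1 * y.1.1 := by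
      have := (gdk_mem_centralizer_iff g y).mp hy
      have h2 := congrArg (fun t : ↥G => t.1.1) this
      exact h2.symm
    apply Subtype.ext
    apply Units.ext
    exact gdka_comm_of_nonscalar hns hx' hy'

end Fermat.Agent.TW.G.Dk


end ZBTW_035_2

/-! ### bundled: `Fermat.Agent.TW.G.Dickson.Normal` -/
section ZBTW_035_3

/-!
# TW-G / P9 Dickson, piece DkD1

`stmtDkD1 : StmtDkD1`: for `g ∈ G` with two distinct eigenvalues, the centraliser of `g` has
index at most `2` in its normaliser.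

If `x` normalises `C(g)`, then `g' = x g x⁻¹ ∈ C(g)` commutes with `g` and has the same trace and
determinant; as `g' ∈ k[g]`, this forces `g' = g` or `g' = tr(g) - g` (`gdkd1_conj_cases`).
So the normaliser is contained in `C(g) ∪ x₀ C(g)`.
-/

set_option autoImplicit false

namespace Fermat.Agent.TW.G.Dk

open Matrix Polynomial Subgroup Fermat.Agent.TW.G.Sel

section Alg

variable {k : Type} [Field k]

/-- trace and determinant of a matrix with given eigenvalues -/
theorem gdkd1_trace_det {M : M2 k} {α β : k} (hne : α ≠ β)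
    (h : M.charpoly = (X - C α) * (X - C β)) : M.trace = α + β ∧ M.det = α * β := by
  rw [Matrix.charpoly_fin_two] at h
  have hα := congrArg (Polynomial.eval α) h
  have hβ := congrArg (Polynomial.eval β) h
  simp only [eval_add, eval_sub, eval_pow, eval_X, eval_mul, eval_C, sub_self, zero_mul,
    mul_zero] at hα hβ
  have h1 : (α - β) * (α + β - M.trace) = 0 := by linear_combination hα - hβ
  have h2 : α + β - M.trace = 0 := (mul_eq_zero.mp h1).resolve_left (sub_ne_zero.mpr hne)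
  have ht : M.trace = α + β := by linear_combination -h2
  refine ⟨ht, ?_⟩
  rw [ht] at hα
  linear_combination hα

/-- a matrix with two distinct eigenvalues is not scalar -/
theorem gdkd1_nonscalar {M : M2 k} {α β : k} (hne : α ≠ β)
    (h : M.charpoly = (X - C α) * (X - C β)) : GdkaNonScalar M := by
  obtain ⟨ht, hd⟩ := gdkd1_trace_det hne h
  by_contra hns
  unfold GdkaNonScalar at hns
  simp only [not_or, ne_eq, not_not] at hns
  obtain ⟨e1, e2, e3⟩ := hns
  rw [Matrix.trace_fin_two, ← e3] at ht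
  rw [Matrix.det_fin_two, e1, ← e3] at hd
  have : (α - β) ^ 2 = 0 := by
    have h1 : (α - β) ^ 2 = (α + β) ^ 2 - 4 * (α * β) := by ring
    rw [h1, ← ht, ← hd]
    ring
  exact sub_ne_zero.mpr hne (pow_eq_zero_iff (two_ne_zero) |>.mp this)

/-- a matrix commuting with `M` (distinct eigenvalues), with the same trace and determinant,
is `M` or `tr(M) - M` -/
theorem gdkd1_conj_cases (h2 : (2 : k) ≠ 0) {M M' : M2 k} {α β : k} (hne : α ≠ β)
    (h : M.charpoly = (X - C α) * (X - C β)) (hcomm : M' * M = M * M')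
    (htr : M'.trace = M.trace) (hdet : M'.det = M.det) :
    M' = M ∨ M' = M.trace • (1 : M2 k) - M := by
  obtain ⟨ht, hd⟩ := gdkd1_trace_det hne h
  obtain ⟨a, b, rfl⟩ := gdka_mem_span (gdkd1_nonscalar hne h) hcomm
  have e1 : 2 * a + b * M.trace = M.trace := by
    simp only [Matrix.trace_fin_two, Matrix.add_apply, Matrix.smul_apply, Matrix.one_apply_eq,
      smul_eq_mul, mul_one] at htr ⊢
    linear_combination htr
  have e2 : a ^ 2 + a * b * M.trace + b ^ 2 * M.det = M.det := by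
    simp only [Matrix.det_fin_two, Matrix.trace_fin_two, Matrix.add_apply, Matrix.smul_apply,
      Matrix.one_apply_eq, smul_eq_mul, mul_one, ne_eq, zero_ne_one, not_false_eq_true,
      one_ne_zero, Matrix.one_apply_ne, mul_zero, zero_add] at hdet ⊢
    linear_combination hdet
  have hdisc : M.trace ^ 2 - 4 * M.det ≠ 0 := by
    rw [ht, hd]
    have h1 : (α + β) ^ 2 - 4 * (α * β) = (α - β) ^ 2 := by ring
    rw [h1]
    exact pow_ne_zero 2 (sub_ne_zero.mpr hne)
  have h3 : (1 - b ^ 2) * (M.trace ^ 2 - 4 * M.det) = 0 := by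
    linear_combination 4 * e2 - (2 * a + b * M.trace + M.trace) * e1
  have h4 : (1 - b) * (1 + b) = 0 := by
    have := (mul_eq_zero.mp h3).resolve_right hdisc
    linear_combination this
  rcases mul_eq_zero.mp h4 with hb | hb
  · left
    have hb' : b = 1 := by linear_combination -hb
    subst hb'
    have ha : a = 0 := by
      have : 2 * a = 0 := by linear_combination e1
      exact (mul_eq_zero.mp this).resolve_left h2
    rw [ha, zero_smul, zero_add, one_smul]
  · right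
    have hb' : b = -1 := by linear_combination hb
    subst hb'
    have ha : a = M.trace := by
      have : 2 * (a - M.trace) = 0 := by linear_combination e1
      exact sub_eq_zero.mp ((mul_eq_zero.mp this).resolve_left h2)
    rw [ha, neg_one_smul, sub_eq_add_neg]

end Alg

/-- **DkD1.** -/
theorem stmtDkD1 : StmtDkD1 := by
  intro p _ k _ _ _ G hG g hdist
  obtain ⟨α, β, hne, hcp⟩ := hdist
  have h2 : (2 : k) ≠ 0 := Ring.two_ne_zero (by rw [ringChar.eq k p]; exact hG.odd)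
  -- conjugates of `g` inside the centraliser
  have key : ∀ x : ↥G, x ∈ normalizer (centralizer {g} : Set ↥G) →
      (x * g * x⁻¹).1.1 = g.1.1 ∨ (x * g * x⁻¹).1.1 = g.1.1.trace • (1 : M2 k) - g.1.1 := by
    intro x hx
    have hmem : x * g * x⁻¹ ∈ centralizer {g} :=
      (mem_normalizer_iff.mp hx g).mp (gdk_self_mem g)
    have hc := (gdk_mem_centralizer_iff g _).mp hmem
    have hc' : (x * g * x⁻¹).1.1 * g.1.1 = g.1.1 * (x * g * x⁻¹).1.1 :=
      (congrArg (fun t : ↥G => t.1.1) hc).symm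
    have hval : (x * g * x⁻¹).1.1 = (x.1 : M2 k) * g.1.1 * ((x.1⁻¹ : GL (Fin 2) k) : M2 k) := rfl
    refine gdkd1_conj_cases h2 hne hcp hc' ?_ ?_
    · rw [hval]; exact Matrix.trace_units_conj x.1 g.1.1
    · rw [hval]; exact Matrix.det_units_conj x.1 g.1.1
  have hfin : ∀ s : Set ↥G, s.Finite := fun s => Set.toFinite s
  rw [show Nat.card (normalizer (centralizer {g} : Set ↥G)) =
      ((normalizer (centralizer {g} : Set ↥G) : Subgroup ↥G) : Set ↥G).ncard from
      Nat.card_coe_set_eq _,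
    show Nat.card (centralizer {g} : Subgroup ↥G) = ((centralizer {g} : Subgroup ↥G) : Set ↥G).ncard
      from Nat.card_coe_set_eq _]
  by_cases hall : ∀ x : ↥G, x ∈ normalizer (centralizer {g} : Set ↥G) → x ∈ centralizer {g}
  · calc ((normalizer (centralizer {g} : Set ↥G) : Subgroup ↥G) : Set ↥G).ncard
        ≤ ((centralizer {g} : Subgroup ↥G) : Set ↥G).ncard :=
          Set.ncard_le_ncard (fun x hx => hall x hx) (hfin _)
      _ ≤ 2 * ((centralizer {g} : Subgroup ↥G) : Set ↥G).ncard := Nat.le_mul_of_pos_left _ two_pos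
  · simp only [not_forall] at hall
    obtain ⟨x₀, hx₀N, hx₀C⟩ := hall
    have hnotC : ∀ x : ↥G, x ∈ normalizer (centralizer {g} : Set ↥G) → x ∉ centralizer {g} →
        (x * g * x⁻¹).1.1 = g.1.1.trace • (1 : M2 k) - g.1.1 := by
      intro x hxN hxC
      refine (key x hxN).resolve_left fun h => hxC ?_
      rw [gdk_mem_centralizer_iff]
      have h' : x * g * x⁻¹ = g := Subtype.ext (Units.ext h)
      calc g * x = x * g * x⁻¹ * x := by rw [h']
        _ = x * g := by group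
    have hsub : ((normalizer (centralizer {g} : Set ↥G) : Subgroup ↥G) : Set ↥G) ⊆
        ((centralizer {g} : Subgroup ↥G) : Set ↥G) ∪
          (fun y => x₀ * y) '' ((centralizer {g} : Subgroup ↥G) : Set ↥G) := by
      intro x hx
      by_cases hxC : x ∈ centralizer {g}
      · exact Or.inl hxC
      · right
        refine ⟨x₀⁻¹ * x, ?_, by group⟩
        have e : x * g * x⁻¹ = x₀ * g * x₀⁻¹ :=
          Subtype.ext (Units.ext ((hnotC x hx hxC).trans (hnotC x₀ hx₀N hx₀C).symm))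
        show x₀⁻¹ * x ∈ centralizer {g}
        rw [gdk_mem_centralizer_iff]
        calc g * (x₀⁻¹ * x) = x₀⁻¹ * (x₀ * g * x₀⁻¹) * x := by group
          _ = x₀⁻¹ * (x * g * x⁻¹) * x := by rw [e]
          _ = x₀⁻¹ * x * g := by group
    calc ((normalizer (centralizer {g} : Set ↥G) : Subgroup ↥G) : Set ↥G).ncard
        ≤ (((centralizer {g} : Subgroup ↥G) : Set ↥G) ∪
          (fun y => x₀ * y) '' ((centralizer {g} : Subgroup ↥G) : Set ↥G)).ncard :=
          Set.ncard_le_ncard hsub (hfin _)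
      _ ≤ ((centralizer {g} : Subgroup ↥G) : Set ↥G).ncard +
          ((fun y => x₀ * y) '' ((centralizer {g} : Subgroup ↥G) : Set ↥G)).ncard :=
          Set.ncard_union_le _ _
      _ ≤ ((centralizer {g} : Subgroup ↥G) : Set ↥G).ncard +
          ((centralizer {g} : Subgroup ↥G) : Set ↥G).ncard :=
          Nat.add_le_add_left (Set.ncard_image_le (hfin _)) _
      _ = 2 * ((centralizer {g} : Subgroup ↥G) : Set ↥G).ncard := (two_mul _).symm

end Fermat.Agent.TW.G.Dk


end ZBTW_035_3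

/-! ### bundled: `Fermat.Agent.TW.G.Dickson.Index` -/
section ZBTW_035_4

/-!
# TW-G / P9 G-dickson, piece DkC (helper86): the index of the Borel subgroup

`stmtDkC : StmtDkC`: for `G ≤ GL₂(k)` not contained in the upper triangular matrices,
`|G| = (1 + m q)·|B|` with `m ≥ 1`, where `B = G ∩ upper triangular`, `q = #{x : u_x ∈ G}`.

Proof: `U × B` (`U = {u_x ∈ G}`) acts on `G ∖ B` by `(u, b)·g = u g b⁻¹`, with trivial stabilisers
(`u_x g = g b`, `g₁₀ ≠ 0`, `b₁₀ = 0`: entry `(1,0)` gives `b₀₀ = 1`, entry `(0,0)` gives `x = 0`).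
-/

set_option autoImplicit false

namespace Fermat.Agent.TW.G.Dk

open Matrix Subgroup Fermat.Agent.TW.G.Sel

variable {k : Type} [Field k]

lemma gdkc_uU_zero : uU (0 : k) = 1 := by
  ext i j
  fin_cases i <;> fin_cases j <;> simp [uU]

lemma gdkc_uU_mul (x y : k) : uU x * uU y = uU (x + y) := by
  ext i j
  fin_cases i <;> fin_cases j <;> simp [uU, Matrix.mul_apply, Fin.sum_univ_two, add_comm]

lemma gdkc_uU_inj {x y : k} (h : uU x = uU y) : x = y := by
  have := congrFun (congrFun h 0) 1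
  simpa [uU] using this

/-- the inverse of a unit with matrix `u_x` -/
lemma gdkc_inv_uU (g : GL (Fin 2) k) (x : k) (h : g.1 = uU x) : (g⁻¹).1 = uU (-x) := by
  have h1 : g.1 * uU (-x) = 1 := by rw [h, gdkc_uU_mul, add_neg_cancel, gdkc_uU_zero]
  calc (g⁻¹).1 = (g⁻¹).1 * (g.1 * uU (-x)) := by rw [h1, mul_one]
    _ = ((g⁻¹).1 * g.1) * uU (-x) := by rw [mul_assoc]
    _ = uU (-x) := by rw [← Units.val_mul, inv_mul_cancel, Units.val_one, one_mul]

/-- the upper unipotent matrices in `GL₂(k)` -/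
def gdkcUgl (k : Type) [Field k] : Subgroup (GL (Fin 2) k) where
  carrier := {g | ∃ x : k, g.1 = uU x}
  one_mem' := ⟨0, by rw [gdkc_uU_zero]; rfl⟩
  mul_mem' := by
    rintro a b ⟨x, hx⟩ ⟨y, hy⟩
    exact ⟨x + y, by rw [Units.val_mul, hx, hy, gdkc_uU_mul]⟩
  inv_mem' := by
    rintro a ⟨x, hx⟩
    exact ⟨-x, gdkc_inv_uU a x hx⟩

lemma gdkc_mem_Ugl (g : GL (Fin 2) k) : g ∈ gdkcUgl k ↔ ∃ x : k, g.1 = uU x := Iff.rfl

lemma gdkc_mem_Bgl (g : GL (Fin 2) k) : g ∈ dkBgl k ↔ g.1 1 0 = 0 := Iff.rfl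

lemma gdkc_Ugl_le_Bgl : gdkcUgl k ≤ dkBgl k := by
  rintro g ⟨x, hx⟩
  rw [gdkc_mem_Bgl, hx]
  simp [uU]

/-- `#U = q` -/
lemma gdkc_card_U (G : Subgroup (GL (Fin 2) k)) :
    Nat.card ((gdkcUgl k).subgroupOf G) = Nat.card (Xset G) := by
  have hx : ∀ u : ↥((gdkcUgl k).subgroupOf G), u.1.1.1 = uU (u.1.1.1 0 1) := by
    intro u
    obtain ⟨x, hx⟩ := (gdkc_mem_Ugl _).1 (mem_subgroupOf.1 u.2)
    rw [hx]
    simp [uU]
  refine Nat.card_congr (Equiv.ofBijective
    (fun u => (⟨u.1.1.1 0 1, u.1.1, u.1.2, hx u⟩ : Xset G)) ⟨?_, ?_⟩)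
  · intro u v huv
    have h01 : u.1.1.1 0 1 = v.1.1.1 0 1 := congrArg Subtype.val huv
    apply Subtype.ext
    apply Subtype.ext
    apply Units.ext
    rw [hx u, hx v, h01]
  · rintro ⟨x, g, hg, hgx⟩
    refine ⟨⟨⟨g, hg⟩, mem_subgroupOf.2 ⟨x, hgx⟩⟩, ?_⟩
    apply Subtype.ext
    show g.1 0 1 = x
    rw [hgx]
    simp [uU]

/-- the action of `U × B` on `G ∖ B` by `(u, b)·g = u g b⁻¹` -/
@[reducible] noncomputable def gdkcAct (G : Subgroup (GL (Fin 2) k)) :
    MulAction (↥((gdkcUgl k).subgroupOf G) × ↥((dkBgl k).subgroupOf G))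
      {g : ↥G // g ∉ (dkBgl k).subgroupOf G} where
  smul h g := ⟨h.1.1 * g.1 * (h.2.1)⁻¹, fun hmem => g.2 (by
    have hu : h.1.1 ∈ (dkBgl k).subgroupOf G :=
      mem_subgroupOf.2 (gdkc_Ugl_le_Bgl (mem_subgroupOf.1 h.1.2))
    have h1 := ((dkBgl k).subgroupOf G).mul_mem
      (((dkBgl k).subgroupOf G).mul_mem (((dkBgl k).subgroupOf G).inv_mem hu) hmem) h.2.2
    have e : (h.1.1)⁻¹ * (h.1.1 * g.1 * (h.2.1)⁻¹) * h.2.1 = g.1 := by group
    rwa [e] at h1)⟩
  one_smul g := by
    apply Subtype.ext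
    show (1 : ↥G) * g.1 * (1 : ↥G)⁻¹ = g.1
    group
  mul_smul h h' g := by
    apply Subtype.ext
    show (h.1.1 * h'.1.1) * g.1 * (h.2.1 * h'.2.1)⁻¹ = h.1.1 * (h'.1.1 * g.1 * (h'.2.1)⁻¹) * (h.2.1)⁻¹
    group

lemma gdkc_smul_val (G : Subgroup (GL (Fin 2) k))
    (h : ↥((gdkcUgl k).subgroupOf G) × ↥((dkBgl k).subgroupOf G))
    (g : {g : ↥G // g ∉ (dkBgl k).subgroupOf G}) :
    letI := gdkcAct G
    (h • g).1 = h.1.1 * g.1 * (h.2.1)⁻¹ := rfl

/-- the stabilisers are trivial -/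
lemma gdkc_stabilizer (G : Subgroup (GL (Fin 2) k))
    (g : {g : ↥G // g ∉ (dkBgl k).subgroupOf G}) :
    letI := gdkcAct G
    MulAction.stabilizer (↥((gdkcUgl k).subgroupOf G) × ↥((dkBgl k).subgroupOf G)) g = ⊥ := by
  let _ := gdkcAct G
  rw [Subgroup.eq_bot_iff_forall]
  rintro ⟨u, b⟩ hub
  rw [MulAction.mem_stabilizer_iff] at hub
  have h1 : u.1 * g.1 * (b.1)⁻¹ = g.1 := congrArg Subtype.val hub
  have h2 : u.1 * g.1 = g.1 * b.1 := by
    calc u.1 * g.1 = (u.1 * g.1 * (b.1)⁻¹) * b.1 := by group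
      _ = g.1 * b.1 := by rw [h1]
  -- to matrices
  have h3 : u.1.1.1 * g.1.1.1 = g.1.1.1 * b.1.1.1 := by
    have := congrArg (fun x : ↥G => x.1.1) h2
    simpa using this
  obtain ⟨x, hx⟩ := (gdkc_mem_Ugl _).1 (mem_subgroupOf.1 u.2)
  have hb : b.1.1.1 1 0 = 0 := (gdkc_mem_Bgl _).1 (mem_subgroupOf.1 b.2)
  have hg : g.1.1.1 1 0 ≠ 0 := fun h0 => g.2 (mem_subgroupOf.2 ((gdkc_mem_Bgl _).2 h0))
  have e10 := congrFun (congrFun h3 1) 0
  have e00 := congrFun (congrFun h3 0) 0
  rw [hx] at e10 e00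
  simp only [Matrix.mul_apply, Fin.sum_univ_two, hb, uU, Matrix.of_apply, Matrix.cons_val',
    Matrix.cons_val_zero, Matrix.cons_val_one, Matrix.empty_val', Matrix.cons_val_fin_one,
    mul_zero, add_zero, zero_mul, zero_add, one_mul] at e10 e00
  have hb00 : b.1.1.1 0 0 = 1 := by
    have : g.1.1.1 1 0 * (b.1.1.1 0 0 - 1) = 0 := by linear_combination -e10
    rcases mul_eq_zero.1 this with h | h
    · exact absurd h hg
    · exact sub_eq_zero.1 h
  have hx0 : x = 0 := by
    rw [hb00, mul_one] at e00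
    have : x * g.1.1.1 1 0 = 0 := by linear_combination e00
    rcases mul_eq_zero.1 this with h | h
    · exact h
    · exact absurd h hg
  have hu1 : u = 1 := by
    apply Subtype.ext
    apply Subtype.ext
    apply Units.ext
    rw [hx, hx0, gdkc_uU_zero]
    rfl
  have hb1 : b = 1 := by
    rw [hu1] at h2
    have h4 : g.1 * b.1 = g.1 * 1 := by
      rw [← h2]
      simp
    exact Subtype.ext (mul_left_cancel h4)
  rw [hu1, hb1]
  rfl

/-- (DkC) -/
theorem stmtDkC : StmtDkC := by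
  intro p _ k _ _ _ G hyp
  classical
  let _ := gdkcAct G
  have e := MulAction.selfEquivOrbitsQuotientProd
    (G := ↥((gdkcUgl k).subgroupOf G) × ↥((dkBgl k).subgroupOf G))
    (X := {g : ↥G // g ∉ (dkBgl k).subgroupOf G}) (gdkc_stabilizer G)
  have hX : Nat.card {g : ↥G // g ∉ (dkBgl k).subgroupOf G} =
      Nat.card (Quotient (MulAction.orbitRel
        (↥((gdkcUgl k).subgroupOf G) × ↥((dkBgl k).subgroupOf G))
        {g : ↥G // g ∉ (dkBgl k).subgroupOf G})) *
      (Nat.card (Xset G) * Nat.card ((dkBgl k).subgroupOf G)) := by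
    rw [Nat.card_congr e, Nat.card_prod, Nat.card_prod, gdkc_card_U]
  have hsum : Nat.card ↥G = Nat.card ((dkBgl k).subgroupOf G) +
      Nat.card {g : ↥G // g ∉ (dkBgl k).subgroupOf G} := by
    rw [← Nat.card_sum]
    exact (Nat.card_congr (Equiv.sumCompl (fun g : ↥G => g ∈ (dkBgl k).subgroupOf G))).symm
  obtain ⟨g₀, hg₀G, hg₀⟩ := hyp.nontri
  have hne : Nonempty (Quotient (MulAction.orbitRel
      (↥((gdkcUgl k).subgroupOf G) × ↥((dkBgl k).subgroupOf G))
      {g : ↥G // g ∉ (dkBgl k).subgroupOf G})) :=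
    ⟨Quotient.mk'' ⟨⟨g₀, hg₀G⟩, fun h => hg₀ ((gdkc_mem_Bgl _).1 (mem_subgroupOf.1 h))⟩⟩
  refine ⟨Nat.card (Quotient (MulAction.orbitRel
      (↥((gdkcUgl k).subgroupOf G) × ↥((dkBgl k).subgroupOf G))
      {g : ↥G // g ∉ (dkBgl k).subgroupOf G})), Nat.card_pos, ?_⟩
  rw [hsum, hX]
  ring

end Fermat.Agent.TW.G.Dk


end ZBTW_035_4

/-! ### bundled: `Fermat.Agent.TW.G.Dickson.Final` -/
section ZBTW_035_5

/-!
# TW-G / P9 G-dickson, piece DkF (helper26): assembly

`stmtDkF : StmtDkF`: the counting form of Dickson's theorem (`StmtDickson`) from the concrete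
pieces DkA–DkE and the abstract class equation.
-/

set_option autoImplicit false

namespace Fermat.Agent.TW.G.Dk

open Matrix Polynomial Subgroup Fermat.Agent.TW.G.Sel

/-- the matrices of determinant 1 in `GL₂(k)` -/
def dkSLgl (k : Type) [Field k] : Subgroup (GL (Fin 2) k) where
  carrier := {g | g.1.det = 1}
  one_mem' := by show (1 : GL (Fin 2) k).1.det = 1; simp
  mul_mem' := by
    intro a b ha hb
    change a.1.det = 1 at ha
    change b.1.det = 1 at hb
    show (a * b).1.det = 1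
    rw [Units.val_mul, Matrix.det_mul, ha, hb, mul_one]
  inv_mem' := by
    intro a ha
    change a.1.det = 1 at ha
    show (a⁻¹).1.det = 1
    have h : (a⁻¹ : GL (Fin 2) k).1 * a.1 = 1 := by
      rw [← Units.val_mul, inv_mul_cancel]; rfl
    have h2 := congrArg Matrix.det h
    rw [Matrix.det_mul, ha, mul_one, Matrix.det_one] at h2
    exact h2

variable {k : Type} [Field k]

lemma dkf_uU_det (x : k) : (uU x).det = 1 := by
  simp [uU, Matrix.det_fin_two]

lemma dkf_Xset_inf (G : Subgroup (GL (Fin 2) k)) : Xset (G ⊓ dkSLgl k) = Xset G := by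
  ext x
  constructor
  · rintro ⟨g, hg, hx⟩
    exact ⟨g, hg.1, hx⟩
  · rintro ⟨g, hg, hx⟩
    refine ⟨g, ⟨hg, ?_⟩, hx⟩
    show g.1.det = 1
    rw [hx]; exact dkf_uU_det x

lemma dkf_Asq_inf (G : Subgroup (GL (Fin 2) k)) : Asq (G ⊓ dkSLgl k) = Asq G := by
  ext s
  constructor
  · rintro ⟨g, hg, h1, h2, h3⟩
    exact ⟨g, hg.1, h1, h2, h3⟩
  · rintro ⟨g, hg, h1, h2, h3⟩
    exact ⟨g, ⟨hg, h2⟩, h1, h2, h3⟩

/-- conjugating `u_x` by a matrix that is not upper triangular gives a matrix that is not upper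
triangular -/
lemma dkf_conj_entry (h : GL (Fin 2) k) (x : k) :
    (h.1 * uU x * (h⁻¹ : GL (Fin 2) k).1) 1 0 * h.1.det = -(x * h.1 1 0 ^ 2) := by
  have hinv : (h⁻¹ : GL (Fin 2) k).1 = (h.1)⁻¹ := Matrix.coe_units_inv h
  have hdet : h.1.det ≠ 0 := by
    have := h.isUnit
    exact (Matrix.isUnit_iff_isUnit_det _).1 this |>.ne_zero
  rw [hinv, Matrix.inv_def, Matrix.adjugate_fin_two]
  simp only [uU, Ring.inverse_eq_inv', Matrix.mul_apply, Fin.sum_univ_two, Matrix.smul_apply,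
    Matrix.of_apply, Matrix.cons_val', Matrix.cons_val_zero, Matrix.cons_val_one,
    Matrix.empty_val', Matrix.cons_val_fin_one, smul_eq_mul]
  field_simp
  ring

lemma dkf_det_conj (h g : GL (Fin 2) k) : (h * g * h⁻¹).1.det = g.1.det := by
  have h1 : h.1.det * (h⁻¹ : GL (Fin 2) k).1.det = 1 := by
    rw [← Matrix.det_mul, ← Units.val_mul, mul_inv_cancel]; simp
  rw [Units.val_mul, Units.val_mul, Matrix.det_mul, Matrix.det_mul]
  calc h.1.det * g.1.det * (h⁻¹ : GL (Fin 2) k).1.det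
      = g.1.det * (h.1.det * (h⁻¹ : GL (Fin 2) k).1.det) := by ring
    _ = g.1.det := by rw [h1, mul_one]

lemma dkf_charpoly_conj (h g : GL (Fin 2) k) : (h * g * h⁻¹).1.charpoly = g.1.charpoly := by
  have h1 : (h * g * h⁻¹).1 = h.1 * g.1 * h.1⁻¹ := by
    rw [Units.val_mul, Units.val_mul, Matrix.coe_units_inv]
  rw [h1]
  have hu : IsUnit h.1 := h.isUnit
  have hdet : IsUnit h.1.det := (Matrix.isUnit_iff_isUnit_det _).1 hu
  exact Matrix.charpoly_units_conj (Matrix.nonsingInvUnit h.1 hdet) g.1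

lemma dkf_uU_charpoly (x : k) : (uU x).charpoly = (X - C 1) * (X - C 1) := by
  rw [Matrix.charpoly_fin_two]
  simp only [uU, Matrix.trace_fin_two, Matrix.det_fin_two, Matrix.of_apply, Matrix.cons_val',
    Matrix.cons_val_zero, Matrix.cons_val_one, Matrix.empty_val', Matrix.cons_val_fin_one]
  simp only [map_one, mul_zero, sub_zero, mul_one, map_add]
  ring

/-- a matrix in `dkZUgl` does not have distinct eigenvalues -/
lemma dkf_not_distinct_of_mem {g : GL (Fin 2) k} (hg : g ∈ dkZUgl k) : ¬ HasDistinctEig g.1 := by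
  rintro ⟨α, β, hne, hcp⟩
  obtain ⟨h10, h01, h00⟩ := hg
  rw [Matrix.charpoly_fin_two] at hcp
  have htr : g.1.trace = 2 * g.1 0 0 := by
    rw [Matrix.trace_fin_two, ← h01]; ring
  have hdet : g.1.det = g.1 0 0 ^ 2 := by
    rw [Matrix.det_fin_two, h10, ← h01]; ring
  rw [htr, hdet] at hcp
  -- X² - 2aX + a² = (X - α)(X - β): evaluate at a
  have h1 := congrArg (Polynomial.eval (g.1 0 0)) hcp
  simp only [eval_add, eval_sub, eval_pow, eval_X, eval_mul, eval_C] at h1
  have h2 : (g.1 0 0 - α) * (g.1 0 0 - β) = 0 := by rw [← h1]; ring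
  -- coefficient comparison: α + β = 2a, αβ = a²
  have h3 := congrArg (Polynomial.eval α) hcp
  simp only [eval_add, eval_sub, eval_pow, eval_X, eval_mul, eval_C] at h3
  have h4 : (α - g.1 0 0) ^ 2 = 0 := by
    have : (α - g.1 0 0) ^ 2 = α ^ 2 - 2 * g.1 0 0 * α + g.1 0 0 ^ 2 := by ring
    rw [this, h3]; ring
  have h5 := congrArg (Polynomial.eval β) hcp
  simp only [eval_add, eval_sub, eval_pow, eval_X, eval_mul, eval_C] at h5
  have h6 : (β - g.1 0 0) ^ 2 = 0 := by
    have : (β - g.1 0 0) ^ 2 = β ^ 2 - 2 * g.1 0 0 * β + g.1 0 0 ^ 2 := by ring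
    rw [this, h5]; ring
  have h7 : α = g.1 0 0 := sub_eq_zero.1 (pow_eq_zero_iff (by norm_num) |>.1 h4)
  have h8 : β = g.1 0 0 := sub_eq_zero.1 (pow_eq_zero_iff (by norm_num) |>.1 h6)
  exact hne (h7.trans h8.symm)

theorem stmtDkF : StmtDkF := by
  intro hA hB hB' hC hD1 hD2 hE p _ k _ _ _ hp2 G hsplit hnontri
  classical
  by_cases htriv : ∀ x ∈ Xset G, x = 0
  · -- only the trivial unipotent
    have hsub : Subsingleton (Xset G) :=
      ⟨fun a b => Subtype.ext ((htriv a.1 a.2).trans (htriv b.1 b.2).symm)⟩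
    have : Nat.card (Xset G) ≤ 1 := Finite.card_le_one_iff_subsingleton.2 hsub
    omega
  · push Not at htriv
    obtain ⟨x₀, ⟨g₀, hg₀G, hg₀x⟩, hx₀⟩ := htriv
    obtain ⟨h, hhG, hh⟩ := hnontri
    set G₁ : Subgroup (GL (Fin 2) k) := G ⊓ dkSLgl k with hG₁
    have hg₀G₁ : g₀ ∈ G₁ := ⟨hg₀G, by show g₀.1.det = 1; rw [hg₀x]; exact dkf_uU_det x₀⟩
    have hyp : DkHyp p G₁ :=
      { odd := hp2
        det_one := fun g hg => hg.2
        split := fun g hg => hsplit g hg.1
        uni := ⟨g₀, hg₀G₁, x₀, hx₀, hg₀x⟩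
        nontri := by
          refine ⟨h * g₀ * h⁻¹, ⟨G.mul_mem (G.mul_mem hhG hg₀G) (G.inv_mem hhG), ?_⟩, ?_⟩
          · show (h * g₀ * h⁻¹).1.det = 1
            rw [dkf_det_conj]; exact hg₀G₁.2
          · intro h0
            have := dkf_conj_entry h x₀
            rw [Units.val_mul, Units.val_mul, hg₀x] at h0
            rw [h0, zero_mul] at this
            have h2 : x₀ * h.1 1 0 ^ 2 = 0 := by
              have := congrArg Neg.neg this
              simpa using this.symm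
            rcases mul_eq_zero.1 h2 with h3 | h3
            · exact hx₀ h3
            · exact hh (pow_eq_zero_iff (by norm_num) |>.1 h3) }
    obtain ⟨hZc, hCA⟩ := hA p k G₁ hyp
    let g₁ : ↥G₁ := ⟨g₀, hg₀G₁⟩
    have hg₁ : ∃ x : k, x ≠ 0 ∧ g₁.1.1 = uU x := ⟨x₀, hx₀, hg₀x⟩
    obtain ⟨hCent, hNorm⟩ := hB p k G₁ hyp g₁ hg₁
    obtain ⟨hcZU, hcB⟩ := hB' p k G₁ hyp
    obtain ⟨m, hm, hcG⟩ := hC p k G₁ hyp
    have hg₁Z : g₁ ∉ dkZ G₁ := by
      intro hmem
      have hmem' : g₀ ∈ dkZgl k := hmem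
      have h01 : g₀.1 0 1 = x₀ := by rw [hg₀x]; simp [uU]
      rcases hmem' with h1 | h1
      · rw [h1] at h01; simp at h01; exact hx₀ h01.symm
      · rw [h1] at h01; simp at h01; exact hx₀ h01.symm
    have key := gdk_class_equation (dkZ G₁) hZc hCA g₁ hg₁Z (Nat.card (dkZ G₁))
      (Nat.card (Xset G₁)) (Nat.card (Asq G₁)) m rfl (by rw [hCent, hcZU])
      (by rw [hNorm, hcB]) (by rw [hcG, hcB]) hm ?_ ?_
    · rw [dkf_Xset_inf, dkf_Asq_inf] at key
      exact key
    · -- hν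
      intro g hgZ hgK
      by_cases hd : HasDistinctEig g.1.1
      · exact hD1 p k G₁ hyp g hd
      · exfalso
        obtain ⟨x, hx⟩ := hD2 hB' hC p k G₁ hyp g hgZ hd
        exact hgK ⟨hgZ, x, by rw [hCent]; exact hx⟩
    · -- hb
      intro ht
      obtain ⟨b, hbd, hbc⟩ := hE hB' p k G₁ hyp ht
      refine ⟨b, ?_, ?_, hbc⟩
      · intro hbZ
        have hbZ' : b.1 ∈ dkZgl k := hbZ
        apply dkf_not_distinct_of_mem (g := b.1) _ hbd
        rcases hbZ' with h1 | h1
        · refine ⟨by rw [h1]; simp, by rw [h1]; simp, Or.inl (by rw [h1]; simp)⟩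
        · refine ⟨by rw [h1]; simp, by rw [h1]; simp, Or.inr (by rw [h1]; simp)⟩
      · rintro ⟨-, x, hx⟩
        rw [hCent] at hx
        have hx' : (x⁻¹ * b * x).1 ∈ dkZUgl k := hx
        apply dkf_not_distinct_of_mem hx'
        obtain ⟨α, β, hne, hcp⟩ := hbd
        refine ⟨α, β, hne, ?_⟩
        rw [← hcp]
        have : (x⁻¹ * b * x).1 = x.1⁻¹ * b.1 * (x.1⁻¹)⁻¹ := by simp
        rw [this]
        exact dkf_charpoly_conj _ _

end Fermat.Agent.TW.G.Dk


end ZBTW_035_5

/-! ### bundled: `Fermat.Agent.TW.G.Dickson.Borel` -/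
section ZBTW_035_6

/-!
# TW-G / P9 G-dickson, pieces DkB and DkB' (helper26)

Centraliser and normaliser of a nontrivial upper unipotent element of `G ≤ SL₂(k)`, and their
orders.
-/

set_option autoImplicit false
set_option linter.unnecessarySeqFocus false

namespace Fermat.Agent.TW.G.Dk

open Matrix Polynomial Subgroup Fermat.Agent.TW.G.Sel

variable {k : Type} [Field k]

lemma gdkb_comm_uU_iff (Y : M2 k) (x : k) (hx : x ≠ 0) :
    uU x * Y = Y * uU x ↔ Y 1 0 = 0 ∧ Y 0 0 = Y 1 1 := by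
  constructor
  · intro h
    have h00 := congrFun (congrFun h 0) 0
    have h01 := congrFun (congrFun h 0) 1
    simp only [uU, Matrix.mul_apply, Fin.sum_univ_two, Matrix.of_apply, Matrix.cons_val',
      Matrix.cons_val_zero, Matrix.cons_val_one, Matrix.empty_val', Matrix.cons_val_fin_one,
      one_mul, mul_one, mul_zero, add_zero] at h00 h01
    have h10 : Y 1 0 = 0 := by
      have : x * Y 1 0 = 0 := by linear_combination h00
      rcases mul_eq_zero.1 this with h | h
      · exact absurd h hx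
      · exact h
    refine ⟨h10, ?_⟩
    have : x * (Y 1 1 - Y 0 0) = 0 := by linear_combination h01
    rcases mul_eq_zero.1 this with h | h
    · exact absurd h hx
    · exact (sub_eq_zero.1 h).symm
  · rintro ⟨h10, h00⟩
    ext i j
    fin_cases i <;> fin_cases j <;>
      simp [uU, Matrix.mul_apply, Fin.sum_univ_two, h10, h00] <;> ring

lemma gdkb_sq_eq_one {a : k} (h : a * a = 1) : a = 1 ∨ a = -1 := by
  have : (a - 1) * (a + 1) = 0 := by linear_combination h
  rcases mul_eq_zero.1 this with h | h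
  · left; exact sub_eq_zero.1 h
  · right; exact eq_neg_of_add_eq_zero_left h

lemma gdkb_uU_mem (x : k) {g : GL (Fin 2) k} (hg : g.1 = uU x) : g ∈ dkZUgl k := by
  refine ⟨?_, ?_, Or.inl ?_⟩ <;> rw [hg] <;> simp [uU]

/-- upper triangular matrices normalise `{±u_x}` -/
lemma gdkb_conj_ZU {b w : GL (Fin 2) k} (hb : b ∈ dkBgl k) (hw : w ∈ dkZUgl k) :
    b * w * b⁻¹ ∈ dkZUgl k := by
  change b.1 1 0 = 0 at hb
  obtain ⟨h10, h01, h00⟩ := hw
  have hinv : (b⁻¹ : GL (Fin 2) k).1 = (b.1)⁻¹ := Matrix.coe_units_inv b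
  have hdet : b.1.det ≠ 0 := ((Matrix.isUnit_iff_isUnit_det _).1 b.isUnit).ne_zero
  have hdet' : b.1 0 0 * b.1 1 1 ≠ 0 := by
    rw [Matrix.det_fin_two, hb, mul_zero, sub_zero] at hdet; exact hdet
  have ha : b.1 0 0 ≠ 0 := left_ne_zero_of_mul hdet'
  have hd : b.1 1 1 ≠ 0 := right_ne_zero_of_mul hdet'
  have e : ∀ i j, (b * w * b⁻¹).1 i j =
      (b.1 * w.1 * (b.1.det⁻¹ • !![b.1 1 1, -b.1 0 1; -b.1 1 0, b.1 0 0])) i j := by
    intro i j
    rw [Units.val_mul, Units.val_mul, hinv, Matrix.inv_def, Matrix.adjugate_fin_two,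
      Ring.inverse_eq_inv']
  have hdet2 : b.1.det = b.1 0 0 * b.1 1 1 := by
    rw [Matrix.det_fin_two, hb, mul_zero, sub_zero]
  refine ⟨?_, ?_, ?_⟩
  · rw [e]
    simp [Matrix.mul_apply, Fin.sum_univ_two, hb, h10]
  · rw [e, e]
    simp only [Matrix.mul_apply, Fin.sum_univ_two, Matrix.smul_apply, Matrix.of_apply,
      Matrix.cons_val', Matrix.cons_val_zero, Matrix.cons_val_one, Matrix.empty_val',
      Matrix.cons_val_fin_one, smul_eq_mul, hb, h10, hdet2, ← h01]
    field_simp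
    ring
  · have : (b * w * b⁻¹).1 0 0 = w.1 0 0 := by
      rw [e]
      simp only [Matrix.mul_apply, Fin.sum_univ_two, Matrix.smul_apply, Matrix.of_apply,
        Matrix.cons_val', Matrix.cons_val_zero, Matrix.cons_val_one, Matrix.empty_val',
        Matrix.cons_val_fin_one, smul_eq_mul, hb, h10, hdet2]
      field_simp
      ring
    rw [this]; exact h00

theorem stmtDkB : StmtDkB := by
  intro p _ k _ _ _ G hyp g₀ ⟨x, hx, hg₀⟩
  have hCent : centralizer {g₀} = (dkZUgl k).subgroupOf G := by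
    ext y
    rw [gdk_mem_centralizer_iff, Subgroup.mem_subgroupOf]
    have h1 : g₀ * y = y * g₀ ↔ uU x * y.1.1 = y.1.1 * uU x := by
      constructor
      · intro h
        have := congrArg (fun z : ↥G => z.1.1) h
        simpa [hg₀] using this
      · intro h
        apply Subtype.ext
        apply Units.ext
        show g₀.1.1 * y.1.1 = y.1.1 * g₀.1.1
        rw [hg₀]; exact h
    rw [h1, gdkb_comm_uU_iff _ _ hx]
    constructor
    · rintro ⟨h10, h00⟩
      refine ⟨h10, h00, ?_⟩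
      have hdet := hyp.det_one y.1 y.2
      rw [Matrix.det_fin_two, h10, mul_zero, sub_zero, ← h00] at hdet
      exact gdkb_sq_eq_one hdet
    · rintro ⟨h10, h00, -⟩
      exact ⟨h10, h00⟩
  refine ⟨hCent, ?_⟩
  rw [hCent]
  ext y
  rw [mem_normalizer_iff, Subgroup.mem_subgroupOf]
  constructor
  · intro h
    have hmem : g₀ ∈ (dkZUgl k).subgroupOf G := by
      rw [Subgroup.mem_subgroupOf]; exact gdkb_uU_mem x hg₀
    have h2 := (h g₀).1 hmem
    rw [Subgroup.mem_subgroupOf] at h2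
    have h3 : (y.1 * g₀.1 * y.1⁻¹).1 1 0 = 0 := h2.1
    have h4 := dkf_conj_entry y.1 x
    rw [Units.val_mul, Units.val_mul, hg₀] at h3
    rw [h3, zero_mul] at h4
    have h5 : x * y.1.1 1 0 ^ 2 = 0 := by
      have := congrArg Neg.neg h4
      simpa using this.symm
    rcases mul_eq_zero.1 h5 with h6 | h6
    · exact absurd h6 hx
    · exact pow_eq_zero_iff (by norm_num) |>.1 h6
  · intro hy w
    rw [Subgroup.mem_subgroupOf, Subgroup.mem_subgroupOf]
    constructor
    · intro hw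
      exact gdkb_conj_ZU hy hw
    · intro hw
      have hy' : y.1⁻¹ ∈ dkBgl k := (dkBgl k).inv_mem hy
      have := gdkb_conj_ZU hy' hw
      have e : y.1⁻¹ * ((y * w * y⁻¹ : ↥G) : GL (Fin 2) k) * (y.1⁻¹)⁻¹ = w.1 := by
        simp [mul_assoc]
      rw [e] at this
      exact this

end Fermat.Agent.TW.G.Dk


end ZBTW_035_6

/-! ### bundled: `Fermat.Agent.TW.G.Dickson.BorelCard` -/
section ZBTW_035_7

/-!
# TW-G / P9 G-dickson, piece DkB' (helper26): the orders of `G ∩ {±u_x}` and of `G ∩ B`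
-/

set_option autoImplicit false
set_option linter.unnecessarySeqFocus false

namespace Fermat.Agent.TW.G.Dk

open Matrix Polynomial Subgroup Fermat.Agent.TW.G.Sel

variable {k : Type} [Field k]

lemma gdkbc_diag_ne_zero {g : GL (Fin 2) k} (hg : g ∈ dkBgl k) : g.1 0 0 ≠ 0 := by
  change g.1 1 0 = 0 at hg
  have hdet : g.1.det ≠ 0 := ((Matrix.isUnit_iff_isUnit_det _).1 g.isUnit).ne_zero
  rw [Matrix.det_fin_two, hg, mul_zero, sub_zero] at hdet
  exact left_ne_zero_of_mul hdet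

lemma gdkbc_mul_apply {g h : GL (Fin 2) k} (hh : h ∈ dkBgl k) :
    (g * h).1 0 0 = g.1 0 0 * h.1 0 0 := by
  change h.1 1 0 = 0 at hh
  rw [Units.val_mul, Matrix.mul_apply, Fin.sum_univ_two, hh, mul_zero, add_zero]

/-- the upper left entry, as a homomorphism on the upper triangular elements of `G` -/
noncomputable def gdkbcDiag (G : Subgroup (GL (Fin 2) k)) : ↥((dkBgl k).subgroupOf G) →* kˣ where
  toFun y := Units.mk0 (y.1.1.1 0 0) (gdkbc_diag_ne_zero y.2)
  map_one' := by apply Units.ext; simp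
  map_mul' := by
    intro y w
    apply Units.ext
    show ((y.1 * w.1 : ↥G) : GL (Fin 2) k).1 0 0 = y.1.1.1 0 0 * w.1.1.1 0 0
    exact gdkbc_mul_apply w.2

lemma gdkbcDiag_val (G : Subgroup (GL (Fin 2) k)) (y : ↥((dkBgl k).subgroupOf G)) :
    ((gdkbcDiag G y : kˣ) : k) = y.1.1.1 0 0 := rfl

lemma gdkbc_ZU_le_B : dkZUgl k ≤ dkBgl k := fun _ h => h.1

lemma gdkbc_Z_le_ZU : dkZgl k ≤ dkZUgl k := by
  rintro g (h | h)
  · exact ⟨by rw [h]; simp, by rw [h]; simp, Or.inl (by rw [h]; simp)⟩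
  · exact ⟨by rw [h]; simp, by rw [h]; simp, Or.inr (by rw [h]; simp)⟩

lemma gdkbc_uU_pow (x : k) (n : ℕ) : (uU x) ^ n = uU (n * x) := by
  induction n with
  | zero =>
    ext i j
    fin_cases i <;> fin_cases j <;> simp [uU]
  | succ n ih =>
    rw [pow_succ, ih]
    ext i j
    fin_cases i <;> fin_cases j <;> simp [uU, Matrix.mul_apply, Fin.sum_univ_two] <;> ring

/-- if `G` contains some `-u_x` then it contains `-1` -/
lemma gdkbc_neg_one_mem (p : ℕ) [Fact p.Prime] [CharP k p] (hp2 : p ≠ 2)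
    (G : Subgroup (GL (Fin 2) k)) {g : GL (Fin 2) k} (hg : g ∈ G) (hZU : g ∈ dkZUgl k)
    (h00 : g.1 0 0 = -1) : (-1 : GL (Fin 2) k) ∈ G := by
  obtain ⟨h10, h01, -⟩ := hZU
  have hg' : g.1 = -(uU (-(g.1 0 1))) := by
    ext i j
    fin_cases i <;> fin_cases j <;> simp [uU, h10, h00, ← h01]
  have hodd : Odd p := (Fact.out : p.Prime).odd_of_ne_two hp2
  have hpow : (g ^ p).1 = -1 := by
    rw [Units.val_pow_eq_pow_val, hg', hodd.neg_pow, gdkbc_uU_pow, CharP.cast_eq_zero, zero_mul]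
    congr 1
    ext i j
    fin_cases i <;> fin_cases j <;> simp [uU]
  have : g ^ p = -1 := Units.ext (by rw [hpow]; simp)
  rw [← this]
  exact G.pow_mem hg p


/-- `|G ∩ B| = |G ∩ {±u_x}| · #{a²}` -/
theorem gdkbc_card_B (p : ℕ) (G : Subgroup (GL (Fin 2) k)) [Finite k] (hyp : DkHyp p G) :
    Nat.card ((dkBgl k).subgroupOf G) =
      Nat.card ((dkZUgl k).subgroupOf G) * Nat.card (Asq G) := by
  classical
  set sq : ↥((dkBgl k).subgroupOf G) →* kˣ := (powMonoidHom 2).comp (gdkbcDiag G) with hsq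
  have hsqval : ∀ y, ((sq y : kˣ) : k) = (y.1.1.1 0 0) ^ 2 := fun y => rfl
  have h1 := Subgroup.card_mul_index sq.ker
  rw [Subgroup.index_ker] at h1
  have hker : Nat.card sq.ker = Nat.card ((dkZUgl k).subgroupOf G) := by
    rw [← Subgroup.card_map_of_injective (K := sq.ker)
      (Subgroup.subtype_injective ((dkBgl k).subgroupOf G))]
    have hmap : Subgroup.map ((dkBgl k).subgroupOf G).subtype sq.ker =
        (dkZUgl k).subgroupOf G := ?_
    · rw [hmap]
    ext y
    rw [Subgroup.mem_map, Subgroup.mem_subgroupOf]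
    constructor
    · rintro ⟨w, hw, rfl⟩
      have hw1 : sq w = 1 := hw
      have hw2 : (w.1.1.1 0 0) ^ 2 = 1 := by rw [← hsqval, hw1]; rfl
      have hw10 : w.1.1.1 1 0 = 0 := w.2
      have hdet := hyp.det_one w.1.1 w.1.2
      rw [Matrix.det_fin_two, hw10, mul_zero, sub_zero] at hdet
      have h00 : w.1.1.1 0 0 = w.1.1.1 1 1 := by
        have hne : w.1.1.1 0 0 ≠ 0 := left_ne_zero_of_mul (by rw [hdet]; exact one_ne_zero)
        have : w.1.1.1 0 0 * (w.1.1.1 0 0 - w.1.1.1 1 1) = 0 := by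
          linear_combination hw2 - hdet
        rcases mul_eq_zero.1 this with h | h
        · exact absurd h hne
        · exact sub_eq_zero.1 h
      have hw3 : w.1.1.1 0 0 * w.1.1.1 0 0 = 1 := by rw [← pow_two]; exact hw2
      exact ⟨hw10, h00, gdkb_sq_eq_one hw3⟩
    · intro hy
      refine ⟨⟨y, gdkbc_ZU_le_B hy⟩, ?_, rfl⟩
      show sq ⟨y, gdkbc_ZU_le_B hy⟩ = 1
      apply Units.ext
      rw [hsqval]
      rcases hy.2.2 with h | h <;> simp [h]
  have hrange : Nat.card sq.range = Nat.card (Asq G) := by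
    have hmem : ∀ u : sq.range, ((u.1 : kˣ) : k) ∈ Asq G := by
      rintro ⟨u, y, rfl⟩
      exact ⟨y.1.1, y.1.2, y.2, hyp.det_one y.1.1 y.1.2, hsqval y⟩
    refine Nat.card_congr (Equiv.ofBijective (fun u => ⟨((u.1 : kˣ) : k), hmem u⟩) ⟨?_, ?_⟩)
    · intro u v huv
      have : ((u.1 : kˣ) : k) = ((v.1 : kˣ) : k) := congrArg Subtype.val huv
      exact Subtype.ext (Units.ext this)
    · rintro ⟨s, g, hg, h10, hdet, hs⟩
      refine ⟨⟨sq ⟨⟨g, hg⟩, h10⟩, ⟨_, rfl⟩⟩, ?_⟩
      apply Subtype.ext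
      show ((sq ⟨⟨g, hg⟩, h10⟩ : kˣ) : k) = s
      rw [hsqval, hs]
  rw [← h1, hker, hrange]

/-- `|G ∩ {±u_x}| = |G ∩ {±1}| · q` -/
theorem gdkbc_card_ZU (p : ℕ) [Fact p.Prime] [CharP k p] (G : Subgroup (GL (Fin 2) k))
    [Finite k] (hyp : DkHyp p G) :
    Nat.card ((dkZUgl k).subgroupOf G) = Nat.card (dkZ G) * Nat.card (Xset G) := by
  classical
  have hle : (dkZUgl k).subgroupOf G ≤ (dkBgl k).subgroupOf G := fun y hy => gdkbc_ZU_le_B hy
  have hle' : dkZ G ≤ (dkZUgl k).subgroupOf G := fun y hy => gdkbc_Z_le_ZU hy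
  set e : ↥((dkZUgl k).subgroupOf G) →* kˣ := (gdkbcDiag G).comp (Subgroup.inclusion hle) with he
  have heval : ∀ y, ((e y : kˣ) : k) = (y.1.1.1 0 0) := fun y => rfl
  have h1 := Subgroup.card_mul_index e.ker
  rw [Subgroup.index_ker] at h1
  have hker : Nat.card e.ker = Nat.card (Xset G) := by
    have hmat : ∀ w : e.ker, w.1.1.1.1 = uU (w.1.1.1.1 0 1) := by
      intro w
      have hw1 : e w.1 = 1 := w.2
      have h00 : w.1.1.1.1 0 0 = 1 := by rw [← heval, hw1]; rfl
      obtain ⟨h10, h01, -⟩ := w.1.2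
      ext i j
      fin_cases i <;> fin_cases j
      · simpa [uU] using h00
      · simp [uU]
      · simpa [uU] using h10
      · simpa [uU] using (h01.symm.trans h00)
    have hmem : ∀ w : e.ker, w.1.1.1.1 0 1 ∈ Xset G := fun w =>
      ⟨w.1.1.1, w.1.1.2, hmat w⟩
    refine Nat.card_congr (Equiv.ofBijective (fun w => ⟨w.1.1.1.1 0 1, hmem w⟩) ⟨?_, ?_⟩)
    · intro u v huv
      have h01 : u.1.1.1.1 0 1 = v.1.1.1.1 0 1 := congrArg Subtype.val huv
      apply Subtype.ext
      apply Subtype.ext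
      apply Subtype.ext
      apply Units.ext
      rw [hmat u, hmat v, h01]
    · rintro ⟨x, g, hg, hgx⟩
      have hZU : (⟨g, hg⟩ : ↥G) ∈ (dkZUgl k).subgroupOf G := gdkb_uU_mem x hgx
      refine ⟨⟨⟨⟨g, hg⟩, hZU⟩, ?_⟩, ?_⟩
      · show e ⟨⟨g, hg⟩, hZU⟩ = 1
        apply Units.ext
        rw [heval]
        show g.1 0 0 = 1
        rw [hgx]; simp [uU]
      · apply Subtype.ext
        show g.1 0 1 = x
        rw [hgx]; simp [uU]
  have hrange : Nat.card e.range = Nat.card (dkZ G) := by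
    set e' : ↥(dkZ G) →* kˣ := e.comp (Subgroup.inclusion hle') with he'
    have he'val : ∀ y, ((e' y : kˣ) : k) = (y.1.1.1 0 0) := fun y => rfl
    have hinj : Function.Injective e' := by
      rw [injective_iff_map_eq_one]
      intro y hy
      have h00 : y.1.1.1 0 0 = 1 := by rw [← he'val, hy]; rfl
      have hy2 : y.1.1 ∈ dkZgl k := y.2
      apply Subtype.ext
      apply Subtype.ext
      apply Units.ext
      rcases hy2 with h | h
      · exact h
      · exfalso
        rw [h] at h00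
        have h2 : (-1 : k) = 1 := by simpa using h00
        have hp2 := hyp.odd
        have h3 : (2 : k) = 0 := by linear_combination -h2
        have hchar : ((2 : ℕ) : k) = 0 := by exact_mod_cast h3
        rw [CharP.cast_eq_zero_iff k p] at hchar
        have hp : p.Prime := Fact.out
        have := (Nat.prime_dvd_prime_iff_eq hp Nat.prime_two).1 hchar
        exact hp2 this
    have hrr : e.range = e'.range := by
      ext u
      constructor
      · rintro ⟨y, rfl⟩
        have hy3 : y.1.1.1 0 0 = 1 ∨ y.1.1.1 0 0 = -1 := y.2.2.2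
        rcases hy3 with h | h
        · refine ⟨1, ?_⟩
          rw [map_one]
          apply Units.ext
          rw [heval, h]; rfl
        · have hneg : (-1 : GL (Fin 2) k) ∈ G :=
            gdkbc_neg_one_mem p hyp.odd G y.1.2 y.2 h
          have hZ : (⟨-1, hneg⟩ : ↥G) ∈ dkZ G := Or.inr (by simp)
          refine ⟨⟨⟨-1, hneg⟩, hZ⟩, ?_⟩
          apply Units.ext
          rw [he'val, heval, h]
          simp
      · rintro ⟨y, rfl⟩
        exact ⟨Subgroup.inclusion hle' y, rfl⟩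
    rw [hrr]
    exact Nat.card_congr (Equiv.ofInjective e' hinj).symm
  rw [← h1, hker, hrange, mul_comm]

theorem stmtDkB' : StmtDkB' := by
  intro p _ k _ _ _ G hyp
  have h1 := gdkbc_card_ZU p G hyp
  refine ⟨h1, ?_⟩
  rw [gdkbc_card_B p G hyp, h1]

end Fermat.Agent.TW.G.Dk


end ZBTW_035_7

/-! ### bundled: `Fermat.Agent.TW.G.Dickson.SylowD` -/
section ZBTW_035_8
/-
TW-G / P9 G-dickson, piece DkD2 (helper35): every element of `G` without distinct eigenvalues is
conjugate in `G` to some `±u_x`.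

`stmtDkD2 : StmtDkD2` (only `StmtDkC` is used).

Proof.  `g ∈ G` is split with `det g = 1`; without distinct eigenvalues its characteristic
polynomial is `(X - α)²`, `α² = 1`.  Cayley–Hamilton: `g² = 2α g - 1 = 1 + n` with `n² = 0`, so
`(g²)^p = 1` and `⟨g²⟩` is a `p`-group.  It acts on `G / B` (`B` = the upper triangular elements of
`G`), a set with `[G : B] = 1 + m q` elements (DkC), and `p ∣ q` since `X` is a nonzero additive
subgroup of `k`.  So there is a fixed point `x B`: `x⁻¹ g² x ∈ B`.  For `w = x⁻¹ g x`: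
`w² = 2α w - 1`, so `2α w₁₀ = (w²)₁₀ = 0`, `w` is upper triangular with `w₀₀ w₁₁ = 1` and
`w₀₀ + w₁₁ = 2α`, hence `w₀₀ = w₁₁ = α = ±1`.
-/

set_option autoImplicit false

namespace Fermat.Agent.TW.G.Dk

open Matrix Polynomial Subgroup Fermat.Agent.TW.G.Sel

variable {k : Type} [Field k]

/-- trace and determinant from a factorisation of the characteristic polynomial -/
theorem gdkd2_trace_det {g : M2 k} {α β : k} (h : g.charpoly = (X - C α) * (X - C β)) :
    g.trace = α + β ∧ g.det = α * β := by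
  rw [Matrix.charpoly_fin_two] at h
  have e : (X - C α) * (X - C β) = X ^ 2 - C (α + β) * X + C (α * β) := by
    simp only [map_add, map_mul]
    ring
  rw [e] at h
  have h1 := congrArg (fun f : k[X] => f.coeff 1) h
  have h0 := congrArg (fun f : k[X] => f.coeff 0) h
  simp only [coeff_add, coeff_sub, coeff_X_pow, coeff_C_mul_X, coeff_C] at h1 h0
  simp at h1 h0
  exact ⟨by linear_combination -h1, h0⟩

/-- Cayley–Hamilton for `2 × 2` matrices -/
theorem gdkd2_cayley (g : M2 k) : g * g = g.trace • g - g.det • (1 : M2 k) := by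
  ext i j
  fin_cases i <;> fin_cases j <;>
    simp [Matrix.mul_apply, Fin.sum_univ_two, Matrix.trace_fin_two, Matrix.det_fin_two] <;> ring

/-- the shape of a split matrix of determinant `1` without distinct eigenvalues -/
theorem gdkd2_shape {g : M2 k} (hs : IsSplit g) (hd : g.det = 1) (hn : ¬ HasDistinctEig g) :
    ∃ α : k, α * α = 1 ∧ g.trace = 2 * α := by
  obtain ⟨α, β, h⟩ := hs
  have hαβ : α = β := by
    by_contra hne
    exact hn ⟨α, β, hne, h⟩
  subst hαβ
  obtain ⟨h1, h2⟩ := gdkd2_trace_det h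
  refine ⟨α, ?_, ?_⟩
  · rw [← h2, hd]
  · rw [h1]; ring

/-- `g² = 2α g - 1` -/
theorem gdkd2_sq {g : M2 k} {α : k} (hd : g.det = 1) (ht : g.trace = 2 * α) :
    g * g = (2 * α) • g - 1 := by
  rw [gdkd2_cayley g, hd, ht, one_smul]

/-- `(g²)^p = 1` -/
theorem gdkd2_pow_p (p : ℕ) [Fact p.Prime] [CharP k p] {g : M2 k} {α : k} (hα : α * α = 1)
    (hd : g.det = 1) (ht : g.trace = 2 * α) : (g * g) ^ p = 1 := by
  have hp : p.Prime := Fact.out
  have hsq := gdkd2_sq hd ht
  set n : M2 k := (2 * α) • g - (2 : k) • (1 : M2 k) with hn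
  have e1 : g * g = 1 + n := by
    rw [hsq, hn]
    ext i j
    fin_cases i <;> fin_cases j <;> simp <;> ring
  have hnn : n * n = 0 := by
    have h4 : n * n = (4 * (α * α)) • (g * g) - (8 * α) • g + (4 : k) • (1 : M2 k) := by
      rw [hn]
      ext i j
      fin_cases i <;> fin_cases j <;>
        simp [Matrix.mul_apply, Fin.sum_univ_two] <;> ring
    rw [h4, hα, hsq]
    ext i j
    fin_cases i <;> fin_cases j <;> simp <;> ring
  have hnp : n ^ p = 0 := by
    have h2 : 2 ≤ p := hp.two_le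
    obtain ⟨c, hc⟩ := Nat.exists_eq_add_of_le h2
    rw [hc, pow_add, pow_two, hnn, zero_mul]
  have hcomm : Commute (1 : M2 k) n := Commute.one_left n
  rw [e1, add_pow_char_of_commute (p := p) hcomm, one_pow, hnp, add_zero]

/-- `Xset G` as an additive subgroup of `k` -/
def gdkd2_X (G : Subgroup (GL (Fin 2) k)) : AddSubgroup k where
  carrier := Xset G
  zero_mem' := gbb_xset_zero G
  add_mem' := fun hx hy => gbb_xset_add hx hy
  neg_mem' := by
    intro x hx
    apply gbb_xset_of_mem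
    have h1 : gbbU (-x) = (gbbU x)⁻¹ := by
      apply eq_inv_of_mul_eq_one_left
      rw [gbbU_mul, neg_add_cancel, gbbU_zero]
    rw [h1]
    exact G.inv_mem (gbb_mem_of_xset hx)

/-- `p` divides `q = |X|` as soon as `X ≠ 0` -/
theorem gdkd2_dvd_card (p : ℕ) [Fact p.Prime] [Finite k] [CharP k p]
    (G : Subgroup (GL (Fin 2) k)) (h : ∃ g ∈ G, ∃ x : k, x ≠ 0 ∧ g.1 = uU x) :
    p ∣ Nat.card (Xset G) := by
  obtain ⟨g, hg, x, hx0, hgx⟩ := h
  have hx : x ∈ gdkd2_X G := ⟨g, hg, hgx⟩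
  have h1 : addOrderOf (⟨x, hx⟩ : gdkd2_X G) = p := by
    apply addOrderOf_eq_prime
    · apply Subtype.ext
      rw [AddSubgroup.coe_nsmul, AddSubgroup.coe_zero, nsmul_eq_mul, CharP.cast_eq_zero k p,
        zero_mul]
    · intro h0
      exact hx0 (congrArg Subtype.val h0)
  have h2 : addOrderOf (⟨x, hx⟩ : gdkd2_X G) ∣ Nat.card (gdkd2_X G) := addOrderOf_dvd_natCard _
  rw [h1] at h2
  exact h2

/-- an upper triangular matrix of determinant `1` and trace `2α`, `α² = 1`, has diagonal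
`(α, α)` -/
theorem gdkd2_diag {w : M2 k} {α : k} (hα : α * α = 1) (h10 : w 1 0 = 0) (hd : w.det = 1)
    (ht : w.trace = 2 * α) : w 0 0 = α ∧ w 1 1 = α := by
  rw [Matrix.det_fin_two, h10, mul_zero, sub_zero] at hd
  rw [Matrix.trace_fin_two] at ht
  have e : w 1 1 = 2 * α - w 0 0 := by linear_combination ht
  have h : (w 0 0 - α) * (w 0 0 - α) = 0 := by
    rw [e] at hd
    linear_combination hα - hd
  have h0 : w 0 0 = α := sub_eq_zero.mp (mul_self_eq_zero.mp h)
  refine ⟨h0, ?_⟩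
  rw [e, h0]
  ring

/-- **DkD2**. -/
theorem stmtDkD2 : StmtDkD2 := by
  intro _ hC p _ k _ _ _ G hG g _ hnd
  have hp : p.Prime := Fact.out
  -- the shape of `g`
  have hdet : g.1.1.det = 1 := hG.det_one g.1 g.2
  obtain ⟨α, hα, htr⟩ := gdkd2_shape (hG.split g.1 g.2) hdet hnd
  -- the index of `B`
  obtain ⟨m, -, hcard⟩ := hC p k G hG
  set B : Subgroup ↥G := (dkBgl k).subgroupOf G with hB
  have hidx : B.index = 1 + m * Nat.card (Xset G) := by
    have h1 := B.card_mul_index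
    rw [hcard, mul_comm] at h1
    have hBpos : 0 < Nat.card B := Nat.card_pos
    exact Nat.eq_of_mul_eq_mul_right hBpos h1
  have hq : p ∣ Nat.card (Xset G) := gdkd2_dvd_card p G hG.uni
  have hnot : ¬ p ∣ Nat.card (↥G ⧸ B) := by
    rw [← Subgroup.index_eq_card, hidx]
    intro h
    have h2 : p ∣ m * Nat.card (Xset G) := Dvd.dvd.mul_left hq m
    have h3 : p ∣ 1 := (Nat.dvd_add_left h2).mp h
    exact hp.one_lt.ne' (Nat.dvd_one.mp h3)
  -- the `p`-group generated by `g²`
  set h : ↥G := g * g with hh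
  have hhp : h ^ p = 1 := by
    apply Subtype.ext
    apply Units.ext
    have := gdkd2_pow_p p hα hdet htr
    simpa [hh] using this
  have hP : IsPGroup p (Subgroup.zpowers h) := by
    intro y
    obtain ⟨n, hn⟩ := Subgroup.mem_zpowers_iff.mp y.2
    refine ⟨1, ?_⟩
    apply Subtype.ext
    rw [pow_one, Subgroup.coe_pow, ← hn, ← zpow_natCast, ← _root_.zpow_mul, mul_comm,
      _root_.zpow_mul, zpow_natCast, hhp, _root_.one_zpow]
    rfl
  obtain ⟨c, hc⟩ := hP.nonempty_fixed_point_of_prime_not_dvd_card (↥G ⧸ B) hnot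
  obtain ⟨x, rfl⟩ := QuotientGroup.mk_surjective c
  have hfix : (⟨h, Subgroup.mem_zpowers h⟩ : Subgroup.zpowers h) • (x : ↥G ⧸ B) =
      (x : ↥G ⧸ B) := hc _
  have hmem : x⁻¹ * h * x ∈ B := by
    have h1 : ((h * x : ↥G) : ↥G ⧸ B) = (x : ↥G ⧸ B) := hfix
    have h2 := QuotientGroup.eq.mp h1
    have h3 := B.inv_mem h2
    simpa [mul_assoc] using h3
  refine ⟨x, ?_⟩
  set w : ↥G := x⁻¹ * g * x with hw
  have hww : w * w = x⁻¹ * h * x := by rw [hw, hh]; group
  rw [← hww] at hmem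
  -- matrices
  have hWdet : w.1.1.det = 1 := hG.det_one w.1 w.2
  have hWtr : w.1.1.trace = 2 * α := by
    rw [← htr, hw]
    have e : ((x⁻¹ * g * x : ↥G) : GL (Fin 2) k).1 = (x⁻¹ : ↥G).1.1 * g.1.1 * x.1.1 := by
      simp
    rw [e, Matrix.trace_mul_comm, ← mul_assoc]
    have e2 : x.1.1 * (x⁻¹ : ↥G).1.1 = 1 := by
      simp
    rw [e2, one_mul]
  have hsq := gdkd2_sq hWdet hWtr
  have h10' : (w.1.1 * w.1.1) 1 0 = 0 := by
    have : (w * w : ↥G).1 ∈ dkBgl k := Subgroup.mem_subgroupOf.mp hmem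
    have h2 : ((w * w : ↥G).1).1 1 0 = 0 := this
    simpa using h2
  have h2ne : (2 : k) ≠ 0 := by
    intro h2
    have h3 : ((2 : ℕ) : k) = 0 := by exact_mod_cast h2
    have h4 : p ∣ 2 := (CharP.cast_eq_zero_iff k p 2).mp h3
    exact hG.odd ((Nat.prime_dvd_prime_iff_eq hp Nat.prime_two).mp h4)
  have hαne : α ≠ 0 := by
    rintro rfl
    rw [mul_zero] at hα
    exact zero_ne_one hα
  have h10 : w.1.1 1 0 = 0 := by
    rw [hsq] at h10'
    have h3 : (2 * α) * w.1.1 1 0 = 0 := by simpa using h10'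
    rcases mul_eq_zero.mp h3 with h4 | h4
    · exact absurd h4 (mul_ne_zero h2ne hαne)
    · exact h4
  obtain ⟨h00, h11⟩ := gdkd2_diag hα h10 hWdet hWtr
  have hα1 : α = 1 ∨ α = -1 := mul_self_eq_one_iff.mp hα
  rw [Subgroup.mem_subgroupOf]
  show w.1.1 1 0 = 0 ∧ w.1.1 0 0 = w.1.1 1 1 ∧ (w.1.1 0 0 = 1 ∨ w.1.1 0 0 = -1)
  refine ⟨h10, by rw [h00, h11], ?_⟩
  rw [h00]
  exact hα1

end Fermat.Agent.TW.G.Dk


end ZBTW_035_8

/-! ### bundled: `Fermat.Agent.TW.G.Dickson.CentE` -/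
section ZBTW_035_9
/-
TW-G / P9 Dickson, piece DkE (helper1): if `t = |A²| ≥ 2`, there is an upper triangular `b ∈ G`
with distinct eigenvalues whose centraliser in `G` has order `z t`.

`χ : B → kˣ`, `g ↦ g₀₀`, is a homomorphism on the upper triangular elements `B` of `G` (`det = 1`
on `G`), with kernel `U ≅ Xset G` and cyclic image `A`; `|B| = z q t` (DkB') gives `|A| = z t`.
For `b ∈ B` with `χ(b)` a generator of `A`: `χ(b)² ≠ 1` (`t ≥ 2`), the centraliser of `b` is
contained in `B` and `χ` maps it bijectively onto `A`.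
-/

set_option autoImplicit false

namespace Fermat.Agent.TW.G.Dk

open Matrix Polynomial Subgroup Fermat.Agent.TW.G.Sel

variable {k : Type} [Field k]

/-- upper triangular of determinant one: the product of the diagonal entries is `1`. -/
lemma gdke_diag_mul {g : GL (Fin 2) k} (h10 : g.1 1 0 = 0) (hdet : g.1.det = 1) :
    g.1 0 0 * g.1 1 1 = 1 := by
  rw [Matrix.det_fin_two, h10, mul_zero, sub_zero] at hdet
  exact hdet

lemma gdke_ne_zero {g : GL (Fin 2) k} (h10 : g.1 1 0 = 0) (hdet : g.1.det = 1) :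
    g.1 0 0 ≠ 0 := by
  intro h
  have h1 := gdke_diag_mul h10 hdet
  rw [h, zero_mul] at h1
  exact zero_ne_one h1

lemma gdke_mem_B {G : Subgroup (GL (Fin 2) k)} (x : ↥((dkBgl k).subgroupOf G)) :
    x.1.1.1 1 0 = 0 := Subgroup.mem_subgroupOf.1 x.2

/-- the character `g ↦ g₀₀` on the upper triangular elements of `G`. -/
noncomputable def gdkeChar (G : Subgroup (GL (Fin 2) k)) (hdet : ∀ g ∈ G, g.1.det = 1) :
    ↥((dkBgl k).subgroupOf G) →* kˣ where
  toFun x := Units.mk0 (x.1.1.1 0 0) (gdke_ne_zero (gdke_mem_B x) (hdet _ x.1.2))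
  map_one' := by
    apply Units.ext
    show (1 : Matrix (Fin 2) (Fin 2) k) 0 0 = 1
    simp
  map_mul' x y := by
    apply Units.ext
    have hy : y.1.1.1 1 0 = 0 := gdke_mem_B y
    show (x.1.1.1 * y.1.1.1) 0 0 = x.1.1.1 0 0 * y.1.1.1 0 0
    rw [Matrix.mul_apply, Fin.sum_univ_two, hy, mul_zero, add_zero]

@[simp] lemma gdkeChar_val (G : Subgroup (GL (Fin 2) k)) (hdet : ∀ g ∈ G, g.1.det = 1)
    (x : ↥((dkBgl k).subgroupOf G)) : ((gdkeChar G hdet x : kˣ) : k) = x.1.1.1 0 0 := rfl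

/-- the kernel of `χ` is in bijection with `Xset G`. -/
lemma gdke_card_ker (G : Subgroup (GL (Fin 2) k)) (hdet : ∀ g ∈ G, g.1.det = 1) :
    Nat.card (gdkeChar G hdet).ker = Nat.card (Xset G) := by
  have hker : ∀ x : ↥((dkBgl k).subgroupOf G), x ∈ (gdkeChar G hdet).ker →
      x.1.1.1 = uU (x.1.1.1 0 1) := by
    intro x hx
    have h00 : x.1.1.1 0 0 = 1 := by
      have h := congrArg (fun u : kˣ => (u : k)) (MonoidHom.mem_ker.1 hx)
      simpa using h
    have h10 : x.1.1.1 1 0 = 0 := gdke_mem_B x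
    have h11 : x.1.1.1 1 1 = 1 := by
      have h := gdke_diag_mul h10 (hdet _ x.1.2)
      rw [h00, one_mul] at h
      exact h
    ext i j
    fin_cases i <;> fin_cases j <;> simp [uU, h00, h10, h11]
  refine Nat.card_congr (Equiv.ofBijective
    (fun x : (gdkeChar G hdet).ker => (⟨x.1.1.1.1 0 1, ⟨x.1.1.1, x.1.1.2, hker x.1 x.2⟩⟩ : Xset G))
    ⟨?_, ?_⟩)
  · intro x y hxy
    have h01 : x.1.1.1.1 0 1 = y.1.1.1.1 0 1 := congrArg Subtype.val hxy
    apply Subtype.ext
    apply Subtype.ext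
    apply Subtype.ext
    apply Units.ext
    rw [hker x.1 x.2, hker y.1 y.2, h01]
  · rintro ⟨y, g, hg, hgy⟩
    have hB : (⟨g, hg⟩ : ↥G) ∈ (dkBgl k).subgroupOf G := by
      rw [Subgroup.mem_subgroupOf]
      show g.1 1 0 = 0
      rw [hgy]; simp [uU]
    have hk : (⟨⟨g, hg⟩, hB⟩ : ↥((dkBgl k).subgroupOf G)) ∈ (gdkeChar G hdet).ker := by
      rw [MonoidHom.mem_ker]
      apply Units.ext
      show g.1 0 0 = 1
      rw [hgy]; simp [uU]
    refine ⟨⟨⟨⟨g, hg⟩, hB⟩, hk⟩, ?_⟩
    apply Subtype.ext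
    show g.1 0 1 = y
    rw [hgy]; simp [uU]

/-- `|B| = q · |A|`. -/
lemma gdke_card_B [Finite k] (G : Subgroup (GL (Fin 2) k)) (hdet : ∀ g ∈ G, g.1.det = 1) :
    Nat.card ↥((dkBgl k).subgroupOf G) =
      Nat.card (Xset G) * Nat.card (gdkeChar G hdet).range := by
  rw [← gdke_card_ker G hdet, ← Subgroup.index_ker, Subgroup.card_mul_index]

/-- characteristic polynomial of an upper triangular matrix. -/
lemma gdke_charpoly {g : GL (Fin 2) k} (h10 : g.1 1 0 = 0) :
    g.1.charpoly = (X - C (g.1 0 0)) * (X - C (g.1 1 1)) := by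
  rw [Matrix.charpoly_fin_two, Matrix.trace_fin_two, Matrix.det_fin_two, h10, mul_zero, sub_zero]
  simp only [map_add, map_mul]
  ring

/-- an element commuting with an upper triangular element with distinct diagonal entries is
upper triangular. -/
lemma gdke_comm_upper {b c : Matrix (Fin 2) (Fin 2) k} (hb : b 1 0 = 0) (hne : b 0 0 ≠ b 1 1)
    (hc : c * b = b * c) : c 1 0 = 0 := by
  have h := congrFun (congrFun hc 1) 0
  rw [Matrix.mul_apply, Matrix.mul_apply, Fin.sum_univ_two, Fin.sum_univ_two, hb] at h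
  have h2 : c 1 0 * (b 0 0 - b 1 1) = 0 := by linear_combination h
  rcases mul_eq_zero.1 h2 with h3 | h3
  · exact h3
  · exact absurd (sub_eq_zero.1 h3) hne

/-- the `(0,1)` entry of an element commuting with `b`. -/
lemma gdke_comm_entry {b c : Matrix (Fin 2) (Fin 2) k} (hc : c * b = b * c) :
    c 0 1 * (b 1 1 - b 0 0) = b 0 1 * (c 1 1 - c 0 0) := by
  have h := congrFun (congrFun hc 0) 1
  rw [Matrix.mul_apply, Matrix.mul_apply, Fin.sum_univ_two, Fin.sum_univ_two] at h
  linear_combination h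

/-- **DkE**. -/
theorem stmtDkE : StmtDkE := by
  intro hB' p hp k _ _ _ G hG ht
  have hdet := hG.det_one
  have hfinX : Finite (Xset G) := Finite.of_injective (fun x : Xset G => (x : k))
    Subtype.val_injective
  have hneX : Nonempty (Xset G) := ⟨⟨0, 1, G.one_mem, by
    ext i j; fin_cases i <;> fin_cases j <;> simp [uU]⟩⟩
  have hfinA : Finite (Asq G) := Finite.of_injective (fun x : Asq G => (x : k))
    Subtype.val_injective
  have hcyc : IsCyclic (gdkeChar G hdet).range := inferInstance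
  obtain ⟨a, ha⟩ := IsCyclic.exists_generator (α := (gdkeChar G hdet).range)
  obtain ⟨b₀, hb₀⟩ := a.2
  -- an element of `Asq G` different from `1`
  have hs : ∃ s ∈ Asq G, s ≠ 1 := by
    have hnt : Nontrivial (Asq G) := Finite.one_lt_card_iff_nontrivial.1 ht
    obtain ⟨s, s', hne⟩ := exists_pair_ne (Asq G)
    by_cases h1 : (s : k) = 1
    · refine ⟨s', s'.2, fun h2 => hne ?_⟩
      apply Subtype.ext
      rw [h1, h2]
    · exact ⟨s, s.2, h1⟩
  obtain ⟨s, ⟨g, hg, hg10, -, hsg⟩, hs1⟩ := hs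
  have hgB : (⟨g, hg⟩ : ↥G) ∈ (dkBgl k).subgroupOf G := by
    rw [Subgroup.mem_subgroupOf]
    exact hg10
  -- `χ(b₀)² ≠ 1`
  have ha2 : (b₀.1.1.1 0 0) ^ 2 ≠ 1 := by
    intro h2
    apply hs1
    obtain ⟨n, hn⟩ := Subgroup.mem_zpowers_iff.1
      (ha ⟨gdkeChar G hdet ⟨⟨g, hg⟩, hgB⟩, ⟨_, rfl⟩⟩)
    have hn' : (a : kˣ) ^ n = gdkeChar G hdet ⟨⟨g, hg⟩, hgB⟩ := by
      have := congrArg (fun y : (gdkeChar G hdet).range => (y : kˣ)) hn
      simpa using this
    have hval : ((gdkeChar G hdet b₀ : kˣ) : k) ^ 2 = 1 := h2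
    have hu : (gdkeChar G hdet b₀) ^ 2 = 1 := by
      apply Units.ext
      rw [Units.val_pow_eq_pow_val, hval, Units.val_one]
    have hsq : (gdkeChar G hdet ⟨⟨g, hg⟩, hgB⟩) ^ 2 = 1 := by
      rw [← hn', ← hb₀, ← _root_.zpow_natCast, ← _root_.zpow_mul, mul_comm, _root_.zpow_mul,
        _root_.zpow_natCast, hu, _root_.one_zpow]
    have := congrArg (fun u : kˣ => (u : k)) hsq
    simp only [Units.val_pow_eq_pow_val, gdkeChar_val, Units.val_one] at this
    rw [hsg]
    exact this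
  have hb10 : b₀.1.1.1 1 0 = 0 := gdke_mem_B b₀
  have hdiag : b₀.1.1.1 0 0 * b₀.1.1.1 1 1 = 1 := gdke_diag_mul hb10 (hdet _ b₀.1.2)
  have hne : b₀.1.1.1 0 0 ≠ b₀.1.1.1 1 1 := by
    intro h
    apply ha2
    rw [sq]
    nth_rewrite 2 [h]
    exact hdiag
  refine ⟨b₀.1, ⟨b₀.1.1.1 0 0, b₀.1.1.1 1 1, hne, gdke_charpoly hb10⟩, ?_⟩
  -- the centraliser
  have hcomm : ∀ c : ↥G, c ∈ centralizer {b₀.1} → c.1.1 * b₀.1.1.1 = b₀.1.1.1 * c.1.1 := by
    intro c hc
    have h1 : b₀.1 * c = c * b₀.1 := Subgroup.mem_centralizer_iff.1 hc b₀.1 rfl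
    have h2 := congrArg (fun x : ↥G => x.1.1) h1
    exact h2.symm
  have hcB : ∀ c : ↥G, c ∈ centralizer {b₀.1} → c ∈ (dkBgl k).subgroupOf G := by
    intro c hc
    rw [Subgroup.mem_subgroupOf]
    exact gdke_comm_upper hb10 hne (hcomm c hc)
  have hcard : Nat.card (centralizer {b₀.1}) = Nat.card (gdkeChar G hdet).range := by
    refine Nat.card_congr (Equiv.ofBijective
      (fun c : centralizer {b₀.1} =>
        (⟨gdkeChar G hdet ⟨c.1, hcB c.1 c.2⟩, ⟨_, rfl⟩⟩ : (gdkeChar G hdet).range)) ⟨?_, ?_⟩)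
    · intro c c' hcc
      have h00 : c.1.1.1 0 0 = c'.1.1.1 0 0 := by
        have h := congrArg (fun y : (gdkeChar G hdet).range => ((y : kˣ) : k)) hcc
        exact h
      have hc10 : c.1.1.1 1 0 = 0 := hcB c.1 c.2
      have hc'10 : c'.1.1.1 1 0 = 0 := hcB c'.1 c'.2
      have hd := gdke_diag_mul hc10 (hdet _ c.1.2)
      have hd' := gdke_diag_mul hc'10 (hdet _ c'.1.2)
      have h00ne : c.1.1.1 0 0 ≠ 0 := gdke_ne_zero hc10 (hdet _ c.1.2)
      have h11 : c.1.1.1 1 1 = c'.1.1.1 1 1 := by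
        apply mul_left_cancel₀ h00ne
        rw [hd, h00, hd']
      have he := gdke_comm_entry (hcomm c.1 c.2)
      have he' := gdke_comm_entry (hcomm c'.1 c'.2)
      have hsub : b₀.1.1.1 1 1 - b₀.1.1.1 0 0 ≠ 0 := sub_ne_zero.2 (Ne.symm hne)
      have h01 : c.1.1.1 0 1 = c'.1.1.1 0 1 := by
        apply mul_right_cancel₀ hsub
        rw [he, he', h00, h11]
      apply Subtype.ext
      apply Subtype.ext
      apply Units.ext
      ext i j
      fin_cases i <;> fin_cases j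
      · exact h00
      · exact h01
      · exact hc10.trans hc'10.symm
      · exact h11
    · intro y
      obtain ⟨n, hn⟩ := Subgroup.mem_zpowers_iff.1 (ha y)
      have hmem : (b₀.1) ^ n ∈ centralizer {b₀.1} := by
        rw [Subgroup.mem_centralizer_iff]
        intro h hh
        rw [Set.mem_singleton_iff.1 hh]
        exact (Commute.self_zpow b₀.1 n).eq
      refine ⟨⟨b₀.1 ^ n, hmem⟩, ?_⟩
      apply Subtype.ext
      show gdkeChar G hdet ⟨b₀.1 ^ n, _⟩ = (y : kˣ)
      have hpow : (⟨b₀.1 ^ n, hcB _ hmem⟩ : ↥((dkBgl k).subgroupOf G)) = b₀ ^ n := by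
        apply Subtype.ext
        rfl
      rw [hpow, map_zpow, hb₀, ← hn]
      rfl
  rw [hcard]
  have h1 := (hB' p k G hG).2
  rw [gdke_card_B G hdet] at h1
  have hq : 0 < Nat.card (Xset G) := Nat.card_pos
  apply Nat.eq_of_mul_eq_mul_left hq
  rw [h1]
  ring

end Fermat.Agent.TW.G.Dk


end ZBTW_035_9

/-! ### bundled: `Fermat.Agent.TW.G.GSel` -/
section ZBTW_035_10

/-!
# TW-G / G-sel (helper26): final assembly of the abstract statement `StmtGSel`
-/

set_option autoImplicit false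

namespace Fermat.Agent.TW.G.Sel

open Fermat.Agent.TW.G.Dk

/-- Dickson, counting form, from the last two concrete pieces -/
theorem stmtDickson_of (hD2 : StmtDkD2) (hE : StmtDkE) : StmtDickson :=
  stmtDkF stmtDkA stmtDkB stmtDkB' stmtDkC stmtDkD1 hD2 hE

/-- `H¹(G, ad⁰(1)) = 0` -/
theorem stmtFin_of (hD2 : StmtDkD2) (hE : StmtDkE) : StmtFin :=
  stmtNorm stmtSyl
    (stmtConcl stmtSyl stmtIdx stmtBorelU stmtBorelT stmtFrattini (stmtDickson_of hD2 hE))

/-- the abstract G-sel -/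
theorem stmtGSel_of (hD2 : StmtDkD2) (hE : StmtDkE) : StmtGSel :=
  stmtAsm stmtAdIrr stmtFind (stmtFin_of hD2 hE)

/-- **Dickson's theorem, counting form** (P9), unconditional. -/
theorem stmtDickson : StmtDickson := stmtDickson_of stmtDkD2 stmtDkE

/-- **`H¹(G, ad⁰(1)) = 0`** for `G ⊆ GL₂(k)` absolutely irreducible, split, `det G = 𝔽_pˣ`. -/
theorem stmtFin : StmtFin := stmtFin_of stmtDkD2 stmtDkE

/-- **G-sel**, abstract form, unconditional. -/
theorem stmtGSel : StmtGSel := stmtGSel_of stmtDkD2 stmtDkE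

end Fermat.Agent.TW.G.Sel


end ZBTW_035_10
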