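/- GENERATED FILE (helper35, build-time optimisation, NOTES/ZB.md): verbatim concatenation of the modules
   Fermat.Agent.TW.ChebPrime
   Fermat.Agent.TW.S.Conj
   Fermat.Agent.TW.G.Wire.Plan
   Fermat.Agent.TW.S.Tow
   Fermat.Agent.TW.G.Wire.Asm
   Fermat.Agent.TW.G.Wire.Det
   Fermat.Agent.TW.G.Wire.Transfer
   Fermat.Agent.TW.G.Wire.Hyp
   Fermat.Agent.TW.G.Wire.Irr
   Fermat.Agent.TW.G.Wire.Cyc
   Do not edit; do not import together with these modules. -/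
import Mathlib
import Fermat.Prelude.Def_GaloisRep_Residual
import Fermat.Agent.ZB.Cheb_002
import Fermat.Agent.ZB.Common_003
import Fermat.Agent.ZB.S05_001
import Fermat.Agent.ZB.TW_001
import Fermat.Agent.ZB.PT_003
import Fermat.Agent.ZB.TW_035
import Fermat.Agent.ZB.TW_036
import Fermat.Agent.ZB.TW_007
import Fermat.Agent.ZB.TW_034

/-! ### bundled: `Fermat.Agent.TW.ChebPrime` -/
section ZBTW_018_0
/-
S56 (Taylor–Wiles primes), piece **TW-cheb** (helper26): selection of the primes.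

* `twc_frob_conj`: for a finite Galois `L ⊆ ℚ̄` and two Frobenius elements `τ` (at `A`), `φ` (at `P`)
  over the same prime `q`: `φ = g τ ι g⁻¹` on `L` for some `g ∈ G_ℚ` and some `ι` in the inertia
  group of `A`.
* `twc_exists_prime`: if `σ ∈ G_ℚ` fixes the `p^(n+1)`-th roots of unity and `ρbar σ` has distinct
  eigenvalues `α ≠ β`, then there is a prime `q ∉ S`, `q ≡ 1 mod p^(n+1)`, such that EVERY Frobenius
  element at EVERY place over `q` has distinct eigenvalues under `ρbar`, together with one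
  Frobenius element `τ` over `q` such that `τ|F` and `σ|F` are powers of each other
  (`F ⊆ ℚ̄` any given finite Galois extension of `ℚ`).
Input: the weak Chebotarev theorem `Cheb.exists_frobenius_generator`.
-/

set_option autoImplicit false
set_option linter.unusedSectionVars false
set_option linter.style.haveILetI false

namespace Fermat.Agent.TW

open NumberField Polynomial
open scoped Pointwise

/-- The absolute Galois group of `ℚ`. -/
abbrev TwGQ : Type := AlgebraicClosure ℚ ≃ₐ[ℚ] AlgebraicClosure ℚ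

section Fields

/-- `ℚ̄ / ℚ` is normal (for the instance of `Algebra ℚ ℚ̄` found by unification). -/
theorem twc_qbar_normal : Normal ℚ (AlgebraicClosure ℚ) := by
  have h1 : @Normal ℚ (AlgebraicClosure ℚ) _ _ (AlgebraicClosure.instAlgebra ℚ) := inferInstance
  convert h1
  exact Subsingleton.elim _ _

/-- Three finite extensions of `ℚ` in `ℚ̄` lie in a finite Galois extension. -/
theorem twc_exists_galois_hull (E₁ E₂ E₃ : IntermediateField ℚ (AlgebraicClosure ℚ))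
    [FiniteDimensional ℚ E₁] [FiniteDimensional ℚ E₂] [FiniteDimensional ℚ E₃] :
    ∃ F : IntermediateField ℚ (AlgebraicClosure ℚ), FiniteDimensional ℚ F ∧ IsGalois ℚ F ∧
      E₁ ≤ F ∧ E₂ ≤ F ∧ E₃ ≤ F := by
  have hn := twc_qbar_normal
  set K : IntermediateField ℚ (AlgebraicClosure ℚ) := E₁ ⊔ E₂ ⊔ E₃ with hK
  have hKfin : FiniteDimensional ℚ K := inferInstance
  refine ⟨IntermediateField.normalClosure ℚ K (AlgebraicClosure ℚ), inferInstance, ?_, ?_, ?_, ?_⟩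
  · have : Normal ℚ (IntermediateField.normalClosure ℚ K (AlgebraicClosure ℚ)) :=
      normalClosure.normal ℚ K (AlgebraicClosure ℚ)
    exact IsGalois.mk
  · exact le_trans (le_trans le_sup_left le_sup_left) (IntermediateField.le_normalClosure K)
  · exact le_trans (le_trans le_sup_right le_sup_left) (IntermediateField.le_normalClosure K)
  · exact le_trans le_sup_right (IntermediateField.le_normalClosure K)

end Fields

section LinAlg

variable {k : Type*} [Field k] {V : Type*} [AddCommGroup V] [Module k V] [Module.Finite k V]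

/-- A root of the characteristic polynomial has an eigenvector. -/
theorem twc_exists_eigenvector (T : Module.End k V) (α β : k)
    (h : LinearMap.charpoly T = (X - C α) * (X - C β)) :
    (∃ v : V, v ≠ 0 ∧ T v = α • v) ∧ ∃ w : V, w ≠ 0 ∧ T w = β • w := by
  have hα : (LinearMap.charpoly T).IsRoot α := by rw [h]; simp
  have hβ : (LinearMap.charpoly T).IsRoot β := by rw [h]; simp
  obtain ⟨v, hv⟩ := ((Module.End.hasEigenvalue_iff_isRoot_charpoly T α).2 hα).exists_hasEigenvector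
  obtain ⟨w, hw⟩ := ((Module.End.hasEigenvalue_iff_isRoot_charpoly T β).2 hβ).exists_hasEigenvector
  exact ⟨⟨v, hv.2, hv.apply_eq_smul⟩, ⟨w, hw.2, hw.apply_eq_smul⟩⟩

/-- Two eigenvectors with distinct eigenvalues in dimension two give the characteristic
polynomial. -/
theorem twc_charpoly_of_eigenvectors (hV : Module.finrank k V = 2) (T : Module.End k V)
    {a b : k} (hab : a ≠ b) {v w : V} (hv : v ≠ 0) (hTv : T v = a • v) (hw : w ≠ 0)
    (hTw : T w = b • w) : LinearMap.charpoly T = (X - C a) * (X - C b) := by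
  have ha : (LinearMap.charpoly T).IsRoot a :=
    (Module.End.hasEigenvalue_iff_isRoot_charpoly T a).1
      (Module.End.hasEigenvalue_of_hasEigenvector
        ⟨Module.End.mem_eigenspace_iff.2 hTv, hv⟩)
  have hb : (LinearMap.charpoly T).IsRoot b :=
    (Module.End.hasEigenvalue_iff_isRoot_charpoly T b).1
      (Module.End.hasEigenvalue_of_hasEigenvector
        ⟨Module.End.mem_eigenspace_iff.2 hTw, hw⟩)
  have hcop : IsCoprime (X - C a : k[X]) (X - C b) :=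
    Polynomial.isCoprime_X_sub_C_of_isUnit_sub (sub_ne_zero.2 hab).isUnit
  have hdvd : (X - C a) * (X - C b) ∣ LinearMap.charpoly T :=
    hcop.mul_dvd (Polynomial.dvd_iff_isRoot.2 ha) (Polynomial.dvd_iff_isRoot.2 hb)
  have hmonic : ((X - C a) * (X - C b) : k[X]).Monic :=
    (Polynomial.monic_X_sub_C a).mul (Polynomial.monic_X_sub_C b)
  have hdeg : (LinearMap.charpoly T).natDegree ≤ ((X - C a) * (X - C b) : k[X]).natDegree := by
    rw [LinearMap.charpoly_natDegree, hV,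
      Polynomial.natDegree_mul (Polynomial.X_sub_C_ne_zero a) (Polynomial.X_sub_C_ne_zero b),
      Polynomial.natDegree_X_sub_C, Polynomial.natDegree_X_sub_C]
  exact Polynomial.eq_of_monic_of_dvd_of_natDegree_le hmonic (LinearMap.charpoly_monic T) hdvd hdeg

end LinAlg

section Conj

variable (L : IntermediateField ℚ (AlgebraicClosure ℚ))

/-- The ring homomorphism `𝓞 L → A`. -/
noncomputable def twcToVal (A : ValuationSubring (AlgebraicClosure ℚ)) : 𝓞 L →+* A :=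
  (Cheb.intEmb L).codRestrict A.toSubring (fun x => Cheb.intEmb_mem L A x)

/-- The prime of `𝓞 L` below a valuation subring of `ℚ̄`. -/
noncomputable def twcPrime (A : ValuationSubring (AlgebraicClosure ℚ)) : Ideal (𝓞 L) :=
  (IsLocalRing.maximalIdeal A).comap (twcToVal L A)

instance twcPrime_isPrime (A : ValuationSubring (AlgebraicClosure ℚ)) : (twcPrime L A).IsPrime :=
  Ideal.comap_isPrime _ _

theorem twc_mem_prime (A : ValuationSubring (AlgebraicClosure ℚ)) (x : 𝓞 L) :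
    x ∈ twcPrime L A ↔ Cheb.intEmb L x ∈ A.nonunits := by
  rw [twcPrime, Ideal.mem_comap, ← ValuationSubring.coe_mem_nonunits_iff]
  rfl

theorem twc_natCast_mem_prime (A : ValuationSubring (AlgebraicClosure ℚ)) {q : ℕ}
    (hA : A.LiesOverPrime q) : (q : 𝓞 L) ∈ twcPrime L A := by
  rw [twc_mem_prime, map_natCast]
  exact hA

theorem twc_under (A : ValuationSubring (AlgebraicClosure ℚ)) {q : ℕ} (hq : q.Prime)
    (hA : A.LiesOverPrime q) : (twcPrime L A).under ℤ = Ideal.span {(q : ℤ)} := by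
  have hmax : (Ideal.span {(q : ℤ)}).IsMaximal :=
    (Ideal.span_singleton_prime (by exact_mod_cast hq.ne_zero)).mpr
      (Nat.prime_iff_prime_int.mp hq) |>.isMaximal (by simpa using hq.ne_zero)
  have hle : Ideal.span {(q : ℤ)} ≤ (twcPrime L A).under ℤ := by
    rw [Ideal.span_singleton_le_iff_mem, Ideal.under_def, Ideal.mem_comap]
    simpa using twc_natCast_mem_prime L A hA
  have hne : (twcPrime L A).under ℤ ≠ ⊤ := (Ideal.IsPrime.under ℤ (twcPrime L A)).ne_top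
  exact (hmax.eq_of_le hne hle).symm

theorem twc_liesOver (A : ValuationSubring (AlgebraicClosure ℚ)) {q : ℕ} (hq : q.Prime)
    (hA : A.LiesOverPrime q) : (twcPrime L A).LiesOver (Ideal.span {(q : ℤ)}) :=
  ⟨(twc_under L A hq hA).symm⟩

variable [FiniteDimensional ℚ L] [IsGalois ℚ L]

/-- Two primes of `𝓞 L` below valuation subrings over the same prime are conjugate. -/
theorem twc_exists_smul_eq (A P : ValuationSubring (AlgebraicClosure ℚ)) {q : ℕ} (hq : q.Prime)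
    (hA : A.LiesOverPrime q) (hP : P.LiesOverPrime q) :
    ∃ g : L ≃ₐ[ℚ] L, g • twcPrime L A = twcPrime L P := by
  haveI : NumberField L := ⟨⟩
  haveI := twc_liesOver L A hq hA
  haveI := twc_liesOver L P hq hP
  exact Ideal.exists_smul_eq_of_isGaloisGroup (Ideal.span {(q : ℤ)}) (twcPrime L A)
    (twcPrime L P) (L ≃ₐ[ℚ] L)

omit [FiniteDimensional ℚ L] [IsGalois ℚ L] in
/-- An integral element of `L` comes from `𝓞 L`. -/
theorem twc_exists_int {w : AlgebraicClosure ℚ} (hw : w ∈ L) (hint : IsIntegral ℤ w) :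
    ∃ z : 𝓞 L, Cheb.intEmb L z = w := by
  have h1 : IsIntegral ℤ (⟨w, hw⟩ : L) := by
    have h2 : IsIntegral ℤ (algebraMap L (AlgebraicClosure ℚ) ⟨w, hw⟩) := hint
    exact (isIntegral_algebraMap_iff (algebraMap L (AlgebraicClosure ℚ)).injective).1 h2
  exact ⟨⟨⟨w, hw⟩, h1⟩, rfl⟩

omit [FiniteDimensional ℚ L] [IsGalois ℚ L] in
/-- An extension `g` of `g₀ ∈ Gal(L/ℚ)` to `ℚ̄` acts on `𝓞 L` as `g₀`. -/
theorem twc_intEmb_smul (g₀ : L ≃ₐ[ℚ] L) (g : TwGQ)
    (hg : ∀ x : L, g (x : AlgebraicClosure ℚ) = ((g₀ x : L) : AlgebraicClosure ℚ)) (z : 𝓞 L) :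
    Cheb.intEmb L (g₀ • z) = g (Cheb.intEmb L z) :=
  (hg (z : L)).symm

omit [FiniteDimensional ℚ L] [IsGalois ℚ L] in
theorem twc_intEmb_inv_smul (g₀ : L ≃ₐ[ℚ] L) (g : TwGQ)
    (hg : ∀ x : L, g (x : AlgebraicClosure ℚ) = ((g₀ x : L) : AlgebraicClosure ℚ)) (z : 𝓞 L) :
    Cheb.intEmb L (g₀⁻¹ • z) = g⁻¹ (Cheb.intEmb L z) := by
  have h := twc_intEmb_smul L g₀ g hg (g₀⁻¹ • z)
  rw [smul_inv_smul] at h
  rw [h]
  exact (g.symm_apply_apply _).symm

omit [FiniteDimensional ℚ L] [IsGalois ℚ L] in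
/-- Every element of `Gal(L/ℚ)` extends to `ℚ̄`. -/
theorem twc_exists_lift (g₀ : L ≃ₐ[ℚ] L) :
    ∃ g : TwGQ, ∀ x : L, g (x : AlgebraicClosure ℚ) = ((g₀ x : L) : AlgebraicClosure ℚ) := by
  haveI : Normal ℚ (AlgebraicClosure ℚ) := twc_qbar_normal
  exact ⟨g₀.liftNormal (AlgebraicClosure ℚ),
    fun x => AlgEquiv.liftNormal_commutes g₀ (AlgebraicClosure ℚ) x⟩

omit [FiniteDimensional ℚ L] in
/-- Elements of `G_ℚ` preserve the normal field `L`. -/
theorem twc_apply_mem (g : TwGQ) {x : AlgebraicClosure ℚ} (hx : x ∈ L) : g x ∈ L :=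
  Fermat.Agent.Common.apply_mem_of_normal L g hx

/-- **Frobenius elements over `q` are conjugate modulo inertia, on a finite Galois level.** -/
theorem twc_frob_conj (A P : ValuationSubring (AlgebraicClosure ℚ)) {q : ℕ} (hq : q.Prime)
    (hA : A.LiesOverPrime q) (hP : P.LiesOverPrime q) (τ φ : TwGQ)
    (hτ : A.IsFrobeniusAt τ q) (hφ : P.IsFrobeniusAt φ q) :
    ∃ g ι : TwGQ, ι ∈ A.inertiaSubgroupIn ℚ ∧ ∀ x ∈ L, φ x = (g * τ * ι * g⁻¹) x := by
  obtain ⟨g₀, hg₀⟩ := twc_exists_smul_eq L A P hq hA hP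
  obtain ⟨g, hg⟩ := twc_exists_lift L g₀
  set σ₀ : TwGQ := τ⁻¹ * g⁻¹ * φ * g with hσ₀
  have hτD : τ⁻¹ ∈ A.decompositionSubgroup ℚ := Subgroup.inv_mem _ hτ.mem_decompositionSubgroup
  have key : ∀ x ∈ L, IsIntegral ℤ x → σ₀ x - x ∈ A.nonunits := by
    intro x hx hint
    -- `y = g x`
    have hyL : g x ∈ L := twc_apply_mem L g hx
    have hyint : IsIntegral ℤ (g x) := hint.map (g : AlgebraicClosure ℚ →ₐ[ℚ] AlgebraicClosure ℚ).toRingHom.toIntAlgHom
    obtain ⟨y, hy⟩ := twc_exists_int L hyL hyint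
    -- `z = φ y - y ^ q ∈ 𝔓`
    have hz : (MulSemiringAction.toAlgHom ℤ (𝓞 L) (φ.restrictNormal L)) y - y ^ q ∈
        twcPrime L P := by
      rw [twc_mem_prime, map_sub, map_pow]
      have h1 : Cheb.intEmb L ((MulSemiringAction.toAlgHom ℤ (𝓞 L) (φ.restrictNormal L)) y) =
          φ (Cheb.intEmb L y) := AlgEquiv.restrictNormal_commutes φ L (y : L)
      rw [h1]
      exact Cheb.sub_pow_mem_nonunits_of_isFrobeniusAt P φ q hφ _ (Cheb.intEmb_mem L P y)
    rw [← hg₀, Ideal.mem_pointwise_smul_iff_inv_smul_mem, twc_mem_prime,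
      twc_intEmb_inv_smul L g₀ g hg, map_sub, map_pow] at hz
    have h1 : Cheb.intEmb L ((MulSemiringAction.toAlgHom ℤ (𝓞 L) (φ.restrictNormal L)) y) =
        φ (Cheb.intEmb L y) := AlgEquiv.restrictNormal_commutes φ L (y : L)
    rw [h1, hy, map_sub, map_pow] at hz
    have h2 : g⁻¹ (g x) = x := g.symm_apply_apply x
    rw [h2] at hz
    -- `τ x - x ^ q ∈ 𝔄`
    obtain ⟨x', hx'⟩ := twc_exists_int L hx hint
    have h3 : τ x - x ^ q ∈ A.nonunits := by
      rw [← hx']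
      exact Cheb.sub_pow_mem_nonunits_of_isFrobeniusAt A τ q hτ _ (Cheb.intEmb_mem L A x')
    have h4 : g⁻¹ (φ (g x)) - τ x ∈ A.nonunits := by
      have := A.nonunits.add_mem hz (A.nonunits.neg_mem h3)
      have e : g⁻¹ (φ (g x)) - x ^ q + -(τ x - x ^ q) = g⁻¹ (φ (g x)) - τ x := by ring
      rwa [e] at this
    have h5 : τ⁻¹ (g⁻¹ (φ (g x)) - τ x) ∈ A.nonunits :=
      (Fermat.Agent.S05.apply_mem_nonunits_iff_of_mem_decomposition hτD _).2 h4
    have e2 : τ⁻¹ (g⁻¹ (φ (g x)) - τ x) = σ₀ x - x := by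
      rw [map_sub]
      have : τ⁻¹ (τ x) = x := τ.symm_apply_apply x
      rw [this]
      rfl
    rwa [e2] at h5
  obtain ⟨ι, hι, hιL⟩ :=
    Fermat.Agent.Common.exists_mem_inertiaSubgroupIn_of_congr L q hq A hA σ₀ key
  refine ⟨g, ι, hι, fun x hx => ?_⟩
  have hx' : g⁻¹ x ∈ L := twc_apply_mem L g⁻¹ hx
  show φ x = g (τ (ι (g⁻¹ x)))
  rw [hιL _ hx']
  show φ x = g (τ (τ⁻¹ (g⁻¹ (φ (g (g⁻¹ x))))))
  have e1 : g (g⁻¹ x) = x := g.apply_symm_apply x
  have e2 : τ (τ⁻¹ (g⁻¹ (φ x))) = g⁻¹ (φ x) := τ.apply_symm_apply _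
  have e3 : g (g⁻¹ (φ x)) = φ x := g.apply_symm_apply _
  rw [e1, e2, e3]

end Conj

section Main

variable {k : Type} [Field k] (ρbar : ResidualGaloisRep k)

/-- `ρbar` factors through a finite Galois level containing two given finite extensions. -/
theorem twc_exists_level (E₁ E₂ : IntermediateField ℚ (AlgebraicClosure ℚ))
    [FiniteDimensional ℚ E₁] [FiniteDimensional ℚ E₂] :
    ∃ L : IntermediateField ℚ (AlgebraicClosure ℚ), FiniteDimensional ℚ L ∧ IsGalois ℚ L ∧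
      E₁ ≤ L ∧ E₂ ≤ L ∧ ∀ σ : TwGQ, (∀ x ∈ L, σ x = x) → ρbar.ρ σ = 1 := by
  obtain ⟨L₀, hL₀, h⟩ := ρbar.factorsThroughFiniteLevel
  obtain ⟨L, hLfin, hLgal, h1, h2, h3⟩ := twc_exists_galois_hull E₁ E₂ L₀
  exact ⟨L, hLfin, hLgal, h1, h2, fun σ hσ => h σ fun x hx => hσ x (h3 hx)⟩

/-- `ρbar` only depends on the restriction to a level. -/
theorem twc_rho_eq_of_eqOn (L : IntermediateField ℚ (AlgebraicClosure ℚ))
    (hL : ∀ σ : TwGQ, (∀ x ∈ L, σ x = x) → ρbar.ρ σ = 1) (σ τ : TwGQ)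
    (h : ∀ x ∈ L, σ x = τ x) : ρbar.ρ σ = ρbar.ρ τ := by
  have h1 : ρbar.ρ (τ⁻¹ * σ) = 1 := by
    refine hL _ fun x hx => ?_
    show τ⁻¹ (σ x) = x
    rw [h x hx]
    exact τ.symm_apply_apply x
  have h2 : ρbar.ρ τ * ρbar.ρ (τ⁻¹ * σ) = ρbar.ρ σ := by
    rw [← map_mul, mul_inv_cancel_left]
  rw [← h2, h1, mul_one]

/-- **TW-cheb.** Selection of a Taylor–Wiles prime by the weak Chebotarev theorem. -/
theorem twc_exists_prime (p : ℕ) [Fact p.Prime] (S : Finset ℕ) (hpS : p ∈ S)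
    (hunr : ∀ q : ℕ, q.Prime → q ∉ S → ρbar.IsUnramifiedAt q)
    (F : IntermediateField ℚ (AlgebraicClosure ℚ)) [FiniteDimensional ℚ F]
    (n : ℕ) (σ : TwGQ) (hσ : ∀ μ : AlgebraicClosure ℚ, μ ^ p ^ (n + 1) = 1 → σ μ = μ)
    (α β : k) (hαβ : α ≠ β)
    (hchar : LinearMap.charpoly (ρbar.ρ σ) = (X - C α) * (X - C β)) :
    ∃ q : ℕ, q.Prime ∧ q ∉ S ∧ p ^ (n + 1) ∣ q - 1 ∧
      (∀ P : ValuationSubring (AlgebraicClosure ℚ), P.LiesOverPrime q →
        ∀ φ : TwGQ, P.IsFrobeniusAt φ q →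
          ∃ α' β' : k, α' ≠ β' ∧
            LinearMap.charpoly (ρbar.ρ φ) = (X - C α') * (X - C β')) ∧
      ∃ (A : ValuationSubring (AlgebraicClosure ℚ)) (τ : TwGQ) (m j : ℕ),
        A.LiesOverPrime q ∧ A.IsFrobeniusAt τ q ∧ (∀ x ∈ F, (τ ^ m) x = σ x) ∧
          (∀ x ∈ F, (σ ^ j) x = τ x) ∧ ρbar.ρ τ = ρbar.ρ σ ^ j ∧ ρbar.ρ σ = ρbar.ρ τ ^ m := by
  have hp : p.Prime := Fact.out
  have hpn0 : p ^ (n + 1) ≠ 0 := pow_ne_zero _ hp.ne_zero
  haveI : NeZero (p ^ (n + 1)) := ⟨hpn0⟩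
  -- a primitive root of unity and the cyclotomic field
  obtain ⟨ζ, hζ⟩ := HasEnoughRootsOfUnity.exists_primitiveRoot (AlgebraicClosure ℚ) (p ^ (n + 1))
  have hζint : IsIntegral ℚ ζ := (hζ.isIntegral (Nat.pos_of_ne_zero hpn0)).tower_top
  haveI : FiniteDimensional ℚ (IntermediateField.adjoin ℚ {ζ}) :=
    IntermediateField.adjoin.finiteDimensional hζint
  obtain ⟨L, hLfin, hLgal, hFL, hζL, hL⟩ :=
    twc_exists_level ρbar F (IntermediateField.adjoin ℚ {ζ})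
  have hζmem : ζ ∈ L := hζL (IntermediateField.mem_adjoin_simple_self ℚ ζ)
  -- weak Chebotarev
  obtain ⟨q, A, τ, m, j, hq, hqS, hA, hτ, hτm, hσj⟩ :=
    Fermat.Agent.Cheb.exists_frobenius_generator L S σ
  have hqp : q ≠ p := fun h => hqS (h ▸ hpS)
  -- the representation at `τ`
  have hρτ : ρbar.ρ τ = ρbar.ρ σ ^ j := by
    rw [← map_pow]
    exact twc_rho_eq_of_eqOn ρbar L hL τ (σ ^ j) fun x hx => (hσj x hx).symm
  have hρσ : ρbar.ρ σ = ρbar.ρ τ ^ m := by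
    rw [← map_pow]
    exact twc_rho_eq_of_eqOn ρbar L hL σ (τ ^ m) fun x hx => (hτm x hx).symm
  have hρσ' : ρbar.ρ σ = ρbar.ρ σ ^ (j * m) := by
    conv_lhs => rw [hρσ, hρτ]
    rw [pow_mul]
  -- eigenvectors
  haveI : Module.Finite k ρbar.V := inferInstance
  obtain ⟨⟨v, hv, hTv⟩, ⟨w, hw, hTw⟩⟩ := twc_exists_eigenvector (ρbar.ρ σ) α β hchar
  have hpow : ∀ (c : k) (u : ρbar.V), ρbar.ρ σ u = c • u → ∀ i : ℕ,
      (ρbar.ρ σ ^ i) u = c ^ i • u := by
    intro c u hu i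
    induction i with
    | zero => simp
    | succ i ih =>
      rw [pow_succ, Module.End.mul_apply, hu, map_smul, ih, smul_smul, pow_succ, mul_comm]
  have hfix : ∀ (c : k) (u : ρbar.V), u ≠ 0 → ρbar.ρ σ u = c • u → c ^ (j * m) = c := by
    intro c u hu0 hu
    have h1 := hpow c u hu (j * m)
    rw [← hρσ', hu] at h1
    have h2 : (c - c ^ (j * m)) • u = 0 := by rw [sub_smul, h1, sub_self]
    rcases smul_eq_zero.1 h2 with h3 | h3
    · exact (sub_eq_zero.1 h3).symm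
    · exact absurd h3 hu0
  have hαβj : α ^ j ≠ β ^ j := by
    intro h
    apply hαβ
    rw [← hfix α v hv hTv, ← hfix β w hw hTw, pow_mul, pow_mul, h]
  -- `q ≡ 1 mod p^(n+1)`
  have hdvd : p ^ (n + 1) ∣ q - 1 := by
    have hM : ((p ^ (n + 1) : ℕ) : AlgebraicClosure ℚ) ∉ A.nonunits :=
      Fermat.Agent.S31.natCast_pow_not_mem_nonunits A hp hq hqp hA (n + 1)
    have h1 : τ ζ = ζ ^ q :=
      Fermat.Agent.S31.frob_rootOfUnity A hM hpn0 hτ hζ.pow_eq_one
    have hσpow : ∀ i : ℕ, (σ ^ i) ζ = ζ := by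
      intro i
      induction i with
      | zero => rfl
      | succ i ih =>
        rw [pow_succ, AlgEquiv.mul_apply, hσ ζ hζ.pow_eq_one, ih]
    have h2 : τ ζ = ζ := by rw [← hσj ζ hζmem, hσpow]
    have h3 : ζ ^ q = ζ := by rw [← h1, h2]
    have hζ0 : ζ ≠ 0 := hζ.ne_zero hpn0
    have h4 : ζ ^ (q - 1) = 1 := by
      have h5 : ζ ^ (q - 1) * ζ = 1 * ζ := by
        rw [← pow_succ, Nat.sub_add_cancel hq.one_le, h3, one_mul]
      exact mul_right_cancel₀ hζ0 h5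
    exact hζ.dvd_of_pow_eq_one _ h4
  refine ⟨q, hq, hqS, hdvd, ?_, A, τ, m, j, hA, hτ, fun x hx => hτm x (hFL hx),
    fun x hx => hσj x (hFL hx), hρτ, hρσ⟩
  -- every Frobenius element over `q`
  intro P hP φ hφ
  obtain ⟨g, ι, hι, hφL⟩ := twc_frob_conj L A P hq hA hP τ φ hτ hφ
  have hρι : ρbar.ρ ι = 1 := hunr q hq hqS A hA ι hι
  have hρφ : ρbar.ρ φ = ρbar.ρ g * ρbar.ρ σ ^ j * ρbar.ρ g⁻¹ := by
    rw [twc_rho_eq_of_eqOn ρbar L hL φ (g * τ * ι * g⁻¹) hφL, map_mul, map_mul, map_mul, hρι,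
      mul_one, hρτ]
  have hgg : ∀ u : ρbar.V, ρbar.ρ g⁻¹ (ρbar.ρ g u) = u := by
    intro u
    have : ρbar.ρ g⁻¹ * ρbar.ρ g = 1 := by rw [← map_mul, inv_mul_cancel, map_one]
    exact congrArg (fun f : Module.End k ρbar.V => f u) this
  have heig : ∀ (c : k) (u : ρbar.V), u ≠ 0 → ρbar.ρ σ u = c • u →
      ρbar.ρ g u ≠ 0 ∧ ρbar.ρ φ (ρbar.ρ g u) = c ^ j • ρbar.ρ g u := by
    intro c u hu0 hu
    refine ⟨fun h0 => hu0 ?_, ?_⟩
    · rw [← hgg u, h0, map_zero]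
    · rw [hρφ, Module.End.mul_apply, Module.End.mul_apply, hgg, hpow c u hu j, map_smul]
  obtain ⟨hv', hTv'⟩ := heig α v hv hTv
  obtain ⟨hw', hTw'⟩ := heig β w hw hTw
  exact ⟨α ^ j, β ^ j, hαβj,
    twc_charpoly_of_eigenvectors ρbar.finrank_eq (ρbar.ρ φ) hαβj hv' hTv' hw' hTw'⟩

/-- **TW-cheb, several primes.** For `σ₁, …, σ_r ∈ G_ℚ` fixing the `p^(n+1)`-th roots of unity
with `ρbar (σ i)` having distinct eigenvalues, there are DISTINCT primes `q₁, …, q_r ∉ S`,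
`q i ≡ 1 mod p^(n+1)`, such that every Frobenius element over `q i` has distinct eigenvalues and
some Frobenius element `τ` over `q i` generates the same subgroup of `Gal(F/ℚ)` as `σ i`. -/
theorem twc_exists_primes (p : ℕ) [Fact p.Prime] (S : Finset ℕ) (hpS : p ∈ S)
    (hunr : ∀ q : ℕ, q.Prime → q ∉ S → ρbar.IsUnramifiedAt q)
    (F : IntermediateField ℚ (AlgebraicClosure ℚ)) [FiniteDimensional ℚ F] (n : ℕ) :
    ∀ (r : ℕ) (σ : Fin r → TwGQ),
      (∀ i, ∀ μ : AlgebraicClosure ℚ, μ ^ p ^ (n + 1) = 1 → σ i μ = μ) →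
      (∀ i, ∃ α β : k, α ≠ β ∧ LinearMap.charpoly (ρbar.ρ (σ i)) = (X - C α) * (X - C β)) →
      ∃ qv : Fin r → ℕ, Function.Injective qv ∧
        (∀ i, (qv i).Prime ∧ qv i ∉ S ∧ p ^ (n + 1) ∣ qv i - 1) ∧
        (∀ i, ∀ P : ValuationSubring (AlgebraicClosure ℚ), P.LiesOverPrime (qv i) →
          ∀ φ : TwGQ, P.IsFrobeniusAt φ (qv i) →
            ∃ α' β' : k, α' ≠ β' ∧
              LinearMap.charpoly (ρbar.ρ φ) = (X - C α') * (X - C β')) ∧
        ∀ i, ∃ (A : ValuationSubring (AlgebraicClosure ℚ)) (τ : TwGQ) (m j : ℕ),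
          A.LiesOverPrime (qv i) ∧ A.IsFrobeniusAt τ (qv i) ∧ (∀ x ∈ F, (τ ^ m) x = σ i x) ∧
            (∀ x ∈ F, (σ i ^ j) x = τ x) ∧ ρbar.ρ τ = ρbar.ρ (σ i) ^ j ∧
            ρbar.ρ (σ i) = ρbar.ρ τ ^ m := by
  classical
  intro r
  induction r with
  | zero =>
    intro σ _ _
    exact ⟨Fin.elim0, fun i => i.elim0, fun i => i.elim0, fun i => i.elim0, fun i => i.elim0⟩
  | succ r ih =>
    intro σ hσ hchar
    obtain ⟨qv, hinj, h1, h2, h3⟩ := ih (fun i => σ i.castSucc) (fun i => hσ i.castSucc)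
      (fun i => hchar i.castSucc)
    set S' : Finset ℕ := S ∪ Finset.univ.image qv with hS'
    obtain ⟨α, β, hαβ, hc⟩ := hchar (Fin.last r)
    obtain ⟨q, hq, hqS', hdvd, hall, hone⟩ := twc_exists_prime ρbar p S'
      (Finset.mem_union_left _ hpS)
      (fun q hq hqS' => hunr q hq fun h => hqS' (Finset.mem_union_left _ h))
      F n (σ (Fin.last r)) (hσ (Fin.last r)) α β hαβ hc
    have hqS : q ∉ S := fun h => hqS' (Finset.mem_union_left _ h)
    have hqv : ∀ i, qv i ≠ q := by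
      intro i h
      apply hqS'
      rw [← h]
      exact Finset.mem_union_right _ (Finset.mem_image_of_mem _ (Finset.mem_univ i))
    refine ⟨Fin.snoc qv q, ?_, ?_, ?_, ?_⟩
    · intro a b hab
      induction a using Fin.lastCases with
      | last =>
        induction b using Fin.lastCases with
        | last => rfl
        | cast b =>
          rw [Fin.snoc_last, Fin.snoc_castSucc] at hab
          exact absurd hab.symm (hqv b)
      | cast a =>
        induction b using Fin.lastCases with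
        | last =>
          rw [Fin.snoc_last, Fin.snoc_castSucc] at hab
          exact absurd hab (hqv a)
        | cast b =>
          rw [Fin.snoc_castSucc, Fin.snoc_castSucc] at hab
          rw [hinj hab]
    · intro i
      induction i using Fin.lastCases with
      | last => rw [Fin.snoc_last]; exact ⟨hq, hqS, hdvd⟩
      | cast i => rw [Fin.snoc_castSucc]; exact h1 i
    · intro i
      induction i using Fin.lastCases with
      | last => rw [Fin.snoc_last]; exact hall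
      | cast i => rw [Fin.snoc_castSucc]; exact h2 i
    · intro i
      induction i using Fin.lastCases with
      | last => rw [Fin.snoc_last]; exact hone
      | cast i => rw [Fin.snoc_castSucc]; exact h3 i

end Main

end Fermat.Agent.TW


end ZBTW_018_0

/-! ### bundled: `Fermat.Agent.TW.S.Conj` -/
section ZBTW_018_1
/-
TW-S piece S-conj (helper87): ramification of `ρ̄` at `v` is seen at the place `padicPlace v`.

`stmtConj : StmtConj`: if `ρ̄` is ramified at `v` (some inertia group at some place over `v` acts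
non-trivially), then the inertia group of `padicPlace v` acts non-trivially.

Proof.  `ρ̄` factors through a finite Galois `L/ℚ`.  The primes of `𝓞 L` below the two places are
conjugate under `Gal(L/ℚ)` (`twc_exists_smul_eq`); lift `g₀` to `g ∈ G_ℚ`.  If `σ` is in the
inertia group of `A`, then `g σ g⁻¹` is `≡ 1` on `𝓞 L` modulo the prime below `P = padicPlace v`,
so by the inertia lifting lemma it agrees on `L` with an element of the inertia group of `P`.
-/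

set_option autoImplicit false
set_option linter.style.haveILetI false

noncomputable section

namespace Fermat.Agent.TW.S

open NumberField Fermat.Agent.TW Fermat.Agent.TW.L
open scoped Pointwise

/-- Transport of inertia to another place over the same prime, on a finite Galois level. -/
theorem sconj_transport (L : IntermediateField ℚ (AlgebraicClosure ℚ))
    [FiniteDimensional ℚ L] [IsGalois ℚ L]
    (A P : ValuationSubring (AlgebraicClosure ℚ)) {q : ℕ} (hq : q.Prime)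
    (hA : A.LiesOverPrime q) (hP : P.LiesOverPrime q)
    (σ : TwGQ) (hσ : σ ∈ A.inertiaSubgroupIn ℚ) :
    ∃ g σ' : TwGQ, σ' ∈ P.inertiaSubgroupIn ℚ ∧ ∀ x ∈ L, σ' x = (g * σ * g⁻¹) x := by
  obtain ⟨g₀, hg₀⟩ := twc_exists_smul_eq L A P hq hA hP
  obtain ⟨g, hg⟩ := twc_exists_lift L g₀
  obtain ⟨-, hσI⟩ := (Fermat.Agent.PT.B.mem_inertiaSubgroupIn_iff A σ).mp hσ
  have key : ∀ x ∈ L, IsIntegral ℤ x → (g * σ * g⁻¹) x - x ∈ P.nonunits := by
    intro x hx hint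
    -- `y = g⁻¹ x`
    have hyL : g⁻¹ x ∈ L := twc_apply_mem L g⁻¹ hx
    have hyint : IsIntegral ℤ (g⁻¹ x) :=
      hint.map ((g⁻¹ : TwGQ) : AlgebraicClosure ℚ →ₐ[ℚ] AlgebraicClosure ℚ).toRingHom.toIntAlgHom
    obtain ⟨y, hy⟩ := twc_exists_int L hyL hyint
    have hyA : g⁻¹ x ∈ A := hy ▸ Cheb.intEmb_mem L A y
    -- `z = σ y - y`
    have hzA : σ (g⁻¹ x) - g⁻¹ x ∈ A.nonunits := hσI _ hyA
    have hzL : σ (g⁻¹ x) - g⁻¹ x ∈ L := sub_mem (twc_apply_mem L σ hyL) hyL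
    have hzint : IsIntegral ℤ (σ (g⁻¹ x) - g⁻¹ x) :=
      (hyint.map (σ : AlgebraicClosure ℚ →ₐ[ℚ] AlgebraicClosure ℚ).toRingHom.toIntAlgHom).sub
        hyint
    obtain ⟨z, hz⟩ := twc_exists_int L hzL hzint
    have hzp : z ∈ twcPrime L A := by
      rw [twc_mem_prime, hz]
      exact hzA
    have hgz : g₀ • z ∈ twcPrime L P := by
      rw [← hg₀]
      exact Ideal.smul_mem_pointwise_smul g₀ z _ hzp
    rw [twc_mem_prime, twc_intEmb_smul L g₀ g hg, hz, map_sub] at hgz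
    have e1 : g (g⁻¹ x) = x := g.apply_symm_apply x
    rw [e1] at hgz
    exact hgz
  obtain ⟨σ', hσ'I, hσ'F⟩ :=
    Fermat.Agent.Common.exists_mem_inertiaSubgroupIn_of_congr L q hq P hP (g * σ * g⁻¹) key
  exact ⟨g, σ', hσ'I, hσ'F⟩

/-- **S-conj**. -/
theorem stmtConj : StmtConj := by
  intro k _ ρbar v hv hram
  have hex : ∃ A : ValuationSubring (AlgebraicClosure ℚ), A.LiesOverPrime v ∧
      ∃ σ ∈ A.inertiaSubgroupIn ℚ, ρbar.ρ σ ≠ 1 := by
    by_contra h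
    apply hram
    intro A hA σ hσ
    by_contra h1
    exact h ⟨A, hA, σ, hσ, h1⟩
  obtain ⟨A, hA, σ, hσ, hρσ⟩ := hex
  obtain ⟨L₀, hL₀fin, hL₀⟩ := ρbar.factorsThroughFiniteLevel
  haveI := hL₀fin
  obtain ⟨L, hLfin, hLgal, hle, -, -⟩ := twc_exists_galois_hull L₀ L₀ L₀
  haveI := hLfin
  haveI := hLgal
  obtain ⟨g, σ', hσ'I, hσ'F⟩ := sconj_transport L A (padicPlace v) hv.out hA
    (lfrobex_liesOverPrime v) σ hσ
  refine ⟨σ', hσ'I, fun h1 => hρσ ?_⟩
  -- `ρ̄ σ' = ρ̄ (g σ g⁻¹)`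
  have h2 : ρbar.ρ ((g * σ * g⁻¹)⁻¹ * σ') = 1 := by
    apply hL₀
    intro x hx
    show (g * σ * g⁻¹)⁻¹ (σ' x) = x
    rw [hσ'F x (hle hx)]
    exact (g * σ * g⁻¹).symm_apply_apply x
  have h2' : ρbar.ρ (g * σ * g⁻¹) = 1 := by
    have e : σ' = (g * σ * g⁻¹) * ((g * σ * g⁻¹)⁻¹ * σ') := by group
    have := congrArg ρbar.ρ e
    rw [map_mul, h2, mul_one, h1] at this
    exact this.symm
  rw [map_mul, map_mul] at h2'
  -- `ρ g * ρ σ * ρ g⁻¹ = 1`
  have h3 : ρbar.ρ g⁻¹ * ρbar.ρ g = 1 := by rw [← map_mul, inv_mul_cancel, map_one]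
  calc ρbar.ρ σ = (ρbar.ρ g⁻¹ * ρbar.ρ g) * ρbar.ρ σ * (ρbar.ρ g⁻¹ * ρbar.ρ g) := by
        rw [h3, one_mul, mul_one]
    _ = ρbar.ρ g⁻¹ * (ρbar.ρ g * ρbar.ρ σ * ρbar.ρ g⁻¹) * ρbar.ρ g := by
        simp only [mul_assoc]
    _ = 1 := by rw [h2', mul_one, h3]

end Fermat.Agent.TW.S

end


end ZBTW_018_1

/-! ### bundled: `Fermat.Agent.TW.G.Wire.Plan` -/
section ZBTW_018_2

/-!
# TW-G / G-wire (helper26): from the abstract G-sel to Taylor–Wiles primes killing dual Selmer classes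

`B := (ad⁰ ρ̄).dualTwist χ̄ = ad⁰(1)`.  FINAL DELIVERABLE of TW-G: `StmtGKill`.
Piece table and proofs: NOTES/TW-G.md §6.
-/

set_option autoImplicit false
set_option linter.unusedSectionVars false

noncomputable section

namespace Fermat.Agent.TW.G.Wire

open CategoryTheory groupCohomology Polynomial IsLocalRing
open Fermat.Agent.PT Fermat.Agent.PT.B Fermat.Agent.TW.S ExtCitation Fermat.Agent.TW.G.Sel

variable {k : Type} [Field k]

/-- the matrix form of `ρ̄` in a basis, with values in `GL₂(k)` -/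
def rhoGL (ρbar : ResidualGaloisRep k) (b : Module.Basis (Fin 2) k ρbar.V) :
    GQ →* GL (Fin 2) k :=
  ((LinearMap.toMatrixAlgEquiv b : Module.End k ρbar.V ≃ₐ[k] Matrix (Fin 2) (Fin 2) k).toAlgHom.toRingHom.toMonoidHom.comp
    ρbar.ρ).toHomUnits

lemma rhoGL_val (ρbar : ResidualGaloisRep k) (b : Module.Basis (Fin 2) k ρbar.V) (σ : GQ) :
    (rhoGL ρbar b σ).1 = LinearMap.toMatrix b b (ρbar.ρ σ) := rfl

/-- the stabiliser of `μ_{p^(n+1)}` -/
def Nn (p n : ℕ) : Subgroup GQ where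
  carrier := {σ | ∀ μ : AlgebraicClosure ℚ, μ ^ p ^ (n + 1) = 1 → σ μ = μ}
  one_mem' := fun _ _ => rfl
  mul_mem' := by
    intro a b ha hb μ hμ
    show a (b μ) = μ
    rw [hb μ hμ, ha μ hμ]
  inv_mem' := by
    intro a ha μ hμ
    have h := ha μ hμ
    have : a⁻¹ (a μ) = μ := by
      show (a⁻¹ * a) μ = μ
      rw [inv_mul_cancel]; rfl
    rw [h] at this
    exact this

variable (p : ℕ) [Fact p.Prime] [CharP k p] (ρbar : ResidualGaloisRep k)

/-- `ad⁰(1)` -/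
abbrev adTw : Rep.{0} (ZMod p) GQ := (ad0Rep p ρbar).dualTwist (cycloChar p)

/-- a level cocycle of `ad⁰(1)` -/
def IsLevCoc (c : GQ → (adTw p ρbar).V) : Prop :=
  c ∈ cocycles₁ (adTw p ρbar) ∧
    ∃ F : QbarField, FiniteDimensional ℚ F ∧ ∀ g s : GQ, s ∈ F.fixingSubgroup → c (g * s) = c g

/-- `c` is a coboundary at every Frobenius element over `q` -/
def TrivAtFrob (c : GQ → (adTw p ρbar).V) (q : ℕ) : Prop :=
  ∀ A : ValuationSubring (AlgebraicClosure ℚ), A.LiesOverPrime q →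
    ∀ τ : GQ, A.IsFrobeniusAt τ q → ∃ m : (adTw p ρbar).V, c τ = (adTw p ρbar).ρ τ m - m

/-- the classes which are trivial at the Frobenius elements over `q` -/
def trivFrobH1 (q : ℕ) : Set (H1 (adTw p ρbar)) :=
  {y | ∃ c : cocycles₁ (adTw p ρbar), (H1π (adTw p ρbar)).hom c = y ∧
    TrivAtFrob p ρbar (c : GQ → (adTw p ρbar).V) q}

/-- **FINAL DELIVERABLE of TW-G.**  For a finite-dimensional space `D₀` of level classes in
`H¹(G_ℚ, ad⁰(1))` (the dual Selmer group of the minimal problem), every `r ≥ dim D₀` and every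
`n` there is a Taylor–Wiles family `q₁, …, q_r` such that the only class of `D₀` which is trivial
at the Frobenius elements of all `q_i` is `0`. -/
def StmtGKill : Prop :=
  ∀ (𝒪 : Type) [CommRing 𝒪] [IsDomain 𝒪] [IsDiscreteValuationRing 𝒪]
    [IsAdicComplete (maximalIdeal 𝒪) 𝒪] [Finite (ResidueField 𝒪)]
    (p : ℕ) [Fact p.Prime] [CharP (ResidueField 𝒪) p]
    (ρbar : ResidualGaloisRep (ResidueField 𝒪)) (S Smin : Finset ℕ),
    TWHyp 𝒪 p ρbar S Smin →
    ∀ D₀ : Submodule (ZMod p) (H1 (adTw p ρbar)), Module.Finite (ZMod p) D₀ →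
      (∀ y ∈ D₀, ∃ c : cocycles₁ (adTw p ρbar), (H1π (adTw p ρbar)).hom c = y ∧
        IsLevCoc p ρbar (c : GQ → (adTw p ρbar).V)) →
      ∀ r : ℕ, Module.finrank (ZMod p) D₀ ≤ r → ∀ n : ℕ,
        ∃ qv : Fin r → ℕ, IsTWFamily p ρbar S n r qv ∧
          ∀ y ∈ D₀, (∀ i, y ∈ trivFrobH1 p ρbar (qv i)) → y = 0

/-- (W4) a class whose restriction to `G_{ℚ_q}` vanishes is trivial at the Frobenius elements
over `q`. -/
def StmtWLoc : Prop :=
  ∀ (k : Type) [Field k] (p : ℕ) [Fact p.Prime] [CharP k p] (ρbar : ResidualGaloisRep k)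
    (q : ℕ) [Fact q.Prime] (c : cocycles₁ (adTw p ρbar)),
    (∃ m : (adTw p ρbar).V, ∀ x : GQq q,
      (c : GQ → (adTw p ρbar).V) (localGaloisToGlobal q x) =
        (adTw p ρbar).ρ (localGaloisToGlobal q x) m - m) →
    TrivAtFrob p ρbar (c : GQ → (adTw p ρbar).V) q

/-- (W1) the hypotheses of S56 give the abstract hypotheses `Hyp`, in any basis and for every
`n`. -/
def StmtWHyp : Prop :=
  ∀ (𝒪 : Type) [CommRing 𝒪] [IsDomain 𝒪] [IsDiscreteValuationRing 𝒪]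
    [IsAdicComplete (maximalIdeal 𝒪) 𝒪] [Finite (ResidueField 𝒪)]
    (p : ℕ) [Fact p.Prime] [CharP (ResidueField 𝒪) p]
    (ρbar : ResidualGaloisRep (ResidueField 𝒪)) (S Smin : Finset ℕ),
    TWHyp 𝒪 p ρbar S Smin →
    ∀ (b : Module.Basis (Fin 2) (ResidueField 𝒪) ρbar.V) (n : ℕ),
      Hyp p (rhoGL ρbar b) (Nn p n)

/-- (W1a) `det ρ̄ = χ̄`. -/
def StmtWDet : Prop :=
  ∀ (k : Type) [Field k] (p : ℕ) [Fact p.Prime] [CharP k p] (ρbar : ResidualGaloisRep k),
    (GaloisRepAdic.ofResidualGaloisRep ρbar).DetIsCyclotomic p →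
    ∀ (b : Module.Basis (Fin 2) k ρbar.V) (σ : GQ),
      (rhoGL ρbar b σ).1.det = (((cycloChar p σ : (ZMod p)ˣ) : ZMod p).val : k)

/-- (W1b) the mod `p` cyclotomic character is surjective. -/
def StmtWChiSurj : Prop :=
  ∀ (p : ℕ) [Fact p.Prime], Function.Surjective (cycloChar p)

/-- (W1c) absolute irreducibility in matrix form, on `G_ℚ` and on subgroups of index 2. -/
def StmtWIrr : Prop :=
  ∀ (𝒪 : Type) [CommRing 𝒪] [IsDomain 𝒪] [IsDiscreteValuationRing 𝒪]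
    [IsAdicComplete (maximalIdeal 𝒪) 𝒪] [Finite (ResidueField 𝒪)]
    (p : ℕ) [Fact p.Prime] [CharP (ResidueField 𝒪) p]
    (ρbar : ResidualGaloisRep (ResidueField 𝒪)) (S Smin : Finset ℕ),
    TWHyp 𝒪 p ρbar S Smin →
    ∀ (b : Module.Basis (Fin 2) (ResidueField 𝒪) ρbar.V) (H : Subgroup GQ),
      (H = ⊤ ∨ H.index = 2) → NoEigen (rhoGL ρbar b) H

/-- (W1d) `N_n` is normal with cyclic quotient (`p` odd), and `χ̄ = 1` on `N_n`. -/
def StmtWCyc : Prop :=
  ∀ (p : ℕ) [Fact p.Prime], p ≠ 2 → ∀ n : ℕ,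
    (Nn p n).Normal ∧ (∃ γ : GQ, ∀ σ : GQ, ∃ a : ℤ, γ ^ a * σ ∈ Nn p n) ∧
      ∀ σ ∈ Nn p n, cycloChar p σ = 1

/-- (W2) the dictionary `ad⁰(1) ≅ (trace-zero matrices, twisted adjoint action)`. -/
def StmtWPhi : Prop :=
  ∀ (k : Type) [Field k] [Finite k] (p : ℕ) [Fact p.Prime] [CharP k p], p ≠ 2 →
    ∀ (ρbar : ResidualGaloisRep k),
    (GaloisRepAdic.ofResidualGaloisRep ρbar).DetIsCyclotomic p →
    ∀ (b : Module.Basis (Fin 2) k ρbar.V),
      ∃ Φ : (adTw p ρbar).V →+ M2 k, Function.Injective Φ ∧ (∀ x, (Φ x).trace = 0) ∧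
        (∀ m : M2 k, m.trace = 0 → ∃ x, Φ x = m) ∧
        ∀ (σ : GQ) (x : (adTw p ρbar).V),
          Φ ((adTw p ρbar).ρ σ x) = act (rhoGL ρbar b σ).1 (Φ x)

/-- (W3) transfer between two elements generating the same cyclic group modulo a subgroup on
which `ρ` is trivial and `ψ` is constant. -/
def StmtWTransfer : Prop :=
  ∀ (k : Type) [Field k] (Γ : Type) [Group Γ] (ρ : Γ →* GL (Fin 2) k) (ψ : Γ → M2 k),
    IsCoc ρ ψ → ∀ (U : Subgroup Γ), (∀ s ∈ U, ρ s = 1) → (∀ g : Γ, ∀ s ∈ U, ψ (g * s) = ψ g) →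
    ∀ (σ τ : Γ) (j : ℕ), (σ ^ j)⁻¹ * τ ∈ U → IsCobAt ρ ψ σ → IsCobAt ρ ψ τ

/-- (W5) assembly of the final deliverable. -/
def StmtWAsm : Prop :=
  StmtGSel → StmtWHyp → StmtWPhi → StmtWTransfer → StmtGKill

/-- (W1f) assembly of `StmtWHyp`. -/
def StmtWHypAsm : Prop :=
  StmtWDet → StmtWChiSurj → StmtWIrr → StmtWCyc → StmtWHyp

end Fermat.Agent.TW.G.Wire

end


end ZBTW_018_2

/-! ### bundled: `Fermat.Agent.TW.S.Tow` -/
section ZBTW_018_3
/-
TW-S, piece S-tow (helper40): `stmtTow : StmtTow` (change of tower).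

`c` a cocycle, level for `towerS T'`, `A` trivial on `G_K` (`K` Galois, unramified outside `T`).
`N := {g ∈ G_K | c g = 0}` is a normal subgroup of `G_ℚ` (`c` is a homomorphism on `G_K`), contains
`Gal(ℚ̄/E)` for a finite Galois `E`, and contains the inertia groups at all places outside `T`:
outside `T'` by the level of `c`; at `q ∈ T' ∖ T` by the local condition at `padicPlace q`
(`TW.L.stmtDecFull`) and conjugacy of the places over `q` (`stow_inertia_le`).  Hence `N = G_L` with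
`L` unramified outside `T` (`PT.B.isTowerField_fixedField_of_normal`) and `c` is constant mod `N`.
-/

set_option autoImplicit false
set_option linter.unusedSectionVars false
set_option linter.style.haveILetI false

noncomputable section

namespace Fermat.Agent.TW.S

open CategoryTheory groupCohomology IsLocalRing NumberField
open Fermat.Agent.PT Fermat.Agent.PT.B Fermat.Agent.TW.L ExtCitation
open scoped Pointwise

/-- **Inertia groups over the same prime are conjugate**, in the form: a normal subgroup of `G_ℚ`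
which is open (contains `Gal(ℚ̄/E)`, `E` finite Galois) and contains the inertia group of one place
over `q` contains the inertia group of every place over `q`. -/
theorem stow_inertia_le (N : Subgroup GQ) [N.Normal] (E : QbarField) [FiniteDimensional ℚ E]
    [IsGalois ℚ E] (hE : E.fixingSubgroup ≤ N) {q : ℕ} (hq : q.Prime)
    (P A : ValuationSubring (AlgebraicClosure ℚ)) (hP : P.LiesOverPrime q)
    (hA : A.LiesOverPrime q) (hPN : P.inertiaSubgroupIn ℚ ≤ N) :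
    A.inertiaSubgroupIn ℚ ≤ N := by
  intro σ hσ
  obtain ⟨-, hσI⟩ := (mem_inertiaSubgroupIn_iff A σ).mp hσ
  obtain ⟨g₀, hg₀⟩ := Fermat.Agent.TW.twc_exists_smul_eq E P A hq hP hA
  obtain ⟨g, hg⟩ := Fermat.Agent.TW.twc_exists_lift E g₀
  set σ₀ : GQ := g⁻¹ * σ * g with hσ₀
  have key : ∀ x ∈ E, IsIntegral ℤ x → σ₀ x - x ∈ P.nonunits := by
    intro x hx hint
    have hyE : g x ∈ E := Fermat.Agent.TW.twc_apply_mem E g hx
    have hyint : IsIntegral ℤ (g x) :=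
      hint.map (g : AlgebraicClosure ℚ →ₐ[ℚ] AlgebraicClosure ℚ).toRingHom.toIntAlgHom
    obtain ⟨y, hy⟩ := Fermat.Agent.TW.twc_exists_int E hyE hyint
    have h1 : Cheb.intEmb E ((MulSemiringAction.toAlgHom ℤ (𝓞 E) (σ.restrictNormal E)) y) =
        σ (Cheb.intEmb E y) := AlgEquiv.restrictNormal_commutes σ E (y : E)
    have hz : (MulSemiringAction.toAlgHom ℤ (𝓞 E) (σ.restrictNormal E)) y - y ∈
        Fermat.Agent.TW.twcPrime E A := by
      rw [Fermat.Agent.TW.twc_mem_prime, map_sub, h1]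
      exact hσI _ (Cheb.intEmb_mem E A y)
    rw [← hg₀, Ideal.mem_pointwise_smul_iff_inv_smul_mem, Fermat.Agent.TW.twc_mem_prime,
      Fermat.Agent.TW.twc_intEmb_inv_smul E g₀ g hg, map_sub, h1, hy, map_sub] at hz
    have h2 : g⁻¹ (g x) = x := g.symm_apply_apply x
    rw [h2] at hz
    exact hz
  obtain ⟨σ', hσ', hσ'E⟩ :=
    Fermat.Agent.Common.exists_mem_inertiaSubgroupIn_of_congr E q hq P hP σ₀ key
  have h1 : σ' ∈ N := hPN hσ'
  have h2 : σ'⁻¹ * σ₀ ∈ E.fixingSubgroup := by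
    rw [IntermediateField.mem_fixingSubgroup_iff]
    intro x hx
    show σ'⁻¹ (σ₀ x) = x
    rw [← hσ'E x hx]
    exact σ'.symm_apply_apply x
  have h3 : σ₀ ∈ N := by
    have := N.mul_mem h1 (hE h2)
    rwa [mul_inv_cancel_left] at this
  have h4 : g * σ₀ * g⁻¹ ∈ N := Subgroup.Normal.conj_mem inferInstance σ₀ h3 g
  have h5 : g * σ₀ * g⁻¹ = σ := by rw [hσ₀]; group
  rwa [h5] at h4

/-- the kernel of a cocycle on a subgroup which acts trivially -/
def stow_ker {k : Type} [CommRing k] (A : Rep.{0} k GQ) (c : cocycles₁ A) (V : Subgroup GQ)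
    (hV : ∀ s ∈ V, A.ρ s = 1) : Subgroup GQ where
  carrier := {g | g ∈ V ∧ c g = 0}
  one_mem' := ⟨V.one_mem, cocycles₁_map_one c⟩
  mul_mem' := by
    rintro a b ⟨ha, hca⟩ ⟨hb, hcb⟩
    refine ⟨V.mul_mem ha hb, ?_⟩
    rw [(mem_cocycles₁_iff c).1 c.2 a b, hcb, map_zero, hca, add_zero]
  inv_mem' := by
    rintro a ⟨ha, hca⟩
    refine ⟨V.inv_mem ha, ?_⟩
    have := cocycles₁_map_inv c a
    rw [hV a ha, hca, neg_zero] at this
    exact this

theorem stow_mem_ker {k : Type} [CommRing k] (A : Rep.{0} k GQ) (c : cocycles₁ A)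
    (V : Subgroup GQ) (hV : ∀ s ∈ V, A.ρ s = 1) (g : GQ) :
    g ∈ stow_ker A c V hV ↔ g ∈ V ∧ c g = 0 := Iff.rfl

theorem stow_ker_normal {k : Type} [CommRing k] (A : Rep.{0} k GQ) (c : cocycles₁ A)
    (V : Subgroup GQ) [hVn : V.Normal] (hV : ∀ s ∈ V, A.ρ s = 1) :
    (stow_ker A c V hV).Normal := by
  refine ⟨fun n hn g => ?_⟩
  obtain ⟨hnV, hcn⟩ := hn
  refine ⟨hVn.conj_mem n hnV g, ?_⟩
  rw [(mem_cocycles₁_iff c).1 c.2 (g * n) g⁻¹, (mem_cocycles₁_iff c).1 c.2 g n, hcn, map_zero,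
    zero_add, map_mul, Module.End.mul_apply, hV n hnV, Module.End.one_apply,
    cocycles₁_map_inv, neg_add_cancel]

/-- **S-tow**. -/
theorem stmtTow : StmtTow := by
  intro p _ T T' hTT A _ hA x hx hloc
  obtain ⟨U₀, hU₀, hU₀A⟩ := hA
  obtain ⟨V, hV, hVU₀, hVn⟩ := (towerS T).exists_normal U₀ hU₀
  obtain ⟨K, hK, rfl⟩ := hV
  rw [mem_levH1_iff] at hx ⊢
  obtain ⟨c, hc, rfl⟩ := hx
  obtain ⟨U', hU', hcU'⟩ := hc
  obtain ⟨F', hF', rfl⟩ := hU'
  refine ⟨c, ?_, rfl⟩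
  have hVA : ∀ s ∈ K.fixingSubgroup, A.ρ s = 1 := fun s hs => hU₀A s (hVU₀ hs)
  set N := stow_ker A c K.fixingSubgroup hVA with hN
  haveI : N.Normal := stow_ker_normal A c K.fixingSubgroup hVA
  have hF'K : (F' ⊔ K).IsUnramifiedOutside T' := hF'.sup (hK.mono hTT)
  obtain ⟨E, hEle, hE⟩ := stmtNormalClosure T' (F' ⊔ K) hF'K
  haveI : FiniteDimensional ℚ E := hE.1.1
  haveI : IsGalois ℚ E := hE.2
  have hEN : E.fixingSubgroup ≤ N := by
    intro s hs
    refine ⟨IntermediateField.fixingSubgroup_antitone (le_sup_right.trans hEle) hs, ?_⟩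
    have h1 : s ∈ F'.fixingSubgroup :=
      IntermediateField.fixingSubgroup_antitone (le_sup_left.trans hEle) hs
    have h2 := hcU' 1 s h1
    rw [one_mul] at h2
    rw [h2]
    exact cocycles₁_map_one c
  have hI : ∀ q : Nat.Primes, q ∉ T → ∀ A' : ValuationSubring (AlgebraicClosure ℚ),
      A'.LiesOverPrime (q : ℕ) → A'.inertiaSubgroupIn ℚ ≤ N := by
    intro q hq A' hA'
    by_cases hqT' : q ∈ T'
    · haveI : Fact ((q : Nat.Primes) : ℕ).Prime := ⟨q.2⟩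
      apply stow_inertia_le N E hEN q.2 (padicPlace (q : ℕ)) A'
        (lfrobex_liesOverPrime (q : ℕ)) hA'
      intro σ hσ
      have hσK : σ ∈ K.fixingSubgroup := hK.2 q hq _ (lfrobex_liesOverPrime (q : ℕ)) hσ
      refine ⟨hσK, ?_⟩
      obtain ⟨τ, rfl⟩ := stmtDecFull (q : ℕ) σ ((mem_inertiaSubgroupIn_iff _ σ).mp hσ).1
      have hτ : τ ∈ inertiaQ (q : ℕ) := hσ
      have hl := hloc q hqT' hq
      rw [mem_unrH1] at hl
      obtain ⟨cq, -, hcq, hcqx⟩ := hl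
      have h1 := H1π_comp_map_apply (A := A) (B := locRep (q : ℕ) A)
        (localGaloisToGlobal (q : ℕ)) (𝟙 _) c
      have h3 := (H1π_eq_iff cq (mapCocycles₁ (localGaloisToGlobal (q : ℕ)) (𝟙 _) c)).mp
        (hcqx.trans h1)
      obtain ⟨a, ha⟩ := h3
      have h2 := congrFun ha τ
      rw [Pi.sub_apply, hcq τ hτ, zero_sub] at h2
      have e1 : (d₀₁ (locRep (q : ℕ) A)).hom a τ = A.ρ (localGaloisToGlobal (q : ℕ) τ) a - a :=
        rfl
      have e2 : (mapCocycles₁ (localGaloisToGlobal (q : ℕ)) (𝟙 (Rep.res (localGaloisToGlobal (q : ℕ)) A))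
          c) τ = c (localGaloisToGlobal (q : ℕ) τ) := rfl
      rw [e1, hVA _ hσK, Module.End.one_apply, sub_self] at h2
      have h4 := neg_eq_zero.mp h2.symm
      rw [← e2]
      exact h4
    · intro σ hσ
      exact hEN (hE.1.2 q hqT' A' hA' hσ)
  obtain ⟨hT, hfix⟩ := isTowerField_fixedField_of_normal T N E hE.1.1 hEN hI
  refine ⟨N, ⟨IntermediateField.fixedField N, hT.1, hfix.symm⟩, fun g s hs => ?_⟩
  rw [(mem_cocycles₁_iff c).1 c.2 g s, hs.2, map_zero, zero_add]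

end Fermat.Agent.TW.S

end
end ZBTW_018_3

/-! ### bundled: `Fermat.Agent.TW.G.Wire.Asm` -/
section ZBTW_018_4

/-!
# TW-G / G-wire W5 (helper26): assembly of `StmtGKill`

`stmtWAsm : StmtWAsm`, i.e. `StmtGSel → StmtWHyp → StmtWPhi → StmtWTransfer → StmtGKill`.
-/

set_option autoImplicit false
set_option linter.unusedSectionVars false
set_option linter.unusedVariables false

noncomputable section

namespace Fermat.Agent.TW.G.Wire

open CategoryTheory groupCohomology Polynomial IsLocalRing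
open Fermat.Agent.PT Fermat.Agent.PT.B Fermat.Agent.TW.S ExtCitation Fermat.Agent.TW.G.Sel

variable {k : Type} [Field k] (p : ℕ) [Fact p.Prime] [CharP k p] (ρbar : ResidualGaloisRep k)

/-! ### `TrivAtFrob` is a linear condition, invariant under coboundaries -/

lemma gwa_triv_zero (q : ℕ) : TrivAtFrob p ρbar (fun _ => 0) q := by
  intro A hA τ hτ
  exact ⟨0, by simp⟩

lemma gwa_triv_add {c₁ c₂ : GQ → (adTw p ρbar).V} {q : ℕ} (h₁ : TrivAtFrob p ρbar c₁ q)
    (h₂ : TrivAtFrob p ρbar c₂ q) : TrivAtFrob p ρbar (fun σ => c₁ σ + c₂ σ) q := by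
  intro A hA τ hτ
  obtain ⟨m₁, hm₁⟩ := h₁ A hA τ hτ
  obtain ⟨m₂, hm₂⟩ := h₂ A hA τ hτ
  refine ⟨m₁ + m₂, ?_⟩
  show c₁ τ + c₂ τ = _
  rw [hm₁, hm₂, map_add]
  abel

lemma gwa_triv_sub {c₁ c₂ : GQ → (adTw p ρbar).V} {q : ℕ} (h₁ : TrivAtFrob p ρbar c₁ q)
    (h₂ : TrivAtFrob p ρbar c₂ q) : TrivAtFrob p ρbar (fun σ => c₁ σ - c₂ σ) q := by
  intro A hA τ hτ
  obtain ⟨m₁, hm₁⟩ := h₁ A hA τ hτ
  obtain ⟨m₂, hm₂⟩ := h₂ A hA τ hτ
  refine ⟨m₁ - m₂, ?_⟩
  show c₁ τ - c₂ τ = _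
  rw [hm₁, hm₂, map_sub]
  abel

lemma gwa_triv_smul (a : ZMod p) {c : GQ → (adTw p ρbar).V} {q : ℕ}
    (h : TrivAtFrob p ρbar c q) : TrivAtFrob p ρbar (fun σ => a • c σ) q := by
  intro A hA τ hτ
  obtain ⟨m, hm⟩ := h A hA τ hτ
  refine ⟨a • m, ?_⟩
  show a • c τ = _
  rw [hm, map_smul, smul_sub]

lemma gwa_triv_cob (x : (adTw p ρbar).V) (q : ℕ) :
    TrivAtFrob p ρbar (fun σ => (adTw p ρbar).ρ σ x - x) q := by
  intro A hA τ hτ
  exact ⟨x, rfl⟩

/-- a coboundary, in elementary form -/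
lemma gwa_mem_cob {f : GQ → (adTw p ρbar).V} (hf : f ∈ coboundaries₁ (adTw p ρbar)) :
    ∃ x : (adTw p ρbar).V, ∀ σ, f σ = (adTw p ρbar).ρ σ x - x := by
  obtain ⟨x, hx⟩ := hf
  refine ⟨x, fun σ => ?_⟩
  rw [← hx]
  rfl

lemma gwa_cob_mem {f : GQ → (adTw p ρbar).V} (x : (adTw p ρbar).V)
    (hf : ∀ σ, f σ = (adTw p ρbar).ρ σ x - x) : f ∈ coboundaries₁ (adTw p ρbar) := by
  refine ⟨x, ?_⟩
  funext σ
  rw [hf σ]
  rfl

/-- independence of the representative -/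
lemma gwa_triv_of_class {c c' : cocycles₁ (adTw p ρbar)} {q : ℕ}
    (h : (H1π (adTw p ρbar)).hom c = (H1π (adTw p ρbar)).hom c')
    (hc : TrivAtFrob p ρbar (c : GQ → (adTw p ρbar).V) q) :
    TrivAtFrob p ρbar (c' : GQ → (adTw p ρbar).V) q := by
  have h1 : (⇑c' - ⇑c : GQ → (adTw p ρbar).V) ∈ coboundaries₁ (adTw p ρbar) :=
    (H1π_eq_iff c' c).1 h.symm
  obtain ⟨x, hx⟩ := gwa_mem_cob p ρbar h1
  have h2 := gwa_triv_add p ρbar hc (gwa_triv_cob p ρbar x q)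
  intro A hA τ hτ
  obtain ⟨m, hm⟩ := h2 A hA τ hτ
  refine ⟨m, ?_⟩
  rw [← hm]
  have h3 : c' τ - c τ = (adTw p ρbar).ρ τ x - x := hx τ
  show c' τ = c τ + ((adTw p ρbar).ρ τ x - x)
  rw [← h3]
  abel

/-- the classes which are trivial at the Frobenius elements over `q`, as a submodule -/
def gwaK (q : ℕ) : Submodule (ZMod p) (H1 (adTw p ρbar)) where
  carrier := trivFrobH1 p ρbar q
  zero_mem' := ⟨0, map_zero _, gwa_triv_zero p ρbar q⟩
  add_mem' := by
    rintro y₁ y₂ ⟨c₁, rfl, h₁⟩ ⟨c₂, rfl, h₂⟩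
    exact ⟨c₁ + c₂, map_add _ _ _, gwa_triv_add p ρbar h₁ h₂⟩
  smul_mem' := by
    rintro a y ⟨c, rfl, h⟩
    exact ⟨a • c, map_smul _ _ _, gwa_triv_smul p ρbar a h⟩

lemma gwa_mem_K (q : ℕ) (y : H1 (adTw p ρbar)) :
    y ∈ gwaK p ρbar q ↔ y ∈ trivFrobH1 p ρbar q := Iff.rfl

/-! ### The dictionary for cocycles -/

section Dict

variable {p ρbar}
variable (b : Module.Basis (Fin 2) k ρbar.V)
  (Φ : (adTw p ρbar).V →+ M2 k) (hΦinj : Function.Injective Φ)
  (hΦtr : ∀ x, (Φ x).trace = 0) (hΦsurj : ∀ m : M2 k, m.trace = 0 → ∃ x, Φ x = m)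
  (hΦact : ∀ (σ : GQ) (x : (adTw p ρbar).V),
    Φ ((adTw p ρbar).ρ σ x) = act (rhoGL ρbar b σ).1 (Φ x))

include hΦtr hΦact in
lemma gwa_isCoc (c : cocycles₁ (adTw p ρbar)) :
    IsCoc (rhoGL ρbar b) (fun σ => Φ (c σ)) := by
  refine ⟨fun σ => hΦtr _, fun σ τ => ?_⟩
  show Φ (c (σ * τ)) = Φ (c σ) + act (rhoGL ρbar b σ).1 (Φ (c τ))
  have h := (mem_cocycles₁_iff (⇑c)).1 c.2 σ τ
  rw [h, map_add, hΦact, add_comm]

include hΦinj hΦsurj hΦact in
lemma gwa_not_isCob (c : cocycles₁ (adTw p ρbar))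
    (hne : (H1π (adTw p ρbar)).hom c ≠ 0) :
    ¬ IsCob (rhoGL ρbar b) (fun σ => Φ (c σ)) := by
  rintro ⟨m, hm0, hm⟩
  obtain ⟨x, rfl⟩ := hΦsurj m hm0
  apply hne
  rw [H1π_eq_zero_iff]
  refine gwa_cob_mem p ρbar x fun σ => ?_
  apply hΦinj
  rw [map_sub, hΦact]
  exact hm σ

include hΦinj hΦtr hΦsurj hΦact in
lemma gwa_isCobAt_iff (c : GQ → (adTw p ρbar).V) (τ : GQ) :
    IsCobAt (rhoGL ρbar b) (fun σ => Φ (c σ)) τ ↔
      ∃ m : (adTw p ρbar).V, c τ = (adTw p ρbar).ρ τ m - m := by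
  constructor
  · rintro ⟨m, hm0, hm⟩
    obtain ⟨x, rfl⟩ := hΦsurj m hm0
    refine ⟨x, ?_⟩
    apply hΦinj
    rw [map_sub, hΦact]
    exact hm
  · rintro ⟨m, hm⟩
    refine ⟨Φ m, hΦtr m, ?_⟩
    show Φ (c τ) = _
    rw [hm, map_sub, hΦact]

end Dict

/-! ### Detection of a class by a Taylor–Wiles prime -/

section Main

variable {p ρbar}

lemma gwa_charpoly (b : Module.Basis (Fin 2) k ρbar.V) (σ : GQ) :
    (rhoGL ρbar b σ).1.charpoly = LinearMap.charpoly (ρbar.ρ σ) := by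
  rw [rhoGL_val]
  exact LinearMap.charpoly_toMatrix (ρbar.ρ σ) b

lemma gwa_rhoGL_congr (b : Module.Basis (Fin 2) k ρbar.V) {σ τ : GQ}
    (h : ρbar.ρ σ = ρbar.ρ τ) : rhoGL ρbar b σ = rhoGL ρbar b τ := by
  apply Units.ext
  rw [rhoGL_val, rhoGL_val, h]

theorem gwa_detect [Finite k] (hGSel : StmtGSel) (hWTr : StmtWTransfer)
    (b : Module.Basis (Fin 2) k ρbar.V) (n : ℕ) (hH : Hyp p (rhoGL ρbar b) (Nn p n))
    (Φ : (adTw p ρbar).V →+ M2 k) (hΦinj : Function.Injective Φ)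
    (hΦtr : ∀ x, (Φ x).trace = 0) (hΦsurj : ∀ m : M2 k, m.trace = 0 → ∃ x, Φ x = m)
    (hΦact : ∀ (σ : GQ) (x : (adTw p ρbar).V),
      Φ ((adTw p ρbar).ρ σ x) = act (rhoGL ρbar b σ).1 (Φ x))
    (S : Finset ℕ) (hpS : p ∈ S) (hunr : ∀ q : ℕ, q.Prime → q ∉ S → ρbar.IsUnramifiedAt q)
    (c : cocycles₁ (adTw p ρbar)) (hc : IsLevCoc p ρbar (c : GQ → (adTw p ρbar).V))
    (hne : (H1π (adTw p ρbar)).hom c ≠ 0) :
    ∃ q : ℕ, q.Prime ∧ q ∉ S ∧ p ^ (n + 1) ∣ q - 1 ∧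
      (∀ P : ValuationSubring (AlgebraicClosure ℚ), P.LiesOverPrime q →
        ∀ φ : GQ, P.IsFrobeniusAt φ q →
          ∃ α β : k, α ≠ β ∧ LinearMap.charpoly (ρbar.ρ φ) = (X - C α) * (X - C β)) ∧
      (H1π (adTw p ρbar)).hom c ∉ trivFrobH1 p ρbar q := by
  have hcoc := gwa_isCoc b Φ hΦtr hΦact c
  have hncob := gwa_not_isCob b Φ hΦinj hΦsurj hΦact c hne
  obtain ⟨σ, hσN, ⟨α, β, hαβ, hchar⟩, hσ⟩ :=
    hGSel p k GQ (rhoGL ρbar b) (Nn p n) hH _ hcoc hncob
  obtain ⟨-, F, hF, hFc⟩ := hc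
  rw [gwa_charpoly] at hchar
  obtain ⟨q, hq, hqS, hdvd, hall, A, τ, m, j, hA, hτ, hτm, hσj, hρτ, hρσ⟩ :=
    twc_exists_prime ρbar p S hpS hunr F n σ hσN α β hαβ hchar
  refine ⟨q, hq, hqS, hdvd, hall, ?_⟩
  rintro ⟨c', hc', htriv⟩
  have h1 : TrivAtFrob p ρbar (c : GQ → (adTw p ρbar).V) q :=
    gwa_triv_of_class p ρbar hc' htriv
  have h2 : IsCobAt (rhoGL ρbar b) (fun σ => Φ (c σ)) τ :=
    (gwa_isCobAt_iff b Φ hΦinj hΦtr hΦsurj hΦact c τ).2 (h1 A hA τ hτ)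
  apply hσ
  refine hWTr k GQ (rhoGL ρbar b) _ hcoc (F.fixingSubgroup ⊓ (rhoGL ρbar b).ker) ?_ ?_ τ σ m ?_ h2
  · intro s hs
    exact MonoidHom.mem_ker.1 hs.2
  · intro g s hs
    show Φ (c (g * s)) = Φ (c g)
    rw [hFc g s hs.1]
  · have e1 : (τ ^ m)⁻¹ * σ ∈ F.fixingSubgroup := by
      rw [IntermediateField.mem_fixingSubgroup_iff]
      intro x hx
      show (τ ^ m)⁻¹ (σ x) = x
      rw [← hτm x hx]
      exact (τ ^ m).symm_apply_apply x
    have e2 : (τ ^ m)⁻¹ * σ ∈ (rhoGL ρbar b).ker := by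
      rw [MonoidHom.mem_ker, map_mul, map_inv]
      have h3 : rhoGL ρbar b σ = rhoGL ρbar b (τ ^ m) := by
        apply gwa_rhoGL_congr
        rw [hρσ, map_pow]
      rw [h3, inv_mul_cancel]
    exact ⟨e1, e2⟩

/-- **W5**: the assembly. -/
theorem stmtWAsm : StmtWAsm := by
  intro hGSel hWHyp hWPhi hWTr 𝒪 _ _ _ _ _ p _ _ ρbar S Smin hyp D₀ hfin hlev r hr n
  classical
  have b : Module.Basis (Fin 2) (ResidueField 𝒪) ρbar.V :=
    Module.finBasisOfFinrankEq _ _ ρbar.finrank_eq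
  have hH := hWHyp 𝒪 p ρbar S Smin hyp b n
  obtain ⟨Φ, hΦinj, hΦtr, hΦsurj, hΦact⟩ := hWPhi (ResidueField 𝒪) p hyp.hp2 ρbar hyp.hdet b
  have hpS : p ∈ S := hyp.hSmin hyp.hpSmin
  have hunr : ∀ (F : Finset ℕ) (q : ℕ), q.Prime → q ∉ S ∪ F → ρbar.IsUnramifiedAt q := by
    intro F q hq hqS
    have hqS' : q ∉ S := fun h => hqS (Finset.mem_union_left _ h)
    have hqp : q ≠ p := fun h => hqS' (h ▸ hpS)
    have h1 : ¬ ¬ ρbar.IsUnramifiedAt q :=
      fun h => hqS' (hyp.hSmin ((hyp.hmin q hq hqp).2 h))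
    exact not_not.1 h1
  let Adm : Set ℕ := {q | q.Prime ∧ q ∉ S ∧ p ^ (n + 1) ∣ q - 1 ∧
    ∀ P : ValuationSubring (AlgebraicClosure ℚ), P.LiesOverPrime q →
      ∀ φ : GQ, P.IsFrobeniusAt φ q →
        ∃ α β : ResidueField 𝒪, α ≠ β ∧
          LinearMap.charpoly (ρbar.ρ φ) = (X - C α) * (X - C β)}
  let φ : ∀ q : ℕ, D₀ →ₗ[ZMod p] (H1 (adTw p ρbar) ⧸ gwaK p ρbar q) :=
    fun q => (gwaK p ρbar q).mkQ.comp D₀.subtype
  have hφ : ∀ (q : ℕ) (y : D₀), φ q y = 0 ↔ (y : H1 (adTw p ρbar)) ∈ trivFrobH1 p ρbar q := by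
    intro q y
    show (gwaK p ρbar q).mkQ (y : H1 (adTw p ρbar)) = 0 ↔ _
    rw [Submodule.mkQ_apply, Submodule.Quotient.mk_eq_zero]
    rfl
  have hinf : ∀ F : Finset ℕ, ∃ q ∈ Adm, q ∉ F := by
    intro F
    obtain ⟨σ, hσN, α, β, hαβ, hchar⟩ := stmtDist p _ GQ (rhoGL ρbar b) (Nn p n) hH
    rw [gwa_charpoly] at hchar
    obtain ⟨q, hq, hqS, hdvd, hall, -⟩ :=
      twc_exists_prime ρbar p (S ∪ F) (Finset.mem_union_left _ hpS) (hunr F) ⊥ n σ hσN α β hαβ
        hchar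
    exact ⟨q, ⟨hq, fun h => hqS (Finset.mem_union_left _ h), hdvd, hall⟩,
      fun h => hqS (Finset.mem_union_right _ h)⟩
  have h : ∀ ψ : D₀, ψ ≠ 0 → ∀ F : Finset ℕ, ∃ q ∈ Adm, q ∉ F ∧ φ q ψ ≠ 0 := by
    intro y hy F
    obtain ⟨c, hcy, hclev⟩ := hlev y y.2
    have hne : (H1π (adTw p ρbar)).hom c ≠ 0 := by
      rw [hcy]
      intro h0
      exact hy (Subtype.ext h0)
    obtain ⟨q, hq, hqS, hdvd, hall, hnot⟩ :=
      gwa_detect hGSel hWTr b n hH Φ hΦinj hΦtr hΦsurj hΦact (S ∪ F)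
        (Finset.mem_union_left _ hpS) (hunr F) c hclev hne
    refine ⟨q, ⟨hq, fun h => hqS (Finset.mem_union_left _ h), hdvd, hall⟩,
      fun h => hqS (Finset.mem_union_right _ h), ?_⟩
    rw [Ne, hφ, ← hcy]
    exact hnot
  have : FiniteDimensional (ZMod p) D₀ := hfin
  obtain ⟨qv, hinj, hAdm, hker⟩ := gkill_exists φ Adm hinf h r hr
  refine ⟨qv, ⟨hinj, fun i => ⟨(hAdm i).1, (hAdm i).2.1, (hAdm i).2.2.1⟩,
    fun i => (hAdm i).2.2.2⟩, ?_⟩
  intro y hy hall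
  have h0 := hker ⟨y, hy⟩ (fun i => (hφ _ _).2 (hall i))
  exact congrArg Subtype.val h0

end Main

end Fermat.Agent.TW.G.Wire

end


end ZBTW_018_4

/-! ### bundled: `Fermat.Agent.TW.G.Wire.Det` -/
section ZBTW_018_5
/-
TW-G / G-wire piece W1a (helper35): `det ρ̄ = χ̄` in matrix form.

`stmtWDet : StmtWDet`: if `det ρ̄` is cyclotomic (prelude sense, for `ρ̄` as a representation over
the field `k` of characteristic `p`), then `det (rhoGL ρ̄ b σ) = χ̄(σ)` in `k`, for every basis `b`.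

Proof.  `σ` acts on `μ_p` by the `χ̄(σ)`-th power (`modularCyclotomicCharacter.spec`), so the
prelude's condition at level `n = 1` reads `det ρ̄(σ) - χ̄(σ) ∈ (p) = 0`; the determinant of the
matrix in a basis is the determinant of the endomorphism.
-/

set_option autoImplicit false

namespace Fermat.Agent.TW.G.Wire

open Fermat.Agent.PT Fermat.Agent.PT.B Fermat.Agent.TW.S ExtCitation Fermat.Agent.TW.G.Sel

/-- The action of `σ` on the `p`-th roots of unity is the `χ̄(σ)`-th power. -/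
theorem gwd_cycloChar_spec (p : ℕ) [Fact p.Prime] (σ : GQ) (μ : AlgebraicClosure ℚ)
    (hμ : μ ^ p = 1) : σ μ = μ ^ ((cycloChar p σ : (ZMod p)ˣ) : ZMod p).val := by
  have hp : p.Prime := Fact.out
  have : NeZero p := ⟨hp.ne_zero⟩
  have hμ0 : μ ≠ 0 := by
    rintro rfl
    rw [zero_pow hp.ne_zero] at hμ
    exact zero_ne_one hμ
  set t : (AlgebraicClosure ℚ)ˣ := Units.mk0 μ hμ0 with ht
  have htmem : t ∈ rootsOfUnity p (AlgebraicClosure ℚ) := by
    rw [mem_rootsOfUnity]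
    ext
    simpa [ht] using hμ
  have h := modularCyclotomicCharacter.spec (AlgebraicClosure ℚ) (card_rootsOfUnity_eq_self p)
    (σ : AlgebraicClosure ℚ ≃+* AlgebraicClosure ℚ) htmem
  simpa [ht, cycloChar] using h

/-- the determinant of `ρ̄(σ)` as an endomorphism -/
theorem gwd_det_end {k : Type} [Field k] (p : ℕ) [Fact p.Prime] [CharP k p]
    (ρbar : ResidualGaloisRep k)
    (hdet : (GaloisRepAdic.ofResidualGaloisRep ρbar).DetIsCyclotomic p) (σ : GQ) :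
    LinearMap.det (ρbar.ρ σ) = (((cycloChar p σ : (ZMod p)ˣ) : ZMod p).val : k) := by
  have h1 := hdet.2 1 σ ((cycloChar p σ : (ZMod p)ˣ) : ZMod p).val (fun μ hμ => by
    rw [pow_one] at hμ
    exact gwd_cycloChar_spec p σ μ hμ)
  have hρ : (GaloisRepAdic.ofResidualGaloisRep ρbar).ρ σ = ρbar.ρ σ := rfl
  rw [hρ, pow_one, CharP.cast_eq_zero k p, Ideal.mem_span_singleton, zero_dvd_iff,
    sub_eq_zero] at h1
  exact h1

/-- **W1a**. -/
theorem stmtWDet : StmtWDet := by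
  intro k _ p _ _ ρbar hdet b σ
  rw [rhoGL_val, LinearMap.det_toMatrix]
  exact gwd_det_end p ρbar hdet σ

end Fermat.Agent.TW.G.Wire


end ZBTW_018_5

/-! ### bundled: `Fermat.Agent.TW.G.Wire.Transfer` -/
section ZBTW_018_6
/-
TW-G / G-wire W3 (helper54): transfer of "coboundary at `σ`" between two elements which generate
the same cyclic group modulo a subgroup on which `ρ` is trivial and `ψ` is constant.
-/

set_option autoImplicit false
set_option linter.unusedSectionVars false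

noncomputable section

namespace Fermat.Agent.TW.G.Wire

open Fermat.Agent.TW.G.Sel

variable {k : Type} [Field k] {Γ : Type} [Group Γ] {ρ : Γ →* GL (Fin 2) k} {ψ : Γ → M2 k}

lemma gwt_one (h : IsCoc ρ ψ) : ψ 1 = 0 := by
  have h1 := h.map_mul 1 1
  rw [mul_one, map_one, Units.val_one, gsel_act_one] at h1
  exact left_eq_add.1 h1

lemma gwt_pow (h : IsCoc ρ ψ) (σ : Γ) (m : M2 k) (hm : ψ σ = act (ρ σ).1 m - m) (j : ℕ) :
    ψ (σ ^ j) = act (ρ (σ ^ j)).1 m - m := by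
  induction j with
  | zero =>
    rw [pow_zero, gwt_one h, map_one, Units.val_one, gsel_act_one, sub_self]
  | succ j ih =>
    rw [pow_succ', h.map_mul, ih, hm, map_mul, Units.val_mul, gsel_act_mul, gsel_act_sub]
    abel

/-- **W3** (G-transfer). -/
theorem stmtWTransfer : StmtWTransfer := by
  intro k _ Γ _ ρ ψ h U hρ hψ σ τ j hU hcob
  obtain ⟨m, hm0, hm⟩ := hcob
  refine ⟨m, hm0, ?_⟩
  have e : τ = σ ^ j * ((σ ^ j)⁻¹ * τ) := by group
  have h1 : ψ τ = ψ (σ ^ j) := by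
    conv_lhs => rw [e]
    exact hψ _ _ hU
  have h2 : ρ τ = ρ (σ ^ j) := by
    conv_lhs => rw [e]
    rw [map_mul, hρ _ hU, mul_one]
  rw [h1, h2]
  exact gwt_pow h σ m hm j

end Fermat.Agent.TW.G.Wire

end


end ZBTW_018_6

/-! ### bundled: `Fermat.Agent.TW.G.Wire.Hyp` -/
section ZBTW_018_7
/-
TW-G / G-wire W1f (helper54): assembly of `StmtWHyp` (the hypotheses `G.Sel.Hyp` of the group
theory for the matrix form of `ρ̄` and `N = Stab(μ_{p^(n+1)})`) from W1a–W1d.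
-/

set_option autoImplicit false
set_option linter.unusedSectionVars false

noncomputable section

namespace Fermat.Agent.TW.G.Wire

open CategoryTheory Polynomial IsLocalRing
open Fermat.Agent.PT Fermat.Agent.PT.B Fermat.Agent.TW.S ExtCitation Fermat.Agent.TW.G.Sel

/-- `(a mod p).val = a` in a ring of characteristic `p` -/
lemma gwh_val_cast (k : Type) [Field k] (p : ℕ) [Fact p.Prime] [CharP k p] (a : ℤ) :
    (((a : ZMod p).val : ℕ) : k) = (a : k) := by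
  have h1 : (((a : ZMod p).val : ℕ) : k) = ((((a : ZMod p).val : ℕ) : ℤ) : k) :=
    (Int.cast_natCast _).symm
  rw [h1, ZMod.val_intCast]
  rw [CharP.intCast_eq_intCast k p]
  exact Int.mod_modEq a p

/-- **W1f.** -/
theorem stmtWHypAsm : StmtWHypAsm := by
  intro hDet hSurj hIrr hCyc 𝒪 _ _ _ _ _ p _ _ ρbar S Smin hyp b n
  have hdet := hDet (ResidueField 𝒪) p ρbar hyp.hdet b
  obtain ⟨hnorm, hcyc, hone⟩ := hCyc p hyp.hp2 n
  refine ⟨hyp.hp2, ?_, ?_, ?_, ?_, hIrr 𝒪 p ρbar S Smin hyp b, hnorm, hcyc⟩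
  · intro σ
    exact ⟨(((cycloChar p σ : (ZMod p)ˣ) : ZMod p).val : ℤ), by rw [hdet σ, Int.cast_natCast]⟩
  · intro a ha
    have ha' : (a : ZMod p) ≠ 0 := by
      intro h0
      apply ha
      rw [← gwh_val_cast (ResidueField 𝒪) p a, h0, ZMod.val_zero, Nat.cast_zero]
    obtain ⟨σ, hσ⟩ := hSurj p (Units.mk0 (a : ZMod p) ha')
    refine ⟨σ, ?_⟩
    rw [hdet σ, hσ, Units.val_mk0, gwh_val_cast]
  · intro σ hσ
    rw [hdet σ, hone σ hσ, Units.val_one]
    have := gwh_val_cast (ResidueField 𝒪) p 1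
    rw [Int.cast_one, Int.cast_one] at this
    exact this
  · intro σ
    obtain ⟨α, β, h⟩ := hyp.hsplit σ
    refine ⟨α, β, ?_⟩
    rw [rhoGL_val, LinearMap.charpoly_toMatrix]
    exact h

end Fermat.Agent.TW.G.Wire

end


end ZBTW_018_7

/-! ### bundled: `Fermat.Agent.TW.G.Wire.Irr` -/
section ZBTW_018_8
/-
TW-G / G-wire W1c (helper54): absolute irreducibility (`habs`, `hTW`) in the matrix form
`G.Sel.NoEigen`: no common eigenvector over `k̄` for `G_ℚ` and for the subgroups of index `2`.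
-/

set_option autoImplicit false
set_option linter.unusedSectionVars false

noncomputable section

namespace Fermat.Agent.TW.G.Wire

open CategoryTheory Polynomial IsLocalRing TensorProduct Matrix
open Fermat.Agent.PT Fermat.Agent.PT.B Fermat.Agent.TW.S ExtCitation Fermat.Agent.TW.G.Sel

section

variable {k : Type} [Field k] (K : Type) [Field K] [Algebra k K]
  (ρbar : ResidualGaloisRep k) (b : Module.Basis (Fin 2) k ρbar.V)

/-- the vector of `K ⊗ V̄` with coordinates `v` -/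
def gwiVec (v : Fin 2 → K) : K ⊗[k] ρbar.V := (Algebra.TensorProduct.basis K b).equivFun.symm v

lemma gwi_vec_ne_zero (v : Fin 2 → K) (hv : v ≠ 0) : gwiVec K ρbar b v ≠ 0 := by
  intro h
  apply hv
  have := congrArg (Algebra.TensorProduct.basis K b).equivFun h
  rwa [gwiVec, LinearEquiv.apply_symm_apply, map_zero] at this

lemma gwi_apply (σ : GQ) (v : Fin 2 → K) :
    (ρbar.baseChange K).ρ σ (gwiVec K ρbar b v) =
      gwiVec K ρbar b (((rhoGL ρbar b σ).1.map (algebraMap k K)) *ᵥ v) := by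
  have h1 : (ρbar.baseChange K).ρ σ = (ρbar.ρ σ).baseChange K := rfl
  rw [h1, rhoGL_val, ← LinearMap.toMatrix_baseChange (A := K) (ρbar.ρ σ) b b]
  apply (Algebra.TensorProduct.basis K b).equivFun.injective
  rw [gwiVec, gwiVec, LinearEquiv.apply_symm_apply]
  have h2 := LinearMap.toMatrix_mulVec_repr (Algebra.TensorProduct.basis K b) (Algebra.TensorProduct.basis K b)
    ((ρbar.ρ σ).baseChange K) ((Algebra.TensorProduct.basis K b).equivFun.symm v)
  have h3 : ((Algebra.TensorProduct.basis K b).repr ((Algebra.TensorProduct.basis K b).equivFun.symm v) : Fin 2 → K) = v := by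
    have := (Algebra.TensorProduct.basis K b).equivFun.apply_symm_apply v
    exact this
  rw [h3] at h2
  rw [h2]
  rfl

/-- a common eigenvector of `H` spans an `H`-stable line, which is neither `⊥` nor `⊤` -/
lemma gwi_main (H : Subgroup GQ)
    (hirr : ∀ W : Submodule K (ρbar.baseChange K).V,
      (∀ σ ∈ H, ∀ x ∈ W, (ρbar.baseChange K).ρ σ x ∈ W) → W = ⊥ ∨ W = ⊤)
    (v : Fin 2 → K) (hv : v ≠ 0)
    (h : ∀ σ ∈ H, ∃ c : K, ((rhoGL ρbar b σ).1.map (algebraMap k K)) *ᵥ v = c • v) : False := by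
  have hw := gwi_vec_ne_zero K ρbar b v hv
  have hstab : ∀ σ ∈ H, ∀ x ∈ (K ∙ gwiVec K ρbar b v : Submodule K (ρbar.baseChange K).V),
      (ρbar.baseChange K).ρ σ x ∈ (K ∙ gwiVec K ρbar b v : Submodule K (ρbar.baseChange K).V) := by
    intro σ hσ x hx
    obtain ⟨a, rfl⟩ := Submodule.mem_span_singleton.1 hx
    obtain ⟨c, hc⟩ := h σ hσ
    rw [map_smul, gwi_apply, hc]
    have : gwiVec K ρbar b (c • v) = c • gwiVec K ρbar b v := by
      rw [gwiVec, gwiVec, map_smul]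
    rw [this, smul_smul]
    exact Submodule.smul_mem _ _ (Submodule.mem_span_singleton_self _)
  rcases hirr _ hstab with h0 | h1
  · exact hw ((Submodule.span_singleton_eq_bot).1 h0)
  · have hrk : Module.finrank K (K ∙ gwiVec K ρbar b v : Submodule K (ρbar.baseChange K).V) = 1 :=
      finrank_span_singleton hw
    rw [h1, finrank_top] at hrk
    have h2 : Module.finrank K (ρbar.baseChange K).V = 2 := (ρbar.baseChange K).finrank_eq
    omega

end

/-- **W1c.** -/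
theorem stmtWIrr : StmtWIrr := by
  intro 𝒪 _ _ _ _ _ p _ _ ρbar S Smin hyp b H hH v hv hall
  rcases hH with rfl | hidx
  · refine gwi_main (AlgebraicClosure (ResidueField 𝒪)) ρbar b ⊤ (fun W hW => ?_) v hv hall
    exact hyp.habs W (fun σ x hx => hW σ (Subgroup.mem_top σ) x hx)
  · exact gwi_main (AlgebraicClosure (ResidueField 𝒪)) ρbar b H
      (fun W hW => hyp.hTW (AlgebraicClosure (ResidueField 𝒪)) H hidx W hW) v hv hall

end Fermat.Agent.TW.G.Wire

end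


end ZBTW_018_8

/-! ### bundled: `Fermat.Agent.TW.G.Wire.Cyc` -/
section ZBTW_018_9
/-
TW-G / G-wire, piece W1d (helper88): `N_n = Gal(ℚ̄/ℚ(μ_{p^(n+1)}))` is normal in `G_ℚ`, the
quotient `G_ℚ/N_n` is cyclic for `p` odd (it embeds in `(ℤ/p^(n+1))ˣ` by the cyclotomic character
mod `p^(n+1)`), and the mod `p` cyclotomic character is trivial on `N_n`.

`stmtWCyc : StmtWCyc`.
-/

set_option autoImplicit false

noncomputable section

namespace Fermat.Agent.TW.G.Wire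

open Fermat.Agent.PT Fermat.Agent.PT.B ExtCitation

/-- `N_n` is normal -/
theorem gwy_normal (p n : ℕ) : (Nn p n).Normal := by
  constructor
  intro σ hσ g μ hμ
  show g (σ (g⁻¹ μ)) = μ
  have h1 : (g⁻¹ μ) ^ p ^ (n + 1) = 1 := by rw [← map_pow, hμ, map_one]
  rw [hσ _ h1]
  show (g * g⁻¹) μ = μ
  rw [mul_inv_cancel]
  rfl

/-- the number of `N`-th roots of unity in `ℚ̄` -/
theorem gwy_card (N : ℕ) [NeZero N] :
    Nat.card (rootsOfUnity N (AlgebraicClosure ℚ)) = N :=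
  haveI : NeZero (N : AlgebraicClosure ℚ) := ⟨Nat.cast_ne_zero.mpr (NeZero.ne N)⟩
  HasEnoughRootsOfUnity.natCard_rootsOfUnity (AlgebraicClosure ℚ) N

/-- the cyclotomic character mod `N` of `G_ℚ` -/
def gwyChar (N : ℕ) [NeZero N] : GQ →* (ZMod N)ˣ :=
  (modularCyclotomicCharacter (AlgebraicClosure ℚ) (gwy_card N)).comp
    (MulSemiringAction.toRingAut GQ (AlgebraicClosure ℚ))

theorem gwyChar_spec (N : ℕ) [NeZero N] (σ : GQ) (μ : AlgebraicClosure ℚ) (hμ : μ ^ N = 1) :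
    σ μ = μ ^ ((gwyChar N σ : (ZMod N)ˣ) : ZMod N).val := by
  have hμ0 : μ ≠ 0 := by
    rintro rfl
    rw [zero_pow (NeZero.ne N)] at hμ
    exact zero_ne_one hμ
  set t : (AlgebraicClosure ℚ)ˣ := Units.mk0 μ hμ0 with ht
  have htmem : t ∈ rootsOfUnity N (AlgebraicClosure ℚ) := by
    rw [mem_rootsOfUnity]
    ext
    simpa [ht] using hμ
  have h := modularCyclotomicCharacter.spec (AlgebraicClosure ℚ) (gwy_card N)
    (MulSemiringAction.toRingAut GQ (AlgebraicClosure ℚ) σ) htmem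
  simpa [ht, gwyChar] using h

/-- the kernel of the cyclotomic character mod `p^(n+1)` is contained in `N_n` -/
theorem gwyChar_ker (p n : ℕ) [NeZero (p ^ (n + 1))] (hp : 1 < p) (σ : GQ)
    (h : gwyChar (p ^ (n + 1)) σ = 1) : σ ∈ Nn p n := by
  intro μ hμ
  have h1 := gwyChar_spec (p ^ (n + 1)) σ μ hμ
  rw [h] at h1
  have hN : 1 < p ^ (n + 1) := Nat.one_lt_pow (Nat.succ_ne_zero n) hp
  have : Fact (1 < p ^ (n + 1)) := ⟨hN⟩
  have hval : ((1 : (ZMod (p ^ (n + 1)))ˣ) : ZMod (p ^ (n + 1))).val = 1 := by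
    rw [Units.val_one]
    exact ZMod.val_one _
  rw [hval, pow_one] at h1
  exact h1

/-- `G_ℚ / N_n` is cyclic for `p` odd -/
theorem gwy_cyclic (p : ℕ) [Fact p.Prime] (hp2 : p ≠ 2) (n : ℕ) :
    ∃ γ : GQ, ∀ σ : GQ, ∃ a : ℤ, γ ^ a * σ ∈ Nn p n := by
  have hp : p.Prime := Fact.out
  have : NeZero (p ^ (n + 1)) := ⟨pow_ne_zero _ hp.ne_zero⟩
  have : IsCyclic (ZMod (p ^ (n + 1)))ˣ := ZMod.isCyclic_units_of_prime_pow p hp hp2 (n + 1)
  have : IsCyclic (gwyChar (p ^ (n + 1))).range := Subgroup.isCyclic _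
  obtain ⟨⟨g, hg⟩, hgen⟩ := IsCyclic.exists_generator (α := (gwyChar (p ^ (n + 1))).range)
  obtain ⟨γ, rfl⟩ := hg
  refine ⟨γ, fun σ => ?_⟩
  have h1 := hgen ⟨gwyChar (p ^ (n + 1)) σ, ⟨σ, rfl⟩⟩
  obtain ⟨k, hk⟩ := Subgroup.mem_zpowers_iff.1 h1
  have hk' : (gwyChar (p ^ (n + 1)) γ) ^ k = gwyChar (p ^ (n + 1)) σ := by
    have := congrArg Subtype.val hk
    simpa using this
  refine ⟨-k, gwyChar_ker p n hp.one_lt _ ?_⟩
  rw [map_mul, map_zpow, zpow_neg, hk', inv_mul_cancel]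

/-- the mod `p` cyclotomic character is trivial on `N_n` -/
theorem gwy_chi_one (p : ℕ) [Fact p.Prime] (n : ℕ) (σ : GQ) (hσ : σ ∈ Nn p n) :
    cycloChar p σ = 1 := by
  rw [cycloChar_eq_one_iff, mem_fixingSubgroup_cycloField_iff]
  intro x hx
  apply hσ
  rw [pow_succ', pow_mul, hx, one_pow]

/-- **W1d** -/
theorem stmtWCyc : StmtWCyc := by
  intro p _ hp2 n
  exact ⟨gwy_normal p n, gwy_cyclic p hp2 n, fun σ hσ => gwy_chi_one p n σ hσ⟩

end Fermat.Agent.TW.G.Wire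

end


end ZBTW_018_9
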