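/- GENERATED FILE (helper35, build-time optimisation, NOTES/ZB.md): verbatim concatenation of the modules
   Fermat.Agent.TW.S.MinAlg
   Fermat.Agent.TW.S.Min
   Do not edit; do not import together with these modules. -/
import Mathlib
import Fermat.Agent.ZB.TW_016
import Fermat.Agent.ZB.PT_003

/-! ### bundled: `Fermat.Agent.TW.S.MinAlg` -/
section ZBTW_019_0
/-
TW-S / S-min (helper48), linear algebra: for a nonzero nilpotent `N` on a plane (`char ≠ 2`),
every `M` with `N M + M N = 0` is `N x - x N` with `tr x = 0`.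
-/

set_option autoImplicit false
set_option linter.style.haveILetI false

namespace Fermat.Agent.TW.S

section sminLA

variable {k : Type} [Field k] {V : Type} [AddCommGroup V] [Module k V]

/-- a basis `(N e, e)` for a nonzero nilpotent `N` on a plane -/
theorem smin_exists_basis (hV : Module.finrank k V = 2) (N : Module.End k V) (hN : N ≠ 0)
    (hN2 : N * N = 0) :
    ∃ b : Module.Basis (Fin 2) k V, N (b 0) = 0 ∧ N (b 1) = b 0 := by
  haveI : Module.Finite k V := Module.finite_of_finrank_eq_succ hV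
  obtain ⟨e, he⟩ : ∃ e : V, N e ≠ 0 := by
    by_contra hcon
    simp only [not_exists, not_not] at hcon
    exact hN (LinearMap.ext hcon)
  have hNN : N (N e) = 0 := by
    have := LinearMap.congr_fun hN2 e
    simpa using this
  have hli : LinearIndependent k ![N e, e] := by
    rw [LinearIndependent.pair_iff]
    intro s t hst
    have h1 : t • N e = 0 := by
      have := congrArg N hst
      rw [map_add, map_smul, map_smul, hNN, smul_zero, zero_add, map_zero] at this
      exact this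
    have ht : t = 0 := (smul_eq_zero.mp h1).resolve_right he
    refine ⟨?_, ht⟩
    rw [ht, zero_smul, add_zero] at hst
    exact (smul_eq_zero.mp hst).resolve_right he
  let b : Module.Basis (Fin 2) k V :=
    basisOfLinearIndependentOfCardEqFinrank hli (by simp [hV])
  have hb : ⇑b = ![N e, e] := coe_basisOfLinearIndependentOfCardEqFinrank hli _
  have hb0 : b 0 = N e := by rw [hb]; rfl
  have hb1 : b 1 = e := by rw [hb]; rfl
  exact ⟨b, by rw [hb0]; exact hNN, by rw [hb1, hb0]⟩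

/-- `N v = (coefficient of v along b 1) • b 0` -/
lemma smin_N_apply (b : Module.Basis (Fin 2) k V) (N : Module.End k V) (h0 : N (b 0) = 0)
    (h1 : N (b 1) = b 0) (v : V) : N v = b.repr v 1 • b 0 := by
  conv_lhs => rw [← b.sum_repr v]
  rw [Fin.sum_univ_two, map_add, map_smul, map_smul, h0, h1, smul_zero, zero_add]

/-- **The linear algebra of S-min.** -/
theorem smin_exists_solution (hV : Module.finrank k V = 2) (h2 : (2 : k) ≠ 0)
    (N M : Module.End k V) (hN : N ≠ 0) (hN2 : N * N = 0) (hNM : N * M + M * N = 0) :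
    ∃ x : Module.End k V, LinearMap.trace k V x = 0 ∧ M = N * x - x * N := by
  obtain ⟨b, h0, h1⟩ := smin_exists_basis hV N hN hN2
  have hNv := smin_N_apply b N h0 h1
  have hb0 : b 0 ≠ 0 := b.ne_zero 0
  -- the coefficients of `M`
  have e0 : N (M (b 0)) = 0 := by
    have := LinearMap.congr_fun hNM (b 0)
    simpa [h0] using this
  have e1 : N (M (b 1)) + M (b 0) = 0 := by
    have := LinearMap.congr_fun hNM (b 1)
    simpa [h1] using this
  have c10 : b.repr (M (b 0)) 1 = 0 := by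
    rw [hNv] at e0
    exact (smul_eq_zero.mp e0).resolve_right hb0
  have c11 : b.repr (M (b 1)) 1 = -b.repr (M (b 0)) 0 := by
    rw [hNv] at e1
    have := congrArg (fun v => b.repr v 0) e1
    simp only [map_add, map_smul, Finsupp.add_apply, Finsupp.smul_apply,
      Module.Basis.repr_self, Finsupp.single_eq_same, smul_eq_mul, mul_one, map_zero,
      Finsupp.zero_apply] at this
    exact eq_neg_of_add_eq_zero_left this
  set a : k := b.repr (M (b 0)) 0 with ha
  set β : k := b.repr (M (b 1)) 0 with hβ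
  have hM0 : M (b 0) = a • b 0 := by
    conv_lhs => rw [← b.sum_repr (M (b 0))]
    rw [Fin.sum_univ_two, c10, zero_smul, add_zero]
  have hM1 : M (b 1) = β • b 0 - a • b 1 := by
    conv_lhs => rw [← b.sum_repr (M (b 1))]
    rw [Fin.sum_univ_two, c11, neg_smul, sub_eq_add_neg]
  -- the solution
  let x : Module.End k V := b.constr k ![(-(β / 2)) • b 0 + a • b 1, (β / 2) • b 1]
  have hx0 : x (b 0) = (-(β / 2)) • b 0 + a • b 1 := by
    show b.constr k _ (b 0) = _
    rw [Module.Basis.constr_basis]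
    rfl
  have hx1 : x (b 1) = (β / 2) • b 1 := by
    show b.constr k _ (b 1) = _
    rw [Module.Basis.constr_basis]
    rfl
  refine ⟨x, ?_, ?_⟩
  · rw [LinearMap.trace_eq_matrix_trace k b, Matrix.trace_fin_two, LinearMap.toMatrix_apply,
      LinearMap.toMatrix_apply, hx0, hx1]
    simp
  · apply b.ext
    intro i
    fin_cases i
    · show M (b 0) = (N * x - x * N) (b 0)
      rw [LinearMap.sub_apply, Module.End.mul_apply, Module.End.mul_apply, h0, map_zero x,
        sub_zero, hx0, map_add, map_smul, map_smul, h0, h1, smul_zero, zero_add, hM0]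
    · show M (b 1) = (N * x - x * N) (b 1)
      rw [LinearMap.sub_apply, Module.End.mul_apply, Module.End.mul_apply, h1, hx0, hx1,
        map_smul, h1, hM1]
      have h3 : β = β / 2 + β / 2 := by field_simp; ring
      conv_lhs => rw [h3]
      module

end sminLA

end Fermat.Agent.TW.S


end ZBTW_019_0

/-! ### bundled: `Fermat.Agent.TW.S.Min` -/
section ZBTW_019_1
/-
TW-S / S-min (helper48): at `v ≠ p` where `ρ̄` is ramified, the cocycle of a deformation which
is unipotent on inertia is a coboundary on inertia.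

`stmtMin_of : TW.L.StmtTameGrp → TW.L.StmtDecFull → StmtMin`.

Proof.  `L σ = (1 + ε c(σ)) ρ̄(σ)` satisfies `(L σ - 1)² = 0` on inertia (Cayley–Hamilton), so
`L(σ)^p = 1` and the image of inertia is generated by `L(t)` (tame inertia, `StmtTameGrp`).
`N = ρ̄(t) - 1 ≠ 0` (`ρ̄` is ramified; `L-dec`), `N² = 0` and `N M + M N = 0` for
`M = c(t) ρ̄(t)`, hence `M = N x - x N` with `tr x = 0` (`MinAlg.lean`), i.e. `c(t) = t·x - x`;
the cocycle identity gives `c(t^n) = t^n·x - x`, and `c(τ)`, `ρ̄(τ)` depend only on `L(τ)`.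
-/

set_option autoImplicit false
set_option linter.unusedSectionVars false
set_option linter.style.haveILetI false

noncomputable section

namespace Fermat.Agent.TW.S

open CategoryTheory groupCohomology IsLocalRing
open Fermat.Agent.PT Fermat.Agent.PT.B Fermat.Agent.S53 ExtCitation

section sminDN

variable {k : Type} [Field k]

lemma smin_dnFst_sub (M N : M2 (DualNumber k)) : dnFst (M - N) = dnFst M - dnFst N := by
  ext i j; simp

lemma smin_dnSnd_sub (M N : M2 (DualNumber k)) : dnSnd (M - N) = dnSnd M - dnSnd N := by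
  ext i j; simp

lemma smin_one_add_pow {R : Type*} [Ring R] (E : R) (hE : E * E = 0) (n : ℕ) :
    (1 + E) ^ n = 1 + n • E := by
  induction n with
  | zero => simp
  | succ n ih =>
    rw [pow_succ, ih, mul_add, mul_one, add_mul, one_mul, smul_mul_assoc, hE, smul_zero,
      add_zero, succ_nsmul]
    abel

lemma smin_nsmul_dn (p : ℕ) [CharP k p] (y : DualNumber k) : p • y = 0 := by
  apply TrivSqZeroExt.ext
  · rw [TrivSqZeroExt.fst_smul, TrivSqZeroExt.fst_zero, nsmul_eq_mul, CharP.cast_eq_zero,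
      zero_mul]
  · rw [TrivSqZeroExt.snd_smul, TrivSqZeroExt.snd_zero, ← Nat.cast_smul_eq_nsmul k,
      CharP.cast_eq_zero, zero_smul]

lemma smin_nsmul_eq_zero (p : ℕ) [CharP k p] (E : M2 (DualNumber k)) : p • E = 0 := by
  apply Matrix.ext
  intro i j
  exact smin_nsmul_dn p (E i j)

lemma smin_dnFst_zero : dnFst (0 : M2 (DualNumber k)) = 0 := by
  ext i j; simp

lemma smin_dnSnd_zero : dnSnd (0 : M2 (DualNumber k)) = 0 := by
  ext i j; simp

end sminDN

section sminCoc

variable {𝒪 : Type} [CommRing 𝒪] [IsLocalRing 𝒪] (p : ℕ) [Fact p.Prime]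
  [CharP (ResidueField 𝒪) p] {ρbar : ResidualGaloisRep (ResidueField 𝒪)}
  (D : RigidDatum 𝒪 ρbar)
  {ρ : GaloisRepAdic (DualNumber (ResidueField 𝒪))} {c : GQ → (adRep p ρbar).V}

/-- `ρ̄` and the cocycle depend only on the matrix form -/
lemma smin_of_liftMat_eq (σ σ' : GQ) (h : liftMat p D c σ = liftMat p D c σ') :
    ρbar.ρ σ = ρbar.ρ σ' ∧ c σ = c σ' := by
  have h0 : D.ρm σ = D.ρm σ' := by
    rw [← dnFst_liftMat p D c σ, h, dnFst_liftMat]
  have h1 : adMat p D (c σ) * D.ρm σ = adMat p D (c σ') * D.ρm σ' := by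
    rw [← dnSnd_liftMat p D c σ, h, dnSnd_liftMat]
  constructor
  · apply (LinearMap.toMatrix D.b D.b).injective
    rw [toMatrix_rho, toMatrix_rho, h0]
  · apply adMat_injective p D
    rw [← h0] at h1
    have h2 := congrArg (· * D.ρm σ⁻¹) h1
    simp only [mul_assoc, rhom_mul_inv, mul_one] at h2
    exact h2

/-- inverses are determined -/
lemma smin_rho_inv_congr (σ σ' : GQ) (h : ρbar.ρ σ = ρbar.ρ σ') :
    ρbar.ρ σ⁻¹ = ρbar.ρ σ'⁻¹ := by
  calc ρbar.ρ σ⁻¹ = ρbar.ρ σ⁻¹ * (ρbar.ρ σ' * ρbar.ρ σ'⁻¹) := by rw [rho_mul_inv, mul_one]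
    _ = (ρbar.ρ σ⁻¹ * ρbar.ρ σ) * ρbar.ρ σ'⁻¹ := by rw [← h, mul_assoc]
    _ = ρbar.ρ σ'⁻¹ := by rw [rho_inv_mul, one_mul]

/-- the action on `End V̄` depends only on `ρ̄ σ` -/
lemma smin_act_congr (σ σ' : GQ) (h : ρbar.ρ σ = ρbar.ρ σ') (x : (adRep p ρbar).V) :
    (adRep p ρbar).ρ σ x = (adRep p ρbar).ρ σ' x := by
  apply adVal_injective p ρbar
  rw [adVal_ρ, adVal_ρ, h, smin_rho_inv_congr σ σ' h]

lemma smin_c_one (h : IsCocOf p D ρ c) : c 1 = 0 := by
  have h1 := scoc_mul p D h 1 1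
  rw [mul_one, map_one] at h1
  have h2 : c 1 = c 1 + c 1 := h1
  exact left_eq_add.mp h2

/-- `c(g) = g·x - x ⇒ c(gⁿ) = gⁿ·x - x` -/
lemma smin_c_pow (h : IsCocOf p D ρ c) (g : GQ) (x : (adRep p ρbar).V)
    (hg : c g = (adRep p ρbar).ρ g x - x) (n : ℕ) :
    c (g ^ n) = (adRep p ρbar).ρ (g ^ n) x - x := by
  induction n with
  | zero =>
    rw [pow_zero, smin_c_one p D h, map_one]
    exact (sub_self x).symm
  | succ n ih =>
    rw [pow_succ', scoc_mul p D h, ih, hg, map_sub, map_mul, Module.End.mul_apply]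
    abel

/-- Cayley–Hamilton for a unipotent element -/
lemma smin_sq_zero (h : IsCocOf p D ρ c) (σ : GQ)
    (hσ : LinearMap.charpoly (ρ.ρ σ) = (Polynomial.X - 1) ^ 2) :
    (liftMat p D c σ - 1) * (liftMat p D c σ - 1) = 0 := by
  have h1 := Matrix.aeval_self_charpoly (liftMat p D c σ)
  rw [← isCocOf_charpoly p D h σ, hσ] at h1
  simpa [pow_two] using h1

/-- unipotent elements have order dividing `p` -/
lemma smin_pow_p (h : IsCocOf p D ρ c) (σ : GQ)
    (hσ : LinearMap.charpoly (ρ.ρ σ) = (Polynomial.X - 1) ^ 2) :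
    liftMat p D c σ ^ p = 1 := by
  have h1 := smin_one_add_pow (liftMat p D c σ - 1) (smin_sq_zero p D h σ hσ) p
  rw [add_sub_cancel, smin_nsmul_eq_zero p, add_zero] at h1
  exact h1

/-- the two parts of `(L σ - 1)² = 0` as endomorphisms -/
lemma smin_parts (h : IsCocOf p D ρ c) (σ : GQ)
    (hσ : LinearMap.charpoly (ρ.ρ σ) = (Polynomial.X - 1) ^ 2) :
    (ρbar.ρ σ - 1) * (ρbar.ρ σ - 1) = 0 ∧
      (ρbar.ρ σ - 1) * (adVal p ρbar (c σ) * ρbar.ρ σ) +
        (adVal p ρbar (c σ) * ρbar.ρ σ) * (ρbar.ρ σ - 1) = 0 := by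
  have h1 := smin_sq_zero p D h σ hσ
  have hF : dnFst (liftMat p D c σ - 1) = D.ρm σ - 1 := by
    rw [smin_dnFst_sub, dnFst_liftMat, dnFst_one]
  have hS : dnSnd (liftMat p D c σ - 1) = adMat p D (c σ) * D.ρm σ := by
    rw [smin_dnSnd_sub, dnSnd_liftMat, dnSnd_one, sub_zero]
  have h2 := congrArg dnFst h1
  have h3 := congrArg dnSnd h1
  rw [dnFst_mul, hF, smin_dnFst_zero] at h2
  rw [dnSnd_mul, hF, hS, smin_dnSnd_zero] at h3
  have e1 : LinearMap.toMatrix D.b D.b (ρbar.ρ σ - 1) = D.ρm σ - 1 := by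
    rw [map_sub, toMatrix_rho, LinearMap.toMatrix_one]
  have e2 : LinearMap.toMatrix D.b D.b (adVal p ρbar (c σ) * ρbar.ρ σ) =
      adMat p D (c σ) * D.ρm σ := by
    rw [LinearMap.toMatrix_mul, toMatrix_rho]
    rfl
  have e3 : LinearMap.toMatrix D.b D.b
      ((ρbar.ρ σ - 1) * (adVal p ρbar (c σ) * ρbar.ρ σ)) =
      (D.ρm σ - 1) * (adMat p D (c σ) * D.ρm σ) := by
    rw [LinearMap.toMatrix_mul, e1, e2]
  have e4 : LinearMap.toMatrix D.b D.b
      ((adVal p ρbar (c σ) * ρbar.ρ σ) * (ρbar.ρ σ - 1)) =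
      (adMat p D (c σ) * D.ρm σ) * (D.ρm σ - 1) := by
    rw [LinearMap.toMatrix_mul, e1, e2]
  constructor
  · apply (LinearMap.toMatrix D.b D.b).injective
    rw [LinearMap.toMatrix_mul, e1, h2, map_zero]
  · apply (LinearMap.toMatrix D.b D.b).injective
    rw [map_add, e3, e4, h3, map_zero]

/-- the coboundary at the generator -/
lemma smin_generator (hp2 : p ≠ 2) (h : IsCocOf p D ρ c) (σ : GQ)
    (hσ : LinearMap.charpoly (ρ.ρ σ) = (Polynomial.X - 1) ^ 2) (hne : ρbar.ρ σ ≠ 1) :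
    ∃ x : (ad0Rep p ρbar).V,
      c σ = (adRep p ρbar).ρ σ ((ad0Incl p ρbar).hom x) - (ad0Incl p ρbar).hom x := by
  obtain ⟨hN2, hNM⟩ := smin_parts p D h σ hσ
  have h2 : (2 : ResidueField 𝒪) ≠ 0 := by
    intro h0
    have h3 : ((2 : ℕ) : ResidueField 𝒪) = 0 := by exact_mod_cast h0
    rw [CharP.cast_eq_zero_iff (ResidueField 𝒪) p] at h3
    have hp := (Fact.out : p.Prime)
    exact hp2 ((Nat.prime_dvd_prime_iff_eq hp Nat.prime_two).mp h3)
  have hN : ρbar.ρ σ - 1 ≠ 0 := fun h0 => hne (sub_eq_zero.mp h0)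
  obtain ⟨X, hX0, hX⟩ := smin_exists_solution ρbar.finrank_eq h2 _ _ hN hN2 hNM
  obtain ⟨x, hx⟩ := exists_ad0Val_eq p ρbar X hX0
  refine ⟨x, ?_⟩
  apply adVal_injective p ρbar
  rw [map_sub, adVal_ρ, adVal_ad0Incl, hx]
  have h4 : adVal p ρbar (c σ) * ρbar.ρ σ = ρbar.ρ σ * X - X * ρbar.ρ σ := by
    rw [hX]
    noncomm_ring
  have h5 := congrArg (· * ρbar.ρ σ⁻¹) h4
  simp only [mul_assoc, rho_mul_inv, mul_one, sub_mul] at h5
  rw [h5, mul_assoc]

end sminCoc

/-- **S-min** from tame inertia and `L-dec`. -/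
theorem stmtMin_of (htame : TW.L.StmtTameGrp) (hdec : TW.L.StmtDecFull) : StmtMin := by
  intro 𝒪 _ _ p _ _ ρbar D ρ c v _ hp2 hvp hcoc _htr hunip hram
  classical
  obtain ⟨r, hr, hequiv, hlift⟩ := id hcoc
  -- the level
  obtain ⟨F, hF, hF1⟩ := isCocOf_exists_level p D hcoc
  have hV : F.fixingSubgroup.comap (localGaloisToGlobal v) ∈ (towerLoc v).lev := ⟨F, hF, rfl⟩
  obtain ⟨t, ht⟩ := htame v p hvp _ hV
  -- the homomorphism from inertia
  let h' : ↥(TW.L.inertiaQ v) →* (M2 (DualNumber (ResidueField 𝒪)))ˣ :=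
    r.toHomUnits.comp ((localGaloisToGlobal v).comp (TW.L.inertiaQ v).subtype)
  have hh' : ∀ x : ↥(TW.L.inertiaQ v),
      ((h' x : (M2 (DualNumber (ResidueField 𝒪)))ˣ) : M2 (DualNumber (ResidueField 𝒪))) =
        liftMat p D c (localGaloisToGlobal v x) := fun x => hlift _
  have hA : ∀ a : ↥h'.range, a ^ p = 1 := by
    rintro ⟨_, ⟨x, rfl⟩⟩
    apply Subtype.ext
    apply Units.ext
    show ((h' x : (M2 (DualNumber (ResidueField 𝒪)))ˣ) :
      M2 (DualNumber (ResidueField 𝒪))) ^ p = 1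
    rw [hh']
    exact smin_pow_p p D hcoc _ (hunip _ x.2)
  have htriv : ∀ x : ↥(TW.L.inertiaQ v),
      (x : GQq v) ∈ F.fixingSubgroup.comap (localGaloisToGlobal v) → h'.rangeRestrict x = 1 := by
    intro x hx
    apply Subtype.ext
    apply Units.ext
    show ((h' x : (M2 (DualNumber (ResidueField 𝒪)))ˣ) :
      M2 (DualNumber (ResidueField 𝒪))) = 1
    rw [hh']
    exact hF1 _ hx
  obtain ⟨hgen, -⟩ := ht ↥h'.range h'.rangeRestrict hA htriv
  -- every element of inertia has the matrix form of a power of `t`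
  have hpow : ∀ x : ↥(TW.L.inertiaQ v), ∃ n : ℕ,
      liftMat p D c (localGaloisToGlobal v x) =
        liftMat p D c ((localGaloisToGlobal v t) ^ n) := by
    intro x
    obtain ⟨n, hn⟩ := hgen x
    refine ⟨n, ?_⟩
    have h1 := congrArg (fun a : ↥h'.range =>
      ((a : (M2 (DualNumber (ResidueField 𝒪)))ˣ) : M2 (DualNumber (ResidueField 𝒪)))) hn
    have h2 : ((h' x : (M2 (DualNumber (ResidueField 𝒪)))ˣ) :
        M2 (DualNumber (ResidueField 𝒪))) =
        ((h' t : (M2 (DualNumber (ResidueField 𝒪)))ˣ) :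
          M2 (DualNumber (ResidueField 𝒪))) ^ n := by
      rw [← Units.val_pow_eq_pow_val]
      exact h1
    rw [hh', hh'] at h2
    rw [h2, ← hlift, ← map_pow, hlift]
  -- `ρ̄(t) ≠ 1`
  have hne : ρbar.ρ (localGaloisToGlobal v t) ≠ 1 := by
    intro h1
    obtain ⟨σ, hσ, hσ1⟩ := hram
    have hσD : σ ∈ (padicPlace v).decompositionSubgroup ℚ := by
      obtain ⟨τ, -, rfl⟩ := hσ
      exact τ.2
    obtain ⟨τ, rfl⟩ := hdec v σ hσD
    obtain ⟨n, hn⟩ := hpow ⟨τ, hσ⟩
    apply hσ1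
    rw [(smin_of_liftMat_eq p D _ _ hn).1, map_pow, h1, one_pow]
  obtain ⟨x, hx⟩ := smin_generator p D hp2 hcoc (localGaloisToGlobal v t) (hunip _ t.2) hne
  refine ⟨x, fun τ hτ => ?_⟩
  obtain ⟨n, hn⟩ := hpow ⟨τ, hτ⟩
  obtain ⟨e1, e2⟩ := smin_of_liftMat_eq p D _ _ hn
  show c (localGaloisToGlobal v τ) = _
  have e1' : ρbar.ρ (localGaloisToGlobal v τ) = ρbar.ρ ((localGaloisToGlobal v t) ^ n) := e1
  have e2' : c (localGaloisToGlobal v τ) = c ((localGaloisToGlobal v t) ^ n) := e2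
  rw [e2', smin_c_pow p D hcoc _ _ hx n, smin_act_congr p _ _ e1']

end Fermat.Agent.TW.S

end


end ZBTW_019_1
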