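/- GENERATED FILE (helper35, build-time optimisation, NOTES/ZB.md): verbatim concatenation of the modules
   Fermat.Agent.TW.L.TameAlg
   Fermat.Agent.TW.L.Tame
   Fermat.Agent.TW.W.StrTame
   Fermat.Agent.TW.S.MinFinal
   Fermat.Agent.TW.S.SelCard
   Fermat.Agent.RT.K3.SelTriv
   Fermat.Agent.TW.W.GBIrrStrTheta
   Do not edit; do not import together with these modules. -/
import Mathlib
import Fermat.Agent.ZB.PT_003
import Fermat.Agent.ZB.Cheb_001
import Fermat.Agent.ZB.TW_001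
import Fermat.Agent.ZB.TW_019
import Fermat.Agent.ZB.TW_015
import Fermat.Agent.ZB.TW_016
import Fermat.Agent.ZB.TW_017
import Fermat.Agent.ZB.TW_018
import Fermat.Agent.ZB.TW_007

/-! ### bundled: `Fermat.Agent.TW.L.TameAlg` -/
section ZBTW_009_0
/-
TW-L / L-tame, part A: the algebra of tame inertia at finite level.

`R` a Dedekind domain, `P` a nonzero prime, `G` a finite group acting faithfully on `R`.
* `ltame_wild_eq_one` : an element of order prime to the residue characteristic that acts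
  trivially on all `P^M / P^(M+1)` acts trivially (Krull intersection);
* `ltame_exists_theta` : the tame character `θ : I_P → (R ⧸ P)ˣ`, `σ π ≡ θ(σ) π mod P²`;
* `ltame_abstract` : the abstract form of the tame-inertia statement.
-/

set_option autoImplicit false
set_option linter.style.haveILetI false

namespace Fermat.Agent.TW.L

section TameAlg

variable {R : Type*} [CommRing R] {G : Type*} [Group G] [MulSemiringAction G R] (P : Ideal R)

/-- `σ` acts trivially modulo `P`. -/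
def LtameInert (σ : G) : Prop := ∀ x : R, σ • x - x ∈ P

/-- `σ` acts trivially on `P^M / P^(M+1)` for all `M`. -/
def LtameWild (σ : G) : Prop := ∀ M : ℕ, ∀ x ∈ P ^ M, σ • x - x ∈ P ^ (M + 1)

/-- `σ π ≡ π d` modulo `P²`. -/
def LtameTheta (π : R) (σ : G) (d : R) : Prop := σ • π - π * d ∈ P ^ 2

variable {P}

theorem ltame_smul_mem_pow (σ : G) (h : ∀ x ∈ P, σ • x ∈ P) (M : ℕ) :
    ∀ x ∈ P ^ M, σ • x ∈ P ^ M := by
  induction M with
  | zero => intro x _; simp
  | succ M ih =>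
    intro y hy
    rw [pow_succ] at hy ⊢
    refine Submodule.mul_induction_on hy ?_ ?_
    · intro a ha b hb
      rw [smul_mul']
      exact Ideal.mul_mem_mul (ih a ha) (h b hb)
    · intro x y hx hy
      rw [smul_add]
      exact Ideal.add_mem _ hx hy

theorem ltame_inert_smul_mem {σ : G} (h : LtameInert P σ) : ∀ x ∈ P, σ • x ∈ P := by
  intro x hx
  have h2 : σ • x = (σ • x - x) + x := by ring
  rw [h2]
  exact Ideal.add_mem _ (h x) hx

theorem ltame_inert_one : LtameInert P (1 : G) := by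
  intro x
  simp

theorem ltame_inert_mul {σ τ : G} (hσ : LtameInert P σ) (hτ : LtameInert P τ) :
    LtameInert P (σ * τ) := by
  intro x
  have e : (σ * τ) • x - x = (σ • (τ • x) - τ • x) + (τ • x - x) := by
    rw [mul_smul]; ring
  rw [e]
  exact Ideal.add_mem _ (hσ _) (hτ _)

theorem ltame_inert_inv {σ : G} (hσ : LtameInert P σ) : LtameInert P σ⁻¹ := by
  intro x
  have h := hσ (σ⁻¹ • x)
  rw [smul_inv_smul] at h
  have e : σ⁻¹ • x - x = -(x - σ⁻¹ • x) := by ring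
  rw [e]
  exact Ideal.neg_mem_iff _ |>.mpr h

theorem ltame_wild_of {σ : G} (h0 : LtameInert P σ) (h1 : ∀ a ∈ P, σ • a - a ∈ P ^ 2) :
    LtameWild P σ := by
  intro M
  induction M with
  | zero => intro x _; simpa using h0 x
  | succ M ih =>
    intro y hy
    rw [pow_succ] at hy
    refine Submodule.mul_induction_on hy ?_ ?_
    · intro a ha b hb
      have e : σ • (a * b) - a * b = σ • a * (σ • b - b) + (σ • a - a) * b := by
        rw [smul_mul']; ring
      rw [e]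
      have ha' : σ • a ∈ P ^ M := ltame_smul_mem_pow σ (ltame_inert_smul_mem h0) M a ha
      refine Ideal.add_mem _ ?_ ?_
      · have := Ideal.mul_mem_mul ha' (h1 b hb)
        rwa [← pow_add] at this
      · have := Ideal.mul_mem_mul (ih a ha) hb
        rwa [← pow_succ] at this
    · intro x y hx hy
      have e : σ • (x + y) - (x + y) = (σ • x - x) + (σ • y - y) := by
        rw [smul_add]; ring
      rw [e]; exact Ideal.add_mem _ hx hy

theorem ltame_wild_inert {σ : G} (h : LtameWild P σ) : LtameInert P σ := by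
  intro x
  have := h 0 x (by simp)
  simpa using this

theorem ltame_wild_smul_mem {σ : G} (h : LtameWild P σ) (M : ℕ) (x : R) (hx : x ∈ P ^ M) :
    σ • x ∈ P ^ M := by
  have h2 : σ • x = (σ • x - x) + x := by ring
  rw [h2]
  exact Ideal.add_mem _ (Ideal.pow_le_pow_right (Nat.le_succ M) (h M x hx)) hx

theorem ltame_wild_one : LtameWild P (1 : G) := by
  intro M x _
  simp

theorem ltame_wild_mul {σ τ : G} (hσ : LtameWild P σ) (hτ : LtameWild P τ) :
    LtameWild P (σ * τ) := by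
  intro M x hx
  have e : (σ * τ) • x - x = (σ • (τ • x) - τ • x) + (τ • x - x) := by
    rw [mul_smul]; ring
  rw [e]
  exact Ideal.add_mem _ (hσ M _ (ltame_wild_smul_mem hτ M x hx)) (hτ M x hx)

theorem ltame_wild_pow {σ : G} (hσ : LtameWild P σ) (k : ℕ) : LtameWild P (σ ^ k) := by
  induction k with
  | zero => rw [pow_zero]; exact ltame_wild_one
  | succ k ih => rw [pow_succ]; exact ltame_wild_mul ih hσ

/-- an element invertible modulo `P` is a nonzerodivisor modulo every power of `P` -/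
theorem ltame_mem_pow_of_mul_mem {n m : R} (hnm : n * m - 1 ∈ P) (N : ℕ) (d : R)
    (h : n * d ∈ P ^ N) : d ∈ P ^ N := by
  have key : ∀ j : ℕ, j ≤ N → d ∈ P ^ j := by
    intro j
    induction j with
    | zero => intro _; simp
    | succ j ih =>
      intro hj
      have hd : d ∈ P ^ j := ih (Nat.le_of_succ_le hj)
      have e : d = (n * d) * m - d * (n * m - 1) := by ring
      rw [e]
      refine Ideal.sub_mem _ ?_ ?_
      · exact Ideal.mul_mem_right _ _ (Ideal.pow_le_pow_right hj h)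
      · have := Ideal.mul_mem_mul hd hnm
        rwa [← pow_succ] at this
  exact key N le_rfl

/-- **A1.** A wild element of order invertible modulo `P` acts trivially. -/
theorem ltame_wild_eq_one [IsNoetherianRing R] [IsDomain R] (hP : P ≠ ⊤) {σ : G}
    (h : LtameWild P σ) (n : ℕ) (hσ : σ ^ n = 1) (hn : ∃ m : R, (n : R) * m - 1 ∈ P) :
    ∀ x : R, σ • x = x := by
  obtain ⟨m, hm⟩ := hn
  have key : ∀ N : ℕ, ∀ x : R, σ • x - x ∈ P ^ N := by
    intro N
    induction N with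
    | zero => intro x; simp
    | succ N ih =>
      intro x
      have hd := ih x
      have hk : ∀ k : ℕ, σ ^ k • x - x - (k : R) * (σ • x - x) ∈ P ^ (N + 1) := by
        intro k
        induction k with
        | zero => simp
        | succ k ihk =>
          have e : σ ^ (k + 1) • x - x - ((k + 1 : ℕ) : R) * (σ • x - x) =
              (σ ^ k • x - x - (k : R) * (σ • x - x)) +
                (σ ^ k • (σ • x - x) - (σ • x - x)) := by
            rw [pow_succ, mul_smul, smul_sub]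
            push_cast
            ring
          rw [e]
          exact Ideal.add_mem _ ihk (ltame_wild_pow h k N _ hd)
      have h1 := hk n
      rw [hσ, one_smul, sub_self, zero_sub, neg_mem_iff] at h1
      exact ltame_mem_pow_of_mul_mem hm (N + 1) _ h1
  intro x
  have h2 : σ • x - x ∈ ⨅ i : ℕ, P ^ i := by
    rw [Ideal.mem_iInf]
    exact fun i => key i x
  rw [Ideal.iInf_pow_eq_bot_of_isDomain P hP, Ideal.mem_bot] at h2
  exact sub_eq_zero.mp h2

/-! ### The tame character -/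

theorem ltame_theta_one (π : R) : LtameTheta P π (1 : G) 1 := by
  unfold LtameTheta
  simp

theorem ltame_theta_congr {π : R} (hπ : π ∈ P) {σ : G} {d d' : R}
    (h : LtameTheta P π σ d) (hd : d - d' ∈ P) : LtameTheta P π σ d' := by
  unfold LtameTheta at h ⊢
  have e : σ • π - π * d' = (σ • π - π * d) + π * (d - d') := by ring
  rw [e]
  refine Ideal.add_mem _ h ?_
  have := Ideal.mul_mem_mul hπ hd
  rwa [← pow_two] at this

theorem ltame_theta_mul {π : R} (hπ : π ∈ P) {σ τ : G} {d d' : R} (hσ : LtameInert P σ)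
    (h : LtameTheta P π σ d) (h' : LtameTheta P π τ d') : LtameTheta P π (σ * τ) (d * d') := by
  unfold LtameTheta at h h' ⊢
  have e : (σ * τ) • π - π * (d * d') =
      σ • (τ • π - π * d') + (σ • π - π * d) * (σ • d') + π * (σ • d' - d') * d := by
    rw [mul_smul, smul_sub, smul_mul']; ring
  rw [e]
  refine Ideal.add_mem _ (Ideal.add_mem _ ?_ ?_) ?_
  · exact ltame_smul_mem_pow σ (ltame_inert_smul_mem hσ) 2 _ h'
  · exact Ideal.mul_mem_right _ _ h
  · refine Ideal.mul_mem_right _ _ ?_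
    have := Ideal.mul_mem_mul hπ (hσ d')
    rwa [← pow_two] at this

theorem ltame_theta_exists [IsDedekindDomain R] [P.IsPrime] (hP : P ≠ ⊥) {π : R} (hπ : π ∈ P)
    (hπ2 : π ∉ P ^ 2) {c : R} (hc : c ∈ P) : ∃ d : R, c - π * d ∈ P ^ 2 := by
  obtain ⟨d, e, he, hde⟩ := Ideal.exists_mul_add_mem_pow_succ (i := 1) hP π c
    (by simpa using hπ) hπ2 (by simpa using hc)
  refine ⟨d, ?_⟩
  rw [← hde]
  simpa using he

theorem ltame_theta_unique [IsDedekindDomain R] [P.IsPrime] (hP : P ≠ ⊥) {π : R}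
    (hπ2 : π ∉ P ^ 2) {σ : G} {d d' : R}
    (h : LtameTheta P π σ d) (h' : LtameTheta P π σ d') : d - d' ∈ P := by
  unfold LtameTheta at h h'
  have h2 : π * (d - d') ∈ P ^ (1 + 1) := by
    have e : π * (d - d') = (σ • π - π * d') - (σ • π - π * d) := by ring
    rw [e]
    exact Ideal.sub_mem _ h' h
  exact Ideal.mem_prime_of_mul_mem_pow hP hπ2 h2

/-- if `σ π ≡ π` modulo `P²` then `σ` is wild -/
theorem ltame_wild_of_theta_one [IsDedekindDomain R] [P.IsPrime] (hP : P ≠ ⊥) {π : R}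
    (hπ : π ∈ P) (hπ2 : π ∉ P ^ 2) {σ : G} (hσ : LtameInert P σ) (h : LtameTheta P π σ 1) :
    LtameWild P σ := by
  refine ltame_wild_of hσ ?_
  intro a ha
  obtain ⟨c, hc⟩ := ltame_theta_exists hP hπ hπ2 ha
  unfold LtameTheta at h
  rw [mul_one] at h
  have e : σ • a - a = (σ • (a - π * c) - (a - π * c)) + (σ • π - π) * (σ • c)
      + π * (σ • c - c) := by
    rw [smul_sub, smul_mul']; ring
  rw [e]
  refine Ideal.add_mem _ (Ideal.add_mem _ (Ideal.sub_mem _ ?_ hc) ?_) ?_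
  · exact ltame_smul_mem_pow σ (ltame_inert_smul_mem hσ) 2 _ hc
  · exact Ideal.mul_mem_right _ _ h
  · have := Ideal.mul_mem_mul hπ (hσ c)
    rwa [← pow_two] at this

/-- conjugating by a Frobenius raises the tame character to the `q`-th power -/
theorem ltame_theta_frob [IsDedekindDomain R] [P.IsPrime] (hP : P ≠ ⊥) {π : R}
    (hπ : π ∈ P) (hπ2 : π ∉ P ^ 2) {σ : G} (hσ : LtameInert P σ) {d : R}
    (h : LtameTheta P π σ d) (q : ℕ) (hq : q ≠ 0) (φ : G) (hφ : ∀ x : R, φ • x - x ^ q ∈ P) :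
    LtameTheta P π (φ * σ * φ⁻¹) (d ^ q) := by
  have hφP : ∀ x ∈ P, φ • x ∈ P := by
    intro x hx
    have h2 : φ • x = (φ • x - x ^ q) + x ^ q := by ring
    rw [h2]
    exact Ideal.add_mem _ (hφ x) (Ideal.pow_mem_of_mem _ hx q (Nat.pos_of_ne_zero hq))
  have hπ' : φ⁻¹ • π ∈ P := by
    have h1 := hφ (φ⁻¹ • π)
    rw [smul_inv_smul] at h1
    have h2 : (φ⁻¹ • π) ^ q ∈ P := by
      have e : (φ⁻¹ • π) ^ q = π - (π - (φ⁻¹ • π) ^ q) := by ring
      rw [e]
      exact Ideal.sub_mem _ hπ h1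
    exact Ideal.IsPrime.mem_of_pow_mem inferInstance q h2
  obtain ⟨c, hc⟩ := ltame_theta_exists hP hπ hπ2 hπ'
  unfold LtameTheta at h ⊢
  -- `σ π' ≡ π' d`
  have h3 : σ • (φ⁻¹ • π) - (φ⁻¹ • π) * d ∈ P ^ 2 := by
    have e : σ • (φ⁻¹ • π) - (φ⁻¹ • π) * d =
        (σ • (φ⁻¹ • π - π * c) - (φ⁻¹ • π - π * c) * d) + (σ • π - π * d) * (σ • c)
          + π * (σ • c - c) * d := by
      rw [smul_sub, smul_mul']; ring
    rw [e]
    refine Ideal.add_mem _ (Ideal.add_mem _ (Ideal.sub_mem _ ?_ ?_) ?_) ?_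
    · exact ltame_smul_mem_pow σ (ltame_inert_smul_mem hσ) 2 _ hc
    · exact Ideal.mul_mem_right _ _ hc
    · exact Ideal.mul_mem_right _ _ h
    · refine Ideal.mul_mem_right _ _ ?_
      have := Ideal.mul_mem_mul hπ (hσ c)
      rwa [← pow_two] at this
  have e : (φ * σ * φ⁻¹) • π - π * d ^ q =
      φ • (σ • (φ⁻¹ • π) - (φ⁻¹ • π) * d) + π * (φ • d - d ^ q) := by
    rw [mul_smul, mul_smul, smul_sub, smul_mul', smul_inv_smul]; ring
  rw [e]
  refine Ideal.add_mem _ ?_ ?_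
  · exact ltame_smul_mem_pow φ hφP 2 _ h3
  · have := Ideal.mul_mem_mul hπ (hφ d)
    rwa [← pow_two] at this

variable (P) (G)

/-- the inertia subgroup at `P` -/
def ltameInertia : Subgroup G where
  carrier := {σ | LtameInert P σ}
  mul_mem' := fun ha hb => ltame_inert_mul ha hb
  one_mem' := ltame_inert_one
  inv_mem' := fun ha => ltame_inert_inv ha

variable {P} {G}

theorem ltame_mem_inertia {σ : G} : σ ∈ ltameInertia G P ↔ LtameInert P σ := Iff.rfl

/-- **A2.** The tame character. -/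
theorem ltame_exists_theta [IsDedekindDomain R] [P.IsPrime] (hP : P ≠ ⊥) {π : R}
    (hπ : π ∈ P) (hπ2 : π ∉ P ^ 2) :
    ∃ θ : ltameInertia G P →* (R ⧸ P)ˣ, ∀ σ : ltameInertia G P, ∃ d : R,
      LtameTheta P π (σ : G) d ∧ ((θ σ : (R ⧸ P)ˣ) : R ⧸ P) = Ideal.Quotient.mk P d := by
  classical
  have hex : ∀ σ : ltameInertia G P, ∃ d : R, LtameTheta P π (σ : G) d := by
    intro σ
    exact ltame_theta_exists hP hπ hπ2 (ltame_inert_smul_mem σ.2 π hπ)
  choose f hf using hex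
  let θ₀ : ltameInertia G P →* R ⧸ P :=
    { toFun := fun σ => Ideal.Quotient.mk P (f σ)
      map_one' := by
        rw [← map_one (Ideal.Quotient.mk P), Ideal.Quotient.eq]
        exact ltame_theta_unique hP hπ2 (hf 1) (ltame_theta_one π)
      map_mul' := by
        intro σ τ
        rw [← map_mul (Ideal.Quotient.mk P), Ideal.Quotient.eq]
        exact ltame_theta_unique hP hπ2 (hf (σ * τ)) (ltame_theta_mul hπ σ.2 (hf σ) (hf τ)) }
  refine ⟨θ₀.toHomUnits, fun σ => ⟨f σ, hf σ, ?_⟩⟩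
  rfl

/-- an integer prime to `q ∈ P` is invertible modulo `P` -/
theorem ltame_exists_inv_of_coprime {q : ℕ} (hqP : (q : R) ∈ P) {n : ℕ} (hn : Nat.Coprime n q) :
    ∃ m : R, (n : R) * m - 1 ∈ P := by
  have h1 : IsCoprime (n : ℤ) (q : ℤ) := Nat.isCoprime_iff_coprime.mpr hn
  obtain ⟨a, b, hab⟩ := h1
  refine ⟨(a : R), ?_⟩
  have h2 : ((a * n + b * q : ℤ) : R) = 1 := by rw [hab]; simp
  push_cast at h2
  have e : (n : R) * (a : R) - 1 = -((b : R) * (q : R)) := by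
    rw [← h2]; ring
  rw [e]
  exact Ideal.neg_mem_iff _ |>.mpr (Ideal.mul_mem_left _ _ hqP)

/-- elements of the kernel of the tame character have `q`-power order -/
theorem ltame_wild_pow_eq_one [IsNoetherianRing R] [IsDomain R] [Finite G] (hP : P ≠ ⊤)
    (hfaith : ∀ σ : G, (∀ x : R, σ • x = x) → σ = 1) {q : ℕ} (hq : q.Prime)
    (hqP : (q : R) ∈ P) {σ : G} (h : LtameWild P σ) : ∃ m : ℕ, σ ^ (q ^ m) = 1 := by
  have hN : orderOf σ ≠ 0 := (orderOf_pos σ).ne'
  obtain ⟨m, n', hn', hN'⟩ := Nat.exists_eq_pow_mul_and_not_dvd hN q hq.ne_one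
  refine ⟨m, hfaith _ ?_⟩
  refine ltame_wild_eq_one hP (ltame_wild_pow h (q ^ m)) n' ?_ ?_
  · rw [← pow_mul, ← hN', pow_orderOf_eq_one]
  · exact ltame_exists_inv_of_coprime hqP ((Nat.Prime.coprime_iff_not_dvd hq).mpr hn').symm

/-- **Abstract tame inertia.** -/
theorem ltame_abstract [IsDedekindDomain R] [P.IsPrime] (hP : P ≠ ⊥) [Finite G]
    (hfaith : ∀ σ : G, (∀ x : R, σ • x = x) → σ = 1) {q : ℕ} (hq : q.Prime)
    (hqP : (q : R) ∈ P) {J : Type*} [Group J] (ρ : J →* G) (hρ : ∀ y, LtameInert P (ρ y)) :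
    ∃ t : J, ∀ (p : ℕ), p.Prime → q ≠ p → ∀ (A : Type) [Group A] (h : J →* A),
      (∀ a : A, a ^ p = 1) → (∀ y, ρ y = 1 → h y = 1) →
      (∀ x, ∃ n : ℕ, h x = h t ^ n) ∧
      ∀ (t' : J) (φ : G), (∀ x : R, φ • x - x ^ q ∈ P) → ρ t' = φ * ρ t * φ⁻¹ →
        h t' = h t ^ q := by
  classical
  have hPtop : P ≠ ⊤ := Ideal.IsPrime.ne_top inferInstance
  -- a uniformiser
  obtain ⟨π, hπ1, hπ2⟩ := SetLike.exists_of_lt (Ideal.pow_succ_lt_pow hP 1)
  rw [pow_one] at hπ1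
  have hπ2' : π ∉ P ^ 2 := hπ2
  obtain ⟨θ, hθ⟩ := ltame_exists_theta (G := G) hP hπ1 hπ2'
  let ρ' : J →* ltameInertia G P := ρ.codRestrict (ltameInertia G P) hρ
  let Θ : J →* (R ⧸ P)ˣ := θ.comp ρ'
  -- the kernel of `Θ` consists of wild elements
  have hker : ∀ y : J, Θ y = 1 → LtameWild P (ρ y) := by
    intro y hy
    obtain ⟨d, hd, hd'⟩ := hθ (ρ' y)
    have h1 : Ideal.Quotient.mk P d = Ideal.Quotient.mk P 1 := by
      rw [← hd', map_one]
      have : θ (ρ' y) = 1 := hy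
      rw [this]; rfl
    rw [Ideal.Quotient.eq] at h1
    exact ltame_wild_of_theta_one hP hπ1 hπ2' (hρ y) (ltame_theta_congr hπ1 hd h1)
  -- the range of `Θ` is finite cyclic
  haveI : Finite (ltameInertia G P) := inferInstance
  haveI : Finite θ.range := Set.finite_range θ
  have hle : Θ.range ≤ θ.range := by
    rintro _ ⟨y, rfl⟩
    exact ⟨ρ' y, rfl⟩
  haveI : Finite Θ.range := Finite.of_injective (Subgroup.inclusion hle)
    (Subgroup.inclusion_injective hle)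
  obtain ⟨⟨g, ⟨t, rfl⟩⟩, hg⟩ := (isCyclic_subgroup_units Θ.range).exists_generator
  have hgen : ∀ x : J, ∃ n : ℕ, Θ x = Θ t ^ n := by
    intro x
    have h1 := hg ⟨Θ x, ⟨x, rfl⟩⟩
    have h2 : IsOfFinOrder (⟨Θ t, ⟨t, rfl⟩⟩ : Θ.range) := isOfFinOrder_of_finite _
    rw [← h2.mem_powers_iff_mem_zpowers] at h1
    obtain ⟨n, hn⟩ := h1
    refine ⟨n, ?_⟩
    have := congrArg (fun z : Θ.range => (z : (R ⧸ P)ˣ)) hn
    simpa using this.symm
  refine ⟨t, ?_⟩
  intro p hp hqp A _ h hA hh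
  -- the key: `h` kills the kernel of `Θ`
  have hK : ∀ y : J, Θ y = 1 → h y = 1 := by
    intro y hy
    obtain ⟨m, hm⟩ := ltame_wild_pow_eq_one hPtop hfaith hq hqP (hker y hy)
    have h1 : h y ^ (q ^ m) = 1 := by
      rw [← map_pow]
      exact hh _ (by rw [map_pow, hm])
    have h2 := pow_gcd_eq_one.mpr ⟨h1, hA (h y)⟩
    have h3 : Nat.gcd (q ^ m) p = 1 :=
      Nat.Coprime.pow_left m ((Nat.coprime_primes hq hp).mpr hqp)
    rwa [h3, pow_one] at h2
  have hK' : ∀ (x : J) (n : ℕ), Θ x = Θ t ^ n → h x = h t ^ n := by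
    intro x n hx
    have h1 : h (x * (t ^ n)⁻¹) = 1 := by
      apply hK
      rw [map_mul, map_inv, map_pow, hx, mul_inv_cancel]
    rw [map_mul, map_inv, map_pow, mul_inv_eq_one] at h1
    exact h1
  refine ⟨fun x => ?_, fun t' φ hφ ht' => ?_⟩
  · obtain ⟨n, hn⟩ := hgen x
    exact ⟨n, hK' x n hn⟩
  · apply hK'
    obtain ⟨d, hd, hd'⟩ := hθ (ρ' t)
    obtain ⟨d', hd2, hd2'⟩ := hθ (ρ' t')
    have h1 : LtameTheta P π (ρ t') (d ^ q) := by
      rw [ht']
      exact ltame_theta_frob hP hπ1 hπ2' (hρ t) hd q hq.ne_zero φ hφ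
    have h2 : d' - d ^ q ∈ P := ltame_theta_unique hP hπ2' hd2 h1
    apply Units.ext
    rw [Units.val_pow_eq_pow_val]
    show ((θ (ρ' t') : (R ⧸ P)ˣ) : R ⧸ P) = ((θ (ρ' t) : (R ⧸ P)ˣ) : R ⧸ P) ^ q
    rw [hd', hd2', ← map_pow, Ideal.Quotient.eq]
    exact h2

end TameAlg

end Fermat.Agent.TW.L


end ZBTW_009_0

/-! ### bundled: `Fermat.Agent.TW.L.Tame` -/
section ZBTW_009_1
/-
TW-L / L-tame (helper48): tame inertia is pro-cyclic modulo every level, and Frobenius acts on it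
through the `q`-th power.  `stmtTameGrp : StmtTameGrp`, `stmtTame : StmtTame`.

Proof.  Let `F'` be the normal closure of the field `F` defining the level, `P` the prime of
`𝓞 F'` below `padicPlace q`.  Restriction maps inertia into the inertia group of `P` in
`Gal(F'/ℚ)`; the tame character `θ : I_P → (𝓞 F'/P)ˣ` has cyclic image and a kernel made of
elements of `q`-power order (`TameAlg.lean`), which die in every group of exponent `p ≠ q`.
-/

set_option autoImplicit false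
set_option linter.style.haveILetI false

open NumberField

namespace Fermat.Agent.TW.L

open Fermat.Agent.PT Fermat.Agent.PT.B Fermat.Agent.Cheb

section Finite

variable (F : IntermediateField ℚ (AlgebraicClosure ℚ))
  (A : ValuationSubring (AlgebraicClosure ℚ))

/-- the ring of integers of `F` maps to `A` -/
noncomputable def ltameToA : 𝓞 F →+* A := (intEmb F).codRestrict A (intEmb_mem F A)

/-- the prime of `𝓞 F` below `A` -/
noncomputable def ltamePrime : Ideal (𝓞 F) :=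
  Ideal.comap (ltameToA F A) (IsLocalRing.maximalIdeal A)

theorem ltame_mem_prime (x : 𝓞 F) : x ∈ ltamePrime F A ↔ intEmb F x ∈ A.nonunits := by
  unfold ltamePrime
  rw [Ideal.mem_comap, ← ValuationSubring.coe_mem_nonunits_iff]
  rfl

instance ltamePrime_isPrime : (ltamePrime F A).IsPrime := by
  unfold ltamePrime
  exact Ideal.comap_isPrime _ _

theorem ltame_natCast_mem {q : ℕ} (hA : A.LiesOverPrime q) : ((q : ℕ) : 𝓞 F) ∈ ltamePrime F A := by
  rw [ltame_mem_prime, map_natCast]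
  exact hA

theorem ltame_prime_ne_bot {q : ℕ} (hq : q.Prime) (hA : A.LiesOverPrime q) :
    ltamePrime F A ≠ ⊥ := by
  intro h
  have h1 := ltame_natCast_mem F A hA
  rw [h, Ideal.mem_bot] at h1
  exact hq.ne_zero (by exact_mod_cast h1)

end Finite

section Global

/-- **Tame inertia, global form.** -/
theorem ltame_global {q : ℕ} (hq : q.Prime) (A : ValuationSubring (AlgebraicClosure ℚ))
    (hA : A.LiesOverPrime q) (F : IntermediateField ℚ (AlgebraicClosure ℚ))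
    [FiniteDimensional ℚ F] {J : Type*} [Group J]
    (r : J →* (AlgebraicClosure ℚ ≃ₐ[ℚ] AlgebraicClosure ℚ))
    (hr : ∀ y, r y ∈ A.inertiaSubgroupIn ℚ) :
    ∃ t : J, ∀ (p : ℕ), p.Prime → q ≠ p → ∀ (B : Type) [Group B] (h : J →* B),
      (∀ a : B, a ^ p = 1) → (∀ y, r y ∈ F.fixingSubgroup → h y = 1) →
      (∀ x, ∃ n : ℕ, h x = h t ^ n) ∧
      ∀ (t' : J) (φ : AlgebraicClosure ℚ ≃ₐ[ℚ] AlgebraicClosure ℚ), A.IsFrobeniusAt φ q →
        r t' = φ * r t * φ⁻¹ → h t' = h t ^ q := by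
  classical
  haveI : IsAlgClosure ℚ (AlgebraicClosure ℚ) := ⟨inferInstance, AlgebraicClosure.isAlgebraic ℚ⟩
  haveI : Normal ℚ (AlgebraicClosure ℚ) := IsAlgClosure.normal ℚ (AlgebraicClosure ℚ)
  -- the normal closure
  let F' : IntermediateField ℚ (AlgebraicClosure ℚ) :=
    IntermediateField.normalClosure ℚ F (AlgebraicClosure ℚ)
  have hFF' : F ≤ F' := IntermediateField.le_normalClosure F
  haveI : Normal ℚ F' := normalClosure.normal ℚ F (AlgebraicClosure ℚ)
  haveI : FiniteDimensional ℚ F' := normalClosure.is_finiteDimensional ℚ F (AlgebraicClosure ℚ)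
  haveI : NumberField F' := ⟨⟩
  haveI : IsGalois ℚ F' := ⟨⟩
  haveI : Finite (F' ≃ₐ[ℚ] F') := inferInstance
  let P : Ideal (𝓞 F') := ltamePrime F' A
  have hP0 : P ≠ ⊥ := ltame_prime_ne_bot F' A hq hA
  have hqP : ((q : ℕ) : 𝓞 F') ∈ P := ltame_natCast_mem F' A hA
  have hfaith : ∀ σ : F' ≃ₐ[ℚ] F', (∀ x : 𝓞 F', σ • x = x) → σ = 1 := by
    intro σ hσ
    apply algEquiv_eq_of_toAlgHom_eq F'
    ext x
    have := hσ x
    simpa using congrArg (fun z : 𝓞 F' => (z : F')) this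
  let ρ : J →* (F' ≃ₐ[ℚ] F') := (AlgEquiv.restrictNormalHom F').comp r
  have hcomm : ∀ (g : AlgebraicClosure ℚ ≃ₐ[ℚ] AlgebraicClosure ℚ) (x : 𝓞 F'),
      intEmb F' ((AlgEquiv.restrictNormalHom F' g) • x) = g (intEmb F' x) := by
    intro g x
    exact AlgEquiv.restrictNormal_commutes g F' (x : F')
  have hρ : ∀ y, LtameInert P (ρ y) := by
    intro y x
    have e : intEmb F' (ρ y • x) = (r y) (intEmb F' x) := hcomm (r y) x
    rw [ltame_mem_prime, map_sub, e]
    exact ((mem_inertiaSubgroupIn_iff A (r y)).mp (hr y)).2 _ (intEmb_mem F' A x)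
  obtain ⟨t, ht⟩ := ltame_abstract (P := P) hP0 hfaith hq hqP ρ hρ
  refine ⟨t, fun p hp hqp B _ h hB hh => ?_⟩
  have hh' : ∀ y, ρ y = 1 → h y = 1 := by
    intro y hy
    apply hh
    rw [IntermediateField.mem_fixingSubgroup_iff]
    intro x hx
    have h1 := AlgEquiv.restrictNormal_commutes (r y) F' ⟨x, hFF' hx⟩
    have h2 : (r y).restrictNormal F' = 1 := hy
    rw [h2] at h1
    exact h1.symm
  obtain ⟨h1, h2⟩ := ht p hp hqp B h hB hh'
  refine ⟨h1, fun t' φ hφ ht' => ?_⟩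
  refine h2 t' (AlgEquiv.restrictNormalHom F' φ) ?_ ?_
  · intro x
    rw [ltame_mem_prime, map_sub, hcomm, map_pow]
    exact sub_pow_mem_nonunits_of_isFrobeniusAt A φ q hφ _ (intEmb_mem F' A x)
  · show AlgEquiv.restrictNormalHom F' (r t') = _
    rw [ht', map_mul, map_mul, map_inv]
    rfl

end Global

/-- **L-tame, group form.** -/
theorem stmtTameGrp : StmtTameGrp := by
  intro q p hq hp hqp V hV
  obtain ⟨F, hF, rfl⟩ := hV
  haveI := hF
  let r : ↥(inertiaQ q) →* (AlgebraicClosure ℚ ≃ₐ[ℚ] AlgebraicClosure ℚ) :=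
    (localGaloisToGlobal q).comp (inertiaQ q).subtype
  have hr : ∀ y, r y ∈ (padicPlace q).inertiaSubgroupIn ℚ := fun y => y.2
  obtain ⟨t, ht⟩ := ltame_global hq.out (padicPlace q) (lfrobex_liesOverPrime q) F r hr
  refine ⟨t, fun B _ h hB hh => ?_⟩
  obtain ⟨h1, h2⟩ := ht p hp.out hqp B h hB (fun y hy => hh y hy)
  refine ⟨h1, fun φ hφ hmem => ?_⟩
  refine h2 ⟨φ * (t : GQq q) * φ⁻¹, hmem⟩ (localGaloisToGlobal q φ) hφ ?_
  show localGaloisToGlobal q (φ * (t : GQq q) * φ⁻¹) = _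
  rw [map_mul, map_mul, map_inv]
  rfl

/-- **L-tame.** -/
theorem stmtTame : StmtTame := stmtTame_of_grp stmtTameGrp

end Fermat.Agent.TW.L


end ZBTW_009_1

/-! ### bundled: `Fermat.Agent.TW.W.StrTame` -/
section ZBTW_009_2
/-
TW-W / STR-tame (helper86): `stmtTameGen : StmtTameGen`.

Tame inertia of `G_{ℚ_q}` modulo a level, for a general exponent `n` prime to `q` (the case
`q = p` of the residue characteristic included): every homomorphism from the inertia group to a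
group of exponent `n`, trivial on the level, factors through a cyclic quotient generated by one
element `t`, and Frobenius acts on it by `t ↦ t ^ q`.

Proof: that of `TW.L.ltame_abstract`, `ltame_global`, `stmtTameGrp` (helper48), with
`gcd (q ^ m) n = 1` in the place of `gcd (q ^ m) p = 1`.
-/

set_option autoImplicit false
set_option linter.style.haveILetI false

open NumberField

namespace Fermat.Agent.TW.W

open Fermat.Agent.PT Fermat.Agent.PT.B Fermat.Agent.Cheb Fermat.Agent.TW.L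

section Abs

variable {R : Type*} [CommRing R] {G : Type*} [Group G] [MulSemiringAction G R] {P : Ideal R}

/-- The tame character of a group `J` mapping to the inertia group of `P`: a homomorphism
`Θ : J → (R ⧸ P)ˣ` whose kernel consists of elements of `q`-power order modulo `ker ρ`, with
cyclic image generated by `Θ t`, and `Θ (t') = Θ t ^ q` whenever `ρ t' = φ ρ(t) φ⁻¹` for a
Frobenius `φ`. -/
theorem wstr_exists_theta [IsDedekindDomain R] [P.IsPrime] (hP : P ≠ ⊥) [Finite G]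
    (hfaith : ∀ σ : G, (∀ x : R, σ • x = x) → σ = 1) {q : ℕ} (hq : q.Prime)
    (hqP : (q : R) ∈ P) {J : Type*} [Group J] (ρ : J →* G) (hρ : ∀ y, LtameInert P (ρ y)) :
    ∃ (Θ : J →* (R ⧸ P)ˣ) (t : J),
      (∀ y : J, Θ y = 1 → ∃ m : ℕ, ρ y ^ (q ^ m) = 1) ∧
      (∀ x : J, ∃ n : ℕ, Θ x = Θ t ^ n) ∧
      (∀ (s s' : J) (φ : G), (∀ x : R, φ • x - x ^ q ∈ P) → ρ s' = φ * ρ s * φ⁻¹ →
        Θ s' = Θ s ^ q) := by
  classical
  have hPtop : P ≠ ⊤ := Ideal.IsPrime.ne_top inferInstance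
  -- a uniformiser
  obtain ⟨π, hπ1, hπ2⟩ := SetLike.exists_of_lt (Ideal.pow_succ_lt_pow hP 1)
  rw [pow_one] at hπ1
  have hπ2' : π ∉ P ^ 2 := hπ2
  obtain ⟨θ, hθ⟩ := ltame_exists_theta (G := G) hP hπ1 hπ2'
  let ρ' : J →* ltameInertia G P := ρ.codRestrict (ltameInertia G P) hρ
  let Θ : J →* (R ⧸ P)ˣ := θ.comp ρ'
  -- the kernel of `Θ` consists of wild elements
  have hker : ∀ y : J, Θ y = 1 → LtameWild P (ρ y) := by
    intro y hy
    obtain ⟨d, hd, hd'⟩ := hθ (ρ' y)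
    have h1 : Ideal.Quotient.mk P d = Ideal.Quotient.mk P 1 := by
      rw [← hd', map_one]
      have : θ (ρ' y) = 1 := hy
      rw [this]; rfl
    rw [Ideal.Quotient.eq] at h1
    exact ltame_wild_of_theta_one hP hπ1 hπ2' (hρ y) (ltame_theta_congr hπ1 hd h1)
  -- the range of `Θ` is finite cyclic
  haveI : Finite (ltameInertia G P) := inferInstance
  haveI : Finite θ.range := Set.finite_range θ
  have hle : Θ.range ≤ θ.range := by
    rintro _ ⟨y, rfl⟩
    exact ⟨ρ' y, rfl⟩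
  haveI : Finite Θ.range := Finite.of_injective (Subgroup.inclusion hle)
    (Subgroup.inclusion_injective hle)
  obtain ⟨⟨g, ⟨t, rfl⟩⟩, hg⟩ := (isCyclic_subgroup_units Θ.range).exists_generator
  have hgen : ∀ x : J, ∃ n : ℕ, Θ x = Θ t ^ n := by
    intro x
    have h1 := hg ⟨Θ x, ⟨x, rfl⟩⟩
    have h2 : IsOfFinOrder (⟨Θ t, ⟨t, rfl⟩⟩ : Θ.range) := isOfFinOrder_of_finite _
    rw [← h2.mem_powers_iff_mem_zpowers] at h1
    obtain ⟨n, hn⟩ := h1
    refine ⟨n, ?_⟩
    have := congrArg (fun z : Θ.range => (z : (R ⧸ P)ˣ)) hn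
    simpa using this.symm
  refine ⟨Θ, t, fun y hy => ?_, hgen, fun s s' φ hφ hs' => ?_⟩
  · exact ltame_wild_pow_eq_one hPtop hfaith hq hqP (hker y hy)
  · obtain ⟨d, hd, hd'⟩ := hθ (ρ' s)
    obtain ⟨d', hd2, hd2'⟩ := hθ (ρ' s')
    have h1 : LtameTheta P π (ρ s') (d ^ q) := by
      rw [hs']
      exact ltame_theta_frob hP hπ1 hπ2' (hρ s) hd q hq.ne_zero φ hφ
    have h2 : d' - d ^ q ∈ P := ltame_theta_unique hP hπ2' hd2 h1
    apply Units.ext
    rw [Units.val_pow_eq_pow_val]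
    show ((θ (ρ' s') : (R ⧸ P)ˣ) : R ⧸ P) = ((θ (ρ' s) : (R ⧸ P)ˣ) : R ⧸ P) ^ q
    rw [hd', hd2', ← map_pow, Ideal.Quotient.eq]
    exact h2

/-- **Abstract tame inertia**, general exponent prime to `q`. -/
theorem wstr_abstract [IsDedekindDomain R] [P.IsPrime] (hP : P ≠ ⊥) [Finite G]
    (hfaith : ∀ σ : G, (∀ x : R, σ • x = x) → σ = 1) {q : ℕ} (hq : q.Prime)
    (hqP : (q : R) ∈ P) {J : Type*} [Group J] (ρ : J →* G) (hρ : ∀ y, LtameInert P (ρ y)) :
    ∃ t : J, ∀ (n : ℕ), Nat.Coprime q n → ∀ (A : Type) [Group A] (h : J →* A),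
      (∀ a : A, a ^ n = 1) → (∀ y, ρ y = 1 → h y = 1) →
      (∀ x, ∃ m : ℕ, h x = h t ^ m) ∧
      ∀ (t' : J) (φ : G), (∀ x : R, φ • x - x ^ q ∈ P) → ρ t' = φ * ρ t * φ⁻¹ →
        h t' = h t ^ q := by
  obtain ⟨Θ, t, hker, hgen, hfrob⟩ := wstr_exists_theta hP hfaith hq hqP ρ hρ
  refine ⟨t, ?_⟩
  intro n hqn A _ h hA hh
  -- the key: `h` kills the kernel of `Θ`
  have hK : ∀ y : J, Θ y = 1 → h y = 1 := by
    intro y hy
    obtain ⟨m, hm⟩ := hker y hy
    have h1 : h y ^ (q ^ m) = 1 := by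
      rw [← map_pow]
      exact hh _ (by rw [map_pow, hm])
    have h2 := pow_gcd_eq_one.mpr ⟨h1, hA (h y)⟩
    have h3 : Nat.gcd (q ^ m) n = 1 := Nat.Coprime.pow_left m hqn
    rwa [h3, pow_one] at h2
  have hK' : ∀ (x : J) (m : ℕ), Θ x = Θ t ^ m → h x = h t ^ m := by
    intro x m hx
    have h1 : h (x * (t ^ m)⁻¹) = 1 := by
      apply hK
      rw [map_mul, map_inv, map_pow, hx, mul_inv_cancel]
    rw [map_mul, map_inv, map_pow, mul_inv_eq_one] at h1
    exact h1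
  refine ⟨fun x => ?_, fun t' φ hφ ht' => ?_⟩
  · obtain ⟨m, hm⟩ := hgen x
    exact ⟨m, hK' x m hm⟩
  · exact hK' t' q (hfrob t t' φ hφ ht')

end Abs

section Global

/-- **Tame inertia, global form**, general exponent prime to `q`. -/
theorem wstr_global {q : ℕ} (hq : q.Prime) (A : ValuationSubring (AlgebraicClosure ℚ))
    (hA : A.LiesOverPrime q) (F : IntermediateField ℚ (AlgebraicClosure ℚ))
    [FiniteDimensional ℚ F] {J : Type*} [Group J]
    (r : J →* (AlgebraicClosure ℚ ≃ₐ[ℚ] AlgebraicClosure ℚ))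
    (hr : ∀ y, r y ∈ A.inertiaSubgroupIn ℚ) :
    ∃ t : J, ∀ (n : ℕ), Nat.Coprime q n → ∀ (B : Type) [Group B] (h : J →* B),
      (∀ a : B, a ^ n = 1) → (∀ y, r y ∈ F.fixingSubgroup → h y = 1) →
      (∀ x, ∃ m : ℕ, h x = h t ^ m) ∧
      ∀ (t' : J) (φ : AlgebraicClosure ℚ ≃ₐ[ℚ] AlgebraicClosure ℚ), A.IsFrobeniusAt φ q →
        r t' = φ * r t * φ⁻¹ → h t' = h t ^ q := by
  classical
  haveI : IsAlgClosure ℚ (AlgebraicClosure ℚ) := ⟨inferInstance, AlgebraicClosure.isAlgebraic ℚ⟩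
  haveI : Normal ℚ (AlgebraicClosure ℚ) := IsAlgClosure.normal ℚ (AlgebraicClosure ℚ)
  -- the normal closure
  let F' : IntermediateField ℚ (AlgebraicClosure ℚ) :=
    IntermediateField.normalClosure ℚ F (AlgebraicClosure ℚ)
  have hFF' : F ≤ F' := IntermediateField.le_normalClosure F
  haveI : Normal ℚ F' := normalClosure.normal ℚ F (AlgebraicClosure ℚ)
  haveI : FiniteDimensional ℚ F' := normalClosure.is_finiteDimensional ℚ F (AlgebraicClosure ℚ)
  haveI : NumberField F' := ⟨⟩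
  haveI : IsGalois ℚ F' := ⟨⟩
  haveI : Finite (F' ≃ₐ[ℚ] F') := inferInstance
  let P : Ideal (𝓞 F') := ltamePrime F' A
  have hP0 : P ≠ ⊥ := ltame_prime_ne_bot F' A hq hA
  have hqP : ((q : ℕ) : 𝓞 F') ∈ P := ltame_natCast_mem F' A hA
  have hfaith : ∀ σ : F' ≃ₐ[ℚ] F', (∀ x : 𝓞 F', σ • x = x) → σ = 1 := by
    intro σ hσ
    apply algEquiv_eq_of_toAlgHom_eq F'
    ext x
    have := hσ x
    simpa using congrArg (fun z : 𝓞 F' => (z : F')) this
  let ρ : J →* (F' ≃ₐ[ℚ] F') := (AlgEquiv.restrictNormalHom F').comp r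
  have hcomm : ∀ (g : AlgebraicClosure ℚ ≃ₐ[ℚ] AlgebraicClosure ℚ) (x : 𝓞 F'),
      intEmb F' ((AlgEquiv.restrictNormalHom F' g) • x) = g (intEmb F' x) := by
    intro g x
    exact AlgEquiv.restrictNormal_commutes g F' (x : F')
  have hρ : ∀ y, LtameInert P (ρ y) := by
    intro y x
    have e : intEmb F' (ρ y • x) = (r y) (intEmb F' x) := hcomm (r y) x
    rw [ltame_mem_prime, map_sub, e]
    exact ((mem_inertiaSubgroupIn_iff A (r y)).mp (hr y)).2 _ (intEmb_mem F' A x)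
  obtain ⟨t, ht⟩ := wstr_abstract (P := P) hP0 hfaith hq hqP ρ hρ
  refine ⟨t, fun n hqn B _ h hB hh => ?_⟩
  have hh' : ∀ y, ρ y = 1 → h y = 1 := by
    intro y hy
    apply hh
    rw [IntermediateField.mem_fixingSubgroup_iff]
    intro x hx
    have h1 := AlgEquiv.restrictNormal_commutes (r y) F' ⟨x, hFF' hx⟩
    have h2 : (r y).restrictNormal F' = 1 := hy
    rw [h2] at h1
    exact h1.symm
  obtain ⟨h1, h2⟩ := ht n hqn B h hB hh'
  refine ⟨h1, fun t' φ hφ ht' => ?_⟩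
  refine h2 t' (AlgEquiv.restrictNormalHom F' φ) ?_ ?_
  · intro x
    rw [ltame_mem_prime, map_sub, hcomm, map_pow]
    exact sub_pow_mem_nonunits_of_isFrobeniusAt A φ q hφ _ (intEmb_mem F' A x)
  · show AlgEquiv.restrictNormalHom F' (r t') = _
    rw [ht', map_mul, map_mul, map_inv]
    rfl

end Global

/-- **STR-tame.** -/
theorem stmtTameGen : StmtTameGen := by
  intro q hq n hqn V hV
  obtain ⟨F, hF, rfl⟩ := hV
  haveI := hF
  let r : ↥(inertiaQ q) →* (AlgebraicClosure ℚ ≃ₐ[ℚ] AlgebraicClosure ℚ) :=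
    (localGaloisToGlobal q).comp (inertiaQ q).subtype
  have hr : ∀ y, r y ∈ (padicPlace q).inertiaSubgroupIn ℚ := fun y => y.2
  obtain ⟨t, ht⟩ := wstr_global hq.out (padicPlace q) (lfrobex_liesOverPrime q) F r hr
  refine ⟨t, fun B _ h hB hh => ?_⟩
  obtain ⟨h1, h2⟩ := ht n hqn B h hB (fun y hy => hh y hy)
  refine ⟨h1, fun φ hφ hmem => ?_⟩
  refine h2 ⟨φ * (t : GQq q) * φ⁻¹, hmem⟩ (localGaloisToGlobal q φ) hφ ?_
  show localGaloisToGlobal q (φ * (t : GQq q) * φ⁻¹) = _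
  rw [map_mul, map_mul, map_inv]
  rfl

end Fermat.Agent.TW.W


end ZBTW_009_2

/-! ### bundled: `Fermat.Agent.TW.S.MinFinal` -/
section ZBTW_009_3
/-
TW-S / S-min (helper48): the unconditional form `stmtMin : StmtMin`
(`stmtMin_of` + tame inertia `TW.L.stmtTameGrp` + `TW.L.stmtDecFull`).
-/

set_option autoImplicit false

namespace Fermat.Agent.TW.S

/-- **S-min**, unconditional. -/
theorem stmtMin : StmtMin := stmtMin_of TW.L.stmtTameGrp TW.L.stmtDecFull

end Fermat.Agent.TW.S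


end ZBTW_009_3

/-! ### bundled: `Fermat.Agent.TW.S.SelCard` -/
section ZBTW_009_4
/-
TW-S, piece S-asm (helper54): THE ASSEMBLY.  The number of pairwise inequivalent deformations of
`ρ̄` to `k[ε]` of type `𝒟` is at most the order of the Selmer group.

* `sasm_main`            : generic form (any condition `𝒟` with cyclotomic determinant, unramified
                           outside `Smin ∪ Q`, unipotent on inertia at `Smin ∖ p`, whose classes at
                           `p` lie in `Lp`);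
* `stmtSelCardFlat`      : the flat case (`Lp` = any subspace containing the flat classes);
* `stmtSelCardOrd_of`    : the ordinary case, from S-ord.
-/

set_option autoImplicit false
set_option linter.unusedSectionVars false
set_option linter.unusedVariables false

noncomputable section

namespace Fermat.Agent.TW.S

open CategoryTheory groupCohomology IsLocalRing
open Fermat.Agent.PT Fermat.Agent.PT.B Fermat.Agent.S53 Fermat.Agent.TW.L ExtCitation

section Coc

variable {𝒪 : Type} [CommRing 𝒪] [IsLocalRing 𝒪] (p : ℕ) [Fact p.Prime]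
  [CharP (ResidueField 𝒪) p] {ρbar : ResidualGaloisRep (ResidueField 𝒪)}
  (D : RigidDatum 𝒪 ρbar)

lemma sasm_ad0Incl_injective : Function.Injective (ad0Incl p ρbar).hom := by
  intro x y h
  apply ad0Val_injective p ρbar
  have := congrArg (adVal p ρbar) h
  simpa using this

/-- the trace-zero cocycle of a deformation with cyclotomic determinant -/
lemma sasm_exists_coc0 (ρ : GaloisRepAdic (DualNumber (ResidueField 𝒪)))
    (c : GQ → (adRep p ρbar).V) (hc : IsCocOf p D ρ c) (hdet : ρ.DetIsCyclotomic p) :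
    ∃ c0 : cocycles₁ (ad0Rep p ρbar),
      (fun σ => (ad0Incl p ρbar).hom ((c0 : GQ → (ad0Rep p ρbar).V) σ)) = c := by
  have htr := stmtTrace 𝒪 p ρbar D ρ c hc hdet
  have hcoc := (stmtCoc 𝒪 p ρbar D ρ c hc).1
  have hex : ∀ σ : GQ, ∃ x : (ad0Rep p ρbar).V, (ad0Incl p ρbar).hom x = c σ := by
    intro σ
    obtain ⟨x, hx⟩ := exists_ad0Val_eq p ρbar (adVal p ρbar (c σ)) (htr σ)
    refine ⟨x, ?_⟩
    apply adVal_injective p ρbar
    rw [adVal_ad0Incl, hx]
  choose f hf using hex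
  have hmem : f ∈ cocycles₁ (ad0Rep p ρbar) := by
    rw [mem_cocycles₁_iff]
    intro g h
    apply sasm_ad0Incl_injective p
    rw [map_add, hf, hf, hcoc g h, ← hf h]
    rfl
  exact ⟨⟨f, hmem⟩, funext hf⟩

end Coc

section Loc

variable {𝒪 : Type} [CommRing 𝒪] [IsLocalRing 𝒪] (p : ℕ) [Fact p.Prime]
  [CharP (ResidueField 𝒪) p] {ρbar : ResidualGaloisRep (ResidueField 𝒪)}
  (D : RigidDatum 𝒪 ρbar)
  (ρ : GaloisRepAdic (DualNumber (ResidueField 𝒪))) (c0 : cocycles₁ (ad0Rep p ρbar))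
  (hc : IsCocOf p D ρ (fun σ => (ad0Incl p ρbar).hom ((c0 : GQ → (ad0Rep p ρbar).V) σ)))

/-- `ad⁰` is trivial on `Gal(ℚ̄/F)` for a finite `F/ℚ`. -/
lemma sasm_ad0_smooth (ρbar : ResidualGaloisRep (ResidueField 𝒪)) :
    ∃ F : QbarField, FiniteDimensional ℚ F ∧
      ∀ s ∈ F.fixingSubgroup, (ad0Rep p ρbar).ρ s = 1 := by
  obtain ⟨F, hF, h⟩ := ρbar.factorsThroughFiniteLevel
  refine ⟨F, hF, fun s hs => ?_⟩
  have h1 : ρbar.ρ s = 1 := h s (fun x hx => (IntermediateField.mem_fixingSubgroup_iff F s).1 hs x hx)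
  have h2 : ρbar.ρ s⁻¹ = 1 :=
    h s⁻¹ (fun x hx => (IntermediateField.mem_fixingSubgroup_iff F s⁻¹).1
      (F.fixingSubgroup.inv_mem hs) x hx)
  apply LinearMap.ext
  intro x
  apply ad0Val_injective p ρbar
  rw [ad0Val_ρ, h1, h2, one_mul, mul_one]
  rfl

include hc in
/-- `c0` is constant modulo `Gal(ℚ̄/F)` for a finite `F/ℚ`. -/
lemma sasm_coc0_level : ∃ F : QbarField, FiniteDimensional ℚ F ∧
    ∀ g s : GQ, s ∈ F.fixingSubgroup →
      (c0 : GQ → (ad0Rep p ρbar).V) (g * s) = (c0 : GQ → (ad0Rep p ρbar).V) g := by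
  obtain ⟨F, hF, h⟩ := (stmtCoc 𝒪 p ρbar D ρ _ hc).2
  exact ⟨F, hF, fun g s hs => sasm_ad0Incl_injective p (h g s hs)⟩

include hc in
/-- `c0` is a level cocycle for `towerS T` if `ρ` is unramified outside `T`. -/
lemma sasm_coc0_isLevel [Finite (ResidueField 𝒪)] (T : Finset Nat.Primes)
    (hunr : ∀ q : Nat.Primes, q ∉ T → ρ.IsUnramifiedAt (q : ℕ)) :
    IsLevel₁ (towerS T) (c0 : GQ → (ad0Rep p ρbar).V) := by
  obtain ⟨U, hU, h⟩ := stmtLev 𝒪 p ρbar D ρ _ T hc hunr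
  exact ⟨U, hU, fun g s hs => sasm_ad0Incl_injective p (h g s hs)⟩

/-- the restriction of the class to `G_{ℚ_q}` is a level class -/
lemma sasm_loc_lev (q : ℕ) [Fact q.Prime] (c0 : cocycles₁ (ad0Rep p ρbar))
    (hc : IsCocOf p D ρ (fun σ => (ad0Incl p ρbar).hom ((c0 : GQ → (ad0Rep p ρbar).V) σ))) :
    (groupCohomology.map (localGaloisToGlobal q) (𝟙 (locRep q (ad0Rep p ρbar))) 1).hom
        ((H1π (ad0Rep p ρbar)).hom c0) ∈ levH1 (towerLoc q) (locRep q (ad0Rep p ρbar)) := by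
  rw [sasm_locRes_H1π, mem_levH1_iff]
  exact ⟨sasmRes q (ad0Rep p ρbar) c0,
    sasm_isLevel_res q (ad0Rep p ρbar) c0 (sasm_coc0_level p D ρ c0 hc), rfl⟩

/-- at `q ≠ p` where `ρ̄` is ramified and `ρ` is unipotent on inertia, the restriction of the
class is unramified -/
lemma sasm_loc_unr (hp2 : p ≠ 2) (q : ℕ) [Fact q.Prime] (hq : q ≠ p)
    (c0 : cocycles₁ (ad0Rep p ρbar))
    (hc : IsCocOf p D ρ (fun σ => (ad0Incl p ρbar).hom ((c0 : GQ → (ad0Rep p ρbar).V) σ)))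
    (hdet : ρ.DetIsCyclotomic p)
    (hram : ¬ ρbar.IsUnramifiedAt q) (hunip : ρ.IsUnipotentOnInertiaAt q) :
    (groupCohomology.map (localGaloisToGlobal q) (𝟙 (locRep q (ad0Rep p ρbar))) 1).hom
        ((H1π (ad0Rep p ρbar)).hom c0) ∈ unrH1 q (locRep q (ad0Rep p ρbar)) := by
  obtain ⟨x, hx⟩ := stmtMin 𝒪 p ρbar D ρ _ q hp2 hq hc
    (stmtTrace 𝒪 p ρbar D ρ _ hc hdet)
    (fun σ hσ => hunip (padicPlace q) (lfrobex_liesOverPrime q) σ hσ)
    (stmtConj (ResidueField 𝒪) ρbar q hram)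
  rw [sasm_locRes_H1π, mem_unrH1]
  refine ⟨sasmSubCob (locRep q (ad0Rep p ρbar)) (sasmRes q (ad0Rep p ρbar) c0) x, ?_, ?_, ?_⟩
  · exact sasm_isLevel_subCob (locRep q (ad0Rep p ρbar)) (towerLoc q) _ x
      (sasm_smooth_loc q (ad0Rep p ρbar) (sasm_ad0_smooth p ρbar))
      (sasm_isLevel_res q (ad0Rep p ρbar) c0 (sasm_coc0_level p D ρ c0 hc))
  · intro τ hτ
    rw [sasmSubCob_apply, sasmRes_apply, sub_eq_zero]
    apply sasm_ad0Incl_injective p
    rw [hx τ hτ]
    rfl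
  · exact sasm_H1π_subCob (locRep q (ad0Rep p ρbar)) (sasmRes q (ad0Rep p ρbar) c0) x

end Loc

section Main

variable {𝒪 : Type} [CommRing 𝒪] [IsDomain 𝒪] [IsDiscreteValuationRing 𝒪]
  [IsAdicComplete (maximalIdeal 𝒪) 𝒪] (p : ℕ) [Fact p.Prime]
  [CharP (ResidueField 𝒪) p] [Finite (ResidueField 𝒪)]
  {ρbar : ResidualGaloisRep (ResidueField 𝒪)} (D : RigidDatum 𝒪 ρbar)

/-- the local condition at `q`, for the class of a deformation -/
lemma sasm_loc_mem (hp2 : p ≠ 2) (Smin : Finset ℕ)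
    (hSmin : ∀ q : ℕ, q.Prime → q ≠ p → (q ∈ Smin ↔ ¬ ρbar.IsUnramifiedAt q))
    (Lp : Submodule (ZMod p) (H1 (locRep p (ad0Rep p ρbar))))
    (ρ : GaloisRepAdic (DualNumber (ResidueField 𝒪))) (c0 : cocycles₁ (ad0Rep p ρbar))
    (hc : IsCocOf p D ρ (fun σ => (ad0Incl p ρbar).hom ((c0 : GQ → (ad0Rep p ρbar).V) σ)))
    (hdet : ρ.DetIsCyclotomic p)
    (hmin : ∀ q ∈ Smin, q.Prime → q ≠ p → ρ.IsUnipotentOnInertiaAt q)
    (hLp : (groupCohomology.map (localGaloisToGlobal p) (𝟙 (locRep p (ad0Rep p ρbar))) 1).hom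
        ((H1π (ad0Rep p ρbar)).hom c0) ∈ Lp)
    (q : ℕ) [hq : Fact q.Prime] :
    (groupCohomology.map (localGaloisToGlobal q) (𝟙 (locRep q (ad0Rep p ρbar))) 1).hom
        ((H1π (ad0Rep p ρbar)).hom c0) ∈ locCond p ρbar Smin Lp q := by
  by_cases h : q = p
  · subst h
    have h1 : locCond q ρbar Smin Lp q = Lp := locCond_self q ρbar Smin Lp
    rw [h1]
    exact hLp
  · by_cases hm : q ∈ Smin
    · rw [locCond_of_mem p ρbar Smin Lp q h hm]
      exact sasm_loc_unr p D ρ hp2 q h c0 hc hdet ((hSmin q hq.out h).1 hm) (hmin q hm hq.out h)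
    · rw [locCond_of_not_mem p ρbar Smin Lp q h hm]
      exact sasm_loc_lev p D ρ q c0 hc

/-- **S-asm, generic form.** -/
theorem sasm_main (hp2 : p ≠ 2) (Smin Q : Finset ℕ)
    (hSmin : ∀ q : ℕ, q.Prime → q ≠ p → (q ∈ Smin ↔ ¬ ρbar.IsUnramifiedAt q))
    (Lp : Submodule (ZMod p) (H1 (locRep p (ad0Rep p ρbar))))
    (𝒟 : ∀ ⦃A : Type⦄ [CommRing A] [IsLocalRing A] [Algebra 𝒪 A], GaloisRepAdic A → Prop)
    (h𝒟det : ∀ ρ : GaloisRepAdic (DualNumber (ResidueField 𝒪)),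
      @𝒟 (DualNumber (ResidueField 𝒪)) _ _ (dnAlg 𝒪) ρ → ρ.DetIsCyclotomic p)
    (h𝒟unr : ∀ ρ : GaloisRepAdic (DualNumber (ResidueField 𝒪)),
      @𝒟 (DualNumber (ResidueField 𝒪)) _ _ (dnAlg 𝒪) ρ →
      ∀ q : ℕ, q.Prime → q ∉ Smin ∪ Q → ρ.IsUnramifiedAt q)
    (h𝒟min : ∀ ρ : GaloisRepAdic (DualNumber (ResidueField 𝒪)),
      @𝒟 (DualNumber (ResidueField 𝒪)) _ _ (dnAlg 𝒪) ρ →
      ∀ q ∈ Smin, q.Prime → q ≠ p → ρ.IsUnipotentOnInertiaAt q)
    (h𝒟p : ∀ (ρ : GaloisRepAdic (DualNumber (ResidueField 𝒪))) (c : cocycles₁ (ad0Rep p ρbar)),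
      IsCocOf p D ρ (fun σ => (ad0Incl p ρbar).hom ((c : GQ → (ad0Rep p ρbar).V) σ)) →
      @𝒟 (DualNumber (ResidueField 𝒪)) _ _ (dnAlg 𝒪) ρ →
      (groupCohomology.map (localGaloisToGlobal p) (𝟙 (locRep p (ad0Rep p ρbar))) 1).hom
        ((H1π (ad0Rep p ρbar)).hom c) ∈ Lp)
    (hfin : Finite ↥(selGroup p ρbar Smin Lp (primesOf (Smin ∪ Q)))) :
    TwTanCard 𝒪 ρbar 𝒟 (Nat.card ↥(selGroup p ρbar Smin Lp (primesOf (Smin ∪ Q)))) := by
  intro ι _ t ht
  have hex : ∀ i : ι, ∃ c0 : cocycles₁ (ad0Rep p ρbar),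
      IsCocOf p D (t i).1
        (fun σ => (ad0Incl p ρbar).hom ((c0 : GQ → (ad0Rep p ρbar).V) σ)) := by
    intro i
    obtain ⟨c, hc⟩ := stmtFrame 𝒪 p ρbar D (t i).1 (t i).2.2
    obtain ⟨c0, hc0⟩ := sasm_exists_coc0 p D (t i).1 c hc (h𝒟det _ (t i).2.1)
    exact ⟨c0, by rw [hc0]; exact hc⟩
  choose c0 hc0 using hex
  have hmem : ∀ i, (H1π (ad0Rep p ρbar)).hom (c0 i) ∈
      selGroup p ρbar Smin Lp (primesOf (Smin ∪ Q)) := by
    intro i
    refine ⟨?_, ?_⟩
    · rw [SetLike.mem_coe, mem_levH1_iff]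
      refine ⟨c0 i, sasm_coc0_isLevel p D _ (c0 i) (hc0 i) _ (fun q hq => ?_), rfl⟩
      refine h𝒟unr _ (t i).2.1 q q.2 (fun hmem => hq ?_)
      exact Finset.mem_subtype.2 hmem
    · rw [SetLike.mem_coe, mem_selmer_iff]
      intro v
      have : Fact ((v : Nat.Primes) : ℕ).Prime := ⟨(v : Nat.Primes).2⟩
      exact sasm_loc_mem p D hp2 Smin hSmin Lp (t i).1 (c0 i) (hc0 i) (h𝒟det _ (t i).2.1)
        (h𝒟min _ (t i).2.1) (h𝒟p _ (c0 i) (hc0 i) (t i).2.1) ((v : Nat.Primes) : ℕ)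
  refine Nat.card_le_card_of_injective
    (fun i => (⟨(H1π (ad0Rep p ρbar)).hom (c0 i), hmem i⟩ :
      ↥(selGroup p ρbar Smin Lp (primesOf (Smin ∪ Q))))) ?_
  intro i j hij
  apply ht
  have h1 : H1π (ad0Rep p ρbar) (c0 i) = H1π (ad0Rep p ρbar) (c0 j) := congrArg Subtype.val hij
  rw [H1π_eq_iff] at h1
  obtain ⟨x, hx⟩ := h1
  refine stmtIso 𝒪 p ρbar D _ _ _ _ (hc0 i) (hc0 j) ⟨(ad0Incl p ρbar).hom x, fun σ => ?_⟩
  have h2 := congrFun hx σ
  rw [← map_sub]
  have h3 : ((c0 i : GQ → (ad0Rep p ρbar).V) σ) - ((c0 j : GQ → (ad0Rep p ρbar).V) σ) =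
      (ad0Rep p ρbar).ρ σ x - x := h2.symm
  rw [h3, map_sub]
  rfl

/-- **S-asm (flat)**, unconditional. -/
theorem stmtSelCardFlat : StmtSelCardFlat := by
  intro 𝒪 _ _ _ _ p _ _ _ ρbar D hp2 Smin Q hpS hSmin Lp hflat hfin
  exact sasm_main p D hp2 Smin Q hSmin Lp (condFlat 𝒪 p Smin Q)
    (fun ρ h => h.1.1) (fun ρ h => h.1.2.2) (fun ρ h => h.2)
    (fun ρ c hc h => hflat ρ c hc h.1.1 h.1.2.1) hfin

/-- **S-asm (ord)**, from S-ord. -/
theorem stmtSelCardOrd_of (hord : StmtOrd) : StmtSelCardOrd := by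
  intro 𝒪 _ _ _ _ p _ _ _ ρbar hp2 habs Smin Q hpS hSmin Lbar hLbar hfin
  obtain ⟨D⟩ := nonempty_rigidDatum (𝒪 := 𝒪) ρbar habs
  refine sasm_main p D hp2 Smin Q hSmin (ordH1 p ρbar Lbar p) (condOrd 𝒪 p Smin Q)
    (fun ρ h => h.1.1) (fun ρ h => h.1.2.2) (fun ρ h => h.2) (fun ρ c hc h => ?_) hfin
  obtain ⟨x, hx⟩ := hord 𝒪 p ρbar D ρ _ Lbar hp2 hc h.1.1 h.1.2.1 hLbar
  rw [sasm_locRes_H1π, mem_ordH1]
  refine ⟨sasmSubCob (locRep p (ad0Rep p ρbar)) (sasmRes p (ad0Rep p ρbar) c) x, ?_, ?_, ?_⟩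
  · exact sasm_isLevel_subCob (locRep p (ad0Rep p ρbar)) (towerLoc p) _ x
      (sasm_smooth_loc p (ad0Rep p ρbar) (sasm_ad0_smooth p ρbar))
      (sasm_isLevel_res p (ad0Rep p ρbar) c (sasm_coc0_level p D ρ c hc))
  · intro τ
    obtain ⟨n, hn, hxn⟩ := hx τ
    have h1 : (sasmSubCob (locRep p (ad0Rep p ρbar)) (sasmRes p (ad0Rep p ρbar) c) x :
        GQq p → (ad0Rep p ρbar).V) τ = n := by
      rw [sasmSubCob_apply, sasmRes_apply]
      apply sasm_ad0Incl_injective p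
      rw [map_sub, hxn]
      have h2 : (ad0Incl p ρbar).hom
          ((locRep p (ad0Rep p ρbar)).ρ τ x - x) =
          (adRep p ρbar).ρ (localGaloisToGlobal p τ) ((ad0Incl p ρbar).hom x) -
            (ad0Incl p ρbar).hom x := by
        rw [map_sub]
        rfl
      rw [h2]
      abel
    rw [h1]
    exact hn
  · exact sasm_H1π_subCob (locRep p (ad0Rep p ρbar)) (sasmRes p (ad0Rep p ρbar) c) x

end Main

end Fermat.Agent.TW.S

end


end ZBTW_009_4

/-! ### bundled: `Fermat.Agent.RT.K3.SelTriv` -/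
section ZBTW_009_5
/-
K-machine, piece RT-K3 / K3-S (helper54): the Selmer side at the TRIVIAL primes.

A deformation `ρ` of `ρ̄` to `k[ε]` which is `±1` on the decomposition groups at `r`
(`rtk3TrivAt ρ r`) has a cocycle which VANISHES on `G_{ℚ_r}` (as a function, for every cocycle of
`ρ`), hence its class restricts to `0` in `H¹(G_{ℚ_r}, ad⁰)`.

* `rtk3s_of_liftMat_eq_neg_one` : `(1 + εc(σ))ρ̄(σ) = -1 ⇒ ρ̄(σ) = -1 ∧ c(σ) = 0`;
* `rtk3s_rho_eq_neg_one_iff`    : `ρ σ = -1 ↔ (1 + εc(σ))ρ̄(σ) = -1`;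
* `rtk3s_coc_eq_zero`           : `c(σ) = 0` for `σ` in a decomposition group at `r`;
* `rtk3s_loc_zero`              : the restriction of the class to `G_{ℚ_r}` is `0`.
-/

set_option autoImplicit false
set_option linter.unusedSectionVars false
set_option linter.unusedVariables false

noncomputable section

namespace Fermat.Agent.RT

open CategoryTheory groupCohomology IsLocalRing
open Fermat.Agent.PT Fermat.Agent.PT.B Fermat.Agent.S53 Fermat.Agent.TW Fermat.Agent.TW.S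
  Fermat.Agent.TW.L ExtCitation

section Triv

variable {𝒪 : Type} [CommRing 𝒪] [IsLocalRing 𝒪] (p : ℕ) [Fact p.Prime]
  [CharP (ResidueField 𝒪) p] {ρbar : ResidualGaloisRep (ResidueField 𝒪)}
  (D : RigidDatum 𝒪 ρbar)
  {ρ : GaloisRepAdic (DualNumber (ResidueField 𝒪))} {c : GQ → (adRep p ρbar).V}

lemma rtk3s_dnFst_neg (M : M2 (DualNumber (ResidueField 𝒪))) : dnFst (-M) = -dnFst M := by
  ext i j
  simp [dnFst]

lemma rtk3s_dnSnd_neg (M : M2 (DualNumber (ResidueField 𝒪))) : dnSnd (-M) = -dnSnd M := by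
  ext i j
  simp [dnSnd]

/-- where the matrix form is `-1`, `ρ̄` is `-1` and the cocycle vanishes -/
lemma rtk3s_of_liftMat_eq_neg_one (σ : GQ) (h1 : liftMat p D c σ = -1) :
    ρbar.ρ σ = -1 ∧ c σ = 0 := by
  have h0 : D.ρm σ = -1 := by
    rw [← dnFst_liftMat p D c σ, h1, rtk3s_dnFst_neg, dnFst_one]
  have hs : adMat p D (c σ) * D.ρm σ = 0 := by
    rw [← dnSnd_liftMat p D c σ, h1, rtk3s_dnSnd_neg, dnSnd_one, neg_zero]
  rw [h0, mul_neg, mul_one, neg_eq_zero] at hs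
  refine ⟨?_, (adMat_eq_zero_iff p D _).1 hs⟩
  apply (LinearMap.toMatrix D.b D.b).injective
  rw [toMatrix_rho, h0, map_neg]
  congr 1
  exact (LinearMap.toMatrix_one D.b).symm

lemma rtk3s_rho_eq_neg_one_iff (h : IsCocOf p D ρ c) (σ : GQ) :
    ρ.ρ σ = -1 ↔ liftMat p D c σ = -1 := by
  obtain ⟨e, he⟩ := isCocOf_conj p D h
  rw [he σ]
  have h1 : e.symm.conj (-1 : Module.End _ _) = -1 := by
    rw [map_neg]
    congr 1
    ext x
    simp [LinearEquiv.conj_apply]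
  constructor
  · intro h2
    rw [← h1] at h2
    have h3 := e.symm.conj.injective h2
    have h4 := congrArg LinearMap.toMatrix' h3
    rw [LinearMap.toMatrix'_toLin'] at h4
    rw [h4, map_neg]
    congr 1
    exact LinearMap.toMatrix'_one
  · intro h2
    rw [h2, map_neg, Matrix.toLin'_one]
    exact h1

/-- **the cocycle of a deformation which is `±1` on the decomposition groups at `r` vanishes on
the decomposition groups at `r`** -/
lemma rtk3s_coc_eq_zero (h : IsCocOf p D ρ c) (r : ℕ) (htriv : rtk3TrivAt ρ r)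
    (P : ValuationSubring (AlgebraicClosure ℚ)) (hP : P.LiesOverPrime r) (σ : GQ)
    (hσ : σ ∈ P.decompositionSubgroup ℚ) : c σ = 0 := by
  rcases htriv P hP σ hσ with h1 | h1
  · exact (sunr_of_liftMat_eq_one p D σ ((isCocOf_rho_eq_one_iff p D h σ).1 h1)).2
  · exact (rtk3s_of_liftMat_eq_neg_one p D σ ((rtk3s_rho_eq_neg_one_iff p D h σ).1 h1)).2

/-- the same for `ρ̄`: it is `±1` on the decomposition groups at `r` -/
lemma rtk3s_rhobar_triv (h : IsCocOf p D ρ c) (r : ℕ) (htriv : rtk3TrivAt ρ r)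
    (P : ValuationSubring (AlgebraicClosure ℚ)) (hP : P.LiesOverPrime r) (σ : GQ)
    (hσ : σ ∈ P.decompositionSubgroup ℚ) : ρbar.ρ σ = 1 ∨ ρbar.ρ σ = -1 := by
  rcases htriv P hP σ hσ with h1 | h1
  · exact Or.inl (sunr_of_liftMat_eq_one p D σ ((isCocOf_rho_eq_one_iff p D h σ).1 h1)).1
  · exact Or.inr
      (rtk3s_of_liftMat_eq_neg_one p D σ ((rtk3s_rho_eq_neg_one_iff p D h σ).1 h1)).1

/-- **K3-S, the local condition at a trivial prime**: the class of the deformation restricts to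
`0` in `H¹(G_{ℚ_r}, ad⁰)`. -/
lemma rtk3s_loc_zero (r : ℕ) [Fact r.Prime] (c0 : cocycles₁ (ad0Rep p ρbar))
    (hc : IsCocOf p D ρ (fun σ => (ad0Incl p ρbar).hom ((c0 : GQ → (ad0Rep p ρbar).V) σ)))
    (htriv : rtk3TrivAt ρ r) :
    (groupCohomology.map (localGaloisToGlobal r) (𝟙 (locRep r (ad0Rep p ρbar))) 1).hom
        ((H1π (ad0Rep p ρbar)).hom c0) = 0 := by
  rw [sasm_locRes_H1π]
  have h0 : sasmRes r (ad0Rep p ρbar) c0 = 0 := by
    apply Subtype.ext
    funext τ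
    show (sasmRes r (ad0Rep p ρbar) c0 : GQq r → (ad0Rep p ρbar).V) τ = 0
    rw [sasmRes_apply]
    apply sasm_ad0Incl_injective p
    rw [map_zero]
    exact rtk3s_coc_eq_zero p D hc r htriv (padicPlace r) (lfrobex_liesOverPrime r) _
      (localGaloisToGlobal_mem_decompositionSubgroup r τ)
  rw [h0, map_zero]

end Triv

end Fermat.Agent.RT

end


end ZBTW_009_5

/-! ### bundled: `Fermat.Agent.TW.W.GBIrrStrTheta` -/
section ZBTW_009_6
/-
TW-W / IRR-STR (helper48), part 2: the tame character of the inertia group, global form, WITH its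
kernel (wild inertia), and the good field cut out by a representation of exponent prime to `p`.

* `wgis_global_theta` : `Θ : J → B`, `B` a finite commutative group without `q`-torsion, whose
  kernel consists of elements of `q`-power order modulo `Gal(ℚ̄/F)`, with cyclic image, and
  `Θ(φ s φ⁻¹) = Θ(s) ^ q` (from helper86's `wstr_exists_theta` = my `ltame_*`).
* `wgisT p Ψ` : the fixed field of `ker Ψ ⊓ ker ω`; `wgis_isGoodField`: it is a good field if `Ψ` is
  level and `Ψ(τ) ^ E = 1` for all `τ`, with `p ∤ E`.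
-/

set_option autoImplicit false
set_option linter.style.haveILetI false
set_option linter.unusedSectionVars false

open NumberField

noncomputable section

namespace Fermat.Agent.TW.W

open Fermat.Agent.PT Fermat.Agent.PT.B Fermat.Agent.Cheb Fermat.Agent.TW.L ExtCitation

section Global

/-- **The tame character with its kernel, global form.** -/
theorem wgis_global_theta {q : ℕ} (hq : q.Prime) (A : ValuationSubring (AlgebraicClosure ℚ))
    (hA : A.LiesOverPrime q) (F : IntermediateField ℚ (AlgebraicClosure ℚ))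
    [FiniteDimensional ℚ F] {J : Type} [Group J]
    (r : J →* (AlgebraicClosure ℚ ≃ₐ[ℚ] AlgebraicClosure ℚ))
    (hr : ∀ y, r y ∈ A.inertiaSubgroupIn ℚ) :
    ∃ (B : Type) (_ : CommGroup B) (_ : Finite B) (Θ : J →* B) (t : J),
      (∀ b : B, b ^ q = 1 → b = 1) ∧
      (∀ y : J, Θ y = 1 → ∃ m : ℕ, r y ^ (q ^ m) ∈ F.fixingSubgroup) ∧
      (∀ x : J, ∃ n : ℕ, Θ x = Θ t ^ n) ∧
      (∀ (s s' : J) (φ : AlgebraicClosure ℚ ≃ₐ[ℚ] AlgebraicClosure ℚ), A.IsFrobeniusAt φ q →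
        r s' = φ * r s * φ⁻¹ → Θ s' = Θ s ^ q) := by
  classical
  haveI : IsAlgClosure ℚ (AlgebraicClosure ℚ) := ⟨inferInstance, AlgebraicClosure.isAlgebraic ℚ⟩
  haveI : Normal ℚ (AlgebraicClosure ℚ) := IsAlgClosure.normal ℚ (AlgebraicClosure ℚ)
  -- the normal closure
  let F' : IntermediateField ℚ (AlgebraicClosure ℚ) :=
    IntermediateField.normalClosure ℚ F (AlgebraicClosure ℚ)
  have hFF' : F ≤ F' := IntermediateField.le_normalClosure F
  haveI : Normal ℚ F' := normalClosure.normal ℚ F (AlgebraicClosure ℚ)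
  haveI : FiniteDimensional ℚ F' := normalClosure.is_finiteDimensional ℚ F (AlgebraicClosure ℚ)
  haveI : NumberField F' := ⟨⟩
  haveI : IsGalois ℚ F' := ⟨⟩
  haveI : Finite (F' ≃ₐ[ℚ] F') := inferInstance
  let P : Ideal (𝓞 F') := ltamePrime F' A
  have hP0 : P ≠ ⊥ := ltame_prime_ne_bot F' A hq hA
  have hqP : ((q : ℕ) : 𝓞 F') ∈ P := ltame_natCast_mem F' A hA
  have hfaith : ∀ σ : F' ≃ₐ[ℚ] F', (∀ x : 𝓞 F', σ • x = x) → σ = 1 := by
    intro σ hσ
    apply algEquiv_eq_of_toAlgHom_eq F'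
    ext x
    have := hσ x
    simpa using congrArg (fun z : 𝓞 F' => (z : F')) this
  let ρ : J →* (F' ≃ₐ[ℚ] F') := (AlgEquiv.restrictNormalHom F').comp r
  have hcomm : ∀ (g : AlgebraicClosure ℚ ≃ₐ[ℚ] AlgebraicClosure ℚ) (x : 𝓞 F'),
      intEmb F' ((AlgEquiv.restrictNormalHom F' g) • x) = g (intEmb F' x) := by
    intro g x
    exact AlgEquiv.restrictNormal_commutes g F' (x : F')
  have hρ : ∀ y, LtameInert P (ρ y) := by
    intro y x
    have e : intEmb F' (ρ y • x) = (r y) (intEmb F' x) := hcomm (r y) x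
    rw [ltame_mem_prime, map_sub, e]
    exact ((mem_inertiaSubgroupIn_iff A (r y)).mp (hr y)).2 _ (intEmb_mem F' A x)
  obtain ⟨Θ, t, hker, hgen, hfrob⟩ := wstr_exists_theta (P := P) hP0 hfaith hq hqP ρ hρ
  haveI : Finite (𝓞 F' ⧸ P) := Ideal.finiteQuotientOfFreeOfNeBot P hP0
  refine ⟨(𝓞 F' ⧸ P)ˣ, inferInstance, inferInstance, Θ, t, ?_, ?_, hgen, ?_⟩
  · intro b hb
    haveI : Fact q.Prime := ⟨hq⟩
    haveI hchar : CharP (𝓞 F' ⧸ P) q := (CharP.charP_iff_prime_eq_zero hq).2 (by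
      rw [← map_natCast (Ideal.Quotient.mk P)]
      exact Ideal.Quotient.eq_zero_iff_mem.2 hqP)
    have h1 : ((b : 𝓞 F' ⧸ P) - 1) ^ q = 0 := by
      rw [sub_pow_char, one_pow, ← Units.val_pow_eq_pow_val, hb, Units.val_one, sub_self]
    have h2 : (b : 𝓞 F' ⧸ P) - 1 = 0 := (pow_eq_zero_iff hq.ne_zero).1 h1
    exact Units.ext (sub_eq_zero.1 h2)
  · intro y hy
    obtain ⟨m, hm⟩ := hker y hy
    refine ⟨m, ?_⟩
    rw [IntermediateField.mem_fixingSubgroup_iff]
    intro x hx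
    have h1 := AlgEquiv.restrictNormal_commutes (r y ^ (q ^ m)) F' ⟨x, hFF' hx⟩
    have h2 : (r y ^ (q ^ m)).restrictNormal F' = 1 := by
      have h3 : AlgEquiv.restrictNormalHom F' (r y ^ (q ^ m)) = 1 := by
        rw [map_pow]
        exact hm
      exact h3
    rw [h2] at h1
    exact h1.symm
  · intro s s' φ hφ hs'
    refine hfrob s s' (AlgEquiv.restrictNormalHom F' φ) ?_ ?_
    · intro x
      rw [ltame_mem_prime, map_sub, hcomm, map_pow]
      exact sub_pow_mem_nonunits_of_isFrobeniusAt A φ q hφ _ (intEmb_mem F' A x)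
    · show AlgEquiv.restrictNormalHom F' (r s') = _
      rw [hs', map_mul, map_mul, map_inv]
      rfl

end Global

/-! ### The good field cut out by a representation of exponent prime to `p` -/

section Good

variable (p : ℕ) [Fact p.Prime] {M : Type*} [Monoid M]

/-- `ker Ψ ⊓ ker ω` -/
def wgisH (Ψ : GQq p →* M) : Subgroup (GQq p) := Ψ.ker ⊓ (gbOmega p).ker

lemma wgis_mem_H (Ψ : GQq p →* M) (σ : GQq p) :
    σ ∈ wgisH p Ψ ↔ Ψ σ = 1 ∧ cycloChar p (localGaloisToGlobal p σ) = 1 := Iff.rfl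

instance wgisH_normal (Ψ : GQq p →* M) : (wgisH p Ψ).Normal := by
  unfold wgisH
  infer_instance

/-- the field cut out by `Ψ` and `ω` -/
def wgisT (Ψ : GQq p →* M) : IntermediateField ℚ_[p] (PadicAlgCl p) :=
  IntermediateField.fixedField (wgisH p Ψ)

/-- `ker Ψ ⊓ ker ω` contains `Gal(ℚ̄_p/E)` for a finite extension `E/ℚ_p`. -/
theorem wgis_exists_le (Ψ : GQq p →* M)
    (hΨ : ∃ U ∈ (towerLoc p).lev, ∀ s ∈ U, Ψ s = 1) :
    ∃ E : IntermediateField ℚ_[p] (PadicAlgCl p), FiniteDimensional ℚ_[p] E ∧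
      E.fixingSubgroup ≤ wgisH p Ψ := by
  obtain ⟨_, ⟨F, hF, rfl⟩, hU⟩ := hΨ
  haveI := hF
  haveI : NeZero p := ⟨(Fact.out : p.Prime).ne_zero⟩
  refine ⟨localField p (F ⊔ cycloField p),
    stmtLocalFinite p _ (IntermediateField.finiteDimensional_sup F (cycloField p)),
    fun σ hσ => ?_⟩
  have h1 : localGaloisToGlobal p σ ∈ (F ⊔ cycloField p).fixingSubgroup :=
    (stmtLocalLevel p _ σ).2 hσ
  rw [IntermediateField.fixingSubgroup_sup] at h1
  exact ⟨MonoidHom.mem_ker.2 (hU σ h1.1),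
    MonoidHom.mem_ker.2 ((cycloChar_eq_one_iff p _).2 h1.2)⟩

/-- `G_T = ker Ψ ⊓ ker ω`. -/
theorem wgis_fixingSubgroup (Ψ : GQq p →* M)
    (hΨ : ∃ U ∈ (towerLoc p).lev, ∀ s ∈ U, Ψ s = 1) :
    (wgisT p Ψ).fixingSubgroup = wgisH p Ψ := by
  obtain ⟨E, hE, hle⟩ := wgis_exists_le p Ψ hΨ
  haveI := hE
  have hopen : IsOpen (wgisH p Ψ : Set (GQq p)) :=
    Subgroup.isOpen_mono hle E.fixingSubgroup_isOpen
  have hclosed : IsClosed (wgisH p Ψ : Set (GQq p)) := Subgroup.isClosed_of_isOpen _ hopen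
  exact InfiniteGalois.fixingSubgroup_fixedField ⟨wgisH p Ψ, hclosed⟩

lemma wgis_mem_fixingSubgroup (Ψ : GQq p →* M)
    (hΨ : ∃ U ∈ (towerLoc p).lev, ∀ s ∈ U, Ψ s = 1) (σ : GQq p) :
    σ ∈ (wgisT p Ψ).fixingSubgroup ↔
      Ψ σ = 1 ∧ cycloChar p (localGaloisToGlobal p σ) = 1 := by
  rw [wgis_fixingSubgroup p Ψ hΨ]
  exact wgis_mem_H p Ψ σ

/-- `T` is finite over `ℚ_p`. -/
theorem wgis_finiteDimensional (Ψ : GQq p →* M)
    (hΨ : ∃ U ∈ (towerLoc p).lev, ∀ s ∈ U, Ψ s = 1) :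
    FiniteDimensional ℚ_[p] (wgisT p Ψ) := by
  obtain ⟨E, hE, hle⟩ := wgis_exists_le p Ψ hΨ
  haveI := hE
  have hTE : wgisT p Ψ ≤ E := by
    have h1 : IntermediateField.fixedField (wgisH p Ψ) ≤
        IntermediateField.fixedField E.fixingSubgroup := IntermediateField.fixedField_le hle
    rwa [InfiniteGalois.fixedField_fixingSubgroup] at h1
  exact FiniteDimensional.of_injective (IntermediateField.inclusion hTE).toLinearMap
    (IntermediateField.inclusion hTE).injective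

/-- `p ∤ [G_p : ker Ψ ⊓ ker ω]` if `Ψ` has exponent prime to `p`. -/
theorem wgis_not_dvd_index (Ψ : GQq p →* M) (hidx : (wgisH p Ψ).index ≠ 0) (E : ℕ)
    (hpE : ¬ p ∣ E) (hE : ∀ τ : GQq p, Ψ τ ^ E = 1) : ¬ p ∣ (wgisH p Ψ).index := by
  intro hdvd
  haveI : (wgisH p Ψ).FiniteIndex := ⟨hidx⟩
  haveI : Finite (GQq p ⧸ wgisH p Ψ) := Subgroup.finite_quotient_of_finiteIndex
  obtain ⟨x, hx⟩ := exists_prime_orderOf_dvd_card' (G := GQq p ⧸ wgisH p Ψ) p hdvd
  obtain ⟨y, rfl⟩ := QuotientGroup.mk_surjective x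
  have hmem : y ^ (E * (p - 1)) ∈ wgisH p Ψ := by
    refine ⟨MonoidHom.mem_ker.2 ?_, MonoidHom.mem_ker.2 ?_⟩
    · rw [map_pow, pow_mul, hE, one_pow]
    · rw [map_pow, mul_comm, pow_mul]
      have h1 : Nat.card (ZMod p)ˣ = p - 1 := by
        rw [Nat.card_eq_fintype_card, ZMod.card_units]
      rw [← h1, pow_card_eq_one', one_pow]
  have h1 : (QuotientGroup.mk y : GQq p ⧸ wgisH p Ψ) ^ (E * (p - 1)) = 1 := by
    rw [← QuotientGroup.mk_pow]
    exact (QuotientGroup.eq_one_iff _).2 hmem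
  have h2 := orderOf_dvd_of_pow_eq_one h1
  rw [hx] at h2
  rcases (Nat.Prime.dvd_mul (Fact.out : p.Prime)).1 h2 with h3 | h3
  · exact hpE h3
  · have hp1 : 1 < p := (Fact.out : p.Prime).one_lt
    have := Nat.le_of_dvd (by omega) h3
    omega

/-- **`T` is a good field.** -/
theorem wgis_isGoodField (Ψ : GQq p →* M)
    (hΨ : ∃ U ∈ (towerLoc p).lev, ∀ s ∈ U, Ψ s = 1) (E : ℕ) (hpE : ¬ p ∣ E)
    (hE : ∀ τ : GQq p, Ψ τ ^ E = 1) : IsGoodField p (wgisT p Ψ) := by
  have hfix := wgis_fixingSubgroup p Ψ hΨ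
  have hfin : FiniteDimensional ℚ_[p] (wgisT p Ψ) := wgis_finiteDimensional p Ψ hΨ
  have hnormal : ((wgisT p Ψ).fixingSubgroup : Subgroup (GQq p)).Normal := by
    rw [hfix]
    infer_instance
  have hidx : Module.finrank ℚ_[p] (wgisT p Ψ) = (wgisH p Ψ).index := by
    rw [IntermediateField.finrank_eq_fixingSubgroup_index (PadicAlgCl p) (wgisT p Ψ), hfix]
  refine ⟨hfin, (InfiniteGalois.normal_iff_isGalois _).1 hnormal, ?_, ?_⟩
  · rw [hidx]
    refine wgis_not_dvd_index p Ψ ?_ E hpE hE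
    rw [← hidx]
    exact (Module.finrank_pos).ne'
  · haveI : NeZero p := ⟨(Fact.out : p.Prime).ne_zero⟩
    obtain ⟨ζ₀, hζ₀⟩ := cycloField_exists_primitiveRoot p
    refine ⟨padicEmbedding p ζ₀, ?_, ?_, ?_⟩
    · rw [wgisT, IntermediateField.mem_fixedField_iff]
      intro σ hσ
      have h2 := (cycloChar_eq_one_iff p _).1 ((wgis_mem_H p Ψ σ).1 hσ).2
      have h3 := (mem_fixingSubgroup_cycloField_iff _).1 h2 ζ₀ hζ₀.pow_eq_one
      rw [← padicEmbedding_localGaloisToGlobal, h3]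
    · intro h
      have hinj : Function.Injective (padicEmbedding p) := (padicEmbedding p).toRingHom.injective
      have h1 : ζ₀ = 1 := hinj (by rw [h, map_one])
      exact hζ₀.ne_one (Fact.out : p.Prime).one_lt h1
    · rw [← map_pow, hζ₀.pow_eq_one, map_one]

end Good

end Fermat.Agent.TW.W

end


end ZBTW_009_6
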