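/- GENERATED FILE (helper35, build-time optimisation, NOTES/ZB.md): verbatim concatenation of the modules
   Fermat.Agent.S36.T.Tame
   Do not edit; do not import together with these modules. -/
import Fermat.Agent.ZB.TW_009

/-! ### bundled: `Fermat.Agent.S36.T.Tame` -/
section ZBS36_016_0

/-!
# S36, route T, piece TS: the tame character at finite level, with its kernel exposed

Fork of `Fermat.Agent.TW.L.ltame_abstract` / `ltame_global` (helper48): for a place `A ∣ q` of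
`ℚ̄` and a finite extension `F/ℚ` there are a homomorphism `Θ` from the inertia group `I_A` to a
commutative group and `t₀ ∈ I_A` such that

* `Θ(I_A)` is generated by `Θ t₀`;
* every `y ∈ ker Θ` has `q`-power order on `F`: `y ^ (q ^ m)` fixes `F` pointwise for some `m`.
-/

set_option autoImplicit false
set_option linter.style.haveILetI false

open NumberField

namespace Fermat.Agent.S36

open Fermat.Agent.TW.L Fermat.Agent.PT Fermat.Agent.PT.B Fermat.Agent.Cheb

section Abstract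

variable {R : Type*} [CommRing R] {G : Type*} [Group G] [MulSemiringAction G R] {P : Ideal R}

/-- abstract tame inertia, with the kernel of the tame character exposed -/
theorem s36t_tame_abstract [IsDedekindDomain R] [P.IsPrime] (hP : P ≠ ⊥) [Finite G]
    (hfaith : ∀ σ : G, (∀ x : R, σ • x = x) → σ = 1) {q : ℕ} (hq : q.Prime)
    (hqP : (q : R) ∈ P) {J : Type*} [Group J] (ρ : J →* G) (hρ : ∀ y, LtameInert P (ρ y)) :
    ∃ (Θ : J →* (R ⧸ P)ˣ) (t : J), (∀ x, ∃ n : ℕ, Θ x = Θ t ^ n) ∧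
      ∀ y, Θ y = 1 → ∃ m : ℕ, ρ y ^ (q ^ m) = 1 := by
  classical
  have hPtop : P ≠ ⊤ := Ideal.IsPrime.ne_top inferInstance
  -- a uniformiser
  obtain ⟨π, hπ1, hπ2⟩ := SetLike.exists_of_lt (Ideal.pow_succ_lt_pow hP 1)
  rw [pow_one] at hπ1
  have hπ2' : π ∉ P ^ 2 := hπ2
  obtain ⟨θ, hθ⟩ := ltame_exists_theta (G := G) hP hπ1 hπ2'
  let ρ' : J →* ltameInertia G P := ρ.codRestrict (ltameInertia G P) hρ
  let Θ : J →* (R ⧸ P)ˣ := θ.comp ρ'
  -- the kernel of `Θ` consists of wild elements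
  have hker : ∀ y : J, Θ y = 1 → LtameWild P (ρ y) := by
    intro y hy
    obtain ⟨d, hd, hd'⟩ := hθ (ρ' y)
    have h1 : Ideal.Quotient.mk P d = Ideal.Quotient.mk P 1 := by
      rw [← hd', map_one]
      have : θ (ρ' y) = 1 := hy
      rw [this]; rfl
    rw [Ideal.Quotient.eq] at h1
    exact ltame_wild_of_theta_one hP hπ1 hπ2' (hρ y) (ltame_theta_congr hπ1 hd h1)
  -- the range of `Θ` is finite cyclic
  haveI : Finite (ltameInertia G P) := inferInstance
  haveI : Finite θ.range := Set.finite_range θ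
  have hle : Θ.range ≤ θ.range := by
    rintro _ ⟨y, rfl⟩
    exact ⟨ρ' y, rfl⟩
  haveI : Finite Θ.range := Finite.of_injective (Subgroup.inclusion hle)
    (Subgroup.inclusion_injective hle)
  obtain ⟨⟨g, ⟨t, rfl⟩⟩, hg⟩ := (isCyclic_subgroup_units Θ.range).exists_generator
  have hgen : ∀ x : J, ∃ n : ℕ, Θ x = Θ t ^ n := by
    intro x
    have h1 := hg ⟨Θ x, ⟨x, rfl⟩⟩
    have h2 : IsOfFinOrder (⟨Θ t, ⟨t, rfl⟩⟩ : Θ.range) := isOfFinOrder_of_finite _
    rw [← h2.mem_powers_iff_mem_zpowers] at h1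
    obtain ⟨n, hn⟩ := h1
    refine ⟨n, ?_⟩
    have := congrArg (fun z : Θ.range => (z : (R ⧸ P)ˣ)) hn
    simpa using this.symm
  exact ⟨Θ, t, hgen, fun y hy => ltame_wild_pow_eq_one hPtop hfaith hq hqP (hker y hy)⟩

end Abstract

/-- **Tame inertia at finite level, with the kernel of the tame character exposed.** -/
theorem s36t_tame_global {q : ℕ} (hq : q.Prime) (A : ValuationSubring (AlgebraicClosure ℚ))
    (hA : A.LiesOverPrime q) (F : IntermediateField ℚ (AlgebraicClosure ℚ))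
    [FiniteDimensional ℚ F] :
    ∃ (C : Type) (_ : CommGroup C) (Θ : ↥(A.inertiaSubgroupIn ℚ) →* C)
      (t : ↥(A.inertiaSubgroupIn ℚ)), (∀ x, ∃ n : ℕ, Θ x = Θ t ^ n) ∧
      ∀ y, Θ y = 1 → ∃ m : ℕ, ∀ a ∈ F,
        ((y : AlgebraicClosure ℚ ≃ₐ[ℚ] AlgebraicClosure ℚ) ^ (q ^ m)) a = a := by
  classical
  haveI : IsAlgClosure ℚ (AlgebraicClosure ℚ) := ⟨inferInstance, AlgebraicClosure.isAlgebraic ℚ⟩
  haveI : Normal ℚ (AlgebraicClosure ℚ) := IsAlgClosure.normal ℚ (AlgebraicClosure ℚ)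
  -- the normal closure
  let F' : IntermediateField ℚ (AlgebraicClosure ℚ) :=
    IntermediateField.normalClosure ℚ F (AlgebraicClosure ℚ)
  have hFF' : F ≤ F' := IntermediateField.le_normalClosure F
  haveI : Normal ℚ F' := normalClosure.normal ℚ F (AlgebraicClosure ℚ)
  haveI : FiniteDimensional ℚ F' := normalClosure.is_finiteDimensional ℚ F (AlgebraicClosure ℚ)
  haveI : NumberField F' := ⟨⟩
  haveI : IsGalois ℚ F' := ⟨⟩
  haveI : Finite (F' ≃ₐ[ℚ] F') := inferInstance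
  let P : Ideal (𝓞 F') := ltamePrime F' A
  have hP0 : P ≠ ⊥ := ltame_prime_ne_bot F' A hq hA
  have hqP : ((q : ℕ) : 𝓞 F') ∈ P := ltame_natCast_mem F' A hA
  have hfaith : ∀ σ : F' ≃ₐ[ℚ] F', (∀ x : 𝓞 F', σ • x = x) → σ = 1 := by
    intro σ hσ
    apply algEquiv_eq_of_toAlgHom_eq F'
    ext x
    have := hσ x
    simpa using congrArg (fun z : 𝓞 F' => (z : F')) this
  let r : ↥(A.inertiaSubgroupIn ℚ) →* (AlgebraicClosure ℚ ≃ₐ[ℚ] AlgebraicClosure ℚ) :=
    (A.inertiaSubgroupIn ℚ).subtype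
  let ρ : ↥(A.inertiaSubgroupIn ℚ) →* (F' ≃ₐ[ℚ] F') := (AlgEquiv.restrictNormalHom F').comp r
  have hcomm : ∀ (g : AlgebraicClosure ℚ ≃ₐ[ℚ] AlgebraicClosure ℚ) (x : 𝓞 F'),
      intEmb F' ((AlgEquiv.restrictNormalHom F' g) • x) = g (intEmb F' x) := by
    intro g x
    exact AlgEquiv.restrictNormal_commutes g F' (x : F')
  have hρ : ∀ y, LtameInert P (ρ y) := by
    intro y x
    have e : intEmb F' (ρ y • x) = (r y) (intEmb F' x) := hcomm (r y) x
    rw [ltame_mem_prime, map_sub, e]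
    exact ((mem_inertiaSubgroupIn_iff A (r y)).mp y.2).2 _ (intEmb_mem F' A x)
  obtain ⟨Θ, t, h1, h2⟩ := s36t_tame_abstract (P := P) hP0 hfaith hq hqP ρ hρ
  refine ⟨(𝓞 F' ⧸ P)ˣ, inferInstance, Θ, t, h1, fun y hy => ?_⟩
  obtain ⟨m, hm⟩ := h2 y hy
  refine ⟨m, fun a ha => ?_⟩
  have hm' : AlgEquiv.restrictNormalHom F' ((r y) ^ (q ^ m)) = 1 := by
    rw [map_pow]; exact hm
  have h3 := AlgEquiv.restrictNormal_commutes ((r y) ^ (q ^ m)) F' ⟨a, hFF' ha⟩
  have h4 : ((r y) ^ (q ^ m)).restrictNormal F' = 1 := hm'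
  rw [h4] at h3
  exact h3.symm

end Fermat.Agent.S36


end ZBS36_016_0
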