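/- GENERATED FILE (helper35, build-time optimisation, NOTES/ZB.md): verbatim concatenation of the modules
   Fermat.Agent.S36.JForm
   Fermat.Agent.S36.Glue
   Do not edit; do not import together with these modules. -/
import Fermat.Agent.ZB.ES_005
import Fermat.Agent.ZB.STB_010
import Fermat.Agent.ZB.S36_014
import Fermat.Agent.ZB.S36_017

/-! ### bundled: `Fermat.Agent.S36.JForm` -/
section ZBS36_018_0

/-!
# S36, piece A0: the Kummer form (G36-K) gives (G36-J) on `J₀(M₁ q)[p^∞]`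

`x = [D]`, `pⁿ D = div u`.
* `α_* x = 0 = β_* x` ⇒ `N_α u`, `N_β u` are constants times `pⁿ`-th powers
  (`STB.stb_norm_eq_of_push_eq_zero`).
* `σ x = x` ⇒ `σ D − D = div h` ⇒ `div (σ u) = div (h ^ pⁿ · u)` ⇒ `σ u = a · h ^ pⁿ · u`.
* `StmtCarayolKummerAt` gives `u ^ c = a · h ^ pⁿ`, hence `pⁿ (c D) = pⁿ div h`, `c D = div h`,
  `c • x = 0`.
-/

set_option autoImplicit false
set_option linter.style.haveILetI false

noncomputable section

namespace Fermat.Agent.S36

open ModularCurve AlgebraicCurve Fermat.Agent.ES Fermat.Agent.ES.G2 Fermat.Agent.ES.H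
open Fermat.Agent.S24 Fermat.Agent.STB

section Generic

variable {K F : Type*} [Field K] [Field F] [Algebra K F]

/-- If `m D = div u` and `G • [D] = [D]`, then `G • u = (unit of divisor zero) · h ^ m · u`:
there is `h ≠ 0` such that `G • u / (h ^ m * u)` has order `0` at every place. -/
theorem s36jf_ord_of_fixed (G : SemilinearAut K F) (D : Divisor.degZero (K := K) (F := F))
    (m : ℕ) (u : F) (hu : u ≠ 0)
    (hD : ∀ v : Place K F, (m : ℤ) * (D : Divisor K F) v = v.ord u)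
    (hfix : G • Pic0.mk D = Pic0.mk D) :
    ∃ h : F, h ≠ 0 ∧ ∀ v : Place K F, v.ord (G • u / (h ^ m * u)) = 0 := by
  have hGu : G • u ≠ 0 := stb_smul_ne_zero G hu
  -- the divisor `E = G D − D` is principal
  set E : Divisor.degZero (K := K) (F := F) := SemilinearAut.degZeroSMulHom G D - D with hE
  have hzero : Pic0.mk E = 0 := by
    have e2 : Pic0.mk E = G • Pic0.mk D - Pic0.mk D := by
      rw [SemilinearAut.pic0_smul_mk]
      rfl
    rw [e2, hfix, sub_self]
  unfold Pic0.mk at hzero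
  rw [QuotientAddGroup.eq_zero_iff, AddSubgroup.mem_addSubgroupOf] at hzero
  obtain ⟨h, hh0, hEh⟩ := hzero
  refine ⟨h, hh0, fun v => ?_⟩
  have e1 : (E : Divisor K F) v = (D : Divisor K F) (G⁻¹ • v) - (D : Divisor K F) v := by
    show ((G • (D : Divisor K F)) - (D : Divisor K F)) v = _
    rw [Finsupp.sub_apply, SemilinearAut.divisor_smul_apply]
  have h3 : v.ord (G • u) = (m : ℤ) * (D : Divisor K F) (G⁻¹ • v) := by
    rw [stb_ord_smul_eq, hD]
  rw [unram_ord_div v hGu (mul_ne_zero (pow_ne_zero _ hh0) hu),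
    v.ord_mul (pow_ne_zero _ hh0) hu, unram_ord_pow, h3, ← hD v, ← hEh v, e1]
  ring

/-- If `m D = div u`, `m ≠ 0` and `u ^ c = a · h ^ m` with a constant `a`, then `c • [D] = 0`. -/
theorem s36jf_pic0_of_pow (D : Divisor.degZero (K := K) (F := F))
    (m : ℕ) (hm : m ≠ 0) (u : F) (hu : u ≠ 0)
    (hD : ∀ v : Place K F, (m : ℤ) * (D : Divisor K F) v = v.ord u) (c : ℕ)
    (a : K) (h : F) (hh : u ^ c = algebraMap K F a * h ^ m) :
    c • Pic0.mk D = 0 := by
  have hm' : (m : ℤ) ≠ 0 := by exact_mod_cast hm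
  have huc : u ^ c ≠ 0 := pow_ne_zero _ hu
  have ha0 : algebraMap K F a ≠ 0 := by
    intro h0
    rw [h0, zero_mul] at hh
    exact huc hh
  have hhm : h ^ m ≠ 0 := by
    intro h0
    rw [h0, mul_zero] at hh
    exact huc hh
  have hh0 : h ≠ 0 := by
    intro h0
    rw [h0, zero_pow hm] at hhm
    exact hhm rfl
  have ha0' : a ≠ 0 := by
    intro h0
    rw [h0, map_zero] at ha0
    exact ha0 rfl
  have key : ∀ v : Place K F, ((c • D : Divisor.degZero (K := K) (F := F)) : Divisor K F) v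
      = v.ord h := by
    intro v
    have h1 : (c : ℤ) * v.ord u = (m : ℤ) * v.ord h := by
      have := congrArg v.ord hh
      rw [unram_ord_pow, v.ord_mul ha0 hhm, unram_ord_pow, unram_ord_algebraMap v ha0', zero_add]
        at this
      exact this
    have h2 : ((c • D : Divisor.degZero (K := K) (F := F)) : Divisor K F) v
        = (c : ℤ) * (D : Divisor K F) v := by
      rw [AddSubgroup.coe_nsmul, Finsupp.smul_apply, nsmul_eq_mul]
    have h4 : (m : ℤ) * ((c • D : Divisor.degZero (K := K) (F := F)) : Divisor K F) v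
        = (m : ℤ) * v.ord h := by
      rw [h2, ← h1, ← hD v]
      ring
    exact mul_left_cancel₀ hm' h4
  have hzero : Pic0.mk (c • D) = 0 := by
    unfold Pic0.mk
    rw [QuotientAddGroup.eq_zero_iff, AddSubgroup.mem_addSubgroupOf]
    exact ⟨h, hh0, key⟩
  rw [← hzero]
  rfl

end Generic

variable (M₁ q p : ℕ) [NeZero M₁] [NeZero q]

/-- **S36-A0.**  The Kummer form (G36-K) gives (G36-J) on `J₀(M₁ q)[p^∞]`. -/
theorem stmtCarayolJ_of_kummer (hp : p ≠ 0) (h : StmtCarayolKummerAt M₁ q p) :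
    StmtCarayolJ M₁ q p := by
  intro A hA
  obtain ⟨c, hc0, hc⟩ := h A hA
  refine ⟨c, hc0, ?_⟩
  intro x hx hnew hinv
  obtain ⟨n, hn⟩ := hx
  obtain ⟨D, rfl⟩ := Pic0.mk_surjective x
  rw [mem_stbNew] at hnew
  have hpn0 : p ^ n ≠ 0 := pow_ne_zero n hp
  have hprin : ((p ^ n • D : Divisor.degZero (K := Qb) (F := modularFunctionFieldBar (M₁ * q))) :
      Divisor Qb (modularFunctionFieldBar (M₁ * q))) ∈ Divisor.principal := by
    have h1 : Pic0.mk (p ^ n • D) = 0 := by
      rw [← hn]; rfl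
    unfold Pic0.mk at h1
    rw [QuotientAddGroup.eq_zero_iff, AddSubgroup.mem_addSubgroupOf] at h1
    exact h1
  obtain ⟨u, hu, hDu⟩ := hprin
  have hDu' : ∀ v : Place Qb (modularFunctionFieldBar (M₁ * q)),
      ((p ^ n : ℕ) : ℤ) * (D : Divisor Qb (modularFunctionFieldBar (M₁ * q))) v = v.ord u := by
    intro v
    rw [← hDu v, AddSubgroup.coe_nsmul, Finsupp.smul_apply, nsmul_eq_mul]
  have hdvd : ∀ P : Place Qb (modularFunctionFieldBar (M₁ * q)),
      ((p ^ n : ℕ) : ℤ) ∣ P.ord u := fun P => ⟨_, (hDu' P).symm⟩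
  have hα := stb_norm_eq_of_push_eq_zero M₁ q (heckeAlphaBar Kb M₁ q)
    (finiteAlong_heckeAlphaBar M₁ q) D hnew.1 (p ^ n) u hu hDu'
  have hβ := stb_norm_eq_of_push_eq_zero M₁ q (heckeBetaBar Kb M₁ q)
    (finiteAlong_heckeBetaBar M₁ q) D hnew.2 (p ^ n) u hu hDu'
  have hI : ∀ σ ∈ A.inertiaSubgroupIn ℚ,
      ∃ (a : Qb) (k : modularFunctionFieldBar (M₁ * q)),
        arithmeticGalois (modularFunctionFieldFull (M₁ * q)) σ • u =
          algebraMap Qb (modularFunctionFieldBar (M₁ * q)) a * k ^ (p ^ n) * u := by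
    intro σ hσ
    set g := arithmeticGalois (modularFunctionFieldFull (M₁ * q)) σ with hg
    have hfix : g • Pic0.mk D = Pic0.mk D := hinv σ hσ
    obtain ⟨k, hk0, hk⟩ := s36jf_ord_of_fixed g D (p ^ n) u hu hDu' hfix
    obtain ⟨a, ha⟩ := mu_exists_const_of_ord_eq_zero _ hk
    refine ⟨a, k, ?_⟩
    have hden : k ^ (p ^ n) * u ≠ 0 := mul_ne_zero (pow_ne_zero _ hk0) hu
    rw [mul_assoc, ha, div_mul_cancel₀ _ hden]
  obtain ⟨a, k, hk⟩ := hc n u hu hdvd hα hβ hI
  exact s36jf_pic0_of_pow D (p ^ n) hpn0 u hu hDu' c a k hk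

/-- (G36-K) at all levels gives (G36-J) at all levels. -/
theorem stmtCarayol_of_kummer (h : StmtCarayolKummer) : StmtCarayol := by
  intro M₁ q p _ _ hq hp hpq hp2 hqM hq2
  exact stmtCarayolJ_of_kummer M₁ q p hp.ne_zero (h M₁ q p hq hp hpq hp2 hqM hq2)

end Fermat.Agent.S36

end
end ZBS36_018_0

/-! ### bundled: `Fermat.Agent.S36.Glue` -/
section ZBS36_018_1

/-!
# S36: the final glue (helper31)

`s36_result_of_kummer : StmtCarayolKummer → (the frozen statement S36, verbatim)`.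

Every other input of S36 is discharged: weak Chebotarev (`Cheb.weakChebotarev_holds`), the
Eichler–Shimura package (`s36in_esIn`), STB-P1 (`s36in_newPoly`), the polynomial step
(`stmtNewMemDiv`, helper92), the algebraic half (`stmtH8`, helper99, route T) and the passage from
the Kummer form to the Jacobian form (`stmtCarayol_of_kummer`, helper52).
The only open input is the geometric clause `StmtCarayolKummer` (NOTES/S36-geo.md).
-/

set_option autoImplicit false
set_option linter.unusedVariables false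

open Polynomial

noncomputable section

namespace Fermat.Agent.S36

open ModularCurve

/-- **S36 from the geometric clause in its Jacobian form.** -/
theorem s36_result_of_carayol (hG : StmtCarayol)
    {M : ℕ} [NeZero M] {g : CuspForm (CongruenceSubgroup.Gamma0 M) 2} (hg : g.IsNewform)
    (lam : ℕ) [Fact lam.Prime]
    (S : Finset ℕ)
    (O' : Type) [CommRing O'] [IsDomain O'] [IsDiscreteValuationRing O']
    [IsAdicComplete (IsLocalRing.maximalIdeal O') O'] [Finite (IsLocalRing.ResidueField O')]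
    [CharZero O'] (hlamO' : (lam : O') ∈ IsLocalRing.maximalIdeal O')
    (hlam2 : lam ≠ 2)
    (chig : CuspForm.heckeAlgebra M 2 (↑S : Set ℕ) →+* ℂ)
    (hchig : ∀ (ℓ : ℕ) (hℓ : ℓ.Prime) (hℓM : ¬ ℓ ∣ M) (hℓS : ℓ ∉ (↑S : Set ℕ)),
      chig (CuspForm.heckeAlgebra.T hℓ hℓM hℓS) = ModularFormClass.qCoeff g ℓ)
    (iota : chig.range →+* O')
    (hlamS : lam ∈ S) (hMS : ∀ q : ℕ, q.Prime → q ∣ M → q ∈ S)
    (hres : ∀ (O'' : Type) [CommRing O''] [IsDomain O''] [IsDiscreteValuationRing O'']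
      [IsAdicComplete (IsLocalRing.maximalIdeal O'') O''] [Finite (IsLocalRing.ResidueField O'')]
      [CharZero O''] [Algebra O' O''] [Module.Finite O' O''] [IsLocalHom (algebraMap O' O'')],
      Function.Injective (algebraMap O' O'') → ∀ (ρ : GaloisRepAdic O''),
      (∀ (ℓ : ℕ) (hℓ : ℓ.Prime) (hℓlam : ℓ ≠ lam) (hℓM : ¬ ℓ ∣ M) (hℓS : ℓ ∉ (↑S : Set ℕ)),
        ∀ A : ValuationSubring (AlgebraicClosure ℚ), A.LiesOverPrime ℓ →
          ∀ σ : AlgebraicClosure ℚ ≃ₐ[ℚ] AlgebraicClosure ℚ, A.IsFrobeniusAt σ ℓ →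
            LinearMap.charpoly (ρ.ρ σ) =
              X ^ 2 - C (algebraMap O' O'' ((iota.comp chig.rangeRestrict)
                (CuspForm.heckeAlgebra.T hℓ hℓM hℓS))) * X + C ((ℓ : O'')))
      → ρ.residual.IsAbsolutelyIrreducible ∧ ρ.residual.IsOdd) :
    ∃ (O'' : Type) (_ : CommRing O'') (_ : IsDomain O'') (_ : IsDiscreteValuationRing O'')
      (_ : IsAdicComplete (IsLocalRing.maximalIdeal O'') O'')
      (_ : Finite (IsLocalRing.ResidueField O''))
      (_ : CharZero O'') (_ : Algebra O' O'') (_ : Module.Finite O' O'')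
      (_ : IsLocalHom (algebraMap O' O'')),
      Function.Injective (algebraMap O' O'') ∧
      ∃ ρ : GaloisRepAdic O'',
        (∀ (ℓ : ℕ) (hℓ : ℓ.Prime) (hℓM : ¬ ℓ ∣ M) (hℓS : ℓ ∉ (↑S : Set ℕ)),
          ∀ A : ValuationSubring (AlgebraicClosure ℚ), A.LiesOverPrime ℓ →
            ∀ σ : AlgebraicClosure ℚ ≃ₐ[ℚ] AlgebraicClosure ℚ, A.IsFrobeniusAt σ ℓ →
              LinearMap.charpoly (ρ.ρ σ) =
                X ^ 2 - C (algebraMap O' O'' ((iota.comp chig.rangeRestrict)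
                  (CuspForm.heckeAlgebra.T hℓ hℓM hℓS))) * X + C ((ℓ : O''))) ∧
        (∀ q : ℕ, q.Prime → q ≠ lam → M.factorization q = 2 →
          ¬ ρ.IsUnipotentOnInertiaAt q) :=
  s36_of_concl lam S O' chig iota
    (s36_of_geometry hG stmtH8 hg lam S O' hlamO' hlam2 chig hchig iota hlamS hMS hres)

/-- **S36 from the geometric clause in its Kummer form** (the target of NOTES/S36-geo.md). -/
theorem s36_result_of_kummer (hK : StmtCarayolKummer)
    {M : ℕ} [NeZero M] {g : CuspForm (CongruenceSubgroup.Gamma0 M) 2} (hg : g.IsNewform)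
    (lam : ℕ) [Fact lam.Prime]
    (S : Finset ℕ)
    (O' : Type) [CommRing O'] [IsDomain O'] [IsDiscreteValuationRing O']
    [IsAdicComplete (IsLocalRing.maximalIdeal O') O'] [Finite (IsLocalRing.ResidueField O')]
    [CharZero O'] (hlamO' : (lam : O') ∈ IsLocalRing.maximalIdeal O')
    (hlam2 : lam ≠ 2)
    (chig : CuspForm.heckeAlgebra M 2 (↑S : Set ℕ) →+* ℂ)
    (hchig : ∀ (ℓ : ℕ) (hℓ : ℓ.Prime) (hℓM : ¬ ℓ ∣ M) (hℓS : ℓ ∉ (↑S : Set ℕ)),
      chig (CuspForm.heckeAlgebra.T hℓ hℓM hℓS) = ModularFormClass.qCoeff g ℓ)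
    (iota : chig.range →+* O')
    (hlamS : lam ∈ S) (hMS : ∀ q : ℕ, q.Prime → q ∣ M → q ∈ S)
    (hres : ∀ (O'' : Type) [CommRing O''] [IsDomain O''] [IsDiscreteValuationRing O'']
      [IsAdicComplete (IsLocalRing.maximalIdeal O'') O''] [Finite (IsLocalRing.ResidueField O'')]
      [CharZero O''] [Algebra O' O''] [Module.Finite O' O''] [IsLocalHom (algebraMap O' O'')],
      Function.Injective (algebraMap O' O'') → ∀ (ρ : GaloisRepAdic O''),
      (∀ (ℓ : ℕ) (hℓ : ℓ.Prime) (hℓlam : ℓ ≠ lam) (hℓM : ¬ ℓ ∣ M) (hℓS : ℓ ∉ (↑S : Set ℕ)),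
        ∀ A : ValuationSubring (AlgebraicClosure ℚ), A.LiesOverPrime ℓ →
          ∀ σ : AlgebraicClosure ℚ ≃ₐ[ℚ] AlgebraicClosure ℚ, A.IsFrobeniusAt σ ℓ →
            LinearMap.charpoly (ρ.ρ σ) =
              X ^ 2 - C (algebraMap O' O'' ((iota.comp chig.rangeRestrict)
                (CuspForm.heckeAlgebra.T hℓ hℓM hℓS))) * X + C ((ℓ : O'')))
      → ρ.residual.IsAbsolutelyIrreducible ∧ ρ.residual.IsOdd) :
    ∃ (O'' : Type) (_ : CommRing O'') (_ : IsDomain O'') (_ : IsDiscreteValuationRing O'')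
      (_ : IsAdicComplete (IsLocalRing.maximalIdeal O'') O'')
      (_ : Finite (IsLocalRing.ResidueField O''))
      (_ : CharZero O'') (_ : Algebra O' O'') (_ : Module.Finite O' O'')
      (_ : IsLocalHom (algebraMap O' O'')),
      Function.Injective (algebraMap O' O'') ∧
      ∃ ρ : GaloisRepAdic O'',
        (∀ (ℓ : ℕ) (hℓ : ℓ.Prime) (hℓM : ¬ ℓ ∣ M) (hℓS : ℓ ∉ (↑S : Set ℕ)),
          ∀ A : ValuationSubring (AlgebraicClosure ℚ), A.LiesOverPrime ℓ →
            ∀ σ : AlgebraicClosure ℚ ≃ₐ[ℚ] AlgebraicClosure ℚ, A.IsFrobeniusAt σ ℓ →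
              LinearMap.charpoly (ρ.ρ σ) =
                X ^ 2 - C (algebraMap O' O'' ((iota.comp chig.rangeRestrict)
                  (CuspForm.heckeAlgebra.T hℓ hℓM hℓS))) * X + C ((ℓ : O''))) ∧
        (∀ q : ℕ, q.Prime → q ≠ lam → M.factorization q = 2 →
          ¬ ρ.IsUnipotentOnInertiaAt q) :=
  s36_result_of_carayol (stmtCarayol_of_kummer hK) hg lam S O' hlamO' hlam2 chig hchig iota
    hlamS hMS hres

end Fermat.Agent.S36

end
end ZBS36_018_1
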