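/- GENERATED FILE (helper35, build-time optimisation, NOTES/ZB.md): verbatim concatenation of the modules
   Fermat.Agent.S36.NormOrdAbs
   Fermat.Agent.S36.N2ValAbs
   Fermat.Agent.S36.NormOrdInv
   Fermat.Agent.S36.NormResKer
   Do not edit; do not import together with these modules. -/
import Fermat.Agent.ZB.INJ_003
import Fermat.Agent.ZB.S36_019
import Fermat.Agent.ZB.ES_002
import Fermat.Agent.ZB.ES_001
import Fermat.Agent.ZB.UNIP_014

/-! ### bundled: `Fermat.Agent.S36.NormOrdAbs` -/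
section ZBS36_020_0

/-!
# S36 / G-nr-ord, part 1: the `ℤ`-valued Gauss order (helper31)

Base `(A, ι : A → E, r : A → k, π)` with `hB : VtBase ι r π`.  For a nonzero quotient `x` of two
series over `A` (`VtFrac ι x`) there is a unique `n : ℤ` with `x = π ^ n · u`, `u` a unit of the
Gauss ring (`VtUnit ι r u`).  This `n` is `s36noOrd ι r π x`.

* `S36IsOrd ι r π x n` : `x · π ^ (-n)` is a unit of the Gauss ring;
* `s36no_exists`, `s36no_unique`, `s36noOrd`, `s36noOrd_eq`, `s36noOrd_spec`;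
* `s36noOrd_mul`, `s36noOrd_inv`, `s36noOrd_pow`, `s36noOrd_prod`;
* `s36noOrd_eq_zero_iff : ord x = 0 ↔ VtUnit ι r x`, `s36noOrd_nonneg_iff : 0 ≤ ord x ↔ x ∈ gaussRing`,
  `s36noOrd_C_pi : ord π = 1`;
* transport `S36IsOrd.map` along a ring homomorphism of series preserving units;
* for `e : F →+* E((Q))` with `hfrac`: the order `s36noOrdE` of `vtSub hB e hfrac`, with
  `s36noOrdE_eq_zero_iff` (`↔ valuation = 1`), `s36noOrdE_nonneg_iff` (`↔ x ∈ V`),
  `s36noOrdE_pos_iff` (`↔ x ∈ 𝔪(V)`).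
-/

set_option autoImplicit false
set_option linter.unusedSectionVars false

noncomputable section

namespace Fermat.Agent.S36

open ModularCurve Fermat.Agent.INJ Fermat.Agent.UNIP

section Ord

variable {A E k : Type*} [CommRing A] [Field E] [Field k]
  {ι : A →+* E} {r : A →+* k} {π : A}

/-- `x = π ^ n · (unit of the Gauss ring)` -/
def S36IsOrd (ι : A →+* E) (r : A →+* k) (π : A) (x : LaurentSeries E) (n : ℤ) : Prop :=
  VtUnit ι r (x * (HahnSeries.C (ι π) : LaurentSeries E) ^ (-n))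

/-- a positive power of `π` is not a unit of the Gauss ring -/
theorem s36no_not_unit_pow (hB : VtBase ι r π) {m : ℕ} (hm : m ≠ 0) :
    ¬ VtUnit ι r ((HahnSeries.C (ι π) : LaurentSeries E) ^ m) := by
  intro h
  have hC : (HahnSeries.C (ι π) : LaurentSeries E) ∈ gaussRing ι r := hahnC_mem_gaussRing r π
  have hmem : (HahnSeries.C (ι π) : LaurentSeries E) ^ m ∈ gaussRing ι r :=
    (gaussRing ι r).pow_mem hC m
  have h1 := h.gaussRed_ne hB.inj hmem
  apply h1
  have e1 : (⟨(HahnSeries.C (ι π) : LaurentSeries E) ^ m, hmem⟩ : gaussRing ι r) =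
      (⟨HahnSeries.C (ι π), hC⟩ : gaussRing ι r) ^ m := Subtype.ext rfl
  have e2 : gaussRed r hB.inj (⟨HahnSeries.C (ι π), hC⟩ : gaussRing ι r) = 0 := by
    have e3 : (⟨HahnSeries.C (ι π), hC⟩ : gaussRing ι r) =
        ⟨coeffMap ι (HahnSeries.C π), coeffMap_mem_gaussRing ι r _⟩ :=
      Subtype.ext (coeffMap_hahnC ι π).symm
    rw [e3, gaussRed_coeffMap, coeffMap_hahnC, hB.rπ, map_zero]
  rw [e1, map_pow, e2, zero_pow hm]

theorem s36no_Cpi_zpow_ne (hB : VtBase ι r π) (n : ℤ) :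
    (HahnSeries.C (ι π) : LaurentSeries E) ^ n ≠ 0 :=
  zpow_ne_zero n hB.Cιπ_ne

/-- a nonzero power of `π` is not a unit of the Gauss ring -/
theorem s36no_not_unit_zpow (hB : VtBase ι r π) {n : ℤ} (hn : n ≠ 0) :
    ¬ VtUnit ι r ((HahnSeries.C (ι π) : LaurentSeries E) ^ n) := by
  intro h
  rcases lt_trichotomy n 0 with h0 | h0 | h0
  · have h1 := h.inv hB.inj
    rw [← zpow_neg] at h1
    obtain ⟨m, hm⟩ := Int.eq_ofNat_of_zero_le (show 0 ≤ -n by omega)
    rw [hm, zpow_natCast] at h1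
    exact s36no_not_unit_pow hB (by omega) h1
  · exact hn h0
  · obtain ⟨m, hm⟩ := Int.eq_ofNat_of_zero_le h0.le
    rw [hm, zpow_natCast] at h
    exact s36no_not_unit_pow hB (by omega) h

theorem S36IsOrd.ne_zero (hB : VtBase ι r π) {x : LaurentSeries E} {n : ℤ}
    (h : S36IsOrd ι r π x n) : x ≠ 0 := by
  intro hx
  have h1 := VtUnit.ne_zero hB.inj h
  rw [hx, zero_mul] at h1
  exact h1 rfl

theorem S36IsOrd.eq (hB : VtBase ι r π) {x : LaurentSeries E} {n : ℤ}
    (h : S36IsOrd ι r π x n) :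
    x = (x * (HahnSeries.C (ι π) : LaurentSeries E) ^ (-n)) *
      (HahnSeries.C (ι π) : LaurentSeries E) ^ n := by
  rw [mul_assoc, ← zpow_add₀ hB.Cιπ_ne, neg_add_cancel, zpow_zero, mul_one]

theorem s36IsOrd_of_eq (hB : VtBase ι r π) {x u : LaurentSeries E} {n : ℤ}
    (hu : VtUnit ι r u) (h : x = u * (HahnSeries.C (ι π) : LaurentSeries E) ^ n) :
    S36IsOrd ι r π x n := by
  unfold S36IsOrd
  rw [h, mul_assoc, ← zpow_add₀ hB.Cιπ_ne, add_neg_cancel, zpow_zero, mul_one]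
  exact hu

theorem S36IsOrd.mul (hB : VtBase ι r π) {x y : LaurentSeries E} {n m : ℤ}
    (hx : S36IsOrd ι r π x n) (hy : S36IsOrd ι r π y m) : S36IsOrd ι r π (x * y) (n + m) := by
  refine s36IsOrd_of_eq hB (VtUnit.mul hx hy) ?_
  conv_lhs => rw [hx.eq hB, hy.eq hB]
  rw [zpow_add₀ hB.Cιπ_ne]
  ring

theorem S36IsOrd.inv (hB : VtBase ι r π) {x : LaurentSeries E} {n : ℤ}
    (hx : S36IsOrd ι r π x n) : S36IsOrd ι r π x⁻¹ (-n) := by
  refine s36IsOrd_of_eq hB (VtUnit.inv hB.inj hx) ?_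
  rw [mul_inv, mul_assoc, inv_mul_cancel₀ (s36no_Cpi_zpow_ne hB (-n)), mul_one]

theorem s36IsOrd_unit (hB : VtBase ι r π) {x : LaurentSeries E} (hx : VtUnit ι r x) :
    S36IsOrd ι r π x 0 := by
  unfold S36IsOrd
  rw [neg_zero, zpow_zero, mul_one]
  exact hx

theorem s36IsOrd_one (hB : VtBase ι r π) : S36IsOrd ι r π (1 : LaurentSeries E) 0 :=
  s36IsOrd_unit hB VtUnit.one

theorem s36IsOrd_Cpi (hB : VtBase ι r π) :
    S36IsOrd ι r π (HahnSeries.C (ι π) : LaurentSeries E) 1 :=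
  s36IsOrd_of_eq hB VtUnit.one (by rw [zpow_one, one_mul])

/-- **uniqueness** of the order -/
theorem s36no_unique (hB : VtBase ι r π) {x : LaurentSeries E} {n n' : ℤ}
    (h : S36IsOrd ι r π x n) (h' : S36IsOrd ι r π x n') : n = n' := by
  by_contra hne
  have hx := h.ne_zero hB
  have h1 : S36IsOrd ι r π (x * x⁻¹) (n + -n') := h.mul hB (h'.inv hB)
  rw [mul_inv_cancel₀ hx] at h1
  unfold S36IsOrd at h1
  rw [one_mul] at h1
  exact s36no_not_unit_zpow hB (show -(n + -n') ≠ 0 by omega) h1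

/-- **existence** of the order -/
theorem s36no_exists (hB : VtBase ι r π) {x : LaurentSeries E} (hx : x ≠ 0)
    (hf : VtFrac ι x) : ∃ n : ℤ, S36IsOrd ι r π x n := by
  obtain ⟨d, u, hu, h | h⟩ := vt_exists_pow_mul (r := r) hB hx hf
  · exact ⟨d, s36IsOrd_of_eq hB hu (by rw [h, zpow_natCast]; ring)⟩
  · refine ⟨-d, ?_⟩
    have h2 : S36IsOrd ι r π x⁻¹ d := s36IsOrd_of_eq hB hu (by rw [h, zpow_natCast]; ring)
    have h3 := h2.inv hB
    rwa [inv_inv] at h3

/-- **the Gauss order** of a series (`0` if it has none) -/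
def s36noOrd (ι : A →+* E) (r : A →+* k) (π : A) (x : LaurentSeries E) : ℤ := by
  classical
  exact if h : ∃ n : ℤ, S36IsOrd ι r π x n then h.choose else 0

theorem s36noOrd_eq (hB : VtBase ι r π) {x : LaurentSeries E} {n : ℤ}
    (h : S36IsOrd ι r π x n) : s36noOrd ι r π x = n := by
  classical
  have hex : ∃ n : ℤ, S36IsOrd ι r π x n := ⟨n, h⟩
  unfold s36noOrd
  rw [dif_pos hex]
  exact s36no_unique hB hex.choose_spec h

theorem s36noOrd_spec (hB : VtBase ι r π) {x : LaurentSeries E} (hx : x ≠ 0)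
    (hf : VtFrac ι x) : S36IsOrd ι r π x (s36noOrd ι r π x) := by
  obtain ⟨n, hn⟩ := s36no_exists (r := r) hB hx hf
  rw [s36noOrd_eq hB hn]
  exact hn

theorem s36noOrd_mul (hB : VtBase ι r π) {x y : LaurentSeries E} (hx : x ≠ 0) (hy : y ≠ 0)
    (hfx : VtFrac ι x) (hfy : VtFrac ι y) :
    s36noOrd ι r π (x * y) = s36noOrd ι r π x + s36noOrd ι r π y :=
  s36noOrd_eq hB ((s36noOrd_spec hB hx hfx).mul hB (s36noOrd_spec hB hy hfy))

theorem s36noOrd_inv (hB : VtBase ι r π) {x : LaurentSeries E} (hx : x ≠ 0)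
    (hfx : VtFrac ι x) : s36noOrd ι r π x⁻¹ = -s36noOrd ι r π x :=
  s36noOrd_eq hB ((s36noOrd_spec hB hx hfx).inv hB)

theorem s36noOrd_one (hB : VtBase ι r π) : s36noOrd ι r π (1 : LaurentSeries E) = 0 :=
  s36noOrd_eq hB (s36IsOrd_one hB)

theorem s36noOrd_unit (hB : VtBase ι r π) {x : LaurentSeries E} (hx : VtUnit ι r x) :
    s36noOrd ι r π x = 0 :=
  s36noOrd_eq hB (s36IsOrd_unit hB hx)

theorem s36noOrd_C_pi (hB : VtBase ι r π) :
    s36noOrd ι r π (HahnSeries.C (ι π) : LaurentSeries E) = 1 :=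
  s36noOrd_eq hB (s36IsOrd_Cpi hB)

theorem s36noOrd_pow (hB : VtBase ι r π) {x : LaurentSeries E} (hx : x ≠ 0)
    (hfx : VtFrac ι x) (n : ℕ) : s36noOrd ι r π (x ^ n) = n * s36noOrd ι r π x := by
  induction n with
  | zero => simp [s36noOrd_one hB]
  | succ n ih =>
    have hf : VtFrac ι (x ^ n) := by
      clear ih
      induction n with
      | zero => rw [pow_zero]; exact VtFrac.one
      | succ n ih => rw [pow_succ]; exact ih.mul hB.inj hfx
    rw [pow_succ, s36noOrd_mul hB (pow_ne_zero n hx) hx hf hfx, ih]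
    push_cast
    ring

theorem s36no_vtFrac_prod (hB : VtBase ι r π) {κ : Type*} (s : Finset κ)
    (f : κ → LaurentSeries E) (hf : ∀ i ∈ s, VtFrac ι (f i)) : VtFrac ι (∏ i ∈ s, f i) := by
  classical
  induction s using Finset.induction_on with
  | empty => rw [Finset.prod_empty]; exact VtFrac.one
  | insert a s ha ih =>
    rw [Finset.prod_insert ha]
    exact (hf a (Finset.mem_insert_self a s)).mul hB.inj
      (ih fun i hi => hf i (Finset.mem_insert_of_mem hi))

theorem s36noOrd_prod (hB : VtBase ι r π) {κ : Type*} (s : Finset κ)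
    (f : κ → LaurentSeries E) (h0 : ∀ i ∈ s, f i ≠ 0) (hf : ∀ i ∈ s, VtFrac ι (f i)) :
    s36noOrd ι r π (∏ i ∈ s, f i) = ∑ i ∈ s, s36noOrd ι r π (f i) := by
  classical
  induction s using Finset.induction_on with
  | empty => rw [Finset.prod_empty, Finset.sum_empty]; exact s36noOrd_one hB
  | insert a s ha ih =>
    have h0' : ∀ i ∈ s, f i ≠ 0 := fun i hi => h0 i (Finset.mem_insert_of_mem hi)
    have hf' : ∀ i ∈ s, VtFrac ι (f i) := fun i hi => hf i (Finset.mem_insert_of_mem hi)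
    rw [Finset.prod_insert ha, Finset.sum_insert ha,
      s36noOrd_mul hB (h0 a (Finset.mem_insert_self a s))
        (Finset.prod_ne_zero_iff.mpr h0') (hf a (Finset.mem_insert_self a s))
        (s36no_vtFrac_prod hB s f hf'), ih h0' hf']

theorem s36noOrd_eq_zero_iff (hB : VtBase ι r π) {x : LaurentSeries E} (hx : x ≠ 0)
    (hf : VtFrac ι x) : s36noOrd ι r π x = 0 ↔ VtUnit ι r x := by
  constructor
  · intro h
    have := s36noOrd_spec (r := r) hB hx hf
    rw [h] at this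
    unfold S36IsOrd at this
    rwa [neg_zero, zpow_zero, mul_one] at this
  · exact s36noOrd_unit hB

theorem s36noOrd_nonneg_iff (hB : VtBase ι r π) {x : LaurentSeries E} (hx : x ≠ 0)
    (hf : VtFrac ι x) : 0 ≤ s36noOrd ι r π x ↔ x ∈ gaussRing ι r := by
  have hs := s36noOrd_spec (r := r) hB hx hf
  constructor
  · intro h
    obtain ⟨m, hm⟩ := Int.eq_ofNat_of_zero_le h
    rw [hs.eq hB, hm, zpow_natCast]
    rw [hm] at hs
    exact (gaussRing ι r).mul_mem (VtUnit.mem hs)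
      ((gaussRing ι r).pow_mem (hahnC_mem_gaussRing r π) m)
  · intro hmem
    by_contra hneg
    rw [not_le] at hneg
    obtain ⟨m, hm⟩ := Int.eq_ofNat_of_zero_le (show 0 ≤ -s36noOrd ι r π x by omega)
    have hu : VtUnit ι r (x * (HahnSeries.C (ι π) : LaurentSeries E) ^ m) := by
      have := hs
      unfold S36IsOrd at this
      rwa [hm, zpow_natCast] at this
    have hCm : (HahnSeries.C (ι π) : LaurentSeries E) ^ m ∈ gaussRing ι r :=
      (gaussRing ι r).pow_mem (hahnC_mem_gaussRing r π) m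
    have hm0 : m ≠ 0 := by omega
    have h1 := hu.gaussRed_ne hB.inj ((gaussRing ι r).mul_mem hmem hCm)
    apply h1
    have e1 : (⟨x * (HahnSeries.C (ι π) : LaurentSeries E) ^ m,
        (gaussRing ι r).mul_mem hmem hCm⟩ : gaussRing ι r) =
        ⟨x, hmem⟩ * ⟨HahnSeries.C (ι π), hahnC_mem_gaussRing r π⟩ ^ m := Subtype.ext rfl
    have e2 : gaussRed r hB.inj
        (⟨HahnSeries.C (ι π), hahnC_mem_gaussRing r π⟩ : gaussRing ι r) = 0 := by
      have e3 : (⟨HahnSeries.C (ι π), hahnC_mem_gaussRing r π⟩ : gaussRing ι r) =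
          ⟨coeffMap ι (HahnSeries.C π), coeffMap_mem_gaussRing ι r _⟩ :=
        Subtype.ext (coeffMap_hahnC ι π).symm
      rw [e3, gaussRed_coeffMap, coeffMap_hahnC, hB.rπ, map_zero]
    rw [e1, map_mul, map_pow, e2, zero_pow hm0, mul_zero]

end Ord

section Map

variable {A E k A' E' k' : Type*} [CommRing A] [Field E] [Field k]
  [CommRing A'] [Field E'] [Field k']
  {ι : A →+* E} {r : A →+* k} {π : A} {ι' : A' →+* E'} {r' : A' →+* k'} {π' : A'}

/-- **transport of the order** along a ring homomorphism `φ` of series which preserves the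
units of the Gauss rings and maps `π` to an element of order `e`. -/
theorem S36IsOrd.map (hB : VtBase ι r π) (hB' : VtBase ι' r' π')
    (φ : LaurentSeries E →+* LaurentSeries E')
    (hφ : ∀ u, VtUnit ι r u → VtUnit ι' r' (φ u)) {e : ℤ}
    (he : S36IsOrd ι' r' π' (φ (HahnSeries.C (ι π))) e) {x : LaurentSeries E} {n : ℤ}
    (hx : S36IsOrd ι r π x n) : S36IsOrd ι' r' π' (φ x) (n * e) := by
  have hzpow : ∀ m : ℤ, S36IsOrd ι' r' π' (φ ((HahnSeries.C (ι π) : LaurentSeries E) ^ m))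
      (m * e) := by
    have hnat : ∀ m : ℕ, S36IsOrd ι' r' π'
        (φ ((HahnSeries.C (ι π) : LaurentSeries E) ^ m)) (m * e) := by
      intro m
      induction m with
      | zero =>
        rw [pow_zero, map_one, Nat.cast_zero, zero_mul]
        exact s36IsOrd_one hB'
      | succ m ih =>
        rw [pow_succ, map_mul]
        have := ih.mul hB' he
        rwa [show ((m : ℤ) * e + e) = ((m + 1 : ℕ) : ℤ) * e by push_cast; ring] at this
    intro m
    rcases le_total 0 m with h0 | h0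
    · obtain ⟨a, rfl⟩ := Int.eq_ofNat_of_zero_le h0
      rw [zpow_natCast]
      exact hnat a
    · obtain ⟨a, ha⟩ := Int.eq_ofNat_of_zero_le (show 0 ≤ -m by omega)
      have hm : m = -(a : ℤ) := by omega
      rw [hm, zpow_neg, zpow_natCast, map_inv₀, neg_mul]
      exact (hnat a).inv hB'
  have h1 := (s36IsOrd_unit hB' (hφ _ hx)).mul hB' (hzpow n)
  rw [← map_mul, ← hx.eq hB, zero_add] at h1
  exact h1

theorem s36noOrd_map (hB : VtBase ι r π) (hB' : VtBase ι' r' π')
    (φ : LaurentSeries E →+* LaurentSeries E')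
    (hφ : ∀ u, VtUnit ι r u → VtUnit ι' r' (φ u)) {e : ℤ}
    (he : S36IsOrd ι' r' π' (φ (HahnSeries.C (ι π))) e) {x : LaurentSeries E} (hx : x ≠ 0)
    (hf : VtFrac ι x) : s36noOrd ι' r' π' (φ x) = s36noOrd ι r π x * e :=
  s36noOrd_eq hB' (S36IsOrd.map hB hB' φ hφ he (s36noOrd_spec hB hx hf))

end Map

section Emb

variable {A E k : Type*} [CommRing A] [Field E] [Field k]
  {ι : A →+* E} {r : A →+* k} {π : A} {F : Type*} [Field F]
  (hB : VtBase ι r π) (e : F →+* LaurentSeries E) (hfrac : ∀ x : F, VtFrac ι (e x))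

/-- the `ℤ`-valued order of the vertical valuation `vtSub hB e hfrac` -/
def s36noOrdE (r : A →+* k) (π : A) (e : F →+* LaurentSeries E) (x : F) : ℤ :=
  s36noOrd (ι := ι) r π (e x)

include hB hfrac in
theorem s36noOrdE_mul {x y : F} (hx : x ≠ 0) (hy : y ≠ 0) :
    s36noOrdE (ι := ι) r π e (x * y) = s36noOrdE (ι := ι) r π e x + s36noOrdE (ι := ι) r π e y := by
  unfold s36noOrdE
  rw [map_mul]
  exact s36noOrd_mul hB ((map_ne_zero e).mpr hx) ((map_ne_zero e).mpr hy) (hfrac x) (hfrac y)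

include hB hfrac in
theorem s36noOrdE_eq_zero_iff {x : F} (hx : x ≠ 0) :
    s36noOrdE (ι := ι) r π e x = 0 ↔ (vtSub hB e hfrac).valuation x = 1 := by
  unfold s36noOrdE
  rw [s36noOrd_eq_zero_iff hB ((map_ne_zero e).mpr hx) (hfrac x),
    vtSub_valuation_eq_one_iff]

include hB hfrac in
theorem s36noOrdE_nonneg_iff {x : F} (hx : x ≠ 0) :
    0 ≤ s36noOrdE (ι := ι) r π e x ↔ x ∈ vtSub hB e hfrac := by
  unfold s36noOrdE
  rw [s36noOrd_nonneg_iff hB ((map_ne_zero e).mpr hx) (hfrac x), mem_vtSub]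

include hB hfrac in
theorem s36noOrdE_pos_iff {x : F} (hx : x ≠ 0) :
    0 < s36noOrdE (ι := ι) r π e x ↔ x ∈ (vtSub hB e hfrac).nonunits := by
  rw [ValuationSubring.mem_nonunits_iff, lt_iff_le_and_ne,
    s36noOrdE_nonneg_iff hB e hfrac hx, ← (vtSub hB e hfrac).valuation_le_one_iff,
    lt_iff_le_and_ne, ne_comm, Ne, s36noOrdE_eq_zero_iff hB e hfrac hx]

end Emb

end Fermat.Agent.S36

end
end ZBS36_020_0

/-! ### bundled: `Fermat.Agent.S36.N2ValAbs` -/
section ZBS36_020_1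

/-!
# S36 / (I1) N2-val, generic part: the hypotheses of `aq_main` for a vertical valuation `vtSub`
over a RAMIFIED base

`(A, ι : A → E, r : A → k, π)` a base (`VtBase`), `e : F →+* E((Q))`, `V = vtSub hB e hfrac`.
The constant `c ∈ F` (the uniformizer of the SMALL base) has order `n` in `V`
(`S36IsOrd ι r π (e c) n`: `n = 1` for `V_a`, `V_b`; `n = q − 1` for `V_c`).

* `s36vt_isOrd_C`  : `a = unit · π ^ n` in the base ⇒ `C (ι a)` has order `n`;
* `s36vt_hπV`      : `0 < n` ⇒ `c ∈ 𝔪(V)`;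
* `s36vt_hram`     : `n ≤ m` ⇒ `x ∈ 𝔪(V) → ∃ z ∈ V, x ^ m = c · z`;
* `s36vt_hU`       : `n = 1` ⇒ `𝔪(V) = c V`;
* `s36vt_mem_of_isIntegral`, `s36vt_hBV`, `s36vt_hBV_inv` : the charts lie in `V`;
* `s36vt_ne_of_mem` : separation of two valuation rings by an element.
-/

set_option autoImplicit false
set_option linter.unusedSectionVars false
set_option linter.style.haveILetI false

noncomputable section

namespace Fermat.Agent.S36

open ModularCurve Fermat.Agent.INJ Fermat.Agent.UNIP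

section generic

variable {A E k : Type*} [CommRing A] [Field E] [Field k]
  {ι : A →+* E} {r : A →+* k} {π : A} {F : Type*} [Field F]
  (hB : VtBase ι r π) (e : F →+* LaurentSeries E) (hfrac : ∀ x : F, VtFrac ι (e x))

include hB in
/-- a constant `a = unit · π ^ n` has order `n` -/
theorem s36vt_isOrd_C {a : A} (u : Aˣ) (n : ℕ) (h : a = u * π ^ n) :
    S36IsOrd ι r π (HahnSeries.C (ι a) : LaurentSeries E) n := by
  have hu : r (u : A) ≠ 0 := by
    intro h0
    have h1 : r (u : A) * r ((u⁻¹ : Aˣ) : A) = 1 := by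
      rw [← map_mul, Units.mul_inv, map_one]
    rw [h0, zero_mul] at h1
    exact zero_ne_one h1
  refine s36IsOrd_of_eq hB (vtUnit_C (ι := ι) hu) ?_
  rw [h, map_mul, map_mul, map_pow, map_pow, zpow_natCast]

include hB in
theorem s36vt_ne_zero_of_ord {c : F} {n : ℤ} (hc : S36IsOrd ι r π (e c) n) : c ≠ 0 :=
  fun h0 => hc.ne_zero hB (by rw [h0, map_zero])

/-- **hπV**: a constant of positive order lies in `𝔪(V)` -/
theorem s36vt_hπV {c : F} {n : ℤ} (hc : S36IsOrd ι r π (e c) n) (hn : 0 < n) :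
    c ∈ (vtSub hB e hfrac).nonunits := by
  rw [← s36noOrdE_pos_iff hB e hfrac (s36vt_ne_zero_of_ord hB e hc)]
  unfold s36noOrdE
  rw [s36noOrd_eq hB hc]
  exact hn

/-- **hram**: if `c` has order `n ≤ m`, the `m`-th power of every element of `𝔪(V)` is divisible
by `c` in `V`. -/
theorem s36vt_hram {c : F} {n : ℤ} (hc : S36IsOrd ι r π (e c) n) {m : ℕ} (hnm : n ≤ m)
    {x : F} (hx : x ∈ (vtSub hB e hfrac).nonunits) :
    ∃ z ∈ vtSub hB e hfrac, x ^ m = c * z := by
  have hc0 : c ≠ 0 := s36vt_ne_zero_of_ord hB e hc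
  obtain ⟨hmem, hred⟩ := (vtSub_mem_nonunits_iff hB e hfrac).mp hx
  obtain ⟨y, hy⟩ := (gaussRed_eq_zero_iff_dvd r hB.inj hB.rπ hB.ker ⟨e x, hmem⟩).mp hred
  have hy' : e x = HahnSeries.C (ι π) * (y : LaurentSeries E) := hy
  obtain ⟨d, hd⟩ : ∃ d : ℕ, (m : ℤ) = n + d := ⟨(m - n).toNat, by omega⟩
  have hCπ := hB.Cιπ_ne
  obtain ⟨u, hu, hec⟩ : ∃ u : LaurentSeries E, VtUnit ι r u ∧
      e c = u * (HahnSeries.C (ι π) : LaurentSeries E) ^ n := ⟨_, hc, hc.eq hB⟩
  have hu0 := hu.ne_zero hB.inj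
  refine ⟨x ^ m / c, ?_, by rw [mul_div_cancel₀ _ hc0]⟩
  rw [mem_vtSub, map_div₀, map_pow, hy', mul_pow, hec]
  have hCm : (HahnSeries.C (ι π) : LaurentSeries E) ^ m =
      (HahnSeries.C (ι π) : LaurentSeries E) ^ n * (HahnSeries.C (ι π) : LaurentSeries E) ^ d := by
    rw [← zpow_natCast, hd, zpow_add₀ hCπ, zpow_natCast]
  have hCn : (HahnSeries.C (ι π) : LaurentSeries E) ^ n ≠ 0 := zpow_ne_zero n hCπ
  have key : (HahnSeries.C (ι π) : LaurentSeries E) ^ m * (y : LaurentSeries E) ^ m /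
      (u * (HahnSeries.C (ι π) : LaurentSeries E) ^ n) =
      (HahnSeries.C (ι π) : LaurentSeries E) ^ d * (y : LaurentSeries E) ^ m * u⁻¹ := by
    rw [hCm, div_eq_iff (mul_ne_zero hu0 hCn)]
    have h1 : u⁻¹ * u = 1 := inv_mul_cancel₀ hu0
    linear_combination (-((HahnSeries.C (ι π) : LaurentSeries E) ^ n *
      (HahnSeries.C (ι π) : LaurentSeries E) ^ d * (y : LaurentSeries E) ^ m)) * h1
  rw [key]
  exact (gaussRing ι r).mul_mem
    ((gaussRing ι r).mul_mem ((gaussRing ι r).pow_mem (hahnC_mem_gaussRing r π) d)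
      ((gaussRing ι r).pow_mem y.2 m)) (hu.inv hB.inj).mem

/-- **hU**: if `c` has order `1`, `𝔪(V) = c V`. -/
theorem s36vt_hU {c : F} (hc : S36IsOrd ι r π (e c) 1) {x : F}
    (hx : x ∈ (vtSub hB e hfrac).nonunits) :
    ∃ z ∈ vtSub hB e hfrac, x = c * z := by
  obtain ⟨z, hz, hxz⟩ := s36vt_hram hB e hfrac hc (m := 1) (by norm_num) hx
  exact ⟨z, hz, by rwa [pow_one] at hxz⟩

variable {A₀ : Type*} [CommRing A₀] [Algebra A₀ F]

/-- elements integral over `A₀[S]`, `S ⊆ V`, are in `V`. -/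
theorem s36vt_mem_of_isIntegral
    (hconst : ∀ a : A₀, algebraMap A₀ F a ∈ vtSub hB e hfrac)
    (S : Set F) (hS : ∀ s ∈ S, s ∈ vtSub hB e hfrac) {x : F}
    (hx : IsIntegral ↥(Algebra.adjoin A₀ S) x) : x ∈ vtSub hB e hfrac := by
  refine vt_mem_of_isIntegral _ (fun y => ?_) hx
  show ((y : Algebra.adjoin A₀ S) : F) ∈ vtSub hB e hfrac
  obtain ⟨y, hy⟩ := y
  show y ∈ vtSub hB e hfrac
  induction hy using Algebra.adjoin_induction with
  | mem s hs => exact hS s hs
  | algebraMap a => exact hconst a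
  | add s t _ _ hs ht => exact (vtSub hB e hfrac).add_mem _ _ hs ht
  | mul s t _ _ hs ht => exact (vtSub hB e hfrac).mul_mem _ _ hs ht

/-- **hBV₁**: the chart `t` lies in `V` when (the expansion of) `t` is a series over `A` with
nonzero reduction. -/
theorem s36vt_hBV (hconst : ∀ a : A₀, algebraMap A₀ F a ∈ vtSub hB e hfrac)
    {t : F} {T₀ : LaurentSeries A} (ht : e t = coeffMap ι T₀)
    (hT₀ : coeffMap r T₀ ≠ 0) {b : F}
    (hb : IsIntegral ↥(Algebra.adjoin A₀ ({t} : Set F)) b) : b ∈ vtSub hB e hfrac := by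
  refine s36vt_mem_of_isIntegral hB e hfrac hconst _ ?_ hb
  rintro s rfl
  exact ((vt_valuation_eq_one_iff _ _).mp
    (vtSub_valuation_eq_one_of_eq_coeffMap hB e hfrac ht hT₀)).2.1

/-- **hBV₂**: the chart `t⁻¹` lies in `V`. -/
theorem s36vt_hBV_inv (hconst : ∀ a : A₀, algebraMap A₀ F a ∈ vtSub hB e hfrac)
    {t : F} {T₀ : LaurentSeries A} (ht : e t = coeffMap ι T₀)
    (hT₀ : coeffMap r T₀ ≠ 0) {b : F}
    (hb : IsIntegral ↥(Algebra.adjoin A₀ ({t⁻¹} : Set F)) b) : b ∈ vtSub hB e hfrac := by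
  refine s36vt_mem_of_isIntegral hB e hfrac hconst _ ?_ hb
  rintro s rfl
  exact ((vt_valuation_eq_one_iff _ _).mp
    (vtSub_valuation_eq_one_of_eq_coeffMap hB e hfrac ht hT₀)).2.2

end generic

section sep

variable {F : Type*} [Field F]

/-- two valuation rings are different if an element is in the maximal ideal of the first and a
unit of the second -/
theorem s36vt_ne_of_mem {V₁ V₂ : ValuationSubring F} {x : F} (h1 : x ∈ V₁.nonunits)
    (h2 : x ∉ V₂.nonunits) : V₁ ≠ V₂ := by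
  intro h
  rw [h] at h1
  exact h2 h1

end sep

end Fermat.Agent.S36

end


end ZBS36_020_1

/-! ### bundled: `Fermat.Agent.S36.NormOrdInv` -/
section ZBS36_020_2

/-!
# S36 / G-nr-ord, part 2: invariance of the Gauss order (helper31)

* `s36no_unit_qExpand`, `s36no_frac_qExpand`, `s36noOrd_qExpand` : `Q ↦ Q^d`;
* `s36no_unit_kronRot`, `s36no_frac_kronRot`, `s36noOrd_kronRot` : `Q ↦ c Q`, `c` a unit of `A`;
* `s36no_frac_compat`, `s36noOrd_compat` : coefficient maps `ψ : E → E'` compatible with the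
  integral structures, `π = unit · π' ^ e`  (base change `e = q − 1`, Galois `e = 1`).
-/

set_option autoImplicit false
set_option linter.unusedSectionVars false

noncomputable section

namespace Fermat.Agent.S36

open ModularCurve Fermat.Agent.INJ Fermat.Agent.UNIP Fermat.Agent.ES

section QExpand

variable {A E k : Type*} [CommRing A] [Field E] [Field k]
  {ι : A →+* E} {r : A →+* k} {π : A}

theorem s36no_qExpand_ne_zero {R : Type*} [CommRing R] (d : ℕ) [NeZero d]
    {T : LaurentSeries R} (hT : T ≠ 0) : qExpand R d T ≠ 0 := fun h =>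
  hT (qExpand_injective d (by rw [h, map_zero]))

theorem s36no_unit_qExpand (d : ℕ) [NeZero d] {u : LaurentSeries E} (hu : VtUnit ι r u) :
    VtUnit ι r (qExpand E d u) := by
  obtain ⟨T, b, hT, hb, h⟩ := hu
  refine ⟨qExpand A d T, qExpand A d b, ?_, ?_, ?_⟩
  · rw [coeffMap_qExpand_comm]; exact s36no_qExpand_ne_zero d hT
  · rw [coeffMap_qExpand_comm]; exact s36no_qExpand_ne_zero d hb
  · rw [coeffMap_qExpand_comm, coeffMap_qExpand_comm, ← map_mul, h]

theorem s36no_frac_qExpand (d : ℕ) [NeZero d] {x : LaurentSeries E} (hx : VtFrac ι x) :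
    VtFrac ι (qExpand E d x) := by
  obtain ⟨T, b, hb, h⟩ := hx
  refine ⟨qExpand A d T, qExpand A d b, s36no_qExpand_ne_zero d hb, ?_⟩
  rw [coeffMap_qExpand_comm, coeffMap_qExpand_comm, ← map_mul, h]

theorem s36noOrd_qExpand (hB : VtBase ι r π) (d : ℕ) [NeZero d] {x : LaurentSeries E}
    (hx : x ≠ 0) (hf : VtFrac ι x) :
    s36noOrd ι r π (qExpand E d x) = s36noOrd ι r π x := by
  have h := s36noOrd_map hB hB (qExpand E d) (fun u hu => s36no_unit_qExpand d hu)
    (e := 1) (by rw [qExpand_C]; exact s36IsOrd_Cpi hB) hx hf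
  rw [h, mul_one]

end QExpand

section KronRot

variable {A E k : Type*} [CommRing A] [Field E] [Field k]
  {ι : A →+* E} {r : A →+* k} {π : A}

theorem s36no_kronRot_ne_zero {R : Type*} [CommRing R] (c : Rˣ) {T : LaurentSeries R}
    (hT : T ≠ 0) : kronRot c T ≠ 0 := by
  intro h
  apply hT
  have := congrArg (kronRot c⁻¹) h
  rwa [kronRot_kronRot, inv_mul_cancel, kronRot_one, map_zero] at this

theorem s36no_kronRot_C {R : Type*} [CommRing R] (c : Rˣ) (a : R) :
    kronRot c (HahnSeries.C a : LaurentSeries R) = HahnSeries.C a := by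
  ext n
  rw [kronRot_coeff, HahnSeries.C_apply]
  by_cases hn : n = 0
  · subst hn
    simp
  · rw [HahnSeries.coeff_single_of_ne hn, mul_zero]

theorem s36no_unit_kronRot (z : Aˣ) {u : LaurentSeries E} (hu : VtUnit ι r u) :
    VtUnit ι r (kronRot (Units.map (ι : A →* E) z) u) := by
  obtain ⟨T, b, hT, hb, h⟩ := hu
  refine ⟨kronRot z T, kronRot z b, ?_, ?_, ?_⟩
  · rw [coeffMap_kronRot]; exact s36no_kronRot_ne_zero _ hT
  · rw [coeffMap_kronRot]; exact s36no_kronRot_ne_zero _ hb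
  · rw [coeffMap_kronRot, coeffMap_kronRot, ← map_mul, h]

theorem s36no_frac_kronRot (z : Aˣ) {x : LaurentSeries E} (hx : VtFrac ι x) :
    VtFrac ι (kronRot (Units.map (ι : A →* E) z) x) := by
  obtain ⟨T, b, hb, h⟩ := hx
  refine ⟨kronRot z T, kronRot z b, s36no_kronRot_ne_zero _ hb, ?_⟩
  rw [coeffMap_kronRot, coeffMap_kronRot, ← map_mul, h]

theorem s36noOrd_kronRot (hB : VtBase ι r π) (z : Aˣ) {x : LaurentSeries E}
    (hx : x ≠ 0) (hf : VtFrac ι x) :
    s36noOrd ι r π (kronRot (Units.map (ι : A →* E) z) x) = s36noOrd ι r π x := by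
  have h := s36noOrd_map hB hB (kronRot (Units.map (ι : A →* E) z))
    (fun u hu => s36no_unit_kronRot z hu)
    (e := 1) (by rw [s36no_kronRot_C]; exact s36IsOrd_Cpi hB) hx hf
  rw [h, mul_one]

/-- the same with the unit of `E` given together with its integral model -/
theorem s36noOrd_kronRot' (hB : VtBase ι r π) (c : Eˣ) (hc : ∃ z : Aˣ, ι z = c)
    {x : LaurentSeries E} (hx : x ≠ 0) (hf : VtFrac ι x) :
    s36noOrd ι r π (kronRot c x) = s36noOrd ι r π x := by
  obtain ⟨z, hz⟩ := hc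
  have e : c = Units.map (ι : A →* E) z := Units.ext hz.symm
  rw [e]
  exact s36noOrd_kronRot hB z hx hf

theorem s36no_frac_kronRot' (c : Eˣ) (hc : ∃ z : Aˣ, ι z = c)
    {x : LaurentSeries E} (hf : VtFrac ι x) : VtFrac ι (kronRot c x) := by
  obtain ⟨z, hz⟩ := hc
  have e : c = Units.map (ι : A →* E) z := Units.ext hz.symm
  rw [e]
  exact s36no_frac_kronRot z hf

end KronRot

section Compat

variable {A E k A' E' k' : Type*} [CommRing A] [Field E] [Field k]
  [CommRing A'] [Field E'] [Field k']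
  {ι : A →+* E} {r : A →+* k} {π : A} {ι' : A' →+* E'} {r' : A' →+* k'} {π' : A'}
  {ψ : E →+* E'} {κ : k →+* k'}

theorem s36no_frac_compat (hc : VtCompat ι r ι' r' ψ κ) (hι : Function.Injective ι)
    {x : LaurentSeries E} (hx : VtFrac ι x) : VtFrac ι' (coeffMap ψ x) := by
  obtain ⟨T, b, hb, h⟩ := hx
  obtain ⟨T', hT', -⟩ := vt_exists_lift hc T
  obtain ⟨b', hb', -⟩ := vt_exists_lift hc b
  refine ⟨T', b', ?_, ?_⟩
  · rintro rfl
    rw [map_zero] at hb'
    have h1 : coeffMap ι b ≠ 0 := vt_coeffMap_ne_zero hι hb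
    have h2 : coeffMap ψ (coeffMap ι b) ≠ 0 := fun h0 =>
      h1 (coeffMap_inj_of_injective ψ ψ.injective (by rw [h0, map_zero]))
    exact h2 hb'.symm
  · rw [hT', hb', ← h, map_mul]

/-- **the order under a compatible coefficient map**: `π = unit · π' ^ e`. -/
theorem s36noOrd_compat (hB : VtBase ι r π) (hB' : VtBase ι' r' π')
    (hc : VtCompat ι r ι' r' ψ κ) {e : ℤ}
    (he : S36IsOrd ι' r' π' (HahnSeries.C (ψ (ι π)) : LaurentSeries E') e)
    {x : LaurentSeries E} (hx : x ≠ 0) (hf : VtFrac ι x) :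
    s36noOrd ι' r' π' (coeffMap ψ x) = s36noOrd ι r π x * e :=
  s36noOrd_map hB hB' (coeffMap ψ) (fun _ hu => VtUnit.compat hc hu)
    (by rw [coeffMap_hahnC]; exact he) hx hf

end Compat

end Fermat.Agent.S36

end
end ZBS36_020_2

/-! ### bundled: `Fermat.Agent.S36.NormResKer` -/
section ZBS36_020_3

/-!
# S36 / G-nr, part 2 (helper20): the kernel of the Gauss reduction as a subgroup of `K((Q))`

`(A, ι : A → K, r : A → k)` a base.  `s36nrKer ι r ⊆ K((Q))` is the set of quotients `T / b` of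
series over `A` with `r̂ b ≠ 0`, `r̂ T = 0`: the maximal ideal of the Gauss ring.

* `s36nrKer_mul` : closed under multiplication;
* `s36nr_mem_ker_iff` : `y ∈ ker ↔ ∃ h : y ∈ gaussRing, gaussRed ⟨y, h⟩ = 0`;
* `s36nr_cut` : `x ∈ 𝔪(vtSub hB e hfrac) ↔ e x ∈ ker` ("`vtSub` is cut out by `e`");
* `s36nr_cut_bc` : the same after a compatible base change `ψ : E → K` of the coefficients;
* `s36nr_kronRot_mem_ker_iff` : the kernel is stable under the rotations `Q ↦ z Q`, `z ∈ Aˣ`;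
* `s36nr_kronRot_div_sub_one` : if `r z = 1` then `y(zQ) / y(Q) ≡ 1` for every Gauss unit `y`.
-/

set_option autoImplicit false
set_option linter.unusedSectionVars false
set_option linter.style.haveILetI false

noncomputable section

namespace Fermat.Agent.S36

open ModularCurve Fermat.Agent.UNIP Fermat.Agent.INJ Fermat.Agent.ES

section Ker

variable {A K k : Type*} [CommRing A] [Field K] [Field k] (ι : A →+* K) (r : A →+* k)

/-- the kernel of the Gauss reduction (the maximal ideal of the Gauss ring), as an additive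
subgroup of `K((Q))` -/
def s36nrKer : AddSubgroup (LaurentSeries K) where
  carrier := {y | ∃ T b : LaurentSeries A, coeffMap r b ≠ 0 ∧ coeffMap r T = 0 ∧
    coeffMap ι b * y = coeffMap ι T}
  zero_mem' := ⟨0, 1, by simp, by simp, by simp⟩
  add_mem' := by
    rintro x y ⟨T, b, hb, hT, h⟩ ⟨T', b', hb', hT', h'⟩
    refine ⟨T * b' + T' * b, b * b', ?_, ?_, ?_⟩
    · rw [map_mul]
      exact mul_ne_zero hb hb'
    · rw [map_add, map_mul, map_mul, hT, hT', zero_mul, zero_mul, add_zero]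
    · rw [map_mul, map_add, map_mul, map_mul, ← h, ← h']
      ring
  neg_mem' := by
    rintro x ⟨T, b, hb, hT, h⟩
    refine ⟨-T, b, hb, ?_, ?_⟩
    · rw [map_neg, hT, neg_zero]
    · rw [map_neg, ← h]
      ring

variable {ι r}

theorem s36nr_mem_ker {y : LaurentSeries K} :
    y ∈ s36nrKer ι r ↔ ∃ T b : LaurentSeries A, coeffMap r b ≠ 0 ∧ coeffMap r T = 0 ∧
      coeffMap ι b * y = coeffMap ι T := Iff.rfl

/-- the kernel is closed under multiplication -/
theorem s36nrKer_mul (a b : LaurentSeries K) (ha : a ∈ s36nrKer ι r) (hb : b ∈ s36nrKer ι r) :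
    a * b ∈ s36nrKer ι r := by
  obtain ⟨T, c, hc, hT, h⟩ := ha
  obtain ⟨T', c', hc', hT', h'⟩ := hb
  refine ⟨T * T', c * c', ?_, ?_, ?_⟩
  · rw [map_mul]
    exact mul_ne_zero hc hc'
  · rw [map_mul, hT, zero_mul]
  · rw [map_mul, map_mul, ← h, ← h']
    ring

/-- the kernel is the kernel of `gaussRed` -/
theorem s36nr_mem_ker_iff (hι : Function.Injective ι) {y : LaurentSeries K} :
    y ∈ s36nrKer ι r ↔ ∃ h : y ∈ gaussRing ι r, gaussRed r hι ⟨y, h⟩ = 0 := by
  constructor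
  · rintro ⟨T, b, hb, hT, h⟩
    exact ⟨⟨T, b, hb, h⟩, (gaussRed_eq_zero_iff r hι ⟨y, ⟨T, b, hb, h⟩⟩ T b hb h).mpr hT⟩
  · rintro ⟨hy, h0⟩
    obtain ⟨T, b, hb, h⟩ := hy
    exact ⟨T, b, hb, (gaussRed_eq_zero_iff r hι ⟨y, ⟨T, b, hb, h⟩⟩ T b hb h).mp h0, h⟩

/-- **the vertical valuation `vtSub hB e hfrac` is cut out by `e`** -/
theorem s36nr_cut {π : A} {F : Type*} [Field F] (hB : VtBase ι r π)
    (e : F →+* LaurentSeries K) (hfrac : ∀ x : F, VtFrac ι (e x)) (x : F) :
    x ∈ (vtSub hB e hfrac).nonunits ↔ e x ∈ s36nrKer ι r :=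
  (vtSub_mem_nonunits_iff hB e hfrac).trans (s36nr_mem_ker_iff hB.inj).symm

/-- the kernel is stable under rotation -/
theorem s36nr_kronRot_mem_ker (z : Aˣ) {y : LaurentSeries K} (hy : y ∈ s36nrKer ι r) :
    kronRot (Units.map (ι : A →* K) z) y ∈ s36nrKer ι r := by
  obtain ⟨T, b, hb, hT, h⟩ := hy
  refine ⟨kronRot z T, kronRot z b, ?_, ?_, ?_⟩
  · rw [coeffMap_kronRot]
    exact s36n2_kronRot_ne_zero _ hb
  · rw [coeffMap_kronRot, hT, map_zero]
  · rw [← s36n2_kronRot_coeffMap, ← s36n2_kronRot_coeffMap, ← map_mul, h]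

theorem s36nr_kronRot_mem_ker_iff (z : Aˣ) {y : LaurentSeries K} :
    kronRot (Units.map (ι : A →* K) z) y ∈ s36nrKer ι r ↔ y ∈ s36nrKer ι r := by
  refine ⟨fun hy => ?_, s36nr_kronRot_mem_ker z⟩
  have h1 := s36nr_kronRot_mem_ker (r := r) z⁻¹ hy
  rw [kronRot_kronRot, ← map_mul, inv_mul_cancel, map_one, kronRot_one] at h1
  exact h1

/-- **rotation by a unit reducing to `1` is trivial on the residue field**:
`y(zQ) / y(Q) ≡ 1` for every unit `y` of the Gauss ring -/
theorem s36nr_kronRot_div_sub_one (hι : Function.Injective ι) (z : Aˣ) (hz : r (z : A) = 1)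
    {y : LaurentSeries K} (hy : VtUnit ι r y) :
    kronRot (Units.map (ι : A →* K) z) y / y - 1 ∈ s36nrKer ι r := by
  have hy0 : y ≠ 0 := hy.ne_zero hι
  obtain ⟨T, b, hT, hb, h⟩ := hy
  have hz1 : Units.map (r : A →* k) z = 1 := Units.ext hz
  refine ⟨kronRot z T * b - kronRot z b * T, kronRot z b * T, ?_, ?_, ?_⟩
  · rw [map_mul, coeffMap_kronRot]
    exact mul_ne_zero (s36n2_kronRot_ne_zero _ hb) hT
  · rw [map_sub, map_mul, map_mul, coeffMap_kronRot, coeffMap_kronRot, hz1, kronRot_one,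
      kronRot_one, mul_comm, sub_self]
  · have h1 : coeffMap ι (kronRot z b) * kronRot (Units.map (ι : A →* K) z) y =
        coeffMap ι (kronRot z T) := by
      rw [← s36n2_kronRot_coeffMap, ← s36n2_kronRot_coeffMap, ← map_mul, h]
    rw [map_sub, map_mul, map_mul, ← h1, ← h]
    field_simp

end Ker

section BaseChange

variable {A E k A' K k' : Type*} [CommRing A] [Field E] [Field k]
  [CommRing A'] [Field K] [Field k']
  {ι : A →+* E} {r : A →+* k} {π : A} {ι' : A' →+* K} {r' : A' →+* k'} {π' : A'}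
  {ψ : E →+* K} {κ : k →+* k'} {F : Type*} [Field F]

/-- **cut-out after base change**: `vtSub hB e hfrac` (coefficients in `E`) is cut out by
`ψ̂ ∘ e` (coefficients in `K`) -/
theorem s36nr_cut_bc (hB : VtBase ι r π) (hB' : VtBase ι' r' π')
    (hc : VtCompat ι r ι' r' ψ κ)
    (e : F →+* LaurentSeries E) (hfrac : ∀ x : F, VtFrac ι (e x))
    (e' : F →+* LaurentSeries K) (he' : ∀ x, e' x = coeffMap ψ (e x)) (x : F) :
    x ∈ (vtSub hB e hfrac).nonunits ↔ e' x ∈ s36nrKer ι' r' := by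
  have hfrac' : ∀ x : F, VtFrac ι' (e' x) := fun x => by
    rw [he']
    exact s36no_frac_compat hc hB.inj (hfrac x)
  rw [← s36nr_cut hB' e' hfrac']
  exact (vtSub_baseChange_mem_nonunits_iff hB hB' e hfrac e' hfrac' hc (RingHom.id F) he' x).symm

/-- units after base change -/
theorem s36nr_unit_bc (hB : VtBase ι r π)
    (hc : VtCompat ι r ι' r' ψ κ)
    (e : F →+* LaurentSeries E) (hfrac : ∀ x : F, VtFrac ι (e x)) {x : F}
    (hx : (vtSub hB e hfrac).valuation x = 1) : VtUnit ι' r' (coeffMap ψ (e x)) :=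
  ((vtSub_valuation_eq_one_iff hB e hfrac).mp hx).compat hc

end BaseChange

end Fermat.Agent.S36

end
end ZBS36_020_3
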