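/- GENERATED FILE (helper35, build-time optimisation, NOTES/ZB.md): verbatim concatenation of the modules
   Fermat.Agent.S36.N2BaseAbs
   Fermat.Agent.S36.N2Base
   Fermat.Agent.S36.N2BaseGal
   Do not edit; do not import together with these modules. -/
import Mathlib
import Fermat.Agent.ZB.S34_001
import Fermat.Agent.ZB.UNIP_006

/-! ### bundled: `Fermat.Agent.S36.N2BaseAbs` -/
section ZBS36_021_0

/-!
# S36 / G-N2, piece N2-base, part 1 (Mathlib only): the value of `1 - ζ`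

`L` a field, `A` a valuation subring, `ζ ∈ L` a primitive `q`-th root of unity, `q` prime.

* `s36n2b_valuation_root`        : `v ζ = 1`;
* `s36n2b_valuation_one_sub_pow` : `v (1 - ζ ^ b) = v (1 - ζ)` for `q ∤ b`;
* `s36n2b_valuation_pow_eq`      : `v (1 - ζ) ^ (q - 1) = v q`;
* `s36n2b_valuation_lt_one`      : `v (1 - ζ) < 1` if `v q < 1`.
-/

set_option autoImplicit false

namespace Fermat.Agent.S36

section abs

variable {L : Type*} [Field L] (A : ValuationSubring L) {q : ℕ} {ζ : L}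

/-- a root of unity has value one -/
theorem s36n2b_valuation_root {n : ℕ} (hn : n ≠ 0) (hζ : ζ ^ n = 1) : A.valuation ζ = 1 := by
  have h1 : A.valuation ζ ^ n = 1 := by rw [← map_pow, hζ, map_one]
  exact (pow_eq_one_iff_of_nonneg zero_le hn).mp h1

/-- geometric sums of a root of unity are integral -/
theorem s36n2b_geom_le {n : ℕ} (hn : n ≠ 0) (hζ : ζ ^ n = 1) (b : ℕ) :
    A.valuation (∑ i ∈ Finset.range b, ζ ^ i) ≤ 1 := by
  apply Valuation.map_sum_le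
  intro i _
  rw [map_pow, s36n2b_valuation_root A hn hζ, one_pow]

/-- `v (1 - ζ ^ b) ≤ v (1 - ζ)` -/
theorem s36n2b_valuation_one_sub_pow_le {n : ℕ} (hn : n ≠ 0) (hζ : ζ ^ n = 1) (b : ℕ) :
    A.valuation (1 - ζ ^ b) ≤ A.valuation (1 - ζ) := by
  have h1 : 1 - ζ ^ b = (1 - ζ) * ∑ i ∈ Finset.range b, ζ ^ i := by
    rw [mul_comm, geom_sum_mul_neg]
  rw [h1, map_mul]
  calc A.valuation (1 - ζ) * A.valuation (∑ i ∈ Finset.range b, ζ ^ i)
      ≤ A.valuation (1 - ζ) * 1 := mul_le_mul_right (s36n2b_geom_le A hn hζ b) _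
    _ = A.valuation (1 - ζ) := mul_one _

/-- **`v (1 - ζ ^ b) = v (1 - ζ)`** for `b` prime to `q`. -/
theorem s36n2b_valuation_one_sub_pow (hq : q.Prime) (hζ : IsPrimitiveRoot ζ q) {b : ℕ}
    (hb : ¬ q ∣ b) : A.valuation (1 - ζ ^ b) = A.valuation (1 - ζ) := by
  apply le_antisymm (s36n2b_valuation_one_sub_pow_le A hq.ne_zero hζ.pow_eq_one b)
  have hcop : Nat.Coprime b q := ((Nat.Prime.coprime_iff_not_dvd hq).mpr hb).symm
  obtain ⟨c, -, hc⟩ := Nat.exists_mul_mod_eq_one_of_coprime hcop hq.one_lt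
  have h1 : (ζ ^ b) ^ c = ζ := by
    rw [← pow_mul, ← Nat.div_add_mod (b * c) q, hc, pow_add, pow_mul, hζ.pow_eq_one, one_pow,
      one_mul, pow_one]
  have h2 : (ζ ^ b) ^ q = 1 := by rw [← pow_mul, mul_comm, pow_mul, hζ.pow_eq_one, one_pow]
  have h3 := s36n2b_valuation_one_sub_pow_le A hq.ne_zero h2 c
  rwa [h1] at h3

/-- **`v (1 - ζ) ^ (q - 1) = v q`**. -/
theorem s36n2b_valuation_pow_eq (hq : q.Prime) (hζ : IsPrimitiveRoot ζ q) :
    A.valuation (1 - ζ) ^ (q - 1) = A.valuation (q : L) := by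
  obtain ⟨n, rfl⟩ : ∃ n, q = n + 1 := ⟨q - 1, (Nat.sub_add_cancel hq.pos).symm⟩
  have h1 := hζ.prod_one_sub_pow_eq_order
  have h2 : A.valuation (∏ k ∈ Finset.range n, (1 - ζ ^ (k + 1))) =
      A.valuation (1 - ζ) ^ n := by
    rw [map_prod]
    rw [Finset.prod_congr rfl (fun k hk => s36n2b_valuation_one_sub_pow A hq hζ (b := k + 1) ?_)]
    · rw [Finset.prod_const, Finset.card_range]
    · intro hdvd
      have hk' : k < n := Finset.mem_range.mp hk
      have := Nat.le_of_dvd (Nat.succ_pos k) hdvd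
      omega
  rw [Nat.add_sub_cancel, ← h2, h1]
  push_cast
  rfl

/-- `v (1 - ζ) < 1` when `v q < 1`. -/
theorem s36n2b_valuation_lt_one (hq : q.Prime) (hζ : IsPrimitiveRoot ζ q)
    (hA : A.valuation (q : L) < 1) : A.valuation (1 - ζ) < 1 := by
  by_contra h
  rw [not_lt] at h
  have h1 : (1 : A.ValueGroup) ≤ A.valuation (1 - ζ) ^ (q - 1) := one_le_pow₀ h
  rw [s36n2b_valuation_pow_eq A hq hζ] at h1
  exact absurd hA (not_lt.mpr h1)

/-- `1 - ζ ≠ 0` -/
theorem s36n2b_one_sub_ne_zero (hq : q.Prime) (hζ : IsPrimitiveRoot ζ q) : 1 - ζ ≠ 0 := by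
  intro h
  exact hζ.ne_one hq.one_lt (sub_eq_zero.mp h).symm

end abs

end Fermat.Agent.S36


end ZBS36_021_0

/-! ### bundled: `Fermat.Agent.S36.N2Base` -/
section ZBS36_021_1

/-!
# S36 / G-N2, piece N2-base: the base `A_K = A ∩ K`, `K = E₀(ζ_q)`, uniformizer `1 - ζ`

`A` a valuation subring of `ℚ̄` over the prime `q`, `E₀ = beta0Field A = ℚ̄^I` the inertia field,
`ζ ∈ ℚ̄` a primitive `q`-th root of unity, `F = ℚ(ζ)` (`s36n2bF ζ`), `K = E₀ ⊔ F` (`s36n2bK A ζ`),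
`A_K = beta0Ring A K`.

* `s36n2bF_numberField`, `s36n2bF_isGalois`, `s36n2bF_finrank` : `F / ℚ` is Galois of degree `q - 1`;
* `s36n2b_isDVR`        : `A_K` is a discrete valuation ring;
* `s36n2bZeta`, `s36n2bPi` : `ζ` and `Π = 1 - ζ` as elements of `A_K`;
* `s36n2b_deg`          : `beta0Deg A F = q - 1` (`F / ℚ` is totally ramified at `A`);
* `s36n2b_irreducible`  : `Π = 1 - ζ` is irreducible in `A_K`;
* `s36n2b_associated`   : `q` is associated to `Π ^ (q - 1)` in `A_K`; `s36n2b_exists_unit`;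
* `s36n2b_vtBase`       : `VtBase (algebraMap A_K K) (residue A_K) Π`;
* `s36n2b_exists_residue` : the residue field of `A_K` is that of `A₀ = A ∩ E₀`;
* `s36n2b_apply_mem`    : `K` is stable under the inertia group;
* `s36n2b_compat`       : the inclusion `E₀ ≤ K` is compatible (`VtCompat`), with bijective map of the
  residue fields;
* `s36n2b_exists_inertia_pow` : for `q ∤ b` there is `σ` in the inertia group with `σ ζ = ζ ^ b`.
-/

set_option autoImplicit false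
set_option linter.unusedSectionVars false
set_option linter.style.haveILetI false

noncomputable section

namespace Fermat.Agent.S36

open Fermat.Agent.UNIP

section field

variable (ζ : AlgebraicClosure ℚ)

/-- `F = ℚ(ζ)`. -/
def s36n2bF : IntermediateField ℚ (AlgebraicClosure ℚ) :=
  IntermediateField.adjoin ℚ ({ζ} : Set (AlgebraicClosure ℚ))

theorem s36n2b_zeta_mem_F : ζ ∈ s36n2bF ζ :=
  IntermediateField.subset_adjoin ℚ _ (Set.mem_singleton ζ)

variable {ζ} {q : ℕ}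

theorem s36n2bF_isCyclotomicExtension (hq : q.Prime) (hζ : IsPrimitiveRoot ζ q) :
    IsCyclotomicExtension {q} ℚ (s36n2bF ζ) := by
  haveI : NeZero q := ⟨hq.ne_zero⟩
  haveI : Algebra.IsAlgebraic ℚ (AlgebraicClosure ℚ) := AlgebraicClosure.isAlgebraic ℚ
  haveI : Algebra.IsIntegral ℚ (AlgebraicClosure ℚ) := Algebra.IsAlgebraic.isIntegral
  exact hζ.intermediateField_adjoin_isCyclotomicExtension ℚ

theorem s36n2bF_numberField (hq : q.Prime) (hζ : IsPrimitiveRoot ζ q) :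
    NumberField (s36n2bF ζ) := by
  haveI := s36n2bF_isCyclotomicExtension hq hζ
  exact IsCyclotomicExtension.numberField {q} ℚ (s36n2bF ζ)

theorem s36n2bF_isGalois (hq : q.Prime) (hζ : IsPrimitiveRoot ζ q) :
    IsGalois ℚ (s36n2bF ζ) := by
  haveI := s36n2bF_isCyclotomicExtension hq hζ
  exact IsCyclotomicExtension.isGalois {q} ℚ (s36n2bF ζ)

theorem s36n2bF_finrank (hq : q.Prime) (hζ : IsPrimitiveRoot ζ q) :
    Module.finrank ℚ (s36n2bF ζ) = q - 1 := by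
  haveI : NeZero q := ⟨hq.ne_zero⟩
  haveI := s36n2bF_isCyclotomicExtension hq hζ
  rw [IsCyclotomicExtension.Rat.finrank q (s36n2bF ζ), Nat.totient_prime hq]

end field

section base

variable (A : ValuationSubring (AlgebraicClosure ℚ)) (ζ : AlgebraicClosure ℚ)

/-- `K = E₀(ζ) = E₀ ⊔ ℚ(ζ)`. -/
def s36n2bK : IntermediateField ℚ (AlgebraicClosure ℚ) := beta0Field A ⊔ s36n2bF ζ

theorem s36n2b_le_K : beta0Field A ≤ s36n2bK A ζ := le_sup_left

theorem s36n2b_F_le_K : s36n2bF ζ ≤ s36n2bK A ζ := le_sup_right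

theorem s36n2b_zeta_mem_K : ζ ∈ s36n2bK A ζ := s36n2b_F_le_K A ζ (s36n2b_zeta_mem_F ζ)

variable {A ζ} {q : ℕ}

/-- **`A_K` is a discrete valuation ring.** -/
theorem s36n2b_isDVR (hq : q.Prime) (hA : A.LiesOverPrime q) (hζ : IsPrimitiveRoot ζ q) :
    IsDiscreteValuationRing (beta0Ring A (s36n2bK A ζ)) := by
  haveI := s36n2bF_numberField hq hζ
  haveI := s36n2bF_isGalois hq hζ
  exact beta0Ring_isDVR_sup (s36n2bF ζ) hq hA

theorem s36n2b_zeta_mem_A (hq : q.Prime) (hζ : IsPrimitiveRoot ζ q) : ζ ∈ A :=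
  Fermat.Agent.S31.rootOfUnity_mem A hq.ne_zero hζ.pow_eq_one

/-- `ζ` as an element of `A_K`. -/
def s36n2bZeta (hq : q.Prime) (hζ : IsPrimitiveRoot ζ q) : beta0Ring A (s36n2bK A ζ) :=
  ⟨⟨ζ, s36n2b_zeta_mem_K A ζ⟩, s36n2b_zeta_mem_A hq hζ⟩

@[simp]
theorem s36n2bZeta_coe (hq : q.Prime) (hζ : IsPrimitiveRoot ζ q) :
    (((s36n2bZeta (A := A) hq hζ : beta0Ring A (s36n2bK A ζ)) : ↥(s36n2bK A ζ)) :
      AlgebraicClosure ℚ) = ζ := rfl

/-- the uniformizer `Π = 1 - ζ` of `A_K`. -/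
def s36n2bPi (hq : q.Prime) (hζ : IsPrimitiveRoot ζ q) : beta0Ring A (s36n2bK A ζ) :=
  1 - s36n2bZeta hq hζ

@[simp]
theorem s36n2bPi_coe (hq : q.Prime) (hζ : IsPrimitiveRoot ζ q) :
    (((s36n2bPi (A := A) hq hζ : beta0Ring A (s36n2bK A ζ)) : ↥(s36n2bK A ζ)) :
      AlgebraicClosure ℚ) = 1 - ζ := rfl

theorem s36n2bZeta_isPrimitiveRoot (hq : q.Prime) (hζ : IsPrimitiveRoot ζ q) :
    IsPrimitiveRoot (s36n2bZeta (A := A) hq hζ) q := by
  have hinj : Function.Injective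
      ((algebraMap ↥(s36n2bK A ζ) (AlgebraicClosure ℚ)).comp
        (beta0Ring A (s36n2bK A ζ)).subtype) := by
    intro x y hxy
    apply Subtype.ext
    apply Subtype.ext
    exact hxy
  exact IsPrimitiveRoot.of_map_of_injective (f := (algebraMap ↥(s36n2bK A ζ)
    (AlgebraicClosure ℚ)).comp (beta0Ring A (s36n2bK A ζ)).subtype) hζ hinj

theorem s36n2bPi_ne_zero (hq : q.Prime) (hζ : IsPrimitiveRoot ζ q) :
    s36n2bPi (A := A) hq hζ ≠ 0 := by
  intro h
  apply s36n2b_one_sub_ne_zero hq hζ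
  have := congrArg (fun z : beta0Ring A (s36n2bK A ζ) =>
    ((z : ↥(s36n2bK A ζ)) : AlgebraicClosure ℚ)) h
  simpa using this

/-- `v (1 - ζ) ^ (q - 1) = v q`. -/
theorem s36n2bPi_valuation_pow (hq : q.Prime) (hζ : IsPrimitiveRoot ζ q) :
    A.valuation (1 - ζ) ^ (q - 1) = A.valuation (q : AlgebraicClosure ℚ) :=
  s36n2b_valuation_pow_eq A hq hζ

theorem s36n2bPi_valuation_lt_one (hq : q.Prime) (hA : A.LiesOverPrime q)
    (hζ : IsPrimitiveRoot ζ q) : A.valuation (1 - ζ) < 1 :=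
  s36n2b_valuation_lt_one A hq hζ (A.mem_nonunits_iff.mp hA)

/-- the ramification index is at most the degree -/
theorem s36n2b_deg_le (hq : q.Prime) (hζ : IsPrimitiveRoot ζ q) :
    haveI := s36n2bF_numberField hq hζ
    beta0Deg A (s36n2bF ζ) ≤ q - 1 := by
  haveI := s36n2bF_numberField hq hζ
  rw [← s36n2bF_finrank hq hζ]
  have h1 := Module.finrank_mul_finrank ℚ (beta0T A (s36n2bF ζ)) (s36n2bF ζ)
  have h2 : 0 < Module.finrank ℚ (beta0T A (s36n2bF ζ)) := Module.finrank_pos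
  unfold beta0Deg
  nlinarith

/-- **Key computation**: `Π = 1 - ζ` is associated to the uniformizer, and `F / ℚ` is totally
ramified at `A`. -/
theorem s36n2b_key (hq : q.Prime) (hA : A.LiesOverPrime q) (hζ : IsPrimitiveRoot ζ q) :
    haveI := s36n2bF_numberField hq hζ
    Irreducible (s36n2bPi (A := A) hq hζ) ∧ beta0Deg A (s36n2bF ζ) = q - 1 := by
  haveI := s36n2bF_numberField hq hζ
  haveI := s36n2bF_isGalois hq hζ
  haveI := s36n2b_isDVR hq hA hζ
  obtain ⟨π, hπ, -, hπn, -, -⟩ : ∃ π : beta0Ring A (s36n2bK A ζ), Irreducible π ∧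
      (((π : ↥(s36n2bK A ζ)) : AlgebraicClosure ℚ) ∈ s36n2bF ζ) ∧
      A.valuation (((π : ↥(s36n2bK A ζ)) : AlgebraicClosure ℚ)) ^ (beta0Deg A (s36n2bF ζ)) =
        A.valuation (q : AlgebraicClosure ℚ) ∧
      π ^ (beta0Deg A (s36n2bF ζ)) ∣ ((q : ℕ) : beta0Ring A (s36n2bK A ζ)) ∧
      ((q : ℕ) : beta0Ring A (s36n2bK A ζ)) ∣ π ^ (beta0Deg A (s36n2bF ζ)) :=
    beta0Ring_sup_exists_irreducible (A := A) (s36n2bF ζ) hq hA
  obtain ⟨a, u, hu⟩ := IsDiscreteValuationRing.associated_pow_irreducible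
    (s36n2bPi_ne_zero (A := A) hq hζ) hπ
  -- valuations
  have hπ0 : (((π : ↥(s36n2bK A ζ)) : AlgebraicClosure ℚ)) ≠ 0 := by
    intro h0
    apply hπ.ne_zero
    apply Subtype.ext
    apply Subtype.ext
    exact h0
  have hγ0 : 0 < A.valuation (((π : ↥(s36n2bK A ζ)) : AlgebraicClosure ℚ)) :=
    zero_lt_iff.mpr ((Valuation.ne_zero_iff _).mpr hπ0)
  have hγ1 : A.valuation (((π : ↥(s36n2bK A ζ)) : AlgebraicClosure ℚ)) < 1 := by
    have : π ∈ IsLocalRing.maximalIdeal (beta0Ring A (s36n2bK A ζ)) :=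
      (IsLocalRing.mem_maximalIdeal _).mpr hπ.not_isUnit
    rw [beta0Ring_mem_maximalIdeal_iff] at this
    exact A.mem_nonunits_iff.mp this
  have huv : A.valuation ((((u : beta0Ring A (s36n2bK A ζ)) : ↥(s36n2bK A ζ)) :
      AlgebraicClosure ℚ)) = 1 := (beta0Ring_isUnit_iff _).mp u.isUnit
  have hval : A.valuation (1 - ζ) =
      A.valuation (((π : ↥(s36n2bK A ζ)) : AlgebraicClosure ℚ)) ^ a := by
    have h1 := congrArg (fun z : beta0Ring A (s36n2bK A ζ) =>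
      A.valuation (((z : ↥(s36n2bK A ζ)) : AlgebraicClosure ℚ))) hu
    have e1 : ((((s36n2bPi (A := A) hq hζ * (u : beta0Ring A (s36n2bK A ζ)) :
        beta0Ring A (s36n2bK A ζ)) : ↥(s36n2bK A ζ)) : AlgebraicClosure ℚ)) =
        (1 - ζ) * ((((u : beta0Ring A (s36n2bK A ζ)) : ↥(s36n2bK A ζ)) :
          AlgebraicClosure ℚ)) := rfl
    have e2 : ((((π ^ a : beta0Ring A (s36n2bK A ζ)) : ↥(s36n2bK A ζ)) :
        AlgebraicClosure ℚ)) = (((π : ↥(s36n2bK A ζ)) : AlgebraicClosure ℚ)) ^ a := rfl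
    simp only [e1, e2, map_mul, map_pow] at h1
    rw [huv, mul_one] at h1
    exact h1
  have hpow : A.valuation (((π : ↥(s36n2bK A ζ)) : AlgebraicClosure ℚ)) ^
      (a * (q - 1)) =
      A.valuation (((π : ↥(s36n2bK A ζ)) : AlgebraicClosure ℚ)) ^
        (beta0Deg A (s36n2bF ζ)) := by
    rw [pow_mul, ← hval, s36n2bPi_valuation_pow hq hζ, hπn]
  have heq : a * (q - 1) = beta0Deg A (s36n2bF ζ) := by
    have h1 : (A.valuation (((π : ↥(s36n2bK A ζ)) : AlgebraicClosure ℚ))) ^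
        ((a * (q - 1) : ℕ) : ℤ) =
        (A.valuation (((π : ↥(s36n2bK A ζ)) : AlgebraicClosure ℚ))) ^
          ((beta0Deg A (s36n2bF ζ) : ℕ) : ℤ) := by
      rw [zpow_natCast, zpow_natCast]
      exact hpow
    exact_mod_cast (zpow_right_inj₀ hγ0 hγ1.ne).mp h1
  have hle := s36n2b_deg_le (A := A) hq hζ
  have hpos : 0 < beta0Deg A (s36n2bF ζ) := beta0Deg_pos (s36n2bF ζ)
  have hq1 : 0 < q - 1 := Nat.sub_pos_of_lt hq.one_lt
  have ha : a = 1 := by
    rcases Nat.eq_zero_or_pos a with h0 | h0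
    · rw [h0, zero_mul] at heq
      omega
    · by_contra hne
      have h2 : 2 ≤ a := by omega
      have : 2 * (q - 1) ≤ a * (q - 1) := Nat.mul_le_mul_right _ h2
      omega
  refine ⟨?_, ?_⟩
  · rw [ha, pow_one] at hu
    have hassoc : Associated (s36n2bPi (A := A) hq hζ) π := ⟨u, hu⟩
    exact hassoc.symm.irreducible hπ
  · rw [← heq, ha, one_mul]

/-- **`Π = 1 - ζ` is irreducible in `A_K`.** -/
theorem s36n2b_irreducible (hq : q.Prime) (hA : A.LiesOverPrime q) (hζ : IsPrimitiveRoot ζ q) :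
    Irreducible (s36n2bPi (A := A) hq hζ) :=
  (s36n2b_key hq hA hζ).1

/-- **`F = ℚ(ζ)` is totally ramified at `A`**: `[F : F ∩ E₀] = q - 1`. -/
theorem s36n2b_deg (hq : q.Prime) (hA : A.LiesOverPrime q) (hζ : IsPrimitiveRoot ζ q) :
    haveI := s36n2bF_numberField hq hζ
    beta0Deg A (s36n2bF ζ) = q - 1 :=
  (s36n2b_key hq hA hζ).2

/-- the natural number `q` in `A_K` -/
theorem s36n2b_natCast_coe (n : ℕ) :
    ((((n : ℕ) : beta0Ring A (s36n2bK A ζ)) : ↥(s36n2bK A ζ)) : AlgebraicClosure ℚ) =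
      (n : AlgebraicClosure ℚ) := by
  simp

/-- **`q = unit · Π ^ (q - 1)`** in `A_K`. -/
theorem s36n2b_exists_unit (hq : q.Prime) (hζ : IsPrimitiveRoot ζ q) :
    ∃ u : (beta0Ring A (s36n2bK A ζ))ˣ,
      ((q : ℕ) : beta0Ring A (s36n2bK A ζ)) = u * s36n2bPi (A := A) hq hζ ^ (q - 1) := by
  have hP0 : (1 - ζ) ^ (q - 1) ≠ 0 := pow_ne_zero _ (s36n2b_one_sub_ne_zero hq hζ)
  have hq0 : (q : AlgebraicClosure ℚ) ≠ 0 := by exact_mod_cast hq.ne_zero
  have hval : A.valuation ((q : AlgebraicClosure ℚ) / (1 - ζ) ^ (q - 1)) = 1 := by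
    rw [map_div₀, map_pow, s36n2bPi_valuation_pow hq hζ]
    exact div_self ((Valuation.ne_zero_iff _).mpr hq0)
  have hmemK : (q : AlgebraicClosure ℚ) / (1 - ζ) ^ (q - 1) ∈ s36n2bK A ζ :=
    div_mem (natCast_mem _ q) (pow_mem (sub_mem (one_mem _) (s36n2b_zeta_mem_K A ζ)) _)
  have hmemA : (q : AlgebraicClosure ℚ) / (1 - ζ) ^ (q - 1) ∈ A :=
    (A.valuation_le_one_iff _).mp hval.le
  set w : beta0Ring A (s36n2bK A ζ) :=
    ⟨⟨(q : AlgebraicClosure ℚ) / (1 - ζ) ^ (q - 1), hmemK⟩, hmemA⟩ with hw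
  have hwu : IsUnit w := (beta0Ring_isUnit_iff w).mpr hval
  refine ⟨hwu.unit, ?_⟩
  apply Subtype.ext
  apply Subtype.ext
  rw [s36n2b_natCast_coe]
  show (q : AlgebraicClosure ℚ) = (q : AlgebraicClosure ℚ) / (1 - ζ) ^ (q - 1) * (1 - ζ) ^ (q - 1)
  rw [div_mul_cancel₀ _ hP0]

/-- `q` and `Π ^ (q - 1)` are associated in `A_K`. -/
theorem s36n2b_associated (hq : q.Prime) (hζ : IsPrimitiveRoot ζ q) :
    Associated (s36n2bPi (A := A) hq hζ ^ (q - 1)) ((q : ℕ) : beta0Ring A (s36n2bK A ζ)) := by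
  obtain ⟨u, hu⟩ := s36n2b_exists_unit (A := A) hq hζ
  exact ⟨u, by rw [hu, mul_comm]⟩

/-- `Π ∣ q` in `A_K`. -/
theorem s36n2bPi_dvd_q (hq : q.Prime) (hζ : IsPrimitiveRoot ζ q) :
    s36n2bPi (A := A) hq hζ ∣ ((q : ℕ) : beta0Ring A (s36n2bK A ζ)) := by
  obtain ⟨u, hu⟩ := s36n2b_exists_unit (A := A) hq hζ
  rw [hu]
  apply Dvd.dvd.mul_left
  exact dvd_pow_self _ (Nat.sub_pos_of_lt hq.one_lt).ne'

/-- **(hram) at the base**: `x ∈ 𝔪(A_K) ⇒ q ∣ x ^ (q - 1)`. -/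
theorem s36n2b_q_dvd_pow (hq : q.Prime) (hA : A.LiesOverPrime q) (hζ : IsPrimitiveRoot ζ q)
    {x : beta0Ring A (s36n2bK A ζ)}
    (hx : x ∈ IsLocalRing.maximalIdeal (beta0Ring A (s36n2bK A ζ))) :
    ((q : ℕ) : beta0Ring A (s36n2bK A ζ)) ∣ x ^ (q - 1) := by
  haveI := s36n2b_isDVR hq hA hζ
  have h1 : s36n2bPi (A := A) hq hζ ∣ x := by
    rw [(IsDiscreteValuationRing.irreducible_iff_uniformizer _).mp (s36n2b_irreducible hq hA hζ),
      Ideal.mem_span_singleton] at hx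
    exact hx
  exact (s36n2b_associated (A := A) hq hζ).symm.dvd.trans (pow_dvd_pow_of_dvd h1 _)

/-- `ζ ≡ 1` modulo the maximal ideal of `A_K`. -/
theorem s36n2b_residue_zeta (hq : q.Prime) (hA : A.LiesOverPrime q) (hζ : IsPrimitiveRoot ζ q) :
    IsLocalRing.residue (beta0Ring A (s36n2bK A ζ)) (s36n2bZeta hq hζ) = 1 := by
  have h1 : s36n2bPi (A := A) hq hζ ∈ IsLocalRing.maximalIdeal (beta0Ring A (s36n2bK A ζ)) :=
    (IsLocalRing.mem_maximalIdeal _).mpr (s36n2b_irreducible hq hA hζ).not_isUnit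
  rw [← IsLocalRing.residue_eq_zero_iff, s36n2bPi, map_sub, map_one, sub_eq_zero] at h1
  exact h1.symm

/-- **The base** `(A_K, K, residue, Π = 1 - ζ)`. -/
theorem s36n2b_vtBase (hq : q.Prime) (hA : A.LiesOverPrime q) (hζ : IsPrimitiveRoot ζ q) :
    VtBase (algebraMap ↥(beta0Ring A (s36n2bK A ζ)) ↥(s36n2bK A ζ))
      (IsLocalRing.residue ↥(beta0Ring A (s36n2bK A ζ))) (s36n2bPi hq hζ) := by
  haveI := s36n2b_isDVR hq hA hζ
  exact vtBase_residue (s36n2b_irreducible hq hA hζ)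

/-- **Residue fields agree**: every element of `A_K` is congruent to an element of `A₀ = A ∩ E₀`
modulo the maximal ideal. -/
theorem s36n2b_exists_residue (hq : q.Prime) (hA : A.LiesOverPrime q)
    (x : beta0Ring A (s36n2bK A ζ)) :
    ∃ a : beta0Ring A (beta0Field A),
      x - beta0RingIncl (s36n2b_le_K A ζ) a ∈
        IsLocalRing.maximalIdeal (beta0Ring A (s36n2bK A ζ)) :=
  beta0Ring_exists_residue hq hA (s36n2b_le_K A ζ) x

/-- **`K` is stable under the inertia group.** -/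
theorem s36n2b_apply_mem (hq : q.Prime) (hζ : IsPrimitiveRoot ζ q)
    {σ : AlgebraicClosure ℚ ≃ₐ[ℚ] AlgebraicClosure ℚ} (hσ : σ ∈ A.inertiaSubgroupIn ℚ)
    {x : AlgebraicClosure ℚ} (hx : x ∈ s36n2bK A ζ) : σ x ∈ s36n2bK A ζ := by
  haveI := s36n2bF_numberField hq hζ
  haveI := s36n2bF_isGalois hq hζ
  exact beta0_sup_apply_mem (s36n2bF ζ) hσ hx

/-- **`K` is stable under the decomposition group.** -/
theorem s36n2b_decomp_apply_mem (hq : q.Prime) (hζ : IsPrimitiveRoot ζ q)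
    {σ : AlgebraicClosure ℚ ≃ₐ[ℚ] AlgebraicClosure ℚ} (hσ : σ ∈ A.decompositionSubgroup ℚ)
    {x : AlgebraicClosure ℚ} (hx : x ∈ s36n2bK A ζ) : σ x ∈ s36n2bK A ζ := by
  haveI := s36n2bF_isGalois hq hζ
  exact beta0_sup_decomp_apply_mem (s36n2bF ζ) hσ hx

/-- **Compatibility of the bases** `A₀ ⊆ A_K`: the inclusion `E₀ ≤ K` maps `A₀` into `A_K` and
induces a BIJECTION of the residue fields (so `gaussRing` and `gaussRed` over `A₀` are those over
`A_K`, `vtSub_comap_baseChange`). -/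
theorem s36n2b_compat (hq : q.Prime) (hA : A.LiesOverPrime q) :
    ∃ κ : IsLocalRing.ResidueField ↥(beta0Ring A (beta0Field A)) →+*
        IsLocalRing.ResidueField ↥(beta0Ring A (s36n2bK A ζ)),
      Function.Bijective κ ∧
      VtCompat (algebraMap ↥(beta0Ring A (beta0Field A)) ↥(beta0Field A))
        (IsLocalRing.residue ↥(beta0Ring A (beta0Field A)))
        (algebraMap ↥(beta0Ring A (s36n2bK A ζ)) ↥(s36n2bK A ζ))
        (IsLocalRing.residue ↥(beta0Ring A (s36n2bK A ζ)))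
        (IntermediateField.inclusion (s36n2b_le_K A ζ)).toRingHom κ := by
  obtain ⟨κ, hκ⟩ := vt_compat_of_le (A := A) (s36n2b_le_K A ζ)
  refine ⟨κ, ⟨κ.injective, ?_⟩, hκ⟩
  intro y
  obtain ⟨x, rfl⟩ := IsLocalRing.residue_surjective y
  obtain ⟨a, ha⟩ := s36n2b_exists_residue (ζ := ζ) hq hA x
  obtain ⟨a', ha1, ha2⟩ := hκ a
  refine ⟨IsLocalRing.residue _ a, ?_⟩
  rw [← ha2]
  have e : a' = beta0RingIncl (s36n2b_le_K A ζ) a := by
    apply Subtype.ext
    exact ha1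
  rw [e]
  rw [← IsLocalRing.residue_eq_zero_iff, map_sub, sub_eq_zero] at ha
  exact ha.symm

end base

end Fermat.Agent.S36

end
end ZBS36_021_1

/-! ### bundled: `Fermat.Agent.S36.N2BaseGal` -/
section ZBS36_021_2

/-!
# S36 / G-N2, piece N2-base, part 3: the inertia group acts transitively on the primitive roots

`A` a valuation subring of `ℚ̄` over `q`, `ζ` a primitive `q`-th root of unity, `F = ℚ(ζ)`.

* `s36n2b_inertia_eq_top`     : the inertia group of `F / ℚ` at `A` is the whole Galois group;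
* `s36n2b_exists_inertia_pow` : for `q ∤ b` there is `σ` in the inertia group of `A` with
  `σ ζ = ζ ^ b`;
* `s36n2b_apply_zeta`         : every automorphism maps `ζ` to `ζ ^ b`, `0 < b < q`.
-/

set_option autoImplicit false
set_option linter.unusedSectionVars false
set_option linter.style.haveILetI false

noncomputable section

namespace Fermat.Agent.S36

open Fermat.Agent.UNIP

variable {A : ValuationSubring (AlgebraicClosure ℚ)} {ζ : AlgebraicClosure ℚ} {q : ℕ}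

/-- **The inertia group of `F = ℚ(ζ)` at `A` is the whole Galois group** (`F / ℚ` is totally
ramified at `q`). -/
theorem s36n2b_inertia_eq_top (hq : q.Prime) (hA : A.LiesOverPrime q)
    (hζ : IsPrimitiveRoot ζ q) :
    haveI := s36n2bF_numberField hq hζ
    (beta0Prime A (beta0ιF (s36n2bF ζ))).inertia ((s36n2bF ζ) ≃ₐ[ℚ] (s36n2bF ζ)) = ⊤ := by
  haveI := s36n2bF_numberField hq hζ
  haveI := s36n2bF_isGalois hq hζ
  apply Subgroup.eq_top_of_card_eq
  rw [IsGalois.card_aut_eq_finrank, s36n2bF_finrank hq hζ, ← s36n2b_deg (A := A) hq hA hζ]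
  exact (IntermediateField.finrank_fixedField_eq_card
    ((beta0Prime A (beta0ιF (s36n2bF ζ))).inertia ((s36n2bF ζ) ≃ₐ[ℚ] (s36n2bF ζ)))).symm

/-- **The inertia group acts transitively on the primitive `q`-th roots of unity.** -/
theorem s36n2b_exists_inertia_pow (hq : q.Prime) (hA : A.LiesOverPrime q)
    (hζ : IsPrimitiveRoot ζ q) {b : ℕ} (hb : ¬ q ∣ b) :
    ∃ σ ∈ A.inertiaSubgroupIn ℚ, σ ζ = ζ ^ b := by
  haveI := s36n2bF_numberField hq hζ
  haveI := s36n2bF_isGalois hq hζ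
  haveI := Fermat.Agent.Common.isAlgClosure_rat_qbar
  haveI : Algebra.IsAlgebraic ℚ (AlgebraicClosure ℚ) := AlgebraicClosure.isAlgebraic ℚ
  have hcop : Nat.Coprime b q := ((Nat.Prime.coprime_iff_not_dvd hq).mpr hb).symm
  have hprim : IsPrimitiveRoot (ζ ^ b) q := hζ.pow_of_coprime b hcop
  have hmin : minpoly ℚ ζ = minpoly ℚ (ζ ^ b) := by
    rw [← Polynomial.cyclotomic_eq_minpoly_rat hζ hq.pos,
      ← Polynomial.cyclotomic_eq_minpoly_rat hprim hq.pos]
  obtain ⟨τ, hτ⟩ := minpoly.exists_algEquiv_of_root' (K := ℚ) (L := AlgebraicClosure ℚ)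
    (x := ζ ^ b) (y := ζ) (Algebra.IsAlgebraic.isAlgebraic ζ)
    (by rw [hmin]; exact minpoly.aeval _ _)
  have hs : AlgEquiv.restrictNormal τ (s36n2bF ζ) ∈
      (beta0Prime A (beta0ιF (s36n2bF ζ))).inertia ((s36n2bF ζ) ≃ₐ[ℚ] (s36n2bF ζ)) := by
    rw [s36n2b_inertia_eq_top hq hA hζ]
    trivial
  obtain ⟨σ, hσ, hσx⟩ := beta0_exists_lift (s36n2bF ζ) hq hA _ hs
  refine ⟨σ, hσ, ?_⟩
  have h1 := hσx ⟨ζ, s36n2b_zeta_mem_F ζ⟩
  have h2 := AlgEquiv.restrictNormal_commutes τ (s36n2bF ζ) ⟨ζ, s36n2b_zeta_mem_F ζ⟩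
  have h3 : σ ζ = τ ζ := h1.trans h2
  rw [h3, hτ]

/-- every automorphism maps `ζ` to a power `ζ ^ b`, `q ∤ b`. -/
theorem s36n2b_apply_zeta (hq : q.Prime) (hζ : IsPrimitiveRoot ζ q)
    (σ : AlgebraicClosure ℚ ≃ₐ[ℚ] AlgebraicClosure ℚ) :
    ∃ b : ℕ, b < q ∧ ¬ q ∣ b ∧ σ ζ = ζ ^ b := by
  haveI : NeZero q := ⟨hq.ne_zero⟩
  have h1 : (σ ζ) ^ q = 1 := by rw [← map_pow, hζ.pow_eq_one, map_one]
  obtain ⟨b, hbq, hb⟩ := hζ.eq_pow_of_pow_eq_one h1
  refine ⟨b, hbq, ?_, hb.symm⟩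
  intro hdvd
  have hb0 : b = 0 := Nat.eq_zero_of_dvd_of_lt hdvd hbq
  rw [hb0, pow_zero] at hb
  have : ζ = 1 := by
    have h2 : σ ζ = σ 1 := by rw [← hb, map_one]
    exact σ.injective h2
  exact hζ.ne_one hq.one_lt this

end Fermat.Agent.S36

end
end ZBS36_021_2
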