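/- GENERATED FILE (helper35, build-time optimisation, NOTES/ZB.md): verbatim concatenation of the modules
   Fermat.Agent.S36.MidCuspAnalytic
   Do not edit; do not import together with these modules. -/
import Fermat.Agent.ZB.S34_001
import Fermat.Agent.ZB.ES_002

/-! ### bundled: `Fermat.Agent.S36.MidCuspAnalytic` -/
section ZBS36_023_0

/-!
# S36 / G-mid — the analytic substitution at the middle cusp `1/(qM)` of `X₀(M q²)`

`q`, `M` positive integers, `x k l : ℤ` with `M x k + q l = 1`.  Put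
`γ = [[1, 0], [q M k, 1]] ∈ SL₂(ℤ)` and `tr τ = τ + x / q`.  Then for all `τ`
* `s36mid_J_low`  : `J (e · γ τ) = J (e · τ)`                     for `e ∣ q M k` (e.g. `e ∣ M q`),
* `s36mid_J_high` : `J (d q² · γ τ) = J (d · (τ + x / q))`        for `d ∣ M`.

Translation of functions on `ℍ` (for any real `x`):
* `s36mid_isHPB_comp_vadd`     : `f ∈ HPB ⇒ f (x + ·) ∈ HPB`,
* `s36mid_ofPowerSeries_comp_vadd` : the `q`-expansion of `f (x + ·)` is `kronRot e^{2πi x}` of that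
  of `f`,
* `s36mid_laurentOf_comp_vadd` : the same for functions meromorphic at `i∞`,
* `s36mid_isMerInf_J_high`     : `τ ↦ J (d (τ + x / q))` is meromorphic at `i∞` (boundedness comes
  from `ModularFormClass.bdd_at_infty_slash`: modular forms are bounded at every cusp).
-/

set_option autoImplicit false
set_option linter.unusedSectionVars false

noncomputable section

namespace Fermat.Agent.S36

open UpperHalfPlane ModularForm Filter Topology
open Fermat.Agent.S23 Fermat.Agent.S24 Fermat.Agent.S28 Fermat.Agent.ES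
open scoped MatrixGroups ModularForm Manifold

local notation "Δ" => ModularForm.discriminant
local notation "𝕢" => Function.Periodic.qParam

/-! ### Translation `τ ↦ x + τ` -/

/-- The rotation factor `e^{2πi x}`, as a unit of `ℂ`. -/
def s36midRot (x : ℝ) : ℂˣ :=
  Units.mk0 (Complex.exp (2 * Real.pi * Complex.I * x)) (Complex.exp_ne_zero _)

theorem s36midRot_val (x : ℝ) :
    ((s36midRot x : ℂˣ) : ℂ) = Complex.exp (2 * Real.pi * Complex.I * x) := rfl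

theorem s36mid_qParam_vadd (x : ℝ) (τ : ℍ) :
    𝕢 1 ((x +ᵥ τ : ℍ) : ℂ) = (s36midRot x : ℂ) * 𝕢 1 (τ : ℂ) := by
  simp only [Function.Periodic.qParam, coe_vadd, s36midRot_val, ← Complex.exp_add]
  congr 1
  simp only [Complex.ofReal_one, div_one]
  ring

theorem s36mid_tendsto_vadd (x : ℝ) : Tendsto (fun τ : ℍ => x +ᵥ τ) atImInfty atImInfty := by
  rw [atImInfty, tendsto_comap_iff]
  have : (UpperHalfPlane.im ∘ fun τ : ℍ => x +ᵥ τ) = UpperHalfPlane.im := by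
    funext z; exact vadd_im x z
  rw [this]
  exact tendsto_comap

theorem s36mid_mdiff_comp_vadd (x : ℝ) {f : ℍ → ℂ} (hf : MDiff f) :
    MDiff (fun τ : ℍ => f (x +ᵥ τ)) := by
  rw [UpperHalfPlane.mdifferentiable_iff] at hf ⊢
  have hmaps : Set.MapsTo (fun w : ℂ => (x : ℂ) + w) {z | 0 < z.im} {z | 0 < z.im} := by
    intro w hw
    simpa using hw
  have hcomp : DifferentiableOn ℂ ((f ∘ ofComplex) ∘ (fun w : ℂ => (x : ℂ) + w))
      {z | 0 < z.im} :=
    hf.comp (by fun_prop) hmaps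
  refine hcomp.congr ?_
  intro w hw
  have hw' : 0 < ((x : ℂ) + w).im := hmaps hw
  simp only [Function.comp_apply]
  rw [ofComplex_apply_of_im_pos hw, ofComplex_apply_of_im_pos hw']
  congr 1

theorem s36mid_periodic_of_vadd {G : ℍ → ℂ} (h : ∀ τ : ℍ, G ((1 : ℝ) +ᵥ τ) = G τ) :
    Function.Periodic (G ∘ ofComplex) 1 := by
  intro w
  simp only [Function.comp_apply]
  by_cases hw : 0 < w.im
  · have hw1 : 0 < (w + 1).im := by simpa using hw
    rw [ofComplex_apply_of_im_pos hw, ofComplex_apply_of_im_pos hw1, ← h ⟨w, hw⟩]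
    congr 1
    apply UpperHalfPlane.ext
    simp [coe_vadd, add_comm]
  · have hw1 : ¬ 0 < (w + 1).im := by simpa using hw
    rw [ofComplex_apply_of_im_nonpos (not_lt.mp hw), ofComplex_apply_of_im_nonpos (not_lt.mp hw1)]

theorem s36mid_vadd_of_periodic {G : ℍ → ℂ} (h : Function.Periodic (G ∘ ofComplex) 1) (τ : ℍ) :
    G ((1 : ℝ) +ᵥ τ) = G τ := by
  have h1 := h (τ : ℂ)
  simp only [Function.comp_apply] at h1
  have hτ1 : 0 < ((τ : ℂ) + 1).im := by simpa using τ.im_pos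
  rw [ofComplex_apply, ofComplex_apply_of_im_pos hτ1] at h1
  rw [← h1]
  congr 1
  apply UpperHalfPlane.ext
  simp [coe_vadd, add_comm]

/-- `τ ↦ f (x + τ)` is in `HPB` if `f` is. -/
theorem s36mid_isHPB_comp_vadd (x : ℝ) {f : ℍ → ℂ} (hf : IsHPB f) :
    IsHPB (fun τ => f (x +ᵥ τ)) := by
  refine ⟨s36mid_mdiff_comp_vadd x hf.1, ?_, ?_⟩
  · apply s36mid_periodic_of_vadd
    intro τ
    have h1 := s36mid_vadd_of_periodic hf.2.1 (x +ᵥ τ)
    rw [← h1]
    congr 1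
    apply UpperHalfPlane.ext
    simp only [coe_vadd]
    ring
  · exact hf.2.2.comp_tendsto (s36mid_tendsto_vadd x)

/-- The `q`-expansion of `τ ↦ f (x + τ)`. -/
theorem s36mid_qExpansion_comp_vadd (x : ℝ) {f : ℍ → ℂ} (hf : IsHPB f) (n : ℕ) :
    (qExpansion 1 (fun τ => f (x +ᵥ τ))).coeff n =
      (s36midRot x : ℂ) ^ n * (qExpansion 1 f).coeff n := by
  have hg := s36mid_isHPB_comp_vadd x hf
  set c : ℕ → ℂ := fun n => (s36midRot x : ℂ) ^ n * (qExpansion 1 f).coeff n with hc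
  have hcont : Continuous (fun τ => f (x +ᵥ τ)) := hg.1.continuous
  refine (UpperHalfPlane.qExpansion_coeff_unique (c := c)
    (ContinuousMap.mk (fun τ => f (x +ᵥ τ)) hcont)
    one_pos hg.analyticAt ?_ n).symm
  intro τ
  have h1 := hasSum_qExpansion (h := 1) one_pos hf.2.1 hf.1 hf.2.2 (x +ᵥ τ)
  rw [s36mid_qParam_vadd] at h1
  change HasSum (fun m ↦ c m • 𝕢 1 τ ^ m) (f (x +ᵥ τ))
  convert h1 using 2 with m
  simp only [hc, smul_eq_mul, mul_pow]
  ring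

theorem s36mid_ofPowerSeries_comp_vadd (x : ℝ) {f : ℍ → ℂ} (hf : IsHPB f) :
    HahnSeries.ofPowerSeries ℤ ℂ (qExpansion 1 (fun τ => f (x +ᵥ τ))) =
      kronRot (s36midRot x) (HahnSeries.ofPowerSeries ℤ ℂ (qExpansion 1 f)) := by
  ext k
  rw [kronRot_coeff]
  rcases le_or_gt 0 k with hk | hk
  · lift k to ℕ using hk
    rw [HahnSeries.ofPowerSeries_apply_coeff, HahnSeries.ofPowerSeries_apply_coeff,
      s36mid_qExpansion_comp_vadd x hf, zpow_natCast, Units.val_pow_eq_pow_val]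
  · rw [ModularCurve.ofPowerSeries_coeff_of_neg _ hk,
      ModularCurve.ofPowerSeries_coeff_of_neg _ hk, mul_zero]

theorem s36mid_kronRot_ne_zero {R : Type*} [CommRing R] (c : Rˣ) {f : LaurentSeries R}
    (hf : f ≠ 0) : kronRot c f ≠ 0 := by
  intro h
  apply hf
  ext n
  have h1 := congrArg (fun g : LaurentSeries R => g.coeff n) h
  simp only [kronRot_coeff, HahnSeries.coeff_zero] at h1
  rw [Units.mul_right_eq_zero] at h1
  rw [h1, HahnSeries.coeff_zero]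

/-- The Laurent expansion of `τ ↦ f (x + τ)` for `f` meromorphic at `i∞`. -/
theorem s36mid_laurentOf_comp_vadd (x : ℝ) {f : ℍ → ℂ} (hf : IsMerInf f)
    (hg : IsMerInf (fun τ => f (x +ᵥ τ))) :
    laurentOf (fun τ => f (x +ᵥ τ)) = kronRot (s36midRot x) (laurentOf f) := by
  obtain ⟨m₁, h₁⟩ := hf
  obtain ⟨m, H⟩ := hg
  have hΔt : IsHPB (fun τ : ℍ => Δ (x +ᵥ τ)) :=
    s36mid_isHPB_comp_vadd x bridge_isHPB_discriminant
  have h₁t : IsHPB (fun τ => f (x +ᵥ τ) * Δ (x +ᵥ τ) ^ m₁) := s36mid_isHPB_comp_vadd x h₁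
  have e1 := laurentOf_mul_deltaL_pow H
  have e2 := laurentOf_mul_deltaL_pow h₁
  have e3 : HahnSeries.ofPowerSeries ℤ ℂ
      (qExpansion 1 (fun τ => f (x +ᵥ τ) * Δ (x +ᵥ τ) ^ m₁)) =
      kronRot (s36midRot x) (laurentOf f) * kronRot (s36midRot x) deltaL ^ m₁ := by
    rw [s36mid_ofPowerSeries_comp_vadd x h₁, ← e2, map_mul, map_pow]
  have e4 : HahnSeries.ofPowerSeries ℤ ℂ (qExpansion 1 (fun τ : ℍ => Δ (x +ᵥ τ))) =
      kronRot (s36midRot x) deltaL := by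
    rw [s36mid_ofPowerSeries_comp_vadd x bridge_isHPB_discriminant,
      bridge_ofPowerSeries_discriminant]
  have e5 : HahnSeries.ofPowerSeries ℤ ℂ
      (qExpansion 1 (fun z => (f (x +ᵥ z) * Δ z ^ m) * Δ (x +ᵥ z) ^ m₁)) =
      laurentOf (fun τ => f (x +ᵥ τ)) * deltaL ^ m * kronRot (s36midRot x) deltaL ^ m₁ := by
    have h5 := bridge_ofPowerSeries_mul H (bridge_isHPB_pow hΔt m₁)
    rw [bridge_ofPowerSeries_pow hΔt, e4, ← e1] at h5
    exact h5
  have e6 : HahnSeries.ofPowerSeries ℤ ℂ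
      (qExpansion 1 (fun z => (f (x +ᵥ z) * Δ (x +ᵥ z) ^ m₁) * Δ z ^ m)) =
      kronRot (s36midRot x) (laurentOf f) * kronRot (s36midRot x) deltaL ^ m₁ * deltaL ^ m := by
    have h6 := bridge_ofPowerSeries_mul h₁t (bridge_isHPB_pow bridge_isHPB_discriminant m)
    rw [bridge_ofPowerSeries_pow bridge_isHPB_discriminant, bridge_ofPowerSeries_discriminant,
      e3] at h6
    exact h6
  have hfun : (fun z : ℍ => (f (x +ᵥ z) * Δ z ^ m) * Δ (x +ᵥ z) ^ m₁) =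
      (fun z => (f (x +ᵥ z) * Δ (x +ᵥ z) ^ m₁) * Δ z ^ m) := by
    funext z; ring
  rw [hfun, e6] at e5
  have hD : deltaL ^ m ≠ 0 := pow_ne_zero m deltaL_ne_zero
  have hR : kronRot (s36midRot x) deltaL ^ m₁ ≠ 0 :=
    pow_ne_zero m₁ (s36mid_kronRot_ne_zero _ deltaL_ne_zero)
  have e7 : laurentOf (fun τ => f (x +ᵥ τ)) * (deltaL ^ m * kronRot (s36midRot x) deltaL ^ m₁) =
      kronRot (s36midRot x) (laurentOf f) * (deltaL ^ m * kronRot (s36midRot x) deltaL ^ m₁) := by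
    rw [← mul_assoc, ← e5]
    ring
  exact mul_right_cancel₀ (mul_ne_zero hD hR) e7

/-! ### Boundedness after an `SL₂(ℤ)`-substitution -/

theorem s36mid_discriminant_smul (γ : SL(2, ℤ)) (τ : ℍ) :
    Δ (γ • τ) = denom γ τ ^ (12 : ℤ) * Δ τ := by
  have hγ : (γ : GL (Fin 2) ℝ) ∈ 𝒮ℒ := ⟨γ, rfl⟩
  have hΔ : CuspForm.discriminant (γ • τ) =
      (denom γ τ) ^ (12 : ℤ) * CuspForm.discriminant τ :=
    SlashInvariantForm.slash_action_eqn'' CuspForm.discriminant hγ τ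
  simpa [CuspForm.coe_discriminant] using hΔ

/-- For a modular function `F` of level `Γ₀(e)` (with `F Δ^m` a modular form) and `γ ∈ SL₂(ℤ)`,
the function `(F ∘ γ) Δ^m` is holomorphic and bounded at `i∞`. -/
theorem s36mid_slash_bdd {e : ℕ} [NeZero e] {F : ℍ → ℂ} {m : ℕ}
    (h : IsMF (G0 e) (12 * (m : ℤ)) (fun z => F z * Δ z ^ m)) (γ : SL(2, ℤ)) :
    MDiff (fun τ => F (γ • τ) * Δ τ ^ m) ∧
      IsBoundedAtImInfty (fun τ => F (γ • τ) * Δ τ ^ m) := by
  obtain ⟨φ, hφ⟩ := h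
  have key : (fun τ => F (γ • τ) * Δ τ ^ m) = (⇑φ ∣[12 * (m : ℤ)] γ) := by
    funext τ
    rw [SL_slash_apply, hφ]
    simp only
    rw [s36mid_discriminant_smul]
    have hd : denom γ τ ≠ 0 := denom_ne_zero _ _
    rw [mul_pow, ← zpow_natCast (denom γ τ ^ (12 : ℤ)) m, ← zpow_mul, zpow_neg]
    field_simp
  rw [key]
  exact ⟨(ModularFormClass.holo φ).slash _ _, ModularFormClass.bdd_at_infty_slash φ γ⟩

/-! ### The matrices -/

section Matrices

variable (q M : ℕ) [NeZero q] [NeZero M] (x k l : ℤ) (hB : (M : ℤ) * x * k + (q : ℤ) * l = 1)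

/-- `γ = [[1, 0], [q M k, 1]]`. -/
def s36midGamma (k : ℤ) : SL(2, ℤ) :=
  ⟨!![1, 0; (q : ℤ) * M * k, 1], by rw [Matrix.det_fin_two_of]; ring⟩

/-- `γ′ = [[q, - d x], [m' k, l]]`, `d m' = M`. -/
def s36midGamma' (d : ℕ) (m' : ℤ) (hd : (d : ℤ) * m' = M)
    (hB : (M : ℤ) * x * k + (q : ℤ) * l = 1) : SL(2, ℤ) :=
  ⟨!![(q : ℤ), -((d : ℤ) * x); m' * k, l], by
    rw [Matrix.det_fin_two_of]
    have : (M : ℤ) * x * k = (d : ℤ) * m' * x * k := by rw [hd]
    linear_combination hB - this⟩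

/-- The translation `τ ↦ τ + x / q`. -/
def s36midTr (τ : ℍ) : ℍ := (((x : ℝ) / (q : ℝ) : ℝ)) +ᵥ τ

theorem s36mid_coe_tr (τ : ℍ) :
    ((s36midTr q x τ : ℍ) : ℂ) = (x : ℂ) / (q : ℂ) + (τ : ℂ) := by
  rw [s36midTr, coe_vadd]
  push_cast
  rfl

/-- `d q² · γ τ = γ′ · (d · (τ + x / q))`. -/
theorem s36mid_scaleN_gamma (d : ℕ) [NeZero d] [NeZero (d * q * q)] (m' : ℤ)
    (hd : (d : ℤ) * m' = M) (τ : ℍ) :
    scaleN (d * q * q) (s36midGamma q M k • τ) =
      s36midGamma' q M x k l d m' hd hB • scaleN d (s36midTr q x τ) := by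
  ext1
  have hd1 := denom_ne_zero (s36midGamma q M k) τ
  have hd2 := denom_ne_zero (s36midGamma' q M x k l d m' hd hB) (scaleN d (s36midTr q x τ))
  rw [ModularGroup.denom_apply] at hd1 hd2
  rw [coe_scaleN, coe_specialLinearGroup_apply, coe_specialLinearGroup_apply]
  simp only [s36midGamma, s36midGamma', coe_scaleN, s36mid_coe_tr] at hd1 hd2 ⊢
  simp at hd1 hd2 ⊢
  have hq : (q : ℂ) ≠ 0 := by exact_mod_cast NeZero.ne q
  have hdC : (d : ℂ) * (m' : ℂ) = (M : ℂ) := by exact_mod_cast hd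
  have hBC : (M : ℂ) * (x : ℂ) * (k : ℂ) + (q : ℂ) * (l : ℂ) = 1 := by exact_mod_cast hB
  have hden : (m' : ℂ) * (k : ℂ) * ((d : ℂ) * ((x : ℂ) / (q : ℂ) + (τ : ℂ))) + (l : ℂ) =
      ((q : ℂ) * (M : ℂ) * (k : ℂ) * (τ : ℂ) + 1) / (q : ℂ) := by
    field_simp
    linear_combination ((k : ℂ) * (x : ℂ) + (q : ℂ) * (k : ℂ) * (τ : ℂ)) * hdC + hBC
  have hne : (q : ℂ) * (M : ℂ) * (k : ℂ) * (τ : ℂ) + 1 ≠ 0 := hd1
  rw [hden]
  field_simp
  ring

theorem s36midGamma_dvd {e : ℕ} (he : e ∣ M * q) : (e : ℤ) ∣ (s36midGamma q M k) 1 0 := by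
  simp only [s36midGamma]
  have h1 : (e : ℤ) ∣ ((M * q : ℕ) : ℤ) := Int.natCast_dvd_natCast.mpr he
  have h2 : ((M * q : ℕ) : ℤ) * k = (q : ℤ) * M * k := by push_cast; ring
  have h3 : (e : ℤ) ∣ (q : ℤ) * M * k := by
    rw [← h2]
    exact Dvd.dvd.mul_right h1 k
  simpa using h3

/-- `J (e · γ τ) = J (e · τ)` for `e ∣ M q`. -/
theorem s36mid_J_low {e : ℕ} [NeZero e] (he : e ∣ M * q) (τ : ℍ) :
    Jfun (scaleN e (s36midGamma q M k • τ)) = Jfun (scaleN e τ) := by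
  rw [P7_thetaCompanion_smul e _ (s36midGamma_dvd q M k he), Jfun_smul]

include hB in
/-- `J (d q² · γ τ) = J (d · (τ + x / q))` for `d ∣ M`. -/
theorem s36mid_J_high {d : ℕ} [NeZero d] [NeZero (d * q * q)] (hd : d ∣ M) (τ : ℍ) :
    Jfun (scaleN (d * q * q) (s36midGamma q M k • τ)) = Jfun (scaleN d (s36midTr q x τ)) := by
  obtain ⟨m', hm'⟩ := hd
  have hd' : (d : ℤ) * (m' : ℤ) = M := by exact_mod_cast hm'.symm
  rw [s36mid_scaleN_gamma q M x k l hB d m' hd', Jfun_smul]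

/-- `J (d (z + 1)) = J (d z)`. -/
theorem s36mid_J_scaleN_vadd_one (d : ℕ) [NeZero d] (z : ℍ) :
    Jfun (scaleN d ((1 : ℝ) +ᵥ z)) = Jfun (scaleN d z) := by
  have h1 : scaleN d ((1 : ℝ) +ᵥ z) = ModularGroup.T ^ (d : ℤ) • scaleN d z := by
    rw [modular_T_zpow_smul]
    apply UpperHalfPlane.ext
    simp only [coe_scaleN, coe_vadd]
    push_cast
    ring
  rw [h1, Jfun_smul]

include hB in
/-- `τ ↦ J (d (τ + x / q))` is meromorphic at `i∞`. -/
theorem s36mid_isMerInf_J_high {d : ℕ} [NeZero d] [NeZero (d * q * q)] (hd : d ∣ M) :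
    IsMerInf (fun τ => Jfun (scaleN d (s36midTr q x τ))) := by
  obtain ⟨m, hm⟩ := isModFun_Jfun_scaleN (d * q * q)
  obtain ⟨h1, h2⟩ := s36mid_slash_bdd hm (s36midGamma q M k)
  have hfun : (fun τ => Jfun (scaleN (d * q * q) (s36midGamma q M k • τ)) * Δ τ ^ m) =
      (fun τ => Jfun (scaleN d (s36midTr q x τ)) * Δ τ ^ m) := by
    funext τ
    rw [s36mid_J_high q M x k l hB hd]
  rw [hfun] at h1 h2
  refine ⟨m, h1, ?_, h2⟩
  apply s36mid_periodic_of_vadd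
  intro τ
  have hΔ : Δ ((1 : ℝ) +ᵥ τ) = Δ τ := s36mid_vadd_of_periodic bridge_isHPB_discriminant.2.1 τ
  have hJ : Jfun (scaleN d (s36midTr q x ((1 : ℝ) +ᵥ τ))) =
      Jfun (scaleN d (s36midTr q x τ)) := by
    have e : s36midTr q x ((1 : ℝ) +ᵥ τ) = (1 : ℝ) +ᵥ s36midTr q x τ := by
      apply UpperHalfPlane.ext
      simp only [s36midTr, coe_vadd]
      ring
    rw [e, s36mid_J_scaleN_vadd_one]
  beta_reduce
  rw [hΔ, hJ]

end Matrices

end Fermat.Agent.S36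

end


end ZBS36_023_0
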