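/- GENERATED FILE (helper35, build-time optimisation, NOTES/ZB.md): verbatim concatenation of the modules
   Fermat.Agent.S36.MidCuspAbstract
   Fermat.Agent.S36.MidCusp
   Do not edit; do not import together with these modules. -/
import Mathlib
import Fermat.Agent.ZB.S36_023
import Fermat.Agent.ZB.S34_001

/-! ### bundled: `Fermat.Agent.S36.MidCuspAbstract` -/
section ZBS36_024_0

/-!
# S36 / G-mid — a field embedding from an equality of the relations (Mathlib only)

`s36midAbsHom` : let `x : ι → L`, `y : ι → L'` be two families in field extensions `L / K`,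
`L' / K` with the same polynomial relations over `K`.  Then there is a `K`-algebra homomorphism
`μ : K(x) →ₐ[K] L'` with `μ (x i) = y i` (`s36midAbsHom_gen`).
-/

set_option autoImplicit false

noncomputable section

namespace Fermat.Agent.S36

open MvPolynomial IntermediateField
open scoped IntermediateField.algebraAdjoinAdjoin

variable {K L L' : Type*} [Field K] [Field L] [Field L'] [Algebra K L] [Algebra K L']
  {ι : Type*} (x : ι → L) (y : ι → L')

/-- The homomorphism `K[x] → L'`, `x i ↦ y i`. -/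
def s36midAbsRangeHom
    (hrel : ∀ p : MvPolynomial ι K, aeval x p = 0 → aeval y p = 0) :
    (aeval x : MvPolynomial ι K →ₐ[K] L).range →ₐ[K] L' :=
  (Ideal.Quotient.liftₐ (RingHom.ker (aeval x : MvPolynomial ι K →ₐ[K] L).rangeRestrict)
      (aeval y : MvPolynomial ι K →ₐ[K] L') (by
        intro a ha
        rw [AlgHom.ker_rangeRestrict, RingHom.mem_ker] at ha
        exact hrel a ha)).comp
    (Ideal.quotientKerAlgEquivOfSurjective
      (AlgHom.rangeRestrict_surjective (aeval x : MvPolynomial ι K →ₐ[K] L))).symm.toAlgHom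

theorem s36midAbsRangeHom_apply
    (hrel : ∀ p : MvPolynomial ι K, aeval x p = 0 → aeval y p = 0) (p : MvPolynomial ι K) :
    s36midAbsRangeHom x y hrel ((aeval x : MvPolynomial ι K →ₐ[K] L).rangeRestrict p) =
      aeval y p := by
  unfold s36midAbsRangeHom
  have h := Ideal.quotientKerAlgEquivOfSurjective_symm_apply
    (AlgHom.rangeRestrict_surjective (aeval x : MvPolynomial ι K →ₐ[K] L)) p
  rw [AlgHom.comp_apply]
  have h2 : (Ideal.quotientKerAlgEquivOfSurjective
      (AlgHom.rangeRestrict_surjective (aeval x : MvPolynomial ι K →ₐ[K] L))).symm.toAlgHom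
      ((aeval x : MvPolynomial ι K →ₐ[K] L).rangeRestrict p) =
      Ideal.Quotient.mk _ p := h
  rw [h2]
  rfl

theorem s36midAbsRangeHom_injective
    (hrel : ∀ p : MvPolynomial ι K, aeval x p = 0 → aeval y p = 0)
    (hrel' : ∀ p : MvPolynomial ι K, aeval y p = 0 → aeval x p = 0) :
    Function.Injective (s36midAbsRangeHom x y hrel) := by
  rw [injective_iff_map_eq_zero]
  rintro ⟨a, p, rfl⟩ ha
  have h1 : (⟨aeval x p, p, rfl⟩ : (aeval x : MvPolynomial ι K →ₐ[K] L).range) =
      (aeval x : MvPolynomial ι K →ₐ[K] L).rangeRestrict p := rfl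
  have h0 : (⟨(aeval x : MvPolynomial ι K →ₐ[K] L).toRingHom p, p, rfl⟩ :
      (aeval x : MvPolynomial ι K →ₐ[K] L).range) =
      (aeval x : MvPolynomial ι K →ₐ[K] L).rangeRestrict p := rfl
  rw [h0, s36midAbsRangeHom_apply] at ha
  rw [h0]
  apply Subtype.ext
  exact hrel' p ha

/-- The homomorphism `K[x] → L'` on `Algebra.adjoin`. -/
def s36midAbsAdjoinHom
    (hrel : ∀ p : MvPolynomial ι K, aeval x p = 0 → aeval y p = 0) :
    Algebra.adjoin K (Set.range x) →ₐ[K] L' :=
  (s36midAbsRangeHom x y hrel).comp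
    (Subalgebra.equivOfEq _ _ (Algebra.adjoin_range_eq_range_aeval K x)).toAlgHom

theorem s36midAbsAdjoinHom_injective
    (hrel : ∀ p : MvPolynomial ι K, aeval x p = 0 → aeval y p = 0)
    (hrel' : ∀ p : MvPolynomial ι K, aeval y p = 0 → aeval x p = 0) :
    Function.Injective (s36midAbsAdjoinHom x y hrel) := by
  unfold s36midAbsAdjoinHom
  exact (s36midAbsRangeHom_injective x y hrel hrel').comp (AlgEquiv.injective _)

theorem s36midAbsAdjoinHom_gen
    (hrel : ∀ p : MvPolynomial ι K, aeval x p = 0 → aeval y p = 0) (i : ι) :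
    s36midAbsAdjoinHom x y hrel ⟨x i, Algebra.subset_adjoin ⟨i, rfl⟩⟩ = y i := by
  unfold s36midAbsAdjoinHom
  show s36midAbsRangeHom x y hrel (Subalgebra.equivOfEq _ _
    (Algebra.adjoin_range_eq_range_aeval K x) ⟨x i, Algebra.subset_adjoin ⟨i, rfl⟩⟩) = y i
  have h1 : (Subalgebra.equivOfEq _ _ (Algebra.adjoin_range_eq_range_aeval K x)
      ⟨x i, Algebra.subset_adjoin ⟨i, rfl⟩⟩ : (aeval x : MvPolynomial ι K →ₐ[K] L).range) =
      (aeval x : MvPolynomial ι K →ₐ[K] L).rangeRestrict (X i) := by
    apply Subtype.ext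
    simp
  rw [h1, s36midAbsRangeHom_apply, aeval_X]

/-- **The embedding `K(x) → L'`, `x i ↦ y i`.** -/
def s36midAbsHom
    (hrel : ∀ p : MvPolynomial ι K, aeval x p = 0 → aeval y p = 0)
    (hrel' : ∀ p : MvPolynomial ι K, aeval y p = 0 → aeval x p = 0) :
    adjoin K (Set.range x) →ₐ[K] L' :=
  IsFractionRing.liftAlgHom (A := Algebra.adjoin K (Set.range x))
    (K := adjoin K (Set.range x)) (s36midAbsAdjoinHom_injective x y hrel hrel')

theorem s36midAbsHom_gen
    (hrel : ∀ p : MvPolynomial ι K, aeval x p = 0 → aeval y p = 0)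
    (hrel' : ∀ p : MvPolynomial ι K, aeval y p = 0 → aeval x p = 0) (i : ι) :
    s36midAbsHom x y hrel hrel' ⟨x i, subset_adjoin K _ ⟨i, rfl⟩⟩ = y i := by
  have h1 : (⟨x i, subset_adjoin K _ ⟨i, rfl⟩⟩ : adjoin K (Set.range x)) =
      algebraMap (Algebra.adjoin K (Set.range x)) (adjoin K (Set.range x))
        ⟨x i, Algebra.subset_adjoin ⟨i, rfl⟩⟩ := rfl
  rw [h1, s36midAbsHom, IsFractionRing.liftAlgHom_apply, IsFractionRing.lift_algebraMap]
  exact s36midAbsAdjoinHom_gen x y hrel i

end Fermat.Agent.S36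

end


end ZBS36_024_0

/-! ### bundled: `Fermat.Agent.S36.MidCusp` -/
section ZBS36_024_1

/-!
# S36 / G-mid — the expansion at the middle cusp `1/(qM)` of `X₀(M q²)`: EXISTENCE

`s36mid_exists K ι hq hqM ζ hζ : Nonempty (S36MidEmb K q M ζ)` for every field `K` with a ring
homomorphism `ι : K →+* ℂ`, `q` prime, `q ∤ M`, `ζ : Kˣ` a primitive `q`-th root of unity.
`s36midEmb` is a choice of it.

Proof: `ι ζ = e^{2πi x/q}`, Bezout `M x k + q l = 1`, `γ = [[1,0],[qMk,1]]`; the functions
`τ ↦ J(e γ τ)` are `J(e τ)` (`e ∣ M q`) resp. `J(d (τ + x/q))` (`e = d q²`), so the relations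
between the `j(Q^e)` (`e ∣ M q²`) are exactly the relations between the series `s36midGen`.
-/

set_option autoImplicit false
set_option linter.unusedSectionVars false

noncomputable section

namespace Fermat.Agent.S36

open ModularCurve MvPolynomial UpperHalfPlane
open Fermat.Agent.S23 Fermat.Agent.S24 Fermat.Agent.S28 Fermat.Agent.AL Fermat.Agent.ES

/-! ### The two families -/

/-- The generators at the middle cusp: `j(Q^e)` (`e ∣ M q`), `j(ζ Q^d)` (`e = d q²`, `d ∣ M`). -/
def s36midGen (K : Type*) [CommRing K] (ζ : Kˣ) (q M e : ℕ) : LaurentSeries K :=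
  if q * q ∣ e then kronRot ζ (alGen K M (e / (q * q))) else alGen K (M * q * q) e

theorem coeffMap_s36midGen {K S : Type*} [CommRing K] [CommRing S] (f : K →+* S) (ζ : Kˣ)
    (q M e : ℕ) :
    coeffMap f (s36midGen K ζ q M e) = s36midGen S (Units.map (f : K →* S) ζ) q M e := by
  unfold s36midGen
  split_ifs
  · rw [coeffMap_kronRot, coeffMap_alGen]
  · rw [coeffMap_alGen]

/-- The function family at the middle cusp. -/
def s36midFun (q M : ℕ) [NeZero q] (x : ℤ) (e : ℕ) : ℍ → ℂ :=
  if q * q ∣ e then (fun τ => alFun M (e / (q * q)) (s36midTr q x τ)) else alFun (M * q * q) e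

section Analytic

variable {q M : ℕ} [NeZero q] [NeZero M] (hq : q.Prime) (hqM : ¬ q ∣ M)
  {x k l : ℤ} (hB : (M : ℤ) * x * k + (q : ℤ) * l = 1)

include hq hqM hB in
/-- `J_e ∘ γ` is the function family at the middle cusp. -/
theorem s36midFun_eq (e : ℕ) (τ : ℍ) :
    alFun (M * q * q) e (s36midGamma q M k • τ) = s36midFun q M x e τ := by
  have hqq : 0 < q * q := Nat.mul_pos hq.pos hq.pos
  by_cases h : q * q ∣ e
  · rw [s36midFun, if_pos h]
    obtain ⟨d, rfl⟩ := h
    rw [Nat.mul_div_cancel_left d hqq]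
    by_cases hd : d ∣ M
    · have hd0 : d ≠ 0 := fun h0 => NeZero.ne M (by rw [h0, zero_dvd_iff] at hd; exact hd)
      have : NeZero d := ⟨hd0⟩
      have : NeZero (d * q * q) :=
        ⟨Nat.mul_ne_zero (Nat.mul_ne_zero hd0 (NeZero.ne q)) (NeZero.ne q)⟩
      have he : q * q * d = d * q * q := by ring
      have hdvd : d * q * q ∣ M * q * q :=
        Nat.mul_dvd_mul_right (Nat.mul_dvd_mul_right hd q) q
      rw [he, alFun_of_dvd hdvd, alFun_of_dvd hd]
      exact s36mid_J_high q M x k l hB hd τ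
    · have hnd : ¬ q * q * d ∣ M * q * q := by
        intro h1
        apply hd
        have h2 : q * q * d ∣ q * q * M := by rwa [show q * q * M = M * q * q by ring]
        exact (Nat.mul_dvd_mul_iff_left hqq).mp h2
      rw [alFun_of_not_dvd hnd, alFun_of_not_dvd hd]
      rfl
  · rw [s36midFun, if_neg h]
    by_cases he : e ∣ M * q * q
    · have hN0 : M * q * q ≠ 0 := Nat.mul_ne_zero (Nat.mul_ne_zero (NeZero.ne M) (NeZero.ne q))
        (NeZero.ne q)
      have he0 : e ≠ 0 := fun h0 => hN0 (by rw [h0, zero_dvd_iff] at he; exact he)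
      have : NeZero e := ⟨he0⟩
      rcases s36mid_divisor_cases hq he with he' | ⟨d, -, rfl⟩
      · rw [alFun_of_dvd he]
        exact s36mid_J_low q M k he' τ
      · exact absurd ⟨d, by ring⟩ h
    · rw [alFun_of_not_dvd he]
      rfl

include hB in
theorem s36midFun_isMerInf (e : ℕ) : IsMerInf (s36midFun q M x e) := by
  unfold s36midFun
  split_ifs with h
  · by_cases hd : e / (q * q) ∣ M
    · have hd0 : e / (q * q) ≠ 0 :=
        fun h0 => NeZero.ne M (by rw [h0, zero_dvd_iff] at hd; exact hd)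
      have : NeZero (e / (q * q)) := ⟨hd0⟩
      have : NeZero (e / (q * q) * q * q) :=
        ⟨Nat.mul_ne_zero (Nat.mul_ne_zero hd0 (NeZero.ne q)) (NeZero.ne q)⟩
      rw [alFun_of_dvd hd]
      exact s36mid_isMerInf_J_high q M x k l hB hd
    · rw [alFun_of_not_dvd hd]
      exact merInf.zero_mem
  · exact alFun_isMerInf _ _

/-- The function family, in `merInf`. -/
def s36midFunM (hB : (M : ℤ) * x * k + (q : ℤ) * l = 1) (e : ℕ) : merInf :=
  ⟨s36midFun q M x e, s36midFun_isMerInf hB e⟩

include hB in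
theorem laurentExp_s36midFunM (e : ℕ) :
    laurentExp (s36midFunM hB e) =
      s36midGen ℂ (s36midRot ((x : ℝ) / (q : ℝ))) q M e := by
  rw [laurentExp_apply]
  show laurentOf (s36midFun q M x e) = _
  unfold s36midFun s36midGen
  split_ifs with h
  · by_cases hd : e / (q * q) ∣ M
    · have hd0 : e / (q * q) ≠ 0 :=
        fun h0 => NeZero.ne M (by rw [h0, zero_dvd_iff] at hd; exact hd)
      have : NeZero (e / (q * q)) := ⟨hd0⟩
      have : NeZero (e / (q * q) * q * q) :=
        ⟨Nat.mul_ne_zero (Nat.mul_ne_zero hd0 (NeZero.ne q)) (NeZero.ne q)⟩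
      rw [alFun_of_dvd hd, alGen_of_dvd ℂ hd]
      have h1 := s36mid_laurentOf_comp_vadd ((x : ℝ) / (q : ℝ))
        (f := fun z => Jfun (scaleN (e / (q * q)) z))
        (isMerInf_comp_scaleN (e / (q * q)) isMerInf_Jfun)
        (s36mid_isMerInf_J_high q M x k l hB hd)
      rw [laurentOf_Jfun_scaleN (e / (q * q))] at h1
      exact h1
    · rw [alFun_of_not_dvd hd, alGen_of_not_dvd ℂ hd, map_zero]
      exact laurentOf_zero
  · have h2 := laurentExp_alFunM (M * q * q) e
    rw [laurentExp_apply] at h2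
    exact h2

include hq hqM hB in
/-- The relations at `∞` and at the middle cusp are the same (over `ℂ`). -/
theorem s36mid_rel_complex (p : MvPolynomial ℕ ℂ) :
    aeval (alGen ℂ (M * q * q)) p = 0 ↔
      aeval (s36midGen ℂ (s36midRot ((x : ℝ) / (q : ℝ))) q M) p = 0 := by
  have e1 : aeval (alGen ℂ (M * q * q)) p = laurentExp (aeval (alFunM (M * q * q)) p) := by
    rw [comp_aeval_apply]
    exact congrArg (fun f => aeval f p)
      (funext fun e => (laurentExp_alFunM (M * q * q) e).symm)
  have e3 : aeval (s36midGen ℂ (s36midRot ((x : ℝ) / (q : ℝ))) q M) p =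
      laurentExp (aeval (s36midFunM hB) p) := by
    rw [comp_aeval_apply]
    exact congrArg (fun f => aeval f p)
      (funext fun e => (laurentExp_s36midFunM hB e).symm)
  have e2 : ∀ τ : ℍ, alEval τ (aeval (s36midFunM hB) p) =
      alEval (s36midGamma q M k • τ) (aeval (alFunM (M * q * q)) p) := by
    intro τ
    rw [comp_aeval_apply, comp_aeval_apply]
    exact congrArg (fun f => aeval f p)
      (funext fun e => (s36midFun_eq hq hqM hB e τ).symm)
  constructor
  · intro hp
    have h1 : aeval (alFunM (M * q * q)) p = 0 := by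
      apply laurentExp_injective
      rw [← e1, hp, map_zero]
    have h2 : aeval (s36midFunM hB) p = 0 := by
      apply Subtype.ext
      funext τ
      have := e2 τ
      rw [h1, map_zero] at this
      exact this
    rw [e3, h2, map_zero]
  · intro hp
    have h2 : aeval (s36midFunM hB) p = 0 := by
      apply laurentExp_injective
      rw [← e3, hp, map_zero]
    have h1 : aeval (alFunM (M * q * q)) p = 0 := by
      apply Subtype.ext
      funext τ
      have := e2 ((s36midGamma q M k)⁻¹ • τ)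
      rw [h2, map_zero, smul_inv_smul] at this
      exact this.symm
    rw [e1, h1, map_zero]

end Analytic

/-! ### The relations over `K` -/

section Rel

variable {K : Type*} [Field K] (ι : K →+* ℂ) {q M : ℕ} [NeZero q] [NeZero M]
  (hq : q.Prime) (hqM : ¬ q ∣ M) (ζ : Kˣ) (hζ : IsPrimitiveRoot (ζ : K) q)

include ι hq hqM hζ in
/-- **The relations at `∞` and at the middle cusp are the same.** -/
theorem s36mid_rel (p : MvPolynomial ℕ K) :
    aeval (alGen K (M * q * q)) p = 0 ↔ aeval (s36midGen K ζ q M) p = 0 := by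
  -- the exponent
  have hζC : IsPrimitiveRoot (ι (ζ : K)) q := hζ.map_of_injective ι.injective
  obtain ⟨i, -, hi, hexp⟩ := (Complex.isPrimitiveRoot_iff _ q (NeZero.ne q)).1 hζC
  have hcop : IsCoprime (((M * i : ℕ) : ℤ)) ((q : ℕ) : ℤ) := by
    rw [Nat.isCoprime_iff_coprime]
    exact Nat.Coprime.mul_left ((Nat.Prime.coprime_iff_not_dvd hq).mpr hqM).symm hi
  obtain ⟨u, v, huv⟩ := hcop
  have hB : (M : ℤ) * (i : ℤ) * u + (q : ℤ) * v = 1 := by
    rw [← huv]; push_cast; ring
  have hrot : Units.map (ι : K →* ℂ) ζ = s36midRot (((i : ℤ) : ℝ) / (q : ℝ)) := by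
    apply Units.ext
    rw [s36midRot_val]
    show ι (ζ : K) = _
    rw [← hexp]
    congr 1
    push_cast
    ring
  have hC := s36mid_rel_complex hq hqM hB (MvPolynomial.map ι p)
  rw [← hrot] at hC
  have g1 : (fun e => coeffMap ι (alGen K (M * q * q) e)) = alGen ℂ (M * q * q) :=
    funext fun e => coeffMap_alGen ι (M * q * q) e
  have g2 : (fun e => coeffMap ι (s36midGen K ζ q M e)) =
      s36midGen ℂ (Units.map (ι : K →* ℂ) ζ) q M :=
    funext fun e => coeffMap_s36midGen ι ζ q M e
  have a1 := al_coeffMap_aeval ι (alGen K (M * q * q)) p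
  have a2 := al_coeffMap_aeval ι (s36midGen K ζ q M) p
  rw [g1] at a1
  rw [g2] at a2
  constructor
  · intro hp
    apply al_coeffMap_injective ι
    rw [map_zero, a2]
    apply hC.1
    rw [← a1, hp, map_zero]
  · intro hp
    apply al_coeffMap_injective ι
    rw [map_zero, a1]
    apply hC.2
    rw [← a2, hp, map_zero]

end Rel

/-! ### The embedding -/

section Main

variable (K : Type*) [Field K] (ι : K →+* ℂ) {q M : ℕ} [NeZero q] [NeZero M] [NeZero (M * q)]
  [NeZero (M * q * q)] (hq : q.Prime) (hqM : ¬ q ∣ M) (ζ : Kˣ) (hζ : IsPrimitiveRoot (ζ : K) q)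

/-- The expansion at the middle cusp on `K(range alGen)`. -/
def s36midEmbAux :
    IntermediateField.adjoin K (Set.range (alGen K (M * q * q))) →ₐ[K] LaurentSeries K :=
  s36midAbsHom (alGen K (M * q * q)) (s36midGen K ζ q M)
    (fun p => (s36mid_rel ι hq hqM ζ hζ p).1) (fun p => (s36mid_rel ι hq hqM ζ hζ p).2)

/-- The expansion at the middle cusp `F_{Mq²} → K((Q))`. -/
def s36midEmbHom : modularFunctionFieldFullC K (M * q * q) →ₐ[K] LaurentSeries K :=
  (s36midEmbAux K ι hq hqM ζ hζ).comp
    (IntermediateField.equivOfEq (adjoin_range_alGen K (M * q * q)).symm).toAlgHom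

theorem s36midEmbHom_gen (e : ℕ) (x : modularFunctionFieldFullC K (M * q * q))
    (hx : (x : LaurentSeries K) = alGen K (M * q * q) e) :
    s36midEmbHom K ι hq hqM ζ hζ x = s36midGen K ζ q M e := by
  unfold s36midEmbHom
  rw [AlgHom.comp_apply]
  have h1 : (IntermediateField.equivOfEq (adjoin_range_alGen K (M * q * q)).symm).toAlgHom x =
      ⟨alGen K (M * q * q) e, IntermediateField.subset_adjoin K _ ⟨e, rfl⟩⟩ := by
    apply Subtype.ext
    exact hx
  rw [h1]
  exact s36midAbsHom_gen _ _ _ _ e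

/-- **G-mid**: the expansion at the middle cusp, as a `S36MidEmb`. -/
def s36midEmb : S36MidEmb K q M ζ where
  emb := s36midEmbHom K ι hq hqM ζ hζ
  emb_low := by
    intro e _ he
    have hN : e ∣ M * q * q := he.mul_right q
    have h1 := s36midEmbHom_gen K ι hq hqM ζ hζ e
      ⟨qExpand K e (jqModC K), jqModCd_mem_full K (M * q * q) hN⟩ (alGen_of_dvd K hN).symm
    rw [h1, s36midGen, if_neg, alGen_of_dvd K hN]
    intro h2
    apply hqM
    have h3 : q * q ∣ M * q := h2.trans he
    have h4 : q * q ∣ q * M := by rwa [mul_comm M q] at h3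
    exact (Nat.mul_dvd_mul_iff_left hq.pos).mp h4
  emb_high := by
    intro d _ _ hd
    have hN : d * q * q ∣ M * q * q := Nat.mul_dvd_mul_right (Nat.mul_dvd_mul_right hd q) q
    have h1 := s36midEmbHom_gen K ι hq hqM ζ hζ (d * q * q)
      ⟨qExpand K (d * q * q) (jqModC K), jqModCd_mem_full K (M * q * q) hN⟩
      (alGen_of_dvd K hN).symm
    have hqq : 0 < q * q := Nat.mul_pos hq.pos hq.pos
    have h2 : q * q ∣ d * q * q := ⟨d, by ring⟩
    have h3 : d * q * q / (q * q) = d := by
      rw [mul_assoc]; exact Nat.mul_div_cancel d hqq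
    rw [h1, s36midGen, if_pos h2, h3, alGen_of_dvd K hd]

include ι hq hqM hζ in
/-- **G-mid, existence.** -/
theorem s36mid_exists : Nonempty (S36MidEmb K q M ζ) := ⟨s36midEmb K ι hq hqM ζ hζ⟩

end Main

end Fermat.Agent.S36

end


end ZBS36_024_1
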