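/- GENERATED FILE (helper35, build-time optimisation, NOTES/ZB.md): verbatim concatenation of the modules
   Fermat.Agent.S36.DescentNormAbs
   Do not edit; do not import together with these modules. -/
import Fermat.Agent.ZB.STB_005
import Fermat.Agent.ZB.STB_001

/-! ### bundled: `Fermat.Agent.S36.DescentNormAbs` -/
section ZBS36_025_0

/-!
# S36 G-desc-N, part 1 (generic): the norm square in GENERATION form, ring homomorphism version

      L  --ι₂-->  L'
      ^           ^
    φ |           | φ'
      K  --ι₁-->  K'          `[L' : K'] = [L : K]`,  `L' = K'·ι₂(L)`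

* `s36dn_adjoin_eq_top`   : a set generating `L'` as a FIELD over a subfield `k ⊆ K'` generates
  `L'` as a `K'`-ALGEBRA when `L' / K'` is algebraic;
* `s36dn_norm_square_hom` : `N_{φ'} (ι₂ u) = ι₁ (N_φ u)`.
-/

set_option autoImplicit false
set_option linter.unusedSectionVars false
set_option linter.style.haveILetI false

noncomputable section

namespace Fermat.Agent.S36

open Fermat.Agent.STB Module

/-- A set which generates `L'` as a field over `k` generates `L'` as an algebra over `K' ⊇ k`,
if `L' / K'` is algebraic. -/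
theorem s36dn_adjoin_eq_top {k K' L' : Type*} [Field k] [Field K'] [Field L'] [Algebra k K']
    [Algebra K' L'] [Algebra k L'] [IsScalarTower k K' L'] [Algebra.IsAlgebraic K' L']
    (S : Set L') (hS : IntermediateField.adjoin k S = ⊤) : Algebra.adjoin K' S = ⊤ := by
  rw [eq_top_iff]
  intro x _
  have hinv : ∀ y ∈ (Algebra.adjoin K' S).restrictScalars k,
      y⁻¹ ∈ (Algebra.adjoin K' S).restrictScalars k := by
    intro y hy
    have hy' : y ∈ Algebra.adjoin K' S := hy
    have := Subalgebra.inv_mem_of_algebraic (A := Algebra.adjoin K' S) (x := ⟨y, hy'⟩)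
      (Algebra.IsAlgebraic.isAlgebraic y)
    exact this
  have h1 : IntermediateField.adjoin k S ≤
      Subalgebra.toIntermediateField ((Algebra.adjoin K' S).restrictScalars k) hinv := by
    rw [IntermediateField.adjoin_le_iff]
    intro s hs
    exact Algebra.subset_adjoin hs
  rw [hS] at h1
  exact h1 (IntermediateField.mem_top)

/-- ring homomorphism form of `s36dn_adjoin_eq_top` -/
theorem s36dn_adjoin_eq_top_hom {k K' L' : Type*} [Field k] [Field K'] [Field L'] [Algebra k K']
    [Algebra k L'] (φ : K' →+* L') (hφ : ∀ c : k, φ (algebraMap k K' c) = algebraMap k L' c)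
    (hfin : StbFinite φ) (S : Set L') (hS : IntermediateField.adjoin k S = ⊤) :
    letI := φ.toAlgebra
    Algebra.adjoin K' S = ⊤ := by
  letI := φ.toAlgebra
  haveI : IsScalarTower k K' L' := IsScalarTower.of_algebraMap_eq fun c => (hφ c).symm
  haveI : Module.Finite K' L' := hfin
  haveI : Algebra.IsAlgebraic K' L' := Algebra.IsAlgebraic.of_finite _ _
  exact s36dn_adjoin_eq_top (k := k) S hS

section Hom

variable {K L K' L' : Type*} [Field K] [Field L] [Field K'] [Field L']

/-- **Norm square**, ring homomorphism form, GENERATION hypothesis: `φ' ∘ ι₁ = ι₂ ∘ φ`,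
`deg φ' = deg φ ≠ 0`, `L' = K'[ι₂ L]` ⇒ `N_{φ'} (ι₂ u) = ι₁ (N_φ u)`. -/
theorem s36dn_norm_square_hom (φ : K →+* L) (ι₁ : K →+* K') (φ' : K' →+* L') (ι₂ : L →+* L')
    (hsq : ∀ x, φ' (ι₁ x) = ι₂ (φ x)) (hdpos : stbDeg φ ≠ 0) (hdeg : stbDeg φ' = stbDeg φ)
    (hgen : letI := φ'.toAlgebra
      Algebra.adjoin K' (Set.range ι₂) = ⊤) (u : L) :
    stbNorm φ' (ι₂ u) = ι₁ (stbNorm φ u) := by
  let a1 : Algebra K L := φ.toAlgebra
  let a2 : Algebra K K' := ι₁.toAlgebra
  let a3 : Algebra K' L' := φ'.toAlgebra
  let a4 : Algebra L L' := ι₂.toAlgebra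
  let a5 : Algebra K L' := (ι₂.comp φ).toAlgebra
  have t1 : IsScalarTower K L L' := IsScalarTower.of_algebraMap_eq fun x => rfl
  have t2 : IsScalarTower K K' L' := IsScalarTower.of_algebraMap_eq fun x => (hsq x).symm
  have f1 : FiniteDimensional K L := Module.finite_of_finrank_pos (Nat.pos_of_ne_zero hdpos)
  exact stb_d_norm_square (K := K) (L := L) (K' := K') (L' := L') hdeg hgen u

/-- the degree does not change in a square with generation and independence: upper bound.
`L' = K'[ι₂ L]` ⇒ `deg φ' ≤ deg φ`. -/
theorem s36dn_deg_le (φ : K →+* L) (ι₁ : K →+* K') (φ' : K' →+* L') (ι₂ : L →+* L')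
    (hsq : ∀ x, φ' (ι₁ x) = ι₂ (φ x)) (hdpos : stbDeg φ ≠ 0)
    (hgen : letI := φ'.toAlgebra
      Algebra.adjoin K' (Set.range ι₂) = ⊤) :
    stbDeg φ' ≤ stbDeg φ := by
  classical
  let a1 : Algebra K L := φ.toAlgebra
  let a2 : Algebra K K' := ι₁.toAlgebra
  let a3 : Algebra K' L' := φ'.toAlgebra
  let a4 : Algebra L L' := ι₂.toAlgebra
  let a5 : Algebra K L' := (ι₂.comp φ).toAlgebra
  have t1 : IsScalarTower K L L' := IsScalarTower.of_algebraMap_eq fun x => rfl
  have t2 : IsScalarTower K K' L' := IsScalarTower.of_algebraMap_eq fun x => (hsq x).symm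
  have f1 : FiniteDimensional K L := Module.finite_of_finrank_pos (Nat.pos_of_ne_zero hdpos)
  set b : Basis (Fin (finrank K L)) K L := Module.finBasis K L with hb
  set v : Fin (finrank K L) → L' := fun i => algebraMap L L' (b i) with hv
  have hspan : ⊤ ≤ Submodule.span K' (Set.range v) := by
    have h1 : (Algebra.adjoin K' (Set.range (algebraMap L L'))).toSubmodule
        ≤ Submodule.span K' (Set.range v) := by
      rw [Algebra.adjoin_eq_span]
      have hcl : (Submonoid.closure (Set.range (algebraMap L L')) : Set L')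
          = Set.range (algebraMap L L') := by
        have : Set.range (algebraMap L L')
            = (MonoidHom.mrange (algebraMap L L' : L →* L') : Set L') := rfl
        rw [this, Submonoid.closure_eq]
      rw [hcl, Submodule.span_le]
      rintro _ ⟨x, rfl⟩
      rw [stb_d_map_eq_sum (K' := K') b x]
      exact Submodule.sum_mem _ fun i _ =>
        Submodule.smul_mem _ _ (Submodule.subset_span ⟨i, rfl⟩)
    have hgen' : Algebra.adjoin K' (Set.range (algebraMap L L')) = ⊤ := hgen
    rw [hgen'] at h1
    simpa using h1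
  have h2 := finrank_span_le_card (R := K') (Set.range v)
  have h3 : Submodule.span K' (Set.range v) = ⊤ := top_le_iff.mp hspan
  rw [h3, finrank_top] at h2
  have h4 : (Set.range v).toFinset.card ≤ finrank K L := by
    calc (Set.range v).toFinset.card ≤ Fintype.card (Fin (finrank K L)) := by
          rw [Set.toFinset_card]
          exact Fintype.card_range_le v
      _ = finrank K L := Fintype.card_fin _
  exact h2.trans h4

end Hom

end Fermat.Agent.S36

end
end ZBS36_025_0
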