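/- GENERATED FILE (helper35, build-time optimisation, NOTES/ZB.md): verbatim concatenation of the modules
   Fermat.Agent.S36.AbstractQ
   Fermat.Agent.S36.ConnQ
   Fermat.Agent.S36.AbstractQ2
   Fermat.Agent.S36.N2PtsAbs
   Do not edit; do not import together with these modules. -/
import Fermat.Agent.ZB.UNIP_007
import Fermat.Agent.ZB.UNIP_036
import Fermat.Agent.ZB.INJ_031
import Fermat.Agent.ZB.STB_003

/-! ### bundled: `Fermat.Agent.S36.AbstractQ` -/
section ZBS36_004_0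
/-
S36 (Carayol at `q² ∥ M`), geometric clause, piece G-AT (helper84): the ABSTRACT INJECTIVITY
theorem over the small field, for a NON-REDUCED special fibre ("shape ⇒ power").

Chart setting of UNIP (T′) (`UNIP/AbstractT.lean`): `A₀` a DVR with uniformizer `π`,
`E = Frac A₀` of characteristic `0`, algebraically closed in `F`, `F / E(t)` finite; charts
`B_t`, `B_{t⁻¹}` (integral closures of `A₀[t]`, `A₀[t⁻¹]` in `F`); `V : κ → ValuationSubring F` the
vertical valuation rings.  The special fibre need NOT be reduced: (SS1) is replaced by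

* (KR)  `π x` integral over `A₀[t]`, `x ∈ V c` for all `c` ⇒ `x` integral   (Krull property);
* (RAM) `x ∈ 𝔪(V c)` ⇒ `x ^ (q ^ N) ∈ π V c`  (bounded ramification; `q` = residue
        characteristic, `π ∣ q`);
* (U0)  one component `c₀` with `𝔪(V c₀) = π V c₀`, lying over the Gauss valuation.

Main results:
* `aq_hP`           : every `w` of shape `PwiShape V O J inc p w` is a `p`-th power (`J` ANY family
                      of ideals: the condition `ε ≡ 1 mod J` is not used here).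
* `aq_pow_of_shape` : `PwiShape V atO (aqJ V) atInc (p ^ r) w ⇒ ∃ h, h ^ (p ^ r) = w`, where
                      `aqJ V 𝔫` is the RADICAL ideal `{x ∈ (B_u)_𝔫 | x ∈ 𝔪(V c) ∀ c through 𝔫}`.

Proof of `aq_hP`: replace `w` by `w ^ (q ^ N)`; then `w ^ (q ^ N) ≡ 1` modulo `π V c` and the local
factors `γ ^ (q ^ N) ≡ 1` modulo `π V c`, so the Kummer glue `ks_main_pow'` (which only knows
`π · C_(π)`) applies; `q ^ N` is prime to `p`.
-/

set_option autoImplicit false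
set_option linter.unusedSectionVars false
set_option linter.unusedVariables false
set_option linter.style.haveILetI false

namespace Fermat.Agent.S36

open Polynomial IntermediateField Fermat.Agent.INJ AlgebraicCurve Fermat.Agent.UNIP

section Val

variable {F : Type*} [Field F]

/-- `(1 + x) ^ (q ^ N) ≡ 1` modulo `ϖ W` if `q ∈ ϖ W` and `x ^ (q ^ N) ∈ ϖ W`. -/
theorem aq_pow_sub_one (W : ValuationSubring F) (ϖ : F) {q : ℕ} (hq : q.Prime) (N : ℕ)
    (hqϖ : ∃ z ∈ W, (q : F) = ϖ * z) {x : F} (hx : x ∈ W)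
    (hxQ : ∃ z ∈ W, x ^ (q ^ N) = ϖ * z) :
    ∃ z ∈ W, (1 + x) ^ (q ^ N) - 1 = ϖ * z := by
  obtain ⟨z₁, hz₁, hq1⟩ := hqϖ
  obtain ⟨z₂, hz₂, hx2⟩ := hxQ
  obtain ⟨r, hr⟩ := exists_add_pow_prime_pow_eq hq (1 : W) (⟨x, hx⟩ : W) N
  have hr' : (1 + x) ^ (q ^ N) = 1 + x ^ (q ^ N) + (q : F) * 1 * x * (r : F) := by
    have := congrArg (fun y : W => (y : F)) hr
    simpa using this
  refine ⟨z₂ + z₁ * x * r, W.add_mem _ _ hz₂ (W.mul_mem _ _ (W.mul_mem _ _ hz₁ hx) r.2), ?_⟩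
  rw [hr', hx2, hq1]
  ring

/-- the same for `γ` with `γ − 1 ∈ 𝔪_W`. -/
theorem aq_pow_sub_one' (W : ValuationSubring F) (ϖ : F) {q : ℕ} (hq : q.Prime) (N : ℕ)
    (hqϖ : ∃ z ∈ W, (q : F) = ϖ * z)
    (hram : ∀ x : F, x ∈ W.nonunits → ∃ z ∈ W, x ^ (q ^ N) = ϖ * z)
    {γ : F} (hγ : γ - 1 ∈ W.nonunits) :
    ∃ z ∈ W, γ ^ (q ^ N) - 1 = ϖ * z := by
  have h := aq_pow_sub_one W ϖ hq N hqϖ (W.nonunits_subset hγ) (hram _ hγ)
  simpa using h

/-- `𝔪_W` is closed under addition. -/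
theorem aq_add_mem_nonunits (W : ValuationSubring F) {a b : F} (ha : a ∈ W.nonunits)
    (hb : b ∈ W.nonunits) : a + b ∈ W.nonunits := by
  rw [ValuationSubring.mem_nonunits_iff] at ha hb ⊢
  exact Valuation.map_add_lt _ ha hb

theorem aq_zero_mem_nonunits (W : ValuationSubring F) : (0 : F) ∈ W.nonunits := by
  rw [ValuationSubring.mem_nonunits_iff, map_zero]
  exact zero_lt_one

/-- an element `≡ 1` modulo `𝔪_W` is a unit of `W`. -/
theorem aq_inv_mem (W : ValuationSubring F) {γ : F} (hγ : γ - 1 ∈ W.nonunits) : γ⁻¹ ∈ W := by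
  have h1 : W.valuation γ = 1 := pwi_val_eq_one W hγ
  rw [← W.valuation_le_one_iff, map_inv₀, h1, inv_one]

end Val

section Dict

variable {A₀ E F : Type*} [CommRing A₀] [IsDomain A₀] [IsDiscreteValuationRing A₀]
  [Field E] [Algebra A₀ E] [IsFractionRing A₀ E] [CharZero E]
  [Field F] [Algebra E F] [Algebra A₀ F] [IsScalarTower A₀ E F]
  {π : A₀} {u : F} {κ : Type*}

/-- (KR) iterated: `π ^ k · y` integral and `y ∈ V c` for all `c` ⇒ `y` integral. -/
theorem aq_KR_pow (V : κ → ValuationSubring F)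
    (hBV : ∀ c (b : F), IsIntegral ↥(Algebra.adjoin A₀ {u}) b → b ∈ V c)
    (hKR : ∀ x : F, IsIntegral ↥(Algebra.adjoin A₀ {u}) (algebraMap A₀ F π * x) →
      (∀ c, x ∈ V c) → IsIntegral ↥(Algebra.adjoin A₀ {u}) x)
    {y : F} (hy : ∀ c, y ∈ V c) (k : ℕ)
    (h : IsIntegral ↥(Algebra.adjoin A₀ {u}) (algebraMap A₀ F π ^ k * y)) :
    IsIntegral ↥(Algebra.adjoin A₀ {u}) y := by
  have hπint : IsIntegral ↥(Algebra.adjoin A₀ {u}) (algebraMap A₀ F π) :=
    isIntegral_algebraMap (R := ↥(Algebra.adjoin A₀ {u}))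
      (x := algebraMap A₀ ↥(Algebra.adjoin A₀ {u}) π)
  induction k with
  | zero => rwa [pow_zero, one_mul] at h
  | succ k ih =>
    apply ih
    apply hKR
    · have e : algebraMap A₀ F π * (algebraMap A₀ F π ^ k * y)
          = algebraMap A₀ F π ^ (k + 1) * y := by ring
      rw [e]
      exact h
    · intro c
      exact (V c).mul_mem _ _ (hBV c _ (hπint.pow k)) (hy c)

/-- **DICTIONARY, non-reduced form.**  (KR) ⇒ every `x ∈ ⋂_c π V c` lies in `π · (B_u)_(π)`. -/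
theorem aq_dict (hu : Transcendental E u) (hπ : Irreducible π)
    [FiniteDimensional E⟮u⟯ F] (V : κ → ValuationSubring F)
    (hBV : ∀ c (b : F), IsIntegral ↥(Algebra.adjoin A₀ {u}) b → b ∈ V c)
    (hKR : ∀ x : F, IsIntegral ↥(Algebra.adjoin A₀ {u}) (algebraMap A₀ F π * x) →
      (∀ c, x ∈ V c) → IsIntegral ↥(Algebra.adjoin A₀ {u}) x)
    {x : F} (hx : ∀ c, ∃ z ∈ V c, x = algebraMap A₀ F π * z) : EIPiLoc hu hπ x := by
  have hπ0 : algebraMap A₀ F π ≠ 0 := ei_algebraMap_ne_zero (E := E) hπ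
  set z : F := x / algebraMap A₀ F π with hz
  have hxz : x = algebraMap A₀ F π * z := by
    rw [hz]; field_simp
  have hzV : ∀ c, z ∈ V c := by
    intro c
    obtain ⟨z', hz', hxz'⟩ := hx c
    have : z = z' := by
      apply mul_left_cancel₀ hπ0
      rw [← hxz, hxz']
    rw [this]
    exact hz'
  obtain ⟨k, s, hs, hint⟩ := ad_exists_primeTo_pow_mul_isIntegral (E := E) hu hπ z
  have hsint : IsIntegral ↥(Algebra.adjoin A₀ {u}) s :=
    isIntegral_algebraMap (R := ↥(Algebra.adjoin A₀ {u})) (x := ⟨s, hs.1⟩)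
  have hszV : ∀ c, s * z ∈ V c := fun c => (V c).mul_mem _ _ (hBV c s hsint) (hzV c)
  have hsz : IsIntegral ↥(Algebra.adjoin A₀ {u}) (s * z) := by
    refine aq_KR_pow V hBV hKR hszV k ?_
    rw [← mul_assoc]
    exact hint
  refine (eiPiLoc_iff hu hπ).mpr ⟨s, hs, s * z, hsz, ?_⟩
  rw [hxz]
  ring

/-- Elements of `π · (B_u)_(π)` lie in `π · W` for a valuation ring `W ⊇ B_u` over the Gauss
valuation (`s ∈ A₀[u]` prime to `π` is a unit of `W`). -/
theorem aq_piLoc_mem (hu : Transcendental E u) (hπ : Irreducible π)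
    (W : ValuationSubring F)
    (hBW : ∀ b : F, IsIntegral ↥(Algebra.adjoin A₀ {u}) b → b ∈ W)
    (hG : ∀ s : F, EIPrimeTo π u s → s ∉ W.nonunits)
    {x : F} (hx : EIPiLoc hu hπ x) : ∃ z ∈ W, x = algebraMap A₀ F π * z := by
  obtain ⟨z, ⟨s, hs, hsz⟩, rfl⟩ := hx
  refine ⟨z, ?_, rfl⟩
  have hsint : IsIntegral ↥(Algebra.adjoin A₀ {u}) s :=
    isIntegral_algebraMap (R := ↥(Algebra.adjoin A₀ {u})) (x := ⟨s, hs.1⟩)
  have hs1 : W.valuation s = 1 := ats_valuation_eq_one W (hBW s hsint) (hG s hs)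
  have h2 : W.valuation (s * z) ≤ 1 := (W.valuation_le_one_iff _).mpr (hBW _ hsz)
  rw [map_mul, hs1, one_mul] at h2
  exact (W.valuation_le_one_iff _).mp h2

/-- **The constants**: if one component `W` has `𝔪_W = π W` and lies over the Gauss valuation, and
the units of `A₀` are `p`-th powers, then the constants `c ∈ E^×` with `c · h ^ p ≡ 1` on the
special fibre are `p`-th powers. -/
theorem aq_hconst (hu : Transcendental E u) (hπ : Irreducible π)
    (W : ValuationSubring F)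
    (hBW : ∀ b : F, IsIntegral ↥(Algebra.adjoin A₀ {u}) b → b ∈ W)
    (hπW : algebraMap A₀ F π ∈ W.nonunits)
    (hU : ∀ x : F, x ∈ W.nonunits → ∃ z ∈ W, x = algebraMap A₀ F π * z)
    (hG : ∀ s : F, EIPrimeTo π u s → s ∉ W.nonunits)
    {p : ℕ} (hp : 0 < p) (hunit : ∀ a : A₀, IsUnit a → ∃ d : A₀, d ^ p = a) :
    ∀ c : E, c ≠ 0 →
      (∃ h : F, EIPiLoc hu hπ (algebraMap E F c * h ^ p - 1)) → ∃ d : E, d ^ p = c := by
  intro c hc ⟨h, hh⟩
  obtain ⟨d, r, hrp, hd⟩ := ks_const_decomp hπ hp hunit hc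
  rcases Nat.eq_zero_or_pos r with hr0 | hr0
  · subst hr0
    exact ⟨d, by rw [← hd, pow_zero, one_mul]⟩
  exfalso
  set ϖ : F := algebraMap A₀ F π with hϖ
  have hϖ0 : ϖ ≠ 0 := ei_algebraMap_ne_zero (E := E) hπ
  set h₁ : F := algebraMap E F d * h with hh₁
  have e : ϖ ^ r * h₁ ^ p = algebraMap E F c * h ^ p := by
    rw [← hd, map_mul, map_pow, map_pow, hh₁, mul_pow, hϖ,
      ← IsScalarTower.algebraMap_apply A₀ E F]
    ring
  rw [← e] at hh
  obtain ⟨z, hz, hxz⟩ := aq_piLoc_mem hu hπ W hBW hG hh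
  -- `ϖ ^ r h₁ ^ p ≡ 1` modulo `𝔪_W`
  have hmem : ϖ ^ r * h₁ ^ p - 1 ∈ W.nonunits := by
    rw [hxz, mul_comm]
    exact pwi_mul_mem_nonunits W hz hπW
  have hval : W.valuation (ϖ ^ r * h₁ ^ p) = 1 := pwi_val_eq_one W hmem
  have ha1 : W.valuation ϖ < 1 := (ValuationSubring.mem_nonunits_iff W).mp hπW
  have ha0 : W.valuation ϖ ≠ 0 := (_root_.map_ne_zero _).mpr hϖ0
  have hh₁0 : h₁ ≠ 0 := by
    rintro h0
    rw [h0, zero_pow hp.ne', mul_zero, map_zero] at hval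
    exact zero_ne_one hval
  -- `y := h₁⁻¹ ∈ 𝔪_W`
  set y : F := h₁⁻¹ with hy
  have hyp : W.valuation y ^ p = W.valuation ϖ ^ r := by
    rw [map_mul, map_pow, map_pow] at hval
    rw [hy, map_inv₀, inv_pow]
    exact (eq_inv_of_mul_eq_one_left hval).symm
  have hylt : W.valuation y < 1 := by
    by_contra hcon
    have h1 : 1 ≤ W.valuation y ^ p := one_le_pow₀ (not_lt.mp hcon)
    rw [hyp] at h1
    exact absurd (pow_lt_one₀ zero_le ha1 hr0.ne') (not_lt.mpr h1)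
  obtain ⟨z', hz', hyz'⟩ := hU y ((ValuationSubring.mem_nonunits_iff W).mpr hylt)
  have hyle : W.valuation y ≤ W.valuation ϖ := by
    rw [hyz', map_mul]
    exact mul_le_of_le_one_right zero_le ((W.valuation_le_one_iff _).mpr hz')
  have h3 : W.valuation ϖ ^ r ≤ W.valuation ϖ ^ p := by
    rw [← hyp]
    exact pow_le_pow_left₀ zero_le hyle p
  have h4 : W.valuation ϖ ^ p < W.valuation ϖ ^ r :=
    pow_lt_pow_right_of_lt_one₀ (zero_lt_iff.mpr ha0) ha1 hrp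
  exact absurd h4 (not_lt.mpr h3)

end Dict

section Adapter

variable {A₀ E F : Type*} [CommRing A₀] [IsDomain A₀] [IsDiscreteValuationRing A₀]
  [Field E] [Algebra A₀ E] [IsFractionRing A₀ E] [CharZero E]
  [Field F] [Algebra E F] [Algebra A₀ F] [IsScalarTower A₀ E F]
  {π : A₀} {u : F} {κ ι : Type*}

/-- **ADAPTER at one closed point, `π`-divisible form.**  As `UNIP.ad_ksLocal_point`, with
"`≡` modulo `π V c`" in place of "`≡` modulo `𝔪(V c)`". -/
theorem aq_ksLocal_point (hu : Transcendental E u) (hπ : Irreducible π)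
    [Finite κ] (V : κ → ValuationSubring F)
    (hBV : ∀ c (b : F), IsIntegral ↥(Algebra.adjoin A₀ {u}) b → b ∈ V c)
    (hπV : ∀ c, algebraMap A₀ F π ∈ (V c).nonunits)
    (hdict : ∀ x : F, (∀ c, ∃ z ∈ V c, x = algebraMap A₀ F π * z) → EIPiLoc hu hπ x)
    (harch : ∀ c (a x : F), a ∈ (V c).nonunits → ∃ N : ℕ, a ^ N * x ∈ (V c).nonunits)
    (𝔫 : Ideal ↥(zchClosure (A₀ := A₀) ({u} : Set F))) [h𝔫 : 𝔫.IsPrime]
    (thr : κ → Prop)
    (hthr : ∀ c, ¬ thr c →
      ∃ b : ↥(zchClosure (A₀ := A₀) ({u} : Set F)), b ∉ 𝔫 ∧ (b : F) ∈ (V c).nonunits)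
    {p : ℕ} (hp : 0 < p) {w ε γ : F} (hγ0 : γ ≠ 0)
    (hε : ∃ b s₁ : ↥(zchClosure (A₀ := A₀) ({u} : Set F)), s₁ ∉ 𝔫 ∧ (s₁ : F) * ε = b)
    (hγ : ∀ c, thr c → ∃ z ∈ V c, γ - 1 = algebraMap A₀ F π * z) (hw : w = ε * γ ^ p) :
    ∃ s : ↥(zchClosure (A₀ := A₀) ({u} : Set F)), s ∉ 𝔫 ∧ ∃ g : F,
      IsIntegral ↥(Algebra.adjoin A₀ {u}) (g ^ p * w) ∧ EIPiLoc hu hπ ((s : F) - g) := by
  classical
  haveI : Fintype κ := Fintype.ofFinite κ
  obtain ⟨b, s₁, hs₁, hsb⟩ := hε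
  set ϖ : F := algebraMap A₀ F π with hϖ
  have hϖ0 : ϖ ≠ 0 := ei_algebraMap_ne_zero (E := E) hπ
  have h1𝔫 : (1 : ↥(zchClosure (A₀ := A₀) ({u} : Set F))) ∉ 𝔫 := fun h =>
    h𝔫.ne_top ((Ideal.eq_top_iff_one 𝔫).mpr h)
  -- the multipliers
  have hmult : ∀ c, ∃ bc : ↥(zchClosure (A₀ := A₀) ({u} : Set F)), bc ∉ 𝔫 ∧
      ∃ z ∈ V c, (bc : F) * ((γ - 1) / γ) = ϖ * z := by
    intro c
    by_cases hc : thr c
    · obtain ⟨z, hz, hγz⟩ := hγ c hc
      have hγm : γ - 1 ∈ (V c).nonunits := by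
        rw [hγz, mul_comm]
        exact pwi_mul_mem_nonunits (V c) hz (hπV c)
      refine ⟨1, h1𝔫, z * γ⁻¹, (V c).mul_mem _ _ hz (aq_inv_mem (V c) hγm), ?_⟩
      push_cast
      rw [one_mul, hγz]
      field_simp
    · obtain ⟨b', hb', hb'V⟩ := hthr c hc
      obtain ⟨N, hN⟩ := harch c (b' : F) ((γ - 1) / γ / ϖ) hb'V
      refine ⟨b' ^ N, fun h => hb' (h𝔫.mem_of_pow_mem N h), _, (V c).nonunits_subset hN, ?_⟩
      push_cast
      field_simp
  choose bc hbc zc hzc hbcz using hmult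
  set b₀ : ↥(zchClosure (A₀ := A₀) ({u} : Set F)) := ∏ c, bc c with hb₀
  have hb₀𝔫 : b₀ ∉ 𝔫 := by
    intro h
    obtain ⟨c, -, hc⟩ := (Ideal.IsPrime.prod_mem_iff).mp h
    exact hbc c hc
  have hmemV : ∀ (x : ↥(zchClosure (A₀ := A₀) ({u} : Set F))) (c : κ), (x : F) ∈ V c :=
    fun x c => hBV c _ (mem_zchClosure.mp x.2)
  refine ⟨b₀ * s₁, fun h => ?_, ((b₀ * s₁ : ↥(zchClosure (A₀ := A₀) ({u} : Set F))) : F) / γ,
    ?_, ?_⟩
  · rcases h𝔫.mem_or_mem h with h' | h'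
    · exact hb₀𝔫 h'
    · exact hs₁ h'
  · have e : (((b₀ * s₁ : ↥(zchClosure (A₀ := A₀) ({u} : Set F))) : F) / γ) ^ p * w
        = ((b₀ ^ p * s₁ ^ (p - 1) * b : ↥(zchClosure (A₀ := A₀) ({u} : Set F))) : F) := by
      have h2 : (s₁ : F) ^ p = (s₁ : F) ^ (p - 1) * (s₁ : F) := by
        rw [← pow_succ, Nat.sub_add_cancel hp]
      push_cast
      rw [hw, div_pow, mul_pow, h2, ← hsb]
      field_simp
    rw [e]
    exact mem_zchClosure.mp (b₀ ^ p * s₁ ^ (p - 1) * b).2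
  · apply hdict
    intro c
    refine ⟨((s₁ * ∏ c' ∈ Finset.univ.erase c, bc c' :
      ↥(zchClosure (A₀ := A₀) ({u} : Set F))) : F) * zc c,
      (V c).mul_mem _ _ (hmemV _ c) (hzc c), ?_⟩
    have e : ((b₀ * s₁ : ↥(zchClosure (A₀ := A₀) ({u} : Set F))) : F)
          - ((b₀ * s₁ : ↥(zchClosure (A₀ := A₀) ({u} : Set F))) : F) / γ
        = ((s₁ * ∏ c' ∈ Finset.univ.erase c, bc c' :
            ↥(zchClosure (A₀ := A₀) ({u} : Set F))) : F) * ((bc c : F) * ((γ - 1) / γ)) := by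
      have hprod : b₀ = bc c * ∏ c' ∈ Finset.univ.erase c, bc c' := by
        rw [hb₀, Finset.mul_prod_erase _ _ (Finset.mem_univ c)]
      rw [hprod]
      push_cast
      field_simp
    rw [e, hbcz c]
    ring

/-- **ADAPTER** `PwiShape ⇒ KSLocal'` for `w ^ (q ^ N)` at the chart `u`. -/
theorem aq_ksLocal' (hu : Transcendental E u) (hπ : Irreducible π)
    [Finite κ] (V : κ → ValuationSubring F) (O : ι → Subring F) (J : ∀ i, Ideal (O i))
    (inc : ι → κ → Prop)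
    (hBV : ∀ c (b : F), IsIntegral ↥(Algebra.adjoin A₀ {u}) b → b ∈ V c)
    (hπV : ∀ c, algebraMap A₀ F π ∈ (V c).nonunits)
    (hdict : ∀ x : F, (∀ c, ∃ z ∈ V c, x = algebraMap A₀ F π * z) → EIPiLoc hu hπ x)
    (harch : ∀ c (a x : F), a ∈ (V c).nonunits → ∃ N : ℕ, a ^ N * x ∈ (V c).nonunits)
    {q : ℕ} (hq : q.Prime) (N : ℕ)
    (hqπ : ∀ c, ∃ z ∈ V c, (q : F) = algebraMap A₀ F π * z)
    (hram : ∀ c (x : F), x ∈ (V c).nonunits → ∃ z ∈ V c, x ^ (q ^ N) = algebraMap A₀ F π * z)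
    (hcov : ∀ 𝔫 : Ideal ↥(zchClosure (A₀ := A₀) ({u} : Set F)), 𝔫.IsMaximal →
      algebraMap A₀ ↥(zchClosure (A₀ := A₀) ({u} : Set F)) π ∈ 𝔫 → ∃ i : ι,
        (∀ x ∈ O i, ∃ b s : ↥(zchClosure (A₀ := A₀) ({u} : Set F)), s ∉ 𝔫 ∧ (s : F) * x = b) ∧
        (∀ c, ¬ inc i c →
          ∃ b : ↥(zchClosure (A₀ := A₀) ({u} : Set F)), b ∉ 𝔫 ∧ (b : F) ∈ (V c).nonunits))
    {p : ℕ} (hp : 0 < p) {w : F} (hw0 : w ≠ 0) (hw : PwiShape V O J inc p w) :
    KSLocal' hu hπ p (w ^ (q ^ N)) := by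
  intro 𝔫 h𝔫 hπ𝔫
  haveI := h𝔫.isPrime
  obtain ⟨i, hOi, hinc⟩ := hcov 𝔫 h𝔫 hπ𝔫
  obtain ⟨ε, γ, hε, -, hγ, hwε⟩ := hw.2 i
  have hγ0 : γ ≠ 0 := by
    rintro rfl
    rw [zero_pow hp.ne', mul_zero] at hwε
    exact hw0 hwε
  refine aq_ksLocal_point hu hπ V hBV hπV hdict harch 𝔫 (inc i) hinc hp
    (w := w ^ (q ^ N)) (ε := ε ^ (q ^ N)) (γ := γ ^ (q ^ N)) (pow_ne_zero _ hγ0)
    (hOi _ (Subring.pow_mem _ hε _)) ?_ ?_
  · intro c hc
    exact aq_pow_sub_one' (V c) _ hq N (hqπ c) (hram c) (hγ c hc)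
  · rw [hwε, mul_pow, ← pow_mul, ← pow_mul, mul_comm p]

end Adapter

section Base

variable {A₀ E F : Type*} [CommRing A₀] [IsDomain A₀] [IsDiscreteValuationRing A₀]
  [Field E] [Algebra A₀ E] [IsFractionRing A₀ E] [CharZero E]
  [Field F] [Algebra E F] [Algebra A₀ F] [IsScalarTower A₀ E F]
  {π : A₀} {κ ι : Type*}

/-- a `p`-th power root of `w ^ Q`, `Q` prime to `p`, gives a `p`-th root of `w`. -/
theorem aq_root_of_pow_coprime {p Q : ℕ} (hQp : Nat.Coprime Q p) {w h : F} (hw0 : w ≠ 0)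
    (hh : h ^ p = w ^ Q) : ∃ h' : F, h' ^ p = w := by
  have hco : IsCoprime (Q : ℤ) (p : ℤ) := Nat.isCoprime_iff_coprime.mpr hQp
  obtain ⟨a, b, hab⟩ := hco
  refine ⟨h ^ a * w ^ b, ?_⟩
  have h1 : (h ^ a * w ^ b) ^ p = (h ^ p) ^ a * (w ^ b) ^ (p : ℤ) := by
    rw [mul_pow, ← zpow_natCast (h ^ a) p, ← zpow_mul, mul_comm a (p : ℤ), zpow_mul,
      zpow_natCast, ← zpow_natCast (w ^ b) p]
  rw [h1, hh, ← zpow_natCast w Q, ← zpow_mul, ← zpow_mul, ← zpow_add₀ hw0]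
  have e : (Q : ℤ) * a + b * (p : ℤ) = 1 := by rw [← hab]; ring
  rw [e, zpow_one]

/-- **Base case (`hP` of D5), non-reduced special fibre.**  In the chart setting for `F`, with
(KR), (RAM), (U0), every `w` of shape `p` is a `p`-th power.  (`J` is arbitrary.) -/
theorem aq_hP (hπ : Irreducible π) {t : F} (ht : Transcendental E t)
    [FiniteDimensional E⟮t⟯ F]
    (hcl : ∀ x : F, IsAlgebraic E x → x ∈ (algebraMap E F).range)
    {p : ℕ} (hp : p.Prime) (hpu : IsUnit (p : A₀)) {ζ : A₀} (hζ : IsPrimitiveRoot ζ p)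
    (hunit : ∀ a : A₀, IsUnit a → ∃ d : A₀, d ^ p = a)
    {q : ℕ} (hq : q.Prime) (hqp : q ≠ p) (hqπ : π ∣ (q : A₀)) (N : ℕ)
    [Finite κ] (V : κ → ValuationSubring F) (O : ι → Subring F) (J : ∀ i, Ideal (O i))
    (inc : ι → κ → Prop)
    (hBV₁ : ∀ c (b : F), IsIntegral ↥(Algebra.adjoin A₀ {t}) b → b ∈ V c)
    (hBV₂ : ∀ c (b : F), IsIntegral ↥(Algebra.adjoin A₀ {t⁻¹}) b → b ∈ V c)
    (hπV : ∀ c, algebraMap A₀ F π ∈ (V c).nonunits)
    (hKR : ∀ x : F, IsIntegral ↥(Algebra.adjoin A₀ {t}) (algebraMap A₀ F π * x) →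
      (∀ c, x ∈ V c) → IsIntegral ↥(Algebra.adjoin A₀ {t}) x)
    (hram : ∀ c (x : F), x ∈ (V c).nonunits → ∃ z ∈ V c, x ^ (q ^ N) = algebraMap A₀ F π * z)
    (c₀ : κ)
    (hU : ∀ x : F, x ∈ (V c₀).nonunits → ∃ z ∈ V c₀, x = algebraMap A₀ F π * z)
    (hG : ∀ s : F, EIPrimeTo π t s → s ∉ (V c₀).nonunits)
    (harch : ∀ c (a x : F), a ∈ (V c).nonunits → ∃ N : ℕ, a ^ N * x ∈ (V c).nonunits)
    (hcov₁ : ∀ 𝔫 : Ideal ↥(zchClosure (A₀ := A₀) ({t} : Set F)), 𝔫.IsMaximal →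
      algebraMap A₀ ↥(zchClosure (A₀ := A₀) ({t} : Set F)) π ∈ 𝔫 → ∃ i : ι,
        (∀ x ∈ O i, ∃ b s : ↥(zchClosure (A₀ := A₀) ({t} : Set F)), s ∉ 𝔫 ∧ (s : F) * x = b) ∧
        (∀ c, ¬ inc i c →
          ∃ b : ↥(zchClosure (A₀ := A₀) ({t} : Set F)), b ∉ 𝔫 ∧ (b : F) ∈ (V c).nonunits))
    (hcov₂ : ∀ 𝔫 : Ideal ↥(zchClosure (A₀ := A₀) ({t⁻¹} : Set F)), 𝔫.IsMaximal →
      algebraMap A₀ ↥(zchClosure (A₀ := A₀) ({t⁻¹} : Set F)) π ∈ 𝔫 → ∃ i : ι,
        (∀ x ∈ O i, ∃ b s : ↥(zchClosure (A₀ := A₀) ({t⁻¹} : Set F)), s ∉ 𝔫 ∧ (s : F) * x = b) ∧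
        (∀ c, ¬ inc i c →
          ∃ b : ↥(zchClosure (A₀ := A₀) ({t⁻¹} : Set F)), b ∉ 𝔫 ∧ (b : F) ∈ (V c).nonunits))
    (w : F) (hw : PwiShape V O J inc p w) : ∃ h : F, h ^ p = w := by
  by_cases hw0 : w = 0
  · exact ⟨0, by rw [hw0, zero_pow hp.ne_zero]⟩
  have hdict₁ : ∀ x : F, (∀ c, ∃ z ∈ V c, x = algebraMap A₀ F π * z) → EIPiLoc ht hπ x :=
    fun x hx => aq_dict ht hπ V hBV₁ hKR hx
  have hdict₂ : ∀ x : F, (∀ c, ∃ z ∈ V c, x = algebraMap A₀ F π * z) →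
      EIPiLoc (zch_transcendental_inv ht) hπ x := fun x hx =>
    (eiPiLoc_inv_iff ht hπ).mpr (hdict₁ x hx)
  have hqV : ∀ c, ∃ z ∈ V c, (q : F) = algebraMap A₀ F π * z := by
    intro c
    obtain ⟨a, ha⟩ := hqπ
    refine ⟨algebraMap A₀ F a, hBV₁ c _ (isIntegral_algebraMap (R := ↥(Algebra.adjoin A₀ {t}))
      (x := algebraMap A₀ ↥(Algebra.adjoin A₀ {t}) a)), ?_⟩
    rw [← map_mul, ← ha, map_natCast]
  have hconst := aq_hconst (E := E) ht hπ (V c₀) (hBV₁ c₀) (hπV c₀) hU hG hp.pos hunit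
  have hGl : EIPiLoc ht hπ (w ^ (q ^ N) - 1) :=
    hdict₁ _ (fun c => aq_pow_sub_one' (V c) _ hq N (hqV c) (hram c) (hw.1 c))
  obtain ⟨h, hh⟩ := ks_main_pow' hπ ht hcl hp hpu hζ hconst (pow_ne_zero _ hw0) hGl
    (aq_ksLocal' ht hπ V O J inc hBV₁ hπV hdict₁ harch hq N hqV hram hcov₁ hp.pos hw0 hw)
    (aq_ksLocal' (zch_transcendental_inv ht) hπ V O J inc hBV₂ hπV hdict₂ harch hq N hqV hram
      hcov₂ hp.pos hw0 hw)
  refine aq_root_of_pow_coprime ?_ hw0 hh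
  exact Nat.Coprime.pow_left N ((Nat.coprime_primes hq hp).mpr hqp)

end Base

section Main

variable {A₀ E F : Type*} [CommRing A₀] [IsDomain A₀] [IsDiscreteValuationRing A₀]
  [Field E] [Algebra A₀ E] [IsFractionRing A₀ E] [CharZero E]
  [Field F] [Algebra E F] [Algebra A₀ F] [IsScalarTower A₀ E F]
  {κ : Type*}

/-- The RADICAL ideal of the local ring `(B_u)_𝔫` of a closed point: the elements whose multiples
all lie in `𝔪(V c)` for every component `c` through `𝔫`. -/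
def aqLocIdeal (V : κ → ValuationSubring F) {π : A₀} {u : F} (𝔫 : AtPt (F := F) π u) :
    Ideal (atLoc 𝔫) where
  carrier := {x | ∀ c, atThrough 𝔫 (V c) → ∀ y : atLoc 𝔫, (y : F) * (x : F) ∈ (V c).nonunits}
  add_mem' := by
    intro a b ha hb c hc y
    have e : (y : F) * ((a + b : atLoc 𝔫) : F) = (y : F) * (a : F) + (y : F) * (b : F) := by
      push_cast; ring
    rw [e]
    exact aq_add_mem_nonunits (V c) (ha c hc y) (hb c hc y)
  zero_mem' := by
    intro c hc y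
    simp only [ZeroMemClass.coe_zero, mul_zero]
    exact aq_zero_mem_nonunits (V c)
  smul_mem' := by
    intro a x hx c hc y
    have e : (y : F) * ((a • x : atLoc 𝔫) : F) = ((y * a : atLoc 𝔫) : F) * (x : F) := by
      rw [smul_eq_mul]; push_cast; ring
    rw [e]
    exact hx c hc (y * a)


/-- `J i` of `PwiShape` for a non-reduced special fibre: the radical ideals. -/
def aqJ (V : κ → ValuationSubring F) (π : A₀) (t : F) :
    (i : AtPt (F := F) π t ⊕ AtPt (F := F) π t⁻¹) → Ideal (atO π t i)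
  | Sum.inl 𝔫 => aqLocIdeal V 𝔫
  | Sum.inr 𝔫 => aqLocIdeal V 𝔫

variable {π : A₀}

/-- the local ring of a closed point lies in the valuation rings of the components through it -/
theorem aq_atLoc_le (W : ValuationSubring F) {u : F}
    (hBW : ∀ b : F, IsIntegral ↥(Algebra.adjoin A₀ {u}) b → b ∈ W)
    (𝔫 : AtPt (F := F) π u) (hthr : atThrough 𝔫 W) {x : F} (hx : x ∈ atLoc 𝔫) : x ∈ W := by
  obtain ⟨b, s, hs, hsx⟩ := hx
  have hs1 : W.valuation (s : F) = 1 :=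
    ats_valuation_eq_one W (hBW _ (mem_zchClosure.mp s.2)) fun h => hs (hthr s h)
  have h2 : W.valuation ((s : F) * x) ≤ 1 := by
    rw [show ((s : F) * x) = (b : F) from hsx]
    exact (W.valuation_le_one_iff _).mpr (hBW _ (mem_zchClosure.mp b.2))
  rw [map_mul, hs1, one_mul] at h2
  exact (W.valuation_le_one_iff _).mp h2

/-- membership in the radical ideal -/
theorem aq_mem_locIdeal (V : κ → ValuationSubring F) {u : F}
    (hBV : ∀ c (b : F), IsIntegral ↥(Algebra.adjoin A₀ {u}) b → b ∈ V c)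
    (𝔫 : AtPt (F := F) π u) (x : atLoc 𝔫) :
    x ∈ aqLocIdeal V 𝔫 ↔ ∀ c, atThrough 𝔫 (V c) → (x : F) ∈ (V c).nonunits := by
  constructor
  · intro h c hc
    have := h c hc 1
    simpa using this
  · intro h c hc y
    exact pwi_mul_mem_nonunits (V c) (aq_atLoc_le (V c) (hBV c) 𝔫 hc y.2) (h c hc)

/-- (KR) on the chart `t⁻¹` from (KR) on the chart `t`. -/
theorem aq_KR_inv (hπ : Irreducible π) {t : F} (ht : Transcendental E t)
    [FiniteDimensional E⟮t⟯ F] (V : κ → ValuationSubring F)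
    (hBV₁ : ∀ c (b : F), IsIntegral ↥(Algebra.adjoin A₀ {t}) b → b ∈ V c)
    (hKR : ∀ x : F, IsIntegral ↥(Algebra.adjoin A₀ {t}) (algebraMap A₀ F π * x) →
      (∀ c, x ∈ V c) → IsIntegral ↥(Algebra.adjoin A₀ {t}) x) :
    ∀ x : F, IsIntegral ↥(Algebra.adjoin A₀ {t⁻¹}) (algebraMap A₀ F π * x) →
      (∀ c, x ∈ V c) → IsIntegral ↥(Algebra.adjoin A₀ {t⁻¹}) x := by
  intro x hx hxV
  have hπ0 : algebraMap A₀ F π ≠ 0 := ei_algebraMap_ne_zero (E := E) hπ
  have h1 : EIPiLoc ht hπ (algebraMap A₀ F π * x) :=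
    aq_dict ht hπ V hBV₁ hKR (fun c => ⟨x, hxV c, rfl⟩)
  have h2 : EIPiLoc (zch_transcendental_inv ht) hπ (algebraMap A₀ F π * x) :=
    (eiPiLoc_inv_iff ht hπ).mpr h1
  obtain ⟨c, hc, hxc⟩ := h2.piInt (zch_transcendental_inv ht) hπ hx
  have : x = c := mul_left_cancel₀ hπ0 hxc
  rw [this]
  exact hc

/-- **`hpt`**: every closed point of the special fibre lies on a component, by (KR) + (RAM). -/
theorem aq_hpt [Finite κ] {u : F} (V : κ → ValuationSubring F)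
    (hBV : ∀ c (b : F), IsIntegral ↥(Algebra.adjoin A₀ {u}) b → b ∈ V c)
    (hKR : ∀ x : F, IsIntegral ↥(Algebra.adjoin A₀ {u}) (algebraMap A₀ F π * x) →
      (∀ c, x ∈ V c) → IsIntegral ↥(Algebra.adjoin A₀ {u}) x)
    {Q : ℕ}
    (hram : ∀ c (x : F), x ∈ (V c).nonunits → ∃ z ∈ V c, x ^ Q = algebraMap A₀ F π * z)
    (hπ0 : algebraMap A₀ F π ≠ 0)
    (𝔫 : AtPt (F := F) π u) : ∃ c, atThrough 𝔫 (V c) := by
  classical
  haveI := 𝔫.2.1.isPrime
  by_contra hcon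
  simp only [not_exists, atThrough, not_forall] at hcon
  choose f hf hf' using hcon
  haveI : Fintype κ := Fintype.ofFinite κ
  set g : ↥(zchClosure (A₀ := A₀) ({u} : Set F)) := ∏ c' : κ, f c' with hg
  have hprod : ∀ c, (g : F) ∈ (V c).nonunits := by
    intro c
    have e : (g : F) = ((∏ c' ∈ Finset.univ.erase c, f c' :
        ↥(zchClosure (A₀ := A₀) ({u} : Set F))) : F) * (f c : F) := by
      rw [hg, ← Finset.mul_prod_erase Finset.univ f (Finset.mem_univ c), mul_comm]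
      rfl
    rw [e]
    exact pwi_mul_mem_nonunits (V c)
      (hBV c _ (mem_zchClosure.mp (∏ c' ∈ Finset.univ.erase c, f c').2)) (hf c)
  -- `g ^ Q / π` is integral
  have hint : IsIntegral ↥(Algebra.adjoin A₀ {u}) ((g : F) ^ Q / algebraMap A₀ F π) := by
    apply hKR
    · have e : algebraMap A₀ F π * ((g : F) ^ Q / algebraMap A₀ F π) = ((g ^ Q :
          ↥(zchClosure (A₀ := A₀) ({u} : Set F))) : F) := by
        push_cast; field_simp
      rw [e]
      exact mem_zchClosure.mp (g ^ Q).2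
    · intro c
      obtain ⟨z, hz, hgz⟩ := hram c _ (hprod c)
      have : (g : F) ^ Q / algebraMap A₀ F π = z := by
        rw [hgz]; field_simp
      rw [this]
      exact hz
  have hmem : g ^ Q ∈ 𝔫.1 := by
    have e : g ^ Q = algebraMap A₀ ↥(zchClosure (A₀ := A₀) ({u} : Set F)) π *
        ⟨(g : F) ^ Q / algebraMap A₀ F π, mem_zchClosure.mpr hint⟩ := by
      apply Subtype.ext
      push_cast
      show (g : F) ^ Q = algebraMap A₀ F π * ((g : F) ^ Q / algebraMap A₀ F π)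
      field_simp
    rw [e]
    exact 𝔫.1.mul_mem_right _ 𝔫.2.2
  have hgm : g ∈ 𝔫.1 := Ideal.IsPrime.mem_of_pow_mem inferInstance Q hmem
  obtain ⟨c, -, hc⟩ := Ideal.IsPrime.prod_mem_iff.mp hgm
  exact hf' c hc

/-- the radical ideal is proper -/
theorem aq_locIdeal_ne_top (V : κ → ValuationSubring F) {u : F}
    (𝔫 : AtPt (F := F) π u) (hpt : ∃ c, atThrough 𝔫 (V c)) : aqLocIdeal V 𝔫 ≠ ⊤ := by
  intro htop
  obtain ⟨c, hc⟩ := hpt
  have h1 : (1 : atLoc 𝔫) ∈ aqLocIdeal V 𝔫 := by rw [htop]; exact Submodule.mem_top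
  have := h1 c hc 1
  simp only [OneMemClass.coe_one, mul_one] at this
  exact crossing_one_not_mem_nonunits (V c) this

/-- **Shape ⇒ power, NON-REDUCED special fibre.**  In the chart setting with (KR), (RAM), (U0) and
connected special fibre, every `w` of shape `PwiShape V atO (aqJ V) atInc (p ^ r)` is a
`p ^ r`-th power in `F`. -/
theorem aq_pow_of_shape (hπ : Irreducible π) {t : F} (ht : Transcendental E t)
    [FiniteDimensional E⟮t⟯ F]
    (hcl : ∀ x : F, IsAlgebraic E x → x ∈ (algebraMap E F).range)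
    {p : ℕ} (hp : p.Prime) (hpu : IsUnit (p : A₀)) {ζ : A₀} (hζ : IsPrimitiveRoot ζ p)
    (hunit : ∀ a : A₀, IsUnit a → ∃ d : A₀, d ^ p = a)
    {q : ℕ} (hq : q.Prime) (hqp : q ≠ p) (hqπ : π ∣ (q : A₀)) (N : ℕ)
    [Finite κ] (V : κ → ValuationSubring F)
    (hBV₁ : ∀ c (b : F), IsIntegral ↥(Algebra.adjoin A₀ {t}) b → b ∈ V c)
    (hBV₂ : ∀ c (b : F), IsIntegral ↥(Algebra.adjoin A₀ {t⁻¹}) b → b ∈ V c)
    (hπV : ∀ c, algebraMap A₀ F π ∈ (V c).nonunits)
    (hKR : ∀ x : F, IsIntegral ↥(Algebra.adjoin A₀ {t}) (algebraMap A₀ F π * x) →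
      (∀ c, x ∈ V c) → IsIntegral ↥(Algebra.adjoin A₀ {t}) x)
    (hram : ∀ c (x : F), x ∈ (V c).nonunits → ∃ z ∈ V c, x ^ (q ^ N) = algebraMap A₀ F π * z)
    (c₀ : κ)
    (hU : ∀ x : F, x ∈ (V c₀).nonunits → ∃ z ∈ V c₀, x = algebraMap A₀ F π * z)
    (hG : ∀ s : F, EIPrimeTo π t s → s ∉ (V c₀).nonunits)
    (harch : ∀ c (a x : F), a ∈ (V c).nonunits → ∃ N : ℕ, a ^ N * x ∈ (V c).nonunits)
    (hconn : ∀ c c' : κ, Relation.ReflTransGen
      (fun a b => ∃ i, atInc π t V i a ∧ atInc π t V i b) c c')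
    (r : ℕ) (w : F) (hw : PwiShape V (atO π t) (aqJ V π t) (atInc π t V) (p ^ r) w) :
    ∃ h : F, h ^ (p ^ r) = w := by
  have hπ0 : algebraMap A₀ F π ≠ 0 := ei_algebraMap_ne_zero (E := E) hπ
  have hKR' := aq_KR_inv hπ ht V hBV₁ hKR
  have hAV : ∀ c (a : A₀), algebraMap A₀ F a ∈ V c := fun c a =>
    hBV₁ c _ (mem_zchClosure.mp ((zchClosure (A₀ := A₀) ({t} : Set F)).algebraMap_mem a))
  have hζF : IsPrimitiveRoot (algebraMap A₀ F ζ) p :=
    hζ.map_of_injective (zch_algebraMap_injective (A₀ := A₀) (E := E) (L := F))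
  have hpt : ∀ i : AtPt (F := F) π t ⊕ AtPt (F := F) π t⁻¹, ∃ c, atInc π t V i c := by
    rintro (𝔫 | 𝔫)
    · exact aq_hpt V hBV₁ hKR hram hπ0 𝔫
    · exact aq_hpt V hBV₂ hKR' hram hπ0 𝔫
  refine pwi_exists_pow_eq (V := V) (O := atO π t) (J := aqJ V π t) (inc := atInc π t V)
    ?_ ?_ ?_ ?_ hpt hconn hp.pos hζF ?_ ?_ ?_ ?_ r w hw
  · rintro (𝔫 | 𝔫)
    · haveI := 𝔫.2.1.isPrime
      exact ls_localSubring_isLocalRing Subtype.val_injective 𝔫.1
    · haveI := 𝔫.2.1.isPrime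
      exact ls_localSubring_isLocalRing Subtype.val_injective 𝔫.1
  · rintro (𝔫 | 𝔫)
    · exact aq_locIdeal_ne_top V 𝔫 (hpt (Sum.inl 𝔫))
    · exact aq_locIdeal_ne_top V 𝔫 (hpt (Sum.inr 𝔫))
  · rintro (𝔫 | 𝔫)
    · haveI := 𝔫.2.1.isPrime
      exact ls_isIntegral_mem_localSubring (at_chart_integrallyClosed _) 𝔫.1
    · haveI := 𝔫.2.1.isPrime
      exact ls_isIntegral_mem_localSubring (at_chart_integrallyClosed _) 𝔫.1
  · rintro (𝔫 | 𝔫) c hinc x hx
    · have := hx c hinc 1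
      simpa using this
    · have := hx c hinc 1
      simpa using this
  · rintro (𝔫 | 𝔫)
    · haveI := 𝔫.2.1.isPrime
      exact ats_hζO 𝔫.1 ζ
    · haveI := 𝔫.2.1.isPrime
      exact ats_hζO 𝔫.1 ζ
  · rintro (𝔫 | 𝔫) k hk0 hkp
    · haveI := 𝔫.2.1.isPrime
      exact ats_hζu 𝔫.1 hpu hζ hk0 hkp
    · haveI := 𝔫.2.1.isPrime
      exact ats_hζu 𝔫.1 hpu hζ hk0 hkp
  · intro c k hk0 hkp
    exact ats_hζV (V c) (hAV c) hpu hζ hk0 hkp
  · refine aq_hP hπ ht hcl hp hpu hζ hunit hq hqp hqπ N V (atO π t) (aqJ V π t) (atInc π t V)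
      hBV₁ hBV₂ hπV hKR hram c₀ hU hG harch ?_ ?_
    · intro 𝔫 h𝔫 hπ𝔫
      refine ⟨Sum.inl ⟨𝔫, h𝔫, hπ𝔫⟩, fun x hx => ?_, fun c hc => ats_cov (V c) 𝔫 hc⟩
      obtain ⟨b, s, hs, hsx⟩ := hx
      exact ⟨b, s, hs, hsx⟩
    · intro 𝔫 h𝔫 hπ𝔫
      refine ⟨Sum.inr ⟨𝔫, h𝔫, hπ𝔫⟩, fun x hx => ?_, fun c hc => ats_cov (V c) 𝔫 hc⟩
      obtain ⟨b, s, hs, hsx⟩ := hx
      exact ⟨b, s, hs, hsx⟩

end Main

end Fermat.Agent.S36


end ZBS36_004_0

/-! ### bundled: `Fermat.Agent.S36.ConnQ` -/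
section ZBS36_004_1
/-
S36 (Carayol at `q² ∥ M`), geometric clause, piece G-AT (helper84): **`hconn` is FREE**.

Chart setting of `S36/AbstractQ.lean` (`A₀` a DVR, charts `B_t`, `B_{t⁻¹}`, finitely many vertical
valuation rings `V c`, NON-reduced special fibre allowed), with (KR) and (RAM).  For every
partition of the components into two non-empty classes some closed point of one of the two charts
lies on a component of each class (`aq_exists_cross`): otherwise the classes give idempotents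
modulo `π` on both charts, compatible on the overlap, which contradicts Zariski connectedness
(`INJ.zariski_connected_charts`).  Hence the incidence graph of the components is connected:
`aq_hconn`, the hypothesis `hconn` of `aq_pow_of_shape`.
(For two components and a reduced fibre this is `UNIP.crossing_exists_maximal` of helper20.)
-/

set_option autoImplicit false
set_option linter.unusedSectionVars false
set_option linter.unusedVariables false
set_option linter.style.haveILetI false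

namespace Fermat.Agent.S36

open Polynomial IntermediateField Fermat.Agent.INJ Fermat.Agent.UNIP

section Conn

variable {A₀ E F : Type*} [CommRing A₀] [IsDomain A₀] [IsDiscreteValuationRing A₀]
  [Field E] [Algebra A₀ E] [IsFractionRing A₀ E] [CharZero E]
  [Field F] [Algebra E F] [Algebra A₀ F] [IsScalarTower A₀ E F]
  {π : A₀} {κ : Type*}

/-- **(RAD)** on a chart `S`: an integral element lying in every `𝔪(V c)` has its `Q`-th power in
`π · B_S`. -/
theorem aq_rad (S : Subalgebra A₀ F) (V : κ → ValuationSubring F)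
    (hKR : ∀ x : F, IsIntegral S (algebraMap A₀ F π * x) → (∀ c, x ∈ V c) → IsIntegral S x)
    {Q : ℕ}
    (hram : ∀ c (x : F), x ∈ (V c).nonunits → ∃ z ∈ V c, x ^ Q = algebraMap A₀ F π * z)
    (hπ0 : algebraMap A₀ F π ≠ 0)
    {x : F} (hx : IsIntegral S x) (hxV : ∀ c, x ∈ (V c).nonunits) :
    ∃ z : F, IsIntegral S z ∧ x ^ Q = algebraMap A₀ F π * z := by
  have e : x ^ Q = algebraMap A₀ F π * (x ^ Q / algebraMap A₀ F π) := by
    field_simp
  refine ⟨x ^ Q / algebraMap A₀ F π, hKR _ ?_ fun c => ?_, e⟩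
  · rw [← e]
    exact hx.pow Q
  · obtain ⟨z, hz, hxz⟩ := hram c x (hxV c)
    have : x ^ Q / algebraMap A₀ F π = z := by
      rw [hxz]
      field_simp
    rw [this]
    exact hz

/-- (KR) on the overlap chart `A₀[t, t⁻¹]` from (KR) on the chart `A₀[t]` -/
theorem aq_KR_overlap {t : F} (ht0 : t ≠ 0) (V : κ → ValuationSubring F)
    (hBV₁ : ∀ c (b : F), IsIntegral ↥(Algebra.adjoin A₀ {t}) b → b ∈ V c)
    (hKR : ∀ x : F, IsIntegral ↥(Algebra.adjoin A₀ {t}) (algebraMap A₀ F π * x) →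
      (∀ c, x ∈ V c) → IsIntegral ↥(Algebra.adjoin A₀ {t}) x) :
    ∀ x : F, IsIntegral ↥(Algebra.adjoin A₀ {t, t⁻¹}) (algebraMap A₀ F π * x) →
      (∀ c, x ∈ V c) → IsIntegral ↥(Algebra.adjoin A₀ {t, t⁻¹}) x := by
  intro x hx hxV
  have htt' : t * t⁻¹ = 1 := mul_inv_cancel₀ ht0
  have hsub₁ : Algebra.adjoin A₀ ({t} : Set F) ≤ Algebra.adjoin A₀ {t, t⁻¹} :=
    Algebra.adjoin_mono (by intro x hx; exact Or.inl hx)
  have htV : ∀ c, t ∈ V c := fun c =>
    hBV₁ c _ (isIntegral_algebraMap (R := ↥(Algebra.adjoin A₀ ({t} : Set F)))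
      (x := ⟨t, Algebra.subset_adjoin (Set.mem_singleton t)⟩))
  obtain ⟨s, hs⟩ := zch_exists_pow_mul_isIntegral (A₀ := A₀) htt' hx
  have h1 : IsIntegral ↥(Algebra.adjoin A₀ {t}) (t ^ s * x) := by
    refine hKR _ ?_ fun c => (V c).mul_mem _ _ ((V c).pow_mem (htV c) s) (hxV c)
    have e : algebraMap A₀ F π * (t ^ s * x) = t ^ s * (algebraMap A₀ F π * x) := by ring
    rw [e]
    exact hs
  have h2 : x = t⁻¹ ^ s * (t ^ s * x) := by
    rw [← mul_assoc, ← mul_pow, inv_mul_cancel₀ ht0, one_pow, one_mul]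
  rw [h2]
  refine IsIntegral.mul (IsIntegral.pow ?_ s) (zch_isIntegral_mono hsub₁ h1)
  exact isIntegral_algebraMap (R := Algebra.adjoin A₀ ({t, t⁻¹} : Set F))
    (x := ⟨t⁻¹, Algebra.subset_adjoin (Or.inr rfl)⟩)

/-- **The idempotent of a partition** on one chart `S`: if the two classes `P`, `¬ P` of
components are comaximal on the chart (`a + b = 1`, `a` vanishing on the class `P`, `b` on the
class `¬ P`), there is `e` vanishing on `P`, `≡ 1` on `¬ P`, idempotent modulo `π`. -/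
theorem aq_idem_of_comax (S : Subalgebra A₀ F) (V : κ → ValuationSubring F)
    (hBV : ∀ c (b : F), IsIntegral S b → b ∈ V c)
    (hKR : ∀ x : F, IsIntegral S (algebraMap A₀ F π * x) → (∀ c, x ∈ V c) → IsIntegral S x)
    {Q : ℕ}
    (hram : ∀ c (x : F), x ∈ (V c).nonunits → ∃ z ∈ V c, x ^ Q = algebraMap A₀ F π * z)
    (hπ0 : algebraMap A₀ F π ≠ 0) (P : κ → Prop)
    {a b : F} (ha : IsIntegral S a) (hb : IsIntegral S b)
    (haP : ∀ c, P c → a ∈ (V c).nonunits) (hbP : ∀ c, ¬ P c → b ∈ (V c).nonunits)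
    (hab : a + b = 1) :
    ∃ e : F, IsIntegral S e ∧ (∀ c, P c → e ∈ (V c).nonunits) ∧
      (∀ c, ¬ P c → 1 - e ∈ (V c).nonunits) ∧
      ∃ z : F, IsIntegral S z ∧ e * e - e = algebraMap A₀ F π * z := by
  classical
  -- coprimality in the integral closure
  let α : integralClosure S F := ⟨a, ha⟩
  let β : integralClosure S F := ⟨b, hb⟩
  have hcop : IsCoprime α β := ⟨1, 1, by
    apply Subtype.ext
    show (1 : F) * a + 1 * b = 1
    rw [one_mul, one_mul, hab]⟩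
  obtain ⟨x, y, hxy⟩ := (hcop.pow (m := Q + 1) (n := Q + 1))
  have hxyF : (x : F) * a ^ (Q + 1) + (y : F) * b ^ (Q + 1) = 1 := by
    have := congrArg (fun z : integralClosure S F => (z : F)) hxy
    simpa [α, β] using this
  have hxI : IsIntegral S (x : F) := x.2
  have hyI : IsIntegral S (y : F) := y.2
  -- `a b` lies in every `𝔪(V c)`
  have habV : ∀ c, a * b ∈ (V c).nonunits := by
    intro c
    by_cases hc : P c
    · rw [mul_comm]
      exact pwi_mul_mem_nonunits (V c) (hBV c b hb) (haP c hc)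
    · exact pwi_mul_mem_nonunits (V c) (hBV c a ha) (hbP c hc)
  obtain ⟨z, hz, hzab⟩ := aq_rad S V hKR hram hπ0 (ha.mul hb) habV
  refine ⟨(x : F) * a ^ (Q + 1), hxI.mul (ha.pow _), fun c hc => ?_, fun c hc => ?_,
    -((x : F) * (y : F) * (a * b) * z), ?_, ?_⟩
  · rw [pow_succ, ← mul_assoc]
    exact pwi_mul_mem_nonunits (V c)
      ((V c).mul_mem _ _ (hBV c _ hxI) ((V c).pow_mem (hBV c a ha) Q)) (haP c hc)
  · have e1 : 1 - (x : F) * a ^ (Q + 1) = (y : F) * b ^ (Q + 1) := by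
      rw [← hxyF]; ring
    rw [e1, pow_succ, ← mul_assoc]
    exact pwi_mul_mem_nonunits (V c)
      ((V c).mul_mem _ _ (hBV c _ hyI) ((V c).pow_mem (hBV c b hb) Q)) (hbP c hc)
  · exact ((((hxI.mul hyI).mul (ha.mul hb)).mul hz)).neg
  · have e1 : (y : F) * b ^ (Q + 1) = 1 - (x : F) * a ^ (Q + 1) := by
      rw [← hxyF]; ring
    have e2 : (x : F) * a ^ (Q + 1) * ((x : F) * a ^ (Q + 1)) - (x : F) * a ^ (Q + 1)
        = -((x : F) * a ^ (Q + 1) * (1 - (x : F) * a ^ (Q + 1))) := by ring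
    rw [e2, ← e1]
    have e3 : (x : F) * a ^ (Q + 1) * ((y : F) * b ^ (Q + 1))
        = (x : F) * (y : F) * (a * b) * (a * b) ^ Q := by ring
    rw [e3, hzab]
    ring

/-- **Two classes of components cannot be disjoint on both charts.** -/
theorem aq_not_comax (hπ : Irreducible π) {t : F} (ht : Transcendental E t)
    [FiniteDimensional E⟮t⟯ F]
    (hcl : ∀ x : F, IsAlgebraic E x → x ∈ (algebraMap E F).range)
    (V : κ → ValuationSubring F)
    (hBV₁ : ∀ c (b : F), IsIntegral ↥(Algebra.adjoin A₀ {t}) b → b ∈ V c)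
    (hBV₂ : ∀ c (b : F), IsIntegral ↥(Algebra.adjoin A₀ {t⁻¹}) b → b ∈ V c)
    (hπV : ∀ c, algebraMap A₀ F π ∈ (V c).nonunits)
    (hKR : ∀ x : F, IsIntegral ↥(Algebra.adjoin A₀ {t}) (algebraMap A₀ F π * x) →
      (∀ c, x ∈ V c) → IsIntegral ↥(Algebra.adjoin A₀ {t}) x)
    {Q : ℕ}
    (hram : ∀ c (x : F), x ∈ (V c).nonunits → ∃ z ∈ V c, x ^ Q = algebraMap A₀ F π * z)
    (P : κ → Prop) {c₁ c₂ : κ} (hc₁ : P c₁) (hc₂ : ¬ P c₂)
    {a₁ b₁ a₂ b₂ : F}
    (ha₁ : IsIntegral ↥(Algebra.adjoin A₀ {t}) a₁) (hb₁ : IsIntegral ↥(Algebra.adjoin A₀ {t}) b₁)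
    (ha₂ : IsIntegral ↥(Algebra.adjoin A₀ {t⁻¹}) a₂)
    (hb₂ : IsIntegral ↥(Algebra.adjoin A₀ {t⁻¹}) b₂)
    (ha₁P : ∀ c, P c → a₁ ∈ (V c).nonunits) (hb₁P : ∀ c, ¬ P c → b₁ ∈ (V c).nonunits)
    (ha₂P : ∀ c, P c → a₂ ∈ (V c).nonunits) (hb₂P : ∀ c, ¬ P c → b₂ ∈ (V c).nonunits)
    (h₁ : a₁ + b₁ = 1) (h₂ : a₂ + b₂ = 1) : False := by
  have hπ0 : algebraMap A₀ F π ≠ 0 := ei_algebraMap_ne_zero (E := E) hπ
  have ht0 : t ≠ 0 := by
    rintro rfl
    exact ht isAlgebraic_zero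
  have hKR' := aq_KR_inv hπ ht V hBV₁ hKR
  have hKR12 := aq_KR_overlap ht0 V hBV₁ hKR
  have hsub₁ : Algebra.adjoin A₀ ({t} : Set F) ≤ Algebra.adjoin A₀ {t, t⁻¹} :=
    Algebra.adjoin_mono (by intro x hx; exact Or.inl hx)
  have hsub₂ : Algebra.adjoin A₀ ({t⁻¹} : Set F) ≤ Algebra.adjoin A₀ {t, t⁻¹} :=
    Algebra.adjoin_mono (by intro x hx; exact Or.inr hx)
  obtain ⟨e₁, he₁, he₁P, he₁P', z₁, hz₁, hid₁⟩ :=
    aq_idem_of_comax _ V hBV₁ hKR hram hπ0 P ha₁ hb₁ ha₁P hb₁P h₁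
  obtain ⟨e₂, he₂, he₂P, he₂P', z₂, hz₂, hid₂⟩ :=
    aq_idem_of_comax _ V hBV₂ hKR' hram hπ0 P ha₂ hb₂ ha₂P hb₂P h₂
  -- the difference
  have he₁' := zch_isIntegral_mono hsub₁ he₁
  have he₂' := zch_isIntegral_mono hsub₂ he₂
  have hz₁' := zch_isIntegral_mono hsub₁ hz₁
  have hz₂' := zch_isIntegral_mono hsub₂ hz₂
  have hd : IsIntegral ↥(Algebra.adjoin A₀ {t, t⁻¹}) (e₁ - e₂) := he₁'.sub he₂'
  have hdV : ∀ c, e₁ - e₂ ∈ (V c).nonunits := by
    intro c
    by_cases hc : P c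
    · have := aq_add_mem_nonunits (V c) (he₁P c hc) ((V c).nonunits.neg_mem (he₂P c hc))
      rwa [← sub_eq_add_neg] at this
    · have e : e₁ - e₂ = (1 - e₂) + -(1 - e₁) := by ring
      rw [e]
      exact aq_add_mem_nonunits (V c) (he₂P' c hc) ((V c).nonunits.neg_mem (he₁P' c hc))
  obtain ⟨z₃, hz₃, hdz⟩ := aq_rad _ V hKR12 hram hπ0 hd hdV
  -- `d ^ 3 = d + π g`
  set d : F := e₁ - e₂ with hddef
  set g : F := z₁ * (1 + e₁ - (e₂ + e₂ + e₂)) + z₂ * ((e₁ + e₁ + e₁) - 1 - e₂) with hg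
  have hgI : IsIntegral ↥(Algebra.adjoin A₀ {t, t⁻¹}) g := by
    refine IsIntegral.add (hz₁'.mul ?_) (hz₂'.mul ?_)
    · exact (isIntegral_one.add he₁').sub ((he₂'.add he₂').add he₂')
    · exact (((he₁'.add he₁').add he₁').sub isIntegral_one).sub he₂'
  have hd3 : d ^ 3 = d + algebraMap A₀ F π * g := by
    have e : d ^ 3 = d + ((e₁ * e₁ - e₁) * (1 + e₁ - 3 * e₂)
        + (e₂ * e₂ - e₂) * (3 * e₁ - 1 - e₂)) := by
      rw [hddef]; ring
    rw [e, hid₁, hid₂, hg]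
    ring
  have hodd : ∀ j : ℕ, ∃ gj : F, IsIntegral ↥(Algebra.adjoin A₀ {t, t⁻¹}) gj ∧
      d ^ (1 + 2 * j) = d + algebraMap A₀ F π * gj := by
    intro j
    induction j with
    | zero => exact ⟨0, isIntegral_zero, by simp⟩
    | succ j ih =>
      obtain ⟨gj, hgj, hj⟩ := ih
      refine ⟨g + gj * d ^ 2, hgI.add (hgj.mul (hd.pow 2)), ?_⟩
      have e : d ^ (1 + 2 * (j + 1)) = d ^ (1 + 2 * j) * d ^ 2 := by
        rw [← pow_add]
        congr 1
      rw [e, hj]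
      have e2 : (d + algebraMap A₀ F π * gj) * d ^ 2 = d ^ 3 + algebraMap A₀ F π * (gj * d ^ 2) := by
        ring
      rw [e2, hd3]
      ring
  obtain ⟨gQ, hgQ, hQ⟩ := hodd Q
  have hcomp : ∃ c : F, IsIntegral ↥(Algebra.adjoin A₀ {t, t⁻¹}) c ∧
      e₁ - e₂ = algebraMap A₀ F π * c := by
    refine ⟨z₃ * d ^ (Q + 1) - gQ, (hz₃.mul (hd.pow _)).sub hgQ, ?_⟩
    have e : d ^ (1 + 2 * Q) = d ^ Q * d ^ (Q + 1) := by
      rw [← pow_add]
      congr 1
      omega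
    rw [e, hdz] at hQ
    show d = algebraMap A₀ F π * (z₃ * d ^ (Q + 1) - gQ)
    linear_combination (-1 : F) * hQ
  rcases zariski_connected_charts hπ ht hcl he₁ he₂ ⟨z₁, hz₁, hid₁⟩ ⟨z₂, hz₂, hid₂⟩ hcomp with
    ⟨y, hy, hy1⟩ | ⟨y, hy, hy1⟩
  · apply crossing_one_not_mem_nonunits (V c₂)
    have e : (1 : F) = algebraMap A₀ F π * y + (1 - e₁) := by rw [← hy1]; ring
    rw [e]
    refine aq_add_mem_nonunits (V c₂) ?_ (he₁P' c₂ hc₂)
    rw [mul_comm]
    exact pwi_mul_mem_nonunits (V c₂) (hBV₁ c₂ y hy) (hπV c₂)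
  · apply crossing_one_not_mem_nonunits (V c₁)
    have e : (1 : F) = e₁ + -(algebraMap A₀ F π * y) := by rw [← hy1]; ring
    rw [e]
    refine aq_add_mem_nonunits (V c₁) (he₁P c₁ hc₁) ((V c₁).nonunits.neg_mem ?_)
    rw [mul_comm]
    exact pwi_mul_mem_nonunits (V c₁) (hBV₁ c₁ y hy) (hπV c₁)

/-- the ideal of a class of components on a chart -/
def aqClassIdeal (u : F) (V : κ → ValuationSubring F)
    (hBV : ∀ c (b : F), IsIntegral ↥(Algebra.adjoin A₀ {u}) b → b ∈ V c) (P : κ → Prop) :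
    Ideal ↥(zchClosure (A₀ := A₀) ({u} : Set F)) where
  carrier := {x | ∀ c, P c → (x : F) ∈ (V c).nonunits}
  zero_mem' := fun c _ => aq_zero_mem_nonunits (V c)
  add_mem' := fun {x y} hx hy c hc => aq_add_mem_nonunits (V c) (hx c hc) (hy c hc)
  smul_mem' := fun a x hx c hc =>
    pwi_mul_mem_nonunits (V c) (hBV c _ (mem_zchClosure.mp a.2)) (hx c hc)

/-- a maximal ideal containing the ideal of a non-empty class lies on a component of the class -/
theorem aq_through_of_class_le [Finite κ] {u : F} (V : κ → ValuationSubring F)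
    (hBV : ∀ c (b : F), IsIntegral ↥(Algebra.adjoin A₀ {u}) b → b ∈ V c) (P : κ → Prop)
    (𝔫 : Ideal ↥(zchClosure (A₀ := A₀) ({u} : Set F))) [h𝔫 : 𝔫.IsPrime]
    (hle : aqClassIdeal u V hBV P ≤ 𝔫) :
    ∃ c, P c ∧ ∀ b : ↥(zchClosure (A₀ := A₀) ({u} : Set F)), (b : F) ∈ (V c).nonunits → b ∈ 𝔫 := by
  classical
  letI : Fintype κ := Fintype.ofFinite κ
  by_contra hcon
  have hcov : ∀ c, P c → ∃ b : ↥(zchClosure (A₀ := A₀) ({u} : Set F)),
      b ∉ 𝔫 ∧ (b : F) ∈ (V c).nonunits := by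
    intro c hc
    by_contra h
    apply hcon
    refine ⟨c, hc, fun b hb => ?_⟩
    by_contra hb'
    exact h ⟨b, hb', hb⟩
  choose! f hf using hcov
  set S : Finset κ := Finset.univ.filter (fun c => P c) with hS
  have hprod : (∏ c ∈ S, f c) ∈ aqClassIdeal u V hBV P := by
    intro c hc
    have hcS : c ∈ S := Finset.mem_filter.mpr ⟨Finset.mem_univ c, hc⟩
    rw [← Finset.mul_prod_erase S f hcS, mul_comm]
    show ((∏ c' ∈ S.erase c, f c' : ↥(zchClosure (A₀ := A₀) ({u} : Set F))) : F) * (f c : F)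
      ∈ (V c).nonunits
    exact pwi_mul_mem_nonunits (V c) (hBV c _ (mem_zchClosure.mp (∏ c' ∈ S.erase c, f c').2))
      (hf c hc).2
  obtain ⟨c, hc, hfc⟩ := (Ideal.IsPrime.prod_mem_iff).mp (hle hprod)
  exact (hf c (Finset.mem_filter.mp hc).2).1 hfc

/-- **Crossing.**  For a partition of the components into two non-empty classes, some closed
point of one of the two charts lies on a component of each class. -/
theorem aq_exists_cross (hπ : Irreducible π) {t : F} (ht : Transcendental E t)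
    [FiniteDimensional E⟮t⟯ F]
    (hcl : ∀ x : F, IsAlgebraic E x → x ∈ (algebraMap E F).range)
    [Finite κ] (V : κ → ValuationSubring F)
    (hBV₁ : ∀ c (b : F), IsIntegral ↥(Algebra.adjoin A₀ {t}) b → b ∈ V c)
    (hBV₂ : ∀ c (b : F), IsIntegral ↥(Algebra.adjoin A₀ {t⁻¹}) b → b ∈ V c)
    (hπV : ∀ c, algebraMap A₀ F π ∈ (V c).nonunits)
    (hKR : ∀ x : F, IsIntegral ↥(Algebra.adjoin A₀ {t}) (algebraMap A₀ F π * x) →
      (∀ c, x ∈ V c) → IsIntegral ↥(Algebra.adjoin A₀ {t}) x)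
    {Q : ℕ}
    (hram : ∀ c (x : F), x ∈ (V c).nonunits → ∃ z ∈ V c, x ^ Q = algebraMap A₀ F π * z)
    (P : κ → Prop) {c₁ c₂ : κ} (hc₁ : P c₁) (hc₂ : ¬ P c₂) :
    ∃ (i : AtPt (F := F) π t ⊕ AtPt (F := F) π t⁻¹) (c c' : κ),
      P c ∧ ¬ P c' ∧ atInc π t V i c ∧ atInc π t V i c' := by
  classical
  have key : ∀ (u : F) (hBV : ∀ c (b : F), IsIntegral ↥(Algebra.adjoin A₀ {u}) b → b ∈ V c),
      aqClassIdeal u V hBV P ⊔ aqClassIdeal u V hBV (fun c => ¬ P c) ≠ ⊤ →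
      ∃ (𝔫 : AtPt (F := F) π u) (c c' : κ), P c ∧ ¬ P c' ∧ atThrough 𝔫 (V c) ∧
        atThrough 𝔫 (V c') := by
    intro u hBV hne
    obtain ⟨𝔫, h𝔫, hle⟩ := Ideal.exists_le_maximal _ hne
    haveI := h𝔫.isPrime
    obtain ⟨c, hc, hthr⟩ := aq_through_of_class_le V hBV P 𝔫 (le_trans le_sup_left hle)
    obtain ⟨c', hc', hthr'⟩ := aq_through_of_class_le V hBV (fun c => ¬ P c) 𝔫
      (le_trans le_sup_right hle)
    exact ⟨⟨𝔫, h𝔫, hthr _ (hπV c)⟩, c, c', hc, hc', hthr, hthr'⟩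
  by_cases h1 : aqClassIdeal t V hBV₁ P ⊔ aqClassIdeal t V hBV₁ (fun c => ¬ P c) = ⊤
  · by_cases h2 : aqClassIdeal t⁻¹ V hBV₂ P ⊔ aqClassIdeal t⁻¹ V hBV₂ (fun c => ¬ P c) = ⊤
    · exfalso
      have m1 : (1 : ↥(zchClosure (A₀ := A₀) ({t} : Set F))) ∈
          aqClassIdeal t V hBV₁ P ⊔ aqClassIdeal t V hBV₁ (fun c => ¬ P c) := by
        rw [h1]; exact Submodule.mem_top
      have m2 : (1 : ↥(zchClosure (A₀ := A₀) ({t⁻¹} : Set F))) ∈
          aqClassIdeal t⁻¹ V hBV₂ P ⊔ aqClassIdeal t⁻¹ V hBV₂ (fun c => ¬ P c) := by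
        rw [h2]; exact Submodule.mem_top
      obtain ⟨a₁, ha₁, b₁, hb₁, hab₁⟩ := Submodule.mem_sup.mp m1
      obtain ⟨a₂, ha₂, b₂, hb₂, hab₂⟩ := Submodule.mem_sup.mp m2
      exact aq_not_comax hπ ht hcl V hBV₁ hBV₂ hπV hKR hram P hc₁ hc₂
        (mem_zchClosure.mp a₁.2) (mem_zchClosure.mp b₁.2) (mem_zchClosure.mp a₂.2)
        (mem_zchClosure.mp b₂.2) ha₁ hb₁ ha₂ hb₂
        (congrArg Subtype.val hab₁) (congrArg Subtype.val hab₂)
    · obtain ⟨𝔫, c, c', hc, hc', h, h'⟩ := key t⁻¹ hBV₂ h2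
      exact ⟨Sum.inr 𝔫, c, c', hc, hc', h, h'⟩
  · obtain ⟨𝔫, c, c', hc, hc', h, h'⟩ := key t hBV₁ h1
    exact ⟨Sum.inl 𝔫, c, c', hc, hc', h, h'⟩

/-- **`hconn` is free**: with (KR) and (RAM) the incidence graph of the components of the special
fibre is connected. -/
theorem aq_hconn (hπ : Irreducible π) {t : F} (ht : Transcendental E t)
    [FiniteDimensional E⟮t⟯ F]
    (hcl : ∀ x : F, IsAlgebraic E x → x ∈ (algebraMap E F).range)
    [Finite κ] (V : κ → ValuationSubring F)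
    (hBV₁ : ∀ c (b : F), IsIntegral ↥(Algebra.adjoin A₀ {t}) b → b ∈ V c)
    (hBV₂ : ∀ c (b : F), IsIntegral ↥(Algebra.adjoin A₀ {t⁻¹}) b → b ∈ V c)
    (hπV : ∀ c, algebraMap A₀ F π ∈ (V c).nonunits)
    (hKR : ∀ x : F, IsIntegral ↥(Algebra.adjoin A₀ {t}) (algebraMap A₀ F π * x) →
      (∀ c, x ∈ V c) → IsIntegral ↥(Algebra.adjoin A₀ {t}) x)
    {Q : ℕ}
    (hram : ∀ c (x : F), x ∈ (V c).nonunits → ∃ z ∈ V c, x ^ Q = algebraMap A₀ F π * z) :
    ∀ c c' : κ, Relation.ReflTransGen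
      (fun a b => ∃ i, atInc π t V i a ∧ atInc π t V i b) c c' := by
  intro c c'
  by_contra hcon
  obtain ⟨i, a, b, ha, hb, hia, hib⟩ := aq_exists_cross hπ ht hcl V hBV₁ hBV₂ hπV hKR hram
    (fun x => Relation.ReflTransGen (fun a b => ∃ i, atInc π t V i a ∧ atInc π t V i b) c x)
    (c₁ := c) (c₂ := c') Relation.ReflTransGen.refl hcon
  exact hb (Relation.ReflTransGen.tail ha ⟨i, hia, hib⟩)

end Conn

end Fermat.Agent.S36


end ZBS36_004_1

/-! ### bundled: `Fermat.Agent.S36.AbstractQ2` -/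
section ZBS36_004_2
/-
S36 (Carayol at `q² ∥ M`), geometric clause, piece G-AT2 (helper84): the LOCAL SHAPE at a closed
point of the special fibre from a factorisation `w = ε₀ · g₀ ^ m` (UFD), `w ≡ 1` on the components
through the point, branch units and TRIVIAL GLUING.

* `aq_lift_roots` (pure algebra, "conductor induction"): `O` local, `m` a unit of `O`, ideals
  `I c ⊆ 𝔪` (the branches), `a c ∈ O` with `a c ^ m ≡ e` modulo `I c` (`e` a unit), the `a c`
  pairwise congruent modulo `𝔪` (trivial gluing), and a conductor exponent `K` (every family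
  `x c ∈ 𝔪 ^ K` comes from one element modulo the `I c`).  Then there is ONE `η ∈ O` with
  `η ≡ a c` modulo `I c` for all `c`.   (No additive obstruction at a triple point: `m` is a unit.)
* `aq_cond_of_generators` : the conductor hypothesis from elements `e c` vanishing on the other
  branches with `𝔪 ^ K ⊆ (e c) + I c`.
* `aq_shape_point` : the datum `(ε, γ)` of `PwiShape` at the point.
-/

set_option autoImplicit false
set_option linter.unusedSectionVars false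
set_option linter.unusedVariables false
set_option linter.style.haveILetI false

namespace Fermat.Agent.S36

open Polynomial IntermediateField Fermat.Agent.INJ Fermat.Agent.UNIP Fermat.Agent.STB

section Lift

variable {O : Type*} [CommRing O] [IsLocalRing O] {κ : Type*}

/-- a unit modulo the maximal ideal is a unit -/
theorem aq_isUnit_of_sub_mem {x y : O} (hy : IsUnit y)
    (h : x - y ∈ IsLocalRing.maximalIdeal O) : IsUnit x := by
  by_contra hx
  have hxm : x ∈ IsLocalRing.maximalIdeal O := (IsLocalRing.mem_maximalIdeal x).mpr hx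
  have : y ∈ IsLocalRing.maximalIdeal O := by
    have := (IsLocalRing.maximalIdeal O).sub_mem hxm h
    simpa using this
  exact (IsLocalRing.mem_maximalIdeal y).mp this hy

/-- **Conductor induction.**  See the header. -/
theorem aq_lift_roots (I : κ → Ideal O) (hI : ∀ c, I c ≤ IsLocalRing.maximalIdeal O)
    {m : ℕ} (hm : IsUnit (m : O)) {e : O} (he : IsUnit e) (a : κ → O)
    (ha : ∀ c, a c ^ m - e ∈ I c)
    (hglue : ∀ c c', a c - a c' ∈ IsLocalRing.maximalIdeal O)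
    (K : ℕ)
    (hcond : ∀ x : κ → O, (∀ c, x c ∈ IsLocalRing.maximalIdeal O ^ K) →
      ∃ y : O, ∀ c, y - x c ∈ I c) :
    ∃ η : O, ∀ c, η - a c ∈ I c := by
  classical
  rcases isEmpty_or_nonempty κ with hκ | ⟨⟨c₁⟩⟩
  · exact ⟨0, fun c => (hκ.false c).elim⟩
  set 𝔪 := IsLocalRing.maximalIdeal O with h𝔪
  have hm0 : m ≠ 0 := by
    rintro rfl
    rw [Nat.cast_zero] at hm
    exact not_isUnit_zero hm
  -- the `a c` are units
  have hau : ∀ c, IsUnit (a c) := by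
    intro c
    have h1 : IsUnit (a c ^ m) := aq_isUnit_of_sub_mem he (hI c (ha c))
    exact (isUnit_pow_iff hm0).mp h1
  -- the induction
  have key : ∀ k : ℕ, 1 ≤ k → ∃ η : O, ∀ c, η - a c ∈ I c ⊔ 𝔪 ^ k := by
    intro k hk
    induction k, hk using Nat.le_induction with
    | base =>
      refine ⟨a c₁, fun c => ?_⟩
      rw [pow_one]
      exact Ideal.mem_sup_right (hglue c₁ c)
    | succ k hk ih =>
      obtain ⟨η, hη⟩ := ih
      have hle : ∀ c, I c ⊔ 𝔪 ^ k ≤ 𝔪 := fun c =>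
        sup_le (hI c) (Ideal.pow_le_self (by omega))
      have hηu : IsUnit η := aq_isUnit_of_sub_mem (hau c₁) (hle c₁ (hη c₁))
      have hden : IsUnit ((m : O) * η ^ (m - 1)) := hm.mul (hηu.pow _)
      obtain ⟨v, hv⟩ := hden
      set z : O := (e - η ^ m) * (v⁻¹ : Oˣ) with hz
      have hzv : z * ((m : O) * η ^ (m - 1)) = e - η ^ m := by
        rw [hz, ← hv, mul_assoc, Units.inv_mul, mul_one]
      refine ⟨η + z, fun c => ?_⟩
      set d : O := a c - η with hd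
      have hdm : d ∈ I c ⊔ 𝔪 ^ k := by
        have := (I c ⊔ 𝔪 ^ k).neg_mem (hη c)
        rwa [neg_sub] at this
      -- binomial expansion
      obtain ⟨r, hr⟩ := Polynomial.powAddExpansion η d m
      have hac : a c = η + d := by rw [hd]; ring
      -- `d ^ 2 ∈ I c ⊔ 𝔪 ^ (k + 1)`
      have hd2 : d ^ 2 ∈ I c ⊔ 𝔪 ^ (k + 1) := by
        obtain ⟨i, hi, y, hy, hiy⟩ := Submodule.mem_sup.mp hdm
        have e1 : d ^ 2 = i * (i + 2 * y) + y * y := by rw [← hiy]; ring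
        rw [e1]
        refine Ideal.add_mem _ (Ideal.mem_sup_left (Ideal.mul_mem_right _ _ hi))
          (Ideal.mem_sup_right ?_)
        have h2 : y * y ∈ 𝔪 ^ (k + k) := by
          rw [pow_add]; exact Ideal.mul_mem_mul hy hy
        exact Ideal.pow_le_pow_right (by omega) h2
      -- `(m η^(m-1)) (z − d) ∈ I c ⊔ 𝔪^(k+1)`
      have h1 : ((m : O) * η ^ (m - 1)) * (z - d) ∈ I c ⊔ 𝔪 ^ (k + 1) := by
        have e2 : ((m : O) * η ^ (m - 1)) * (z - d) = -(a c ^ m - e) + r * d ^ 2 := by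
          rw [hac, hr, mul_sub, mul_comm _ z, hzv]
          ring
        rw [e2]
        exact Ideal.add_mem _ (Ideal.mem_sup_left ((I c).neg_mem (ha c)))
          (Ideal.mul_mem_left _ _ hd2)
      have h2 : z - d ∈ I c ⊔ 𝔪 ^ (k + 1) := by
        have := Ideal.mul_mem_left (I c ⊔ 𝔪 ^ (k + 1)) ((v⁻¹ : Oˣ) : O) h1
        rwa [← hv, ← mul_assoc, Units.inv_mul, one_mul] at this
      have e3 : η + z - a c = z - d := by rw [hd]; ring
      rw [e3]
      exact h2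
  -- the conductor
  obtain ⟨η, hη⟩ := key (K + 1) (by omega)
  have hdec : ∀ c, ∃ x ∈ 𝔪 ^ K, η - a c - x ∈ I c := by
    intro c
    obtain ⟨i, hi, y, hy, hiy⟩ := Submodule.mem_sup.mp (hη c)
    refine ⟨y, Ideal.pow_le_pow_right (Nat.le_succ K) hy, ?_⟩
    have : η - a c - y = i := by rw [← hiy]; ring
    rw [this]
    exact hi
  choose x hx hxI using hdec
  obtain ⟨y, hy⟩ := hcond x hx
  refine ⟨η - y, fun c => ?_⟩
  have e4 : η - y - a c = (η - a c - x c) - (y - x c) := by ring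
  rw [e4]
  exact (I c).sub_mem (hxI c) (hy c)

/-- **The conductor hypothesis from generators.**  `ec c` vanishes on the other branches and
`𝔪 ^ K ⊆ (ec c) + I c`. -/
theorem aq_cond_of_generators [Finite κ] (I : κ → Ideal O) (ec : κ → O)
    (h1 : ∀ c c', c' ≠ c → ec c' ∈ I c) (K : ℕ)
    (h2 : ∀ c, ∀ x ∈ IsLocalRing.maximalIdeal O ^ K, ∃ b : O, x - b * ec c ∈ I c) :
    ∀ x : κ → O, (∀ c, x c ∈ IsLocalRing.maximalIdeal O ^ K) →
      ∃ y : O, ∀ c, y - x c ∈ I c := by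
  classical
  haveI : Fintype κ := Fintype.ofFinite κ
  intro x hx
  choose b hb using fun c => h2 c (x c) (hx c)
  refine ⟨∑ c, b c * ec c, fun c => ?_⟩
  rw [← Finset.add_sum_erase Finset.univ _ (Finset.mem_univ c)]
  have e : b c * ec c + ∑ c' ∈ Finset.univ.erase c, b c' * ec c' - x c
      = -(x c - b c * ec c) + ∑ c' ∈ Finset.univ.erase c, b c' * ec c' := by ring
  rw [e]
  refine (I c).add_mem ((I c).neg_mem (hb c)) (Ideal.sum_mem _ fun c' hc' => ?_)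
  exact Ideal.mul_mem_left _ _ (h1 c c' (Finset.ne_of_mem_erase hc'))

end Lift

section Shape

variable {F : Type*} [Field F] {κ : Type*}

/-- the trace on `O` of the maximal ideal of a valuation ring `W ⊇ O` -/
def aqTrace (O : Subring F) (W : ValuationSubring F) (hOW : ∀ x : F, x ∈ O → x ∈ W) :
    Ideal O where
  carrier := {x | (x : F) ∈ W.nonunits}
  add_mem' := fun {a b} ha hb => by
    show ((a + b : O) : F) ∈ W.nonunits
    push_cast
    exact aq_add_mem_nonunits W ha hb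
  zero_mem' := aq_zero_mem_nonunits W
  smul_mem' := fun a x hx => by
    show ((a • x : O) : F) ∈ W.nonunits
    rw [smul_eq_mul]
    push_cast
    exact pwi_mul_mem_nonunits W (hOW _ a.2) hx

theorem aq_mem_trace (O : Subring F) (W : ValuationSubring F) (hOW : ∀ x : F, x ∈ O → x ∈ W)
    (x : O) : x ∈ aqTrace O W hOW ↔ (x : F) ∈ W.nonunits := Iff.rfl

theorem aq_trace_le (O : Subring F) [IsLocalRing O] (W : ValuationSubring F)
    (hOW : ∀ x : F, x ∈ O → x ∈ W) : aqTrace O W hOW ≤ IsLocalRing.maximalIdeal O := by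
  intro x hx
  rw [IsLocalRing.mem_maximalIdeal]
  intro hu
  obtain ⟨y, hy⟩ := hu.exists_right_inv
  have h1 : (x : F) * (y : F) = 1 := by
    have := congrArg (fun z : O => (z : F)) hy
    simpa using this
  have h2 : (1 : F) ∈ W.nonunits := by
    rw [← h1, mul_comm]
    exact pwi_mul_mem_nonunits W (hOW _ y.2) hx
  exact crossing_one_not_mem_nonunits W h2

/-- **G-AT2: the local shape at a closed point.**  `O ⊆ F` a local ring (the local ring of the
point), `W c ⊇ O` the valuation rings of the components through the point, `m` invertible in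
`O`.  If `w = ε₀ · g₀ ^ m` with `ε₀ ∈ O^×`, `w ≡ 1` at every `W c`, the branch units `a c ∈ O`
(`a c · g₀ ≡ 1` at `W c`) are pairwise congruent modulo `𝔪_O` (TRIVIAL GLUING) and the conductor
hypothesis holds, then `w = ε · γ ^ m` with `ε ∈ O`, `ε ≡ 1` and `γ ≡ 1` at every `W c`. -/
theorem aq_shape_point (O : Subring F) [IsLocalRing O] (W : κ → ValuationSubring F)
    (hOW : ∀ c (x : F), x ∈ O → x ∈ W c)
    {m : ℕ} (hm : IsUnit ((m : ℕ) : O))
    {w ε₀ g₀ : F} (hε₀ : ε₀ ∈ O) (hε₀' : ε₀⁻¹ ∈ O) (hε₀0 : ε₀ ≠ 0) (hw : w = ε₀ * g₀ ^ m)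
    (hw1 : ∀ c, w - 1 ∈ (W c).nonunits)
    (a : κ → O) (ha : ∀ c, (a c : F) * g₀ - 1 ∈ (W c).nonunits)
    (hglue : ∀ c c', a c - a c' ∈ IsLocalRing.maximalIdeal O)
    (K : ℕ)
    (hcond : ∀ x : κ → O, (∀ c, x c ∈ IsLocalRing.maximalIdeal O ^ K) →
      ∃ y : O, ∀ c, ((y - x c : O) : F) ∈ (W c).nonunits) :
    ∃ ε γ : F, ε ∈ O ∧ (∀ c, ε - 1 ∈ (W c).nonunits) ∧ (∀ c, γ - 1 ∈ (W c).nonunits) ∧
      w = ε * γ ^ m := by
  classical
  rcases isEmpty_or_nonempty κ with hκ | ⟨⟨c₁⟩⟩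
  · exact ⟨ε₀, g₀, hε₀, fun c => (hκ.false c).elim, fun c => (hκ.false c).elim, hw⟩
  set I : κ → Ideal O := fun c => aqTrace O (W c) (hOW c) with hI
  have hIle : ∀ c, I c ≤ IsLocalRing.maximalIdeal O := fun c => aq_trace_le O (W c) (hOW c)
  set e : O := ⟨ε₀, hε₀⟩ with he
  have heu : IsUnit e := by
    refine IsUnit.of_mul_eq_one (⟨ε₀⁻¹, hε₀'⟩ : O) ?_
    apply Subtype.ext
    show ε₀ * ε₀⁻¹ = 1
    exact mul_inv_cancel₀ hε₀0
  have hm0 : m ≠ 0 := by
    rintro rfl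
    rw [Nat.cast_zero] at hm
    exact not_isUnit_zero hm
  -- `g₀` is a unit of every `W c`
  have hag : ∀ c, (W c).valuation ((a c : F) * g₀) = 1 := fun c => pwi_val_eq_one (W c) (ha c)
  have hg0 : g₀ ≠ 0 := by
    rintro rfl
    have := hag c₁
    rw [mul_zero, map_zero] at this
    exact zero_ne_one this
  -- `a c ^ m ≡ ε₀`
  have haI : ∀ c, a c ^ m - e ∈ I c := by
    intro c
    show ((a c ^ m - e : O) : F) ∈ (W c).nonunits
    push_cast
    have h1 : ((a c : F) * g₀) ^ m - 1 ∈ (W c).nonunits := pwi_congr_pow (W c) (ha c) m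
    have hgm : g₀ ^ m = w / ε₀ := by rw [hw]; field_simp
    have h2 : (a c : F) ^ m * ε₀⁻¹ ∈ W c :=
      (W c).mul_mem _ _ ((W c).pow_mem (hOW c _ (a c).2) m) (hOW c _ hε₀')
    have e1 : (a c : F) ^ m - ε₀ = ε₀ * ((((a c : F) * g₀) ^ m - 1)
        - ((a c : F) ^ m * ε₀⁻¹) * (w - 1)) := by
      rw [mul_pow, hgm]
      field_simp
      ring
    rw [he, e1]
    refine pwi_mul_mem_nonunits (W c) (hOW c _ hε₀) ?_
    have h3 : -(((a c : F) ^ m * ε₀⁻¹) * (w - 1)) ∈ (W c).nonunits := by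
      rw [← neg_mul]
      exact pwi_mul_mem_nonunits (W c) ((W c).neg_mem _ h2) (hw1 c)
    have := aq_add_mem_nonunits (W c) h1 h3
    rwa [← sub_eq_add_neg] at this
  obtain ⟨η, hη⟩ := aq_lift_roots I hIle hm heu a haI hglue K (fun x hx => hcond x hx)
  -- `η` is a unit
  have hau : IsUnit (a c₁) := by
    have h1 : IsUnit (a c₁ ^ m) := aq_isUnit_of_sub_mem heu (hIle c₁ (haI c₁))
    exact (isUnit_pow_iff hm0).mp h1
  have hηu : IsUnit η := aq_isUnit_of_sub_mem hau (hIle c₁ (hη c₁))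
  obtain ⟨η', hη'⟩ := hηu.exists_right_inv
  have hηη' : (η : F) * (η' : F) = 1 := by
    have := congrArg (fun z : O => (z : F)) hη'
    simpa using this
  have hη0 : (η : F) ≠ 0 := left_ne_zero_of_mul_eq_one hηη'
  have hη'eq : (η' : F) = (η : F)⁻¹ := eq_inv_of_mul_eq_one_right hηη'
  -- the datum
  have hγ : ∀ c, (η : F) * g₀ - 1 ∈ (W c).nonunits := by
    intro c
    have hgW : g₀ ∈ W c := by
      rw [← (W c).valuation_le_one_iff]
      have hac : (W c).valuation (a c : F) = 1 := by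
        have hacu : IsUnit (a c) := by
          have h1 : IsUnit (a c ^ m) := aq_isUnit_of_sub_mem heu (hIle c (haI c))
          exact (isUnit_pow_iff hm0).mp h1
        obtain ⟨b, hb⟩ := hacu.exists_right_inv
        have hab : (a c : F) * (b : F) = 1 := by
          have := congrArg (fun z : O => (z : F)) hb
          simpa using this
        have h1 : (W c).valuation (a c : F) ≤ 1 :=
          (W c).valuation_le_one_iff _ |>.mpr (hOW c _ (a c).2)
        have h2 : (W c).valuation (b : F) ≤ 1 :=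
          (W c).valuation_le_one_iff _ |>.mpr (hOW c _ b.2)
        have h3 : (W c).valuation (a c : F) * (W c).valuation (b : F) = 1 := by
          rw [← map_mul, hab, map_one]
        refine le_antisymm h1 ?_
        calc (1 : (W c).ValueGroup) = (W c).valuation (a c : F) * (W c).valuation (b : F) :=
              h3.symm
          _ ≤ (W c).valuation (a c : F) * 1 := mul_le_mul_right h2 _
          _ = (W c).valuation (a c : F) := mul_one _
      have := hag c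
      rw [map_mul, hac, one_mul] at this
      exact this.le
    have e2 : (η : F) * g₀ - 1 = ((η - a c : O) : F) * g₀ + ((a c : F) * g₀ - 1) := by
      push_cast; ring
    rw [e2]
    refine aq_add_mem_nonunits (W c) ?_ (ha c)
    rw [mul_comm]
    exact pwi_mul_mem_nonunits (W c) hgW (hη c)
  refine ⟨ε₀ * (η' : F) ^ m, (η : F) * g₀, ?_, ?_, hγ, ?_⟩
  · exact O.mul_mem hε₀ (O.pow_mem η'.2 m)
  · intro c
    have hγm : ((η : F) * g₀) ^ m - 1 ∈ (W c).nonunits := pwi_congr_pow (W c) (hγ c) m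
    have hγinv : (((η : F) * g₀) ^ m)⁻¹ ∈ W c := aq_inv_mem (W c) hγm
    have e3 : ε₀ * (η' : F) ^ m - 1
        = (((η : F) * g₀) ^ m)⁻¹ * ((w - 1) + -(((η : F) * g₀) ^ m - 1)) := by
      rw [hη'eq, inv_pow, hw, mul_pow]
      field_simp
      ring
    rw [e3]
    refine pwi_mul_mem_nonunits (W c) hγinv (aq_add_mem_nonunits (W c) (hw1 c) ?_)
    have := pwi_mul_mem_nonunits (W c) ((W c).neg_mem _ (W c).one_mem) hγm
    simpa using this
  · rw [hw, hη'eq, inv_pow, mul_pow]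
    field_simp

end Shape

section Transversal

variable {O : Type*} [CommRing O] [IsLocalRing O] {κ : Type*}

/-- `(A ⊔ C) * (B ⊔ C) ≤ A * B ⊔ C` -/
theorem aq_sup_mul_sup_le (A B C : Ideal O) : (A ⊔ C) * (B ⊔ C) ≤ A * B ⊔ C := by
  rw [Ideal.mul_le]
  intro x hx y hy
  obtain ⟨a, ha, c, hc, rfl⟩ := Submodule.mem_sup.mp hx
  obtain ⟨b, hb, c', hc', rfl⟩ := Submodule.mem_sup.mp hy
  have e : (a + c) * (b + c') = a * b + (a * c' + c * (b + c')) := by ring
  rw [e]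
  exact Submodule.add_mem_sup (Ideal.mul_mem_mul ha hb)
    (C.add_mem (C.mul_mem_left _ hc') (C.mul_mem_right _ hc))

/-- pairwise transversal branches: `𝔪 ^ |S| ⊆ (∏_{c' ∈ S} I c') + I c` -/
theorem aq_pow_le_prod_sup (I : κ → Ideal O) (c : κ) (S : Finset κ)
    (htr : ∀ c' ∈ S, IsLocalRing.maximalIdeal O ≤ I c' ⊔ I c) :
    IsLocalRing.maximalIdeal O ^ S.card ≤ (∏ c' ∈ S, I c') ⊔ I c := by
  classical
  induction S using Finset.induction_on with
  | empty =>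
    rw [Finset.card_empty, pow_zero, Finset.prod_empty]
    exact le_sup_left
  | insert a S ha ih =>
    rw [Finset.card_insert_of_notMem ha, pow_succ', Finset.prod_insert ha]
    refine le_trans (Ideal.mul_mono (htr a (Finset.mem_insert_self a S))
      (ih fun c' hc' => htr c' (Finset.mem_insert_of_mem hc'))) ?_
    exact aq_sup_mul_sup_le _ _ _

/-- **The conductor hypothesis from pairwise transversality** (`I c + I c' ⊇ 𝔪` for `c ≠ c'`):
every family in `𝔪 ^ |κ|` comes from one element (three concurrent pairwise transversal branches: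
`𝔪 ^ 2` suffices). -/
theorem aq_cond_of_transversal [Finite κ] (I : κ → Ideal O)
    (htr : ∀ c c', c ≠ c' → IsLocalRing.maximalIdeal O ≤ I c ⊔ I c') :
    ∀ x : κ → O, (∀ c, x c ∈ IsLocalRing.maximalIdeal O ^ Nat.card κ) →
      ∃ y : O, ∀ c, y - x c ∈ I c := by
  classical
  letI : Fintype κ := Fintype.ofFinite κ
  intro x hx
  have hdec : ∀ c, ∃ e : O, (∀ c', c' ≠ c → e ∈ I c') ∧ x c - e ∈ I c := by
    intro c
    have h1 : IsLocalRing.maximalIdeal O ^ Nat.card κ ≤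
        IsLocalRing.maximalIdeal O ^ ((Finset.univ : Finset κ).erase c).card := by
      refine Ideal.pow_le_pow_right ?_
      rw [Nat.card_eq_fintype_card, ← Finset.card_univ]
      exact Finset.card_le_card (Finset.erase_subset _ _)
    have h2 := aq_pow_le_prod_sup I c ((Finset.univ : Finset κ).erase c)
      (fun c' hc' => htr c' c (Finset.ne_of_mem_erase hc'))
    obtain ⟨e, he, i, hi, hei⟩ := Submodule.mem_sup.mp (h2 (h1 (hx c)))
    refine ⟨e, fun c' hc' => ?_, ?_⟩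
    · have h3 : (∏ c'' ∈ (Finset.univ : Finset κ).erase c, I c'') ≤ I c' :=
        le_trans Ideal.prod_le_inf
          (Finset.inf_le (Finset.mem_erase.mpr ⟨hc', Finset.mem_univ _⟩))
      exact h3 he
    · have : x c - e = i := by rw [← hei]; ring
      rw [this]
      exact hi
  choose e he1 he2 using hdec
  refine ⟨∑ c, e c, fun c => ?_⟩
  rw [← Finset.add_sum_erase Finset.univ _ (Finset.mem_univ c)]
  have e' : e c + ∑ c' ∈ Finset.univ.erase c, e c' - x c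
      = -(x c - e c) + ∑ c' ∈ Finset.univ.erase c, e c' := by ring
  rw [e']
  refine (I c).add_mem ((I c).neg_mem (he2 c)) (Ideal.sum_mem _ fun c' hc' => ?_)
  exact he1 c' c (Ne.symm (Finset.ne_of_mem_erase hc'))

end Transversal

section PointData

variable {F : Type*} [Field F] {κ : Type*}

/-- **The data at a closed point** `O` of the special fibre for a toric `Y` (`Y ≡ (T c) ^ m` at
`V c`), `thr c` = "the component `c` passes through the point":
* a local factorisation `Y = ε γ ^ m`, `ε ∈ O^×` (UFD);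
* branch elements `b c ∈ O`, `b c ≡ T c / γ` at `V c` (normal branches);
* TRIVIAL GLUING: the `b c` are pairwise congruent modulo `𝔪_O`;
* a conductor exponent `K`: every family in `𝔪_O ^ K` is the family of branch values of one
  element of `O`. -/
def AqPointData (O : Subring F) [IsLocalRing O] (thr : κ → Prop) (V : κ → ValuationSubring F)
    (m : ℕ) (Y : F) (T : κ → F) : Prop :=
  ∃ (γ : F) (ε : O), IsUnit ε ∧ Y = (ε : F) * γ ^ m ∧
    ∃ b : κ → O, (∀ c, thr c → (b c : F) * γ / T c - 1 ∈ (V c).nonunits) ∧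
      (∀ c c', thr c → thr c' → b c - b c' ∈ IsLocalRing.maximalIdeal O) ∧
      ∃ K : ℕ, ∀ x : κ → O, (∀ c, thr c → x c ∈ IsLocalRing.maximalIdeal O ^ K) →
        ∃ y : O, ∀ c, thr c → ((y - x c : O) : F) ∈ (V c).nonunits

/-- the conductor clause of `AqPointData` from pairwise transversality of the branches through
the point -/
theorem aq_cond_thr_of_transversal [Finite κ] (O : Subring F) [IsLocalRing O] (thr : κ → Prop)
    (V : κ → ValuationSubring F) (hOV : ∀ c, thr c → ∀ x ∈ O, x ∈ V c)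
    (htr : ∀ c c', thr c → thr c' → c ≠ c' → ∀ x : O, x ∈ IsLocalRing.maximalIdeal O →
      ∃ a b : O, (a : F) ∈ (V c).nonunits ∧ (b : F) ∈ (V c').nonunits ∧ x = a + b) :
    ∃ K : ℕ, ∀ x : κ → O, (∀ c, thr c → x c ∈ IsLocalRing.maximalIdeal O ^ K) →
        ∃ y : O, ∀ c, thr c → ((y - x c : O) : F) ∈ (V c).nonunits := by
  classical
  refine ⟨Nat.card {c // thr c}, fun x hx => ?_⟩
  have h := aq_cond_of_transversal (κ := {c // thr c})
    (fun c => aqTrace O (V c.1) (fun x hx => hOV c.1 c.2 x hx))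
    (fun c c' hcc' x hx => by
      obtain ⟨a, b, ha, hb, hab⟩ := htr c.1 c'.1 c.2 c'.2 (fun h => hcc' (Subtype.ext h)) x hx
      rw [hab]
      exact Submodule.add_mem_sup ha hb)
    (fun c => x c.1) (fun c => hx c.1 c.2)
  obtain ⟨y, hy⟩ := h
  exact ⟨y, fun c hc => hy ⟨c, hc⟩⟩

/-- **The shape at a point from the point data.**  `H ≡ T c` at the `V c` through the point
(weak approximation): `Y / H ^ m = ε γ ^ m` with `ε ∈ O`, `ε ≡ 1`, `γ ≡ 1` at these `V c`. -/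
theorem aq_shape_of_pointData (O : Subring F) [IsLocalRing O] (thr : κ → Prop)
    (V : κ → ValuationSubring F) (hOV : ∀ c, thr c → ∀ x ∈ O, x ∈ V c)
    {m : ℕ} (hm : IsUnit ((m : ℕ) : O)) {Y H : F} (T : κ → F)
    (hH : ∀ c, thr c → H / T c - 1 ∈ (V c).nonunits)
    (htoric : ∀ c, thr c → Y / T c ^ m - 1 ∈ (V c).nonunits)
    (hdata : AqPointData O thr V m Y T) :
    ∃ ε γ : F, ε ∈ O ∧ (∀ c, thr c → ε - 1 ∈ (V c).nonunits) ∧
      (∀ c, thr c → γ - 1 ∈ (V c).nonunits) ∧ Y / H ^ m = ε * γ ^ m := by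
  classical
  obtain ⟨γ, ε, hε, hY, b, hb, hglue, K, hcond⟩ := hdata
  obtain ⟨ε', hε'⟩ := hε.exists_right_inv
  have hεε' : (ε : F) * (ε' : F) = 1 := by
    have := congrArg (fun z : O => (z : F)) hε'
    simpa using this
  have hε0 : (ε : F) ≠ 0 := left_ne_zero_of_mul_eq_one hεε'
  have hε'eq : (ε' : F) = (ε : F)⁻¹ := eq_inv_of_mul_eq_one_right hεε'
  have hTH : ∀ c, thr c → T c / H - 1 ∈ (V c).nonunits := fun c hc => by
    have := Fermat.Agent.STB.stb_congr_inv (V c) (hH c hc)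
    rwa [inv_div] at this
  have h := aq_shape_point (κ := {c // thr c}) O (fun c => V c.1)
    (fun c x hx => hOV c.1 c.2 x hx) hm (w := Y / H ^ m) (ε₀ := (ε : F)) (g₀ := γ / H)
    ε.2 (by rw [← hε'eq]; exact ε'.2) hε0
    (by rw [hY, div_pow, mul_div_assoc])
    (fun c => by
      have hT0 : T c.1 ≠ 0 := fun h0 => by
        have := stb_ne_zero_of_congr (V c.1) (hH c.1 c.2)
        rw [h0, div_zero] at this
        exact this rfl
      have hH0 : H ≠ 0 := fun h0 => by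
        have := stb_ne_zero_of_congr (V c.1) (hH c.1 c.2)
        rw [h0, zero_div] at this
        exact this rfl
      have e : Y / H ^ m = (Y / T c.1 ^ m) * (T c.1 / H) ^ m := by
        rw [div_pow]
        field_simp
      rw [e]
      exact stb_congr_mul (htoric c.1 c.2) (stb_congr_pow (hTH c.1 c.2) m))
    (fun c => b c.1)
    (fun c => by
      have hT0 : T c.1 ≠ 0 := fun h0 => by
        have := stb_ne_zero_of_congr (V c.1) (hH c.1 c.2)
        rw [h0, div_zero] at this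
        exact this rfl
      have hH0 : H ≠ 0 := fun h0 => by
        have := stb_ne_zero_of_congr (V c.1) (hH c.1 c.2)
        rw [h0, zero_div] at this
        exact this rfl
      have e : (b c.1 : F) * (γ / H) = ((b c.1 : F) * γ / T c.1) * (T c.1 / H) := by
        field_simp
      rw [e]
      exact stb_congr_mul (hb c.1 c.2) (hTH c.1 c.2))
    (fun c c' => hglue c.1 c'.1 c.2 c'.2) K
    (fun x hx => by
      obtain ⟨y, hy⟩ := hcond (fun c => if h : thr c then x ⟨c, h⟩ else 0)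
        (fun c hc => by rw [dif_pos hc]; exact hx ⟨c, hc⟩)
      refine ⟨y, fun c => ?_⟩
      have := hy c.1 c.2
      rwa [dif_pos c.2] at this)
  obtain ⟨ε₁, γ₁, hε₁, hε₁1, hγ₁, hw⟩ := h
  exact ⟨ε₁, γ₁, hε₁, fun c hc => hε₁1 ⟨c, hc⟩, fun c hc => hγ₁ ⟨c, hc⟩, hw⟩

/-- **Point data at a point with ONE component** (no gluing): a local factorisation and
normality of the branch. -/
theorem aq_pointData_one (O : Subring F) [IsLocalRing O] (thr : κ → Prop)
    (V : κ → ValuationSubring F) (c₁ : κ) (hc₁ : thr c₁) (honly : ∀ c, thr c → c = c₁)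
    (hOV : ∀ x ∈ O, x ∈ V c₁) (hres : StbRes O (V c₁))
    {m : ℕ} (hm : 0 < m) {Y : F} (T : κ → F) (htoric : Y / T c₁ ^ m - 1 ∈ (V c₁).nonunits)
    (hfac : StbFacAt O m Y) : AqPointData O thr V m Y T := by
  obtain ⟨γ, ε, hε, hY⟩ := hfac
  obtain ⟨α, hα, hαt, hvα⟩ := stb_branch_unit O (V c₁) hOV hres hm ε hε hY htoric
  refine ⟨γ, ε, hε, hY, fun _ => α, fun c hc => ?_, fun c c' _ _ => ?_, 0, fun x _ => ?_⟩
  · rw [honly c hc]
    have hα' : (α : F) - T c₁ / γ ∈ (V c₁).nonunits := by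
      have := (V c₁).nonunits.neg_mem hαt
      rwa [neg_sub] at this
    have hva : (V c₁).valuation (T c₁ / γ) = 1 := stb_val_of_sub (V c₁) hvα hαt
    have hne : T c₁ / γ ≠ 0 := fun h0 => by
      rw [h0, map_zero] at hva
      exact zero_ne_one hva
    have hT0 : T c₁ ≠ 0 := fun h0 => hne (by rw [h0, zero_div])
    have hγ0 : γ ≠ 0 := fun h0 => hne (by rw [h0, div_zero])
    have hinv : (T c₁ / γ)⁻¹ ∈ V c₁ := by
      rw [← (V c₁).valuation_le_one_iff, map_inv₀, hva, inv_one]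
    have e : (α : F) * γ / T c₁ - 1 = (T c₁ / γ)⁻¹ * ((α : F) - T c₁ / γ) := by
      field_simp
    rw [e]
    exact pwi_mul_mem_nonunits (V c₁) hinv hα'
  · rw [sub_self]
    exact Ideal.zero_mem _
  · exact ⟨x c₁, fun c hc => by
      rw [honly c hc, sub_self]
      exact aq_zero_mem_nonunits (V c₁)⟩

end PointData

section Assemble

variable {A₀ E F : Type*} [CommRing A₀] [IsDomain A₀] [IsDiscreteValuationRing A₀]
  [Field E] [Algebra A₀ E] [IsFractionRing A₀ E] [CharZero E]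
  [Field F] [Algebra E F] [Algebra A₀ F] [IsScalarTower A₀ E F]
  {π : A₀} {κ : Type*}

/-- a natural number which is a unit of `A₀` is a unit of every local ring `atO π t i` -/
theorem aq_natCast_isUnit_atO (t : F) (i : AtPt (F := F) π t ⊕ AtPt (F := F) π t⁻¹)
    {n : ℕ} (hn : IsUnit (n : A₀)) : IsUnit ((n : ℕ) : atO π t i) := by
  obtain ⟨d, hd⟩ := hn.exists_right_inv
  have hdF : (n : F) * algebraMap A₀ F d = 1 := by
    have := congrArg (algebraMap A₀ F) hd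
    simpa using this
  have hmem : ∀ (u : F) (𝔫 : AtPt (F := F) π u), algebraMap A₀ F d ∈ atLoc 𝔫 := by
    intro u 𝔫
    haveI := 𝔫.2.1.isPrime
    exact ls_algebraMap_mem 𝔫.1
      (algebraMap A₀ ↥(zchClosure (A₀ := A₀) ({u} : Set F)) d)
  have hmem' : algebraMap A₀ F d ∈ atO π t i := by
    rcases i with 𝔫 | 𝔫
    · exact hmem t 𝔫
    · exact hmem t⁻¹ 𝔫
  refine IsUnit.of_mul_eq_one (⟨algebraMap A₀ F d, hmem'⟩ : atO π t i) ?_
  apply Subtype.ext
  show (((n : ℕ) : atO π t i) : F) * algebraMap A₀ F d = 1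
  rw [show (((n : ℕ) : atO π t i) : F) = (n : F) by push_cast; rfl]
  exact hdF

/-- **(G-AT + G-AT2) assembled, with `hconn` as a hypothesis.**  See `aq_main`. -/
theorem aq_main_of_hconn (hπ : Irreducible π) {t : F} (ht : Transcendental E t)
    [FiniteDimensional E⟮t⟯ F]
    (hcl : ∀ x : F, IsAlgebraic E x → x ∈ (algebraMap E F).range)
    {p : ℕ} (hp : p.Prime) (hpu : IsUnit (p : A₀)) {ζ : A₀} (hζ : IsPrimitiveRoot ζ p)
    (hunit : ∀ a : A₀, IsUnit a → ∃ d : A₀, d ^ p = a)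
    {q : ℕ} (hq : q.Prime) (hqp : q ≠ p) (hqπ : π ∣ (q : A₀)) (N : ℕ)
    [Finite κ] (V : κ → ValuationSubring F) (hne : ∀ c c', c ≠ c' → V c ≠ V c')
    (hBV₁ : ∀ c (b : F), IsIntegral ↥(Algebra.adjoin A₀ {t}) b → b ∈ V c)
    (hBV₂ : ∀ c (b : F), IsIntegral ↥(Algebra.adjoin A₀ {t⁻¹}) b → b ∈ V c)
    (hπV : ∀ c, algebraMap A₀ F π ∈ (V c).nonunits)
    (hKR : ∀ x : F, IsIntegral ↥(Algebra.adjoin A₀ {t}) (algebraMap A₀ F π * x) →
      (∀ c, x ∈ V c) → IsIntegral ↥(Algebra.adjoin A₀ {t}) x)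
    (hram : ∀ c (x : F), x ∈ (V c).nonunits → ∃ z ∈ V c, x ^ (q ^ N) = algebraMap A₀ F π * z)
    (c₀ : κ)
    (hU : ∀ x : F, x ∈ (V c₀).nonunits → ∃ z ∈ V c₀, x = algebraMap A₀ F π * z)
    (hG : ∀ s : F, EIPrimeTo π t s → s ∉ (V c₀).nonunits)
    (harch : ∀ c (a x : F), a ∈ (V c).nonunits → ∃ N : ℕ, a ^ N * x ∈ (V c).nonunits)
    (hconn : ∀ c c' : κ, Relation.ReflTransGen
      (fun a b => ∃ i, atInc π t V i a ∧ atInc π t V i b) c c')
    (r : ℕ) {Y : F} (T : κ → F) (htoric : ∀ c, Y / T c ^ (p ^ r) - 1 ∈ (V c).nonunits)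
    (hpts : ∀ i : AtPt (F := F) π t ⊕ AtPt (F := F) π t⁻¹,
      @AqPointData F _ κ (atO π t i) (stb_atO_isLocalRing (π := π) t i) (atInc π t V i) V
        (p ^ r) Y T) :
    ∃ h : F, h ^ (p ^ r) = Y := by
  have hm : 0 < p ^ r := pow_pos hp.pos r
  have hπ0 : algebraMap A₀ F π ≠ 0 :=
    (map_ne_zero_iff _ (zch_algebraMap_injective (A₀ := A₀) (E := E) (L := F))).mpr hπ.ne_zero
  have hT0 : ∀ c, T c ≠ 0 := by
    intro c h
    have h1 := stb_ne_zero_of_congr (V c) (htoric c)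
    rw [h, zero_pow hm.ne', div_zero] at h1
    exact h1 rfl
  have hA : ∀ c, StbArch (V c) := by
    intro c x z hz
    obtain ⟨N, hN⟩ := harch c z x hz
    exact ⟨N, by rwa [mul_comm] at hN⟩
  have hinc : ∀ c c', c ≠ c' → ¬ V c ≤ V c' := fun c c' hcc' =>
    stb_not_le_of_ne (hA c) hπ0 (hπV c') (hne c c' hcc')
  obtain ⟨H, hH0, hH⟩ := aqw_weakApprox V hinc hA T hT0
  have hpu' : IsUnit ((p ^ r : ℕ) : A₀) := by
    rw [Nat.cast_pow]
    exact hpu.pow r
  have hw1 : ∀ c, Y / H ^ (p ^ r) - 1 ∈ (V c).nonunits := by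
    intro c
    have hTH : T c / H - 1 ∈ (V c).nonunits := by
      have := Fermat.Agent.STB.stb_congr_inv (V c) (hH c)
      rwa [inv_div] at this
    have e : Y / H ^ (p ^ r) = (Y / T c ^ (p ^ r)) * (T c / H) ^ (p ^ r) := by
      have := hT0 c
      rw [div_pow]
      field_simp
    rw [e]
    exact stb_congr_mul (htoric c) (stb_congr_pow hTH _)
  have hshape : PwiShape V (atO π t) (aqJ V π t) (atInc π t V) (p ^ r) (Y / H ^ (p ^ r)) := by
    refine ⟨hw1, fun i => ?_⟩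
    haveI := stb_atO_isLocalRing (π := π) t i
    obtain ⟨ε, γ, hε, hε1, hγ, hw⟩ := aq_shape_of_pointData (atO π t i) (atInc π t V i) V
      (fun c hc => stb_atO_le V hBV₁ hBV₂ i c hc) (aq_natCast_isUnit_atO t i hpu') T
      (fun c _ => hH c) (fun c _ => htoric c) (hpts i)
    refine ⟨ε, γ, hε, ?_, hγ, hw⟩
    rcases i with 𝔫 | 𝔫
    · exact (aq_mem_locIdeal V hBV₁ 𝔫 _).mpr fun c hc => by
        have := hε1 c hc
        simpa using this
    · exact (aq_mem_locIdeal V hBV₂ 𝔫 _).mpr fun c hc => by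
        have := hε1 c hc
        simpa using this
  obtain ⟨h, hh⟩ := aq_pow_of_shape hπ ht hcl hp hpu hζ hunit hq hqp hqπ N V hBV₁ hBV₂ hπV hKR
    hram c₀ hU hG harch hconn r _ hshape
  refine ⟨h * H, ?_⟩
  rw [mul_pow, hh]
  field_simp

/-- **Shape ⇒ power, NON-REDUCED special fibre, without `hconn`** (`aq_pow_of_shape` +
`aq_hconn`). -/
theorem aq_pow_of_shape' (hπ : Irreducible π) {t : F} (ht : Transcendental E t)
    [FiniteDimensional E⟮t⟯ F]
    (hcl : ∀ x : F, IsAlgebraic E x → x ∈ (algebraMap E F).range)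
    {p : ℕ} (hp : p.Prime) (hpu : IsUnit (p : A₀)) {ζ : A₀} (hζ : IsPrimitiveRoot ζ p)
    (hunit : ∀ a : A₀, IsUnit a → ∃ d : A₀, d ^ p = a)
    {q : ℕ} (hq : q.Prime) (hqp : q ≠ p) (hqπ : π ∣ (q : A₀)) (N : ℕ)
    [Finite κ] (V : κ → ValuationSubring F)
    (hBV₁ : ∀ c (b : F), IsIntegral ↥(Algebra.adjoin A₀ {t}) b → b ∈ V c)
    (hBV₂ : ∀ c (b : F), IsIntegral ↥(Algebra.adjoin A₀ {t⁻¹}) b → b ∈ V c)
    (hπV : ∀ c, algebraMap A₀ F π ∈ (V c).nonunits)
    (hKR : ∀ x : F, IsIntegral ↥(Algebra.adjoin A₀ {t}) (algebraMap A₀ F π * x) →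
      (∀ c, x ∈ V c) → IsIntegral ↥(Algebra.adjoin A₀ {t}) x)
    (hram : ∀ c (x : F), x ∈ (V c).nonunits → ∃ z ∈ V c, x ^ (q ^ N) = algebraMap A₀ F π * z)
    (c₀ : κ)
    (hU : ∀ x : F, x ∈ (V c₀).nonunits → ∃ z ∈ V c₀, x = algebraMap A₀ F π * z)
    (hG : ∀ s : F, EIPrimeTo π t s → s ∉ (V c₀).nonunits)
    (harch : ∀ c (a x : F), a ∈ (V c).nonunits → ∃ N : ℕ, a ^ N * x ∈ (V c).nonunits)
    (r : ℕ) (w : F) (hw : PwiShape V (atO π t) (aqJ V π t) (atInc π t V) (p ^ r) w) :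
    ∃ h : F, h ^ (p ^ r) = w :=
  aq_pow_of_shape hπ ht hcl hp hpu hζ hunit hq hqp hqπ N V hBV₁ hBV₂ hπV hKR hram c₀ hU hG harch
    (aq_hconn hπ ht hcl V hBV₁ hBV₂ hπV hKR hram) r w hw

/-- **(G-AT + G-AT2) assembled.**  Chart setting of `aq_pow_of_shape` (non-reduced special fibre,
finitely many pairwise distinct vertical valuations `V c`; (KR), (RAM), one component `c₀` with
`e = 1` over the Gauss valuation).  `Y` TORIC (`Y ≡ (T c) ^ (p ^ r)` at `V c`) with the point data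
`AqPointData` at every closed point of both charts (local factorisation, branch elements, trivial
gluing, conductor).  Then `Y` is a `p ^ r`-th power in `F`.  (Connectedness of the special fibre
is NOT a hypothesis: `aq_hconn`.) -/
theorem aq_main (hπ : Irreducible π) {t : F} (ht : Transcendental E t)
    [FiniteDimensional E⟮t⟯ F]
    (hcl : ∀ x : F, IsAlgebraic E x → x ∈ (algebraMap E F).range)
    {p : ℕ} (hp : p.Prime) (hpu : IsUnit (p : A₀)) {ζ : A₀} (hζ : IsPrimitiveRoot ζ p)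
    (hunit : ∀ a : A₀, IsUnit a → ∃ d : A₀, d ^ p = a)
    {q : ℕ} (hq : q.Prime) (hqp : q ≠ p) (hqπ : π ∣ (q : A₀)) (N : ℕ)
    [Finite κ] (V : κ → ValuationSubring F) (hne : ∀ c c', c ≠ c' → V c ≠ V c')
    (hBV₁ : ∀ c (b : F), IsIntegral ↥(Algebra.adjoin A₀ {t}) b → b ∈ V c)
    (hBV₂ : ∀ c (b : F), IsIntegral ↥(Algebra.adjoin A₀ {t⁻¹}) b → b ∈ V c)
    (hπV : ∀ c, algebraMap A₀ F π ∈ (V c).nonunits)
    (hKR : ∀ x : F, IsIntegral ↥(Algebra.adjoin A₀ {t}) (algebraMap A₀ F π * x) →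
      (∀ c, x ∈ V c) → IsIntegral ↥(Algebra.adjoin A₀ {t}) x)
    (hram : ∀ c (x : F), x ∈ (V c).nonunits → ∃ z ∈ V c, x ^ (q ^ N) = algebraMap A₀ F π * z)
    (c₀ : κ)
    (hU : ∀ x : F, x ∈ (V c₀).nonunits → ∃ z ∈ V c₀, x = algebraMap A₀ F π * z)
    (hG : ∀ s : F, EIPrimeTo π t s → s ∉ (V c₀).nonunits)
    (harch : ∀ c (a x : F), a ∈ (V c).nonunits → ∃ N : ℕ, a ^ N * x ∈ (V c).nonunits)
    (r : ℕ) {Y : F} (T : κ → F) (htoric : ∀ c, Y / T c ^ (p ^ r) - 1 ∈ (V c).nonunits)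
    (hpts : ∀ i : AtPt (F := F) π t ⊕ AtPt (F := F) π t⁻¹,
      @AqPointData F _ κ (atO π t i) (stb_atO_isLocalRing (π := π) t i) (atInc π t V i) V
        (p ^ r) Y T) :
    ∃ h : F, h ^ (p ^ r) = Y :=
  aq_main_of_hconn hπ ht hcl hp hpu hζ hunit hq hqp hqπ N V hne hBV₁ hBV₂ hπV hKR hram c₀ hU hG
    harch (aq_hconn hπ ht hcl V hBV₁ hBV₂ hπV hKR hram) r T htoric hpts

end Assemble

end Fermat.Agent.S36


end ZBS36_004_2

/-! ### bundled: `Fermat.Agent.S36.N2PtsAbs` -/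
section ZBS36_004_3
/-
S36 (Carayol at `q² ∥ M`), geometry, piece N2-pts (helper45), ABSTRACT part 1: branches at a
closed point of a chart with several vertical components.

Setting of `STB/GluingChart.lean`: `B` a chart (`Algebra B F`, injective), `𝔫` a prime of `B`,
`O = ls_localSubring 𝔫 = B_𝔫 ⊆ F`, `V` a valuation subring of `F` containing `B` ("vertical
component"), `𝔭_V = 𝔪(V) ∩ B`.

* `S36n2pGen 𝔫 V Y` : the branch `V` is REGULAR at `𝔫` with local parameter `Y`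
  (`𝔫 = 𝔭_V + (Y)` locally at `𝔫`; `= hgen` of `STB.stb_gc_res`).
* `s36n2p_gen_of_smoothAt` : from `UNIP.NodesSmoothAt f 𝔫 Y`, `ker f = 𝔭_V`.
* `s36n2p_gen_of_lower` **(A)** : from the chart `C` of the level below, `g : C → B`,
  `(F1) : B = g C + 𝔭_V` and `𝔫 ∩ C = (π, s)` locally: parameter `g s`.
* `s36n2p_gen_sub_pow` **(B)** : change of parameter, `Y ≡ s - t ^ Q` modulo `𝔭_V`, `t ∈ 𝔫`,
  `2 ≤ Q`.   `s36n2p_gen_neg`, `s36n2p_gen_congr`.
* `s36n2p_tr` **(C)** : TRANSVERSALITY `𝔪_O = 𝔭_{V₁} O + 𝔭_{V₂} O` from a local parameter of the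
  branch `V₂` lying in `𝔭_{V₁}`, in the exact form `htr` of `aq_cond_thr_of_transversal`.
* `s36n2p_res` **(D)** : normality of the branch, `STB.StbRes O V`.
* `s36n2p_cond` : the conductor clause of `AqPointData` at a point, from parameters.
-/

set_option autoImplicit false
set_option linter.unusedSectionVars false
set_option linter.unusedVariables false
set_option linter.style.haveILetI false

namespace Fermat.Agent.S36

open Fermat.Agent.UNIP Fermat.Agent.STB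

section Gen

variable {F : Type*} [Field F] {B : Type*} [CommRing B] [Algebra B F]

/-- The branch `V` of the chart `B` is regular at `𝔫` with local parameter `Y`:
`𝔫 = (𝔪(V) ∩ B) + (Y)` locally at `𝔫`. -/
def S36n2pGen (𝔫 : Ideal B) (V : ValuationSubring F) (Y : B) : Prop :=
  ∀ b ∈ 𝔫, ∃ u : B, u ∉ 𝔫 ∧ ∃ c : B, algebraMap B F (u * b - c * Y) ∈ V.nonunits

/-- from the ring-hom form `NodesSmoothAt` of UNIP -/
theorem s36n2p_gen_of_smoothAt {R : Type*} [CommRing R] (f : B →+* R) (𝔫 : Ideal B)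
    (V : ValuationSubring F)
    (hker : ∀ b : B, f b = 0 → algebraMap B F b ∈ V.nonunits)
    {Y : B} (h : NodesSmoothAt f 𝔫 Y) : S36n2pGen 𝔫 V Y := by
  intro b hb
  obtain ⟨u, v, hu, huv⟩ := h.2 b hb
  exact ⟨u, hu, v, hker _ (by rw [map_sub, huv, sub_self])⟩

/-- to the ring-hom form `NodesSmoothAt` of UNIP -/
theorem S36n2pGen.smoothAt {R : Type*} [CommRing R] (f : B →+* R) {𝔫 : Ideal B}
    {V : ValuationSubring F}
    (hker : ∀ b : B, algebraMap B F b ∈ V.nonunits → f b = 0)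
    {Y : B} (hY : Y ∈ 𝔫) (h : S36n2pGen 𝔫 V Y) : NodesSmoothAt f 𝔫 Y := by
  refine ⟨hY, fun b hb => ?_⟩
  obtain ⟨u, hu, c, hc⟩ := h b hb
  refine ⟨u, c, hu, ?_⟩
  have := hker _ hc
  rwa [map_sub, sub_eq_zero] at this

/-- **(A)** the local parameter from the level below. -/
theorem s36n2p_gen_of_lower {C : Type*} [CommRing C] (g : C →+* B) (𝔫 : Ideal B)
    (V : ValuationSubring F) (hBV : ∀ b : B, algebraMap B F b ∈ V)
    (hthrough : ∀ b : B, algebraMap B F b ∈ V.nonunits → b ∈ 𝔫)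
    (hF1 : ∀ b : B, ∃ c : C, algebraMap B F (b - g c) ∈ V.nonunits)
    (π s : C) (hπ : algebraMap B F (g π) ∈ V.nonunits)
    (hgen : NodesLocGen (𝔫.comap g) {π, s}) :
    S36n2pGen 𝔫 V (g s) := by
  intro b hb
  obtain ⟨c, hc⟩ := hF1 b
  have hgc : g c ∈ 𝔫 := by
    have h1 : b - g c ∈ 𝔫 := hthrough _ hc
    have h2 := 𝔫.sub_mem hb h1
    rwa [sub_sub_cancel] at h2
  obtain ⟨u, hu, hub⟩ := hgen c hgc
  rw [Ideal.mem_span_pair] at hub
  obtain ⟨c₁, c₂, hub⟩ := hub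
  refine ⟨g u, hu, g c₂, ?_⟩
  have e : g u * b - g c₂ * g s = g u * (b - g c) + g c₁ * g π := by
    have : g (u * c) = g (c₁ * π + c₂ * s) := by rw [hub]
    simp only [map_mul, map_add] at this
    linear_combination this
  rw [e, map_add, map_mul, map_mul]
  exact V.nonunits.add_mem (pwi_mul_mem_nonunits V (hBV _) hc)
    (pwi_mul_mem_nonunits V (hBV _) hπ)

/-- a congruent parameter -/
theorem s36n2p_gen_congr (𝔫 : Ideal B) (V : ValuationSubring F)
    (hBV : ∀ b : B, algebraMap B F b ∈ V) {Y Y' : B}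
    (hYY' : algebraMap B F (Y' - Y) ∈ V.nonunits) (h : S36n2pGen 𝔫 V Y) :
    S36n2pGen 𝔫 V Y' := by
  intro b hb
  obtain ⟨u, hu, c, hc⟩ := h b hb
  refine ⟨u, hu, c, ?_⟩
  have e : u * b - c * Y' = (u * b - c * Y) - c * (Y' - Y) := by ring
  rw [e, map_sub, map_mul]
  exact V.nonunits.sub_mem hc (pwi_mul_mem_nonunits V (hBV _) hYY')

/-- the opposite parameter -/
theorem s36n2p_gen_neg (𝔫 : Ideal B) (V : ValuationSubring F) {Y : B}
    (h : S36n2pGen 𝔫 V Y) : S36n2pGen 𝔫 V (-Y) := by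
  intro b hb
  obtain ⟨u, hu, c, hc⟩ := h b hb
  refine ⟨u, hu, -c, ?_⟩
  have e : u * b - -c * -Y = u * b - c * Y := by ring
  rwa [e]

/-- **(B)** change of parameter: `s - t ^ Q`, `t ∈ 𝔫`, `2 ≤ Q`. -/
theorem s36n2p_gen_sub_pow (𝔫 : Ideal B) [h𝔫 : 𝔫.IsPrime] (V : ValuationSubring F)
    (hBV : ∀ b : B, algebraMap B F b ∈ V) {s t : B} (hs : s ∈ 𝔫) (ht : t ∈ 𝔫)
    {Q : ℕ} (hQ : 2 ≤ Q) (h : S36n2pGen 𝔫 V s) : S36n2pGen 𝔫 V (s - t ^ Q) := by
  have h1 : NodesSmoothAt (Ideal.Quotient.mk (stbGcVert V hBV)) 𝔫 s :=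
    S36n2pGen.smoothAt (Ideal.Quotient.mk (stbGcVert V hBV))
      (fun b hb => Ideal.Quotient.eq_zero_iff_mem.mpr hb) hs h
  exact s36n2p_gen_of_smoothAt (Ideal.Quotient.mk (stbGcVert V hBV)) 𝔫 V
    (fun b hb => Ideal.Quotient.eq_zero_iff_mem.mp hb) (nodes_smoothAt_sub_pow h1 ht hQ)

/-- **(B′)** change of parameter, congruence form: `Y ≡ s - t ^ Q` at `V`. -/
theorem s36n2p_gen_change (𝔫 : Ideal B) [h𝔫 : 𝔫.IsPrime] (V : ValuationSubring F)
    (hBV : ∀ b : B, algebraMap B F b ∈ V) {s t Y : B} (hs : s ∈ 𝔫) (ht : t ∈ 𝔫)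
    {Q : ℕ} (hQ : 2 ≤ Q) (hY : algebraMap B F (Y - (s - t ^ Q)) ∈ V.nonunits)
    (h : S36n2pGen 𝔫 V s) : S36n2pGen 𝔫 V Y :=
  s36n2p_gen_congr 𝔫 V hBV hY (s36n2p_gen_sub_pow 𝔫 V hBV hs ht hQ h)

end Gen

section Local

variable {F : Type*} [Field F] {B : Type*} [CommRing B] [Algebra B F]
variable (hinj : Function.Injective (algebraMap B F)) (𝔫 : Ideal B) [h𝔫 : 𝔫.IsPrime]

include hinj in
/-- **(C) TRANSVERSALITY** of the branches `V₁`, `V₂` at `𝔫`, from a local parameter `Y` of the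
branch `V₂` which vanishes on `V₁`. -/
theorem s36n2p_tr [IsLocalRing (ls_localSubring (F := F) 𝔫)] (V₁ V₂ : ValuationSubring F)
    (hB₁ : ∀ b : B, algebraMap B F b ∈ V₁) (hB₂ : ∀ b : B, algebraMap B F b ∈ V₂)
    (hthr₁ : ∀ b : B, algebraMap B F b ∈ V₁.nonunits → b ∈ 𝔫)
    (hthr₂ : ∀ b : B, algebraMap B F b ∈ V₂.nonunits → b ∈ 𝔫)
    {Y : B} (hY : algebraMap B F Y ∈ V₁.nonunits) (hgen : S36n2pGen 𝔫 V₂ Y) :
    ∀ x ∈ IsLocalRing.maximalIdeal (ls_localSubring (F := F) 𝔫),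
      ∃ a b : ls_localSubring (F := F) 𝔫,
        (a : F) ∈ V₁.nonunits ∧ (b : F) ∈ V₂.nonunits ∧ x = a + b := by
  intro x hx
  obtain ⟨b, s, hb, hs, h⟩ := stb_gc_exists_of_mem_maximalIdeal hinj 𝔫 x hx
  obtain ⟨u, hu, c, hc⟩ := hgen b hb
  have hus : u * s ∉ 𝔫 := fun h' => by
    rcases h𝔫.mem_or_mem h' with h'' | h''
    · exact hu h''
    · exact hs h''
  have hus0 : algebraMap B F (u * s) ≠ 0 := stb_gc_algebraMap_ne_zero hinj 𝔫 hus
  have hv1 : V₁.valuation (algebraMap B F (u * s)) = 1 :=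
    stb_gc_val_eq_one V₁ (hB₁ _) (fun h' => hus (hthr₁ _ h'))
  have hv2 : V₂.valuation (algebraMap B F (u * s)) = 1 :=
    stb_gc_val_eq_one V₂ (hB₂ _) (fun h' => hus (hthr₂ _ h'))
  refine ⟨⟨algebraMap B F (c * Y) / algebraMap B F (u * s), ⟨c * Y, u * s, hus, by field_simp⟩⟩,
    ⟨algebraMap B F (u * b - c * Y) / algebraMap B F (u * s),
      ⟨u * b - c * Y, u * s, hus, by field_simp⟩⟩, ?_, ?_, ?_⟩
  · show algebraMap B F (c * Y) / algebraMap B F (u * s) ∈ V₁.nonunits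
    rw [div_eq_inv_mul]
    refine pwi_mul_mem_nonunits V₁ ?_ ?_
    · rw [← V₁.valuation_le_one_iff, map_inv₀, hv1, inv_one]
    · rw [map_mul]
      exact pwi_mul_mem_nonunits V₁ (hB₁ _) hY
  · show algebraMap B F (u * b - c * Y) / algebraMap B F (u * s) ∈ V₂.nonunits
    rw [div_eq_inv_mul]
    refine pwi_mul_mem_nonunits V₂ ?_ hc
    rw [← V₂.valuation_le_one_iff, map_inv₀, hv2, inv_one]
  · apply Subtype.ext
    show (x : F) = algebraMap B F (c * Y) / algebraMap B F (u * s)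
      + algebraMap B F (u * b - c * Y) / algebraMap B F (u * s)
    rw [← add_div, ← map_add]
    have e : c * Y + (u * b - c * Y) = u * b := by ring
    rw [e, eq_div_iff hus0, map_mul, map_mul, ← h]
    ring

include hinj in
/-- **(C), symmetric form.** -/
theorem s36n2p_tr_symm [IsLocalRing (ls_localSubring (F := F) 𝔫)] (V₁ V₂ : ValuationSubring F)
    (hB₁ : ∀ b : B, algebraMap B F b ∈ V₁) (hB₂ : ∀ b : B, algebraMap B F b ∈ V₂)
    (hthr₁ : ∀ b : B, algebraMap B F b ∈ V₁.nonunits → b ∈ 𝔫)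
    (hthr₂ : ∀ b : B, algebraMap B F b ∈ V₂.nonunits → b ∈ 𝔫)
    {Y : B} (hY : algebraMap B F Y ∈ V₁.nonunits) (hgen : S36n2pGen 𝔫 V₂ Y) :
    ∀ x ∈ IsLocalRing.maximalIdeal (ls_localSubring (F := F) 𝔫),
      ∃ a b : ls_localSubring (F := F) 𝔫,
        (a : F) ∈ V₂.nonunits ∧ (b : F) ∈ V₁.nonunits ∧ x = a + b := by
  intro x hx
  obtain ⟨a, b, ha, hb, hab⟩ := s36n2p_tr hinj 𝔫 V₁ V₂ hB₁ hB₂ hthr₁ hthr₂ hY hgen x hx
  exact ⟨b, a, hb, ha, by rw [hab, add_comm]⟩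

include hinj in
/-- **(D) NORMALITY** of a regular branch: `STB.StbRes (B_𝔫) V`. -/
theorem s36n2p_res [IsNoetherianRing B] (V : ValuationSubring F)
    (hBV : ∀ b : B, algebraMap B F b ∈ V)
    (hthrough : ∀ b : B, algebraMap B F b ∈ V.nonunits → b ∈ 𝔫)
    (hVloc : ∀ x : F, x ∈ V → ∃ b s : B, algebraMap B F s ∉ V.nonunits ∧
      algebraMap B F s * x = algebraMap B F b)
    {Y : B} (hY : Y ∈ 𝔫) (hgen : S36n2pGen 𝔫 V Y) :
    StbRes (ls_localSubring (F := F) 𝔫) V := fun a e n he hn h =>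
  stb_gc_res hinj 𝔫 V hBV hthrough hVloc Y hY hgen a e n he hn h

end Local

end Fermat.Agent.S36


end ZBS36_004_3
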