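/- GENERATED FILE (helper35, build-time optimisation, NOTES/ZB.md): verbatim concatenation of the modules
   Fermat.Agent.S36.RegAlg
   Fermat.Agent.S36.N2PtsReg
   Fermat.Agent.RIB.MP.FacRig
   Fermat.Agent.RIB.MP.FacConc
   Fermat.Agent.S36.RegAlgDvd
   Fermat.Agent.S36.ThinNode
   Fermat.Agent.RIB.MP.FacSmoothAlg
   Fermat.Agent.RIB.MP.FacSmooth
   Do not edit; do not import together with these modules. -/
import Mathlib
import Fermat.Agent.ZB.S36_004
import Fermat.Agent.ZB.S36_003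
import Fermat.Agent.ZB.UNIP_007
import Fermat.Agent.ZB.UNIP_010
import Fermat.Agent.ZB.UNIP_014
import Fermat.Agent.ZB.UNIP_001
import Fermat.Agent.ZB.UNIP_005
import Fermat.Agent.ZB.INJ_034

/-! ### bundled: `Fermat.Agent.S36.RegAlg` -/
section ZBS36_005_0

/-!
# S36 (Carayol), wall Q2-loc: local factoriality — the commutative algebra (helper37)

See NOTES/S36-REG.md.  Mathlib only.

* `s36reg_prime_principal` (R0): `x` a prime element in the Jacobson radical of a noetherian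
  domain `O` with `O ⧸ (x)` a principal ideal ring; then every prime ideal `𝔓 ∌ x` is principal.
* `s36reg_ufd` (R0): under the same hypotheses `O` is a UFD.
* `s36reg_isUnit_of_ord` / `s36reg_associated_pow` (R1, unit part): `u ∣ s ^ n`, and the images of
  `u` and `s ^ n` in a domain quotient `O ⧸ 𝔮` of the local ring `O` are associated, nonzero
  `⇒ u` and `s ^ n` are associated.
* `s36reg_span_eq` (R1): `O` integrally closed local domain, `s ∈ 𝔭`, `u ∣ f ^ n` for all `f ∈ 𝔭`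
  (`u` generates the `n`-th symbolic power), orders as above `⇒ 𝔭 = (s)`.
* `s36reg_exists_transversal`: `𝔭 ⊔ 𝔮 = 𝔪` and `O ⧸ 𝔮` a DVR `⇒` there is `s ∈ 𝔭` whose image in
  `O ⧸ 𝔮` is a uniformizer.
* `s36reg_ufd_of_crossing` (R0 + R1): the factoriality criterion at a crossing point.
-/

set_option autoImplicit false
set_option linter.style.haveILetI false
set_option linter.unusedSectionVars false
set_option linter.unnecessarySimpa false

namespace Fermat.Agent.S36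

open Ideal

section R0

variable {O : Type*} [CommRing O] [IsDomain O] [IsNoetherianRing O]

/-- **(R0)** `x` in the Jacobson radical, `O ⧸ (x)` a principal ideal ring: every prime ideal
which does not contain `x` is principal. -/
theorem s36reg_prime_principal {x : O} (hJ : x ∈ Ideal.jacobson (⊥ : Ideal O))
    [IsPrincipalIdealRing (O ⧸ Ideal.span {x})] (𝔓 : Ideal O) [𝔓.IsPrime] (hx : x ∉ 𝔓) :
    ∃ f ∈ 𝔓, 𝔓 = Ideal.span {f} := by
  classical
  -- a generator of the image of `𝔓` in `O ⧸ (x)`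
  obtain ⟨g, hg⟩ := (IsPrincipalIdealRing.principal
    (Ideal.map (Ideal.Quotient.mk (Ideal.span {x})) 𝔓)).principal
  have hgmem : g ∈ Ideal.map (Ideal.Quotient.mk (Ideal.span {x})) 𝔓 := by
    rw [hg]; exact Submodule.mem_span_singleton_self g
  obtain ⟨f, hf𝔓, hfg⟩ :=
    (Ideal.mem_map_iff_of_surjective _ Ideal.Quotient.mk_surjective).1 hgmem
  refine ⟨f, hf𝔓, le_antisymm ?_ ((Ideal.span_singleton_le_iff_mem _).2 hf𝔓)⟩
  -- `𝔓 ≤ (f) ⊔ (x) • 𝔓`, then Nakayama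
  have key : 𝔓 ≤ Ideal.span {f} ⊔ Ideal.span {x} • 𝔓 := by
    intro y hy
    have hy' : Ideal.Quotient.mk (Ideal.span {x}) y ∈
        Ideal.map (Ideal.Quotient.mk (Ideal.span {x})) 𝔓 := Ideal.mem_map_of_mem _ hy
    rw [hg] at hy'
    obtain ⟨a, ha⟩ := Submodule.mem_span_singleton.1 hy'
    obtain ⟨a', rfl⟩ := Ideal.Quotient.mk_surjective a
    rw [smul_eq_mul, ← hfg, ← map_mul, eq_comm, Ideal.Quotient.eq,
      Ideal.mem_span_singleton] at ha
    obtain ⟨c, hc⟩ := ha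
    -- `y - a' f = x c`, so `x c ∈ 𝔓` and `c ∈ 𝔓`
    have hxc : x * c ∈ 𝔓 := by
      rw [← hc]
      exact 𝔓.sub_mem hy (𝔓.mul_mem_left _ hf𝔓)
    have hc𝔓 : c ∈ 𝔓 := ((Ideal.IsPrime.mem_or_mem ‹_› hxc).resolve_left hx)
    have e : y = a' * f + x * c := by rw [← hc]; ring
    rw [e]
    refine Submodule.add_mem_sup (Ideal.mem_span_singleton'.2 ⟨a', rfl⟩) ?_
    exact Submodule.smul_mem_smul (Ideal.mem_span_singleton_self x) hc𝔓
  have hfg' : (𝔓 : Submodule O O).FG := IsNoetherian.noetherian 𝔓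
  have hxJ : Ideal.span {x} ≤ Ideal.jacobson (⊥ : Ideal O) :=
    (Ideal.span_singleton_le_iff_mem _).2 hJ
  exact Submodule.le_of_le_smul_of_le_jacobson_bot hfg' hxJ key

/-- **(R0)** a noetherian domain with a prime element `x` in the Jacobson radical such that
`O ⧸ (x)` is a principal ideal ring is a unique factorisation domain. -/
theorem s36reg_ufd {x : O} (hx : Prime x) (hJ : x ∈ Ideal.jacobson (⊥ : Ideal O))
    [IsPrincipalIdealRing (O ⧸ Ideal.span {x})] : UniqueFactorizationMonoid O := by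
  rw [UniqueFactorizationMonoid.iff_exists_prime_mem_of_isPrime]
  intro I hI hIp
  by_cases hxI : x ∈ I
  · exact ⟨x, hxI, hx⟩
  · haveI := hIp
    obtain ⟨f, hfI, hIf⟩ := s36reg_prime_principal hJ I hxI
    have hf0 : f ≠ 0 := by
      rintro rfl
      apply hI
      rw [hIf]
      simp
    refine ⟨f, hfI, ?_⟩
    rw [← Ideal.span_singleton_prime hf0, ← hIf]
    exact hIp

/-- **(R0)**, local form. -/
theorem s36reg_ufd_local [IsLocalRing O] {x : O} (hx : Prime x)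
    [IsPrincipalIdealRing (O ⧸ Ideal.span {x})] : UniqueFactorizationMonoid O := by
  refine s36reg_ufd hx ?_
  rw [IsLocalRing.jacobson_eq_maximalIdeal ⊥ bot_ne_top]
  exact (IsLocalRing.mem_maximalIdeal x).2 hx.not_isUnit

end R0

section R1

variable {O : Type*} [CommRing O] [IsLocalRing O]

/-- **(R1), unit part.**  `s ^ n = u * c` and the images of `u`, `s ^ n` in the domain `O ⧸ 𝔮`
are associated and nonzero: then `c` is a unit. -/
theorem s36reg_isUnit_of_ord (𝔮 : Ideal O) [𝔮.IsPrime] {s u c : O} {n : ℕ}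
    (h : s ^ n = u * c) (hs : s ∉ 𝔮)
    (hord : Associated (Ideal.Quotient.mk 𝔮 u) (Ideal.Quotient.mk 𝔮 s ^ n)) : IsUnit c := by
  have hsn : Ideal.Quotient.mk 𝔮 s ^ n ≠ 0 := by
    apply pow_ne_zero
    rwa [Ne, Ideal.Quotient.eq_zero_iff_mem]
  obtain ⟨w, hw⟩ := hord
  -- `mk u * w = mk s ^ n = mk u * mk c`
  have h1 : Ideal.Quotient.mk 𝔮 u * (w : O ⧸ 𝔮) = Ideal.Quotient.mk 𝔮 u * Ideal.Quotient.mk 𝔮 c := by
    rw [hw, ← map_mul, ← h, map_pow]
  have hu0 : Ideal.Quotient.mk 𝔮 u ≠ 0 := by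
    intro h0
    rw [h0, zero_mul] at hw
    exact hsn hw.symm
  have h2 : (w : O ⧸ 𝔮) = Ideal.Quotient.mk 𝔮 c := mul_left_cancel₀ hu0 h1
  have h3 : IsUnit (Ideal.Quotient.mk 𝔮 c) := h2 ▸ w.isUnit
  by_contra hc
  have hcm : c ∈ IsLocalRing.maximalIdeal O := (IsLocalRing.mem_maximalIdeal c).2 hc
  have hq : 𝔮 ≤ IsLocalRing.maximalIdeal O := IsLocalRing.le_maximalIdeal (Ideal.IsPrime.ne_top ‹_›)
  -- the image of a non-unit is a non-unit
  obtain ⟨d, hd⟩ := h3.exists_right_inv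
  obtain ⟨d', rfl⟩ := Ideal.Quotient.mk_surjective d
  rw [← map_mul, ← map_one (Ideal.Quotient.mk 𝔮), Ideal.Quotient.eq] at hd
  have h4 : c * d' - 1 ∈ IsLocalRing.maximalIdeal O := hq hd
  have h5 : (1 : O) ∈ IsLocalRing.maximalIdeal O := by
    have := (IsLocalRing.maximalIdeal O).sub_mem
      ((IsLocalRing.maximalIdeal O).mul_mem_right d' hcm) h4
    simpa using this
  exact (Ideal.ne_top_iff_one _).1 (IsLocalRing.maximalIdeal.isMaximal O).ne_top h5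

/-- **(R1), unit part.**  `u ∣ s ^ n` and equal orders along `𝔮`: `u` and `s ^ n` are
associated. -/
theorem s36reg_associated_pow (𝔮 : Ideal O) [𝔮.IsPrime] {s u : O} {n : ℕ}
    (h : u ∣ s ^ n) (hs : s ∉ 𝔮)
    (hord : Associated (Ideal.Quotient.mk 𝔮 u) (Ideal.Quotient.mk 𝔮 s ^ n)) :
    Associated u (s ^ n) := by
  obtain ⟨c, hc⟩ := h
  obtain ⟨w, hw⟩ := s36reg_isUnit_of_ord 𝔮 hc hs hord
  exact ⟨w, by rw [hw, hc]⟩

variable [IsDomain O] [IsIntegrallyClosed O]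

/-- **(R1)**: `𝔭 = (s)`.  `O` an integrally closed local domain, `s ∈ 𝔭`, `u ∣ f ^ n` for every
`f ∈ 𝔭` ("`div u = n · 𝔭`"), and `u`, `s ^ n` have the same order along `𝔮 ∌ s`. -/
theorem s36reg_span_eq (𝔭 𝔮 : Ideal O) [𝔮.IsPrime] {s u : O} {n : ℕ} (hn : n ≠ 0)
    (hs𝔭 : s ∈ 𝔭) (hs : s ∉ 𝔮) (hu : ∀ f ∈ 𝔭, u ∣ f ^ n)
    (hord : Associated (Ideal.Quotient.mk 𝔮 u) (Ideal.Quotient.mk 𝔮 s ^ n)) :
    𝔭 = Ideal.span {s} := by
  refine le_antisymm ?_ ((Ideal.span_singleton_le_iff_mem _).2 hs𝔭)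
  have hass := s36reg_associated_pow 𝔮 (hu s hs𝔭) hs hord
  intro f hf
  rw [Ideal.mem_span_singleton]
  -- `s ^ n ∣ f ^ n`, and `O` is integrally closed
  have h1 : s ^ n ∣ f ^ n := hass.symm.dvd.trans (hu f hf)
  exact (IsIntegrallyClosed.pow_dvd_pow_iff hn).1 h1

end R1

section Crossing

variable {O : Type*} [CommRing O] [IsLocalRing O]

/-- transversality gives an element of `𝔭` which is a uniformizer along `𝔮` -/
theorem s36reg_exists_transversal (𝔭 𝔮 : Ideal O) [𝔮.IsPrime]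
    (htr : 𝔭 ⊔ 𝔮 = IsLocalRing.maximalIdeal O)
    [IsDiscreteValuationRing (O ⧸ 𝔮)] :
    ∃ s ∈ 𝔭, Irreducible (Ideal.Quotient.mk 𝔮 s) := by
  obtain ⟨ϖ, hϖ⟩ := IsDiscreteValuationRing.exists_irreducible (O ⧸ 𝔮)
  obtain ⟨y, rfl⟩ := Ideal.Quotient.mk_surjective ϖ
  have hy : y ∈ IsLocalRing.maximalIdeal O := by
    rw [IsLocalRing.mem_maximalIdeal]
    intro hyu
    exact hϖ.not_isUnit (hyu.map _)
  rw [← htr] at hy
  obtain ⟨s, hs, t, ht, rfl⟩ := Submodule.mem_sup.1 hy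
  refine ⟨s, hs, ?_⟩
  have e : Ideal.Quotient.mk 𝔮 (s + t) = Ideal.Quotient.mk 𝔮 s := by
    rw [map_add, Ideal.Quotient.eq_zero_iff_mem.2 ht, add_zero]
  rwa [e] at hϖ

variable [IsDomain O] [IsNoetherianRing O] [IsIntegrallyClosed O]

/-- **(R0) + (R1): factoriality at a crossing point.**  `O` an integrally closed noetherian local
domain, `𝔭`, `𝔮` prime ideals meeting transversally (`𝔭 ⊔ 𝔮 = 𝔪`), both `O ⧸ 𝔭` and `O ⧸ 𝔮`
discrete valuation rings, `u ∈ O` with `u ∣ f ^ n` for all `f ∈ 𝔭` and whose image in `O ⧸ 𝔮`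
has order exactly `n` (i.e. is associated to the `n`-th power of a uniformizer).  Then `𝔭` is
principal and `O` is a unique factorisation domain. -/
theorem s36reg_ufd_of_crossing (𝔭 𝔮 : Ideal O) [𝔭.IsPrime] [𝔮.IsPrime] (h𝔭 : 𝔭 ≠ ⊥)
    (htr : 𝔭 ⊔ 𝔮 = IsLocalRing.maximalIdeal O)
    [IsPrincipalIdealRing (O ⧸ 𝔭)] [IsDiscreteValuationRing (O ⧸ 𝔮)]
    {u : O} {n : ℕ} (hn : n ≠ 0) (hu : ∀ f ∈ 𝔭, u ∣ f ^ n)
    (hord : ∀ ϖ : O ⧸ 𝔮, Irreducible ϖ → Associated (Ideal.Quotient.mk 𝔮 u) (ϖ ^ n)) :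
    (∃ s : O, Prime s ∧ 𝔭 = Ideal.span {s}) ∧ UniqueFactorizationMonoid O := by
  obtain ⟨s, hs𝔭, hsirr⟩ := s36reg_exists_transversal 𝔭 𝔮 htr
  have hs𝔮 : s ∉ 𝔮 := by
    intro h
    rw [← Ideal.Quotient.eq_zero_iff_mem] at h
    exact hsirr.ne_zero h
  have hspan : 𝔭 = Ideal.span {s} :=
    s36reg_span_eq 𝔭 𝔮 hn hs𝔭 hs𝔮 hu (hord _ hsirr)
  have hs0 : s ≠ 0 := by
    rintro rfl
    apply h𝔭
    rw [hspan]
    simp
  have hsprime : Prime s := by
    rw [← Ideal.span_singleton_prime hs0, ← hspan]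
    infer_instance
  refine ⟨⟨s, hsprime, hspan⟩, ?_⟩
  haveI : IsPrincipalIdealRing (O ⧸ Ideal.span {s}) := hspan ▸ ‹IsPrincipalIdealRing (O ⧸ 𝔭)›
  exact s36reg_ufd_local hsprime

end Crossing

end Fermat.Agent.S36


end ZBS36_005_0

/-! ### bundled: `Fermat.Agent.S36.N2PtsReg` -/
section ZBS36_005_1
/-
S36 (Carayol at `q² ∥ M`), geometry, piece N2-pts (helper45), part 3: REG and the LOCAL KRULL
PROPERTY at a closed point of a chart with a NON-REDUCED special fibre.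

Setting of `STB/GluingChart.lean`: `B` a chart (`Algebra B F`, injective), `𝔫` a prime of `B`,
`O = ls_localSubring 𝔫 = B_𝔫 ⊆ F`; `V : κ → ValuationSubring F` the vertical valuations
(`κ` finite), `ϖ ∈ B` the uniformizer of the base; the globals of `aq_main`:
 (KR)  `ϖ x ∈ B`, `x ∈ ⋂ V c` ⇒ `x ∈ B`;   (RAM)  `x ∈ 𝔪(V c)` ⇒ `x ^ Q ∈ ϖ V c`.

* `s36n2p_isLocalization`, `s36n2p_isNoetherianRing` : `B_𝔫` is the localisation, noetherian.
* `s36n2p_KRloc` : LOCAL (KR): `ϖ x ∈ B_𝔫`, `x ∈ V c` for the `c` THROUGH `𝔫` ⇒ `x ∈ B_𝔫`.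
* `s36n2p_KRloc_prod` : product form = hypothesis `hKR` of `s36n2p_dict_of_KR`.
* `s36n2p_dvd_of_unif` : `X ∈ B_𝔫` a uniformizer of `V c₁`, a unit at the other components
  through `𝔫`, `X ∣ ϖ`: then `𝔪(V c₁) ∩ B_𝔫 = X B_𝔫`.
* `s36n2p_ufd` : **REG**: if moreover the branch `V c₁` is regular at `𝔫` (`S36n2pGen`), then
  `B_𝔫` is a UFD (`s36reg_ufd_local`).
* `s36n2p_fac` : the field `fac` of `S36PtInput` at such a point.
-/

set_option autoImplicit false
set_option linter.unusedSectionVars false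
set_option linter.unusedVariables false
set_option linter.style.haveILetI false

namespace Fermat.Agent.S36

open Fermat.Agent.UNIP Fermat.Agent.STB AlgebraicCurve

section Loc

variable {F : Type*} [Field F] {B : Type*} [CommRing B] [Algebra B F]
variable (hinj : Function.Injective (algebraMap B F)) (𝔫 : Ideal B) [h𝔫 : 𝔫.IsPrime]

/-- the structure map `B → B_𝔫` -/
def s36n2pToLoc : B →+* ls_localSubring (F := F) 𝔫 where
  toFun b := ⟨algebraMap B F b, ls_algebraMap_mem 𝔫 b⟩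
  map_one' := Subtype.ext (map_one _)
  map_mul' x y := Subtype.ext (map_mul _ x y)
  map_zero' := Subtype.ext (map_zero _)
  map_add' x y := Subtype.ext (map_add _ x y)

theorem s36n2pToLoc_coe (b : B) : ((s36n2pToLoc (F := F) 𝔫 b : ls_localSubring (F := F) 𝔫) : F)
    = algebraMap B F b := rfl

include hinj in
/-- `B_𝔫` is the localisation of `B` at `𝔫` -/
theorem s36n2p_isLocalization :
    @IsLocalization B _ 𝔫.primeCompl (ls_localSubring (F := F) 𝔫) _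
      (s36n2pToLoc (F := F) 𝔫).toAlgebra := by
  letI : Algebra B (ls_localSubring (F := F) 𝔫) := (s36n2pToLoc (F := F) 𝔫).toAlgebra
  refine ⟨⟨fun s => ?_, fun z => ?_, fun {x y} hxy => ?_⟩⟩
  · exact ls_isUnit_of_not_mem hinj 𝔫 (s36n2pToLoc (F := F) 𝔫 s.1) (b := s.1) (s := 1)
      s.2 (fun h => h𝔫.ne_top ((Ideal.eq_top_iff_one 𝔫).mpr h)) (by
        rw [map_one, one_mul]; rfl)
  · obtain ⟨b, s, hs, h⟩ := z.2
    refine ⟨(b, ⟨s, hs⟩), Subtype.ext ?_⟩
    show (z : F) * algebraMap B F s = algebraMap B F b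
    rw [mul_comm]; exact h
  · refine ⟨1, ?_⟩
    have : algebraMap B F x = algebraMap B F y := congrArg Subtype.val hxy
    rw [hinj this]

include hinj in
theorem s36n2p_isNoetherianRing [IsNoetherianRing B] :
    IsNoetherianRing (ls_localSubring (F := F) 𝔫) := by
  letI : Algebra B (ls_localSubring (F := F) 𝔫) := (s36n2pToLoc (F := F) 𝔫).toAlgebra
  haveI := s36n2p_isLocalization (F := F) hinj 𝔫
  exact IsLocalization.isNoetherianRing 𝔫.primeCompl (ls_localSubring (F := F) 𝔫) inferInstance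

end Loc

section KR

variable {F : Type*} [Field F] {B : Type*} [CommRing B] [Algebra B F]
variable (hinj : Function.Injective (algebraMap B F)) (𝔫 : Ideal B) [h𝔫 : 𝔫.IsPrime]
variable {κ : Type*} [Finite κ]

/-- **LOCAL (KR), valuation form.**  `ϖ x ∈ B_𝔫` and `x ∈ V c` for every component `V c`
THROUGH `𝔫` imply `x ∈ B_𝔫`. -/
theorem s36n2p_KRloc (V : κ → ValuationSubring F) (hBV : ∀ c (b : B), algebraMap B F b ∈ V c)
    (ϖ : B)
    (hKR : ∀ x : F, (∃ b : B, algebraMap B F ϖ * x = algebraMap B F b) → (∀ c, x ∈ V c) →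
      ∃ b : B, x = algebraMap B F b)
    (Q : ℕ) (hram : ∀ c (x : F), x ∈ (V c).nonunits → ∃ z ∈ V c, x ^ Q = algebraMap B F ϖ * z)
    (x : F) (hx : algebraMap B F ϖ * x ∈ ls_localSubring (F := F) 𝔫)
    (hxV : ∀ c, (∀ b : B, algebraMap B F b ∈ (V c).nonunits → b ∈ 𝔫) → x ∈ V c) :
    x ∈ ls_localSubring (F := F) 𝔫 := by
  classical
  letI : Fintype κ := Fintype.ofFinite κ
  obtain ⟨b, s, hs, hbs⟩ := hx
  have h1 : (1 : B) ∉ 𝔫 := fun h => h𝔫.ne_top ((Ideal.eq_top_iff_one 𝔫).mpr h)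
  -- separating elements for the components not through `𝔫`
  have hsep : ∀ c, ∃ t : B, t ∉ 𝔫 ∧
      ((∀ b : B, algebraMap B F b ∈ (V c).nonunits → b ∈ 𝔫) ∨
        algebraMap B F t ∈ (V c).nonunits) := by
    intro c
    by_cases h : ∀ b : B, algebraMap B F b ∈ (V c).nonunits → b ∈ 𝔫
    · exact ⟨1, h1, Or.inl h⟩
    · push Not at h
      obtain ⟨t, ht, ht'⟩ := h
      exact ⟨t, ht', Or.inr ht⟩
  choose t ht htV using hsep
  set T : B := ∏ c, t c ^ Q with hT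
  have hT𝔫 : T ∉ 𝔫 := by
    intro h
    obtain ⟨c, -, hc⟩ := (Ideal.IsPrime.prod_mem_iff).mp h
    exact ht c (h𝔫.mem_of_pow_mem _ hc)
  have hz : ∀ c, x * algebraMap B F s * algebraMap B F T ∈ V c := by
    intro c
    rcases htV c with h | h
    · exact mul_mem (mul_mem (hxV c h) (hBV c s)) (hBV c T)
    · obtain ⟨z₀, hz₀, hz₀'⟩ := hram c _ h
      have hTT : T = t c ^ Q * ∏ c' ∈ Finset.univ.erase c, t c' ^ Q := by
        rw [hT]
        exact (Finset.mul_prod_erase Finset.univ (fun c' => t c' ^ Q) (Finset.mem_univ c)).symm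
      have e : x * algebraMap B F s * algebraMap B F T
          = algebraMap B F b * z₀ *
            algebraMap B F (∏ c' ∈ Finset.univ.erase c, t c' ^ Q) := by
        rw [hTT, map_mul, map_pow, hz₀', ← hbs]
        ring
      rw [e]
      exact mul_mem (mul_mem (hBV c b) hz₀) (hBV c _)
  obtain ⟨b', hb'⟩ := hKR (x * algebraMap B F s * algebraMap B F T)
    ⟨b * T, by rw [map_mul, ← hbs]; ring⟩ hz
  refine ⟨b', s * T, fun h => ?_, ?_⟩
  · rcases h𝔫.mem_or_mem h with h' | h'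
    · exact hs h'
    · exact hT𝔫 h'
  · rw [← hb', map_mul]; ring

/-- **LOCAL (KR), product form** (hypothesis `hKR` of `s36n2p_dict_of_KR`). -/
theorem s36n2p_KRloc_prod (V : κ → ValuationSubring F)
    (hBV : ∀ c (b : B), algebraMap B F b ∈ V c) (ϖ : B)
    (hKR : ∀ x : F, (∃ b : B, algebraMap B F ϖ * x = algebraMap B F b) → (∀ c, x ∈ V c) →
      ∃ b : B, x = algebraMap B F b)
    (Q : ℕ) (hram : ∀ c (x : F), x ∈ (V c).nonunits → ∃ z ∈ V c, x ^ Q = algebraMap B F ϖ * z)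
    (hϖ0 : algebraMap B F ϖ ≠ 0)
    (S : Finset κ)
    (hS : ∀ c, (∀ b : B, algebraMap B F b ∈ (V c).nonunits → b ∈ 𝔫) → c ∈ S)
    (hS' : ∀ c ∈ S, ∀ b : B, algebraMap B F b ∈ (V c).nonunits → b ∈ 𝔫)
    (e : κ → ℕ) (he : ∀ c ∈ S, ∀ x : F, x ∈ (V c).nonunits →
      ∃ z ∈ V c, x ^ e c = algebraMap B F ϖ * z)
    (y : κ → ls_localSubring (F := F) 𝔫)
    (hy : ∀ c ∈ S, ((y c : ls_localSubring (F := F) 𝔫) : F) ∈ (V c).nonunits) :
    s36n2pToLoc (F := F) 𝔫 ϖ ∣ ∏ c ∈ S, y c ^ e c := by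
  classical
  have hmem : (∏ c ∈ S, ((y c : ls_localSubring (F := F) 𝔫) : F) ^ e c) / algebraMap B F ϖ
      ∈ ls_localSubring (F := F) 𝔫 := by
    refine s36n2p_KRloc 𝔫 V hBV ϖ hKR Q hram _ ?_ ?_
    · rw [mul_div_cancel₀ _ hϖ0]
      have : (∏ c ∈ S, ((y c : ls_localSubring (F := F) 𝔫) : F) ^ e c)
          = ((∏ c ∈ S, y c ^ e c : ls_localSubring (F := F) 𝔫) : F) := by
        push_cast; rfl
      rw [this]
      exact (∏ c ∈ S, y c ^ e c : ls_localSubring (F := F) 𝔫).2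
    · intro c hc
      have hcS := hS c hc
      have hOV := stb_gc_le 𝔫 (V c) (hBV c) hc
      obtain ⟨z₀, hz₀, hz₀'⟩ := he c hcS _ (hy c hcS)
      rw [← Finset.mul_prod_erase S
        (fun c' => ((y c' : ls_localSubring (F := F) 𝔫) : F) ^ e c') hcS]
      rw [hz₀']
      have e' : algebraMap B F ϖ * z₀ *
          (∏ c' ∈ S.erase c, ((y c' : ls_localSubring (F := F) 𝔫) : F) ^ e c') /
            algebraMap B F ϖ
          = z₀ * ∏ c' ∈ S.erase c, ((y c' : ls_localSubring (F := F) 𝔫) : F) ^ e c' := by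
        field_simp
      rw [e']
      refine mul_mem hz₀ (prod_mem fun c' _ => pow_mem (hOV _ (y c').2) _)
  refine ⟨⟨_, hmem⟩, Subtype.ext ?_⟩
  show ((∏ c ∈ S, y c ^ e c : ls_localSubring (F := F) 𝔫) : F) = algebraMap B F ϖ * _
  rw [mul_div_cancel₀ _ hϖ0]
  push_cast
  rfl

/-- **`𝔪(V c₁) ∩ B_𝔫 = X B_𝔫`**: `X ∈ B_𝔫` a uniformizer of `V c₁`, a unit at the other
components through `𝔫`, `X ∣ ϖ` in `B_𝔫`. -/
theorem s36n2p_dvd_of_unif (V : κ → ValuationSubring F)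
    (hBV : ∀ c (b : B), algebraMap B F b ∈ V c) (ϖ : B)
    (hKR : ∀ x : F, (∃ b : B, algebraMap B F ϖ * x = algebraMap B F b) → (∀ c, x ∈ V c) →
      ∃ b : B, x = algebraMap B F b)
    (Q : ℕ) (hram : ∀ c (x : F), x ∈ (V c).nonunits → ∃ z ∈ V c, x ^ Q = algebraMap B F ϖ * z)
    (c₁ : κ) (X Y : ls_localSubring (F := F) 𝔫) (hXY : X * Y = s36n2pToLoc (F := F) 𝔫 ϖ)
    (hX0 : X ≠ 0)
    (hU : ∀ x ∈ (V c₁).nonunits, ∃ z ∈ V c₁, x = (X : F) * z)
    (hXu : ∀ c, c ≠ c₁ → (∀ b : B, algebraMap B F b ∈ (V c).nonunits → b ∈ 𝔫) →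
      (X : F)⁻¹ ∈ V c)
    (y : ls_localSubring (F := F) 𝔫) (hy : (y : F) ∈ (V c₁).nonunits) : X ∣ y := by
  have hXF : (X : F) ≠ 0 := fun h => hX0 (Subtype.ext h)
  have hXYF : (X : F) * (Y : F) = algebraMap B F ϖ := congrArg Subtype.val hXY
  have hmem : (y : F) / (X : F) ∈ ls_localSubring (F := F) 𝔫 := by
    refine s36n2p_KRloc 𝔫 V hBV ϖ hKR Q hram _ ?_ ?_
    · have e : algebraMap B F ϖ * ((y : F) / (X : F)) = (Y : F) * (y : F) := by
        rw [← hXYF]; field_simp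
      rw [e]
      exact (Y * y).2
    · intro c hc
      by_cases hcc : c = c₁
      · subst hcc
        obtain ⟨z, hz, hyz⟩ := hU _ hy
        rw [hyz, mul_div_cancel_left₀ _ hXF]
        exact hz
      · rw [div_eq_mul_inv]
        exact mul_mem (stb_gc_le 𝔫 (V c) (hBV c) hc _ y.2) (hXu c hcc hc)
  exact ⟨⟨_, hmem⟩, Subtype.ext (by
    show (y : F) = (X : F) * ((y : F) / (X : F))
    field_simp)⟩

end KR

section Reg

variable {F : Type*} [Field F] {B : Type*} [CommRing B] [Algebra B F]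
variable (hinj : Function.Injective (algebraMap B F)) (𝔫 : Ideal B) [h𝔫 : 𝔫.IsPrime]

include hinj in
/-- a generator of `𝔪(V) ∩ B_𝔫` is a prime element of `B_𝔫` -/
theorem s36n2p_prime (V : ValuationSubring F) (hBV : ∀ b : B, algebraMap B F b ∈ V)
    (hthr : ∀ b : B, algebraMap B F b ∈ V.nonunits → b ∈ 𝔫)
    (X : ls_localSubring (F := F) 𝔫) (hX0 : X ≠ 0) (hX1 : (X : F) ∈ V.nonunits)
    (hX2 : ∀ y : ls_localSubring (F := F) 𝔫, (y : F) ∈ V.nonunits → X ∣ y) : Prime X := by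
  haveI := ls_localSubring_isLocalRing (F := F) hinj 𝔫
  have hOV := stb_gc_le 𝔫 V hBV hthr
  refine ⟨hX0, fun hu => ?_, fun a b hab => ?_⟩
  · have h1 := stb_val_unit (ls_localSubring (F := F) 𝔫) V hOV hu
    rw [ValuationSubring.mem_nonunits_iff, h1] at hX1
    exact lt_irrefl _ hX1
  · obtain ⟨c, hc⟩ := hab
    have h1 : ((a * b : ls_localSubring (F := F) 𝔫) : F) ∈ V.nonunits := by
      rw [hc]
      show (X : F) * (c : F) ∈ V.nonunits
      rw [mul_comm]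
      exact pwi_mul_mem_nonunits V (hOV _ c.2) hX1
    have h2 : (a : F) ∈ V.nonunits ∨ (b : F) ∈ V.nonunits := by
      by_contra hcon
      rw [not_or] at hcon
      have ha := stb_gc_val_eq_one V (hOV _ a.2) hcon.1
      have hb := stb_gc_val_eq_one V (hOV _ b.2) hcon.2
      rw [ValuationSubring.mem_nonunits_iff] at h1
      have : V.valuation (((a * b : ls_localSubring (F := F) 𝔫) : F)) = 1 := by
        show V.valuation ((a : F) * (b : F)) = 1
        rw [map_mul, ha, hb, one_mul]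
      rw [this] at h1
      exact lt_irrefl _ h1
    rcases h2 with h | h
    · exact Or.inl (hX2 a h)
    · exact Or.inr (hX2 b h)

include hinj in
/-- **REG.**  If the branch `V` is regular at `𝔫` (`S36n2pGen`) and `𝔪(V) ∩ B_𝔫 = X B_𝔫` is
principal, then `B_𝔫` is a UFD. -/
theorem s36n2p_ufd [IsNoetherianRing B] (V : ValuationSubring F)
    (hBV : ∀ b : B, algebraMap B F b ∈ V)
    (hthr : ∀ b : B, algebraMap B F b ∈ V.nonunits → b ∈ 𝔫)
    {Y₀ : B} (hY₀ : Y₀ ∈ 𝔫) (hgen : S36n2pGen 𝔫 V Y₀)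
    (X : ls_localSubring (F := F) 𝔫) (hX0 : X ≠ 0) (hX1 : (X : F) ∈ V.nonunits)
    (hX2 : ∀ y : ls_localSubring (F := F) 𝔫, (y : F) ∈ V.nonunits → X ∣ y) :
    UniqueFactorizationMonoid (ls_localSubring (F := F) 𝔫) := by
  classical
  haveI := ls_localSubring_isLocalRing (F := F) hinj 𝔫
  haveI := s36n2p_isNoetherianRing (F := F) hinj 𝔫
  have hOV := stb_gc_le 𝔫 V hBV hthr
  have hprime : Prime X := s36n2p_prime hinj 𝔫 V hBV hthr X hX0 hX1 hX2
  haveI hIp : (Ideal.span {X} : Ideal (ls_localSubring (F := F) 𝔫)).IsPrime :=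
    (Ideal.span_singleton_prime hX0).2 hprime
  set I : Ideal (ls_localSubring (F := F) 𝔫) := Ideal.span {X} with hI
  let mk : ls_localSubring (F := F) 𝔫 →+* (ls_localSubring (F := F) 𝔫) ⧸ I := Ideal.Quotient.mk I
  have hmk : Function.Surjective mk := Ideal.Quotient.mk_surjective
  haveI : Nontrivial ((ls_localSubring (F := F) 𝔫) ⧸ I) :=
    Ideal.Quotient.nontrivial_iff.mpr hIp.ne_top
  haveI : IsLocalRing ((ls_localSubring (F := F) 𝔫) ⧸ I) := IsLocalRing.of_surjective' mk hmk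
  -- nonunits of the quotient come from nonunits
  have hnon : ∀ r : ls_localSubring (F := F) 𝔫, ¬ IsUnit (mk r) → ¬ IsUnit r :=
    fun r h hr => h (hr.map mk)
  have hnon' : ∀ r : ls_localSubring (F := F) 𝔫, ¬ IsUnit r → ¬ IsUnit (mk r) := by
    intro r hr hu
    obtain ⟨r', hr'⟩ := hmk (↑hu.unit⁻¹ : (ls_localSubring (F := F) 𝔫) ⧸ I)
    have h1 : mk (r * r' - 1) = 0 := by
      rw [map_sub, map_mul, hr', map_one, IsUnit.mul_val_inv, sub_self]
    have h2 : r * r' - 1 ∈ I := Ideal.Quotient.eq_zero_iff_mem.mp h1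
    obtain ⟨d, hd⟩ := Ideal.mem_span_singleton.mp h2
    have h3 : r * r' - X * d = 1 := by rw [← hd]; ring
    have hXm : X ∈ IsLocalRing.maximalIdeal (ls_localSubring (F := F) 𝔫) :=
      (IsLocalRing.mem_maximalIdeal X).2 hprime.not_isUnit
    have hrm : r ∈ IsLocalRing.maximalIdeal (ls_localSubring (F := F) 𝔫) :=
      (IsLocalRing.mem_maximalIdeal r).2 hr
    have h4 : (1 : ls_localSubring (F := F) 𝔫) ∈
        IsLocalRing.maximalIdeal (ls_localSubring (F := F) 𝔫) := by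
      rw [← h3]
      exact Ideal.sub_mem _ (Ideal.mul_mem_right _ _ hrm) (Ideal.mul_mem_right _ _ hXm)
    exact (IsLocalRing.mem_maximalIdeal _).1 h4 isUnit_one
  have hprinc : (IsLocalRing.maximalIdeal ((ls_localSubring (F := F) 𝔫) ⧸ I)).IsPrincipal := by
    refine ⟨⟨mk (s36n2pToLoc (F := F) 𝔫 Y₀), ?_⟩⟩
    apply le_antisymm
    · intro rb hrb
      obtain ⟨r, rfl⟩ := hmk rb
      have hr : r ∈ IsLocalRing.maximalIdeal (ls_localSubring (F := F) 𝔫) :=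
        (IsLocalRing.mem_maximalIdeal r).2 (hnon r ((IsLocalRing.mem_maximalIdeal _).1 hrb))
      obtain ⟨b, s, hb, hs, hbs⟩ := stb_gc_exists_of_mem_maximalIdeal hinj 𝔫 r hr
      obtain ⟨u, hu, c, hc⟩ := hgen b hb
      have hus : u * s ∉ 𝔫 := fun h' => by
        rcases h𝔫.mem_or_mem h' with h'' | h''
        · exact hu h''
        · exact hs h''
      have hunit : IsUnit (s36n2pToLoc (F := F) 𝔫 (u * s)) :=
        ls_isUnit_of_not_mem hinj 𝔫 _ (b := u * s) (s := 1) hus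
          (fun h => h𝔫.ne_top ((Ideal.eq_top_iff_one 𝔫).mpr h)) (by rw [map_one, one_mul]; rfl)
      obtain ⟨d, hd⟩ := hX2 (s36n2pToLoc (F := F) 𝔫 (u * b - c * Y₀)) hc
      have e1 : s36n2pToLoc (F := F) 𝔫 (u * s) * r
          = s36n2pToLoc (F := F) 𝔫 c * s36n2pToLoc (F := F) 𝔫 Y₀ + X * d := by
        rw [← hd]
        apply Subtype.ext
        show algebraMap B F (u * s) * (r : F)
          = algebraMap B F c * algebraMap B F Y₀ + algebraMap B F (u * b - c * Y₀)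
        rw [map_mul, mul_assoc, hbs, map_sub, map_mul, map_mul]
        ring
      have e2 : mk (s36n2pToLoc (F := F) 𝔫 (u * s)) * mk r
          = mk (s36n2pToLoc (F := F) 𝔫 c) * mk (s36n2pToLoc (F := F) 𝔫 Y₀) := by
        rw [← map_mul, e1, map_add, map_mul, map_mul]
        have : mk X = 0 := Ideal.Quotient.eq_zero_iff_mem.mpr (Ideal.mem_span_singleton_self X)
        rw [this, zero_mul, add_zero]
      obtain ⟨v, hv⟩ := hunit.map mk
      rw [Submodule.mem_span_singleton]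
      refine ⟨((v⁻¹ : (((ls_localSubring (F := F) 𝔫) ⧸ I))ˣ) : (ls_localSubring (F := F) 𝔫) ⧸ I)
        * mk (s36n2pToLoc (F := F) 𝔫 c), ?_⟩
      rw [smul_eq_mul, mul_assoc, ← e2, ← hv, ← mul_assoc, Units.inv_mul, one_mul]
    · rw [Submodule.span_le, Set.singleton_subset_iff]
      refine (IsLocalRing.mem_maximalIdeal _).2 (hnon' _ ?_)
      have := stb_gc_mem_maximalIdeal hinj 𝔫 (s36n2pToLoc (F := F) 𝔫 Y₀) (b := Y₀) (s := 1) hY₀
        (fun h => h𝔫.ne_top ((Ideal.eq_top_iff_one 𝔫).mpr h)) (by rw [map_one, one_mul]; rfl)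
      exact (IsLocalRing.mem_maximalIdeal _).1 this
  haveI : IsPrincipalIdealRing ((ls_localSubring (F := F) 𝔫) ⧸ I) :=
    ((tfae_of_isNoetherianRing_of_isLocalRing_of_isDomain
      ((ls_localSubring (F := F) 𝔫) ⧸ I)).out 4 0).1 hprinc
  exact s36reg_ufd_local hprime

end Reg

section Fac

variable {E F : Type*} [Field E] [Field F] [Algebra E F] {B : Type*} [CommRing B] [Algebra B F]
variable (hinj : Function.Injective (algebraMap B F)) (𝔫 : Ideal B) [h𝔫 : 𝔫.IsPrime]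
variable {κ : Type*} [Finite κ]

include hinj in
/-- **The dictionary at a closed point with UFD local ring**, from the globals (KR), (RAM). -/
theorem s36n2p_dict [UniqueFactorizationMonoid (ls_localSubring (F := F) 𝔫)]
    (V : κ → ValuationSubring F) (hBV : ∀ c (b : B), algebraMap B F b ∈ V c) (ϖ : B)
    (hKR : ∀ x : F, (∃ b : B, algebraMap B F ϖ * x = algebraMap B F b) → (∀ c, x ∈ V c) →
      ∃ b : B, x = algebraMap B F b)
    (Q : ℕ) (hram : ∀ c (x : F), x ∈ (V c).nonunits → ∃ z ∈ V c, x ^ Q = algebraMap B F ϖ * z)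
    (hϖ0 : algebraMap B F ϖ ≠ 0) (hϖV : ∀ c, algebraMap B F ϖ ∈ (V c).nonunits)
    (hE : ∀ e : E, ∃ (n : ℕ) (a : B),
      algebraMap E F e * algebraMap B F ϖ ^ n = algebraMap B F a)
    (hfrac : ∀ x : F, ∃ a b : B, b ≠ 0 ∧ x * algebraMap B F b = algebraMap B F a) :
    S36n2pDict E (ls_localSubring (F := F) 𝔫)
      (fun c => ∀ b : B, algebraMap B F b ∈ (V c).nonunits → b ∈ 𝔫) V := by
  classical
  letI : Fintype κ := Fintype.ofFinite κ
  haveI : IsFractionRing (ls_localSubring (F := F) 𝔫) F :=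
    s36n2p_isFractionRing (ls_localSubring (F := F) 𝔫) (fun x => by
      obtain ⟨a, b, hb, h⟩ := hfrac x
      exact ⟨s36n2pToLoc (F := F) 𝔫 a, s36n2pToLoc (F := F) 𝔫 b,
        fun h0 => hb (hinj (by rw [map_zero]; exact h0)), h⟩)
  refine s36n2p_dict_of_KR (E := E) (O := ls_localSubring (F := F) 𝔫) _ V
    (fun c hc x => stb_gc_le 𝔫 (V c) (hBV c) hc _ x.2)
    (Finset.univ.filter fun c => ∀ b : B, algebraMap B F b ∈ (V c).nonunits → b ∈ 𝔫)
    (fun c hc => (Finset.mem_filter.mp hc).2) (fun _ => Q) (s36n2pToLoc (F := F) 𝔫 ϖ)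
    (fun h => hϖ0 (congrArg Subtype.val h)) (fun c _ => hϖV c) ?_ ?_
  · intro y hy
    exact s36n2p_KRloc_prod 𝔫 V hBV ϖ hKR Q hram hϖ0 _
      (fun c hc => Finset.mem_filter.mpr ⟨Finset.mem_univ c, hc⟩)
      (fun c hc => (Finset.mem_filter.mp hc).2) (fun _ => Q)
      (fun c _ x hx => hram c x hx) y hy
  · intro e
    obtain ⟨n, a, h⟩ := hE e
    exact ⟨n, s36n2pToLoc (F := F) 𝔫 a, h⟩

include hinj in
/-- **The field `fac` of `S36PtInput`** at a closed point with UFD local ring. -/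
theorem s36n2p_fac [UniqueFactorizationMonoid (ls_localSubring (F := F) 𝔫)]
    (V : κ → ValuationSubring F) (hBV : ∀ c (b : B), algebraMap B F b ∈ V c) (ϖ : B)
    (hKR : ∀ x : F, (∃ b : B, algebraMap B F ϖ * x = algebraMap B F b) → (∀ c, x ∈ V c) →
      ∃ b : B, x = algebraMap B F b)
    (Q : ℕ) (hram : ∀ c (x : F), x ∈ (V c).nonunits → ∃ z ∈ V c, x ^ Q = algebraMap B F ϖ * z)
    (hϖ0 : algebraMap B F ϖ ≠ 0) (hϖV : ∀ c, algebraMap B F ϖ ∈ (V c).nonunits)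
    (hE : ∀ e : E, ∃ (n : ℕ) (a : B),
      algebraMap E F e * algebraMap B F ϖ ^ n = algebraMap B F a)
    (hfrac : ∀ x : F, ∃ a b : B, b ≠ 0 ∧ x * algebraMap B F b = algebraMap B F a)
    (m : ℕ) (y : F) (hy : y ≠ 0) (hhor : ∀ P : Place E F, (m : ℤ) ∣ P.ord y)
    (hunit : ∀ c, (∀ b : B, algebraMap B F b ∈ (V c).nonunits → b ∈ 𝔫) →
      (V c).valuation y = 1) :
    StbFacAt (ls_localSubring (F := F) 𝔫) m y := by
  refine s36n2p_facAt (E := E) (ls_localSubring (F := F) 𝔫) ?_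
    (fun c => ∀ b : B, algebraMap B F b ∈ (V c).nonunits → b ∈ 𝔫) V
    (fun c hc => stb_gc_le 𝔫 (V c) (hBV c) hc)
    (s36n2p_dict hinj 𝔫 V hBV ϖ hKR Q hram hϖ0 hϖV hE hfrac) m y hy hhor hunit
  intro x
  obtain ⟨a, b, hb, h⟩ := hfrac x
  exact ⟨s36n2pToLoc (F := F) 𝔫 a, s36n2pToLoc (F := F) 𝔫 b,
    fun h0 => hb (hinj (by rw [map_zero]; exact h0)), h⟩

end Fac

end Fermat.Agent.S36


end ZBS36_005_1

/-! ### bundled: `Fermat.Agent.RIB.MP.FacRig` -/
section ZBS36_005_2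
/-
Row 37, Mazur's principle, piece MP-FAC (helper95), part 3: FACTORIAL local rings give the local
factorisation (F) — chart form over a discrete valuation ring with REDUCED special fibre.

Setting of `UNIP/AbstractT.lean`: `A₀` a DVR (uniformizer `π`), `E = Frac A₀`, `F / E(u)` finite,
`B_u` the chart, `V : κ → ValuationSubring F` the vertical valuation rings with
 (SS1) `B_u ∩ ⋂ 𝔪(V c) = π B_u`,  (U) `𝔪(V c) = π V c`  (the special fibre is reduced).

* `ribmp_fac_hfrac`, `ribmp_fac_hE`, `ribmp_fac_hKR` : the global inputs of helper45's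
  `S36.s36n2p_fac` on such a chart.
* `ribmp_fac_ufd_chart` : at a closed point `𝔫` with `UniqueFactorizationMonoid (atLoc 𝔫)`:
  `y ≠ 0`, `m ∣ ord_P y` for all places `P` of `F / E`, `y` a unit of every `V c`
  `⇒ StbFacAt (atLoc 𝔫) m y`.
* `ribmp_fac_ufd_charts` : the same on the pair of charts `t`, `t⁻¹`.
-/

set_option autoImplicit false
set_option linter.unusedSectionVars false
set_option linter.unusedVariables false
set_option linter.style.haveILetI false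

namespace Fermat.Agent.RIB.MP

open Fermat.Agent.UNIP Fermat.Agent.STB Fermat.Agent.INJ Fermat.Agent.S36 IntermediateField
  AlgebraicCurve

section Chart

universe u

variable {A₀ E F : Type u} [CommRing A₀] [IsDomain A₀] [IsDiscreteValuationRing A₀]
  [Field E] [Algebra A₀ E] [IsFractionRing A₀ E] [CharZero E]
  [Field F] [Algebra E F] [Algebra A₀ F] [IsScalarTower A₀ E F]
  {π : A₀} {κ : Type*}

/-- `F` is the fraction field of the chart `B_u` -/
theorem ribmp_fac_hfrac (u : F) [FiniteDimensional E⟮u⟯ F] (x : F) :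
    ∃ a b : ↥(zchClosure (A₀ := A₀) ({u} : Set F)), b ≠ 0 ∧
      x * algebraMap ↥(zchClosure (A₀ := A₀) ({u} : Set F)) F b =
        algebraMap ↥(zchClosure (A₀ := A₀) ({u} : Set F)) F a := by
  obtain ⟨y, hy0, hy⟩ := (ad_isAlgebraic (A₀ := A₀) (E := E) u x).exists_integral_multiple
  refine ⟨⟨y • x, hy⟩, ⟨(y : F), isIntegral_algebraMap
    (R := ↥(Algebra.adjoin A₀ ({u} : Set F))) (x := y)⟩, ?_, ?_⟩
  · intro h0
    apply hy0
    apply Subtype.ext
    exact congrArg (fun z : ↥(zchClosure (A₀ := A₀) ({u} : Set F)) => (z : F)) h0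
  · show x * (y : F) = y • x
    rw [Algebra.smul_def, mul_comm]
    rfl

/-- the constants: `E = A₀[1 / π]` -/
theorem ribmp_fac_hE (hπ : Irreducible π) (u : F) (e : E) :
    ∃ (n : ℕ) (a : ↥(zchClosure (A₀ := A₀) ({u} : Set F))),
      algebraMap E F e * algebraMap ↥(zchClosure (A₀ := A₀) ({u} : Set F)) F
        (algebraMap A₀ ↥(zchClosure (A₀ := A₀) ({u} : Set F)) π) ^ n =
        algebraMap ↥(zchClosure (A₀ := A₀) ({u} : Set F)) F a := by
  obtain ⟨a, b, hb, rfl⟩ := IsFractionRing.div_surjective (A := A₀) e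
  have hb0 : b ≠ 0 := nonZeroDivisors.ne_zero hb
  obtain ⟨n, w, hw⟩ := IsDiscreteValuationRing.eq_unit_mul_pow_irreducible hb0 hπ
  refine ⟨n, algebraMap A₀ _ (a * ((w⁻¹ : A₀ˣ) : A₀)), ?_⟩
  have hbE : algebraMap A₀ E b ≠ 0 :=
    (map_ne_zero_iff _ (IsFractionRing.injective A₀ E)).2 hb0
  have e1 : algebraMap ↥(zchClosure (A₀ := A₀) ({u} : Set F)) F
      (algebraMap A₀ ↥(zchClosure (A₀ := A₀) ({u} : Set F)) π) = algebraMap A₀ F π := rfl
  have e2 : algebraMap ↥(zchClosure (A₀ := A₀) ({u} : Set F)) F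
      (algebraMap A₀ ↥(zchClosure (A₀ := A₀) ({u} : Set F)) (a * ((w⁻¹ : A₀ˣ) : A₀))) =
      algebraMap A₀ F (a * ((w⁻¹ : A₀ˣ) : A₀)) := rfl
  rw [e1, e2, IsScalarTower.algebraMap_apply A₀ E F π,
    IsScalarTower.algebraMap_apply A₀ E F (a * _), ← map_pow, ← map_mul]
  congr 1
  have hwE : algebraMap A₀ E b = algebraMap A₀ E (w : A₀) * algebraMap A₀ E π ^ n := by
    rw [← map_pow, ← map_mul, ← hw]
  have hw0 : algebraMap A₀ E (w : A₀) ≠ 0 :=
    (map_ne_zero_iff _ (IsFractionRing.injective A₀ E)).2 w.ne_zero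
  have hπ0 : algebraMap A₀ E π ≠ 0 :=
    (map_ne_zero_iff _ (IsFractionRing.injective A₀ E)).2 hπ.ne_zero
  have hwinv : algebraMap A₀ E ((w⁻¹ : A₀ˣ) : A₀) = (algebraMap A₀ E (w : A₀))⁻¹ := by
    apply eq_inv_of_mul_eq_one_left
    rw [← map_mul, Units.inv_mul, map_one]
  rw [map_mul, hwinv, hwE]
  field_simp

/-- (KR) from (SS1) -/
theorem ribmp_fac_hKR (hπ0 : algebraMap A₀ F π ≠ 0) {u : F} (V : κ → ValuationSubring F)
    (hπV : ∀ c, algebraMap A₀ F π ∈ (V c).nonunits)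
    (hSS1 : ∀ b : F, IsIntegral ↥(Algebra.adjoin A₀ {u}) b → (∀ c, b ∈ (V c).nonunits) →
      ∃ b' : F, IsIntegral ↥(Algebra.adjoin A₀ {u}) b' ∧ b = algebraMap A₀ F π * b')
    (x : F)
    (hx : ∃ b : ↥(zchClosure (A₀ := A₀) ({u} : Set F)),
      algebraMap ↥(zchClosure (A₀ := A₀) ({u} : Set F)) F
        (algebraMap A₀ ↥(zchClosure (A₀ := A₀) ({u} : Set F)) π) * x =
        algebraMap ↥(zchClosure (A₀ := A₀) ({u} : Set F)) F b)
    (hxV : ∀ c, x ∈ V c) :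
    ∃ b : ↥(zchClosure (A₀ := A₀) ({u} : Set F)),
      x = algebraMap ↥(zchClosure (A₀ := A₀) ({u} : Set F)) F b := by
  obtain ⟨b, hb⟩ := hx
  have hb' : (b : F) = algebraMap A₀ F π * x := hb.symm
  obtain ⟨b', hb'int, hbb'⟩ := hSS1 (b : F) b.2 (fun c => by
    rw [hb', mul_comm]
    exact pwi_mul_mem_nonunits (V c) (hxV c) (hπV c))
  refine ⟨⟨b', hb'int⟩, ?_⟩
  show x = b'
  rw [hb'] at hbb'
  exact mul_left_cancel₀ hπ0 hbb'

/-- **MP-FAC at a factorial closed point of a chart with reduced special fibre.** -/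
theorem ribmp_fac_ufd_chart (hπ : Irreducible π) {u : F} [FiniteDimensional E⟮u⟯ F]
    [Finite κ] (V : κ → ValuationSubring F)
    (hBV : ∀ c (b : F), IsIntegral ↥(Algebra.adjoin A₀ {u}) b → b ∈ V c)
    (hπV : ∀ c, algebraMap A₀ F π ∈ (V c).nonunits)
    (hSS1 : ∀ b : F, IsIntegral ↥(Algebra.adjoin A₀ {u}) b → (∀ c, b ∈ (V c).nonunits) →
      ∃ b' : F, IsIntegral ↥(Algebra.adjoin A₀ {u}) b' ∧ b = algebraMap A₀ F π * b')
    (hU : ∀ c (x : F), x ∈ (V c).nonunits → ∃ z ∈ V c, x = algebraMap A₀ F π * z)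
    (𝔫 : AtPt (F := F) π u) (hufd : UniqueFactorizationMonoid ↥(atLoc 𝔫))
    (m : ℕ) (y : F) (hy : y ≠ 0) (hhor : ∀ P : Place E F, (m : ℤ) ∣ P.ord y)
    (hunit : ∀ c, (V c).valuation y = 1) :
    StbFacAt (atLoc 𝔫) m y := by
  haveI := 𝔫.2.1.isPrime
  haveI : UniqueFactorizationMonoid ↥(ls_localSubring (F := F) 𝔫.1) := hufd
  have hπ0 : algebraMap A₀ F π ≠ 0 := ei_algebraMap_ne_zero (E := E) hπ
  exact s36n2p_fac (E := E) (B := ↥(zchClosure (A₀ := A₀) ({u} : Set F)))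
    Subtype.val_injective 𝔫.1 V (fun c b => hBV c _ b.2)
    (algebraMap A₀ ↥(zchClosure (A₀ := A₀) ({u} : Set F)) π)
    (ribmp_fac_hKR hπ0 V hπV hSS1) 1
    (fun c x hx => by
      obtain ⟨z, hz, hxz⟩ := hU c x hx
      exact ⟨z, hz, by rw [pow_one, hxz]; rfl⟩)
    hπ0 hπV (ribmp_fac_hE hπ u) (ribmp_fac_hfrac (E := E) u) m y hy hhor
    (fun c _ => hunit c)

/-- **MP-FAC on the two charts `t`, `t⁻¹`**, from factoriality of all local rings. -/
theorem ribmp_fac_ufd_charts (hπ : Irreducible π) {t : F} (ht : Transcendental E t)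
    [FiniteDimensional E⟮t⟯ F] [Finite κ] (V : κ → ValuationSubring F)
    (hBV₁ : ∀ c (b : F), IsIntegral ↥(Algebra.adjoin A₀ {t}) b → b ∈ V c)
    (hBV₂ : ∀ c (b : F), IsIntegral ↥(Algebra.adjoin A₀ {t⁻¹}) b → b ∈ V c)
    (hπV : ∀ c, algebraMap A₀ F π ∈ (V c).nonunits)
    (hSS1 : ∀ b : F, IsIntegral ↥(Algebra.adjoin A₀ {t}) b → (∀ c, b ∈ (V c).nonunits) →
      ∃ b' : F, IsIntegral ↥(Algebra.adjoin A₀ {t}) b' ∧ b = algebraMap A₀ F π * b')
    (hU : ∀ c (x : F), x ∈ (V c).nonunits → ∃ z ∈ V c, x = algebraMap A₀ F π * z)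
    (hufd : ∀ i : AtPt (F := F) π t ⊕ AtPt (F := F) π t⁻¹,
      UniqueFactorizationMonoid ↥(atO π t i))
    (m : ℕ) (y : F) (hy : y ≠ 0) (hhor : ∀ P : Place E F, (m : ℤ) ∣ P.ord y)
    (hunit : ∀ c, (V c).valuation y = 1) :
    ∀ i : AtPt (F := F) π t ⊕ AtPt (F := F) π t⁻¹, StbFacAt (atO π t i) m y := by
  haveI : FiniteDimensional E⟮t⁻¹⟯ F := at_finiteDimensional_inv t
  rintro (𝔫 | 𝔫)
  · exact ribmp_fac_ufd_chart (E := E) hπ V hBV₁ hπV hSS1 hU 𝔫 (hufd (Sum.inl 𝔫)) m y hy hhor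
      hunit
  · exact ribmp_fac_ufd_chart (E := E) hπ V hBV₂ hπV (ats_SS1_inv ht hπ V hBV₁ hSS1) hU 𝔫
      (hufd (Sum.inr 𝔫)) m y hy hhor hunit

end Chart

end Fermat.Agent.RIB.MP


end ZBS36_005_2

/-! ### bundled: `Fermat.Agent.RIB.MP.FacConc` -/
section ZBS36_005_3
/-
Row 37, Mazur's principle, piece MP-FAC (helper95), part 4: the CONCRETE globals for the two
vertical valuation rings `mgvV` of `F_{Mq}(K₀)` (`K₀ ⊇ ℚ̄^I`, `A ∩ K₀` a DVR), as NAMED theorems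
(consumers: MP-FAC top, helper54's `RT/K6/DLFPt.lean`).

`A` a valuation subring of `ℚ̄` over `q`, `q ∤ M`, (`q = 2 → 3 ∣ M`), (`q = 3 → 2 ∣ M`),
`A₀ = A ∩ K₀`, `π` a uniformizer, `F = F_{Mq}(K₀)`, `t = j`, `V = mgvV hπ ιC hq hqM`.

* `ribmp_fc_hBV₁/₂`, `ribmp_fc_hπV`, `ribmp_fc_hπ0` : the charts lie in `V c`, `π ∈ 𝔪(V c)`;
* `ribmp_fc_hSS1`, `ribmp_fc_hSS1_inv` : (SS1) `B ∩ ⋂ 𝔪(V c) = π B` on the charts `j`, `1 / j`;
* `ribmp_fc_hU` : (UNIF) `𝔪(V c) = π V c`;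
* `ribmp_fc_hKR`, `ribmp_fc_hKR_inv` : (KR) in the shape of `S36.s36n2p_fac`;
* `ribmp_fc_hE`, `ribmp_fc_hfrac` (+ `_inv`) : constants and fractions;
* `ribmp_fc_trans`, `ribmp_fc_fin` : `j` transcendental, `F / K₀(j)` finite;
* `ribmp_fc_hhor` : the horizontal hypothesis descends from `F_N(ℚ̄)`;
* `ribmp_fc_main` : **MP-FAC at level `M q` over `K₀`, from factoriality of the local rings**.
-/

set_option autoImplicit false
set_option linter.unusedSectionVars false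
set_option linter.unusedVariables false
set_option linter.style.haveILetI false
set_option linter.style.longLine false
set_option synthInstance.maxHeartbeats 400000
set_option maxHeartbeats 1000000

noncomputable section

namespace Fermat.Agent.RIB.MP

open ModularCurve Polynomial IntermediateField Fermat.Agent.INJ Fermat.Agent.AL AlgebraicCurve
open Fermat.Agent.ES Fermat.Agent.ES.G2 Fermat.Agent.STB Fermat.Agent.UNIP Fermat.Agent.S36

section Conc

variable {A : ValuationSubring Qb} {K₀ : IntermediateField ℚ Qb}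
  [IsDiscreteValuationRing ↥(beta0Ring A K₀)] {π : ↥(beta0Ring A K₀)} (hπ : Irreducible π)
  (ιC : ↥K₀ →+* ℂ) {q M : ℕ} [NeZero q] [NeZero M] [NeZero (M * q)]
  (hq : q.Prime) (hqM : ¬ q ∣ M)

include hπ in
/-- `π ≠ 0` in `F` -/
theorem ribmp_fc_hπ0 :
    algebraMap ↥(beta0Ring A K₀) ↥(modularFunctionFieldFullC ↥K₀ (M * q)) π ≠ 0 :=
  ei_algebraMap_ne_zero (E := ↥K₀) hπ

/-- **(UNIF)** `𝔪(V c) = π V c` -/
theorem ribmp_fc_hU (c : Bool) (x : ↥(modularFunctionFieldFullC ↥K₀ (M * q)))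
    (hx : x ∈ (mgvV hπ ιC hq hqM c).nonunits) :
    ∃ z ∈ mgvV hπ ιC hq hqM c,
      x = algebraMap ↥(beta0Ring A K₀) ↥(modularFunctionFieldFullC ↥K₀ (M * q)) π * z :=
  Fermat.Agent.S33.wdb_mgv_hunif hπ ιC hq hqM c x hx

/-- **(SS1)**, chart `j` -/
theorem ribmp_fc_hSS1 (hA : A.LiesOverPrime q) (hE : beta0Field A ≤ K₀)
    (h2 : q = 2 → 3 ∣ M) (h3 : q = 3 → 2 ∣ M) :
    ∀ b : ↥(modularFunctionFieldFullC ↥K₀ (M * q)),
      IsIntegral ↥(Algebra.adjoin ↥(beta0Ring A K₀)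
        ({bgJ ↥K₀ (M * q)} : Set ↥(modularFunctionFieldFullC ↥K₀ (M * q)))) b →
      (∀ c, b ∈ (mgvV hπ ιC hq hqM c).nonunits) →
      ∃ b' : ↥(modularFunctionFieldFullC ↥K₀ (M * q)),
        IsIntegral ↥(Algebra.adjoin ↥(beta0Ring A K₀)
          ({bgJ ↥K₀ (M * q)} : Set ↥(modularFunctionFieldFullC ↥K₀ (M * q)))) b' ∧
        b = algebraMap ↥(beta0Ring A K₀) ↥(modularFunctionFieldFullC ↥K₀ (M * q)) π * b' :=
  mgcb_reg_SS1_J hπ ιC hq hqM hA (stb_regChart_conc_J M hq hA hE hπ hqM h2 h3)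

/-- **(SS1)**, chart `1 / j` -/
theorem ribmp_fc_hSS1_inv (hA : A.LiesOverPrime q) (hE : beta0Field A ≤ K₀)
    (h2 : q = 2 → 3 ∣ M) (h3 : q = 3 → 2 ∣ M) :
    ∀ b : ↥(modularFunctionFieldFullC ↥K₀ (M * q)),
      IsIntegral ↥(Algebra.adjoin ↥(beta0Ring A K₀)
        ({(bgJ ↥K₀ (M * q))⁻¹} : Set ↥(modularFunctionFieldFullC ↥K₀ (M * q)))) b →
      (∀ c, b ∈ (mgvV hπ ιC hq hqM c).nonunits) →
      ∃ b' : ↥(modularFunctionFieldFullC ↥K₀ (M * q)),
        IsIntegral ↥(Algebra.adjoin ↥(beta0Ring A K₀)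
          ({(bgJ ↥K₀ (M * q))⁻¹} : Set ↥(modularFunctionFieldFullC ↥K₀ (M * q)))) b' ∧
        b = algebraMap ↥(beta0Ring A K₀) ↥(modularFunctionFieldFullC ↥K₀ (M * q)) π * b' :=
  mgcb_reg_SS1_Jinv hπ ιC hq hqM hA (stb_regChart_conc_Jinv M hq hA hE hπ hqM h2 h3)

/-- `j` is transcendental over `K₀` -/
theorem ribmp_fc_trans (N : ℕ) [NeZero N] : Transcendental ↥K₀ (bgJ ↥K₀ N) :=
  bgConst_transcendental_bgJ ↥K₀ N

/-- `F_N(K₀) / K₀(j)` is finite -/
theorem ribmp_fc_fin (N : ℕ) [NeZero N] :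
    FiniteDimensional (↥K₀)⟮bgJ ↥K₀ N⟯ ↥(modularFunctionFieldFullC ↥K₀ N) :=
  bgFin_finiteDimensional_full ↥K₀ N

/-- `F_N(K₀) / K₀(1 / j)` is finite -/
theorem ribmp_fc_fin_inv (N : ℕ) [NeZero N] :
    FiniteDimensional (↥K₀)⟮(bgJ ↥K₀ N)⁻¹⟯ ↥(modularFunctionFieldFullC ↥K₀ N) := by
  haveI := ribmp_fc_fin (K₀ := K₀) N
  exact at_finiteDimensional_inv (bgJ ↥K₀ N)

/-- **(KR)**, chart `j`, in the shape of `S36.s36n2p_fac` -/
theorem ribmp_fc_hKR (hA : A.LiesOverPrime q) (hE : beta0Field A ≤ K₀)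
    (h2 : q = 2 → 3 ∣ M) (h3 : q = 3 → 2 ∣ M)
    (x : ↥(modularFunctionFieldFullC ↥K₀ (M * q)))
    (hx : ∃ b : ↥(zchClosure (A₀ := ↥(beta0Ring A K₀))
        ({bgJ ↥K₀ (M * q)} : Set ↥(modularFunctionFieldFullC ↥K₀ (M * q)))),
      algebraMap ↥(zchClosure (A₀ := ↥(beta0Ring A K₀))
          ({bgJ ↥K₀ (M * q)} : Set ↥(modularFunctionFieldFullC ↥K₀ (M * q)))) _
        (algebraMap ↥(beta0Ring A K₀) ↥(zchClosure (A₀ := ↥(beta0Ring A K₀))
          ({bgJ ↥K₀ (M * q)} : Set ↥(modularFunctionFieldFullC ↥K₀ (M * q)))) π) * x =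
        algebraMap ↥(zchClosure (A₀ := ↥(beta0Ring A K₀))
          ({bgJ ↥K₀ (M * q)} : Set ↥(modularFunctionFieldFullC ↥K₀ (M * q)))) _ b)
    (hxV : ∀ c, x ∈ mgvV hπ ιC hq hqM c) :
    ∃ b : ↥(zchClosure (A₀ := ↥(beta0Ring A K₀))
        ({bgJ ↥K₀ (M * q)} : Set ↥(modularFunctionFieldFullC ↥K₀ (M * q)))),
      x = algebraMap ↥(zchClosure (A₀ := ↥(beta0Ring A K₀))
        ({bgJ ↥K₀ (M * q)} : Set ↥(modularFunctionFieldFullC ↥K₀ (M * q)))) _ b :=
  ribmp_fac_hKR (ribmp_fc_hπ0 hπ) (mgvV hπ ιC hq hqM) (mgv_hπV hπ ιC hq hqM)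
    (ribmp_fc_hSS1 hπ ιC hq hqM hA hE h2 h3) x hx hxV

/-- **(KR)**, chart `1 / j` -/
theorem ribmp_fc_hKR_inv (hA : A.LiesOverPrime q) (hE : beta0Field A ≤ K₀)
    (h2 : q = 2 → 3 ∣ M) (h3 : q = 3 → 2 ∣ M)
    (x : ↥(modularFunctionFieldFullC ↥K₀ (M * q)))
    (hx : ∃ b : ↥(zchClosure (A₀ := ↥(beta0Ring A K₀))
        ({(bgJ ↥K₀ (M * q))⁻¹} : Set ↥(modularFunctionFieldFullC ↥K₀ (M * q)))),
      algebraMap ↥(zchClosure (A₀ := ↥(beta0Ring A K₀))
          ({(bgJ ↥K₀ (M * q))⁻¹} : Set ↥(modularFunctionFieldFullC ↥K₀ (M * q)))) _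
        (algebraMap ↥(beta0Ring A K₀) ↥(zchClosure (A₀ := ↥(beta0Ring A K₀))
          ({(bgJ ↥K₀ (M * q))⁻¹} : Set ↥(modularFunctionFieldFullC ↥K₀ (M * q)))) π) * x =
        algebraMap ↥(zchClosure (A₀ := ↥(beta0Ring A K₀))
          ({(bgJ ↥K₀ (M * q))⁻¹} : Set ↥(modularFunctionFieldFullC ↥K₀ (M * q)))) _ b)
    (hxV : ∀ c, x ∈ mgvV hπ ιC hq hqM c) :
    ∃ b : ↥(zchClosure (A₀ := ↥(beta0Ring A K₀))
        ({(bgJ ↥K₀ (M * q))⁻¹} : Set ↥(modularFunctionFieldFullC ↥K₀ (M * q)))),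
      x = algebraMap ↥(zchClosure (A₀ := ↥(beta0Ring A K₀))
        ({(bgJ ↥K₀ (M * q))⁻¹} : Set ↥(modularFunctionFieldFullC ↥K₀ (M * q)))) _ b :=
  ribmp_fac_hKR (ribmp_fc_hπ0 hπ) (mgvV hπ ιC hq hqM) (mgv_hπV hπ ιC hq hqM)
    (ribmp_fc_hSS1_inv hπ ιC hq hqM hA hE h2 h3) x hx hxV

/-- the horizontal hypothesis descends from `F_N(ℚ̄)` to `F_N(K₀)` -/
theorem ribmp_fc_hhor (N : ℕ) (m : ℕ) (y : ↥(modularFunctionFieldFullC ↥K₀ N))
    (hhor : ∀ P : Place NfQb (modularFunctionFieldBar N), (m : ℤ) ∣ P.ord (nfEmb K₀ N y))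
    (Q : Place ↥K₀ ↥(modularFunctionFieldFullC ↥K₀ N)) : (m : ℤ) ∣ Q.ord y :=
  mg_dvd_ord K₀ N (m : ℤ) y hhor Q

/-- **MP-FAC at level `M q` over `K₀ ⊇ ℚ̄^I`, from factoriality of the local rings of the two
charts `j`, `1 / j`**: a function `y ≠ 0` whose divisor over `ℚ̄` is divisible by `m` and which is
a unit at the two vertical valuations is, at every closed point of the special fibre, a unit times
an `m`-th power. -/
theorem ribmp_fc_main (hA : A.LiesOverPrime q) (hE : beta0Field A ≤ K₀)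
    (h2 : q = 2 → 3 ∣ M) (h3 : q = 3 → 2 ∣ M)
    (hufd : ∀ i : AtPt (F := ↥(modularFunctionFieldFullC ↥K₀ (M * q))) π (bgJ ↥K₀ (M * q)) ⊕
        AtPt (F := ↥(modularFunctionFieldFullC ↥K₀ (M * q))) π (bgJ ↥K₀ (M * q))⁻¹,
      UniqueFactorizationMonoid ↥(atO π (bgJ ↥K₀ (M * q)) i))
    (m : ℕ) (y : ↥(modularFunctionFieldFullC ↥K₀ (M * q))) (hy : y ≠ 0)
    (hhor : ∀ P : Place NfQb (modularFunctionFieldBar (M * q)),
      (m : ℤ) ∣ P.ord (nfEmb K₀ (M * q) y))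
    (hunit : ∀ c, (mgvV hπ ιC hq hqM c).valuation y = 1) :
    ∀ i : AtPt (F := ↥(modularFunctionFieldFullC ↥K₀ (M * q))) π (bgJ ↥K₀ (M * q)) ⊕
        AtPt (F := ↥(modularFunctionFieldFullC ↥K₀ (M * q))) π (bgJ ↥K₀ (M * q))⁻¹,
      StbFacAt (atO π (bgJ ↥K₀ (M * q)) i) m y := by
  haveI := ribmp_fc_fin (K₀ := K₀) (M * q)
  exact ribmp_fac_ufd_charts (E := ↥K₀) hπ (ribmp_fc_trans (M * q)) (mgvV hπ ιC hq hqM)
    (mgv_hBV₁ hπ ιC hq hqM) (mgv_hBV₂ hπ ιC hq hqM) (mgv_hπV hπ ιC hq hqM)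
    (ribmp_fc_hSS1 hπ ιC hq hqM hA hE h2 h3) (ribmp_fc_hU hπ ιC hq hqM) hufd m y hy
    (ribmp_fc_hhor (M * q) m y hhor) hunit

end Conc

end Fermat.Agent.RIB.MP

end
end ZBS36_005_3

/-! ### bundled: `Fermat.Agent.S36.RegAlgDvd` -/
section ZBS36_005_4

/-!
# S36 (Carayol), wall Q2-loc: the crossing criterion with a LOWER bound only (helper37)

In `s36reg_span_eq` the hypothesis `hu : ∀ f ∈ 𝔭, u ∣ f ^ n` already gives `u ∣ s ^ n`, i.e. the
order of the image of `u` along `𝔮` is `≤ n`.  Hence only the lower bound is an input: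

* `s36reg_associated_of_dvd` : `u ∣ s ^ n` and `mk s ^ n ∣ mk u` in `O ⧸ 𝔮` `⇒` associated;
* `s36reg_span_eq_of_dvd` (R1'): `𝔭 = (s)` from `hu` and `mk s ^ n ∣ mk u`;
* `s36reg_ufd_of_crossing_of_dvd` (R0 + R1'): factoriality at a crossing point from `hu` and
  `ϖ ^ n ∣ mk u` for one (every) uniformizer `ϖ` of `O ⧸ 𝔮`;
* `s36reg_ufd_of_crossing_of_mem` : the same with the hypothesis `u ∈ 𝔪 ^ n ⊔ 𝔮`.
-/

set_option autoImplicit false
set_option linter.style.haveILetI false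
set_option linter.unusedSectionVars false
set_option linter.unnecessarySimpa false

namespace Fermat.Agent.S36

open Ideal

section R1

variable {O : Type*} [CommRing O] [IsLocalRing O]

/-- `u ∣ s ^ n` in `O` and `mk s ^ n ∣ mk u` in the domain `O ⧸ 𝔮`: the images are associated. -/
theorem s36reg_associated_of_dvd (𝔮 : Ideal O) [𝔮.IsPrime] {s u : O} {n : ℕ}
    (h : u ∣ s ^ n)
    (hge : Ideal.Quotient.mk 𝔮 s ^ n ∣ Ideal.Quotient.mk 𝔮 u) :
    Associated (Ideal.Quotient.mk 𝔮 u) (Ideal.Quotient.mk 𝔮 s ^ n) := by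
  refine associated_of_dvd_dvd ?_ hge
  rw [← map_pow]
  exact map_dvd _ h

variable [IsDomain O] [IsIntegrallyClosed O]

/-- **(R1')**: `𝔭 = (s)`, lower-bound form.  `O` an integrally closed local domain, `s ∈ 𝔭`,
`u ∣ f ^ n` for every `f ∈ 𝔭`, and the image of `u` in `O ⧸ 𝔮` is divisible by the `n`-th power
of the image of `s`. -/
theorem s36reg_span_eq_of_dvd (𝔭 𝔮 : Ideal O) [𝔮.IsPrime] {s u : O} {n : ℕ} (hn : n ≠ 0)
    (hs𝔭 : s ∈ 𝔭) (hs : s ∉ 𝔮) (hu : ∀ f ∈ 𝔭, u ∣ f ^ n)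
    (hge : Ideal.Quotient.mk 𝔮 s ^ n ∣ Ideal.Quotient.mk 𝔮 u) :
    𝔭 = Ideal.span {s} :=
  s36reg_span_eq 𝔭 𝔮 hn hs𝔭 hs hu (s36reg_associated_of_dvd 𝔮 (hu s hs𝔭) hge)

end R1

section Crossing

variable {O : Type*} [CommRing O] [IsLocalRing O]
variable [IsDomain O] [IsNoetherianRing O] [IsIntegrallyClosed O]

/-- **(R0) + (R1'): factoriality at a crossing point, lower-bound form.**  As
`s36reg_ufd_of_crossing`, but the image of `u` in `O ⧸ 𝔮` is only required to be divisible by the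
`n`-th power of a uniformizer (the upper bound is automatic). -/
theorem s36reg_ufd_of_crossing_of_dvd (𝔭 𝔮 : Ideal O) [𝔭.IsPrime] [𝔮.IsPrime] (h𝔭 : 𝔭 ≠ ⊥)
    (htr : 𝔭 ⊔ 𝔮 = IsLocalRing.maximalIdeal O)
    [IsPrincipalIdealRing (O ⧸ 𝔭)] [IsDiscreteValuationRing (O ⧸ 𝔮)]
    {u : O} {n : ℕ} (hn : n ≠ 0) (hu : ∀ f ∈ 𝔭, u ∣ f ^ n)
    (hge : ∃ ϖ : O ⧸ 𝔮, Irreducible ϖ ∧ ϖ ^ n ∣ Ideal.Quotient.mk 𝔮 u) :
    (∃ s : O, Prime s ∧ 𝔭 = Ideal.span {s}) ∧ UniqueFactorizationMonoid O := by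
  refine s36reg_ufd_of_crossing 𝔭 𝔮 h𝔭 htr hn hu ?_
  intro ϖ' hϖ'
  obtain ⟨ϖ, hϖ, hdvd⟩ := hge
  obtain ⟨s, hs𝔭, hsirr⟩ := s36reg_exists_transversal 𝔭 𝔮 htr
  -- all uniformizers are associated
  have h1 : Associated ϖ (Ideal.Quotient.mk 𝔮 s) :=
    IsDiscreteValuationRing.associated_of_irreducible _ hϖ hsirr
  have h2 : Associated (Ideal.Quotient.mk 𝔮 s) ϖ' :=
    IsDiscreteValuationRing.associated_of_irreducible _ hsirr hϖ'
  have hge' : Ideal.Quotient.mk 𝔮 s ^ n ∣ Ideal.Quotient.mk 𝔮 u :=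
    (h1.pow_pow (n := n)).symm.dvd.trans hdvd
  exact (s36reg_associated_of_dvd 𝔮 (hu s hs𝔭) hge').trans (h2.pow_pow)

/-- The same with the hypothesis `u ∈ 𝔪 ^ n ⊔ 𝔮` (the image of `u` in `O ⧸ 𝔮` lies in the `n`-th
power of the maximal ideal). -/
theorem s36reg_ufd_of_crossing_of_mem (𝔭 𝔮 : Ideal O) [𝔭.IsPrime] [𝔮.IsPrime] (h𝔭 : 𝔭 ≠ ⊥)
    (htr : 𝔭 ⊔ 𝔮 = IsLocalRing.maximalIdeal O)
    [IsPrincipalIdealRing (O ⧸ 𝔭)] [IsDiscreteValuationRing (O ⧸ 𝔮)]
    {u : O} {n : ℕ} (hn : n ≠ 0) (hu : ∀ f ∈ 𝔭, u ∣ f ^ n)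
    (hmem : u ∈ (IsLocalRing.maximalIdeal O) ^ n ⊔ 𝔮) :
    (∃ s : O, Prime s ∧ 𝔭 = Ideal.span {s}) ∧ UniqueFactorizationMonoid O := by
  refine s36reg_ufd_of_crossing_of_dvd 𝔭 𝔮 h𝔭 htr hn hu ?_
  obtain ⟨s, hs𝔭, hsirr⟩ := s36reg_exists_transversal 𝔭 𝔮 htr
  refine ⟨_, hsirr, ?_⟩
  -- `𝔪 ^ n ⊔ 𝔮 = (s) ^ n ⊔ 𝔮`, since `𝔪 = (s) ⊔ 𝔮` modulo `𝔮`
  obtain ⟨a, ha, b, hb, rfl⟩ := Submodule.mem_sup.1 hmem
  have hmk : Ideal.Quotient.mk 𝔮 (a + b) = Ideal.Quotient.mk 𝔮 a := by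
    rw [map_add, Ideal.Quotient.eq_zero_iff_mem.2 hb, add_zero]
  rw [hmk]
  -- the image of `𝔪` in `O ⧸ 𝔮` is generated by `mk s`
  have hmax : Ideal.map (Ideal.Quotient.mk 𝔮) (IsLocalRing.maximalIdeal O) =
      Ideal.span {Ideal.Quotient.mk 𝔮 s} := by
    have hle : Ideal.map (Ideal.Quotient.mk 𝔮) (IsLocalRing.maximalIdeal O) ≤
        IsLocalRing.maximalIdeal (O ⧸ 𝔮) := by
      rw [Ideal.map_le_iff_le_comap]
      intro x hx
      rw [Ideal.mem_comap, IsLocalRing.mem_maximalIdeal]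
      intro hxu
      have hq : 𝔮 ≤ IsLocalRing.maximalIdeal O :=
        IsLocalRing.le_maximalIdeal (Ideal.IsPrime.ne_top ‹_›)
      obtain ⟨d, hd⟩ := hxu.exists_right_inv
      obtain ⟨d', rfl⟩ := Ideal.Quotient.mk_surjective d
      rw [← map_mul, ← map_one (Ideal.Quotient.mk 𝔮), Ideal.Quotient.eq] at hd
      have h5 : (1 : O) ∈ IsLocalRing.maximalIdeal O := by
        have := (IsLocalRing.maximalIdeal O).sub_mem
          ((IsLocalRing.maximalIdeal O).mul_mem_right d' hx) (hq hd)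
        simpa using this
      exact (Ideal.ne_top_iff_one _).1 (IsLocalRing.maximalIdeal.isMaximal O).ne_top h5
    have hirr : IsLocalRing.maximalIdeal (O ⧸ 𝔮) = Ideal.span {Ideal.Quotient.mk 𝔮 s} :=
      (IsDiscreteValuationRing.irreducible_iff_uniformizer _).1 hsirr
    refine le_antisymm (hle.trans hirr.le) ?_
    rw [Ideal.span_singleton_le_iff_mem]
    refine Ideal.mem_map_of_mem _ ?_
    rw [← htr]
    exact Ideal.mem_sup_left hs𝔭
  have h1 : Ideal.Quotient.mk 𝔮 a ∈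
      Ideal.map (Ideal.Quotient.mk 𝔮) ((IsLocalRing.maximalIdeal O) ^ n) :=
    Ideal.mem_map_of_mem _ ha
  rw [Ideal.map_pow, hmax, Ideal.span_singleton_pow, Ideal.mem_span_singleton] at h1
  exact h1

end Crossing

end Fermat.Agent.S36


end ZBS36_005_4

/-! ### bundled: `Fermat.Agent.S36.ThinNode` -/
section ZBS36_005_5

/-!
# S36 (Carayol), G-thin (T4a): the thin node, abstract chart form (helper37)

`B` a Noetherian integrally closed domain (the chart of level `M q`), `ρ, ρ₀ : B →+* L` the two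
reductions (`L` a domain), `𝔫` a prime ideal containing both kernels (a crossing point), with the
local coordinates of UNIP (SS3): `ρ X = 0`, `ρ₀ Y = 0`, `X` a local parameter of the branch `ρ₀`,
`Y` a local parameter of the branch `ρ`, `𝔫 = (π, X, Y)` locally.  If moreover

* `hu : ρ f = 0 → U ∣ f ^ n`   (helper80: `s36tu_hu`, `n = 12`),
* `hord : ∃ s ∉ 𝔫, s · U ∈ 𝔫 ^ n + ker ρ₀`   (`s36tk_hord`: `ord_x ρ₀(U) ≥ n`),

then **`ker ρ` is generated by `X` at `𝔫`** and `B_𝔫` is factorial.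
-/

set_option autoImplicit false
set_option linter.style.haveILetI false
set_option linter.unusedSectionVars false
set_option linter.unusedVariables false

namespace Fermat.Agent.S36

open Fermat.Agent.UNIP

section Node

variable {B L : Type*} [CommRing B] [IsDomain B] [CommRing L] [IsDomain L]

/-- the image of `𝔫` in `B_𝔫 ⧸ 𝔮 B_𝔫` is generated by the image of a local parameter of the
branch `ρ₀`. -/
theorem s36thin_node_mk_mem (ρ₀ : B →+* L) (𝔫 : Ideal B) [h𝔫 : 𝔫.IsPrime]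
    {X : B} (hsX : NodesSmoothAt ρ₀ 𝔫 X) (b : B) (hb : b ∈ 𝔫) :
    Ideal.Quotient.mk ((RingHom.ker ρ₀).map (algebraMap B (Localization.AtPrime 𝔫)))
        (algebraMap B (Localization.AtPrime 𝔫) b) ∈
      Ideal.span {Ideal.Quotient.mk ((RingHom.ker ρ₀).map (algebraMap B (Localization.AtPrime 𝔫)))
        (algebraMap B (Localization.AtPrime 𝔫) X)} := by
  obtain ⟨u, v, hu, huv⟩ := hsX.2 b hb
  set a := algebraMap B (Localization.AtPrime 𝔫)
  set 𝔮 := (RingHom.ker ρ₀).map a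
  have hker : u * b - v * X ∈ RingHom.ker ρ₀ := by
    rw [RingHom.mem_ker, map_sub, huv, sub_self]
  have h1 : Ideal.Quotient.mk 𝔮 (a (u * b)) = Ideal.Quotient.mk 𝔮 (a (v * X)) := by
    rw [Ideal.Quotient.eq, ← map_sub]
    exact Ideal.mem_map_of_mem a hker
  have hunit : IsUnit (a u) := IsLocalization.map_units (Localization.AtPrime 𝔫)
    (⟨u, hu⟩ : 𝔫.primeCompl)
  obtain ⟨w, hw⟩ := hunit
  rw [Ideal.mem_span_singleton]
  refine ⟨Ideal.Quotient.mk 𝔮 ((↑w⁻¹ : Localization.AtPrime 𝔫) * a v), ?_⟩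
  have h2 : a b = (↑w⁻¹ : Localization.AtPrime 𝔫) * a (u * b) := by
    rw [map_mul, ← hw, ← mul_assoc, Units.inv_mul, one_mul]
  rw [h2, map_mul, h1, map_mul, map_mul, map_mul]
  ring

/-- **The thin node (abstract).** -/
theorem s36thin_node_abs [IsNoetherianRing B] [IsIntegrallyClosed B]
    (ρ ρ₀ : B →+* L) (𝔫 : Ideal B) [h𝔫 : 𝔫.IsPrime]
    (h𝔭 : RingHom.ker ρ ≤ 𝔫) (h𝔮 : RingHom.ker ρ₀ ≤ 𝔫)
    {π X Y : B} (hπ : ρ π = 0) (hπ₀ : ρ₀ π = 0) (hX : ρ X = 0) (hY : ρ₀ Y = 0)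
    (hsX : NodesSmoothAt ρ₀ 𝔫 X) (hsY : NodesSmoothAt ρ 𝔫 Y)
    (hX₀ : ρ₀ X ≠ 0)
    {U : B} {n : ℕ} (hn : n ≠ 0) (hu : ∀ f, ρ f = 0 → U ∣ f ^ n)
    (hord : ∃ s, s ∉ 𝔫 ∧ s * U ∈ 𝔫 ^ n ⊔ RingHom.ker ρ₀) :
    (∀ b, ρ b = 0 → ∃ u, u ∉ 𝔫 ∧ X ∣ u * b) ∧
      UniqueFactorizationMonoid (Localization.AtPrime 𝔫) := by
  classical
  set O := Localization.AtPrime 𝔫 with hO
  set a : B →+* O := algebraMap B O with ha
  haveI : IsIntegrallyClosed O :=
    isIntegrallyClosed_of_isLocalization O 𝔫.primeCompl 𝔫.primeCompl_le_nonZeroDivisors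
  have hainj : Function.Injective a :=
    IsLocalization.injective O 𝔫.primeCompl_le_nonZeroDivisors
  set 𝔭 : Ideal O := (RingHom.ker ρ).map a with h𝔭def
  set 𝔮 : Ideal O := (RingHom.ker ρ₀).map a with h𝔮def
  haveI hkρ : (RingHom.ker ρ).IsPrime := RingHom.ker_isPrime ρ
  haveI hkρ₀ : (RingHom.ker ρ₀).IsPrime := RingHom.ker_isPrime ρ₀
  have hdisj : Disjoint (𝔫.primeCompl : Set B) (RingHom.ker ρ : Set B) := by
    rw [Set.disjoint_left]
    intro x hx hx'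
    exact hx (h𝔭 hx')
  have hdisj₀ : Disjoint (𝔫.primeCompl : Set B) (RingHom.ker ρ₀ : Set B) := by
    rw [Set.disjoint_left]
    intro x hx hx'
    exact hx (h𝔮 hx')
  haveI h𝔭p : 𝔭.IsPrime :=
    IsLocalization.isPrime_of_isPrime_disjoint 𝔫.primeCompl O _ hkρ hdisj
  haveI h𝔮p : 𝔮.IsPrime :=
    IsLocalization.isPrime_of_isPrime_disjoint 𝔫.primeCompl O _ hkρ₀ hdisj₀
  have hcomap₀ : 𝔮.comap a = RingHom.ker ρ₀ :=
    IsLocalization.under_map_of_isPrime_disjoint 𝔫.primeCompl O hkρ₀ hdisj₀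
  have hunit : ∀ s : B, s ∉ 𝔫 → IsUnit (a s) := fun s hs =>
    IsLocalization.map_units O (⟨s, hs⟩ : 𝔫.primeCompl)
  -- the hypotheses of `s36reg_span_eq_of_dvd`
  have hs𝔭 : a X ∈ 𝔭 := Ideal.mem_map_of_mem a (RingHom.mem_ker.2 hX)
  have hs𝔮 : a X ∉ 𝔮 := by
    intro hmem
    have : X ∈ 𝔮.comap a := hmem
    rw [hcomap₀] at this
    exact hX₀ (RingHom.mem_ker.1 this)
  have hu' : ∀ f ∈ 𝔭, a U ∣ f ^ n := by
    intro f hf
    obtain ⟨⟨b, s⟩, hbs⟩ := (IsLocalization.mem_map_algebraMap_iff 𝔫.primeCompl O).1 hf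
    obtain ⟨c, hc⟩ := hu b.1 (RingHom.mem_ker.1 b.2)
    have h1 : a U ∣ (f * a s.1) ^ n := by
      rw [hbs, ← map_pow, hc, map_mul]
      exact dvd_mul_right _ _
    rw [mul_pow] at h1
    exact ((hunit s.1 s.2).pow n).dvd_mul_right.1 h1
  have hge : Ideal.Quotient.mk 𝔮 (a X) ^ n ∣ Ideal.Quotient.mk 𝔮 (a U) := by
    obtain ⟨s, hs, hsU⟩ := hord
    obtain ⟨m, hm, z, hz, hmz⟩ := Submodule.mem_sup.1 hsU
    -- the image of `𝔫 ^ n`
    have hmap : (𝔫.map ((Ideal.Quotient.mk 𝔮).comp a)) ≤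
        Ideal.span {Ideal.Quotient.mk 𝔮 (a X)} := by
      rw [Ideal.map_le_iff_le_comap]
      intro b hb
      exact s36thin_node_mk_mem ρ₀ 𝔫 hsX b hb
    have hm' : Ideal.Quotient.mk 𝔮 (a m) ∈ Ideal.span {Ideal.Quotient.mk 𝔮 (a X) ^ n} := by
      rw [← Ideal.span_singleton_pow]
      have h1 : ((Ideal.Quotient.mk 𝔮).comp a) m ∈ (𝔫 ^ n).map ((Ideal.Quotient.mk 𝔮).comp a) :=
        Ideal.mem_map_of_mem _ hm
      rw [Ideal.map_pow] at h1
      exact Ideal.pow_right_mono hmap n h1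
    have hz' : Ideal.Quotient.mk 𝔮 (a z) = 0 :=
      Ideal.Quotient.eq_zero_iff_mem.2 (Ideal.mem_map_of_mem a hz)
    have h2 : Ideal.Quotient.mk 𝔮 (a s) * Ideal.Quotient.mk 𝔮 (a U) =
        Ideal.Quotient.mk 𝔮 (a m) := by
      rw [← map_mul, ← map_mul, ← hmz, map_add, map_add, hz', add_zero]
    have h3 : IsUnit (Ideal.Quotient.mk 𝔮 (a s)) := (hunit s hs).map _
    rw [Ideal.mem_span_singleton, ← h2] at hm'
    exact h3.dvd_mul_left.1 hm'
  have hspan : 𝔭 = Ideal.span {a X} := s36reg_span_eq_of_dvd 𝔭 𝔮 hn hs𝔭 hs𝔮 hu' hge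
  refine ⟨?_, ?_⟩
  · intro b hb
    have hb' : a b ∈ 𝔭 := Ideal.mem_map_of_mem a (RingHom.mem_ker.2 hb)
    rw [hspan, Ideal.mem_span_singleton] at hb'
    obtain ⟨c, hc⟩ := hb'
    obtain ⟨⟨c', s⟩, hcs⟩ := IsLocalization.surj 𝔫.primeCompl c
    refine ⟨s.1, s.2, c', ?_⟩
    apply hainj
    rw [map_mul, map_mul, hc, ← hcs]
    ring
  · -- `B_𝔫` is factorial
    have hX0 : a X ≠ 0 := by
      intro h0
      apply hX₀
      have : X = 0 := hainj (h0.trans (map_zero a).symm)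
      rw [this, map_zero]
    have hprime : Prime (a X) := by
      rw [← Ideal.span_singleton_prime hX0, ← hspan]
      exact h𝔭p
    -- `O ⧸ 𝔭` is a principal ideal ring
    haveI hpir : IsPrincipalIdealRing (O ⧸ Ideal.span {a X}) := by
      rw [← hspan]
      haveI : IsLocalRing (O ⧸ 𝔭) :=
        IsLocalRing.of_surjective' (Ideal.Quotient.mk 𝔭) Ideal.Quotient.mk_surjective
      refine ((tfae_of_isNoetherianRing_of_isLocalRing_of_isDomain (O ⧸ 𝔭)).out 0 4).2 ?_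
      refine ⟨⟨Ideal.Quotient.mk 𝔭 (a Y), ?_⟩⟩
      show IsLocalRing.maximalIdeal (O ⧸ 𝔭) = Ideal.span {Ideal.Quotient.mk 𝔭 (a Y)}
      apply le_antisymm
      · intro x hx
        obtain ⟨y, rfl⟩ := Ideal.Quotient.mk_surjective x
        have hy : y ∈ IsLocalRing.maximalIdeal O := by
          rw [IsLocalRing.mem_maximalIdeal]
          intro hyu
          exact (IsLocalRing.mem_maximalIdeal _).1 hx (hyu.map _)
        obtain ⟨⟨b, s⟩, hbs⟩ := IsLocalization.surj 𝔫.primeCompl y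
        have hb : b ∈ 𝔫 := by
          by_contra hb
          have h1 : IsUnit (y * a s.1) := by
            rw [hbs]; exact hunit b hb
          exact (IsLocalRing.mem_maximalIdeal _).1 hy (isUnit_of_mul_isUnit_left h1)
        have h1 := s36thin_node_mk_mem ρ 𝔫 hsY b hb
        have h2 : IsUnit (Ideal.Quotient.mk 𝔭 (a s.1)) := (hunit s.1 s.2).map _
        have h3 : Ideal.Quotient.mk 𝔭 y * Ideal.Quotient.mk 𝔭 (a s.1) ∈
            Ideal.span {Ideal.Quotient.mk 𝔭 (a Y)} := by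
          rw [← map_mul, hbs]
          exact h1
        exact (Ideal.unit_mul_mem_iff_mem _ h2).1 (by rwa [mul_comm] at h3)
      · rw [Ideal.span_singleton_le_iff_mem, IsLocalRing.mem_maximalIdeal]
        intro hunitY
        -- `a Y` would be a unit of `O`
        have h1 : IsUnit (a Y) := by
          by_contra hnu
          have hmem : a Y ∈ IsLocalRing.maximalIdeal O := (IsLocalRing.mem_maximalIdeal _).2 hnu
          have h𝔭le : 𝔭 ≤ IsLocalRing.maximalIdeal O :=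
            IsLocalRing.le_maximalIdeal h𝔭p.ne_top
          obtain ⟨c, hc⟩ := hunitY.exists_right_inv
          obtain ⟨c', rfl⟩ := Ideal.Quotient.mk_surjective c
          rw [← map_mul, ← map_one (Ideal.Quotient.mk 𝔭), Ideal.Quotient.eq] at hc
          have h2 : a Y * c' ∈ IsLocalRing.maximalIdeal O := Ideal.mul_mem_right _ _ hmem
          have h3 : (1 : O) ∈ IsLocalRing.maximalIdeal O := by
            have h4 := Ideal.sub_mem _ h2 (h𝔭le hc)
            rwa [sub_sub_cancel] at h4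
          exact (IsLocalRing.mem_maximalIdeal _).1 h3 isUnit_one
        have h2 : Y ∈ 𝔫 := hsY.1
        exact (IsLocalization.AtPrime.isUnit_to_map_iff O 𝔫 Y).1 h1 h2
    exact s36reg_ufd_local hprime

/-- **`π = X · Y″` at the thin node**: if `ker ρ` is generated by `X` at `𝔫` and
`ker ρ ∩ ker ρ₀ = π B` (SS1), then `u π = X Y″` with `u ∉ 𝔫`, `ρ₀ Y″ = 0`, `ρ Y″ ≠ 0`
(so `X` is a uniformizer of the branch `ρ`, and `Y″` one of the branch `ρ₀`). -/
theorem s36thin_node_split (ρ ρ₀ : B →+* L) (𝔫 : Ideal B) [h𝔫 : 𝔫.IsPrime]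
    {π X : B} (hπ0 : π ≠ 0) (hπ : ρ π = 0) (hπ₀ : ρ₀ π = 0) (hX𝔫 : X ∈ 𝔫) (hX₀ : ρ₀ X ≠ 0)
    (hSS1 : ∀ x, ρ x = 0 → ρ₀ x = 0 → π ∣ x)
    (hgen : ∀ b, ρ b = 0 → ∃ u, u ∉ 𝔫 ∧ X ∣ u * b) :
    ∃ Y' u : B, u ∉ 𝔫 ∧ u * π = X * Y' ∧ ρ₀ Y' = 0 ∧ ρ Y' ≠ 0 := by
  obtain ⟨u, hu, Y', hY'⟩ := hgen π hπ
  refine ⟨Y', u, hu, hY', ?_, ?_⟩
  · have h1 : ρ₀ X * ρ₀ Y' = 0 := by
      rw [← map_mul, ← hY', map_mul, hπ₀, mul_zero]
    exact (mul_eq_zero.1 h1).resolve_left hX₀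
  · intro h0
    have h1 : ρ₀ X * ρ₀ Y' = 0 := by
      rw [← map_mul, ← hY', map_mul, hπ₀, mul_zero]
    have h2 : ρ₀ Y' = 0 := (mul_eq_zero.1 h1).resolve_left hX₀
    obtain ⟨y, hy⟩ := hSS1 Y' h0 h2
    rw [hy] at hY'
    have h3 : π * u = π * (X * y) := by
      rw [mul_comm π u, hY']; ring
    have h4 : u = X * y := mul_left_cancel₀ hπ0 h3
    exact hu (h4 ▸ 𝔫.mul_mem_right _ hX𝔫)

end Node

end Fermat.Agent.S36


end ZBS36_005_5

/-! ### bundled: `Fermat.Agent.RIB.MP.FacSmoothAlg` -/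
section ZBS36_005_6
/-
Row 37, Mazur's principle, piece MP-FAC / FacSmooth (helper67), the commutative algebra.

* `ribmp_fs_regular_or_zero` : in a reduced noetherian local ring with maximal ideal `(γ)`,
  either `γ = 0` or `γ` is a non-zero-divisor;
* `ribmp_fs_isDomain` : a reduced noetherian local ring with principal maximal ideal is a domain;
* `ribmp_fs_isPrincipalIdealRing` : … and a principal ideal ring (a field or a DVR);
* `ribmp_fs_ufd_local` : **regular of dimension two with reduced fibre ⇒ factorial**: `O` a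
  noetherian local domain, `𝔪 = (x, s)`, `x ≠ 0`, `O / x` reduced (`x ∣ c² → x ∣ c`); then `x` is
  a prime element, `O / x` is a principal ideal ring and `O` is a UFD (`s36reg_ufd_local`).
-/

set_option autoImplicit false
set_option linter.style.haveILetI false
set_option linter.unusedSectionVars false

namespace Fermat.Agent.RIB.MP

open Ideal IsLocalRing

section Reduced

variable {T : Type*} [CommRing T] [IsNoetherianRing T] [IsLocalRing T] [IsReduced T]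

/-- In a reduced noetherian local ring with maximal ideal `(γ)`, `γ ≠ 0` is regular. -/
theorem ribmp_fs_regular (γ : T) (hγ : maximalIdeal T = Ideal.span {γ}) (hγ0 : γ ≠ 0)
    (x : T) (hx : γ * x = 0) : x = 0 := by
  by_contra hx0
  have hne : maximalIdeal T ≠ ⊤ := Ideal.IsPrime.ne_top inferInstance
  have hkrull := Ideal.iInf_pow_eq_bot_of_isLocalRing (maximalIdeal T) hne
  have hex : ∃ k : ℕ, x ∉ maximalIdeal T ^ k := by
    by_contra hcon
    push Not at hcon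
    apply hx0
    have : x ∈ ⨅ i : ℕ, maximalIdeal T ^ i := by
      rw [Ideal.mem_iInf]; exact hcon
    rw [hkrull] at this
    exact this
  classical
  let k := Nat.find hex
  have hk : x ∉ maximalIdeal T ^ k := Nat.find_spec hex
  have hk0 : k ≠ 0 := by
    intro h0
    rw [h0, pow_zero, Ideal.one_eq_top] at hk
    exact hk trivial
  obtain ⟨j, hj⟩ := Nat.exists_eq_succ_of_ne_zero hk0
  have hjmem : x ∈ maximalIdeal T ^ j := by
    by_contra hcon
    have := Nat.find_min' hex hcon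
    omega
  rw [hγ, Ideal.span_singleton_pow, Ideal.mem_span_singleton] at hjmem
  obtain ⟨a, ha⟩ := hjmem
  -- `a` is a unit, else `x ∈ 𝔪 ^ k`
  have hau : IsUnit a := by
    by_contra hna
    have ham : a ∈ maximalIdeal T := (mem_maximalIdeal a).2 hna
    rw [hγ, Ideal.mem_span_singleton] at ham
    obtain ⟨b, hb⟩ := ham
    apply hk
    rw [hj, hγ, Ideal.span_singleton_pow, Ideal.mem_span_singleton]
    exact ⟨b, by rw [ha, hb, pow_succ]; ring⟩
  -- `γ ^ (j + 1) = 0`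
  have h0 : γ ^ (j + 1) * a = 0 := by
    rw [pow_succ', mul_assoc, ← ha, hx]
  have h1 : γ ^ (j + 1) = 0 := by
    obtain ⟨u, rfl⟩ := hau
    exact (Units.mul_left_eq_zero u).1 h0
  exact hγ0 (IsReduced.eq_zero γ ⟨j + 1, h1⟩)

/-- A reduced noetherian local ring with principal maximal ideal is a domain. -/
theorem ribmp_fs_isDomain (γ : T) (hγ : maximalIdeal T = Ideal.span {γ}) : IsDomain T := by
  by_cases hγ0 : γ = 0
  · have hbot : maximalIdeal T = ⊥ := by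
      rw [hγ, hγ0]
      exact Ideal.span_singleton_eq_bot.2 rfl
    exact (IsLocalRing.isField_iff_maximalIdeal_eq.2 hbot).isDomain
  · exact Fermat.Agent.INJ.isDomain_of_maximalIdeal_eq_span_of_regular γ hγ
      (ribmp_fs_regular γ hγ hγ0)

/-- A reduced noetherian local ring with principal maximal ideal is a principal ideal ring. -/
theorem ribmp_fs_isPrincipalIdealRing (γ : T) (hγ : maximalIdeal T = Ideal.span {γ}) :
    IsPrincipalIdealRing T := by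
  haveI := ribmp_fs_isDomain γ hγ
  have hpr : (maximalIdeal T).IsPrincipal := ⟨⟨γ, hγ⟩⟩
  exact ((tfae_of_isNoetherianRing_of_isLocalRing_of_isDomain T).out 4 0).1 hpr

end Reduced

section Regular

variable {O : Type*} [CommRing O] [IsDomain O] [IsNoetherianRing O] [IsLocalRing O]

/-- **Regular of dimension two with reduced fibre ⇒ prime fibre.** -/
theorem ribmp_fs_prime {x s : O} (hx0 : x ≠ 0)
    (hm : maximalIdeal O = Ideal.span {x, s})
    (hred : ∀ c : O, x ∣ c ^ 2 → x ∣ c) :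
    Prime x ∧ IsPrincipalIdealRing (O ⧸ Ideal.span {x}) := by
  set I : Ideal O := Ideal.span {x} with hI
  have hxm : x ∈ maximalIdeal O := by
    rw [hm]; exact Ideal.subset_span (Set.mem_insert _ _)
  have hxu : ¬ IsUnit x := (mem_maximalIdeal x).1 hxm
  have hIne : I ≠ ⊤ := by
    rw [hI, Ne, Ideal.span_singleton_eq_top]
    exact hxu
  haveI : Nontrivial (O ⧸ I) := Ideal.Quotient.nontrivial_iff.mpr hIne
  let mk : O →+* O ⧸ I := Ideal.Quotient.mk I
  have hmk : Function.Surjective mk := Ideal.Quotient.mk_surjective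
  haveI : IsLocalRing (O ⧸ I) := IsLocalRing.of_surjective' mk hmk
  haveI : IsReduced (O ⧸ I) := by
    rw [isReduced_iff_pow_one_lt 2 (by norm_num)]
    intro t ht
    obtain ⟨c, rfl⟩ := hmk t
    rw [← map_pow] at ht
    have h1 : c ^ 2 ∈ I := Ideal.Quotient.eq_zero_iff_mem.mp ht
    rw [hI, Ideal.mem_span_singleton] at h1
    exact Ideal.Quotient.eq_zero_iff_mem.mpr (Ideal.mem_span_singleton.2 (hred c h1))
  -- the maximal ideal of the quotient is generated by the image of `s`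
  have hmax : maximalIdeal (O ⧸ I) = Ideal.span {mk s} := by
    apply le_antisymm
    · intro t ht
      obtain ⟨c, rfl⟩ := hmk t
      have hc : c ∈ maximalIdeal O := by
        rw [mem_maximalIdeal, mem_nonunits_iff]
        intro hu
        exact (mem_maximalIdeal _).1 ht (hu.map mk)
      rw [hm, Ideal.mem_span_pair] at hc
      obtain ⟨a, b, hab⟩ := hc
      rw [Ideal.mem_span_singleton]
      refine ⟨mk b, ?_⟩
      have hx : mk x = 0 := Ideal.Quotient.eq_zero_iff_mem.mpr (Ideal.mem_span_singleton_self x)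
      rw [← hab, map_add, map_mul, map_mul, hx, mul_zero, zero_add, mul_comm]
    · rw [Ideal.span_le, Set.singleton_subset_iff]
      have hsm : s ∈ maximalIdeal O := by
        rw [hm]; exact Ideal.subset_span (Set.mem_insert_of_mem _ (Set.mem_singleton _))
      show mk s ∈ maximalIdeal (O ⧸ I)
      rw [mem_maximalIdeal, mem_nonunits_iff]
      intro hu
      obtain ⟨r', hr'⟩ := hmk (↑hu.unit⁻¹ : O ⧸ I)
      have h1 : mk (s * r' - 1) = 0 := by
        rw [map_sub, map_mul, hr', map_one, IsUnit.mul_val_inv, sub_self]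
      have h2 : s * r' - 1 ∈ I := Ideal.Quotient.eq_zero_iff_mem.mp h1
      have h3 : s * r' - 1 ∈ maximalIdeal O := by
        rw [hI] at h2
        exact (Ideal.span_singleton_le_iff_mem _).2 hxm h2
      have h4 : (1 : O) ∈ maximalIdeal O := by
        have : (1 : O) = s * r' - (s * r' - 1) := by ring
        rw [this]
        exact Ideal.sub_mem _ (Ideal.mul_mem_right _ _ hsm) h3
      exact (mem_maximalIdeal _).1 h4 isUnit_one
  haveI hdom : IsDomain (O ⧸ I) := ribmp_fs_isDomain (mk s) hmax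
  have hIp : I.IsPrime := (Ideal.Quotient.isDomain_iff_prime I).1 hdom
  exact ⟨(Ideal.span_singleton_prime hx0).1 hIp, ribmp_fs_isPrincipalIdealRing (mk s) hmax⟩

/-- **Regular of dimension two with reduced fibre ⇒ factorial.** -/
theorem ribmp_fs_ufd_local {x s : O} (hx0 : x ≠ 0)
    (hm : maximalIdeal O = Ideal.span {x, s})
    (hred : ∀ c : O, x ∣ c ^ 2 → x ∣ c) : UniqueFactorizationMonoid O := by
  obtain ⟨hprime, hpid⟩ := ribmp_fs_prime hx0 hm hred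
  haveI := hpid
  exact Fermat.Agent.S36.s36reg_ufd_local hprime

end Regular

end Fermat.Agent.RIB.MP


end ZBS36_005_6

/-! ### bundled: `Fermat.Agent.RIB.MP.FacSmooth` -/
section ZBS36_005_7
/-
Row 37, Mazur's principle, piece MP-FAC / FacSmooth (helper67): the local ring of a chart at a
SMOOTH point of the special fibre is factorial.

Setting of `STB/GluingChart.lean`: `B` a noetherian chart (`Algebra B F`, injective), `𝔫` a prime
of `B`, `O = ls_localSubring 𝔫 = B_𝔫 ⊆ F`.  Hypotheses (both are outputs of UNIP U5):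
 (SS2) `NodesLocGen 𝔫 {p, s}` : `𝔫 = (p, s)` locally (first alternative of `hU5`),
 (RED) `p ∣ c ^ 2 → p ∣ c` in `B` (`hred`: the special fibre is reduced).
No valuation, no (KR), no hypothesis "one component only" is needed: (SS2) + (RED) force the fibre
to be a DVR (or a field) at `𝔫`.

* `ribmp_fs_max_eq` : `𝔪(B_𝔫) = (p, s)`;
* `ribmp_fs_red_loc` : `p ∣ c ^ 2 → p ∣ c` in `B_𝔫`;
* `ribmp_fs_prime_chart` : `p` is a prime element of `B_𝔫` and `B_𝔫 / p` is a principal ideal ring;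
* `ribmp_fs_ufd_chart` : **`B_𝔫` is a UFD**;
* `ribmp_fs_ufd_atLoc`, `ribmp_fs_ufd_atO_inl`, `ribmp_fs_ufd_atO_inr` : the same for the charts
  `zchClosure {u}` of `UNIP/AbstractT.lean` (`atLoc 𝔫`, `atO π t i`).
-/

set_option autoImplicit false
set_option linter.style.haveILetI false
set_option linter.unusedSectionVars false
set_option linter.unusedVariables false

namespace Fermat.Agent.RIB.MP

open Fermat.Agent.UNIP Fermat.Agent.STB Fermat.Agent.S36 Fermat.Agent.INJ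

section Chart

variable {F : Type*} [Field F] {B : Type*} [CommRing B] [Algebra B F]
variable (hinj : Function.Injective (algebraMap B F)) (𝔫 : Ideal B) [h𝔫 : 𝔫.IsPrime]

include hinj in
/-- `𝔪(B_𝔫) = (p, s)` if `𝔫 = (p, s)` locally -/
theorem ribmp_fs_max_eq {p s : B} (hp : p ∈ 𝔫) (hs : s ∈ 𝔫) (hgen : NodesLocGen 𝔫 {p, s}) :
    haveI := ls_localSubring_isLocalRing (F := F) hinj 𝔫
    IsLocalRing.maximalIdeal (ls_localSubring (F := F) 𝔫) =
      Ideal.span {s36n2pToLoc (F := F) 𝔫 p, s36n2pToLoc (F := F) 𝔫 s} := by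
  haveI := ls_localSubring_isLocalRing (F := F) hinj 𝔫
  have h1 : (1 : B) ∉ 𝔫 := fun h => h𝔫.ne_top ((Ideal.eq_top_iff_one 𝔫).mpr h)
  apply le_antisymm
  · intro r hr
    obtain ⟨b, t, hb, ht, hbt⟩ := stb_gc_exists_of_mem_maximalIdeal hinj 𝔫 r hr
    obtain ⟨u, hu, hub⟩ := hgen b hb
    rw [Ideal.mem_span_pair] at hub
    obtain ⟨c₁, c₂, hc⟩ := hub
    have hut : u * t ∉ 𝔫 := fun h' => by
      rcases h𝔫.mem_or_mem h' with h'' | h''
      · exact hu h''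
      · exact ht h''
    have hunit : IsUnit (s36n2pToLoc (F := F) 𝔫 (u * t)) :=
      ls_isUnit_of_not_mem hinj 𝔫 _ (b := u * t) (s := 1) hut h1
        (by rw [map_one, one_mul]; rfl)
    have e1 : s36n2pToLoc (F := F) 𝔫 (u * t) * r =
        s36n2pToLoc (F := F) 𝔫 c₁ * s36n2pToLoc (F := F) 𝔫 p +
          s36n2pToLoc (F := F) 𝔫 c₂ * s36n2pToLoc (F := F) 𝔫 s := by
      apply Subtype.ext
      show algebraMap B F (u * t) * (r : F) =
        algebraMap B F c₁ * algebraMap B F p + algebraMap B F c₂ * algebraMap B F s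
      rw [map_mul, mul_assoc, hbt, ← map_mul, ← map_mul, ← map_mul, ← map_add, hc]
    obtain ⟨v, hv⟩ := hunit
    have e2 : r = (↑v⁻¹ : ls_localSubring (F := F) 𝔫) *
        (s36n2pToLoc (F := F) 𝔫 c₁ * s36n2pToLoc (F := F) 𝔫 p +
          s36n2pToLoc (F := F) 𝔫 c₂ * s36n2pToLoc (F := F) 𝔫 s) := by
      rw [← e1, ← hv, ← mul_assoc, Units.inv_mul, one_mul]
    rw [e2, Ideal.mem_span_pair]
    exact ⟨↑v⁻¹ * s36n2pToLoc (F := F) 𝔫 c₁, ↑v⁻¹ * s36n2pToLoc (F := F) 𝔫 c₂, by ring⟩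
  · rw [Ideal.span_le]
    rintro x (rfl | rfl)
    · exact stb_gc_mem_maximalIdeal hinj 𝔫 (s36n2pToLoc (F := F) 𝔫 p) (b := p) (s := 1) hp h1
        (by rw [map_one, one_mul]; rfl)
    · exact stb_gc_mem_maximalIdeal hinj 𝔫 (s36n2pToLoc (F := F) 𝔫 s) (b := s) (s := 1) hs h1
        (by rw [map_one, one_mul]; rfl)

include hinj in
/-- the fibre of `B_𝔫` over `p` is reduced if that of `B` is -/
theorem ribmp_fs_red_loc {p : B} (hred : ∀ c : B, p ∣ c ^ 2 → p ∣ c)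
    (c : ls_localSubring (F := F) 𝔫) (hc : s36n2pToLoc (F := F) 𝔫 p ∣ c ^ 2) :
    s36n2pToLoc (F := F) 𝔫 p ∣ c := by
  obtain ⟨d, hd⟩ := hc
  obtain ⟨b, t, ht, hbt⟩ := c.2
  obtain ⟨b', t', ht', hbt'⟩ := d.2
  have ht0 : algebraMap B F t ≠ 0 := stb_gc_algebraMap_ne_zero hinj 𝔫 ht
  have ht'0 : algebraMap B F t' ≠ 0 := stb_gc_algebraMap_ne_zero hinj 𝔫 ht'
  have hdF : (c : F) ^ 2 = algebraMap B F p * (d : F) := congrArg Subtype.val hd
  -- `(b t')² = p · (b' t' t²)` in `B`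
  have hB : (b * t') ^ 2 = p * (b' * t' * t ^ 2) := by
    apply hinj
    simp only [map_mul, map_pow]
    rw [← hbt, ← hbt']
    have : (algebraMap B F t * (c : F) * algebraMap B F t') ^ 2 =
        algebraMap B F t ^ 2 * algebraMap B F t' ^ 2 * (c : F) ^ 2 := by ring
    rw [this, hdF]
    ring
  obtain ⟨e, he⟩ := hred (b * t') ⟨_, hB⟩
  have htt' : t * t' ∉ 𝔫 := fun h' => by
    rcases h𝔫.mem_or_mem h' with h'' | h''
    · exact ht h''
    · exact ht' h''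
  have htt'0 : algebraMap B F (t * t') ≠ 0 := stb_gc_algebraMap_ne_zero hinj 𝔫 htt'
  -- the quotient `e / (t t')`
  have hq : algebraMap B F e / algebraMap B F (t * t') ∈ ls_localSubring (F := F) 𝔫 :=
    ⟨e, t * t', htt', by field_simp⟩
  refine ⟨⟨_, hq⟩, Subtype.ext ?_⟩
  show (c : F) = algebraMap B F p * (algebraMap B F e / algebraMap B F (t * t'))
  have h1 : algebraMap B F (t * t') * (c : F) = algebraMap B F p * algebraMap B F e := by
    rw [← map_mul (algebraMap B F) p e, ← he, map_mul, map_mul, ← hbt]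
    ring
  field_simp
  rw [mul_comm (c : F), h1]

include hinj in
/-- **`p` is a prime element of `B_𝔫`** and `B_𝔫 / p` is a principal ideal ring, at a smooth
point of a reduced fibre. -/
theorem ribmp_fs_prime_chart [IsNoetherianRing B] {p s : B} (hp : p ∈ 𝔫) (hs : s ∈ 𝔫)
    (hp0 : p ≠ 0) (hgen : NodesLocGen 𝔫 {p, s}) (hred : ∀ c : B, p ∣ c ^ 2 → p ∣ c) :
    Prime (s36n2pToLoc (F := F) 𝔫 p) ∧
      IsPrincipalIdealRing
        ((ls_localSubring (F := F) 𝔫) ⧸ Ideal.span {s36n2pToLoc (F := F) 𝔫 p}) := by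
  haveI := ls_localSubring_isLocalRing (F := F) hinj 𝔫
  haveI := s36n2p_isNoetherianRing (F := F) hinj 𝔫
  have hx0 : s36n2pToLoc (F := F) 𝔫 p ≠ 0 := by
    intro h
    have h' : algebraMap B F p = 0 := congrArg Subtype.val h
    exact hp0 (hinj (h'.trans (map_zero _).symm))
  exact ribmp_fs_prime hx0 (ribmp_fs_max_eq hinj 𝔫 hp hs hgen) (ribmp_fs_red_loc hinj 𝔫 hred)

include hinj in
/-- **FacSmooth.**  The local ring of a noetherian chart at a smooth point `𝔫 = (p, s)` of a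
reduced fibre is a UFD. -/
theorem ribmp_fs_ufd_chart [IsNoetherianRing B] {p s : B} (hp : p ∈ 𝔫) (hs : s ∈ 𝔫)
    (hp0 : p ≠ 0) (hgen : NodesLocGen 𝔫 {p, s}) (hred : ∀ c : B, p ∣ c ^ 2 → p ∣ c) :
    UniqueFactorizationMonoid (ls_localSubring (F := F) 𝔫) := by
  haveI := ls_localSubring_isLocalRing (F := F) hinj 𝔫
  haveI := s36n2p_isNoetherianRing (F := F) hinj 𝔫
  have hx0 : s36n2pToLoc (F := F) 𝔫 p ≠ 0 := by
    intro h
    have h' : algebraMap B F p = 0 := congrArg Subtype.val h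
    exact hp0 (hinj (h'.trans (map_zero _).symm))
  exact ribmp_fs_ufd_local hx0 (ribmp_fs_max_eq hinj 𝔫 hp hs hgen) (ribmp_fs_red_loc hinj 𝔫 hred)

end Chart

section At

variable {A₀ E F : Type*} [CommRing A₀] [IsDomain A₀] [IsDiscreteValuationRing A₀]
  [Field E] [Algebra A₀ E] [IsFractionRing A₀ E] [CharZero E]
  [Field F] [Algebra E F] [Algebra A₀ F] [IsScalarTower A₀ E F]

/-- **FacSmooth, chart form of `UNIP/AbstractT.lean`**: `atLoc 𝔫` is a UFD at a closed point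
`𝔫 = (π, s)` (locally) of the chart `B_u = zchClosure {u}` with reduced special fibre. -/
theorem ribmp_fs_ufd_atLoc {π : A₀} {u : F}
    [IsNoetherianRing ↥(zchClosure (A₀ := A₀) ({u} : Set F))]
    (hπ0 : algebraMap A₀ ↥(zchClosure (A₀ := A₀) ({u} : Set F)) π ≠ 0)
    (hred : ∀ c : ↥(zchClosure (A₀ := A₀) ({u} : Set F)),
      algebraMap A₀ ↥(zchClosure (A₀ := A₀) ({u} : Set F)) π ∣ c ^ 2 →
        algebraMap A₀ ↥(zchClosure (A₀ := A₀) ({u} : Set F)) π ∣ c)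
    (𝔫 : AtPt (F := F) π u) {s : ↥(zchClosure (A₀ := A₀) ({u} : Set F))} (hs : s ∈ 𝔫.1)
    (hgen : NodesLocGen 𝔫.1
      {algebraMap A₀ ↥(zchClosure (A₀ := A₀) ({u} : Set F)) π, s}) :
    UniqueFactorizationMonoid (atLoc 𝔫) := by
  haveI := 𝔫.2.1.isPrime
  exact ribmp_fs_ufd_chart (F := F) Subtype.val_injective 𝔫.1 𝔫.2.2 hs hπ0 hgen hred

/-- the uniformizer is not zero in the chart -/
theorem ribmp_fs_unif_ne_zero {π : A₀} (hπ : algebraMap A₀ F π ≠ 0) (u : F) :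
    algebraMap A₀ ↥(zchClosure (A₀ := A₀) ({u} : Set F)) π ≠ 0 := by
  intro h
  apply hπ
  have := congrArg (fun z : ↥(zchClosure (A₀ := A₀) ({u} : Set F)) => (z : F)) h
  simpa using this

/-- **FacSmooth** at a closed point of the chart `t` (`atO π t (Sum.inl 𝔫)`). -/
theorem ribmp_fs_ufd_atO_inl {π : A₀} (hπ : algebraMap A₀ F π ≠ 0) {t : F}
    [IsNoetherianRing ↥(zchClosure (A₀ := A₀) ({t} : Set F))]
    (hred : ∀ c : ↥(zchClosure (A₀ := A₀) ({t} : Set F)),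
      algebraMap A₀ ↥(zchClosure (A₀ := A₀) ({t} : Set F)) π ∣ c ^ 2 →
        algebraMap A₀ ↥(zchClosure (A₀ := A₀) ({t} : Set F)) π ∣ c)
    (𝔫 : AtPt (F := F) π t)
    (hsm : ∃ s ∈ 𝔫.1, NodesLocGen 𝔫.1
      {algebraMap A₀ ↥(zchClosure (A₀ := A₀) ({t} : Set F)) π, s}) :
    UniqueFactorizationMonoid (atO π t (Sum.inl 𝔫)) := by
  obtain ⟨s, hs, hgen⟩ := hsm
  exact ribmp_fs_ufd_atLoc (ribmp_fs_unif_ne_zero hπ t) hred 𝔫 hs hgen

/-- **FacSmooth** at a closed point of the chart `t⁻¹` (`atO π t (Sum.inr 𝔫)`). -/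
theorem ribmp_fs_ufd_atO_inr {π : A₀} (hπ : algebraMap A₀ F π ≠ 0) {t : F}
    [IsNoetherianRing ↥(zchClosure (A₀ := A₀) ({t⁻¹} : Set F))]
    (hred : ∀ c : ↥(zchClosure (A₀ := A₀) ({t⁻¹} : Set F)),
      algebraMap A₀ ↥(zchClosure (A₀ := A₀) ({t⁻¹} : Set F)) π ∣ c ^ 2 →
        algebraMap A₀ ↥(zchClosure (A₀ := A₀) ({t⁻¹} : Set F)) π ∣ c)
    (𝔫 : AtPt (F := F) π t⁻¹)
    (hsm : ∃ s ∈ 𝔫.1, NodesLocGen 𝔫.1
      {algebraMap A₀ ↥(zchClosure (A₀ := A₀) ({t⁻¹} : Set F)) π, s}) :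
    UniqueFactorizationMonoid (atO π t (Sum.inr 𝔫)) := by
  obtain ⟨s, hs, hgen⟩ := hsm
  exact ribmp_fs_ufd_atLoc (ribmp_fs_unif_ne_zero hπ t⁻¹) hred 𝔫 hs hgen

end At

end Fermat.Agent.RIB.MP


end ZBS36_005_7
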