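/- GENERATED FILE (helper35, build-time optimisation, NOTES/ZB.md): verbatim concatenation of the modules
   Fermat.Agent.S36.TopAbsDef
   Fermat.Agent.S36.TopAbs
   Fermat.Agent.S36.PtsAll
   Fermat.Agent.S36.PtsChart
   Fermat.Agent.S36.N2PtsInput
   Fermat.Agent.S36.PtsAB
   Fermat.Agent.S36.PtsMid
   Fermat.Agent.S36.PtsMidChart
   Fermat.Agent.S36.PtsTriple
   Fermat.Agent.S36.PtsTripleChart
   Fermat.Agent.S36.PtsCusp
   Do not edit; do not import together with these modules. -/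
import Fermat.Agent.ZB.S36_006
import Fermat.Agent.ZB.STB_003
import Fermat.Agent.ZB.S36_004
import Fermat.Agent.ZB.S36_005
import Fermat.Agent.ZB.UNIP_007

/-! ### bundled: `Fermat.Agent.S36.TopAbsDef` -/
section ZBS36_026_0
/-
S36 (Carayol at `q² ∥ M`), geometric clause, piece G-topA (helper84): INTERFACE.

`S36PtInput` = what the modular side (G-reg, N2-pts, G-inc) delivers at ONE closed point of the
special fibre, with local ring `O ⊆ F` and `thr c` = "the component `V c` passes through the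
point".  It is consumed by `s36ta_main` (`S36/TopAbs.lean`), which produces `AqPointData`
(`S36/AbstractQ2.lean`) for the function `Y` made by the chain
`ng_vertical → weak approximation → ng_toric_pow → s36ng_trivial_gluing`.

* `fac`  : LOCAL FACTORISATION (UFD): every `y ≠ 0` whose horizontal orders are divisible by `m`
           (`Hor y`) and which is a unit at the components through the point is `ε · γ ^ m`,
           `ε ∈ O^×`.
* `res`  : NORMAL BRANCHES: `STB.StbRes O (V c)` for the components through the point.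
* `inc`  : INCIDENCE: either exactly ONE component passes through the point, or ALL THREE do
           (a triple point); at a triple point: the local packages `NgLoc` of helper19 for `α`
           and for `β` (local rings of the two images at level `q M'`) and the CONDUCTOR clause
           (from pairwise transversality by `aq_cond_thr_of_transversal`, or from generators by
           `aq_cond_of_generators`).
-/

set_option autoImplicit false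

namespace Fermat.Agent.S36

open Fermat.Agent.UNIP Fermat.Agent.STB

variable {F₁ F : Type*} [Field F₁] [Field F] {κ : Type*}

/-- **The input at a closed point** (see the header). -/
structure S36PtInput (Hor : F → Prop) (m : ℕ) (α β : F₁ →+* F) (Nα Nβ : F →* F₁) (ζ₁ : F₁)
    (V : κ → ValuationSubring F) (ca cb cc : κ) (O : Subring F) [IsLocalRing O]
    (thr : κ → Prop) : Prop where
  /-- local factorisation (UFD + the dictionary "prime elements ↔ components and places") -/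
  fac : ∀ y : F, y ≠ 0 → Hor y → (∀ c, thr c → (V c).valuation y = 1) → StbFacAt O m y
  /-- the branches through the point are normal -/
  res : ∀ c, thr c → StbRes O (V c)
  /-- one component, or a triple point with its local packages and the conductor clause -/
  inc : (∃ c, thr c ∧ ∀ c', thr c' → c' = c) ∨
    (thr ca ∧ thr cb ∧ thr cc ∧
      (∃ Oα : Subring F₁, NgLoc α Nα (V ca) (V cc) m ζ₁ O Oα) ∧
      (∃ Oβ : Subring F₁, NgLoc β Nβ (V cb) (V cc) m ζ₁ O Oβ) ∧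
      ∃ K : ℕ, ∀ x : κ → O, (∀ c, thr c → x c ∈ IsLocalRing.maximalIdeal O ^ K) →
        ∃ y : O, ∀ c, thr c → ((y - x c : O) : F) ∈ (V c).nonunits)

end Fermat.Agent.S36


end ZBS36_026_0

/-! ### bundled: `Fermat.Agent.S36.TopAbs` -/
section ZBS36_026_1
/-
S36 (Carayol at `q² ∥ M`), geometric clause, piece G-topA (helper84): THE ABSTRACT CHAIN.

`s36ta_main` : in the chart setting of `aq_main` (three vertical valuations `V ca, V cb, V cc` of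
`F`, level `q² M'`), with the norm packages `NgDir` of the two degeneracy maps `α, β : F₁ → F`,
integer orders at the vertical valuations with the four norm–order formulas, and the per-point
input `S36PtInput` at every closed point of both charts:

  `u ≠ 0`, `Hor u` (`m = p ^ r` divides the horizontal orders of `u`),
  `N_α u = const · f₁ ^ m`, `N_β u = const · f₂ ^ m`
      ⇒  `u ^ ((q + 1) * ((q - 1) * ((q - 1) * (q + 1)))) = const · h ^ m`.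

Chain: `ng_vertical` (vertical orders of `u ^ (q+1)` are those of a constant modulo `m`) →
weak approximation `aqw_weakApprox` (`y₁ := u ^ (q+1) · π ^ (-k) · H ^ (-m)` is a unit at the
three valuations; its norms are `m`-th powers because the units of `A₀` are) → `ng_toric_pow`
(`Y₁ := y₁ ^ (q-1)` is toric) → `s36ng_trivial_gluing` (`Y := Y₁ ^ ((q-1)(q+1))` has trivial
gluing at the triple points) → `aq_main`.
-/

set_option autoImplicit false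
set_option linter.unusedSectionVars false
set_option linter.unusedVariables false
set_option linter.style.haveILetI false

namespace Fermat.Agent.S36

open Polynomial IntermediateField Fermat.Agent.INJ Fermat.Agent.UNIP Fermat.Agent.STB

section Ord

variable {F : Type*} [Field F]

/-- an additive order function vanishes at `1` -/
theorem s36ta_ord_one {w : F → ℤ} (hw : ∀ x y : F, x ≠ 0 → y ≠ 0 → w (x * y) = w x + w y) :
    w 1 = 0 := by
  have := hw 1 1 one_ne_zero one_ne_zero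
  rw [mul_one] at this
  linarith

theorem s36ta_ord_inv {w : F → ℤ} (hw : ∀ x y : F, x ≠ 0 → y ≠ 0 → w (x * y) = w x + w y)
    {x : F} (hx : x ≠ 0) : w x⁻¹ = -w x := by
  have := hw x x⁻¹ hx (inv_ne_zero hx)
  rw [mul_inv_cancel₀ hx, s36ta_ord_one hw] at this
  linarith

theorem s36ta_ord_pow {w : F → ℤ} (hw : ∀ x y : F, x ≠ 0 → y ≠ 0 → w (x * y) = w x + w y)
    {x : F} (hx : x ≠ 0) (n : ℕ) : w (x ^ n) = n * w x := by
  induction n with
  | zero => simp [s36ta_ord_one hw]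
  | succ n ih =>
    rw [pow_succ, hw _ _ (pow_ne_zero n hx) hx, ih]
    push_cast
    ring

theorem s36ta_ord_zpow {w : F → ℤ} (hw : ∀ x y : F, x ≠ 0 → y ≠ 0 → w (x * y) = w x + w y)
    {x : F} (hx : x ≠ 0) (n : ℤ) : w (x ^ n) = n * w x := by
  rcases n with n | n
  · simp only [Int.ofNat_eq_natCast, zpow_natCast]
    exact s36ta_ord_pow hw hx n
  · rw [zpow_negSucc, s36ta_ord_inv hw (pow_ne_zero _ hx), s36ta_ord_pow hw hx]
    push_cast
    simp only [Int.negSucc_eq]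
    ring

theorem s36ta_ord_div {w : F → ℤ} (hw : ∀ x y : F, x ≠ 0 → y ≠ 0 → w (x * y) = w x + w y)
    {x y : F} (hx : x ≠ 0) (hy : y ≠ 0) : w (x / y) = w x - w y := by
  rw [div_eq_mul_inv, hw _ _ hx (inv_ne_zero hy), s36ta_ord_inv hw hy]
  ring

end Ord

section Const

variable {A₀ E : Type*} [CommRing A₀] [IsDomain A₀] [IsDiscreteValuationRing A₀]
  [Field E] [Algebra A₀ E] [IsFractionRing A₀ E]

/-- units of `A₀` are `p ^ r`-th powers if they are `p`-th powers -/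
theorem s36ta_unit_pow {p : ℕ} (hp : 0 < p)
    (hunit : ∀ a : A₀, IsUnit a → ∃ d : A₀, d ^ p = a) (r : ℕ) :
    ∀ a : A₀, IsUnit a → ∃ d : A₀, d ^ (p ^ r) = a := by
  induction r with
  | zero => exact fun a _ => ⟨a, by simp⟩
  | succ r ih =>
    intro a ha
    obtain ⟨d, hd⟩ := hunit a ha
    have hdu : IsUnit d := by
      have : IsUnit (d ^ p) := hd ▸ ha
      exact (isUnit_pow_iff hp.ne').mp this
    obtain ⟨d', hd'⟩ := ih d hdu
    exact ⟨d', by rw [pow_succ, pow_mul, hd', hd]⟩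

/-- **constants**: an element of `E^×` whose `π`-order (measured by an additive `w` with
`w π = 1`, `w (unit) = 0`) is divisible by `m` is an `m`-th power, if the units of `A₀` are. -/
theorem s36ta_const_pow {π : A₀} (hπ : Irreducible π) {m : ℕ} (hm : 0 < m)
    (hunit : ∀ a : A₀, IsUnit a → ∃ d : A₀, d ^ m = a)
    (w : E → ℤ) (hw : ∀ x y : E, x ≠ 0 → y ≠ 0 → w (x * y) = w x + w y)
    (hwπ : w (algebraMap A₀ E π) = 1) (hwu : ∀ a : A₀, IsUnit a → w (algebraMap A₀ E a) = 0)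
    {e : E} (he : e ≠ 0) (hdvd : (m : ℤ) ∣ w e) : ∃ d : E, d ^ m = e := by
  obtain ⟨n, υ, rfl⟩ :=
    IsDiscreteValuationRing.exists_units_eq_smul_zpow_of_irreducible (K := E) hπ he
  have hπ0 : algebraMap A₀ E π ≠ 0 :=
    (map_ne_zero_iff _ (IsFractionRing.injective A₀ E)).mpr hπ.ne_zero
  have hυ0 : algebraMap A₀ E (υ : A₀) ≠ 0 :=
    (map_ne_zero_iff _ (IsFractionRing.injective A₀ E)).mpr υ.ne_zero
  have e1 : υ • algebraMap A₀ E π ^ n = algebraMap A₀ E (υ : A₀) * algebraMap A₀ E π ^ n := by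
    rw [Units.smul_def, Algebra.smul_def]
  rw [e1] at hdvd ⊢
  rw [hw _ _ hυ0 (zpow_ne_zero n hπ0), hwu _ υ.isUnit, zero_add, s36ta_ord_zpow hw hπ0, hwπ,
    mul_one] at hdvd
  obtain ⟨j, rfl⟩ := hdvd
  obtain ⟨d, hd⟩ := hunit _ υ.isUnit
  refine ⟨algebraMap A₀ E d * algebraMap A₀ E π ^ j, ?_⟩
  rw [mul_pow, ← map_pow, hd, ← zpow_natCast, ← zpow_mul, mul_comm j]

end Const

section Point

universe uF

variable {F₁ : Type*} {F : Type uF} [Field F₁] [Field F] {κ : Type*}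

/-- a nonunit of `V ⊇ O` lying in `O` is killed by the residue map of `O` -/
theorem s36ta_ngPt (O : Subring F) [IsLocalRing O] (V : ValuationSubring F)
    (hOV : ∀ x ∈ O, x ∈ V) : NgPt V O (IsLocalRing.residue O) where
  le := hOV
  ev_eq_zero := fun x hx => by
    rw [IsLocalRing.residue_eq_zero_iff]
    exact aq_trace_le O V (fun y hy => hOV y hy) ((aq_mem_trace O V _ x).mpr hx)

/-- **The point data from the per-point input.**  `Y₁` a unit at the three valuations with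
`Hor Y₁`, toric with roots `ta, tb, tc`; `Hloc` = the local part of `s36ng_trivial_gluing` at the
point; `T` the roots of `Y₁ ^ c`.  Then `AqPointData` holds for `Y₁ ^ c`. -/
theorem s36ta_pointData (Hor : F → Prop) {m : ℕ} (hm : 0 < m) (α β : F₁ →+* F)
    (Nα Nβ : F →* F₁) (ζ₁ : F₁) (V : κ → ValuationSubring F) (ca cb cc : κ)
    (hκ : ∀ c, c = ca ∨ c = cb ∨ c = cc) (hab : ca ≠ cb) (hac : ca ≠ cc) (hbc : cb ≠ cc)
    (O : Subring F) [IsLocalRing O] (thr : κ → Prop)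
    (hOV : ∀ c, thr c → ∀ x ∈ O, x ∈ V c)
    (P : S36PtInput Hor m α β Nα Nβ ζ₁ V ca cb cc O thr)
    {Y₁ ta tb tc : F} (c : ℕ) (hY₁u : ∀ c', (V c').valuation Y₁ = 1) (hHorY₁ : Hor Y₁)
    (hHorY : Hor (Y₁ ^ c))
    (hta : NgC (V ca) Y₁ (ta ^ m)) (htb : NgC (V cb) Y₁ (tb ^ m)) (htc : NgC (V cc) Y₁ (tc ^ m))
    (z : O) (hz : (z : F) = α ζ₁) (T : κ → F) {Ta Tb Tc : F}
    (hTa : T ca = Ta) (hTb : T cb = Tb) (hTc : T cc = Tc)
    (htoric : ∀ c', NgC (V c') (Y₁ ^ c) (T c' ^ m))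
    (Hloc : ∀ (Oα Oβ : Subring F₁) (K : Type uF) [CommRing K] (ev : O →+* K),
      NgPt (V ca) O ev → NgPt (V cb) O ev → NgPt (V cc) O ev →
      NgLoc α Nα (V ca) (V cc) m ζ₁ O Oα → NgLoc β Nβ (V cb) (V cc) m ζ₁ O Oβ →
      ∀ ε γ : F, ε ∈ O → ε⁻¹ ∈ O → Y₁ = ε * γ ^ m →
      ∀ z aa ab ac : O, (z : F) = α ζ₁ → IsUnit aa → IsUnit ab → IsUnit ac →
        NgC (V ca) (aa : F) (ta / γ) → NgC (V cb) (ab : F) (tb / γ) →
        NgC (V cc) (ac : F) (tc / γ) →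
        ∃ ba bb bc : O, IsUnit ba ∧ IsUnit bb ∧ IsUnit bc ∧
          NgC (V ca) (ba : F) (Ta / γ ^ c) ∧ NgC (V cb) (bb : F) (Tb / γ ^ c) ∧
          NgC (V cc) (bc : F) (Tc / γ ^ c) ∧ ev ba = ev bc ∧ ev bb = ev bc) :
    AqPointData O thr V m (Y₁ ^ c) T := by
  classical
  subst hTa hTb hTc
  have hY₁0 : Y₁ ≠ 0 := ng_ne_zero_of_val (hY₁u ca)
  rcases P.inc with ⟨c₁, hc₁, honly⟩ | ⟨ha, hb, hc, ⟨Oα, Lα⟩, ⟨Oβ, Lβ⟩, K, hcond⟩
  · exact aq_pointData_one O thr V c₁ hc₁ honly (hOV c₁ hc₁) (P.res c₁ hc₁) hm T (htoric c₁)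
      (P.fac (Y₁ ^ c) (pow_ne_zero c hY₁0) hHorY (fun c' _ => ng_val_pow (hY₁u c') c))
  · obtain ⟨γ, ε, hε, hY₁⟩ := P.fac Y₁ hY₁0 hHorY₁ (fun c' _ => hY₁u c')
    -- the branch units of `Y₁`
    have hbranch : ∀ c' (t : F), thr c' → NgC (V c') Y₁ (t ^ m) →
        ∃ a : O, IsUnit a ∧ NgC (V c') (a : F) (t / γ) := by
      intro c' t hc' ht
      obtain ⟨a, ha, hat, hva⟩ := stb_branch_unit O (V c') (hOV c' hc') (P.res c' hc') hm ε hε
        hY₁ ht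
      have hvt : (V c').valuation (t / γ) = 1 := stb_val_of_sub (V c') hva hat
      refine ⟨a, ha, NgC.of_sub hvt ?_⟩
      have := (V c').nonunits.neg_mem hat
      rwa [neg_sub] at this
    obtain ⟨aa, haa, hata⟩ := hbranch ca ta ha hta
    obtain ⟨ab, hab', hatb⟩ := hbranch cb tb hb htb
    obtain ⟨ac, hac', hatc⟩ := hbranch cc tc hc htc
    obtain ⟨ba, bb, bc, -, -, -, hNa, hNb, hNc, e1, e2⟩ :=
      Hloc Oα Oβ (IsLocalRing.ResidueField O) (IsLocalRing.residue O)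
        (s36ta_ngPt O (V ca) (hOV ca ha)) (s36ta_ngPt O (V cb) (hOV cb hb))
        (s36ta_ngPt O (V cc) (hOV cc hc)) Lα Lβ (ε : F) γ ε.2 (ng_inv_mem_of_isUnit hε) hY₁
        z aa ab ac hz haa hab' hac' hata hatb hatc
    refine ⟨γ ^ c, ε ^ c, hε.pow c, ?_,
      fun c' => if c' = ca then ba else if c' = cb then bb else bc, ?_, ?_, K, hcond⟩
    · rw [hY₁]
      push_cast
      ring
    · intro c' hc'
      have key : ∀ (b : O) (t : F), NgC (V c') (b : F) (t / γ ^ c) →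
          (b : F) * γ ^ c / t - 1 ∈ (V c').nonunits := by
        intro b t h
        have e : (b : F) * γ ^ c / t = (b : F) / (t / γ ^ c) := by
          rw [div_div_eq_mul_div]
        rw [e]
        exact h
      rcases hκ c' with rfl | rfl | rfl
      · simp only [if_true]
        exact key ba _ hNa
      · simp only [if_neg hab.symm, if_true]
        exact key bb _ hNb
      · simp only [if_neg hac.symm, if_neg hbc.symm]
        exact key bc _ hNc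
    · intro c' c'' _ _
      have hres : ∀ c₀ : κ, IsLocalRing.residue O
          (if c₀ = ca then ba else if c₀ = cb then bb else bc) = IsLocalRing.residue O bc := by
        intro c₀
        by_cases h1 : c₀ = ca
        · simp only [if_pos h1]; exact e1
        · by_cases h2 : c₀ = cb
          · simp only [if_neg h1, if_pos h2]; exact e2
          · simp only [if_neg h1, if_neg h2]
      rw [← IsLocalRing.residue_eq_zero_iff, map_sub, hres c', hres c'', sub_self]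

end Point

section Main

universe uF

variable {A₀ E : Type*} {F : Type uF} {F₁ : Type*}
  [CommRing A₀] [IsDomain A₀] [IsDiscreteValuationRing A₀]
  [Field E] [Algebra A₀ E] [IsFractionRing A₀ E] [CharZero E]
  [Field F] [Algebra E F] [Algebra A₀ F] [IsScalarTower A₀ E F]
  [Field F₁] [Algebra E F₁]
  {π : A₀} {κ : Type*}

/-- the constants lie in every local ring `atO π t i` -/
theorem s36ta_algebraMap_mem_atO (t : F) (i : AtPt (F := F) π t ⊕ AtPt (F := F) π t⁻¹)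
    (d : A₀) : algebraMap A₀ F d ∈ atO π t i := by
  have hmem : ∀ (u : F) (𝔫 : AtPt (F := F) π u), algebraMap A₀ F d ∈ atLoc 𝔫 := by
    intro u 𝔫
    haveI := 𝔫.2.1.isPrime
    exact ls_algebraMap_mem 𝔫.1
      (algebraMap A₀ ↥(zchClosure (A₀ := A₀) ({u} : Set F)) d)
  rcases i with 𝔫 | 𝔫
  · exact hmem t 𝔫
  · exact hmem t⁻¹ 𝔫

/-- the norm of an inverse -/
theorem s36ta_norm_inv (N : F →* F₁) {x : F} (hx : x ≠ 0) : N x⁻¹ = (N x)⁻¹ := by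
  have h1 : N x * N x⁻¹ = 1 := by rw [← map_mul, mul_inv_cancel₀ hx, map_one]
  exact eq_inv_of_mul_eq_one_right h1

/-- the order of a unit of `A₀` at a valuation ring containing `A₀` is `0` -/
theorem s36ta_val_unit (W : ValuationSubring F) (hAW : ∀ a : A₀, algebraMap A₀ F a ∈ W)
    {a : A₀} (ha : IsUnit a) : W.valuation (algebraMap A₀ F a) = 1 := by
  obtain ⟨b, hb⟩ := ha.exists_right_inv
  have hab : algebraMap A₀ F a * algebraMap A₀ F b = 1 := by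
    rw [← map_mul, hb, map_one]
  have h0 : algebraMap A₀ F a ≠ 0 := left_ne_zero_of_mul_eq_one hab
  have hinv : (algebraMap A₀ F a)⁻¹ = algebraMap A₀ F b := (eq_inv_of_mul_eq_one_right hab).symm
  have h1 : W.valuation (algebraMap A₀ F a) ≤ 1 := (W.valuation_le_one_iff _).2 (hAW a)
  have h2 : W.valuation (algebraMap A₀ F a)⁻¹ ≤ 1 := by
    rw [hinv]
    exact (W.valuation_le_one_iff _).2 (hAW b)
  rw [map_inv₀] at h2
  have hv0 : W.valuation (algebraMap A₀ F a) ≠ 0 := (W.valuation.ne_zero_iff).2 h0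
  exact le_antisymm h1 ((inv_le_one₀ (zero_lt_iff.2 hv0)).1 h2)

/-- two additive order functions on `E^×` with the same values at `π` and at the units of `A₀`
agree -/
theorem s36ta_const_ord_eq (hπ : Irreducible π) (w w' : E → ℤ)
    (hw : ∀ x y : E, x ≠ 0 → y ≠ 0 → w (x * y) = w x + w y)
    (hw' : ∀ x y : E, x ≠ 0 → y ≠ 0 → w' (x * y) = w' x + w' y)
    (h1 : w (algebraMap A₀ E π) = w' (algebraMap A₀ E π))
    (h2 : ∀ a : A₀, IsUnit a → w (algebraMap A₀ E a) = w' (algebraMap A₀ E a))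
    {e : E} (he : e ≠ 0) : w e = w' e := by
  obtain ⟨n, υ, rfl⟩ :=
    IsDiscreteValuationRing.exists_units_eq_smul_zpow_of_irreducible (K := E) hπ he
  have hπ0 : algebraMap A₀ E π ≠ 0 :=
    (map_ne_zero_iff _ (IsFractionRing.injective A₀ E)).mpr hπ.ne_zero
  have hυ0 : algebraMap A₀ E (υ : A₀) ≠ 0 :=
    (map_ne_zero_iff _ (IsFractionRing.injective A₀ E)).mpr υ.ne_zero
  have e1 : υ • algebraMap A₀ E π ^ n = algebraMap A₀ E (υ : A₀) * algebraMap A₀ E π ^ n := by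
    rw [Units.smul_def, Algebra.smul_def]
  rw [e1, hw _ _ hυ0 (zpow_ne_zero n hπ0), hw' _ _ hυ0 (zpow_ne_zero n hπ0),
    s36ta_ord_zpow hw hπ0, s36ta_ord_zpow hw' hπ0, h1, h2 _ υ.isUnit]

/-- **weak approximation with prescribed orders**: if `m` divides the orders of `x` at all
`V c`, then `x / H ^ m` is a unit at all `V c` for a suitable `H`. -/
theorem s36ta_exists_unit [Finite κ] (V : κ → ValuationSubring F)
    (hinc : ∀ c c', c ≠ c' → ¬ V c ≤ V c') (hA : ∀ c, StbArch (V c))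
    (ord : κ → F → ℤ)
    (hord : ∀ c (x y : F), x ≠ 0 → y ≠ 0 → ord c (x * y) = ord c x + ord c y)
    (hord0 : ∀ c (x : F), x ≠ 0 → (ord c x = 0 ↔ (V c).valuation x = 1))
    (ϖ : κ → F) (hϖ0 : ∀ c, ϖ c ≠ 0) (hϖ : ∀ c, ord c (ϖ c) = 1) {m : ℕ}
    {x : F} (hx : x ≠ 0) (hdvd : ∀ c, (m : ℤ) ∣ ord c x) :
    ∃ H : F, H ≠ 0 ∧ ∀ c, (V c).valuation (x * (H ^ m)⁻¹) = 1 := by
  choose n hn using hdvd
  obtain ⟨H, hH0, hH⟩ := aqw_weakApprox V hinc hA (fun c => ϖ c ^ n c)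
    (fun c => zpow_ne_zero _ (hϖ0 c))
  refine ⟨H, hH0, fun c => ?_⟩
  have h1 : (V c).valuation (H / ϖ c ^ n c) = 1 := pwi_val_eq_one (V c) (hH c)
  have h2 : ord c (H / ϖ c ^ n c) = 0 :=
    (hord0 c _ (div_ne_zero hH0 (zpow_ne_zero _ (hϖ0 c)))).mpr h1
  rw [s36ta_ord_div (hord c) hH0 (zpow_ne_zero _ (hϖ0 c)), s36ta_ord_zpow (hord c) (hϖ0 c),
    hϖ c, mul_one] at h2
  have hHm0 : H ^ m ≠ 0 := pow_ne_zero m hH0
  refine (hord0 c _ (mul_ne_zero hx (inv_ne_zero hHm0))).mp ?_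
  rw [hord c _ _ hx (inv_ne_zero hHm0), s36ta_ord_inv (hord c) hHm0,
    s36ta_ord_pow (hord c) hH0, hn c]
  have : ord c H = n c := by linarith
  rw [this]
  ring

/-- **the norm of the normalised function is an `m`-th power.** -/
theorem s36ta_norm_pow (hπ : Irreducible π) {m : ℕ} (hm : 0 < m)
    (hunit : ∀ a : A₀, IsUnit a → ∃ d : A₀, d ^ m = a)
    (N : F →* F₁) {q : ℕ} (hNc : ∀ e : E, N (algebraMap E F e) = algebraMap E F₁ e ^ q)
    (w : F₁ → ℤ) (hw : ∀ x y : F₁, x ≠ 0 → y ≠ 0 → w (x * y) = w x + w y)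
    (hwπ : w (algebraMap E F₁ (algebraMap A₀ E π)) = 1)
    (hwu : ∀ a : A₀, IsUnit a → w (algebraMap E F₁ (algebraMap A₀ E a)) = 0)
    {u H : F} {e₀ a : E} {f : F₁} (hu : u ≠ 0) (hH : H ≠ 0) (he₀ : e₀ ≠ 0)
    (hN : N u = algebraMap E F₁ a * f ^ m)
    (hw0 : w (N (u ^ (q + 1) * algebraMap E F e₀ * (H ^ m)⁻¹)) = 0) :
    ∃ f' : F₁, N (u ^ (q + 1) * algebraMap E F e₀ * (H ^ m)⁻¹) = f' ^ m := by
  have hNu0 : N u ≠ 0 := ng_norm_ne_zero N hu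
  have ha0 : a ≠ 0 := by
    rintro rfl
    rw [map_zero, zero_mul] at hN
    exact hNu0 hN
  have hf0 : f ≠ 0 := by
    rintro rfl
    rw [zero_pow hm.ne', mul_zero] at hN
    exact hNu0 hN
  have hNH0 : N H ≠ 0 := ng_norm_ne_zero N hH
  have hinj : Function.Injective (algebraMap E F₁) := (algebraMap E F₁).injective
  set C : E := a ^ (q + 1) * e₀ ^ q with hC
  have hC0 : C ≠ 0 := mul_ne_zero (pow_ne_zero _ ha0) (pow_ne_zero _ he₀)
  set g : F₁ := f ^ (q + 1) / N H with hg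
  have hg0 : g ≠ 0 := div_ne_zero (pow_ne_zero _ hf0) hNH0
  have key : N (u ^ (q + 1) * algebraMap E F e₀ * (H ^ m)⁻¹) = algebraMap E F₁ C * g ^ m := by
    rw [map_mul, map_mul, map_pow, s36ta_norm_inv N (pow_ne_zero m hH), map_pow, hNc, hN, hC,
      hg, map_mul, map_pow, map_pow, div_pow]
    field_simp
    ring
  rw [key] at hw0 ⊢
  have hCF : algebraMap E F₁ C ≠ 0 := (map_ne_zero_iff _ hinj).mpr hC0
  rw [hw _ _ hCF (pow_ne_zero m hg0), s36ta_ord_pow hw hg0] at hw0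
  have hdvd : (m : ℤ) ∣ w (algebraMap E F₁ C) := ⟨-w g, by linarith⟩
  obtain ⟨d, hd⟩ := s36ta_const_pow hπ hm hunit (fun e => w (algebraMap E F₁ e))
    (fun x y hx hy => by
      show w (algebraMap E F₁ (x * y)) = _
      rw [map_mul]
      exact hw _ _ ((map_ne_zero_iff _ hinj).mpr hx) ((map_ne_zero_iff _ hinj).mpr hy))
    hwπ hwu hC0 hdvd
  exact ⟨algebraMap E F₁ d * g, by rw [mul_pow, ← map_pow, hd]⟩

/-- **G-topA: the abstract chain.**  See the header of the file and NOTES/S36-topA.md. -/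
theorem s36ta_main (hπ : Irreducible π) {t : F} (ht : Transcendental E t)
    [FiniteDimensional E⟮t⟯ F]
    (hcl : ∀ x : F, IsAlgebraic E x → x ∈ (algebraMap E F).range)
    {p : ℕ} (hp : p.Prime) (hpu : IsUnit (p : A₀))
    (hunit : ∀ a : A₀, IsUnit a → ∃ d : A₀, d ^ p = a)
    {q : ℕ} (hq : q.Prime) (hqp : q ≠ p) (hqπ : π ∣ (q : A₀)) (N : ℕ)
    [Finite κ] (V : κ → ValuationSubring F) (hne : ∀ c c', c ≠ c' → V c ≠ V c')
    (hBV₁ : ∀ c (b : F), IsIntegral ↥(Algebra.adjoin A₀ {t}) b → b ∈ V c)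
    (hBV₂ : ∀ c (b : F), IsIntegral ↥(Algebra.adjoin A₀ {t⁻¹}) b → b ∈ V c)
    (hπV : ∀ c, algebraMap A₀ F π ∈ (V c).nonunits)
    (hKR : ∀ x : F, IsIntegral ↥(Algebra.adjoin A₀ {t}) (algebraMap A₀ F π * x) →
      (∀ c, x ∈ V c) → IsIntegral ↥(Algebra.adjoin A₀ {t}) x)
    (hram : ∀ c (x : F), x ∈ (V c).nonunits → ∃ z ∈ V c, x ^ (q ^ N) = algebraMap A₀ F π * z)
    (c₀ : κ)
    (hU : ∀ x : F, x ∈ (V c₀).nonunits → ∃ z ∈ V c₀, x = algebraMap A₀ F π * z)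
    (hG : ∀ s : F, EIPrimeTo π t s → s ∉ (V c₀).nonunits)
    (harch : ∀ c (a x : F), a ∈ (V c).nonunits → ∃ N : ℕ, a ^ N * x ∈ (V c).nonunits)
    -- the three components
    (ca cb cc : κ) (hκ : ∀ c, c = ca ∨ c = cb ∨ c = cc) (hab : ca ≠ cb) (hac : ca ≠ cc)
    (hbc : cb ≠ cc)
    -- the orders at the three components
    (ord : κ → F → ℤ)
    (hord : ∀ c (x y : F), x ≠ 0 → y ≠ 0 → ord c (x * y) = ord c x + ord c y)
    (hord0 : ∀ c (x : F), x ≠ 0 → (ord c x = 0 ↔ (V c).valuation x = 1))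
    (hπa : ord ca (algebraMap A₀ F π) = 1) (hπb : ord cb (algebraMap A₀ F π) = 1)
    (hπc : ord cc (algebraMap A₀ F π) = (q : ℤ) - 1)
    {ϖc : F} (hϖc0 : ϖc ≠ 0) (hϖc : ord cc ϖc = 1)
    -- the level `q M'`
    (α β : F₁ →+* F) (Nα Nβ : F →* F₁)
    (hαc : ∀ e : E, α (algebraMap E F₁ e) = algebraMap E F e)
    (hβc : ∀ e : E, β (algebraMap E F₁ e) = algebraMap E F e)
    (hNαc : ∀ e : E, Nα (algebraMap E F e) = algebraMap E F₁ e ^ q)
    (hNβc : ∀ e : E, Nβ (algebraMap E F e) = algebraMap E F₁ e ^ q)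
    (Winf W0 : ValuationSubring F₁)
    (Dα : NgDir α Nα Winf (V ca) (V cc) (V cb) (q - 1) q)
    (Dβ : NgDir β Nβ W0 (V cb) (V cc) (V ca) (q - 1) q)
    (winf w0 : F₁ → ℤ)
    (hwinf : ∀ x y : F₁, x ≠ 0 → y ≠ 0 → winf (x * y) = winf x + winf y)
    (hw0 : ∀ x y : F₁, x ≠ 0 → y ≠ 0 → w0 (x * y) = w0 x + w0 y)
    (hαinf : ∀ x : F, x ≠ 0 → winf (Nα x) = ord ca x + ord cc x)
    (hα0 : ∀ x : F, x ≠ 0 → w0 (Nα x) = q * ord cb x)
    (hβinf : ∀ x : F, x ≠ 0 → winf (Nβ x) = q * ord ca x)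
    (hβ0 : ∀ x : F, x ≠ 0 → w0 (Nβ x) = ord cc x + ord cb x)
    -- the exponent
    (r : ℕ) {ζm : A₀} (hζm : IsPrimitiveRoot ζm (p ^ r))
    -- the horizontal orders
    (Hor : F → Prop) (hHmul : ∀ x y : F, Hor x → Hor y → Hor (x * y))
    (hHinv : ∀ x : F, Hor x → Hor x⁻¹)
    (hHconst : ∀ e : E, e ≠ 0 → Hor (algebraMap E F e))
    (hHpow : ∀ x : F, x ≠ 0 → Hor (x ^ (p ^ r)))
    -- the closed points
    (hpts : ∀ i : AtPt (F := F) π t ⊕ AtPt (F := F) π t⁻¹,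
      @S36PtInput F₁ F _ _ κ Hor (p ^ r) α β Nα Nβ (algebraMap E F₁ (algebraMap A₀ E ζm)) V
        ca cb cc (atO π t i) (stb_atO_isLocalRing (π := π) t i) (atInc π t V i))
    {u : F} (hu : u ≠ 0) (hHu : Hor u)
    (hNα : ∃ (a : E) (f : F₁), Nα u = algebraMap E F₁ a * f ^ (p ^ r))
    (hNβ : ∃ (a : E) (f : F₁), Nβ u = algebraMap E F₁ a * f ^ (p ^ r)) :
    ∃ (a : E) (h : F),
      u ^ ((q + 1) * ((q - 1) * ((q - 1) * (q + 1)))) = algebraMap E F a * h ^ (p ^ r) := by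
  classical
  -- the trivial case
  rcases Nat.eq_zero_or_pos r with hr | hr
  · subst hr
    exact ⟨1, u ^ ((q + 1) * ((q - 1) * ((q - 1) * (q + 1)))), by simp⟩
  have hm : 0 < p ^ r := pow_pos hp.pos r
  have hQ : 0 < q := hq.pos
  have hqZ : (q : ℤ) ≠ 0 := by exact_mod_cast hQ.ne'
  have hQm : Nat.Coprime q (p ^ r) :=
    Nat.Coprime.pow_right r ((Nat.coprime_primes hq hp).mpr hqp)
  have hπ0 : algebraMap A₀ F π ≠ 0 :=
    (map_ne_zero_iff _ (zch_algebraMap_injective (A₀ := A₀) (E := E) (L := F))).mpr hπ.ne_zero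
  have hπE0 : algebraMap A₀ E π ≠ 0 :=
    (map_ne_zero_iff _ (IsFractionRing.injective A₀ E)).mpr hπ.ne_zero
  have hAV : ∀ c (a : A₀), algebraMap A₀ F a ∈ V c := fun c a =>
    hBV₁ c _ (mem_zchClosure.mp ((zchClosure (A₀ := A₀) ({t} : Set F)).algebraMap_mem a))
  have hinj₁ : Function.Injective (algebraMap E F₁) := (algebraMap E F₁).injective
  have hinjF : Function.Injective (algebraMap E F) := (algebraMap E F).injective
  have htower : ∀ a : A₀, algebraMap E F (algebraMap A₀ E a) = algebraMap A₀ F a := fun a =>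
    (IsScalarTower.algebraMap_apply A₀ E F a).symm
  have hunitm := s36ta_unit_pow hp.pos hunit r
  -- `ζ` of order `p`
  have hζ : IsPrimitiveRoot (ζm ^ (p ^ (r - 1))) p := by
    have h := hζm.pow_of_dvd (pow_ne_zero (r - 1) hp.pos.ne') (pow_dvd_pow p (Nat.sub_le r 1))
    have e : p ^ r / p ^ (r - 1) = p := by
      rw [Nat.pow_div (Nat.sub_le r 1) hp.pos]
      have : r - (r - 1) = 1 := by omega
      rw [this, pow_one]
    rwa [e] at h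
  -- orders of the constants
  have hordu : ∀ c (a : A₀), IsUnit a → ord c (algebraMap A₀ F a) = 0 := fun c a ha =>
    (hord0 c _ (ng_ne_zero_of_val (s36ta_val_unit (V c) (hAV c) ha))).mpr
      (s36ta_val_unit (V c) (hAV c) ha)
  have hconstα : ∀ e : E, e ≠ 0 → (q : ℤ) * winf (algebraMap E F₁ e)
      = ord ca (algebraMap E F e) + ord cc (algebraMap E F e) := by
    intro e he
    rw [← hαinf _ ((map_ne_zero_iff _ hinjF).mpr he), hNαc,
      s36ta_ord_pow hwinf ((map_ne_zero_iff _ hinj₁).mpr he)]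
  have hconstα0 : ∀ e : E, e ≠ 0 → (q : ℤ) * w0 (algebraMap E F₁ e)
      = q * ord cb (algebraMap E F e) := by
    intro e he
    rw [← hα0 _ ((map_ne_zero_iff _ hinjF).mpr he), hNαc,
      s36ta_ord_pow hw0 ((map_ne_zero_iff _ hinj₁).mpr he)]
  have hwinfπ : winf (algebraMap E F₁ (algebraMap A₀ E π)) = 1 := by
    have h := hconstα _ hπE0
    rw [htower, hπa, hπc] at h
    have h2 : (q : ℤ) * winf (algebraMap E F₁ (algebraMap A₀ E π)) = q * 1 := by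
      rw [h]; ring
    exact mul_left_cancel₀ hqZ h2
  have hwinfu : ∀ a : A₀, IsUnit a → winf (algebraMap E F₁ (algebraMap A₀ E a)) = 0 := by
    intro a ha
    have ha0 : algebraMap A₀ E a ≠ 0 :=
      (map_ne_zero_iff _ (IsFractionRing.injective A₀ E)).mpr ha.ne_zero
    have h := hconstα _ ha0
    rw [htower, hordu ca a ha, hordu cc a ha, add_zero] at h
    exact (mul_eq_zero.mp h).resolve_left hqZ
  have hw0π : w0 (algebraMap E F₁ (algebraMap A₀ E π)) = 1 := by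
    have h := hconstα0 _ hπE0
    rw [htower, hπb] at h
    exact mul_left_cancel₀ hqZ h
  have hw0u : ∀ a : A₀, IsUnit a → w0 (algebraMap E F₁ (algebraMap A₀ E a)) = 0 := by
    intro a ha
    have ha0 : algebraMap A₀ E a ≠ 0 :=
      (map_ne_zero_iff _ (IsFractionRing.injective A₀ E)).mpr ha.ne_zero
    have h := hconstα0 _ ha0
    rw [htower, hordu cb a ha, mul_zero] at h
    exact (mul_eq_zero.mp h).resolve_left hqZ
  have hwconst : ∀ e : E, e ≠ 0 → winf (algebraMap E F₁ e) = w0 (algebraMap E F₁ e) := by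
    intro e he
    refine s36ta_const_ord_eq hπ (fun e => winf (algebraMap E F₁ e))
      (fun e => w0 (algebraMap E F₁ e)) ?_ ?_ (hwinfπ.trans hw0π.symm)
      (fun a ha => (hwinfu a ha).trans (hw0u a ha).symm) he
    · intro x y hx hy
      show winf (algebraMap E F₁ (x * y)) = _
      rw [map_mul]
      exact hwinf _ _ ((map_ne_zero_iff _ hinj₁).mpr hx) ((map_ne_zero_iff _ hinj₁).mpr hy)
    · intro x y hx hy
      show w0 (algebraMap E F₁ (x * y)) = _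
      rw [map_mul]
      exact hw0 _ _ ((map_ne_zero_iff _ hinj₁).mpr hx) ((map_ne_zero_iff _ hinj₁).mpr hy)
  -- STEP 1: the vertical orders
  obtain ⟨a₁, f₁, hN₁⟩ := hNα
  obtain ⟨a₂, f₂, hN₂⟩ := hNβ
  have ha₁0 : a₁ ≠ 0 := by
    rintro rfl
    rw [map_zero, zero_mul] at hN₁
    exact ng_norm_ne_zero Nα hu hN₁
  have ha₂0 : a₂ ≠ 0 := by
    rintro rfl
    rw [map_zero, zero_mul] at hN₂
    exact ng_norm_ne_zero Nβ hu hN₂
  obtain ⟨k, hka, hkb, hkc⟩ := ng_vertical (va := ord ca) (vb := ord cb) (vc := ord cc) hm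
    hwinf hw0 hαinf hα0 hβinf hβ0 hu (hwconst a₁ ha₁0) (hwconst a₂ ha₂0)
    ((map_ne_zero_iff _ hinj₁).mpr ha₁0) ((map_ne_zero_iff _ hinj₁).mpr ha₂0) hN₁ hN₂
  set e₀ : E := algebraMap A₀ E π ^ (-k) with he₀
  have he₀0 : e₀ ≠ 0 := zpow_ne_zero _ hπE0
  have he₀F : algebraMap E F e₀ = algebraMap A₀ F π ^ (-k) := by
    rw [he₀, map_zpow₀, htower]
  set x₁ : F := u ^ (q + 1) * algebraMap E F e₀ with hx₁
  have hx₁0 : x₁ ≠ 0 := mul_ne_zero (pow_ne_zero _ hu) ((map_ne_zero_iff _ hinjF).mpr he₀0)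
  have hordx : ∀ c, ord c x₁ = ((q : ℤ) + 1) * ord c u - k * ord c (algebraMap A₀ F π) := by
    intro c
    rw [hx₁, hord c _ _ (pow_ne_zero _ hu) ((map_ne_zero_iff _ hinjF).mpr he₀0),
      s36ta_ord_pow (hord c) hu, he₀F, s36ta_ord_zpow (hord c) hπ0]
    push_cast
    ring
  have hdvd : ∀ c, ((p ^ r : ℕ) : ℤ) ∣ ord c x₁ := by
    intro c
    rw [hordx c]
    rcases hκ c with rfl | rfl | rfl
    · rw [hπa, mul_one]; exact hka
    · rw [hπb, mul_one]; exact hkb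
    · rw [hπc, mul_comm k]; exact hkc
  have hA : ∀ c, StbArch (V c) := by
    intro c x z hz
    obtain ⟨N, hN⟩ := harch c z x hz
    exact ⟨N, by rwa [mul_comm] at hN⟩
  have hinc : ∀ c c', c ≠ c' → ¬ V c ≤ V c' := fun c c' hcc' =>
    stb_not_le_of_ne (hA c) hπ0 (hπV c') (hne c c' hcc')
  obtain ⟨H, hH0, hHu⟩ := s36ta_exists_unit V hinc hA ord hord hord0
    (fun c => if c = cc then ϖc else algebraMap A₀ F π)
    (fun c => by by_cases h : c = cc <;> simp [h, hϖc0, hπ0])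
    (fun c => by
      rcases hκ c with rfl | rfl | rfl
      · simp only [if_neg hac]; exact hπa
      · simp only [if_neg hbc]; exact hπb
      · simp only [if_true]; exact hϖc)
    hx₁0 hdvd
  set y₁ : F := x₁ * (H ^ (p ^ r))⁻¹ with hy₁
  have hy₁0 : y₁ ≠ 0 := ng_ne_zero_of_val (hHu ca)
  have hordy : ∀ c, ord c y₁ = 0 := fun c => (hord0 c _ hy₁0).mpr (hHu c)
  have hHory₁ : Hor y₁ := by
    refine hHmul _ _ (hHmul _ _ ?_ (hHconst e₀ he₀0)) (hHinv _ (hHpow H hH0))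
    clear hx₁ hy₁ hordx hdvd hHu
    induction (q + 1) with
    | zero =>
      have := hHconst 1 one_ne_zero
      simpa using this
    | succ n ih => rw [pow_succ]; exact hHmul _ _ ih hHu
  -- the norms of `y₁` are `m`-th powers
  obtain ⟨g₁, hg₁⟩ := s36ta_norm_pow hπ hm hunitm Nα hNαc winf hwinf hwinfπ hwinfu hu hH0 he₀0
    hN₁ (by
      have := hαinf y₁ hy₁0
      rw [hordy ca, hordy cc, add_zero] at this
      exact this)
  obtain ⟨g₂, hg₂⟩ := s36ta_norm_pow hπ hm hunitm Nβ hNβc w0 hw0 hw0π hw0u hu hH0 he₀0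
    hN₂ (by
      have := hβ0 y₁ hy₁0
      rw [hordy cc, hordy cb, add_zero] at this
      exact this)
  -- STEP 2: toric
  obtain ⟨ta, tb, tc, hta, htb, htc, hNY₁α, hNY₁β⟩ :=
    ng_toric_pow Dα Dβ hQm hQ hm (hHu ca) (hHu cb) (hHu cc) hg₁ hg₂
  set Y₁ : F := y₁ ^ (q - 1) with hY₁
  have hY₁u : ∀ c, (V c).valuation Y₁ = 1 := fun c => ng_val_pow (hHu c) _
  have hHpowNat : ∀ (x : F) (n : ℕ), Hor x → Hor (x ^ n) := by
    intro x n hx
    induction n with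
    | zero =>
      have := hHconst 1 one_ne_zero
      simpa using this
    | succ n ih => rw [pow_succ]; exact hHmul _ _ ih hx
  have hHorY₁ : Hor Y₁ := hHpowNat _ _ hHory₁
  -- STEP 3: trivial gluing
  set ζ₁ : F₁ := algebraMap E F₁ (algebraMap A₀ E ζm) with hζ₁def
  have hζ₁ : IsPrimitiveRoot ζ₁ (p ^ r) :=
    (hζm.map_of_injective (IsFractionRing.injective A₀ E)).map_of_injective hinj₁
  have hαβ : α ζ₁ = β ζ₁ := by rw [hζ₁def, hαc, hβc]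
  obtain ⟨na, nb, hTa, hTb, hTc, Hloc⟩ := s36ng_trivial_gluing.{_, _, uF} Dα Dβ hQ hm hζ₁ hαβ
    (hY₁u ca) (hY₁u cb) (hY₁u cc) hNY₁α hNY₁β hta htb htc
  set cexp : ℕ := (q - 1) * (q + 1) with hcexp
  set T : κ → F := fun c => if c = ca then α ζ₁ ^ na * ta ^ cexp
    else if c = cb then α ζ₁ ^ nb * tb ^ cexp else tc ^ cexp with hT
  have hTca : T ca = α ζ₁ ^ na * ta ^ cexp := by simp only [hT, if_true]
  have hTcb : T cb = α ζ₁ ^ nb * tb ^ cexp := by simp only [hT, if_neg hab.symm, if_true]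
  have hTcc : T cc = tc ^ cexp := by simp only [hT, if_neg hac.symm, if_neg hbc.symm]
  have htoric : ∀ c, NgC (V c) (Y₁ ^ cexp) (T c ^ (p ^ r)) := by
    intro c
    rcases hκ c with rfl | rfl | rfl
    · rw [hTca]; exact hTa
    · rw [hTcb]; exact hTb
    · rw [hTcc]; exact hTc
  -- STEP 4: the abstract theorem
  have hαζ : α ζ₁ = algebraMap A₀ F ζm := by rw [hζ₁def, hαc, htower]
  obtain ⟨h₀, hh₀⟩ := aq_main hπ ht hcl hp hpu hζ hunit hq hqp hqπ N V hne hBV₁ hBV₂ hπV hKR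
    hram c₀ hU hG harch r T (fun c => htoric c) (fun i => by
      haveI := stb_atO_isLocalRing (π := π) t i
      exact s36ta_pointData Hor hm α β Nα Nβ ζ₁ V ca cb cc hκ hab hac hbc (atO π t i)
        (atInc π t V i) (fun c hc => stb_atO_le V hBV₁ hBV₂ i c hc) (hpts i) cexp hY₁u hHorY₁
        (hHpowNat _ _ hHorY₁) hta htb htc
        ⟨algebraMap A₀ F ζm, s36ta_algebraMap_mem_atO t i ζm⟩ hαζ.symm T hTca hTcb hTcc htoric
        (fun Oα Oβ K _ ev => Hloc (atO π t i) Oα Oβ K ev))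
  -- STEP 5: conclusion
  refine ⟨(e₀⁻¹) ^ ((q - 1) * cexp), h₀ * H ^ ((q - 1) * cexp), ?_⟩
  have hce0 : algebraMap E F e₀ ≠ 0 := (map_ne_zero_iff _ hinjF).mpr he₀0
  have hHm0 : H ^ (p ^ r) ≠ 0 := pow_ne_zero _ hH0
  have e1 : u ^ (q + 1) = y₁ * (algebraMap E F e₀)⁻¹ * H ^ (p ^ r) := by
    rw [hy₁, hx₁]
    field_simp
  have e2 : y₁ ^ ((q - 1) * cexp) = h₀ ^ (p ^ r) := by
    rw [hh₀, hY₁, ← pow_mul]
  rw [pow_mul, e1, mul_pow, mul_pow, e2, map_pow, map_inv₀, mul_pow, ← pow_mul, ← pow_mul,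
    mul_comm (p ^ r) ((q - 1) * cexp)]
  ring

end Main

end Fermat.Agent.S36


end ZBS36_026_1

/-! ### bundled: `Fermat.Agent.S36.PtsAll` -/
section ZBS36_026_2
/-
S36 (Carayol at `q² ∥ M`), geometric clause, (I6)(e) (helper31): CLASSIFICATION of the closed
points of the chart `j` of level `M q²` and ASSEMBLY of `h₁` (the chart-`j` half of `hpts`).

* `s36pa_le_of_uniq`      : if `𝔫` is the only prime of `S` over `𝔫 ∩ R` (`R → S` integral),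
                            every ideal of `S` whose contraction lies in `𝔫 ∩ R` lies in `𝔫`.
* `s36pa_through_of_uniq` : valuation form: `V′` through `𝔫`, `V ∩ F₁ = V′ ∩ F₁` (along `φ`),
                            `𝔫` unique over its contraction ⇒ `V` through `𝔫`.
* `s36pa_classify`        : pure logic: "at least one" + "two ⇒ three" ⇒ "exactly one, or all
                            three".
* `s36pa_h1`              : `S36PtInput` at every closed point of the chart `t`, from the four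
                            case theorems (one-component points of `C_a`, `C_b`, `C_c`; triple
                            points) and the incidence facts.
-/

set_option autoImplicit false
set_option linter.unusedSectionVars false
set_option linter.unusedVariables false
set_option linter.style.haveILetI false

namespace Fermat.Agent.S36

open Fermat.Agent.UNIP Fermat.Agent.STB

section Abs

variable {R S : Type*} [CommRing R] [CommRing S]

/-- **Lying-over + uniqueness.**  If `𝔫` is the only prime of `S` over `𝔫 ∩ R`, every ideal of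
`S` whose contraction is contained in `𝔫 ∩ R` is contained in `𝔫`. -/
theorem s36pa_le_of_uniq (g : R →+* S) (hg : g.IsIntegral) (𝔫 : Ideal S) [𝔫.IsPrime]
    (huniq : ∀ 𝔫₂ : Ideal S, 𝔫₂.IsPrime → 𝔫₂.comap g = 𝔫.comap g → 𝔫₂ = 𝔫)
    (P : Ideal S) (hP : P.comap g ≤ 𝔫.comap g) : P ≤ 𝔫 := by
  letI : Algebra R S := g.toAlgebra
  haveI : Algebra.IsIntegral R S := ⟨hg⟩
  haveI : (𝔫.comap g).IsPrime := Ideal.comap_isPrime _ _
  obtain ⟨Q, hQ, hQ', eQ⟩ :=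
    Ideal.exists_ideal_over_prime_of_isIntegral (R := R) (S := S) (𝔫.comap g) P hP
  rw [← huniq Q hQ' eQ]
  exact hQ

variable {F₁ F : Type*} [Field F₁] [Field F] [Algebra S F]

/-- membership in the nonunits of a restriction -/
theorem s36pa_mem_nonunits_comap (φ : F₁ →+* F) (V : ValuationSubring F) (x : F₁) :
    x ∈ (V.comap φ).nonunits ↔ φ x ∈ V.nonunits := by
  rw [ValuationSubring.mem_nonunits_iff_exists_mem_maximalIdeal,
    ValuationSubring.mem_nonunits_iff_exists_mem_maximalIdeal]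
  constructor
  · rintro ⟨hx, hm⟩
    have hxV : φ x ∈ V := hx
    refine ⟨hxV, ?_⟩
    rw [IsLocalRing.mem_maximalIdeal, mem_nonunits_iff] at hm ⊢
    intro hu
    apply hm
    obtain ⟨⟨u, v, huv, hvu⟩, hu'⟩ := hu
    have hu1 : (u : F) = φ x := congrArg Subtype.val hu'
    have hx0 : x ≠ 0 := by
      rintro rfl
      rw [map_zero] at hu1
      have : (u : F) * (v : F) = 1 := congrArg Subtype.val huv
      rw [hu1, zero_mul] at this
      exact zero_ne_one this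
    have hv1 : (v : F) = φ x⁻¹ := by
      have h1 : (u : F) * (v : F) = 1 := congrArg Subtype.val huv
      rw [hu1] at h1
      rw [map_inv₀]
      exact eq_inv_of_mul_eq_one_right h1
    have hxinv : x⁻¹ ∈ V.comap φ := by
      show φ x⁻¹ ∈ V
      rw [← hv1]
      exact v.2
    refine ⟨⟨⟨x, hx⟩, ⟨x⁻¹, hxinv⟩, ?_, ?_⟩, rfl⟩
    · apply Subtype.ext
      exact mul_inv_cancel₀ hx0
    · apply Subtype.ext
      exact inv_mul_cancel₀ hx0
  · rintro ⟨hx, hm⟩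
    have hxW : x ∈ V.comap φ := hx
    refine ⟨hxW, ?_⟩
    rw [IsLocalRing.mem_maximalIdeal, mem_nonunits_iff] at hm ⊢
    intro hu
    apply hm
    obtain ⟨⟨u, v, huv, hvu⟩, hu'⟩ := hu
    have hu1 : (u : F₁) = x := congrArg Subtype.val hu'
    have h1 : (u : F₁) * (v : F₁) = 1 := congrArg Subtype.val huv
    have h2 : (v : F₁) * (u : F₁) = 1 := congrArg Subtype.val hvu
    refine ⟨⟨⟨φ x, hx⟩, ⟨φ v, v.2⟩, ?_, ?_⟩, rfl⟩
    · apply Subtype.ext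
      show φ x * φ v = 1
      rw [← map_mul, ← hu1, h1, map_one]
    · apply Subtype.ext
      show φ v * φ x = 1
      rw [← map_mul, ← hu1, h2, map_one]

/-- the centre `𝔪(V) ∩ S` of a valuation ring `V ⊇ S` -/
def s36paCentre (V : ValuationSubring F) (hSV : ∀ s : S, algebraMap S F s ∈ V) : Ideal S :=
  (IsLocalRing.maximalIdeal ↥V).comap
    ((algebraMap S F).codRestrict V.toSubring hSV)

theorem s36pa_mem_centre (V : ValuationSubring F) (hSV : ∀ s : S, algebraMap S F s ∈ V)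
    (s : S) : s ∈ s36paCentre V hSV ↔ algebraMap S F s ∈ V.nonunits := by
  rw [s36paCentre, Ideal.mem_comap, ValuationSubring.mem_nonunits_iff_exists_mem_maximalIdeal]
  constructor
  · intro h
    exact ⟨hSV s, h⟩
  · rintro ⟨_, h⟩
    exact h

/-- **Valuation form.**  `V′` through `𝔫`, `V` and `V′` have the same restriction to `F₁`,
`𝔫` is the only prime over its contraction: then `V` passes through `𝔫`. -/
theorem s36pa_through_of_uniq (g : R →+* S) (hg : g.IsIntegral) (ρ : R →+* F₁)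
    (φ : F₁ →+* F) (hφ : ∀ r : R, φ (ρ r) = algebraMap S F (g r))
    (𝔫 : Ideal S) [𝔫.IsPrime]
    (huniq : ∀ 𝔫₂ : Ideal S, 𝔫₂.IsPrime → 𝔫₂.comap g = 𝔫.comap g → 𝔫₂ = 𝔫)
    (V V' : ValuationSubring F) (hSV : ∀ s : S, algebraMap S F s ∈ V)
    (hcomap : V.comap φ = V'.comap φ)
    (hthr' : ∀ s : S, algebraMap S F s ∈ V'.nonunits → s ∈ 𝔫) :
    ∀ s : S, algebraMap S F s ∈ V.nonunits → s ∈ 𝔫 := by
  have key : s36paCentre V hSV ≤ 𝔫 := by
    refine s36pa_le_of_uniq g hg 𝔫 huniq _ ?_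
    intro r hr
    rw [Ideal.mem_comap, s36pa_mem_centre, ← hφ, ← s36pa_mem_nonunits_comap, hcomap,
      s36pa_mem_nonunits_comap, hφ] at hr
    exact hthr' _ hr
  intro s hs
  exact key ((s36pa_mem_centre V hSV s).mpr hs)

end Abs

section Logic

variable {κ : Type*}

/-- **Classification, pure logic.** -/
theorem s36pa_classify (thr : κ → Prop) (ca cb cc : κ) (hκ : ∀ c, c = ca ∨ c = cb ∨ c = cc)
    (h1 : ∃ c, thr c) (hab : thr ca → thr cb → thr cc) (hac : thr ca → thr cc → thr cb)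
    (hbc : thr cb → thr cc → thr ca) :
    (thr ca ∧ ∀ c, thr c → c = ca) ∨ (thr cb ∧ ∀ c, thr c → c = cb) ∨
      (thr cc ∧ ∀ c, thr c → c = cc) ∨ (∀ c, thr c) := by
  classical
  by_cases ha : thr ca <;> by_cases hb : thr cb <;> by_cases hc : thr cc
  · right; right; right
    intro c
    rcases hκ c with rfl | rfl | rfl <;> assumption
  · exact absurd (hab ha hb) hc
  · exact absurd (hac ha hc) hb
  · left
    refine ⟨ha, fun c hcthr => ?_⟩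
    rcases hκ c with rfl | rfl | rfl
    · rfl
    · exact absurd hcthr hb
    · exact absurd hcthr hc
  · exact absurd (hbc hb hc) ha
  · right; left
    refine ⟨hb, fun c hcthr => ?_⟩
    rcases hκ c with rfl | rfl | rfl
    · exact absurd hcthr ha
    · rfl
    · exact absurd hcthr hc
  · right; right; left
    refine ⟨hc, fun c hcthr => ?_⟩
    rcases hκ c with rfl | rfl | rfl
    · exact absurd hcthr ha
    · exact absurd hcthr hb
    · rfl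
  · obtain ⟨c, hcthr⟩ := h1
    rcases hκ c with rfl | rfl | rfl
    · exact absurd hcthr ha
    · exact absurd hcthr hb
    · exact absurd hcthr hc

end Logic

section Chart

variable {A₀ E F F₁ : Type*} [CommRing A₀] [IsDomain A₀] [IsDiscreteValuationRing A₀]
  [Field E] [Algebra A₀ E] [IsFractionRing A₀ E] [Field F] [Algebra E F] [Algebra A₀ F]
  [IsScalarTower A₀ E F] [Field F₁] {κ : Type*} {π : A₀}

/-- **`h₁`** : `S36PtInput` at every closed point of the chart `t`, from the case theorems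
(a) one-component points of `C_a`, (a′) of `C_b`, (b) of `C_c`, (c) triple points, and the
incidence facts "at least one" (`aq_hpt`) and "two ⇒ three". -/
theorem s36pa_h1 {t : F} (V : κ → ValuationSubring F)
    (ca cb cc : κ) (hκ : ∀ c, c = ca ∨ c = cb ∨ c = cc)
    {Hor : F → Prop} {m : ℕ} {α β : F₁ →+* F} {Nα Nβ : F →* F₁} {ζ₁ : F₁}
    (hpt : ∀ 𝔫 : AtPt (F := F) π t, ∃ c, atThrough 𝔫 (V c))
    (hab : ∀ 𝔫 : AtPt (F := F) π t, atThrough 𝔫 (V ca) → atThrough 𝔫 (V cb) →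
      atThrough 𝔫 (V cc))
    (hac : ∀ 𝔫 : AtPt (F := F) π t, atThrough 𝔫 (V ca) → atThrough 𝔫 (V cc) →
      atThrough 𝔫 (V cb))
    (hbc : ∀ 𝔫 : AtPt (F := F) π t, atThrough 𝔫 (V cb) → atThrough 𝔫 (V cc) →
      atThrough 𝔫 (V ca))
    (hA : ∀ 𝔫 : AtPt (F := F) π t, atThrough 𝔫 (V ca) → (∀ c, atThrough 𝔫 (V c) → c = ca) →
      @S36PtInput F₁ F _ _ κ Hor m α β Nα Nβ ζ₁ V ca cb cc (atO π t (Sum.inl 𝔫))
        (stb_atO_isLocalRing (π := π) t (Sum.inl 𝔫)) (atInc π t V (Sum.inl 𝔫)))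
    (hB : ∀ 𝔫 : AtPt (F := F) π t, atThrough 𝔫 (V cb) → (∀ c, atThrough 𝔫 (V c) → c = cb) →
      @S36PtInput F₁ F _ _ κ Hor m α β Nα Nβ ζ₁ V ca cb cc (atO π t (Sum.inl 𝔫))
        (stb_atO_isLocalRing (π := π) t (Sum.inl 𝔫)) (atInc π t V (Sum.inl 𝔫)))
    (hC : ∀ 𝔫 : AtPt (F := F) π t, atThrough 𝔫 (V cc) → (∀ c, atThrough 𝔫 (V c) → c = cc) →
      @S36PtInput F₁ F _ _ κ Hor m α β Nα Nβ ζ₁ V ca cb cc (atO π t (Sum.inl 𝔫))
        (stb_atO_isLocalRing (π := π) t (Sum.inl 𝔫)) (atInc π t V (Sum.inl 𝔫)))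
    (hT : ∀ 𝔫 : AtPt (F := F) π t, (∀ c, atThrough 𝔫 (V c)) →
      @S36PtInput F₁ F _ _ κ Hor m α β Nα Nβ ζ₁ V ca cb cc (atO π t (Sum.inl 𝔫))
        (stb_atO_isLocalRing (π := π) t (Sum.inl 𝔫)) (atInc π t V (Sum.inl 𝔫))) :
    ∀ 𝔫 : AtPt (F := F) π t,
      @S36PtInput F₁ F _ _ κ Hor m α β Nα Nβ ζ₁ V ca cb cc (atO π t (Sum.inl 𝔫))
        (stb_atO_isLocalRing (π := π) t (Sum.inl 𝔫)) (atInc π t V (Sum.inl 𝔫)) := by
  intro 𝔫
  rcases s36pa_classify (fun c => atThrough 𝔫 (V c)) ca cb cc hκ (hpt 𝔫) (hab 𝔫) (hac 𝔫)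
    (hbc 𝔫) with h | h | h | h
  · exact hA 𝔫 h.1 h.2
  · exact hB 𝔫 h.1 h.2
  · exact hC 𝔫 h.1 h.2
  · exact hT 𝔫 h

end Chart

end Fermat.Agent.S36


end ZBS36_026_2

/-! ### bundled: `Fermat.Agent.S36.PtsChart` -/
section ZBS36_026_3
/-
S36 (Carayol at `q² ∥ M`), geometric clause, input (I6) `hpts` of `s36tb_small`: CHART
INDEPENDENCE (helper84).

`hpts` asks for `S36PtInput … (atO π t i) (atInc π t V i)` at every closed point `i` of BOTH charts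
`B_t`, `B_{t⁻¹}` (integral closures of `A₀[t]`, `A₀[t⁻¹]` in `F`).  `S36PtInput` depends only on
the local ring `O = atO π t i ⊆ F` and on `thr = atInc π t V i`, and `thr c ↔ O ⊆ V c`.  A closed
point `𝔫` of `B_{t⁻¹}` with `t⁻¹ ∉ 𝔫` has the same local ring as a closed point of `B_t`.  Hence:

* `s36pc_congr`       : `S36PtInput` transfers along `O = O'`, `thr ↔ thr'`.
* `s36pc_through_iff` : `atThrough 𝔫 W ↔ atLoc 𝔫 ⊆ W`.
* `s36pc_exists_pt`   : `u u' = 1`, `𝔫` a closed point of `B_u`, `u ∉ 𝔫` ⇒ there is a closed point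
                        `𝔫'` of `B_{u'}` with `atLoc 𝔫' = atLoc 𝔫`.
* `s36pc_hpts`        : `hpts` at all points of the chart `t` + at the points of the chart `t⁻¹`
                        with `t⁻¹ ∈ 𝔫` (the points over `t = ∞`) ⇒ `hpts` everywhere.
-/

set_option autoImplicit false
set_option linter.unusedSectionVars false
set_option linter.unusedVariables false
set_option linter.style.haveILetI false

namespace Fermat.Agent.S36

open Fermat.Agent.UNIP Fermat.Agent.STB Fermat.Agent.INJ Polynomial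

section Congr

variable {F₁ F : Type*} [Field F₁] [Field F] {κ : Type*}

/-- `S36PtInput` depends only on the local ring and on the incidence predicate. -/
theorem s36pc_congr {Hor : F → Prop} {m : ℕ} {α β : F₁ →+* F} {Nα Nβ : F →* F₁} {ζ₁ : F₁}
    {V : κ → ValuationSubring F} {ca cb cc : κ} {O O' : Subring F} [hO : IsLocalRing O]
    [hO' : IsLocalRing O'] (h : O = O') {thr thr' : κ → Prop} (hthr : ∀ c, thr c ↔ thr' c)
    (H : S36PtInput Hor m α β Nα Nβ ζ₁ V ca cb cc O thr) :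
    S36PtInput Hor m α β Nα Nβ ζ₁ V ca cb cc O' thr' := by
  subst h
  have h2 : thr = thr' := funext fun c => propext (hthr c)
  subst h2
  exact H

end Congr

section Chart

variable {A₀ E F : Type*} [CommRing A₀] [IsDomain A₀] [IsDiscreteValuationRing A₀]
  [Field E] [Algebra A₀ E] [IsFractionRing A₀ E] [CharZero E]
  [Field F] [Algebra E F] [Algebra A₀ F] [IsScalarTower A₀ E F]
  {π : A₀} {κ : Type*}

/-- `u ∈ B_u` -/
theorem s36pc_self_mem (u : F) : u ∈ zchClosure (A₀ := A₀) ({u} : Set F) := by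
  refine mem_zchClosure.mpr ?_
  have h : u = algebraMap ↥(Algebra.adjoin A₀ ({u} : Set F)) F
      ⟨u, Algebra.subset_adjoin (Set.mem_singleton u)⟩ := rfl
  rw [h]
  exact isIntegral_algebraMap

/-- **Incidence in terms of the local ring**: `W` passes through `𝔫` iff `(B_u)_𝔫 ⊆ W`. -/
theorem s36pc_through_iff {u : F} (𝔫 : AtPt (F := F) π u) (W : ValuationSubring F)
    (hBW : ∀ b : F, IsIntegral ↥(Algebra.adjoin A₀ {u}) b → b ∈ W) :
    atThrough 𝔫 W ↔ ∀ x ∈ atLoc 𝔫, x ∈ W := by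
  haveI := 𝔫.2.1.isPrime
  refine ⟨stb_loc_le 𝔫 W hBW, fun h b hb => ?_⟩
  by_contra hb𝔫
  have hb0 : (b : F) ≠ 0 := by
    intro h0
    apply hb𝔫
    have : b = 0 := Subtype.ext h0
    rw [this]
    exact 𝔫.1.zero_mem
  have hinv : (b : F)⁻¹ ∈ atLoc 𝔫 := by
    refine ⟨1, b, hb𝔫, ?_⟩
    show (b : F) * (b : F)⁻¹ = ((1 : ↥(zchClosure (A₀ := A₀) ({u} : Set F))) : F)
    rw [mul_inv_cancel₀ hb0]
    rfl
  have h1 : (b : F)⁻¹ ∈ W := h _ hinv
  rcases (W.mem_nonunits_iff_or).mp hb with h0 | h0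
  · exact hb0 h0
  · exact h0 h1

/-- incidence depends only on the local ring -/
theorem s36pc_through_congr {u u' : F} (𝔫 : AtPt (F := F) π u) (𝔫' : AtPt (F := F) π u')
    (h : atLoc 𝔫' = atLoc 𝔫) (W : ValuationSubring F)
    (hBW : ∀ b : F, IsIntegral ↥(Algebra.adjoin A₀ {u}) b → b ∈ W)
    (hBW' : ∀ b : F, IsIntegral ↥(Algebra.adjoin A₀ {u'}) b → b ∈ W) :
    atThrough 𝔫 W ↔ atThrough 𝔫' W := by
  rw [s36pc_through_iff 𝔫 W hBW, s36pc_through_iff 𝔫' W hBW', h]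

/-- `B_{u'} ⊆ (B_u)_𝔫` if `u u' = 1` and `u ∉ 𝔫`. -/
theorem s36pc_chart_mem_loc {u u' : F} (huu' : u * u' = 1) (𝔫 : AtPt (F := F) π u)
    (hu𝔫 : (⟨u, s36pc_self_mem u⟩ : ↥(zchClosure (A₀ := A₀) ({u} : Set F))) ∉ 𝔫.1)
    {b : F} (hb : IsIntegral ↥(Algebra.adjoin A₀ {u'}) b) : b ∈ atLoc 𝔫 := by
  haveI := 𝔫.2.1.isPrime
  have hsub : ({u'} : Set F) ⊆ {u, u'} := by
    intro x hx
    exact Or.inr hx
  have h1 : IsIntegral ↥(Algebra.adjoin A₀ {u, u'}) b :=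
    zch_isIntegral_mono (Algebra.adjoin_mono hsub) hb
  obtain ⟨s, hs⟩ := zch_exists_pow_mul_isIntegral huu' h1
  refine ⟨⟨u ^ s * b, mem_zchClosure.mpr hs⟩, ⟨u, s36pc_self_mem u⟩ ^ s, ?_, ?_⟩
  · exact fun h => hu𝔫 (Ideal.IsPrime.mem_of_pow_mem inferInstance s h)
  · rfl

/-- the chart map `A₀[X] → B_u`, `X ↦ u` -/
noncomputable def s36pcEval (u : F) : A₀[X] →+* ↥(zchClosure (A₀ := A₀) ({u} : Set F)) :=
  (aeval (⟨u, s36pc_self_mem u⟩ : ↥(zchClosure (A₀ := A₀) ({u} : Set F)))).toRingHom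

theorem s36pc_eval_coe (u : F) (r : A₀[X]) : ((s36pcEval (A₀ := A₀) u r : _) : F) = aeval u r :=
  (Polynomial.aeval_subalgebra_coe r _ _)

theorem s36pc_eval_X (u : F) :
    s36pcEval (A₀ := A₀) u X = ⟨u, s36pc_self_mem u⟩ := by
  apply Subtype.ext
  rw [s36pc_eval_coe, aeval_X]

theorem s36pc_eval_C (u : F) (a : A₀) :
    s36pcEval (A₀ := A₀) u (C a) = algebraMap A₀ _ a := by
  apply Subtype.ext
  rw [s36pc_eval_coe, aeval_C]
  rfl

/-- `B_u` is integral over `A₀[X]` -/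
theorem s36pc_eval_isIntegral (u : F) : (s36pcEval (A₀ := A₀) (F := F) u).IsIntegral := by
  intro x
  obtain ⟨q, hqm, hq⟩ := (zch_isIntegral_iff u (x : F)).mp (mem_zchClosure.mp x.2)
  refine ⟨q, hqm, Subtype.ext ?_⟩
  have h := Polynomial.hom_eval₂ q (s36pcEval (A₀ := A₀) u)
    (zchClosure (A₀ := A₀) ({u} : Set F)).val.toRingHom x
  have e : (zchClosure (A₀ := A₀) ({u} : Set F)).val.toRingHom.comp (s36pcEval (A₀ := A₀) u) =
      (aeval u : A₀[X] →ₐ[A₀] F).toRingHom := by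
    ext r
    · show ((s36pcEval (A₀ := A₀) u (C r) : _) : F) = aeval u (C r)
      rw [s36pc_eval_coe]
    · show ((s36pcEval (A₀ := A₀) u X : _) : F) = aeval u X
      rw [s36pc_eval_coe]
  rw [e] at h
  show ((eval₂ (s36pcEval (A₀ := A₀) u) x q : _) : F) = ((0 : ↥(zchClosure (A₀ := A₀) ({u} : Set F))) : F)
  exact h.trans hq

/-- A prime ideal of `A₀[X]` which contains `π` and a polynomial with a coefficient `1` is
maximal. -/
theorem s36pc_poly_isMaximal (hπ : Irreducible π) (P : Ideal A₀[X]) [hP : P.IsPrime]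
    (hπP : C π ∈ P) {r : A₀[X]} (hr : r ∈ P) {N : ℕ} (hrN : r.coeff N = 1) : P.IsMaximal := by
  haveI hmax : (Ideal.span {π} : Ideal A₀).IsMaximal :=
    PrincipalIdealRing.isMaximal_of_irreducible hπ
  letI : Field (A₀ ⧸ (Ideal.span {π} : Ideal A₀)) := Ideal.Quotient.field _
  set ρ : A₀[X] →+* (A₀ ⧸ (Ideal.span {π} : Ideal A₀))[X] :=
    Polynomial.mapRingHom (Ideal.Quotient.mk (Ideal.span {π})) with hρ
  have hρs : Function.Surjective ρ :=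
    Polynomial.map_surjective _ Ideal.Quotient.mk_surjective
  have hker : RingHom.ker ρ ≤ P := by
    rw [hρ, Polynomial.ker_mapRingHom, Ideal.mk_ker, Ideal.map_span, Set.image_singleton,
      Ideal.span_singleton_le_iff_mem]
    exact hπP
  haveI hPb : (P.map ρ).IsPrime := Ideal.map_isPrime_of_surjective hρs hker
  have hne : P.map ρ ≠ ⊥ := by
    intro h0
    have h1 : ρ r ∈ P.map ρ := Ideal.mem_map_of_mem ρ hr
    rw [h0, Ideal.mem_bot] at h1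
    have h2 := congrArg (fun f => f.coeff N) h1
    simp only [hρ, coe_mapRingHom, coeff_map, hrN, map_one, coeff_zero] at h2
    exact one_ne_zero h2
  haveI hPm : (P.map ρ).IsMaximal := Ideal.IsPrime.isMaximal hPb hne
  have hcm : (P.map ρ).comap ρ = P := by
    rw [Ideal.comap_map_of_surjective ρ hρs]
    exact sup_eq_left.mpr hker
  rw [← hcm]
  exact Ideal.comap_isMaximal_of_surjective ρ hρs

/-- an element `b / s` of `B_𝔫` with `b ∈ 𝔫`, `s ∉ 𝔫` is a nonunit of `B_𝔫` -/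
theorem s36pc_mem_maximalIdeal {B : Type*} [CommRing B] [Algebra B F]
    (hinj : Function.Injective (algebraMap B F)) (𝔫 : Ideal B) [h𝔫 : 𝔫.IsPrime]
    [IsLocalRing (ls_localSubring (F := F) 𝔫)]
    (x : ls_localSubring (F := F) 𝔫) {b s : B} (hb : b ∈ 𝔫) (hs : s ∉ 𝔫)
    (h : algebraMap B F s * (x : F) = algebraMap B F b) :
    x ∈ IsLocalRing.maximalIdeal (ls_localSubring (F := F) 𝔫) := by
  rw [IsLocalRing.mem_maximalIdeal, mem_nonunits_iff]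
  intro hu
  obtain ⟨v, hv⟩ := hu.exists_left_inv
  obtain ⟨b₂, s₂, hs₂, hv₂⟩ := v.2
  have hvx : (v : F) * (x : F) = 1 := by
    have := congrArg (fun z : ↥(ls_localSubring (F := F) 𝔫) => (z : F)) hv
    exact this
  have e : algebraMap B F (s₂ * s) = algebraMap B F (b₂ * b) := by
    rw [map_mul, map_mul, ← h, ← hv₂]
    have : algebraMap B F s₂ * (v : F) * (algebraMap B F s * (x : F))
        = algebraMap B F s₂ * algebraMap B F s * ((v : F) * (x : F)) := by ring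
    rw [this, hvx, mul_one]
  have h2 : s₂ * s ∈ 𝔫 := by
    rw [hinj e]
    exact 𝔫.mul_mem_left _ hb
  rcases h𝔫.mem_or_mem h2 with h3 | h3
  · exact hs₂ h3
  · exact hs h3

/-- **Chart independence of the closed points.**  If `u u' = 1` and `𝔫` is a closed point of the
special fibre of `B_u` with `u ∉ 𝔫`, then `(B_u)_𝔫` is the local ring of a closed point of the
special fibre of `B_{u'}`. -/
theorem s36pc_exists_pt (hπ : Irreducible π) {u u' : F} (huu' : u * u' = 1)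
    (𝔫 : AtPt (F := F) π u)
    (hu𝔫 : (⟨u, s36pc_self_mem u⟩ : ↥(zchClosure (A₀ := A₀) ({u} : Set F))) ∉ 𝔫.1) :
    ∃ 𝔫' : AtPt (F := F) π u', atLoc 𝔫' = atLoc 𝔫 := by
  classical
  haveI h𝔫p : 𝔫.1.IsPrime := 𝔫.2.1.isPrime
  haveI h𝔫m : 𝔫.1.IsMaximal := 𝔫.2.1
  have hinj : Function.Injective
      (algebraMap ↥(zchClosure (A₀ := A₀) ({u} : Set F)) F) := Subtype.val_injective
  haveI hloc : IsLocalRing (ls_localSubring (F := F) 𝔫.1) :=
    ls_localSubring_isLocalRing Subtype.val_injective 𝔫.1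
  have hu'u : u' * u = 1 := by rw [mul_comm]; exact huu'
  have hu0 : u ≠ 0 := left_ne_zero_of_mul_eq_one huu'
  have hu'0 : u' ≠ 0 := right_ne_zero_of_mul_eq_one huu'
  have hu'inv : u' = u⁻¹ := eq_inv_of_mul_eq_one_right huu'
  -- `B_{u'} ⊆ O`
  have hB'O : ∀ b : ↥(zchClosure (A₀ := A₀) ({u'} : Set F)),
      algebraMap ↥(zchClosure (A₀ := A₀) ({u'} : Set F)) F b ∈ ls_localSubring (F := F) 𝔫.1 :=
    fun b => s36pc_chart_mem_loc huu' 𝔫 hu𝔫 (mem_zchClosure.mp b.2)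
  set ι : ↥(zchClosure (A₀ := A₀) ({u'} : Set F)) →+* ↥(ls_localSubring (F := F) 𝔫.1) :=
    (algebraMap ↥(zchClosure (A₀ := A₀) ({u'} : Set F)) F).codRestrict
      (ls_localSubring (F := F) 𝔫.1) hB'O with hι
  have hιcoe : ∀ b, ((ι b : ↥(ls_localSubring (F := F) 𝔫.1)) : F) = (b : F) := fun b => rfl
  set 𝔫' : Ideal ↥(zchClosure (A₀ := A₀) ({u'} : Set F)) :=
    (IsLocalRing.maximalIdeal ↥(ls_localSubring (F := F) 𝔫.1)).comap ι with h𝔫'
  haveI h𝔫'p : 𝔫'.IsPrime := Ideal.comap_isPrime ι _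
  -- membership in `𝔫'`
  have hmem : ∀ (b' : ↥(zchClosure (A₀ := A₀) ({u'} : Set F)))
      (b s : ↥(zchClosure (A₀ := A₀) ({u} : Set F))), b ∈ 𝔫.1 → s ∉ 𝔫.1 →
      (s : F) * (b' : F) = (b : F) → b' ∈ 𝔫' := by
    intro b' b s hb hs h
    exact s36pc_mem_maximalIdeal hinj 𝔫.1 (ι b') hb hs h
  have hunit : ∀ (b' : ↥(zchClosure (A₀ := A₀) ({u'} : Set F)))
      (b s : ↥(zchClosure (A₀ := A₀) ({u} : Set F))), b ∉ 𝔫.1 → s ∉ 𝔫.1 →
      (s : F) * (b' : F) = (b : F) → b' ∉ 𝔫' := by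
    intro b' b s hb hs h hb'
    have hu : IsUnit (ι b') := ls_isUnit_of_not_mem hinj 𝔫.1 (ι b') hb hs h
    exact (IsLocalRing.mem_maximalIdeal _).1 hb' hu
  -- `π ∈ 𝔫'`
  have hπ' : algebraMap A₀ ↥(zchClosure (A₀ := A₀) ({u'} : Set F)) π ∈ 𝔫' := by
    refine hmem _ (algebraMap A₀ ↥(zchClosure (A₀ := A₀) ({u} : Set F)) π) 1 𝔫.2.2
      (fun h => h𝔫p.ne_top ((Ideal.eq_top_iff_one _).mpr h)) ?_
    show ((1 : ↥(zchClosure (A₀ := A₀) ({u} : Set F))) : F) * algebraMap A₀ F π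
      = algebraMap A₀ F π
    rw [show ((1 : ↥(zchClosure (A₀ := A₀) ({u} : Set F))) : F) = 1 from rfl, one_mul]
  -- maximality
  have hmax : 𝔫'.IsMaximal := by
    haveI hq : (𝔫.1.comap (s36pcEval (A₀ := A₀) u)).IsMaximal :=
      Ideal.isMaximal_comap_of_isIntegral_of_isMaximal' (s36pcEval (A₀ := A₀) u)
        (s36pc_eval_isIntegral u) 𝔫.1
    have hX : (X : A₀[X]) ∉ 𝔫.1.comap (s36pcEval (A₀ := A₀) u) := by
      rw [Ideal.mem_comap, s36pc_eval_X]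
      exact hu𝔫
    obtain ⟨y, i, hi, hyi⟩ := hq.exists_inv hX
    -- `i = 1 - y X`, constant coefficient `1`
    have hi0 : i.coeff 0 = 1 := by
      have h := congrArg (fun f => f.coeff 0) hyi
      simp only [coeff_add, coeff_one_zero, mul_coeff_zero, coeff_X_zero, mul_zero,
        zero_add] at h
      exact h
    set N : ℕ := i.natDegree with hN
    set r : A₀[X] := reflect N i with hr
    have hrN : r.coeff N = 1 := by
      rw [hr, coeff_reflect, revAt_le le_rfl, Nat.sub_self, hi0]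
    have hrmem : r ∈ 𝔫'.comap (s36pcEval (A₀ := A₀) u') := by
      rw [Ideal.mem_comap]
      refine hmem _ (s36pcEval (A₀ := A₀) u i) (⟨u, s36pc_self_mem u⟩ ^ N) hi
        (fun h => hu𝔫 (Ideal.IsPrime.mem_of_pow_mem inferInstance N h)) ?_
      rw [s36pc_eval_coe, s36pc_eval_coe]
      show u ^ N * aeval u' r = aeval u i
      letI : Invertible u := invertibleOfNonzero hu0
      have hinvu : ⅟u = u' := by
        rw [hu'inv]; exact invOf_eq_inv u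
      have h := eval₂_reflect_mul_pow (algebraMap A₀ F) u N i le_rfl
      rw [hinvu] at h
      rw [aeval_def, aeval_def, hr, mul_comm]
      exact h
    have hCπ : C π ∈ 𝔫'.comap (s36pcEval (A₀ := A₀) u') := by
      rw [Ideal.mem_comap, s36pc_eval_C]
      exact hπ'
    haveI : (𝔫'.comap (s36pcEval (A₀ := A₀) u')).IsPrime := Ideal.comap_isPrime _ _
    have hPmax : (𝔫'.comap (s36pcEval (A₀ := A₀) u')).IsMaximal :=
      s36pc_poly_isMaximal hπ _ hCπ hrmem hrN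
    exact Ideal.isMaximal_of_isIntegral_of_isMaximal_comap' (s36pcEval (A₀ := A₀) u')
      (s36pc_eval_isIntegral u') 𝔫' hPmax
  refine ⟨⟨𝔫', hmax, hπ'⟩, ?_⟩
  -- equality of the local rings
  apply le_antisymm
  · rintro x ⟨b', s', hs', hx⟩
    -- `s'` is a unit of `O`
    have hs'u : IsUnit (ι s') := by
      by_contra hnu
      exact hs' ((IsLocalRing.mem_maximalIdeal _).2 hnu)
    obtain ⟨v, hv⟩ := hs'u.exists_left_inv
    have hx' : x = ((v * ι b' : ↥(ls_localSubring (F := F) 𝔫.1)) : F) := by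
      have h1 : ((v : ↥(ls_localSubring (F := F) 𝔫.1)) : F) * (s' : F) = 1 := by
        have := congrArg (fun z : ↥(ls_localSubring (F := F) 𝔫.1) => (z : F)) hv
        exact this
      have hxF : (s' : F) * x = (b' : F) := hx
      show x = ((v : ↥(ls_localSubring (F := F) 𝔫.1)) : F) * (b' : F)
      rw [← hxF, ← mul_assoc, h1, one_mul]
    rw [hx']
    exact (v * ι b').2
  · rintro x ⟨b, s, hs, hx⟩
    have hxF : (s : F) * x = (b : F) := hx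
    -- move numerator and denominator into `B_{u'}`
    have hsub : ({u} : Set F) ⊆ {u', u} := by
      intro z hz
      exact Or.inr hz
    obtain ⟨k₁, hk₁⟩ := zch_exists_pow_mul_isIntegral hu'u
      (zch_isIntegral_mono (Algebra.adjoin_mono hsub) (mem_zchClosure.mp s.2))
    obtain ⟨k₂, hk₂⟩ := zch_exists_pow_mul_isIntegral hu'u
      (zch_isIntegral_mono (Algebra.adjoin_mono hsub) (mem_zchClosure.mp b.2))
    have hu'mem : ∀ k : ℕ, u' ^ k ∈ zchClosure (A₀ := A₀) ({u'} : Set F) := fun k =>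
      (zchClosure (A₀ := A₀) ({u'} : Set F)).pow_mem (s36pc_self_mem u') k
    have hS : u' ^ (k₁ + k₂) * (s : F) ∈ zchClosure (A₀ := A₀) ({u'} : Set F) := by
      have : u' ^ (k₁ + k₂) * (s : F) = u' ^ k₂ * (u' ^ k₁ * (s : F)) := by
        rw [pow_add]; ring
      rw [this]
      exact (zchClosure (A₀ := A₀) ({u'} : Set F)).mul_mem (hu'mem k₂) (mem_zchClosure.mpr hk₁)
    have hBm : u' ^ (k₁ + k₂) * (b : F) ∈ zchClosure (A₀ := A₀) ({u'} : Set F) := by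
      have : u' ^ (k₁ + k₂) * (b : F) = u' ^ k₁ * (u' ^ k₂ * (b : F)) := by
        rw [pow_add]; ring
      rw [this]
      exact (zchClosure (A₀ := A₀) ({u'} : Set F)).mul_mem (hu'mem k₁) (mem_zchClosure.mpr hk₂)
    refine ⟨⟨_, hBm⟩, ⟨_, hS⟩, ?_, ?_⟩
    · -- the new denominator is a unit of `O`
      refine hunit _ s (⟨u, s36pc_self_mem u⟩ ^ (k₁ + k₂)) hs
        (fun h => hu𝔫 (Ideal.IsPrime.mem_of_pow_mem inferInstance _ h)) ?_
      show u ^ (k₁ + k₂) * (u' ^ (k₁ + k₂) * (s : F)) = (s : F)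
      rw [← mul_assoc, ← mul_pow, huu', one_pow, one_mul]
    · show u' ^ (k₁ + k₂) * (s : F) * x = u' ^ (k₁ + k₂) * (b : F)
      rw [mul_assoc, hxF]

section Pts

variable {F₁ : Type*} [Field F₁]

/-- **(I6), reduction to the chart `t` and the points over `t = ∞`.**  `S36PtInput` at every
closed point of the chart `B_t` and at the closed points `𝔫` of `B_{t⁻¹}` with `t⁻¹ ∈ 𝔫` gives
`S36PtInput` at every closed point of both charts (= the hypothesis `hpts` of `s36ta_main`,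
`s36tb_small`). -/
theorem s36pc_hpts (hπ : Irreducible π) {t : F} (ht0 : t ≠ 0) (V : κ → ValuationSubring F)
    (hBV₁ : ∀ c (b : F), IsIntegral ↥(Algebra.adjoin A₀ {t}) b → b ∈ V c)
    (hBV₂ : ∀ c (b : F), IsIntegral ↥(Algebra.adjoin A₀ {t⁻¹}) b → b ∈ V c)
    {Hor : F → Prop} {m : ℕ} {α β : F₁ →+* F} {Nα Nβ : F →* F₁} {ζ₁ : F₁} {ca cb cc : κ}
    (h₁ : ∀ 𝔫 : AtPt (F := F) π t,
      @S36PtInput F₁ F _ _ κ Hor m α β Nα Nβ ζ₁ V ca cb cc (atO π t (Sum.inl 𝔫))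
        (stb_atO_isLocalRing (π := π) t (Sum.inl 𝔫)) (atInc π t V (Sum.inl 𝔫)))
    (h₂ : ∀ 𝔫 : AtPt (F := F) π t⁻¹,
      (⟨t⁻¹, s36pc_self_mem t⁻¹⟩ : ↥(zchClosure (A₀ := A₀) ({t⁻¹} : Set F))) ∈ 𝔫.1 →
      @S36PtInput F₁ F _ _ κ Hor m α β Nα Nβ ζ₁ V ca cb cc (atO π t (Sum.inr 𝔫))
        (stb_atO_isLocalRing (π := π) t (Sum.inr 𝔫)) (atInc π t V (Sum.inr 𝔫))) :
    ∀ i : AtPt (F := F) π t ⊕ AtPt (F := F) π t⁻¹,
      @S36PtInput F₁ F _ _ κ Hor m α β Nα Nβ ζ₁ V ca cb cc (atO π t i)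
        (stb_atO_isLocalRing (π := π) t i) (atInc π t V i) := by
  rintro (𝔫 | 𝔫)
  · exact h₁ 𝔫
  · by_cases h : (⟨t⁻¹, s36pc_self_mem t⁻¹⟩ : ↥(zchClosure (A₀ := A₀) ({t⁻¹} : Set F))) ∈ 𝔫.1
    · exact h₂ 𝔫 h
    · obtain ⟨𝔫', h𝔫'⟩ := s36pc_exists_pt hπ (u := t⁻¹) (u' := t) (inv_mul_cancel₀ ht0) 𝔫 h
      exact @s36pc_congr F₁ F _ _ κ Hor m α β Nα Nβ ζ₁ V ca cb cc
        (atO π t (Sum.inl 𝔫')) (atO π t (Sum.inr 𝔫))
        (stb_atO_isLocalRing (π := π) t (Sum.inl 𝔫')) (stb_atO_isLocalRing (π := π) t (Sum.inr 𝔫))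
        h𝔫' (atInc π t V (Sum.inl 𝔫')) (atInc π t V (Sum.inr 𝔫))
        (fun c => (s36pc_through_congr 𝔫 𝔫' h𝔫' (V c) (hBV₂ c) (hBV₁ c)).symm) (h₁ 𝔫')

/-- the symmetric form: the chart `t⁻¹` and the points of `B_t` with `t ∈ 𝔫` (over `t = 0`) -/
theorem s36pc_hpts' (hπ : Irreducible π) {t : F} (ht0 : t ≠ 0) (V : κ → ValuationSubring F)
    (hBV₁ : ∀ c (b : F), IsIntegral ↥(Algebra.adjoin A₀ {t}) b → b ∈ V c)
    (hBV₂ : ∀ c (b : F), IsIntegral ↥(Algebra.adjoin A₀ {t⁻¹}) b → b ∈ V c)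
    {Hor : F → Prop} {m : ℕ} {α β : F₁ →+* F} {Nα Nβ : F →* F₁} {ζ₁ : F₁} {ca cb cc : κ}
    (h₁ : ∀ 𝔫 : AtPt (F := F) π t,
      (⟨t, s36pc_self_mem t⟩ : ↥(zchClosure (A₀ := A₀) ({t} : Set F))) ∈ 𝔫.1 →
      @S36PtInput F₁ F _ _ κ Hor m α β Nα Nβ ζ₁ V ca cb cc (atO π t (Sum.inl 𝔫))
        (stb_atO_isLocalRing (π := π) t (Sum.inl 𝔫)) (atInc π t V (Sum.inl 𝔫)))
    (h₂ : ∀ 𝔫 : AtPt (F := F) π t⁻¹,
      @S36PtInput F₁ F _ _ κ Hor m α β Nα Nβ ζ₁ V ca cb cc (atO π t (Sum.inr 𝔫))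
        (stb_atO_isLocalRing (π := π) t (Sum.inr 𝔫)) (atInc π t V (Sum.inr 𝔫))) :
    ∀ i : AtPt (F := F) π t ⊕ AtPt (F := F) π t⁻¹,
      @S36PtInput F₁ F _ _ κ Hor m α β Nα Nβ ζ₁ V ca cb cc (atO π t i)
        (stb_atO_isLocalRing (π := π) t i) (atInc π t V i) := by
  rintro (𝔫 | 𝔫)
  · by_cases h : (⟨t, s36pc_self_mem t⟩ : ↥(zchClosure (A₀ := A₀) ({t} : Set F))) ∈ 𝔫.1
    · exact h₁ 𝔫 h
    · obtain ⟨𝔫', h𝔫'⟩ := s36pc_exists_pt hπ (u := t) (u' := t⁻¹) (mul_inv_cancel₀ ht0) 𝔫 h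
      exact @s36pc_congr F₁ F _ _ κ Hor m α β Nα Nβ ζ₁ V ca cb cc
        (atO π t (Sum.inr 𝔫')) (atO π t (Sum.inl 𝔫))
        (stb_atO_isLocalRing (π := π) t (Sum.inr 𝔫')) (stb_atO_isLocalRing (π := π) t (Sum.inl 𝔫))
        h𝔫' (atInc π t V (Sum.inr 𝔫')) (atInc π t V (Sum.inl 𝔫))
        (fun c => (s36pc_through_congr 𝔫 𝔫' h𝔫' (V c) (hBV₁ c) (hBV₂ c)).symm) (h₂ 𝔫')
  · exact h₂ 𝔫

end Pts

end Chart

end Fermat.Agent.S36


end ZBS36_026_3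

/-! ### bundled: `Fermat.Agent.S36.N2PtsInput` -/
section ZBS36_026_4
/-
S36 (Carayol at `q² ∥ M`), geometry, piece N2-pts (helper45), part 4: the per-point input
`S36PtInput` (`S36/TopAbsDef.lean`, helper84) at a closed point of a chart, from chart data.

Setting of `S36/N2PtsReg.lean`: chart `B`, prime `𝔫`, `O = ls_localSubring 𝔫`, vertical valuations
`V : κ → ValuationSubring F`, `thr c := (∀ b : B, b ∈ 𝔪(V c) → b ∈ 𝔫)` ("`V c` passes through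
`𝔫`"; for `B = zchClosure {u}` this is `atThrough 𝔫 (V c)`, definitionally), globals (KR), (RAM).

* `s36n2p_ptInput_one`    : a point with ONE component `c₁`, the branch regular (`S36n2pGen`) and
  `𝔪(V c₁) ∩ O = X O` for a uniformizer `X ∈ O` of `V c₁` dividing `ϖ` (`X = ϖ` on `C_a`, `C_b`;
  `X = Π` on `C_c`).
* `s36n2p_ptInput_triple` : a TRIPLE point: the three branches regular, the three transversality
  parameters, `𝔪(V ca) ∩ O = X O` (`X = β X'`, G-thin), and the packages `NgLoc` of helper19.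
-/

set_option autoImplicit false
set_option linter.unusedSectionVars false
set_option linter.unusedVariables false
set_option linter.style.haveILetI false

namespace Fermat.Agent.S36

open Fermat.Agent.UNIP Fermat.Agent.STB AlgebraicCurve

section Input

variable {E F F₁ : Type*} [Field E] [Field F] [Field F₁] [Algebra E F]
  {B : Type*} [CommRing B] [Algebra B F]
variable (hinj : Function.Injective (algebraMap B F)) (𝔫 : Ideal B) [h𝔫 : 𝔫.IsPrime]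
variable {κ : Type*} [Finite κ]

include hinj in
/-- **`S36PtInput` at a point with ONE component.** -/
theorem s36n2p_ptInput_one [IsNoetherianRing B]
    (V : κ → ValuationSubring F) (hBV : ∀ c (b : B), algebraMap B F b ∈ V c) (ϖ : B)
    (hKR : ∀ x : F, (∃ b : B, algebraMap B F ϖ * x = algebraMap B F b) → (∀ c, x ∈ V c) →
      ∃ b : B, x = algebraMap B F b)
    (Q : ℕ) (hram : ∀ c (x : F), x ∈ (V c).nonunits → ∃ z ∈ V c, x ^ Q = algebraMap B F ϖ * z)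
    (hϖ0 : algebraMap B F ϖ ≠ 0) (hϖV : ∀ c, algebraMap B F ϖ ∈ (V c).nonunits)
    (hE : ∀ e : E, ∃ (n : ℕ) (a : B),
      algebraMap E F e * algebraMap B F ϖ ^ n = algebraMap B F a)
    (hfrac : ∀ x : F, ∃ a b : B, b ≠ 0 ∧ x * algebraMap B F b = algebraMap B F a)
    (c₁ : κ) (hc₁ : ∀ b : B, algebraMap B F b ∈ (V c₁).nonunits → b ∈ 𝔫)
    (honly : ∀ c, (∀ b : B, algebraMap B F b ∈ (V c).nonunits → b ∈ 𝔫) → c = c₁)
    (hVloc : ∀ x : F, x ∈ V c₁ → ∃ b s : B, algebraMap B F s ∉ (V c₁).nonunits ∧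
      algebraMap B F s * x = algebraMap B F b)
    {Y₀ : B} (hY₀ : Y₀ ∈ 𝔫) (hgen : S36n2pGen 𝔫 (V c₁) Y₀)
    (X Y : ls_localSubring (F := F) 𝔫) (hXY : X * Y = s36n2pToLoc (F := F) 𝔫 ϖ)
    (hX1 : (X : F) ∈ (V c₁).nonunits)
    (hU : ∀ x ∈ (V c₁).nonunits, ∃ z ∈ V c₁, x = (X : F) * z)
    (Hor : F → Prop) (m : ℕ) (hHor : ∀ y, Hor y → ∀ P : Place E F, (m : ℤ) ∣ P.ord y)
    (α β : F₁ →+* F) (Nα Nβ : F →* F₁) (ζ₁ : F₁) (ca cb cc : κ) :
    @S36PtInput F₁ F _ _ κ Hor m α β Nα Nβ ζ₁ V ca cb cc (ls_localSubring (F := F) 𝔫)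
      (ls_localSubring_isLocalRing hinj 𝔫)
      (fun c => ∀ b : B, algebraMap B F b ∈ (V c).nonunits → b ∈ 𝔫) := by
  haveI := ls_localSubring_isLocalRing (F := F) hinj 𝔫
  have hX0 : X ≠ 0 := by
    rintro rfl
    rw [zero_mul] at hXY
    exact hϖ0 (congrArg Subtype.val hXY).symm
  have hX2 : ∀ y : ls_localSubring (F := F) 𝔫, (y : F) ∈ (V c₁).nonunits → X ∣ y :=
    fun y hy => s36n2p_dvd_of_unif 𝔫 V hBV ϖ hKR Q hram c₁ X Y hXY hX0 hU
      (fun c hcc hc => absurd (honly c hc) hcc) y hy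
  haveI : UniqueFactorizationMonoid (ls_localSubring (F := F) 𝔫) :=
    s36n2p_ufd hinj 𝔫 (V c₁) (hBV c₁) hc₁ hY₀ hgen X hX0 hX1 hX2
  refine ⟨fun y hy hH hu => ?_, fun c hc => ?_, Or.inl ⟨c₁, hc₁, honly⟩⟩
  · exact s36n2p_fac (E := E) hinj 𝔫 V hBV ϖ hKR Q hram hϖ0 hϖV hE hfrac m y hy (hHor y hH) hu
  · rw [honly c hc]
    exact s36n2p_res hinj 𝔫 (V c₁) (hBV c₁) hc₁ hVloc hY₀ hgen

include hinj in
/-- **`S36PtInput` at a TRIPLE point.** -/
theorem s36n2p_ptInput_triple [IsNoetherianRing B]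
    (V : κ → ValuationSubring F) (hBV : ∀ c (b : B), algebraMap B F b ∈ V c) (ϖ : B)
    (hKR : ∀ x : F, (∃ b : B, algebraMap B F ϖ * x = algebraMap B F b) → (∀ c, x ∈ V c) →
      ∃ b : B, x = algebraMap B F b)
    (Q : ℕ) (hram : ∀ c (x : F), x ∈ (V c).nonunits → ∃ z ∈ V c, x ^ Q = algebraMap B F ϖ * z)
    (hϖ0 : algebraMap B F ϖ ≠ 0) (hϖV : ∀ c, algebraMap B F ϖ ∈ (V c).nonunits)
    (hE : ∀ e : E, ∃ (n : ℕ) (a : B),
      algebraMap E F e * algebraMap B F ϖ ^ n = algebraMap B F a)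
    (hfrac : ∀ x : F, ∃ a b : B, b ≠ 0 ∧ x * algebraMap B F b = algebraMap B F a)
    (ca cb cc : κ) (hκ : ∀ c, c = ca ∨ c = cb ∨ c = cc)
    (hthr : ∀ c, ∀ b : B, algebraMap B F b ∈ (V c).nonunits → b ∈ 𝔫)
    (hVloc : ∀ c, ∀ x : F, x ∈ V c → ∃ b s : B, algebraMap B F s ∉ (V c).nonunits ∧
      algebraMap B F s * x = algebraMap B F b)
    -- the branch `c` is regular
    {Yc : B} (hYc : Yc ∈ 𝔫) (hgc : S36n2pGen 𝔫 (V cc) Yc)
    -- transversality parameters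
    {Yab : B} (hYab : algebraMap B F Yab ∈ (V ca).nonunits) (hgab : S36n2pGen 𝔫 (V cb) Yab)
    {Yca : B} (hYca : algebraMap B F Yca ∈ (V cc).nonunits) (hgca : S36n2pGen 𝔫 (V ca) Yca)
    {Ycb : B} (hYcb : algebraMap B F Ycb ∈ (V cc).nonunits) (hgcb : S36n2pGen 𝔫 (V cb) Ycb)
    -- REG through the branch `a`
    (X Y : ls_localSubring (F := F) 𝔫) (hXY : X * Y = s36n2pToLoc (F := F) 𝔫 ϖ)
    (hX1 : (X : F) ∈ (V ca).nonunits)
    (hU : ∀ x ∈ (V ca).nonunits, ∃ z ∈ V ca, x = (X : F) * z)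
    (hXu : ∀ c, c ≠ ca → (X : F)⁻¹ ∈ V c)
    (Hor : F → Prop) (m : ℕ) (hHor : ∀ y, Hor y → ∀ P : Place E F, (m : ℤ) ∣ P.ord y)
    (α β : F₁ →+* F) (Nα Nβ : F →* F₁) (ζ₁ : F₁)
    (hNα : ∃ Oα : Subring F₁, NgLoc α Nα (V ca) (V cc) m ζ₁ (ls_localSubring (F := F) 𝔫) Oα)
    (hNβ : ∃ Oβ : Subring F₁, NgLoc β Nβ (V cb) (V cc) m ζ₁ (ls_localSubring (F := F) 𝔫) Oβ) :
    @S36PtInput F₁ F _ _ κ Hor m α β Nα Nβ ζ₁ V ca cb cc (ls_localSubring (F := F) 𝔫)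
      (ls_localSubring_isLocalRing hinj 𝔫)
      (fun c => ∀ b : B, algebraMap B F b ∈ (V c).nonunits → b ∈ 𝔫) := by
  haveI := ls_localSubring_isLocalRing (F := F) hinj 𝔫
  have hX0 : X ≠ 0 := by
    rintro rfl
    rw [zero_mul] at hXY
    exact hϖ0 (congrArg Subtype.val hXY).symm
  have hX2 : ∀ y : ls_localSubring (F := F) 𝔫, (y : F) ∈ (V ca).nonunits → X ∣ y :=
    fun y hy => s36n2p_dvd_of_unif 𝔫 V hBV ϖ hKR Q hram ca X Y hXY hX0 hU
      (fun c hcc _ => hXu c hcc) y hy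
  have hYca𝔫 : Yca ∈ 𝔫 := hthr cc Yca hYca
  have hYcb𝔫 : Ycb ∈ 𝔫 := hthr cc Ycb hYcb
  haveI : UniqueFactorizationMonoid (ls_localSubring (F := F) 𝔫) :=
    s36n2p_ufd hinj 𝔫 (V ca) (hBV ca) (hthr ca) hYca𝔫 hgca X hX0 hX1 hX2
  have hOV : ∀ c, ∀ x ∈ ls_localSubring (F := F) 𝔫, x ∈ V c :=
    fun c => stb_gc_le 𝔫 (V c) (hBV c) (hthr c)
  refine ⟨fun y hy hH hu => ?_, fun c hc => ?_, Or.inr ⟨hthr ca, hthr cb, hthr cc, hNα, hNβ, ?_⟩⟩
  · exact s36n2p_fac (E := E) hinj 𝔫 V hBV ϖ hKR Q hram hϖ0 hϖV hE hfrac m y hy (hHor y hH) hu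
  · rcases hκ c with rfl | rfl | rfl
    · exact s36n2p_res hinj 𝔫 (V c) (hBV c) (hthr c) (hVloc c) hYca𝔫 hgca
    · exact s36n2p_res hinj 𝔫 (V c) (hBV c) (hthr c) (hVloc c) hYcb𝔫 hgcb
    · exact s36n2p_res hinj 𝔫 (V c) (hBV c) (hthr c) (hVloc c) hYc hgc
  · refine aq_cond_thr_of_transversal (ls_localSubring (F := F) 𝔫) _ V (fun c _ => hOV c) ?_
    intro c c' _ _ hcc' x hx
    have tab := s36n2p_tr hinj 𝔫 (V ca) (V cb) (hBV ca) (hBV cb) (hthr ca) (hthr cb) hYab hgab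
    have tba := s36n2p_tr_symm hinj 𝔫 (V ca) (V cb) (hBV ca) (hBV cb) (hthr ca) (hthr cb)
      hYab hgab
    have tca := s36n2p_tr hinj 𝔫 (V cc) (V ca) (hBV cc) (hBV ca) (hthr cc) (hthr ca) hYca hgca
    have tac := s36n2p_tr_symm hinj 𝔫 (V cc) (V ca) (hBV cc) (hBV ca) (hthr cc) (hthr ca)
      hYca hgca
    have tcb := s36n2p_tr hinj 𝔫 (V cc) (V cb) (hBV cc) (hBV cb) (hthr cc) (hthr cb) hYcb hgcb
    have tbc := s36n2p_tr_symm hinj 𝔫 (V cc) (V cb) (hBV cc) (hBV cb) (hthr cc) (hthr cb)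
      hYcb hgcb
    rcases hκ c with rfl | rfl | rfl <;> rcases hκ c' with rfl | rfl | rfl
    · exact absurd rfl hcc'
    · exact tab x hx
    · exact tac x hx
    · exact tba x hx
    · exact absurd rfl hcc'
    · exact tbc x hx
    · exact tca x hx
    · exact tcb x hx
    · exact absurd rfl hcc'

end Input

end Fermat.Agent.S36


end ZBS36_026_4

/-! ### bundled: `Fermat.Agent.S36.PtsAB` -/
section ZBS36_026_5
/-
S36 (Carayol at `q² ∥ M`), geometry, input (I6), piece (a) (helper62): `S36PtInput` at the closed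
points of a chart through which exactly ONE component `V c₁` passes, the component being of
multiplicity one (`π` is a uniformizer of `V c₁`): the points of `C_a` only and of `C_b` only.

Chart setting of `UNIP/AbstractT.lean`, `section Main`: `A₀` a DVR, `π` irreducible,
`E = Frac A₀`, `u : F` transcendental over `E`, `F / E(u)` finite, `B_u = zchClosure {u}`,
`𝔫 : AtPt π u` a closed point of the special fibre.

* `s36pab_hE`, `s36pab_hfrac`, `s36pab_hKR`, `s36pab_hVloc` : the chart forms of the globals.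
* `s36pab_one` : **`S36PtInput … (atLoc 𝔫) (atThrough 𝔫 (V ·))`** from `s36n2p_ptInput_one` with
  `X = π`, `Y = 1`; ANY chart coordinate `u` (so also `u = t⁻¹`: the cusps of `C_a`, `C_b`).
* `s36pab_one_inl`, `s36pab_one_inr` : the same in the shape of `hpts` of `s36tb_small`
  (`atO π t (Sum.inl 𝔫)`, `atInc π t V (Sum.inl 𝔫)`, resp. `Sum.inr`).
* `s36pab_gen_of_lower` : the local parameter of the branch from the chart of the level below
  (`s36n2p_gen_of_lower` for a chart homomorphism `g : C → B_u` which is integral, with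
  `RegChart`-type local generation on `C`), in the form needed by `s36pab_one`.
-/

set_option autoImplicit false
set_option linter.unusedSectionVars false
set_option linter.unusedVariables false
set_option linter.style.haveILetI false

namespace Fermat.Agent.S36

open Fermat.Agent.UNIP Fermat.Agent.STB Fermat.Agent.INJ AlgebraicCurve IntermediateField

section One

variable {A₀ E F F₁ : Type*} [CommRing A₀] [IsDomain A₀] [IsDiscreteValuationRing A₀]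
  [Field E] [Algebra A₀ E] [IsFractionRing A₀ E] [CharZero E]
  [Field F] [Algebra E F] [Algebra A₀ F] [IsScalarTower A₀ E F] [Field F₁]
  {π : A₀} {κ : Type*}

/-- `E ⊆ B_u[1/π]` -/
theorem s36pab_hE (hπ : Irreducible π) (u : F) (e : E) :
    ∃ (n : ℕ) (a : ↥(zchClosure (A₀ := A₀) ({u} : Set F))),
      algebraMap E F e *
        algebraMap ↥(zchClosure (A₀ := A₀) ({u} : Set F)) F
          (algebraMap A₀ ↥(zchClosure (A₀ := A₀) ({u} : Set F)) π) ^ n =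
      algebraMap ↥(zchClosure (A₀ := A₀) ({u} : Set F)) F a := by
  obtain ⟨a, s, hs, rfl⟩ := IsFractionRing.div_surjective (A := A₀) e
  have hs0 : s ≠ 0 := nonZeroDivisors.ne_zero hs
  obtain ⟨n, hn⟩ := IsDiscreteValuationRing.associated_pow_irreducible hs0 hπ
  obtain ⟨w, hw⟩ := hn.symm
  -- `π ^ n * w = s`
  refine ⟨n, algebraMap A₀ ↥(zchClosure (A₀ := A₀) ({u} : Set F)) (a * ((w⁻¹ : A₀ˣ) : A₀)), ?_⟩
  have hsE : algebraMap A₀ E s ≠ 0 := by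
    rw [Ne, map_eq_zero_iff _ (IsFractionRing.injective A₀ E)]
    exact hs0
  have h1 : algebraMap A₀ E a / algebraMap A₀ E s * algebraMap A₀ E π ^ n =
      algebraMap A₀ E (a * ((w⁻¹ : A₀ˣ) : A₀)) := by
    rw [div_mul_eq_mul_div, div_eq_iff hsE, ← map_pow, ← map_mul, ← map_mul, ← hw]
    congr 1
    have : ((w⁻¹ : A₀ˣ) : A₀) * (w : A₀) = 1 := Units.inv_mul w
    linear_combination (-(a * π ^ n)) * this
  have h2 := congrArg (algebraMap E F) h1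
  rw [map_mul, map_pow, ← IsScalarTower.algebraMap_apply A₀ E F,
    ← IsScalarTower.algebraMap_apply A₀ E F] at h2
  exact h2

/-- `F = Frac B_u` -/
theorem s36pab_hfrac (u : F) [FiniteDimensional E⟮u⟯ F] (x : F) :
    ∃ a b : ↥(zchClosure (A₀ := A₀) ({u} : Set F)), b ≠ 0 ∧
      x * algebraMap ↥(zchClosure (A₀ := A₀) ({u} : Set F)) F b =
        algebraMap ↥(zchClosure (A₀ := A₀) ({u} : Set F)) F a := by
  obtain ⟨y, hy0, hy⟩ := (ad_isAlgebraic (A₀ := A₀) (E := E) u x).exists_integral_multiple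
  refine ⟨⟨y • x, mem_zchClosure.mpr hy⟩,
    ⟨(y : F), mem_zchClosure.mpr (isIntegral_algebraMap (x := y))⟩, ?_, ?_⟩
  · intro h0
    apply hy0
    apply Subtype.ext
    have h1 := congrArg (fun z : ↥(zchClosure (A₀ := A₀) ({u} : Set F)) => (z : F)) h0
    exact h1
  · show x * (y : F) = y • x
    rw [Algebra.smul_def, mul_comm]
    rfl

/-- (KR), chart form -/
theorem s36pab_hKR {u : F} (V : κ → ValuationSubring F)
    (hKR : ∀ x : F, IsIntegral ↥(Algebra.adjoin A₀ {u}) (algebraMap A₀ F π * x) →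
      (∀ c, x ∈ V c) → IsIntegral ↥(Algebra.adjoin A₀ {u}) x)
    (x : F)
    (hx : ∃ b : ↥(zchClosure (A₀ := A₀) ({u} : Set F)),
      algebraMap ↥(zchClosure (A₀ := A₀) ({u} : Set F)) F
          (algebraMap A₀ ↥(zchClosure (A₀ := A₀) ({u} : Set F)) π) * x =
        algebraMap ↥(zchClosure (A₀ := A₀) ({u} : Set F)) F b)
    (hV : ∀ c, x ∈ V c) :
    ∃ b : ↥(zchClosure (A₀ := A₀) ({u} : Set F)),
      x = algebraMap ↥(zchClosure (A₀ := A₀) ({u} : Set F)) F b := by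
  obtain ⟨b, hb⟩ := hx
  have h1 : IsIntegral ↥(Algebra.adjoin A₀ {u}) (algebraMap A₀ F π * x) := by
    have h2 : algebraMap A₀ F π * x = (b : F) := hb
    rw [h2]
    exact mem_zchClosure.mp b.2
  exact ⟨⟨x, mem_zchClosure.mpr (hKR x h1 hV)⟩, rfl⟩

/-- `hVloc`, chart form -/
theorem s36pab_hVloc {u : F} (W : ValuationSubring F)
    (hVloc : ∀ x : F, x ∈ W → ∃ b s : F, IsIntegral ↥(Algebra.adjoin A₀ {u}) b ∧
      IsIntegral ↥(Algebra.adjoin A₀ {u}) s ∧ s ∉ W.nonunits ∧ s * x = b)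
    (x : F) (hx : x ∈ W) :
    ∃ b s : ↥(zchClosure (A₀ := A₀) ({u} : Set F)),
      algebraMap ↥(zchClosure (A₀ := A₀) ({u} : Set F)) F s ∉ W.nonunits ∧
      algebraMap ↥(zchClosure (A₀ := A₀) ({u} : Set F)) F s * x =
        algebraMap ↥(zchClosure (A₀ := A₀) ({u} : Set F)) F b := by
  obtain ⟨b, s, hb, hs, hsW, hsx⟩ := hVloc x hx
  exact ⟨⟨b, mem_zchClosure.mpr hb⟩, ⟨s, mem_zchClosure.mpr hs⟩, hsW, hsx⟩

/-- **`S36PtInput` at a closed point of the chart `u` with ONE component of multiplicity one**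
(`π` a uniformizer of `V c₁`): `s36n2p_ptInput_one` with `X = π`, `Y = 1`. -/
theorem s36pab_one [Finite κ] (hπ : Irreducible π) {u : F} [FiniteDimensional E⟮u⟯ F]
    [IsNoetherianRing ↥(zchClosure (A₀ := A₀) ({u} : Set F))]
    (V : κ → ValuationSubring F)
    (hBV : ∀ c (b : F), IsIntegral ↥(Algebra.adjoin A₀ {u}) b → b ∈ V c)
    (hπV : ∀ c, algebraMap A₀ F π ∈ (V c).nonunits)
    (hKR : ∀ x : F, IsIntegral ↥(Algebra.adjoin A₀ {u}) (algebraMap A₀ F π * x) →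
      (∀ c, x ∈ V c) → IsIntegral ↥(Algebra.adjoin A₀ {u}) x)
    (Q : ℕ) (hram : ∀ c (x : F), x ∈ (V c).nonunits →
      ∃ z ∈ V c, x ^ Q = algebraMap A₀ F π * z)
    (𝔫 : AtPt (F := F) π u) (c₁ : κ) (hc₁ : atThrough 𝔫 (V c₁))
    (honly : ∀ c, atThrough 𝔫 (V c) → c = c₁)
    (hVloc : ∀ x : F, x ∈ V c₁ → ∃ b s : F, IsIntegral ↥(Algebra.adjoin A₀ {u}) b ∧
      IsIntegral ↥(Algebra.adjoin A₀ {u}) s ∧ s ∉ (V c₁).nonunits ∧ s * x = b)
    {Y₀ : ↥(zchClosure (A₀ := A₀) ({u} : Set F))} (hY₀ : Y₀ ∈ 𝔫.1)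
    (hgen : S36n2pGen 𝔫.1 (V c₁) Y₀)
    (hU : ∀ x ∈ (V c₁).nonunits, ∃ z ∈ V c₁, x = algebraMap A₀ F π * z)
    (Hor : F → Prop) (m : ℕ) (hHor : ∀ y, Hor y → ∀ P : Place E F, (m : ℤ) ∣ P.ord y)
    (α β : F₁ →+* F) (Nα Nβ : F →* F₁) (ζ₁ : F₁) (ca cb cc : κ) :
    @S36PtInput F₁ F _ _ κ Hor m α β Nα Nβ ζ₁ V ca cb cc (atLoc 𝔫)
      (haveI := 𝔫.2.1.isPrime
       ls_localSubring_isLocalRing (F := F)
        (B := ↥(zchClosure (A₀ := A₀) ({u} : Set F))) Subtype.val_injective 𝔫.1)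
      (fun c => atThrough 𝔫 (V c)) := by
  haveI := 𝔫.2.1.isPrime
  have hπ0 : algebraMap A₀ F π ≠ 0 := ei_algebraMap_ne_zero (E := E) hπ
  exact s36n2p_ptInput_one (E := E) (B := ↥(zchClosure (A₀ := A₀) ({u} : Set F)))
    Subtype.val_injective 𝔫.1 V (fun c b => hBV c _ (mem_zchClosure.mp b.2))
    (algebraMap A₀ ↥(zchClosure (A₀ := A₀) ({u} : Set F)) π)
    (s36pab_hKR V hKR) Q hram hπ0 hπV (s36pab_hE hπ u) (s36pab_hfrac (E := E) u)
    c₁ hc₁ honly (s36pab_hVloc (V c₁) hVloc) hY₀ hgen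
    (s36n2pToLoc (F := F) 𝔫.1 (algebraMap A₀ ↥(zchClosure (A₀ := A₀) ({u} : Set F)) π)) 1
    (mul_one _) (hπV c₁) hU Hor m hHor α β Nα Nβ ζ₁ ca cb cc

/-- `s36pab_one` in the shape of `hpts` of `s36tb_small`, chart `t`. -/
theorem s36pab_one_inl [Finite κ] (hπ : Irreducible π) {t : F} [FiniteDimensional E⟮t⟯ F]
    [IsNoetherianRing ↥(zchClosure (A₀ := A₀) ({t} : Set F))]
    (V : κ → ValuationSubring F)
    (hBV : ∀ c (b : F), IsIntegral ↥(Algebra.adjoin A₀ {t}) b → b ∈ V c)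
    (hπV : ∀ c, algebraMap A₀ F π ∈ (V c).nonunits)
    (hKR : ∀ x : F, IsIntegral ↥(Algebra.adjoin A₀ {t}) (algebraMap A₀ F π * x) →
      (∀ c, x ∈ V c) → IsIntegral ↥(Algebra.adjoin A₀ {t}) x)
    (Q : ℕ) (hram : ∀ c (x : F), x ∈ (V c).nonunits →
      ∃ z ∈ V c, x ^ Q = algebraMap A₀ F π * z)
    (𝔫 : AtPt (F := F) π t) (c₁ : κ) (hc₁ : atThrough 𝔫 (V c₁))
    (honly : ∀ c, atThrough 𝔫 (V c) → c = c₁)
    (hVloc : ∀ x : F, x ∈ V c₁ → ∃ b s : F, IsIntegral ↥(Algebra.adjoin A₀ {t}) b ∧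
      IsIntegral ↥(Algebra.adjoin A₀ {t}) s ∧ s ∉ (V c₁).nonunits ∧ s * x = b)
    {Y₀ : ↥(zchClosure (A₀ := A₀) ({t} : Set F))} (hY₀ : Y₀ ∈ 𝔫.1)
    (hgen : S36n2pGen 𝔫.1 (V c₁) Y₀)
    (hU : ∀ x ∈ (V c₁).nonunits, ∃ z ∈ V c₁, x = algebraMap A₀ F π * z)
    (Hor : F → Prop) (m : ℕ) (hHor : ∀ y, Hor y → ∀ P : Place E F, (m : ℤ) ∣ P.ord y)
    (α β : F₁ →+* F) (Nα Nβ : F →* F₁) (ζ₁ : F₁) (ca cb cc : κ) :
    @S36PtInput F₁ F _ _ κ Hor m α β Nα Nβ ζ₁ V ca cb cc (atO π t (Sum.inl 𝔫))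
      (stb_atO_isLocalRing (π := π) t (Sum.inl 𝔫)) (atInc π t V (Sum.inl 𝔫)) :=
  s36pab_one hπ V hBV hπV hKR Q hram 𝔫 c₁ hc₁ honly hVloc hY₀ hgen hU Hor m hHor
    α β Nα Nβ ζ₁ ca cb cc

/-- `s36pab_one` in the shape of `hpts` of `s36tb_small`, chart `t⁻¹`. -/
theorem s36pab_one_inr [Finite κ] (hπ : Irreducible π) {t : F} [FiniteDimensional E⟮t⁻¹⟯ F]
    [IsNoetherianRing ↥(zchClosure (A₀ := A₀) ({t⁻¹} : Set F))]
    (V : κ → ValuationSubring F)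
    (hBV : ∀ c (b : F), IsIntegral ↥(Algebra.adjoin A₀ {t⁻¹}) b → b ∈ V c)
    (hπV : ∀ c, algebraMap A₀ F π ∈ (V c).nonunits)
    (hKR : ∀ x : F, IsIntegral ↥(Algebra.adjoin A₀ {t⁻¹}) (algebraMap A₀ F π * x) →
      (∀ c, x ∈ V c) → IsIntegral ↥(Algebra.adjoin A₀ {t⁻¹}) x)
    (Q : ℕ) (hram : ∀ c (x : F), x ∈ (V c).nonunits →
      ∃ z ∈ V c, x ^ Q = algebraMap A₀ F π * z)
    (𝔫 : AtPt (F := F) π t⁻¹) (c₁ : κ) (hc₁ : atThrough 𝔫 (V c₁))
    (honly : ∀ c, atThrough 𝔫 (V c) → c = c₁)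
    (hVloc : ∀ x : F, x ∈ V c₁ → ∃ b s : F, IsIntegral ↥(Algebra.adjoin A₀ {t⁻¹}) b ∧
      IsIntegral ↥(Algebra.adjoin A₀ {t⁻¹}) s ∧ s ∉ (V c₁).nonunits ∧ s * x = b)
    {Y₀ : ↥(zchClosure (A₀ := A₀) ({t⁻¹} : Set F))} (hY₀ : Y₀ ∈ 𝔫.1)
    (hgen : S36n2pGen 𝔫.1 (V c₁) Y₀)
    (hU : ∀ x ∈ (V c₁).nonunits, ∃ z ∈ V c₁, x = algebraMap A₀ F π * z)
    (Hor : F → Prop) (m : ℕ) (hHor : ∀ y, Hor y → ∀ P : Place E F, (m : ℤ) ∣ P.ord y)
    (α β : F₁ →+* F) (Nα Nβ : F →* F₁) (ζ₁ : F₁) (ca cb cc : κ) :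
    @S36PtInput F₁ F _ _ κ Hor m α β Nα Nβ ζ₁ V ca cb cc (atO π t (Sum.inr 𝔫))
      (stb_atO_isLocalRing (π := π) t (Sum.inr 𝔫)) (atInc π t V (Sum.inr 𝔫)) :=
  s36pab_one hπ V hBV hπV hKR Q hram 𝔫 c₁ hc₁ honly hVloc hY₀ hgen hU Hor m hHor
    α β Nα Nβ ζ₁ ca cb cc

end One

section Gen

variable {F : Type*} [Field F] {B : Type*} [CommRing B] [Algebra B F]
  {C : Type*} [CommRing C]

/-- **The local parameter of a branch from the chart of the level below**, existence form: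
`g : C → B` an INTEGRAL chart homomorphism, `(F1) : B = g C + 𝔭_V`, `C` regular along its special
fibre (`reg` = `RegChart.locGen`): at every maximal ideal `𝔫 ⊇ 𝔭_V` of `B` there is `s : C` with
`g s ∈ 𝔫` and `S36n2pGen 𝔫 V (g s)`. -/
theorem s36pab_gen_of_lower (g : C →+* B) (hg : g.IsIntegral) (𝔫 : Ideal B) (h𝔫 : 𝔫.IsMaximal)
    (V : ValuationSubring F) (hBV : ∀ b : B, algebraMap B F b ∈ V)
    (hthrough : ∀ b : B, algebraMap B F b ∈ V.nonunits → b ∈ 𝔫)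
    (hF1 : ∀ b : B, ∃ c : C, algebraMap B F (b - g c) ∈ V.nonunits)
    (π' : C) (hπ' : algebraMap B F (g π') ∈ V.nonunits)
    (reg : ∀ 𝔪 : Ideal C, 𝔪.IsMaximal → π' ∈ 𝔪 → ∃ s ∈ 𝔪, NodesLocGen 𝔪 {π', s}) :
    ∃ s : C, g s ∈ 𝔫 ∧ S36n2pGen 𝔫 V (g s) := by
  have hmax : (𝔫.comap g).IsMaximal :=
    Ideal.isMaximal_comap_of_isIntegral_of_isMaximal' g hg 𝔫
  obtain ⟨s, hs, hgen⟩ := reg (𝔫.comap g) hmax (hthrough _ hπ')
  exact ⟨s, hs, s36n2p_gen_of_lower g 𝔫 V hBV hthrough hF1 π' s hπ' hgen⟩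

/-- an `A₀`-algebra homomorphism into the integral closure of `A₀[u]` which hits `u` is
integral -/
theorem s36pab_isIntegral_of_mem_range {A₀ : Type*} [CommRing A₀] [Algebra A₀ F] [Algebra A₀ C]
    {u : F} (S : Subalgebra A₀ F)
    (hS : ∀ x ∈ S, IsIntegral ↥(Algebra.adjoin A₀ ({u} : Set F)) x)
    (g : C →ₐ[A₀] ↥S) (c₀ : C) (hc₀ : ((g c₀ : ↥S) : F) = u) :
    (g : C →+* ↥S).IsIntegral := by
  intro b
  -- `b` is integral over `A₀[u]`, and `A₀[u] ⊆ g C`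
  obtain ⟨p, hp, hpb⟩ := hS (b : F) b.2
  -- lift the coefficients of `p` to `C`
  have hlift' : ∀ y : F, y ∈ Algebra.adjoin A₀ ({u} : Set F) → ∃ c : C, ((g c : ↥S) : F) = y := by
    intro y hy
    induction hy using Algebra.adjoin_induction with
    | mem x hx =>
      rw [Set.mem_singleton_iff] at hx
      exact ⟨c₀, by rw [hc₀, hx]⟩
    | algebraMap a => exact ⟨algebraMap A₀ C a, by rw [AlgHom.commutes]; rfl⟩
    | add x y _ _ hx hy =>
      obtain ⟨cx, hcx⟩ := hx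
      obtain ⟨cy, hcy⟩ := hy
      exact ⟨cx + cy, by rw [map_add, Subalgebra.coe_add, hcx, hcy]⟩
    | mul x y _ _ hx hy =>
      obtain ⟨cx, hcx⟩ := hx
      obtain ⟨cy, hcy⟩ := hy
      exact ⟨cx * cy, by rw [map_mul, Subalgebra.coe_mul, hcx, hcy]⟩
  have hlift : ∀ y : ↥(Algebra.adjoin A₀ ({u} : Set F)), ∃ c : C, ((g c : ↥S) : F) = (y : F) :=
    fun y => hlift' (y : F) y.2
  have hmemS : ∀ y : ↥(Algebra.adjoin A₀ ({u} : Set F)), (y : F) ∈ S := by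
    intro y
    obtain ⟨c, hc⟩ := hlift y
    rw [← hc]
    exact (g c).2
  let ι : ↥(Algebra.adjoin A₀ ({u} : Set F)) →+* ↥S :=
    { toFun := fun y => ⟨(y : F), hmemS y⟩
      map_one' := rfl
      map_mul' := fun _ _ => rfl
      map_zero' := rfl
      map_add' := fun _ _ => rfl }
  choose f hf using hlift
  have hPm : (p.map ι).Monic := hp.map _
  have hPl : p.map ι ∈ Polynomial.lifts (g : C →+* ↥S) := by
    rw [Polynomial.lifts_iff_coeff_lifts]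
    intro i
    refine ⟨f (p.coeff i), Subtype.ext ?_⟩
    rw [Polynomial.coeff_map]
    exact hf (p.coeff i)
  obtain ⟨Q, hQ, -, hQm⟩ := Polynomial.lifts_and_natDegree_eq_and_monic hPl hPm
  refine ⟨Q, hQm, ?_⟩
  rw [← Polynomial.eval_map, hQ, Polynomial.eval_map]
  apply Subtype.ext
  have h1 := Polynomial.hom_eval₂ p ι S.val.toRingHom b
  have h2 : (S.val.toRingHom.comp ι) = algebraMap ↥(Algebra.adjoin A₀ ({u} : Set F)) F :=
    RingHom.ext fun _ => rfl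
  rw [h2] at h1
  exact h1.trans hpb

end Gen

end Fermat.Agent.S36


end ZBS36_026_5

/-! ### bundled: `Fermat.Agent.S36.PtsMid` -/
section ZBS36_026_6

/-!
# S36 / (I6)(b): the points of a component of multiplicity `e` (the middle component `C_c`)

Setting of `S36/N2PtsInput.lean`: chart `B`, prime `𝔫`, `O = ls_localSubring 𝔫 = B_𝔫`, vertical
valuations `V : κ → ValuationSubring F`, globals (KR), (RAM).  Only ONE component `V c₁` passes
through `𝔫`, and `ϖ` is NOT a uniformizer of `V c₁` (`e = q − 1` for the middle component).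

* `s36pm_mem` : `X ∈ O`, `(X ^ e / ϖ) ^ n ≡ g` at `V c₁` for a unit `g` of `O`
  ⇒ `X ^ e / ϖ ∈ O` (local (KR));
* `s36pm_isUnit` : … and it is a unit of `O`;
* `s36pm_exists_mul` : `∃ Y ∈ O, X * Y = ϖ`;
* `s36pm_unif` : `X` is a uniformizer of `V c₁` (from (RAM) with exponent `e` at `c₁`);
* **`s36pm_ptInput`** : `S36PtInput` at such a point.

For `C_c`: `X = Π_t = t(Q^{q²}) − t`, `e = q − 1`, `n = 6`, the reduction of `Π_t^{q−1}/q` is
`−(θ t̄)^{q−1}` (N2-theta) and `(θ t̄)^{6(q−1)}` is the reduction of a unit of `O`.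
-/

set_option autoImplicit false
set_option linter.unusedSectionVars false
set_option linter.unusedVariables false
set_option linter.style.haveILetI false

namespace Fermat.Agent.S36

open Fermat.Agent.UNIP Fermat.Agent.STB AlgebraicCurve

section Mid

variable {E F F₁ : Type*} [Field E] [Field F] [Field F₁] [Algebra E F]
  {B : Type*} [CommRing B] [Algebra B F]
variable (hinj : Function.Injective (algebraMap B F)) (𝔫 : Ideal B) [h𝔫 : 𝔫.IsPrime]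
variable {κ : Type*} [Finite κ]

/-- a valuation-ring element whose power is congruent to a unit is a unit -/
theorem s36pm_val_eq_one (V : ValuationSubring F) {w g : F} {n : ℕ} (hn : 0 < n)
    (hg : V.valuation g = 1) (h : w ^ n - g ∈ V.nonunits) : V.valuation w = 1 := by
  have h1 : V.valuation (w ^ n - g) < 1 := (ValuationSubring.mem_nonunits_iff V).1 h
  have h2 : V.valuation (w ^ n) = 1 := by
    have e : w ^ n = (w ^ n - g) + g := by ring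
    rw [e]
    have := Valuation.map_add_eq_of_lt_right V.valuation (x := w ^ n - g) (y := g)
      (by rw [hg]; exact h1)
    rw [this, hg]
  rw [map_pow] at h2
  exact (pow_eq_one_iff_of_nonneg zero_le' hn.ne').mp h2

include hinj in
/-- an element of `O` congruent at a branch through `𝔫` to a unit of `O` is a unit -/
theorem s36pm_isUnit_of_congr (V : ValuationSubring F)
    (hBV : ∀ b : B, algebraMap B F b ∈ V)
    (hthr : ∀ b : B, algebraMap B F b ∈ V.nonunits → b ∈ 𝔫)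
    (a g : ls_localSubring (F := F) 𝔫) (hg : IsUnit g)
    (h : (a : F) - (g : F) ∈ V.nonunits) : IsUnit a := by
  haveI := ls_localSubring_isLocalRing (F := F) hinj 𝔫
  have hOV := stb_gc_le 𝔫 V hBV hthr
  have hnu : ¬ IsUnit (a - g) := by
    intro hu
    have := stb_val_unit (ls_localSubring (F := F) 𝔫) V hOV hu
    have h1 : V.valuation ((a : F) - (g : F)) < 1 := (ValuationSubring.mem_nonunits_iff V).1 h
    exact absurd this (ne_of_lt h1)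
  have e : a = g + (a - g) := by ring
  rw [e]
  by_contra hna
  have hm : g + (a - g) ∈ IsLocalRing.maximalIdeal (ls_localSubring (F := F) 𝔫) :=
    (IsLocalRing.mem_maximalIdeal _).2 hna
  have hm2 : a - g ∈ IsLocalRing.maximalIdeal (ls_localSubring (F := F) 𝔫) :=
    (IsLocalRing.mem_maximalIdeal _).2 hnu
  have hm3 : g ∈ IsLocalRing.maximalIdeal (ls_localSubring (F := F) 𝔫) := by
    have := Ideal.sub_mem _ hm hm2
    simpa using this
  exact (IsLocalRing.mem_maximalIdeal _).1 hm3 hg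

variable (V : κ → ValuationSubring F) (hBV : ∀ c (b : B), algebraMap B F b ∈ V c) (ϖ : B)
  (hKR : ∀ x : F, (∃ b : B, algebraMap B F ϖ * x = algebraMap B F b) → (∀ c, x ∈ V c) →
    ∃ b : B, x = algebraMap B F b)
  (Q : ℕ) (hram : ∀ c (x : F), x ∈ (V c).nonunits → ∃ z ∈ V c, x ^ Q = algebraMap B F ϖ * z)
  (hϖ0 : algebraMap B F ϖ ≠ 0)
  (c₁ : κ) (hc₁ : ∀ b : B, algebraMap B F b ∈ (V c₁).nonunits → b ∈ 𝔫)
  (honly : ∀ c, (∀ b : B, algebraMap B F b ∈ (V c).nonunits → b ∈ 𝔫) → c = c₁)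
  (X g : ls_localSubring (F := F) 𝔫) (e n : ℕ) (hn : 0 < n) (hg : IsUnit g)
  (hcong : ((X : F) ^ e / algebraMap B F ϖ) ^ n - (g : F) ∈ (V c₁).nonunits)

include hinj hBV hKR hram hc₁ honly hn hg hcong in
/-- `X ^ e / ϖ ∈ O` -/
theorem s36pm_mem : (X : F) ^ e / algebraMap B F ϖ ∈ ls_localSubring (F := F) 𝔫 := by
  haveI := ls_localSubring_isLocalRing (F := F) hinj 𝔫
  have hOV := stb_gc_le 𝔫 (V c₁) (hBV c₁) hc₁
  have hvg : (V c₁).valuation (g : F) = 1 :=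
    stb_val_unit (ls_localSubring (F := F) 𝔫) (V c₁) hOV hg
  have hv := s36pm_val_eq_one (V c₁) hn hvg hcong
  refine s36n2p_KRloc 𝔫 V hBV ϖ hKR Q hram _ ?_ ?_
  · by_cases h0 : algebraMap B F ϖ = 0
    · rw [h0, zero_mul]; exact (ls_localSubring (F := F) 𝔫).zero_mem
    · rw [mul_div_cancel₀ _ h0]
      exact (X ^ e).2
  · intro c hc
    rw [honly c hc]
    exact (V c₁).valuation_le_one_iff _ |>.1 (le_of_eq hv)

include hinj hBV hKR hram hc₁ honly hn hg hcong in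
/-- `X ^ e / ϖ` is a unit of `O` -/
theorem s36pm_isUnit :
    IsUnit (⟨(X : F) ^ e / algebraMap B F ϖ,
      s36pm_mem hinj 𝔫 V hBV ϖ hKR Q hram c₁ hc₁ honly X g e n hn hg hcong⟩ :
        ls_localSubring (F := F) 𝔫) := by
  haveI := ls_localSubring_isLocalRing (F := F) hinj 𝔫
  set w : ls_localSubring (F := F) 𝔫 := ⟨(X : F) ^ e / algebraMap B F ϖ,
      s36pm_mem hinj 𝔫 V hBV ϖ hKR Q hram c₁ hc₁ honly X g e n hn hg hcong⟩ with hw
  have h1 : IsUnit (w ^ n) :=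
    s36pm_isUnit_of_congr hinj 𝔫 (V c₁) (hBV c₁) hc₁ (w ^ n) g hg hcong
  exact (isUnit_pow_iff hn.ne').1 h1

include hinj hBV hKR hram hϖ0 hc₁ honly hn hg hcong in
/-- `X ∣ ϖ` in `O` (for `e ≥ 1`) -/
theorem s36pm_exists_mul (he : 0 < e) :
    ∃ Y : ls_localSubring (F := F) 𝔫, X * Y = s36n2pToLoc (F := F) 𝔫 ϖ := by
  obtain ⟨u, hu⟩ := s36pm_isUnit hinj 𝔫 V hBV ϖ hKR Q hram c₁ hc₁ honly X g e n hn hg hcong
  refine ⟨X ^ (e - 1) * (↑u⁻¹ : ls_localSubring (F := F) 𝔫), ?_⟩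
  have h1 : X * X ^ (e - 1) = X ^ e := by
    rw [← pow_succ']
    congr 1
    omega
  have h2 : X ^ e = s36n2pToLoc (F := F) 𝔫 ϖ * (u : ls_localSubring (F := F) 𝔫) := by
    apply Subtype.ext
    rw [hu]
    show (X : F) ^ e = algebraMap B F ϖ * ((X : F) ^ e / algebraMap B F ϖ)
    rw [mul_div_cancel₀ _ hϖ0]
  rw [← mul_assoc, h1, h2, mul_assoc, Units.mul_inv, mul_one]

include hinj hBV hKR hram hϖ0 hc₁ honly hn hg hcong in
/-- `X` is a uniformizer of `V c₁`, if `x ∈ 𝔪(V c₁) ⇒ x ^ e ∈ ϖ V c₁` -/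
theorem s36pm_unif (he : 0 < e)
    (hramc : ∀ x : F, x ∈ (V c₁).nonunits → ∃ z ∈ V c₁, x ^ e = algebraMap B F ϖ * z)
    (x : F) (hx : x ∈ (V c₁).nonunits) : ∃ z ∈ V c₁, x = (X : F) * z := by
  haveI := ls_localSubring_isLocalRing (F := F) hinj 𝔫
  have hOV := stb_gc_le 𝔫 (V c₁) (hBV c₁) hc₁
  have hu := s36pm_isUnit hinj 𝔫 V hBV ϖ hKR Q hram c₁ hc₁ honly X g e n hn hg hcong
  have hvw : (V c₁).valuation ((X : F) ^ e / algebraMap B F ϖ) = 1 :=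
    stb_val_unit (ls_localSubring (F := F) 𝔫) (V c₁) hOV hu
  have hX0 : (X : F) ≠ 0 := by
    intro h0
    rw [h0, zero_pow he.ne', zero_div, map_zero] at hvw
    exact zero_ne_one hvw
  obtain ⟨z, hz, hxz⟩ := hramc x hx
  refine ⟨x / (X : F), ?_, by field_simp⟩
  rw [← (V c₁).valuation_le_one_iff]
  have h1 : (V c₁).valuation (x / (X : F)) ^ e ≤ 1 := by
    rw [← map_pow, div_pow, hxz]
    have e1 : algebraMap B F ϖ * z / (X : F) ^ e = z / ((X : F) ^ e / algebraMap B F ϖ) := by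
      field_simp
    rw [e1, map_div₀, hvw, div_one]
    exact (V c₁).valuation_le_one_iff _ |>.2 hz
  by_contra hlt
  push Not at hlt
  exact absurd h1 (not_le.2 (one_lt_pow₀ hlt he.ne'))

include hinj hBV hKR hram hϖ0 hc₁ honly hn hg hcong in
/-- `X ∈ 𝔪(V c₁)` -/
theorem s36pm_mem_nonunits (he : 0 < e) (hϖV : algebraMap B F ϖ ∈ (V c₁).nonunits) :
    (X : F) ∈ (V c₁).nonunits := by
  haveI := ls_localSubring_isLocalRing (F := F) hinj 𝔫
  have hOV := stb_gc_le 𝔫 (V c₁) (hBV c₁) hc₁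
  have hu := s36pm_isUnit hinj 𝔫 V hBV ϖ hKR Q hram c₁ hc₁ honly X g e n hn hg hcong
  have hvw : (V c₁).valuation ((X : F) ^ e / algebraMap B F ϖ) = 1 :=
    stb_val_unit (ls_localSubring (F := F) 𝔫) (V c₁) hOV hu
  rw [ValuationSubring.mem_nonunits_iff]
  have h1 : (V c₁).valuation (algebraMap B F ϖ) < 1 :=
    (ValuationSubring.mem_nonunits_iff (V c₁)).1 hϖV
  have h2 : (V c₁).valuation (X : F) ^ e = (V c₁).valuation (algebraMap B F ϖ) := by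
    rw [map_div₀, div_eq_one_iff_eq] at hvw
    · rw [← map_pow]; exact hvw
    · rw [ne_eq, map_eq_zero]; exact hϖ0
  by_contra hge
  push Not at hge
  have := one_le_pow₀ (n := e) hge
  rw [h2] at this
  exact absurd h1 (not_lt.2 this)

include hinj hBV hKR hram hϖ0 hc₁ honly hn hg hcong in
/-- **`S36PtInput` at a point of a component of multiplicity `e`.** -/
theorem s36pm_ptInput [IsNoetherianRing B]
    (hϖV : ∀ c, algebraMap B F ϖ ∈ (V c).nonunits)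
    (hE : ∀ x : E, ∃ (n : ℕ) (a : B),
      algebraMap E F x * algebraMap B F ϖ ^ n = algebraMap B F a)
    (hfrac : ∀ x : F, ∃ a b : B, b ≠ 0 ∧ x * algebraMap B F b = algebraMap B F a)
    (hVloc : ∀ x : F, x ∈ V c₁ → ∃ b s : B, algebraMap B F s ∉ (V c₁).nonunits ∧
      algebraMap B F s * x = algebraMap B F b)
    {Y₀ : B} (hY₀ : Y₀ ∈ 𝔫) (hgen : S36n2pGen 𝔫 (V c₁) Y₀)
    (he : 0 < e)
    (hramc : ∀ x : F, x ∈ (V c₁).nonunits → ∃ z ∈ V c₁, x ^ e = algebraMap B F ϖ * z)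
    (Hor : F → Prop) (m : ℕ) (hHor : ∀ y, Hor y → ∀ P : Place E F, (m : ℤ) ∣ P.ord y)
    (α β : F₁ →+* F) (Nα Nβ : F →* F₁) (ζ₁ : F₁) (ca cb cc : κ) :
    @S36PtInput F₁ F _ _ κ Hor m α β Nα Nβ ζ₁ V ca cb cc (ls_localSubring (F := F) 𝔫)
      (ls_localSubring_isLocalRing hinj 𝔫)
      (fun c => ∀ b : B, algebraMap B F b ∈ (V c).nonunits → b ∈ 𝔫) := by
  obtain ⟨Y, hXY⟩ := s36pm_exists_mul hinj 𝔫 V hBV ϖ hKR Q hram hϖ0 c₁ hc₁ honly X g e n hn hg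
    hcong he
  exact s36n2p_ptInput_one (E := E) hinj 𝔫 V hBV ϖ hKR Q hram hϖ0 hϖV hE hfrac c₁ hc₁ honly
    hVloc hY₀ hgen X Y hXY
    (s36pm_mem_nonunits hinj 𝔫 V hBV ϖ hKR Q hram hϖ0 c₁ hc₁ honly X g e n hn hg hcong he
      (hϖV c₁))
    (s36pm_unif hinj 𝔫 V hBV ϖ hKR Q hram hϖ0 c₁ hc₁ honly X g e n hn hg hcong he hramc)
    Hor m hHor α β Nα Nβ ζ₁ ca cb cc

end Mid

end Fermat.Agent.S36


end ZBS36_026_6

/-! ### bundled: `Fermat.Agent.S36.PtsMidChart` -/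
section ZBS36_026_7

/-!
# S36 / (I6)(b): the points of the middle component, chart form (helper93)

Setting of `UNIP/AbstractT.lean` (`A₀` a DVR, `E = Frac A₀`, `F / E(u)` finite), chart
`B_u = zchClosure {u}`, closed point `𝔫 : AtPt π u`, `O = atLoc 𝔫`.

* `s36pm_hfrac`, `s36pm_hE` : `F = Frac B_u`, `E ⊆ B_u[1/π]`;
* **`s36pm_atPt`** : `S36PtInput` at a closed point `𝔫` with exactly one component `V c₁`
  through it, from `X ∈ O`, a unit `g` of `O` and the congruence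
  `(X ^ e / π) ^ n ≡ g` at `V c₁` — all hypotheses in the "integral over `A₀[u]`" form of
  `s36tb_small` (`hBV`, `hKR`, `hram`, `hVloc`);
* `s36pm_atPt_inl`, `s36pm_atPt_inr` : the same in the forms `atO π t (Sum.inl 𝔫)`,
  `atO π t (Sum.inr 𝔫)` of `hpts`.
-/

set_option autoImplicit false
set_option linter.unusedSectionVars false
set_option linter.unusedVariables false
set_option linter.style.haveILetI false

namespace Fermat.Agent.S36

open Fermat.Agent.UNIP Fermat.Agent.STB Fermat.Agent.INJ IntermediateField AlgebraicCurve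

section Chart

variable {A₀ E F : Type*} [CommRing A₀] [IsDomain A₀] [IsDiscreteValuationRing A₀]
  [Field E] [Algebra A₀ E] [IsFractionRing A₀ E] [CharZero E]
  [Field F] [Algebra E F] [Algebra A₀ F] [IsScalarTower A₀ E F]
  {π : A₀} {κ : Type*} {F₁ : Type*} [Field F₁]

/-- `E ⊆ B_u[1/π]` -/
theorem s36pm_hE (hπ : Irreducible π) (u : F) (x : E) :
    ∃ (n : ℕ) (a : ↥(zchClosure (A₀ := A₀) ({u} : Set F))),
      algebraMap E F x * algebraMap ↥(zchClosure (A₀ := A₀) ({u} : Set F)) F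
        (algebraMap A₀ ↥(zchClosure (A₀ := A₀) ({u} : Set F)) π) ^ n =
        algebraMap ↥(zchClosure (A₀ := A₀) ({u} : Set F)) F a := by
  obtain ⟨a, b, hb, rfl⟩ := IsFractionRing.div_surjective (A := A₀) x
  have hb0 : b ≠ 0 := nonZeroDivisors.ne_zero hb
  obtain ⟨n, w, hw⟩ := IsDiscreteValuationRing.eq_unit_mul_pow_irreducible hb0 hπ
  refine ⟨n, algebraMap A₀ _ (a * ((w⁻¹ : A₀ˣ) : A₀)), ?_⟩
  have hbE : algebraMap A₀ E b ≠ 0 :=
    (map_ne_zero_iff _ (IsFractionRing.injective A₀ E)).2 hb0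
  have e1 : algebraMap ↥(zchClosure (A₀ := A₀) ({u} : Set F)) F
      (algebraMap A₀ ↥(zchClosure (A₀ := A₀) ({u} : Set F)) π) = algebraMap A₀ F π := rfl
  have e2 : algebraMap ↥(zchClosure (A₀ := A₀) ({u} : Set F)) F
      (algebraMap A₀ ↥(zchClosure (A₀ := A₀) ({u} : Set F)) (a * ((w⁻¹ : A₀ˣ) : A₀))) =
      algebraMap A₀ F (a * ((w⁻¹ : A₀ˣ) : A₀)) := rfl
  rw [e1, e2, IsScalarTower.algebraMap_apply A₀ E F π,
    IsScalarTower.algebraMap_apply A₀ E F (a * _), ← map_pow, ← map_mul]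
  congr 1
  have hwu : algebraMap A₀ E ((w : A₀)) * algebraMap A₀ E (((w⁻¹ : A₀ˣ) : A₀)) = 1 := by
    rw [← map_mul, Units.mul_inv, map_one]
  rw [div_mul_eq_mul_div, div_eq_iff hbE, map_mul, hw]
  rw [map_mul, map_pow]
  linear_combination (algebraMap A₀ E a * algebraMap A₀ E π ^ n) * (-hwu)

/-- `F` is the fraction field of the chart `B_u` -/
theorem s36pm_hfrac (u : F) [FiniteDimensional E⟮u⟯ F] (x : F) :
    ∃ a b : ↥(zchClosure (A₀ := A₀) ({u} : Set F)), b ≠ 0 ∧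
      x * algebraMap ↥(zchClosure (A₀ := A₀) ({u} : Set F)) F b =
        algebraMap ↥(zchClosure (A₀ := A₀) ({u} : Set F)) F a := by
  obtain ⟨y, hy0, hy⟩ := (ad_isAlgebraic (A₀ := A₀) (E := E) u x).exists_integral_multiple
  refine ⟨⟨y • x, hy⟩, ⟨(y : F), isIntegral_algebraMap
    (R := ↥(Algebra.adjoin A₀ ({u} : Set F))) (x := y)⟩, ?_, ?_⟩
  · intro h0
    apply hy0
    apply Subtype.ext
    exact congrArg (fun z : ↥(zchClosure (A₀ := A₀) ({u} : Set F)) => (z : F)) h0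
  · show x * (y : F) = y • x
    rw [Algebra.smul_def, mul_comm]
    rfl

/-- (KR) in the chart form of `S36/N2PtsReg.lean` -/
theorem s36pm_hKR {u : F} (V : κ → ValuationSubring F)
    (hKR : ∀ x : F, IsIntegral ↥(Algebra.adjoin A₀ {u}) (algebraMap A₀ F π * x) →
      (∀ c, x ∈ V c) → IsIntegral ↥(Algebra.adjoin A₀ {u}) x)
    (x : F)
    (hx : ∃ b : ↥(zchClosure (A₀ := A₀) ({u} : Set F)),
      algebraMap ↥(zchClosure (A₀ := A₀) ({u} : Set F)) F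
        (algebraMap A₀ ↥(zchClosure (A₀ := A₀) ({u} : Set F)) π) * x =
        algebraMap ↥(zchClosure (A₀ := A₀) ({u} : Set F)) F b)
    (hV : ∀ c, x ∈ V c) :
    ∃ b : ↥(zchClosure (A₀ := A₀) ({u} : Set F)),
      x = algebraMap ↥(zchClosure (A₀ := A₀) ({u} : Set F)) F b := by
  obtain ⟨b, hb⟩ := hx
  have h1 : IsIntegral ↥(Algebra.adjoin A₀ {u}) (algebraMap A₀ F π * x) := by
    have e : algebraMap A₀ F π * x = (b : F) := hb
    rw [e]
    exact mem_zchClosure.mp b.2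
  exact ⟨⟨x, mem_zchClosure.mpr (hKR x h1 hV)⟩, rfl⟩

/-- **`S36PtInput` at a closed point of a chart with exactly one component `V c₁` through it**,
of multiplicity `e`: `X ∈ O`, `(X ^ e / π) ^ n ≡ g` at `V c₁` with `g` a unit of `O`. -/
theorem s36pm_atPt [Finite κ] (hπ : Irreducible π) {u : F} [FiniteDimensional E⟮u⟯ F]
    [IsNoetherianRing ↥(zchClosure (A₀ := A₀) ({u} : Set F))]
    (V : κ → ValuationSubring F)
    (hBV : ∀ c (b : F), IsIntegral ↥(Algebra.adjoin A₀ {u}) b → b ∈ V c)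
    (hπV : ∀ c, algebraMap A₀ F π ∈ (V c).nonunits)
    (hKR : ∀ x : F, IsIntegral ↥(Algebra.adjoin A₀ {u}) (algebraMap A₀ F π * x) →
      (∀ c, x ∈ V c) → IsIntegral ↥(Algebra.adjoin A₀ {u}) x)
    (Q : ℕ) (hram : ∀ c (x : F), x ∈ (V c).nonunits → ∃ z ∈ V c, x ^ Q = algebraMap A₀ F π * z)
    (𝔫 : AtPt (F := F) π u) (c₁ : κ) (hc₁ : atThrough 𝔫 (V c₁))
    (honly : ∀ c, atThrough 𝔫 (V c) → c = c₁)
    (hVloc : ∀ x : F, x ∈ V c₁ → ∃ b s : F, IsIntegral ↥(Algebra.adjoin A₀ {u}) b ∧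
      IsIntegral ↥(Algebra.adjoin A₀ {u}) s ∧ s ∉ (V c₁).nonunits ∧ s * x = b)
    {Y₀ : ↥(zchClosure (A₀ := A₀) ({u} : Set F))} (hY₀ : Y₀ ∈ 𝔫.1)
    (hgen : S36n2pGen 𝔫.1 (V c₁) Y₀)
    {X g : F} (hX : X ∈ atLoc 𝔫) (hg : g ∈ atLoc 𝔫) (hg' : g⁻¹ ∈ atLoc 𝔫) (hg0 : g ≠ 0)
    (e n : ℕ) (he : 0 < e) (hn : 0 < n)
    (hcong : (X ^ e / algebraMap A₀ F π) ^ n - g ∈ (V c₁).nonunits)
    (hramc : ∀ x : F, x ∈ (V c₁).nonunits → ∃ z ∈ V c₁, x ^ e = algebraMap A₀ F π * z)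
    (Hor : F → Prop) (m : ℕ) (hHor : ∀ y, Hor y → ∀ P : Place E F, (m : ℤ) ∣ P.ord y)
    (α β : F₁ →+* F) (Nα Nβ : F →* F₁) (ζ₁ : F₁) (ca cb cc : κ) :
    @S36PtInput F₁ F _ _ κ Hor m α β Nα Nβ ζ₁ V ca cb cc (atLoc 𝔫)
      (haveI := 𝔫.2.1.isPrime; ls_localSubring_isLocalRing Subtype.val_injective 𝔫.1)
      (fun c => atThrough 𝔫 (V c)) := by
  haveI := 𝔫.2.1.isPrime
  have hπ0 : algebraMap A₀ F π ≠ 0 := ei_algebraMap_ne_zero (E := E) hπ
  have hgu : IsUnit (⟨g, hg⟩ : ls_localSubring (F := F) 𝔫.1) :=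
    IsUnit.of_mul_eq_one ⟨g⁻¹, hg'⟩ (Subtype.ext (mul_inv_cancel₀ hg0))
  exact s36pm_ptInput (E := E) (B := ↥(zchClosure (A₀ := A₀) ({u} : Set F)))
    Subtype.val_injective 𝔫.1 V (fun c b => hBV c _ b.2)
    (algebraMap A₀ ↥(zchClosure (A₀ := A₀) ({u} : Set F)) π)
    (s36pm_hKR V hKR) Q hram hπ0 c₁ hc₁ honly ⟨X, hX⟩ ⟨g, hg⟩ e n hn hgu hcong
    hπV (s36pm_hE hπ u) (s36pm_hfrac (E := E) u)
    (fun x hx => by
      obtain ⟨b, s, hb, hs, hsV, hsx⟩ := hVloc x hx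
      exact ⟨⟨b, mem_zchClosure.mpr hb⟩, ⟨s, mem_zchClosure.mpr hs⟩, hsV, hsx⟩)
    hY₀ hgen he hramc Hor m hHor α β Nα Nβ ζ₁ ca cb cc

/-- the form `atO π t (Sum.inl 𝔫)` of `hpts` -/
theorem s36pm_atPt_inl [Finite κ] (hπ : Irreducible π) {t : F} [FiniteDimensional E⟮t⟯ F]
    [IsNoetherianRing ↥(zchClosure (A₀ := A₀) ({t} : Set F))]
    (V : κ → ValuationSubring F)
    (hBV : ∀ c (b : F), IsIntegral ↥(Algebra.adjoin A₀ {t}) b → b ∈ V c)
    (hπV : ∀ c, algebraMap A₀ F π ∈ (V c).nonunits)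
    (hKR : ∀ x : F, IsIntegral ↥(Algebra.adjoin A₀ {t}) (algebraMap A₀ F π * x) →
      (∀ c, x ∈ V c) → IsIntegral ↥(Algebra.adjoin A₀ {t}) x)
    (Q : ℕ) (hram : ∀ c (x : F), x ∈ (V c).nonunits → ∃ z ∈ V c, x ^ Q = algebraMap A₀ F π * z)
    (𝔫 : AtPt (F := F) π t) (c₁ : κ) (hc₁ : atThrough 𝔫 (V c₁))
    (honly : ∀ c, atThrough 𝔫 (V c) → c = c₁)
    (hVloc : ∀ x : F, x ∈ V c₁ → ∃ b s : F, IsIntegral ↥(Algebra.adjoin A₀ {t}) b ∧
      IsIntegral ↥(Algebra.adjoin A₀ {t}) s ∧ s ∉ (V c₁).nonunits ∧ s * x = b)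
    {Y₀ : ↥(zchClosure (A₀ := A₀) ({t} : Set F))} (hY₀ : Y₀ ∈ 𝔫.1)
    (hgen : S36n2pGen 𝔫.1 (V c₁) Y₀)
    {X g : F} (hX : X ∈ atLoc 𝔫) (hg : g ∈ atLoc 𝔫) (hg' : g⁻¹ ∈ atLoc 𝔫) (hg0 : g ≠ 0)
    (e n : ℕ) (he : 0 < e) (hn : 0 < n)
    (hcong : (X ^ e / algebraMap A₀ F π) ^ n - g ∈ (V c₁).nonunits)
    (hramc : ∀ x : F, x ∈ (V c₁).nonunits → ∃ z ∈ V c₁, x ^ e = algebraMap A₀ F π * z)
    (Hor : F → Prop) (m : ℕ) (hHor : ∀ y, Hor y → ∀ P : Place E F, (m : ℤ) ∣ P.ord y)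
    (α β : F₁ →+* F) (Nα Nβ : F →* F₁) (ζ₁ : F₁) (ca cb cc : κ) :
    @S36PtInput F₁ F _ _ κ Hor m α β Nα Nβ ζ₁ V ca cb cc (atO π t (Sum.inl 𝔫))
      (stb_atO_isLocalRing (π := π) t (Sum.inl 𝔫)) (atInc π t V (Sum.inl 𝔫)) :=
  s36pm_atPt (E := E) hπ V hBV hπV hKR Q hram 𝔫 c₁ hc₁ honly hVloc hY₀ hgen hX hg hg' hg0 e n he
    hn hcong hramc Hor m hHor α β Nα Nβ ζ₁ ca cb cc

/-- the form `atO π t (Sum.inr 𝔫)` of `hpts` (points of the chart `t⁻¹`) -/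
theorem s36pm_atPt_inr [Finite κ] (hπ : Irreducible π) {t : F} [FiniteDimensional E⟮t⁻¹⟯ F]
    [IsNoetherianRing ↥(zchClosure (A₀ := A₀) ({t⁻¹} : Set F))]
    (V : κ → ValuationSubring F)
    (hBV : ∀ c (b : F), IsIntegral ↥(Algebra.adjoin A₀ {t⁻¹}) b → b ∈ V c)
    (hπV : ∀ c, algebraMap A₀ F π ∈ (V c).nonunits)
    (hKR : ∀ x : F, IsIntegral ↥(Algebra.adjoin A₀ {t⁻¹}) (algebraMap A₀ F π * x) →
      (∀ c, x ∈ V c) → IsIntegral ↥(Algebra.adjoin A₀ {t⁻¹}) x)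
    (Q : ℕ) (hram : ∀ c (x : F), x ∈ (V c).nonunits → ∃ z ∈ V c, x ^ Q = algebraMap A₀ F π * z)
    (𝔫 : AtPt (F := F) π t⁻¹) (c₁ : κ) (hc₁ : atThrough 𝔫 (V c₁))
    (honly : ∀ c, atThrough 𝔫 (V c) → c = c₁)
    (hVloc : ∀ x : F, x ∈ V c₁ → ∃ b s : F, IsIntegral ↥(Algebra.adjoin A₀ {t⁻¹}) b ∧
      IsIntegral ↥(Algebra.adjoin A₀ {t⁻¹}) s ∧ s ∉ (V c₁).nonunits ∧ s * x = b)
    {Y₀ : ↥(zchClosure (A₀ := A₀) ({t⁻¹} : Set F))} (hY₀ : Y₀ ∈ 𝔫.1)
    (hgen : S36n2pGen 𝔫.1 (V c₁) Y₀)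
    {X g : F} (hX : X ∈ atLoc 𝔫) (hg : g ∈ atLoc 𝔫) (hg' : g⁻¹ ∈ atLoc 𝔫) (hg0 : g ≠ 0)
    (e n : ℕ) (he : 0 < e) (hn : 0 < n)
    (hcong : (X ^ e / algebraMap A₀ F π) ^ n - g ∈ (V c₁).nonunits)
    (hramc : ∀ x : F, x ∈ (V c₁).nonunits → ∃ z ∈ V c₁, x ^ e = algebraMap A₀ F π * z)
    (Hor : F → Prop) (m : ℕ) (hHor : ∀ y, Hor y → ∀ P : Place E F, (m : ℤ) ∣ P.ord y)
    (α β : F₁ →+* F) (Nα Nβ : F →* F₁) (ζ₁ : F₁) (ca cb cc : κ) :
    @S36PtInput F₁ F _ _ κ Hor m α β Nα Nβ ζ₁ V ca cb cc (atO π t (Sum.inr 𝔫))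
      (stb_atO_isLocalRing (π := π) t (Sum.inr 𝔫)) (atInc π t V (Sum.inr 𝔫)) :=
  s36pm_atPt (E := E) hπ V hBV hπV hKR Q hram 𝔫 c₁ hc₁ honly hVloc hY₀ hgen hX hg hg' hg0 e n he
    hn hcong hramc Hor m hHor α β Nα Nβ ζ₁ ca cb cc

end Chart

end Fermat.Agent.S36


end ZBS36_026_7

/-! ### bundled: `Fermat.Agent.S36.PtsTriple` -/
section ZBS36_026_8

/-!
# S36 / (I6)(c): the TRIPLE points, abstract assembly (helper37)

Setting of `S36/N2PtsInput.lean`: chart `B` (level `M q²`), prime `𝔫`, `O = ls_localSubring 𝔫`,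
vertical valuations `V : κ → ValuationSubring F`, `κ = {ca, cb, cc}` all through `𝔫`.

Level `M`: a chart `C` with two embeddings `ga, gb : C →+* B` (`ga = ` inclusion, `gb = ββ`,
`s ↦ s(Q^{q²})`), the surjectivities `(F1)` (`B = ga C + 𝔭_a = ga C + 𝔭_c = gb C + 𝔭_b`, N2-ker
(K2)), a regular point `𝔫 ∩ C = (π, s)` (UNIP `RegChart`), and the Frobenius congruences for an
(inverse) Frobenius lift `ψ₂ : C → C` and `Q₂ = q²`:

* **(Ka)** `gb c ≡ (ga (ψ₂ c)) ^ Q₂` at `V ca`,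
* **(Kb)** `ga c ≡ (gb (ψ₂ c)) ^ Q₂` at `V cb`,
* **(Kc)** `gb c ≡ ga c` at `V cc`.

Then:
* `s36pt_comap_eq`   : `𝔫 ∩ ga C = 𝔫 ∩ gb C`;
* `s36pt_gen_a/_b/_c`: the three branches are regular, parameters `ga s`, `gb s`, `ga s`;
* `s36pt_gen_ca`     : `Yca = ga s − gb s ∈ 𝔭_c` is a parameter of the branch `a`;
* `s36pt_gen_cb`     : `Ycb = gb s − ga s ∈ 𝔭_c` is a parameter of the branch `b`;
* `s36pt_gen_ab`     : `Yab = gb s − (ga (ψ₂ s)) ^ Q₂ ∈ 𝔭_a` is a parameter of the branch `b`;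
* `s36pt_reg`        : `X, Y ∈ O` from the thin node of level `M q` transported by `β`;
* **`s36pt_ptInput`**: `S36PtInput` at the triple point.
-/

set_option autoImplicit false
set_option linter.unusedSectionVars false
set_option linter.unusedVariables false
set_option linter.style.haveILetI false

namespace Fermat.Agent.S36

open Fermat.Agent.UNIP Fermat.Agent.STB AlgebraicCurve

section Params

variable {F : Type*} [Field F] {B : Type*} [CommRing B] [Algebra B F]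
variable (𝔫 : Ideal B) [h𝔫 : 𝔫.IsPrime]
variable {C : Type*} [CommRing C] (ga gb : C →+* B)
variable (Va Vb Vc : ValuationSubring F)

/-- `𝔫 ∩ ga C = 𝔫 ∩ gb C` at a point on the middle component. -/
theorem s36pt_comap_eq
    (hthrc : ∀ b : B, algebraMap B F b ∈ Vc.nonunits → b ∈ 𝔫)
    (hKc : ∀ c : C, algebraMap B F (gb c - ga c) ∈ Vc.nonunits) :
    𝔫.comap gb = 𝔫.comap ga := by
  ext c
  rw [Ideal.mem_comap, Ideal.mem_comap]
  have h1 : gb c - ga c ∈ 𝔫 := hthrc _ (hKc c)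
  constructor
  · intro h
    have := 𝔫.sub_mem h h1
    rwa [sub_sub_cancel] at this
  · intro h
    have := 𝔫.add_mem h1 h
    rwa [sub_add_cancel] at this

/-- the branch `a` is regular with parameter `ga s` -/
theorem s36pt_gen_a (hBVa : ∀ b : B, algebraMap B F b ∈ Va)
    (hthra : ∀ b : B, algebraMap B F b ∈ Va.nonunits → b ∈ 𝔫)
    (hFa : ∀ b : B, ∃ c : C, algebraMap B F (b - ga c) ∈ Va.nonunits)
    (π s : C) (hπa : algebraMap B F (ga π) ∈ Va.nonunits)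
    (hgen : NodesLocGen (𝔫.comap ga) {π, s}) : S36n2pGen 𝔫 Va (ga s) :=
  s36n2p_gen_of_lower ga 𝔫 Va hBVa hthra hFa π s hπa hgen

/-- the branch `b` is regular with parameter `gb s` -/
theorem s36pt_gen_b (hBVb : ∀ b : B, algebraMap B F b ∈ Vb)
    (hthrb : ∀ b : B, algebraMap B F b ∈ Vb.nonunits → b ∈ 𝔫)
    (hthrc : ∀ b : B, algebraMap B F b ∈ Vc.nonunits → b ∈ 𝔫)
    (hFb : ∀ b : B, ∃ c : C, algebraMap B F (b - gb c) ∈ Vb.nonunits)
    (hKc : ∀ c : C, algebraMap B F (gb c - ga c) ∈ Vc.nonunits)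
    (π s : C) (hπb : algebraMap B F (gb π) ∈ Vb.nonunits)
    (hgen : NodesLocGen (𝔫.comap ga) {π, s}) : S36n2pGen 𝔫 Vb (gb s) := by
  refine s36n2p_gen_of_lower gb 𝔫 Vb hBVb hthrb hFb π s hπb ?_
  rw [s36pt_comap_eq 𝔫 ga gb Vc hthrc hKc]
  exact hgen

/-- `ga (ψ₂ c) ∈ 𝔫` for `c ∈ 𝔫 ∩ C`. -/
theorem s36pt_psi_mem_a
    (hthra : ∀ b : B, algebraMap B F b ∈ Va.nonunits → b ∈ 𝔫)
    (hthrc : ∀ b : B, algebraMap B F b ∈ Vc.nonunits → b ∈ 𝔫)
    (ψ₂ : C → C) {Q₂ : ℕ}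
    (hKa : ∀ c : C, algebraMap B F (gb c - ga (ψ₂ c) ^ Q₂) ∈ Va.nonunits)
    (hKc : ∀ c : C, algebraMap B F (gb c - ga c) ∈ Vc.nonunits)
    (c : C) (hc : ga c ∈ 𝔫) : ga (ψ₂ c) ∈ 𝔫 := by
  have h1 : gb c ∈ 𝔫 := by
    have : c ∈ 𝔫.comap gb := by
      rw [s36pt_comap_eq 𝔫 ga gb Vc hthrc hKc]; exact hc
    exact this
  have h2 : gb c - ga (ψ₂ c) ^ Q₂ ∈ 𝔫 := hthra _ (hKa c)
  have h3 : ga (ψ₂ c) ^ Q₂ ∈ 𝔫 := by
    have := 𝔫.sub_mem h1 h2
    rwa [sub_sub_cancel] at this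
  exact h𝔫.mem_of_pow_mem _ h3

/-- `gb (ψ₂ c) ∈ 𝔫` for `c ∈ 𝔫 ∩ C`. -/
theorem s36pt_psi_mem_b
    (hthrb : ∀ b : B, algebraMap B F b ∈ Vb.nonunits → b ∈ 𝔫)
    (ψ₂ : C → C) {Q₂ : ℕ}
    (hKb : ∀ c : C, algebraMap B F (ga c - gb (ψ₂ c) ^ Q₂) ∈ Vb.nonunits)
    (c : C) (hc : ga c ∈ 𝔫) : gb (ψ₂ c) ∈ 𝔫 := by
  have h2 : ga c - gb (ψ₂ c) ^ Q₂ ∈ 𝔫 := hthrb _ (hKb c)
  have h3 : gb (ψ₂ c) ^ Q₂ ∈ 𝔫 := by
    have := 𝔫.sub_mem hc h2
    rwa [sub_sub_cancel] at this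
  exact h𝔫.mem_of_pow_mem _ h3

/-- **a–c**: `ga s − gb s ∈ 𝔭_c` is a local parameter of the branch `a`. -/
theorem s36pt_gen_ca (hBVa : ∀ b : B, algebraMap B F b ∈ Va)
    (hthra : ∀ b : B, algebraMap B F b ∈ Va.nonunits → b ∈ 𝔫)
    (hthrc : ∀ b : B, algebraMap B F b ∈ Vc.nonunits → b ∈ 𝔫)
    (ψ₂ : C → C) {Q₂ : ℕ} (hQ₂ : 2 ≤ Q₂)
    (hKa : ∀ c : C, algebraMap B F (gb c - ga (ψ₂ c) ^ Q₂) ∈ Va.nonunits)
    (hKc : ∀ c : C, algebraMap B F (gb c - ga c) ∈ Vc.nonunits)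
    {s : C} (hs : ga s ∈ 𝔫) (hgena : S36n2pGen 𝔫 Va (ga s)) :
    S36n2pGen 𝔫 Va (ga s - gb s) := by
  refine s36n2p_gen_change 𝔫 Va hBVa hs
    (s36pt_psi_mem_a 𝔫 ga gb Va Vc hthra hthrc ψ₂ hKa hKc s hs) hQ₂ ?_ hgena
  have e : ga s - gb s - (ga s - ga (ψ₂ s) ^ Q₂) = -(gb s - ga (ψ₂ s) ^ Q₂) := by ring
  rw [e, map_neg]
  exact Va.nonunits.neg_mem (hKa s)

/-- **c–b**: `gb s − ga s ∈ 𝔭_c` is a local parameter of the branch `b`. -/
theorem s36pt_gen_cb (hBVb : ∀ b : B, algebraMap B F b ∈ Vb)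
    (hthrb : ∀ b : B, algebraMap B F b ∈ Vb.nonunits → b ∈ 𝔫)
    (hthrc : ∀ b : B, algebraMap B F b ∈ Vc.nonunits → b ∈ 𝔫)
    (ψ₂ : C → C) {Q₂ : ℕ} (hQ₂ : 2 ≤ Q₂)
    (hKb : ∀ c : C, algebraMap B F (ga c - gb (ψ₂ c) ^ Q₂) ∈ Vb.nonunits)
    (hKc : ∀ c : C, algebraMap B F (gb c - ga c) ∈ Vc.nonunits)
    {s : C} (hs : ga s ∈ 𝔫) (hgenb : S36n2pGen 𝔫 Vb (gb s)) :
    S36n2pGen 𝔫 Vb (gb s - ga s) := by
  have hsb : gb s ∈ 𝔫 := by
    have : s ∈ 𝔫.comap gb := by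
      rw [s36pt_comap_eq 𝔫 ga gb Vc hthrc hKc]; exact hs
    exact this
  refine s36n2p_gen_change 𝔫 Vb hBVb hsb
    (s36pt_psi_mem_b 𝔫 ga gb Vb hthrb ψ₂ hKb s hs) hQ₂ ?_ hgenb
  have e : gb s - ga s - (gb s - gb (ψ₂ s) ^ Q₂) = -(ga s - gb (ψ₂ s) ^ Q₂) := by ring
  rw [e, map_neg]
  exact Vb.nonunits.neg_mem (hKb s)

/-- **a–b**: `gb s − (ga (ψ₂ s)) ^ Q₂ ∈ 𝔭_a` is a local parameter of the branch `b`. -/
theorem s36pt_gen_ab (hBVb : ∀ b : B, algebraMap B F b ∈ Vb)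
    (hthra : ∀ b : B, algebraMap B F b ∈ Va.nonunits → b ∈ 𝔫)
    (hthrb : ∀ b : B, algebraMap B F b ∈ Vb.nonunits → b ∈ 𝔫)
    (hthrc : ∀ b : B, algebraMap B F b ∈ Vc.nonunits → b ∈ 𝔫)
    (ψ₂ : C → C) {Q₂ : ℕ} (hQ₂ : 2 ≤ Q₂)
    (hKa : ∀ c : C, algebraMap B F (gb c - ga (ψ₂ c) ^ Q₂) ∈ Va.nonunits)
    (hKb : ∀ c : C, algebraMap B F (ga c - gb (ψ₂ c) ^ Q₂) ∈ Vb.nonunits)
    (hKc : ∀ c : C, algebraMap B F (gb c - ga c) ∈ Vc.nonunits)
    {s : C} (hs : ga s ∈ 𝔫) (hgenb : S36n2pGen 𝔫 Vb (gb s)) :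
    S36n2pGen 𝔫 Vb (gb s - ga (ψ₂ s) ^ Q₂) := by
  have hsb : gb s ∈ 𝔫 := by
    have : s ∈ 𝔫.comap gb := by
      rw [s36pt_comap_eq 𝔫 ga gb Vc hthrc hKc]; exact hs
    exact this
  have hψa : ga (ψ₂ s) ∈ 𝔫 := s36pt_psi_mem_a 𝔫 ga gb Va Vc hthra hthrc ψ₂ hKa hKc s hs
  have hψψb : gb (ψ₂ (ψ₂ s)) ∈ 𝔫 := s36pt_psi_mem_b 𝔫 ga gb Vb hthrb ψ₂ hKb (ψ₂ s) hψa
  -- `(ga (ψ₂ s)) ^ Q₂ ≡ (gb (ψ₂ (ψ₂ s))) ^ (Q₂ * Q₂)` at `Vb`
  have hcong : algebraMap B F (ga (ψ₂ s) ^ Q₂ - gb (ψ₂ (ψ₂ s)) ^ (Q₂ * Q₂)) ∈ Vb.nonunits := by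
    have h1 := hKb (ψ₂ s)
    obtain ⟨d, hd⟩ := sub_dvd_pow_sub_pow (ga (ψ₂ s)) (gb (ψ₂ (ψ₂ s)) ^ Q₂) Q₂
    have h2 : ga (ψ₂ s) ^ Q₂ - gb (ψ₂ (ψ₂ s)) ^ (Q₂ * Q₂) =
        (ga (ψ₂ s) - gb (ψ₂ (ψ₂ s)) ^ Q₂) * d := by
      rw [← hd, ← pow_mul]
    rw [h2, map_mul, mul_comm]
    exact pwi_mul_mem_nonunits Vb (hBVb _) h1
  refine s36n2p_gen_change 𝔫 Vb hBVb hsb hψψb
    (show 2 ≤ Q₂ * Q₂ from le_trans hQ₂ (Nat.le_mul_of_pos_right _ (by omega))) ?_ hgenb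
  have e : gb s - ga (ψ₂ s) ^ Q₂ - (gb s - gb (ψ₂ (ψ₂ s)) ^ (Q₂ * Q₂)) =
      -(ga (ψ₂ s) ^ Q₂ - gb (ψ₂ (ψ₂ s)) ^ (Q₂ * Q₂)) := by ring
  rw [e, map_neg]
  exact Vb.nonunits.neg_mem hcong

end Params

section Reg

variable {F F₁ : Type*} [Field F] [Field F₁] {B : Type*} [CommRing B] [Algebra B F]
  {B' : Type*} [CommRing B'] [Algebra B' F₁]
variable (hinj : Function.Injective (algebraMap B F)) (𝔫 : Ideal B) [h𝔫 : 𝔫.IsPrime]

include hinj in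
/-- **REG through the branch `a` at a triple point**: the thin node `u ϖ' = X' Y''` of the level
below (`X'` a generator of `𝔭′_∞` at `𝔫′ = β⁻¹ 𝔫`, a unit at `V′_0`), transported by `β`. -/
theorem s36pt_reg (β : F₁ →+* F) (βB : B' →+* B)
    (hβ : ∀ b', algebraMap B F (βB b') = β (algebraMap B' F₁ b'))
    (Va Vb Vc : ValuationSubring F) (Winf W0 : ValuationSubring F₁)
    (hBVa : ∀ b : B, algebraMap B F b ∈ Va)
    (hthra : ∀ b : B, algebraMap B F b ∈ Va.nonunits → b ∈ 𝔫)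
    (hβinf : ∀ y, y ∈ Winf.nonunits → β y ∈ Va.nonunits)
    (hβ0b : ∀ y, y ∈ W0 → β y ∈ Vb) (hβ0c : ∀ y, y ∈ W0 → β y ∈ Vc)
    (ϖ' : B') (ϖ : B) (hϖ : βB ϖ' = ϖ)
    (X' Y'' u : B') (hu : βB u ∉ 𝔫) (huπ : u * ϖ' = X' * Y'')
    (hX'inf : algebraMap B' F₁ X' ∈ Winf.nonunits)
    (hX'0 : (algebraMap B' F₁ X')⁻¹ ∈ W0)
    (hUa : ∀ x ∈ Va.nonunits, ∃ z ∈ Va, x = algebraMap B F ϖ * z) :
    ∃ X Y : ls_localSubring (F := F) 𝔫, X * Y = s36n2pToLoc (F := F) 𝔫 ϖ ∧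
      (X : F) ∈ Va.nonunits ∧ (∀ x ∈ Va.nonunits, ∃ z ∈ Va, x = (X : F) * z) ∧
      (X : F)⁻¹ ∈ Vb ∧ (X : F)⁻¹ ∈ Vc := by
  have hu0 : algebraMap B F (βB u) ≠ 0 := stb_gc_algebraMap_ne_zero hinj 𝔫 hu
  have hYmem : algebraMap B F (βB Y'') / algebraMap B F (βB u) ∈ ls_localSubring (F := F) 𝔫 :=
    ⟨βB Y'', βB u, hu, by field_simp⟩
  have hXY : algebraMap B F (βB X') * (algebraMap B F (βB Y'') / algebraMap B F (βB u)) =
      algebraMap B F ϖ := by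
    have h1 : algebraMap B F (βB u) * algebraMap B F ϖ =
        algebraMap B F (βB X') * algebraMap B F (βB Y'') := by
      rw [← hϖ, ← map_mul, ← map_mul, ← map_mul, ← map_mul, huπ]
    rw [mul_div_assoc', div_eq_iff hu0, ← h1, mul_comm]
  have hOVa := stb_gc_le 𝔫 Va hBVa hthra
  refine ⟨s36n2pToLoc (F := F) 𝔫 (βB X'), ⟨_, hYmem⟩, Subtype.ext hXY, ?_, ?_, ?_, ?_⟩
  · show algebraMap B F (βB X') ∈ Va.nonunits
    rw [hβ]; exact hβinf _ hX'inf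
  · intro x hx
    obtain ⟨z, hz, hxz⟩ := hUa x hx
    refine ⟨(algebraMap B F (βB Y'') / algebraMap B F (βB u)) * z,
      Va.mul_mem _ _ (hOVa _ hYmem) hz, ?_⟩
    show x = algebraMap B F (βB X') * _
    rw [← mul_assoc, hXY, hxz]
  · show (algebraMap B F (βB X'))⁻¹ ∈ Vb
    rw [hβ, ← map_inv₀]; exact hβ0b _ hX'0
  · show (algebraMap B F (βB X'))⁻¹ ∈ Vc
    rw [hβ, ← map_inv₀]; exact hβ0c _ hX'0

end Reg

section Input

variable {E F F₁ : Type*} [Field E] [Field F] [Field F₁] [Algebra E F]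
  {B : Type*} [CommRing B] [Algebra B F]
variable (hinj : Function.Injective (algebraMap B F)) (𝔫 : Ideal B) [h𝔫 : 𝔫.IsPrime]
variable {κ : Type*} [Finite κ]

include hinj in
/-- **`S36PtInput` at a TRIPLE point**, from the level-`M` chart `C` (two embeddings, (F1),
a regular point, the Frobenius congruences), the element `X` (thin node of level `M q`,
`s36pt_reg`) and the packages `NgLoc`. -/
theorem s36pt_ptInput [IsNoetherianRing B]
    (V : κ → ValuationSubring F) (hBV : ∀ c (b : B), algebraMap B F b ∈ V c) (ϖ : B)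
    (hKR : ∀ x : F, (∃ b : B, algebraMap B F ϖ * x = algebraMap B F b) → (∀ c, x ∈ V c) →
      ∃ b : B, x = algebraMap B F b)
    (Q : ℕ) (hram : ∀ c (x : F), x ∈ (V c).nonunits → ∃ z ∈ V c, x ^ Q = algebraMap B F ϖ * z)
    (hϖ0 : algebraMap B F ϖ ≠ 0) (hϖV : ∀ c, algebraMap B F ϖ ∈ (V c).nonunits)
    (hE : ∀ e : E, ∃ (n : ℕ) (a : B),
      algebraMap E F e * algebraMap B F ϖ ^ n = algebraMap B F a)
    (hfrac : ∀ x : F, ∃ a b : B, b ≠ 0 ∧ x * algebraMap B F b = algebraMap B F a)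
    (ca cb cc : κ) (hκ : ∀ c, c = ca ∨ c = cb ∨ c = cc)
    (hthr : ∀ c, ∀ b : B, algebraMap B F b ∈ (V c).nonunits → b ∈ 𝔫)
    (hVloc : ∀ c, ∀ x : F, x ∈ V c → ∃ b s : B, algebraMap B F s ∉ (V c).nonunits ∧
      algebraMap B F s * x = algebraMap B F b)
    -- level `M`
    {C : Type*} [CommRing C] (ga gb : C →+* B)
    (hFa : ∀ b : B, ∃ c : C, algebraMap B F (b - ga c) ∈ (V ca).nonunits)
    (hFb : ∀ b : B, ∃ c : C, algebraMap B F (b - gb c) ∈ (V cb).nonunits)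
    (hFc : ∀ b : B, ∃ c : C, algebraMap B F (b - ga c) ∈ (V cc).nonunits)
    (π s : C) (hgaπ : ga π = ϖ) (hgbπ : gb π = ϖ) (hs : s ∈ 𝔫.comap ga)
    (hgen : NodesLocGen (𝔫.comap ga) {π, s})
    -- Frobenius congruences
    (ψ₂ : C → C) {Q₂ : ℕ} (hQ₂ : 2 ≤ Q₂)
    (hKa : ∀ c : C, algebraMap B F (gb c - ga (ψ₂ c) ^ Q₂) ∈ (V ca).nonunits)
    (hKb : ∀ c : C, algebraMap B F (ga c - gb (ψ₂ c) ^ Q₂) ∈ (V cb).nonunits)
    (hKc : ∀ c : C, algebraMap B F (gb c - ga c) ∈ (V cc).nonunits)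
    -- REG through the branch `a`
    (X Y : ls_localSubring (F := F) 𝔫) (hXY : X * Y = s36n2pToLoc (F := F) 𝔫 ϖ)
    (hX1 : (X : F) ∈ (V ca).nonunits)
    (hU : ∀ x ∈ (V ca).nonunits, ∃ z ∈ V ca, x = (X : F) * z)
    (hXu : ∀ c, c ≠ ca → (X : F)⁻¹ ∈ V c)
    (Hor : F → Prop) (m : ℕ) (hHor : ∀ y, Hor y → ∀ P : Place E F, (m : ℤ) ∣ P.ord y)
    (α β : F₁ →+* F) (Nα Nβ : F →* F₁) (ζ₁ : F₁)
    (hNα : ∃ Oα : Subring F₁, NgLoc α Nα (V ca) (V cc) m ζ₁ (ls_localSubring (F := F) 𝔫) Oα)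
    (hNβ : ∃ Oβ : Subring F₁, NgLoc β Nβ (V cb) (V cc) m ζ₁ (ls_localSubring (F := F) 𝔫) Oβ) :
    @S36PtInput F₁ F _ _ κ Hor m α β Nα Nβ ζ₁ V ca cb cc (ls_localSubring (F := F) 𝔫)
      (ls_localSubring_isLocalRing hinj 𝔫)
      (fun c => ∀ b : B, algebraMap B F b ∈ (V c).nonunits → b ∈ 𝔫) := by
  have hsa : ga s ∈ 𝔫 := hs
  have hsb : gb s ∈ 𝔫 := by
    have : s ∈ 𝔫.comap gb := by
      rw [s36pt_comap_eq 𝔫 ga gb (V cc) (hthr cc) hKc]; exact hs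
    exact this
  have hgena : S36n2pGen 𝔫 (V ca) (ga s) :=
    s36pt_gen_a 𝔫 ga (V ca) (hBV ca) (hthr ca) hFa π s (by rw [hgaπ]; exact hϖV ca) hgen
  have hgenc : S36n2pGen 𝔫 (V cc) (ga s) :=
    s36pt_gen_a 𝔫 ga (V cc) (hBV cc) (hthr cc) hFc π s (by rw [hgaπ]; exact hϖV cc) hgen
  have hgenb : S36n2pGen 𝔫 (V cb) (gb s) :=
    s36pt_gen_b 𝔫 ga gb (V cb) (V cc) (hBV cb) (hthr cb) (hthr cc) hFb hKc π s
      (by rw [hgbπ]; exact hϖV cb) hgen
  refine s36n2p_ptInput_triple (E := E) hinj 𝔫 V hBV ϖ hKR Q hram hϖ0 hϖV hE hfrac ca cb cc hκ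
    hthr hVloc hsa hgenc
    (Yab := gb s - ga (ψ₂ s) ^ Q₂) (hKa s)
    (s36pt_gen_ab 𝔫 ga gb (V ca) (V cb) (V cc) (hBV cb) (hthr ca) (hthr cb) (hthr cc) ψ₂ hQ₂
      hKa hKb hKc hsa hgenb)
    (Yca := ga s - gb s) ?_
    (s36pt_gen_ca 𝔫 ga gb (V ca) (V cc) (hBV ca) (hthr ca) (hthr cc) ψ₂ hQ₂ hKa hKc hsa hgena)
    (Ycb := gb s - ga s) (hKc s)
    (s36pt_gen_cb 𝔫 ga gb (V cb) (V cc) (hBV cb) (hthr cb) (hthr cc) ψ₂ hQ₂ hKb hKc hsa hgenb)
    X Y hXY hX1 hU hXu Hor m hHor α β Nα Nβ ζ₁ hNα hNβ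
  have e : ga s - gb s = -(gb s - ga s) := by ring
  rw [e, map_neg]
  exact (V cc).nonunits.neg_mem (hKc s)

end Input

end Fermat.Agent.S36


end ZBS36_026_8

/-! ### bundled: `Fermat.Agent.S36.PtsTripleChart` -/
section ZBS36_026_9

/-!
# S36 / (I6)(c): the TRIPLE points, chart form (helper37)

Setting of `UNIP/AbstractT.lean` (`A₀` a DVR, `E = Frac A₀`, `F / E(u)` finite), chart
`B_u = zchClosure {u}`, closed point `𝔫 : AtPt π u` through which ALL the components pass.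

* **`s36pt_atPt`** : `S36PtInput` at the triple point `𝔫`, all hypotheses in the
  "integral over `A₀[u]`" form of `s36tb_small` (`hBV`, `hKR`, `hram`, `hVloc`), the level-`M`
  data `ga gb : C →+* B_u` with (F1), (K) in coerced form, the elements `X, Y` of `s36pt_reg`
  and the two packages `NgLoc`;
* `s36pt_atPt_inl`, `s36pt_atPt_inr` : the same in the forms `atO π t (Sum.inl 𝔫)`,
  `atO π t (Sum.inr 𝔫)` of `hpts` (= `hPt` of `s36pf_h1`).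
-/

set_option autoImplicit false
set_option linter.unusedSectionVars false
set_option linter.unusedVariables false
set_option linter.style.haveILetI false

namespace Fermat.Agent.S36

open Fermat.Agent.UNIP Fermat.Agent.STB Fermat.Agent.INJ IntermediateField AlgebraicCurve

section Chart

variable {A₀ E F : Type*} [CommRing A₀] [IsDomain A₀] [IsDiscreteValuationRing A₀]
  [Field E] [Algebra A₀ E] [IsFractionRing A₀ E] [CharZero E]
  [Field F] [Algebra E F] [Algebra A₀ F] [IsScalarTower A₀ E F]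
  {π : A₀} {κ : Type*} {F₁ : Type*} [Field F₁]

/-- **`S36PtInput` at a TRIPLE point of a chart.** -/
theorem s36pt_atPt [Finite κ] (hπ : Irreducible π) {u : F} [FiniteDimensional E⟮u⟯ F]
    [IsNoetherianRing ↥(zchClosure (A₀ := A₀) ({u} : Set F))]
    (V : κ → ValuationSubring F)
    (hBV : ∀ c (b : F), IsIntegral ↥(Algebra.adjoin A₀ {u}) b → b ∈ V c)
    (hπV : ∀ c, algebraMap A₀ F π ∈ (V c).nonunits)
    (hKR : ∀ x : F, IsIntegral ↥(Algebra.adjoin A₀ {u}) (algebraMap A₀ F π * x) →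
      (∀ c, x ∈ V c) → IsIntegral ↥(Algebra.adjoin A₀ {u}) x)
    (Q : ℕ) (hram : ∀ c (x : F), x ∈ (V c).nonunits → ∃ z ∈ V c, x ^ Q = algebraMap A₀ F π * z)
    (𝔫 : AtPt (F := F) π u) (ca cb cc : κ) (hκ : ∀ c, c = ca ∨ c = cb ∨ c = cc)
    (hthr : ∀ c, atThrough 𝔫 (V c))
    (hVloc : ∀ c, ∀ x : F, x ∈ V c → ∃ b s : F, IsIntegral ↥(Algebra.adjoin A₀ {u}) b ∧
      IsIntegral ↥(Algebra.adjoin A₀ {u}) s ∧ s ∉ (V c).nonunits ∧ s * x = b)
    -- level `M`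
    {C : Type*} [CommRing C] (ga gb : C →+* ↥(zchClosure (A₀ := A₀) ({u} : Set F)))
    (hFa : ∀ b : ↥(zchClosure (A₀ := A₀) ({u} : Set F)), ∃ c : C,
      (b : F) - (ga c : F) ∈ (V ca).nonunits)
    (hFb : ∀ b : ↥(zchClosure (A₀ := A₀) ({u} : Set F)), ∃ c : C,
      (b : F) - (gb c : F) ∈ (V cb).nonunits)
    (hFc : ∀ b : ↥(zchClosure (A₀ := A₀) ({u} : Set F)), ∃ c : C,
      (b : F) - (ga c : F) ∈ (V cc).nonunits)
    (πC s : C) (hgaπ : ga πC = algebraMap A₀ ↥(zchClosure (A₀ := A₀) ({u} : Set F)) π)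
    (hgbπ : gb πC = algebraMap A₀ ↥(zchClosure (A₀ := A₀) ({u} : Set F)) π)
    (hs : ga s ∈ 𝔫.1) (hgen : NodesLocGen (𝔫.1.comap ga) {πC, s})
    -- Frobenius congruences
    (ψ₂ : C → C) {Q₂ : ℕ} (hQ₂ : 2 ≤ Q₂)
    (hKa : ∀ c : C, (gb c : F) - (ga (ψ₂ c) : F) ^ Q₂ ∈ (V ca).nonunits)
    (hKb : ∀ c : C, (ga c : F) - (gb (ψ₂ c) : F) ^ Q₂ ∈ (V cb).nonunits)
    (hKc : ∀ c : C, (gb c : F) - (ga c : F) ∈ (V cc).nonunits)
    -- REG through the branch `a`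
    (hreg : ∃ X Y : F, X ∈ atLoc 𝔫 ∧ Y ∈ atLoc 𝔫 ∧ X * Y = algebraMap A₀ F π ∧
      X ∈ (V ca).nonunits ∧ (∀ x ∈ (V ca).nonunits, ∃ z ∈ V ca, x = X * z) ∧
      X⁻¹ ∈ V cb ∧ X⁻¹ ∈ V cc)
    (Hor : F → Prop) (m : ℕ) (hHor : ∀ y, Hor y → ∀ P : Place E F, (m : ℤ) ∣ P.ord y)
    (α β : F₁ →+* F) (Nα Nβ : F →* F₁) (ζ₁ : F₁)
    (hNα : ∃ Oα : Subring F₁, NgLoc α Nα (V ca) (V cc) m ζ₁ (atLoc 𝔫) Oα)
    (hNβ : ∃ Oβ : Subring F₁, NgLoc β Nβ (V cb) (V cc) m ζ₁ (atLoc 𝔫) Oβ) :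
    @S36PtInput F₁ F _ _ κ Hor m α β Nα Nβ ζ₁ V ca cb cc (atLoc 𝔫)
      (haveI := 𝔫.2.1.isPrime; ls_localSubring_isLocalRing Subtype.val_injective 𝔫.1)
      (fun c => atThrough 𝔫 (V c)) := by
  haveI := 𝔫.2.1.isPrime
  have hπ0 : algebraMap A₀ F π ≠ 0 := ei_algebraMap_ne_zero (E := E) hπ
  obtain ⟨X, Y, hX, hY, hXY, hX1, hU, hXb, hXc⟩ := hreg
  exact s36pt_ptInput (E := E) (B := ↥(zchClosure (A₀ := A₀) ({u} : Set F)))
    Subtype.val_injective 𝔫.1 V (fun c b => hBV c _ b.2)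
    (algebraMap A₀ ↥(zchClosure (A₀ := A₀) ({u} : Set F)) π)
    (s36pm_hKR V hKR) Q hram hπ0 hπV (s36pm_hE hπ u) (s36pm_hfrac (E := E) u)
    ca cb cc hκ hthr
    (fun c x hx => by
      obtain ⟨b, s, hb, hs, hsV, hsx⟩ := hVloc c x hx
      exact ⟨⟨b, mem_zchClosure.mpr hb⟩, ⟨s, mem_zchClosure.mpr hs⟩, hsV, hsx⟩)
    ga gb hFa hFb hFc πC s hgaπ hgbπ hs hgen ψ₂ hQ₂ hKa hKb hKc
    ⟨X, hX⟩ ⟨Y, hY⟩ (Subtype.ext hXY) hX1 hU
    (fun c hc => by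
      rcases hκ c with h | h | h
      · exact absurd h hc
      · rw [h]; exact hXb
      · rw [h]; exact hXc)
    Hor m hHor α β Nα Nβ ζ₁ hNα hNβ

/-- the form `atO π t (Sum.inl 𝔫)` of `hpts` (= `hPt` of `s36pf_h1`) -/
theorem s36pt_atPt_inl [Finite κ] (hπ : Irreducible π) {t : F} [FiniteDimensional E⟮t⟯ F]
    [IsNoetherianRing ↥(zchClosure (A₀ := A₀) ({t} : Set F))]
    (V : κ → ValuationSubring F)
    (hBV : ∀ c (b : F), IsIntegral ↥(Algebra.adjoin A₀ {t}) b → b ∈ V c)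
    (hπV : ∀ c, algebraMap A₀ F π ∈ (V c).nonunits)
    (hKR : ∀ x : F, IsIntegral ↥(Algebra.adjoin A₀ {t}) (algebraMap A₀ F π * x) →
      (∀ c, x ∈ V c) → IsIntegral ↥(Algebra.adjoin A₀ {t}) x)
    (Q : ℕ) (hram : ∀ c (x : F), x ∈ (V c).nonunits → ∃ z ∈ V c, x ^ Q = algebraMap A₀ F π * z)
    (𝔫 : AtPt (F := F) π t) (ca cb cc : κ) (hκ : ∀ c, c = ca ∨ c = cb ∨ c = cc)
    (hthr : ∀ c, atThrough 𝔫 (V c))
    (hVloc : ∀ c, ∀ x : F, x ∈ V c → ∃ b s : F, IsIntegral ↥(Algebra.adjoin A₀ {t}) b ∧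
      IsIntegral ↥(Algebra.adjoin A₀ {t}) s ∧ s ∉ (V c).nonunits ∧ s * x = b)
    -- level `M`
    {C : Type*} [CommRing C] (ga gb : C →+* ↥(zchClosure (A₀ := A₀) ({t} : Set F)))
    (hFa : ∀ b : ↥(zchClosure (A₀ := A₀) ({t} : Set F)), ∃ c : C,
      (b : F) - (ga c : F) ∈ (V ca).nonunits)
    (hFb : ∀ b : ↥(zchClosure (A₀ := A₀) ({t} : Set F)), ∃ c : C,
      (b : F) - (gb c : F) ∈ (V cb).nonunits)
    (hFc : ∀ b : ↥(zchClosure (A₀ := A₀) ({t} : Set F)), ∃ c : C,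
      (b : F) - (ga c : F) ∈ (V cc).nonunits)
    (πC s : C) (hgaπ : ga πC = algebraMap A₀ ↥(zchClosure (A₀ := A₀) ({t} : Set F)) π)
    (hgbπ : gb πC = algebraMap A₀ ↥(zchClosure (A₀ := A₀) ({t} : Set F)) π)
    (hs : ga s ∈ 𝔫.1) (hgen : NodesLocGen (𝔫.1.comap ga) {πC, s})
    -- Frobenius congruences
    (ψ₂ : C → C) {Q₂ : ℕ} (hQ₂ : 2 ≤ Q₂)
    (hKa : ∀ c : C, (gb c : F) - (ga (ψ₂ c) : F) ^ Q₂ ∈ (V ca).nonunits)
    (hKb : ∀ c : C, (ga c : F) - (gb (ψ₂ c) : F) ^ Q₂ ∈ (V cb).nonunits)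
    (hKc : ∀ c : C, (gb c : F) - (ga c : F) ∈ (V cc).nonunits)
    -- REG through the branch `a`
    (hreg : ∃ X Y : F, X ∈ atLoc 𝔫 ∧ Y ∈ atLoc 𝔫 ∧ X * Y = algebraMap A₀ F π ∧
      X ∈ (V ca).nonunits ∧ (∀ x ∈ (V ca).nonunits, ∃ z ∈ V ca, x = X * z) ∧
      X⁻¹ ∈ V cb ∧ X⁻¹ ∈ V cc)
    (Hor : F → Prop) (m : ℕ) (hHor : ∀ y, Hor y → ∀ P : Place E F, (m : ℤ) ∣ P.ord y)
    (α β : F₁ →+* F) (Nα Nβ : F →* F₁) (ζ₁ : F₁)
    (hNα : ∃ Oα : Subring F₁, NgLoc α Nα (V ca) (V cc) m ζ₁ (atLoc 𝔫) Oα)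
    (hNβ : ∃ Oβ : Subring F₁, NgLoc β Nβ (V cb) (V cc) m ζ₁ (atLoc 𝔫) Oβ) :
    @S36PtInput F₁ F _ _ κ Hor m α β Nα Nβ ζ₁ V ca cb cc (atO π t (Sum.inl 𝔫))
      (stb_atO_isLocalRing (π := π) t (Sum.inl 𝔫)) (atInc π t V (Sum.inl 𝔫)) :=
  s36pt_atPt (E := E) hπ V hBV hπV hKR Q hram 𝔫 ca cb cc hκ hthr hVloc ga gb hFa hFb hFc πC s hgaπ hgbπ hs hgen ψ₂ hQ₂
    hKa hKb hKc hreg Hor m hHor α β Nα Nβ ζ₁ hNα hNβ

/-- the form `atO π t (Sum.inr 𝔫)` of `hpts` (points of the chart `t⁻¹`) -/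
theorem s36pt_atPt_inr [Finite κ] (hπ : Irreducible π) {t : F} [FiniteDimensional E⟮t⁻¹⟯ F]
    [IsNoetherianRing ↥(zchClosure (A₀ := A₀) ({t⁻¹} : Set F))]
    (V : κ → ValuationSubring F)
    (hBV : ∀ c (b : F), IsIntegral ↥(Algebra.adjoin A₀ {t⁻¹}) b → b ∈ V c)
    (hπV : ∀ c, algebraMap A₀ F π ∈ (V c).nonunits)
    (hKR : ∀ x : F, IsIntegral ↥(Algebra.adjoin A₀ {t⁻¹}) (algebraMap A₀ F π * x) →
      (∀ c, x ∈ V c) → IsIntegral ↥(Algebra.adjoin A₀ {t⁻¹}) x)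
    (Q : ℕ) (hram : ∀ c (x : F), x ∈ (V c).nonunits → ∃ z ∈ V c, x ^ Q = algebraMap A₀ F π * z)
    (𝔫 : AtPt (F := F) π t⁻¹) (ca cb cc : κ) (hκ : ∀ c, c = ca ∨ c = cb ∨ c = cc)
    (hthr : ∀ c, atThrough 𝔫 (V c))
    (hVloc : ∀ c, ∀ x : F, x ∈ V c → ∃ b s : F, IsIntegral ↥(Algebra.adjoin A₀ {t⁻¹}) b ∧
      IsIntegral ↥(Algebra.adjoin A₀ {t⁻¹}) s ∧ s ∉ (V c).nonunits ∧ s * x = b)
    -- level `M`
    {C : Type*} [CommRing C] (ga gb : C →+* ↥(zchClosure (A₀ := A₀) ({t⁻¹} : Set F)))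
    (hFa : ∀ b : ↥(zchClosure (A₀ := A₀) ({t⁻¹} : Set F)), ∃ c : C,
      (b : F) - (ga c : F) ∈ (V ca).nonunits)
    (hFb : ∀ b : ↥(zchClosure (A₀ := A₀) ({t⁻¹} : Set F)), ∃ c : C,
      (b : F) - (gb c : F) ∈ (V cb).nonunits)
    (hFc : ∀ b : ↥(zchClosure (A₀ := A₀) ({t⁻¹} : Set F)), ∃ c : C,
      (b : F) - (ga c : F) ∈ (V cc).nonunits)
    (πC s : C) (hgaπ : ga πC = algebraMap A₀ ↥(zchClosure (A₀ := A₀) ({t⁻¹} : Set F)) π)
    (hgbπ : gb πC = algebraMap A₀ ↥(zchClosure (A₀ := A₀) ({t⁻¹} : Set F)) π)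
    (hs : ga s ∈ 𝔫.1) (hgen : NodesLocGen (𝔫.1.comap ga) {πC, s})
    -- Frobenius congruences
    (ψ₂ : C → C) {Q₂ : ℕ} (hQ₂ : 2 ≤ Q₂)
    (hKa : ∀ c : C, (gb c : F) - (ga (ψ₂ c) : F) ^ Q₂ ∈ (V ca).nonunits)
    (hKb : ∀ c : C, (ga c : F) - (gb (ψ₂ c) : F) ^ Q₂ ∈ (V cb).nonunits)
    (hKc : ∀ c : C, (gb c : F) - (ga c : F) ∈ (V cc).nonunits)
    -- REG through the branch `a`
    (hreg : ∃ X Y : F, X ∈ atLoc 𝔫 ∧ Y ∈ atLoc 𝔫 ∧ X * Y = algebraMap A₀ F π ∧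
      X ∈ (V ca).nonunits ∧ (∀ x ∈ (V ca).nonunits, ∃ z ∈ V ca, x = X * z) ∧
      X⁻¹ ∈ V cb ∧ X⁻¹ ∈ V cc)
    (Hor : F → Prop) (m : ℕ) (hHor : ∀ y, Hor y → ∀ P : Place E F, (m : ℤ) ∣ P.ord y)
    (α β : F₁ →+* F) (Nα Nβ : F →* F₁) (ζ₁ : F₁)
    (hNα : ∃ Oα : Subring F₁, NgLoc α Nα (V ca) (V cc) m ζ₁ (atLoc 𝔫) Oα)
    (hNβ : ∃ Oβ : Subring F₁, NgLoc β Nβ (V cb) (V cc) m ζ₁ (atLoc 𝔫) Oβ) :
    @S36PtInput F₁ F _ _ κ Hor m α β Nα Nβ ζ₁ V ca cb cc (atO π t (Sum.inr 𝔫))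
      (stb_atO_isLocalRing (π := π) t (Sum.inr 𝔫)) (atInc π t V (Sum.inr 𝔫)) :=
  s36pt_atPt (E := E) hπ V hBV hπV hKR Q hram 𝔫 ca cb cc hκ hthr hVloc ga gb hFa hFb hFc πC s hgaπ hgbπ hs hgen ψ₂ hQ₂
    hKa hKb hKc hreg Hor m hHor α β Nα Nβ ζ₁ hNα hNβ

end Chart

end Fermat.Agent.S36


end ZBS36_026_9

/-! ### bundled: `Fermat.Agent.S36.PtsCusp` -/
section ZBS36_026_10
/-
S36 (Carayol at `q² ∥ M`), geometric clause, input (I6), part (P2): the closed points of the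
chart `t⁻¹` with `t⁻¹ ∈ 𝔫` (`t = j`: the reductions of the cusps).  ABSTRACT FRAMEWORK (helper84).

* `s36cu_pole`        : POLE TRANSFER.  `O ⊆ F` a local subring, integrally closed in `F`,
                        `A₀ ⊆ O`, `t` integral over `A₀[s]`, `t⁻¹ ∈ O`, `t ∉ O`  ⇒  `s⁻¹ ∈ O`,
                        `s ∉ O`  (valuative criterion: Mathlib
                        `LocalSubring.exists_le_valuationSubring_of_isIntegrallyClosedIn`).
  ((KR) on the chart `t⁻¹` and `hpt` are `aq_KR_inv`, `aq_hpt` of `S36/AbstractQ.lean`.)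
* `s36cu_pt_of_local` : a local subring `O`, integrally closed in `F`, with `t⁻¹, π ∈ 𝔪_O`
                        dominates the local ring of a closed point `𝔫` of the chart `t⁻¹`,
                        `t⁻¹ ∈ 𝔫`.
* `s36cu_aut_pt`      : the local rings at `t = ∞` are permuted by an automorphism `w` with
                        `t` integral over `A₀[w t]` and over `A₀[w⁻¹ t]` (`w = w_{q²}`).
* `s36cu_ptInput_map` : transport of `S36PtInput` (one-component points) along `w`.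
* `s36cu_not_both`, `s36cu_honly_a` : separation of the components by a function `y`.
* `s36cu_pow_inv_mem` : `(s⁻¹)^k ∈ 𝔪_O` at the points at `t = ∞` (`t` integral over `A₀[s]`).
* `s36cu_hpts_inf`    : **(P2)** `S36PtInput` at ALL points at `t = ∞` from: `w`, the separating
                        function, and `S36PtInput` at the one-component points of `C_a`, `C_c`.
* `s36cu_hpts`        : `hpts` of `s36tb_small` from the chart `t` + the above.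
-/

set_option autoImplicit false
set_option linter.unusedSectionVars false
set_option linter.unusedVariables false
set_option linter.style.haveILetI false

namespace Fermat.Agent.S36

open Fermat.Agent.UNIP Fermat.Agent.STB Fermat.Agent.INJ Polynomial

section Pole

variable {A₀ F : Type*} [CommRing A₀] [Field F] [Algebra A₀ F]

/-- an element integral over `A₀[s]` lies in every integrally closed subring containing `A₀`
and `s` -/
theorem s36cu_mem_of_isIntegral {O : Subring F} (hic : ∀ x : F, IsIntegral O x → x ∈ O)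
    (hA : ∀ a : A₀, algebraMap A₀ F a ∈ O) {s t : F} (hs : s ∈ O)
    (ht : IsIntegral ↥(Algebra.adjoin A₀ {s}) t) : t ∈ O := by
  apply hic
  obtain ⟨p, hp, hpx⟩ := ht
  have hle : ∀ x ∈ Algebra.adjoin A₀ ({s} : Set F), x ∈ O := by
    intro x hx
    induction hx using Algebra.adjoin_induction with
    | mem x hx => rw [Set.mem_singleton_iff.mp hx]; exact hs
    | algebraMap r => exact hA r
    | add x y _ _ hx hy => exact O.add_mem hx hy
    | mul x y _ _ hx hy => exact O.mul_mem hx hy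
  let f : ↥(Algebra.adjoin A₀ ({s} : Set F)) →+* O :=
    { toFun := fun b => ⟨b.1, hle b.1 b.2⟩
      map_one' := rfl
      map_mul' := fun _ _ => rfl
      map_zero' := rfl
      map_add' := fun _ _ => rfl }
  refine ⟨p.map f, hp.map f, ?_⟩
  rw [eval₂_map]
  exact hpx

/-- **Pole transfer.** -/
theorem s36cu_pole {O : Subring F} [IsLocalRing O] (hic : ∀ x : F, IsIntegral O x → x ∈ O)
    (hA : ∀ a : A₀, algebraMap A₀ F a ∈ O) {s t : F}
    (ht : IsIntegral ↥(Algebra.adjoin A₀ {s}) t) (htO : t⁻¹ ∈ O) (htn : t ∉ O) :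
    s⁻¹ ∈ O ∧ s ∉ O := by
  have hsn : s ∉ O := fun hs => htn (s36cu_mem_of_isIntegral hic hA hs ht)
  refine ⟨?_, hsn⟩
  by_contra hsi
  haveI : IsIntegrallyClosedIn O F := Subring.isIntegrallyClosedIn_iff.mpr fun x hx => hic x hx
  obtain ⟨W, hW, hsW⟩ :=
    LocalSubring.exists_le_valuationSubring_of_isIntegrallyClosedIn (K := F)
      (R := LocalSubring.mk O) (x := s⁻¹) hsi
  obtain ⟨hle, hloc⟩ := hW
  have hle' : ∀ x ∈ O, x ∈ W := fun x hx => hle hx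
  -- `s ∈ W`
  have hsW' : s ∈ W := by
    rcases W.mem_or_inv_mem s with h | h
    · exact h
    · exact absurd h hsW
  -- `t ∈ W`
  have hWic : ∀ x : F, IsIntegral W.toSubring x → x ∈ W.toSubring := by
    intro x hx
    have h1 : IsIntegrallyClosedIn W.toSubring F :=
      inferInstanceAs (IsIntegrallyClosedIn W F)
    exact Subring.isIntegrallyClosedIn_iff.mp h1 hx
  have htW : t ∈ W := s36cu_mem_of_isIntegral (O := W.toSubring) hWic
    (fun a => hle' _ (hA a)) hsW' ht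
  -- `t⁻¹` is a unit of `W`, hence of `O`
  have ht0 : t ≠ 0 := by
    rintro rfl
    exact htn O.zero_mem
  have hu : IsUnit (Subring.inclusion hle ⟨t⁻¹, htO⟩) :=
    IsUnit.of_mul_eq_one ⟨t, htW⟩ (Subtype.ext (inv_mul_cancel₀ ht0))
  have hu' : IsUnit (⟨t⁻¹, htO⟩ : O) := hloc.map_nonunit _ hu
  obtain ⟨v, hv⟩ := hu'.exists_right_inv
  have hvF : t⁻¹ * (v : F) = 1 := congrArg Subtype.val hv
  have : (v : F) = t := by
    have h2 : t * (t⁻¹ * (v : F)) = t := by rw [hvF, mul_one]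
    rw [← mul_assoc, mul_inv_cancel₀ ht0, one_mul] at h2
    exact h2
  exact htn (this ▸ v.2)

end Pole

section Transfer

variable {F₁ F : Type*} [Field F₁] [Field F] {κ : Type*}

/-- membership in `𝔪(V)` is transported by an automorphism -/
theorem s36cu_nonunits_iff {V V' : ValuationSubring F} (w : F ≃+* F)
    (h : ∀ x, x ∈ V' ↔ w x ∈ V) (x : F) : x ∈ V'.nonunits ↔ w x ∈ V.nonunits := by
  rw [V'.mem_nonunits_iff_or, V.mem_nonunits_iff_or, h, map_inv₀, map_eq_zero]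

/-- `v(y) = 1` in terms of membership -/
theorem s36cu_val_eq_one_iff (V : ValuationSubring F) {y : F} (hy : y ≠ 0) :
    V.valuation y = 1 ↔ y ∈ V ∧ y⁻¹ ∈ V := by
  rw [← V.valuation_le_one_iff, ← V.valuation_le_one_iff, map_inv₀]
  have h0 : V.valuation y ≠ 0 := (Valuation.ne_zero_iff _).mpr hy
  constructor
  · intro h
    rw [h]
    simp
  · rintro ⟨h1, h2⟩
    have h3 : 1 ≤ V.valuation y := by
      have := (inv_le_one₀ (zero_lt_iff.mpr h0)).mp h2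
      exact this
    exact le_antisymm h1 h3

/-- an element of `O ∩ 𝔪(V)` is a nonunit of `O` if `O ⊆ V` -/
theorem s36cu_mem_maximalIdeal {O : Subring F} [IsLocalRing O] (V : ValuationSubring F)
    (hOV : ∀ x ∈ O, x ∈ V) (x : O) (hx : (x : F) ∈ V.nonunits) :
    x ∈ IsLocalRing.maximalIdeal O := by
  rw [IsLocalRing.mem_maximalIdeal, mem_nonunits_iff]
  intro hu
  obtain ⟨v, hv⟩ := hu.exists_right_inv
  have hvF : (x : F) * (v : F) = 1 := congrArg Subtype.val hv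
  have hvV : (v : F) ∈ V := hOV _ v.2
  have h1 : V.valuation (x : F) < 1 := V.mem_nonunits_iff.mp hx
  have h2 : V.valuation (v : F) ≤ 1 := (V.valuation_le_one_iff _).mpr hvV
  have h3 : V.valuation ((x : F) * (v : F)) < 1 := by
    rw [map_mul]
    calc V.valuation (x : F) * V.valuation (v : F) ≤ V.valuation (x : F) * 1 :=
          mul_le_mul_right h2 _
      _ = V.valuation (x : F) := mul_one _
      _ < 1 := h1
  rw [hvF, map_one] at h3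
  exact lt_irrefl _ h3

/-- **Separation.**  No local ring lies in `V_a` and in `V_c` if there are `y, z ∈ O`,
`z ∈ 𝔪_O`, with `y ≡ 1` at `V_a` and `y ≡ z` at `V_c`. -/
theorem s36cu_not_both {O : Subring F} [IsLocalRing O] (Va Vc : ValuationSubring F)
    (hOa : ∀ x ∈ O, x ∈ Va) (hOc : ∀ x ∈ O, x ∈ Vc) {y z : F} (hy : y ∈ O) (hz : z ∈ O)
    (hzm : (⟨z, hz⟩ : O) ∈ IsLocalRing.maximalIdeal O)
    (hya : y - 1 ∈ Va.nonunits) (hyc : y - z ∈ Vc.nonunits) : False := by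
  have h1 : (⟨y, hy⟩ - 1 : O) ∈ IsLocalRing.maximalIdeal O :=
    s36cu_mem_maximalIdeal Va hOa _ hya
  have h2 : (⟨y, hy⟩ - ⟨z, hz⟩ : O) ∈ IsLocalRing.maximalIdeal O :=
    s36cu_mem_maximalIdeal Vc hOc _ hyc
  have h3 : (1 : O) ∈ IsLocalRing.maximalIdeal O := by
    have e : (1 : O) = (⟨y, hy⟩ - ⟨z, hz⟩) + ⟨z, hz⟩ - (⟨y, hy⟩ - 1) := by ring
    rw [e]
    exact Ideal.sub_mem _ (Ideal.add_mem _ h2 hzm) h1
  exact (Ideal.ne_top_iff_one _).mp (IsLocalRing.maximalIdeal.isMaximal O).ne_top h3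

/-- units of a subring of a field -/
theorem s36cu_isUnit_iff {O : Subring F} (e : O) :
    IsUnit e ↔ (e : F) ≠ 0 ∧ (e : F)⁻¹ ∈ O := by
  constructor
  · intro hu
    obtain ⟨v, hv⟩ := hu.exists_right_inv
    have hvF : (e : F) * (v : F) = 1 := congrArg Subtype.val hv
    have he0 : (e : F) ≠ 0 := left_ne_zero_of_mul_eq_one hvF
    refine ⟨he0, ?_⟩
    have : (v : F) = (e : F)⁻¹ := eq_inv_of_mul_eq_one_right hvF
    exact this ▸ v.2
  · rintro ⟨he0, hinv⟩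
    exact IsUnit.of_mul_eq_one ⟨(e : F)⁻¹, hinv⟩ (Subtype.ext (mul_inv_cancel₀ he0))

/-- **Transport of `S36PtInput` (one-component points) along an automorphism.**
`O' = w O`, `w` permutes the components by the involution `σ` (`V (σ c) = (V c).comap w`) and
preserves `Hor`. -/
theorem s36cu_ptInput_map {Hor : F → Prop} {m : ℕ} {α β : F₁ →+* F} {Nα Nβ : F →* F₁} {ζ₁ : F₁}
    {V : κ → ValuationSubring F} {ca cb cc : κ} {O O' : Subring F} [hO : IsLocalRing O]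
    [hO' : IsLocalRing O'] (w : F ≃+* F) (hOO' : ∀ x, x ∈ O' ↔ w.symm x ∈ O)
    (σ : κ → κ) (hσ : ∀ c, σ (σ c) = c) (hV : ∀ c x, x ∈ V (σ c) ↔ w x ∈ V c)
    {thr thr' : κ → Prop} (hthr : ∀ c, thr' c ↔ thr (σ c))
    (hHor : ∀ y, Hor y → Hor (w.symm y))
    (H : S36PtInput Hor m α β Nα Nβ ζ₁ V ca cb cc O thr)
    (hone : ∃ c, thr c ∧ ∀ c', thr c' → c' = c) :
    S36PtInput Hor m α β Nα Nβ ζ₁ V ca cb cc O' thr' := by
  have hwO : ∀ x ∈ O, w x ∈ O' := fun x hx => (hOO' _).mpr (by rwa [RingEquiv.symm_apply_apply])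
  have hVsymm : ∀ c x, w.symm x ∈ V (σ c) ↔ x ∈ V c := fun c x => by
    rw [hV c, RingEquiv.apply_symm_apply]
  have hNsymm : ∀ c x, w.symm x ∈ (V (σ c)).nonunits ↔ x ∈ (V c).nonunits := fun c x => by
    rw [s36cu_nonunits_iff w (hV c), RingEquiv.apply_symm_apply]
  refine ⟨fun y' hy' hH' hu' => ?_, fun c' hc' => ?_, ?_⟩
  · -- fac
    have hy0 : w.symm y' ≠ 0 := (_root_.map_ne_zero _).mpr hy'
    have hu : ∀ c, thr c → (V c).valuation (w.symm y') = 1 := by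
      intro c hc
      have hc' : thr' (σ c) := (hthr _).mpr (by rwa [hσ])
      have h1 := (s36cu_val_eq_one_iff (V (σ c)) hy').mp (hu' _ hc')
      rw [s36cu_val_eq_one_iff (V c) hy0]
      have e := hVsymm (σ c)
      rw [hσ] at e
      refine ⟨(e _).mpr h1.1, ?_⟩
      rw [← map_inv₀]
      exact (e _).mpr h1.2
    obtain ⟨γ, ε, hε, hy⟩ := H.fac _ hy0 (hHor _ hH') hu
    obtain ⟨hε0, hεinv⟩ := (s36cu_isUnit_iff ε).mp hε
    refine ⟨w γ, ⟨w (ε : F), hwO _ ε.2⟩, (s36cu_isUnit_iff _).mpr ⟨(_root_.map_ne_zero _).mpr hε0, ?_⟩, ?_⟩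
    · show (w (ε : F))⁻¹ ∈ O'
      rw [← map_inv₀]
      exact hwO _ hεinv
    · show y' = w (ε : F) * w γ ^ m
      rw [← map_pow, ← map_mul, ← hy, RingEquiv.apply_symm_apply]
  · -- res
    intro a' e' n he' hn ha'
    obtain ⟨he0, heinv⟩ := (s36cu_isUnit_iff e').mp he'
    have heO : w.symm (e' : F) ∈ O := (hOO' _).mp e'.2
    have hu : IsUnit (⟨w.symm (e' : F), heO⟩ : O) :=
      (s36cu_isUnit_iff _).mpr ⟨(_root_.map_ne_zero _).mpr he0, by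
        show (w.symm (e' : F))⁻¹ ∈ O
        rw [← map_inv₀]
        exact (hOO' _).mp heinv⟩
    have hc : thr (σ c') := (hthr _).mp hc'
    have h1 : (w.symm a') ^ n - ((⟨w.symm (e' : F), heO⟩ : O) : F) ∈ (V (σ c')).nonunits := by
      show (w.symm a') ^ n - w.symm (e' : F) ∈ (V (σ c')).nonunits
      rw [← map_pow, ← map_sub]
      exact (hNsymm c' _).mpr ha'
    obtain ⟨α₀, hα₀⟩ := H.res _ hc (w.symm a') ⟨w.symm (e' : F), heO⟩ n hu hn h1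
    refine ⟨⟨w (α₀ : F), hwO _ α₀.2⟩, ?_⟩
    show a' - w (α₀ : F) ∈ (V c').nonunits
    rw [← hNsymm c', map_sub, RingEquiv.symm_apply_apply]
    exact hα₀
  · obtain ⟨c, hc, huniq⟩ := hone
    refine Or.inl ⟨σ c, (hthr _).mpr (by rwa [hσ]), fun c' hc' => ?_⟩
    have := huniq _ ((hthr _).mp hc')
    rw [← this, hσ]

end Transfer

section Chart

variable {A₀ E F : Type*} [CommRing A₀] [IsDomain A₀] [IsDiscreteValuationRing A₀]
  [Field E] [Algebra A₀ E] [IsFractionRing A₀ E] [CharZero E]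
  [Field F] [Algebra E F] [Algebra A₀ F] [IsScalarTower A₀ E F]
  {π : A₀} {κ : Type*}

/-- the local ring at a closed point is integrally closed in `F` -/
theorem s36cu_atLoc_ic {u : F} (𝔫 : AtPt (F := F) π u) (x : F)
    (hx : IsIntegral (atLoc 𝔫) x) : x ∈ atLoc 𝔫 := by
  haveI := 𝔫.2.1.isPrime
  exact ls_isIntegral_mem_localSubring (fun y hy => at_chart_integrallyClosed u y hy) 𝔫.1 x hx

/-- `A₀ ⊆ (B_u)_𝔫` -/
theorem s36cu_atLoc_algebraMap {u : F} (𝔫 : AtPt (F := F) π u) (a : A₀) :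
    algebraMap A₀ F a ∈ atLoc 𝔫 := by
  haveI := 𝔫.2.1.isPrime
  exact ls_algebraMap_mem 𝔫.1 (algebraMap A₀ ↥(zchClosure (A₀ := A₀) ({u} : Set F)) a)

/-- `B_u ⊆ (B_u)_𝔫` -/
theorem s36cu_atLoc_chart {u : F} (𝔫 : AtPt (F := F) π u) {b : F}
    (hb : IsIntegral ↥(Algebra.adjoin A₀ {u}) b) : b ∈ atLoc 𝔫 := by
  haveI := 𝔫.2.1.isPrime
  exact ls_algebraMap_mem 𝔫.1 (⟨b, mem_zchClosure.mpr hb⟩ : ↥(zchClosure (A₀ := A₀) ({u} : Set F)))

/-- the inverse of a nonzero element of `𝔫` is not in `(B_u)_𝔫` -/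
theorem s36cu_inv_not_mem {u : F} (𝔫 : AtPt (F := F) π u)
    {b : ↥(zchClosure (A₀ := A₀) ({u} : Set F))} (hb : b ∈ 𝔫.1) (hb0 : (b : F) ≠ 0) :
    (b : F)⁻¹ ∉ atLoc 𝔫 := by
  haveI := 𝔫.2.1.isPrime
  haveI : IsLocalRing (ls_localSubring (F := F) 𝔫.1) :=
    ls_localSubring_isLocalRing Subtype.val_injective 𝔫.1
  intro h
  have hmem : (⟨(b : F), ls_algebraMap_mem 𝔫.1 b⟩ : ls_localSubring (F := F) 𝔫.1) ∈
      IsLocalRing.maximalIdeal (ls_localSubring (F := F) 𝔫.1) := by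
    refine s36pc_mem_maximalIdeal Subtype.val_injective 𝔫.1 _ hb (s := 1)
      (fun h1 => (inferInstance : 𝔫.1.IsPrime).ne_top ((Ideal.eq_top_iff_one _).mpr h1)) ?_
    show ((1 : ↥(zchClosure (A₀ := A₀) ({u} : Set F))) : F) * (b : F) = (b : F)
    rw [show ((1 : ↥(zchClosure (A₀ := A₀) ({u} : Set F))) : F) = 1 from rfl, one_mul]
  rw [IsLocalRing.mem_maximalIdeal, mem_nonunits_iff] at hmem
  exact hmem (IsUnit.of_mul_eq_one ⟨(b : F)⁻¹, h⟩ (Subtype.ext (mul_inv_cancel₀ hb0)))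

/-- **A local ring with `t⁻¹, π ∈ 𝔪` dominates a point at `t = ∞`** (in the twisted form: `φ` a
ring endomorphism of `F` fixing `A₀`, `O` local and integrally closed in `F` with
`φ(t)⁻¹, π ∈ 𝔪_O`): there is a closed point `𝔫'` of the chart `t⁻¹` with `t⁻¹ ∈ 𝔫'`,
`φ ((B_{t⁻¹})_𝔫') ⊆ O` and `φ(𝔫') ⊆ 𝔪_O`. -/
theorem s36cu_pt_of_hom (hπ : Irreducible π) {t : F} (φ : F →+* F)
    (hφA : ∀ a : A₀, φ (algebraMap A₀ F a) = algebraMap A₀ F a)
    (O : Subring F) [IsLocalRing O] (hic : ∀ x : F, IsIntegral O x → x ∈ O)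
    (hA : ∀ a : A₀, algebraMap A₀ F a ∈ O)
    (hπO : (algebraMap A₀ F π)⁻¹ ∉ O) (htO : (φ t)⁻¹ ∈ O) (htn : φ t ∉ O) :
    ∃ 𝔫' : AtPt (F := F) π t⁻¹,
      (⟨t⁻¹, s36pc_self_mem t⁻¹⟩ : ↥(zchClosure (A₀ := A₀) ({t⁻¹} : Set F))) ∈ 𝔫'.1 ∧
      (∀ x ∈ atLoc 𝔫', φ x ∈ O) ∧
      ∀ b : ↥(zchClosure (A₀ := A₀) ({t⁻¹} : Set F)), b ∈ 𝔫'.1 → (φ (b : F))⁻¹ ∉ O ∨ (b : F) = 0 := by
  classical
  have hφt0 : φ t ≠ 0 := by
    intro h0
    rw [h0] at htn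
    exact htn O.zero_mem
  -- `φ (A₀[t⁻¹]) ⊆ O`
  have hadj : ∀ x ∈ Algebra.adjoin A₀ ({t⁻¹} : Set F), φ x ∈ O := by
    intro x hx
    induction hx using Algebra.adjoin_induction with
    | mem x hx =>
      rw [Set.mem_singleton_iff.mp hx, map_inv₀]
      exact htO
    | algebraMap r => rw [hφA]; exact hA r
    | add x y _ _ hx hy => rw [map_add]; exact O.add_mem hx hy
    | mul x y _ _ hx hy => rw [map_mul]; exact O.mul_mem hx hy
  -- `φ (B_{t⁻¹}) ⊆ O`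
  have hB : ∀ b : ↥(zchClosure (A₀ := A₀) ({t⁻¹} : Set F)), φ (b : F) ∈ O := by
    intro b
    apply hic
    obtain ⟨p, hp, hpx⟩ := mem_zchClosure.mp b.2
    let f : ↥(Algebra.adjoin A₀ ({t⁻¹} : Set F)) →+* O :=
      { toFun := fun c => ⟨φ c.1, hadj c.1 c.2⟩
        map_one' := Subtype.ext (map_one φ)
        map_mul' := fun _ _ => Subtype.ext (map_mul φ _ _)
        map_zero' := Subtype.ext (map_zero φ)
        map_add' := fun _ _ => Subtype.ext (map_add φ _ _) }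
    refine ⟨p.map f, hp.map f, ?_⟩
    rw [eval₂_map]
    have h := Polynomial.hom_eval₂ p (algebraMap ↥(Algebra.adjoin A₀ ({t⁻¹} : Set F)) F) φ (b : F)
    rw [hpx, map_zero] at h
    exact h.symm
  set ι : ↥(zchClosure (A₀ := A₀) ({t⁻¹} : Set F)) →+* O :=
    (φ.comp (algebraMap ↥(zchClosure (A₀ := A₀) ({t⁻¹} : Set F)) F)).codRestrict O hB with hι
  have hιcoe : ∀ b, ((ι b : O) : F) = φ (b : F) := fun b => rfl
  set 𝔫' : Ideal ↥(zchClosure (A₀ := A₀) ({t⁻¹} : Set F)) :=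
    (IsLocalRing.maximalIdeal O).comap ι with h𝔫'
  haveI h𝔫'p : 𝔫'.IsPrime := Ideal.comap_isPrime ι _
  -- nonunits
  have hnon : ∀ b : ↥(zchClosure (A₀ := A₀) ({t⁻¹} : Set F)), (φ (b : F))⁻¹ ∉ O → b ∈ 𝔫' := by
    intro b hb
    rw [h𝔫', Ideal.mem_comap, IsLocalRing.mem_maximalIdeal, mem_nonunits_iff]
    intro hu
    obtain ⟨v, hv⟩ := hu.exists_right_inv
    have hvF : φ (b : F) * (v : F) = 1 := congrArg Subtype.val hv
    have : (v : F) = (φ (b : F))⁻¹ := eq_inv_of_mul_eq_one_right hvF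
    exact hb (this ▸ v.2)
  have hπ' : algebraMap A₀ ↥(zchClosure (A₀ := A₀) ({t⁻¹} : Set F)) π ∈ 𝔫' := by
    apply hnon
    show (φ (algebraMap A₀ F π))⁻¹ ∉ O
    rw [hφA]
    exact hπO
  have ht' : (⟨t⁻¹, s36pc_self_mem t⁻¹⟩ : ↥(zchClosure (A₀ := A₀) ({t⁻¹} : Set F))) ∈ 𝔫' := by
    apply hnon
    show (φ t⁻¹)⁻¹ ∉ O
    rw [map_inv₀, inv_inv]
    exact htn
  have hmax : 𝔫'.IsMaximal := by
    haveI : (𝔫'.comap (s36pcEval (A₀ := A₀) t⁻¹)).IsPrime := Ideal.comap_isPrime _ _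
    have hCπ : C π ∈ 𝔫'.comap (s36pcEval (A₀ := A₀) t⁻¹) := by
      rw [Ideal.mem_comap, s36pc_eval_C]
      exact hπ'
    have hX : (X : A₀[X]) ∈ 𝔫'.comap (s36pcEval (A₀ := A₀) t⁻¹) := by
      rw [Ideal.mem_comap, s36pc_eval_X]
      exact ht'
    have hPmax : (𝔫'.comap (s36pcEval (A₀ := A₀) t⁻¹)).IsMaximal :=
      s36pc_poly_isMaximal hπ _ hCπ hX (N := 1) coeff_X_one
    exact Ideal.isMaximal_of_isIntegral_of_isMaximal_comap' (s36pcEval (A₀ := A₀) t⁻¹)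
      (s36pc_eval_isIntegral t⁻¹) 𝔫' hPmax
  refine ⟨⟨𝔫', hmax, hπ'⟩, ht', ?_, ?_⟩
  · rintro x ⟨b, s, hs, hx⟩
    have hsu : IsUnit (ι s) := by
      by_contra hnu
      exact hs ((IsLocalRing.mem_maximalIdeal _).2 hnu)
    obtain ⟨v, hv⟩ := hsu.exists_left_inv
    have hvF : (v : F) * φ (s : F) = 1 := congrArg Subtype.val hv
    have hxF : (s : F) * x = (b : F) := hx
    have e : φ x = (v : F) * φ (b : F) := by
      rw [← hxF, map_mul, ← mul_assoc, hvF, one_mul]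
    rw [e]
    exact O.mul_mem v.2 (hB b)
  · intro b hb
    by_cases hb0 : (b : F) = 0
    · exact Or.inr hb0
    left
    intro hinv
    have hφb0 : φ (b : F) ≠ 0 := (map_ne_zero φ).mpr hb0
    have hu : IsUnit (ι b) :=
      IsUnit.of_mul_eq_one ⟨(φ (b : F))⁻¹, hinv⟩ (Subtype.ext (mul_inv_cancel₀ hφb0))
    exact (IsLocalRing.mem_maximalIdeal _).1 hb hu

/-- an inclusion of local rings of the same chart at two closed points is an equality -/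
theorem s36cu_eq_of_le {u : F} (𝔫 𝔫' : AtPt (F := F) π u)
    (h : ∀ x ∈ atLoc 𝔫', x ∈ atLoc 𝔫) : 𝔫' = 𝔫 := by
  haveI := 𝔫.2.1.isPrime
  haveI := 𝔫'.2.1.isPrime
  have hle : 𝔫.1 ≤ 𝔫'.1 := by
    intro b hb
    by_contra hb'
    have hb0 : (b : F) ≠ 0 := by
      intro h0
      apply hb'
      have : b = 0 := Subtype.ext h0
      rw [this]
      exact 𝔫'.1.zero_mem
    have hinv : (b : F)⁻¹ ∈ atLoc 𝔫' := by
      refine ⟨1, b, hb', ?_⟩
      show (b : F) * (b : F)⁻¹ = ((1 : ↥(zchClosure (A₀ := A₀) ({u} : Set F))) : F)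
      rw [mul_inv_cancel₀ hb0]
      rfl
    exact s36cu_inv_not_mem 𝔫 hb hb0 (h _ hinv)
  have heq : 𝔫.1 = 𝔫'.1 := 𝔫.2.1.eq_of_le 𝔫'.2.1.ne_top hle
  exact Subtype.ext heq.symm

include E in
/-- the data of a point at `t = ∞` -/
theorem s36cu_pt_data (hπ : Irreducible π) {t : F} (ht0 : t ≠ 0) (𝔪 : AtPt (F := F) π t⁻¹)
    (h𝔪 : (⟨t⁻¹, s36pc_self_mem t⁻¹⟩ : ↥(zchClosure (A₀ := A₀) ({t⁻¹} : Set F))) ∈ 𝔪.1) :
    (algebraMap A₀ F π)⁻¹ ∉ atLoc 𝔪 ∧ t⁻¹ ∈ atLoc 𝔪 ∧ t ∉ atLoc 𝔪 := by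
  have hπ0 : algebraMap A₀ F π ≠ 0 := ei_algebraMap_ne_zero (E := E) hπ
  refine ⟨s36cu_inv_not_mem 𝔪 𝔪.2.2 hπ0, ?_, ?_⟩
  · exact s36cu_atLoc_chart 𝔪 (mem_zchClosure.mp (s36pc_self_mem t⁻¹))
  · have := s36cu_inv_not_mem 𝔪 h𝔪 (inv_ne_zero ht0)
    rwa [inv_inv] at this

include E in
/-- **The local rings at `t = ∞` are permuted by `w`** (`w` an automorphism of `F` fixing `A₀`
with `t` integral over `A₀[w t]` and over `A₀[w⁻¹ t]`; for `t = j`, `w = w_{q²}`: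
`w t = j_{q²} = w⁻¹ t`). -/
theorem s36cu_aut_pt (hπ : Irreducible π) {t : F} (ht0 : t ≠ 0) (w : F ≃+* F)
    (hwA : ∀ a : A₀, w (algebraMap A₀ F a) = algebraMap A₀ F a)
    (h₁ : IsIntegral ↥(Algebra.adjoin A₀ {w t}) t)
    (h₂ : IsIntegral ↥(Algebra.adjoin A₀ {w.symm t}) t)
    (𝔫 : AtPt (F := F) π t⁻¹)
    (h𝔫 : (⟨t⁻¹, s36pc_self_mem t⁻¹⟩ : ↥(zchClosure (A₀ := A₀) ({t⁻¹} : Set F))) ∈ 𝔫.1) :
    ∃ 𝔫' : AtPt (F := F) π t⁻¹,
      (⟨t⁻¹, s36pc_self_mem t⁻¹⟩ : ↥(zchClosure (A₀ := A₀) ({t⁻¹} : Set F))) ∈ 𝔫'.1 ∧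
      ∀ x : F, x ∈ atLoc 𝔫' ↔ w.symm x ∈ atLoc 𝔫 := by
  have hwA' : ∀ a : A₀, w.symm (algebraMap A₀ F a) = algebraMap A₀ F a := fun a => by
    rw [RingEquiv.symm_apply_eq, hwA]
  -- first step: `φ = w⁻¹`, `O = atLoc 𝔫`
  obtain ⟨hπ𝔫, ht𝔫, htn𝔫⟩ := s36cu_pt_data (E := E) hπ ht0 𝔫 h𝔫
  haveI : IsLocalRing (atLoc 𝔫) := stb_atO_isLocalRing (π := π) t (Sum.inr 𝔫)
  obtain ⟨hs1, hs2⟩ := s36cu_pole (A₀ := A₀) (O := atLoc 𝔫) (s36cu_atLoc_ic 𝔫)
    (s36cu_atLoc_algebraMap 𝔫) h₂ ht𝔫 htn𝔫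
  obtain ⟨𝔫', ht', hsub', -⟩ := s36cu_pt_of_hom hπ (t := t) (w.symm : F →+* F) hwA' (atLoc 𝔫)
    (s36cu_atLoc_ic 𝔫) (s36cu_atLoc_algebraMap 𝔫) hπ𝔫 hs1 hs2
  -- second step: `φ = w`, `O = atLoc 𝔫'`
  obtain ⟨hπ𝔫', ht𝔫', htn𝔫'⟩ := s36cu_pt_data (E := E) hπ ht0 𝔫' ht'
  haveI : IsLocalRing (atLoc 𝔫') := stb_atO_isLocalRing (π := π) t (Sum.inr 𝔫')
  obtain ⟨hr1, hr2⟩ := s36cu_pole (A₀ := A₀) (O := atLoc 𝔫') (s36cu_atLoc_ic 𝔫')
    (s36cu_atLoc_algebraMap 𝔫') h₁ ht𝔫' htn𝔫'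
  obtain ⟨𝔫'', -, hsub'', -⟩ := s36cu_pt_of_hom hπ (t := t) (w : F →+* F) hwA (atLoc 𝔫')
    (s36cu_atLoc_ic 𝔫') (s36cu_atLoc_algebraMap 𝔫') hπ𝔫' hr1 hr2
  -- `atLoc 𝔫'' ⊆ atLoc 𝔫`, hence equality
  have hle : ∀ x ∈ atLoc 𝔫'', x ∈ atLoc 𝔫 := by
    intro x hx
    have h1 : w.symm (w x) ∈ atLoc 𝔫 := hsub' _ (hsub'' x hx)
    rwa [RingEquiv.symm_apply_apply] at h1
  have heq : 𝔫'' = 𝔫 := s36cu_eq_of_le 𝔫 𝔫'' hle
  refine ⟨𝔫', ht', fun x => ⟨fun hx => hsub' x hx, fun hx => ?_⟩⟩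
  have h2 : w (w.symm x) ∈ atLoc 𝔫' := hsub'' _ (heq ▸ hx)
  rwa [RingEquiv.apply_symm_apply] at h2

section Cusp

variable {F₁ : Type*} [Field F₁]

/-- a nonunit of the local ring, in terms of `F` -/
theorem s36cu_mem_max_of_inv {O : Subring F} [IsLocalRing O] {z : F} (hz : z ∈ O)
    (hzn : z = 0 ∨ z⁻¹ ∉ O) : (⟨z, hz⟩ : O) ∈ IsLocalRing.maximalIdeal O := by
  rw [IsLocalRing.mem_maximalIdeal, mem_nonunits_iff, s36cu_isUnit_iff]
  rintro ⟨h0, hinv⟩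
  rcases hzn with h | h
  · exact h0 h
  · exact h hinv

include E in
/-- **`(s⁻¹)^k ∈ 𝔪_O` at the points at `t = ∞`**, for `t` integral over `A₀[s]`, `k ≥ 1`. -/
theorem s36cu_pow_inv_mem (hπ : Irreducible π) {t : F} (ht0 : t ≠ 0) {s : F}
    (hs : IsIntegral ↥(Algebra.adjoin A₀ {s}) t) {k : ℕ} (hk : 0 < k)
    (𝔫 : AtPt (F := F) π t⁻¹)
    (h𝔫 : (⟨t⁻¹, s36pc_self_mem t⁻¹⟩ : ↥(zchClosure (A₀ := A₀) ({t⁻¹} : Set F))) ∈ 𝔫.1) :
    s⁻¹ ^ k ∈ atLoc 𝔫 ∧ (s⁻¹ ^ k = 0 ∨ (s⁻¹ ^ k)⁻¹ ∉ atLoc 𝔫) := by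
  obtain ⟨-, ht𝔫, htn𝔫⟩ := s36cu_pt_data (E := E) hπ ht0 𝔫 h𝔫
  haveI : IsLocalRing (atLoc 𝔫) := stb_atO_isLocalRing (π := π) t (Sum.inr 𝔫)
  obtain ⟨hs1, hs2⟩ := s36cu_pole (A₀ := A₀) (O := atLoc 𝔫) (s36cu_atLoc_ic 𝔫)
    (s36cu_atLoc_algebraMap 𝔫) hs ht𝔫 htn𝔫
  refine ⟨(atLoc 𝔫).pow_mem hs1 k, Or.inr fun h => hs2 ?_⟩
  -- `s = (s⁻¹)^(k-1) · ((s⁻¹)^k)⁻¹`
  have hs0 : s ≠ 0 := by
    rintro rfl
    exact hs2 (atLoc 𝔫).zero_mem
  have e : s = s⁻¹ ^ (k - 1) * (s⁻¹ ^ k)⁻¹ := by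
    obtain ⟨n, rfl⟩ : ∃ n, k = n + 1 := ⟨k - 1, by omega⟩
    rw [Nat.add_sub_cancel, pow_succ, mul_inv, inv_inv, ← mul_assoc,
      mul_inv_cancel₀ (pow_ne_zero _ (inv_ne_zero hs0)), one_mul]
  rw [e]
  exact (atLoc 𝔫).mul_mem ((atLoc 𝔫).pow_mem hs1 _) h

/-- **`honly` at the points at `t = ∞` of `C_a`**: separation by `y` (`y ≡ 1` at `V_a`,
`y ≡ z_b` at `V_b`, `y ≡ z_c` at `V_c`, `z_b, z_c ∈ 𝔪_O`). -/
theorem s36cu_honly_a {u : F} (V : κ → ValuationSubring F)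
    (hBV : ∀ c (b : F), IsIntegral ↥(Algebra.adjoin A₀ {u}) b → b ∈ V c)
    (ca cb cc : κ) (hκ : ∀ c, c = ca ∨ c = cb ∨ c = cc)
    (𝔫 : AtPt (F := F) π u) {y zb zc : F} (hy : y ∈ atLoc 𝔫)
    (hzb : zb ∈ atLoc 𝔫 ∧ (zb = 0 ∨ zb⁻¹ ∉ atLoc 𝔫))
    (hzc : zc ∈ atLoc 𝔫 ∧ (zc = 0 ∨ zc⁻¹ ∉ atLoc 𝔫))
    (hya : y - 1 ∈ (V ca).nonunits) (hyb : y - zb ∈ (V cb).nonunits)
    (hyc : y - zc ∈ (V cc).nonunits) (ha : atThrough 𝔫 (V ca)) :
    ∀ c, atThrough 𝔫 (V c) → c = ca := by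
  haveI : IsLocalRing (atLoc 𝔫) := by
    haveI := 𝔫.2.1.isPrime
    exact ls_localSubring_isLocalRing Subtype.val_injective 𝔫.1
  intro c hc
  have hOa := stb_loc_le 𝔫 (V ca) (hBV ca) ha
  have hOc := stb_loc_le 𝔫 (V c) (hBV c) hc
  rcases hκ c with h | h | h
  · exact h
  · exfalso
    rw [h] at hOc
    exact s36cu_not_both (V ca) (V cb) hOa hOc hy hzb.1
      (s36cu_mem_max_of_inv hzb.1 hzb.2) hya hyb
  · exfalso
    rw [h] at hOc
    exact s36cu_not_both (V ca) (V cc) hOa hOc hy hzc.1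
      (s36cu_mem_max_of_inv hzc.1 hzc.2) hya hyc

include E in
/-- **(P2): `S36PtInput` at the points at `t = ∞`.**
Inputs: the automorphism `w` (`V_b = V_a.comap w`, `V_a = V_b.comap w`, `V_c = V_c.comap w`,
`t` integral over `A₀[w t]`, `A₀[w⁻¹ t]`, `Hor` is `w`-invariant); the separating function `y`
(`y ∈ O` at the points of `C_a`, `y ≡ 1` at `V_a`, `y ≡ z_b` at `V_b`, `y ≡ z_c` at `V_c`,
`z_b, z_c ∈ 𝔪_O`); `S36PtInput` at the one-component points of `C_a` (`hA`) and of `C_c` (`hC`).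
The points of `C_b` come from those of `C_a` by `w`. -/
theorem s36cu_hpts_inf [Finite κ] (hπ : Irreducible π) {t : F} (ht : Transcendental E t)
    [FiniteDimensional (IntermediateField.adjoin E {t}) F]
    (V : κ → ValuationSubring F)
    (hBV₁ : ∀ c (b : F), IsIntegral ↥(Algebra.adjoin A₀ {t}) b → b ∈ V c)
    (hBV₂ : ∀ c (b : F), IsIntegral ↥(Algebra.adjoin A₀ {t⁻¹}) b → b ∈ V c)
    (hKR : ∀ x : F, IsIntegral ↥(Algebra.adjoin A₀ {t}) (algebraMap A₀ F π * x) →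
      (∀ c, x ∈ V c) → IsIntegral ↥(Algebra.adjoin A₀ {t}) x)
    {Q : ℕ}
    (hram : ∀ c (x : F), x ∈ (V c).nonunits → ∃ z ∈ V c, x ^ Q = algebraMap A₀ F π * z)
    (ca cb cc : κ) (hκ : ∀ c, c = ca ∨ c = cb ∨ c = cc) (hab : ca ≠ cb) (hac : ca ≠ cc)
    (hbc : cb ≠ cc)
    -- the automorphism
    (w : F ≃+* F) (hwA : ∀ a : A₀, w (algebraMap A₀ F a) = algebraMap A₀ F a)
    (h₁ : IsIntegral ↥(Algebra.adjoin A₀ {w t}) t)
    (h₂ : IsIntegral ↥(Algebra.adjoin A₀ {w.symm t}) t)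
    (hwab : ∀ x, x ∈ V cb ↔ w x ∈ V ca) (hwba : ∀ x, x ∈ V ca ↔ w x ∈ V cb)
    (hwcc : ∀ x, x ∈ V cc ↔ w x ∈ V cc)
    {Hor : F → Prop} (hHor : ∀ y, Hor y → Hor (w y))
    -- the separating function
    {y zb zc : F}
    (hyO : ∀ 𝔫 : AtPt (F := F) π t⁻¹,
      (⟨t⁻¹, s36pc_self_mem t⁻¹⟩ : ↥(zchClosure (A₀ := A₀) ({t⁻¹} : Set F))) ∈ 𝔫.1 →
      atThrough 𝔫 (V ca) → y ∈ atLoc 𝔫)
    (hzb : ∀ 𝔫 : AtPt (F := F) π t⁻¹,
      (⟨t⁻¹, s36pc_self_mem t⁻¹⟩ : ↥(zchClosure (A₀ := A₀) ({t⁻¹} : Set F))) ∈ 𝔫.1 →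
      zb ∈ atLoc 𝔫 ∧ (zb = 0 ∨ zb⁻¹ ∉ atLoc 𝔫))
    (hzc : ∀ 𝔫 : AtPt (F := F) π t⁻¹,
      (⟨t⁻¹, s36pc_self_mem t⁻¹⟩ : ↥(zchClosure (A₀ := A₀) ({t⁻¹} : Set F))) ∈ 𝔫.1 →
      zc ∈ atLoc 𝔫 ∧ (zc = 0 ∨ zc⁻¹ ∉ atLoc 𝔫))
    (hya : y - 1 ∈ (V ca).nonunits) (hyb : y - zb ∈ (V cb).nonunits)
    (hyc : y - zc ∈ (V cc).nonunits)
    -- the points of `C_a` and of `C_c`
    {m : ℕ} {α β : F₁ →+* F} {Nα Nβ : F →* F₁} {ζ₁ : F₁}
    (hA : ∀ 𝔫 : AtPt (F := F) π t⁻¹,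
      (⟨t⁻¹, s36pc_self_mem t⁻¹⟩ : ↥(zchClosure (A₀ := A₀) ({t⁻¹} : Set F))) ∈ 𝔫.1 →
      atThrough 𝔫 (V ca) → (∀ c, atThrough 𝔫 (V c) → c = ca) →
      @S36PtInput F₁ F _ _ κ Hor m α β Nα Nβ ζ₁ V ca cb cc (atO π t (Sum.inr 𝔫))
        (stb_atO_isLocalRing (π := π) t (Sum.inr 𝔫)) (atInc π t V (Sum.inr 𝔫)))
    (hC : ∀ 𝔫 : AtPt (F := F) π t⁻¹,
      (⟨t⁻¹, s36pc_self_mem t⁻¹⟩ : ↥(zchClosure (A₀ := A₀) ({t⁻¹} : Set F))) ∈ 𝔫.1 →
      atThrough 𝔫 (V cc) → (∀ c, atThrough 𝔫 (V c) → c = cc) →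
      @S36PtInput F₁ F _ _ κ Hor m α β Nα Nβ ζ₁ V ca cb cc (atO π t (Sum.inr 𝔫))
        (stb_atO_isLocalRing (π := π) t (Sum.inr 𝔫)) (atInc π t V (Sum.inr 𝔫))) :
    ∀ 𝔫 : AtPt (F := F) π t⁻¹,
      (⟨t⁻¹, s36pc_self_mem t⁻¹⟩ : ↥(zchClosure (A₀ := A₀) ({t⁻¹} : Set F))) ∈ 𝔫.1 →
      @S36PtInput F₁ F _ _ κ Hor m α β Nα Nβ ζ₁ V ca cb cc (atO π t (Sum.inr 𝔫))
        (stb_atO_isLocalRing (π := π) t (Sum.inr 𝔫)) (atInc π t V (Sum.inr 𝔫)) := by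
  classical
  have ht0 : t ≠ 0 := by
    rintro rfl
    exact ht isAlgebraic_zero
  have hπ0 : algebraMap A₀ F π ≠ 0 := ei_algebraMap_ne_zero (E := E) hπ
  have hKR₂ := aq_KR_inv hπ ht V hBV₁ hKR
  -- `honly` at the points of `C_a`
  have honly_a : ∀ 𝔫 : AtPt (F := F) π t⁻¹,
      (⟨t⁻¹, s36pc_self_mem t⁻¹⟩ : ↥(zchClosure (A₀ := A₀) ({t⁻¹} : Set F))) ∈ 𝔫.1 →
      atThrough 𝔫 (V ca) → ∀ c, atThrough 𝔫 (V c) → c = ca := fun 𝔫 h𝔫 ha =>
    s36cu_honly_a V hBV₂ ca cb cc hκ 𝔫 (hyO 𝔫 h𝔫 ha) (hzb 𝔫 h𝔫) (hzc 𝔫 h𝔫) hya hyb hyc ha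
  -- the permutation of the components
  set σ : κ → κ := fun c => if c = ca then cb else if c = cb then ca else c with hσdef
  have hσa : σ ca = cb := by simp [hσdef]
  have hσb : σ cb = ca := by simp [hσdef, hab.symm]
  have hσc : σ cc = cc := by simp [hσdef, hac.symm, hbc.symm]
  have hσσ : ∀ c, σ (σ c) = c := by
    intro c
    rcases hκ c with rfl | rfl | rfl
    · rw [hσa, hσb]
    · rw [hσb, hσa]
    · rw [hσc, hσc]
  have hVσ : ∀ c x, x ∈ V (σ c) ↔ w x ∈ V c := by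
    intro c x
    rcases hκ c with rfl | rfl | rfl
    · rw [hσa]; exact hwab x
    · rw [hσb]; exact hwba x
    · rw [hσc]; exact hwcc x
  intro 𝔫 h𝔫
  by_cases ha : atThrough 𝔫 (V ca)
  · exact hA 𝔫 h𝔫 ha (honly_a 𝔫 h𝔫 ha)
  -- the transported point
  obtain ⟨𝔫', h𝔫', hloc⟩ := s36cu_aut_pt (E := E) hπ ht0 w hwA h₁ h₂ 𝔫 h𝔫
  have hthr : ∀ c, atThrough 𝔫 (V c) ↔ atThrough 𝔫' (V (σ c)) := by
    intro c
    rw [s36pc_through_iff 𝔫 (V c) (hBV₂ c), s36pc_through_iff 𝔫' (V (σ c)) (hBV₂ (σ c))]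
    constructor
    · intro h x hx
      have h1 : w.symm x ∈ V c := h _ ((hloc x).mp hx)
      have e := hVσ (σ c) (w.symm x)
      rw [hσσ, RingEquiv.apply_symm_apply] at e
      exact e.mp h1
    · intro h x hx
      have h1 : w x ∈ atLoc 𝔫' := (hloc _).mpr (by rwa [RingEquiv.symm_apply_apply])
      have h2 : w x ∈ V (σ c) := h _ h1
      have e := hVσ (σ c) x
      rw [hσσ] at e
      exact e.mpr h2
  by_cases hb : atThrough 𝔫 (V cb)
  · -- a point of `C_b`: transport from the point `𝔫'` of `C_a`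
    have ha' : atThrough 𝔫' (V ca) := by
      have := (hthr cb).mp hb
      rwa [hσb] at this
    have hone' := honly_a 𝔫' h𝔫' ha'
    have H := hA 𝔫' h𝔫' ha' hone'
    refine @s36cu_ptInput_map F₁ F _ _ κ Hor m α β Nα Nβ ζ₁ V ca cb cc
      (atO π t (Sum.inr 𝔫')) (atO π t (Sum.inr 𝔫))
      (stb_atO_isLocalRing (π := π) t (Sum.inr 𝔫')) (stb_atO_isLocalRing (π := π) t (Sum.inr 𝔫))
      w.symm ?_ σ hσσ ?_ (atInc π t V (Sum.inr 𝔫')) (atInc π t V (Sum.inr 𝔫)) ?_ ?_ H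
      ⟨ca, ha', hone'⟩
    · intro x
      show x ∈ atLoc 𝔫 ↔ w.symm.symm x ∈ atLoc 𝔫'
      rw [RingEquiv.symm_symm, hloc, RingEquiv.symm_apply_apply]
    · intro c x
      have e := hVσ (σ c) (w.symm x)
      rw [hσσ, RingEquiv.apply_symm_apply] at e
      exact e.symm
    · intro c
      exact hthr c
    · intro y hy
      rw [RingEquiv.symm_symm]
      exact hHor y hy
  · -- a point of `C_c`
    obtain ⟨c, hc⟩ := aq_hpt V hBV₂ hKR₂ hram hπ0 𝔫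
    have hcc : c = cc := by
      rcases hκ c with h | h | h
      · exact absurd (h ▸ hc) ha
      · exact absurd (h ▸ hc) hb
      · exact h
    rw [hcc] at hc
    refine hC 𝔫 h𝔫 hc fun c' hc' => ?_
    rcases hκ c' with h | h | h
    · exact absurd (h ▸ hc') ha
    · exact absurd (h ▸ hc') hb
    · exact h

include E in
/-- **`hpts` of `s36ta_main` / `s36tb_small`** from: `S36PtInput` at the closed points of the
chart `t` (`h₁`), and at the points at `t = ∞` the data of `s36cu_hpts_inf`. -/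
theorem s36cu_hpts [Finite κ] (hπ : Irreducible π) {t : F} (ht : Transcendental E t)
    [FiniteDimensional (IntermediateField.adjoin E {t}) F]
    (V : κ → ValuationSubring F)
    (hBV₁ : ∀ c (b : F), IsIntegral ↥(Algebra.adjoin A₀ {t}) b → b ∈ V c)
    (hBV₂ : ∀ c (b : F), IsIntegral ↥(Algebra.adjoin A₀ {t⁻¹}) b → b ∈ V c)
    (hKR : ∀ x : F, IsIntegral ↥(Algebra.adjoin A₀ {t}) (algebraMap A₀ F π * x) →
      (∀ c, x ∈ V c) → IsIntegral ↥(Algebra.adjoin A₀ {t}) x)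
    {Q : ℕ}
    (hram : ∀ c (x : F), x ∈ (V c).nonunits → ∃ z ∈ V c, x ^ Q = algebraMap A₀ F π * z)
    (ca cb cc : κ) (hκ : ∀ c, c = ca ∨ c = cb ∨ c = cc) (hab : ca ≠ cb) (hac : ca ≠ cc)
    (hbc : cb ≠ cc)
    (w : F ≃+* F) (hwA : ∀ a : A₀, w (algebraMap A₀ F a) = algebraMap A₀ F a)
    (hw₁ : IsIntegral ↥(Algebra.adjoin A₀ {w t}) t)
    (hw₂ : IsIntegral ↥(Algebra.adjoin A₀ {w.symm t}) t)
    (hwab : ∀ x, x ∈ V cb ↔ w x ∈ V ca) (hwba : ∀ x, x ∈ V ca ↔ w x ∈ V cb)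
    (hwcc : ∀ x, x ∈ V cc ↔ w x ∈ V cc)
    {Hor : F → Prop} (hHor : ∀ y, Hor y → Hor (w y))
    {y zb zc : F}
    (hyO : ∀ 𝔫 : AtPt (F := F) π t⁻¹,
      (⟨t⁻¹, s36pc_self_mem t⁻¹⟩ : ↥(zchClosure (A₀ := A₀) ({t⁻¹} : Set F))) ∈ 𝔫.1 →
      atThrough 𝔫 (V ca) → y ∈ atLoc 𝔫)
    (hzb : ∀ 𝔫 : AtPt (F := F) π t⁻¹,
      (⟨t⁻¹, s36pc_self_mem t⁻¹⟩ : ↥(zchClosure (A₀ := A₀) ({t⁻¹} : Set F))) ∈ 𝔫.1 →
      zb ∈ atLoc 𝔫 ∧ (zb = 0 ∨ zb⁻¹ ∉ atLoc 𝔫))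
    (hzc : ∀ 𝔫 : AtPt (F := F) π t⁻¹,
      (⟨t⁻¹, s36pc_self_mem t⁻¹⟩ : ↥(zchClosure (A₀ := A₀) ({t⁻¹} : Set F))) ∈ 𝔫.1 →
      zc ∈ atLoc 𝔫 ∧ (zc = 0 ∨ zc⁻¹ ∉ atLoc 𝔫))
    (hya : y - 1 ∈ (V ca).nonunits) (hyb : y - zb ∈ (V cb).nonunits)
    (hyc : y - zc ∈ (V cc).nonunits)
    {m : ℕ} {α β : F₁ →+* F} {Nα Nβ : F →* F₁} {ζ₁ : F₁}
    (h₁ : ∀ 𝔫 : AtPt (F := F) π t,
      @S36PtInput F₁ F _ _ κ Hor m α β Nα Nβ ζ₁ V ca cb cc (atO π t (Sum.inl 𝔫))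
        (stb_atO_isLocalRing (π := π) t (Sum.inl 𝔫)) (atInc π t V (Sum.inl 𝔫)))
    (hA : ∀ 𝔫 : AtPt (F := F) π t⁻¹,
      (⟨t⁻¹, s36pc_self_mem t⁻¹⟩ : ↥(zchClosure (A₀ := A₀) ({t⁻¹} : Set F))) ∈ 𝔫.1 →
      atThrough 𝔫 (V ca) → (∀ c, atThrough 𝔫 (V c) → c = ca) →
      @S36PtInput F₁ F _ _ κ Hor m α β Nα Nβ ζ₁ V ca cb cc (atO π t (Sum.inr 𝔫))
        (stb_atO_isLocalRing (π := π) t (Sum.inr 𝔫)) (atInc π t V (Sum.inr 𝔫)))
    (hC : ∀ 𝔫 : AtPt (F := F) π t⁻¹,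
      (⟨t⁻¹, s36pc_self_mem t⁻¹⟩ : ↥(zchClosure (A₀ := A₀) ({t⁻¹} : Set F))) ∈ 𝔫.1 →
      atThrough 𝔫 (V cc) → (∀ c, atThrough 𝔫 (V c) → c = cc) →
      @S36PtInput F₁ F _ _ κ Hor m α β Nα Nβ ζ₁ V ca cb cc (atO π t (Sum.inr 𝔫))
        (stb_atO_isLocalRing (π := π) t (Sum.inr 𝔫)) (atInc π t V (Sum.inr 𝔫))) :
    ∀ i : AtPt (F := F) π t ⊕ AtPt (F := F) π t⁻¹,
      @S36PtInput F₁ F _ _ κ Hor m α β Nα Nβ ζ₁ V ca cb cc (atO π t i)
        (stb_atO_isLocalRing (π := π) t i) (atInc π t V i) := by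
  have ht0 : t ≠ 0 := by
    rintro rfl
    exact ht isAlgebraic_zero
  exact s36pc_hpts hπ ht0 V hBV₁ hBV₂ h₁
    (s36cu_hpts_inf (E := E) hπ ht V hBV₁ hBV₂ hKR hram ca cb cc hκ hab hac hbc w hwA hw₁ hw₂
      hwab hwba hwcc hHor hyO hzb hzc hya hyb hyc hA hC)

end Cusp

end Chart

end Fermat.Agent.S36


end ZBS36_026_10
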