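/- GENERATED FILE (helper35, build-time optimisation, NOTES/ZB.md): verbatim concatenation of the modules
   Fermat.Agent.S36.Incidence
   Fermat.Agent.S36.PtsAll2
   Fermat.Agent.S36.NgLocAbs
   Fermat.Agent.S36.NgLocVal
   Fermat.Agent.S36.NgLocChart
   Do not edit; do not import together with these modules. -/
import Mathlib
import Fermat.Agent.ZB.S36_026
import Fermat.Agent.ZB.UNIP_007
import Fermat.Agent.ZB.S36_006

/-! ### bundled: `Fermat.Agent.S36.Incidence` -/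
section ZBS36_031_0
/-
S36 (Carayol at `q² ∥ M`), geometric clause, piece G-inc "INCIDENCE" (helper19).  Mathlib only.

The incidence structure of the special fibre at level `N = q² M'` comes for free from the
one at level `M₁ = q M'`, by GOING-DOWN (no supersingular theory).

Abstract setting: `R ⊆ S` an integral extension of domains, `R` integrally closed
(`R` = chart `B'` of level `M₁`, `S` = chart `B` of level `N`, along `α` or along `β`).
`p` a prime of `R` (a vertical prime) over which lies ONLY ONE prime `Pa` of `S`, and `S / Pa`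
is "purely inseparable" over `R / p`: every `x ∈ S` has `x ^ n ∈ R + Pa`
(along `β`: `p = 𝔭'_∞`, `Pa = 𝔭_a`, `n = q`; along `α`: `p = 𝔭'_0`, `Pa = 𝔭_b`, `n = q`).

* `s36inc_le_of_unique` : every prime `𝔫` of `S` whose contraction contains `p` contains `Pa`
  (going-down, Mathlib `Ideal.exists_ideal_le_liesOver_of_le`).
* `s36inc_le_of_insep`, `s36inc_eq_of_insep` : two primes of `S` containing `Pa` with the same
  contraction are equal.
* `s36inc_triple` : over every prime `𝔫' ⊇ p` of `R` lies EXACTLY ONE prime `𝔫` of `S`;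
  it contains `Pa` and every ideal `P'` of `S` whose contraction is `≤ 𝔫'`
  (so, if `𝔫' ⊇ 𝔭'_∞ + 𝔭'_0` is a crossing point: `𝔫 ⊇ 𝔭_a + 𝔭_c + 𝔭_b`, a TRIPLE point).
* `s36inc_isMaximal` : a prime of `S` over a maximal ideal is maximal.
* `s36inc_exists_mul_mem` : if `𝔫` is the only prime over `𝔫'`, every `s ∉ 𝔫` divides the image
  of some `r ∉ 𝔫'`: the local ring `S_𝔫` is `S ⊗ R_𝔫'`, integral over `R_𝔫'`
  (hence norms of units of `S_𝔫` are units of `R_𝔫'`: Mathlib `Algebra.isIntegral_norm`).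
* `s36inc_cross_of_two` : a prime of `S` containing two ideals `P₁`, `P₂` lies over a prime
  containing their contractions (a point on two components maps to a crossing point).
-/

set_option autoImplicit false

namespace Fermat.Agent.S36

variable {R S : Type*} [CommRing R] [CommRing S] [Algebra R S]

/-- If `S / Pa` is purely inseparable over the image of `R`, inclusions between primes
containing `Pa` can be tested on the contractions. -/
theorem s36inc_le_of_insep (Pa : Ideal S) {n : ℕ} (hn : 0 < n)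
    (hins : ∀ x : S, ∃ r : R, x ^ n - algebraMap R S r ∈ Pa)
    {𝔫₁ 𝔫₂ : Ideal S} [𝔫₂.IsPrime] (h₁ : Pa ≤ 𝔫₁) (h₂ : Pa ≤ 𝔫₂)
    (h : 𝔫₁.comap (algebraMap R S) ≤ 𝔫₂.comap (algebraMap R S)) : 𝔫₁ ≤ 𝔫₂ := by
  intro x hx
  obtain ⟨r, hr⟩ := hins x
  have hr1 : algebraMap R S r ∈ 𝔫₁ := by
    have e : algebraMap R S r = x ^ n - (x ^ n - algebraMap R S r) := by ring
    rw [e]
    exact 𝔫₁.sub_mem (𝔫₁.pow_mem_of_mem hx n hn) (h₁ hr)
  have hr2 : algebraMap R S r ∈ 𝔫₂ := h hr1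
  have hx2 : x ^ n ∈ 𝔫₂ := by
    have e : x ^ n = (x ^ n - algebraMap R S r) + algebraMap R S r := by ring
    rw [e]
    exact 𝔫₂.add_mem (h₂ hr) hr2
  exact Ideal.IsPrime.mem_of_pow_mem inferInstance n hx2

/-- Two primes of `S` containing `Pa` with the same contraction are equal. -/
theorem s36inc_eq_of_insep (Pa : Ideal S) {n : ℕ} (hn : 0 < n)
    (hins : ∀ x : S, ∃ r : R, x ^ n - algebraMap R S r ∈ Pa)
    {𝔫₁ 𝔫₂ : Ideal S} [𝔫₁.IsPrime] [𝔫₂.IsPrime] (h₁ : Pa ≤ 𝔫₁) (h₂ : Pa ≤ 𝔫₂)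
    (h : 𝔫₁.comap (algebraMap R S) = 𝔫₂.comap (algebraMap R S)) : 𝔫₁ = 𝔫₂ :=
  le_antisymm (s36inc_le_of_insep Pa hn hins h₁ h₂ h.le)
    (s36inc_le_of_insep Pa hn hins h₂ h₁ h.ge)

/-- **Going-down.**  If `Pa` is the only prime of `S` over `p`, every prime of `S` whose
contraction contains `p` contains `Pa`. -/
theorem s36inc_le_of_unique [IsDomain S] [FaithfulSMul R S] [Algebra.IsIntegral R S]
    [IsIntegrallyClosed R] (p : Ideal R) [p.IsPrime] (Pa : Ideal S)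
    (hPa : ∀ Q : Ideal S, Q.IsPrime → Q.comap (algebraMap R S) = p → Q = Pa)
    (𝔫 : Ideal S) [𝔫.IsPrime] (h : p ≤ 𝔫.comap (algebraMap R S)) : Pa ≤ 𝔫 := by
  have : (𝔫.comap (algebraMap R S)).IsPrime := Ideal.comap_isPrime _ _
  have : 𝔫.LiesOver (𝔫.comap (algebraMap R S)) := ⟨rfl⟩
  obtain ⟨P₀, hP₀, hP₀', hP₀''⟩ :=
    Ideal.exists_ideal_le_liesOver_of_le (p := p) (q := 𝔫.comap (algebraMap R S)) 𝔫 h
  have e : P₀ = Pa := hPa P₀ hP₀' (hP₀''.over).symm
  rw [← e]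
  exact hP₀

/-- **Triple points.**  Over every prime `𝔫' ⊇ p` of `R` lies exactly one prime `𝔫` of `S`;
it contains `Pa` and every ideal of `S` whose contraction is contained in `𝔫'`. -/
theorem s36inc_triple [IsDomain S] [FaithfulSMul R S] [Algebra.IsIntegral R S]
    [IsIntegrallyClosed R] (p : Ideal R) [p.IsPrime] (Pa : Ideal S) [Pa.IsPrime]
    (hPa : ∀ Q : Ideal S, Q.IsPrime → Q.comap (algebraMap R S) = p → Q = Pa)
    {n : ℕ} (hn : 0 < n) (hins : ∀ x : S, ∃ r : R, x ^ n - algebraMap R S r ∈ Pa)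
    (𝔫' : Ideal R) [𝔫'.IsPrime] (h : p ≤ 𝔫') :
    ∃ 𝔫 : Ideal S, 𝔫.IsPrime ∧ 𝔫.comap (algebraMap R S) = 𝔫' ∧
      (∀ 𝔫₂ : Ideal S, 𝔫₂.IsPrime → 𝔫₂.comap (algebraMap R S) = 𝔫' → 𝔫₂ = 𝔫) ∧
      Pa ≤ 𝔫 ∧ ∀ P' : Ideal S, P'.comap (algebraMap R S) ≤ 𝔫' → P' ≤ 𝔫 := by
  have huniq : ∀ 𝔫₁ 𝔫₂ : Ideal S, 𝔫₁.IsPrime → 𝔫₂.IsPrime →
      𝔫₁.comap (algebraMap R S) = 𝔫' → 𝔫₂.comap (algebraMap R S) = 𝔫' → 𝔫₁ = 𝔫₂ := by
    intro 𝔫₁ 𝔫₂ h₁ h₂ e₁ e₂
    have := h₁
    have := h₂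
    exact s36inc_eq_of_insep Pa hn hins
      (s36inc_le_of_unique p Pa hPa 𝔫₁ (e₁ ▸ h)) (s36inc_le_of_unique p Pa hPa 𝔫₂ (e₂ ▸ h))
      (e₁.trans e₂.symm)
  obtain ⟨𝔫, -, h𝔫, e𝔫⟩ := Ideal.exists_ideal_over_prime_of_isIntegral 𝔫' (⊥ : Ideal S)
    (by
      intro x hx
      have hx0 : x = 0 := by
        have : algebraMap R S x = 0 := by simpa using hx
        exact (FaithfulSMul.algebraMap_injective R S) (by rw [this, map_zero])
      rw [hx0]
      exact 𝔫'.zero_mem)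
  have := h𝔫
  refine ⟨𝔫, h𝔫, e𝔫, fun 𝔫₂ h₂ e₂ => huniq 𝔫₂ 𝔫 h₂ h𝔫 e₂ e𝔫,
    s36inc_le_of_unique p Pa hPa 𝔫 (e𝔫 ▸ h), ?_⟩
  intro P' hP'
  obtain ⟨Q, hQ, hQ', eQ⟩ := Ideal.exists_ideal_over_prime_of_isIntegral 𝔫' P' hP'
  rw [← huniq Q 𝔫 hQ' h𝔫 eQ e𝔫]
  exact hQ

/-- A prime of `S` over a maximal ideal of `R` is maximal. -/
theorem s36inc_isMaximal [Algebra.IsIntegral R S] (𝔫 : Ideal S) [𝔫.IsPrime]
    (h : (𝔫.comap (algebraMap R S)).IsMaximal) : 𝔫.IsMaximal :=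
  Ideal.isMaximal_of_isIntegral_of_isMaximal_comap 𝔫 h

/-- If `𝔫` is the only prime of `S` over `𝔫'`, every `s ∉ 𝔫` divides the image of an element
of `R ∖ 𝔫'`:  `S_𝔫 = S ⊗ R_𝔫'`. -/
theorem s36inc_exists_mul_mem [Algebra.IsIntegral R S] (𝔫' : Ideal R) [𝔫'.IsPrime]
    (𝔫 : Ideal S)
    (huniq : ∀ 𝔫₂ : Ideal S, 𝔫₂.IsPrime → 𝔫₂.comap (algebraMap R S) = 𝔫' → 𝔫₂ = 𝔫)
    {s : S} (hs : s ∉ 𝔫) : ∃ (s' : S) (r : R), r ∉ 𝔫' ∧ s * s' = algebraMap R S r := by
  by_contra hcon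
  push Not at hcon
  have hle : (Ideal.span {s}).comap (algebraMap R S) ≤ 𝔫' := by
    intro r hr
    by_contra hr'
    rw [Ideal.mem_comap, Ideal.mem_span_singleton'] at hr
    obtain ⟨a, ha⟩ := hr
    exact hcon a r hr' (by rw [mul_comm, ha])
  obtain ⟨Q, hQ, hQ', eQ⟩ := Ideal.exists_ideal_over_prime_of_isIntegral 𝔫' (Ideal.span {s}) hle
  have e := huniq Q hQ' eQ
  apply hs
  rw [← e]
  exact hQ (Ideal.subset_span rfl)

/-- A prime of `S` containing `P₁` and `P₂` lies over a prime of `R` containing their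
contractions: a point on two components maps to a point on their images. -/
theorem s36inc_cross_of_two (P₁ P₂ 𝔫 : Ideal S) (h₁ : P₁ ≤ 𝔫) (h₂ : P₂ ≤ 𝔫) :
    P₁.comap (algebraMap R S) ⊔ P₂.comap (algebraMap R S) ≤ 𝔫.comap (algebraMap R S) :=
  sup_le (Ideal.comap_mono h₁) (Ideal.comap_mono h₂)

end Fermat.Agent.S36


end ZBS36_031_0

/-! ### bundled: `Fermat.Agent.S36.PtsAll2` -/
section ZBS36_031_1
/-
S36 (Carayol at `q² ∥ M`), geometric clause, (I6)(e) (helper31), part 2: UNIQUENESS of the point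
over its image along a degeneracy map, at every point of the purely inseparable component.

* `s36pa_hprime` : every PRIME `𝔮 ∋ π` of the chart contains the centre of some component
                   (`aq_hpt` for primes), from (KR) + (RAM).
* `s36pa_huniq`  : abstract.  `g : R → S` integral, injective, `R` integrally closed;
                   `V c₃` the component which is alone over its image (`hsep`) and purely
                   inseparable over it (`hins`): every prime `𝔫 ⊇ 𝔭_{c₃}` of `S` is the ONLY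
                   prime of `S` over `𝔫 ∩ R`.
-/

set_option autoImplicit false
set_option linter.unusedSectionVars false
set_option linter.unusedVariables false
set_option linter.style.haveILetI false

namespace Fermat.Agent.S36

open Polynomial IntermediateField Fermat.Agent.INJ AlgebraicCurve Fermat.Agent.UNIP Fermat.Agent.STB

section Prime

variable {A₀ E F : Type*} [CommRing A₀] [IsDomain A₀] [IsDiscreteValuationRing A₀]
  [Field E] [Algebra A₀ E] [IsFractionRing A₀ E] [Field F] [Algebra E F] [Algebra A₀ F]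
  [IsScalarTower A₀ E F] {κ : Type*} {π : A₀}

/-- **`hpt` for primes**: every prime of the chart containing `π` contains the centre of some
component, by (KR) + (RAM). -/
theorem s36pa_hprime [Finite κ] {u : F} (V : κ → ValuationSubring F)
    (hBV : ∀ c (b : F), IsIntegral ↥(Algebra.adjoin A₀ {u}) b → b ∈ V c)
    (hKR : ∀ x : F, IsIntegral ↥(Algebra.adjoin A₀ {u}) (algebraMap A₀ F π * x) →
      (∀ c, x ∈ V c) → IsIntegral ↥(Algebra.adjoin A₀ {u}) x)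
    {Q : ℕ}
    (hram : ∀ c (x : F), x ∈ (V c).nonunits → ∃ z ∈ V c, x ^ Q = algebraMap A₀ F π * z)
    (hπ0 : algebraMap A₀ F π ≠ 0)
    (𝔮 : Ideal ↥(zchClosure (A₀ := A₀) ({u} : Set F))) [𝔮.IsPrime]
    (hπ𝔮 : algebraMap A₀ ↥(zchClosure (A₀ := A₀) ({u} : Set F)) π ∈ 𝔮) :
    ∃ c, ∀ b : ↥(zchClosure (A₀ := A₀) ({u} : Set F)), (b : F) ∈ (V c).nonunits → b ∈ 𝔮 := by
  classical
  by_contra hcon
  simp only [not_exists, not_forall] at hcon
  choose f hf hf' using hcon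
  haveI : Fintype κ := Fintype.ofFinite κ
  set g : ↥(zchClosure (A₀ := A₀) ({u} : Set F)) := ∏ c' : κ, f c' with hg
  have hprod : ∀ c, (g : F) ∈ (V c).nonunits := by
    intro c
    have e : (g : F) = ((∏ c' ∈ Finset.univ.erase c, f c' :
        ↥(zchClosure (A₀ := A₀) ({u} : Set F))) : F) * (f c : F) := by
      rw [hg, ← Finset.mul_prod_erase Finset.univ f (Finset.mem_univ c), mul_comm]
      rfl
    rw [e]
    exact pwi_mul_mem_nonunits (V c)
      (hBV c _ (mem_zchClosure.mp (∏ c' ∈ Finset.univ.erase c, f c').2)) (hf c)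
  have hint : IsIntegral ↥(Algebra.adjoin A₀ {u}) ((g : F) ^ Q / algebraMap A₀ F π) := by
    apply hKR
    · have e : algebraMap A₀ F π * ((g : F) ^ Q / algebraMap A₀ F π) = ((g ^ Q :
          ↥(zchClosure (A₀ := A₀) ({u} : Set F))) : F) := by
        push_cast; field_simp
      rw [e]
      exact mem_zchClosure.mp (g ^ Q).2
    · intro c
      obtain ⟨z, hz, hgz⟩ := hram c _ (hprod c)
      have : (g : F) ^ Q / algebraMap A₀ F π = z := by
        rw [hgz]; field_simp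
      rw [this]
      exact hz
  have hmem : g ^ Q ∈ 𝔮 := by
    have e : g ^ Q = algebraMap A₀ ↥(zchClosure (A₀ := A₀) ({u} : Set F)) π *
        ⟨(g : F) ^ Q / algebraMap A₀ F π, mem_zchClosure.mpr hint⟩ := by
      apply Subtype.ext
      push_cast
      show (g : F) ^ Q = algebraMap A₀ F π * ((g : F) ^ Q / algebraMap A₀ F π)
      field_simp
    rw [e]
    exact 𝔮.mul_mem_right _ hπ𝔮
  have hgm : g ∈ 𝔮 := Ideal.IsPrime.mem_of_pow_mem inferInstance Q hmem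
  obtain ⟨c, -, hc⟩ := Ideal.IsPrime.prod_mem_iff.mp hgm
  exact hf' c hc

end Prime

section Uniq

variable {R S : Type*} [CommRing R] [CommRing S] {F : Type*} [Field F] [Algebra S F]
  {κ : Type*}

instance s36pa_centre_isPrime (V : ValuationSubring F) (hSV : ∀ s : S, algebraMap S F s ∈ V) :
    (s36paCentre V hSV).IsPrime :=
  Ideal.comap_isPrime _ _

/-- **huniq, abstract.**  Every prime `𝔫 ⊇ 𝔭_{c₃}` of `S` is the only prime of `S` over
`𝔫 ∩ R`, when `V c₃` is separated from the other components by elements of `R` (`hsep`) and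
purely inseparable over `R` (`hins`). -/
theorem s36pa_huniq (g : R →+* S) (hg : g.IsIntegral) (hginj : Function.Injective g)
    [IsDomain R] [IsIntegrallyClosed R] [IsDomain S]
    (V : κ → ValuationSubring F) (hSV : ∀ c (s : S), algebraMap S F s ∈ V c) (ϖ : R)
    (hprime : ∀ Q : Ideal S, Q.IsPrime → g ϖ ∈ Q →
      ∃ c, ∀ s : S, algebraMap S F s ∈ (V c).nonunits → s ∈ Q)
    (c₃ : κ) (hϖ : algebraMap S F (g ϖ) ∈ (V c₃).nonunits)
    (hsep : ∀ c, c ≠ c₃ → ∃ r : R, algebraMap S F (g r) ∈ (V c).nonunits ∧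
      algebraMap S F (g r) ∉ (V c₃).nonunits)
    {n : ℕ} (hn : 0 < n)
    (hins : ∀ s : S, ∃ r : R, algebraMap S F (s ^ n - g r) ∈ (V c₃).nonunits)
    (𝔫 : Ideal S) [𝔫.IsPrime]
    (hthr : ∀ s : S, algebraMap S F s ∈ (V c₃).nonunits → s ∈ 𝔫) :
    ∀ 𝔫₂ : Ideal S, 𝔫₂.IsPrime → 𝔫₂.comap g = 𝔫.comap g → 𝔫₂ = 𝔫 := by
  letI : Algebra R S := g.toAlgebra
  haveI : Algebra.IsIntegral R S := ⟨hg⟩
  haveI : FaithfulSMul R S := (faithfulSMul_iff_algebraMap_injective R S).mpr hginj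
  have hmc := s36pa_mem_centre (V c₃) (hSV c₃)
  have hins' : ∀ x : S, ∃ r : R, x ^ n - algebraMap R S r ∈ s36paCentre (V c₃) (hSV c₃) := by
    intro x
    obtain ⟨r, hr⟩ := hins x
    exact ⟨r, (hmc _).mpr hr⟩
  haveI : ((s36paCentre (V c₃) (hSV c₃)).comap (algebraMap R S)).IsPrime :=
    Ideal.comap_isPrime _ _
  have hPa : ∀ Q : Ideal S, Q.IsPrime →
      Q.comap (algebraMap R S) = (s36paCentre (V c₃) (hSV c₃)).comap (algebraMap R S) →
      Q = s36paCentre (V c₃) (hSV c₃) := by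
    intro Q hQ hQp
    haveI := hQ
    have hϖQ : g ϖ ∈ Q := by
      have h1 : ϖ ∈ (s36paCentre (V c₃) (hSV c₃)).comap (algebraMap R S) :=
        (hmc _).mpr hϖ
      rw [← hQp] at h1
      exact h1
    obtain ⟨c, hc⟩ := hprime Q hQ hϖQ
    have hcc : c = c₃ := by
      by_contra hne
      obtain ⟨r, hr1, hr2⟩ := hsep c hne
      have h1 : r ∈ Q.comap (algebraMap R S) := hc _ hr1
      rw [hQp] at h1
      exact hr2 ((hmc _).mp h1)
    subst hcc
    have hle : s36paCentre (V c) (hSV c) ≤ Q := fun s hs => hc s ((hmc _).mp hs)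
    exact (s36inc_eq_of_insep (s36paCentre (V c) (hSV c)) hn hins' le_rfl hle hQp.symm).symm
  intro 𝔫₂ h₂ e
  haveI := h₂
  have hPa𝔫 : s36paCentre (V c₃) (hSV c₃) ≤ 𝔫 := fun s hs => hthr s ((hmc _).mp hs)
  have hp𝔫 : (s36paCentre (V c₃) (hSV c₃)).comap (algebraMap R S) ≤
      𝔫.comap (algebraMap R S) := Ideal.comap_mono hPa𝔫
  have e' : 𝔫₂.comap (algebraMap R S) = 𝔫.comap (algebraMap R S) := e
  have hPa𝔫₂ : s36paCentre (V c₃) (hSV c₃) ≤ 𝔫₂ :=
    s36inc_le_of_unique _ _ hPa 𝔫₂ (by rw [e']; exact hp𝔫)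
  exact s36inc_eq_of_insep _ hn hins' hPa𝔫₂ hPa𝔫 e'

end Uniq

end Fermat.Agent.S36


end ZBS36_031_1

/-! ### bundled: `Fermat.Agent.S36.NgLocAbs` -/
section ZBS36_031_2

/-!
# S36 / G-inc → G-ng (helper19): the local package `NgLoc` at a triple point, abstract

`R ⊆ F₁` and `S ⊆ F` two charts (`R` integrally closed in `F₁`, `S` integral over `R` along
`φ : F₁ →+* F`), `𝔫` a prime of `S`, the ONLY prime of `S` over `𝔫' = 𝔫 ∩ R` (G-inc,
`s36inc_triple`).  With `O = S_𝔫`, `O' = R_𝔫'` (`UNIP.ls_localSubring`):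

* `s36ngl_denominator` : every element of `S_𝔫` is `c / φ r`, `c ∈ S`, `r ∈ R ∖ 𝔫'`
  (`S_𝔫 = S ⊗ R_𝔫'`);
* `s36ngl_map`, `s36ngl_norm`, `s36ngl_root`, `s36ngl_surj`;
* `s36ngl_ngLoc` : the package `NgLoc φ N V₁ V₂ m ζ₁ O O'` of `S36/NormGlue.lean`.
-/

set_option autoImplicit false
set_option linter.unusedSectionVars false

namespace Fermat.Agent.S36

open Fermat.Agent.UNIP

variable {R S F₁ F : Type*} [CommRing R] [CommRing S] [Field F₁] [Field F]
  [Algebra R S] [Algebra R F₁] [Algebra S F]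

/-- the contraction of a prime -/
instance s36ngl_comap_isPrime (𝔫 : Ideal S) [𝔫.IsPrime] :
    (𝔫.comap (algebraMap R S)).IsPrime := Ideal.comap_isPrime _ _

section Denominator

variable [Algebra.IsIntegral R S] (φ : F₁ →+* F)
  (hφ : ∀ r : R, φ (algebraMap R F₁ r) = algebraMap S F (algebraMap R S r))
  (𝔫 : Ideal S) [𝔫.IsPrime]
  (huniq : ∀ 𝔫₂ : Ideal S, 𝔫₂.IsPrime →
    𝔫₂.comap (algebraMap R S) = 𝔫.comap (algebraMap R S) → 𝔫₂ = 𝔫)

include hφ huniq in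
/-- `S_𝔫 = S ⊗ R_𝔫'`: every element of `S_𝔫` has a denominator in `R ∖ 𝔫'`. -/
theorem s36ngl_denominator {a : F} (ha : a ∈ ls_localSubring (F := F) 𝔫) :
    ∃ (c : S) (r : R), r ∉ 𝔫.comap (algebraMap R S) ∧
      φ (algebraMap R F₁ r) * a = algebraMap S F c := by
  obtain ⟨b, s, hs, hsa⟩ := ha
  obtain ⟨s', r, hr, hss'⟩ :=
    s36inc_exists_mul_mem (𝔫.comap (algebraMap R S)) 𝔫 huniq hs
  refine ⟨s' * b, r, hr, ?_⟩
  rw [hφ, ← hss', map_mul, map_mul, ← hsa]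
  ring

include hφ in
/-- `φ (R_𝔫') ⊆ S_𝔫` -/
theorem s36ngl_map {z : F₁} (hz : z ∈ ls_localSubring (F := F₁) (𝔫.comap (algebraMap R S))) :
    φ z ∈ ls_localSubring (F := F) 𝔫 := by
  obtain ⟨b, s, hs, hsz⟩ := hz
  refine ⟨algebraMap R S b, algebraMap R S s, hs, ?_⟩
  rw [← hφ, ← hφ, ← map_mul, hsz]

include hφ huniq in
/-- the norm maps `S_𝔫` into `R_𝔫'` -/
theorem s36ngl_norm (N : F →* F₁) {n : ℕ} (hNφ : ∀ x : F₁, N (φ x) = x ^ n)
    (hNS : ∀ s : S, ∃ r : R, N (algebraMap S F s) = algebraMap R F₁ r)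
    {e : F} (he : e ∈ ls_localSubring (F := F) 𝔫) :
    N e ∈ ls_localSubring (F := F₁) (𝔫.comap (algebraMap R S)) := by
  obtain ⟨c, r, hr, hrc⟩ := s36ngl_denominator φ hφ 𝔫 huniq he
  obtain ⟨r', hr'⟩ := hNS c
  refine ⟨r', r ^ n, ?_, ?_⟩
  · intro h
    exact hr (Ideal.IsPrime.mem_of_pow_mem inferInstance n h)
  · rw [map_pow, ← hNφ, ← map_mul, hrc, hr']

end Denominator

section Root

variable (𝔫' : Ideal R) [𝔫'.IsPrime]
  (hR : ∀ z : F₁, IsIntegral R z → ∃ r : R, algebraMap R F₁ r = z)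

include hR in
/-- `R_𝔫'` is closed under `m`-th roots (`R` is integrally closed in `F₁`) -/
theorem s36ngl_root {m : ℕ} (hm : 0 < m) {z : F₁}
    (hz : z ^ m ∈ ls_localSubring (F := F₁) 𝔫') : z ∈ ls_localSubring (F := F₁) 𝔫' := by
  obtain ⟨b, s, hs, hsz⟩ := hz
  -- `(s z) ^ m = s ^ (m - 1) b`
  have hint : IsIntegral R (algebraMap R F₁ s * z) := by
    refine ⟨Polynomial.X ^ m - Polynomial.C (s ^ (m - 1) * b),
      Polynomial.monic_X_pow_sub_C _ (Nat.pos_iff_ne_zero.mp hm), ?_⟩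
    rw [Polynomial.eval₂_sub, Polynomial.eval₂_pow, Polynomial.eval₂_X, Polynomial.eval₂_C,
      map_mul, map_pow, ← hsz, mul_pow, ← mul_assoc, ← pow_succ,
      Nat.sub_add_cancel hm, sub_self]
  obtain ⟨r, hr⟩ := hR _ hint
  exact ⟨r, s, hs, hr.symm⟩

end Root

section Surj

variable [Algebra.IsIntegral R S] (φ : F₁ →+* F)
  (hφ : ∀ r : R, φ (algebraMap R F₁ r) = algebraMap S F (algebraMap R S r))
  (𝔫 : Ideal S) [𝔫.IsPrime]
  (huniq : ∀ 𝔫₂ : Ideal S, 𝔫₂.IsPrime →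
    𝔫₂.comap (algebraMap R S) = 𝔫.comap (algebraMap R S) → 𝔫₂ = 𝔫)
  (V : ValuationSubring F) (hSV : ∀ s : S, algebraMap S F s ∈ V)
  (hthr : ∀ s : S, algebraMap S F s ∈ V.nonunits → s ∈ 𝔫)

include hSV hthr in
/-- elements of `S ∖ 𝔫` are units at a component through `𝔫` -/
theorem s36ngl_val_eq_one {s : S} (hs : s ∉ 𝔫) : V.valuation (algebraMap S F s) = 1 := by
  rcases ValuationSubring.valuation_lt_one_or_eq_one V ⟨_, hSV s⟩ with h | h
  · exact absurd (hthr s ((ValuationSubring.mem_nonunits_iff V).mpr h)) hs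
  · exact h

include hSV hthr in
/-- `S_𝔫 ⊆ V` -/
theorem s36ngl_le {a : F} (ha : a ∈ ls_localSubring (F := F) 𝔫) : a ∈ V := by
  obtain ⟨b, s, hs, hsa⟩ := ha
  have h1 := s36ngl_val_eq_one 𝔫 V hSV hthr hs
  rw [← ValuationSubring.valuation_le_one_iff]
  have h2 : V.valuation (algebraMap S F s * a) ≤ 1 := by
    rw [hsa, ValuationSubring.valuation_le_one_iff]
    exact hSV b
  rwa [map_mul, h1, one_mul] at h2

include hφ huniq hSV hthr in
/-- **local residue surjectivity**: from the global one on the charts -/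
theorem s36ngl_surj
    (hGS : ∀ s : S, ∃ r : R, algebraMap S F s - φ (algebraMap R F₁ r) ∈ V.nonunits)
    {a : F} (ha0 : a ≠ 0) (ha : a ∈ ls_localSubring (F := F) 𝔫)
    (ha' : a⁻¹ ∈ ls_localSubring (F := F) 𝔫) :
    ∃ x ∈ ls_localSubring (F := F₁) (𝔫.comap (algebraMap R S)), NgC V (φ x) a := by
  obtain ⟨c, r, hr, hrc⟩ := s36ngl_denominator φ hφ 𝔫 huniq ha
  obtain ⟨c₁, hc₁⟩ := hGS c
  have hr1 : V.valuation (φ (algebraMap R F₁ r)) = 1 := by
    rw [hφ]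
    exact s36ngl_val_eq_one 𝔫 V hSV hthr hr
  have hr0 : algebraMap R F₁ r ≠ 0 := by
    intro h0
    rw [h0, map_zero, map_zero] at hr1
    exact zero_ne_one hr1
  have hφr0 : φ (algebraMap R F₁ r) ≠ 0 := (map_ne_zero φ).mpr hr0
  have haV : a ∈ V := s36ngl_le 𝔫 V hSV hthr ha
  have haV' : a⁻¹ ∈ V := s36ngl_le 𝔫 V hSV hthr ha'
  have hav : V.valuation a = 1 := by
    have h1 : V.valuation a ≤ 1 := (ValuationSubring.valuation_le_one_iff V a).mpr haV
    have h2 : V.valuation a⁻¹ ≤ 1 := (ValuationSubring.valuation_le_one_iff V _).mpr haV'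
    rw [map_inv₀] at h2
    have hva0 : V.valuation a ≠ 0 := (Valuation.ne_zero_iff _).mpr ha0
    have h3 : 1 ≤ V.valuation a := (inv_le_one₀ (zero_lt_iff.mpr hva0)).mp h2
    exact le_antisymm h1 h3
  have hcv : V.valuation (algebraMap S F c) = 1 := by
    rw [← hrc, map_mul, hr1, hav, one_mul]
  have hc0 : algebraMap S F c ≠ 0 := by
    intro h0
    rw [h0, map_zero] at hcv
    exact zero_ne_one hcv
  refine ⟨algebraMap R F₁ c₁ / algebraMap R F₁ r, ⟨c₁, r, hr, ?_⟩, ?_⟩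
  · field_simp
  · unfold NgC
    have key : φ (algebraMap R F₁ c₁ / algebraMap R F₁ r) / a - 1 =
        -(algebraMap S F c - φ (algebraMap R F₁ c₁)) / algebraMap S F c := by
      rw [map_div₀, ← hrc]
      field_simp
      ring
    rw [key, ValuationSubring.mem_nonunits_iff, map_div₀, hcv, div_one, Valuation.map_neg]
    exact (ValuationSubring.mem_nonunits_iff V).mp hc₁

end Surj

section Package

variable [Algebra.IsIntegral R S] (φ : F₁ →+* F)
  (hφ : ∀ r : R, φ (algebraMap R F₁ r) = algebraMap S F (algebraMap R S r))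
  (𝔫 : Ideal S) [𝔫.IsPrime]
  (huniq : ∀ 𝔫₂ : Ideal S, 𝔫₂.IsPrime →
    𝔫₂.comap (algebraMap R S) = 𝔫.comap (algebraMap R S) → 𝔫₂ = 𝔫)

include hφ huniq in
/-- **The local package `NgLoc` at a triple point.**  Inputs: `S` integral over `R`, `R`
integrally closed in `F₁` (`hR`), `𝔫` the only prime of `S` over `𝔫 ∩ R` (G-inc), the norm
`N` (`hNφ`, `hNS`), `V₁`, `V₂` two components through `𝔫` (`hSV`, `hthr`) with global residue
surjectivity on the charts (`hGS`: `S = φ R + 𝔭_V`), `ζ₁ ∈ R`. -/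
theorem s36ngl_ngLoc (hR : ∀ z : F₁, IsIntegral R z → ∃ r : R, algebraMap R F₁ r = z)
    (N : F →* F₁) {n : ℕ} (hNφ : ∀ x : F₁, N (φ x) = x ^ n)
    (hNS : ∀ s : S, ∃ r : R, N (algebraMap S F s) = algebraMap R F₁ r)
    (V₁ V₂ : ValuationSubring F)
    (hSV₁ : ∀ s : S, algebraMap S F s ∈ V₁) (hSV₂ : ∀ s : S, algebraMap S F s ∈ V₂)
    (hthr₁ : ∀ s : S, algebraMap S F s ∈ V₁.nonunits → s ∈ 𝔫)
    (hthr₂ : ∀ s : S, algebraMap S F s ∈ V₂.nonunits → s ∈ 𝔫)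
    (hGS₁ : ∀ s : S, ∃ r : R, algebraMap S F s - φ (algebraMap R F₁ r) ∈ V₁.nonunits)
    (hGS₂ : ∀ s : S, ∃ r : R, algebraMap S F s - φ (algebraMap R F₁ r) ∈ V₂.nonunits)
    {m : ℕ} (hm : 0 < m) {ζ₁ : F₁} (hζ : ∃ r : R, algebraMap R F₁ r = ζ₁) :
    NgLoc φ N V₁ V₂ m ζ₁ (ls_localSubring (F := F) 𝔫)
      (ls_localSubring (F := F₁) (𝔫.comap (algebraMap R S))) where
  map := fun _ hz => s36ngl_map φ hφ 𝔫 hz
  norm := fun _ he _ => s36ngl_norm φ hφ 𝔫 huniq N hNφ hNS he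
  root := fun _ hz => s36ngl_root (𝔫.comap (algebraMap R S)) hR hm hz
  zeta := by
    obtain ⟨r, hr⟩ := hζ
    rw [← hr]
    exact ls_algebraMap_mem _ r
  surj₁ := fun _ ha0 ha ha' => s36ngl_surj φ hφ 𝔫 huniq V₁ hSV₁ hthr₁ hGS₁ ha0 ha ha'
  surj₂ := fun _ ha0 ha ha' => s36ngl_surj φ hφ 𝔫 huniq V₂ hSV₂ hthr₂ hGS₂ ha0 ha ha'

end Package

end Fermat.Agent.S36


end ZBS36_031_2

/-! ### bundled: `Fermat.Agent.S36.NgLocVal` -/
section ZBS36_031_3

/-!
# S36 / (I6)(c) (helper19): `NgLoc` at a triple point from VALUATION data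

Setting of `S36/NgLocAbs.lean`: charts `R ⊆ F₁`, `S ⊆ F`, `S` integral over `R` along
`φ : F₁ →+* F`.  The uniqueness hypothesis `huniq` of `s36ngl_ngLoc` (`𝔫` is the only prime of
`S` over `𝔫 ∩ R`) is derived from the THIRD component `V₃` through `𝔫`
(`α`: `V₃ = V_b` over `W₃ = V′_0`; `β`: `V₃ = V_a` over `W₃ = V′_∞`):

* `s36nglCenter V hSV` : the centre `𝔭_V = 𝔪(V) ∩ S` of a valuation subring `V ⊇ S`, a prime;
* `s36ngl_unique_over` : if `V₃` is integral over `W₃` (EXT) and `W₃` is the localisation of `R`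
  at its centre (`hWloc`), then `𝔭_{V₃}` is the ONLY prime of `S` over `𝔭_{V₃} ∩ R`;
* `s36ngl_insep` : `S / 𝔭_{V₃}` is purely inseparable over `R / (𝔭_{V₃} ∩ R)`, from the
  norm–residue formula `NgDir.insep`;
* `s36ngl_huniq` : `huniq` at every prime `𝔫 ⊇ 𝔭_{V₃}`;
* `s36ngl_ngLoc_val` : the package `NgLoc`.
-/

set_option autoImplicit false
set_option linter.unusedSectionVars false
set_option linter.style.haveILetI false

namespace Fermat.Agent.S36

open Fermat.Agent.UNIP Polynomial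

variable {R S F₁ F : Type*} [CommRing R] [CommRing S] [Field F₁] [Field F]
  [Algebra R S] [Algebra R F₁] [Algebra S F]

section Center

variable (V : ValuationSubring F) (hSV : ∀ s : S, algebraMap S F s ∈ V)

/-- the centre on the chart `S` of a valuation subring `V ⊇ S` -/
def s36nglCenter : Ideal S where
  carrier := {s | algebraMap S F s ∈ V.nonunits}
  add_mem' := by
    intro a b ha hb
    simp only [Set.mem_ofPred_eq] at ha hb ⊢
    rw [map_add, ValuationSubring.mem_nonunits_iff]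
    rw [ValuationSubring.mem_nonunits_iff] at ha hb
    exact Valuation.map_add_lt _ ha hb
  zero_mem' := by
    simp only [Set.mem_ofPred_eq]
    rw [map_zero, ValuationSubring.mem_nonunits_iff, map_zero]
    exact zero_lt_one
  smul_mem' := by
    intro c x hx
    simp only [Set.mem_ofPred_eq, smul_eq_mul] at hx ⊢
    rw [map_mul, ValuationSubring.mem_nonunits_iff, map_mul]
    rw [ValuationSubring.mem_nonunits_iff] at hx
    have hc : V.valuation (algebraMap S F c) ≤ 1 :=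
      (ValuationSubring.valuation_le_one_iff V _).mpr (hSV c)
    calc V.valuation (algebraMap S F c) * V.valuation (algebraMap S F x)
        ≤ 1 * V.valuation (algebraMap S F x) := mul_le_mul_left hc _
      _ = V.valuation (algebraMap S F x) := one_mul _
      _ < 1 := hx

theorem mem_s36nglCenter {s : S} :
    s ∈ s36nglCenter V hSV ↔ algebraMap S F s ∈ V.nonunits := Iff.rfl

instance s36nglCenter_isPrime : (s36nglCenter V hSV).IsPrime := by
  refine ⟨?_, ?_⟩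
  · intro h
    have h1 : (1 : S) ∈ s36nglCenter V hSV := by rw [h]; trivial
    rw [mem_s36nglCenter, map_one, ValuationSubring.mem_nonunits_iff, map_one] at h1
    exact lt_irrefl _ h1
  · intro a b hab
    rw [mem_s36nglCenter, map_mul, ValuationSubring.mem_nonunits_iff, map_mul] at hab
    by_contra hcon
    rw [not_or] at hcon
    obtain ⟨ha, hb⟩ := hcon
    rw [mem_s36nglCenter, ValuationSubring.mem_nonunits_iff, not_lt] at ha hb
    have ha1 : V.valuation (algebraMap S F a) = 1 :=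
      le_antisymm ((ValuationSubring.valuation_le_one_iff V _).mpr (hSV a)) ha
    have hb1 : V.valuation (algebraMap S F b) = 1 :=
      le_antisymm ((ValuationSubring.valuation_le_one_iff V _).mpr (hSV b)) hb
    rw [ha1, hb1, one_mul] at hab
    exact lt_irrefl _ hab

end Center

section Eval

/-- evaluation of a polynomial with coefficients in a subring -/
theorem s36ngl_eval₂_mem (φ : F₁ →+* F) (T : Subring F) (g : F₁[X])
    (hg : ∀ k, φ (g.coeff k) ∈ T) {a : F} (ha : a ∈ T) : g.eval₂ φ a ∈ T := by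
  rw [Polynomial.eval₂_eq_sum_range]
  exact T.sum_mem fun k _ => T.mul_mem (hg k) (T.pow_mem ha k)

end Eval

section Unique

variable [Algebra.IsIntegral R S] (φ : F₁ →+* F)
  (hφ : ∀ r : R, φ (algebraMap R F₁ r) = algebraMap S F (algebraMap R S r))
  (hinjS : Function.Injective (algebraMap S F))
  (W : ValuationSubring F₁) (V : ValuationSubring F)
  (hSV : ∀ s : S, algebraMap S F s ∈ V)
  (hcomap : ∀ z : F₁, φ z ∈ V.nonunits → z ∈ W.nonunits)
  (hEXT : ∀ x ∈ V, ∃ p : F₁[X], p.Monic ∧ (∀ k, p.coeff k ∈ W) ∧ p.eval₂ φ x = 0)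
  (hWloc : ∀ y ∈ W, ∃ b s : R, algebraMap R F₁ s ∉ W.nonunits ∧
    algebraMap R F₁ s * y = algebraMap R F₁ b)

include hφ hinjS hcomap hEXT hWloc in
/-- a prime `Q` of `S` whose contraction is `𝔭_V ∩ R` is contained in `𝔭_V` -/
theorem s36ngl_le_center (Q : Ideal S) [Q.IsPrime]
    (hQ : Q.comap (algebraMap R S) = (s36nglCenter V hSV).comap (algebraMap R S)) :
    Q ≤ s36nglCenter V hSV := by
  intro x hx
  rw [mem_s36nglCenter]
  by_contra hcon
  set a := algebraMap S F x with ha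
  have hav : V.valuation a = 1 := by
    rw [ValuationSubring.mem_nonunits_iff, not_lt] at hcon
    exact le_antisymm ((ValuationSubring.valuation_le_one_iff V _).mpr (hSV x)) hcon
  have ha0 : a ≠ 0 := by
    intro h0
    rw [h0, map_zero] at hav
    exact zero_ne_one hav
  have hainv : a⁻¹ ∈ V := by
    rw [← ValuationSubring.valuation_le_one_iff, map_inv₀, hav, inv_one]
  obtain ⟨p, hp, hpc, hpx⟩ := hEXT _ hainv
  -- the reversed polynomial vanishes at `a`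
  have hrev : p.reverse.eval₂ φ a = 0 := by
    letI : Invertible (a⁻¹) := invertibleOfNonzero (inv_ne_zero ha0)
    have h1 := (Polynomial.eval₂_reverse_eq_zero_iff φ (a⁻¹) p).mpr hpx
    rwa [invOf_eq_inv, inv_inv] at h1
  -- `reverse p = divX (reverse p) * X + 1`
  have hdec : p.reverse.divX.eval₂ φ a * a + 1 = 0 := by
    have h1 := Polynomial.divX_mul_X_add p.reverse
    rw [Polynomial.coeff_zero_reverse, hp.leadingCoeff] at h1
    rw [← h1, Polynomial.eval₂_add, Polynomial.eval₂_mul, Polynomial.eval₂_X,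
      Polynomial.eval₂_C, map_one] at hrev
    exact hrev
  -- the value `e` lies in the local ring `S_Q`
  have he : p.reverse.divX.eval₂ φ a ∈ ls_localSubring (F := F) Q := by
    refine s36ngl_eval₂_mem φ _ _ (fun k => ?_) (ls_algebraMap_mem Q x)
    rw [Polynomial.coeff_divX, Polynomial.coeff_reverse]
    obtain ⟨b, s, hs, hsb⟩ := hWloc _ (hpc (Polynomial.revAt p.natDegree (k + 1)))
    refine ⟨algebraMap R S b, algebraMap R S s, ?_, ?_⟩
    · intro hsQ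
      have h1 : s ∈ Q.comap (algebraMap R S) := hsQ
      rw [hQ, Ideal.mem_comap, mem_s36nglCenter, ← hφ] at h1
      exact hs (hcomap _ h1)
    · rw [← hφ, ← hφ, ← map_mul, hsb]
  obtain ⟨b, s, hs, hsb⟩ := he
  -- `x b = - s` in `S`
  have hkey : x * b = -s := by
    apply hinjS
    rw [map_mul, map_neg, ← hsb]
    have h2 : p.reverse.divX.eval₂ φ a * a = -1 := eq_neg_of_add_eq_zero_left hdec
    calc a * (algebraMap S F s * p.reverse.divX.eval₂ φ a)
        = algebraMap S F s * (p.reverse.divX.eval₂ φ a * a) := by ring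
      _ = -algebraMap S F s := by rw [h2]; ring
  apply hs
  have h3 : -s ∈ Q := by
    rw [← hkey]
    exact Q.mul_mem_right _ hx
  simpa using Q.neg_mem h3

include hφ hinjS hcomap hEXT hWloc in
/-- **`𝔭_V` is the only prime of `S` over `𝔭_V ∩ R`**, if `V` is integral over `W` (EXT) and
`W = R_{𝔭_W}`. -/
theorem s36ngl_unique_over (Q : Ideal S) [Q.IsPrime]
    (hQ : Q.comap (algebraMap R S) = (s36nglCenter V hSV).comap (algebraMap R S)) :
    Q = s36nglCenter V hSV := by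
  have hle := s36ngl_le_center φ hφ hinjS W V hSV hcomap hEXT hWloc Q hQ
  by_contra hne
  have hlt : Q < s36nglCenter V hSV := lt_of_le_of_ne hle hne
  have h1 := Ideal.IsIntegral.comap_lt_comap (R := R) hlt
  rw [hQ] at h1
  exact lt_irrefl _ h1

end Unique

section Insep

variable (φ : F₁ →+* F)
  (hφ : ∀ r : R, φ (algebraMap R F₁ r) = algebraMap S F (algebraMap R S r))
  (N : F →* F₁) (V : ValuationSubring F) (hSV : ∀ s : S, algebraMap S F s ∈ V)
  (hNS : ∀ s : S, ∃ r : R, N (algebraMap S F s) = algebraMap R F₁ r)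

include hφ hNS in
/-- **`S / 𝔭_V` is purely inseparable over `R`**, from the norm–residue formula
`x ^ Q ≡ φ (N x)` at `V`. -/
theorem s36ngl_insep {Q : ℕ} (hQ : 0 < Q)
    (hinsep : ∀ x, V.valuation x = 1 → NgC V (φ (N x)) (x ^ Q)) (x : S) :
    ∃ r : R, x ^ Q - algebraMap R S r ∈ s36nglCenter V hSV := by
  by_cases hx : V.valuation (algebraMap S F x) = 1
  · obtain ⟨r, hr⟩ := hNS x
    refine ⟨r, ?_⟩
    rw [mem_s36nglCenter, map_sub, map_pow, ← hφ, ← hr]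
    have h1 := hinsep _ hx
    unfold NgC at h1
    have hx0 : algebraMap S F x ≠ 0 := by
      intro h0
      rw [h0, map_zero] at hx
      exact zero_ne_one hx
    have h2 : algebraMap S F x ^ Q - φ (N (algebraMap S F x)) =
        -(algebraMap S F x ^ Q) * (φ (N (algebraMap S F x)) / algebraMap S F x ^ Q - 1) := by
      field_simp
      ring
    rw [h2, ValuationSubring.mem_nonunits_iff, map_mul, Valuation.map_neg, map_pow, hx, one_pow,
      one_mul]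
    exact (ValuationSubring.mem_nonunits_iff V).mp h1
  · refine ⟨0, ?_⟩
    rw [map_zero, sub_zero]
    have hx1 : x ∈ s36nglCenter V hSV := by
      rw [mem_s36nglCenter, ValuationSubring.mem_nonunits_iff]
      exact lt_of_le_of_ne ((ValuationSubring.valuation_le_one_iff V _).mpr (hSV x)) hx
    exact Ideal.pow_mem_of_mem _ hx1 Q hQ

end Insep

section Package

variable [IsDomain S] [FaithfulSMul R S] [Algebra.IsIntegral R S] [IsIntegrallyClosed R]
  (φ : F₁ →+* F)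
  (hφ : ∀ r : R, φ (algebraMap R F₁ r) = algebraMap S F (algebraMap R S r))
  (hinjS : Function.Injective (algebraMap S F))
  (N : F →* F₁) (hNS : ∀ s : S, ∃ r : R, N (algebraMap S F s) = algebraMap R F₁ r)
  (W₃ : ValuationSubring F₁) (V₃ : ValuationSubring F)
  (hSV₃ : ∀ s : S, algebraMap S F s ∈ V₃)
  (hcomap₃ : ∀ z : F₁, φ z ∈ V₃.nonunits → z ∈ W₃.nonunits)
  (hEXT₃ : ∀ x ∈ V₃, ∃ p : F₁[X], p.Monic ∧ (∀ k, p.coeff k ∈ W₃) ∧ p.eval₂ φ x = 0)
  (hWloc₃ : ∀ y ∈ W₃, ∃ b s : R, algebraMap R F₁ s ∉ W₃.nonunits ∧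
    algebraMap R F₁ s * y = algebraMap R F₁ b)

include hφ hinjS hNS hSV₃ hcomap₃ hEXT₃ hWloc₃ in
/-- **`huniq`**: a prime `𝔫` of `S` through the third component `V₃` is the only prime of `S`
over `𝔫 ∩ R`. -/
theorem s36ngl_huniq {Q : ℕ} (hQ : 0 < Q)
    (hinsep : ∀ x, V₃.valuation x = 1 → NgC V₃ (φ (N x)) (x ^ Q))
    (𝔫 : Ideal S) [𝔫.IsPrime]
    (hthr₃ : ∀ s : S, algebraMap S F s ∈ V₃.nonunits → s ∈ 𝔫)
    (𝔫₂ : Ideal S) (h₂ : 𝔫₂.IsPrime)
    (e : 𝔫₂.comap (algebraMap R S) = 𝔫.comap (algebraMap R S)) : 𝔫₂ = 𝔫 := by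
  haveI := h₂
  have hPa : ∀ Q' : Ideal S, Q'.IsPrime →
      Q'.comap (algebraMap R S) = (s36nglCenter V₃ hSV₃).comap (algebraMap R S) →
      Q' = s36nglCenter V₃ hSV₃ := fun Q' hQ' hc =>
    haveI := hQ'
    s36ngl_unique_over φ hφ hinjS W₃ V₃ hSV₃ hcomap₃ hEXT₃ hWloc₃ Q' hc
  have hins := s36ngl_insep φ hφ N V₃ hSV₃ hNS hQ hinsep
  have h1 : s36nglCenter V₃ hSV₃ ≤ 𝔫 := fun s hs => hthr₃ s hs
  have h2 : s36nglCenter V₃ hSV₃ ≤ 𝔫₂ :=
    s36inc_le_of_unique ((s36nglCenter V₃ hSV₃).comap (algebraMap R S)) _ hPa 𝔫₂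
      (e ▸ Ideal.comap_mono h1)
  exact s36inc_eq_of_insep (s36nglCenter V₃ hSV₃) hQ hins h2 h1 e

include hφ hinjS hNS hSV₃ hcomap₃ hEXT₃ hWloc₃ in
/-- **The local package `NgLoc` at a triple point, from valuation data.**
`V₁`, `V₂` the two components over the same component of the lower level, `V₃` the third
component (over `W₃`). -/
theorem s36ngl_ngLoc_val {Q : ℕ} (hQ : 0 < Q)
    (hinsep : ∀ x, V₃.valuation x = 1 → NgC V₃ (φ (N x)) (x ^ Q))
    (𝔫 : Ideal S) [𝔫.IsPrime]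
    (hthr₃ : ∀ s : S, algebraMap S F s ∈ V₃.nonunits → s ∈ 𝔫)
    (hR : ∀ z : F₁, IsIntegral R z → ∃ r : R, algebraMap R F₁ r = z)
    {n : ℕ} (hNφ : ∀ x : F₁, N (φ x) = x ^ n)
    (V₁ V₂ : ValuationSubring F)
    (hSV₁ : ∀ s : S, algebraMap S F s ∈ V₁) (hSV₂ : ∀ s : S, algebraMap S F s ∈ V₂)
    (hthr₁ : ∀ s : S, algebraMap S F s ∈ V₁.nonunits → s ∈ 𝔫)
    (hthr₂ : ∀ s : S, algebraMap S F s ∈ V₂.nonunits → s ∈ 𝔫)
    (hGS₁ : ∀ s : S, ∃ r : R, algebraMap S F s - φ (algebraMap R F₁ r) ∈ V₁.nonunits)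
    (hGS₂ : ∀ s : S, ∃ r : R, algebraMap S F s - φ (algebraMap R F₁ r) ∈ V₂.nonunits)
    {m : ℕ} (hm : 0 < m) {ζ₁ : F₁} (hζ : ∃ r : R, algebraMap R F₁ r = ζ₁) :
    NgLoc φ N V₁ V₂ m ζ₁ (ls_localSubring (F := F) 𝔫)
      (ls_localSubring (F := F₁) (𝔫.comap (algebraMap R S))) :=
  s36ngl_ngLoc φ hφ 𝔫
    (s36ngl_huniq φ hφ hinjS N hNS W₃ V₃ hSV₃ hcomap₃ hEXT₃ hWloc₃ hQ hinsep 𝔫 hthr₃)
    hR N hNφ hNS V₁ V₂ hSV₁ hSV₂ hthr₁ hthr₂ hGS₁ hGS₂ hm hζ

end Package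

end Fermat.Agent.S36


end ZBS36_031_3

/-! ### bundled: `Fermat.Agent.S36.NgLocChart` -/
section ZBS36_031_4

/-!
# S36 / (I6)(c) (helper19): `NgLoc` at a triple point, chart form

`Rs ⊆ F₁`, `Ss ⊆ F` two subalgebras (the charts `B′ = zchClosure {t′}`, `B = zchClosure {t}`),
`φ : F₁ →+* F` with `φ Rs ⊆ Ss` and `Ss` integral over `φ Rs`.

* `s36nglHom` : the chart homomorphism `Rs →+* Ss`;
* `s36ngl_chart` : the package `∃ O', NgLoc φ N V₁ V₂ m ζ₁ (ls_localSubring 𝔫) O'` at a prime `𝔫`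
  of `Ss` through the three components `V₁`, `V₂`, `V₃`, with all hypotheses stated on elements
  of the fields (= the shapes of N2-val, N2-ext, N2-ker, N2-loc, G-nr);
* `s36ngl_norm_mem` : the norm of an element integral over `Rs` (along `φ`) lies in `Rs`.
-/

set_option autoImplicit false
set_option linter.unusedSectionVars false
set_option linter.style.haveILetI false

namespace Fermat.Agent.S36

open Fermat.Agent.UNIP Polynomial

section Chart

variable {A₀ F₁ F : Type*} [CommRing A₀] [Field F₁] [Field F] [Algebra A₀ F₁] [Algebra A₀ F]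
  (Rs : Subalgebra A₀ F₁) (Ss : Subalgebra A₀ F) (φ : F₁ →+* F)
  (hφR : ∀ r ∈ Rs, φ r ∈ Ss)

/-- the chart homomorphism `Rs → Ss` induced by `φ` -/
def s36nglHom : ↥Rs →+* ↥Ss :=
  (φ.comp Rs.val.toRingHom).codRestrict Ss (fun r => hφR r r.2)

theorem s36nglHom_coe (r : Rs) : ((s36nglHom Rs Ss φ hφR r : Ss) : F) = φ (r : F₁) := rfl

theorem s36nglHom_injective : Function.Injective (s36nglHom Rs Ss φ hφR) := by
  intro a b hab
  have h1 : φ (a : F₁) = φ (b : F₁) := congrArg Subtype.val hab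
  exact Subtype.ext (φ.injective h1)

/-- integrality of the chart `Ss` over `Rs` -/
theorem s36ngl_isIntegral
    (hSint : ∀ s ∈ Ss, (φ.comp Rs.val.toRingHom).IsIntegralElem s) (s : Ss) :
    (s36nglHom Rs Ss φ hφR).IsIntegralElem s := by
  obtain ⟨p, hp, hps⟩ := hSint s s.2
  refine ⟨p, hp, ?_⟩
  apply Subtype.val_injective
  have h1 : (Ss.val.toRingHom) (p.eval₂ (s36nglHom Rs Ss φ hφR) s) =
      p.eval₂ (Ss.val.toRingHom.comp (s36nglHom Rs Ss φ hφR)) (Ss.val.toRingHom s) :=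
    Polynomial.hom_eval₂ p (s36nglHom Rs Ss φ hφR) Ss.val.toRingHom s
  have h2 : Ss.val.toRingHom.comp (s36nglHom Rs Ss φ hφR) = φ.comp Rs.val.toRingHom := rfl
  rw [h2] at h1
  show (Ss.val.toRingHom) (p.eval₂ (s36nglHom Rs Ss φ hφR) s) = _
  rw [h1]
  exact hps

include hφR in
set_option maxHeartbeats 1000000 in
set_option synthInstance.maxHeartbeats 200000 in
/-- **`NgLoc` at a triple point, chart form.** -/
theorem s36ngl_chart [IsIntegrallyClosed Rs]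
    (hSint : ∀ s ∈ Ss, (φ.comp Rs.val.toRingHom).IsIntegralElem s)
    (hRcl : ∀ z : F₁, IsIntegral Rs z → z ∈ Rs)
    (N : F →* F₁) (hNS : ∀ s ∈ Ss, N s ∈ Rs) {n : ℕ} (hNφ : ∀ x : F₁, N (φ x) = x ^ n)
    (W₃ : ValuationSubring F₁) (V₁ V₂ V₃ : ValuationSubring F)
    (hSV₁ : ∀ s ∈ Ss, s ∈ V₁) (hSV₂ : ∀ s ∈ Ss, s ∈ V₂) (hSV₃ : ∀ s ∈ Ss, s ∈ V₃)
    (hcomap₃ : ∀ z : F₁, φ z ∈ V₃.nonunits → z ∈ W₃.nonunits)
    (hEXT₃ : ∀ x ∈ V₃, ∃ p : F₁[X], p.Monic ∧ (∀ k, p.coeff k ∈ W₃) ∧ p.eval₂ φ x = 0)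
    (hWloc₃ : ∀ y ∈ W₃, ∃ b s : F₁, b ∈ Rs ∧ s ∈ Rs ∧ s ∉ W₃.nonunits ∧ s * y = b)
    {Q : ℕ} (hQ : 0 < Q) (hinsep : ∀ x, V₃.valuation x = 1 → NgC V₃ (φ (N x)) (x ^ Q))
    (hGS₁ : ∀ s ∈ Ss, ∃ r ∈ Rs, s - φ r ∈ V₁.nonunits)
    (hGS₂ : ∀ s ∈ Ss, ∃ r ∈ Rs, s - φ r ∈ V₂.nonunits)
    (𝔫 : Ideal Ss) [𝔫.IsPrime]
    (hthr₁ : ∀ b : Ss, (b : F) ∈ V₁.nonunits → b ∈ 𝔫)
    (hthr₂ : ∀ b : Ss, (b : F) ∈ V₂.nonunits → b ∈ 𝔫)
    (hthr₃ : ∀ b : Ss, (b : F) ∈ V₃.nonunits → b ∈ 𝔫)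
    {m : ℕ} (hm : 0 < m) {ζ₁ : F₁} (hζ : ζ₁ ∈ Rs) :
    ∃ O' : Subring F₁, NgLoc φ N V₁ V₂ m ζ₁ (ls_localSubring (F := F) 𝔫) O' := by
  letI : Algebra Rs Ss := (s36nglHom Rs Ss φ hφR).toAlgebra
  have hφ : ∀ r : Rs, φ (algebraMap Rs F₁ r) = algebraMap Ss F (algebraMap Rs Ss r) :=
    fun _ => rfl
  haveI : FaithfulSMul Rs Ss :=
    (faithfulSMul_iff_algebraMap_injective _ _).mpr (s36nglHom_injective Rs Ss φ hφR)
  haveI : Algebra.IsIntegral Rs Ss := ⟨fun s => s36ngl_isIntegral Rs Ss φ hφR hSint s⟩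
  refine ⟨ls_localSubring (F := F₁) (𝔫.comap (algebraMap Rs Ss)), ?_⟩
  exact s36ngl_ngLoc_val φ hφ Subtype.val_injective N (fun s => ⟨⟨N s, hNS s s.2⟩, rfl⟩)
    W₃ V₃ (fun s => hSV₃ s s.2) hcomap₃ hEXT₃
    (fun y hy => by
      obtain ⟨b, s, hb, hs, hsW, hsy⟩ := hWloc₃ y hy
      exact ⟨⟨b, hb⟩, ⟨s, hs⟩, hsW, hsy⟩)
    hQ hinsep 𝔫 hthr₃
    (fun z hz => ⟨⟨z, hRcl z hz⟩, rfl⟩) hNφ V₁ V₂ (fun s => hSV₁ s s.2) (fun s => hSV₂ s s.2)
    hthr₁ hthr₂
    (fun s => by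
      obtain ⟨r, hr, h⟩ := hGS₁ s s.2
      exact ⟨⟨r, hr⟩, h⟩)
    (fun s => by
      obtain ⟨r, hr, h⟩ := hGS₂ s s.2
      exact ⟨⟨r, hr⟩, h⟩)
    hm ⟨⟨ζ₁, hζ⟩, rfl⟩

include hφR in
set_option maxHeartbeats 1000000 in
set_option synthInstance.maxHeartbeats 200000 in
/-- **`huniq`, chart form**: a prime `𝔫` of `Ss` through the third component `V₃` is the only
prime of `Ss` over its contraction along the chart map. -/
theorem s36ngl_chart_huniq [IsIntegrallyClosed Rs]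
    (hSint : ∀ s ∈ Ss, (φ.comp Rs.val.toRingHom).IsIntegralElem s)
    (N : F →* F₁) (hNS : ∀ s ∈ Ss, N s ∈ Rs)
    (W₃ : ValuationSubring F₁) (V₃ : ValuationSubring F)
    (hSV₃ : ∀ s ∈ Ss, s ∈ V₃)
    (hcomap₃ : ∀ z : F₁, φ z ∈ V₃.nonunits → z ∈ W₃.nonunits)
    (hEXT₃ : ∀ x ∈ V₃, ∃ p : F₁[X], p.Monic ∧ (∀ k, p.coeff k ∈ W₃) ∧ p.eval₂ φ x = 0)
    (hWloc₃ : ∀ y ∈ W₃, ∃ b s : F₁, b ∈ Rs ∧ s ∈ Rs ∧ s ∉ W₃.nonunits ∧ s * y = b)
    {Q : ℕ} (hQ : 0 < Q) (hinsep : ∀ x, V₃.valuation x = 1 → NgC V₃ (φ (N x)) (x ^ Q))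
    (𝔫 : Ideal Ss) [𝔫.IsPrime]
    (hthr₃ : ∀ b : Ss, (b : F) ∈ V₃.nonunits → b ∈ 𝔫)
    (𝔫₂ : Ideal Ss) (h₂ : 𝔫₂.IsPrime)
    (e : 𝔫₂.comap (s36nglHom Rs Ss φ hφR) = 𝔫.comap (s36nglHom Rs Ss φ hφR)) : 𝔫₂ = 𝔫 := by
  letI : Algebra Rs Ss := (s36nglHom Rs Ss φ hφR).toAlgebra
  have hφ : ∀ r : Rs, φ (algebraMap Rs F₁ r) = algebraMap Ss F (algebraMap Rs Ss r) :=
    fun _ => rfl
  haveI : FaithfulSMul Rs Ss :=
    (faithfulSMul_iff_algebraMap_injective _ _).mpr (s36nglHom_injective Rs Ss φ hφR)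
  haveI : Algebra.IsIntegral Rs Ss := ⟨fun s => s36ngl_isIntegral Rs Ss φ hφR hSint s⟩
  exact s36ngl_huniq φ hφ Subtype.val_injective N (fun s => ⟨⟨N s, hNS s s.2⟩, rfl⟩)
    W₃ V₃ (fun s => hSV₃ s s.2) hcomap₃ hEXT₃
    (fun y hy => by
      obtain ⟨b, s, hb, hs, hsW, hsy⟩ := hWloc₃ y hy
      exact ⟨⟨b, hb⟩, ⟨s, hs⟩, hsW, hsy⟩)
    hQ hinsep 𝔫 hthr₃ 𝔫₂ h₂ e

end Chart

section Norm

variable {A₀ F₁ F : Type*} [CommRing A₀] [Field F₁] [Field F] [Algebra A₀ F₁]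
  (Rs : Subalgebra A₀ F₁) (φ : F₁ →+* F)

/-- the norm of an element integral over `Rs` along `φ` is integral over `Rs` -/
theorem s36ngl_norm_isIntegral {s : F} (hs : (φ.comp Rs.val.toRingHom).IsIntegralElem s) :
    letI : Algebra F₁ F := φ.toAlgebra
    IsIntegral Rs (Algebra.norm F₁ s) := by
  letI : Algebra F₁ F := φ.toAlgebra
  letI : Algebra Rs F := (φ.comp Rs.val.toRingHom).toAlgebra
  have h1 : IsIntegral Rs s := hs
  exact @Algebra.isIntegral_norm Rs _ F F₁ _ _ _ _ _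
    (IsScalarTower.of_algebraMap_eq (fun _ => rfl)) s h1

end Norm

end Fermat.Agent.S36


end ZBS36_031_4
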