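/- GENERATED FILE (helper35, build-time optimisation, NOTES/ZB.md): verbatim concatenation of the modules
   Fermat.Agent.S36.N2Ker
   Fermat.Agent.S36.N2KerM
   Fermat.Agent.S36.N2KerB2
   Fermat.Agent.S36.NgLocZch
   Do not edit; do not import together with these modules. -/
import Mathlib
import Fermat.Agent.ZB.S34_001
import Fermat.Agent.ZB.UNIP_014
import Fermat.Agent.ZB.UNIP_029
import Fermat.Agent.ZB.STB_003
import Fermat.Agent.ZB.STB_004
import Fermat.Agent.ZB.S36_031
import Fermat.Agent.ZB.UNIP_012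
import Fermat.Agent.ZB.UNIP_019
import Fermat.Agent.ZB.UNIP_007
import Fermat.Agent.ZB.STB_001

/-! ### bundled: `Fermat.Agent.S36.N2Ker` -/
section ZBS36_027_0

/-!
# S36 / N2-ker, abstract part (Mathlib only; helper99)

Setting: `F/F′` algebraic (upper level `M q²` over the lower level `M q`), a chart ring `R → F′`
(`R = A₀[t′]`), `π ∈ R`; `W i` valuation subrings of `F′` (`V′_∞`, `V′_0`), `V c` valuation
subrings of `F` (`V_a`, `V_b`, `V_c`).

## (K1) the KRULL property (KR) at the upper level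
* `s36n2k_KR`  (instance-free, `RingHom.IsIntegralElem`):
    (KR′) `π y` integral over `R`, `y ∈ ⋂ W i` ⇒ `y` integral over `R`          (lower level)
    (EXT) `x ∈ ⋂ V c` ⇒ for every `i`, `x` is a root of a monic polynomial over `W i` (N2-ext)
  ⇒ (KR) `π x` integral over `R`, `x ∈ ⋂ V c` ⇒ `x` integral over `R`.
* `s36n2k_hKR` : the same in the shape consumed by `aq_pow_of_shape` (`hKR`, chart `t = α t′`),
  from the valuation form `hSS1` of (SS1) at the lower level.
* bridges: `s36n2k_isIntegralElem_surj`, `s36n2k_isIntegral_adjoin_iff`, `s36n2k_KR'_of_SS1`.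

## (K2) `B / 𝔭_• ≅ C / π`
* `s36n2k_frac` : `V″ = C_(π)` (every element of `V″` is `a / b`, `b` a unit of `V″`);
* `s36n2k_surj` : if the residue field of `V` is that of `V″` (`hF`: N2-ext (F) composed with
  (B2) of level `M q`) and `C / π` is a normal domain, then every `x ∈ V` integral over `C` is
  congruent modulo `𝔪(V)` to an element of `C`.
-/

set_option autoImplicit false
set_option linter.style.haveILetI false

namespace Fermat.Agent.S36

open Polynomial

section KR

variable {R F' F : Type*} [CommRing R] [Field F'] [Field F]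

theorem s36n2k_coeff_mem_of_dvd (W : ValuationSubring F') {p g : F'[X]} (hp : p.Monic)
    (hpW : ∀ k, p.coeff k ∈ W) (hg : g.Monic) (hd : g ∣ p) (k : ℕ) : g.coeff k ∈ W := by
  have hlift : p ∈ Polynomial.lifts (algebraMap W F') := by
    rw [Polynomial.lifts_iff_coeff_lifts]
    intro n
    exact ⟨⟨p.coeff n, hpW n⟩, rfl⟩
  obtain ⟨p₀, hp₀, -, hp₀m⟩ := Polynomial.lifts_and_degree_eq_and_monic hlift hp
  obtain ⟨g', hg'⟩ := IsIntegrallyClosed.eq_map_mul_C_of_dvd (R := W) F' hp₀m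
    (g := g) (by rw [hp₀]; exact hd)
  rw [hg.leadingCoeff, map_one, mul_one] at hg'
  rw [← hg', Polynomial.coeff_map]
  exact (g'.coeff k).2

/-- Iteration of (KR′). -/
theorem s36n2k_iter {ι : Type*} (ι' : R →+* F') (π : R) (W : ι → ValuationSubring F')
    (hπW : ∀ i, ι' π ∈ W i)
    (hKR' : ∀ y : F', ι'.IsIntegralElem (ι' π * y) → (∀ i, y ∈ W i) → ι'.IsIntegralElem y)
    (j : ℕ) (y : F') (hy : ∀ i, y ∈ W i) (h : ι'.IsIntegralElem (ι' π ^ j * y)) :
    ι'.IsIntegralElem y := by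
  induction j with
  | zero => simpa using h
  | succ j ih =>
    refine ih (hKR' _ ?_ fun i => mul_mem (pow_mem (hπW i) j) (hy i))
    rwa [← mul_assoc, ← pow_succ']

/-- **(KR) at the upper level** from (KR′) at the lower level and (EXT). -/
theorem s36n2k_KR {ι κ : Type*} [Nonempty ι] (ι' : R →+* F') (α : F' →+* F) (π : R)
    (hπ : ι' π ≠ 0)
    (W : ι → ValuationSubring F') (V : κ → ValuationSubring F)
    (hπW : ∀ i, ι' π ∈ W i)
    (hKR' : ∀ y : F', ι'.IsIntegralElem (ι' π * y) → (∀ i, y ∈ W i) → ι'.IsIntegralElem y)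
    (hEXT : ∀ i (x : F), (∀ c, x ∈ V c) →
      ∃ p : F'[X], p.Monic ∧ (∀ k, p.coeff k ∈ W i) ∧ p.eval₂ α x = 0)
    (x : F) (hx : (α.comp ι').IsIntegralElem (α (ι' π) * x)) (hV : ∀ c, x ∈ V c) :
    (α.comp ι').IsIntegralElem x := by
  classical
  letI : Algebra F' F := α.toAlgebra
  letI : Algebra R F' := ι'.toAlgebra
  letI : Algebra R F := (α.comp ι').toAlgebra
  haveI : IsScalarTower R F' F := IsScalarTower.of_algebraMap_eq fun _ => rfl
  -- x is integral over F'
  have hxint : IsIntegral F' x := by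
    obtain ⟨p, hp, -, hpx⟩ := hEXT (Classical.arbitrary ι) x hV
    exact ⟨p, hp, hpx⟩
  set f := minpoly F' x with hf
  have hfm : f.Monic := minpoly.monic hxint
  -- coefficients of f in every W i
  have hfW : ∀ i k, f.coeff k ∈ W i := by
    intro i k
    obtain ⟨p, hp, hpW, hpx⟩ := hEXT i x hV
    exact s36n2k_coeff_mem_of_dvd (W i) hp hpW hfm (minpoly.dvd F' x hpx) k
  -- minimal polynomial of π x
  have hsm : minpoly F' (ι' π • x) = f.scaleRoots (ι' π) :=
    IsIntegrallyClosed.minpoly_smul hπ hxint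
  have hπx : ι' π • x = α (ι' π) * x := rfl
  obtain ⟨P, hPm, hPx⟩ := hx
  have hdvd : minpoly F' (ι' π • x) ∣ P.map (algebraMap R F') := by
    refine minpoly.dvd F' _ ?_
    rw [Polynomial.aeval_def, Polynomial.eval₂_map, hπx]
    exact hPx
  have hlift := integralClosure.mem_lifts_of_monic_of_dvd_map (K := F') hPm
    (minpoly.monic (hxint.smul (ι' π))) hdvd
  rw [Polynomial.lifts_iff_coeff_lifts] at hlift
  -- coefficients of f are integral over R
  have hfint : ∀ k, IsIntegral R (f.coeff k) := by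
    intro k
    refine s36n2k_iter ι' π W hπW hKR' (f.natDegree - k) (f.coeff k) (fun i => hfW i k) ?_
    obtain ⟨c, hc⟩ := hlift k
    rw [hsm, Polynomial.coeff_scaleRoots] at hc
    have hcint : IsIntegral R (algebraMap (integralClosure R F') F' c) := c.2
    rw [hc] at hcint
    rw [mul_comm]
    exact hcint
  -- f lifts to the integral closure, hence x is integral over it
  have hflift : f ∈ Polynomial.lifts (algebraMap (integralClosure R F') F') := by
    rw [Polynomial.lifts_iff_coeff_lifts]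
    intro k
    exact ⟨⟨f.coeff k, hfint k⟩, rfl⟩
  obtain ⟨f₀, hf₀, -, hf₀m⟩ := Polynomial.lifts_and_degree_eq_and_monic hflift hfm
  have hxS : IsIntegral (integralClosure R F') x := by
    refine ⟨f₀, hf₀m, ?_⟩
    have := minpoly.aeval F' x
    rw [← hf, ← hf₀, Polynomial.aeval_def, Polynomial.eval₂_map] at this
    exact this
  exact isIntegral_trans x hxS

end KR

section Surj

variable {C F'' F : Type*} [CommRing C] [Field F''] [Field F]

theorem s36n2k_mul_mem_nonunits (V : ValuationSubring F) {a b : F} (ha : a ∈ V)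
    (hb : b ∈ V.nonunits) : a * b ∈ V.nonunits := by
  have := (ValuationSubring.mem_nonunits_iff V).mp hb
  rw [ValuationSubring.mem_nonunits_iff, map_mul]
  exact mul_lt_one_of_nonneg_of_lt_one_right ((ValuationSubring.valuation_le_one_iff V a).mpr ha)
    zero_le this

theorem s36n2k_add_mem_nonunits (V : ValuationSubring F) {a b : F} (ha : a ∈ V.nonunits)
    (hb : b ∈ V.nonunits) : a + b ∈ V.nonunits := by
  rw [ValuationSubring.mem_nonunits_iff] at ha hb ⊢
  exact lt_of_le_of_lt (Valuation.map_add _ _ _) (max_lt ha hb)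

theorem s36n2k_neg_mem_nonunits (V : ValuationSubring F) {a : F} (ha : a ∈ V.nonunits) :
    -a ∈ V.nonunits := by
  rw [ValuationSubring.mem_nonunits_iff] at ha ⊢
  rwa [Valuation.map_neg]

theorem s36n2k_zero_mem_nonunits (V : ValuationSubring F) : (0 : F) ∈ V.nonunits := by
  rw [ValuationSubring.mem_nonunits_iff, map_zero]
  exact zero_lt_one

/-- Nonunits of a comap valuation subring. -/
theorem s36n2k_mem_nonunits_comap (ψ : F'' →+* F) (V : ValuationSubring F)
    (V'' : ValuationSubring F'') (hVV : ∀ y, y ∈ V'' ↔ ψ y ∈ V) (y : F'') :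
    y ∈ V''.nonunits ↔ ψ y ∈ V.nonunits := by
  rw [ValuationSubring.mem_nonunits_iff_or, ValuationSubring.mem_nonunits_iff_or, hVV, map_inv₀,
    map_eq_zero]

/-- Congruent elements of a valuation subring have congruent values of a polynomial. -/
theorem s36n2k_eval_sub_mem (V : ValuationSubring F) (g : C →+* F) (hg : ∀ c, g c ∈ V)
    {x y : F} (hx : x ∈ V) (hy : y ∈ V) (hxy : x - y ∈ V.nonunits) (p : C[X]) :
    p.eval₂ g x - p.eval₂ g y ∈ V.nonunits := by
  have hpow : ∀ n : ℕ, x ^ n - y ^ n ∈ V.nonunits := by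
    intro n
    induction n with
    | zero => simp [s36n2k_zero_mem_nonunits V]
    | succ n ih =>
      have : x ^ (n + 1) - y ^ (n + 1) = x ^ n * (x - y) + y * (x ^ n - y ^ n) := by ring
      rw [this]
      exact s36n2k_add_mem_nonunits V (s36n2k_mul_mem_nonunits V (pow_mem hx n) hxy)
        (s36n2k_mul_mem_nonunits V hy ih)
  induction p using Polynomial.induction_on' with
  | add p q hp hq =>
    rw [Polynomial.eval₂_add, Polynomial.eval₂_add]
    have : p.eval₂ g x + q.eval₂ g x - (p.eval₂ g y + q.eval₂ g y) =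
        (p.eval₂ g x - p.eval₂ g y) + (q.eval₂ g x - q.eval₂ g y) := by ring
    rw [this]
    exact s36n2k_add_mem_nonunits V hp hq
  | monomial n a =>
    rw [Polynomial.eval₂_monomial, Polynomial.eval₂_monomial, ← mul_sub]
    exact s36n2k_mul_mem_nonunits V (hg a) (hpow n)

/-- **(K2), abstract**: the image of the chart `B` in the residue field of `V` is the image of
the lower chart `C`, when the residue field of `V` is that of `V″ = C_(π)` and `C / π` is a
normal domain. -/
theorem s36n2k_surj (φ : C →+* F'') (ψ : F'' →+* F)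
    (V : ValuationSubring F) (V'' : ValuationSubring F'')
    (hVV : ∀ y, y ∈ V'' ↔ ψ y ∈ V) (hCV : ∀ c, φ c ∈ V'')
    (π : C) (hπ : φ π ∈ V''.nonunits) (hker : ∀ c, φ c ∈ V''.nonunits → π ∣ c)
    (hfrac : ∀ y ∈ V'', ∃ a b : C, φ b ∉ V''.nonunits ∧ φ b * y = φ a)
    [IsDomain (C ⧸ Ideal.span {π})] [IsIntegrallyClosed (C ⧸ Ideal.span {π})]
    (hF : ∀ x ∈ V, ∃ y ∈ V'', x - ψ y ∈ V.nonunits)
    (x : F) (hxV : x ∈ V) (hx : (ψ.comp φ).IsIntegralElem x) :
    ∃ c : C, x - ψ (φ c) ∈ V.nonunits := by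
  classical
  obtain ⟨y, hyV, hxy⟩ := hF x hxV
  obtain ⟨a, b, hb, hab⟩ := hfrac y hyV
  obtain ⟨p, hpm, hpx⟩ := hx
  have hnu := s36n2k_mem_nonunits_comap ψ V V'' hVV
  have hCV' : ∀ c, (ψ.comp φ) c ∈ V := fun c => (hVV _).mp (hCV c)
  -- p(y) is a nonunit of V''
  have hpy : p.eval₂ φ y ∈ V''.nonunits := by
    rw [hnu, Polynomial.hom_eval₂]
    have h := s36n2k_eval_sub_mem V (ψ.comp φ) hCV' hxV ((hVV y).mp hyV) hxy p
    rw [hpx, zero_sub] at h
    have h2 := s36n2k_neg_mem_nonunits V h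
    rwa [neg_neg] at h2
  -- the homogenised value T
  set T : C := (p.scaleRoots b).eval a with hT
  have hφT : φ T = φ b ^ p.natDegree * p.eval₂ φ y := by
    rw [← Polynomial.scaleRoots_eval₂_mul, hab, hT, Polynomial.eval₂_at_apply]
  have hTπ : π ∣ T := by
    refine hker T ?_
    rw [hφT]
    exact s36n2k_mul_mem_nonunits V'' (pow_mem (hCV b) _) hpy
  -- pass to D = C / π
  set D := C ⧸ Ideal.span {π} with hD
  let mk : C →+* D := Ideal.Quotient.mk _
  have hmk0 : ∀ c, mk c = 0 ↔ π ∣ c := fun c => by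
    rw [Ideal.Quotient.eq_zero_iff_mem, Ideal.mem_span_singleton]
  have hbne : mk b ≠ 0 := by
    intro h0
    obtain ⟨b', rfl⟩ := (hmk0 b).mp h0
    apply hb
    rw [map_mul, mul_comm]
    exact s36n2k_mul_mem_nonunits V'' (hCV b') hπ
  let K := FractionRing D
  set z : K := algebraMap D K (mk a) / algebraMap D K (mk b) with hz
  have hbK : algebraMap D K (mk b) ≠ 0 := by
    rw [Ne, FaithfulSMul.algebraMap_eq_zero_iff]
    exact hbne
  have hzint : IsIntegral D z := by
    refine ⟨p.map mk, hpm.map mk, ?_⟩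
    have h1 : Polynomial.eval₂ (algebraMap D K) (algebraMap D K (mk b) * z)
        ((p.map mk).scaleRoots (mk b)) =
        algebraMap D K (mk b) ^ (p.map mk).natDegree *
          Polynomial.eval₂ (algebraMap D K) z (p.map mk) :=
      Polynomial.scaleRoots_eval₂_mul _ _ _
    have h2 : algebraMap D K (mk b) * z = algebraMap D K (mk a) := by
      rw [hz, mul_div_cancel₀ _ hbK]
    have h3 : (p.map mk).scaleRoots (mk b) = (p.scaleRoots b).map mk := by
      rw [Polynomial.map_scaleRoots]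
      rw [hpm.leadingCoeff, map_one]
      exact one_ne_zero
    rw [h2, h3, Polynomial.eval₂_at_apply, Polynomial.eval_map, Polynomial.eval₂_at_apply,
      ← hT, (hmk0 T).mpr hTπ, map_zero] at h1
    rcases mul_eq_zero.mp h1.symm with h | h
    · exact absurd h (pow_ne_zero _ hbK)
    · exact h
  obtain ⟨d, hd⟩ := IsIntegrallyClosed.algebraMap_eq_of_integral hzint
  obtain ⟨c, rfl⟩ := Ideal.Quotient.mk_surjective d
  refine ⟨c, ?_⟩
  -- a - b c is divisible by π
  have hmkeq : mk a = mk b * mk c := by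
    apply FaithfulSMul.algebraMap_injective D K
    rw [map_mul]
    show algebraMap D K (mk a) = algebraMap D K (mk b) * algebraMap D K (Ideal.Quotient.mk _ c)
    rw [hd, hz, mul_div_cancel₀ _ hbK]
  have hdiv : π ∣ a - b * c := by
    rw [← hmk0, map_sub, map_mul, hmkeq, sub_self]
  obtain ⟨e, he⟩ := hdiv
  have h1 : φ b * (y - φ c) ∈ V''.nonunits := by
    have : φ b * (y - φ c) = φ e * φ π := by
      rw [mul_sub, hab, ← map_mul, ← map_sub, he, map_mul, mul_comm]
    rw [this]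
    exact s36n2k_mul_mem_nonunits V'' (hCV e) hπ
  have hbinv : (φ b)⁻¹ ∈ V'' := by
    by_contra h
    exact hb ((ValuationSubring.mem_nonunits_iff_or V'').mpr (Or.inr h))
  have hb0 : φ b ≠ 0 := by
    intro h
    apply hb
    rw [h]
    exact s36n2k_zero_mem_nonunits V''
  have h2 : y - φ c ∈ V''.nonunits := by
    have : y - φ c = (φ b)⁻¹ * (φ b * (y - φ c)) := by
      rw [← mul_assoc, inv_mul_cancel₀ hb0, one_mul]
    rw [this]
    exact s36n2k_mul_mem_nonunits V'' hbinv h1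
  have h3 : ψ (y - φ c) ∈ V.nonunits := (hnu _).mp h2
  have : x - ψ (φ c) = (x - ψ y) + ψ (y - φ c) := by
    rw [map_sub]; ring
  rw [this]
  exact s36n2k_add_mem_nonunits V hxy h3

end Surj

section Bridge

variable {R R' F : Type*} [CommRing R] [CommRing R'] [Field F]

/-- Integrality does not change along a surjection of the base rings. -/
theorem s36n2k_isIntegralElem_surj (f : R' →+* F) (g : R →+* F) (h : R' →+* R)
    (hh : Function.Surjective h) (hfg : ∀ r, f r = g (h r)) (x : F) :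
    f.IsIntegralElem x ↔ g.IsIntegralElem x := by
  have hcomp : f = g.comp h := RingHom.ext hfg
  constructor
  · rintro ⟨p, hp, hpx⟩
    refine ⟨p.map h, hp.map h, ?_⟩
    rw [Polynomial.eval₂_map, ← hcomp]
    exact hpx
  · rintro ⟨p, hp, hpx⟩
    haveI : Nontrivial R := g.domain_nontrivial
    have hl : p ∈ Polynomial.lifts h := by
      rw [Polynomial.lifts_iff_coeff_lifts]
      intro n
      exact hh _
    obtain ⟨p', hp', -, hp'm⟩ := Polynomial.lifts_and_degree_eq_and_monic hl hp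
    refine ⟨p', hp'm, ?_⟩
    rw [hcomp, ← Polynomial.eval₂_map, hp']
    exact hpx

end Bridge

section HKR

variable {A₀ F' F : Type*} [CommRing A₀] [Field F'] [Field F] [Algebra A₀ F'] [Algebra A₀ F]

/-- The restriction of `α` to `A₀[t']`, onto `A₀[α t']`. -/
noncomputable def s36n2kAdjoinMap (α : F' →ₐ[A₀] F) (t' : F') :
    ↥(Algebra.adjoin A₀ ({t'} : Set F')) →+* ↥(Algebra.adjoin A₀ ({α t'} : Set F)) :=
  ((α.comp (Algebra.adjoin A₀ ({t'} : Set F')).val).codRestrict
    (Algebra.adjoin A₀ ({α t'} : Set F)) (by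
      intro x
      have h : (Algebra.adjoin A₀ ({t'} : Set F')).map α = Algebra.adjoin A₀ ({α t'} : Set F) := by
        rw [AlgHom.map_adjoin, Set.image_singleton]
      rw [← h]
      exact ⟨x, x.2, rfl⟩)).toRingHom

theorem s36n2kAdjoinMap_apply (α : F' →ₐ[A₀] F) (t' : F')
    (x : ↥(Algebra.adjoin A₀ ({t'} : Set F'))) :
    ((s36n2kAdjoinMap α t' x : ↥(Algebra.adjoin A₀ ({α t'} : Set F))) : F) = α x := rfl

theorem s36n2kAdjoinMap_surjective (α : F' →ₐ[A₀] F) (t' : F') :
    Function.Surjective (s36n2kAdjoinMap α t') := by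
  rintro ⟨y, hy⟩
  have h : (Algebra.adjoin A₀ ({t'} : Set F')).map α = Algebra.adjoin A₀ ({α t'} : Set F) := by
    rw [AlgHom.map_adjoin, Set.image_singleton]
  rw [← h] at hy
  obtain ⟨x, hx, rfl⟩ := hy
  exact ⟨⟨x, hx⟩, rfl⟩

/-- Integrality over `A₀[α t']` in `F` is integrality over `A₀[t']` through `α`. -/
theorem s36n2k_isIntegral_adjoin_iff (α : F' →ₐ[A₀] F) (t' : F') (x : F) :
    IsIntegral ↥(Algebra.adjoin A₀ ({α t'} : Set F)) x ↔
      ((α : F' →+* F).comp
        (algebraMap ↥(Algebra.adjoin A₀ ({t'} : Set F')) F')).IsIntegralElem x :=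
  (s36n2k_isIntegralElem_surj _ _ (s36n2kAdjoinMap α t') (s36n2kAdjoinMap_surjective α t')
    (fun _ => rfl) x).symm

end HKR

section Final

variable {A₀ F' F : Type*} [CommRing A₀] [Field F'] [Field F] [Algebra A₀ F'] [Algebra A₀ F]

/-- (KR′) at the lower level from the valuation form of (SS1). -/
theorem s36n2k_KR'_of_SS1 {ι : Type*} (π : A₀) (t' : F') (W : ι → ValuationSubring F')
    (hπ0 : algebraMap A₀ F' π ≠ 0) (hπW : ∀ i, algebraMap A₀ F' π ∈ (W i).nonunits)
    (hSS1 : ∀ b : F', IsIntegral ↥(Algebra.adjoin A₀ ({t'} : Set F')) b →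
      (∀ i, b ∈ (W i).nonunits) →
      ∃ b' : F', IsIntegral ↥(Algebra.adjoin A₀ ({t'} : Set F')) b' ∧
        b = algebraMap A₀ F' π * b')
    (y : F') (hy : IsIntegral ↥(Algebra.adjoin A₀ ({t'} : Set F')) (algebraMap A₀ F' π * y))
    (hyW : ∀ i, y ∈ W i) : IsIntegral ↥(Algebra.adjoin A₀ ({t'} : Set F')) y := by
  obtain ⟨b', hb', hb⟩ := hSS1 _ hy fun i => by
    rw [mul_comm]
    exact s36n2k_mul_mem_nonunits (W i) (hyW i) (hπW i)
  rwa [mul_left_cancel₀ hπ0 hb]

/-- **(K1) in the shape of `hKR` of `aq_pow_of_shape`** (chart `t = α t′`): from (SS1) at the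
lower level (valuation form) and (EXT). -/
theorem s36n2k_hKR {ι κ : Type*} [Nonempty ι] (α : F' →ₐ[A₀] F) (π : A₀) (t' : F')
    (W : ι → ValuationSubring F') (V : κ → ValuationSubring F)
    (hπ0 : algebraMap A₀ F' π ≠ 0) (hπW : ∀ i, algebraMap A₀ F' π ∈ (W i).nonunits)
    (hSS1 : ∀ b : F', IsIntegral ↥(Algebra.adjoin A₀ ({t'} : Set F')) b →
      (∀ i, b ∈ (W i).nonunits) →
      ∃ b' : F', IsIntegral ↥(Algebra.adjoin A₀ ({t'} : Set F')) b' ∧
        b = algebraMap A₀ F' π * b')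
    (hEXT : ∀ i (x : F), (∀ c, x ∈ V c) →
      ∃ p : F'[X], p.Monic ∧ (∀ k, p.coeff k ∈ W i) ∧ p.eval₂ (α : F' →+* F) x = 0)
    (x : F) (hx : IsIntegral ↥(Algebra.adjoin A₀ ({α t'} : Set F)) (algebraMap A₀ F π * x))
    (hV : ∀ c, x ∈ V c) : IsIntegral ↥(Algebra.adjoin A₀ ({α t'} : Set F)) x := by
  rw [s36n2k_isIntegral_adjoin_iff] at hx ⊢
  set R := ↥(Algebra.adjoin A₀ ({t'} : Set F')) with hR
  have hπR : algebraMap R F' (algebraMap A₀ R π) = algebraMap A₀ F' π := rfl
  refine s36n2k_KR (algebraMap R F') (α : F' →+* F) (algebraMap A₀ R π) ?_ W V ?_ ?_ hEXT x ?_ hV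
  · rw [hπR]; exact hπ0
  · intro i
    rw [hπR]
    exact ValuationSubring.nonunits_subset (hπW i)
  · intro y hy hyW
    rw [hπR] at hy
    exact s36n2k_KR'_of_SS1 π t' W hπ0 hπW hSS1 y hy hyW
  · rw [hπR]
    have : (α : F' →+* F) (algebraMap A₀ F' π) = algebraMap A₀ F π := α.commutes π
    rw [this]
    exact hx

end Final

section Frac

variable {C F'' : Type*} [CommRing C] [Field F'']

/-- **`V″ = C_(π)`**: every element of `V″` is a quotient `a / b` of elements of the chart with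
`b` a unit of `V″`, when `𝔪(V″) ∩ C = π C` and divisibility by `π` is well-founded. -/
theorem s36n2k_frac (φ : C →+* F'') (V'' : ValuationSubring F'') (hCV : ∀ c, φ c ∈ V'')
    (π : C) (hπ0 : φ π ≠ 0) (hπ : φ π ∈ V''.nonunits) (hker : ∀ c, φ c ∈ V''.nonunits → π ∣ c)
    (hval : ∀ c : C, c ≠ 0 → ∃ n : ℕ, ∃ c' : C, c = π ^ n * c' ∧ ¬ π ∣ c')
    (hfr : ∀ y : F'', ∃ a b : C, b ≠ 0 ∧ φ b * y = φ a)
    (y : F'') (hy : y ∈ V'') : ∃ a b : C, φ b ∉ V''.nonunits ∧ φ b * y = φ a := by
  obtain ⟨a, b, hb, hab⟩ := hfr y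
  obtain ⟨n, b', rfl, hb'⟩ := hval b hb
  have key : ∀ (n : ℕ) (a : C), φ π ^ n * (φ b' * y) = φ a → ∃ a' : C, φ b' * y = φ a' := by
    intro n
    induction n with
    | zero =>
      intro a h
      exact ⟨a, by simpa using h⟩
    | succ n ih =>
      intro a h
      have hmem : φ a ∈ V''.nonunits := by
        rw [← h, pow_succ, mul_assoc, mul_comm (φ π), ← mul_assoc]
        exact s36n2k_mul_mem_nonunits V''
          (mul_mem (pow_mem (ValuationSubring.nonunits_subset hπ) n) (mul_mem (hCV b') hy)) hπ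
      obtain ⟨a₁, rfl⟩ := hker a hmem
      refine ih a₁ ?_
      apply mul_left_cancel₀ hπ0
      rw [← map_mul, ← h]
      ring
  obtain ⟨a', ha'⟩ := key n a (by rw [← hab, map_mul, map_pow]; ring)
  exact ⟨a', b', fun h => hb' (hker b' h), ha'⟩

end Frac

end Fermat.Agent.S36


end ZBS36_027_0

/-! ### bundled: `Fermat.Agent.S36.N2KerM` -/
section ZBS36_027_1

/-!
# S36 / N2-ker (K2), the level-`M` part

General base `(A, E, r, π)` (`hB : VtBase (algebraMap A E) r π`), chart `t = j` of `F″ = F_M(E)`,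
`C = integralClosure A[t] F″`, `V″ = vtInf hB M`.

* `s36n2k_hCV`, `s36n2k_pi_mem`, `s36n2k_hker_M`, `s36n2k_hval_M`, `s36n2k_hfrac_M` : the level-`M`
  inputs of `s36n2k_surj` (`C ⊆ V″`, `π ∈ 𝔪(V″)`, `𝔪(V″) ∩ C = π C`, `V″ = C_(π)`).
* `s36n2k_surj_J` : **(K2)** for ANY field `F ⊇ F″` (via `ψ`) and any valuation subring `V` of `F`
  over `V″` with the same residue field (`hF`): every `x ∈ V` integral over `C` is congruent
  modulo `𝔪(V)` to an element of `C`.  Inputs: `π` prime in `C`, `C / π` integrally closed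
  (`RegChart.prime`, `RegChart.icl`).
-/

set_option autoImplicit false
set_option linter.unusedSectionVars false
set_option linter.style.haveILetI false
set_option synthInstance.maxHeartbeats 400000
set_option maxHeartbeats 1000000

noncomputable section

namespace Fermat.Agent.S36

open ModularCurve Fermat.Agent.INJ Fermat.Agent.UNIP Fermat.Agent.AL Polynomial

section LevelM

variable {A E k : Type*} [CommRing A] [IsDomain A] [WfDvdMonoid A] [Field E] [Algebra A E]
  [IsFractionRing A E] [Field k] {r : A →+* k} {π : A}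
  (hB : VtBase (algebraMap A E) r π)
  (M : ℕ) [NeZero M]
  [Algebra A (modularFunctionFieldFullC E M)]
  [IsScalarTower A E (modularFunctionFieldFullC E M)]
  (t : modularFunctionFieldFullC E M)

include hB in
theorem s36n2k_not_isUnit : ¬ IsUnit π := by
  intro hu
  obtain ⟨u, rfl⟩ := hu
  have h1 : r ((u : A) * ((u⁻¹ : Aˣ) : A)) = 0 := by rw [map_mul, hB.rπ, zero_mul]
  rw [Units.mul_inv, map_one] at h1
  exact one_ne_zero h1

variable (ht : (t : LaurentSeries E) ∈ gaussRing (algebraMap A E) r)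

include ht in
/-- `C ⊆ V″`. -/
theorem s36n2k_hCV
    (c : integralClosure (Algebra.adjoin A {t}) (modularFunctionFieldFullC E M)) :
    (c : modularFunctionFieldFullC E M) ∈ vtInf hB M :=
  nodesFrob_G1_id r hB.ne (s36n2k_not_isUnit hB) hB.ker hB.rπ (nodesFrob_full_le M) t ht c.2

/-- `π ∈ 𝔪(V″)`. -/
theorem s36n2k_pi_mem :
    ((algebraMap A (integralClosure (Algebra.adjoin A {t}) (modularFunctionFieldFullC E M)) π :
      integralClosure (Algebra.adjoin A {t}) (modularFunctionFieldFullC E M)) :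
        modularFunctionFieldFullC E M) ∈ (vtInf hB M).nonunits :=
  vtSub_unif_mem_nonunits hB _ _ (nodesFrob_algebraMap_coe π)

include ht in
/-- `𝔪(V″) ∩ C = π C`. -/
theorem s36n2k_hker_M
    (htr : Transcendental k (gaussRed r (IsFractionRing.injective A E) ⟨_, ht⟩))
    (hprime : Prime (algebraMap A
      (integralClosure (Algebra.adjoin A {t}) (modularFunctionFieldFullC E M)) π))
    (c : integralClosure (Algebra.adjoin A {t}) (modularFunctionFieldFullC E M))
    (hc : (c : modularFunctionFieldFullC E M) ∈ (vtInf hB M).nonunits) :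
    algebraMap A (integralClosure (Algebra.adjoin A {t}) (modularFunctionFieldFullC E M)) π ∣
      c := by
  obtain ⟨hmem, hred⟩ := (vtSub_mem_nonunits_iff hB _ _).mp hc
  exact nodesFrob_G2 r hB.ne (s36n2k_not_isUnit hB) hB.ker hB.rπ (nodesFrob_full_le M) t ht htr
    hprime c hmem hred

include hB ht in
/-- divisibility by `π` is well-founded on the chart -/
theorem s36n2k_hval_M
    (c : integralClosure (Algebra.adjoin A {t}) (modularFunctionFieldFullC E M)) (hc : c ≠ 0) :
    ∃ (n : ℕ) (c' : integralClosure (Algebra.adjoin A {t}) (modularFunctionFieldFullC E M)),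
      c = (algebraMap A
        (integralClosure (Algebra.adjoin A {t}) (modularFunctionFieldFullC E M)) π) ^ n * c' ∧
      ¬ algebraMap A
        (integralClosure (Algebra.adjoin A {t}) (modularFunctionFieldFullC E M)) π ∣ c' := by
  classical
  have hex := nodesInst_hval r hB.ne (s36n2k_not_isUnit hB) hB.ker hB.rπ M t ht c hc
  set n := Nat.find hex with hn
  have hn1 : ¬ (algebraMap A
      (integralClosure (Algebra.adjoin A {t}) (modularFunctionFieldFullC E M)) π) ^ (n + 1) ∣ c :=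
    Nat.find_spec hex
  have hn0 : (algebraMap A
      (integralClosure (Algebra.adjoin A {t}) (modularFunctionFieldFullC E M)) π) ^ n ∣ c := by
    rcases Nat.eq_zero_or_pos n with h0 | hpos
    · rw [h0, pow_zero]; exact one_dvd _
    · by_contra hnd
      have := Nat.find_min hex (m := n - 1) (by omega)
      apply this
      rwa [Nat.sub_add_cancel hpos]
  obtain ⟨c', hc'⟩ := hn0
  refine ⟨n, c', hc', ?_⟩
  rintro ⟨c'', rfl⟩
  apply hn1
  rw [hc', pow_succ, ← mul_assoc]
  exact dvd_mul_right _ _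

include hB ht in
/-- **`V″ = C_(π)`** on the chart `t = j` of level `M`. -/
theorem s36n2k_hfrac_M (htj : (t : LaurentSeries E) = jqModC E)
    (htr : Transcendental k (gaussRed r (IsFractionRing.injective A E) ⟨_, ht⟩))
    (hprime : Prime (algebraMap A
      (integralClosure (Algebra.adjoin A {t}) (modularFunctionFieldFullC E M)) π))
    (y : modularFunctionFieldFullC E M) (hy : y ∈ vtInf hB M) :
    ∃ a b : integralClosure (Algebra.adjoin A {t}) (modularFunctionFieldFullC E M),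
      (integralClosure (Algebra.adjoin A {t}) (modularFunctionFieldFullC E M)).val.toRingHom b ∉
        (vtInf hB M).nonunits ∧
      (integralClosure (Algebra.adjoin A {t}) (modularFunctionFieldFullC E M)).val.toRingHom b * y
        = (integralClosure (Algebra.adjoin A {t})
            (modularFunctionFieldFullC E M)).val.toRingHom a := by
  refine s36n2k_frac
    (integralClosure (Algebra.adjoin A {t}) (modularFunctionFieldFullC E M)).val.toRingHom
    (vtInf hB M) (fun c => s36n2k_hCV hB M t ht c)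
    (algebraMap A (integralClosure (Algebra.adjoin A {t}) (modularFunctionFieldFullC E M)) π)
    ?_ (s36n2k_pi_mem hB M t) (fun c hc => s36n2k_hker_M hB M t ht htr hprime c hc)
    (fun c hc => s36n2k_hval_M hB M t ht c hc) ?_ y hy
  · intro h0
    have h1 : ((algebraMap A (integralClosure (Algebra.adjoin A {t})
        (modularFunctionFieldFullC E M)) π : integralClosure (Algebra.adjoin A {t})
          (modularFunctionFieldFullC E M)) : modularFunctionFieldFullC E M) = 0 := h0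
    have h2 := nodesFrob_algebraMap_coe (A := A) (F := modularFunctionFieldFullC E M) π
    have h3 : ((algebraMap A (modularFunctionFieldFullC E M) π :
        modularFunctionFieldFullC E M) : LaurentSeries E) = 0 := by
      have : (algebraMap A (modularFunctionFieldFullC E M) π : modularFunctionFieldFullC E M)
          = 0 := h1
      rw [this]; rfl
    rw [h2] at h3
    exact hB.Cιπ_ne h3
  · intro x
    obtain ⟨d, c, hd, hdc⟩ := nodesInst_hfrac M t (nodesInstAlg_halg_J A M t htj) x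
    refine ⟨c, d, ?_, hdc⟩
    intro h0
    apply hd
    rw [h0, map_zero]

include hB ht in
/-- **(K2), level-`M` part**: `V` a valuation subring of a field `F ⊇ F″` (via `ψ`) lying over
`V″` with the same residue field; then every `x ∈ V` integral over the chart `C` of level `M` is
congruent modulo `𝔪(V)` to an element of `C`. -/
theorem s36n2k_surj_J (htj : (t : LaurentSeries E) = jqModC E)
    (hprime : Prime (algebraMap A
      (integralClosure (Algebra.adjoin A {t}) (modularFunctionFieldFullC E M)) π))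
    (hicl : IsIntegrallyClosed
      (integralClosure (Algebra.adjoin A {t}) (modularFunctionFieldFullC E M) ⧸
        Ideal.span {algebraMap A
          (integralClosure (Algebra.adjoin A {t}) (modularFunctionFieldFullC E M)) π}))
    {F : Type*} [Field F] (ψ : modularFunctionFieldFullC E M →+* F) (V : ValuationSubring F)
    (hVV : ∀ y, y ∈ vtInf hB M ↔ ψ y ∈ V)
    (hF : ∀ x ∈ V, ∃ y ∈ vtInf hB M, x - ψ y ∈ V.nonunits)
    (x : F) (hxV : x ∈ V)
    (hx : (ψ.comp (integralClosure (Algebra.adjoin A {t})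
      (modularFunctionFieldFullC E M)).val.toRingHom).IsIntegralElem x) :
    ∃ c : integralClosure (Algebra.adjoin A {t}) (modularFunctionFieldFullC E M),
      x - ψ (c : modularFunctionFieldFullC E M) ∈ V.nonunits := by
  have htr : Transcendental k (gaussRed r (IsFractionRing.injective A E) ⟨_, ht⟩) := by
    rw [nodesInst_red_J r M t htj ht]
    exact nodesFrobU_transcendental_j k
  haveI : (Ideal.span {algebraMap A
      (integralClosure (Algebra.adjoin A {t}) (modularFunctionFieldFullC E M)) π}).IsPrime :=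
    (Ideal.span_singleton_prime hprime.ne_zero).mpr hprime
  haveI : IsDomain (integralClosure (Algebra.adjoin A {t}) (modularFunctionFieldFullC E M) ⧸
      Ideal.span {algebraMap A
        (integralClosure (Algebra.adjoin A {t}) (modularFunctionFieldFullC E M)) π}) :=
    Ideal.Quotient.isDomain _
  haveI := hicl
  exact s36n2k_surj
    (integralClosure (Algebra.adjoin A {t}) (modularFunctionFieldFullC E M)).val.toRingHom
    ψ V (vtInf hB M) hVV (fun c => s36n2k_hCV hB M t ht c)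
    (algebraMap A (integralClosure (Algebra.adjoin A {t}) (modularFunctionFieldFullC E M)) π)
    (s36n2k_pi_mem hB M t) (fun c hc => s36n2k_hker_M hB M t ht htr hprime c hc)
    (fun y hy => s36n2k_hfrac_M hB M t ht htj htr hprime y hy) hF x hxV hx

end LevelM

end Fermat.Agent.S36

end
end ZBS36_027_1

/-! ### bundled: `Fermat.Agent.S36.N2KerB2` -/
section ZBS36_027_2

/-!
# S36 / N2-ker (K2): residue degree one at level `M q` over level `M`, valuation form (B2)

* `s36n2k_congr_quot'` (Mathlib only): the elementary computation with fractions.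
* `s36n2k_hsurj` : every element of the chart `j` of level `M q` is congruent modulo `𝔪(V′_∞)` to
  an element of `F_M ∩ V′_∞` (`stb_hsurj_modular` of STB in the vocabulary of MG-8).
* `s36n2k_B2` : every element of `V′_∞ = vtInf hB (M q)` is congruent modulo `𝔪(V′_∞)` to an
  element of `V″ = vtInf hB M`.  Inputs: `RegChart π (bgJ K₀ M)` (⇒ `NodesHomData`, U5) and `hVloc`
  at level `M q` (`V′_∞` is the localisation of the chart `j`).
-/

set_option autoImplicit false
set_option linter.unusedSectionVars false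
set_option linter.style.haveILetI false
set_option linter.style.longLine false
set_option synthInstance.maxHeartbeats 400000
set_option maxHeartbeats 1000000

noncomputable section

namespace Fermat.Agent.S36

open ModularCurve Fermat.Agent.INJ Fermat.Agent.UNIP Fermat.Agent.AL Fermat.Agent.STB Polynomial

section Abs

variable {F : Type*} [Field F]

theorem s36n2k_not_mem_of_add_mem (V : ValuationSubring F) {u d : F} (hu : u ∈ V)
    (hun : u ∉ V.nonunits) (h : u + d ∈ V.nonunits) : d ∈ V ∧ d ∉ V.nonunits := by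
  have hd : d = (u + d) - u := by ring
  refine ⟨?_, fun hdn => hun ?_⟩
  · rw [hd]
    exact sub_mem (ValuationSubring.nonunits_subset h) hu
  · have : u = (u + d) + -d := by ring
    rw [this]
    exact s36n2k_add_mem_nonunits V h (s36n2k_neg_mem_nonunits V hdn)

theorem s36n2k_unit_mul (V : ValuationSubring F) {a b : F} (ha : a ∈ V) (han : a ∉ V.nonunits)
    (hb : b ∈ V) (hbn : b ∉ V.nonunits) : a * b ∉ V.nonunits := by
  rw [ValuationSubring.mem_nonunits_iff, not_lt] at han hbn ⊢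
  have h1 : V.valuation a = 1 :=
    le_antisymm ((ValuationSubring.valuation_le_one_iff V a).mpr ha) han
  have h2 : V.valuation b = 1 :=
    le_antisymm ((ValuationSubring.valuation_le_one_iff V b).mpr hb) hbn
  rw [map_mul, h1, h2, one_mul]

theorem s36n2k_inv_mem (V : ValuationSubring F) {a : F} (han : a ∉ V.nonunits) : a⁻¹ ∈ V := by
  by_contra h
  exact han ((ValuationSubring.mem_nonunits_iff_or V).mpr (Or.inr h))

theorem s36n2k_ne_zero (V : ValuationSubring F) {a : F} (han : a ∉ V.nonunits) : a ≠ 0 := by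
  rintro rfl
  exact han (s36n2k_zero_mem_nonunits V)

/-- **The computation with fractions, simple form.**  `x = b / s` with `s` a unit of `V`,
`b ≡ c`, `s ≡ d`: then `d` is a unit and `x ≡ c / d`. -/
theorem s36n2k_congr_quot' (V : ValuationSubring F) {x b s c d : F}
    (hx : x ∈ V) (hsx : s * x = b) (hsn : s ∉ V.nonunits)
    (hbc : b - c ∈ V.nonunits) (hsd : s - d ∈ V.nonunits) :
    d ∉ V.nonunits ∧ x - c / d ∈ V.nonunits := by
  have hdn : d ∉ V.nonunits := by
    intro hdn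
    apply hsn
    have : s = (s - d) + d := by ring
    rw [this]
    exact s36n2k_add_mem_nonunits V hsd hdn
  refine ⟨hdn, ?_⟩
  have hd0 := s36n2k_ne_zero V hdn
  have hinv := s36n2k_inv_mem V hdn
  have key : x - c / d = d⁻¹ * ((b - c) + -(x * (s - d))) := by
    rw [← hsx]
    field_simp
    ring
  rw [key]
  refine s36n2k_mul_mem_nonunits V hinv (s36n2k_add_mem_nonunits V hbc
    (s36n2k_neg_mem_nonunits V ?_))
  exact s36n2k_mul_mem_nonunits V hx hsd

end Abs

section B2

variable (K₀ : IntermediateField ℚ NfQb) {A₀ : Type} [CommRing A₀] [IsDomain A₀]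
  [IsDiscreteValuationRing A₀] [Algebra A₀ K₀] [IsFractionRing A₀ K₀]
  {k : Type*} [Field k] (r : A₀ →+* k) {π : A₀} (ιC : K₀ →+* ℂ)
  {q M : ℕ} [NeZero q] [NeZero M] [NeZero (M * q)] (hq : q.Prime) (hqM : ¬ q ∣ M)
  [Algebra A₀ (modularFunctionFieldFullC K₀ M)]
  [IsScalarTower A₀ K₀ (modularFunctionFieldFullC K₀ M)]
  [Algebra A₀ (modularFunctionFieldFullC K₀ (M * q))]
  [IsScalarTower A₀ K₀ (modularFunctionFieldFullC K₀ (M * q))]

/-- `V″ = V′_∞ ∩ F″`. -/
theorem s36n2k_mem_vtInf_incl (hB : VtBase (algebraMap A₀ K₀) r π)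
    (y : modularFunctionFieldFullC K₀ M) :
    y ∈ vtInf hB M ↔ nodesInstIncl K₀ M q y ∈ vtInf hB (M * q) := by
  rw [mem_vtInf, mem_vtInf, nodesInstIncl_coe]

include hq hqM ιC in
/-- `hsurj` of STB on the chart `j`: every element of the chart `j` of level `M q` is congruent
modulo `𝔪(V′_∞)` to an element of `F_M ∩ V′_∞`. -/
theorem s36n2k_hsurj [Fact q.Prime] [CharP k q] (hπ : Irreducible π)
    (hB : VtBase (algebraMap A₀ K₀) r π)
    (h : RegChart (E := K₀) π (bgJ K₀ M))
    (b : modularFunctionFieldFullC K₀ (M * q))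
    (hb : IsIntegral ↥(Algebra.adjoin A₀
      ({nodesInstIncl K₀ M q (bgJ K₀ M)} : Set (modularFunctionFieldFullC K₀ (M * q)))) b) :
    ∃ y : modularFunctionFieldFullC K₀ M, y ∈ vtInf hB M ∧
      b - nodesInstIncl K₀ M q y ∈ (vtInf hB (M * q)).nonunits := by
  have hd := nodesReg_hd_J K₀ r ιC hq hqM hπ hB.ker hB.rπ h
  haveI := h.isDomain
  haveI := h.isIntegrallyClosed
  obtain ⟨c, hc, hcM, hbc⟩ := stb_hsurj_modular (stb_gaussBase_of_vtBase hB)
    (atkinLehner K₀ ιC hq hqM).toAlgHom (bgJ K₀ M) (nodesFinal_J_mem K₀ r)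
    (nodesFinal_wJ_mem K₀ r ιC hq hqM) hd b hb
  have hcV : c ∈ vtInf hB (M * q) := by
    rw [mem_vtInf]
    exact nodesFrob_G1_id r hπ.ne_zero hπ.not_isUnit hB.ker hB.rπ
      (nodesFrob_full_le (M * q)) (nodesInstIncl K₀ M q (bgJ K₀ M))
      (nodesInst_ht' r M q (bgJ K₀ M) (nodesFinal_J_mem K₀ r)) hc
  have hy : nodesInstIncl K₀ M q ⟨(c : LaurentSeries K₀), hcM⟩ = c :=
    Subtype.ext (nodesInstIncl_coe M q _)
  refine ⟨⟨(c : LaurentSeries K₀), hcM⟩, ?_, ?_⟩
  · rw [s36n2k_mem_vtInf_incl K₀ r hB (q := q), hy]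
    exact hcV
  · rw [hy, ← stbVinf_eq_vtInf (stb_gaussBase_of_vtBase hB) hB (M * q)]
    exact hbc

include hq hqM ιC in
/-- **(B2)**: the residue field of `V′_∞` (level `M q`) is that of `V″` (level `M`). -/
theorem s36n2k_B2 [Fact q.Prime] [CharP k q] (hπ : Irreducible π)
    (hB : VtBase (algebraMap A₀ K₀) r π)
    (h : RegChart (E := K₀) π (bgJ K₀ M))
    (hVloc : ∀ x : modularFunctionFieldFullC K₀ (M * q), x ∈ vtInf hB (M * q) →
      ∃ b s : modularFunctionFieldFullC K₀ (M * q),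
        IsIntegral ↥(Algebra.adjoin A₀
          ({bgJ K₀ (M * q)} : Set (modularFunctionFieldFullC K₀ (M * q)))) b ∧
        IsIntegral ↥(Algebra.adjoin A₀
          ({bgJ K₀ (M * q)} : Set (modularFunctionFieldFullC K₀ (M * q)))) s ∧
        s ∉ (vtInf hB (M * q)).nonunits ∧ s * x = b)
    (x : modularFunctionFieldFullC K₀ (M * q)) (hx : x ∈ vtInf hB (M * q)) :
    ∃ y : modularFunctionFieldFullC K₀ M, y ∈ vtInf hB M ∧
      x - nodesInstIncl K₀ M q y ∈ (vtInf hB (M * q)).nonunits := by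
  obtain ⟨b, s, hb, hs, hsn, hsx⟩ := hVloc x hx
  have ht' : nodesInstIncl K₀ M q (bgJ K₀ M) = bgJ K₀ (M * q) := stbmn_incl_J_gen K₀
  rw [← ht'] at hb hs
  obtain ⟨yb, hybV, hyb⟩ := s36n2k_hsurj K₀ r ιC hq hqM hπ hB h b hb
  obtain ⟨ys, hysV, hys⟩ := s36n2k_hsurj K₀ r ιC hq hqM hπ hB h s hs
  have hybV' := (s36n2k_mem_vtInf_incl K₀ r hB (q := q) yb).mp hybV
  obtain ⟨hysn, hcong⟩ := s36n2k_congr_quot' (vtInf hB (M * q)) hx hsx hsn hyb hys
  refine ⟨yb / ys, ?_, ?_⟩
  · rw [s36n2k_mem_vtInf_incl K₀ r hB (q := q), map_div₀, div_eq_mul_inv]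
    exact mul_mem hybV' (s36n2k_inv_mem _ hysn)
  · rw [map_div₀]
    exact hcong

end B2

end Fermat.Agent.S36

end
end ZBS36_027_2

/-! ### bundled: `Fermat.Agent.S36.NgLocZch` -/
section ZBS36_027_3

/-!
# S36 / (I6)(c) (helper19): `NgLoc` at a triple point of the charts `zchClosure {t}`

`A₀` a discrete valuation ring, `E = Frac A₀`, `F₁`, `F` function fields over `E`,
`φ : F₁ →+* F` fixing the constants of `A₀`, charts `B′ = zchClosure {t₁} ⊆ F₁`,
`B = zchClosure {t} ⊆ F` with `φ t₁` integral over `A₀[t]` and `t` integral over `A₀[φ t₁]`.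

* `s36ngl_zch_map` : `φ B′ ⊆ B`; `s36ngl_zch_int` : `B` is integral over `φ B′`;
* `s36ngl_zch_norm` : the norm `stbNorm φ` maps `B` into `B′`;
* `s36ngl_zch` : `∃ O', NgLoc φ N V₁ V₂ m ζ₁ (ls_localSubring 𝔫) O'` for `N = stbNorm φ`.
-/

set_option autoImplicit false
set_option linter.unusedSectionVars false
set_option linter.style.haveILetI false

noncomputable section

namespace Fermat.Agent.S36

open Fermat.Agent.UNIP Fermat.Agent.INJ Fermat.Agent.STB Polynomial

section NormApply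

/-- the norm along a ring homomorphism of an element of the base -/
theorem s36ngl_norm_apply {K L : Type*} [Field K] [Field L] (φ : K →+* L) (x : K) :
    stbNorm φ (φ x) = x ^ stbDeg φ := by
  letI := φ.toAlgebra
  exact Algebra.norm_algebraMap x

end NormApply

section Zch

variable {A₀ E F₁ F : Type*} [CommRing A₀] [IsDomain A₀] [IsDiscreteValuationRing A₀]
  [Field E] [Algebra A₀ E] [IsFractionRing A₀ E] [CharZero E]
  [Field F₁] [Algebra E F₁] [Algebra A₀ F₁] [IsScalarTower A₀ E F₁]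
  [Field F] [Algebra E F] [Algebra A₀ F] [IsScalarTower A₀ E F]
  (φ : F₁ →+* F) (hφA : ∀ a : A₀, φ (algebraMap A₀ F₁ a) = algebraMap A₀ F a)
  (t₁ : F₁) (t : F)
  (hφt : IsIntegral (Algebra.adjoin A₀ ({t} : Set F)) (φ t₁))
  (htφ : IsIntegral (Algebra.adjoin A₀ ({φ t₁} : Set F)) t)

include hφA hφt in
/-- `φ B′ ⊆ B` -/
theorem s36ngl_zch_map {b : F₁} (hb : b ∈ zchClosure (A₀ := A₀) ({t₁} : Set F₁)) :
    φ b ∈ zchClosure (A₀ := A₀) ({t} : Set F) := by
  rw [mem_zchClosure] at hb ⊢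
  exact cusp_isIntegral_adjoin_trans hφt (cusp_isIntegral_adjoin_map φ hφA hb)

include hφA htφ in
/-- `B` is integral over `φ B′` -/
theorem s36ngl_zch_int {s : F} (hs : s ∈ zchClosure (A₀ := A₀) ({t} : Set F)) :
    (φ.comp (zchClosure (A₀ := A₀) ({t₁} : Set F₁)).val.toRingHom).IsIntegralElem s := by
  rw [mem_zchClosure] at hs
  have h1 : IsIntegral (Algebra.adjoin A₀ ({φ t₁} : Set F)) s :=
    cusp_isIntegral_adjoin_trans htφ hs
  let φA : F₁ →ₐ[A₀] F := { φ with commutes' := hφA }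
  have h2 := (s36n2k_isIntegral_adjoin_iff φA t₁ s).mp h1
  obtain ⟨p, hp, hps⟩ := h2
  let incl : ↥(Algebra.adjoin A₀ ({t₁} : Set F₁)) →+* ↥(zchClosure (A₀ := A₀) ({t₁} : Set F₁)) :=
    { toFun := fun x => ⟨(x : F₁), mem_zchClosure.mpr isIntegral_algebraMap⟩
      map_one' := rfl
      map_mul' := fun _ _ => rfl
      map_zero' := rfl
      map_add' := fun _ _ => rfl }
  refine ⟨p.map incl, hp.map incl, ?_⟩
  rw [Polynomial.eval₂_map]
  exact hps

include hφA htφ in
/-- the norm maps `B` into `B′` -/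
theorem s36ngl_zch_norm {s : F} (hs : s ∈ zchClosure (A₀ := A₀) ({t} : Set F)) :
    stbNorm φ s ∈ zchClosure (A₀ := A₀) ({t₁} : Set F₁) := by
  have h1 := s36ngl_norm_isIntegral (zchClosure (A₀ := A₀) ({t₁} : Set F₁)) φ
    (s36ngl_zch_int φ hφA t₁ t htφ hs)
  obtain ⟨r, hr⟩ := at_chart_integrallyClosed (A₀ := A₀) t₁ _ h1
  have h2 : stbNorm φ s = (r : F₁) := hr.symm
  rw [h2]
  exact r.2

/-- the chart is integrally closed -/
theorem s36ngl_zch_icl : IsIntegrallyClosed ↥(zchClosure (A₀ := A₀) ({t₁} : Set F₁)) :=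
  nodesInst_isIntegrallyClosed ↥(Algebra.adjoin A₀ ({t₁} : Set F₁)) F₁

/-- the chart map `B′ → B` induced by `φ` -/
def s36nglZchHom :
    ↥(zchClosure (A₀ := A₀) ({t₁} : Set F₁)) →+* ↥(zchClosure (A₀ := A₀) ({t} : Set F)) :=
  s36nglHom (zchClosure (A₀ := A₀) ({t₁} : Set F₁)) (zchClosure (A₀ := A₀) ({t} : Set F)) φ
    (fun _ hr => s36ngl_zch_map φ hφA t₁ t hφt hr)

theorem s36nglZchHom_coe (x : ↥(zchClosure (A₀ := A₀) ({t₁} : Set F₁))) :
    ((s36nglZchHom φ hφA t₁ t hφt x : ↥(zchClosure (A₀ := A₀) ({t} : Set F))) : F) =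
      φ (x : F₁) := rfl

theorem s36nglZchHom_injective : Function.Injective (s36nglZchHom φ hφA t₁ t hφt) :=
  s36nglHom_injective _ _ φ _

include htφ in
/-- the chart map is integral -/
theorem s36nglZchHom_isIntegral : (s36nglZchHom φ hφA t₁ t hφt).IsIntegral := fun s =>
  s36ngl_isIntegral _ _ φ _ (fun _ hs => s36ngl_zch_int φ hφA t₁ t htφ hs) s

include htφ in
set_option maxHeartbeats 1000000 in
/-- **`huniq` at the charts `zchClosure`**: a prime of `B` through the third component `V₃` is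
the only prime of `B` over its contraction to `B′`. -/
theorem s36ngl_zch_huniq (N : F →* F₁) (hN : ∀ x, N x = stbNorm φ x)
    (W₃ : ValuationSubring F₁) (V₃ : ValuationSubring F)
    (hSV₃ : ∀ s, IsIntegral (Algebra.adjoin A₀ ({t} : Set F)) s → s ∈ V₃)
    (hcomap₃ : ∀ z : F₁, φ z ∈ V₃.nonunits → z ∈ W₃.nonunits)
    (hEXT₃ : ∀ x ∈ V₃, ∃ p : F₁[X], p.Monic ∧ (∀ k, p.coeff k ∈ W₃) ∧ p.eval₂ φ x = 0)
    (hWloc₃ : ∀ y ∈ W₃, ∃ b s : F₁, IsIntegral (Algebra.adjoin A₀ ({t₁} : Set F₁)) b ∧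
      IsIntegral (Algebra.adjoin A₀ ({t₁} : Set F₁)) s ∧ s ∉ W₃.nonunits ∧ s * y = b)
    {Q : ℕ} (hQ : 0 < Q) (hinsep : ∀ x, V₃.valuation x = 1 → NgC V₃ (φ (N x)) (x ^ Q))
    (𝔫 : Ideal ↥(zchClosure (A₀ := A₀) ({t} : Set F))) [𝔫.IsPrime]
    (hthr₃ : ∀ b : ↥(zchClosure (A₀ := A₀) ({t} : Set F)), (b : F) ∈ V₃.nonunits → b ∈ 𝔫)
    (𝔫₂ : Ideal ↥(zchClosure (A₀ := A₀) ({t} : Set F))) (h₂ : 𝔫₂.IsPrime)
    (e : 𝔫₂.comap (s36nglZchHom φ hφA t₁ t hφt) = 𝔫.comap (s36nglZchHom φ hφA t₁ t hφt)) :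
    𝔫₂ = 𝔫 := by
  haveI := s36ngl_zch_icl (A₀ := A₀) t₁
  exact s36ngl_chart_huniq (zchClosure (A₀ := A₀) ({t₁} : Set F₁))
    (zchClosure (A₀ := A₀) ({t} : Set F)) φ
    (fun r hr => s36ngl_zch_map φ hφA t₁ t hφt hr)
    (fun s hs => s36ngl_zch_int φ hφA t₁ t htφ hs)
    N (fun s hs => by rw [hN]; exact s36ngl_zch_norm φ hφA t₁ t htφ hs)
    W₃ V₃ (fun s hs => hSV₃ s hs) hcomap₃ hEXT₃ hWloc₃ hQ hinsep 𝔫 hthr₃ 𝔫₂ h₂ e

include hφA hφt htφ in
set_option maxHeartbeats 1000000 in
/-- **`NgLoc` at a triple point of the chart `zchClosure {t}`.** -/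
theorem s36ngl_zch (N : F →* F₁) (hN : ∀ x, N x = stbNorm φ x)
    (W₃ : ValuationSubring F₁) (V₁ V₂ V₃ : ValuationSubring F)
    (hSV₁ : ∀ s, IsIntegral (Algebra.adjoin A₀ ({t} : Set F)) s → s ∈ V₁)
    (hSV₂ : ∀ s, IsIntegral (Algebra.adjoin A₀ ({t} : Set F)) s → s ∈ V₂)
    (hSV₃ : ∀ s, IsIntegral (Algebra.adjoin A₀ ({t} : Set F)) s → s ∈ V₃)
    (hcomap₃ : ∀ z : F₁, φ z ∈ V₃.nonunits → z ∈ W₃.nonunits)
    (hEXT₃ : ∀ x ∈ V₃, ∃ p : F₁[X], p.Monic ∧ (∀ k, p.coeff k ∈ W₃) ∧ p.eval₂ φ x = 0)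
    (hWloc₃ : ∀ y ∈ W₃, ∃ b s : F₁, IsIntegral (Algebra.adjoin A₀ ({t₁} : Set F₁)) b ∧
      IsIntegral (Algebra.adjoin A₀ ({t₁} : Set F₁)) s ∧ s ∉ W₃.nonunits ∧ s * y = b)
    {Q : ℕ} (hQ : 0 < Q) (hinsep : ∀ x, V₃.valuation x = 1 → NgC V₃ (φ (N x)) (x ^ Q))
    (hGS₁ : ∀ s, IsIntegral (Algebra.adjoin A₀ ({t} : Set F)) s →
      ∃ r, IsIntegral (Algebra.adjoin A₀ ({t₁} : Set F₁)) r ∧ s - φ r ∈ V₁.nonunits)
    (hGS₂ : ∀ s, IsIntegral (Algebra.adjoin A₀ ({t} : Set F)) s →
      ∃ r, IsIntegral (Algebra.adjoin A₀ ({t₁} : Set F₁)) r ∧ s - φ r ∈ V₂.nonunits)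
    (𝔫 : Ideal ↥(zchClosure (A₀ := A₀) ({t} : Set F))) [𝔫.IsPrime]
    (hthr₁ : ∀ b : ↥(zchClosure (A₀ := A₀) ({t} : Set F)), (b : F) ∈ V₁.nonunits → b ∈ 𝔫)
    (hthr₂ : ∀ b : ↥(zchClosure (A₀ := A₀) ({t} : Set F)), (b : F) ∈ V₂.nonunits → b ∈ 𝔫)
    (hthr₃ : ∀ b : ↥(zchClosure (A₀ := A₀) ({t} : Set F)), (b : F) ∈ V₃.nonunits → b ∈ 𝔫)
    {m : ℕ} (hm : 0 < m) {ζ₁ : F₁}
    (hζ : IsIntegral (Algebra.adjoin A₀ ({t₁} : Set F₁)) ζ₁) :
    ∃ O' : Subring F₁, NgLoc φ N V₁ V₂ m ζ₁ (ls_localSubring (F := F) 𝔫) O' := by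
  haveI := s36ngl_zch_icl (A₀ := A₀) t₁
  exact s36ngl_chart (zchClosure (A₀ := A₀) ({t₁} : Set F₁))
    (zchClosure (A₀ := A₀) ({t} : Set F)) φ
    (fun r hr => s36ngl_zch_map φ hφA t₁ t hφt hr)
    (fun s hs => s36ngl_zch_int φ hφA t₁ t htφ hs)
    (fun z hz => by
      obtain ⟨r, hr⟩ := at_chart_integrallyClosed (A₀ := A₀) t₁ z hz
      have h2 : z = (r : F₁) := hr.symm
      rw [h2]
      exact r.2)
    N (fun s hs => by rw [hN]; exact s36ngl_zch_norm φ hφA t₁ t htφ hs)
    (n := stbDeg φ) (fun x => by rw [hN]; exact s36ngl_norm_apply φ x)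
    W₃ V₁ V₂ V₃ (fun s hs => hSV₁ s hs) (fun s hs => hSV₂ s hs) (fun s hs => hSV₃ s hs)
    hcomap₃ hEXT₃ hWloc₃ hQ hinsep hGS₁ hGS₂ 𝔫 hthr₁ hthr₂ hthr₃ hm hζ

end Zch

end Fermat.Agent.S36

end
end ZBS36_027_3
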