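/- GENERATED FILE (helper35, build-time optimisation, NOTES/ZB.md): verbatim concatenation of the modules
   Fermat.Agent.S36.ThinOrd
   Fermat.Agent.S36.ThinFormal
   Fermat.Agent.S36.ThinTransfer
   Fermat.Agent.S36.ThinKron
   Fermat.Agent.R38.TresOggFld
   Fermat.Agent.R38.TresOggRed
   Fermat.Agent.S36.ThinIrr
   Do not edit; do not import together with these modules. -/
import Mathlib
import Fermat.Agent.ZB.S16_001
import Fermat.Agent.ZB.ES_002
import Fermat.Agent.ZB.S28_002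
import Fermat.Agent.ZB.UNIP_014
import Fermat.Agent.ZB.S36_002
import Fermat.Agent.ZB.ES_001
import Fermat.Agent.ZB.INJ_005

/-! ### bundled: `Fermat.Agent.S36.ThinOrd` -/
section ZBS36_008_0

/-!
# S36 (Carayol), G-thin (T3): orders of zeros of `P = Δ̄^{1-q}` — the polynomial algebra (helper37)

Mathlib only.  `k` a field, `P, G, W, B, C ∈ k[X]`, `C ≠ 0`,
`N := W · C² − B' · C + B · C'`  (so that `N / C² = W − (B / C)'`), and

  `P · N⁶ = G · C¹²`        (i.e. `P · H⁶ = G` with `H = W − (B/C)'`).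

In the application `k ⊇ 𝔽_q`, `X = t̄` a coordinate (`j̄`, or a Hauptmodul), `W = X^{q-1}`,
`B / C = Ā = ((t^q − t(Q^q))/q)‾`, `H = (θ t̄)^{q-1}`, `G = g(t̄)^{q-1}` with `(θ t)⁶ = g(t) Δ`,
`P = Δ̄^{1-q}`.

* `s36thin_residue` : **the residue of a derivative is zero**: with `c = rootMultiplicity a C ≥ 1`,
  `(X - a)^(2c-1) ∣ N → (X - a)^(2c) ∣ N`  (`H` has no simple pole).
* `s36thin_rootMultiplicity_rel` : `rm_a P + 6 · rm_a N = rm_a G + 12 · rm_a C`.
* `s36thin_pow_twelve_dvd` : `P(a) = 0`, `G(a) ≠ 0` `⇒` `(X - a)^12 ∣ P`.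
* `s36thin_six_dvd_add` : `6 ∣ rm_a P + 5 * rm_a G`, i.e. `rm_a P ≡ rm_a G mod 6`.
* `s36thin_j_generic`, `s36thin_j_zero`, `s36thin_j_1728` : the `j`-line,
  `G = (X⁴ (X − 1728)³)^(q-1)`: a zero `a ≠ 0, 1728` of `P` has order `≥ 12`, a zero at `0` has
  order `≥ 4` (`3 ∤ q`), a zero at `1728` has order `≥ 6` (`q` odd).
* `s36thin_poly_of_aeval` : the polynomial identity from the identities in a field `K ∋ t`,
  `t` transcendental over `k`.
-/

set_option autoImplicit false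
set_option linter.style.haveILetI false
set_option linter.unusedSectionVars false
set_option linter.unusedVariables false

namespace Fermat.Agent.S36

open Polynomial

variable {k : Type*} [Field k]

/-! ### power series: the coefficient of index `c` of `X f' − c f` vanishes -/

theorem s36thin_coeff_self (f : PowerSeries k) (c : ℕ) :
    PowerSeries.coeff c ((PowerSeries.X : PowerSeries k) * PowerSeries.derivative k f - c • f)
      = 0 := by
  rcases c with _ | n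
  · simp
  · rw [map_sub, PowerSeries.coeff_succ_X_mul, PowerSeries.coeff_derivative, map_nsmul,
      nsmul_eq_mul]
    push_cast
    ring

theorem s36thin_ps_dvd_succ (f : PowerSeries k) (c : ℕ)
    (h : (PowerSeries.X : PowerSeries k) ^ c ∣
      PowerSeries.X * PowerSeries.derivative k f - c • f) :
    (PowerSeries.X : PowerSeries k) ^ (c + 1) ∣
      PowerSeries.X * PowerSeries.derivative k f - c • f := by
  rw [PowerSeries.X_pow_dvd_iff] at h ⊢
  intro m hm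
  rcases Nat.lt_succ_iff_lt_or_eq.1 hm with h1 | rfl
  · exact h m h1
  · exact s36thin_coeff_self f m

/-! ### polynomials at `0` -/

/-- `X ^ n ∣ p` for a polynomial iff it holds for the associated power series. -/
theorem s36thin_X_pow_dvd_coe (p : k[X]) (n : ℕ) :
    (X : k[X]) ^ n ∣ p ↔ (PowerSeries.X : PowerSeries k) ^ n ∣ (p : PowerSeries k) := by
  rw [Polynomial.X_pow_dvd_iff, PowerSeries.X_pow_dvd_iff]
  simp only [Polynomial.coeff_coe]

/-- the key step at `0`: with `Z = X (B' C₁ − B C₁') − c B C₁`, `C₁(0) ≠ 0`: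
`X^c ∣ Z → X^(c+1) ∣ Z`. -/
theorem s36thin_Z_dvd_succ (B C₁ : k[X]) (hC₁ : C₁.coeff 0 ≠ 0) (c : ℕ)
    (h : (X : k[X]) ^ c ∣
      X * (derivative B * C₁ - B * derivative C₁) - Polynomial.C (c : k) * (B * C₁)) :
    (X : k[X]) ^ (c + 1) ∣
      X * (derivative B * C₁ - B * derivative C₁) - Polynomial.C (c : k) * (B * C₁) := by
  set γ : PowerSeries k := (C₁ : PowerSeries k) with hγdef
  have hγ : PowerSeries.constantCoeff γ ≠ 0 := by
    rw [hγdef, ← PowerSeries.coeff_zero_eq_constantCoeff_apply, Polynomial.coeff_coe]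
    exact hC₁
  set f : PowerSeries k := (B : PowerSeries k) * γ⁻¹ with hfdef
  have hγi : γ⁻¹ * γ = 1 := PowerSeries.inv_mul_cancel γ hγ
  have hB : (B : PowerSeries k) = f * γ := by
    rw [hfdef, mul_assoc, hγi, mul_one]
  have hdB : PowerSeries.derivative k (B : PowerSeries k) =
      f * PowerSeries.derivative k γ + γ * PowerSeries.derivative k f := by
    rw [hB, Derivation.leibniz, smul_eq_mul, smul_eq_mul]
  have hcast : (PowerSeries.C (c : k) : PowerSeries k) = (c : PowerSeries k) :=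
    map_natCast (PowerSeries.C (R := k)) c
  have hZ : ((X * (derivative B * C₁ - B * derivative C₁) - Polynomial.C (c : k) * (B * C₁) :
      k[X]) : PowerSeries k) =
      γ ^ 2 * (PowerSeries.X * PowerSeries.derivative k f - c • f) := by
    have h1 : ((X * (derivative B * C₁ - B * derivative C₁) - Polynomial.C (c : k) * (B * C₁) :
        k[X]) : PowerSeries k) =
        PowerSeries.X * (PowerSeries.derivative k (B : PowerSeries k) * γ -
          (B : PowerSeries k) * PowerSeries.derivative k γ) -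
          (c : PowerSeries k) * ((B : PowerSeries k) * γ) := by
      rw [hγdef, PowerSeries.derivative_coe, PowerSeries.derivative_coe, ← hcast]
      simp only [Polynomial.coe_sub, Polynomial.coe_mul, Polynomial.coe_X, Polynomial.coe_C]
    rw [h1, hdB, hB]
    simp only [nsmul_eq_mul]
    ring
  have hZ' : PowerSeries.X * PowerSeries.derivative k f - c • f =
      (γ⁻¹) ^ 2 * ((X * (derivative B * C₁ - B * derivative C₁) -
        Polynomial.C (c : k) * (B * C₁) : k[X]) : PowerSeries k) := by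
    rw [hZ, ← mul_assoc, ← mul_pow, hγi, one_pow, one_mul]
  rw [s36thin_X_pow_dvd_coe] at h ⊢
  rw [hZ]
  apply Dvd.dvd.mul_left
  apply s36thin_ps_dvd_succ
  rw [hZ']
  exact Dvd.dvd.mul_left h _

/-- **Residue of a derivative is zero, at `0`.**  `C = X^(c+1) C₁`, `C₁(0) ≠ 0`,
`N = W C² − B' C + B C'`: `X^(2c+1) ∣ N → X^(2c+2) ∣ N`. -/
theorem s36thin_residue_at_zero (W B C₁ : k[X]) (hC₁ : C₁.coeff 0 ≠ 0) (c : ℕ)
    (h : (X : k[X]) ^ (2 * c + 1) ∣
      W * (X ^ (c + 1) * C₁) ^ 2 - derivative B * (X ^ (c + 1) * C₁)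
        + B * derivative (X ^ (c + 1) * C₁)) :
    (X : k[X]) ^ (2 * c + 2) ∣
      W * (X ^ (c + 1) * C₁) ^ 2 - derivative B * (X ^ (c + 1) * C₁)
        + B * derivative (X ^ (c + 1) * C₁) := by
  set Z : k[X] := X * (derivative B * C₁ - B * derivative C₁) -
    Polynomial.C ((c + 1 : ℕ) : k) * (B * C₁) with hZdef
  have hN : W * (X ^ (c + 1) * C₁) ^ 2 - derivative B * (X ^ (c + 1) * C₁)
        + B * derivative (X ^ (c + 1) * C₁) = X ^ (2 * c + 2) * (W * C₁ ^ 2) - X ^ c * Z := by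
    rw [hZdef, derivative_mul, derivative_X_pow_succ, Nat.cast_succ]
    ring
  rw [hN] at h ⊢
  -- `X^(2c+1) ∣ X^c Z`
  have h1 : (X : k[X]) ^ (2 * c + 1) ∣ X ^ c * Z := by
    have h2 : (X : k[X]) ^ (2 * c + 1) ∣ X ^ (2 * c + 2) * (W * C₁ ^ 2) :=
      Dvd.dvd.mul_right (pow_dvd_pow _ (by omega)) _
    have := dvd_sub h2 h
    simpa using this
  have h3 : (X : k[X]) ^ (c + 1) ∣ Z := by
    have e : 2 * c + 1 = c + (c + 1) := by ring
    rw [e, pow_add] at h1
    exact (mul_dvd_mul_iff_left (pow_ne_zero _ X_ne_zero)).1 h1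
  have h4 : (X : k[X]) ^ (c + 1 + 1) ∣ Z := s36thin_Z_dvd_succ B C₁ hC₁ (c + 1) h3
  have h5 : (X : k[X]) ^ (2 * c + 2) ∣ X ^ c * Z := by
    have e : 2 * c + 2 = c + (c + 1 + 1) := by ring
    rw [e, pow_add]
    exact mul_dvd_mul_left _ h4
  exact dvd_sub (Dvd.dvd.mul_right (dvd_refl _) _) h5

/-! ### Taylor shift -/

theorem s36thin_taylor_X_sub_C (a : k) : taylor a (X - C a : k[X]) = X := by
  rw [map_sub, taylor_X, taylor_C, add_sub_cancel_right]

theorem s36thin_taylor_derivative (a : k) (p : k[X]) :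
    taylor a (derivative p) = derivative (taylor a p) := by
  rw [taylor_apply, taylor_apply, derivative_comp]
  simp

theorem s36thin_dvd_iff_taylor (a : k) (p : k[X]) (n : ℕ) :
    (X - C a : k[X]) ^ n ∣ p ↔ (X : k[X]) ^ n ∣ taylor a p := by
  have e : ∀ (r : k) (p : k[X]), taylorAlgHom r p = taylor r p := fun _ _ => rfl
  constructor
  · intro h
    have := map_dvd (taylorAlgHom a) h
    rwa [map_pow, e, e, s36thin_taylor_X_sub_C] at this
  · intro h
    have := map_dvd (taylorAlgHom (-a)) h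
    rw [map_pow, e, e, taylor_taylor, neg_add_cancel, taylor_zero,
      taylor_X, C_neg, ← sub_eq_add_neg] at this
    exact this

/-- **Residue of a derivative is zero.**  `c + 1 = rootMultiplicity a C`,
`N = W C² − B' C + B C'`:  `(X - a)^(2c+1) ∣ N → (X - a)^(2c+2) ∣ N`. -/
theorem s36thin_residue (W B C : k[X]) (hC : C ≠ 0) (a : k) (c : ℕ)
    (hc : rootMultiplicity a C = c + 1)
    (h : (X - Polynomial.C a : k[X]) ^ (2 * c + 1) ∣
      W * C ^ 2 - derivative B * C + B * derivative C) :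
    (X - Polynomial.C a : k[X]) ^ (2 * c + 2) ∣
      W * C ^ 2 - derivative B * C + B * derivative C := by
  obtain ⟨C₁, hC₁, hndvd⟩ := exists_eq_pow_rootMultiplicity_mul_and_not_dvd C hC a
  rw [hc] at hC₁
  have hC₁a : (taylor a C₁).coeff 0 ≠ 0 := by
    rw [taylor_coeff_zero]
    intro h0
    exact hndvd ((dvd_iff_isRoot).2 h0)
  have hT : taylor a C = X ^ (c + 1) * taylor a C₁ := by
    conv_lhs => rw [hC₁]
    rw [taylor_mul, taylor_pow, s36thin_taylor_X_sub_C]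
  have hN : taylor a (W * C ^ 2 - derivative B * C + B * derivative C) =
      taylor a W * (X ^ (c + 1) * taylor a C₁) ^ 2
        - derivative (taylor a B) * (X ^ (c + 1) * taylor a C₁)
        + taylor a B * derivative (X ^ (c + 1) * taylor a C₁) := by
    rw [map_add, map_sub, taylor_mul, taylor_mul, taylor_mul, taylor_pow,
      s36thin_taylor_derivative, s36thin_taylor_derivative, hT]
  rw [s36thin_dvd_iff_taylor, hN] at h ⊢
  exact s36thin_residue_at_zero (taylor a W) (taylor a B) (taylor a C₁) hC₁a c h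

/-! ### root multiplicities -/

theorem s36thin_rootMultiplicity_pow (p : k[X]) (hp : p ≠ 0) (a : k) (n : ℕ) :
    rootMultiplicity a (p ^ n) = n * rootMultiplicity a p := by
  induction n with
  | zero => simp
  | succ n ih =>
    rw [pow_succ, rootMultiplicity_mul (mul_ne_zero (pow_ne_zero n hp) hp), ih]
    ring

/-- `rm_a P + 6 rm_a N = rm_a G + 12 rm_a C`. -/
theorem s36thin_rootMultiplicity_rel {P N G C : k[X]} (hP : P ≠ 0) (hG : G ≠ 0) (hC : C ≠ 0)
    (h : P * N ^ 6 = G * C ^ 12) (a : k) :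
    rootMultiplicity a P + 6 * rootMultiplicity a N =
      rootMultiplicity a G + 12 * rootMultiplicity a C := by
  have hR : G * C ^ 12 ≠ 0 := mul_ne_zero hG (pow_ne_zero _ hC)
  have hL : P * N ^ 6 ≠ 0 := h ▸ hR
  have hN : N ≠ 0 := by
    rintro rfl
    simp at hL
  have := congrArg (rootMultiplicity a) h
  rwa [rootMultiplicity_mul hL, rootMultiplicity_mul hR, s36thin_rootMultiplicity_pow N hN,
    s36thin_rootMultiplicity_pow C hC] at this

/-- `rm_a P ≡ rm_a G mod 6`. -/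
theorem s36thin_six_dvd_add {P N G C : k[X]} (hP : P ≠ 0) (hG : G ≠ 0) (hC : C ≠ 0)
    (h : P * N ^ 6 = G * C ^ 12) (a : k) :
    6 ∣ rootMultiplicity a P + 5 * rootMultiplicity a G := by
  have := s36thin_rootMultiplicity_rel hP hG hC h a
  omega

/-- **Every zero of `P` off the zeros of `G` has order `≥ 12`.** -/
theorem s36thin_pow_twelve_dvd {P G W B C : k[X]} (hC : C ≠ 0)
    (h : P * (W * C ^ 2 - derivative B * C + B * derivative C) ^ 6 = G * C ^ 12)
    (a : k) (hPa : P.eval a = 0) (hGa : G.eval a ≠ 0) :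
    (X - Polynomial.C a : k[X]) ^ 12 ∣ P := by
  by_cases hP : P = 0
  · rw [hP]; exact dvd_zero _
  have hG : G ≠ 0 := by
    rintro rfl
    simp at hGa
  set N : k[X] := W * C ^ 2 - derivative B * C + B * derivative C with hNdef
  have hrel := s36thin_rootMultiplicity_rel hP hG hC h a
  have hGm : rootMultiplicity a G = 0 := rootMultiplicity_eq_zero hGa
  have hPm : 0 < rootMultiplicity a P := (rootMultiplicity_pos hP).2 hPa
  rw [hGm, zero_add] at hrel
  have hN : N ≠ 0 := by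
    intro hN0
    rw [hN0] at h
    have : G * C ^ 12 ≠ 0 := mul_ne_zero hG (pow_ne_zero _ hC)
    apply this
    rw [← h]
    simp
  -- `rm C ≥ 1`
  obtain ⟨c, hc⟩ : ∃ c, rootMultiplicity a C = c + 1 := by
    refine ⟨rootMultiplicity a C - 1, ?_⟩
    omega
  -- `rm N ≠ 2c + 1`
  have hne : rootMultiplicity a N ≠ 2 * c + 1 := by
    intro heq
    have h1 : (X - Polynomial.C a : k[X]) ^ (2 * c + 1) ∣ N := by
      rw [← heq]; exact pow_rootMultiplicity_dvd N a
    have h2 := s36thin_residue W B C hC a c hc h1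
    have h3 : 2 * c + 2 ≤ rootMultiplicity a N := (le_rootMultiplicity_iff hN).2 h2
    omega
  have h12 : 12 ≤ rootMultiplicity a P := by omega
  exact (pow_dvd_pow _ h12).trans (pow_rootMultiplicity_dvd P a)

/-! ### the `j`-line -/

section JLine

variable (q : ℕ)

/-- a zero `a ≠ 0, 1728` of `P` has order `≥ 12`. -/
theorem s36thin_j_generic {P B C : k[X]} (hC : C ≠ 0)
    (h : P * (X ^ (q - 1) * C ^ 2 - derivative B * C + B * derivative C) ^ 6 =
      (X ^ 4 * (X - Polynomial.C (1728 : k)) ^ 3) ^ (q - 1) * C ^ 12)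
    (a : k) (hPa : P.eval a = 0) (ha0 : a ≠ 0) (ha : a ≠ 1728) :
    (X - Polynomial.C a : k[X]) ^ 12 ∣ P := by
  refine s36thin_pow_twelve_dvd hC h a hPa ?_
  simp only [eval_pow, eval_mul, eval_X, eval_sub, eval_C]
  exact pow_ne_zero _ (mul_ne_zero (pow_ne_zero _ ha0) (pow_ne_zero _ (sub_ne_zero.2 ha)))

theorem s36thin_G_ne_zero :
    ((X ^ 4 * (X - Polynomial.C (1728 : k)) ^ 3) ^ (q - 1) : k[X]) ≠ 0 :=
  pow_ne_zero _ (mul_ne_zero (pow_ne_zero _ X_ne_zero) (pow_ne_zero _ (X_sub_C_ne_zero _)))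

theorem s36thin_rootMultiplicity_G_zero (h1728 : (1728 : k) ≠ 0) :
    rootMultiplicity (0 : k) ((X ^ 4 * (X - Polynomial.C (1728 : k)) ^ 3) ^ (q - 1) : k[X]) =
      (q - 1) * 4 := by
  have hX : (X : k[X]) = X - Polynomial.C (0 : k) := by simp
  have h0 : (X ^ 4 * (X - Polynomial.C (1728 : k)) ^ 3 : k[X]) ≠ 0 :=
    mul_ne_zero (pow_ne_zero _ X_ne_zero) (pow_ne_zero _ (X_sub_C_ne_zero _))
  rw [s36thin_rootMultiplicity_pow _ h0, rootMultiplicity_mul h0]
  congr 1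
  have e1 : rootMultiplicity (0 : k) ((X : k[X]) ^ 4) = 4 := by
    conv_lhs => rw [hX]
    exact rootMultiplicity_X_sub_C_pow 0 4
  have e2 : rootMultiplicity (0 : k) ((X - Polynomial.C (1728 : k)) ^ 3 : k[X]) = 0 := by
    apply rootMultiplicity_eq_zero
    simp only [IsRoot.def, eval_pow, eval_sub, eval_X, eval_C, zero_sub]
    exact pow_ne_zero _ (neg_ne_zero.2 h1728)
  rw [e1, e2]

theorem s36thin_rootMultiplicity_G_1728 (h1728 : (1728 : k) ≠ 0) :
    rootMultiplicity (1728 : k) ((X ^ 4 * (X - Polynomial.C (1728 : k)) ^ 3) ^ (q - 1) : k[X]) =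
      (q - 1) * 3 := by
  have h0 : (X ^ 4 * (X - Polynomial.C (1728 : k)) ^ 3 : k[X]) ≠ 0 :=
    mul_ne_zero (pow_ne_zero _ X_ne_zero) (pow_ne_zero _ (X_sub_C_ne_zero _))
  rw [s36thin_rootMultiplicity_pow _ h0, rootMultiplicity_mul h0]
  congr 1
  have e1 : rootMultiplicity (1728 : k) ((X : k[X]) ^ 4) = 0 := by
    apply rootMultiplicity_eq_zero
    simp only [IsRoot.def, eval_pow, eval_X]
    exact pow_ne_zero _ h1728
  have e2 : rootMultiplicity (1728 : k) ((X - Polynomial.C (1728 : k)) ^ 3 : k[X]) = 3 :=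
    rootMultiplicity_X_sub_C_pow _ 3
  rw [e1, e2]

/-- a zero of `P` at `0` has order `≥ 4` (`q` prime to `3`, `1728 ≠ 0` in `k`). -/
theorem s36thin_j_zero {P N C : k[X]} (hP : P ≠ 0) (hC : C ≠ 0)
    (h : P * N ^ 6 = (X ^ 4 * (X - Polynomial.C (1728 : k)) ^ 3) ^ (q - 1) * C ^ 12)
    (h1728 : (1728 : k) ≠ 0) (hq3 : ¬ 3 ∣ q) (hq0 : 0 < q) (hP0 : P.eval 0 = 0) :
    (X : k[X]) ^ 4 ∣ P := by
  have hrel := s36thin_rootMultiplicity_rel hP (s36thin_G_ne_zero q) hC h 0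
  rw [s36thin_rootMultiplicity_G_zero q h1728] at hrel
  have hPm : 0 < rootMultiplicity (0 : k) P := (rootMultiplicity_pos hP).2 hP0
  have h4 : 4 ≤ rootMultiplicity (0 : k) P := by omega
  have := (pow_dvd_pow (X - Polynomial.C (0 : k)) h4).trans (pow_rootMultiplicity_dvd P 0)
  simpa using this

/-- a zero of `P` at `1728` has order `≥ 6` (`q` odd, `1728 ≠ 0` in `k`). -/
theorem s36thin_j_1728 {P N C : k[X]} (hP : P ≠ 0) (hC : C ≠ 0)
    (h : P * N ^ 6 = (X ^ 4 * (X - Polynomial.C (1728 : k)) ^ 3) ^ (q - 1) * C ^ 12)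
    (h1728 : (1728 : k) ≠ 0) (hq2 : ¬ 2 ∣ q) (hP0 : P.eval 1728 = 0) :
    (X - Polynomial.C (1728 : k) : k[X]) ^ 6 ∣ P := by
  have hrel := s36thin_rootMultiplicity_rel hP (s36thin_G_ne_zero q) hC h 1728
  rw [s36thin_rootMultiplicity_G_1728 q h1728] at hrel
  have hPm : 0 < rootMultiplicity (1728 : k) P := (rootMultiplicity_pos hP).2 hP0
  have h6 : 6 ≤ rootMultiplicity (1728 : k) P := by omega
  exact (pow_dvd_pow _ h6).trans (pow_rootMultiplicity_dvd P 1728)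

end JLine

/-! ### from identities in a field `K ∋ t` to the polynomial identity -/

/-- If `t ∈ K` is transcendental over `k`, `P(t) · H⁶ = G(t)` and
`H · C(t)² = (W C² − B' C + B C')(t)`, then `P · N⁶ = G · C¹²` in `k[X]`. -/
theorem s36thin_poly_of_aeval {K : Type*} [Field K] [Algebra k K] {t : K}
    (ht : Transcendental k t) {P G W B C : k[X]} {H : K}
    (h1 : aeval t P * H ^ 6 = aeval t G)
    (h2 : H * aeval t C ^ 2 = aeval t (W * C ^ 2 - derivative B * C + B * derivative C)) :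
    P * (W * C ^ 2 - derivative B * C + B * derivative C) ^ 6 = G * C ^ 12 := by
  have hinj : Function.Injective (aeval (R := k) t) := transcendental_iff_injective.1 ht
  apply hinj
  rw [map_mul, map_pow, ← h2, map_mul, map_pow, ← h1]
  ring

end Fermat.Agent.S36


end ZBS36_008_0

/-! ### bundled: `Fermat.Agent.S36.ThinFormal` -/
section ZBS36_008_1

/-!
# S36 (Carayol), G-thin (T3): the formal `q`-series part (helper37)

* `s36tf_theta_j_pow_six` : `(θ j)⁶ = j⁴ (j − 1728)³ Δ` in `ℤ((Q))`;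
  `s36tf_theta_j_pow_six_field` : the same over a field, with `G = X⁴ (X − 1728)³` explicit.
* `s36tfFrobQuot q t` : the Frobenius quotient `A = (t^q − t(Q^q)) / q ∈ ℤ((Q))` of an integral
  series `t`;  `s36tf_frobQuot_spec : C q * A = t ^ q − qExpand ℤ q t`.
* `s36tf_theta_frobQuot` : in characteristic `q`, `θ Ā = t̄^{q-1} θ t̄ − (θ t̄)^q`.
* `s36tf_H_mul_sq` : if `Ā · C(t̄) = B(t̄)` (`Ā ∈ k(t̄)`) then, with `H = (θ t̄)^{q-1}`,
  `H · C(t̄)² = (X^{q-1} C² − B' C + B C')(t̄)`.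
* `s36tf_main` : `(θ t̄)⁶ = g(t̄) Δ̄`, `P₀(t̄) = D₀(t̄) Δ̄^{1-q}`, `Ā C(t̄) = B(t̄)`, `t̄` transcendental
  `⇒ P₀ · N⁶ = (D₀ g^{q-1}) · C¹²`, `N = X^{q-1} C² − B' C + B C'`  (the hypothesis of `ThinOrd`).
* `s36tf_j_generic`, `s36tf_j_zero`, `s36tf_j_1728` : the `j`-line: `P₀(j̄) = Δ̄^{1-q}`,
  `Ā_j C(j̄) = B(j̄)`: every zero `a ≠ 0, 1728` of `P₀` has order `≥ 12`, a zero at `0` has order
  `≥ 4`, a zero at `1728` order `≥ 6`  (`q ≥ 5`).
-/

set_option autoImplicit false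
set_option linter.style.haveILetI false
set_option linter.unusedSectionVars false
set_option linter.unusedVariables false

noncomputable section

namespace Fermat.Agent.S36

open Polynomial ModularCurve HahnSeries
open Fermat.Agent.S28 Fermat.Agent.S28.Deriv Fermat.Agent.ES.I2

/-! ### `(θ j)⁶ = j⁴ (j − 1728)³ Δ` -/

theorem s36tf_theta_j_pow_six :
    thetaFun (jqModC ℤ) ^ 6 = jqModC ℤ ^ 4 * (jqModC ℤ - 1728) ^ 3 * deltaZ := by
  rw [mf_theta_j, mf_j_sub_eq, mf_j_eq]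
  have h2 := mf_deltaInvZ_mul
  linear_combination (-(mfE4L ^ 12 * mfE6L ^ 6 * deltaInvZ ^ 6)) * h2

theorem s36tf_theta_j_pow_six_ring (R : Type*) [CommRing R] :
    thetaFun (jqModC R) ^ 6 = jqModC R ^ 4 * (jqModC R - 1728) ^ 3 * deltaS R := by
  have h := congrArg (coeffMap (Int.castRingHom R)) s36tf_theta_j_pow_six
  rw [map_pow, ← thetaFun_coeffMap, coeffMap_jqModC, map_mul, map_mul, map_pow, map_pow, map_sub,
    coeffMap_jqModC, map_ofNat] at h
  exact h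

theorem s36tf_theta_j_pow_six_field (k : Type*) [Field k] :
    thetaFun (jqModC k) ^ 6 =
      aeval (jqModC k) (X ^ 4 * (X - Polynomial.C (1728 : k)) ^ 3 : k[X]) * deltaS k := by
  rw [s36tf_theta_j_pow_six_ring k]
  simp only [map_mul, map_pow, map_sub, aeval_X, aeval_C]
  congr 2
  rw [map_ofNat]

/-! ### the Frobenius quotient -/

section FrobQuot

variable (q : ℕ) [hq : Fact q.Prime]

instance s36tf_neZero : NeZero q := ⟨hq.out.ne_zero⟩

/-- In characteristic `q`, for a series with coefficients in the prime field: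
`F(Q^q) = F(Q)^q`. -/
theorem s36tf_qExpand_eq_pow (k : Type*) [CommRing k] [CharP k q] (F : LaurentSeries ℤ) :
    qExpand k q (coeffMap (Int.castRingHom k) F) = coeffMap (Int.castRingHom k) F ^ q := by
  haveI : ExpChar k q := ExpChar.prime hq.out
  rw [Fermat.Agent.ES.kron_frobenius_pow q (coeffMap (Int.castRingHom k) F), coeffMap_coeffMap]
  congr 1
  exact coeffMap_congr (RingHom.ext_int _ _) _

/-- every coefficient of `t^q − t(Q^q)` is divisible by `q`. -/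
theorem s36tf_dvd_coeff (t : LaurentSeries ℤ) (n : ℤ) :
    (q : ℤ) ∣ (t ^ q - qExpand ℤ q t).coeff n := by
  have h : coeffMap (Int.castRingHom (ZMod q)) (t ^ q - qExpand ℤ q t) = 0 := by
    rw [map_sub, map_pow, ModularCurve.coeffMap_qExpand, s36tf_qExpand_eq_pow, sub_self]
  have h1 := congrArg (fun x : LaurentSeries (ZMod q) => x.coeff n) h
  simp only [coeffMap_coeff, HahnSeries.coeff_zero] at h1
  exact (ZMod.intCast_zmod_eq_zero_iff_dvd _ q).1 h1

/-- the Frobenius quotient `(t^q − t(Q^q)) / q` of an integral Laurent series. -/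
def s36tfFrobQuot (t : LaurentSeries ℤ) : LaurentSeries ℤ where
  coeff n := (t ^ q - qExpand ℤ q t).coeff n / (q : ℤ)
  isPWO_support' := (t ^ q - qExpand ℤ q t).isPWO_support.mono (fun n hn => by
    simp only [Function.mem_support, ne_eq] at hn ⊢
    intro h
    exact hn (by rw [h, Int.zero_ediv]))

theorem s36tf_frobQuot_spec (t : LaurentSeries ℤ) :
    (HahnSeries.C (q : ℤ) : LaurentSeries ℤ) * s36tfFrobQuot q t = t ^ q - qExpand ℤ q t := by
  ext n
  rw [HahnSeries.C_mul_eq_smul, HahnSeries.coeff_smul, smul_eq_mul]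
  show (q : ℤ) * ((t ^ q - qExpand ℤ q t).coeff n / (q : ℤ)) = _
  exact Int.mul_ediv_cancel' (s36tf_dvd_coeff q t n)

/-- `θ A = t^{q-1} θ t − (θ t)(Q^q)` over `ℤ`. -/
theorem s36tf_theta_frobQuot_int (t A : LaurentSeries ℤ)
    (hA : (HahnSeries.C (q : ℤ) : LaurentSeries ℤ) * A = t ^ q - qExpand ℤ q t) :
    thetaFun A = t ^ (q - 1) * thetaFun t - qExpand ℤ q (thetaFun t) := by
  have h := congrArg thetaFun hA
  rw [thetaFun_mul, thetaFun_C, mul_zero, add_zero, thetaFun_sub, thetaFun_pow,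
    thetaFun_qExpand] at h
  have hq0 : (HahnSeries.C (q : ℤ) : LaurentSeries ℤ) ≠ 0 :=
    HahnSeries.C_ne_zero (Nat.cast_ne_zero.mpr hq.out.ne_zero)
  have hcast : ((q : ℕ) : LaurentSeries ℤ) = HahnSeries.C (q : ℤ) := by
    rw [← map_natCast (HahnSeries.C : ℤ →+* LaurentSeries ℤ) q]
  apply mul_left_cancel₀ hq0
  rw [h, hcast]
  ring

/-- **(T3), formal part**: in characteristic `q`, `θ Ā = t̄^{q-1} θ t̄ − (θ t̄)^q`. -/
theorem s36tf_theta_frobQuot (k : Type*) [CommRing k] [CharP k q] (t A : LaurentSeries ℤ)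
    (hA : (HahnSeries.C (q : ℤ) : LaurentSeries ℤ) * A = t ^ q - qExpand ℤ q t) :
    thetaFun (coeffMap (Int.castRingHom k) A) =
      coeffMap (Int.castRingHom k) t ^ (q - 1) * thetaFun (coeffMap (Int.castRingHom k) t)
        - thetaFun (coeffMap (Int.castRingHom k) t) ^ q := by
  rw [thetaFun_coeffMap, s36tf_theta_frobQuot_int q t A hA, map_sub, map_mul, map_pow,
    ModularCurve.coeffMap_qExpand, s36tf_qExpand_eq_pow, thetaFun_coeffMap]

end FrobQuot

/-! ### `H C² = (X^{q-1} C² − B' C + B C')(t̄)` -/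

/-- If `Ā ∈ k(t̄)`, `Ā · C(t̄) = B(t̄)`, and `θ Ā = t̄^{q-1} θ t̄ − (θ t̄)^q` with `θ t̄ ≠ 0`, then
`H := (θ t̄)^{q-1}` satisfies `H · C(t̄)² = (X^{q-1} C² − B' C + B C')(t̄)`. -/
theorem s36tf_H_mul_sq {k : Type*} [Field k] (q : ℕ) (hq : 0 < q)
    (tb Ab : LaurentSeries k) (hθ : thetaFun tb ≠ 0)
    (hAb : thetaFun Ab = tb ^ (q - 1) * thetaFun tb - thetaFun tb ^ q)
    (B C : k[X]) (hBC : Ab * aeval tb C = aeval tb B) :
    thetaFun tb ^ (q - 1) * aeval tb C ^ 2 =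
      aeval tb (X ^ (q - 1) * C ^ 2 - derivative B * C + B * derivative C) := by
  have h := congrArg thetaFun hBC
  rw [thetaFun_mul, thetaFun_aeval, thetaFun_aeval, hAb] at h
  have hpow : thetaFun tb ^ q = thetaFun tb ^ (q - 1) * thetaFun tb := by
    rw [← pow_succ, Nat.sub_add_cancel hq]
  rw [hpow] at h
  apply mul_right_cancel₀ hθ
  simp only [map_add, map_sub, map_mul, map_pow, aeval_X]
  linear_combination (-(aeval tb C)) * h + (aeval tb (derivative C) * thetaFun tb) * hBC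

/-! ### the main formal statement -/

/-- **(T2) + (T3), formal.**  `t̄ ∈ k((Q))` transcendental over `k` (char `q`), reduction of the
integral series `t`; `(θ t̄)⁶ = g(t̄) Δ̄`, `g ≠ 0`; `P₀(t̄) = D₀(t̄) · Δ̄^{1-q}`; the Frobenius quotient
`Ā` is the rational function `B(t̄) / C(t̄)`.  Then `P₀ · N⁶ = (D₀ g^{q-1}) · C¹²` with
`N = X^{q-1} C² − B' C + B C'`. -/
theorem s36tf_main {k : Type*} [Field k] (q : ℕ) [hq : Fact q.Prime] [CharP k q]
    (t A : LaurentSeries ℤ)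
    (hA : (HahnSeries.C (q : ℤ) : LaurentSeries ℤ) * A = t ^ q - qExpand ℤ q t)
    (ht : Transcendental k (coeffMap (Int.castRingHom k) t))
    (g : k[X]) (hg0 : g ≠ 0)
    (hg : thetaFun (coeffMap (Int.castRingHom k) t) ^ 6 =
      aeval (coeffMap (Int.castRingHom k) t) g * deltaS k)
    (P₀ D₀ B C : k[X])
    (hP : aeval (coeffMap (Int.castRingHom k) t) P₀ =
      aeval (coeffMap (Int.castRingHom k) t) D₀ * (deltaS k * deltaInvS k ^ q))
    (hBC : coeffMap (Int.castRingHom k) A * aeval (coeffMap (Int.castRingHom k) t) C =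
      aeval (coeffMap (Int.castRingHom k) t) B) :
    P₀ * (X ^ (q - 1) * C ^ 2 - derivative B * C + B * derivative C) ^ 6 =
      (D₀ * g ^ (q - 1)) * C ^ 12 := by
  set tb := coeffMap (Int.castRingHom k) t with htb
  have hΔ : deltaS k * deltaInvS k = 1 := deltaS_mul_deltaInvS k
  have hg1 : aeval tb g ≠ 0 := by
    intro h0
    exact hg0 ((transcendental_iff_injective.1 ht) (by rw [h0, map_zero]))
  have hθ : thetaFun tb ≠ 0 := by
    intro h0
    rw [h0] at hg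
    have : aeval tb g * deltaS k ≠ 0 := mul_ne_zero hg1 (deltaS_ne_zero k)
    exact this (by rw [← hg]; simp)
  have hq1 : 0 < q := hq.out.pos
  have h2 := s36tf_H_mul_sq q hq1 tb (coeffMap (Int.castRingHom k) A) hθ
    (s36tf_theta_frobQuot q k t A hA) B C hBC
  refine s36thin_poly_of_aeval ht (H := thetaFun tb ^ (q - 1)) ?_ h2
  -- `P₀(t̄) H⁶ = D₀(t̄) g(t̄)^{q-1}`
  have hpow : deltaS k ^ (q - 1) * deltaS k = deltaS k ^ q := by
    rw [← pow_succ, Nat.sub_add_cancel hq1]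
  have hΔq : deltaS k ^ q * deltaInvS k ^ q = 1 := by
    rw [← mul_pow, hΔ, one_pow]
  rw [hP, ← pow_mul, mul_comm (q - 1) 6, pow_mul, hg, mul_pow, map_mul, map_pow]
  calc aeval tb D₀ * (deltaS k * deltaInvS k ^ q) * (aeval tb g ^ (q - 1) * deltaS k ^ (q - 1))
      = aeval tb D₀ * aeval tb g ^ (q - 1) * ((deltaS k ^ (q - 1) * deltaS k) * deltaInvS k ^ q) := by
        ring
    _ = aeval tb D₀ * aeval tb g ^ (q - 1) := by rw [hpow, hΔq, mul_one]

/-! ### the `j`-line -/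

section JLine

variable {k : Type*} [Field k] (q : ℕ) [hq : Fact q.Prime] [CharP k q]

theorem s36tf_1728_ne_zero (h5 : 5 ≤ q) : (1728 : k) ≠ 0 := by
  intro h
  have h1 : ((1728 : ℕ) : k) = 0 := by exact_mod_cast h
  rw [CharP.cast_eq_zero_iff k q] at h1
  have h2 : (1728 : ℕ) = 2 ^ 6 * 3 ^ 3 := by norm_num
  rw [h2] at h1
  rcases (Nat.Prime.dvd_mul hq.out).1 h1 with h3 | h3
  · have := (Nat.prime_dvd_prime_iff_eq hq.out Nat.prime_two).1 (hq.out.dvd_of_dvd_pow h3)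
    omega
  · have := (Nat.prime_dvd_prime_iff_eq hq.out Nat.prime_three).1 (hq.out.dvd_of_dvd_pow h3)
    omega

/-- the polynomial identity on the `j`-line. -/
theorem s36tf_j_poly (P₀ B C : k[X])
    (hP : aeval (jqModC k) P₀ = deltaS k * deltaInvS k ^ q)
    (hBC : coeffMap (Int.castRingHom k) (s36tfFrobQuot q (jqModC ℤ)) * aeval (jqModC k) C =
      aeval (jqModC k) B) :
    P₀ * (X ^ (q - 1) * C ^ 2 - derivative B * C + B * derivative C) ^ 6 =
      (X ^ 4 * (X - Polynomial.C (1728 : k)) ^ 3) ^ (q - 1) * C ^ 12 := by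
  have hj : coeffMap (Int.castRingHom k) (jqModC ℤ) = jqModC k := coeffMap_jqModC _
  have hg0 : (X ^ 4 * (X - Polynomial.C (1728 : k)) ^ 3 : k[X]) ≠ 0 :=
    mul_ne_zero (pow_ne_zero _ X_ne_zero) (pow_ne_zero _ (X_sub_C_ne_zero _))
  have := s36tf_main q (jqModC ℤ) (s36tfFrobQuot q (jqModC ℤ)) (s36tf_frobQuot_spec q _)
    (by rw [hj]; exact red_transcendental_jqModC k)
    (X ^ 4 * (X - Polynomial.C (1728 : k)) ^ 3) hg0
    (by rw [hj]; exact s36tf_theta_j_pow_six_field k) P₀ 1 B C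
    (by rw [hj, map_one, one_mul]; exact hP) (by rw [hj]; exact hBC)
  rwa [one_mul] at this

theorem s36tf_P₀_ne_zero (P₀ : k[X]) (hP : aeval (jqModC k) P₀ = deltaS k * deltaInvS k ^ q) :
    P₀ ≠ 0 := by
  rintro rfl
  rw [map_zero] at hP
  have h1 : deltaInvS k ≠ 0 := by
    intro h0
    have := deltaS_mul_deltaInvS k
    rw [h0, mul_zero] at this
    exact zero_ne_one this
  exact mul_ne_zero (deltaS_ne_zero k) (pow_ne_zero _ h1) hP.symm

/-- **Zeros of `P₀ = Δ̄^{1-q}` off `0, 1728` have order `≥ 12`.** -/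
theorem s36tf_j_generic (P₀ B C : k[X]) (hC : C ≠ 0)
    (hP : aeval (jqModC k) P₀ = deltaS k * deltaInvS k ^ q)
    (hBC : coeffMap (Int.castRingHom k) (s36tfFrobQuot q (jqModC ℤ)) * aeval (jqModC k) C =
      aeval (jqModC k) B)
    (a : k) (hPa : P₀.eval a = 0) (ha0 : a ≠ 0) (ha : a ≠ 1728) :
    (X - Polynomial.C a : k[X]) ^ 12 ∣ P₀ :=
  s36thin_j_generic q hC (s36tf_j_poly q P₀ B C hP hBC) a hPa ha0 ha

/-- a zero of `P₀` at `0` has order `≥ 4` (`q ≥ 5`). -/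
theorem s36tf_j_zero (h5 : 5 ≤ q) (P₀ B C : k[X]) (hC : C ≠ 0)
    (hP : aeval (jqModC k) P₀ = deltaS k * deltaInvS k ^ q)
    (hBC : coeffMap (Int.castRingHom k) (s36tfFrobQuot q (jqModC ℤ)) * aeval (jqModC k) C =
      aeval (jqModC k) B)
    (hP0 : P₀.eval 0 = 0) :
    (X : k[X]) ^ 4 ∣ P₀ := by
  have h1728 : (1728 : k) ≠ 0 := s36tf_1728_ne_zero q h5
  have hq3 : ¬ 3 ∣ q := by
    intro h
    have := (Nat.prime_dvd_prime_iff_eq Nat.prime_three hq.out).1 h
    omega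
  exact s36thin_j_zero q (s36tf_P₀_ne_zero q P₀ hP) hC (s36tf_j_poly q P₀ B C hP hBC) h1728 hq3
    hq.out.pos hP0

/-- a zero of `P₀` at `1728` has order `≥ 6` (`q ≥ 5`). -/
theorem s36tf_j_1728 (h5 : 5 ≤ q) (P₀ B C : k[X]) (hC : C ≠ 0)
    (hP : aeval (jqModC k) P₀ = deltaS k * deltaInvS k ^ q)
    (hBC : coeffMap (Int.castRingHom k) (s36tfFrobQuot q (jqModC ℤ)) * aeval (jqModC k) C =
      aeval (jqModC k) B)
    (hP0 : P₀.eval 1728 = 0) :
    (X - Polynomial.C (1728 : k) : k[X]) ^ 6 ∣ P₀ := by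
  have h1728 : (1728 : k) ≠ 0 := s36tf_1728_ne_zero q h5
  have hq2 : ¬ 2 ∣ q := by
    intro h
    have := (Nat.prime_dvd_prime_iff_eq Nat.prime_two hq.out).1 h
    omega
  exact s36thin_j_1728 q (s36tf_P₀_ne_zero q P₀ hP) hC (s36tf_j_poly q P₀ B C hP hBC) h1728 hq2
    hP0

end JLine

end Fermat.Agent.S36

end
end ZBS36_008_1

/-! ### bundled: `Fermat.Agent.S36.ThinTransfer` -/
section ZBS36_008_2

/-!
# S36 (Carayol), G-thin (T4): transfer of the orders to a domain `R ∋ t, P` (helper37)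

Mathlib + `ThinOrd`.  `R` a domain and `k`-algebra, `t, P ∈ R`, `t` transcendental over `k`,

  `P · N(t)⁶ = G(t) · C(t)¹²`  in `R`,      `N = W C² − B' C + B C'`,

`𝔪` a prime ideal of `R` with `P ∈ 𝔪` and `t − a ∈ 𝔪` (`a ∈ k`).

* `s36thin_transfer` : `∃ m s u, s ∉ 𝔪 ∧ s · P = u · (t − a)^m`, with `1 ≤ m`,
  `m ≡ rootMultiplicity a G mod 6`, and `12 ≤ m` if `G(a) ≠ 0`.
* `s36thin_hord_j` : the `j`-line (`G = (X⁴ (X − 1728)³)^(q-1)`), with the rigidity inputs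
  `j ∈ 𝔪 → ∃ s ∉ 𝔪, s · j ∈ 𝔪³` and `j − 1728 ∈ 𝔪 → ∃ s ∉ 𝔪, s · (j − 1728) ∈ 𝔪²`:
  `∃ s ∉ 𝔪, s · P ∈ 𝔪¹²`   (= `hord` of the crossing criterion after localisation).
* `s36thin_hord_generic` : any coordinate `t` without elliptic values (`G(a) ≠ 0`):
  `∃ s ∉ 𝔪, s · P ∈ 𝔪¹²`.
-/

set_option autoImplicit false
set_option linter.style.haveILetI false
set_option linter.unusedSectionVars false
set_option linter.unusedVariables false

namespace Fermat.Agent.S36

open Polynomial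

variable {k : Type*} [Field k] {R : Type*} [CommRing R] [Algebra k R]

/-- `f(t) ≡ f(a)` modulo `t − a`. -/
theorem s36thin_aeval_sub_mem (t : R) (a : k) (f : k[X]) (I : Ideal R)
    (ha : t - algebraMap k R a ∈ I) : aeval t f - algebraMap k R (f.eval a) ∈ I := by
  have h1 : aeval t f = (f.map (algebraMap k R)).eval t := by
    rw [eval_map, aeval_def]
  have h2 : algebraMap k R (f.eval a) = (f.map (algebraMap k R)).eval (algebraMap k R a) := by
    rw [eval_map, eval₂_at_apply]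
  rw [h1, h2]
  obtain ⟨c, hc⟩ := Polynomial.sub_dvd_eval_sub t (algebraMap k R a) (f.map (algebraMap k R))
  rw [hc]
  exact I.mul_mem_right _ ha

/-- `f(a) ≠ 0 ⇒ f(t) ∉ 𝔪` for a prime ideal `𝔪 ∋ t − a`. -/
theorem s36thin_aeval_not_mem (t : R) (a : k) (f : k[X]) (𝔪 : Ideal R) [h𝔪 : 𝔪.IsPrime]
    (ha : t - algebraMap k R a ∈ 𝔪) (hf : f.eval a ≠ 0) : aeval t f ∉ 𝔪 := by
  intro hmem
  have h1 := s36thin_aeval_sub_mem t a f 𝔪 ha
  have h2 : algebraMap k R (f.eval a) ∈ 𝔪 := by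
    have := 𝔪.sub_mem hmem h1
    simpa using this
  have h3 : IsUnit (algebraMap k R (f.eval a)) := (IsUnit.mk0 _ hf).map _
  exact h𝔪.ne_top (Ideal.eq_top_of_isUnit_mem _ h2 h3)

variable [IsDomain R]

/-- **Transfer.** -/
theorem s36thin_transfer (t P : R) (ht : Function.Injective (aeval (R := k) t))
    (G W B C : k[X]) (hG : G ≠ 0) (hC : C ≠ 0)
    (h : P * (aeval t (W * C ^ 2 - derivative B * C + B * derivative C)) ^ 6 =
      aeval t G * (aeval t C) ^ 12)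
    (𝔪 : Ideal R) [h𝔪 : 𝔪.IsPrime] (a : k) (ha : t - algebraMap k R a ∈ 𝔪) (hP : P ∈ 𝔪) :
    ∃ (m : ℕ) (s u : R), s ∉ 𝔪 ∧ s * P = u * (t - algebraMap k R a) ^ m ∧ 1 ≤ m ∧
      6 ∣ m + 5 * rootMultiplicity a G ∧ (G.eval a ≠ 0 → 12 ≤ m) := by
  classical
  set N : k[X] := W * C ^ 2 - derivative B * C + B * derivative C with hNdef
  have hN : N ≠ 0 := by
    intro hN0
    rw [hN0, map_zero, zero_pow (by norm_num), mul_zero] at h
    have h0 : aeval t (G * C ^ 12) = 0 := by rw [map_mul, map_pow, ← h]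
    have := ht (h0.trans (map_zero _).symm)
    exact mul_ne_zero hG (pow_ne_zero _ hC) this
  obtain ⟨N₁, hN₁, hN₁d⟩ := exists_eq_pow_rootMultiplicity_mul_and_not_dvd N hN a
  obtain ⟨C₁, hC₁, hC₁d⟩ := exists_eq_pow_rootMultiplicity_mul_and_not_dvd C hC a
  obtain ⟨G₁, hG₁, hG₁d⟩ := exists_eq_pow_rootMultiplicity_mul_and_not_dvd G hG a
  set ν := rootMultiplicity a N with hν
  set c := rootMultiplicity a C with hc
  set γ := rootMultiplicity a G with hγ
  have hN₁a : N₁.eval a ≠ 0 := fun h0 => hN₁d ((dvd_iff_isRoot).2 h0)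
  have hC₁a : C₁.eval a ≠ 0 := fun h0 => hC₁d ((dvd_iff_isRoot).2 h0)
  have hG₁a : G₁.eval a ≠ 0 := fun h0 => hG₁d ((dvd_iff_isRoot).2 h0)
  set τ : R := t - algebraMap k R a with hτ
  have hτe : aeval t (X - Polynomial.C a : k[X]) = τ := by
    rw [map_sub, aeval_X, aeval_C]
  have hτ0 : τ ≠ 0 := by
    rw [← hτe]
    intro h0
    have := ht (h0.trans (map_zero _).symm)
    exact X_sub_C_ne_zero a this
  set n₁ := aeval t N₁ with hn₁
  set c₁ := aeval t C₁ with hc₁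
  set g₁ := aeval t G₁ with hg₁
  have hn₁m : n₁ ∉ 𝔪 := s36thin_aeval_not_mem t a N₁ 𝔪 ha hN₁a
  have hc₁m : c₁ ∉ 𝔪 := s36thin_aeval_not_mem t a C₁ 𝔪 ha hC₁a
  have hg₁m : g₁ ∉ 𝔪 := s36thin_aeval_not_mem t a G₁ 𝔪 ha hG₁a
  have eN : aeval t N = τ ^ ν * n₁ := by
    conv_lhs => rw [hN₁]
    rw [map_mul, map_pow, hτe]
  have eC : aeval t C = τ ^ c * c₁ := by
    conv_lhs => rw [hC₁]
    rw [map_mul, map_pow, hτe]
  have eG : aeval t G = τ ^ γ * g₁ := by
    conv_lhs => rw [hG₁]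
    rw [map_mul, map_pow, hτe]
  rw [eN, eC, eG] at h
  -- `P τ^{6ν} n₁⁶ = τ^{γ + 12c} g₁ c₁¹²`
  have h' : τ ^ (6 * ν) * (P * n₁ ^ 6) = τ ^ (γ + 12 * c) * (g₁ * c₁ ^ 12) := by
    have e1 : τ ^ (6 * ν) = (τ ^ ν) ^ 6 := by rw [← pow_mul, mul_comm]
    have e2 : τ ^ (γ + 12 * c) = τ ^ γ * (τ ^ c) ^ 12 := by rw [pow_add, ← pow_mul, mul_comm c 12]
    rw [e1, e2]
    linear_combination h
  have hum : g₁ * c₁ ^ 12 ∉ 𝔪 := by
    intro hmem
    rcases h𝔪.mem_or_mem hmem with h1 | h1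
    · exact hg₁m h1
    · exact hc₁m (h𝔪.mem_of_pow_mem _ h1)
  have hlt : 6 * ν < γ + 12 * c := by
    by_contra hge
    have hge := Nat.le_of_not_lt hge
    obtain ⟨d, hd⟩ := Nat.exists_eq_add_of_le hge
    rw [hd, pow_add, mul_assoc] at h'
    have h2 := mul_left_cancel₀ (pow_ne_zero _ hτ0) h'
    apply hum
    rw [← h2]
    exact 𝔪.mul_mem_left _ (𝔪.mul_mem_right _ hP)
  obtain ⟨m, hm⟩ := Nat.exists_eq_add_of_lt hlt
  -- `γ + 12 c = 6 ν + m + 1`
  have h'' : τ ^ (6 * ν) * (P * n₁ ^ 6) = τ ^ (6 * ν) * (τ ^ (m + 1) * (g₁ * c₁ ^ 12)) := by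
    rw [h', hm]
    ring
  have h3 := mul_left_cancel₀ (pow_ne_zero _ hτ0) h''
  refine ⟨m + 1, n₁ ^ 6, g₁ * c₁ ^ 12, ?_, ?_, by omega, ?_, ?_⟩
  · exact fun hmem => hn₁m (h𝔪.mem_of_pow_mem _ hmem)
  · rw [mul_comm, h3, mul_comm]
  · exact ⟨γ + 2 * c - ν, by omega⟩
  · intro hGa
    have hγ0 : γ = 0 := rootMultiplicity_eq_zero hGa
    -- `c ≥ 1`
    obtain ⟨c', hc'⟩ : ∃ c', c = c' + 1 := ⟨c - 1, by omega⟩
    have hne : ν ≠ 2 * c' + 1 := by
      intro heq
      have h1 : (X - Polynomial.C a : k[X]) ^ (2 * c' + 1) ∣ N := by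
        rw [← heq]; exact pow_rootMultiplicity_dvd N a
      have h2 := s36thin_residue W B C hC a c' hc' h1
      have h4 : 2 * c' + 2 ≤ rootMultiplicity a N := (le_rootMultiplicity_iff hN).2 h2
      omega
    omega

/-- **`hord`, any coordinate without elliptic value at the point**: `∃ s ∉ 𝔪, s · P ∈ 𝔪¹²`. -/
theorem s36thin_hord_generic (t P : R) (ht : Function.Injective (aeval (R := k) t))
    (G W B C : k[X]) (hC : C ≠ 0)
    (h : P * (aeval t (W * C ^ 2 - derivative B * C + B * derivative C)) ^ 6 =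
      aeval t G * (aeval t C) ^ 12)
    (𝔪 : Ideal R) [h𝔪 : 𝔪.IsPrime] (a : k) (ha : t - algebraMap k R a ∈ 𝔪) (hP : P ∈ 𝔪)
    (hGa : G.eval a ≠ 0) :
    ∃ s : R, s ∉ 𝔪 ∧ s * P ∈ 𝔪 ^ 12 := by
  have hG : G ≠ 0 := by
    rintro rfl
    simp at hGa
  obtain ⟨m, s, u, hs, hsu, -, -, h12⟩ := s36thin_transfer t P ht G W B C hG hC h 𝔪 a ha hP
  refine ⟨s, hs, ?_⟩
  rw [hsu]
  apply Ideal.mul_mem_left
  exact Ideal.pow_le_pow_right (h12 hGa) (Ideal.pow_mem_pow ha m)

/-- auxiliary: `s · x ∈ 𝔪^e` and `e m ≥ 12` give `s^m · x^m ∈ 𝔪¹²`. -/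
theorem s36thin_pow_mem (𝔪 : Ideal R) (s x : R) (e m : ℕ) (h : s * x ∈ 𝔪 ^ e)
    (hem : 12 ≤ e * m) : s ^ m * x ^ m ∈ 𝔪 ^ 12 := by
  rw [← mul_pow]
  have h1 : (s * x) ^ m ∈ (𝔪 ^ e) ^ m := Ideal.pow_mem_pow h m
  rw [← pow_mul] at h1
  exact Ideal.pow_le_pow_right hem h1

/-- **`hord` on the `j`-line**, with the rigidity inputs at `j = 0` and `j = 1728`. -/
theorem s36thin_hord_j (q : ℕ) (hq3 : ¬ 3 ∣ q) (hq2 : ¬ 2 ∣ q) (h1728 : (1728 : k) ≠ 0)
    (j P : R) (hj : Function.Injective (aeval (R := k) j))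
    (B C : k[X]) (hC : C ≠ 0)
    (h : P * (aeval j (X ^ (q - 1) * C ^ 2 - derivative B * C + B * derivative C)) ^ 6 =
      aeval j ((X ^ 4 * (X - Polynomial.C (1728 : k)) ^ 3) ^ (q - 1) : k[X]) * (aeval j C) ^ 12)
    (𝔪 : Ideal R) [h𝔪 : 𝔪.IsPrime] (a : k) (ha : j - algebraMap k R a ∈ 𝔪) (hP : P ∈ 𝔪)
    (hrig0 : j ∈ 𝔪 → ∃ s : R, s ∉ 𝔪 ∧ s * j ∈ 𝔪 ^ 3)
    (hrig1728 : j - 1728 ∈ 𝔪 → ∃ s : R, s ∉ 𝔪 ∧ s * (j - 1728) ∈ 𝔪 ^ 2) :
    ∃ s : R, s ∉ 𝔪 ∧ s * P ∈ 𝔪 ^ 12 := by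
  have hq0 : 0 < q := Nat.pos_of_ne_zero (fun h0 => hq3 (h0 ▸ dvd_zero 3))
  obtain ⟨m, s, u, hs, hsu, hm1, hm6, h12⟩ :=
    s36thin_transfer j P hj _ (X ^ (q - 1)) B C (s36thin_G_ne_zero q) hC h 𝔪 a ha hP
  by_cases ha0 : a = 0
  · -- `a = 0`
    subst ha0
    rw [s36thin_rootMultiplicity_G_zero q h1728] at hm6
    have hm4 : 4 ≤ m := by omega
    rw [map_zero, sub_zero] at ha hsu
    obtain ⟨s₁, hs₁, hs₁j⟩ := hrig0 ha
    refine ⟨s₁ ^ m * s, ?_, ?_⟩
    · intro hmem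
      rcases h𝔪.mem_or_mem hmem with h1 | h1
      · exact hs₁ (h𝔪.mem_of_pow_mem _ h1)
      · exact hs h1
    · rw [mul_assoc, hsu]
      have := s36thin_pow_mem 𝔪 s₁ j 3 m hs₁j (by omega)
      have e : s₁ ^ m * (u * j ^ m) = u * (s₁ ^ m * j ^ m) := by ring
      rw [e]
      exact Ideal.mul_mem_left _ _ this
  by_cases ha1 : a = 1728
  · subst ha1
    rw [s36thin_rootMultiplicity_G_1728 q h1728] at hm6
    have hm6' : 6 ≤ m := by omega
    rw [map_ofNat] at ha hsu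
    obtain ⟨s₁, hs₁, hs₁j⟩ := hrig1728 ha
    refine ⟨s₁ ^ m * s, ?_, ?_⟩
    · intro hmem
      rcases h𝔪.mem_or_mem hmem with h1 | h1
      · exact hs₁ (h𝔪.mem_of_pow_mem _ h1)
      · exact hs h1
    · rw [mul_assoc, hsu]
      have := s36thin_pow_mem 𝔪 s₁ (j - 1728) 2 m hs₁j (by omega)
      have e : s₁ ^ m * (u * (j - 1728) ^ m) = u * (s₁ ^ m * (j - 1728) ^ m) := by ring
      rw [e]
      exact Ideal.mul_mem_left _ _ this
  · -- generic
    have hGa : ((X ^ 4 * (X - Polynomial.C (1728 : k)) ^ 3) ^ (q - 1) : k[X]).eval a ≠ 0 := by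
      simp only [eval_pow, eval_mul, eval_X, eval_sub, eval_C]
      exact pow_ne_zero _ (mul_ne_zero (pow_ne_zero _ ha0) (pow_ne_zero _ (sub_ne_zero.2 ha1)))
    refine ⟨s, hs, ?_⟩
    rw [hsu]
    apply Ideal.mul_mem_left
    exact Ideal.pow_le_pow_right (h12 hGa) (Ideal.pow_mem_pow ha m)

end Fermat.Agent.S36


end ZBS36_008_2

/-! ### bundled: `Fermat.Agent.S36.ThinKron` -/
section ZBS36_008_3

/-!
# S36 (Carayol), G-thin (T3): `Ā_j ∈ k(j̄)` formally, and `hord` on the `j`-line (helper37)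

`A := (j^q − j(Q^q))/q ∈ ℤ((Q))` (`s36tfFrobQuot q (jqModC ℤ)`), `Ā` its reduction to a field `k`
of characteristic `q`.

* `s36tk_kron` : Kronecker's congruence `Φ_q ≡ (X − Y^q)(X^q − Y) mod q` for the integral modular
  polynomial `Φ_q = UNIP.nodesSwapPhi q` (from `UNIP.cusp_kronecker`).
* `s36tk_exists_psi` : `Φ_q = (X − Y^q)(X^q − Y) + q Ψ`, `Ψ ∈ ℤ[Y][X]`.
* `s36tk_frobQuot_mul` : `A · (j(Q^q)^q − j) = Ψ(j(Q^q), j)` in `ℤ((Q))`.
* `s36tk_beta` : **(β)** `Ā · (j̄^{q²} − j̄) = B(j̄)` for some `B ∈ k[X]`  (`Ā ∈ k(j̄)`, at most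
  simple poles, all at points of `𝔽_{q²}`).
* `s36tk_series` : `Δ̄^{1-q} · N(j̄)⁶ = G(j̄)^{q-1} · C(j̄)¹²` in `k((Q))`, `C = X^{q²} − X`,
  `N = X^{q-1} C² − B' C + B C'`, `G = X⁴ (X − 1728)³`.
* `s36tk_hord` : **`hord`** (`q ≥ 5`): `R` a domain with an injective `k`-algebra map
  `ι : R → k((Q))`, `ι j = j̄`, `ι P = Δ̄^{1-q}`; `𝔪` a prime ideal, `P ∈ 𝔪`, `j − a ∈ 𝔪`, and the
  rigidity inputs at `j = 0`, `j = 1728`  `⇒  ∃ s ∉ 𝔪, s · P ∈ 𝔪¹²`.
-/

set_option autoImplicit false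
set_option linter.style.haveILetI false
set_option linter.unusedSectionVars false
set_option linter.unusedVariables false

noncomputable section

namespace Fermat.Agent.S36

open Polynomial ModularCurve
open Fermat.Agent.S28 Fermat.Agent.S28.Deriv Fermat.Agent.UNIP

variable (q : ℕ) [hq : Fact q.Prime]

/-! ### Kronecker's congruence -/

/-- `(aeval x) ∘ (map ℤ → k) = evalInt x`. -/
theorem s36tk_hev {k : Type*} [Field k] (x : LaurentSeries k) :
    (((aeval x : Polynomial k →ₐ[k] LaurentSeries k) : Polynomial k →+* LaurentSeries k)).comp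
      (mapRingHom (Int.castRingHom k)) = evalInt x := by
  rw [ringHom_eq_evalInt ((((aeval x : Polynomial k →ₐ[k] LaurentSeries k) :
    Polynomial k →+* LaurentSeries k)).comp (mapRingHom (Int.castRingHom k)))]
  congr 1
  simp

/-- **Kronecker's congruence**: `Φ_q ≡ (X − Y^q)(X^q − Y) mod q`. -/
theorem s36tk_kron (k : Type*) [Field k] [CharP k q] :
    (nodesSwapPhi q hq.out).map (mapRingHom (Int.castRingHom k)) =
      (X - C (X ^ q)) * (X ^ q - C X) := by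
  have hm := nodesSwapPhi_monic q hq.out
  have hT : qExpand k q (jqModC k) = jqModC k ^ q := nodesFrobU_hT_j k q
  refine cusp_kronecker q hq.out.two_le _ (hm.map _)
    (by rw [hm.natDegree_map, nodesSwapPhi_natDegree]) (jqModC k)
    (nodesFrobU_transcendental_j k) ?_ ?_
  · rw [eval₂_map, s36tk_hev, ← hT]
    exact nodesSwapPhi_series q hq.out k
  · rw [eval₂_map, s36tk_hev, ← hT]
    exact nodesSwapPhi_series' q hq.out k

/-- a two-variable integer polynomial which vanishes modulo `q` is divisible by `q`. -/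
theorem s36tk_dvd_of_map_eq_zero (P : Polynomial (Polynomial ℤ))
    (h : P.map (mapRingHom (Int.castRingHom (ZMod q))) = 0) :
    C (C (q : ℤ)) ∣ P := by
  rw [C_dvd_iff_dvd_coeff]
  intro i
  rw [C_dvd_iff_dvd_coeff]
  intro j
  have h1 := congrArg (fun p : Polynomial (Polynomial (ZMod q)) => (p.coeff i).coeff j) h
  simp only [coeff_map, coe_mapRingHom, coeff_zero] at h1
  exact (ZMod.intCast_zmod_eq_zero_iff_dvd _ q).1 h1

/-- `Φ_q = (X − Y^q)(X^q − Y) + q Ψ`. -/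
theorem s36tk_exists_psi :
    ∃ Ψ : Polynomial (Polynomial ℤ),
      nodesSwapPhi q hq.out = (X - C (X ^ q)) * (X ^ q - C X) + C (C (q : ℤ)) * Ψ := by
  have h : (nodesSwapPhi q hq.out - (X - C (X ^ q)) * (X ^ q - C X)).map
      (mapRingHom (Int.castRingHom (ZMod q))) = 0 := by
    rw [Polynomial.map_sub, s36tk_kron q (ZMod q)]
    simp
  obtain ⟨Ψ, hΨ⟩ := s36tk_dvd_of_map_eq_zero q _ h
  exact ⟨Ψ, by rw [← hΨ]; ring⟩

/-- the polynomial `Ψ` with `Φ_q = (X − Y^q)(X^q − Y) + q Ψ`. -/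
def s36tkPsi : Polynomial (Polynomial ℤ) := Classical.choose (s36tk_exists_psi q)

theorem s36tkPsi_spec :
    nodesSwapPhi q hq.out = (X - C (X ^ q)) * (X ^ q - C X) + C (C (q : ℤ)) * s36tkPsi q :=
  Classical.choose_spec (s36tk_exists_psi q)

/-! ### `A · (j_q^q − j) = Ψ(j_q, j)` -/

theorem s36tk_frobQuot_mul :
    s36tfFrobQuot q (jqModC ℤ) * ((qExpand ℤ q (jqModC ℤ)) ^ q - jqModC ℤ) =
      (s36tkPsi q).eval₂ (evalInt (jqModC ℤ)) (qExpand ℤ q (jqModC ℤ)) := by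
  have h0 := nodesSwapPhi_series q hq.out ℤ
  rw [s36tkPsi_spec q] at h0
  have hA := s36tf_frobQuot_spec q (jqModC ℤ)
  have hCq : evalInt (jqModC ℤ) (C (q : ℤ)) = (HahnSeries.C (q : ℤ) : LaurentSeries ℤ) := by
    rw [evalInt, coe_eval₂RingHom, eval₂_C]
    simp
  simp only [eval₂_add, eval₂_mul, eval₂_sub, eval₂_X, eval₂_C, eval₂_pow, map_pow, evalInt_X,
    hCq] at h0
  have hq0 : (HahnSeries.C (q : ℤ) : LaurentSeries ℤ) ≠ 0 :=
    HahnSeries.C_ne_zero (Nat.cast_ne_zero.mpr hq.out.ne_zero)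
  apply mul_left_cancel₀ hq0
  linear_combination ((qExpand ℤ q (jqModC ℤ)) ^ q - jqModC ℤ) * hA - h0

/-! ### (β) -/

section Beta

variable (k : Type*) [Field k] [CharP k q]

/-- the numerator `B` of `Ā = B(j̄) / (j̄^{q²} − j̄)`. -/
def s36tkB : k[X] := ((s36tkPsi q).map (mapRingHom (Int.castRingHom k))).eval (X ^ q)

/-- **(β)**: `Ā · (j̄^{q²} − j̄) = B(j̄)`. -/
theorem s36tk_beta :
    coeffMap (Int.castRingHom k) (s36tfFrobQuot q (jqModC ℤ)) *
        aeval (jqModC k) (X ^ (q ^ 2) - X : k[X]) = aeval (jqModC k) (s36tkB q k) := by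
  have h := congrArg (coeffMap (Int.castRingHom k)) (s36tk_frobQuot_mul q)
  rw [map_mul, map_sub, map_pow, ModularCurve.coeffMap_qExpand, coeffMap_jqModC,
    map_eval₂_evalInt, ModularCurve.coeffMap_qExpand, coeffMap_jqModC] at h
  have hT : qExpand k q (jqModC k) = jqModC k ^ q := nodesFrobU_hT_j k q
  rw [hT] at h
  have h1 : aeval (jqModC k) (X ^ (q ^ 2) - X : k[X]) = (jqModC k ^ q) ^ q - jqModC k := by
    rw [map_sub, map_pow, aeval_X, ← pow_mul, pow_two]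
  have h2 : aeval (jqModC k) (s36tkB q k) =
      (s36tkPsi q).eval₂ (evalInt (jqModC k)) (jqModC k ^ q) := by
    rw [s36tkB, ← s36tk_hev, ← eval₂_map]
    have := Polynomial.hom_eval₂ ((s36tkPsi q).map (mapRingHom (Int.castRingHom k)))
      (RingHom.id (Polynomial k))
      ((aeval (jqModC k) : Polynomial k →ₐ[k] LaurentSeries k) : Polynomial k →+* LaurentSeries k)
      (X ^ q)
    rw [RingHom.comp_id] at this
    have hX : ((aeval (jqModC k) : Polynomial k →ₐ[k] LaurentSeries k) :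
        Polynomial k →+* LaurentSeries k) (X ^ q) = jqModC k ^ q := by
      simp
    rw [hX, eval₂_id] at this
    exact this
  rw [h1, h2]
  exact h

theorem s36tk_C_ne_zero : (X ^ (q ^ 2) - X : k[X]) ≠ 0 := by
  intro h0
  have h1 := congrArg (aeval (jqModC k)) h0
  rw [map_sub, map_pow, aeval_X, map_zero, pow_two, pow_mul, sub_eq_zero] at h1
  exact nodesFrobU_hne_j k hq.out.two_le h1

/-- the polynomial `N = X^{q-1} C² − B' C + B C'`, `C = X^{q²} − X`. -/
def s36tkN : k[X] :=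
  X ^ (q - 1) * (X ^ (q ^ 2) - X) ^ 2 - derivative (s36tkB q k) * (X ^ (q ^ 2) - X) +
    s36tkB q k * derivative (X ^ (q ^ 2) - X : k[X])

/-- **`Δ̄^{1-q} · N(j̄)⁶ = G(j̄)^{q-1} · C(j̄)¹²`** in `k((Q))`. -/
theorem s36tk_series :
    (deltaS k * deltaInvS k ^ q) * (aeval (jqModC k) (s36tkN q k)) ^ 6 =
      aeval (jqModC k) ((X ^ 4 * (X - Polynomial.C (1728 : k)) ^ 3) ^ (q - 1) : k[X]) *
        (aeval (jqModC k) (X ^ (q ^ 2) - X : k[X])) ^ 12 := by
  have hj : coeffMap (Int.castRingHom k) (jqModC ℤ) = jqModC k := coeffMap_jqModC _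
  have hg := s36tf_theta_j_pow_six_field k
  have hg1 : aeval (jqModC k) (X ^ 4 * (X - Polynomial.C (1728 : k)) ^ 3 : k[X]) ≠ 0 := by
    intro h0
    have h1 : (X ^ 4 * (X - Polynomial.C (1728 : k)) ^ 3 : k[X]) = 0 :=
      (transcendental_iff_injective.1 (red_transcendental_jqModC k)) (by rw [h0, map_zero])
    exact mul_ne_zero (pow_ne_zero _ X_ne_zero) (pow_ne_zero _ (X_sub_C_ne_zero _)) h1
  have hθ : thetaFun (jqModC k) ≠ 0 := by
    intro h0
    rw [h0] at hg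
    have : aeval (jqModC k) (X ^ 4 * (X - Polynomial.C (1728 : k)) ^ 3 : k[X]) * deltaS k ≠ 0 :=
      mul_ne_zero hg1 (deltaS_ne_zero k)
    exact this (by rw [← hg]; simp)
  have hq1 : 0 < q := hq.out.pos
  have hθA := s36tf_theta_frobQuot q k (jqModC ℤ) (s36tfFrobQuot q (jqModC ℤ))
    (s36tf_frobQuot_spec q _)
  rw [hj] at hθA
  have h2 := s36tf_H_mul_sq q hq1 (jqModC k) _ hθ hθA (s36tkB q k) (X ^ (q ^ 2) - X)
    (s36tk_beta q k)
  have hΔ : deltaS k * deltaInvS k = 1 := deltaS_mul_deltaInvS k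
  have hpow : deltaS k ^ (q - 1) * deltaS k = deltaS k ^ q := by
    rw [← pow_succ, Nat.sub_add_cancel hq1]
  have hΔq : deltaS k ^ q * deltaInvS k ^ q = 1 := by
    rw [← mul_pow, hΔ, one_pow]
  rw [s36tkN, ← h2, mul_pow, ← pow_mul, mul_comm (q - 1) 6, pow_mul, hg, mul_pow, map_pow,
    ← pow_mul]
  calc deltaS k * deltaInvS k ^ q *
        (aeval (jqModC k) (X ^ 4 * (X - Polynomial.C (1728 : k)) ^ 3 : k[X]) ^ (q - 1) *
          deltaS k ^ (q - 1) * aeval (jqModC k) (X ^ (q ^ 2) - X : k[X]) ^ (2 * 6))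
      = aeval (jqModC k) (X ^ 4 * (X - Polynomial.C (1728 : k)) ^ 3 : k[X]) ^ (q - 1) *
          aeval (jqModC k) (X ^ (q ^ 2) - X : k[X]) ^ 12 *
          ((deltaS k ^ (q - 1) * deltaS k) * deltaInvS k ^ q) := by ring
    _ = _ := by rw [hpow, hΔq, mul_one]

/-! ### `hord` on the `j`-line -/

/-- **`hord`, `q ≥ 5`.**  `R` a domain with an injective `k`-algebra homomorphism
`ι : R → k((Q))`, `j, P ∈ R` with `ι j = j̄`, `ι P = Δ̄^{1-q}`; `𝔪` a prime ideal with `P ∈ 𝔪`,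
`j − a ∈ 𝔪` (`a ∈ k`); rigidity at the elliptic values.  Then `∃ s ∉ 𝔪, s · P ∈ 𝔪¹²`. -/
theorem s36tk_hord (h5 : 5 ≤ q) {R : Type*} [CommRing R] [IsDomain R] [Algebra k R]
    (ι : R →ₐ[k] LaurentSeries k) (hι : Function.Injective ι) (j P : R)
    (hj : ι j = jqModC k) (hP : ι P = deltaS k * deltaInvS k ^ q)
    (𝔪 : Ideal R) [h𝔪 : 𝔪.IsPrime] (a : k) (ha : j - algebraMap k R a ∈ 𝔪) (hPm : P ∈ 𝔪)
    (hrig0 : j ∈ 𝔪 → ∃ s : R, s ∉ 𝔪 ∧ s * j ∈ 𝔪 ^ 3)
    (hrig1728 : j - 1728 ∈ 𝔪 → ∃ s : R, s ∉ 𝔪 ∧ s * (j - 1728) ∈ 𝔪 ^ 2) :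
    ∃ s : R, s ∉ 𝔪 ∧ s * P ∈ 𝔪 ^ 12 := by
  have hq3 : ¬ 3 ∣ q := by
    intro h
    have := (Nat.prime_dvd_prime_iff_eq Nat.prime_three hq.out).1 h
    omega
  have hq2 : ¬ 2 ∣ q := by
    intro h
    have := (Nat.prime_dvd_prime_iff_eq Nat.prime_two hq.out).1 h
    omega
  have hιae : ∀ f : k[X], ι (aeval j f) = aeval (jqModC k) f := by
    intro f
    rw [← Polynomial.aeval_algHom_apply, hj]
  have hjinj : Function.Injective (aeval (R := k) j) := by
    intro f g hfg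
    have := congrArg ι hfg
    rw [hιae, hιae] at this
    exact (transcendental_iff_injective.1 (red_transcendental_jqModC k)) this
  refine s36thin_hord_j q hq3 hq2 (s36tf_1728_ne_zero q h5) j P hjinj (s36tkB q k)
    (X ^ (q ^ 2) - X) (s36tk_C_ne_zero q k) ?_ 𝔪 a ha hPm hrig0 hrig1728
  apply hι
  have hs := s36tk_series q k
  rw [s36tkN] at hs
  simp only [map_mul ι, map_pow ι, hιae, hP]
  exact hs

end Beta

end Fermat.Agent.S36

end
end ZBS36_008_3

/-! ### bundled: `Fermat.Agent.R38.TresOggFld` -/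
section ZBS36_008_4

/-!
# Row 38, PKG-TRES, MONO, piece FAC-OGG (helper10), part 0: the reduction `h̄ = Δ̄^{1-q}` of the
Ogg unit is a rational function of `j̄`

`k` a field of characteristic `q` (`q` prime).  `h̄ := Δ̄ · (Δ̄⁻¹)^q = S28.uInvS k q`.

* `tres5o_uInvS_eq`  : `uInvS k q = deltaS k * deltaInvS k ^ q`;
* `tres5o_uS_eq`     : `uS k q = deltaS k ^ q * deltaInvS k`;
* `tres5o_N_ne_zero`, `tres5o_red_eq` : `h̄ = G(j̄)^{q-1} C(j̄)¹² / N(j̄)⁶`, `G = X⁴ (X − 1728)³`,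
  `C = X^{q²} − X`, `N = S36.s36tkN q k` (from `S36.s36tk_series`);
* `tres5o_red_mem`   : **`h̄ ∈ F̄_M = modularFunctionFieldFullC k M`** for EVERY level `M`;
  `tres5o_uInvS_mem`, `tres5o_uS_mem`; `tres5o_red_ne_zero`.
-/

set_option autoImplicit false
set_option linter.unusedSectionVars false
set_option linter.unusedVariables false
set_option linter.style.haveILetI false
set_option linter.style.longLine false

noncomputable section

namespace Fermat.Agent.R38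

open ModularCurve Polynomial Fermat.Agent.UNIP Fermat.Agent.S36 Fermat.Agent.S28

section Fld

variable (q : ℕ) [hq : Fact q.Prime] [NeZero q] (k : Type*) [Field k] [CharP k q]

/-- in characteristic `q`: `Δ̄(Q)/Δ̄(Q^q) = Δ̄ · (Δ̄⁻¹)^q` -/
theorem tres5o_uInvS_eq : uInvS k q = deltaS k * deltaInvS k ^ q := by
  rw [uInvS_eq_mul_qExpand]
  congr 1
  exact nodesFrob_qExpand_int (k := k) q deltaInvZ

/-- in characteristic `q`: `Δ̄(Q^q)/Δ̄(Q) = Δ̄^q · Δ̄⁻¹` -/
theorem tres5o_uS_eq : uS k q = deltaS k ^ q * deltaInvS k := by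
  rw [uS_eq_qExpand_mul]
  congr 1
  exact nodesFrob_qExpand_int (k := k) q deltaZ

theorem tres5o_red_ne_zero : deltaS k * deltaInvS k ^ q ≠ 0 :=
  mul_ne_zero (deltaS_ne_zero k) (pow_ne_zero _ (deltaInvS_ne_zero k))

theorem tres5o_aeval_ne_zero {f : k[X]} (hf : f ≠ 0) : aeval (jqModC k) f ≠ 0 := by
  intro h0
  exact hf ((transcendental_iff_injective.1 (red_transcendental_jqModC k))
    (by rw [h0, map_zero]))

/-- `N(j̄) ≠ 0` -/
theorem tres5o_N_ne_zero : aeval (jqModC k) (s36tkN q k) ≠ 0 := by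
  intro h0
  have h := s36tk_series q k
  rw [h0, zero_pow (by norm_num), mul_zero] at h
  have hG : (X ^ 4 * (X - Polynomial.C (1728 : k)) ^ 3 : k[X]) ^ (q - 1) ≠ 0 :=
    pow_ne_zero _ (mul_ne_zero (pow_ne_zero _ X_ne_zero) (pow_ne_zero _ (X_sub_C_ne_zero _)))
  exact mul_ne_zero (tres5o_aeval_ne_zero k hG)
    (pow_ne_zero _ (tres5o_aeval_ne_zero k (s36tk_C_ne_zero q k))) h.symm

/-- **`Δ̄^{1-q} = G(j̄)^{q-1} C(j̄)¹² / N(j̄)⁶`** -/
theorem tres5o_red_eq :
    deltaS k * deltaInvS k ^ q =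
      aeval (jqModC k) ((X ^ 4 * (X - Polynomial.C (1728 : k)) ^ 3) ^ (q - 1) : k[X]) *
        (aeval (jqModC k) (X ^ (q ^ 2) - X : k[X])) ^ 12 *
          ((aeval (jqModC k) (s36tkN q k)) ^ 6)⁻¹ := by
  rw [← s36tk_series q k, mul_assoc, mul_inv_cancel₀ (pow_ne_zero _ (tres5o_N_ne_zero q k)),
    mul_one]

omit hq [NeZero q] [CharP k q] in
/-- polynomials in `j̄` lie in `F̄_M` -/
theorem tres5o_aeval_mem (M : ℕ) (f : k[X]) :
    aeval (jqModC k) f ∈ modularFunctionFieldFullC k M := by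
  have h := Polynomial.aeval_algebraMap_apply (LaurentSeries k)
    (⟨jqModC k, jqModC_mem_full k M⟩ : modularFunctionFieldFullC k M) f
  have e : algebraMap (modularFunctionFieldFullC k M) (LaurentSeries k)
      ⟨jqModC k, jqModC_mem_full k M⟩ = jqModC k := rfl
  rw [e] at h
  rw [h]
  exact (aeval (⟨jqModC k, jqModC_mem_full k M⟩ : modularFunctionFieldFullC k M) f).2

/-- **the reduction of the Ogg unit lies in `F̄_M`**, for every level `M` -/
theorem tres5o_red_mem (M : ℕ) :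
    deltaS k * deltaInvS k ^ q ∈ modularFunctionFieldFullC k M := by
  rw [tres5o_red_eq q k]
  exact mul_mem (mul_mem (tres5o_aeval_mem k M _) (pow_mem (tres5o_aeval_mem k M _) _))
    (inv_mem (pow_mem (tres5o_aeval_mem k M _) _))

theorem tres5o_uInvS_mem (M : ℕ) : uInvS k q ∈ modularFunctionFieldFullC k M := by
  rw [tres5o_uInvS_eq q k]
  exact tres5o_red_mem q k M

theorem tres5o_uS_mem (M : ℕ) : uS k q ∈ modularFunctionFieldFullC k M := by
  have h : uS k q = (uInvS k q)⁻¹ :=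
    eq_inv_of_mul_eq_one_left (uS_mul_uInvS k q)
  rw [h]
  exact inv_mem (tres5o_uInvS_mem q k M)

end Fld

end Fermat.Agent.R38

end
end ZBS36_008_4

/-! ### bundled: `Fermat.Agent.R38.TresOggRed` -/
section ZBS36_008_5

/-!
# Row 38, PKG-TRES, MONO, piece FAC-OGG (helper10), part 2: the reduction of the Ogg unit

`h = S36.s36tuV ↥K₀ ιC ∈ F_{Mq}(K₀)`, `Q`-expansion `Δ(Q)/Δ(Q^q) = S28.uInvS ↥K₀ q`.
`k` a field of characteristic `q`; `h̄ := Δ̄ · (Δ̄⁻¹)^q = Δ̄^{1-q} = S28.uInvS k q`.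

(`h̄ ∈ F̄_M` for every level `M`: `R38/TresOggFld.lean`, `tres5o_red_mem`.)

* `tres5o_nfEmb_coe` : the `Q`-expansion of `h` over `ℚ̄`;
* `tres5o_gaussRed`  : `ES.M.GaussRed (M * q) A (nfEmb K₀ (M * q) h) h̄`;
* `tres5o_r38Red`    : `R38Red A (h : ℚ̄((Q))) h̄`;
(`tres5o_mgvRed` : `mgvRed hπ ιC hq hqM true h = h̄` is in `R38/TresOggMgv.lean`.)
-/

set_option autoImplicit false
set_option linter.unusedSectionVars false
set_option linter.unusedVariables false
set_option linter.style.haveILetI false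
set_option linter.style.longLine false

noncomputable section

namespace Fermat.Agent.R38

open ModularCurve Polynomial Fermat.Agent.INJ Fermat.Agent.UNIP Fermat.Agent.S36
  Fermat.Agent.S33 Fermat.Agent.S28 Fermat.Agent.ES Fermat.Agent.ES.M Fermat.Agent.ES.G2

section Red

variable {A : ValuationSubring Qb} {K₀ : IntermediateField ℚ Qb} (ιC : ↥K₀ →+* ℂ)
  {q M : ℕ} [NeZero q] [NeZero M] [NeZero (M * q)]

/-- the `Q`-expansion of the Ogg unit over `ℚ̄` -/
theorem tres5o_nfEmb_coe :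
    ((nfEmb K₀ (M * q) (s36tuV ↥K₀ ιC (q := q) (M := M)) : modularFunctionFieldBar (M * q)) :
      LaurentSeries Qb) = uInvS Qb q := by
  rw [nfEmb_coe, s36tuV_coe, coeffMap_uInvS]

theorem tres5o_kronIncl_uInvS : kronIncl A (uInvS ↥A q) = uInvS Qb q :=
  coeffMap_uInvS q A.subtype

theorem tres5o_kronRed_uInvS : kronRed A (uInvS ↥A q) = uInvS (kA A) q :=
  coeffMap_uInvS q (IsLocalRing.residue ↥A)

theorem tres5o_uInvS_ne_zero (k : Type*) [Field k] : uInvS k q ≠ 0 := by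
  intro h
  have := uS_mul_uInvS k q
  rw [h, mul_zero] at this
  exact zero_ne_one this

/-- **Gauss reduction of the Ogg unit** (fraction form of `ES/M/Plan.lean`) -/
theorem tres5o_gaussRed_uInvS :
    GaussRed (M * q) A (nfEmb K₀ (M * q) (s36tuV ↥K₀ ιC (q := q) (M := M)))
      (uInvS (kA A) q) := by
  refine ⟨uInvS ↥A q, 1, ?_, ?_, ?_, ?_, ?_⟩
  · rw [tres5o_kronIncl_uInvS, ← tres5o_nfEmb_coe (K₀ := K₀) (M := M) ιC]
    exact (nfEmb K₀ (M * q) (s36tuV ↥K₀ ιC (q := q) (M := M))).2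
  · rw [map_one]
    exact one_mem _
  · rw [map_one]
    exact one_ne_zero
  · rw [map_one, mul_one, tres5o_nfEmb_coe, tres5o_kronIncl_uInvS]
  · rw [map_one, mul_one, tres5o_kronRed_uInvS]

/-- **Gauss reduction of the Ogg unit** (`R38Red` form) -/
theorem tres5o_r38Red_uInvS : R38Red A (uInvS Qb q) (uInvS (kA A) q) := by
  refine ⟨1, uInvS ↥A q, 1, one_ne_zero, ?_, ?_, ?_, ?_⟩
  · rw [tres5o_kronRed_uInvS]
    exact tres5o_uInvS_ne_zero (kA A)
  · rw [map_one]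
    exact one_ne_zero
  · rw [map_one, mul_one, map_one, one_mul, tres5o_kronIncl_uInvS]
  · rw [map_one, mul_one, tres5o_kronRed_uInvS]

variable (hq : q.Prime)

include hq in
/-- **Gauss reduction of the Ogg unit**, `h̄ = Δ̄ (Δ̄⁻¹)^q` -/
theorem tres5o_gaussRed (hA : A.LiesOverPrime q) :
    GaussRed (M * q) A (nfEmb K₀ (M * q) (s36tuV ↥K₀ ιC (q := q) (M := M)))
      (deltaS (kA A) * deltaInvS (kA A) ^ q) := by
  haveI : Fact q.Prime := ⟨hq⟩
  haveI : CharP (kA A) q := Fermat.Agent.RED.charP_residueField A hq hA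
  rw [← tres5o_uInvS_eq q (kA A)]
  exact tres5o_gaussRed_uInvS ιC

include hq in
/-- **Gauss reduction of the Ogg unit** (`R38Red` form), `h̄ = Δ̄ (Δ̄⁻¹)^q` -/
theorem tres5o_r38Red (hA : A.LiesOverPrime q) :
    R38Red A
      ((nfEmb K₀ (M * q) (s36tuV ↥K₀ ιC (q := q) (M := M)) : modularFunctionFieldBar (M * q)) :
        LaurentSeries Qb)
      (deltaS (kA A) * deltaInvS (kA A) ^ q) := by
  haveI : Fact q.Prime := ⟨hq⟩
  haveI : CharP (kA A) q := Fermat.Agent.RED.charP_residueField A hq hA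
  rw [← tres5o_uInvS_eq q (kA A), tres5o_nfEmb_coe]
  exact tres5o_r38Red_uInvS

end Red

end Fermat.Agent.R38

end
end ZBS36_008_5

/-! ### bundled: `Fermat.Agent.S36.ThinIrr` -/
section ZBS36_008_6

/-!
# S36 (Carayol), G-thin (T3″): `hord` without a rational point (helper37)

`ThinTransfer.s36thin_hord_j` needs a rational point `j − a ∈ 𝔪`, `a ∈ k`.  Here the residue field
`k` is arbitrary: at a prime `𝔪` with `G(t) ∉ 𝔪` the contraction `𝔪 ∩ k[t] = (f)` is used instead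
(`C` is separable, so `f` divides `C` exactly once).

* `s36thin_hord_irr` : `P · N(t)⁶ = G(t) · C(t)¹²`, `IsCoprime C C'`, `P ∈ 𝔪`, `G(t) ∉ 𝔪`
  `⇒ ∃ s ∉ 𝔪, s · P ∈ 𝔪¹²`.
* `s36thin_hord_j'` : the `j`-line, any prime `𝔪 ∋ P`.
* `s36tk_hord'` : **`hord` (`q ≥ 5`)** for `ι : R →ₐ[k] k((Q))` injective, any prime `𝔪 ∋ P`.
* `s36tk_hord_ringHom` : the same for a ring homomorphism `ι : R →+* k((Q))` whose image
  contains the constants (no `k`-algebra structure on `R` is needed).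
-/

set_option autoImplicit false
set_option linter.style.haveILetI false
set_option linter.unusedSectionVars false
set_option linter.unusedVariables false

noncomputable section

namespace Fermat.Agent.S36

open Polynomial ModularCurve
open Fermat.Agent.S28 Fermat.Agent.S28.Deriv Fermat.Agent.UNIP

section Irr

variable {k : Type*} [Field k] {R : Type*} [CommRing R] [Algebra k R] [IsDomain R]

/-- **`hord` at a prime without elliptic value**, no rational point needed. -/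
theorem s36thin_hord_irr (t P : R) (ht : Function.Injective (aeval (R := k) t))
    (G W B C : k[X]) (hG : G ≠ 0) (hC : C ≠ 0) (hCsep : IsCoprime C (derivative C))
    (h : P * (aeval t (W * C ^ 2 - derivative B * C + B * derivative C)) ^ 6 =
      aeval t G * (aeval t C) ^ 12)
    (𝔪 : Ideal R) [h𝔪 : 𝔪.IsPrime] (hP : P ∈ 𝔪) (hGm : aeval t G ∉ 𝔪) :
    ∃ s : R, s ∉ 𝔪 ∧ s * P ∈ 𝔪 ^ 12 := by
  classical
  set φ : k[X] →+* R := (aeval (R := k) t : k[X] →ₐ[k] R).toRingHom with hφ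
  have hφa : ∀ g : k[X], φ g = aeval t g := fun g => rfl
  set 𝔭₀ : Ideal k[X] := 𝔪.comap φ with h𝔭₀
  haveI hprime : 𝔭₀.IsPrime := Ideal.comap_isPrime φ 𝔪
  have hCm : aeval t C ∈ 𝔪 := by
    have h1 : aeval t G * aeval t C ^ 12 ∈ 𝔪 := by
      rw [← h]; exact 𝔪.mul_mem_right _ hP
    rcases h𝔪.mem_or_mem h1 with h2 | h2
    · exact absurd h2 hGm
    · exact h𝔪.mem_of_pow_mem _ h2
  obtain ⟨f, hf⟩ : ∃ f : k[X], 𝔭₀ = Ideal.span {f} :=
    (IsPrincipalIdealRing.principal 𝔭₀).principal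
  have hmem : ∀ g : k[X], aeval t g ∈ 𝔪 ↔ f ∣ g := by
    intro g
    rw [← Ideal.mem_span_singleton, ← hf]
    rfl
  have hfC : f ∣ C := (hmem C).1 hCm
  have hf0 : f ≠ 0 := by
    rintro rfl
    exact hC (zero_dvd_iff.1 hfC)
  have hfprime : Prime f := by
    have := hprime
    rw [hf] at this
    exact (Ideal.span_singleton_prime hf0).1 this
  have hfm : aeval t f ∈ 𝔪 := (hmem f).2 dvd_rfl
  have hft0 : aeval t f ≠ 0 := by
    intro h0
    exact hf0 (ht (h0.trans (map_zero _).symm))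
  obtain ⟨C₁, hC₁⟩ := hfC
  have hfC' : ¬ f ∣ derivative C := by
    intro hd
    obtain ⟨a, b, hab⟩ := hCsep
    have h1 : f ∣ a * C + b * derivative C :=
      dvd_add (Dvd.dvd.mul_left ⟨C₁, hC₁⟩ a) (Dvd.dvd.mul_left hd b)
    rw [hab] at h1
    exact hfprime.not_isUnit (isUnit_of_dvd_one h1)
  have hfC₁ : ¬ f ∣ C₁ := by
    rintro ⟨C₂, hC₂⟩
    apply hfC'
    rw [hC₁, hC₂]
    refine ⟨derivative f * C₂ + (derivative f * C₂ + f * derivative C₂), ?_⟩
    simp only [derivative_mul]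
    ring
  have hc₁m : aeval t C₁ ∉ 𝔪 := fun hm => hfC₁ ((hmem C₁).1 hm)
  by_cases hfB : f ∣ B
  · -- impossible: then `f² ∣ N` and `P` would be a unit at `𝔪`
    exfalso
    obtain ⟨B₁, hB₁⟩ := hfB
    have hN : W * C ^ 2 - derivative B * C + B * derivative C =
        f ^ 2 * (W * C₁ ^ 2 + (B₁ * derivative C₁ - derivative B₁ * C₁)) := by
      rw [hC₁, hB₁]
      simp only [derivative_mul]
      ring
    rw [hN, hC₁] at h
    simp only [map_mul, map_pow] at h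
    have h2 : aeval t f ^ 12 * (P * aeval t (W * C₁ ^ 2 +
        (B₁ * derivative C₁ - derivative B₁ * C₁)) ^ 6) =
        aeval t f ^ 12 * (aeval t G * aeval t C₁ ^ 12) := by
      linear_combination h
    have h3 := mul_left_cancel₀ (pow_ne_zero 12 hft0) h2
    have h4 : aeval t G * aeval t C₁ ^ 12 ∈ 𝔪 := by
      rw [← h3]; exact 𝔪.mul_mem_right _ hP
    rcases h𝔪.mem_or_mem h4 with h5 | h5
    · exact hGm h5
    · exact hc₁m (h𝔪.mem_of_pow_mem _ h5)
  · -- `f ∤ N`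
    have hN : ¬ f ∣ W * C ^ 2 - derivative B * C + B * derivative C := by
      intro hd
      have hfC : f ∣ C := ⟨C₁, hC₁⟩
      have h1 : f ∣ W * C ^ 2 - derivative B * C :=
        dvd_sub (Dvd.dvd.mul_left (dvd_pow hfC two_ne_zero) W) (Dvd.dvd.mul_left hfC _)
      have h2 : f ∣ B * derivative C := (dvd_add_right h1).1 hd
      rcases hfprime.dvd_or_dvd h2 with h3 | h3
      · exact hfB h3
      · exact hfC' h3
    have hNm : aeval t (W * C ^ 2 - derivative B * C + B * derivative C) ∉ 𝔪 :=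
      fun hm => hN ((hmem _).1 hm)
    refine ⟨aeval t (W * C ^ 2 - derivative B * C + B * derivative C) ^ 6,
      fun hm => hNm (h𝔪.mem_of_pow_mem _ hm), ?_⟩
    rw [mul_comm, h, hC₁, map_mul, mul_pow]
    apply Ideal.mul_mem_left
    apply Ideal.mul_mem_right
    exact Ideal.pow_mem_pow hfm 12

/-- **`hord` on the `j`-line**, any prime `𝔪 ∋ P` (no rational point). -/
theorem s36thin_hord_j' (q : ℕ) (hq3 : ¬ 3 ∣ q) (hq2 : ¬ 2 ∣ q) (h1728 : (1728 : k) ≠ 0)
    (j P : R) (hj : Function.Injective (aeval (R := k) j))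
    (B C : k[X]) (hC : C ≠ 0) (hCsep : IsCoprime C (derivative C))
    (h : P * (aeval j (X ^ (q - 1) * C ^ 2 - derivative B * C + B * derivative C)) ^ 6 =
      aeval j ((X ^ 4 * (X - Polynomial.C (1728 : k)) ^ 3) ^ (q - 1) : k[X]) * (aeval j C) ^ 12)
    (𝔪 : Ideal R) [h𝔪 : 𝔪.IsPrime] (hP : P ∈ 𝔪)
    (hrig0 : j ∈ 𝔪 → ∃ s : R, s ∉ 𝔪 ∧ s * j ∈ 𝔪 ^ 3)
    (hrig1728 : j - 1728 ∈ 𝔪 → ∃ s : R, s ∉ 𝔪 ∧ s * (j - 1728) ∈ 𝔪 ^ 2) :
    ∃ s : R, s ∉ 𝔪 ∧ s * P ∈ 𝔪 ^ 12 := by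
  by_cases h0 : j ∈ 𝔪
  · exact s36thin_hord_j q hq3 hq2 h1728 j P hj B C hC h 𝔪 0 (by simpa using h0) hP hrig0
      hrig1728
  by_cases h1 : j - 1728 ∈ 𝔪
  · exact s36thin_hord_j q hq3 hq2 h1728 j P hj B C hC h 𝔪 1728
      (by rw [map_ofNat]; exact h1) hP hrig0 hrig1728
  · refine s36thin_hord_irr j P hj _ (X ^ (q - 1)) B C (s36thin_G_ne_zero q) hC hCsep h 𝔪 hP ?_
    simp only [map_pow, map_mul, map_sub, aeval_X, aeval_C]
    intro hm
    have h2 := h𝔪.mem_of_pow_mem _ hm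
    rcases h𝔪.mem_or_mem h2 with h3 | h3
    · exact h0 (h𝔪.mem_of_pow_mem _ h3)
    · apply h1
      have := h𝔪.mem_of_pow_mem _ h3
      rwa [map_ofNat] at this

end Irr

section Kron

variable (q : ℕ) [hq : Fact q.Prime] (k : Type*) [Field k] [CharP k q]

theorem s36tk_C_sep : IsCoprime (X ^ (q ^ 2) - X : k[X]) (derivative (X ^ (q ^ 2) - X : k[X])) := by
  have hd : derivative (X ^ (q ^ 2) - X : k[X]) = -1 := by
    rw [derivative_sub, derivative_X_pow, derivative_X]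
    have : ((q ^ 2 : ℕ) : k) = 0 := by
      rw [Nat.cast_pow, CharP.cast_eq_zero k q, zero_pow two_ne_zero]
    rw [this, map_zero, zero_mul, zero_sub]
  rw [hd]
  exact (isCoprime_one_right).neg_right

/-- **`hord`, `q ≥ 5`, any prime `𝔪 ∋ P`** (no rational point, `k` arbitrary of char `q`). -/
theorem s36tk_hord' (h5 : 5 ≤ q) {R : Type*} [CommRing R] [IsDomain R] [Algebra k R]
    (ι : R →ₐ[k] LaurentSeries k) (hι : Function.Injective ι) (j P : R)
    (hj : ι j = jqModC k) (hP : ι P = deltaS k * deltaInvS k ^ q)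
    (𝔪 : Ideal R) [h𝔪 : 𝔪.IsPrime] (hPm : P ∈ 𝔪)
    (hrig0 : j ∈ 𝔪 → ∃ s : R, s ∉ 𝔪 ∧ s * j ∈ 𝔪 ^ 3)
    (hrig1728 : j - 1728 ∈ 𝔪 → ∃ s : R, s ∉ 𝔪 ∧ s * (j - 1728) ∈ 𝔪 ^ 2) :
    ∃ s : R, s ∉ 𝔪 ∧ s * P ∈ 𝔪 ^ 12 := by
  have hq3 : ¬ 3 ∣ q := by
    intro h
    have := (Nat.prime_dvd_prime_iff_eq Nat.prime_three hq.out).1 h
    omega
  have hq2 : ¬ 2 ∣ q := by
    intro h
    have := (Nat.prime_dvd_prime_iff_eq Nat.prime_two hq.out).1 h
    omega
  have hιae : ∀ f : k[X], ι (aeval j f) = aeval (jqModC k) f := by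
    intro f
    rw [← Polynomial.aeval_algHom_apply, hj]
  have hjinj : Function.Injective (aeval (R := k) j) := by
    intro f g hfg
    have := congrArg ι hfg
    rw [hιae, hιae] at this
    exact (transcendental_iff_injective.1 (red_transcendental_jqModC k)) this
  refine s36thin_hord_j' q hq3 hq2 (s36tf_1728_ne_zero q h5) j P hjinj (s36tkB q k)
    (X ^ (q ^ 2) - X) (s36tk_C_ne_zero q k) (s36tk_C_sep q k) ?_ 𝔪 hPm hrig0 hrig1728
  apply hι
  have hs := s36tk_series q k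
  rw [s36tkN] at hs
  simp only [map_mul ι, map_pow ι, hιae, hP]
  exact hs

/-- **`hord`, `q ≥ 5`, ring-homomorphism form**: `ι : R →+* k((Q))` injective whose image
contains the constants. -/
theorem s36tk_hord_ringHom (h5 : 5 ≤ q) {R : Type*} [CommRing R] [IsDomain R]
    (ι : R →+* LaurentSeries k) (hι : Function.Injective ι)
    (hk : ∀ c : k, ∃ x : R, ι x = HahnSeries.C c) (j P : R)
    (hj : ι j = jqModC k) (hP : ι P = deltaS k * deltaInvS k ^ q)
    (𝔪 : Ideal R) [h𝔪 : 𝔪.IsPrime] (hPm : P ∈ 𝔪)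
    (hrig0 : j ∈ 𝔪 → ∃ s : R, s ∉ 𝔪 ∧ s * j ∈ 𝔪 ^ 3)
    (hrig1728 : j - 1728 ∈ 𝔪 → ∃ s : R, s ∉ 𝔪 ∧ s * (j - 1728) ∈ 𝔪 ^ 2) :
    ∃ s : R, s ∉ 𝔪 ∧ s * P ∈ 𝔪 ^ 12 := by
  classical
  -- the `k`-algebra structure on `R`
  let g : k → R := fun c => Classical.choose (hk c)
  have hg : ∀ c, ι (g c) = HahnSeries.C c := fun c => Classical.choose_spec (hk c)
  let γ : k →+* R :=
    { toFun := g
      map_one' := hι (by rw [hg, map_one, map_one])
      map_mul' := fun a b => hι (by rw [map_mul, hg, hg, hg, map_mul])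
      map_zero' := hι (by rw [hg, map_zero, map_zero])
      map_add' := fun a b => hι (by rw [map_add, hg, hg, hg, map_add]) }
  letI : Algebra k R := γ.toAlgebra
  let ι' : R →ₐ[k] LaurentSeries k :=
    { ι with
      commutes' := fun c => by
        show ι (g c) = _
        rw [hg]
        first
          | exact (LaurentSeries.algebraMap_apply c).symm
          | exact (Fermat.Agent.S28.algebraMap_eq_hahnC' c).symm }
  exact s36tk_hord' q k h5 ι' hι j P hj hP 𝔪 hPm hrig0 hrig1728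

end Kron

end Fermat.Agent.S36

end
end ZBS36_008_6
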