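/- GENERATED FILE (helper35, build-time optimisation, NOTES/ZB.md): verbatim concatenation of the modules
   Fermat.Agent.S36.RigidLocal
   Fermat.Agent.S36.Rigid4
   Fermat.Agent.S36.Rigid9
   Fermat.Agent.S36.ThinSmall
   Fermat.Agent.S36.ThinChart
   Fermat.Agent.S36.ThinChartId
   Fermat.Agent.S36.ThinMod
   Do not edit; do not import together with these modules. -/
import Mathlib
import Fermat.Agent.ZB.INJ_012
import Fermat.Agent.ZB.S28_002
import Fermat.Agent.ZB.S16_001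
import Fermat.Agent.ZB.S36_008
import Fermat.Agent.ZB.S36_005
import Fermat.Agent.ZB.S36_002
import Fermat.Agent.ZB.UNIP_014
import Fermat.Agent.ZB.UNIP_019

/-! ### bundled: `Fermat.Agent.S36.RigidLocal` -/
section ZBS36_009_0

/-!
# S36 / GAP D, local part: rigidity of level `4` and level `9` at the elliptic values (helper31)

Pure commutative algebra.  `R` a commutative ring, `P` a prime ideal (the closed point), and
elements `j h t : R` satisfying the Hauptmodul relations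

* level 2: `j * h ^ 2 = (h + 256) ^ 3`,
* level 4: `t ^ 2 = h * t + 16 * h`   (`t` the Hauptmodul of `X₀(4)`, `h = t² / (t + 16)`),
* level 3 → 9: `t ^ 3 = h * (t ^ 2 + 9 * t + 27)`  (`t` the Hauptmodul of `X₀(9)`).

Then every elliptic value is attained with multiplicity divisible by its order:

* `s36rig_j_zero`      : `2 ∉ P`, `j ∈ P` ⇒ `∃ s ∉ P, s * j ∈ P ^ 3`;
* `s36rig_j_1728`      : `2 ∉ P`, `j - 1728 ∈ P` ⇒ `∃ s ∉ P, s * (j - 1728) ∈ P ^ 2`;
* `s36rig_h2_neg64`    : `2 ∉ P`, `h + 64 ∈ P` ⇒ `∃ s ∉ P, s * (h + 64) ∈ P ^ 2`;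
* `s36rig_h3_neg27`    : `3 ∉ P`, `h + 27 ∈ P` ⇒ `∃ s ∉ P, s * (h + 27) ∈ P ^ 3`.
-/

set_option autoImplicit false

namespace Fermat.Agent.S36

variable {R : Type*} [CommRing R]

/-- a power of two does not lie in a prime ideal that does not contain `2` -/
theorem s36rig_two_pow_notMem {P : Ideal R} [P.IsPrime] (h2 : (2 : R) ∉ P) (n : ℕ) :
    (2 : R) ^ n ∉ P := fun h => h2 (Ideal.IsPrime.mem_of_pow_mem inferInstance n h)

/-- a power of three does not lie in a prime ideal that does not contain `3` -/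
theorem s36rig_three_pow_notMem {P : Ideal R} [P.IsPrime] (h3 : (3 : R) ∉ P) (n : ℕ) :
    (3 : R) ^ n ∉ P := fun h => h3 (Ideal.IsPrime.mem_of_pow_mem inferInstance n h)

/-- level 2: `h` is a unit at every point of residue characteristic `≠ 2`
where `j` is finite. -/
theorem s36rig_h2_notMem {P : Ideal R} [P.IsPrime] (h2 : (2 : R) ∉ P) {j h : R}
    (hj : j * h ^ 2 = (h + 256) ^ 3) : h ∉ P := by
  intro hh
  have h1 : (h + 256) ^ 3 ∈ P := by
    rw [← hj]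
    exact P.mul_mem_left _ (P.pow_mem_of_mem hh 2 (by norm_num))
  have h2' : h + 256 ∈ P := Ideal.IsPrime.mem_of_pow_mem inferInstance 3 h1
  have h3 : (2 : R) ^ 8 ∈ P := by
    have : (2 : R) ^ 8 = (h + 256) - h := by ring
    rw [this]
    exact P.sub_mem h2' hh
  exact s36rig_two_pow_notMem h2 8 h3

/-- level 4: `t + 16` is a unit at every point of residue characteristic `≠ 2`. -/
theorem s36rig_t4_add_notMem {P : Ideal R} [P.IsPrime] (h2 : (2 : R) ∉ P) {h t : R}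
    (ht : t ^ 2 = h * t + 16 * h) : t + 16 ∉ P := by
  intro hh
  have h1 : (t + 32) ^ 2 ∈ P := by
    have : (t + 32) ^ 2 = (t + 16) * (h + 64) := by linear_combination ht
    rw [this]
    exact P.mul_mem_right _ hh
  have h2' : t + 32 ∈ P := Ideal.IsPrime.mem_of_pow_mem inferInstance 2 h1
  have h3 : (2 : R) ^ 4 ∈ P := by
    have : (2 : R) ^ 4 = (t + 32) - (t + 16) := by ring
    rw [this]
    exact P.sub_mem h2' hh
  exact s36rig_two_pow_notMem h2 4 h3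

/-- **`j = 0` has multiplicity `≥ 3`** at level `2` (residue characteristic `≠ 2`). -/
theorem s36rig_j_zero {P : Ideal R} [P.IsPrime] (h2 : (2 : R) ∉ P) {j h : R}
    (hj : j * h ^ 2 = (h + 256) ^ 3) (hjP : j ∈ P) :
    ∃ s : R, s ∉ P ∧ s * j ∈ P ^ 3 := by
  have hh : h ∉ P := s36rig_h2_notMem h2 hj
  refine ⟨h ^ 2, fun h' => hh (Ideal.IsPrime.mem_of_pow_mem inferInstance 2 h'), ?_⟩
  have h1 : (h + 256) ^ 3 ∈ P := by
    rw [← hj]; exact P.mul_mem_right _ hjP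
  have h2' : h + 256 ∈ P := Ideal.IsPrime.mem_of_pow_mem inferInstance 3 h1
  rw [mul_comm, hj]
  exact Ideal.pow_mem_pow h2' 3

/-- level 2: `(j - 1728) h² = (h + 64)(h - 512)²`. -/
theorem s36rig_j_1728_eq {j h : R} (hj : j * h ^ 2 = (h + 256) ^ 3) :
    (j - 1728) * h ^ 2 = (h + 64) * (h - 512) ^ 2 := by
  linear_combination hj

/-- level 4: `(t + 16)(h + 64) = (t + 32)²`. -/
theorem s36rig_t4_eq {h t : R} (ht : t ^ 2 = h * t + 16 * h) :
    (t + 16) * (h + 64) = (t + 32) ^ 2 := by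
  linear_combination -ht

/-- **`h₂ = -64` has multiplicity `≥ 2`** at level `4` (residue characteristic `≠ 2`). -/
theorem s36rig_h2_neg64 {P : Ideal R} [P.IsPrime] (h2 : (2 : R) ∉ P) {h t : R}
    (ht : t ^ 2 = h * t + 16 * h) (hP : h + 64 ∈ P) :
    ∃ s : R, s ∉ P ∧ s * (h + 64) ∈ P ^ 2 := by
  refine ⟨t + 16, s36rig_t4_add_notMem h2 ht, ?_⟩
  rw [s36rig_t4_eq ht]
  have h1 : (t + 32) ^ 2 ∈ P := by
    rw [← s36rig_t4_eq ht]; exact P.mul_mem_left _ hP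
  exact Ideal.pow_mem_pow (Ideal.IsPrime.mem_of_pow_mem inferInstance 2 h1) 2

/-- **`j = 1728` has multiplicity `≥ 2`** at level `4` (residue characteristic `≠ 2`). -/
theorem s36rig_j_1728 {P : Ideal R} [P.IsPrime] (h2 : (2 : R) ∉ P) {j h t : R}
    (hj : j * h ^ 2 = (h + 256) ^ 3) (ht : t ^ 2 = h * t + 16 * h) (hjP : j - 1728 ∈ P) :
    ∃ s : R, s ∉ P ∧ s * (j - 1728) ∈ P ^ 2 := by
  have hh : h ∉ P := s36rig_h2_notMem h2 hj
  have htt : t + 16 ∉ P := s36rig_t4_add_notMem h2 ht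
  have hs : h ^ 2 * (t + 16) ∉ P := by
    intro h'
    rcases Ideal.IsPrime.mem_or_mem inferInstance h' with h'' | h''
    · exact hh (Ideal.IsPrime.mem_of_pow_mem inferInstance 2 h'')
    · exact htt h''
  refine ⟨h ^ 2 * (t + 16), hs, ?_⟩
  have e : h ^ 2 * (t + 16) * (j - 1728) = ((t + 32) * (h - 512)) ^ 2 := by
    linear_combination (t + 16) * s36rig_j_1728_eq hj + (h - 512) ^ 2 * s36rig_t4_eq ht
  have h1 : ((t + 32) * (h - 512)) ^ 2 ∈ P := by
    rw [← e]; exact P.mul_mem_left _ hjP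
  rw [e]
  exact Ideal.pow_mem_pow (Ideal.IsPrime.mem_of_pow_mem inferInstance 2 h1) 2

/-- level 9: `(h + 27)(t² + 9t + 27) = (t + 9)³`. -/
theorem s36rig_t9_eq {h t : R} (ht : t ^ 3 = h * (t ^ 2 + 9 * t + 27)) :
    (h + 27) * (t ^ 2 + 9 * t + 27) = (t + 9) ^ 3 := by
  linear_combination -ht

/-- **`h₃ = -27` has multiplicity `≥ 3`** at level `9` (residue characteristic `≠ 3`). -/
theorem s36rig_h3_neg27 {P : Ideal R} [P.IsPrime] (h3 : (3 : R) ∉ P) {h t : R}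
    (ht : t ^ 3 = h * (t ^ 2 + 9 * t + 27)) (hP : h + 27 ∈ P) :
    ∃ s : R, s ∉ P ∧ s * (h + 27) ∈ P ^ 3 := by
  have h1 : (t + 9) ^ 3 ∈ P := by
    rw [← s36rig_t9_eq ht]; exact P.mul_mem_right _ hP
  have h2 : t + 9 ∈ P := Ideal.IsPrime.mem_of_pow_mem inferInstance 3 h1
  refine ⟨t ^ 2 + 9 * t + 27, ?_, ?_⟩
  · intro hs
    have h4 : (3 : R) ^ 3 ∈ P := by
      have : (3 : R) ^ 3 = (t ^ 2 + 9 * t + 27) - (t + 9) * t := by ring
      rw [this]
      exact P.sub_mem hs (P.mul_mem_right _ h2)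
    exact s36rig_three_pow_notMem h3 3 h4
  · rw [mul_comm, s36rig_t9_eq ht]
    exact Ideal.pow_mem_pow h2 3

/-- level 3: `h₃` is a unit at every point of residue characteristic `≠ 3` where `j` is
finite. -/
theorem s36rig_h3_notMem {P : Ideal R} [P.IsPrime] (h3 : (3 : R) ∉ P) {j h : R}
    (hj : j * h ^ 3 = (h + 27) * (h + 243) ^ 3) : h ∉ P := by
  intro hh
  have h1 : (h + 27) * (h + 243) ^ 3 ∈ P := by
    rw [← hj]
    exact P.mul_mem_left _ (P.pow_mem_of_mem hh 3 (by norm_num))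
  rcases Ideal.IsPrime.mem_or_mem inferInstance h1 with h' | h'
  · have : (3 : R) ^ 3 = (h + 27) - h := by ring
    exact s36rig_three_pow_notMem h3 3 (this ▸ P.sub_mem h' hh)
  · have h'' : h + 243 ∈ P := Ideal.IsPrime.mem_of_pow_mem inferInstance 3 h'
    have : (3 : R) ^ 5 = (h + 243) - h := by ring
    exact s36rig_three_pow_notMem h3 5 (this ▸ P.sub_mem h'' hh)

/-! ### integrality of the Hauptmoduln over the chart rings -/

section Integral

open Polynomial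

/-- `xⁿ + q(x) = 0` with `deg q < n` makes `x` integral. -/
theorem s36rig_integral_of_eq {S L : Type*} [CommRing S] [CommRing L] [Algebra S L] (x : L)
    (n : ℕ) (q : S[X]) (hq : q.degree < n) (h : x ^ n + aeval x q = 0) : IsIntegral S x :=
  ⟨X ^ n + q, monic_X_pow_add hq, by
    rw [← aeval_def, map_add, map_pow, aeval_X, h]⟩

variable (A : Type*) {L : Type*} [CommRing A] [CommRing L] [Algebra A L]

/-- level 4: `t` is integral over `A[h]`. -/
theorem s36rig_integral_t4 {h t : L} (ht : t ^ 2 = h * t + 16 * h) :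
    IsIntegral (Algebra.adjoin A {h}) t := by
  set h' : Algebra.adjoin A {h} := ⟨h, Algebra.subset_adjoin rfl⟩ with hh'
  refine s36rig_integral_of_eq t 2 (-(C h' * X) - C (16 * h')) ?_ ?_
  · refine lt_of_le_of_lt ?_ (show ((1 : ℕ) : WithBot ℕ) < ((2 : ℕ) : WithBot ℕ) by norm_num)
    compute_degree
    all_goals norm_num
  · simp only [map_sub, map_neg, map_mul, aeval_C, aeval_X, map_ofNat]
    have e : algebraMap (Algebra.adjoin A {h}) L h' = h := rfl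
    rw [e]
    linear_combination ht

/-- level 2: `h` is integral over `A[j]`. -/
theorem s36rig_integral_h2 {j h : L} (hj : j * h ^ 2 = (h + 256) ^ 3) :
    IsIntegral (Algebra.adjoin A {j}) h := by
  set j' : Algebra.adjoin A {j} := ⟨j, Algebra.subset_adjoin rfl⟩ with hj'
  refine s36rig_integral_of_eq h 3 (C (768 - j') * X ^ 2 + C 196608 * X + C 16777216) ?_ ?_
  · refine lt_of_le_of_lt ?_ (show ((2 : ℕ) : WithBot ℕ) < ((3 : ℕ) : WithBot ℕ) by norm_num)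
    compute_degree
    all_goals norm_num
  · simp only [map_add, map_sub, map_mul, map_pow, aeval_C, aeval_X, map_ofNat]
    have e : algebraMap (Algebra.adjoin A {j}) L j' = j := rfl
    rw [e]
    linear_combination -hj

/-- level 4: `j t⁴ (t + 16) = (t² + 256 t + 4096)³`. -/
theorem s36rig_t4_j {j h t : L} (hj : j * h ^ 2 = (h + 256) ^ 3)
    (ht : t ^ 2 = h * t + 16 * h) :
    j * t ^ 4 * (t + 16) = (t ^ 2 + 256 * t + 4096) ^ 3 := by
  have e1 : t ^ 2 = h * (t + 16) := by linear_combination ht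
  have e2 : t ^ 2 + 256 * t + 4096 = (h + 256) * (t + 16) := by linear_combination ht
  rw [e2, mul_pow, ← hj, show t ^ 4 = (t ^ 2) ^ 2 by ring, e1]
  ring

/-- level 4: `t` is integral over `A[j]`. -/
theorem s36rig_integral_t4_j {j h t : L} (hj : j * h ^ 2 = (h + 256) ^ 3)
    (ht : t ^ 2 = h * t + 16 * h) : IsIntegral (Algebra.adjoin A {j}) t := by
  set j' : Algebra.adjoin A {j} := ⟨j, Algebra.subset_adjoin rfl⟩ with hj'
  refine s36rig_integral_of_eq t 6 (C (768 - j') * X ^ 5 + C (208896 - 16 * j') * X ^ 4 +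
    C 23068672 * X ^ 3 + C 855638016 * X ^ 2 + C 12884901888 * X + C 68719476736) ?_ ?_
  · refine lt_of_le_of_lt ?_ (show ((5 : ℕ) : WithBot ℕ) < ((6 : ℕ) : WithBot ℕ) by norm_num)
    compute_degree
    all_goals norm_num
  · simp only [map_add, map_sub, map_mul, map_pow, aeval_C, aeval_X, map_ofNat]
    have e : algebraMap (Algebra.adjoin A {j}) L j' = j := rfl
    rw [e]
    linear_combination -(s36rig_t4_j hj ht)

/-- level 3: `h` is integral over `A[j]`. -/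
theorem s36rig_integral_h3 {j h : L} (hj : j * h ^ 3 = (h + 27) * (h + 243) ^ 3) :
    IsIntegral (Algebra.adjoin A {j}) h := by
  set j' : Algebra.adjoin A {j} := ⟨j, Algebra.subset_adjoin rfl⟩ with hj'
  refine s36rig_integral_of_eq h 4
    (C (756 - j') * X ^ 3 + C 196830 * X ^ 2 + C 19131876 * X + C 387420489) ?_ ?_
  · refine lt_of_le_of_lt ?_ (show ((3 : ℕ) : WithBot ℕ) < ((4 : ℕ) : WithBot ℕ) by norm_num)
    compute_degree
    all_goals norm_num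
  · simp only [map_add, map_sub, map_mul, map_pow, aeval_C, aeval_X, map_ofNat]
    have e : algebraMap (Algebra.adjoin A {j}) L j' = j := rfl
    rw [e]
    linear_combination -hj

/-- level 9: `t` is integral over `A[h]`. -/
theorem s36rig_integral_t9 {h t : L} (ht : t ^ 3 = h * (t ^ 2 + 9 * t + 27)) :
    IsIntegral (Algebra.adjoin A {h}) t := by
  set h' : Algebra.adjoin A {h} := ⟨h, Algebra.subset_adjoin rfl⟩ with hh'
  refine s36rig_integral_of_eq t 3 (-(C h' * X ^ 2) - C (9 * h') * X - C (27 * h')) ?_ ?_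
  · refine lt_of_le_of_lt ?_ (show ((2 : ℕ) : WithBot ℕ) < ((3 : ℕ) : WithBot ℕ) by norm_num)
    compute_degree
    all_goals norm_num
  · simp only [map_sub, map_neg, map_mul, map_pow, aeval_C, aeval_X, map_ofNat]
    have e : algebraMap (Algebra.adjoin A {h}) L h' = h := rfl
    rw [e]
    linear_combination ht

end Integral

end Fermat.Agent.S36


end ZBS36_009_0

/-! ### bundled: `Fermat.Agent.S36.Rigid4` -/
section ZBS36_009_1

/-!
# S36 / GAP D, level 4: the Hauptmodul of `X₀(4)` (helper31)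

`h = hm2 K` (Hauptmodul of `X₀(2)`), `k = h(Q²)`.  From the two landed identities
`hm2_j2 : j(Q²)·h = (h+16)³` and (dilated) `hm2_j : j(Q²)·k² = (k+256)³`:

  `(h+16)³ k² = (k+256)³ h`,   and   `(h+16)³k² − (k+256)³h = −(hk − 4096)·Φ₄(h,k)`,
  `Φ₄ = (k − 16h)² − h(h+16)(k+256)`.

Since `hk` has order `−3`, `Φ₄(h,k) = 0`, so `t := (k − 16h)/(h+16) ∈ F₄` satisfies
`t² = h·t + 16·h`.  **No new Sturm identity.**

* `s36rig_t4 K`, `s36rig_t4_sq : t² = h t + 16 h`,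
* `s36rig_t4_mem : 4 ∣ N → (N : K) ≠ 0 → s36rig_t4 K ∈ modularFunctionFieldFullC K N`.
-/

set_option autoImplicit false

noncomputable section

namespace Fermat.Agent.S36

open ModularCurve Fermat.Agent.INJ HahnSeries

section Ring

variable (K : Type*) [CommRing K]

/-- `h₂(Q²)` -/
def s36rig_h2d : LaurentSeries K := qExpand K 2 (hm2 K)

/-- `j(Q²)·h₂(Q²)² = (h₂(Q²)+256)³` -/
theorem s36rig_h2d_j : jqNModC K 2 * s36rig_h2d K ^ 2 = (s36rig_h2d K + 256) ^ 3 := by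
  have h := congrArg (qExpand K 2) (hm2_j K)
  simpa only [map_mul, map_pow, map_add, map_ofNat, jqNModC, s36rig_h2d] using h

/-- `(h+16)³ k² = (k+256)³ h` -/
theorem s36rig_rel4 :
    (hm2 K + 16) ^ 3 * s36rig_h2d K ^ 2 = (s36rig_h2d K + 256) ^ 3 * hm2 K := by
  rw [← hm2_j2, ← s36rig_h2d_j]; ring

/-- the modular polynomial `Φ₄` of the pair `(h₂(Q), h₂(Q²))` -/
def s36rig_phi4 {A : Type*} [CommRing A] (h k : A) : A :=
  (k - 16 * h) ^ 2 - h * (h + 16) * (k + 256)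

theorem s36rig_phi4_mul :
    (hm2 K * s36rig_h2d K - 4096) * s36rig_phi4 (hm2 K) (s36rig_h2d K) = 0 := by
  unfold s36rig_phi4
  linear_combination -(s36rig_rel4 K)

end Ring

section Field

variable (K : Type*) [Field K]

/-- a Laurent series whose order is not `0` is not a constant -/
theorem s36rig_ne_C {x : LaurentSeries K} (hx : x.order ≠ 0) (c : K) :
    x ≠ HahnSeries.C c := by
  rintro rfl
  apply hx
  rcases eq_or_ne c 0 with rfl | hc
  · simp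
  · rw [HahnSeries.C_apply, HahnSeries.order_single hc]

/-- the order of `q⁻¹ · (unit power series)` -/
theorem s36rig_order_unit {u : PowerSeries ℤ} (hu : PowerSeries.constantCoeff u = 1) :
    (HahnSeries.single (-1 : ℤ) (1 : K) *
      HahnSeries.ofPowerSeries ℤ K (u.map (Int.castRingHom K))).order = -1 := by
  have hy0 : (HahnSeries.ofPowerSeries ℤ K (u.map (Int.castRingHom K))).coeff 0 = 1 := by
    have := HahnSeries.ofPowerSeries_apply_coeff (Γ := ℤ) (R := K)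
      (u.map (Int.castRingHom K)) 0
    rw [Nat.cast_zero] at this
    rw [this, PowerSeries.coeff_map, PowerSeries.coeff_zero_eq_constantCoeff_apply, hu]
    simp
  have hy : HahnSeries.ofPowerSeries ℤ K (u.map (Int.castRingHom K)) ≠ 0 := by
    intro h0
    rw [h0] at hy0
    simp at hy0
  have ho : (HahnSeries.ofPowerSeries ℤ K (u.map (Int.castRingHom K))).order = 0 := by
    apply le_antisymm
    · exact HahnSeries.order_le_of_coeff_ne_zero (by rw [hy0]; exact one_ne_zero)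
    · by_contra hlt
      rw [not_le] at hlt
      exact hy (HahnSeries.coeff_order_eq_zero.mp (ofPowerSeries_coeff_of_neg _ hlt))
  rw [HahnSeries.order_mul (HahnSeries.single_ne_zero one_ne_zero) hy,
    HahnSeries.order_single one_ne_zero, ho, add_zero]

theorem s36rig_order_hm2 : (hm2 K).order = -1 := by
  rw [hm2_eq]; exact s36rig_order_unit K constantCoeff_hm2U

theorem s36rig_order_hm3 : (hm3 K).order = -1 := by
  rw [hm3_eq]; exact s36rig_order_unit K constantCoeff_hm3U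

theorem s36rig_order_h2d : (s36rig_h2d K).order = -2 := by
  rw [s36rig_h2d, Fermat.Agent.S28.order_qExpand, s36rig_order_hm2]; norm_num

theorem s36rig_h2d_ne_zero : s36rig_h2d K ≠ 0 := by
  intro h
  have := s36rig_order_h2d K
  rw [h, HahnSeries.order_zero] at this
  omega

/-- a numeral is a constant -/
theorem s36rig_natCast_eq_C (n : ℕ) : ((n : ℕ) : LaurentSeries K) = HahnSeries.C (n : K) :=
  (map_natCast (HahnSeries.C : K →+* LaurentSeries K) n).symm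

theorem s36rig_hk4_ne : hm2 K * s36rig_h2d K - 4096 ≠ 0 := by
  intro h
  have h1 : hm2 K * s36rig_h2d K = HahnSeries.C (4096 : K) := by
    have := s36rig_natCast_eq_C K 4096
    rw [← sub_eq_zero]
    rw [← h]
    push_cast at this
    rw [← this]
  refine s36rig_ne_C K ?_ _ h1
  rw [HahnSeries.order_mul (hm2_ne_zero' K) (s36rig_h2d_ne_zero K), s36rig_order_hm2,
    s36rig_order_h2d]
  norm_num

/-- **the modular equation of level `4`** for the Hauptmodul of `X₀(2)` -/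
theorem s36rig_phi4_eq_zero : s36rig_phi4 (hm2 K) (s36rig_h2d K) = 0 :=
  (mul_eq_zero.mp (s36rig_phi4_mul K)).resolve_left (s36rig_hk4_ne K)

theorem s36rig_h2_add16_ne : hm2 K + 16 ≠ 0 := by
  intro h
  have h1 : hm2 K = HahnSeries.C (-16 : K) := by
    have := s36rig_natCast_eq_C K 16
    push_cast at this
    rw [map_neg, ← this]
    exact eq_neg_of_add_eq_zero_left h
  refine s36rig_ne_C K ?_ _ h1
  rw [s36rig_order_hm2]; norm_num

/-- **the Hauptmodul of `X₀(4)`**, `t = (h₂(Q²) − 16 h₂)/(h₂ + 16)`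
(`= η(z)⁸/η(4z)⁸`, `h₂ = t²/(t+16)`). -/
def s36rig_t4 : LaurentSeries K := (s36rig_h2d K - 16 * hm2 K) / (hm2 K + 16)

/-- `t² = h·t + 16·h`: the Hauptmodul of `X₀(4)` is integral over `ℤ[h₂]`. -/
theorem s36rig_t4_sq :
    s36rig_t4 K ^ 2 = hm2 K * s36rig_t4 K + 16 * hm2 K := by
  have h0 := s36rig_h2_add16_ne K
  have hΦ := s36rig_phi4_eq_zero K
  unfold s36rig_phi4 at hΦ
  unfold s36rig_t4
  field_simp
  linear_combination hΦ

/-- `(t + 16)(h + 64) = (t + 32)²` -/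
theorem s36rig_t4_rel : (s36rig_t4 K + 16) * (hm2 K + 64) = (s36rig_t4 K + 32) ^ 2 :=
  s36rig_t4_eq (s36rig_t4_sq K)

/-- `t ∈ F_N` for `4 ∣ N`. -/
theorem s36rig_t4_mem {N : ℕ} [NeZero N] (h4 : 4 ∣ N) (hN : (N : K) ≠ 0) :
    s36rig_t4 K ∈ modularFunctionFieldFullC K N := by
  have h2 : 2 ∣ N := (show 2 ∣ 4 by norm_num).trans h4
  have hh : hm2 K ∈ modularFunctionFieldFullC K N := hm2_mem_full K h2 hN
  have h2K : ((2 : ℕ) : K) ≠ 0 := natCast_ne_zero_of_dvd K h2 hN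
  have hh2 : hm2 K ∈ modularFunctionFieldFullC K 2 := by
    have : NeZero (2 : ℕ) := ⟨by norm_num⟩
    exact hm2_mem_full K (dvd_refl 2) h2K
  have hk : s36rig_h2d K ∈ modularFunctionFieldFullC K N := by
    have h1 : s36rig_h2d K ∈ modularFunctionFieldFullC K (2 * 2) :=
      full_degeneracyC_map_le K 2 2 ⟨hm2 K, hh2, rfl⟩
    exact full_degeneracyC_le K (show 2 * 2 ∣ N from h4) h1
  unfold s36rig_t4
  refine div_mem (sub_mem hk (mul_mem ?_ hh)) (add_mem hh ?_)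
  · exact ofNat_mem _ 16
  · exact ofNat_mem _ 16

end Field

end Fermat.Agent.S36

end
end ZBS36_009_1

/-! ### bundled: `Fermat.Agent.S36.Rigid9` -/
section ZBS36_009_2

/-!
# S36 / GAP D, level 9: the Hauptmodul of `X₀(9)` (helper31)

`h = hm3 K` (Hauptmodul of `X₀(3)`), `k = h(Q³)`.  From the two landed identities
`hm3_j3 : j(Q³)·h = (h+27)(h+3)³` and (dilated) `hm3_j : j(Q³)·k³ = (k+27)(k+243)³`:

  `(h+27)(h+3)³ k³ = (k+27)(k+243)³ h`,   and this difference is `(hk − 729)·Φ₉(h,k)`,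
  `Φ₉ = h³k² + 36h²k² + 729h²k + 270hk² + 26244hk + 531441h − k³`.

Since `hk` has order `−4`, `Φ₉(h,k) = 0`, and then
`t := (1458h + k(h²+18h+27)) / (k(h+9) − 243h + 729) ∈ F₉` satisfies `t³ = h (t² + 9t + 27)`
(`N³ − hN²D − 9hND² − 27hD³ = Φ₉ · 243(h³+21h²+27h−81)`).  **No new Sturm identity.**

* `s36rig_t9 K`, `s36rig_t9_cube : t³ = h (t² + 9 t + 27)`,
* `s36rig_t9_mem : 9 ∣ N → (N : K) ≠ 0 → s36rig_t9 K ∈ modularFunctionFieldFullC K N`.
-/

set_option autoImplicit false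

noncomputable section

namespace Fermat.Agent.S36

open ModularCurve Fermat.Agent.INJ HahnSeries

section Ring

variable (K : Type*) [CommRing K]

/-- `h₃(Q³)` -/
def s36rig_h3d : LaurentSeries K := qExpand K 3 (hm3 K)

/-- `j(Q³)·h₃(Q³)³ = (h₃(Q³)+27)(h₃(Q³)+243)³` -/
theorem s36rig_h3d_j :
    jqNModC K 3 * s36rig_h3d K ^ 3 = (s36rig_h3d K + 27) * (s36rig_h3d K + 243) ^ 3 := by
  have h := congrArg (qExpand K 3) (hm3_j K)
  simpa only [map_mul, map_pow, map_add, map_ofNat, jqNModC, s36rig_h3d] using h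

/-- `(h+27)(h+3)³ k³ = (k+27)(k+243)³ h` -/
theorem s36rig_rel9 :
    (hm3 K + 27) * (hm3 K + 3) ^ 3 * s36rig_h3d K ^ 3 =
      (s36rig_h3d K + 27) * (s36rig_h3d K + 243) ^ 3 * hm3 K := by
  rw [← hm3_j3, ← s36rig_h3d_j]; ring

/-- the modular polynomial `Φ₉` of the pair `(h₃(Q), h₃(Q³))` -/
def s36rig_phi9 {A : Type*} [CommRing A] (h k : A) : A :=
  h ^ 3 * k ^ 2 + 36 * h ^ 2 * k ^ 2 + 729 * h ^ 2 * k + 270 * h * k ^ 2 + 26244 * h * k +
    531441 * h - k ^ 3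

theorem s36rig_phi9_mul :
    (hm3 K * s36rig_h3d K - 729) * s36rig_phi9 (hm3 K) (s36rig_h3d K) = 0 := by
  unfold s36rig_phi9
  linear_combination s36rig_rel9 K

end Ring

section Field

variable (K : Type*) [Field K]

/-- adding a constant to a series with a pole does not change the order -/
theorem s36rig_order_add_C {x : LaurentSeries K} (hx : x.order < 0) (c : K) :
    (x + HahnSeries.C c).order = x.order := by
  have hx0 : x ≠ 0 := by
    rintro rfl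
    simp at hx
  have hC : ∀ m : ℤ, m < 0 → (HahnSeries.C c : LaurentSeries K).coeff m = 0 := by
    intro m hm
    rw [HahnSeries.C_apply, HahnSeries.coeff_single_of_ne hm.ne]
  have h1 : (x + HahnSeries.C c).coeff x.order ≠ 0 := by
    rw [HahnSeries.coeff_add, hC _ hx, add_zero]
    exact HahnSeries.coeff_order_eq_zero.not.mpr hx0
  have hne : x + HahnSeries.C c ≠ 0 := by
    intro h0
    rw [h0] at h1
    simp at h1
  apply le_antisymm (HahnSeries.order_le_of_coeff_ne_zero h1)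
  by_contra hlt
  rw [not_le] at hlt
  apply HahnSeries.coeff_order_eq_zero.not.mpr hne
  rw [HahnSeries.coeff_add, hC _ (hlt.trans hx), add_zero]
  exact HahnSeries.coeff_eq_zero_of_lt_order hlt

theorem s36rig_order_h3d : (s36rig_h3d K).order = -3 := by
  rw [s36rig_h3d, Fermat.Agent.S28.order_qExpand, s36rig_order_hm3]; norm_num

theorem s36rig_h3d_ne_zero : s36rig_h3d K ≠ 0 := by
  intro h
  have := s36rig_order_h3d K
  rw [h, HahnSeries.order_zero] at this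
  omega

theorem s36rig_hk9_ne : hm3 K * s36rig_h3d K - 729 ≠ 0 := by
  intro h
  have h1 : hm3 K * s36rig_h3d K = HahnSeries.C (729 : K) := by
    have := s36rig_natCast_eq_C K 729
    rw [← sub_eq_zero]
    rw [← h]
    push_cast at this
    rw [← this]
  refine s36rig_ne_C K ?_ _ h1
  rw [HahnSeries.order_mul (hm3_ne_zero' K) (s36rig_h3d_ne_zero K), s36rig_order_hm3,
    s36rig_order_h3d]
  norm_num

/-- **the modular equation of level `9`** for the Hauptmodul of `X₀(3)` -/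
theorem s36rig_phi9_eq_zero : s36rig_phi9 (hm3 K) (s36rig_h3d K) = 0 :=
  (mul_eq_zero.mp (s36rig_phi9_mul K)).resolve_left (s36rig_hk9_ne K)

/-- the denominator of `t₉` -/
def s36rig_den9 : LaurentSeries K :=
  s36rig_h3d K * (hm3 K + 9) - 243 * hm3 K + 729

/-- the numerator of `t₉` -/
def s36rig_num9 : LaurentSeries K :=
  1458 * hm3 K + s36rig_h3d K * (hm3 K ^ 2 + 18 * hm3 K + 27)

theorem s36rig_den9_ne : s36rig_den9 K ≠ 0 := by
  intro h
  have e1 : (s36rig_h3d K + HahnSeries.C (-243 : K)) * (hm3 K + HahnSeries.C (9 : K)) =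
      HahnSeries.C (-2916 : K) := by
    have h243 := s36rig_natCast_eq_C K 243
    have h9 := s36rig_natCast_eq_C K 9
    have h2916 := s36rig_natCast_eq_C K 2916
    push_cast at h243 h9 h2916
    rw [map_neg, map_neg, ← h243, ← h9, ← h2916]
    unfold s36rig_den9 at h
    linear_combination h
  refine s36rig_ne_C K ?_ _ e1
  have o1 : (s36rig_h3d K + HahnSeries.C (-243 : K)).order = -3 := by
    rw [s36rig_order_add_C K (by rw [s36rig_order_h3d]; norm_num), s36rig_order_h3d]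
  have o2 : (hm3 K + HahnSeries.C (9 : K)).order = -1 := by
    rw [s36rig_order_add_C K (by rw [s36rig_order_hm3]; norm_num), s36rig_order_hm3]
  have n1 : s36rig_h3d K + HahnSeries.C (-243 : K) ≠ 0 := by
    intro h0
    rw [h0, HahnSeries.order_zero] at o1
    omega
  have n2 : hm3 K + HahnSeries.C (9 : K) ≠ 0 := by
    intro h0
    rw [h0, HahnSeries.order_zero] at o2
    omega
  rw [HahnSeries.order_mul n1 n2, o1, o2]
  norm_num

/-- **the Hauptmodul of `X₀(9)`** (`= η(z)³/η(9z)³`, `h₃ = t³/(t²+9t+27)`). -/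
def s36rig_t9 : LaurentSeries K := s36rig_num9 K / s36rig_den9 K

/-- `t³ = h·(t² + 9t + 27)`: the Hauptmodul of `X₀(9)` is integral over `ℤ[h₃]`. -/
theorem s36rig_t9_cube :
    s36rig_t9 K ^ 3 = hm3 K * (s36rig_t9 K ^ 2 + 9 * s36rig_t9 K + 27) := by
  have h0 := s36rig_den9_ne K
  have hΦ := s36rig_phi9_eq_zero K
  unfold s36rig_phi9 at hΦ
  have key : s36rig_num9 K ^ 3 = hm3 K * (s36rig_num9 K ^ 2 * s36rig_den9 K +
      9 * s36rig_num9 K * s36rig_den9 K ^ 2 + 27 * s36rig_den9 K ^ 3) := by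
    unfold s36rig_num9 s36rig_den9
    linear_combination
      (243 * hm3 K ^ 3 + 5103 * hm3 K ^ 2 + 6561 * hm3 K - 19683) * hΦ
  unfold s36rig_t9
  field_simp
  linear_combination key

/-- `(h + 27)(t² + 9t + 27) = (t + 9)³` -/
theorem s36rig_t9_rel :
    (hm3 K + 27) * (s36rig_t9 K ^ 2 + 9 * s36rig_t9 K + 27) = (s36rig_t9 K + 9) ^ 3 :=
  s36rig_t9_eq (s36rig_t9_cube K)

/-- `t ∈ F_N` for `9 ∣ N`. -/
theorem s36rig_t9_mem {N : ℕ} [NeZero N] (h9 : 9 ∣ N) (hN : (N : K) ≠ 0) :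
    s36rig_t9 K ∈ modularFunctionFieldFullC K N := by
  have h3 : 3 ∣ N := (show 3 ∣ 9 by norm_num).trans h9
  have hh : hm3 K ∈ modularFunctionFieldFullC K N := hm3_mem_full K h3 hN
  have h3K : ((3 : ℕ) : K) ≠ 0 := natCast_ne_zero_of_dvd K h3 hN
  have hh3 : hm3 K ∈ modularFunctionFieldFullC K 3 := by
    have : NeZero (3 : ℕ) := ⟨by norm_num⟩
    exact hm3_mem_full K (dvd_refl 3) h3K
  have hk : s36rig_h3d K ∈ modularFunctionFieldFullC K N := by
    have h1 : s36rig_h3d K ∈ modularFunctionFieldFullC K (3 * 3) :=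
      full_degeneracyC_map_le K 3 3 ⟨hm3 K, hh3, rfl⟩
    exact full_degeneracyC_le K (show 3 * 3 ∣ N from h9) h1
  unfold s36rig_t9 s36rig_num9 s36rig_den9
  refine div_mem (add_mem (mul_mem (ofNat_mem _ _) hh)
    (mul_mem hk (add_mem (add_mem (pow_mem hh 2) (mul_mem (ofNat_mem _ _) hh)) (ofNat_mem _ _))))
    (add_mem (sub_mem (mul_mem hk (add_mem hh (ofNat_mem _ _))) (mul_mem (ofNat_mem _ _) hh))
      (ofNat_mem _ _))

end Field

end Fermat.Agent.S36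

end
end ZBS36_009_2

/-! ### bundled: `Fermat.Agent.S36.ThinSmall` -/
section ZBS36_009_3

/-!
# S36 / G-thin (T3′): the small primes `q ∈ {2, 3}` (helper80)

Over a ring `k` with `240 = 0` (characteristic `2`, `3` or `5`): `Ē₄ = 1`, hence `j̄ = Δ̄⁻¹` and
`P := Δ̄ (Δ̄⁻¹)^q = j̄^(q-1)`.  With the Hauptmoduln of the rigid levels:

* `q = 3`, level `4`: `j h² = (h + 256)³`, `(t + 16)(h + 64) = (t + 32)²`, `256 ≡ 64 mod 3`
  ⟹ `P h⁴ (t + 16)⁶ = (t + 32)¹²`;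
* `q = 2`, level `9`: `j h³ = (h + 27)(h + 243)³`, `(h + 27)(t² + 9t + 27) = (t + 9)³`,
  `243 ≡ 27 mod 2` ⟹ `P h³ (t² + 9t + 27)⁴ = (t + 9)¹²`.

At a prime `𝔪 ∋ P` the cofactor is a unit, so `∃ s ∉ 𝔪, s P ∈ 𝔪¹²`:
`s36ts_hord3`, `s36ts_hord2` (same shape as `s36tk_hord`, no point `a`, no rigidity hypothesis).
-/

set_option autoImplicit false

noncomputable section

namespace Fermat.Agent.S36

open ModularCurve Fermat.Agent.INJ Fermat.Agent.S28 Fermat.Agent.ES.I2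

section Series

variable (k : Type*) [CommRing k]

/-- `Ē₄ = 1` when `240 = 0`. -/
theorem s36ts_E4 (h240 : (240 : k) = 0) : coeffMap (Int.castRingHom k) mfE4L = 1 := by
  rw [mfE4L, coeffMap_ofPowerSeries]
  have h1 : (eisenstein4.map (Int.castRingHom k) : PowerSeries k) = 1 := by
    ext n
    rw [PowerSeries.coeff_map, eisenstein4, PowerSeries.coeff_mk, PowerSeries.coeff_one]
    split_ifs with hn
    · simp
    · rw [map_mul, map_ofNat, h240, zero_mul]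
  rw [h1, map_one]

/-- `j̄ = Δ̄⁻¹` when `240 = 0`. -/
theorem s36ts_j_eq (h240 : (240 : k) = 0) : jqModC k = deltaInvS k := by
  have h := congrArg (coeffMap (Int.castRingHom k)) mf_j_eq
  rw [coeffMap_jqModC, map_mul, map_pow, s36ts_E4 k h240, one_pow, one_mul] at h
  exact h

/-- `Δ̄ (Δ̄⁻¹)^(n+1) = j̄^n` when `240 = 0`. -/
theorem s36ts_P_eq (h240 : (240 : k) = 0) (n : ℕ) :
    deltaS k * deltaInvS k ^ (n + 1) = jqModC k ^ n := by
  rw [s36ts_j_eq k h240, pow_succ, ← mul_assoc, mul_comm (deltaS k), mul_assoc,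
    deltaS_mul_deltaInvS, mul_one]

end Series

section Three

variable (k : Type*) [Field k] [CharP k 3]

theorem s36ts_three_eq_zero : (3 : k) = 0 := by
  have := CharP.cast_eq_zero k 3
  exact_mod_cast this

/-- the series identity for `q = 3` -/
theorem s36ts_series3 :
    (deltaS k * deltaInvS k ^ 3) * hm2 k ^ 4 * (s36rig_t4 k + 16) ^ 6 = (s36rig_t4 k + 32) ^ 12 := by
  have h3 : (3 : LaurentSeries k) = 0 := by
    rw [← map_ofNat (HahnSeries.C (Γ := ℤ) (R := k)) 3, s36ts_three_eq_zero k, map_zero]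
  have h240 : (240 : k) = 0 := by
    have : (240 : k) = 3 * 80 := by norm_num
    rw [this, s36ts_three_eq_zero k, zero_mul]
  rw [s36ts_P_eq k h240 2]
  have hj := hm2_j k
  have hr := s36rig_t4_rel k
  have e1 : (hm2 k + 256 : LaurentSeries k) = hm2 k + 64 := by
    linear_combination (64 : LaurentSeries k) * h3
  rw [e1] at hj
  calc jqModC k ^ 2 * hm2 k ^ 4 * (s36rig_t4 k + 16) ^ 6
      = (jqModC k * hm2 k ^ 2) ^ 2 * (s36rig_t4 k + 16) ^ 6 := by ring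
    _ = ((s36rig_t4 k + 16) * (hm2 k + 64)) ^ 6 := by rw [hj]; ring
    _ = (s36rig_t4 k + 32) ^ 12 := by rw [hr]; ring

/-- **hord for `q = 3`** (rigid level `4`). -/
theorem s36ts_hord3 {R : Type*} [CommRing R] (ι : R →+* LaurentSeries k)
    (hι : Function.Injective ι) (P h t : R) (hP : ι P = deltaS k * deltaInvS k ^ 3)
    (hh : ι h = hm2 k) (ht : ι t = s36rig_t4 k) (𝔪 : Ideal R) [𝔪.IsPrime] (hPm : P ∈ 𝔪) :
    ∃ s : R, s ∉ 𝔪 ∧ s * P ∈ 𝔪 ^ 12 := by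
  have h3L : (3 : LaurentSeries k) = 0 := by
    rw [← map_ofNat (HahnSeries.C (Γ := ℤ) (R := k)) 3, s36ts_three_eq_zero k, map_zero]
  have h3 : (3 : R) = 0 := by
    apply hι
    rw [map_ofNat, map_zero, h3L]
  -- the identities in `R`
  have hid : P * h ^ 4 * (t + 16) ^ 6 = (t + 32) ^ 12 := by
    apply hι
    simp only [map_mul, map_pow, map_add, map_ofNat, hP, hh, ht]
    exact s36ts_series3 k
  have hsq : t ^ 2 = h * t + 16 * h := by
    apply hι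
    simp only [map_mul, map_pow, map_add, map_ofNat, hh, ht]
    exact s36rig_t4_sq k
  have hne : (1 : R) ∉ 𝔪 := fun h1 => (Ideal.ne_top_iff_one 𝔪).mp (Ideal.IsPrime.ne_top inferInstance) h1
  -- `t + 32 ∈ 𝔪`
  have ht32 : t + 32 ∈ 𝔪 := by
    have : (t + 32) ^ 12 ∈ 𝔪 := by
      rw [← hid, mul_assoc]
      exact 𝔪.mul_mem_right _ hPm
    exact Ideal.IsPrime.mem_of_pow_mem inferInstance 12 this
  have h2 : (2 : R) ∉ 𝔪 := by
    intro h2
    apply hne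
    have : (1 : R) = 2 * 2 - 3 := by ring
    rw [this, h3, sub_zero]
    exact 𝔪.mul_mem_left _ h2
  have ht16 : t + 16 ∉ 𝔪 := by
    intro h16
    apply h2
    have h16' : (16 : R) ∈ 𝔪 := by
      have := 𝔪.sub_mem ht32 h16
      have e : t + 32 - (t + 16) = 16 := by ring
      rwa [e] at this
    have e : (16 : R) = 2 ^ 4 := by norm_num
    rw [e] at h16'
    exact Ideal.IsPrime.mem_of_pow_mem inferInstance 4 h16'
  have hh' : h ∉ 𝔪 := by
    intro hhm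
    apply h2
    have ht2 : t ^ 2 ∈ 𝔪 := by
      rw [hsq]
      exact 𝔪.add_mem (𝔪.mul_mem_right _ hhm) (𝔪.mul_mem_left _ hhm)
    have htm : t ∈ 𝔪 := Ideal.IsPrime.mem_of_pow_mem inferInstance 2 ht2
    have h32 : (32 : R) ∈ 𝔪 := by
      have := 𝔪.sub_mem ht32 htm
      have e : t + 32 - t = 32 := by ring
      rwa [e] at this
    have e : (32 : R) = 2 ^ 5 := by norm_num
    rw [e] at h32
    exact Ideal.IsPrime.mem_of_pow_mem inferInstance 5 h32
  refine ⟨h ^ 4 * (t + 16) ^ 6, ?_, ?_⟩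
  · intro hs
    rcases Ideal.IsPrime.mem_or_mem inferInstance hs with h1 | h1
    · exact hh' (Ideal.IsPrime.mem_of_pow_mem inferInstance 4 h1)
    · exact ht16 (Ideal.IsPrime.mem_of_pow_mem inferInstance 6 h1)
  · have e : h ^ 4 * (t + 16) ^ 6 * P = (t + 32) ^ 12 := by rw [← hid]; ring
    rw [e]
    exact Ideal.pow_mem_pow ht32 12

end Three

section Two

variable (k : Type*) [Field k] [CharP k 2]

theorem s36ts_two_eq_zero : (2 : k) = 0 := by
  have := CharP.cast_eq_zero k 2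
  exact_mod_cast this

/-- the series identity for `q = 2` -/
theorem s36ts_series2 :
    (deltaS k * deltaInvS k ^ 2) * hm3 k ^ 3 *
      (s36rig_t9 k ^ 2 + 9 * s36rig_t9 k + 27) ^ 4 = (s36rig_t9 k + 9) ^ 12 := by
  have h2 : (2 : LaurentSeries k) = 0 := by
    rw [← map_ofNat (HahnSeries.C (Γ := ℤ) (R := k)) 2, s36ts_two_eq_zero k, map_zero]
  have h240 : (240 : k) = 0 := by
    have : (240 : k) = 2 * 120 := by norm_num
    rw [this, s36ts_two_eq_zero k, zero_mul]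
  rw [s36ts_P_eq k h240 1, pow_one]
  have hj := hm3_j k
  have hr := s36rig_t9_rel k
  have e1 : (hm3 k + 243 : LaurentSeries k) = hm3 k + 27 := by
    linear_combination (108 : LaurentSeries k) * h2
  rw [e1] at hj
  calc jqModC k * hm3 k ^ 3 * (s36rig_t9 k ^ 2 + 9 * s36rig_t9 k + 27) ^ 4
      = (jqModC k * hm3 k ^ 3) * (s36rig_t9 k ^ 2 + 9 * s36rig_t9 k + 27) ^ 4 := by ring
    _ = ((hm3 k + 27) * (s36rig_t9 k ^ 2 + 9 * s36rig_t9 k + 27)) ^ 4 := by rw [hj]; ring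
    _ = (s36rig_t9 k + 9) ^ 12 := by rw [hr]; ring

/-- **hord for `q = 2`** (rigid level `9`). -/
theorem s36ts_hord2 {R : Type*} [CommRing R] (ι : R →+* LaurentSeries k)
    (hι : Function.Injective ι) (P h t : R) (hP : ι P = deltaS k * deltaInvS k ^ 2)
    (hh : ι h = hm3 k) (ht : ι t = s36rig_t9 k) (𝔪 : Ideal R) [𝔪.IsPrime] (hPm : P ∈ 𝔪) :
    ∃ s : R, s ∉ 𝔪 ∧ s * P ∈ 𝔪 ^ 12 := by
  have h2L : (2 : LaurentSeries k) = 0 := by
    rw [← map_ofNat (HahnSeries.C (Γ := ℤ) (R := k)) 2, s36ts_two_eq_zero k, map_zero]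
  have h2 : (2 : R) = 0 := by
    apply hι
    rw [map_ofNat, map_zero, h2L]
  have hid : P * h ^ 3 * (t ^ 2 + 9 * t + 27) ^ 4 = (t + 9) ^ 12 := by
    apply hι
    simp only [map_mul, map_pow, map_add, map_ofNat, hP, hh, ht]
    exact s36ts_series2 k
  have hcube : t ^ 3 = h * (t ^ 2 + 9 * t + 27) := by
    apply hι
    simp only [map_mul, map_pow, map_add, map_ofNat, hh, ht]
    exact s36rig_t9_cube k
  have hne : (1 : R) ∉ 𝔪 := fun h1 => (Ideal.ne_top_iff_one 𝔪).mp (Ideal.IsPrime.ne_top inferInstance) h1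
  have ht9 : t + 9 ∈ 𝔪 := by
    have : (t + 9) ^ 12 ∈ 𝔪 := by
      rw [← hid, mul_assoc]
      exact 𝔪.mul_mem_right _ hPm
    exact Ideal.IsPrime.mem_of_pow_mem inferInstance 12 this
  have hq : t ^ 2 + 9 * t + 27 ∉ 𝔪 := by
    intro hqm
    apply hne
    have e : (1 : R) = (t ^ 2 + 9 * t + 27) - (t + 9) * t - 13 * 2 := by ring
    rw [e, h2, mul_zero, sub_zero]
    exact 𝔪.sub_mem hqm (𝔪.mul_mem_right _ ht9)
  have hh' : h ∉ 𝔪 := by
    intro hhm
    apply hne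
    have ht3 : t ^ 3 ∈ 𝔪 := by
      rw [hcube]
      exact 𝔪.mul_mem_right _ hhm
    have htm : t ∈ 𝔪 := Ideal.IsPrime.mem_of_pow_mem inferInstance 3 ht3
    have e : (1 : R) = (t + 9) - t - 4 * 2 := by ring
    rw [e, h2, mul_zero, sub_zero]
    exact 𝔪.sub_mem ht9 htm
  refine ⟨h ^ 3 * (t ^ 2 + 9 * t + 27) ^ 4, ?_, ?_⟩
  · intro hs
    rcases Ideal.IsPrime.mem_or_mem inferInstance hs with h1 | h1
    · exact hh' (Ideal.IsPrime.mem_of_pow_mem inferInstance 3 h1)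
    · exact hq (Ideal.IsPrime.mem_of_pow_mem inferInstance 4 h1)
  · have e : h ^ 3 * (t ^ 2 + 9 * t + 27) ^ 4 * P = (t + 9) ^ 12 := by rw [← hid]; ring
    rw [e]
    exact Ideal.pow_mem_pow ht9 12

end Two

end Fermat.Agent.S36

end
end ZBS36_009_3

/-! ### bundled: `Fermat.Agent.S36.ThinChart` -/
section ZBS36_009_4

/-!
# S36 (Carayol), G-thin (T4b): `hord` and the thin node in chart form (helper37)

`B` the chart of level `M q`, `ρ, ρ₀ : B →+* k((Q))` the two reductions, `𝔫` a prime ideal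
containing `ker ρ₀`.  All statements are about elements of `B` and their `ρ₀`-images.

* `s36thin_hord_of_quot` : `hord` in `B ⧸ ker ρ₀` gives `∃ s ∉ 𝔫, s · U ∈ 𝔫 ^ n ⊔ ker ρ₀`.
* `s36thin_hord_chart_odd` : `q` odd, `J, H, T, U ∈ B` with `ρ₀ J = j̄`, `ρ₀ H = h̄₂`, `ρ₀ T = t̄₄`,
  `ρ₀ U = Δ̄ (Δ̄⁻¹)^q`, `U ∈ 𝔫`  ⇒  `∃ s ∉ 𝔫, s · U ∈ 𝔫 ^ 12 ⊔ ker ρ₀`.
* `s36thin_hord_chart_two` : `q = 2`, `H, T, U ∈ B` with `ρ₀ H = h̄₃`, `ρ₀ T = t̄₉`.
* `s36thin_node_odd`, `s36thin_node_two` : **the thin node**: with the (SS3) coordinates `X, Y`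
  of UNIP and `hu : ρ f = 0 → U ∣ f ^ 12`:  `ker ρ` is generated by `X` at `𝔫`, and `B_𝔫` is
  factorial.
-/

set_option autoImplicit false
set_option linter.style.haveILetI false
set_option linter.unusedSectionVars false
set_option linter.unusedVariables false

noncomputable section

namespace Fermat.Agent.S36

open Polynomial ModularCurve
open Fermat.Agent.S28 Fermat.Agent.S28.Deriv Fermat.Agent.UNIP Fermat.Agent.INJ

section Quot

variable {B L : Type*} [CommRing B] [CommRing L]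

/-- `hord` in `B ⧸ ker ρ₀` gives `hord` in `B`-form. -/
theorem s36thin_hord_of_quot (ρ₀ : B →+* L) (𝔫 : Ideal B) (U : B) (n : ℕ)
    (h : ∃ s : B ⧸ RingHom.ker ρ₀, s ∉ 𝔫.map (Ideal.Quotient.mk (RingHom.ker ρ₀)) ∧
      s * Ideal.Quotient.mk (RingHom.ker ρ₀) U ∈
        (𝔫.map (Ideal.Quotient.mk (RingHom.ker ρ₀))) ^ n) :
    ∃ s, s ∉ 𝔫 ∧ s * U ∈ 𝔫 ^ n ⊔ RingHom.ker ρ₀ := by
  obtain ⟨s, hs, hsU⟩ := h
  obtain ⟨s', rfl⟩ := Ideal.Quotient.mk_surjective s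
  refine ⟨s', fun hmem => hs (Ideal.mem_map_of_mem _ hmem), ?_⟩
  rw [← map_mul, ← Ideal.map_pow, Ideal.mem_quotient_iff_mem_sup] at hsU
  exact hsU

variable [IsDomain L]

/-- the image of `𝔫 ⊇ ker ρ₀` in `B ⧸ ker ρ₀` is prime -/
theorem s36thin_map_isPrime (ρ₀ : B →+* L) (𝔫 : Ideal B) [h𝔫 : 𝔫.IsPrime]
    (h𝔮 : RingHom.ker ρ₀ ≤ 𝔫) : (𝔫.map (Ideal.Quotient.mk (RingHom.ker ρ₀))).IsPrime := by
  apply Ideal.map_isPrime_of_surjective Ideal.Quotient.mk_surjective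
  rw [Ideal.mk_ker]
  exact h𝔮

theorem s36thin_mk_mem_iff (ρ₀ : B →+* L) (𝔫 : Ideal B) (h𝔮 : RingHom.ker ρ₀ ≤ 𝔫) (x : B) :
    Ideal.Quotient.mk (RingHom.ker ρ₀) x ∈ 𝔫.map (Ideal.Quotient.mk (RingHom.ker ρ₀)) ↔ x ∈ 𝔫 :=
  Ideal.mem_quotient_iff_mem h𝔮

end Quot

section Chart

variable (q : ℕ) [hq : Fact q.Prime] (k : Type*) [Field k] [CharP k q]
variable {B : Type*} [CommRing B]

/-- **`hord`, chart form, `q ≥ 5`.** -/
theorem s36thin_hord_chart5 (h5 : 5 ≤ q) (ρ₀ : B →+* LaurentSeries k)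
    (hk : ∀ c : k, ∃ b : B, ρ₀ b = HahnSeries.C c)
    (J H T U : B) (hJ : ρ₀ J = jqModC k) (hH : ρ₀ H = hm2 k) (hT : ρ₀ T = s36rig_t4 k)
    (hU : ρ₀ U = deltaS k * deltaInvS k ^ q)
    (𝔫 : Ideal B) [h𝔫 : 𝔫.IsPrime] (h𝔮 : RingHom.ker ρ₀ ≤ 𝔫) (hU𝔫 : U ∈ 𝔫) :
    ∃ s, s ∉ 𝔫 ∧ s * U ∈ 𝔫 ^ 12 ⊔ RingHom.ker ρ₀ := by
  classical
  apply s36thin_hord_of_quot
  haveI hkp : (RingHom.ker ρ₀).IsPrime := RingHom.ker_isPrime ρ₀
  set mk := Ideal.Quotient.mk (RingHom.ker ρ₀) with hmk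
  set ι : B ⧸ RingHom.ker ρ₀ →+* LaurentSeries k := RingHom.kerLift ρ₀ with hιdef
  have hι : Function.Injective ι := RingHom.kerLift_injective ρ₀
  have hιmk : ∀ x, ι (mk x) = ρ₀ x := fun x => RingHom.kerLift_mk ρ₀ x
  haveI h𝔪 : (𝔫.map mk).IsPrime := s36thin_map_isPrime ρ₀ 𝔫 h𝔮
  -- the identities in the quotient
  have hid1 : mk J * mk H ^ 2 = (mk H + 256) ^ 3 := by
    apply hι
    rw [map_mul, map_pow, map_pow, map_add, map_ofNat, hιmk, hιmk, hJ, hH]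
    exact hm2_j k
  have hid2 : mk T ^ 2 = mk H * mk T + 16 * mk H := by
    apply hι
    rw [map_pow, map_add, map_mul, map_mul, map_ofNat, hιmk, hιmk, hT, hH]
    exact s36rig_t4_sq k
  -- `2 ∉ 𝔪`
  have hq0 : ((q : ℕ) : B ⧸ RingHom.ker ρ₀) = 0 := by
    apply hι
    rw [map_natCast, map_zero]
    have : ((q : ℕ) : LaurentSeries k) = HahnSeries.C ((q : ℕ) : k) := by
      rw [map_natCast]
    rw [this, CharP.cast_eq_zero k q, map_zero]
  have h2 : (2 : B ⧸ RingHom.ker ρ₀) ∉ 𝔫.map mk := by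
    intro h2m
    have hodd : q % 2 = 1 := by
      rcases hq.out.eq_two_or_odd with h | h
      · omega
      · exact h
    have h1 : ((q : ℕ) : B ⧸ RingHom.ker ρ₀) = 2 * ((q / 2 : ℕ) : B ⧸ RingHom.ker ρ₀) + 1 := by
      have : q = 2 * (q / 2) + 1 := by omega
      conv_lhs => rw [this]
      push_cast
      ring
    have h3 : (1 : B ⧸ RingHom.ker ρ₀) ∈ 𝔫.map mk := by
      have h4 : (1 : B ⧸ RingHom.ker ρ₀) =
          ((q : ℕ) : B ⧸ RingHom.ker ρ₀) - 2 * ((q / 2 : ℕ) : B ⧸ RingHom.ker ρ₀) := by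
        rw [h1]; ring
      rw [h4, hq0, zero_sub]
      exact neg_mem (Ideal.mul_mem_right _ _ h2m)
    exact h𝔪.ne_top ((Ideal.eq_top_iff_one _).2 h3)
  refine s36tk_hord_ringHom q k h5 ι hι ?_ (mk J) (mk U) ?_ ?_ (𝔫.map mk) ?_ ?_ ?_
  · intro c
    obtain ⟨b, hb⟩ := hk c
    exact ⟨mk b, by rw [hιmk, hb]⟩
  · rw [hιmk, hJ]
  · rw [hιmk, hU]
  · exact Ideal.mem_map_of_mem _ hU𝔫
  · intro hjm
    exact s36rig_j_zero h2 hid1 hjm
  · intro hjm
    exact s36rig_j_1728 h2 hid1 hid2 hjm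

/-- **`hord`, chart form, `q = 3`.** -/
theorem s36thin_hord_chart3 (h3 : q = 3) (ρ₀ : B →+* LaurentSeries k)
    (H T U : B) (hH : ρ₀ H = hm2 k) (hT : ρ₀ T = s36rig_t4 k)
    (hU : ρ₀ U = deltaS k * deltaInvS k ^ q)
    (𝔫 : Ideal B) [h𝔫 : 𝔫.IsPrime] (h𝔮 : RingHom.ker ρ₀ ≤ 𝔫) (hU𝔫 : U ∈ 𝔫) :
    ∃ s, s ∉ 𝔫 ∧ s * U ∈ 𝔫 ^ 12 ⊔ RingHom.ker ρ₀ := by
  classical
  subst h3
  apply s36thin_hord_of_quot
  set mk := Ideal.Quotient.mk (RingHom.ker ρ₀) with hmk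
  set ι : B ⧸ RingHom.ker ρ₀ →+* LaurentSeries k := RingHom.kerLift ρ₀ with hιdef
  have hι : Function.Injective ι := RingHom.kerLift_injective ρ₀
  have hιmk : ∀ x, ι (mk x) = ρ₀ x := fun x => RingHom.kerLift_mk ρ₀ x
  haveI h𝔪 : (𝔫.map mk).IsPrime := s36thin_map_isPrime ρ₀ 𝔫 h𝔮
  exact s36ts_hord3 k ι hι (mk U) (mk H) (mk T) (by rw [hιmk, hU]) (by rw [hιmk, hH])
    (by rw [hιmk, hT]) (𝔫.map mk) (Ideal.mem_map_of_mem _ hU𝔫)

/-- **`hord`, chart form, `q` odd.** -/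
theorem s36thin_hord_chart_odd (hodd : q ≠ 2) (ρ₀ : B →+* LaurentSeries k)
    (hk : ∀ c : k, ∃ b : B, ρ₀ b = HahnSeries.C c)
    (J H T U : B) (hJ : ρ₀ J = jqModC k) (hH : ρ₀ H = hm2 k) (hT : ρ₀ T = s36rig_t4 k)
    (hU : ρ₀ U = deltaS k * deltaInvS k ^ q)
    (𝔫 : Ideal B) [h𝔫 : 𝔫.IsPrime] (h𝔮 : RingHom.ker ρ₀ ≤ 𝔫) (hU𝔫 : U ∈ 𝔫) :
    ∃ s, s ∉ 𝔫 ∧ s * U ∈ 𝔫 ^ 12 ⊔ RingHom.ker ρ₀ := by
  by_cases h3 : q = 3
  · exact s36thin_hord_chart3 q k h3 ρ₀ H T U hH hT hU 𝔫 h𝔮 hU𝔫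
  · have h5 : 5 ≤ q := by
      have h2 := hq.out.two_le
      by_contra hlt
      have h4 : q = 4 := by omega
      rw [h4] at hq
      exact absurd hq.out (by norm_num)
    exact s36thin_hord_chart5 q k h5 ρ₀ hk J H T U hJ hH hT hU 𝔫 h𝔮 hU𝔫

/-- **`hord`, chart form, `q = 2`.** -/
theorem s36thin_hord_chart_two (h2 : q = 2) (ρ₀ : B →+* LaurentSeries k)
    (H T U : B) (hH : ρ₀ H = hm3 k) (hT : ρ₀ T = s36rig_t9 k)
    (hU : ρ₀ U = deltaS k * deltaInvS k ^ q)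
    (𝔫 : Ideal B) [h𝔫 : 𝔫.IsPrime] (h𝔮 : RingHom.ker ρ₀ ≤ 𝔫) (hU𝔫 : U ∈ 𝔫) :
    ∃ s, s ∉ 𝔫 ∧ s * U ∈ 𝔫 ^ 12 ⊔ RingHom.ker ρ₀ := by
  classical
  subst h2
  apply s36thin_hord_of_quot
  set mk := Ideal.Quotient.mk (RingHom.ker ρ₀) with hmk
  set ι : B ⧸ RingHom.ker ρ₀ →+* LaurentSeries k := RingHom.kerLift ρ₀ with hιdef
  have hι : Function.Injective ι := RingHom.kerLift_injective ρ₀
  have hιmk : ∀ x, ι (mk x) = ρ₀ x := fun x => RingHom.kerLift_mk ρ₀ x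
  haveI h𝔪 : (𝔫.map mk).IsPrime := s36thin_map_isPrime ρ₀ 𝔫 h𝔮
  exact s36ts_hord2 k ι hι (mk U) (mk H) (mk T) (by rw [hιmk, hU]) (by rw [hιmk, hH])
    (by rw [hιmk, hT]) (𝔫.map mk) (Ideal.mem_map_of_mem _ hU𝔫)

end Chart

section NodeChart

variable (q : ℕ) [hq : Fact q.Prime] (k : Type*) [Field k] [CharP k q]
variable {B : Type*} [CommRing B] [IsDomain B] [IsNoetherianRing B] [IsIntegrallyClosed B]

/-- `Δ̄ (Δ̄⁻¹)^q ≠ 0`. -/
theorem s36thin_P_ne_zero : deltaS k * deltaInvS k ^ q ≠ 0 := by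
  have h1 : deltaS k ≠ 0 := deltaS_ne_zero k
  have h2 : deltaInvS k ≠ 0 := by
    intro h0
    have := deltaS_mul_deltaInvS k
    rw [h0, mul_zero] at this
    exact zero_ne_one this
  exact mul_ne_zero h1 (pow_ne_zero _ h2)

/-- a local parameter `X` of the branch `ρ₀` at `𝔫` does not vanish on the branch, as soon as
some element of `𝔫` does not. -/
theorem s36thin_param_ne_zero {L : Type*} [CommRing L] [IsDomain L] (ρ₀ : B →+* L) (𝔫 : Ideal B)
    (h𝔮 : RingHom.ker ρ₀ ≤ 𝔫) {X U : B} (hsX : NodesSmoothAt ρ₀ 𝔫 X) (hU𝔫 : U ∈ 𝔫)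
    (hU₀ : ρ₀ U ≠ 0) : ρ₀ X ≠ 0 := by
  intro h0
  obtain ⟨u, v, hu, huv⟩ := hsX.2 U hU𝔫
  rw [map_mul, map_mul, h0, mul_zero] at huv
  rcases mul_eq_zero.1 huv with h1 | h1
  · exact hu (h𝔮 (RingHom.mem_ker.2 h1))
  · exact hU₀ h1

/-- **The thin node, `q` odd** (chart form).  `4 ∣ M`: `J, H, T ∈ B` reduce (on the branch `ρ₀`)
to `j̄`, `h̄₂`, `t̄₄`. -/
theorem s36thin_node_odd (hodd : q ≠ 2) (ρ ρ₀ : B →+* LaurentSeries k)
    (hk : ∀ c : k, ∃ b : B, ρ₀ b = HahnSeries.C c)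
    (𝔫 : Ideal B) [h𝔫 : 𝔫.IsPrime]
    (h𝔭 : RingHom.ker ρ ≤ 𝔫) (h𝔮 : RingHom.ker ρ₀ ≤ 𝔫)
    {π X Y : B} (hπ : ρ π = 0) (hπ₀ : ρ₀ π = 0) (hX : ρ X = 0) (hY : ρ₀ Y = 0)
    (hsX : NodesSmoothAt ρ₀ 𝔫 X) (hsY : NodesSmoothAt ρ 𝔫 Y)
    (J H T U : B) (hJ : ρ₀ J = jqModC k) (hH : ρ₀ H = hm2 k) (hT : ρ₀ T = s36rig_t4 k)
    (hU : ρ₀ U = deltaS k * deltaInvS k ^ q) (hρU : ρ U = 0)
    (hu : ∀ f, ρ f = 0 → U ∣ f ^ 12) :
    (∀ b, ρ b = 0 → ∃ u, u ∉ 𝔫 ∧ X ∣ u * b) ∧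
      UniqueFactorizationMonoid (Localization.AtPrime 𝔫) := by
  have hU𝔫 : U ∈ 𝔫 := h𝔭 (RingHom.mem_ker.2 hρU)
  have hU₀ : ρ₀ U ≠ 0 := by rw [hU]; exact s36thin_P_ne_zero q k
  exact s36thin_node_abs ρ ρ₀ 𝔫 h𝔭 h𝔮 hπ hπ₀ hX hY hsX hsY
    (s36thin_param_ne_zero ρ₀ 𝔫 h𝔮 hsX hU𝔫 hU₀) (by norm_num) hu
    (s36thin_hord_chart_odd q k hodd ρ₀ hk J H T U hJ hH hT hU 𝔫 h𝔮 hU𝔫)

/-- **The thin node, `q = 2`** (chart form).  `9 ∣ M`: `H, T ∈ B` reduce (on the branch `ρ₀`)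
to `h̄₃`, `t̄₉`. -/
theorem s36thin_node_two (h2 : q = 2) (ρ ρ₀ : B →+* LaurentSeries k)
    (𝔫 : Ideal B) [h𝔫 : 𝔫.IsPrime]
    (h𝔭 : RingHom.ker ρ ≤ 𝔫) (h𝔮 : RingHom.ker ρ₀ ≤ 𝔫)
    {π X Y : B} (hπ : ρ π = 0) (hπ₀ : ρ₀ π = 0) (hX : ρ X = 0) (hY : ρ₀ Y = 0)
    (hsX : NodesSmoothAt ρ₀ 𝔫 X) (hsY : NodesSmoothAt ρ 𝔫 Y)
    (H T U : B) (hH : ρ₀ H = hm3 k) (hT : ρ₀ T = s36rig_t9 k)
    (hU : ρ₀ U = deltaS k * deltaInvS k ^ q) (hρU : ρ U = 0)
    (hu : ∀ f, ρ f = 0 → U ∣ f ^ 12) :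
    (∀ b, ρ b = 0 → ∃ u, u ∉ 𝔫 ∧ X ∣ u * b) ∧
      UniqueFactorizationMonoid (Localization.AtPrime 𝔫) := by
  have hU𝔫 : U ∈ 𝔫 := h𝔭 (RingHom.mem_ker.2 hρU)
  have hU₀ : ρ₀ U ≠ 0 := by rw [hU]; exact s36thin_P_ne_zero q k
  exact s36thin_node_abs ρ ρ₀ 𝔫 h𝔭 h𝔮 hπ hπ₀ hX hY hsX hsY
    (s36thin_param_ne_zero ρ₀ 𝔫 h𝔮 hsX hU𝔫 hU₀) (by norm_num) hu
    (s36thin_hord_chart_two q k h2 ρ₀ H T U hH hT hU 𝔫 h𝔮 hU𝔫)

end NodeChart

end Fermat.Agent.S36

end
end ZBS36_009_4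

/-! ### bundled: `Fermat.Agent.S36.ThinChartId` -/
section ZBS36_009_5

/-!
# S36 (Carayol), G-thin (T4b′): the thin node in chart form, IDENTITY hypotheses (helper37)

As `ThinChart.lean`, but the Hauptmoduln `H, T ∈ B` are only required to satisfy the modular
identities on the branch `ρ₀` (no explicit reduction of `hm2`, `s36rig_t4`, … is needed):

* `q` odd: `ρ₀ J = j̄`, `ρ₀ J · (ρ₀ H)² = (ρ₀ H + 256)³`, `(ρ₀ T)² = ρ₀ H · ρ₀ T + 16 ρ₀ H`;
* `q = 2`: `ρ₀ J = j̄`, `ρ₀ J · (ρ₀ H)³ = (ρ₀ H + 27)(ρ₀ H + 243)³`,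
  `(ρ₀ T)³ = ρ₀ H ((ρ₀ T)² + 9 ρ₀ T + 27)`.

Main statements: `s36thin_node_odd'`, `s36thin_node_two'`.
-/

set_option autoImplicit false
set_option linter.style.haveILetI false
set_option linter.unusedSectionVars false
set_option linter.unusedVariables false

noncomputable section

namespace Fermat.Agent.S36

open Polynomial ModularCurve
open Fermat.Agent.S28 Fermat.Agent.S28.Deriv Fermat.Agent.UNIP Fermat.Agent.INJ

section Three

variable (k : Type*) [Field k] [CharP k 3]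

/-- **`hord`, `q = 3`, identity form.** -/
theorem s36thin_hord_id3 {R : Type*} [CommRing R] (ι : R →+* LaurentSeries k)
    (hι : Function.Injective ι) (P j h t : R) (hP : ι P = deltaS k * deltaInvS k ^ 3)
    (hj : ι j = jqModC k) (hjh : j * h ^ 2 = (h + 256) ^ 3) (hth : t ^ 2 = h * t + 16 * h)
    (𝔪 : Ideal R) [h𝔪 : 𝔪.IsPrime] (hPm : P ∈ 𝔪) :
    ∃ s : R, s ∉ 𝔪 ∧ s * P ∈ 𝔪 ^ 12 := by
  have h3k : (3 : k) = 0 := s36ts_three_eq_zero k
  have h240 : (240 : k) = 0 := by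
    have : (240 : k) = 3 * 80 := by norm_num
    rw [this, h3k, zero_mul]
  have h3L : (3 : LaurentSeries k) = 0 := by
    rw [← map_ofNat (HahnSeries.C (Γ := ℤ) (R := k)) 3, h3k, map_zero]
  have h3 : (3 : R) = 0 := by
    apply hι
    rw [map_ofNat, map_zero, h3L]
  have hPj : P = j ^ 2 := by
    apply hι
    rw [hP, map_pow, hj]
    exact s36ts_P_eq k h240 2
  have h2 : (2 : R) ∉ 𝔪 := by
    intro h2m
    have h1 : (1 : R) = 3 - 2 := by norm_num
    have : (1 : R) ∈ 𝔪 := by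
      rw [h1, h3, zero_sub]
      exact neg_mem h2m
    exact h𝔪.ne_top ((Ideal.eq_top_iff_one _).2 this)
  have hrel : (t + 16) * (h + 64) = (t + 32) ^ 2 := s36rig_t4_eq hth
  have hid : (h ^ 4 * (t + 16) ^ 6) * P = (t + 32) ^ 12 := by
    have e1 : (h + 256 : R) = (h + 64) + 3 * 64 := by ring
    have e2 : (h + 256 : R) = h + 64 := by rw [e1, h3, zero_mul, add_zero]
    rw [e2] at hjh
    have e3 : (h ^ 4 * (t + 16) ^ 6) * P = ((t + 16) * (h + 64)) ^ 6 := by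
      rw [hPj]
      have : (h ^ 4 * (t + 16) ^ 6) * j ^ 2 = (t + 16) ^ 6 * (j * h ^ 2) ^ 2 := by ring
      rw [this, hjh]
      ring
    rw [e3, hrel]
    ring
  have hh : h ∉ 𝔪 := by
    have hjh' : j * h ^ 2 = (h + 256) ^ 3 := by
      have e1 : (h + 256 : R) = (h + 64) + 3 * 64 := by ring
      have e2 : (h + 256 : R) = h + 64 := by rw [e1, h3, zero_mul, add_zero]
      rw [e2]
      have e3 : (h + 256 : R) ^ 3 = (h + 64) ^ 3 := by rw [e2]
      rw [← e3, e2]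
      first
        | exact hjh
        | (rw [e2] at hjh; exact hjh)
    exact s36rig_h2_notMem h2 hjh'
  have htt : t + 16 ∉ 𝔪 := s36rig_t4_add_notMem h2 hth
  refine ⟨h ^ 4 * (t + 16) ^ 6, ?_, ?_⟩
  · intro hmem
    rcases h𝔪.mem_or_mem hmem with h1 | h1
    · exact hh (h𝔪.mem_of_pow_mem _ h1)
    · exact htt (h𝔪.mem_of_pow_mem _ h1)
  · rw [hid]
    have h1 : (t + 32) ^ 12 ∈ 𝔪 := by
      rw [← hid]; exact 𝔪.mul_mem_left _ hPm
    exact Ideal.pow_mem_pow (h𝔪.mem_of_pow_mem _ h1) 12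

end Three

section Two

variable (k : Type*) [Field k] [CharP k 2]

/-- **`hord`, `q = 2`, identity form.** -/
theorem s36thin_hord_id2 {R : Type*} [CommRing R] (ι : R →+* LaurentSeries k)
    (hι : Function.Injective ι) (P j h t : R) (hP : ι P = deltaS k * deltaInvS k ^ 2)
    (hj : ι j = jqModC k) (hjh : j * h ^ 3 = (h + 27) * (h + 243) ^ 3)
    (hth : t ^ 3 = h * (t ^ 2 + 9 * t + 27))
    (𝔪 : Ideal R) [h𝔪 : 𝔪.IsPrime] (hPm : P ∈ 𝔪) :
    ∃ s : R, s ∉ 𝔪 ∧ s * P ∈ 𝔪 ^ 12 := by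
  have h2k : (2 : k) = 0 := s36ts_two_eq_zero k
  have h240 : (240 : k) = 0 := by
    have : (240 : k) = 2 * 120 := by norm_num
    rw [this, h2k, zero_mul]
  have h2L : (2 : LaurentSeries k) = 0 := by
    rw [← map_ofNat (HahnSeries.C (Γ := ℤ) (R := k)) 2, h2k, map_zero]
  have h2 : (2 : R) = 0 := by
    apply hι
    rw [map_ofNat, map_zero, h2L]
  have hPj : P = j := by
    apply hι
    rw [hP, hj]
    have := s36ts_P_eq k h240 1
    rw [pow_one] at this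
    exact this
  have h3 : (3 : R) ∉ 𝔪 := by
    intro h3m
    have h1 : (1 : R) = 3 - 2 := by norm_num
    have : (1 : R) ∈ 𝔪 := by
      rw [h1, h2, sub_zero]
      exact h3m
    exact h𝔪.ne_top ((Ideal.eq_top_iff_one _).2 this)
  have hrel : (h + 27) * (t ^ 2 + 9 * t + 27) = (t + 9) ^ 3 := s36rig_t9_eq hth
  have e2 : (h + 243 : R) = h + 27 := by
    have e1 : (h + 243 : R) = (h + 27) + 2 * 108 := by ring
    rw [e1, h2, zero_mul, add_zero]
  have hid : (h ^ 3 * (t ^ 2 + 9 * t + 27) ^ 4) * P = (t + 9) ^ 12 := by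
    have hjh' : j * h ^ 3 = (h + 27) ^ 4 := by
      rw [hjh, e2]; ring
    rw [hPj]
    have : (h ^ 3 * (t ^ 2 + 9 * t + 27) ^ 4) * j =
        (t ^ 2 + 9 * t + 27) ^ 4 * (j * h ^ 3) := by ring
    rw [this, hjh']
    have : (t ^ 2 + 9 * t + 27) ^ 4 * (h + 27) ^ 4 = ((h + 27) * (t ^ 2 + 9 * t + 27)) ^ 4 := by
      ring
    rw [this, hrel]
    ring
  have ht9 : t + 9 ∈ 𝔪 := by
    have h1 : (t + 9) ^ 12 ∈ 𝔪 := by
      rw [← hid]; exact 𝔪.mul_mem_left _ hPm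
    exact h𝔪.mem_of_pow_mem _ h1
  have hh : h ∉ 𝔪 := s36rig_h3_notMem h3 hjh
  have htt : t ^ 2 + 9 * t + 27 ∉ 𝔪 := by
    intro hs
    have h4 : (3 : R) ^ 3 ∈ 𝔪 := by
      have : (3 : R) ^ 3 = (t ^ 2 + 9 * t + 27) - (t + 9) * t := by ring
      rw [this]
      exact 𝔪.sub_mem hs (𝔪.mul_mem_right _ ht9)
    exact s36rig_three_pow_notMem h3 3 h4
  refine ⟨h ^ 3 * (t ^ 2 + 9 * t + 27) ^ 4, ?_, ?_⟩
  · intro hmem
    rcases h𝔪.mem_or_mem hmem with h1 | h1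
    · exact hh (h𝔪.mem_of_pow_mem _ h1)
    · exact htt (h𝔪.mem_of_pow_mem _ h1)
  · rw [hid]
    exact Ideal.pow_mem_pow ht9 12

end Two

section Chart

variable (q : ℕ) [hq : Fact q.Prime] (k : Type*) [Field k] [CharP k q]
variable {B : Type*} [CommRing B]

/-- **`hord`, chart form, `q` odd, identity hypotheses.** -/
theorem s36thin_hord_chart_odd' (hodd : q ≠ 2) (ρ₀ : B →+* LaurentSeries k)
    (hk : ∀ c : k, ∃ b : B, ρ₀ b = HahnSeries.C c)
    (J H T U : B) (hJ : ρ₀ J = jqModC k)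
    (hHJ : ρ₀ J * ρ₀ H ^ 2 = (ρ₀ H + 256) ^ 3)
    (hTH : ρ₀ T ^ 2 = ρ₀ H * ρ₀ T + 16 * ρ₀ H)
    (hU : ρ₀ U = deltaS k * deltaInvS k ^ q)
    (𝔫 : Ideal B) [h𝔫 : 𝔫.IsPrime] (h𝔮 : RingHom.ker ρ₀ ≤ 𝔫) (hU𝔫 : U ∈ 𝔫) :
    ∃ s, s ∉ 𝔫 ∧ s * U ∈ 𝔫 ^ 12 ⊔ RingHom.ker ρ₀ := by
  classical
  apply s36thin_hord_of_quot
  haveI hkp : (RingHom.ker ρ₀).IsPrime := RingHom.ker_isPrime ρ₀
  set mk := Ideal.Quotient.mk (RingHom.ker ρ₀) with hmk
  set ι : B ⧸ RingHom.ker ρ₀ →+* LaurentSeries k := RingHom.kerLift ρ₀ with hιdef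
  have hι : Function.Injective ι := RingHom.kerLift_injective ρ₀
  have hιmk : ∀ x, ι (mk x) = ρ₀ x := fun x => RingHom.kerLift_mk ρ₀ x
  haveI h𝔪 : (𝔫.map mk).IsPrime := s36thin_map_isPrime ρ₀ 𝔫 h𝔮
  have hid1 : mk J * mk H ^ 2 = (mk H + 256) ^ 3 := by
    apply hι
    rw [map_mul, map_pow, map_pow, map_add, map_ofNat, hιmk, hιmk]
    exact hHJ
  have hid2 : mk T ^ 2 = mk H * mk T + 16 * mk H := by
    apply hι
    rw [map_pow, map_add, map_mul, map_mul, map_ofNat, hιmk, hιmk]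
    exact hTH
  by_cases h3 : q = 3
  · subst h3
    exact s36thin_hord_id3 k ι hι (mk U) (mk J) (mk H) (mk T) (by rw [hιmk, hU])
      (by rw [hιmk, hJ]) hid1 hid2 (𝔫.map mk) (Ideal.mem_map_of_mem _ hU𝔫)
  have h5 : 5 ≤ q := by
    have h2 := hq.out.two_le
    by_contra hlt
    have h4 : q = 4 := by omega
    rw [h4] at hq
    exact absurd hq.out (by norm_num)
  -- `2 ∉ 𝔪`
  have hq0 : ((q : ℕ) : B ⧸ RingHom.ker ρ₀) = 0 := by
    apply hι
    rw [map_natCast, map_zero]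
    have : ((q : ℕ) : LaurentSeries k) = HahnSeries.C ((q : ℕ) : k) := by
      rw [map_natCast]
    rw [this, CharP.cast_eq_zero k q, map_zero]
  have h2 : (2 : B ⧸ RingHom.ker ρ₀) ∉ 𝔫.map mk := by
    intro h2m
    have hodd' : q % 2 = 1 := by
      rcases hq.out.eq_two_or_odd with h | h
      · omega
      · exact h
    have h1 : ((q : ℕ) : B ⧸ RingHom.ker ρ₀) = 2 * ((q / 2 : ℕ) : B ⧸ RingHom.ker ρ₀) + 1 := by
      have : q = 2 * (q / 2) + 1 := by omega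
      conv_lhs => rw [this]
      push_cast
      ring
    have h3' : (1 : B ⧸ RingHom.ker ρ₀) ∈ 𝔫.map mk := by
      have h4 : (1 : B ⧸ RingHom.ker ρ₀) =
          ((q : ℕ) : B ⧸ RingHom.ker ρ₀) - 2 * ((q / 2 : ℕ) : B ⧸ RingHom.ker ρ₀) := by
        rw [h1]; ring
      rw [h4, hq0, zero_sub]
      exact neg_mem (Ideal.mul_mem_right _ _ h2m)
    exact h𝔪.ne_top ((Ideal.eq_top_iff_one _).2 h3')
  refine s36tk_hord_ringHom q k h5 ι hι ?_ (mk J) (mk U) ?_ ?_ (𝔫.map mk) ?_ ?_ ?_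
  · intro c
    obtain ⟨b, hb⟩ := hk c
    exact ⟨mk b, by rw [hιmk, hb]⟩
  · rw [hιmk, hJ]
  · rw [hιmk, hU]
  · exact Ideal.mem_map_of_mem _ hU𝔫
  · intro hjm
    exact s36rig_j_zero h2 hid1 hjm
  · intro hjm
    exact s36rig_j_1728 h2 hid1 hid2 hjm

/-- **`hord`, chart form, `q = 2`, identity hypotheses.** -/
theorem s36thin_hord_chart_two' (h2 : q = 2) (ρ₀ : B →+* LaurentSeries k)
    (J H T U : B) (hJ : ρ₀ J = jqModC k)
    (hHJ : ρ₀ J * ρ₀ H ^ 3 = (ρ₀ H + 27) * (ρ₀ H + 243) ^ 3)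
    (hTH : ρ₀ T ^ 3 = ρ₀ H * (ρ₀ T ^ 2 + 9 * ρ₀ T + 27))
    (hU : ρ₀ U = deltaS k * deltaInvS k ^ q)
    (𝔫 : Ideal B) [h𝔫 : 𝔫.IsPrime] (h𝔮 : RingHom.ker ρ₀ ≤ 𝔫) (hU𝔫 : U ∈ 𝔫) :
    ∃ s, s ∉ 𝔫 ∧ s * U ∈ 𝔫 ^ 12 ⊔ RingHom.ker ρ₀ := by
  classical
  subst h2
  apply s36thin_hord_of_quot
  set mk := Ideal.Quotient.mk (RingHom.ker ρ₀) with hmk
  set ι : B ⧸ RingHom.ker ρ₀ →+* LaurentSeries k := RingHom.kerLift ρ₀ with hιdef
  have hι : Function.Injective ι := RingHom.kerLift_injective ρ₀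
  have hιmk : ∀ x, ι (mk x) = ρ₀ x := fun x => RingHom.kerLift_mk ρ₀ x
  haveI h𝔪 : (𝔫.map mk).IsPrime := s36thin_map_isPrime ρ₀ 𝔫 h𝔮
  have hid1 : mk J * mk H ^ 3 = (mk H + 27) * (mk H + 243) ^ 3 := by
    apply hι
    simp only [map_mul, map_pow, map_add, map_ofNat, hιmk]
    exact hHJ
  have hid2 : mk T ^ 3 = mk H * (mk T ^ 2 + 9 * mk T + 27) := by
    apply hι
    simp only [map_mul, map_pow, map_add, map_ofNat, hιmk]
    exact hTH
  exact s36thin_hord_id2 k ι hι (mk U) (mk J) (mk H) (mk T) (by rw [hιmk, hU])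
    (by rw [hιmk, hJ]) hid1 hid2 (𝔫.map mk) (Ideal.mem_map_of_mem _ hU𝔫)

end Chart

section NodeChart

variable (q : ℕ) [hq : Fact q.Prime] (k : Type*) [Field k] [CharP k q]
variable {B : Type*} [CommRing B] [IsDomain B] [IsNoetherianRing B] [IsIntegrallyClosed B]

/-- **The thin node, `q` odd, identity hypotheses** (chart form). -/
theorem s36thin_node_odd' (hodd : q ≠ 2) (ρ ρ₀ : B →+* LaurentSeries k)
    (hk : ∀ c : k, ∃ b : B, ρ₀ b = HahnSeries.C c)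
    (𝔫 : Ideal B) [h𝔫 : 𝔫.IsPrime]
    (h𝔭 : RingHom.ker ρ ≤ 𝔫) (h𝔮 : RingHom.ker ρ₀ ≤ 𝔫)
    {π X Y : B} (hπ : ρ π = 0) (hπ₀ : ρ₀ π = 0) (hX : ρ X = 0) (hY : ρ₀ Y = 0)
    (hsX : NodesSmoothAt ρ₀ 𝔫 X) (hsY : NodesSmoothAt ρ 𝔫 Y)
    (J H T U : B) (hJ : ρ₀ J = jqModC k)
    (hHJ : ρ₀ J * ρ₀ H ^ 2 = (ρ₀ H + 256) ^ 3)
    (hTH : ρ₀ T ^ 2 = ρ₀ H * ρ₀ T + 16 * ρ₀ H)
    (hU : ρ₀ U = deltaS k * deltaInvS k ^ q) (hρU : ρ U = 0)
    (hu : ∀ f, ρ f = 0 → U ∣ f ^ 12) :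
    (∀ b, ρ b = 0 → ∃ u, u ∉ 𝔫 ∧ X ∣ u * b) ∧
      UniqueFactorizationMonoid (Localization.AtPrime 𝔫) := by
  have hU𝔫 : U ∈ 𝔫 := h𝔭 (RingHom.mem_ker.2 hρU)
  have hU₀ : ρ₀ U ≠ 0 := by rw [hU]; exact s36thin_P_ne_zero q k
  exact s36thin_node_abs ρ ρ₀ 𝔫 h𝔭 h𝔮 hπ hπ₀ hX hY hsX hsY
    (s36thin_param_ne_zero ρ₀ 𝔫 h𝔮 hsX hU𝔫 hU₀) (by norm_num) hu
    (s36thin_hord_chart_odd' q k hodd ρ₀ hk J H T U hJ hHJ hTH hU 𝔫 h𝔮 hU𝔫)

/-- **The thin node, `q = 2`, identity hypotheses** (chart form). -/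
theorem s36thin_node_two' (h2 : q = 2) (ρ ρ₀ : B →+* LaurentSeries k)
    (𝔫 : Ideal B) [h𝔫 : 𝔫.IsPrime]
    (h𝔭 : RingHom.ker ρ ≤ 𝔫) (h𝔮 : RingHom.ker ρ₀ ≤ 𝔫)
    {π X Y : B} (hπ : ρ π = 0) (hπ₀ : ρ₀ π = 0) (hX : ρ X = 0) (hY : ρ₀ Y = 0)
    (hsX : NodesSmoothAt ρ₀ 𝔫 X) (hsY : NodesSmoothAt ρ 𝔫 Y)
    (J H T U : B) (hJ : ρ₀ J = jqModC k)
    (hHJ : ρ₀ J * ρ₀ H ^ 3 = (ρ₀ H + 27) * (ρ₀ H + 243) ^ 3)
    (hTH : ρ₀ T ^ 3 = ρ₀ H * (ρ₀ T ^ 2 + 9 * ρ₀ T + 27))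
    (hU : ρ₀ U = deltaS k * deltaInvS k ^ q) (hρU : ρ U = 0)
    (hu : ∀ f, ρ f = 0 → U ∣ f ^ 12) :
    (∀ b, ρ b = 0 → ∃ u, u ∉ 𝔫 ∧ X ∣ u * b) ∧
      UniqueFactorizationMonoid (Localization.AtPrime 𝔫) := by
  have hU𝔫 : U ∈ 𝔫 := h𝔭 (RingHom.mem_ker.2 hρU)
  have hU₀ : ρ₀ U ≠ 0 := by rw [hU]; exact s36thin_P_ne_zero q k
  exact s36thin_node_abs ρ ρ₀ 𝔫 h𝔭 h𝔮 hπ hπ₀ hX hY hsX hsY
    (s36thin_param_ne_zero ρ₀ 𝔫 h𝔮 hsX hU𝔫 hU₀) (by norm_num) hu
    (s36thin_hord_chart_two' q k h2 ρ₀ J H T U hJ hHJ hTH hU 𝔫 h𝔮 hU𝔫)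

end NodeChart

end Fermat.Agent.S36

end
end ZBS36_009_5

/-! ### bundled: `Fermat.Agent.S36.ThinMod` -/
section ZBS36_009_6

/-!
# S36 / G-thin (T4c): the thin node on the UNIP chart of level `M q` (helper80)

Setting of `S36/ThinUnit.lean` (= `UNIP/NodesModular.lean`): `A` a domain with fraction field `E`
(characteristic `0`), `r : A →+* k`, `ker r = (π)`, `char k = q`, `F = F_{Mq}(E)`,
`w` the Atkin–Lehner involution, `T ∈ F` a chart coordinate (`T`, `w T` Gauss-integral),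
`B = integralClosure A[T] F`, `ρ = nodesFrobChartRed`, `ρ₀ = nodesSwapRho₀ … w`.

RIGID level: `4 ∣ M` if `q ≠ 2`, `9 ∣ M` if `q = 2`; `j` integral over `A[T]` (`T = j`).

* `s36tm_rho_algebraMap`, `s36tm_rho₀_algebraMap` : `ρ a = ρ₀ a = C (r a)` for `a ∈ A`;
* `s36tm_rho_J` : `ρ j = j̄`;
* `s36tm_exists_JHT_odd`, `s36tm_exists_JHT_two` : `J, H, T ∈ B` with `ρ₀ J = j̄` and the modular
  identities of the Hauptmoduln of `X₀(4)` resp. `X₀(9)` on the branch `ρ₀`;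
* `s36tm_node` : **the thin node**: at a prime `𝔫 ⊇ ker ρ, ker ρ₀` with (SS3) coordinates `X, Y`:
  `ker ρ` is generated by `X` at `𝔫`, `B_𝔫` is factorial, and `u π = X Y″` with `u ∉ 𝔫`,
  `ρ₀ Y″ = 0`, `ρ Y″ ≠ 0`.
-/

set_option autoImplicit false
set_option linter.unusedSectionVars false
set_option linter.unusedVariables false
set_option linter.style.haveILetI false
set_option synthInstance.maxHeartbeats 400000
set_option maxHeartbeats 1000000

noncomputable section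

namespace Fermat.Agent.S36

open ModularCurve Polynomial IntermediateField
open Fermat.Agent.INJ Fermat.Agent.AL Fermat.Agent.S28 Fermat.Agent.UNIP

section Chart

variable {A E k : Type*} [CommRing A] [IsDomain A] [WfDvdMonoid A] [Field E] [CharZero E]
  [Algebra A E] [IsFractionRing A E] [Field k] (r : A →+* k) {π : A} (ιC : E →+* ℂ)
  {q M : ℕ} [NeZero q] [NeZero M] [NeZero (M * q)] (hq : q.Prime) (hqM : ¬ q ∣ M)
  [Algebra A (modularFunctionFieldFullC E (M * q))]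
  [IsScalarTower A E (modularFunctionFieldFullC E (M * q))]
  (hπ0 : π ≠ 0) (hπ : ¬ IsUnit π) (hr : ∀ a, r a = 0 → π ∣ a) (hrπ : r π = 0)
  (w : modularFunctionFieldFullC E (M * q) →ₐ[E] modularFunctionFieldFullC E (M * q))
  (T : modularFunctionFieldFullC E (M * q))
  (hT : (T : LaurentSeries E) ∈ gaussRing (algebraMap A E) r)
  (hwT : ((w T : modularFunctionFieldFullC E (M * q)) : LaurentSeries E) ∈
    gaussRing (algebraMap A E) r)

/-- `ρ a = C (r a)` for a constant `a ∈ A`. -/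
theorem s36tm_rho_algebraMap (a : A) :
    nodesFrobChartRed r hπ0 hπ hr hrπ (nodesFrob_full_le (M * q)) T hT
      (algebraMap A (integralClosure (Algebra.adjoin A {T})
        (modularFunctionFieldFullC E (M * q))) a) = HahnSeries.C (r a) := by
  have hcoe : (((algebraMap A (integralClosure (Algebra.adjoin A {T})
      (modularFunctionFieldFullC E (M * q))) a :
      integralClosure (Algebra.adjoin A {T}) (modularFunctionFieldFullC E (M * q))) :
      modularFunctionFieldFullC E (M * q)) : LaurentSeries E) =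
      HahnSeries.C (algebraMap A E a) := s36tu_coe_algebraMap a
  have hG : (((algebraMap A (integralClosure (Algebra.adjoin A {T})
      (modularFunctionFieldFullC E (M * q))) a :
      integralClosure (Algebra.adjoin A {T}) (modularFunctionFieldFullC E (M * q))) :
      modularFunctionFieldFullC E (M * q)) : LaurentSeries E) ∈ gaussRing (algebraMap A E) r := by
    rw [hcoe]; exact hahnC_mem_gaussRing r a
  exact ((nodesFrobChartRed_apply r hπ0 hπ hr hrπ (nodesFrob_full_le (M * q)) T hT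
    (algebraMap A (integralClosure (Algebra.adjoin A {T})
      (modularFunctionFieldFullC E (M * q))) a) hG).trans
    (s36tu_gaussRed_congr r hcoe hG (hahnC_mem_gaussRing r a))).trans
    (nodesFrob_gaussRed_C r a)

/-- `ρ₀ a = C (r a)` for a constant `a ∈ A`. -/
theorem s36tm_rho₀_algebraMap (a : A) :
    nodesSwapRho₀ r hπ0 hπ hr hrπ (nodesFrob_full_le (M * q)) w T hwT
      (algebraMap A (integralClosure (Algebra.adjoin A {T})
        (modularFunctionFieldFullC E (M * q))) a) = HahnSeries.C (r a) := by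
  have hcoe : ((w ((algebraMap A (integralClosure (Algebra.adjoin A {T})
      (modularFunctionFieldFullC E (M * q))) a :
      integralClosure (Algebra.adjoin A {T}) (modularFunctionFieldFullC E (M * q))) :
      modularFunctionFieldFullC E (M * q)) : modularFunctionFieldFullC E (M * q)) :
      LaurentSeries E) = HahnSeries.C (algebraMap A E a) := by
    have h2 : ((algebraMap A (integralClosure (Algebra.adjoin A {T})
        (modularFunctionFieldFullC E (M * q))) a :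
        integralClosure (Algebra.adjoin A {T}) (modularFunctionFieldFullC E (M * q))) :
        modularFunctionFieldFullC E (M * q)) =
        algebraMap A (modularFunctionFieldFullC E (M * q)) a := rfl
    rw [h2, s36tu_w_algebraMap]
    exact s36tu_coe_algebraMap a
  have hG : ((w ((algebraMap A (integralClosure (Algebra.adjoin A {T})
      (modularFunctionFieldFullC E (M * q))) a :
      integralClosure (Algebra.adjoin A {T}) (modularFunctionFieldFullC E (M * q))) :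
      modularFunctionFieldFullC E (M * q)) : modularFunctionFieldFullC E (M * q)) :
      LaurentSeries E) ∈ gaussRing (algebraMap A E) r := by
    rw [hcoe]; exact hahnC_mem_gaussRing r a
  exact ((nodesSwapRho₀_apply r hπ0 hπ hr hrπ (nodesFrob_full_le (M * q)) w T hwT
    (algebraMap A (integralClosure (Algebra.adjoin A {T})
      (modularFunctionFieldFullC E (M * q))) a) hG).trans
    (s36tu_gaussRed_congr r hcoe hG (hahnC_mem_gaussRing r a))).trans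
    (nodesFrob_gaussRed_C r a)

/-- `ρ j = j̄`. -/
theorem s36tm_rho_J (hJ : IsIntegral (Algebra.adjoin A {T}) (nodesFrobJ E M q)) :
    nodesFrobChartRed r hπ0 hπ hr hrπ (nodesFrob_full_le (M * q)) T hT
      ⟨nodesFrobJ E M q, hJ⟩ = jqModC k :=
  (nodesFrobChartRed_apply r hπ0 hπ hr hrπ (nodesFrob_full_le (M * q)) T hT
    ⟨nodesFrobJ E M q, hJ⟩ (nodesFrobU_j_mem r)).trans (nodesFrobU_gaussRed_j r _)

omit [WfDvdMonoid A] [IsDomain A] [IsFractionRing A E] in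
/-- `(M q : E) ≠ 0` -/
theorem s36tm_level_ne_zero : (((M * q : ℕ) : ℕ) : E) ≠ 0 :=
  Nat.cast_ne_zero.mpr (NeZero.ne (M * q))

/-- **`J, H, T` on the branch `ρ₀`, `q` odd** (`4 ∣ M`): elements of the chart with `ρ₀ J = j̄`
and the identities of the Hauptmoduln of `X₀(2)`, `X₀(4)`. -/
theorem s36tm_exists_JHT_odd (h4 : 4 ∣ M)
    (hJ : IsIntegral (Algebra.adjoin A {T}) (nodesFrobJ E M q))
    (swap : ∀ b : integralClosure (Algebra.adjoin A {T}) (modularFunctionFieldFullC E (M * q)),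
      ∃ b' : integralClosure (Algebra.adjoin A {T}) (modularFunctionFieldFullC E (M * q)),
      nodesFrobChartRed r hπ0 hπ hr hrπ (nodesFrob_full_le (M * q)) T hT b' =
        nodesSwapRho₀ r hπ0 hπ hr hrπ (nodesFrob_full_le (M * q)) w T hwT b ∧
      nodesSwapRho₀ r hπ0 hπ hr hrπ (nodesFrob_full_le (M * q)) w T hwT b' =
        nodesFrobChartRed r hπ0 hπ hr hrπ (nodesFrob_full_le (M * q)) T hT b) :
    ∃ J H T' : integralClosure (Algebra.adjoin A {T}) (modularFunctionFieldFullC E (M * q)),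
      nodesSwapRho₀ r hπ0 hπ hr hrπ (nodesFrob_full_le (M * q)) w T hwT J = jqModC k ∧
      nodesSwapRho₀ r hπ0 hπ hr hrπ (nodesFrob_full_le (M * q)) w T hwT J *
        nodesSwapRho₀ r hπ0 hπ hr hrπ (nodesFrob_full_le (M * q)) w T hwT H ^ 2 =
        (nodesSwapRho₀ r hπ0 hπ hr hrπ (nodesFrob_full_le (M * q)) w T hwT H + 256) ^ 3 ∧
      nodesSwapRho₀ r hπ0 hπ hr hrπ (nodesFrob_full_le (M * q)) w T hwT T' ^ 2 =
        nodesSwapRho₀ r hπ0 hπ hr hrπ (nodesFrob_full_le (M * q)) w T hwT H *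
          nodesSwapRho₀ r hπ0 hπ hr hrπ (nodesFrob_full_le (M * q)) w T hwT T' +
        16 * nodesSwapRho₀ r hπ0 hπ hr hrπ (nodesFrob_full_le (M * q)) w T hwT H := by
  have hMq : (((M * q : ℕ) : ℕ) : E) ≠ 0 := s36tm_level_ne_zero
  have h4' : 4 ∣ M * q := Dvd.dvd.mul_right h4 q
  have h2' : 2 ∣ M * q := (show 2 ∣ 4 by norm_num).trans h4'
  -- the elements of the function field
  set J₀ : modularFunctionFieldFullC E (M * q) := nodesFrobJ E M q with hJ₀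
  set H₀ : modularFunctionFieldFullC E (M * q) := ⟨hm2 E, hm2_mem_full E h2' hMq⟩ with hH₀
  set T₀ : modularFunctionFieldFullC E (M * q) := ⟨s36rig_t4 E, s36rig_t4_mem E h4' hMq⟩ with hT₀
  have hinj : Function.Injective
      (modularFunctionFieldFullC E (M * q)).val.toRingHom := Subtype.val_injective
  have e1 : J₀ * H₀ ^ 2 = (H₀ + 256) ^ 3 := by
    apply hinj
    simp only [map_mul, map_pow, map_add, map_ofNat]
    exact hm2_j E
  have e2 : T₀ ^ 2 = H₀ * T₀ + 16 * H₀ := by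
    apply hinj
    simp only [map_mul, map_pow, map_add, map_ofNat]
    exact s36rig_t4_sq E
  -- integrality
  have hHint : IsIntegral (Algebra.adjoin A {T}) H₀ :=
    cusp_isIntegral_adjoin_trans (A := A) (u := T) (T := J₀) hJ (s36rig_integral_h2 A e1)
  have hTint : IsIntegral (Algebra.adjoin A {T}) T₀ :=
    cusp_isIntegral_adjoin_trans (A := A) (u := T) (T := J₀) hJ (s36rig_integral_t4_j A e1 e2)
  -- the identities in the chart
  have f1 : (⟨J₀, hJ⟩ : integralClosure (Algebra.adjoin A {T})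
      (modularFunctionFieldFullC E (M * q))) * ⟨H₀, hHint⟩ ^ 2 = (⟨H₀, hHint⟩ + 256) ^ 3 := by
    apply Subtype.ext
    simp only [MulMemClass.coe_mul, SubmonoidClass.coe_pow, AddMemClass.coe_add]
    exact e1
  have f2 : (⟨T₀, hTint⟩ : integralClosure (Algebra.adjoin A {T})
      (modularFunctionFieldFullC E (M * q))) ^ 2 =
      ⟨H₀, hHint⟩ * ⟨T₀, hTint⟩ + 16 * ⟨H₀, hHint⟩ := by
    apply Subtype.ext
    simp only [MulMemClass.coe_mul, SubmonoidClass.coe_pow, AddMemClass.coe_add]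
    exact e2
  obtain ⟨J, -, hJ2⟩ := swap ⟨J₀, hJ⟩
  obtain ⟨H, -, hH2⟩ := swap ⟨H₀, hHint⟩
  obtain ⟨T', -, hT2⟩ := swap ⟨T₀, hTint⟩
  refine ⟨J, H, T', ?_, ?_, ?_⟩
  · rw [hJ2]
    exact s36tm_rho_J r hπ0 hπ hr hrπ T hT hJ
  · rw [hJ2, hH2]
    have := congrArg (nodesFrobChartRed r hπ0 hπ hr hrπ (nodesFrob_full_le (M * q)) T hT) f1
    simpa only [map_mul, map_pow, map_add, map_ofNat] using this
  · rw [hT2, hH2]
    have := congrArg (nodesFrobChartRed r hπ0 hπ hr hrπ (nodesFrob_full_le (M * q)) T hT) f2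
    simpa only [map_mul, map_pow, map_add, map_ofNat] using this

/-- **`J, H, T` on the branch `ρ₀`, `q = 2`** (`9 ∣ M`): elements of the chart with `ρ₀ J = j̄`
and the identities of the Hauptmoduln of `X₀(3)`, `X₀(9)`. -/
theorem s36tm_exists_JHT_two (h9 : 9 ∣ M)
    (hJ : IsIntegral (Algebra.adjoin A {T}) (nodesFrobJ E M q))
    (swap : ∀ b : integralClosure (Algebra.adjoin A {T}) (modularFunctionFieldFullC E (M * q)),
      ∃ b' : integralClosure (Algebra.adjoin A {T}) (modularFunctionFieldFullC E (M * q)),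
      nodesFrobChartRed r hπ0 hπ hr hrπ (nodesFrob_full_le (M * q)) T hT b' =
        nodesSwapRho₀ r hπ0 hπ hr hrπ (nodesFrob_full_le (M * q)) w T hwT b ∧
      nodesSwapRho₀ r hπ0 hπ hr hrπ (nodesFrob_full_le (M * q)) w T hwT b' =
        nodesFrobChartRed r hπ0 hπ hr hrπ (nodesFrob_full_le (M * q)) T hT b) :
    ∃ J H T' : integralClosure (Algebra.adjoin A {T}) (modularFunctionFieldFullC E (M * q)),
      nodesSwapRho₀ r hπ0 hπ hr hrπ (nodesFrob_full_le (M * q)) w T hwT J = jqModC k ∧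
      nodesSwapRho₀ r hπ0 hπ hr hrπ (nodesFrob_full_le (M * q)) w T hwT J *
        nodesSwapRho₀ r hπ0 hπ hr hrπ (nodesFrob_full_le (M * q)) w T hwT H ^ 3 =
        (nodesSwapRho₀ r hπ0 hπ hr hrπ (nodesFrob_full_le (M * q)) w T hwT H + 27) *
        (nodesSwapRho₀ r hπ0 hπ hr hrπ (nodesFrob_full_le (M * q)) w T hwT H + 243) ^ 3 ∧
      nodesSwapRho₀ r hπ0 hπ hr hrπ (nodesFrob_full_le (M * q)) w T hwT T' ^ 3 =
        nodesSwapRho₀ r hπ0 hπ hr hrπ (nodesFrob_full_le (M * q)) w T hwT H *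
          (nodesSwapRho₀ r hπ0 hπ hr hrπ (nodesFrob_full_le (M * q)) w T hwT T' ^ 2 +
            9 * nodesSwapRho₀ r hπ0 hπ hr hrπ (nodesFrob_full_le (M * q)) w T hwT T' + 27) := by
  have hMq : (((M * q : ℕ) : ℕ) : E) ≠ 0 := s36tm_level_ne_zero
  have h9' : 9 ∣ M * q := Dvd.dvd.mul_right h9 q
  have h3' : 3 ∣ M * q := (show 3 ∣ 9 by norm_num).trans h9'
  set J₀ : modularFunctionFieldFullC E (M * q) := nodesFrobJ E M q with hJ₀
  set H₀ : modularFunctionFieldFullC E (M * q) := ⟨hm3 E, hm3_mem_full E h3' hMq⟩ with hH₀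
  set T₀ : modularFunctionFieldFullC E (M * q) := ⟨s36rig_t9 E, s36rig_t9_mem E h9' hMq⟩ with hT₀
  have hinj : Function.Injective
      (modularFunctionFieldFullC E (M * q)).val.toRingHom := Subtype.val_injective
  have e1 : J₀ * H₀ ^ 3 = (H₀ + 27) * (H₀ + 243) ^ 3 := by
    apply hinj
    simp only [map_mul, map_pow, map_add, map_ofNat]
    exact hm3_j E
  have e2 : T₀ ^ 3 = H₀ * (T₀ ^ 2 + 9 * T₀ + 27) := by
    apply hinj
    simp only [map_mul, map_pow, map_add, map_ofNat]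
    exact s36rig_t9_cube E
  have hHJ : IsIntegral (Algebra.adjoin A {J₀}) H₀ := s36rig_integral_h3 A e1
  have hTJ : IsIntegral (Algebra.adjoin A {J₀}) T₀ :=
    cusp_isIntegral_adjoin_trans (A := A) (u := J₀) (T := H₀) hHJ (s36rig_integral_t9 A e2)
  have hHint : IsIntegral (Algebra.adjoin A {T}) H₀ :=
    cusp_isIntegral_adjoin_trans (A := A) (u := T) (T := J₀) hJ hHJ
  have hTint : IsIntegral (Algebra.adjoin A {T}) T₀ :=
    cusp_isIntegral_adjoin_trans (A := A) (u := T) (T := J₀) hJ hTJ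
  have f1 : (⟨J₀, hJ⟩ : integralClosure (Algebra.adjoin A {T})
      (modularFunctionFieldFullC E (M * q))) * ⟨H₀, hHint⟩ ^ 3 =
      (⟨H₀, hHint⟩ + 27) * (⟨H₀, hHint⟩ + 243) ^ 3 := by
    apply Subtype.ext
    simp only [MulMemClass.coe_mul, SubmonoidClass.coe_pow, AddMemClass.coe_add]
    exact e1
  have f2 : (⟨T₀, hTint⟩ : integralClosure (Algebra.adjoin A {T})
      (modularFunctionFieldFullC E (M * q))) ^ 3 =
      ⟨H₀, hHint⟩ * (⟨T₀, hTint⟩ ^ 2 + 9 * ⟨T₀, hTint⟩ + 27) := by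
    apply Subtype.ext
    simp only [MulMemClass.coe_mul, SubmonoidClass.coe_pow, AddMemClass.coe_add]
    exact e2
  obtain ⟨J, -, hJ2⟩ := swap ⟨J₀, hJ⟩
  obtain ⟨H, -, hH2⟩ := swap ⟨H₀, hHint⟩
  obtain ⟨T', -, hT2⟩ := swap ⟨T₀, hTint⟩
  refine ⟨J, H, T', ?_, ?_, ?_⟩
  · rw [hJ2]
    exact s36tm_rho_J r hπ0 hπ hr hrπ T hT hJ
  · rw [hJ2, hH2]
    have := congrArg (nodesFrobChartRed r hπ0 hπ hr hrπ (nodesFrob_full_le (M * q)) T hT) f1
    simpa only [map_mul, map_pow, map_add, map_ofNat] using this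
  · rw [hT2, hH2]
    have := congrArg (nodesFrobChartRed r hπ0 hπ hr hrπ (nodesFrob_full_le (M * q)) T hT) f2
    simpa only [map_mul, map_pow, map_add, map_ofNat] using this

/-- **The thin node on the UNIP chart** (rigid level: `4 ∣ M` if `q ≠ 2`, `9 ∣ M` if `q = 2`).
At a prime `𝔫` of the chart containing `ker ρ` and `ker ρ₀`, with (SS3) coordinates `X`, `Y`:
`ker ρ` is generated by `X` at `𝔫`, the local ring `B_𝔫` is factorial, and `u π = X Y″` with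
`u ∉ 𝔫`, `ρ₀ Y″ = 0`, `ρ Y″ ≠ 0`. -/
theorem s36tm_node [hqf : Fact q.Prime] [CharP k q]
    [IsNoetherianRing (integralClosure (Algebra.adjoin A {T})
      (modularFunctionFieldFullC E (M * q)))]
    (hw : ∀ x, w x = atkinLehner E ιC hq hqM x) (hqπ : Associated (q : A) π)
    (hrs : Function.Surjective r)
    (rigid : (q ≠ 2 → 4 ∣ M) ∧ (q = 2 → 9 ∣ M))
    (hJ : IsIntegral (Algebra.adjoin A {T}) (nodesFrobJ E M q))
    (hSS1 : ∀ x : integralClosure (Algebra.adjoin A {T}) (modularFunctionFieldFullC E (M * q)),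
      nodesFrobChartRed r hπ0 hπ hr hrπ (nodesFrob_full_le (M * q)) T hT x = 0 →
      nodesSwapRho₀ r hπ0 hπ hr hrπ (nodesFrob_full_le (M * q)) w T hwT x = 0 →
      algebraMap A (integralClosure (Algebra.adjoin A {T})
        (modularFunctionFieldFullC E (M * q))) π ∣ x)
    (swap : ∀ b : integralClosure (Algebra.adjoin A {T}) (modularFunctionFieldFullC E (M * q)),
      ∃ b' : integralClosure (Algebra.adjoin A {T}) (modularFunctionFieldFullC E (M * q)),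
      nodesFrobChartRed r hπ0 hπ hr hrπ (nodesFrob_full_le (M * q)) T hT b' =
        nodesSwapRho₀ r hπ0 hπ hr hrπ (nodesFrob_full_le (M * q)) w T hwT b ∧
      nodesSwapRho₀ r hπ0 hπ hr hrπ (nodesFrob_full_le (M * q)) w T hwT b' =
        nodesFrobChartRed r hπ0 hπ hr hrπ (nodesFrob_full_le (M * q)) T hT b)
    (𝔫 : Ideal (integralClosure (Algebra.adjoin A {T}) (modularFunctionFieldFullC E (M * q))))
    [h𝔫 : 𝔫.IsPrime]
    (h𝔭 : ∀ x, nodesFrobChartRed r hπ0 hπ hr hrπ (nodesFrob_full_le (M * q)) T hT x = 0 → x ∈ 𝔫)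
    (h𝔮 : ∀ x, nodesSwapRho₀ r hπ0 hπ hr hrπ (nodesFrob_full_le (M * q)) w T hwT x = 0 → x ∈ 𝔫)
    {X Y : integralClosure (Algebra.adjoin A {T}) (modularFunctionFieldFullC E (M * q))}
    (hX : nodesFrobChartRed r hπ0 hπ hr hrπ (nodesFrob_full_le (M * q)) T hT X = 0)
    (hY : nodesSwapRho₀ r hπ0 hπ hr hrπ (nodesFrob_full_le (M * q)) w T hwT Y = 0)
    (hsX : NodesSmoothAt (nodesSwapRho₀ r hπ0 hπ hr hrπ (nodesFrob_full_le (M * q)) w T hwT) 𝔫 X)
    (hsY : NodesSmoothAt (nodesFrobChartRed r hπ0 hπ hr hrπ (nodesFrob_full_le (M * q)) T hT) 𝔫 Y) :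
    (∀ b, nodesFrobChartRed r hπ0 hπ hr hrπ (nodesFrob_full_le (M * q)) T hT b = 0 →
        ∃ u, u ∉ 𝔫 ∧ X ∣ u * b) ∧
      UniqueFactorizationMonoid (Localization.AtPrime 𝔫) ∧
      ∃ Y'' u : integralClosure (Algebra.adjoin A {T}) (modularFunctionFieldFullC E (M * q)),
        u ∉ 𝔫 ∧
        u * algebraMap A (integralClosure (Algebra.adjoin A {T})
          (modularFunctionFieldFullC E (M * q))) π = X * Y'' ∧
        nodesSwapRho₀ r hπ0 hπ hr hrπ (nodesFrob_full_le (M * q)) w T hwT Y'' = 0 ∧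
        nodesFrobChartRed r hπ0 hπ hr hrπ (nodesFrob_full_le (M * q)) T hT Y'' ≠ 0 := by
  haveI : IsIntegrallyClosed (integralClosure (Algebra.adjoin A {T})
      (modularFunctionFieldFullC E (M * q))) := nodesInst_isIntegrallyClosed _ _
  -- the unit
  have hU : IsIntegral (Algebra.adjoin A {T}) (s36tuU E ιC (q := q) (M := M)) :=
    cusp_isIntegral_adjoin_trans (A := A) (u := T) (T := nodesFrobJ E M q) hJ
      (s36tu_isIntegral_U ιC hq)
  have hV : IsIntegral (Algebra.adjoin A {T}) (s36tuV E ιC (q := q) (M := M)) :=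
    cusp_isIntegral_adjoin_trans (A := A) (u := T) (T := nodesFrobJ E M q) hJ
      (s36tu_isIntegral_V ιC hq)
  have hρU := s36tu_rho_U r ιC hπ0 hπ hr hrπ T hT hU
  have hρ₀U := s36tu_rho₀_U r ιC hq hqM hπ0 hπ hr hrπ w T hwT hw hU
  have hu := s36tu_hu r ιC hq hqM hπ0 hπ hr hrπ w T hT hwT hw hqπ hSS1 hU hV
  -- constants
  have hρπ := s36tm_rho_algebraMap r hπ0 hπ hr hrπ T hT π
  have hρ₀π := s36tm_rho₀_algebraMap r hπ0 hπ hr hrπ w T hwT π
  rw [hrπ, map_zero] at hρπ hρ₀π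
  have hk : ∀ c : k, ∃ b : integralClosure (Algebra.adjoin A {T})
      (modularFunctionFieldFullC E (M * q)),
      nodesSwapRho₀ r hπ0 hπ hr hrπ (nodesFrob_full_le (M * q)) w T hwT b = HahnSeries.C c := by
    intro c
    obtain ⟨a, rfl⟩ := hrs c
    exact ⟨_, s36tm_rho₀_algebraMap r hπ0 hπ hr hrπ w T hwT a⟩
  have h𝔭' : RingHom.ker (nodesFrobChartRed r hπ0 hπ hr hrπ (nodesFrob_full_le (M * q)) T hT)
      ≤ 𝔫 := fun x hx => h𝔭 x (RingHom.mem_ker.1 hx)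
  have h𝔮' : RingHom.ker (nodesSwapRho₀ r hπ0 hπ hr hrπ (nodesFrob_full_le (M * q)) w T hwT)
      ≤ 𝔫 := fun x hx => h𝔮 x (RingHom.mem_ker.1 hx)
  -- the thin node
  have hnode : (∀ b, nodesFrobChartRed r hπ0 hπ hr hrπ (nodesFrob_full_le (M * q)) T hT b = 0 →
        ∃ u, u ∉ 𝔫 ∧ X ∣ u * b) ∧
      UniqueFactorizationMonoid (Localization.AtPrime 𝔫) := by
    by_cases h2 : q = 2
    · obtain ⟨J, H, T', hJ', hHJ, hTH⟩ := s36tm_exists_JHT_two r hπ0 hπ hr hrπ w T hT hwT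
        (rigid.2 h2) hJ swap
      exact s36thin_node_two' q k h2 _ _ 𝔫 h𝔭' h𝔮' hρπ hρ₀π hX hY hsX hsY J H T'
        ⟨s36tuU E ιC, hU⟩ hJ' hHJ hTH hρ₀U hρU hu
    · obtain ⟨J, H, T', hJ', hHJ, hTH⟩ := s36tm_exists_JHT_odd r hπ0 hπ hr hrπ w T hT hwT
        (rigid.1 h2) hJ swap
      exact s36thin_node_odd' q k h2 _ _ hk 𝔫 h𝔭' h𝔮' hρπ hρ₀π hX hY hsX hsY J H T'
        ⟨s36tuU E ιC, hU⟩ hJ' hHJ hTH hρ₀U hρU hu
  refine ⟨hnode.1, hnode.2, ?_⟩
  -- the splitting `u π = X Y″`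
  have hU𝔫 : (⟨s36tuU E ιC, hU⟩ : integralClosure (Algebra.adjoin A {T})
      (modularFunctionFieldFullC E (M * q))) ∈ 𝔫 := h𝔭 _ hρU
  have hU₀ : nodesSwapRho₀ r hπ0 hπ hr hrπ (nodesFrob_full_le (M * q)) w T hwT
      ⟨s36tuU E ιC, hU⟩ ≠ 0 := by
    rw [hρ₀U]; exact s36thin_P_ne_zero q k
  have hX₀ := s36thin_param_ne_zero _ 𝔫 h𝔮' hsX hU𝔫 hU₀
  have hπB : algebraMap A (integralClosure (Algebra.adjoin A {T})
      (modularFunctionFieldFullC E (M * q))) π ≠ 0 := by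
    intro h0
    have h1 := congrArg (fun z : integralClosure (Algebra.adjoin A {T})
      (modularFunctionFieldFullC E (M * q)) => (z : modularFunctionFieldFullC E (M * q))) h0
    exact s36tu_algebraMap_ne_zero hπ0 h1
  exact s36thin_node_split _ _ 𝔫 hπB hρπ hρ₀π (h𝔭 X hX) hX₀ hSS1 hnode.1

end Chart

end Fermat.Agent.S36

end
end ZBS36_009_6
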