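/- GENERATED FILE (helper35, build-time optimisation, NOTES/ZB.md): verbatim concatenation of the modules
   Fermat.Agent.S36.PtsCInt
   Do not edit; do not import together with these modules. -/
import Fermat.Agent.ZB.S36_009

/-! ### bundled: `Fermat.Agent.S36.PtsCInt` -/
section ZBS36_036_0

/-!
# S36 / (I6)(b-CONG), part 1: INTEGRAL models of the Hauptmoduln `t₄`, `t₉` (helper57)

`s36rig_t4 K`, `s36rig_t9 K` are defined as quotients in `K((Q))`, `K` a field.  Here:

* `s36cgT4Z`, `s36cgT9Z : LaurentSeries ℤ` with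
  `s36cgT4Z_map : coeffMap (Int.castRingHom K) s36cgT4Z = s36rig_t4 K`,
  `s36cgT9Z_map : coeffMap (Int.castRingHom K) s36cgT9Z = s36rig_t9 K` for every field `K`;
* `s36cgT4 R`, `s36cgT9 R : LaurentSeries R` for every commutative ring `R`
  (`coeffMap f (s36cgT4 R) = s36cgT4 S`, `s36cgT4 K = s36rig_t4 K` for a field);
* consequently `coeffMap f (s36rig_t4 K) = s36rig_t4 K'` for every `f : K →+* K'`.
-/

set_option autoImplicit false

noncomputable section

namespace Fermat.Agent.S36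

open ModularCurve Fermat.Agent.INJ HahnSeries

/-! ### units of `ℤ((Q))` -/

/-- `Q^{-n} · u` (`u` a power series with constant coefficient `1`) is a unit of `ℤ((Q))`. -/
theorem s36cg_unit_mul (n : ℕ) (u : PowerSeries ℤ) (hu : PowerSeries.constantCoeff u = 1) :
    (hmQinv ^ n * hmPhi u) *
      (hmPhi PowerSeries.X ^ n * hmPhi (PowerSeries.invOfUnit u 1)) = 1 := by
  have h1 : u * PowerSeries.invOfUnit u 1 = 1 :=
    PowerSeries.mul_invOfUnit u 1 (by rw [hu, Units.val_one])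
  have h2 : hmPhi u * hmPhi (PowerSeries.invOfUnit u 1) = 1 := by
    rw [← map_mul, h1, map_one]
  calc (hmQinv ^ n * hmPhi u) * (hmPhi PowerSeries.X ^ n * hmPhi (PowerSeries.invOfUnit u 1))
      = (hmQinv * hmPhi PowerSeries.X) ^ n * (hmPhi u * hmPhi (PowerSeries.invOfUnit u 1)) := by
        ring
    _ = 1 := by rw [hmQinv_mul_X, h2, one_pow, one_mul]

/-! ### level 4 -/

/-- `h₂ + 16 = Q⁻¹ · (hm2U + 16 X)` -/
theorem s36cg_h2_add : hm2Z + 16 = hmQinv ^ 1 * hmPhi (hm2U + 16 * PowerSeries.X) := by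
  have hax := hmQinv_mul_X
  rw [pow_one, map_add, map_mul, map_ofNat, hm2Z]
  linear_combination (-16 : LaurentSeries ℤ) * hax

/-- the inverse of `h₂ + 16` over `ℤ` -/
def s36cgInv4Z : LaurentSeries ℤ :=
  hmPhi PowerSeries.X ^ 1 * hmPhi (PowerSeries.invOfUnit (hm2U + 16 * PowerSeries.X) 1)

theorem s36cgInv4Z_mul : (hm2Z + 16) * s36cgInv4Z = 1 := by
  rw [s36cg_h2_add, s36cgInv4Z]
  refine s36cg_unit_mul 1 _ ?_
  rw [map_add, constantCoeff_hm2U, map_mul, PowerSeries.constantCoeff_X, mul_zero, add_zero]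

/-- **the Hauptmodul of `X₀(4)` over `ℤ`** -/
def s36cgT4Z : LaurentSeries ℤ := (qExpand ℤ 2 hm2Z - 16 * hm2Z) * s36cgInv4Z

/-! ### level 9 -/

/-- the unit part of the denominator of `t₉` -/
def s36cgW9 : PowerSeries ℤ :=
  HM.hmDilPS 3 hm3U * (hm3U + 9 * PowerSeries.X) - 243 * PowerSeries.X ^ 3 * hm3U +
    729 * PowerSeries.X ^ 4

theorem s36cgW9_const : PowerSeries.constantCoeff s36cgW9 = 1 := by
  rw [s36cgW9]
  simp only [map_add, map_sub, map_mul, map_pow, PowerSeries.constantCoeff_X,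
    hm_constantCoeff_dil, constantCoeff_hm3U]
  norm_num

/-- the denominator of `t₉` over `ℤ` -/
def s36cgDen9Z : LaurentSeries ℤ := qExpand ℤ 3 hm3Z * (hm3Z + 9) - 243 * hm3Z + 729

/-- the numerator of `t₉` over `ℤ` -/
def s36cgNum9Z : LaurentSeries ℤ :=
  1458 * hm3Z + qExpand ℤ 3 hm3Z * (hm3Z ^ 2 + 18 * hm3Z + 27)

theorem s36cgDen9Z_eq : s36cgDen9Z = hmQinv ^ 4 * hmPhi s36cgW9 := by
  have hax := hmQinv_mul_X
  have e1 : qExpand ℤ 3 hm3Z = hmQinv ^ 3 * hmPhi (HM.hmDilPS 3 hm3U) := by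
    rw [hm3Z, map_mul, hm_qExpand_qinv, hm_qExpand_phi]
  rw [s36cgDen9Z, e1, s36cgW9, hm3Z]
  simp only [map_add, map_sub, map_mul, map_pow, map_ofNat]
  set a := hmQinv with ha
  set x := hmPhi PowerSeries.X with hx
  set U := hmPhi hm3U with hU
  set D := hmPhi (HM.hmDilPS 3 hm3U) with hD
  have h3 : a ^ 3 * x ^ 3 = 1 := by rw [← mul_pow, hax, one_pow]
  have h4 : a ^ 4 * x ^ 4 = 1 := by rw [← mul_pow, hax, one_pow]
  linear_combination (-(9 : LaurentSeries ℤ) * a ^ 3 * D) * hax + (243 * a * U) * h3 -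
    (729 : LaurentSeries ℤ) * h4

/-- the inverse of the denominator of `t₉` over `ℤ` -/
def s36cgInv9Z : LaurentSeries ℤ :=
  hmPhi PowerSeries.X ^ 4 * hmPhi (PowerSeries.invOfUnit s36cgW9 1)

theorem s36cgInv9Z_mul : s36cgDen9Z * s36cgInv9Z = 1 := by
  rw [s36cgDen9Z_eq, s36cgInv9Z]
  exact s36cg_unit_mul 4 _ s36cgW9_const

/-- **the Hauptmodul of `X₀(9)` over `ℤ`** -/
def s36cgT9Z : LaurentSeries ℤ := s36cgNum9Z * s36cgInv9Z

/-! ### any coefficient ring -/

section Ring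

variable (R : Type*) [CommRing R]

/-- the Hauptmodul of `X₀(4)` over any commutative ring -/
def s36cgT4 : LaurentSeries R := coeffMap (Int.castRingHom R) s36cgT4Z

/-- the Hauptmodul of `X₀(9)` over any commutative ring -/
def s36cgT9 : LaurentSeries R := coeffMap (Int.castRingHom R) s36cgT9Z

variable {R}

theorem s36cgT4_map {S : Type*} [CommRing S] (f : R →+* S) :
    coeffMap f (s36cgT4 R) = s36cgT4 S := by
  rw [s36cgT4, s36cgT4, coeffMap_coeffMap]
  exact coeffMap_congr (RingHom.ext_int _ _) _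

theorem s36cgT9_map {S : Type*} [CommRing S] (f : R →+* S) :
    coeffMap f (s36cgT9 R) = s36cgT9 S := by
  rw [s36cgT9, s36cgT9, coeffMap_coeffMap]
  exact coeffMap_congr (RingHom.ext_int _ _) _

end Ring

section Field

variable (K : Type*) [Field K]

theorem s36cg_qExpand_hm2 : coeffMap (Int.castRingHom K) (qExpand ℤ 2 hm2Z) = s36rig_h2d K := by
  rw [ModularCurve.coeffMap_qExpand]
  rfl

theorem s36cg_qExpand_hm3 : coeffMap (Int.castRingHom K) (qExpand ℤ 3 hm3Z) = s36rig_h3d K := by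
  rw [ModularCurve.coeffMap_qExpand]
  rfl

/-- **`t₄` has integral coefficients** -/
theorem s36cgT4_eq : s36cgT4 K = s36rig_t4 K := by
  have h1 := congrArg (coeffMap (Int.castRingHom K)) s36cgInv4Z_mul
  rw [map_mul, map_add, map_ofNat, map_one] at h1
  have h2 : coeffMap (Int.castRingHom K) hm2Z = hm2 K := rfl
  rw [h2] at h1
  have h3 : coeffMap (Int.castRingHom K) s36cgInv4Z = (hm2 K + 16)⁻¹ :=
    eq_inv_of_mul_eq_one_right h1
  rw [s36cgT4, s36cgT4Z, map_mul, map_sub, map_mul, map_ofNat, s36cg_qExpand_hm2, h2, h3,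
    s36rig_t4, div_eq_mul_inv]

/-- **`t₉` has integral coefficients** -/
theorem s36cgT9_eq : s36cgT9 K = s36rig_t9 K := by
  have h2 : coeffMap (Int.castRingHom K) hm3Z = hm3 K := rfl
  have hd : coeffMap (Int.castRingHom K) s36cgDen9Z = s36rig_den9 K := by
    rw [s36cgDen9Z, s36rig_den9]
    simp only [map_add, map_sub, map_mul, map_ofNat, s36cg_qExpand_hm3, h2]
  have hn : coeffMap (Int.castRingHom K) s36cgNum9Z = s36rig_num9 K := by
    rw [s36cgNum9Z, s36rig_num9]
    simp only [map_add, map_mul, map_pow, map_ofNat, s36cg_qExpand_hm3, h2]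
  have h1 := congrArg (coeffMap (Int.castRingHom K)) s36cgInv9Z_mul
  rw [map_mul, map_one, hd] at h1
  have h3 : coeffMap (Int.castRingHom K) s36cgInv9Z = (s36rig_den9 K)⁻¹ :=
    eq_inv_of_mul_eq_one_right h1
  rw [s36cgT9, s36cgT9Z, map_mul, hn, h3, s36rig_t9, div_eq_mul_inv]

variable {K}

/-- base change of `t₄` -/
theorem s36cg_coeffMap_t4 {K' : Type*} [Field K'] (f : K →+* K') :
    coeffMap f (s36rig_t4 K) = s36rig_t4 K' := by
  rw [← s36cgT4_eq, ← s36cgT4_eq, s36cgT4_map]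

/-- base change of `t₉` -/
theorem s36cg_coeffMap_t9 {K' : Type*} [Field K'] (f : K →+* K') :
    coeffMap f (s36rig_t9 K) = s36rig_t9 K' := by
  rw [← s36cgT9_eq, ← s36cgT9_eq, s36cgT9_map]

/-- integral model of `t₄` over a ring mapping to the field -/
theorem s36cgT4_coeffMap {A : Type*} [CommRing A] (ι : A →+* K) :
    coeffMap ι (s36cgT4 A) = s36rig_t4 K := by
  rw [s36cgT4_map, s36cgT4_eq]

/-- integral model of `t₉` over a ring mapping to the field -/
theorem s36cgT9_coeffMap {A : Type*} [CommRing A] (ι : A →+* K) :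
    coeffMap ι (s36cgT9 A) = s36rig_t9 K := by
  rw [s36cgT9_map, s36cgT9_eq]

end Field

end Fermat.Agent.S36

end


end ZBS36_036_0
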