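/- GENERATED FILE (helper35, build-time optimisation, NOTES/ZB.md): verbatim concatenation of the modules
   Fermat.Agent.S36.MidTheta
   Fermat.Agent.S36.MidThetaMod
   Fermat.Agent.S36.PtsCCong
   Fermat.Agent.S36.PtsTripleK
   Do not edit; do not import together with these modules. -/
import Fermat.Agent.ZB.ES_002
import Fermat.Agent.ZB.S28_003
import Fermat.Agent.ZB.INJ_003
import Fermat.Agent.ZB.S34_001
import Fermat.Agent.ZB.S36_036
import Fermat.Agent.ZB.S36_037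
import Fermat.Agent.ZB.S36_002
import Fermat.Agent.ZB.UNIP_014

/-! ### bundled: `Fermat.Agent.S36.MidTheta` -/
section ZBS36_028_0

/-!
# S36 / N2-theta, formal part: `s(zQ) − s(Q) = (z − 1) · D_z s`, `D_z ≡ θ`, Wilson

`R` a commutative ring, `z : Rˣ`.

* `s36thQ z n` : the quantum integer `[n]_z` (`n : ℤ`), `(z − 1) [n]_z = z ^ n − 1`
  (`s36thQ_spec`); `[n]_z ↦ n` under every ring homomorphism with `z ↦ 1` (`s36thQ_red`);
* `s36thD z T` : the `z`-derivative `D_z T = ∑ [n]_z a_n Qⁿ` of a Laurent series;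
  - (θ1) `s36th_kronRot_sub` : `kronRot z T − T = C (z − 1) * D_z T`;
  - (θ2) `s36thD_red` : `coeffMap r (D_z T) = θ (coeffMap r T)` if `r z = 1`;
  - `s36thD_coeffMap` : naturality in the coefficient ring;
* (θ3) WILSON `s36th_wilson` : `ζ` a primitive `q`-th root of unity (`q` prime) in a domain:
  `q = u · (1 − ζ) ^ (q − 1)`, `u = ∏_{b < q − 1} [b + 1]_ζ`, and `r u = −1` for every ring
  homomorphism `r` with `r ζ = 1` (`s36th_wilson_red`); then `r q = 0` (`s36th_natCast_red`).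

Gauss ring (`INJ/GaussRing`, `UNIP/MGVertGauss`): `ι : A → E`, `r : A → k`, `S : A((Q))`,
`s = ι̂ S`, `z : Aˣ` with `r z = 1`, `Π := s(zQ) − s(Q)`:

* `s36th_rot_sub_coeffMap` : `Π = C (ι (z − 1)) * ι̂ (D_z S)`;
* `s36th_rot_sub_mem`, `s36th_rot_sub_red` : `Π` is in the Gauss ring with reduction `0`;
* `s36thD_gaussRed` : `ι̂ (D_z S)` has reduction `θ s̄`;
* `s36th_pow_eq` : `Π ^ (q − 1) = C (ι q) * w`, `w` in the Gauss ring with reduction
  `− (θ s̄) ^ (q − 1)` (`z = ζ` a primitive `q`-th root of unity);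
* the same for a vertical valuation subring `vtSub hB e hfrac` of a field `F` embedded in
  `E((Q))`: `s36th_mem_nonunits`, `s36th_div_mem`, `s36th_div_unit_iff`, `s36th_pow_div_mem`,
  `s36th_pow_div_unit_iff`.
-/

set_option autoImplicit false
set_option linter.unusedSectionVars false
set_option linter.unusedVariables false
set_option linter.style.haveILetI false

noncomputable section

namespace Fermat.Agent.S36

open ModularCurve HahnSeries Fermat.Agent.ES Fermat.Agent.INJ Fermat.Agent.UNIP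
open Fermat.Agent.S28.Deriv

/-! ## 1. Quantum integers -/

section QNum

variable {R S : Type*} [CommRing R] [CommRing S]

/-- the quantum integer `[n]_z`, `n : ℤ`: `1 + z + … + z^{n−1}` for `n ≥ 0`,
`− z^n (1 + z + … + z^{−n−1})` for `n < 0`. -/
def s36thQ (z : Rˣ) (n : ℤ) : R :=
  if 0 ≤ n then ∑ i ∈ Finset.range n.toNat, (z : R) ^ i
  else -(((z ^ n : Rˣ) : R) * ∑ i ∈ Finset.range (-n).toNat, (z : R) ^ i)

theorem s36thQ_natCast (z : Rˣ) (m : ℕ) :
    s36thQ z (m : ℤ) = ∑ i ∈ Finset.range m, (z : R) ^ i := by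
  unfold s36thQ
  rw [if_pos (Int.natCast_nonneg m), Int.toNat_natCast]

theorem s36thQ_neg_natCast (z : Rˣ) {m : ℕ} (hm : 0 < m) :
    s36thQ z (-(m : ℤ)) =
      -(((z ^ (-(m : ℤ)) : Rˣ) : R) * ∑ i ∈ Finset.range m, (z : R) ^ i) := by
  unfold s36thQ
  have h : ¬ (0 : ℤ) ≤ -(m : ℤ) := by omega
  rw [if_neg h, neg_neg, Int.toNat_natCast]

theorem s36th_int_cases (n : ℤ) : (∃ m : ℕ, n = m) ∨ ∃ m : ℕ, 0 < m ∧ n = -(m : ℤ) := by
  rcases le_or_gt 0 n with h | h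
  · exact Or.inl ⟨n.toNat, (Int.toNat_of_nonneg h).symm⟩
  · refine Or.inr ⟨(-n).toNat, ?_, ?_⟩
    · omega
    · rw [Int.toNat_of_nonneg (by omega)]; ring

/-- **`(z − 1) · [n]_z = z ^ n − 1`**. -/
theorem s36thQ_spec (z : Rˣ) (n : ℤ) :
    ((z : R) - 1) * s36thQ z n = ((z ^ n : Rˣ) : R) - 1 := by
  rcases s36th_int_cases n with ⟨m, rfl⟩ | ⟨m, hm, rfl⟩
  · rw [s36thQ_natCast, mul_geom_sum, zpow_natCast, Units.val_pow_eq_pow_val]
  · rw [s36thQ_neg_natCast z hm, mul_neg, ← mul_assoc, mul_comm ((z : R) - 1), mul_assoc,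
      mul_geom_sum]
    have h1 : ((z ^ (-(m : ℤ)) : Rˣ) : R) * (z : R) ^ m = 1 := by
      rw [← Units.val_pow_eq_pow_val, ← Units.val_mul, ← zpow_natCast z m, ← zpow_add]
      simp
    calc -(((z ^ (-(m : ℤ)) : Rˣ) : R) * ((z : R) ^ m - 1))
        = -(((z ^ (-(m : ℤ)) : Rˣ) : R) * (z : R) ^ m) + ((z ^ (-(m : ℤ)) : Rˣ) : R) := by ring
      _ = ((z ^ (-(m : ℤ)) : Rˣ) : R) - 1 := by rw [h1]; ring

/-- naturality of `[n]_z` -/
theorem s36thQ_map (φ : R →+* S) (z : Rˣ) (n : ℤ) :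
    φ (s36thQ z n) = s36thQ (Units.map (φ : R →* S) z) n := by
  have hz : ∀ k : ℤ, φ ((z ^ k : Rˣ) : R) = (((Units.map (φ : R →* S) z) ^ k : Sˣ) : S) := by
    intro k
    rw [← map_zpow]
    rfl
  rcases s36th_int_cases n with ⟨m, rfl⟩ | ⟨m, hm, rfl⟩
  · rw [s36thQ_natCast, s36thQ_natCast, map_sum]
    refine Finset.sum_congr rfl fun i _ => ?_
    rw [map_pow]
    rfl
  · rw [s36thQ_neg_natCast z hm, s36thQ_neg_natCast _ hm, map_neg, map_mul, map_sum, hz]
    congr 2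
    refine Finset.sum_congr rfl fun i _ => ?_
    rw [map_pow]
    rfl

/-- `[n]_1 = n` -/
theorem s36thQ_one (n : ℤ) : s36thQ (1 : Rˣ) n = (n : R) := by
  rcases s36th_int_cases n with ⟨m, rfl⟩ | ⟨m, hm, rfl⟩
  · rw [s36thQ_natCast]
    simp
  · rw [s36thQ_neg_natCast _ hm]
    simp

/-- **`[n]_z ↦ n`** under a ring homomorphism with `z ↦ 1`. -/
theorem s36thQ_red (r : R →+* S) {z : Rˣ} (hz : r (z : R) = 1) (n : ℤ) :
    r (s36thQ z n) = (n : S) := by
  rw [s36thQ_map]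
  have h1 : Units.map (r : R →* S) z = 1 := Units.ext hz
  rw [h1, s36thQ_one]

theorem s36thQ_zero (z : Rˣ) : s36thQ z 0 = 0 := by
  have := s36thQ_natCast z 0
  simpa using this

theorem s36thQ_one' (z : Rˣ) : s36thQ z 1 = 1 := by
  have := s36thQ_natCast z 1
  simpa using this

end QNum

/-! ## 2. The `z`-derivative -/

section D

variable {R S : Type*} [CommRing R] [CommRing S]

/-- the `z`-derivative `D_z T = ∑ [n]_z a_n Qⁿ`. -/
def s36thD (z : Rˣ) (T : LaurentSeries R) : LaurentSeries R where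
  coeff n := s36thQ z n * T.coeff n
  isPWO_support' := T.isPWO_support.mono (fun n hn => by
    simp only [Function.mem_support, ne_eq] at hn ⊢
    intro h
    exact hn (by rw [h, mul_zero]))

@[simp]
theorem s36thD_coeff (z : Rˣ) (T : LaurentSeries R) (n : ℤ) :
    (s36thD z T).coeff n = s36thQ z n * T.coeff n := rfl

theorem s36thD_zero (z : Rˣ) : s36thD z (0 : LaurentSeries R) = 0 := by
  ext n
  simp

theorem s36thD_add (z : Rˣ) (T T' : LaurentSeries R) :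
    s36thD z (T + T') = s36thD z T + s36thD z T' := by
  ext n
  simp [mul_add]

theorem s36thD_sub (z : Rˣ) (T T' : LaurentSeries R) :
    s36thD z (T - T') = s36thD z T - s36thD z T' := by
  ext n
  simp [mul_sub]

/-- **(θ1)** `T(zQ) − T(Q) = (z − 1) · D_z T`. -/
theorem s36th_kronRot_sub (z : Rˣ) (T : LaurentSeries R) :
    kronRot z T - T = HahnSeries.C ((z : R) - 1) * s36thD z T := by
  ext n
  rw [HahnSeries.coeff_sub, kronRot_coeff, HahnSeries.C_mul_eq_smul, HahnSeries.coeff_smul,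
    s36thD_coeff, smul_eq_mul, ← mul_assoc, s36thQ_spec]
  ring

/-- naturality of `D_z` in the coefficient ring -/
theorem s36thD_coeffMap (φ : R →+* S) (z : Rˣ) (T : LaurentSeries R) :
    coeffMap φ (s36thD z T) = s36thD (Units.map (φ : R →* S) z) (coeffMap φ T) := by
  ext n
  rw [coeffMap_coeff, s36thD_coeff, s36thD_coeff, coeffMap_coeff, map_mul, s36thQ_map]

/-- `D_1 = θ` -/
theorem s36thD_one (T : LaurentSeries R) : s36thD (1 : Rˣ) T = thetaFun T := by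
  ext n
  rw [s36thD_coeff, thetaFun_coeff, s36thQ_one]

/-- **(θ2)** `D_z T` reduces to `θ T̄` under a ring homomorphism with `z ↦ 1`. -/
theorem s36thD_red (r : R →+* S) {z : Rˣ} (hz : r (z : R) = 1) (T : LaurentSeries R) :
    coeffMap r (s36thD z T) = thetaFun (coeffMap r T) := by
  rw [s36thD_coeffMap]
  have h1 : Units.map (r : R →* S) z = 1 := Units.ext hz
  rw [h1, s36thD_one]

end D

/-! ## 3. Wilson -/

section Wilson

variable {R S : Type*} [CommRing R] [CommRing S]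

/-- the unit `u = ∏_{b = 1}^{q − 1} [b]_ζ` with `q = u (1 − ζ)^{q − 1}` -/
def s36thU (q : ℕ) (ζ : Rˣ) : R := ∏ b ∈ Finset.range (q - 1), s36thQ ζ ((b + 1 : ℕ) : ℤ)

/-- **(θ3) WILSON, part 1**: `q = u · (1 − ζ) ^ (q − 1)`. -/
theorem s36th_wilson [IsDomain R] {q : ℕ} (hq : q.Prime) {ζ : Rˣ}
    (hζ : IsPrimitiveRoot (ζ : R) q) :
    (q : R) = s36thU q ζ * (1 - (ζ : R)) ^ (q - 1) := by
  have hq1 : q - 1 + 1 = q := Nat.sub_add_cancel hq.one_le
  have hζ' : IsPrimitiveRoot (ζ : R) (q - 1 + 1) := by rw [hq1]; exact hζ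
  have h1 := hζ'.prod_one_sub_pow_eq_order
  have h2 : (((q - 1 : ℕ) : R) + 1) = (q : R) := by
    have := congrArg (fun n : ℕ => (n : R)) hq1
    simpa using this
  rw [h2] at h1
  rw [← h1, s36thU]
  have h3 : ∀ b ∈ Finset.range (q - 1),
      (1 - (ζ : R) ^ (b + 1)) = s36thQ ζ ((b + 1 : ℕ) : ℤ) * (1 - (ζ : R)) := by
    intro b _
    have h4 := s36thQ_spec ζ ((b + 1 : ℕ) : ℤ)
    rw [zpow_natCast, Units.val_pow_eq_pow_val] at h4
    calc (1 - (ζ : R) ^ (b + 1)) = -((ζ : R) ^ (b + 1) - 1) := by ring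
      _ = -(((ζ : R) - 1) * s36thQ ζ ((b + 1 : ℕ) : ℤ)) := by rw [h4]
      _ = s36thQ ζ ((b + 1 : ℕ) : ℤ) * (1 - (ζ : R)) := by ring
  rw [Finset.prod_congr rfl h3, Finset.prod_mul_distrib, Finset.prod_const, Finset.card_range]

/-- `q ↦ 0` under a ring homomorphism with `ζ ↦ 1`. -/
theorem s36th_natCast_red [IsDomain R] {q : ℕ} (hq : q.Prime) {ζ : Rˣ}
    (hζ : IsPrimitiveRoot (ζ : R) q) (r : R →+* S) (hr : r (ζ : R) = 1) : (q : S) = 0 := by
  have h1 := congrArg r (s36th_wilson hq hζ)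
  rw [map_natCast, map_mul, map_pow, map_sub, map_one, hr, sub_self,
    zero_pow (by have := hq.two_le; omega), mul_zero] at h1
  exact h1

/-- **(θ3) WILSON, part 2**: `u ↦ −1` under a ring homomorphism with `ζ ↦ 1`. -/
theorem s36th_wilson_red [IsDomain R] {q : ℕ} (hq : q.Prime) {ζ : Rˣ}
    (hζ : IsPrimitiveRoot (ζ : R) q) (r : R →+* S) (hr : r (ζ : R) = 1) :
    r (s36thU q ζ) = -1 := by
  have hq0 : (q : S) = 0 := s36th_natCast_red hq hζ r hr
  rw [s36thU, map_prod]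
  have h1 : ∀ b ∈ Finset.range (q - 1), r (s36thQ ζ ((b + 1 : ℕ) : ℤ)) = ((b + 1 : ℕ) : S) := by
    intro b _
    rw [s36thQ_red r hr]
    simp
  rw [Finset.prod_congr rfl h1, ← Nat.cast_prod, Finset.prod_range_add_one_eq_factorial]
  -- Wilson's theorem
  haveI : Fact q.Prime := ⟨hq⟩
  have h2 : (((q - 1).factorial + 1 : ℕ) : ZMod q) = 0 := by
    rw [Nat.cast_add, ZMod.wilsons_lemma]
    simp
  obtain ⟨c, hc⟩ := (ZMod.natCast_eq_zero_iff _ _).mp h2
  have h3 : (((q - 1).factorial + 1 : ℕ) : S) = 0 := by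
    rw [hc, Nat.cast_mul, hq0, zero_mul]
  rw [Nat.cast_add, Nat.cast_one] at h3
  exact eq_neg_of_add_eq_zero_left h3

/-- in characteristic `q`: `(−1) ^ (q − 1) = 1`. -/
theorem s36th_neg_one_pow {q : ℕ} (hq : q.Prime) (hq0 : (q : S) = 0) :
    (-1 : S) ^ (q - 1) = 1 := by
  rcases hq.eq_two_or_odd' with rfl | hodd
  · have h2 : (2 : S) = 0 := by exact_mod_cast hq0
    have : (-1 : S) = 1 := by
      have : (1 : S) + 1 = 0 := by rw [one_add_one_eq_two]; exact h2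
      exact neg_eq_of_add_eq_zero_left this
    simp [this]
  · have : Even (q - 1) := by
      obtain ⟨t, ht⟩ := hodd
      exact ⟨t, by omega⟩
    exact this.neg_one_pow

end Wilson

/-! ## 4. The Gauss ring -/

section Gauss

variable {A E k : Type*} [CommRing A] [Field E] [Field k] {ι : A →+* E} {r : A →+* k}

/-- `s(zQ) − s(Q) = C (ι (z − 1)) · ι̂ (D_z S)` for `s = ι̂ S`. -/
theorem s36th_rot_sub_coeffMap (ι : A →+* E) (z : Aˣ) (S : LaurentSeries A) :
    kronRot (Units.map (ι : A →* E) z) (coeffMap ι S) - coeffMap ι S =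
      HahnSeries.C (ι ((z : A) - 1)) * coeffMap ι (s36thD z S) := by
  rw [← coeffMap_kronRot, ← map_sub, s36th_kronRot_sub, map_mul, coeffMap_hahnC]

/-- `s(zQ) − s(Q)` is in the Gauss ring. -/
theorem s36th_rot_sub_mem (ι : A →+* E) (r : A →+* k) (z : Aˣ) (S : LaurentSeries A) :
    kronRot (Units.map (ι : A →* E) z) (coeffMap ι S) - coeffMap ι S ∈ gaussRing ι r := by
  rw [← coeffMap_kronRot, ← map_sub]
  exact coeffMap_mem_gaussRing ι r _

/-- `s(zQ) − s(Q)` reduces to `0` if `r z = 1`. -/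
theorem s36th_rot_sub_red (hι : Function.Injective ι) {z : Aˣ} (hz : r (z : A) = 1)
    (S : LaurentSeries A) :
    gaussRed r hι ⟨kronRot (Units.map (ι : A →* E) z) (coeffMap ι S) - coeffMap ι S,
      s36th_rot_sub_mem ι r z S⟩ = 0 := by
  have h1 : (⟨kronRot (Units.map (ι : A →* E) z) (coeffMap ι S) - coeffMap ι S,
      s36th_rot_sub_mem ι r z S⟩ : gaussRing ι r) =
      ⟨coeffMap ι (kronRot z S - S), coeffMap_mem_gaussRing ι r _⟩ :=
    Subtype.ext (show kronRot (Units.map (ι : A →* E) z) (coeffMap ι S) - coeffMap ι S =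
      coeffMap ι (kronRot z S - S) by rw [map_sub, coeffMap_kronRot])
  rw [h1, gaussRed_coeffMap, s36th_kronRot_sub, map_mul, coeffMap_hahnC, map_sub, hz, map_one,
    sub_self, map_zero, zero_mul]

/-- **(θ2) in the Gauss ring**: `ι̂ (D_z S)` reduces to `θ s̄`. -/
theorem s36thD_gaussRed (hι : Function.Injective ι) {z : Aˣ} (hz : r (z : A) = 1)
    (S : LaurentSeries A) :
    gaussRed r hι ⟨coeffMap ι (s36thD z S), coeffMap_mem_gaussRing ι r _⟩ =
      thetaFun (coeffMap r S) := by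
  rw [gaussRed_coeffMap, s36thD_red r hz]

/-- **(θ4), the `(q − 1)`-st power**: `(s(ζQ) − s(Q)) ^ (q − 1) = q · w`, `w` in the Gauss ring
with reduction `− (θ s̄) ^ (q − 1)`. -/
theorem s36th_pow_eq [IsDomain A] (hι : Function.Injective ι) {q : ℕ} (hq : q.Prime) {ζ : Aˣ}
    (hζ : IsPrimitiveRoot (ζ : A) q) (hr : r (ζ : A) = 1) (S : LaurentSeries A) :
    ∃ w : gaussRing ι r,
      (kronRot (Units.map (ι : A →* E) ζ) (coeffMap ι S) - coeffMap ι S) ^ (q - 1) =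
        HahnSeries.C (ι (q : A)) * (w : LaurentSeries E) ∧
      gaussRed r hι w = -(thetaFun (coeffMap r S)) ^ (q - 1) := by
  have hq0 : (q : k) = 0 := s36th_natCast_red hq hζ r hr
  have hu : r (s36thU q ζ) = -1 := s36th_wilson_red hq hζ r hr
  have hW := s36th_wilson hq hζ
  obtain ⟨T, hT⟩ : ∃ T : LaurentSeries A,
      T = HahnSeries.C ((-1 : A) ^ (q - 1)) * s36thD ζ S ^ (q - 1) := ⟨_, rfl⟩
  obtain ⟨b, hb⟩ : ∃ b : LaurentSeries A, b = HahnSeries.C (s36thU q ζ) := ⟨_, rfl⟩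
  have hb' : coeffMap r b ≠ 0 := by
    rw [hb, coeffMap_hahnC, hu]
    intro h
    have := congrArg (fun x : LaurentSeries k => x.coeff 0) h
    simp at this
  have hbE : coeffMap ι b ≠ 0 := by
    intro h0
    apply hb'
    have : b = 0 := coeffMap_inj_of_injective ι hι (by rw [h0, map_zero])
    rw [this, map_zero]
  have hw : coeffMap ι b * (coeffMap ι T / coeffMap ι b) = coeffMap ι T := by
    field_simp
  have hTι : coeffMap ι T =
      (-1 : LaurentSeries E) ^ (q - 1) * coeffMap ι (s36thD ζ S) ^ (q - 1) := by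
    rw [hT, map_mul, coeffMap_hahnC, map_pow, map_pow, map_neg, map_one, map_pow, map_neg,
      map_one]
  have hbι : coeffMap ι b = HahnSeries.C (ι (s36thU q ζ)) := by rw [hb, coeffMap_hahnC]
  have hC : (HahnSeries.C (ι (q : A)) : LaurentSeries E) =
      HahnSeries.C (ι (s36thU q ζ)) * (HahnSeries.C (ι (1 - (ζ : A)))) ^ (q - 1) := by
    rw [hW, map_mul, map_mul, map_pow, map_pow]
  have hc1 : (HahnSeries.C (ι ((ζ : A) - 1)) : LaurentSeries E) =
      -HahnSeries.C (ι (1 - (ζ : A))) := by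
    rw [← map_neg, ← map_neg, neg_sub]
  have hTr : coeffMap r T = (thetaFun (coeffMap r S)) ^ (q - 1) := by
    rw [hT, map_mul, coeffMap_hahnC, map_pow, map_neg, map_one, s36th_neg_one_pow hq hq0,
      map_one, one_mul, map_pow, s36thD_red r hr]
  have hbr : coeffMap r b = -1 := by
    rw [hb, coeffMap_hahnC, hu, map_neg, map_one]
  have hmem : coeffMap ι T / coeffMap ι b ∈ gaussRing ι r := ⟨T, b, hb', hw⟩
  refine ⟨⟨coeffMap ι T / coeffMap ι b, hmem⟩, ?_, ?_⟩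
  · show _ = HahnSeries.C (ι (q : A)) * (coeffMap ι T / coeffMap ι b)
    rw [s36th_rot_sub_coeffMap, mul_pow, mul_div_assoc', eq_div_iff hbE, hTι, hbι, hC, hc1,
      neg_pow]
    ring
  · have h5 := gaussRed_eq r hι ⟨coeffMap ι T / coeffMap ι b, hmem⟩ T b hb' hw
    rw [h5, hTr, hbr, div_neg, div_one]

end Gauss

/-! ## 5. Vertical valuation subrings -/

section Vert

variable {A E k : Type*} [CommRing A] [Field E] [Field k]
  {ι : A →+* E} {r : A →+* k} {π : A} {F : Type*} [Field F]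
  (hB : VtBase ι r π) (e : F →+* LaurentSeries E) (hfrac : ∀ x : F, VtFrac ι (e x))

/-- `Π = s(zQ) − s(Q)` lies in the maximal ideal of the vertical valuation (`r z = 1`). -/
theorem s36th_mem_nonunits {z : Aˣ} (hz : r (z : A) = 1) {x : F} {S : LaurentSeries A}
    (hx : e x = kronRot (Units.map (ι : A →* E) z) (coeffMap ι S) - coeffMap ι S) :
    x ∈ (vtSub hB e hfrac).nonunits := by
  rw [vtSub_mem_nonunits_iff]
  have hmem : e x ∈ gaussRing ι r := by rw [hx]; exact s36th_rot_sub_mem ι r z S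
  refine ⟨hmem, ?_⟩
  have h1 : (⟨e x, hmem⟩ : gaussRing ι r) =
      ⟨kronRot (Units.map (ι : A →* E) z) (coeffMap ι S) - coeffMap ι S,
        s36th_rot_sub_mem ι r z S⟩ := Subtype.ext hx
  rw [h1]
  exact s36th_rot_sub_red hB.inj hz S

/-- `Π / (z − 1)` has the expansion `ι̂ (D_z S)`. -/
theorem s36th_div_eq (hι : Function.Injective ι) (e : F →+* LaurentSeries E) {z : Aˣ}
    (hz1 : (z : A) ≠ 1) {x c : F} {S : LaurentSeries A}
    (hx : e x = kronRot (Units.map (ι : A →* E) z) (coeffMap ι S) - coeffMap ι S)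
    (hc : e c = HahnSeries.C (ι ((z : A) - 1))) :
    e (x / c) = coeffMap ι (s36thD z S) := by
  have hc0 : (HahnSeries.C (ι ((z : A) - 1)) : LaurentSeries E) ≠ 0 := by
    refine HahnSeries.C_ne_zero fun h1 => ?_
    have h2 : (z : A) - 1 = 0 := hι (by rw [h1, map_zero])
    exact hz1 (sub_eq_zero.mp h2)
  rw [map_div₀, hx, hc, s36th_rot_sub_coeffMap, mul_div_assoc, mul_comm, div_mul_cancel₀ _ hc0]

/-- **(θ4)** `Π / (z − 1)` is integral at the vertical valuation, with reduction `θ s̄`. -/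
theorem s36th_div_mem {z : Aˣ} (hz : r (z : A) = 1) (hz1 : (z : A) ≠ 1) {x c : F}
    {S : LaurentSeries A}
    (hx : e x = kronRot (Units.map (ι : A →* E) z) (coeffMap ι S) - coeffMap ι S)
    (hc : e c = HahnSeries.C (ι ((z : A) - 1))) :
    ∃ h : e (x / c) ∈ gaussRing ι r,
      gaussRed r hB.inj ⟨e (x / c), h⟩ = thetaFun (coeffMap r S) := by
  have h1 := s36th_div_eq hB.inj e hz1 hx hc
  have hmem : e (x / c) ∈ gaussRing ι r := by rw [h1]; exact coeffMap_mem_gaussRing ι r _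
  refine ⟨hmem, ?_⟩
  have h2 : (⟨e (x / c), hmem⟩ : gaussRing ι r) =
      ⟨coeffMap ι (s36thD z S), coeffMap_mem_gaussRing ι r _⟩ := Subtype.ext h1
  rw [h2]
  exact s36thD_gaussRed hB.inj hz S

/-- `Π / (z − 1) ∈ V`. -/
theorem s36th_div_mem_vtSub {z : Aˣ} (hz : r (z : A) = 1) (hz1 : (z : A) ≠ 1) {x c : F}
    {S : LaurentSeries A}
    (hx : e x = kronRot (Units.map (ι : A →* E) z) (coeffMap ι S) - coeffMap ι S)
    (hc : e c = HahnSeries.C (ι ((z : A) - 1))) :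
    x / c ∈ vtSub hB e hfrac :=
  (s36th_div_mem hB e hz hz1 hx hc).1

/-- `Π / (z − 1)` is a unit of the vertical valuation iff `θ s̄ ≠ 0`. -/
theorem s36th_div_unit_iff {z : Aˣ} (hz : r (z : A) = 1) (hz1 : (z : A) ≠ 1) {x c : F}
    {S : LaurentSeries A}
    (hx : e x = kronRot (Units.map (ι : A →* E) z) (coeffMap ι S) - coeffMap ι S)
    (hc : e c = HahnSeries.C (ι ((z : A) - 1))) :
    x / c ∉ (vtSub hB e hfrac).nonunits ↔ thetaFun (coeffMap r S) ≠ 0 := by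
  obtain ⟨hmem, hred⟩ := s36th_div_mem hB e hz hz1 hx hc
  rw [vtSub_mem_nonunits_iff]
  constructor
  · intro h h0
    exact h ⟨hmem, by rw [hred, h0]⟩
  · rintro h ⟨hmem', h0⟩
    exact h (by rw [← hred]; exact h0)

/-- **(θ4)** `Π ^ (q − 1) / q` is integral at the vertical valuation, with reduction
`− (θ s̄) ^ (q − 1)`. -/
theorem s36th_pow_div_mem [IsDomain A] {q : ℕ} (hq : q.Prime) {ζ : Aˣ}
    (hζ : IsPrimitiveRoot (ζ : A) q) (hr : r (ζ : A) = 1) {x c : F} {S : LaurentSeries A}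
    (hx : e x = kronRot (Units.map (ι : A →* E) ζ) (coeffMap ι S) - coeffMap ι S)
    (hc : e c = HahnSeries.C (ι (q : A))) (hq0 : (q : A) ≠ 0) :
    ∃ h : e (x ^ (q - 1) / c) ∈ gaussRing ι r,
      gaussRed r hB.inj ⟨e (x ^ (q - 1) / c), h⟩ = -(thetaFun (coeffMap r S)) ^ (q - 1) := by
  obtain ⟨w, hw, hred⟩ := s36th_pow_eq (r := r) hB.inj hq hζ hr S
  have hc0 : (HahnSeries.C (ι (q : A)) : LaurentSeries E) ≠ 0 :=
    HahnSeries.C_ne_zero fun h1 => hq0 (hB.inj (by rw [h1, map_zero]))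
  have h1 : e (x ^ (q - 1) / c) = (w : LaurentSeries E) := by
    rw [map_div₀, map_pow, hx, hc, hw, mul_comm, mul_div_assoc, div_self hc0, mul_one]
  have hmem : e (x ^ (q - 1) / c) ∈ gaussRing ι r := by rw [h1]; exact w.2
  refine ⟨hmem, ?_⟩
  have h2 : (⟨e (x ^ (q - 1) / c), hmem⟩ : gaussRing ι r) = w := Subtype.ext h1
  rw [h2, hred]

/-- `Π ^ (q − 1) / q` is a unit of the vertical valuation iff `θ s̄ ≠ 0`. -/
theorem s36th_pow_div_unit_iff [IsDomain A] {q : ℕ} (hq : q.Prime) {ζ : Aˣ}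
    (hζ : IsPrimitiveRoot (ζ : A) q) (hr : r (ζ : A) = 1) {x c : F} {S : LaurentSeries A}
    (hx : e x = kronRot (Units.map (ι : A →* E) ζ) (coeffMap ι S) - coeffMap ι S)
    (hc : e c = HahnSeries.C (ι (q : A))) (hq0 : (q : A) ≠ 0) :
    (x ^ (q - 1) / c ∈ vtSub hB e hfrac ∧ x ^ (q - 1) / c ∉ (vtSub hB e hfrac).nonunits) ↔
      thetaFun (coeffMap r S) ≠ 0 := by
  obtain ⟨hmem, hred⟩ := s36th_pow_div_mem hB e hq hζ hr hx hc hq0
  rw [vtSub_mem_nonunits_iff]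
  constructor
  · rintro ⟨-, h⟩ h0
    refine h ⟨hmem, ?_⟩
    rw [hred, h0, zero_pow (by have := hq.two_le; omega), neg_zero]
  · intro h
    refine ⟨hmem, ?_⟩
    rintro ⟨hmem', h0⟩
    have h1 : -(thetaFun (coeffMap r S)) ^ (q - 1) = 0 := by rw [← hred]; exact h0
    exact h (pow_eq_zero_iff (by have := hq.two_le; omega) |>.mp (neg_eq_zero.mp h1))

end Vert

end Fermat.Agent.S36

end
end ZBS36_028_0

/-! ### bundled: `Fermat.Agent.S36.MidThetaMod` -/
section ZBS36_028_1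

/-!
# S36 / N2-theta, modular part: `Π_s = s(Q^{q²}) − s(Q)` at the middle cusp and at `∞`

`s ∈ F_M(K)` (level `M`, `q ∤ M`), `Π_s := qExpand q (qExpand q s) − s ∈ F_{M q²}(K)`.

* (θ4) `s36th_emb_Pi` : at the middle cusp (`h : S36MidEmb K q M ζ`, `ζ ^ q = 1`),
  `μ (Π_s) = s(ζ Q) − s(Q)`; `s36th_emb_Pi_D` : `= C (ζ − 1) * D_ζ s`.
  With `MidTheta.lean` (`s36th_mem_nonunits`, `s36th_div_mem`, `s36th_pow_div_mem`): for `s`
  with integral expansion, `Π_s ∈ 𝔪(V_c)`, `Π_s / (ζ − 1)` reduces to `θ s̄` and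
  `Π_s ^ (q − 1) / q` reduces to `− (θ s̄) ^ (q − 1)`.
* (θ5) at `∞` (plain expansion): `s36th_inf_coeffMap`, `s36th_inf_mem`, `s36th_inf_red`:
  `Π_s` is integral with reduction `s̄(Q^{q²}) − s̄(Q)`; `s36th_qExpand_sq_frob` : in
  characteristic `q` this is `(θ² s̄) ^ (q²) − s̄` for `θ` inverse to the Frobenius of the
  coefficients; `s36th_qExpand_sub_ne_zero` : it is nonzero if `s̄` is not constant;
  valuation forms `s36th_inf_mem_vtSub`, `s36th_inf_gaussRed`, `s36th_inf_unit`.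
-/

set_option autoImplicit false
set_option linter.unusedSectionVars false
set_option linter.unusedVariables false
set_option linter.style.haveILetI false

noncomputable section

namespace Fermat.Agent.S36

open ModularCurve HahnSeries Fermat.Agent.ES Fermat.Agent.INJ Fermat.Agent.UNIP
open Fermat.Agent.S28.Deriv Fermat.Agent.AL

/-! ## 1. Formal lemmas on `qExpand` -/

section Formal

variable {R : Type*} [CommRing R]

/-- a series with `T(Q^N) = T(Q)`, `N ≥ 2`, is constant. -/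
theorem s36th_coeff_eq_zero_of_qExpand_eq {N : ℕ} [NeZero N] (hN : 2 ≤ N)
    {T : LaurentSeries R} (h : qExpand R N T = T) : ∀ n : ℤ, n ≠ 0 → T.coeff n = 0 := by
  have key : ∀ k : ℕ, ∀ n : ℤ, n.natAbs = k → n ≠ 0 → T.coeff n = 0 := by
    intro k
    induction k using Nat.strong_induction_on with
    | _ k ih =>
      intro n hk hn0
      by_cases hdvd : (N : ℤ) ∣ n
      · obtain ⟨m, rfl⟩ := hdvd
        have hm0 : m ≠ 0 := by
          rintro rfl
          simp at hn0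
        have h1 : T.coeff ((N : ℤ) * m) = T.coeff m := by
          conv_lhs => rw [← h]
          rw [qExpand_coeff_mul]
        have hlt : m.natAbs < k := by
          rw [← hk, Int.natAbs_mul, Int.natAbs_natCast]
          have : 0 < m.natAbs := Int.natAbs_pos.mpr hm0
          nlinarith
        rw [h1]
        exact ih _ hlt m rfl hm0
      · rw [← h]
        exact qExpand_coeff_of_not_dvd N T hdvd
  exact fun n hn => key _ n rfl hn

/-- **`T(Q^N) − T(Q) ≠ 0`** for a non-constant series `T` (`N ≥ 2`). -/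
theorem s36th_qExpand_sub_ne_zero {N : ℕ} [NeZero N] (hN : 2 ≤ N) {T : LaurentSeries R}
    (hT : ∃ n : ℤ, n ≠ 0 ∧ T.coeff n ≠ 0) : qExpand R N T - T ≠ 0 := by
  intro h
  obtain ⟨n, hn0, hn⟩ := hT
  exact hn (s36th_coeff_eq_zero_of_qExpand_eq hN (sub_eq_zero.mp h) n hn0)

/-- the same for `T(Q^{q²})`. -/
theorem s36th_qExpand_sq_sub_ne_zero {q : ℕ} [NeZero q] (hq : 2 ≤ q) {T : LaurentSeries R}
    (hT : ∃ n : ℤ, n ≠ 0 ∧ T.coeff n ≠ 0) : qExpand R q (qExpand R q T) - T ≠ 0 := by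
  haveI : NeZero (q * q) := ⟨Nat.mul_ne_zero (NeZero.ne q) (NeZero.ne q)⟩
  rw [qExpand_qExpand]
  exact s36th_qExpand_sub_ne_zero (by nlinarith) hT

variable {k : Type*} [Field k]

/-- **Frobenius**: in characteristic `q`, `g(Q^q) = (θ g)(Q)^q` for every `θ` inverse to the
Frobenius on the coefficients. -/
theorem s36th_qExpand_frob (q : ℕ) [hq : Fact q.Prime] [NeZero q] [CharP k q]
    (θ : k →+* k) (hθ : ∀ x, θ x ^ q = x) (g : LaurentSeries k) :
    qExpand k q g = (coeffMap θ g) ^ q := by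
  haveI : ExpChar k q := ExpChar.prime hq.out
  rw [kron_frobenius_pow q (coeffMap θ g), coeffMap_coeffMap]
  congr 1
  have : (frobenius k q).comp θ = RingHom.id k := by
    apply RingHom.ext
    intro x
    show (θ x) ^ q = x
    exact hθ x
  rw [this, coeffMap_id]

/-- **Frobenius, twice**: `g(Q^{q²}) = (θ² g)(Q)^{q²}`. -/
theorem s36th_qExpand_sq_frob (q : ℕ) [hq : Fact q.Prime] [NeZero q] [CharP k q]
    (θ : k →+* k) (hθ : ∀ x, θ x ^ q = x) (g : LaurentSeries k) :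
    qExpand k q (qExpand k q g) = (coeffMap θ (coeffMap θ g)) ^ (q ^ 2) := by
  rw [s36th_qExpand_frob q θ hθ g, map_pow, s36th_qExpand_frob q θ hθ (coeffMap θ g),
    ← pow_mul, sq]

end Formal

/-! ## 2. (θ5): `Π_s` at `∞` -/

section Inf

variable {A E k : Type*} [CommRing A] [Field E] [Field k] {ι : A →+* E} {r : A →+* k}
  (q : ℕ) [NeZero q]

/-- `s(Q^{q²}) − s(Q)` for `s = ι̂ S`. -/
theorem s36th_inf_coeffMap (ι : A →+* E) (S : LaurentSeries A) :
    qExpand E q (qExpand E q (coeffMap ι S)) - coeffMap ι S =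
      coeffMap ι (qExpand A q (qExpand A q S) - S) := by
  rw [map_sub, coeffMap_qExpand, coeffMap_qExpand]

theorem s36th_inf_mem (ι : A →+* E) (r : A →+* k) (S : LaurentSeries A) :
    qExpand E q (qExpand E q (coeffMap ι S)) - coeffMap ι S ∈ gaussRing ι r := by
  rw [s36th_inf_coeffMap]
  exact coeffMap_mem_gaussRing ι r _

/-- **(θ5)** the reduction of `Π_s` at `∞` is `s̄(Q^{q²}) − s̄(Q)`. -/
theorem s36th_inf_red (hι : Function.Injective ι) (S : LaurentSeries A) :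
    gaussRed r hι ⟨qExpand E q (qExpand E q (coeffMap ι S)) - coeffMap ι S,
      s36th_inf_mem q ι r S⟩ =
      qExpand k q (qExpand k q (coeffMap r S)) - coeffMap r S := by
  have h1 : (⟨qExpand E q (qExpand E q (coeffMap ι S)) - coeffMap ι S,
      s36th_inf_mem q ι r S⟩ : gaussRing ι r) =
      ⟨coeffMap ι (qExpand A q (qExpand A q S) - S), coeffMap_mem_gaussRing ι r _⟩ :=
    Subtype.ext (s36th_inf_coeffMap q ι S)
  rw [h1, gaussRed_coeffMap, map_sub, coeffMap_qExpand, coeffMap_qExpand]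

variable {π : A} {F : Type*} [Field F]
  (hB : VtBase ι r π) (e : F →+* LaurentSeries E) (hfrac : ∀ x : F, VtFrac ι (e x))

/-- `Π_s` lies in the vertical valuation subring at `∞`. -/
theorem s36th_inf_mem_vtSub {x : F} {S : LaurentSeries A}
    (hx : e x = qExpand E q (qExpand E q (coeffMap ι S)) - coeffMap ι S) :
    x ∈ vtSub hB e hfrac := by
  rw [mem_vtSub, hx]
  exact s36th_inf_mem q ι r S

/-- **(θ5)** the reduction of `Π_s` at `∞`. -/
theorem s36th_inf_gaussRed {x : F} {S : LaurentSeries A}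
    (hx : e x = qExpand E q (qExpand E q (coeffMap ι S)) - coeffMap ι S) :
    ∃ h : e x ∈ gaussRing ι r,
      gaussRed r hB.inj ⟨e x, h⟩ = qExpand k q (qExpand k q (coeffMap r S)) - coeffMap r S := by
  have hmem : e x ∈ gaussRing ι r := by rw [hx]; exact s36th_inf_mem q ι r S
  refine ⟨hmem, ?_⟩
  have h1 : (⟨e x, hmem⟩ : gaussRing ι r) =
      ⟨qExpand E q (qExpand E q (coeffMap ι S)) - coeffMap ι S, s36th_inf_mem q ι r S⟩ :=
    Subtype.ext hx
  rw [h1]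
  exact s36th_inf_red q hB.inj S

/-- **(θ5)** `Π_s` is a unit of the vertical valuation at `∞` if `s̄` is not constant. -/
theorem s36th_inf_unit (hq : 2 ≤ q) {x : F} {S : LaurentSeries A}
    (hx : e x = qExpand E q (qExpand E q (coeffMap ι S)) - coeffMap ι S)
    (hS : ∃ n : ℤ, n ≠ 0 ∧ r (S.coeff n) ≠ 0) :
    x ∉ (vtSub hB e hfrac).nonunits := by
  obtain ⟨hmem, hred⟩ := s36th_inf_gaussRed q hB e hx
  rw [vtSub_mem_nonunits_iff]
  rintro ⟨hmem', h0⟩
  have h1 : qExpand k q (qExpand k q (coeffMap r S)) - coeffMap r S = 0 := by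
    rw [← hred]; exact h0
  refine s36th_qExpand_sq_sub_ne_zero hq ?_ h1
  obtain ⟨n, hn0, hn⟩ := hS
  exact ⟨n, hn0, by rw [coeffMap_coeff]; exact hn⟩

end Inf

/-! ## 3. (θ4): `Π_s` at the middle cusp -/

section Mid

variable {K : Type*} [Field K] {q M : ℕ} [NeZero q] [NeZero M] [NeZero (M * q)]
  [NeZero (M * q * q)] {ζ : Kˣ}

/-- `Π_s ∈ F_{M q²}` for `s ∈ F_M`. -/
theorem s36th_Pi_mem {f : LaurentSeries K} (hf : f ∈ modularFunctionFieldFullC K M) :
    qExpand K q (qExpand K q f) - f ∈ modularFunctionFieldFullC K (M * q * q) :=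
  sub_mem (s36mid_qExpand_sq_mem hf) (s36mid_base_le hf)

variable (ι : K →+* ℂ) (hq : q.Prime) (hqM : ¬ q ∣ M)

include ι hq hqM in
/-- **(θ4)** the expansion of `Π_s` at the middle cusp is `s(ζQ) − s(Q)`. -/
theorem s36th_emb_Pi (h : S36MidEmb K q M ζ) (hζ : ζ ^ q = 1) {f : LaurentSeries K}
    (hf : f ∈ modularFunctionFieldFullC K M) :
    h.emb ⟨qExpand K q (qExpand K q f) - f, s36th_Pi_mem hf⟩ = kronRot ζ f - f := by
  have h1 : (⟨qExpand K q (qExpand K q f) - f, s36th_Pi_mem hf⟩ :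
      modularFunctionFieldFullC K (M * q * q)) =
      ⟨qExpand K q (qExpand K q f), s36mid_qExpand_sq_mem hf⟩ -
        ⟨f, s36mid_low_le (full_degeneracyC_le K (Dvd.intro q rfl) hf)⟩ := rfl
  rw [h1, map_sub, h.emb_base_sq ι hq hqM hζ hf,
    h.emb_of_mem_low (full_degeneracyC_le K (Dvd.intro q rfl) hf)]

include ι hq hqM in
/-- **(θ4)** the expansion of `Π_s` at the middle cusp is `(ζ − 1) · D_ζ s`. -/
theorem s36th_emb_Pi_D (h : S36MidEmb K q M ζ) (hζ : ζ ^ q = 1) {f : LaurentSeries K}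
    (hf : f ∈ modularFunctionFieldFullC K M) :
    h.emb ⟨qExpand K q (qExpand K q f) - f, s36th_Pi_mem hf⟩ =
      HahnSeries.C ((ζ : K) - 1) * s36thD ζ f := by
  rw [s36th_emb_Pi ι hq hqM h hζ hf, s36th_kronRot_sub]

end Mid

/-! ## 4. (RAM) and (SEP), the shapes consumed by N2-ext -/

section Ram

variable {A E k : Type*} [CommRing A] [Field E] [Field k]
  {ι : A →+* E} {r : A →+* k} {π : A} {F : Type*} [Field F]
  (hB : VtBase ι r π) (e : F →+* LaurentSeries E) (hfrac : ∀ x : F, VtFrac ι (e x))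

/-- the natural number `q` of `F` has the expansion `C (ι q)`. -/
theorem s36th_natCast_emb (e : F →+* LaurentSeries E) (ι : A →+* E) (q : ℕ) :
    e (q : F) = HahnSeries.C (ι (q : A)) := by
  rw [map_natCast, map_natCast, map_natCast]

/-- **(RAM), for the constant `q`**: `q = Π ^ (q − 1) · z`, `Π ∈ 𝔪(V)`, `z ∈ V`, if
`θ s̄ ≠ 0`. -/
theorem s36th_ram_q [IsDomain A] {q : ℕ} (hq : q.Prime) {ζ : Aˣ}
    (hζ : IsPrimitiveRoot (ζ : A) q) (hr : r (ζ : A) = 1) {x : F} {S : LaurentSeries A}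
    (hx : e x = kronRot (Units.map (ι : A →* E) ζ) (coeffMap ι S) - coeffMap ι S)
    (hq0 : (q : A) ≠ 0) (hθ : thetaFun (coeffMap r S) ≠ 0) :
    ∃ t z : F, t ∈ (vtSub hB e hfrac).nonunits ∧ z ∈ vtSub hB e hfrac ∧
      z ∉ (vtSub hB e hfrac).nonunits ∧ (q : F) = t ^ (q - 1) * z := by
  have hc := s36th_natCast_emb e ι (A := A) q
  obtain ⟨hmem, hunit⟩ :=
    (s36th_pow_div_unit_iff hB e hfrac hq hζ hr hx hc hq0).mpr hθ
  have hval : (vtSub hB e hfrac).valuation (x ^ (q - 1) / (q : F)) = 1 := by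
    have h1 : (vtSub hB e hfrac).valuation (x ^ (q - 1) / (q : F)) ≤ 1 :=
      ((vtSub hB e hfrac).valuation_le_one_iff _).mpr hmem
    rw [ValuationSubring.mem_nonunits_iff, not_lt] at hunit
    exact le_antisymm h1 hunit
  have hqF : (q : F) ≠ 0 := by
    intro h0
    have h1 : e (q : F) = 0 := by rw [h0, map_zero]
    rw [hc] at h1
    exact hq0 (hB.inj (by rw [HahnSeries.C_injective (h1.trans (map_zero _).symm), map_zero]))
  have hx0 : x ^ (q - 1) ≠ 0 := by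
    intro h0
    rw [h0, zero_div, map_zero] at hval
    exact zero_ne_one hval
  have hval' : (vtSub hB e hfrac).valuation ((q : F) / x ^ (q - 1)) = 1 := by
    have h2 : (q : F) / x ^ (q - 1) = (x ^ (q - 1) / (q : F))⁻¹ := by
      rw [inv_div]
    rw [h2, map_inv₀, hval, inv_one]
  refine ⟨x, (q : F) / x ^ (q - 1), s36th_mem_nonunits hB e hfrac hr hx, ?_, ?_, ?_⟩
  · exact ((vtSub hB e hfrac).valuation_le_one_iff _).mp hval'.le
  · rw [ValuationSubring.mem_nonunits_iff, hval']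
    exact lt_irrefl _
  · field_simp

/-- **(RAM)** for a constant `c` with `q = c · (unit constant)`: `c = Π ^ (q − 1) · z`,
`Π ∈ 𝔪(V)`, `z ∈ V`, if `θ s̄ ≠ 0`. -/
theorem s36th_ram [IsDomain A] {q : ℕ} (hq : q.Prime) {ζ : Aˣ}
    (hζ : IsPrimitiveRoot (ζ : A) q) (hr : r (ζ : A) = 1) {x : F} {S : LaurentSeries A}
    (hx : e x = kronRot (Units.map (ι : A →* E) ζ) (coeffMap ι S) - coeffMap ι S)
    (hq0 : (q : A) ≠ 0) (hθ : thetaFun (coeffMap r S) ≠ 0)
    {c cv : F} {v : A} (hcv : e cv = HahnSeries.C (ι v)) (hv : r v ≠ 0)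
    (hc : (q : F) = c * cv) :
    ∃ t z : F, t ∈ (vtSub hB e hfrac).nonunits ∧ z ∈ vtSub hB e hfrac ∧
      c = t ^ (q - 1) * z := by
  obtain ⟨t, z, ht, hz, -, hqz⟩ := s36th_ram_q hB e hfrac hq hζ hr hx hq0 hθ
  have hcvV : cv ∈ vtSub hB e hfrac := vtSub_const_mem hB e hfrac hcv
  have hcvU : cv ∉ (vtSub hB e hfrac).nonunits := fun h =>
    hv ((vtSub_const_mem_nonunits_iff hB e hfrac hcv).mp h)
  have hval : (vtSub hB e hfrac).valuation cv = 1 := by
    have h1 : (vtSub hB e hfrac).valuation cv ≤ 1 :=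
      ((vtSub hB e hfrac).valuation_le_one_iff _).mpr hcvV
    rw [ValuationSubring.mem_nonunits_iff, not_lt] at hcvU
    exact le_antisymm h1 hcvU
  have hcv0 : cv ≠ 0 := by
    rintro rfl
    rw [map_zero] at hval
    exact zero_ne_one hval
  have hinv : cv⁻¹ ∈ vtSub hB e hfrac := by
    rw [← (vtSub hB e hfrac).valuation_le_one_iff, map_inv₀, hval, inv_one]
  refine ⟨t, z * cv⁻¹, ht, (vtSub hB e hfrac).mul_mem _ _ hz hinv, ?_⟩
  rw [← mul_assoc, ← hqz, hc, mul_assoc, mul_inv_cancel₀ hcv0, mul_one]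

/-- `θ j̄ ≠ 0`. -/
theorem s36th_theta_j_ne_zero (k : Type*) [Field k] : thetaFun (jqModC k) ≠ 0 := by
  intro h
  have h1 := congrArg (fun T : LaurentSeries k => T.coeff (-1)) h
  simp only [thetaFun_coeff, coeff_jqModC_neg_one, HahnSeries.coeff_zero] at h1
  simp at h1

/-- `coeffMap f j = j`. -/
theorem s36th_coeffMap_j {R S : Type*} [CommRing R] [CommRing S] (f : R →+* S) :
    coeffMap f (jqModC R) = jqModC S :=
  map_jqModC f

/-- **(RAM) with `Π = j(ζQ) − j(Q)`** (`= μ (j_{q²} − j)`). -/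
theorem s36th_ram_j [IsDomain A] {q : ℕ} (hq : q.Prime) {ζ : Aˣ}
    (hζ : IsPrimitiveRoot (ζ : A) q) (hr : r (ζ : A) = 1) {x : F}
    (hx : e x = kronRot (Units.map (ι : A →* E) ζ) (jqModC E) - jqModC E)
    (hq0 : (q : A) ≠ 0)
    {c cv : F} {v : A} (hcv : e cv = HahnSeries.C (ι v)) (hv : r v ≠ 0)
    (hc : (q : F) = c * cv) :
    ∃ t z : F, t ∈ (vtSub hB e hfrac).nonunits ∧ z ∈ vtSub hB e hfrac ∧
      c = t ^ (q - 1) * z := by
  have hx' : e x = kronRot (Units.map (ι : A →* E) ζ) (coeffMap ι (jqModC A)) -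
      coeffMap ι (jqModC A) := by
    rw [s36th_coeffMap_j]; exact hx
  have hθ : thetaFun (coeffMap r (jqModC A)) ≠ 0 := by
    rw [s36th_coeffMap_j]; exact s36th_theta_j_ne_zero k
  exact s36th_ram hB e hfrac hq hζ hr hx' hq0 hθ hcv hv hc

/-- **(SEP), middle cusp**: `Π = j(ζQ) − j(Q)` lies in `𝔪(V_c)`. -/
theorem s36th_sep_j_mid {ζ : Aˣ} (hr : r (ζ : A) = 1) {x : F}
    (hx : e x = kronRot (Units.map (ι : A →* E) ζ) (jqModC E) - jqModC E) :
    x ∈ (vtSub hB e hfrac).nonunits :=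
  s36th_mem_nonunits hB e hfrac hr (x := x) (S := jqModC A)
    (by rw [s36th_coeffMap_j]; exact hx)

/-- **(SEP), at `∞`**: `Π = j(Q^{q²}) − j(Q)` is a unit of `V_a`. -/
theorem s36th_sep_j_inf (q : ℕ) [NeZero q] (hq : 2 ≤ q) {x : F}
    (hx : e x = qExpand E q (qExpand E q (jqModC E)) - jqModC E) :
    x ∈ vtSub hB e hfrac ∧ x ∉ (vtSub hB e hfrac).nonunits := by
  have hx' : e x = qExpand E q (qExpand E q (coeffMap ι (jqModC A))) - coeffMap ι (jqModC A) := by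
    rw [s36th_coeffMap_j]; exact hx
  refine ⟨s36th_inf_mem_vtSub q hB e hfrac hx', s36th_inf_unit q hB e hfrac hq hx' ?_⟩
  refine ⟨-1, by norm_num, ?_⟩
  rw [coeff_jqModC_neg_one, map_one]
  exact one_ne_zero

end Ram

end Fermat.Agent.S36

end
end ZBS36_028_1

/-! ### bundled: `Fermat.Agent.S36.PtsCCong` -/
section ZBS36_028_2

/-!
# S36 / (I6)(b-CONG): the congruence at the middle component `C_c` (helper57)

Setting of `S36/N2Val.lean`: base `(A', E', k', r', π')`, `ψ : E →+* E'`, `h : S36MidEmb E' q M ζ`,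
`z : A'ˣ` a primitive `q`-th root of unity with `r' z = 1`, `V_c = s36n2VC hB' ψ hq h z hz`.
`F = modularFunctionFieldFullC E (M * q * q)`.  For ANY elements `X, t, T ∈ F` with expansions
`X = t(Q^{q²}) − t`, `t = s36rig_t4 E` (resp. `s36rig_t9 E`), `T = uS E q = Δ(Q^q)/Δ(Q)`:

* `s36cg_cong_t4` (`4 ∣ M`, `2 ≠ 0` in `k'`):
  `(X^(q−1)/q)⁶ − (t² (t+16)⁵)^(q−1) · T ∈ 𝔪(V_c)`;
* `s36cg_cong_t9` (`9 ∣ M`, `3 ≠ 0` in `k'`):
  `(X^(q−1)/q)⁶ · (t³)^(q−1) − ((t² + 9t + 27)⁵)^(q−1) · T ∈ 𝔪(V_c)`,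
  `s36cg_cong_t9'` : `(X^(q−1)/q)⁶ − ((t² + 9t + 27)⁵)^(q−1) · T / (t³)^(q−1) ∈ 𝔪(V_c)`;
* `s36cg_U_mem`, `s36cg_T_mem`, `s36cg_t4_mem`, `s36cg_t9_mem` : `X^(q−1)/q, T, t ∈ V_c`;
  `s36cg_T_unit`, `s36cg_t9_unit` : `T`, `t₉` are units of `V_c`.

Concrete forms (`V = s36i1V M hq hA hqM hζ ιC h`, `c₁ = S36Comp.c`, `E = beta0Field A`, the
elements of `S36/PtsCElts.lean`): `S36/PtsCCongInst.lean`.
-/

set_option autoImplicit false
set_option linter.unusedSectionVars false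
set_option linter.unusedVariables false
set_option linter.style.haveILetI false

noncomputable section

namespace Fermat.Agent.S36

open ModularCurve Fermat.Agent.UNIP Fermat.Agent.INJ Fermat.Agent.AL Fermat.Agent.ES
open Fermat.Agent.S28 Fermat.Agent.S28.Deriv

/-! ## The reduced identities -/

section Red

variable (k : Type*) [Field k] (q : ℕ) [NeZero q] [hqf : Fact q.Prime] [CharP k q]

/-- `ū_q · (Δ̄ · (Δ̄⁻¹)^q) = 1` in characteristic `q` -/
theorem s36cg_uS_mul_P :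
    uS k q * (deltaS k * deltaInvS k ^ q) = 1 := by
  have h1 : qExpand k q (deltaInvS k) = deltaInvS k ^ q :=
    nodesFrob_qExpand_int (k := k) q deltaInvZ
  rw [← h1, ← uInvS_eq_mul_qExpand, uS_mul_uInvS]

/-- level `4`: `u⁶ = (t̄² (t̄ + 16)⁵)^(q−1) · ū_q` for `u = −(θ t̄)^(q−1)` -/
theorem s36cg_red_t4 (h2 : (2 : k) ≠ 0) :
    (-(thetaFun (s36rig_t4 k)) ^ (q - 1)) ^ 6 -
      (s36rig_t4 k ^ 2 * (s36rig_t4 k + 16) ^ 5) ^ (q - 1) * uS k q = 0 := by
  have h1 := s36cc_unit_t4 k h2 q hqf.out.one_le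
    (u := -(thetaFun (s36rig_t4 k)) ^ (q - 1)) (Or.inl rfl)
  have h3 := s36cg_uS_mul_P k q
  rw [← h1]
  linear_combination (-(-(thetaFun (s36rig_t4 k)) ^ (q - 1)) ^ 6) * h3

/-- level `9`: `u⁶ (t̄³)^(q−1) = ((t̄² + 9 t̄ + 27)⁵)^(q−1) · ū_q` for `u = −(θ t̄)^(q−1)` -/
theorem s36cg_red_t9 (h3 : (3 : k) ≠ 0) :
    (-(thetaFun (s36rig_t9 k)) ^ (q - 1)) ^ 6 * (s36rig_t9 k ^ 3) ^ (q - 1) -
      ((s36rig_t9 k ^ 2 + 9 * s36rig_t9 k + 27) ^ 5) ^ (q - 1) * uS k q = 0 := by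
  have h1 := s36cc_unit_t9 k h3 q hqf.out.one_le
    (u := -(thetaFun (s36rig_t9 k)) ^ (q - 1)) (Or.inl rfl)
  have h4 := s36cg_uS_mul_P k q
  rw [← h1]
  linear_combination (-(-(thetaFun (s36rig_t9 k)) ^ (q - 1)) ^ 6 *
    (s36rig_t9 k ^ 3) ^ (q - 1)) * h4

end Red

section Ne

variable (k : Type*) [Field k]

/-- `t₉ ≠ 0` in characteristic `≠ 3` -/
theorem s36cg_t9_ne_zero (h3 : (3 : k) ≠ 0) : s36rig_t9 k ≠ 0 := by
  intro h0
  have T1 := s36rig_t9_cube k
  rw [h0] at T1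
  have h27 : (27 : LaurentSeries k) ≠ 0 := by
    have e : (27 : LaurentSeries k) = HahnSeries.C ((3 : k) ^ 3) := by
      rw [map_pow, map_ofNat]; norm_num
    rw [e]
    exact (map_ne_zero (HahnSeries.C : k →+* LaurentSeries k)).mpr (pow_ne_zero 3 h3)
  have : (27 : LaurentSeries k) * hm3 k = 0 := by linear_combination -T1
  rcases mul_eq_zero.mp this with h' | h'
  · exact h27 h'
  · exact s36cc_hm3_ne_zero k h'

end Ne

/-! ## Generic part -/

section Gen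

variable {E A' E' k' : Type*} [Field E] [CommRing A'] [IsDomain A'] [Field E'] [CharZero E']
  [Field k'] {ι' : A' →+* E'} {r' : A' →+* k'} {π' : A'}
  (hB' : VtBase ι' r' π') (ψ : E →+* E') (ιK : E' →+* ℂ)
  {q M : ℕ} [NeZero q] [NeZero M] [NeZero (M * q)] [NeZero (M * q * q)]
  (hq : q.Prime) (hqM : ¬ q ∣ M)
  {ζ : E'ˣ} (h : S36MidEmb E' q M ζ) (z : A'ˣ) (hz : Units.map (ι' : A' →* E') z = ζ)

/-- expansion at the middle cusp of an element whose base change lies in `F_{Mq}(E')` -/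
theorem s36cg_embC_low (x : modularFunctionFieldFullC E (M * q * q))
    (hx : coeffMap ψ (x : LaurentSeries E) ∈ modularFunctionFieldFullC E' (M * q)) :
    s36n2EmbC ψ h x = coeffMap ψ (x : LaurentSeries E) := by
  rw [s36n2EmbC_apply]
  have e1 : mgaCoeffHom ψ (M * q * q) x =
      ⟨coeffMap ψ (x : LaurentSeries E), s36mid_low_le hx⟩ :=
    Subtype.ext (mgaCoeffHom_coe ψ _ x)
  rw [e1]
  exact h.emb_of_mem_low hx

include ιK hq hqM in
/-- expansion at the middle cusp of `Π_f = f(Q^{q²}) − f`, `f ∈ F_M(E')` -/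
theorem s36cg_embC_Pi (hζq : ζ ^ q = 1) {f : LaurentSeries E'}
    (hf : f ∈ modularFunctionFieldFullC E' M)
    (X : modularFunctionFieldFullC E (M * q * q))
    (hX : coeffMap ψ (X : LaurentSeries E) = qExpand E' q (qExpand E' q f) - f) :
    s36n2EmbC ψ h X = kronRot ζ f - f := by
  rw [s36n2EmbC_apply]
  have e1 : mgaCoeffHom ψ (M * q * q) X =
      ⟨qExpand E' q (qExpand E' q f) - f, s36th_Pi_mem hf⟩ :=
    Subtype.ext ((mgaCoeffHom_coe ψ _ X).trans hX)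
  rw [e1]
  exact s36th_emb_Pi ιK hq hqM h hζq hf

include hz in
theorem s36cg_zeta_pow (hζ : IsPrimitiveRoot (z : A') q) : ζ ^ q = 1 := by
  rw [← hz, ← map_pow]
  have h1 : z ^ q = 1 := by
    apply Units.ext
    rw [Units.val_pow_eq_pow_val, hζ.pow_eq_one, Units.val_one]
  rw [h1, map_one]

/-- the valuation subring `V_c` is the preimage of the Gauss ring -/
theorem s36cg_mem_nonunits_iff {x : modularFunctionFieldFullC E (M * q * q)} :
    x ∈ (s36n2VC hB' ψ hq h z hz).nonunits ↔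
      ∃ hm : s36n2EmbC ψ h x ∈ gaussRing ι' r',
        gaussRed r' hB'.inj ⟨s36n2EmbC ψ h x, hm⟩ = 0 :=
  vtSub_mem_nonunits_iff hB' (s36n2EmbC ψ h) (fun _ => s36n2_frac_emb hB' hq h z hz _)

/-- an element with an integral expansion is in `V_c` and its reduction is the reduced series -/
theorem s36cg_red_of_eq {x : modularFunctionFieldFullC E (M * q * q)} {S : LaurentSeries A'}
    (hx : s36n2EmbC ψ h x = coeffMap ι' S) :
    ∃ hm : s36n2EmbC ψ h x ∈ gaussRing ι' r',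
      gaussRed r' hB'.inj ⟨s36n2EmbC ψ h x, hm⟩ = coeffMap r' S := by
  have hm : s36n2EmbC ψ h x ∈ gaussRing ι' r' := by
    rw [hx]; exact coeffMap_mem_gaussRing ι' r' S
  refine ⟨hm, ?_⟩
  have e1 : (⟨s36n2EmbC ψ h x, hm⟩ : gaussRing ι' r') =
      ⟨coeffMap ι' S, coeffMap_mem_gaussRing ι' r' S⟩ := Subtype.ext hx
  rw [e1, gaussRed_coeffMap]

/-- membership in `V_c` from membership of the expansion in the Gauss ring -/
theorem s36cg_mem_of {x : modularFunctionFieldFullC E (M * q * q)}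
    (hm : s36n2EmbC ψ h x ∈ gaussRing ι' r') : x ∈ s36n2VC hB' ψ hq h z hz := hm

/-- an element of `V_c` with nonzero reduction is a unit of `V_c` -/
theorem s36cg_valuation_eq_one {x : modularFunctionFieldFullC E (M * q * q)}
    (hm : s36n2EmbC ψ h x ∈ gaussRing ι' r')
    (hne : gaussRed r' hB'.inj ⟨s36n2EmbC ψ h x, hm⟩ ≠ 0) :
    (s36n2VC hB' ψ hq h z hz).valuation x = 1 := by
  have hle : (s36n2VC hB' ψ hq h z hz).valuation x ≤ 1 :=
    ((s36n2VC hB' ψ hq h z hz).valuation_le_one_iff x).mpr hm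
  refine le_antisymm hle ?_
  by_contra hlt
  rw [not_le] at hlt
  have hnu : x ∈ (s36n2VC hB' ψ hq h z hz).nonunits :=
    (ValuationSubring.mem_nonunits_iff _).mpr hlt
  obtain ⟨hm', h0⟩ := (s36cg_mem_nonunits_iff hB' ψ hq h z hz).mp hnu
  exact hne h0

/-! ### the three expansions -/

section Exp

variable (hζ : IsPrimitiveRoot (z : A') q) (hr : r' (z : A') = 1) (hq0 : (q : A') ≠ 0)
  (X T : modularFunctionFieldFullC E (M * q * q))

include ιK in
/-- the expansion of `T = u_q` -/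
theorem s36cg_emb_T (hT : (T : LaurentSeries E) = uS E q) :
    s36n2EmbC ψ h T = coeffMap ι' (uS A' q) := by
  have h1 : coeffMap ψ (T : LaurentSeries E) = uS E' q := by
    rw [hT, coeffMap_uS]
  rw [s36cg_embC_low ψ h T (by rw [h1]; exact s36tu_uS_mem E' ιK M q), h1, coeffMap_uS]

include ιK in
/-- `T = u_q ∈ V_c`, with reduction `ū_q` -/
theorem s36cg_T_red (hT : (T : LaurentSeries E) = uS E q) :
    ∃ hm : s36n2EmbC ψ h T ∈ gaussRing ι' r',
      gaussRed r' hB'.inj ⟨s36n2EmbC ψ h T, hm⟩ = uS k' q := by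
  obtain ⟨hm, hred⟩ := s36cg_red_of_eq hB' ψ h (s36cg_emb_T ψ ιK h T hT)
  exact ⟨hm, by rw [hred, coeffMap_uS]⟩

include ιK in
/-- `T ∈ V_c` -/
theorem s36cg_T_mem (hT : (T : LaurentSeries E) = uS E q) :
    T ∈ s36n2VC hB' ψ hq h z hz :=
  (s36cg_T_red hB' ψ ιK h T hT).1

include ιK in
/-- `T` is a unit of `V_c` -/
theorem s36cg_T_unit (hT : (T : LaurentSeries E) = uS E q) :
    (s36n2VC hB' ψ hq h z hz).valuation T = 1 := by
  obtain ⟨hm, hred⟩ := s36cg_T_red hB' ψ ιK h T hT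
  refine s36cg_valuation_eq_one hB' ψ hq h z hz hm ?_
  rw [hred]
  exact uS_ne_zero q k'

end Exp

/-! ### level 4 -/

section Four

variable (hζ : IsPrimitiveRoot (z : A') q) (hr : r' (z : A') = 1) (hq0 : (q : A') ≠ 0)
  (h4 : 4 ∣ M) (hM : (M : E') ≠ 0)
  (X t T : modularFunctionFieldFullC E (M * q * q))

include h4 hM in
/-- the expansion of `t = t₄` -/
theorem s36cg_emb_t4 (ht : (t : LaurentSeries E) = s36rig_t4 E) :
    s36n2EmbC ψ h t = coeffMap ι' (s36cgT4 A') := by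
  have h1 : coeffMap ψ (t : LaurentSeries E) = s36rig_t4 E' := by
    rw [ht, s36cg_coeffMap_t4]
  have hf : s36rig_t4 E' ∈ modularFunctionFieldFullC E' M := s36rig_t4_mem E' h4 hM
  rw [s36cg_embC_low ψ h t (by rw [h1]; exact full_degeneracyC_le E' (Dvd.intro q rfl) hf), h1,
    s36cgT4_coeffMap]

include h4 hM in
/-- `t₄ ∈ V_c` with reduction `t̄₄` -/
theorem s36cg_t4_red (ht : (t : LaurentSeries E) = s36rig_t4 E) :
    ∃ hm : s36n2EmbC ψ h t ∈ gaussRing ι' r',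
      gaussRed r' hB'.inj ⟨s36n2EmbC ψ h t, hm⟩ = s36rig_t4 k' := by
  obtain ⟨hm, hred⟩ := s36cg_red_of_eq hB' ψ h (s36cg_emb_t4 ψ h h4 hM t ht)
  exact ⟨hm, by rw [hred, s36cgT4_coeffMap]⟩

include h4 hM in
theorem s36cg_t4_mem (ht : (t : LaurentSeries E) = s36rig_t4 E) :
    t ∈ s36n2VC hB' ψ hq h z hz :=
  (s36cg_t4_red hB' ψ h h4 hM t ht).1

include ιK hq hqM hz hζ hr hq0 h4 hM in
/-- `U = X^(q−1)/q ∈ V_c`, with reduction `−(θ t̄₄)^(q−1)` -/
theorem s36cg_U4_red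
    (hX : (X : LaurentSeries E) = qExpand E q (qExpand E q (s36rig_t4 E)) - s36rig_t4 E) :
    ∃ hm : s36n2EmbC ψ h (X ^ (q - 1) / (q : modularFunctionFieldFullC E (M * q * q))) ∈
        gaussRing ι' r',
      gaussRed r' hB'.inj ⟨_, hm⟩ = -(thetaFun (s36rig_t4 k')) ^ (q - 1) := by
  have hf : s36rig_t4 E' ∈ modularFunctionFieldFullC E' M := s36rig_t4_mem E' h4 hM
  have hX' : coeffMap ψ (X : LaurentSeries E) =
      qExpand E' q (qExpand E' q (s36rig_t4 E')) - s36rig_t4 E' := by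
    rw [hX, map_sub, ModularCurve.coeffMap_qExpand, ModularCurve.coeffMap_qExpand,
      s36cg_coeffMap_t4]
  have heX : s36n2EmbC ψ h X =
      kronRot (Units.map (ι' : A' →* E') z) (coeffMap ι' (s36cgT4 A')) -
        coeffMap ι' (s36cgT4 A') := by
    rw [s36cg_embC_Pi ψ ιK hq hqM h (s36cg_zeta_pow z hz hζ) hf X hX', hz, s36cgT4_coeffMap]
  have hc := s36th_natCast_emb (A := A') (s36n2EmbC ψ h) ι' q
  obtain ⟨hm, hred⟩ := s36th_pow_div_mem hB' (s36n2EmbC ψ h) hq hζ hr heX hc hq0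
  exact ⟨hm, by rw [hred, s36cgT4_coeffMap]⟩

include ιK hq hqM hz hζ hr hq0 h4 hM in
theorem s36cg_U4_mem
    (hX : (X : LaurentSeries E) = qExpand E q (qExpand E q (s36rig_t4 E)) - s36rig_t4 E) :
    X ^ (q - 1) / (q : modularFunctionFieldFullC E (M * q * q)) ∈ s36n2VC hB' ψ hq h z hz :=
  (s36cg_U4_red hB' ψ ιK hq hqM h z hz hζ hr hq0 h4 hM X hX).1

include ιK hq hqM hz hζ hr hq0 h4 hM in
/-- **(b-CONG), `q` odd, level `4`**:
`(X^(q−1)/q)⁶ − (t² (t+16)⁵)^(q−1) · T ∈ 𝔪(V_c)`. -/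
theorem s36cg_cong_t4 (h2 : (2 : k') ≠ 0)
    (hX : (X : LaurentSeries E) = qExpand E q (qExpand E q (s36rig_t4 E)) - s36rig_t4 E)
    (ht : (t : LaurentSeries E) = s36rig_t4 E)
    (hT : (T : LaurentSeries E) = uS E q) :
    (X ^ (q - 1) / (q : modularFunctionFieldFullC E (M * q * q))) ^ 6 -
        (t ^ 2 * (t + 16) ^ 5) ^ (q - 1) * T ∈ (s36n2VC hB' ψ hq h z hz).nonunits := by
  haveI : Fact q.Prime := ⟨hq⟩
  haveI : CharP k' q :=
    (CharP.charP_iff_prime_eq_zero hq).mpr (s36th_natCast_red hq hζ r' hr)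
  obtain ⟨hUm, hUr⟩ := s36cg_U4_red hB' ψ ιK hq hqM h z hz hζ hr hq0 h4 hM X hX
  obtain ⟨htm, htr⟩ := s36cg_t4_red hB' ψ h h4 hM t ht
  obtain ⟨hTm, hTr⟩ := s36cg_T_red hB' ψ ιK h T hT
  rw [s36cg_mem_nonunits_iff]
  set e := s36n2EmbC ψ h with he
  set Ug : gaussRing ι' r' :=
    ⟨e (X ^ (q - 1) / (q : modularFunctionFieldFullC E (M * q * q))), hUm⟩ with hUg
  set tg : gaussRing ι' r' := ⟨e t, htm⟩ with htg
  set Tg : gaussRing ι' r' := ⟨e T, hTm⟩ with hTg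
  have hZ : ((Ug ^ 6 - (tg ^ 2 * (tg + 16) ^ 5) ^ (q - 1) * Tg : gaussRing ι' r') :
      LaurentSeries E') =
      e ((X ^ (q - 1) / (q : modularFunctionFieldFullC E (M * q * q))) ^ 6 -
        (t ^ 2 * (t + 16) ^ 5) ^ (q - 1) * T) := by
    simp only [map_sub, map_mul, map_pow, map_add, map_ofNat]
    rfl
  have hm : e ((X ^ (q - 1) / (q : modularFunctionFieldFullC E (M * q * q))) ^ 6 -
        (t ^ 2 * (t + 16) ^ 5) ^ (q - 1) * T) ∈ gaussRing ι' r' := by
    rw [← hZ]; exact Subtype.property _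
  refine ⟨hm, ?_⟩
  have e1 : (⟨_, hm⟩ : gaussRing ι' r') =
      Ug ^ 6 - (tg ^ 2 * (tg + 16) ^ 5) ^ (q - 1) * Tg := Subtype.ext hZ.symm
  rw [e1, map_sub, map_mul, map_pow, map_pow, map_mul, map_pow, map_pow, map_add, map_ofNat,
    hUr, htr, hTr]
  exact s36cg_red_t4 k' q h2

end Four

/-! ### level 9 -/

section Nine

variable (hζ : IsPrimitiveRoot (z : A') q) (hr : r' (z : A') = 1) (hq0 : (q : A') ≠ 0)
  (h9 : 9 ∣ M) (hM : (M : E') ≠ 0)
  (X t T : modularFunctionFieldFullC E (M * q * q))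

include h9 hM in
/-- the expansion of `t = t₉` -/
theorem s36cg_emb_t9 (ht : (t : LaurentSeries E) = s36rig_t9 E) :
    s36n2EmbC ψ h t = coeffMap ι' (s36cgT9 A') := by
  have h1 : coeffMap ψ (t : LaurentSeries E) = s36rig_t9 E' := by
    rw [ht, s36cg_coeffMap_t9]
  have hf : s36rig_t9 E' ∈ modularFunctionFieldFullC E' M := s36rig_t9_mem E' h9 hM
  rw [s36cg_embC_low ψ h t (by rw [h1]; exact full_degeneracyC_le E' (Dvd.intro q rfl) hf), h1,
    s36cgT9_coeffMap]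

include h9 hM in
/-- `t₉ ∈ V_c` with reduction `t̄₉` -/
theorem s36cg_t9_red (ht : (t : LaurentSeries E) = s36rig_t9 E) :
    ∃ hm : s36n2EmbC ψ h t ∈ gaussRing ι' r',
      gaussRed r' hB'.inj ⟨s36n2EmbC ψ h t, hm⟩ = s36rig_t9 k' := by
  obtain ⟨hm, hred⟩ := s36cg_red_of_eq hB' ψ h (s36cg_emb_t9 ψ h h9 hM t ht)
  exact ⟨hm, by rw [hred, s36cgT9_coeffMap]⟩

include h9 hM in
theorem s36cg_t9_mem (ht : (t : LaurentSeries E) = s36rig_t9 E) :
    t ∈ s36n2VC hB' ψ hq h z hz :=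
  (s36cg_t9_red hB' ψ h h9 hM t ht).1

include h9 hM in
/-- `t₉` is a unit of `V_c` (residue characteristic `≠ 3`) -/
theorem s36cg_t9_unit (h3 : (3 : k') ≠ 0) (ht : (t : LaurentSeries E) = s36rig_t9 E) :
    (s36n2VC hB' ψ hq h z hz).valuation t = 1 := by
  obtain ⟨hm, hred⟩ := s36cg_t9_red hB' ψ h h9 hM t ht
  refine s36cg_valuation_eq_one hB' ψ hq h z hz hm ?_
  rw [hred]
  exact s36cg_t9_ne_zero k' h3

include ιK hq hqM hz hζ hr hq0 h9 hM in
/-- `U = X^(q−1)/q ∈ V_c`, with reduction `−(θ t̄₉)^(q−1)` -/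
theorem s36cg_U9_red
    (hX : (X : LaurentSeries E) = qExpand E q (qExpand E q (s36rig_t9 E)) - s36rig_t9 E) :
    ∃ hm : s36n2EmbC ψ h (X ^ (q - 1) / (q : modularFunctionFieldFullC E (M * q * q))) ∈
        gaussRing ι' r',
      gaussRed r' hB'.inj ⟨_, hm⟩ = -(thetaFun (s36rig_t9 k')) ^ (q - 1) := by
  have hf : s36rig_t9 E' ∈ modularFunctionFieldFullC E' M := s36rig_t9_mem E' h9 hM
  have hX' : coeffMap ψ (X : LaurentSeries E) =
      qExpand E' q (qExpand E' q (s36rig_t9 E')) - s36rig_t9 E' := by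
    rw [hX, map_sub, ModularCurve.coeffMap_qExpand, ModularCurve.coeffMap_qExpand,
      s36cg_coeffMap_t9]
  have heX : s36n2EmbC ψ h X =
      kronRot (Units.map (ι' : A' →* E') z) (coeffMap ι' (s36cgT9 A')) -
        coeffMap ι' (s36cgT9 A') := by
    rw [s36cg_embC_Pi ψ ιK hq hqM h (s36cg_zeta_pow z hz hζ) hf X hX', hz, s36cgT9_coeffMap]
  have hc := s36th_natCast_emb (A := A') (s36n2EmbC ψ h) ι' q
  obtain ⟨hm, hred⟩ := s36th_pow_div_mem hB' (s36n2EmbC ψ h) hq hζ hr heX hc hq0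
  exact ⟨hm, by rw [hred, s36cgT9_coeffMap]⟩

include ιK hq hqM hz hζ hr hq0 h9 hM in
theorem s36cg_U9_mem
    (hX : (X : LaurentSeries E) = qExpand E q (qExpand E q (s36rig_t9 E)) - s36rig_t9 E) :
    X ^ (q - 1) / (q : modularFunctionFieldFullC E (M * q * q)) ∈ s36n2VC hB' ψ hq h z hz :=
  (s36cg_U9_red hB' ψ ιK hq hqM h z hz hζ hr hq0 h9 hM X hX).1

include ιK hq hqM hz hζ hr hq0 h9 hM in
/-- **(b-CONG), level `9`** (used for `q = 2`):
`(X^(q−1)/q)⁶ · (t³)^(q−1) − ((t² + 9t + 27)⁵)^(q−1) · T ∈ 𝔪(V_c)`. -/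
theorem s36cg_cong_t9 (h3 : (3 : k') ≠ 0)
    (hX : (X : LaurentSeries E) = qExpand E q (qExpand E q (s36rig_t9 E)) - s36rig_t9 E)
    (ht : (t : LaurentSeries E) = s36rig_t9 E)
    (hT : (T : LaurentSeries E) = uS E q) :
    (X ^ (q - 1) / (q : modularFunctionFieldFullC E (M * q * q))) ^ 6 * (t ^ 3) ^ (q - 1) -
        ((t ^ 2 + 9 * t + 27) ^ 5) ^ (q - 1) * T ∈ (s36n2VC hB' ψ hq h z hz).nonunits := by
  haveI : Fact q.Prime := ⟨hq⟩
  haveI : CharP k' q :=
    (CharP.charP_iff_prime_eq_zero hq).mpr (s36th_natCast_red hq hζ r' hr)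
  obtain ⟨hUm, hUr⟩ := s36cg_U9_red hB' ψ ιK hq hqM h z hz hζ hr hq0 h9 hM X hX
  obtain ⟨htm, htr⟩ := s36cg_t9_red hB' ψ h h9 hM t ht
  obtain ⟨hTm, hTr⟩ := s36cg_T_red hB' ψ ιK h T hT
  rw [s36cg_mem_nonunits_iff]
  set e := s36n2EmbC ψ h with he
  set Ug : gaussRing ι' r' :=
    ⟨e (X ^ (q - 1) / (q : modularFunctionFieldFullC E (M * q * q))), hUm⟩ with hUg
  set tg : gaussRing ι' r' := ⟨e t, htm⟩ with htg
  set Tg : gaussRing ι' r' := ⟨e T, hTm⟩ with hTg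
  have hZ : ((Ug ^ 6 * (tg ^ 3) ^ (q - 1) -
      ((tg ^ 2 + 9 * tg + 27) ^ 5) ^ (q - 1) * Tg : gaussRing ι' r') : LaurentSeries E') =
      e ((X ^ (q - 1) / (q : modularFunctionFieldFullC E (M * q * q))) ^ 6 * (t ^ 3) ^ (q - 1) -
        ((t ^ 2 + 9 * t + 27) ^ 5) ^ (q - 1) * T) := by
    simp only [map_sub, map_mul, map_pow, map_add, map_ofNat]
    rfl
  have hm : e ((X ^ (q - 1) / (q : modularFunctionFieldFullC E (M * q * q))) ^ 6 *
        (t ^ 3) ^ (q - 1) - ((t ^ 2 + 9 * t + 27) ^ 5) ^ (q - 1) * T) ∈ gaussRing ι' r' := by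
    rw [← hZ]; exact Subtype.property _
  refine ⟨hm, ?_⟩
  have e1 : (⟨_, hm⟩ : gaussRing ι' r') =
      Ug ^ 6 * (tg ^ 3) ^ (q - 1) - ((tg ^ 2 + 9 * tg + 27) ^ 5) ^ (q - 1) * Tg :=
    Subtype.ext hZ.symm
  rw [e1]
  simp only [map_sub, map_mul, map_pow, map_add, map_ofNat, hUr, htr, hTr]
  exact s36cg_red_t9 k' q h3

include ιK hq hqM hz hζ hr hq0 h9 hM in
/-- **(b-CONG), level `9`**, in the form `(X^(q−1)/q)⁶ − g ∈ 𝔪(V_c)`,
`g = ((t² + 9t + 27)⁵)^(q−1) · T / (t³)^(q−1)`. -/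
theorem s36cg_cong_t9' (h3 : (3 : k') ≠ 0)
    (hX : (X : LaurentSeries E) = qExpand E q (qExpand E q (s36rig_t9 E)) - s36rig_t9 E)
    (ht : (t : LaurentSeries E) = s36rig_t9 E)
    (hT : (T : LaurentSeries E) = uS E q) :
    (X ^ (q - 1) / (q : modularFunctionFieldFullC E (M * q * q))) ^ 6 -
        ((t ^ 2 + 9 * t + 27) ^ 5) ^ (q - 1) * T / (t ^ 3) ^ (q - 1) ∈
      (s36n2VC hB' ψ hq h z hz).nonunits := by
  have h1 := s36cg_cong_t9 hB' ψ ιK hq hqM h z hz hζ hr hq0 h9 hM X t T h3 hX ht hT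
  have hv := s36cg_t9_unit hB' ψ hq h z hz h9 hM t h3 ht
  have ht0 : t ≠ 0 := by
    rintro rfl
    rw [map_zero] at hv
    exact zero_ne_one hv
  have hd : (t ^ 3) ^ (q - 1) ≠ 0 := pow_ne_zero _ (pow_ne_zero _ ht0)
  have e1 : (X ^ (q - 1) / (q : modularFunctionFieldFullC E (M * q * q))) ^ 6 -
      ((t ^ 2 + 9 * t + 27) ^ 5) ^ (q - 1) * T / (t ^ 3) ^ (q - 1) =
      ((X ^ (q - 1) / (q : modularFunctionFieldFullC E (M * q * q))) ^ 6 * (t ^ 3) ^ (q - 1) -
        ((t ^ 2 + 9 * t + 27) ^ 5) ^ (q - 1) * T) / (t ^ 3) ^ (q - 1) := by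
    field_simp
  rw [e1, ValuationSubring.mem_nonunits_iff, map_div₀, map_pow, map_pow, hv, one_pow, one_pow,
    div_one]
  exact (ValuationSubring.mem_nonunits_iff _).mp h1

end Nine

end Gen

end Fermat.Agent.S36

end


end ZBS36_028_2

/-! ### bundled: `Fermat.Agent.S36.PtsTripleK` -/
section ZBS36_028_3

/-!
# S36 / (I6)(c): the Frobenius congruences (Ka), (Kb), (Kc) at the three vertical valuations
(helper37)

Setting of `S36/N2Val.lean` (`V = s36n2V hB hB' ψ ιC hq hqM h z hz`), plus a Frobenius lift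
`ψA : A →+* A`, `ψE : E →+* E`, `θ : k →+* k` (`θ = Frob⁻¹`), as in `UNIP/NodesFrobInst.lean`.

Series level (any `x` in the Gauss ring):
* `s36ptk_series_frob` : `x(Q^{q²}) − (ψE² x)^{q²}` has reduction `0`;
* `s36ptk_series_rot`  : `x(ζ Q) − x` has reduction `0` if `ζ ≡ 1`.

Valuation level, for `c ∈ F_M` in the Gauss ring and elements `u, v` of `F = F_{M q²}` given by
their expansions:
* **`s36ptk_Ka`** : `u = c(Q^{q²})`, `v = ψE² c`  ⇒ `u − v ^ q² ∈ 𝔪(V_a)`;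
* **`s36ptk_Kb`** : `u = c`, `v = (ψE² c)(Q^{q²})` ⇒ `u − v ^ q² ∈ 𝔪(V_b)`;
* **`s36ptk_Kc`** : `u = c(Q^{q²})`, `v = c`      ⇒ `u − v ∈ 𝔪(V_c)`.
-/

set_option autoImplicit false
set_option linter.unusedSectionVars false
set_option linter.unusedVariables false
set_option linter.style.haveILetI false

noncomputable section

namespace Fermat.Agent.S36

open ModularCurve Fermat.Agent.UNIP Fermat.Agent.INJ Fermat.Agent.AL Fermat.Agent.ES

/-! ### A. series level -/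

section Series

variable {A E k : Type*} [CommRing A] [Field E] [Field k]
  {ι : A →+* E} {r : A →+* k}

/-- `x(Q^{q²}) ≡ (ψE² x)^{q²}` in the Gauss ring. -/
theorem s36ptk_series_frob (hι : Function.Injective ι) (q : ℕ) [hq : Fact q.Prime] [NeZero q]
    [CharP k q] (ψA : A →+* A) (ψE : E →+* E) (θ : k →+* k)
    (hψ : ∀ a, ψE (ι a) = ι (ψA a)) (hθ : ∀ a, r (ψA a) = θ (r a)) (hθq : ∀ x, θ x ^ q = x)
    {x : LaurentSeries E} (hx : x ∈ gaussRing ι r) :
    ∃ h : qExpand E q (qExpand E q x) - (coeffMap ψE (coeffMap ψE x)) ^ (q ^ 2) ∈ gaussRing ι r,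
      gaussRed r hι ⟨_, h⟩ = 0 := by
  have h1 : qExpand E q x ∈ gaussRing ι r := s36n2_qExpand_mem q hx
  have h2 : qExpand E q (qExpand E q x) ∈ gaussRing ι r := s36n2_qExpand_mem q h1
  have h3 : coeffMap ψE x ∈ gaussRing ι r := frStab_mem_gaussRing ι r ψA ψE θ hψ hθ hx
  have h4 : coeffMap ψE (coeffMap ψE x) ∈ gaussRing ι r :=
    frStab_mem_gaussRing ι r ψA ψE θ hψ hθ h3
  have hmem : qExpand E q (qExpand E q x) - (coeffMap ψE (coeffMap ψE x)) ^ (q ^ 2) ∈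
      gaussRing ι r := (gaussRing ι r).sub_mem h2 ((gaussRing ι r).pow_mem h4 _)
  refine ⟨hmem, ?_⟩
  have e0 : (⟨_, hmem⟩ : gaussRing ι r) =
      ⟨qExpand E q (qExpand E q x), h2⟩ - ⟨coeffMap ψE (coeffMap ψE x), h4⟩ ^ (q ^ 2) := rfl
  have e1 : gaussRed r hι ⟨qExpand E q (qExpand E q x), h2⟩ =
      qExpand k q (qExpand k q (gaussRed r hι ⟨x, hx⟩)) := by
    have a1 := s36n2_gaussRed_qExpand (r := r) hι q ⟨qExpand E q x, h1⟩
    have a2 := s36n2_gaussRed_qExpand (r := r) hι q ⟨x, hx⟩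
    rw [a2] at a1
    exact a1
  have e2 : gaussRed r hι ⟨coeffMap ψE (coeffMap ψE x), h4⟩ =
      coeffMap θ (coeffMap θ (gaussRed r hι ⟨x, hx⟩)) := by
    have a1 := frStab_gaussRed r ψA ψE θ hι hψ hθ ⟨coeffMap ψE x, h3⟩
    have a2 := frStab_gaussRed r ψA ψE θ hι hψ hθ ⟨x, hx⟩
    rw [a2] at a1
    exact a1
  rw [e0, map_sub, map_pow, e1, e2, s36th_qExpand_sq_frob q θ hθq, sub_self]

/-- `x(ζ Q) ≡ x` in the Gauss ring, if `ζ ≡ 1`. -/
theorem s36ptk_series_rot (hι : Function.Injective ι) (z : Aˣ) (hz1 : r (z : A) = 1)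
    {x : LaurentSeries E} (hx : x ∈ gaussRing ι r) :
    ∃ h : kronRot (Units.map (ι : A →* E) z) x - x ∈ gaussRing ι r,
      gaussRed r hι ⟨_, h⟩ = 0 := by
  have h1 : kronRot (Units.map (ι : A →* E) z) x ∈ gaussRing ι r := s36n2_kronRot_mem z hx
  have hmem : kronRot (Units.map (ι : A →* E) z) x - x ∈ gaussRing ι r :=
    (gaussRing ι r).sub_mem h1 hx
  refine ⟨hmem, ?_⟩
  have e0 : (⟨_, hmem⟩ : gaussRing ι r) =
      ⟨kronRot (Units.map (ι : A →* E) z) x, h1⟩ - ⟨x, hx⟩ := rfl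
  obtain ⟨T, b, hb, h⟩ := hx
  have hrz : Units.map (r : A →* k) z = 1 := by
    apply Units.ext
    show r (z : A) = 1
    exact hz1
  have hb' : coeffMap r (kronRot z b) ≠ 0 := by
    rw [coeffMap_kronRot]
    exact s36n2_kronRot_ne_zero _ hb
  have e1 : gaussRed r hι ⟨kronRot (Units.map (ι : A →* E) z) x, h1⟩ =
      coeffMap r T / coeffMap r b := by
    rw [gaussRed_eq r hι _ (kronRot z T) (kronRot z b) hb'
      (by
        show coeffMap ι (kronRot z b) * kronRot (Units.map (ι : A →* E) z) x = _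
        rw [← s36n2_kronRot_coeffMap, ← s36n2_kronRot_coeffMap, ← map_mul, h]),
      coeffMap_kronRot, coeffMap_kronRot, hrz, kronRot_one, kronRot_one]
  rw [e0, map_sub, e1, gaussRed_eq r hι ⟨x, ⟨T, b, hb, h⟩⟩ T b hb h, sub_self]

end Series

/-! ### B. valuation level -/

section Val

variable {A E k A' E' k' : Type*} [CommRing A] [IsDomain A] [Field E] [Algebra A E]
  [IsFractionRing A E] [Field k] [CommRing A'] [Field E'] [Field k']
  {r : A →+* k} {π : A} {ι' : A' →+* E'} {r' : A' →+* k'} {π' : A'}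
  (hB : VtBase (algebraMap A E) r π) (hB' : VtBase ι' r' π')
  (ψ : E →+* E') (ιC : E →+* ℂ) (ιK : E' →+* ℂ)
  {q M : ℕ} [NeZero q] [NeZero M] [NeZero (M * q)] [NeZero (M * q * q)]
  (hq : q.Prime) (hqM : ¬ q ∣ M)
  {ζ : E'ˣ} (h : S36MidEmb E' q M ζ) (z : A'ˣ) (hz : Units.map (ι' : A' →* E') z = ζ)

/-- an element whose expansion has reduction `0` is a nonunit of the vertical valuation -/
theorem s36ptk_nonunits_of_series {A E k F : Type*} [CommRing A] [Field E] [Field k] [Field F]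
    {ι : A →+* E} {r : A →+* k} {π : A} (hB : VtBase ι r π) (e : F →+* LaurentSeries E)
    (hfrac : ∀ x : F, VtFrac ι (e x)) {x : F} {y : LaurentSeries E} (hxy : e x = y)
    (hy : ∃ h : y ∈ gaussRing ι r, gaussRed r hB.inj ⟨y, h⟩ = 0) :
    x ∈ (vtSub hB e hfrac).nonunits := by
  subst hxy
  exact (vtSub_mem_nonunits_iff hB e hfrac).mpr hy

/-- **(Ka)**: `c(Q^{q²}) ≡ (ψE² c)^{q²}` at `V_a`. -/
theorem s36ptk_Ka [Fact q.Prime] [CharP k q] (ψA : A →+* A) (ψE : E →+* E) (θ : k →+* k)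
    (hψ : ∀ a, ψE (algebraMap A E a) = algebraMap A E (ψA a))
    (hθ : ∀ a, r (ψA a) = θ (r a)) (hθq : ∀ x, θ x ^ q = x)
    {c : LaurentSeries E} (hc : c ∈ gaussRing (algebraMap A E) r)
    (u v : modularFunctionFieldFullC E (M * q * q))
    (hu : (u : LaurentSeries E) = qExpand E q (qExpand E q c))
    (hv : (v : LaurentSeries E) = coeffMap ψE (coeffMap ψE c)) :
    u - v ^ (q ^ 2) ∈ (s36n2VA (q := q) (M := M) hB).nonunits := by
  refine s36ptk_nonunits_of_series hB (vtEmb E (M * q * q))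
    (fun x => vt_frac_fullC hB (M * q * q) x.2) ?_
    (s36ptk_series_frob hB.inj q ψA ψE θ hψ hθ hθq hc)
  rw [map_sub, map_pow, vtEmb_apply, vtEmb_apply, hu, hv]

/-- **(Kb)**: `c ≡ ((ψE² c)(Q^{q²}))^{q²}` at `V_b`. -/
theorem s36ptk_Kb [Fact q.Prime] [CharP k q] (ψA : A →+* A) (ψE : E →+* E) (θ : k →+* k)
    (hψ : ∀ a, ψE (algebraMap A E a) = algebraMap A E (ψA a))
    (hθ : ∀ a, r (ψA a) = θ (r a)) (hθq : ∀ x, θ x ^ q = x)
    {c : LaurentSeries E} (hcM : c ∈ modularFunctionFieldFullC E M)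
    (hc : c ∈ gaussRing (algebraMap A E) r)
    (u v : modularFunctionFieldFullC E (M * q * q))
    (hu : (u : LaurentSeries E) = c)
    (hv : (v : LaurentSeries E) = qExpand E q (qExpand E q (coeffMap ψE (coeffMap ψE c)))) :
    u - v ^ (q ^ 2) ∈ (s36n2VB hB ιC hq hqM).nonunits := by
  have hc' : coeffMap ψE (coeffMap ψE c) ∈ modularFunctionFieldFullC E M :=
    al_coeffMap_mem E M ψE (al_coeffMap_mem E M ψE hcM)
  refine s36ptk_nonunits_of_series hB (s36n2EmbB ιC hq hqM)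
    (fun x => vt_frac_fullC hB (M * q * q) (s36n2W E ιC hq hqM x).2) ?_
    (s36ptk_series_frob hB.inj q ψA ψE θ hψ hθ hθq hc)
  have eu : u = ⟨c, s36n2_mem_of_mem_base E hcM⟩ := Subtype.ext hu
  have ev : v = ⟨qExpand E q (qExpand E q (coeffMap ψE (coeffMap ψE c))),
      alq_qExpand_mem E (al_qExpand_mem E hc')⟩ := Subtype.ext hv
  rw [map_sub, map_pow, s36n2EmbB_apply, s36n2EmbB_apply, eu, ev,
    s36n2W_base E ιC hq hqM hcM, s36n2W_qExpand_sq E ιC hq hqM hc']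

include ιK hqM in
/-- **(Kc)**: `c(Q^{q²}) ≡ c` at `V_c`. -/
theorem s36ptk_Kc {κ : k →+* k'} (hcomp : VtCompat (algebraMap A E) r ι' r' ψ κ)
    (hζq : ζ ^ q = 1) (hz1 : r' (z : A') = 1)
    {c : LaurentSeries E} (hcM : c ∈ modularFunctionFieldFullC E M)
    (hc : c ∈ gaussRing (algebraMap A E) r)
    (u v : modularFunctionFieldFullC E (M * q * q))
    (hu : (u : LaurentSeries E) = qExpand E q (qExpand E q c))
    (hv : (v : LaurentSeries E) = c) :
    u - v ∈ (s36n2VC hB' ψ hq h z hz).nonunits := by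
  have hf : coeffMap ψ c ∈ modularFunctionFieldFullC E' M := nf_coeffMap_mem_fullC ψ M hcM
  have hfG : coeffMap ψ c ∈ gaussRing ι' r' := vt_compat_mem hcomp hc
  have hrot := s36ptk_series_rot (r := r') hB'.inj z hz1 hfG
  rw [hz] at hrot
  refine s36ptk_nonunits_of_series hB' (s36n2EmbC ψ h)
    (fun _ => s36n2_frac_emb hB' hq h z hz _) ?_ hrot
  rw [s36n2EmbC_apply, ← s36th_emb_Pi ιK hq hqM h hζq hf]
  congr 1
  apply Subtype.ext
  show coeffMap ψ ((u : LaurentSeries E) - (v : LaurentSeries E)) = _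
  rw [hu, hv, map_sub, coeffMap_qExpand, coeffMap_qExpand]

end Val

end Fermat.Agent.S36

end


end ZBS36_028_3
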