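/- GENERATED FILE (helper35, build-time optimisation, NOTES/ZB.md): verbatim concatenation of the modules
   Fermat.Agent.S36.NormResAbs
   Do not edit; do not import together with these modules. -/
import Fermat.Agent.ZB.S36_006
import Fermat.Agent.ZB.S36_007
import Fermat.Agent.ZB.STB_001

/-! ### bundled: `Fermat.Agent.S36.NormResAbs` -/
section ZBS36_030_0

/-!
# S36 / G-nr, part 1 (helper20): the four norm–residue formulas from the conjugates — abstract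

`φ : F₁ →+* F` a finite separable embedding of fields (a degeneracy map `α` or `β`), `L` a field
(`K((Q))`), `𝔪 ⊆ L` an additive subgroup closed under multiplication (the kernel of the Gauss
reduction).  A valuation subring `V` of a field `F` is *cut out by* `e : F →+* L` if
`x ∈ 𝔪(V) ↔ e x ∈ 𝔪` (`vtSub_mem_nonunits_iff` for the vertical valuations of UNIP/MGVertGauss).

* `s36nr_prod_sub_one_mem` : a product of elements `≡ 1 mod 𝔪` is `≡ 1 mod 𝔪`;
* `s36nr_ngC_iff` : `NgC V x y ↔ e x / e y - 1 ∈ 𝔪`;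
* `s36nr_split` : **(split)**  `σ : J → (F →+* L)` the complete list of conjugates over
  `e₀ : F₁ →+* L` (`W` cut out by `e₀`), `V₁` cut out by `σ j₁`, `V₂` cut out by every `σ j`,
  `j ≠ j₁`:  `φ x₁ ≡ x` at `V₁`, `φ x₂ ≡ x` at `V₂` ⇒ `N x ≡ x₁ x₂ ^ (card J - 1)` at `W`;
* `s36nr_insep` : **(insep)**  `σ' : J' → (F →+* L)` the complete list of conjugates over
  `e₀'`, `V₃` cut out by `σ' j₃`, and all conjugates of a unit `x` of `V₃` are congruent
  (`σ' j x / σ' j₃ x ≡ 1 mod 𝔪`): `φ (N x) ≡ x ^ card J'` at `V₃`;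
* `s36nr_ngDir` : the package `NgDir φ N W V₁ V₂ V₃ (card J - 1) (card J')` of
  `S36/NormGlue.lean` (helper19) from these data and the two residue surjectivities.

`N = s36nrNorm φ : F →* F₁` is the norm for the algebra structure `φ.toAlgebra` (`stbNorm φ`).
-/

set_option autoImplicit false
set_option linter.style.haveILetI false
set_option linter.unusedSectionVars false

noncomputable section

namespace Fermat.Agent.S36

open Fermat.Agent.STB

section Norm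

variable {F₁ F : Type*} [Field F₁] [Field F]

/-- the norm along `φ` as a monoid homomorphism -/
def s36nrNorm (φ : F₁ →+* F) : F →* F₁ where
  toFun := stbNorm φ
  map_one' := stbNorm_one φ
  map_mul' := stbNorm_mul φ

@[simp]
theorem s36nrNorm_apply (φ : F₁ →+* F) (x : F) : s36nrNorm φ x = stbNorm φ x := rfl

end Norm

section Cong

variable {L : Type*} [Field L] (𝔪 : AddSubgroup L)
  (hmul : ∀ a b, a ∈ 𝔪 → b ∈ 𝔪 → a * b ∈ 𝔪)

include hmul in
/-- `a ≡ 1`, `b ≡ 1` ⇒ `a b ≡ 1` -/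
theorem s36nr_mul_sub_one_mem {a b : L} (ha : a - 1 ∈ 𝔪) (hb : b - 1 ∈ 𝔪) :
    a * b - 1 ∈ 𝔪 := by
  have e : a * b - 1 = (a - 1) * (b - 1) + (a - 1) + (b - 1) := by ring
  rw [e]
  exact 𝔪.add_mem (𝔪.add_mem (hmul _ _ ha hb) ha) hb

include hmul in
/-- a product of elements `≡ 1` is `≡ 1` -/
theorem s36nr_prod_sub_one_mem {J : Type*} (s : Finset J) (u : J → L)
    (hu : ∀ j ∈ s, u j - 1 ∈ 𝔪) : ∏ j ∈ s, u j - 1 ∈ 𝔪 := by
  classical
  induction s using Finset.induction_on with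
  | empty =>
    rw [Finset.prod_empty, sub_self]
    exact 𝔪.zero_mem
  | insert a s ha ih =>
    rw [Finset.prod_insert ha]
    exact s36nr_mul_sub_one_mem 𝔪 hmul (hu a (Finset.mem_insert_self a s))
      (ih fun j hj => hu j (Finset.mem_insert_of_mem hj))

variable {F : Type*} [Field F]

/-- multiplicative congruences at a valuation subring cut out by `e` -/
theorem s36nr_ngC_iff {V : ValuationSubring F} {e : F →+* L}
    (hV : ∀ x, x ∈ V.nonunits ↔ e x ∈ 𝔪) (x y : F) :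
    NgC V x y ↔ e x / e y - 1 ∈ 𝔪 := by
  unfold NgC
  rw [hV, map_sub, map_div₀, map_one]

end Cong

section Main

variable {F₁ F L : Type*} [Field F₁] [Field F] [Field L] (φ : F₁ →+* F)
  (hfin : StbFinite φ) (hsep : letI := φ.toAlgebra; Algebra.IsSeparable F₁ F)
  (𝔪 : AddSubgroup L) (hmul : ∀ a b, a ∈ 𝔪 → b ∈ 𝔪 → a * b ∈ 𝔪)

/-- the norm is the product of the conjugates (`stbNorm` form of `s36n2_hom_norm_eq_prod`) -/
theorem s36nr_norm_eq_prod (hfin : StbFinite φ)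
    (hsep : letI := φ.toAlgebra; Algebra.IsSeparable F₁ F) (e₀ : F₁ →+* L)
    {J : Type*} [Fintype J] (σ : J → F →+* L) (hσ : ∀ j z, σ j (φ z) = e₀ z)
    (hinj : Function.Injective σ) (hcard : Fintype.card J = stbDeg φ) (x : F) :
    e₀ (stbNorm φ x) = ∏ j, σ j x :=
  s36n2_hom_norm_eq_prod φ hfin hsep e₀ σ hσ hinj hcard x

include hfin hsep hmul in
/-- **(split)** -/
theorem s36nr_split (e₀ : F₁ →+* L) {W : ValuationSubring F₁}
    (hW : ∀ z, z ∈ W.nonunits ↔ e₀ z ∈ 𝔪)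
    {J : Type*} [Fintype J] [DecidableEq J] (σ : J → F →+* L) (hσ : ∀ j z, σ j (φ z) = e₀ z)
    (hinj : Function.Injective σ) (hcard : Fintype.card J = stbDeg φ)
    (j₁ : J) {V₁ V₂ : ValuationSubring F} (hV₁ : ∀ x, x ∈ V₁.nonunits ↔ σ j₁ x ∈ 𝔪)
    (hV₂ : ∀ j, j ≠ j₁ → ∀ x, x ∈ V₂.nonunits ↔ σ j x ∈ 𝔪)
    (x : F) (x₁ x₂ : F₁) (h₁ : NgC V₁ (φ x₁) x) (h₂ : NgC V₂ (φ x₂) x) :
    NgC W (stbNorm φ x) (x₁ * x₂ ^ (Fintype.card J - 1)) := by
  have hx0 : x ≠ 0 := h₁.ne_zero_right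
  have hnorm := s36nr_norm_eq_prod φ hfin hsep e₀ σ hσ hinj hcard x
  -- the factors
  set u : J → L := fun j => (if j = j₁ then e₀ x₁ else e₀ x₂) / σ j x with hu
  have hu1 : ∀ j ∈ (Finset.univ : Finset J), u j - 1 ∈ 𝔪 := by
    intro j _
    by_cases hj : j = j₁
    · subst hj
      have := (s36nr_ngC_iff 𝔪 hV₁ (φ x₁) x).1 h₁
      rw [hσ] at this
      simpa [hu] using this
    · have := (s36nr_ngC_iff 𝔪 (hV₂ j hj) (φ x₂) x).1 h₂
      rw [hσ] at this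
      simpa [hu, hj] using this
  have hprod := s36nr_prod_sub_one_mem 𝔪 hmul Finset.univ u hu1
  have e1 : ∏ j, u j = (∏ j, (if j = j₁ then e₀ x₁ else e₀ x₂)) / ∏ j, σ j x := by
    rw [hu, Finset.prod_div_distrib]
  have e2 : ∏ j : J, (if j = j₁ then e₀ x₁ else e₀ x₂) =
      e₀ x₁ * e₀ x₂ ^ (Fintype.card J - 1) := by
    rw [← Finset.mul_prod_erase Finset.univ _ (Finset.mem_univ j₁), if_pos rfl]
    congr 1
    rw [Finset.prod_congr rfl (g := fun _ => e₀ x₂)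
      (fun j hj => if_neg (Finset.ne_of_mem_erase hj)), Finset.prod_const,
      Finset.card_erase_of_mem (Finset.mem_univ j₁), Finset.card_univ]
  rw [e1, e2, ← hnorm, ← map_pow, ← map_mul] at hprod
  exact ((s36nr_ngC_iff 𝔪 hW _ _).2 hprod).symm

include hfin hsep hmul in
/-- **(insep)** -/
theorem s36nr_insep (e₀' : F₁ →+* L)
    {J' : Type*} [Fintype J'] (σ' : J' → F →+* L) (hσ' : ∀ j z, σ' j (φ z) = e₀' z)
    (hinj' : Function.Injective σ') (hcard' : Fintype.card J' = stbDeg φ)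
    (j₃ : J') {V₃ : ValuationSubring F} (hV₃ : ∀ x, x ∈ V₃.nonunits ↔ σ' j₃ x ∈ 𝔪)
    (hred : ∀ j x, V₃.valuation x = 1 → σ' j x / σ' j₃ x - 1 ∈ 𝔪)
    (x : F) (hx : V₃.valuation x = 1) :
    NgC V₃ (φ (stbNorm φ x)) (x ^ Fintype.card J') := by
  have hnorm := s36nr_norm_eq_prod φ hfin hsep e₀' σ' hσ' hinj' hcard' x
  have hprod := s36nr_prod_sub_one_mem 𝔪 hmul Finset.univ (fun j => σ' j x / σ' j₃ x)
    (fun j _ => hred j x hx)
  rw [Finset.prod_div_distrib, Finset.prod_const, Finset.card_univ, ← hnorm, ← hσ' j₃,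
    ← map_pow] at hprod
  exact (s36nr_ngC_iff 𝔪 hV₃ _ _).2 hprod

include hfin hsep hmul in
/-- **The norm–residue package of one degeneracy map, from the conjugates.** -/
theorem s36nr_ngDir (e₀ : F₁ →+* L) {W : ValuationSubring F₁}
    (hW : ∀ z, z ∈ W.nonunits ↔ e₀ z ∈ 𝔪)
    {J : Type*} [Fintype J] [DecidableEq J] (σ : J → F →+* L) (hσ : ∀ j z, σ j (φ z) = e₀ z)
    (hinj : Function.Injective σ) (hcard : Fintype.card J = stbDeg φ)
    (j₁ j₂ : J) (hj : j₂ ≠ j₁) {V₁ V₂ : ValuationSubring F}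
    (hV₁ : ∀ x, x ∈ V₁.nonunits ↔ σ j₁ x ∈ 𝔪)
    (hV₂ : ∀ j, j ≠ j₁ → ∀ x, x ∈ V₂.nonunits ↔ σ j x ∈ 𝔪)
    (e₀' : F₁ →+* L)
    {J' : Type*} [Fintype J'] (σ' : J' → F →+* L) (hσ' : ∀ j z, σ' j (φ z) = e₀' z)
    (hinj' : Function.Injective σ') (hcard' : Fintype.card J' = stbDeg φ)
    (j₃ : J') {V₃ : ValuationSubring F} (hV₃ : ∀ x, x ∈ V₃.nonunits ↔ σ' j₃ x ∈ 𝔪)
    (hred : ∀ j x, V₃.valuation x = 1 → σ' j x / σ' j₃ x - 1 ∈ 𝔪)
    (hsurj₁ : ∀ x, V₁.valuation x = 1 → ∃ z, NgC V₁ (φ z) x)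
    (hsurj₂ : ∀ x, V₂.valuation x = 1 → ∃ z, NgC V₂ (φ z) x) :
    NgDir φ (s36nrNorm φ) W V₁ V₂ V₃ (Fintype.card J - 1) (Fintype.card J') where
  map₁ z hz := by
    rw [hV₁, hσ]
    exact (hW z).1 hz
  map₂ z hz := by
    rw [hV₂ j₂ hj, hσ]
    exact (hW z).1 hz
  comap₁ z hz := by
    rw [hV₁, hσ] at hz
    exact (hW z).2 hz
  comap₂ z hz := by
    rw [hV₂ j₂ hj, hσ] at hz
    exact (hW z).2 hz
  surj₁ := hsurj₁
  surj₂ := hsurj₂
  split x x₁ x₂ _ _ h₁ h₂ :=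
    s36nr_split φ hfin hsep 𝔪 hmul e₀ hW σ hσ hinj hcard j₁ hV₁ hV₂ x x₁ x₂ h₁ h₂
  insep x hx :=
    s36nr_insep φ hfin hsep 𝔪 hmul e₀' σ' hσ' hinj' hcard' j₃ hV₃ hred x hx

end Main

end Fermat.Agent.S36

end
end ZBS36_030_0
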