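/- GENERATED FILE (helper35, build-time optimisation, NOTES/ZB.md): verbatim concatenation of the modules
   Fermat.Agent.S36.PlanGeo
   Fermat.Agent.S36.NormOrd
   Fermat.Agent.S36.N2ValI1
   Fermat.Agent.S36.N2ValRes
   Fermat.Agent.S36.NormOrdMain
   Fermat.Agent.S36.DescentNorm
   Fermat.Agent.S36.NormConj
   Fermat.Agent.S36.DescentTop
   Fermat.Agent.S36.TopSetting
   Fermat.Agent.S36.NormOrdFam
   Fermat.Agent.S36.NormOrdI3
   Fermat.Agent.S36.NormOrdData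
   Fermat.Agent.S36.TopB
   Fermat.Agent.S36.SmallPart
   Fermat.Agent.S36.N2KerInst
   Fermat.Agent.S36.N2ExtX
   Fermat.Agent.S36.N2ExtXMain
   Fermat.Agent.S36.SmallKR
   Fermat.Agent.S36.NormRes
   Fermat.Agent.S36.NormResMain
   Fermat.Agent.S36.NormResI4
   Fermat.Agent.S36.N2ValHne
   Fermat.Agent.S36.PtsFinal
   Do not edit; do not import together with these modules. -/
import Fermat.Agent.ZB.ES_005
import Fermat.Agent.ZB.STB_001
import Fermat.Agent.ZB.UNIP_007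
import Fermat.Agent.ZB.S36_020
import Fermat.Agent.ZB.S34_001
import Fermat.Agent.ZB.UNIP_014
import Fermat.Agent.ZB.S36_021
import Fermat.Agent.ZB.S36_025
import Fermat.Agent.ZB.INJ_025
import Fermat.Agent.ZB.INJ_005
import Fermat.Agent.ZB.S36_024
import Fermat.Agent.ZB.S36_007
import Fermat.Agent.ZB.S36_001
import Fermat.Agent.ZB.UNIP_001
import Fermat.Agent.ZB.S24_007
import Fermat.Agent.ZB.S36_026
import Fermat.Agent.ZB.UNIP_032
import Fermat.Agent.ZB.S28_002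
import Fermat.Agent.ZB.S36_027
import Fermat.Agent.ZB.S36_028
import Fermat.Agent.ZB.UNIP_010
import Fermat.Agent.ZB.STB_004
import Fermat.Agent.ZB.S36_030
import Fermat.Agent.ZB.S36_031

/-! ### bundled: `Fermat.Agent.S36.PlanGeo` -/
section ZBS36_022_0

/-!
# S36 geometry (G36-K): the interface of the assembly (deputy helper58)

Level convention of `NOTES/S36-N2.md`: `q` prime, `q ∤ M`,
`F″ = F_M(K)`, `F′ = F_{Mq}(K)`, `F = F_{Mqq}(K)` (`modularFunctionFieldFullC K _ ⊂ K((Q))`).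

* `s36Alpha K M q`, `s36Beta K M q : F′ →+* F` : the two degeneracy maps over ANY field `K`
  (`α` = inclusion, `β = qExpand K q`); norms are `STB.stbNorm (s36Alpha K M q)`,
  `STB.stbNorm (s36Beta K M q)`.
* `StmtCarayolSmallAt M q p A` : **(G36-K) over the small field** `E₀ = beta0Field A = ℚ̄^I`:
  a function `u ∈ F_{Mqq}(E₀)^×` with divisor in `p^n·Div` whose two norms to `F_{Mq}(E₀)` are
  constants times `p^n`-th powers has `u ^ c` = constant times a `p^n`-th power.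
  NO Galois action is left in this statement.
* G-desc (`S36/DescentTop.lean`): `StmtCarayolSmallAt M q p A` for all `A ∣ q` implies
  `StmtCarayolKummerAt (M * q) q p`.
-/

set_option autoImplicit false
set_option linter.unusedSectionVars false

noncomputable section

namespace Fermat.Agent.S36

open ModularCurve AlgebraicCurve Fermat.Agent.INJ Fermat.Agent.UNIP Fermat.Agent.STB
open Fermat.Agent.ES Fermat.Agent.ES.G2

section Maps

variable (K : Type*) [Field K] (M q : ℕ) [NeZero M] [NeZero q]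

/-- `α : F_{Mq}(K) → F_{Mqq}(K)`, the inclusion -/
def s36Alpha : modularFunctionFieldFullC K (M * q) →+* modularFunctionFieldFullC K (M * q * q) :=
  (IntermediateField.inclusion
    (full_degeneracyC_le K (Dvd.intro q rfl : M * q ∣ M * q * q))).toRingHom

/-- `β : F_{Mq}(K) → F_{Mqq}(K)`, `f ↦ f(Q^q)` -/
def s36Beta : modularFunctionFieldFullC K (M * q) →+* modularFunctionFieldFullC K (M * q * q) where
  toFun x := ⟨qExpand K q (x : LaurentSeries K), full_degeneracyC_map_le K (M * q) q ⟨x, x.2, rfl⟩⟩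
  map_one' := Subtype.ext (map_one (qExpand K q))
  map_mul' _ _ := Subtype.ext (map_mul (qExpand K q) _ _)
  map_zero' := Subtype.ext (map_zero (qExpand K q))
  map_add' _ _ := Subtype.ext (map_add (qExpand K q) _ _)

@[simp]
theorem coe_s36Alpha (x : modularFunctionFieldFullC K (M * q)) :
    ((s36Alpha K M q x : modularFunctionFieldFullC K (M * q * q)) : LaurentSeries K)
      = (x : LaurentSeries K) :=
  IntermediateField.coe_inclusion _ x

@[simp]
theorem coe_s36Beta (x : modularFunctionFieldFullC K (M * q)) :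
    ((s36Beta K M q x : modularFunctionFieldFullC K (M * q * q)) : LaurentSeries K)
      = qExpand K q (x : LaurentSeries K) := rfl

end Maps

section Small

variable (M q p : ℕ) [NeZero M] [NeZero q] (A : ValuationSubring Qb)

/-- **(G36-K) over the small field** `E₀ = ℚ̄^I` (`I` the inertia group of `A ∣ q`). -/
def StmtCarayolSmallAt : Prop :=
  ∃ c : ℕ, c ≠ 0 ∧
    ∀ (n : ℕ) (u : modularFunctionFieldFullC (beta0Field A) (M * q * q)), u ≠ 0 →
      (∀ P : Place (beta0Field A) (modularFunctionFieldFullC (beta0Field A) (M * q * q)),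
        ((p ^ n : ℕ) : ℤ) ∣ P.ord u) →
      (∃ (a : beta0Field A) (f : modularFunctionFieldFullC (beta0Field A) (M * q)),
        stbNorm (s36Alpha (beta0Field A) M q) u =
          algebraMap (beta0Field A) (modularFunctionFieldFullC (beta0Field A) (M * q)) a
            * f ^ (p ^ n)) →
      (∃ (a : beta0Field A) (f : modularFunctionFieldFullC (beta0Field A) (M * q)),
        stbNorm (s36Beta (beta0Field A) M q) u =
          algebraMap (beta0Field A) (modularFunctionFieldFullC (beta0Field A) (M * q)) a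
            * f ^ (p ^ n)) →
      ∃ (a : beta0Field A) (h : modularFunctionFieldFullC (beta0Field A) (M * q * q)),
        u ^ c =
          algebraMap (beta0Field A) (modularFunctionFieldFullC (beta0Field A) (M * q * q)) a
            * h ^ (p ^ n)

end Small

end Fermat.Agent.S36

end
end ZBS36_022_0

/-! ### bundled: `Fermat.Agent.S36.NormOrd` -/
section ZBS36_022_1

/-!
# S36 / G-nr-ord, part 3: the orders `va vb vc winf w0` and the four norm–order formulas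
(helper31)

Generic setting: fields `E ⊂ K` (`ψ : E →+* K`), bases `(A₀, ι₀, r₀, π₀)` of `E` and
`(A₁, ι₁, r₁, π₁)` of `K` with `π₀ = unit · π₁ ^ (q − 1)`, `ζ ∈ A₁ˣ` a primitive `q`-th root of
unity, and for every `1 ≤ b < q` an automorphism of `K/E` with `ζ ↦ ζ ^ b` preserving the
integral structure (`S36NoData`).  Level convention of `PlanGeo.lean`:
`F′ = F_{Mq}(E)`, `F = F_{Mqq}(E)`.

* `s36noVa`, `s36noVb`, `s36noVc`, `s36noWinf`, `s36noW0` : the `ℤ`-valued orders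
  (`va π = 1`, `vb π = 1`, `vc π = q − 1`; `winf π = w0 π = 1`);
* `s36no_alpha_inf : winf (Nα x) = va x + vc x`,   `s36no_alpha_zero : w0 (Nα x) = q · vb x`,
  `s36no_beta_inf  : winf (Nβ x) = q · va x`,      `s36no_beta_zero  : w0 (Nβ x) = vc x + vb x`
  from the four norm PRODUCT formulas (helper95, `S36/NormConj.lean`), taken as hypotheses here.
-/

set_option autoImplicit false
set_option linter.unusedSectionVars false
set_option linter.unusedVariables false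

noncomputable section

namespace Fermat.Agent.S36

open ModularCurve Fermat.Agent.INJ Fermat.Agent.UNIP Fermat.Agent.ES Fermat.Agent.AL
open Fermat.Agent.STB

section Data

variable {A₀ E k₀ A₁ K k₁ : Type*} [CommRing A₀] [Field E] [Field k₀]
  [CommRing A₁] [Field K] [Field k₁]

/-- the arithmetic data of G-nr-ord -/
structure S36NoData (ι₀ : A₀ →+* E) (r₀ : A₀ →+* k₀) (π₀ : A₀) (ι₁ : A₁ →+* K)
    (r₁ : A₁ →+* k₁) (π₁ : A₁) (ψ : E →+* K) (q : ℕ) (ζ : Kˣ) : Prop where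
  hB₀ : VtBase ι₀ r₀ π₀
  hB₁ : VtBase ι₁ r₁ π₁
  compat : ∃ κ : k₀ →+* k₁, VtCompat ι₀ r₀ ι₁ r₁ ψ κ
  ram : S36IsOrd ι₁ r₁ π₁ (HahnSeries.C (ψ (ι₀ π₀)) : LaurentSeries K) ((q : ℤ) - 1)
  zeta : ∃ z : A₁ˣ, ι₁ z = ζ
  gal : ∀ b : ℕ, 1 ≤ b → b < q → ∃ (σ : K →+* K) (κ' : k₁ →+* k₁),
    (∀ x, σ (ψ x) = ψ x) ∧ σ (ζ : K) = ((ζ ^ b : Kˣ) : K) ∧ VtCompat ι₁ r₁ ι₁ r₁ σ κ' ∧
      S36IsOrd ι₁ r₁ π₁ (HahnSeries.C (σ (ι₁ π₁)) : LaurentSeries K) 1

variable {ι₀ : A₀ →+* E} {r₀ : A₀ →+* k₀} {π₀ : A₀} {ι₁ : A₁ →+* K}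
  {r₁ : A₁ →+* k₁} {π₁ : A₁} {ψ : E →+* K} {q : ℕ} {ζ : Kˣ}

theorem S36NoData.zeta_pow (D : S36NoData ι₀ r₀ π₀ ι₁ r₁ π₁ ψ q ζ) (b : ℕ) :
    ∃ z : A₁ˣ, ι₁ z = ((ζ ^ b : Kˣ) : K) := by
  obtain ⟨z, hz⟩ := D.zeta
  exact ⟨z ^ b, by rw [Units.val_pow_eq_pow_val, map_pow, hz, Units.val_pow_eq_pow_val]⟩

theorem S36NoData.zeta_pow_inv (D : S36NoData ι₀ r₀ π₀ ι₁ r₁ π₁ ψ q ζ) (b : ℕ) :
    ∃ z : A₁ˣ, ι₁ z = (((ζ ^ b)⁻¹ : Kˣ) : K) := by
  obtain ⟨z, hz⟩ := D.zeta_pow b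
  refine ⟨z⁻¹, ?_⟩
  have h1 : ι₁ (z : A₁) * ι₁ ((z⁻¹ : A₁ˣ) : A₁) = 1 := by
    rw [← map_mul, Units.mul_inv, map_one]
  rw [hz] at h1
  exact (Units.inv_eq_of_mul_eq_one_right h1).symm

/-- the order of a series over `E`, read over `K` -/
theorem S36NoData.ord_bc (D : S36NoData ι₀ r₀ π₀ ι₁ r₁ π₁ ψ q ζ) {x : LaurentSeries E}
    (hx : x ≠ 0) (hf : VtFrac ι₀ x) :
    s36noOrd ι₁ r₁ π₁ (coeffMap ψ x) = s36noOrd ι₀ r₀ π₀ x * ((q : ℤ) - 1) := by
  obtain ⟨κ, hκ⟩ := D.compat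
  exact s36noOrd_compat D.hB₀ D.hB₁ hκ D.ram hx hf

theorem S36NoData.frac_bc (D : S36NoData ι₀ r₀ π₀ ι₁ r₁ π₁ ψ q ζ) {x : LaurentSeries E}
    (hf : VtFrac ι₀ x) : VtFrac ι₁ (coeffMap ψ x) := by
  obtain ⟨κ, hκ⟩ := D.compat
  exact s36no_frac_compat hκ D.hB₀.inj hf

theorem s36no_coeffMap_ne_zero (ψ : E →+* K) {x : LaurentSeries E} (hx : x ≠ 0) :
    coeffMap ψ x ≠ 0 := fun h =>
  hx (coeffMap_inj_of_injective ψ ψ.injective (by rw [h, map_zero]))

end Data

section Mid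

variable {A₁ K k₁ : Type*} [CommRing A₁] [Field K] [Field k₁]
  {ι₁ : A₁ →+* K} {r₁ : A₁ →+* k₁} {π₁ : A₁}
  {q M : ℕ} [NeZero q] [NeZero M] [NeZero (M * q)] [NeZero (M * q * q)]

theorem s36no_frac_j (d : ℕ) [NeZero d] : VtFrac ι₁ (qExpand K d (jqModC K)) := by
  have h : coeffMap ι₁ (qExpand A₁ d (jqModC A₁)) = qExpand K d (jqModC K) :=
    coeffMap_jqNModC ι₁ d
  rw [← h]
  exact vtFrac_coeffMap _

/-- **the values of the expansion at the middle cusp are quotients of integral series** -/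
theorem s36no_frac_mid (hB₁ : VtBase ι₁ r₁ π₁) (hq : q.Prime) {ζ' : Kˣ}
    (hz : ∃ z : A₁ˣ, ι₁ z = ζ') (h : S36MidEmb K q M ζ')
    (y : modularFunctionFieldFullC K (M * q * q)) : VtFrac ι₁ (h.emb y) := by
  set φ : modularFunctionFieldFullC K (M * q * q) →+* LaurentSeries K := h.emb.toRingHom with hφ
  have hφy : ∀ y, h.emb y = φ y := fun _ => rfl
  rw [hφy]
  obtain ⟨y, hy⟩ := y
  refine IntermediateField.adjoin_induction (F := K) (s := divisorExpansionsC K (M * q * q))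
    (p := fun x hx => VtFrac ι₁ (φ ⟨x, hx⟩)) ?_ ?_ ?_ ?_ ?_ hy
  · rintro x ⟨e, hne, hdvd, rfl⟩
    have := hne
    rcases s36mid_divisor_cases hq hdvd with he' | ⟨d, hd, he⟩
    · rw [← hφy, h.emb_low e he']
      exact s36no_frac_j e
    · have hd0 : d ≠ 0 := fun h0 => NeZero.ne M (by rw [h0, zero_dvd_iff] at hd; exact hd)
      have : NeZero d := ⟨hd0⟩
      subst he
      rw [← hφy, h.emb_high d hd]
      exact s36no_frac_kronRot' ζ' hz (s36no_frac_j d)
  · intro c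
    have e1 : (⟨algebraMap K (LaurentSeries K) c, IntermediateField.algebraMap_mem _ c⟩ :
        modularFunctionFieldFullC K (M * q * q)) = algebraMap K _ c := rfl
    rw [e1, ← hφy, h.emb.commutes, algebraMap_laurentSeries_eq_single]
    exact vtFrac_C hB₁.frac c
  · intro x y hx hy h1 h2
    have e : (⟨x + y, add_mem hx hy⟩ : modularFunctionFieldFullC K (M * q * q)) =
        ⟨x, hx⟩ + ⟨y, hy⟩ := rfl
    rw [e, RingHom.map_add]
    exact h1.add hB₁.inj h2
  · intro x hx h1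
    have e : (⟨x⁻¹, inv_mem hx⟩ : modularFunctionFieldFullC K (M * q * q)) = (⟨x, hx⟩)⁻¹ := rfl
    rw [e, map_inv₀]
    exact h1.inv hB₁.inj
  · intro x y hx hy h1 h2
    have e : (⟨x * y, mul_mem hx hy⟩ : modularFunctionFieldFullC K (M * q * q)) =
        ⟨x, hx⟩ * ⟨y, hy⟩ := rfl
    rw [e, RingHom.map_mul]
    exact h1.mul hB₁.inj h2

end Mid

section Orders

variable {A₀ E k₀ A₁ K k₁ : Type*} [CommRing A₀] [Field E] [Field k₀]
  [CommRing A₁] [Field K] [Field k₁]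
  (ι₀ : A₀ →+* E) (r₀ : A₀ →+* k₀) (π₀ : A₀) (ι₁ : A₁ →+* K) (r₁ : A₁ →+* k₁) (π₁ : A₁)
  (ψ : E →+* K) (ιC : E →+* ℂ)
  {q M : ℕ} [NeZero q] [NeZero M] [NeZero (M * q)] [NeZero (M * q * q)]
  (hq : q.Prime) (hqM : ¬ q ∣ M) {ζ : Kˣ}

/-- `v_a`: the Gauss order of the expansion at `∞` (`va π₀ = 1`) -/
def s36noVa (x : modularFunctionFieldFullC E (M * q * q)) : ℤ :=
  s36noOrd ι₀ r₀ π₀ (x : LaurentSeries E)

/-- `v_b = v_a ∘ w_{q²}` -/
def s36noVb (x : modularFunctionFieldFullC E (M * q * q)) : ℤ :=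
  s36noVa ι₀ r₀ π₀ (s36n2W E ιC hq hqM x)

/-- `v_c`: the Gauss order of the expansion at the middle cusp, over `K` (`vc π₀ = q − 1`) -/
def s36noVc (h : S36MidEmb K q M ζ) (x : modularFunctionFieldFullC E (M * q * q)) : ℤ :=
  s36noOrd ι₁ r₁ π₁ (h.emb (mgaCoeffHom ψ (M * q * q) x))

/-- `w_∞` on `F′` -/
def s36noWinf (y : modularFunctionFieldFullC E (M * q)) : ℤ :=
  s36noOrd ι₀ r₀ π₀ (y : LaurentSeries E)

/-- `w_0 = w_∞ ∘ w_q` on `F′` -/
def s36noW0 (y : modularFunctionFieldFullC E (M * q)) : ℤ :=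
  s36noWinf ι₀ r₀ π₀ (atkinLehner E ιC hq hqM y)

variable {ι₀ r₀ π₀ ι₁ r₁ π₁ ψ}

theorem s36no_coe_ne_zero {N : ℕ} {x : modularFunctionFieldFullC E N} (hx : x ≠ 0) :
    (x : LaurentSeries E) ≠ 0 := fun h => hx (Subtype.ext h)

theorem s36noWinf_mul (hB₀ : VtBase ι₀ r₀ π₀) {x y : modularFunctionFieldFullC E (M * q)}
    (hx : x ≠ 0) (hy : y ≠ 0) :
    s36noWinf ι₀ r₀ π₀ (x * y) = s36noWinf ι₀ r₀ π₀ x + s36noWinf ι₀ r₀ π₀ y :=
  s36noOrd_mul hB₀ (s36no_coe_ne_zero hx) (s36no_coe_ne_zero hy)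
    (vt_frac_fullC hB₀ _ x.2) (vt_frac_fullC hB₀ _ y.2)

theorem s36noW0_mul (hB₀ : VtBase ι₀ r₀ π₀) {x y : modularFunctionFieldFullC E (M * q)}
    (hx : x ≠ 0) (hy : y ≠ 0) :
    s36noW0 ι₀ r₀ π₀ ιC hq hqM (x * y) =
      s36noW0 ι₀ r₀ π₀ ιC hq hqM x + s36noW0 ι₀ r₀ π₀ ιC hq hqM y := by
  unfold s36noW0
  rw [map_mul]
  exact s36noWinf_mul hB₀ ((map_ne_zero _).mpr hx) ((map_ne_zero _).mpr hy)

theorem s36noVa_mul (hB₀ : VtBase ι₀ r₀ π₀) {x y : modularFunctionFieldFullC E (M * q * q)}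
    (hx : x ≠ 0) (hy : y ≠ 0) :
    s36noVa ι₀ r₀ π₀ (x * y) = s36noVa ι₀ r₀ π₀ x + s36noVa ι₀ r₀ π₀ y :=
  s36noOrd_mul hB₀ (s36no_coe_ne_zero hx) (s36no_coe_ne_zero hy)
    (vt_frac_fullC hB₀ _ x.2) (vt_frac_fullC hB₀ _ y.2)

theorem s36noVb_mul (hB₀ : VtBase ι₀ r₀ π₀) {x y : modularFunctionFieldFullC E (M * q * q)}
    (hx : x ≠ 0) (hy : y ≠ 0) :
    s36noVb ι₀ r₀ π₀ ιC hq hqM (x * y) =
      s36noVb ι₀ r₀ π₀ ιC hq hqM x + s36noVb ι₀ r₀ π₀ ιC hq hqM y := by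
  unfold s36noVb
  rw [map_mul]
  exact s36noVa_mul hB₀ ((map_ne_zero _).mpr hx) ((map_ne_zero _).mpr hy)

theorem s36no_mid_ne_zero (h : S36MidEmb K q M ζ)
    {x : modularFunctionFieldFullC E (M * q * q)} (hx : x ≠ 0) :
    h.emb (mgaCoeffHom ψ (M * q * q) x) ≠ 0 := by
  have h1 : mgaCoeffHom ψ (M * q * q) x ≠ 0 := (map_ne_zero _).mpr hx
  exact fun h0 => h1 (h.emb_injective (by rw [h0, map_zero]))

include hq in
theorem s36noVc_mul (D : S36NoData ι₀ r₀ π₀ ι₁ r₁ π₁ ψ q ζ) (h : S36MidEmb K q M ζ)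
    {x y : modularFunctionFieldFullC E (M * q * q)} (hx : x ≠ 0) (hy : y ≠ 0) :
    s36noVc ι₁ r₁ π₁ ψ h (x * y) = s36noVc ι₁ r₁ π₁ ψ h x + s36noVc ι₁ r₁ π₁ ψ h y := by
  unfold s36noVc
  have e : h.emb (mgaCoeffHom ψ (M * q * q) (x * y)) =
      h.emb (mgaCoeffHom ψ (M * q * q) x) * h.emb (mgaCoeffHom ψ (M * q * q) y) := by
    rw [RingHom.map_mul]
    exact map_mul h.emb.toRingHom _ _
  rw [e]
  exact s36noOrd_mul D.hB₁ (s36no_mid_ne_zero h hx) (s36no_mid_ne_zero h hy)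
    (s36no_frac_mid D.hB₁ hq D.zeta h _) (s36no_frac_mid D.hB₁ hq D.zeta h _)

/-- `v_a` is the order of `V_a = vtInf hB₀ (M q²)` -/
theorem s36noVa_eq (x : modularFunctionFieldFullC E (M * q * q)) :
    s36noVa ι₀ r₀ π₀ x = s36noOrdE (ι := ι₀) r₀ π₀ (vtEmb E (M * q * q)) x := rfl

/-- `w_∞` is the order of `vtInf hB₀ (M q)` -/
theorem s36noWinf_eq (y : modularFunctionFieldFullC E (M * q)) :
    s36noWinf ι₀ r₀ π₀ y = s36noOrdE (ι := ι₀) r₀ π₀ (vtEmb E (M * q)) y := rfl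

include hq in
/-- **Galois invariance of `v_c`**: the order of `μ_{ζ^b}` is that of `μ_ζ`. -/
theorem s36noVc_gal (D : S36NoData ι₀ r₀ π₀ ι₁ r₁ π₁ ψ q ζ) (h : S36MidEmb K q M ζ)
    {b : ℕ} (hb1 : 1 ≤ b) (hbq : b < q) (h' : S36MidEmb K q M (ζ ^ b))
    {x : modularFunctionFieldFullC E (M * q * q)} (hx : x ≠ 0) :
    s36noOrd ι₁ r₁ π₁ (h'.emb (mgaCoeffHom ψ (M * q * q) x)) = s36noVc ι₁ r₁ π₁ ψ h x := by
  obtain ⟨σ, κ', hσψ, hσζ, hσc, hσπ⟩ := D.gal b hb1 hbq
  have e1 := S36MidEmb.emb_coeffMap hq h h' σ hσζ (mgaCoeffHom ψ (M * q * q) x)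
  have e2 : coeffMap σ ((mgaCoeffHom ψ (M * q * q) x :
      modularFunctionFieldFullC K (M * q * q)) : LaurentSeries K) =
      ((mgaCoeffHom ψ (M * q * q) x : modularFunctionFieldFullC K (M * q * q)) :
        LaurentSeries K) := by
    rw [mgaCoeffHom_coe, coeffMap_coeffMap]
    exact coeffMap_congr (RingHom.ext hσψ) _
  have e3 : (⟨coeffMap σ ((mgaCoeffHom ψ (M * q * q) x :
      modularFunctionFieldFullC K (M * q * q)) : LaurentSeries K),
      al_coeffMap_mem K (M * q * q) σ (mgaCoeffHom ψ (M * q * q) x).2⟩ :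
      modularFunctionFieldFullC K (M * q * q)) = mgaCoeffHom ψ (M * q * q) x :=
    Subtype.ext e2
  rw [e3] at e1
  rw [e1]
  unfold s36noVc
  have hne : h.emb (mgaCoeffHom ψ (M * q * q) x) ≠ 0 := s36no_mid_ne_zero h hx
  have := s36noOrd_compat D.hB₁ D.hB₁ hσc hσπ hne (s36no_frac_mid D.hB₁ hq D.zeta h _)
  rw [this, mul_one]

end Orders

end Fermat.Agent.S36

end
end ZBS36_022_1

/-! ### bundled: `Fermat.Agent.S36.N2ValI1` -/
section ZBS36_022_2

/-!
# S36 / (I1) N2-val: the hypotheses `hBV₁ hBV₂ hπV hram hU hG harch` of `s36tb_small`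
for the three vertical valuation subrings `s36n2V` (helper93, `S36/N2Val.lean`)

## Generic part (bases `(A, E, k, r, π)`, `(A', E', k', r', π')`, `ψ : E →+* E'`)
`V := s36n2V hB hB' ψ ιC hq hqM h z hz`, `t := bgJ E (M * q * q)` (the chart `j`),
constant `c := algebraMap E F (algebraMap A E π)`.
* `s36i1_embA_const/_embB_const/_embC_const`, `s36i1_embA_bgJ/_embB_bgJ/_embC_bgJ`:
  the three expansions of the constants and of `j`;
* `s36i1_ord_a`, `s36i1_ord_b`, `s36i1_ord_c` : the order of `c` (`1`, `1`, `n`);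
* `s36i1_const_mem`, `s36i1_hBV₁`, `s36i1_hBV₂`, `s36i1_hπV`, `s36i1_hram`, `s36i1_hU`,
  `s36i1_hG`, `s36i1_harch`, `s36i1_J_valuation`.
  Inputs: `hint : ∀ a, ∃ a', ι' a' = ψ (algebraMap A E a)` (from `VtCompat`) and
  `hram' : S36IsOrd ι' r' π' (C (ψ (algebraMap A E π))) n` (`= S36NoData.ram`, `n = q − 1`).

## Concrete part (`A` a valuation ring of `ℚ̄` over `q`, `E₀ = beta0Field A`, `K = E₀(ζ_q)`)
* `s36i1Z`, `s36i1ZK` : `ζ` as a unit of `A_K`, of `K`;
* `s36i1V M hq hA hqM hζ ιC h` : THE concrete family;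
* `s36i1c_hBV₁`, `s36i1c_hBV₂`, `s36i1c_hπV`, `s36i1c_hram`, `s36i1c_hU`, `s36i1c_hG`,
  `s36i1c_harch` : in EXACTLY the binder types of `s36tb_small` (`S36/TopB.lean`), `N = 1`,
  `c₀ = S36Comp.a`; `s36i1c_hκ`, `s36i1c_hab/_hac/_hbc`.
-/

set_option autoImplicit false
set_option linter.unusedSectionVars false
set_option linter.unusedVariables false
set_option linter.style.haveILetI false
set_option linter.constructorNameAsVariable false

noncomputable section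

namespace Fermat.Agent.S36

open ModularCurve Fermat.Agent.INJ Fermat.Agent.UNIP Fermat.Agent.AL Fermat.Agent.ES

/-! ## Generic part -/

section Gen

variable {A E k A' E' k' : Type*} [CommRing A] [IsDomain A] [Field E] [Algebra A E]
  [IsFractionRing A E] [Field k] [CommRing A'] [Field E'] [Field k']
  {r : A →+* k} {π : A} {ι' : A' →+* E'} {r' : A' →+* k'} {π' : A'}
  (hB : VtBase (algebraMap A E) r π) (hB' : VtBase ι' r' π')
  (ψ : E →+* E') (ιC : E →+* ℂ)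
  {q M : ℕ} [NeZero q] [NeZero M] [NeZero (M * q)] [NeZero (M * q * q)]
  (hq : q.Prime) (hqM : ¬ q ∣ M)
  {ζ : E'ˣ} (h : S36MidEmb E' q M ζ) (z : A'ˣ) (hz : Units.map (ι' : A' →* E') z = ζ)

/-! ### The three `hfrac` -/

include hB in
theorem s36i1_fracA (x : modularFunctionFieldFullC E (M * q * q)) :
    VtFrac (algebraMap A E) (vtEmb E (M * q * q) x) :=
  vt_frac_fullC hB (M * q * q) x.2

include hB in
theorem s36i1_fracB (x : modularFunctionFieldFullC E (M * q * q)) :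
    VtFrac (algebraMap A E) (s36n2EmbB ιC hq hqM x) :=
  vt_frac_fullC hB (M * q * q) (s36n2W E ιC hq hqM x).2

include hB' hq hz in
theorem s36i1_fracC (x : modularFunctionFieldFullC E (M * q * q)) :
    VtFrac ι' (s36n2EmbC ψ h x) :=
  s36n2_frac_emb hB' hq h z hz _

/-! ### The three expansions of the constants -/

theorem s36i1_embA_const (N : ℕ) (x : E) :
    vtEmb E N (algebraMap E (modularFunctionFieldFullC E N) x) = HahnSeries.C x := by
  rw [HahnSeries.C_apply]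
  exact algebraMap_laurentSeries_eq_single E x

theorem s36i1_embB_const (x : E) :
    s36n2EmbB ιC hq hqM (algebraMap E (modularFunctionFieldFullC E (M * q * q)) x) =
      HahnSeries.C x := by
  rw [s36n2EmbB_apply, AlgEquiv.commutes]
  exact s36i1_embA_const (M * q * q) x

theorem s36i1_embC_const (x : E) :
    s36n2EmbC ψ h (algebraMap E (modularFunctionFieldFullC E (M * q * q)) x) =
      HahnSeries.C (ψ x) := by
  rw [s36n2EmbC_apply, mgaCoeffHom_algebraMap, h.emb.commutes, HahnSeries.C_apply]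
  exact algebraMap_laurentSeries_eq_single E' _

/-! ### The three expansions of `j` -/

theorem s36i1_embA_bgJ (N : ℕ) :
    vtEmb E N (bgJ E N) = coeffMap (algebraMap A E) (jqModC A) :=
  (coeffMap_jqModC _).symm

theorem s36i1_embB_bgJ :
    s36n2EmbB ιC hq hqM (bgJ E (M * q * q)) =
      coeffMap (algebraMap A E) (qExpand A q (qExpand A q (jqModC A))) := by
  rw [s36n2EmbB_apply, coeffMap_qExpand, coeffMap_qExpand, coeffMap_jqModC]
  exact s36n2W_base E ιC hq hqM (jqModC_mem_full E M)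

theorem s36i1_embC_bgJ :
    s36n2EmbC ψ h (bgJ E (M * q * q)) = coeffMap ι' (jqModC A') := by
  rw [s36n2EmbC_apply, coeffMap_jqModC]
  have e1 : mgaCoeffHom ψ (M * q * q) (bgJ E (M * q * q)) =
      ⟨jqModC E', s36mid_low_le (jqModC_mem_full E' (M * q))⟩ :=
    Subtype.ext (coeffMap_jqModC ψ)
  rw [e1]
  exact h.emb_of_mem_low (jqModC_mem_full E' (M * q))

theorem s36i1_red_a : coeffMap r (jqModC A) ≠ 0 := by
  rw [coeffMap_jqModC]
  exact jqModC_ne_zero_of_nontrivial k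

theorem s36i1_red_b : coeffMap r (qExpand A q (qExpand A q (jqModC A))) ≠ 0 := by
  rw [coeffMap_qExpand, coeffMap_qExpand, coeffMap_jqModC]
  intro h0
  have h1 : qExpand k q (jqModC k) = 0 := qExpand_injective q (h0.trans (map_zero _).symm)
  exact jqModC_ne_zero_of_nontrivial k (qExpand_injective q (h1.trans (map_zero _).symm))

theorem s36i1_red_c : coeffMap r' (jqModC A') ≠ 0 := by
  rw [coeffMap_jqModC]
  exact jqModC_ne_zero_of_nontrivial k'

/-! ### The order of the constant `π` -/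

include hB in
theorem s36i1_ord_a :
    S36IsOrd (algebraMap A E) r π
      (vtEmb E (M * q * q) (algebraMap E (modularFunctionFieldFullC E (M * q * q))
        (algebraMap A E π))) 1 := by
  rw [s36i1_embA_const]
  exact s36IsOrd_Cpi hB

include hB in
theorem s36i1_ord_b :
    S36IsOrd (algebraMap A E) r π
      (s36n2EmbB ιC hq hqM (algebraMap E (modularFunctionFieldFullC E (M * q * q))
        (algebraMap A E π))) 1 := by
  rw [s36i1_embB_const]
  exact s36IsOrd_Cpi hB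

theorem s36i1_ord_c {n : ℤ}
    (hram' : S36IsOrd ι' r' π' (HahnSeries.C (ψ (algebraMap A E π)) : LaurentSeries E') n) :
    S36IsOrd ι' r' π'
      (s36n2EmbC ψ h (algebraMap E (modularFunctionFieldFullC E (M * q * q))
        (algebraMap A E π))) n := by
  rw [s36i1_embC_const]
  exact hram'

/-! ### The hypotheses, generic form -/

/-- the constants of `A` lie in `V c` -/
theorem s36i1_const_mem (hint : ∀ a : A, ∃ a' : A', ι' a' = ψ (algebraMap A E a))
    (c : S36Comp) (a : A) :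
    algebraMap E (modularFunctionFieldFullC E (M * q * q)) (algebraMap A E a) ∈
      s36n2V hB hB' ψ ιC hq hqM h z hz c := by
  cases c
  · exact vtSub_const_mem hB (vtEmb E (M * q * q)) (s36i1_fracA hB) (s36i1_embA_const _ _)
  · exact vtSub_const_mem hB (s36n2EmbB ιC hq hqM) (s36i1_fracB hB ιC hq hqM) (s36i1_embB_const ιC hq hqM _)
  · obtain ⟨a', ha'⟩ := hint a
    exact vtSub_const_mem hB' (s36n2EmbC ψ h) (s36i1_fracC hB' ψ hq h z hz) ((s36i1_embC_const ψ h _).trans (by rw [ha']))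

/-- `j` is a unit of `V c` -/
theorem s36i1_J_valuation (c : S36Comp) :
    (s36n2V hB hB' ψ ιC hq hqM h z hz c).valuation (bgJ E (M * q * q)) = 1 := by
  cases c
  · exact vtSub_valuation_eq_one_of_eq_coeffMap hB (vtEmb E (M * q * q)) (s36i1_fracA hB) (s36i1_embA_bgJ _) s36i1_red_a
  · exact vtSub_valuation_eq_one_of_eq_coeffMap hB (s36n2EmbB ιC hq hqM) (s36i1_fracB hB ιC hq hqM) (s36i1_embB_bgJ ιC hq hqM) s36i1_red_b
  · exact vtSub_valuation_eq_one_of_eq_coeffMap hB' (s36n2EmbC ψ h) (s36i1_fracC hB' ψ hq h z hz) (s36i1_embC_bgJ ψ h) s36i1_red_c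

section Alg

variable [Algebra A (modularFunctionFieldFullC E (M * q * q))]
  (hAF : ∀ a : A, algebraMap A (modularFunctionFieldFullC E (M * q * q)) a =
    algebraMap E (modularFunctionFieldFullC E (M * q * q)) (algebraMap A E a))
  (hint : ∀ a : A, ∃ a' : A', ι' a' = ψ (algebraMap A E a))

include hAF hint in
/-- **hBV₁** (generic): the chart `j` lies in `V c`. -/
theorem s36i1_hBV₁ (c : S36Comp) (b : modularFunctionFieldFullC E (M * q * q))
    (hb : IsIntegral ↥(Algebra.adjoin A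
      ({bgJ E (M * q * q)} : Set (modularFunctionFieldFullC E (M * q * q)))) b) :
    b ∈ s36n2V hB hB' ψ ιC hq hqM h z hz c := by
  have hconst : ∀ (c : S36Comp) (a : A),
      algebraMap A (modularFunctionFieldFullC E (M * q * q)) a ∈
        s36n2V hB hB' ψ ιC hq hqM h z hz c := fun c a => by
    rw [hAF]
    exact s36i1_const_mem hB hB' ψ ιC hq hqM h z hz hint c a
  cases c
  · exact s36vt_hBV hB (vtEmb E (M * q * q)) (s36i1_fracA hB) (hconst S36Comp.a) (s36i1_embA_bgJ _) s36i1_red_a hb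
  · exact s36vt_hBV hB (s36n2EmbB ιC hq hqM) (s36i1_fracB hB ιC hq hqM) (hconst S36Comp.b) (s36i1_embB_bgJ ιC hq hqM) s36i1_red_b hb
  · exact s36vt_hBV hB' (s36n2EmbC ψ h) (s36i1_fracC hB' ψ hq h z hz) (hconst S36Comp.c) (s36i1_embC_bgJ ψ h) s36i1_red_c hb

include hAF hint in
/-- **hBV₂** (generic): the chart `1 / j` lies in `V c`. -/
theorem s36i1_hBV₂ (c : S36Comp) (b : modularFunctionFieldFullC E (M * q * q))
    (hb : IsIntegral ↥(Algebra.adjoin A
      ({(bgJ E (M * q * q))⁻¹} : Set (modularFunctionFieldFullC E (M * q * q)))) b) :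
    b ∈ s36n2V hB hB' ψ ιC hq hqM h z hz c := by
  have hconst : ∀ (c : S36Comp) (a : A),
      algebraMap A (modularFunctionFieldFullC E (M * q * q)) a ∈
        s36n2V hB hB' ψ ιC hq hqM h z hz c := fun c a => by
    rw [hAF]
    exact s36i1_const_mem hB hB' ψ ιC hq hqM h z hz hint c a
  cases c
  · exact s36vt_hBV_inv hB (vtEmb E (M * q * q)) (s36i1_fracA hB) (hconst S36Comp.a) (s36i1_embA_bgJ _) s36i1_red_a hb
  · exact s36vt_hBV_inv hB (s36n2EmbB ιC hq hqM) (s36i1_fracB hB ιC hq hqM) (hconst S36Comp.b) (s36i1_embB_bgJ ιC hq hqM) s36i1_red_b hb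
  · exact s36vt_hBV_inv hB' (s36n2EmbC ψ h) (s36i1_fracC hB' ψ hq h z hz) (hconst S36Comp.c) (s36i1_embC_bgJ ψ h) s36i1_red_c hb

include hAF in
/-- **hG** (generic), `c₀ = a`: the elements of `A[j]` which are not divisible by `π` are not in
the maximal ideal of `V_a`. -/
theorem s36i1_hG (s : modularFunctionFieldFullC E (M * q * q))
    (hs : EIPrimeTo π (bgJ E (M * q * q)) s) :
    s ∉ (s36n2V hB hB' ψ ιC hq hqM h z hz S36Comp.a).nonunits := by
  refine s36n2g_hG hB (vtEmb E (M * q * q)) (s36i1_fracA hB) (fun a => ?_)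
    (s36i1_embA_bgJ _) ?_ hs
  · rw [hAF]
    exact s36i1_embA_const _ _
  · rw [coeffMap_jqModC]
    exact Fermat.Agent.S28.red_transcendental_jqModC _

end Alg

/-- **hπV** (generic) -/
theorem s36i1_hπV {n : ℤ}
    (hram' : S36IsOrd ι' r' π' (HahnSeries.C (ψ (algebraMap A E π)) : LaurentSeries E') n)
    (hn : 0 < n) (c : S36Comp) :
    algebraMap E (modularFunctionFieldFullC E (M * q * q)) (algebraMap A E π) ∈
      (s36n2V hB hB' ψ ιC hq hqM h z hz c).nonunits := by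
  cases c
  · exact s36vt_hπV hB (vtEmb E (M * q * q)) (s36i1_fracA hB) (s36i1_ord_a hB) (by norm_num)
  · exact s36vt_hπV hB (s36n2EmbB ιC hq hqM) (s36i1_fracB hB ιC hq hqM) (s36i1_ord_b hB ιC hq hqM) (by norm_num)
  · exact s36vt_hπV hB' (s36n2EmbC ψ h) (s36i1_fracC hB' ψ hq h z hz) (s36i1_ord_c ψ h hram') hn

/-- **hram** (generic): `x ∈ 𝔪(V c) ⇒ x ^ m ∈ π V c`, for `m ≥ 1`, `m ≥ n = ord_c π`. -/
theorem s36i1_hram {n : ℤ}
    (hram' : S36IsOrd ι' r' π' (HahnSeries.C (ψ (algebraMap A E π)) : LaurentSeries E') n)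
    {m : ℕ} (hm : 1 ≤ m) (hnm : n ≤ m) (c : S36Comp)
    (x : modularFunctionFieldFullC E (M * q * q))
    (hx : x ∈ (s36n2V hB hB' ψ ιC hq hqM h z hz c).nonunits) :
    ∃ y ∈ s36n2V hB hB' ψ ιC hq hqM h z hz c,
      x ^ m = algebraMap E (modularFunctionFieldFullC E (M * q * q)) (algebraMap A E π) * y := by
  have hm' : (1 : ℤ) ≤ m := by exact_mod_cast hm
  cases c
  · exact s36vt_hram hB (vtEmb E (M * q * q)) (s36i1_fracA hB) (s36i1_ord_a hB) hm' hx
  · exact s36vt_hram hB (s36n2EmbB ιC hq hqM) (s36i1_fracB hB ιC hq hqM) (s36i1_ord_b hB ιC hq hqM) hm' hx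
  · exact s36vt_hram hB' (s36n2EmbC ψ h) (s36i1_fracC hB' ψ hq h z hz) (s36i1_ord_c ψ h hram') hnm hx

/-- **hU** (generic), `c₀ = a` -/
theorem s36i1_hU (x : modularFunctionFieldFullC E (M * q * q))
    (hx : x ∈ (s36n2V hB hB' ψ ιC hq hqM h z hz S36Comp.a).nonunits) :
    ∃ y ∈ s36n2V hB hB' ψ ιC hq hqM h z hz S36Comp.a,
      x = algebraMap E (modularFunctionFieldFullC E (M * q * q)) (algebraMap A E π) * y :=
  s36vt_hU hB (vtEmb E (M * q * q)) (s36i1_fracA hB) (s36i1_ord_a hB) hx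

/-- **hU** for `V_b` too -/
theorem s36i1_hU_b (x : modularFunctionFieldFullC E (M * q * q))
    (hx : x ∈ (s36n2V hB hB' ψ ιC hq hqM h z hz S36Comp.b).nonunits) :
    ∃ y ∈ s36n2V hB hB' ψ ιC hq hqM h z hz S36Comp.b,
      x = algebraMap E (modularFunctionFieldFullC E (M * q * q)) (algebraMap A E π) * y :=
  s36vt_hU hB (s36n2EmbB ιC hq hqM) (s36i1_fracB hB ιC hq hqM) (s36i1_ord_b hB ιC hq hqM) hx

/-- **harch** (generic) -/
theorem s36i1_harch (c : S36Comp) (a x : modularFunctionFieldFullC E (M * q * q))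
    (ha : a ∈ (s36n2V hB hB' ψ ιC hq hqM h z hz c).nonunits) :
    ∃ n : ℕ, a ^ n * x ∈ (s36n2V hB hB' ψ ιC hq hqM h z hz c).nonunits := by
  cases c
  · exact vtSub_arch hB (vtEmb E (M * q * q)) (s36i1_fracA hB) ha x
  · exact vtSub_arch hB (s36n2EmbB ιC hq hqM) (s36i1_fracB hB ιC hq hqM) ha x
  · exact vtSub_arch hB' (s36n2EmbC ψ h) (s36i1_fracC hB' ψ hq h z hz) ha x

/-- **hκ** -/
theorem s36i1_hκ (c : S36Comp) : c = S36Comp.a ∨ c = S36Comp.b ∨ c = S36Comp.c := by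
  cases c
  · exact Or.inl rfl
  · exact Or.inr (Or.inl rfl)
  · exact Or.inr (Or.inr rfl)

theorem s36i1_hab : S36Comp.a ≠ S36Comp.b := fun h => by cases h

theorem s36i1_hac : S36Comp.a ≠ S36Comp.c := fun h => by cases h

theorem s36i1_hbc : S36Comp.b ≠ S36Comp.c := fun h => by cases h

end Gen

/-! ## Generic part, from the arithmetic data `S36NoData` (helper31) -/

section Data

variable {A E k A' E' k' : Type*} [CommRing A] [IsDomain A] [Field E] [Algebra A E]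
  [IsFractionRing A E] [Field k] [CommRing A'] [Field E'] [Field k']
  {r : A →+* k} {π : A} {ι' : A' →+* E'} {r' : A' →+* k'} {π' : A'}
  (hB : VtBase (algebraMap A E) r π) (hB' : VtBase ι' r' π')
  (ψ : E →+* E') (ιC : E →+* ℂ)
  {q M : ℕ} [NeZero q] [NeZero M] [NeZero (M * q)] [NeZero (M * q * q)]
  (hq : q.Prime) (hqM : ¬ q ∣ M)
  {ζ : E'ˣ} (h : S36MidEmb E' q M ζ) (z : A'ˣ) (hz : Units.map (ι' : A' →* E') z = ζ)
  (D : S36NoData (algebraMap A E) r π ι' r' π' ψ q ζ)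

include D in
theorem s36i1d_hint (a : A) : ∃ a' : A', ι' a' = ψ (algebraMap A E a) := by
  obtain ⟨κ, hκ⟩ := D.compat
  obtain ⟨a', ha', -⟩ := hκ a
  exact ⟨a', ha'⟩

include D in
/-- **hBV₁** from `S36NoData` -/
theorem s36i1d_hBV₁ [Algebra A (modularFunctionFieldFullC E (M * q * q))]
    (hAF : ∀ a : A, algebraMap A (modularFunctionFieldFullC E (M * q * q)) a =
      algebraMap E (modularFunctionFieldFullC E (M * q * q)) (algebraMap A E a))
    (c : S36Comp) (b : modularFunctionFieldFullC E (M * q * q))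
    (hb : IsIntegral ↥(Algebra.adjoin A
      ({bgJ E (M * q * q)} : Set (modularFunctionFieldFullC E (M * q * q)))) b) :
    b ∈ s36n2V hB hB' ψ ιC hq hqM h z hz c :=
  s36i1_hBV₁ hB hB' ψ ιC hq hqM h z hz hAF (s36i1d_hint ψ D) c b hb

include D in
/-- **hBV₂** from `S36NoData` -/
theorem s36i1d_hBV₂ [Algebra A (modularFunctionFieldFullC E (M * q * q))]
    (hAF : ∀ a : A, algebraMap A (modularFunctionFieldFullC E (M * q * q)) a =
      algebraMap E (modularFunctionFieldFullC E (M * q * q)) (algebraMap A E a))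
    (c : S36Comp) (b : modularFunctionFieldFullC E (M * q * q))
    (hb : IsIntegral ↥(Algebra.adjoin A
      ({(bgJ E (M * q * q))⁻¹} : Set (modularFunctionFieldFullC E (M * q * q)))) b) :
    b ∈ s36n2V hB hB' ψ ιC hq hqM h z hz c :=
  s36i1_hBV₂ hB hB' ψ ιC hq hqM h z hz hAF (s36i1d_hint ψ D) c b hb

include D in
/-- **hπV** from `S36NoData` -/
theorem s36i1d_hπV (c : S36Comp) :
    algebraMap E (modularFunctionFieldFullC E (M * q * q)) (algebraMap A E π) ∈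
      (s36n2V hB hB' ψ ιC hq hqM h z hz c).nonunits :=
  s36i1_hπV hB hB' ψ ιC hq hqM h z hz D.ram
    (by have := hq.one_lt; omega) c

include D in
/-- **hram** from `S36NoData`: exponent `q ^ N`, `N ≥ 1`. -/
theorem s36i1d_hram {N : ℕ} (hN : N ≠ 0) (c : S36Comp)
    (x : modularFunctionFieldFullC E (M * q * q))
    (hx : x ∈ (s36n2V hB hB' ψ ιC hq hqM h z hz c).nonunits) :
    ∃ y ∈ s36n2V hB hB' ψ ιC hq hqM h z hz c,
      x ^ (q ^ N) =
        algebraMap E (modularFunctionFieldFullC E (M * q * q)) (algebraMap A E π) * y := by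
  have h1 : q ≤ q ^ N := Nat.le_self_pow hN q
  refine s36i1_hram hB hB' ψ ιC hq hqM h z hz D.ram (le_trans hq.pos h1) ?_ c x hx
  have h2 : (q : ℤ) ≤ ((q ^ N : ℕ) : ℤ) := by exact_mod_cast h1
  omega

end Data

/-! ## Concrete part -/

section Concrete

variable {q : ℕ} {A : ValuationSubring (AlgebraicClosure ℚ)} (M : ℕ) [NeZero M] [NeZero q]
  [IsDiscreteValuationRing ↥(beta0Ring A (beta0Field A))]
  {ζ : AlgebraicClosure ℚ}

/-- `ζ` as a unit of `A_K = A ∩ K`, `K = E₀(ζ)` -/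
def s36i1Z (hq : q.Prime) (hζ : IsPrimitiveRoot ζ q) : (↥(beta0Ring A (s36n2bK A ζ)))ˣ :=
  ((s36n2bZeta_isPrimitiveRoot (A := A) hq hζ).isUnit hq.ne_zero).unit

@[simp]
theorem s36i1Z_coe (hq : q.Prime) (hζ : IsPrimitiveRoot ζ q) :
    ((s36i1Z (A := A) hq hζ : (↥(beta0Ring A (s36n2bK A ζ)))ˣ) : ↥(beta0Ring A (s36n2bK A ζ))) =
      s36n2bZeta hq hζ := rfl

/-- `ζ` as a unit of `K = E₀(ζ)` -/
def s36i1ZK (hq : q.Prime) (hζ : IsPrimitiveRoot ζ q) : (↥(s36n2bK A ζ))ˣ :=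
  Units.map ((algebraMap ↥(beta0Ring A (s36n2bK A ζ)) ↥(s36n2bK A ζ) :
    ↥(beta0Ring A (s36n2bK A ζ)) →+* ↥(s36n2bK A ζ)) :
      ↥(beta0Ring A (s36n2bK A ζ)) →* ↥(s36n2bK A ζ)) (s36i1Z hq hζ)

@[simp]
theorem s36i1ZK_coe (hq : q.Prime) (hζ : IsPrimitiveRoot ζ q) :
    (((s36i1ZK (A := A) hq hζ : (↥(s36n2bK A ζ))ˣ) : ↥(s36n2bK A ζ)) : AlgebraicClosure ℚ) = ζ :=
  rfl

theorem s36i1ZK_isPrimitiveRoot (hq : q.Prime) (hζ : IsPrimitiveRoot ζ q) :
    IsPrimitiveRoot ((s36i1ZK (A := A) hq hζ : (↥(s36n2bK A ζ))ˣ) : ↥(s36n2bK A ζ)) q := by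
  have hinj : Function.Injective (algebraMap ↥(s36n2bK A ζ) (AlgebraicClosure ℚ)) :=
    (algebraMap ↥(s36n2bK A ζ) (AlgebraicClosure ℚ)).injective
  refine IsPrimitiveRoot.of_map_of_injective (f := algebraMap ↥(s36n2bK A ζ) (AlgebraicClosure ℚ))
    ?_ hinj
  exact hζ

variable (hq : q.Prime) (hA : A.LiesOverPrime q) (hqM : ¬ q ∣ M) (hζ : IsPrimitiveRoot ζ q)
  (ιC : ↥(beta0Field A) →+* ℂ)
  (h : S36MidEmb ↥(s36n2bK A ζ) q M (s36i1ZK (A := A) hq hζ))

/-- **THE concrete family** `V : S36Comp → ValuationSubring F_{Mqq}(E₀)`. -/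
def s36i1V : S36Comp → ValuationSubring ↥(modularFunctionFieldFullC ↥(beta0Field A) (M * q * q)) :=
  s36n2V (vtBase_residue (beta0Ring_irreducible_q hq hA)) (s36n2b_vtBase hq hA hζ)
    (IntermediateField.inclusion (s36n2b_le_K A ζ)).toRingHom ιC hq hqM h (s36i1Z hq hζ) rfl

theorem s36i1V_eq :
    s36i1V M hq hA hqM hζ ιC h =
      s36n2V (vtBase_residue (beta0Ring_irreducible_q hq hA)) (s36n2b_vtBase hq hA hζ)
        (IntermediateField.inclusion (s36n2b_le_K A ζ)).toRingHom ιC hq hqM h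
        (s36i1Z hq hζ) rfl := rfl

/-- base change of the constants -/
theorem s36i1c_hint (a : ↥(beta0Ring A (beta0Field A))) :
    ∃ a' : ↥(beta0Ring A (s36n2bK A ζ)),
      algebraMap ↥(beta0Ring A (s36n2bK A ζ)) ↥(s36n2bK A ζ) a' =
        (IntermediateField.inclusion (s36n2b_le_K A ζ)).toRingHom
          (algebraMap ↥(beta0Ring A (beta0Field A)) ↥(beta0Field A) a) :=
  ⟨beta0RingIncl (s36n2b_le_K A ζ) a, rfl⟩

include hq hA hζ in
/-- `q` has order `q − 1` in `A_K` -/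
theorem s36i1c_ram :
    S36IsOrd (algebraMap ↥(beta0Ring A (s36n2bK A ζ)) ↥(s36n2bK A ζ))
      (IsLocalRing.residue ↥(beta0Ring A (s36n2bK A ζ))) (s36n2bPi hq hζ)
      (HahnSeries.C ((IntermediateField.inclusion (s36n2b_le_K A ζ)).toRingHom
        (algebraMap ↥(beta0Ring A (beta0Field A)) ↥(beta0Field A)
          ((q : ℕ) : ↥(beta0Ring A (beta0Field A))))) : LaurentSeries ↥(s36n2bK A ζ))
      ((q - 1 : ℕ) : ℤ) := by
  obtain ⟨u, hu⟩ := s36n2b_exists_unit (A := A) hq hζ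
  have h1 := s36vt_isOrd_C (s36n2b_vtBase hq hA hζ) u (q - 1) hu
  have e1 : (IntermediateField.inclusion (s36n2b_le_K A ζ)).toRingHom
      (algebraMap ↥(beta0Ring A (beta0Field A)) ↥(beta0Field A)
        ((q : ℕ) : ↥(beta0Ring A (beta0Field A)))) =
      algebraMap ↥(beta0Ring A (s36n2bK A ζ)) ↥(s36n2bK A ζ)
        ((q : ℕ) : ↥(beta0Ring A (s36n2bK A ζ))) := by
    rw [map_natCast, map_natCast, map_natCast]
  rw [e1]
  exact h1

/-- **hBV₁** -/
theorem s36i1c_hBV₁ (c : S36Comp)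
    (b : ↥(modularFunctionFieldFullC ↥(beta0Field A) (M * q * q)))
    (hb : IsIntegral ↥(Algebra.adjoin ↥(beta0Ring A (beta0Field A))
      {bgJ ↥(beta0Field A) (M * q * q)}) b) :
    b ∈ s36i1V M hq hA hqM hζ ιC h c :=
  s36i1_hBV₁ (vtBase_residue (beta0Ring_irreducible_q hq hA)) (s36n2b_vtBase hq hA hζ)
    (IntermediateField.inclusion (s36n2b_le_K A ζ)).toRingHom ιC hq hqM h (s36i1Z hq hζ) rfl (fun _ => rfl) s36i1c_hint c b hb

/-- **hBV₂** -/
theorem s36i1c_hBV₂ (c : S36Comp)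
    (b : ↥(modularFunctionFieldFullC ↥(beta0Field A) (M * q * q)))
    (hb : IsIntegral ↥(Algebra.adjoin ↥(beta0Ring A (beta0Field A))
      {(bgJ ↥(beta0Field A) (M * q * q))⁻¹}) b) :
    b ∈ s36i1V M hq hA hqM hζ ιC h c :=
  s36i1_hBV₂ (vtBase_residue (beta0Ring_irreducible_q hq hA)) (s36n2b_vtBase hq hA hζ)
    (IntermediateField.inclusion (s36n2b_le_K A ζ)).toRingHom ιC hq hqM h (s36i1Z hq hζ) rfl (fun _ => rfl) s36i1c_hint c b hb

/-- **hπV** -/
theorem s36i1c_hπV (c : S36Comp) :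
    algebraMap ↥(beta0Ring A (beta0Field A))
      ↥(modularFunctionFieldFullC ↥(beta0Field A) (M * q * q))
        ((q : ℕ) : ↥(beta0Ring A (beta0Field A))) ∈ (s36i1V M hq hA hqM hζ ιC h c).nonunits :=
  s36i1_hπV (vtBase_residue (beta0Ring_irreducible_q hq hA)) (s36n2b_vtBase hq hA hζ)
    (IntermediateField.inclusion (s36n2b_le_K A ζ)).toRingHom ιC hq hqM h (s36i1Z hq hζ) rfl (s36i1c_ram hq hA hζ)
    (by exact_mod_cast Nat.sub_pos_of_lt hq.one_lt) c

/-- **hram**, `N = 1` -/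
theorem s36i1c_hram (c : S36Comp)
    (x : ↥(modularFunctionFieldFullC ↥(beta0Field A) (M * q * q)))
    (hx : x ∈ (s36i1V M hq hA hqM hζ ιC h c).nonunits) :
    ∃ z ∈ s36i1V M hq hA hqM hζ ιC h c, x ^ (q ^ 1) =
      algebraMap ↥(beta0Ring A (beta0Field A))
        ↥(modularFunctionFieldFullC ↥(beta0Field A) (M * q * q))
        ((q : ℕ) : ↥(beta0Ring A (beta0Field A))) * z :=
  s36i1_hram (vtBase_residue (beta0Ring_irreducible_q hq hA)) (s36n2b_vtBase hq hA hζ)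
    (IntermediateField.inclusion (s36n2b_le_K A ζ)).toRingHom ιC hq hqM h (s36i1Z hq hζ) rfl (s36i1c_ram hq hA hζ)
    (by rw [pow_one]; exact hq.pos)
    (by rw [pow_one]; exact_mod_cast Nat.sub_le q 1) c x hx

/-- **hU**, `c₀ = a` -/
theorem s36i1c_hU (x : ↥(modularFunctionFieldFullC ↥(beta0Field A) (M * q * q)))
    (hx : x ∈ (s36i1V M hq hA hqM hζ ιC h S36Comp.a).nonunits) :
    ∃ z ∈ s36i1V M hq hA hqM hζ ιC h S36Comp.a, x =
      algebraMap ↥(beta0Ring A (beta0Field A))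
        ↥(modularFunctionFieldFullC ↥(beta0Field A) (M * q * q))
        ((q : ℕ) : ↥(beta0Ring A (beta0Field A))) * z :=
  s36i1_hU (vtBase_residue (beta0Ring_irreducible_q hq hA)) (s36n2b_vtBase hq hA hζ)
    (IntermediateField.inclusion (s36n2b_le_K A ζ)).toRingHom ιC hq hqM h (s36i1Z hq hζ) rfl x hx

/-- **hG**, `c₀ = a` -/
theorem s36i1c_hG (s : ↥(modularFunctionFieldFullC ↥(beta0Field A) (M * q * q)))
    (hs : EIPrimeTo ((q : ℕ) : ↥(beta0Ring A (beta0Field A)))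
      (bgJ ↥(beta0Field A) (M * q * q)) s) :
    s ∉ (s36i1V M hq hA hqM hζ ιC h S36Comp.a).nonunits :=
  s36i1_hG (vtBase_residue (beta0Ring_irreducible_q hq hA)) (s36n2b_vtBase hq hA hζ)
    (IntermediateField.inclusion (s36n2b_le_K A ζ)).toRingHom ιC hq hqM h (s36i1Z hq hζ) rfl (fun _ => rfl) s hs

/-- **harch** -/
theorem s36i1c_harch (c : S36Comp)
    (a x : ↥(modularFunctionFieldFullC ↥(beta0Field A) (M * q * q)))
    (ha : a ∈ (s36i1V M hq hA hqM hζ ιC h c).nonunits) :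
    ∃ n : ℕ, a ^ n * x ∈ (s36i1V M hq hA hqM hζ ιC h c).nonunits :=
  s36i1_harch (vtBase_residue (beta0Ring_irreducible_q hq hA)) (s36n2b_vtBase hq hA hζ)
    (IntermediateField.inclusion (s36n2b_le_K A ζ)).toRingHom ιC hq hqM h (s36i1Z hq hζ) rfl c a x ha

end Concrete

end Fermat.Agent.S36

end


end ZBS36_022_2

/-! ### bundled: `Fermat.Agent.S36.N2ValRes` -/
section ZBS36_022_3

/-!
# S36 / G-N2, piece N2-val (C): restrictions of `V_a, V_b, V_c` to `F′ = F_{Mq}(E)`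

`α = s36Alpha E M q : F′ → F` is the inclusion, `β = s36Beta E M q : F′ → F` is `f ↦ f(Q^q)`
(`S36/PlanGeo.lean`).  With `V′_∞ = vtFam hB ιC hq hqM true`, `V′_0 = vtFam hB ιC hq hqM false`
(`UNIP/MGVert.lean`):

* `s36n2VA_comap_alpha : V_a.comap α = V′_∞`, `s36n2VA_comap_beta : V_a.comap β = V′_∞`;
* `s36n2VB_comap_alpha : V_b.comap α = V′_0`, `s36n2VB_comap_beta : V_b.comap β = V′_0`;
* `s36n2VC_comap_alpha : V_c.comap α = V′_∞`, `s36n2VC_comap_beta : V_c.comap β = V′_0`;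
* `s36n2CompAlpha`, `s36n2CompBeta : S36Comp → Bool` (the two maps on components),
  `s36n2V_comap_alpha`, `s36n2V_comap_beta` (the family versions);
* `s36n2V_ne` : `V_a, V_b, V_c` are pairwise distinct, `s36n2V_injective`;
* `s36n2W_comp_alpha : w ∘ α = β ∘ w′`, `s36n2W_comp_beta : w ∘ β = α ∘ w′`.

All statements also exist for arbitrary ring homomorphisms `α, β : F′ →+* F` with
`↑(α x) = ↑x`, `↑(β x) = (↑x)(Q^q)` (suffix `_gen`).

Remark (kernel): a proof by `rfl` of `↑(α x) = ↑x` sends the kernel into comparing the TYPES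
`F_{Mq}(E)` and `F_{Mqq}(E)` (structure eta), which does not terminate in practice; all proofs
below go through `Subtype.ext` and rewriting.
-/

set_option autoImplicit false
set_option linter.unusedSectionVars false
set_option linter.style.haveILetI false

noncomputable section

namespace Fermat.Agent.S36

open ModularCurve Fermat.Agent.UNIP Fermat.Agent.INJ Fermat.Agent.AL Fermat.Agent.ES

/-! ### C. The restrictions to `F′ = F_{Mq}(E)` along `α` and `β` -/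

section Restrict

variable {A E k A' E' k' : Type*} [CommRing A] [IsDomain A] [Field E] [Algebra A E]
  [IsFractionRing A E] [Field k] [CommRing A'] [Field E'] [Field k']
  {r : A →+* k} {π : A} {ι' : A' →+* E'} {r' : A' →+* k'} {π' : A'}
  (hB : VtBase (algebraMap A E) r π) (hB' : VtBase ι' r' π')
  {ψ : E →+* E'} {κ : k →+* k'} (hc : VtCompat (algebraMap A E) r ι' r' ψ κ)
  (ιC : E →+* ℂ) (ιC' : E' →+* ℂ)
  {q M : ℕ} [NeZero q] [NeZero M] [NeZero (M * q)] [NeZero (M * q * q)]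
  (hq : q.Prime) (hqM : ¬ q ∣ M)
  {ζ : E'ˣ} (h : S36MidEmb E' q M ζ) (z : A'ˣ) (hz : Units.map (ι' : A' →* E') z = ζ)
  (hζq : ζ ^ q = 1)
  (α β : modularFunctionFieldFullC E (M * q) →+* modularFunctionFieldFullC E (M * q * q))
  (hα : ∀ x, ((α x : modularFunctionFieldFullC E (M * q * q)) : LaurentSeries E) =
    (x : LaurentSeries E))
  (hβ : ∀ x, ((β x : modularFunctionFieldFullC E (M * q * q)) : LaurentSeries E) =
    qExpand E q (x : LaurentSeries E))

include hα in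
theorem s36n2_alpha_eq_mk (x : modularFunctionFieldFullC E (M * q)) :
    α x = ⟨(x : LaurentSeries E), s36mid_low_le x.2⟩ := Subtype.ext (hα x)

include hβ in
theorem s36n2_beta_eq_mk (x : modularFunctionFieldFullC E (M * q)) :
    β x = ⟨qExpand E q (x : LaurentSeries E), s36mid_qExpand_mem x.2⟩ := Subtype.ext (hβ x)

include hα hβ in
/-- `w ∘ α = β ∘ w′` -/
theorem s36n2W_comp_alpha_gen (x : modularFunctionFieldFullC E (M * q)) :
    s36n2W E ιC hq hqM (α x) = β (atkinLehner E ιC hq hqM x) := by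
  apply Subtype.ext
  rw [hβ, s36n2_alpha_eq_mk α hα x]
  exact s36n2W_alpha E ιC hq hqM x.2

include hα hβ in
/-- `w ∘ β = α ∘ w′` -/
theorem s36n2W_comp_beta_gen (x : modularFunctionFieldFullC E (M * q)) :
    s36n2W E ιC hq hqM (β x) = α (atkinLehner E ιC hq hqM x) := by
  apply Subtype.ext
  rw [hα, s36n2_beta_eq_mk β hβ x]
  exact s36n2W_beta E ιC hq hqM x.2

include hB hB' hc in
/-- base change reflects the Gauss ring -/
theorem s36n2_baseChange_mem_iff {N : ℕ} (x : modularFunctionFieldFullC E N) :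
    coeffMap ψ (x : LaurentSeries E) ∈ gaussRing ι' r' ↔
      (x : LaurentSeries E) ∈ gaussRing (algebraMap A E) r := by
  have h1 := vtSub_comap_baseChange hB hB' (vtEmb E N)
    (fun x => vt_frac_fullC hB N x.2) (vtEmb E' N) (fun x => vt_frac_fullC hB' N x.2) hc
    (mgaCoeffHom ψ N) (fun y => by rw [vtEmb_apply, vtEmb_apply, mgaCoeffHom_coe])
  have h2 : x ∈ (vtSub hB' (vtEmb E' N) (fun x => vt_frac_fullC hB' N x.2)).comap
      (mgaCoeffHom ψ N) ↔ x ∈ vtSub hB (vtEmb E N) (fun x => vt_frac_fullC hB N x.2) := by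
    rw [h1]
  rw [ValuationSubring.mem_comap, mem_vtSub, mem_vtSub, vtEmb_apply, vtEmb_apply,
    mgaCoeffHom_coe] at h2
  exact h2

theorem s36n2_mem_vtFam_true {x : modularFunctionFieldFullC E (M * q)} :
    x ∈ vtFam hB ιC hq hqM true ↔ (x : LaurentSeries E) ∈ gaussRing (algebraMap A E) r := by
  rw [mem_vtFam, vtEmbFam_true, vtEmb_apply]

theorem s36n2_mem_vtFam_false {x : modularFunctionFieldFullC E (M * q)} :
    x ∈ vtFam hB ιC hq hqM false ↔
      ((atkinLehner E ιC hq hqM x : modularFunctionFieldFullC E (M * q)) : LaurentSeries E) ∈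
        gaussRing (algebraMap A E) r := by
  rw [mem_vtFam, vtEmbFam_false, vtEmb0_apply]

include hα in
/-- (α, a): `V_a ∩ F′ = V′_∞` -/
theorem s36n2VA_comap_alpha_gen :
    (s36n2VA hB).comap α = vtFam hB ιC hq hqM true := by
  ext x
  rw [ValuationSubring.mem_comap, mem_s36n2VA, hα, s36n2_mem_vtFam_true]

include hβ in
/-- (β, a): `β⁻¹ V_a = V′_∞` -/
theorem s36n2VA_comap_beta_gen :
    (s36n2VA hB).comap β = vtFam hB ιC hq hqM true := by
  ext x
  rw [ValuationSubring.mem_comap, mem_s36n2VA, hβ, s36n2_mem_vtFam_true]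
  exact s36n2_qExpand_mem_iff hB q (vt_frac_fullC hB (M * q) x.2)

include hα hβ in
/-- (α, b): `V_b ∩ F′ = V′_0` -/
theorem s36n2VB_comap_alpha_gen :
    (s36n2VB hB ιC hq hqM).comap α = vtFam hB ιC hq hqM false := by
  ext x
  rw [ValuationSubring.mem_comap, mem_s36n2VB, s36n2W_comp_alpha_gen ιC hq hqM α β hα hβ, hβ,
    s36n2_mem_vtFam_false]
  exact s36n2_qExpand_mem_iff hB q (vt_frac_fullC hB (M * q) (atkinLehner E ιC hq hqM x).2)

include hα hβ in
/-- (β, b): `β⁻¹ V_b = V′_0` -/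
theorem s36n2VB_comap_beta_gen :
    (s36n2VB hB ιC hq hqM).comap β = vtFam hB ιC hq hqM false := by
  ext x
  rw [ValuationSubring.mem_comap, mem_s36n2VB, s36n2W_comp_beta_gen ιC hq hqM α β hα hβ, hα,
    s36n2_mem_vtFam_false]

include hc hα in
/-- (α, c): `V_c ∩ F′ = V′_∞` -/
theorem s36n2VC_comap_alpha_gen :
    (s36n2VC hB' ψ hq h z hz).comap α = vtFam hB ιC hq hqM true := by
  ext x
  rw [ValuationSubring.mem_comap, mem_s36n2VC, s36n2_mem_vtFam_true]
  have hx' : coeffMap ψ (x : LaurentSeries E) ∈ modularFunctionFieldFullC E' (M * q) :=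
    (mgaCoeffHom ψ (M * q) x).2
  have e1 : mgaCoeffHom ψ (M * q * q) (α x) =
      ⟨coeffMap ψ (x : LaurentSeries E), s36mid_low_le hx'⟩ := by
    apply Subtype.ext
    rw [mgaCoeffHom_coe, hα]
  rw [e1, h.emb_of_mem_low hx']
  exact s36n2_baseChange_mem_iff hB hB' hc x

include hc hζq hβ ιC' in
/-- (β, c): `β⁻¹ V_c = V′_0` -/
theorem s36n2VC_comap_beta_gen :
    (s36n2VC hB' ψ hq h z hz).comap β = vtFam hB ιC hq hqM false := by
  ext x
  rw [ValuationSubring.mem_comap, mem_s36n2VC, s36n2_mem_vtFam_false]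
  have hx' : coeffMap ψ (x : LaurentSeries E) ∈ modularFunctionFieldFullC E' (M * q) :=
    (mgaCoeffHom ψ (M * q) x).2
  have e1 : mgaCoeffHom ψ (M * q * q) (β x) =
      ⟨qExpand E' q (coeffMap ψ (x : LaurentSeries E)), s36mid_qExpand_mem hx'⟩ := by
    apply Subtype.ext
    rw [mgaCoeffHom_coe, hβ, coeffMap_qExpand]
  have e2 : (⟨coeffMap ψ (x : LaurentSeries E), hx'⟩ : modularFunctionFieldFullC E' (M * q)) =
      mgaCoeffHom ψ (M * q) x := Subtype.ext (mgaCoeffHom_coe ψ (M * q) x).symm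
  rw [e1, h.emb_qExpand ιC' hq hqM hζq hx', ← hz, s36n2_kronRot_mem_iff, e2,
    vt_atkinLehner_coeffHom ψ ιC ιC' hq hqM x, mgaCoeffHom_coe]
  exact s36n2_baseChange_mem_iff hB hB' hc (atkinLehner E ιC hq hqM x)

end Restrict

/-! ### D. The same for `α = s36Alpha`, `β = s36Beta`; the three rings are distinct -/

section Concrete

variable {A E k A' E' k' : Type*} [CommRing A] [IsDomain A] [Field E] [Algebra A E]
  [IsFractionRing A E] [Field k] [CommRing A'] [Field E'] [Field k']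
  {r : A →+* k} {π : A} {ι' : A' →+* E'} {r' : A' →+* k'} {π' : A'}
  (hB : VtBase (algebraMap A E) r π) (hB' : VtBase ι' r' π')
  {ψ : E →+* E'} {κ : k →+* k'} (hc : VtCompat (algebraMap A E) r ι' r' ψ κ)
  (ιC : E →+* ℂ) (ιC' : E' →+* ℂ)
  {q M : ℕ} [NeZero q] [NeZero M] [NeZero (M * q)] [NeZero (M * q * q)]
  (hq : q.Prime) (hqM : ¬ q ∣ M)
  {ζ : E'ˣ} (h : S36MidEmb E' q M ζ) (z : A'ˣ) (hz : Units.map (ι' : A' →* E') z = ζ)
  (hζq : ζ ^ q = 1)

/-- `w ∘ α = β ∘ w′` -/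
theorem s36n2W_comp_alpha (x : modularFunctionFieldFullC E (M * q)) :
    s36n2W E ιC hq hqM (s36Alpha E M q x) = s36Beta E M q (atkinLehner E ιC hq hqM x) :=
  s36n2W_comp_alpha_gen ιC hq hqM _ _ (coe_s36Alpha E M q) (coe_s36Beta E M q) x

/-- `w ∘ β = α ∘ w′` -/
theorem s36n2W_comp_beta (x : modularFunctionFieldFullC E (M * q)) :
    s36n2W E ιC hq hqM (s36Beta E M q x) = s36Alpha E M q (atkinLehner E ιC hq hqM x) :=
  s36n2W_comp_beta_gen ιC hq hqM _ _ (coe_s36Alpha E M q) (coe_s36Beta E M q) x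

/-- (α, a): `V_a ∩ F′ = V′_∞` -/
theorem s36n2VA_comap_alpha :
    (s36n2VA hB).comap (s36Alpha E M q) = vtFam hB ιC hq hqM true :=
  s36n2VA_comap_alpha_gen hB ιC hq hqM _ (coe_s36Alpha E M q)

/-- (β, a): `β⁻¹ V_a = V′_∞` -/
theorem s36n2VA_comap_beta :
    (s36n2VA hB).comap (s36Beta E M q) = vtFam hB ιC hq hqM true :=
  s36n2VA_comap_beta_gen hB ιC hq hqM _ (coe_s36Beta E M q)

/-- (α, b): `V_b ∩ F′ = V′_0` -/
theorem s36n2VB_comap_alpha :
    (s36n2VB hB ιC hq hqM).comap (s36Alpha E M q) = vtFam hB ιC hq hqM false :=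
  s36n2VB_comap_alpha_gen hB ιC hq hqM _ _ (coe_s36Alpha E M q) (coe_s36Beta E M q)

/-- (β, b): `β⁻¹ V_b = V′_0` -/
theorem s36n2VB_comap_beta :
    (s36n2VB hB ιC hq hqM).comap (s36Beta E M q) = vtFam hB ιC hq hqM false :=
  s36n2VB_comap_beta_gen hB ιC hq hqM _ _ (coe_s36Alpha E M q) (coe_s36Beta E M q)

include hc in
/-- (α, c): `V_c ∩ F′ = V′_∞` -/
theorem s36n2VC_comap_alpha :
    (s36n2VC hB' ψ hq h z hz).comap (s36Alpha E M q) = vtFam hB ιC hq hqM true :=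
  s36n2VC_comap_alpha_gen hB hB' hc ιC hq hqM h z hz _ (coe_s36Alpha E M q)

include hc hζq ιC' in
/-- (β, c): `β⁻¹ V_c = V′_0` -/
theorem s36n2VC_comap_beta :
    (s36n2VC hB' ψ hq h z hz).comap (s36Beta E M q) = vtFam hB ιC hq hqM false :=
  s36n2VC_comap_beta_gen hB hB' hc ιC ιC' hq hqM h z hz hζq _ (coe_s36Beta E M q)

/-- the map on components induced by `α`: `a, c ↦ ∞`, `b ↦ 0` -/
def s36n2CompAlpha : S36Comp → Bool
  | S36Comp.a => true
  | S36Comp.b => false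
  | S36Comp.c => true

/-- the map on components induced by `β`: `a ↦ ∞`, `b, c ↦ 0` -/
def s36n2CompBeta : S36Comp → Bool
  | S36Comp.a => true
  | S36Comp.b => false
  | S36Comp.c => false

include hc in
/-- **restriction along `α`** of the three vertical valuation rings -/
theorem s36n2V_comap_alpha (i : S36Comp) :
    (s36n2V hB hB' ψ ιC hq hqM h z hz i).comap (s36Alpha E M q) =
      vtFam hB ιC hq hqM (s36n2CompAlpha i) := by
  cases i
  · exact s36n2VA_comap_alpha hB ιC hq hqM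
  · exact s36n2VB_comap_alpha hB ιC hq hqM
  · exact s36n2VC_comap_alpha hB hB' hc ιC hq hqM h z hz

include hc hζq ιC' in
/-- **restriction along `β`** of the three vertical valuation rings -/
theorem s36n2V_comap_beta (i : S36Comp) :
    (s36n2V hB hB' ψ ιC hq hqM h z hz i).comap (s36Beta E M q) =
      vtFam hB ιC hq hqM (s36n2CompBeta i) := by
  cases i
  · exact s36n2VA_comap_beta hB ιC hq hqM
  · exact s36n2VB_comap_beta hB ιC hq hqM
  · exact s36n2VC_comap_beta hB hB' hc ιC ιC' hq hqM h z hz hζq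

variable [Fact q.Prime] [CharP k q]

include hc hζq ιC' in
/-- **hne**: the three vertical valuation rings are pairwise distinct -/
theorem s36n2V_injective :
    Function.Injective (s36n2V hB hB' ψ ιC hq hqM h z hz) := by
  have hne := mgvl_vtFam_ne hB ιC hq hqM
  intro i j hij
  have hα := s36n2V_comap_alpha hB hB' hc ιC hq hqM h z hz i
  have hβ := s36n2V_comap_beta hB hB' hc ιC ιC' hq hqM h z hz hζq i
  rw [hij, s36n2V_comap_alpha hB hB' hc ιC hq hqM h z hz j] at hα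
  rw [hij, s36n2V_comap_beta hB hB' hc ιC ιC' hq hqM h z hz hζq j] at hβ
  cases i <;> cases j <;> first
    | rfl
    | exact absurd hα hne
    | exact absurd hα.symm hne
    | exact absurd hβ hne
    | exact absurd hβ.symm hne

include hc hζq ιC' in
theorem s36n2V_ne {i j : S36Comp} (hij : i ≠ j) :
    s36n2V hB hB' ψ ιC hq hqM h z hz i ≠ s36n2V hB hB' ψ ιC hq hqM h z hz j :=
  fun e => hij (s36n2V_injective hB hB' hc ιC ιC' hq hqM h z hz hζq e)

end Concrete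

end Fermat.Agent.S36

end
end ZBS36_022_3

/-! ### bundled: `Fermat.Agent.S36.NormOrdMain` -/
section ZBS36_022_4

/-!
# S36 / G-nr-ord, part 4: the four norm–order formulas (helper31)

From the four norm PRODUCT formulas (the conjugates table of `NOTES/S36-N2.md`; helper95,
`S36/NormConj.lean`) — taken as hypotheses `hN` — and the arithmetic data `S36NoData`:

* `s36no_alpha_inf  : winf (Nα x) = va x + vc x`
* `s36no_alpha_zero : w0 (Nα x) = q * vb x`
* `s36no_beta_inf   : winf (Nβ x) = q * va x`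
* `s36no_beta_zero  : w0 (Nβ x) = vc x + vb x`

i.e. exactly the hypotheses `hαinf hα0 hβinf hβ0` of `ng_vertical` (`S36/NormGlue.lean`).
-/

set_option autoImplicit false
set_option linter.unusedSectionVars false
set_option linter.unusedVariables false

noncomputable section

namespace Fermat.Agent.S36

open ModularCurve Fermat.Agent.INJ Fermat.Agent.UNIP Fermat.Agent.ES Fermat.Agent.AL
open Fermat.Agent.STB

section Patterns

variable {A₀ E k₀ A₁ K k₁ : Type*} [CommRing A₀] [Field E] [Field k₀]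
  [CommRing A₁] [Field K] [Field k₁]
  {ι₀ : A₀ →+* E} {r₀ : A₀ →+* k₀} {π₀ : A₀} {ι₁ : A₁ →+* K}
  {r₁ : A₁ →+* k₁} {π₁ : A₁} {ψ : E →+* K} {q : ℕ} {ζ : Kˣ}

theorem s36no_cancel {q : ℕ} (hq : q.Prime) {a b : ℤ} (h : a * ((q : ℤ) - 1) = b * ((q : ℤ) - 1)) :
    a = b := by
  have h2 : (2 : ℤ) ≤ q := by exact_mod_cast hq.two_le
  exact mul_right_cancel₀ (show ((q : ℤ) - 1) ≠ 0 by omega) h

/-- **pattern `(α,∞)`, `(β,0)`**: one conjugate over `E` and `q − 1` conjugates of order `c`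
over `K`. -/
theorem s36no_pattern_two (hq : q.Prime) (D : S36NoData ι₀ r₀ π₀ ι₁ r₁ π₁ ψ q ζ)
    {Y x₀ : LaurentSeries E} (hYf : VtFrac ι₀ Y) (hx₀ : x₀ ≠ 0) (hx₀f : VtFrac ι₀ x₀)
    (g : ℕ → LaurentSeries K) (c : ℤ)
    (hg0 : ∀ b ∈ Finset.Ico 1 q, g b ≠ 0) (hgf : ∀ b ∈ Finset.Ico 1 q, VtFrac ι₁ (g b))
    (hgc : ∀ b ∈ Finset.Ico 1 q, s36noOrd ι₁ r₁ π₁ (g b) = c)
    (hN : coeffMap ψ Y = coeffMap ψ x₀ * ∏ b ∈ Finset.Ico 1 q, g b) :
    s36noOrd ι₀ r₀ π₀ Y = s36noOrd ι₀ r₀ π₀ x₀ + c := by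
  have hP0 : ∏ b ∈ Finset.Ico 1 q, g b ≠ 0 := Finset.prod_ne_zero_iff.mpr hg0
  have hx₁ : coeffMap ψ x₀ ≠ 0 := s36no_coeffMap_ne_zero ψ hx₀
  have hY : Y ≠ 0 := by
    rintro rfl
    rw [map_zero] at hN
    exact mul_ne_zero hx₁ hP0 hN.symm
  have h1 := D.ord_bc hY hYf
  rw [hN, s36noOrd_mul D.hB₁ hx₁ hP0 (D.frac_bc hx₀f) (s36no_vtFrac_prod D.hB₁ _ _ hgf),
    D.ord_bc hx₀ hx₀f, s36noOrd_prod D.hB₁ _ _ hg0 hgf, Finset.sum_congr rfl hgc,
    Finset.sum_const, Nat.card_Ico, nsmul_eq_mul] at h1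
  have h2 : (1 : ℕ) ≤ q := hq.one_lt.le
  apply s36no_cancel hq
  rw [← h1]
  push_cast [Nat.cast_sub h2]
  ring

/-- **pattern `(β,∞)`, `(α,0)`**: `q` rotations of one conjugate over `E`. -/
theorem s36no_pattern_rot (hq : q.Prime) [NeZero q] (D : S36NoData ι₀ r₀ π₀ ι₁ r₁ π₁ ψ q ζ)
    {Y x₀ : LaurentSeries E} (hYf : VtFrac ι₀ Y) (hx₀ : x₀ ≠ 0) (hx₀f : VtFrac ι₀ x₀)
    (hN : qExpand K q (coeffMap ψ Y) =
      ∏ b ∈ Finset.range q, kronRot (ζ ^ b) (coeffMap ψ x₀)) :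
    s36noOrd ι₀ r₀ π₀ Y = q * s36noOrd ι₀ r₀ π₀ x₀ := by
  have hx₁ : coeffMap ψ x₀ ≠ 0 := s36no_coeffMap_ne_zero ψ hx₀
  have hx₁f : VtFrac ι₁ (coeffMap ψ x₀) := D.frac_bc hx₀f
  have hg0 : ∀ b ∈ Finset.range q, kronRot (ζ ^ b) (coeffMap ψ x₀) ≠ 0 :=
    fun b _ => s36no_kronRot_ne_zero _ hx₁
  have hgf : ∀ b ∈ Finset.range q, VtFrac ι₁ (kronRot (ζ ^ b) (coeffMap ψ x₀)) :=
    fun b _ => s36no_frac_kronRot' _ (D.zeta_pow b) hx₁f
  have hgc : ∀ b ∈ Finset.range q, s36noOrd ι₁ r₁ π₁ (kronRot (ζ ^ b) (coeffMap ψ x₀)) =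
      s36noOrd ι₀ r₀ π₀ x₀ * ((q : ℤ) - 1) := fun b _ => by
    rw [s36noOrd_kronRot' D.hB₁ _ (D.zeta_pow b) hx₁ hx₁f, D.ord_bc hx₀ hx₀f]
  have hP0 : ∏ b ∈ Finset.range q, kronRot (ζ ^ b) (coeffMap ψ x₀) ≠ 0 :=
    Finset.prod_ne_zero_iff.mpr hg0
  have hY : Y ≠ 0 := by
    rintro rfl
    rw [map_zero, map_zero] at hN
    exact hP0 hN.symm
  have hY₁ : coeffMap ψ Y ≠ 0 := s36no_coeffMap_ne_zero ψ hY
  have h1 := s36noOrd_qExpand D.hB₁ q hY₁ (D.frac_bc hYf)
  rw [hN, D.ord_bc hY hYf, s36noOrd_prod D.hB₁ _ _ hg0 hgf, Finset.sum_congr rfl hgc,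
    Finset.sum_const, Finset.card_range, nsmul_eq_mul] at h1
  apply s36no_cancel hq
  rw [← h1]
  ring

end Patterns

section Main

variable {A₀ E k₀ A₁ K k₁ : Type*} [CommRing A₀] [Field E] [Field k₀]
  [CommRing A₁] [Field K] [Field k₁]
  {ι₀ : A₀ →+* E} {r₀ : A₀ →+* k₀} {π₀ : A₀} {ι₁ : A₁ →+* K}
  {r₁ : A₁ →+* k₁} {π₁ : A₁} {ψ : E →+* K} (ιC : E →+* ℂ)
  {q M : ℕ} [NeZero q] [NeZero M] [NeZero (M * q)] [NeZero (M * q * q)]
  (hq : q.Prime) (hqM : ¬ q ∣ M) {ζ : Kˣ}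
  (D : S36NoData ι₀ r₀ π₀ ι₁ r₁ π₁ ψ q ζ) (h : S36MidEmb K q M ζ)

/-- the hypothesis on the family `μ_b`: it is the expansion at the middle cusp for `ζ ^ b` -/
def S36NoMu (ψ : E →+* K) (q M : ℕ) [NeZero q] [NeZero M] [NeZero (M * q)]
    [NeZero (M * q * q)] (ζ : Kˣ)
    (μ : ℕ → modularFunctionFieldFullC E (M * q * q) → LaurentSeries K) : Prop :=
  ∀ b, 1 ≤ b → b < q → ∃ h' : S36MidEmb K q M (ζ ^ b),
    ∀ x, μ b x = h'.emb (mgaCoeffHom ψ (M * q * q) x)

include hq D in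
/-- **`(Nα∞)`**: `w_∞ (N_α x) = v_a x + v_c x`. -/
theorem s36no_alpha_inf {μ : ℕ → modularFunctionFieldFullC E (M * q * q) → LaurentSeries K}
    (hμ : S36NoMu ψ q M ζ μ) {x : modularFunctionFieldFullC E (M * q * q)} (hx : x ≠ 0)
    (hN : coeffMap ψ ((stbNorm (s36Alpha E M q) x : modularFunctionFieldFullC E (M * q)) :
        LaurentSeries E) =
      coeffMap ψ (x : LaurentSeries E) * ∏ b ∈ Finset.Ico 1 q, μ b x) :
    s36noWinf ι₀ r₀ π₀ (stbNorm (s36Alpha E M q) x) =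
      s36noVa ι₀ r₀ π₀ x + s36noVc ι₁ r₁ π₁ ψ h x := by
  refine s36no_pattern_two hq D (vt_frac_fullC D.hB₀ _ (Subtype.property _))
    (s36no_coe_ne_zero hx) (vt_frac_fullC D.hB₀ _ x.2) (fun b => μ b x) _ ?_ ?_ ?_ hN
  · intro b hb
    obtain ⟨h', hh'⟩ := hμ b (Finset.mem_Ico.mp hb).1 (Finset.mem_Ico.mp hb).2
    rw [hh']
    exact s36no_mid_ne_zero h' hx
  · intro b hb
    obtain ⟨h', hh'⟩ := hμ b (Finset.mem_Ico.mp hb).1 (Finset.mem_Ico.mp hb).2
    rw [hh']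
    exact s36no_frac_mid D.hB₁ hq (D.zeta_pow b) h' _
  · intro b hb
    obtain ⟨h', hh'⟩ := hμ b (Finset.mem_Ico.mp hb).1 (Finset.mem_Ico.mp hb).2
    rw [hh']
    exact s36noVc_gal hq D h (Finset.mem_Ico.mp hb).1 (Finset.mem_Ico.mp hb).2 h' hx

include hq D in
/-- **`(Nβ∞)`**: `w_∞ (N_β x) = q · v_a x`. -/
theorem s36no_beta_inf {x : modularFunctionFieldFullC E (M * q * q)} (hx : x ≠ 0)
    (hN : qExpand K q (coeffMap ψ
        ((stbNorm (s36Beta E M q) x : modularFunctionFieldFullC E (M * q)) : LaurentSeries E)) =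
      ∏ b ∈ Finset.range q, kronRot (ζ ^ b) (coeffMap ψ (x : LaurentSeries E))) :
    s36noWinf ι₀ r₀ π₀ (stbNorm (s36Beta E M q) x) = q * s36noVa ι₀ r₀ π₀ x :=
  s36no_pattern_rot hq D (vt_frac_fullC D.hB₀ _ (Subtype.property _))
    (s36no_coe_ne_zero hx) (vt_frac_fullC D.hB₀ _ x.2) hN

include hq D in
/-- **`(Nα0)`**: `w_0 (N_α x) = q · v_b x`. -/
theorem s36no_alpha_zero {x : modularFunctionFieldFullC E (M * q * q)} (hx : x ≠ 0)
    (hN : qExpand K q (coeffMap ψ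
        ((atkinLehner E ιC hq hqM (stbNorm (s36Alpha E M q) x) :
          modularFunctionFieldFullC E (M * q)) : LaurentSeries E)) =
      ∏ b ∈ Finset.range q, kronRot (ζ ^ b)
        (coeffMap ψ ((s36n2W E ιC hq hqM x : modularFunctionFieldFullC E (M * q * q)) :
          LaurentSeries E))) :
    s36noW0 ι₀ r₀ π₀ ιC hq hqM (stbNorm (s36Alpha E M q) x) =
      q * s36noVb ι₀ r₀ π₀ ιC hq hqM x :=
  s36no_pattern_rot hq D (vt_frac_fullC D.hB₀ _ (Subtype.property _))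
    (s36no_coe_ne_zero ((map_ne_zero _).mpr hx)) (vt_frac_fullC D.hB₀ _ (Subtype.property _)) hN

include hq D in
/-- **`(Nβ0)`**: `w_0 (N_β x) = v_c x + v_b x`. -/
theorem s36no_beta_zero {μ : ℕ → modularFunctionFieldFullC E (M * q * q) → LaurentSeries K}
    (hμ : S36NoMu ψ q M ζ μ) {x : modularFunctionFieldFullC E (M * q * q)} (hx : x ≠ 0)
    (hN : coeffMap ψ ((atkinLehner E ιC hq hqM (stbNorm (s36Beta E M q) x) :
        modularFunctionFieldFullC E (M * q)) : LaurentSeries E) =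
      coeffMap ψ ((s36n2W E ιC hq hqM x : modularFunctionFieldFullC E (M * q * q)) :
          LaurentSeries E) *
        ∏ b ∈ Finset.Ico 1 q, kronRot (ζ ^ b)⁻¹ (μ b x)) :
    s36noW0 ι₀ r₀ π₀ ιC hq hqM (stbNorm (s36Beta E M q) x) =
      s36noVc ι₁ r₁ π₁ ψ h x + s36noVb ι₀ r₀ π₀ ιC hq hqM x := by
  rw [add_comm]
  refine s36no_pattern_two hq D (vt_frac_fullC D.hB₀ _ (Subtype.property _))
    (s36no_coe_ne_zero ((map_ne_zero _).mpr hx)) (vt_frac_fullC D.hB₀ _ (Subtype.property _))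
    (fun b => kronRot (ζ ^ b)⁻¹ (μ b x)) _ ?_ ?_ ?_ hN
  · intro b hb
    obtain ⟨h', hh'⟩ := hμ b (Finset.mem_Ico.mp hb).1 (Finset.mem_Ico.mp hb).2
    show kronRot (ζ ^ b)⁻¹ (μ b x) ≠ 0
    rw [hh']
    exact s36no_kronRot_ne_zero _ (s36no_mid_ne_zero h' hx)
  · intro b hb
    obtain ⟨h', hh'⟩ := hμ b (Finset.mem_Ico.mp hb).1 (Finset.mem_Ico.mp hb).2
    show VtFrac ι₁ (kronRot (ζ ^ b)⁻¹ (μ b x))
    rw [hh']
    exact s36no_frac_kronRot' _ (D.zeta_pow_inv b) (s36no_frac_mid D.hB₁ hq (D.zeta_pow b) h' _)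
  · intro b hb
    obtain ⟨h', hh'⟩ := hμ b (Finset.mem_Ico.mp hb).1 (Finset.mem_Ico.mp hb).2
    show s36noOrd ι₁ r₁ π₁ (kronRot (ζ ^ b)⁻¹ (μ b x)) = _
    rw [hh', s36noOrd_kronRot' D.hB₁ _ (D.zeta_pow_inv b) (s36no_mid_ne_zero h' hx)
      (s36no_frac_mid D.hB₁ hq (D.zeta_pow b) h' _)]
    exact s36noVc_gal hq D h (Finset.mem_Ico.mp hb).1 (Finset.mem_Ico.mp hb).2 h' hx

end Main

end Fermat.Agent.S36

end
end ZBS36_022_4

/-! ### bundled: `Fermat.Agent.S36.DescentNorm` -/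
section ZBS36_022_5

/-!
# S36 G-desc-N: the norm squares `E₀ ↔ ℚ̄` at level `M q²`

`q` prime, `q ∤ M`, `F′ = F_{Mq}`, `F = F_{Mqq}`, `α = s36Alpha K M q` (inclusion),
`β = s36Beta K M q` (`f ↦ f(Q^q)`).

* `s36dn_deg_alpha`, `s36dn_finite_alpha` : `[F : αF′] = q` over every field of characteristic `0`;
* `s36dn_beta_eq_comp`, `s36dn_deg_beta`, `s36dn_finite_beta` : `β = w ∘ α ∘ w′`, `[F : βF′] = q`
  (over a field `K` with an embedding into `ℂ`);
* `s36dn_alpha`, `s36dn_beta` : for `K₀ ≤ ℚ̄`,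
  `N_α (nfEmb u) = nfEmb (N_α u)`, `N_β (nfEmb u) = nfEmb (N_β u)`.
-/

set_option autoImplicit false
set_option linter.unusedSectionVars false
set_option linter.style.haveILetI false

noncomputable section

namespace Fermat.Agent.S36

open ModularCurve AlgebraicCurve Fermat.Agent.INJ Fermat.Agent.UNIP Fermat.Agent.STB
open Fermat.Agent.ES Fermat.Agent.ES.G2 Fermat.Agent.AL

section Deg

variable (K : Type*) [Field K] [CharZero K] (M q : ℕ) [NeZero M] [NeZero q]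

/-- **`[F_{Mqq} : F_{Mq}] = q`** along `α`, over every field of characteristic `0`. -/
theorem s36dn_deg_alpha (hq : q.Prime) : stbDeg (s36Alpha K M q) = q := by
  have h := hdeg_finrank_inclusion
    (full_degeneracyC_le K (Dvd.intro q rfl : M * q ∣ M * q * q))
  rw [stbd_relfinrank_fullC K (M * q) q hq (Dvd.intro_left M rfl)] at h
  exact h

theorem s36dn_finite_alpha (hq : q.Prime) : StbFinite (s36Alpha K M q) := by
  have h := s36dn_deg_alpha K M q hq
  letI := (s36Alpha K M q).toAlgebra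
  exact Module.finite_of_finrank_pos (by
    show 0 < stbDeg (s36Alpha K M q)
    rw [h]
    exact hq.pos)

end Deg

section Beta

variable (K : Type*) [Field K] [CharZero K] (ι : K →+* ℂ) {q M : ℕ} [NeZero q] [NeZero M]
  (hq : q.Prime) (hqM : ¬ q ∣ M)

/-- **`β = w ∘ α ∘ w′`** (`w = w_{q²}` at level `M q²`, `w′ = w_q` at level `M q`). -/
theorem s36dn_beta_eq_comp :
    s36Beta K M q =
      ((s36n2W K ι hq hqM).toRingEquiv :
        modularFunctionFieldFullC K (M * q * q) →+* modularFunctionFieldFullC K (M * q * q)).comp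
        ((s36Alpha K M q).comp
          ((atkinLehner K ι hq hqM).toRingEquiv :
            modularFunctionFieldFullC K (M * q) →+* modularFunctionFieldFullC K (M * q))) := by
  apply RingHom.ext
  intro x
  apply Subtype.ext
  have h := s36n2W_alpha K ι hq hqM (atkinLehner K ι hq hqM x).2
  rw [atkinLehner_invol] at h
  rw [coe_s36Beta]
  exact h.symm

include ι hq hqM in
/-- **`[F_{Mqq} : β F_{Mq}] = q`**. -/
theorem s36dn_deg_beta : stbDeg (s36Beta K M q) = q := by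
  rw [s36dn_beta_eq_comp K ι hq hqM, stb_finrank_equiv_comp, stbDeg_comp, stbDeg_equiv, one_mul,
    s36dn_deg_alpha K M q hq]

include ι hq hqM in
theorem s36dn_finite_beta : StbFinite (s36Beta K M q) := by
  have h := s36dn_deg_beta K ι hq hqM
  letI := (s36Beta K M q).toAlgebra
  exact Module.finite_of_finrank_pos (by
    show 0 < stbDeg (s36Beta K M q)
    rw [h]
    exact hq.pos)

end Beta

section Square

variable (K₀ : IntermediateField ℚ NfQb) {M q : ℕ} [NeZero M] [NeZero q]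

/-- an embedding of a subfield of `ℚ̄` into `ℂ` -/
theorem s36dn_exists_emb : Nonempty (↥K₀ →+* ℂ) := by
  haveI : Algebra.IsAlgebraic ℚ (AlgebraicClosure ℚ) := AlgebraicClosure.isAlgebraic ℚ
  exact ⟨((IsAlgClosed.lift : AlgebraicClosure ℚ →ₐ[ℚ] ℂ).toRingHom).comp
    (algebraMap ↥K₀ (AlgebraicClosure ℚ))⟩

/-- `f ↦ f(Q^n)` commutes with the maps of the coefficients -/
theorem s36dn_coeffMap_qExpand {R S : Type*} [CommRing R] [CommRing S] (f : R →+* S) (n : ℕ)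
    [NeZero n] (x : LaurentSeries R) : coeffMap f (qExpand R n x) = qExpand S n (coeffMap f x) := by
  ext k
  by_cases hk : (n : ℤ) ∣ k
  · obtain ⟨m, rfl⟩ := hk
    rw [coeffMap_coeff, qExpand_coeff_mul, qExpand_coeff_mul, coeffMap_coeff]
  · rw [coeffMap_coeff, qExpand_coeff_of_not_dvd n _ hk, qExpand_coeff_of_not_dvd n _ hk,
      map_zero]

/-- the square of `α` commutes -/
theorem s36dn_sq_alpha (x : modularFunctionFieldFullC K₀ (M * q)) :
    (heckeAlphaBar Qb (M * q) q).toRingHom (nfEmb K₀ (M * q) x) =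
      nfEmb K₀ (M * q * q) (s36Alpha K₀ M q x) := by
  apply Subtype.ext
  show ((heckeAlphaBar Qb (M * q) q (nfEmb K₀ (M * q) x) :
      modularFunctionFieldBar (M * q * q)) : LaurentSeries Qb) = _
  rw [coe_heckeAlphaBar, nfEmb_coe, nfEmb_coe, coe_s36Alpha]

/-- the square of `β` commutes -/
theorem s36dn_sq_beta (x : modularFunctionFieldFullC K₀ (M * q)) :
    (heckeBetaBar Qb (M * q) q).toRingHom (nfEmb K₀ (M * q) x) =
      nfEmb K₀ (M * q * q) (s36Beta K₀ M q x) := by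
  apply Subtype.ext
  show ((heckeBetaBar Qb (M * q) q (nfEmb K₀ (M * q) x) :
      modularFunctionFieldBar (M * q * q)) : LaurentSeries Qb) = _
  rw [coe_heckeBetaBar, nfEmb_coe, nfEmb_coe, coe_s36Beta, s36dn_coeffMap_qExpand]

/-- generation: `F_{N}(ℚ̄)` is generated as an ALGEBRA over `φ (F_{N'}(ℚ̄))` by the image of
`F_N(K₀)`, for every finite `ℚ̄`-embedding `φ`. -/
theorem s36dn_hgen {N' N : ℕ}
    (φ : modularFunctionFieldBar N' →ₐ[Qb] modularFunctionFieldBar N)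
    (hfin : StbFinite φ.toRingHom) :
    letI := φ.toRingHom.toAlgebra
    Algebra.adjoin (modularFunctionFieldBar N') (Set.range (nfEmb K₀ N)) = ⊤ :=
  s36dn_adjoin_eq_top_hom (k := Qb) φ.toRingHom (fun c => φ.commutes c) hfin _
    (nfEmb_adjoin_range K₀ N)

variable (hq : q.Prime) (hqM : ¬ q ∣ M)

include hq in
/-- **Norm square for `α`**, `E₀ ↔ ℚ̄` (any subfield `K₀ ≤ ℚ̄`). -/
theorem s36dn_alpha (u : modularFunctionFieldFullC K₀ (M * q * q)) :
    stbNormAlpha (M * q) q (nfEmb K₀ (M * q * q) u) =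
      nfEmb K₀ (M * q) (stbNorm (s36Alpha K₀ M q) u) := by
  have hdeg' : stbDeg (heckeAlphaBar Qb (M * q) q).toRingHom = q :=
    stbd_deg_alpha (M * q) q hq (Dvd.intro_left M rfl)
  have hfin : StbFinite (heckeAlphaBar Qb (M * q) q).toRingHom :=
    H.finiteAlong_heckeAlphaBar (M * q) q
  exact s36dn_norm_square_hom (s36Alpha K₀ M q) (nfEmb K₀ (M * q))
    (heckeAlphaBar Qb (M * q) q).toRingHom (nfEmb K₀ (M * q * q)) (s36dn_sq_alpha K₀)
    (by rw [s36dn_deg_alpha ↥K₀ M q hq]; exact hq.ne_zero)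
    (by rw [hdeg', s36dn_deg_alpha ↥K₀ M q hq])
    (s36dn_hgen K₀ (heckeAlphaBar Qb (M * q) q) hfin) u

include hq hqM in
/-- **Norm square for `β`**, `E₀ ↔ ℚ̄` (any subfield `K₀ ≤ ℚ̄`). -/
theorem s36dn_beta (u : modularFunctionFieldFullC K₀ (M * q * q)) :
    stbNormBeta (M * q) q (nfEmb K₀ (M * q * q) u) =
      nfEmb K₀ (M * q) (stbNorm (s36Beta K₀ M q) u) := by
  obtain ⟨ι⟩ := s36dn_exists_emb K₀
  have hdeg' : stbDeg (heckeBetaBar Qb (M * q) q).toRingHom = q :=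
    stbd_deg_beta (M * q) q hq (Dvd.intro_left M rfl)
  have hfin : StbFinite (heckeBetaBar Qb (M * q) q).toRingHom :=
    H.finiteAlong_heckeBetaBar (M * q) q
  exact s36dn_norm_square_hom (s36Beta K₀ M q) (nfEmb K₀ (M * q))
    (heckeBetaBar Qb (M * q) q).toRingHom (nfEmb K₀ (M * q * q)) (s36dn_sq_beta K₀)
    (by rw [s36dn_deg_beta ↥K₀ ι hq hqM]; exact hq.ne_zero)
    (by rw [hdeg', s36dn_deg_beta ↥K₀ ι hq hqM])
    (s36dn_hgen K₀ (heckeBetaBar Qb (M * q) q) hfin) u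

end Square

section Incl

variable {K₀ K₁ : IntermediateField ℚ NfQb} (h : K₀ ≤ K₁) {M q : ℕ} [NeZero M] [NeZero q]

/-- `F_N(K₁)` is generated over `K₁` by the image of `F_N(K₀)`. -/
theorem s36dn_incl_adjoin_range (N : ℕ) :
    IntermediateField.adjoin ↥K₁ (Set.range (mgaIncl h N)) = ⊤ := by
  apply IntermediateField.lift_injective
  rw [IntermediateField.lift_top, IntermediateField.lift_adjoin]
  apply le_antisymm
  · rw [IntermediateField.adjoin_le_iff]
    rintro _ ⟨_, ⟨y, rfl⟩, rfl⟩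
    exact (mgaIncl h N y).2
  · change IntermediateField.adjoin ↥K₁ (divisorExpansionsC ↥K₁ N) ≤ _
    rw [IntermediateField.adjoin_le_iff]
    rintro _ ⟨d, hd, hdN, rfl⟩
    refine IntermediateField.subset_adjoin ↥K₁ _
      ⟨mgaIncl h N ⟨qExpand ↥K₀ d (jqModC ↥K₀), jqModCd_mem_full ↥K₀ N hdN⟩, ⟨_, rfl⟩, ?_⟩
    exact coeffMap_jqNModC _ d

/-- the square of `α` commutes (`K₀ ≤ K₁`) -/
theorem s36dn_sq_alpha_incl (x : modularFunctionFieldFullC ↥K₀ (M * q)) :
    s36Alpha ↥K₁ M q (mgaIncl h (M * q) x) = mgaIncl h (M * q * q) (s36Alpha ↥K₀ M q x) := by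
  apply Subtype.ext
  rw [coe_s36Alpha, mgaIncl_coe, mgaIncl_coe, coe_s36Alpha]

/-- the square of `β` commutes (`K₀ ≤ K₁`) -/
theorem s36dn_sq_beta_incl (x : modularFunctionFieldFullC ↥K₀ (M * q)) :
    s36Beta ↥K₁ M q (mgaIncl h (M * q) x) = mgaIncl h (M * q * q) (s36Beta ↥K₀ M q x) := by
  apply Subtype.ext
  rw [coe_s36Beta, mgaIncl_coe, mgaIncl_coe, coe_s36Beta, s36dn_coeffMap_qExpand]

/-- generation (`K₀ ≤ K₁`) -/
theorem s36dn_hgen_incl {N' N : ℕ}
    (φ : modularFunctionFieldFullC ↥K₁ N' →+* modularFunctionFieldFullC ↥K₁ N)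
    (hφ : ∀ c : ↥K₁, φ (algebraMap ↥K₁ _ c) = algebraMap ↥K₁ _ c)
    (hfin : StbFinite φ) :
    letI := φ.toAlgebra
    Algebra.adjoin ↥(modularFunctionFieldFullC ↥K₁ N') (Set.range (mgaIncl h N)) = ⊤ :=
  s36dn_adjoin_eq_top_hom (k := ↥K₁) φ hφ hfin _ (s36dn_incl_adjoin_range h N)

theorem s36dn_alpha_const (K : Type*) [Field K] (c : K) :
    s36Alpha K M q (algebraMap K _ c) = algebraMap K _ c := rfl

theorem s36dn_beta_const (K : Type*) [Field K] (c : K) :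
    s36Beta K M q (algebraMap K _ c) = algebraMap K _ c := by
  apply Subtype.ext
  rw [coe_s36Beta]
  show qExpand K q (algebraMap K (LaurentSeries K) c) = algebraMap K (LaurentSeries K) c
  rw [algebraMap_laurentSeries_eq_single, qExpand_single, mul_zero]

variable (hq : q.Prime) (hqM : ¬ q ∣ M)

include hq in
/-- **Norm square for `α`**, `K₀ ≤ K₁ ≤ ℚ̄`. -/
theorem s36dn_alpha_incl (u : modularFunctionFieldFullC ↥K₀ (M * q * q)) :
    stbNorm (s36Alpha ↥K₁ M q) (mgaIncl h (M * q * q) u) =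
      mgaIncl h (M * q) (stbNorm (s36Alpha ↥K₀ M q) u) :=
  s36dn_norm_square_hom (s36Alpha ↥K₀ M q) (mgaIncl h (M * q))
    (s36Alpha ↥K₁ M q) (mgaIncl h (M * q * q)) (s36dn_sq_alpha_incl h)
    (by rw [s36dn_deg_alpha ↥K₀ M q hq]; exact hq.ne_zero)
    (by rw [s36dn_deg_alpha ↥K₁ M q hq, s36dn_deg_alpha ↥K₀ M q hq])
    (s36dn_hgen_incl h (s36Alpha ↥K₁ M q) (s36dn_alpha_const ↥K₁)
      (s36dn_finite_alpha ↥K₁ M q hq)) u

include hq hqM in
/-- **Norm square for `β`**, `K₀ ≤ K₁ ≤ ℚ̄`. -/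
theorem s36dn_beta_incl (u : modularFunctionFieldFullC ↥K₀ (M * q * q)) :
    stbNorm (s36Beta ↥K₁ M q) (mgaIncl h (M * q * q) u) =
      mgaIncl h (M * q) (stbNorm (s36Beta ↥K₀ M q) u) := by
  obtain ⟨ι₀⟩ := s36dn_exists_emb K₀
  obtain ⟨ι₁⟩ := s36dn_exists_emb K₁
  exact s36dn_norm_square_hom (s36Beta ↥K₀ M q) (mgaIncl h (M * q))
    (s36Beta ↥K₁ M q) (mgaIncl h (M * q * q)) (s36dn_sq_beta_incl h)
    (by rw [s36dn_deg_beta ↥K₀ ι₀ hq hqM]; exact hq.ne_zero)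
    (by rw [s36dn_deg_beta ↥K₁ ι₁ hq hqM, s36dn_deg_beta ↥K₀ ι₀ hq hqM])
    (s36dn_hgen_incl h (s36Beta ↥K₁ M q) (s36dn_beta_const ↥K₁)
      (s36dn_finite_beta ↥K₁ ι₁ hq hqM)) u

end Incl

end Fermat.Agent.S36

end
end ZBS36_022_5

/-! ### bundled: `Fermat.Agent.S36.NormConj` -/
section ZBS36_022_6

/-!
# S36 / G-nr-conj: the four families of conjugates at level `M q²` and the norm products

`E` a field of characteristic `0`, `ψ : E →+* K`, `ζ : Kˣ` a primitive `q`-th root of unity,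
`ιC : E →+* ℂ`, `ιK : K →+* ℂ`, `q` prime, `q ∤ M`;
`F′ = F_{Mq}(E)`, `F = F_{Mq²}(E)`, `α = s36Alpha E M q` (inclusion), `β = s36Beta E M q`
(`f ↦ f(Q^q)`), `w′` the Atkin–Lehner involution of level `M q`, `w = s36n2W` that of level
`M q²`, `μ_z` the expansion at the middle cusp of `F_{Mq²}(K)` (`s36midEmb`), `ψ̂ = coeffMap ψ`.

Embeddings `F →+* K((Q))`:
* `s36ncA` : `e_a = ψ̂ ∘ (plain expansion)`;  `s36ncB` : `e_b = e_a ∘ w`;
* `s36ncMu b` : `μ_{ζ^b} ∘ (base change)` (total in `b : ℕ`; `= e_a` if `q ∣ b`).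

The four families `Fin q → (F →+* K((Q)))` (NOTES/S36-N2.md, CONJUGATES):
* `s36ncBetaInf`   : `kronRot ζ^b ∘ e_a`            — restriction along `β` : `f ↦ (ψ̂ f)(Q^q)`;
* `s36ncAlphaZero` : `kronRot ζ^b ∘ e_b`            — restriction along `α` : `f ↦ (ψ̂ w′ f)(Q^q)`;
* `s36ncAlphaInf`  : `e_a`, `μ_{ζ^b}` (`b ≠ 0`)     — restriction along `α` : `f ↦ ψ̂ f`;
* `s36ncBetaZero`  : `e_b`, `kronRot ζ^{-b} ∘ μ_{ζ^b}` (`b ≠ 0`) — restriction along `β` :
  `f ↦ ψ̂ (w′ f)`.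

For each family: the restriction (`…_restr`), injectivity (`…_injective`), and the norm product
formulas `s36nc_norm_betaInf` (Nβ∞), `s36nc_norm_alphaZero` (Nα0), `s36nc_norm_alphaInf` (Nα∞),
`s36nc_norm_betaZero` (Nβ0).
-/

set_option autoImplicit false
set_option linter.unusedSectionVars false
set_option linter.unusedVariables false
set_option linter.style.haveILetI false

noncomputable section

namespace Fermat.Agent.S36

open ModularCurve HahnSeries Fermat.Agent.ES Fermat.Agent.AL Fermat.Agent.UNIP Fermat.Agent.STB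

section Conj

variable {E K : Type*} [Field E] [Field K] (ψ : E →+* K) (ιC : E →+* ℂ) (ιK : K →+* ℂ)
  {q M : ℕ} [NeZero q] [NeZero M] [NeZero (M * q)] [NeZero (M * q * q)]
  (hq : q.Prime) (hqM : ¬ q ∣ M) (ζ : Kˣ) (hζ : IsPrimitiveRoot (ζ : K) q)

/-! ### The embeddings -/

/-- `e_a` : the plain expansion of `F_{Mq²}(E)`, with coefficients in `K` -/
def s36ncA : modularFunctionFieldFullC E (M * q * q) →+* LaurentSeries K :=
  (coeffMap ψ).comp (modularFunctionFieldFullC E (M * q * q)).val.toRingHom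

@[simp]
theorem s36ncA_apply (x : modularFunctionFieldFullC E (M * q * q)) :
    s36ncA ψ (q := q) (M := M) x = coeffMap ψ (x : LaurentSeries E) := rfl

/-- `e_b = e_a ∘ w` -/
def s36ncB : modularFunctionFieldFullC E (M * q * q) →+* LaurentSeries K :=
  (s36ncA ψ).comp (s36n2W E ιC hq hqM).toAlgHom.toRingHom

@[simp]
theorem s36ncB_apply (x : modularFunctionFieldFullC E (M * q * q)) :
    s36ncB ψ ιC hq hqM x =
      coeffMap ψ ((s36n2W E ιC hq hqM x : modularFunctionFieldFullC E (M * q * q)) :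
        LaurentSeries E) := rfl

include hq hζ in
theorem s36nc_pow_primitive {b : ℕ} (hb : ¬ q ∣ b) :
    IsPrimitiveRoot (((ζ ^ b : Kˣ)) : K) q := by
  rw [Units.val_pow_eq_pow_val]
  exact hζ.pow_of_coprime b ((Nat.Prime.coprime_iff_not_dvd hq).mpr hb).symm

/-- `μ_{ζ^b}` on `F_{Mq²}(K)` (`q ∤ b`) -/
def s36ncMuK {b : ℕ} (hb : ¬ q ∣ b) : S36MidEmb K q M (ζ ^ b) :=
  s36midEmb K ιK hq hqM (ζ ^ b) (s36nc_pow_primitive hq ζ hζ hb)

open Classical in
/-- `μ_{ζ^b} ∘ (base change)` : the expansion at the middle cusp of `F_{Mq²}(E)`; total in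
`b : ℕ` (equal to `e_a` if `q ∣ b`). -/
def s36ncMu (b : ℕ) : modularFunctionFieldFullC E (M * q * q) →+* LaurentSeries K :=
  if hb : ¬ q ∣ b then
    ((s36ncMuK ιK hq hqM ζ hζ hb).emb.toRingHom).comp (mgaCoeffHom ψ (M * q * q))
  else s36ncA ψ

theorem s36ncMu_apply {b : ℕ} (hb : ¬ q ∣ b) (x : modularFunctionFieldFullC E (M * q * q)) :
    s36ncMu ψ ιK hq hqM ζ hζ b x =
      (s36ncMuK ιK hq hqM ζ hζ hb).emb (mgaCoeffHom ψ (M * q * q) x) := by
  unfold s36ncMu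
  rw [dif_pos hb]
  rfl

include hζ in
theorem s36nc_pow_q (b : ℕ) : (ζ ^ b) ^ q = 1 := by
  have h1 : (ζ : K) ^ q = 1 := hζ.pow_eq_one
  have h2 : ζ ^ q = 1 := Units.ext (by rw [Units.val_pow_eq_pow_val, h1]; rfl)
  rw [← pow_mul, mul_comm, pow_mul, h2, one_pow]

theorem s36nc_fin_not_dvd {b : Fin q} (hb : (b : ℕ) ≠ 0) : ¬ q ∣ (b : ℕ) :=
  Nat.not_dvd_of_pos_of_lt (Nat.pos_of_ne_zero hb) b.2

/-! ### Separation: the coefficient of `Q⁻¹` -/

theorem s36nc_kronRot_j_coeff (z : Kˣ) :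
    (kronRot z (jqModC K)).coeff (-1) = ((z⁻¹ : Kˣ) : K) := by
  rw [kronRot_coeff, coeff_jqModC_neg_one, mul_one, zpow_neg_one]

theorem s36nc_qExpand_sq_j_coeff (hq2 : 2 ≤ q) :
    (qExpand K q (qExpand K q (jqModC K))).coeff (-1) = 0 := by
  refine qExpand_coeff_of_not_dvd q _ ?_
  intro h
  have h1 : (q : ℤ) ∣ 1 := by
    obtain ⟨c, hc⟩ := h
    exact ⟨-c, by linarith⟩
  have h2 := Int.le_of_dvd one_pos h1
  omega

include hζ in
theorem s36nc_pow_inj {b b' : Fin q} (h : ζ ^ (b : ℕ) = ζ ^ (b' : ℕ)) : b = b' := by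
  have h' := congrArg Units.val h
  rw [Units.val_pow_eq_pow_val, Units.val_pow_eq_pow_val] at h'
  exact Fin.ext (hζ.pow_inj b.2 b'.2 h')

theorem s36nc_coeffMap_j : coeffMap ψ (jqModC E) = jqModC K := map_jqModC ψ

/-- `j ∈ F_{Mq²}` -/
def s36ncJ : modularFunctionFieldFullC E (M * q * q) :=
  ⟨jqModC E, jqModC_mem_full E (M * q * q)⟩

/-- `j(Q^{q²}) ∈ F_{Mq²}` -/
def s36ncJqq : modularFunctionFieldFullC E (M * q * q) :=
  ⟨qExpand E q (qExpand E q (jqModC E)), s36mid_qExpand_sq_mem (jqModC_mem_full E M)⟩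

theorem s36ncA_J : s36ncA ψ (s36ncJ (E := E) (q := q) (M := M)) = jqModC K :=
  s36nc_coeffMap_j ψ

theorem s36ncA_Jqq :
    s36ncA ψ (s36ncJqq (E := E) (q := q) (M := M)) = qExpand K q (qExpand K q (jqModC K)) := by
  show coeffMap ψ (qExpand E q (qExpand E q (jqModC E))) = _
  rw [coeffMap_qExpand, coeffMap_qExpand, s36nc_coeffMap_j]

theorem s36ncB_J :
    s36ncB ψ ιC hq hqM (s36ncJ (E := E) (q := q) (M := M)) =
      qExpand K q (qExpand K q (jqModC K)) := by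
  rw [s36ncB_apply]
  have h := s36n2W_base E ιC hq hqM (jqModC_mem_full E M)
  have h1 : (s36ncJ (E := E) (q := q) (M := M)) =
      ⟨jqModC E, s36n2_mem_of_mem_base E (jqModC_mem_full E M)⟩ := rfl
  rw [h1, h, coeffMap_qExpand, coeffMap_qExpand, s36nc_coeffMap_j]

theorem s36ncB_Jqq :
    s36ncB ψ ιC hq hqM (s36ncJqq (E := E) (q := q) (M := M)) = jqModC K := by
  rw [s36ncB_apply]
  have h := s36n2W_qExpand_sq E ιC hq hqM (jqModC_mem_full E M)
  have h1 : (s36ncJqq (E := E) (q := q) (M := M)) =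
      ⟨qExpand E q (qExpand E q (jqModC E)),
        alq_qExpand_mem E (al_qExpand_mem E (jqModC_mem_full E M))⟩ := rfl
  rw [h1, h, s36nc_coeffMap_j]

theorem s36ncMu_J {b : ℕ} (hb : ¬ q ∣ b) :
    s36ncMu ψ ιK hq hqM ζ hζ b (s36ncJ (E := E) (q := q) (M := M)) = jqModC K := by
  rw [s36ncMu_apply ψ ιK hq hqM ζ hζ hb]
  have h1 : mgaCoeffHom ψ (M * q * q) (s36ncJ (E := E) (q := q) (M := M)) =
      ⟨jqModC K, s36mid_low_le (jqModC_mem_full K (M * q))⟩ :=
    Subtype.ext (s36nc_coeffMap_j ψ)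
  rw [h1, (s36ncMuK ιK hq hqM ζ hζ hb).emb_of_mem_low (jqModC_mem_full K (M * q))]

theorem s36ncMu_Jqq {b : ℕ} (hb : ¬ q ∣ b) :
    s36ncMu ψ ιK hq hqM ζ hζ b (s36ncJqq (E := E) (q := q) (M := M)) =
      kronRot (ζ ^ b) (jqModC K) := by
  rw [s36ncMu_apply ψ ιK hq hqM ζ hζ hb]
  have h1 : mgaCoeffHom ψ (M * q * q) (s36ncJqq (E := E) (q := q) (M := M)) =
      ⟨qExpand K q (qExpand K q (jqModC K)), s36mid_qExpand_sq_mem (jqModC_mem_full K M)⟩ :=
    Subtype.ext (s36ncA_Jqq (q := q) (M := M) ψ)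
  rw [h1, (s36ncMuK ιK hq hqM ζ hζ hb).emb_base_sq ιK hq hqM (s36nc_pow_q ζ hζ b)
    (jqModC_mem_full K M)]

/-! ### The family `(β,∞)` -/

/-- the family `(β,∞)` : `kronRot ζ^b ∘ e_a` -/
def s36ncBetaInf (b : Fin q) : modularFunctionFieldFullC E (M * q * q) →+* LaurentSeries K :=
  (kronRot (ζ ^ (b : ℕ))).comp (s36ncA ψ)

/-- the base embedding of `(β,∞)` : `f ↦ (ψ̂ f)(Q^q)` -/
def s36ncBaseBetaInf : modularFunctionFieldFullC E (M * q) →+* LaurentSeries K :=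
  (qExpand K q).comp ((coeffMap ψ).comp (modularFunctionFieldFullC E (M * q)).val.toRingHom)

include hζ in
theorem s36ncBetaInf_restr (b : Fin q) (x : modularFunctionFieldFullC E (M * q)) :
    s36ncBetaInf ψ ζ b (s36Beta E M q x) = s36ncBaseBetaInf ψ x := by
  show kronRot (ζ ^ (b : ℕ)) (coeffMap ψ (qExpand E q (x : LaurentSeries E))) =
    qExpand K q (coeffMap ψ (x : LaurentSeries E))
  rw [coeffMap_qExpand, qExpand_kronRot_pow, s36nc_pow_q ζ hζ, kronRot_one]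

include hζ in
theorem s36ncBetaInf_injective :
    Function.Injective (s36ncBetaInf (E := E) (q := q) (M := M) ψ ζ) := by
  intro b b' h
  have h1 := congrArg (fun f : modularFunctionFieldFullC E (M * q * q) →+* LaurentSeries K =>
    (f (s36ncJ (E := E) (q := q) (M := M))).coeff (-1)) h
  have h2 : ∀ c : Fin q, (s36ncBetaInf ψ ζ c (s36ncJ (E := E) (q := q) (M := M))).coeff (-1) =
      (((ζ ^ (c : ℕ))⁻¹ : Kˣ) : K) := by
    intro c
    show (kronRot (ζ ^ (c : ℕ)) (s36ncA ψ (s36ncJ (E := E) (q := q) (M := M)))).coeff (-1) = _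
    rw [s36ncA_J, s36nc_kronRot_j_coeff]
  simp only [h2] at h1
  exact s36nc_pow_inj ζ hζ (inv_injective (Units.ext h1))

/-! ### The family `(α,0)` -/

/-- the family `(α,0)` : `kronRot ζ^b ∘ e_b` -/
def s36ncAlphaZero (b : Fin q) : modularFunctionFieldFullC E (M * q * q) →+* LaurentSeries K :=
  (kronRot (ζ ^ (b : ℕ))).comp (s36ncB ψ ιC hq hqM)

/-- the base embedding of `(α,0)` : `f ↦ (ψ̂ (w′ f))(Q^q)` -/
def s36ncBaseAlphaZero : modularFunctionFieldFullC E (M * q) →+* LaurentSeries K :=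
  (s36ncBaseBetaInf ψ).comp (atkinLehner E ιC hq hqM).toAlgHom.toRingHom

theorem s36ncBaseAlphaZero_apply (x : modularFunctionFieldFullC E (M * q)) :
    s36ncBaseAlphaZero ψ ιC hq hqM x =
      qExpand K q (coeffMap ψ ((atkinLehner E ιC hq hqM x : modularFunctionFieldFullC E (M * q)) :
        LaurentSeries E)) := rfl

include hζ in
theorem s36ncAlphaZero_restr (b : Fin q) (x : modularFunctionFieldFullC E (M * q)) :
    s36ncAlphaZero ψ ιC hq hqM ζ b (s36Alpha E M q x) = s36ncBaseAlphaZero ψ ιC hq hqM x := by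
  show kronRot (ζ ^ (b : ℕ)) (coeffMap ψ
    ((s36n2W E ιC hq hqM (s36Alpha E M q x) : modularFunctionFieldFullC E (M * q * q)) :
      LaurentSeries E)) = _
  have h := s36n2W_alpha E ιC hq hqM x.2
  have h1 : s36Alpha E M q x = ⟨(x : LaurentSeries E), alq_mem_of_mem_lower E x.2⟩ := rfl
  rw [h1, h, s36ncBaseAlphaZero_apply, coeffMap_qExpand, qExpand_kronRot_pow, s36nc_pow_q ζ hζ,
    kronRot_one]

include hζ in
theorem s36ncAlphaZero_injective :
    Function.Injective (s36ncAlphaZero (E := E) (q := q) (M := M) ψ ιC hq hqM ζ) := by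
  intro b b' h
  have h1 := congrArg (fun f : modularFunctionFieldFullC E (M * q * q) →+* LaurentSeries K =>
    (f (s36ncJqq (E := E) (q := q) (M := M))).coeff (-1)) h
  have h2 : ∀ c : Fin q,
      (s36ncAlphaZero ψ ιC hq hqM ζ c (s36ncJqq (E := E) (q := q) (M := M))).coeff (-1) =
      (((ζ ^ (c : ℕ))⁻¹ : Kˣ) : K) := by
    intro c
    show (kronRot (ζ ^ (c : ℕ))
      (s36ncB ψ ιC hq hqM (s36ncJqq (E := E) (q := q) (M := M)))).coeff (-1) = _
    rw [s36ncB_Jqq, s36nc_kronRot_j_coeff]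
  simp only [h2] at h1
  exact s36nc_pow_inj ζ hζ (inv_injective (Units.ext h1))

/-! ### The family `(α,∞)` -/

/-- the family `(α,∞)` : `e_a` (`b = 0`), `μ_{ζ^b}` (`b ≠ 0`) -/
def s36ncAlphaInf (b : Fin q) : modularFunctionFieldFullC E (M * q * q) →+* LaurentSeries K :=
  s36ncMu ψ ιK hq hqM ζ hζ (b : ℕ)

/-- the base embedding of `(α,∞)` : `f ↦ ψ̂ f` -/
def s36ncBaseAlphaInf : modularFunctionFieldFullC E (M * q) →+* LaurentSeries K :=
  (coeffMap ψ).comp (modularFunctionFieldFullC E (M * q)).val.toRingHom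

theorem s36ncMu_of_dvd {b : ℕ} (hb : q ∣ b) :
    s36ncMu (E := E) (M := M) ψ ιK hq hqM ζ hζ b = s36ncA ψ := by
  unfold s36ncMu
  rw [dif_neg (not_not.mpr hb)]

theorem s36ncMu_zero : s36ncMu (E := E) (M := M) ψ ιK hq hqM ζ hζ 0 = s36ncA ψ :=
  s36ncMu_of_dvd ψ ιK hq hqM ζ hζ (dvd_zero q)

theorem s36ncMu_restr (b : ℕ) (x : modularFunctionFieldFullC E (M * q)) :
    s36ncMu ψ ιK hq hqM ζ hζ b (s36Alpha E M q x) = s36ncBaseAlphaInf ψ x := by
  have hbase : s36ncBaseAlphaInf ψ x = coeffMap ψ (x : LaurentSeries E) := rfl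
  by_cases hb : q ∣ b
  · rw [s36ncMu_of_dvd ψ ιK hq hqM ζ hζ hb, s36ncA_apply, coe_s36Alpha, hbase]
  · rw [s36ncMu_apply ψ ιK hq hqM ζ hζ hb]
    have hx : coeffMap ψ (x : LaurentSeries E) ∈ modularFunctionFieldFullC K (M * q) :=
      (mgaCoeffHom ψ (M * q) x).2
    have h1 : mgaCoeffHom ψ (M * q * q) (s36Alpha E M q x) =
        ⟨coeffMap ψ (x : LaurentSeries E), s36mid_low_le hx⟩ :=
      Subtype.ext (by rw [mgaCoeffHom_coe, coe_s36Alpha])
    rw [h1, (s36ncMuK ιK hq hqM ζ hζ hb).emb_of_mem_low hx, hbase]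

theorem s36ncAlphaInf_restr (b : Fin q) (x : modularFunctionFieldFullC E (M * q)) :
    s36ncAlphaInf ψ ιK hq hqM ζ hζ b (s36Alpha E M q x) = s36ncBaseAlphaInf ψ x :=
  s36ncMu_restr ψ ιK hq hqM ζ hζ _ x

theorem s36ncAlphaInf_Jqq_coeff (b : Fin q) :
    (s36ncAlphaInf ψ ιK hq hqM ζ hζ b (s36ncJqq (E := E) (q := q) (M := M))).coeff (-1) =
      if (b : ℕ) = 0 then 0 else (((ζ ^ (b : ℕ))⁻¹ : Kˣ) : K) := by
  unfold s36ncAlphaInf
  split_ifs with h0
  · rw [h0, s36ncMu_zero, s36ncA_Jqq, s36nc_qExpand_sq_j_coeff hq.two_le]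
  · rw [s36ncMu_Jqq ψ ιK hq hqM ζ hζ (s36nc_fin_not_dvd h0), s36nc_kronRot_j_coeff]

theorem s36ncAlphaInf_injective :
    Function.Injective (s36ncAlphaInf (E := E) (q := q) (M := M) ψ ιK hq hqM ζ hζ) := by
  intro b b' h
  have h1 := congrArg (fun f : modularFunctionFieldFullC E (M * q * q) →+* LaurentSeries K =>
    (f (s36ncJqq (E := E) (q := q) (M := M))).coeff (-1)) h
  simp only [s36ncAlphaInf_Jqq_coeff] at h1
  by_cases hb : (b : ℕ) = 0 <;> by_cases hb' : (b' : ℕ) = 0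
  · exact Fin.ext (hb.trans hb'.symm)
  · rw [if_pos hb, if_neg hb'] at h1
    exact absurd h1.symm (Units.ne_zero _)
  · rw [if_neg hb, if_pos hb'] at h1
    exact absurd h1 (Units.ne_zero _)
  · rw [if_neg hb, if_neg hb'] at h1
    exact s36nc_pow_inj ζ hζ (inv_injective (Units.ext h1))

/-! ### The family `(β,0)` -/

open Classical in
/-- `kronRot ζ^{-b} ∘ μ_{ζ^b}` (`q ∤ b`), `e_b` (`q ∣ b`) -/
def s36ncNu (b : ℕ) : modularFunctionFieldFullC E (M * q * q) →+* LaurentSeries K :=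
  if hb : ¬ q ∣ b then (kronRot (ζ ^ b)⁻¹).comp (s36ncMu ψ ιK hq hqM ζ hζ b)
  else s36ncB ψ ιC hq hqM

theorem s36ncNu_of_dvd {b : ℕ} (hb : q ∣ b) :
    s36ncNu (E := E) (M := M) ψ ιC ιK hq hqM ζ hζ b = s36ncB ψ ιC hq hqM := by
  unfold s36ncNu
  rw [dif_neg (not_not.mpr hb)]

theorem s36ncNu_zero :
    s36ncNu (E := E) (M := M) ψ ιC ιK hq hqM ζ hζ 0 = s36ncB ψ ιC hq hqM :=
  s36ncNu_of_dvd ψ ιC ιK hq hqM ζ hζ (dvd_zero q)

theorem s36ncNu_apply {b : ℕ} (hb : ¬ q ∣ b) (x : modularFunctionFieldFullC E (M * q * q)) :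
    s36ncNu ψ ιC ιK hq hqM ζ hζ b x =
      kronRot (ζ ^ b)⁻¹ (s36ncMu ψ ιK hq hqM ζ hζ b x) := by
  unfold s36ncNu
  rw [dif_pos hb]
  rfl

/-- the family `(β,0)` : `e_b` (`b = 0`), `kronRot ζ^{-b} ∘ μ_{ζ^b}` (`b ≠ 0`) -/
def s36ncBetaZero (b : Fin q) : modularFunctionFieldFullC E (M * q * q) →+* LaurentSeries K :=
  s36ncNu ψ ιC ιK hq hqM ζ hζ (b : ℕ)

/-- the base embedding of `(β,0)` : `f ↦ ψ̂ (w′ f)` -/
def s36ncBaseBetaZero : modularFunctionFieldFullC E (M * q) →+* LaurentSeries K :=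
  (s36ncBaseAlphaInf ψ).comp (atkinLehner E ιC hq hqM).toAlgHom.toRingHom

theorem s36ncBaseBetaZero_apply (x : modularFunctionFieldFullC E (M * q)) :
    s36ncBaseBetaZero ψ ιC hq hqM x =
      coeffMap ψ ((atkinLehner E ιC hq hqM x : modularFunctionFieldFullC E (M * q)) :
        LaurentSeries E) := rfl

theorem s36ncNu_restr (b : ℕ) (x : modularFunctionFieldFullC E (M * q)) :
    s36ncNu ψ ιC ιK hq hqM ζ hζ b (s36Beta E M q x) = s36ncBaseBetaZero ψ ιC hq hqM x := by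
  by_cases hb : q ∣ b
  · rw [s36ncNu_of_dvd ψ ιC ιK hq hqM ζ hζ hb, s36ncB_apply, s36ncBaseBetaZero_apply]
    have h := s36n2W_beta E ιC hq hqM x.2
    have h1 : s36Beta E M q x = ⟨qExpand E q (x : LaurentSeries E), alq_qExpand_mem E x.2⟩ := rfl
    rw [h1, h]
  · rw [s36ncNu_apply ψ ιC ιK hq hqM ζ hζ hb, s36ncMu_apply ψ ιK hq hqM ζ hζ hb]
    have hx : coeffMap ψ (x : LaurentSeries E) ∈ modularFunctionFieldFullC K (M * q) :=
      (mgaCoeffHom ψ (M * q) x).2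
    have h1 : mgaCoeffHom ψ (M * q * q) (s36Beta E M q x) =
        ⟨qExpand K q (coeffMap ψ (x : LaurentSeries E)), s36mid_qExpand_mem hx⟩ :=
      Subtype.ext (coeffMap_qExpand ψ q (x : LaurentSeries E))
    rw [h1, (s36ncMuK ιK hq hqM ζ hζ hb).emb_qExpand ιK hq hqM (s36nc_pow_q ζ hζ b) hx,
      kronRot_kronRot, inv_mul_cancel, kronRot_one, s36ncBaseBetaZero_apply]
    have h2 := vt_atkinLehner_coeffHom ψ ιC ιK hq hqM x
    have h3 : (⟨coeffMap ψ (x : LaurentSeries E), hx⟩ : modularFunctionFieldFullC K (M * q)) =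
        mgaCoeffHom ψ (M * q) x := rfl
    rw [h3, h2]
    rfl

theorem s36ncBetaZero_restr (b : Fin q) (x : modularFunctionFieldFullC E (M * q)) :
    s36ncBetaZero ψ ιC ιK hq hqM ζ hζ b (s36Beta E M q x) = s36ncBaseBetaZero ψ ιC hq hqM x :=
  s36ncNu_restr ψ ιC ιK hq hqM ζ hζ _ x

theorem s36ncBetaZero_J_coeff (b : Fin q) :
    (s36ncBetaZero ψ ιC ιK hq hqM ζ hζ b (s36ncJ (E := E) (q := q) (M := M))).coeff (-1) =
      if (b : ℕ) = 0 then 0 else ((ζ ^ (b : ℕ) : Kˣ) : K) := by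
  unfold s36ncBetaZero
  split_ifs with h0
  · rw [h0, s36ncNu_zero, s36ncB_J, s36nc_qExpand_sq_j_coeff hq.two_le]
  · rw [s36ncNu_apply ψ ιC ιK hq hqM ζ hζ (s36nc_fin_not_dvd h0),
      s36ncMu_J ψ ιK hq hqM ζ hζ (s36nc_fin_not_dvd h0), s36nc_kronRot_j_coeff, inv_inv]

theorem s36ncBetaZero_injective :
    Function.Injective (s36ncBetaZero (E := E) (q := q) (M := M) ψ ιC ιK hq hqM ζ hζ) := by
  intro b b' h
  have h1 := congrArg (fun f : modularFunctionFieldFullC E (M * q * q) →+* LaurentSeries K =>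
    (f (s36ncJ (E := E) (q := q) (M := M))).coeff (-1)) h
  simp only [s36ncBetaZero_J_coeff] at h1
  by_cases hb : (b : ℕ) = 0 <;> by_cases hb' : (b' : ℕ) = 0
  · exact Fin.ext (hb.trans hb'.symm)
  · rw [if_pos hb, if_neg hb'] at h1
    exact absurd h1.symm (Units.ne_zero _)
  · rw [if_neg hb, if_pos hb'] at h1
    exact absurd h1 (Units.ne_zero _)
  · rw [if_neg hb, if_neg hb'] at h1
    exact s36nc_pow_inj ζ hζ (Units.ext h1)

end Conj

/-! ### The norm products -/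

section Norm

variable {E K : Type*} [Field E] [CharZero E] [Field K] (ψ : E →+* K) (ιC : E →+* ℂ)
  (ιK : K →+* ℂ)
  {q M : ℕ} [NeZero q] [NeZero M] [NeZero (M * q)] [NeZero (M * q * q)]
  (hq : q.Prime) (hqM : ¬ q ∣ M) (ζ : Kˣ) (hζ : IsPrimitiveRoot (ζ : K) q)

theorem s36nc_sep_alpha (hq : q.Prime) :
    letI := (s36Alpha E M q).toAlgebra
    Algebra.IsSeparable (modularFunctionFieldFullC E (M * q))
      (modularFunctionFieldFullC E (M * q * q)) := by
  letI := (s36Alpha E M q).toAlgebra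
  haveI : Module.Finite (modularFunctionFieldFullC E (M * q))
    (modularFunctionFieldFullC E (M * q * q)) := s36dn_finite_alpha E M q hq
  haveI : CharZero (modularFunctionFieldFullC E (M * q)) :=
    charZero_of_injective_ringHom (algebraMap E (modularFunctionFieldFullC E (M * q))).injective
  infer_instance

include ιC hq hqM in
theorem s36nc_sep_beta :
    letI := (s36Beta E M q).toAlgebra
    Algebra.IsSeparable (modularFunctionFieldFullC E (M * q))
      (modularFunctionFieldFullC E (M * q * q)) := by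
  letI := (s36Beta E M q).toAlgebra
  haveI : Module.Finite (modularFunctionFieldFullC E (M * q))
    (modularFunctionFieldFullC E (M * q * q)) := s36dn_finite_beta E ιC hq hqM
  haveI : CharZero (modularFunctionFieldFullC E (M * q)) :=
    charZero_of_injective_ringHom (algebraMap E (modularFunctionFieldFullC E (M * q))).injective
  infer_instance

include ιC hq hqM hζ in
/-- **(Nβ∞)**, `Fin q`-form. -/
theorem s36nc_norm_betaInf_fin (x : modularFunctionFieldFullC E (M * q * q)) :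
    s36ncBaseBetaInf ψ (stbNorm (s36Beta E M q) x) = ∏ b : Fin q, s36ncBetaInf ψ ζ b x :=
  s36n2_hom_norm_eq_prod (s36Beta E M q) (s36dn_finite_beta E ιC hq hqM)
    (s36nc_sep_beta ιC hq hqM) (s36ncBaseBetaInf ψ) (s36ncBetaInf ψ ζ)
    (s36ncBetaInf_restr ψ ζ hζ) (s36ncBetaInf_injective ψ ζ hζ)
    (by rw [Fintype.card_fin]; exact (s36dn_deg_beta E ιC hq hqM).symm) x

include ιC hq hqM hζ in
/-- **(Nβ∞)** `(ψ̂ (N_β x))(Q^q) = ∏_{b < q} (ψ̂ x)(ζ^b Q)`. -/
theorem s36nc_norm_betaInf (x : modularFunctionFieldFullC E (M * q * q)) :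
    qExpand K q (coeffMap ψ ((stbNorm (s36Beta E M q) x : modularFunctionFieldFullC E (M * q)) :
      LaurentSeries E)) =
      ∏ b ∈ Finset.range q, kronRot (ζ ^ b) (coeffMap ψ (x : LaurentSeries E)) := by
  have h := s36nc_norm_betaInf_fin ψ ιC hq hqM ζ hζ x
  rw [← Fin.prod_univ_eq_prod_range (fun b => kronRot (ζ ^ b) (coeffMap ψ (x : LaurentSeries E)))]
  exact h

include ιC hq hqM hζ in
/-- **(Nα0)**, `Fin q`-form. -/
theorem s36nc_norm_alphaZero_fin (x : modularFunctionFieldFullC E (M * q * q)) :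
    s36ncBaseAlphaZero ψ ιC hq hqM (stbNorm (s36Alpha E M q) x) =
      ∏ b : Fin q, s36ncAlphaZero ψ ιC hq hqM ζ b x :=
  s36n2_hom_norm_eq_prod (s36Alpha E M q) (s36dn_finite_alpha E M q hq)
    (s36nc_sep_alpha hq) (s36ncBaseAlphaZero ψ ιC hq hqM) (s36ncAlphaZero ψ ιC hq hqM ζ)
    (s36ncAlphaZero_restr ψ ιC hq hqM ζ hζ) (s36ncAlphaZero_injective ψ ιC hq hqM ζ hζ)
    (by rw [Fintype.card_fin]; exact (s36dn_deg_alpha E M q hq).symm) x

include ιC hq hqM hζ in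
/-- **(Nα0)** `(ψ̂ (w′ (N_α x)))(Q^q) = ∏_{b < q} (ψ̂ (w x))(ζ^b Q)`. -/
theorem s36nc_norm_alphaZero (x : modularFunctionFieldFullC E (M * q * q)) :
    qExpand K q (coeffMap ψ
      ((atkinLehner E ιC hq hqM (stbNorm (s36Alpha E M q) x) :
        modularFunctionFieldFullC E (M * q)) : LaurentSeries E)) =
      ∏ b ∈ Finset.range q, kronRot (ζ ^ b)
        (coeffMap ψ ((s36n2W E ιC hq hqM x : modularFunctionFieldFullC E (M * q * q)) :
          LaurentSeries E)) := by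
  have h := s36nc_norm_alphaZero_fin ψ ιC hq hqM ζ hζ x
  rw [← Fin.prod_univ_eq_prod_range (fun b => kronRot (ζ ^ b)
    (coeffMap ψ ((s36n2W E ιC hq hqM x : modularFunctionFieldFullC E (M * q * q)) :
      LaurentSeries E)))]
  exact h

include hq in
/-- **(Nα∞)**, `Fin q`-form. -/
theorem s36nc_norm_alphaInf_fin (x : modularFunctionFieldFullC E (M * q * q)) :
    s36ncBaseAlphaInf ψ (stbNorm (s36Alpha E M q) x) =
      ∏ b : Fin q, s36ncAlphaInf ψ ιK hq hqM ζ hζ b x :=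
  s36n2_hom_norm_eq_prod (s36Alpha E M q) (s36dn_finite_alpha E M q hq)
    (s36nc_sep_alpha hq) (s36ncBaseAlphaInf ψ) (s36ncAlphaInf ψ ιK hq hqM ζ hζ)
    (s36ncAlphaInf_restr ψ ιK hq hqM ζ hζ) (s36ncAlphaInf_injective ψ ιK hq hqM ζ hζ)
    (by rw [Fintype.card_fin]; exact (s36dn_deg_alpha E M q hq).symm) x

/-- splitting off `b = 0` -/
theorem s36nc_prod_range_eq {L : Type*} [CommMonoid L] (hq : q.Prime) (f : ℕ → L) :
    ∏ b ∈ Finset.range q, f b = f 0 * ∏ b ∈ Finset.Ico 1 q, f b := by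
  rw [Finset.range_eq_Ico, Finset.prod_eq_prod_Ico_succ_bot hq.pos]

include hq in
/-- **(Nα∞)** `ψ̂ (N_α x) = ψ̂ x · ∏_{1 ≤ b < q} μ_{ζ^b} x`. -/
theorem s36nc_norm_alphaInf (x : modularFunctionFieldFullC E (M * q * q)) :
    coeffMap ψ ((stbNorm (s36Alpha E M q) x : modularFunctionFieldFullC E (M * q)) :
      LaurentSeries E) =
      coeffMap ψ (x : LaurentSeries E) *
        ∏ b ∈ Finset.Ico 1 q, s36ncMu ψ ιK hq hqM ζ hζ b x := by
  have h := s36nc_norm_alphaInf_fin ψ ιK hq hqM ζ hζ x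
  have h1 : ∏ b : Fin q, s36ncAlphaInf ψ ιK hq hqM ζ hζ b x =
      ∏ b ∈ Finset.range q, s36ncMu ψ ιK hq hqM ζ hζ b x :=
    Fin.prod_univ_eq_prod_range (fun b => s36ncMu ψ ιK hq hqM ζ hζ b x) q
  rw [h1, s36nc_prod_range_eq hq, s36ncMu_zero, s36ncA_apply] at h
  exact h

include hq in
/-- **(Nβ0)**, `Fin q`-form. -/
theorem s36nc_norm_betaZero_fin (x : modularFunctionFieldFullC E (M * q * q)) :
    s36ncBaseBetaZero ψ ιC hq hqM (stbNorm (s36Beta E M q) x) =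
      ∏ b : Fin q, s36ncBetaZero ψ ιC ιK hq hqM ζ hζ b x :=
  s36n2_hom_norm_eq_prod (s36Beta E M q) (s36dn_finite_beta E ιC hq hqM)
    (s36nc_sep_beta ιC hq hqM) (s36ncBaseBetaZero ψ ιC hq hqM)
    (s36ncBetaZero ψ ιC ιK hq hqM ζ hζ)
    (s36ncBetaZero_restr ψ ιC ιK hq hqM ζ hζ) (s36ncBetaZero_injective ψ ιC ιK hq hqM ζ hζ)
    (by rw [Fintype.card_fin]; exact (s36dn_deg_beta E ιC hq hqM).symm) x

include hq in
/-- **(Nβ0)** `ψ̂ (w′ (N_β x)) = ψ̂ (w x) · ∏_{1 ≤ b < q} (μ_{ζ^b} x)(ζ^{-b} Q)`. -/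
theorem s36nc_norm_betaZero (x : modularFunctionFieldFullC E (M * q * q)) :
    coeffMap ψ ((atkinLehner E ιC hq hqM (stbNorm (s36Beta E M q) x) :
      modularFunctionFieldFullC E (M * q)) : LaurentSeries E) =
      coeffMap ψ ((s36n2W E ιC hq hqM x : modularFunctionFieldFullC E (M * q * q)) :
        LaurentSeries E) *
        ∏ b ∈ Finset.Ico 1 q, kronRot (ζ ^ b)⁻¹ (s36ncMu ψ ιK hq hqM ζ hζ b x) := by
  have h := s36nc_norm_betaZero_fin ψ ιC ιK hq hqM ζ hζ x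
  have h1 : ∏ b : Fin q, s36ncBetaZero ψ ιC ιK hq hqM ζ hζ b x =
      ∏ b ∈ Finset.range q, s36ncNu ψ ιC ιK hq hqM ζ hζ b x :=
    Fin.prod_univ_eq_prod_range (fun b => s36ncNu ψ ιC ιK hq hqM ζ hζ b x) q
  have h2 : ∏ b ∈ Finset.Ico 1 q, s36ncNu ψ ιC ιK hq hqM ζ hζ b x =
      ∏ b ∈ Finset.Ico 1 q, kronRot (ζ ^ b)⁻¹ (s36ncMu ψ ιK hq hqM ζ hζ b x) := by
    refine Finset.prod_congr rfl fun b hb => ?_
    rw [Finset.mem_Ico] at hb
    exact s36ncNu_apply ψ ιC ιK hq hqM ζ hζ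
      (Nat.not_dvd_of_pos_of_lt (by omega) hb.2) x
  rw [h1, s36nc_prod_range_eq hq, s36ncNu_zero, s36ncB_apply, h2] at h
  exact h

end Norm

end Fermat.Agent.S36

end
end ZBS36_022_6

/-! ### bundled: `Fermat.Agent.S36.DescentTop` -/
section ZBS36_022_7

/-!
# S36 geometry, piece G-desc: from the small field to `ℚ̄`

* `S36NormSquares M q K₀` : the two norm squares `K₀ ↔ ℚ̄` (piece G-desc-N, `DescentNorm.lean`):
  `N_α^{ℚ̄} (ι u) = ι (N_α^{K₀} u)`, `N_β^{ℚ̄} (ι u) = ι (N_β^{K₀} u)`.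
* `s36_kummerAt_of_small` : **G-desc.**  If `StmtCarayolSmallAt M q p A` holds for every valuation
  ring `A ∣ q` of `ℚ̄` (and the norm squares hold for `E₀ = beta0Field A`), then
  `StmtCarayolKummerAt (M * q) q p` holds — with the same constant `c`.
-/

set_option autoImplicit false
set_option linter.unusedSectionVars false
set_option linter.style.haveILetI false

noncomputable section

open ModularCurve AlgebraicCurve Fermat.Agent.INJ Fermat.Agent.UNIP Fermat.Agent.STB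
open Fermat.Agent.ES Fermat.Agent.ES.G2

namespace Fermat.Agent.S36

section Squares

variable (M q : ℕ) [NeZero M] [NeZero q]

/-- the norm squares `K₀ ↔ ℚ̄` for `α` and `β` (piece G-desc-N) -/
def S36NormSquares (K₀ : IntermediateField ℚ NfQb) : Prop :=
  (∀ u : modularFunctionFieldFullC K₀ (M * q * q),
    stbNormAlpha (M * q) q (nfEmb K₀ (M * q * q) u)
      = nfEmb K₀ (M * q) (stbNorm (s36Alpha K₀ M q) u)) ∧
  (∀ u : modularFunctionFieldFullC K₀ (M * q * q),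
    stbNormBeta (M * q) q (nfEmb K₀ (M * q * q) u)
      = nfEmb K₀ (M * q) (stbNorm (s36Beta K₀ M q) u))

end Squares

section Aux

/-- the norm along a ring homomorphism of a constant -/
theorem s36dt_norm_apply {K L : Type*} [Field K] [Field L] (φ : K →+* L) (x : K) :
    stbNorm φ (φ x) = x ^ stbDeg φ := by
  letI := φ.toAlgebra
  exact Algebra.norm_algebraMap x

theorem s36dt_norm_mul {K L : Type*} [Field K] [Field L] (φ : K →+* L) (x y : L) :
    stbNorm φ (x * y) = stbNorm φ x * stbNorm φ y := by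
  letI := φ.toAlgebra
  exact map_mul (Algebra.norm K) x y

theorem s36dt_norm_one {K L : Type*} [Field K] [Field L] (φ : K →+* L) :
    stbNorm φ (1 : L) = 1 := by
  letI := φ.toAlgebra
  exact map_one (Algebra.norm K)

theorem s36dt_norm_pow {K L : Type*} [Field K] [Field L] (φ : K →+* L) (x : L) (m : ℕ) :
    stbNorm φ (x ^ m) = stbNorm φ x ^ m := by
  letI := φ.toAlgebra
  exact map_pow (Algebra.norm K) x m

theorem s36dt_norm_ne_zero {K L : Type*} [Field K] [Field L] (φ : K →+* L) {x : L}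
    (hx : x ≠ 0) : stbNorm φ x ≠ 0 := by
  intro h
  have h1 : stbNorm φ x * stbNorm φ x⁻¹ = 1 := by
    rw [← s36dt_norm_mul, mul_inv_cancel₀ hx, s36dt_norm_one]
  rw [h, zero_mul] at h1
  exact zero_ne_one h1

theorem s36dt_ord_pow {K F : Type*} [Field K] [Field F] [Algebra K F] (P : Place K F) (f : F)
    (m : ℕ) : P.ord (f ^ m) = m * P.ord f := by
  rcases eq_or_ne f 0 with rfl | hf
  · rcases Nat.eq_zero_or_pos m with rfl | hm
    · simp
    · rw [zero_pow hm.ne']; simp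
  induction m with
  | zero => simp
  | succ m ih =>
    rw [pow_succ, P.ord_mul (pow_ne_zero m hf) hf, ih]
    push_cast
    ring

end Aux

section Transport

variable {q : ℕ} (hq : q.Prime) {A : ValuationSubring NfQb} (hA : A.LiesOverPrime q)
  (N N₁ : ℕ) [NeZero N] [NeZero N₁]

include hq hA in
/-- transport of one norm hypothesis from `ℚ̄` to `E₀` -/
theorem s36dt_norm_transport {m : ℕ} (hm : m ≠ 0)
    (φ : modularFunctionFieldBar N₁ →ₐ[NfQb] modularFunctionFieldBar N)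
    (φ₀ : modularFunctionFieldFullC (beta0Field A) N₁ →+*
      modularFunctionFieldFullC (beta0Field A) N)
    (hsq : ∀ u : modularFunctionFieldFullC (beta0Field A) N,
      stbNorm φ.toRingHom (nfEmb (beta0Field A) N u)
        = nfEmb (beta0Field A) N₁ (stbNorm φ₀ u))
    (u : modularFunctionFieldBar N) (u₀ : modularFunctionFieldFullC (beta0Field A) N)
    (b : NfQb) (g : modularFunctionFieldBar N) (hb : b ≠ 0) (hg : g ≠ 0)
    (hu : u = algebraMap NfQb (modularFunctionFieldBar N) b * g ^ m *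
      nfEmb (beta0Field A) N u₀)
    (hN : ∃ (a : NfQb) (f : modularFunctionFieldBar N₁),
      stbNorm φ.toRingHom u = algebraMap NfQb (modularFunctionFieldBar N₁) a * f ^ m) :
    ∃ (a : beta0Field A) (f : modularFunctionFieldFullC (beta0Field A) N₁),
      stbNorm φ₀ u₀ =
        algebraMap (beta0Field A) (modularFunctionFieldFullC (beta0Field A) N₁) a * f ^ m := by
  obtain ⟨a, f, haf⟩ := hN
  by_cases h0 : stbNorm φ₀ u₀ = 0
  · exact ⟨0, 1, by rw [h0, map_zero, zero_mul]⟩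
  apply s36d_root_descent hq hA N₁ hm _ h0
  have hconst : stbNorm φ.toRingHom (algebraMap NfQb (modularFunctionFieldBar N) b)
      = algebraMap NfQb (modularFunctionFieldBar N₁) (b ^ stbDeg φ.toRingHom) := by
    have e : algebraMap NfQb (modularFunctionFieldBar N) b
        = φ.toRingHom (algebraMap NfQb (modularFunctionFieldBar N₁) b) := (φ.commutes b).symm
    rw [e, s36dt_norm_apply, map_pow]
  have hgN : stbNorm φ.toRingHom g ≠ 0 := s36dt_norm_ne_zero _ hg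
  have hbd : b ^ stbDeg φ.toRingHom ≠ 0 := pow_ne_zero _ hb
  have hbd' : algebraMap NfQb (modularFunctionFieldBar N₁) (b ^ stbDeg φ.toRingHom) ≠ 0 :=
    (map_ne_zero _).mpr hbd
  have e1 : stbNorm φ.toRingHom u
      = algebraMap NfQb (modularFunctionFieldBar N₁) (b ^ stbDeg φ.toRingHom) *
          stbNorm φ.toRingHom g ^ m * nfEmb (beta0Field A) N₁ (stbNorm φ₀ u₀) := by
    rw [hu, s36dt_norm_mul, s36dt_norm_mul, s36dt_norm_pow, hconst, hsq]
  refine ⟨a / b ^ stbDeg φ.toRingHom, f / stbNorm φ.toRingHom g, ?_⟩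
  rw [map_div₀, div_pow]
  rw [haf] at e1
  field_simp
  rw [e1]
  ring

end Transport

section Top

variable (M q p : ℕ) [NeZero M] [NeZero q]

/-- **G-desc**: (G36-K) over the small fields `E₀ = ℚ̄^{I_A}` implies (G36-K). -/
theorem s36_kummerAt_of_small (hq : q.Prime) (hp : p ≠ 0)
    (hns : ∀ A : ValuationSubring Qb, A.LiesOverPrime q → S36NormSquares M q (beta0Field A))
    (h : ∀ A : ValuationSubring Qb, A.LiesOverPrime q → StmtCarayolSmallAt M q p A) :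
    StmtCarayolKummerAt (M * q) q p := by
  intro A hA
  obtain ⟨c, hc, hsmall⟩ := h A hA
  obtain ⟨hnsα, hnsβ⟩ := hns A hA
  refine ⟨c, hc, ?_⟩
  intro n u hu hord hNα hNβ hI
  have hm : p ^ n ≠ 0 := pow_ne_zero n hp
  obtain ⟨u₀, b, g, hu₀, hb, hg, hueq⟩ := s36d_descent hq hA (M * q * q) hm u hu hI
  -- the divisor of `u₀`
  have hord₀ : ∀ P : Place (beta0Field A) (modularFunctionFieldFullC (beta0Field A) (M * q * q)),
      ((p ^ n : ℕ) : ℤ) ∣ P.ord u₀ := by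
    apply mg_dvd_ord (beta0Field A) (M * q * q) ((p ^ n : ℕ) : ℤ) u₀
    intro P
    have hne : nfEmb (beta0Field A) (M * q * q) u₀ ≠ 0 :=
      (map_ne_zero (nfEmb (beta0Field A) (M * q * q))).mpr hu₀
    have hbne : algebraMap NfQb (modularFunctionFieldBar (M * q * q)) b ≠ 0 :=
      (map_ne_zero _).mpr hb
    have h1 := hord P
    rw [hueq, P.ord_mul (mul_ne_zero hbne (pow_ne_zero _ hg)) hne,
      P.ord_mul hbne (pow_ne_zero _ hg), Fermat.Agent.S24.PlaceAux.ord_algebraMap,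
      s36dt_ord_pow, zero_add] at h1
    exact (Int.dvd_add_right (Dvd.intro _ rfl)).mp h1
  have hα₀ := s36dt_norm_transport hq hA (M * q * q) (M * q) hm (heckeAlphaBar Qb (M * q) q)
    (s36Alpha (beta0Field A) M q) hnsα u u₀ b g hb hg hueq hNα
  have hβ₀ := s36dt_norm_transport hq hA (M * q * q) (M * q) hm (heckeBetaBar Qb (M * q) q)
    (s36Beta (beta0Field A) M q) hnsβ u u₀ b g hb hg hueq hNβ
  obtain ⟨a₀, h₀, e⟩ := hsmall n u₀ hu₀ hord₀ hα₀ hβ₀
  refine ⟨b ^ c * algebraMap (beta0Field A) NfQb a₀,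
    g ^ c * nfEmb (beta0Field A) (M * q * q) h₀, ?_⟩
  have e2 : nfEmb (beta0Field A) (M * q * q) u₀ ^ c
      = algebraMap NfQb (modularFunctionFieldBar (M * q * q)) (algebraMap (beta0Field A) NfQb a₀)
        * nfEmb (beta0Field A) (M * q * q) h₀ ^ (p ^ n) := by
    rw [← map_pow, e, map_mul, map_pow, nfEmb_algebraMap]
  rw [hueq, mul_pow, mul_pow, e2, map_mul, map_pow]
  ring

end Top

end Fermat.Agent.S36

end
end ZBS36_022_7

/-! ### bundled: `Fermat.Agent.S36.TopSetting` -/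
section ZBS36_022_8

/-!
# S36 geometry, G-topB: the concrete setting of the instantiation (helper58)

`K` a field, `F′ = F_{Mq}(K)`, `F = F_{Mqq}(K)`.

* `s36NormAlpha K M q`, `s36NormBeta K M q : F →* F′` : the norms along `s36Alpha`, `s36Beta`
  as monoid homomorphisms (`= STB.stbNorm …`, the form of `StmtCarayolSmallAt`);
* `s36Alpha_algebraMap`, `s36Beta_algebraMap` : `α`, `β` fix the constants;
* `s36NormAlpha_algebraMap`, `s36NormBeta_algebraMap` : `N (const a) = const a ^ deg`;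
* `s36Hor K N m y` : `∀ P : Place K F_N(K), m ∣ P.ord y` — the predicate `Hor` of `S36PtInput`
  (`S36/TopAbsDef.lean`), with `s36Hor_mul`, `s36Hor_inv`, `s36Hor_algebraMap`, `s36Hor_pow`,
  `s36Hor_pow_self`.
-/

set_option autoImplicit false
set_option linter.unusedSectionVars false
set_option linter.style.haveILetI false

noncomputable section

open ModularCurve AlgebraicCurve Fermat.Agent.STB

namespace Fermat.Agent.S36

section Norms

variable (K : Type*) [Field K] (M q : ℕ) [NeZero M] [NeZero q]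

/-- the norm `F_{Mqq}(K) → F_{Mq}(K)` along `α`, as a monoid homomorphism -/
def s36NormAlpha :
    modularFunctionFieldFullC K (M * q * q) →* modularFunctionFieldFullC K (M * q) where
  toFun := stbNorm (s36Alpha K M q)
  map_one' := s36dt_norm_one _
  map_mul' := s36dt_norm_mul _

/-- the norm `F_{Mqq}(K) → F_{Mq}(K)` along `β`, as a monoid homomorphism -/
def s36NormBeta :
    modularFunctionFieldFullC K (M * q * q) →* modularFunctionFieldFullC K (M * q) where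
  toFun := stbNorm (s36Beta K M q)
  map_one' := s36dt_norm_one _
  map_mul' := s36dt_norm_mul _

@[simp]
theorem s36NormAlpha_apply (y : modularFunctionFieldFullC K (M * q * q)) :
    s36NormAlpha K M q y = stbNorm (s36Alpha K M q) y := rfl

@[simp]
theorem s36NormBeta_apply (y : modularFunctionFieldFullC K (M * q * q)) :
    s36NormBeta K M q y = stbNorm (s36Beta K M q) y := rfl

theorem s36Alpha_algebraMap (a : K) :
    s36Alpha K M q (algebraMap K (modularFunctionFieldFullC K (M * q)) a)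
      = algebraMap K (modularFunctionFieldFullC K (M * q * q)) a :=
  (IntermediateField.inclusion
    (full_degeneracyC_le K (Dvd.intro q rfl : M * q ∣ M * q * q))).commutes a

theorem s36Beta_algebraMap (a : K) :
    s36Beta K M q (algebraMap K (modularFunctionFieldFullC K (M * q)) a)
      = algebraMap K (modularFunctionFieldFullC K (M * q * q)) a := by
  apply Subtype.ext
  rw [coe_s36Beta]
  show qExpand K q (algebraMap K (LaurentSeries K) a) = algebraMap K (LaurentSeries K) a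
  rw [algebraMap_laurentSeries_eq_single, qExpand_single, mul_zero]

theorem s36NormAlpha_algebraMap (a : K) :
    s36NormAlpha K M q (algebraMap K (modularFunctionFieldFullC K (M * q * q)) a)
      = algebraMap K (modularFunctionFieldFullC K (M * q)) a ^ stbDeg (s36Alpha K M q) := by
  rw [← s36Alpha_algebraMap, s36NormAlpha_apply, s36dt_norm_apply]

theorem s36NormBeta_algebraMap (a : K) :
    s36NormBeta K M q (algebraMap K (modularFunctionFieldFullC K (M * q * q)) a)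
      = algebraMap K (modularFunctionFieldFullC K (M * q)) a ^ stbDeg (s36Beta K M q) := by
  rw [← s36Beta_algebraMap, s36NormBeta_apply, s36dt_norm_apply]

end Norms

section Hor

variable (K : Type*) [Field K] {F : Type*} [Field F] [Algebra K F]

/-- `m` divides the order of `y` at every place of `F / K` -/
def s36Hor (m : ℕ) (y : F) : Prop := ∀ P : Place K F, (m : ℤ) ∣ P.ord y

variable {K}

theorem s36Hor_mul {m : ℕ} {x y : F} (hx : s36Hor K m x) (hy : s36Hor K m y) :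
    s36Hor K m (x * y) := by
  intro P
  rcases eq_or_ne x 0 with rfl | hx0
  · rw [zero_mul]; simp
  rcases eq_or_ne y 0 with rfl | hy0
  · rw [mul_zero]; simp
  rw [P.ord_mul hx0 hy0]
  exact dvd_add (hx P) (hy P)

theorem s36Hor_inv {m : ℕ} {x : F} (hx : s36Hor K m x) : s36Hor K m x⁻¹ := by
  intro P
  rw [P.ord_inv]
  exact (dvd_neg).mpr (hx P)

theorem s36Hor_algebraMap (m : ℕ) (a : K) : s36Hor K m (algebraMap K F a) := by
  intro P
  rw [Fermat.Agent.S24.PlaceAux.ord_algebraMap]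
  exact dvd_zero _

theorem s36Hor_pow {m : ℕ} {x : F} (hx : s36Hor K m x) (n : ℕ) : s36Hor K m (x ^ n) := by
  intro P
  rw [s36dt_ord_pow]
  exact Dvd.dvd.mul_left (hx P) _

theorem s36Hor_pow_self (m : ℕ) (x : F) : s36Hor K m (x ^ m) := by
  intro P
  rw [s36dt_ord_pow]
  exact Dvd.intro _ rfl

theorem s36Hor_one (m : ℕ) : s36Hor K m (1 : F) := by
  intro P
  simp

theorem s36Hor_div {m : ℕ} {x y : F} (hx : s36Hor K m x) (hy : s36Hor K m y) :
    s36Hor K m (x / y) := by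
  rw [div_eq_mul_inv]
  exact s36Hor_mul hx (s36Hor_inv hy)

end Hor

end Fermat.Agent.S36

end
end ZBS36_022_8

/-! ### bundled: `Fermat.Agent.S36.NormOrdFam` -/
section ZBS36_022_9

/-!
# S36 / G-nr-ord, part 5: the family `ord : S36Comp → F → ℤ` and input (I3) (helper31)

Generic bases `(A, E, k, r, π)` (`ι₀ = algebraMap A E`) and `(A', E', k', r', π')`, `ψ : E →+* E'`,
`D : S36NoData …`, `h : S36MidEmb E' q M ζ`, `V := s36n2V hB hB' ψ ιC hq hqM h z hz`
(helper93, `S36/N2Val.lean`).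

* `s36noFam` : the three orders `a ↦ va`, `b ↦ vb`, `c ↦ vc`;
* `s36noFam_mul` (= `hord`), `s36noFam_eq_zero_iff` (= `hord0`, against `s36n2V`);
* `s36noFam_const_a/_b/_c` (= `hπa hπb hπc`);
* `s36noPiC`, `s36noFam_piC : ord c ϖc = 1`, `s36noPiC_ne_zero` (= `ϖc`, `hϖc`, `hϖc0`),
  `ϖc = j − j(Q^{q²})`;
* `s36noFam_alpha_inf`, `s36noFam_alpha_zero`, `s36noFam_beta_inf`, `s36noFam_beta_zero`
  (= `hαinf hα0 hβinf hβ0`), the product formulas being helper95's `S36/NormConj.lean`.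
-/

set_option autoImplicit false
set_option linter.unusedSectionVars false
set_option linter.unusedVariables false
set_option linter.style.haveILetI false

noncomputable section

namespace Fermat.Agent.S36

open ModularCurve Fermat.Agent.INJ Fermat.Agent.UNIP Fermat.Agent.ES Fermat.Agent.AL
open Fermat.Agent.STB

/-! ### A. `f − f(zQ) = (1 − z) · G` -/

section Twist

variable {R : Type*} [CommRing R]

/-- `(1 − z^n) / (1 − z)` for `n ≥ −1` -/
def s36noGeom (z : Rˣ) (n : ℤ) : R :=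
  if n = -1 then -((z⁻¹ : Rˣ) : R) else ∑ i ∈ Finset.range n.toNat, (z : R) ^ i

theorem s36noGeom_neg_one (z : Rˣ) : s36noGeom z (-1) = -((z⁻¹ : Rˣ) : R) := by
  unfold s36noGeom
  rw [if_pos rfl]

theorem s36noGeom_spec (z : Rˣ) {n : ℤ} (hn : -1 ≤ n) :
    (1 - (z : R)) * s36noGeom z n = 1 - ((z ^ n : Rˣ) : R) := by
  unfold s36noGeom
  split_ifs with h
  · subst h
    rw [zpow_neg_one]
    have : (z : R) * ((z⁻¹ : Rˣ) : R) = 1 := Units.mul_inv z
    linear_combination this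
  · have h0 : 0 ≤ n := by omega
    obtain ⟨m, rfl⟩ := Int.eq_ofNat_of_zero_le h0
    rw [Int.toNat_natCast, zpow_natCast, Units.val_pow_eq_pow_val]
    exact mul_neg_geom_sum (z : R) m

/-- the series `Σ g_n f_n Q^n` -/
def s36noTwist (z : Rˣ) (f : LaurentSeries R) : LaurentSeries R where
  coeff n := s36noGeom z n * f.coeff n
  isPWO_support' := f.isPWO_support.mono (by
    intro n hn
    simp only [Function.mem_support, ne_eq] at hn ⊢
    intro h
    exact hn (by rw [h, mul_zero]))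

@[simp]
theorem s36noTwist_coeff (z : Rˣ) (f : LaurentSeries R) (n : ℤ) :
    (s36noTwist z f).coeff n = s36noGeom z n * f.coeff n := rfl

theorem s36no_twist_spec (z : Rˣ) (f : LaurentSeries R) (hf : ∀ n : ℤ, n < -1 → f.coeff n = 0) :
    f - kronRot z f = HahnSeries.C (1 - (z : R)) * s36noTwist z f := by
  ext n
  rw [HahnSeries.coeff_sub, kronRot_coeff, HahnSeries.C_mul_eq_smul, HahnSeries.coeff_smul,
    s36noTwist_coeff, smul_eq_mul]
  by_cases hn : n < -1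
  · rw [hf n hn]; ring
  · rw [← mul_assoc, s36noGeom_spec z (by omega)]; ring

end Twist

/-! ### A'. the uniformizer of `V_c` -/

/-- **`ϖc = j − j(Q^{q²})`** -/
def s36noPiC (E : Type*) [Field E] (M q : ℕ) [NeZero q] [NeZero M] [NeZero (M * q * q)] :
    modularFunctionFieldFullC E (M * q * q) :=
  haveI : NeZero (1 * q * q) := ⟨by
    have := NeZero.ne q
    positivity⟩
  (⟨jqModC E, jqModC_mem_full E (M * q * q)⟩ : modularFunctionFieldFullC E (M * q * q)) -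
    ⟨qExpand E (1 * q * q) (jqModC E), jqModCd_mem_full E (M * q * q)
      (Nat.mul_dvd_mul_right (Nat.mul_dvd_mul_right (one_dvd M) q) q)⟩

/-! ### B. the family of orders -/

section Fam

variable {A E k A' E' k' : Type*} [CommRing A] [IsDomain A] [Field E] [Algebra A E]
  [IsFractionRing A E] [Field k] [CommRing A'] [Field E'] [Field k']
  {r : A →+* k} {π : A} {ι' : A' →+* E'} {r' : A' →+* k'} {π' : A'}
  (ψ : E →+* E') (ιC : E →+* ℂ)
  {q M : ℕ} [NeZero q] [NeZero M] [NeZero (M * q)] [NeZero (M * q * q)]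
  (hq : q.Prime) (hqM : ¬ q ∣ M)
  {ζ : E'ˣ} (h : S36MidEmb E' q M ζ)

variable (r π ι' r' π') in
/-- **the three orders** -/
def s36noFam : S36Comp → modularFunctionFieldFullC E (M * q * q) → ℤ
  | S36Comp.a => s36noVa (algebraMap A E) r π
  | S36Comp.b => s36noVb (algebraMap A E) r π ιC hq hqM
  | S36Comp.c => s36noVc ι' r' π' ψ h

variable (D : S36NoData (algebraMap A E) r π ι' r' π' ψ q ζ)

include D in
/-- **`hord`** -/
theorem s36noFam_mul (c : S36Comp) (x y : modularFunctionFieldFullC E (M * q * q))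
    (hx : x ≠ 0) (hy : y ≠ 0) :
    s36noFam r π ι' r' π' ψ ιC hq hqM h c (x * y) =
      s36noFam r π ι' r' π' ψ ιC hq hqM h c x + s36noFam r π ι' r' π' ψ ιC hq hqM h c y := by
  cases c
  · exact s36noVa_mul D.hB₀ hx hy
  · exact s36noVb_mul ιC hq hqM D.hB₀ hx hy
  · exact s36noVc_mul hq D h hx hy

include D in
/-- **`hord0`**: order `0` ⇔ unit of the valuation subring `V c` -/
theorem s36noFam_eq_zero_iff (hB : VtBase (algebraMap A E) r π) (hB' : VtBase ι' r' π')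
    (z : A'ˣ) (hz : Units.map (ι' : A' →* E') z = ζ)
    (c : S36Comp) (x : modularFunctionFieldFullC E (M * q * q)) (hx : x ≠ 0) :
    s36noFam r π ι' r' π' ψ ιC hq hqM h c x = 0 ↔
      (s36n2V hB hB' ψ ιC hq hqM h z hz c).valuation x = 1 := by
  cases c
  · exact s36noOrdE_eq_zero_iff hB (vtEmb E (M * q * q))
      (fun x => vt_frac_fullC hB (M * q * q) x.2) hx
  · exact s36noOrdE_eq_zero_iff hB (s36n2EmbB ιC hq hqM)
      (fun x => vt_frac_fullC hB (M * q * q) (s36n2W E ιC hq hqM x).2) hx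
  · exact s36noOrdE_eq_zero_iff hB' (s36n2EmbC ψ h)
      (fun _ => s36n2_frac_emb hB' hq h z hz _) hx

theorem s36no_coe_algebraMap (N : ℕ) (e : E) :
    ((algebraMap E (modularFunctionFieldFullC E N) e : modularFunctionFieldFullC E N) :
      LaurentSeries E) = HahnSeries.C e := by
  rw [HahnSeries.C_apply]
  exact algebraMap_laurentSeries_eq_single E e

include D in
/-- **`hπa`** -/
theorem s36noFam_const_a :
    s36noFam r π ι' r' π' ψ ιC hq hqM h S36Comp.a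
      (algebraMap E (modularFunctionFieldFullC E (M * q * q)) (algebraMap A E π)) = 1 := by
  show s36noOrd (algebraMap A E) r π _ = 1
  rw [s36no_coe_algebraMap]
  exact s36noOrd_C_pi D.hB₀

include D in
/-- **`hπb`** -/
theorem s36noFam_const_b :
    s36noFam r π ι' r' π' ψ ιC hq hqM h S36Comp.b
      (algebraMap E (modularFunctionFieldFullC E (M * q * q)) (algebraMap A E π)) = 1 := by
  show s36noOrd (algebraMap A E) r π
    ((s36n2W E ιC hq hqM _ : modularFunctionFieldFullC E (M * q * q)) : LaurentSeries E) = 1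
  rw [AlgEquiv.commutes, s36no_coe_algebraMap]
  exact s36noOrd_C_pi D.hB₀

include D in
/-- **`hπc`** -/
theorem s36noFam_const_c :
    s36noFam r π ι' r' π' ψ ιC hq hqM h S36Comp.c
      (algebraMap E (modularFunctionFieldFullC E (M * q * q)) (algebraMap A E π)) =
        (q : ℤ) - 1 := by
  show s36noOrd ι' r' π' (h.emb (mgaCoeffHom ψ (M * q * q) _)) = _
  rw [mgaCoeffHom_algebraMap, h.emb.commutes, algebraMap_laurentSeries_eq_single,
    ← HahnSeries.C_apply]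
  exact s36noOrd_eq D.hB₁ D.ram

/-! ### C. the uniformizer of `V_c` -/

theorem s36no_emb_piC :
    h.emb (mgaCoeffHom ψ (M * q * q) (s36noPiC E M q)) =
      jqModC E' - kronRot ζ (jqModC E') := by
  haveI : NeZero (1 * q * q) := ⟨by
    have := NeZero.ne q
    positivity⟩
  have h1 : mgaCoeffHom ψ (M * q * q) (s36noPiC E M q) =
      (⟨jqModC E', s36mid_low_le (jqModC_mem_full E' (M * q))⟩ :
        modularFunctionFieldFullC E' (M * q * q)) -
      ⟨qExpand E' (1 * q * q) (jqModC E'), jqModCd_mem_full E' (M * q * q)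
        (Nat.mul_dvd_mul_right (Nat.mul_dvd_mul_right (one_dvd M) q) q)⟩ := by
    apply Subtype.ext
    show coeffMap ψ (jqModC E - qExpand E (1 * q * q) (jqModC E)) = _
    rw [map_sub, coeffMap_qExpand_comm, coeffMap_jqModC]
    rfl
  rw [h1]
  refine (RingHom.map_sub h.emb.toRingHom _ _).trans ?_
  show h.emb _ - h.emb _ = _
  rw [h.emb_of_mem_low (jqModC_mem_full E' (M * q)), h.emb_jqq]

include D in
/-- `v_c ϖc = 1`, if `π' = 1 − ζ`. -/
theorem s36noVc_piC (hPi : ι' π' = 1 - (ζ : E')) :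
    s36noVc ι' r' π' ψ h (s36noPiC E M q) = 1 := by
  show s36noOrd ι' r' π' (h.emb (mgaCoeffHom ψ (M * q * q) (s36noPiC E M q))) = 1
  rw [s36no_emb_piC]
  obtain ⟨z, hz⟩ := D.zeta
  have hz' : ζ = Units.map (ι' : A' →* E') z := Units.ext hz.symm
  have e1 : jqModC E' - kronRot ζ (jqModC E') =
      coeffMap ι' (s36noTwist z (jqModC A')) *
        (HahnSeries.C (ι' π') : LaurentSeries E') ^ (1 : ℤ) := by
    have h2 := s36no_twist_spec z (jqModC A') (fun n hn => coeff_jqModC_of_lt A' hn)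
    have h3 := congrArg (coeffMap ι') h2
    rw [map_sub, map_mul, coeffMap_kronRot, coeffMap_jqModC, coeffMap_hahnC, map_sub, map_one,
      hz] at h3
    rw [zpow_one, hPi, mul_comm, ← h3, hz']
  refine s36noOrd_eq D.hB₁ (s36IsOrd_of_eq D.hB₁ (vtUnit_coeffMap ?_) e1)
  intro h0
  have h4 := congrArg (fun f : LaurentSeries k' => f.coeff (-1)) h0
  simp only [coeffMap_coeff, s36noTwist_coeff, HahnSeries.coeff_zero, s36noGeom_neg_one,
    coeff_jqModC_neg_one, mul_one, map_neg, neg_eq_zero] at h4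
  have h5 : r' (z : A') * r' ((z⁻¹ : A'ˣ) : A') = 1 := by
    rw [← map_mul, Units.mul_inv, map_one]
  rw [h4, mul_zero] at h5
  exact zero_ne_one h5

include D in
/-- **`hϖc`**: `ord c ϖc = 1`, if `π' = 1 − ζ`. -/
theorem s36noFam_piC (hPi : ι' π' = 1 - (ζ : E')) :
    s36noFam r π ι' r' π' ψ ιC hq hqM h S36Comp.c (s36noPiC E M q) = 1 :=
  s36noVc_piC ψ h D hPi

include D h in
/-- **`hϖc0`** -/
theorem s36noPiC_ne_zero (hPi : ι' π' = 1 - (ζ : E')) : s36noPiC E M q ≠ 0 := by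
  intro h0
  have h3 : s36noOrd ι' r' π' (h.emb (mgaCoeffHom ψ (M * q * q) (s36noPiC E M q))) = 1 :=
    s36noVc_piC ψ h D hPi
  rw [h0, map_zero, map_zero] at h3
  have h4 : s36noOrd ι' r' π' (0 : LaurentSeries E') = 0 := by
    classical
    unfold s36noOrd
    rw [dif_neg]
    rintro ⟨n, hn⟩
    exact hn.ne_zero D.hB₁ rfl
  rw [h4] at h3
  exact zero_ne_one h3

/-! ### D. the four norm–order formulas -/

section Norms

variable [CharZero E] (ιK : E' →+* ℂ) (hζ : IsPrimitiveRoot (ζ : E') q)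

include hq hζ in
theorem s36no_mu (ιK : E' →+* ℂ) : S36NoMu ψ q M ζ (fun b x => s36ncMu ψ ιK hq hqM ζ hζ b x) := by
  intro b hb1 hbq
  have hb : ¬ q ∣ b := fun hd => by
    have := Nat.le_of_dvd (by omega) hd
    omega
  exact ⟨s36ncMuK ιK hq hqM ζ hζ hb, fun x => s36ncMu_apply ψ ιK hq hqM ζ hζ hb x⟩

include D hζ ιK in
/-- **`hαinf`** -/
theorem s36noFam_alpha_inf (x : modularFunctionFieldFullC E (M * q * q)) (hx : x ≠ 0) :
    s36noWinf (algebraMap A E) r π (s36NormAlpha E M q x) =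
      s36noFam r π ι' r' π' ψ ιC hq hqM h S36Comp.a x +
        s36noFam r π ι' r' π' ψ ιC hq hqM h S36Comp.c x :=
  s36no_alpha_inf hq D h (s36no_mu ψ hq hqM hζ ιK) hx
    (s36nc_norm_alphaInf ψ ιK hq hqM ζ hζ x)

include D hζ ιK in
/-- **`hα0`** -/
theorem s36noFam_alpha_zero (x : modularFunctionFieldFullC E (M * q * q)) (hx : x ≠ 0) :
    s36noW0 (algebraMap A E) r π ιC hq hqM (s36NormAlpha E M q x) =
      q * s36noFam r π ι' r' π' ψ ιC hq hqM h S36Comp.b x :=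
  s36no_alpha_zero ιC hq hqM D hx (s36nc_norm_alphaZero ψ ιC hq hqM ζ hζ x)

include D hζ ιK in
/-- **`hβinf`** -/
theorem s36noFam_beta_inf (x : modularFunctionFieldFullC E (M * q * q)) (hx : x ≠ 0) :
    s36noWinf (algebraMap A E) r π (s36NormBeta E M q x) =
      q * s36noFam r π ι' r' π' ψ ιC hq hqM h S36Comp.a x :=
  s36no_beta_inf hq D hx (s36nc_norm_betaInf ψ ιC hq hqM ζ hζ x)

include D hζ ιK in
/-- **`hβ0`** -/
theorem s36noFam_beta_zero (x : modularFunctionFieldFullC E (M * q * q)) (hx : x ≠ 0) :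
    s36noW0 (algebraMap A E) r π ιC hq hqM (s36NormBeta E M q x) =
      s36noFam r π ι' r' π' ψ ιC hq hqM h S36Comp.c x +
        s36noFam r π ι' r' π' ψ ιC hq hqM h S36Comp.b x :=
  s36no_beta_zero ιC hq hqM D h (s36no_mu ψ hq hqM hζ ιK) hx
    (s36nc_norm_betaZero ψ ιC ιK hq hqM ζ hζ x)

end Norms

end Fam

end Fermat.Agent.S36

end
end ZBS36_022_9

/-! ### bundled: `Fermat.Agent.S36.NormOrdI3` -/
section ZBS36_022_10

/-!
# S36 / (I3): the whole input (I3) of `s36tb_small` in ONE statement (helper31)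

`s36i3_main` : from `D : S36NoData …` (helper62, `S36/NormOrdData.lean`), `h : S36MidEmb E' q M ζ`,
`π' = 1 − ζ`, `ζ` a primitive `q`-th root of unity: the orders `ord`, `winf`, `w0`, the
uniformizer `ϖc` and ALL the hypotheses `hord hord0 hπa hπb hπc hϖc0 hϖc hwinf hw0 hαinf hα0 hβinf
hβ0` of `s36tb_small` (`S36/TopB.lean`), for `V = s36n2V hB hB' ψ ιC hq hqM h z hz`
(`S36/N2Val.lean`), `ca = S36Comp.a`, `cb = S36Comp.b`, `cc = S36Comp.c`.
-/

set_option autoImplicit false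
set_option linter.unusedSectionVars false
set_option linter.unusedVariables false
set_option linter.style.haveILetI false
set_option linter.constructorNameAsVariable false

noncomputable section

namespace Fermat.Agent.S36

open ModularCurve Fermat.Agent.INJ Fermat.Agent.UNIP Fermat.Agent.ES Fermat.Agent.AL
open Fermat.Agent.STB

section I3

variable {A E k A' E' k' : Type*} [CommRing A] [IsDomain A] [Field E] [Algebra A E]
  [IsFractionRing A E] [Field k] [CommRing A'] [Field E'] [Field k']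
  {r : A →+* k} {π : A} {ι' : A' →+* E'} {r' : A' →+* k'} {π' : A'}
  (ψ : E →+* E') (ιC : E →+* ℂ)
  {q M : ℕ} [NeZero q] [NeZero M] [NeZero (M * q)] [NeZero (M * q * q)]
  (hq : q.Prime) (hqM : ¬ q ∣ M)
  {ζ : E'ˣ} (h : S36MidEmb E' q M ζ)
  [Algebra A ↥(modularFunctionFieldFullC E (M * q * q))]
  [IsScalarTower A E ↥(modularFunctionFieldFullC E (M * q * q))]
  (D : S36NoData (algebraMap A E) r π ι' r' π' ψ q ζ)

include D in
theorem s36i3_const_a :
    s36noFam r π ι' r' π' ψ ιC hq hqM h S36Comp.a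
      (algebraMap A (modularFunctionFieldFullC E (M * q * q)) π) = 1 := by
  rw [IsScalarTower.algebraMap_apply A E ↥(modularFunctionFieldFullC E (M * q * q))]
  exact s36noFam_const_a ψ ιC hq hqM h D

include D in
theorem s36i3_const_b :
    s36noFam r π ι' r' π' ψ ιC hq hqM h S36Comp.b
      (algebraMap A (modularFunctionFieldFullC E (M * q * q)) π) = 1 := by
  rw [IsScalarTower.algebraMap_apply A E ↥(modularFunctionFieldFullC E (M * q * q))]
  exact s36noFam_const_b ψ ιC hq hqM h D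

include D in
theorem s36i3_const_c :
    s36noFam r π ι' r' π' ψ ιC hq hqM h S36Comp.c
      (algebraMap A (modularFunctionFieldFullC E (M * q * q)) π) = (q : ℤ) - 1 := by
  rw [IsScalarTower.algebraMap_apply A E ↥(modularFunctionFieldFullC E (M * q * q))]
  exact s36noFam_const_c ψ ιC hq hqM h D

include D in
/-- **(I3)**: everything at once. -/
theorem s36i3_main [CharZero E] (hB : VtBase (algebraMap A E) r π) (hB' : VtBase ι' r' π')
    (z : A'ˣ) (hz : Units.map (ι' : A' →* E') z = ζ) (hPi : ι' π' = 1 - (ζ : E'))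
    (hζ : IsPrimitiveRoot (ζ : E') q) (ιK : E' →+* ℂ) :
    ∃ (ord : S36Comp → ↥(modularFunctionFieldFullC E (M * q * q)) → ℤ)
      (winf w0 : ↥(modularFunctionFieldFullC E (M * q)) → ℤ)
      (ϖc : ↥(modularFunctionFieldFullC E (M * q * q))),
      (∀ c (x y : ↥(modularFunctionFieldFullC E (M * q * q))),
        x ≠ 0 → y ≠ 0 → ord c (x * y) = ord c x + ord c y) ∧
      (∀ c (x : ↥(modularFunctionFieldFullC E (M * q * q))),
        x ≠ 0 → (ord c x = 0 ↔ (s36n2V hB hB' ψ ιC hq hqM h z hz c).valuation x = 1)) ∧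
      ord S36Comp.a (algebraMap A ↥(modularFunctionFieldFullC E (M * q * q)) π) = 1 ∧
      ord S36Comp.b (algebraMap A ↥(modularFunctionFieldFullC E (M * q * q)) π) = 1 ∧
      ord S36Comp.c (algebraMap A ↥(modularFunctionFieldFullC E (M * q * q)) π) = (q : ℤ) - 1 ∧
      ϖc ≠ 0 ∧ ord S36Comp.c ϖc = 1 ∧
      (∀ x y : ↥(modularFunctionFieldFullC E (M * q)),
        x ≠ 0 → y ≠ 0 → winf (x * y) = winf x + winf y) ∧
      (∀ x y : ↥(modularFunctionFieldFullC E (M * q)),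
        x ≠ 0 → y ≠ 0 → w0 (x * y) = w0 x + w0 y) ∧
      (∀ x : ↥(modularFunctionFieldFullC E (M * q * q)), x ≠ 0 →
        winf (s36NormAlpha E M q x) = ord S36Comp.a x + ord S36Comp.c x) ∧
      (∀ x : ↥(modularFunctionFieldFullC E (M * q * q)), x ≠ 0 →
        w0 (s36NormAlpha E M q x) = q * ord S36Comp.b x) ∧
      (∀ x : ↥(modularFunctionFieldFullC E (M * q * q)), x ≠ 0 →
        winf (s36NormBeta E M q x) = q * ord S36Comp.a x) ∧
      (∀ x : ↥(modularFunctionFieldFullC E (M * q * q)), x ≠ 0 →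
        w0 (s36NormBeta E M q x) = ord S36Comp.c x + ord S36Comp.b x) :=
  ⟨s36noFam r π ι' r' π' ψ ιC hq hqM h, s36noWinf (algebraMap A E) r π,
    s36noW0 (algebraMap A E) r π ιC hq hqM, s36noPiC E M q,
    s36noFam_mul ψ ιC hq hqM h D,
    s36noFam_eq_zero_iff ψ ιC hq hqM h D hB hB' z hz,
    s36i3_const_a ψ ιC hq hqM h D, s36i3_const_b ψ ιC hq hqM h D, s36i3_const_c ψ ιC hq hqM h D,
    s36noPiC_ne_zero ψ h D hPi, s36noFam_piC ψ ιC hq hqM h D hPi,
    fun x y hx hy => s36noWinf_mul D.hB₀ hx hy,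
    fun x y hx hy => s36noW0_mul ιC hq hqM D.hB₀ hx hy,
    s36noFam_alpha_inf ψ ιC hq hqM h D ιK hζ,
    s36noFam_alpha_zero ψ ιC hq hqM h D ιK hζ,
    s36noFam_beta_inf ψ ιC hq hqM h D ιK hζ,
    s36noFam_beta_zero ψ ιC hq hqM h D ιK hζ⟩

end I3

end Fermat.Agent.S36

end
end ZBS36_022_10

/-! ### bundled: `Fermat.Agent.S36.NormOrdData` -/
section ZBS36_022_11

/-!
# S36 / G-nr-ord, piece (I3-data): the concrete arithmetic data `S36NoData` (helper62)

`A ⊂ ℚ̄` a valuation subring over the prime `q`, `ζ ∈ ℚ̄` a primitive `q`-th root of unity,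
`E₀ = beta0Field A` (the inertia field), `A₀ = beta0Ring A E₀`, `K = s36n2bK A ζ = E₀(ζ)`,
`A_K = beta0Ring A K`, `Π = 1 - ζ = s36n2bPi` (helper98's N2-base).

* `s36ndZ hq hζ : (A_K)ˣ`         : `ζ` as a unit of `A_K`;
* `s36ndZeta hq hζ : Kˣ`          : `ζ` as a unit of `K` (`= Units.map (algebraMap A_K K) s36ndZ`,
                                     `s36nd_hz`; value `⟨ζ, _⟩`, `s36ndZeta_coe`);
* `s36nd_zeta_primitive`          : `IsPrimitiveRoot (ζ_K : K) q`;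
* `s36nd_pi`                      : `algebraMap A_K K Π = 1 - ζ_K`;
* `s36nd_data : S36NoData …`      : the data of `S36/NormOrd.lean` for
  `(A₀, E₀, residue, q)`, `(A_K, K, residue, Π)`, `ψ = inclusion E₀ ≤ K`, `q`, `ζ_K`.
-/

set_option autoImplicit false
set_option linter.unusedSectionVars false
set_option linter.style.haveILetI false

noncomputable section

namespace Fermat.Agent.S36

open Fermat.Agent.UNIP Fermat.Agent.ES

variable {A : ValuationSubring (AlgebraicClosure ℚ)} {ζ : AlgebraicClosure ℚ} {q : ℕ}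

/-- `ζ` as a unit of `A_K` -/
def s36ndZ (hq : q.Prime) (hζ : IsPrimitiveRoot ζ q) : (beta0Ring A (s36n2bK A ζ))ˣ :=
  ((s36n2bZeta_isPrimitiveRoot (A := A) hq hζ).isUnit hq.ne_zero).unit

@[simp]
theorem s36ndZ_coe (hq : q.Prime) (hζ : IsPrimitiveRoot ζ q) :
    ((s36ndZ (A := A) hq hζ : (beta0Ring A (s36n2bK A ζ))ˣ) : beta0Ring A (s36n2bK A ζ)) =
      s36n2bZeta hq hζ :=
  IsUnit.unit_spec _

/-- `ζ` as a unit of `K = E₀(ζ)` -/
def s36ndZeta (hq : q.Prime) (hζ : IsPrimitiveRoot ζ q) : (↥(s36n2bK A ζ))ˣ :=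
  Units.map ((algebraMap ↥(beta0Ring A (s36n2bK A ζ)) ↥(s36n2bK A ζ) :
    ↥(beta0Ring A (s36n2bK A ζ)) →+* ↥(s36n2bK A ζ)) :
      ↥(beta0Ring A (s36n2bK A ζ)) →* ↥(s36n2bK A ζ)) (s36ndZ hq hζ)

/-- `hz` of `s36n2V` / `zeta` of `S36NoData` -/
theorem s36nd_hz (hq : q.Prime) (hζ : IsPrimitiveRoot ζ q) :
    Units.map ((algebraMap ↥(beta0Ring A (s36n2bK A ζ)) ↥(s36n2bK A ζ) :
      ↥(beta0Ring A (s36n2bK A ζ)) →+* ↥(s36n2bK A ζ)) :
        ↥(beta0Ring A (s36n2bK A ζ)) →* ↥(s36n2bK A ζ)) (s36ndZ (A := A) hq hζ) =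
      s36ndZeta hq hζ := rfl

theorem s36ndZeta_val (hq : q.Prime) (hζ : IsPrimitiveRoot ζ q) :
    ((s36ndZeta (A := A) hq hζ : (↥(s36n2bK A ζ))ˣ) : ↥(s36n2bK A ζ)) =
      algebraMap ↥(beta0Ring A (s36n2bK A ζ)) ↥(s36n2bK A ζ) (s36n2bZeta hq hζ) := by
  show algebraMap ↥(beta0Ring A (s36n2bK A ζ)) ↥(s36n2bK A ζ)
    ((s36ndZ (A := A) hq hζ : (beta0Ring A (s36n2bK A ζ))ˣ) : beta0Ring A (s36n2bK A ζ)) = _
  rw [s36ndZ_coe]

theorem s36ndZeta_eq (hq : q.Prime) (hζ : IsPrimitiveRoot ζ q) :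
    ((s36ndZeta (A := A) hq hζ : (↥(s36n2bK A ζ))ˣ) : ↥(s36n2bK A ζ)) =
      ⟨ζ, s36n2b_zeta_mem_K A ζ⟩ := by
  rw [s36ndZeta_val]
  rfl

@[simp]
theorem s36ndZeta_coe (hq : q.Prime) (hζ : IsPrimitiveRoot ζ q) :
    (((s36ndZeta (A := A) hq hζ : (↥(s36n2bK A ζ))ˣ) : ↥(s36n2bK A ζ)) : AlgebraicClosure ℚ) =
      ζ := by
  rw [s36ndZeta_eq]

theorem s36nd_zeta_primitive (hq : q.Prime) (hζ : IsPrimitiveRoot ζ q) :
    IsPrimitiveRoot ((s36ndZeta (A := A) hq hζ : (↥(s36n2bK A ζ))ˣ) : ↥(s36n2bK A ζ)) q := by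
  have hinj : Function.Injective (algebraMap ↥(s36n2bK A ζ) (AlgebraicClosure ℚ)) :=
    (algebraMap ↥(s36n2bK A ζ) (AlgebraicClosure ℚ)).injective
  refine IsPrimitiveRoot.of_map_of_injective
    (f := algebraMap ↥(s36n2bK A ζ) (AlgebraicClosure ℚ)) ?_ hinj
  have e : algebraMap ↥(s36n2bK A ζ) (AlgebraicClosure ℚ)
      ((s36ndZeta (A := A) hq hζ : (↥(s36n2bK A ζ))ˣ) : ↥(s36n2bK A ζ)) = ζ :=
    s36ndZeta_coe (A := A) hq hζ
  rw [e]
  exact hζ

theorem s36nd_pi (hq : q.Prime) (hζ : IsPrimitiveRoot ζ q) :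
    algebraMap ↥(beta0Ring A (s36n2bK A ζ)) ↥(s36n2bK A ζ) (s36n2bPi hq hζ) =
      1 - ((s36ndZeta (A := A) hq hζ : (↥(s36n2bK A ζ))ˣ) : ↥(s36n2bK A ζ)) := by
  rw [s36ndZeta_val, s36n2bPi, map_sub, map_one]

/-- a constant which is a unit of `A_K` is a unit of the Gauss ring -/
theorem s36nd_vtUnit_C {c : beta0Ring A (s36n2bK A ζ)}
    (hc : IsLocalRing.residue ↥(beta0Ring A (s36n2bK A ζ)) c ≠ 0) :
    VtUnit (algebraMap ↥(beta0Ring A (s36n2bK A ζ)) ↥(s36n2bK A ζ))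
      (IsLocalRing.residue ↥(beta0Ring A (s36n2bK A ζ)))
      (HahnSeries.C (algebraMap ↥(beta0Ring A (s36n2bK A ζ)) ↥(s36n2bK A ζ) c) :
        LaurentSeries ↥(s36n2bK A ζ)) :=
  vtUnit_C hc

/-- **ramification**: `q` has order `q - 1` at `(A_K, Π)` -/
theorem s36nd_ram (hq : q.Prime) (hA : A.LiesOverPrime q) (hζ : IsPrimitiveRoot ζ q) :
    S36IsOrd (algebraMap ↥(beta0Ring A (s36n2bK A ζ)) ↥(s36n2bK A ζ))
      (IsLocalRing.residue ↥(beta0Ring A (s36n2bK A ζ))) (s36n2bPi hq hζ)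
      (HahnSeries.C ((IntermediateField.inclusion (s36n2b_le_K A ζ)).toRingHom
        (algebraMap ↥(beta0Ring A (beta0Field A)) ↥(beta0Field A)
          ((q : ℕ) : beta0Ring A (beta0Field A)))) : LaurentSeries ↥(s36n2bK A ζ))
      ((q : ℤ) - 1) := by
  obtain ⟨u, hu⟩ := s36n2b_exists_unit (A := A) hq hζ
  have hB₁ := s36n2b_vtBase (A := A) hq hA hζ
  have hru : IsLocalRing.residue ↥(beta0Ring A (s36n2bK A ζ))
      (u : beta0Ring A (s36n2bK A ζ)) ≠ 0 := by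
    intro h
    have h1 : IsUnit (IsLocalRing.residue ↥(beta0Ring A (s36n2bK A ζ))
      (u : beta0Ring A (s36n2bK A ζ))) := u.isUnit.map _
    rw [h] at h1
    exact not_isUnit_zero h1
  refine s36IsOrd_of_eq hB₁ (s36nd_vtUnit_C hru) ?_
  have e1 : (IntermediateField.inclusion (s36n2b_le_K A ζ)).toRingHom
      (algebraMap ↥(beta0Ring A (beta0Field A)) ↥(beta0Field A)
        ((q : ℕ) : beta0Ring A (beta0Field A))) =
      algebraMap ↥(beta0Ring A (s36n2bK A ζ)) ↥(s36n2bK A ζ)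
        ((q : ℕ) : beta0Ring A (s36n2bK A ζ)) := by
    rw [map_natCast, map_natCast, map_natCast]
  have e2 : ((q : ℤ) - 1) = ((q - 1 : ℕ) : ℤ) := by
    rw [Nat.cast_sub hq.one_lt.le, Nat.cast_one]
  rw [e1, hu, map_mul, map_mul, map_pow, map_pow, e2, zpow_natCast]

/-- **Galois**: for `1 ≤ b < q` an automorphism of `K / E₀` with `ζ ↦ ζ ^ b`, compatible with
the integral structure, moving `Π` by a unit -/
theorem s36nd_gal (hq : q.Prime) (hA : A.LiesOverPrime q) (hζ : IsPrimitiveRoot ζ q)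
    (b : ℕ) (hb1 : 1 ≤ b) (hbq : b < q) :
    ∃ (σ : ↥(s36n2bK A ζ) →+* ↥(s36n2bK A ζ))
      (κ' : IsLocalRing.ResidueField ↥(beta0Ring A (s36n2bK A ζ)) →+*
        IsLocalRing.ResidueField ↥(beta0Ring A (s36n2bK A ζ))),
      (∀ x, σ ((IntermediateField.inclusion (s36n2b_le_K A ζ)).toRingHom x) =
        (IntermediateField.inclusion (s36n2b_le_K A ζ)).toRingHom x) ∧
      σ ((s36ndZeta (A := A) hq hζ : (↥(s36n2bK A ζ))ˣ) : ↥(s36n2bK A ζ)) =
        (((s36ndZeta (A := A) hq hζ) ^ b : (↥(s36n2bK A ζ))ˣ) : ↥(s36n2bK A ζ)) ∧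
      VtCompat (algebraMap ↥(beta0Ring A (s36n2bK A ζ)) ↥(s36n2bK A ζ))
        (IsLocalRing.residue ↥(beta0Ring A (s36n2bK A ζ)))
        (algebraMap ↥(beta0Ring A (s36n2bK A ζ)) ↥(s36n2bK A ζ))
        (IsLocalRing.residue ↥(beta0Ring A (s36n2bK A ζ))) σ κ' ∧
      S36IsOrd (algebraMap ↥(beta0Ring A (s36n2bK A ζ)) ↥(s36n2bK A ζ))
        (IsLocalRing.residue ↥(beta0Ring A (s36n2bK A ζ))) (s36n2bPi hq hζ)
        (HahnSeries.C (σ (algebraMap ↥(beta0Ring A (s36n2bK A ζ)) ↥(s36n2bK A ζ)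
          (s36n2bPi hq hζ))) : LaurentSeries ↥(s36n2bK A ζ)) 1 := by
  haveI := s36n2b_isDVR (A := A) hq hA hζ
  have hb : ¬ q ∣ b := fun h => absurd (Nat.le_of_dvd hb1 h) (not_le.mpr hbq)
  obtain ⟨σ, hσ, hσζ⟩ := s36n2b_exists_inertia_pow (A := A) hq hA hζ hb
  have hK : ∀ x ∈ s36n2bK A ζ, σ x ∈ s36n2bK A ζ := fun x hx => s36n2b_apply_mem hq hζ hσ hx
  have hB₁ := s36n2b_vtBase (A := A) hq hA hζ
  refine ⟨mgRestrict (s36n2bK A ζ) σ hK, RingHom.id _, ?_, ?_,
    vt_compat_of_inertia (s36n2bK A ζ) hσ hK, ?_⟩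
  · intro x
    apply Subtype.ext
    show σ ((x : ↥(beta0Field A)) : AlgebraicClosure ℚ) = ((x : ↥(beta0Field A)) : AlgebraicClosure ℚ)
    exact mem_beta0Field.mp x.2 σ hσ
  · apply Subtype.ext
    show σ (((s36ndZeta (A := A) hq hζ : (↥(s36n2bK A ζ))ˣ) : ↥(s36n2bK A ζ)) :
        AlgebraicClosure ℚ) = _
    rw [s36ndZeta_coe, hσζ, Units.val_pow_eq_pow_val]
    show ζ ^ b = ((((s36ndZeta (A := A) hq hζ : (↥(s36n2bK A ζ))ˣ) : ↥(s36n2bK A ζ)) ^ b :
      ↥(s36n2bK A ζ)) : AlgebraicClosure ℚ)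
    rw [IntermediateField.coe_pow, s36ndZeta_coe]
  · obtain ⟨c, hc1, hc2⟩ := vt_unif_of_inertia (s36n2bK A ζ)
      (s36n2b_irreducible (A := A) hq hA hζ) hσ hK
    refine s36IsOrd_of_eq hB₁ (s36nd_vtUnit_C hc2) ?_
    rw [hc1, map_mul, zpow_one, mul_comm]

/-- **(I3-data)**: the concrete `S36NoData`. -/
theorem s36nd_data (hq : q.Prime) (hA : A.LiesOverPrime q) (hζ : IsPrimitiveRoot ζ q) :
    S36NoData (algebraMap ↥(beta0Ring A (beta0Field A)) ↥(beta0Field A))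
      (IsLocalRing.residue ↥(beta0Ring A (beta0Field A)))
      ((q : ℕ) : beta0Ring A (beta0Field A))
      (algebraMap ↥(beta0Ring A (s36n2bK A ζ)) ↥(s36n2bK A ζ))
      (IsLocalRing.residue ↥(beta0Ring A (s36n2bK A ζ))) (s36n2bPi hq hζ)
      (IntermediateField.inclusion (s36n2b_le_K A ζ)).toRingHom q (s36ndZeta hq hζ) := by
  haveI := beta0Ring_isDVR_base (A := A) hq hA
  refine ⟨vtBase_residue (beta0Ring_irreducible_q hq hA), s36n2b_vtBase hq hA hζ, ?_,
    s36nd_ram hq hA hζ, ⟨s36ndZ hq hζ, ?_⟩, fun b hb1 hbq => s36nd_gal hq hA hζ b hb1 hbq⟩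
  · obtain ⟨κ, -, hκ⟩ := s36n2b_compat (A := A) (ζ := ζ) hq hA
    exact ⟨κ, hκ⟩
  · exact (s36ndZeta_val hq hζ).symm ▸ congrArg _ (s36ndZ_coe hq hζ)

end Fermat.Agent.S36

end
end ZBS36_022_11

/-! ### bundled: `Fermat.Agent.S36.TopB` -/
section ZBS36_022_12

/-!
# S36 geometry, G-topB: the instantiation of the abstract chain (helper58)

`A ∣ q` a valuation ring of `ℚ̄`, `E₀ = beta0Field A = ℚ̄^I`, `A₀ = beta0Ring A E₀ = A ∩ E₀`
(a DVR with uniformizer `q`), `F = F_{Mqq}(E₀)`, `F₁ = F_{Mq}(E₀)`, `α = s36Alpha`, `β = s36Beta`,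
`Nα = s36NormAlpha`, `Nβ = s36NormBeta`, `Hor = s36Hor E₀ (p ^ r)`.

* `s36tb_small` : `s36ta_main` (helper84) at this setting, with the base hypotheses discharged
  (`hπ`, `hcl`, `hpu`, `hunit`, `hqπ`, `ζm`, the constants, `Hor`): the hypotheses which remain are
  EXACTLY the modular inputs
    (I1) N2-val   : `V`, `hne`, `hBV₁`, `hBV₂`, `hπV`, `hram`, `c₀`, `hU`, `hG`, `harch`
    (I2) N2-ker   : `hKR`
    (I3) G-nr-ord : `ord`, `winf`, `w0` and the norm–order formulas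
    (I4) G-nr     : `Winf`, `W0`, `Dα`, `Dβ`
    (I5) G-desc-N : `stbDeg α = q`, `stbDeg β = q`
    (I6) N2-pts / G-reg / G-thin / G-inc : `hpts` (for every `r` and every primitive
         `p ^ r`-th root of unity `ζm ∈ A₀`)
    (I7) the chart coordinate `t` (transcendental, `F / E₀(t)` finite).
  Conclusion: `StmtCarayolSmallAt M q p A` with `c = (q + 1) (q − 1) (q − 1) (q + 1)`.
-/

set_option autoImplicit false
set_option linter.style.haveILetI false
set_option linter.unusedSectionVars false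
set_option linter.unusedVariables false

noncomputable section

namespace Fermat.Agent.S36

open ModularCurve AlgebraicCurve Fermat.Agent.ES Fermat.Agent.ES.G2 Fermat.Agent.INJ
open Fermat.Agent.UNIP Fermat.Agent.STB IntermediateField

section Main

variable {q : ℕ} {A : ValuationSubring Qb} (M : ℕ) [NeZero M] [NeZero q]
  [IsDiscreteValuationRing ↥(beta0Ring A (beta0Field A))]

/-- **G-topB**: the abstract chain at the modular setting over the small field. -/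
theorem s36tb_small (hq : q.Prime) (hA : A.LiesOverPrime q) {p : ℕ} (hp : p.Prime) (hpq : p ≠ q)
    -- (I5)
    (hdegα : stbDeg (s36Alpha ↥(beta0Field A) M q) = q)
    (hdegβ : stbDeg (s36Beta ↥(beta0Field A) M q) = q)
    -- (I7)
    {t : ↥(modularFunctionFieldFullC ↥(beta0Field A) (M * q * q))}
    (ht : Transcendental ↥(beta0Field A) t)
    (hfin : FiniteDimensional (↥(beta0Field A))⟮t⟯
      ↥(modularFunctionFieldFullC ↥(beta0Field A) (M * q * q)))
    -- (I1), (I2)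
    (N : ℕ) {κ : Type*} [Finite κ]
    (V : κ → ValuationSubring ↥(modularFunctionFieldFullC ↥(beta0Field A) (M * q * q)))
    (hne : ∀ c c', c ≠ c' → V c ≠ V c')
    (hBV₁ : ∀ c (b : ↥(modularFunctionFieldFullC ↥(beta0Field A) (M * q * q))),
      IsIntegral ↥(Algebra.adjoin ↥(beta0Ring A (beta0Field A)) {t}) b → b ∈ V c)
    (hBV₂ : ∀ c (b : ↥(modularFunctionFieldFullC ↥(beta0Field A) (M * q * q))),
      IsIntegral ↥(Algebra.adjoin ↥(beta0Ring A (beta0Field A)) {t⁻¹}) b → b ∈ V c)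
    (hπV : ∀ c, algebraMap ↥(beta0Ring A (beta0Field A))
      ↥(modularFunctionFieldFullC ↥(beta0Field A) (M * q * q))
        ((q : ℕ) : ↥(beta0Ring A (beta0Field A))) ∈ (V c).nonunits)
    (hKR : ∀ x : ↥(modularFunctionFieldFullC ↥(beta0Field A) (M * q * q)),
      IsIntegral ↥(Algebra.adjoin ↥(beta0Ring A (beta0Field A)) {t})
        (algebraMap ↥(beta0Ring A (beta0Field A))
          ↥(modularFunctionFieldFullC ↥(beta0Field A) (M * q * q))
          ((q : ℕ) : ↥(beta0Ring A (beta0Field A))) * x) →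
      (∀ c, x ∈ V c) → IsIntegral ↥(Algebra.adjoin ↥(beta0Ring A (beta0Field A)) {t}) x)
    (hram : ∀ c (x : ↥(modularFunctionFieldFullC ↥(beta0Field A) (M * q * q))),
      x ∈ (V c).nonunits → ∃ z ∈ V c, x ^ (q ^ N) =
        algebraMap ↥(beta0Ring A (beta0Field A))
          ↥(modularFunctionFieldFullC ↥(beta0Field A) (M * q * q))
          ((q : ℕ) : ↥(beta0Ring A (beta0Field A))) * z)
    (c₀ : κ)
    (hU : ∀ x : ↥(modularFunctionFieldFullC ↥(beta0Field A) (M * q * q)),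
      x ∈ (V c₀).nonunits → ∃ z ∈ V c₀, x =
        algebraMap ↥(beta0Ring A (beta0Field A))
          ↥(modularFunctionFieldFullC ↥(beta0Field A) (M * q * q))
          ((q : ℕ) : ↥(beta0Ring A (beta0Field A))) * z)
    (hG : ∀ s : ↥(modularFunctionFieldFullC ↥(beta0Field A) (M * q * q)),
      EIPrimeTo ((q : ℕ) : ↥(beta0Ring A (beta0Field A))) t s → s ∉ (V c₀).nonunits)
    (harch : ∀ c (a x : ↥(modularFunctionFieldFullC ↥(beta0Field A) (M * q * q))),
      a ∈ (V c).nonunits → ∃ n : ℕ, a ^ n * x ∈ (V c).nonunits)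
    (ca cb cc : κ) (hκ : ∀ c, c = ca ∨ c = cb ∨ c = cc) (hab : ca ≠ cb) (hac : ca ≠ cc)
    (hbc : cb ≠ cc)
    -- (I3)
    (ord : κ → ↥(modularFunctionFieldFullC ↥(beta0Field A) (M * q * q)) → ℤ)
    (hord : ∀ c (x y : ↥(modularFunctionFieldFullC ↥(beta0Field A) (M * q * q))),
      x ≠ 0 → y ≠ 0 → ord c (x * y) = ord c x + ord c y)
    (hord0 : ∀ c (x : ↥(modularFunctionFieldFullC ↥(beta0Field A) (M * q * q))),
      x ≠ 0 → (ord c x = 0 ↔ (V c).valuation x = 1))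
    (hπa : ord ca (algebraMap ↥(beta0Ring A (beta0Field A))
      ↥(modularFunctionFieldFullC ↥(beta0Field A) (M * q * q))
        ((q : ℕ) : ↥(beta0Ring A (beta0Field A)))) = 1)
    (hπb : ord cb (algebraMap ↥(beta0Ring A (beta0Field A))
      ↥(modularFunctionFieldFullC ↥(beta0Field A) (M * q * q))
        ((q : ℕ) : ↥(beta0Ring A (beta0Field A)))) = 1)
    (hπc : ord cc (algebraMap ↥(beta0Ring A (beta0Field A))
      ↥(modularFunctionFieldFullC ↥(beta0Field A) (M * q * q))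
        ((q : ℕ) : ↥(beta0Ring A (beta0Field A)))) = (q : ℤ) - 1)
    {ϖc : ↥(modularFunctionFieldFullC ↥(beta0Field A) (M * q * q))} (hϖc0 : ϖc ≠ 0)
    (hϖc : ord cc ϖc = 1)
    -- (I4)
    (Winf W0 : ValuationSubring ↥(modularFunctionFieldFullC ↥(beta0Field A) (M * q)))
    (Dα : NgDir (s36Alpha ↥(beta0Field A) M q) (s36NormAlpha ↥(beta0Field A) M q) Winf
      (V ca) (V cc) (V cb) (q - 1) q)
    (Dβ : NgDir (s36Beta ↥(beta0Field A) M q) (s36NormBeta ↥(beta0Field A) M q) W0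
      (V cb) (V cc) (V ca) (q - 1) q)
    (winf w0 : ↥(modularFunctionFieldFullC ↥(beta0Field A) (M * q)) → ℤ)
    (hwinf : ∀ x y : ↥(modularFunctionFieldFullC ↥(beta0Field A) (M * q)),
      x ≠ 0 → y ≠ 0 → winf (x * y) = winf x + winf y)
    (hw0 : ∀ x y : ↥(modularFunctionFieldFullC ↥(beta0Field A) (M * q)),
      x ≠ 0 → y ≠ 0 → w0 (x * y) = w0 x + w0 y)
    (hαinf : ∀ x : ↥(modularFunctionFieldFullC ↥(beta0Field A) (M * q * q)), x ≠ 0 →
      winf (s36NormAlpha ↥(beta0Field A) M q x) = ord ca x + ord cc x)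
    (hα0 : ∀ x : ↥(modularFunctionFieldFullC ↥(beta0Field A) (M * q * q)), x ≠ 0 →
      w0 (s36NormAlpha ↥(beta0Field A) M q x) = q * ord cb x)
    (hβinf : ∀ x : ↥(modularFunctionFieldFullC ↥(beta0Field A) (M * q * q)), x ≠ 0 →
      winf (s36NormBeta ↥(beta0Field A) M q x) = q * ord ca x)
    (hβ0 : ∀ x : ↥(modularFunctionFieldFullC ↥(beta0Field A) (M * q * q)), x ≠ 0 →
      w0 (s36NormBeta ↥(beta0Field A) M q x) = ord cc x + ord cb x)
    -- (I6)
    (hpts : ∀ (r : ℕ) (ζm : ↥(beta0Ring A (beta0Field A))), IsPrimitiveRoot ζm (p ^ r) →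
      ∀ i : AtPt (F := ↥(modularFunctionFieldFullC ↥(beta0Field A) (M * q * q)))
          ((q : ℕ) : ↥(beta0Ring A (beta0Field A))) t ⊕
        AtPt (F := ↥(modularFunctionFieldFullC ↥(beta0Field A) (M * q * q)))
          ((q : ℕ) : ↥(beta0Ring A (beta0Field A))) t⁻¹,
      @S36PtInput ↥(modularFunctionFieldFullC ↥(beta0Field A) (M * q))
        ↥(modularFunctionFieldFullC ↥(beta0Field A) (M * q * q)) _ _ κ
        (s36Hor ↥(beta0Field A) (p ^ r)) (p ^ r)
        (s36Alpha ↥(beta0Field A) M q) (s36Beta ↥(beta0Field A) M q)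
        (s36NormAlpha ↥(beta0Field A) M q) (s36NormBeta ↥(beta0Field A) M q)
        (algebraMap ↥(beta0Field A) ↥(modularFunctionFieldFullC ↥(beta0Field A) (M * q))
          (algebraMap ↥(beta0Ring A (beta0Field A)) ↥(beta0Field A) ζm))
        V ca cb cc (atO ((q : ℕ) : ↥(beta0Ring A (beta0Field A))) t i)
        (stb_atO_isLocalRing (π := ((q : ℕ) : ↥(beta0Ring A (beta0Field A)))) t i)
        (atInc ((q : ℕ) : ↥(beta0Ring A (beta0Field A))) t V i)) :
    StmtCarayolSmallAt M q p A := by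
  haveI := hfin
  have hM : ∀ r : ℕ, (((p ^ r : ℕ) : ℕ) : Qb) ∉ A.nonunits := by
    intro r
    have := Fermat.Agent.S31.natCast_pow_not_mem_nonunits A hp hq (Ne.symm hpq) hA r
    exact_mod_cast this
  have hM1 : ((p : ℕ) : Qb) ∉ A.nonunits := by
    have := hM 1
    rwa [pow_one] at this
  have hE : beta0Field A ≤ beta0Field A := le_refl _
  have hpu : IsUnit ((p : ℕ) : ↥(beta0Ring A (beta0Field A))) := beta0Ring_hpu hM1
  have hunit := beta0Ring_hunit (A := A) (K₀ := beta0Field A) hq hA hE hp.ne_zero hM1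
  have hπ : Irreducible ((q : ℕ) : ↥(beta0Ring A (beta0Field A))) :=
    beta0Ring_irreducible_q hq hA
  have hcl : ∀ x : ↥(modularFunctionFieldFullC ↥(beta0Field A) (M * q * q)),
      IsAlgebraic ↥(beta0Field A) x →
        x ∈ (algebraMap ↥(beta0Field A)
          ↥(modularFunctionFieldFullC ↥(beta0Field A) (M * q * q))).range :=
    fun x hx => bgConst_mem_range_of_isAlgebraic
      (modularFunctionFieldFullC ↥(beta0Field A) (M * q * q)) x hx
  refine ⟨(q + 1) * ((q - 1) * ((q - 1) * (q + 1))), ?_, ?_⟩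
  · have h1 : q - 1 ≠ 0 := Nat.sub_ne_zero_of_lt hq.one_lt
    exact Nat.mul_ne_zero (Nat.succ_ne_zero q)
      (Nat.mul_ne_zero h1 (Nat.mul_ne_zero h1 (Nat.succ_ne_zero q)))
  intro n u hu hordu hNα hNβ
  obtain ⟨ζm, hζm⟩ := beta0Ring_exists_primitiveRoot (A := A) (K₀ := beta0Field A) hE
    (pow_ne_zero n hp.ne_zero) (hM n)
  exact s36ta_main hπ ht hcl hp hpu hunit hq (Ne.symm hpq) (dvd_refl _) N V hne hBV₁ hBV₂ hπV
    hKR hram c₀ hU hG harch ca cb cc hκ hab hac hbc ord hord hord0 hπa hπb hπc hϖc0 hϖc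
    (s36Alpha ↥(beta0Field A) M q) (s36Beta ↥(beta0Field A) M q)
    (s36NormAlpha ↥(beta0Field A) M q) (s36NormBeta ↥(beta0Field A) M q)
    (s36Alpha_algebraMap ↥(beta0Field A) M q) (s36Beta_algebraMap ↥(beta0Field A) M q)
    (fun e => by rw [s36NormAlpha_algebraMap, hdegα])
    (fun e => by rw [s36NormBeta_algebraMap, hdegβ])
    Winf W0 Dα Dβ winf w0 hwinf hw0 hαinf hα0 hβinf hβ0 n hζm
    (s36Hor ↥(beta0Field A) (p ^ n))
    (fun x y hx hy => s36Hor_mul hx hy) (fun x hx => s36Hor_inv hx)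
    (fun e _ => s36Hor_algebraMap (p ^ n) e) (fun x _ => s36Hor_pow_self (p ^ n) x)
    (hpts n ζm hζm) hu hordu hNα hNβ

end Main

end Fermat.Agent.S36

end
end ZBS36_022_12

/-! ### bundled: `Fermat.Agent.S36.SmallPart` -/
section ZBS36_022_13

/-!
# S36 / G-top, PARTIAL WIRING: `s36tb_small` with (I1), (I3), (I5), (I7) discharged (helper98)

`V := s36i1V M hq hA hqM hζ ιC h` (the concrete family of `S36/N2ValI1.lean`), `t := bgJ E₀ (M*q*q)`,
`N := 1`, `c₀ = ca := a`, `cb := b`, `cc := c`.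

* `s36sp_hne`   : (I1) `hne` at the concrete family (helper93's `s36n2V_ne`);
* `s36sp_data`  : the concrete `S36NoData` (helper62's `s36nd_data`) in the form needed here;
* `s36sp_small` : **`StmtCarayolSmallAt M q p A`** from exactly
    (I2) `hKR`, (I4) `Winf W0 Dα Dβ`, (I6) `hpts`.
-/

set_option autoImplicit false
set_option linter.style.haveILetI false
set_option linter.unusedSectionVars false
set_option linter.unusedVariables false
set_option linter.constructorNameAsVariable false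

noncomputable section

namespace Fermat.Agent.S36

open ModularCurve AlgebraicCurve Fermat.Agent.ES Fermat.Agent.ES.G2 Fermat.Agent.INJ
open Fermat.Agent.UNIP Fermat.Agent.STB IntermediateField

section Part

variable {q : ℕ} {A : ValuationSubring (AlgebraicClosure ℚ)} (M : ℕ) [NeZero M] [NeZero q]
  [IsDiscreteValuationRing ↥(beta0Ring A (beta0Field A))]
  {ζ : AlgebraicClosure ℚ}
  (hq : q.Prime) (hA : A.LiesOverPrime q) (hqM : ¬ q ∣ M) (hζ : IsPrimitiveRoot ζ q)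
  (ιC : ↥(beta0Field A) →+* ℂ)
  (h : S36MidEmb ↥(s36n2bK A ζ) q M (s36i1ZK (A := A) hq hζ))

include hA in
/-- the concrete arithmetic data, with the root of unity `s36i1ZK` -/
theorem s36sp_data :
    S36NoData (algebraMap ↥(beta0Ring A (beta0Field A)) ↥(beta0Field A))
      (IsLocalRing.residue ↥(beta0Ring A (beta0Field A)))
      ((q : ℕ) : beta0Ring A (beta0Field A))
      (algebraMap ↥(beta0Ring A (s36n2bK A ζ)) ↥(s36n2bK A ζ))
      (IsLocalRing.residue ↥(beta0Ring A (s36n2bK A ζ))) (s36n2bPi hq hζ)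
      (IntermediateField.inclusion (s36n2b_le_K A ζ)).toRingHom q (s36i1ZK (A := A) hq hζ) :=
  s36nd_data hq hA hζ

include hq in
theorem s36sp_zeta_pow : (s36i1ZK (A := A) hq hζ) ^ q = 1 := by
  apply Units.ext
  rw [Units.val_pow_eq_pow_val, Units.val_one]
  exact (s36i1ZK_isPrimitiveRoot (A := A) hq hζ).pow_eq_one

/-- **hne** for the concrete family -/
theorem s36sp_hne (ιK : ↥(s36n2bK A ζ) →+* ℂ) (c c' : S36Comp) (hcc : c ≠ c') :
    s36i1V M hq hA hqM hζ ιC h c ≠ s36i1V M hq hA hqM hζ ιC h c' := by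
  haveI : Fact q.Prime := ⟨hq⟩
  haveI : CharP (IsLocalRing.ResidueField ↥(beta0Ring A (beta0Field A))) q := mgvl_charP hq hA
  obtain ⟨κ, -, hκ⟩ := s36n2b_compat (A := A) (ζ := ζ) hq hA
  exact s36n2V_ne (vtBase_residue (beta0Ring_irreducible_q hq hA)) (s36n2b_vtBase hq hA hζ) hκ
    ιC ιK hq hqM h (s36i1Z hq hζ) rfl (s36sp_zeta_pow hq hζ) hcc

/-- **PARTIAL WIRING**: `StmtCarayolSmallAt M q p A` from (I2) `hKR`, (I4) `Winf W0 Dα Dβ`,
(I6) `hpts` at the concrete family `V = s36i1V M hq hA hqM hζ ιC h`, chart `t = j`. -/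
theorem s36sp_small {p : ℕ} (hp : p.Prime) (hpq : p ≠ q)
    (ιK : ↥(s36n2bK A ζ) →+* ℂ)
    -- (I2)
    (hKR : ∀ x : ↥(modularFunctionFieldFullC ↥(beta0Field A) (M * q * q)),
      IsIntegral ↥(Algebra.adjoin ↥(beta0Ring A (beta0Field A))
          {bgJ ↥(beta0Field A) (M * q * q)})
        (algebraMap ↥(beta0Ring A (beta0Field A))
          ↥(modularFunctionFieldFullC ↥(beta0Field A) (M * q * q))
          ((q : ℕ) : ↥(beta0Ring A (beta0Field A))) * x) →
      (∀ c, x ∈ s36i1V M hq hA hqM hζ ιC h c) →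
        IsIntegral ↥(Algebra.adjoin ↥(beta0Ring A (beta0Field A))
          {bgJ ↥(beta0Field A) (M * q * q)}) x)
    -- (I4)
    (Winf W0 : ValuationSubring ↥(modularFunctionFieldFullC ↥(beta0Field A) (M * q)))
    (Dα : NgDir (s36Alpha ↥(beta0Field A) M q) (s36NormAlpha ↥(beta0Field A) M q) Winf
      (s36i1V M hq hA hqM hζ ιC h S36Comp.a) (s36i1V M hq hA hqM hζ ιC h S36Comp.c)
      (s36i1V M hq hA hqM hζ ιC h S36Comp.b) (q - 1) q)
    (Dβ : NgDir (s36Beta ↥(beta0Field A) M q) (s36NormBeta ↥(beta0Field A) M q) W0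
      (s36i1V M hq hA hqM hζ ιC h S36Comp.b) (s36i1V M hq hA hqM hζ ιC h S36Comp.c)
      (s36i1V M hq hA hqM hζ ιC h S36Comp.a) (q - 1) q)
    -- (I6)
    (hpts : ∀ (r : ℕ) (ζm : ↥(beta0Ring A (beta0Field A))), IsPrimitiveRoot ζm (p ^ r) →
      ∀ i : AtPt (F := ↥(modularFunctionFieldFullC ↥(beta0Field A) (M * q * q)))
          ((q : ℕ) : ↥(beta0Ring A (beta0Field A))) (bgJ ↥(beta0Field A) (M * q * q)) ⊕
        AtPt (F := ↥(modularFunctionFieldFullC ↥(beta0Field A) (M * q * q)))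
          ((q : ℕ) : ↥(beta0Ring A (beta0Field A))) (bgJ ↥(beta0Field A) (M * q * q))⁻¹,
      @S36PtInput ↥(modularFunctionFieldFullC ↥(beta0Field A) (M * q))
        ↥(modularFunctionFieldFullC ↥(beta0Field A) (M * q * q)) _ _ S36Comp
        (s36Hor ↥(beta0Field A) (p ^ r)) (p ^ r)
        (s36Alpha ↥(beta0Field A) M q) (s36Beta ↥(beta0Field A) M q)
        (s36NormAlpha ↥(beta0Field A) M q) (s36NormBeta ↥(beta0Field A) M q)
        (algebraMap ↥(beta0Field A) ↥(modularFunctionFieldFullC ↥(beta0Field A) (M * q))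
          (algebraMap ↥(beta0Ring A (beta0Field A)) ↥(beta0Field A) ζm))
        (s36i1V M hq hA hqM hζ ιC h) S36Comp.a S36Comp.b S36Comp.c
        (atO ((q : ℕ) : ↥(beta0Ring A (beta0Field A))) (bgJ ↥(beta0Field A) (M * q * q)) i)
        (stb_atO_isLocalRing (π := ((q : ℕ) : ↥(beta0Ring A (beta0Field A))))
          (bgJ ↥(beta0Field A) (M * q * q)) i)
        (atInc ((q : ℕ) : ↥(beta0Ring A (beta0Field A))) (bgJ ↥(beta0Field A) (M * q * q))
          (s36i1V M hq hA hqM hζ ιC h) i)) :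
    StmtCarayolSmallAt M q p A := by
  have hqM' : q ∣ M * q := Dvd.intro_left M rfl
  obtain ⟨ord, winf, w0, ϖc, hord, hord0, hπa, hπb, hπc, hϖc0, hϖc, hwinf, hw0, hαinf, hα0,
      hβinf, hβ0⟩ :=
    s36i3_main (A := ↥(beta0Ring A (beta0Field A))) (E := ↥(beta0Field A))
      (IntermediateField.inclusion (s36n2b_le_K A ζ)).toRingHom ιC hq hqM h
      (s36sp_data hq hA hζ) (vtBase_residue (beta0Ring_irreducible_q hq hA))
      (s36n2b_vtBase hq hA hζ) (s36i1Z hq hζ) rfl (s36nd_pi hq hζ)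
      (s36i1ZK_isPrimitiveRoot hq hζ) ιK
  exact s36tb_small (A := A) M hq hA hp hpq
    (s36dn_deg_alpha ↥(beta0Field A) M q hq) (s36dn_deg_beta ↥(beta0Field A) ιC hq hqM)
    (bgConst_transcendental_bgJ ↥(beta0Field A) (M * q * q))
    (bgFin_finiteDimensional_full ↥(beta0Field A) (M * q * q)) 1
    (s36i1V M hq hA hqM hζ ιC h) (s36sp_hne M hq hA hqM hζ ιC h ιK)
    (s36i1c_hBV₁ M hq hA hqM hζ ιC h) (s36i1c_hBV₂ M hq hA hqM hζ ιC h)
    (s36i1c_hπV M hq hA hqM hζ ιC h) hKR (s36i1c_hram M hq hA hqM hζ ιC h)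
    S36Comp.a (s36i1c_hU M hq hA hqM hζ ιC h) (s36i1c_hG M hq hA hqM hζ ιC h)
    (s36i1c_harch M hq hA hqM hζ ιC h) S36Comp.a S36Comp.b S36Comp.c
    s36i1_hκ s36i1_hab s36i1_hac s36i1_hbc
    ord hord hord0 hπa hπb hπc hϖc0 hϖc Winf W0 Dα Dβ winf w0 hwinf hw0 hαinf hα0 hβinf hβ0 hpts

end Part

end Fermat.Agent.S36

end


end ZBS36_022_13

/-! ### bundled: `Fermat.Agent.S36.N2KerInst` -/
section ZBS36_022_14

/-!
# S36 / N2-ker: modular instantiation of (K1) = `hKR` of `aq_main` at level `M q²`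

Setting of `UNIP/MGVertInertia.lean`: `A` a valuation subring of `ℚ̄`, `K₀` an intermediate field
with `A ∩ K₀ = beta0Ring A K₀` a DVR with uniformizer `π`; `F′ = F_{Mq}(K₀)`, `F = F_{Mqq}(K₀)`,
charts `j = bgJ K₀ _`; `W = mgvV hπ ιC hq hqM` the two vertical valuations of `F′`;
`V : κ → ValuationSubring F` ANY family (N2-val: `V_a, V_b, V_c`).

* `s36n2kAlphaA` : `α = s36Alpha` as an `A₀`-algebra homomorphism; `s36n2kAlphaA_bgJ`.
* `s36n2k_hKR_J` : **`hKR` on the chart `j`** of level `M q²` from (SS1) on the chart `j` of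
  level `M q` (valuation form, = the hypothesis `hSS1` of `mgv_hVloc₁`) and (EXT) (= the output
  of `s36n2e_two_hom` / `s36n2e_one_hom` for `φ = s36Alpha`).
-/

set_option autoImplicit false
set_option linter.unusedSectionVars false
set_option linter.style.haveILetI false

noncomputable section

namespace Fermat.Agent.S36

open ModularCurve AlgebraicCurve Fermat.Agent.ES Fermat.Agent.ES.G2 Fermat.Agent.INJ
open Fermat.Agent.UNIP Fermat.Agent.AL Polynomial

section Alpha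

variable {A : ValuationSubring Qb} (K₀ : IntermediateField ℚ Qb)
  (M q : ℕ) [NeZero M] [NeZero q]

/-- `α = s36Alpha` as a homomorphism of `A₀`-algebras, `A₀ = A ∩ K₀`. -/
def s36n2kAlphaA (A : ValuationSubring Qb) :
    ↥(modularFunctionFieldFullC ↥K₀ (M * q)) →ₐ[↥(beta0Ring A K₀)]
      ↥(modularFunctionFieldFullC ↥K₀ (M * q * q)) :=
  { s36Alpha ↥K₀ M q with
    commutes' := fun a => by
      apply Subtype.ext
      rfl }

@[simp]
theorem s36n2kAlphaA_apply (x : ↥(modularFunctionFieldFullC ↥K₀ (M * q))) :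
    s36n2kAlphaA K₀ M q A x = s36Alpha ↥K₀ M q x := rfl

theorem s36n2kAlphaA_coe :
    ((s36n2kAlphaA K₀ M q A : ↥(modularFunctionFieldFullC ↥K₀ (M * q)) →ₐ[↥(beta0Ring A K₀)]
      ↥(modularFunctionFieldFullC ↥K₀ (M * q * q))) :
      ↥(modularFunctionFieldFullC ↥K₀ (M * q)) →+* ↥(modularFunctionFieldFullC ↥K₀ (M * q * q)))
      = s36Alpha ↥K₀ M q := rfl

theorem s36n2kAlphaA_bgJ :
    s36n2kAlphaA K₀ M q A (bgJ ↥K₀ (M * q)) = bgJ ↥K₀ (M * q * q) := by
  apply Subtype.ext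
  rfl

end Alpha

section KR

variable {A : ValuationSubring Qb} {K₀ : IntermediateField ℚ Qb}
  [IsDiscreteValuationRing ↥(beta0Ring A K₀)] {π : ↥(beta0Ring A K₀)} (hπ : Irreducible π)
  (ιC : ↥K₀ →+* ℂ) {q M : ℕ} [NeZero q] [NeZero M] [NeZero (M * q)]
  (hq : q.Prime) (hqM : ¬ q ∣ M)

/-- **`hKR` on the chart `j` of level `M q²`**, for any family `V` of valuation subrings of
`F_{Mqq}(K₀)` satisfying (EXT) over the two vertical valuations of level `M q`. -/
theorem s36n2k_hKR_J {κ : Type*}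
    (V : κ → ValuationSubring ↥(modularFunctionFieldFullC ↥K₀ (M * q * q)))
    (hSS1 : ∀ b : ↥(modularFunctionFieldFullC ↥K₀ (M * q)),
      IsIntegral ↥(Algebra.adjoin ↥(beta0Ring A K₀)
        ({bgJ ↥K₀ (M * q)} : Set ↥(modularFunctionFieldFullC ↥K₀ (M * q)))) b →
      (∀ c, b ∈ (mgvV hπ ιC hq hqM c).nonunits) →
      ∃ b' : ↥(modularFunctionFieldFullC ↥K₀ (M * q)),
        IsIntegral ↥(Algebra.adjoin ↥(beta0Ring A K₀)
          ({bgJ ↥K₀ (M * q)} : Set ↥(modularFunctionFieldFullC ↥K₀ (M * q)))) b' ∧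
        b = algebraMap ↥(beta0Ring A K₀) ↥(modularFunctionFieldFullC ↥K₀ (M * q)) π * b')
    (hEXT : ∀ (i : Bool) (x : ↥(modularFunctionFieldFullC ↥K₀ (M * q * q))),
      (∀ c, x ∈ V c) →
      ∃ p : (↥(modularFunctionFieldFullC ↥K₀ (M * q)))[X], p.Monic ∧
        (∀ k, p.coeff k ∈ mgvV hπ ιC hq hqM i) ∧ p.eval₂ (s36Alpha ↥K₀ M q) x = 0)
    (x : ↥(modularFunctionFieldFullC ↥K₀ (M * q * q)))
    (hx : IsIntegral ↥(Algebra.adjoin ↥(beta0Ring A K₀)
        ({bgJ ↥K₀ (M * q * q)} : Set ↥(modularFunctionFieldFullC ↥K₀ (M * q * q))))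
      (algebraMap ↥(beta0Ring A K₀) ↥(modularFunctionFieldFullC ↥K₀ (M * q * q)) π * x))
    (hV : ∀ c, x ∈ V c) :
    IsIntegral ↥(Algebra.adjoin ↥(beta0Ring A K₀)
      ({bgJ ↥K₀ (M * q * q)} : Set ↥(modularFunctionFieldFullC ↥K₀ (M * q * q)))) x := by
  have hπ0 : algebraMap ↥(beta0Ring A K₀) ↥(modularFunctionFieldFullC ↥K₀ (M * q)) π ≠ 0 :=
    ei_algebraMap_ne_zero (E := ↥K₀) hπ
  have key := s36n2k_hKR (s36n2kAlphaA K₀ M q A) π (bgJ ↥K₀ (M * q)) (mgvV hπ ιC hq hqM) V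
    hπ0 (mgv_hπV hπ ιC hq hqM) hSS1 hEXT x
  rw [s36n2kAlphaA_bgJ] at key
  exact key hx hV

end KR

end Fermat.Agent.S36

end
end ZBS36_022_14

/-! ### bundled: `Fermat.Agent.S36.N2ExtX` -/
section ZBS36_022_15

/-!
# S36 / G-N2, piece N2-ext (X) (helper19): the modular instances

Setting of `S36/N2Val.lean` (`hB`, `hB'`, `ψ`, `h : S36MidEmb E' q M ζ`, `z`, `hz`), with the
compatibility `hc : VtCompat (algebraMap A E) r ι' r' ψ κ` of the two bases.

* `s36n2xPi` : `Π = j(Q^{q²}) − j ∈ F`;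
* `s36n2x_ram` : (RAM) `π = Π ^ (q − 1) · z` at `V_c`;
* `s36n2x_sep_a`, `s36n2x_sep_b` : (SEP) `Π ∈ 𝔪(V_c)`, `Π ∉ 𝔪(V_a)`, `Π ∉ 𝔪(V_b)`;
* `s36n2x_alphaInf`, `s36n2x_betaZero` : the two-valuation theorem for `(α, ∞)` and `(β, 0)`
  from the restrictions (C) of N2-val: (EXT), (F₁), (F₂), (U₁), (RAM₂).
-/

set_option autoImplicit false
set_option linter.unusedSectionVars false
set_option linter.style.haveILetI false
set_option linter.unusedVariables false

noncomputable section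

namespace Fermat.Agent.S36

open ModularCurve Fermat.Agent.UNIP Fermat.Agent.INJ Fermat.Agent.STB Fermat.Agent.AL
open Fermat.Agent.ES Fermat.Agent.S28.Deriv

section Pi

variable (E : Type*) [Field E] (M q : ℕ) [NeZero q] [NeZero M] [NeZero (M * q)]
  [NeZero (M * q * q)]

/-- `Π = j(Q^{q²}) − j(Q)`, an element of `F_{Mq²}(E)`. -/
def s36n2xPi : modularFunctionFieldFullC E (M * q * q) :=
  ⟨qExpand E q (qExpand E q (jqModC E)) - jqModC E, s36th_Pi_mem (jqModC_mem_full E M)⟩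

@[simp]
theorem coe_s36n2xPi :
    ((s36n2xPi E M q : modularFunctionFieldFullC E (M * q * q)) : LaurentSeries E) =
      qExpand E q (qExpand E q (jqModC E)) - jqModC E := rfl

end Pi

section Main

variable {A E k A' E' k' : Type*} [CommRing A] [IsDomain A] [Field E] [Algebra A E]
  [IsFractionRing A E] [Field k] [CommRing A'] [IsDomain A'] [Field E'] [Field k']
  {r : A →+* k} {π : A} {ι' : A' →+* E'} {r' : A' →+* k'} {π' : A'}
  (hB : VtBase (algebraMap A E) r π) (hB' : VtBase ι' r' π')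
  (ψ : E →+* E') (ιC : E →+* ℂ) (ιK : E' →+* ℂ)
  {q M : ℕ} [NeZero q] [NeZero M] [NeZero (M * q)] [NeZero (M * q * q)]
  (hq : q.Prime) (hqM : ¬ q ∣ M)
  {ζ : E'ˣ} (h : S36MidEmb E' q M ζ) (z : A'ˣ) (hz : Units.map (ι' : A' →* E') z = ζ)
  {κ : k →+* k'} (hc : VtCompat (algebraMap A E) r ι' r' ψ κ)

include ιK hq hqM in
/-- the expansion of `Π` at the middle cusp -/
theorem s36n2x_embC_Pi (hζq : ζ ^ q = 1) :
    s36n2EmbC ψ h (s36n2xPi E M q) = kronRot ζ (jqModC E') - jqModC E' := by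
  rw [s36n2EmbC_apply]
  have e1 : mgaCoeffHom ψ (M * q * q) (s36n2xPi E M q) =
      ⟨qExpand E' q (qExpand E' q (jqModC E')) - jqModC E',
        s36th_Pi_mem (jqModC_mem_full E' M)⟩ := by
    apply Subtype.ext
    rw [mgaCoeffHom_coe, coe_s36n2xPi, ← s36th_inf_coeffMap q ψ (jqModC E), s36th_coeffMap_j]
  rw [e1]
  exact s36th_emb_Pi ιK hq hqM h hζq (jqModC_mem_full E' M)

/-- the expansion of a constant at the middle cusp -/
theorem s36n2x_embC_const (a : E) :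
    s36n2EmbC ψ h (mgaConst E (M * q * q) a) = HahnSeries.C (ψ a) := by
  rw [s36n2EmbC_apply, mgaCoeffHom_mgaConst, mgaConst_apply, h.emb.commutes]
  exact algebraMap_laurentSeries_eq_single E' (ψ a)

include hz in
theorem s36n2x_zeta_pow (hζ : IsPrimitiveRoot (z : A') q) : ζ ^ q = 1 := by
  rw [← hz, ← map_pow]
  have h1 : z ^ q = 1 := by
    apply Units.ext
    rw [Units.val_pow_eq_pow_val, hζ.pow_eq_one, Units.val_one]
  rw [h1, map_one]

include ιK hq hqM hz in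
/-- the expansion of `Π` at the middle cusp, in the form of `MidThetaMod` -/
theorem s36n2x_embC_Pi' (hζ : IsPrimitiveRoot (z : A') q) :
    s36n2EmbC ψ h (s36n2xPi E M q) =
      kronRot (Units.map (ι' : A' →* E') z) (jqModC E') - jqModC E' := by
  rw [hz]
  exact s36n2x_embC_Pi ψ ιK hq hqM h (s36n2x_zeta_pow z hz hζ)

include ιK hqM hc in
/-- **(RAM)** at `V_c`: `π = Π ^ (q − 1) · w`, `Π ∈ 𝔪(V_c)`, `w ∈ V_c`. -/
theorem s36n2x_ram (hζ : IsPrimitiveRoot (z : A') q) (hr : r' (z : A') = 1)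
    (hq0 : (q : A') ≠ 0) {v : A} (hv : r v ≠ 0) (hπv : (q : A) = π * v) :
    ∃ t w : modularFunctionFieldFullC E (M * q * q),
      t ∈ (s36n2VC hB' ψ hq h z hz).nonunits ∧ w ∈ s36n2VC hB' ψ hq h z hz ∧
      mgaConst E (M * q * q) (algebraMap A E π) = t ^ (q - 1) * w := by
  obtain ⟨v', hv'ι, hv'r⟩ := hc v
  have hcv : s36n2EmbC ψ h (mgaConst E (M * q * q) (algebraMap A E v)) =
      HahnSeries.C (ι' v') := by
    rw [s36n2x_embC_const, hv'ι]
  have hv' : r' v' ≠ 0 := by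
    rw [hv'r]
    exact (map_ne_zero κ).mpr hv
  have hcq : ((q : ℕ) : modularFunctionFieldFullC E (M * q * q)) =
      mgaConst E (M * q * q) (algebraMap A E π) *
        mgaConst E (M * q * q) (algebraMap A E v) := by
    rw [← map_mul, ← map_mul, ← hπv, map_natCast, map_natCast]
  exact s36th_ram_j hB' (s36n2EmbC ψ h) (fun _ => s36n2_frac_emb hB' hq h z hz _) hq hζ hr
    (s36n2x_embC_Pi' ψ ιK hq hqM h z hz hζ) hq0 hcv hv' hcq

include ιK hqM in
/-- **(SEP)**, middle cusp: `Π ∈ 𝔪(V_c)`. -/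
theorem s36n2x_sep_c (hζ : IsPrimitiveRoot (z : A') q) (hr : r' (z : A') = 1) :
    s36n2xPi E M q ∈ (s36n2VC hB' ψ hq h z hz).nonunits :=
  s36th_sep_j_mid hB' (s36n2EmbC ψ h) (fun _ => s36n2_frac_emb hB' hq h z hz _) hr
    (s36n2x_embC_Pi' ψ ιK hq hqM h z hz hζ)

include hq in
/-- **(SEP)**, at `∞`: `Π` is a unit of `V_a`. -/
theorem s36n2x_sep_a : s36n2xPi E M q ∉ (s36n2VA (q := q) (M := M) hB).nonunits :=
  (s36th_sep_j_inf hB (vtEmb E (M * q * q)) (fun x => vt_frac_fullC hB (M * q * q) x.2) q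
    hq.two_le (x := s36n2xPi E M q) rfl).2

/-- **(SEP)**, at `0`: `Π` is a unit of `V_b`. -/
theorem s36n2x_sep_b : s36n2xPi E M q ∉ (s36n2VB hB ιC hq hqM).nonunits := by
  have hx : s36n2EmbB ιC hq hqM (-(s36n2xPi E M q)) =
      qExpand E q (qExpand E q (jqModC E)) - jqModC E := by
    rw [map_neg, s36n2EmbB_apply]
    have e1 : s36n2xPi E M q =
        ⟨qExpand E q (qExpand E q (jqModC E)),
          alq_qExpand_mem E (al_qExpand_mem E (jqModC_mem_full E M))⟩ -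
        ⟨jqModC E, s36n2_mem_of_mem_base E (jqModC_mem_full E M)⟩ := rfl
    rw [e1, map_sub]
    show -(((s36n2W E ιC hq hqM _ : modularFunctionFieldFullC E (M * q * q)) :
        LaurentSeries E) - ((s36n2W E ιC hq hqM _ : modularFunctionFieldFullC E (M * q * q)) :
        LaurentSeries E)) = _
    rw [s36n2W_qExpand_sq E ιC hq hqM (jqModC_mem_full E M),
      s36n2W_base E ιC hq hqM (jqModC_mem_full E M)]
    ring
  have h1 := (s36th_sep_j_inf hB (s36n2EmbB ιC hq hqM)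
    (fun x => vt_frac_fullC hB (M * q * q) (s36n2W E ιC hq hqM x).2) q hq.two_le hx).2
  intro hmem
  apply h1
  have h2 := vt_neg_mem_nonunits _ hmem
  exact h2

/-! ### The two-valuation theorem at the two cusps of level `M q` -/

section Two

variable [CharZero E]

include ιK hc in
/-- **N2-ext, `(α, ∞)`**: `V_a`, `V_c` over `V′_∞` along `α`, from the restrictions (C). -/
theorem s36n2x_alphaInf
    (hCa : (s36n2VA (q := q) (M := M) hB).comap (s36Alpha E M q) = vtFam hB ιC hq hqM true)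
    (hCc : (s36n2VC hB' ψ hq h z hz).comap (s36Alpha E M q) = vtFam hB ιC hq hqM true)
    (hζ : IsPrimitiveRoot (z : A') q) (hr : r' (z : A') = 1)
    (hq0 : (q : A') ≠ 0) {v : A} (hv : r v ≠ 0) (hπv : (q : A) = π * v) :
    (∀ x ∈ s36n2VA (q := q) (M := M) hB, x ∈ s36n2VC hB' ψ hq h z hz →
        ∃ p : Polynomial (modularFunctionFieldFullC E (M * q)), p.Monic ∧
          (∀ k, p.coeff k ∈ vtFam hB ιC hq hqM true) ∧ p.eval₂ (s36Alpha E M q) x = 0) ∧
      (∀ x ∈ s36n2VA (q := q) (M := M) hB, ∃ c ∈ vtFam hB ιC hq hqM true,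
        x - s36Alpha E M q c ∈ (s36n2VA (q := q) (M := M) hB).nonunits) ∧
      (∀ x ∈ s36n2VC hB' ψ hq h z hz, ∃ c ∈ vtFam hB ιC hq hqM true,
        x - s36Alpha E M q c ∈ (s36n2VC hB' ψ hq h z hz).nonunits) ∧
      (∀ x ∈ (s36n2VA (q := q) (M := M) hB).nonunits, ∃ w ∈ s36n2VA (q := q) (M := M) hB,
        x = mgaConst E (M * q * q) (algebraMap A E π) * w) ∧
      (∀ x ∈ (s36n2VC hB' ψ hq h z hz).nonunits, ∃ w ∈ s36n2VC hB' ψ hq h z hz,
        x ^ (q - 1) = mgaConst E (M * q * q) (algebraMap A E π) * w) := by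
  have hφc : s36Alpha E M q (mgaConst E (M * q) (algebraMap A E π)) =
      mgaConst E (M * q * q) (algebraMap A E π) := s36Alpha_algebraMap E M q _
  have hdeg : letI := (s36Alpha E M q).toAlgebra
      Module.finrank (modularFunctionFieldFullC E (M * q))
        (modularFunctionFieldFullC E (M * q * q)) = (q - 1) + 1 := by
    have h1 := s36dn_deg_alpha E M q hq
    have h2 : q - 1 + 1 = q := Nat.sub_add_cancel hq.one_le
    rw [h2]
    exact h1
  have hram := s36n2x_ram hB' ψ ιK hq hqM h z hz hc hζ hr hq0 hv hπv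
  rw [← hφc] at hram
  have hsep : ∃ g : modularFunctionFieldFullC E (M * q * q),
      (g ∈ (s36n2VA (q := q) (M := M) hB).nonunits ∧ g ∉ (s36n2VC hB' ψ hq h z hz).nonunits) ∨
      (g ∈ (s36n2VC hB' ψ hq h z hz).nonunits ∧ g ∉ (s36n2VA (q := q) (M := M) hB).nonunits) :=
    ⟨s36n2xPi E M q, Or.inr ⟨s36n2x_sep_c hB' ψ ιK hq hqM h z hz hζ hr, s36n2x_sep_a hB hq⟩⟩
  have key := s36n2x_two hB (vtEmbFam ιC hq hqM true) (vt_frac_fam hB ιC hq hqM true)
    (vtEmbFam_const ιC hq hqM true (algebraMap A E π)) (φ := s36Alpha E M q)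
    (s36dn_finite_alpha E M q hq) (s36nc_sep_alpha hq) hdeg hCa hCc hsep hram
  rw [hφc] at key
  exact key

include ιK hc in
/-- **N2-ext, `(β, 0)`**: `V_b`, `V_c` over `V′_0` along `β`, from the restrictions (C). -/
theorem s36n2x_betaZero
    (hCb : (s36n2VB hB ιC hq hqM).comap (s36Beta E M q) = vtFam hB ιC hq hqM false)
    (hCc : (s36n2VC hB' ψ hq h z hz).comap (s36Beta E M q) = vtFam hB ιC hq hqM false)
    (hζ : IsPrimitiveRoot (z : A') q) (hr : r' (z : A') = 1)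
    (hq0 : (q : A') ≠ 0) {v : A} (hv : r v ≠ 0) (hπv : (q : A) = π * v) :
    (∀ x ∈ s36n2VB hB ιC hq hqM, x ∈ s36n2VC hB' ψ hq h z hz →
        ∃ p : Polynomial (modularFunctionFieldFullC E (M * q)), p.Monic ∧
          (∀ k, p.coeff k ∈ vtFam hB ιC hq hqM false) ∧ p.eval₂ (s36Beta E M q) x = 0) ∧
      (∀ x ∈ s36n2VB hB ιC hq hqM, ∃ c ∈ vtFam hB ιC hq hqM false,
        x - s36Beta E M q c ∈ (s36n2VB hB ιC hq hqM).nonunits) ∧
      (∀ x ∈ s36n2VC hB' ψ hq h z hz, ∃ c ∈ vtFam hB ιC hq hqM false,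
        x - s36Beta E M q c ∈ (s36n2VC hB' ψ hq h z hz).nonunits) ∧
      (∀ x ∈ (s36n2VB hB ιC hq hqM).nonunits, ∃ w ∈ s36n2VB hB ιC hq hqM,
        x = mgaConst E (M * q * q) (algebraMap A E π) * w) ∧
      (∀ x ∈ (s36n2VC hB' ψ hq h z hz).nonunits, ∃ w ∈ s36n2VC hB' ψ hq h z hz,
        x ^ (q - 1) = mgaConst E (M * q * q) (algebraMap A E π) * w) := by
  have hφc : s36Beta E M q (mgaConst E (M * q) (algebraMap A E π)) =
      mgaConst E (M * q * q) (algebraMap A E π) := s36Beta_algebraMap E M q _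
  have hdeg : letI := (s36Beta E M q).toAlgebra
      Module.finrank (modularFunctionFieldFullC E (M * q))
        (modularFunctionFieldFullC E (M * q * q)) = (q - 1) + 1 := by
    have h1 := s36dn_deg_beta E ιC hq hqM
    have h2 : q - 1 + 1 = q := Nat.sub_add_cancel hq.one_le
    rw [h2]
    exact h1
  have hram := s36n2x_ram hB' ψ ιK hq hqM h z hz hc hζ hr hq0 hv hπv
  rw [← hφc] at hram
  have hsep : ∃ g : modularFunctionFieldFullC E (M * q * q),
      (g ∈ (s36n2VB hB ιC hq hqM).nonunits ∧ g ∉ (s36n2VC hB' ψ hq h z hz).nonunits) ∨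
      (g ∈ (s36n2VC hB' ψ hq h z hz).nonunits ∧ g ∉ (s36n2VB hB ιC hq hqM).nonunits) :=
    ⟨s36n2xPi E M q, Or.inr ⟨s36n2x_sep_c hB' ψ ιK hq hqM h z hz hζ hr,
      s36n2x_sep_b hB ιC hq hqM⟩⟩
  have key := s36n2x_two hB (vtEmbFam ιC hq hqM false) (vt_frac_fam hB ιC hq hqM false)
    (vtEmbFam_const ιC hq hqM false (algebraMap A E π)) (φ := s36Beta E M q)
    (s36dn_finite_beta E ιC hq hqM) (s36nc_sep_beta ιC hq hqM) hdeg hCb hCc hsep hram
  rw [hφc] at key
  exact key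

end Two

end Main

end Fermat.Agent.S36

end
end ZBS36_022_15

/-! ### bundled: `Fermat.Agent.S36.N2ExtXMain` -/
section ZBS36_022_16

/-!
# S36 / G-N2, piece N2-ext (X) (helper19): the FINAL modular statements

Setting of `S36/N2Val.lean` / `S36/N2ValRes.lean`.  `α = s36Alpha E M q`, `β = s36Beta E M q`,
`V′_∞ = vtFam hB ιC hq hqM true`, `V′_0 = vtFam hB ιC hq hqM false`,
`V = s36n2V hB hB' ψ ιC hq hqM h z hz` (`V_a`, `V_b`, `V_c`).

* `s36n2x_alphaInf_main` : `(α, ∞)`: (EXT) for `V_a ∩ V_c`, (F) for `V_a`, `V_c`, (U) for `V_a`,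
  (RAM) for `V_c`;
* `s36n2x_betaZero_main` : `(β, 0)`: the same for `V_b`, `V_c`;
* `s36n2x_alphaZero_ext` : `(α, 0)`: (EXT) for `V_b` (one valuation, by the conjugates);
* `s36n2x_betaInf_ext` : `(β, ∞)`: (EXT) for `V_a`;
* `s36n2x_hEXT_alpha`, `s36n2x_hEXT_beta` : (EXT) in the form of the hypothesis `hEXT` of
  `s36n2k_hKR_J` (`S36/N2KerInst.lean`);
* `s36n2x_surj_alpha_a`, `s36n2x_surj_alpha_c`, `s36n2x_surj_beta_b`, `s36n2x_surj_beta_c` :
  the residue surjectivity fields `surj₁`, `surj₂` of `NgDir` (hypotheses `hsurj₁`, `hsurj₂` of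
  `s36nr_ngDir`, `S36/NormResAbs.lean`).
-/

set_option autoImplicit false
set_option linter.unusedSectionVars false
set_option linter.style.haveILetI false
set_option linter.unusedVariables false
set_option linter.constructorNameAsVariable false

noncomputable section

namespace Fermat.Agent.S36

open ModularCurve Fermat.Agent.UNIP Fermat.Agent.INJ Fermat.Agent.STB Fermat.Agent.AL
open Fermat.Agent.ES Fermat.Agent.S28.Deriv

section Main

variable {A E k A' E' k' : Type*} [CommRing A] [IsDomain A] [Field E] [Algebra A E]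
  [IsFractionRing A E] [Field k] [CommRing A'] [IsDomain A'] [Field E'] [Field k']
  {r : A →+* k} {π : A} {ι' : A' →+* E'} {r' : A' →+* k'} {π' : A'}
  (hB : VtBase (algebraMap A E) r π) (hB' : VtBase ι' r' π')
  (ψ : E →+* E') (ιC : E →+* ℂ) (ιK : E' →+* ℂ)
  {q M : ℕ} [NeZero q] [NeZero M] [NeZero (M * q)] [NeZero (M * q * q)]
  (hq : q.Prime) (hqM : ¬ q ∣ M)
  {ζ : E'ˣ} (h : S36MidEmb E' q M ζ) (z : A'ˣ) (hz : Units.map (ι' : A' →* E') z = ζ)
  {κ : k →+* k'} (hc : VtCompat (algebraMap A E) r ι' r' ψ κ)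

include hB' hz in
theorem s36n2x_zeta_prim (hζ : IsPrimitiveRoot (z : A') q) : IsPrimitiveRoot (ζ : E') q := by
  have h1 : (ζ : E') = ι' (z : A') := by rw [← hz]; rfl
  rw [h1]
  exact hζ.map_of_injective hB'.inj

include hz in
theorem s36n2x_zeta_pow_eq (b : ℕ) : ζ ^ b = Units.map (ι' : A' →* E') (z ^ b) := by
  rw [map_pow, hz]

section Ext

variable [CharZero E]

include hB' hc hz in
/-- **N2-ext, `(α, 0)`, (EXT)**: `V_b` is integral over `V′_0` along `α`. -/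
theorem s36n2x_alphaZero_ext (hζ : IsPrimitiveRoot (z : A') q)
    (x : modularFunctionFieldFullC E (M * q * q)) (hx : x ∈ s36n2VB hB ιC hq hqM) :
    ∃ p : Polynomial (modularFunctionFieldFullC E (M * q)), p.Monic ∧
      (∀ k, p.coeff k ∈ vtFam hB ιC hq hqM false) ∧ p.eval₂ (s36Alpha E M q) x = 0 := by
  have hζ' : IsPrimitiveRoot (ζ : E') q := s36n2x_zeta_prim hB' z hz hζ
  refine s36n2x_ext_of_conj (s36Alpha E M q) (s36dn_finite_alpha E M q hq) (s36nc_sep_alpha hq)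
    (s36ncBaseAlphaZero ψ ιC hq hqM) (s36ncAlphaZero ψ ιC hq hqM ζ)
    (s36ncAlphaZero_restr ψ ιC hq hqM ζ hζ') (s36ncAlphaZero_injective ψ ιC hq hqM ζ hζ')
    (by rw [Fintype.card_fin]; exact (s36dn_deg_alpha E M q hq).symm)
    (gaussRing ι' r') (vtFam hB ιC hq hqM false) ?_ ?_
  · intro f hf
    rw [s36ncBaseAlphaZero_apply, ← mgaCoeffHom_coe ψ (M * q) (atkinLehner E ιC hq hqM f),
      s36n2_qExpand_mem_iff hB' q
        (vt_frac_fullC hB' (M * q) (mgaCoeffHom ψ (M * q) (atkinLehner E ιC hq hqM f)).2),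
      mgaCoeffHom_coe] at hf
    exact (s36n2_mem_vtFam_false hB ιC hq hqM).mpr
      ((s36n2_baseChange_mem_iff hB hB' hc _).mp hf)
  · intro b
    show kronRot (ζ ^ (b : ℕ)) (coeffMap ψ
      ((s36n2W E ιC hq hqM x : modularFunctionFieldFullC E (M * q * q)) : LaurentSeries E)) ∈
        gaussRing ι' r'
    rw [s36n2x_zeta_pow_eq z hz]
    exact s36n2_kronRot_mem _ (vt_compat_mem hc hx)

include hB' hc hz in
/-- **N2-ext, `(β, ∞)`, (EXT)**: `V_a` is integral over `V′_∞` along `β`. -/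
theorem s36n2x_betaInf_ext (hζ : IsPrimitiveRoot (z : A') q)
    (x : modularFunctionFieldFullC E (M * q * q)) (hx : x ∈ s36n2VA (q := q) (M := M) hB) :
    ∃ p : Polynomial (modularFunctionFieldFullC E (M * q)), p.Monic ∧
      (∀ k, p.coeff k ∈ vtFam hB ιC hq hqM true) ∧ p.eval₂ (s36Beta E M q) x = 0 := by
  have hζ' : IsPrimitiveRoot (ζ : E') q := s36n2x_zeta_prim hB' z hz hζ
  refine s36n2x_ext_of_conj (s36Beta E M q) (s36dn_finite_beta E ιC hq hqM)
    (s36nc_sep_beta ιC hq hqM)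
    (s36ncBaseBetaInf ψ) (s36ncBetaInf ψ ζ)
    (s36ncBetaInf_restr ψ ζ hζ') (s36ncBetaInf_injective ψ ζ hζ')
    (by rw [Fintype.card_fin]; exact (s36dn_deg_beta E ιC hq hqM).symm)
    (gaussRing ι' r') (vtFam hB ιC hq hqM true) ?_ ?_
  · intro f hf
    have hf' : qExpand E' q (coeffMap ψ (f : LaurentSeries E)) ∈ gaussRing ι' r' := hf
    rw [← mgaCoeffHom_coe ψ (M * q) f,
      s36n2_qExpand_mem_iff hB' q (vt_frac_fullC hB' (M * q) (mgaCoeffHom ψ (M * q) f).2),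
      mgaCoeffHom_coe] at hf'
    exact (s36n2_mem_vtFam_true hB ιC hq hqM).mpr
      ((s36n2_baseChange_mem_iff hB hB' hc _).mp hf')
  · intro b
    show kronRot (ζ ^ (b : ℕ)) (coeffMap ψ (x : LaurentSeries E)) ∈ gaussRing ι' r'
    rw [s36n2x_zeta_pow_eq z hz]
    exact s36n2_kronRot_mem _ (vt_compat_mem hc hx)

/-! ### The two-valuation patterns, with the restrictions (C) of N2-val discharged -/

include ιK hc in
/-- **N2-ext, `(α, ∞)`**: `V_a`, `V_c` over `V′_∞` along `α`: (EXT), (F₁), (F₂), (U₁), (RAM₂). -/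
theorem s36n2x_alphaInf_main
    (hζ : IsPrimitiveRoot (z : A') q) (hr : r' (z : A') = 1)
    (hq0 : (q : A') ≠ 0) {v : A} (hv : r v ≠ 0) (hπv : (q : A) = π * v) :
    (∀ x ∈ s36n2VA (q := q) (M := M) hB, x ∈ s36n2VC hB' ψ hq h z hz →
        ∃ p : Polynomial (modularFunctionFieldFullC E (M * q)), p.Monic ∧
          (∀ k, p.coeff k ∈ vtFam hB ιC hq hqM true) ∧ p.eval₂ (s36Alpha E M q) x = 0) ∧
      (∀ x ∈ s36n2VA (q := q) (M := M) hB, ∃ c ∈ vtFam hB ιC hq hqM true,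
        x - s36Alpha E M q c ∈ (s36n2VA (q := q) (M := M) hB).nonunits) ∧
      (∀ x ∈ s36n2VC hB' ψ hq h z hz, ∃ c ∈ vtFam hB ιC hq hqM true,
        x - s36Alpha E M q c ∈ (s36n2VC hB' ψ hq h z hz).nonunits) ∧
      (∀ x ∈ (s36n2VA (q := q) (M := M) hB).nonunits, ∃ w ∈ s36n2VA (q := q) (M := M) hB,
        x = mgaConst E (M * q * q) (algebraMap A E π) * w) ∧
      (∀ x ∈ (s36n2VC hB' ψ hq h z hz).nonunits, ∃ w ∈ s36n2VC hB' ψ hq h z hz,
        x ^ (q - 1) = mgaConst E (M * q * q) (algebraMap A E π) * w) :=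
  s36n2x_alphaInf hB hB' ψ ιC ιK hq hqM h z hz hc (s36n2VA_comap_alpha hB ιC hq hqM)
    (s36n2VC_comap_alpha hB hB' hc ιC hq hqM h z hz) hζ hr hq0 hv hπv

include ιK hc in
/-- **N2-ext, `(β, 0)`**: `V_b`, `V_c` over `V′_0` along `β`: (EXT), (F₁), (F₂), (U₁), (RAM₂). -/
theorem s36n2x_betaZero_main
    (hζ : IsPrimitiveRoot (z : A') q) (hr : r' (z : A') = 1)
    (hq0 : (q : A') ≠ 0) {v : A} (hv : r v ≠ 0) (hπv : (q : A) = π * v) :
    (∀ x ∈ s36n2VB hB ιC hq hqM, x ∈ s36n2VC hB' ψ hq h z hz →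
        ∃ p : Polynomial (modularFunctionFieldFullC E (M * q)), p.Monic ∧
          (∀ k, p.coeff k ∈ vtFam hB ιC hq hqM false) ∧ p.eval₂ (s36Beta E M q) x = 0) ∧
      (∀ x ∈ s36n2VB hB ιC hq hqM, ∃ c ∈ vtFam hB ιC hq hqM false,
        x - s36Beta E M q c ∈ (s36n2VB hB ιC hq hqM).nonunits) ∧
      (∀ x ∈ s36n2VC hB' ψ hq h z hz, ∃ c ∈ vtFam hB ιC hq hqM false,
        x - s36Beta E M q c ∈ (s36n2VC hB' ψ hq h z hz).nonunits) ∧
      (∀ x ∈ (s36n2VB hB ιC hq hqM).nonunits, ∃ w ∈ s36n2VB hB ιC hq hqM,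
        x = mgaConst E (M * q * q) (algebraMap A E π) * w) ∧
      (∀ x ∈ (s36n2VC hB' ψ hq h z hz).nonunits, ∃ w ∈ s36n2VC hB' ψ hq h z hz,
        x ^ (q - 1) = mgaConst E (M * q * q) (algebraMap A E π) * w) :=
  s36n2x_betaZero hB hB' ψ ιC ιK hq hqM h z hz hc (s36n2VB_comap_beta hB ιC hq hqM)
    (s36n2VC_comap_beta hB hB' hc ιC ιK hq hqM h z hz (s36n2x_zeta_pow z hz hζ)) hζ hr hq0 hv hπv

/-! ### (EXT) in the form of `hEXT` of `s36n2k_hKR_J` -/

include ιK hc in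
/-- **(EXT) along `α`** at both cusps of level `M q`, for the family `V = s36n2V`:
the hypothesis `hEXT` of `s36n2k_hKR_J`. -/
theorem s36n2x_hEXT_alpha
    (hζ : IsPrimitiveRoot (z : A') q) (hr : r' (z : A') = 1)
    (hq0 : (q : A') ≠ 0) {v : A} (hv : r v ≠ 0) (hπv : (q : A) = π * v)
    (i : Bool) (x : modularFunctionFieldFullC E (M * q * q))
    (hx : ∀ c, x ∈ s36n2V hB hB' ψ ιC hq hqM h z hz c) :
    ∃ p : Polynomial (modularFunctionFieldFullC E (M * q)), p.Monic ∧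
      (∀ k, p.coeff k ∈ vtFam hB ιC hq hqM i) ∧ p.eval₂ (s36Alpha E M q) x = 0 := by
  cases i
  · exact s36n2x_alphaZero_ext hB hB' ψ ιC hq hqM z hz hc hζ x (hx S36Comp.b)
  · exact (s36n2x_alphaInf_main hB hB' ψ ιC ιK hq hqM h z hz hc hζ hr hq0 hv hπv).1 x
      (hx S36Comp.a) (hx S36Comp.c)

include ιK hc in
/-- **(EXT) along `β`** at both cusps of level `M q`, for the family `V = s36n2V`. -/
theorem s36n2x_hEXT_beta
    (hζ : IsPrimitiveRoot (z : A') q) (hr : r' (z : A') = 1)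
    (hq0 : (q : A') ≠ 0) {v : A} (hv : r v ≠ 0) (hπv : (q : A) = π * v)
    (i : Bool) (x : modularFunctionFieldFullC E (M * q * q))
    (hx : ∀ c, x ∈ s36n2V hB hB' ψ ιC hq hqM h z hz c) :
    ∃ p : Polynomial (modularFunctionFieldFullC E (M * q)), p.Monic ∧
      (∀ k, p.coeff k ∈ vtFam hB ιC hq hqM i) ∧ p.eval₂ (s36Beta E M q) x = 0 := by
  cases i
  · exact (s36n2x_betaZero_main hB hB' ψ ιC ιK hq hqM h z hz hc hζ hr hq0 hv hπv).1 x
      (hx S36Comp.b) (hx S36Comp.c)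
  · exact s36n2x_betaInf_ext hB hB' ψ ιC hq hqM z hz hc hζ x (hx S36Comp.a)

/-! ### The residue surjectivity fields of `NgDir` -/

include hB hB' ιC ιK hq hqM h hz hc in
/-- `surj₁` of `NgDir α … V_a V_c V_b` -/
theorem s36n2x_surj_alpha_a
    (hζ : IsPrimitiveRoot (z : A') q) (hr : r' (z : A') = 1)
    (hq0 : (q : A') ≠ 0) {v : A} (hv : r v ≠ 0) (hπv : (q : A) = π * v)
    (x : modularFunctionFieldFullC E (M * q * q))
    (hx : (s36n2VA (q := q) (M := M) hB).valuation x = 1) :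
    ∃ y, NgC (s36n2VA (q := q) (M := M) hB) (s36Alpha E M q y) x :=
  s36n2e_ngSurj (s36Alpha E M q) (vtFam hB ιC hq hqM true) _
    (s36n2x_alphaInf_main hB hB' ψ ιC ιK hq hqM h z hz hc hζ hr hq0 hv hπv).2.1 x hx

include hB hB' ιC ιK hq hqM h hz hc in
/-- `surj₂` of `NgDir α … V_a V_c V_b` -/
theorem s36n2x_surj_alpha_c
    (hζ : IsPrimitiveRoot (z : A') q) (hr : r' (z : A') = 1)
    (hq0 : (q : A') ≠ 0) {v : A} (hv : r v ≠ 0) (hπv : (q : A) = π * v)
    (x : modularFunctionFieldFullC E (M * q * q))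
    (hx : (s36n2VC hB' ψ hq h z hz).valuation x = 1) :
    ∃ y, NgC (s36n2VC hB' ψ hq h z hz) (s36Alpha E M q y) x :=
  s36n2e_ngSurj (s36Alpha E M q) (vtFam hB ιC hq hqM true) _
    (s36n2x_alphaInf_main hB hB' ψ ιC ιK hq hqM h z hz hc hζ hr hq0 hv hπv).2.2.1 x hx

include hB hB' ιC ιK hq hqM h hz hc in
/-- `surj₁` of `NgDir β … V_b V_c V_a` -/
theorem s36n2x_surj_beta_b
    (hζ : IsPrimitiveRoot (z : A') q) (hr : r' (z : A') = 1)
    (hq0 : (q : A') ≠ 0) {v : A} (hv : r v ≠ 0) (hπv : (q : A) = π * v)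
    (x : modularFunctionFieldFullC E (M * q * q))
    (hx : (s36n2VB hB ιC hq hqM).valuation x = 1) :
    ∃ y, NgC (s36n2VB hB ιC hq hqM) (s36Beta E M q y) x :=
  s36n2e_ngSurj (s36Beta E M q) (vtFam hB ιC hq hqM false) _
    (s36n2x_betaZero_main hB hB' ψ ιC ιK hq hqM h z hz hc hζ hr hq0 hv hπv).2.1 x hx

include hB hB' ιC ιK hq hqM h hz hc in
/-- `surj₂` of `NgDir β … V_b V_c V_a` -/
theorem s36n2x_surj_beta_c
    (hζ : IsPrimitiveRoot (z : A') q) (hr : r' (z : A') = 1)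
    (hq0 : (q : A') ≠ 0) {v : A} (hv : r v ≠ 0) (hπv : (q : A) = π * v)
    (x : modularFunctionFieldFullC E (M * q * q))
    (hx : (s36n2VC hB' ψ hq h z hz).valuation x = 1) :
    ∃ y, NgC (s36n2VC hB' ψ hq h z hz) (s36Beta E M q y) x :=
  s36n2e_ngSurj (s36Beta E M q) (vtFam hB ιC hq hqM false) _
    (s36n2x_betaZero_main hB hB' ψ ιC ιK hq hqM h z hz hc hζ hr hq0 hv hπv).2.2.1 x hx

end Ext

end Main

end Fermat.Agent.S36

end
end ZBS36_022_16

/-! ### bundled: `Fermat.Agent.S36.SmallKR` -/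
section ZBS36_022_17

/-!
# S36 / (I2) CONCRETE: `hKR` of `s36tb_small` / `s36sp_small` at `V = s36i1V` (helper98)

* `s36sk_hKR` : the Krull property of the chart `j` of level `M q²` for the three vertical
  valuation rings, from helper99's `s36n2k_hKR_J`, (SS1) at level `M q` (`mgcb_reg_SS1_J`,
  `stb_regChart_conc_J`: needs `q = 2 → 3 ∣ M`, `q = 3 → 2 ∣ M`) and helper19's (EXT)
  `s36n2x_hEXT_alpha`.
* `s36sk_small` : `StmtCarayolSmallAt M q p A` from (I4) `Winf W0 Dα Dβ` and (I6) `hpts` only.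
-/

set_option autoImplicit false
set_option linter.style.haveILetI false
set_option linter.unusedSectionVars false
set_option linter.unusedVariables false
set_option linter.constructorNameAsVariable false

noncomputable section

namespace Fermat.Agent.S36

open ModularCurve AlgebraicCurve Fermat.Agent.ES Fermat.Agent.ES.G2 Fermat.Agent.INJ
open Fermat.Agent.UNIP Fermat.Agent.STB IntermediateField

section KR

variable {q : ℕ} {A : ValuationSubring (AlgebraicClosure ℚ)} (M : ℕ) [NeZero M] [NeZero q]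
  [IsDiscreteValuationRing ↥(beta0Ring A (beta0Field A))]
  {ζ : AlgebraicClosure ℚ}
  (hq : q.Prime) (hA : A.LiesOverPrime q) (hqM : ¬ q ∣ M) (hζ : IsPrimitiveRoot ζ q)
  (ιC : ↥(beta0Field A) →+* ℂ)
  (h : S36MidEmb ↥(s36n2bK A ζ) q M (s36i1ZK (A := A) hq hζ))

include hq in
theorem s36sk_natCast_ne_zero : ((q : ℕ) : ↥(beta0Ring A (s36n2bK A ζ))) ≠ 0 := by
  intro h0
  have h1 := congrArg (fun z : ↥(beta0Ring A (s36n2bK A ζ)) =>
    ((z : ↥(s36n2bK A ζ)) : AlgebraicClosure ℚ)) h0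
  simp only [s36n2b_natCast_coe] at h1
  have h2 : ((0 : ↥(beta0Ring A (s36n2bK A ζ)) ) : ↥(s36n2bK A ζ)) = 0 := rfl
  rw [h2] at h1
  exact hq.ne_zero (by exact_mod_cast h1)

/-- **(I2) `hKR`**, concrete. -/
theorem s36sk_hKR (h2 : q = 2 → 3 ∣ M) (h3 : q = 3 → 2 ∣ M) (ιK : ↥(s36n2bK A ζ) →+* ℂ)
    (x : ↥(modularFunctionFieldFullC ↥(beta0Field A) (M * q * q)))
    (hx : IsIntegral ↥(Algebra.adjoin ↥(beta0Ring A (beta0Field A))
        {bgJ ↥(beta0Field A) (M * q * q)})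
      (algebraMap ↥(beta0Ring A (beta0Field A))
        ↥(modularFunctionFieldFullC ↥(beta0Field A) (M * q * q))
        ((q : ℕ) : ↥(beta0Ring A (beta0Field A))) * x))
    (hV : ∀ c, x ∈ s36i1V M hq hA hqM hζ ιC h c) :
    IsIntegral ↥(Algebra.adjoin ↥(beta0Ring A (beta0Field A))
      {bgJ ↥(beta0Field A) (M * q * q)}) x := by
  have hπ : Irreducible ((q : ℕ) : ↥(beta0Ring A (beta0Field A))) :=
    beta0Ring_irreducible_q hq hA
  obtain ⟨κ, -, hκ⟩ := s36n2b_compat (A := A) (ζ := ζ) hq hA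
  refine s36n2k_hKR_J hπ ιC hq hqM (s36i1V M hq hA hqM hζ ιC h) ?_ ?_ x hx hV
  · exact mgcb_reg_SS1_J (K₀ := beta0Field A) hπ ιC hq hqM hA
      (stb_regChart_conc_J M hq hA le_rfl hπ hqM h2 h3)
  · intro i y hy
    exact s36n2x_hEXT_alpha (vtBase_residue hπ) (s36n2b_vtBase hq hA hζ)
      (IntermediateField.inclusion (s36n2b_le_K A ζ)).toRingHom ιC ιK hq hqM h
      (s36i1Z hq hζ) rfl hκ (s36n2bZeta_isPrimitiveRoot hq hζ) (s36n2b_residue_zeta hq hA hζ)
      (s36sk_natCast_ne_zero hq) (v := 1) (by rw [map_one]; exact one_ne_zero)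
      (by rw [mul_one]) i y hy

/-- **`StmtCarayolSmallAt`** from (I4) and (I6) only. -/
theorem s36sk_small {p : ℕ} (hp : p.Prime) (hpq : p ≠ q)
    (h2 : q = 2 → 3 ∣ M) (h3 : q = 3 → 2 ∣ M)
    (ιK : ↥(s36n2bK A ζ) →+* ℂ)
    -- (I4)
    (Winf W0 : ValuationSubring ↥(modularFunctionFieldFullC ↥(beta0Field A) (M * q)))
    (Dα : NgDir (s36Alpha ↥(beta0Field A) M q) (s36NormAlpha ↥(beta0Field A) M q) Winf
      (s36i1V M hq hA hqM hζ ιC h S36Comp.a) (s36i1V M hq hA hqM hζ ιC h S36Comp.c)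
      (s36i1V M hq hA hqM hζ ιC h S36Comp.b) (q - 1) q)
    (Dβ : NgDir (s36Beta ↥(beta0Field A) M q) (s36NormBeta ↥(beta0Field A) M q) W0
      (s36i1V M hq hA hqM hζ ιC h S36Comp.b) (s36i1V M hq hA hqM hζ ιC h S36Comp.c)
      (s36i1V M hq hA hqM hζ ιC h S36Comp.a) (q - 1) q)
    -- (I6)
    (hpts : ∀ (r : ℕ) (ζm : ↥(beta0Ring A (beta0Field A))), IsPrimitiveRoot ζm (p ^ r) →
      ∀ i : AtPt (F := ↥(modularFunctionFieldFullC ↥(beta0Field A) (M * q * q)))
          ((q : ℕ) : ↥(beta0Ring A (beta0Field A))) (bgJ ↥(beta0Field A) (M * q * q)) ⊕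
        AtPt (F := ↥(modularFunctionFieldFullC ↥(beta0Field A) (M * q * q)))
          ((q : ℕ) : ↥(beta0Ring A (beta0Field A))) (bgJ ↥(beta0Field A) (M * q * q))⁻¹,
      @S36PtInput ↥(modularFunctionFieldFullC ↥(beta0Field A) (M * q))
        ↥(modularFunctionFieldFullC ↥(beta0Field A) (M * q * q)) _ _ S36Comp
        (s36Hor ↥(beta0Field A) (p ^ r)) (p ^ r)
        (s36Alpha ↥(beta0Field A) M q) (s36Beta ↥(beta0Field A) M q)
        (s36NormAlpha ↥(beta0Field A) M q) (s36NormBeta ↥(beta0Field A) M q)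
        (algebraMap ↥(beta0Field A) ↥(modularFunctionFieldFullC ↥(beta0Field A) (M * q))
          (algebraMap ↥(beta0Ring A (beta0Field A)) ↥(beta0Field A) ζm))
        (s36i1V M hq hA hqM hζ ιC h) S36Comp.a S36Comp.b S36Comp.c
        (atO ((q : ℕ) : ↥(beta0Ring A (beta0Field A))) (bgJ ↥(beta0Field A) (M * q * q)) i)
        (stb_atO_isLocalRing (π := ((q : ℕ) : ↥(beta0Ring A (beta0Field A))))
          (bgJ ↥(beta0Field A) (M * q * q)) i)
        (atInc ((q : ℕ) : ↥(beta0Ring A (beta0Field A))) (bgJ ↥(beta0Field A) (M * q * q))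
          (s36i1V M hq hA hqM hζ ιC h) i)) :
    StmtCarayolSmallAt M q p A :=
  s36sp_small M hq hA hqM hζ ιC h hp hpq ιK (s36sk_hKR M hq hA hqM hζ ιC h h2 h3 ιK)
    Winf W0 Dα Dβ hpts

end KR

end Fermat.Agent.S36

end


end ZBS36_022_17

/-! ### bundled: `Fermat.Agent.S36.NormRes` -/
section ZBS36_022_18

/-!
# S36 / G-nr, part 3 (helper20): the four norm–residue formulas at level `M q²`

Setting of `S36/N2Val.lean`: bases `(A, E, k, r, π)` (`hB`) and `(A', K, k', r', π')` (`hB'`),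
`ψ : E →+* K` compatible (`hc : VtCompat …`), `ζ : Kˣ` a primitive `q`-th root of unity, the image
of a unit `z : A'ˣ` with `r' z = 1`, `h : S36MidEmb K q M ζ`; and for every `b` prime to `q` an
endomorphism `σ` of `K` over `E` with `σ ζ = ζ ^ b` preserving the integral structure (`hgal`).

`V_a = s36n2VA hB`, `V_b = s36n2VB hB ιC hq hqM`, `V_c = s36n2VC hB' ψ hq h z hz`,
`W_∞ = vtInf hB (M q)`, `W_0 = vtZero hB ιC hq hqM`.

* `s36nr_cut_VA`, `s36nr_cut_VB`, `s36nr_cut_VC_mu`, `s36nr_cut_VC_nu`, `s36nr_cut_Winf`,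
  `s36nr_cut_W0` : the cut-outs by the conjugate families of `S36/NormConj.lean`;
* `s36nr_split_alpha` (Nα∞), `s36nr_insep_alpha` (Nα0), `s36nr_split_beta` (Nβ0),
  `s36nr_insep_beta` (Nβ∞) : the fields `split`, `insep` of the two packages `NgDir`;
* `s36nr_ngDir_alpha`, `s36nr_ngDir_beta` : the packages `NgDir` from the residue surjectivities.
-/

set_option autoImplicit false
set_option linter.unusedSectionVars false
set_option linter.unusedVariables false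
set_option linter.style.haveILetI false

noncomputable section

namespace Fermat.Agent.S36

open ModularCurve Fermat.Agent.UNIP Fermat.Agent.INJ Fermat.Agent.AL Fermat.Agent.ES
open Fermat.Agent.STB

section Cut

variable {A E k A' K k' : Type*} [CommRing A] [IsDomain A] [Field E] [Algebra A E]
  [IsFractionRing A E] [Field k] [CommRing A'] [Field K] [Field k']
  {r : A →+* k} {π : A} {ι' : A' →+* K} {r' : A' →+* k'} {π' : A'}
  (hB : VtBase (algebraMap A E) r π) (hB' : VtBase ι' r' π')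
  (ψ : E →+* K) {κ : k →+* k'} (hc : VtCompat (algebraMap A E) r ι' r' ψ κ)
  (ιC : E →+* ℂ) (ιK : K →+* ℂ)
  {q M : ℕ} [NeZero q] [NeZero M] [NeZero (M * q)] [NeZero (M * q * q)]
  (hq : q.Prime) (hqM : ¬ q ∣ M)
  {ζ : Kˣ} (hζ : IsPrimitiveRoot (ζ : K) q)
  (h : S36MidEmb K q M ζ) (z : A'ˣ) (hz : Units.map (ι' : A' →* K) z = ζ)

include hB' hc in
/-- `V_a` is cut out by `e_a` -/
theorem s36nr_cut_VA (x : modularFunctionFieldFullC E (M * q * q)) :
    x ∈ (s36n2VA (q := q) (M := M) hB).nonunits ↔ s36ncA ψ x ∈ s36nrKer ι' r' :=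
  s36nr_cut_bc hB hB' hc (vtEmb E (M * q * q)) (fun x => vt_frac_fullC hB (M * q * q) x.2)
    (s36ncA ψ) (fun _ => rfl) x

include hB' hc in
/-- `V_b` is cut out by `e_b` -/
theorem s36nr_cut_VB (x : modularFunctionFieldFullC E (M * q * q)) :
    x ∈ (s36n2VB hB ιC hq hqM).nonunits ↔ s36ncB ψ ιC hq hqM x ∈ s36nrKer ι' r' :=
  s36nr_cut_bc hB hB' hc (s36n2EmbB ιC hq hqM)
    (fun x => vt_frac_fullC hB (M * q * q) (s36n2W E ιC hq hqM x).2)
    (s36ncB ψ ιC hq hqM) (fun _ => rfl) x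

include hB' hc in
/-- `W_∞` is cut out by the base embedding of the family `(α,∞)` -/
theorem s36nr_cut_Winf (y : modularFunctionFieldFullC E (M * q)) :
    y ∈ (vtInf hB (M * q)).nonunits ↔ s36ncBaseAlphaInf ψ y ∈ s36nrKer ι' r' :=
  s36nr_cut_bc hB hB' hc (vtEmb E (M * q)) (fun x => vt_frac_fullC hB (M * q) x.2)
    (s36ncBaseAlphaInf ψ) (fun _ => rfl) y

include hB' hc in
/-- `W_0` is cut out by the base embedding of the family `(β,0)` -/
theorem s36nr_cut_W0 (y : modularFunctionFieldFullC E (M * q)) :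
    y ∈ (vtZero hB ιC hq hqM).nonunits ↔ s36ncBaseBetaZero ψ ιC hq hqM y ∈ s36nrKer ι' r' :=
  s36nr_cut_bc hB hB' hc (vtEmbFam ιC hq hqM false) (vt_frac_fam hB ιC hq hqM false)
    (s36ncBaseBetaZero ψ ιC hq hqM) (fun _ => rfl) y

/-- `V_c` is cut out by `μ_ζ` -/
theorem s36nr_cut_VC (x : modularFunctionFieldFullC E (M * q * q)) :
    x ∈ (s36n2VC hB' ψ hq h z hz).nonunits ↔ s36n2EmbC ψ h x ∈ s36nrKer ι' r' :=
  s36nr_cut hB' (s36n2EmbC ψ h) (fun _ => s36n2_frac_emb hB' hq h z hz _) x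

include hq in
/-- Galois equivariance of the middle expansions, for elements coming from `E` -/
theorem s36nr_mu_gal {ζ' : Kˣ} (h' : S36MidEmb K q M ζ') (σ : K →+* K)
    (hσψ : ∀ x, σ (ψ x) = ψ x) (hσζ : σ (ζ : K) = (ζ' : K))
    (x : modularFunctionFieldFullC E (M * q * q)) :
    h'.emb (mgaCoeffHom ψ (M * q * q) x) = coeffMap σ (h.emb (mgaCoeffHom ψ (M * q * q) x)) := by
  have e1 := S36MidEmb.emb_coeffMap hq h h' σ hσζ (mgaCoeffHom ψ (M * q * q) x)
  have e2 : coeffMap σ ((mgaCoeffHom ψ (M * q * q) x :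
      modularFunctionFieldFullC K (M * q * q)) : LaurentSeries K) =
      ((mgaCoeffHom ψ (M * q * q) x : modularFunctionFieldFullC K (M * q * q)) :
        LaurentSeries K) := by
    rw [mgaCoeffHom_coe, coeffMap_coeffMap]
    exact coeffMap_congr (RingHom.ext hσψ) _
  have e3 : (⟨coeffMap σ ((mgaCoeffHom ψ (M * q * q) x :
      modularFunctionFieldFullC K (M * q * q)) : LaurentSeries K),
      al_coeffMap_mem K (M * q * q) σ (mgaCoeffHom ψ (M * q * q) x).2⟩ :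
      modularFunctionFieldFullC K (M * q * q)) = mgaCoeffHom ψ (M * q * q) x :=
    Subtype.ext e2
  rw [e3] at e1
  exact e1

/-- `V_c` is cut out by every `μ_{ζ^b}`, `q ∤ b` -/
theorem s36nr_cut_VC_mu {b : ℕ} (hb : ¬ q ∣ b) (σ : K →+* K) (κ' : k' →+* k')
    (hσψ : ∀ x, σ (ψ x) = ψ x) (hσζ : σ (ζ : K) = ((ζ ^ b : Kˣ) : K))
    (hσc : VtCompat ι' r' ι' r' σ κ')
    (x : modularFunctionFieldFullC E (M * q * q)) :
    x ∈ (s36n2VC hB' ψ hq h z hz).nonunits ↔
      s36ncMu ψ ιK hq hqM ζ hζ b x ∈ s36nrKer ι' r' :=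
  s36nr_cut_bc hB' hB' hσc (s36n2EmbC ψ h) (fun _ => s36n2_frac_emb hB' hq h z hz _)
    (s36ncMu ψ ιK hq hqM ζ hζ b)
    (fun x => by
      rw [s36ncMu_apply ψ ιK hq hqM ζ hζ hb, s36n2EmbC_apply]
      exact s36nr_mu_gal ψ hq h (s36ncMuK ιK hq hqM ζ hζ hb) σ hσψ hσζ x) x

include hz in
/-- `V_c` is cut out by every `ν_b = kronRot ζ^{-b} ∘ μ_{ζ^b}`, `q ∤ b` -/
theorem s36nr_cut_VC_nu {b : ℕ} (hb : ¬ q ∣ b) (σ : K →+* K) (κ' : k' →+* k')
    (hσψ : ∀ x, σ (ψ x) = ψ x) (hσζ : σ (ζ : K) = ((ζ ^ b : Kˣ) : K))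
    (hσc : VtCompat ι' r' ι' r' σ κ')
    (x : modularFunctionFieldFullC E (M * q * q)) :
    x ∈ (s36n2VC hB' ψ hq h z hz).nonunits ↔
      s36ncNu ψ ιC ιK hq hqM ζ hζ b x ∈ s36nrKer ι' r' := by
  rw [s36nr_cut_VC_mu hB' ψ ιK hq hqM hζ h z hz hb σ κ' hσψ hσζ hσc, s36ncNu_apply _ _ _ _ _ _ _ hb]
  have e : (ζ ^ b)⁻¹ = Units.map (ι' : A' →* K) ((z ^ b)⁻¹) := by
    rw [map_inv, map_pow, hz]
  rw [e]
  exact (s36nr_kronRot_mem_ker_iff ((z ^ b)⁻¹)).symm

end Cut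

section Formulas

variable {A E k A' K k' : Type*} [CommRing A] [IsDomain A] [Field E] [CharZero E] [Algebra A E]
  [IsFractionRing A E] [Field k] [CommRing A'] [Field K] [Field k']
  {r : A →+* k} {π : A} {ι' : A' →+* K} {r' : A' →+* k'} {π' : A'}
  (hB : VtBase (algebraMap A E) r π) (hB' : VtBase ι' r' π')
  (ψ : E →+* K) {κ : k →+* k'} (hc : VtCompat (algebraMap A E) r ι' r' ψ κ)
  (ιC : E →+* ℂ) (ιK : K →+* ℂ)
  {q M : ℕ} [NeZero q] [NeZero M] [NeZero (M * q)] [NeZero (M * q * q)]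
  (hq : q.Prime) (hqM : ¬ q ∣ M)
  {ζ : Kˣ} (hζ : IsPrimitiveRoot (ζ : K) q)
  (h : S36MidEmb K q M ζ) (z : A'ˣ) (hz : Units.map (ι' : A' →* K) z = ζ)
  (hrz : r' (z : A') = 1)
  (hgal : ∀ b : ℕ, 1 ≤ b → b < q → ∃ (σ : K →+* K) (κ' : k' →+* k'),
    (∀ x, σ (ψ x) = ψ x) ∧ σ (ζ : K) = ((ζ ^ b : Kˣ) : K) ∧ VtCompat ι' r' ι' r' σ κ')

theorem s36nr_fin_pos {b : Fin q} (hb : b ≠ ⟨0, hq.pos⟩) : 1 ≤ (b : ℕ) := by
  rcases Nat.eq_zero_or_pos (b : ℕ) with h0 | h0
  · exact absurd (Fin.ext h0) hb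
  · exact h0

include hB' hz hrz in
/-- rotation by `ζ ^ b` is trivial modulo the kernel, on Gauss units -/
theorem s36nr_rot_unit (b : ℕ) {y : LaurentSeries K} (hy : VtUnit ι' r' y) :
    kronRot (ζ ^ b) y / y - 1 ∈ s36nrKer ι' r' := by
  have e : ζ ^ b = Units.map (ι' : A' →* K) (z ^ b) := by
    rw [map_pow, hz]
  rw [e]
  refine s36nr_kronRot_div_sub_one hB'.inj (z ^ b) ?_ hy
  rw [Units.val_pow_eq_pow_val, map_pow, hrz, one_pow]

/-! ### The cut-outs by the four conjugate families -/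

include hB' hc in
theorem s36nr_alphaInf_cut₁ (x : modularFunctionFieldFullC E (M * q * q)) :
    x ∈ (s36n2VA (q := q) (M := M) hB).nonunits ↔
      s36ncAlphaInf ψ ιK hq hqM ζ hζ ⟨0, hq.pos⟩ x ∈ s36nrKer ι' r' := by
  rw [s36nr_cut_VA hB hB' ψ hc]
  show _ ↔ s36ncMu ψ ιK hq hqM ζ hζ 0 x ∈ _
  rw [s36ncMu_zero]

include hgal in
theorem s36nr_alphaInf_cut₂ (j : Fin q) (hj : j ≠ ⟨0, hq.pos⟩)
    (x : modularFunctionFieldFullC E (M * q * q)) :
    x ∈ (s36n2VC hB' ψ hq h z hz).nonunits ↔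
      s36ncAlphaInf ψ ιK hq hqM ζ hζ j x ∈ s36nrKer ι' r' := by
  obtain ⟨σ, κ', hσψ, hσζ, hσc⟩ := hgal (j : ℕ) (s36nr_fin_pos hq hj) j.2
  have hb : ¬ q ∣ (j : ℕ) := Nat.not_dvd_of_pos_of_lt (s36nr_fin_pos hq hj) j.2
  exact s36nr_cut_VC_mu hB' ψ ιK hq hqM hζ h z hz hb σ κ' hσψ hσζ hσc x

theorem s36nr_alphaZero_zero (x : modularFunctionFieldFullC E (M * q * q)) :
    s36ncAlphaZero ψ ιC hq hqM ζ ⟨0, hq.pos⟩ x = s36ncB ψ ιC hq hqM x := by
  show kronRot (ζ ^ 0) (s36ncB ψ ιC hq hqM x) = _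
  rw [pow_zero, kronRot_one]

include hB' hc in
theorem s36nr_alphaZero_cut (x : modularFunctionFieldFullC E (M * q * q)) :
    x ∈ (s36n2VB hB ιC hq hqM).nonunits ↔
      s36ncAlphaZero ψ ιC hq hqM ζ ⟨0, hq.pos⟩ x ∈ s36nrKer ι' r' := by
  rw [s36nr_cut_VB hB hB' ψ hc, s36nr_alphaZero_zero]

include hB' hc hz hrz in
theorem s36nr_alphaZero_red (j : Fin q) (x : modularFunctionFieldFullC E (M * q * q))
    (hx : (s36n2VB hB ιC hq hqM).valuation x = 1) :
    s36ncAlphaZero ψ ιC hq hqM ζ j x / s36ncAlphaZero ψ ιC hq hqM ζ ⟨0, hq.pos⟩ x - 1 ∈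
      s36nrKer ι' r' := by
  rw [s36nr_alphaZero_zero]
  show kronRot (ζ ^ (j : ℕ)) (s36ncB ψ ιC hq hqM x) / _ - 1 ∈ _
  exact s36nr_rot_unit hB' z hz hrz (j : ℕ)
    (s36nr_unit_bc hB hc (s36n2EmbB ιC hq hqM)
      (fun x => vt_frac_fullC hB (M * q * q) (s36n2W E ιC hq hqM x).2) hx)

include hB' hc in
theorem s36nr_betaZero_cut₁ (x : modularFunctionFieldFullC E (M * q * q)) :
    x ∈ (s36n2VB hB ιC hq hqM).nonunits ↔
      s36ncBetaZero ψ ιC ιK hq hqM ζ hζ ⟨0, hq.pos⟩ x ∈ s36nrKer ι' r' := by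
  rw [s36nr_cut_VB hB hB' ψ hc]
  show _ ↔ s36ncNu ψ ιC ιK hq hqM ζ hζ 0 x ∈ _
  rw [s36ncNu_zero]

include hgal in
theorem s36nr_betaZero_cut₂ (j : Fin q) (hj : j ≠ ⟨0, hq.pos⟩)
    (x : modularFunctionFieldFullC E (M * q * q)) :
    x ∈ (s36n2VC hB' ψ hq h z hz).nonunits ↔
      s36ncBetaZero ψ ιC ιK hq hqM ζ hζ j x ∈ s36nrKer ι' r' := by
  obtain ⟨σ, κ', hσψ, hσζ, hσc⟩ := hgal (j : ℕ) (s36nr_fin_pos hq hj) j.2
  have hb : ¬ q ∣ (j : ℕ) := Nat.not_dvd_of_pos_of_lt (s36nr_fin_pos hq hj) j.2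
  exact s36nr_cut_VC_nu hB' ψ ιC ιK hq hqM hζ h z hz hb σ κ' hσψ hσζ hσc x

include hq in
theorem s36nr_betaInf_zero (x : modularFunctionFieldFullC E (M * q * q)) :
    s36ncBetaInf ψ ζ ⟨0, hq.pos⟩ x = s36ncA ψ x := by
  show kronRot (ζ ^ 0) (s36ncA ψ x) = _
  rw [pow_zero, kronRot_one]

include hB' hc hq in
theorem s36nr_betaInf_cut (x : modularFunctionFieldFullC E (M * q * q)) :
    x ∈ (s36n2VA (q := q) (M := M) hB).nonunits ↔
      s36ncBetaInf ψ ζ ⟨0, hq.pos⟩ x ∈ s36nrKer ι' r' := by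
  rw [s36nr_cut_VA hB hB' ψ hc, s36nr_betaInf_zero ψ hq]

include hB' hc hq hz hrz in
theorem s36nr_betaInf_red (j : Fin q) (x : modularFunctionFieldFullC E (M * q * q))
    (hx : (s36n2VA (q := q) (M := M) hB).valuation x = 1) :
    s36ncBetaInf ψ ζ j x / s36ncBetaInf ψ ζ ⟨0, hq.pos⟩ x - 1 ∈ s36nrKer ι' r' := by
  rw [s36nr_betaInf_zero ψ hq]
  show kronRot (ζ ^ (j : ℕ)) (s36ncA ψ x) / _ - 1 ∈ _
  exact s36nr_rot_unit hB' z hz hrz (j : ℕ)
    (s36nr_unit_bc hB hc (vtEmb E (M * q * q))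
      (fun x => vt_frac_fullC hB (M * q * q) x.2) hx)

/-! ### The four formulas -/

include hB' hc ιK hq hqM hζ h z hz hgal in
/-- **(Nα∞)**: `N_α x ≡ x_a · x_c ^ (q − 1)` at `W_∞` -/
theorem s36nr_split_alpha (x : modularFunctionFieldFullC E (M * q * q))
    (x₁ x₂ : modularFunctionFieldFullC E (M * q))
    (h₁ : NgC (s36n2VA hB) (s36Alpha E M q x₁) x)
    (h₂ : NgC (s36n2VC hB' ψ hq h z hz) (s36Alpha E M q x₂) x) :
    NgC (vtInf hB (M * q)) (s36NormAlpha E M q x) (x₁ * x₂ ^ (q - 1)) := by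
  have key := s36nr_split (s36Alpha E M q) (s36dn_finite_alpha E M q hq) (s36nc_sep_alpha hq)
    (s36nrKer ι' r') s36nrKer_mul (s36ncBaseAlphaInf ψ) (W := vtInf hB (M * q))
    (s36nr_cut_Winf hB hB' ψ hc)
    (s36ncAlphaInf ψ ιK hq hqM ζ hζ) (s36ncAlphaInf_restr ψ ιK hq hqM ζ hζ)
    (s36ncAlphaInf_injective ψ ιK hq hqM ζ hζ)
    (by rw [Fintype.card_fin]; exact (s36dn_deg_alpha E M q hq).symm)
    ⟨0, hq.pos⟩ (V₁ := s36n2VA hB) (V₂ := s36n2VC hB' ψ hq h z hz)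
    (s36nr_alphaInf_cut₁ hB hB' ψ hc ιK hq hqM hζ)
    (s36nr_alphaInf_cut₂ hB' ψ ιK hq hqM hζ h z hz hgal)
    x x₁ x₂ h₁ h₂
  rw [Fintype.card_fin] at key
  exact key

include hB' hc hq hζ z hz hrz in
/-- **(Nα0)**: `α (N_α x) ≡ x ^ q` at `V_b` -/
theorem s36nr_insep_alpha (x : modularFunctionFieldFullC E (M * q * q))
    (hx : (s36n2VB hB ιC hq hqM).valuation x = 1) :
    NgC (s36n2VB hB ιC hq hqM) (s36Alpha E M q (s36NormAlpha E M q x)) (x ^ q) := by
  have key := s36nr_insep (s36Alpha E M q) (s36dn_finite_alpha E M q hq) (s36nc_sep_alpha hq)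
    (s36nrKer ι' r') s36nrKer_mul (s36ncBaseAlphaZero ψ ιC hq hqM)
    (s36ncAlphaZero ψ ιC hq hqM ζ) (s36ncAlphaZero_restr ψ ιC hq hqM ζ hζ)
    (s36ncAlphaZero_injective ψ ιC hq hqM ζ hζ)
    (by rw [Fintype.card_fin]; exact (s36dn_deg_alpha E M q hq).symm)
    ⟨0, hq.pos⟩ (V₃ := s36n2VB hB ιC hq hqM)
    (s36nr_alphaZero_cut hB hB' ψ hc ιC hq hqM)
    (s36nr_alphaZero_red hB hB' ψ hc ιC hq hqM z hz hrz)
    x hx
  rw [Fintype.card_fin] at key
  exact key

include hB' hc ιC ιK hq hqM hζ h z hz hgal in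
/-- **(Nβ0)**: `N_β x ≡ x_b · x_c ^ (q − 1)` at `W_0` -/
theorem s36nr_split_beta (x : modularFunctionFieldFullC E (M * q * q))
    (x₁ x₂ : modularFunctionFieldFullC E (M * q))
    (h₁ : NgC (s36n2VB hB ιC hq hqM) (s36Beta E M q x₁) x)
    (h₂ : NgC (s36n2VC hB' ψ hq h z hz) (s36Beta E M q x₂) x) :
    NgC (vtZero hB ιC hq hqM) (s36NormBeta E M q x) (x₁ * x₂ ^ (q - 1)) := by
  have key := s36nr_split (s36Beta E M q) (s36dn_finite_beta E ιC hq hqM)
    (s36nc_sep_beta ιC hq hqM)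
    (s36nrKer ι' r') s36nrKer_mul (s36ncBaseBetaZero ψ ιC hq hqM) (W := vtZero hB ιC hq hqM)
    (s36nr_cut_W0 hB hB' ψ hc ιC hq hqM)
    (s36ncBetaZero ψ ιC ιK hq hqM ζ hζ) (s36ncBetaZero_restr ψ ιC ιK hq hqM ζ hζ)
    (s36ncBetaZero_injective ψ ιC ιK hq hqM ζ hζ)
    (by rw [Fintype.card_fin]; exact (s36dn_deg_beta E ιC hq hqM).symm)
    ⟨0, hq.pos⟩ (V₁ := s36n2VB hB ιC hq hqM) (V₂ := s36n2VC hB' ψ hq h z hz)
    (s36nr_betaZero_cut₁ hB hB' ψ hc ιC ιK hq hqM hζ)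
    (s36nr_betaZero_cut₂ hB' ψ ιC ιK hq hqM hζ h z hz hgal)
    x x₁ x₂ h₁ h₂
  rw [Fintype.card_fin] at key
  exact key

include hB' hc hq hqM ιC hζ z hz hrz in
/-- **(Nβ∞)**: `β (N_β x) ≡ x ^ q` at `V_a` -/
theorem s36nr_insep_beta (x : modularFunctionFieldFullC E (M * q * q))
    (hx : (s36n2VA (q := q) (M := M) hB).valuation x = 1) :
    NgC (s36n2VA hB) (s36Beta E M q (s36NormBeta E M q x)) (x ^ q) := by
  have key := s36nr_insep (s36Beta E M q) (s36dn_finite_beta E ιC hq hqM)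
    (s36nc_sep_beta ιC hq hqM)
    (s36nrKer ι' r') s36nrKer_mul (s36ncBaseBetaInf ψ)
    (s36ncBetaInf ψ ζ) (s36ncBetaInf_restr ψ ζ hζ)
    (s36ncBetaInf_injective ψ ζ hζ)
    (by rw [Fintype.card_fin]; exact (s36dn_deg_beta E ιC hq hqM).symm)
    ⟨0, hq.pos⟩ (V₃ := s36n2VA hB)
    (s36nr_betaInf_cut hB hB' ψ hc hq)
    (s36nr_betaInf_red hB hB' ψ hc hq z hz hrz)
    x hx
  rw [Fintype.card_fin] at key
  exact key

/-! ### The two packages `NgDir` -/

include hB' hc ιK hq hqM hζ h z hz hrz hgal in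
/-- **`Dα`**: the norm–residue package of `α`, from the residue surjectivities (N2-ext). -/
theorem s36nr_ngDir_alpha
    (hsurj₁ : ∀ x, (s36n2VA (q := q) (M := M) hB).valuation x = 1 →
      ∃ y, NgC (s36n2VA hB) (s36Alpha E M q y) x)
    (hsurj₂ : ∀ x, (s36n2VC hB' ψ hq h z hz).valuation x = 1 →
      ∃ y, NgC (s36n2VC hB' ψ hq h z hz) (s36Alpha E M q y) x) :
    NgDir (s36Alpha E M q) (s36NormAlpha E M q) (vtInf hB (M * q))
      (s36n2VA hB) (s36n2VC hB' ψ hq h z hz) (s36n2VB hB ιC hq hqM) (q - 1) q := by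
  have key := s36nr_ngDir (s36Alpha E M q) (s36dn_finite_alpha E M q hq) (s36nc_sep_alpha hq)
    (s36nrKer ι' r') s36nrKer_mul (s36ncBaseAlphaInf ψ) (W := vtInf hB (M * q))
    (s36nr_cut_Winf hB hB' ψ hc)
    (s36ncAlphaInf ψ ιK hq hqM ζ hζ) (s36ncAlphaInf_restr ψ ιK hq hqM ζ hζ)
    (s36ncAlphaInf_injective ψ ιK hq hqM ζ hζ)
    (by rw [Fintype.card_fin]; exact (s36dn_deg_alpha E M q hq).symm)
    ⟨0, hq.pos⟩ ⟨1, hq.one_lt⟩ (fun h01 => absurd (congrArg Fin.val h01) one_ne_zero)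
    (V₁ := s36n2VA hB) (V₂ := s36n2VC hB' ψ hq h z hz)
    (s36nr_alphaInf_cut₁ hB hB' ψ hc ιK hq hqM hζ)
    (s36nr_alphaInf_cut₂ hB' ψ ιK hq hqM hζ h z hz hgal)
    (s36ncBaseAlphaZero ψ ιC hq hqM)
    (s36ncAlphaZero ψ ιC hq hqM ζ) (s36ncAlphaZero_restr ψ ιC hq hqM ζ hζ)
    (s36ncAlphaZero_injective ψ ιC hq hqM ζ hζ)
    (by rw [Fintype.card_fin]; exact (s36dn_deg_alpha E M q hq).symm)
    ⟨0, hq.pos⟩ (V₃ := s36n2VB hB ιC hq hqM)
    (s36nr_alphaZero_cut hB hB' ψ hc ιC hq hqM)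
    (s36nr_alphaZero_red hB hB' ψ hc ιC hq hqM z hz hrz)
    hsurj₁ hsurj₂
  rw [Fintype.card_fin] at key
  exact key

include hB' hc ιC ιK hq hqM hζ h z hz hrz hgal in
/-- **`Dβ`**: the norm–residue package of `β`, from the residue surjectivities (N2-ext). -/
theorem s36nr_ngDir_beta
    (hsurj₁ : ∀ x, (s36n2VB hB ιC hq hqM).valuation x = 1 →
      ∃ y, NgC (s36n2VB hB ιC hq hqM) (s36Beta E M q y) x)
    (hsurj₂ : ∀ x, (s36n2VC hB' ψ hq h z hz).valuation x = 1 →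
      ∃ y, NgC (s36n2VC hB' ψ hq h z hz) (s36Beta E M q y) x) :
    NgDir (s36Beta E M q) (s36NormBeta E M q) (vtZero hB ιC hq hqM)
      (s36n2VB hB ιC hq hqM) (s36n2VC hB' ψ hq h z hz) (s36n2VA hB) (q - 1) q := by
  have key := s36nr_ngDir (s36Beta E M q) (s36dn_finite_beta E ιC hq hqM)
    (s36nc_sep_beta ιC hq hqM)
    (s36nrKer ι' r') s36nrKer_mul (s36ncBaseBetaZero ψ ιC hq hqM) (W := vtZero hB ιC hq hqM)
    (s36nr_cut_W0 hB hB' ψ hc ιC hq hqM)
    (s36ncBetaZero ψ ιC ιK hq hqM ζ hζ) (s36ncBetaZero_restr ψ ιC ιK hq hqM ζ hζ)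
    (s36ncBetaZero_injective ψ ιC ιK hq hqM ζ hζ)
    (by rw [Fintype.card_fin]; exact (s36dn_deg_beta E ιC hq hqM).symm)
    ⟨0, hq.pos⟩ ⟨1, hq.one_lt⟩ (fun h01 => absurd (congrArg Fin.val h01) one_ne_zero)
    (V₁ := s36n2VB hB ιC hq hqM) (V₂ := s36n2VC hB' ψ hq h z hz)
    (s36nr_betaZero_cut₁ hB hB' ψ hc ιC ιK hq hqM hζ)
    (s36nr_betaZero_cut₂ hB' ψ ιC ιK hq hqM hζ h z hz hgal)
    (s36ncBaseBetaInf ψ)
    (s36ncBetaInf ψ ζ) (s36ncBetaInf_restr ψ ζ hζ)
    (s36ncBetaInf_injective ψ ζ hζ)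
    (by rw [Fintype.card_fin]; exact (s36dn_deg_beta E ιC hq hqM).symm)
    ⟨0, hq.pos⟩ (V₃ := s36n2VA hB)
    (s36nr_betaInf_cut hB hB' ψ hc hq)
    (s36nr_betaInf_red hB hB' ψ hc hq z hz hrz)
    hsurj₁ hsurj₂
  rw [Fintype.card_fin] at key
  exact key

end Formulas

end Fermat.Agent.S36

end
end ZBS36_022_18

/-! ### bundled: `Fermat.Agent.S36.NormResMain` -/
section ZBS36_022_19

/-!
# S36 / G-nr (I4), part 4 (helper20): the packages `Dα`, `Dβ` from the arithmetic data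

`s36nr_ngDir_alpha` / `_beta` (`S36/NormRes.lean`) with the residue surjectivities of helper19
(`S36/N2ExtXMain.lean`) plugged in, and the Galois hypothesis taken from `S36NoData`
(helper31, `S36/NormOrd.lean`).

* `s36nr_Dalpha_of_data`, `s36nr_Dbeta_of_data` : `NgDir` at the family `s36n2V …`.
-/

set_option autoImplicit false
set_option linter.unusedSectionVars false
set_option linter.unusedVariables false
set_option linter.style.haveILetI false

noncomputable section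

namespace Fermat.Agent.S36

open ModularCurve Fermat.Agent.UNIP Fermat.Agent.INJ Fermat.Agent.AL Fermat.Agent.ES
open Fermat.Agent.STB

section Data

variable {A E k A' K k' : Type*} [CommRing A] [IsDomain A] [Field E] [CharZero E] [Algebra A E]
  [IsFractionRing A E] [Field k] [CommRing A'] [IsDomain A'] [Field K] [Field k']
  {r : A →+* k} {π : A} {ι' : A' →+* K} {r' : A' →+* k'} {π' : A'}
  (hB : VtBase (algebraMap A E) r π) (hB' : VtBase ι' r' π')
  (ψ : E →+* K) (ιC : E →+* ℂ) (ιK : K →+* ℂ)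
  {q M : ℕ} [NeZero q] [NeZero M] [NeZero (M * q)] [NeZero (M * q * q)]
  (hq : q.Prime) (hqM : ¬ q ∣ M)
  {ζ : Kˣ} (h : S36MidEmb K q M ζ) (z : A'ˣ) (hz : Units.map (ι' : A' →* K) z = ζ)
  (D : S36NoData (algebraMap A E) r π ι' r' π' ψ q ζ)
  (hζ : IsPrimitiveRoot (z : A') q) (hr : r' (z : A') = 1)
  (hq0 : (q : A') ≠ 0) {v : A} (hv : r v ≠ 0) (hπv : (q : A) = π * v)

include D in
/-- the Galois hypothesis of `S36/NormRes.lean` from `S36NoData` -/
theorem s36nr_gal_of_data (b : ℕ) (hb1 : 1 ≤ b) (hbq : b < q) :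
    ∃ (σ : K →+* K) (κ' : k' →+* k'),
      (∀ x, σ (ψ x) = ψ x) ∧ σ (ζ : K) = ((ζ ^ b : Kˣ) : K) ∧ VtCompat ι' r' ι' r' σ κ' := by
  obtain ⟨σ, κ', h1, h2, h3, -⟩ := D.gal b hb1 hbq
  exact ⟨σ, κ', h1, h2, h3⟩

include hB hB' ιC ιK hq hqM h z hz D hζ hr hq0 hv hπv in
/-- **`Dα`** at the family `s36n2V` -/
theorem s36nr_Dalpha_of_data :
    NgDir (s36Alpha E M q) (s36NormAlpha E M q) (vtInf hB (M * q))
      (s36n2V hB hB' ψ ιC hq hqM h z hz S36Comp.a)
      (s36n2V hB hB' ψ ιC hq hqM h z hz S36Comp.c)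
      (s36n2V hB hB' ψ ιC hq hqM h z hz S36Comp.b) (q - 1) q := by
  obtain ⟨κ, hc⟩ := D.compat
  exact s36nr_ngDir_alpha hB hB' ψ hc ιC ιK hq hqM (s36n2x_zeta_prim hB' z hz hζ) h z hz hr
    (s36nr_gal_of_data ψ D)
    (s36n2x_surj_alpha_a hB hB' ψ ιC ιK hq hqM h z hz hc hζ hr hq0 hv hπv)
    (s36n2x_surj_alpha_c hB hB' ψ ιC ιK hq hqM h z hz hc hζ hr hq0 hv hπv)

include hB hB' ιC ιK hq hqM h z hz D hζ hr hq0 hv hπv in
/-- **`Dβ`** at the family `s36n2V` -/
theorem s36nr_Dbeta_of_data :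
    NgDir (s36Beta E M q) (s36NormBeta E M q) (vtZero hB ιC hq hqM)
      (s36n2V hB hB' ψ ιC hq hqM h z hz S36Comp.b)
      (s36n2V hB hB' ψ ιC hq hqM h z hz S36Comp.c)
      (s36n2V hB hB' ψ ιC hq hqM h z hz S36Comp.a) (q - 1) q := by
  obtain ⟨κ, hc⟩ := D.compat
  exact s36nr_ngDir_beta hB hB' ψ hc ιC ιK hq hqM (s36n2x_zeta_prim hB' z hz hζ) h z hz hr
    (s36nr_gal_of_data ψ D)
    (s36n2x_surj_beta_b hB hB' ψ ιC ιK hq hqM h z hz hc hζ hr hq0 hv hπv)
    (s36n2x_surj_beta_c hB hB' ψ ιC ιK hq hqM h z hz hc hζ hr hq0 hv hπv)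

end Data

end Fermat.Agent.S36

end
end ZBS36_022_19

/-! ### bundled: `Fermat.Agent.S36.NormResI4` -/
section ZBS36_022_20

/-!
# S36 / G-nr (I4), part 5 (helper20): `Dα`, `Dβ` at the concrete family `s36i1V`

The hypotheses (I4) of `s36sp_small` (`S36/SmallPart.lean`) / `s36tb_small` (`S36/TopB.lean`):

* `s36nrWinf hq hA M`, `s36nrW0 M hq hA hqM ιC` : the two vertical valuation subrings of `F_{Mq}(E₀)`;
* `s36nr_Dalpha : NgDir α N_α W_∞ (V a) (V c) (V b) (q − 1) q`,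
  `s36nr_Dbeta  : NgDir β N_β W_0 (V b) (V c) (V a) (q − 1) q`   for `V = s36i1V M hq hA hqM hζ ιC h`.
-/

set_option autoImplicit false
set_option linter.unusedSectionVars false
set_option linter.unusedVariables false
set_option linter.style.haveILetI false

noncomputable section

namespace Fermat.Agent.S36

open ModularCurve Fermat.Agent.UNIP Fermat.Agent.INJ Fermat.Agent.AL Fermat.Agent.ES
open Fermat.Agent.STB IntermediateField

section Concrete

variable {q : ℕ} {A : ValuationSubring (AlgebraicClosure ℚ)} (M : ℕ) [NeZero M] [NeZero q]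
  [IsDiscreteValuationRing ↥(beta0Ring A (beta0Field A))]
  {ζ : AlgebraicClosure ℚ}
  (hq : q.Prime) (hA : A.LiesOverPrime q) (hqM : ¬ q ∣ M) (hζ : IsPrimitiveRoot ζ q)
  (ιC : ↥(beta0Field A) →+* ℂ) (ιK : ↥(s36n2bK A ζ) →+* ℂ)
  (h : S36MidEmb ↥(s36n2bK A ζ) q M (s36i1ZK (A := A) hq hζ))

/-- `W_∞` : the vertical valuation subring of `F_{Mq}(E₀)` at the cusp `∞` -/
def s36nrWinf : ValuationSubring ↥(modularFunctionFieldFullC ↥(beta0Field A) (M * q)) :=
  vtInf (vtBase_residue (beta0Ring_irreducible_q hq hA)) (M * q)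

/-- `W_0` : the vertical valuation subring of `F_{Mq}(E₀)` at the cusp `0` -/
def s36nrW0 : ValuationSubring ↥(modularFunctionFieldFullC ↥(beta0Field A) (M * q)) :=
  vtZero (vtBase_residue (beta0Ring_irreducible_q hq hA)) ιC hq hqM

include ιK in
/-- **`Dα`** (I4) at the concrete family -/
theorem s36nr_Dalpha :
    NgDir (s36Alpha ↥(beta0Field A) M q) (s36NormAlpha ↥(beta0Field A) M q)
      (s36nrWinf M hq hA)
      (s36i1V M hq hA hqM hζ ιC h S36Comp.a) (s36i1V M hq hA hqM hζ ιC h S36Comp.c)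
      (s36i1V M hq hA hqM hζ ιC h S36Comp.b) (q - 1) q :=
  s36nr_Dalpha_of_data (vtBase_residue (beta0Ring_irreducible_q hq hA)) (s36n2b_vtBase hq hA hζ)
    (IntermediateField.inclusion (s36n2b_le_K A ζ)).toRingHom ιC ιK hq hqM h (s36i1Z hq hζ) rfl
    (s36nd_data hq hA hζ) (s36n2bZeta_isPrimitiveRoot (A := A) hq hζ)
    (s36n2b_residue_zeta hq hA hζ) (Nat.cast_ne_zero.mpr hq.ne_zero) (v := 1)
    (by rw [map_one]; exact one_ne_zero) (mul_one _).symm

include ιK in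
/-- **`Dβ`** (I4) at the concrete family -/
theorem s36nr_Dbeta :
    NgDir (s36Beta ↥(beta0Field A) M q) (s36NormBeta ↥(beta0Field A) M q)
      (s36nrW0 M hq hA hqM ιC)
      (s36i1V M hq hA hqM hζ ιC h S36Comp.b) (s36i1V M hq hA hqM hζ ιC h S36Comp.c)
      (s36i1V M hq hA hqM hζ ιC h S36Comp.a) (q - 1) q :=
  s36nr_Dbeta_of_data (vtBase_residue (beta0Ring_irreducible_q hq hA)) (s36n2b_vtBase hq hA hζ)
    (IntermediateField.inclusion (s36n2b_le_K A ζ)).toRingHom ιC ιK hq hqM h (s36i1Z hq hζ) rfl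
    (s36nd_data hq hA hζ) (s36n2bZeta_isPrimitiveRoot (A := A) hq hζ)
    (s36n2b_residue_zeta hq hA hζ) (Nat.cast_ne_zero.mpr hq.ne_zero) (v := 1)
    (by rw [map_one]; exact one_ne_zero) (mul_one _).symm

end Concrete

end Fermat.Agent.S36

end
end ZBS36_022_20

/-! ### bundled: `Fermat.Agent.S36.N2ValHne` -/
section ZBS36_022_21

/-!
# S36 / (I1): `hne` for the concrete family `s36i1V` (helper93)

* `s36i1c_zeta_pow : (s36i1ZK hq hζ) ^ q = 1`;
* `s36i1c_injective`, **`s36i1c_hne`** : `∀ c c', c ≠ c' → V c ≠ V c'` for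
  `V = s36i1V M hq hA hqM hζ ιC h` — the hypothesis `hne` of `s36tb_small`;
* `s36i1c_comap_alpha`, `s36i1c_comap_beta` : the restrictions of `V c` to `F_{Mq}(E₀)` along
  `s36Alpha`, `s36Beta` are `mgvV … (s36n2CompAlpha c)`, `mgvV … (s36n2CompBeta c)`.
-/

set_option autoImplicit false
set_option linter.unusedSectionVars false
set_option linter.style.haveILetI false

noncomputable section

namespace Fermat.Agent.S36

open ModularCurve Fermat.Agent.UNIP Fermat.Agent.INJ Fermat.Agent.AL Fermat.Agent.ES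

section Concrete

variable {q : ℕ} {A : ValuationSubring (AlgebraicClosure ℚ)} (M : ℕ) [NeZero M] [NeZero q]
  [IsDiscreteValuationRing ↥(beta0Ring A (beta0Field A))]
  {ζ : AlgebraicClosure ℚ}

/-- an embedding of `K = E₀(ζ)` into `ℂ` -/
theorem s36i1c_exists_emb (A : ValuationSubring (AlgebraicClosure ℚ)) (ζ : AlgebraicClosure ℚ) :
    Nonempty (↥(s36n2bK A ζ) →+* ℂ) := by
  haveI : Algebra.IsAlgebraic ℚ (AlgebraicClosure ℚ) := AlgebraicClosure.isAlgebraic ℚ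
  exact ⟨((IsAlgClosed.lift : AlgebraicClosure ℚ →ₐ[ℚ] ℂ).toRingHom).comp
    (algebraMap ↥(s36n2bK A ζ) (AlgebraicClosure ℚ))⟩

theorem s36i1c_zeta_pow (hq : q.Prime) (hζ : IsPrimitiveRoot ζ q) :
    (s36i1ZK (A := A) hq hζ) ^ q = 1 := by
  apply Units.ext
  rw [Units.val_pow_eq_pow_val, Units.val_one]
  exact (s36i1ZK_isPrimitiveRoot (A := A) hq hζ).pow_eq_one

variable (hq : q.Prime) (hA : A.LiesOverPrime q) (hqM : ¬ q ∣ M) (hζ : IsPrimitiveRoot ζ q)
  (ιC : ↥(beta0Field A) →+* ℂ)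
  (h : S36MidEmb ↥(s36n2bK A ζ) q M (s36i1ZK (A := A) hq hζ))

/-- restriction along `α` of the concrete family -/
theorem s36i1c_comap_alpha (c : S36Comp) :
    (s36i1V M hq hA hqM hζ ιC h c).comap (s36Alpha ↥(beta0Field A) M q) =
      vtFam (vtBase_residue (beta0Ring_irreducible_q hq hA)) ιC hq hqM (s36n2CompAlpha c) := by
  obtain ⟨κ, -, hc⟩ := s36n2b_compat (A := A) (ζ := ζ) hq hA
  exact s36n2V_comap_alpha (vtBase_residue (beta0Ring_irreducible_q hq hA))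
    (s36n2b_vtBase hq hA hζ) hc ιC hq hqM h (s36i1Z hq hζ) rfl c

/-- restriction along `β` of the concrete family -/
theorem s36i1c_comap_beta (c : S36Comp) :
    (s36i1V M hq hA hqM hζ ιC h c).comap (s36Beta ↥(beta0Field A) M q) =
      vtFam (vtBase_residue (beta0Ring_irreducible_q hq hA)) ιC hq hqM (s36n2CompBeta c) := by
  obtain ⟨κ, -, hc⟩ := s36n2b_compat (A := A) (ζ := ζ) hq hA
  obtain ⟨ιC'⟩ := s36i1c_exists_emb A ζ
  exact s36n2V_comap_beta (vtBase_residue (beta0Ring_irreducible_q hq hA))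
    (s36n2b_vtBase hq hA hζ) hc ιC ιC' hq hqM h (s36i1Z hq hζ) rfl (s36i1c_zeta_pow hq hζ) c

theorem s36i1c_injective : Function.Injective (s36i1V M hq hA hqM hζ ιC h) := by
  obtain ⟨κ, -, hc⟩ := s36n2b_compat (A := A) (ζ := ζ) hq hA
  obtain ⟨ιC'⟩ := s36i1c_exists_emb A ζ
  haveI : Fact q.Prime := ⟨hq⟩
  haveI : CharP (IsLocalRing.ResidueField ↥(beta0Ring A (beta0Field A))) q := mgvl_charP hq hA
  exact s36n2V_injective (vtBase_residue (beta0Ring_irreducible_q hq hA))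
    (s36n2b_vtBase hq hA hζ) hc ιC ιC' hq hqM h (s36i1Z hq hζ) rfl (s36i1c_zeta_pow hq hζ)

/-- **`hne`** of `s36tb_small` -/
theorem s36i1c_hne : ∀ c c', c ≠ c' →
    s36i1V M hq hA hqM hζ ιC h c ≠ s36i1V M hq hA hqM hζ ιC h c' :=
  fun _ _ hcc e => hcc (s36i1c_injective M hq hA hqM hζ ιC h e)

end Concrete

end Fermat.Agent.S36

end
end ZBS36_022_21

/-! ### bundled: `Fermat.Agent.S36.PtsFinal` -/
section ZBS36_022_22
/-
S36 (Carayol at `q² ∥ M`), geometric clause, (I6)(e) (helper31): CONCRETE classification of the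
closed points of the chart `j` of level `M q²` for the family `V = s36i1V` and assembly of `h₁`.

* `s36pf_hpt`       : every closed point lies on a component (`aq_hpt`);
* `s36pf_two_three` : a point on two components lies on all three, from the uniqueness
                      statements (Uα), (Uβ) along the chart maps `gα, gβ : B′ → B`;
* `s36pf_h1`        : `S36PtInput` at every closed point of the chart `j`, from the four case
                      theorems.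
-/

set_option autoImplicit false
set_option linter.unusedSectionVars false
set_option linter.unusedVariables false
set_option linter.style.haveILetI false
set_option linter.constructorNameAsVariable false

noncomputable section

namespace Fermat.Agent.S36

open ModularCurve AlgebraicCurve Fermat.Agent.ES Fermat.Agent.ES.G2 Fermat.Agent.INJ
open Fermat.Agent.UNIP Fermat.Agent.STB IntermediateField

section Conc

variable {q : ℕ} {A : ValuationSubring (AlgebraicClosure ℚ)} (M : ℕ) [NeZero M] [NeZero q]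
  [IsDiscreteValuationRing ↥(beta0Ring A (beta0Field A))]
  {ζ : AlgebraicClosure ℚ}
  (hq : q.Prime) (hA : A.LiesOverPrime q) (hqM : ¬ q ∣ M) (hζ : IsPrimitiveRoot ζ q)
  (ιC : ↥(beta0Field A) →+* ℂ)
  (h : S36MidEmb ↥(s36n2bK A ζ) q M (s36i1ZK (A := A) hq hζ))

/-- "at least one component", concrete -/
theorem s36pf_hpt
    (hKR : ∀ x : ↥(modularFunctionFieldFullC ↥(beta0Field A) (M * q * q)),
      IsIntegral ↥(Algebra.adjoin ↥(beta0Ring A (beta0Field A))
          {bgJ ↥(beta0Field A) (M * q * q)})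
        (algebraMap ↥(beta0Ring A (beta0Field A))
          ↥(modularFunctionFieldFullC ↥(beta0Field A) (M * q * q))
          ((q : ℕ) : ↥(beta0Ring A (beta0Field A))) * x) →
      (∀ c, x ∈ s36i1V M hq hA hqM hζ ιC h c) →
        IsIntegral ↥(Algebra.adjoin ↥(beta0Ring A (beta0Field A))
          {bgJ ↥(beta0Field A) (M * q * q)}) x)
    (𝔫 : AtPt (F := ↥(modularFunctionFieldFullC ↥(beta0Field A) (M * q * q)))
      ((q : ℕ) : ↥(beta0Ring A (beta0Field A))) (bgJ ↥(beta0Field A) (M * q * q))) :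
    ∃ c, atThrough 𝔫 (s36i1V M hq hA hqM hζ ιC h c) :=
  aq_hpt (s36i1V M hq hA hqM hζ ιC h) (s36i1c_hBV₁ M hq hA hqM hζ ιC h)
    hKR (s36i1c_hram M hq hA hqM hζ ιC h)
    (ei_algebraMap_ne_zero (E := ↥(beta0Field A)) (beta0Ring_irreducible_q hq hA)) 𝔫

/-- `B ⊆ V c` in subtype form -/
theorem s36pf_hSV (c : S36Comp)
    (s : ↥(zchClosure (A₀ := ↥(beta0Ring A (beta0Field A)))
      ({bgJ ↥(beta0Field A) (M * q * q)} :
        Set ↥(modularFunctionFieldFullC ↥(beta0Field A) (M * q * q))))) :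
    algebraMap ↥(zchClosure (A₀ := ↥(beta0Ring A (beta0Field A)))
      ({bgJ ↥(beta0Field A) (M * q * q)} :
        Set ↥(modularFunctionFieldFullC ↥(beta0Field A) (M * q * q))))
      ↥(modularFunctionFieldFullC ↥(beta0Field A) (M * q * q)) s ∈
        s36i1V M hq hA hqM hζ ιC h c :=
  s36i1c_hBV₁ M hq hA hqM hζ ιC h c _ (mem_zchClosure.mp s.2)

/-- **two ⇒ three**, from the uniqueness statements (Uα), (Uβ) along chart maps `gα`, `gβ`. -/
theorem s36pf_two_three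
    (gα gβ : ↥(zchClosure (A₀ := ↥(beta0Ring A (beta0Field A)))
        ({bgJ ↥(beta0Field A) (M * q)} :
          Set ↥(modularFunctionFieldFullC ↥(beta0Field A) (M * q)))) →+*
      ↥(zchClosure (A₀ := ↥(beta0Ring A (beta0Field A)))
        ({bgJ ↥(beta0Field A) (M * q * q)} :
          Set ↥(modularFunctionFieldFullC ↥(beta0Field A) (M * q * q)))))
    (hgα : gα.IsIntegral) (hgβ : gβ.IsIntegral)
    (hcα : ∀ r, ((gα r : ↥(zchClosure (A₀ := ↥(beta0Ring A (beta0Field A)))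
        ({bgJ ↥(beta0Field A) (M * q * q)} :
          Set ↥(modularFunctionFieldFullC ↥(beta0Field A) (M * q * q))))) :
        ↥(modularFunctionFieldFullC ↥(beta0Field A) (M * q * q))) =
      s36Alpha ↥(beta0Field A) M q (r : ↥(modularFunctionFieldFullC ↥(beta0Field A) (M * q))))
    (hcβ : ∀ r, ((gβ r : ↥(zchClosure (A₀ := ↥(beta0Ring A (beta0Field A)))
        ({bgJ ↥(beta0Field A) (M * q * q)} :
          Set ↥(modularFunctionFieldFullC ↥(beta0Field A) (M * q * q))))) :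
        ↥(modularFunctionFieldFullC ↥(beta0Field A) (M * q * q))) =
      s36Beta ↥(beta0Field A) M q (r : ↥(modularFunctionFieldFullC ↥(beta0Field A) (M * q))))
    (Uα : ∀ 𝔫 : Ideal ↥(zchClosure (A₀ := ↥(beta0Ring A (beta0Field A)))
        ({bgJ ↥(beta0Field A) (M * q * q)} :
          Set ↥(modularFunctionFieldFullC ↥(beta0Field A) (M * q * q)))), 𝔫.IsPrime →
      (∀ b : ↥(zchClosure (A₀ := ↥(beta0Ring A (beta0Field A)))
        ({bgJ ↥(beta0Field A) (M * q * q)} :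
          Set ↥(modularFunctionFieldFullC ↥(beta0Field A) (M * q * q)))),
        (b : ↥(modularFunctionFieldFullC ↥(beta0Field A) (M * q * q))) ∈
        (s36i1V M hq hA hqM hζ ιC h S36Comp.b).nonunits → b ∈ 𝔫) →
      ∀ 𝔫₂ : Ideal _, 𝔫₂.IsPrime → 𝔫₂.comap gα = 𝔫.comap gα → 𝔫₂ = 𝔫)
    (Uβ : ∀ 𝔫 : Ideal ↥(zchClosure (A₀ := ↥(beta0Ring A (beta0Field A)))
        ({bgJ ↥(beta0Field A) (M * q * q)} :
          Set ↥(modularFunctionFieldFullC ↥(beta0Field A) (M * q * q)))), 𝔫.IsPrime →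
      (∀ b : ↥(zchClosure (A₀ := ↥(beta0Ring A (beta0Field A)))
        ({bgJ ↥(beta0Field A) (M * q * q)} :
          Set ↥(modularFunctionFieldFullC ↥(beta0Field A) (M * q * q)))),
        (b : ↥(modularFunctionFieldFullC ↥(beta0Field A) (M * q * q))) ∈
        (s36i1V M hq hA hqM hζ ιC h S36Comp.a).nonunits → b ∈ 𝔫) →
      ∀ 𝔫₂ : Ideal _, 𝔫₂.IsPrime → 𝔫₂.comap gβ = 𝔫.comap gβ → 𝔫₂ = 𝔫)
    (𝔫 : AtPt (F := ↥(modularFunctionFieldFullC ↥(beta0Field A) (M * q * q)))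
      ((q : ℕ) : ↥(beta0Ring A (beta0Field A))) (bgJ ↥(beta0Field A) (M * q * q))) :
    (atThrough 𝔫 (s36i1V M hq hA hqM hζ ιC h S36Comp.a) →
      atThrough 𝔫 (s36i1V M hq hA hqM hζ ιC h S36Comp.b) →
      atThrough 𝔫 (s36i1V M hq hA hqM hζ ιC h S36Comp.c)) ∧
    (atThrough 𝔫 (s36i1V M hq hA hqM hζ ιC h S36Comp.a) →
      atThrough 𝔫 (s36i1V M hq hA hqM hζ ιC h S36Comp.c) →
      atThrough 𝔫 (s36i1V M hq hA hqM hζ ιC h S36Comp.b)) ∧
    (atThrough 𝔫 (s36i1V M hq hA hqM hζ ιC h S36Comp.b) →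
      atThrough 𝔫 (s36i1V M hq hA hqM hζ ιC h S36Comp.c) →
      atThrough 𝔫 (s36i1V M hq hA hqM hζ ιC h S36Comp.a)) := by
  haveI := 𝔫.2.1.isPrime
  have hca := s36i1c_comap_alpha M hq hA hqM hζ ιC h
  have hcb := s36i1c_comap_beta M hq hA hqM hζ ιC h
  refine ⟨fun ha hb => ?_, fun ha hc => ?_, fun hb hc => ?_⟩
  · -- a, b ⇒ c : along β, `V_c ∩ F₁ = V_b ∩ F₁`
    exact s36pa_through_of_uniq gβ hgβ (algebraMap _ _) (s36Beta ↥(beta0Field A) M q)
      (fun r => (hcβ r).symm) 𝔫.1 (Uβ 𝔫.1 inferInstance ha)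
      (s36i1V M hq hA hqM hζ ιC h S36Comp.c) (s36i1V M hq hA hqM hζ ιC h S36Comp.b)
      (s36pf_hSV M hq hA hqM hζ ιC h S36Comp.c)
      (by rw [hcb, hcb]; rfl) hb
  · -- a, c ⇒ b : along β
    exact s36pa_through_of_uniq gβ hgβ (algebraMap _ _) (s36Beta ↥(beta0Field A) M q)
      (fun r => (hcβ r).symm) 𝔫.1 (Uβ 𝔫.1 inferInstance ha)
      (s36i1V M hq hA hqM hζ ιC h S36Comp.b) (s36i1V M hq hA hqM hζ ιC h S36Comp.c)
      (s36pf_hSV M hq hA hqM hζ ιC h S36Comp.b)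
      (by rw [hcb, hcb]; rfl) hc
  · -- b, c ⇒ a : along α, `V_a ∩ F₁ = V_c ∩ F₁`
    exact s36pa_through_of_uniq gα hgα (algebraMap _ _) (s36Alpha ↥(beta0Field A) M q)
      (fun r => (hcα r).symm) 𝔫.1 (Uα 𝔫.1 inferInstance hb)
      (s36i1V M hq hA hqM hζ ιC h S36Comp.a) (s36i1V M hq hA hqM hζ ιC h S36Comp.c)
      (s36pf_hSV M hq hA hqM hζ ιC h S36Comp.a)
      (by rw [hca, hca]; rfl) hc

/-- **`h₁`, concrete**: `S36PtInput` at every closed point of the chart `j`, from (I2) `hKR`,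
the chart maps with (Uα), (Uβ), and the four case theorems. -/
theorem s36pf_h1 {F₁ : Type*} [Field F₁]
    {Hor : ↥(modularFunctionFieldFullC ↥(beta0Field A) (M * q * q)) → Prop} {m : ℕ}
    {α β : F₁ →+* ↥(modularFunctionFieldFullC ↥(beta0Field A) (M * q * q))}
    {Nα Nβ : ↥(modularFunctionFieldFullC ↥(beta0Field A) (M * q * q)) →* F₁} {ζ₁ : F₁}
    (hKR : ∀ x : ↥(modularFunctionFieldFullC ↥(beta0Field A) (M * q * q)),
      IsIntegral ↥(Algebra.adjoin ↥(beta0Ring A (beta0Field A))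
          {bgJ ↥(beta0Field A) (M * q * q)})
        (algebraMap ↥(beta0Ring A (beta0Field A))
          ↥(modularFunctionFieldFullC ↥(beta0Field A) (M * q * q))
          ((q : ℕ) : ↥(beta0Ring A (beta0Field A))) * x) →
      (∀ c, x ∈ s36i1V M hq hA hqM hζ ιC h c) →
        IsIntegral ↥(Algebra.adjoin ↥(beta0Ring A (beta0Field A))
          {bgJ ↥(beta0Field A) (M * q * q)}) x)
    (gα gβ : ↥(zchClosure (A₀ := ↥(beta0Ring A (beta0Field A)))
        ({bgJ ↥(beta0Field A) (M * q)} :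
          Set ↥(modularFunctionFieldFullC ↥(beta0Field A) (M * q)))) →+*
      ↥(zchClosure (A₀ := ↥(beta0Ring A (beta0Field A)))
        ({bgJ ↥(beta0Field A) (M * q * q)} :
          Set ↥(modularFunctionFieldFullC ↥(beta0Field A) (M * q * q)))))
    (hgα : gα.IsIntegral) (hgβ : gβ.IsIntegral)
    (hcα : ∀ r, ((gα r : ↥(zchClosure (A₀ := ↥(beta0Ring A (beta0Field A)))
        ({bgJ ↥(beta0Field A) (M * q * q)} :
          Set ↥(modularFunctionFieldFullC ↥(beta0Field A) (M * q * q))))) :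
        ↥(modularFunctionFieldFullC ↥(beta0Field A) (M * q * q))) =
      s36Alpha ↥(beta0Field A) M q (r : ↥(modularFunctionFieldFullC ↥(beta0Field A) (M * q))))
    (hcβ : ∀ r, ((gβ r : ↥(zchClosure (A₀ := ↥(beta0Ring A (beta0Field A)))
        ({bgJ ↥(beta0Field A) (M * q * q)} :
          Set ↥(modularFunctionFieldFullC ↥(beta0Field A) (M * q * q))))) :
        ↥(modularFunctionFieldFullC ↥(beta0Field A) (M * q * q))) =
      s36Beta ↥(beta0Field A) M q (r : ↥(modularFunctionFieldFullC ↥(beta0Field A) (M * q))))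
    (Uα : ∀ 𝔫 : Ideal ↥(zchClosure (A₀ := ↥(beta0Ring A (beta0Field A)))
        ({bgJ ↥(beta0Field A) (M * q * q)} :
          Set ↥(modularFunctionFieldFullC ↥(beta0Field A) (M * q * q)))), 𝔫.IsPrime →
      (∀ b : ↥(zchClosure (A₀ := ↥(beta0Ring A (beta0Field A)))
        ({bgJ ↥(beta0Field A) (M * q * q)} :
          Set ↥(modularFunctionFieldFullC ↥(beta0Field A) (M * q * q)))),
        (b : ↥(modularFunctionFieldFullC ↥(beta0Field A) (M * q * q))) ∈
        (s36i1V M hq hA hqM hζ ιC h S36Comp.b).nonunits → b ∈ 𝔫) →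
      ∀ 𝔫₂ : Ideal _, 𝔫₂.IsPrime → 𝔫₂.comap gα = 𝔫.comap gα → 𝔫₂ = 𝔫)
    (Uβ : ∀ 𝔫 : Ideal ↥(zchClosure (A₀ := ↥(beta0Ring A (beta0Field A)))
        ({bgJ ↥(beta0Field A) (M * q * q)} :
          Set ↥(modularFunctionFieldFullC ↥(beta0Field A) (M * q * q)))), 𝔫.IsPrime →
      (∀ b : ↥(zchClosure (A₀ := ↥(beta0Ring A (beta0Field A)))
        ({bgJ ↥(beta0Field A) (M * q * q)} :
          Set ↥(modularFunctionFieldFullC ↥(beta0Field A) (M * q * q)))),
        (b : ↥(modularFunctionFieldFullC ↥(beta0Field A) (M * q * q))) ∈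
        (s36i1V M hq hA hqM hζ ιC h S36Comp.a).nonunits → b ∈ 𝔫) →
      ∀ 𝔫₂ : Ideal _, 𝔫₂.IsPrime → 𝔫₂.comap gβ = 𝔫.comap gβ → 𝔫₂ = 𝔫)
    (hPa : ∀ 𝔫 : AtPt (F := ↥(modularFunctionFieldFullC ↥(beta0Field A) (M * q * q)))
        ((q : ℕ) : ↥(beta0Ring A (beta0Field A))) (bgJ ↥(beta0Field A) (M * q * q)),
      atThrough 𝔫 (s36i1V M hq hA hqM hζ ιC h S36Comp.a) →
      (∀ c, atThrough 𝔫 (s36i1V M hq hA hqM hζ ιC h c) → c = S36Comp.a) →
      @S36PtInput F₁ ↥(modularFunctionFieldFullC ↥(beta0Field A) (M * q * q)) _ _ S36Comp Hor m α β Nα Nβ ζ₁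
        (s36i1V M hq hA hqM hζ ιC h) S36Comp.a S36Comp.b S36Comp.c
        (atO ((q : ℕ) : ↥(beta0Ring A (beta0Field A))) (bgJ ↥(beta0Field A) (M * q * q))
          (Sum.inl 𝔫))
        (stb_atO_isLocalRing (π := ((q : ℕ) : ↥(beta0Ring A (beta0Field A))))
          (bgJ ↥(beta0Field A) (M * q * q)) (Sum.inl 𝔫))
        (atInc ((q : ℕ) : ↥(beta0Ring A (beta0Field A))) (bgJ ↥(beta0Field A) (M * q * q))
          (s36i1V M hq hA hqM hζ ιC h) (Sum.inl 𝔫)))
    (hPb : ∀ 𝔫 : AtPt (F := ↥(modularFunctionFieldFullC ↥(beta0Field A) (M * q * q)))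
        ((q : ℕ) : ↥(beta0Ring A (beta0Field A))) (bgJ ↥(beta0Field A) (M * q * q)),
      atThrough 𝔫 (s36i1V M hq hA hqM hζ ιC h S36Comp.b) →
      (∀ c, atThrough 𝔫 (s36i1V M hq hA hqM hζ ιC h c) → c = S36Comp.b) →
      @S36PtInput F₁ ↥(modularFunctionFieldFullC ↥(beta0Field A) (M * q * q)) _ _ S36Comp Hor m α β Nα Nβ ζ₁
        (s36i1V M hq hA hqM hζ ιC h) S36Comp.a S36Comp.b S36Comp.c
        (atO ((q : ℕ) : ↥(beta0Ring A (beta0Field A))) (bgJ ↥(beta0Field A) (M * q * q))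
          (Sum.inl 𝔫))
        (stb_atO_isLocalRing (π := ((q : ℕ) : ↥(beta0Ring A (beta0Field A))))
          (bgJ ↥(beta0Field A) (M * q * q)) (Sum.inl 𝔫))
        (atInc ((q : ℕ) : ↥(beta0Ring A (beta0Field A))) (bgJ ↥(beta0Field A) (M * q * q))
          (s36i1V M hq hA hqM hζ ιC h) (Sum.inl 𝔫)))
    (hPc : ∀ 𝔫 : AtPt (F := ↥(modularFunctionFieldFullC ↥(beta0Field A) (M * q * q)))
        ((q : ℕ) : ↥(beta0Ring A (beta0Field A))) (bgJ ↥(beta0Field A) (M * q * q)),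
      atThrough 𝔫 (s36i1V M hq hA hqM hζ ιC h S36Comp.c) →
      (∀ c, atThrough 𝔫 (s36i1V M hq hA hqM hζ ιC h c) → c = S36Comp.c) →
      @S36PtInput F₁ ↥(modularFunctionFieldFullC ↥(beta0Field A) (M * q * q)) _ _ S36Comp Hor m α β Nα Nβ ζ₁
        (s36i1V M hq hA hqM hζ ιC h) S36Comp.a S36Comp.b S36Comp.c
        (atO ((q : ℕ) : ↥(beta0Ring A (beta0Field A))) (bgJ ↥(beta0Field A) (M * q * q))
          (Sum.inl 𝔫))
        (stb_atO_isLocalRing (π := ((q : ℕ) : ↥(beta0Ring A (beta0Field A))))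
          (bgJ ↥(beta0Field A) (M * q * q)) (Sum.inl 𝔫))
        (atInc ((q : ℕ) : ↥(beta0Ring A (beta0Field A))) (bgJ ↥(beta0Field A) (M * q * q))
          (s36i1V M hq hA hqM hζ ιC h) (Sum.inl 𝔫)))
    (hPt : ∀ 𝔫 : AtPt (F := ↥(modularFunctionFieldFullC ↥(beta0Field A) (M * q * q)))
        ((q : ℕ) : ↥(beta0Ring A (beta0Field A))) (bgJ ↥(beta0Field A) (M * q * q)),
      (∀ c, atThrough 𝔫 (s36i1V M hq hA hqM hζ ιC h c)) →
      @S36PtInput F₁ ↥(modularFunctionFieldFullC ↥(beta0Field A) (M * q * q)) _ _ S36Comp Hor m α β Nα Nβ ζ₁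
        (s36i1V M hq hA hqM hζ ιC h) S36Comp.a S36Comp.b S36Comp.c
        (atO ((q : ℕ) : ↥(beta0Ring A (beta0Field A))) (bgJ ↥(beta0Field A) (M * q * q))
          (Sum.inl 𝔫))
        (stb_atO_isLocalRing (π := ((q : ℕ) : ↥(beta0Ring A (beta0Field A))))
          (bgJ ↥(beta0Field A) (M * q * q)) (Sum.inl 𝔫))
        (atInc ((q : ℕ) : ↥(beta0Ring A (beta0Field A))) (bgJ ↥(beta0Field A) (M * q * q))
          (s36i1V M hq hA hqM hζ ιC h) (Sum.inl 𝔫))) :
    ∀ 𝔫 : AtPt (F := ↥(modularFunctionFieldFullC ↥(beta0Field A) (M * q * q)))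
        ((q : ℕ) : ↥(beta0Ring A (beta0Field A))) (bgJ ↥(beta0Field A) (M * q * q)),
      @S36PtInput F₁ ↥(modularFunctionFieldFullC ↥(beta0Field A) (M * q * q)) _ _ S36Comp Hor m α β Nα Nβ ζ₁
        (s36i1V M hq hA hqM hζ ιC h) S36Comp.a S36Comp.b S36Comp.c
        (atO ((q : ℕ) : ↥(beta0Ring A (beta0Field A))) (bgJ ↥(beta0Field A) (M * q * q))
          (Sum.inl 𝔫))
        (stb_atO_isLocalRing (π := ((q : ℕ) : ↥(beta0Ring A (beta0Field A))))
          (bgJ ↥(beta0Field A) (M * q * q)) (Sum.inl 𝔫))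
        (atInc ((q : ℕ) : ↥(beta0Ring A (beta0Field A))) (bgJ ↥(beta0Field A) (M * q * q))
          (s36i1V M hq hA hqM hζ ιC h) (Sum.inl 𝔫)) := by
  refine s36pa_h1 (s36i1V M hq hA hqM hζ ιC h) S36Comp.a S36Comp.b S36Comp.c s36i1_hκ
    (s36pf_hpt M hq hA hqM hζ ιC h hKR)
    (fun 𝔫 => (s36pf_two_three M hq hA hqM hζ ιC h gα gβ hgα hgβ hcα hcβ Uα Uβ 𝔫).1)
    (fun 𝔫 => (s36pf_two_three M hq hA hqM hζ ιC h gα gβ hgα hgβ hcα hcβ Uα Uβ 𝔫).2.1)
    (fun 𝔫 => (s36pf_two_three M hq hA hqM hζ ιC h gα gβ hgα hgβ hcα hcβ Uα Uβ 𝔫).2.2)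
    hPa hPb hPc hPt

end Conc

end Fermat.Agent.S36

end
end ZBS36_022_22
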