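/- GENERATED FILE (helper35, build-time optimisation, NOTES/ZB.md): verbatim concatenation of the modules
   Fermat.Agent.S36.AuxLevelAll
   Fermat.Agent.S36.Top
   Fermat.Agent.S36.NormSquares
   Fermat.Agent.S36.SmallOf
   Fermat.Agent.S36.PtsPlan
   Do not edit; do not import together with these modules. -/
import Fermat.Agent.ZB.STB_001
import Fermat.Agent.ZB.S36_022
import Fermat.Agent.ZB.S36_024
import Fermat.Agent.ZB.S36_026

/-! ### bundled: `Fermat.Agent.S36.AuxLevelAll` -/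
section ZBS36_029_0

/-!
# S36 / G-aux, wiring: (G36-K) at the rigid levels ⇒ (G36-K) at all levels (helper52)

* `s36aux_kummer_of_mul d` : it is enough to prove `StmtCarayolKummerAt M₁ q p` at the levels `M₁`
  divisible by `d q`, for any choice of auxiliary levels `d q ≥ 1` prime to `q`;
* `s36aux_kummer_of_rigid` : the choice `d q = 4` (`q` odd), `d 2 = 9`: it is enough to prove
  `StmtCarayolKummerAt M₁ q p` at the levels with `4 ∣ M₁` (`q ≠ 2`) resp. `9 ∣ M₁` (`q = 2`);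
* `s36aux_kummer_of_rigid36` : the same with `4 ∣ M₁` and `9 ∣ M₁` whenever `q ≥ 5`
  (`d q = 36` for `q ≥ 5`, `d 3 = 4`, `d 2 = 9`).
-/

set_option autoImplicit false
set_option linter.style.haveILetI false

noncomputable section

namespace Fermat.Agent.S36

/-- **G-aux, wiring.** (G36-K) at the levels divisible by the auxiliary level `d q`
(`gcd (d q, q) = 1`) implies (G36-K) at all levels. -/
theorem s36aux_kummer_of_mul (d : ℕ → ℕ) (hd0 : ∀ q, q.Prime → d q ≠ 0)
    (hdq : ∀ q, q.Prime → Nat.Coprime (d q) q)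
    (H : ∀ (M₁ q p : ℕ) [NeZero M₁] [NeZero q], q.Prime → p.Prime → p ≠ q → p ≠ 2 →
      q ∣ M₁ → ¬ q ^ 2 ∣ M₁ → d q ∣ M₁ → StmtCarayolKummerAt M₁ q p) :
    StmtCarayolKummer := by
  intro M₁ q p _ _ hq hp hpq hp2 hqM hq2M
  haveI : NeZero (d q) := ⟨hd0 q hq⟩
  refine s36aux_descent M₁ q p (d q) hq (hdq q hq) hqM ?_
  refine H (M₁ * d q) q p hq hp hpq hp2 (hqM.mul_right _) ?_ (Dvd.intro_left M₁ rfl)
  intro h
  exact hq2M ((Nat.Coprime.pow_left 2 (hdq q hq).symm).dvd_of_dvd_mul_right h)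

/-- **G-aux, wiring**, the rigid levels: `4 ∣ M₁` for odd `q`, `9 ∣ M₁` for `q = 2`. -/
theorem s36aux_kummer_of_rigid
    (H : ∀ (M₁ q p : ℕ) [NeZero M₁] [NeZero q], q.Prime → p.Prime → p ≠ q → p ≠ 2 →
      q ∣ M₁ → ¬ q ^ 2 ∣ M₁ → (q ≠ 2 → 4 ∣ M₁) → (q = 2 → 9 ∣ M₁) →
      StmtCarayolKummerAt M₁ q p) :
    StmtCarayolKummer := by
  refine s36aux_kummer_of_mul (fun q => if q = 2 then 9 else 4) ?_ ?_ ?_
  · intro q _
    by_cases h : q = 2
    · simp [h]
    · simp [h]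
  · intro q hq
    by_cases h : q = 2
    · subst h
      decide
    · simp only [h, if_false]
      have hodd : Nat.Coprime 2 q := (Nat.coprime_primes Nat.prime_two hq).2 (Ne.symm h)
      exact Nat.Coprime.pow_left 2 hodd
  · intro M₁ q p _ _ hq hp hpq hp2 hqM hq2M hd
    refine H M₁ q p hq hp hpq hp2 hqM hq2M ?_ ?_
    · intro h
      simpa [h] using hd
    · intro h
      simpa [h] using hd

/-- **G-aux, wiring**, the rigid levels, strong form: `4 ∣ M₁` unless `q = 2`, `9 ∣ M₁` unless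
`q = 3`. -/
theorem s36aux_kummer_of_rigid36
    (H : ∀ (M₁ q p : ℕ) [NeZero M₁] [NeZero q], q.Prime → p.Prime → p ≠ q → p ≠ 2 →
      q ∣ M₁ → ¬ q ^ 2 ∣ M₁ → (q ≠ 2 → 4 ∣ M₁) → (q ≠ 3 → 9 ∣ M₁) →
      StmtCarayolKummerAt M₁ q p) :
    StmtCarayolKummer := by
  refine s36aux_kummer_of_mul (fun q => if q = 2 then 9 else if q = 3 then 4 else 36) ?_ ?_ ?_
  · intro q _
    by_cases h : q = 2
    · simp [h]
    · by_cases h3 : q = 3
      · simp [h3]
      · simp [h, h3]
  · intro q hq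
    by_cases h : q = 2
    · subst h
      decide
    · have hodd : Nat.Coprime 2 q := (Nat.coprime_primes Nat.prime_two hq).2 (Ne.symm h)
      by_cases h3 : q = 3
      · subst h3
        decide
      · have h3' : Nat.Coprime 3 q := (Nat.coprime_primes Nat.prime_three hq).2 (Ne.symm h3)
        simp only [h, h3, if_false]
        have h36 : (36 : ℕ) = 2 ^ 2 * 3 ^ 2 := by norm_num
        rw [h36]
        exact Nat.Coprime.mul_left (Nat.Coprime.pow_left 2 hodd) (Nat.Coprime.pow_left 2 h3')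
  · intro M₁ q p _ _ hq hp hpq hp2 hqM hq2M hd
    refine H M₁ q p hq hp hpq hp2 hqM hq2M ?_ ?_
    · intro h
      by_cases h3 : q = 3
      · simpa [h, h3] using hd
      · have h36 : 36 ∣ M₁ := by simpa [h, h3] using hd
        exact Dvd.dvd.trans (by norm_num) h36
    · intro h3
      by_cases h : q = 2
      · simpa [h] using hd
      · have h36 : 36 ∣ M₁ := by simpa [h, h3] using hd
        exact Dvd.dvd.trans (by norm_num) h36

end Fermat.Agent.S36

end
end ZBS36_029_0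

/-! ### bundled: `Fermat.Agent.S36.Top` -/
section ZBS36_029_1

/-!
# S36 geometry (G36-K): the top-level wiring (deputy helper58)

`StmtCarayolKummer` (the ONLY open input of S36, `S36/Glue.lean`) from two Props:

* `StmtNormSquares`  (piece G-desc-N) : the norm squares `K₀ ↔ ℚ̄`;
* `StmtCarayolSmall` (piece G-top)    : (G36-K) over the small field `E₀ = ℚ̄^I` at the RIGID
  levels (`S36Rigid M q`: `q ∤ M`, `4 ∣ M` for `q` odd, `9 ∣ M` for `q = 2`), in the form
  `StmtCarayolSmallAt` of `S36/PlanGeo.lean`.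

`stmtCarayolKummer_of : StmtNormSquares → StmtCarayolSmall → StmtCarayolKummer`
(G-aux = `s36aux_kummer_of_rigid`, helper52; G-desc = `s36_kummerAt_of_small`, helper58).
-/

set_option autoImplicit false
set_option linter.unusedSectionVars false
set_option linter.style.haveILetI false

noncomputable section

open ModularCurve AlgebraicCurve Fermat.Agent.INJ Fermat.Agent.UNIP Fermat.Agent.STB
open Fermat.Agent.ES Fermat.Agent.ES.G2

namespace Fermat.Agent.S36

/-- the rigid levels: `q ∤ M`, and `X₀(M)` has no elliptic points (`4 ∣ M` for `q` odd,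
`9 ∣ M` for `q = 2`) -/
def S36Rigid (M q : ℕ) : Prop := ¬ q ∣ M ∧ (q ≠ 2 → 4 ∣ M) ∧ (q = 2 → 9 ∣ M)

/-- **G-desc-N**: the norm squares `K₀ ↔ ℚ̄`. -/
def StmtNormSquares : Prop :=
  ∀ (M q : ℕ) [NeZero M] [NeZero q], q.Prime → ¬ q ∣ M →
    ∀ K₀ : IntermediateField ℚ NfQb, S36NormSquares M q K₀

/-- **G-top**: (G36-K) over the small field at the rigid levels. -/
def StmtCarayolSmall : Prop :=
  ∀ (M q p : ℕ) [NeZero M] [NeZero q], q.Prime → p.Prime → p ≠ q → p ≠ 2 → S36Rigid M q →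
    ∀ A : ValuationSubring Qb, A.LiesOverPrime q → StmtCarayolSmallAt M q p A

theorem s36_kummerAt_congr {M₁ M₂ : ℕ} [NeZero M₁] [NeZero M₂] (q p : ℕ) [NeZero q]
    (e : M₁ = M₂) (h : StmtCarayolKummerAt M₁ q p) : StmtCarayolKummerAt M₂ q p := by
  subst e
  exact h

/-- **the wiring of the geometry of S36** -/
theorem stmtCarayolKummer_of (hns : StmtNormSquares) (hsmall : StmtCarayolSmall) :
    StmtCarayolKummer := by
  apply s36aux_kummer_of_rigid
  intro M₁ q p _ _ hq hp hpq hp2 hqM₁ hq2 h4 h9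
  obtain ⟨M, hM⟩ := hqM₁
  have hM0 : M ≠ 0 := by
    rintro rfl
    exact NeZero.ne M₁ (by rw [hM, mul_zero])
  haveI : NeZero M := ⟨hM0⟩
  have hqM : ¬ q ∣ M := by
    rintro ⟨k, rfl⟩
    apply hq2
    rw [hM]
    exact ⟨k, by ring⟩
  have e : M * q = M₁ := by rw [hM, mul_comm]
  have hrig : S36Rigid M q := by
    refine ⟨hqM, fun h2 => ?_, fun h2 => ?_⟩
    · have h := h4 h2
      rw [hM] at h
      have hodd : Nat.Coprime 4 q := by
        have : Nat.Coprime 2 q := by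
          rw [Nat.coprime_primes Nat.prime_two hq]
          exact fun h => h2 h.symm
        exact Nat.Coprime.pow_left 2 this
      exact hodd.dvd_of_dvd_mul_left h
    · have h := h9 h2
      rw [hM, h2] at h
      exact (by decide : Nat.Coprime 9 2).dvd_of_dvd_mul_left h
  refine s36_kummerAt_congr q p e ?_
  exact s36_kummerAt_of_small M q p hq hp.ne_zero
    (fun A _ => hns M q hq hqM (beta0Field A))
    (fun A hA => hsmall M q p hq hp hpq hp2 hrig A hA)

end Fermat.Agent.S36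

end
end ZBS36_029_1

/-! ### bundled: `Fermat.Agent.S36.NormSquares` -/
section ZBS36_029_2

/-!
# S36 G-desc-N: `StmtNormSquares` (the Prop of `S36/Top.lean`) is proved

`stmtNormSquares : StmtNormSquares`, hence
`stmtCarayolKummer_of_small : StmtCarayolSmall → StmtCarayolKummer`.
-/

set_option autoImplicit false

noncomputable section

namespace Fermat.Agent.S36

/-- **G-desc-N**: the norm squares `K₀ ↔ ℚ̄` at level `M q²`, for `α` and `β`. -/
theorem stmtNormSquares : StmtNormSquares := fun _ _ _ _ hq hqM K₀ =>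
  ⟨s36dn_alpha K₀ hq, s36dn_beta K₀ hq hqM⟩

/-- the geometry of S36 from (G36-K) over the small field at the rigid levels -/
theorem stmtCarayolKummer_of_small (hsmall : StmtCarayolSmall) : StmtCarayolKummer :=
  stmtCarayolKummer_of stmtNormSquares hsmall

end Fermat.Agent.S36

end
end ZBS36_029_2

/-! ### bundled: `Fermat.Agent.S36.SmallOf` -/
section ZBS36_029_3

/-!
# S36 / G-top, the LAST wiring: `StmtCarayolSmall` from (I4) and (I6) (helper98)

At the concrete family `V = s36i1V M hq hA hqM hζ ιC h` (`S36/N2ValI1.lean`), for ANY choice of the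
primitive `q`-th root of unity `ζ ∈ ℚ̄`, of the embeddings `ιC : E₀ →+* ℂ`, `ιK : K →+* ℂ` and of
the expansion at the middle cusp `h`:

* `StmtS36Ng`  : (I4) the two norm–residue packages `NgDir` (helper20);
* `StmtS36Pts` : (I6) the point inputs `hpts` at every closed point of both charts;
* `stmtCarayolSmall_of : StmtS36Ng → StmtS36Pts → StmtCarayolSmall`;
* `stmtCarayolKummer_of_ng_pts : StmtS36Ng → StmtS36Pts → StmtCarayolKummer`
  (`= the only open input of S36`, `S36/Glue.lean : s36_result_of_kummer`);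
* `stmtS36Ng : StmtS36Ng` (helper20's `s36nr_Dalpha`, `s36nr_Dbeta`), hence
  **`stmtCarayolKummer_of_pts : StmtS36Pts → StmtCarayolKummer`**: ONLY (I6) is left.
-/

set_option autoImplicit false
set_option linter.style.haveILetI false
set_option linter.unusedSectionVars false
set_option linter.unusedVariables false
set_option linter.constructorNameAsVariable false

noncomputable section

namespace Fermat.Agent.S36

open ModularCurve AlgebraicCurve Fermat.Agent.ES Fermat.Agent.ES.G2 Fermat.Agent.INJ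
open Fermat.Agent.UNIP Fermat.Agent.STB IntermediateField

/-- **(I4)** at the concrete family: the two norm–residue packages. -/
def StmtS36Ng : Prop :=
  ∀ (M q : ℕ) [NeZero M] [NeZero q] (hq : q.Prime) (hqM : ¬ q ∣ M)
    (A : ValuationSubring (AlgebraicClosure ℚ)) (hA : A.LiesOverPrime q)
    [IsDiscreteValuationRing ↥(beta0Ring A (beta0Field A))]
    (ζ : AlgebraicClosure ℚ) (hζ : IsPrimitiveRoot ζ q)
    (ιC : ↥(beta0Field A) →+* ℂ) (ιK : ↥(s36n2bK A ζ) →+* ℂ)
    (h : S36MidEmb ↥(s36n2bK A ζ) q M (s36i1ZK (A := A) hq hζ)),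
    ∃ Winf W0 : ValuationSubring ↥(modularFunctionFieldFullC ↥(beta0Field A) (M * q)),
      NgDir (s36Alpha ↥(beta0Field A) M q) (s36NormAlpha ↥(beta0Field A) M q) Winf
        (s36i1V M hq hA hqM hζ ιC h S36Comp.a) (s36i1V M hq hA hqM hζ ιC h S36Comp.c)
        (s36i1V M hq hA hqM hζ ιC h S36Comp.b) (q - 1) q ∧
      NgDir (s36Beta ↥(beta0Field A) M q) (s36NormBeta ↥(beta0Field A) M q) W0
        (s36i1V M hq hA hqM hζ ιC h S36Comp.b) (s36i1V M hq hA hqM hζ ιC h S36Comp.c)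
        (s36i1V M hq hA hqM hζ ιC h S36Comp.a) (q - 1) q

/-- **(I6)** at the concrete family: the point inputs at every closed point of both charts
`j`, `1 / j`, at the rigid levels. -/
def StmtS36Pts : Prop :=
  ∀ (M q p : ℕ) [NeZero M] [NeZero q] (hq : q.Prime) (hp : p.Prime) (hpq : p ≠ q) (hp2 : p ≠ 2)
    (hR : S36Rigid M q)
    (A : ValuationSubring (AlgebraicClosure ℚ)) (hA : A.LiesOverPrime q)
    [IsDiscreteValuationRing ↥(beta0Ring A (beta0Field A))]
    (ζ : AlgebraicClosure ℚ) (hζ : IsPrimitiveRoot ζ q)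
    (ιC : ↥(beta0Field A) →+* ℂ) (ιK : ↥(s36n2bK A ζ) →+* ℂ)
    (h : S36MidEmb ↥(s36n2bK A ζ) q M (s36i1ZK (A := A) hq hζ)),
    ∀ (r : ℕ) (ζm : ↥(beta0Ring A (beta0Field A))), IsPrimitiveRoot ζm (p ^ r) →
      ∀ i : AtPt (F := ↥(modularFunctionFieldFullC ↥(beta0Field A) (M * q * q)))
          ((q : ℕ) : ↥(beta0Ring A (beta0Field A))) (bgJ ↥(beta0Field A) (M * q * q)) ⊕
        AtPt (F := ↥(modularFunctionFieldFullC ↥(beta0Field A) (M * q * q)))
          ((q : ℕ) : ↥(beta0Ring A (beta0Field A))) (bgJ ↥(beta0Field A) (M * q * q))⁻¹,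
      @S36PtInput ↥(modularFunctionFieldFullC ↥(beta0Field A) (M * q))
        ↥(modularFunctionFieldFullC ↥(beta0Field A) (M * q * q)) _ _ S36Comp
        (s36Hor ↥(beta0Field A) (p ^ r)) (p ^ r)
        (s36Alpha ↥(beta0Field A) M q) (s36Beta ↥(beta0Field A) M q)
        (s36NormAlpha ↥(beta0Field A) M q) (s36NormBeta ↥(beta0Field A) M q)
        (algebraMap ↥(beta0Field A) ↥(modularFunctionFieldFullC ↥(beta0Field A) (M * q))
          (algebraMap ↥(beta0Ring A (beta0Field A)) ↥(beta0Field A) ζm))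
        (s36i1V M hq hA hR.1 hζ ιC h) S36Comp.a S36Comp.b S36Comp.c
        (atO ((q : ℕ) : ↥(beta0Ring A (beta0Field A))) (bgJ ↥(beta0Field A) (M * q * q)) i)
        (stb_atO_isLocalRing (π := ((q : ℕ) : ↥(beta0Ring A (beta0Field A))))
          (bgJ ↥(beta0Field A) (M * q * q)) i)
        (atInc ((q : ℕ) : ↥(beta0Ring A (beta0Field A))) (bgJ ↥(beta0Field A) (M * q * q))
          (s36i1V M hq hA hR.1 hζ ιC h) i)

theorem s36so_rigid_h2 {M q : ℕ} (hR : S36Rigid M q) : q = 2 → 3 ∣ M := fun h2 =>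
  dvd_trans (by decide : 3 ∣ 9) (hR.2.2 h2)

theorem s36so_rigid_h3 {M q : ℕ} (hR : S36Rigid M q) : q = 3 → 2 ∣ M := fun h3 =>
  dvd_trans (by decide : 2 ∣ 4) (hR.2.1 (by omega))

/-- **G-top**: `StmtCarayolSmall` from (I4) and (I6). -/
theorem stmtCarayolSmall_of (h4 : StmtS36Ng) (h6 : StmtS36Pts) : StmtCarayolSmall := by
  intro M q p _ _ hq hp hpq hp2 hR A hA
  haveI := beta0Ring_isDVR_base (A := A) hq hA
  obtain ⟨ζ, hζ⟩ := HasEnoughRootsOfUnity.exists_primitiveRoot (AlgebraicClosure ℚ) q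
  obtain ⟨ιC⟩ := s36dn_exists_emb (beta0Field A)
  obtain ⟨ιK⟩ := s36dn_exists_emb (s36n2bK A ζ)
  have h : S36MidEmb ↥(s36n2bK A ζ) q M (s36i1ZK (A := A) hq hζ) :=
    s36midEmb ↥(s36n2bK A ζ) ιK hq hR.1 (s36i1ZK hq hζ) (s36i1ZK_isPrimitiveRoot hq hζ)
  obtain ⟨Winf, W0, Dα, Dβ⟩ := h4 M q hq hR.1 A hA ζ hζ ιC ιK h
  exact s36sk_small M hq hA hR.1 hζ ιC h hp hpq (s36so_rigid_h2 hR) (s36so_rigid_h3 hR) ιK
    Winf W0 Dα Dβ (h6 M q p hq hp hpq hp2 hR A hA ζ hζ ιC ιK h)

/-- **the only open input of S36** (`StmtCarayolKummer`) from (I4) and (I6). -/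
theorem stmtCarayolKummer_of_ng_pts (h4 : StmtS36Ng) (h6 : StmtS36Pts) : StmtCarayolKummer :=
  stmtCarayolKummer_of_small (stmtCarayolSmall_of h4 h6)

/-- **(I4)** is proved (helper20, `S36/NormResI4.lean`). -/
theorem stmtS36Ng : StmtS36Ng := fun M q _ _ hq hqM A hA _ ζ hζ ιC ιK h =>
  ⟨s36nrWinf M hq hA, s36nrW0 M hq hA hqM ιC, s36nr_Dalpha M hq hA hqM hζ ιC ιK h,
    s36nr_Dbeta M hq hA hqM hζ ιC ιK h⟩

/-- **G-top** from (I6) only. -/
theorem stmtCarayolSmall_of_pts (h6 : StmtS36Pts) : StmtCarayolSmall :=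
  stmtCarayolSmall_of stmtS36Ng h6

/-- **the only open input of S36** from (I6) only. -/
theorem stmtCarayolKummer_of_pts (h6 : StmtS36Pts) : StmtCarayolKummer :=
  stmtCarayolKummer_of_small (stmtCarayolSmall_of_pts h6)

end Fermat.Agent.S36

end


end ZBS36_029_3

/-! ### bundled: `Fermat.Agent.S36.PtsPlan` -/
section ZBS36_029_4
/-
S36 (Carayol at `q² ∥ M`), geometric clause: PLAN of (I6) (helper31).

`StmtS36Pts` (`S36/SmallOf.lean`, helper98) is the LAST open statement of S36.  It is split here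
into six named statements, one per owner, and proved from them:

* `StmtS36PtsUniq`     : chart maps `gα, gβ : B′ → B` and the uniqueness statements (Uα), (Uβ);
* `StmtS36PtsOne c₁`   : `S36PtInput` at the closed points of the chart `j` lying on the
                         component `c₁` only (`c₁ = a, b, c`);
* `StmtS36PtsTriple`   : `S36PtInput` at the triple points of the chart `j`;
* `StmtS36PtsInf`      : `S36PtInput` at the closed points of the chart `1 / j` with `1 / j ∈ 𝔫`;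
* `stmtS36Pts_of`      : the six statements imply `StmtS36Pts`.
-/

set_option autoImplicit false
set_option linter.unusedSectionVars false
set_option linter.unusedVariables false
set_option linter.style.haveILetI false
set_option linter.constructorNameAsVariable false

noncomputable section

namespace Fermat.Agent.S36

open ModularCurve AlgebraicCurve Fermat.Agent.ES Fermat.Agent.ES.G2 Fermat.Agent.INJ
open Fermat.Agent.UNIP Fermat.Agent.STB IntermediateField

/-- **(I6)(e-U)**: the chart maps along `α`, `β` and the uniqueness of the point over its image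
at the points of `C_b` (along `α`) and of `C_a` (along `β`). -/
def StmtS36PtsUniq : Prop :=
  ∀ (M q : ℕ) [NeZero M] [NeZero q] (hq : q.Prime) (hR : S36Rigid M q)
    (A : ValuationSubring (AlgebraicClosure ℚ)) (hA : A.LiesOverPrime q)
    [IsDiscreteValuationRing ↥(beta0Ring A (beta0Field A))]
    (ζ : AlgebraicClosure ℚ) (hζ : IsPrimitiveRoot ζ q)
    (ιC : ↥(beta0Field A) →+* ℂ) (ιK : ↥(s36n2bK A ζ) →+* ℂ)
    (h : S36MidEmb ↥(s36n2bK A ζ) q M (s36i1ZK (A := A) hq hζ)),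
    ∃ gα gβ : ↥(zchClosure (A₀ := ↥(beta0Ring A (beta0Field A)))
        ({bgJ ↥(beta0Field A) (M * q)} : Set ↥(modularFunctionFieldFullC ↥(beta0Field A) (M * q)))) →+*
      ↥(zchClosure (A₀ := ↥(beta0Ring A (beta0Field A)))
        ({bgJ ↥(beta0Field A) (M * q * q)} : Set ↥(modularFunctionFieldFullC ↥(beta0Field A) (M * q * q)))),
      gα.IsIntegral ∧ gβ.IsIntegral ∧
      (∀ r, ((gα r : ↥(zchClosure (A₀ := ↥(beta0Ring A (beta0Field A)))
        ({bgJ ↥(beta0Field A) (M * q * q)} : Set ↥(modularFunctionFieldFullC ↥(beta0Field A) (M * q * q))))) : ↥(modularFunctionFieldFullC ↥(beta0Field A) (M * q * q))) =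
        s36Alpha ↥(beta0Field A) M q (r : ↥(modularFunctionFieldFullC ↥(beta0Field A) (M * q)))) ∧
      (∀ r, ((gβ r : ↥(zchClosure (A₀ := ↥(beta0Ring A (beta0Field A)))
        ({bgJ ↥(beta0Field A) (M * q * q)} : Set ↥(modularFunctionFieldFullC ↥(beta0Field A) (M * q * q))))) : ↥(modularFunctionFieldFullC ↥(beta0Field A) (M * q * q))) =
        s36Beta ↥(beta0Field A) M q (r : ↥(modularFunctionFieldFullC ↥(beta0Field A) (M * q)))) ∧
      (∀ 𝔫 : Ideal ↥(zchClosure (A₀ := ↥(beta0Ring A (beta0Field A)))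
        ({bgJ ↥(beta0Field A) (M * q * q)} : Set ↥(modularFunctionFieldFullC ↥(beta0Field A) (M * q * q)))), 𝔫.IsPrime →
        (∀ b : ↥(zchClosure (A₀ := ↥(beta0Ring A (beta0Field A)))
        ({bgJ ↥(beta0Field A) (M * q * q)} : Set ↥(modularFunctionFieldFullC ↥(beta0Field A) (M * q * q)))),
          (b : ↥(modularFunctionFieldFullC ↥(beta0Field A) (M * q * q))) ∈
            (s36i1V M hq hA hR.1 hζ ιC h S36Comp.b).nonunits → b ∈ 𝔫) →
        ∀ 𝔫₂ : Ideal ↥(zchClosure (A₀ := ↥(beta0Ring A (beta0Field A)))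
        ({bgJ ↥(beta0Field A) (M * q * q)} : Set ↥(modularFunctionFieldFullC ↥(beta0Field A) (M * q * q)))), 𝔫₂.IsPrime → 𝔫₂.comap gα = 𝔫.comap gα → 𝔫₂ = 𝔫) ∧
      (∀ 𝔫 : Ideal ↥(zchClosure (A₀ := ↥(beta0Ring A (beta0Field A)))
        ({bgJ ↥(beta0Field A) (M * q * q)} : Set ↥(modularFunctionFieldFullC ↥(beta0Field A) (M * q * q)))), 𝔫.IsPrime →
        (∀ b : ↥(zchClosure (A₀ := ↥(beta0Ring A (beta0Field A)))
        ({bgJ ↥(beta0Field A) (M * q * q)} : Set ↥(modularFunctionFieldFullC ↥(beta0Field A) (M * q * q)))),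
          (b : ↥(modularFunctionFieldFullC ↥(beta0Field A) (M * q * q))) ∈
            (s36i1V M hq hA hR.1 hζ ιC h S36Comp.a).nonunits → b ∈ 𝔫) →
        ∀ 𝔫₂ : Ideal ↥(zchClosure (A₀ := ↥(beta0Ring A (beta0Field A)))
        ({bgJ ↥(beta0Field A) (M * q * q)} : Set ↥(modularFunctionFieldFullC ↥(beta0Field A) (M * q * q)))), 𝔫₂.IsPrime → 𝔫₂.comap gβ = 𝔫.comap gβ → 𝔫₂ = 𝔫)

/-- **(I6)(a),(b)**: the closed points of the chart `j` lying on the component `c₁` only. -/
def StmtS36PtsOne (c₁ : S36Comp) : Prop :=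
  ∀ (M q p : ℕ) [NeZero M] [NeZero q] (hq : q.Prime) (hp : p.Prime) (hpq : p ≠ q) (hp2 : p ≠ 2)
    (hR : S36Rigid M q)
    (A : ValuationSubring (AlgebraicClosure ℚ)) (hA : A.LiesOverPrime q)
    [IsDiscreteValuationRing ↥(beta0Ring A (beta0Field A))]
    (ζ : AlgebraicClosure ℚ) (hζ : IsPrimitiveRoot ζ q)
    (ιC : ↥(beta0Field A) →+* ℂ) (ιK : ↥(s36n2bK A ζ) →+* ℂ)
    (h : S36MidEmb ↥(s36n2bK A ζ) q M (s36i1ZK (A := A) hq hζ)),
    ∀ (r : ℕ) (ζm : ↥(beta0Ring A (beta0Field A))), IsPrimitiveRoot ζm (p ^ r) →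
      ∀ 𝔫 : AtPt (F := ↥(modularFunctionFieldFullC ↥(beta0Field A) (M * q * q)))
          ((q : ℕ) : ↥(beta0Ring A (beta0Field A))) (bgJ ↥(beta0Field A) (M * q * q)),
        atThrough 𝔫 (s36i1V M hq hA hR.1 hζ ιC h c₁) →
        (∀ c, atThrough 𝔫 (s36i1V M hq hA hR.1 hζ ιC h c) → c = c₁) →
        @S36PtInput ↥(modularFunctionFieldFullC ↥(beta0Field A) (M * q))
          ↥(modularFunctionFieldFullC ↥(beta0Field A) (M * q * q)) _ _ S36Comp
          (s36Hor ↥(beta0Field A) (p ^ r)) (p ^ r)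
          (s36Alpha ↥(beta0Field A) M q) (s36Beta ↥(beta0Field A) M q)
          (s36NormAlpha ↥(beta0Field A) M q) (s36NormBeta ↥(beta0Field A) M q)
          (algebraMap ↥(beta0Field A) ↥(modularFunctionFieldFullC ↥(beta0Field A) (M * q))
            (algebraMap ↥(beta0Ring A (beta0Field A)) ↥(beta0Field A) ζm))
          (s36i1V M hq hA hR.1 hζ ιC h) S36Comp.a S36Comp.b S36Comp.c
          (atO ((q : ℕ) : ↥(beta0Ring A (beta0Field A))) (bgJ ↥(beta0Field A) (M * q * q)) (Sum.inl 𝔫))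
          (stb_atO_isLocalRing (π := ((q : ℕ) : ↥(beta0Ring A (beta0Field A))))
            (bgJ ↥(beta0Field A) (M * q * q)) (Sum.inl 𝔫))
          (atInc ((q : ℕ) : ↥(beta0Ring A (beta0Field A))) (bgJ ↥(beta0Field A) (M * q * q))
            (s36i1V M hq hA hR.1 hζ ιC h) (Sum.inl 𝔫))

/-- **(I6)(c)**: the triple points of the chart `j`. -/
def StmtS36PtsTriple : Prop :=
  ∀ (M q p : ℕ) [NeZero M] [NeZero q] (hq : q.Prime) (hp : p.Prime) (hpq : p ≠ q) (hp2 : p ≠ 2)
    (hR : S36Rigid M q)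
    (A : ValuationSubring (AlgebraicClosure ℚ)) (hA : A.LiesOverPrime q)
    [IsDiscreteValuationRing ↥(beta0Ring A (beta0Field A))]
    (ζ : AlgebraicClosure ℚ) (hζ : IsPrimitiveRoot ζ q)
    (ιC : ↥(beta0Field A) →+* ℂ) (ιK : ↥(s36n2bK A ζ) →+* ℂ)
    (h : S36MidEmb ↥(s36n2bK A ζ) q M (s36i1ZK (A := A) hq hζ)),
    ∀ (r : ℕ) (ζm : ↥(beta0Ring A (beta0Field A))), IsPrimitiveRoot ζm (p ^ r) →
      ∀ 𝔫 : AtPt (F := ↥(modularFunctionFieldFullC ↥(beta0Field A) (M * q * q)))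
          ((q : ℕ) : ↥(beta0Ring A (beta0Field A))) (bgJ ↥(beta0Field A) (M * q * q)),
        (∀ c, atThrough 𝔫 (s36i1V M hq hA hR.1 hζ ιC h c)) →
        @S36PtInput ↥(modularFunctionFieldFullC ↥(beta0Field A) (M * q))
          ↥(modularFunctionFieldFullC ↥(beta0Field A) (M * q * q)) _ _ S36Comp
          (s36Hor ↥(beta0Field A) (p ^ r)) (p ^ r)
          (s36Alpha ↥(beta0Field A) M q) (s36Beta ↥(beta0Field A) M q)
          (s36NormAlpha ↥(beta0Field A) M q) (s36NormBeta ↥(beta0Field A) M q)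
          (algebraMap ↥(beta0Field A) ↥(modularFunctionFieldFullC ↥(beta0Field A) (M * q))
            (algebraMap ↥(beta0Ring A (beta0Field A)) ↥(beta0Field A) ζm))
          (s36i1V M hq hA hR.1 hζ ιC h) S36Comp.a S36Comp.b S36Comp.c
          (atO ((q : ℕ) : ↥(beta0Ring A (beta0Field A))) (bgJ ↥(beta0Field A) (M * q * q)) (Sum.inl 𝔫))
          (stb_atO_isLocalRing (π := ((q : ℕ) : ↥(beta0Ring A (beta0Field A))))
            (bgJ ↥(beta0Field A) (M * q * q)) (Sum.inl 𝔫))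
          (atInc ((q : ℕ) : ↥(beta0Ring A (beta0Field A))) (bgJ ↥(beta0Field A) (M * q * q))
            (s36i1V M hq hA hR.1 hζ ιC h) (Sum.inl 𝔫))

/-- **(I6)(d)**: the closed points at `j = ∞` (chart `1 / j`, `1 / j ∈ 𝔫`). -/
def StmtS36PtsInf : Prop :=
  ∀ (M q p : ℕ) [NeZero M] [NeZero q] (hq : q.Prime) (hp : p.Prime) (hpq : p ≠ q) (hp2 : p ≠ 2)
    (hR : S36Rigid M q)
    (A : ValuationSubring (AlgebraicClosure ℚ)) (hA : A.LiesOverPrime q)
    [IsDiscreteValuationRing ↥(beta0Ring A (beta0Field A))]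
    (ζ : AlgebraicClosure ℚ) (hζ : IsPrimitiveRoot ζ q)
    (ιC : ↥(beta0Field A) →+* ℂ) (ιK : ↥(s36n2bK A ζ) →+* ℂ)
    (h : S36MidEmb ↥(s36n2bK A ζ) q M (s36i1ZK (A := A) hq hζ)),
    ∀ (r : ℕ) (ζm : ↥(beta0Ring A (beta0Field A))), IsPrimitiveRoot ζm (p ^ r) →
      ∀ 𝔫 : AtPt (F := ↥(modularFunctionFieldFullC ↥(beta0Field A) (M * q * q)))
          ((q : ℕ) : ↥(beta0Ring A (beta0Field A))) (bgJ ↥(beta0Field A) (M * q * q))⁻¹,
        (⟨(bgJ ↥(beta0Field A) (M * q * q))⁻¹, s36pc_self_mem (bgJ ↥(beta0Field A) (M * q * q))⁻¹⟩ :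
          ↥(zchClosure (A₀ := ↥(beta0Ring A (beta0Field A)))
            ({(bgJ ↥(beta0Field A) (M * q * q))⁻¹} : Set ↥(modularFunctionFieldFullC ↥(beta0Field A) (M * q * q))))) ∈ 𝔫.1 →
        @S36PtInput ↥(modularFunctionFieldFullC ↥(beta0Field A) (M * q))
          ↥(modularFunctionFieldFullC ↥(beta0Field A) (M * q * q)) _ _ S36Comp
          (s36Hor ↥(beta0Field A) (p ^ r)) (p ^ r)
          (s36Alpha ↥(beta0Field A) M q) (s36Beta ↥(beta0Field A) M q)
          (s36NormAlpha ↥(beta0Field A) M q) (s36NormBeta ↥(beta0Field A) M q)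
          (algebraMap ↥(beta0Field A) ↥(modularFunctionFieldFullC ↥(beta0Field A) (M * q))
            (algebraMap ↥(beta0Ring A (beta0Field A)) ↥(beta0Field A) ζm))
          (s36i1V M hq hA hR.1 hζ ιC h) S36Comp.a S36Comp.b S36Comp.c
          (atO ((q : ℕ) : ↥(beta0Ring A (beta0Field A))) (bgJ ↥(beta0Field A) (M * q * q)) (Sum.inr 𝔫))
          (stb_atO_isLocalRing (π := ((q : ℕ) : ↥(beta0Ring A (beta0Field A))))
            (bgJ ↥(beta0Field A) (M * q * q)) (Sum.inr 𝔫))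
          (atInc ((q : ℕ) : ↥(beta0Ring A (beta0Field A))) (bgJ ↥(beta0Field A) (M * q * q))
            (s36i1V M hq hA hR.1 hζ ιC h) (Sum.inr 𝔫))

/-- **(I6)** from its six pieces. -/
theorem stmtS36Pts_of (hU : StmtS36PtsUniq) (ha : StmtS36PtsOne S36Comp.a)
    (hb : StmtS36PtsOne S36Comp.b) (hc : StmtS36PtsOne S36Comp.c) (ht : StmtS36PtsTriple)
    (hinf : StmtS36PtsInf) : StmtS36Pts := by
  intro M q p _ _ hq hp hpq hp2 hR A hA _ ζ hζ ιC ιK h r ζm hζm
  obtain ⟨gα, gβ, hgα, hgβ, hcα, hcβ, Uα, Uβ⟩ := hU M q hq hR A hA ζ hζ ιC ιK h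
  have hπ : Irreducible ((q : ℕ) : ↥(beta0Ring A (beta0Field A))) := beta0Ring_irreducible_q hq hA
  have ht0 : (bgJ ↥(beta0Field A) (M * q * q)) ≠ 0 := by
    intro h0
    exact bgConst_transcendental_bgJ ↥(beta0Field A) (M * q * q) (by rw [h0]; exact isAlgebraic_zero)
  refine s36pc_hpts hπ ht0 (s36i1V M hq hA hR.1 hζ ιC h)
    (s36i1c_hBV₁ M hq hA hR.1 hζ ιC h) (s36i1c_hBV₂ M hq hA hR.1 hζ ιC h) ?_ ?_
  · exact s36pf_h1 M hq hA hR.1 hζ ιC h
      (s36sk_hKR M hq hA hR.1 hζ ιC h (s36so_rigid_h2 hR) (s36so_rigid_h3 hR) ιK)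
      gα gβ hgα hgβ hcα hcβ Uα Uβ
      (ha M q p hq hp hpq hp2 hR A hA ζ hζ ιC ιK h r ζm hζm)
      (hb M q p hq hp hpq hp2 hR A hA ζ hζ ιC ιK h r ζm hζm)
      (hc M q p hq hp hpq hp2 hR A hA ζ hζ ιC ιK h r ζm hζm)
      (ht M q p hq hp hpq hp2 hR A hA ζ hζ ιC ιK h r ζm hζm)
  · exact hinf M q p hq hp hpq hp2 hR A hA ζ hζ ιC ιK h r ζm hζm

end Fermat.Agent.S36

end
end ZBS36_029_4
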