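/- GENERATED FILE (helper35, build-time optimisation, NOTES/ZB.md): verbatim concatenation of the modules
   Fermat.Agent.RT.K6.DUfd
   Fermat.Agent.RT.K6.DLFAbs
   Fermat.Agent.RT.K6.DLFPt
   Fermat.Agent.RT.K6.DLFChart
   Fermat.Agent.RT.K6.DLFBridge
   Fermat.Agent.RT.K6.DLFConc
   Fermat.Agent.R38.TresMonoFixNorm
   Fermat.Agent.R38.TresOgg
   Do not edit; do not import together with these modules. -/
import Mathlib
import Fermat.Agent.ZB.S36_003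
import Fermat.Agent.ZB.S36_005
import Fermat.Agent.ZB.STB_003
import Fermat.Agent.ZB.S36_009
import Fermat.Agent.ZB.UNIP_010
import Fermat.Agent.ZB.INJ_031
import Fermat.Agent.ZB.Common_003
import Fermat.Agent.ZB.UNIP_006
import Fermat.Agent.ZB.STB_004
import Fermat.Agent.ZB.UNIP_014
import Fermat.Agent.ZB.ES_001
import Fermat.Agent.ZB.INJ_005
import Fermat.Agent.ZB.S36_002

/-! ### bundled: `Fermat.Agent.RT.K6.DUfd` -/
section ZBRT_001_0
/-
K-machine, piece K6, piece D-UFD (helper4): primes of a two-generator local ring are principal.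

Pure algebra (Mathlib only).  `S` a noetherian local ring whose maximal ideal is generated by two
elements `X`, `Y` (a closed point of a regular arithmetic surface: crossing point `XY = π·unit`,
or a smooth point `X = π`).  Every prime `𝔮` of `S` not containing `X` is principal.
No Auslander–Buchsbaum: the image of `𝔮` in `S / X` (local, maximal ideal `(Ȳ)`) is `(Ȳ ^ k)`,
and Nakayama lifts the generator.

* `rtk6d_ideal_of_principal_max` : in a noetherian local ring with `𝔪 = (t)` every ideal is `⊥`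
  or `(t ^ k)`.
* `rtk6d_principal_of_node`      : the statement above.
* `rtk6d_locGen_of_node`         : the element form for a chart `R` and a prime `𝔫` with
  `𝔫 R_𝔫 = (X, Y)`: for a prime `𝔮 ≤ 𝔫`, `X ∉ 𝔮`, there is `f ∈ 𝔮` with
  `∀ b ∈ 𝔮, ∃ u ∉ 𝔫, ∃ c, u * b = c * f`.
-/

set_option autoImplicit false
set_option linter.style.haveILetI false

namespace Fermat.Agent.RT.K6

open IsLocalRing

section Principal

variable {T : Type*} [CommRing T] [IsLocalRing T] [IsNoetherianRing T]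

/-- In a noetherian local ring whose maximal ideal is generated by `t`, every ideal is `⊥` or
generated by a power of `t`. -/
theorem rtk6d_ideal_of_principal_max (t : T) (ht : maximalIdeal T = Ideal.span {t})
    (I : Ideal T) : I = ⊥ ∨ ∃ k : ℕ, I = Ideal.span {t ^ k} := by
  by_cases hI : I = ⊥
  · exact Or.inl hI
  right
  -- there is `n` with `I ⊄ 𝔪 ^ n`
  have hex : ∃ n : ℕ, ¬ I ≤ maximalIdeal T ^ n := by
    by_contra hcon
    push Not at hcon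
    apply hI
    rw [eq_bot_iff]
    have := Ideal.iInf_pow_eq_bot_of_isLocalRing (maximalIdeal T) (by
      exact (maximalIdeal.isMaximal T).ne_top)
    rw [← this]
    exact le_iInf hcon
  classical
  set n := Nat.find hex with hn
  have hn1 : ¬ I ≤ maximalIdeal T ^ n := Nat.find_spec hex
  have hn0 : n ≠ 0 := by
    intro h0
    rw [h0, pow_zero, Ideal.one_eq_top] at hn1
    exact hn1 le_top
  obtain ⟨k, hk⟩ : ∃ k, n = k + 1 := ⟨n - 1, by omega⟩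
  have hle : I ≤ maximalIdeal T ^ k := by
    by_contra h
    exact Nat.find_min hex (by omega : k < n) h
  refine ⟨k, le_antisymm ?_ ?_⟩
  · rw [ht, Ideal.span_singleton_pow] at hle
    exact hle
  · -- an element of `I` outside `𝔪 ^ (k + 1)`
    obtain ⟨x, hxI, hx⟩ := SetLike.not_le_iff_exists.mp hn1
    have hxk := hle hxI
    rw [ht, Ideal.span_singleton_pow, Ideal.mem_span_singleton] at hxk
    obtain ⟨a, rfl⟩ := hxk
    have ha : IsUnit a := by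
      by_contra hau
      apply hx
      have ham : a ∈ maximalIdeal T := (mem_maximalIdeal a).2 hau
      rw [hk, pow_succ]
      exact Ideal.mul_mem_mul (by
        rw [ht, Ideal.span_singleton_pow]
        exact Ideal.mem_span_singleton_self _) ham
    rw [Ideal.span_singleton_le_iff_mem]
    obtain ⟨u, rfl⟩ := ha
    have : t ^ k = (↑u⁻¹ : T) * (t ^ k * ↑u) := by
      rw [mul_comm (t ^ k), ← mul_assoc, Units.inv_mul, one_mul]
    rw [this]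
    exact I.mul_mem_left _ hxI

end Principal

section Node

variable {S : Type*} [CommRing S] [IsLocalRing S] [IsNoetherianRing S]

/-- **D-UFD.**  `S` noetherian local with `𝔪 = (X, Y)`; a prime `𝔮` with `X ∉ 𝔮` is principal. -/
theorem rtk6d_principal_of_node (X Y : S) (hm : maximalIdeal S = Ideal.span {X, Y})
    (𝔮 : Ideal S) [h𝔮 : 𝔮.IsPrime] (hX : X ∉ 𝔮) : ∃ g ∈ 𝔮, 𝔮 = Ideal.span {g} := by
  have hXm : X ∈ maximalIdeal S := by
    rw [hm]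
    exact Ideal.subset_span (by simp)
  have hjac : maximalIdeal S ≤ Ideal.jacobson ⊥ := by
    rw [IsLocalRing.jacobson_eq_maximalIdeal ⊥ bot_ne_top]
  have hfg : (𝔮 : Submodule S S).FG := IsNoetherian.noetherian 𝔮
  -- the quotient `S / X`
  set J : Ideal S := Ideal.span {X} with hJ
  have hJne : J ≠ ⊤ := fun h => by
    have : X ∈ maximalIdeal S := hXm
    have h1 : (1 : S) ∈ J := by rw [h]; trivial
    rw [hJ, Ideal.mem_span_singleton] at h1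
    exact (mem_maximalIdeal X).1 this (isUnit_of_dvd_one h1)
  haveI : Nontrivial (S ⧸ J) := Ideal.Quotient.nontrivial_iff.mpr hJne
  haveI : IsLocalRing (S ⧸ J) :=
    IsLocalRing.of_surjective' (Ideal.Quotient.mk J) Ideal.Quotient.mk_surjective
  have hmq : maximalIdeal (S ⧸ J) = Ideal.span {Ideal.Quotient.mk J Y} := by
    apply le_antisymm
    · intro z hz
      obtain ⟨s, rfl⟩ := Ideal.Quotient.mk_surjective z
      have hs : s ∈ maximalIdeal S := by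
        rw [mem_maximalIdeal, mem_nonunits_iff] at hz ⊢
        exact fun hu => hz (hu.map _)
      rw [hm, Ideal.mem_span_pair] at hs
      obtain ⟨a, b, rfl⟩ := hs
      rw [map_add, map_mul, map_mul]
      have hX0 : Ideal.Quotient.mk J X = 0 :=
        Ideal.Quotient.eq_zero_iff_mem.mpr (Ideal.mem_span_singleton_self X)
      rw [hX0, mul_zero, zero_add]
      exact Ideal.mul_mem_left _ _ (Ideal.mem_span_singleton_self _)
    · rw [Ideal.span_singleton_le_iff_mem, mem_maximalIdeal, mem_nonunits_iff]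
      intro hu
      have hYm : Y ∈ maximalIdeal S := by
        rw [hm]
        exact Ideal.subset_span (by simp)
      -- `Y` would be a unit modulo `X`, so `1 ∈ (X, Y) = 𝔪`
      obtain ⟨z, hz⟩ := hu.exists_right_inv
      obtain ⟨s, rfl⟩ := Ideal.Quotient.mk_surjective z
      rw [← map_mul, ← map_one (Ideal.Quotient.mk J), Ideal.Quotient.eq, hJ,
        Ideal.mem_span_singleton] at hz
      obtain ⟨c, hc⟩ := hz
      have h1 : (1 : S) ∈ maximalIdeal S := by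
        have : (1 : S) = Y * s - X * c := by rw [← hc]; ring
        rw [this]
        exact Ideal.sub_mem _ (Ideal.mul_mem_right _ _ hYm) (Ideal.mul_mem_right _ _ hXm)
      exact (mem_maximalIdeal (1 : S)).1 h1 isUnit_one
  rcases rtk6d_ideal_of_principal_max (Ideal.Quotient.mk J Y) hmq (𝔮.map (Ideal.Quotient.mk J))
    with h0 | ⟨k, hk⟩
  · -- `𝔮 ⊆ (X)`, hence `𝔮 = X 𝔮`, hence `𝔮 = 0`
    refine ⟨0, 𝔮.zero_mem, ?_⟩
    have hle : (𝔮 : Submodule S S) ≤ ⊥ ⊔ maximalIdeal S • (𝔮 : Submodule S S) := by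
      intro b hb
      have hb0 : Ideal.Quotient.mk J b = 0 := by
        have : Ideal.Quotient.mk J b ∈ 𝔮.map (Ideal.Quotient.mk J) := Ideal.mem_map_of_mem _ hb
        rw [h0] at this
        exact this
      rw [Ideal.Quotient.eq_zero_iff_mem, hJ, Ideal.mem_span_singleton] at hb0
      obtain ⟨a, rfl⟩ := hb0
      have ha : a ∈ 𝔮 := (h𝔮.mem_or_mem hb).resolve_left hX
      rw [bot_sup_eq]
      exact Submodule.smul_mem_smul hXm ha
    have := Submodule.le_of_le_smul_of_le_jacobson_bot hfg hjac hle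
    rw [Ideal.span_singleton_eq_bot.mpr rfl]
    exact le_bot_iff.mp this
  · -- a generator `g ∈ 𝔮` lifting `Ȳ ^ k`
    have hYk : Ideal.Quotient.mk J Y ^ k ∈ 𝔮.map (Ideal.Quotient.mk J) := by
      rw [hk]
      exact Ideal.mem_span_singleton_self _
    rw [Ideal.mem_map_iff_of_surjective _ Ideal.Quotient.mk_surjective] at hYk
    obtain ⟨g, hg, hgY⟩ := hYk
    refine ⟨g, hg, le_antisymm ?_ ((Ideal.span_singleton_le_iff_mem _).mpr hg)⟩
    have hle : (𝔮 : Submodule S S) ≤ (Ideal.span {g} : Ideal S) ⊔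
        maximalIdeal S • (𝔮 : Submodule S S) := by
      intro b hb
      have hbm : Ideal.Quotient.mk J b ∈ Ideal.span {Ideal.Quotient.mk J Y ^ k} := by
        rw [← hk]
        exact Ideal.mem_map_of_mem _ hb
      rw [← hgY, Ideal.mem_span_singleton] at hbm
      obtain ⟨z, hz⟩ := hbm
      obtain ⟨c, rfl⟩ := Ideal.Quotient.mk_surjective z
      rw [← map_mul, Ideal.Quotient.eq, hJ, Ideal.mem_span_singleton] at hz
      obtain ⟨a, ha⟩ := hz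
      have hXa : X * a ∈ 𝔮 := by
        rw [← ha]
        exact 𝔮.sub_mem hb (𝔮.mul_mem_right _ hg)
      have haq : a ∈ 𝔮 := (h𝔮.mem_or_mem hXa).resolve_left hX
      have hb' : b = g * c + X * a := by rw [← ha]; ring
      rw [hb']
      exact Submodule.add_mem_sup (Ideal.mul_mem_right _ _ (Ideal.mem_span_singleton_self g))
        (Submodule.smul_mem_smul hXm haq)
    exact Submodule.le_of_le_smul_of_le_jacobson_bot hfg hjac hle

end Node

section Chart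

variable {R : Type*} [CommRing R] [IsNoetherianRing R]

/-- **D-UFD, element form.**  `𝔫` a prime of a noetherian ring `R`, locally generated by `X`,
`Y`; a prime `𝔮 ≤ 𝔫` with `X ∉ 𝔮` is locally (at `𝔫`) generated by one element `f`. -/
theorem rtk6d_locGen_of_node (𝔫 : Ideal R) [h𝔫 : 𝔫.IsPrime] (X Y : R) (hX𝔫 : X ∈ 𝔫)
    (hY𝔫 : Y ∈ 𝔫) (hgen : ∀ b ∈ 𝔫, ∃ u : R, u ∉ 𝔫 ∧ u * b ∈ Ideal.span {X, Y})
    (𝔮 : Ideal R) [h𝔮 : 𝔮.IsPrime] (hle : 𝔮 ≤ 𝔫) (hX : X ∉ 𝔮) :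
    ∃ f ∈ 𝔮, ∀ b ∈ 𝔮, ∃ u : R, u ∉ 𝔫 ∧ ∃ c : R, u * b = c * f := by
  set S := Localization.AtPrime 𝔫 with hS
  have hdisj : Disjoint (𝔫.primeCompl : Set R) (𝔮 : Set R) := by
    rw [Set.disjoint_left]
    intro x hx hxq
    exact hx (hle hxq)
  have hunit : ∀ u : R, u ∉ 𝔫 → IsUnit (algebraMap R S u) := fun u hu =>
    IsLocalization.map_units S (⟨u, hu⟩ : 𝔫.primeCompl)
  -- the maximal ideal of `S`
  have hm : maximalIdeal S = Ideal.span {algebraMap R S X, algebraMap R S Y} := by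
    rw [← Localization.AtPrime.map_eq_maximalIdeal]
    apply le_antisymm
    · rw [Ideal.map_le_iff_le_comap]
      intro b hb
      obtain ⟨u, hu, hub⟩ := hgen b hb
      rw [Ideal.mem_span_pair] at hub
      obtain ⟨α, β, hαβ⟩ := hub
      rw [Ideal.mem_comap]
      obtain ⟨v, hv⟩ := hunit u hu
      have e : algebraMap R S b = (↑v⁻¹ : S) * (algebraMap R S α * algebraMap R S X +
          algebraMap R S β * algebraMap R S Y) := by
        rw [← map_mul, ← map_mul, ← map_add, hαβ, map_mul, ← hv, ← mul_assoc, Units.inv_mul,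
          one_mul]
      rw [e]
      refine Ideal.mul_mem_left _ _ (Ideal.add_mem _ ?_ ?_)
      · exact Ideal.mul_mem_left _ _ (Ideal.subset_span (by simp))
      · exact Ideal.mul_mem_left _ _ (Ideal.subset_span (by simp))
    · rw [Ideal.span_le]
      intro z hz
      rcases hz with rfl | rfl
      · exact Ideal.mem_map_of_mem _ hX𝔫
      · exact Ideal.mem_map_of_mem _ hY𝔫
  -- the prime `𝔮 S`
  haveI h𝔮' : (𝔮.map (algebraMap R S)).IsPrime :=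
    IsLocalization.isPrime_of_isPrime_disjoint 𝔫.primeCompl S 𝔮 h𝔮 hdisj
  have hcomap : (𝔮.map (algebraMap R S)).comap (algebraMap R S) = 𝔮 :=
    IsLocalization.comap_map_of_isPrime_disjoint 𝔫.primeCompl S h𝔮 hdisj
  have hX' : algebraMap R S X ∉ 𝔮.map (algebraMap R S) := by
    intro h
    apply hX
    rw [← hcomap]
    exact h
  obtain ⟨g, hg, hgen'⟩ := rtk6d_principal_of_node (algebraMap R S X) (algebraMap R S Y) hm
    (𝔮.map (algebraMap R S)) hX'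
  -- `g = f / s`
  obtain ⟨⟨f, s⟩, hfs⟩ := IsLocalization.surj 𝔫.primeCompl g
  have hfs' : g * algebraMap R S (s : R) = algebraMap R S f := hfs
  have hf : f ∈ 𝔮 := by
    rw [← hcomap, Ideal.mem_comap, ← hfs']
    exact Ideal.mul_mem_right _ _ hg
  refine ⟨f, hf, fun b hb => ?_⟩
  have hb' : algebraMap R S b ∈ Ideal.span {g} := by
    rw [← hgen']
    exact Ideal.mem_map_of_mem _ hb
  rw [Ideal.mem_span_singleton] at hb'
  obtain ⟨z, hz⟩ := hb'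
  obtain ⟨⟨c, t⟩, hct⟩ := IsLocalization.surj 𝔫.primeCompl z
  have hct' : z * algebraMap R S (t : R) = algebraMap R S c := hct
  -- `(s t) b = c f` in `S`
  have e : algebraMap R S ((s : R) * (t : R) * b) = algebraMap R S (c * f) := by
    rw [map_mul, map_mul, map_mul, hz, ← hfs', ← hct']
    ring
  obtain ⟨v, hv⟩ := (IsLocalization.eq_iff_exists 𝔫.primeCompl S).mp e
  refine ⟨(v : R) * ((s : R) * (t : R)), ?_, (v : R) * c, ?_⟩
  · intro h
    rcases h𝔫.mem_or_mem h with h1 | h1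
    · exact v.2 h1
    · rcases h𝔫.mem_or_mem h1 with h2 | h2
      · exact s.2 h2
      · exact t.2 h2
  · rw [mul_assoc, mul_assoc (v : R) c f]
    exact hv

end Chart

end Fermat.Agent.RT.K6


end ZBRT_001_0

/-! ### bundled: `Fermat.Agent.RT.K6.DLFAbs` -/
section ZBRT_001_1
/-
K-machine, piece K6, piece D-LF-abs (helper80): the ABSTRACT half of the local factorisation (LF).

Pure algebra (Mathlib + `DUfd.lean` + the dictionary of `S36/N2PtsFac.lean`).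

* `rtk6lf_ufd` : a noetherian local domain `O` with `𝔪 = (X, Y)`, `X` a prime element, is a UFD
  (Kaplansky's criterion + `rtk6d_principal_of_node`).
* `rtk6lf_fac_tube`, `rtk6lf_fac` : `O` a UFD with fraction field `F ⊇ E`, `V c` (`thr c`) the components through the
  point, the DICTIONARY `S36n2pDict E O thr V`, `X`, `Y` prime elements such that every component
  through the point is the `X`-component or the `Y`-component.  If `y ∈ F^×` and `m ∣ ord_P y`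
  for every place `P` of `F / E`, then

      `y = ε · X ^ a · Y ^ b · γ ^ m`,   `ε ∈ O^×`, `a, b ∈ ℤ`, `γ ∈ F^×` a unit at every `V c`.

* `rtk6lf_val_X`, `rtk6lf_val_Y` : the exponents `a`, `b` are the valuations of `y` at the
  components (`X ∤ Y`, `Y ∤ X`).
* `rtk6lf_absorb` : if `m ∣ a` then `y = ε · Y ^ b · γ′ ^ m` (the form (LF) of `NOTES/RT-K6-D.md`).
-/

set_option autoImplicit false
set_option linter.style.haveILetI false
set_option linter.unusedSectionVars false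

namespace Fermat.Agent.RT.K6

open IsLocalRing AlgebraicCurve Fermat.Agent.S36

section UFD

variable {O : Type*} [CommRing O] [IsDomain O] [IsLocalRing O] [IsNoetherianRing O]

/-- A noetherian local domain whose maximal ideal is `(X, Y)` with `X` a prime element is
factorial. -/
theorem rtk6lf_ufd (X Y : O) (hm : maximalIdeal O = Ideal.span {X, Y}) (hX : Prime X) :
    UniqueFactorizationMonoid O := by
  refine UniqueFactorizationMonoid.iff_exists_prime_mem_of_isPrime.mpr ?_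
  intro I hI hIp
  by_cases hXI : X ∈ I
  · exact ⟨X, hXI, hX⟩
  · haveI := hIp
    obtain ⟨g, hgI, hg⟩ := rtk6d_principal_of_node X Y hm I hXI
    refine ⟨g, hgI, ?_⟩
    have hg0 : g ≠ 0 := by
      rintro rfl
      apply hI
      rw [hg]
      simp
    rw [← Ideal.span_singleton_prime hg0, ← hg]
    exact hIp

end UFD

section Fac

variable {E O F : Type*} [Field E] [CommRing O] [IsDomain O] [UniqueFactorizationMonoid O]
  [Field F] [Algebra O F] [IsFractionRing O F] [Algebra E F] {κ : Type*}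

omit [UniqueFactorizationMonoid O] in
theorem rtk6lf_map_ne_zero {z : O} (hz : z ≠ 0) : algebraMap O F z ≠ 0 := fun h0 =>
  hz ((IsFractionRing.injective O F) (by rw [h0, map_zero]))

omit [UniqueFactorizationMonoid O] [Field F] [Algebra O F] [IsFractionRing O F] in
/-- a prime element dividing a prime element divides conversely -/
theorem rtk6lf_dvd_symm {f g : O} (hf : Prime f) (hg : Prime g) (h : f ∣ g) : g ∣ f := by
  obtain ⟨c, hc⟩ := h
  rcases hg.irreducible.isUnit_or_isUnit hc with h1 | h1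
  · exact absurd h1 hf.not_isUnit
  · obtain ⟨u, rfl⟩ := h1
    refine ⟨(u⁻¹ : Oˣ), ?_⟩
    rw [hc, mul_assoc, Units.mul_inv, mul_one]

/-- the multiplicity of a HORIZONTAL prime in the numerator of a reduced fraction of `y` is
divisible by `m` -/
theorem rtk6lf_mult_dvd_num (m : ℕ) {y : F}
    (hhor : ∀ P : Place E F, (∀ x : O, algebraMap O F x ∈ P.toValuationSubring) →
      (m : ℤ) ∣ P.ord y)
    {a b : O} (hb0 : b ≠ 0) (hab : IsRelPrime a b)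
    (hyab : y * algebraMap O F b = algebraMap O F a)
    {f : O} (hf : Prime f)
    (hE : ∀ e : E, ∃ a b : O, ¬ f ∣ b ∧ algebraMap E F e * algebraMap O F b = algebraMap O F a)
    {n : ℕ} {a' : O} (ha : a = f ^ n * a') (ha' : ¬ f ∣ a') : m ∣ n := by
  rcases Nat.eq_zero_or_pos n with rfl | hn
  · exact dvd_zero m
  have hfb : ¬ f ∣ b := by
    intro hfb
    apply hf.not_isUnit
    refine hab ?_ hfb
    rw [ha]
    exact Dvd.dvd.mul_right (dvd_pow_self f hn.ne') _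
  have hbF : algebraMap O F b ≠ 0 := rtk6lf_map_ne_zero hb0
  have hy : y = algebraMap O F f ^ (n : ℤ) * (algebraMap O F a' / algebraMap O F b) := by
    have e : y = algebraMap O F a / algebraMap O F b := by
      rw [← hyab]; field_simp
    rw [e, ha, map_mul, map_pow, zpow_natCast]
    field_simp
  have hord := s36n2p_ord (E := E) f hf hE ha' hfb hy
  have hdvd := hhor (s36n2pPlace (E := E) f hf hE)
    (fun x => s36n2p_algebraMap_mem_loc (F := F) hf x)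
  rw [hord] at hdvd
  exact Int.natCast_dvd_natCast.mp hdvd

/-- the same for the denominator -/
theorem rtk6lf_mult_dvd_den (m : ℕ) {y : F}
    (hhor : ∀ P : Place E F, (∀ x : O, algebraMap O F x ∈ P.toValuationSubring) →
      (m : ℤ) ∣ P.ord y)
    {a b : O} (hab : IsRelPrime a b)
    (hyab : y * algebraMap O F b = algebraMap O F a)
    {f : O} (hf : Prime f)
    (hE : ∀ e : E, ∃ a b : O, ¬ f ∣ b ∧ algebraMap E F e * algebraMap O F b = algebraMap O F a)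
    {k : ℕ} {b' : O} (hb : b = f ^ k * b') (hb' : ¬ f ∣ b') : m ∣ k := by
  rcases Nat.eq_zero_or_pos k with rfl | hk
  · exact dvd_zero m
  have hfa : ¬ f ∣ a := by
    intro hfa
    apply hf.not_isUnit
    refine hab hfa ?_
    rw [hb]
    exact Dvd.dvd.mul_right (dvd_pow_self f hk.ne') _
  have hb'0 : b' ≠ 0 := fun h0 => hb' (by rw [h0]; exact dvd_zero f)
  have hf0 : algebraMap O F f ≠ 0 := rtk6lf_map_ne_zero hf.ne_zero
  have hb'F : algebraMap O F b' ≠ 0 := rtk6lf_map_ne_zero hb'0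
  have hy : y = algebraMap O F f ^ (-(k : ℤ)) * (algebraMap O F a / algebraMap O F b') := by
    have hbF : algebraMap O F b ≠ 0 := by
      rw [hb, map_mul, map_pow]
      exact mul_ne_zero (pow_ne_zero k hf0) hb'F
    have e : y = algebraMap O F a / algebraMap O F b := by
      rw [← hyab]; field_simp
    rw [e, hb, map_mul, map_pow, zpow_neg, zpow_natCast]
    field_simp
  have hord := s36n2p_ord (E := E) f hf hE hfa hb' hy
  have hdvd := hhor (s36n2pPlace (E := E) f hf hE)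
    (fun x => s36n2p_algebraMap_mem_loc (F := F) hf x)
  rw [hord] at hdvd
  exact Int.natCast_dvd_natCast.mp ((dvd_neg (a := (m : ℤ))).mp hdvd)

/-- splitting off the `X`-part and the `Y`-part of a nonzero element -/
theorem rtk6lf_split {X Y : O} (hX : Prime X) (hY : Prime Y) {a : O} (ha : a ≠ 0) :
    ∃ (i j : ℕ) (a' : O), a = X ^ i * Y ^ j * a' ∧ ¬ X ∣ a' ∧ ¬ Y ∣ a' := by
  obtain ⟨i, a₁, h1, h1'⟩ := s36n2p_exists_mult hX ha
  have ha₁ : a₁ ≠ 0 := fun h0 => h1' (by rw [h0]; exact dvd_zero X)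
  obtain ⟨j, a₂, h2, h2'⟩ := s36n2p_exists_mult hY ha₁
  refine ⟨i, j, a₂, ?_, ?_, h2'⟩
  · rw [h1, h2]; ring
  · intro h
    apply h1'
    rw [h2]
    exact Dvd.dvd.mul_left h _

variable (thr : κ → Prop) (V : κ → ValuationSubring F)

/-- an element of `O` prime to `X` and `Y` is a unit at every component through the point -/
theorem rtk6lf_val_one (hOV : ∀ c, thr c → ∀ x : O, algebraMap O F x ∈ V c) {X Y : O}
    (hvert : ∀ c, thr c → (∀ x : O, algebraMap O F x ∈ (V c).nonunits → X ∣ x) ∨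
      (∀ x : O, algebraMap O F x ∈ (V c).nonunits → Y ∣ x))
    {z : O} (hzX : ¬ X ∣ z) (hzY : ¬ Y ∣ z) (c : κ) (hc : thr c) :
    (V c).valuation (algebraMap O F z) = 1 := by
  refine le_antisymm (((V c).valuation_le_one_iff _).2 (hOV c hc z)) (not_lt.1 fun h => ?_)
  have hmem : algebraMap O F z ∈ (V c).nonunits := (ValuationSubring.mem_nonunits_iff (V c)).2 h
  rcases hvert c hc with h1 | h1
  · exact hzX (h1 z hmem)
  · exact hzY (h1 z hmem)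

/-- the primes of the part prime to `X`, `Y` of a reduced fraction are horizontal -/
theorem rtk6lf_horizontal (hdict : S36n2pDict E O thr V) {X Y : O}
    (hvert : ∀ c, thr c → (∀ x : O, algebraMap O F x ∈ (V c).nonunits → X ∣ x) ∨
      (∀ x : O, algebraMap O F x ∈ (V c).nonunits → Y ∣ x))
    {f : O} (hf : Prime f) (hfX : ¬ X ∣ f) (hfY : ¬ Y ∣ f) :
    ∀ e : E, ∃ a b : O, ¬ f ∣ b ∧ algebraMap E F e * algebraMap O F b = algebraMap O F a := by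
  rcases hdict f hf with ⟨c, hc, hfc, -⟩ | hE
  · exfalso
    rcases hvert c hc with h1 | h1
    · exact hfX (h1 f hfc)
    · exact hfY (h1 f hfc)
  · exact hE

/-- **(LF), abstract form**: `y = ε · X ^ a · Y ^ b · γ ^ m`; only the places of `F / E` CENTRED
on `O` (the places in the tube of the point) are used. -/
theorem rtk6lf_fac_tube (hOV : ∀ c, thr c → ∀ x : O, algebraMap O F x ∈ V c)
    (hdict : S36n2pDict E O thr V) {X Y : O} (hX : Prime X) (hY : Prime Y)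
    (hvert : ∀ c, thr c → (∀ x : O, algebraMap O F x ∈ (V c).nonunits → X ∣ x) ∨
      (∀ x : O, algebraMap O F x ∈ (V c).nonunits → Y ∣ x))
    (m : ℕ) {y : F} (hy : y ≠ 0) (hhor : ∀ P : Place E F, (∀ x : O, algebraMap O F x ∈ P.toValuationSubring) →
      (m : ℤ) ∣ P.ord y) :
    ∃ (γ : F) (ε : Oˣ) (a b : ℤ),
      y = algebraMap O F (ε : O) * algebraMap O F X ^ a * algebraMap O F Y ^ b * γ ^ m ∧
      γ ≠ 0 ∧ ∀ c, thr c → (V c).valuation γ = 1 := by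
  classical
  obtain ⟨A, B, hAB, hyAB⟩ := IsFractionRing.exists_reduced_fraction O y
  have hB0' : (B : O) ≠ 0 := nonZeroDivisors.ne_zero B.2
  have hB0 : algebraMap O F (B : O) ≠ 0 := rtk6lf_map_ne_zero hB0'
  have hyB : y * algebraMap O F (B : O) = algebraMap O F A := by
    rw [← hyAB, IsLocalization.mk'_spec]
  have hA0' : A ≠ 0 := by
    rintro rfl
    rw [map_zero] at hyB
    rcases mul_eq_zero.mp hyB with h | h
    · exact hy h
    · exact hB0 h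
  obtain ⟨i, j, A', hA, hA'X, hA'Y⟩ := rtk6lf_split hX hY hA0'
  obtain ⟨i', j', B', hB, hB'X, hB'Y⟩ := rtk6lf_split hX hY hB0'
  have hA'0 : A' ≠ 0 := fun h0 => hA'X (by rw [h0]; exact dvd_zero X)
  have hB'0 : B' ≠ 0 := fun h0 => hB'X (by rw [h0]; exact dvd_zero X)
  have hXF : algebraMap O F X ≠ 0 := rtk6lf_map_ne_zero hX.ne_zero
  have hYF : algebraMap O F Y ≠ 0 := rtk6lf_map_ne_zero hY.ne_zero
  have hA'F : algebraMap O F A' ≠ 0 := rtk6lf_map_ne_zero hA'0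
  have hB'F : algebraMap O F B' ≠ 0 := rtk6lf_map_ne_zero hB'0
  -- the shape of `y`
  have e : y = algebraMap O F X ^ ((i : ℤ) - i') * algebraMap O F Y ^ ((j : ℤ) - j') *
      (algebraMap O F A' / algebraMap O F B') := by
    have e0 : y = algebraMap O F A / algebraMap O F (B : O) := by
      rw [← hyB]; field_simp
    rw [e0, hA, hB, zpow_sub₀ hXF, zpow_sub₀ hYF, zpow_natCast, zpow_natCast, zpow_natCast,
      zpow_natCast]
    simp only [map_mul, map_pow]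
    field_simp
  -- a prime dividing `A'` or `B'` is prime to `X`, `Y`
  have hprime : ∀ (z : O), ¬ X ∣ z → ¬ Y ∣ z → ∀ f : O, Prime f → f ∣ z → ¬ X ∣ f ∧ ¬ Y ∣ f := by
    intro z hzX hzY f hf hfz
    exact ⟨fun h => hzX (h.trans hfz), fun h => hzY (h.trans hfz)⟩
  -- the multiplicities in `A'`
  have hmA : ∀ f : O, Prime f → ∀ (n : ℕ) (a' : O), A' = f ^ n * a' → ¬ f ∣ a' → m ∣ n := by
    intro f hf n a' hn ha'
    rcases Nat.eq_zero_or_pos n with rfl | hn0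
    · exact dvd_zero m
    have hfA' : f ∣ A' := by rw [hn]; exact Dvd.dvd.mul_right (dvd_pow_self f hn0.ne') _
    obtain ⟨hfX, hfY⟩ := hprime A' hA'X hA'Y f hf hfA'
    have hE := rtk6lf_horizontal thr V hdict hvert hf hfX hfY
    have hXf : ¬ f ∣ X := fun h => hfX (rtk6lf_dvd_symm hf hX h)
    have hYf : ¬ f ∣ Y := fun h => hfY (rtk6lf_dvd_symm hf hY h)
    have hA2 : A = f ^ n * (X ^ i * Y ^ j * a') := by rw [hA, hn]; ring
    have hnd : ¬ f ∣ X ^ i * Y ^ j * a' := by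
      intro h
      rcases hf.dvd_or_dvd h with h1 | h1
      · rcases hf.dvd_or_dvd h1 with h2 | h2
        · exact hXf (hf.dvd_of_dvd_pow h2)
        · exact hYf (hf.dvd_of_dvd_pow h2)
      · exact ha' h1
    exact rtk6lf_mult_dvd_num (E := E) m hhor hB0' hAB hyB hf hE hA2 hnd
  have hmB : ∀ f : O, Prime f → ∀ (n : ℕ) (b' : O), B' = f ^ n * b' → ¬ f ∣ b' → m ∣ n := by
    intro f hf n b' hn hb'
    rcases Nat.eq_zero_or_pos n with rfl | hn0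
    · exact dvd_zero m
    have hfB' : f ∣ B' := by rw [hn]; exact Dvd.dvd.mul_right (dvd_pow_self f hn0.ne') _
    obtain ⟨hfX, hfY⟩ := hprime B' hB'X hB'Y f hf hfB'
    have hE := rtk6lf_horizontal thr V hdict hvert hf hfX hfY
    have hXf : ¬ f ∣ X := fun h => hfX (rtk6lf_dvd_symm hf hX h)
    have hYf : ¬ f ∣ Y := fun h => hfY (rtk6lf_dvd_symm hf hY h)
    have hB2 : (B : O) = f ^ n * (X ^ i' * Y ^ j' * b') := by rw [hB, hn]; ring
    have hnd : ¬ f ∣ X ^ i' * Y ^ j' * b' := by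
      intro h
      rcases hf.dvd_or_dvd h with h1 | h1
      · rcases hf.dvd_or_dvd h1 with h2 | h2
        · exact hXf (hf.dvd_of_dvd_pow h2)
        · exact hYf (hf.dvd_of_dvd_pow h2)
      · exact hb' h1
    exact rtk6lf_mult_dvd_den (E := E) m hhor hAB hyB hf hE hB2 hnd
  obtain ⟨u, c, hc⟩ := s36n2p_pow_of_mult m hA'0 hmA
  obtain ⟨u', d, hd⟩ := s36n2p_pow_of_mult m hB'0 hmB
  have hinv : algebraMap O F ((u'⁻¹ : Oˣ) : O) = (algebraMap O F ((u' : Oˣ) : O))⁻¹ := by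
    apply eq_inv_of_mul_eq_one_left
    rw [← map_mul, Units.inv_mul, map_one]
  have hu'0 : algebraMap O F ((u' : Oˣ) : O) ≠ 0 := rtk6lf_map_ne_zero u'.ne_zero
  rcases Nat.eq_zero_or_pos m with rfl | hm
  · refine ⟨1, u * u'⁻¹, (i : ℤ) - i', (j : ℤ) - j', ?_, one_ne_zero, fun c _ => map_one _⟩
    rw [pow_zero, mul_one] at hc hd
    rw [e, hc, hd, Units.val_mul, map_mul, hinv, pow_zero, mul_one, div_eq_mul_inv]
    ring
  have hc0 : c ≠ 0 := by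
    rintro rfl
    apply hA'0
    rw [hc, zero_pow hm.ne', mul_zero]
  have hd0 : d ≠ 0 := by
    rintro rfl
    apply hB'0
    rw [hd, zero_pow hm.ne', mul_zero]
  have hcF : algebraMap O F c ≠ 0 := rtk6lf_map_ne_zero hc0
  have hdF : algebraMap O F d ≠ 0 := rtk6lf_map_ne_zero hd0
  have hcX : ¬ X ∣ c := fun h => hA'X (by
    rw [hc]; exact Dvd.dvd.mul_left (h.trans (dvd_pow_self c hm.ne')) _)
  have hcY : ¬ Y ∣ c := fun h => hA'Y (by
    rw [hc]; exact Dvd.dvd.mul_left (h.trans (dvd_pow_self c hm.ne')) _)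
  have hdX : ¬ X ∣ d := fun h => hB'X (by
    rw [hd]; exact Dvd.dvd.mul_left (h.trans (dvd_pow_self d hm.ne')) _)
  have hdY : ¬ Y ∣ d := fun h => hB'Y (by
    rw [hd]; exact Dvd.dvd.mul_left (h.trans (dvd_pow_self d hm.ne')) _)
  refine ⟨algebraMap O F c / algebraMap O F d, u * u'⁻¹, (i : ℤ) - i', (j : ℤ) - j', ?_,
    div_ne_zero hcF hdF, fun κ₀ hκ₀ => ?_⟩
  · rw [e, hc, hd, Units.val_mul, map_mul, map_mul, map_mul, map_pow, map_pow, hinv, div_pow]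
    field_simp
  · rw [map_div₀, rtk6lf_val_one thr V hOV hvert hcX hcY κ₀ hκ₀,
      rtk6lf_val_one thr V hOV hvert hdX hdY κ₀ hκ₀, div_one]

/-- **(LF), abstract form**, with the hypothesis on ALL places of `F / E`. -/
theorem rtk6lf_fac (hOV : ∀ c, thr c → ∀ x : O, algebraMap O F x ∈ V c)
    (hdict : S36n2pDict E O thr V) {X Y : O} (hX : Prime X) (hY : Prime Y)
    (hvert : ∀ c, thr c → (∀ x : O, algebraMap O F x ∈ (V c).nonunits → X ∣ x) ∨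
      (∀ x : O, algebraMap O F x ∈ (V c).nonunits → Y ∣ x))
    (m : ℕ) {y : F} (hy : y ≠ 0) (hhor : ∀ P : Place E F, (m : ℤ) ∣ P.ord y) :
    ∃ (γ : F) (ε : Oˣ) (a b : ℤ),
      y = algebraMap O F (ε : O) * algebraMap O F X ^ a * algebraMap O F Y ^ b * γ ^ m ∧
      γ ≠ 0 ∧ ∀ c, thr c → (V c).valuation γ = 1 :=
  rtk6lf_fac_tube thr V hOV hdict hX hY hvert m hy (fun P _ => hhor P)

omit [UniqueFactorizationMonoid O] in
/-- a unit of `O` is a unit at every component through the point -/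
theorem rtk6lf_val_unit (hOV : ∀ c, thr c → ∀ x : O, algebraMap O F x ∈ V c) (ε : Oˣ)
    (c : κ) (hc : thr c) : (V c).valuation (algebraMap O F (ε : O)) = 1 := by
  have h1 : (V c).valuation (algebraMap O F (ε : O)) ≤ 1 :=
    ((V c).valuation_le_one_iff _).2 (hOV c hc _)
  have h2 : (V c).valuation (algebraMap O F ((ε⁻¹ : Oˣ) : O)) ≤ 1 :=
    ((V c).valuation_le_one_iff _).2 (hOV c hc _)
  have h3 : (V c).valuation (algebraMap O F (ε : O)) *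
      (V c).valuation (algebraMap O F ((ε⁻¹ : Oˣ) : O)) = 1 := by
    rw [← map_mul, ← map_mul, Units.mul_inv, map_one, map_one]
  refine le_antisymm h1 ?_
  by_contra hlt
  push Not at hlt
  have h4 : (V c).valuation (algebraMap O F (ε : O)) *
      (V c).valuation (algebraMap O F ((ε⁻¹ : Oˣ) : O)) < 1 :=
    lt_of_le_of_lt (mul_le_mul' le_rfl h2) (by rwa [mul_one])
  exact absurd h3 h4.ne

omit [UniqueFactorizationMonoid O] in
/-- **the exponents are the valuations**: for `y = ε · X ^ a · Y ^ b · γ ^ m` with `γ` a unit at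
the components through the point, `v_c(y) = v_c(X) ^ a · v_c(Y) ^ b`. -/
theorem rtk6lf_val (hOV : ∀ c, thr c → ∀ x : O, algebraMap O F x ∈ V c) {X Y : O}
    {m : ℕ} {y γ : F} {ε : Oˣ} {a b : ℤ}
    (h : y = algebraMap O F (ε : O) * algebraMap O F X ^ a * algebraMap O F Y ^ b * γ ^ m)
    (hγ : ∀ c, thr c → (V c).valuation γ = 1) (c : κ) (hc : thr c) :
    (V c).valuation y =
      (V c).valuation (algebraMap O F X) ^ a * (V c).valuation (algebraMap O F Y) ^ b := by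
  rw [h, map_mul, map_mul, map_mul, map_pow, map_zpow₀, map_zpow₀, hγ c hc, one_pow, mul_one,
    rtk6lf_val_unit thr V hOV ε c hc, one_mul]

omit [UniqueFactorizationMonoid O] in
/-- the valuation of `Y` at an `X`-component is `1` (`X ∤ Y`) -/
theorem rtk6lf_val_other (hOV : ∀ c, thr c → ∀ x : O, algebraMap O F x ∈ V c) {X Y : O}
    (hXY : ¬ X ∣ Y) (c : κ) (hc : thr c)
    (hcX : ∀ x : O, algebraMap O F x ∈ (V c).nonunits → X ∣ x) :
    (V c).valuation (algebraMap O F Y) = 1 := by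
  refine le_antisymm (((V c).valuation_le_one_iff _).2 (hOV c hc Y)) (not_lt.1 fun h => ?_)
  exact hXY (hcX Y ((ValuationSubring.mem_nonunits_iff (V c)).2 h))

omit [UniqueFactorizationMonoid O] in
/-- **absorbing the `X`-part**: if `m ∣ a` then `y = ε · Y ^ b · γ′ ^ m`, the form (LF). -/
theorem rtk6lf_absorb {X Y : O} (hX0 : X ≠ 0) {m : ℕ} {y γ : F} {ε : Oˣ} {a b : ℤ}
    (h : y = algebraMap O F (ε : O) * algebraMap O F X ^ a * algebraMap O F Y ^ b * γ ^ m)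
    (ha : (m : ℤ) ∣ a) :
    ∃ γ' : F, y = algebraMap O F (ε : O) * algebraMap O F Y ^ b * γ' ^ m := by
  obtain ⟨k, rfl⟩ := ha
  have hXF : algebraMap O F X ≠ 0 := rtk6lf_map_ne_zero hX0
  refine ⟨algebraMap O F X ^ k * γ, ?_⟩
  rw [h, mul_pow, ← zpow_natCast (algebraMap O F X ^ k) m, ← zpow_mul, mul_comm k (m : ℤ)]
  ring

end Fac

section SubringForm

variable {E F : Type*} [Field E] [Field F] [Algebra E F] {κ : Type*}

/-- **(LF), abstract form, for a subring `O ⊆ F`** (the local ring of the chart at a closed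
point). -/
theorem rtk6lf_facAt (O : Subring F) [UniqueFactorizationMonoid O]
    (hfrac : ∀ x : F, ∃ a b : O, (b : F) ≠ 0 ∧ x * (b : F) = (a : F))
    (thr : κ → Prop) (V : κ → ValuationSubring F)
    (hOV : ∀ c, thr c → ∀ x ∈ O, x ∈ V c)
    (hdict : S36n2pDict E O thr V) {X Y : O} (hX : Prime X) (hY : Prime Y)
    (hvert : ∀ c, thr c → (∀ x : O, (x : F) ∈ (V c).nonunits → X ∣ x) ∨
      (∀ x : O, (x : F) ∈ (V c).nonunits → Y ∣ x))
    (m : ℕ) {y : F} (hy : y ≠ 0)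
    (hhor : ∀ P : Place E F, (∀ x ∈ O, x ∈ P.toValuationSubring) → (m : ℤ) ∣ P.ord y) :
    ∃ (γ : F) (ε : O) (a b : ℤ), IsUnit ε ∧
      y = (ε : F) * (X : F) ^ a * (Y : F) ^ b * γ ^ m ∧
      γ ≠ 0 ∧ (∀ c, thr c → (V c).valuation γ = 1) ∧
      ∀ c, thr c → (V c).valuation y = (V c).valuation (X : F) ^ a * (V c).valuation (Y : F) ^ b := by
  haveI := s36n2p_isFractionRing O hfrac
  obtain ⟨γ, ε, a, b, h, hγ0, hγ⟩ := rtk6lf_fac_tube (E := E) (O := O) thr V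
    (fun c hc x => hOV c hc x x.2) hdict hX hY hvert m hy
    (fun P hP => hhor P (fun x hx => hP ⟨x, hx⟩))
  exact ⟨γ, (ε : O), a, b, ε.isUnit, h, hγ0, hγ,
    rtk6lf_val (O := O) thr V (fun c hc x => hOV c hc x x.2) h hγ⟩

end SubringForm

end Fermat.Agent.RT.K6


end ZBRT_001_1

/-! ### bundled: `Fermat.Agent.RT.K6.DLFPt` -/
section ZBRT_001_2
/-
K-machine, piece K6, piece D-LF (helper54): the PER-POINT layer of the local factorisation (LF),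
abstract chart form.

Setting of `S36/N2PtsReg.lean`: `B` a chart (`Algebra B F`, injective), `𝔫` a prime of `B`,
`O = ls_localSubring 𝔫 = B_𝔫 ⊆ F`; `V : κ → ValuationSubring F` the vertical valuations, `ϖ ∈ B`
the uniformizer of the (unramified) base, with the globals
 (KR)  `ϖ x ∈ B`, `x ∈ ⋂ V c` ⇒ `x ∈ B`      (from (SS1): `RIB.MP.ribmp_fac_hKR`),
 (U)   `𝔪(V c) = ϖ V c`                      (the special fibre is reduced: `STB.stb_sp_princ`).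

THIN CROSSING POINT: `w ϖ = X Y` with `w ∉ 𝔫`, `X ∈ 𝔪(V c₁)`, `Y ∈ 𝔪(V c₂)`, and
`NodesLocGen 𝔫 {ϖ, X, Y}` (the output of S36 G-thin (T4) at a rigid level).  Then
* `rtk6lfp_cross_val`   : `X` is a uniformizer of `V c₁` and a unit of `V c₂` (and `c₁ ≠ c₂`);
* `rtk6lfp_cross_dvd`   : `𝔪(V c₁) ∩ O = X O`;
* `rtk6lfp_cross_prime` : `X` is a prime element of `O`;
* `rtk6lfp_cross_max`   : `𝔪_O = (X, Y)`;
* `rtk6lfp_cross_ufd`   : `O` is a UFD (`rtk6lf_ufd`);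
* `rtk6lfp_cross_fac`   : **(LF)** `y = ε · X ^ a · Y ^ b · γ ^ m` for `y ∈ F^×` with `m ∣ ord_P y`
  at the places `P` of `F / E` centred on `O`; `γ` is a unit at `V c₁`, `V c₂`, and
  `v_{c₁}(y) = v_{c₁}(ϖ) ^ a`, `v_{c₂}(y) = v_{c₂}(ϖ) ^ b`;
* `rtk6lfp_cross_LF`    : the form of `NOTES/RT-K6-D.md`: if `y` is a unit at `V c₁` then
  `y = ε · Y ^ b · γ ^ m`.

SMOOTH POINT: exactly one component `V c` through `𝔫`, `NodesLocGen 𝔫 {ϖ, s}`.  Then
* `rtk6lfp_smooth_dvd`, `rtk6lfp_smooth_prime`, `rtk6lfp_smooth_max`, `rtk6lfp_smooth_ufd`;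
* `rtk6lfp_smooth_fac`  : **(LF)** `y = ε · ϖ ^ a · γ ^ m`, `v_c(y) = v_c(ϖ) ^ a`.
-/

set_option autoImplicit false
set_option linter.unusedSectionVars false
set_option linter.unusedVariables false
set_option linter.style.haveILetI false

namespace Fermat.Agent.RT.K6

open Fermat.Agent.UNIP Fermat.Agent.STB Fermat.Agent.S36 AlgebraicCurve IsLocalRing

section Val

variable {F : Type*} [Field F]

/-- in a valuation ring, the factors of a unit are units -/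
theorem rtk6lfp_val_eq_one_of_mul (V : ValuationSubring F) {a b c : F} (ha : a ∈ V)
    (hb : b ∈ V) (hc : V.valuation c = 1) (h : c = a * b) :
    V.valuation a = 1 ∧ V.valuation b = 1 := by
  have h1 : V.valuation a ≤ 1 := (V.valuation_le_one_iff a).2 ha
  have h2 : V.valuation b ≤ 1 := (V.valuation_le_one_iff b).2 hb
  have h3 : V.valuation a * V.valuation b = 1 := by rw [← map_mul, ← h, hc]
  constructor
  · refine le_antisymm h1 ?_
    by_contra hlt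
    push Not at hlt
    have h4 : V.valuation a * V.valuation b < 1 :=
      lt_of_le_of_lt (mul_le_mul' le_rfl h2) (by rwa [mul_one])
    exact absurd h3 h4.ne
  · refine le_antisymm h2 ?_
    by_contra hlt
    push Not at hlt
    have h4 : V.valuation a * V.valuation b < 1 :=
      lt_of_le_of_lt (mul_le_mul' h1 le_rfl) (by rwa [one_mul])
    exact absurd h3 h4.ne

/-- an element of valuation `1` is not in the maximal ideal -/
theorem rtk6lfp_not_mem_nonunits (V : ValuationSubring F) {a : F} (ha : V.valuation a = 1) :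
    a ∉ V.nonunits := by
  intro h
  rw [ValuationSubring.mem_nonunits_iff, ha] at h
  exact lt_irrefl _ h

/-- the inverse of an element of valuation `1` lies in the valuation ring -/
theorem rtk6lfp_inv_mem (V : ValuationSubring F) {a : F} (ha : V.valuation a = 1) :
    a⁻¹ ∈ V := by
  rw [← V.valuation_le_one_iff, map_inv₀, ha, inv_one]

end Val

section Core

variable {E F : Type*} [Field E] [Field F] [Algebra E F] {B : Type*} [CommRing B] [Algebra B F]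
variable (hinj : Function.Injective (algebraMap B F)) (𝔫 : Ideal B) [h𝔫 : 𝔫.IsPrime]
variable {κ : Type*}

/-- an element of `B` outside `𝔫` is a unit of every component through `𝔫` -/
theorem rtk6lfp_val_unit (V : ValuationSubring F) (hBV : ∀ b : B, algebraMap B F b ∈ V)
    (hthr : ∀ b : B, algebraMap B F b ∈ V.nonunits → b ∈ 𝔫) {w : B} (hw : w ∉ 𝔫) :
    V.valuation (algebraMap B F w) = 1 :=
  stb_gc_val_eq_one V (hBV w) (fun h => hw (hthr w h))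

/-! ### thin crossing points -/

/-- **the valuations of the coordinates of a thin crossing point**: `X = ϖ · unit` and
`Y = unit` at `V c₁`. -/
theorem rtk6lfp_cross_val (V₁ : ValuationSubring F) (hBV₁ : ∀ b : B, algebraMap B F b ∈ V₁)
    (ϖ : B) (hU₁ : ∀ x : F, x ∈ V₁.nonunits → ∃ z ∈ V₁, x = algebraMap B F ϖ * z)
    (hϖ0 : algebraMap B F ϖ ≠ 0)
    (hthr₁ : ∀ b : B, algebraMap B F b ∈ V₁.nonunits → b ∈ 𝔫)
    {X Y w : B} (hw : w ∉ 𝔫) (hXY : w * ϖ = X * Y) (hX : algebraMap B F X ∈ V₁.nonunits) :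
    V₁.valuation (algebraMap B F Y) = 1 ∧
      V₁.valuation (algebraMap B F X) = V₁.valuation (algebraMap B F ϖ) := by
  obtain ⟨z, hz, hXz⟩ := hU₁ _ hX
  have hwv := rtk6lfp_val_unit 𝔫 V₁ hBV₁ hthr₁ hw
  have e : algebraMap B F w = z * algebraMap B F Y := by
    have h1 : algebraMap B F w * algebraMap B F ϖ = algebraMap B F X * algebraMap B F Y := by
      rw [← map_mul, ← map_mul, hXY]
    rw [hXz] at h1
    have h2 : algebraMap B F ϖ * algebraMap B F w = algebraMap B F ϖ * (z * algebraMap B F Y) := by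
      rw [mul_comm, h1]; ring
    exact mul_left_cancel₀ hϖ0 h2
  obtain ⟨h1, h2⟩ := rtk6lfp_val_eq_one_of_mul V₁ hz (hBV₁ Y) hwv e
  refine ⟨h2, ?_⟩
  rw [hXz, map_mul, h1, mul_one]

/-- the two components of a thin crossing point are different -/
theorem rtk6lfp_cross_ne (V : κ → ValuationSubring F)
    (hBV : ∀ c (b : B), algebraMap B F b ∈ V c) (ϖ : B)
    (hU : ∀ c (x : F), x ∈ (V c).nonunits → ∃ z ∈ V c, x = algebraMap B F ϖ * z)
    (hϖ0 : algebraMap B F ϖ ≠ 0) (c₁ c₂ : κ)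
    (hthr₁ : ∀ b : B, algebraMap B F b ∈ (V c₁).nonunits → b ∈ 𝔫)
    {X Y w : B} (hw : w ∉ 𝔫) (hXY : w * ϖ = X * Y)
    (hX : algebraMap B F X ∈ (V c₁).nonunits) (hY : algebraMap B F Y ∈ (V c₂).nonunits) :
    c₁ ≠ c₂ := by
  rintro rfl
  have h := (rtk6lfp_cross_val 𝔫 (V c₁) (hBV c₁) ϖ (hU c₁) hϖ0 hthr₁ hw hXY hX).1
  exact rtk6lfp_not_mem_nonunits (V c₁) h hY

variable [Finite κ]

include hinj in
/-- **`𝔪(V c₁) ∩ B_𝔫 = X B_𝔫`** at a thin crossing point. -/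
theorem rtk6lfp_cross_dvd (V : κ → ValuationSubring F)
    (hBV : ∀ c (b : B), algebraMap B F b ∈ V c) (ϖ : B)
    (hKR : ∀ x : F, (∃ b : B, algebraMap B F ϖ * x = algebraMap B F b) → (∀ c, x ∈ V c) →
      ∃ b : B, x = algebraMap B F b)
    (hU : ∀ c (x : F), x ∈ (V c).nonunits → ∃ z ∈ V c, x = algebraMap B F ϖ * z)
    (hϖ0 : algebraMap B F ϖ ≠ 0) (c₁ c₂ : κ)
    (hκ : ∀ c, (∀ b : B, algebraMap B F b ∈ (V c).nonunits → b ∈ 𝔫) → c = c₁ ∨ c = c₂)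
    (hthr₁ : ∀ b : B, algebraMap B F b ∈ (V c₁).nonunits → b ∈ 𝔫)
    (hthr₂ : ∀ b : B, algebraMap B F b ∈ (V c₂).nonunits → b ∈ 𝔫)
    {X Y w : B} (hw : w ∉ 𝔫) (hXY : w * ϖ = X * Y)
    (hX : algebraMap B F X ∈ (V c₁).nonunits) (hY : algebraMap B F Y ∈ (V c₂).nonunits)
    (y : ls_localSubring (F := F) 𝔫) (hy : (y : F) ∈ (V c₁).nonunits) :
    s36n2pToLoc (F := F) 𝔫 X ∣ y := by
  have hXY' : algebraMap B F w * algebraMap B F ϖ = algebraMap B F X * algebraMap B F Y := by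
    rw [← map_mul, ← map_mul, hXY]
  have hw0 : algebraMap B F w ≠ 0 := stb_gc_algebraMap_ne_zero hinj 𝔫 hw
  have hX0 : algebraMap B F X ≠ 0 := by
    intro h0
    rw [h0, zero_mul] at hXY'
    exact (mul_ne_zero hw0 hϖ0) hXY'
  have hY0 : algebraMap B F Y ≠ 0 := by
    intro h0
    rw [h0, mul_zero] at hXY'
    exact (mul_ne_zero hw0 hϖ0) hXY'
  obtain ⟨hY1, hX1⟩ := rtk6lfp_cross_val 𝔫 (V c₁) (hBV c₁) ϖ (hU c₁) hϖ0 hthr₁ hw hXY hX
  have hXY₂ : w * ϖ = Y * X := by rw [hXY, mul_comm]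
  obtain ⟨hX2, hY2⟩ := rtk6lfp_cross_val 𝔫 (V c₂) (hBV c₂) ϖ (hU c₂) hϖ0 hthr₂ hw hXY₂ hY
  have hmem : (y : F) / algebraMap B F X ∈ ls_localSubring (F := F) 𝔫 := by
    refine s36n2p_KRloc 𝔫 V hBV ϖ hKR 1
      (fun c x hx => by
        obtain ⟨z, hz, hxz⟩ := hU c x hx
        exact ⟨z, hz, by rw [pow_one, hxz]⟩) _ ?_ ?_
    · -- `ϖ (y / X) = (Y / w) y`
      have e : algebraMap B F ϖ * ((y : F) / algebraMap B F X) =
          (algebraMap B F Y * (y : F)) * (algebraMap B F w)⁻¹ := by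
        have : algebraMap B F ϖ = algebraMap B F X * algebraMap B F Y * (algebraMap B F w)⁻¹ := by
          rw [← hXY']; field_simp
        rw [this]; field_simp
      rw [e]
      have hwu : IsUnit (s36n2pToLoc (F := F) 𝔫 w) :=
        ls_isUnit_of_not_mem hinj 𝔫 _ (b := w) (s := 1) hw
          (fun h => h𝔫.ne_top ((Ideal.eq_top_iff_one 𝔫).mpr h)) (by rw [map_one, one_mul]; rfl)
      obtain ⟨v, hv⟩ := hwu
      have hvinv : (((v⁻¹ : (ls_localSubring (F := F) 𝔫)ˣ) : ls_localSubring (F := F) 𝔫) : F) =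
          (algebraMap B F w)⁻¹ := by
        have h1 : ((v : ls_localSubring (F := F) 𝔫) : F) = algebraMap B F w := by rw [hv]; rfl
        have h2 : ((v : ls_localSubring (F := F) 𝔫) : F) *
            (((v⁻¹ : (ls_localSubring (F := F) 𝔫)ˣ) : ls_localSubring (F := F) 𝔫) : F) = 1 :=
          congrArg Subtype.val v.mul_inv
        rw [h1] at h2
        exact eq_inv_of_mul_eq_one_right h2
      rw [← hvinv]
      exact (s36n2pToLoc (F := F) 𝔫 Y * y *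
        ((v⁻¹ : (ls_localSubring (F := F) 𝔫)ˣ) : ls_localSubring (F := F) 𝔫)).2
    · intro c hc
      rcases hκ c hc with rfl | rfl
      · obtain ⟨z, hz, hyz⟩ := hU c _ hy
        obtain ⟨z', hz', hXz'⟩ := hU c _ hX
        have hz'1 : (V c).valuation z' = 1 := by
          have h1 := hX1
          rw [hXz', map_mul] at h1
          have hϖv : (V c).valuation (algebraMap B F ϖ) ≠ 0 :=
            (Valuation.ne_zero_iff _).2 hϖ0
          exact mul_left_cancel₀ hϖv (by rw [h1, mul_one])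
        have hz'0 : z' ≠ 0 := fun h0 => by
          rw [h0, map_zero] at hz'1
          exact zero_ne_one hz'1
        have e : (y : F) / algebraMap B F X = z * z'⁻¹ := by
          rw [hyz, hXz']; field_simp
        rw [e]
        exact mul_mem hz (rtk6lfp_inv_mem (V c) hz'1)
      · rw [div_eq_mul_inv]
        exact mul_mem (stb_gc_le 𝔫 (V c) (hBV c) hc _ y.2) (rtk6lfp_inv_mem (V c) hX2)
  exact ⟨⟨_, hmem⟩, Subtype.ext (by
    show (y : F) = algebraMap B F X * ((y : F) / algebraMap B F X)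
    field_simp)⟩

include hinj in
/-- **`X` is a prime element of `B_𝔫`** at a thin crossing point. -/
theorem rtk6lfp_cross_prime (V : κ → ValuationSubring F)
    (hBV : ∀ c (b : B), algebraMap B F b ∈ V c) (ϖ : B)
    (hKR : ∀ x : F, (∃ b : B, algebraMap B F ϖ * x = algebraMap B F b) → (∀ c, x ∈ V c) →
      ∃ b : B, x = algebraMap B F b)
    (hU : ∀ c (x : F), x ∈ (V c).nonunits → ∃ z ∈ V c, x = algebraMap B F ϖ * z)
    (hϖ0 : algebraMap B F ϖ ≠ 0) (c₁ c₂ : κ)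
    (hκ : ∀ c, (∀ b : B, algebraMap B F b ∈ (V c).nonunits → b ∈ 𝔫) → c = c₁ ∨ c = c₂)
    (hthr₁ : ∀ b : B, algebraMap B F b ∈ (V c₁).nonunits → b ∈ 𝔫)
    (hthr₂ : ∀ b : B, algebraMap B F b ∈ (V c₂).nonunits → b ∈ 𝔫)
    {X Y w : B} (hw : w ∉ 𝔫) (hXY : w * ϖ = X * Y)
    (hX : algebraMap B F X ∈ (V c₁).nonunits) (hY : algebraMap B F Y ∈ (V c₂).nonunits) :
    Prime (s36n2pToLoc (F := F) 𝔫 X) := by
  have hXY' : algebraMap B F w * algebraMap B F ϖ = algebraMap B F X * algebraMap B F Y := by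
    rw [← map_mul, ← map_mul, hXY]
  have hw0 : algebraMap B F w ≠ 0 := stb_gc_algebraMap_ne_zero hinj 𝔫 hw
  have hX0 : algebraMap B F X ≠ 0 := by
    intro h0
    rw [h0, zero_mul] at hXY'
    exact (mul_ne_zero hw0 hϖ0) hXY'
  exact s36n2p_prime hinj 𝔫 (V c₁) (hBV c₁) hthr₁ _
    (fun h0 => hX0 (congrArg Subtype.val h0)) hX
    (fun y hy => rtk6lfp_cross_dvd hinj 𝔫 V hBV ϖ hKR hU hϖ0 c₁ c₂ hκ hthr₁ hthr₂ hw hXY hX hY
      y hy)

include hinj in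
/-- **`𝔪(B_𝔫) = (X, Y)`** at a thin crossing point. -/
theorem rtk6lfp_cross_max [IsLocalRing (ls_localSubring (F := F) 𝔫)]
    (ϖ : B) {X Y w : B} (hw : w ∉ 𝔫) (hXY : w * ϖ = X * Y) (hX𝔫 : X ∈ 𝔫) (hY𝔫 : Y ∈ 𝔫)
    (hgen : NodesLocGen 𝔫 {ϖ, X, Y}) :
    maximalIdeal (ls_localSubring (F := F) 𝔫) =
      Ideal.span {s36n2pToLoc (F := F) 𝔫 X, s36n2pToLoc (F := F) 𝔫 Y} := by
  have h1 : (1 : B) ∉ 𝔫 := fun h => h𝔫.ne_top ((Ideal.eq_top_iff_one 𝔫).mpr h)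
  have hunit : ∀ v : B, v ∉ 𝔫 → IsUnit (s36n2pToLoc (F := F) 𝔫 v) := fun v hv =>
    ls_isUnit_of_not_mem hinj 𝔫 _ (b := v) (s := 1) hv h1 (by rw [map_one, one_mul]; rfl)
  apply le_antisymm
  · intro r hr
    obtain ⟨b, s, hb, hs, hbs⟩ := stb_gc_exists_of_mem_maximalIdeal hinj 𝔫 r hr
    obtain ⟨v, hv, hvb⟩ := hgen b hb
    rw [Ideal.mem_span_insert] at hvb
    obtain ⟨α, z, hz, hvb⟩ := hvb
    rw [Ideal.mem_span_pair] at hz
    obtain ⟨β, γ, rfl⟩ := hz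
    -- `w v s r = (α Y + w β) X + (w γ) Y`
    have e : s36n2pToLoc (F := F) 𝔫 (w * v * s) * r =
        s36n2pToLoc (F := F) 𝔫 (α * Y + w * β) * s36n2pToLoc (F := F) 𝔫 X +
          s36n2pToLoc (F := F) 𝔫 (w * γ) * s36n2pToLoc (F := F) 𝔫 Y := by
      apply Subtype.ext
      show algebraMap B F (w * v * s) * (r : F) =
        algebraMap B F (α * Y + w * β) * algebraMap B F X +
          algebraMap B F (w * γ) * algebraMap B F Y
      have h2 : algebraMap B F (w * v * s) * (r : F) = algebraMap B F (w * (v * b)) := by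
        rw [map_mul, map_mul, map_mul, map_mul, ← hbs]; ring
      rw [h2, hvb, ← map_mul, ← map_mul, ← map_add]
      congr 1
      linear_combination α * hXY
    have hu : IsUnit (s36n2pToLoc (F := F) 𝔫 (w * v * s)) := hunit _ (fun h => by
      rcases h𝔫.mem_or_mem h with h' | h'
      · rcases h𝔫.mem_or_mem h' with h'' | h''
        · exact hw h''
        · exact hv h''
      · exact hs h')
    obtain ⟨u, hu⟩ := hu
    have e2 : r = ((u⁻¹ : (ls_localSubring (F := F) 𝔫)ˣ) : ls_localSubring (F := F) 𝔫) *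
        (s36n2pToLoc (F := F) 𝔫 (α * Y + w * β) * s36n2pToLoc (F := F) 𝔫 X +
          s36n2pToLoc (F := F) 𝔫 (w * γ) * s36n2pToLoc (F := F) 𝔫 Y) := by
      rw [← e, ← hu, ← mul_assoc, Units.inv_mul, one_mul]
    rw [e2]
    refine Ideal.mul_mem_left _ _ (Ideal.add_mem _ ?_ ?_)
    · exact Ideal.mul_mem_left _ _ (Ideal.subset_span (by simp))
    · exact Ideal.mul_mem_left _ _ (Ideal.subset_span (by simp))
  · rw [Ideal.span_le]
    intro z hz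
    rcases hz with rfl | rfl
    · exact stb_gc_mem_maximalIdeal hinj 𝔫 _ (b := X) (s := 1) hX𝔫 h1
        (by rw [map_one, one_mul]; rfl)
    · exact stb_gc_mem_maximalIdeal hinj 𝔫 _ (b := Y) (s := 1) hY𝔫 h1
        (by rw [map_one, one_mul]; rfl)

include hinj in
/-- **`B_𝔫` is a UFD** at a thin crossing point. -/
theorem rtk6lfp_cross_ufd [IsNoetherianRing B] (V : κ → ValuationSubring F)
    (hBV : ∀ c (b : B), algebraMap B F b ∈ V c) (ϖ : B)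
    (hKR : ∀ x : F, (∃ b : B, algebraMap B F ϖ * x = algebraMap B F b) → (∀ c, x ∈ V c) →
      ∃ b : B, x = algebraMap B F b)
    (hU : ∀ c (x : F), x ∈ (V c).nonunits → ∃ z ∈ V c, x = algebraMap B F ϖ * z)
    (hϖ0 : algebraMap B F ϖ ≠ 0) (c₁ c₂ : κ)
    (hκ : ∀ c, (∀ b : B, algebraMap B F b ∈ (V c).nonunits → b ∈ 𝔫) → c = c₁ ∨ c = c₂)
    (hthr₁ : ∀ b : B, algebraMap B F b ∈ (V c₁).nonunits → b ∈ 𝔫)
    (hthr₂ : ∀ b : B, algebraMap B F b ∈ (V c₂).nonunits → b ∈ 𝔫)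
    {X Y w : B} (hw : w ∉ 𝔫) (hXY : w * ϖ = X * Y)
    (hX : algebraMap B F X ∈ (V c₁).nonunits) (hY : algebraMap B F Y ∈ (V c₂).nonunits)
    (hgen : NodesLocGen 𝔫 {ϖ, X, Y}) :
    UniqueFactorizationMonoid (ls_localSubring (F := F) 𝔫) := by
  haveI := ls_localSubring_isLocalRing (F := F) hinj 𝔫
  haveI := s36n2p_isNoetherianRing (F := F) hinj 𝔫
  exact rtk6lf_ufd _ _
    (rtk6lfp_cross_max hinj 𝔫 ϖ hw hXY (hthr₁ X hX) (hthr₂ Y hY) hgen)
    (rtk6lfp_cross_prime hinj 𝔫 V hBV ϖ hKR hU hϖ0 c₁ c₂ hκ hthr₁ hthr₂ hw hXY hX hY)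

include hinj in
/-- **(LF) at a thin crossing point.** -/
theorem rtk6lfp_cross_fac [IsNoetherianRing B] (V : κ → ValuationSubring F)
    (hBV : ∀ c (b : B), algebraMap B F b ∈ V c) (ϖ : B)
    (hKR : ∀ x : F, (∃ b : B, algebraMap B F ϖ * x = algebraMap B F b) → (∀ c, x ∈ V c) →
      ∃ b : B, x = algebraMap B F b)
    (hU : ∀ c (x : F), x ∈ (V c).nonunits → ∃ z ∈ V c, x = algebraMap B F ϖ * z)
    (hϖ0 : algebraMap B F ϖ ≠ 0) (hϖV : ∀ c, algebraMap B F ϖ ∈ (V c).nonunits)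
    (hE : ∀ e : E, ∃ (n : ℕ) (a : B),
      algebraMap E F e * algebraMap B F ϖ ^ n = algebraMap B F a)
    (hfrac : ∀ x : F, ∃ a b : B, b ≠ 0 ∧ x * algebraMap B F b = algebraMap B F a)
    (c₁ c₂ : κ)
    (hκ : ∀ c, (∀ b : B, algebraMap B F b ∈ (V c).nonunits → b ∈ 𝔫) → c = c₁ ∨ c = c₂)
    (hthr₁ : ∀ b : B, algebraMap B F b ∈ (V c₁).nonunits → b ∈ 𝔫)
    (hthr₂ : ∀ b : B, algebraMap B F b ∈ (V c₂).nonunits → b ∈ 𝔫)
    {X Y w : B} (hw : w ∉ 𝔫) (hXY : w * ϖ = X * Y)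
    (hX : algebraMap B F X ∈ (V c₁).nonunits) (hY : algebraMap B F Y ∈ (V c₂).nonunits)
    (hgen : NodesLocGen 𝔫 {ϖ, X, Y})
    (m : ℕ) {y : F} (hy : y ≠ 0)
    (hhor : ∀ P : Place E F, (∀ x ∈ ls_localSubring (F := F) 𝔫, x ∈ P.toValuationSubring) →
      (m : ℤ) ∣ P.ord y) :
    ∃ (γ : F) (ε : ls_localSubring (F := F) 𝔫) (a b : ℤ), IsUnit ε ∧
      y = (ε : F) * algebraMap B F X ^ a * algebraMap B F Y ^ b * γ ^ m ∧ γ ≠ 0 ∧
      (V c₁).valuation γ = 1 ∧ (V c₂).valuation γ = 1 ∧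
      (V c₁).valuation y = (V c₁).valuation (algebraMap B F ϖ) ^ a ∧
      (V c₂).valuation y = (V c₂).valuation (algebraMap B F ϖ) ^ b := by
  haveI : UniqueFactorizationMonoid (ls_localSubring (F := F) 𝔫) :=
    rtk6lfp_cross_ufd hinj 𝔫 V hBV ϖ hKR hU hϖ0 c₁ c₂ hκ hthr₁ hthr₂ hw hXY hX hY hgen
  have hXY₂ : w * ϖ = Y * X := by rw [hXY, mul_comm]
  have hκ₂ : ∀ c, (∀ b : B, algebraMap B F b ∈ (V c).nonunits → b ∈ 𝔫) → c = c₂ ∨ c = c₁ :=
    fun c hc => (hκ c hc).symm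
  have hpX := rtk6lfp_cross_prime hinj 𝔫 V hBV ϖ hKR hU hϖ0 c₁ c₂ hκ hthr₁ hthr₂ hw hXY hX hY
  have hpY := rtk6lfp_cross_prime hinj 𝔫 V hBV ϖ hKR hU hϖ0 c₂ c₁ hκ₂ hthr₂ hthr₁ hw hXY₂ hY hX
  have hdict := s36n2p_dict (E := E) hinj 𝔫 V hBV ϖ hKR 1
    (fun c x hx => by
      obtain ⟨z, hz, hxz⟩ := hU c x hx
      exact ⟨z, hz, by rw [pow_one, hxz]⟩) hϖ0 hϖV hE hfrac
  obtain ⟨γ, ε, a, b, hε, hyε, hγ0, hγ, hval⟩ := rtk6lf_facAt (E := E)
    (ls_localSubring (F := F) 𝔫)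
    (fun x => by
      obtain ⟨a, b, hb, h⟩ := hfrac x
      exact ⟨s36n2pToLoc (F := F) 𝔫 a, s36n2pToLoc (F := F) 𝔫 b,
        fun h0 => hb (hinj (by rw [map_zero]; exact h0)), h⟩)
    (fun c => ∀ b : B, algebraMap B F b ∈ (V c).nonunits → b ∈ 𝔫) V
    (fun c hc => stb_gc_le 𝔫 (V c) (hBV c) hc) hdict hpX hpY
    (fun c hc => by
      rcases hκ c hc with rfl | rfl
      · exact Or.inl (fun x hx =>
          rtk6lfp_cross_dvd hinj 𝔫 V hBV ϖ hKR hU hϖ0 c c₂ hκ hthr₁ hthr₂ hw hXY hX hY x hx)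
      · exact Or.inr (fun x hx =>
          rtk6lfp_cross_dvd hinj 𝔫 V hBV ϖ hKR hU hϖ0 c c₁ hκ₂ hthr₂ hthr₁ hw hXY₂ hY hX x hx))
    m hy hhor
  obtain ⟨hY1, hX1⟩ := rtk6lfp_cross_val 𝔫 (V c₁) (hBV c₁) ϖ (hU c₁) hϖ0 hthr₁ hw hXY hX
  obtain ⟨hX2, hY2⟩ := rtk6lfp_cross_val 𝔫 (V c₂) (hBV c₂) ϖ (hU c₂) hϖ0 hthr₂ hw hXY₂ hY
  refine ⟨γ, ε, a, b, hε, hyε, hγ0, hγ c₁ hthr₁, hγ c₂ hthr₂, ?_, ?_⟩
  · have h := hval c₁ hthr₁
    change (V c₁).valuation y = (V c₁).valuation (algebraMap B F X) ^ a *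
      (V c₁).valuation (algebraMap B F Y) ^ b at h
    rw [h, hY1, hX1, one_zpow, mul_one]
  · have h := hval c₂ hthr₂
    change (V c₂).valuation y = (V c₂).valuation (algebraMap B F X) ^ a *
      (V c₂).valuation (algebraMap B F Y) ^ b at h
    rw [h, hX2, hY2, one_zpow, one_mul]

/-! ### the form (LF) of `NOTES/RT-K6-D.md` -/

/-- a power of a nonzero element of the maximal ideal of a valuation ring has valuation `1`
only for the exponent `0` -/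
theorem rtk6lfp_zpow_eq_one (V : ValuationSubring F) {p : F} (hp : p ∈ V.nonunits)
    (hp0 : p ≠ 0) {a : ℤ} (h : V.valuation p ^ a = 1) : a = 0 := by
  have h1 : V.valuation p ≠ 1 := fun h1 => by
    rw [ValuationSubring.mem_nonunits_iff, h1] at hp
    exact lt_irrefl _ hp
  exact (zpow_eq_one_iff_right₀ zero_le h1).1 h

include hinj in
/-- **(LF) at a thin crossing point, for a unit at `V c₁`**: `y = ε · Y ^ b · γ ^ m` with
`v_{c₂}(y) = v_{c₂}(ϖ) ^ b`. -/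
theorem rtk6lfp_cross_LF [IsNoetherianRing B] (V : κ → ValuationSubring F)
    (hBV : ∀ c (b : B), algebraMap B F b ∈ V c) (ϖ : B)
    (hKR : ∀ x : F, (∃ b : B, algebraMap B F ϖ * x = algebraMap B F b) → (∀ c, x ∈ V c) →
      ∃ b : B, x = algebraMap B F b)
    (hU : ∀ c (x : F), x ∈ (V c).nonunits → ∃ z ∈ V c, x = algebraMap B F ϖ * z)
    (hϖ0 : algebraMap B F ϖ ≠ 0) (hϖV : ∀ c, algebraMap B F ϖ ∈ (V c).nonunits)
    (hE : ∀ e : E, ∃ (n : ℕ) (a : B),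
      algebraMap E F e * algebraMap B F ϖ ^ n = algebraMap B F a)
    (hfrac : ∀ x : F, ∃ a b : B, b ≠ 0 ∧ x * algebraMap B F b = algebraMap B F a)
    (c₁ c₂ : κ)
    (hκ : ∀ c, (∀ b : B, algebraMap B F b ∈ (V c).nonunits → b ∈ 𝔫) → c = c₁ ∨ c = c₂)
    (hthr₁ : ∀ b : B, algebraMap B F b ∈ (V c₁).nonunits → b ∈ 𝔫)
    (hthr₂ : ∀ b : B, algebraMap B F b ∈ (V c₂).nonunits → b ∈ 𝔫)
    {X Y w : B} (hw : w ∉ 𝔫) (hXY : w * ϖ = X * Y)
    (hX : algebraMap B F X ∈ (V c₁).nonunits) (hY : algebraMap B F Y ∈ (V c₂).nonunits)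
    (hgen : NodesLocGen 𝔫 {ϖ, X, Y})
    (m : ℕ) {y : F} (hy : y ≠ 0)
    (hhor : ∀ P : Place E F, (∀ x ∈ ls_localSubring (F := F) 𝔫, x ∈ P.toValuationSubring) →
      (m : ℤ) ∣ P.ord y)
    (hy₁ : (V c₁).valuation y = 1) :
    ∃ (γ : F) (ε : ls_localSubring (F := F) 𝔫) (b : ℤ), IsUnit ε ∧
      y = (ε : F) * algebraMap B F Y ^ b * γ ^ m ∧ γ ≠ 0 ∧
      (V c₁).valuation γ = 1 ∧ (V c₂).valuation γ = 1 ∧
      (V c₂).valuation y = (V c₂).valuation (algebraMap B F ϖ) ^ b := by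
  obtain ⟨γ, ε, a, b, hε, hyε, hγ0, hγ₁, hγ₂, hv₁, hv₂⟩ :=
    rtk6lfp_cross_fac (E := E) hinj 𝔫 V hBV ϖ hKR hU hϖ0 hϖV hE hfrac c₁ c₂ hκ hthr₁ hthr₂ hw
      hXY hX hY hgen m hy hhor
  have ha : a = 0 := by
    rw [hy₁] at hv₁
    exact rtk6lfp_zpow_eq_one (V c₁) (hϖV c₁) hϖ0 hv₁.symm
  subst ha
  refine ⟨γ, ε, b, hε, ?_, hγ0, hγ₁, hγ₂, hv₂⟩
  rw [hyε, zpow_zero, mul_one]

/-! ### smooth points -/

include hinj in
/-- **`𝔪(V c) ∩ B_𝔫 = ϖ B_𝔫`** at a point with only one component through it. -/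
theorem rtk6lfp_smooth_dvd (V : κ → ValuationSubring F)
    (hBV : ∀ c (b : B), algebraMap B F b ∈ V c) (ϖ : B)
    (hKR : ∀ x : F, (∃ b : B, algebraMap B F ϖ * x = algebraMap B F b) → (∀ c, x ∈ V c) →
      ∃ b : B, x = algebraMap B F b)
    (hU : ∀ c (x : F), x ∈ (V c).nonunits → ∃ z ∈ V c, x = algebraMap B F ϖ * z)
    (c : κ)
    (hone : ∀ c', (∀ b : B, algebraMap B F b ∈ (V c').nonunits → b ∈ 𝔫) → c' = c)
    (y : ls_localSubring (F := F) 𝔫) (hy : (y : F) ∈ (V c).nonunits) :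
    s36n2pToLoc (F := F) 𝔫 ϖ ∣ y := by
  obtain ⟨z, hz, hyz⟩ := hU c _ hy
  have hmem : z ∈ ls_localSubring (F := F) 𝔫 := by
    refine s36n2p_KRloc 𝔫 V hBV ϖ hKR 1
      (fun c x hx => by
        obtain ⟨z, hz, hxz⟩ := hU c x hx
        exact ⟨z, hz, by rw [pow_one, hxz]⟩) _ ?_ ?_
    · rw [← hyz]
      exact y.2
    · intro c' hc'
      rw [hone c' hc']
      exact hz
  exact ⟨⟨z, hmem⟩, Subtype.ext hyz⟩

include hinj in
/-- **`ϖ` is a prime element of `B_𝔫`** at a point with only one component through it. -/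
theorem rtk6lfp_smooth_prime (V : κ → ValuationSubring F)
    (hBV : ∀ c (b : B), algebraMap B F b ∈ V c) (ϖ : B)
    (hKR : ∀ x : F, (∃ b : B, algebraMap B F ϖ * x = algebraMap B F b) → (∀ c, x ∈ V c) →
      ∃ b : B, x = algebraMap B F b)
    (hU : ∀ c (x : F), x ∈ (V c).nonunits → ∃ z ∈ V c, x = algebraMap B F ϖ * z)
    (hϖ0 : algebraMap B F ϖ ≠ 0) (hϖV : ∀ c, algebraMap B F ϖ ∈ (V c).nonunits)
    (c : κ) (hthr : ∀ b : B, algebraMap B F b ∈ (V c).nonunits → b ∈ 𝔫)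
    (hone : ∀ c', (∀ b : B, algebraMap B F b ∈ (V c').nonunits → b ∈ 𝔫) → c' = c) :
    Prime (s36n2pToLoc (F := F) 𝔫 ϖ) :=
  s36n2p_prime hinj 𝔫 (V c) (hBV c) hthr _ (fun h0 => hϖ0 (congrArg Subtype.val h0)) (hϖV c)
    (fun y hy => rtk6lfp_smooth_dvd hinj 𝔫 V hBV ϖ hKR hU c hone y hy)

include hinj in
/-- **`𝔪(B_𝔫) = (ϖ, s)`** at a smooth point. -/
theorem rtk6lfp_smooth_max [IsLocalRing (ls_localSubring (F := F) 𝔫)]
    (ϖ : B) {s : B} (hϖ𝔫 : ϖ ∈ 𝔫) (hs𝔫 : s ∈ 𝔫) (hgen : NodesLocGen 𝔫 {ϖ, s}) :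
    maximalIdeal (ls_localSubring (F := F) 𝔫) =
      Ideal.span {s36n2pToLoc (F := F) 𝔫 ϖ, s36n2pToLoc (F := F) 𝔫 s} := by
  have h1 : (1 : B) ∉ 𝔫 := fun h => h𝔫.ne_top ((Ideal.eq_top_iff_one 𝔫).mpr h)
  have hunit : ∀ v : B, v ∉ 𝔫 → IsUnit (s36n2pToLoc (F := F) 𝔫 v) := fun v hv =>
    ls_isUnit_of_not_mem hinj 𝔫 _ (b := v) (s := 1) hv h1 (by rw [map_one, one_mul]; rfl)
  apply le_antisymm
  · intro r hr
    obtain ⟨b, d, hb, hd, hbd⟩ := stb_gc_exists_of_mem_maximalIdeal hinj 𝔫 r hr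
    obtain ⟨v, hv, hvb⟩ := hgen b hb
    rw [Ideal.mem_span_pair] at hvb
    obtain ⟨α, β, hvb⟩ := hvb
    have e : s36n2pToLoc (F := F) 𝔫 (v * d) * r =
        s36n2pToLoc (F := F) 𝔫 α * s36n2pToLoc (F := F) 𝔫 ϖ +
          s36n2pToLoc (F := F) 𝔫 β * s36n2pToLoc (F := F) 𝔫 s := by
      apply Subtype.ext
      show algebraMap B F (v * d) * (r : F) =
        algebraMap B F α * algebraMap B F ϖ + algebraMap B F β * algebraMap B F s
      have h2 : algebraMap B F (v * d) * (r : F) = algebraMap B F (v * b) := by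
        rw [map_mul, map_mul, ← hbd]; ring
      rw [h2, ← hvb, map_add, map_mul, map_mul]
    have hu : IsUnit (s36n2pToLoc (F := F) 𝔫 (v * d)) := hunit _ (fun h => by
      rcases h𝔫.mem_or_mem h with h' | h'
      · exact hv h'
      · exact hd h')
    obtain ⟨u, hu⟩ := hu
    have e2 : r = ((u⁻¹ : (ls_localSubring (F := F) 𝔫)ˣ) : ls_localSubring (F := F) 𝔫) *
        (s36n2pToLoc (F := F) 𝔫 α * s36n2pToLoc (F := F) 𝔫 ϖ +
          s36n2pToLoc (F := F) 𝔫 β * s36n2pToLoc (F := F) 𝔫 s) := by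
      rw [← e, ← hu, ← mul_assoc, Units.inv_mul, one_mul]
    rw [e2]
    refine Ideal.mul_mem_left _ _ (Ideal.add_mem _ ?_ ?_)
    · exact Ideal.mul_mem_left _ _ (Ideal.subset_span (by simp))
    · exact Ideal.mul_mem_left _ _ (Ideal.subset_span (by simp))
  · rw [Ideal.span_le]
    intro z hz
    rcases hz with rfl | rfl
    · exact stb_gc_mem_maximalIdeal hinj 𝔫 _ (b := ϖ) (s := 1) hϖ𝔫 h1
        (by rw [map_one, one_mul]; rfl)
    · exact stb_gc_mem_maximalIdeal hinj 𝔫 _ (b := s) (s := 1) hs𝔫 h1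
        (by rw [map_one, one_mul]; rfl)

include hinj in
/-- **`B_𝔫` is a UFD** at a smooth point. -/
theorem rtk6lfp_smooth_ufd [IsNoetherianRing B] (V : κ → ValuationSubring F)
    (hBV : ∀ c (b : B), algebraMap B F b ∈ V c) (ϖ : B)
    (hKR : ∀ x : F, (∃ b : B, algebraMap B F ϖ * x = algebraMap B F b) → (∀ c, x ∈ V c) →
      ∃ b : B, x = algebraMap B F b)
    (hU : ∀ c (x : F), x ∈ (V c).nonunits → ∃ z ∈ V c, x = algebraMap B F ϖ * z)
    (hϖ0 : algebraMap B F ϖ ≠ 0) (hϖV : ∀ c, algebraMap B F ϖ ∈ (V c).nonunits)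
    (c : κ) (hthr : ∀ b : B, algebraMap B F b ∈ (V c).nonunits → b ∈ 𝔫)
    (hone : ∀ c', (∀ b : B, algebraMap B F b ∈ (V c').nonunits → b ∈ 𝔫) → c' = c)
    {s : B} (hs𝔫 : s ∈ 𝔫) (hgen : NodesLocGen 𝔫 {ϖ, s}) :
    UniqueFactorizationMonoid (ls_localSubring (F := F) 𝔫) := by
  haveI := ls_localSubring_isLocalRing (F := F) hinj 𝔫
  haveI := s36n2p_isNoetherianRing (F := F) hinj 𝔫
  exact rtk6lf_ufd _ _
    (rtk6lfp_smooth_max hinj 𝔫 ϖ (hthr ϖ (hϖV c)) hs𝔫 hgen)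
    (rtk6lfp_smooth_prime hinj 𝔫 V hBV ϖ hKR hU hϖ0 hϖV c hthr hone)

include hinj in
/-- **(LF) at a smooth point**: `y = ε · ϖ ^ a · γ ^ m`, `v_c(y) = v_c(ϖ) ^ a`. -/
theorem rtk6lfp_smooth_fac [IsNoetherianRing B] (V : κ → ValuationSubring F)
    (hBV : ∀ c (b : B), algebraMap B F b ∈ V c) (ϖ : B)
    (hKR : ∀ x : F, (∃ b : B, algebraMap B F ϖ * x = algebraMap B F b) → (∀ c, x ∈ V c) →
      ∃ b : B, x = algebraMap B F b)
    (hU : ∀ c (x : F), x ∈ (V c).nonunits → ∃ z ∈ V c, x = algebraMap B F ϖ * z)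
    (hϖ0 : algebraMap B F ϖ ≠ 0) (hϖV : ∀ c, algebraMap B F ϖ ∈ (V c).nonunits)
    (hE : ∀ e : E, ∃ (n : ℕ) (a : B),
      algebraMap E F e * algebraMap B F ϖ ^ n = algebraMap B F a)
    (hfrac : ∀ x : F, ∃ a b : B, b ≠ 0 ∧ x * algebraMap B F b = algebraMap B F a)
    (c : κ) (hthr : ∀ b : B, algebraMap B F b ∈ (V c).nonunits → b ∈ 𝔫)
    (hone : ∀ c', (∀ b : B, algebraMap B F b ∈ (V c').nonunits → b ∈ 𝔫) → c' = c)
    {s : B} (hs𝔫 : s ∈ 𝔫) (hgen : NodesLocGen 𝔫 {ϖ, s})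
    (m : ℕ) {y : F} (hy : y ≠ 0)
    (hhor : ∀ P : Place E F, (∀ x ∈ ls_localSubring (F := F) 𝔫, x ∈ P.toValuationSubring) →
      (m : ℤ) ∣ P.ord y) :
    ∃ (γ : F) (ε : ls_localSubring (F := F) 𝔫) (a : ℤ), IsUnit ε ∧
      y = (ε : F) * algebraMap B F ϖ ^ a * γ ^ m ∧ γ ≠ 0 ∧
      (V c).valuation γ = 1 ∧
      (V c).valuation y = (V c).valuation (algebraMap B F ϖ) ^ a := by
  haveI : UniqueFactorizationMonoid (ls_localSubring (F := F) 𝔫) :=
    rtk6lfp_smooth_ufd hinj 𝔫 V hBV ϖ hKR hU hϖ0 hϖV c hthr hone hs𝔫 hgen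
  have hp := rtk6lfp_smooth_prime hinj 𝔫 V hBV ϖ hKR hU hϖ0 hϖV c hthr hone
  have hdict := s36n2p_dict (E := E) hinj 𝔫 V hBV ϖ hKR 1
    (fun c x hx => by
      obtain ⟨z, hz, hxz⟩ := hU c x hx
      exact ⟨z, hz, by rw [pow_one, hxz]⟩) hϖ0 hϖV hE hfrac
  obtain ⟨γ, ε, a, b, hε, hyε, hγ0, hγ, hval⟩ := rtk6lf_facAt (E := E)
    (ls_localSubring (F := F) 𝔫)
    (fun x => by
      obtain ⟨a, b, hb, h⟩ := hfrac x
      exact ⟨s36n2pToLoc (F := F) 𝔫 a, s36n2pToLoc (F := F) 𝔫 b,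
        fun h0 => hb (hinj (by rw [map_zero]; exact h0)), h⟩)
    (fun c => ∀ b : B, algebraMap B F b ∈ (V c).nonunits → b ∈ 𝔫) V
    (fun c hc => stb_gc_le 𝔫 (V c) (hBV c) hc) hdict hp hp
    (fun c' hc' => by
      rw [hone c' hc']
      exact Or.inl (fun x hx => rtk6lfp_smooth_dvd hinj 𝔫 V hBV ϖ hKR hU c hone x hx))
    m hy hhor
  refine ⟨γ, ε, a + b, hε, ?_, hγ0, hγ c hthr, ?_⟩
  · rw [hyε, zpow_add₀ hϖ0]
    change (ε : F) * algebraMap B F ϖ ^ a * algebraMap B F ϖ ^ b * γ ^ m = _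
    ring
  · have h := hval c hthr
    change (V c).valuation y = (V c).valuation (algebraMap B F ϖ) ^ a *
      (V c).valuation (algebraMap B F ϖ) ^ b at h
    have hϖv : (V c).valuation (algebraMap B F ϖ) ≠ 0 := (Valuation.ne_zero_iff _).2 hϖ0
    rw [h, zpow_add₀ hϖv]

end Core

end Fermat.Agent.RT.K6


end ZBRT_001_2

/-! ### bundled: `Fermat.Agent.RT.K6.DLFChart` -/
section ZBRT_001_3
/-
K-machine, piece K6, piece D-LF (helper54): the local factorisation (LF) at the closed points of a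
chart over a discrete valuation ring with REDUCED special fibre and THIN nodes — chart form.

Setting of `STB/MainTwo.lean`, `RIB/MP/FacRig.lean`: `A₀` a DVR (uniformizer `π`), `E = Frac A₀`,
`F / E(u)` finite, `B_u = zchClosure {u}` the chart, `V : κ → ValuationSubring F` the vertical
valuation rings, `κ = {c₁, c₂}`, with
 (SS1) `B_u ∩ ⋂ 𝔪(V c) = π B_u`,   (U) `𝔪(V c) = π V c`.

* `Rtk6lfThinAt V c₁ c₂ 𝔫` : **the dichotomy of U5 with THIN nodes** at the closed point `𝔫`: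
  smooth point `𝔫 = (π, s)` locally, or crossing point `𝔫 = (π, X, Y)` locally with
  `w π = X Y`, `w ∉ 𝔫`, `X ∈ 𝔪(V c₁)`, `Y ∈ 𝔪(V c₂)`.
* `rtk6lfc_hU` : (U) from (SS1), `V c = (B_u)_{𝔭_c}` (`hVloc`) and `V c₁ ≠ V c₂`
  (`STB.stb_sp_princ`).
* `rtk6lfc_cross_ufd`, `rtk6lfc_smooth_ufd`, `rtk6lfc_ufd` : `atLoc 𝔫` is a UFD.
* `rtk6lfc_cross_fac`, `rtk6lfc_cross_LF`, `rtk6lfc_smooth_fac` : **(LF)** (see `DLFPt.lean`).
* `rtk6lfc_facAt` : `StbFacAt (atLoc 𝔫) m y` for `y` a unit at the components (MP-FAC form).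
-/

set_option autoImplicit false
set_option linter.unusedSectionVars false
set_option linter.unusedVariables false
set_option linter.style.haveILetI false

namespace Fermat.Agent.RT.K6

open Fermat.Agent.UNIP Fermat.Agent.STB Fermat.Agent.INJ Fermat.Agent.S36 Fermat.Agent.RIB.MP
  IntermediateField AlgebraicCurve

section Chart

universe u

variable {A₀ E F : Type u} [CommRing A₀] [IsDomain A₀] [IsDiscreteValuationRing A₀]
  [Field E] [Algebra A₀ E] [IsFractionRing A₀ E] [CharZero E]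
  [Field F] [Algebra E F] [Algebra A₀ F] [IsScalarTower A₀ E F]
  {π : A₀} {κ : Type*}

/-- **The thin crossing datum** at the closed point `𝔫` of the chart `u`: both components pass
through `𝔫`, `𝔫 = (π, X, Y)` locally, `w π = X Y` with `w ∉ 𝔫`, `X ∈ 𝔪(V₁)`, `Y ∈ 𝔪(V₂)`. -/
def Rtk6lfCrossAt (V₁ V₂ : ValuationSubring F) {u : F} (𝔫 : AtPt (F := F) π u)
    (X Y : ↥(zchClosure (A₀ := A₀) ({u} : Set F))) : Prop :=
  atThrough 𝔫 V₁ ∧ atThrough 𝔫 V₂ ∧ (X : F) ∈ V₁.nonunits ∧ (Y : F) ∈ V₂.nonunits ∧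
    (∃ w : ↥(zchClosure (A₀ := A₀) ({u} : Set F)), w ∉ 𝔫.1 ∧
      w * algebraMap A₀ ↥(zchClosure (A₀ := A₀) ({u} : Set F)) π = X * Y) ∧
    NodesLocGen 𝔫.1 {algebraMap A₀ ↥(zchClosure (A₀ := A₀) ({u} : Set F)) π, X, Y}

/-- **The dichotomy of U5 with thin nodes** at the closed point `𝔫` of the chart `u`. -/
def Rtk6lfThinAt (V₁ V₂ : ValuationSubring F) {u : F} (𝔫 : AtPt (F := F) π u) : Prop :=
  (∃ s : ↥(zchClosure (A₀ := A₀) ({u} : Set F)), s ∈ 𝔫.1 ∧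
    NodesLocGen 𝔫.1 {algebraMap A₀ ↥(zchClosure (A₀ := A₀) ({u} : Set F)) π, s}) ∨
  ∃ X Y : ↥(zchClosure (A₀ := A₀) ({u} : Set F)), Rtk6lfCrossAt V₁ V₂ 𝔫 X Y

/-- a thin node is a node -/
theorem Rtk6lfThinAt.stbNodeAt {V₁ V₂ : ValuationSubring F} {u : F} {𝔫 : AtPt (F := F) π u}
    (h : Rtk6lfThinAt V₁ V₂ 𝔫) :
    StbNodeAt V₁ V₂ 𝔫 (RingHom.id ↥(zchClosure (A₀ := A₀) ({u} : Set F)))
      (algebraMap A₀ ↥(zchClosure (A₀ := A₀) ({u} : Set F)) π) := by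
  rcases h with ⟨s, hs, hgen⟩ | ⟨X, Y, h₁, h₂, hX, hY, -, hgen⟩
  · exact Or.inl ⟨s, hs, hgen⟩
  · exact Or.inr ⟨fun x hx => h₁ x hx, fun x hx => h₂ x hx, X, Y, hX, hY, hgen⟩

include E in
/-- **(U)** `𝔪(V c) = π V c`, from (SS1), `V c = (B_u)_{𝔭_c}` and the distinctness of the
vertical valuation rings. -/
theorem rtk6lfc_hU (hπ : Irreducible π) {u : F} [Finite κ] (V : κ → ValuationSubring F)
    (hBV : ∀ c (b : F), IsIntegral ↥(Algebra.adjoin A₀ {u}) b → b ∈ V c)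
    (hπV : ∀ c, algebraMap A₀ F π ∈ (V c).nonunits)
    (hSS1 : ∀ b : F, IsIntegral ↥(Algebra.adjoin A₀ {u}) b → (∀ c, b ∈ (V c).nonunits) →
      ∃ b' : F, IsIntegral ↥(Algebra.adjoin A₀ {u}) b' ∧ b = algebraMap A₀ F π * b')
    (harch : ∀ c (a x : F), a ∈ (V c).nonunits → ∃ N : ℕ, a ^ N * x ∈ (V c).nonunits)
    (hVloc : ∀ c (x : F), x ∈ V c → ∃ b s : F, IsIntegral ↥(Algebra.adjoin A₀ {u}) b ∧
      IsIntegral ↥(Algebra.adjoin A₀ {u}) s ∧ s ∉ (V c).nonunits ∧ s * x = b)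
    (hne : ∀ c c', c ≠ c' → V c ≠ V c') :
    ∀ c (x : F), x ∈ (V c).nonunits → ∃ z ∈ V c, x = algebraMap A₀ F π * z := by
  have hπ0 : algebraMap A₀ F π ≠ 0 := ei_algebraMap_ne_zero (E := E) hπ
  have harch' : ∀ c, StbArch (V c) := fun c x a ha => by
    obtain ⟨N, hN⟩ := harch c a x ha
    exact ⟨N, by rw [mul_comm]; exact hN⟩
  intro c
  exact stb_sp_princ V hBV hSS1 hVloc c fun c' hc' =>
    stb_not_le_of_ne (harch' c) hπ0 (hπV c') (hne c c' (Ne.symm hc'))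

variable [Finite κ]

/-! ### crossing points -/

include E in
/-- **`atLoc 𝔫` is a UFD** at a thin crossing point. -/
theorem rtk6lfc_cross_ufd (hπ : Irreducible π) {u : F}
    [IsNoetherianRing ↥(zchClosure (A₀ := A₀) ({u} : Set F))]
    (V : κ → ValuationSubring F) (c₁ c₂ : κ) (hκ : ∀ c, c = c₁ ∨ c = c₂)
    (hBV : ∀ c (b : F), IsIntegral ↥(Algebra.adjoin A₀ {u}) b → b ∈ V c)
    (hπV : ∀ c, algebraMap A₀ F π ∈ (V c).nonunits)
    (hSS1 : ∀ b : F, IsIntegral ↥(Algebra.adjoin A₀ {u}) b → (∀ c, b ∈ (V c).nonunits) →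
      ∃ b' : F, IsIntegral ↥(Algebra.adjoin A₀ {u}) b' ∧ b = algebraMap A₀ F π * b')
    (hU : ∀ c (x : F), x ∈ (V c).nonunits → ∃ z ∈ V c, x = algebraMap A₀ F π * z)
    (𝔫 : AtPt (F := F) π u) {X Y : ↥(zchClosure (A₀ := A₀) ({u} : Set F))}
    (h : Rtk6lfCrossAt (V c₁) (V c₂) 𝔫 X Y) :
    UniqueFactorizationMonoid ↥(atLoc 𝔫) := by
  haveI := 𝔫.2.1.isPrime
  obtain ⟨h₁, h₂, hX, hY, ⟨w, hw, hXY⟩, hgen⟩ := h
  have hπ0 : algebraMap A₀ F π ≠ 0 := ei_algebraMap_ne_zero (E := E) hπ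
  exact rtk6lfp_cross_ufd (B := ↥(zchClosure (A₀ := A₀) ({u} : Set F)))
    Subtype.val_injective 𝔫.1 V (fun c b => hBV c _ b.2)
    (algebraMap A₀ ↥(zchClosure (A₀ := A₀) ({u} : Set F)) π)
    (ribmp_fac_hKR hπ0 V hπV hSS1) hU hπ0 c₁ c₂ (fun c _ => hκ c) h₁ h₂ hw hXY hX hY hgen

/-- **(LF) at a thin crossing point** of the chart `u`. -/
theorem rtk6lfc_cross_fac (hπ : Irreducible π) {u : F} [FiniteDimensional E⟮u⟯ F]
    [IsNoetherianRing ↥(zchClosure (A₀ := A₀) ({u} : Set F))]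
    (V : κ → ValuationSubring F) (c₁ c₂ : κ) (hκ : ∀ c, c = c₁ ∨ c = c₂)
    (hBV : ∀ c (b : F), IsIntegral ↥(Algebra.adjoin A₀ {u}) b → b ∈ V c)
    (hπV : ∀ c, algebraMap A₀ F π ∈ (V c).nonunits)
    (hSS1 : ∀ b : F, IsIntegral ↥(Algebra.adjoin A₀ {u}) b → (∀ c, b ∈ (V c).nonunits) →
      ∃ b' : F, IsIntegral ↥(Algebra.adjoin A₀ {u}) b' ∧ b = algebraMap A₀ F π * b')
    (hU : ∀ c (x : F), x ∈ (V c).nonunits → ∃ z ∈ V c, x = algebraMap A₀ F π * z)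
    (𝔫 : AtPt (F := F) π u) {X Y : ↥(zchClosure (A₀ := A₀) ({u} : Set F))}
    (h : Rtk6lfCrossAt (V c₁) (V c₂) 𝔫 X Y)
    (m : ℕ) {y : F} (hy : y ≠ 0)
    (hhor : ∀ P : Place E F, (∀ x ∈ atLoc 𝔫, x ∈ P.toValuationSubring) → (m : ℤ) ∣ P.ord y) :
    ∃ (γ : F) (ε : ↥(atLoc 𝔫)) (a b : ℤ), IsUnit ε ∧
      y = (ε : F) * (X : F) ^ a * (Y : F) ^ b * γ ^ m ∧ γ ≠ 0 ∧
      (V c₁).valuation γ = 1 ∧ (V c₂).valuation γ = 1 ∧
      (V c₁).valuation y = (V c₁).valuation (algebraMap A₀ F π) ^ a ∧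
      (V c₂).valuation y = (V c₂).valuation (algebraMap A₀ F π) ^ b := by
  haveI := 𝔫.2.1.isPrime
  obtain ⟨h₁, h₂, hX, hY, ⟨w, hw, hXY⟩, hgen⟩ := h
  have hπ0 : algebraMap A₀ F π ≠ 0 := ei_algebraMap_ne_zero (E := E) hπ
  exact rtk6lfp_cross_fac (E := E) (B := ↥(zchClosure (A₀ := A₀) ({u} : Set F)))
    Subtype.val_injective 𝔫.1 V (fun c b => hBV c _ b.2)
    (algebraMap A₀ ↥(zchClosure (A₀ := A₀) ({u} : Set F)) π)
    (ribmp_fac_hKR hπ0 V hπV hSS1) hU hπ0 hπV (ribmp_fac_hE hπ u) (ribmp_fac_hfrac (E := E) u)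
    c₁ c₂ (fun c _ => hκ c) h₁ h₂ hw hXY hX hY hgen m hy hhor

/-- **(LF) at a thin crossing point, for a unit at `V c₁`**: `y = ε · Y ^ b · γ ^ m`,
`v_{c₂}(y) = v_{c₂}(π) ^ b`. -/
theorem rtk6lfc_cross_LF (hπ : Irreducible π) {u : F} [FiniteDimensional E⟮u⟯ F]
    [IsNoetherianRing ↥(zchClosure (A₀ := A₀) ({u} : Set F))]
    (V : κ → ValuationSubring F) (c₁ c₂ : κ) (hκ : ∀ c, c = c₁ ∨ c = c₂)
    (hBV : ∀ c (b : F), IsIntegral ↥(Algebra.adjoin A₀ {u}) b → b ∈ V c)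
    (hπV : ∀ c, algebraMap A₀ F π ∈ (V c).nonunits)
    (hSS1 : ∀ b : F, IsIntegral ↥(Algebra.adjoin A₀ {u}) b → (∀ c, b ∈ (V c).nonunits) →
      ∃ b' : F, IsIntegral ↥(Algebra.adjoin A₀ {u}) b' ∧ b = algebraMap A₀ F π * b')
    (hU : ∀ c (x : F), x ∈ (V c).nonunits → ∃ z ∈ V c, x = algebraMap A₀ F π * z)
    (𝔫 : AtPt (F := F) π u) {X Y : ↥(zchClosure (A₀ := A₀) ({u} : Set F))}
    (h : Rtk6lfCrossAt (V c₁) (V c₂) 𝔫 X Y)
    (m : ℕ) {y : F} (hy : y ≠ 0)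
    (hhor : ∀ P : Place E F, (∀ x ∈ atLoc 𝔫, x ∈ P.toValuationSubring) → (m : ℤ) ∣ P.ord y)
    (hy₁ : (V c₁).valuation y = 1) :
    ∃ (γ : F) (ε : ↥(atLoc 𝔫)) (b : ℤ), IsUnit ε ∧
      y = (ε : F) * (Y : F) ^ b * γ ^ m ∧ γ ≠ 0 ∧
      (V c₁).valuation γ = 1 ∧ (V c₂).valuation γ = 1 ∧
      (V c₂).valuation y = (V c₂).valuation (algebraMap A₀ F π) ^ b := by
  haveI := 𝔫.2.1.isPrime
  obtain ⟨h₁, h₂, hX, hY, ⟨w, hw, hXY⟩, hgen⟩ := h
  have hπ0 : algebraMap A₀ F π ≠ 0 := ei_algebraMap_ne_zero (E := E) hπ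
  exact rtk6lfp_cross_LF (E := E) (B := ↥(zchClosure (A₀ := A₀) ({u} : Set F)))
    Subtype.val_injective 𝔫.1 V (fun c b => hBV c _ b.2)
    (algebraMap A₀ ↥(zchClosure (A₀ := A₀) ({u} : Set F)) π)
    (ribmp_fac_hKR hπ0 V hπV hSS1) hU hπ0 hπV (ribmp_fac_hE hπ u) (ribmp_fac_hfrac (E := E) u)
    c₁ c₂ (fun c _ => hκ c) h₁ h₂ hw hXY hX hY hgen m hy hhor hy₁

/-! ### smooth points -/

include E in
/-- **`atLoc 𝔫` is a UFD** at a smooth point. -/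
theorem rtk6lfc_smooth_ufd (hπ : Irreducible π) {u : F}
    [IsNoetherianRing ↥(zchClosure (A₀ := A₀) ({u} : Set F))]
    (V : κ → ValuationSubring F)
    (hBV : ∀ c (b : F), IsIntegral ↥(Algebra.adjoin A₀ {u}) b → b ∈ V c)
    (hπV : ∀ c, algebraMap A₀ F π ∈ (V c).nonunits)
    (hSS1 : ∀ b : F, IsIntegral ↥(Algebra.adjoin A₀ {u}) b → (∀ c, b ∈ (V c).nonunits) →
      ∃ b' : F, IsIntegral ↥(Algebra.adjoin A₀ {u}) b' ∧ b = algebraMap A₀ F π * b')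
    (hU : ∀ c (x : F), x ∈ (V c).nonunits → ∃ z ∈ V c, x = algebraMap A₀ F π * z)
    (𝔫 : AtPt (F := F) π u) (c : κ) (hthr : atThrough 𝔫 (V c))
    (hone : ∀ c', atThrough 𝔫 (V c') → c' = c)
    {s : ↥(zchClosure (A₀ := A₀) ({u} : Set F))} (hs : s ∈ 𝔫.1)
    (hgen : NodesLocGen 𝔫.1 {algebraMap A₀ ↥(zchClosure (A₀ := A₀) ({u} : Set F)) π, s}) :
    UniqueFactorizationMonoid ↥(atLoc 𝔫) := by
  haveI := 𝔫.2.1.isPrime
  have hπ0 : algebraMap A₀ F π ≠ 0 := ei_algebraMap_ne_zero (E := E) hπ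
  exact rtk6lfp_smooth_ufd (B := ↥(zchClosure (A₀ := A₀) ({u} : Set F)))
    Subtype.val_injective 𝔫.1 V (fun c b => hBV c _ b.2)
    (algebraMap A₀ ↥(zchClosure (A₀ := A₀) ({u} : Set F)) π)
    (ribmp_fac_hKR hπ0 V hπV hSS1) hU hπ0 hπV c hthr hone hs hgen

/-- **(LF) at a smooth point** of the chart `u`: `y = ε · π ^ a · γ ^ m`. -/
theorem rtk6lfc_smooth_fac (hπ : Irreducible π) {u : F} [FiniteDimensional E⟮u⟯ F]
    [IsNoetherianRing ↥(zchClosure (A₀ := A₀) ({u} : Set F))]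
    (V : κ → ValuationSubring F)
    (hBV : ∀ c (b : F), IsIntegral ↥(Algebra.adjoin A₀ {u}) b → b ∈ V c)
    (hπV : ∀ c, algebraMap A₀ F π ∈ (V c).nonunits)
    (hSS1 : ∀ b : F, IsIntegral ↥(Algebra.adjoin A₀ {u}) b → (∀ c, b ∈ (V c).nonunits) →
      ∃ b' : F, IsIntegral ↥(Algebra.adjoin A₀ {u}) b' ∧ b = algebraMap A₀ F π * b')
    (hU : ∀ c (x : F), x ∈ (V c).nonunits → ∃ z ∈ V c, x = algebraMap A₀ F π * z)
    (𝔫 : AtPt (F := F) π u) (c : κ) (hthr : atThrough 𝔫 (V c))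
    (hone : ∀ c', atThrough 𝔫 (V c') → c' = c)
    {s : ↥(zchClosure (A₀ := A₀) ({u} : Set F))} (hs : s ∈ 𝔫.1)
    (hgen : NodesLocGen 𝔫.1 {algebraMap A₀ ↥(zchClosure (A₀ := A₀) ({u} : Set F)) π, s})
    (m : ℕ) {y : F} (hy : y ≠ 0)
    (hhor : ∀ P : Place E F, (∀ x ∈ atLoc 𝔫, x ∈ P.toValuationSubring) → (m : ℤ) ∣ P.ord y) :
    ∃ (γ : F) (ε : ↥(atLoc 𝔫)) (a : ℤ), IsUnit ε ∧
      y = (ε : F) * algebraMap A₀ F π ^ a * γ ^ m ∧ γ ≠ 0 ∧
      (V c).valuation γ = 1 ∧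
      (V c).valuation y = (V c).valuation (algebraMap A₀ F π) ^ a := by
  haveI := 𝔫.2.1.isPrime
  have hπ0 : algebraMap A₀ F π ≠ 0 := ei_algebraMap_ne_zero (E := E) hπ
  exact rtk6lfp_smooth_fac (E := E) (B := ↥(zchClosure (A₀ := A₀) ({u} : Set F)))
    Subtype.val_injective 𝔫.1 V (fun c b => hBV c _ b.2)
    (algebraMap A₀ ↥(zchClosure (A₀ := A₀) ({u} : Set F)) π)
    (ribmp_fac_hKR hπ0 V hπV hSS1) hU hπ0 hπV (ribmp_fac_hE hπ u) (ribmp_fac_hfrac (E := E) u)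
    c hthr hone hs hgen m hy hhor

/-! ### all closed points -/

include E in
/-- **`atLoc 𝔫` is a UFD** at every closed point of a chart with thin nodes. -/
theorem rtk6lfc_ufd (hπ : Irreducible π) {u : F}
    [IsNoetherianRing ↥(zchClosure (A₀ := A₀) ({u} : Set F))]
    (V : κ → ValuationSubring F) (c₁ c₂ : κ) (hκ : ∀ c, c = c₁ ∨ c = c₂)
    (hBV : ∀ c (b : F), IsIntegral ↥(Algebra.adjoin A₀ {u}) b → b ∈ V c)
    (hπV : ∀ c, algebraMap A₀ F π ∈ (V c).nonunits)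
    (hSS1 : ∀ b : F, IsIntegral ↥(Algebra.adjoin A₀ {u}) b → (∀ c, b ∈ (V c).nonunits) →
      ∃ b' : F, IsIntegral ↥(Algebra.adjoin A₀ {u}) b' ∧ b = algebraMap A₀ F π * b')
    (harch : ∀ c (a x : F), a ∈ (V c).nonunits → ∃ N : ℕ, a ^ N * x ∈ (V c).nonunits)
    (hVloc : ∀ c (x : F), x ∈ V c → ∃ b s : F, IsIntegral ↥(Algebra.adjoin A₀ {u}) b ∧
      IsIntegral ↥(Algebra.adjoin A₀ {u}) s ∧ s ∉ (V c).nonunits ∧ s * x = b)
    (hne : ∀ c c', c ≠ c' → V c ≠ V c')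
    (𝔫 : AtPt (F := F) π u) (h : Rtk6lfThinAt (V c₁) (V c₂) 𝔫) :
    UniqueFactorizationMonoid ↥(atLoc 𝔫) := by
  have hπ0 : algebraMap A₀ F π ≠ 0 := ei_algebraMap_ne_zero (E := E) hπ
  have hU := rtk6lfc_hU (E := E) hπ V hBV hπV hSS1 harch hVloc hne
  have harch' : ∀ c, StbArch (V c) := fun c x a ha => by
    obtain ⟨N, hN⟩ := harch c a x ha
    exact ⟨N, by rw [mul_comm]; exact hN⟩
  rcases h with ⟨s, hs, hgen⟩ | ⟨X, Y, h⟩
  · obtain ⟨c, hc, hone⟩ := stb_sx_exists_unique V hBV hπV hSS1 hVloc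
      (fun c c' hcc' => stb_not_le_of_ne (harch' c) hπ0 (hπV c') (hne c c' hcc')) 𝔫 s hs hgen
    exact rtk6lfc_smooth_ufd (E := E) hπ V hBV hπV hSS1 hU 𝔫 c hc hone hs hgen
  · exact rtk6lfc_cross_ufd (E := E) hπ V c₁ c₂ hκ hBV hπV hSS1 hU 𝔫 h

/-- **MP-FAC form**: at every closed point of a chart with thin nodes, a function which is a unit
at the vertical valuations and whose divisor is divisible by `m` is a unit of the local ring times
an `m`-th power. -/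
theorem rtk6lfc_facAt (hπ : Irreducible π) {u : F} [FiniteDimensional E⟮u⟯ F]
    [IsNoetherianRing ↥(zchClosure (A₀ := A₀) ({u} : Set F))]
    (V : κ → ValuationSubring F) (c₁ c₂ : κ) (hκ : ∀ c, c = c₁ ∨ c = c₂)
    (hBV : ∀ c (b : F), IsIntegral ↥(Algebra.adjoin A₀ {u}) b → b ∈ V c)
    (hπV : ∀ c, algebraMap A₀ F π ∈ (V c).nonunits)
    (hSS1 : ∀ b : F, IsIntegral ↥(Algebra.adjoin A₀ {u}) b → (∀ c, b ∈ (V c).nonunits) →
      ∃ b' : F, IsIntegral ↥(Algebra.adjoin A₀ {u}) b' ∧ b = algebraMap A₀ F π * b')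
    (harch : ∀ c (a x : F), a ∈ (V c).nonunits → ∃ N : ℕ, a ^ N * x ∈ (V c).nonunits)
    (hVloc : ∀ c (x : F), x ∈ V c → ∃ b s : F, IsIntegral ↥(Algebra.adjoin A₀ {u}) b ∧
      IsIntegral ↥(Algebra.adjoin A₀ {u}) s ∧ s ∉ (V c).nonunits ∧ s * x = b)
    (hne : ∀ c c', c ≠ c' → V c ≠ V c')
    (𝔫 : AtPt (F := F) π u) (h : Rtk6lfThinAt (V c₁) (V c₂) 𝔫)
    (m : ℕ) (y : F) (hy : y ≠ 0) (hhor : ∀ P : Place E F, (m : ℤ) ∣ P.ord y)
    (hunit : ∀ c, (V c).valuation y = 1) :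
    StbFacAt (atLoc 𝔫) m y :=
  ribmp_fac_ufd_chart (E := E) hπ V hBV hπV hSS1
    (rtk6lfc_hU (E := E) hπ V hBV hπV hSS1 harch hVloc hne) 𝔫
    (rtk6lfc_ufd (E := E) hπ V c₁ c₂ hκ hBV hπV hSS1 harch hVloc hne 𝔫 h) m y hy hhor hunit

end Chart

end Fermat.Agent.RT.K6


end ZBRT_001_3

/-! ### bundled: `Fermat.Agent.RT.K6.DLFBridge` -/
section ZBRT_001_4
/-
K-machine, piece K6, piece D-LF (helper54), the BRIDGE `ρ → V`, abstract part.

UNIP's U5 (`nodesReg_chart_J`) and the thin node of S36 (`s36tm_node`, helper80) live on the chart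
`B₀ = integralClosure A₀[u] F` (a subalgebra over `A₀[u]`) and speak of the two reductions
`ρ₁, ρ₂`; the factorisation statements of `DLFChart.lean` live on `B = zchClosure {u}` (the same
subring of `F`, as an `A₀`-subalgebra) and speak of the two vertical valuation rings `V₁, V₂`.

* `rtk6lfb_locGen_map` : `NodesLocGen` along a surjective ring homomorphism;
* `rtk6lfb_locGen_thin` : in the thin relation `w p = X Y″` one may replace the (SS3) coordinate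
  `Y` (`ρ₂ Y = 0`) by `Y″`: `NodesLocGen 𝔫 {p, X, Y} → NodesLocGen 𝔫 {p, X, Y″}`  (uses (SS1));
* `rtk6lfbToZch` : the identification `B₀ → zchClosure {u}` (`rtk6lfbToZch_coe`, `_bijective`,
  `_algebraMap`);
* `rtk6lfb_thinAt_of_rho` : **the bridge**: the thin dichotomy in `ρ`-form at `𝔫 ∩ B₀` gives
  `Rtk6lfThinAt V₁ V₂ 𝔫`.
-/

set_option autoImplicit false
set_option linter.unusedSectionVars false
set_option linter.unusedVariables false
set_option linter.style.haveILetI false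

namespace Fermat.Agent.RT.K6

open Fermat.Agent.UNIP Fermat.Agent.STB Fermat.Agent.INJ Fermat.Agent.S36 Fermat.Agent.RIB.MP
  IntermediateField AlgebraicCurve

section Abs

variable {B₀ B : Type*} [CommRing B₀] [CommRing B]

/-- `NodesLocGen` along a surjective ring homomorphism. -/
theorem rtk6lfb_locGen_map (e : B₀ →+* B) (he : Function.Surjective e) (𝔫 : Ideal B)
    {T : Set B₀} (h : NodesLocGen (𝔫.comap e) T) : NodesLocGen 𝔫 (e '' T) := by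
  intro b hb
  obtain ⟨b₀, rfl⟩ := he b
  obtain ⟨u, hu, hub⟩ := h b₀ (Ideal.mem_comap.2 hb)
  refine ⟨e u, fun hu' => hu (Ideal.mem_comap.2 hu'), ?_⟩
  rw [← map_mul, ← Ideal.map_span]
  exact Ideal.mem_map_of_mem e hub

/-- **Replacing the coordinate `Y` by the thin one `Y″`.**  `B₀` a domain, (SS1)
`ker ρ₁ ∩ ker ρ₂ = p B₀`, `w p = X Y″` with `w ∉ 𝔫`, `ρ₁ X = 0`, `ρ₂ Y = 0`: then `Y″ ∣ w Y`, so
`{p, X, Y″}` generates `𝔫` locally if `{p, X, Y}` does. -/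
theorem rtk6lfb_locGen_thin [IsDomain B₀] {S₁ S₂ : Type*} [CommRing S₁] [CommRing S₂]
    (ρ₁ : B₀ →+* S₁) (ρ₂ : B₀ →+* S₂) {p : B₀} (hp0 : p ≠ 0)
    (hSS1 : ∀ x, ρ₁ x = 0 → ρ₂ x = 0 → p ∣ x)
    (𝔫 : Ideal B₀) [h𝔫 : 𝔫.IsPrime] {X Y Y'' w : B₀} (hw : w ∉ 𝔫) (hXY : w * p = X * Y'')
    (hX : ρ₁ X = 0) (hY : ρ₂ Y = 0) (hgen : NodesLocGen 𝔫 {p, X, Y}) :
    NodesLocGen 𝔫 {p, X, Y''} := by
  have hw0 : w ≠ 0 := fun h => hw (h ▸ 𝔫.zero_mem)
  have hX0 : X ≠ 0 := by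
    rintro rfl
    rw [zero_mul] at hXY
    exact mul_ne_zero hw0 hp0 hXY
  -- `Y″ ∣ w Y`
  obtain ⟨c, hc⟩ := hSS1 (X * Y) (by rw [map_mul, hX, zero_mul]) (by rw [map_mul, hY, mul_zero])
  have hYY : w * Y = Y'' * c := by
    apply mul_left_cancel₀ hX0
    calc X * (w * Y) = w * (X * Y) := by ring
      _ = w * p * c := by rw [hc]; ring
      _ = X * (Y'' * c) := by rw [hXY]; ring
  intro b hb
  obtain ⟨v, hv, hvb⟩ := hgen b hb
  refine ⟨w * v, fun h => (h𝔫.mem_or_mem h).elim hw hv, ?_⟩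
  obtain ⟨a₁, z₁, hz₁, h₁⟩ := Ideal.mem_span_insert.1 hvb
  obtain ⟨a₂, z₂, hz₂, h₂⟩ := Ideal.mem_span_insert.1 hz₁
  obtain ⟨a₃, h₃⟩ := Ideal.mem_span_singleton'.1 hz₂
  have : w * v * b = (w * a₁) * p + ((w * a₂) * X + (a₃ * c) * Y'') := by
    calc w * v * b = w * (v * b) := by ring
      _ = w * (a₁ * p + (a₂ * X + a₃ * Y)) := by rw [h₁, h₂, ← h₃]
      _ = (w * a₁) * p + ((w * a₂) * X + a₃ * (w * Y)) := by ring
      _ = (w * a₁) * p + ((w * a₂) * X + (a₃ * c) * Y'') := by rw [hYY]; ring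
  rw [this]
  exact Ideal.mem_span_insert.2 ⟨w * a₁, _, Ideal.mem_span_insert.2 ⟨w * a₂, _,
    Ideal.mem_span_singleton'.2 ⟨a₃ * c, rfl⟩, rfl⟩, rfl⟩

end Abs

section Chart

universe u

variable {A₀ E F : Type u} [CommRing A₀] [IsDomain A₀] [IsDiscreteValuationRing A₀]
  [Field E] [Algebra A₀ E] [IsFractionRing A₀ E] [CharZero E]
  [Field F] [Algebra E F] [Algebra A₀ F] [IsScalarTower A₀ E F]
  {π : A₀}

/-- The identification of the chart `integralClosure A₀[S] F` (a subalgebra over `A₀[S]`) with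
`zchClosure S` (the same subring, as an `A₀`-subalgebra). -/
def rtk6lfbToZch (S : Set F) :
    ↥(integralClosure ↥(Algebra.adjoin A₀ S) F) →+* ↥(zchClosure (A₀ := A₀) S) where
  toFun x := ⟨(x : F), mem_zchClosure.2 x.2⟩
  map_one' := rfl
  map_mul' _ _ := rfl
  map_zero' := rfl
  map_add' _ _ := rfl

@[simp]
theorem rtk6lfbToZch_coe (S : Set F) (x : ↥(integralClosure ↥(Algebra.adjoin A₀ S) F)) :
    ((rtk6lfbToZch (A₀ := A₀) S x : ↥(zchClosure (A₀ := A₀) S)) : F) = (x : F) := rfl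

theorem rtk6lfbToZch_mk (S : Set F) (b : ↥(zchClosure (A₀ := A₀) S)) :
    rtk6lfbToZch (A₀ := A₀) S ⟨(b : F), mem_zchClosure.1 b.2⟩ = b :=
  Subtype.ext (rtk6lfbToZch_coe S _)

theorem rtk6lfbToZch_injective (S : Set F) :
    Function.Injective (rtk6lfbToZch (A₀ := A₀) (F := F) S) := fun x y h =>
  Subtype.ext ((rtk6lfbToZch_coe S x).symm.trans ((congrArg Subtype.val h).trans
    (rtk6lfbToZch_coe S y)))

theorem rtk6lfbToZch_surjective (S : Set F) :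
    Function.Surjective (rtk6lfbToZch (A₀ := A₀) (F := F) S) := fun b =>
  ⟨⟨(b : F), mem_zchClosure.1 b.2⟩, rtk6lfbToZch_mk S b⟩

theorem rtk6lfbToZch_algebraMap (S : Set F) (a : A₀) :
    rtk6lfbToZch (A₀ := A₀) S (algebraMap A₀ ↥(integralClosure ↥(Algebra.adjoin A₀ S) F) a) =
      algebraMap A₀ ↥(zchClosure (A₀ := A₀) S) a :=
  Subtype.ext rfl

/-- a component whose kernel lies in `𝔫 ∩ B₀` passes through `𝔫` -/
theorem rtk6lfb_through (W : ValuationSubring F) {u : F} {S : Type*} [CommRing S]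
    (ρ : ↥(integralClosure ↥(Algebra.adjoin A₀ ({u} : Set F)) F) →+* S)
    (hρ : ∀ x : ↥(integralClosure ↥(Algebra.adjoin A₀ ({u} : Set F)) F),
      (x : F) ∈ W.nonunits ↔ ρ x = 0)
    (𝔫 : AtPt (F := F) π u)
    (hker : ∀ x, ρ x = 0 → x ∈ 𝔫.1.comap (rtk6lfbToZch (A₀ := A₀) ({u} : Set F))) :
    atThrough 𝔫 W := by
  intro b hb
  have := hker ⟨(b : F), mem_zchClosure.1 b.2⟩ ((hρ _).1 hb)
  rw [Ideal.mem_comap, rtk6lfbToZch_mk] at this
  exact this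

/-- **The bridge `ρ → V` at one closed point.**  `ρ₁, ρ₂` two ring homomorphisms on the chart
`B₀ = integralClosure A₀[u] F` with `ker ρ_i = 𝔪(V_i) ∩ B₀`; the thin dichotomy in `ρ`-form at
`𝔫 ∩ B₀` gives the thin dichotomy `Rtk6lfThinAt V₁ V₂ 𝔫`. -/
theorem rtk6lfb_thinAt_of_rho (V₁ V₂ : ValuationSubring F) {u : F}
    {S₁ S₂ : Type*} [CommRing S₁] [CommRing S₂]
    (ρ₁ : ↥(integralClosure ↥(Algebra.adjoin A₀ ({u} : Set F)) F) →+* S₁)
    (ρ₂ : ↥(integralClosure ↥(Algebra.adjoin A₀ ({u} : Set F)) F) →+* S₂)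
    (hρ₁ : ∀ x : ↥(integralClosure ↥(Algebra.adjoin A₀ ({u} : Set F)) F),
      (x : F) ∈ V₁.nonunits ↔ ρ₁ x = 0)
    (hρ₂ : ∀ x : ↥(integralClosure ↥(Algebra.adjoin A₀ ({u} : Set F)) F),
      (x : F) ∈ V₂.nonunits ↔ ρ₂ x = 0)
    (𝔫 : AtPt (F := F) π u)
    (h : (∃ s ∈ 𝔫.1.comap (rtk6lfbToZch (A₀ := A₀) ({u} : Set F)),
        NodesLocGen (𝔫.1.comap (rtk6lfbToZch (A₀ := A₀) ({u} : Set F)))
          {algebraMap A₀ ↥(integralClosure ↥(Algebra.adjoin A₀ ({u} : Set F)) F) π, s}) ∨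
      ((∀ x, ρ₁ x = 0 → x ∈ 𝔫.1.comap (rtk6lfbToZch (A₀ := A₀) ({u} : Set F))) ∧
       (∀ x, ρ₂ x = 0 → x ∈ 𝔫.1.comap (rtk6lfbToZch (A₀ := A₀) ({u} : Set F))) ∧
        ∃ X Y w : ↥(integralClosure ↥(Algebra.adjoin A₀ ({u} : Set F)) F),
          ρ₁ X = 0 ∧ ρ₂ Y = 0 ∧ w ∉ 𝔫.1.comap (rtk6lfbToZch (A₀ := A₀) ({u} : Set F)) ∧
          w * algebraMap A₀ ↥(integralClosure ↥(Algebra.adjoin A₀ ({u} : Set F)) F) π = X * Y ∧
          NodesLocGen (𝔫.1.comap (rtk6lfbToZch (A₀ := A₀) ({u} : Set F)))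
            {algebraMap A₀ ↥(integralClosure ↥(Algebra.adjoin A₀ ({u} : Set F)) F) π, X, Y})) :
    Rtk6lfThinAt V₁ V₂ 𝔫 := by
  rcases h with ⟨s, hs, hgen⟩ | ⟨h1, h2, X, Y, w, hX, hY, hw, hXY, hgen⟩
  · refine Or.inl ⟨rtk6lfbToZch (A₀ := A₀) ({u} : Set F) s, Ideal.mem_comap.1 hs, ?_⟩
    have := rtk6lfb_locGen_map _ (rtk6lfbToZch_surjective (A₀ := A₀) ({u} : Set F)) 𝔫.1 hgen
    rwa [Set.image_insert_eq, Set.image_singleton, rtk6lfbToZch_algebraMap] at this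
  · refine Or.inr ⟨rtk6lfbToZch (A₀ := A₀) ({u} : Set F) X,
      rtk6lfbToZch (A₀ := A₀) ({u} : Set F) Y, rtk6lfb_through V₁ ρ₁ hρ₁ 𝔫 h1, rtk6lfb_through V₂ ρ₂ hρ₂ 𝔫 h2,
      (hρ₁ X).2 hX, (hρ₂ Y).2 hY,
      ⟨rtk6lfbToZch (A₀ := A₀) ({u} : Set F) w, fun h => hw (Ideal.mem_comap.2 h), ?_⟩, ?_⟩
    · rw [← rtk6lfbToZch_algebraMap, ← map_mul, hXY, map_mul]
    · have := rtk6lfb_locGen_map _ (rtk6lfbToZch_surjective (A₀ := A₀) ({u} : Set F)) 𝔫.1 hgen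
      rwa [Set.image_insert_eq, Set.image_insert_eq, Set.image_singleton,
        rtk6lfbToZch_algebraMap] at this

end Chart

end Fermat.Agent.RT.K6


end ZBRT_001_4

/-! ### bundled: `Fermat.Agent.RT.K6.DLFConc` -/
section ZBRT_001_5
/-
K-machine, piece K6, piece D-LF (helper54), the BRIDGE `ρ → V`, concrete part
(= MP-FAC piece FAC-A, chart `j`, with the thin relation kept).

Level `M q`, `q ∤ M`, RIGID: `4 ∣ M` if `q ≠ 2`, `9 ∣ M` if `q = 2`.  `A` a valuation subring of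
`ℚ̄` over `q`, `K₀ ⊆ ℚ̄` with `A₀ = A ∩ K₀` a DVR, UNRAMIFIED (`q` a uniformizer), stable under a
Frobenius element; `F = F_{Mq}(K₀)`, chart `j`, `V = mgvV hπ ιC hq hqM` (`V true = V_∞`,
`V false = V_0`).

* `rtk6lfb_gen_thin_J` : generic base (setting of `UNIP/NodesFinalReg.lean`): the dichotomy of U5
  on the chart `j` with THIN crossing points, in `ρ`-form: smooth point, or
  `w π = X Y`, `w ∉ 𝔫`, `ρ X = 0`, `ρ₀ Y = 0`, `𝔫 = (π, X, Y)` locally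
  (`nodesReg_chart_J` + `S36.s36tm_node` + `rtk6lfb_locGen_thin`);
* `rtk6lfb_thinAt_J` : **`Rtk6lfThinAt V_∞ V_0 𝔫` at every closed point `𝔫` of the chart `j`**;
* `rtk6lfb_ufd_J` : `atLoc 𝔫` is a UFD (= `hufd` of `RIB.MP.ribmp_fc_main` on the chart `j`);
* `rtk6lfb_val_zpow` : `v_c(y) = v_c(π) ^ n` for some `n : ℤ` (the vertical valuations are discrete);
* `rtk6lfb_cross_LF_J`, `rtk6lfb_smooth_LF_J`, `rtk6lfb_LF_J` : **(LF)** for a function `y ≠ 0`,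
  unit at `V_∞`, `v_0(y) = v_0(π) ^ n₀`, whose divisor is divisible by `m`: at every closed point
  `y = ε Y ^ n₀ γ ^ m` (crossing point), `y = ε π ^ n₀ γ ^ m` (smooth point of `Σ_0`),
  `y = ε γ ^ m` (smooth point of `Σ_∞`);
* `rtk6lfb0_thinAt_J`, `rtk6lfb0_ufd_J`, `rtk6lfb0_LF_J` : the same for `K₀ = ℚ̄^I = beta0Field A`
  (no hypothesis left but the rigidity of the level).
-/

set_option autoImplicit false
set_option linter.style.haveILetI false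
set_option linter.unusedSectionVars false
set_option linter.unusedVariables false
set_option linter.style.longLine false
set_option synthInstance.maxHeartbeats 400000
set_option maxHeartbeats 8000000

noncomputable section

namespace Fermat.Agent.RT.K6

open ModularCurve Polynomial IntermediateField Fermat.Agent.INJ Fermat.Agent.AL AlgebraicCurve
open Fermat.Agent.ES Fermat.Agent.ES.G2 Fermat.Agent.STB Fermat.Agent.UNIP Fermat.Agent.S36
open Fermat.Agent.RIB.MP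

section Val

/-- auxiliary: descent for `rtk6lfb_val_zpow` -/
theorem rtk6lfb_val_pow_aux {F : Type*} [Field F] (V : ValuationSubring F) {p : F}
    (hp0 : p ≠ 0) (hU : ∀ x : F, x ∈ V.nonunits → ∃ z ∈ V, x = p * z) :
    ∀ (N : ℕ) (y : F), y ∈ V → y ≠ 0 → p ^ N * y⁻¹ ∈ V.nonunits →
      ∃ n : ℕ, V.valuation y = V.valuation p ^ n := by
  intro N
  induction N with
  | zero =>
    intro y hyV hy h
    exfalso
    rw [pow_zero, one_mul, ValuationSubring.mem_nonunits_iff, map_inv₀] at h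
    have h1 : V.valuation y ≤ 1 := (V.valuation_le_one_iff y).2 hyV
    have hy0 : V.valuation y ≠ 0 := (Valuation.ne_zero_iff _).2 hy
    have h2 : (1 : ValuationSubring.ValueGroup V) ≤ (V.valuation y)⁻¹ :=
      (one_le_inv₀ (zero_lt_iff.2 hy0)).2 h1
    exact absurd h (not_lt.2 h2)
  | succ N ih =>
    intro y hyV hy h
    by_cases hyu : y ∈ V.nonunits
    · obtain ⟨z, hzV, rfl⟩ := hU y hyu
      have hz0 : z ≠ 0 := fun h0 => hy (by rw [h0, mul_zero])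
      have h' : p ^ N * z⁻¹ ∈ V.nonunits := by
        have : p ^ (N + 1) * (p * z)⁻¹ = p ^ N * z⁻¹ := by
          rw [pow_succ, mul_inv]
          field_simp
        rwa [this] at h
      obtain ⟨n, hn⟩ := ih z hzV hz0 h'
      exact ⟨n + 1, by rw [map_mul, hn, pow_succ, mul_comm]⟩
    · refine ⟨0, ?_⟩
      rw [pow_zero]
      rw [ValuationSubring.mem_nonunits_iff, not_lt] at hyu
      exact le_antisymm ((V.valuation_le_one_iff y).2 hyV) hyu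

/-- **The valuation of a valuation ring with principal maximal ideal `(p)` and archimedean value
group is discrete**: every nonzero `y` has `v(y) = v(p) ^ n`. -/
theorem rtk6lfb_val_zpow {F : Type*} [Field F] (V : ValuationSubring F) {p : F}
    (hp : p ∈ V.nonunits) (hp0 : p ≠ 0)
    (hU : ∀ x : F, x ∈ V.nonunits → ∃ z ∈ V, x = p * z)
    (harch : ∀ a x : F, a ∈ V.nonunits → ∃ N : ℕ, a ^ N * x ∈ V.nonunits)
    {y : F} (hy : y ≠ 0) : ∃ n : ℤ, V.valuation y = V.valuation p ^ n := by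
  rcases V.mem_or_inv_mem y with hyV | hyV
  · obtain ⟨N, hN⟩ := harch p y⁻¹ hp
    obtain ⟨n, hn⟩ := rtk6lfb_val_pow_aux V hp0 hU N y hyV hy hN
    exact ⟨n, by rw [hn, zpow_natCast]⟩
  · obtain ⟨N, hN⟩ := harch p y hp
    have hN' : p ^ N * (y⁻¹)⁻¹ ∈ V.nonunits := by rwa [inv_inv]
    obtain ⟨n, hn⟩ := rtk6lfb_val_pow_aux V hp0 hU N y⁻¹ hyV (inv_ne_zero hy) hN'
    refine ⟨-(n : ℤ), ?_⟩
    rw [zpow_neg, zpow_natCast, ← hn, map_inv₀, inv_inv]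

/-- injectivity of `n ↦ v(p) ^ n` for `p ≠ 0` in the maximal ideal -/
theorem rtk6lfb_zpow_inj {F : Type*} [Field F] (V : ValuationSubring F) {p : F}
    (hp : p ∈ V.nonunits) (hp0 : p ≠ 0) {a b : ℤ}
    (h : V.valuation p ^ a = V.valuation p ^ b) : a = b := by
  have hv0 : V.valuation p ≠ 0 := (Valuation.ne_zero_iff _).2 hp0
  have h1 : V.valuation p ^ (a - b) = 1 := by
    rw [zpow_sub₀ hv0, h]
    exact mul_inv_cancel₀ (zpow_ne_zero _ hv0)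
  have := rtk6lfp_zpow_eq_one V hp hp0 h1
  omega

end Val

section Generic

variable (K₀ : IntermediateField ℚ NfQb) {A₀ : Type} [CommRing A₀] [IsDomain A₀]
  [IsDiscreteValuationRing A₀] [Algebra A₀ K₀] [IsFractionRing A₀ K₀]
  {k : Type*} [Field k] (r : A₀ →+* k) {π : A₀} (ιC : K₀ →+* ℂ)
  {q M : ℕ} [NeZero q] [NeZero M] [NeZero (M * q)] (hq : q.Prime) (hqM : ¬ q ∣ M)
  (ψA : A₀ →+* A₀) (ψE : K₀ →+* K₀) (θ : k →+* k)
  [Algebra A₀ (modularFunctionFieldFullC K₀ M)]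
  [IsScalarTower A₀ K₀ (modularFunctionFieldFullC K₀ M)]
  [Algebra A₀ (modularFunctionFieldFullC K₀ (M * q))]
  [IsScalarTower A₀ K₀ (modularFunctionFieldFullC K₀ (M * q))]

include ψA ψE θ in
/-- **The dichotomy of U5 on the chart `j` with THIN crossing points, `ρ`-form**, generic base,
rigid level. -/
theorem rtk6lfb_gen_thin_J [Fact q.Prime] [CharP k q]
    (hπ : Irreducible π) (hr : ∀ a, r a = 0 → π ∣ a) (hrπ : r π = 0)
    (hrs : Function.Surjective r) (hqπ : Associated ((q : ℕ) : A₀) π)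
    (rigid : (q ≠ 2 → 4 ∣ M) ∧ (q = 2 → 9 ∣ M))
    (h : RegChart (E := K₀) π (bgJ K₀ M))
    (hψ : ∀ a, ψE (algebraMap A₀ K₀ a) = algebraMap A₀ K₀ (ψA a))
    (hθ : ∀ a, r (ψA a) = θ (r a)) (hθq : ∀ x, θ x ^ q = x)
    (t : modularFunctionFieldFullC K₀ (M * q))
    (e : nodesInstIncl K₀ M q (bgJ K₀ M) = t)
    (ht : (t : LaurentSeries K₀) ∈ gaussRing (algebraMap A₀ K₀) r)
    (hwt : (((atkinLehner K₀ ιC hq hqM).toAlgHom t : modularFunctionFieldFullC K₀ (M * q)) :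
      LaurentSeries K₀) ∈ gaussRing (algebraMap A₀ K₀) r)
    (𝔫 : Ideal (integralClosure (Algebra.adjoin A₀ {t}) (modularFunctionFieldFullC K₀ (M * q))))
    (h𝔫 : 𝔫.IsMaximal)
    (hπ𝔫 : algebraMap A₀ (integralClosure (Algebra.adjoin A₀ {t})
      (modularFunctionFieldFullC K₀ (M * q))) π ∈ 𝔫) :
    (∃ s ∈ 𝔫, NodesLocGen 𝔫 {algebraMap A₀ (integralClosure (Algebra.adjoin A₀ {t})
      (modularFunctionFieldFullC K₀ (M * q))) π, s}) ∨
    ((∀ x, nodesFrobChartRed r hπ.ne_zero hπ.not_isUnit hr hrπ (nodesFrob_full_le (M * q)) t ht x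
        = 0 → x ∈ 𝔫) ∧
     (∀ x, nodesSwapRho₀ r hπ.ne_zero hπ.not_isUnit hr hrπ (nodesFrob_full_le (M * q))
        (atkinLehner K₀ ιC hq hqM).toAlgHom t hwt x = 0 → x ∈ 𝔫) ∧
      ∃ X Y w : integralClosure (Algebra.adjoin A₀ {t}) (modularFunctionFieldFullC K₀ (M * q)),
        nodesFrobChartRed r hπ.ne_zero hπ.not_isUnit hr hrπ (nodesFrob_full_le (M * q)) t ht X
          = 0 ∧
        nodesSwapRho₀ r hπ.ne_zero hπ.not_isUnit hr hrπ (nodesFrob_full_le (M * q))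
          (atkinLehner K₀ ιC hq hqM).toAlgHom t hwt Y = 0 ∧
        w ∉ 𝔫 ∧
        w * algebraMap A₀ (integralClosure (Algebra.adjoin A₀ {t})
          (modularFunctionFieldFullC K₀ (M * q))) π = X * Y ∧
        NodesLocGen 𝔫 {algebraMap A₀ (integralClosure (Algebra.adjoin A₀ {t})
          (modularFunctionFieldFullC K₀ (M * q))) π, X, Y}) := by
  subst e
  haveI := h𝔫.isPrime
  rcases nodesReg_chart_J K₀ r ιC hq hqM ψA ψE θ hπ hr hrπ h hψ hθ hθq 𝔫 h𝔫 hπ𝔫 with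
    h0 | ⟨h1, h2, X, Y, hX, hY, hsX, hsY, hXY, hgen⟩
  · exact Or.inl h0
  · haveI := stbmn_fd_J K₀ (M := M) (q := q)
    have htr : Transcendental K₀ (nodesInstIncl K₀ M q (bgJ K₀ M)) := by
      rw [stbmn_incl_J_gen]
      exact bgConst_transcendental_bgJ K₀ (M * q)
    haveI : IsNoetherianRing (integralClosure (Algebra.adjoin A₀ {nodesInstIncl K₀ M q (bgJ K₀ M)})
        (modularFunctionFieldFullC K₀ (M * q))) :=
      chart_closure_isNoetherianRing (A₀ := A₀) (E := K₀) htr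
    have hJ : IsIntegral (Algebra.adjoin A₀ {nodesInstIncl K₀ M q (bgJ K₀ M)})
        (nodesFrobJ K₀ M q) := by
      rw [nodesFinal_incl_J]
      exact mgvl_isIntegral_J
    have hSS1 := fun x hx hx₀ => nodesReg_ker_J K₀ r ιC hq hqM hπ hr hrπ h x hx hx₀
    obtain ⟨-, -, Y'', w, hw, hwπ, hY'', -⟩ := s36tm_node r ιC hq hqM hπ.ne_zero hπ.not_isUnit
      hr hrπ (atkinLehner K₀ ιC hq hqM).toAlgHom (nodesInstIncl K₀ M q (bgJ K₀ M))
      (nodesInst_ht' r M q (bgJ K₀ M) (nodesFinal_J_mem K₀ r))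
      (nodesFinal_wJ_mem K₀ r ιC hq hqM) (fun _ => rfl) hqπ hrs rigid hJ hSS1
      (fun b => nodesSwap_swap_J (A := A₀) (E := K₀) r ιC hq hqM hπ.ne_zero hπ.not_isUnit hr hrπ
        (nodesInstIncl K₀ M q (bgJ K₀ M)) (nodesInstIncl_coe M q (bgJ K₀ M))
        (nodesInst_ht' r M q (bgJ K₀ M) (nodesFinal_J_mem K₀ r))
        (nodesFinal_wJ_mem K₀ r ιC hq hqM) b)
      𝔫 h1 h2 hX hY hsX hsY
    have hπB : algebraMap A₀ (integralClosure (Algebra.adjoin A₀ {nodesInstIncl K₀ M q (bgJ K₀ M)})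
        (modularFunctionFieldFullC K₀ (M * q))) π ≠ 0 := by
      intro h0
      have h1 := congrArg (fun z : integralClosure
        (Algebra.adjoin A₀ {nodesInstIncl K₀ M q (bgJ K₀ M)})
        (modularFunctionFieldFullC K₀ (M * q)) => (z : modularFunctionFieldFullC K₀ (M * q))) h0
      exact s36tu_algebraMap_ne_zero hπ.ne_zero h1
    exact Or.inr ⟨h1, h2, X, Y'', w, hX, hY'', hw, hwπ,
      rtk6lfb_locGen_thin _ _ hπB hSS1 𝔫 hw hwπ hX hY hgen⟩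

end Generic

section Reg

variable {A : ValuationSubring Qb} {K₀ : IntermediateField ℚ Qb}
  [IsDiscreteValuationRing ↥(beta0Ring A K₀)] {π : ↥(beta0Ring A K₀)} (hπ : Irreducible π)
  (ιC : ↥K₀ →+* ℂ) {q M : ℕ} [NeZero q] [NeZero M] [NeZero (M * q)]
  (hq : q.Prime) (hqM : ¬ q ∣ M)

include hπ ιC hq hqM in
theorem rtk6lfb_thinAt_J_aux (hA : A.LiesOverPrime q) {φ : Qb ≃ₐ[ℚ] Qb}
    (hφF : A.IsFrobeniusAt φ q) (hφ : ∀ x ∈ K₀, φ x ∈ K₀)
    (hqπ : Associated ((q : ℕ) : ↥(beta0Ring A K₀)) π)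
    (rigid : (q ≠ 2 → 4 ∣ M) ∧ (q = 2 → 9 ∣ M))
    (h : RegChart (E := ↥K₀) π (bgJ ↥K₀ M))
    (t : ↥(modularFunctionFieldFullC ↥K₀ (M * q)))
    (e : nodesInstIncl ↥K₀ M q (bgJ ↥K₀ M) = t)
    (𝔫 : AtPt (F := ↥(modularFunctionFieldFullC ↥K₀ (M * q))) π t) :
    Rtk6lfThinAt (mgvV hπ ιC hq hqM true) (mgvV hπ ιC hq hqM false) 𝔫 := by
  haveI : Fact q.Prime := ⟨hq⟩
  haveI : CharP (IsLocalRing.ResidueField ↥(beta0Ring A K₀)) q := frobLift_charP A K₀ hq hA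
  have ht : (t : LaurentSeries ↥K₀) ∈ gaussRing (algebraMap ↥(beta0Ring A K₀) ↥K₀)
      (IsLocalRing.residue ↥(beta0Ring A K₀)) := by
    rw [← e]
    exact nodesInst_ht' (IsLocalRing.residue ↥(beta0Ring A K₀)) M q (bgJ ↥K₀ M)
      (nodesFinal_J_mem K₀ (IsLocalRing.residue ↥(beta0Ring A K₀)))
  have hwt : (((atkinLehner ↥K₀ ιC hq hqM).toAlgHom t : ↥(modularFunctionFieldFullC ↥K₀ (M * q))) :
      LaurentSeries ↥K₀) ∈ gaussRing (algebraMap ↥(beta0Ring A K₀) ↥K₀)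
        (IsLocalRing.residue ↥(beta0Ring A K₀)) := by
    rw [← e]
    exact nodesFinal_wJ_mem K₀ (IsLocalRing.residue ↥(beta0Ring A K₀)) ιC hq hqM
  refine rtk6lfb_thinAt_of_rho (mgvV hπ ιC hq hqM true) (mgvV hπ ιC hq hqM false)
    (nodesFrobChartRed (IsLocalRing.residue ↥(beta0Ring A K₀)) hπ.ne_zero hπ.not_isUnit
      (stb_residue_ker hπ) (stb_residue_pi hπ) (nodesFrob_full_le (M * q)) t ht)
    (nodesSwapRho₀ (IsLocalRing.residue ↥(beta0Ring A K₀)) hπ.ne_zero hπ.not_isUnit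
      (stb_residue_ker hπ) (stb_residue_pi hπ) (nodesFrob_full_le (M * q))
      (atkinLehner ↥K₀ ιC hq hqM).toAlgHom t hwt)
    (fun x => (mgcb_rho_eq_zero_iff_mgvV hπ ιC hq hqM _ (stb_residue_ker hπ) (stb_residue_pi hπ)
      t ht x).symm)
    (fun x => (mgcb_rho₀_eq_zero_iff_mgvV hπ ιC hq hqM _ (stb_residue_ker hπ)
      (stb_residue_pi hπ) t hwt x).symm) 𝔫 ?_
  have hmax : (𝔫.1.comap (rtk6lfbToZch (A₀ := ↥(beta0Ring A K₀))
      ({t} : Set ↥(modularFunctionFieldFullC ↥K₀ (M * q))))).IsMaximal :=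
    haveI := 𝔫.2.1
    Ideal.comap_isMaximal_of_surjective (rtk6lfbToZch (A₀ := ↥(beta0Ring A K₀))
      ({t} : Set ↥(modularFunctionFieldFullC ↥K₀ (M * q)))) (rtk6lfbToZch_surjective _)
  have hπ𝔫 : algebraMap ↥(beta0Ring A K₀) ↥(integralClosure
      ↥(Algebra.adjoin ↥(beta0Ring A K₀) ({t} : Set ↥(modularFunctionFieldFullC ↥K₀ (M * q))))
      ↥(modularFunctionFieldFullC ↥K₀ (M * q))) π ∈
      𝔫.1.comap (rtk6lfbToZch (A₀ := ↥(beta0Ring A K₀))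
        ({t} : Set ↥(modularFunctionFieldFullC ↥K₀ (M * q)))) := by
    rw [Ideal.mem_comap, rtk6lfbToZch_algebraMap]
    exact 𝔫.2.2
  exact rtk6lfb_gen_thin_J K₀ (IsLocalRing.residue ↥(beta0Ring A K₀)) ιC hq hqM
    ((stbLiftA hφF hφ).symm : ↥(beta0Ring A K₀) →+* ↥(beta0Ring A K₀))
    ((mgaRestrictEquiv K₀ φ hφ).symm : ↥K₀ →+* ↥K₀)
    (stbLiftTheta hφF hφ) hπ (stb_residue_ker hπ) (stb_residue_pi hπ)
    Ideal.Quotient.mk_surjective hqπ rigid h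
    (stbLift_hψ' hφF hφ) (stbLift_hθ hφF hφ) (stbLift_hθq hφF hφ)
    t e ht hwt _ hmax hπ𝔫

include hπ ιC hq hqM in
/-- **The thin dichotomy at every closed point of the chart `j`** of `F_{Mq}(K₀)` over
`A₀ = A ∩ K₀` (unramified, Frobenius-stable), rigid level. -/
theorem rtk6lfb_thinAt_J (hA : A.LiesOverPrime q) {φ : Qb ≃ₐ[ℚ] Qb}
    (hφF : A.IsFrobeniusAt φ q) (hφ : ∀ x ∈ K₀, φ x ∈ K₀)
    (hqπ : Associated ((q : ℕ) : ↥(beta0Ring A K₀)) π)
    (rigid : (q ≠ 2 → 4 ∣ M) ∧ (q = 2 → 9 ∣ M))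
    (h : RegChart (E := ↥K₀) π (bgJ ↥K₀ M))
    (𝔫 : AtPt (F := ↥(modularFunctionFieldFullC ↥K₀ (M * q))) π (bgJ ↥K₀ (M * q))) :
    Rtk6lfThinAt (mgvV hπ ιC hq hqM true) (mgvV hπ ιC hq hqM false) 𝔫 :=
  rtk6lfb_thinAt_J_aux hπ ιC hq hqM hA hφF hφ hqπ rigid h _ mgcb_incl_bgJ 𝔫

/-! ### the globals on the chart `j` -/

omit [NeZero M] in
theorem rtk6lfb_rigid_h2 (rigid : (q ≠ 2 → 4 ∣ M) ∧ (q = 2 → 9 ∣ M)) : q = 2 → 3 ∣ M :=
  fun h => Dvd.dvd.trans (by norm_num) (rigid.2 h)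

omit [NeZero M] in
theorem rtk6lfb_rigid_h3 (rigid : (q ≠ 2 → 4 ∣ M) ∧ (q = 2 → 9 ∣ M)) : q = 3 → 2 ∣ M :=
  fun h => Dvd.dvd.trans (by norm_num) (rigid.1 (by omega))

include hπ ιC hq hqM in
/-- `V_∞ ≠ V_0`, in the form `hne` -/
theorem rtk6lfb_hne (hA : A.LiesOverPrime q) :
    ∀ c c' : Bool, c ≠ c' → mgvV hπ ιC hq hqM c ≠ mgvV hπ ιC hq hqM c' := by
  intro c c' hcc'
  cases c <;> cases c'
  · exact absurd rfl hcc'
  · exact (mgvl_hne hπ ιC hq hqM hA).symm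
  · exact mgvl_hne hπ ιC hq hqM hA
  · exact absurd rfl hcc'

/-- the chart `j` is noetherian -/
theorem rtk6lfb_noeth_J :
    IsNoetherianRing ↥(zchClosure (A₀ := ↥(beta0Ring A K₀))
      ({bgJ ↥K₀ (M * q)} : Set ↥(modularFunctionFieldFullC ↥K₀ (M * q)))) := by
  haveI := ribmp_fc_fin (K₀ := K₀) (M * q)
  exact chart_closure_isNoetherianRing (A₀ := ↥(beta0Ring A K₀)) (E := ↥K₀)
    (ribmp_fc_trans (K₀ := K₀) (M * q))

include hπ ιC hq hqM in
/-- **`atLoc 𝔫` is a UFD at every closed point of the chart `j`** (rigid level, unramified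
Frobenius-stable base) — the hypothesis `hufd` of `RIB.MP.ribmp_fc_main` on the chart `j`. -/
theorem rtk6lfb_ufd_J (hA : A.LiesOverPrime q) (hE : beta0Field A ≤ K₀) {φ : Qb ≃ₐ[ℚ] Qb}
    (hφF : A.IsFrobeniusAt φ q) (hφ : ∀ x ∈ K₀, φ x ∈ K₀)
    (hqπ : Associated ((q : ℕ) : ↥(beta0Ring A K₀)) π)
    (rigid : (q ≠ 2 → 4 ∣ M) ∧ (q = 2 → 9 ∣ M))
    (𝔫 : AtPt (F := ↥(modularFunctionFieldFullC ↥K₀ (M * q))) π (bgJ ↥K₀ (M * q))) :
    UniqueFactorizationMonoid ↥(atLoc 𝔫) := by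
  haveI := rtk6lfb_noeth_J (A := A) (K₀ := K₀) (M := M) (q := q)
  have h2 := rtk6lfb_rigid_h2 rigid
  have h3 := rtk6lfb_rigid_h3 rigid
  have hSS1 := ribmp_fc_hSS1 hπ ιC hq hqM hA hE h2 h3
  exact rtk6lfc_ufd (E := ↥K₀) hπ (mgvV hπ ιC hq hqM) true false mgv_hκ
    (mgv_hBV₁ hπ ιC hq hqM) (mgv_hπV hπ ιC hq hqM) hSS1 (mgv_harch hπ ιC hq hqM)
    (mgv_hVloc₁ hπ ιC hq hqM hA hSS1) (rtk6lfb_hne hπ ιC hq hqM hA) 𝔫
    (rtk6lfb_thinAt_J hπ ιC hq hqM hA hφF hφ hqπ rigid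
      (stb_regChart_conc_J M hq hA hE hπ hqM h2 h3) 𝔫)

include hπ ιC hq hqM in
/-- the vertical valuations are discrete with uniformizer `π` -/
theorem rtk6lfb_val_zpow_J (c : Bool) {y : ↥(modularFunctionFieldFullC ↥K₀ (M * q))}
    (hy : y ≠ 0) :
    ∃ n : ℤ, (mgvV hπ ιC hq hqM c).valuation y = (mgvV hπ ιC hq hqM c).valuation
      (algebraMap ↥(beta0Ring A K₀) ↥(modularFunctionFieldFullC ↥K₀ (M * q)) π) ^ n :=
  rtk6lfb_val_zpow _ (mgv_hπV hπ ιC hq hqM c) (ribmp_fc_hπ0 hπ) (ribmp_fc_hU hπ ιC hq hqM c)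
    (mgv_harch hπ ιC hq hqM c) hy

/-! ### (LF) -/

include hπ ιC hq hqM in
/-- **(LF) at a thin crossing point** of the chart `j`: `y = ε · Y ^ n₀ · γ ^ m`. -/
theorem rtk6lfb_cross_LF_J (hA : A.LiesOverPrime q) (hE : beta0Field A ≤ K₀)
    (h2 : q = 2 → 3 ∣ M) (h3 : q = 3 → 2 ∣ M)
    (𝔫 : AtPt (F := ↥(modularFunctionFieldFullC ↥K₀ (M * q))) π (bgJ ↥K₀ (M * q)))
    {X Y : ↥(zchClosure (A₀ := ↥(beta0Ring A K₀))
      ({bgJ ↥K₀ (M * q)} : Set ↥(modularFunctionFieldFullC ↥K₀ (M * q))))}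
    (h : Rtk6lfCrossAt (mgvV hπ ιC hq hqM true) (mgvV hπ ιC hq hqM false) 𝔫 X Y)
    (m : ℕ) {y : ↥(modularFunctionFieldFullC ↥K₀ (M * q))} (hy : y ≠ 0)
    (hhor : ∀ P : Place ↥K₀ ↥(modularFunctionFieldFullC ↥K₀ (M * q)),
      (∀ x ∈ atLoc 𝔫, x ∈ P.toValuationSubring) → (m : ℤ) ∣ P.ord y)
    (hy₁ : (mgvV hπ ιC hq hqM true).valuation y = 1) {n₀ : ℤ}
    (hn₀ : (mgvV hπ ιC hq hqM false).valuation y = (mgvV hπ ιC hq hqM false).valuation
      (algebraMap ↥(beta0Ring A K₀) ↥(modularFunctionFieldFullC ↥K₀ (M * q)) π) ^ n₀) :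
    ∃ (γ : ↥(modularFunctionFieldFullC ↥K₀ (M * q))) (ε : ↥(atLoc 𝔫)), IsUnit ε ∧
      y = (ε : ↥(modularFunctionFieldFullC ↥K₀ (M * q))) *
        (Y : ↥(modularFunctionFieldFullC ↥K₀ (M * q))) ^ n₀ * γ ^ m ∧ γ ≠ 0 ∧
      (mgvV hπ ιC hq hqM true).valuation γ = 1 ∧ (mgvV hπ ιC hq hqM false).valuation γ = 1 := by
  haveI := rtk6lfb_noeth_J (A := A) (K₀ := K₀) (M := M) (q := q)
  haveI := ribmp_fc_fin (K₀ := K₀) (M * q)
  obtain ⟨γ, ε, b, hε, hyε, hγ, hγ₁, hγ₂, hb⟩ := rtk6lfc_cross_LF (E := ↥K₀) hπ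
    (mgvV hπ ιC hq hqM) true false mgv_hκ (mgv_hBV₁ hπ ιC hq hqM) (mgv_hπV hπ ιC hq hqM)
    (ribmp_fc_hSS1 hπ ιC hq hqM hA hE h2 h3) (ribmp_fc_hU hπ ιC hq hqM) 𝔫 h m hy hhor hy₁
  have hbn : b = n₀ := rtk6lfb_zpow_inj _ (mgv_hπV hπ ιC hq hqM false) (ribmp_fc_hπ0 hπ)
    (hb.symm.trans hn₀)
  subst hbn
  exact ⟨γ, ε, hε, hyε, hγ, hγ₁, hγ₂⟩

include hπ ιC hq hqM in
/-- **(LF) at a smooth point** of the chart `j` on the component `V c`:
`y = ε · π ^ n · γ ^ m`, `v_c(y) = v_c(π) ^ n`. -/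
theorem rtk6lfb_smooth_LF_J (hA : A.LiesOverPrime q) (hE : beta0Field A ≤ K₀)
    (h2 : q = 2 → 3 ∣ M) (h3 : q = 3 → 2 ∣ M)
    (𝔫 : AtPt (F := ↥(modularFunctionFieldFullC ↥K₀ (M * q))) π (bgJ ↥K₀ (M * q)))
    {s : ↥(zchClosure (A₀ := ↥(beta0Ring A K₀))
      ({bgJ ↥K₀ (M * q)} : Set ↥(modularFunctionFieldFullC ↥K₀ (M * q))))} (hs : s ∈ 𝔫.1)
    (hgen : NodesLocGen 𝔫.1 {algebraMap ↥(beta0Ring A K₀) ↥(zchClosure (A₀ := ↥(beta0Ring A K₀))
      ({bgJ ↥K₀ (M * q)} : Set ↥(modularFunctionFieldFullC ↥K₀ (M * q)))) π, s})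
    (m : ℕ) {y : ↥(modularFunctionFieldFullC ↥K₀ (M * q))} (hy : y ≠ 0)
    (hhor : ∀ P : Place ↥K₀ ↥(modularFunctionFieldFullC ↥K₀ (M * q)),
      (∀ x ∈ atLoc 𝔫, x ∈ P.toValuationSubring) → (m : ℤ) ∣ P.ord y) :
    ∃ c : Bool, atThrough 𝔫 (mgvV hπ ιC hq hqM c) ∧
      (∀ c', atThrough 𝔫 (mgvV hπ ιC hq hqM c') → c' = c) ∧
      ∀ n : ℤ, (mgvV hπ ιC hq hqM c).valuation y = (mgvV hπ ιC hq hqM c).valuation
          (algebraMap ↥(beta0Ring A K₀) ↥(modularFunctionFieldFullC ↥K₀ (M * q)) π) ^ n →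
        ∃ (γ : ↥(modularFunctionFieldFullC ↥K₀ (M * q))) (ε : ↥(atLoc 𝔫)), IsUnit ε ∧
          y = (ε : ↥(modularFunctionFieldFullC ↥K₀ (M * q))) *
            algebraMap ↥(beta0Ring A K₀) ↥(modularFunctionFieldFullC ↥K₀ (M * q)) π ^ n *
              γ ^ m ∧ γ ≠ 0 ∧ (mgvV hπ ιC hq hqM c).valuation γ = 1 := by
  haveI := rtk6lfb_noeth_J (A := A) (K₀ := K₀) (M := M) (q := q)
  haveI := ribmp_fc_fin (K₀ := K₀) (M * q)
  have hSS1 := ribmp_fc_hSS1 hπ ιC hq hqM hA hE h2 h3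
  have harch' : ∀ c, StbArch (mgvV hπ ιC hq hqM c) := fun c x a ha => by
    obtain ⟨N, hN⟩ := mgv_harch hπ ιC hq hqM c a x ha
    exact ⟨N, by rw [mul_comm x (a ^ N)]; exact hN⟩
  obtain ⟨c, hc, hone⟩ := stb_sx_exists_unique (mgvV hπ ιC hq hqM) (mgv_hBV₁ hπ ιC hq hqM)
    (mgv_hπV hπ ιC hq hqM) hSS1 (mgv_hVloc₁ hπ ιC hq hqM hA hSS1)
    (fun c c' hcc' => stb_not_le_of_ne (harch' c) (ribmp_fc_hπ0 hπ) (mgv_hπV hπ ιC hq hqM c')
      (rtk6lfb_hne hπ ιC hq hqM hA c c' hcc')) 𝔫 s hs hgen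
  refine ⟨c, hc, hone, fun n hn => ?_⟩
  obtain ⟨γ, ε, a, hε, hyε, hγ, hγ₁, ha⟩ := rtk6lfc_smooth_fac (E := ↥K₀) hπ
    (mgvV hπ ιC hq hqM) (mgv_hBV₁ hπ ιC hq hqM) (mgv_hπV hπ ιC hq hqM)
    hSS1 (ribmp_fc_hU hπ ιC hq hqM) 𝔫 c hc hone hs hgen m hy hhor
  have han : a = n := rtk6lfb_zpow_inj _ (mgv_hπV hπ ιC hq hqM c) (ribmp_fc_hπ0 hπ)
    (ha.symm.trans hn)
  subst han
  exact ⟨γ, ε, hε, hyε, hγ, hγ₁⟩

include hπ ιC hq hqM in
/-- **(LF) at every closed point of the chart `j`** (rigid level, unramified Frobenius-stable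
base): `y ≠ 0` with divisor divisible by `m`, unit at `V_∞`, `v_0(y) = v_0(π) ^ n₀`.  Then at `𝔫`:
* crossing point `𝔫 = (π, X, Y)`, `w π = X Y`: `y = ε · Y ^ n₀ · γ ^ m`;
* smooth point of `Σ_0`: `y = ε · π ^ n₀ · γ ^ m`;
* smooth point of `Σ_∞`: `y = ε · γ ^ m`;
with `ε` a unit of `atLoc 𝔫` and `γ` a unit at the components through `𝔫`. -/
theorem rtk6lfb_LF_J (hA : A.LiesOverPrime q) (hE : beta0Field A ≤ K₀) {φ : Qb ≃ₐ[ℚ] Qb}
    (hφF : A.IsFrobeniusAt φ q) (hφ : ∀ x ∈ K₀, φ x ∈ K₀)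
    (hqπ : Associated ((q : ℕ) : ↥(beta0Ring A K₀)) π)
    (rigid : (q ≠ 2 → 4 ∣ M) ∧ (q = 2 → 9 ∣ M))
    (m : ℕ) {y : ↥(modularFunctionFieldFullC ↥K₀ (M * q))} (hy : y ≠ 0)
    (hhor : ∀ P : Place ↥K₀ ↥(modularFunctionFieldFullC ↥K₀ (M * q)), (m : ℤ) ∣ P.ord y)
    (hy₁ : (mgvV hπ ιC hq hqM true).valuation y = 1) {n₀ : ℤ}
    (hn₀ : (mgvV hπ ιC hq hqM false).valuation y = (mgvV hπ ιC hq hqM false).valuation
      (algebraMap ↥(beta0Ring A K₀) ↥(modularFunctionFieldFullC ↥K₀ (M * q)) π) ^ n₀)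
    (𝔫 : AtPt (F := ↥(modularFunctionFieldFullC ↥K₀ (M * q))) π (bgJ ↥K₀ (M * q))) :
    (∃ X Y : ↥(zchClosure (A₀ := ↥(beta0Ring A K₀))
        ({bgJ ↥K₀ (M * q)} : Set ↥(modularFunctionFieldFullC ↥K₀ (M * q)))),
      Rtk6lfCrossAt (mgvV hπ ιC hq hqM true) (mgvV hπ ιC hq hqM false) 𝔫 X Y ∧
      ∃ (γ : ↥(modularFunctionFieldFullC ↥K₀ (M * q))) (ε : ↥(atLoc 𝔫)), IsUnit ε ∧
        y = (ε : ↥(modularFunctionFieldFullC ↥K₀ (M * q))) *
          (Y : ↥(modularFunctionFieldFullC ↥K₀ (M * q))) ^ n₀ * γ ^ m ∧ γ ≠ 0 ∧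
        (mgvV hπ ιC hq hqM true).valuation γ = 1 ∧
        (mgvV hπ ιC hq hqM false).valuation γ = 1) ∨
    (atThrough 𝔫 (mgvV hπ ιC hq hqM false) ∧ ¬ atThrough 𝔫 (mgvV hπ ιC hq hqM true) ∧
      (∃ s : ↥(zchClosure (A₀ := ↥(beta0Ring A K₀))
          ({bgJ ↥K₀ (M * q)} : Set ↥(modularFunctionFieldFullC ↥K₀ (M * q)))), s ∈ 𝔫.1 ∧
        NodesLocGen 𝔫.1 {algebraMap ↥(beta0Ring A K₀) ↥(zchClosure (A₀ := ↥(beta0Ring A K₀))
          ({bgJ ↥K₀ (M * q)} : Set ↥(modularFunctionFieldFullC ↥K₀ (M * q)))) π, s}) ∧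
      ∃ (γ : ↥(modularFunctionFieldFullC ↥K₀ (M * q))) (ε : ↥(atLoc 𝔫)), IsUnit ε ∧
        y = (ε : ↥(modularFunctionFieldFullC ↥K₀ (M * q))) *
          algebraMap ↥(beta0Ring A K₀) ↥(modularFunctionFieldFullC ↥K₀ (M * q)) π ^ n₀ *
            γ ^ m ∧ γ ≠ 0 ∧ (mgvV hπ ιC hq hqM false).valuation γ = 1) ∨
    (atThrough 𝔫 (mgvV hπ ιC hq hqM true) ∧ ¬ atThrough 𝔫 (mgvV hπ ιC hq hqM false) ∧
      (∃ s : ↥(zchClosure (A₀ := ↥(beta0Ring A K₀))
          ({bgJ ↥K₀ (M * q)} : Set ↥(modularFunctionFieldFullC ↥K₀ (M * q)))), s ∈ 𝔫.1 ∧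
        NodesLocGen 𝔫.1 {algebraMap ↥(beta0Ring A K₀) ↥(zchClosure (A₀ := ↥(beta0Ring A K₀))
          ({bgJ ↥K₀ (M * q)} : Set ↥(modularFunctionFieldFullC ↥K₀ (M * q)))) π, s}) ∧
      ∃ (γ : ↥(modularFunctionFieldFullC ↥K₀ (M * q))) (ε : ↥(atLoc 𝔫)), IsUnit ε ∧
        y = (ε : ↥(modularFunctionFieldFullC ↥K₀ (M * q))) * γ ^ m ∧ γ ≠ 0 ∧
        (mgvV hπ ιC hq hqM true).valuation γ = 1) := by
  have h2 := rtk6lfb_rigid_h2 rigid
  have h3 := rtk6lfb_rigid_h3 rigid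
  rcases rtk6lfb_thinAt_J hπ ιC hq hqM hA hφF hφ hqπ rigid
    (stb_regChart_conc_J M hq hA hE hπ hqM h2 h3) 𝔫 with ⟨s, hs, hgen⟩ | ⟨X, Y, h⟩
  · obtain ⟨c, hc, hone, hfac⟩ := rtk6lfb_smooth_LF_J hπ ιC hq hqM hA hE h2 h3 𝔫 hs hgen m hy
      (fun P _ => hhor P)
    cases c
    · -- the point lies on `Σ_0`
      obtain ⟨γ, ε, hε, hyε, hγ, hγ₁⟩ := hfac n₀ hn₀
      exact Or.inr (Or.inl ⟨hc, fun h => Bool.noConfusion (hone true h), ⟨s, hs, hgen⟩,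
        γ, ε, hε, hyε, hγ, hγ₁⟩)
    · -- the point lies on `Σ_∞`
      obtain ⟨γ, ε, hε, hyε, hγ, hγ₁⟩ := hfac 0 (by rw [hy₁, zpow_zero])
      rw [zpow_zero, mul_one] at hyε
      exact Or.inr (Or.inr ⟨hc, fun h => Bool.noConfusion (hone false h), ⟨s, hs, hgen⟩,
        γ, ε, hε, hyε, hγ, hγ₁⟩)
  · exact Or.inl ⟨X, Y, h, rtk6lfb_cross_LF_J hπ ιC hq hqM hA hE h2 h3 𝔫 h m hy
      (fun P _ => hhor P) hy₁ hn₀⟩

end Reg

/-! ### `K₀ = ℚ̄^I` -/

section Base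

variable {A : ValuationSubring Qb} {q M : ℕ} [NeZero q] [NeZero M] [NeZero (M * q)]
  [IsDiscreteValuationRing ↥(beta0Ring A (beta0Field A))]
  {π : ↥(beta0Ring A (beta0Field A))} (hπ : Irreducible π)
  (ιC : ↥(beta0Field A) →+* ℂ) (hq : q.Prime) (hqM : ¬ q ∣ M)

include hπ in
/-- `q` is a uniformizer of `A ∩ ℚ̄^I` -/
theorem rtk6lfb0_hqπ (hq : q.Prime) (hA : A.LiesOverPrime q) :
    Associated ((q : ℕ) : ↥(beta0Ring A (beta0Field A))) π :=
  IsDiscreteValuationRing.associated_of_irreducible _ (beta0Ring_irreducible_q hq hA) hπ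

include hπ ιC hq hqM in
/-- **The thin dichotomy at every closed point of the chart `j`** of `F_{Mq}(ℚ̄^I)`, rigid level. -/
theorem rtk6lfb0_thinAt_J (hA : A.LiesOverPrime q)
    (rigid : (q ≠ 2 → 4 ∣ M) ∧ (q = 2 → 9 ∣ M))
    (𝔫 : AtPt (F := ↥(modularFunctionFieldFullC ↥(beta0Field A) (M * q))) π
      (bgJ ↥(beta0Field A) (M * q))) :
    Rtk6lfThinAt (mgvV hπ ιC hq hqM true) (mgvV hπ ιC hq hqM false) 𝔫 := by
  obtain ⟨φ, hφF⟩ := Fermat.Agent.Common.exists_isFrobeniusAt_of_liesOverPrime q hq A hA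
  exact rtk6lfb_thinAt_J hπ ιC hq hqM hA hφF
    (fun x hx => beta0_decomp_apply_mem hφF.mem_decompositionSubgroup hx)
    (rtk6lfb0_hqπ hπ hq hA) rigid
    (stb_regChart_conc_J M hq hA le_rfl hπ hqM (rtk6lfb_rigid_h2 rigid)
      (rtk6lfb_rigid_h3 rigid)) 𝔫

include hπ ιC hq hqM in
/-- **`atLoc 𝔫` is a UFD at every closed point of the chart `j`** of `F_{Mq}(ℚ̄^I)`, rigid
level. -/
theorem rtk6lfb0_ufd_J (hA : A.LiesOverPrime q)
    (rigid : (q ≠ 2 → 4 ∣ M) ∧ (q = 2 → 9 ∣ M))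
    (𝔫 : AtPt (F := ↥(modularFunctionFieldFullC ↥(beta0Field A) (M * q))) π
      (bgJ ↥(beta0Field A) (M * q))) :
    UniqueFactorizationMonoid ↥(atLoc 𝔫) := by
  obtain ⟨φ, hφF⟩ := Fermat.Agent.Common.exists_isFrobeniusAt_of_liesOverPrime q hq A hA
  exact rtk6lfb_ufd_J hπ ιC hq hqM hA le_rfl hφF
    (fun x hx => beta0_decomp_apply_mem hφF.mem_decompositionSubgroup hx)
    (rtk6lfb0_hqπ hπ hq hA) rigid 𝔫

include hπ ιC hq hqM in
/-- **(LF) at every closed point of the chart `j`** of `F_{Mq}(ℚ̄^I)`, rigid level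
(see `rtk6lfb_LF_J`). -/
theorem rtk6lfb0_LF_J (hA : A.LiesOverPrime q)
    (rigid : (q ≠ 2 → 4 ∣ M) ∧ (q = 2 → 9 ∣ M))
    (m : ℕ) {y : ↥(modularFunctionFieldFullC ↥(beta0Field A) (M * q))} (hy : y ≠ 0)
    (hhor : ∀ P : Place ↥(beta0Field A) ↥(modularFunctionFieldFullC ↥(beta0Field A) (M * q)),
      (m : ℤ) ∣ P.ord y)
    (hy₁ : (mgvV hπ ιC hq hqM true).valuation y = 1) {n₀ : ℤ}
    (hn₀ : (mgvV hπ ιC hq hqM false).valuation y = (mgvV hπ ιC hq hqM false).valuation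
      (algebraMap ↥(beta0Ring A (beta0Field A))
        ↥(modularFunctionFieldFullC ↥(beta0Field A) (M * q)) π) ^ n₀)
    (𝔫 : AtPt (F := ↥(modularFunctionFieldFullC ↥(beta0Field A) (M * q))) π
      (bgJ ↥(beta0Field A) (M * q))) :
    (∃ X Y : ↥(zchClosure (A₀ := ↥(beta0Ring A (beta0Field A)))
        ({bgJ ↥(beta0Field A) (M * q)} :
          Set ↥(modularFunctionFieldFullC ↥(beta0Field A) (M * q)))),
      Rtk6lfCrossAt (mgvV hπ ιC hq hqM true) (mgvV hπ ιC hq hqM false) 𝔫 X Y ∧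
      ∃ (γ : ↥(modularFunctionFieldFullC ↥(beta0Field A) (M * q))) (ε : ↥(atLoc 𝔫)), IsUnit ε ∧
        y = (ε : ↥(modularFunctionFieldFullC ↥(beta0Field A) (M * q))) *
          (Y : ↥(modularFunctionFieldFullC ↥(beta0Field A) (M * q))) ^ n₀ * γ ^ m ∧ γ ≠ 0 ∧
        (mgvV hπ ιC hq hqM true).valuation γ = 1 ∧
        (mgvV hπ ιC hq hqM false).valuation γ = 1) ∨
    (atThrough 𝔫 (mgvV hπ ιC hq hqM false) ∧ ¬ atThrough 𝔫 (mgvV hπ ιC hq hqM true) ∧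
      (∃ s : ↥(zchClosure (A₀ := ↥(beta0Ring A (beta0Field A)))
          ({bgJ ↥(beta0Field A) (M * q)} :
            Set ↥(modularFunctionFieldFullC ↥(beta0Field A) (M * q)))), s ∈ 𝔫.1 ∧
        NodesLocGen 𝔫.1 {algebraMap ↥(beta0Ring A (beta0Field A))
          ↥(zchClosure (A₀ := ↥(beta0Ring A (beta0Field A)))
            ({bgJ ↥(beta0Field A) (M * q)} :
              Set ↥(modularFunctionFieldFullC ↥(beta0Field A) (M * q)))) π, s}) ∧
      ∃ (γ : ↥(modularFunctionFieldFullC ↥(beta0Field A) (M * q))) (ε : ↥(atLoc 𝔫)), IsUnit ε ∧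
        y = (ε : ↥(modularFunctionFieldFullC ↥(beta0Field A) (M * q))) *
          algebraMap ↥(beta0Ring A (beta0Field A))
            ↥(modularFunctionFieldFullC ↥(beta0Field A) (M * q)) π ^ n₀ *
            γ ^ m ∧ γ ≠ 0 ∧ (mgvV hπ ιC hq hqM false).valuation γ = 1) ∨
    (atThrough 𝔫 (mgvV hπ ιC hq hqM true) ∧ ¬ atThrough 𝔫 (mgvV hπ ιC hq hqM false) ∧
      (∃ s : ↥(zchClosure (A₀ := ↥(beta0Ring A (beta0Field A)))
          ({bgJ ↥(beta0Field A) (M * q)} :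
            Set ↥(modularFunctionFieldFullC ↥(beta0Field A) (M * q)))), s ∈ 𝔫.1 ∧
        NodesLocGen 𝔫.1 {algebraMap ↥(beta0Ring A (beta0Field A))
          ↥(zchClosure (A₀ := ↥(beta0Ring A (beta0Field A)))
            ({bgJ ↥(beta0Field A) (M * q)} :
              Set ↥(modularFunctionFieldFullC ↥(beta0Field A) (M * q)))) π, s}) ∧
      ∃ (γ : ↥(modularFunctionFieldFullC ↥(beta0Field A) (M * q))) (ε : ↥(atLoc 𝔫)), IsUnit ε ∧
        y = (ε : ↥(modularFunctionFieldFullC ↥(beta0Field A) (M * q))) * γ ^ m ∧ γ ≠ 0 ∧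
        (mgvV hπ ιC hq hqM true).valuation γ = 1) := by
  obtain ⟨φ, hφF⟩ := Fermat.Agent.Common.exists_isFrobeniusAt_of_liesOverPrime q hq A hA
  exact rtk6lfb_LF_J hπ ιC hq hqM hA le_rfl hφF
    (fun x hx => beta0_decomp_apply_mem hφF.mem_decompositionSubgroup hx)
    (rtk6lfb0_hqπ hπ hq hA) rigid m hy hhor hy₁ hn₀ 𝔫

end Base

end Fermat.Agent.RT.K6

end
end ZBRT_001_5

/-! ### bundled: `Fermat.Agent.R38.TresMonoFixNorm` -/
section ZBRT_001_6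
/-
ROW 38, TRES, ASM-NOCOVER, LEAF C (helper16): NORMALISATION AT `V_∞`.

Frame = `RIB/MP/RedA.lean`, section Main: level `M₁ q`, `q ∤ M₁`, `A` a valuation subring of `ℚ̄`,
`K₀ ⊆ ℚ̄` with `A₀ = beta0Ring A K₀` a DVR with uniformizer `π`, `F = F_{M₁ q}(K₀)`,
`V_∞ = mgvV hπ ιC hq hqM true`.

* `tresmfn_normalise` : every `u₀ ≠ 0` of `F` is `u₀ = ϖ ^ n · y₀` with `ϖ = π` (a constant) and
  `y₀` a unit of `V_∞`; over `ℚ̄`: `u₀ = C c · y₀` with `c ≠ 0` a constant, and `y₀`, `u₀` have the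
  same order at every place of `F_{M₁ q}(ℚ̄) / ℚ̄`.
* `tresmfn_normalise'` : the same, keeping `n` and the formulas `y₀ = u₀ / ϖ ^ n`, `c = π ^ n`.
-/

set_option autoImplicit false
set_option linter.unusedSectionVars false
set_option linter.unusedVariables false
set_option linter.style.haveILetI false
set_option linter.style.longLine false
set_option synthInstance.maxHeartbeats 400000
set_option maxHeartbeats 1600000

noncomputable section

namespace Fermat.Agent.R38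

open ModularCurve AlgebraicCurve Fermat.Agent.ES Fermat.Agent.ES.G2 Fermat.Agent.INJ
open Fermat.Agent.UNIP Fermat.Agent.STB Fermat.Agent.RIB.MP Fermat.Agent.RT.K6

section Main

variable {M₁ q : ℕ} [NeZero M₁] [NeZero q] [NeZero (M₁ * q)] (hq : q.Prime) (hqM : ¬ q ∣ M₁)
  {A : ValuationSubring Qb} {K₀ : IntermediateField ℚ Qb}
  [IsDiscreteValuationRing ↥(beta0Ring A K₀)]
  {π : ↥(beta0Ring A K₀)} (hπ : Irreducible π) (ιC : ↥K₀ →+* ℂ)

/-- **Normalisation at `V_∞`**, explicit form: `y₀ = u₀ / ϖ ^ n` is a unit of `V_∞`, and over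
`ℚ̄` the function `u₀` is the constant `π ^ n` times `y₀`. -/
theorem tresmfn_normalise' (u₀ : ↥(modularFunctionFieldFullC ↥K₀ (M₁ * q))) (hu₀ : u₀ ≠ 0) :
    ∃ n : ℤ,
      u₀ / (algebraMap ↥(beta0Ring A K₀) ↥(modularFunctionFieldFullC ↥K₀ (M₁ * q)) π) ^ n ≠ 0 ∧
      (mgvV hπ ιC hq hqM true).valuation
        (u₀ / (algebraMap ↥(beta0Ring A K₀) ↥(modularFunctionFieldFullC ↥K₀ (M₁ * q)) π) ^ n)
          = 1 ∧
      ((algebraMap ↥K₀ Qb (algebraMap ↥(beta0Ring A K₀) ↥K₀ π)) ^ n ≠ 0) ∧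
      ((nfEmb K₀ (M₁ * q) u₀ : modularFunctionFieldBar (M₁ * q)) : LaurentSeries Qb) =
        HahnSeries.C ((algebraMap ↥K₀ Qb (algebraMap ↥(beta0Ring A K₀) ↥K₀ π)) ^ n) *
          ((nfEmb K₀ (M₁ * q)
            (u₀ / (algebraMap ↥(beta0Ring A K₀) ↥(modularFunctionFieldFullC ↥K₀ (M₁ * q)) π) ^ n) :
            modularFunctionFieldBar (M₁ * q)) : LaurentSeries Qb) ∧
      ∀ P : Place Qb (modularFunctionFieldBar (M₁ * q)),
        P.ord (nfEmb K₀ (M₁ * q)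
          (u₀ / (algebraMap ↥(beta0Ring A K₀) ↥(modularFunctionFieldFullC ↥K₀ (M₁ * q)) π) ^ n))
          = P.ord (nfEmb K₀ (M₁ * q) u₀) := by
  obtain ⟨n, hn⟩ := rtk6lfb_val_zpow_J hπ ιC hq hqM true hu₀
  set ϖ : ↥(modularFunctionFieldFullC ↥K₀ (M₁ * q)) :=
    algebraMap ↥(beta0Ring A K₀) ↥(modularFunctionFieldFullC ↥K₀ (M₁ * q)) π with hϖ
  have hπ0 : π ≠ 0 := hπ.ne_zero
  have hπK : algebraMap ↥(beta0Ring A K₀) ↥K₀ π ≠ 0 := by
    intro h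
    exact hπ0 ((IsFractionRing.injective ↥(beta0Ring A K₀) ↥K₀) (by rw [h, map_zero]))
  have hϖK : ϖ = algebraMap ↥K₀ ↥(modularFunctionFieldFullC ↥K₀ (M₁ * q))
      (algebraMap ↥(beta0Ring A K₀) ↥K₀ π) := by
    rw [hϖ]
    exact IsScalarTower.algebraMap_apply _ _ _ _
  have hϖ0 : ϖ ≠ 0 := by
    rw [hϖK]
    intro h
    exact hπK ((algebraMap ↥K₀ ↥(modularFunctionFieldFullC ↥K₀ (M₁ * q))).injective
      (by rw [h, map_zero]))
  have hcQ : algebraMap ↥K₀ Qb (algebraMap ↥(beta0Ring A K₀) ↥K₀ π) ≠ 0 := by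
    intro h
    exact hπK ((algebraMap ↥K₀ Qb).injective (by rw [h, map_zero]))
  have hy0 : u₀ / ϖ ^ n ≠ 0 := div_ne_zero hu₀ (zpow_ne_zero n hϖ0)
  have hemb : nfEmb K₀ (M₁ * q) ϖ = algebraMap Qb (modularFunctionFieldBar (M₁ * q))
      (algebraMap ↥K₀ Qb (algebraMap ↥(beta0Ring A K₀) ↥K₀ π)) := by
    rw [hϖK]
    exact nfEmb_algebraMap (K₀ := K₀) (N := M₁ * q) _
  have hmul : nfEmb K₀ (M₁ * q) u₀ =
      algebraMap Qb (modularFunctionFieldBar (M₁ * q))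
        ((algebraMap ↥K₀ Qb (algebraMap ↥(beta0Ring A K₀) ↥K₀ π)) ^ n) *
      nfEmb K₀ (M₁ * q) (u₀ / ϖ ^ n) := by
    rw [map_zpow₀, ← hemb, ← map_zpow₀, ← map_mul]
    congr 1
    field_simp
  refine ⟨n, hy0, ?_, zpow_ne_zero n hcQ, ?_, fun P => ?_⟩
  · rw [map_div₀, map_zpow₀, hn]
    refine div_self (zpow_ne_zero n ?_)
    exact (Valuation.ne_zero_iff _).2 hϖ0
  · rw [hmul]
    show (algebraMap Qb (LaurentSeries Qb)
        ((algebraMap ↥K₀ Qb (algebraMap ↥(beta0Ring A K₀) ↥K₀ π)) ^ n) : LaurentSeries Qb) *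
      ((nfEmb K₀ (M₁ * q) (u₀ / ϖ ^ n) : modularFunctionFieldBar (M₁ * q)) : LaurentSeries Qb) = _
    rw [algebraMap_laurentSeries_eq_single]
    rfl
  · have hu0' : nfEmb K₀ (M₁ * q) (u₀ / ϖ ^ n) ≠ 0 := by
      intro h
      exact hy0 ((nfEmb_injective (K₀ := K₀) (N := M₁ * q)) (by rw [h, map_zero]))
    have hc0' : algebraMap Qb (modularFunctionFieldBar (M₁ * q))
        ((algebraMap ↥K₀ Qb (algebraMap ↥(beta0Ring A K₀) ↥K₀ π)) ^ n) ≠ 0 := by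
      intro h
      exact zpow_ne_zero n hcQ
        ((algebraMap Qb (modularFunctionFieldBar (M₁ * q))).injective (by rw [h, map_zero]))
    rw [hmul, P.ord_mul hc0' hu0', unram_ord_algebraMap P (zpow_ne_zero n hcQ), zero_add]

/-- **LEAF C: normalisation at `V_∞`** (shape of helper47's ASM-NOCOVER note). -/
theorem tresmfn_normalise (u₀ : ↥(modularFunctionFieldFullC ↥K₀ (M₁ * q))) (hu₀ : u₀ ≠ 0) :
    ∃ (y₀ : ↥(modularFunctionFieldFullC ↥K₀ (M₁ * q))) (c : Qb), c ≠ 0 ∧ y₀ ≠ 0 ∧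
      (mgvV hπ ιC hq hqM true).valuation y₀ = 1 ∧
      ((nfEmb K₀ (M₁ * q) u₀ : modularFunctionFieldBar (M₁ * q)) : LaurentSeries Qb) =
        HahnSeries.C c *
          ((nfEmb K₀ (M₁ * q) y₀ : modularFunctionFieldBar (M₁ * q)) : LaurentSeries Qb) ∧
      ∀ P : Place Qb (modularFunctionFieldBar (M₁ * q)),
        P.ord (nfEmb K₀ (M₁ * q) y₀) = P.ord (nfEmb K₀ (M₁ * q) u₀) := by
  obtain ⟨n, h0, h1, hc, h2, h3⟩ := tresmfn_normalise' hq hqM hπ ιC u₀ hu₀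
  exact ⟨_, _, hc, h0, h1, h2, h3⟩

end Main

end Fermat.Agent.R38

end
end ZBRT_001_6

/-! ### bundled: `Fermat.Agent.R38.TresOgg` -/
section ZBRT_001_7

/-!
# Row 38, PKG-TRES, MONO, piece FAC-OGG (helper10): the Ogg unit on `X₀(M p)` over `K₀`

Frame of `RIB/MP/FacConc.lean` (= frame of FAC-LOC / FAC-XK; that file is NOT imported here): `A` a valuation subring of `ℚ̄` over
`q`, `K₀ ⊆ ℚ̄` with `A′ = A ∩ K₀ = beta0Ring A K₀` a discrete valuation ring, uniformizer `π`,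
`F = F_{Mq}(K₀) = modularFunctionFieldFullC ↥K₀ (M * q)`, `q ∤ M`, `V = mgvV hπ ιC hq hqM`
(`true ↦ V_∞`, `false ↦ V_0`), charts `j = bgJ ↥K₀ (M * q)`, closed points `𝔫 : AtPt π j`.

The Ogg unit is `h = S36.s36tuV ↥K₀ ιC` (`Q`-expansion `Δ(Q)/Δ(Q^q) = S28.uInvS ↥K₀ q`), its
companion is `U = S36.s36tuU ↥K₀ ιC = q¹² Δ(Q^q)/Δ(Q)`, `U h = q¹²` (`S33/WildUnit.lean`).

* `tres5o_ord_eq_zero_of_mul` (abstract): `U V = c ∈ K^×`, `U, V` regular at `P` ⇒ `ord_P V = 0`;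
* `tres5o_val_true`    : `v_∞(h) = 1`;
* `tres5o_val_false`   : `v_0(h) = v_0(q) ^ 12`;
* `tres5o_val_false_pi`: `v_0(h) = v_0(π) ^ (12 e)` when `q ∼ π ^ e` (`e = 1` over `ℚ̄^I`);
* `tres5o_mem_chart`, `tres5o_mem_atLoc` : `h, U ∈ B_j ⊆ (B_j)_𝔫`;
* `tres5o_ord_eq_zero` : `ord_P h = 0` at every place `P` of `F / K₀` with `0 ≤ ord_P j`;
* `tres5o_hhor`        : the hypothesis `hhor` of `RT.K6.rtk6lfc_cross_fac` / `_smooth_fac` for
  `y = h`, `m = 0`, at every closed point of the chart `j`;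
* `tres5o_cross_fac_of`   : **the node formula** `h = ε · Y ^ (12 e)` at a thin crossing point
  (`X ∈ 𝔪(V_∞)`, `Y ∈ 𝔪(V_0)`, `w π = X Y`), `ε` a unit of `(B_j)_𝔫`; hypotheses (SS1), (U)
  in the shape of `RT.K6.rtk6lfc_cross_fac` (concrete: `RIB.MP.ribmp_fc_hSS1`, `ribmp_fc_hU`);
* `tres5o_cross_fac_of'`  : the same with the other orientation (`X ∈ 𝔪(V_0)`): `h = ε · X ^ (12 e)`;
* `tres5o_smooth_unit_of` : `h` is a unit of `(B_j)_𝔫` at a smooth point on the component `V_∞`;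
* `tres5o_smooth_fac_of`  : `h = ε · π ^ (12 e)` at a smooth point on the component `V_0`.
The concrete forms (`K₀ ⊇ ℚ̄^I`) are in `R38/TresOggConc.lean`.
-/

set_option autoImplicit false
set_option linter.unusedSectionVars false
set_option linter.unusedVariables false
set_option linter.style.haveILetI false
set_option linter.style.longLine false

noncomputable section

namespace Fermat.Agent.R38

open ModularCurve AlgebraicCurve IntermediateField Fermat.Agent.INJ Fermat.Agent.UNIP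
  Fermat.Agent.STB Fermat.Agent.S36 Fermat.Agent.S33 Fermat.Agent.S28 Fermat.Agent.RIB.MP
  Fermat.Agent.RT.K6 Fermat.Agent.AL Fermat.Agent.ES Fermat.Agent.ES.G2 Fermat.Agent.S24

section Abs

variable {K F : Type*} [Field K] [Field F] [Algebra K F]

/-- two functions regular at a place whose product is a nonzero constant are units there -/
theorem tres5o_ord_eq_zero_of_mul (P : Place K F) {U V : F}
    (hU : U ∈ P.toValuationSubring) (hV : V ∈ P.toValuationSubring) {c : K} (hc : c ≠ 0)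
    (h : U * V = algebraMap K F c) : P.ord V = 0 := by
  have hc0 : algebraMap K F c ≠ 0 := by simpa using hc
  have hU0 : U ≠ 0 := fun h0 => hc0 (by rw [← h, h0, zero_mul])
  have hV0 : V ≠ 0 := fun h0 => hc0 (by rw [← h, h0, mul_zero])
  have h1 : 0 ≤ P.ord U := (PlaceAux.ord_nonneg_iff P hU0).mpr hU
  have h2 : 0 ≤ P.ord V := (PlaceAux.ord_nonneg_iff P hV0).mpr hV
  have h3 : P.ord U + P.ord V = 0 := by
    rw [← P.ord_mul hU0 hV0, h, PlaceAux.ord_algebraMap]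
  omega

/-- in a valuation ring, `n ↦ v(p)ⁿ` is injective for `p ≠ 0` in the maximal ideal -/
theorem tres5o_zpow_inj (V : ValuationSubring F) {p : F} (hp : p ∈ V.nonunits) (hp0 : p ≠ 0)
    {a b : ℤ} (h : V.valuation p ^ a = V.valuation p ^ b) : a = b := by
  have hv0 : V.valuation p ≠ 0 := (Valuation.ne_zero_iff _).2 hp0
  have h1 : V.valuation p ^ (a - b) = 1 := by
    rw [zpow_sub₀ hv0, h, div_self (zpow_ne_zero _ hv0)]
  have h2 := rtk6lfp_zpow_eq_one V hp hp0 h1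
  omega

end Abs

section Mgv

variable {A : ValuationSubring Qb} {K₀ : IntermediateField ℚ Qb}
  [IsDiscreteValuationRing ↥(beta0Ring A K₀)] {π : ↥(beta0Ring A K₀)} (hπ : Irreducible π)
  (ιC : ↥K₀ →+* ℂ) {q M : ℕ} [NeZero q] [NeZero M] [NeZero (M * q)]
  (hq : q.Prime) (hqM : ¬ q ∣ M)

/-- `v_∞(h) = 1` -/
theorem tres5o_val_true (hA : A.LiesOverPrime q) :
    (mgvV hπ ιC hq hqM true).valuation (s36tuV ↥K₀ ιC) = 1 :=
  wun_mgv_V_valuation_true hπ ιC hq hqM hA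

/-- `v_0(h) = v_0(q) ^ 12` -/
theorem tres5o_val_false (hA : A.LiesOverPrime q) :
    (mgvV hπ ιC hq hqM false).valuation (s36tuV ↥K₀ ιC) =
      (mgvV hπ ιC hq hqM false).valuation
        (algebraMap ↥(beta0Ring A K₀) ↥(modularFunctionFieldFullC ↥K₀ (M * q))
          ((q : ℕ) : ↥(beta0Ring A K₀))) ^ 12 := by
  have h1 := wun_mgv_U_valuation_false hπ ιC hq hqM hA
  have h2 := congrArg (mgvV hπ ιC hq hqM false).valuation
    (wun_mgv_U_mul_V (A := A) (K₀ := K₀) (M := M) (q := q) ιC)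
  rw [map_mul, h1, one_mul, map_pow] at h2
  exact h2

/-- a unit of `A′` is a unit of `V c` -/
theorem tres5o_val_const_unit (c : Bool) {u : ↥(beta0Ring A K₀)} (hu : IsUnit u) :
    (mgvV hπ ιC hq hqM c).valuation
      (algebraMap ↥(beta0Ring A K₀) ↥(modularFunctionFieldFullC ↥K₀ (M * q)) u) = 1 := by
  have hmem : ∀ a : ↥(beta0Ring A K₀),
      algebraMap ↥(beta0Ring A K₀) ↥(modularFunctionFieldFullC ↥K₀ (M * q)) a ∈
        mgvV hπ ιC hq hqM c := fun a => by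
    refine mgv_hBV₁ hπ ιC hq hqM c _ ?_
    rw [IsScalarTower.algebraMap_apply ↥(beta0Ring A K₀)
      ↥(Algebra.adjoin ↥(beta0Ring A K₀)
        ({bgJ ↥K₀ (M * q)} : Set ↥(modularFunctionFieldFullC ↥K₀ (M * q))))
      ↥(modularFunctionFieldFullC ↥K₀ (M * q))]
    exact isIntegral_algebraMap
  obtain ⟨v, rfl⟩ := hu
  have h1 : (1 : ↥(modularFunctionFieldFullC ↥K₀ (M * q))) =
      algebraMap ↥(beta0Ring A K₀) ↥(modularFunctionFieldFullC ↥K₀ (M * q))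
        (v : ↥(beta0Ring A K₀)) *
      algebraMap ↥(beta0Ring A K₀) ↥(modularFunctionFieldFullC ↥K₀ (M * q))
        ((v⁻¹ : (↥(beta0Ring A K₀))ˣ) : ↥(beta0Ring A K₀)) := by
    rw [← map_mul, Units.mul_inv, map_one]
  exact (rtk6lfp_val_eq_one_of_mul (mgvV hπ ιC hq hqM c) (hmem _) (hmem _)
    (map_one _) h1).1

/-- `v_0(h) = v_0(π) ^ (12 e)` when `q ∼ π ^ e` -/
theorem tres5o_val_false_pi (hA : A.LiesOverPrime q) {e : ℕ}
    (hqπ : Associated ((q : ℕ) : ↥(beta0Ring A K₀)) (π ^ e)) :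
    (mgvV hπ ιC hq hqM false).valuation (s36tuV ↥K₀ ιC) =
      (mgvV hπ ιC hq hqM false).valuation
        (algebraMap ↥(beta0Ring A K₀) ↥(modularFunctionFieldFullC ↥K₀ (M * q)) π) ^ (12 * e) := by
  rw [tres5o_val_false hπ ιC hq hqM hA]
  obtain ⟨u, hu⟩ := hqπ
  have h1 := congrArg (fun a => (mgvV hπ ιC hq hqM false).valuation
    (algebraMap ↥(beta0Ring A K₀) ↥(modularFunctionFieldFullC ↥K₀ (M * q)) a)) hu
  simp only [map_mul, map_pow] at h1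
  rw [tres5o_val_const_unit hπ ιC hq hqM false u.isUnit, mul_one] at h1
  rw [h1, ← pow_mul, mul_comm e 12]

/-! ### the chart `j` -/

omit [IsDiscreteValuationRing ↥(beta0Ring A K₀)] in
include hq in
/-- `h` lies in the chart `B_j` -/
theorem tres5o_V_mem_chart :
    s36tuV ↥K₀ ιC (q := q) (M := M) ∈ zchClosure (A₀ := ↥(beta0Ring A K₀))
      ({bgJ ↥K₀ (M * q)} : Set ↥(modularFunctionFieldFullC ↥K₀ (M * q))) :=
  wun_mgv_isIntegral_V (A := A) (K₀ := K₀) (M := M) ιC hq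

omit [IsDiscreteValuationRing ↥(beta0Ring A K₀)] in
include hq in
/-- `U` lies in the chart `B_j` -/
theorem tres5o_U_mem_chart :
    s36tuU ↥K₀ ιC (q := q) (M := M) ∈ zchClosure (A₀ := ↥(beta0Ring A K₀))
      ({bgJ ↥K₀ (M * q)} : Set ↥(modularFunctionFieldFullC ↥K₀ (M * q))) :=
  wun_mgv_isIntegral_U (A := A) (K₀ := K₀) (M := M) ιC hq

/-- `U h = q¹²`, as a constant of `K₀` -/
theorem tres5o_U_mul_V (K₀ : IntermediateField ℚ Qb) (ιC : ↥K₀ →+* ℂ) {q M : ℕ} [NeZero q]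
    [NeZero M] [NeZero (M * q)] :
    s36tuU ↥K₀ ιC (q := q) (M := M) * s36tuV ↥K₀ ιC =
      algebraMap ↥K₀ ↥(modularFunctionFieldFullC ↥K₀ (M * q)) ((q : ↥K₀) ^ 12) :=
  s36tuU_mul_V ↥K₀ ιC

/-- `h U = q¹²` -/
theorem tres5o_V_mul_U (K₀ : IntermediateField ℚ Qb) (ιC : ↥K₀ →+* ℂ) {q M : ℕ} [NeZero q]
    [NeZero M] [NeZero (M * q)] :
    s36tuV ↥K₀ ιC (q := q) (M := M) * s36tuU ↥K₀ ιC =
      algebraMap ↥K₀ ↥(modularFunctionFieldFullC ↥K₀ (M * q)) ((q : ↥K₀) ^ 12) :=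
  (mul_comm _ _).trans (s36tuU_mul_V ↥K₀ ιC)

/-- **`ord_P h = 0`** at every place `P` of `F / K₀` at which `U` and `h` are regular. -/
theorem tres5o_ord_eq_zero_of_mem (K₀ : IntermediateField ℚ Qb) (ιC : ↥K₀ →+* ℂ) {q M : ℕ}
    [NeZero q] [NeZero M] [NeZero (M * q)]
    (P : Place ↥K₀ ↥(modularFunctionFieldFullC ↥K₀ (M * q)))
    (hU : s36tuU ↥K₀ ιC (q := q) (M := M) ∈ P.toValuationSubring)
    (hV : s36tuV ↥K₀ ιC (q := q) (M := M) ∈ P.toValuationSubring) :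
    P.ord (s36tuV ↥K₀ ιC (q := q) (M := M)) = 0 :=
  tres5o_ord_eq_zero_of_mul P hU hV (s36tu_q_ne_zero ↥K₀ (q := q)) (tres5o_U_mul_V K₀ ιC)

/-- a place of `F / K₀` at which `j` is regular contains `K₀[j]` -/
theorem tres5o_adjoin_le_place (K₀ : IntermediateField ℚ Qb) {q M : ℕ}
    [NeZero q] [NeZero M] [NeZero (M * q)]
    (P : Place ↥K₀ ↥(modularFunctionFieldFullC ↥K₀ (M * q)))
    (hj : bgJ ↥K₀ (M * q) ∈ P.toValuationSubring) :
    ∀ x ∈ Algebra.adjoin ↥K₀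
      ({bgJ ↥K₀ (M * q)} : Set ↥(modularFunctionFieldFullC ↥K₀ (M * q))),
      x ∈ P.toValuationSubring := by
  intro x hx
  induction hx using Algebra.adjoin_induction with
  | mem x hx =>
    rw [Set.mem_singleton_iff] at hx
    rw [hx]
    exact hj
  | algebraMap a => exact P.algebraMap_mem' _
  | add x y _ _ hx hy => exact add_mem hx hy
  | mul x y _ _ hx hy => exact mul_mem hx hy

/-- **`ord_P h = 0`** at every place `P` of `F / K₀` with `0 ≤ ord_P j` (the divisor of the Ogg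
unit is cuspidal). -/
theorem tres5o_ord_eq_zero (K₀ : IntermediateField ℚ Qb) (ιC : ↥K₀ →+* ℂ) {q M : ℕ}
    [NeZero q] [NeZero M] [NeZero (M * q)] (hq : q.Prime)
    (P : Place ↥K₀ ↥(modularFunctionFieldFullC ↥K₀ (M * q)))
    (hj : 0 ≤ P.ord (bgJ ↥K₀ (M * q))) :
    P.ord (s36tuV ↥K₀ ιC (q := q) (M := M)) = 0 := by
  have hj' : bgJ ↥K₀ (M * q) ∈ P.toValuationSubring := PlaceAux.mem_of_ord_nonneg P hj
  haveI : IsScalarTower ↥K₀ ↥K₀ ↥(modularFunctionFieldFullC ↥K₀ (M * q)) := IsScalarTower.left _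
  have hU : IsIntegral ↥(Algebra.adjoin ↥K₀
      ({bgJ ↥K₀ (M * q)} : Set ↥(modularFunctionFieldFullC ↥K₀ (M * q))))
      (s36tuU ↥K₀ ιC (q := q) (M := M)) :=
    s36tu_isIntegral_U (A := ↥K₀) (E := ↥K₀) (M := M) ιC hq
  have hV : IsIntegral ↥(Algebra.adjoin ↥K₀
      ({bgJ ↥K₀ (M * q)} : Set ↥(modularFunctionFieldFullC ↥K₀ (M * q))))
      (s36tuV ↥K₀ ιC (q := q) (M := M)) :=
    s36tu_isIntegral_V (A := ↥K₀) (E := ↥K₀) (M := M) ιC hq
  exact tres5o_ord_eq_zero_of_mem K₀ ιC P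
    (crossing_mem_of_isIntegral P.toValuationSubring _ (tres5o_adjoin_le_place K₀ P hj') hU)
    (crossing_mem_of_isIntegral P.toValuationSubring _ (tres5o_adjoin_le_place K₀ P hj') hV)

/-- the same for `U` -/
theorem tres5o_ord_U_eq_zero (K₀ : IntermediateField ℚ Qb) (ιC : ↥K₀ →+* ℂ) {q M : ℕ}
    [NeZero q] [NeZero M] [NeZero (M * q)] (hq : q.Prime)
    (P : Place ↥K₀ ↥(modularFunctionFieldFullC ↥K₀ (M * q)))
    (hj : 0 ≤ P.ord (bgJ ↥K₀ (M * q))) :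
    P.ord (s36tuU ↥K₀ ιC (q := q) (M := M)) = 0 := by
  have h1 := tres5o_ord_eq_zero K₀ ιC hq P hj
  have h2 := congrArg P.ord (tres5o_U_mul_V K₀ ιC (q := q) (M := M))
  rw [P.ord_mul (s36tuU_ne_zero ↥K₀ ιC) (s36tuV_ne_zero ↥K₀ ιC), h1,
    PlaceAux.ord_algebraMap, add_zero] at h2
  exact h2

omit [IsDiscreteValuationRing ↥(beta0Ring A K₀)] in
/-- elements of the chart lie in the local rings of its closed points -/
theorem tres5o_chart_mem_atLoc [IsDiscreteValuationRing ↥(beta0Ring A K₀)]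
    {u : ↥(modularFunctionFieldFullC ↥K₀ (M * q))}
    (𝔫 : AtPt (F := ↥(modularFunctionFieldFullC ↥K₀ (M * q))) π u)
    {x : ↥(modularFunctionFieldFullC ↥K₀ (M * q))}
    (hx : x ∈ zchClosure (A₀ := ↥(beta0Ring A K₀))
      ({u} : Set ↥(modularFunctionFieldFullC ↥K₀ (M * q)))) : x ∈ atLoc 𝔫 := by
  haveI := 𝔫.2.1.isPrime
  exact ls_algebraMap_mem (F := ↥(modularFunctionFieldFullC ↥K₀ (M * q))) 𝔫.1 ⟨x, hx⟩

include hq in
/-- **`hhor` for the Ogg unit**, `m = 0`, at every closed point of the chart `j`. -/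
theorem tres5o_hhor
    (𝔫 : AtPt (F := ↥(modularFunctionFieldFullC ↥K₀ (M * q))) π (bgJ ↥K₀ (M * q)))
    (P : Place ↥K₀ ↥(modularFunctionFieldFullC ↥K₀ (M * q)))
    (hP : ∀ x ∈ atLoc 𝔫, x ∈ P.toValuationSubring) :
    ((0 : ℕ) : ℤ) ∣ P.ord (s36tuV ↥K₀ ιC (q := q) (M := M)) := by
  rw [tres5o_ord_eq_zero_of_mem K₀ ιC P
    (hP _ (tres5o_chart_mem_atLoc 𝔫 (tres5o_U_mem_chart (A := A) ιC hq)))
    (hP _ (tres5o_chart_mem_atLoc 𝔫 (tres5o_V_mem_chart (A := A) ιC hq)))]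
  exact dvd_zero _

/-! ### the node formula -/

/-- **The node formula for the Ogg unit** at a thin crossing point of the chart `j`
(`X ∈ 𝔪(V_∞)`, `Y ∈ 𝔪(V_0)`): `h = ε · Y ^ (12 e)`, from (LF) with `m = 0`. -/
theorem tres5o_cross_fac_of (hA : A.LiesOverPrime q)
    [FiniteDimensional (↥K₀)⟮bgJ ↥K₀ (M * q)⟯ ↥(modularFunctionFieldFullC ↥K₀ (M * q))]
    [IsNoetherianRing ↥(zchClosure (A₀ := ↥(beta0Ring A K₀))
      ({bgJ ↥K₀ (M * q)} : Set ↥(modularFunctionFieldFullC ↥K₀ (M * q))))]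
    (hSS1 : ∀ b : ↥(modularFunctionFieldFullC ↥K₀ (M * q)),
      IsIntegral ↥(Algebra.adjoin ↥(beta0Ring A K₀)
        ({bgJ ↥K₀ (M * q)} : Set ↥(modularFunctionFieldFullC ↥K₀ (M * q)))) b →
      (∀ c, b ∈ (mgvV hπ ιC hq hqM c).nonunits) →
      ∃ b' : ↥(modularFunctionFieldFullC ↥K₀ (M * q)),
        IsIntegral ↥(Algebra.adjoin ↥(beta0Ring A K₀)
          ({bgJ ↥K₀ (M * q)} : Set ↥(modularFunctionFieldFullC ↥K₀ (M * q)))) b' ∧
        b = algebraMap ↥(beta0Ring A K₀) ↥(modularFunctionFieldFullC ↥K₀ (M * q)) π * b')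
    (hU : ∀ c (x : ↥(modularFunctionFieldFullC ↥K₀ (M * q))),
      x ∈ (mgvV hπ ιC hq hqM c).nonunits → ∃ z ∈ mgvV hπ ιC hq hqM c,
        x = algebraMap ↥(beta0Ring A K₀) ↥(modularFunctionFieldFullC ↥K₀ (M * q)) π * z)
    {e : ℕ} (hqπ : Associated ((q : ℕ) : ↥(beta0Ring A K₀)) (π ^ e))
    (𝔫 : AtPt (F := ↥(modularFunctionFieldFullC ↥K₀ (M * q))) π (bgJ ↥K₀ (M * q)))
    {X Y : ↥(zchClosure (A₀ := ↥(beta0Ring A K₀))
      ({bgJ ↥K₀ (M * q)} : Set ↥(modularFunctionFieldFullC ↥K₀ (M * q))))}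
    (h : Rtk6lfCrossAt (mgvV hπ ιC hq hqM true) (mgvV hπ ιC hq hqM false) 𝔫 X Y) :
    ∃ ε : ↥(atLoc 𝔫), IsUnit ε ∧
      s36tuV ↥K₀ ιC (q := q) (M := M) =
        (ε : ↥(modularFunctionFieldFullC ↥K₀ (M * q))) *
          (Y : ↥(modularFunctionFieldFullC ↥K₀ (M * q))) ^ (12 * e) := by
  obtain ⟨γ, ε, a, b, hε, hy, -, -, -, hv₁, hv₂⟩ :=
    rtk6lfc_cross_fac (E := ↥K₀) hπ (mgvV hπ ιC hq hqM) true false (fun c => mgv_hκ c)
      (mgv_hBV₁ hπ ιC hq hqM) (mgv_hπV hπ ιC hq hqM) hSS1 hU 𝔫 h 0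
      (s36tuV_ne_zero ↥K₀ ιC) (tres5o_hhor ιC hq 𝔫)
  have hπ0 : algebraMap ↥(beta0Ring A K₀) ↥(modularFunctionFieldFullC ↥K₀ (M * q)) π ≠ 0 :=
    ei_algebraMap_ne_zero (E := ↥K₀) hπ
  have ha : a = 0 := by
    rw [tres5o_val_true hπ ιC hq hqM hA] at hv₁
    exact rtk6lfp_zpow_eq_one _ (mgv_hπV hπ ιC hq hqM true) hπ0 hv₁.symm
  have hb : b = ((12 * e : ℕ) : ℤ) := by
    rw [tres5o_val_false_pi hπ ιC hq hqM hA hqπ, ← zpow_natCast] at hv₂
    exact (tres5o_zpow_inj _ (mgv_hπV hπ ιC hq hqM false) hπ0 hv₂).symm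
  refine ⟨ε, hε, ?_⟩
  rw [hy, ha, hb, zpow_zero, mul_one, pow_zero, mul_one, zpow_natCast]

/-- **The node formula for the Ogg unit**, other orientation (`X ∈ 𝔪(V_0)`, `Y ∈ 𝔪(V_∞)`):
`h = ε · X ^ (12 e)`. -/
theorem tres5o_cross_fac_of' (hA : A.LiesOverPrime q)
    [FiniteDimensional (↥K₀)⟮bgJ ↥K₀ (M * q)⟯ ↥(modularFunctionFieldFullC ↥K₀ (M * q))]
    [IsNoetherianRing ↥(zchClosure (A₀ := ↥(beta0Ring A K₀))
      ({bgJ ↥K₀ (M * q)} : Set ↥(modularFunctionFieldFullC ↥K₀ (M * q))))]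
    (hSS1 : ∀ b : ↥(modularFunctionFieldFullC ↥K₀ (M * q)),
      IsIntegral ↥(Algebra.adjoin ↥(beta0Ring A K₀)
        ({bgJ ↥K₀ (M * q)} : Set ↥(modularFunctionFieldFullC ↥K₀ (M * q)))) b →
      (∀ c, b ∈ (mgvV hπ ιC hq hqM c).nonunits) →
      ∃ b' : ↥(modularFunctionFieldFullC ↥K₀ (M * q)),
        IsIntegral ↥(Algebra.adjoin ↥(beta0Ring A K₀)
          ({bgJ ↥K₀ (M * q)} : Set ↥(modularFunctionFieldFullC ↥K₀ (M * q)))) b' ∧
        b = algebraMap ↥(beta0Ring A K₀) ↥(modularFunctionFieldFullC ↥K₀ (M * q)) π * b')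
    (hU : ∀ c (x : ↥(modularFunctionFieldFullC ↥K₀ (M * q))),
      x ∈ (mgvV hπ ιC hq hqM c).nonunits → ∃ z ∈ mgvV hπ ιC hq hqM c,
        x = algebraMap ↥(beta0Ring A K₀) ↥(modularFunctionFieldFullC ↥K₀ (M * q)) π * z)
    {e : ℕ} (hqπ : Associated ((q : ℕ) : ↥(beta0Ring A K₀)) (π ^ e))
    (𝔫 : AtPt (F := ↥(modularFunctionFieldFullC ↥K₀ (M * q))) π (bgJ ↥K₀ (M * q)))
    {X Y : ↥(zchClosure (A₀ := ↥(beta0Ring A K₀))
      ({bgJ ↥K₀ (M * q)} : Set ↥(modularFunctionFieldFullC ↥K₀ (M * q))))}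
    (h : Rtk6lfCrossAt (mgvV hπ ιC hq hqM false) (mgvV hπ ιC hq hqM true) 𝔫 X Y) :
    ∃ ε : ↥(atLoc 𝔫), IsUnit ε ∧
      s36tuV ↥K₀ ιC (q := q) (M := M) =
        (ε : ↥(modularFunctionFieldFullC ↥K₀ (M * q))) *
          (X : ↥(modularFunctionFieldFullC ↥K₀ (M * q))) ^ (12 * e) := by
  obtain ⟨h₁, h₂, hX, hY, ⟨w, hw, hXY⟩, hgen⟩ := h
  have hgen' : NodesLocGen 𝔫.1 {algebraMap ↥(beta0Ring A K₀) ↥(zchClosure (A₀ := ↥(beta0Ring A K₀))
      ({bgJ ↥K₀ (M * q)} : Set ↥(modularFunctionFieldFullC ↥K₀ (M * q)))) π, Y, X} := by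
    have e1 : ({algebraMap ↥(beta0Ring A K₀) ↥(zchClosure (A₀ := ↥(beta0Ring A K₀))
        ({bgJ ↥K₀ (M * q)} : Set ↥(modularFunctionFieldFullC ↥K₀ (M * q)))) π, Y, X} :
        Set ↥(zchClosure (A₀ := ↥(beta0Ring A K₀))
        ({bgJ ↥K₀ (M * q)} : Set ↥(modularFunctionFieldFullC ↥K₀ (M * q))))) =
        {algebraMap ↥(beta0Ring A K₀) ↥(zchClosure (A₀ := ↥(beta0Ring A K₀))
        ({bgJ ↥K₀ (M * q)} : Set ↥(modularFunctionFieldFullC ↥K₀ (M * q)))) π, X, Y} := by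
      ext z
      simp only [Set.mem_insert_iff, Set.mem_singleton_iff]
      tauto
    rw [e1]
    exact hgen
  exact tres5o_cross_fac_of hπ ιC hq hqM hA hSS1 hU hqπ 𝔫
    ⟨h₂, h₁, hY, hX, ⟨w, hw, hXY.trans (mul_comm X Y)⟩, hgen'⟩

/-- **The Ogg unit is a unit of `(B_j)_𝔫`** at a smooth point of the chart `j` through which
only the component `V_∞` passes. -/
theorem tres5o_smooth_unit_of (hA : A.LiesOverPrime q)
    [FiniteDimensional (↥K₀)⟮bgJ ↥K₀ (M * q)⟯ ↥(modularFunctionFieldFullC ↥K₀ (M * q))]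
    [IsNoetherianRing ↥(zchClosure (A₀ := ↥(beta0Ring A K₀))
      ({bgJ ↥K₀ (M * q)} : Set ↥(modularFunctionFieldFullC ↥K₀ (M * q))))]
    (hSS1 : ∀ b : ↥(modularFunctionFieldFullC ↥K₀ (M * q)),
      IsIntegral ↥(Algebra.adjoin ↥(beta0Ring A K₀)
        ({bgJ ↥K₀ (M * q)} : Set ↥(modularFunctionFieldFullC ↥K₀ (M * q)))) b →
      (∀ c, b ∈ (mgvV hπ ιC hq hqM c).nonunits) →
      ∃ b' : ↥(modularFunctionFieldFullC ↥K₀ (M * q)),
        IsIntegral ↥(Algebra.adjoin ↥(beta0Ring A K₀)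
          ({bgJ ↥K₀ (M * q)} : Set ↥(modularFunctionFieldFullC ↥K₀ (M * q)))) b' ∧
        b = algebraMap ↥(beta0Ring A K₀) ↥(modularFunctionFieldFullC ↥K₀ (M * q)) π * b')
    (hU : ∀ c (x : ↥(modularFunctionFieldFullC ↥K₀ (M * q))),
      x ∈ (mgvV hπ ιC hq hqM c).nonunits → ∃ z ∈ mgvV hπ ιC hq hqM c,
        x = algebraMap ↥(beta0Ring A K₀) ↥(modularFunctionFieldFullC ↥K₀ (M * q)) π * z)
    (𝔫 : AtPt (F := ↥(modularFunctionFieldFullC ↥K₀ (M * q))) π (bgJ ↥K₀ (M * q)))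
    (hthr : atThrough 𝔫 (mgvV hπ ιC hq hqM true))
    (hone : ∀ c', atThrough 𝔫 (mgvV hπ ιC hq hqM c') → c' = true)
    {s : ↥(zchClosure (A₀ := ↥(beta0Ring A K₀))
      ({bgJ ↥K₀ (M * q)} : Set ↥(modularFunctionFieldFullC ↥K₀ (M * q))))} (hs : s ∈ 𝔫.1)
    (hgen : NodesLocGen 𝔫.1 {algebraMap ↥(beta0Ring A K₀) ↥(zchClosure (A₀ := ↥(beta0Ring A K₀))
      ({bgJ ↥K₀ (M * q)} : Set ↥(modularFunctionFieldFullC ↥K₀ (M * q)))) π, s}) :
    ∃ ε : ↥(atLoc 𝔫), IsUnit ε ∧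
      s36tuV ↥K₀ ιC (q := q) (M := M) = (ε : ↥(modularFunctionFieldFullC ↥K₀ (M * q))) := by
  obtain ⟨γ, ε, a, hε, hy, -, -, hv⟩ :=
    rtk6lfc_smooth_fac (E := ↥K₀) hπ (mgvV hπ ιC hq hqM)
      (mgv_hBV₁ hπ ιC hq hqM) (mgv_hπV hπ ιC hq hqM) hSS1 hU 𝔫 true hthr
      hone hs hgen 0 (s36tuV_ne_zero ↥K₀ ιC) (tres5o_hhor ιC hq 𝔫)
  have hπ0 : algebraMap ↥(beta0Ring A K₀) ↥(modularFunctionFieldFullC ↥K₀ (M * q)) π ≠ 0 :=
    ei_algebraMap_ne_zero (E := ↥K₀) hπ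
  have ha : a = 0 := by
    rw [tres5o_val_true hπ ιC hq hqM hA] at hv
    exact rtk6lfp_zpow_eq_one _ (mgv_hπV hπ ιC hq hqM true) hπ0 hv.symm
  exact ⟨ε, hε, by rw [hy, ha, zpow_zero, mul_one, pow_zero, mul_one]⟩

/-- **The Ogg unit at a smooth point of the chart `j`** through which only the component `V_0`
passes: `h = ε · π ^ (12 e)`. -/
theorem tres5o_smooth_fac_of (hA : A.LiesOverPrime q)
    [FiniteDimensional (↥K₀)⟮bgJ ↥K₀ (M * q)⟯ ↥(modularFunctionFieldFullC ↥K₀ (M * q))]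
    [IsNoetherianRing ↥(zchClosure (A₀ := ↥(beta0Ring A K₀))
      ({bgJ ↥K₀ (M * q)} : Set ↥(modularFunctionFieldFullC ↥K₀ (M * q))))]
    (hSS1 : ∀ b : ↥(modularFunctionFieldFullC ↥K₀ (M * q)),
      IsIntegral ↥(Algebra.adjoin ↥(beta0Ring A K₀)
        ({bgJ ↥K₀ (M * q)} : Set ↥(modularFunctionFieldFullC ↥K₀ (M * q)))) b →
      (∀ c, b ∈ (mgvV hπ ιC hq hqM c).nonunits) →
      ∃ b' : ↥(modularFunctionFieldFullC ↥K₀ (M * q)),
        IsIntegral ↥(Algebra.adjoin ↥(beta0Ring A K₀)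
          ({bgJ ↥K₀ (M * q)} : Set ↥(modularFunctionFieldFullC ↥K₀ (M * q)))) b' ∧
        b = algebraMap ↥(beta0Ring A K₀) ↥(modularFunctionFieldFullC ↥K₀ (M * q)) π * b')
    (hU : ∀ c (x : ↥(modularFunctionFieldFullC ↥K₀ (M * q))),
      x ∈ (mgvV hπ ιC hq hqM c).nonunits → ∃ z ∈ mgvV hπ ιC hq hqM c,
        x = algebraMap ↥(beta0Ring A K₀) ↥(modularFunctionFieldFullC ↥K₀ (M * q)) π * z)
    {e : ℕ} (hqπ : Associated ((q : ℕ) : ↥(beta0Ring A K₀)) (π ^ e))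
    (𝔫 : AtPt (F := ↥(modularFunctionFieldFullC ↥K₀ (M * q))) π (bgJ ↥K₀ (M * q)))
    (hthr : atThrough 𝔫 (mgvV hπ ιC hq hqM false))
    (hone : ∀ c', atThrough 𝔫 (mgvV hπ ιC hq hqM c') → c' = false)
    {s : ↥(zchClosure (A₀ := ↥(beta0Ring A K₀))
      ({bgJ ↥K₀ (M * q)} : Set ↥(modularFunctionFieldFullC ↥K₀ (M * q))))} (hs : s ∈ 𝔫.1)
    (hgen : NodesLocGen 𝔫.1 {algebraMap ↥(beta0Ring A K₀) ↥(zchClosure (A₀ := ↥(beta0Ring A K₀))
      ({bgJ ↥K₀ (M * q)} : Set ↥(modularFunctionFieldFullC ↥K₀ (M * q)))) π, s}) :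
    ∃ ε : ↥(atLoc 𝔫), IsUnit ε ∧
      s36tuV ↥K₀ ιC (q := q) (M := M) =
        (ε : ↥(modularFunctionFieldFullC ↥K₀ (M * q))) *
          algebraMap ↥(beta0Ring A K₀) ↥(modularFunctionFieldFullC ↥K₀ (M * q)) π ^ (12 * e) := by
  obtain ⟨γ, ε, a, hε, hy, -, -, hv⟩ :=
    rtk6lfc_smooth_fac (E := ↥K₀) hπ (mgvV hπ ιC hq hqM)
      (mgv_hBV₁ hπ ιC hq hqM) (mgv_hπV hπ ιC hq hqM) hSS1 hU 𝔫 false hthr
      hone hs hgen 0 (s36tuV_ne_zero ↥K₀ ιC) (tres5o_hhor ιC hq 𝔫)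
  have hπ0 : algebraMap ↥(beta0Ring A K₀) ↥(modularFunctionFieldFullC ↥K₀ (M * q)) π ≠ 0 :=
    ei_algebraMap_ne_zero (E := ↥K₀) hπ
  have ha : a = ((12 * e : ℕ) : ℤ) := by
    rw [tres5o_val_false_pi hπ ιC hq hqM hA hqπ, ← zpow_natCast] at hv
    exact (tres5o_zpow_inj _ (mgv_hπV hπ ιC hq hqM false) hπ0 hv).symm
  exact ⟨ε, hε, by rw [hy, ha, pow_zero, mul_one, zpow_natCast]⟩

end Mgv

end Fermat.Agent.R38

end
end ZBRT_001_7
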