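/- GENERATED FILE (helper35, build-time optimisation, NOTES/ZB.md): verbatim concatenation of the modules
   Fermat.Agent.S36.PtsCElts
   Fermat.Agent.S36.PtsCCongInst
   Fermat.Agent.S36.PtsCuspW
   Do not edit; do not import together with these modules. -/
import Fermat.Agent.ZB.S36_002
import Fermat.Agent.ZB.S36_028
import Fermat.Agent.ZB.S36_022
import Fermat.Agent.ZB.S36_009
import Fermat.Agent.ZB.INJ_011
import Fermat.Agent.ZB.S36_039
import Fermat.Agent.ZB.UNIP_012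

/-! ### bundled: `Fermat.Agent.S36.PtsCElts` -/
section ZBS36_034_0

/-!
# S36 / (I6)(b-UNIT), part 1: the elements of `F = F_{Mq²}(E)` and their integrality over `A[j]`
(helper80)

`E` a field of characteristic `0`, `F = modularFunctionFieldFullC E (M * q * q)`,
`j = bgJ E (M * q * q)`.

Elements (all in `F`):
* `s36cunBase hf`, `s36cunSq hf`, `s36cunPi hf` : `f`, `f(Q^{q²})`, `Π_f = f(Q^{q²}) − f` for
  `f ∈ F_M`;
* `s36cunJq`, `s36cunJqq` : `j(Q^q)`, `j(Q^{q²})`;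
* `s36cunH2`, `s36cunT4`, `s36cunX4`, `s36cunG4` (`2 ∣ M` resp. `4 ∣ M`): `h₂`, `t₄`,
  `Π_{t₄}`, `(t₄² (t₄ + 16)⁵)^(q−1)`;
* `s36cunH3`, `s36cunT9`, `s36cunX9`, `s36cunD9` (`3 ∣ M` resp. `9 ∣ M`): `h₃`, `t₉`,
  `Π_{t₉}`, `t₉² + 9 t₉ + 27`;
* `s36cunT = α(u_q)`, `s36cunW = α(Δ/Δ_q)`, `s36cunW' = α(q¹² Δ_q/Δ)` (`α = s36Alpha`).

Integrality over `A[j]` (`A` any commutative ring with `Algebra A F`):
`s36cun_isIntegral_Jq/_Jqq/_H2/_T4/_X4/_G4/_H3/_T9/_X9/_D9/_W/_W'`, and in general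
`s36cun_isIntegral_sq`, `s36cun_isIntegral_Pi` (for `f ∈ F_M` integral over `A[j]` through a monic
`Φ ∈ ℤ[Y][X]`).

Relations: `s36cun_W_mul_W'`, `s36cun_W'_eq`, `s36cun_W_mul_T`.
-/

set_option autoImplicit false
set_option linter.unusedSectionVars false
set_option linter.unusedVariables false
set_option linter.style.haveILetI false
set_option synthInstance.maxHeartbeats 400000
set_option maxHeartbeats 1000000

noncomputable section

namespace Fermat.Agent.S36

open ModularCurve Polynomial IntermediateField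
open Fermat.Agent.INJ Fermat.Agent.AL Fermat.Agent.S28 Fermat.Agent.UNIP Fermat.Agent.ES

/-! ## The elements -/

section Elts

variable (E : Type*) [Field E] [CharZero E] (ιC : E →+* ℂ)
  (M q : ℕ) [NeZero q] [NeZero M] [NeZero (M * q)] [NeZero (M * q * q)]

theorem s36cun_level_ne_zero : ((M : ℕ) : E) ≠ 0 := Nat.cast_ne_zero.mpr (NeZero.ne M)

variable {E M}

/-- `f ∈ F_M` as an element of `F_{Mq²}`. -/
def s36cunBase {f : LaurentSeries E} (hf : f ∈ modularFunctionFieldFullC E M) :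
    modularFunctionFieldFullC E (M * q * q) :=
  ⟨f, s36mid_base_le hf⟩

/-- `f(Q^{q²}) ∈ F_{Mq²}` for `f ∈ F_M`. -/
def s36cunSq {f : LaurentSeries E} (hf : f ∈ modularFunctionFieldFullC E M) :
    modularFunctionFieldFullC E (M * q * q) :=
  ⟨qExpand E q (qExpand E q f), s36mid_qExpand_sq_mem hf⟩

/-- `Π_f = f(Q^{q²}) − f ∈ F_{Mq²}` for `f ∈ F_M`. -/
def s36cunPi {f : LaurentSeries E} (hf : f ∈ modularFunctionFieldFullC E M) :
    modularFunctionFieldFullC E (M * q * q) :=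
  ⟨qExpand E q (qExpand E q f) - f, s36th_Pi_mem hf⟩

@[simp]
theorem s36cunBase_coe {f : LaurentSeries E} (hf : f ∈ modularFunctionFieldFullC E M) :
    ((s36cunBase q hf : modularFunctionFieldFullC E (M * q * q)) : LaurentSeries E) = f := rfl

@[simp]
theorem s36cunSq_coe {f : LaurentSeries E} (hf : f ∈ modularFunctionFieldFullC E M) :
    ((s36cunSq q hf : modularFunctionFieldFullC E (M * q * q)) : LaurentSeries E) =
      qExpand E q (qExpand E q f) := rfl

@[simp]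
theorem s36cunPi_coe {f : LaurentSeries E} (hf : f ∈ modularFunctionFieldFullC E M) :
    ((s36cunPi q hf : modularFunctionFieldFullC E (M * q * q)) : LaurentSeries E) =
      qExpand E q (qExpand E q f) - f := rfl

theorem s36cunPi_eq {f : LaurentSeries E} (hf : f ∈ modularFunctionFieldFullC E M) :
    s36cunPi q hf = s36cunSq q hf - s36cunBase q hf := rfl

variable (E M)

/-- `j(Q^q) ∈ F_{Mq²}` -/
def s36cunJq : modularFunctionFieldFullC E (M * q * q) :=
  ⟨qExpand E q (jqModC E), s36mid_low_le (al_qExpand_mem E (jqModC_mem_full E M))⟩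

/-- `j(Q^{q²}) ∈ F_{Mq²}` -/
def s36cunJqq : modularFunctionFieldFullC E (M * q * q) :=
  s36cunSq q (jqModC_mem_full E M)

@[simp]
theorem s36cunJq_coe :
    ((s36cunJq E M q : modularFunctionFieldFullC E (M * q * q)) : LaurentSeries E) =
      qExpand E q (jqModC E) := rfl

@[simp]
theorem s36cunJqq_coe :
    ((s36cunJqq E M q : modularFunctionFieldFullC E (M * q * q)) : LaurentSeries E) =
      qExpand E q (qExpand E q (jqModC E)) := rfl

@[simp]
theorem s36cun_bgJ_coe :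
    ((bgJ E (M * q * q) : modularFunctionFieldFullC E (M * q * q)) : LaurentSeries E) =
      jqModC E := rfl

/-! ### level `4` -/

theorem s36cun_h2_mem (h2 : 2 ∣ M) : hm2 E ∈ modularFunctionFieldFullC E M :=
  hm2_mem_full E h2 (s36cun_level_ne_zero E M)

theorem s36cun_t4_mem (h4 : 4 ∣ M) : s36rig_t4 E ∈ modularFunctionFieldFullC E M :=
  s36rig_t4_mem E h4 (s36cun_level_ne_zero E M)

/-- `h₂ ∈ F_{Mq²}` -/
def s36cunH2 (h2 : 2 ∣ M) : modularFunctionFieldFullC E (M * q * q) :=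
  s36cunBase q (s36cun_h2_mem E M h2)

/-- `t₄ ∈ F_{Mq²}` -/
def s36cunT4 (h4 : 4 ∣ M) : modularFunctionFieldFullC E (M * q * q) :=
  s36cunBase q (s36cun_t4_mem E M h4)

/-- `X = Π_{t₄} = t₄(Q^{q²}) − t₄ ∈ F_{Mq²}` -/
def s36cunX4 (h4 : 4 ∣ M) : modularFunctionFieldFullC E (M * q * q) :=
  s36cunPi q (s36cun_t4_mem E M h4)

/-- `G = (t₄² (t₄ + 16)⁵)^(q−1)` -/
def s36cunG4 (h4 : 4 ∣ M) : modularFunctionFieldFullC E (M * q * q) :=
  (s36cunT4 E M q h4 ^ 2 * (s36cunT4 E M q h4 + 16) ^ 5) ^ (q - 1)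

@[simp]
theorem s36cunH2_coe (h2 : 2 ∣ M) :
    ((s36cunH2 E M q h2 : modularFunctionFieldFullC E (M * q * q)) : LaurentSeries E) =
      hm2 E := rfl

@[simp]
theorem s36cunT4_coe (h4 : 4 ∣ M) :
    ((s36cunT4 E M q h4 : modularFunctionFieldFullC E (M * q * q)) : LaurentSeries E) =
      s36rig_t4 E := rfl

@[simp]
theorem s36cunX4_coe (h4 : 4 ∣ M) :
    ((s36cunX4 E M q h4 : modularFunctionFieldFullC E (M * q * q)) : LaurentSeries E) =
      qExpand E q (qExpand E q (s36rig_t4 E)) - s36rig_t4 E := rfl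

theorem s36cun_H2_j (h2 : 2 ∣ M) :
    bgJ E (M * q * q) * s36cunH2 E M q h2 ^ 2 = (s36cunH2 E M q h2 + 256) ^ 3 := by
  apply (modularFunctionFieldFullC E (M * q * q)).val.toRingHom.injective
  simp only [map_mul, map_pow, map_add, map_ofNat]
  exact hm2_j E

theorem s36cun_T4_sq (h4 : 4 ∣ M) :
    s36cunT4 E M q h4 ^ 2 =
      s36cunH2 E M q ((show 2 ∣ 4 by norm_num).trans h4) * s36cunT4 E M q h4 +
        16 * s36cunH2 E M q ((show 2 ∣ 4 by norm_num).trans h4) := by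
  apply (modularFunctionFieldFullC E (M * q * q)).val.toRingHom.injective
  simp only [map_mul, map_pow, map_add, map_ofNat]
  exact s36rig_t4_sq E

/-! ### level `9` -/

theorem s36cun_h3_mem (h3 : 3 ∣ M) : hm3 E ∈ modularFunctionFieldFullC E M :=
  hm3_mem_full E h3 (s36cun_level_ne_zero E M)

theorem s36cun_t9_mem (h9 : 9 ∣ M) : s36rig_t9 E ∈ modularFunctionFieldFullC E M :=
  s36rig_t9_mem E h9 (s36cun_level_ne_zero E M)

/-- `h₃ ∈ F_{Mq²}` -/
def s36cunH3 (h3 : 3 ∣ M) : modularFunctionFieldFullC E (M * q * q) :=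
  s36cunBase q (s36cun_h3_mem E M h3)

/-- `t₉ ∈ F_{Mq²}` -/
def s36cunT9 (h9 : 9 ∣ M) : modularFunctionFieldFullC E (M * q * q) :=
  s36cunBase q (s36cun_t9_mem E M h9)

/-- `X = Π_{t₉} = t₉(Q^{q²}) − t₉ ∈ F_{Mq²}` -/
def s36cunX9 (h9 : 9 ∣ M) : modularFunctionFieldFullC E (M * q * q) :=
  s36cunPi q (s36cun_t9_mem E M h9)

/-- `D = t₉² + 9 t₉ + 27` -/
def s36cunD9 (h9 : 9 ∣ M) : modularFunctionFieldFullC E (M * q * q) :=
  s36cunT9 E M q h9 ^ 2 + 9 * s36cunT9 E M q h9 + 27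

@[simp]
theorem s36cunH3_coe (h3 : 3 ∣ M) :
    ((s36cunH3 E M q h3 : modularFunctionFieldFullC E (M * q * q)) : LaurentSeries E) =
      hm3 E := rfl

@[simp]
theorem s36cunT9_coe (h9 : 9 ∣ M) :
    ((s36cunT9 E M q h9 : modularFunctionFieldFullC E (M * q * q)) : LaurentSeries E) =
      s36rig_t9 E := rfl

@[simp]
theorem s36cunX9_coe (h9 : 9 ∣ M) :
    ((s36cunX9 E M q h9 : modularFunctionFieldFullC E (M * q * q)) : LaurentSeries E) =
      qExpand E q (qExpand E q (s36rig_t9 E)) - s36rig_t9 E := rfl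

theorem s36cun_H3_j (h3 : 3 ∣ M) :
    bgJ E (M * q * q) * s36cunH3 E M q h3 ^ 3 =
      (s36cunH3 E M q h3 + 27) * (s36cunH3 E M q h3 + 243) ^ 3 := by
  apply (modularFunctionFieldFullC E (M * q * q)).val.toRingHom.injective
  simp only [map_mul, map_pow, map_add, map_ofNat]
  exact hm3_j E

theorem s36cun_T9_cube (h9 : 9 ∣ M) :
    s36cunT9 E M q h9 ^ 3 =
      s36cunH3 E M q ((show 3 ∣ 9 by norm_num).trans h9) *
        (s36cunT9 E M q h9 ^ 2 + 9 * s36cunT9 E M q h9 + 27) := by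
  apply (modularFunctionFieldFullC E (M * q * q)).val.toRingHom.injective
  simp only [map_mul, map_pow, map_add, map_ofNat]
  exact s36rig_t9_cube E

/-! ### the units -/

/-- `T = α(u_q)`, `u_q = Δ(Q^q)/Δ(Q)` -/
def s36cunT : modularFunctionFieldFullC E (M * q * q) :=
  s36Alpha E M q (s36tuU0 E ιC)

/-- `W = α(Δ(Q)/Δ(Q^q))` -/
def s36cunW : modularFunctionFieldFullC E (M * q * q) :=
  s36Alpha E M q (s36tuV E ιC)

/-- `W' = α(q¹² Δ(Q^q)/Δ(Q))` -/
def s36cunW' : modularFunctionFieldFullC E (M * q * q) :=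
  s36Alpha E M q (s36tuU E ιC)

@[simp]
theorem s36cunT_coe :
    ((s36cunT E ιC M q : modularFunctionFieldFullC E (M * q * q)) : LaurentSeries E) =
      uS E q := by
  rw [s36cunT, coe_s36Alpha, s36tuU0_coe]

@[simp]
theorem s36cunW_coe :
    ((s36cunW E ιC M q : modularFunctionFieldFullC E (M * q * q)) : LaurentSeries E) =
      uInvS E q := by
  rw [s36cunW, coe_s36Alpha, s36tuV_coe]

@[simp]
theorem s36cunW'_coe :
    ((s36cunW' E ιC M q : modularFunctionFieldFullC E (M * q * q)) : LaurentSeries E) =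
      HahnSeries.C ((q : E) ^ 12) * uS E q := by
  rw [s36cunW', coe_s36Alpha, s36tuU_coe]

theorem s36cunT_ne_zero : s36cunT E ιC M q ≠ 0 := by
  rw [s36cunT, Ne, map_eq_zero_iff _ (s36Alpha E M q).injective]
  exact s36tuU0_ne_zero E ιC

/-- `W · T = 1` -/
theorem s36cun_W_mul_T : s36cunW E ιC M q * s36cunT E ιC M q = 1 := by
  rw [s36cunW, s36cunT, ← map_mul, s36tuV, inv_mul_cancel₀ (s36tuU0_ne_zero E ιC), map_one]

/-- `W' = q¹² · T` -/
theorem s36cun_W'_eq :
    s36cunW' E ιC M q =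
      algebraMap E (modularFunctionFieldFullC E (M * q * q)) ((q : E) ^ 12) *
        s36cunT E ιC M q := by
  rw [s36cunW', s36cunT, s36tuU, map_mul]
  congr 1

/-- `W · W' = q¹²` -/
theorem s36cun_W_mul_W' :
    s36cunW E ιC M q * s36cunW' E ιC M q =
      algebraMap E (modularFunctionFieldFullC E (M * q * q)) ((q : E) ^ 12) := by
  rw [s36cun_W'_eq, mul_left_comm, s36cun_W_mul_T, mul_one]

end Elts

/-! ## Integrality over `A[j]` -/

section Int

variable {A E : Type*} [CommRing A] [Field E] [CharZero E] (ιC : E →+* ℂ)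
  {M q : ℕ} [NeZero q] [NeZero M] [NeZero (M * q)] [NeZero (M * q * q)] (hq : q.Prime)
  [Algebra A (modularFunctionFieldFullC E (M * q * q))]

include hq in
/-- `j(Q^q)` is integral over `A[j]`. -/
theorem s36cun_isIntegral_Jq :
    IsIntegral (Algebra.adjoin A {bgJ E (M * q * q)}) (s36cunJq E M q) := by
  refine nodesSwap_isIntegral_of_evalInt (A := A)
    (S := modularFunctionFieldFullC E (M * q * q)) (nodesSwapPhi_monic q hq) ?_
  apply (modularFunctionFieldFullC E (M * q * q)).val.toRingHom.injective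
  rw [map_eval₂_evalInt, map_zero]
  exact nodesSwapPhi_series q hq E

include hq in
/-- `j(Q^{q²})` is integral over `A[j(Q^q)]`. -/
theorem s36cun_isIntegral_Jqq_Jq :
    IsIntegral (Algebra.adjoin A {s36cunJq E M q}) (s36cunJqq E M q) := by
  refine nodesSwap_isIntegral_of_evalInt (A := A)
    (S := modularFunctionFieldFullC E (M * q * q)) (nodesSwapPhi_monic q hq) ?_
  apply (modularFunctionFieldFullC E (M * q * q)).val.toRingHom.injective
  rw [map_eval₂_evalInt, map_zero]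
  have h := congrArg (qExpand E q) (nodesSwapPhi_series q hq E)
  rw [map_eval₂_evalInt, map_zero] at h
  exact h

include hq in
/-- `j(Q^{q²})` is integral over `A[j]`. -/
theorem s36cun_isIntegral_Jqq :
    IsIntegral (Algebra.adjoin A {bgJ E (M * q * q)}) (s36cunJqq E M q) :=
  cusp_isIntegral_adjoin_trans (A := A) (F := modularFunctionFieldFullC E (M * q * q))
    (u := bgJ E (M * q * q)) (T := s36cunJq E M q) (s36cun_isIntegral_Jq hq)
    (s36cun_isIntegral_Jqq_Jq hq)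

/-- `f ∈ F_M` with `Φ(j, f) = 0`, `Φ ∈ ℤ[Y][X]` monic, is integral over `A[j]` in `F_{Mq²}`. -/
theorem s36cun_isIntegral_base {f : LaurentSeries E} (hf : f ∈ modularFunctionFieldFullC E M)
    {Φ : Polynomial (Polynomial ℤ)} (hΦ : Φ.Monic) (h : Φ.eval₂ (evalInt (jqModC E)) f = 0) :
    IsIntegral (Algebra.adjoin A {bgJ E (M * q * q)}) (s36cunBase q hf) := by
  refine nodesSwap_isIntegral_of_evalInt (A := A)
    (S := modularFunctionFieldFullC E (M * q * q)) hΦ ?_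
  apply (modularFunctionFieldFullC E (M * q * q)).val.toRingHom.injective
  rw [map_eval₂_evalInt, map_zero]
  exact h

include hq in
/-- `f ∈ F_M` with `Φ(j, f) = 0`, `Φ ∈ ℤ[Y][X]` monic: `f(Q^{q²})` is integral over `A[j]`. -/
theorem s36cun_isIntegral_sq {f : LaurentSeries E} (hf : f ∈ modularFunctionFieldFullC E M)
    {Φ : Polynomial (Polynomial ℤ)} (hΦ : Φ.Monic) (h : Φ.eval₂ (evalInt (jqModC E)) f = 0) :
    IsIntegral (Algebra.adjoin A {bgJ E (M * q * q)}) (s36cunSq q hf) := by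
  refine cusp_isIntegral_adjoin_trans (A := A) (F := modularFunctionFieldFullC E (M * q * q))
    (u := bgJ E (M * q * q)) (T := s36cunJqq E M q) (s36cun_isIntegral_Jqq hq) ?_
  refine nodesSwap_isIntegral_of_evalInt (A := A)
    (S := modularFunctionFieldFullC E (M * q * q)) hΦ ?_
  apply (modularFunctionFieldFullC E (M * q * q)).val.toRingHom.injective
  rw [map_eval₂_evalInt, map_zero]
  have h1 := congrArg (qExpand E q) (congrArg (qExpand E q) h)
  rw [map_eval₂_evalInt, map_eval₂_evalInt, map_zero, map_zero] at h1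
  exact h1

include hq in
/-- `Π_f` is integral over `A[j]`. -/
theorem s36cun_isIntegral_Pi {f : LaurentSeries E} (hf : f ∈ modularFunctionFieldFullC E M)
    {Φ : Polynomial (Polynomial ℤ)} (hΦ : Φ.Monic) (h : Φ.eval₂ (evalInt (jqModC E)) f = 0) :
    IsIntegral (Algebra.adjoin A {bgJ E (M * q * q)}) (s36cunPi q hf) := by
  rw [s36cunPi_eq]
  exact (s36cun_isIntegral_sq hq hf hΦ h).sub (s36cun_isIntegral_base hf hΦ h)

/-! ### level `4` -/

/-- `h₂` is integral over `A[j]`. -/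
theorem s36cun_isIntegral_H2 (h2 : 2 ∣ M) :
    IsIntegral (Algebra.adjoin A {bgJ E (M * q * q)}) (s36cunH2 E M q h2) :=
  s36rig_integral_h2 A (s36cun_H2_j E M q h2)

/-- `t₄` is integral over `A[j]`. -/
theorem s36cun_isIntegral_T4 (h4 : 4 ∣ M) :
    IsIntegral (Algebra.adjoin A {bgJ E (M * q * q)}) (s36cunT4 E M q h4) :=
  s36rig_integral_t4_j A (s36cun_H2_j E M q ((show 2 ∣ 4 by norm_num).trans h4))
    (s36cun_T4_sq E M q h4)

include hq in
/-- `t₄(Q^{q²})` is integral over `A[j]`. -/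
theorem s36cun_isIntegral_T4sq (h4 : 4 ∣ M) :
    IsIntegral (Algebra.adjoin A {bgJ E (M * q * q)}) (s36cunSq q (s36cun_t4_mem E M h4)) := by
  have h2 : 2 ∣ M := (show 2 ∣ 4 by norm_num).trans h4
  refine cusp_isIntegral_adjoin_trans (A := A) (F := modularFunctionFieldFullC E (M * q * q))
    (u := bgJ E (M * q * q)) (T := s36cunJqq E M q) (s36cun_isIntegral_Jqq hq) ?_
  have e1 : s36cunJqq E M q * s36cunSq q (s36cun_h2_mem E M h2) ^ 2 =
      (s36cunSq q (s36cun_h2_mem E M h2) + 256) ^ 3 := by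
    apply (modularFunctionFieldFullC E (M * q * q)).val.toRingHom.injective
    simp only [map_mul, map_pow, map_add, map_ofNat]
    have h := congrArg (qExpand E q) (congrArg (qExpand E q) (hm2_j E))
    simp only [map_mul, map_pow, map_add, map_ofNat] at h
    exact h
  have e2 : s36cunSq q (s36cun_t4_mem E M h4) ^ 2 =
      s36cunSq q (s36cun_h2_mem E M h2) * s36cunSq q (s36cun_t4_mem E M h4) +
        16 * s36cunSq q (s36cun_h2_mem E M h2) := by
    apply (modularFunctionFieldFullC E (M * q * q)).val.toRingHom.injective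
    simp only [map_mul, map_pow, map_add, map_ofNat]
    have h := congrArg (qExpand E q) (congrArg (qExpand E q) (s36rig_t4_sq E))
    simp only [map_mul, map_pow, map_add, map_ofNat] at h
    exact h
  exact s36rig_integral_t4_j A e1 e2

include hq in
/-- `X = Π_{t₄}` is integral over `A[j]`. -/
theorem s36cun_isIntegral_X4 (h4 : 4 ∣ M) :
    IsIntegral (Algebra.adjoin A {bgJ E (M * q * q)}) (s36cunX4 E M q h4) := by
  have h1 : IsIntegral (Algebra.adjoin A {bgJ E (M * q * q)})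
      (s36cunSq q (s36cun_t4_mem E M h4)) := s36cun_isIntegral_T4sq hq h4
  have h2 : IsIntegral (Algebra.adjoin A {bgJ E (M * q * q)})
      (s36cunBase q (s36cun_t4_mem E M h4)) := s36cun_isIntegral_T4 h4
  have e : s36cunX4 E M q h4 =
      s36cunSq q (s36cun_t4_mem E M h4) - s36cunBase q (s36cun_t4_mem E M h4) := rfl
  rw [e]
  exact h1.sub h2

/-- `G = (t₄² (t₄ + 16)⁵)^(q−1)` is integral over `A[j]`. -/
theorem s36cun_isIntegral_G4 (h4 : 4 ∣ M) :
    IsIntegral (Algebra.adjoin A {bgJ E (M * q * q)}) (s36cunG4 E M q h4) := by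
  have ht := s36cun_isIntegral_T4 (A := A) (E := E) (M := M) (q := q) h4
  have h16 : IsIntegral (Algebra.adjoin A {bgJ E (M * q * q)})
      ((16 : ℕ) : modularFunctionFieldFullC E (M * q * q)) := isIntegral_natCast 16
  rw [s36cunG4]
  refine IsIntegral.pow ((ht.pow 2).mul (IsIntegral.pow (ht.add ?_) 5)) _
  simpa using h16

/-! ### level `9` -/

/-- `h₃` is integral over `A[j]`. -/
theorem s36cun_isIntegral_H3 (h3 : 3 ∣ M) :
    IsIntegral (Algebra.adjoin A {bgJ E (M * q * q)}) (s36cunH3 E M q h3) :=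
  s36rig_integral_h3 A (s36cun_H3_j E M q h3)

/-- `t₉` is integral over `A[j]`. -/
theorem s36cun_isIntegral_T9 (h9 : 9 ∣ M) :
    IsIntegral (Algebra.adjoin A {bgJ E (M * q * q)}) (s36cunT9 E M q h9) :=
  cusp_isIntegral_adjoin_trans (A := A) (F := modularFunctionFieldFullC E (M * q * q))
    (u := bgJ E (M * q * q)) (T := s36cunH3 E M q ((show 3 ∣ 9 by norm_num).trans h9))
    (s36cun_isIntegral_H3 _) (s36rig_integral_t9 A (s36cun_T9_cube E M q h9))

include hq in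
/-- `t₉(Q^{q²})` is integral over `A[j]`. -/
theorem s36cun_isIntegral_T9sq (h9 : 9 ∣ M) :
    IsIntegral (Algebra.adjoin A {bgJ E (M * q * q)}) (s36cunSq q (s36cun_t9_mem E M h9)) := by
  have h3 : 3 ∣ M := (show 3 ∣ 9 by norm_num).trans h9
  refine cusp_isIntegral_adjoin_trans (A := A) (F := modularFunctionFieldFullC E (M * q * q))
    (u := bgJ E (M * q * q)) (T := s36cunJqq E M q) (s36cun_isIntegral_Jqq hq) ?_
  have e1 : s36cunJqq E M q * s36cunSq q (s36cun_h3_mem E M h3) ^ 3 =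
      (s36cunSq q (s36cun_h3_mem E M h3) + 27) *
        (s36cunSq q (s36cun_h3_mem E M h3) + 243) ^ 3 := by
    apply (modularFunctionFieldFullC E (M * q * q)).val.toRingHom.injective
    simp only [map_mul, map_pow, map_add, map_ofNat]
    have h := congrArg (qExpand E q) (congrArg (qExpand E q) (hm3_j E))
    simp only [map_mul, map_pow, map_add, map_ofNat] at h
    exact h
  have e2 : s36cunSq q (s36cun_t9_mem E M h9) ^ 3 =
      s36cunSq q (s36cun_h3_mem E M h3) * (s36cunSq q (s36cun_t9_mem E M h9) ^ 2 +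
        9 * s36cunSq q (s36cun_t9_mem E M h9) + 27) := by
    apply (modularFunctionFieldFullC E (M * q * q)).val.toRingHom.injective
    simp only [map_mul, map_pow, map_add, map_ofNat]
    have h := congrArg (qExpand E q) (congrArg (qExpand E q) (s36rig_t9_cube E))
    simp only [map_mul, map_pow, map_add, map_ofNat] at h
    exact h
  exact cusp_isIntegral_adjoin_trans (A := A) (F := modularFunctionFieldFullC E (M * q * q))
    (u := s36cunJqq E M q) (T := s36cunSq q (s36cun_h3_mem E M h3))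
    (s36rig_integral_h3 A e1) (s36rig_integral_t9 A e2)

include hq in
/-- `X = Π_{t₉}` is integral over `A[j]`. -/
theorem s36cun_isIntegral_X9 (h9 : 9 ∣ M) :
    IsIntegral (Algebra.adjoin A {bgJ E (M * q * q)}) (s36cunX9 E M q h9) := by
  have h1 : IsIntegral (Algebra.adjoin A {bgJ E (M * q * q)})
      (s36cunSq q (s36cun_t9_mem E M h9)) := s36cun_isIntegral_T9sq hq h9
  have h2 : IsIntegral (Algebra.adjoin A {bgJ E (M * q * q)})
      (s36cunBase q (s36cun_t9_mem E M h9)) := s36cun_isIntegral_T9 h9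
  have e : s36cunX9 E M q h9 =
      s36cunSq q (s36cun_t9_mem E M h9) - s36cunBase q (s36cun_t9_mem E M h9) := rfl
  rw [e]
  exact h1.sub h2

/-- `D = t₉² + 9 t₉ + 27` is integral over `A[j]`. -/
theorem s36cun_isIntegral_D9 (h9 : 9 ∣ M) :
    IsIntegral (Algebra.adjoin A {bgJ E (M * q * q)}) (s36cunD9 E M q h9) := by
  have ht := s36cun_isIntegral_T9 (A := A) (E := E) (M := M) (q := q) h9
  have h9' : IsIntegral (Algebra.adjoin A {bgJ E (M * q * q)})
      ((9 : ℕ) : modularFunctionFieldFullC E (M * q * q)) := isIntegral_natCast 9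
  have h27 : IsIntegral (Algebra.adjoin A {bgJ E (M * q * q)})
      ((27 : ℕ) : modularFunctionFieldFullC E (M * q * q)) := isIntegral_natCast 27
  rw [s36cunD9]
  refine ((ht.pow 2).add (IsIntegral.mul ?_ ht)).add ?_
  · simpa using h9'
  · simpa using h27

/-! ### the units -/

include hq in
/-- `W' = α(q¹² u_q)` is integral over `A[j]`. -/
theorem s36cun_isIntegral_W' :
    IsIntegral (Algebra.adjoin A {bgJ E (M * q * q)}) (s36cunW' E ιC M q) := by
  refine nodesSwap_isIntegral_of_evalInt (A := A)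
    (S := modularFunctionFieldFullC E (M * q * q)) (s36tuW_monic q hq) ?_
  apply (modularFunctionFieldFullC E (M * q * q)).val.toRingHom.injective
  rw [map_eval₂_evalInt, map_zero]
  have h := s36tuW_series q hq E
  rw [← s36cunW'_coe E ιC M q] at h
  exact h

include hq in
/-- `W = α(u_q⁻¹)` is integral over `A[j]`. -/
theorem s36cun_isIntegral_W :
    IsIntegral (Algebra.adjoin A {bgJ E (M * q * q)}) (s36cunW E ιC M q) := by
  refine cusp_isIntegral_adjoin_trans (A := A) (F := modularFunctionFieldFullC E (M * q * q))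
    (u := bgJ E (M * q * q)) (T := s36cunJq E M q) (s36cun_isIntegral_Jq hq) ?_
  refine nodesSwap_isIntegral_of_evalInt (A := A)
    (S := modularFunctionFieldFullC E (M * q * q)) (s36tuW_monic q hq) ?_
  apply (modularFunctionFieldFullC E (M * q * q)).val.toRingHom.injective
  rw [map_eval₂_evalInt, map_zero]
  have h := s36tuW_series' q hq E
  rw [← s36cunW_coe E ιC M q] at h
  exact h

end Int

end Fermat.Agent.S36

end
end ZBS36_034_0

/-! ### bundled: `Fermat.Agent.S36.PtsCCongInst` -/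
section ZBS36_034_1

/-!
# S36 / (I6)(b-CONG): the congruence at `C_c`, CONCRETE form (helper57)

`A` a valuation ring of `ℚ̄` over `q`, `E₀ = beta0Field A`, `K = E₀(ζ_q)`,
`V = s36i1V M hq hA hqM hζ ιC h` (helper98, `S36/N2ValI1.lean`), `c₁ = S36Comp.c`,
`F = modularFunctionFieldFullC E₀ (M * q * q)`, `π = (q : A₀)`, elements of `S36/PtsCElts.lean`
(helper80): `X = s36cunX4 E₀ M q h4`, `G = s36cunG4 E₀ M q h4`, `T = s36cunT E₀ ιC M q`, …

* `s36cgc_cong_t4` : `(X ^ (q − 1) / π) ^ 6 − G * T ∈ 𝔪(V c)`             (`4 ∣ M`, so `q` odd)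
* `s36cgc_cong_t9` : `(X ^ (q − 1) / π) ^ 6 − (D ^ 5) ^ (q − 1) * T / (t ^ 3) ^ (q − 1) ∈ 𝔪(V c)`
  (`9 ∣ M`, so `q ≠ 3`), `s36cgc_cong_t9'` (the same with `D` written out), and `s36cgc_cong_t9_two` for `q = 2` : `(X ^ (2 − 1) / π) ^ 6 − D⁵ T / t³`;
* memberships `s36cgc_U4_mem`, `s36cgc_U9_mem`, `s36cgc_T_mem`, `s36cgc_T_unit`, `s36cgc_t4_mem`,
  `s36cgc_t9_mem`, `s36cgc_t9_unit`.

These are `hcong` of `s36pm_atPt` (`S36/PtsMidChart.lean`) with `e = q − 1`, `n = 6`.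
-/

set_option autoImplicit false
set_option linter.unusedSectionVars false
set_option linter.unusedVariables false
set_option linter.style.haveILetI false

noncomputable section

namespace Fermat.Agent.S36

open ModularCurve Fermat.Agent.UNIP Fermat.Agent.INJ Fermat.Agent.AL Fermat.Agent.ES
open Fermat.Agent.S28 Fermat.Agent.S28.Deriv

section Concrete

variable {q : ℕ} {A : ValuationSubring (AlgebraicClosure ℚ)} (M : ℕ) [NeZero M] [NeZero q]
  [IsDiscreteValuationRing ↥(beta0Ring A (beta0Field A))]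
  {ζ : AlgebraicClosure ℚ}
variable (hq : q.Prime) (hA : A.LiesOverPrime q) (hqM : ¬ q ∣ M) (hζ : IsPrimitiveRoot ζ q)
  (ιC : ↥(beta0Field A) →+* ℂ)
  (h : S36MidEmb ↥(s36n2bK A ζ) q M (s36i1ZK (A := A) hq hζ))

/-- an embedding of `K = E₀(ζ)` into `ℂ` -/
theorem s36cgc_exists_emb : Nonempty (↥(s36n2bK A ζ) →+* ℂ) := by
  haveI : Algebra.IsAlgebraic ℚ (AlgebraicClosure ℚ) := AlgebraicClosure.isAlgebraic ℚ
  exact ⟨((IsAlgClosed.lift : AlgebraicClosure ℚ →ₐ[ℚ] ℂ).toRingHom).comp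
    (algebraMap ↥(s36n2bK A ζ) (AlgebraicClosure ℚ))⟩

theorem s36cgc_natCast_ne_zero {n : ℕ} (hn : n ≠ 0) :
    ((n : ℕ) : ↥(beta0Ring A (s36n2bK A ζ))) ≠ 0 := by
  intro h0
  have h1 := congrArg (fun x : ↥(beta0Ring A (s36n2bK A ζ)) =>
    ((x : ↥(s36n2bK A ζ)) : AlgebraicClosure ℚ)) h0
  simp only [s36n2b_natCast_coe] at h1
  exact hn (by exact_mod_cast h1)

theorem s36cgc_level_ne_zero : ((M : ℕ) : ↥(s36n2bK A ζ)) ≠ 0 :=
  Nat.cast_ne_zero.mpr (NeZero.ne M)

include hq hA hζ in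
/-- the residue field of `A_K` has characteristic `q` -/
theorem s36cgc_charP :
    CharP (IsLocalRing.ResidueField ↥(beta0Ring A (s36n2bK A ζ))) q :=
  (CharP.charP_iff_prime_eq_zero hq).mpr
    (s36th_natCast_red (ζ := s36i1Z (A := A) hq hζ) hq
      (by rw [s36i1Z_coe]; exact s36n2bZeta_isPrimitiveRoot hq hζ)
      (IsLocalRing.residue ↥(beta0Ring A (s36n2bK A ζ)))
      (by rw [s36i1Z_coe]; exact s36n2b_residue_zeta hq hA hζ))

include hq hA hζ in
theorem s36cgc_prime_ne_zero {ℓ : ℕ} (hℓ : ℓ.Prime) (hne : q ≠ ℓ) :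
    ((ℓ : ℕ) : IsLocalRing.ResidueField ↥(beta0Ring A (s36n2bK A ζ))) ≠ 0 := by
  haveI := s36cgc_charP (A := A) hq hA hζ
  intro h0
  have h1 := (CharP.cast_eq_zero_iff (IsLocalRing.ResidueField ↥(beta0Ring A (s36n2bK A ζ)))
    q ℓ).mp h0
  exact hne ((Nat.prime_dvd_prime_iff_eq hq hℓ).mp h1)

/-! ### level 4 -/

section Four

variable (h4 : 4 ∣ M)

include hqM in
theorem s36cgc_q_ne_two (h4 : 4 ∣ M) : q ≠ 2 := by
  rintro rfl
  exact hqM ((show 2 ∣ 4 by norm_num).trans h4)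

include hqM in
theorem s36cgc_q_ne_three (h9 : 9 ∣ M) : q ≠ 3 := by
  rintro rfl
  exact hqM ((show 3 ∣ 9 by norm_num).trans h9)

/-- `X ^ (q − 1) / q ∈ V_c` -/
theorem s36cgc_U4_mem :
    s36cunX4 ↥(beta0Field A) M q h4 ^ (q - 1) /
      algebraMap ↥(beta0Ring A (beta0Field A))
        ↥(modularFunctionFieldFullC ↥(beta0Field A) (M * q * q))
        ((q : ℕ) : ↥(beta0Ring A (beta0Field A))) ∈ s36i1V M hq hA hqM hζ ιC h S36Comp.c := by
  obtain ⟨ιK⟩ := s36cgc_exists_emb (A := A) (ζ := ζ)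
  rw [map_natCast]
  exact s36cg_U4_mem (s36n2b_vtBase hq hA hζ)
    (IntermediateField.inclusion (s36n2b_le_K A ζ)).toRingHom ιK hq hqM h (s36i1Z hq hζ) rfl
    (by rw [s36i1Z_coe]; exact s36n2bZeta_isPrimitiveRoot hq hζ)
    (by rw [s36i1Z_coe]; exact s36n2b_residue_zeta hq hA hζ)
    (s36cgc_natCast_ne_zero hq.ne_zero) h4 (s36cgc_level_ne_zero M) _ rfl

/-- `T = α(u_q) ∈ V_c` -/
theorem s36cgc_T_mem :
    s36cunT ↥(beta0Field A) ιC M q ∈ s36i1V M hq hA hqM hζ ιC h S36Comp.c := by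
  obtain ⟨ιK⟩ := s36cgc_exists_emb (A := A) (ζ := ζ)
  exact s36cg_T_mem (s36n2b_vtBase hq hA hζ)
    (IntermediateField.inclusion (s36n2b_le_K A ζ)).toRingHom ιK hq h (s36i1Z hq hζ) rfl
    _ (s36cunT_coe _ ιC M q)

/-- `T = α(u_q)` is a unit of `V_c` -/
theorem s36cgc_T_unit :
    (s36i1V M hq hA hqM hζ ιC h S36Comp.c).valuation (s36cunT ↥(beta0Field A) ιC M q) = 1 := by
  obtain ⟨ιK⟩ := s36cgc_exists_emb (A := A) (ζ := ζ)
  exact s36cg_T_unit (s36n2b_vtBase hq hA hζ)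
    (IntermediateField.inclusion (s36n2b_le_K A ζ)).toRingHom ιK hq h (s36i1Z hq hζ) rfl
    _ (s36cunT_coe _ ιC M q)

/-- `t₄ ∈ V_c` -/
theorem s36cgc_t4_mem :
    s36cunT4 ↥(beta0Field A) M q h4 ∈ s36i1V M hq hA hqM hζ ιC h S36Comp.c :=
  s36cg_t4_mem (s36n2b_vtBase hq hA hζ)
    (IntermediateField.inclusion (s36n2b_le_K A ζ)).toRingHom hq h (s36i1Z hq hζ) rfl
    h4 (s36cgc_level_ne_zero M) _ rfl

/-- **(b-CONG), `q` odd** (`4 ∣ M`): `(X ^ (q − 1) / π) ^ 6 − G · T ∈ 𝔪(V_c)`. -/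
theorem s36cgc_cong_t4 :
    (s36cunX4 ↥(beta0Field A) M q h4 ^ (q - 1) /
      algebraMap ↥(beta0Ring A (beta0Field A))
        ↥(modularFunctionFieldFullC ↥(beta0Field A) (M * q * q))
        ((q : ℕ) : ↥(beta0Ring A (beta0Field A)))) ^ 6 -
      s36cunG4 ↥(beta0Field A) M q h4 * s36cunT ↥(beta0Field A) ιC M q ∈
        (s36i1V M hq hA hqM hζ ιC h S36Comp.c).nonunits := by
  obtain ⟨ιK⟩ := s36cgc_exists_emb (A := A) (ζ := ζ)
  rw [map_natCast]
  have h2 : (2 : IsLocalRing.ResidueField ↥(beta0Ring A (s36n2bK A ζ))) ≠ 0 := by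
    have := s36cgc_prime_ne_zero (A := A) hq hA hζ Nat.prime_two (s36cgc_q_ne_two M hqM h4)
    exact_mod_cast this
  exact s36cg_cong_t4 (s36n2b_vtBase hq hA hζ)
    (IntermediateField.inclusion (s36n2b_le_K A ζ)).toRingHom ιK hq hqM h (s36i1Z hq hζ) rfl
    (by rw [s36i1Z_coe]; exact s36n2bZeta_isPrimitiveRoot hq hζ)
    (by rw [s36i1Z_coe]; exact s36n2b_residue_zeta hq hA hζ)
    (s36cgc_natCast_ne_zero hq.ne_zero) h4 (s36cgc_level_ne_zero M)
    (s36cunX4 ↥(beta0Field A) M q h4) (s36cunT4 ↥(beta0Field A) M q h4)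
    (s36cunT ↥(beta0Field A) ιC M q) h2 rfl rfl (s36cunT_coe _ ιC M q)

end Four

/-! ### level 9 -/

section Nine

variable (h9 : 9 ∣ M)

/-- `X ^ (q − 1) / q ∈ V_c` -/
theorem s36cgc_U9_mem :
    s36cunX9 ↥(beta0Field A) M q h9 ^ (q - 1) /
      algebraMap ↥(beta0Ring A (beta0Field A))
        ↥(modularFunctionFieldFullC ↥(beta0Field A) (M * q * q))
        ((q : ℕ) : ↥(beta0Ring A (beta0Field A))) ∈ s36i1V M hq hA hqM hζ ιC h S36Comp.c := by
  obtain ⟨ιK⟩ := s36cgc_exists_emb (A := A) (ζ := ζ)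
  rw [map_natCast]
  exact s36cg_U9_mem (s36n2b_vtBase hq hA hζ)
    (IntermediateField.inclusion (s36n2b_le_K A ζ)).toRingHom ιK hq hqM h (s36i1Z hq hζ) rfl
    (by rw [s36i1Z_coe]; exact s36n2bZeta_isPrimitiveRoot hq hζ)
    (by rw [s36i1Z_coe]; exact s36n2b_residue_zeta hq hA hζ)
    (s36cgc_natCast_ne_zero hq.ne_zero) h9 (s36cgc_level_ne_zero M) _ rfl

/-- `t₉ ∈ V_c` -/
theorem s36cgc_t9_mem :
    s36cunT9 ↥(beta0Field A) M q h9 ∈ s36i1V M hq hA hqM hζ ιC h S36Comp.c :=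
  s36cg_t9_mem (s36n2b_vtBase hq hA hζ)
    (IntermediateField.inclusion (s36n2b_le_K A ζ)).toRingHom hq h (s36i1Z hq hζ) rfl
    h9 (s36cgc_level_ne_zero M) _ rfl

include hq hA hqM hζ h9 in
theorem s36cgc_three_ne_zero :
    (3 : IsLocalRing.ResidueField ↥(beta0Ring A (s36n2bK A ζ))) ≠ 0 := by
  have := s36cgc_prime_ne_zero (A := A) hq hA hζ Nat.prime_three (s36cgc_q_ne_three M hqM h9)
  exact_mod_cast this

/-- `t₉` is a unit of `V_c` -/
theorem s36cgc_t9_unit :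
    (s36i1V M hq hA hqM hζ ιC h S36Comp.c).valuation (s36cunT9 ↥(beta0Field A) M q h9) = 1 :=
  s36cg_t9_unit (s36n2b_vtBase hq hA hζ)
    (IntermediateField.inclusion (s36n2b_le_K A ζ)).toRingHom hq h (s36i1Z hq hζ) rfl
    h9 (s36cgc_level_ne_zero M) _ (s36cgc_three_ne_zero M hq hA hqM hζ h9) rfl

/-- **(b-CONG), level `9`** (`9 ∣ M`):
`(X ^ (q − 1) / π) ^ 6 − (D ^ 5) ^ (q − 1) · T / (t ^ 3) ^ (q − 1) ∈ 𝔪(V_c)`. -/
theorem s36cgc_cong_t9 :
    (s36cunX9 ↥(beta0Field A) M q h9 ^ (q - 1) /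
      algebraMap ↥(beta0Ring A (beta0Field A))
        ↥(modularFunctionFieldFullC ↥(beta0Field A) (M * q * q))
        ((q : ℕ) : ↥(beta0Ring A (beta0Field A)))) ^ 6 -
      (s36cunD9 ↥(beta0Field A) M q h9 ^ 5) ^ (q - 1) * s36cunT ↥(beta0Field A) ιC M q /
        (s36cunT9 ↥(beta0Field A) M q h9 ^ 3) ^ (q - 1) ∈
        (s36i1V M hq hA hqM hζ ιC h S36Comp.c).nonunits := by
  obtain ⟨ιK⟩ := s36cgc_exists_emb (A := A) (ζ := ζ)
  rw [map_natCast]
  exact s36cg_cong_t9' (s36n2b_vtBase hq hA hζ)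
    (IntermediateField.inclusion (s36n2b_le_K A ζ)).toRingHom ιK hq hqM h (s36i1Z hq hζ) rfl
    (by rw [s36i1Z_coe]; exact s36n2bZeta_isPrimitiveRoot hq hζ)
    (by rw [s36i1Z_coe]; exact s36n2b_residue_zeta hq hA hζ)
    (s36cgc_natCast_ne_zero hq.ne_zero) h9 (s36cgc_level_ne_zero M)
    (s36cunX9 ↥(beta0Field A) M q h9) (s36cunT9 ↥(beta0Field A) M q h9)
    (s36cunT ↥(beta0Field A) ιC M q) (s36cgc_three_ne_zero M hq hA hqM hζ h9) rfl rfl
    (s36cunT_coe _ ιC M q)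

/-- **(b-CONG), level `9`**, with `D = t² + 9 t + 27` written out
(the shape of `hcong` in `s36pm_hPc_nine`, `S36/PtsMidInst.lean`). -/
theorem s36cgc_cong_t9' :
    (s36cunX9 ↥(beta0Field A) M q h9 ^ (q - 1) /
      algebraMap ↥(beta0Ring A (beta0Field A))
        ↥(modularFunctionFieldFullC ↥(beta0Field A) (M * q * q))
        ((q : ℕ) : ↥(beta0Ring A (beta0Field A)))) ^ 6 -
      ((s36cunT9 ↥(beta0Field A) M q h9 ^ 2 + 9 * s36cunT9 ↥(beta0Field A) M q h9 + 27) ^ 5) ^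
          (q - 1) * s36cunT ↥(beta0Field A) ιC M q /
        (s36cunT9 ↥(beta0Field A) M q h9 ^ 3) ^ (q - 1) ∈
        (s36i1V M hq hA hqM hζ ιC h S36Comp.c).nonunits :=
  s36cgc_cong_t9 M hq hA hqM hζ ιC h h9

/-- **(b-CONG), `q = 2`** (`9 ∣ M`): `(X ^ (q − 1) / π) ^ 6 − D⁵ · T / t³ ∈ 𝔪(V_c)`. -/
theorem s36cgc_cong_t9_two (hq2 : q = 2) :
    (s36cunX9 ↥(beta0Field A) M q h9 ^ (q - 1) /
      algebraMap ↥(beta0Ring A (beta0Field A))
        ↥(modularFunctionFieldFullC ↥(beta0Field A) (M * q * q))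
        ((q : ℕ) : ↥(beta0Ring A (beta0Field A)))) ^ 6 -
      s36cunD9 ↥(beta0Field A) M q h9 ^ 5 * s36cunT ↥(beta0Field A) ιC M q /
        s36cunT9 ↥(beta0Field A) M q h9 ^ 3 ∈
        (s36i1V M hq hA hqM hζ ιC h S36Comp.c).nonunits := by
  have h1 := s36cgc_cong_t9 M hq hA hqM hζ ιC h h9
  have e : q - 1 = 1 := by omega
  rw [e] at h1 ⊢
  simpa only [pow_one] using h1

end Nine

end Concrete

end Fermat.Agent.S36

end


end ZBS36_034_1

/-! ### bundled: `Fermat.Agent.S36.PtsCuspW` -/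
section ZBS36_034_2

/-!
# S36 / (I6)(d-W): the `W`-data of `s36cu_hpts` at `w = w_{q²}` (helper29)

Concrete setting of `S36/SmallOf.lean`: `E₀ = beta0Field A`, `A₀ = beta0Ring A E₀`,
`F = F_{Mqq}(E₀)`, `t = bgJ E₀ (M q q) = j`, `V = s36i1V M hq hA hqM hζ ιC h`,
`w = (s36n2W E₀ ιC hq hqM).toRingEquiv : F ≃+* F` (the Atkin–Lehner involution `w_{q²}`).

* `s36cuw_hwA`  : `w` fixes `A₀`;
* `s36cuw_w_J`, `s36cuw_w_Jqq`, `s36cuw_symm` : `w j = j_{qq}`, `w j_{qq} = j`, `w.symm = w`;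
* `s36cuw_hw₁`, `s36cuw_hw₂` : `j` is integral over `A₀[w j]` and over `A₀[w.symm j]`;
* `s36cuw_hwab`, `s36cuw_hwba`, `s36cuw_hwcc` : `w` exchanges `V_a` and `V_b` and fixes `V_c`;
* `s36cuw_hHor` : `s36Hor E₀ m` is stable under `w` (any `E₀`-algebra automorphism:
  `s36cuw_hor_algEquiv`).
These are the hypotheses `hwA hw₁ hw₂ hwab hwba hwcc hHor` of `s36cu_hpts` (`S36/PtsCusp.lean`).
-/

set_option autoImplicit false
set_option linter.unusedSectionVars false
set_option linter.unusedVariables false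
set_option linter.style.haveILetI false

noncomputable section

namespace Fermat.Agent.S36

open ModularCurve AlgebraicCurve Fermat.Agent.INJ Fermat.Agent.UNIP Fermat.Agent.AL
  Fermat.Agent.ES Fermat.Agent.STB

/-! ### A. `Hor` is stable under automorphisms -/

section Hor

variable {K : Type*} [Field K] {F : Type*} [Field F] [Algebra K F]

/-- divisibility of all orders is stable under `K`-automorphisms of `F` -/
theorem s36cuw_hor_algEquiv (σ : F ≃ₐ[K] F) {m : ℕ} {y : F} (hy : s36Hor K m y) :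
    s36Hor K m (σ y) := by
  intro P
  have h1 := Place.ord_smul σ (σ⁻¹ • P) y
  rw [smul_inv_smul] at h1
  rw [h1]
  exact hy _

end Hor

/-! ### B. Generic facts on `w_{q²}` -/

section Gen

variable (E : Type*) [Field E] [CharZero E] (ιC : E →+* ℂ)
  {M q : ℕ} [NeZero q] [NeZero M] [NeZero (M * q)] [NeZero (M * q * q)]
  (hq : q.Prime) (hqM : ¬ q ∣ M)

/-- `w j = j(Q^{q²})` -/
theorem s36cuw_w_J :
    s36n2W E ιC hq hqM (bgJ E (M * q * q)) = s36cunJqq E M q := by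
  apply Subtype.ext
  exact s36n2W_base E ιC hq hqM (jqModC_mem_full E M)

/-- `w j(Q^{q²}) = j` -/
theorem s36cuw_w_Jqq :
    s36n2W E ιC hq hqM (s36cunJqq E M q) = bgJ E (M * q * q) := by
  apply Subtype.ext
  exact s36n2W_qExpand_sq E ιC hq hqM (jqModC_mem_full E M)

variable {A₀ : Type*} [CommRing A₀] [Algebra A₀ E]
  [Algebra A₀ (modularFunctionFieldFullC E (M * q * q))]
  [IsScalarTower A₀ E (modularFunctionFieldFullC E (M * q * q))]

/-- `w` fixes the constants of `A₀` -/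
theorem s36cuw_hwA_gen (a : A₀) :
    (s36n2W E ιC hq hqM).toRingEquiv
        (algebraMap A₀ (modularFunctionFieldFullC E (M * q * q)) a) =
      algebraMap A₀ (modularFunctionFieldFullC E (M * q * q)) a := by
  rw [IsScalarTower.algebraMap_apply A₀ E (modularFunctionFieldFullC E (M * q * q))]
  exact (s36n2W E ιC hq hqM).commutes _

/-- `j` is integral over `A₀[w j]` -/
theorem s36cuw_hw₁_gen :
    IsIntegral ↥(Algebra.adjoin A₀
        {(s36n2W E ιC hq hqM).toRingEquiv (bgJ E (M * q * q))})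
      (bgJ E (M * q * q)) := by
  have h1 := cusp_isIntegral_adjoin_map (A := A₀)
    ((s36n2W E ιC hq hqM).toRingEquiv.toRingHom)
    (fun c => s36cuw_hwA_gen E ιC hq hqM c)
    (s36cun_isIntegral_Jqq (A := A₀) (E := E) (M := M) hq)
  have e1 : (s36n2W E ιC hq hqM).toRingEquiv.toRingHom (s36cunJqq E M q) =
      bgJ E (M * q * q) := s36cuw_w_Jqq E ιC hq hqM
  rw [e1] at h1
  exact h1

/-- `w.symm = w` on elements -/
theorem s36cuw_symm (x : modularFunctionFieldFullC E (M * q * q)) :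
    (s36n2W E ιC hq hqM).toRingEquiv.symm x = (s36n2W E ιC hq hqM).toRingEquiv x := by
  apply (s36n2W E ιC hq hqM).toRingEquiv.injective
  rw [RingEquiv.apply_symm_apply]
  exact (s36n2W_invol E ιC hq hqM x).symm

/-- `j` is integral over `A₀[w.symm j]` -/
theorem s36cuw_hw₂_gen :
    IsIntegral ↥(Algebra.adjoin A₀
        {(s36n2W E ιC hq hqM).toRingEquiv.symm (bgJ E (M * q * q))})
      (bgJ E (M * q * q)) := by
  rw [s36cuw_symm]
  exact s36cuw_hw₁_gen E ιC hq hqM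

end Gen

/-! ### C. The concrete `W`-data -/

section Concrete

variable {q : ℕ} {A : ValuationSubring (AlgebraicClosure ℚ)} (M : ℕ) [NeZero M] [NeZero q]
  [IsDiscreteValuationRing ↥(beta0Ring A (beta0Field A))]
  {ζ : AlgebraicClosure ℚ}
  (hq : q.Prime) (hA : A.LiesOverPrime q) (hqM : ¬ q ∣ M) (hζ : IsPrimitiveRoot ζ q)
  (ιC : ↥(beta0Field A) →+* ℂ)
  (h : S36MidEmb ↥(s36n2bK A ζ) q M (s36i1ZK (A := A) hq hζ))

/-- **`hwA`** -/
theorem s36cuw_hwA (a : ↥(beta0Ring A (beta0Field A))) :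
    (s36n2W ↥(beta0Field A) ιC hq hqM).toRingEquiv
        (algebraMap ↥(beta0Ring A (beta0Field A))
          ↥(modularFunctionFieldFullC ↥(beta0Field A) (M * q * q)) a) =
      algebraMap ↥(beta0Ring A (beta0Field A))
        ↥(modularFunctionFieldFullC ↥(beta0Field A) (M * q * q)) a :=
  s36cuw_hwA_gen ↥(beta0Field A) ιC hq hqM a

/-- **`hw₁`** -/
theorem s36cuw_hw₁ :
    IsIntegral ↥(Algebra.adjoin ↥(beta0Ring A (beta0Field A))
        {(s36n2W ↥(beta0Field A) ιC hq hqM).toRingEquiv (bgJ ↥(beta0Field A) (M * q * q))})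
      (bgJ ↥(beta0Field A) (M * q * q)) :=
  s36cuw_hw₁_gen ↥(beta0Field A) ιC hq hqM

/-- **`hw₂`** -/
theorem s36cuw_hw₂ :
    IsIntegral ↥(Algebra.adjoin ↥(beta0Ring A (beta0Field A))
        {(s36n2W ↥(beta0Field A) ιC hq hqM).toRingEquiv.symm
          (bgJ ↥(beta0Field A) (M * q * q))})
      (bgJ ↥(beta0Field A) (M * q * q)) :=
  s36cuw_hw₂_gen ↥(beta0Field A) ιC hq hqM

/-- **`hwab`**: `x ∈ V_b ↔ w x ∈ V_a` -/
theorem s36cuw_hwab (x : ↥(modularFunctionFieldFullC ↥(beta0Field A) (M * q * q))) :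
    x ∈ s36i1V M hq hA hqM hζ ιC h S36Comp.b ↔
      (s36n2W ↥(beta0Field A) ιC hq hqM).toRingEquiv x ∈
        s36i1V M hq hA hqM hζ ιC h S36Comp.a :=
  Iff.rfl

/-- **`hwba`**: `x ∈ V_a ↔ w x ∈ V_b` -/
theorem s36cuw_hwba (x : ↥(modularFunctionFieldFullC ↥(beta0Field A) (M * q * q))) :
    x ∈ s36i1V M hq hA hqM hζ ιC h S36Comp.a ↔
      (s36n2W ↥(beta0Field A) ιC hq hqM).toRingEquiv x ∈
        s36i1V M hq hA hqM hζ ιC h S36Comp.b := by
  have h1 := s36cuw_hwab M hq hA hqM hζ ιC h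
    ((s36n2W ↥(beta0Field A) ιC hq hqM).toRingEquiv x)
  have e1 : (s36n2W ↥(beta0Field A) ιC hq hqM).toRingEquiv
      ((s36n2W ↥(beta0Field A) ιC hq hqM).toRingEquiv x) = x :=
    s36n2W_invol ↥(beta0Field A) ιC hq hqM x
  rw [e1] at h1
  exact h1.symm

/-- **`hwcc`**: `x ∈ V_c ↔ w x ∈ V_c` -/
theorem s36cuw_hwcc (ιK : ↥(s36n2bK A ζ) →+* ℂ)
    (x : ↥(modularFunctionFieldFullC ↥(beta0Field A) (M * q * q))) :
    x ∈ s36i1V M hq hA hqM hζ ιC h S36Comp.c ↔
      (s36n2W ↥(beta0Field A) ιC hq hqM).toRingEquiv x ∈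
        s36i1V M hq hA hqM hζ ιC h S36Comp.c :=
  s36cwc_hwcc_conc' M hq hA hqM hζ ιC h ιK x

/-- **`hHor`** -/
theorem s36cuw_hHor (m : ℕ) (y : ↥(modularFunctionFieldFullC ↥(beta0Field A) (M * q * q)))
    (hy : s36Hor ↥(beta0Field A) m y) :
    s36Hor ↥(beta0Field A) m ((s36n2W ↥(beta0Field A) ιC hq hqM).toRingEquiv y) :=
  s36cuw_hor_algEquiv (s36n2W ↥(beta0Field A) ιC hq hqM) hy

end Concrete

end Fermat.Agent.S36

end


end ZBS36_034_2
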