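/- GENERATED FILE (helper35, build-time optimisation, NOTES/ZB.md): verbatim concatenation of the modules
   Fermat.Agent.S36.PtsCAbs
   Fermat.Agent.S36.PtsCUnit
   Fermat.Agent.S36.CuspMidAbs
   Do not edit; do not import together with these modules. -/
import Fermat.Agent.ZB.S36_005
import Fermat.Agent.ZB.S36_034
import Fermat.Agent.ZB.S36_026
import Fermat.Agent.ZB.S33_007

/-! ### bundled: `Fermat.Agent.S36.PtsCAbs` -/
section ZBS36_035_0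

/-!
# S36 / (I6)(b): the uniformizer at a point of `C_c` only, ABSTRACT (helper31)

Chart `B ⊆ F`, prime `𝔫`, `O = B_𝔫 = ls_localSubring 𝔫`, vertical valuations `V : κ → …`, globals
(KR), (RAM) as in `S36/N2PtsReg.lean`; `c₁` the ONLY component through `𝔫`.

* `s36cc_KRloc_pow` : `ϖ ^ n · x ∈ O`, `x ∈ V c₁` ⇒ `x ∈ O`.
* `s36cc_not_isUnit_of_mem_nonunits` : `x ∈ O ∩ 𝔪(V c₁)` is not a unit of `O`.
* `s36cc_exists_XY` : **the uniformizer**.  `X ∈ B`, `U := X ^ e / ϖ ∈ V c₁`; `W W' = ϖ ^ n` in `B`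
  with `W' / ϖ ^ n ∈ V c₁`; `G ∉ 𝔫`, `S ∈ B`, and the congruence `U ^ k · W · S ≡ G` mod `𝔪(V c₁)`
  ⇒ `∃ X' Y ∈ O`, `X' = X`, `X' · Y = ϖ`.
  (Modular use: `X = t(Q^{q²}) − t`, `e = q − 1`, `W = α(Δ/Δ_q)`, `W' = α(q¹²Δ_q/Δ)`, `n = 12`,
  `k = 6`, `G = g(t)^(q−1)`: `S36/PtsCTheta.lean`, `NOTES/S36-PtsC.md`.)
-/

set_option autoImplicit false
set_option linter.unusedSectionVars false
set_option linter.unusedVariables false
set_option linter.style.haveILetI false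

namespace Fermat.Agent.S36

open Fermat.Agent.UNIP Fermat.Agent.STB

section Abs

variable {F : Type*} [Field F] {B : Type*} [CommRing B] [Algebra B F]
variable (hinj : Function.Injective (algebraMap B F)) (𝔫 : Ideal B) [h𝔫 : 𝔫.IsPrime]
variable {κ : Type*} [Finite κ]

/-- iterated local (KR) -/
theorem s36cc_KRloc_pow (V : κ → ValuationSubring F) (hBV : ∀ c (b : B), algebraMap B F b ∈ V c)
    (ϖ : B)
    (hKR : ∀ x : F, (∃ b : B, algebraMap B F ϖ * x = algebraMap B F b) → (∀ c, x ∈ V c) →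
      ∃ b : B, x = algebraMap B F b)
    (Q : ℕ) (hram : ∀ c (x : F), x ∈ (V c).nonunits → ∃ z ∈ V c, x ^ Q = algebraMap B F ϖ * z)
    (n : ℕ) (x : F) (hx : algebraMap B F ϖ ^ n * x ∈ ls_localSubring (F := F) 𝔫)
    (hxV : ∀ c, (∀ b : B, algebraMap B F b ∈ (V c).nonunits → b ∈ 𝔫) → x ∈ V c) :
    x ∈ ls_localSubring (F := F) 𝔫 := by
  induction n with
  | zero => simpa using hx
  | succ n ih =>
    apply ih
    apply s36n2p_KRloc 𝔫 V hBV ϖ hKR Q hram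
    · rw [← mul_assoc, ← pow_succ']
      exact hx
    · intro c hc
      exact (V c).mul_mem _ _ ((V c).pow_mem (hBV c ϖ) n) (hxV c hc)

include hinj in
/-- an element of `O ∩ 𝔪(V)` is not a unit of `O` (`V` through `𝔫`) -/
theorem s36cc_not_isUnit_of_mem_nonunits (V : ValuationSubring F)
    (hBV : ∀ b : B, algebraMap B F b ∈ V)
    (hthr : ∀ b : B, algebraMap B F b ∈ V.nonunits → b ∈ 𝔫)
    (x : ls_localSubring (F := F) 𝔫) (hx : (x : F) ∈ V.nonunits) : ¬ IsUnit x := by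
  rintro ⟨u, rfl⟩
  have h1 : ((u⁻¹ : (ls_localSubring (F := F) 𝔫)ˣ) : ls_localSubring (F := F) 𝔫).1 ∈ V :=
    stb_gc_le 𝔫 V hBV hthr _ (Subtype.property _)
  have h2 : ((u : ls_localSubring (F := F) 𝔫) : F) *
      (((u⁻¹ : (ls_localSubring (F := F) 𝔫)ˣ) : ls_localSubring (F := F) 𝔫) : F) = 1 := by
    have := congrArg Subtype.val (Units.mul_inv u)
    exact this
  have h3 : V.valuation ((u : ls_localSubring (F := F) 𝔫) : F) < 1 :=
    V.mem_nonunits_iff.mp hx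
  have h4 : V.valuation
      ((((u⁻¹ : (ls_localSubring (F := F) 𝔫)ˣ) : ls_localSubring (F := F) 𝔫) : F)) ≤ 1 :=
    (V.valuation_le_one_iff _).mpr h1
  have h5 := congrArg V.valuation h2
  rw [map_mul, map_one] at h5
  have h6 := mul_lt_mul_of_lt_of_le_of_nonneg_of_pos h3 h4 zero_le one_pos
  rw [h5, one_mul] at h6
  exact lt_irrefl _ h6

include hinj in
/-- **the uniformizer at a point with one component** -/
theorem s36cc_exists_XY (V : κ → ValuationSubring F)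
    (hBV : ∀ c (b : B), algebraMap B F b ∈ V c) (ϖ : B)
    (hKR : ∀ x : F, (∃ b : B, algebraMap B F ϖ * x = algebraMap B F b) → (∀ c, x ∈ V c) →
      ∃ b : B, x = algebraMap B F b)
    (Q : ℕ) (hram : ∀ c (x : F), x ∈ (V c).nonunits → ∃ z ∈ V c, x ^ Q = algebraMap B F ϖ * z)
    (hϖ0 : algebraMap B F ϖ ≠ 0)
    (c₁ : κ) (hc₁ : ∀ b : B, algebraMap B F b ∈ (V c₁).nonunits → b ∈ 𝔫)
    (honly : ∀ c, (∀ b : B, algebraMap B F b ∈ (V c).nonunits → b ∈ 𝔫) → c = c₁)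
    (X : B) (e : ℕ) (he : 1 ≤ e) (U : F)
    (hU : algebraMap B F ϖ * U = algebraMap B F X ^ e) (hUV : U ∈ V c₁)
    (W W' : B) (n : ℕ) (hWW' : W * W' = ϖ ^ n) (T : F)
    (hT : algebraMap B F ϖ ^ n * T = algebraMap B F W') (hTV : T ∈ V c₁)
    (k : ℕ) (hk : k ≠ 0) (G S : B) (hG : G ∉ 𝔫)
    (hcong : U ^ k * algebraMap B F W * algebraMap B F S - algebraMap B F G ∈ (V c₁).nonunits) :
    ∃ X' Y : ls_localSubring (F := F) 𝔫, (X' : F) = algebraMap B F X ∧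
      X' * Y = s36n2pToLoc (F := F) 𝔫 ϖ := by
  haveI := ls_localSubring_isLocalRing (F := F) hinj 𝔫
  have h1 : (1 : B) ∉ 𝔫 := fun h => h𝔫.ne_top ((Ideal.eq_top_iff_one 𝔫).mpr h)
  have hV : ∀ x : F, x ∈ V c₁ →
      ∀ c, (∀ b : B, algebraMap B F b ∈ (V c).nonunits → b ∈ 𝔫) → x ∈ V c := by
    intro x hx c hc
    rw [honly c hc]
    exact hx
  -- `U ∈ O`
  have hUO : U ∈ ls_localSubring (F := F) 𝔫 := by
    apply s36n2p_KRloc 𝔫 V hBV ϖ hKR Q hram U _ (hV U hUV)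
    rw [hU, ← map_pow]
    exact ls_algebraMap_mem 𝔫 _
  -- `T ∈ O`, `W T = 1`
  have hTO : T ∈ ls_localSubring (F := F) 𝔫 := by
    apply s36cc_KRloc_pow 𝔫 V hBV ϖ hKR Q hram n T _ (hV T hTV)
    rw [hT]
    exact ls_algebraMap_mem 𝔫 _
  have hWT : algebraMap B F W * T = 1 := by
    have h2 : algebraMap B F ϖ ^ n * (algebraMap B F W * T) = algebraMap B F ϖ ^ n * 1 := by
      rw [mul_one, mul_left_comm, hT, ← map_mul, hWW', map_pow]
    exact mul_left_cancel₀ (pow_ne_zero n hϖ0) h2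
  set u : ls_localSubring (F := F) 𝔫 := ⟨U, hUO⟩ with hu
  set t : ls_localSubring (F := F) 𝔫 := ⟨T, hTO⟩ with ht
  set w : ls_localSubring (F := F) 𝔫 := s36n2pToLoc (F := F) 𝔫 W with hw
  set s : ls_localSubring (F := F) 𝔫 := s36n2pToLoc (F := F) 𝔫 S with hs
  set g : ls_localSubring (F := F) 𝔫 := s36n2pToLoc (F := F) 𝔫 G with hg
  have hgu : IsUnit g :=
    ls_isUnit_of_not_mem hinj 𝔫 g (b := G) (s := 1) hG h1 (by rw [map_one, one_mul]; rfl)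
  have hz : ¬ IsUnit (u ^ k * w * s - g) := by
    apply s36cc_not_isUnit_of_mem_nonunits hinj 𝔫 (V c₁) (hBV c₁) hc₁
    exact hcong
  have hZ : IsUnit (u ^ k * w * s) := by
    by_contra hnu
    have h3 : u ^ k * w * s ∈ nonunits (ls_localSubring (F := F) 𝔫) := hnu
    have h4 : -(u ^ k * w * s - g) ∈ nonunits (ls_localSubring (F := F) 𝔫) := by
      rw [mem_nonunits_iff, IsUnit.neg_iff]
      exact hz
    have h5 := IsLocalRing.nonunits_add h3 h4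
    have e5 : u ^ k * w * s + -(u ^ k * w * s - g) = g := by ring
    rw [e5] at h5
    exact h5 hgu
  have huu : IsUnit u := by
    have h6 : IsUnit (u ^ k) := isUnit_of_mul_isUnit_left (isUnit_of_mul_isUnit_left hZ)
    exact (isUnit_pow_iff hk).mp h6
  obtain ⟨v, hv⟩ := huu
  refine ⟨s36n2pToLoc (F := F) 𝔫 X, s36n2pToLoc (F := F) 𝔫 X ^ (e - 1) * (v⁻¹ : _ˣ), rfl, ?_⟩
  have h7 : s36n2pToLoc (F := F) 𝔫 X ^ e = s36n2pToLoc (F := F) 𝔫 ϖ * u := by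
    apply Subtype.ext
    show (algebraMap B F X) ^ e = algebraMap B F ϖ * U
    rw [hU]
  have h8 : s36n2pToLoc (F := F) 𝔫 X * s36n2pToLoc (F := F) 𝔫 X ^ (e - 1) =
      s36n2pToLoc (F := F) 𝔫 X ^ e := by
    rw [← pow_succ', Nat.sub_add_cancel he]
  rw [← mul_assoc, h8, h7, ← hv, mul_assoc, Units.mul_inv, mul_one]

end Abs

section Val

variable {F : Type*} [Field F]

/-- `hX1`: `X ^ e = ϖ U`, `ϖ ∈ 𝔪(V)`, `U ∈ V` ⇒ `X ∈ 𝔪(V)`. -/
theorem s36cc_hX1 (V : ValuationSubring F) {ϖ X U : F} {e : ℕ}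
    (hU : ϖ * U = X ^ e) (hUV : U ∈ V) (hϖ : ϖ ∈ V.nonunits) : X ∈ V.nonunits := by
  rw [V.mem_nonunits_iff] at hϖ ⊢
  by_contra h
  rw [not_lt] at h
  have h1 : (1 : ValuationSubring.ValueGroup V) ≤ V.valuation X ^ e := one_le_pow₀ h
  rw [← map_pow, ← hU, map_mul] at h1
  have h2 : V.valuation U ≤ 1 := (V.valuation_le_one_iff _).mpr hUV
  have h3 := mul_lt_mul_of_lt_of_le_of_nonneg_of_pos hϖ h2 zero_le one_pos
  rw [one_mul] at h3
  exact lt_irrefl _ (lt_of_le_of_lt h1 h3)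

/-- `hU`: `X ^ e = ϖ U` with `U` a unit of `V`, and `x ∈ 𝔪(V) ⇒ x ^ e ∈ ϖ V`
⇒ `𝔪(V) = X V`. -/
theorem s36cc_hU (V : ValuationSubring F) {ϖ X U : F} {e : ℕ} (he : e ≠ 0)
    (hU : ϖ * U = X ^ e) (hUV : V.valuation U = 1) (hX0 : X ≠ 0)
    (hram : ∀ x : F, x ∈ V.nonunits → ∃ z ∈ V, x ^ e = ϖ * z)
    (x : F) (hx : x ∈ V.nonunits) : ∃ z ∈ V, x = X * z := by
  refine ⟨x / X, ?_, by field_simp⟩
  obtain ⟨z, hz, hxz⟩ := hram x hx
  rw [← V.valuation_le_one_iff]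
  have h1 : V.valuation (x / X) ^ e = V.valuation z := by
    have hϖ0 : ϖ ≠ 0 := by
      rintro rfl
      rw [zero_mul] at hU
      exact pow_ne_zero e hX0 hU.symm
    rw [← map_pow, div_pow, hxz, ← hU, map_div₀, map_mul, map_mul, hUV, mul_one,
      mul_div_assoc, mul_comm, div_mul_cancel₀]
    exact (map_ne_zero _).mpr hϖ0
  have h2 : V.valuation z ≤ 1 := (V.valuation_le_one_iff _).mpr hz
  rw [← h1] at h2
  exact (pow_le_one_iff_of_nonneg zero_le he).mp h2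

end Val

end Fermat.Agent.S36


end ZBS36_035_0

/-! ### bundled: `Fermat.Agent.S36.PtsCUnit` -/
section ZBS36_035_1

/-!
# S36 / (I6)(b-UNIT): the unit `g` and `X ∈ O` at the points of `C_c` only (helper80)

Consumer: `s36pm_atPt` / `s36pm_atPt_inl` (`S36/PtsMidChart.lean`, helper93), which needs
`X g : F`, `hX : X ∈ atLoc 𝔫`, `hg : g ∈ atLoc 𝔫`, `hg' : g⁻¹ ∈ atLoc 𝔫`, `hg0 : g ≠ 0`.

## Chart part (any chart `B_u = zchClosure {u}` of a field `F`, `𝔫 : AtPt π u`, `O = atLoc 𝔫`)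
* `s36cun_mem_atLoc` : `B_u ⊆ O`;
* `s36cun_inv_mem_atLoc` : `x ∈ B_u`, `x ∉ 𝔫` ⇒ `x⁻¹ ∈ O`;
* `s36cun_mem_atLoc_of_pow_mul` : local (KR), iterated: `π ^ n x ∈ B_u`, `x ∈ V c` for the
  components through `𝔫` ⇒ `x ∈ O`;
* `s36cun_cong_div` : `a s − b ∈ 𝔪(V)`, `s⁻¹ ∈ V` ⇒ `a − b / s ∈ 𝔪(V)`.

## Modular part (`F = F_{Mq²}(E)`, `u = j = bgJ E (M q q)`, `π = q`)
* `s36cun_two_notMem`, `s36cun_three_notMem` : `2 ∉ 𝔫` (`q ≠ 2`), `3 ∉ 𝔫` (`q ≠ 3`);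
* (U2) `s36cun_T4_notMem`, `s36cun_T4_add_notMem`, `s36cun_G4_notMem` (`2 ∉ 𝔫`),
  `s36cun_T9_notMem`, `s36cun_D9_notMem` (`3 ∉ 𝔫`);
* (U3) `s36cun_T_mem`, `s36cun_T_inv_mem` : `T = α(u_q)` is a unit of `O`;
* **`s36cun_main_odd`** (`4 ∣ M`, `q ≠ 2`) : `X = Π_{t₄} ∈ O`, `g = G · T ∈ O`, `g⁻¹ ∈ O`, `g ≠ 0`;
* **`s36cun_main_two`** (`9 ∣ M`, `q ≠ 3`) : `X = Π_{t₉} ∈ O`, `g = D⁵ · T / t₉³ ∈ O`, `g⁻¹ ∈ O`,
  `g ≠ 0`;  **`s36cun_main_nine`** : the same for `g = (D⁵)^(q−1) · T / (t₉³)^(q−1)`.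
-/

set_option autoImplicit false
set_option linter.unusedSectionVars false
set_option linter.unusedVariables false
set_option linter.style.haveILetI false
set_option synthInstance.maxHeartbeats 400000
set_option maxHeartbeats 1000000

noncomputable section

namespace Fermat.Agent.S36

open ModularCurve Polynomial IntermediateField
open Fermat.Agent.INJ Fermat.Agent.AL Fermat.Agent.S28 Fermat.Agent.UNIP Fermat.Agent.ES
open Fermat.Agent.STB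

/-! ## Chart part -/

section Chart

variable {A₀ E F : Type*} [CommRing A₀] [IsDomain A₀] [IsDiscreteValuationRing A₀]
  [Field E] [Algebra A₀ E] [IsFractionRing A₀ E] [CharZero E]
  [Field F] [Algebra E F] [Algebra A₀ F] [IsScalarTower A₀ E F]
  {π : A₀} {κ : Type*}

/-- `B_u ⊆ (B_u)_𝔫` -/
theorem s36cun_mem_atLoc {u : F} (𝔫 : AtPt (F := F) π u) {x : F}
    (hx : IsIntegral ↥(Algebra.adjoin A₀ {u}) x) : x ∈ atLoc 𝔫 := by
  haveI := 𝔫.2.1.isPrime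
  exact ls_algebraMap_mem 𝔫.1 (⟨x, mem_zchClosure.mpr hx⟩ : ↥(zchClosure (A₀ := A₀) ({u} : Set F)))

/-- the inverse of an element of the chart outside `𝔫` lies in `(B_u)_𝔫` -/
theorem s36cun_inv_mem_atLoc {u : F} (𝔫 : AtPt (F := F) π u) {x : F}
    (hx : IsIntegral ↥(Algebra.adjoin A₀ {u}) x)
    (hxn : (⟨x, mem_zchClosure.mpr hx⟩ : ↥(zchClosure (A₀ := A₀) ({u} : Set F))) ∉ 𝔫.1) :
    x⁻¹ ∈ atLoc 𝔫 := by
  haveI := 𝔫.2.1.isPrime
  have h1 : (1 : ↥(zchClosure (A₀ := A₀) ({u} : Set F))) ∉ 𝔫.1 := fun h =>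
    𝔫.2.1.isPrime.ne_top ((Ideal.eq_top_iff_one 𝔫.1).mpr h)
  have hx0 : x ≠ 0 := by
    rintro rfl
    exact hxn (by
      have : (⟨0, mem_zchClosure.mpr hx⟩ : ↥(zchClosure (A₀ := A₀) ({u} : Set F))) = 0 := rfl
      rw [this]
      exact 𝔫.1.zero_mem)
  refine (ls_unit_mem_localSubring (B := ↥(zchClosure (A₀ := A₀) ({u} : Set F)))
    Subtype.val_injective 𝔫.1 (ε := x⁻¹)
    (s := ⟨x, mem_zchClosure.mpr hx⟩) (t := 1) hxn h1 ?_).1
  show x * x⁻¹ = ((1 : ↥(zchClosure (A₀ := A₀) ({u} : Set F))) : F)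
  rw [mul_inv_cancel₀ hx0]
  rfl

/-- local (KR), iterated, in the "integral over `A₀[u]`" form -/
theorem s36cun_mem_atLoc_of_pow_mul [Finite κ] {u : F} (V : κ → ValuationSubring F)
    (hBV : ∀ c (b : F), IsIntegral ↥(Algebra.adjoin A₀ {u}) b → b ∈ V c)
    (hKR : ∀ x : F, IsIntegral ↥(Algebra.adjoin A₀ {u}) (algebraMap A₀ F π * x) →
      (∀ c, x ∈ V c) → IsIntegral ↥(Algebra.adjoin A₀ {u}) x)
    (Q : ℕ) (hram : ∀ c (x : F), x ∈ (V c).nonunits → ∃ z ∈ V c, x ^ Q = algebraMap A₀ F π * z)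
    (𝔫 : AtPt (F := F) π u) (n : ℕ) (x : F)
    (hx : IsIntegral ↥(Algebra.adjoin A₀ {u}) (algebraMap A₀ F π ^ n * x))
    (hxV : ∀ c, atThrough 𝔫 (V c) → x ∈ V c) : x ∈ atLoc 𝔫 := by
  haveI := 𝔫.2.1.isPrime
  refine s36cc_KRloc_pow (B := ↥(zchClosure (A₀ := A₀) ({u} : Set F))) 𝔫.1 V
    (fun c b => hBV c _ b.2) (algebraMap A₀ ↥(zchClosure (A₀ := A₀) ({u} : Set F)) π)
    (s36pm_hKR V hKR) Q hram n x ?_ hxV
  exact s36cun_mem_atLoc 𝔫 hx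

/-- `a s − b ∈ 𝔪(V)` and `s⁻¹ ∈ V` ⇒ `a − b / s ∈ 𝔪(V)` -/
theorem s36cun_cong_div (V : ValuationSubring F) {a b s : F} (hs0 : s ≠ 0) (hs : s⁻¹ ∈ V)
    (h : a * s - b ∈ V.nonunits) : a - b / s ∈ V.nonunits := by
  have e : a - b / s = (a * s - b) * s⁻¹ := by field_simp
  rw [e, V.mem_nonunits_iff, map_mul]
  have h1 : V.valuation (a * s - b) < 1 := V.mem_nonunits_iff.mp h
  have h2 : V.valuation s⁻¹ ≤ 1 := (V.valuation_le_one_iff _).mpr hs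
  calc V.valuation (a * s - b) * V.valuation s⁻¹
      ≤ V.valuation (a * s - b) * 1 := mul_le_mul' le_rfl h2
    _ = V.valuation (a * s - b) := mul_one _
    _ < 1 := h1

end Chart

/-! ## Modular part -/

section Mod

variable {A₀ E : Type*} [CommRing A₀] [IsDomain A₀] [IsDiscreteValuationRing A₀]
  [Field E] [Algebra A₀ E] [IsFractionRing A₀ E] [CharZero E] (ιC : E →+* ℂ)
  {M q : ℕ} [NeZero q] [NeZero M] [NeZero (M * q)] [NeZero (M * q * q)] (hq : q.Prime)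
  [Algebra A₀ (modularFunctionFieldFullC E (M * q * q))]
  [IsScalarTower A₀ E (modularFunctionFieldFullC E (M * q * q))]
  {κ : Type*}

/-- a natural number prime to `q` is not in a prime ideal containing `q` -/
theorem s36cun_natCast_notMem {R : Type*} [CommRing R] (P : Ideal R) [hP : P.IsPrime]
    (hqP : ((q : ℕ) : R) ∈ P) {n : ℕ} (hn : Nat.Coprime n q) : ((n : ℕ) : R) ∉ P := by
  intro hnP
  have h1 : ((Nat.gcd n q : ℕ) : R) ∈ P := by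
    have hb := Nat.gcd_eq_gcd_ab n q
    have e : ((Nat.gcd n q : ℕ) : R) =
        (n : R) * ((Nat.gcdA n q : ℤ) : R) + (q : R) * ((Nat.gcdB n q : ℤ) : R) := by
      have := congrArg (fun z : ℤ => (z : R)) hb
      simpa using this
    rw [e]
    exact P.add_mem (P.mul_mem_right _ hnP) (P.mul_mem_right _ hqP)
  rw [hn, Nat.cast_one] at h1
  exact hP.ne_top ((Ideal.eq_top_iff_one P).mpr h1)

variable (𝔫 : AtPt (F := modularFunctionFieldFullC E (M * q * q)) ((q : ℕ) : A₀)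
  (bgJ E (M * q * q)))

include hq in
/-- `2 ∉ 𝔫` for `q ≠ 2` -/
theorem s36cun_two_notMem (hq2 : q ≠ 2) :
    (2 : ↥(zchClosure (A₀ := A₀)
      ({bgJ E (M * q * q)} : Set (modularFunctionFieldFullC E (M * q * q))))) ∉ 𝔫.1 := by
  haveI := 𝔫.2.1.isPrime
  have hqn : ((q : ℕ) : ↥(zchClosure (A₀ := A₀)
      ({bgJ E (M * q * q)} : Set (modularFunctionFieldFullC E (M * q * q))))) ∈ 𝔫.1 := by
    have h := 𝔫.2.2
    have e : algebraMap A₀ ↥(zchClosure (A₀ := A₀)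
        ({bgJ E (M * q * q)} : Set (modularFunctionFieldFullC E (M * q * q)))) ((q : ℕ) : A₀) =
        ((q : ℕ) : ↥(zchClosure (A₀ := A₀)
          ({bgJ E (M * q * q)} : Set (modularFunctionFieldFullC E (M * q * q))))) :=
      map_natCast _ q
    exact Eq.mp (congrArg (fun z => z ∈ 𝔫.1) e) h
  have h := s36cun_natCast_notMem 𝔫.1 hqn (n := 2)
    ((Nat.coprime_primes Nat.prime_two hq).mpr (Ne.symm hq2))
  simpa using h

include hq in
/-- `3 ∉ 𝔫` for `q ≠ 3` -/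
theorem s36cun_three_notMem (hq3 : q ≠ 3) :
    (3 : ↥(zchClosure (A₀ := A₀)
      ({bgJ E (M * q * q)} : Set (modularFunctionFieldFullC E (M * q * q))))) ∉ 𝔫.1 := by
  haveI := 𝔫.2.1.isPrime
  have hqn : ((q : ℕ) : ↥(zchClosure (A₀ := A₀)
      ({bgJ E (M * q * q)} : Set (modularFunctionFieldFullC E (M * q * q))))) ∈ 𝔫.1 := by
    have h := 𝔫.2.2
    have e : algebraMap A₀ ↥(zchClosure (A₀ := A₀)
        ({bgJ E (M * q * q)} : Set (modularFunctionFieldFullC E (M * q * q)))) ((q : ℕ) : A₀) =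
        ((q : ℕ) : ↥(zchClosure (A₀ := A₀)
          ({bgJ E (M * q * q)} : Set (modularFunctionFieldFullC E (M * q * q))))) :=
      map_natCast _ q
    exact Eq.mp (congrArg (fun z => z ∈ 𝔫.1) e) h
  have h := s36cun_natCast_notMem 𝔫.1 hqn (n := 3)
    ((Nat.coprime_primes Nat.prime_three hq).mpr (Ne.symm hq3))
  simpa using h

/-- an element of `F` integral over `A₀[j]`, as an element of the chart -/
def s36cunB {x : modularFunctionFieldFullC E (M * q * q)}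
    (hx : IsIntegral ↥(Algebra.adjoin A₀ {bgJ E (M * q * q)}) x) :
    ↥(zchClosure (A₀ := A₀)
      ({bgJ E (M * q * q)} : Set (modularFunctionFieldFullC E (M * q * q)))) :=
  ⟨x, mem_zchClosure.mpr hx⟩

/-! ### (U2), level 4 -/

/-- `t₄ + 16 ∉ 𝔫` -/
theorem s36cun_T4_add_notMem (h4 : 4 ∣ M)
    (h2 : (2 : ↥(zchClosure (A₀ := A₀)
      ({bgJ E (M * q * q)} : Set (modularFunctionFieldFullC E (M * q * q))))) ∉ 𝔫.1) :
    s36cunB (s36cun_isIntegral_T4 (A := A₀) (E := E) (M := M) (q := q) h4) + 16 ∉ 𝔫.1 := by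
  haveI := 𝔫.2.1.isPrime
  refine s36rig_t4_add_notMem h2
    (h := s36cunB (s36cun_isIntegral_H2 (A := A₀) (E := E) (M := M) (q := q)
      ((show 2 ∣ 4 by norm_num).trans h4))) ?_
  apply Subtype.ext
  exact s36cun_T4_sq E M q h4

/-- `h₂ ∉ 𝔫` -/
theorem s36cun_H2_notMem (h2' : 2 ∣ M)
    (h2 : (2 : ↥(zchClosure (A₀ := A₀)
      ({bgJ E (M * q * q)} : Set (modularFunctionFieldFullC E (M * q * q))))) ∉ 𝔫.1) :
    s36cunB (s36cun_isIntegral_H2 (A := A₀) (E := E) (M := M) (q := q) h2') ∉ 𝔫.1 := by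
  haveI := 𝔫.2.1.isPrime
  refine s36rig_h2_notMem h2
    (j := s36cunB (A₀ := A₀) (x := bgJ E (M * q * q)) (s36pc_self_mem _)) ?_
  apply Subtype.ext
  exact s36cun_H2_j E M q h2'

/-- `t₄ ∉ 𝔫` -/
theorem s36cun_T4_notMem (h4 : 4 ∣ M)
    (h2 : (2 : ↥(zchClosure (A₀ := A₀)
      ({bgJ E (M * q * q)} : Set (modularFunctionFieldFullC E (M * q * q))))) ∉ 𝔫.1) :
    s36cunB (s36cun_isIntegral_T4 (A := A₀) (E := E) (M := M) (q := q) h4) ∉ 𝔫.1 := by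
  haveI := 𝔫.2.1.isPrime
  intro ht
  have e : s36cunB (s36cun_isIntegral_T4 (A := A₀) (E := E) (M := M) (q := q) h4) ^ 2 =
      s36cunB (s36cun_isIntegral_H2 (A := A₀) (E := E) (M := M) (q := q)
        ((show 2 ∣ 4 by norm_num).trans h4)) *
      (s36cunB (s36cun_isIntegral_T4 (A := A₀) (E := E) (M := M) (q := q) h4) + 16) := by
    apply Subtype.ext
    have := s36cun_T4_sq E M q h4
    show s36cunT4 E M q h4 ^ 2 =
      s36cunH2 E M q ((show 2 ∣ 4 by norm_num).trans h4) * (s36cunT4 E M q h4 + 16)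
    rw [this]
    ring
  have h1 : s36cunB (s36cun_isIntegral_H2 (A := A₀) (E := E) (M := M) (q := q)
        ((show 2 ∣ 4 by norm_num).trans h4)) *
      (s36cunB (s36cun_isIntegral_T4 (A := A₀) (E := E) (M := M) (q := q) h4) + 16) ∈ 𝔫.1 := by
    rw [← e]
    exact Ideal.pow_mem_of_mem _ ht 2 (by norm_num)
  rcases 𝔫.2.1.isPrime.mem_or_mem h1 with h | h
  · exact s36cun_H2_notMem 𝔫 ((show 2 ∣ 4 by norm_num).trans h4) h2 h
  · exact s36cun_T4_add_notMem 𝔫 h4 h2 h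

/-- `G = (t₄² (t₄ + 16)⁵)^(q−1) ∉ 𝔫` -/
theorem s36cun_G4_notMem (h4 : 4 ∣ M)
    (h2 : (2 : ↥(zchClosure (A₀ := A₀)
      ({bgJ E (M * q * q)} : Set (modularFunctionFieldFullC E (M * q * q))))) ∉ 𝔫.1) :
    s36cunB (s36cun_isIntegral_G4 (A := A₀) (E := E) (M := M) (q := q) h4) ∉ 𝔫.1 := by
  haveI := 𝔫.2.1.isPrime
  have e : s36cunB (s36cun_isIntegral_G4 (A := A₀) (E := E) (M := M) (q := q) h4) =
      (s36cunB (s36cun_isIntegral_T4 (A := A₀) (E := E) (M := M) (q := q) h4) ^ 2 *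
        (s36cunB (s36cun_isIntegral_T4 (A := A₀) (E := E) (M := M) (q := q) h4) + 16) ^ 5) ^
          (q - 1) := by
    apply Subtype.ext
    rfl
  rw [e]
  intro h
  have h1 := 𝔫.2.1.isPrime.mem_of_pow_mem _ h
  rcases 𝔫.2.1.isPrime.mem_or_mem h1 with h' | h'
  · exact s36cun_T4_notMem 𝔫 h4 h2 (𝔫.2.1.isPrime.mem_of_pow_mem _ h')
  · exact s36cun_T4_add_notMem 𝔫 h4 h2 (𝔫.2.1.isPrime.mem_of_pow_mem _ h')

/-! ### (U2), level 9 -/

/-- `h₃ ∉ 𝔫` -/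
theorem s36cun_H3_notMem (h3' : 3 ∣ M)
    (h3 : (3 : ↥(zchClosure (A₀ := A₀)
      ({bgJ E (M * q * q)} : Set (modularFunctionFieldFullC E (M * q * q))))) ∉ 𝔫.1) :
    s36cunB (s36cun_isIntegral_H3 (A := A₀) (E := E) (M := M) (q := q) h3') ∉ 𝔫.1 := by
  haveI := 𝔫.2.1.isPrime
  refine s36rig_h3_notMem h3
    (j := s36cunB (A₀ := A₀) (x := bgJ E (M * q * q)) (s36pc_self_mem _)) ?_
  apply Subtype.ext
  exact s36cun_H3_j E M q h3'

/-- `t₉ ∉ 𝔫` and `D ∉ 𝔫` -/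
theorem s36cun_T9_D9_notMem (h9 : 9 ∣ M)
    (h3 : (3 : ↥(zchClosure (A₀ := A₀)
      ({bgJ E (M * q * q)} : Set (modularFunctionFieldFullC E (M * q * q))))) ∉ 𝔫.1) :
    s36cunB (s36cun_isIntegral_T9 (A := A₀) (E := E) (M := M) (q := q) h9) ∉ 𝔫.1 ∧
      s36cunB (s36cun_isIntegral_D9 (A := A₀) (E := E) (M := M) (q := q) h9) ∉ 𝔫.1 := by
  haveI := 𝔫.2.1.isPrime
  set t := s36cunB (s36cun_isIntegral_T9 (A := A₀) (E := E) (M := M) (q := q) h9) with ht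
  set D := s36cunB (s36cun_isIntegral_D9 (A := A₀) (E := E) (M := M) (q := q) h9) with hD
  set h := s36cunB (s36cun_isIntegral_H3 (A := A₀) (E := E) (M := M) (q := q)
    ((show 3 ∣ 9 by norm_num).trans h9)) with hh
  have eD : D = t ^ 2 + 9 * t + 27 := by
    apply Subtype.ext
    rfl
  have e : t ^ 3 = h * D := by
    rw [eD]
    apply Subtype.ext
    exact s36cun_T9_cube E M q h9
  -- `t ∈ 𝔫 ⇒ 27 ∈ 𝔫`
  have key : t ∈ 𝔫.1 → D ∈ 𝔫.1 → False := by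
    intro h1 h2
    have h27 : (3 : ↥(zchClosure (A₀ := A₀)
        ({bgJ E (M * q * q)} : Set (modularFunctionFieldFullC E (M * q * q))))) ^ 3 ∈ 𝔫.1 := by
      have e27 : (3 : ↥(zchClosure (A₀ := A₀)
          ({bgJ E (M * q * q)} : Set (modularFunctionFieldFullC E (M * q * q))))) ^ 3 =
          D - t * (t + 9) := by
        rw [eD]; ring
      rw [e27]
      exact 𝔫.1.sub_mem h2 (𝔫.1.mul_mem_right _ h1)
    exact s36rig_three_pow_notMem h3 3 h27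
  have hDt : D ∈ 𝔫.1 → t ∈ 𝔫.1 := by
    intro h2
    have : t ^ 3 ∈ 𝔫.1 := by rw [e]; exact 𝔫.1.mul_mem_left _ h2
    exact 𝔫.2.1.isPrime.mem_of_pow_mem _ this
  have htD : t ∈ 𝔫.1 → D ∈ 𝔫.1 := by
    intro h1
    have : h * D ∈ 𝔫.1 := by rw [← e]; exact Ideal.pow_mem_of_mem _ h1 3 (by norm_num)
    rcases 𝔫.2.1.isPrime.mem_or_mem this with h' | h'
    · exact absurd h' (s36cun_H3_notMem 𝔫 ((show 3 ∣ 9 by norm_num).trans h9) h3)
    · exact h'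
  exact ⟨fun h1 => key h1 (htD h1), fun h2 => key (hDt h2) h2⟩

/-! ### (U3): `T = α(u_q)` is a unit of `O` -/

variable [Finite κ] (V : κ → ValuationSubring (modularFunctionFieldFullC E (M * q * q)))
  (hBV : ∀ c (b : modularFunctionFieldFullC E (M * q * q)),
    IsIntegral ↥(Algebra.adjoin A₀ {bgJ E (M * q * q)}) b → b ∈ V c)
  (hKR : ∀ x : modularFunctionFieldFullC E (M * q * q),
    IsIntegral ↥(Algebra.adjoin A₀ {bgJ E (M * q * q)})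
      (algebraMap A₀ (modularFunctionFieldFullC E (M * q * q)) ((q : ℕ) : A₀) * x) →
    (∀ c, x ∈ V c) → IsIntegral ↥(Algebra.adjoin A₀ {bgJ E (M * q * q)}) x)
  (Q : ℕ) (hram : ∀ c (x : modularFunctionFieldFullC E (M * q * q)), x ∈ (V c).nonunits →
    ∃ z ∈ V c, x ^ Q =
      algebraMap A₀ (modularFunctionFieldFullC E (M * q * q)) ((q : ℕ) : A₀) * z)
  (hTV : ∀ c, atThrough 𝔫 (V c) → s36cunT E ιC M q ∈ V c)

include hq hBV hKR hram hTV in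
/-- `T ∈ O` -/
theorem s36cun_T_mem : s36cunT E ιC M q ∈ atLoc 𝔫 := by
  refine s36cun_mem_atLoc_of_pow_mul V hBV hKR Q hram 𝔫 12 _ ?_ hTV
  have e : algebraMap A₀ (modularFunctionFieldFullC E (M * q * q)) ((q : ℕ) : A₀) ^ 12 *
      s36cunT E ιC M q = s36cunW' E ιC M q := by
    rw [s36cun_W'_eq, map_natCast, map_pow, map_natCast]
  rw [e]
  exact s36cun_isIntegral_W' ιC hq

include hq in
/-- `T⁻¹ = W ∈ O` -/
theorem s36cun_T_inv_mem : (s36cunT E ιC M q)⁻¹ ∈ atLoc 𝔫 := by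
  have e : (s36cunT E ιC M q)⁻¹ = s36cunW E ιC M q :=
    (eq_inv_of_mul_eq_one_left (s36cun_W_mul_T E ιC M q)).symm
  rw [e]
  exact s36cun_mem_atLoc 𝔫 (s36cun_isIntegral_W ιC hq)

include hq hBV hKR hram hTV in
/-- **(b-UNIT), `q` odd, `4 ∣ M`**: `X = Π_{t₄} ∈ O` and `g = G · T` is a unit of `O`. -/
theorem s36cun_main_odd (h4 : 4 ∣ M) (hq2 : q ≠ 2) :
    s36cunX4 E M q h4 ∈ atLoc 𝔫 ∧
    s36cunG4 E M q h4 * s36cunT E ιC M q ∈ atLoc 𝔫 ∧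
    (s36cunG4 E M q h4 * s36cunT E ιC M q)⁻¹ ∈ atLoc 𝔫 ∧
    s36cunG4 E M q h4 * s36cunT E ιC M q ≠ 0 := by
  have h2 := s36cun_two_notMem hq 𝔫 hq2
  have hG := s36cun_G4_notMem 𝔫 h4 h2
  have hGm : s36cunG4 E M q h4 ∈ atLoc 𝔫 := s36cun_mem_atLoc 𝔫 (s36cun_isIntegral_G4 h4)
  have hGi : (s36cunG4 E M q h4)⁻¹ ∈ atLoc 𝔫 :=
    s36cun_inv_mem_atLoc 𝔫 (s36cun_isIntegral_G4 h4) hG
  have hG0 : s36cunG4 E M q h4 ≠ 0 := by
    intro h0
    apply hG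
    have : s36cunB (s36cun_isIntegral_G4 (A := A₀) (E := E) (M := M) (q := q) h4) = 0 :=
      Subtype.ext h0
    rw [this]
    exact 𝔫.1.zero_mem
  refine ⟨s36cun_mem_atLoc 𝔫 (s36cun_isIntegral_X4 hq h4),
    (atLoc 𝔫).mul_mem hGm (s36cun_T_mem ιC hq 𝔫 V hBV hKR Q hram hTV), ?_,
    mul_ne_zero hG0 (s36cunT_ne_zero E ιC M q)⟩
  rw [mul_inv]
  exact (atLoc 𝔫).mul_mem hGi (s36cun_T_inv_mem ιC hq 𝔫)

include hq hBV hKR hram hTV in
/-- **(b-UNIT), `9 ∣ M`, `q ≠ 3`** (used for `q = 2`): `X = Π_{t₉} ∈ O` and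
`g = D⁵ · T / t₉³` is a unit of `O`. -/
theorem s36cun_main_two (h9 : 9 ∣ M) (hq3 : q ≠ 3) :
    s36cunX9 E M q h9 ∈ atLoc 𝔫 ∧
    s36cunD9 E M q h9 ^ 5 * s36cunT E ιC M q / s36cunT9 E M q h9 ^ 3 ∈ atLoc 𝔫 ∧
    (s36cunD9 E M q h9 ^ 5 * s36cunT E ιC M q / s36cunT9 E M q h9 ^ 3)⁻¹ ∈ atLoc 𝔫 ∧
    s36cunD9 E M q h9 ^ 5 * s36cunT E ιC M q / s36cunT9 E M q h9 ^ 3 ≠ 0 := by
  have h3 := s36cun_three_notMem hq 𝔫 hq3
  obtain ⟨ht, hD⟩ := s36cun_T9_D9_notMem 𝔫 h9 h3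
  have hDm : s36cunD9 E M q h9 ∈ atLoc 𝔫 := s36cun_mem_atLoc 𝔫 (s36cun_isIntegral_D9 h9)
  have hDi : (s36cunD9 E M q h9)⁻¹ ∈ atLoc 𝔫 :=
    s36cun_inv_mem_atLoc 𝔫 (s36cun_isIntegral_D9 h9) hD
  have htm : s36cunT9 E M q h9 ∈ atLoc 𝔫 := s36cun_mem_atLoc 𝔫 (s36cun_isIntegral_T9 h9)
  have hti : (s36cunT9 E M q h9)⁻¹ ∈ atLoc 𝔫 :=
    s36cun_inv_mem_atLoc 𝔫 (s36cun_isIntegral_T9 h9) ht
  have hD0 : s36cunD9 E M q h9 ≠ 0 := by
    intro h0
    apply hD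
    have : s36cunB (s36cun_isIntegral_D9 (A := A₀) (E := E) (M := M) (q := q) h9) = 0 :=
      Subtype.ext h0
    rw [this]
    exact 𝔫.1.zero_mem
  have ht0 : s36cunT9 E M q h9 ≠ 0 := by
    intro h0
    apply ht
    have : s36cunB (s36cun_isIntegral_T9 (A := A₀) (E := E) (M := M) (q := q) h9) = 0 :=
      Subtype.ext h0
    rw [this]
    exact 𝔫.1.zero_mem
  have hTm := s36cun_T_mem ιC hq 𝔫 V hBV hKR Q hram hTV
  have hTi := s36cun_T_inv_mem ιC hq 𝔫 (A₀ := A₀) (E := E) (M := M) (q := q)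
  have hT0 := s36cunT_ne_zero E ιC M q
  refine ⟨s36cun_mem_atLoc 𝔫 (s36cun_isIntegral_X9 hq h9), ?_, ?_, ?_⟩
  · rw [div_eq_mul_inv, ← inv_pow]
    exact (atLoc 𝔫).mul_mem ((atLoc 𝔫).mul_mem ((atLoc 𝔫).pow_mem hDm 5) hTm)
      ((atLoc 𝔫).pow_mem hti 3)
  · rw [inv_div, div_eq_mul_inv, mul_inv, ← inv_pow]
    exact (atLoc 𝔫).mul_mem ((atLoc 𝔫).pow_mem htm 3)
      ((atLoc 𝔫).mul_mem ((atLoc 𝔫).pow_mem hDi 5) hTi)
  · exact div_ne_zero (mul_ne_zero (pow_ne_zero 5 hD0) hT0) (pow_ne_zero 3 ht0)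

include hq hBV hKR hram hTV in
/-- **(b-UNIT), `9 ∣ M`, `q ≠ 3`, general exponent** (the shape of `s36cg_cong_t9'`):
`g = (D⁵)^(q−1) · T / (t₉³)^(q−1)` is a unit of `O`. -/
theorem s36cun_main_nine (h9 : 9 ∣ M) (hq3 : q ≠ 3) :
    s36cunX9 E M q h9 ∈ atLoc 𝔫 ∧
    ((s36cunT9 E M q h9 ^ 2 + 9 * s36cunT9 E M q h9 + 27) ^ 5) ^ (q - 1) * s36cunT E ιC M q /
      (s36cunT9 E M q h9 ^ 3) ^ (q - 1) ∈ atLoc 𝔫 ∧
    (((s36cunT9 E M q h9 ^ 2 + 9 * s36cunT9 E M q h9 + 27) ^ 5) ^ (q - 1) * s36cunT E ιC M q /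
      (s36cunT9 E M q h9 ^ 3) ^ (q - 1))⁻¹ ∈ atLoc 𝔫 ∧
    ((s36cunT9 E M q h9 ^ 2 + 9 * s36cunT9 E M q h9 + 27) ^ 5) ^ (q - 1) * s36cunT E ιC M q /
      (s36cunT9 E M q h9 ^ 3) ^ (q - 1) ≠ 0 := by
  have h3 := s36cun_three_notMem hq 𝔫 hq3
  obtain ⟨ht, hD⟩ := s36cun_T9_D9_notMem 𝔫 h9 h3
  have hDm : s36cunD9 E M q h9 ∈ atLoc 𝔫 := s36cun_mem_atLoc 𝔫 (s36cun_isIntegral_D9 h9)
  have hDi : (s36cunD9 E M q h9)⁻¹ ∈ atLoc 𝔫 :=
    s36cun_inv_mem_atLoc 𝔫 (s36cun_isIntegral_D9 h9) hD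
  have htm : s36cunT9 E M q h9 ∈ atLoc 𝔫 := s36cun_mem_atLoc 𝔫 (s36cun_isIntegral_T9 h9)
  have hti : (s36cunT9 E M q h9)⁻¹ ∈ atLoc 𝔫 :=
    s36cun_inv_mem_atLoc 𝔫 (s36cun_isIntegral_T9 h9) ht
  have hD0 : s36cunD9 E M q h9 ≠ 0 := by
    intro h0
    apply hD
    have : s36cunB (s36cun_isIntegral_D9 (A := A₀) (E := E) (M := M) (q := q) h9) = 0 :=
      Subtype.ext h0
    rw [this]
    exact 𝔫.1.zero_mem
  have ht0 : s36cunT9 E M q h9 ≠ 0 := by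
    intro h0
    apply ht
    have : s36cunB (s36cun_isIntegral_T9 (A := A₀) (E := E) (M := M) (q := q) h9) = 0 :=
      Subtype.ext h0
    rw [this]
    exact 𝔫.1.zero_mem
  have hTm := s36cun_T_mem ιC hq 𝔫 V hBV hKR Q hram hTV
  have hTi := s36cun_T_inv_mem ιC hq 𝔫 (A₀ := A₀) (E := E) (M := M) (q := q)
  have hT0 := s36cunT_ne_zero E ιC M q
  have eD : s36cunT9 E M q h9 ^ 2 + 9 * s36cunT9 E M q h9 + 27 = s36cunD9 E M q h9 := rfl
  rw [eD]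
  refine ⟨s36cun_mem_atLoc 𝔫 (s36cun_isIntegral_X9 hq h9), ?_, ?_, ?_⟩
  · rw [div_eq_mul_inv, ← inv_pow, ← inv_pow]
    exact (atLoc 𝔫).mul_mem
      ((atLoc 𝔫).mul_mem ((atLoc 𝔫).pow_mem ((atLoc 𝔫).pow_mem hDm 5) _) hTm)
      ((atLoc 𝔫).pow_mem ((atLoc 𝔫).pow_mem hti 3) _)
  · rw [inv_div, div_eq_mul_inv, mul_inv, ← inv_pow, ← inv_pow]
    exact (atLoc 𝔫).mul_mem ((atLoc 𝔫).pow_mem ((atLoc 𝔫).pow_mem htm 3) _)
      ((atLoc 𝔫).mul_mem ((atLoc 𝔫).pow_mem ((atLoc 𝔫).pow_mem hDi 5) _) hTi)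
  · exact div_ne_zero (mul_ne_zero (pow_ne_zero _ (pow_ne_zero 5 hD0)) hT0)
      (pow_ne_zero _ (pow_ne_zero 3 ht0))

end Mod

end Fermat.Agent.S36

end
end ZBS36_035_1

/-! ### bundled: `Fermat.Agent.S36.CuspMidAbs` -/
section ZBS36_035_2

/-!
# S36 (I6): cusp points of `C_c` — the ABSTRACT part (helper58)

* `s36cm_unit` : chart `B`, point `𝔫` with ONE component `V c₁` through it, `X ∈ O = B_𝔫`,
  `U := X ^ e / ϖ ∈ V c₁`, `U · S ≡ G` at `V c₁` with `S, G ∈ B`, `G ∉ 𝔫`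
  ⇒ `U` is (the value of) a unit of `O`.  (Then `s36pm_ptInput` (helper93) applies with `g := U`.)
* `s36cm_x0_mem` : MANIFEST integrality of `x₀ = J / Jqq`: `Φ(Jqq, Jq) = 0` for a monic
  `Φ ∈ ℤ[Y][X]` of `X`-degree `q + 1` with `deg_Y (coeff i) ≤ q` (`1 ≤ i ≤ q`),
  `deg_Y (coeff 0) ≤ q + 1`; `O ⊆ F` an integrally closed subring containing `J⁻¹`, `Jq⁻¹`,
  `J ^ q / Jq` and the inverse of `c̃₀(Jq⁻¹)` (`c̃₀` the reflected constant coefficient)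
  ⇒ `J / Jqq ∈ O`.
-/

set_option autoImplicit false
set_option linter.unusedSectionVars false
set_option linter.unusedVariables false
set_option linter.style.haveILetI false

noncomputable section

namespace Fermat.Agent.S36

open Polynomial Fermat.Agent.UNIP Fermat.Agent.STB Fermat.Agent.S28 Fermat.Agent.S33

section Unit

variable {F : Type*} [Field F] {B : Type*} [CommRing B] [Algebra B F]
variable (hinj : Function.Injective (algebraMap B F)) (𝔫 : Ideal B) [h𝔫 : 𝔫.IsPrime]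
variable {κ : Type*} [Finite κ]

include hinj in
/-- `U = X ^ e / ϖ` is a unit of `O` -/
theorem s36cm_unit (V : κ → ValuationSubring F)
    (hBV : ∀ c (b : B), algebraMap B F b ∈ V c) (ϖ : B)
    (hKR : ∀ x : F, (∃ b : B, algebraMap B F ϖ * x = algebraMap B F b) → (∀ c, x ∈ V c) →
      ∃ b : B, x = algebraMap B F b)
    (Q : ℕ) (hram : ∀ c (x : F), x ∈ (V c).nonunits → ∃ z ∈ V c, x ^ Q = algebraMap B F ϖ * z)
    (hϖ0 : algebraMap B F ϖ ≠ 0)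
    (c₁ : κ) (hc₁ : ∀ b : B, algebraMap B F b ∈ (V c₁).nonunits → b ∈ 𝔫)
    (honly : ∀ c, (∀ b : B, algebraMap B F b ∈ (V c).nonunits → b ∈ 𝔫) → c = c₁)
    (X : ls_localSubring (F := F) 𝔫) (e : ℕ)
    (hUV : (X : F) ^ e / algebraMap B F ϖ ∈ V c₁)
    (S G : B) (hG : G ∉ 𝔫)
    (hcong : (X : F) ^ e / algebraMap B F ϖ * algebraMap B F S - algebraMap B F G ∈
      (V c₁).nonunits) :
    ∃ g : ls_localSubring (F := F) 𝔫, IsUnit g ∧ (g : F) = (X : F) ^ e / algebraMap B F ϖ := by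
  haveI := ls_localSubring_isLocalRing (F := F) hinj 𝔫
  have h1 : (1 : B) ∉ 𝔫 := fun h => h𝔫.ne_top ((Ideal.eq_top_iff_one 𝔫).mpr h)
  -- `U ∈ O`
  have hUO : (X : F) ^ e / algebraMap B F ϖ ∈ ls_localSubring (F := F) 𝔫 := by
    refine s36n2p_KRloc 𝔫 V hBV ϖ hKR Q hram _ ?_ ?_
    · rw [mul_div_cancel₀ _ hϖ0]
      exact (X ^ e).2
    · intro c hc
      rw [honly c hc]
      exact hUV
  set U : ls_localSubring (F := F) 𝔫 := ⟨_, hUO⟩ with hUdef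
  refine ⟨U, ?_, rfl⟩
  -- `G` is a unit of `O`
  have hGu : IsUnit (s36n2pToLoc (F := F) 𝔫 G) :=
    ls_isUnit_of_not_mem hinj 𝔫 (s36n2pToLoc (F := F) 𝔫 G) (b := G) (s := 1) hG h1 (by
      rw [map_one, one_mul]; rfl)
  -- `U · S` is a unit of `O`
  have hUS : IsUnit (U * s36n2pToLoc (F := F) 𝔫 S) :=
    s36pm_isUnit_of_congr hinj 𝔫 (V c₁) (hBV c₁) hc₁ (U * s36n2pToLoc (F := F) 𝔫 S)
      (s36n2pToLoc (F := F) 𝔫 G) hGu hcong
  exact isUnit_of_mul_isUnit_left hUS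

end Unit

section Integral

variable {F : Type*} [Field F]

/-- values of integral polynomials at elements of a subring -/
theorem s36cm_evalInt_mem (O : Subring F) {x : F} (hx : x ∈ O) (c : Polynomial ℤ) :
    evalInt x c ∈ O := by
  show Polynomial.eval₂ (Int.castRingHom F) x c ∈ O
  rw [Polynomial.eval₂_eq_sum_range]
  refine O.sum_mem fun i _ => O.mul_mem ?_ (O.pow_mem hx i)
  rw [eq_intCast]
  exact intCast_mem O _

/-- `c(y) = c̃(y⁻¹) · y ^ N` for `deg c ≤ N` -/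
theorem s36cm_evalInt_eq {y : F} (hy : y ≠ 0) (N : ℕ) (c : Polynomial ℤ)
    (hc : c.natDegree ≤ N) : evalInt y c = evalInt y⁻¹ (reflect N c) * y ^ N := by
  rw [wpd_evalInt_reflect hy N c hc, mul_assoc, ← mul_pow, inv_mul_cancel₀ hy, one_pow, mul_one]

/-- **manifest integrality of `J / Jqq`** -/
theorem s36cm_x0_mem (q : ℕ) (hq : 1 ≤ q) (Φ : Polynomial (Polynomial ℤ)) (hΦ : Φ.Monic)
    (hdeg : Φ.natDegree = q + 1)
    (hpos : ∀ i, 1 ≤ i → i ≤ q → (Φ.coeff i).natDegree ≤ q)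
    (hzero : (Φ.coeff 0).natDegree ≤ q + 1)
    (O : Subring F) (hOic : ∀ x : F, IsIntegral O x → x ∈ O)
    {J Jq Jqq : F} (hJ : J ≠ 0) (hJq : Jq ≠ 0) (hJqq : Jqq ≠ 0)
    (hrel : Φ.eval₂ (evalInt Jq) Jqq = 0)
    (hb : J⁻¹ ∈ O) (ha : Jq⁻¹ ∈ O) (hu : J ^ q * Jq⁻¹ ∈ O)
    (γ' : F) (hγ' : γ' ∈ O)
    (hγ : γ' * evalInt Jq⁻¹ (reflect (q + 1) (Φ.coeff 0)) = 1) :
    J * Jqq⁻¹ ∈ O := by
  classical
  apply hOic
  set x₀ : F := J * Jqq⁻¹ with hx₀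
  set γ : F := evalInt Jq⁻¹ (reflect (q + 1) (Φ.coeff 0)) with hγdef
  have hγ0 : γ ≠ 0 := fun h0 => by rw [h0, mul_zero] at hγ; exact zero_ne_one hγ
  have hC0 : evalInt Jq (Φ.coeff 0) = γ * Jq ^ (q + 1) :=
    s36cm_evalInt_eq hJq (q + 1) _ hzero
  have hC0ne : evalInt Jq (Φ.coeff 0) ≠ 0 := by
    rw [hC0]
    exact mul_ne_zero hγ0 (pow_ne_zero _ hJq)
  -- `J · Jq⁻¹ ∈ O`
  have hJa : J * Jq⁻¹ ∈ O := by
    have e1 : J * Jq⁻¹ = J⁻¹ ^ (q - 1) * (J ^ q * Jq⁻¹) := by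
      have : J ^ q = J ^ (q - 1) * J := by rw [← pow_succ, Nat.sub_add_cancel hq]
      rw [this, inv_pow]
      field_simp
    rw [e1]
    exact O.mul_mem (O.pow_mem hb _) hu
  -- the coefficients
  set e : ℕ → F := fun i => evalInt Jq (Φ.coeff (i + 1)) * J ^ (i + 1) /
    evalInt Jq (Φ.coeff 0) with he
  have heO : ∀ i, i < q + 1 → e i ∈ O := by
    intro i hi
    by_cases hiq : i = q
    swap
    · -- `1 ≤ i + 1 ≤ q`
      have hlt : i < q := by omega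
      have h1 := s36cm_evalInt_eq hJq q (Φ.coeff (i + 1)) (hpos (i + 1) (by omega) (by omega))
      have e1 : e i = evalInt Jq⁻¹ (reflect q (Φ.coeff (i + 1))) *
          (J⁻¹ ^ (q - (i + 1)) * (J ^ q * Jq⁻¹)) * γ' := by
        have h3 : J ^ q = J ^ (q - (i + 1)) * J ^ (i + 1) := by
          rw [← pow_add, Nat.sub_add_cancel (by omega)]
        have h4 : γ' = γ⁻¹ := eq_inv_of_mul_eq_one_left hγ
        rw [he]
        simp only
        rw [h1, hC0, h3, h4, pow_succ Jq q, inv_pow]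
        field_simp
      rw [e1]
      exact O.mul_mem (O.mul_mem (s36cm_evalInt_mem O ha _)
        (O.mul_mem (O.pow_mem hb _) hu)) hγ'
    · -- the top coefficient
      have h1 : Φ.coeff (q + 1) = 1 := by
        have := hΦ.coeff_natDegree
        rwa [hdeg] at this
      rw [hiq]
      have e1 : e q = (J * Jq⁻¹) ^ (q + 1) * γ' := by
        have h4 : γ' = γ⁻¹ := eq_inv_of_mul_eq_one_left hγ
        rw [he]
        simp only
        rw [h1, map_one, one_mul, hC0, h4, mul_pow, inv_pow]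
        field_simp
      rw [e1]
      exact O.mul_mem (O.pow_mem hJa _) hγ'
  -- the relation
  have hsum : x₀ ^ (q + 1) + ∑ i ∈ Finset.range (q + 1), e i * x₀ ^ (q - i) = 0 := by
    have h0 := hrel
    rw [Polynomial.eval₂_eq_sum_range, hdeg, Finset.sum_range_succ'] at h0
    have hx : x₀ * Jqq = J := by
      rw [hx₀, mul_assoc, inv_mul_cancel₀ hJqq, mul_one]
    have h1 : x₀ ^ (q + 1) * (∑ i ∈ Finset.range (q + 1),
        evalInt Jq (Φ.coeff (i + 1)) * Jqq ^ (i + 1) +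
          evalInt Jq (Φ.coeff 0) * Jqq ^ 0) = 0 := by rw [h0, mul_zero]
    rw [mul_add, Finset.mul_sum, pow_zero, mul_one] at h1
    have h2 : ∀ i ∈ Finset.range (q + 1),
        x₀ ^ (q + 1) * (evalInt Jq (Φ.coeff (i + 1)) * Jqq ^ (i + 1)) =
          evalInt Jq (Φ.coeff 0) * (e i * x₀ ^ (q - i)) := by
      intro i hi
      have hi' : i < q + 1 := Finset.mem_range.mp hi
      have h3 : x₀ ^ (q + 1) = x₀ ^ (q - i) * x₀ ^ (i + 1) := by
        rw [← pow_add]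
        congr 1
        omega
      rw [he]
      simp only
      rw [h3, ← hx, mul_pow]
      field_simp
      ring
    rw [Finset.sum_congr rfl h2, ← Finset.mul_sum] at h1
    have h4 : evalInt Jq (Φ.coeff 0) *
        (x₀ ^ (q + 1) + ∑ i ∈ Finset.range (q + 1), e i * x₀ ^ (q - i)) = 0 := by
      rw [mul_add, add_comm, mul_comm (evalInt Jq (Φ.coeff 0)) (x₀ ^ (q + 1))]
      exact h1
    exact (mul_eq_zero.mp h4).resolve_left hC0ne
  -- the monic polynomial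
  set eO : ℕ → O := fun i => if h : i < q + 1 then ⟨e i, heO i h⟩ else 0 with heOdef
  set p' : Polynomial O := ∑ i ∈ Finset.range (q + 1), C (eO i) * X ^ (q - i) with hp'
  have hp'deg : p'.degree < ((q + 1 : ℕ) : WithBot ℕ) := by
    rw [hp']
    refine lt_of_le_of_lt (Polynomial.degree_sum_le _ _) ?_
    rw [Finset.sup_lt_iff (WithBot.bot_lt_coe _)]
    intro i _
    refine lt_of_le_of_lt (Polynomial.degree_C_mul_X_pow_le _ _) ?_
    exact_mod_cast Nat.lt_succ_of_le (Nat.sub_le q i)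
  refine ⟨X ^ (q + 1) + p', Polynomial.monic_X_pow_add hp'deg, ?_⟩
  rw [Polynomial.eval₂_add, Polynomial.eval₂_pow, Polynomial.eval₂_X, hp',
    Polynomial.eval₂_finsetSum]
  rw [← hsum]
  congr 1
  refine Finset.sum_congr rfl fun i hi => ?_
  have hi' : i < q + 1 := Finset.mem_range.mp hi
  rw [Polynomial.eval₂_mul, Polynomial.eval₂_C, Polynomial.eval₂_pow, Polynomial.eval₂_X, heOdef]
  simp only [dif_pos hi']
  rfl

end Integral

end Fermat.Agent.S36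

end


end ZBS36_035_2
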