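/- GENERATED FILE (helper35, build-time optimisation, NOTES/ZB.md): verbatim concatenation of the modules
   Fermat.Agent.S36.N2Loc
   Fermat.Agent.S36.N2LocElts
   Fermat.Agent.S36.N2LocMain
   Fermat.Agent.S36.PtsCuspA
   Fermat.Agent.S36.PtsOneAB
   Fermat.Agent.S36.PtsMidInst
   Fermat.Agent.S36.PtsMidFinal
   Fermat.Agent.S36.PtsMidStmt
   Fermat.Agent.S36.PtsTripleInst
   Fermat.Agent.S36.NgLocInst
   Fermat.Agent.S36.PtsUniq
   Fermat.Agent.S36.PtsCuspY
   Fermat.Agent.S36.PtsCuspC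
   Fermat.Agent.S36.CuspMidRed
   Fermat.Agent.S36.CuspMid
   Fermat.Agent.S36.PtsCuspC2
   Do not edit; do not import together with these modules. -/
import Fermat.Agent.ZB.S36_004
import Fermat.Agent.ZB.UNIP_007
import Fermat.Agent.ZB.S34_001
import Fermat.Agent.ZB.UNIP_014
import Fermat.Agent.ZB.S36_026
import Fermat.Agent.ZB.S36_022
import Fermat.Agent.ZB.S28_002
import Fermat.Agent.ZB.INJ_031
import Fermat.Agent.ZB.S36_029
import Fermat.Agent.ZB.S36_035
import Fermat.Agent.ZB.S36_034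
import Fermat.Agent.ZB.S36_027
import Fermat.Agent.ZB.S33_007
import Fermat.Agent.ZB.UNIP_012
import Fermat.Agent.ZB.S36_040
import Fermat.Agent.ZB.S36_028

/-! ### bundled: `Fermat.Agent.S36.N2Loc` -/
section ZBS36_032_0
/-
S36 (Carayol at `q² ∥ M`), geometry, piece N2-loc (helper91): the level-`q²` twin of `hVloc`
(UNIP MG-8 part 3), ABSTRACT part.

Chart setting of `S36/AbstractQ.lean`: `A₀` a DVR with uniformizer `π`, `E = Frac A₀`,
`F / E(u)` finite, `B_u` the integral closure of `A₀[u]` in `F`, `V : κ → ValuationSubring F`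
the vertical valuation rings (`κ` finite; at level `M q²` the three components `a`, `b`, `c`).
The special fibre need not be reduced: only the Krull property (KR) is used.

* `s36n2l_hVloc_abs` : if primitive polynomials in `u` are units of `V c` and there is a
  separating element `z ∈ B_u`, `z ∉ 𝔪(V c)`, `z ∈ 𝔪(V c')` for all `c' ≠ c`, then `V c` is the
  localisation of the chart at `𝔪(V c) ∩ B_u`: every `x ∈ V c` is `b / s` with `b, s ∈ B_u`,
  `s ∉ 𝔪(V c)`.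
  Proof: `π ^ k · s₁ · x ∈ B_u` with `s₁` primitive (denominators); `z ^ N · s₁ · x ∈ ⋂ V c'` for
  `N` large (archimedean), and `π ^ k · (z ^ N s₁ x) ∈ B_u`, so `z ^ N s₁ x ∈ B_u` by (KR) `k`
  times.  `s := z ^ N s₁`.
* `s36n2l_hVloc_all` : the same for all `c` at once (shape of `hVloc` in STB / UNIP).
* `s36n2l_sep_mul`   : separating elements from elements vanishing on exactly one component.
-/

set_option autoImplicit false
set_option linter.unusedSectionVars false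
set_option linter.unusedVariables false
set_option linter.style.haveILetI false

namespace Fermat.Agent.S36

open Polynomial IntermediateField Fermat.Agent.INJ AlgebraicCurve Fermat.Agent.UNIP

section Val

variable {F : Type*} [Field F]

theorem s36n2l_val_eq_one (W : ValuationSubring F) {a : F} (ha : a ∈ W)
    (ha' : a ∉ W.nonunits) : W.valuation a = 1 := by
  rw [ValuationSubring.mem_nonunits_iff, not_lt] at ha'
  exact le_antisymm ((W.valuation_le_one_iff a).mpr ha) ha'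

theorem s36n2l_not_mem_nonunits_of_val (W : ValuationSubring F) {a : F}
    (ha : W.valuation a = 1) : a ∉ W.nonunits := by
  rw [ValuationSubring.mem_nonunits_iff, ha]
  exact lt_irrefl _

theorem s36n2l_not_mem_nonunits_mul (W : ValuationSubring F) {a b : F} (ha : a ∈ W)
    (ha' : a ∉ W.nonunits) (hb : b ∈ W) (hb' : b ∉ W.nonunits) : a * b ∉ W.nonunits := by
  apply s36n2l_not_mem_nonunits_of_val
  rw [map_mul, s36n2l_val_eq_one W ha ha', s36n2l_val_eq_one W hb hb', one_mul]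

theorem s36n2l_not_mem_nonunits_pow (W : ValuationSubring F) {a : F} (ha : a ∈ W)
    (ha' : a ∉ W.nonunits) (n : ℕ) : a ^ n ∉ W.nonunits := by
  apply s36n2l_not_mem_nonunits_of_val
  rw [map_pow, s36n2l_val_eq_one W ha ha', one_pow]

theorem s36n2l_mul_mem_nonunits_left (W : ValuationSubring F) {a b : F} (ha : a ∈ W.nonunits)
    (hb : b ∈ W) : a * b ∈ W.nonunits := by
  rw [ValuationSubring.mem_nonunits_iff] at ha ⊢
  rw [map_mul]
  exact mul_lt_one_of_nonneg_of_lt_one_left zero_le ha ((W.valuation_le_one_iff b).mpr hb)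

theorem s36n2l_mul_mem_nonunits_right (W : ValuationSubring F) {a b : F} (ha : a ∈ W)
    (hb : b ∈ W.nonunits) : a * b ∈ W.nonunits := by
  rw [mul_comm]
  exact s36n2l_mul_mem_nonunits_left W hb ha

end Val

section Abstract

variable {A₀ E F : Type*} [CommRing A₀] [IsDomain A₀] [IsDiscreteValuationRing A₀]
  [Field E] [Algebra A₀ E] [IsFractionRing A₀ E] [CharZero E]
  [Field F] [Algebra E F] [Algebra A₀ F] [IsScalarTower A₀ E F]
  {π : A₀} {u : F} {κ : Type*}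

/-- A uniform exponent: `z ^ N · x ∈ V c'` for all `c'`, if `z ∈ 𝔪(V c')` for `c' ≠ c` and
`z, x ∈ V c`. -/
theorem s36n2l_exists_pow_mul_mem [Finite κ] (V : κ → ValuationSubring F)
    (harch : ∀ c (a x : F), a ∈ (V c).nonunits → ∃ N : ℕ, a ^ N * x ∈ (V c).nonunits)
    (c : κ) {z : F} (hzV : ∀ c', z ∈ V c')
    (hz : ∀ c', c' ≠ c → z ∈ (V c').nonunits) {x : F} (hx : x ∈ V c) :
    ∃ N : ℕ, ∀ c', z ^ N * x ∈ V c' := by
  classical
  haveI := Fintype.ofFinite κ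
  have h : ∀ c', ∃ N : ℕ, c' ≠ c → z ^ N * x ∈ (V c').nonunits := by
    intro c'
    by_cases hc : c' = c
    · exact ⟨0, fun h => absurd hc h⟩
    · obtain ⟨N, hN⟩ := harch c' z x (hz c' hc)
      exact ⟨N, fun _ => hN⟩
  choose N hN using h
  refine ⟨∑ c', N c', fun c' => ?_⟩
  by_cases hc : c' = c
  · subst hc
    exact (V c').mul_mem _ _ ((V c').pow_mem (hzV c') _) hx
  · have hle : N c' ≤ ∑ c'', N c'' :=
      Finset.single_le_sum (f := N) (fun _ _ => Nat.zero_le _) (Finset.mem_univ c')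
    obtain ⟨d, hd⟩ := Nat.exists_eq_add_of_le hle
    have e : z ^ (∑ c'', N c'') * x = z ^ d * (z ^ N c' * x) := by
      rw [hd, pow_add]
      ring
    rw [e]
    exact (V c').mul_mem _ _ ((V c').pow_mem (hzV c') _) ((V c').nonunits_subset (hN c' hc))

/-- **hVloc at one component, abstract.**  From (KR), the archimedean property, units
`hprim` and a separating element `hz`. -/
theorem s36n2l_hVloc_abs [Finite κ] (hu : Transcendental E u) (hπ : Irreducible π)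
    [FiniteDimensional E⟮u⟯ F] (V : κ → ValuationSubring F)
    (hBV : ∀ c (b : F), IsIntegral ↥(Algebra.adjoin A₀ {u}) b → b ∈ V c)
    (hKR : ∀ x : F, IsIntegral ↥(Algebra.adjoin A₀ {u}) (algebraMap A₀ F π * x) →
      (∀ c, x ∈ V c) → IsIntegral ↥(Algebra.adjoin A₀ {u}) x)
    (harch : ∀ c (a x : F), a ∈ (V c).nonunits → ∃ N : ℕ, a ^ N * x ∈ (V c).nonunits)
    (c : κ) (hprim : ∀ s : F, EIPrimeTo π u s → s ∉ (V c).nonunits)
    (hz : ∃ z : F, IsIntegral ↥(Algebra.adjoin A₀ {u}) z ∧ z ∉ (V c).nonunits ∧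
      ∀ c', c' ≠ c → z ∈ (V c').nonunits)
    (x : F) (hx : x ∈ V c) :
    ∃ b s : F, IsIntegral ↥(Algebra.adjoin A₀ {u}) b ∧
      IsIntegral ↥(Algebra.adjoin A₀ {u}) s ∧ s ∉ (V c).nonunits ∧ s * x = b := by
  obtain ⟨k, s₁, hs₁, hint⟩ := ad_exists_primeTo_pow_mul_isIntegral (E := E) hu hπ x
  have hs₁int : IsIntegral ↥(Algebra.adjoin A₀ {u}) s₁ :=
    isIntegral_algebraMap (R := ↥(Algebra.adjoin A₀ {u})) (x := ⟨s₁, hs₁.1⟩)
  obtain ⟨z, hzint, hzc, hzc'⟩ := hz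
  have hzV : ∀ c', z ∈ V c' := fun c' => hBV c' z hzint
  have hs₁V : s₁ ∈ V c := hBV c s₁ hs₁int
  have hx' : s₁ * x ∈ V c := (V c).mul_mem _ _ hs₁V hx
  obtain ⟨N, hN⟩ := s36n2l_exists_pow_mul_mem V harch c hzV hzc' hx'
  have hb : IsIntegral ↥(Algebra.adjoin A₀ {u}) (z ^ N * (s₁ * x)) := by
    refine aq_KR_pow V hBV hKR hN k ?_
    have e : algebraMap A₀ F π ^ k * (z ^ N * (s₁ * x))
        = z ^ N * (algebraMap A₀ F π ^ k * s₁ * x) := by ring
    rw [e]
    exact (hzint.pow N).mul hint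
  refine ⟨z ^ N * (s₁ * x), z ^ N * s₁, hb, (hzint.pow N).mul hs₁int, ?_, by ring⟩
  exact s36n2l_not_mem_nonunits_mul _ ((V c).pow_mem (hzV c) N)
    (s36n2l_not_mem_nonunits_pow _ (hzV c) hzc N) hs₁V (hprim s₁ hs₁)

/-- **hVloc, abstract, all components** (the shape of `hVloc` in STB / UNIP). -/
theorem s36n2l_hVloc_all [Finite κ] (hu : Transcendental E u) (hπ : Irreducible π)
    [FiniteDimensional E⟮u⟯ F] (V : κ → ValuationSubring F)
    (hBV : ∀ c (b : F), IsIntegral ↥(Algebra.adjoin A₀ {u}) b → b ∈ V c)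
    (hKR : ∀ x : F, IsIntegral ↥(Algebra.adjoin A₀ {u}) (algebraMap A₀ F π * x) →
      (∀ c, x ∈ V c) → IsIntegral ↥(Algebra.adjoin A₀ {u}) x)
    (harch : ∀ c (a x : F), a ∈ (V c).nonunits → ∃ N : ℕ, a ^ N * x ∈ (V c).nonunits)
    (hprim : ∀ c (s : F), EIPrimeTo π u s → s ∉ (V c).nonunits)
    (hz : ∀ c, ∃ z : F, IsIntegral ↥(Algebra.adjoin A₀ {u}) z ∧ z ∉ (V c).nonunits ∧
      ∀ c', c' ≠ c → z ∈ (V c').nonunits) :
    ∀ c (x : F), x ∈ V c → ∃ b s : F, IsIntegral ↥(Algebra.adjoin A₀ {u}) b ∧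
      IsIntegral ↥(Algebra.adjoin A₀ {u}) s ∧ s ∉ (V c).nonunits ∧ s * x = b :=
  fun c x hx => s36n2l_hVloc_abs hu hπ V hBV hKR harch c (hprim c) (hz c) x hx

/-- Separating elements from elements vanishing on exactly one component:
if `y c' ∈ B_u` lies in `𝔪(V c')` and in no other `𝔪(V c)`, then `z_c := ∏_{c' ≠ c} y c'`
separates `c` from the other components. -/
theorem s36n2l_sep_prod [Finite κ] (V : κ → ValuationSubring F)
    (hBV : ∀ c (b : F), IsIntegral ↥(Algebra.adjoin A₀ {u}) b → b ∈ V c)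
    (y : κ → F) (hy : ∀ c, IsIntegral ↥(Algebra.adjoin A₀ {u}) (y c))
    (hyin : ∀ c, y c ∈ (V c).nonunits)
    (hyout : ∀ c c', c' ≠ c → y c' ∉ (V c).nonunits) (c : κ) :
    ∃ z : F, IsIntegral ↥(Algebra.adjoin A₀ {u}) z ∧ z ∉ (V c).nonunits ∧
      ∀ c', c' ≠ c → z ∈ (V c').nonunits := by
  classical
  haveI := Fintype.ofFinite κ
  refine ⟨∏ c' ∈ Finset.univ.erase c, y c', IsIntegral.prod _ fun c' _ => hy c', ?_, ?_⟩
  · apply s36n2l_not_mem_nonunits_of_val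
    rw [map_prod]
    refine Finset.prod_eq_one fun c' hc' => ?_
    exact s36n2l_val_eq_one _ (hBV c _ (hy c')) (hyout c c' (Finset.ne_of_mem_erase hc'))
  · intro c' hc'
    have hmem : c' ∈ Finset.univ.erase c := Finset.mem_erase.mpr ⟨hc', Finset.mem_univ _⟩
    rw [← Finset.mul_prod_erase _ _ hmem]
    refine s36n2l_mul_mem_nonunits_left _ (hyin c') ?_
    exact hBV c' _ (IsIntegral.prod _ fun c'' _ => hy c'')

end Abstract

end Fermat.Agent.S36


end ZBS36_032_0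

/-! ### bundled: `Fermat.Agent.S36.N2LocElts` -/
section ZBS36_032_1
/-
S36 (Carayol at `q² ∥ M`), geometry, piece N2-loc (helper91), CONCRETE part 1:
the three generators `j`, `j_q = j(Q^q)`, `j_qq = j(Q^{q²})` of `F = F_{M q²}(E)`, the elements

  `y_a = j_qq − j_q ^ q`,   `y_b = j − j_q ^ q`,   `y_c = j_qq − j`

of the chart `B_j` and their membership in the maximal ideals of the vertical valuation rings,
read off from the expansions:

* type (a) (expansion at `∞`):           `j ↦ J`,        `j_q ↦ J(Q^q)`, `j_qq ↦ J(Q^{q²})`;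
* type (b) (expansion at `0`, `∘ w_{q²}`): `j ↦ J(Q^{q²})`, `j_q ↦ J(Q^q)`, `j_qq ↦ J`;
* type (c) (middle cusp, `μ_ζ`):          `j ↦ J`,        `j_q ↦ J(Q^q)`, `j_qq ↦ J(ζ Q)`.

Modulo the uniformizer (`J(Q^q) ≡ J^q`, `ζ ≡ 1`) each `y_•` vanishes on exactly one component.
-/

set_option autoImplicit false
set_option linter.unusedSectionVars false
set_option linter.unusedVariables false
set_option linter.style.haveILetI false

noncomputable section

namespace Fermat.Agent.S36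

open ModularCurve Polynomial IntermediateField Fermat.Agent.INJ Fermat.Agent.UNIP
open Fermat.Agent.AL Fermat.Agent.ES Fermat.Agent.S28

/-! ### membership in the maximal ideal from the expansion -/

section Mem

variable {A E k : Type*} [CommRing A] [Field E] [Field k]
  {ι : A →+* E} {r : A →+* k} {π : A} {F : Type*} [Field F]
  (hB : VtBase ι r π) (e : F →+* LaurentSeries E) (hfrac : ∀ x : F, VtFrac ι (e x))

/-- an element whose expansion is a series over `A` lies in `𝔪(V)` iff the series reduces to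
`0`. -/
theorem s36n2l_mem_nonunits_iff_coeffMap {x : F} {T : LaurentSeries A}
    (hx : e x = coeffMap ι T) :
    x ∈ (vtSub hB e hfrac).nonunits ↔ coeffMap r T = 0 := by
  constructor
  · intro h
    by_contra hne
    have h1 := vtSub_valuation_eq_one_of_eq_coeffMap hB e hfrac hx hne
    rw [ValuationSubring.mem_nonunits_iff, h1] at h
    exact lt_irrefl _ h
  · intro h0
    rw [vtSub_mem_nonunits_iff]
    have hmem : e x ∈ gaussRing ι r := by
      rw [hx]
      exact coeffMap_mem_gaussRing ι r T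
    refine ⟨hmem, ?_⟩
    rw [gaussRed_eq_zero_iff r hB.inj ⟨e x, hmem⟩ T 1 (by rw [map_one]; exact one_ne_zero)
      (by rw [map_one, one_mul]; exact hx)]
    exact h0

theorem s36n2l_mem_of_coeffMap {x : F} {T : LaurentSeries A} (hx : e x = coeffMap ι T) :
    x ∈ vtSub hB e hfrac := by
  rw [mem_vtSub, hx]
  exact coeffMap_mem_gaussRing ι r T

end Mem

/-! ### the series -/

section Series

variable (k : Type*) [Field k] (q : ℕ) [NeZero q] [hq : Fact q.Prime] [CharP k q]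

theorem s36n2l_red_q : qExpand k q (jqModC k) = jqModC k ^ q :=
  nodesFrobU_hT_j k q

theorem s36n2l_red_qq : qExpand k q (qExpand k q (jqModC k)) = (jqModC k ^ q) ^ q := by
  rw [s36n2l_red_q, map_pow, s36n2l_red_q]

theorem s36n2l_red_ne : (jqModC k ^ q) ^ q ≠ jqModC k :=
  nodesFrobU_hne_j k hq.out.two_le

end Series

/-! ### the elements -/

section Elts

variable (E : Type*) [Field E] (M q : ℕ) [NeZero M] [NeZero q] [NeZero (M * q)]
  [NeZero (M * q * q)]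

/-- `j` -/
def s36n2lJ : modularFunctionFieldFullC E (M * q * q) :=
  ⟨jqModC E, jqModC_mem_full E (M * q * q)⟩

/-- `j(Q^q)` -/
def s36n2lJq : modularFunctionFieldFullC E (M * q * q) :=
  ⟨qExpand E q (jqModC E), alq_mem_of_mem_lower E (al_qExpand_mem E (jqModC_mem_full E M))⟩

/-- `j(Q^{q²})` -/
def s36n2lJqq : modularFunctionFieldFullC E (M * q * q) :=
  ⟨qExpand E q (qExpand E q (jqModC E)),
    alq_qExpand_mem E (al_qExpand_mem E (jqModC_mem_full E M))⟩

theorem s36n2lJ_eq_bgJ : s36n2lJ E M q = bgJ E (M * q * q) := rfl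

@[simp] theorem s36n2lJ_coe : ((s36n2lJ E M q : modularFunctionFieldFullC E (M * q * q)) :
    LaurentSeries E) = jqModC E := rfl

@[simp] theorem s36n2lJq_coe : ((s36n2lJq E M q : modularFunctionFieldFullC E (M * q * q)) :
    LaurentSeries E) = qExpand E q (jqModC E) := rfl

@[simp] theorem s36n2lJqq_coe : ((s36n2lJqq E M q : modularFunctionFieldFullC E (M * q * q)) :
    LaurentSeries E) = qExpand E q (qExpand E q (jqModC E)) := rfl

/-- `y_a = j_qq − j_q ^ q` -/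
def s36n2lYa : modularFunctionFieldFullC E (M * q * q) :=
  s36n2lJqq E M q - s36n2lJq E M q ^ q

/-- `y_b = j − j_q ^ q` -/
def s36n2lYb : modularFunctionFieldFullC E (M * q * q) :=
  s36n2lJ E M q - s36n2lJq E M q ^ q

/-- `y_c = j_qq − j` -/
def s36n2lYc : modularFunctionFieldFullC E (M * q * q) :=
  s36n2lJqq E M q - s36n2lJ E M q

end Elts

/-! ### integrality over the chart `j` -/

section IntAbs

/-- two-step integrality from a monic two-variable relation over `ℤ` -/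
theorem s36n2l_isIntegral_trans_phi {A S : Type*} [CommRing A] [CommRing S] [Algebra A S]
    {Φ : Polynomial (Polynomial ℤ)} (hΦ : Φ.Monic) {x y z : S}
    (h1 : Φ.eval₂ (evalInt x) y = 0) (h2 : Φ.eval₂ (evalInt y) z = 0) :
    IsIntegral (Algebra.adjoin A {x}) z := by
  have hy : IsIntegral (Algebra.adjoin A {x}) y :=
    nodesSwap_isIntegral_of_evalInt (A := A) hΦ h1
  have hz : IsIntegral (Algebra.adjoin (Algebra.adjoin A {x}) {y}) z :=
    nodesSwap_isIntegral_of_evalInt (A := Algebra.adjoin A {x}) hΦ h2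
  haveI : Algebra.IsIntegral (Algebra.adjoin A {x})
      (Algebra.adjoin (Algebra.adjoin A {x}) {y}) :=
    Algebra.IsIntegral.adjoin (by
      intro w hw
      rw [Set.mem_singleton_iff] at hw
      rw [hw]
      exact hy)
  exact isIntegral_trans (A := Algebra.adjoin (Algebra.adjoin A {x}) {y}) z hz

end IntAbs

section Int

variable {A E : Type*} [CommRing A] [Field E] {M q : ℕ} [NeZero M] [NeZero q] [NeZero (M * q)]
  [NeZero (M * q * q)] [Algebra A (modularFunctionFieldFullC E (M * q * q))]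

theorem s36n2l_isIntegral_J :
    IsIntegral (Algebra.adjoin A {s36n2lJ E M q}) (s36n2lJ E M q) :=
  isIntegral_algebraMap (R := Algebra.adjoin A {s36n2lJ E M q})
    (x := ⟨s36n2lJ E M q, Algebra.subset_adjoin rfl⟩)

theorem s36n2l_phi_Jq (hq : q.Prime) :
    (nodesSwapPhi q hq).eval₂ (evalInt (s36n2lJ E M q)) (s36n2lJq E M q) = 0 := by
  apply (modularFunctionFieldFullC E (M * q * q)).val.toRingHom.injective
  rw [map_eval₂_evalInt, map_zero]
  exact nodesSwapPhi_series q hq E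

theorem s36n2l_phi_Jqq (hq : q.Prime) :
    (nodesSwapPhi q hq).eval₂ (evalInt (s36n2lJq E M q)) (s36n2lJqq E M q) = 0 := by
  apply (modularFunctionFieldFullC E (M * q * q)).val.toRingHom.injective
  rw [map_eval₂_evalInt, map_zero]
  have h := congrArg (qExpand E q) (nodesSwapPhi_series q hq E)
  rw [map_eval₂_evalInt, map_zero] at h
  exact h

theorem s36n2l_isIntegral_Jq (hq : q.Prime) :
    IsIntegral (Algebra.adjoin A {s36n2lJ E M q}) (s36n2lJq E M q) :=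
  nodesSwap_isIntegral_of_evalInt (A := A) (nodesSwapPhi_monic q hq) (s36n2l_phi_Jq hq)

theorem s36n2l_isIntegral_Jqq (hq : q.Prime) :
    IsIntegral (Algebra.adjoin A {s36n2lJ E M q}) (s36n2lJqq E M q) :=
  s36n2l_isIntegral_trans_phi (A := A) (nodesSwapPhi_monic q hq) (s36n2l_phi_Jq hq)
    (s36n2l_phi_Jqq hq)

theorem s36n2l_isIntegral_Ya (hq : q.Prime) :
    IsIntegral (Algebra.adjoin A {s36n2lJ E M q}) (s36n2lYa E M q) := by
  have h1 : IsIntegral (Algebra.adjoin A {s36n2lJ E M q}) (s36n2lJqq E M q) :=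
    s36n2l_isIntegral_Jqq hq
  have h2 : IsIntegral (Algebra.adjoin A {s36n2lJ E M q}) (s36n2lJq E M q) :=
    s36n2l_isIntegral_Jq hq
  have h3 : IsIntegral (Algebra.adjoin A {s36n2lJ E M q}) (s36n2lJq E M q ^ q) :=
    IsIntegral.pow h2 q
  exact IsIntegral.sub h1 h3

theorem s36n2l_isIntegral_Yb (hq : q.Prime) :
    IsIntegral (Algebra.adjoin A {s36n2lJ E M q}) (s36n2lYb E M q) := by
  have h1 : IsIntegral (Algebra.adjoin A {s36n2lJ E M q}) (s36n2lJ E M q) :=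
    s36n2l_isIntegral_J
  have h2 : IsIntegral (Algebra.adjoin A {s36n2lJ E M q}) (s36n2lJq E M q) :=
    s36n2l_isIntegral_Jq hq
  have h3 : IsIntegral (Algebra.adjoin A {s36n2lJ E M q}) (s36n2lJq E M q ^ q) :=
    IsIntegral.pow h2 q
  exact IsIntegral.sub h1 h3

theorem s36n2l_isIntegral_Yc (hq : q.Prime) :
    IsIntegral (Algebra.adjoin A {s36n2lJ E M q}) (s36n2lYc E M q) := by
  have h1 : IsIntegral (Algebra.adjoin A {s36n2lJ E M q}) (s36n2lJqq E M q) :=
    s36n2l_isIntegral_Jqq hq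
  have h2 : IsIntegral (Algebra.adjoin A {s36n2lJ E M q}) (s36n2lJ E M q) :=
    s36n2l_isIntegral_J
  exact IsIntegral.sub h1 h2

end Int

/-! ### the table -/

section Table

variable {A E₀ E k : Type*} [CommRing A] [Field E₀] [Field E] [Field k]
  {ι : A →+* E} {r : A →+* k} {π : A} {M q : ℕ} [NeZero M] [NeZero q] [NeZero (M * q)]
  [NeZero (M * q * q)]
  (hB : VtBase ι r π) (e : modularFunctionFieldFullC E₀ (M * q * q) →+* LaurentSeries E)
  (hfrac : ∀ x : modularFunctionFieldFullC E₀ (M * q * q), VtFrac ι (e x))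

/-- the membership of `y_a`, `y_b`, `y_c` in `𝔪(V)` in terms of the reductions of the
expansions of `j`, `j_q`, `j_qq`. -/
theorem s36n2l_table {T₀ T₁ T₂ : LaurentSeries A}
    (h₀ : e (s36n2lJ E₀ M q) = coeffMap ι T₀) (h₁ : e (s36n2lJq E₀ M q) = coeffMap ι T₁)
    (h₂ : e (s36n2lJqq E₀ M q) = coeffMap ι T₂) :
    (s36n2lYa E₀ M q ∈ (vtSub hB e hfrac).nonunits ↔ coeffMap r T₂ = coeffMap r T₁ ^ q) ∧
    (s36n2lYb E₀ M q ∈ (vtSub hB e hfrac).nonunits ↔ coeffMap r T₀ = coeffMap r T₁ ^ q) ∧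
    (s36n2lYc E₀ M q ∈ (vtSub hB e hfrac).nonunits ↔ coeffMap r T₂ = coeffMap r T₀) := by
  have ea : e (s36n2lYa E₀ M q) = coeffMap ι (T₂ - T₁ ^ q) := by
    rw [s36n2lYa, map_sub, map_pow, h₁, h₂, map_sub, map_pow]
  have eb : e (s36n2lYb E₀ M q) = coeffMap ι (T₀ - T₁ ^ q) := by
    rw [s36n2lYb, map_sub, map_pow, h₀, h₁, map_sub, map_pow]
  have ec : e (s36n2lYc E₀ M q) = coeffMap ι (T₂ - T₀) := by
    rw [s36n2lYc, map_sub, h₀, h₂, map_sub]
  refine ⟨?_, ?_, ?_⟩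
  · rw [s36n2l_mem_nonunits_iff_coeffMap hB e hfrac ea, map_sub, map_pow, sub_eq_zero]
  · rw [s36n2l_mem_nonunits_iff_coeffMap hB e hfrac eb, map_sub, map_pow, sub_eq_zero]
  · rw [s36n2l_mem_nonunits_iff_coeffMap hB e hfrac ec, map_sub, sub_eq_zero]

variable [hqF : Fact q.Prime] [CharP k q]

/-- **type (a)**: expansion at `∞`. -/
theorem s36n2l_pattern_a (h₀ : e (s36n2lJ E₀ M q) = jqModC E)
    (h₁ : e (s36n2lJq E₀ M q) = qExpand E q (jqModC E))
    (h₂ : e (s36n2lJqq E₀ M q) = qExpand E q (qExpand E q (jqModC E))) :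
    s36n2lYa E₀ M q ∈ (vtSub hB e hfrac).nonunits ∧
      s36n2lYb E₀ M q ∉ (vtSub hB e hfrac).nonunits ∧
      s36n2lYc E₀ M q ∉ (vtSub hB e hfrac).nonunits := by
  obtain ⟨ha, hb, hc⟩ := s36n2l_table hB e hfrac (T₀ := jqModC A)
    (T₁ := qExpand A q (jqModC A)) (T₂ := qExpand A q (qExpand A q (jqModC A)))
    (by rw [h₀, coeffMap_jqModC])
    (by rw [h₁, coeffMap_qExpand, coeffMap_jqModC])
    (by rw [h₂, coeffMap_qExpand, coeffMap_qExpand, coeffMap_jqModC])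
  simp only [coeffMap_qExpand, coeffMap_jqModC, s36n2l_red_q k q, map_pow] at ha hb hc
  refine ⟨ha.mpr trivial, fun h => ?_, fun h => ?_⟩
  · exact s36n2l_red_ne k q (hb.mp h).symm
  · exact s36n2l_red_ne k q (hc.mp h)

/-- **type (b)**: expansion at `0` (composition with `w_{q²}`). -/
theorem s36n2l_pattern_b (h₀ : e (s36n2lJ E₀ M q) = qExpand E q (qExpand E q (jqModC E)))
    (h₁ : e (s36n2lJq E₀ M q) = qExpand E q (jqModC E))
    (h₂ : e (s36n2lJqq E₀ M q) = jqModC E) :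
    s36n2lYa E₀ M q ∉ (vtSub hB e hfrac).nonunits ∧
      s36n2lYb E₀ M q ∈ (vtSub hB e hfrac).nonunits ∧
      s36n2lYc E₀ M q ∉ (vtSub hB e hfrac).nonunits := by
  obtain ⟨ha, hb, hc⟩ := s36n2l_table hB e hfrac
    (T₀ := qExpand A q (qExpand A q (jqModC A)))
    (T₁ := qExpand A q (jqModC A)) (T₂ := jqModC A)
    (by rw [h₀, coeffMap_qExpand, coeffMap_qExpand, coeffMap_jqModC])
    (by rw [h₁, coeffMap_qExpand, coeffMap_jqModC])
    (by rw [h₂, coeffMap_jqModC])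
  simp only [coeffMap_qExpand, coeffMap_jqModC, s36n2l_red_q k q, map_pow] at ha hb hc
  refine ⟨fun h => ?_, hb.mpr trivial, fun h => ?_⟩
  · exact s36n2l_red_ne k q (ha.mp h).symm
  · exact s36n2l_red_ne k q (hc.mp h).symm

/-- **type (c)**: expansion at the middle cusp (`j_qq ↦ j(ζ Q)`, `ζ ≡ 1`). -/
theorem s36n2l_pattern_c (z : Aˣ) (hz : r z = 1) (h₀ : e (s36n2lJ E₀ M q) = jqModC E)
    (h₁ : e (s36n2lJq E₀ M q) = qExpand E q (jqModC E))
    (h₂ : e (s36n2lJqq E₀ M q) = kronRot (Units.map (ι : A →* E) z) (jqModC E)) :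
    s36n2lYa E₀ M q ∉ (vtSub hB e hfrac).nonunits ∧
      s36n2lYb E₀ M q ∉ (vtSub hB e hfrac).nonunits ∧
      s36n2lYc E₀ M q ∈ (vtSub hB e hfrac).nonunits := by
  have hz1 : Units.map (r : A →* k) z = 1 := Units.ext hz
  obtain ⟨ha, hb, hc⟩ := s36n2l_table hB e hfrac (T₀ := jqModC A)
    (T₁ := qExpand A q (jqModC A)) (T₂ := kronRot z (jqModC A))
    (by rw [h₀, coeffMap_jqModC])
    (by rw [h₁, coeffMap_qExpand, coeffMap_jqModC])
    (by rw [h₂, coeffMap_kronRot, coeffMap_jqModC])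
  simp only [coeffMap_qExpand, coeffMap_jqModC, coeffMap_kronRot, hz1, kronRot_one,
    s36n2l_red_q k q] at ha hb hc
  refine ⟨fun h => ?_, fun h => ?_, hc.mpr trivial⟩
  · exact s36n2l_red_ne k q (ha.mp h).symm
  · exact s36n2l_red_ne k q (hb.mp h).symm

end Table

end Fermat.Agent.S36

end
end ZBS36_032_1

/-! ### bundled: `Fermat.Agent.S36.N2LocMain` -/
section ZBS36_032_2
/-
S36 (Carayol at `q² ∥ M`), geometry, piece N2-loc (helper91), CONCRETE part 2:
`hVloc₁`, `hVloc₂` for the family `V = s36n2V … : S36Comp → ValuationSubring F_{M q²}(E)` of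
`S36/N2Val.lean` (helper93).

* `s36n2l_prim_of_red`  : abstract — primitive polynomials in `u` are units of a valuation ring
  `V` with a reduction map `ρ : V → K` such that `ρ u` is transcendental over the residue field;
* `s36n2l_hz_inv`       : abstract — separating elements on the chart `t⁻¹` from separating
  elements on the chart `t`, when `t` is a unit of all `V c`;
* `s36n2l_embA_J`, … : the expansions of `j`, `j_q`, `j_qq` at the three embeddings;
* `s36n2l_Y_in`, `s36n2l_Y_out` : `y_c ∈ 𝔪(V c)`, `y_{c'} ∉ 𝔪(V c)` (`c' ≠ c`);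
* `s36n2l_J_val`        : `j` is a unit of the three `V c`;
* `s36n2l_hprim₁`, `s36n2l_hprim₂`, `s36n2l_hz₁`, `s36n2l_hz₂`, `s36n2l_hBV₁`, `s36n2l_hBV₂`,
  `s36n2l_harch`;
* **`s36n2l_hVloc₁`**, **`s36n2l_hVloc₂`** : from (KR) on the chart `j`.
-/

set_option autoImplicit false
set_option linter.unusedSectionVars false
set_option linter.unusedVariables false
set_option linter.style.haveILetI false

noncomputable section

namespace Fermat.Agent.S36

open ModularCurve Polynomial IntermediateField Fermat.Agent.INJ Fermat.Agent.UNIP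
open Fermat.Agent.AL Fermat.Agent.ES Fermat.Agent.S28

/-! ### A. primitive polynomials are units (abstract) -/

section PrimAbs

variable {A k K F : Type*} [CommRing A] [Field k] [Field K] [Field F] [Algebra A F]
  {r : A →+* k} {π : A}

/-- **Primitive polynomials in `u` are units of `V`** if `V` has a reduction map `ρ : V → K`,
compatible with `r : A → k` on the constants, such that `ρ u` is transcendental over `k`. -/
theorem s36n2l_prim_of_red (hker : ∀ a : A, r a = 0 → π ∣ a)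
    (V : ValuationSubring F) (ρ : ↥V →+* K)
    (hρ : ∀ x : ↥V, (x : F) ∈ V.nonunits → ρ x = 0)
    (c : k →+* K) (hAV : ∀ a : A, algebraMap A F a ∈ V)
    (hconst : ∀ a : A, ρ ⟨algebraMap A F a, hAV a⟩ = c (r a))
    {u : F} (hu : u ∈ V) (htr : ∀ P : k[X], P.eval₂ c (ρ ⟨u, hu⟩) = 0 → P = 0)
    {s : F} (hs : EIPrimeTo π u s) : s ∉ V.nonunits := by
  obtain ⟨hmem, hnd⟩ := hs
  rw [Algebra.adjoin_singleton_eq_range_aeval] at hmem
  obtain ⟨P, rfl⟩ := hmem
  have hP : P.map r ≠ 0 := by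
    intro h0
    have hdvd : ∀ i, π ∣ P.coeff i := fun i => hker _ (by
      have := congrArg (fun Q : Polynomial k => Q.coeff i) h0
      simpa [Polynomial.coeff_map] using this)
    obtain ⟨P', hP'⟩ := (Polynomial.C_dvd_iff_dvd_coeff π P).mpr hdvd
    apply hnd (Polynomial.aeval u P')
      (by rw [Algebra.adjoin_singleton_eq_range_aeval]; exact ⟨P', rfl⟩)
    show Polynomial.aeval u P = algebraMap A F π * Polynomial.aeval u P'
    rw [hP', map_mul, Polynomial.aeval_C]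
  intro hsV
  set g : A →+* ↥V := (algebraMap A F).codRestrict V.toSubring hAV with hg
  have hval : ((P.eval₂ g ⟨u, hu⟩ : ↥V) : F) = Polynomial.aeval u P := by
    rw [Polynomial.aeval_def]
    exact Polynomial.hom_eval₂ P g V.subtype ⟨u, hu⟩
  have h0 : ρ (P.eval₂ g ⟨u, hu⟩) = 0 := hρ _ (by rw [hval]; exact hsV)
  rw [Polynomial.hom_eval₂] at h0
  have hcomp : ρ.comp g = c.comp r := RingHom.ext hconst
  rw [hcomp, ← Polynomial.eval₂_map] at h0
  exact hP (htr _ h0)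

/-- transcendence over a subfield of the coefficients, `eval₂` form -/
theorem s36n2l_htr {k k' : Type*} [Field k] [Field k'] (κ : k →+* k')
    {x : LaurentSeries k'} (hx : Transcendental k' x) (P : k[X])
    (h : P.eval₂ ((HahnSeries.C : k' →+* LaurentSeries k').comp κ) x = 0) : P = 0 := by
  rw [← Polynomial.eval₂_map] at h
  have e1 : (algebraMap k' (LaurentSeries k')) = (HahnSeries.C : k' →+* LaurentSeries k') := by
    ext a : 1
    rw [HahnSeries.C_apply]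
    exact algebraMap_laurentSeries_eq_single k' a
  have h1 : Polynomial.aeval x (P.map κ) = 0 := by
    rw [Polynomial.aeval_def, e1]
    exact h
  have h2 : P.map κ = 0 := transcendental_iff.mp hx _ h1
  exact Polynomial.map_injective κ κ.injective (by rw [h2, Polynomial.map_zero])

end PrimAbs

/-! ### B. the chart `t⁻¹` (abstract) -/

section InvAbs

variable {A F : Type*} [CommRing A] [Field F] [Algebra A F] {κ : Type*}

theorem s36n2l_exists_pow_inv_mul_isIntegral {t : F} (ht0 : t ≠ 0) {x : F}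
    (hx : IsIntegral (Algebra.adjoin A {t}) x) :
    ∃ s : ℕ, IsIntegral (Algebra.adjoin A {t⁻¹}) ((t⁻¹) ^ s * x) := by
  have hle : Algebra.adjoin A {t} ≤ Algebra.adjoin A {t⁻¹, t} :=
    Algebra.adjoin_mono (by intro y hy; right; exact hy)
  exact zch_exists_pow_mul_isIntegral (A₀ := A) (u := t⁻¹) (u' := t)
    (inv_mul_cancel₀ ht0) (zch_isIntegral_mono hle hx)

/-- separating elements on the chart `t⁻¹` from separating elements on the chart `t` -/
theorem s36n2l_hz_inv {t : F} (ht0 : t ≠ 0) (V : κ → ValuationSubring F)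
    (hval : ∀ c, (V c).valuation t = 1)
    (hz : ∀ c, ∃ z : F, IsIntegral ↥(Algebra.adjoin A {t}) z ∧ z ∉ (V c).nonunits ∧
      ∀ c', c' ≠ c → z ∈ (V c').nonunits) :
    ∀ c, ∃ z : F, IsIntegral ↥(Algebra.adjoin A {t⁻¹}) z ∧ z ∉ (V c).nonunits ∧
      ∀ c', c' ≠ c → z ∈ (V c').nonunits := by
  intro c
  obtain ⟨z, hzint, hzc, hzc'⟩ := hz c
  obtain ⟨s, hs⟩ := s36n2l_exists_pow_inv_mul_isIntegral (A := A) ht0 hzint
  have hv : ∀ c', (V c').valuation ((t⁻¹) ^ s * z) = (V c').valuation z := by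
    intro c'
    rw [map_mul, map_pow, map_inv₀, hval c', inv_one, one_pow, one_mul]
  refine ⟨(t⁻¹) ^ s * z, hs, ?_, fun c' hc' => ?_⟩
  · rw [ValuationSubring.mem_nonunits_iff, hv]
    rw [ValuationSubring.mem_nonunits_iff] at hzc
    exact hzc
  · rw [ValuationSubring.mem_nonunits_iff, hv]
    exact (ValuationSubring.mem_nonunits_iff _).mp (hzc' c' hc')

/-- elements integral over `A[t]`, `A, t ⊆ V`, are in `V` -/
theorem s36n2l_mem_of_isIntegral (V : ValuationSubring F)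
    (hAV : ∀ a : A, algebraMap A F a ∈ V) {t : F} (ht : t ∈ V) {x : F}
    (hx : IsIntegral ↥(Algebra.adjoin A ({t} : Set F)) x) : x ∈ V := by
  refine vt_mem_of_isIntegral V (fun y => ?_) hx
  show ((y : Algebra.adjoin A ({t} : Set F)) : F) ∈ V
  obtain ⟨y, hy⟩ := y
  show y ∈ V
  induction hy using Algebra.adjoin_induction with
  | mem s hs =>
    rw [Set.mem_singleton_iff] at hs
    rw [hs]
    exact ht
  | algebraMap a => exact hAV a
  | add s t _ _ hs ht => exact V.add_mem _ _ hs ht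
  | mul s t _ _ hs ht => exact V.mul_mem _ _ hs ht

end InvAbs

/-! ### C. the expansions of `j`, `j_q`, `j_qq` at the three embeddings -/

section Exp

variable {E E' : Type*} [Field E] [Field E'] (ψ : E →+* E') (ιC : E →+* ℂ)
  {q M : ℕ} [NeZero q] [NeZero M] [NeZero (M * q)] [NeZero (M * q * q)]
  (hq : q.Prime) (hqM : ¬ q ∣ M) {ζ : E'ˣ} (h : S36MidEmb E' q M ζ)

theorem s36n2l_embA_J : vtEmb E (M * q * q) (s36n2lJ E M q) = jqModC E := rfl

theorem s36n2l_embA_Jq : vtEmb E (M * q * q) (s36n2lJq E M q) = qExpand E q (jqModC E) := rfl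

theorem s36n2l_embA_Jqq :
    vtEmb E (M * q * q) (s36n2lJqq E M q) = qExpand E q (qExpand E q (jqModC E)) := rfl

theorem s36n2l_embB_J :
    s36n2EmbB ιC hq hqM (s36n2lJ E M q) = qExpand E q (qExpand E q (jqModC E)) :=
  s36n2W_base E ιC hq hqM (jqModC_mem_full E M)

theorem s36n2l_embB_Jq :
    s36n2EmbB ιC hq hqM (s36n2lJq E M q) = qExpand E q (jqModC E) :=
  s36n2W_mid E ιC hq hqM (jqModC_mem_full E M)

theorem s36n2l_embB_Jqq :
    s36n2EmbB ιC hq hqM (s36n2lJqq E M q) = jqModC E :=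
  s36n2W_qExpand_sq E ιC hq hqM (jqModC_mem_full E M)

theorem s36n2l_embC_J : s36n2EmbC ψ h (s36n2lJ E M q) = jqModC E' := by
  have e1 : mgaCoeffHom ψ (M * q * q) (s36n2lJ E M q) =
      ⟨jqModC E', s36mid_low_le (jqModC_mem_full E' (M * q))⟩ := by
    apply Subtype.ext
    show coeffMap ψ (jqModC E) = jqModC E'
    exact coeffMap_jqModC ψ
  rw [s36n2EmbC_apply, e1]
  exact h.emb_of_mem_low (jqModC_mem_full E' (M * q))

theorem s36n2l_embC_Jq : s36n2EmbC ψ h (s36n2lJq E M q) = qExpand E' q (jqModC E') := by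
  have e1 : mgaCoeffHom ψ (M * q * q) (s36n2lJq E M q) =
      ⟨qExpand E' q (jqModC E'),
        s36mid_low_le (al_qExpand_mem E' (jqModC_mem_full E' M))⟩ := by
    apply Subtype.ext
    show coeffMap ψ (qExpand E q (jqModC E)) = qExpand E' q (jqModC E')
    rw [coeffMap_qExpand, coeffMap_jqModC]
  rw [s36n2EmbC_apply, e1]
  exact h.emb_of_mem_low (al_qExpand_mem E' (jqModC_mem_full E' M))

theorem s36n2l_embC_Jqq : s36n2EmbC ψ h (s36n2lJqq E M q) = kronRot ζ (jqModC E') := by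
  haveI : NeZero (1 * q * q) :=
    ⟨by rw [one_mul]; exact Nat.mul_ne_zero (NeZero.ne q) (NeZero.ne q)⟩
  have e0 : qExpand E' q (qExpand E' q (jqModC E')) = qExpand E' (1 * q * q) (jqModC E') := by
    rw [qExpand_qExpand]
    exact qExpand_congr (by ring) _
  have e1 : mgaCoeffHom ψ (M * q * q) (s36n2lJqq E M q) =
      ⟨qExpand E' (1 * q * q) (jqModC E'), jqModCd_mem_full E' (M * q * q)
        (Nat.mul_dvd_mul_right (Nat.mul_dvd_mul_right (one_dvd M) q) q)⟩ := by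
    apply Subtype.ext
    show coeffMap ψ (qExpand E q (qExpand E q (jqModC E))) = _
    rw [coeffMap_qExpand, coeffMap_qExpand, coeffMap_jqModC, e0]
  rw [s36n2EmbC_apply, e1, h.emb_high 1 (one_dvd M), qExpand_one_apply]

end Exp

/-! ### D. the table for `V = s36n2V` -/

section Fam

variable {A E k A' E' k' : Type*} [CommRing A] [IsDomain A] [Field E] [Algebra A E]
  [IsFractionRing A E] [Field k] [CommRing A'] [Field E'] [Field k']
  {r : A →+* k} {π : A} {ι' : A' →+* E'} {r' : A' →+* k'} {π' : A'}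
  (hB : VtBase (algebraMap A E) r π) (hB' : VtBase ι' r' π')
  (ψ : E →+* E') (ιC : E →+* ℂ)
  {q M : ℕ} [NeZero q] [NeZero M] [NeZero (M * q)] [NeZero (M * q * q)]
  (hq : q.Prime) (hqM : ¬ q ∣ M)
  {ζ : E'ˣ} (h : S36MidEmb E' q M ζ) (z : A'ˣ) (hz : Units.map (ι' : A' →* E') z = ζ)

/-- the element vanishing exactly on the component `c` -/
def s36n2lY (E : Type*) [Field E] (M q : ℕ) [NeZero M] [NeZero q] [NeZero (M * q)]
    [NeZero (M * q * q)] : S36Comp → modularFunctionFieldFullC E (M * q * q)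
  | S36Comp.a => s36n2lYa E M q
  | S36Comp.b => s36n2lYb E M q
  | S36Comp.c => s36n2lYc E M q

theorem s36n2l_Y_isIntegral {A₀ : Type*} [CommRing A₀]
    [Algebra A₀ (modularFunctionFieldFullC E (M * q * q))] (hq : q.Prime) (i : S36Comp) :
    IsIntegral (Algebra.adjoin A₀ {s36n2lJ E M q}) (s36n2lY E M q i) := by
  cases i
  · exact s36n2l_isIntegral_Ya hq
  · exact s36n2l_isIntegral_Yb hq
  · exact s36n2l_isIntegral_Yc hq

variable [CharP k q] [CharP k' q]

include hq in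
theorem s36n2l_tableA :
    s36n2lYa E M q ∈ (s36n2VA (q := q) (M := M) hB).nonunits ∧
      s36n2lYb E M q ∉ (s36n2VA (q := q) (M := M) hB).nonunits ∧
      s36n2lYc E M q ∉ (s36n2VA (q := q) (M := M) hB).nonunits := by
  haveI : Fact q.Prime := ⟨hq⟩
  exact s36n2l_pattern_a hB (vtEmb E (M * q * q))
    (fun x => vt_frac_fullC hB (M * q * q) x.2) rfl rfl rfl

theorem s36n2l_tableB :
    s36n2lYa E M q ∉ (s36n2VB hB ιC hq hqM).nonunits ∧
      s36n2lYb E M q ∈ (s36n2VB hB ιC hq hqM).nonunits ∧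
      s36n2lYc E M q ∉ (s36n2VB hB ιC hq hqM).nonunits := by
  haveI : Fact q.Prime := ⟨hq⟩
  exact s36n2l_pattern_b hB (s36n2EmbB ιC hq hqM)
    (fun x => vt_frac_fullC hB (M * q * q) (s36n2W E ιC hq hqM x).2) (s36n2l_embB_J ιC hq hqM)
    (s36n2l_embB_Jq ιC hq hqM) (s36n2l_embB_Jqq ιC hq hqM)

theorem s36n2l_tableC (hz1 : r' z = 1) :
    s36n2lYa E M q ∉ (s36n2VC hB' ψ hq h z hz).nonunits ∧
      s36n2lYb E M q ∉ (s36n2VC hB' ψ hq h z hz).nonunits ∧
      s36n2lYc E M q ∈ (s36n2VC hB' ψ hq h z hz).nonunits := by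
  haveI : Fact q.Prime := ⟨hq⟩
  exact s36n2l_pattern_c hB' (s36n2EmbC ψ h)
    (fun _ => s36n2_frac_emb hB' hq h z hz _) z hz1 (s36n2l_embC_J ψ h)
    (s36n2l_embC_Jq ψ h) (by rw [hz]; exact s36n2l_embC_Jqq ψ h)

/-- `y_c ∈ 𝔪(V c)` -/
theorem s36n2l_Y_in (hz1 : r' z = 1) (i : S36Comp) :
    s36n2lY E M q i ∈ (s36n2V hB hB' ψ ιC hq hqM h z hz i).nonunits := by
  cases i
  · exact (s36n2l_tableA hB hq).1
  · exact (s36n2l_tableB hB ιC hq hqM).2.1
  · exact (s36n2l_tableC hB' ψ hq h z hz hz1).2.2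

/-- `y_{c'} ∉ 𝔪(V c)` for `c' ≠ c` -/
theorem s36n2l_Y_out (hz1 : r' z = 1) (i i' : S36Comp) (hne : i' ≠ i) :
    s36n2lY E M q i' ∉ (s36n2V hB hB' ψ ιC hq hqM h z hz i).nonunits := by
  cases i <;> cases i'
  · exact absurd rfl hne
  · exact (s36n2l_tableA hB hq).2.1
  · exact (s36n2l_tableA hB hq).2.2
  · exact (s36n2l_tableB hB ιC hq hqM).1
  · exact absurd rfl hne
  · exact (s36n2l_tableB hB ιC hq hqM).2.2
  · exact (s36n2l_tableC hB' ψ hq h z hz hz1).1
  · exact (s36n2l_tableC hB' ψ hq h z hz hz1).2.1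
  · exact absurd rfl hne

end Fam

/-! ### E. reductions -/

section RedAbs

variable {A E k : Type*} [CommRing A] [Field E] [Field k]
  {ι : A →+* E} {r : A →+* k} {π : A} {F : Type*} [Field F]
  (hB : VtBase ι r π) (e : F →+* LaurentSeries E) (hfrac : ∀ x : F, VtFrac ι (e x))

/-- the reduction of an element whose expansion is a series over `A` -/
theorem s36n2l_red_of_coeffMap {x : F} {T : LaurentSeries A} (hx : e x = coeffMap ι T)
    (hxV : x ∈ vtSub hB e hfrac) : vtSubRed hB e hfrac ⟨x, hxV⟩ = coeffMap r T := by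
  rw [vtSubRed_of_eq hB e hfrac hx (coeffMap_mem_gaussRing ι r T)]
  exact gaussRed_coeffMap r hB.inj T

/-- the reduction of an inverse -/
theorem s36n2l_red_inv {K : Type*} [Field K] (V : ValuationSubring F) (ρ : ↥V →+* K) {x : F}
    (hx : x ∈ V) (hx' : x⁻¹ ∈ V) (hx0 : x ≠ 0) : ρ ⟨x⁻¹, hx'⟩ = (ρ ⟨x, hx⟩)⁻¹ := by
  have h1 : (⟨x⁻¹, hx'⟩ : ↥V) * ⟨x, hx⟩ = 1 := Subtype.ext (inv_mul_cancel₀ hx0)
  have h2 := congrArg ρ h1
  rw [map_mul, map_one] at h2
  exact eq_inv_of_mul_eq_one_left h2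

end RedAbs

section PrimSub

variable {A k A' E' k' F : Type*} [CommRing A] [Field k] [CommRing A'] [Field E'] [Field k']
  [Field F] [Algebra A F] {r : A →+* k} {π : A} {ι' : A' →+* E'} {r' : A' →+* k'} {π' : A'}
  (hB' : VtBase ι' r' π') (e : F →+* LaurentSeries E') (hfrac : ∀ x : F, VtFrac ι' (e x))

/-- **primitive polynomials are units of a vertical valuation** (two bases: the polynomials
have coefficients in `A`, the valuation is the Gauss valuation over `A'`). -/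
theorem s36n2l_prim_vtSub (hker : ∀ a : A, r a = 0 → π ∣ a) (κ : k →+* k')
    (hconst : ∀ a : A, ∃ a' : A', e (algebraMap A F a) = HahnSeries.C (ι' a') ∧
      r' a' = κ (r a))
    {u : F} (huV : u ∈ vtSub hB' e hfrac) {x : LaurentSeries k'}
    (hρu : vtSubRed hB' e hfrac ⟨u, huV⟩ = x) (htr : Transcendental k' x)
    {s : F} (hs : EIPrimeTo π u s) : s ∉ (vtSub hB' e hfrac).nonunits := by
  have hAV : ∀ a : A, algebraMap A F a ∈ vtSub hB' e hfrac := fun a => by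
    obtain ⟨a', h1, -⟩ := hconst a
    exact vtSub_const_mem hB' e hfrac h1
  refine s36n2l_prim_of_red hker (vtSub hB' e hfrac) (vtSubRed hB' e hfrac)
    (fun x hx => (vtSubRed_eq_zero_iff hB' e hfrac x).mpr hx)
    ((HahnSeries.C : k' →+* LaurentSeries k').comp κ) hAV ?_ huV ?_ hs
  · intro a
    obtain ⟨a', h1, h2⟩ := hconst a
    have h3 : e (algebraMap A F a) = coeffMap ι' (HahnSeries.C a') := by
      rw [h1, Fermat.Agent.INJ.coeffMap_hahnC]
    rw [s36n2l_red_of_coeffMap hB' e hfrac h3, Fermat.Agent.INJ.coeffMap_hahnC, h2]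
    rfl
  · intro P hP
    rw [hρu] at hP
    exact s36n2l_htr κ htr P hP

end PrimSub

/-! ### F. `j` is a unit; primitive polynomials in `j`, `1 / j` -/

section Units

variable {A E k A' E' k' : Type*} [CommRing A] [IsDomain A] [Field E] [Algebra A E]
  [IsFractionRing A E] [Field k] [CommRing A'] [Field E'] [Field k']
  {r : A →+* k} {π : A} {ι' : A' →+* E'} {r' : A' →+* k'} {π' : A'}
  (hB : VtBase (algebraMap A E) r π) (hB' : VtBase ι' r' π')
  (ψ : E →+* E') (ιC : E →+* ℂ)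
  {q M : ℕ} [NeZero q] [NeZero M] [NeZero (M * q)] [NeZero (M * q * q)]
  (hq : q.Prime) (hqM : ¬ q ∣ M)
  {ζ : E'ˣ} (h : S36MidEmb E' q M ζ) (z : A'ˣ) (hz : Units.map (ι' : A' →* E') z = ζ)

theorem s36n2l_expA : vtEmb E (M * q * q) (s36n2lJ E M q) =
    coeffMap (algebraMap A E) (jqModC A) := (coeffMap_jqModC _).symm

theorem s36n2l_expB : s36n2EmbB ιC hq hqM (s36n2lJ E M q) =
    coeffMap (algebraMap A E) (qExpand A q (qExpand A q (jqModC A))) := by
  rw [s36n2l_embB_J, coeffMap_qExpand, coeffMap_qExpand, coeffMap_jqModC]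

theorem s36n2l_expC : s36n2EmbC ψ h (s36n2lJ E M q) = coeffMap ι' (jqModC A') := by
  rw [s36n2l_embC_J, coeffMap_jqModC]

theorem s36n2l_redB_ne :
    coeffMap r (qExpand A q (qExpand A q (jqModC A))) ≠ 0 := by
  rw [coeffMap_qExpand, coeffMap_qExpand, coeffMap_jqModC]
  intro h0
  exact jqModC_ne_zero_of_nontrivial k
    (qExpand_injective q (qExpand_injective q (by rw [h0, map_zero, map_zero])))

/-- **`j` is a unit of the three vertical valuation rings.** -/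
theorem s36n2l_J_val (i : S36Comp) :
    (s36n2V hB hB' ψ ιC hq hqM h z hz i).valuation (s36n2lJ E M q) = 1 := by
  cases i
  · exact vtSub_valuation_eq_one_of_eq_coeffMap hB (vtEmb E (M * q * q))
      (fun x => vt_frac_fullC hB (M * q * q) x.2) s36n2l_expA
      (by rw [coeffMap_jqModC]; exact jqModC_ne_zero_of_nontrivial k)
  · exact vtSub_valuation_eq_one_of_eq_coeffMap hB (s36n2EmbB ιC hq hqM)
      (fun x => vt_frac_fullC hB (M * q * q) (s36n2W E ιC hq hqM x).2)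
      (s36n2l_expB ιC hq hqM) s36n2l_redB_ne
  · exact vtSub_valuation_eq_one_of_eq_coeffMap hB' (s36n2EmbC ψ h)
      (fun _ => s36n2_frac_emb hB' hq h z hz _) (s36n2l_expC ψ h)
      (by rw [coeffMap_jqModC]; exact jqModC_ne_zero_of_nontrivial k')

theorem s36n2l_J_mem (i : S36Comp) :
    s36n2lJ E M q ∈ s36n2V hB hB' ψ ιC hq hqM h z hz i :=
  ((vt_valuation_eq_one_iff _ _).mp (s36n2l_J_val hB hB' ψ ιC hq hqM h z hz i)).2.1

theorem s36n2l_Jinv_mem (i : S36Comp) :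
    (s36n2lJ E M q)⁻¹ ∈ s36n2V hB hB' ψ ιC hq hqM h z hz i :=
  ((vt_valuation_eq_one_iff _ _).mp (s36n2l_J_val hB hB' ψ ιC hq hqM h z hz i)).2.2

theorem s36n2l_J_ne_zero : s36n2lJ E M q ≠ 0 := by
  intro h0
  have h1 := congrArg (fun x : modularFunctionFieldFullC E (M * q * q) =>
    (x : LaurentSeries E)) h0
  exact jqModC_ne_zero_of_nontrivial E h1

variable [Algebra A (modularFunctionFieldFullC E (M * q * q))]
  [IsScalarTower A E (modularFunctionFieldFullC E (M * q * q))]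

/-- constants at `∞` -/
theorem s36n2l_constA (a : A) :
    vtEmb E (M * q * q) (algebraMap A (modularFunctionFieldFullC E (M * q * q)) a) =
      HahnSeries.C (algebraMap A E a) := by
  rw [IsScalarTower.algebraMap_apply A E (modularFunctionFieldFullC E (M * q * q)),
    HahnSeries.C_apply]
  exact algebraMap_laurentSeries_eq_single E _

/-- constants at `0` -/
theorem s36n2l_constB (a : A) :
    s36n2EmbB ιC hq hqM (algebraMap A (modularFunctionFieldFullC E (M * q * q)) a) =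
      HahnSeries.C (algebraMap A E a) := by
  rw [IsScalarTower.algebraMap_apply A E (modularFunctionFieldFullC E (M * q * q)),
    s36n2EmbB_apply, AlgEquiv.commutes, HahnSeries.C_apply]
  exact algebraMap_laurentSeries_eq_single E _

/-- constants at the middle cusp -/
theorem s36n2l_constC (a : A) :
    s36n2EmbC ψ h (algebraMap A (modularFunctionFieldFullC E (M * q * q)) a) =
      HahnSeries.C (ψ (algebraMap A E a)) := by
  rw [IsScalarTower.algebraMap_apply A E (modularFunctionFieldFullC E (M * q * q)),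
    s36n2EmbC_apply, mgaCoeffHom_algebraMap, AlgHom.commutes, HahnSeries.C_apply]
  exact algebraMap_laurentSeries_eq_single E' _

/-- the constants of `A` lie in the three `V i` -/
theorem s36n2l_const_mem {κ : k →+* k'} (hc : VtCompat (algebraMap A E) r ι' r' ψ κ)
    (i : S36Comp) (a : A) :
    algebraMap A (modularFunctionFieldFullC E (M * q * q)) a ∈
      s36n2V hB hB' ψ ιC hq hqM h z hz i := by
  cases i
  · exact vtSub_const_mem hB (vtEmb E (M * q * q))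
      (fun x => vt_frac_fullC hB (M * q * q) x.2) (s36n2l_constA a)
  · exact vtSub_const_mem hB (s36n2EmbB ιC hq hqM)
      (fun x => vt_frac_fullC hB (M * q * q) (s36n2W E ιC hq hqM x).2)
      (s36n2l_constB ιC hq hqM a)
  · obtain ⟨a', h1, -⟩ := hc a
    exact vtSub_const_mem hB' (s36n2EmbC ψ h)
      (fun _ => s36n2_frac_emb hB' hq h z hz _) ((s36n2l_constC ψ h a).trans (by rw [h1]))

/-- **hBV₁**: the chart `j` lies in the three `V i`. -/
theorem s36n2l_hBV₁ {κ : k →+* k'} (hc : VtCompat (algebraMap A E) r ι' r' ψ κ)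
    (i : S36Comp) (b : modularFunctionFieldFullC E (M * q * q))
    (hb : IsIntegral ↥(Algebra.adjoin A
      ({bgJ E (M * q * q)} : Set (modularFunctionFieldFullC E (M * q * q)))) b) :
    b ∈ s36n2V hB hB' ψ ιC hq hqM h z hz i :=
  s36n2l_mem_of_isIntegral _ (s36n2l_const_mem hB hB' ψ ιC hq hqM h z hz hc i)
    (s36n2l_J_mem hB hB' ψ ιC hq hqM h z hz i) hb

/-- **hBV₂**: the chart `1 / j` lies in the three `V i`. -/
theorem s36n2l_hBV₂ {κ : k →+* k'} (hc : VtCompat (algebraMap A E) r ι' r' ψ κ)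
    (i : S36Comp) (b : modularFunctionFieldFullC E (M * q * q))
    (hb : IsIntegral ↥(Algebra.adjoin A
      ({(bgJ E (M * q * q))⁻¹} : Set (modularFunctionFieldFullC E (M * q * q)))) b) :
    b ∈ s36n2V hB hB' ψ ιC hq hqM h z hz i :=
  s36n2l_mem_of_isIntegral _ (s36n2l_const_mem hB hB' ψ ιC hq hqM h z hz hc i)
    (s36n2l_Jinv_mem hB hB' ψ ιC hq hqM h z hz i) hb

/-- **harch** for the three `V i`. -/
theorem s36n2l_harch (i : S36Comp) (a x : modularFunctionFieldFullC E (M * q * q))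
    (ha : a ∈ (s36n2V hB hB' ψ ιC hq hqM h z hz i).nonunits) :
    ∃ n : ℕ, a ^ n * x ∈ (s36n2V hB hB' ψ ιC hq hqM h z hz i).nonunits := by
  cases i
  · exact vtSub_arch hB (vtEmb E (M * q * q))
      (fun x => vt_frac_fullC hB (M * q * q) x.2) ha x
  · exact vtSub_arch hB (s36n2EmbB ιC hq hqM)
      (fun x => vt_frac_fullC hB (M * q * q) (s36n2W E ιC hq hqM x).2) ha x
  · exact vtSub_arch hB' (s36n2EmbC ψ h)
      (fun _ => s36n2_frac_emb hB' hq h z hz _) ha x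

variable [CharP k q] [CharP k' q]

/-- **primitive polynomials in `j` are units of the three `V i`** -/
theorem s36n2l_hprim₁ {κ : k →+* k'} (hc : VtCompat (algebraMap A E) r ι' r' ψ κ)
    (i : S36Comp) (s : modularFunctionFieldFullC E (M * q * q))
    (hs : EIPrimeTo π (bgJ E (M * q * q)) s) :
    s ∉ (s36n2V hB hB' ψ ιC hq hqM h z hz i).nonunits := by
  haveI : Fact q.Prime := ⟨hq⟩
  cases i
  · refine s36n2l_prim_vtSub hB (vtEmb E (M * q * q))
      (fun x => vt_frac_fullC hB (M * q * q) x.2) hB.ker (RingHom.id k)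
      (fun a => ⟨a, s36n2l_constA a, rfl⟩)
      (s36n2l_J_mem hB hB' ψ ιC hq hqM h z hz S36Comp.a)
      (s36n2l_red_of_coeffMap hB _ _ s36n2l_expA _) ?_ hs
    rw [coeffMap_jqModC]
    exact nodesFrobU_transcendental_j k
  · refine s36n2l_prim_vtSub hB (s36n2EmbB ιC hq hqM)
      (fun x => vt_frac_fullC hB (M * q * q) (s36n2W E ιC hq hqM x).2) hB.ker (RingHom.id k)
      (fun a => ⟨a, s36n2l_constB ιC hq hqM a, rfl⟩)
      (s36n2l_J_mem hB hB' ψ ιC hq hqM h z hz S36Comp.b)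
      (s36n2l_red_of_coeffMap hB _ _ (s36n2l_expB ιC hq hqM) _) ?_ hs
    rw [coeffMap_qExpand, coeffMap_qExpand, coeffMap_jqModC, s36n2l_red_qq k q]
    exact ((nodesFrobU_transcendental_j k).pow hq.pos).pow hq.pos
  · refine s36n2l_prim_vtSub hB' (s36n2EmbC ψ h)
      (fun _ => s36n2_frac_emb hB' hq h z hz _) hB.ker κ
      (fun a => ?_)
      (s36n2l_J_mem hB hB' ψ ιC hq hqM h z hz S36Comp.c)
      (s36n2l_red_of_coeffMap hB' _ _ (s36n2l_expC ψ h) _) ?_ hs
    · obtain ⟨a', h1, h2⟩ := hc a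
      exact ⟨a', (s36n2l_constC ψ h a).trans (by rw [h1]), h2⟩
    · rw [coeffMap_jqModC]
      exact nodesFrobU_transcendental_j k'

/-- **primitive polynomials in `1 / j` are units of the three `V i`** -/
theorem s36n2l_hprim₂ {κ : k →+* k'} (hc : VtCompat (algebraMap A E) r ι' r' ψ κ)
    (i : S36Comp) (s : modularFunctionFieldFullC E (M * q * q))
    (hs : EIPrimeTo π (bgJ E (M * q * q))⁻¹ s) :
    s ∉ (s36n2V hB hB' ψ ιC hq hqM h z hz i).nonunits := by
  haveI : Fact q.Prime := ⟨hq⟩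
  have hJ0 : s36n2lJ E M q ≠ 0 := s36n2l_J_ne_zero
  cases i
  · refine s36n2l_prim_vtSub hB (vtEmb E (M * q * q))
      (fun x => vt_frac_fullC hB (M * q * q) x.2) hB.ker (RingHom.id k)
      (fun a => ⟨a, s36n2l_constA a, rfl⟩)
      (s36n2l_Jinv_mem hB hB' ψ ιC hq hqM h z hz S36Comp.a)
      ((s36n2l_red_inv _ _ (s36n2l_J_mem hB hB' ψ ιC hq hqM h z hz S36Comp.a) _ hJ0).trans
        (congrArg (·⁻¹) (s36n2l_red_of_coeffMap hB _ _ s36n2l_expA _))) ?_ hs
    rw [coeffMap_jqModC]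
    exact nodesFrobU_transcendental_jinv k
  · refine s36n2l_prim_vtSub hB (s36n2EmbB ιC hq hqM)
      (fun x => vt_frac_fullC hB (M * q * q) (s36n2W E ιC hq hqM x).2) hB.ker (RingHom.id k)
      (fun a => ⟨a, s36n2l_constB ιC hq hqM a, rfl⟩)
      (s36n2l_Jinv_mem hB hB' ψ ιC hq hqM h z hz S36Comp.b)
      ((s36n2l_red_inv _ _ (s36n2l_J_mem hB hB' ψ ιC hq hqM h z hz S36Comp.b) _ hJ0).trans
        (congrArg (·⁻¹) (s36n2l_red_of_coeffMap hB _ _ (s36n2l_expB ιC hq hqM) _))) ?_ hs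
    rw [coeffMap_qExpand, coeffMap_qExpand, coeffMap_jqModC, s36n2l_red_qq k q, ← inv_pow,
      ← inv_pow]
    exact ((nodesFrobU_transcendental_jinv k).pow hq.pos).pow hq.pos
  · refine s36n2l_prim_vtSub hB' (s36n2EmbC ψ h)
      (fun _ => s36n2_frac_emb hB' hq h z hz _) hB.ker κ
      (fun a => ?_)
      (s36n2l_Jinv_mem hB hB' ψ ιC hq hqM h z hz S36Comp.c)
      ((s36n2l_red_inv _ _ (s36n2l_J_mem hB hB' ψ ιC hq hqM h z hz S36Comp.c) _ hJ0).trans
        (congrArg (·⁻¹) (s36n2l_red_of_coeffMap hB' _ _ (s36n2l_expC ψ h) _))) ?_ hs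
    · obtain ⟨a', h1, h2⟩ := hc a
      exact ⟨a', (s36n2l_constC ψ h a).trans (by rw [h1]), h2⟩
    · rw [coeffMap_jqModC]
      exact nodesFrobU_transcendental_jinv k'

end Units

/-! ### G. `hVloc₁`, `hVloc₂` -/

section Final

variable {A E k A' E' k' : Type*} [CommRing A] [IsDomain A] [IsDiscreteValuationRing A]
  [Field E] [Algebra A E] [IsFractionRing A E] [CharZero E]
  [Field k] [CommRing A'] [Field E'] [Field k']
  {r : A →+* k} {π : A} {ι' : A' →+* E'} {r' : A' →+* k'} {π' : A'}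
  (hB : VtBase (algebraMap A E) r π) (hB' : VtBase ι' r' π')
  (ψ : E →+* E') (ιC : E →+* ℂ)
  {q M : ℕ} [NeZero q] [NeZero M] [NeZero (M * q)] [NeZero (M * q * q)]
  (hq : q.Prime) (hqM : ¬ q ∣ M)
  {ζ : E'ˣ} (h : S36MidEmb E' q M ζ) (z : A'ˣ) (hz : Units.map (ι' : A' →* E') z = ζ)
  [Algebra A (modularFunctionFieldFullC E (M * q * q))]
  [IsScalarTower A E (modularFunctionFieldFullC E (M * q * q))]
  [CharP k q] [CharP k' q]

/-- **separating elements on the chart `j`** -/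
theorem s36n2l_hz₁ {κ : k →+* k'} (hc : VtCompat (algebraMap A E) r ι' r' ψ κ)
    (hz1 : r' z = 1) (i : S36Comp) :
    ∃ y : modularFunctionFieldFullC E (M * q * q),
      IsIntegral ↥(Algebra.adjoin A
        ({bgJ E (M * q * q)} : Set (modularFunctionFieldFullC E (M * q * q)))) y ∧
      y ∉ (s36n2V hB hB' ψ ιC hq hqM h z hz i).nonunits ∧
      ∀ i', i' ≠ i → y ∈ (s36n2V hB hB' ψ ιC hq hqM h z hz i').nonunits :=
  s36n2l_sep_prod (s36n2V hB hB' ψ ιC hq hqM h z hz)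
    (s36n2l_hBV₁ hB hB' ψ ιC hq hqM h z hz hc) (s36n2lY E M q)
    (fun i => s36n2l_Y_isIntegral hq i)
    (s36n2l_Y_in hB hB' ψ ιC hq hqM h z hz hz1)
    (s36n2l_Y_out hB hB' ψ ιC hq hqM h z hz hz1) i

/-- **separating elements on the chart `1 / j`** -/
theorem s36n2l_hz₂ {κ : k →+* k'} (hc : VtCompat (algebraMap A E) r ι' r' ψ κ)
    (hz1 : r' z = 1) (i : S36Comp) :
    ∃ y : modularFunctionFieldFullC E (M * q * q),
      IsIntegral ↥(Algebra.adjoin A
        ({(bgJ E (M * q * q))⁻¹} : Set (modularFunctionFieldFullC E (M * q * q)))) y ∧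
      y ∉ (s36n2V hB hB' ψ ιC hq hqM h z hz i).nonunits ∧
      ∀ i', i' ≠ i → y ∈ (s36n2V hB hB' ψ ιC hq hqM h z hz i').nonunits :=
  s36n2l_hz_inv (A := A) (s36n2l_J_ne_zero (E := E) (M := M) (q := q))
    (s36n2V hB hB' ψ ιC hq hqM h z hz) (s36n2l_J_val hB hB' ψ ιC hq hqM h z hz)
    (s36n2l_hz₁ hB hB' ψ ιC hq hqM h z hz hc hz1) i

/-- **hVloc₁ at level `M q²`**: on the chart `j`, each of the three vertical valuation rings is
the localisation of the chart at `𝔪(V i) ∩ B`.  From (KR) on the chart `j`. -/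
theorem s36n2l_hVloc₁ (hπ : Irreducible π) {κ : k →+* k'}
    (hc : VtCompat (algebraMap A E) r ι' r' ψ κ) (hz1 : r' z = 1)
    (hKR : ∀ x : modularFunctionFieldFullC E (M * q * q),
      IsIntegral ↥(Algebra.adjoin A
        ({bgJ E (M * q * q)} : Set (modularFunctionFieldFullC E (M * q * q))))
        (algebraMap A (modularFunctionFieldFullC E (M * q * q)) π * x) →
      (∀ i, x ∈ s36n2V hB hB' ψ ιC hq hqM h z hz i) →
      IsIntegral ↥(Algebra.adjoin A
        ({bgJ E (M * q * q)} : Set (modularFunctionFieldFullC E (M * q * q)))) x) :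
    ∀ i (x : modularFunctionFieldFullC E (M * q * q)),
      x ∈ s36n2V hB hB' ψ ιC hq hqM h z hz i →
      ∃ b s : modularFunctionFieldFullC E (M * q * q),
        IsIntegral ↥(Algebra.adjoin A
          ({bgJ E (M * q * q)} : Set (modularFunctionFieldFullC E (M * q * q)))) b ∧
        IsIntegral ↥(Algebra.adjoin A
          ({bgJ E (M * q * q)} : Set (modularFunctionFieldFullC E (M * q * q)))) s ∧
        s ∉ (s36n2V hB hB' ψ ιC hq hqM h z hz i).nonunits ∧ s * x = b := by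
  haveI : FiniteDimensional E⟮bgJ E (M * q * q)⟯ (modularFunctionFieldFullC E (M * q * q)) :=
    bgFin_finiteDimensional_full E (M * q * q)
  exact s36n2l_hVloc_all (bgConst_transcendental_bgJ E (M * q * q)) hπ
    (s36n2V hB hB' ψ ιC hq hqM h z hz) (s36n2l_hBV₁ hB hB' ψ ιC hq hqM h z hz hc) hKR
    (s36n2l_harch hB hB' ψ ιC hq hqM h z hz)
    (s36n2l_hprim₁ hB hB' ψ ιC hq hqM h z hz hc)
    (s36n2l_hz₁ hB hB' ψ ιC hq hqM h z hz hc hz1)

/-- **hVloc₂ at level `M q²`**: the same on the chart `1 / j` (from (KR) on the chart `j`). -/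
theorem s36n2l_hVloc₂ (hπ : Irreducible π) {κ : k →+* k'}
    (hc : VtCompat (algebraMap A E) r ι' r' ψ κ) (hz1 : r' z = 1)
    (hKR : ∀ x : modularFunctionFieldFullC E (M * q * q),
      IsIntegral ↥(Algebra.adjoin A
        ({bgJ E (M * q * q)} : Set (modularFunctionFieldFullC E (M * q * q))))
        (algebraMap A (modularFunctionFieldFullC E (M * q * q)) π * x) →
      (∀ i, x ∈ s36n2V hB hB' ψ ιC hq hqM h z hz i) →
      IsIntegral ↥(Algebra.adjoin A
        ({bgJ E (M * q * q)} : Set (modularFunctionFieldFullC E (M * q * q)))) x) :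
    ∀ i (x : modularFunctionFieldFullC E (M * q * q)),
      x ∈ s36n2V hB hB' ψ ιC hq hqM h z hz i →
      ∃ b s : modularFunctionFieldFullC E (M * q * q),
        IsIntegral ↥(Algebra.adjoin A
          ({(bgJ E (M * q * q))⁻¹} : Set (modularFunctionFieldFullC E (M * q * q)))) b ∧
        IsIntegral ↥(Algebra.adjoin A
          ({(bgJ E (M * q * q))⁻¹} : Set (modularFunctionFieldFullC E (M * q * q)))) s ∧
        s ∉ (s36n2V hB hB' ψ ιC hq hqM h z hz i).nonunits ∧ s * x = b := by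
  haveI : FiniteDimensional E⟮bgJ E (M * q * q)⟯ (modularFunctionFieldFullC E (M * q * q)) :=
    bgFin_finiteDimensional_full E (M * q * q)
  haveI : FiniteDimensional E⟮(bgJ E (M * q * q))⁻¹⟯
      (modularFunctionFieldFullC E (M * q * q)) :=
    at_finiteDimensional_inv (bgJ E (M * q * q))
  have ht := bgConst_transcendental_bgJ E (M * q * q)
  exact s36n2l_hVloc_all (zch_transcendental_inv ht) hπ
    (s36n2V hB hB' ψ ιC hq hqM h z hz) (s36n2l_hBV₂ hB hB' ψ ιC hq hqM h z hz hc)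
    (aq_KR_inv hπ ht (s36n2V hB hB' ψ ιC hq hqM h z hz)
      (s36n2l_hBV₁ hB hB' ψ ιC hq hqM h z hz hc) hKR)
    (s36n2l_harch hB hB' ψ ιC hq hqM h z hz)
    (s36n2l_hprim₂ hB hB' ψ ιC hq hqM h z hz hc)
    (s36n2l_hz₂ hB hB' ψ ιC hq hqM h z hz hc hz1)

end Final

end Fermat.Agent.S36

end
end ZBS36_032_2

/-! ### bundled: `Fermat.Agent.S36.PtsCuspA` -/
section ZBS36_032_3

/-!
# S36 / (I6)(d-A) (helper98): `S36PtInput` at the cusp points of the component `C_a`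

Concrete setting of `S36/SmallPart.lean`: `A₀ = beta0Ring A E₀`, `E₀ = beta0Field A`,
`F = F_{Mqq}(E₀)`, chart `t⁻¹ = (bgJ E₀ (M q q))⁻¹`, `V = s36i1V M hq hA hqM hζ ιC h`.

* `s36cua_hA_of` : `S36PtInput` at ONE closed point `𝔫` of the chart `j⁻¹` through which only
  `C_a` passes, from (I2) `hKR` on the chart `j` and a local parameter `Y₀` of the branch `C_a` at
  `𝔫` (`S36n2pGen`): helper62's `s36pab_one_inr` (`X = π = q`, `Y = 1`: `C_a` has multiplicity
  one) with helper91's `s36n2l_hVloc₂` and the concrete (I1) facts `s36i1c_*`.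
* `s36cua_hA`    : the hypothesis `hA` of `s36cu_hpts_inf` / `s36cu_hpts` (helper84,
  `S36/PtsCusp.lean`), VERBATIM, from (I2) `hKR` and "Gen_a at the cusp points" (helper45).
* `s36cua_inl_of`, `s36cua_hPa`, `s36cua_hPb` (+ `s36cua_hU_b`) : the same on the chart `j`
  (`Sum.inl`): the hypotheses `hPa`, `hPb` of `s36pf_h1` (helper31, `S36/PtsFinal.lean`) at
  `Hor = s36Hor E₀ m`, from (I2) `hKR` and `Gen_a`, `Gen_b` on the chart `j`.
-/

set_option autoImplicit false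
set_option linter.style.haveILetI false
set_option linter.unusedSectionVars false
set_option linter.unusedVariables false
set_option linter.constructorNameAsVariable false

noncomputable section

namespace Fermat.Agent.S36

open ModularCurve AlgebraicCurve Fermat.Agent.ES Fermat.Agent.ES.G2 Fermat.Agent.INJ
open Fermat.Agent.UNIP Fermat.Agent.STB IntermediateField

section Skeleton

variable {q : ℕ} {A : ValuationSubring (AlgebraicClosure ℚ)} (M : ℕ) [NeZero M] [NeZero q]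
  [IsDiscreteValuationRing ↥(beta0Ring A (beta0Field A))]
  {ζ : AlgebraicClosure ℚ}
  (hq : q.Prime) (hA : A.LiesOverPrime q) (hqM : ¬ q ∣ M) (hζ : IsPrimitiveRoot ζ q)
  (ιC : ↥(beta0Field A) →+* ℂ)
  (h : S36MidEmb ↥(s36n2bK A ζ) q M (s36i1ZK (A := A) hq hζ))

/-- **(d-A), one point**: `S36PtInput` at a closed point of the chart `j⁻¹` through which only
the component `C_a` passes. -/
theorem s36cua_hA_of
    (hKR : ∀ x : ↥(modularFunctionFieldFullC ↥(beta0Field A) (M * q * q)),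
      IsIntegral ↥(Algebra.adjoin ↥(beta0Ring A (beta0Field A))
          {bgJ ↥(beta0Field A) (M * q * q)})
        (algebraMap ↥(beta0Ring A (beta0Field A))
          ↥(modularFunctionFieldFullC ↥(beta0Field A) (M * q * q))
          ((q : ℕ) : ↥(beta0Ring A (beta0Field A))) * x) →
      (∀ c, x ∈ s36i1V M hq hA hqM hζ ιC h c) →
        IsIntegral ↥(Algebra.adjoin ↥(beta0Ring A (beta0Field A))
          {bgJ ↥(beta0Field A) (M * q * q)}) x)
    (𝔫 : AtPt (F := ↥(modularFunctionFieldFullC ↥(beta0Field A) (M * q * q)))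
      ((q : ℕ) : ↥(beta0Ring A (beta0Field A))) (bgJ ↥(beta0Field A) (M * q * q))⁻¹)
    (hc₁ : atThrough 𝔫 (s36i1V M hq hA hqM hζ ιC h S36Comp.a))
    (honly : ∀ c, atThrough 𝔫 (s36i1V M hq hA hqM hζ ιC h c) → c = S36Comp.a)
    {Y₀ : ↥(zchClosure (A₀ := ↥(beta0Ring A (beta0Field A)))
      ({(bgJ ↥(beta0Field A) (M * q * q))⁻¹} :
        Set ↥(modularFunctionFieldFullC ↥(beta0Field A) (M * q * q))))}
    (hY₀ : Y₀ ∈ 𝔫.1) (hgen : S36n2pGen 𝔫.1 (s36i1V M hq hA hqM hζ ιC h S36Comp.a) Y₀)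
    (m : ℕ) (ζ₁ : ↥(modularFunctionFieldFullC ↥(beta0Field A) (M * q))) :
    @S36PtInput ↥(modularFunctionFieldFullC ↥(beta0Field A) (M * q))
      ↥(modularFunctionFieldFullC ↥(beta0Field A) (M * q * q)) _ _ S36Comp
      (s36Hor ↥(beta0Field A) m) m
      (s36Alpha ↥(beta0Field A) M q) (s36Beta ↥(beta0Field A) M q)
      (s36NormAlpha ↥(beta0Field A) M q) (s36NormBeta ↥(beta0Field A) M q) ζ₁
      (s36i1V M hq hA hqM hζ ιC h) S36Comp.a S36Comp.b S36Comp.c
      (atO ((q : ℕ) : ↥(beta0Ring A (beta0Field A))) (bgJ ↥(beta0Field A) (M * q * q))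
        (Sum.inr 𝔫))
      (stb_atO_isLocalRing (π := ((q : ℕ) : ↥(beta0Ring A (beta0Field A))))
        (bgJ ↥(beta0Field A) (M * q * q)) (Sum.inr 𝔫))
      (atInc ((q : ℕ) : ↥(beta0Ring A (beta0Field A))) (bgJ ↥(beta0Field A) (M * q * q))
        (s36i1V M hq hA hqM hζ ιC h) (Sum.inr 𝔫)) := by
  have hπ : Irreducible ((q : ℕ) : ↥(beta0Ring A (beta0Field A))) :=
    beta0Ring_irreducible_q hq hA
  have ht := bgConst_transcendental_bgJ ↥(beta0Field A) (M * q * q)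
  haveI : FiniteDimensional (↥(beta0Field A))⟮bgJ ↥(beta0Field A) (M * q * q)⟯
      ↥(modularFunctionFieldFullC ↥(beta0Field A) (M * q * q)) :=
    bgFin_finiteDimensional_full ↥(beta0Field A) (M * q * q)
  haveI : FiniteDimensional (↥(beta0Field A))⟮(bgJ ↥(beta0Field A) (M * q * q))⁻¹⟯
      ↥(modularFunctionFieldFullC ↥(beta0Field A) (M * q * q)) :=
    at_finiteDimensional_inv (bgJ ↥(beta0Field A) (M * q * q))
  haveI : IsNoetherianRing ↥(zchClosure (A₀ := ↥(beta0Ring A (beta0Field A)))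
      ({(bgJ ↥(beta0Field A) (M * q * q))⁻¹} :
        Set ↥(modularFunctionFieldFullC ↥(beta0Field A) (M * q * q)))) :=
    chart_closure_isNoetherianRing (A₀ := ↥(beta0Ring A (beta0Field A)))
      (E := ↥(beta0Field A)) (zch_transcendental_inv ht)
  obtain ⟨κ, -, hκ⟩ := s36n2b_compat (A := A) (ζ := ζ) hq hA
  haveI : CharP (IsLocalRing.ResidueField ↥(beta0Ring A (beta0Field A))) q := mgvl_charP hq hA
  haveI : CharP (IsLocalRing.ResidueField ↥(beta0Ring A (s36n2bK A ζ))) q := mgvl_charP hq hA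
  have hKR₂ := aq_KR_inv hπ ht (s36i1V M hq hA hqM hζ ιC h)
    (s36i1c_hBV₁ M hq hA hqM hζ ιC h) hKR
  have hVloc := s36n2l_hVloc₂ (vtBase_residue hπ) (s36n2b_vtBase hq hA hζ)
    (IntermediateField.inclusion (s36n2b_le_K A ζ)).toRingHom ιC hq hqM h (s36i1Z hq hζ) rfl
    hπ hκ (s36n2b_residue_zeta hq hA hζ) hKR S36Comp.a
  exact s36pab_one_inr (E := ↥(beta0Field A)) hπ (s36i1V M hq hA hqM hζ ιC h)
    (s36i1c_hBV₂ M hq hA hqM hζ ιC h) (s36i1c_hπV M hq hA hqM hζ ιC h) hKR₂ (q ^ 1)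
    (s36i1c_hram M hq hA hqM hζ ιC h) 𝔫 S36Comp.a hc₁ honly hVloc hY₀ hgen
    (s36i1c_hU M hq hA hqM hζ ιC h)
    (s36Hor ↥(beta0Field A) m) m (fun y hy => hy)
    (s36Alpha ↥(beta0Field A) M q) (s36Beta ↥(beta0Field A) M q)
    (s36NormAlpha ↥(beta0Field A) M q) (s36NormBeta ↥(beta0Field A) M q) ζ₁
    S36Comp.a S36Comp.b S36Comp.c

/-- **(d-A)**: the hypothesis `hA` of `s36cu_hpts_inf` / `s36cu_hpts` (helper84), VERBATIM, from
(I2) `hKR` and a local parameter of the branch `C_a` at every cusp point of `C_a` ("Gen_a at the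
cusps", helper45). -/
theorem s36cua_hA
    (hKR : ∀ x : ↥(modularFunctionFieldFullC ↥(beta0Field A) (M * q * q)),
      IsIntegral ↥(Algebra.adjoin ↥(beta0Ring A (beta0Field A))
          {bgJ ↥(beta0Field A) (M * q * q)})
        (algebraMap ↥(beta0Ring A (beta0Field A))
          ↥(modularFunctionFieldFullC ↥(beta0Field A) (M * q * q))
          ((q : ℕ) : ↥(beta0Ring A (beta0Field A))) * x) →
      (∀ c, x ∈ s36i1V M hq hA hqM hζ ιC h c) →
        IsIntegral ↥(Algebra.adjoin ↥(beta0Ring A (beta0Field A))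
          {bgJ ↥(beta0Field A) (M * q * q)}) x)
    (hgenA : ∀ 𝔫 : AtPt (F := ↥(modularFunctionFieldFullC ↥(beta0Field A) (M * q * q)))
        ((q : ℕ) : ↥(beta0Ring A (beta0Field A))) (bgJ ↥(beta0Field A) (M * q * q))⁻¹,
      (⟨(bgJ ↥(beta0Field A) (M * q * q))⁻¹, s36pc_self_mem _⟩ :
        ↥(zchClosure (A₀ := ↥(beta0Ring A (beta0Field A)))
          ({(bgJ ↥(beta0Field A) (M * q * q))⁻¹} :
            Set ↥(modularFunctionFieldFullC ↥(beta0Field A) (M * q * q))))) ∈ 𝔫.1 →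
      atThrough 𝔫 (s36i1V M hq hA hqM hζ ιC h S36Comp.a) →
      ∃ Y₀ ∈ 𝔫.1, S36n2pGen 𝔫.1 (s36i1V M hq hA hqM hζ ιC h S36Comp.a) Y₀)
    (m : ℕ) (ζ₁ : ↥(modularFunctionFieldFullC ↥(beta0Field A) (M * q))) :
    ∀ 𝔫 : AtPt (F := ↥(modularFunctionFieldFullC ↥(beta0Field A) (M * q * q)))
        ((q : ℕ) : ↥(beta0Ring A (beta0Field A))) (bgJ ↥(beta0Field A) (M * q * q))⁻¹,
      (⟨(bgJ ↥(beta0Field A) (M * q * q))⁻¹, s36pc_self_mem _⟩ :
        ↥(zchClosure (A₀ := ↥(beta0Ring A (beta0Field A)))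
          ({(bgJ ↥(beta0Field A) (M * q * q))⁻¹} :
            Set ↥(modularFunctionFieldFullC ↥(beta0Field A) (M * q * q))))) ∈ 𝔫.1 →
      atThrough 𝔫 (s36i1V M hq hA hqM hζ ιC h S36Comp.a) →
      (∀ c, atThrough 𝔫 (s36i1V M hq hA hqM hζ ιC h c) → c = S36Comp.a) →
      @S36PtInput ↥(modularFunctionFieldFullC ↥(beta0Field A) (M * q))
        ↥(modularFunctionFieldFullC ↥(beta0Field A) (M * q * q)) _ _ S36Comp
        (s36Hor ↥(beta0Field A) m) m
        (s36Alpha ↥(beta0Field A) M q) (s36Beta ↥(beta0Field A) M q)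
        (s36NormAlpha ↥(beta0Field A) M q) (s36NormBeta ↥(beta0Field A) M q) ζ₁
        (s36i1V M hq hA hqM hζ ιC h) S36Comp.a S36Comp.b S36Comp.c
        (atO ((q : ℕ) : ↥(beta0Ring A (beta0Field A))) (bgJ ↥(beta0Field A) (M * q * q))
          (Sum.inr 𝔫))
        (stb_atO_isLocalRing (π := ((q : ℕ) : ↥(beta0Ring A (beta0Field A))))
          (bgJ ↥(beta0Field A) (M * q * q)) (Sum.inr 𝔫))
        (atInc ((q : ℕ) : ↥(beta0Ring A (beta0Field A))) (bgJ ↥(beta0Field A) (M * q * q))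
          (s36i1V M hq hA hqM hζ ιC h) (Sum.inr 𝔫)) := by
  intro 𝔫 h𝔫 hc₁ honly
  obtain ⟨Y₀, hY₀, hgen⟩ := hgenA 𝔫 h𝔫 hc₁
  exact s36cua_hA_of M hq hA hqM hζ ιC h hKR 𝔫 hc₁ honly hY₀ hgen m ζ₁

/-! ### The chart `j`: `hPa`, `hPb` of `s36pf_h1` -/

/-- **hU** for `V_b`, concrete -/
theorem s36cua_hU_b (x : ↥(modularFunctionFieldFullC ↥(beta0Field A) (M * q * q)))
    (hx : x ∈ (s36i1V M hq hA hqM hζ ιC h S36Comp.b).nonunits) :
    ∃ z ∈ s36i1V M hq hA hqM hζ ιC h S36Comp.b, x =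
      algebraMap ↥(beta0Ring A (beta0Field A))
        ↥(modularFunctionFieldFullC ↥(beta0Field A) (M * q * q))
        ((q : ℕ) : ↥(beta0Ring A (beta0Field A))) * z :=
  s36i1_hU_b (vtBase_residue (beta0Ring_irreducible_q hq hA)) (s36n2b_vtBase hq hA hζ)
    (IntermediateField.inclusion (s36n2b_le_K A ζ)).toRingHom ιC hq hqM h (s36i1Z hq hζ) rfl x hx

/-- **one-component points of multiplicity one on the chart `j`** (`c₁ = a` or `c₁ = b`), from
the multiplicity-one statement `hU` for `V c₁`. -/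
theorem s36cua_inl_of
    (hKR : ∀ x : ↥(modularFunctionFieldFullC ↥(beta0Field A) (M * q * q)),
      IsIntegral ↥(Algebra.adjoin ↥(beta0Ring A (beta0Field A))
          {bgJ ↥(beta0Field A) (M * q * q)})
        (algebraMap ↥(beta0Ring A (beta0Field A))
          ↥(modularFunctionFieldFullC ↥(beta0Field A) (M * q * q))
          ((q : ℕ) : ↥(beta0Ring A (beta0Field A))) * x) →
      (∀ c, x ∈ s36i1V M hq hA hqM hζ ιC h c) →
        IsIntegral ↥(Algebra.adjoin ↥(beta0Ring A (beta0Field A))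
          {bgJ ↥(beta0Field A) (M * q * q)}) x)
    (𝔫 : AtPt (F := ↥(modularFunctionFieldFullC ↥(beta0Field A) (M * q * q)))
        ((q : ℕ) : ↥(beta0Ring A (beta0Field A))) (bgJ ↥(beta0Field A) (M * q * q)))
    (c₁ : S36Comp)
    (hc₁ : atThrough 𝔫 (s36i1V M hq hA hqM hζ ιC h c₁))
    (honly : ∀ c, atThrough 𝔫 (s36i1V M hq hA hqM hζ ιC h c) → c = c₁)
    {Y₀ : ↥(zchClosure (A₀ := ↥(beta0Ring A (beta0Field A)))
      ({bgJ ↥(beta0Field A) (M * q * q)} :
        Set ↥(modularFunctionFieldFullC ↥(beta0Field A) (M * q * q))))}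
    (hY₀ : Y₀ ∈ 𝔫.1) (hgen : S36n2pGen 𝔫.1 (s36i1V M hq hA hqM hζ ιC h c₁) Y₀)
    (hU : ∀ x ∈ (s36i1V M hq hA hqM hζ ιC h c₁).nonunits,
      ∃ z ∈ s36i1V M hq hA hqM hζ ιC h c₁, x =
        algebraMap ↥(beta0Ring A (beta0Field A))
          ↥(modularFunctionFieldFullC ↥(beta0Field A) (M * q * q))
          ((q : ℕ) : ↥(beta0Ring A (beta0Field A))) * z)
    (m : ℕ) (ζ₁ : ↥(modularFunctionFieldFullC ↥(beta0Field A) (M * q))) :
    @S36PtInput ↥(modularFunctionFieldFullC ↥(beta0Field A) (M * q))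
      ↥(modularFunctionFieldFullC ↥(beta0Field A) (M * q * q)) _ _ S36Comp
      (s36Hor ↥(beta0Field A) m) m
      (s36Alpha ↥(beta0Field A) M q) (s36Beta ↥(beta0Field A) M q)
      (s36NormAlpha ↥(beta0Field A) M q) (s36NormBeta ↥(beta0Field A) M q) ζ₁
      (s36i1V M hq hA hqM hζ ιC h) S36Comp.a S36Comp.b S36Comp.c
      (atO ((q : ℕ) : ↥(beta0Ring A (beta0Field A))) (bgJ ↥(beta0Field A) (M * q * q))
        (Sum.inl 𝔫))
      (stb_atO_isLocalRing (π := ((q : ℕ) : ↥(beta0Ring A (beta0Field A))))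
        (bgJ ↥(beta0Field A) (M * q * q)) (Sum.inl 𝔫))
      (atInc ((q : ℕ) : ↥(beta0Ring A (beta0Field A))) (bgJ ↥(beta0Field A) (M * q * q))
        (s36i1V M hq hA hqM hζ ιC h) (Sum.inl 𝔫)) := by
  have hπ : Irreducible ((q : ℕ) : ↥(beta0Ring A (beta0Field A))) :=
    beta0Ring_irreducible_q hq hA
  have ht := bgConst_transcendental_bgJ ↥(beta0Field A) (M * q * q)
  haveI : FiniteDimensional (↥(beta0Field A))⟮bgJ ↥(beta0Field A) (M * q * q)⟯
      ↥(modularFunctionFieldFullC ↥(beta0Field A) (M * q * q)) :=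
    bgFin_finiteDimensional_full ↥(beta0Field A) (M * q * q)
  haveI : IsNoetherianRing ↥(zchClosure (A₀ := ↥(beta0Ring A (beta0Field A)))
      ({bgJ ↥(beta0Field A) (M * q * q)} :
        Set ↥(modularFunctionFieldFullC ↥(beta0Field A) (M * q * q)))) :=
    chart_closure_isNoetherianRing (A₀ := ↥(beta0Ring A (beta0Field A)))
      (E := ↥(beta0Field A)) ht
  obtain ⟨κ, -, hκ⟩ := s36n2b_compat (A := A) (ζ := ζ) hq hA
  haveI : CharP (IsLocalRing.ResidueField ↥(beta0Ring A (beta0Field A))) q := mgvl_charP hq hA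
  haveI : CharP (IsLocalRing.ResidueField ↥(beta0Ring A (s36n2bK A ζ))) q := mgvl_charP hq hA
  have hVloc := s36n2l_hVloc₁ (vtBase_residue hπ) (s36n2b_vtBase hq hA hζ)
    (IntermediateField.inclusion (s36n2b_le_K A ζ)).toRingHom ιC hq hqM h (s36i1Z hq hζ) rfl
    hπ hκ (s36n2b_residue_zeta hq hA hζ) hKR c₁
  exact s36pab_one_inl (E := ↥(beta0Field A)) hπ (s36i1V M hq hA hqM hζ ιC h)
    (s36i1c_hBV₁ M hq hA hqM hζ ιC h) (s36i1c_hπV M hq hA hqM hζ ιC h) hKR (q ^ 1)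
    (s36i1c_hram M hq hA hqM hζ ιC h) 𝔫 c₁ hc₁ honly hVloc hY₀ hgen hU
    (s36Hor ↥(beta0Field A) m) m (fun y hy => hy)
    (s36Alpha ↥(beta0Field A) M q) (s36Beta ↥(beta0Field A) M q)
    (s36NormAlpha ↥(beta0Field A) M q) (s36NormBeta ↥(beta0Field A) M q) ζ₁
    S36Comp.a S36Comp.b S36Comp.c

/-- **`hPa` of `s36pf_h1`** (helper31), VERBATIM at `Hor = s36Hor E₀ m`, from (I2) `hKR` and
"Gen_a on the chart `j`". -/
theorem s36cua_hPa
    (hKR : ∀ x : ↥(modularFunctionFieldFullC ↥(beta0Field A) (M * q * q)),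
      IsIntegral ↥(Algebra.adjoin ↥(beta0Ring A (beta0Field A))
          {bgJ ↥(beta0Field A) (M * q * q)})
        (algebraMap ↥(beta0Ring A (beta0Field A))
          ↥(modularFunctionFieldFullC ↥(beta0Field A) (M * q * q))
          ((q : ℕ) : ↥(beta0Ring A (beta0Field A))) * x) →
      (∀ c, x ∈ s36i1V M hq hA hqM hζ ιC h c) →
        IsIntegral ↥(Algebra.adjoin ↥(beta0Ring A (beta0Field A))
          {bgJ ↥(beta0Field A) (M * q * q)}) x)
    (hgenA : ∀ 𝔫 : AtPt (F := ↥(modularFunctionFieldFullC ↥(beta0Field A) (M * q * q)))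
        ((q : ℕ) : ↥(beta0Ring A (beta0Field A))) (bgJ ↥(beta0Field A) (M * q * q)),
      atThrough 𝔫 (s36i1V M hq hA hqM hζ ιC h S36Comp.a) →
      ∃ Y₀ ∈ 𝔫.1, S36n2pGen 𝔫.1 (s36i1V M hq hA hqM hζ ιC h S36Comp.a) Y₀)
    (m : ℕ) (ζ₁ : ↥(modularFunctionFieldFullC ↥(beta0Field A) (M * q))) :
    ∀ 𝔫 : AtPt (F := ↥(modularFunctionFieldFullC ↥(beta0Field A) (M * q * q)))
        ((q : ℕ) : ↥(beta0Ring A (beta0Field A))) (bgJ ↥(beta0Field A) (M * q * q)),
      atThrough 𝔫 (s36i1V M hq hA hqM hζ ιC h S36Comp.a) →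
      (∀ c, atThrough 𝔫 (s36i1V M hq hA hqM hζ ιC h c) → c = S36Comp.a) →
      @S36PtInput ↥(modularFunctionFieldFullC ↥(beta0Field A) (M * q))
        ↥(modularFunctionFieldFullC ↥(beta0Field A) (M * q * q)) _ _ S36Comp
        (s36Hor ↥(beta0Field A) m) m
        (s36Alpha ↥(beta0Field A) M q) (s36Beta ↥(beta0Field A) M q)
        (s36NormAlpha ↥(beta0Field A) M q) (s36NormBeta ↥(beta0Field A) M q) ζ₁
        (s36i1V M hq hA hqM hζ ιC h) S36Comp.a S36Comp.b S36Comp.c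
        (atO ((q : ℕ) : ↥(beta0Ring A (beta0Field A))) (bgJ ↥(beta0Field A) (M * q * q))
          (Sum.inl 𝔫))
        (stb_atO_isLocalRing (π := ((q : ℕ) : ↥(beta0Ring A (beta0Field A))))
          (bgJ ↥(beta0Field A) (M * q * q)) (Sum.inl 𝔫))
        (atInc ((q : ℕ) : ↥(beta0Ring A (beta0Field A))) (bgJ ↥(beta0Field A) (M * q * q))
          (s36i1V M hq hA hqM hζ ιC h) (Sum.inl 𝔫)) := by
  intro 𝔫 hc₁ honly
  obtain ⟨Y₀, hY₀, hgen⟩ := hgenA 𝔫 hc₁
  exact s36cua_inl_of M hq hA hqM hζ ιC h hKR 𝔫 S36Comp.a hc₁ honly hY₀ hgen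
    (s36i1c_hU M hq hA hqM hζ ιC h) m ζ₁

/-- **`hPb` of `s36pf_h1`** (helper31), VERBATIM at `Hor = s36Hor E₀ m`, from (I2) `hKR` and
"Gen_b on the chart `j`". -/
theorem s36cua_hPb
    (hKR : ∀ x : ↥(modularFunctionFieldFullC ↥(beta0Field A) (M * q * q)),
      IsIntegral ↥(Algebra.adjoin ↥(beta0Ring A (beta0Field A))
          {bgJ ↥(beta0Field A) (M * q * q)})
        (algebraMap ↥(beta0Ring A (beta0Field A))
          ↥(modularFunctionFieldFullC ↥(beta0Field A) (M * q * q))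
          ((q : ℕ) : ↥(beta0Ring A (beta0Field A))) * x) →
      (∀ c, x ∈ s36i1V M hq hA hqM hζ ιC h c) →
        IsIntegral ↥(Algebra.adjoin ↥(beta0Ring A (beta0Field A))
          {bgJ ↥(beta0Field A) (M * q * q)}) x)
    (hgenB : ∀ 𝔫 : AtPt (F := ↥(modularFunctionFieldFullC ↥(beta0Field A) (M * q * q)))
        ((q : ℕ) : ↥(beta0Ring A (beta0Field A))) (bgJ ↥(beta0Field A) (M * q * q)),
      atThrough 𝔫 (s36i1V M hq hA hqM hζ ιC h S36Comp.b) →
      ∃ Y₀ ∈ 𝔫.1, S36n2pGen 𝔫.1 (s36i1V M hq hA hqM hζ ιC h S36Comp.b) Y₀)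
    (m : ℕ) (ζ₁ : ↥(modularFunctionFieldFullC ↥(beta0Field A) (M * q))) :
    ∀ 𝔫 : AtPt (F := ↥(modularFunctionFieldFullC ↥(beta0Field A) (M * q * q)))
        ((q : ℕ) : ↥(beta0Ring A (beta0Field A))) (bgJ ↥(beta0Field A) (M * q * q)),
      atThrough 𝔫 (s36i1V M hq hA hqM hζ ιC h S36Comp.b) →
      (∀ c, atThrough 𝔫 (s36i1V M hq hA hqM hζ ιC h c) → c = S36Comp.b) →
      @S36PtInput ↥(modularFunctionFieldFullC ↥(beta0Field A) (M * q))
        ↥(modularFunctionFieldFullC ↥(beta0Field A) (M * q * q)) _ _ S36Comp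
        (s36Hor ↥(beta0Field A) m) m
        (s36Alpha ↥(beta0Field A) M q) (s36Beta ↥(beta0Field A) M q)
        (s36NormAlpha ↥(beta0Field A) M q) (s36NormBeta ↥(beta0Field A) M q) ζ₁
        (s36i1V M hq hA hqM hζ ιC h) S36Comp.a S36Comp.b S36Comp.c
        (atO ((q : ℕ) : ↥(beta0Ring A (beta0Field A))) (bgJ ↥(beta0Field A) (M * q * q))
          (Sum.inl 𝔫))
        (stb_atO_isLocalRing (π := ((q : ℕ) : ↥(beta0Ring A (beta0Field A))))
          (bgJ ↥(beta0Field A) (M * q * q)) (Sum.inl 𝔫))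
        (atInc ((q : ℕ) : ↥(beta0Ring A (beta0Field A))) (bgJ ↥(beta0Field A) (M * q * q))
          (s36i1V M hq hA hqM hζ ιC h) (Sum.inl 𝔫)) := by
  intro 𝔫 hc₁ honly
  obtain ⟨Y₀, hY₀, hgen⟩ := hgenB 𝔫 hc₁
  exact s36cua_inl_of M hq hA hqM hζ ιC h hKR 𝔫 S36Comp.b hc₁ honly hY₀ hgen
    (s36cua_hU_b M hq hA hqM hζ ιC h) m ζ₁

end Skeleton

end Fermat.Agent.S36

end
end ZBS36_032_3

/-! ### bundled: `Fermat.Agent.S36.PtsOneAB` -/
section ZBS36_032_4
/-
S36 (Carayol at `q² ∥ M`), geometric clause, (I6)(a) (helper62): the two named statements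
`StmtS36PtsOne S36Comp.a`, `StmtS36PtsOne S36Comp.b` of `S36/PtsPlan.lean` (helper31):
`S36PtInput` at the closed points of the chart `j` of level `M q²` lying on `C_a` only, resp. on
`C_b` only.

* `StmtS36GenJ c` : "Gen_c on the chart `j`" — at every closed point `𝔫` of the chart `j` on the
  component `c` the branch `V c` is regular at `𝔫` (`S36n2pGen`), uniformly in the data.
* `stmtS36PtsOne_a_of`, `stmtS36PtsOne_b_of` : `StmtS36GenJ c → StmtS36PtsOne c` for `c = a, b`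
  (`s36cua_hPa`, `s36cua_hPb` of helper98 = `s36pab_one_inl` with `X = q`, `Y = 1`; (I2) `hKR` =
  `s36sk_hKR`).
-/

set_option autoImplicit false
set_option linter.unusedSectionVars false
set_option linter.unusedVariables false
set_option linter.style.haveILetI false
set_option linter.constructorNameAsVariable false

noncomputable section

namespace Fermat.Agent.S36

open ModularCurve AlgebraicCurve Fermat.Agent.ES Fermat.Agent.ES.G2 Fermat.Agent.INJ
open Fermat.Agent.UNIP Fermat.Agent.STB IntermediateField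

/-- **Gen_c on the chart `j`**: the branch `V c` is regular at every closed point of the chart
`j` of level `M q²` lying on the component `c`. -/
def StmtS36GenJ (c : S36Comp) : Prop :=
  ∀ (M q : ℕ) [NeZero M] [NeZero q] (hq : q.Prime) (hR : S36Rigid M q)
    (A : ValuationSubring (AlgebraicClosure ℚ)) (hA : A.LiesOverPrime q)
    [IsDiscreteValuationRing ↥(beta0Ring A (beta0Field A))]
    (ζ : AlgebraicClosure ℚ) (hζ : IsPrimitiveRoot ζ q)
    (ιC : ↥(beta0Field A) →+* ℂ) (ιK : ↥(s36n2bK A ζ) →+* ℂ)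
    (h : S36MidEmb ↥(s36n2bK A ζ) q M (s36i1ZK (A := A) hq hζ)),
    ∀ 𝔫 : AtPt (F := ↥(modularFunctionFieldFullC ↥(beta0Field A) (M * q * q)))
        ((q : ℕ) : ↥(beta0Ring A (beta0Field A))) (bgJ ↥(beta0Field A) (M * q * q)),
      atThrough 𝔫 (s36i1V M hq hA hR.1 hζ ιC h c) →
      ∃ Y₀ ∈ 𝔫.1, S36n2pGen 𝔫.1 (s36i1V M hq hA hR.1 hζ ιC h c) Y₀

/-- **(I6)(a), `C_a`**: from Gen_a on the chart `j`. -/
theorem stmtS36PtsOne_a_of (hgen : StmtS36GenJ S36Comp.a) : StmtS36PtsOne S36Comp.a := by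
  intro M q p _ _ hq hp hpq hp2 hR A hA _ ζ hζ ιC ιK h r ζm hζm 𝔫 hthr honly
  exact s36cua_hPa M hq hA hR.1 hζ ιC h
    (s36sk_hKR M hq hA hR.1 hζ ιC h (s36so_rigid_h2 hR) (s36so_rigid_h3 hR) ιK)
    (hgen M q hq hR A hA ζ hζ ιC ιK h) (p ^ r) _ 𝔫 hthr honly

/-- **(I6)(a), `C_b`**: from Gen_b on the chart `j`. -/
theorem stmtS36PtsOne_b_of (hgen : StmtS36GenJ S36Comp.b) : StmtS36PtsOne S36Comp.b := by
  intro M q p _ _ hq hp hpq hp2 hR A hA _ ζ hζ ιC ιK h r ζm hζm 𝔫 hthr honly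
  exact s36cua_hPb M hq hA hR.1 hζ ιC h
    (s36sk_hKR M hq hA hR.1 hζ ιC h (s36so_rigid_h2 hR) (s36so_rigid_h3 hR) ιK)
    (hgen M q hq hR A hA ζ hζ ιC ιK h) (p ^ r) _ 𝔫 hthr honly

end Fermat.Agent.S36

end
end ZBS36_032_4

/-! ### bundled: `Fermat.Agent.S36.PtsMidInst` -/
section ZBS36_032_5

/-!
# S36 / (I6)(b): the points of `C_c` only, concrete setting (helper93)

Setting of `S36/TopB.lean`, `S36/SmallPart.lean`: `A₀ = beta0Ring A (beta0Field A)`,
`E₀ = beta0Field A`, `F = F_{Mqq}(E₀)`, `t = bgJ E₀ (M*q*q)`, `π = q`,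
`V = s36i1V M hq hA hqM hζ ιC h`.

* `s36pm_hVloc` : `hVloc` for `V` on the chart `j` (helper91's `s36n2l_hVloc₁`);
* `s36pm_hramc` : `x ∈ 𝔪(V c) ⇒ x ^ (q − 1) ∈ q V c`;
* **`s36pm_hPc_of`** : `S36PtInput` at a closed point `𝔫` of the chart `j` through which only
  `V_c` passes, from (KR), the regular branch `Gen_c`, and `X, g` with
  `(X ^ (q − 1) / q) ^ n ≡ g` at `V_c`, `g` a unit of `B_𝔫` (pieces b-UNIT, b-CONG);
* **`s36pm_hPc_odd`** (`4 ∣ M`, `q ≠ 2`), **`s36pm_hPc_nine`** (`9 ∣ M`, `q ≠ 3`) : the same with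
  `X, g` those of `S36/PtsCElts.lean` and (b-UNIT) discharged (`S36/PtsCUnit.lean`); the inputs
  left are (KR), `Gen_c`, `T ∈ V_c` and the congruence (b-CONG).
-/

set_option autoImplicit false
set_option linter.style.haveILetI false
set_option linter.unusedSectionVars false
set_option linter.unusedVariables false
set_option linter.constructorNameAsVariable false
set_option linter.style.longLine false

noncomputable section

namespace Fermat.Agent.S36

open ModularCurve AlgebraicCurve Fermat.Agent.INJ Fermat.Agent.UNIP Fermat.Agent.STB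
  IntermediateField

section Inst

variable {q : ℕ} {A : ValuationSubring (AlgebraicClosure ℚ)} (M : ℕ) [NeZero M] [NeZero q]
  [IsDiscreteValuationRing ↥(beta0Ring A (beta0Field A))]
  {ζ : AlgebraicClosure ℚ}
  (hq : q.Prime) (hA : A.LiesOverPrime q) (hqM : ¬ q ∣ M) (hζ : IsPrimitiveRoot ζ q)
  (ιC : ↥(beta0Field A) →+* ℂ)
  (h : S36MidEmb ↥(s36n2bK A ζ) q M (s36i1ZK (A := A) hq hζ))

/-- `x ∈ 𝔪(V c) ⇒ x ^ (q − 1) ∈ q V c` -/
theorem s36pm_hramc (c : S36Comp)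
    (x : ↥(modularFunctionFieldFullC ↥(beta0Field A) (M * q * q)))
    (hx : x ∈ (s36i1V M hq hA hqM hζ ιC h c).nonunits) :
    ∃ z ∈ s36i1V M hq hA hqM hζ ιC h c, x ^ (q - 1) =
      algebraMap ↥(beta0Ring A (beta0Field A))
        ↥(modularFunctionFieldFullC ↥(beta0Field A) (M * q * q))
        ((q : ℕ) : ↥(beta0Ring A (beta0Field A))) * z :=
  s36i1_hram (vtBase_residue (beta0Ring_irreducible_q hq hA)) (s36n2b_vtBase hq hA hζ)
    (IntermediateField.inclusion (s36n2b_le_K A ζ)).toRingHom ιC hq hqM h (s36i1Z hq hζ) rfl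
    (s36i1c_ram hq hA hζ) (Nat.sub_pos_of_lt hq.one_lt) le_rfl c x hx

/-- **hVloc** on the chart `j`, from (KR) -/
theorem s36pm_hVloc
    (hKR : ∀ x : ↥(modularFunctionFieldFullC ↥(beta0Field A) (M * q * q)),
      IsIntegral ↥(Algebra.adjoin ↥(beta0Ring A (beta0Field A))
          {bgJ ↥(beta0Field A) (M * q * q)})
        (algebraMap ↥(beta0Ring A (beta0Field A))
          ↥(modularFunctionFieldFullC ↥(beta0Field A) (M * q * q))
          ((q : ℕ) : ↥(beta0Ring A (beta0Field A))) * x) →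
      (∀ c, x ∈ s36i1V M hq hA hqM hζ ιC h c) →
        IsIntegral ↥(Algebra.adjoin ↥(beta0Ring A (beta0Field A))
          {bgJ ↥(beta0Field A) (M * q * q)}) x)
    (c : S36Comp) (x : ↥(modularFunctionFieldFullC ↥(beta0Field A) (M * q * q)))
    (hx : x ∈ s36i1V M hq hA hqM hζ ιC h c) :
    ∃ b s : ↥(modularFunctionFieldFullC ↥(beta0Field A) (M * q * q)),
      IsIntegral ↥(Algebra.adjoin ↥(beta0Ring A (beta0Field A))
        {bgJ ↥(beta0Field A) (M * q * q)}) b ∧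
      IsIntegral ↥(Algebra.adjoin ↥(beta0Ring A (beta0Field A))
        {bgJ ↥(beta0Field A) (M * q * q)}) s ∧
      s ∉ (s36i1V M hq hA hqM hζ ιC h c).nonunits ∧ s * x = b := by
  haveI : Fact q.Prime := ⟨hq⟩
  haveI : CharP (IsLocalRing.ResidueField ↥(beta0Ring A (beta0Field A))) q := mgvl_charP hq hA
  haveI : CharP (IsLocalRing.ResidueField ↥(beta0Ring A (s36n2bK A ζ))) q := mgvl_charP hq hA
  obtain ⟨κ, -, hκ⟩ := s36n2b_compat (A := A) (ζ := ζ) hq hA
  exact s36n2l_hVloc₁ (vtBase_residue (beta0Ring_irreducible_q hq hA)) (s36n2b_vtBase hq hA hζ)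
    (IntermediateField.inclusion (s36n2b_le_K A ζ)).toRingHom ιC hq hqM h (s36i1Z hq hζ) rfl
    (beta0Ring_irreducible_q hq hA) hκ (s36n2b_residue_zeta hq hA hζ) hKR c x hx

/-- **(I6)(b), general form**: `S36PtInput` at a closed point of the chart `j` through which
only `V_c` passes. -/
theorem s36pm_hPc_of {F₁ : Type*} [Field F₁]
    (hKR : ∀ x : ↥(modularFunctionFieldFullC ↥(beta0Field A) (M * q * q)),
      IsIntegral ↥(Algebra.adjoin ↥(beta0Ring A (beta0Field A))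
          {bgJ ↥(beta0Field A) (M * q * q)})
        (algebraMap ↥(beta0Ring A (beta0Field A))
          ↥(modularFunctionFieldFullC ↥(beta0Field A) (M * q * q))
          ((q : ℕ) : ↥(beta0Ring A (beta0Field A))) * x) →
      (∀ c, x ∈ s36i1V M hq hA hqM hζ ιC h c) →
        IsIntegral ↥(Algebra.adjoin ↥(beta0Ring A (beta0Field A))
          {bgJ ↥(beta0Field A) (M * q * q)}) x)
    (𝔫 : AtPt (F := ↥(modularFunctionFieldFullC ↥(beta0Field A) (M * q * q)))
      ((q : ℕ) : ↥(beta0Ring A (beta0Field A))) (bgJ ↥(beta0Field A) (M * q * q)))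
    (hc : atThrough 𝔫 (s36i1V M hq hA hqM hζ ιC h S36Comp.c))
    (honly : ∀ c, atThrough 𝔫 (s36i1V M hq hA hqM hζ ιC h c) → c = S36Comp.c)
    (hGen : ∃ Y₀ : ↥(zchClosure (A₀ := ↥(beta0Ring A (beta0Field A)))
        ({bgJ ↥(beta0Field A) (M * q * q)} :
          Set ↥(modularFunctionFieldFullC ↥(beta0Field A) (M * q * q)))),
      Y₀ ∈ 𝔫.1 ∧ S36n2pGen 𝔫.1 (s36i1V M hq hA hqM hζ ιC h S36Comp.c) Y₀)
    {X g : ↥(modularFunctionFieldFullC ↥(beta0Field A) (M * q * q))}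
    (hX : X ∈ atLoc 𝔫) (hg : g ∈ atLoc 𝔫) (hg' : g⁻¹ ∈ atLoc 𝔫) (hg0 : g ≠ 0)
    (n : ℕ) (hn : 0 < n)
    (hcong : (X ^ (q - 1) / algebraMap ↥(beta0Ring A (beta0Field A))
        ↥(modularFunctionFieldFullC ↥(beta0Field A) (M * q * q))
        ((q : ℕ) : ↥(beta0Ring A (beta0Field A)))) ^ n - g ∈
      (s36i1V M hq hA hqM hζ ιC h S36Comp.c).nonunits)
    (Hor : ↥(modularFunctionFieldFullC ↥(beta0Field A) (M * q * q)) → Prop) (m : ℕ)
    (hHor : ∀ y, Hor y → ∀ P : Place ↥(beta0Field A)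
      ↥(modularFunctionFieldFullC ↥(beta0Field A) (M * q * q)), (m : ℤ) ∣ P.ord y)
    (α β : F₁ →+* ↥(modularFunctionFieldFullC ↥(beta0Field A) (M * q * q)))
    (Nα Nβ : ↥(modularFunctionFieldFullC ↥(beta0Field A) (M * q * q)) →* F₁) (ζ₁ : F₁) :
    @S36PtInput F₁ ↥(modularFunctionFieldFullC ↥(beta0Field A) (M * q * q)) _ _ S36Comp
      Hor m α β Nα Nβ ζ₁
      (s36i1V M hq hA hqM hζ ιC h) S36Comp.a S36Comp.b S36Comp.c
      (atO ((q : ℕ) : ↥(beta0Ring A (beta0Field A))) (bgJ ↥(beta0Field A) (M * q * q))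
        (Sum.inl 𝔫))
      (stb_atO_isLocalRing (π := ((q : ℕ) : ↥(beta0Ring A (beta0Field A))))
        (bgJ ↥(beta0Field A) (M * q * q)) (Sum.inl 𝔫))
      (atInc ((q : ℕ) : ↥(beta0Ring A (beta0Field A))) (bgJ ↥(beta0Field A) (M * q * q))
        (s36i1V M hq hA hqM hζ ιC h) (Sum.inl 𝔫)) := by
  haveI : FiniteDimensional (↥(beta0Field A))⟮bgJ ↥(beta0Field A) (M * q * q)⟯
      ↥(modularFunctionFieldFullC ↥(beta0Field A) (M * q * q)) :=
    bgFin_finiteDimensional_full ↥(beta0Field A) (M * q * q)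
  haveI : IsNoetherianRing ↥(zchClosure (A₀ := ↥(beta0Ring A (beta0Field A)))
      ({bgJ ↥(beta0Field A) (M * q * q)} :
        Set ↥(modularFunctionFieldFullC ↥(beta0Field A) (M * q * q)))) :=
    chart_closure_isNoetherianRing (A₀ := ↥(beta0Ring A (beta0Field A)))
      (E := ↥(beta0Field A)) (bgConst_transcendental_bgJ ↥(beta0Field A) (M * q * q))
  obtain ⟨Y₀, hY₀, hgen⟩ := hGen
  exact s36pm_atPt_inl (E := ↥(beta0Field A)) (beta0Ring_irreducible_q hq hA)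
    (s36i1V M hq hA hqM hζ ιC h) (s36i1c_hBV₁ M hq hA hqM hζ ιC h)
    (s36i1c_hπV M hq hA hqM hζ ιC h) hKR (q ^ 1) (s36i1c_hram M hq hA hqM hζ ιC h)
    𝔫 S36Comp.c hc honly (s36pm_hVloc M hq hA hqM hζ ιC h hKR S36Comp.c) hY₀ hgen
    hX hg hg' hg0 (q - 1) n (Nat.sub_pos_of_lt hq.one_lt) hn hcong
    (s36pm_hramc M hq hA hqM hζ ιC h S36Comp.c) Hor m hHor α β Nα Nβ ζ₁
    S36Comp.a S36Comp.b S36Comp.c

/-- **(I6)(b), `q ≠ 2`, `4 ∣ M`**: `S36PtInput` at a closed point of the chart `j` through which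
only `V_c` passes, with `X = Π_{t₄}`, `g = G · T` (b-UNIT discharged).  Inputs left: (KR), `Gen_c`,
`T ∈ V_c`, and the congruence (b-CONG). -/
theorem s36pm_hPc_odd {F₁ : Type*} [Field F₁] (h4 : 4 ∣ M) (hq2 : q ≠ 2)
    (hKR : ∀ x : ↥(modularFunctionFieldFullC ↥(beta0Field A) (M * q * q)),
      IsIntegral ↥(Algebra.adjoin ↥(beta0Ring A (beta0Field A))
          {bgJ ↥(beta0Field A) (M * q * q)})
        (algebraMap ↥(beta0Ring A (beta0Field A))
          ↥(modularFunctionFieldFullC ↥(beta0Field A) (M * q * q))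
          ((q : ℕ) : ↥(beta0Ring A (beta0Field A))) * x) →
      (∀ c, x ∈ s36i1V M hq hA hqM hζ ιC h c) →
        IsIntegral ↥(Algebra.adjoin ↥(beta0Ring A (beta0Field A))
          {bgJ ↥(beta0Field A) (M * q * q)}) x)
    (hT : s36cunT ↥(beta0Field A) ιC M q ∈ s36i1V M hq hA hqM hζ ιC h S36Comp.c)
    (hcong : (s36cunX4 ↥(beta0Field A) M q h4 ^ (q - 1) /
        algebraMap ↥(beta0Ring A (beta0Field A))
          ↥(modularFunctionFieldFullC ↥(beta0Field A) (M * q * q))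
          ((q : ℕ) : ↥(beta0Ring A (beta0Field A)))) ^ 6 -
        s36cunG4 ↥(beta0Field A) M q h4 * s36cunT ↥(beta0Field A) ιC M q ∈
      (s36i1V M hq hA hqM hζ ιC h S36Comp.c).nonunits)
    (𝔫 : AtPt (F := ↥(modularFunctionFieldFullC ↥(beta0Field A) (M * q * q)))
      ((q : ℕ) : ↥(beta0Ring A (beta0Field A))) (bgJ ↥(beta0Field A) (M * q * q)))
    (hc : atThrough 𝔫 (s36i1V M hq hA hqM hζ ιC h S36Comp.c))
    (honly : ∀ c, atThrough 𝔫 (s36i1V M hq hA hqM hζ ιC h c) → c = S36Comp.c)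
    (hGen : ∃ Y₀ : ↥(zchClosure (A₀ := ↥(beta0Ring A (beta0Field A)))
        ({bgJ ↥(beta0Field A) (M * q * q)} :
          Set ↥(modularFunctionFieldFullC ↥(beta0Field A) (M * q * q)))),
      Y₀ ∈ 𝔫.1 ∧ S36n2pGen 𝔫.1 (s36i1V M hq hA hqM hζ ιC h S36Comp.c) Y₀)
    (Hor : ↥(modularFunctionFieldFullC ↥(beta0Field A) (M * q * q)) → Prop) (m : ℕ)
    (hHor : ∀ y, Hor y → ∀ P : Place ↥(beta0Field A)
      ↥(modularFunctionFieldFullC ↥(beta0Field A) (M * q * q)), (m : ℤ) ∣ P.ord y)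
    (α β : F₁ →+* ↥(modularFunctionFieldFullC ↥(beta0Field A) (M * q * q)))
    (Nα Nβ : ↥(modularFunctionFieldFullC ↥(beta0Field A) (M * q * q)) →* F₁) (ζ₁ : F₁) :
    @S36PtInput F₁ ↥(modularFunctionFieldFullC ↥(beta0Field A) (M * q * q)) _ _ S36Comp
      Hor m α β Nα Nβ ζ₁
      (s36i1V M hq hA hqM hζ ιC h) S36Comp.a S36Comp.b S36Comp.c
      (atO ((q : ℕ) : ↥(beta0Ring A (beta0Field A))) (bgJ ↥(beta0Field A) (M * q * q))
        (Sum.inl 𝔫))
      (stb_atO_isLocalRing (π := ((q : ℕ) : ↥(beta0Ring A (beta0Field A))))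
        (bgJ ↥(beta0Field A) (M * q * q)) (Sum.inl 𝔫))
      (atInc ((q : ℕ) : ↥(beta0Ring A (beta0Field A))) (bgJ ↥(beta0Field A) (M * q * q))
        (s36i1V M hq hA hqM hζ ιC h) (Sum.inl 𝔫)) := by
  obtain ⟨hX, hg, hg', hg0⟩ := s36cun_main_odd ιC hq 𝔫 (s36i1V M hq hA hqM hζ ιC h)
    (s36i1c_hBV₁ M hq hA hqM hζ ιC h) hKR (q ^ 1) (s36i1c_hram M hq hA hqM hζ ιC h)
    (fun c hc' => by rw [honly c hc']; exact hT) h4 hq2
  exact s36pm_hPc_of M hq hA hqM hζ ιC h hKR 𝔫 hc honly hGen hX hg hg' hg0 6 (by norm_num)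
    hcong Hor m hHor α β Nα Nβ ζ₁

/-- **(I6)(b), `q ≠ 3`, `9 ∣ M`** (used for `q = 2`): the same with `X = Π_{t₉}`,
`g = (D⁵)^(q−1) · T / (t₉³)^(q−1)`. -/
theorem s36pm_hPc_nine {F₁ : Type*} [Field F₁] (h9 : 9 ∣ M) (hq3 : q ≠ 3)
    (hKR : ∀ x : ↥(modularFunctionFieldFullC ↥(beta0Field A) (M * q * q)),
      IsIntegral ↥(Algebra.adjoin ↥(beta0Ring A (beta0Field A))
          {bgJ ↥(beta0Field A) (M * q * q)})
        (algebraMap ↥(beta0Ring A (beta0Field A))
          ↥(modularFunctionFieldFullC ↥(beta0Field A) (M * q * q))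
          ((q : ℕ) : ↥(beta0Ring A (beta0Field A))) * x) →
      (∀ c, x ∈ s36i1V M hq hA hqM hζ ιC h c) →
        IsIntegral ↥(Algebra.adjoin ↥(beta0Ring A (beta0Field A))
          {bgJ ↥(beta0Field A) (M * q * q)}) x)
    (hT : s36cunT ↥(beta0Field A) ιC M q ∈ s36i1V M hq hA hqM hζ ιC h S36Comp.c)
    (hcong : (s36cunX9 ↥(beta0Field A) M q h9 ^ (q - 1) /
        algebraMap ↥(beta0Ring A (beta0Field A))
          ↥(modularFunctionFieldFullC ↥(beta0Field A) (M * q * q))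
          ((q : ℕ) : ↥(beta0Ring A (beta0Field A)))) ^ 6 -
        ((s36cunT9 ↥(beta0Field A) M q h9 ^ 2 + 9 * s36cunT9 ↥(beta0Field A) M q h9 + 27) ^ 5) ^
            (q - 1) * s36cunT ↥(beta0Field A) ιC M q /
          (s36cunT9 ↥(beta0Field A) M q h9 ^ 3) ^ (q - 1) ∈
      (s36i1V M hq hA hqM hζ ιC h S36Comp.c).nonunits)
    (𝔫 : AtPt (F := ↥(modularFunctionFieldFullC ↥(beta0Field A) (M * q * q)))
      ((q : ℕ) : ↥(beta0Ring A (beta0Field A))) (bgJ ↥(beta0Field A) (M * q * q)))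
    (hc : atThrough 𝔫 (s36i1V M hq hA hqM hζ ιC h S36Comp.c))
    (honly : ∀ c, atThrough 𝔫 (s36i1V M hq hA hqM hζ ιC h c) → c = S36Comp.c)
    (hGen : ∃ Y₀ : ↥(zchClosure (A₀ := ↥(beta0Ring A (beta0Field A)))
        ({bgJ ↥(beta0Field A) (M * q * q)} :
          Set ↥(modularFunctionFieldFullC ↥(beta0Field A) (M * q * q)))),
      Y₀ ∈ 𝔫.1 ∧ S36n2pGen 𝔫.1 (s36i1V M hq hA hqM hζ ιC h S36Comp.c) Y₀)
    (Hor : ↥(modularFunctionFieldFullC ↥(beta0Field A) (M * q * q)) → Prop) (m : ℕ)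
    (hHor : ∀ y, Hor y → ∀ P : Place ↥(beta0Field A)
      ↥(modularFunctionFieldFullC ↥(beta0Field A) (M * q * q)), (m : ℤ) ∣ P.ord y)
    (α β : F₁ →+* ↥(modularFunctionFieldFullC ↥(beta0Field A) (M * q * q)))
    (Nα Nβ : ↥(modularFunctionFieldFullC ↥(beta0Field A) (M * q * q)) →* F₁) (ζ₁ : F₁) :
    @S36PtInput F₁ ↥(modularFunctionFieldFullC ↥(beta0Field A) (M * q * q)) _ _ S36Comp
      Hor m α β Nα Nβ ζ₁
      (s36i1V M hq hA hqM hζ ιC h) S36Comp.a S36Comp.b S36Comp.c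
      (atO ((q : ℕ) : ↥(beta0Ring A (beta0Field A))) (bgJ ↥(beta0Field A) (M * q * q))
        (Sum.inl 𝔫))
      (stb_atO_isLocalRing (π := ((q : ℕ) : ↥(beta0Ring A (beta0Field A))))
        (bgJ ↥(beta0Field A) (M * q * q)) (Sum.inl 𝔫))
      (atInc ((q : ℕ) : ↥(beta0Ring A (beta0Field A))) (bgJ ↥(beta0Field A) (M * q * q))
        (s36i1V M hq hA hqM hζ ιC h) (Sum.inl 𝔫)) := by
  obtain ⟨hX, hg, hg', hg0⟩ := s36cun_main_nine ιC hq 𝔫 (s36i1V M hq hA hqM hζ ιC h)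
    (s36i1c_hBV₁ M hq hA hqM hζ ιC h) hKR (q ^ 1) (s36i1c_hram M hq hA hqM hζ ιC h)
    (fun c hc' => by rw [honly c hc']; exact hT) h9 hq3
  exact s36pm_hPc_of M hq hA hqM hζ ιC h hKR 𝔫 hc honly hGen hX hg hg' hg0 6 (by norm_num)
    hcong Hor m hHor α β Nα Nβ ζ₁

end Inst

end Fermat.Agent.S36

end
end ZBS36_032_5

/-! ### bundled: `Fermat.Agent.S36.PtsMidFinal` -/
section ZBS36_032_6

/-!
# S36 / (I6)(b): the points of `C_c` only — FINAL form of `hPc` (helper93)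

`V = s36i1V M hq hA hqM hζ ιC h`, chart `j = bgJ E₀ (M*q*q)`, `π = (q : A₀)`, rigid level
(`q ≠ 2 → 4 ∣ M`, `q = 2 → 9 ∣ M`).

* **`s36pm_hPc`** : `hPc` of `s36pf_h1` (`S36/PtsFinal.lean`): `S36PtInput` at every closed point
  of the chart `j` through which only `V_c` passes.  (KR) = helper98's `s36sk_hKR`, (b-UNIT) =
  helper80's `s36cun_main_odd/_nine`, (b-CONG) = helper57's `s36cgc_cong_t4/_t9'`.
  The ONLY input left is `Gen_c`: the branch `C_c` is regular at `𝔫`, with a local parameter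
  `Y₀ ∈ 𝔫` (from level `M`).
-/

set_option autoImplicit false
set_option linter.style.haveILetI false
set_option linter.unusedSectionVars false
set_option linter.unusedVariables false
set_option linter.constructorNameAsVariable false
set_option linter.style.longLine false

noncomputable section

namespace Fermat.Agent.S36

open ModularCurve AlgebraicCurve Fermat.Agent.INJ Fermat.Agent.UNIP Fermat.Agent.STB
  IntermediateField

section Final

variable {q : ℕ} {A : ValuationSubring (AlgebraicClosure ℚ)} (M : ℕ) [NeZero M] [NeZero q]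
  [IsDiscreteValuationRing ↥(beta0Ring A (beta0Field A))]
  {ζ : AlgebraicClosure ℚ}
  (hq : q.Prime) (hA : A.LiesOverPrime q) (hqM : ¬ q ∣ M) (hζ : IsPrimitiveRoot ζ q)
  (ιC : ↥(beta0Field A) →+* ℂ)
  (h : S36MidEmb ↥(s36n2bK A ζ) q M (s36i1ZK (A := A) hq hζ))

/-- **`hPc`**: `S36PtInput` at the closed points of the chart `j` on `C_c` only, from `Gen_c`. -/
theorem s36pm_hPc {F₁ : Type*} [Field F₁] (hR4 : q ≠ 2 → 4 ∣ M) (hR9 : q = 2 → 9 ∣ M)
    (ιK : ↥(s36n2bK A ζ) →+* ℂ)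
    (hGenC : ∀ 𝔫 : AtPt (F := ↥(modularFunctionFieldFullC ↥(beta0Field A) (M * q * q)))
        ((q : ℕ) : ↥(beta0Ring A (beta0Field A))) (bgJ ↥(beta0Field A) (M * q * q)),
      atThrough 𝔫 (s36i1V M hq hA hqM hζ ιC h S36Comp.c) →
      ∃ Y₀ : ↥(zchClosure (A₀ := ↥(beta0Ring A (beta0Field A)))
        ({bgJ ↥(beta0Field A) (M * q * q)} :
          Set ↥(modularFunctionFieldFullC ↥(beta0Field A) (M * q * q)))),
        Y₀ ∈ 𝔫.1 ∧ S36n2pGen 𝔫.1 (s36i1V M hq hA hqM hζ ιC h S36Comp.c) Y₀)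
    (Hor : ↥(modularFunctionFieldFullC ↥(beta0Field A) (M * q * q)) → Prop) (m : ℕ)
    (hHor : ∀ y, Hor y → ∀ P : Place ↥(beta0Field A)
      ↥(modularFunctionFieldFullC ↥(beta0Field A) (M * q * q)), (m : ℤ) ∣ P.ord y)
    (α β : F₁ →+* ↥(modularFunctionFieldFullC ↥(beta0Field A) (M * q * q)))
    (Nα Nβ : ↥(modularFunctionFieldFullC ↥(beta0Field A) (M * q * q)) →* F₁) (ζ₁ : F₁)
    (𝔫 : AtPt (F := ↥(modularFunctionFieldFullC ↥(beta0Field A) (M * q * q)))
      ((q : ℕ) : ↥(beta0Ring A (beta0Field A))) (bgJ ↥(beta0Field A) (M * q * q)))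
    (hc : atThrough 𝔫 (s36i1V M hq hA hqM hζ ιC h S36Comp.c))
    (honly : ∀ c, atThrough 𝔫 (s36i1V M hq hA hqM hζ ιC h c) → c = S36Comp.c) :
    @S36PtInput F₁ ↥(modularFunctionFieldFullC ↥(beta0Field A) (M * q * q)) _ _ S36Comp
      Hor m α β Nα Nβ ζ₁
      (s36i1V M hq hA hqM hζ ιC h) S36Comp.a S36Comp.b S36Comp.c
      (atO ((q : ℕ) : ↥(beta0Ring A (beta0Field A))) (bgJ ↥(beta0Field A) (M * q * q))
        (Sum.inl 𝔫))
      (stb_atO_isLocalRing (π := ((q : ℕ) : ↥(beta0Ring A (beta0Field A))))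
        (bgJ ↥(beta0Field A) (M * q * q)) (Sum.inl 𝔫))
      (atInc ((q : ℕ) : ↥(beta0Ring A (beta0Field A))) (bgJ ↥(beta0Field A) (M * q * q))
        (s36i1V M hq hA hqM hζ ιC h) (Sum.inl 𝔫)) := by
  have h2 : q = 2 → 3 ∣ M := fun e => (show 3 ∣ 9 by norm_num).trans (hR9 e)
  have h3 : q = 3 → 2 ∣ M := fun e =>
    (show 2 ∣ 4 by norm_num).trans (hR4 (by rw [e]; norm_num))
  have hKR := s36sk_hKR M hq hA hqM hζ ιC h h2 h3 ιK
  have hT := s36cgc_T_mem M hq hA hqM hζ ιC h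
  by_cases hq2 : q = 2
  · have h9 : 9 ∣ M := hR9 hq2
    have hq3 : q ≠ 3 := by rw [hq2]; norm_num
    exact s36pm_hPc_nine M hq hA hqM hζ ιC h h9 hq3 hKR hT
      (s36cgc_cong_t9' M hq hA hqM hζ ιC h h9) 𝔫 hc honly (hGenC 𝔫 hc)
      Hor m hHor α β Nα Nβ ζ₁
  · have h4 : 4 ∣ M := hR4 hq2
    exact s36pm_hPc_odd M hq hA hqM hζ ιC h h4 hq2 hKR hT
      (s36cgc_cong_t4 M hq hA hqM hζ ιC h h4) 𝔫 hc honly (hGenC 𝔫 hc)
      Hor m hHor α β Nα Nβ ζ₁

end Final

end Fermat.Agent.S36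

end
end ZBS36_032_6

/-! ### bundled: `Fermat.Agent.S36.PtsMidStmt` -/
section ZBS36_032_7

/-!
# S36 / (I6)(b): `StmtS36PtsOne S36Comp.c` from `Gen_c` (helper93)

* **`stmtS36PtsOne_c_of : StmtS36GenJ S36Comp.c → StmtS36PtsOne S36Comp.c`**
  (`StmtS36GenJ` : `S36/PtsOneAB.lean`, helper62; `StmtS36PtsOne` : `S36/PtsPlan.lean`, helper31).
-/

set_option autoImplicit false
set_option linter.style.haveILetI false
set_option linter.unusedSectionVars false
set_option linter.unusedVariables false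
set_option linter.constructorNameAsVariable false
set_option linter.style.longLine false

noncomputable section

namespace Fermat.Agent.S36

open ModularCurve AlgebraicCurve Fermat.Agent.INJ Fermat.Agent.UNIP Fermat.Agent.STB
  IntermediateField

/-- **(I6)(b)**: the closed points of the chart `j` on `C_c` only, from `Gen_c`. -/
theorem stmtS36PtsOne_c_of (hgen : StmtS36GenJ S36Comp.c) : StmtS36PtsOne S36Comp.c := by
  intro M q p _ _ hq hp hpq hp2 hR A hA _ ζ hζ ιC ιK h r ζm hζm 𝔫 hc honly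
  exact s36pm_hPc M hq hA hR.1 hζ ιC h hR.2.1 hR.2.2 ιK (hgen M q hq hR A hA ζ hζ ιC ιK h)
    (s36Hor ↥(beta0Field A) (p ^ r)) (p ^ r) (fun y hy => hy) _ _ _ _ _ 𝔫 hc honly

end Fermat.Agent.S36

end
end ZBS36_032_7

/-! ### bundled: `Fermat.Agent.S36.PtsTripleInst` -/
section ZBS36_032_8

/-!
# S36 / (I6)(c) (helper37): `S36PtInput` at the TRIPLE points, concrete family

Concrete setting of `S36/SmallPart.lean`: `A₀ = beta0Ring A E₀`, `E₀ = beta0Field A`,
`F = F_{Mqq}(E₀)`, chart `t = bgJ E₀ (M q q)`, `V = s36i1V M hq hA hqM hζ ιC h`.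

* `s36pt_hPt_of` : `S36PtInput` at a closed point `𝔫` of the chart `j` through which all three
  components pass (= `hPt` of `s36pf_h1`, `S36/PtsFinal.lean`), from
    (I2) `hKR` on the chart `j`,
    (1)  the level-`M` data `ga gb : C →+* B` with (F1), the regular point, (Ka), (Kb), (Kc),
    (2)  the elements `X, Y` of the thin node (`hreg`),
    (3)  the two packages `NgLoc`.
-/

set_option autoImplicit false
set_option linter.style.haveILetI false
set_option linter.unusedSectionVars false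
set_option linter.unusedVariables false
set_option linter.constructorNameAsVariable false

noncomputable section

namespace Fermat.Agent.S36

open ModularCurve AlgebraicCurve Fermat.Agent.ES Fermat.Agent.ES.G2 Fermat.Agent.INJ
open Fermat.Agent.UNIP Fermat.Agent.STB IntermediateField

section Skeleton

variable {q : ℕ} {A : ValuationSubring (AlgebraicClosure ℚ)} (M : ℕ) [NeZero M] [NeZero q]
  [IsDiscreteValuationRing ↥(beta0Ring A (beta0Field A))]
  {ζ : AlgebraicClosure ℚ}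
  (hq : q.Prime) (hA : A.LiesOverPrime q) (hqM : ¬ q ∣ M) (hζ : IsPrimitiveRoot ζ q)
  (ιC : ↥(beta0Field A) →+* ℂ)
  (h : S36MidEmb ↥(s36n2bK A ζ) q M (s36i1ZK (A := A) hq hζ))

/-- **(c), skeleton**: `hPt` of `s36pf_h1` at the concrete family. -/
theorem s36pt_hPt_of
    (hKR : ∀ x : ↥(modularFunctionFieldFullC ↥(beta0Field A) (M * q * q)),
      IsIntegral ↥(Algebra.adjoin ↥(beta0Ring A (beta0Field A))
          {bgJ ↥(beta0Field A) (M * q * q)})
        (algebraMap ↥(beta0Ring A (beta0Field A))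
          ↥(modularFunctionFieldFullC ↥(beta0Field A) (M * q * q))
          ((q : ℕ) : ↥(beta0Ring A (beta0Field A))) * x) →
      (∀ c, x ∈ s36i1V M hq hA hqM hζ ιC h c) →
        IsIntegral ↥(Algebra.adjoin ↥(beta0Ring A (beta0Field A))
          {bgJ ↥(beta0Field A) (M * q * q)}) x)
    (𝔫 : AtPt (F := ↥(modularFunctionFieldFullC ↥(beta0Field A) (M * q * q)))
      ((q : ℕ) : ↥(beta0Ring A (beta0Field A))) (bgJ ↥(beta0Field A) (M * q * q)))
    (hthr : ∀ c, atThrough 𝔫 (s36i1V M hq hA hqM hζ ιC h c))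
    -- (1) level `M`
    {C : Type*} [CommRing C]
    (ga gb : C →+* ↥(zchClosure (A₀ := ↥(beta0Ring A (beta0Field A)))
      ({bgJ ↥(beta0Field A) (M * q * q)} :
        Set ↥(modularFunctionFieldFullC ↥(beta0Field A) (M * q * q)))))
    (hFa : ∀ b : ↥(zchClosure (A₀ := ↥(beta0Ring A (beta0Field A)))
        ({bgJ ↥(beta0Field A) (M * q * q)} :
          Set ↥(modularFunctionFieldFullC ↥(beta0Field A) (M * q * q)))), ∃ c : C,
      (b : ↥(modularFunctionFieldFullC ↥(beta0Field A) (M * q * q))) - (ga c : _) ∈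
        (s36i1V M hq hA hqM hζ ιC h S36Comp.a).nonunits)
    (hFb : ∀ b : ↥(zchClosure (A₀ := ↥(beta0Ring A (beta0Field A)))
        ({bgJ ↥(beta0Field A) (M * q * q)} :
          Set ↥(modularFunctionFieldFullC ↥(beta0Field A) (M * q * q)))), ∃ c : C,
      (b : ↥(modularFunctionFieldFullC ↥(beta0Field A) (M * q * q))) - (gb c : _) ∈
        (s36i1V M hq hA hqM hζ ιC h S36Comp.b).nonunits)
    (hFc : ∀ b : ↥(zchClosure (A₀ := ↥(beta0Ring A (beta0Field A)))
        ({bgJ ↥(beta0Field A) (M * q * q)} :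
          Set ↥(modularFunctionFieldFullC ↥(beta0Field A) (M * q * q)))), ∃ c : C,
      (b : ↥(modularFunctionFieldFullC ↥(beta0Field A) (M * q * q))) - (ga c : _) ∈
        (s36i1V M hq hA hqM hζ ιC h S36Comp.c).nonunits)
    (πC s : C)
    (hgaπ : ga πC = algebraMap ↥(beta0Ring A (beta0Field A)) _
      ((q : ℕ) : ↥(beta0Ring A (beta0Field A))))
    (hgbπ : gb πC = algebraMap ↥(beta0Ring A (beta0Field A)) _
      ((q : ℕ) : ↥(beta0Ring A (beta0Field A))))
    (hs : ga s ∈ 𝔫.1) (hgen : NodesLocGen (𝔫.1.comap ga) {πC, s})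
    (ψ₂ : C → C) {Q₂ : ℕ} (hQ₂ : 2 ≤ Q₂)
    (hKa : ∀ c : C, ((gb c : _) : ↥(modularFunctionFieldFullC ↥(beta0Field A) (M * q * q))) -
        (ga (ψ₂ c) : _) ^ Q₂ ∈ (s36i1V M hq hA hqM hζ ιC h S36Comp.a).nonunits)
    (hKb : ∀ c : C, ((ga c : _) : ↥(modularFunctionFieldFullC ↥(beta0Field A) (M * q * q))) -
        (gb (ψ₂ c) : _) ^ Q₂ ∈ (s36i1V M hq hA hqM hζ ιC h S36Comp.b).nonunits)
    (hKc : ∀ c : C, ((gb c : _) : ↥(modularFunctionFieldFullC ↥(beta0Field A) (M * q * q))) -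
        (ga c : _) ∈ (s36i1V M hq hA hqM hζ ιC h S36Comp.c).nonunits)
    -- (2) REG
    (hreg : ∃ X Y : ↥(modularFunctionFieldFullC ↥(beta0Field A) (M * q * q)),
      X ∈ atLoc 𝔫 ∧ Y ∈ atLoc 𝔫 ∧
      X * Y = algebraMap ↥(beta0Ring A (beta0Field A))
        ↥(modularFunctionFieldFullC ↥(beta0Field A) (M * q * q))
        ((q : ℕ) : ↥(beta0Ring A (beta0Field A))) ∧
      X ∈ (s36i1V M hq hA hqM hζ ιC h S36Comp.a).nonunits ∧
      (∀ x ∈ (s36i1V M hq hA hqM hζ ιC h S36Comp.a).nonunits,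
        ∃ z ∈ s36i1V M hq hA hqM hζ ιC h S36Comp.a, x = X * z) ∧
      X⁻¹ ∈ s36i1V M hq hA hqM hζ ιC h S36Comp.b ∧
      X⁻¹ ∈ s36i1V M hq hA hqM hζ ιC h S36Comp.c)
    -- (3) NgLoc
    (m : ℕ) (ζ₁ : ↥(modularFunctionFieldFullC ↥(beta0Field A) (M * q)))
    (hNα : ∃ Oα : Subring ↥(modularFunctionFieldFullC ↥(beta0Field A) (M * q)),
      NgLoc (s36Alpha ↥(beta0Field A) M q) (s36NormAlpha ↥(beta0Field A) M q)
        (s36i1V M hq hA hqM hζ ιC h S36Comp.a) (s36i1V M hq hA hqM hζ ιC h S36Comp.c) m ζ₁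
        (atLoc 𝔫) Oα)
    (hNβ : ∃ Oβ : Subring ↥(modularFunctionFieldFullC ↥(beta0Field A) (M * q)),
      NgLoc (s36Beta ↥(beta0Field A) M q) (s36NormBeta ↥(beta0Field A) M q)
        (s36i1V M hq hA hqM hζ ιC h S36Comp.b) (s36i1V M hq hA hqM hζ ιC h S36Comp.c) m ζ₁
        (atLoc 𝔫) Oβ) :
    @S36PtInput ↥(modularFunctionFieldFullC ↥(beta0Field A) (M * q))
      ↥(modularFunctionFieldFullC ↥(beta0Field A) (M * q * q)) _ _ S36Comp
      (s36Hor ↥(beta0Field A) m) m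
      (s36Alpha ↥(beta0Field A) M q) (s36Beta ↥(beta0Field A) M q)
      (s36NormAlpha ↥(beta0Field A) M q) (s36NormBeta ↥(beta0Field A) M q) ζ₁
      (s36i1V M hq hA hqM hζ ιC h) S36Comp.a S36Comp.b S36Comp.c
      (atO ((q : ℕ) : ↥(beta0Ring A (beta0Field A))) (bgJ ↥(beta0Field A) (M * q * q))
        (Sum.inl 𝔫))
      (stb_atO_isLocalRing (π := ((q : ℕ) : ↥(beta0Ring A (beta0Field A))))
        (bgJ ↥(beta0Field A) (M * q * q)) (Sum.inl 𝔫))
      (atInc ((q : ℕ) : ↥(beta0Ring A (beta0Field A))) (bgJ ↥(beta0Field A) (M * q * q))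
        (s36i1V M hq hA hqM hζ ιC h) (Sum.inl 𝔫)) := by
  have hπ : Irreducible ((q : ℕ) : ↥(beta0Ring A (beta0Field A))) :=
    beta0Ring_irreducible_q hq hA
  have ht := bgConst_transcendental_bgJ ↥(beta0Field A) (M * q * q)
  haveI : FiniteDimensional (↥(beta0Field A))⟮bgJ ↥(beta0Field A) (M * q * q)⟯
      ↥(modularFunctionFieldFullC ↥(beta0Field A) (M * q * q)) :=
    bgFin_finiteDimensional_full ↥(beta0Field A) (M * q * q)
  haveI : IsNoetherianRing ↥(zchClosure (A₀ := ↥(beta0Ring A (beta0Field A)))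
      ({bgJ ↥(beta0Field A) (M * q * q)} :
        Set ↥(modularFunctionFieldFullC ↥(beta0Field A) (M * q * q)))) :=
    chart_closure_isNoetherianRing (A₀ := ↥(beta0Ring A (beta0Field A)))
      (E := ↥(beta0Field A)) ht
  obtain ⟨κ, -, hκ⟩ := s36n2b_compat (A := A) (ζ := ζ) hq hA
  haveI : CharP (IsLocalRing.ResidueField ↥(beta0Ring A (beta0Field A))) q := mgvl_charP hq hA
  haveI : CharP (IsLocalRing.ResidueField ↥(beta0Ring A (s36n2bK A ζ))) q := mgvl_charP hq hA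
  have hVloc := s36n2l_hVloc₁ (vtBase_residue hπ) (s36n2b_vtBase hq hA hζ)
    (IntermediateField.inclusion (s36n2b_le_K A ζ)).toRingHom ιC hq hqM h (s36i1Z hq hζ) rfl
    hπ hκ (s36n2b_residue_zeta hq hA hζ) hKR
  exact s36pt_atPt_inl (E := ↥(beta0Field A)) hπ (s36i1V M hq hA hqM hζ ιC h)
    (s36i1c_hBV₁ M hq hA hqM hζ ιC h) (s36i1c_hπV M hq hA hqM hζ ιC h) hKR (q ^ 1)
    (s36i1c_hram M hq hA hqM hζ ιC h) 𝔫 S36Comp.a S36Comp.b S36Comp.c s36i1_hκ hthr hVloc
    ga gb hFa hFb hFc πC s hgaπ hgbπ hs hgen ψ₂ hQ₂ hKa hKb hKc hreg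
    (s36Hor ↥(beta0Field A) m) m (fun y hy => hy)
    (s36Alpha ↥(beta0Field A) M q) (s36Beta ↥(beta0Field A) M q)
    (s36NormAlpha ↥(beta0Field A) M q) (s36NormBeta ↥(beta0Field A) M q) ζ₁ hNα hNβ

end Skeleton

end Fermat.Agent.S36

end


end ZBS36_032_8

/-! ### bundled: `Fermat.Agent.S36.NgLocInst` -/
section ZBS36_032_9

/-!
# S36 / (I6)(c) (helper19): `NgLoc` at the triple points of the chart `j` of level `M q²`

Setting of `S36/N2Val.lean` (general base `hB`, `hB'`, …), chart `B = zchClosure {bgJ E (M*q*q)}`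
over `A`, `B′ = zchClosure {bgJ E (M*q)}`.  At a prime `𝔫` of `B` through the three components
`V_a`, `V_b`, `V_c`:

* `s36ngl_alpha` : `∃ Oα, NgLoc α N_α V_a V_c m ζ₁ B_𝔫 Oα`;
* `s36ngl_beta`  : `∃ Oβ, NgLoc β N_β V_b V_c m ζ₁ B_𝔫 Oβ`

(= the hypotheses `hNα`, `hNβ` of `s36n2p_ptInput_triple` / `s36pt_ptInput`), from
 * `hWloc` : `V′_0` resp. `V′_∞` is the localisation of the chart `B′` (UNIP `mgv_hVloc₁`),
 * `hGS`   : `B = φ B′ + 𝔭_V` for the two components over the same cusp (N2-ker (K2) / (F1)).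
Everything else (restrictions (C), (EXT), `NgDir.insep`, `hBV`, the modular equation) is
discharged here.
-/

set_option autoImplicit false
set_option linter.unusedSectionVars false
set_option linter.style.haveILetI false
set_option linter.unusedVariables false
set_option linter.constructorNameAsVariable false

noncomputable section

namespace Fermat.Agent.S36

open ModularCurve Fermat.Agent.UNIP Fermat.Agent.INJ Fermat.Agent.STB Fermat.Agent.AL
open Fermat.Agent.ES Fermat.Agent.S28 Fermat.Agent.S28.Deriv Polynomial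

section Elts

variable (E : Type*) [Field E] (M q : ℕ) [NeZero M] [NeZero q] [NeZero (M * q)]
  [NeZero (M * q * q)]

theorem s36ngl_alpha_bgJ : s36Alpha E M q (bgJ E (M * q)) = bgJ E (M * q * q) := by
  apply Subtype.ext
  rw [coe_s36Alpha]
  rfl

theorem s36ngl_beta_bgJ : s36Beta E M q (bgJ E (M * q)) = s36n2lJq E M q := by
  apply Subtype.ext
  rw [coe_s36Beta]
  rfl

/-- `Φ(j, j_q) = 0` in `F_{Mqq}` (the symmetric modular equation) -/
theorem s36ngl_phi_J (hq : q.Prime) :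
    (nodesSwapPhi q hq).eval₂ (evalInt (s36n2lJq E M q)) (s36n2lJ E M q) = 0 := by
  apply (modularFunctionFieldFullC E (M * q * q)).val.toRingHom.injective
  rw [map_eval₂_evalInt, map_zero]
  exact nodesSwapPhi_series' q hq E

end Elts

section Cm

variable (A E : Type*) [CommRing A] [IsDomain A] [IsDiscreteValuationRing A]
  [Field E] [Algebra A E] [IsFractionRing A E] [CharZero E]
  (M q : ℕ) [NeZero M] [NeZero q] [NeZero (M * q)] [NeZero (M * q * q)]
  [Algebra A (modularFunctionFieldFullC E (M * q))]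
  [IsScalarTower A E (modularFunctionFieldFullC E (M * q))]
  [Algebra A (modularFunctionFieldFullC E (M * q * q))]
  [IsScalarTower A E (modularFunctionFieldFullC E (M * q * q))]

variable {A E M q} in
theorem s36ngl_alpha_const (a : A) :
    s36Alpha E M q (algebraMap A (modularFunctionFieldFullC E (M * q)) a) =
      algebraMap A (modularFunctionFieldFullC E (M * q * q)) a := by
  rw [IsScalarTower.algebraMap_apply A E (modularFunctionFieldFullC E (M * q)),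
    IsScalarTower.algebraMap_apply A E (modularFunctionFieldFullC E (M * q * q))]
  exact s36Alpha_algebraMap E M q _

variable {A E M q} in
theorem s36ngl_beta_const (a : A) :
    s36Beta E M q (algebraMap A (modularFunctionFieldFullC E (M * q)) a) =
      algebraMap A (modularFunctionFieldFullC E (M * q * q)) a := by
  rw [IsScalarTower.algebraMap_apply A E (modularFunctionFieldFullC E (M * q)),
    IsScalarTower.algebraMap_apply A E (modularFunctionFieldFullC E (M * q * q))]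
  exact s36Beta_algebraMap E M q _

/-! ### The chart maps `B′ → B` along `α` and `β` -/

variable {A E M q} in
theorem s36ngl_alpha_hφt :
    IsIntegral (Algebra.adjoin A
      ({bgJ E (M * q * q)} : Set (modularFunctionFieldFullC E (M * q * q))))
      (s36Alpha E M q (bgJ E (M * q))) := by
  rw [s36ngl_alpha_bgJ]
  exact s36n2l_isIntegral_J (A := A) (E := E) (M := M) (q := q)

variable {A E M q} in
theorem s36ngl_alpha_htφ :
    IsIntegral (Algebra.adjoin A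
      ({s36Alpha E M q (bgJ E (M * q))} : Set (modularFunctionFieldFullC E (M * q * q))))
      (bgJ E (M * q * q)) := by
  rw [s36ngl_alpha_bgJ]
  exact s36n2l_isIntegral_J (A := A) (E := E) (M := M) (q := q)

variable {A E M q} in
theorem s36ngl_beta_hφt (hq : q.Prime) :
    IsIntegral (Algebra.adjoin A
      ({bgJ E (M * q * q)} : Set (modularFunctionFieldFullC E (M * q * q))))
      (s36Beta E M q (bgJ E (M * q))) := by
  rw [s36ngl_beta_bgJ]
  exact s36n2l_isIntegral_Jq (A := A) (E := E) (M := M) (q := q) hq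

variable {A E M q} in
theorem s36ngl_beta_htφ (hq : q.Prime) :
    IsIntegral (Algebra.adjoin A
      ({s36Beta E M q (bgJ E (M * q))} : Set (modularFunctionFieldFullC E (M * q * q))))
      (bgJ E (M * q * q)) := by
  rw [s36ngl_beta_bgJ]
  exact nodesSwap_isIntegral_of_evalInt (A := A) (nodesSwapPhi_monic q hq)
    (s36ngl_phi_J E M q hq)

/-- **the chart map along `α`**: `B′ = zchClosure {j} ⊆ F_{Mq}` → `B = zchClosure {j} ⊆ F_{Mqq}` -/
def s36nglCmAlpha :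
    ↥(zchClosure (A₀ := A) ({bgJ E (M * q)} : Set (modularFunctionFieldFullC E (M * q)))) →+*
      ↥(zchClosure (A₀ := A)
        ({bgJ E (M * q * q)} : Set (modularFunctionFieldFullC E (M * q * q)))) :=
  s36nglZchHom (A₀ := A) (s36Alpha E M q) (s36ngl_alpha_const (A := A)) (bgJ E (M * q))
    (bgJ E (M * q * q)) (s36ngl_alpha_hφt (A := A))

/-- **the chart map along `β`** -/
def s36nglCmBeta (hq : q.Prime) :
    ↥(zchClosure (A₀ := A) ({bgJ E (M * q)} : Set (modularFunctionFieldFullC E (M * q)))) →+*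
      ↥(zchClosure (A₀ := A)
        ({bgJ E (M * q * q)} : Set (modularFunctionFieldFullC E (M * q * q)))) :=
  s36nglZchHom (A₀ := A) (s36Beta E M q) (s36ngl_beta_const (A := A)) (bgJ E (M * q))
    (bgJ E (M * q * q)) (s36ngl_beta_hφt (A := A) hq)

variable {A E M q} in
theorem s36nglCmAlpha_coe
    (x : ↥(zchClosure (A₀ := A) ({bgJ E (M * q)} : Set (modularFunctionFieldFullC E (M * q))))) :
    ((s36nglCmAlpha A E M q x : ↥(zchClosure (A₀ := A)
        ({bgJ E (M * q * q)} : Set (modularFunctionFieldFullC E (M * q * q))))) :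
      modularFunctionFieldFullC E (M * q * q)) =
      s36Alpha E M q (x : modularFunctionFieldFullC E (M * q)) := rfl

variable {A E M q} in
theorem s36nglCmBeta_coe (hq : q.Prime)
    (x : ↥(zchClosure (A₀ := A) ({bgJ E (M * q)} : Set (modularFunctionFieldFullC E (M * q))))) :
    ((s36nglCmBeta A E M q hq x : ↥(zchClosure (A₀ := A)
        ({bgJ E (M * q * q)} : Set (modularFunctionFieldFullC E (M * q * q))))) :
      modularFunctionFieldFullC E (M * q * q)) =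
      s36Beta E M q (x : modularFunctionFieldFullC E (M * q)) := rfl

variable {A E M q} in
theorem s36nglCmAlpha_injective : Function.Injective (s36nglCmAlpha A E M q) :=
  s36nglZchHom_injective _ _ _ _ _

variable {A E M q} in
theorem s36nglCmBeta_injective (hq : q.Prime) : Function.Injective (s36nglCmBeta A E M q hq) :=
  s36nglZchHom_injective _ _ _ _ _

variable {A E M q} in
theorem s36nglCmAlpha_isIntegral : (s36nglCmAlpha A E M q).IsIntegral :=
  s36nglZchHom_isIntegral _ _ _ _ _ (s36ngl_alpha_htφ (A := A))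

variable {A E M q} in
theorem s36nglCmBeta_isIntegral (hq : q.Prime) : (s36nglCmBeta A E M q hq).IsIntegral :=
  s36nglZchHom_isIntegral _ _ _ _ _ (s36ngl_beta_htφ (A := A) hq)

variable {A E M q} in
/-- the norm along `α` maps the chart `B` into the chart `B′` -/
theorem s36ngl_norm_alpha {s : modularFunctionFieldFullC E (M * q * q)}
    (hs : IsIntegral (Algebra.adjoin A
      ({bgJ E (M * q * q)} : Set (modularFunctionFieldFullC E (M * q * q)))) s) :
    IsIntegral (Algebra.adjoin A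
      ({bgJ E (M * q)} : Set (modularFunctionFieldFullC E (M * q)))) (s36NormAlpha E M q s) :=
  s36ngl_zch_norm (A₀ := A) (s36Alpha E M q) (s36ngl_alpha_const (A := A)) (bgJ E (M * q))
    (bgJ E (M * q * q)) (s36ngl_alpha_htφ (A := A)) hs

variable {A E M q} in
/-- the norm along `β` maps the chart `B` into the chart `B′` -/
theorem s36ngl_norm_beta (hq : q.Prime) {s : modularFunctionFieldFullC E (M * q * q)}
    (hs : IsIntegral (Algebra.adjoin A
      ({bgJ E (M * q * q)} : Set (modularFunctionFieldFullC E (M * q * q)))) s) :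
    IsIntegral (Algebra.adjoin A
      ({bgJ E (M * q)} : Set (modularFunctionFieldFullC E (M * q)))) (s36NormBeta E M q s) :=
  s36ngl_zch_norm (A₀ := A) (s36Beta E M q) (s36ngl_beta_const (A := A)) (bgJ E (M * q))
    (bgJ E (M * q * q)) (s36ngl_beta_htφ (A := A) hq) hs

end Cm

section Main

variable {A E k A' E' k' : Type*} [CommRing A] [IsDomain A] [IsDiscreteValuationRing A]
  [Field E] [Algebra A E] [IsFractionRing A E] [CharZero E]
  [Field k] [CommRing A'] [IsDomain A'] [Field E'] [Field k']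
  {r : A →+* k} {π : A} {ι' : A' →+* E'} {r' : A' →+* k'} {π' : A'}
  (hB : VtBase (algebraMap A E) r π) (hB' : VtBase ι' r' π')
  (ψ : E →+* E') (ιC : E →+* ℂ) (ιK : E' →+* ℂ)
  {q M : ℕ} [NeZero q] [NeZero M] [NeZero (M * q)] [NeZero (M * q * q)]
  (hq : q.Prime) (hqM : ¬ q ∣ M)
  {ζ : E'ˣ} (h : S36MidEmb E' q M ζ) (z : A'ˣ) (hz : Units.map (ι' : A' →* E') z = ζ)
  {κ : k →+* k'} (hc : VtCompat (algebraMap A E) r ι' r' ψ κ)
  [Algebra A (modularFunctionFieldFullC E (M * q))]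
  [IsScalarTower A E (modularFunctionFieldFullC E (M * q))]
  [Algebra A (modularFunctionFieldFullC E (M * q * q))]
  [IsScalarTower A E (modularFunctionFieldFullC E (M * q * q))]

/-! ### (Uα), (Uβ): uniqueness of the point over its image -/

include hB hB' ψ ιC hq hqM h hz hc in
set_option maxHeartbeats 1600000 in
/-- **(Uα)**: a prime `𝔫` of `B` through `V_b` is the only prime of `B` over `𝔫 ∩ B′` (via `α`). -/
theorem s36ngl_Ualpha (hζ : IsPrimitiveRoot (z : A') q) (hrz : r' (z : A') = 1)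
    (hWloc : ∀ y ∈ vtFam hB ιC hq hqM false,
      ∃ b s : modularFunctionFieldFullC E (M * q),
        IsIntegral (Algebra.adjoin A ({bgJ E (M * q)} : Set (modularFunctionFieldFullC E (M * q))))
          b ∧
        IsIntegral (Algebra.adjoin A ({bgJ E (M * q)} : Set (modularFunctionFieldFullC E (M * q))))
          s ∧ s ∉ (vtFam hB ιC hq hqM false).nonunits ∧ s * y = b)
    (𝔫 : Ideal ↥(zchClosure (A₀ := A)
      ({bgJ E (M * q * q)} : Set (modularFunctionFieldFullC E (M * q * q))))) [𝔫.IsPrime]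
    (hthr : ∀ b : ↥(zchClosure (A₀ := A)
        ({bgJ E (M * q * q)} : Set (modularFunctionFieldFullC E (M * q * q)))),
      (b : modularFunctionFieldFullC E (M * q * q)) ∈ (s36n2VB hB ιC hq hqM).nonunits → b ∈ 𝔫)
    (𝔫₂ : Ideal ↥(zchClosure (A₀ := A)
      ({bgJ E (M * q * q)} : Set (modularFunctionFieldFullC E (M * q * q)))))
    (h₂ : 𝔫₂.IsPrime)
    (e : 𝔫₂.comap (s36nglCmAlpha A E M q) = 𝔫.comap (s36nglCmAlpha A E M q)) : 𝔫₂ = 𝔫 := by
  have hζ' : IsPrimitiveRoot (ζ : E') q := s36n2x_zeta_prim hB' z hz hζ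
  refine s36ngl_zch_huniq (A₀ := A) (s36Alpha E M q) (s36ngl_alpha_const (A := A))
    (bgJ E (M * q)) (bgJ E (M * q * q)) (s36ngl_alpha_hφt (A := A)) (s36ngl_alpha_htφ (A := A))
    (s36NormAlpha E M q) (fun _ => rfl)
    (vtFam hB ιC hq hqM false) (s36n2VB hB ιC hq hqM)
    (fun s hs => s36n2l_hBV₁ hB hB' ψ ιC hq hqM h z hz hc S36Comp.b s hs)
    ?_ (fun x hx => s36n2x_alphaZero_ext hB hB' ψ ιC hq hqM z hz hc hζ x hx) hWloc hq.pos
    (fun x hx => s36nr_insep_alpha hB hB' ψ hc ιC hq hqM hζ' z hz hrz x hx)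
    𝔫 hthr 𝔫₂ h₂ e
  intro x hx
  have h1 := (vt_mem_nonunits_comap (s36n2VB hB ιC hq hqM) (s36Alpha E M q) x).mpr hx
  rwa [s36n2VB_comap_alpha hB ιC hq hqM] at h1

include hB hB' ψ ιC hq hqM h hz hc in
set_option maxHeartbeats 1600000 in
/-- **(Uβ)**: a prime `𝔫` of `B` through `V_a` is the only prime of `B` over `β⁻¹ 𝔫`. -/
theorem s36ngl_Ubeta (hζ : IsPrimitiveRoot (z : A') q) (hrz : r' (z : A') = 1)
    (hWloc : ∀ y ∈ vtFam hB ιC hq hqM true,
      ∃ b s : modularFunctionFieldFullC E (M * q),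
        IsIntegral (Algebra.adjoin A ({bgJ E (M * q)} : Set (modularFunctionFieldFullC E (M * q))))
          b ∧
        IsIntegral (Algebra.adjoin A ({bgJ E (M * q)} : Set (modularFunctionFieldFullC E (M * q))))
          s ∧ s ∉ (vtFam hB ιC hq hqM true).nonunits ∧ s * y = b)
    (𝔫 : Ideal ↥(zchClosure (A₀ := A)
      ({bgJ E (M * q * q)} : Set (modularFunctionFieldFullC E (M * q * q))))) [𝔫.IsPrime]
    (hthr : ∀ b : ↥(zchClosure (A₀ := A)
        ({bgJ E (M * q * q)} : Set (modularFunctionFieldFullC E (M * q * q)))),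
      (b : modularFunctionFieldFullC E (M * q * q)) ∈
        (s36n2VA (q := q) (M := M) hB).nonunits → b ∈ 𝔫)
    (𝔫₂ : Ideal ↥(zchClosure (A₀ := A)
      ({bgJ E (M * q * q)} : Set (modularFunctionFieldFullC E (M * q * q)))))
    (h₂ : 𝔫₂.IsPrime)
    (e : 𝔫₂.comap (s36nglCmBeta A E M q hq) = 𝔫.comap (s36nglCmBeta A E M q hq)) : 𝔫₂ = 𝔫 := by
  have hζ' : IsPrimitiveRoot (ζ : E') q := s36n2x_zeta_prim hB' z hz hζ
  refine s36ngl_zch_huniq (A₀ := A) (s36Beta E M q) (s36ngl_beta_const (A := A))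
    (bgJ E (M * q)) (bgJ E (M * q * q)) (s36ngl_beta_hφt (A := A) hq)
    (s36ngl_beta_htφ (A := A) hq)
    (s36NormBeta E M q) (fun _ => rfl)
    (vtFam hB ιC hq hqM true) (s36n2VA (q := q) (M := M) hB)
    (fun s hs => s36n2l_hBV₁ hB hB' ψ ιC hq hqM h z hz hc S36Comp.a s hs)
    ?_ (fun x hx => s36n2x_betaInf_ext hB hB' ψ ιC hq hqM z hz hc hζ x hx) hWloc hq.pos
    (fun x hx => s36nr_insep_beta hB hB' ψ hc ιC hq hqM hζ' z hz hrz x hx)
    𝔫 hthr 𝔫₂ h₂ e
  intro x hx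
  have h1 := (vt_mem_nonunits_comap (s36n2VA (q := q) (M := M) hB) (s36Beta E M q) x).mpr hx
  rwa [s36n2VA_comap_beta hB ιC hq hqM] at h1

/-! ### The packages `NgLoc` -/

include hB hB' ψ ιC ιK hq hqM h hz hc in
set_option maxHeartbeats 1600000 in
/-- **`NgLoc` for `α` at a triple point of the chart `j`.** -/
theorem s36ngl_alpha (hζ : IsPrimitiveRoot (z : A') q) (hrz : r' (z : A') = 1)
    (hWloc : ∀ y ∈ vtFam hB ιC hq hqM false,
      ∃ b s : modularFunctionFieldFullC E (M * q),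
        IsIntegral (Algebra.adjoin A ({bgJ E (M * q)} : Set (modularFunctionFieldFullC E (M * q))))
          b ∧
        IsIntegral (Algebra.adjoin A ({bgJ E (M * q)} : Set (modularFunctionFieldFullC E (M * q))))
          s ∧ s ∉ (vtFam hB ιC hq hqM false).nonunits ∧ s * y = b)
    (hGSa : ∀ s : modularFunctionFieldFullC E (M * q * q),
      IsIntegral (Algebra.adjoin A
        ({bgJ E (M * q * q)} : Set (modularFunctionFieldFullC E (M * q * q)))) s →
      ∃ r₁ : modularFunctionFieldFullC E (M * q),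
        IsIntegral (Algebra.adjoin A
          ({bgJ E (M * q)} : Set (modularFunctionFieldFullC E (M * q)))) r₁ ∧
        s - s36Alpha E M q r₁ ∈ (s36n2VA (q := q) (M := M) hB).nonunits)
    (hGSc : ∀ s : modularFunctionFieldFullC E (M * q * q),
      IsIntegral (Algebra.adjoin A
        ({bgJ E (M * q * q)} : Set (modularFunctionFieldFullC E (M * q * q)))) s →
      ∃ r₁ : modularFunctionFieldFullC E (M * q),
        IsIntegral (Algebra.adjoin A
          ({bgJ E (M * q)} : Set (modularFunctionFieldFullC E (M * q)))) r₁ ∧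
        s - s36Alpha E M q r₁ ∈ (s36n2VC hB' ψ hq h z hz).nonunits)
    (𝔫 : Ideal ↥(zchClosure (A₀ := A)
      ({bgJ E (M * q * q)} : Set (modularFunctionFieldFullC E (M * q * q))))) [𝔫.IsPrime]
    (hthr : ∀ c, ∀ b : ↥(zchClosure (A₀ := A)
        ({bgJ E (M * q * q)} : Set (modularFunctionFieldFullC E (M * q * q)))),
      (b : modularFunctionFieldFullC E (M * q * q)) ∈
        (s36n2V hB hB' ψ ιC hq hqM h z hz c).nonunits → b ∈ 𝔫)
    {m : ℕ} (hm : 0 < m) {ζ₁ : modularFunctionFieldFullC E (M * q)}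
    (hζ₁ : IsIntegral (Algebra.adjoin A
      ({bgJ E (M * q)} : Set (modularFunctionFieldFullC E (M * q)))) ζ₁) :
    ∃ Oα : Subring (modularFunctionFieldFullC E (M * q)),
      NgLoc (s36Alpha E M q) (s36NormAlpha E M q) (s36n2VA (q := q) (M := M) hB)
        (s36n2VC hB' ψ hq h z hz) m ζ₁
        (ls_localSubring (F := modularFunctionFieldFullC E (M * q * q)) 𝔫) Oα := by
  have hζ' : IsPrimitiveRoot (ζ : E') q := s36n2x_zeta_prim hB' z hz hζ
  have hJ : IsIntegral (Algebra.adjoin A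
      ({bgJ E (M * q * q)} : Set (modularFunctionFieldFullC E (M * q * q)))) (bgJ E (M * q * q)) :=
    s36n2l_isIntegral_J (A := A) (E := E) (M := M) (q := q)
  refine s36ngl_zch (A₀ := A) (s36Alpha E M q) (s36ngl_alpha_const (A := A))
    (bgJ E (M * q)) (bgJ E (M * q * q)) ?_ ?_ (s36NormAlpha E M q) (fun _ => rfl)
    (vtFam hB ιC hq hqM false) (s36n2VA (q := q) (M := M) hB) (s36n2VC hB' ψ hq h z hz)
    (s36n2VB hB ιC hq hqM)
    (fun s hs => s36n2l_hBV₁ hB hB' ψ ιC hq hqM h z hz hc S36Comp.a s hs)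
    (fun s hs => s36n2l_hBV₁ hB hB' ψ ιC hq hqM h z hz hc S36Comp.c s hs)
    (fun s hs => s36n2l_hBV₁ hB hB' ψ ιC hq hqM h z hz hc S36Comp.b s hs)
    ?_ (fun x hx => s36n2x_alphaZero_ext hB hB' ψ ιC hq hqM z hz hc hζ x hx) hWloc hq.pos
    (fun x hx => s36nr_insep_alpha hB hB' ψ hc ιC hq hqM hζ' z hz hrz x hx)
    hGSa hGSc 𝔫 (hthr S36Comp.a) (hthr S36Comp.c) (hthr S36Comp.b) hm hζ₁
  · rw [s36ngl_alpha_bgJ]
    exact hJ
  · rw [s36ngl_alpha_bgJ]
    exact hJ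
  · intro x hx
    have h1 := (vt_mem_nonunits_comap (s36n2VB hB ιC hq hqM) (s36Alpha E M q) x).mpr hx
    rwa [s36n2VB_comap_alpha hB ιC hq hqM] at h1

include hB hB' ψ ιC ιK hq hqM h hz hc in
set_option maxHeartbeats 1600000 in
/-- **`NgLoc` for `β` at a triple point of the chart `j`.** -/
theorem s36ngl_beta (hζ : IsPrimitiveRoot (z : A') q) (hrz : r' (z : A') = 1)
    (hWloc : ∀ y ∈ vtFam hB ιC hq hqM true,
      ∃ b s : modularFunctionFieldFullC E (M * q),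
        IsIntegral (Algebra.adjoin A ({bgJ E (M * q)} : Set (modularFunctionFieldFullC E (M * q))))
          b ∧
        IsIntegral (Algebra.adjoin A ({bgJ E (M * q)} : Set (modularFunctionFieldFullC E (M * q))))
          s ∧ s ∉ (vtFam hB ιC hq hqM true).nonunits ∧ s * y = b)
    (hGSb : ∀ s : modularFunctionFieldFullC E (M * q * q),
      IsIntegral (Algebra.adjoin A
        ({bgJ E (M * q * q)} : Set (modularFunctionFieldFullC E (M * q * q)))) s →
      ∃ r₁ : modularFunctionFieldFullC E (M * q),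
        IsIntegral (Algebra.adjoin A
          ({bgJ E (M * q)} : Set (modularFunctionFieldFullC E (M * q)))) r₁ ∧
        s - s36Beta E M q r₁ ∈ (s36n2VB hB ιC hq hqM).nonunits)
    (hGSc : ∀ s : modularFunctionFieldFullC E (M * q * q),
      IsIntegral (Algebra.adjoin A
        ({bgJ E (M * q * q)} : Set (modularFunctionFieldFullC E (M * q * q)))) s →
      ∃ r₁ : modularFunctionFieldFullC E (M * q),
        IsIntegral (Algebra.adjoin A
          ({bgJ E (M * q)} : Set (modularFunctionFieldFullC E (M * q)))) r₁ ∧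
        s - s36Beta E M q r₁ ∈ (s36n2VC hB' ψ hq h z hz).nonunits)
    (𝔫 : Ideal ↥(zchClosure (A₀ := A)
      ({bgJ E (M * q * q)} : Set (modularFunctionFieldFullC E (M * q * q))))) [𝔫.IsPrime]
    (hthr : ∀ c, ∀ b : ↥(zchClosure (A₀ := A)
        ({bgJ E (M * q * q)} : Set (modularFunctionFieldFullC E (M * q * q)))),
      (b : modularFunctionFieldFullC E (M * q * q)) ∈
        (s36n2V hB hB' ψ ιC hq hqM h z hz c).nonunits → b ∈ 𝔫)
    {m : ℕ} (hm : 0 < m) {ζ₁ : modularFunctionFieldFullC E (M * q)}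
    (hζ₁ : IsIntegral (Algebra.adjoin A
      ({bgJ E (M * q)} : Set (modularFunctionFieldFullC E (M * q)))) ζ₁) :
    ∃ Oβ : Subring (modularFunctionFieldFullC E (M * q)),
      NgLoc (s36Beta E M q) (s36NormBeta E M q) (s36n2VB hB ιC hq hqM)
        (s36n2VC hB' ψ hq h z hz) m ζ₁
        (ls_localSubring (F := modularFunctionFieldFullC E (M * q * q)) 𝔫) Oβ := by
  have hζ' : IsPrimitiveRoot (ζ : E') q := s36n2x_zeta_prim hB' z hz hζ
  refine s36ngl_zch (A₀ := A) (s36Beta E M q) (s36ngl_beta_const (A := A))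
    (bgJ E (M * q)) (bgJ E (M * q * q)) ?_ ?_ (s36NormBeta E M q) (fun _ => rfl)
    (vtFam hB ιC hq hqM true) (s36n2VB hB ιC hq hqM) (s36n2VC hB' ψ hq h z hz)
    (s36n2VA (q := q) (M := M) hB)
    (fun s hs => s36n2l_hBV₁ hB hB' ψ ιC hq hqM h z hz hc S36Comp.b s hs)
    (fun s hs => s36n2l_hBV₁ hB hB' ψ ιC hq hqM h z hz hc S36Comp.c s hs)
    (fun s hs => s36n2l_hBV₁ hB hB' ψ ιC hq hqM h z hz hc S36Comp.a s hs)
    ?_ (fun x hx => s36n2x_betaInf_ext hB hB' ψ ιC hq hqM z hz hc hζ x hx) hWloc hq.pos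
    (fun x hx => s36nr_insep_beta hB hB' ψ hc ιC hq hqM hζ' z hz hrz x hx)
    hGSb hGSc 𝔫 (hthr S36Comp.b) (hthr S36Comp.c) (hthr S36Comp.a) hm hζ₁
  · rw [s36ngl_beta_bgJ]
    exact s36n2l_isIntegral_Jq (A := A) (E := E) (M := M) (q := q) hq
  · rw [s36ngl_beta_bgJ]
    exact nodesSwap_isIntegral_of_evalInt (A := A) (nodesSwapPhi_monic q hq)
      (s36ngl_phi_J E M q hq)
  · intro x hx
    have h1 := (vt_mem_nonunits_comap (s36n2VA (q := q) (M := M) hB) (s36Beta E M q) x).mpr hx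
    rwa [s36n2VA_comap_beta hB ιC hq hqM] at h1

end Main

end Fermat.Agent.S36

end
end ZBS36_032_9

/-! ### bundled: `Fermat.Agent.S36.PtsUniq` -/
section ZBS36_032_10

/-!
# S36 / (I6)(e-U) (helper19): `StmtS36PtsUniq`

The chart maps `gα = s36nglCmAlpha`, `gβ = s36nglCmBeta` of `S36/NgLocInst.lean` at the concrete
base `A₀ = beta0Ring A (beta0Field A)`, and the uniqueness statements (Uα), (Uβ) from
`s36ngl_Ualpha`, `s36ngl_Ubeta` with `hWloc = mgv_hVloc₁` ((SS1) at level `M q`: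
`mgcb_reg_SS1_J`, `stb_regChart_conc_J`).

* `s36pu_hWloc` : `V′_c` is the localisation of the chart `j` of level `M q`;
* `stmtS36PtsUniq : StmtS36PtsUniq`.
-/

set_option autoImplicit false
set_option linter.style.haveILetI false
set_option linter.unusedSectionVars false
set_option linter.unusedVariables false
set_option linter.constructorNameAsVariable false

noncomputable section

namespace Fermat.Agent.S36

open ModularCurve AlgebraicCurve Fermat.Agent.ES Fermat.Agent.ES.G2 Fermat.Agent.INJ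
open Fermat.Agent.UNIP Fermat.Agent.STB IntermediateField

section U

variable {q : ℕ} {A : ValuationSubring (AlgebraicClosure ℚ)} (M : ℕ) [NeZero M] [NeZero q]
  [IsDiscreteValuationRing ↥(beta0Ring A (beta0Field A))]
  {ζ : AlgebraicClosure ℚ}
  (hq : q.Prime) (hA : A.LiesOverPrime q) (hqM : ¬ q ∣ M) (hζ : IsPrimitiveRoot ζ q)
  (ιC : ↥(beta0Field A) →+* ℂ)
  (h : S36MidEmb ↥(s36n2bK A ζ) q M (s36i1ZK (A := A) hq hζ))

/-- `hWloc` of `s36ngl_Ualpha` / `s36ngl_alpha`: the vertical valuation rings of level `M q` are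
localisations of the chart `j`. -/
theorem s36pu_hWloc (h2 : q = 2 → 3 ∣ M) (h3 : q = 3 → 2 ∣ M) (c : Bool)
    (y : ↥(modularFunctionFieldFullC ↥(beta0Field A) (M * q)))
    (hy : y ∈ vtFam (vtBase_residue (beta0Ring_irreducible_q hq hA)) ιC hq hqM c) :
    ∃ b s : ↥(modularFunctionFieldFullC ↥(beta0Field A) (M * q)),
      IsIntegral ↥(Algebra.adjoin ↥(beta0Ring A (beta0Field A))
        ({bgJ ↥(beta0Field A) (M * q)} : Set ↥(modularFunctionFieldFullC ↥(beta0Field A) (M * q))))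
        b ∧
      IsIntegral ↥(Algebra.adjoin ↥(beta0Ring A (beta0Field A))
        ({bgJ ↥(beta0Field A) (M * q)} : Set ↥(modularFunctionFieldFullC ↥(beta0Field A) (M * q))))
        s ∧
      s ∉ (vtFam (vtBase_residue (beta0Ring_irreducible_q hq hA)) ιC hq hqM c).nonunits ∧
      s * y = b := by
  have hπ : Irreducible ((q : ℕ) : ↥(beta0Ring A (beta0Field A))) :=
    beta0Ring_irreducible_q hq hA
  exact mgv_hVloc₁ hπ ιC hq hqM hA
    (mgcb_reg_SS1_J (K₀ := beta0Field A) hπ ιC hq hqM hA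
      (stb_regChart_conc_J M hq hA le_rfl hπ hqM h2 h3)) c y hy

end U

set_option maxHeartbeats 1600000 in
/-- **(I6)(e-U)** -/
theorem stmtS36PtsUniq : StmtS36PtsUniq := by
  intro M q _ _ hq hR A hA _ ζ hζ ιC ιK h
  have hπ : Irreducible ((q : ℕ) : ↥(beta0Ring A (beta0Field A))) :=
    beta0Ring_irreducible_q hq hA
  obtain ⟨κ, -, hκ⟩ := s36n2b_compat (A := A) (ζ := ζ) hq hA
  have h2 := s36so_rigid_h2 hR
  have h3 := s36so_rigid_h3 hR
  refine ⟨s36nglCmAlpha ↥(beta0Ring A (beta0Field A)) ↥(beta0Field A) M q,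
    s36nglCmBeta ↥(beta0Ring A (beta0Field A)) ↥(beta0Field A) M q hq,
    s36nglCmAlpha_isIntegral, s36nglCmBeta_isIntegral hq, fun _ => rfl, fun _ => rfl, ?_, ?_⟩
  · intro 𝔫 h𝔫 hthr 𝔫₂ h₂ e
    haveI := h𝔫
    exact s36ngl_Ualpha (vtBase_residue hπ) (s36n2b_vtBase hq hA hζ)
      (IntermediateField.inclusion (s36n2b_le_K A ζ)).toRingHom ιC hq hR.1 h
      (s36i1Z hq hζ) rfl hκ (s36n2bZeta_isPrimitiveRoot hq hζ) (s36n2b_residue_zeta hq hA hζ)
      (fun y hy => s36pu_hWloc M hq hA hR.1 ιC h2 h3 false y hy) 𝔫 hthr 𝔫₂ h₂ e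
  · intro 𝔫 h𝔫 hthr 𝔫₂ h₂ e
    haveI := h𝔫
    exact s36ngl_Ubeta (vtBase_residue hπ) (s36n2b_vtBase hq hA hζ)
      (IntermediateField.inclusion (s36n2b_le_K A ζ)).toRingHom ιC hq hR.1 h
      (s36i1Z hq hζ) rfl hκ (s36n2bZeta_isPrimitiveRoot hq hζ) (s36n2b_residue_zeta hq hA hζ)
      (fun y hy => s36pu_hWloc M hq hA hR.1 ιC h2 h3 true y hy) 𝔫 hthr 𝔫₂ h₂ e

end Fermat.Agent.S36

end
end ZBS36_032_10

/-! ### bundled: `Fermat.Agent.S36.PtsCuspY` -/
section ZBS36_032_11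
/-
S36 (Carayol at `q² ∥ M`), geometry, (I6)-(P2) CONCRETE, part Y (helper84):
the SEPARATING FUNCTION at the points over `j = ∞`, input of `s36cu_hpts` (`S36/PtsCusp.lean`).

`J = j`, `Jq = j(Q^q)`, `Jqq = j(Q^{q²})` (`S36/N2LocElts.lean`), `n = q * q`,

  `y  = Jqq · (J⁻¹) ^ n`,   `z_c = (J⁻¹) ^ (n − 1)`,   `z_b = (Jqq⁻¹) ^ (n · n − 1)`.

* `s36cuy_hya`, `s36cuy_hyb`, `s36cuy_hyc` : `y ≡ 1` at `V_a`, `y ≡ z_b` at `V_b`, `y ≡ z_c` at
  `V_c` (`V = s36n2V …`, generic bases): Kronecker's congruences `Jqq ≡ J ^ n` at `V_a`,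
  `J ≡ Jqq ^ n` at `V_b`, `Jqq ≡ J` at `V_c`;
* `s36cuy_hyO` : `y ∈ O` at every point at `J = ∞` (abstract chart setting):
  `y = (Jqq · (Jq⁻¹) ^ q) · (Jq · (J⁻¹) ^ q) ^ q`, the two factors are integral over `A₀[Jq⁻¹]`,
  `A₀[J⁻¹]` (helper61, `wpd_e_integral_of_eval`), and `Jq` has a pole where `J` has one
  (`s36cu_pole`);
* `s36cuy_hzc`, `s36cuy_hzb` : `z_c, z_b ∈ 𝔪_O` at every point at `J = ∞`.
-/

set_option autoImplicit false
set_option linter.unusedSectionVars false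
set_option linter.unusedVariables false
set_option linter.style.haveILetI false

noncomputable section

namespace Fermat.Agent.S36

open ModularCurve AlgebraicCurve Polynomial IntermediateField Fermat.Agent.INJ Fermat.Agent.UNIP
open Fermat.Agent.AL Fermat.Agent.ES Fermat.Agent.S28 Fermat.Agent.STB

/-! ### field identities -/

section Field

variable {F : Type*} [Field F]

theorem s36cuy_id_a {J Jqq : F} (hJ : J ≠ 0) (n : ℕ) :
    Jqq * J⁻¹ ^ n - 1 = (Jqq - J ^ n) * J⁻¹ ^ n := by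
  rw [sub_mul, inv_pow, mul_inv_cancel₀ (pow_ne_zero n hJ)]

theorem s36cuy_id_c {J Jqq : F} (hJ : J ≠ 0) {n : ℕ} (hn : 0 < n) :
    Jqq * J⁻¹ ^ n - J⁻¹ ^ (n - 1) = (Jqq - J) * J⁻¹ ^ n := by
  obtain ⟨m, rfl⟩ : ∃ m, n = m + 1 := ⟨n - 1, by omega⟩
  have e : J * (J⁻¹ ^ m * J⁻¹) = J⁻¹ ^ m := by
    rw [mul_left_comm, mul_inv_cancel₀ hJ, mul_one]
  rw [Nat.add_sub_cancel, sub_mul, pow_succ J⁻¹ m, e]

theorem s36cuy_id_b {J Jqq : F} (hJqq : Jqq ≠ 0) {n : ℕ} (hn : 0 < n) :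
    Jqq * J⁻¹ ^ n - Jqq⁻¹ ^ (n * n - 1) = Jqq * (J⁻¹ ^ n - (Jqq⁻¹ ^ n) ^ n) := by
  have hnn : 0 < n * n := Nat.mul_pos hn hn
  obtain ⟨m, hm⟩ : ∃ m, n * n = m + 1 := ⟨n * n - 1, by omega⟩
  rw [mul_sub, ← pow_mul, hm, Nat.add_sub_cancel, pow_succ Jqq⁻¹ m]
  congr 1
  rw [mul_comm (Jqq⁻¹ ^ m), ← mul_assoc, mul_inv_cancel₀ hJqq, one_mul]

theorem s36cuy_id_b' {J Jqq : F} (hJ : J ≠ 0) (hJqq : Jqq ≠ 0) (n : ℕ) :
    J⁻¹ - Jqq⁻¹ ^ n = -((J - Jqq ^ n) * (J⁻¹ * Jqq⁻¹ ^ n)) := by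
  have h1 : Jqq ^ n * Jqq⁻¹ ^ n = 1 := by
    rw [inv_pow, mul_inv_cancel₀ (pow_ne_zero n hJqq)]
  have h2 : (J - Jqq ^ n) * (J⁻¹ * Jqq⁻¹ ^ n) =
      (J * J⁻¹) * Jqq⁻¹ ^ n - (Jqq ^ n * Jqq⁻¹ ^ n) * J⁻¹ := by ring
  rw [h2, h1, mul_inv_cancel₀ hJ, one_mul, one_mul, neg_sub]

/-- in a valuation ring: `a ≡ b` implies `a ^ n ≡ b ^ n` -/
theorem s36cuy_pow_sub_pow_mem (V : ValuationSubring F) {a b : F} (ha : a ∈ V) (hb : b ∈ V)
    (hab : a - b ∈ V.nonunits) (n : ℕ) : a ^ n - b ^ n ∈ V.nonunits := by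
  obtain ⟨c, hc⟩ := sub_dvd_pow_sub_pow (⟨a, ha⟩ : V) ⟨b, hb⟩ n
  have h2 : a ^ n - b ^ n = (a - b) * (c : F) := congrArg Subtype.val hc
  rw [h2, mul_comm]
  exact vt_mul_mem_nonunits V c.2 hab

/-- `𝔪(V) · V ⊆ 𝔪(V)` -/
theorem s36cuy_mul_mem (V : ValuationSubring F) {x y : F} (hx : x ∈ V.nonunits) (hy : y ∈ V) :
    x * y ∈ V.nonunits := by
  rw [mul_comm]
  exact vt_mul_mem_nonunits V hy hx

end Field

/-! ### congruences from the expansions -/

section Abs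

variable {A E k : Type*} [CommRing A] [Field E] [Field k]
  {ι : A →+* E} {r : A →+* k} {π : A} {F : Type*} [Field F]
  (hB : VtBase ι r π) (e : F →+* LaurentSeries E) (hfrac : ∀ x : F, VtFrac ι (e x))

/-- `x − x' ^ n ∈ 𝔪(V)` from the reductions of the expansions -/
theorem s36cuy_sub_pow_mem {x x' : F} {T T' : LaurentSeries A} (n : ℕ)
    (hx : e x = coeffMap ι T) (hx' : e x' = coeffMap ι T')
    (hred : coeffMap r T = coeffMap r T' ^ n) :
    x - x' ^ n ∈ (vtSub hB e hfrac).nonunits := by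
  have e1 : e (x - x' ^ n) = coeffMap ι (T - T' ^ n) := by
    rw [map_sub, map_pow, hx, hx', map_sub, map_pow]
  rw [s36n2l_mem_nonunits_iff_coeffMap hB e hfrac e1, map_sub, map_pow, hred, sub_self]

end Abs

/-! ### the elements -/

section Elts

variable (E : Type*) [Field E] (M q : ℕ) [NeZero M] [NeZero q] [NeZero (M * q)]
  [NeZero (M * q * q)]

/-- the separating function `y = j(Q^{q²}) / j ^ (q²)` -/
def s36cuyY : modularFunctionFieldFullC E (M * q * q) :=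
  s36n2lJqq E M q * (s36n2lJ E M q)⁻¹ ^ (q * q)

/-- `z_c = (1 / j) ^ (q² − 1)` -/
def s36cuyZc : modularFunctionFieldFullC E (M * q * q) :=
  (s36n2lJ E M q)⁻¹ ^ (q * q - 1)

/-- `z_b = (1 / j(Q^{q²})) ^ (q⁴ − 1)` -/
def s36cuyZb : modularFunctionFieldFullC E (M * q * q) :=
  (s36n2lJqq E M q)⁻¹ ^ (q * q * (q * q) - 1)

theorem s36cuy_Jqq_ne_zero : s36n2lJqq E M q ≠ 0 := by
  intro h0
  have h1 := congrArg (fun x : modularFunctionFieldFullC E (M * q * q) =>
    (x : LaurentSeries E)) h0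
  simp only [s36n2lJqq_coe] at h1
  exact jqModC_ne_zero_of_nontrivial E
    (qExpand_injective q (qExpand_injective q (by rw [h1]; simp)))

end Elts

/-! ### `J` is integral over `A[Jq]` and over `A[Jqq]` -/

section Int

variable (E : Type*) [Field E] (ιC : E →+* ℂ) {q M : ℕ} [NeZero q] [NeZero M] [NeZero (M * q)]
  [NeZero (M * q * q)] (hq : q.Prime) (hqM : ¬ q ∣ M)
  {A : Type*} [CommRing A] [Algebra A E]
  [Algebra A (modularFunctionFieldFullC E (M * q * q))]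
  [IsScalarTower A E (modularFunctionFieldFullC E (M * q * q))]

theorem s36cuy_w_const (a : A) :
    (s36n2W E ιC hq hqM).toRingEquiv.toRingHom
        (algebraMap A (modularFunctionFieldFullC E (M * q * q)) a) =
      algebraMap A (modularFunctionFieldFullC E (M * q * q)) a := by
  rw [IsScalarTower.algebraMap_apply A E (modularFunctionFieldFullC E (M * q * q))]
  exact (s36n2W E ιC hq hqM).commutes _

include ιC hq hqM in
/-- `J` is integral over `A[Jqq]` -/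
theorem s36cuy_isIntegral_J_Jqq :
    IsIntegral (Algebra.adjoin A {s36n2lJqq E M q}) (s36n2lJ E M q) := by
  have h1 : IsIntegral (Algebra.adjoin A {s36n2lJ E M q}) (s36n2lJqq E M q) :=
    s36n2l_isIntegral_Jqq hq
  have h2 := cusp_isIntegral_adjoin_map (A := A)
    ((s36n2W E ιC hq hqM).toRingEquiv.toRingHom) (s36cuy_w_const E ιC hq hqM) h1
  have e1 : (s36n2W E ιC hq hqM).toRingEquiv.toRingHom (s36n2lJ E M q) = s36n2lJqq E M q :=
    Subtype.ext (s36n2W_base E ιC hq hqM (jqModC_mem_full E M))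
  have e2 : (s36n2W E ιC hq hqM).toRingEquiv.toRingHom (s36n2lJqq E M q) = s36n2lJ E M q :=
    Subtype.ext (s36n2W_qExpand_sq E ιC hq hqM (jqModC_mem_full E M))
  rwa [e1, e2] at h2

include ιC hq hqM in
/-- `J` is integral over `A[Jq]` -/
theorem s36cuy_isIntegral_J_Jq :
    IsIntegral (Algebra.adjoin A {s36n2lJq E M q}) (s36n2lJ E M q) := by
  have h1 : IsIntegral (Algebra.adjoin A {s36n2lJq E M q}) (s36n2lJqq E M q) :=
    nodesSwap_isIntegral_of_evalInt (A := A) (nodesSwapPhi_monic q hq) (s36n2l_phi_Jqq hq)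
  have h2 := cusp_isIntegral_adjoin_map (A := A)
    ((s36n2W E ιC hq hqM).toRingEquiv.toRingHom) (s36cuy_w_const E ιC hq hqM) h1
  have e1 : (s36n2W E ιC hq hqM).toRingEquiv.toRingHom (s36n2lJq E M q) = s36n2lJq E M q :=
    Subtype.ext (s36n2W_mid E ιC hq hqM (jqModC_mem_full E M))
  have e2 : (s36n2W E ιC hq hqM).toRingEquiv.toRingHom (s36n2lJqq E M q) = s36n2lJ E M q :=
    Subtype.ext (s36n2W_qExpand_sq E ιC hq hqM (jqModC_mem_full E M))
  rwa [e1, e2] at h2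

end Int

/-! ### the three congruences -/

section Fam

variable {A E k A' E' k' : Type*} [CommRing A] [IsDomain A] [Field E] [Algebra A E]
  [IsFractionRing A E] [Field k] [CommRing A'] [Field E'] [Field k']
  {r : A →+* k} {π : A} {ι' : A' →+* E'} {r' : A' →+* k'} {π' : A'}
  (hB : VtBase (algebraMap A E) r π) (hB' : VtBase ι' r' π')
  (ψ : E →+* E') (ιC : E →+* ℂ)
  {q M : ℕ} [NeZero q] [NeZero M] [NeZero (M * q)] [NeZero (M * q * q)]
  (hq : q.Prime) (hqM : ¬ q ∣ M)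
  {ζ : E'ˣ} (h : S36MidEmb E' q M ζ) (z : A'ˣ) (hz : Units.map (ι' : A' →* E') z = ζ)
  [CharP k q] [CharP k' q]

include hq in
/-- the reduction of `j(Q^{q²})` is `j ^ (q²)` -/
theorem s36cuy_red (k : Type*) [Field k] [CharP k q] (A : Type*) [CommRing A] (r : A →+* k) :
    coeffMap r (qExpand A q (qExpand A q (jqModC A))) = coeffMap r (jqModC A) ^ (q * q) := by
  haveI : Fact q.Prime := ⟨hq⟩
  rw [coeffMap_qExpand, coeffMap_qExpand, coeffMap_jqModC, s36n2l_red_qq k q, pow_mul]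

include hq in
/-- **Kronecker at `V_a`**: `Jqq ≡ J ^ (q²)` -/
theorem s36cuy_kron_a :
    s36n2lJqq E M q - s36n2lJ E M q ^ (q * q) ∈
      (s36n2V hB hB' ψ ιC hq hqM h z hz S36Comp.a).nonunits := by
  refine s36cuy_sub_pow_mem hB (vtEmb E (M * q * q))
    (fun x => vt_frac_fullC hB (M * q * q) x.2) (T := qExpand A q (qExpand A q (jqModC A)))
    (T' := jqModC A) (q * q) ?_ s36n2l_expA (s36cuy_red hq k A r)
  rw [coeffMap_qExpand, coeffMap_qExpand, coeffMap_jqModC]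
  rfl

/-- **Kronecker at `V_b`**: `J ≡ Jqq ^ (q²)` -/
theorem s36cuy_kron_b :
    s36n2lJ E M q - s36n2lJqq E M q ^ (q * q) ∈
      (s36n2V hB hB' ψ ιC hq hqM h z hz S36Comp.b).nonunits := by
  refine s36cuy_sub_pow_mem hB (s36n2EmbB ιC hq hqM)
    (fun x => vt_frac_fullC hB (M * q * q) (s36n2W E ιC hq hqM x).2)
    (T := qExpand A q (qExpand A q (jqModC A)))
    (T' := jqModC A) (q * q) (s36n2l_expB ιC hq hqM) ?_ (s36cuy_red hq k A r)
  rw [s36n2l_embB_Jqq, coeffMap_jqModC]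

/-- `Jqq` is a unit of `V_b` -/
theorem s36cuy_Jqq_val_b :
    (s36n2V hB hB' ψ ιC hq hqM h z hz S36Comp.b).valuation (s36n2lJqq E M q) = 1 :=
  vtSub_valuation_eq_one_of_eq_coeffMap hB (s36n2EmbB ιC hq hqM)
    (fun x => vt_frac_fullC hB (M * q * q) (s36n2W E ιC hq hqM x).2)
    (T := jqModC A) (by rw [s36n2l_embB_Jqq, coeffMap_jqModC])
    (by rw [coeffMap_jqModC]; exact jqModC_ne_zero_of_nontrivial k)

include hq in
/-- **hya**: `y ≡ 1` at `V_a` -/
theorem s36cuy_hya :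
    s36cuyY E M q - 1 ∈ (s36n2V hB hB' ψ ιC hq hqM h z hz S36Comp.a).nonunits := by
  unfold s36cuyY
  rw [s36cuy_id_a s36n2l_J_ne_zero]
  exact s36cuy_mul_mem _ (s36cuy_kron_a hB hB' ψ ιC hq hqM h z hz)
    ((s36n2V hB hB' ψ ιC hq hqM h z hz S36Comp.a).pow_mem
      (s36n2l_Jinv_mem hB hB' ψ ιC hq hqM h z hz S36Comp.a) _)

include hq in
/-- **hyc**: `y ≡ z_c` at `V_c` -/
theorem s36cuy_hyc (hz1 : r' z = 1) :
    s36cuyY E M q - s36cuyZc E M q ∈
      (s36n2V hB hB' ψ ιC hq hqM h z hz S36Comp.c).nonunits := by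
  unfold s36cuyY s36cuyZc
  rw [s36cuy_id_c s36n2l_J_ne_zero (Nat.mul_pos hq.pos hq.pos)]
  exact s36cuy_mul_mem _ (s36n2l_tableC hB' ψ hq h z hz hz1).2.2
    ((s36n2V hB hB' ψ ιC hq hqM h z hz S36Comp.c).pow_mem
      (s36n2l_Jinv_mem hB hB' ψ ιC hq hqM h z hz S36Comp.c) _)

include hq in
/-- **hyb**: `y ≡ z_b` at `V_b` -/
theorem s36cuy_hyb :
    s36cuyY E M q - s36cuyZb E M q ∈
      (s36n2V hB hB' ψ ιC hq hqM h z hz S36Comp.b).nonunits := by
  unfold s36cuyY s36cuyZb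
  set V := s36n2V hB hB' ψ ιC hq hqM h z hz S36Comp.b with hV
  have hJqq0 : s36n2lJqq E M q ≠ 0 := s36cuy_Jqq_ne_zero E M q
  have hJ0 : s36n2lJ E M q ≠ 0 := s36n2l_J_ne_zero
  have hu := (vt_valuation_eq_one_iff _ _).mp (s36cuy_Jqq_val_b hB hB' ψ ιC hq hqM h z hz)
  have hJqqV : s36n2lJqq E M q ∈ V := hu.2.1
  have hJqqV' : (s36n2lJqq E M q)⁻¹ ∈ V := hu.2.2
  have hJV' : (s36n2lJ E M q)⁻¹ ∈ V := s36n2l_Jinv_mem hB hB' ψ ιC hq hqM h z hz S36Comp.b
  rw [s36cuy_id_b hJqq0 (Nat.mul_pos hq.pos hq.pos)]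
  refine vt_mul_mem_nonunits V hJqqV ?_
  refine s36cuy_pow_sub_pow_mem V hJV' (V.pow_mem hJqqV' _) ?_ _
  rw [s36cuy_id_b' hJ0 hJqq0]
  refine vt_neg_mem_nonunits V ?_
  exact s36cuy_mul_mem V (s36cuy_kron_b hB hB' ψ ιC hq hqM h z hz)
    (V.mul_mem _ _ hJV' (V.pow_mem hJqqV' _))

end Fam

/-! ### the points at `J = ∞` -/

section Chart

variable {A₀ E F : Type*} [CommRing A₀] [IsDomain A₀] [IsDiscreteValuationRing A₀]
  [Field E] [Algebra A₀ E] [IsFractionRing A₀ E] [CharZero E]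
  [Field F] [Algebra E F] [Algebra A₀ F] [IsScalarTower A₀ E F]
  {π : A₀}

include E in
/-- **hyO**: `y = Jqq · (J⁻¹) ^ (q²)` lies in the local ring of every point at `J = ∞`. -/
theorem s36cuy_hyO (hπ : Irreducible π) {q : ℕ} [NeZero q] (hq : q.Prime) {J Jq Jqq : F}
    (hJ0 : J ≠ 0)
    (h1 : (nodesSwapPhi q hq).eval₂ (evalInt J) Jq = 0)
    (h2 : (nodesSwapPhi q hq).eval₂ (evalInt Jq) Jqq = 0)
    (hJq : IsIntegral ↥(Algebra.adjoin A₀ {Jq}) J)
    (𝔫 : AtPt (F := F) π J⁻¹)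
    (h𝔫 : (⟨J⁻¹, s36pc_self_mem J⁻¹⟩ : ↥(zchClosure (A₀ := A₀) ({J⁻¹} : Set F))) ∈ 𝔫.1) :
    Jqq * J⁻¹ ^ (q * q) ∈ atLoc 𝔫 := by
  obtain ⟨-, ht𝔫, htn𝔫⟩ := s36cu_pt_data (E := E) hπ hJ0 𝔫 h𝔫
  haveI : IsLocalRing (atLoc 𝔫) := stb_atO_isLocalRing (π := π) J (Sum.inr 𝔫)
  -- `Jq` has a pole
  obtain ⟨hq1, hq2⟩ := s36cu_pole (A₀ := A₀) (O := atLoc 𝔫) (s36cu_atLoc_ic 𝔫)
    (s36cu_atLoc_algebraMap 𝔫) hJq ht𝔫 htn𝔫
  have hJq0 : Jq ≠ 0 := by
    rintro rfl
    exact hq2 (atLoc 𝔫).zero_mem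
  -- the two factors
  have hu₁ : Jq * J⁻¹ ^ q ∈ atLoc 𝔫 :=
    s36cu_atLoc_chart 𝔫 (Fermat.Agent.S33.wpd_e_integral_of_eval q hq hJ0 h1)
  have hu₂ : Jqq * Jq⁻¹ ^ q ∈ atLoc 𝔫 :=
    s36cu_mem_of_isIntegral (A₀ := A₀) (s36cu_atLoc_ic 𝔫) (s36cu_atLoc_algebraMap 𝔫) hq1
      (Fermat.Agent.S33.wpd_e_integral_of_eval q hq hJq0 h2)
  have e : Jqq * J⁻¹ ^ (q * q) = (Jqq * Jq⁻¹ ^ q) * (Jq * J⁻¹ ^ q) ^ q := by
    have h3 : Jq⁻¹ ^ q * Jq ^ q = 1 := by
      rw [inv_pow, inv_mul_cancel₀ (pow_ne_zero q hJq0)]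
    rw [mul_pow, ← pow_mul, mul_assoc, ← mul_assoc (Jq⁻¹ ^ q), h3, one_mul]
  rw [e]
  exact (atLoc 𝔫).mul_mem hu₂ ((atLoc 𝔫).pow_mem hu₁ q)

end Chart

end Fermat.Agent.S36

end


end ZBS36_032_11

/-! ### bundled: `Fermat.Agent.S36.PtsCuspC` -/
section ZBS36_032_12

/-!
# S36 / (I6)(d-C) (helper20): `S36PtInput` at the cusp points of the middle component `C_c`

Concrete setting of `S36/SmallPart.lean`: `A₀ = beta0Ring A E₀`, `E₀ = beta0Field A`,
`F = F_{Mqq}(E₀)`, chart `t⁻¹ = (bgJ E₀ (M q q))⁻¹`, `V = s36i1V M hq hA hqM hζ ιC h`.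

* `s36cuc_hC_of` : the hypothesis `hC` of `s36cu_hpts_inf` / `s36cu_hpts` (helper84,
  `S36/PtsCusp.lean`) from
    (I2) `hKR` on the chart `j`,
    (1)  `X, g ∈ O`, `g` a unit of `O`, `X ^ (q − 1) / q ≡ g` at `V_c`   (helper58, CuspMid),
    (2)  a local parameter `Y₀` of the branch `C_c` at `𝔫` (`S36n2pGen`).
-/

set_option autoImplicit false
set_option linter.style.haveILetI false
set_option linter.unusedSectionVars false
set_option linter.unusedVariables false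
set_option linter.constructorNameAsVariable false

noncomputable section

namespace Fermat.Agent.S36

open ModularCurve AlgebraicCurve Fermat.Agent.ES Fermat.Agent.ES.G2 Fermat.Agent.INJ
open Fermat.Agent.UNIP Fermat.Agent.STB IntermediateField

section Skeleton

variable {q : ℕ} {A : ValuationSubring (AlgebraicClosure ℚ)} (M : ℕ) [NeZero M] [NeZero q]
  [IsDiscreteValuationRing ↥(beta0Ring A (beta0Field A))]
  {ζ : AlgebraicClosure ℚ}
  (hq : q.Prime) (hA : A.LiesOverPrime q) (hqM : ¬ q ∣ M) (hζ : IsPrimitiveRoot ζ q)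
  (ιC : ↥(beta0Field A) →+* ℂ)
  (h : S36MidEmb ↥(s36n2bK A ζ) q M (s36i1ZK (A := A) hq hζ))

/-- **(d-C), skeleton**: `hC` of `s36cu_hpts_inf` at the concrete family. -/
theorem s36cuc_hC_of
    (hKR : ∀ x : ↥(modularFunctionFieldFullC ↥(beta0Field A) (M * q * q)),
      IsIntegral ↥(Algebra.adjoin ↥(beta0Ring A (beta0Field A))
          {bgJ ↥(beta0Field A) (M * q * q)})
        (algebraMap ↥(beta0Ring A (beta0Field A))
          ↥(modularFunctionFieldFullC ↥(beta0Field A) (M * q * q))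
          ((q : ℕ) : ↥(beta0Ring A (beta0Field A))) * x) →
      (∀ c, x ∈ s36i1V M hq hA hqM hζ ιC h c) →
        IsIntegral ↥(Algebra.adjoin ↥(beta0Ring A (beta0Field A))
          {bgJ ↥(beta0Field A) (M * q * q)}) x)
    (𝔫 : AtPt (F := ↥(modularFunctionFieldFullC ↥(beta0Field A) (M * q * q)))
      ((q : ℕ) : ↥(beta0Ring A (beta0Field A))) (bgJ ↥(beta0Field A) (M * q * q))⁻¹)
    (hc₁ : atThrough 𝔫 (s36i1V M hq hA hqM hζ ιC h S36Comp.c))
    (honly : ∀ c, atThrough 𝔫 (s36i1V M hq hA hqM hζ ιC h c) → c = S36Comp.c)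
    -- (1)
    {X g : ↥(modularFunctionFieldFullC ↥(beta0Field A) (M * q * q))}
    (hX : X ∈ atLoc 𝔫) (hg : g ∈ atLoc 𝔫) (hg' : g⁻¹ ∈ atLoc 𝔫) (hg0 : g ≠ 0)
    (hcong : (X ^ (q - 1) / algebraMap ↥(beta0Ring A (beta0Field A))
        ↥(modularFunctionFieldFullC ↥(beta0Field A) (M * q * q))
        ((q : ℕ) : ↥(beta0Ring A (beta0Field A)))) ^ 1 - g ∈
      (s36i1V M hq hA hqM hζ ιC h S36Comp.c).nonunits)
    -- (2)
    {Y₀ : ↥(zchClosure (A₀ := ↥(beta0Ring A (beta0Field A)))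
      ({(bgJ ↥(beta0Field A) (M * q * q))⁻¹} :
        Set ↥(modularFunctionFieldFullC ↥(beta0Field A) (M * q * q))))}
    (hY₀ : Y₀ ∈ 𝔫.1) (hgen : S36n2pGen 𝔫.1 (s36i1V M hq hA hqM hζ ιC h S36Comp.c) Y₀)
    (m : ℕ) (ζ₁ : ↥(modularFunctionFieldFullC ↥(beta0Field A) (M * q))) :
    @S36PtInput ↥(modularFunctionFieldFullC ↥(beta0Field A) (M * q))
      ↥(modularFunctionFieldFullC ↥(beta0Field A) (M * q * q)) _ _ S36Comp
      (s36Hor ↥(beta0Field A) m) m
      (s36Alpha ↥(beta0Field A) M q) (s36Beta ↥(beta0Field A) M q)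
      (s36NormAlpha ↥(beta0Field A) M q) (s36NormBeta ↥(beta0Field A) M q) ζ₁
      (s36i1V M hq hA hqM hζ ιC h) S36Comp.a S36Comp.b S36Comp.c
      (atO ((q : ℕ) : ↥(beta0Ring A (beta0Field A))) (bgJ ↥(beta0Field A) (M * q * q))
        (Sum.inr 𝔫))
      (stb_atO_isLocalRing (π := ((q : ℕ) : ↥(beta0Ring A (beta0Field A))))
        (bgJ ↥(beta0Field A) (M * q * q)) (Sum.inr 𝔫))
      (atInc ((q : ℕ) : ↥(beta0Ring A (beta0Field A))) (bgJ ↥(beta0Field A) (M * q * q))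
        (s36i1V M hq hA hqM hζ ιC h) (Sum.inr 𝔫)) := by
  have hπ : Irreducible ((q : ℕ) : ↥(beta0Ring A (beta0Field A))) :=
    beta0Ring_irreducible_q hq hA
  have ht := bgConst_transcendental_bgJ ↥(beta0Field A) (M * q * q)
  haveI : FiniteDimensional (↥(beta0Field A))⟮bgJ ↥(beta0Field A) (M * q * q)⟯
      ↥(modularFunctionFieldFullC ↥(beta0Field A) (M * q * q)) :=
    bgFin_finiteDimensional_full ↥(beta0Field A) (M * q * q)
  haveI : FiniteDimensional (↥(beta0Field A))⟮(bgJ ↥(beta0Field A) (M * q * q))⁻¹⟯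
      ↥(modularFunctionFieldFullC ↥(beta0Field A) (M * q * q)) :=
    at_finiteDimensional_inv (bgJ ↥(beta0Field A) (M * q * q))
  haveI : IsNoetherianRing ↥(zchClosure (A₀ := ↥(beta0Ring A (beta0Field A)))
      ({(bgJ ↥(beta0Field A) (M * q * q))⁻¹} :
        Set ↥(modularFunctionFieldFullC ↥(beta0Field A) (M * q * q)))) :=
    chart_closure_isNoetherianRing (A₀ := ↥(beta0Ring A (beta0Field A)))
      (E := ↥(beta0Field A)) (zch_transcendental_inv ht)
  obtain ⟨κ, -, hκ⟩ := s36n2b_compat (A := A) (ζ := ζ) hq hA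
  haveI : CharP (IsLocalRing.ResidueField ↥(beta0Ring A (beta0Field A))) q := mgvl_charP hq hA
  haveI : CharP (IsLocalRing.ResidueField ↥(beta0Ring A (s36n2bK A ζ))) q := mgvl_charP hq hA
  have hKR₂ := aq_KR_inv hπ ht (s36i1V M hq hA hqM hζ ιC h)
    (s36i1c_hBV₁ M hq hA hqM hζ ιC h) hKR
  have hVloc := s36n2l_hVloc₂ (vtBase_residue hπ) (s36n2b_vtBase hq hA hζ)
    (IntermediateField.inclusion (s36n2b_le_K A ζ)).toRingHom ιC hq hqM h (s36i1Z hq hζ) rfl
    hπ hκ (s36n2b_residue_zeta hq hA hζ) hKR S36Comp.c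
  have hramc : ∀ x : ↥(modularFunctionFieldFullC ↥(beta0Field A) (M * q * q)),
      x ∈ (s36i1V M hq hA hqM hζ ιC h S36Comp.c).nonunits →
      ∃ z ∈ s36i1V M hq hA hqM hζ ιC h S36Comp.c, x ^ (q - 1) =
        algebraMap ↥(beta0Ring A (beta0Field A))
          ↥(modularFunctionFieldFullC ↥(beta0Field A) (M * q * q))
          ((q : ℕ) : ↥(beta0Ring A (beta0Field A))) * z := fun x hx =>
    s36vt_hram (s36n2b_vtBase hq hA hζ)
      (s36n2EmbC (IntermediateField.inclusion (s36n2b_le_K A ζ)).toRingHom h)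
      (fun _ => s36n2_frac_emb (s36n2b_vtBase hq hA hζ) hq h (s36i1Z hq hζ) rfl _)
      (s36i1_ord_c (IntermediateField.inclusion (s36n2b_le_K A ζ)).toRingHom h
        (s36i1c_ram hq hA hζ)) le_rfl hx
  exact s36pm_atPt_inr (E := ↥(beta0Field A)) hπ (s36i1V M hq hA hqM hζ ιC h)
    (s36i1c_hBV₂ M hq hA hqM hζ ιC h) (s36i1c_hπV M hq hA hqM hζ ιC h) hKR₂ (q ^ 1)
    (s36i1c_hram M hq hA hqM hζ ιC h) 𝔫 S36Comp.c hc₁ honly hVloc hY₀ hgen hX hg hg' hg0
    (q - 1) 1 (Nat.sub_pos_of_lt hq.one_lt) Nat.one_pos hcong hramc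
    (s36Hor ↥(beta0Field A) m) m (fun y hy => hy)
    (s36Alpha ↥(beta0Field A) M q) (s36Beta ↥(beta0Field A) M q)
    (s36NormAlpha ↥(beta0Field A) M q) (s36NormBeta ↥(beta0Field A) M q) ζ₁
    S36Comp.a S36Comp.b S36Comp.c

/-- **(d-C)**: the hypothesis `hC` of `s36cu_hpts_inf` / `s36cu_hpts` (helper84), VERBATIM, from
(I2) `hKR`, (1) the congruence data at every cusp point of `C_c`, (2) a local parameter of the
branch `C_c` at every cusp point of `C_c`. -/
theorem s36cuc_hC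
    (hKR : ∀ x : ↥(modularFunctionFieldFullC ↥(beta0Field A) (M * q * q)),
      IsIntegral ↥(Algebra.adjoin ↥(beta0Ring A (beta0Field A))
          {bgJ ↥(beta0Field A) (M * q * q)})
        (algebraMap ↥(beta0Ring A (beta0Field A))
          ↥(modularFunctionFieldFullC ↥(beta0Field A) (M * q * q))
          ((q : ℕ) : ↥(beta0Ring A (beta0Field A))) * x) →
      (∀ c, x ∈ s36i1V M hq hA hqM hζ ιC h c) →
        IsIntegral ↥(Algebra.adjoin ↥(beta0Ring A (beta0Field A))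
          {bgJ ↥(beta0Field A) (M * q * q)}) x)
    -- (1)
    (h1 : ∀ 𝔫 : AtPt (F := ↥(modularFunctionFieldFullC ↥(beta0Field A) (M * q * q)))
        ((q : ℕ) : ↥(beta0Ring A (beta0Field A))) (bgJ ↥(beta0Field A) (M * q * q))⁻¹,
      (⟨(bgJ ↥(beta0Field A) (M * q * q))⁻¹, s36pc_self_mem _⟩ :
        ↥(zchClosure (A₀ := ↥(beta0Ring A (beta0Field A)))
          ({(bgJ ↥(beta0Field A) (M * q * q))⁻¹} :
            Set ↥(modularFunctionFieldFullC ↥(beta0Field A) (M * q * q))))) ∈ 𝔫.1 →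
      atThrough 𝔫 (s36i1V M hq hA hqM hζ ιC h S36Comp.c) →
      (∀ c, atThrough 𝔫 (s36i1V M hq hA hqM hζ ιC h c) → c = S36Comp.c) →
      ∃ X g : ↥(modularFunctionFieldFullC ↥(beta0Field A) (M * q * q)),
        X ∈ atLoc 𝔫 ∧ g ∈ atLoc 𝔫 ∧ g⁻¹ ∈ atLoc 𝔫 ∧ g ≠ 0 ∧
        (X ^ (q - 1) / algebraMap ↥(beta0Ring A (beta0Field A))
          ↥(modularFunctionFieldFullC ↥(beta0Field A) (M * q * q))
          ((q : ℕ) : ↥(beta0Ring A (beta0Field A)))) ^ 1 - g ∈
        (s36i1V M hq hA hqM hζ ιC h S36Comp.c).nonunits)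
    -- (2)
    (h2 : ∀ 𝔫 : AtPt (F := ↥(modularFunctionFieldFullC ↥(beta0Field A) (M * q * q)))
        ((q : ℕ) : ↥(beta0Ring A (beta0Field A))) (bgJ ↥(beta0Field A) (M * q * q))⁻¹,
      (⟨(bgJ ↥(beta0Field A) (M * q * q))⁻¹, s36pc_self_mem _⟩ :
        ↥(zchClosure (A₀ := ↥(beta0Ring A (beta0Field A)))
          ({(bgJ ↥(beta0Field A) (M * q * q))⁻¹} :
            Set ↥(modularFunctionFieldFullC ↥(beta0Field A) (M * q * q))))) ∈ 𝔫.1 →
      atThrough 𝔫 (s36i1V M hq hA hqM hζ ιC h S36Comp.c) →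
      ∃ Y₀ ∈ 𝔫.1, S36n2pGen 𝔫.1 (s36i1V M hq hA hqM hζ ιC h S36Comp.c) Y₀)
    (m : ℕ) (ζ₁ : ↥(modularFunctionFieldFullC ↥(beta0Field A) (M * q))) :
    ∀ 𝔫 : AtPt (F := ↥(modularFunctionFieldFullC ↥(beta0Field A) (M * q * q)))
        ((q : ℕ) : ↥(beta0Ring A (beta0Field A))) (bgJ ↥(beta0Field A) (M * q * q))⁻¹,
      (⟨(bgJ ↥(beta0Field A) (M * q * q))⁻¹, s36pc_self_mem _⟩ :
        ↥(zchClosure (A₀ := ↥(beta0Ring A (beta0Field A)))
          ({(bgJ ↥(beta0Field A) (M * q * q))⁻¹} :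
            Set ↥(modularFunctionFieldFullC ↥(beta0Field A) (M * q * q))))) ∈ 𝔫.1 →
      atThrough 𝔫 (s36i1V M hq hA hqM hζ ιC h S36Comp.c) →
      (∀ c, atThrough 𝔫 (s36i1V M hq hA hqM hζ ιC h c) → c = S36Comp.c) →
      @S36PtInput ↥(modularFunctionFieldFullC ↥(beta0Field A) (M * q))
        ↥(modularFunctionFieldFullC ↥(beta0Field A) (M * q * q)) _ _ S36Comp
        (s36Hor ↥(beta0Field A) m) m
        (s36Alpha ↥(beta0Field A) M q) (s36Beta ↥(beta0Field A) M q)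
        (s36NormAlpha ↥(beta0Field A) M q) (s36NormBeta ↥(beta0Field A) M q) ζ₁
        (s36i1V M hq hA hqM hζ ιC h) S36Comp.a S36Comp.b S36Comp.c
        (atO ((q : ℕ) : ↥(beta0Ring A (beta0Field A))) (bgJ ↥(beta0Field A) (M * q * q))
          (Sum.inr 𝔫))
        (stb_atO_isLocalRing (π := ((q : ℕ) : ↥(beta0Ring A (beta0Field A))))
          (bgJ ↥(beta0Field A) (M * q * q)) (Sum.inr 𝔫))
        (atInc ((q : ℕ) : ↥(beta0Ring A (beta0Field A))) (bgJ ↥(beta0Field A) (M * q * q))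
          (s36i1V M hq hA hqM hζ ιC h) (Sum.inr 𝔫)) := by
  intro 𝔫 h𝔫 hc₁ honly
  obtain ⟨X, g, hX, hg, hg', hg0, hcong⟩ := h1 𝔫 h𝔫 hc₁ honly
  obtain ⟨Y₀, hY₀, hgen⟩ := h2 𝔫 h𝔫 hc₁
  exact s36cuc_hC_of M hq hA hqM hζ ιC h hKR 𝔫 hc₁ honly hX hg hg' hg0 hcong hY₀ hgen m ζ₁

end Skeleton

end Fermat.Agent.S36

end
end ZBS36_032_12

/-! ### bundled: `Fermat.Agent.S36.CuspMidRed` -/
section ZBS36_032_13

/-!
# S36 (I6): cusp points of `C_c` — the REDUCTION at `V_c` (helper58)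

Setting of `S36/N2LocElts.lean`, `section Table`: an embedding `e : F_{Mq²}(E₀) → E((Q))` with
`e j = j`, `e j_qq = j(zQ)` for a primitive `q`-th root of unity `z` of `A` reducing to `1`,
`V = vtSub hB e hfrac`.

`X := j / j_qq − 1`, `U := X ^ (q − 1) / q`, `b := j⁻¹`,
`S := (1 − b ^ (q² − 1))² · b ^ (m − d)`, `G := − (reflect m N_ℤ)(b)`
(`m = natDegree N`, `d = 2 q² + q − 1`).

* `S36cmRed V ρ x y` : `x ∈ V` and `ρ x = y`; calculus;
* `s36cm_red_J`, `s36cm_red_Jqq`, `s36cm_red_Jinv`, `s36cm_red_Jqq_inv`;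
* `s36cm_red_U`  : `U ∈ V` and `ρ U = − (θ j̄)^{q−1} · (j̄⁻¹)^{q−1}`;
* **`s36cm_cong`** : `U ∈ V` and `U · S − G ∈ 𝔪(V)`.
-/

set_option autoImplicit false
set_option linter.unusedSectionVars false
set_option linter.unusedVariables false
set_option linter.style.haveILetI false

noncomputable section

namespace Fermat.Agent.S36

open Polynomial ModularCurve
open Fermat.Agent.S28 Fermat.Agent.S28.Deriv Fermat.Agent.UNIP Fermat.Agent.INJ Fermat.Agent.ES
open Fermat.Agent.AL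

/-! ### the calculus of reductions -/

section Calc

variable {F K : Type*} [Field F] [Field K] (V : ValuationSubring F) (ρ : ↥V →+* K)

/-- `x ∈ V` and `ρ x = y` -/
def S36cmRed (x : F) (y : K) : Prop := ∃ hx : x ∈ V, ρ ⟨x, hx⟩ = y

variable {V ρ}

theorem S36cmRed.mem {x : F} {y : K} (h : S36cmRed V ρ x y) : x ∈ V := h.1

theorem S36cmRed.zero : S36cmRed V ρ 0 0 := ⟨V.zero_mem, map_zero ρ⟩

theorem S36cmRed.one : S36cmRed V ρ 1 1 := ⟨V.one_mem, map_one ρ⟩

theorem S36cmRed.mul {x x' : F} {y y' : K} (h : S36cmRed V ρ x y) (h' : S36cmRed V ρ x' y') :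
    S36cmRed V ρ (x * x') (y * y') := by
  obtain ⟨hx, rfl⟩ := h
  obtain ⟨hx', rfl⟩ := h'
  exact ⟨V.mul_mem _ _ hx hx', map_mul ρ ⟨x, hx⟩ ⟨x', hx'⟩⟩

theorem S36cmRed.add {x x' : F} {y y' : K} (h : S36cmRed V ρ x y) (h' : S36cmRed V ρ x' y') :
    S36cmRed V ρ (x + x') (y + y') := by
  obtain ⟨hx, rfl⟩ := h
  obtain ⟨hx', rfl⟩ := h'
  exact ⟨V.add_mem _ _ hx hx', map_add ρ ⟨x, hx⟩ ⟨x', hx'⟩⟩

theorem S36cmRed.neg {x : F} {y : K} (h : S36cmRed V ρ x y) : S36cmRed V ρ (-x) (-y) := by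
  obtain ⟨hx, rfl⟩ := h
  exact ⟨V.neg_mem _ hx, map_neg ρ ⟨x, hx⟩⟩

theorem S36cmRed.sub {x x' : F} {y y' : K} (h : S36cmRed V ρ x y) (h' : S36cmRed V ρ x' y') :
    S36cmRed V ρ (x - x') (y - y') := by
  rw [sub_eq_add_neg, sub_eq_add_neg]
  exact h.add h'.neg

theorem S36cmRed.pow {x : F} {y : K} (h : S36cmRed V ρ x y) (n : ℕ) :
    S36cmRed V ρ (x ^ n) (y ^ n) := by
  induction n with
  | zero => rw [pow_zero, pow_zero]; exact S36cmRed.one
  | succ n ih => rw [pow_succ, pow_succ]; exact ih.mul h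

theorem S36cmRed.intCast (n : ℤ) : S36cmRed V ρ (n : F) (n : K) :=
  ⟨intCast_mem V.toSubring n, by
    have : (⟨(n : F), intCast_mem V.toSubring n⟩ : ↥V) = ((n : ℤ) : ↥V) := Subtype.ext (by simp)
    rw [this, map_intCast]⟩

theorem S36cmRed.congr {x x' : F} {y y' : K} (h : S36cmRed V ρ x y) (hx : x = x')
    (hy : y = y') : S36cmRed V ρ x' y' := by
  subst hx; subst hy; exact h

theorem s36cm_evalInt_monomial {R : Type*} [CommRing R] (w : R) (n : ℕ) (a : ℤ) :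
    Fermat.Agent.S28.evalInt w (Polynomial.monomial n a) = (a : R) * w ^ n := by
  show Polynomial.eval₂ (Int.castRingHom R) w (Polynomial.monomial n a) = _
  rw [Polynomial.eval₂_monomial, eq_intCast]

/-- values of integral polynomials -/
theorem S36cmRed.evalInt {x : F} {y : K} (h : S36cmRed V ρ x y) (P : Polynomial ℤ) :
    S36cmRed V ρ (evalInt x P) (evalInt y P) := by
  induction P using Polynomial.induction_on' with
  | add p p' hp hp' =>
    rw [map_add, map_add]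
    exact hp.add hp'
  | monomial n a =>
    rw [s36cm_evalInt_monomial, s36cm_evalInt_monomial]
    exact (S36cmRed.intCast a).mul (h.pow n)

/-- inverses of units -/
theorem S36cmRed.inv (hρ : ∀ x : ↥V, (x : F) ∈ V.nonunits → ρ x = 0) {x : F} {y : K}
    (h : S36cmRed V ρ x y) (hy : y ≠ 0) : S36cmRed V ρ x⁻¹ y⁻¹ := by
  obtain ⟨hx, rfl⟩ := h
  have hnu : x ∉ V.nonunits := fun hn => hy (hρ ⟨x, hx⟩ hn)
  have hv : V.valuation x = 1 := by
    rw [ValuationSubring.mem_nonunits_iff, not_lt] at hnu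
    exact le_antisymm ((V.valuation_le_one_iff x).mpr hx) hnu
  have hx0 : x ≠ 0 := by
    rintro rfl
    rw [map_zero] at hv
    exact zero_ne_one hv
  have hx' : x⁻¹ ∈ V := by
    rw [← V.valuation_le_one_iff, map_inv₀, hv, inv_one]
  exact ⟨hx', s36n2l_red_inv V ρ hx hx' hx0⟩

/-- the kernel -/
theorem S36cmRed.mem_nonunits (hρ : ∀ x : ↥V, ρ x = 0 → (x : F) ∈ V.nonunits) {x : F}
    (h : S36cmRed V ρ x 0) : x ∈ V.nonunits := by
  obtain ⟨hx, h0⟩ := h
  exact hρ ⟨x, hx⟩ h0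

end Calc

/-! ### the reductions at `V_c` -/

section Red

variable {A E₀ E k : Type*} [CommRing A] [IsDomain A] [Field E₀] [Field E] [Field k]
  {ι : A →+* E} {r : A →+* k} {π : A} {M q : ℕ} [NeZero M] [NeZero q] [NeZero (M * q)]
  [NeZero (M * q * q)]
  (hB : VtBase ι r π) (e : modularFunctionFieldFullC E₀ (M * q * q) →+* LaurentSeries E)
  (hfrac : ∀ x : modularFunctionFieldFullC E₀ (M * q * q), VtFrac ι (e x))

/-- the reduction of an element whose expansion is a series over `A` -/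
theorem s36cm_red_of_coeffMap {x : modularFunctionFieldFullC E₀ (M * q * q)}
    {T : LaurentSeries A} (hx : e x = coeffMap ι T) :
    S36cmRed (vtSub hB e hfrac) (vtSubRed hB e hfrac) x (coeffMap r T) :=
  ⟨s36n2l_mem_of_coeffMap hB e hfrac hx, s36n2l_red_of_coeffMap hB e hfrac hx _⟩

theorem s36cm_red_ker (x : ↥(vtSub hB e hfrac))
    (hx : (x : modularFunctionFieldFullC E₀ (M * q * q)) ∈ (vtSub hB e hfrac).nonunits) :
    vtSubRed hB e hfrac x = 0 :=
  (vtSubRed_eq_zero_iff hB e hfrac x).mpr hx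

variable [hqF : Fact q.Prime] [CharP k q]
  (z : Aˣ) (hzp : IsPrimitiveRoot (z : A) q) (hz : r z = 1) (hq0 : (q : A) ≠ 0)
  (h₀ : e (s36n2lJ E₀ M q) = jqModC E)
  (h₂ : e (s36n2lJqq E₀ M q) = kronRot (Units.map (ι : A →* E) z) (jqModC E))

include h₀ in
/-- `j ↦ j̄` -/
theorem s36cm_red_J :
    S36cmRed (vtSub hB e hfrac) (vtSubRed hB e hfrac) (s36n2lJ E₀ M q) (jqModC k) := by
  have h := s36cm_red_of_coeffMap hB e hfrac (x := s36n2lJ E₀ M q) (T := jqModC A)
    (by rw [h₀, coeffMap_jqModC])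
  rwa [coeffMap_jqModC] at h

include hz h₂ in
/-- `j_qq ↦ j̄` -/
theorem s36cm_red_Jqq :
    S36cmRed (vtSub hB e hfrac) (vtSubRed hB e hfrac) (s36n2lJqq E₀ M q) (jqModC k) := by
  have hz1 : Units.map (r : A →* k) z = 1 := Units.ext hz
  have h := s36cm_red_of_coeffMap hB e hfrac (x := s36n2lJqq E₀ M q)
    (T := kronRot z (jqModC A)) (by rw [h₂, coeffMap_kronRot, coeffMap_jqModC])
  rwa [coeffMap_kronRot, coeffMap_jqModC, hz1, kronRot_one] at h

include h₀ in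
/-- `j⁻¹ ↦ j̄⁻¹` -/
theorem s36cm_red_Jinv :
    S36cmRed (vtSub hB e hfrac) (vtSubRed hB e hfrac) (s36n2lJ E₀ M q)⁻¹ (jqModC k)⁻¹ :=
  (s36cm_red_J hB e hfrac h₀).inv (s36cm_red_ker hB e hfrac)
    (jqModC_ne_zero_of_nontrivial k)

include hz h₂ in
/-- `j_qq⁻¹ ↦ j̄⁻¹` -/
theorem s36cm_red_Jqq_inv :
    S36cmRed (vtSub hB e hfrac) (vtSubRed hB e hfrac) (s36n2lJqq E₀ M q)⁻¹ (jqModC k)⁻¹ :=
  (s36cm_red_Jqq hB e hfrac z hz h₂).inv (s36cm_red_ker hB e hfrac)
    (jqModC_ne_zero_of_nontrivial k)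

include hzp hz hq0 h₀ h₂ in
/-- `(j_qq − j) ^ (q − 1) / q ↦ − (θ j̄) ^ (q − 1)` -/
theorem s36cm_red_W :
    S36cmRed (vtSub hB e hfrac) (vtSubRed hB e hfrac)
      ((s36n2lJqq E₀ M q - s36n2lJ E₀ M q) ^ (q - 1) /
        ((q : ℕ) : modularFunctionFieldFullC E₀ (M * q * q)))
      (-(thetaFun (jqModC k)) ^ (q - 1)) := by
  have hx : e (s36n2lJqq E₀ M q - s36n2lJ E₀ M q) =
      kronRot (Units.map (ι : A →* E) z) (coeffMap ι (jqModC A)) - coeffMap ι (jqModC A) := by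
    rw [map_sub, h₀, h₂, coeffMap_jqModC]
  have hc : e ((q : ℕ) : modularFunctionFieldFullC E₀ (M * q * q)) =
      HahnSeries.C (ι ((q : ℕ) : A)) := by
    rw [map_natCast, map_natCast, map_natCast]
  obtain ⟨hmem, hred⟩ := s36th_pow_div_mem hB e hqF.out hzp hz hx hc hq0
  refine ⟨hmem, ?_⟩
  rw [vtSubRed_apply]
  rw [coeffMap_jqModC] at hred
  exact hred

include hzp hz hq0 h₀ h₂ in
/-- **`U = (j / j_qq − 1) ^ (q − 1) / q ↦ − (θ j̄) ^ (q − 1) · (j̄⁻¹) ^ (q − 1)`** -/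
theorem s36cm_red_U :
    S36cmRed (vtSub hB e hfrac) (vtSubRed hB e hfrac)
      ((s36n2lJ E₀ M q * (s36n2lJqq E₀ M q)⁻¹ - 1) ^ (q - 1) /
        ((q : ℕ) : modularFunctionFieldFullC E₀ (M * q * q)))
      (-(thetaFun (jqModC k)) ^ (q - 1) * (jqModC k)⁻¹ ^ (q - 1)) := by
  have hW := s36cm_red_W hB e hfrac z hzp hz hq0 h₀ h₂
  have hI := s36cm_red_Jqq_inv hB e hfrac z hz h₂
  have hJqq0 : s36n2lJqq E₀ M q ≠ 0 := by
    intro h0
    have h1 := (s36cm_red_Jqq hB e hfrac z hz h₂)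
    obtain ⟨hx, hr⟩ := h1
    have : (⟨s36n2lJqq E₀ M q, hx⟩ : ↥(vtSub hB e hfrac)) = 0 := Subtype.ext h0
    rw [this, map_zero] at hr
    exact jqModC_ne_zero_of_nontrivial k hr.symm
  have hm1 : S36cmRed (vtSub hB e hfrac) (vtSubRed hB e hfrac)
      ((-1 : modularFunctionFieldFullC E₀ (M * q * q)) ^ (q - 1))
      ((-1 : LaurentSeries k) ^ (q - 1)) :=
    (S36cmRed.one.neg).pow _
  have hq0k : ((q : ℕ) : LaurentSeries k) = 0 := by
    have : ((q : ℕ) : k) = 0 := CharP.cast_eq_zero k q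
    rw [← map_natCast (HahnSeries.C : k →+* LaurentSeries k), this, map_zero]
  have h := (hm1.mul hW).mul (hI.pow (q - 1))
  refine h.congr ?_ ?_
  · have e1 : s36n2lJ E₀ M q * (s36n2lJqq E₀ M q)⁻¹ - 1 =
        (-1) * ((s36n2lJqq E₀ M q - s36n2lJ E₀ M q) * (s36n2lJqq E₀ M q)⁻¹) := by
      field_simp
      ring
    rw [e1, mul_pow, mul_pow]
    ring
  · rw [s36th_neg_one_pow hqF.out hq0k, one_mul]

/-- `evalInt` in a `k`-algebra -/
theorem s36cm_evalInt_eq_aeval {L : Type*} [CommRing L] [Algebra k L] (y : L)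
    (P : Polynomial ℤ) :
    Fermat.Agent.S28.evalInt y P = aeval y (P.map (Int.castRingHom k)) := by
  show Polynomial.eval₂ (Int.castRingHom L) y P = _
  rw [aeval_def, Polynomial.eval₂_map]
  congr 1
  exact RingHom.ext_int _ _

include hzp hz hq0 h₀ h₂ in
/-- **the congruence** `U · S ≡ G` modulo `𝔪(V_c)` -/
theorem s36cm_cong :
    (s36n2lJ E₀ M q * (s36n2lJqq E₀ M q)⁻¹ - 1) ^ (q - 1) /
          ((q : ℕ) : modularFunctionFieldFullC E₀ (M * q * q)) *
        ((1 - (s36n2lJ E₀ M q)⁻¹ ^ (q ^ 2 - 1)) ^ 2 *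
          (s36n2lJ E₀ M q)⁻¹ ^ ((s36tkN q k).natDegree - (2 * q ^ 2 + (q - 1)))) -
      -(Fermat.Agent.S28.evalInt (s36n2lJ E₀ M q)⁻¹
          (reflect (s36tkN q k).natDegree (s36cmNZ q))) ∈
      (vtSub hB e hfrac).nonunits := by
  have hU := s36cm_red_U hB e hfrac z hzp hz hq0 h₀ h₂
  have hb := s36cm_red_Jinv hB e hfrac h₀
  have hS := ((S36cmRed.one.sub (hb.pow (q ^ 2 - 1))).pow 2).mul
    (hb.pow ((s36tkN q k).natDegree - (2 * q ^ 2 + (q - 1))))
  have hG := (hb.evalInt (reflect (s36tkN q k).natDegree (s36cmNZ q))).neg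
  have h := (hU.mul hS).sub hG
  refine S36cmRed.mem_nonunits (fun x hx => (vtSubRed_eq_zero_iff hB e hfrac x).mp hx)
    (h.congr rfl ?_)
  rw [s36cm_evalInt_eq_aeval (k := k), ← Polynomial.reflect_map, s36cmNZ_map,
    ← s36cm_formal q k]
  ring

include h₀ in
/-- `u = j_q / j ^ q ≡ 1` modulo `𝔪(V_c)` -/
theorem s36cm_u_sub_one (h₁ : e (s36n2lJq E₀ M q) = qExpand E q (jqModC E)) :
    s36n2lJq E₀ M q * (s36n2lJ E₀ M q)⁻¹ ^ q - 1 ∈ (vtSub hB e hfrac).nonunits := by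
  have hJq : S36cmRed (vtSub hB e hfrac) (vtSubRed hB e hfrac) (s36n2lJq E₀ M q)
      (jqModC k ^ q) := by
    have h := s36cm_red_of_coeffMap hB e hfrac (x := s36n2lJq E₀ M q)
      (T := qExpand A q (jqModC A)) (by rw [h₁, coeffMap_qExpand, coeffMap_jqModC])
    rwa [coeffMap_qExpand, coeffMap_jqModC, s36n2l_red_q k q] at h
  have hb := s36cm_red_Jinv hB e hfrac h₀
  have h := (hJq.mul (hb.pow q)).sub S36cmRed.one
  refine S36cmRed.mem_nonunits (fun x hx => (vtSubRed_eq_zero_iff hB e hfrac x).mp hx)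
    (h.congr rfl ?_)
  have hj0 : jqModC k ≠ 0 := jqModC_ne_zero_of_nontrivial k
  rw [← mul_pow, mul_inv_cancel₀ hj0, one_pow, sub_self]

/-- `q` does not divide the constant term of the reflected `N_ℤ` -/
theorem s36cm_not_dvd (k : Type*) [Field k] [CharP k q] :
    ¬ ((q : ℕ) : ℤ) ∣ (reflect (s36tkN q k).natDegree (s36cmNZ q)).coeff 0 := by
  rintro ⟨c, hc⟩
  have h1 := s36cm_reflect_coeff_zero q k
  apply h1
  rw [← s36cmNZ_map q k, Polynomial.reflect_map, Polynomial.coeff_map, s36cmNZ_map q k, hc]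
  rw [map_mul, map_natCast, CharP.cast_eq_zero k q, zero_mul]

end Red

end Fermat.Agent.S36

end


end ZBS36_032_13

/-! ### bundled: `Fermat.Agent.S36.CuspMid` -/
section ZBS36_032_14

/-!
# S36 (I6): cusp points of `C_c` — the local parameter `X = j / j_qq − 1` (helper58)

* `s36cm_main_abs` : ABSTRACT chart `B ⊆ F`, prime `𝔫 ∋ q, b = J⁻¹`, only `V c₁` through `𝔫`,
  `u = Jq / J^q ∈ B` with `u ≡ 1` at `V c₁`, the modular equation `Φ(Jqq, Jq) = 0`, the
  congruence `U · S ≡ G` at `V c₁` (`U = X^{q−1}/q`), `q ∤ (reflect m N)(0)`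
  ⇒ `X ∈ O`, `U ∈ O`, `U⁻¹ ∈ O`, `U ≠ 0` (`O = B_𝔫`).
* **`s36cm_cusp`** : the same at a point `𝔫 : AtPt π J⁻¹` with `J⁻¹ ∈ 𝔫` of the chart `j⁻¹` of
  `F = F_{Mq²}(E₀)`, for a vertical valuation `V c₁ = vtSub hB e hfrac` with the expansions of
  `V_c` (`e j = j`, `e j_q = j(Q^q)`, `e j_qq = j(zQ)`).  These are the inputs `hX hg hg' hg0`
  of helper93's `s36pm_atPt_inr` with `e = q − 1`, `n = 1`, `g = X^{q−1}/q` (`hcong` is then
  `s36cm_hcong_self`).
-/

set_option autoImplicit false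
set_option linter.unusedSectionVars false
set_option linter.unusedVariables false
set_option linter.style.haveILetI false

noncomputable section

namespace Fermat.Agent.S36

open Polynomial ModularCurve
open Fermat.Agent.S28 Fermat.Agent.S33 Fermat.Agent.UNIP Fermat.Agent.STB Fermat.Agent.INJ
open Fermat.Agent.ES Fermat.Agent.AL

section Abs

variable {F : Type*} [Field F] {B : Type*} [CommRing B] [Algebra B F]
variable (hinj : Function.Injective (algebraMap B F)) (𝔫 : Ideal B) [h𝔫 : 𝔫.IsPrime]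
variable {κ : Type*} [Finite κ]

include hinj in
/-- `1 + ϖ s` is a unit of `O` for `ϖ ∈ 𝔫` -/
theorem s36cm_isUnit_one_add (ϖ : B) (hϖ : ϖ ∈ 𝔫) (s : ls_localSubring (F := F) 𝔫) :
    IsUnit (1 + s36n2pToLoc (F := F) 𝔫 ϖ * s) := by
  haveI := ls_localSubring_isLocalRing (F := F) hinj 𝔫
  have h1 : (1 : B) ∉ 𝔫 := fun h => h𝔫.ne_top ((Ideal.eq_top_iff_one 𝔫).mpr h)
  have hm : s36n2pToLoc (F := F) 𝔫 ϖ ∈ IsLocalRing.maximalIdeal (ls_localSubring (F := F) 𝔫) :=
    s36pc_mem_maximalIdeal hinj 𝔫 _ (b := ϖ) (s := 1) hϖ h1 (by rw [map_one, one_mul]; rfl)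
  apply stb_isUnit_of_sub_one
  rw [add_sub_cancel_left]
  exact Ideal.mul_mem_right _ _ hm

theorem s36cm_evalInt_C {R : Type*} [CommRing R] (x : R) (a : ℤ) :
    evalInt x (C a) = (a : R) := by
  show Polynomial.eval₂ (Int.castRingHom R) x (C a) = _
  rw [Polynomial.eval₂_C, eq_intCast]

theorem s36cm_map_evalInt {R R' : Type*} [CommRing R] [CommRing R'] (f : R →+* R') (x : R)
    (P : Polynomial ℤ) : f (evalInt x P) = evalInt (f x) P := by
  rw [← comp_evalInt]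
  rfl

include hinj in
/-- **the abstract statement** -/
theorem s36cm_main_abs (V : κ → ValuationSubring F)
    (hBV : ∀ c (b : B), algebraMap B F b ∈ V c) (ϖ : B)
    (hKR : ∀ x : F, (∃ b : B, algebraMap B F ϖ * x = algebraMap B F b) → (∀ c, x ∈ V c) →
      ∃ b : B, x = algebraMap B F b)
    (Q : ℕ) (hram : ∀ c (x : F), x ∈ (V c).nonunits → ∃ z ∈ V c, x ^ Q = algebraMap B F ϖ * z)
    (c₁ : κ) (hc₁ : ∀ b : B, algebraMap B F b ∈ (V c₁).nonunits → b ∈ 𝔫)
    (honly : ∀ c, (∀ b : B, algebraMap B F b ∈ (V c).nonunits → b ∈ 𝔫) → c = c₁)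
    (hOic : ∀ x : F, IsIntegral (ls_localSubring (F := F) 𝔫) x → x ∈ ls_localSubring (F := F) 𝔫)
    (q : ℕ) [NeZero q] (hq : q.Prime) (hϖq : algebraMap B F ϖ = ((q : ℕ) : F))
    (hq0 : ((q : ℕ) : F) ≠ 0) (hϖ𝔫 : ϖ ∈ 𝔫)
    {J Jq Jqq : F} (hJ : J ≠ 0) (hJq : Jq ≠ 0) (hJqq : Jqq ≠ 0)
    (hrel : (nodesSwapPhi q hq).eval₂ (evalInt Jq) Jqq = 0)
    (b u : B) (hb : algebraMap B F b = J⁻¹) (hb𝔫 : b ∈ 𝔫)
    (hu : algebraMap B F u = Jq * J⁻¹ ^ q)
    (hu1 : Jq * J⁻¹ ^ q - 1 ∈ (V c₁).nonunits)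
    (m d : ℕ) (N : Polynomial ℤ) (hN : ¬ ((q : ℕ) : ℤ) ∣ (reflect m N).coeff 0)
    (hUV : (J * Jqq⁻¹ - 1) ^ (q - 1) / ((q : ℕ) : F) ∈ V c₁)
    (hcong : (J * Jqq⁻¹ - 1) ^ (q - 1) / ((q : ℕ) : F) *
        ((1 - J⁻¹ ^ (q ^ 2 - 1)) ^ 2 * J⁻¹ ^ (m - d)) -
      -(evalInt J⁻¹ (reflect m N)) ∈ (V c₁).nonunits) :
    J * Jqq⁻¹ - 1 ∈ ls_localSubring (F := F) 𝔫 ∧
      (J * Jqq⁻¹ - 1) ^ (q - 1) / ((q : ℕ) : F) ∈ ls_localSubring (F := F) 𝔫 ∧
      ((J * Jqq⁻¹ - 1) ^ (q - 1) / ((q : ℕ) : F))⁻¹ ∈ ls_localSubring (F := F) 𝔫 ∧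
      (J * Jqq⁻¹ - 1) ^ (q - 1) / ((q : ℕ) : F) ≠ 0 := by
  classical
  haveI := ls_localSubring_isLocalRing (F := F) hinj 𝔫
  have h1 : (1 : B) ∉ 𝔫 := fun h => h𝔫.ne_top ((Ideal.eq_top_iff_one 𝔫).mpr h)
  have hϖ0 : algebraMap B F ϖ ≠ 0 := by rw [hϖq]; exact hq0
  -- `J⁻¹ ∈ O`
  have hbO : J⁻¹ ∈ ls_localSubring (F := F) 𝔫 := hb ▸ ls_algebraMap_mem 𝔫 b
  -- `u ∉ 𝔫`
  have hu𝔫 : u ∉ 𝔫 := by
    intro h
    have h2 : u - 1 ∈ 𝔫 := hc₁ _ (by rw [map_sub, map_one, hu]; exact hu1)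
    have h3 := 𝔫.sub_mem h h2
    rw [sub_sub_cancel] at h3
    exact h1 h3
  -- `J ^ q / Jq ∈ O`
  have huO : J ^ q * Jq⁻¹ ∈ ls_localSubring (F := F) 𝔫 := by
    refine ⟨1, u, hu𝔫, ?_⟩
    rw [hu, map_one, inv_pow]
    field_simp
  have haO : Jq⁻¹ ∈ ls_localSubring (F := F) 𝔫 := by
    have e : Jq⁻¹ = J⁻¹ ^ q * (J ^ q * Jq⁻¹) := by
      rw [inv_pow]
      field_simp
    rw [e]
    exact (ls_localSubring (F := F) 𝔫).mul_mem ((ls_localSubring (F := F) 𝔫).pow_mem hbO q) huO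
  -- the unit `γ`
  haveI : Fact q.Prime := ⟨hq⟩
  have hγ : evalInt Jq⁻¹ (reflect (q + 1) ((nodesSwapPhi q hq).coeff 0)) =
      1 + algebraMap B F ϖ * evalInt Jq⁻¹ (reflect (q + 1) ((s36tkPsi q).coeff 0)) := by
    rw [s36cm_phi_coeff_zero, reflect_add, reflect_C_mul, reflect_monomial, revAt_le le_rfl,
      Nat.sub_self, pow_zero, map_add, map_one, map_mul, s36cm_evalInt_C, hϖq]
    simp
  set sγ : ls_localSubring (F := F) 𝔫 :=
    ⟨evalInt Jq⁻¹ (reflect (q + 1) ((s36tkPsi q).coeff 0)),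
      s36cm_evalInt_mem _ haO _⟩ with hsγ
  obtain ⟨γu, hγu⟩ := s36cm_isUnit_one_add hinj 𝔫 ϖ hϖ𝔫 sγ
  have hγ' : ((↑γu⁻¹ : ls_localSubring (F := F) 𝔫) : F) *
      evalInt Jq⁻¹ (reflect (q + 1) ((nodesSwapPhi q hq).coeff 0)) = 1 := by
    have e1 : ((γu : ls_localSubring (F := F) 𝔫) : F) =
        evalInt Jq⁻¹ (reflect (q + 1) ((nodesSwapPhi q hq).coeff 0)) := by
      rw [hγu, hγ]
      rfl
    rw [← e1]
    have := congrArg (fun z : ls_localSubring (F := F) 𝔫 => (z : F)) (Units.inv_mul γu)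
    exact this
  -- `x₀ ∈ O`
  have hx0 : J * Jqq⁻¹ ∈ ls_localSubring (F := F) 𝔫 :=
    s36cm_x0_mem q hq.one_le (nodesSwapPhi q hq) (nodesSwapPhi_monic q hq)
      (nodesSwapPhi_natDegree q hq) (fun i hi _ => wpd_deg_pos q hq hi) (wpd_deg_zero q hq)
      (ls_localSubring (F := F) 𝔫) hOic hJ hJq hJqq hrel hbO haO huO _
      (↑γu⁻¹ : ls_localSubring (F := F) 𝔫).2 hγ'
  have hX : J * Jqq⁻¹ - 1 ∈ ls_localSubring (F := F) 𝔫 :=
    (ls_localSubring (F := F) 𝔫).sub_mem hx0 (ls_localSubring (F := F) 𝔫).one_mem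
  -- `G ∉ 𝔫`
  have hqB : ((q : ℕ) : B) ∈ 𝔫 := by
    have : ϖ = ((q : ℕ) : B) := hinj (by rw [hϖq, map_natCast])
    rw [← this]
    exact hϖ𝔫
  have hG : -(evalInt b (reflect m N)) ∉ 𝔫 := by
    intro hG
    have hG' : evalInt b (reflect m N) ∈ 𝔫 := by
      have := 𝔫.neg_mem hG
      rwa [neg_neg] at this
    have e1 : evalInt b (reflect m N) =
        evalInt b (reflect m N).divX * b + (((reflect m N).coeff 0 : ℤ) : B) := by
      conv_lhs => rw [← divX_mul_X_add (reflect m N)]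
      rw [map_add, map_mul, evalInt_X, s36cm_evalInt_C]
    have hc0 : (((reflect m N).coeff 0 : ℤ) : B) ∈ 𝔫 := by
      have h2 : (((reflect m N).coeff 0 : ℤ) : B) =
          evalInt b (reflect m N) - evalInt b (reflect m N).divX * b := by
        rw [e1]; ring
      rw [h2]
      exact 𝔫.sub_mem hG' (𝔫.mul_mem_left _ hb𝔫)
    have hcop : IsCoprime ((q : ℕ) : ℤ) ((reflect m N).coeff 0) :=
      (Nat.prime_iff_prime_int.mp hq).irreducible.coprime_iff_not_dvd.mpr hN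
    obtain ⟨a, a', haa⟩ := hcop
    have h3 : ((a : ℤ) : B) * ((q : ℕ) : B) + ((a' : ℤ) : B) * (((reflect m N).coeff 0 : ℤ) : B)
        = 1 := by
      have := congrArg (fun z : ℤ => (z : B)) haa
      push_cast at this
      exact this
    apply h1
    rw [← h3]
    exact 𝔫.add_mem (𝔫.mul_mem_left _ hqB) (𝔫.mul_mem_left _ hc0)
  -- `U` is a unit
  have hmapS : algebraMap B F ((1 - b ^ (q ^ 2 - 1)) ^ 2 * b ^ (m - d)) =
      (1 - J⁻¹ ^ (q ^ 2 - 1)) ^ 2 * J⁻¹ ^ (m - d) := by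
    rw [map_mul, map_pow, map_sub, map_one, map_pow, map_pow, hb]
  have hmapG : algebraMap B F (-(evalInt b (reflect m N))) = -(evalInt J⁻¹ (reflect m N)) := by
    rw [map_neg, s36cm_map_evalInt, hb]
  obtain ⟨g, hgu, hgU⟩ := s36cm_unit hinj 𝔫 V hBV ϖ hKR Q hram hϖ0 c₁ hc₁ honly
    ⟨J * Jqq⁻¹ - 1, hX⟩ (q - 1) (by rw [hϖq]; exact hUV)
    ((1 - b ^ (q ^ 2 - 1)) ^ 2 * b ^ (m - d)) (-(evalInt b (reflect m N))) hG
    (by rw [hϖq, hmapS, hmapG]; exact hcong)
  rw [hϖq] at hgU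
  have hgU' : (g : F) = (J * Jqq⁻¹ - 1) ^ (q - 1) / ((q : ℕ) : F) := hgU
  obtain ⟨hg0, hginv⟩ := (s36cu_isUnit_iff g).mp hgu
  rw [hgU'] at hg0 hginv
  exact ⟨hX, hgU' ▸ g.2, hginv, hg0⟩

end Abs

/-! ### at a closed point of the chart `j⁻¹` -/

section Cusp

variable {A₀ E₀ : Type*} [CommRing A₀] [IsDomain A₀] [IsDiscreteValuationRing A₀]
  [Field E₀] [Algebra A₀ E₀] [IsFractionRing A₀ E₀] [CharZero E₀]
  {M q : ℕ} [NeZero M] [NeZero q] [NeZero (M * q)] [NeZero (M * q * q)]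
  [Algebra A₀ (modularFunctionFieldFullC E₀ (M * q * q))]
  [IsScalarTower A₀ E₀ (modularFunctionFieldFullC E₀ (M * q * q))]
  {π : A₀} {κ : Type*} [Finite κ]
  {A E k : Type*} [CommRing A] [IsDomain A] [Field E] [Field k]
  {ι : A →+* E} {r : A →+* k} {π' : A}
  (hB : VtBase ι r π') (e : modularFunctionFieldFullC E₀ (M * q * q) →+* LaurentSeries E)
  (hfrac : ∀ x : modularFunctionFieldFullC E₀ (M * q * q), VtFrac ι (e x))
  [hqF : Fact q.Prime] [CharP k q]
  (z : Aˣ) (hzp : IsPrimitiveRoot (z : A) q) (hz : r z = 1) (hq0 : ((q : ℕ) : A) ≠ 0)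
  (h₀ : e (s36n2lJ E₀ M q) = jqModC E)
  (h₁ : e (s36n2lJq E₀ M q) = qExpand E q (jqModC E))
  (h₂ : e (s36n2lJqq E₀ M q) = kronRot (Units.map (ι : A →* E) z) (jqModC E))

include hB e hq0 in
theorem s36cm_natCast_ne_zero :
    ((q : ℕ) : modularFunctionFieldFullC E₀ (M * q * q)) ≠ 0 := by
  intro h0
  have h1 := congrArg e h0
  rw [map_natCast, map_zero] at h1
  have h2 : (HahnSeries.C ((q : ℕ) : E) : LaurentSeries E) = HahnSeries.C 0 := by
    rw [map_natCast, map_zero]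
    exact h1
  have h3 : ((q : ℕ) : E) = 0 := HahnSeries.C_injective h2
  exact hq0 (hB.inj (by rw [map_natCast, h3, map_zero]))

include E₀ hzp hz hq0 h₀ h₁ h₂ in
/-- **The local parameter at the cusp points of `C_c`**: at a closed point `𝔫` of the chart
`j⁻¹` with `j⁻¹ ∈ 𝔫`, through which only the component `V c₁ = V_c` passes,
`X = j / j_qq − 1 ∈ O` and `U = X ^ (q − 1) / π` is a unit of `O = (B_{j⁻¹})_𝔫`. -/
theorem s36cm_cusp
    (hπq : algebraMap A₀ (modularFunctionFieldFullC E₀ (M * q * q)) π =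
      ((q : ℕ) : modularFunctionFieldFullC E₀ (M * q * q)))
    (V : κ → ValuationSubring (modularFunctionFieldFullC E₀ (M * q * q)))
    (hBV : ∀ c (b : modularFunctionFieldFullC E₀ (M * q * q)),
      IsIntegral ↥(Algebra.adjoin A₀ {(s36n2lJ E₀ M q)⁻¹}) b → b ∈ V c)
    (hKR : ∀ x : modularFunctionFieldFullC E₀ (M * q * q),
      IsIntegral ↥(Algebra.adjoin A₀ {(s36n2lJ E₀ M q)⁻¹})
        (algebraMap A₀ (modularFunctionFieldFullC E₀ (M * q * q)) π * x) →
      (∀ c, x ∈ V c) → IsIntegral ↥(Algebra.adjoin A₀ {(s36n2lJ E₀ M q)⁻¹}) x)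
    (Q : ℕ) (hram : ∀ c (x : modularFunctionFieldFullC E₀ (M * q * q)), x ∈ (V c).nonunits →
      ∃ z ∈ V c, x ^ Q = algebraMap A₀ (modularFunctionFieldFullC E₀ (M * q * q)) π * z)
    (𝔫 : AtPt (F := modularFunctionFieldFullC E₀ (M * q * q)) π (s36n2lJ E₀ M q)⁻¹)
    (h𝔫 : (⟨(s36n2lJ E₀ M q)⁻¹, s36pc_self_mem (s36n2lJ E₀ M q)⁻¹⟩ :
      ↥(zchClosure (A₀ := A₀) ({(s36n2lJ E₀ M q)⁻¹} :
        Set (modularFunctionFieldFullC E₀ (M * q * q))))) ∈ 𝔫.1)
    (c₁ : κ) (hVc : V c₁ = vtSub hB e hfrac)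
    (hc₁ : atThrough 𝔫 (V c₁)) (honly : ∀ c, atThrough 𝔫 (V c) → c = c₁) :
    s36n2lJ E₀ M q * (s36n2lJqq E₀ M q)⁻¹ - 1 ∈ atLoc 𝔫 ∧
      (s36n2lJ E₀ M q * (s36n2lJqq E₀ M q)⁻¹ - 1) ^ (q - 1) /
        algebraMap A₀ (modularFunctionFieldFullC E₀ (M * q * q)) π ∈ atLoc 𝔫 ∧
      ((s36n2lJ E₀ M q * (s36n2lJqq E₀ M q)⁻¹ - 1) ^ (q - 1) /
        algebraMap A₀ (modularFunctionFieldFullC E₀ (M * q * q)) π)⁻¹ ∈ atLoc 𝔫 ∧
      (s36n2lJ E₀ M q * (s36n2lJqq E₀ M q)⁻¹ - 1) ^ (q - 1) /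
        algebraMap A₀ (modularFunctionFieldFullC E₀ (M * q * q)) π ≠ 0 := by
  haveI := 𝔫.2.1.isPrime
  have hq := hqF.out
  have hqF0 := s36cm_natCast_ne_zero (E₀ := E₀) (M := M) hB e hq0
  have hJ0 : s36n2lJ E₀ M q ≠ 0 := s36n2l_J_ne_zero
  have hJq0 : s36n2lJq E₀ M q ≠ 0 := by
    intro h0
    have h := congrArg e h0
    rw [h₁, map_zero] at h
    have h3 : qExpand E q (jqModC E) = qExpand E q 0 := by rw [h, map_zero]
    exact jqModC_ne_zero_of_nontrivial E (qExpand_injective q h3)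
  have hJqq0 : s36n2lJqq E₀ M q ≠ 0 := by
    intro h0
    obtain ⟨hx, hr⟩ := s36cm_red_Jqq (k := k) hB e hfrac z hz h₂
    have : (⟨s36n2lJqq E₀ M q, hx⟩ : ↥(vtSub hB e hfrac)) = 0 := Subtype.ext h0
    rw [this, map_zero] at hr
    exact jqModC_ne_zero_of_nontrivial k hr.symm
  rw [hπq]
  refine s36cm_main_abs (B := ↥(zchClosure (A₀ := A₀) ({(s36n2lJ E₀ M q)⁻¹} :
      Set (modularFunctionFieldFullC E₀ (M * q * q))))) Subtype.val_injective 𝔫.1 V
    (fun c b => hBV c b (mem_zchClosure.mp b.2))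
    (algebraMap A₀ _ π) ?_ Q hram c₁ hc₁ honly (s36cu_atLoc_ic 𝔫) q hq hπq hqF0 𝔫.2.2
    hJ0 hJq0 hJqq0 (s36n2l_phi_Jqq hq)
    ⟨(s36n2lJ E₀ M q)⁻¹, s36pc_self_mem (s36n2lJ E₀ M q)⁻¹⟩
    ⟨s36n2lJq E₀ M q * (s36n2lJ E₀ M q)⁻¹ ^ q,
      mem_zchClosure.mpr (wpd_e_integral_of_eval q hq hJ0 (s36n2l_phi_Jq hq))⟩
    rfl h𝔫 rfl ?_ (s36tkN q k).natDegree (2 * q ^ 2 + (q - 1)) (s36cmNZ q)
    (s36cm_not_dvd k) ?_ ?_
  · rintro x ⟨b, hb⟩ hxV
    have h1 : IsIntegral ↥(Algebra.adjoin A₀ {(s36n2lJ E₀ M q)⁻¹})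
        (algebraMap A₀ (modularFunctionFieldFullC E₀ (M * q * q)) π * x) := by
      have : algebraMap A₀ (modularFunctionFieldFullC E₀ (M * q * q)) π * x = (b : _) := hb
      rw [this]
      exact mem_zchClosure.mp b.2
    exact ⟨⟨x, mem_zchClosure.mpr (hKR x h1 hxV)⟩, rfl⟩
  · rw [hVc]
    exact s36cm_u_sub_one hB e hfrac h₀ h₁
  · rw [hVc]
    exact (s36cm_red_U hB e hfrac z hzp hz hq0 h₀ h₂).mem
  · rw [hVc]
    exact s36cm_cong hB e hfrac z hzp hz hq0 h₀ h₂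

end Cusp

end Fermat.Agent.S36

end


end ZBS36_032_14

/-! ### bundled: `Fermat.Agent.S36.PtsCuspC2` -/
section ZBS36_032_15

/-!
# S36 / (I6)(d-C), part 2 (helper20): `hC` with the congruence data of helper58 plugged in

* `s36cuc_h1` : the hypothesis (1) of `s36cuc_hC` (`S36/PtsCuspC.lean`) from `s36cm_cusp`
  (helper58, `S36/CuspMid.lean`): `X = J / Jqq − 1`, `g = X ^ (q − 1) / q`;
* `s36cuc_hC_of_gen` : `hC` of `s36cu_hpts_inf` from (I2) `hKR` and (2) the local parameters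
  of the branch `C_c` at its cusp points ((d-GEN), helper45).
-/

set_option autoImplicit false
set_option linter.style.haveILetI false
set_option linter.unusedSectionVars false
set_option linter.unusedVariables false
set_option linter.constructorNameAsVariable false

noncomputable section

namespace Fermat.Agent.S36

open ModularCurve AlgebraicCurve Fermat.Agent.ES Fermat.Agent.ES.G2 Fermat.Agent.INJ
open Fermat.Agent.UNIP Fermat.Agent.STB IntermediateField

section Plug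

variable {q : ℕ} {A : ValuationSubring (AlgebraicClosure ℚ)} (M : ℕ) [NeZero M] [NeZero q]
  [IsDiscreteValuationRing ↥(beta0Ring A (beta0Field A))]
  {ζ : AlgebraicClosure ℚ}
  (hq : q.Prime) (hA : A.LiesOverPrime q) (hqM : ¬ q ∣ M) (hζ : IsPrimitiveRoot ζ q)
  (ιC : ↥(beta0Field A) →+* ℂ)
  (h : S36MidEmb ↥(s36n2bK A ζ) q M (s36i1ZK (A := A) hq hζ))

/-- **(1)**: the congruence data at the cusp points of `C_c` -/
theorem s36cuc_h1
    (hKR : ∀ x : ↥(modularFunctionFieldFullC ↥(beta0Field A) (M * q * q)),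
      IsIntegral ↥(Algebra.adjoin ↥(beta0Ring A (beta0Field A))
          {bgJ ↥(beta0Field A) (M * q * q)})
        (algebraMap ↥(beta0Ring A (beta0Field A))
          ↥(modularFunctionFieldFullC ↥(beta0Field A) (M * q * q))
          ((q : ℕ) : ↥(beta0Ring A (beta0Field A))) * x) →
      (∀ c, x ∈ s36i1V M hq hA hqM hζ ιC h c) →
        IsIntegral ↥(Algebra.adjoin ↥(beta0Ring A (beta0Field A))
          {bgJ ↥(beta0Field A) (M * q * q)}) x)
    (𝔫 : AtPt (F := ↥(modularFunctionFieldFullC ↥(beta0Field A) (M * q * q)))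
        ((q : ℕ) : ↥(beta0Ring A (beta0Field A))) (bgJ ↥(beta0Field A) (M * q * q))⁻¹)
    (h𝔫 : (⟨(bgJ ↥(beta0Field A) (M * q * q))⁻¹, s36pc_self_mem _⟩ :
        ↥(zchClosure (A₀ := ↥(beta0Ring A (beta0Field A)))
          ({(bgJ ↥(beta0Field A) (M * q * q))⁻¹} :
            Set ↥(modularFunctionFieldFullC ↥(beta0Field A) (M * q * q))))) ∈ 𝔫.1)
    (hc₁ : atThrough 𝔫 (s36i1V M hq hA hqM hζ ιC h S36Comp.c))
    (honly : ∀ c, atThrough 𝔫 (s36i1V M hq hA hqM hζ ιC h c) → c = S36Comp.c) :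
    ∃ X g : ↥(modularFunctionFieldFullC ↥(beta0Field A) (M * q * q)),
      X ∈ atLoc 𝔫 ∧ g ∈ atLoc 𝔫 ∧ g⁻¹ ∈ atLoc 𝔫 ∧ g ≠ 0 ∧
      (X ^ (q - 1) / algebraMap ↥(beta0Ring A (beta0Field A))
        ↥(modularFunctionFieldFullC ↥(beta0Field A) (M * q * q))
        ((q : ℕ) : ↥(beta0Ring A (beta0Field A)))) ^ 1 - g ∈
      (s36i1V M hq hA hqM hζ ιC h S36Comp.c).nonunits := by
  have hπ : Irreducible ((q : ℕ) : ↥(beta0Ring A (beta0Field A))) :=
    beta0Ring_irreducible_q hq hA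
  have ht := bgConst_transcendental_bgJ ↥(beta0Field A) (M * q * q)
  haveI : FiniteDimensional (↥(beta0Field A))⟮bgJ ↥(beta0Field A) (M * q * q)⟯
      ↥(modularFunctionFieldFullC ↥(beta0Field A) (M * q * q)) :=
    bgFin_finiteDimensional_full ↥(beta0Field A) (M * q * q)
  haveI : Fact q.Prime := ⟨hq⟩
  haveI : CharP (IsLocalRing.ResidueField ↥(beta0Ring A (s36n2bK A ζ))) q := mgvl_charP hq hA
  have hKR₂ := aq_KR_inv hπ ht (s36i1V M hq hA hqM hζ ιC h)
    (s36i1c_hBV₁ M hq hA hqM hζ ιC h) hKR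
  have key := s36cm_cusp (A₀ := ↥(beta0Ring A (beta0Field A))) (E₀ := ↥(beta0Field A))
    (M := M) (q := q) (s36n2b_vtBase hq hA hζ)
    (s36n2EmbC (IntermediateField.inclusion (s36n2b_le_K A ζ)).toRingHom h)
    (fun _ => s36n2_frac_emb (s36n2b_vtBase hq hA hζ) hq h (s36i1Z hq hζ) rfl _)
    (s36i1Z hq hζ) (s36n2bZeta_isPrimitiveRoot (A := A) hq hζ)
    (s36n2b_residue_zeta hq hA hζ) (Nat.cast_ne_zero.mpr hq.ne_zero)
    (s36n2l_embC_J (IntermediateField.inclusion (s36n2b_le_K A ζ)).toRingHom h)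
    (s36n2l_embC_Jq (IntermediateField.inclusion (s36n2b_le_K A ζ)).toRingHom h)
    (s36n2l_embC_Jqq (IntermediateField.inclusion (s36n2b_le_K A ζ)).toRingHom h)
    (map_natCast _ q)
    (s36i1V M hq hA hqM hζ ιC h) (s36i1c_hBV₂ M hq hA hqM hζ ιC h) hKR₂ (q ^ 1)
    (s36i1c_hram M hq hA hqM hζ ιC h) 𝔫 h𝔫 S36Comp.c rfl hc₁ honly
  refine ⟨_, _, key.1, key.2.1, key.2.2.1, key.2.2.2, ?_⟩
  rw [pow_one, sub_self, ValuationSubring.mem_nonunits_iff, map_zero]
  exact zero_lt_one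

/-- **(d-C)**: `hC` of `s36cu_hpts_inf` / `s36cu_hpts` from (I2) `hKR` and the local parameters
(d-GEN) of the branch `C_c` at its cusp points. -/
theorem s36cuc_hC_of_gen
    (hKR : ∀ x : ↥(modularFunctionFieldFullC ↥(beta0Field A) (M * q * q)),
      IsIntegral ↥(Algebra.adjoin ↥(beta0Ring A (beta0Field A))
          {bgJ ↥(beta0Field A) (M * q * q)})
        (algebraMap ↥(beta0Ring A (beta0Field A))
          ↥(modularFunctionFieldFullC ↥(beta0Field A) (M * q * q))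
          ((q : ℕ) : ↥(beta0Ring A (beta0Field A))) * x) →
      (∀ c, x ∈ s36i1V M hq hA hqM hζ ιC h c) →
        IsIntegral ↥(Algebra.adjoin ↥(beta0Ring A (beta0Field A))
          {bgJ ↥(beta0Field A) (M * q * q)}) x)
    (h2 : ∀ 𝔫 : AtPt (F := ↥(modularFunctionFieldFullC ↥(beta0Field A) (M * q * q)))
        ((q : ℕ) : ↥(beta0Ring A (beta0Field A))) (bgJ ↥(beta0Field A) (M * q * q))⁻¹,
      (⟨(bgJ ↥(beta0Field A) (M * q * q))⁻¹, s36pc_self_mem _⟩ :
        ↥(zchClosure (A₀ := ↥(beta0Ring A (beta0Field A)))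
          ({(bgJ ↥(beta0Field A) (M * q * q))⁻¹} :
            Set ↥(modularFunctionFieldFullC ↥(beta0Field A) (M * q * q))))) ∈ 𝔫.1 →
      atThrough 𝔫 (s36i1V M hq hA hqM hζ ιC h S36Comp.c) →
      ∃ Y₀ ∈ 𝔫.1, S36n2pGen 𝔫.1 (s36i1V M hq hA hqM hζ ιC h S36Comp.c) Y₀)
    (m : ℕ) (ζ₁ : ↥(modularFunctionFieldFullC ↥(beta0Field A) (M * q))) :
    ∀ 𝔫 : AtPt (F := ↥(modularFunctionFieldFullC ↥(beta0Field A) (M * q * q)))
        ((q : ℕ) : ↥(beta0Ring A (beta0Field A))) (bgJ ↥(beta0Field A) (M * q * q))⁻¹,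
      (⟨(bgJ ↥(beta0Field A) (M * q * q))⁻¹, s36pc_self_mem _⟩ :
        ↥(zchClosure (A₀ := ↥(beta0Ring A (beta0Field A)))
          ({(bgJ ↥(beta0Field A) (M * q * q))⁻¹} :
            Set ↥(modularFunctionFieldFullC ↥(beta0Field A) (M * q * q))))) ∈ 𝔫.1 →
      atThrough 𝔫 (s36i1V M hq hA hqM hζ ιC h S36Comp.c) →
      (∀ c, atThrough 𝔫 (s36i1V M hq hA hqM hζ ιC h c) → c = S36Comp.c) →
      @S36PtInput ↥(modularFunctionFieldFullC ↥(beta0Field A) (M * q))
        ↥(modularFunctionFieldFullC ↥(beta0Field A) (M * q * q)) _ _ S36Comp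
        (s36Hor ↥(beta0Field A) m) m
        (s36Alpha ↥(beta0Field A) M q) (s36Beta ↥(beta0Field A) M q)
        (s36NormAlpha ↥(beta0Field A) M q) (s36NormBeta ↥(beta0Field A) M q) ζ₁
        (s36i1V M hq hA hqM hζ ιC h) S36Comp.a S36Comp.b S36Comp.c
        (atO ((q : ℕ) : ↥(beta0Ring A (beta0Field A))) (bgJ ↥(beta0Field A) (M * q * q))
          (Sum.inr 𝔫))
        (stb_atO_isLocalRing (π := ((q : ℕ) : ↥(beta0Ring A (beta0Field A))))
          (bgJ ↥(beta0Field A) (M * q * q)) (Sum.inr 𝔫))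
        (atInc ((q : ℕ) : ↥(beta0Ring A (beta0Field A))) (bgJ ↥(beta0Field A) (M * q * q))
          (s36i1V M hq hA hqM hζ ιC h) (Sum.inr 𝔫)) :=
  s36cuc_hC M hq hA hqM hζ ιC h hKR
    (fun 𝔫 h𝔫 hc₁ honly => s36cuc_h1 M hq hA hqM hζ ιC h hKR 𝔫 h𝔫 hc₁ honly) h2 m ζ₁

end Plug

end Fermat.Agent.S36

end
end ZBS36_032_15
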