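/- GENERATED FILE (helper35, build-time optimisation, NOTES/ZB.md): verbatim concatenation of the modules
   Fermat.Agent.S36.N2KerF1
   Fermat.Agent.S36.PtsCGen
   Fermat.Agent.S36.PtsCGenStmt
   Fermat.Agent.S36.PtsGenJ
   Fermat.Agent.S36.N2KerF1b
   Fermat.Agent.S36.N2KerF1V
   Fermat.Agent.S36.PtsBGen
   Fermat.Agent.S36.PtsOneC
   Fermat.Agent.S36.PtsTripleKG
   Fermat.Agent.S36.PtsTripleLvM
   Fermat.Agent.S36.PtsTripleNg
   Fermat.Agent.S36.PtsTripleFinal
   Fermat.Agent.S36.PtsTripleDone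
   Fermat.Agent.S36.PtsStmt
   Fermat.Agent.S36.PtsCuspGen
   Fermat.Agent.S36.PtsCuspInst
   Fermat.Agent.S36.PtsDone
   Do not edit; do not import together with these modules. -/
import Fermat.Agent.ZB.S36_027
import Fermat.Agent.ZB.S36_022
import Fermat.Agent.ZB.S36_026
import Fermat.Agent.ZB.UNIP_014
import Fermat.Agent.ZB.UNIP_012
import Fermat.Agent.ZB.S36_032
import Fermat.Agent.ZB.S36_028
import Fermat.Agent.ZB.UNIP_013
import Fermat.Agent.ZB.STB_004
import Fermat.Agent.ZB.RED_001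
import Fermat.Agent.ZB.Common_003
import Fermat.Agent.ZB.S36_029
import Fermat.Agent.ZB.S36_038
import Fermat.Agent.ZB.RT_001
import Fermat.Agent.ZB.UNIP_010
import Fermat.Agent.ZB.S36_034

/-! ### bundled: `Fermat.Agent.S36.N2KerF1` -/
section ZBS36_033_0

/-!
# S36 / N2-ker (K2): the statement (F1) of N2-pts

* `s36n2k_hfrac_chart`, `s36n2k_surj_chart` : the level-`M` part of (K2) on ANY chart `t` of
  `F″ = F_M(E)` whose reduction is transcendental and over which `F″` is algebraic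
  (`t = j`, `t = 1/j`).
* `s36n2k_hF_chain` : the chain `V ⊇ V′_∞ ⊇ V″` of residue degree one.
* `s36n2kPsi` : `ψ_a = α ∘ incl : F_M → F_{Mqq}` as a homomorphism of `A₀`-algebras.
* `s36n2k_F1_chart`, `s36n2k_F1_J`, `s36n2k_F1_Jinv` : **(F1)** for a valuation subring `V` of
  `F_{Mqq}(K₀)` with `V ∩ F′ = V′_∞` and residue field that of `V′_∞` (`V_a`, `V_c`): every
  element of the chart of level `M q²` is congruent modulo `𝔪(V)` to an element of the chart of
  level `M`.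
-/

set_option autoImplicit false
set_option linter.unusedSectionVars false
set_option linter.style.haveILetI false
set_option linter.style.longLine false
set_option synthInstance.maxHeartbeats 400000
set_option maxHeartbeats 1000000

noncomputable section

namespace Fermat.Agent.S36

open ModularCurve Fermat.Agent.INJ Fermat.Agent.UNIP Fermat.Agent.AL Fermat.Agent.STB Polynomial

section Chart

variable {A E k : Type*} [CommRing A] [IsDomain A] [WfDvdMonoid A] [Field E] [Algebra A E]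
  [IsFractionRing A E] [Field k] {r : A →+* k} {π : A}
  (hB : VtBase (algebraMap A E) r π)
  (M : ℕ) [NeZero M]
  [Algebra A (modularFunctionFieldFullC E M)]
  [IsScalarTower A E (modularFunctionFieldFullC E M)]
  (t : modularFunctionFieldFullC E M)
  (ht : (t : LaurentSeries E) ∈ gaussRing (algebraMap A E) r)

include hB ht in
/-- **`V″ = C_(π)`** on a chart `t` of level `M`. -/
theorem s36n2k_hfrac_chart
    (halg : ∀ x : modularFunctionFieldFullC E M, IsAlgebraic (Algebra.adjoin A {t}) x)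
    (htr : Transcendental k (gaussRed r (IsFractionRing.injective A E) ⟨_, ht⟩))
    (hprime : Prime (algebraMap A
      (integralClosure (Algebra.adjoin A {t}) (modularFunctionFieldFullC E M)) π))
    (y : modularFunctionFieldFullC E M) (hy : y ∈ vtInf hB M) :
    ∃ a b : integralClosure (Algebra.adjoin A {t}) (modularFunctionFieldFullC E M),
      (integralClosure (Algebra.adjoin A {t}) (modularFunctionFieldFullC E M)).val.toRingHom b ∉
        (vtInf hB M).nonunits ∧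
      (integralClosure (Algebra.adjoin A {t}) (modularFunctionFieldFullC E M)).val.toRingHom b * y
        = (integralClosure (Algebra.adjoin A {t})
            (modularFunctionFieldFullC E M)).val.toRingHom a := by
  refine s36n2k_frac
    (integralClosure (Algebra.adjoin A {t}) (modularFunctionFieldFullC E M)).val.toRingHom
    (vtInf hB M) (fun c => s36n2k_hCV hB M t ht c)
    (algebraMap A (integralClosure (Algebra.adjoin A {t}) (modularFunctionFieldFullC E M)) π)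
    ?_ (s36n2k_pi_mem hB M t) (fun c hc => s36n2k_hker_M hB M t ht htr hprime c hc)
    (fun c hc => s36n2k_hval_M hB M t ht c hc) ?_ y hy
  · intro h0
    have h1 : ((algebraMap A (integralClosure (Algebra.adjoin A {t})
        (modularFunctionFieldFullC E M)) π : integralClosure (Algebra.adjoin A {t})
          (modularFunctionFieldFullC E M)) : modularFunctionFieldFullC E M) = 0 := h0
    have h2 := nodesFrob_algebraMap_coe (A := A) (F := modularFunctionFieldFullC E M) π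
    have h3 : ((algebraMap A (modularFunctionFieldFullC E M) π :
        modularFunctionFieldFullC E M) : LaurentSeries E) = 0 := by
      have : (algebraMap A (modularFunctionFieldFullC E M) π : modularFunctionFieldFullC E M)
          = 0 := h1
      rw [this]; rfl
    rw [h2] at h3
    exact hB.Cιπ_ne h3
  · intro x
    obtain ⟨d, c, hd, hdc⟩ := nodesInst_hfrac M t halg x
    refine ⟨c, d, ?_, hdc⟩
    intro h0
    apply hd
    rw [h0, map_zero]

include hB ht in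
/-- **(K2), level-`M` part, any chart**: `V` a valuation subring of a field `F ⊇ F″` (via `ψ`)
lying over `V″` with the same residue field; then every `x ∈ V` integral over the chart `C` of
level `M` is congruent modulo `𝔪(V)` to an element of `C`. -/
theorem s36n2k_surj_chart
    (halg : ∀ x : modularFunctionFieldFullC E M, IsAlgebraic (Algebra.adjoin A {t}) x)
    (htr : Transcendental k (gaussRed r (IsFractionRing.injective A E) ⟨_, ht⟩))
    (hprime : Prime (algebraMap A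
      (integralClosure (Algebra.adjoin A {t}) (modularFunctionFieldFullC E M)) π))
    (hicl : IsIntegrallyClosed
      (integralClosure (Algebra.adjoin A {t}) (modularFunctionFieldFullC E M) ⧸
        Ideal.span {algebraMap A
          (integralClosure (Algebra.adjoin A {t}) (modularFunctionFieldFullC E M)) π}))
    {F : Type*} [Field F] (ψ : modularFunctionFieldFullC E M →+* F) (V : ValuationSubring F)
    (hVV : ∀ y, y ∈ vtInf hB M ↔ ψ y ∈ V)
    (hF : ∀ x ∈ V, ∃ y ∈ vtInf hB M, x - ψ y ∈ V.nonunits)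
    (x : F) (hxV : x ∈ V)
    (hx : (ψ.comp (integralClosure (Algebra.adjoin A {t})
      (modularFunctionFieldFullC E M)).val.toRingHom).IsIntegralElem x) :
    ∃ c : integralClosure (Algebra.adjoin A {t}) (modularFunctionFieldFullC E M),
      x - ψ (c : modularFunctionFieldFullC E M) ∈ V.nonunits := by
  haveI : (Ideal.span {algebraMap A
      (integralClosure (Algebra.adjoin A {t}) (modularFunctionFieldFullC E M)) π}).IsPrime :=
    (Ideal.span_singleton_prime hprime.ne_zero).mpr hprime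
  haveI : IsDomain (integralClosure (Algebra.adjoin A {t}) (modularFunctionFieldFullC E M) ⧸
      Ideal.span {algebraMap A
        (integralClosure (Algebra.adjoin A {t}) (modularFunctionFieldFullC E M)) π}) :=
    Ideal.Quotient.isDomain _
  haveI := hicl
  exact s36n2k_surj
    (integralClosure (Algebra.adjoin A {t}) (modularFunctionFieldFullC E M)).val.toRingHom
    ψ V (vtInf hB M) hVV (fun c => s36n2k_hCV hB M t ht c)
    (algebraMap A (integralClosure (Algebra.adjoin A {t}) (modularFunctionFieldFullC E M)) π)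
    (s36n2k_pi_mem hB M t) (fun c hc => s36n2k_hker_M hB M t ht htr hprime c hc)
    (fun y hy => s36n2k_hfrac_chart hB M t ht halg htr hprime y hy) hF x hxV hx

end Chart

section Chain

variable {F'' F' F : Type*} [Field F''] [Field F'] [Field F]

/-- **The chain of residue degree one**: `V ⊇ W ⊇ V″`. -/
theorem s36n2k_hF_chain (incl : F'' →+* F') (φ : F' →+* F) (V'' : ValuationSubring F'')
    (W : ValuationSubring F') (V : ValuationSubring F)
    (hWV : ∀ z, z ∈ W ↔ φ z ∈ V)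
    (hB2 : ∀ c ∈ W, ∃ y ∈ V'', c - incl y ∈ W.nonunits)
    (hF : ∀ x ∈ V, ∃ c ∈ W, x - φ c ∈ V.nonunits) (x : F) (hx : x ∈ V) :
    ∃ y ∈ V'', x - φ (incl y) ∈ V.nonunits := by
  obtain ⟨c, hcW, hxc⟩ := hF x hx
  obtain ⟨y, hy, hcy⟩ := hB2 c hcW
  refine ⟨y, hy, ?_⟩
  have h1 : φ (c - incl y) ∈ V.nonunits := (s36n2k_mem_nonunits_comap φ V W hWV _).mp hcy
  have e : x - φ (incl y) = (x - φ c) + φ (c - incl y) := by
    rw [map_sub]; ring
  rw [e]
  exact s36n2k_add_mem_nonunits V hxc h1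

/-- transport of `hF` along an automorphism `w` of `F` -/
theorem s36n2k_hF_comap (w : F ≃+* F) (ψ : F'' →+* F) (V'' : ValuationSubring F'')
    (V : ValuationSubring F)
    (hF : ∀ x ∈ V, ∃ y ∈ V'', x - ψ y ∈ V.nonunits) (x : F)
    (hx : x ∈ V.comap (w : F →+* F)) :
    ∃ y ∈ V'', x - w.symm (ψ y) ∈ (V.comap (w : F →+* F)).nonunits := by
  obtain ⟨y, hy, hxy⟩ := hF (w x) hx
  refine ⟨y, hy, ?_⟩
  have hVV : ∀ z, z ∈ V.comap (w : F →+* F) ↔ (w : F →+* F) z ∈ V := fun z => Iff.rfl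
  rw [s36n2k_mem_nonunits_comap (w : F →+* F) V (V.comap (w : F →+* F)) hVV]
  have e : (w : F →+* F) (x - w.symm (ψ y)) = w x - ψ y := by
    rw [map_sub]
    show w x - w (w.symm (ψ y)) = _
    rw [RingEquiv.apply_symm_apply]
  rw [e]
  exact hxy

end Chain

section Bridge

variable {A₀ F'' F : Type*} [CommRing A₀] [Field F''] [Field F] [Algebra A₀ F''] [Algebra A₀ F]

/-- Integrality over `A₀[ψ t]` is integrality over the chart `C` of `t` through `ψ`. -/
theorem s36n2k_isIntegralElem_of_adjoin (ψ : F'' →ₐ[A₀] F) (t : F'') (x : F)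
    (hx : IsIntegral ↥(Algebra.adjoin A₀ ({ψ t} : Set F)) x) :
    ((ψ : F'' →+* F).comp
      (integralClosure ↥(Algebra.adjoin A₀ ({t} : Set F'')) F'').val.toRingHom).IsIntegralElem
        x := by
  obtain ⟨p, hp, hpx⟩ := (s36n2k_isIntegral_adjoin_iff ψ t x).mp hx
  refine ⟨p.map (algebraMap ↥(Algebra.adjoin A₀ ({t} : Set F''))
    ↥(integralClosure ↥(Algebra.adjoin A₀ ({t} : Set F'')) F'')), hp.map _, ?_⟩
  rw [Polynomial.eval₂_map]
  exact hpx

end Bridge

section Psi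

variable (A E : Type*) [CommRing A] [Field E] [Algebra A E]
  (M q : ℕ) [NeZero q] [NeZero M] [NeZero (M * q)] [NeZero (M * q * q)]
  [Algebra A (modularFunctionFieldFullC E M)]
  [IsScalarTower A E (modularFunctionFieldFullC E M)]
  [Algebra A (modularFunctionFieldFullC E (M * q * q))]
  [IsScalarTower A E (modularFunctionFieldFullC E (M * q * q))]

/-- `ψ_a = α ∘ incl : F_M → F_{Mqq}` (the inclusion), as a homomorphism of `A`-algebras. -/
def s36n2kPsi : modularFunctionFieldFullC E M →ₐ[A] modularFunctionFieldFullC E (M * q * q) :=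
  { (s36Alpha E M q).comp (nodesInstIncl E M q).toRingHom with
    commutes' := fun a => by
      rw [IsScalarTower.algebraMap_apply A E (modularFunctionFieldFullC E M),
        IsScalarTower.algebraMap_apply A E (modularFunctionFieldFullC E (M * q * q))]
      apply Subtype.ext
      rfl }

theorem s36n2kPsi_apply (y : modularFunctionFieldFullC E M) :
    s36n2kPsi A E M q y = s36Alpha E M q (nodesInstIncl E M q y) := rfl

@[simp]
theorem s36n2kPsi_coe (y : modularFunctionFieldFullC E M) :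
    ((s36n2kPsi A E M q y : modularFunctionFieldFullC E (M * q * q)) : LaurentSeries E) =
      (y : LaurentSeries E) := by
  rw [s36n2kPsi_apply, coe_s36Alpha, nodesInstIncl_coe]

theorem s36n2kPsi_bgJ : s36n2kPsi A E M q (bgJ E M) = bgJ E (M * q * q) :=
  Subtype.ext (s36n2kPsi_coe A E M q _)

theorem s36n2kPsi_bgJ_inv : s36n2kPsi A E M q (bgJ E M)⁻¹ = (bgJ E (M * q * q))⁻¹ := by
  rw [map_inv₀, s36n2kPsi_bgJ]

end Psi

section Concrete

variable (K₀ : IntermediateField ℚ NfQb) {A₀ : Type} [CommRing A₀] [IsDomain A₀]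
  [IsDiscreteValuationRing A₀] [Algebra A₀ K₀] [IsFractionRing A₀ K₀]
  {k : Type*} [Field k] (r : A₀ →+* k) {π : A₀} (ιC : K₀ →+* ℂ)
  {q M : ℕ} [NeZero q] [NeZero M] [NeZero (M * q)] [NeZero (M * q * q)]
  (hq : q.Prime) (hqM : ¬ q ∣ M)
  [Algebra A₀ (modularFunctionFieldFullC K₀ M)]
  [IsScalarTower A₀ K₀ (modularFunctionFieldFullC K₀ M)]
  [Algebra A₀ (modularFunctionFieldFullC K₀ (M * q))]
  [IsScalarTower A₀ K₀ (modularFunctionFieldFullC K₀ (M * q))]
  [Algebra A₀ (modularFunctionFieldFullC K₀ (M * q * q))]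
  [IsScalarTower A₀ K₀ (modularFunctionFieldFullC K₀ (M * q * q))]

include hq hqM ιC in
/-- **(F1-val)**: the residue field of `V` is that of `V″ = vtInf hB M`, for every valuation
subring `V` of `F_{Mqq}(K₀)` over `V′_∞` with the residue field of `V′_∞` (`V_a`, `V_c`). -/
theorem s36n2k_hF_val [Fact q.Prime] [CharP k q] (hπ : Irreducible π)
    (hB : VtBase (algebraMap A₀ K₀) r π)
    (h : RegChart (E := K₀) π (bgJ K₀ M))
    (hVloc : ∀ x : modularFunctionFieldFullC K₀ (M * q), x ∈ vtInf hB (M * q) →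
      ∃ b s : modularFunctionFieldFullC K₀ (M * q),
        IsIntegral ↥(Algebra.adjoin A₀
          ({bgJ K₀ (M * q)} : Set (modularFunctionFieldFullC K₀ (M * q)))) b ∧
        IsIntegral ↥(Algebra.adjoin A₀
          ({bgJ K₀ (M * q)} : Set (modularFunctionFieldFullC K₀ (M * q)))) s ∧
        s ∉ (vtInf hB (M * q)).nonunits ∧ s * x = b)
    (V : ValuationSubring (modularFunctionFieldFullC K₀ (M * q * q)))
    (hcomap : V.comap (s36Alpha K₀ M q) = vtFam hB ιC hq hqM true)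
    (hF : ∀ x ∈ V, ∃ c ∈ vtFam hB ιC hq hqM true, x - s36Alpha K₀ M q c ∈ V.nonunits) :
    (∀ y, y ∈ vtInf hB M ↔ s36n2kPsi A₀ K₀ M q y ∈ V) ∧
      ∀ x ∈ V, ∃ y ∈ vtInf hB M, x - s36n2kPsi A₀ K₀ M q y ∈ V.nonunits := by
  have hWV : ∀ z, z ∈ vtInf hB (M * q) ↔ s36Alpha K₀ M q z ∈ V := by
    intro z
    rw [← vtFam_true hB ιC hq hqM, ← hcomap, ValuationSubring.mem_comap]
  have hF' : ∀ x ∈ V, ∃ c ∈ vtInf hB (M * q), x - s36Alpha K₀ M q c ∈ V.nonunits := hF
  refine ⟨fun y => (s36n2k_mem_vtInf_incl K₀ r hB (q := q) y).trans (hWV _), ?_⟩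
  exact s36n2k_hF_chain (nodesInstIncl K₀ M q).toRingHom (s36Alpha K₀ M q) (vtInf hB M)
    (vtInf hB (M * q)) V hWV (s36n2k_B2 K₀ r ιC hq hqM hπ hB h hVloc) hF'

include hq hqM ιC in
/-- **(F1) on any chart `t` of level `M`** (reduction transcendental, `F″` algebraic over
`A₀[t]`, `π` prime in the chart with normal quotient). -/
theorem s36n2k_F1_chart [Fact q.Prime] [CharP k q] (hπ : Irreducible π)
    (hB : VtBase (algebraMap A₀ K₀) r π)
    (h : RegChart (E := K₀) π (bgJ K₀ M))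
    (hVloc : ∀ x : modularFunctionFieldFullC K₀ (M * q), x ∈ vtInf hB (M * q) →
      ∃ b s : modularFunctionFieldFullC K₀ (M * q),
        IsIntegral ↥(Algebra.adjoin A₀
          ({bgJ K₀ (M * q)} : Set (modularFunctionFieldFullC K₀ (M * q)))) b ∧
        IsIntegral ↥(Algebra.adjoin A₀
          ({bgJ K₀ (M * q)} : Set (modularFunctionFieldFullC K₀ (M * q)))) s ∧
        s ∉ (vtInf hB (M * q)).nonunits ∧ s * x = b)
    (t : modularFunctionFieldFullC K₀ M)
    (ht : (t : LaurentSeries K₀) ∈ gaussRing (algebraMap A₀ K₀) r)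
    (halg : ∀ x : modularFunctionFieldFullC K₀ M, IsAlgebraic (Algebra.adjoin A₀ {t}) x)
    (htr : Transcendental k (gaussRed r (IsFractionRing.injective A₀ K₀) ⟨_, ht⟩))
    (hprime : Prime (algebraMap A₀
      (integralClosure (Algebra.adjoin A₀ {t}) (modularFunctionFieldFullC K₀ M)) π))
    (hicl : IsIntegrallyClosed
      (integralClosure (Algebra.adjoin A₀ {t}) (modularFunctionFieldFullC K₀ M) ⧸
        Ideal.span {algebraMap A₀
          (integralClosure (Algebra.adjoin A₀ {t}) (modularFunctionFieldFullC K₀ M)) π}))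
    (V : ValuationSubring (modularFunctionFieldFullC K₀ (M * q * q)))
    (hcomap : V.comap (s36Alpha K₀ M q) = vtFam hB ιC hq hqM true)
    (hF : ∀ x ∈ V, ∃ c ∈ vtFam hB ιC hq hqM true, x - s36Alpha K₀ M q c ∈ V.nonunits)
    (b : modularFunctionFieldFullC K₀ (M * q * q)) (hbV : b ∈ V)
    (hb : IsIntegral ↥(Algebra.adjoin A₀
      ({s36n2kPsi A₀ K₀ M q t} : Set (modularFunctionFieldFullC K₀ (M * q * q)))) b) :
    ∃ c : integralClosure (Algebra.adjoin A₀ {t}) (modularFunctionFieldFullC K₀ M),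
      b - s36n2kPsi A₀ K₀ M q (c : modularFunctionFieldFullC K₀ M) ∈ V.nonunits := by
  obtain ⟨hVV, hFF⟩ := s36n2k_hF_val K₀ r ιC hq hqM hπ hB h hVloc V hcomap hF
  exact s36n2k_surj_chart hB M t ht halg htr hprime hicl
    (s36n2kPsi A₀ K₀ M q : modularFunctionFieldFullC K₀ M →+*
      modularFunctionFieldFullC K₀ (M * q * q)) V hVV hFF b hbV
    (s36n2k_isIntegralElem_of_adjoin (s36n2kPsi A₀ K₀ M q) t b hb)

include hq hqM ιC in
/-- **(F1) on the chart `j`**, for `V_a`, `V_c`. -/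
theorem s36n2k_F1_J [Fact q.Prime] [CharP k q] (hπ : Irreducible π)
    (hB : VtBase (algebraMap A₀ K₀) r π)
    (h : RegChart (E := K₀) π (bgJ K₀ M))
    (hVloc : ∀ x : modularFunctionFieldFullC K₀ (M * q), x ∈ vtInf hB (M * q) →
      ∃ b s : modularFunctionFieldFullC K₀ (M * q),
        IsIntegral ↥(Algebra.adjoin A₀
          ({bgJ K₀ (M * q)} : Set (modularFunctionFieldFullC K₀ (M * q)))) b ∧
        IsIntegral ↥(Algebra.adjoin A₀
          ({bgJ K₀ (M * q)} : Set (modularFunctionFieldFullC K₀ (M * q)))) s ∧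
        s ∉ (vtInf hB (M * q)).nonunits ∧ s * x = b)
    (V : ValuationSubring (modularFunctionFieldFullC K₀ (M * q * q)))
    (hcomap : V.comap (s36Alpha K₀ M q) = vtFam hB ιC hq hqM true)
    (hF : ∀ x ∈ V, ∃ c ∈ vtFam hB ιC hq hqM true, x - s36Alpha K₀ M q c ∈ V.nonunits)
    (b : modularFunctionFieldFullC K₀ (M * q * q)) (hbV : b ∈ V)
    (hb : IsIntegral ↥(Algebra.adjoin A₀
      ({bgJ K₀ (M * q * q)} : Set (modularFunctionFieldFullC K₀ (M * q * q)))) b) :
    ∃ c : integralClosure (Algebra.adjoin A₀ {bgJ K₀ M}) (modularFunctionFieldFullC K₀ M),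
      b - s36n2kPsi A₀ K₀ M q (c : modularFunctionFieldFullC K₀ M) ∈ V.nonunits := by
  have htr : Transcendental k (gaussRed r (IsFractionRing.injective A₀ K₀)
      ⟨_, nodesFinal_J_mem K₀ r (M := M)⟩) := by
    rw [nodesInst_red_J r M (bgJ K₀ M) rfl (nodesFinal_J_mem K₀ r)]
    exact nodesFrobU_transcendental_j k
  rw [← s36n2kPsi_bgJ A₀ K₀ M q] at hb
  exact s36n2k_F1_chart K₀ r ιC hq hqM hπ hB h hVloc (bgJ K₀ M) (nodesFinal_J_mem K₀ r)
    (nodesInstAlg_halg_J A₀ M (bgJ K₀ M) rfl) htr h.prime h.icl V hcomap hF b hbV hb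

include hq hqM ιC in
/-- **(F1) on the chart `1/j`**, for `V_a`, `V_c`. -/
theorem s36n2k_F1_Jinv [Fact q.Prime] [CharP k q] (hπ : Irreducible π)
    (hB : VtBase (algebraMap A₀ K₀) r π)
    (h : RegChart (E := K₀) π (bgJ K₀ M))
    (h' : RegChart (E := K₀) π (bgJ K₀ M)⁻¹)
    (hVloc : ∀ x : modularFunctionFieldFullC K₀ (M * q), x ∈ vtInf hB (M * q) →
      ∃ b s : modularFunctionFieldFullC K₀ (M * q),
        IsIntegral ↥(Algebra.adjoin A₀
          ({bgJ K₀ (M * q)} : Set (modularFunctionFieldFullC K₀ (M * q)))) b ∧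
        IsIntegral ↥(Algebra.adjoin A₀
          ({bgJ K₀ (M * q)} : Set (modularFunctionFieldFullC K₀ (M * q)))) s ∧
        s ∉ (vtInf hB (M * q)).nonunits ∧ s * x = b)
    (V : ValuationSubring (modularFunctionFieldFullC K₀ (M * q * q)))
    (hcomap : V.comap (s36Alpha K₀ M q) = vtFam hB ιC hq hqM true)
    (hF : ∀ x ∈ V, ∃ c ∈ vtFam hB ιC hq hqM true, x - s36Alpha K₀ M q c ∈ V.nonunits)
    (b : modularFunctionFieldFullC K₀ (M * q * q)) (hbV : b ∈ V)
    (hb : IsIntegral ↥(Algebra.adjoin A₀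
      ({(bgJ K₀ (M * q * q))⁻¹} : Set (modularFunctionFieldFullC K₀ (M * q * q)))) b) :
    ∃ c : integralClosure (Algebra.adjoin A₀ {(bgJ K₀ M)⁻¹}) (modularFunctionFieldFullC K₀ M),
      b - s36n2kPsi A₀ K₀ M q (c : modularFunctionFieldFullC K₀ M) ∈ V.nonunits := by
  have htj : (((bgJ K₀ M)⁻¹ : modularFunctionFieldFullC K₀ M) : LaurentSeries K₀) =
      (jqModC K₀)⁻¹ := rfl
  have htr : Transcendental k (gaussRed r (IsFractionRing.injective A₀ K₀)
      ⟨_, nodesFinal_Jinv_mem K₀ r (M := M)⟩) := by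
    rw [nodesInst_red_Jinv r M (bgJ K₀ M)⁻¹ htj (nodesFinal_Jinv_mem K₀ r)]
    exact nodesFrobU_transcendental_jinv k
  rw [← s36n2kPsi_bgJ_inv A₀ K₀ M q] at hb
  exact s36n2k_F1_chart K₀ r ιC hq hqM hπ hB h hVloc (bgJ K₀ M)⁻¹ (nodesFinal_Jinv_mem K₀ r)
    (nodesInstAlg_halg_Jinv A₀ M (bgJ K₀ M)⁻¹ htj) htr h'.prime h'.icl V hcomap hF b hbV hb

end Concrete

end Fermat.Agent.S36

end
end ZBS36_033_0

/-! ### bundled: `Fermat.Agent.S36.PtsCGen` -/
section ZBS36_033_1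
/-
S36 (Carayol at `q² ∥ M`), geometry, input (I6): **`Gen_a` / `Gen_c`** (helper80).

The local parameter `Y₀` of the branch `V_i`, `i ∈ {a, c}`, at a closed point `𝔫` of the chart `j`
(resp. `1/j`) of level `M q²` through which `V_i` passes: the hypotheses `hY₀`, `hgen` of
`s36pab_one` / `s36pm_atPt_inl` (resp. `_inr`), for the concrete family
`V = s36i1V M hq hA hqM hζ ιC h`.

Abstract part (`A₀` a DVR, `ψ : F″ →ₐ[A₀] F`, `u = ψ t`):
* `s36cgenG ψ t u hu` : the chart homomorphism `g : C_t → B_u`, `C_t = integralClosure A₀[t] F″`,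
  `B_u = zchClosure {u}`, as a homomorphism of `A₀`-algebras; `s36cgenG_coe`.
* `s36cgen_isIntegral` : `g` is integral.
* `s36cgen_gen_abs` : from (F1) on the chart `u = ψ t` and `RegChart π t`:
  `∃ Y₀ ∈ 𝔫, S36n2pGen 𝔫 V Y₀` at every closed point `𝔫 : AtPt π u` on `V`
  (`s36pab_gen_of_lower` + `RegChart.locGen` of the chart `t`).

Concrete part (`V = s36i1V`, `ψ = ψ_a = α ∘ incl`, the inclusion of `F_M` in `F_{Mqq}`):
* `s36cgen_hF`, `s36cgen_comap` : (F₁)/(F₂) and the restriction along `α` of `V_i`, `i ≠ b`.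
* **`s36cgen_alpha`** : chart `j`: `∃ Y₀ ∈ 𝔫, S36n2pGen 𝔫 (V i) Y₀` for `i ≠ b`;
  `s36cgen_a`, `s36cgen_c` : the two cases.
* **`s36cgen_alpha_inv`** : chart `1/j` (the cusps); `s36cgen_a_inv`, `s36cgen_c_inv`.
-/

set_option autoImplicit false
set_option linter.style.haveILetI false
set_option linter.unusedSectionVars false
set_option linter.unusedVariables false
set_option linter.style.longLine false
set_option synthInstance.maxHeartbeats 400000
set_option maxHeartbeats 1000000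

noncomputable section

namespace Fermat.Agent.S36

open ModularCurve AlgebraicCurve Fermat.Agent.ES Fermat.Agent.ES.G2 Fermat.Agent.INJ
open Fermat.Agent.UNIP Fermat.Agent.STB IntermediateField

universe u

section Abs

variable {A₀ E F'' F : Type u} [CommRing A₀] [IsDomain A₀] [IsDiscreteValuationRing A₀]
  [Field E] [Algebra A₀ E] [IsFractionRing A₀ E] [CharZero E]
  [Field F''] [Algebra E F''] [Algebra A₀ F''] [IsScalarTower A₀ E F'']
  [Field F] [Algebra E F] [Algebra A₀ F] [IsScalarTower A₀ E F]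
  (ψ : F'' →ₐ[A₀] F) (t : F'') (u : F) (hu : ψ t = u)

include hu in
/-- `ψ` maps the chart `t` into the chart `u = ψ t` -/
theorem s36cgen_mem (c : ↥(integralClosure ↥(Algebra.adjoin A₀ ({t} : Set F'')) F'')) :
    ψ (c : F'') ∈ zchClosure (A₀ := A₀) ({u} : Set F) := by
  rw [mem_zchClosure]
  have h1 := cusp_isIntegral_adjoin_map (A := A₀) (σ := (ψ : F'' →+* F))
    (fun a => ψ.commutes a) c.2
  have h2 : (ψ : F'' →+* F) t = u := hu
  rw [h2] at h1
  exact h1

/-- **the chart homomorphism** `g : C_t → B_u` -/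
def s36cgenG : ↥(integralClosure ↥(Algebra.adjoin A₀ ({t} : Set F'')) F'') →ₐ[A₀]
    ↥(zchClosure (A₀ := A₀) ({u} : Set F)) where
  toFun c := ⟨ψ (c : F''), s36cgen_mem ψ t u hu c⟩
  map_one' := Subtype.ext (map_one ψ)
  map_mul' _ _ := Subtype.ext (map_mul ψ _ _)
  map_zero' := Subtype.ext (map_zero ψ)
  map_add' _ _ := Subtype.ext (map_add ψ _ _)
  commutes' a := Subtype.ext (by
    show ψ (algebraMap A₀ F'' a) = algebraMap A₀ F a
    exact ψ.commutes a)

theorem s36cgenG_coe (c : ↥(integralClosure ↥(Algebra.adjoin A₀ ({t} : Set F'')) F'')) :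
    ((s36cgenG ψ t u hu c : ↥(zchClosure (A₀ := A₀) ({u} : Set F))) : F) = ψ (c : F'') := rfl

/-- `g` is integral -/
theorem s36cgen_isIntegral :
    ((s36cgenG ψ t u hu : ↥(integralClosure ↥(Algebra.adjoin A₀ ({t} : Set F'')) F'') →ₐ[A₀]
      ↥(zchClosure (A₀ := A₀) ({u} : Set F))) :
      ↥(integralClosure ↥(Algebra.adjoin A₀ ({t} : Set F'')) F'') →+*
        ↥(zchClosure (A₀ := A₀) ({u} : Set F))).IsIntegral := by
  refine s36pab_isIntegral_of_mem_range (u := u) (zchClosure (A₀ := A₀) ({u} : Set F))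
    (fun x hx => mem_zchClosure.mp hx) (s36cgenG ψ t u hu)
    ⟨t, ?_⟩ ?_
  · exact isIntegral_algebraMap (R := ↥(Algebra.adjoin A₀ ({t} : Set F'')))
      (x := ⟨t, Algebra.subset_adjoin (Set.mem_singleton _)⟩)
  · rw [s36cgenG_coe]
    exact hu

include hu in
/-- **the generic chart form**: from (F1) on the chart `u = ψ t` and `RegChart π t`. -/
theorem s36cgen_gen_abs {π : A₀} (hReg : RegChart (E := E) π t) (V : ValuationSubring F)
    (hBV : ∀ b : F, IsIntegral ↥(Algebra.adjoin A₀ ({u} : Set F)) b → b ∈ V)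
    (hπV : algebraMap A₀ F π ∈ V.nonunits)
    (hF1 : ∀ b : F, b ∈ V → IsIntegral ↥(Algebra.adjoin A₀ ({u} : Set F)) b →
      ∃ c : ↥(integralClosure ↥(Algebra.adjoin A₀ ({t} : Set F'')) F''),
        b - ψ (c : F'') ∈ V.nonunits)
    (𝔫 : AtPt (F := F) π u) (hthr : atThrough 𝔫 V) :
    ∃ Y₀ : ↥(zchClosure (A₀ := A₀) ({u} : Set F)), Y₀ ∈ 𝔫.1 ∧ S36n2pGen 𝔫.1 V Y₀ := by
  have hg := s36cgen_isIntegral ψ t u hu
  have hBV' : ∀ b : ↥(zchClosure (A₀ := A₀) ({u} : Set F)),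
      algebraMap ↥(zchClosure (A₀ := A₀) ({u} : Set F)) F b ∈ V :=
    fun b => hBV _ (mem_zchClosure.mp b.2)
  have hF1' : ∀ b : ↥(zchClosure (A₀ := A₀) ({u} : Set F)),
      ∃ c : ↥(integralClosure ↥(Algebra.adjoin A₀ ({t} : Set F'')) F''),
        algebraMap ↥(zchClosure (A₀ := A₀) ({u} : Set F)) F
          (b - ((s36cgenG ψ t u hu :
            ↥(integralClosure ↥(Algebra.adjoin A₀ ({t} : Set F'')) F'') →ₐ[A₀]
              ↥(zchClosure (A₀ := A₀) ({u} : Set F))) :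
            ↥(integralClosure ↥(Algebra.adjoin A₀ ({t} : Set F'')) F'') →+*
              ↥(zchClosure (A₀ := A₀) ({u} : Set F))) c) ∈ V.nonunits := by
    intro b
    obtain ⟨c, hc⟩ := hF1 (b : F) (hBV _ (mem_zchClosure.mp b.2)) (mem_zchClosure.mp b.2)
    exact ⟨c, hc⟩
  have hπ' : algebraMap ↥(zchClosure (A₀ := A₀) ({u} : Set F)) F
      (((s36cgenG ψ t u hu :
            ↥(integralClosure ↥(Algebra.adjoin A₀ ({t} : Set F'')) F'') →ₐ[A₀]
              ↥(zchClosure (A₀ := A₀) ({u} : Set F))) :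
            ↥(integralClosure ↥(Algebra.adjoin A₀ ({t} : Set F'')) F'') →+*
              ↥(zchClosure (A₀ := A₀) ({u} : Set F)))
        (algebraMap A₀ ↥(integralClosure ↥(Algebra.adjoin A₀ ({t} : Set F'')) F'') π)) ∈
      V.nonunits := by
    have e : (s36cgenG ψ t u hu)
        (algebraMap A₀ ↥(integralClosure ↥(Algebra.adjoin A₀ ({t} : Set F'')) F'') π) =
        algebraMap A₀ ↥(zchClosure (A₀ := A₀) ({u} : Set F)) π :=
      (s36cgenG ψ t u hu).commutes π
    have e2 : algebraMap ↥(zchClosure (A₀ := A₀) ({u} : Set F)) F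
        (((s36cgenG ψ t u hu :
            ↥(integralClosure ↥(Algebra.adjoin A₀ ({t} : Set F'')) F'') →ₐ[A₀]
              ↥(zchClosure (A₀ := A₀) ({u} : Set F))) :
            ↥(integralClosure ↥(Algebra.adjoin A₀ ({t} : Set F'')) F'') →+*
              ↥(zchClosure (A₀ := A₀) ({u} : Set F)))
          (algebraMap A₀ ↥(integralClosure ↥(Algebra.adjoin A₀ ({t} : Set F'')) F'') π)) =
        algebraMap A₀ F π := by
      show algebraMap ↥(zchClosure (A₀ := A₀) ({u} : Set F)) F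
        ((s36cgenG ψ t u hu)
          (algebraMap A₀ ↥(integralClosure ↥(Algebra.adjoin A₀ ({t} : Set F'')) F'') π)) = _
      rw [e]
      rfl
    rw [e2]
    exact hπV
  obtain ⟨s, hs, hgen⟩ := s36pab_gen_of_lower
    ((s36cgenG ψ t u hu :
            ↥(integralClosure ↥(Algebra.adjoin A₀ ({t} : Set F'')) F'') →ₐ[A₀]
              ↥(zchClosure (A₀ := A₀) ({u} : Set F))) :
            ↥(integralClosure ↥(Algebra.adjoin A₀ ({t} : Set F'')) F'') →+*
              ↥(zchClosure (A₀ := A₀) ({u} : Set F)))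
    hg 𝔫.1 𝔫.2.1 V hBV' hthr hF1'
    (algebraMap A₀ ↥(integralClosure ↥(Algebra.adjoin A₀ ({t} : Set F'')) F'') π) hπ'
    (fun 𝔪 h𝔪 hπ𝔪 => hReg.locGen 𝔪 h𝔪 hπ𝔪)
  exact ⟨_, hs, hgen⟩

end Abs

section Gen

variable {q : ℕ} {A : ValuationSubring (AlgebraicClosure ℚ)} (M : ℕ) [NeZero M] [NeZero q]
  [IsDiscreteValuationRing ↥(beta0Ring A (beta0Field A))]
  {ζ : AlgebraicClosure ℚ}
  (hq : q.Prime) (hA : A.LiesOverPrime q) (hqM : ¬ q ∣ M) (hζ : IsPrimitiveRoot ζ q)
  (ιC : ↥(beta0Field A) →+* ℂ)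
  (h : S36MidEmb ↥(s36n2bK A ζ) q M (s36i1ZK (A := A) hq hζ))

/-- (F₁)/(F₂) of `s36n2x_alphaInf_main` for the concrete family, `i ≠ b` -/
theorem s36cgen_hF (i : S36Comp) (hi : i ≠ S36Comp.b)
    (x : ↥(modularFunctionFieldFullC ↥(beta0Field A) (M * q * q)))
    (hx : x ∈ s36i1V M hq hA hqM hζ ιC h i) :
    ∃ c ∈ vtFam (vtBase_residue (beta0Ring_irreducible_q hq hA)) ιC hq hqM true,
      x - s36Alpha ↥(beta0Field A) M q c ∈ (s36i1V M hq hA hqM hζ ιC h i).nonunits := by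
  obtain ⟨κ, -, hκ⟩ := s36n2b_compat (A := A) (ζ := ζ) hq hA
  obtain ⟨ιK⟩ := s36i1c_exists_emb A ζ
  have hmain := s36n2x_alphaInf_main (vtBase_residue (beta0Ring_irreducible_q hq hA))
    (s36n2b_vtBase hq hA hζ)
    (IntermediateField.inclusion (s36n2b_le_K A ζ)).toRingHom ιC ιK hq hqM h
    (s36i1Z hq hζ) rfl hκ (s36n2bZeta_isPrimitiveRoot hq hζ) (s36n2b_residue_zeta hq hA hζ)
    (s36sk_natCast_ne_zero hq) (v := 1) (by rw [map_one]; exact one_ne_zero)
    (by rw [mul_one])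
  cases i
  · exact hmain.2.1 x hx
  · exact absurd rfl hi
  · exact hmain.2.2.1 x hx

/-- the restriction of `V_i` along `α` is `V′_∞`, `i ≠ b` -/
theorem s36cgen_comap (i : S36Comp) (hi : i ≠ S36Comp.b) :
    (s36i1V M hq hA hqM hζ ιC h i).comap (s36Alpha ↥(beta0Field A) M q) =
      vtFam (vtBase_residue (beta0Ring_irreducible_q hq hA)) ιC hq hqM true := by
  rw [s36i1c_comap_alpha]
  cases i
  · rfl
  · exact absurd rfl hi
  · rfl

/-- **`Gen_a` / `Gen_c`, chart `j`**: the local parameter of the branch `V_i`, `i ≠ b`, at a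
closed point of the chart `j` of level `M q²` on `V_i`. -/
theorem s36cgen_alpha (i : S36Comp) (hi : i ≠ S36Comp.b) (h2 : q = 2 → 3 ∣ M)
    (h3 : q = 3 → 2 ∣ M)
    (𝔫 : AtPt (F := ↥(modularFunctionFieldFullC ↥(beta0Field A) (M * q * q)))
      ((q : ℕ) : ↥(beta0Ring A (beta0Field A))) (bgJ ↥(beta0Field A) (M * q * q)))
    (hthr : atThrough 𝔫 (s36i1V M hq hA hqM hζ ιC h i)) :
    ∃ Y₀ : ↥(zchClosure (A₀ := ↥(beta0Ring A (beta0Field A)))
        ({bgJ ↥(beta0Field A) (M * q * q)} :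
          Set ↥(modularFunctionFieldFullC ↥(beta0Field A) (M * q * q)))),
      Y₀ ∈ 𝔫.1 ∧ S36n2pGen 𝔫.1 (s36i1V M hq hA hqM hζ ιC h i) Y₀ := by
  have hπ : Irreducible ((q : ℕ) : ↥(beta0Ring A (beta0Field A))) :=
    beta0Ring_irreducible_q hq hA
  haveI : Fact q.Prime := ⟨hq⟩
  haveI : CharP (IsLocalRing.ResidueField ↥(beta0Ring A (beta0Field A))) q := mgvl_charP hq hA
  have hReg : RegChart (E := ↥(beta0Field A)) ((q : ℕ) : ↥(beta0Ring A (beta0Field A)))
      (bgJ ↥(beta0Field A) M) := stb_regChart_conc_J M hq hA le_rfl hπ hqM h2 h3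
  have hSS1 := mgcb_reg_SS1_J (K₀ := beta0Field A) hπ ιC hq hqM hA hReg
  have hVloc := mgv_hVloc₁ hπ ιC hq hqM hA hSS1 true
  exact s36cgen_gen_abs (E := ↥(beta0Field A))
    (s36n2kPsi ↥(beta0Ring A (beta0Field A)) ↥(beta0Field A) M q)
    (bgJ ↥(beta0Field A) M) (bgJ ↥(beta0Field A) (M * q * q))
    (s36n2kPsi_bgJ ↥(beta0Ring A (beta0Field A)) ↥(beta0Field A) M q) hReg
    (s36i1V M hq hA hqM hζ ιC h i)
    (s36i1c_hBV₁ M hq hA hqM hζ ιC h i)
    (s36i1c_hπV M hq hA hqM hζ ιC h i)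
    (fun b hbV hb => s36n2k_F1_J (beta0Field A)
      (IsLocalRing.residue ↥(beta0Ring A (beta0Field A))) ιC hq hqM hπ (vtBase_residue hπ) hReg
      hVloc (s36i1V M hq hA hqM hζ ιC h i) (s36cgen_comap M hq hA hqM hζ ιC h i hi)
      (s36cgen_hF M hq hA hqM hζ ιC h i hi) b hbV hb)
    𝔫 hthr

/-- **`Gen_a`**, chart `j` -/
theorem s36cgen_a (h2 : q = 2 → 3 ∣ M) (h3 : q = 3 → 2 ∣ M)
    (𝔫 : AtPt (F := ↥(modularFunctionFieldFullC ↥(beta0Field A) (M * q * q)))
      ((q : ℕ) : ↥(beta0Ring A (beta0Field A))) (bgJ ↥(beta0Field A) (M * q * q)))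
    (hthr : atThrough 𝔫 (s36i1V M hq hA hqM hζ ιC h S36Comp.a)) :
    ∃ Y₀ : ↥(zchClosure (A₀ := ↥(beta0Ring A (beta0Field A)))
        ({bgJ ↥(beta0Field A) (M * q * q)} :
          Set ↥(modularFunctionFieldFullC ↥(beta0Field A) (M * q * q)))),
      Y₀ ∈ 𝔫.1 ∧ S36n2pGen 𝔫.1 (s36i1V M hq hA hqM hζ ιC h S36Comp.a) Y₀ :=
  s36cgen_alpha M hq hA hqM hζ ιC h S36Comp.a (fun e => by cases e) h2 h3 𝔫 hthr

/-- **`Gen_c`**, chart `j` (= `hGen` of `S36/PtsMidInst.lean`) -/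
theorem s36cgen_c (h2 : q = 2 → 3 ∣ M) (h3 : q = 3 → 2 ∣ M)
    (𝔫 : AtPt (F := ↥(modularFunctionFieldFullC ↥(beta0Field A) (M * q * q)))
      ((q : ℕ) : ↥(beta0Ring A (beta0Field A))) (bgJ ↥(beta0Field A) (M * q * q)))
    (hthr : atThrough 𝔫 (s36i1V M hq hA hqM hζ ιC h S36Comp.c)) :
    ∃ Y₀ : ↥(zchClosure (A₀ := ↥(beta0Ring A (beta0Field A)))
        ({bgJ ↥(beta0Field A) (M * q * q)} :
          Set ↥(modularFunctionFieldFullC ↥(beta0Field A) (M * q * q)))),
      Y₀ ∈ 𝔫.1 ∧ S36n2pGen 𝔫.1 (s36i1V M hq hA hqM hζ ιC h S36Comp.c) Y₀ :=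
  s36cgen_alpha M hq hA hqM hζ ιC h S36Comp.c (fun e => by cases e) h2 h3 𝔫 hthr

/-- **`Gen_a` / `Gen_c`, chart `1/j`** (the cusps): the local parameter of the branch `V_i`,
`i ≠ b`, at a closed point of the chart `1/j` of level `M q²` on `V_i`. -/
theorem s36cgen_alpha_inv (i : S36Comp) (hi : i ≠ S36Comp.b) (h2 : q = 2 → 3 ∣ M)
    (h3 : q = 3 → 2 ∣ M)
    (𝔫 : AtPt (F := ↥(modularFunctionFieldFullC ↥(beta0Field A) (M * q * q)))
      ((q : ℕ) : ↥(beta0Ring A (beta0Field A))) (bgJ ↥(beta0Field A) (M * q * q))⁻¹)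
    (hthr : atThrough 𝔫 (s36i1V M hq hA hqM hζ ιC h i)) :
    ∃ Y₀ : ↥(zchClosure (A₀ := ↥(beta0Ring A (beta0Field A)))
        ({(bgJ ↥(beta0Field A) (M * q * q))⁻¹} :
          Set ↥(modularFunctionFieldFullC ↥(beta0Field A) (M * q * q)))),
      Y₀ ∈ 𝔫.1 ∧ S36n2pGen 𝔫.1 (s36i1V M hq hA hqM hζ ιC h i) Y₀ := by
  have hπ : Irreducible ((q : ℕ) : ↥(beta0Ring A (beta0Field A))) :=
    beta0Ring_irreducible_q hq hA
  haveI : Fact q.Prime := ⟨hq⟩
  haveI : CharP (IsLocalRing.ResidueField ↥(beta0Ring A (beta0Field A))) q := mgvl_charP hq hA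
  have hReg : RegChart (E := ↥(beta0Field A)) ((q : ℕ) : ↥(beta0Ring A (beta0Field A)))
      (bgJ ↥(beta0Field A) M) := stb_regChart_conc_J M hq hA le_rfl hπ hqM h2 h3
  have hReg' : RegChart (E := ↥(beta0Field A)) ((q : ℕ) : ↥(beta0Ring A (beta0Field A)))
      (bgJ ↥(beta0Field A) M)⁻¹ := stb_regChart_conc_Jinv M hq hA le_rfl hπ hqM h2 h3
  have hSS1 := mgcb_reg_SS1_J (K₀ := beta0Field A) hπ ιC hq hqM hA hReg
  have hVloc := mgv_hVloc₁ hπ ιC hq hqM hA hSS1 true
  exact s36cgen_gen_abs (E := ↥(beta0Field A))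
    (s36n2kPsi ↥(beta0Ring A (beta0Field A)) ↥(beta0Field A) M q)
    (bgJ ↥(beta0Field A) M)⁻¹ (bgJ ↥(beta0Field A) (M * q * q))⁻¹
    (s36n2kPsi_bgJ_inv ↥(beta0Ring A (beta0Field A)) ↥(beta0Field A) M q) hReg'
    (s36i1V M hq hA hqM hζ ιC h i)
    (s36i1c_hBV₂ M hq hA hqM hζ ιC h i)
    (s36i1c_hπV M hq hA hqM hζ ιC h i)
    (fun b hbV hb => s36n2k_F1_Jinv (beta0Field A)
      (IsLocalRing.residue ↥(beta0Ring A (beta0Field A))) ιC hq hqM hπ (vtBase_residue hπ) hReg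
      hReg' hVloc (s36i1V M hq hA hqM hζ ιC h i) (s36cgen_comap M hq hA hqM hζ ιC h i hi)
      (s36cgen_hF M hq hA hqM hζ ιC h i hi) b hbV hb)
    𝔫 hthr

/-- **`Gen_a`**, chart `1/j` -/
theorem s36cgen_a_inv (h2 : q = 2 → 3 ∣ M) (h3 : q = 3 → 2 ∣ M)
    (𝔫 : AtPt (F := ↥(modularFunctionFieldFullC ↥(beta0Field A) (M * q * q)))
      ((q : ℕ) : ↥(beta0Ring A (beta0Field A))) (bgJ ↥(beta0Field A) (M * q * q))⁻¹)
    (hthr : atThrough 𝔫 (s36i1V M hq hA hqM hζ ιC h S36Comp.a)) :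
    ∃ Y₀ : ↥(zchClosure (A₀ := ↥(beta0Ring A (beta0Field A)))
        ({(bgJ ↥(beta0Field A) (M * q * q))⁻¹} :
          Set ↥(modularFunctionFieldFullC ↥(beta0Field A) (M * q * q)))),
      Y₀ ∈ 𝔫.1 ∧ S36n2pGen 𝔫.1 (s36i1V M hq hA hqM hζ ιC h S36Comp.a) Y₀ :=
  s36cgen_alpha_inv M hq hA hqM hζ ιC h S36Comp.a (fun e => by cases e) h2 h3 𝔫 hthr

/-- **`Gen_c`**, chart `1/j` -/
theorem s36cgen_c_inv (h2 : q = 2 → 3 ∣ M) (h3 : q = 3 → 2 ∣ M)
    (𝔫 : AtPt (F := ↥(modularFunctionFieldFullC ↥(beta0Field A) (M * q * q)))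
      ((q : ℕ) : ↥(beta0Ring A (beta0Field A))) (bgJ ↥(beta0Field A) (M * q * q))⁻¹)
    (hthr : atThrough 𝔫 (s36i1V M hq hA hqM hζ ιC h S36Comp.c)) :
    ∃ Y₀ : ↥(zchClosure (A₀ := ↥(beta0Ring A (beta0Field A)))
        ({(bgJ ↥(beta0Field A) (M * q * q))⁻¹} :
          Set ↥(modularFunctionFieldFullC ↥(beta0Field A) (M * q * q)))),
      Y₀ ∈ 𝔫.1 ∧ S36n2pGen 𝔫.1 (s36i1V M hq hA hqM hζ ιC h S36Comp.c) Y₀ :=
  s36cgen_alpha_inv M hq hA hqM hζ ιC h S36Comp.c (fun e => by cases e) h2 h3 𝔫 hthr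

end Gen

end Fermat.Agent.S36

end


end ZBS36_033_1

/-! ### bundled: `Fermat.Agent.S36.PtsCGenStmt` -/
section ZBS36_033_2
/-
S36 (I6): `Gen_a`, `Gen_c` on the chart `j` in the packaged form `StmtS36GenJ` of
`S36/PtsOneAB.lean` (helper80, on helper93's request).
-/

set_option autoImplicit false
set_option linter.style.haveILetI false
set_option linter.unusedSectionVars false
set_option linter.unusedVariables false
set_option linter.style.longLine false
set_option synthInstance.maxHeartbeats 400000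
set_option maxHeartbeats 1000000

namespace Fermat.Agent.S36

open ModularCurve AlgebraicCurve Fermat.Agent.ES Fermat.Agent.ES.G2 Fermat.Agent.INJ
open Fermat.Agent.UNIP Fermat.Agent.STB IntermediateField

/-- **Gen_c on the chart `j`**, packaged. -/
theorem stmtS36GenJ_c : StmtS36GenJ S36Comp.c := by
  intro M q _ _ hq hR A hA _ ζ hζ ιC ιK h 𝔫 hthr
  exact s36cgen_c M hq hA hR.1 hζ ιC h (s36so_rigid_h2 hR) (s36so_rigid_h3 hR) 𝔫 hthr

/-- **Gen_a on the chart `j`**, packaged. -/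
theorem stmtS36GenJ_a : StmtS36GenJ S36Comp.a := by
  intro M q _ _ hq hR A hA _ ζ hζ ιC ιK h 𝔫 hthr
  exact s36cgen_a M hq hA hR.1 hζ ιC h (s36so_rigid_h2 hR) (s36so_rigid_h3 hR) 𝔫 hthr

end Fermat.Agent.S36


end ZBS36_033_2

/-! ### bundled: `Fermat.Agent.S36.PtsGenJ` -/
section ZBS36_033_3
/-
S36 (Carayol at `q² ∥ M`), geometric clause, (I6)(a): the named statement `StmtS36PtsOne a`
(`S36/PtsPlan.lean`) from helper62's `stmtS36PtsOne_a_of` and helper80's `stmtS36GenJ_a`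
(`S36/PtsCGenStmt.lean`).  (helper31)
-/

set_option autoImplicit false

namespace Fermat.Agent.S36

/-- **(I6)(a)**: the closed points of the chart `j` on `C_a` only. -/
theorem stmtS36PtsOne_a : StmtS36PtsOne S36Comp.a :=
  stmtS36PtsOne_a_of stmtS36GenJ_a

end Fermat.Agent.S36


end ZBS36_033_3

/-! ### bundled: `Fermat.Agent.S36.N2KerF1b` -/
section ZBS36_033_4

/-!
# S36 / N2-ker (K2): (F1) for `V_b`, and the chart homomorphisms `g_a`, `g_b`

* `s36n2kChartHom ψ t T hT` : the homomorphism of charts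
  `integralClosure A₀[t] F″ →+* integralClosure A₀[T] F` induced by `ψ : F″ →ₐ[A₀] F` when
  `ψ t` is integral over `A₀[T]`.
* `s36n2kPsiB` : `ψ_b = w_{q²} ∘ ψ_a : F_M → F_{Mqq}`, `f ↦ f(Q^{q²})`.
* `s36n2k_w_chart` : `w_{q²}` preserves the chart `j` of level `M q²`.
* `s36n2k_F1_b` : **(F1) for `V_b = V_a.comap w`** on the chart `j`, via `ψ_b`.
* `s36n2kGa`, `s36n2kGb`, `s36n2kGaInv` : the chart homomorphisms `g_a`, `g_b` (chart `j`) and
  `g_a` (chart `1/j`).
-/

set_option autoImplicit false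
set_option linter.unusedSectionVars false
set_option linter.style.haveILetI false
set_option linter.style.longLine false
set_option synthInstance.maxHeartbeats 400000
set_option maxHeartbeats 1000000

noncomputable section

namespace Fermat.Agent.S36

open ModularCurve Fermat.Agent.INJ Fermat.Agent.UNIP Fermat.Agent.AL Fermat.Agent.STB Polynomial

section ChartHom

variable {A₀ F'' F : Type*} [CommRing A₀] [Field F''] [Field F] [Algebra A₀ F''] [Algebra A₀ F]

theorem s36n2k_chart_map_mem (ψ : F'' →ₐ[A₀] F) (t : F'') (T : F)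
    (hT : IsIntegral ↥(Algebra.adjoin A₀ ({T} : Set F)) (ψ t)) {x : F''}
    (hx : IsIntegral ↥(Algebra.adjoin A₀ ({t} : Set F'')) x) :
    IsIntegral ↥(Algebra.adjoin A₀ ({T} : Set F)) (ψ x) :=
  cusp_isIntegral_adjoin_trans hT
    (cusp_isIntegral_adjoin_map (A := A₀) (ψ : F'' →+* F) (fun c => ψ.commutes c) hx)

/-- The homomorphism of charts induced by `ψ`. -/
def s36n2kChartHom (ψ : F'' →ₐ[A₀] F) (t : F'') (T : F)
    (hT : IsIntegral ↥(Algebra.adjoin A₀ ({T} : Set F)) (ψ t)) :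
    ↥(integralClosure ↥(Algebra.adjoin A₀ ({t} : Set F'')) F'') →+*
      ↥(integralClosure ↥(Algebra.adjoin A₀ ({T} : Set F)) F) where
  toFun x := ⟨ψ (x : F''), s36n2k_chart_map_mem ψ t T hT x.2⟩
  map_one' := Subtype.ext (map_one ψ)
  map_mul' _ _ := Subtype.ext (map_mul ψ _ _)
  map_zero' := Subtype.ext (map_zero ψ)
  map_add' _ _ := Subtype.ext (map_add ψ _ _)

@[simp]
theorem s36n2kChartHom_coe (ψ : F'' →ₐ[A₀] F) (t : F'') (T : F)
    (hT : IsIntegral ↥(Algebra.adjoin A₀ ({T} : Set F)) (ψ t))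
    (x : ↥(integralClosure ↥(Algebra.adjoin A₀ ({t} : Set F'')) F'')) :
    ((s36n2kChartHom ψ t T hT x : ↥(integralClosure ↥(Algebra.adjoin A₀ ({T} : Set F)) F)) : F) =
      ψ (x : F'') := rfl

theorem s36n2kChartHom_algebraMap (ψ : F'' →ₐ[A₀] F) (t : F'') (T : F)
    (hT : IsIntegral ↥(Algebra.adjoin A₀ ({T} : Set F)) (ψ t)) (a : A₀) :
    s36n2kChartHom ψ t T hT
        (algebraMap A₀ ↥(integralClosure ↥(Algebra.adjoin A₀ ({t} : Set F'')) F'') a) =
      algebraMap A₀ ↥(integralClosure ↥(Algebra.adjoin A₀ ({T} : Set F)) F) a := by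
  apply Subtype.ext
  show ψ (algebraMap A₀ F'' a) = algebraMap A₀ F a
  exact ψ.commutes a

/-- The chart homomorphism is integral if `T` is integral over `A₀[ψ t]`. -/
theorem s36n2kChartHom_isIntegral (ψ : F'' →ₐ[A₀] F) (t : F'') (T : F)
    (hT : IsIntegral ↥(Algebra.adjoin A₀ ({T} : Set F)) (ψ t))
    (hT' : IsIntegral ↥(Algebra.adjoin A₀ ({ψ t} : Set F)) T) :
    (s36n2kChartHom ψ t T hT).IsIntegral := by
  intro b
  have hb : IsIntegral ↥(Algebra.adjoin A₀ ({ψ t} : Set F)) (b : F) :=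
    cusp_isIntegral_adjoin_trans hT' b.2
  obtain ⟨p, hp, hpb⟩ := (s36n2k_isIntegral_adjoin_iff ψ t (b : F)).mp hb
  refine ⟨p.map (algebraMap ↥(Algebra.adjoin A₀ ({t} : Set F''))
    ↥(integralClosure ↥(Algebra.adjoin A₀ ({t} : Set F'')) F'')), hp.map _, ?_⟩
  rw [Polynomial.eval₂_map]
  have key := Polynomial.hom_eval₂ p
    ((s36n2kChartHom ψ t T hT).comp (algebraMap ↥(Algebra.adjoin A₀ ({t} : Set F''))
      ↥(integralClosure ↥(Algebra.adjoin A₀ ({t} : Set F'')) F'')))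
    (integralClosure ↥(Algebra.adjoin A₀ ({T} : Set F)) F).val.toRingHom b
  apply Subtype.val_injective
  exact key.trans hpb

end ChartHom

section PsiB

variable (A E : Type*) [CommRing A] [Field E] [Algebra A E] (ιC : E →+* ℂ)
  {M q : ℕ} [NeZero q] [NeZero M] [NeZero (M * q)] [NeZero (M * q * q)]
  (hq : q.Prime) (hqM : ¬ q ∣ M)
  [Algebra A (modularFunctionFieldFullC E M)]
  [IsScalarTower A E (modularFunctionFieldFullC E M)]
  [Algebra A (modularFunctionFieldFullC E (M * q * q))]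
  [IsScalarTower A E (modularFunctionFieldFullC E (M * q * q))]

/-- `w_{q²}` as an automorphism of `A`-algebras. -/
def s36n2kWA : modularFunctionFieldFullC E (M * q * q) →ₐ[A]
    modularFunctionFieldFullC E (M * q * q) :=
  (s36n2W E ιC hq hqM).toAlgHom.restrictScalars A

theorem s36n2kWA_apply (x : modularFunctionFieldFullC E (M * q * q)) :
    s36n2kWA A E ιC hq hqM x = s36n2W E ιC hq hqM x := rfl

/-- `ψ_b = w_{q²} ∘ ψ_a : F_M → F_{Mqq}`, `f ↦ f(Q^{q²})`. -/
def s36n2kPsiB : modularFunctionFieldFullC E M →ₐ[A] modularFunctionFieldFullC E (M * q * q) :=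
  (s36n2kWA A E ιC hq hqM).comp (s36n2kPsi A E M q)

theorem s36n2kPsiB_apply (y : modularFunctionFieldFullC E M) :
    s36n2kPsiB A E ιC hq hqM y = s36n2W E ιC hq hqM (s36n2kPsi A E M q y) := rfl

theorem s36n2kPsiB_coe (y : modularFunctionFieldFullC E M) :
    ((s36n2kPsiB A E ιC hq hqM y : modularFunctionFieldFullC E (M * q * q)) : LaurentSeries E) =
      qExpand E q (qExpand E q (y : LaurentSeries E)) := by
  rw [s36n2kPsiB_apply]
  have h1 : s36n2kPsi A E M q y = ⟨(y : LaurentSeries E), s36n2_mem_of_mem_base E y.2⟩ :=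
    Subtype.ext (s36n2kPsi_coe A E M q y)
  rw [h1]
  exact s36n2W_base E ιC hq hqM y.2

theorem s36n2kPsiB_bgJ : s36n2kPsiB A E ιC hq hqM (bgJ E M) = s36n2lJqq E M q :=
  Subtype.ext (s36n2kPsiB_coe A E ιC hq hqM _)

/-- `w_{q²} j = j(Q^{q²})` -/
theorem s36n2k_w_bgJ : s36n2W E ιC hq hqM (bgJ E (M * q * q)) = s36n2lJqq E M q :=
  Subtype.ext (s36n2W_base E ιC hq hqM (jqModC_mem_full E M))

/-- **`w_{q²}` preserves the chart `j`** of level `M q²`. -/
theorem s36n2k_w_chart {b : modularFunctionFieldFullC E (M * q * q)}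
    (hb : IsIntegral ↥(Algebra.adjoin A
      ({bgJ E (M * q * q)} : Set (modularFunctionFieldFullC E (M * q * q)))) b) :
    IsIntegral ↥(Algebra.adjoin A
      ({bgJ E (M * q * q)} : Set (modularFunctionFieldFullC E (M * q * q))))
      (s36n2W E ιC hq hqM b) := by
  have h1 := s36n2k_chart_map_mem (s36n2kWA A E ιC hq hqM) (bgJ E (M * q * q))
    (bgJ E (M * q * q)) ?_ hb
  · exact h1
  · rw [s36n2kWA_apply, s36n2k_w_bgJ E ιC hq hqM]
    exact s36n2l_isIntegral_Jqq (A := A) hq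

end PsiB

section Concrete

variable (K₀ : IntermediateField ℚ NfQb) {A₀ : Type} [CommRing A₀] [IsDomain A₀]
  [IsDiscreteValuationRing A₀] [Algebra A₀ K₀] [IsFractionRing A₀ K₀]
  {k : Type*} [Field k] (r : A₀ →+* k) {π : A₀} (ιC : K₀ →+* ℂ)
  {q M : ℕ} [NeZero q] [NeZero M] [NeZero (M * q)] [NeZero (M * q * q)]
  (hq : q.Prime) (hqM : ¬ q ∣ M)
  [Algebra A₀ (modularFunctionFieldFullC K₀ M)]
  [IsScalarTower A₀ K₀ (modularFunctionFieldFullC K₀ M)]
  [Algebra A₀ (modularFunctionFieldFullC K₀ (M * q))]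
  [IsScalarTower A₀ K₀ (modularFunctionFieldFullC K₀ (M * q))]
  [Algebra A₀ (modularFunctionFieldFullC K₀ (M * q * q))]
  [IsScalarTower A₀ K₀ (modularFunctionFieldFullC K₀ (M * q * q))]

include hq hqM ιC in
/-- **(F1) for `V_b = V.comap w_{q²}`** (`V = V_a`) on the chart `j`, via `ψ_b`. -/
theorem s36n2k_F1_b [Fact q.Prime] [CharP k q] (hπ : Irreducible π)
    (hB : VtBase (algebraMap A₀ K₀) r π)
    (h : RegChart (E := K₀) π (bgJ K₀ M))
    (hVloc : ∀ x : modularFunctionFieldFullC K₀ (M * q), x ∈ vtInf hB (M * q) →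
      ∃ b s : modularFunctionFieldFullC K₀ (M * q),
        IsIntegral ↥(Algebra.adjoin A₀
          ({bgJ K₀ (M * q)} : Set (modularFunctionFieldFullC K₀ (M * q)))) b ∧
        IsIntegral ↥(Algebra.adjoin A₀
          ({bgJ K₀ (M * q)} : Set (modularFunctionFieldFullC K₀ (M * q)))) s ∧
        s ∉ (vtInf hB (M * q)).nonunits ∧ s * x = b)
    (V : ValuationSubring (modularFunctionFieldFullC K₀ (M * q * q)))
    (hcomap : V.comap (s36Alpha K₀ M q) = vtFam hB ιC hq hqM true)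
    (hF : ∀ x ∈ V, ∃ c ∈ vtFam hB ιC hq hqM true, x - s36Alpha K₀ M q c ∈ V.nonunits)
    (b : modularFunctionFieldFullC K₀ (M * q * q))
    (hbV : b ∈ V.comap (s36n2W K₀ ιC hq hqM).toRingEquiv.toRingHom)
    (hb : IsIntegral ↥(Algebra.adjoin A₀
      ({bgJ K₀ (M * q * q)} : Set (modularFunctionFieldFullC K₀ (M * q * q)))) b) :
    ∃ c : integralClosure (Algebra.adjoin A₀ {bgJ K₀ M}) (modularFunctionFieldFullC K₀ M),
      b - s36n2kPsiB A₀ K₀ ιC hq hqM (c : modularFunctionFieldFullC K₀ M) ∈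
        (V.comap (s36n2W K₀ ιC hq hqM).toRingEquiv.toRingHom).nonunits := by
  have hwb := s36n2k_w_chart A₀ K₀ ιC hq hqM hb
  obtain ⟨c, hc⟩ := s36n2k_F1_J K₀ r ιC hq hqM hπ hB h hVloc V hcomap hF
    (s36n2W K₀ ιC hq hqM b) hbV hwb
  refine ⟨c, ?_⟩
  have hVV : ∀ z, z ∈ V.comap (s36n2W K₀ ιC hq hqM).toRingEquiv.toRingHom ↔
      (s36n2W K₀ ιC hq hqM).toRingEquiv.toRingHom z ∈ V := fun z => Iff.rfl
  rw [s36n2k_mem_nonunits_comap (s36n2W K₀ ιC hq hqM).toRingEquiv.toRingHom V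
    (V.comap (s36n2W K₀ ιC hq hqM).toRingEquiv.toRingHom) hVV]
  have e : (s36n2W K₀ ιC hq hqM).toRingEquiv.toRingHom
      (b - s36n2kPsiB A₀ K₀ ιC hq hqM (c : modularFunctionFieldFullC K₀ M)) =
      s36n2W K₀ ιC hq hqM b - s36n2kPsi A₀ K₀ M q (c : modularFunctionFieldFullC K₀ M) := by
    rw [map_sub, s36n2kPsiB_apply]
    show s36n2W K₀ ιC hq hqM b - s36n2W K₀ ιC hq hqM (s36n2W K₀ ιC hq hqM _) = _
    rw [s36n2W_invol]
  rw [e]
  exact hc

end Concrete

section G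

variable (A E : Type*) [CommRing A] [Field E] [Algebra A E] (ιC : E →+* ℂ)
  {M q : ℕ} [NeZero q] [NeZero M] [NeZero (M * q)] [NeZero (M * q * q)]
  (hq : q.Prime) (hqM : ¬ q ∣ M)
  [Algebra A (modularFunctionFieldFullC E M)]
  [IsScalarTower A E (modularFunctionFieldFullC E M)]
  [Algebra A (modularFunctionFieldFullC E (M * q * q))]
  [IsScalarTower A E (modularFunctionFieldFullC E (M * q * q))]

theorem s36n2k_isIntegral_self {S : Type*} [CommRing S] [Algebra A S] (x : S) :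
    IsIntegral ↥(Algebra.adjoin A ({x} : Set S)) x :=
  isIntegral_algebraMap (R := ↥(Algebra.adjoin A ({x} : Set S)))
    (x := ⟨x, Algebra.subset_adjoin rfl⟩)

/-- **`g_a`**: the inclusion of the chart `j` of level `M` into the chart `j` of level `M q²`. -/
def s36n2kGa : ↥(integralClosure ↥(Algebra.adjoin A
      ({bgJ E M} : Set (modularFunctionFieldFullC E M))) (modularFunctionFieldFullC E M)) →+*
    ↥(integralClosure ↥(Algebra.adjoin A
      ({bgJ E (M * q * q)} : Set (modularFunctionFieldFullC E (M * q * q))))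
        (modularFunctionFieldFullC E (M * q * q))) :=
  s36n2kChartHom (s36n2kPsi A E M q) (bgJ E M) (bgJ E (M * q * q))
    (by rw [s36n2kPsi_bgJ]; exact s36n2k_isIntegral_self A _)

/-- **`g_a` on the chart `1/j`**. -/
def s36n2kGaInv : ↥(integralClosure ↥(Algebra.adjoin A
      ({(bgJ E M)⁻¹} : Set (modularFunctionFieldFullC E M))) (modularFunctionFieldFullC E M)) →+*
    ↥(integralClosure ↥(Algebra.adjoin A
      ({(bgJ E (M * q * q))⁻¹} : Set (modularFunctionFieldFullC E (M * q * q))))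
        (modularFunctionFieldFullC E (M * q * q))) :=
  s36n2kChartHom (s36n2kPsi A E M q) (bgJ E M)⁻¹ (bgJ E (M * q * q))⁻¹
    (by rw [s36n2kPsi_bgJ_inv]; exact s36n2k_isIntegral_self A _)

/-- **`g_b`**: `f ↦ f(Q^{q²})` from the chart `j` of level `M` into the chart `j` of level
`M q²`. -/
def s36n2kGb : ↥(integralClosure ↥(Algebra.adjoin A
      ({bgJ E M} : Set (modularFunctionFieldFullC E M))) (modularFunctionFieldFullC E M)) →+*
    ↥(integralClosure ↥(Algebra.adjoin A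
      ({bgJ E (M * q * q)} : Set (modularFunctionFieldFullC E (M * q * q))))
        (modularFunctionFieldFullC E (M * q * q))) :=
  s36n2kChartHom (s36n2kPsiB A E ιC hq hqM) (bgJ E M) (bgJ E (M * q * q))
    (by rw [s36n2kPsiB_bgJ]; exact s36n2l_isIntegral_Jqq (A := A) hq)

@[simp]
theorem s36n2kGa_coe (c : ↥(integralClosure ↥(Algebra.adjoin A
      ({bgJ E M} : Set (modularFunctionFieldFullC E M))) (modularFunctionFieldFullC E M))) :
    ((s36n2kGa A E (M := M) (q := q) c : ↥(integralClosure ↥(Algebra.adjoin A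
      ({bgJ E (M * q * q)} : Set (modularFunctionFieldFullC E (M * q * q))))
        (modularFunctionFieldFullC E (M * q * q)))) : modularFunctionFieldFullC E (M * q * q)) =
      s36n2kPsi A E M q (c : modularFunctionFieldFullC E M) := rfl

@[simp]
theorem s36n2kGaInv_coe (c : ↥(integralClosure ↥(Algebra.adjoin A
      ({(bgJ E M)⁻¹} : Set (modularFunctionFieldFullC E M))) (modularFunctionFieldFullC E M))) :
    ((s36n2kGaInv A E (M := M) (q := q) c : ↥(integralClosure ↥(Algebra.adjoin A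
      ({(bgJ E (M * q * q))⁻¹} : Set (modularFunctionFieldFullC E (M * q * q))))
        (modularFunctionFieldFullC E (M * q * q)))) : modularFunctionFieldFullC E (M * q * q)) =
      s36n2kPsi A E M q (c : modularFunctionFieldFullC E M) := rfl

@[simp]
theorem s36n2kGb_coe (c : ↥(integralClosure ↥(Algebra.adjoin A
      ({bgJ E M} : Set (modularFunctionFieldFullC E M))) (modularFunctionFieldFullC E M))) :
    ((s36n2kGb A E ιC hq hqM c : ↥(integralClosure ↥(Algebra.adjoin A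
      ({bgJ E (M * q * q)} : Set (modularFunctionFieldFullC E (M * q * q))))
        (modularFunctionFieldFullC E (M * q * q)))) : modularFunctionFieldFullC E (M * q * q)) =
      s36n2kPsiB A E ιC hq hqM (c : modularFunctionFieldFullC E M) := rfl

/-- `(g_b c)(Q) = c(Q^{q²})` -/
theorem s36n2kGb_series (c : ↥(integralClosure ↥(Algebra.adjoin A
      ({bgJ E M} : Set (modularFunctionFieldFullC E M))) (modularFunctionFieldFullC E M))) :
    (((s36n2kGb A E ιC hq hqM c : ↥(integralClosure ↥(Algebra.adjoin A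
      ({bgJ E (M * q * q)} : Set (modularFunctionFieldFullC E (M * q * q))))
        (modularFunctionFieldFullC E (M * q * q)))) : modularFunctionFieldFullC E (M * q * q)) :
          LaurentSeries E) =
      qExpand E q (qExpand E q ((c : modularFunctionFieldFullC E M) : LaurentSeries E)) :=
  s36n2kPsiB_coe A E ιC hq hqM _

/-- `(g_a c)(Q) = c(Q)` -/
theorem s36n2kGa_series (c : ↥(integralClosure ↥(Algebra.adjoin A
      ({bgJ E M} : Set (modularFunctionFieldFullC E M))) (modularFunctionFieldFullC E M))) :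
    (((s36n2kGa A E (M := M) (q := q) c : ↥(integralClosure ↥(Algebra.adjoin A
      ({bgJ E (M * q * q)} : Set (modularFunctionFieldFullC E (M * q * q))))
        (modularFunctionFieldFullC E (M * q * q)))) : modularFunctionFieldFullC E (M * q * q)) :
          LaurentSeries E) =
      ((c : modularFunctionFieldFullC E M) : LaurentSeries E) :=
  s36n2kPsi_coe A E M q _

theorem s36n2kGa_isIntegral : (s36n2kGa A E (M := M) (q := q)).IsIntegral :=
  s36n2kChartHom_isIntegral _ _ _ _ (by rw [s36n2kPsi_bgJ]; exact s36n2k_isIntegral_self A _)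

theorem s36n2kGaInv_isIntegral : (s36n2kGaInv A E (M := M) (q := q)).IsIntegral :=
  s36n2kChartHom_isIntegral _ _ _ _
    (by rw [s36n2kPsi_bgJ_inv]; exact s36n2k_isIntegral_self A _)

include ιC hq hqM in
/-- `j` is integral over `A[j(Q^{q²})]` -/
theorem s36n2k_isIntegral_J_Jqq :
    IsIntegral ↥(Algebra.adjoin A
      ({s36n2lJqq E M q} : Set (modularFunctionFieldFullC E (M * q * q))))
      (bgJ E (M * q * q)) := by
  have h1 := cusp_isIntegral_adjoin_map (A := A)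
    ((s36n2kWA A E ιC hq hqM : modularFunctionFieldFullC E (M * q * q) →ₐ[A]
      modularFunctionFieldFullC E (M * q * q)) : modularFunctionFieldFullC E (M * q * q) →+*
        modularFunctionFieldFullC E (M * q * q))
    (fun c => (s36n2kWA A E ιC hq hqM).commutes c)
    (s36n2l_isIntegral_Jqq (A := A) (E := E) (M := M) (q := q) hq)
  have e1 : ((s36n2kWA A E ιC hq hqM : modularFunctionFieldFullC E (M * q * q) →ₐ[A]
      modularFunctionFieldFullC E (M * q * q)) : modularFunctionFieldFullC E (M * q * q) →+*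
        modularFunctionFieldFullC E (M * q * q)) (s36n2lJ E M q) = s36n2lJqq E M q :=
    s36n2k_w_bgJ E ιC hq hqM
  have e2 : ((s36n2kWA A E ιC hq hqM : modularFunctionFieldFullC E (M * q * q) →ₐ[A]
      modularFunctionFieldFullC E (M * q * q)) : modularFunctionFieldFullC E (M * q * q) →+*
        modularFunctionFieldFullC E (M * q * q)) (s36n2lJqq E M q) = bgJ E (M * q * q) := by
    rw [← s36n2k_w_bgJ E ιC hq hqM]
    exact s36n2W_invol E ιC hq hqM _
  rw [e1, e2] at h1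
  exact h1

theorem s36n2kGb_isIntegral : (s36n2kGb A E ιC hq hqM).IsIntegral :=
  s36n2kChartHom_isIntegral _ _ _ _
    (by rw [s36n2kPsiB_bgJ]; exact s36n2k_isIntegral_J_Jqq A E ιC hq hqM)

theorem s36n2kGa_algebraMap (a : A) :
    s36n2kGa A E (M := M) (q := q) (algebraMap A _ a) = algebraMap A _ a :=
  s36n2kChartHom_algebraMap _ _ _ _ a

theorem s36n2kGaInv_algebraMap (a : A) :
    s36n2kGaInv A E (M := M) (q := q) (algebraMap A _ a) = algebraMap A _ a :=
  s36n2kChartHom_algebraMap _ _ _ _ a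

theorem s36n2kGb_algebraMap (a : A) :
    s36n2kGb A E ιC hq hqM (algebraMap A _ a) = algebraMap A _ a :=
  s36n2kChartHom_algebraMap _ _ _ _ a

end G

section RingHomForm

variable (K₀ : IntermediateField ℚ NfQb) {A₀ : Type} [CommRing A₀] [IsDomain A₀]
  [IsDiscreteValuationRing A₀] [Algebra A₀ K₀] [IsFractionRing A₀ K₀]
  {k : Type*} [Field k] (r : A₀ →+* k) {π : A₀} (ιC : K₀ →+* ℂ)
  {q M : ℕ} [NeZero q] [NeZero M] [NeZero (M * q)] [NeZero (M * q * q)]
  (hq : q.Prime) (hqM : ¬ q ∣ M)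
  [Algebra A₀ (modularFunctionFieldFullC K₀ M)]
  [IsScalarTower A₀ K₀ (modularFunctionFieldFullC K₀ M)]
  [Algebra A₀ (modularFunctionFieldFullC K₀ (M * q))]
  [IsScalarTower A₀ K₀ (modularFunctionFieldFullC K₀ (M * q))]
  [Algebra A₀ (modularFunctionFieldFullC K₀ (M * q * q))]
  [IsScalarTower A₀ K₀ (modularFunctionFieldFullC K₀ (M * q * q))]

include hq hqM ιC in
/-- **(F1) for `(V, g_a)`**, `V = V_a, V_c`, chart `j`, ring homomorphism form. -/
theorem s36n2k_F1_Ga [Fact q.Prime] [CharP k q] (hπ : Irreducible π)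
    (hB : VtBase (algebraMap A₀ K₀) r π)
    (h : RegChart (E := K₀) π (bgJ K₀ M))
    (hVloc : ∀ x : modularFunctionFieldFullC K₀ (M * q), x ∈ vtInf hB (M * q) →
      ∃ b s : modularFunctionFieldFullC K₀ (M * q),
        IsIntegral ↥(Algebra.adjoin A₀
          ({bgJ K₀ (M * q)} : Set (modularFunctionFieldFullC K₀ (M * q)))) b ∧
        IsIntegral ↥(Algebra.adjoin A₀
          ({bgJ K₀ (M * q)} : Set (modularFunctionFieldFullC K₀ (M * q)))) s ∧
        s ∉ (vtInf hB (M * q)).nonunits ∧ s * x = b)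
    (V : ValuationSubring (modularFunctionFieldFullC K₀ (M * q * q)))
    (hcomap : V.comap (s36Alpha K₀ M q) = vtFam hB ιC hq hqM true)
    (hF : ∀ x ∈ V, ∃ c ∈ vtFam hB ιC hq hqM true, x - s36Alpha K₀ M q c ∈ V.nonunits)
    (hBV : ∀ b : modularFunctionFieldFullC K₀ (M * q * q),
      IsIntegral ↥(Algebra.adjoin A₀
        ({bgJ K₀ (M * q * q)} : Set (modularFunctionFieldFullC K₀ (M * q * q)))) b → b ∈ V)
    (b : ↥(integralClosure ↥(Algebra.adjoin A₀
      ({bgJ K₀ (M * q * q)} : Set (modularFunctionFieldFullC K₀ (M * q * q))))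
        (modularFunctionFieldFullC K₀ (M * q * q)))) :
    ∃ c : ↥(integralClosure ↥(Algebra.adjoin A₀
        ({bgJ K₀ M} : Set (modularFunctionFieldFullC K₀ M))) (modularFunctionFieldFullC K₀ M)),
      ((b - s36n2kGa A₀ K₀ (M := M) (q := q) c : ↥(integralClosure ↥(Algebra.adjoin A₀
        ({bgJ K₀ (M * q * q)} : Set (modularFunctionFieldFullC K₀ (M * q * q))))
          (modularFunctionFieldFullC K₀ (M * q * q)))) :
            modularFunctionFieldFullC K₀ (M * q * q)) ∈ V.nonunits := by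
  obtain ⟨c, hc⟩ := s36n2k_F1_J K₀ r ιC hq hqM hπ hB h hVloc V hcomap hF
    (b : modularFunctionFieldFullC K₀ (M * q * q)) (hBV _ b.2) b.2
  exact ⟨c, hc⟩

include hq hqM ιC in
/-- **(F1) for `(V, g_a)`**, `V = V_a, V_c`, chart `1/j`, ring homomorphism form. -/
theorem s36n2k_F1_GaInv [Fact q.Prime] [CharP k q] (hπ : Irreducible π)
    (hB : VtBase (algebraMap A₀ K₀) r π)
    (h : RegChart (E := K₀) π (bgJ K₀ M))
    (h' : RegChart (E := K₀) π (bgJ K₀ M)⁻¹)
    (hVloc : ∀ x : modularFunctionFieldFullC K₀ (M * q), x ∈ vtInf hB (M * q) →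
      ∃ b s : modularFunctionFieldFullC K₀ (M * q),
        IsIntegral ↥(Algebra.adjoin A₀
          ({bgJ K₀ (M * q)} : Set (modularFunctionFieldFullC K₀ (M * q)))) b ∧
        IsIntegral ↥(Algebra.adjoin A₀
          ({bgJ K₀ (M * q)} : Set (modularFunctionFieldFullC K₀ (M * q)))) s ∧
        s ∉ (vtInf hB (M * q)).nonunits ∧ s * x = b)
    (V : ValuationSubring (modularFunctionFieldFullC K₀ (M * q * q)))
    (hcomap : V.comap (s36Alpha K₀ M q) = vtFam hB ιC hq hqM true)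
    (hF : ∀ x ∈ V, ∃ c ∈ vtFam hB ιC hq hqM true, x - s36Alpha K₀ M q c ∈ V.nonunits)
    (hBV : ∀ b : modularFunctionFieldFullC K₀ (M * q * q),
      IsIntegral ↥(Algebra.adjoin A₀
        ({(bgJ K₀ (M * q * q))⁻¹} : Set (modularFunctionFieldFullC K₀ (M * q * q)))) b → b ∈ V)
    (b : ↥(integralClosure ↥(Algebra.adjoin A₀
      ({(bgJ K₀ (M * q * q))⁻¹} : Set (modularFunctionFieldFullC K₀ (M * q * q))))
        (modularFunctionFieldFullC K₀ (M * q * q)))) :
    ∃ c : ↥(integralClosure ↥(Algebra.adjoin A₀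
        ({(bgJ K₀ M)⁻¹} : Set (modularFunctionFieldFullC K₀ M))) (modularFunctionFieldFullC K₀ M)),
      ((b - s36n2kGaInv A₀ K₀ (M := M) (q := q) c : ↥(integralClosure ↥(Algebra.adjoin A₀
        ({(bgJ K₀ (M * q * q))⁻¹} : Set (modularFunctionFieldFullC K₀ (M * q * q))))
          (modularFunctionFieldFullC K₀ (M * q * q)))) :
            modularFunctionFieldFullC K₀ (M * q * q)) ∈ V.nonunits := by
  obtain ⟨c, hc⟩ := s36n2k_F1_Jinv K₀ r ιC hq hqM hπ hB h h' hVloc V hcomap hF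
    (b : modularFunctionFieldFullC K₀ (M * q * q)) (hBV _ b.2) b.2
  exact ⟨c, hc⟩

include hq hqM ιC in
/-- **(F1) for `(V_b, g_b)`**, `V_b = V.comap w_{q²}` (`V = V_a`), chart `j`, ring homomorphism
form. -/
theorem s36n2k_F1_Gb [Fact q.Prime] [CharP k q] (hπ : Irreducible π)
    (hB : VtBase (algebraMap A₀ K₀) r π)
    (h : RegChart (E := K₀) π (bgJ K₀ M))
    (hVloc : ∀ x : modularFunctionFieldFullC K₀ (M * q), x ∈ vtInf hB (M * q) →
      ∃ b s : modularFunctionFieldFullC K₀ (M * q),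
        IsIntegral ↥(Algebra.adjoin A₀
          ({bgJ K₀ (M * q)} : Set (modularFunctionFieldFullC K₀ (M * q)))) b ∧
        IsIntegral ↥(Algebra.adjoin A₀
          ({bgJ K₀ (M * q)} : Set (modularFunctionFieldFullC K₀ (M * q)))) s ∧
        s ∉ (vtInf hB (M * q)).nonunits ∧ s * x = b)
    (V : ValuationSubring (modularFunctionFieldFullC K₀ (M * q * q)))
    (hcomap : V.comap (s36Alpha K₀ M q) = vtFam hB ιC hq hqM true)
    (hF : ∀ x ∈ V, ∃ c ∈ vtFam hB ιC hq hqM true, x - s36Alpha K₀ M q c ∈ V.nonunits)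
    (hBV : ∀ b : modularFunctionFieldFullC K₀ (M * q * q),
      IsIntegral ↥(Algebra.adjoin A₀
        ({bgJ K₀ (M * q * q)} : Set (modularFunctionFieldFullC K₀ (M * q * q)))) b → b ∈ V)
    (b : ↥(integralClosure ↥(Algebra.adjoin A₀
      ({bgJ K₀ (M * q * q)} : Set (modularFunctionFieldFullC K₀ (M * q * q))))
        (modularFunctionFieldFullC K₀ (M * q * q)))) :
    ∃ c : ↥(integralClosure ↥(Algebra.adjoin A₀
        ({bgJ K₀ M} : Set (modularFunctionFieldFullC K₀ M))) (modularFunctionFieldFullC K₀ M)),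
      ((b - s36n2kGb A₀ K₀ ιC hq hqM c : ↥(integralClosure ↥(Algebra.adjoin A₀
        ({bgJ K₀ (M * q * q)} : Set (modularFunctionFieldFullC K₀ (M * q * q))))
          (modularFunctionFieldFullC K₀ (M * q * q)))) :
            modularFunctionFieldFullC K₀ (M * q * q)) ∈
        (V.comap (s36n2W K₀ ιC hq hqM).toRingEquiv.toRingHom).nonunits := by
  obtain ⟨c, hc⟩ := s36n2k_F1_b K₀ r ιC hq hqM hπ hB h hVloc V hcomap hF
    (b : modularFunctionFieldFullC K₀ (M * q * q))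
    (hBV _ (s36n2k_w_chart A₀ K₀ ιC hq hqM b.2)) b.2
  exact ⟨c, hc⟩

end RingHomForm

end Fermat.Agent.S36

end
end ZBS36_033_4

/-! ### bundled: `Fermat.Agent.S36.N2KerF1V` -/
section ZBS36_033_5

/-!
# S36 / N2-ker (K2): (F1) at the concrete family `V = s36i1V`

Setting of `S36/SmallPart.lean` / `S36/SmallKR.lean`: `A ∣ q` a valuation subring of `ℚ̄`,
`E₀ = beta0Field A`, `A₀ = beta0Ring A E₀` (a DVR with uniformizer `q`),
`V = s36i1V M hq hA hqM hζ ιC h`, charts `j`, `1/j` of level `M q²` (`B`) and of level `M` (`C`).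

* `s36n2kv_reg`, `s36n2kv_reg_inv` : `RegChart` at level `M` (needs `q = 2 → 3 ∣ M`,
  `q = 3 → 2 ∣ M`);
* `s36n2kv_hVloc` : `V′_∞` is the localisation of the chart `j` of level `M q`;
* `s36n2kv_F1_a`, `s36n2kv_F1_b`, `s36n2kv_F1_c` : **(F1)** on the chart `j` for
  `(V_a, g_a)`, `(V_b, g_b)`, `(V_c, g_a)`;
* `s36n2kv_F1_a_inv`, `s36n2kv_F1_c_inv` : **(F1)** on the chart `1/j` for `(V_a, g_a)`,
  `(V_c, g_a)`.
-/

set_option autoImplicit false
set_option linter.style.haveILetI false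
set_option linter.unusedSectionVars false
set_option linter.unusedVariables false
set_option linter.style.longLine false
set_option linter.constructorNameAsVariable false
set_option synthInstance.maxHeartbeats 400000
set_option maxHeartbeats 1000000

noncomputable section

namespace Fermat.Agent.S36

open ModularCurve AlgebraicCurve Fermat.Agent.ES Fermat.Agent.ES.G2 Fermat.Agent.INJ
open Fermat.Agent.UNIP Fermat.Agent.STB IntermediateField

section F1V

variable {q : ℕ} {A : ValuationSubring (AlgebraicClosure ℚ)} (M : ℕ) [NeZero M] [NeZero q]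
  [IsDiscreteValuationRing ↥(beta0Ring A (beta0Field A))]
  {ζ : AlgebraicClosure ℚ}
  (hq : q.Prime) (hA : A.LiesOverPrime q) (hqM : ¬ q ∣ M) (hζ : IsPrimitiveRoot ζ q)
  (ιC : ↥(beta0Field A) →+* ℂ)
  (h : S36MidEmb ↥(s36n2bK A ζ) q M (s36i1ZK (A := A) hq hζ))

include hq hA hqM in
/-- `RegChart` for the chart `j` of level `M`. -/
theorem s36n2kv_reg (h2 : q = 2 → 3 ∣ M) (h3 : q = 3 → 2 ∣ M) :
    RegChart (E := ↥(beta0Field A)) ((q : ℕ) : ↥(beta0Ring A (beta0Field A)))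
      (bgJ ↥(beta0Field A) M) :=
  stb_regChart_conc_J M hq hA le_rfl (beta0Ring_irreducible_q hq hA) hqM h2 h3

include hq hA hqM in
/-- `RegChart` for the chart `1/j` of level `M`. -/
theorem s36n2kv_reg_inv (h2 : q = 2 → 3 ∣ M) (h3 : q = 3 → 2 ∣ M) :
    RegChart (E := ↥(beta0Field A)) ((q : ℕ) : ↥(beta0Ring A (beta0Field A)))
      (bgJ ↥(beta0Field A) M)⁻¹ :=
  stb_regChart_conc_Jinv M hq hA le_rfl (beta0Ring_irreducible_q hq hA) hqM h2 h3

include hA hqM ιC in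
/-- `V′_∞` is the localisation of the chart `j` of level `M q`. -/
theorem s36n2kv_hVloc (h2 : q = 2 → 3 ∣ M) (h3 : q = 3 → 2 ∣ M)
    (x : ↥(modularFunctionFieldFullC ↥(beta0Field A) (M * q)))
    (hx : x ∈ vtInf (vtBase_residue (beta0Ring_irreducible_q hq hA)) (M * q)) :
    ∃ b s : ↥(modularFunctionFieldFullC ↥(beta0Field A) (M * q)),
      IsIntegral ↥(Algebra.adjoin ↥(beta0Ring A (beta0Field A))
        ({bgJ ↥(beta0Field A) (M * q)} :
          Set ↥(modularFunctionFieldFullC ↥(beta0Field A) (M * q)))) b ∧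
      IsIntegral ↥(Algebra.adjoin ↥(beta0Ring A (beta0Field A))
        ({bgJ ↥(beta0Field A) (M * q)} :
          Set ↥(modularFunctionFieldFullC ↥(beta0Field A) (M * q)))) s ∧
      s ∉ (vtInf (vtBase_residue (beta0Ring_irreducible_q hq hA)) (M * q)).nonunits ∧
      s * x = b :=
  mgv_hVloc₁ (K₀ := beta0Field A) (beta0Ring_irreducible_q hq hA) ιC hq hqM hA
    (mgcb_reg_SS1_J (K₀ := beta0Field A) (beta0Ring_irreducible_q hq hA) ιC hq hqM hA
      (s36n2kv_reg M hq hA hqM h2 h3)) true x hx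

/-- **(F1) for `(V_a, g_a)`**, chart `j`. -/
theorem s36n2kv_F1_a (h2 : q = 2 → 3 ∣ M) (h3 : q = 3 → 2 ∣ M) (ιK : ↥(s36n2bK A ζ) →+* ℂ)
    (b : ↥(integralClosure ↥(Algebra.adjoin ↥(beta0Ring A (beta0Field A))
      ({bgJ ↥(beta0Field A) (M * q * q)} :
        Set ↥(modularFunctionFieldFullC ↥(beta0Field A) (M * q * q))))
        ↥(modularFunctionFieldFullC ↥(beta0Field A) (M * q * q)))) :
    ∃ c : ↥(integralClosure ↥(Algebra.adjoin ↥(beta0Ring A (beta0Field A))
        ({bgJ ↥(beta0Field A) M} : Set ↥(modularFunctionFieldFullC ↥(beta0Field A) M)))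
        ↥(modularFunctionFieldFullC ↥(beta0Field A) M)),
      ((b - s36n2kGa ↥(beta0Ring A (beta0Field A)) ↥(beta0Field A) (M := M) (q := q) c :
        ↥(integralClosure ↥(Algebra.adjoin ↥(beta0Ring A (beta0Field A))
          ({bgJ ↥(beta0Field A) (M * q * q)} :
            Set ↥(modularFunctionFieldFullC ↥(beta0Field A) (M * q * q))))
          ↥(modularFunctionFieldFullC ↥(beta0Field A) (M * q * q)))) :
            ↥(modularFunctionFieldFullC ↥(beta0Field A) (M * q * q))) ∈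
        (s36i1V M hq hA hqM hζ ιC h S36Comp.a).nonunits := by
  have hπ : Irreducible ((q : ℕ) : ↥(beta0Ring A (beta0Field A))) :=
    beta0Ring_irreducible_q hq hA
  haveI : Fact q.Prime := ⟨hq⟩
  haveI : CharP (IsLocalRing.ResidueField ↥(beta0Ring A (beta0Field A))) q := mgvl_charP hq hA
  obtain ⟨κ, -, hκ⟩ := s36n2b_compat (A := A) (ζ := ζ) hq hA
  have hmain := s36n2x_alphaInf_main (vtBase_residue hπ) (s36n2b_vtBase hq hA hζ)
    (IntermediateField.inclusion (s36n2b_le_K A ζ)).toRingHom ιC ιK hq hqM h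
    (s36i1Z hq hζ) rfl hκ (s36n2bZeta_isPrimitiveRoot hq hζ) (s36n2b_residue_zeta hq hA hζ)
    (s36sk_natCast_ne_zero hq) (v := 1) (by rw [map_one]; exact one_ne_zero)
    (by rw [mul_one])
  exact s36n2k_F1_Ga (beta0Field A) (IsLocalRing.residue ↥(beta0Ring A (beta0Field A))) ιC hq hqM
    hπ (vtBase_residue hπ) (s36n2kv_reg M hq hA hqM h2 h3)
    (s36n2kv_hVloc M hq hA hqM ιC h2 h3)
    (s36n2VA (q := q) (M := M) (vtBase_residue hπ))
    (s36n2VA_comap_alpha (vtBase_residue hπ) ιC hq hqM) hmain.2.1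
    (fun b hb => s36i1c_hBV₁ M hq hA hqM hζ ιC h S36Comp.a b hb) b

/-- **(F1) for `(V_c, g_a)`**, chart `j`. -/
theorem s36n2kv_F1_c (h2 : q = 2 → 3 ∣ M) (h3 : q = 3 → 2 ∣ M) (ιK : ↥(s36n2bK A ζ) →+* ℂ)
    (b : ↥(integralClosure ↥(Algebra.adjoin ↥(beta0Ring A (beta0Field A))
      ({bgJ ↥(beta0Field A) (M * q * q)} :
        Set ↥(modularFunctionFieldFullC ↥(beta0Field A) (M * q * q))))
        ↥(modularFunctionFieldFullC ↥(beta0Field A) (M * q * q)))) :
    ∃ c : ↥(integralClosure ↥(Algebra.adjoin ↥(beta0Ring A (beta0Field A))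
        ({bgJ ↥(beta0Field A) M} : Set ↥(modularFunctionFieldFullC ↥(beta0Field A) M)))
        ↥(modularFunctionFieldFullC ↥(beta0Field A) M)),
      ((b - s36n2kGa ↥(beta0Ring A (beta0Field A)) ↥(beta0Field A) (M := M) (q := q) c :
        ↥(integralClosure ↥(Algebra.adjoin ↥(beta0Ring A (beta0Field A))
          ({bgJ ↥(beta0Field A) (M * q * q)} :
            Set ↥(modularFunctionFieldFullC ↥(beta0Field A) (M * q * q))))
          ↥(modularFunctionFieldFullC ↥(beta0Field A) (M * q * q)))) :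
            ↥(modularFunctionFieldFullC ↥(beta0Field A) (M * q * q))) ∈
        (s36i1V M hq hA hqM hζ ιC h S36Comp.c).nonunits := by
  have hπ : Irreducible ((q : ℕ) : ↥(beta0Ring A (beta0Field A))) :=
    beta0Ring_irreducible_q hq hA
  haveI : Fact q.Prime := ⟨hq⟩
  haveI : CharP (IsLocalRing.ResidueField ↥(beta0Ring A (beta0Field A))) q := mgvl_charP hq hA
  obtain ⟨κ, -, hκ⟩ := s36n2b_compat (A := A) (ζ := ζ) hq hA
  have hmain := s36n2x_alphaInf_main (vtBase_residue hπ) (s36n2b_vtBase hq hA hζ)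
    (IntermediateField.inclusion (s36n2b_le_K A ζ)).toRingHom ιC ιK hq hqM h
    (s36i1Z hq hζ) rfl hκ (s36n2bZeta_isPrimitiveRoot hq hζ) (s36n2b_residue_zeta hq hA hζ)
    (s36sk_natCast_ne_zero hq) (v := 1) (by rw [map_one]; exact one_ne_zero)
    (by rw [mul_one])
  exact s36n2k_F1_Ga (beta0Field A) (IsLocalRing.residue ↥(beta0Ring A (beta0Field A))) ιC hq hqM
    hπ (vtBase_residue hπ) (s36n2kv_reg M hq hA hqM h2 h3)
    (s36n2kv_hVloc M hq hA hqM ιC h2 h3)
    (s36n2VC (s36n2b_vtBase hq hA hζ)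
      (IntermediateField.inclusion (s36n2b_le_K A ζ)).toRingHom hq h (s36i1Z hq hζ) rfl)
    (s36n2VC_comap_alpha (vtBase_residue hπ) (s36n2b_vtBase hq hA hζ) hκ ιC hq hqM h
      (s36i1Z hq hζ) rfl) hmain.2.2.1
    (fun b hb => s36i1c_hBV₁ M hq hA hqM hζ ιC h S36Comp.c b hb) b

/-- **(F1) for `(V_b, g_b)`**, chart `j`. -/
theorem s36n2kv_F1_b (h2 : q = 2 → 3 ∣ M) (h3 : q = 3 → 2 ∣ M) (ιK : ↥(s36n2bK A ζ) →+* ℂ)
    (b : ↥(integralClosure ↥(Algebra.adjoin ↥(beta0Ring A (beta0Field A))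
      ({bgJ ↥(beta0Field A) (M * q * q)} :
        Set ↥(modularFunctionFieldFullC ↥(beta0Field A) (M * q * q))))
        ↥(modularFunctionFieldFullC ↥(beta0Field A) (M * q * q)))) :
    ∃ c : ↥(integralClosure ↥(Algebra.adjoin ↥(beta0Ring A (beta0Field A))
        ({bgJ ↥(beta0Field A) M} : Set ↥(modularFunctionFieldFullC ↥(beta0Field A) M)))
        ↥(modularFunctionFieldFullC ↥(beta0Field A) M)),
      ((b - s36n2kGb ↥(beta0Ring A (beta0Field A)) ↥(beta0Field A) ιC hq hqM c :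
        ↥(integralClosure ↥(Algebra.adjoin ↥(beta0Ring A (beta0Field A))
          ({bgJ ↥(beta0Field A) (M * q * q)} :
            Set ↥(modularFunctionFieldFullC ↥(beta0Field A) (M * q * q))))
          ↥(modularFunctionFieldFullC ↥(beta0Field A) (M * q * q)))) :
            ↥(modularFunctionFieldFullC ↥(beta0Field A) (M * q * q))) ∈
        (s36i1V M hq hA hqM hζ ιC h S36Comp.b).nonunits := by
  have hπ : Irreducible ((q : ℕ) : ↥(beta0Ring A (beta0Field A))) :=
    beta0Ring_irreducible_q hq hA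
  haveI : Fact q.Prime := ⟨hq⟩
  haveI : CharP (IsLocalRing.ResidueField ↥(beta0Ring A (beta0Field A))) q := mgvl_charP hq hA
  obtain ⟨κ, -, hκ⟩ := s36n2b_compat (A := A) (ζ := ζ) hq hA
  have hmain := s36n2x_alphaInf_main (vtBase_residue hπ) (s36n2b_vtBase hq hA hζ)
    (IntermediateField.inclusion (s36n2b_le_K A ζ)).toRingHom ιC ιK hq hqM h
    (s36i1Z hq hζ) rfl hκ (s36n2bZeta_isPrimitiveRoot hq hζ) (s36n2b_residue_zeta hq hA hζ)
    (s36sk_natCast_ne_zero hq) (v := 1) (by rw [map_one]; exact one_ne_zero)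
    (by rw [mul_one])
  exact s36n2k_F1_Gb (beta0Field A) (IsLocalRing.residue ↥(beta0Ring A (beta0Field A))) ιC hq hqM
    hπ (vtBase_residue hπ) (s36n2kv_reg M hq hA hqM h2 h3)
    (s36n2kv_hVloc M hq hA hqM ιC h2 h3)
    (s36n2VA (q := q) (M := M) (vtBase_residue hπ))
    (s36n2VA_comap_alpha (vtBase_residue hπ) ιC hq hqM) hmain.2.1
    (fun b hb => s36i1c_hBV₁ M hq hA hqM hζ ιC h S36Comp.a b hb) b

/-- **(F1) for `(V_a, g_a)`**, chart `1/j`. -/
theorem s36n2kv_F1_a_inv (h2 : q = 2 → 3 ∣ M) (h3 : q = 3 → 2 ∣ M)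
    (ιK : ↥(s36n2bK A ζ) →+* ℂ)
    (b : ↥(integralClosure ↥(Algebra.adjoin ↥(beta0Ring A (beta0Field A))
      ({(bgJ ↥(beta0Field A) (M * q * q))⁻¹} :
        Set ↥(modularFunctionFieldFullC ↥(beta0Field A) (M * q * q))))
        ↥(modularFunctionFieldFullC ↥(beta0Field A) (M * q * q)))) :
    ∃ c : ↥(integralClosure ↥(Algebra.adjoin ↥(beta0Ring A (beta0Field A))
        ({(bgJ ↥(beta0Field A) M)⁻¹} : Set ↥(modularFunctionFieldFullC ↥(beta0Field A) M)))
        ↥(modularFunctionFieldFullC ↥(beta0Field A) M)),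
      ((b - s36n2kGaInv ↥(beta0Ring A (beta0Field A)) ↥(beta0Field A) (M := M) (q := q) c :
        ↥(integralClosure ↥(Algebra.adjoin ↥(beta0Ring A (beta0Field A))
          ({(bgJ ↥(beta0Field A) (M * q * q))⁻¹} :
            Set ↥(modularFunctionFieldFullC ↥(beta0Field A) (M * q * q))))
          ↥(modularFunctionFieldFullC ↥(beta0Field A) (M * q * q)))) :
            ↥(modularFunctionFieldFullC ↥(beta0Field A) (M * q * q))) ∈
        (s36i1V M hq hA hqM hζ ιC h S36Comp.a).nonunits := by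
  have hπ : Irreducible ((q : ℕ) : ↥(beta0Ring A (beta0Field A))) :=
    beta0Ring_irreducible_q hq hA
  haveI : Fact q.Prime := ⟨hq⟩
  haveI : CharP (IsLocalRing.ResidueField ↥(beta0Ring A (beta0Field A))) q := mgvl_charP hq hA
  obtain ⟨κ, -, hκ⟩ := s36n2b_compat (A := A) (ζ := ζ) hq hA
  have hmain := s36n2x_alphaInf_main (vtBase_residue hπ) (s36n2b_vtBase hq hA hζ)
    (IntermediateField.inclusion (s36n2b_le_K A ζ)).toRingHom ιC ιK hq hqM h
    (s36i1Z hq hζ) rfl hκ (s36n2bZeta_isPrimitiveRoot hq hζ) (s36n2b_residue_zeta hq hA hζ)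
    (s36sk_natCast_ne_zero hq) (v := 1) (by rw [map_one]; exact one_ne_zero)
    (by rw [mul_one])
  exact s36n2k_F1_GaInv (beta0Field A) (IsLocalRing.residue ↥(beta0Ring A (beta0Field A))) ιC
    hq hqM hπ (vtBase_residue hπ) (s36n2kv_reg M hq hA hqM h2 h3)
    (s36n2kv_reg_inv M hq hA hqM h2 h3)
    (s36n2kv_hVloc M hq hA hqM ιC h2 h3)
    (s36n2VA (q := q) (M := M) (vtBase_residue hπ))
    (s36n2VA_comap_alpha (vtBase_residue hπ) ιC hq hqM) hmain.2.1
    (fun b hb => s36i1c_hBV₂ M hq hA hqM hζ ιC h S36Comp.a b hb) b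

/-- **(F1) for `(V_c, g_a)`**, chart `1/j`. -/
theorem s36n2kv_F1_c_inv (h2 : q = 2 → 3 ∣ M) (h3 : q = 3 → 2 ∣ M)
    (ιK : ↥(s36n2bK A ζ) →+* ℂ)
    (b : ↥(integralClosure ↥(Algebra.adjoin ↥(beta0Ring A (beta0Field A))
      ({(bgJ ↥(beta0Field A) (M * q * q))⁻¹} :
        Set ↥(modularFunctionFieldFullC ↥(beta0Field A) (M * q * q))))
        ↥(modularFunctionFieldFullC ↥(beta0Field A) (M * q * q)))) :
    ∃ c : ↥(integralClosure ↥(Algebra.adjoin ↥(beta0Ring A (beta0Field A))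
        ({(bgJ ↥(beta0Field A) M)⁻¹} : Set ↥(modularFunctionFieldFullC ↥(beta0Field A) M)))
        ↥(modularFunctionFieldFullC ↥(beta0Field A) M)),
      ((b - s36n2kGaInv ↥(beta0Ring A (beta0Field A)) ↥(beta0Field A) (M := M) (q := q) c :
        ↥(integralClosure ↥(Algebra.adjoin ↥(beta0Ring A (beta0Field A))
          ({(bgJ ↥(beta0Field A) (M * q * q))⁻¹} :
            Set ↥(modularFunctionFieldFullC ↥(beta0Field A) (M * q * q))))
          ↥(modularFunctionFieldFullC ↥(beta0Field A) (M * q * q)))) :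
            ↥(modularFunctionFieldFullC ↥(beta0Field A) (M * q * q))) ∈
        (s36i1V M hq hA hqM hζ ιC h S36Comp.c).nonunits := by
  have hπ : Irreducible ((q : ℕ) : ↥(beta0Ring A (beta0Field A))) :=
    beta0Ring_irreducible_q hq hA
  haveI : Fact q.Prime := ⟨hq⟩
  haveI : CharP (IsLocalRing.ResidueField ↥(beta0Ring A (beta0Field A))) q := mgvl_charP hq hA
  obtain ⟨κ, -, hκ⟩ := s36n2b_compat (A := A) (ζ := ζ) hq hA
  have hmain := s36n2x_alphaInf_main (vtBase_residue hπ) (s36n2b_vtBase hq hA hζ)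
    (IntermediateField.inclusion (s36n2b_le_K A ζ)).toRingHom ιC ιK hq hqM h
    (s36i1Z hq hζ) rfl hκ (s36n2bZeta_isPrimitiveRoot hq hζ) (s36n2b_residue_zeta hq hA hζ)
    (s36sk_natCast_ne_zero hq) (v := 1) (by rw [map_one]; exact one_ne_zero)
    (by rw [mul_one])
  exact s36n2k_F1_GaInv (beta0Field A) (IsLocalRing.residue ↥(beta0Ring A (beta0Field A))) ιC
    hq hqM hπ (vtBase_residue hπ) (s36n2kv_reg M hq hA hqM h2 h3)
    (s36n2kv_reg_inv M hq hA hqM h2 h3)
    (s36n2kv_hVloc M hq hA hqM ιC h2 h3)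
    (s36n2VC (s36n2b_vtBase hq hA hζ)
      (IntermediateField.inclusion (s36n2b_le_K A ζ)).toRingHom hq h (s36i1Z hq hζ) rfl)
    (s36n2VC_comap_alpha (vtBase_residue hπ) (s36n2b_vtBase hq hA hζ) hκ ιC hq hqM h
      (s36i1Z hq hζ) rfl) hmain.2.2.1
    (fun b hb => s36i1c_hBV₂ M hq hA hqM hζ ιC h S36Comp.c b hb) b

end F1V

end Fermat.Agent.S36

end
end ZBS36_033_5

/-! ### bundled: `Fermat.Agent.S36.PtsBGen` -/
section ZBS36_033_6

/-!
# S36 / (I6): `Gen_b` on the chart `j` (helper33)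

Concrete setting of `S36/SmallPart.lean`: `A₀ = beta0Ring A E₀`, `E₀ = beta0Field A`,
`F = F_{Mqq}(E₀)`, chart `B = zchClosure {j}` of level `M q²`, `V = s36i1V M hq hA hqM hζ ιC h`.

* `s36bgen_gen_abs` : the generic chart form (twin of helper80's `s36cgen_gen_abs`, for a chart
  homomorphism induced by `ψ : F″ →ₐ[A₀] F` with `ψ t` and `u` integral over each other instead
  of `ψ t = u`): from (F1) on the chart `u` and `RegChart π t`, `∃ Y₀ ∈ 𝔫, S36n2pGen 𝔫 V Y₀` at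
  every closed point `𝔫 : AtPt π u` on `V` (`s36pab_gen_of_lower` + `RegChart.locGen`).
* `s36bgen_hgenB` : the hypothesis `hgenB` of `s36cua_hPb` (helper98, `S36/PtsCuspA.lean`),
  VERBATIM: at every closed point `𝔫` of the special fibre of the chart `j` through which the
  component `C_b` passes, the branch `V_b` is regular at `𝔫` with a local parameter `g_b s`,
  `s` in the chart `C` of level `M` (`g_b : f ↦ f(Q^{q²})`, `ψ = s36n2kPsiB`);
  `(F1) = s36n2k_F1_b` (helper99), regularity of the chart `j` of level `M`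
  (`stb_regChart_conc_J`, `RegChart.locGen`).
* `stmtS36GenJ_b : StmtS36GenJ .b`, `stmtS36PtsOne_b : StmtS36PtsOne .b` (interfaces of
  helper62's `S36/PtsOneAB.lean` and helper31's `S36/PtsPlan.lean`).
-/

set_option autoImplicit false
set_option linter.style.haveILetI false
set_option linter.unusedSectionVars false
set_option linter.unusedVariables false
set_option linter.style.longLine false
set_option linter.constructorNameAsVariable false
set_option synthInstance.maxHeartbeats 400000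
set_option maxHeartbeats 1000000

noncomputable section

namespace Fermat.Agent.S36

open ModularCurve AlgebraicCurve Fermat.Agent.ES Fermat.Agent.ES.G2 Fermat.Agent.INJ
open Fermat.Agent.UNIP Fermat.Agent.STB IntermediateField

universe u

section Abs

variable {A₀ E F'' F : Type u} [CommRing A₀] [IsDomain A₀] [IsDiscreteValuationRing A₀]
  [Field E] [Algebra A₀ E] [IsFractionRing A₀ E] [CharZero E]
  [Field F''] [Algebra E F''] [Algebra A₀ F''] [IsScalarTower A₀ E F'']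
  [Field F] [Algebra E F] [Algebra A₀ F] [IsScalarTower A₀ E F]
  (ψ : F'' →ₐ[A₀] F) (t : F'') (u : F)
  (hu : IsIntegral ↥(Algebra.adjoin A₀ ({u} : Set F)) (ψ t))
  (hu' : IsIntegral ↥(Algebra.adjoin A₀ ({ψ t} : Set F)) u)

/-- **the chart homomorphism** `g : C_t → B_u` induced by `ψ` when `ψ t` is integral over
`A₀[u]`, with values in `zchClosure {u}`. -/
def s36bgenG : ↥(integralClosure ↥(Algebra.adjoin A₀ ({t} : Set F'')) F'') →+*
    ↥(zchClosure (A₀ := A₀) ({u} : Set F)) where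
  toFun c := ⟨ψ (c : F''), mem_zchClosure.mpr (s36n2k_chart_map_mem ψ t u hu c.2)⟩
  map_one' := Subtype.ext (map_one ψ)
  map_mul' _ _ := Subtype.ext (map_mul ψ _ _)
  map_zero' := Subtype.ext (map_zero ψ)
  map_add' _ _ := Subtype.ext (map_add ψ _ _)

theorem s36bgenG_coe (c : ↥(integralClosure ↥(Algebra.adjoin A₀ ({t} : Set F'')) F'')) :
    ((s36bgenG ψ t u hu c : ↥(zchClosure (A₀ := A₀) ({u} : Set F))) : F) = ψ (c : F'') := rfl

theorem s36bgenG_algebraMap (a : A₀) :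
    s36bgenG ψ t u hu
        (algebraMap A₀ ↥(integralClosure ↥(Algebra.adjoin A₀ ({t} : Set F'')) F'') a) =
      algebraMap A₀ ↥(zchClosure (A₀ := A₀) ({u} : Set F)) a := by
  apply Subtype.ext
  show ψ (algebraMap A₀ F'' a) = algebraMap A₀ F a
  exact ψ.commutes a

include hu' in
/-- `g` is integral when moreover `u` is integral over `A₀[ψ t]`. -/
theorem s36bgenG_isIntegral : (s36bgenG ψ t u hu).IsIntegral := by
  intro b
  obtain ⟨p, hp, hpb⟩ := s36n2kChartHom_isIntegral ψ t u hu hu' ⟨(b : F), mem_zchClosure.mp b.2⟩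
  refine ⟨p, hp, ?_⟩
  apply Subtype.ext
  have h1 := congrArg (fun z : ↥(integralClosure ↥(Algebra.adjoin A₀ ({u} : Set F)) F) =>
    (z : F)) hpb
  have h2 : ∀ r : Polynomial ↥(integralClosure ↥(Algebra.adjoin A₀ ({t} : Set F'')) F''),
      ((Polynomial.eval₂ (s36bgenG ψ t u hu) b r :
        ↥(zchClosure (A₀ := A₀) ({u} : Set F))) : F) =
      ((Polynomial.eval₂ (s36n2kChartHom ψ t u hu)
        (⟨(b : F), mem_zchClosure.mp b.2⟩ :
          ↥(integralClosure ↥(Algebra.adjoin A₀ ({u} : Set F)) F)) r :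
        ↥(integralClosure ↥(Algebra.adjoin A₀ ({u} : Set F)) F)) : F) := by
    intro r
    induction r using Polynomial.induction_on' with
    | add r₁ r₂ h₁ h₂ =>
      rw [Polynomial.eval₂_add, Polynomial.eval₂_add]
      show ((Polynomial.eval₂ (s36bgenG ψ t u hu) b r₁ :
          ↥(zchClosure (A₀ := A₀) ({u} : Set F))) : F) +
        ((Polynomial.eval₂ (s36bgenG ψ t u hu) b r₂ :
          ↥(zchClosure (A₀ := A₀) ({u} : Set F))) : F) = _
      rw [h₁, h₂]
      rfl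
    | monomial n a =>
      rw [Polynomial.eval₂_monomial, Polynomial.eval₂_monomial]
      rfl
  rw [h2 p]
  exact h1

include hu hu' in
/-- **the generic chart form** (twin of helper80's `s36cgen_gen_abs`): from (F1) on the chart `u`
and `RegChart π t`, for `ψ t` and `u` integral over each other. -/
theorem s36bgen_gen_abs {π : A₀} (hReg : RegChart (E := E) π t) (V : ValuationSubring F)
    (hBV : ∀ b : F, IsIntegral ↥(Algebra.adjoin A₀ ({u} : Set F)) b → b ∈ V)
    (hπV : algebraMap A₀ F π ∈ V.nonunits)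
    (hF1 : ∀ b : F, b ∈ V → IsIntegral ↥(Algebra.adjoin A₀ ({u} : Set F)) b →
      ∃ c : ↥(integralClosure ↥(Algebra.adjoin A₀ ({t} : Set F'')) F''),
        b - ψ (c : F'') ∈ V.nonunits)
    (𝔫 : AtPt (F := F) π u) (hthr : atThrough 𝔫 V) :
    ∃ Y₀ : ↥(zchClosure (A₀ := A₀) ({u} : Set F)), Y₀ ∈ 𝔫.1 ∧ S36n2pGen 𝔫.1 V Y₀ := by
  have hg := s36bgenG_isIntegral ψ t u hu hu'
  have hBV' : ∀ b : ↥(zchClosure (A₀ := A₀) ({u} : Set F)),
      algebraMap ↥(zchClosure (A₀ := A₀) ({u} : Set F)) F b ∈ V :=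
    fun b => hBV _ (mem_zchClosure.mp b.2)
  have hF1' : ∀ b : ↥(zchClosure (A₀ := A₀) ({u} : Set F)),
      ∃ c : ↥(integralClosure ↥(Algebra.adjoin A₀ ({t} : Set F'')) F''),
        algebraMap ↥(zchClosure (A₀ := A₀) ({u} : Set F)) F
          (b - s36bgenG ψ t u hu c) ∈ V.nonunits := by
    intro b
    obtain ⟨c, hc⟩ := hF1 (b : F) (hBV _ (mem_zchClosure.mp b.2)) (mem_zchClosure.mp b.2)
    exact ⟨c, hc⟩
  have hπ' : algebraMap ↥(zchClosure (A₀ := A₀) ({u} : Set F)) F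
      (s36bgenG ψ t u hu
        (algebraMap A₀ ↥(integralClosure ↥(Algebra.adjoin A₀ ({t} : Set F'')) F'') π)) ∈
      V.nonunits := by
    rw [s36bgenG_algebraMap]
    exact hπV
  obtain ⟨s, hs, hgen⟩ := s36pab_gen_of_lower (s36bgenG ψ t u hu)
    hg 𝔫.1 𝔫.2.1 V hBV' hthr hF1'
    (algebraMap A₀ ↥(integralClosure ↥(Algebra.adjoin A₀ ({t} : Set F'')) F'') π) hπ'
    (fun 𝔪 h𝔪 hπ𝔪 => hReg.locGen 𝔪 h𝔪 hπ𝔪)
  exact ⟨_, hs, hgen⟩

end Abs

section GenB

variable {q : ℕ} {A : ValuationSubring (AlgebraicClosure ℚ)} (M : ℕ) [NeZero M] [NeZero q]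
  [IsDiscreteValuationRing ↥(beta0Ring A (beta0Field A))]
  {ζ : AlgebraicClosure ℚ}
  (hq : q.Prime) (hA : A.LiesOverPrime q) (hqM : ¬ q ∣ M) (hζ : IsPrimitiveRoot ζ q)
  (ιC : ↥(beta0Field A) →+* ℂ)
  (h : S36MidEmb ↥(s36n2bK A ζ) q M (s36i1ZK (A := A) hq hζ))

/-- **(F1) for `(V_b, ψ_b)`** on the chart `j`, element form. -/
theorem s36bgen_hF1 (h2 : q = 2 → 3 ∣ M) (h3 : q = 3 → 2 ∣ M) (ιK : ↥(s36n2bK A ζ) →+* ℂ)
    (b : ↥(modularFunctionFieldFullC ↥(beta0Field A) (M * q * q)))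
    (hb : IsIntegral ↥(Algebra.adjoin ↥(beta0Ring A (beta0Field A))
      ({bgJ ↥(beta0Field A) (M * q * q)} :
        Set ↥(modularFunctionFieldFullC ↥(beta0Field A) (M * q * q)))) b) :
    ∃ c : ↥(integralClosure ↥(Algebra.adjoin ↥(beta0Ring A (beta0Field A))
        ({bgJ ↥(beta0Field A) M} : Set ↥(modularFunctionFieldFullC ↥(beta0Field A) M)))
        ↥(modularFunctionFieldFullC ↥(beta0Field A) M)),
      b - s36n2kPsiB ↥(beta0Ring A (beta0Field A)) ↥(beta0Field A) ιC hq hqM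
          (c : ↥(modularFunctionFieldFullC ↥(beta0Field A) M)) ∈
        (s36i1V M hq hA hqM hζ ιC h S36Comp.b).nonunits := by
  obtain ⟨c, hc⟩ := s36n2kv_F1_b M hq hA hqM hζ ιC h h2 h3 ιK ⟨b, hb⟩
  exact ⟨c, hc⟩

/-- **`hgenB` of `s36cua_hPb`** (helper98), VERBATIM: a local parameter of the branch `C_b` at
every closed point of the special fibre of the chart `j` of level `M q²` on `C_b`. -/
theorem s36bgen_hgenB (h2 : q = 2 → 3 ∣ M) (h3 : q = 3 → 2 ∣ M) (ιK : ↥(s36n2bK A ζ) →+* ℂ) :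
    ∀ 𝔫 : AtPt (F := ↥(modularFunctionFieldFullC ↥(beta0Field A) (M * q * q)))
        ((q : ℕ) : ↥(beta0Ring A (beta0Field A))) (bgJ ↥(beta0Field A) (M * q * q)),
      atThrough 𝔫 (s36i1V M hq hA hqM hζ ιC h S36Comp.b) →
      ∃ Y₀ ∈ 𝔫.1, S36n2pGen 𝔫.1 (s36i1V M hq hA hqM hζ ιC h S36Comp.b) Y₀ := by
  intro 𝔫 hthr
  have hReg : RegChart (E := ↥(beta0Field A)) ((q : ℕ) : ↥(beta0Ring A (beta0Field A)))
      (bgJ ↥(beta0Field A) M) :=
    stb_regChart_conc_J M hq hA le_rfl (beta0Ring_irreducible_q hq hA) hqM h2 h3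
  exact s36bgen_gen_abs (E := ↥(beta0Field A))
    (s36n2kPsiB ↥(beta0Ring A (beta0Field A)) ↥(beta0Field A) ιC hq hqM)
    (bgJ ↥(beta0Field A) M) (bgJ ↥(beta0Field A) (M * q * q))
    (by rw [s36n2kPsiB_bgJ]; exact s36n2l_isIntegral_Jqq (A := ↥(beta0Ring A (beta0Field A))) hq)
    (by rw [s36n2kPsiB_bgJ]
        exact s36n2k_isIntegral_J_Jqq ↥(beta0Ring A (beta0Field A)) ↥(beta0Field A) ιC hq hqM)
    hReg
    (s36i1V M hq hA hqM hζ ιC h S36Comp.b)
    (s36i1c_hBV₁ M hq hA hqM hζ ιC h S36Comp.b)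
    (s36i1c_hπV M hq hA hqM hζ ιC h S36Comp.b)
    (fun b hbV hb => s36bgen_hF1 M hq hA hqM hζ ιC h h2 h3 ιK b hb)
    𝔫 hthr

end GenB

/-- **`StmtS36GenJ .b`** (helper62's interface, `S36/PtsOneAB.lean`): Gen_b on the chart `j`. -/
theorem stmtS36GenJ_b : StmtS36GenJ S36Comp.b := by
  intro M q _ _ hq hR A hA _ ζ hζ ιC ιK h
  exact s36bgen_hgenB M hq hA hR.1 hζ ιC h (s36so_rigid_h2 hR) (s36so_rigid_h3 hR) ιK

/-- **(I6)(a), `C_b`**: `StmtS36PtsOne .b`, unconditional. -/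
theorem stmtS36PtsOne_b : StmtS36PtsOne S36Comp.b :=
  stmtS36PtsOne_b_of stmtS36GenJ_b

end Fermat.Agent.S36

end
end ZBS36_033_6

/-! ### bundled: `Fermat.Agent.S36.PtsOneC` -/
section ZBS36_033_7

/-!
# S36 / (I6)(b): `StmtS36PtsOne S36Comp.c` — PROVED (helper93)

The closed points of the chart `j` of level `M q²` lying on the component `C_c` (multiplicity
`q − 1`) only.

* **`stmtS36PtsOne_c : StmtS36PtsOne S36Comp.c`** : one of the six statements of
  `S36/PtsPlan.lean` (`stmtS36Pts_of`).  `Gen_c` (the branch `C_c` is regular at these points) is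
  helper80's `s36cgen_c`: `Gen` from level `M` through (F1) and `RegChart`.

Ingredients: the abstract criterion `s36pm_ptInput` (`S36/PtsMid.lean`: `X ∈ O`,
`(X ^ e / π) ^ n ≡ g` at `V_c` with `g ∈ Oˣ`, `e` = the multiplicity of `C_c`), its chart forms
(`S36/PtsMidChart.lean`, `S36/PtsMidInst.lean`), (b-UNIT) helper80 (`S36/PtsCUnit.lean`),
(b-CONG) helper57 (`S36/PtsCCongInst.lean`), the `θ`-identities helper31 (`S36/PtsCTheta.lean`),
(KR) helper98/helper99 (`S36/SmallKR.lean`), `hVloc` helper91 (`S36/N2LocMain.lean`).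
-/

set_option autoImplicit false
set_option linter.style.haveILetI false
set_option linter.unusedSectionVars false
set_option linter.unusedVariables false
set_option linter.constructorNameAsVariable false
set_option linter.style.longLine false

noncomputable section

namespace Fermat.Agent.S36

open ModularCurve AlgebraicCurve Fermat.Agent.INJ Fermat.Agent.UNIP Fermat.Agent.STB
  IntermediateField

/-- **(I6)(b)**: `S36PtInput` at the closed points of the chart `j` on `C_c` only. -/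
theorem stmtS36PtsOne_c : StmtS36PtsOne S36Comp.c :=
  stmtS36PtsOne_c_of (fun M q _ _ hq hR A hA _ ζ hζ ιC ιK h 𝔫 hthr =>
    s36cgen_c M hq hA hR.1 hζ ιC h (s36so_rigid_h2 hR) (s36so_rigid_h3 hR) 𝔫 hthr)

end Fermat.Agent.S36

end
end ZBS36_033_7

/-! ### bundled: `Fermat.Agent.S36.PtsTripleKG` -/
section ZBS36_033_8

/-!
# S36 / (I6)(c): (Ka), (Kb), (Kc) for the chart homomorphisms `g_a`, `g_b` (helper37)

Setting of `S36/N2Val.lean` + Frobenius lift `ψA ψE θ`; `C = integralClosure A[j] F_M`,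
`B = integralClosure A[j] F_{Mqq}`, `g_a = s36n2kGa`, `g_b = s36n2kGb` (helper99,
`S36/N2KerF1b.lean`).

* `s36ptkPsi2`    : `ψ₂ : C → C`, the Frobenius lift applied twice (`nodesFrobInstLift`);
* `s36ptk_mem`    : the elements of `C` lie in the Gauss ring;
* **`s36ptk_Ka_G`, `s36ptk_Kb_G`, `s36ptk_Kc_G`** : the hypotheses `hKa`, `hKb`, `hKc` of
  `s36pt_atPt` with `Q₂ = q ^ 2`.
-/

set_option autoImplicit false
set_option linter.unusedSectionVars false
set_option linter.unusedVariables false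
set_option linter.style.haveILetI false
set_option linter.style.longLine false

noncomputable section

namespace Fermat.Agent.S36

open ModularCurve Fermat.Agent.UNIP Fermat.Agent.INJ Fermat.Agent.AL Fermat.Agent.ES

section G

variable {A E k A' E' k' : Type*} [CommRing A] [IsDomain A] [WfDvdMonoid A] [Field E]
  [Algebra A E] [IsFractionRing A E] [Field k] [CommRing A'] [Field E'] [Field k']
  {r : A →+* k} {π : A} {ι' : A' →+* E'} {r' : A' →+* k'} {π' : A'}
  (hB : VtBase (algebraMap A E) r π) (hB' : VtBase ι' r' π')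
  (ψ : E →+* E') (ιC : E →+* ℂ) (ιK : E' →+* ℂ)
  {q M : ℕ} [NeZero q] [NeZero M] [NeZero (M * q)] [NeZero (M * q * q)]
  (hq : q.Prime) (hqM : ¬ q ∣ M)
  {ζ : E'ˣ} (h : S36MidEmb E' q M ζ) (z : A'ˣ) (hz : Units.map (ι' : A' →* E') z = ζ)
  [Algebra A (modularFunctionFieldFullC E M)]
  [IsScalarTower A E (modularFunctionFieldFullC E M)]
  [Algebra A (modularFunctionFieldFullC E (M * q * q))]
  [IsScalarTower A E (modularFunctionFieldFullC E (M * q * q))]
  (ψA : A →+* A) (ψE : E →+* E) (θ : k →+* k)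

/-- **`ψ₂`**: the (inverse) Frobenius lift, twice, on the chart `j` of level `M`. -/
def s36ptkPsi2 (hψ : ∀ a, ψE (algebraMap A E a) = algebraMap A E (ψA a))
    (c : ↥(integralClosure ↥(Algebra.adjoin A
      ({bgJ E M} : Set (modularFunctionFieldFullC E M))) (modularFunctionFieldFullC E M))) :
    ↥(integralClosure ↥(Algebra.adjoin A
      ({bgJ E M} : Set (modularFunctionFieldFullC E M))) (modularFunctionFieldFullC E M)) :=
  nodesFrobInstLift ψA ψE hψ (bgJ E M) (nodesFrobInst_J_fixed ψE)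
    (nodesFrobInstLift ψA ψE hψ (bgJ E M) (nodesFrobInst_J_fixed ψE) c)

theorem s36ptkPsi2_series (hψ : ∀ a, ψE (algebraMap A E a) = algebraMap A E (ψA a))
    (c : ↥(integralClosure ↥(Algebra.adjoin A
      ({bgJ E M} : Set (modularFunctionFieldFullC E M))) (modularFunctionFieldFullC E M))) :
    (((s36ptkPsi2 ψA ψE hψ c : ↥(integralClosure ↥(Algebra.adjoin A
        ({bgJ E M} : Set (modularFunctionFieldFullC E M))) (modularFunctionFieldFullC E M))) :
      modularFunctionFieldFullC E M) : LaurentSeries E) =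
      coeffMap ψE (coeffMap ψE ((c : modularFunctionFieldFullC E M) : LaurentSeries E)) := rfl

include hB in
/-- the elements of the chart `j` of level `M` lie in the Gauss ring -/
theorem s36ptk_mem
    (c : ↥(integralClosure ↥(Algebra.adjoin A
      ({bgJ E M} : Set (modularFunctionFieldFullC E M))) (modularFunctionFieldFullC E M))) :
    ((c : modularFunctionFieldFullC E M) : LaurentSeries E) ∈ gaussRing (algebraMap A E) r :=
  s36n2k_hCV hB M (bgJ E M) (nodesFrobInst_J_mem r) c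

/-- **(Ka)** for `g_a`, `g_b`. -/
theorem s36ptk_Ka_G [Fact q.Prime] [CharP k q]
    (hψ : ∀ a, ψE (algebraMap A E a) = algebraMap A E (ψA a))
    (hθ : ∀ a, r (ψA a) = θ (r a)) (hθq : ∀ x, θ x ^ q = x)
    (c : ↥(integralClosure ↥(Algebra.adjoin A
      ({bgJ E M} : Set (modularFunctionFieldFullC E M))) (modularFunctionFieldFullC E M))) :
    ((s36n2kGb A E ιC hq hqM c : ↥(integralClosure ↥(Algebra.adjoin A
      ({bgJ E (M * q * q)} : Set (modularFunctionFieldFullC E (M * q * q))))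
        (modularFunctionFieldFullC E (M * q * q)))) : modularFunctionFieldFullC E (M * q * q)) -
      ((s36n2kGa A E (M := M) (q := q) (s36ptkPsi2 ψA ψE hψ c) :
        ↥(integralClosure ↥(Algebra.adjoin A
          ({bgJ E (M * q * q)} : Set (modularFunctionFieldFullC E (M * q * q))))
            (modularFunctionFieldFullC E (M * q * q)))) :
        modularFunctionFieldFullC E (M * q * q)) ^ (q ^ 2) ∈
      (s36n2VA (q := q) (M := M) hB).nonunits :=
  s36ptk_Ka hB ψA ψE θ hψ hθ hθq (s36ptk_mem hB c) _ _ (s36n2kGb_series A E ιC hq hqM c)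
    ((s36n2kGa_series A E (s36ptkPsi2 ψA ψE hψ c)).trans (s36ptkPsi2_series ψA ψE hψ c))

/-- **(Kb)** for `g_a`, `g_b`. -/
theorem s36ptk_Kb_G [Fact q.Prime] [CharP k q]
    (hψ : ∀ a, ψE (algebraMap A E a) = algebraMap A E (ψA a))
    (hθ : ∀ a, r (ψA a) = θ (r a)) (hθq : ∀ x, θ x ^ q = x)
    (c : ↥(integralClosure ↥(Algebra.adjoin A
      ({bgJ E M} : Set (modularFunctionFieldFullC E M))) (modularFunctionFieldFullC E M))) :
    ((s36n2kGa A E (M := M) (q := q) c : ↥(integralClosure ↥(Algebra.adjoin A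
      ({bgJ E (M * q * q)} : Set (modularFunctionFieldFullC E (M * q * q))))
        (modularFunctionFieldFullC E (M * q * q)))) : modularFunctionFieldFullC E (M * q * q)) -
      ((s36n2kGb A E ιC hq hqM (s36ptkPsi2 ψA ψE hψ c) :
        ↥(integralClosure ↥(Algebra.adjoin A
          ({bgJ E (M * q * q)} : Set (modularFunctionFieldFullC E (M * q * q))))
            (modularFunctionFieldFullC E (M * q * q)))) :
        modularFunctionFieldFullC E (M * q * q)) ^ (q ^ 2) ∈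
      (s36n2VB hB ιC hq hqM).nonunits :=
  s36ptk_Kb hB ιC hq hqM ψA ψE θ hψ hθ hθq (c : modularFunctionFieldFullC E M).2
    (s36ptk_mem hB c) _ _ (s36n2kGa_series A E c)
    ((s36n2kGb_series A E ιC hq hqM (s36ptkPsi2 ψA ψE hψ c)).trans
      (by rw [s36ptkPsi2_series]))

include ιK hB in
/-- **(Kc)** for `g_a`, `g_b`. -/
theorem s36ptk_Kc_G {κ : k →+* k'} (hcomp : VtCompat (algebraMap A E) r ι' r' ψ κ)
    (hζq : ζ ^ q = 1) (hz1 : r' (z : A') = 1)
    (c : ↥(integralClosure ↥(Algebra.adjoin A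
      ({bgJ E M} : Set (modularFunctionFieldFullC E M))) (modularFunctionFieldFullC E M))) :
    ((s36n2kGb A E ιC hq hqM c : ↥(integralClosure ↥(Algebra.adjoin A
      ({bgJ E (M * q * q)} : Set (modularFunctionFieldFullC E (M * q * q))))
        (modularFunctionFieldFullC E (M * q * q)))) : modularFunctionFieldFullC E (M * q * q)) -
      ((s36n2kGa A E (M := M) (q := q) c : ↥(integralClosure ↥(Algebra.adjoin A
        ({bgJ E (M * q * q)} : Set (modularFunctionFieldFullC E (M * q * q))))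
          (modularFunctionFieldFullC E (M * q * q)))) :
        modularFunctionFieldFullC E (M * q * q)) ∈
      (s36n2VC hB' ψ hq h z hz).nonunits :=
  s36ptk_Kc hB' ψ ιK hq hqM h z hz hcomp hζq hz1 (c : modularFunctionFieldFullC E M).2
    (s36ptk_mem hB c) _ _ (s36n2kGb_series A E ιC hq hqM c) (s36n2kGa_series A E c)

end G

/-! ### the concrete family `V = s36i1V` -/

section Concrete

open Fermat.Agent.STB

variable {q : ℕ} {A : ValuationSubring (AlgebraicClosure ℚ)} (M : ℕ) [NeZero M] [NeZero q]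
  [IsDiscreteValuationRing ↥(beta0Ring A (beta0Field A))]
  {ζ : AlgebraicClosure ℚ}
  (hq : q.Prime) (hA : A.LiesOverPrime q) (hqM : ¬ q ∣ M) (hζ : IsPrimitiveRoot ζ q)
  (ιC : ↥(beta0Field A) →+* ℂ)
  (h : S36MidEmb ↥(s36n2bK A ζ) q M (s36i1ZK (A := A) hq hζ))

set_option maxHeartbeats 3200000 in
/-- **`ψ₂`, (Ka), (Kb), (Kc) at the concrete family** `V = s36i1V`, for `g_a = s36n2kGa`,
`g_b = s36n2kGb`: the hypotheses `ψ₂ hKa hKb hKc` of `s36pt_hPt_of` with `Q₂ = q ^ 2`. -/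
theorem s36ptk_conc (ιK : ↥(s36n2bK A ζ) →+* ℂ) :
    ∃ ψ₂ : ↥(integralClosure ↥(Algebra.adjoin ↥(beta0Ring A (beta0Field A))
        ({bgJ ↥(beta0Field A) M} : Set ↥(modularFunctionFieldFullC ↥(beta0Field A) M)))
          ↥(modularFunctionFieldFullC ↥(beta0Field A) M)) →
      ↥(integralClosure ↥(Algebra.adjoin ↥(beta0Ring A (beta0Field A))
        ({bgJ ↥(beta0Field A) M} : Set ↥(modularFunctionFieldFullC ↥(beta0Field A) M)))
          ↥(modularFunctionFieldFullC ↥(beta0Field A) M)),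
      (∀ c, ((s36n2kGb ↥(beta0Ring A (beta0Field A)) ↥(beta0Field A) ιC hq hqM c :
            ↥(integralClosure ↥(Algebra.adjoin ↥(beta0Ring A (beta0Field A))
              ({bgJ ↥(beta0Field A) (M * q * q)} :
                Set ↥(modularFunctionFieldFullC ↥(beta0Field A) (M * q * q))))
              ↥(modularFunctionFieldFullC ↥(beta0Field A) (M * q * q)))) :
            ↥(modularFunctionFieldFullC ↥(beta0Field A) (M * q * q))) -
          ((s36n2kGa ↥(beta0Ring A (beta0Field A)) ↥(beta0Field A) (M := M) (q := q) (ψ₂ c) :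
            ↥(integralClosure ↥(Algebra.adjoin ↥(beta0Ring A (beta0Field A))
              ({bgJ ↥(beta0Field A) (M * q * q)} :
                Set ↥(modularFunctionFieldFullC ↥(beta0Field A) (M * q * q))))
              ↥(modularFunctionFieldFullC ↥(beta0Field A) (M * q * q)))) :
            ↥(modularFunctionFieldFullC ↥(beta0Field A) (M * q * q))) ^ (q ^ 2) ∈
          (s36i1V M hq hA hqM hζ ιC h S36Comp.a).nonunits) ∧
      (∀ c, ((s36n2kGa ↥(beta0Ring A (beta0Field A)) ↥(beta0Field A) (M := M) (q := q) c :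
            ↥(integralClosure ↥(Algebra.adjoin ↥(beta0Ring A (beta0Field A))
              ({bgJ ↥(beta0Field A) (M * q * q)} :
                Set ↥(modularFunctionFieldFullC ↥(beta0Field A) (M * q * q))))
              ↥(modularFunctionFieldFullC ↥(beta0Field A) (M * q * q)))) :
            ↥(modularFunctionFieldFullC ↥(beta0Field A) (M * q * q))) -
          ((s36n2kGb ↥(beta0Ring A (beta0Field A)) ↥(beta0Field A) ιC hq hqM (ψ₂ c) :
            ↥(integralClosure ↥(Algebra.adjoin ↥(beta0Ring A (beta0Field A))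
              ({bgJ ↥(beta0Field A) (M * q * q)} :
                Set ↥(modularFunctionFieldFullC ↥(beta0Field A) (M * q * q))))
              ↥(modularFunctionFieldFullC ↥(beta0Field A) (M * q * q)))) :
            ↥(modularFunctionFieldFullC ↥(beta0Field A) (M * q * q))) ^ (q ^ 2) ∈
          (s36i1V M hq hA hqM hζ ιC h S36Comp.b).nonunits) ∧
      (∀ c, ((s36n2kGb ↥(beta0Ring A (beta0Field A)) ↥(beta0Field A) ιC hq hqM c :
            ↥(integralClosure ↥(Algebra.adjoin ↥(beta0Ring A (beta0Field A))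
              ({bgJ ↥(beta0Field A) (M * q * q)} :
                Set ↥(modularFunctionFieldFullC ↥(beta0Field A) (M * q * q))))
              ↥(modularFunctionFieldFullC ↥(beta0Field A) (M * q * q)))) :
            ↥(modularFunctionFieldFullC ↥(beta0Field A) (M * q * q))) -
          ((s36n2kGa ↥(beta0Ring A (beta0Field A)) ↥(beta0Field A) (M := M) (q := q) c :
            ↥(integralClosure ↥(Algebra.adjoin ↥(beta0Ring A (beta0Field A))
              ({bgJ ↥(beta0Field A) (M * q * q)} :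
                Set ↥(modularFunctionFieldFullC ↥(beta0Field A) (M * q * q))))
              ↥(modularFunctionFieldFullC ↥(beta0Field A) (M * q * q)))) :
            ↥(modularFunctionFieldFullC ↥(beta0Field A) (M * q * q))) ∈
          (s36i1V M hq hA hqM hζ ιC h S36Comp.c).nonunits) := by
  have hπ : Irreducible ((q : ℕ) : ↥(beta0Ring A (beta0Field A))) :=
    beta0Ring_irreducible_q hq hA
  haveI : Fact q.Prime := ⟨hq⟩
  haveI : CharP (IsLocalRing.ResidueField ↥(beta0Ring A (beta0Field A))) q := mgvl_charP hq hA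
  obtain ⟨φ, hφF⟩ := Fermat.Agent.Common.exists_isFrobeniusAt_of_liesOverPrime q hq A hA
  have hφ : ∀ x ∈ beta0Field A, φ x ∈ beta0Field A :=
    stb_stable_beta0 hφF.mem_decompositionSubgroup
  obtain ⟨κ, -, hκ⟩ := s36n2b_compat (A := A) (ζ := ζ) hq hA
  refine ⟨s36ptkPsi2
    ((stbLiftA hφF hφ).symm : ↥(beta0Ring A (beta0Field A)) →+* ↥(beta0Ring A (beta0Field A)))
    ((mgaRestrictEquiv (beta0Field A) φ hφ).symm : ↥(beta0Field A) →+* ↥(beta0Field A))
    (stbLift_hψ' hφF hφ), fun c => ?_, fun c => ?_, fun c => ?_⟩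
  · exact s36ptk_Ka_G (vtBase_residue hπ) ιC hq hqM _ _ (stbLiftTheta hφF hφ)
      (stbLift_hψ' hφF hφ) (stbLift_hθ hφF hφ) (stbLift_hθq hφF hφ) c
  · exact s36ptk_Kb_G (vtBase_residue hπ) ιC hq hqM _ _ (stbLiftTheta hφF hφ)
      (stbLift_hψ' hφF hφ) (stbLift_hθ hφF hφ) (stbLift_hθq hφF hφ) c
  · exact s36ptk_Kc_G (vtBase_residue hπ) (s36n2b_vtBase hq hA hζ)
      (IntermediateField.inclusion (s36n2b_le_K A ζ)).toRingHom ιC ιK hq hqM h
      (s36i1Z hq hζ) rfl hκ (s36i1c_zeta_pow hq hζ) (s36n2b_residue_zeta hq hA hζ) c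

end Concrete

end Fermat.Agent.S36

end


end ZBS36_033_8

/-! ### bundled: `Fermat.Agent.S36.PtsTripleLvM` -/
section ZBS36_033_9

/-!
# S36 / (I6)(c), piece (c-LVM): the level-`M` inputs of `s36pt_hPt_of`, and the assembly (helper6)

## Generic part (setting of `S36/N2KerF1b.lean`, section `G`, with `A₀` a DVR)
* `s36ptl_comap_isMaximal_gen` : `𝔫.comap g_a` is maximal (`g_a = s36n2kGa` is integral);
* `s36ptl_gen_gen` : **reg**: if the chart `j` of level `M` is regular along its special fibre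
  (`RegChart π (bgJ E M)`), then at every maximal ideal `𝔫 ∋ π` of the chart `j` of level `M q²`
  there is `s` with `g_a s ∈ 𝔫` and `NodesLocGen (𝔫.comap g_a) {π, s}`.

## Concrete part (setting of `S36/PtsTripleInst.lean`)
`A₀ = beta0Ring A E₀`, `E₀ = beta0Field A`, `F = F_{M q²}(E₀)`, `V = s36i1V M hq hA hqM hζ ιC h`.
The chart homomorphisms of helper99 (`S36/N2KerF1b.lean`), between the charts in the form
`zchClosure` (in the concrete context the class `CommRing` is NOT found for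
`↥(integralClosure A₀[j] F_M)`, but it is for `↥(zchClosure {j})`):

    s36ptlGa M           = s36n2kGa A₀ E₀           : zchClosure {j_M} →+* zchClosure {j_{Mqq}},
    s36ptlGb M hq hqM ιC = s36n2kGb A₀ E₀ ιC hq hqM : zchClosure {j_M} →+* zchClosure {j_{Mqq}}.

* `s36ptl_hgaπ`, `s36ptl_hgbπ` : `ga q = q`, `gb q = q`;
* `s36ptl_hFa`, `s36ptl_hFb`, `s36ptl_hFc` : (F1) (helper99 `s36n2kv_F1_a/_b/_c`) in the shape of
  `hFa hFb hFc` of `s36pt_hPt_of`;
* **`s36ptl_gen`** : reg = `∃ s, ga s ∈ 𝔫 ∧ NodesLocGen (𝔫.comap ga) {q, s}`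
  (= the hypotheses `hs hgen` of `s36pt_hPt_of`), from `h2 : q = 2 → 3 ∣ M`, `h3 : q = 3 → 2 ∣ M`;
* `s36ptl_K` : `ψ₂`, (Ka), (Kb), (Kc) (helper37 `s36ptk_conc`) in the shape of `hKa hKb hKc`;
* `s36ptl_two_le`    : `2 ≤ q ^ 2`;
* **`s36ptl_hPt_of`** : `s36pt_hPt_of` with (I2) `hKR` (helper98 `s36sk_hKR`), the level-`M` data
  and the Frobenius congruences DISCHARGED; left: `hthr`, `hreg`, `hNα`, `hNβ`.
-/

set_option autoImplicit false
set_option linter.unusedSectionVars false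
set_option linter.unusedVariables false
set_option linter.style.haveILetI false
set_option linter.style.longLine false
set_option linter.constructorNameAsVariable false
set_option synthInstance.maxHeartbeats 400000
set_option maxHeartbeats 1000000

noncomputable section

namespace Fermat.Agent.S36

open ModularCurve AlgebraicCurve Fermat.Agent.ES Fermat.Agent.ES.G2 Fermat.Agent.INJ
open Fermat.Agent.UNIP Fermat.Agent.STB IntermediateField

/-! ## Generic part -/

section Gen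

universe u

variable {A₀ E : Type u} [CommRing A₀] [IsDomain A₀] [IsDiscreteValuationRing A₀]
  [Field E] [Algebra A₀ E] [IsFractionRing A₀ E] [CharZero E]
  {M q : ℕ} [NeZero q] [NeZero M] [NeZero (M * q)] [NeZero (M * q * q)]
  [Algebra A₀ (modularFunctionFieldFullC E M)]
  [IsScalarTower A₀ E (modularFunctionFieldFullC E M)]
  [Algebra A₀ (modularFunctionFieldFullC E (M * q * q))]
  [IsScalarTower A₀ E (modularFunctionFieldFullC E (M * q * q))]
  {π : A₀}

/-- `𝔫.comap g_a` is a maximal ideal of the chart of level `M`. -/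
theorem s36ptl_comap_isMaximal_gen
    (𝔫 : Ideal ↥(integralClosure ↥(Algebra.adjoin A₀
      ({bgJ E (M * q * q)} : Set (modularFunctionFieldFullC E (M * q * q))))
        (modularFunctionFieldFullC E (M * q * q))))
    (h𝔫 : 𝔫.IsMaximal) :
    (𝔫.comap (s36n2kGa A₀ E (M := M) (q := q))).IsMaximal :=
  haveI := h𝔫
  Ideal.isMaximal_comap_of_isIntegral_of_isMaximal' (s36n2kGa A₀ E (M := M) (q := q))
    (s36n2kGa_isIntegral A₀ E) 𝔫

/-- **reg**, generic: the point of level `M` under `𝔫` is generated, locally, by `π` and one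
more element. -/
theorem s36ptl_gen_gen (h : RegChart (E := E) π (bgJ E M))
    (𝔫 : Ideal ↥(integralClosure ↥(Algebra.adjoin A₀
      ({bgJ E (M * q * q)} : Set (modularFunctionFieldFullC E (M * q * q))))
        (modularFunctionFieldFullC E (M * q * q))))
    (h𝔫 : 𝔫.IsMaximal)
    (hπ𝔫 : algebraMap A₀ ↥(integralClosure ↥(Algebra.adjoin A₀
      ({bgJ E (M * q * q)} : Set (modularFunctionFieldFullC E (M * q * q))))
        (modularFunctionFieldFullC E (M * q * q))) π ∈ 𝔫) :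
    ∃ s : ↥(integralClosure ↥(Algebra.adjoin A₀
      ({bgJ E M} : Set (modularFunctionFieldFullC E M))) (modularFunctionFieldFullC E M)),
      s36n2kGa A₀ E (M := M) (q := q) s ∈ 𝔫 ∧
      NodesLocGen (𝔫.comap (s36n2kGa A₀ E (M := M) (q := q)))
        {algebraMap A₀ ↥(integralClosure ↥(Algebra.adjoin A₀
      ({bgJ E M} : Set (modularFunctionFieldFullC E M))) (modularFunctionFieldFullC E M)) π, s} := by
  have hmax := s36ptl_comap_isMaximal_gen (M := M) (q := q) 𝔫 h𝔫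
  have hπ : algebraMap A₀ ↥(integralClosure ↥(Algebra.adjoin A₀
      ({bgJ E M} : Set (modularFunctionFieldFullC E M))) (modularFunctionFieldFullC E M)) π ∈
      𝔫.comap (s36n2kGa A₀ E (M := M) (q := q)) := by
    rw [Ideal.mem_comap, s36n2kGa_algebraMap]
    exact hπ𝔫
  obtain ⟨s, hs, hgen⟩ := h.locGen _ hmax hπ
  exact ⟨s, hs, hgen⟩

end Gen

/-! ## Concrete part -/

section LvM

variable {q : ℕ} {A : ValuationSubring (AlgebraicClosure ℚ)} (M : ℕ) [NeZero M] [NeZero q]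
  [IsDiscreteValuationRing ↥(beta0Ring A (beta0Field A))]
  {ζ : AlgebraicClosure ℚ}
  (hq : q.Prime) (hA : A.LiesOverPrime q) (hqM : ¬ q ∣ M) (hζ : IsPrimitiveRoot ζ q)
  (ιC : ↥(beta0Field A) →+* ℂ)
  (h : S36MidEmb ↥(s36n2bK A ζ) q M (s36i1ZK (A := A) hq hζ))

include hq in
/-- `2 ≤ q ^ 2` -/
theorem s36ptl_two_le : 2 ≤ q ^ 2 := by
  have h1 : 2 ≤ q := hq.two_le
  nlinarith

/-- **`g_a`** (helper99 `s36n2kGa`) between the charts in the form `zchClosure`. -/
def s36ptlGa : ↥(zchClosure (A₀ := ↥(beta0Ring A (beta0Field A)))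
        ({bgJ ↥(beta0Field A) M} : Set ↥(modularFunctionFieldFullC ↥(beta0Field A) M))) →+*
    ↥(zchClosure (A₀ := ↥(beta0Ring A (beta0Field A)))
        ({bgJ ↥(beta0Field A) (M * q * q)} :
          Set ↥(modularFunctionFieldFullC ↥(beta0Field A) (M * q * q)))) :=
  s36n2kGa ↥(beta0Ring A (beta0Field A)) ↥(beta0Field A) (M := M) (q := q)

/-- **`g_b`** (helper99 `s36n2kGb`) between the charts in the form `zchClosure`. -/
def s36ptlGb : ↥(zchClosure (A₀ := ↥(beta0Ring A (beta0Field A)))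
        ({bgJ ↥(beta0Field A) M} : Set ↥(modularFunctionFieldFullC ↥(beta0Field A) M))) →+*
    ↥(zchClosure (A₀ := ↥(beta0Ring A (beta0Field A)))
        ({bgJ ↥(beta0Field A) (M * q * q)} :
          Set ↥(modularFunctionFieldFullC ↥(beta0Field A) (M * q * q)))) :=
  s36n2kGb ↥(beta0Ring A (beta0Field A)) ↥(beta0Field A) ιC hq hqM

/-! ### the uniformizer -/

/-- `g_a q = q` -/
theorem s36ptl_hgaπ :
    s36ptlGa (A := A) (q := q) M (algebraMap ↥(beta0Ring A (beta0Field A)) _ ((q : ℕ) : ↥(beta0Ring A (beta0Field A)))) =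
      algebraMap ↥(beta0Ring A (beta0Field A)) _ ((q : ℕ) : ↥(beta0Ring A (beta0Field A))) :=
  s36n2kGa_algebraMap ↥(beta0Ring A (beta0Field A)) ↥(beta0Field A) (M := M) (q := q) _

/-- `g_b q = q` -/
theorem s36ptl_hgbπ :
    s36ptlGb (A := A) M hq hqM ιC (algebraMap ↥(beta0Ring A (beta0Field A)) _ ((q : ℕ) : ↥(beta0Ring A (beta0Field A)))) =
      algebraMap ↥(beta0Ring A (beta0Field A)) _ ((q : ℕ) : ↥(beta0Ring A (beta0Field A))) :=
  s36n2kGb_algebraMap ↥(beta0Ring A (beta0Field A)) ↥(beta0Field A) ιC hq hqM _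

/-! ### (F1) -/

include hq hA hqM hζ ιC h in
/-- **(F1) at `V_a`** = `hFa` of `s36pt_hPt_of`. -/
theorem s36ptl_hFa (h2 : q = 2 → 3 ∣ M) (h3 : q = 3 → 2 ∣ M) (ιK : ↥(s36n2bK A ζ) →+* ℂ)
    (b : ↥(zchClosure (A₀ := ↥(beta0Ring A (beta0Field A)))
        ({bgJ ↥(beta0Field A) (M * q * q)} :
          Set ↥(modularFunctionFieldFullC ↥(beta0Field A) (M * q * q))))) :
    ∃ c : ↥(zchClosure (A₀ := ↥(beta0Ring A (beta0Field A)))
        ({bgJ ↥(beta0Field A) M} : Set ↥(modularFunctionFieldFullC ↥(beta0Field A) M))),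
      (b : ↥(modularFunctionFieldFullC ↥(beta0Field A) (M * q * q))) -
        (s36ptlGa (A := A) (q := q) M c : ↥(modularFunctionFieldFullC ↥(beta0Field A) (M * q * q))) ∈
        (s36i1V M hq hA hqM hζ ιC h S36Comp.a).nonunits :=
  s36n2kv_F1_a M hq hA hqM hζ ιC h h2 h3 ιK b

include hq hA hqM hζ ιC h in
/-- **(F1) at `V_b`** = `hFb` of `s36pt_hPt_of`. -/
theorem s36ptl_hFb (h2 : q = 2 → 3 ∣ M) (h3 : q = 3 → 2 ∣ M) (ιK : ↥(s36n2bK A ζ) →+* ℂ)
    (b : ↥(zchClosure (A₀ := ↥(beta0Ring A (beta0Field A)))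
        ({bgJ ↥(beta0Field A) (M * q * q)} :
          Set ↥(modularFunctionFieldFullC ↥(beta0Field A) (M * q * q))))) :
    ∃ c : ↥(zchClosure (A₀ := ↥(beta0Ring A (beta0Field A)))
        ({bgJ ↥(beta0Field A) M} : Set ↥(modularFunctionFieldFullC ↥(beta0Field A) M))),
      (b : ↥(modularFunctionFieldFullC ↥(beta0Field A) (M * q * q))) -
        (s36ptlGb (A := A) M hq hqM ιC c : ↥(modularFunctionFieldFullC ↥(beta0Field A) (M * q * q))) ∈
        (s36i1V M hq hA hqM hζ ιC h S36Comp.b).nonunits :=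
  s36n2kv_F1_b M hq hA hqM hζ ιC h h2 h3 ιK b

include hq hA hqM hζ ιC h in
/-- **(F1) at `V_c`** = `hFc` of `s36pt_hPt_of`. -/
theorem s36ptl_hFc (h2 : q = 2 → 3 ∣ M) (h3 : q = 3 → 2 ∣ M) (ιK : ↥(s36n2bK A ζ) →+* ℂ)
    (b : ↥(zchClosure (A₀ := ↥(beta0Ring A (beta0Field A)))
        ({bgJ ↥(beta0Field A) (M * q * q)} :
          Set ↥(modularFunctionFieldFullC ↥(beta0Field A) (M * q * q))))) :
    ∃ c : ↥(zchClosure (A₀ := ↥(beta0Ring A (beta0Field A)))
        ({bgJ ↥(beta0Field A) M} : Set ↥(modularFunctionFieldFullC ↥(beta0Field A) M))),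
      (b : ↥(modularFunctionFieldFullC ↥(beta0Field A) (M * q * q))) -
        (s36ptlGa (A := A) (q := q) M c : ↥(modularFunctionFieldFullC ↥(beta0Field A) (M * q * q))) ∈
        (s36i1V M hq hA hqM hζ ιC h S36Comp.c).nonunits :=
  s36n2kv_F1_c M hq hA hqM hζ ιC h h2 h3 ιK b

/-! ### reg -/

include hq hA hqM in
/-- **reg** = `hs`, `hgen` of `s36pt_hPt_of`: the point of level `M` under `𝔫` is generated,
locally, by `q` and one more element. -/
theorem s36ptl_gen (h2 : q = 2 → 3 ∣ M) (h3 : q = 3 → 2 ∣ M)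
    (𝔫 : AtPt (F := ↥(modularFunctionFieldFullC ↥(beta0Field A) (M * q * q)))
      ((q : ℕ) : ↥(beta0Ring A (beta0Field A))) (bgJ ↥(beta0Field A) (M * q * q))) :
    ∃ s : ↥(zchClosure (A₀ := ↥(beta0Ring A (beta0Field A)))
        ({bgJ ↥(beta0Field A) M} : Set ↥(modularFunctionFieldFullC ↥(beta0Field A) M))),
      s36ptlGa (A := A) (q := q) M s ∈ 𝔫.1 ∧
      NodesLocGen (𝔫.1.comap (s36ptlGa (A := A) (q := q) M))
        {algebraMap ↥(beta0Ring A (beta0Field A)) _ ((q : ℕ) : ↥(beta0Ring A (beta0Field A))), s} :=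
  s36ptl_gen_gen (M := M) (q := q) (s36n2kv_reg M hq hA hqM h2 h3) 𝔫.1 𝔫.2.1 𝔫.2.2

/-! ### the Frobenius congruences -/

include hq hA hqM hζ ιC h in
/-- **`ψ₂`, (Ka), (Kb), (Kc)** (helper37 `s36ptk_conc`) = `ψ₂ hKa hKb hKc` of `s36pt_hPt_of`,
`Q₂ = q ^ 2`. -/
theorem s36ptl_K (ιK : ↥(s36n2bK A ζ) →+* ℂ) :
    ∃ ψ₂ : ↥(zchClosure (A₀ := ↥(beta0Ring A (beta0Field A)))
        ({bgJ ↥(beta0Field A) M} : Set ↥(modularFunctionFieldFullC ↥(beta0Field A) M))) →
      ↥(zchClosure (A₀ := ↥(beta0Ring A (beta0Field A)))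
        ({bgJ ↥(beta0Field A) M} : Set ↥(modularFunctionFieldFullC ↥(beta0Field A) M))),
      (∀ c, ((s36ptlGb (A := A) M hq hqM ιC c : _) : ↥(modularFunctionFieldFullC ↥(beta0Field A) (M * q * q))) -
          (s36ptlGa (A := A) (q := q) M (ψ₂ c) : _) ^ (q ^ 2) ∈
          (s36i1V M hq hA hqM hζ ιC h S36Comp.a).nonunits) ∧
      (∀ c, ((s36ptlGa (A := A) (q := q) M c : _) : ↥(modularFunctionFieldFullC ↥(beta0Field A) (M * q * q))) -
          (s36ptlGb (A := A) M hq hqM ιC (ψ₂ c) : _) ^ (q ^ 2) ∈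
          (s36i1V M hq hA hqM hζ ιC h S36Comp.b).nonunits) ∧
      (∀ c, ((s36ptlGb (A := A) M hq hqM ιC c : _) : ↥(modularFunctionFieldFullC ↥(beta0Field A) (M * q * q))) -
          (s36ptlGa (A := A) (q := q) M c : _) ∈
          (s36i1V M hq hA hqM hζ ιC h S36Comp.c).nonunits) :=
  s36ptk_conc M hq hA hqM hζ ιC h ιK

/-! ### the assembly -/

include hq hA hqM hζ ιC h in
/-- **(c), assembled**: `hPt` of `s36pf_h1` at a triple point, from the elements `X, Y` of the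
thin node (`hreg`) and the two packages `NgLoc` only. -/
theorem s36ptl_hPt_of (h2 : q = 2 → 3 ∣ M) (h3 : q = 3 → 2 ∣ M) (ιK : ↥(s36n2bK A ζ) →+* ℂ)
    (𝔫 : AtPt (F := ↥(modularFunctionFieldFullC ↥(beta0Field A) (M * q * q)))
      ((q : ℕ) : ↥(beta0Ring A (beta0Field A))) (bgJ ↥(beta0Field A) (M * q * q)))
    (hthr : ∀ c, atThrough 𝔫 (s36i1V M hq hA hqM hζ ιC h c))
    (hreg : ∃ X Y : ↥(modularFunctionFieldFullC ↥(beta0Field A) (M * q * q)),
      X ∈ atLoc 𝔫 ∧ Y ∈ atLoc 𝔫 ∧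
      X * Y = algebraMap ↥(beta0Ring A (beta0Field A))
        ↥(modularFunctionFieldFullC ↥(beta0Field A) (M * q * q))
        ((q : ℕ) : ↥(beta0Ring A (beta0Field A))) ∧
      X ∈ (s36i1V M hq hA hqM hζ ιC h S36Comp.a).nonunits ∧
      (∀ x ∈ (s36i1V M hq hA hqM hζ ιC h S36Comp.a).nonunits,
        ∃ z ∈ s36i1V M hq hA hqM hζ ιC h S36Comp.a, x = X * z) ∧
      X⁻¹ ∈ s36i1V M hq hA hqM hζ ιC h S36Comp.b ∧
      X⁻¹ ∈ s36i1V M hq hA hqM hζ ιC h S36Comp.c)
    (m : ℕ) (ζ₁ : ↥(modularFunctionFieldFullC ↥(beta0Field A) (M * q)))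
    (hNα : ∃ Oα : Subring ↥(modularFunctionFieldFullC ↥(beta0Field A) (M * q)),
      NgLoc (s36Alpha ↥(beta0Field A) M q) (s36NormAlpha ↥(beta0Field A) M q)
        (s36i1V M hq hA hqM hζ ιC h S36Comp.a) (s36i1V M hq hA hqM hζ ιC h S36Comp.c) m ζ₁
        (atLoc 𝔫) Oα)
    (hNβ : ∃ Oβ : Subring ↥(modularFunctionFieldFullC ↥(beta0Field A) (M * q)),
      NgLoc (s36Beta ↥(beta0Field A) M q) (s36NormBeta ↥(beta0Field A) M q)
        (s36i1V M hq hA hqM hζ ιC h S36Comp.b) (s36i1V M hq hA hqM hζ ιC h S36Comp.c) m ζ₁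
        (atLoc 𝔫) Oβ) :
    @S36PtInput ↥(modularFunctionFieldFullC ↥(beta0Field A) (M * q))
      ↥(modularFunctionFieldFullC ↥(beta0Field A) (M * q * q)) _ _ S36Comp
      (s36Hor ↥(beta0Field A) m) m
      (s36Alpha ↥(beta0Field A) M q) (s36Beta ↥(beta0Field A) M q)
      (s36NormAlpha ↥(beta0Field A) M q) (s36NormBeta ↥(beta0Field A) M q) ζ₁
      (s36i1V M hq hA hqM hζ ιC h) S36Comp.a S36Comp.b S36Comp.c
      (atO ((q : ℕ) : ↥(beta0Ring A (beta0Field A))) (bgJ ↥(beta0Field A) (M * q * q))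
        (Sum.inl 𝔫))
      (stb_atO_isLocalRing (π := ((q : ℕ) : ↥(beta0Ring A (beta0Field A))))
        (bgJ ↥(beta0Field A) (M * q * q)) (Sum.inl 𝔫))
      (atInc ((q : ℕ) : ↥(beta0Ring A (beta0Field A))) (bgJ ↥(beta0Field A) (M * q * q))
        (s36i1V M hq hA hqM hζ ιC h) (Sum.inl 𝔫)) := by
  obtain ⟨s, hs, hgen⟩ := s36ptl_gen M hq hA hqM h2 h3 𝔫
  obtain ⟨ψ₂, hKa, hKb, hKc⟩ := s36ptl_K M hq hA hqM hζ ιC h ιK
  exact s36pt_hPt_of M hq hA hqM hζ ιC h (s36sk_hKR M hq hA hqM hζ ιC h h2 h3 ιK) 𝔫 hthr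
    (s36ptlGa (A := A) (q := q) M) (s36ptlGb (A := A) M hq hqM ιC)
    (s36ptl_hFa M hq hA hqM hζ ιC h h2 h3 ιK) (s36ptl_hFb M hq hA hqM hζ ιC h h2 h3 ιK)
    (s36ptl_hFc M hq hA hqM hζ ιC h h2 h3 ιK)
    (algebraMap ↥(beta0Ring A (beta0Field A)) _ ((q : ℕ) : ↥(beta0Ring A (beta0Field A)))) s
    (s36ptl_hgaπ M) (s36ptl_hgbπ M hq hqM ιC) hs hgen ψ₂ (s36ptl_two_le hq) hKa hKb hKc
    hreg m ζ₁ hNα hNβ

end LvM

end Fermat.Agent.S36

end


end ZBS36_033_9

/-! ### bundled: `Fermat.Agent.S36.PtsTripleNg` -/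
section ZBS36_033_10

/-!
# S36 / (I6)(c-NG) (helper50): the packages `NgLoc` at the TRIPLE points, concrete family

`hNα`, `hNβ` of `s36pt_hPt_of` (`S36/PtsTripleInst.lean`, helper37) at `V = s36i1V`, from
helper19's `s36ngl_alpha`, `s36ngl_beta` (`S36/NgLocInst.lean`).  The open hypotheses of these are
discharged here:

* `hWloc` : `mgv_hVloc₁` + (SS1) at level `M q` (`mgcb_reg_SS1_J`, `stb_regChart_conc_J`);
* `hGSa`, `hGSc` (along `α`) : helper99's (F1) `s36n2kv_F1_a`, `s36n2kv_F1_c`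
  (`s − g_a c ∈ 𝔪(V)`, `g_a c = α (incl c)`);
* `hGSb` (along `β`) : `s36n2kv_F1_b` (`s − g_b c ∈ 𝔪(V_b)`, `g_b c = β (w_q (incl c))`);
* `hGSc` (along `β`) : `s36n2kv_F1_c` + helper37's (Kc) `s36ptk_Kc_G` (`g_b c − g_a c ∈ 𝔪(V_c)`).

Results: `s36ptn_alpha`, `s36ptn_beta`.
-/

set_option autoImplicit false
set_option linter.style.haveILetI false
set_option linter.unusedSectionVars false
set_option linter.unusedVariables false
set_option linter.style.longLine false
set_option linter.constructorNameAsVariable false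
set_option synthInstance.maxHeartbeats 400000
set_option maxHeartbeats 1000000

noncomputable section

namespace Fermat.Agent.S36

open ModularCurve AlgebraicCurve Fermat.Agent.ES Fermat.Agent.ES.G2 Fermat.Agent.INJ
open Fermat.Agent.UNIP Fermat.Agent.STB Fermat.Agent.AL IntermediateField

section Elts

variable (A E : Type*) [CommRing A] [IsDomain A] [Field E] [Algebra A E] [IsFractionRing A E]
  (ιC : E →+* ℂ)
  {M q : ℕ} [NeZero q] [NeZero M] [NeZero (M * q)] [NeZero (M * q * q)]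
  (hq : q.Prime) (hqM : ¬ q ∣ M)
  [Algebra A (modularFunctionFieldFullC E M)]
  [IsScalarTower A E (modularFunctionFieldFullC E M)]
  [Algebra A (modularFunctionFieldFullC E (M * q))]
  [IsScalarTower A E (modularFunctionFieldFullC E (M * q))]
  [Algebra A (modularFunctionFieldFullC E (M * q * q))]
  [IsScalarTower A E (modularFunctionFieldFullC E (M * q * q))]

/-- `incl c` lies in the chart `j` of level `M q` -/
theorem s36ptn_isIntegral_incl {c : modularFunctionFieldFullC E M}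
    (hc : IsIntegral ↥(Algebra.adjoin A ({bgJ E M} : Set (modularFunctionFieldFullC E M))) c) :
    IsIntegral ↥(Algebra.adjoin A
      ({bgJ E (M * q)} : Set (modularFunctionFieldFullC E (M * q))))
      (nodesInstIncl E M q c) :=
  nodesInst_isIntegral_incl A M q (bgJ E M) hc

/-- `g_a c = α (incl c)` -/
theorem s36ptn_alpha_incl (c : modularFunctionFieldFullC E M) :
    s36Alpha E M q (nodesInstIncl E M q c) = s36n2kPsi A E M q c := rfl

include hq in
/-- `w_q (incl c)` lies in the chart `j` of level `M q` -/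
theorem s36ptn_isIntegral_w {c : modularFunctionFieldFullC E M}
    (hc : IsIntegral ↥(Algebra.adjoin A ({bgJ E M} : Set (modularFunctionFieldFullC E M))) c) :
    IsIntegral ↥(Algebra.adjoin A
      ({bgJ E (M * q)} : Set (modularFunctionFieldFullC E (M * q))))
      (atkinLehner E ιC hq hqM (nodesInstIncl E M q c)) := by
  have h1 := s36ptn_isIntegral_incl A E (q := q) hc
  have h2 := cusp_isIntegral_adjoin_map (A := A)
    ((atkinLehner E ιC hq hqM).toRingEquiv.toRingHom :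
      modularFunctionFieldFullC E (M * q) →+* modularFunctionFieldFullC E (M * q))
    (fun a => by
      rw [IsScalarTower.algebraMap_apply A E (modularFunctionFieldFullC E (M * q))]
      exact (atkinLehner E ιC hq hqM).commutes _) h1
  have e : bgJ E (M * q) = nodesFrobJ E M q := Subtype.ext rfl
  have h3 : IsIntegral ↥(Algebra.adjoin A
      ({bgJ E (M * q)} : Set (modularFunctionFieldFullC E (M * q))))
      ((atkinLehner E ιC hq hqM).toRingEquiv.toRingHom (bgJ E (M * q))) := by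
    show IsIntegral _ (atkinLehner E ιC hq hqM (bgJ E (M * q)))
    rw [e, nodesFrob_atkinLehner_J]
    exact nodesSwap_isIntegral_Jq (A := A) hq
  exact cusp_isIntegral_adjoin_trans h3 h2

/-- `g_b c = β (w_q (incl c))` -/
theorem s36ptn_beta_w (c : modularFunctionFieldFullC E M) :
    s36Beta E M q (atkinLehner E ιC hq hqM (nodesInstIncl E M q c)) =
      s36n2kPsiB A E ιC hq hqM c := by
  apply Subtype.ext
  rw [coe_s36Beta, s36n2kPsiB_coe]
  congr 1
  have e : nodesInstIncl E M q c = ⟨(c : LaurentSeries E), al_mem_of_mem_low E c.2⟩ :=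
    Subtype.ext (nodesInstIncl_coe M q c)
  rw [e]
  exact atkinLehner_of_mem_low E ιC hq hqM c.2

end Elts

section Conc

variable {q : ℕ} {A : ValuationSubring (AlgebraicClosure ℚ)} (M : ℕ) [NeZero M] [NeZero q]
  [IsDiscreteValuationRing ↥(beta0Ring A (beta0Field A))]
  {ζ : AlgebraicClosure ℚ}
  (hq : q.Prime) (hA : A.LiesOverPrime q) (hqM : ¬ q ∣ M) (hζ : IsPrimitiveRoot ζ q)
  (ιC : ↥(beta0Field A) →+* ℂ)
  (h : S36MidEmb ↥(s36n2bK A ζ) q M (s36i1ZK (A := A) hq hζ))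

include hA in
/-- **`hWloc`**: `V′_c` (`c : Bool`) is the localisation of the chart `j` of level `M q`. -/
theorem s36ptn_hWloc (h2 : q = 2 → 3 ∣ M) (h3 : q = 3 → 2 ∣ M) (c : Bool) :
    ∀ y ∈ vtFam (vtBase_residue (beta0Ring_irreducible_q hq hA)) ιC hq hqM c,
      ∃ b s : ↥(modularFunctionFieldFullC ↥(beta0Field A) (M * q)),
        IsIntegral ↥(Algebra.adjoin ↥(beta0Ring A (beta0Field A))
          ({bgJ ↥(beta0Field A) (M * q)} :
            Set ↥(modularFunctionFieldFullC ↥(beta0Field A) (M * q)))) b ∧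
        IsIntegral ↥(Algebra.adjoin ↥(beta0Ring A (beta0Field A))
          ({bgJ ↥(beta0Field A) (M * q)} :
            Set ↥(modularFunctionFieldFullC ↥(beta0Field A) (M * q)))) s ∧
        s ∉ (vtFam (vtBase_residue (beta0Ring_irreducible_q hq hA)) ιC hq hqM c).nonunits ∧
        s * y = b :=
  fun y hy => mgv_hVloc₁ (K₀ := beta0Field A) (beta0Ring_irreducible_q hq hA) ιC hq hqM hA
    (mgcb_reg_SS1_J (K₀ := beta0Field A) (beta0Ring_irreducible_q hq hA) ιC hq hqM hA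
      (s36n2kv_reg M hq hA hqM h2 h3)) c y hy

/-- **`hGSa` along `α`**: `B ⊆ α(B′) + 𝔪(V_a)`. -/
theorem s36ptn_hGS_alpha_a (h2 : q = 2 → 3 ∣ M) (h3 : q = 3 → 2 ∣ M)
    (ιK : ↥(s36n2bK A ζ) →+* ℂ)
    (s : ↥(modularFunctionFieldFullC ↥(beta0Field A) (M * q * q)))
    (hs : IsIntegral ↥(Algebra.adjoin ↥(beta0Ring A (beta0Field A))
      ({bgJ ↥(beta0Field A) (M * q * q)} :
        Set ↥(modularFunctionFieldFullC ↥(beta0Field A) (M * q * q)))) s) :
    ∃ r₁ : ↥(modularFunctionFieldFullC ↥(beta0Field A) (M * q)),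
      IsIntegral ↥(Algebra.adjoin ↥(beta0Ring A (beta0Field A))
        ({bgJ ↥(beta0Field A) (M * q)} :
          Set ↥(modularFunctionFieldFullC ↥(beta0Field A) (M * q)))) r₁ ∧
      s - s36Alpha ↥(beta0Field A) M q r₁ ∈
        (s36i1V M hq hA hqM hζ ιC h S36Comp.a).nonunits := by
  obtain ⟨c, hc⟩ := s36n2kv_F1_a M hq hA hqM hζ ιC h h2 h3 ιK ⟨s, hs⟩
  exact ⟨nodesInstIncl ↥(beta0Field A) M q (c : ↥(modularFunctionFieldFullC ↥(beta0Field A) M)),
    s36ptn_isIntegral_incl ↥(beta0Ring A (beta0Field A)) ↥(beta0Field A) c.2, hc⟩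

/-- **`hGSc` along `α`**: `B ⊆ α(B′) + 𝔪(V_c)`. -/
theorem s36ptn_hGS_alpha_c (h2 : q = 2 → 3 ∣ M) (h3 : q = 3 → 2 ∣ M)
    (ιK : ↥(s36n2bK A ζ) →+* ℂ)
    (s : ↥(modularFunctionFieldFullC ↥(beta0Field A) (M * q * q)))
    (hs : IsIntegral ↥(Algebra.adjoin ↥(beta0Ring A (beta0Field A))
      ({bgJ ↥(beta0Field A) (M * q * q)} :
        Set ↥(modularFunctionFieldFullC ↥(beta0Field A) (M * q * q)))) s) :
    ∃ r₁ : ↥(modularFunctionFieldFullC ↥(beta0Field A) (M * q)),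
      IsIntegral ↥(Algebra.adjoin ↥(beta0Ring A (beta0Field A))
        ({bgJ ↥(beta0Field A) (M * q)} :
          Set ↥(modularFunctionFieldFullC ↥(beta0Field A) (M * q)))) r₁ ∧
      s - s36Alpha ↥(beta0Field A) M q r₁ ∈
        (s36i1V M hq hA hqM hζ ιC h S36Comp.c).nonunits := by
  obtain ⟨c, hc⟩ := s36n2kv_F1_c M hq hA hqM hζ ιC h h2 h3 ιK ⟨s, hs⟩
  exact ⟨nodesInstIncl ↥(beta0Field A) M q (c : ↥(modularFunctionFieldFullC ↥(beta0Field A) M)),
    s36ptn_isIntegral_incl ↥(beta0Ring A (beta0Field A)) ↥(beta0Field A) c.2, hc⟩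

/-- **`hGSb` along `β`**: `B ⊆ β(B′) + 𝔪(V_b)`. -/
theorem s36ptn_hGS_beta_b (h2 : q = 2 → 3 ∣ M) (h3 : q = 3 → 2 ∣ M)
    (ιK : ↥(s36n2bK A ζ) →+* ℂ)
    (s : ↥(modularFunctionFieldFullC ↥(beta0Field A) (M * q * q)))
    (hs : IsIntegral ↥(Algebra.adjoin ↥(beta0Ring A (beta0Field A))
      ({bgJ ↥(beta0Field A) (M * q * q)} :
        Set ↥(modularFunctionFieldFullC ↥(beta0Field A) (M * q * q)))) s) :
    ∃ r₁ : ↥(modularFunctionFieldFullC ↥(beta0Field A) (M * q)),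
      IsIntegral ↥(Algebra.adjoin ↥(beta0Ring A (beta0Field A))
        ({bgJ ↥(beta0Field A) (M * q)} :
          Set ↥(modularFunctionFieldFullC ↥(beta0Field A) (M * q)))) r₁ ∧
      s - s36Beta ↥(beta0Field A) M q r₁ ∈
        (s36i1V M hq hA hqM hζ ιC h S36Comp.b).nonunits := by
  obtain ⟨c, hc⟩ := s36n2kv_F1_b M hq hA hqM hζ ιC h h2 h3 ιK ⟨s, hs⟩
  refine ⟨atkinLehner ↥(beta0Field A) ιC hq hqM
      (nodesInstIncl ↥(beta0Field A) M q (c : ↥(modularFunctionFieldFullC ↥(beta0Field A) M))),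
    s36ptn_isIntegral_w ↥(beta0Ring A (beta0Field A)) ↥(beta0Field A) ιC hq hqM c.2, ?_⟩
  rw [s36ptn_beta_w ↥(beta0Ring A (beta0Field A)) ↥(beta0Field A) ιC hq hqM]
  exact hc

/-- **`hGSc` along `β`**: `B ⊆ β(B′) + 𝔪(V_c)` (from (F1) for `(V_c, g_a)` and (Kc)). -/
theorem s36ptn_hGS_beta_c (h2 : q = 2 → 3 ∣ M) (h3 : q = 3 → 2 ∣ M)
    (ιK : ↥(s36n2bK A ζ) →+* ℂ)
    (s : ↥(modularFunctionFieldFullC ↥(beta0Field A) (M * q * q)))
    (hs : IsIntegral ↥(Algebra.adjoin ↥(beta0Ring A (beta0Field A))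
      ({bgJ ↥(beta0Field A) (M * q * q)} :
        Set ↥(modularFunctionFieldFullC ↥(beta0Field A) (M * q * q)))) s) :
    ∃ r₁ : ↥(modularFunctionFieldFullC ↥(beta0Field A) (M * q)),
      IsIntegral ↥(Algebra.adjoin ↥(beta0Ring A (beta0Field A))
        ({bgJ ↥(beta0Field A) (M * q)} :
          Set ↥(modularFunctionFieldFullC ↥(beta0Field A) (M * q)))) r₁ ∧
      s - s36Beta ↥(beta0Field A) M q r₁ ∈
        (s36i1V M hq hA hqM hζ ιC h S36Comp.c).nonunits := by
  have hπ : Irreducible ((q : ℕ) : ↥(beta0Ring A (beta0Field A))) :=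
    beta0Ring_irreducible_q hq hA
  obtain ⟨κ, -, hκ⟩ := s36n2b_compat (A := A) (ζ := ζ) hq hA
  obtain ⟨c, hc⟩ := s36n2kv_F1_c M hq hA hqM hζ ιC h h2 h3 ιK ⟨s, hs⟩
  have hK := s36ptk_Kc_G (vtBase_residue hπ) (s36n2b_vtBase hq hA hζ)
    (IntermediateField.inclusion (s36n2b_le_K A ζ)).toRingHom ιC ιK hq hqM h
    (s36i1Z hq hζ) rfl hκ (s36i1c_zeta_pow hq hζ) (s36n2b_residue_zeta hq hA hζ) c
  refine ⟨atkinLehner ↥(beta0Field A) ιC hq hqM
      (nodesInstIncl ↥(beta0Field A) M q (c : ↥(modularFunctionFieldFullC ↥(beta0Field A) M))),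
    s36ptn_isIntegral_w ↥(beta0Ring A (beta0Field A)) ↥(beta0Field A) ιC hq hqM c.2, ?_⟩
  rw [s36ptn_beta_w ↥(beta0Ring A (beta0Field A)) ↥(beta0Field A) ιC hq hqM]
  have hsum := s36n2k_add_mem_nonunits (s36i1V M hq hA hqM hζ ιC h S36Comp.c) hc
    (s36n2k_neg_mem_nonunits (s36i1V M hq hA hqM hζ ιC h S36Comp.c) hK)
  have e : s - s36n2kPsiB ↥(beta0Ring A (beta0Field A)) ↥(beta0Field A) ιC hq hqM
        (c : ↥(modularFunctionFieldFullC ↥(beta0Field A) M)) =
      (s - s36n2kPsi ↥(beta0Ring A (beta0Field A)) ↥(beta0Field A) M q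
        (c : ↥(modularFunctionFieldFullC ↥(beta0Field A) M))) +
      -(s36n2kPsiB ↥(beta0Ring A (beta0Field A)) ↥(beta0Field A) ιC hq hqM
          (c : ↥(modularFunctionFieldFullC ↥(beta0Field A) M)) -
        s36n2kPsi ↥(beta0Ring A (beta0Field A)) ↥(beta0Field A) M q
          (c : ↥(modularFunctionFieldFullC ↥(beta0Field A) M))) := by ring
  rw [e]
  exact hsum

/-- **`hζ₁`**: a constant of `A₀` lies in the chart `j` of level `M q`. -/
theorem s36ptn_const_isIntegral (ζm : ↥(beta0Ring A (beta0Field A))) :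
    IsIntegral ↥(Algebra.adjoin ↥(beta0Ring A (beta0Field A))
      ({bgJ ↥(beta0Field A) (M * q)} :
        Set ↥(modularFunctionFieldFullC ↥(beta0Field A) (M * q))))
      (algebraMap ↥(beta0Field A) ↥(modularFunctionFieldFullC ↥(beta0Field A) (M * q))
        (algebraMap ↥(beta0Ring A (beta0Field A)) ↥(beta0Field A) ζm)) := by
  rw [← IsScalarTower.algebraMap_apply ↥(beta0Ring A (beta0Field A)) ↥(beta0Field A)
    ↥(modularFunctionFieldFullC ↥(beta0Field A) (M * q))]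
  have h1 : algebraMap ↥(beta0Ring A (beta0Field A))
      ↥(modularFunctionFieldFullC ↥(beta0Field A) (M * q)) ζm =
      algebraMap ↥(Algebra.adjoin ↥(beta0Ring A (beta0Field A))
        ({bgJ ↥(beta0Field A) (M * q)} :
          Set ↥(modularFunctionFieldFullC ↥(beta0Field A) (M * q))))
        ↥(modularFunctionFieldFullC ↥(beta0Field A) (M * q))
        (algebraMap ↥(beta0Ring A (beta0Field A)) _ ζm) := rfl
  rw [h1]
  exact isIntegral_algebraMap

/-! ### the packages -/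

/-- **`hNα`** of `s36pt_hPt_of` / `s36ptl_hPt_of`: `NgLoc` for `α` at a triple point of the
chart `j`. -/
theorem s36ptn_alpha (h2 : q = 2 → 3 ∣ M) (h3 : q = 3 → 2 ∣ M) (ιK : ↥(s36n2bK A ζ) →+* ℂ)
    (𝔫 : AtPt (F := ↥(modularFunctionFieldFullC ↥(beta0Field A) (M * q * q)))
      ((q : ℕ) : ↥(beta0Ring A (beta0Field A))) (bgJ ↥(beta0Field A) (M * q * q)))
    (hthr : ∀ c, atThrough 𝔫 (s36i1V M hq hA hqM hζ ιC h c))
    {m : ℕ} (hm : 0 < m) (ζm : ↥(beta0Ring A (beta0Field A))) :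
    ∃ Oα : Subring ↥(modularFunctionFieldFullC ↥(beta0Field A) (M * q)),
      NgLoc (s36Alpha ↥(beta0Field A) M q) (s36NormAlpha ↥(beta0Field A) M q)
        (s36i1V M hq hA hqM hζ ιC h S36Comp.a) (s36i1V M hq hA hqM hζ ιC h S36Comp.c) m
        (algebraMap ↥(beta0Field A) ↥(modularFunctionFieldFullC ↥(beta0Field A) (M * q))
          (algebraMap ↥(beta0Ring A (beta0Field A)) ↥(beta0Field A) ζm))
        (atLoc 𝔫) Oα := by
  have hπ : Irreducible ((q : ℕ) : ↥(beta0Ring A (beta0Field A))) :=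
    beta0Ring_irreducible_q hq hA
  haveI : Fact q.Prime := ⟨hq⟩
  haveI : CharP (IsLocalRing.ResidueField ↥(beta0Ring A (beta0Field A))) q := mgvl_charP hq hA
  haveI := 𝔫.2.1.isPrime
  obtain ⟨κ, -, hκ⟩ := s36n2b_compat (A := A) (ζ := ζ) hq hA
  exact s36ngl_alpha (vtBase_residue hπ) (s36n2b_vtBase hq hA hζ)
    (IntermediateField.inclusion (s36n2b_le_K A ζ)).toRingHom ιC ιK hq hqM h
    (s36i1Z hq hζ) rfl hκ (s36n2bZeta_isPrimitiveRoot hq hζ) (s36n2b_residue_zeta hq hA hζ)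
    (s36ptn_hWloc M hq hA hqM ιC h2 h3 false)
    (s36ptn_hGS_alpha_a M hq hA hqM hζ ιC h h2 h3 ιK)
    (s36ptn_hGS_alpha_c M hq hA hqM hζ ιC h h2 h3 ιK)
    𝔫.1 (fun c b hb => hthr c b hb) hm (s36ptn_const_isIntegral M ζm)

/-- **`hNβ`** of `s36pt_hPt_of` / `s36ptl_hPt_of`: `NgLoc` for `β` at a triple point of the
chart `j`. -/
theorem s36ptn_beta (h2 : q = 2 → 3 ∣ M) (h3 : q = 3 → 2 ∣ M) (ιK : ↥(s36n2bK A ζ) →+* ℂ)
    (𝔫 : AtPt (F := ↥(modularFunctionFieldFullC ↥(beta0Field A) (M * q * q)))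
      ((q : ℕ) : ↥(beta0Ring A (beta0Field A))) (bgJ ↥(beta0Field A) (M * q * q)))
    (hthr : ∀ c, atThrough 𝔫 (s36i1V M hq hA hqM hζ ιC h c))
    {m : ℕ} (hm : 0 < m) (ζm : ↥(beta0Ring A (beta0Field A))) :
    ∃ Oβ : Subring ↥(modularFunctionFieldFullC ↥(beta0Field A) (M * q)),
      NgLoc (s36Beta ↥(beta0Field A) M q) (s36NormBeta ↥(beta0Field A) M q)
        (s36i1V M hq hA hqM hζ ιC h S36Comp.b) (s36i1V M hq hA hqM hζ ιC h S36Comp.c) m
        (algebraMap ↥(beta0Field A) ↥(modularFunctionFieldFullC ↥(beta0Field A) (M * q))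
          (algebraMap ↥(beta0Ring A (beta0Field A)) ↥(beta0Field A) ζm))
        (atLoc 𝔫) Oβ := by
  have hπ : Irreducible ((q : ℕ) : ↥(beta0Ring A (beta0Field A))) :=
    beta0Ring_irreducible_q hq hA
  haveI : Fact q.Prime := ⟨hq⟩
  haveI : CharP (IsLocalRing.ResidueField ↥(beta0Ring A (beta0Field A))) q := mgvl_charP hq hA
  haveI := 𝔫.2.1.isPrime
  obtain ⟨κ, -, hκ⟩ := s36n2b_compat (A := A) (ζ := ζ) hq hA
  exact s36ngl_beta (vtBase_residue hπ) (s36n2b_vtBase hq hA hζ)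
    (IntermediateField.inclusion (s36n2b_le_K A ζ)).toRingHom ιC ιK hq hqM h
    (s36i1Z hq hζ) rfl hκ (s36n2bZeta_isPrimitiveRoot hq hζ) (s36n2b_residue_zeta hq hA hζ)
    (s36ptn_hWloc M hq hA hqM ιC h2 h3 true)
    (s36ptn_hGS_beta_b M hq hA hqM hζ ιC h h2 h3 ιK)
    (s36ptn_hGS_beta_c M hq hA hqM hζ ιC h h2 h3 ιK)
    𝔫.1 (fun c b hb => hthr c b hb) hm (s36ptn_const_isIntegral M ζm)

end Conc

end Fermat.Agent.S36

end


end ZBS36_033_10

/-! ### bundled: `Fermat.Agent.S36.PtsTripleFinal` -/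
section ZBS36_033_11

/-!
# S36 / (I6)(c) (helper50): `StmtS36PtsTriple` from the thin nodes of level `M q`

`StmtS36PtsTriple` (`S36/PtsPlan.lean`, helper31) is helper6's assembly `s36ptl_hPt_of`
(`S36/PtsTripleLvM.lean`) applied to

* `hreg` : `s36ptr_hreg` (`S36/PtsTripleReg.lean`) with the chart map `gβ = s36nglCmBeta`
  (helper19) — needs the thin nodes of the chart `j` of level `M q` (`StmtS36ThinJ` below,
  helper54 `RT/K6/DLFConc.lean`);
* `hNα`, `hNβ` : `s36ptn_alpha`, `s36ptn_beta` (`S36/PtsTripleNg.lean`).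

Results: `StmtS36ThinJ` (the only input), `stmtS36PtsTriple_of_thin`.
-/

set_option autoImplicit false
set_option linter.style.haveILetI false
set_option linter.unusedSectionVars false
set_option linter.unusedVariables false
set_option linter.style.longLine false
set_option linter.constructorNameAsVariable false
set_option synthInstance.maxHeartbeats 400000
set_option maxHeartbeats 1000000

noncomputable section

namespace Fermat.Agent.S36

open ModularCurve AlgebraicCurve Fermat.Agent.ES Fermat.Agent.ES.G2 Fermat.Agent.INJ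
open Fermat.Agent.UNIP Fermat.Agent.STB Fermat.Agent.RT.K6 IntermediateField

/-- **The thin nodes of the chart `j` of level `M q`** (over `E₀ = beta0Field A`): at every closed
point `𝔫′` of the chart through which both vertical components `V′_∞`, `V′_0` pass, the
relation of the node is thin (`Rtk6lfThinAt`). -/
def StmtS36ThinJ : Prop :=
  ∀ (M q : ℕ) [NeZero M] [NeZero q] (hq : q.Prime) (hR : S36Rigid M q)
    (A : ValuationSubring (AlgebraicClosure ℚ)) (hA : A.LiesOverPrime q)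
    [IsDiscreteValuationRing ↥(beta0Ring A (beta0Field A))]
    (ιC : ↥(beta0Field A) →+* ℂ),
    ∀ 𝔫' : AtPt (F := ↥(modularFunctionFieldFullC ↥(beta0Field A) (M * q)))
        ((q : ℕ) : ↥(beta0Ring A (beta0Field A))) (bgJ ↥(beta0Field A) (M * q)),
      atThrough 𝔫' (mgvV (beta0Ring_irreducible_q hq hA) ιC hq hR.1 true) →
      atThrough 𝔫' (mgvV (beta0Ring_irreducible_q hq hA) ιC hq hR.1 false) →
      Rtk6lfThinAt (mgvV (beta0Ring_irreducible_q hq hA) ιC hq hR.1 true)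
        (mgvV (beta0Ring_irreducible_q hq hA) ιC hq hR.1 false) 𝔫'

theorem s36ptf_rigid_h2 {M q : ℕ} (hR : S36Rigid M q) : q = 2 → 3 ∣ M := fun h2 =>
  dvd_trans (by decide : 3 ∣ 9) (hR.2.2 h2)

theorem s36ptf_rigid_h3 {M q : ℕ} (hR : S36Rigid M q) : q = 3 → 2 ∣ M := fun h3 =>
  dvd_trans (by decide : 2 ∣ 4) (hR.2.1 (by omega))

/-- **(I6)(c)**: `StmtS36PtsTriple` from the thin nodes of level `M q`. -/
theorem stmtS36PtsTriple_of_thin (hthin : StmtS36ThinJ) : StmtS36PtsTriple := by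
  intro M q p _ _ hq hp hpq hp2 hR A hA _ ζ hζ ιC ιK h r ζm hζm 𝔫 hthr
  have h2 := s36ptf_rigid_h2 hR
  have h3 := s36ptf_rigid_h3 hR
  exact s36ptl_hPt_of M hq hA hR.1 hζ ιC h h2 h3 ιK 𝔫 hthr
    (s36ptr_hreg M hq hA hR.1 hζ ιC h h2 h3
      (s36nglCmBeta ↥(beta0Ring A (beta0Field A)) ↥(beta0Field A) M q hq)
      (s36nglCmBeta_isIntegral hq) (s36nglCmBeta_coe hq)
      (hthin M q hq hR A hA ιC) 𝔫 (hthr S36Comp.a) (hthr S36Comp.b))
    (p ^ r) _
    (s36ptn_alpha M hq hA hR.1 hζ ιC h h2 h3 ιK 𝔫 hthr (pow_pos hp.pos r) ζm)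
    (s36ptn_beta M hq hA hR.1 hζ ιC h h2 h3 ιK 𝔫 hthr (pow_pos hp.pos r) ζm)

end Fermat.Agent.S36

end


end ZBS36_033_11

/-! ### bundled: `Fermat.Agent.S36.PtsTripleDone` -/
section ZBS36_033_12

/-!
# S36 / (I6)(c): `StmtS36PtsTriple`, unconditional

`stmtS36PtsTriple_of_thin` (`S36/PtsTripleFinal.lean`, helper50) with its only input
`StmtS36ThinJ` discharged by `rtk6lfb0_thinAt_J` (`RT/K6/DLFConc.lean`, helper54).

* `stmtS36ThinJ`     : `StmtS36ThinJ`;
* **`stmtS36PtsTriple`** : `StmtS36PtsTriple` (`S36/PtsPlan.lean`).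
-/

set_option autoImplicit false
set_option linter.style.haveILetI false
set_option linter.unusedSectionVars false
set_option linter.unusedVariables false
set_option linter.style.longLine false
set_option linter.constructorNameAsVariable false
set_option synthInstance.maxHeartbeats 400000
set_option maxHeartbeats 1000000

noncomputable section

namespace Fermat.Agent.S36

open ModularCurve AlgebraicCurve Fermat.Agent.ES Fermat.Agent.ES.G2 Fermat.Agent.INJ
open Fermat.Agent.UNIP Fermat.Agent.STB Fermat.Agent.RT.K6 IntermediateField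

/-- the thin nodes of the chart `j` of level `M q` (helper54 `rtk6lfb0_thinAt_J`) -/
theorem stmtS36ThinJ : StmtS36ThinJ := by
  intro M q _ _ hq hR A hA _ ιC 𝔫' _ _
  haveI : NeZero (M * q) := ⟨Nat.mul_ne_zero (NeZero.ne M) (NeZero.ne q)⟩
  exact rtk6lfb0_thinAt_J (beta0Ring_irreducible_q hq hA) ιC hq hR.1 hA hR.2 𝔫'

/-- **(I6)(c)**: `S36PtInput` at the triple points of the chart `j`. -/
theorem stmtS36PtsTriple : StmtS36PtsTriple :=
  stmtS36PtsTriple_of_thin stmtS36ThinJ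

end Fermat.Agent.S36

end


end ZBS36_033_12

/-! ### bundled: `Fermat.Agent.S36.PtsStmt` -/
section ZBS36_033_13
/-
S36 (Carayol at `q² ∥ M`), geometric clause, (I6): `StmtS36Pts` from the two statements
`StmtS36PtsUniq` (helper19) and `StmtS36PtsInf` (helper84); the four other pieces of
`stmtS36Pts_of` (`S36/PtsPlan.lean`) are proved:
`stmtS36PtsOne_a` (helper62, helper98, helper80), `stmtS36PtsOne_b` (helper33),
`stmtS36PtsOne_c` (helper93, helper57, helper80), `stmtS36PtsTriple` (helper37, helper50,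
helper6, helper19, helper54, helper99).  (helper31)
-/

set_option autoImplicit false

namespace Fermat.Agent.S36

/-- **(I6)** from the uniqueness statement and the points at infinity. -/
theorem stmtS36Pts_of_uniq_inf (hU : StmtS36PtsUniq) (hinf : StmtS36PtsInf) : StmtS36Pts :=
  stmtS36Pts_of hU stmtS36PtsOne_a stmtS36PtsOne_b stmtS36PtsOne_c stmtS36PtsTriple hinf

end Fermat.Agent.S36


end ZBS36_033_13

/-! ### bundled: `Fermat.Agent.S36.PtsCuspGen` -/
section ZBS36_033_14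

/-!
# S36 / (I6)(d-GEN) (helper45): the local parameter of the branches `C_a`, `C_c` at the closed
points of the charts `j`, `1/j` of level `M q²` — CONCRETE

Concrete setting of `S36/SmallPart.lean`: `A₀ = beta0Ring A E₀`, `E₀ = beta0Field A`,
`F = F_{Mqq}(E₀)`, `π = q`, `V = s36i1V M hq hA hqM hζ ιC h`.

* `s36cugHom ψ t T hT` : the chart homomorphism induced by `ψ`, with target the chart in the
  form `zchClosure {T}` (the ring of `AtPt`); `s36cugHom_isIntegral`, `s36cugHom_algebraMap`.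
For `c = a` and `c = c` (the components over the cusp `∞` of level `M q` along `α`):
* `s36cug_hF`       : (F) the residue field of `V c` is that of `V′_∞` (helper19);
* `s36cug_F1_J`, `s36cug_F1_Jinv` : (F1) (helper99, element form) at the concrete family;
* `s36cug_gen_J`, `s36cug_gen_Jinv` : **Gen**: at EVERY closed point `𝔫` of the chart `j`
  (resp. `1/j`) through which `V c` passes there is `Y₀ ∈ 𝔫` with `S36n2pGen 𝔫 (V c) Y₀`
  (helper62's `s36pab_gen_of_lower` + (F1) + `RegChart.locGen` at level `M`);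
* `s36cug_genA_cusp`, `s36cug_genC_cusp` : the hypotheses `hgenA` of `s36cua_hA`
  (`S36/PtsCuspA.lean`) and `h2` of `s36cuc_hC_of_gen` (`S36/PtsCuspC2.lean`), VERBATIM;
* `s36cug_genA_J`, `s36cug_genC_J` : the same on the chart `j` (`hgenA` of `s36cua_hPa`).
`h2 : q = 2 → 3 ∣ M`, `h3 : q = 3 → 2 ∣ M` (from `S36Rigid M q`: `s36so_rigid_h2/_h3`).
-/

set_option autoImplicit false
set_option linter.style.haveILetI false
set_option linter.unusedSectionVars false
set_option linter.unusedVariables false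
set_option linter.constructorNameAsVariable false
set_option linter.style.longLine false
set_option synthInstance.maxHeartbeats 400000
set_option maxHeartbeats 1000000

noncomputable section

namespace Fermat.Agent.S36

open ModularCurve AlgebraicCurve Fermat.Agent.ES Fermat.Agent.ES.G2 Fermat.Agent.INJ
open Fermat.Agent.UNIP Fermat.Agent.STB Fermat.Agent.AL IntermediateField

section Hom

variable {A₀ F'' F : Type*} [CommRing A₀] [IsDomain A₀] [IsDiscreteValuationRing A₀]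
  [Field F''] [Field F] [Algebra A₀ F''] [Algebra A₀ F]

/-- The homomorphism of charts induced by `ψ`, with target `zchClosure {T}`. -/
def s36cugHom (ψ : F'' →ₐ[A₀] F) (t : F'') (T : F)
    (hT : IsIntegral ↥(Algebra.adjoin A₀ ({T} : Set F)) (ψ t)) :
    ↥(integralClosure ↥(Algebra.adjoin A₀ ({t} : Set F'')) F'') →+*
      ↥(zchClosure (A₀ := A₀) ({T} : Set F)) where
  toFun x := ⟨ψ (x : F''), mem_zchClosure.mpr (s36n2k_chart_map_mem ψ t T hT x.2)⟩
  map_one' := Subtype.ext (map_one ψ)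
  map_mul' _ _ := Subtype.ext (map_mul ψ _ _)
  map_zero' := Subtype.ext (map_zero ψ)
  map_add' _ _ := Subtype.ext (map_add ψ _ _)

@[simp]
theorem s36cugHom_coe (ψ : F'' →ₐ[A₀] F) (t : F'') (T : F)
    (hT : IsIntegral ↥(Algebra.adjoin A₀ ({T} : Set F)) (ψ t))
    (x : ↥(integralClosure ↥(Algebra.adjoin A₀ ({t} : Set F'')) F'')) :
    ((s36cugHom ψ t T hT x : ↥(zchClosure (A₀ := A₀) ({T} : Set F))) : F) = ψ (x : F'') := rfl

theorem s36cugHom_algebraMap (ψ : F'' →ₐ[A₀] F) (t : F'') (T : F)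
    (hT : IsIntegral ↥(Algebra.adjoin A₀ ({T} : Set F)) (ψ t)) (a : A₀) :
    s36cugHom ψ t T hT
        (algebraMap A₀ ↥(integralClosure ↥(Algebra.adjoin A₀ ({t} : Set F'')) F'') a) =
      algebraMap A₀ ↥(zchClosure (A₀ := A₀) ({T} : Set F)) a := by
  apply Subtype.ext
  show ψ (algebraMap A₀ F'' a) = algebraMap A₀ F a
  exact ψ.commutes a

/-- The chart homomorphism is integral if `T` is integral over `A₀[ψ t]`. -/
theorem s36cugHom_isIntegral (ψ : F'' →ₐ[A₀] F) (t : F'') (T : F)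
    (hT : IsIntegral ↥(Algebra.adjoin A₀ ({T} : Set F)) (ψ t))
    (hT' : IsIntegral ↥(Algebra.adjoin A₀ ({ψ t} : Set F)) T) :
    (s36cugHom ψ t T hT).IsIntegral := by
  intro b
  have hb : IsIntegral ↥(Algebra.adjoin A₀ ({ψ t} : Set F)) (b : F) :=
    cusp_isIntegral_adjoin_trans hT' (mem_zchClosure.mp b.2)
  obtain ⟨p, hp, hpb⟩ := (s36n2k_isIntegral_adjoin_iff ψ t (b : F)).mp hb
  refine ⟨p.map (algebraMap ↥(Algebra.adjoin A₀ ({t} : Set F''))
    ↥(integralClosure ↥(Algebra.adjoin A₀ ({t} : Set F'')) F'')), hp.map _, ?_⟩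
  rw [Polynomial.eval₂_map]
  have key := Polynomial.hom_eval₂ p
    ((s36cugHom ψ t T hT).comp (algebraMap ↥(Algebra.adjoin A₀ ({t} : Set F''))
      ↥(integralClosure ↥(Algebra.adjoin A₀ ({t} : Set F'')) F'')))
    (zchClosure (A₀ := A₀) ({T} : Set F)).val.toRingHom b
  apply Subtype.val_injective
  exact key.trans hpb

/-- **Gen from the level below**, abstract chart form: `ψ : F″ → F` maps the chart `C_t` of `F″`
integrally into the chart `B_T` of `F`, (F1) `B_T = ψ C_t + 𝔪(V)`, `C_t` regular along its special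
fibre (`reg` = `RegChart.locGen`): at every maximal ideal `𝔫` of `B_T` through which `V` passes
there is a local parameter `Y₀ ∈ 𝔫` of the branch `V`. -/
theorem s36cug_gen_abs (ψ : F'' →ₐ[A₀] F) (t : F'') (T : F)
    (hT : IsIntegral ↥(Algebra.adjoin A₀ ({T} : Set F)) (ψ t))
    (hT' : IsIntegral ↥(Algebra.adjoin A₀ ({ψ t} : Set F)) T) (π : A₀)
    (𝔫 : Ideal ↥(zchClosure (A₀ := A₀) ({T} : Set F))) (h𝔫 : 𝔫.IsMaximal)
    (V : ValuationSubring F)
    (hBV : ∀ b : F, IsIntegral ↥(Algebra.adjoin A₀ ({T} : Set F)) b → b ∈ V)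
    (hthr : ∀ b : ↥(zchClosure (A₀ := A₀) ({T} : Set F)), (b : F) ∈ V.nonunits → b ∈ 𝔫)
    (hF1 : ∀ b : F, IsIntegral ↥(Algebra.adjoin A₀ ({T} : Set F)) b →
      ∃ c' : ↥(integralClosure ↥(Algebra.adjoin A₀ ({t} : Set F'')) F''),
        b - ψ (c' : F'') ∈ V.nonunits)
    (hπV : algebraMap A₀ F π ∈ V.nonunits)
    (reg : ∀ 𝔪 : Ideal ↥(integralClosure ↥(Algebra.adjoin A₀ ({t} : Set F'')) F''),
      𝔪.IsMaximal →
      algebraMap A₀ ↥(integralClosure ↥(Algebra.adjoin A₀ ({t} : Set F'')) F'') π ∈ 𝔪 →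
      ∃ s ∈ 𝔪, ∀ x ∈ 𝔪, ∃ u, u ∉ 𝔪 ∧ u * x ∈ Ideal.span
        {algebraMap A₀ ↥(integralClosure ↥(Algebra.adjoin A₀ ({t} : Set F'')) F'') π, s}) :
    ∃ Y₀ ∈ 𝔫, S36n2pGen 𝔫 V Y₀ := by
  obtain ⟨s, hs, hgen⟩ := s36pab_gen_of_lower (s36cugHom ψ t T hT)
    (s36cugHom_isIntegral ψ t T hT hT') 𝔫 h𝔫 V
    (fun b => hBV _ (mem_zchClosure.mp b.2)) hthr
    (fun b => by
      obtain ⟨c', hc'⟩ := hF1 (b : F) (mem_zchClosure.mp b.2)
      exact ⟨c', hc'⟩)
    (algebraMap A₀ ↥(integralClosure ↥(Algebra.adjoin A₀ ({t} : Set F'')) F'') π)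
    (by
      rw [s36cugHom_algebraMap]
      exact hπV)
    (fun 𝔪 h𝔪 hπ𝔪 => reg 𝔪 h𝔪 hπ𝔪)
  exact ⟨_, hs, hgen⟩

end Hom

section Concrete

variable {q : ℕ} {A : ValuationSubring (AlgebraicClosure ℚ)} (M : ℕ) [NeZero M] [NeZero q]
  [IsDiscreteValuationRing ↥(beta0Ring A (beta0Field A))]
  {ζ : AlgebraicClosure ℚ}
  (hq : q.Prime) (hA : A.LiesOverPrime q) (hqM : ¬ q ∣ M) (hζ : IsPrimitiveRoot ζ q)
  (ιC : ↥(beta0Field A) →+* ℂ)
  (h : S36MidEmb ↥(s36n2bK A ζ) q M (s36i1ZK (A := A) hq hζ))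

/-- **(F)** for `V_a`, `V_c` along `α` (helper19's `s36n2x_alphaInf_main`), concrete. -/
theorem s36cug_hF (ιK : ↥(s36n2bK A ζ) →+* ℂ) (c : S36Comp) (hc : s36n2CompAlpha c = true)
    (x : ↥(modularFunctionFieldFullC ↥(beta0Field A) (M * q * q)))
    (hx : x ∈ s36i1V M hq hA hqM hζ ιC h c) :
    ∃ y ∈ vtFam (vtBase_residue (beta0Ring_irreducible_q hq hA)) ιC hq hqM true,
      x - s36Alpha ↥(beta0Field A) M q y ∈ (s36i1V M hq hA hqM hζ ιC h c).nonunits := by
  obtain ⟨κ, -, hκ⟩ := s36n2b_compat (A := A) (ζ := ζ) hq hA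
  have main := s36n2x_alphaInf_main (vtBase_residue (beta0Ring_irreducible_q hq hA))
    (s36n2b_vtBase hq hA hζ)
    (IntermediateField.inclusion (s36n2b_le_K A ζ)).toRingHom ιC ιK hq hqM h
    (s36i1Z hq hζ) rfl hκ (s36n2bZeta_isPrimitiveRoot (A := A) hq hζ)
    (s36n2b_residue_zeta hq hA hζ) (Nat.cast_ne_zero.mpr hq.ne_zero) (v := 1)
    (by rw [map_one]; exact one_ne_zero) (mul_one _).symm
  cases c
  · exact main.2.1 x hx
  · exact absurd hc (by decide)
  · exact main.2.2.1 x hx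

/-- **(F1)**, chart `j`, for `V_a`, `V_c` at the concrete family (element form). -/
theorem s36cug_F1_J (h2 : q = 2 → 3 ∣ M) (h3 : q = 3 → 2 ∣ M) (ιK : ↥(s36n2bK A ζ) →+* ℂ)
    (c : S36Comp) (hc : s36n2CompAlpha c = true)
    (b : ↥(modularFunctionFieldFullC ↥(beta0Field A) (M * q * q)))
    (hb : IsIntegral ↥(Algebra.adjoin ↥(beta0Ring A (beta0Field A))
      ({bgJ ↥(beta0Field A) (M * q * q)} : Set ↥(modularFunctionFieldFullC ↥(beta0Field A) (M * q * q)))) b) :
    ∃ c' : ↥(integralClosure ↥(Algebra.adjoin ↥(beta0Ring A (beta0Field A))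
        ({bgJ ↥(beta0Field A) M} : Set ↥(modularFunctionFieldFullC ↥(beta0Field A) M)))
          ↥(modularFunctionFieldFullC ↥(beta0Field A) M)),
      b - s36n2kPsi ↥(beta0Ring A (beta0Field A)) ↥(beta0Field A) M q
          (c' : ↥(modularFunctionFieldFullC ↥(beta0Field A) M)) ∈
        (s36i1V M hq hA hqM hζ ιC h c).nonunits := by
  haveI : Fact q.Prime := ⟨hq⟩
  haveI : CharP (IsLocalRing.ResidueField ↥(beta0Ring A (beta0Field A))) q := mgvl_charP hq hA
  have hπ : Irreducible ((q : ℕ) : ↥(beta0Ring A (beta0Field A))) :=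
    beta0Ring_irreducible_q hq hA
  have hreg : RegChart (E := ↥(beta0Field A)) ((q : ℕ) : ↥(beta0Ring A (beta0Field A)))
      (bgJ ↥(beta0Field A) M) := stb_regChart_conc_J M hq hA le_rfl hπ hqM h2 h3
  have hcomap := s36i1c_comap_alpha M hq hA hqM hζ ιC h c
  rw [hc] at hcomap
  exact s36n2k_F1_J (beta0Field A) (IsLocalRing.residue ↥(beta0Ring A (beta0Field A))) ιC hq hqM
    hπ (vtBase_residue hπ) hreg
    (fun x hx => mgv_hVloc₁ hπ ιC hq hqM hA (mgcb_reg_SS1_J hπ ιC hq hqM hA hreg) true x hx)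
    (s36i1V M hq hA hqM hζ ιC h c) hcomap
    (fun x hx => s36cug_hF M hq hA hqM hζ ιC h ιK c hc x hx)
    b (s36i1c_hBV₁ M hq hA hqM hζ ιC h c b hb) hb

/-- **(F1)**, chart `1/j`, for `V_a`, `V_c` at the concrete family (element form). -/
theorem s36cug_F1_Jinv (h2 : q = 2 → 3 ∣ M) (h3 : q = 3 → 2 ∣ M) (ιK : ↥(s36n2bK A ζ) →+* ℂ)
    (c : S36Comp) (hc : s36n2CompAlpha c = true)
    (b : ↥(modularFunctionFieldFullC ↥(beta0Field A) (M * q * q)))
    (hb : IsIntegral ↥(Algebra.adjoin ↥(beta0Ring A (beta0Field A))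
      ({(bgJ ↥(beta0Field A) (M * q * q))⁻¹} : Set ↥(modularFunctionFieldFullC ↥(beta0Field A) (M * q * q)))) b) :
    ∃ c' : ↥(integralClosure ↥(Algebra.adjoin ↥(beta0Ring A (beta0Field A))
        ({(bgJ ↥(beta0Field A) M)⁻¹} : Set ↥(modularFunctionFieldFullC ↥(beta0Field A) M)))
          ↥(modularFunctionFieldFullC ↥(beta0Field A) M)),
      b - s36n2kPsi ↥(beta0Ring A (beta0Field A)) ↥(beta0Field A) M q
          (c' : ↥(modularFunctionFieldFullC ↥(beta0Field A) M)) ∈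
        (s36i1V M hq hA hqM hζ ιC h c).nonunits := by
  haveI : Fact q.Prime := ⟨hq⟩
  haveI : CharP (IsLocalRing.ResidueField ↥(beta0Ring A (beta0Field A))) q := mgvl_charP hq hA
  have hπ : Irreducible ((q : ℕ) : ↥(beta0Ring A (beta0Field A))) :=
    beta0Ring_irreducible_q hq hA
  have hreg : RegChart (E := ↥(beta0Field A)) ((q : ℕ) : ↥(beta0Ring A (beta0Field A)))
      (bgJ ↥(beta0Field A) M) := stb_regChart_conc_J M hq hA le_rfl hπ hqM h2 h3
  have hreg' : RegChart (E := ↥(beta0Field A)) ((q : ℕ) : ↥(beta0Ring A (beta0Field A)))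
      (bgJ ↥(beta0Field A) M)⁻¹ := stb_regChart_conc_Jinv M hq hA le_rfl hπ hqM h2 h3
  have hcomap := s36i1c_comap_alpha M hq hA hqM hζ ιC h c
  rw [hc] at hcomap
  exact s36n2k_F1_Jinv (beta0Field A) (IsLocalRing.residue ↥(beta0Ring A (beta0Field A))) ιC hq hqM
    hπ (vtBase_residue hπ) hreg hreg'
    (fun x hx => mgv_hVloc₁ hπ ιC hq hqM hA (mgcb_reg_SS1_J hπ ιC hq hqM hA hreg) true x hx)
    (s36i1V M hq hA hqM hζ ιC h c) hcomap
    (fun x hx => s36cug_hF M hq hA hqM hζ ιC h ιK c hc x hx)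
    b (s36i1c_hBV₂ M hq hA hqM hζ ιC h c b hb) hb

/-- **Gen, chart `j`**: the local parameter of the branch `V c` (`c = a, c`) at every closed
point of the chart `j` of level `M q²` on it. -/
theorem s36cug_gen_J (h2 : q = 2 → 3 ∣ M) (h3 : q = 3 → 2 ∣ M) (ιK : ↥(s36n2bK A ζ) →+* ℂ)
    (c : S36Comp) (hc : s36n2CompAlpha c = true)
    (𝔫 : AtPt (F := ↥(modularFunctionFieldFullC ↥(beta0Field A) (M * q * q)))
      ((q : ℕ) : ↥(beta0Ring A (beta0Field A))) (bgJ ↥(beta0Field A) (M * q * q)))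
    (hthr : atThrough 𝔫 (s36i1V M hq hA hqM hζ ιC h c)) :
    ∃ Y₀ ∈ 𝔫.1, S36n2pGen 𝔫.1 (s36i1V M hq hA hqM hζ ιC h c) Y₀ := by
  have hπ : Irreducible ((q : ℕ) : ↥(beta0Ring A (beta0Field A))) :=
    beta0Ring_irreducible_q hq hA
  have hreg : RegChart (E := ↥(beta0Field A)) ((q : ℕ) : ↥(beta0Ring A (beta0Field A)))
      (bgJ ↥(beta0Field A) M) := stb_regChart_conc_J M hq hA le_rfl hπ hqM h2 h3
  have hT : IsIntegral ↥(Algebra.adjoin ↥(beta0Ring A (beta0Field A))
      ({bgJ ↥(beta0Field A) (M * q * q)} : Set ↥(modularFunctionFieldFullC ↥(beta0Field A) (M * q * q))))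
      (s36n2kPsi ↥(beta0Ring A (beta0Field A)) ↥(beta0Field A) M q (bgJ ↥(beta0Field A) M)) := by
    rw [s36n2kPsi_bgJ]
    exact s36n2k_isIntegral_self ↥(beta0Ring A (beta0Field A)) _
  have hT' : IsIntegral ↥(Algebra.adjoin ↥(beta0Ring A (beta0Field A))
      ({s36n2kPsi ↥(beta0Ring A (beta0Field A)) ↥(beta0Field A) M q (bgJ ↥(beta0Field A) M)} :
        Set ↥(modularFunctionFieldFullC ↥(beta0Field A) (M * q * q)))) (bgJ ↥(beta0Field A) (M * q * q)) := by
    rw [s36n2kPsi_bgJ]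
    exact s36n2k_isIntegral_self ↥(beta0Ring A (beta0Field A)) _
  exact s36cug_gen_abs (s36n2kPsi ↥(beta0Ring A (beta0Field A)) ↥(beta0Field A) M q)
    (bgJ ↥(beta0Field A) M) (bgJ ↥(beta0Field A) (M * q * q)) hT hT' ((q : ℕ) : ↥(beta0Ring A (beta0Field A))) 𝔫.1 𝔫.2.1
    (s36i1V M hq hA hqM hζ ιC h c)
    (fun b hb => s36i1c_hBV₁ M hq hA hqM hζ ιC h c b hb) hthr
    (fun b hb => s36cug_F1_J M hq hA hqM hζ ιC h h2 h3 ιK c hc b hb)
    (s36i1c_hπV M hq hA hqM hζ ιC h c)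
    (fun 𝔪 h𝔪 hπ𝔪 => hreg.locGen 𝔪 h𝔪 hπ𝔪)

/-- **Gen, chart `1/j`**: the local parameter of the branch `V c` (`c = a, c`) at every closed
point of the chart `1/j` of level `M q²` on it. -/
theorem s36cug_gen_Jinv (h2 : q = 2 → 3 ∣ M) (h3 : q = 3 → 2 ∣ M) (ιK : ↥(s36n2bK A ζ) →+* ℂ)
    (c : S36Comp) (hc : s36n2CompAlpha c = true)
    (𝔫 : AtPt (F := ↥(modularFunctionFieldFullC ↥(beta0Field A) (M * q * q)))
      ((q : ℕ) : ↥(beta0Ring A (beta0Field A))) ((bgJ ↥(beta0Field A) (M * q * q))⁻¹))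
    (hthr : atThrough 𝔫 (s36i1V M hq hA hqM hζ ιC h c)) :
    ∃ Y₀ ∈ 𝔫.1, S36n2pGen 𝔫.1 (s36i1V M hq hA hqM hζ ιC h c) Y₀ := by
  have hπ : Irreducible ((q : ℕ) : ↥(beta0Ring A (beta0Field A))) :=
    beta0Ring_irreducible_q hq hA
  have hreg : RegChart (E := ↥(beta0Field A)) ((q : ℕ) : ↥(beta0Ring A (beta0Field A)))
      ((bgJ ↥(beta0Field A) M)⁻¹) := stb_regChart_conc_Jinv M hq hA le_rfl hπ hqM h2 h3
  have hT : IsIntegral ↥(Algebra.adjoin ↥(beta0Ring A (beta0Field A))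
      ({(bgJ ↥(beta0Field A) (M * q * q))⁻¹} : Set ↥(modularFunctionFieldFullC ↥(beta0Field A) (M * q * q))))
      (s36n2kPsi ↥(beta0Ring A (beta0Field A)) ↥(beta0Field A) M q ((bgJ ↥(beta0Field A) M)⁻¹)) := by
    rw [s36n2kPsi_bgJ_inv]
    exact s36n2k_isIntegral_self ↥(beta0Ring A (beta0Field A)) _
  have hT' : IsIntegral ↥(Algebra.adjoin ↥(beta0Ring A (beta0Field A))
      ({s36n2kPsi ↥(beta0Ring A (beta0Field A)) ↥(beta0Field A) M q ((bgJ ↥(beta0Field A) M)⁻¹)} :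
        Set ↥(modularFunctionFieldFullC ↥(beta0Field A) (M * q * q)))) ((bgJ ↥(beta0Field A) (M * q * q))⁻¹) := by
    rw [s36n2kPsi_bgJ_inv]
    exact s36n2k_isIntegral_self ↥(beta0Ring A (beta0Field A)) _
  exact s36cug_gen_abs (s36n2kPsi ↥(beta0Ring A (beta0Field A)) ↥(beta0Field A) M q)
    ((bgJ ↥(beta0Field A) M)⁻¹) ((bgJ ↥(beta0Field A) (M * q * q))⁻¹) hT hT' ((q : ℕ) : ↥(beta0Ring A (beta0Field A))) 𝔫.1 𝔫.2.1
    (s36i1V M hq hA hqM hζ ιC h c)
    (fun b hb => s36i1c_hBV₂ M hq hA hqM hζ ιC h c b hb) hthr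
    (fun b hb => s36cug_F1_Jinv M hq hA hqM hζ ιC h h2 h3 ιK c hc b hb)
    (s36i1c_hπV M hq hA hqM hζ ιC h c)
    (fun 𝔪 h𝔪 hπ𝔪 => hreg.locGen 𝔪 h𝔪 hπ𝔪)

/-- **(d-GEN) for `C_a`** : `hgenA` of `s36cua_hA`, VERBATIM. -/
theorem s36cug_genA_cusp (h2 : q = 2 → 3 ∣ M) (h3 : q = 3 → 2 ∣ M)
    (ιK : ↥(s36n2bK A ζ) →+* ℂ) :
    ∀ 𝔫 : AtPt (F := ↥(modularFunctionFieldFullC ↥(beta0Field A) (M * q * q)))
        ((q : ℕ) : ↥(beta0Ring A (beta0Field A))) (bgJ ↥(beta0Field A) (M * q * q))⁻¹,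
      (⟨(bgJ ↥(beta0Field A) (M * q * q))⁻¹, s36pc_self_mem _⟩ :
        ↥(zchClosure (A₀ := ↥(beta0Ring A (beta0Field A)))
          ({(bgJ ↥(beta0Field A) (M * q * q))⁻¹} :
            Set ↥(modularFunctionFieldFullC ↥(beta0Field A) (M * q * q))))) ∈ 𝔫.1 →
      atThrough 𝔫 (s36i1V M hq hA hqM hζ ιC h S36Comp.a) →
      ∃ Y₀ ∈ 𝔫.1, S36n2pGen 𝔫.1 (s36i1V M hq hA hqM hζ ιC h S36Comp.a) Y₀ :=
  fun 𝔫 _ hthr => s36cug_gen_Jinv M hq hA hqM hζ ιC h h2 h3 ιK S36Comp.a rfl 𝔫 hthr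

/-- **(d-GEN) for `C_c`** : `h2` of `s36cuc_hC_of_gen`, VERBATIM. -/
theorem s36cug_genC_cusp (h2 : q = 2 → 3 ∣ M) (h3 : q = 3 → 2 ∣ M)
    (ιK : ↥(s36n2bK A ζ) →+* ℂ) :
    ∀ 𝔫 : AtPt (F := ↥(modularFunctionFieldFullC ↥(beta0Field A) (M * q * q)))
        ((q : ℕ) : ↥(beta0Ring A (beta0Field A))) (bgJ ↥(beta0Field A) (M * q * q))⁻¹,
      (⟨(bgJ ↥(beta0Field A) (M * q * q))⁻¹, s36pc_self_mem _⟩ :
        ↥(zchClosure (A₀ := ↥(beta0Ring A (beta0Field A)))
          ({(bgJ ↥(beta0Field A) (M * q * q))⁻¹} :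
            Set ↥(modularFunctionFieldFullC ↥(beta0Field A) (M * q * q))))) ∈ 𝔫.1 →
      atThrough 𝔫 (s36i1V M hq hA hqM hζ ιC h S36Comp.c) →
      ∃ Y₀ ∈ 𝔫.1, S36n2pGen 𝔫.1 (s36i1V M hq hA hqM hζ ιC h S36Comp.c) Y₀ :=
  fun 𝔫 _ hthr => s36cug_gen_Jinv M hq hA hqM hζ ιC h h2 h3 ιK S36Comp.c rfl 𝔫 hthr

/-- **Gen_a on the chart `j`** : `hgenA` of `s36cua_hPa`, VERBATIM. -/
theorem s36cug_genA_J (h2 : q = 2 → 3 ∣ M) (h3 : q = 3 → 2 ∣ M)
    (ιK : ↥(s36n2bK A ζ) →+* ℂ) :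
    ∀ 𝔫 : AtPt (F := ↥(modularFunctionFieldFullC ↥(beta0Field A) (M * q * q)))
        ((q : ℕ) : ↥(beta0Ring A (beta0Field A))) (bgJ ↥(beta0Field A) (M * q * q)),
      atThrough 𝔫 (s36i1V M hq hA hqM hζ ιC h S36Comp.a) →
      ∃ Y₀ ∈ 𝔫.1, S36n2pGen 𝔫.1 (s36i1V M hq hA hqM hζ ιC h S36Comp.a) Y₀ :=
  fun 𝔫 hthr => s36cug_gen_J M hq hA hqM hζ ιC h h2 h3 ιK S36Comp.a rfl 𝔫 hthr

/-- **Gen_c on the chart `j`**. -/
theorem s36cug_genC_J (h2 : q = 2 → 3 ∣ M) (h3 : q = 3 → 2 ∣ M)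
    (ιK : ↥(s36n2bK A ζ) →+* ℂ) :
    ∀ 𝔫 : AtPt (F := ↥(modularFunctionFieldFullC ↥(beta0Field A) (M * q * q)))
        ((q : ℕ) : ↥(beta0Ring A (beta0Field A))) (bgJ ↥(beta0Field A) (M * q * q)),
      atThrough 𝔫 (s36i1V M hq hA hqM hζ ιC h S36Comp.c) →
      ∃ Y₀ ∈ 𝔫.1, S36n2pGen 𝔫.1 (s36i1V M hq hA hqM hζ ιC h S36Comp.c) Y₀ :=
  fun 𝔫 hthr => s36cug_gen_J M hq hA hqM hζ ιC h h2 h3 ιK S36Comp.c rfl 𝔫 hthr

end Concrete

end Fermat.Agent.S36

end
end ZBS36_033_14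

/-! ### bundled: `Fermat.Agent.S36.PtsCuspInst` -/
section ZBS36_033_15
/-
S36 (Carayol at `q² ∥ M`), geometry, (I6)(d) FINAL CALL (helper84): `StmtS36PtsInf`
(`S36/PtsPlan.lean`, helper31) = `S36PtInput` at every closed point at `j = ∞` (chart `1 / j`,
`1 / j ∈ 𝔫`), at the concrete family `V = s36i1V M hq hA hqM hζ ιC h`.

* `s36cui_inf_of`  : from `hA`, `hC` (verbatim hypotheses of `s36cu_hpts_inf`) and (I2) `hKR`:
  the W-data is `S36/PtsCuspW.lean` (helper29), the Y-data is `S36/PtsCuspY.lean`;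
* `s36cui_inf_of_gen` : from (I2) `hKR` and the local parameters (d-GEN) of the branches
  `C_a`, `C_c` at their cusp points (`hA` = helper98 `s36cua_hA`, `hC` = helper20
  `s36cuc_hC_of_gen`, with helper58's `s36cm_cusp`);
* **`stmtS36PtsInf : StmtS36PtsInf`**, UNCONDITIONAL ((d-GEN) = helper45,
  `S36/PtsCuspGen.lean`; (I2) `hKR` = helper98, `s36sk_hKR`).
-/

set_option autoImplicit false
set_option linter.style.haveILetI false
set_option linter.unusedSectionVars false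
set_option linter.unusedVariables false
set_option linter.constructorNameAsVariable false

noncomputable section

namespace Fermat.Agent.S36

open ModularCurve AlgebraicCurve Fermat.Agent.ES Fermat.Agent.ES.G2 Fermat.Agent.INJ
open Fermat.Agent.UNIP Fermat.Agent.STB IntermediateField

section Inst

variable {q : ℕ} {A : ValuationSubring (AlgebraicClosure ℚ)} (M : ℕ) [NeZero M] [NeZero q]
  [IsDiscreteValuationRing ↥(beta0Ring A (beta0Field A))]
  {ζ : AlgebraicClosure ℚ}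
  (hq : q.Prime) (hA : A.LiesOverPrime q) (hqM : ¬ q ∣ M) (hζ : IsPrimitiveRoot ζ q)
  (ιC : ↥(beta0Field A) →+* ℂ)
  (h : S36MidEmb ↥(s36n2bK A ζ) q M (s36i1ZK (A := A) hq hζ))

/-- **(I6)(d)**: `S36PtInput` at the points at `j = ∞`, from `hA`, `hC`. -/
theorem s36cui_inf_of (ιK : ↥(s36n2bK A ζ) →+* ℂ)
    (hKR : ∀ x : ↥(modularFunctionFieldFullC ↥(beta0Field A) (M * q * q)),
      IsIntegral ↥(Algebra.adjoin ↥(beta0Ring A (beta0Field A))
          {bgJ ↥(beta0Field A) (M * q * q)})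
        (algebraMap ↥(beta0Ring A (beta0Field A))
          ↥(modularFunctionFieldFullC ↥(beta0Field A) (M * q * q))
          ((q : ℕ) : ↥(beta0Ring A (beta0Field A))) * x) →
      (∀ c, x ∈ s36i1V M hq hA hqM hζ ιC h c) →
        IsIntegral ↥(Algebra.adjoin ↥(beta0Ring A (beta0Field A))
          {bgJ ↥(beta0Field A) (M * q * q)}) x)
    (m : ℕ) (ζ₁ : ↥(modularFunctionFieldFullC ↥(beta0Field A) (M * q)))
    (hA' : ∀ 𝔫 : AtPt (F := ↥(modularFunctionFieldFullC ↥(beta0Field A) (M * q * q)))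
        ((q : ℕ) : ↥(beta0Ring A (beta0Field A))) (bgJ ↥(beta0Field A) (M * q * q))⁻¹,
      (⟨(bgJ ↥(beta0Field A) (M * q * q))⁻¹, s36pc_self_mem _⟩ :
        ↥(zchClosure (A₀ := ↥(beta0Ring A (beta0Field A)))
          ({(bgJ ↥(beta0Field A) (M * q * q))⁻¹} :
            Set ↥(modularFunctionFieldFullC ↥(beta0Field A) (M * q * q))))) ∈ 𝔫.1 →
      atThrough 𝔫 (s36i1V M hq hA hqM hζ ιC h S36Comp.a) →
      (∀ c, atThrough 𝔫 (s36i1V M hq hA hqM hζ ιC h c) → c = S36Comp.a) →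
      @S36PtInput ↥(modularFunctionFieldFullC ↥(beta0Field A) (M * q))
        ↥(modularFunctionFieldFullC ↥(beta0Field A) (M * q * q)) _ _ S36Comp
        (s36Hor ↥(beta0Field A) m) m
        (s36Alpha ↥(beta0Field A) M q) (s36Beta ↥(beta0Field A) M q)
        (s36NormAlpha ↥(beta0Field A) M q) (s36NormBeta ↥(beta0Field A) M q) ζ₁
        (s36i1V M hq hA hqM hζ ιC h) S36Comp.a S36Comp.b S36Comp.c
        (atO ((q : ℕ) : ↥(beta0Ring A (beta0Field A))) (bgJ ↥(beta0Field A) (M * q * q))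
          (Sum.inr 𝔫))
        (stb_atO_isLocalRing (π := ((q : ℕ) : ↥(beta0Ring A (beta0Field A))))
          (bgJ ↥(beta0Field A) (M * q * q)) (Sum.inr 𝔫))
        (atInc ((q : ℕ) : ↥(beta0Ring A (beta0Field A))) (bgJ ↥(beta0Field A) (M * q * q))
          (s36i1V M hq hA hqM hζ ιC h) (Sum.inr 𝔫)))
    (hC : ∀ 𝔫 : AtPt (F := ↥(modularFunctionFieldFullC ↥(beta0Field A) (M * q * q)))
        ((q : ℕ) : ↥(beta0Ring A (beta0Field A))) (bgJ ↥(beta0Field A) (M * q * q))⁻¹,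
      (⟨(bgJ ↥(beta0Field A) (M * q * q))⁻¹, s36pc_self_mem _⟩ :
        ↥(zchClosure (A₀ := ↥(beta0Ring A (beta0Field A)))
          ({(bgJ ↥(beta0Field A) (M * q * q))⁻¹} :
            Set ↥(modularFunctionFieldFullC ↥(beta0Field A) (M * q * q))))) ∈ 𝔫.1 →
      atThrough 𝔫 (s36i1V M hq hA hqM hζ ιC h S36Comp.c) →
      (∀ c, atThrough 𝔫 (s36i1V M hq hA hqM hζ ιC h c) → c = S36Comp.c) →
      @S36PtInput ↥(modularFunctionFieldFullC ↥(beta0Field A) (M * q))
        ↥(modularFunctionFieldFullC ↥(beta0Field A) (M * q * q)) _ _ S36Comp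
        (s36Hor ↥(beta0Field A) m) m
        (s36Alpha ↥(beta0Field A) M q) (s36Beta ↥(beta0Field A) M q)
        (s36NormAlpha ↥(beta0Field A) M q) (s36NormBeta ↥(beta0Field A) M q) ζ₁
        (s36i1V M hq hA hqM hζ ιC h) S36Comp.a S36Comp.b S36Comp.c
        (atO ((q : ℕ) : ↥(beta0Ring A (beta0Field A))) (bgJ ↥(beta0Field A) (M * q * q))
          (Sum.inr 𝔫))
        (stb_atO_isLocalRing (π := ((q : ℕ) : ↥(beta0Ring A (beta0Field A))))
          (bgJ ↥(beta0Field A) (M * q * q)) (Sum.inr 𝔫))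
        (atInc ((q : ℕ) : ↥(beta0Ring A (beta0Field A))) (bgJ ↥(beta0Field A) (M * q * q))
          (s36i1V M hq hA hqM hζ ιC h) (Sum.inr 𝔫))) :
    ∀ 𝔫 : AtPt (F := ↥(modularFunctionFieldFullC ↥(beta0Field A) (M * q * q)))
        ((q : ℕ) : ↥(beta0Ring A (beta0Field A))) (bgJ ↥(beta0Field A) (M * q * q))⁻¹,
      (⟨(bgJ ↥(beta0Field A) (M * q * q))⁻¹, s36pc_self_mem _⟩ :
        ↥(zchClosure (A₀ := ↥(beta0Ring A (beta0Field A)))
          ({(bgJ ↥(beta0Field A) (M * q * q))⁻¹} :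
            Set ↥(modularFunctionFieldFullC ↥(beta0Field A) (M * q * q))))) ∈ 𝔫.1 →
      @S36PtInput ↥(modularFunctionFieldFullC ↥(beta0Field A) (M * q))
        ↥(modularFunctionFieldFullC ↥(beta0Field A) (M * q * q)) _ _ S36Comp
        (s36Hor ↥(beta0Field A) m) m
        (s36Alpha ↥(beta0Field A) M q) (s36Beta ↥(beta0Field A) M q)
        (s36NormAlpha ↥(beta0Field A) M q) (s36NormBeta ↥(beta0Field A) M q) ζ₁
        (s36i1V M hq hA hqM hζ ιC h) S36Comp.a S36Comp.b S36Comp.c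
        (atO ((q : ℕ) : ↥(beta0Ring A (beta0Field A))) (bgJ ↥(beta0Field A) (M * q * q))
          (Sum.inr 𝔫))
        (stb_atO_isLocalRing (π := ((q : ℕ) : ↥(beta0Ring A (beta0Field A))))
          (bgJ ↥(beta0Field A) (M * q * q)) (Sum.inr 𝔫))
        (atInc ((q : ℕ) : ↥(beta0Ring A (beta0Field A))) (bgJ ↥(beta0Field A) (M * q * q))
          (s36i1V M hq hA hqM hζ ιC h) (Sum.inr 𝔫)) := by
  have hπ : Irreducible ((q : ℕ) : ↥(beta0Ring A (beta0Field A))) :=
    beta0Ring_irreducible_q hq hA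
  have ht := bgConst_transcendental_bgJ ↥(beta0Field A) (M * q * q)
  haveI : FiniteDimensional (↥(beta0Field A))⟮bgJ ↥(beta0Field A) (M * q * q)⟯
      ↥(modularFunctionFieldFullC ↥(beta0Field A) (M * q * q)) :=
    bgFin_finiteDimensional_full ↥(beta0Field A) (M * q * q)
  haveI : CharP (IsLocalRing.ResidueField ↥(beta0Ring A (beta0Field A))) q := mgvl_charP hq hA
  haveI : CharP (IsLocalRing.ResidueField ↥(beta0Ring A (s36n2bK A ζ))) q := mgvl_charP hq hA
  have ht0 : bgJ ↥(beta0Field A) (M * q * q) ≠ 0 := by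
    intro h0
    exact ht (by rw [h0]; exact isAlgebraic_zero)
  have hq2 : 2 ≤ q := hq.two_le
  have hkc : 0 < q * q - 1 := by
    have : 4 ≤ q * q := Nat.mul_le_mul hq2 hq2
    omega
  have hkb : 0 < q * q * (q * q) - 1 := by
    have h4 : 4 ≤ q * q := Nat.mul_le_mul hq2 hq2
    have : 16 ≤ q * q * (q * q) := Nat.mul_le_mul h4 h4
    omega
  have hJq : IsIntegral ↥(Algebra.adjoin ↥(beta0Ring A (beta0Field A))
      {s36n2lJq ↥(beta0Field A) M q}) (s36n2lJ ↥(beta0Field A) M q) :=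
    s36cuy_isIntegral_J_Jq ↥(beta0Field A) ιC hq hqM
  have hJqq : IsIntegral ↥(Algebra.adjoin ↥(beta0Ring A (beta0Field A))
      {s36n2lJqq ↥(beta0Field A) M q}) (s36n2lJ ↥(beta0Field A) M q) :=
    s36cuy_isIntegral_J_Jqq ↥(beta0Field A) ιC hq hqM
  have hJJ : IsIntegral ↥(Algebra.adjoin ↥(beta0Ring A (beta0Field A))
      {s36n2lJ ↥(beta0Field A) M q}) (s36n2lJ ↥(beta0Field A) M q) :=
    s36n2l_isIntegral_J
  exact s36cu_hpts_inf (E := ↥(beta0Field A)) hπ ht (s36i1V M hq hA hqM hζ ιC h)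
    (s36i1c_hBV₁ M hq hA hqM hζ ιC h) (s36i1c_hBV₂ M hq hA hqM hζ ιC h) hKR
    (s36i1c_hram M hq hA hqM hζ ιC h)
    S36Comp.a S36Comp.b S36Comp.c s36i1_hκ s36i1_hab s36i1_hac s36i1_hbc
    (s36n2W ↥(beta0Field A) ιC hq hqM).toRingEquiv
    (s36cuw_hwA M hq hqM ιC) (s36cuw_hw₁ M hq hqM ιC) (s36cuw_hw₂ M hq hqM ιC)
    (s36cuw_hwab M hq hA hqM hζ ιC h) (s36cuw_hwba M hq hA hqM hζ ιC h)
    (s36cuw_hwcc M hq hA hqM hζ ιC h ιK) (s36cuw_hHor M hq hqM ιC m)
    (y := s36cuyY ↥(beta0Field A) M q) (zb := s36cuyZb ↥(beta0Field A) M q)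
    (zc := s36cuyZc ↥(beta0Field A) M q)
    (fun 𝔫 h𝔫 _ => s36cuy_hyO (E := ↥(beta0Field A)) hπ hq ht0 (s36n2l_phi_Jq hq)
      (s36n2l_phi_Jqq hq) hJq 𝔫 h𝔫)
    (fun 𝔫 h𝔫 => s36cu_pow_inv_mem (E := ↥(beta0Field A)) hπ ht0 hJqq hkb 𝔫 h𝔫)
    (fun 𝔫 h𝔫 => s36cu_pow_inv_mem (E := ↥(beta0Field A)) hπ ht0 hJJ hkc 𝔫 h𝔫)
    (s36cuy_hya (vtBase_residue hπ) (s36n2b_vtBase hq hA hζ)
      (IntermediateField.inclusion (s36n2b_le_K A ζ)).toRingHom ιC hq hqM h (s36i1Z hq hζ) rfl)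
    (s36cuy_hyb (vtBase_residue hπ) (s36n2b_vtBase hq hA hζ)
      (IntermediateField.inclusion (s36n2b_le_K A ζ)).toRingHom ιC hq hqM h (s36i1Z hq hζ) rfl)
    (s36cuy_hyc (vtBase_residue hπ) (s36n2b_vtBase hq hA hζ)
      (IntermediateField.inclusion (s36n2b_le_K A ζ)).toRingHom ιC hq hqM h (s36i1Z hq hζ) rfl
      (s36n2b_residue_zeta hq hA hζ))
    hA' hC

/-- **(I6)(d)** from (I2) `hKR` and the local parameters (d-GEN) of the branches `C_a`, `C_c`
at their cusp points. -/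
theorem s36cui_inf_of_gen (ιK : ↥(s36n2bK A ζ) →+* ℂ)
    (hKR : ∀ x : ↥(modularFunctionFieldFullC ↥(beta0Field A) (M * q * q)),
      IsIntegral ↥(Algebra.adjoin ↥(beta0Ring A (beta0Field A))
          {bgJ ↥(beta0Field A) (M * q * q)})
        (algebraMap ↥(beta0Ring A (beta0Field A))
          ↥(modularFunctionFieldFullC ↥(beta0Field A) (M * q * q))
          ((q : ℕ) : ↥(beta0Ring A (beta0Field A))) * x) →
      (∀ c, x ∈ s36i1V M hq hA hqM hζ ιC h c) →
        IsIntegral ↥(Algebra.adjoin ↥(beta0Ring A (beta0Field A))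
          {bgJ ↥(beta0Field A) (M * q * q)}) x)
    (hgenA : ∀ 𝔫 : AtPt (F := ↥(modularFunctionFieldFullC ↥(beta0Field A) (M * q * q)))
        ((q : ℕ) : ↥(beta0Ring A (beta0Field A))) (bgJ ↥(beta0Field A) (M * q * q))⁻¹,
      (⟨(bgJ ↥(beta0Field A) (M * q * q))⁻¹, s36pc_self_mem _⟩ :
        ↥(zchClosure (A₀ := ↥(beta0Ring A (beta0Field A)))
          ({(bgJ ↥(beta0Field A) (M * q * q))⁻¹} :
            Set ↥(modularFunctionFieldFullC ↥(beta0Field A) (M * q * q))))) ∈ 𝔫.1 →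
      atThrough 𝔫 (s36i1V M hq hA hqM hζ ιC h S36Comp.a) →
      ∃ Y₀ ∈ 𝔫.1, S36n2pGen 𝔫.1 (s36i1V M hq hA hqM hζ ιC h S36Comp.a) Y₀)
    (hgenC : ∀ 𝔫 : AtPt (F := ↥(modularFunctionFieldFullC ↥(beta0Field A) (M * q * q)))
        ((q : ℕ) : ↥(beta0Ring A (beta0Field A))) (bgJ ↥(beta0Field A) (M * q * q))⁻¹,
      (⟨(bgJ ↥(beta0Field A) (M * q * q))⁻¹, s36pc_self_mem _⟩ :
        ↥(zchClosure (A₀ := ↥(beta0Ring A (beta0Field A)))
          ({(bgJ ↥(beta0Field A) (M * q * q))⁻¹} :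
            Set ↥(modularFunctionFieldFullC ↥(beta0Field A) (M * q * q))))) ∈ 𝔫.1 →
      atThrough 𝔫 (s36i1V M hq hA hqM hζ ιC h S36Comp.c) →
      ∃ Y₀ ∈ 𝔫.1, S36n2pGen 𝔫.1 (s36i1V M hq hA hqM hζ ιC h S36Comp.c) Y₀)
    (m : ℕ) (ζ₁ : ↥(modularFunctionFieldFullC ↥(beta0Field A) (M * q))) :
    ∀ 𝔫 : AtPt (F := ↥(modularFunctionFieldFullC ↥(beta0Field A) (M * q * q)))
        ((q : ℕ) : ↥(beta0Ring A (beta0Field A))) (bgJ ↥(beta0Field A) (M * q * q))⁻¹,
      (⟨(bgJ ↥(beta0Field A) (M * q * q))⁻¹, s36pc_self_mem _⟩ :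
        ↥(zchClosure (A₀ := ↥(beta0Ring A (beta0Field A)))
          ({(bgJ ↥(beta0Field A) (M * q * q))⁻¹} :
            Set ↥(modularFunctionFieldFullC ↥(beta0Field A) (M * q * q))))) ∈ 𝔫.1 →
      @S36PtInput ↥(modularFunctionFieldFullC ↥(beta0Field A) (M * q))
        ↥(modularFunctionFieldFullC ↥(beta0Field A) (M * q * q)) _ _ S36Comp
        (s36Hor ↥(beta0Field A) m) m
        (s36Alpha ↥(beta0Field A) M q) (s36Beta ↥(beta0Field A) M q)
        (s36NormAlpha ↥(beta0Field A) M q) (s36NormBeta ↥(beta0Field A) M q) ζ₁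
        (s36i1V M hq hA hqM hζ ιC h) S36Comp.a S36Comp.b S36Comp.c
        (atO ((q : ℕ) : ↥(beta0Ring A (beta0Field A))) (bgJ ↥(beta0Field A) (M * q * q))
          (Sum.inr 𝔫))
        (stb_atO_isLocalRing (π := ((q : ℕ) : ↥(beta0Ring A (beta0Field A))))
          (bgJ ↥(beta0Field A) (M * q * q)) (Sum.inr 𝔫))
        (atInc ((q : ℕ) : ↥(beta0Ring A (beta0Field A))) (bgJ ↥(beta0Field A) (M * q * q))
          (s36i1V M hq hA hqM hζ ιC h) (Sum.inr 𝔫)) :=
  s36cui_inf_of M hq hA hqM hζ ιC h ιK hKR m ζ₁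
    (s36cua_hA M hq hA hqM hζ ιC h hKR hgenA m ζ₁)
    (s36cuc_hC_of_gen M hq hA hqM hζ ιC h hKR hgenC m ζ₁)

end Inst

/-- **(I6)(d)**: `StmtS36PtsInf` (`S36/PtsPlan.lean`), UNCONDITIONAL:
`S36PtInput` at every closed point at `j = ∞` of the chart `1 / j`. -/
theorem stmtS36PtsInf : StmtS36PtsInf := by
  intro M q p _ _ hq hp hpq hp2 hR A hA _ ζ hζ ιC ιK h r ζm hζm
  exact s36cui_inf_of_gen M hq hA hR.1 hζ ιC h ιK
    (s36sk_hKR M hq hA hR.1 hζ ιC h (s36so_rigid_h2 hR) (s36so_rigid_h3 hR) ιK)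
    (s36cug_genA_cusp M hq hA hR.1 hζ ιC h (s36so_rigid_h2 hR) (s36so_rigid_h3 hR) ιK)
    (s36cug_genC_cusp M hq hA hR.1 hζ ιC h (s36so_rigid_h2 hR) (s36so_rigid_h3 hR) ιK)
    (p ^ r) _

end Fermat.Agent.S36

end


end ZBS36_033_15

/-! ### bundled: `Fermat.Agent.S36.PtsDone` -/
section ZBS36_033_16
/-
S36 (I6) closed: `stmtS36Pts : StmtS36Pts`, from the uniqueness part (`stmtS36PtsUniq`,
`S36/PtsUniq.lean`) and the part at j = infinity (`stmtS36PtsInf`, `S36/PtsCuspInst.lean`) through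
`stmtS36Pts_of_uniq_inf` (`S36/PtsStmt.lean`).
-/

set_option autoImplicit false

namespace Fermat.Agent.S36

/-- **(I6)**: the pointwise statement `StmtS36Pts`, unconditionally. -/
theorem stmtS36Pts : StmtS36Pts :=
  stmtS36Pts_of_uniq_inf stmtS36PtsUniq stmtS36PtsInf

end Fermat.Agent.S36


end ZBS36_033_16
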