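/- GENERATED FILE (helper35, build-time optimisation, NOTES/ZB.md): verbatim concatenation of the modules
   Fermat.Agent.R38.HolN
   Fermat.Agent.R38.HolRes
   Fermat.Agent.R38.HolFinal
   Fermat.Agent.R38.HolNIdeal
   Do not edit; do not import together with these modules. -/
import Mathlib
import Fermat.Agent.ZB.S33_006
import Fermat.Agent.ZB.ES_027
import Fermat.Agent.ZB.ES_002
import Fermat.Agent.ZB.ES_028
import Fermat.Agent.ZB.ES_009
import Fermat.Agent.ZB.ES_021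
import Fermat.Prelude.Thm_ModularCurve_coeff_jqModC_neg_one

/-! ### bundled: `Fermat.Agent.R38.HolN` -/
section ZBR38_001_0

/-!
# R38 TRES, route HOL-dlog, piece `𝔑` (helper26): the ideal `𝔑` — pure algebra

`F` a field, `B ⊂ F` a subring which is ROOT CLOSED in `F` (`xⁿ ∈ B ⇒ x ∈ B`; true for an
integrally closed `B`), `u, v ∈ F` nonzero.
`r38hn_N B u v = {y ∈ B : y² ∈ u B, y³ ∈ v u B}` (for `u = j − 1728`, `v = j`, `B = B̄` these are
the hypotheses `h2`, `h3` of `ES.I2.res_main`).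

* `r38hn_zero`, `r38hn_add`, `r38hn_neg`, `r38hn_smul` : `𝔑` is an ideal of `B`;
* `r38hn_sum` : finite sums `Σ bᵢ yᵢ`;
* `r38hn_leibniz_mul`, … : for a map `D` with the Leibniz rule, `{c ∈ B : D c ∈ 𝔑}` is closed
  under `+`, `·`.
-/

set_option autoImplicit false

namespace Fermat.Agent.R38

section ideal

variable {F : Type*} [Field F]

/-- `y ∈ 𝔑`: `y ∈ B`, `y² = y₂ u`, `y³ = y₁ v u` with `y₁, y₂ ∈ B`. -/
def r38hn_N (B : Subring F) (u v : F) (y : F) : Prop :=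
  y ∈ B ∧ (∃ y2 ∈ B, y ^ 2 = y2 * u) ∧ ∃ y1 ∈ B, y ^ 3 = y1 * v * u

variable {B : Subring F} {u v : F}

theorem r38hn_zero : r38hn_N B u v 0 :=
  ⟨B.zero_mem, ⟨0, B.zero_mem, by ring⟩, ⟨0, B.zero_mem, by ring⟩⟩

theorem r38hn_smul {b y : F} (hb : b ∈ B) (hy : r38hn_N B u v y) : r38hn_N B u v (b * y) := by
  obtain ⟨hyB, ⟨y2, hy2, e2⟩, ⟨y1, hy1, e1⟩⟩ := hy
  refine ⟨B.mul_mem hb hyB, ⟨b ^ 2 * y2, B.mul_mem (B.pow_mem hb 2) hy2, ?_⟩,
    ⟨b ^ 3 * y1, B.mul_mem (B.pow_mem hb 3) hy1, ?_⟩⟩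
  · rw [mul_pow, e2]; ring
  · rw [mul_pow, e1]; ring

theorem r38hn_neg {y : F} (hy : r38hn_N B u v y) : r38hn_N B u v (-y) := by
  have := r38hn_smul (b := -1) (B.neg_mem B.one_mem) hy
  rwa [neg_one_mul] at this

/-- the cross term `y z ∈ u B` -/
theorem r38hn_cross2 (hroot : ∀ x : F, ∀ n : ℕ, 0 < n → x ^ n ∈ B → x ∈ B) (hu : u ≠ 0)
    {y z : F} (hy : r38hn_N B u v y) (hz : r38hn_N B u v z) : ∃ t ∈ B, y * z = t * u := by
  obtain ⟨-, ⟨y2, hy2, e2⟩, -⟩ := hy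
  obtain ⟨-, ⟨z2, hz2, f2⟩, -⟩ := hz
  refine ⟨y * z / u, hroot _ 2 (by norm_num) ?_, by field_simp⟩
  have : (y * z / u) ^ 2 = y2 * z2 := by
    rw [div_pow, mul_pow, e2, f2]
    field_simp
  rw [this]
  exact B.mul_mem hy2 hz2

/-- the cross term `y² z ∈ v u B` -/
theorem r38hn_cross3 (hroot : ∀ x : F, ∀ n : ℕ, 0 < n → x ^ n ∈ B → x ∈ B) (hu : u ≠ 0)
    (hv : v ≠ 0) {y z : F} (hy : r38hn_N B u v y) (hz : r38hn_N B u v z) :
    ∃ s ∈ B, y ^ 2 * z = s * v * u := by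
  obtain ⟨-, -, ⟨y1, hy1, e1⟩⟩ := hy
  obtain ⟨-, -, ⟨z1, hz1, f1⟩⟩ := hz
  refine ⟨y ^ 2 * z / (v * u), hroot _ 3 (by norm_num) ?_, by field_simp⟩
  have : (y ^ 2 * z / (v * u)) ^ 3 = y1 ^ 2 * z1 := by
    have h6 : (y ^ 2 * z) ^ 3 = (y ^ 3) ^ 2 * z ^ 3 := by ring
    rw [div_pow, h6, e1, f1]
    field_simp
  rw [this]
  exact B.mul_mem (B.pow_mem hy1 2) hz1

theorem r38hn_add (hroot : ∀ x : F, ∀ n : ℕ, 0 < n → x ^ n ∈ B → x ∈ B) (hu : u ≠ 0)
    (hv : v ≠ 0) {y z : F} (hy : r38hn_N B u v y) (hz : r38hn_N B u v z) :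
    r38hn_N B u v (y + z) := by
  obtain ⟨t, ht, et⟩ := r38hn_cross2 hroot hu hy hz
  obtain ⟨s, hs, es⟩ := r38hn_cross3 hroot hu hv hy hz
  obtain ⟨s', hs', es'⟩ := r38hn_cross3 hroot hu hv hz hy
  obtain ⟨hyB, ⟨y2, hy2, e2⟩, ⟨y1, hy1, e1⟩⟩ := hy
  obtain ⟨hzB, ⟨z2, hz2, f2⟩, ⟨z1, hz1, f1⟩⟩ := hz
  have h2B : (2 : F) ∈ B := by
    have : (2 : F) = 1 + 1 := by norm_num
    rw [this]; exact B.add_mem B.one_mem B.one_mem
  have h3B : (3 : F) ∈ B := by
    have : (3 : F) = 2 + 1 := by norm_num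
    rw [this]; exact B.add_mem h2B B.one_mem
  refine ⟨B.add_mem hyB hzB,
    ⟨y2 + 2 * t + z2, B.add_mem (B.add_mem hy2 (B.mul_mem h2B ht)) hz2, ?_⟩,
    ⟨y1 + 3 * s + 3 * s' + z1,
      B.add_mem (B.add_mem (B.add_mem hy1 (B.mul_mem h3B hs)) (B.mul_mem h3B hs')) hz1, ?_⟩⟩
  · linear_combination e2 + f2 + 2 * et
  · linear_combination e1 + f1 + 3 * es + 3 * es'

theorem r38hn_sub (hroot : ∀ x : F, ∀ n : ℕ, 0 < n → x ^ n ∈ B → x ∈ B) (hu : u ≠ 0)
    (hv : v ≠ 0) {y z : F} (hy : r38hn_N B u v y) (hz : r38hn_N B u v z) :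
    r38hn_N B u v (y - z) := by
  rw [sub_eq_add_neg]
  exact r38hn_add hroot hu hv hy (r38hn_neg hz)

/-- finite `B`-linear combinations of elements of `𝔑` are in `𝔑` -/
theorem r38hn_sum (hroot : ∀ x : F, ∀ n : ℕ, 0 < n → x ^ n ∈ B → x ∈ B) (hu : u ≠ 0)
    (hv : v ≠ 0) {ι : Type*} (s : Finset ι) (b y : ι → F) (hb : ∀ i ∈ s, b i ∈ B)
    (hy : ∀ i ∈ s, r38hn_N B u v (y i)) : r38hn_N B u v (∑ i ∈ s, b i * y i) := by
  classical
  induction s using Finset.induction_on with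
  | empty => simpa using r38hn_zero
  | insert a s ha ih =>
    rw [Finset.sum_insert ha]
    exact r38hn_add hroot hu hv
      (r38hn_smul (hb a (Finset.mem_insert_self a s)) (hy a (Finset.mem_insert_self a s)))
      (ih (fun i hi => hb i (Finset.mem_insert_of_mem hi))
        (fun i hi => hy i (Finset.mem_insert_of_mem hi)))

end ideal

section leibniz

variable {F : Type*} [Field F] {B : Subring F} {u v : F}

/-- `{c ∈ B : D c ∈ 𝔑}` is closed under products, for a map `D` with the Leibniz rule -/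
theorem r38hn_leibniz_mul (hroot : ∀ x : F, ∀ n : ℕ, 0 < n → x ^ n ∈ B → x ∈ B) (hu : u ≠ 0)
    (hv : v ≠ 0) (D : F → F) (hD : ∀ a b, D (a * b) = a * D b + b * D a) {c d : F}
    (hc : c ∈ B) (hd : d ∈ B) (hDc : r38hn_N B u v (D c)) (hDd : r38hn_N B u v (D d)) :
    r38hn_N B u v (D (c * d)) := by
  rw [hD]
  exact r38hn_add hroot hu hv (r38hn_smul hc hDd) (r38hn_smul hd hDc)

/-- … and under sums, for an additive `D` -/
theorem r38hn_leibniz_add (hroot : ∀ x : F, ∀ n : ℕ, 0 < n → x ^ n ∈ B → x ∈ B) (hu : u ≠ 0)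
    (hv : v ≠ 0) (D : F → F) (hD : ∀ a b, D (a + b) = D a + D b) {c d : F}
    (hDc : r38hn_N B u v (D c)) (hDd : r38hn_N B u v (D d)) :
    r38hn_N B u v (D (c + d)) := by
  rw [hD]
  exact r38hn_add hroot hu hv hDc hDd

/-- … and under powers -/
theorem r38hn_leibniz_pow (hroot : ∀ x : F, ∀ n : ℕ, 0 < n → x ^ n ∈ B → x ∈ B) (hu : u ≠ 0)
    (hv : v ≠ 0) (D : F → F) (hD : ∀ a b, D (a * b) = a * D b + b * D a) (hD1 : D 1 = 0)
    {c : F} (hc : c ∈ B) (hDc : r38hn_N B u v (D c)) (n : ℕ) :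
    r38hn_N B u v (D (c ^ n)) := by
  induction n with
  | zero => rw [pow_zero, hD1]; exact r38hn_zero
  | succ n ih =>
    rw [pow_succ]
    exact r38hn_leibniz_mul hroot hu hv D hD (B.pow_mem hc n) hc ih hDc

end leibniz

end Fermat.Agent.R38


end ZBR38_001_0

/-! ### bundled: `Fermat.Agent.R38.HolRes` -/
section ZBR38_001_1

/-!
# R38 TRES, route HOL-dlog, piece RES-asm (helper32): the residue pairing kills `dlog r`

`k = kA A`, `A ⊂ ℚ̄` a valuation ring over `ℓ ≥ 5`, `ℓ ∤ N`, `F̄ = modularFunctionFieldFullC k N`.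

* `r38hres_dlog_pos` : in characteristic `p`, `dlog f = θ f / f ∈ q k[[q]]` when `p ∣ ord f`;
* `r38hres_res` : **(RES)** `a₀ (w · fq) = 0` for all `w ∈ W`, for ANY series `fq` such that
  `y = j (j - 1728) fq / θ j` lies in `F̄`, is integral over `k[j]` together with
  `y² / (j - 1728)` and `y³ / (j (j - 1728))`, and has `Q`-order `> -N` under the reduced
  embeddings `τ_i` (this is `ES.I2.res_main` with all the modular inputs discharged);
* `r38hres_res_N` : the same with the hypothesis in the form `y ∈ 𝔑` (`r38hn_N`, helper26);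
* `r38hres_span` : **(HOL-SPAN), assembly**: such an `fq ∈ q k[[q]]` is a `k`-linear combination
  of reductions of cusp forms of weight `2` with integer `q`-expansion (with `r38hold_dual`);
* `r38hres_span_dlog` : the case `fq = dlog r`, `p ∣ ord_q r`.
-/

set_option autoImplicit false
set_option linter.style.haveILetI false

noncomputable section

namespace Fermat.Agent.R38

open ModularCurve AlgebraicCurve HahnSeries Fermat.Agent.ES Fermat.Agent.S24 Fermat.Agent.ES.M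
open Fermat.Agent.ES.I2 Fermat.Agent.S28.Deriv

section Formal

variable {k : Type*} [Field k]

/-- in characteristic `p`, the logarithmic derivative of a series whose order is divisible by `p`
has no term of degree `≤ 0`. -/
theorem r38hres_dlog_pos (p : ℕ) [Fact p.Prime] [CharP k p] (f : LaurentSeries k)
    (hf : (p : ℤ) ∣ f.order) : ∀ m : ℤ, m ≤ 0 → (r38dlog f).coeff m = 0 := by
  intro m hm
  by_cases hf0 : f = 0
  · rw [hf0, r38dlog_zero]; rfl
  by_cases hb : r38dlog f = 0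
  · rw [hb]; rfl
  have hmul : r38dlog f * f = thetaFun f := r38dlog_mul_self hf0
  have hz : thetaFun f ≠ 0 := by
    rw [← hmul]
    exact mul_ne_zero hb hf0
  have hord : (thetaFun f).order = (r38dlog f).order + f.order := by
    rw [← hmul, HahnSeries.order_mul hb hf0]
  have hc : (thetaFun f).coeff ((r38dlog f).order + f.order) ≠ 0 := by
    rw [← hord]
    exact fun h => hz (HahnSeries.coeff_order_eq_zero.1 h)
  rw [thetaFun_coeff] at hc
  have hpos : 0 < (r38dlog f).order := by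
    by_contra hneg
    push Not at hneg
    rcases lt_or_eq_of_le hneg with h1 | h1
    · apply hc
      rw [HahnSeries.coeff_eq_zero_of_lt_order (by omega), mul_zero]
    · apply hc
      rw [h1, zero_add, (CharP.intCast_eq_zero_iff k p f.order).mpr hf, zero_mul]
  exact HahnSeries.coeff_eq_zero_of_lt_order (lt_of_le_of_lt hm hpos)

end Formal

section Res

variable (N : ℕ) [NeZero N] (A : ValuationSubring Kb)

/-- **(RES)**: the residue pairing with the functions regular outside `∞` kills every series `fq`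
for which `y = j (j - 1728) fq / θ j` behaves like a regular differential. -/
theorem r38hres_res (ℓ : ℕ) (hℓ : ℓ.Prime) (h5 : 5 ≤ ℓ) (hℓN : ¬ ℓ ∣ N)
    (hA : A.LiesOverPrime ℓ) (fq : LaurentSeries (kA A))
    (y y1 y2 : ↥(modularFunctionFieldFullC (kA A) N))
    (hrel : (y : LaurentSeries (kA A)) * thetaFun (jqModC (kA A)) =
      fq * jqModC (kA A) * (jqModC (kA A) - 1728))
    (h2 : (y : LaurentSeries (kA A)) ^ 2 = (y2 : LaurentSeries (kA A)) * (jqModC (kA A) - 1728))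
    (h3 : (y : LaurentSeries (kA A)) ^ 3 =
      (y1 : LaurentSeries (kA A)) * jqModC (kA A) * (jqModC (kA A) - 1728))
    (hyI : IntJ (jqModC (kA A)) (y : LaurentSeries (kA A)))
    (hy1I : IntJ (jqModC (kA A)) (y1 : LaurentSeries (kA A)))
    (hy2I : IntJ (jqModC (kA A)) (y2 : LaurentSeries (kA A)))
    (hyord : ∀ (τ : Fin (dedekindPsi N) →
        (↥(modularFunctionFieldFullC (kA A) N) →ₐ[kA A] LaurentSeries (kA A)))
      (i₀ : Fin (dedekindPsi N)), IsTau N A τ i₀ →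
      ∀ i, ∀ m : ℤ, m ≤ -(N : ℤ) → (τ i y).coeff m = 0)
    (w : LaurentSeries (kA A)) (hw : InW N A w) : (w * fq).coeff 0 = 0 := by
  haveI : Fact ℓ.Prime := ⟨hℓ⟩
  haveI : CharP (kA A) ℓ := kron_charP_residueField hℓ hA
  haveI : PerfectRing (kA A) ℓ := Fermat.Agent.INJ.nf_perfectRing_residueField A ℓ
  have hNk : ((N : ℕ) : kA A) ≠ 0 := redF_natCast_ne_zero N A ℓ hℓ hℓN hA
  have h1728 : (1728 : kA A) ≠ 0 := res_1728_ne_zero ℓ hℓ h5
  obtain ⟨τ, i₀, hτ⟩ := stmtTauAll N ℓ hℓ hℓN A hA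
  obtain ⟨hS2a, hS2b⟩ := stmtS2All N ℓ hℓ hℓN A hA
  exact res_main (kA A) ℓ h1728 N hNk stmtNilp stmtTN τ i₀ hτ.inj hτ.infty hτ.jmap ⟨w, hw.1⟩
    (hS2a w hw) (hS2b τ i₀ hτ w hw) fq y y1 y2 hrel h2 h3 hyI hy1I hy2I (hyord τ i₀ hτ)

/-- the function `j̄` as an element of `F̄` -/
def r38hresJ (k : Type*) [Field k] (N : ℕ) : ↥(modularFunctionFieldFullC k N) :=
  ⟨jqModC k, jqModC_mem_full k N⟩

omit [NeZero N] in
@[simp] theorem r38hresJ_coe (k : Type*) [Field k] :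
    ((r38hresJ k N : ↥(modularFunctionFieldFullC k N)) : LaurentSeries k) = jqModC k := rfl

/-- **(RES)** with the hypothesis in the form `y ∈ 𝔑` (`r38hn_N`), for any subring `B` of `F̄`
whose elements are integral over `k[j̄]`. -/
theorem r38hres_res_N (ℓ : ℕ) (hℓ : ℓ.Prime) (h5 : 5 ≤ ℓ) (hℓN : ¬ ℓ ∣ N)
    (hA : A.LiesOverPrime ℓ) (B : Subring ↥(modularFunctionFieldFullC (kA A) N))
    (hB : ∀ x ∈ B, IntJ (jqModC (kA A)) ((x : ↥(modularFunctionFieldFullC (kA A) N)) :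
      LaurentSeries (kA A)))
    (fq : LaurentSeries (kA A)) (y : ↥(modularFunctionFieldFullC (kA A) N))
    (hy : r38hn_N B (r38hresJ (kA A) N - 1728) (r38hresJ (kA A) N) y)
    (hrel : (y : LaurentSeries (kA A)) * thetaFun (jqModC (kA A)) =
      fq * jqModC (kA A) * (jqModC (kA A) - 1728))
    (hyord : ∀ (τ : Fin (dedekindPsi N) →
        (↥(modularFunctionFieldFullC (kA A) N) →ₐ[kA A] LaurentSeries (kA A)))
      (i₀ : Fin (dedekindPsi N)), IsTau N A τ i₀ →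
      ∀ i, ∀ m : ℤ, m ≤ -(N : ℤ) → (τ i y).coeff m = 0)
    (w : LaurentSeries (kA A)) (hw : InW N A w) : (w * fq).coeff 0 = 0 := by
  obtain ⟨hyB, ⟨y2, hy2B, e2⟩, ⟨y1, hy1B, e1⟩⟩ := hy
  have h1728 : (((1728 : ↥(modularFunctionFieldFullC (kA A) N)) :
      ↥(modularFunctionFieldFullC (kA A) N)) : LaurentSeries (kA A)) = 1728 :=
    map_ofNat (IntermediateField.val (modularFunctionFieldFullC (kA A) N)) 1728
  refine r38hres_res N A ℓ hℓ h5 hℓN hA fq y y1 y2 hrel ?_ ?_ (hB y hyB) (hB y1 hy1B)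
    (hB y2 hy2B) hyord w hw
  · have := congrArg (fun x : ↥(modularFunctionFieldFullC (kA A) N) =>
      (x : LaurentSeries (kA A))) e2
    simp only [SubmonoidClass.coe_pow, MulMemClass.coe_mul, AddSubgroupClass.coe_sub,
      r38hresJ_coe, h1728] at this
    exact this
  · have := congrArg (fun x : ↥(modularFunctionFieldFullC (kA A) N) =>
      (x : LaurentSeries (kA A))) e1
    simp only [SubmonoidClass.coe_pow, MulMemClass.coe_mul, AddSubgroupClass.coe_sub,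
      r38hresJ_coe, h1728] at this
    exact this

/-- **(HOL-SPAN), assembly**: a series `fq ∈ q k[[q]]` for which `y = j (j - 1728) fq / θ j`
lies in `𝔑` and has `Q`-order `> -N` at all cusps is a `k`-linear combination of reductions of
cusp forms of weight `2` with integer `q`-expansion. -/
theorem r38hres_span (ℓ : ℕ) (hℓ : ℓ.Prime) (h5 : 5 ≤ ℓ) (hℓN : ¬ ℓ ∣ N)
    (hA : A.LiesOverPrime ℓ) (B : Subring ↥(modularFunctionFieldFullC (kA A) N))
    (hB : ∀ x ∈ B, IntJ (jqModC (kA A)) ((x : ↥(modularFunctionFieldFullC (kA A) N)) :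
      LaurentSeries (kA A)))
    (fq : LaurentSeries (kA A)) (hfq0 : ∀ m : ℤ, m ≤ 0 → fq.coeff m = 0)
    (y : ↥(modularFunctionFieldFullC (kA A) N))
    (hy : r38hn_N B (r38hresJ (kA A) N - 1728) (r38hresJ (kA A) N) y)
    (hrel : (y : LaurentSeries (kA A)) * thetaFun (jqModC (kA A)) =
      fq * jqModC (kA A) * (jqModC (kA A) - 1728))
    (hyord : ∀ (τ : Fin (dedekindPsi N) →
        (↥(modularFunctionFieldFullC (kA A) N) →ₐ[kA A] LaurentSeries (kA A)))
      (i₀ : Fin (dedekindPsi N)), IsTau N A τ i₀ →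
      ∀ i, ∀ m : ℤ, m ≤ -(N : ℤ) → (τ i y).coeff m = 0) :
    ∃ (f : Fin (gN N) → CuspForm (CongruenceSubgroup.Gamma0 N) 2) (z : Fin (gN N) → ℕ → ℤ),
      (∀ t n, ModularFormClass.qCoeff (f t) n = (z t n : ℂ)) ∧
      LinearIndependent (kA A) (fun t => coeffMap (Int.castRingHom (kA A)) (fqZ (z t))) ∧
      fq ∈ Submodule.span (kA A)
        (Set.range fun t => coeffMap (Int.castRingHom (kA A)) (fqZ (z t))) :=
  r38hold_dual N ℓ hℓ h5 hℓN A hA fq hfq0
    (r38hres_res_N N A ℓ hℓ h5 hℓN hA B hB fq y hy hrel hyord)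

/-- **(HOL-SPAN) for `dlog r`**: `r ∈ F̄ˣ` with `ℓ ∣ ord_q r`, such that
`y = j (j - 1728) θ r / (r θ j)` lies in `𝔑` and has `Q`-order `> -N` at all cusps. -/
theorem r38hres_span_dlog (ℓ : ℕ) (hℓ : ℓ.Prime) (h5 : 5 ≤ ℓ) (hℓN : ¬ ℓ ∣ N)
    (hA : A.LiesOverPrime ℓ) (B : Subring ↥(modularFunctionFieldFullC (kA A) N))
    (hB : ∀ x ∈ B, IntJ (jqModC (kA A)) ((x : ↥(modularFunctionFieldFullC (kA A) N)) :
      LaurentSeries (kA A)))
    (r : LaurentSeries (kA A)) (hr : (ℓ : ℤ) ∣ r.order)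
    (y : ↥(modularFunctionFieldFullC (kA A) N))
    (hy : r38hn_N B (r38hresJ (kA A) N - 1728) (r38hresJ (kA A) N) y)
    (hrel : (y : LaurentSeries (kA A)) * thetaFun (jqModC (kA A)) =
      r38dlog r * jqModC (kA A) * (jqModC (kA A) - 1728))
    (hyord : ∀ (τ : Fin (dedekindPsi N) →
        (↥(modularFunctionFieldFullC (kA A) N) →ₐ[kA A] LaurentSeries (kA A)))
      (i₀ : Fin (dedekindPsi N)), IsTau N A τ i₀ →
      ∀ i, ∀ m : ℤ, m ≤ -(N : ℤ) → (τ i y).coeff m = 0) :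
    ∃ (f : Fin (gN N) → CuspForm (CongruenceSubgroup.Gamma0 N) 2) (z : Fin (gN N) → ℕ → ℤ),
      (∀ t n, ModularFormClass.qCoeff (f t) n = (z t n : ℂ)) ∧
      LinearIndependent (kA A) (fun t => coeffMap (Int.castRingHom (kA A)) (fqZ (z t))) ∧
      r38dlog r ∈ Submodule.span (kA A)
        (Set.range fun t => coeffMap (Int.castRingHom (kA A)) (fqZ (z t))) := by
  haveI : Fact ℓ.Prime := ⟨hℓ⟩
  haveI : CharP (kA A) ℓ := kron_charP_residueField hℓ hA
  exact r38hres_span N A ℓ hℓ h5 hℓN hA B hB (r38dlog r) (r38hres_dlog_pos ℓ r hr) y hy hrel hyord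

end Res

/-! ### The glue `StmtHolResGlue` of `R38/PlanHol.lean` -/

section Glue

variable {k : Type} [Field k] {N : ℕ} [NeZero N]

omit [NeZero N] in
theorem r38hres_holInt_zero : HolInt k N 0 :=
  ⟨zero_mem _, by
    have := intJ_aeval (jqModC k) (0 : Polynomial k)
    rwa [map_zero] at this⟩

omit [NeZero N] in
theorem r38hres_holN_zero : HolN k N 0 :=
  ⟨r38hres_holInt_zero, ⟨0, r38hres_holInt_zero, by ring⟩, ⟨0, r38hres_holInt_zero, by ring⟩⟩

omit [NeZero N] in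
/-- finite `B̄`-linear combinations of elements of `𝔑` lie in `𝔑` -/
theorem r38hres_holN_sum (hN : (∀ a b, HolN k N a → HolN k N b → HolN k N (a + b)) ∧
      (∀ c y, HolInt k N c → HolN k N y → HolN k N (c * y)))
    {ι : Type*} (s : Finset ι) (c y : ι → LaurentSeries k)
    (hc : ∀ i ∈ s, HolInt k N (c i)) (hy : ∀ i ∈ s, HolN k N (y i)) :
    HolN k N (∑ i ∈ s, c i * y i) := by
  classical
  induction s using Finset.induction_on with
  | empty =>
    rw [Finset.sum_empty]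
    exact r38hres_holN_zero
  | insert a s ha ih =>
    rw [Finset.sum_insert ha]
    exact hN.1 _ _ (hN.2 _ _ (hc a (Finset.mem_insert_self a s))
        (hy a (Finset.mem_insert_self a s)))
      (ih (fun i hi => hc i (Finset.mem_insert_of_mem hi))
        (fun i hi => hy i (Finset.mem_insert_of_mem hi)))

end Glue

/-- **piece RES-asm**: `ES.I2.res_main` with `fq := dlog r`, `y := Σ cᵢ D′ dᵢ`. -/
theorem stmtHolResGlue : StmtHolResGlue := by
  intro hNI _hDer _hDerTau hOrd hCusp hDed hB1 N _ ℓ hℓ h5 hℓN A hA r hr0 hdiv w hw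
  haveI : Fact ℓ.Prime := ⟨hℓ⟩
  haveI : CharP (kA A) ℓ := kron_charP_residueField hℓ hA
  haveI : PerfectRing (kA A) ℓ := Fermat.Agent.INJ.nf_perfectRing_residueField A ℓ
  have hNk : ((N : ℕ) : kA A) ≠ 0 := redF_natCast_ne_zero N A ℓ hℓ hℓN hA
  obtain ⟨hr, hdivQ⟩ := hdiv
  have hR0 : (⟨r, hr⟩ : ↥(modularFunctionFieldFullC (kA A) N)) ≠ 0 := fun h =>
    hr0 (congrArg Subtype.val h)
  -- (DED)
  obtain ⟨n, c, d, hc, hd, hθ⟩ := hDed (kA A) ℓ N hNk ⟨r, hr⟩ hR0 (fun Q _ => hdivQ Q)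
  -- (B1)
  choose yy hyN hyrel using fun i => hB1 N ℓ hℓ h5 hℓN A hA (d i) (hd i)
  -- the element `y`
  have hyN' : HolN (kA A) N (∑ i, c i * yy i) :=
    r38hres_holN_sum (hNI (kA A) N) Finset.univ c yy (fun i _ => hc i) (fun i _ => hyN i)
  obtain ⟨⟨hyF, hyI⟩, ⟨y2, ⟨hy2F, hy2I⟩, e2⟩, ⟨y1, ⟨hy1F, hy1I⟩, e1⟩⟩ := hyN'
  have hdlog : r38dlog r = ∑ i, c i * thetaFun (d i) := by
    have h1 : (r : LaurentSeries (kA A)) * ∑ i, c i * thetaFun (d i) = thetaFun r := hθ.symm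
    rw [r38dlog, ← h1, mul_comm r, mul_assoc, mul_inv_cancel₀ hr0, mul_one]
  have hrel : (∑ i, c i * yy i) * thetaFun (jqModC (kA A)) =
      r38dlog r * jqModC (kA A) * (jqModC (kA A) - 1728) := by
    rw [hdlog, Finset.sum_mul, Finset.sum_mul, Finset.sum_mul]
    refine Finset.sum_congr rfl fun i _ => ?_
    rw [mul_assoc, hyrel i]
    ring
  refine r38hres_res N A ℓ hℓ h5 hℓN hA (r38dlog r) ⟨_, hyF⟩ ⟨y1, hy1F⟩ ⟨y2, hy2F⟩ hrel e2 e1
    hyI hy1I hy2I ?_ w hw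
  intro τ i₀ hτ i m hm
  have hjτ : τ i (holJ (kA A) N) = qExpand (kA A) N (jqModC (kA A)) := hτ.jmap i
  have hord : (ℓ : ℤ) ∣ (τ i ⟨r, hr⟩).order :=
    hOrd (kA A) ℓ N hNk (τ i) hjτ ⟨r, hr⟩ hR0 hdivQ
  refine hCusp (kA A) ℓ N hNk (τ i) hjτ ⟨r, hr⟩ ⟨_, hyF⟩ hR0 hord ?_ m hm
  show (∑ i, c i * yy i) * thetaFun (jqModC (kA A)) * r =
    thetaFun r * jqModC (kA A) * (jqModC (kA A) - 1728)
  rw [hrel, r38dlog]
  have : thetaFun r * r⁻¹ * jqModC (kA A) * (jqModC (kA A) - 1728) * r =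
      thetaFun r * jqModC (kA A) * (jqModC (kA A) - 1728) * (r⁻¹ * r) := by ring
  rw [this, inv_mul_cancel₀ hr0, mul_one]

end Fermat.Agent.R38

end
end ZBR38_001_1

/-! ### bundled: `Fermat.Agent.R38.HolFinal` -/
section ZBR38_001_2

/-!
# Row 38, PKG-TRES, route HOL-dlog: assembly of `StmtHolSpanAll` (helper83)

`stmtHolSpanAll_of : StmtHolNIdeal → StmtHolDed → StmtHolB1All → StmtHolSpanAll`
(the other pieces DER, DER-τ, ORD, CUSP (helper55), RES-asm (helper32), DUAL (helper41),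
SPAN-asm are discharged).
-/

set_option autoImplicit false

namespace Fermat.Agent.R38

/-- (RES) from the three remaining pieces -/
theorem stmtHolResAll_of (hN : StmtHolNIdeal) (hDed : StmtHolDed) (hB1 : StmtHolB1All) :
    StmtHolResAll :=
  stmtHolResGlue hN stmtHolDer stmtHolDerTau stmtHolOrd stmtHolCusp hDed hB1

/-- **(HOL-SPAN)** from the three remaining pieces -/
theorem stmtHolSpanAll_of (hN : StmtHolNIdeal) (hDed : StmtHolDed) (hB1 : StmtHolB1All) :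
    StmtHolSpanAll :=
  stmtHolSpanGlue stmtHolOrd (stmtHolResAll_of hN hDed hB1)

end Fermat.Agent.R38


end ZBR38_001_2

/-! ### bundled: `Fermat.Agent.R38.HolNIdeal` -/
section ZBR38_001_3

/-!
# R38 TRES, route HOL-dlog, piece `𝔑` (helper26): `StmtHolNIdeal`

`B̄ = {z ∈ F̄ : IntJ j̄ z}` as a subring of `F̄ = modularFunctionFieldFullC k N`; it is root closed
(`IsIntegral.of_pow`), `j̄ ≠ 0`, `j̄ − 1728 ≠ 0` (pole at `q = 0`), so `R38/HolN.lean` applies.

* `r38hn_B` : the subring `B̄ ⊂ F̄`;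
* `r38hn_holN_iff` : `HolN k N y ↔ y ∈ F̄ ∧ r38hn_N B̄ (j̄ − 1728) j̄ y`;
* `r38hn_stmtHolNIdeal : StmtHolNIdeal`.
-/

set_option autoImplicit false
set_option linter.style.haveILetI false
set_option linter.unusedSectionVars false

noncomputable section

namespace Fermat.Agent.R38

open ModularCurve HahnSeries Fermat.Agent.ES.I2 Polynomial

variable (k : Type) [Field k] (N : ℕ) [NeZero N]

/-- `B̄`: the elements of `F̄` integral over `k[j̄]`, as a subring of `F̄` -/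
def r38hn_B : Subring ↥(modularFunctionFieldFullC k N) where
  carrier := {z | IntJ (jqModC k) (z : LaurentSeries k)}
  mul_mem' := fun {a b} ha hb => by
    show IntJ (jqModC k) ((a : LaurentSeries k) * (b : LaurentSeries k))
    exact IntJ.mul ha hb
  one_mem' := by
    show IntJ (jqModC k) (1 : LaurentSeries k)
    have := intJ_aeval (jqModC k) (1 : k[X])
    rwa [map_one] at this
  add_mem' := fun {a b} ha hb => by
    show IntJ (jqModC k) ((a : LaurentSeries k) + (b : LaurentSeries k))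
    exact IntJ.add ha hb
  zero_mem' := by
    show IntJ (jqModC k) (0 : LaurentSeries k)
    have := intJ_aeval (jqModC k) (0 : k[X])
    rwa [map_zero] at this
  neg_mem' := fun {a} ha => by
    show IntJ (jqModC k) (-(a : LaurentSeries k))
    have h0 : IntJ (jqModC k) (0 : LaurentSeries k) := by
      have := intJ_aeval (jqModC k) (0 : k[X])
      rwa [map_zero] at this
    have := IntJ.sub h0 ha
    rwa [zero_sub] at this

theorem r38hn_mem_B {z : ↥(modularFunctionFieldFullC k N)} :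
    z ∈ r38hn_B k N ↔ IntJ (jqModC k) (z : LaurentSeries k) := Iff.rfl

theorem r38hn_holInt_iff {z : LaurentSeries k} :
    HolInt k N z ↔ ∃ hz : z ∈ modularFunctionFieldFullC k N, (⟨z, hz⟩ : ↥(modularFunctionFieldFullC k N)) ∈ r38hn_B k N :=
  ⟨fun h => ⟨h.1, h.2⟩, fun ⟨h1, h2⟩ => ⟨h1, h2⟩⟩

/-- `B̄` is root closed in `F̄` -/
theorem r38hn_B_root (x : ↥(modularFunctionFieldFullC k N)) (n : ℕ) (hn : 0 < n)
    (hx : x ^ n ∈ r38hn_B k N) : x ∈ r38hn_B k N := by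
  letI : Algebra k[X] (LaurentSeries k) := (Polynomial.aeval (R := k) (jqModC k)).toRingHom.toAlgebra
  have h1 : IsIntegral k[X] ((x : LaurentSeries k) ^ n) := hx
  exact IsIntegral.of_pow hn h1

theorem r38hn_J_ne_zero : (holJ k N) ≠ 0 := by
  intro h
  have h1 : (jqModC k).coeff (-1 : ℤ) = 1 := coeff_jqModC_neg_one k
  have h2 : ((holJ k N : ↥(modularFunctionFieldFullC k N)) : LaurentSeries k) = 0 := by
    rw [h]; rfl
  have h3 : jqModC k = 0 := h2
  rw [h3, HahnSeries.coeff_zero] at h1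
  exact zero_ne_one h1

theorem r38hn_J1728_ne_zero : (holJ k N) - 1728 ≠ 0 := by
  intro h
  have h1 : (jqModC k).coeff (-1 : ℤ) = 1 := coeff_jqModC_neg_one k
  have h2 : ((holJ k N - 1728 : ↥(modularFunctionFieldFullC k N)) : LaurentSeries k) = 0 := by
    rw [h]; rfl
  have h3 : jqModC k - 1728 = 0 := h2
  have h4 : jqModC k = HahnSeries.C (1728 : k) := by
    rw [sub_eq_zero] at h3
    rw [h3, map_ofNat]
  rw [h4, HahnSeries.C_apply, HahnSeries.coeff_single_of_ne (by norm_num)] at h1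
  exact zero_ne_one h1

/-- `HolN` in terms of the abstract ideal `𝔑` of `R38/HolN.lean` -/
theorem r38hn_holN_coe (y : ↥(modularFunctionFieldFullC k N)) :
    HolN k N (y : LaurentSeries k) ↔
      r38hn_N (r38hn_B k N) (holJ k N - 1728) (holJ k N) y := by
  constructor
  · rintro ⟨⟨-, hyI⟩, ⟨y2, ⟨hy2, hy2I⟩, h2⟩, ⟨y1, ⟨hy1, hy1I⟩, h3⟩⟩
    exact ⟨hyI, ⟨⟨y2, hy2⟩, hy2I, Subtype.ext h2⟩, ⟨⟨y1, hy1⟩, hy1I, Subtype.ext h3⟩⟩
  · rintro ⟨hyI, ⟨y2, hy2I, h2⟩, ⟨y1, hy1I, h3⟩⟩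
    refine ⟨⟨y.2, hyI⟩, ⟨(y2 : LaurentSeries k), ⟨y2.2, hy2I⟩, ?_⟩,
      ⟨(y1 : LaurentSeries k), ⟨y1.2, hy1I⟩, ?_⟩⟩
    · exact congrArg Subtype.val h2
    · exact congrArg Subtype.val h3

theorem r38hn_holN_add {a b : LaurentSeries k} (ha : HolN k N a) (hb : HolN k N b) :
    HolN k N (a + b) := by
  have h1 := (r38hn_holN_coe k N ⟨a, ha.1.1⟩).1 ha
  have h2 := (r38hn_holN_coe k N ⟨b, hb.1.1⟩).1 hb
  have h3 := (r38hn_holN_coe k N (⟨a, ha.1.1⟩ + ⟨b, hb.1.1⟩)).2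
    (r38hn_add (r38hn_B_root k N) (r38hn_J1728_ne_zero k N) (r38hn_J_ne_zero k N) h1 h2)
  have e : (((⟨a, ha.1.1⟩ : ↥(modularFunctionFieldFullC k N)) + ⟨b, hb.1.1⟩ :
      ↥(modularFunctionFieldFullC k N)) : LaurentSeries k) = a + b := rfl
  rw [e] at h3
  exact h3

theorem r38hn_holN_mul {c y : LaurentSeries k} (hc : HolInt k N c) (hy : HolN k N y) :
    HolN k N (c * y) := by
  have h1 := (r38hn_holN_coe k N ⟨y, hy.1.1⟩).1 hy
  have h2 : (⟨c, hc.1⟩ : ↥(modularFunctionFieldFullC k N)) ∈ r38hn_B k N := hc.2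
  have h3 := (r38hn_holN_coe k N (⟨c, hc.1⟩ * ⟨y, hy.1.1⟩)).2 (r38hn_smul h2 h1)
  have e : (((⟨c, hc.1⟩ : ↥(modularFunctionFieldFullC k N)) * ⟨y, hy.1.1⟩ :
      ↥(modularFunctionFieldFullC k N)) : LaurentSeries k) = c * y := rfl
  rw [e] at h3
  exact h3

theorem r38hn_holN_zero : HolN k N 0 := by
  have h3 := (r38hn_holN_coe k N 0).2 r38hn_zero
  have e : ((0 : ↥(modularFunctionFieldFullC k N)) : LaurentSeries k) = 0 := rfl
  rw [e] at h3
  exact h3

/-- **(𝔑)** `𝔑` is an ideal of `B̄`. -/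
theorem r38hn_stmtHolNIdeal : StmtHolNIdeal := by
  intro k _ N _
  exact ⟨fun a b ha hb => r38hn_holN_add k N ha hb, fun c y hc hy => r38hn_holN_mul k N hc hy⟩

end Fermat.Agent.R38

end


end ZBR38_001_3
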