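/- GENERATED FILE (helper35, build-time optimisation, NOTES/ZB.md): verbatim concatenation of the modules
   Fermat.Agent.R38.PlanEisK
   Do not edit; do not import together with these modules. -/
import Fermat.Agent.ZB.ES_001
import Fermat.Agent.ZB.S28_002
import Fermat.Agent.ZB.R38_001

/-! ### bundled: `Fermat.Agent.R38.PlanEisK` -/
section ZBR38_003_0

/-!
# Row 38, PKG-TRES, piece FAC-EIS (C): the statement of the Hecke norm on the `k`-side
(interface between helper60's `R38/TresEisK.lean` and the glue `R38/TresEisGlue.lean`)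

`k = kA A` (`A ⊂ ℚ̄` over `p`), `F̄_M = modularFunctionFieldFullC k M ⊂ F̄_{Mℓ}` (inclusion).
`StmtEisNormK`: for `f ∈ F̄_M` and `g = f(q^ℓ) ∈ F̄_{Mℓ}`,
`N_{F̄_{Mℓ}/F̄_M} g = kronHecke ℓ ζ̄ f` on `q`-expansions.

Statement only.
-/

set_option autoImplicit false
set_option linter.style.haveILetI false
set_option synthInstance.maxHeartbeats 400000
set_option maxHeartbeats 1600000

noncomputable section

namespace Fermat.Agent.R38

open ModularCurve Fermat.Agent.ES Fermat.Agent.ES.G2 Fermat.Agent.ES.M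

/-- **(C)**, the Hecke norm on the `k`-side: for `f ∈ F̄_M` and `g = f(q^ℓ) ∈ F̄_{Mℓ}`,
`N_{F̄_{Mℓ}/F̄_M} g = kronHecke ℓ ζ̄ f` on `q`-expansions (`F̄_{Mℓ}` an `F̄_M`-algebra by the
inclusion). -/
def StmtEisNormK : Prop :=
  ∀ (M p : ℕ) [NeZero M] (_ : p.Prime) (_ : ¬ p ∣ M), 5 ≤ p →
    ∀ A : ValuationSubring Qb, A.LiesOverPrime p →
    ∀ (ℓ : ℕ) [NeZero ℓ], ℓ.Prime → ¬ ℓ ∣ M → ℓ ≠ p →
    ∀ ζ : (kA A)ˣ, IsPrimitiveRoot ζ ℓ →
    ∀ (f : ↥(modularFunctionFieldFullC (kA A) M))
      (g : ↥(modularFunctionFieldFullC (kA A) (M * ℓ))),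
      (g : LaurentSeries (kA A)) = qExpand (kA A) ℓ (f : LaurentSeries (kA A)) →
        letI := (IntermediateField.inclusion
          (Fermat.Agent.S28.UB.full_mono (kA A) (Dvd.intro ℓ rfl) :
            modularFunctionFieldFullC (kA A) M ≤
              modularFunctionFieldFullC (kA A) (M * ℓ))).toRingHom.toAlgebra
        ((Algebra.norm ↥(modularFunctionFieldFullC (kA A) M) g :
            ↥(modularFunctionFieldFullC (kA A) M)) : LaurentSeries (kA A)) =
          kronHecke ℓ ζ (f : LaurentSeries (kA A))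

end Fermat.Agent.R38

end


end ZBR38_003_0
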