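/- GENERATED FILE (helper35, build-time optimisation, NOTES/ZB.md): verbatim concatenation of the modules
   Fermat.Agent.R38.TresEisNormRed
   Fermat.Agent.R38.TresEisHyp
   Fermat.Agent.R38.TresEisNormK
   Do not edit; do not import together with these modules. -/
import Mathlib
import Fermat.Agent.ZB.R38_002
import Fermat.Agent.ZB.W1_002
import Fermat.Agent.ZB.S28_002
import Fermat.Agent.ZB.R38_003
import Fermat.Agent.ZB.ES_002
import Fermat.Agent.ZB.ES_001
import Fermat.Agent.ZB.ES_005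

/-! ### bundled: `Fermat.Agent.R38.TresEisNormRed` -/
section ZBR38_007_0

/-!
# Row 38, PKG-TRES, piece FAC-EIS (B): the norm commutes with a constant reduction (helper60)

`F'/F` a finite extension of fields, `O' ⊂ F'` a valuation ring, `O = O' ∩ F`, with reduction maps
`red : O → κ`, `red' : O' → κ'` (`κ'/κ` a field extension, `red'` onto, the nonunits of `O` reduce
to `0`), compatible with the inclusion.  If `[κ' : κ] = [F' : F]` then for every `g ∈ O'`

  `N_{F'/F} g ∈ O`  and  `red (N_{F'/F} g) = N_{κ'/κ} (red' g)`.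

Proof: lift a `κ`-basis of `κ'` to `O'`; the lifts form an `F`-basis of `F'` in which the matrix of
the multiplication by `g` has entries in `O`, and it reduces to the matrix of `red' g`.
-/

set_option autoImplicit false
set_option linter.unusedSectionVars false
set_option linter.style.haveILetI false

noncomputable section

namespace Fermat.Agent.R38

open Module

section NormRed

variable {F F' κ κ' : Type*} [Field F] [Field F'] [Algebra F F'] [Field κ] [Field κ']
  [Algebra κ κ']
  (O : ValuationSubring F) (O' : ValuationSubring F') (red : O →+* κ) (red' : O' →+* κ')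

/-- the hypotheses of the norm–reduction lemma -/
structure Tres4NormRedHyp : Prop where
  mem_iff : ∀ x : F, x ∈ O ↔ algebraMap F F' x ∈ O'
  comp : ∀ (x : F) (hx : x ∈ O) (hx' : algebraMap F F' x ∈ O'),
    red' ⟨algebraMap F F' x, hx'⟩ = algebraMap κ κ' (red ⟨x, hx⟩)
  ker : ∀ (c : F) (_ : c ∉ O) (hc' : c⁻¹ ∈ O), red ⟨c⁻¹, hc'⟩ = 0
  surj : Function.Surjective red'

variable {O O' red red'}

namespace Tres4NormRedHyp

variable (H : Tres4NormRedHyp O O' red red') {n : ℕ} (e : Fin n → O')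
  (he : LinearIndependent κ fun i => red' (e i))

include H he

/-- core: an `O`-linear combination of the lifts which reduces to `0` has coefficients
reducing to `0` -/
theorem core (d : Fin n → O) (z : O')
    (hz : ∑ i, algebraMap F F' (d i : F) * (e i : F') = (z : F')) (hz0 : red' z = 0) (i : Fin n) :
    red (d i) = 0 := by
  have h1 : ∑ i, (⟨algebraMap F F' (d i : F), (H.mem_iff _).1 (d i).2⟩ : O') * e i = z := by
    apply Subtype.ext
    rw [← hz]
    simp only [AddSubmonoidClass.coe_finsetSum, MulMemClass.coe_mul]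
  have h2 := congrArg red' h1
  rw [map_sum, hz0] at h2
  have h3 : ∑ i, red (d i) • red' (e i) = 0 := by
    rw [← h2]
    refine Finset.sum_congr rfl fun i _ => ?_
    rw [map_mul, H.comp _ (d i).2, Algebra.smul_def]
  exact (Fintype.linearIndependent_iff.1 he) (fun i => red (d i)) h3 i

/-- if `∑ c_i e_i ∈ O'` and `c_{i₀}` has the largest valuation, then `c_{i₀} ∈ O` or
`c_{i₀} = 0`-type contradiction: the normalised combination -/
theorem normalise (c : Fin n → F) (i₀ : Fin n) (hmax : ∀ i, O.valuation (c i) ≤ O.valuation (c i₀))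
    (h0 : c i₀ ≠ 0) (i : Fin n) : c i / c i₀ ∈ O := by
  rw [← ValuationSubring.valuation_le_one_iff, map_div₀]
  have hpos : 0 < O.valuation (c i₀) := by
    rw [zero_lt_iff, Ne, map_eq_zero]
    exact h0
  exact (div_le_one₀ hpos).2 (hmax i)

/-- the lifts are linearly independent over `F` -/
theorem linearIndependent_lift : LinearIndependent F fun i => (e i : F') := by
  classical
  rw [Fintype.linearIndependent_iff]
  intro c hc
  by_contra hne
  push Not at hne
  obtain ⟨j, hj⟩ := hne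
  obtain ⟨i₀, -, hmax⟩ := Finset.exists_max_image Finset.univ (fun i => O.valuation (c i))
    ⟨j, Finset.mem_univ j⟩
  have hmax' : ∀ i, O.valuation (c i) ≤ O.valuation (c i₀) := fun i => hmax i (Finset.mem_univ i)
  have h0 : c i₀ ≠ 0 := by
    intro h
    have := hmax' j
    rw [h, map_zero, le_zero_iff, map_eq_zero] at this
    exact hj this
  have hd := H.normalise e he c i₀ hmax' h0
  have hz : ∑ i, algebraMap F F' ((⟨c i / c i₀, hd i⟩ : O) : F) * (e i : F') = ((0 : O') : F') := by
    have : ∀ i, algebraMap F F' (c i / c i₀) * (e i : F') =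
        algebraMap F F' (c i₀)⁻¹ * (c i • (e i : F')) := fun i => by
      rw [Algebra.smul_def, div_eq_mul_inv, map_mul]
      ring
    simp only [this, ← Finset.mul_sum, hc, mul_zero, ZeroMemClass.coe_zero]
  have := H.core e he (fun i => ⟨c i / c i₀, hd i⟩) 0 hz (map_zero _) i₀
  have h1 : (⟨c i₀ / c i₀, hd i₀⟩ : O) = 1 := Subtype.ext (div_self h0)
  rw [h1, map_one] at this
  exact one_ne_zero this

/-- the coefficients of an element of `O'` in the lifted family are in `O` -/
theorem coeff_mem (c : Fin n → F) (y : O') (hy : ∑ i, c i • (e i : F') = (y : F')) (i : Fin n) :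
    c i ∈ O := by
  classical
  by_contra hne
  obtain ⟨i₀, -, hmax⟩ := Finset.exists_max_image Finset.univ (fun i => O.valuation (c i))
    ⟨i, Finset.mem_univ i⟩
  have hmax' : ∀ i, O.valuation (c i) ≤ O.valuation (c i₀) := fun i => hmax i (Finset.mem_univ i)
  have hi₀ : c i₀ ∉ O := by
    intro h
    apply hne
    rw [← ValuationSubring.valuation_le_one_iff] at h ⊢
    exact (hmax' i).trans h
  have h0 : c i₀ ≠ 0 := by
    rintro h
    exact hi₀ (h ▸ O.zero_mem)
  have hinv : (c i₀)⁻¹ ∈ O := (O.mem_or_inv_mem (c i₀)).resolve_left hi₀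
  have hd := H.normalise e he c i₀ hmax' h0
  have hz : ∑ i, algebraMap F F' ((⟨c i / c i₀, hd i⟩ : O) : F) * (e i : F') =
      (((⟨algebraMap F F' (c i₀)⁻¹, (H.mem_iff _).1 hinv⟩ : O') * y : O') : F') := by
    have : ∀ i, algebraMap F F' (c i / c i₀) * (e i : F') =
        algebraMap F F' (c i₀)⁻¹ * (c i • (e i : F')) := fun i => by
      rw [Algebra.smul_def, div_eq_mul_inv, map_mul]
      ring
    simp only [this, ← Finset.mul_sum, hy, MulMemClass.coe_mul]
  have hz0 : red' ((⟨algebraMap F F' (c i₀)⁻¹, (H.mem_iff _).1 hinv⟩ : O') * y) = 0 := by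
    rw [map_mul, H.comp _ hinv, H.ker _ hi₀ hinv, map_zero, zero_mul]
  have := H.core e he (fun i => ⟨c i / c i₀, hd i⟩) _ hz hz0 i₀
  have h1 : (⟨c i₀ / c i₀, hd i₀⟩ : O) = 1 := Subtype.ext (div_self h0)
  rw [h1, map_one] at this
  exact one_ne_zero this

end Tres4NormRedHyp

/-- **the norm commutes with the reduction** when the residue degree is the degree -/
theorem tres4_norm_red [FiniteDimensional F F'] (H : Tres4NormRedHyp O O' red red')
    (hrank : finrank κ κ' = finrank F F') (g : O') :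
    ∃ y : O, (y : F) = Algebra.norm F (g : F') ∧ red y = Algebra.norm κ (red' g) := by
  classical
  have hpos : 0 < finrank κ κ' := hrank ▸ Module.finrank_pos
  haveI : Module.Finite κ κ' := Module.finite_of_finrank_pos hpos
  set n := finrank κ κ' with hn
  let bb : Basis (Fin n) κ κ' := Module.finBasis κ κ'
  choose e he using fun i => H.surj (bb i)
  have hli : LinearIndependent κ fun i => red' (e i) := by
    have : (fun i => red' (e i)) = bb := funext he
    rw [this]
    exact bb.linearIndependent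
  have hliF := H.linearIndependent_lift e hli
  haveI : Nonempty (Fin n) := ⟨⟨0, hpos⟩⟩
  let b : Basis (Fin n) F F' := basisOfLinearIndependentOfCardEqFinrank hliF
    (by rw [Fintype.card_fin, ← hrank])
  have hb : ∀ i, b i = (e i : F') := fun i => by
    simp only [b, coe_basisOfLinearIndependentOfCardEqFinrank]
  -- the matrix of `g`
  set M := Algebra.leftMulMatrix b (g : F') with hM
  have hMrow : ∀ j, ∑ i, M i j • (e i : F') = ((g * e j : O') : F') := fun j => by
    have h := b.sum_repr ((g : F') * b j)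
    simp only [hM, Algebra.leftMulMatrix_eq_repr_mul, MulMemClass.coe_mul, ← hb]
    exact h
  have hMmem : ∀ i j, M i j ∈ O := fun i j =>
    H.coeff_mem e hli (fun i => M i j) (g * e j) (hMrow j) i
  let MO : Matrix (Fin n) (Fin n) O := fun i j => ⟨M i j, hMmem i j⟩
  have hMO : MO.map O.subtype = M := by
    ext i j
    rfl
  refine ⟨MO.det, ?_, ?_⟩
  · rw [Algebra.norm_eq_matrix_det b, ← hM, ← hMO]
    exact (RingHom.map_det O.subtype MO)
  · rw [Algebra.norm_eq_matrix_det bb, RingHom.map_det]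
    congr 1
    ext i j
    rw [Algebra.leftMulMatrix_eq_repr_mul]
    -- reduce the `j`-th column relation
    have h1 : ∑ i, (⟨algebraMap F F' (M i j), (H.mem_iff _).1 (hMmem i j)⟩ : O') * e i = g * e j := by
      apply Subtype.ext
      rw [← hMrow j]
      simp only [AddSubmonoidClass.coe_finsetSum, MulMemClass.coe_mul, Algebra.smul_def]
    have h2 := congrArg red' h1
    rw [map_sum, map_mul, he] at h2
    have h3 : red' g * bb j = ∑ i, red (MO i j) • bb i := by
      rw [← h2]
      refine Finset.sum_congr rfl fun i _ => ?_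
      rw [map_mul, H.comp _ (hMmem i j), Algebra.smul_def, he]
    rw [h3, map_sum]
    simp only [map_smul, Basis.repr_self, Finsupp.coe_finsetSum, Finsupp.coe_smul,
      Finset.sum_apply, Pi.smul_apply, Finsupp.single_apply, smul_eq_mul, mul_ite, mul_one,
      mul_zero, Finset.sum_ite_eq', Finset.mem_univ, if_true, Matrix.map_apply,
      RingHom.mapMatrix_apply]

end NormRed

end Fermat.Agent.R38

end


end ZBR38_007_0

/-! ### bundled: `Fermat.Agent.R38.TresEisHyp` -/
section ZBR38_007_1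

/-!
# Row 38, PKG-TRES, piece FAC-EIS (C1): the hypotheses of the norm–reduction lemma for
`F_{Mℓ} / F_M` at the Gauss valuation rings  (helper83, for helper60's `StmtEisNormK`)

`F = F_M`, `F' = F_{Mℓ}` (algebra = `heckeAlphaBar`, the inclusion), `O = deuValO M A`,
`O' = deuValO (M ℓ) A`, `κ = F̄_M`, `κ' = F̄_{Mℓ}` (algebra = inclusion), `red = deuValRed`.

* `tres4h_gaussRed_up` : a Gauss reduction at level `M` is one at level `M ℓ`;
* `tres4h_inv_nonunit`, `tres4h_red_inv_eq_zero` : `c ∉ O ⇒ red c⁻¹ = 0`;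
* `tres4h_mem_iff` : `x ∈ O ↔ α x ∈ O'`;
* `tres4h_comp` : `red' (α x) = red x` as Laurent series;
* `tres4h_normRedHyp_gen` (any `StmtRedF` witnesses), `tres4h_normRedHyp` (helper60's shape).
-/

set_option autoImplicit false
set_option linter.unusedSectionVars false
set_option linter.style.haveILetI false
set_option synthInstance.maxHeartbeats 400000
set_option maxHeartbeats 1000000

noncomputable section

namespace Fermat.Agent.R38

open ModularCurve AlgebraicCurve HahnSeries Fermat.Agent.ES Fermat.Agent.S24 Fermat.Agent.ES.M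
  Fermat.Agent.DEU

section Hyp

variable (M ℓ : ℕ) [NeZero M] [NeZero ℓ] (A : ValuationSubring Kb)

/-- a Gauss reduction at level `M` is a Gauss reduction at level `M ℓ` -/
theorem tres4h_gaussRed_up {x : FF M} {w : LaurentSeries (kA A)} (h : GaussRed M A x w) :
    GaussRed (M * ℓ) A (heckeAlphaBar Kb M ℓ x) w := by
  obtain ⟨Y₁, Y₂, h1, h2, h3, h4, h5⟩ := h
  have hle : ∀ y : LaurentSeries Kb, y ∈ modularFunctionFieldBar M →
      y ∈ modularFunctionFieldBar (M * ℓ) := fun y hy => by
    have := (heckeAlphaBar Kb M ℓ ⟨y, hy⟩).2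
    rwa [coe_heckeAlphaBar] at this
  refine ⟨Y₁, Y₂, hle _ h1, hle _ h2, h3, ?_, h5⟩
  rw [coe_heckeAlphaBar]
  exact h4

/-- outside a valuation ring the inverse is a nonunit -/
theorem tres4h_inv_nonunit {F : Type*} [Field F] (O : ValuationSubring F) {c : F} (hc : c ∉ O) :
    c⁻¹ ∈ O.nonunits := by
  rw [ValuationSubring.mem_nonunits_iff, map_inv₀]
  have h1 : 1 < O.valuation c := by
    rw [← not_le, ValuationSubring.valuation_le_one_iff]
    exact hc
  have h0 : 0 < O.valuation c := lt_trans zero_lt_one h1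
  exact (inv_lt_one₀ h0).2 h1

/-- `ker` -/
theorem tres4h_red_inv_eq_zero (hR : StmtRedF M A) (c : FF M) (hc : c ∉ deuValO M A)
    (hc' : c⁻¹ ∈ deuValO M A) : deuValRed M A hR ⟨c⁻¹, hc'⟩ = 0 :=
  (deuVal_red_eq_zero_iff' M A hR ⟨c⁻¹, hc'⟩).2 (tres4h_inv_nonunit (deuValO M A) hc)

/-- `mem_iff` -/
theorem tres4h_mem_iff (hR : StmtRedF M A) (x : FF M) :
    x ∈ deuValO M A ↔ heckeAlphaBar Kb M ℓ x ∈ deuValO (M * ℓ) A := by
  constructor
  · rintro ⟨w, hw⟩
    exact ⟨w, tres4h_gaussRed_up M ℓ A hw⟩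
  · rintro ⟨w, hw⟩
    by_contra hx
    have hx0 : x ≠ 0 := by
      rintro rfl
      exact hx (deuValO M A).zero_mem
    have hinv : x⁻¹ ∈ deuValO M A := ((deuValO M A).mem_or_inv_mem x).resolve_left hx
    have h0 := tres4h_red_inv_eq_zero M A hR x hx hinv
    have h1 : GaussRed M A x⁻¹ 0 := by
      rw [deuValRed_iff M A hR]
      refine ⟨hinv, ?_⟩
      rw [h0]
      rfl
    have h2 := tres4h_gaussRed_up M ℓ A h1
    have h3 := deuInst_gaussRed_mul (M * ℓ) A h2 hw
    rw [← map_mul, inv_mul_cancel₀ hx0, map_one, zero_mul] at h3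
    have h4 := deuInst_gaussRed_unique (M * ℓ) A h3 (deuInst_gaussRed_one (M * ℓ) A)
    exact zero_ne_one h4

/-- `comp`, as Laurent series -/
theorem tres4h_comp (hR : StmtRedF M A) (hR' : StmtRedF (M * ℓ) A) (x : FF M)
    (hx : x ∈ deuValO M A) (hx' : heckeAlphaBar Kb M ℓ x ∈ deuValO (M * ℓ) A) :
    ((deuValRed (M * ℓ) A hR' ⟨heckeAlphaBar Kb M ℓ x, hx'⟩ :
        ↥(modularFunctionFieldFullC (kA A) (M * ℓ))) : LaurentSeries (kA A))
      = ((deuValRed M A hR ⟨x, hx⟩ : ↥(modularFunctionFieldFullC (kA A) M)) :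
        LaurentSeries (kA A)) := by
  have h1 : GaussRed M A x
      ((deuValRed M A hR ⟨x, hx⟩ : ↥(modularFunctionFieldFullC (kA A) M)) :
        LaurentSeries (kA A)) := (deuValRed_iff M A hR x _).2 ⟨hx, rfl⟩
  have h2 := tres4h_gaussRed_up M ℓ A h1
  obtain ⟨_, h3⟩ := (deuValRed_iff (M * ℓ) A hR' _ _).1 h2
  exact h3

/-- **(C1), general form**: the hypotheses of `tres4_norm_red` for `F_{Mℓ} / F_M` at the Gauss
valuation rings. -/
theorem tres4h_normRedHyp_gen (hR : StmtRedF M A) (hR' : StmtRedF (M * ℓ) A) :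
    letI := (heckeAlphaBar Kb M ℓ).toRingHom.toAlgebra
    letI := (IntermediateField.inclusion
      (Fermat.Agent.S28.UB.full_mono (kA A) (Dvd.intro ℓ rfl) :
        modularFunctionFieldFullC (kA A) M ≤ modularFunctionFieldFullC (kA A) (M * ℓ))
      ).toRingHom.toAlgebra
    Tres4NormRedHyp (deuValO M A) (deuValO (M * ℓ) A) (deuValRed M A hR)
      (deuValRed (M * ℓ) A hR') := by
  letI := (heckeAlphaBar Kb M ℓ).toRingHom.toAlgebra
  letI := (IntermediateField.inclusion
    (Fermat.Agent.S28.UB.full_mono (kA A) (Dvd.intro ℓ rfl) :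
      modularFunctionFieldFullC (kA A) M ≤ modularFunctionFieldFullC (kA A) (M * ℓ))
    ).toRingHom.toAlgebra
  refine ⟨fun x => tres4h_mem_iff M ℓ A hR x, fun x hx hx' => ?_,
    fun c hc hc' => tres4h_red_inv_eq_zero M A hR c hc hc', deuVal_red_surjective (M * ℓ) A hR'⟩
  apply Subtype.ext
  exact tres4h_comp M ℓ A hR hR' x hx hx'

/-- **(C1)** in helper60's shape. -/
theorem tres4h_normRedHyp (p : ℕ) (hp : p.Prime) (hpM : ¬ p ∣ M) (hpMℓ : ¬ p ∣ M * ℓ)
    (hA : A.LiesOverPrime p) :
    letI := (heckeAlphaBar Kb M ℓ).toRingHom.toAlgebra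
    letI := (IntermediateField.inclusion
      (Fermat.Agent.S28.UB.full_mono (kA A) (Dvd.intro ℓ rfl) :
        modularFunctionFieldFullC (kA A) M ≤ modularFunctionFieldFullC (kA A) (M * ℓ))
      ).toRingHom.toAlgebra
    Tres4NormRedHyp (deuValO M A) (deuValO (M * ℓ) A)
      (deuValRed M A (stmtRedF M A p hp hpM hA))
      (deuValRed (M * ℓ) A (stmtRedF (M * ℓ) A p hp hpMℓ hA)) :=
  tres4h_normRedHyp_gen M ℓ A _ _

end Hyp

end Fermat.Agent.R38

end
end ZBR38_007_1

/-! ### bundled: `Fermat.Agent.R38.TresEisNormK` -/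
section ZBR38_007_2

/-!
# Row 38, PKG-TRES, piece FAC-EIS (C3): the Hecke norm on the residue side (helper60)

`StmtEisNormK` (`R38/PlanEisK.lean`): `N_{F̄_{Mℓ}/F̄_M} (f(q^ℓ)) = kronHecke ℓ ζ̄ f` for `f ∈ F̄_M`.

Proof: lift `f` to `x ∈ F_M` (Gauss valuation ring `deuValO M A`); `β x = x(q^ℓ)` lifts
`f(q^ℓ)`; the norm commutes with the reduction (`tres4_norm_red`, hypotheses
`tres4h_normRedHyp` of helper83, degrees `ℓ + 1` on both sides by Igusa); the norm of `β x` is
`kronHecke ℓ ζ x` (`ES.G2.stmtHeckeNorm`) and its reduction is `kronHecke ℓ ζ̄ f` ((C2),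
helper63).

* `StmtEisGRBeta`, `StmtEisGRHecke` : the two statements (C2) at the `GaussRed` level;
* `stmtEisNormK_of` : `StmtEisGRBeta → StmtEisGRHecke → StmtEisNormK`.
-/

set_option autoImplicit false
set_option linter.unusedSectionVars false
set_option linter.unusedVariables false
set_option linter.style.haveILetI false
set_option synthInstance.maxHeartbeats 400000
set_option maxHeartbeats 1600000

noncomputable section

namespace Fermat.Agent.R38

open HahnSeries ModularCurve AlgebraicCurve Fermat.Agent.ES Fermat.Agent.ES.G2 Fermat.Agent.ES.M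
  Fermat.Agent.S24 Fermat.Agent.DEU IntermediateField

/-- (C2a): the Gauss reduction commutes with `β = (q ↦ q^ℓ)` -/
def StmtEisGRBeta : Prop :=
  ∀ (M ℓ : ℕ) [NeZero M] [NeZero ℓ] (A : ValuationSubring Kb) {x : FF M}
    {w : LaurentSeries (kA A)}, GaussRed M A x w →
      GaussRed (M * ℓ) A (heckeBetaBar Kb M ℓ x) (qExpand (kA A) ℓ w)

/-- (C2b): the Gauss reduction of `kronHecke ℓ ζ x` is `kronHecke ℓ ζ̄ w`, exactly -/
def StmtEisGRHecke : Prop :=
  ∀ (M ℓ : ℕ) [NeZero M] [NeZero ℓ], ℓ.Prime → ¬ ℓ ∣ M → ∀ (A : ValuationSubring Kb) (ζA : Aˣ),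
    IsPrimitiveRoot (Units.map (A.subtype : A →* Kb) ζA) ℓ →
    IsPrimitiveRoot (Units.map ((IsLocalRing.residue A : A →+* kA A) : A →* kA A) ζA) ℓ →
    ∀ {x y : FF M} {w : LaurentSeries (kA A)}, GaussRed M A x w →
      (y : LaurentSeries Kb) =
        kronHecke ℓ (Units.map (A.subtype : A →* Kb) ζA) (x : LaurentSeries Kb) →
      GaussRed M A y
        (kronHecke ℓ (Units.map ((IsLocalRing.residue A : A →+* kA A) : A →* kA A) ζA) w)

/-- the degree on the residue side, for the inclusion algebra structure -/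
theorem tres4k_finrank (k : Type*) [Field k] (M ℓ : ℕ) [NeZero M] [NeZero ℓ] (hℓ : ℓ.Prime)
    (hℓM : ¬ ℓ ∣ M) (hk : ((M * ℓ : ℕ) : k) ≠ 0) :
    letI := (IntermediateField.inclusion
      (Fermat.Agent.S28.UB.full_mono k (Dvd.intro ℓ rfl) :
        modularFunctionFieldFullC k M ≤ modularFunctionFieldFullC k (M * ℓ))).toRingHom.toAlgebra
    Module.finrank (modularFunctionFieldFullC k M) (modularFunctionFieldFullC k (M * ℓ)) =
      ℓ + 1 := by
  have hN : ((M : ℕ) : k) ≠ 0 := by
    intro h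
    apply hk
    rw [Nat.cast_mul, h, zero_mul]
  have hle2 : modularFunctionFieldFullC k M ≤ modularFunctionFieldFullC k (M * ℓ) :=
    Fermat.Agent.S28.UB.full_mono k (Dvd.intro ℓ rfl)
  have h := hdeg_finrank_inclusion hle2
  have h1 := Fermat.Agent.S28.relfinrank_full_eq_dedekindPsi k M hN
  have h2 := Fermat.Agent.S28.relfinrank_full_eq_dedekindPsi k (M * ℓ) hk
  have hle1 : adjoin k {jqModC k} ≤ modularFunctionFieldFullC k M :=
    Fermat.Agent.S28.UB.K0_le_full k M
  have h3 := relfinrank_mul_relfinrank hle1 hle2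
  have hψ : dedekindPsi (M * ℓ) = (ℓ + 1) * dedekindPsi M := by
    rw [Nat.mul_comm]
    exact Fermat.Agent.S28.UB.psi_mul_of_not_dvd hℓ hℓM
  rw [h1, h2, hψ] at h3
  have hpos : dedekindPsi M ≠ 0 := by
    intro h0
    rw [h0] at h1
    have hfin := Fermat.Agent.S28.relrank_full_lt_aleph0_of_ne_zero k M hN
    have hne := Fermat.Agent.S28.UB.relrank_ne_zero (adjoin k {jqModC k})
      (modularFunctionFieldFullC k M)
    rw [relfinrank_eq_toNat_relrank, Cardinal.toNat_eq_zero] at h1
    rcases h1 with h1 | h1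
    · exact hne h1
    · exact absurd hfin (not_lt.mpr h1)
  have h4 : dedekindPsi M * (modularFunctionFieldFullC k M).relfinrank
      (modularFunctionFieldFullC k (M * ℓ)) = dedekindPsi M * (ℓ + 1) := by
    rw [h3, Nat.mul_comm]
  rw [h]
  exact Nat.eq_of_mul_eq_mul_left (Nat.pos_of_ne_zero hpos) h4

/-- **(C)** from (C2) -/
theorem stmtEisNormK_of (hGβ : StmtEisGRBeta) (hGH : StmtEisGRHecke) : StmtEisNormK := by
  intro M p _ hp hpM h5 A hA ℓ _ hℓ hℓM hℓp ζ hζ f g hg
  letI algK : Algebra ↥(modularFunctionFieldFullC (kA A) M)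
      ↥(modularFunctionFieldFullC (kA A) (M * ℓ)) :=
    (IntermediateField.inclusion
      (Fermat.Agent.S28.UB.full_mono (kA A) (Dvd.intro ℓ rfl) :
        modularFunctionFieldFullC (kA A) M ≤
          modularFunctionFieldFullC (kA A) (M * ℓ))).toRingHom.toAlgebra
  letI alg0 : Algebra (FF M) (FF (M * ℓ)) := (heckeAlphaBar Kb M ℓ).toRingHom.toAlgebra
  have hpMℓ : ¬ p ∣ M * ℓ := by
    intro h
    rcases (Nat.Prime.dvd_mul hp).1 h with h | h
    · exact hpM h
    · exact hℓp ((Nat.prime_dvd_prime_iff_eq hp hℓ).1 h).symm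
  haveI : CharP (kA A) p := kron_charP_residueField hp hA
  have hk : ((M * ℓ : ℕ) : kA A) ≠ 0 := by
    rw [Ne, CharP.cast_eq_zero_iff (kA A) p]
    exact hpMℓ
  have hℓk : ((ℓ : ℕ) : kA A) ≠ 0 := by
    rw [Ne, CharP.cast_eq_zero_iff (kA A) p]
    intro h
    exact hℓp ((Nat.prime_dvd_prime_iff_eq hp hℓ).1 h).symm
  -- roots of unity
  obtain ⟨ζ₀, hζ₀⟩ := frob_exists_primitiveRoot ℓ hℓ.ne_zero
  obtain ⟨ζA, hζA, hζb⟩ := r38red_exists_root A hℓ hℓk ζ₀ hζ₀
  rw [kronHecke_eq_of_isPrimitiveRoot _ ζ hζb hζ]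
  -- the lift of `f`
  obtain ⟨x, hx⟩ := deuVal_exists_gaussRed M A (f : LaurentSeries (kA A)) f.2
  have hβ := hGβ M ℓ A hx
  have hβO : heckeBetaBar Kb M ℓ x ∈ deuValO (M * ℓ) A := ⟨_, hβ⟩
  have hred' : deuValRed (M * ℓ) A (stmtRedF (M * ℓ) A p hp hpMℓ hA)
      ⟨heckeBetaBar Kb M ℓ x, hβO⟩ = g := by
    apply Subtype.ext
    obtain ⟨h', h2⟩ := (deuValRed_iff (M * ℓ) A (stmtRedF (M * ℓ) A p hp hpMℓ hA) _ _).1 hβ
    rw [hg]
    exact h2
  -- the norm commutes with the reduction
  haveI : FiniteDimensional (FF M) (FF (M * ℓ)) := hdeg_finiteDimensional M ℓ hℓ hℓM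
  have hrank : Module.finrank ↥(modularFunctionFieldFullC (kA A) M)
      ↥(modularFunctionFieldFullC (kA A) (M * ℓ)) = Module.finrank (FF M) (FF (M * ℓ)) := by
    rw [tres4k_finrank (kA A) M ℓ hℓ hℓM hk]
    exact (hdeg_finrank M ℓ hℓ hℓM).symm
  obtain ⟨y, hy1, hy2⟩ := tres4_norm_red (tres4h_normRedHyp M ℓ A p hp hpM hpMℓ hA) hrank
    ⟨heckeBetaBar Kb M ℓ x, hβO⟩
  rw [hred'] at hy2
  rw [← hy2]
  -- the norm upstairs is `kronHecke`
  have hyL : ((y : FF M) : LaurentSeries Kb) = kronHecke ℓ ζ₀ (x : LaurentSeries Kb) := by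
    rw [hy1]
    exact stmtHeckeNorm M ℓ hℓ hℓM ζ₀ hζ₀ x
  subst hζA
  have hGR := hGH M ℓ hℓ hℓM A ζA hζ₀ hζb hx hyL
  obtain ⟨h', h2⟩ := (deuValRed_iff M A (stmtRedF M A p hp hpM hA) _ _).1 hGR
  exact h2

end Fermat.Agent.R38

end


end ZBR38_007_2
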