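/- GENERATED FILE (helper35, build-time optimisation, NOTES/ZB.md): verbatim concatenation of the modules
   Fermat.Agent.R38.TresEisCusp
   Fermat.Agent.R38.TresEisGlue
   Fermat.Agent.R38.TresTrivOf
   Fermat.Agent.R38.TresEisFinal
   Do not edit; do not import together with these modules. -/
import Fermat.Agent.ZB.S28_002
import Fermat.Agent.ZB.S24_007
import Fermat.Agent.ZB.S15_001
import Fermat.Agent.ZB.R38_003
import Fermat.Agent.ZB.RIB_001
import Fermat.Agent.ZB.R38_004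
import Fermat.Agent.ZB.ES_005
import Fermat.Agent.ZB.R38_005
import Fermat.Agent.ZB.DEU_005
import Fermat.Agent.ZB.ES_003
import Fermat.Agent.ZB.S33_007
import Fermat.Agent.ZB.R38_002
import Fermat.Agent.ZB.R38_007
import Fermat.Agent.ZB.R38_008

/-! ### bundled: `Fermat.Agent.R38.TresEisCusp` -/
section ZBR38_006_0
/-
ROW 38, piece PKG-TRES / FAC-EIS (F) EIS-CUSP (helper64):
"NON-CUSPIDAL" DOES NOT DEPEND ON THE `j`-FUNCTION USED.

`k` any field, `E ⊂ k((q))` an intermediate field, `O` a valuation subring of `E` containing `k`.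
For a prime `ℓ` and `d ≠ 0`, if `j(q^d)`, `j(q^{ℓ d}) ∈ E` then
  `j(q^d) ∈ O ↔ j(q^{ℓ d}) ∈ O`
(the modular equation `Φ_ℓ` is monic in both variables: each is integral over the polynomial
ring in the other, `S28.ub_modEq`).  Hence `j ∈ O ↔ j(q^d) ∈ O` for all `d ≠ 0` with
`j(q^e) ∈ E` for all `e ∣ d`, and for the places `w` of `modularFunctionFieldFullC k N`:
  `0 ≤ w.ord j ↔ 0 ≤ w.ord j(q^d)`   (`d ∣ N`).

* `tres4c_mem_of_eval₂`  : abstract integrality;
* `tres4c_jd_mem_iff`    : one prime step;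
* `tres4c_jd_mem_iff_full` : `j ∈ O ↔ j(q^d) ∈ O` in `modularFunctionFieldFullC k N`, `d ∣ N`;
* `tres4c_ord_nonneg_iff`  : the same for `Place.ord`;
* `tres4c_ord_nonneg_iff_prime` : the form of FAC-EIS (F): level `N * ℓ`, `j(q)` and `j(q^ℓ)`.
-/

set_option autoImplicit false
set_option linter.unusedSectionVars false
set_option linter.style.haveILetI false

noncomputable section

namespace Fermat.Agent.R38

open ModularCurve AlgebraicCurve Polynomial IntermediateField Fermat.Agent.S28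

/-- **Abstract integrality**: a root `x` of `Φ(X, y)`, `Φ ∈ k[Y][X]` monic, `y ∈ O`, lies in the
valuation subring `O ⊇ k`. -/
theorem tres4c_mem_of_eval₂ {k F : Type*} [Field k] [Field F] [Algebra k F]
    (O : ValuationSubring F) (hk : ∀ a : k, algebraMap k F a ∈ O) {x y : F} (hy : y ∈ O)
    {Φ : (k[X])[X]} (hΦ : Φ.Monic)
    (h : Φ.eval₂ (aeval y : k[X] →ₐ[k] F).toRingHom x = 0) : x ∈ O := by
  let f : k →+* O := (algebraMap k F).codRestrict O hk
  let g : k[X] →+* O := Polynomial.eval₂RingHom f ⟨y, hy⟩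
  have hcomp : (algebraMap O F).comp g = (aeval y : k[X] →ₐ[k] F).toRingHom := by
    refine Polynomial.ringHom_ext (fun a => ?_) ?_
    · simp only [RingHom.comp_apply, AlgHom.toRingHom_eq_coe, RingHom.coe_coe, aeval_C]
      show algebraMap O F (Polynomial.eval₂RingHom f ⟨y, hy⟩ (C a)) = algebraMap k F a
      rw [Polynomial.coe_eval₂RingHom, eval₂_C]
      rfl
    · simp only [RingHom.comp_apply, AlgHom.toRingHom_eq_coe, RingHom.coe_coe, aeval_X]
      show algebraMap O F (Polynomial.eval₂RingHom f ⟨y, hy⟩ X) = y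
      rw [Polynomial.coe_eval₂RingHom, eval₂_X]
      rfl
  have hint : IsIntegral O x := by
    refine ⟨Φ.map g, hΦ.map _, ?_⟩
    rw [Polynomial.eval₂_map, hcomp]
    exact h
  obtain ⟨z, hz⟩ := IsIntegrallyClosed.isIntegral_iff.mp hint
  rw [← hz]
  exact z.2

section Laurent

variable (k : Type*) [Field k]

/-- a relation in `k((q))` between elements of an intermediate field holds in the field -/
theorem tres4c_eval₂_coe (E : IntermediateField k (LaurentSeries k)) (Φ : (k[X])[X]) (x y : E)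
    (h : Φ.eval₂ (aeval (y : LaurentSeries k) : k[X] →ₐ[k] LaurentSeries k).toRingHom
      (x : LaurentSeries k) = 0) :
    Φ.eval₂ (aeval y : k[X] →ₐ[k] E).toRingHom x = 0 := by
  apply Subtype.val_injective
  have h1 : (E.val : E →+* LaurentSeries k) (Φ.eval₂ (aeval y : k[X] →ₐ[k] E).toRingHom x) =
      Φ.eval₂ ((E.val : E →+* LaurentSeries k).comp (aeval y : k[X] →ₐ[k] E).toRingHom)
        (E.val x) := Polynomial.hom_eval₂ _ _ _ _
  have h2 : (E.val : E →+* LaurentSeries k).comp (aeval y : k[X] →ₐ[k] E).toRingHom =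
      (aeval (y : LaurentSeries k) : k[X] →ₐ[k] LaurentSeries k).toRingHom := by
    refine Polynomial.ringHom_ext (fun a => ?_) ?_
    · simp only [RingHom.comp_apply, AlgHom.toRingHom_eq_coe, RingHom.coe_coe, aeval_C]
      rfl
    · simp only [RingHom.comp_apply, AlgHom.toRingHom_eq_coe, RingHom.coe_coe, aeval_X]
      rfl
  rw [h2] at h1
  show (E.val : E →+* LaurentSeries k) (Φ.eval₂ (aeval y : k[X] →ₐ[k] E).toRingHom x) = 0
  rw [h1]
  exact h

/-- **One prime step**: `j(q^d) ∈ O ↔ j(q^{ℓ d}) ∈ O`. -/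
theorem tres4c_jd_mem_iff (E : IntermediateField k (LaurentSeries k)) (O : ValuationSubring E)
    (hk : ∀ a : k, algebraMap k E a ∈ O) {ℓ : ℕ} (hℓ : ℓ.Prime) {d : ℕ} (hd : d ≠ 0)
    (hx : UB.jd k d ∈ E) (hy : UB.jd k (ℓ * d) ∈ E) :
    (⟨UB.jd k d, hx⟩ : E) ∈ O ↔ (⟨UB.jd k (ℓ * d), hy⟩ : E) ∈ O := by
  haveI : NeZero ℓ := ⟨hℓ.ne_zero⟩
  obtain ⟨Φ, hm, -, h1, h2⟩ := ub_modEq k ℓ hℓ
  obtain ⟨s1, s2⟩ := UB.ModEq.shift k h1 h2 hd
  constructor
  · intro h
    exact tres4c_mem_of_eval₂ O hk h hm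
      (tres4c_eval₂_coe k E Φ ⟨UB.jd k (ℓ * d), hy⟩ ⟨UB.jd k d, hx⟩ s1)
  · intro h
    exact tres4c_mem_of_eval₂ O hk h hm
      (tres4c_eval₂_coe k E Φ ⟨UB.jd k d, hx⟩ ⟨UB.jd k (ℓ * d), hy⟩ s2)

/-- `j ∈ O ↔ j(q^d) ∈ O` in the function field of level `N`, for `d ∣ N`. -/
theorem tres4c_jd_mem_iff_full (N : ℕ) [NeZero N]
    (O : ValuationSubring (modularFunctionFieldFullC k N))
    (hk : ∀ a : k, algebraMap k (modularFunctionFieldFullC k N) a ∈ O) :
    ∀ (d : ℕ) (hd : d ∣ N),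
      ((⟨jqModC k, jqModC_mem_full k N⟩ : modularFunctionFieldFullC k N) ∈ O ↔
        (⟨UB.jd k d, UB.jd_mem_full k hd
          (fun h => NeZero.ne N (by rw [h] at hd; exact zero_dvd_iff.mp hd))⟩ :
          modularFunctionFieldFullC k N) ∈ O) := by
  intro d
  induction d using Nat.strong_induction_on with
  | _ d ih =>
    intro hd
    have hd0 : d ≠ 0 := fun h => NeZero.ne N (by rw [h] at hd; exact zero_dvd_iff.mp hd)
    rcases eq_or_ne d 1 with rfl | hd1
    · have e : (⟨UB.jd k 1, UB.jd_mem_full k hd hd0⟩ : modularFunctionFieldFullC k N) =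
          ⟨jqModC k, jqModC_mem_full k N⟩ := Subtype.ext (UB.jd_one k)
      rw [e]
    · have hpp : d.minFac.Prime := Nat.minFac_prime hd1
      obtain ⟨d', hd'⟩ : d.minFac ∣ d := Nat.minFac_dvd d
      have hd'0 : d' ≠ 0 := by
        rintro rfl
        exact hd0 (by rw [hd', mul_zero])
      have hd'lt : d' < d := by
        conv_rhs => rw [hd']
        exact lt_mul_of_one_lt_left (Nat.pos_of_ne_zero hd'0) hpp.one_lt
      have hd'N : d' ∣ N := (Dvd.intro_left _ hd'.symm).trans hd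
      have hpd : d.minFac * d' ∣ N := hd' ▸ hd
      have hstep := tres4c_jd_mem_iff k (modularFunctionFieldFullC k N) O hk hpp hd'0
        (UB.jd_mem_full k hd'N hd'0) (UB.jd_mem_full k hpd (Nat.mul_ne_zero hpp.ne_zero hd'0))
      have e : (⟨UB.jd k d, UB.jd_mem_full k hd hd0⟩ : modularFunctionFieldFullC k N) =
          ⟨UB.jd k (d.minFac * d'), UB.jd_mem_full k hpd (Nat.mul_ne_zero hpp.ne_zero hd'0)⟩ :=
        Subtype.ext (congrArg (UB.jd k) hd')
      rw [e, ← hstep]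
      exact ih d' hd'lt hd'N

/-- `0 ≤ w.ord j ↔ 0 ≤ w.ord j(q^d)` for the places of the function field of level `N`. -/
theorem tres4c_ord_nonneg_iff (N : ℕ) [NeZero N] (w : Place k (modularFunctionFieldFullC k N))
    (d : ℕ) [NeZero d] (hd : d ∣ N) :
    0 ≤ w.ord (⟨jqModC k, jqModC_mem_full k N⟩ : modularFunctionFieldFullC k N) ↔
      0 ≤ w.ord (⟨qExpand k d (jqModC k), jqModCd_mem_full k N hd⟩ :
        modularFunctionFieldFullC k N) := by
  have hj0 : (⟨jqModC k, jqModC_mem_full k N⟩ : modularFunctionFieldFullC k N) ≠ 0 := by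
    intro h
    exact jqModC_ne_zero_of_nontrivial k (congrArg Subtype.val h)
  have hd0 : (⟨qExpand k d (jqModC k), jqModCd_mem_full k N hd⟩ :
      modularFunctionFieldFullC k N) ≠ 0 := by
    intro h
    exact qExpand_ne_zero (jqModC_ne_zero_of_nontrivial k) (congrArg Subtype.val h)
  rw [Fermat.Agent.S24.PlaceAux.ord_nonneg_iff w hj0,
    Fermat.Agent.S24.PlaceAux.ord_nonneg_iff w hd0,
    tres4c_jd_mem_iff_full k N w.toValuationSubring w.algebraMap_mem' d hd]
  have e : (⟨UB.jd k d, UB.jd_mem_full k hd (NeZero.ne d)⟩ : modularFunctionFieldFullC k N) =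
      ⟨qExpand k d (jqModC k), jqModCd_mem_full k N hd⟩ := Subtype.ext (UB.jd_eq k d)
  rw [e]

/-- **EIS-CUSP**, the form of FAC-EIS (F): at every place `w` of the function field of level
`N ℓ`, `j(q)` is regular iff `j(q^ℓ)` is. -/
theorem tres4c_ord_nonneg_iff_prime (N ℓ : ℕ) [NeZero N] [NeZero ℓ]
    (w : Place k (modularFunctionFieldFullC k (N * ℓ))) :
    0 ≤ w.ord (⟨jqModC k, jqModC_mem_full k (N * ℓ)⟩ : modularFunctionFieldFullC k (N * ℓ)) ↔
      0 ≤ w.ord (⟨qExpand k ℓ (jqModC k), jqModCd_mem_full k (N * ℓ) (Dvd.intro_left N rfl)⟩ :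
        modularFunctionFieldFullC k (N * ℓ)) :=
  tres4c_ord_nonneg_iff k (N * ℓ) w ℓ (Dvd.intro_left N rfl)

end Laurent

end Fermat.Agent.R38

end


end ZBR38_006_0

/-! ### bundled: `Fermat.Agent.R38.TresEisGlue` -/
section ZBR38_006_1

/-!
# Row 38, PKG-TRES, piece FAC-EIS (G): the glue `StmtFacMono ⇒ StmtFacP`  (helper42)

`k = kA A`, `F̄_M = modularFunctionFieldFullC k M ⊂ F̄_{Mℓ}` (inclusion `ᾱ`), `β̄ f = f(q^ℓ)`.

* `tres4g_abs`     : abstract form (`tres4_eis_kill` off the cusps, `tres4_eis_abs_cusp` at the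
                     cusps, cusps `= {Q | ord_Q t < 0}`, `p ∤ a`): `p ∣ ord_Q (N ψ f / f ^ m)`
                     at ALL places `Q`;
* `StmtEisNormK`   : **(C)**, the Hecke norm on the `k`-side,
                     `N_{F̄_{Mℓ}/F̄_M} (f(q^ℓ)) = kronHecke ℓ ζ̄ f` (INPUT, helper60);
* `tres4g_main`    : the `k`-side of the Eisenstein step for `F̄_M ⊂ F̄_{Mℓ}`;
* `stmtFacEis_of`  : `StmtEisNormK → StmtFacEis`   (`StmtFacEis = StmtFacMono → StmtFacP`).
-/

set_option autoImplicit false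
set_option linter.unusedSectionVars false
set_option linter.unusedVariables false
set_option linter.style.haveILetI false
set_option synthInstance.maxHeartbeats 400000
set_option maxHeartbeats 1600000

noncomputable section

namespace Fermat.Agent.R38

open HahnSeries ModularCurve AlgebraicCurve Fermat.Agent.ES Fermat.Agent.ES.G2 Fermat.Agent.ES.M
  Fermat.Agent.RIB.MP Fermat.Agent.S24 Fermat.Agent.DEU Fermat.Agent.STB Fermat.Agent.RIB
  IntermediateField

/-! ## the abstract form -/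

section Abs

variable {K F F' : Type*} [Field K] [Field F] [Field F'] [Algebra K F] [Algebra K F']
  [Algebra F F'] [IsScalarTower K F F'] [Algebra.IsIntegral F F'] [Module.Finite F F']
  [HasPrincipalDivisors K F']

omit [Module.Finite F F'] [HasPrincipalDivisors K F'] in
theorem tres4g_restrict_neg_iff (w : Place K F') (t : F) :
    (w.restrict F).ord t < 0 ↔ w.ord (algebraMap F F' t) < 0 := by
  rw [w.ord_restrict t]
  have he : (0 : ℤ) < (w.ramificationIndex F : ℤ) := by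
    exact_mod_cast w.ramificationIndex_pos (F := F)
  constructor
  · intro h
    exact mul_neg_of_pos_of_neg he h
  · intro h
    by_contra hcon
    exact absurd h (not_lt.2 (mul_nonneg he.le (not_lt.1 hcon)))

omit [Module.Finite F F'] [HasPrincipalDivisors K F'] [Algebra.IsIntegral F F']
  [IsScalarTower K F F'] [Algebra F F'] in
theorem tres4g_restrictAlong_neg_iff (ψ : F →ₐ[K] F') (hψ : ψ.toRingHom.IsIntegral)
    (w : Place K F') (t : F) :
    (w.restrictAlong ψ hψ).ord t < 0 ↔ w.ord (ψ t) < 0 := by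
  rw [Place.ord_restrictAlong ψ hψ w t]
  have he : (0 : ℤ) < (Place.ramificationIndexAlong ψ w : ℤ) := by
    letI := algebraAlong ψ
    haveI := isIntegral_along ψ hψ
    exact_mod_cast w.ramificationIndex_pos (F := F)
  constructor
  · intro h
    exact mul_neg_of_pos_of_neg he h
  · intro h
    by_contra hcon
    exact absurd h (not_lt.2 (mul_nonneg he.le (not_lt.1 hcon)))

/-- **the Eisenstein step, abstract form, at all places.** -/
theorem tres4g_abs (hN : Divisor.PushforwardNormFormula K F F')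
    (ψ : F →ₐ[K] F') (hψ : ψ.toRingHom.IsIntegral) (t : F)
    (hcusp : ∀ w : Place K F', 0 ≤ w.ord (algebraMap F F' t) ↔ 0 ≤ w.ord (ψ t))
    {p : ℕ} (hp : p.Prime) (a b : ℤ) (ha : ¬ (p : ℤ) ∣ a) {f h : F} (hf : f ≠ 0) (hh : h ≠ 0)
    (hnc : ∀ Q : Place K F, 0 ≤ Q.ord t → (p : ℤ) ∣ a * Q.ord f - b * Q.ord h)
    (hc : ∀ Q : Place K F, Q.ord t < 0 → (p : ℤ) ∣ Q.ord f)
    (m : ℕ) (hconst : ∀ Q : Place K F, Q.ord (Algebra.norm F (ψ h)) = m * Q.ord h)
    (Q : Place K F) :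
    (p : ℤ) ∣ Q.ord (Algebra.norm F (ψ f) * (f ^ m)⁻¹) := by
  have hiff : ∀ w : Place K F', (w.restrictAlong ψ hψ).ord t < 0 ↔ (w.restrict F).ord t < 0 := by
    intro w
    rw [tres4g_restrictAlong_neg_iff, tres4g_restrict_neg_iff, ← not_le, ← not_le, hcusp w]
  by_cases hQ : Q.ord t < 0
  · -- at the cusps
    have h1 := tres4_eis_abs_cusp hN ψ hψ {Q | Q.ord t < 0} (fun w hw => (hiff w).2 hw)
      (p : ℤ) hf (fun Q hQ => hc Q hQ) Q hQ
    have hn1 : Algebra.norm F (ψ f) ≠ 0 := Algebra.norm_ne_zero_iff.2 ((map_ne_zero ψ).2 hf)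
    rw [Q.ord_mul hn1 (inv_ne_zero (pow_ne_zero m hf)), Q.ord_inv, ← zpow_natCast, Q.ord_zpow]
    exact dvd_add h1 ((Dvd.dvd.mul_left (hc Q hQ) _).neg_right)
  · have h1 := tres4_eis_kill hN ψ hψ {Q | Q.ord t < 0} (fun w hw => (hiff w).1 hw)
      (p : ℤ) a b hf hh (fun Q hQ => hnc Q (not_lt.1 hQ)) m hconst Q hQ
    exact ((Nat.prime_iff_prime_int.1 hp).dvd_or_dvd h1).resolve_left ha

end Abs

/-! ## the `k`-side -/

/-- `β̄ : F̄_N → F̄_{Nℓ}`, `f ↦ f(q^ℓ)` -/
def tres4gBeta (k : Type*) [Field k] (N ℓ : ℕ) [NeZero N] [NeZero ℓ] :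
    ↥(modularFunctionFieldFullC k N) →ₐ[k] ↥(modularFunctionFieldFullC k (N * ℓ)) where
  toFun x := ⟨qExpand k ℓ (x : LaurentSeries k),
    full_degeneracyC_map_le k N ℓ ⟨(x : LaurentSeries k), x.2, rfl⟩⟩
  map_one' := Subtype.ext (map_one (qExpand k ℓ))
  map_mul' _ _ := Subtype.ext (map_mul (qExpand k ℓ) _ _)
  map_zero' := Subtype.ext (map_zero (qExpand k ℓ))
  map_add' _ _ := Subtype.ext (map_add (qExpand k ℓ) _ _)
  commutes' a := Subtype.ext ((qExpandAlgHomC k ℓ).commutes a)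

theorem tres4gBeta_coe (k : Type*) [Field k] (N ℓ : ℕ) [NeZero N] [NeZero ℓ]
    (x : ↥(modularFunctionFieldFullC k N)) :
    ((tres4gBeta k N ℓ x : ↥(modularFunctionFieldFullC k (N * ℓ))) : LaurentSeries k) =
      qExpand k ℓ (x : LaurentSeries k) := rfl

section KSide

variable (A : ValuationSubring Qb)

/-- **the `k`-side of the Eisenstein step**: from the divisibilities of MONO for `r` (with the
Eisenstein function `h`) to `p ∣ div (T̄_ℓ r / r ^ (ℓ + 1))`. -/
theorem tres4g_main {p : ℕ} (hp : p.Prime) (hA : A.LiesOverPrime p) (M ℓ : ℕ) [NeZero M]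
    [NeZero ℓ] (hℓ : ℓ.Prime) (hℓM : ¬ ℓ ∣ M) (hℓp : ℓ ≠ p) (ζ : (kA A)ˣ)
    (hζ : IsPrimitiveRoot ζ ℓ)
    (hnorm : ∀ (f : ↥(modularFunctionFieldFullC (kA A) M))
        (g : ↥(modularFunctionFieldFullC (kA A) (M * ℓ))),
        (g : LaurentSeries (kA A)) = qExpand (kA A) ℓ (f : LaurentSeries (kA A)) →
          letI := (IntermediateField.inclusion
            (Fermat.Agent.S28.UB.full_mono (kA A) (Dvd.intro ℓ rfl) :
              modularFunctionFieldFullC (kA A) M ≤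
                modularFunctionFieldFullC (kA A) (M * ℓ))).toRingHom.toAlgebra
          ((Algebra.norm ↥(modularFunctionFieldFullC (kA A) M) g :
              ↥(modularFunctionFieldFullC (kA A) M)) : LaurentSeries (kA A)) =
            kronHecke ℓ ζ (f : LaurentSeries (kA A)))
    {r h : LaurentSeries (kA A)} (hr : r ∈ modularFunctionFieldFullC (kA A) M)
    (hh : h ∈ modularFunctionFieldFullC (kA A) M) (hr0 : r ≠ 0) (hh0 : h ≠ 0)
    (a b : ℤ) (ha : ¬ (p : ℤ) ∣ a)
    (hnc : ∀ Q : Place (kA A) ↥(modularFunctionFieldFullC (kA A) M),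
      0 ≤ Q.ord (⟨jqModC (kA A), jqModC_mem_full (kA A) M⟩ :
          ↥(modularFunctionFieldFullC (kA A) M)) →
        (p : ℤ) ∣ a * Q.ord (⟨r, hr⟩ : ↥(modularFunctionFieldFullC (kA A) M)) -
          b * Q.ord (⟨h, hh⟩ : ↥(modularFunctionFieldFullC (kA A) M)))
    (hc : ∀ Q : Place (kA A) ↥(modularFunctionFieldFullC (kA A) M),
      Q.ord (⟨jqModC (kA A), jqModC_mem_full (kA A) M⟩ :
          ↥(modularFunctionFieldFullC (kA A) M)) < 0 →
        (p : ℤ) ∣ Q.ord (⟨r, hr⟩ : ↥(modularFunctionFieldFullC (kA A) M)))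
    {c : kA A} (hc0 : c ≠ 0) (hcH : kronHecke ℓ ζ h = HahnSeries.C c * h ^ (ℓ + 1)) :
    ∃ hub : tres4rEis ℓ ζ r ∈ modularFunctionFieldFullC (kA A) M,
      ∀ Q : Place (kA A) ↥(modularFunctionFieldFullC (kA A) M),
        (p : ℤ) ∣ Q.ord (⟨tres4rEis ℓ ζ r, hub⟩ : ↥(modularFunctionFieldFullC (kA A) M)) := by
  classical
  haveI := modHyp_isAlgClosed A
  haveI : CharP (kA A) p := kron_charP_residueField hp hA
  have hℓk : ((ℓ : ℕ) : kA A) ≠ 0 := by
    intro h0
    have hd : p ∣ ℓ := (CharP.cast_eq_zero_iff (kA A) p ℓ).1 h0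
    exact hℓp ((Nat.prime_dvd_prime_iff_eq hp hℓ).1 hd).symm
  have hle : modularFunctionFieldFullC (kA A) M ≤ modularFunctionFieldFullC (kA A) (M * ℓ) :=
    Fermat.Agent.S28.UB.full_mono (kA A) (Dvd.intro ℓ rfl)
  letI alg : Algebra ↥(modularFunctionFieldFullC (kA A) M)
      ↥(modularFunctionFieldFullC (kA A) (M * ℓ)) :=
    (IntermediateField.inclusion hle).toRingHom.toAlgebra
  haveI hST : IsScalarTower (kA A) ↥(modularFunctionFieldFullC (kA A) M)
      ↥(modularFunctionFieldFullC (kA A) (M * ℓ)) :=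
    isScalarTower_along (IntermediateField.inclusion hle)
  haveI hfinJ : FiniteDimensional (kA A)⟮resSideJ (kA A) (M * ℓ)⟯
      ↥(modularFunctionFieldFullC (kA A) (M * ℓ)) := resSide_finiteDimensional (kA A) (M * ℓ)
  haveI hfin : Module.Finite ↥(modularFunctionFieldFullC (kA A) M)
      ↥(modularFunctionFieldFullC (kA A) (M * ℓ)) :=
    Fermat.Agent.ES.H.finiteAlong_of_transcendental (IntermediateField.inclusion hle)
      (resSideJ (kA A) (M * ℓ)) (resSide_transcendental_J (kA A) (M * ℓ))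
      (resSideJ (kA A) M) (resSide_transcendental_J (kA A) M)
  haveI hint : Algebra.IsIntegral ↥(modularFunctionFieldFullC (kA A) M)
      ↥(modularFunctionFieldFullC (kA A) (M * ℓ)) := Algebra.IsIntegral.of_finite _ _
  haveI hsep : Algebra.IsSeparable ↥(modularFunctionFieldFullC (kA A) M)
      ↥(modularFunctionFieldFullC (kA A) (M * ℓ)) :=
    tres4s_separable (kA A) M ℓ hℓ hℓM hℓk ζ hζ
  haveI hpd : HasPrincipalDivisors (kA A) ↥(modularFunctionFieldFullC (kA A) (M * ℓ)) :=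
    modHyp_hpdk (M * ℓ) A hp hA
  have hN : Divisor.PushforwardNormFormula (kA A) ↥(modularFunctionFieldFullC (kA A) M)
      ↥(modularFunctionFieldFullC (kA A) (M * ℓ)) :=
    tres4nf_pushforwardNormFormula (fun v => modHyp_hresk M A v)
      (fun w => modHyp_hresk (M * ℓ) A w)
  have hψ : (tres4gBeta (kA A) M ℓ).toRingHom.IsIntegral :=
    Fermat.Agent.ES.H.isIntegral_of_finiteAlong _
      (Fermat.Agent.ES.H.finiteAlong_of_transcendental (tres4gBeta (kA A) M ℓ)
        (resSideJ (kA A) (M * ℓ)) (resSide_transcendental_J (kA A) (M * ℓ))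
        (resSideJ (kA A) M) (resSide_transcendental_J (kA A) M))
  set F := ↥(modularFunctionFieldFullC (kA A) M) with hF
  set rr : F := ⟨r, hr⟩ with hrr
  set hhh : F := ⟨h, hh⟩ with hhhh
  set t : F := ⟨jqModC (kA A), jqModC_mem_full (kA A) M⟩ with ht
  have hrr0 : rr ≠ 0 := fun e => hr0 (congrArg Subtype.val e)
  have hhh0 : hhh ≠ 0 := fun e => hh0 (congrArg Subtype.val e)
  -- the norms
  have hNr : ((Algebra.norm F (tres4gBeta (kA A) M ℓ rr) : F) : LaurentSeries (kA A)) =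
      kronHecke ℓ ζ r := hnorm rr _ rfl
  have hNh : ((Algebra.norm F (tres4gBeta (kA A) M ℓ hhh) : F) : LaurentSeries (kA A)) =
      kronHecke ℓ ζ h := hnorm hhh _ rfl
  have hNh' : Algebra.norm F (tres4gBeta (kA A) M ℓ hhh) =
      algebraMap (kA A) F c * hhh ^ (ℓ + 1) := by
    apply Subtype.ext
    rw [hNh, hcH]
    have e1 : ((algebraMap (kA A) F c : F) : LaurentSeries (kA A)) = HahnSeries.C c := by
      rw [← algebraMap_eq_hahnC]
      rfl
    rw [← e1]
    rfl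
  have hconst : ∀ Q : Place (kA A) F,
      Q.ord (Algebra.norm F (tres4gBeta (kA A) M ℓ hhh)) = ((ℓ + 1 : ℕ) : ℤ) * Q.ord hhh := by
    intro Q
    rw [hNh', Q.ord_mul ((map_ne_zero _).2 hc0) (pow_ne_zero _ hhh0),
      Fermat.Agent.S24.PlaceAux.ord_algebraMap, zero_add, ← zpow_natCast, Q.ord_zpow]
  have hcusp : ∀ w : Place (kA A) ↥(modularFunctionFieldFullC (kA A) (M * ℓ)),
      0 ≤ w.ord (algebraMap F ↥(modularFunctionFieldFullC (kA A) (M * ℓ)) t) ↔
        0 ≤ w.ord (tres4gBeta (kA A) M ℓ t) :=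
    fun w => tres4c_ord_nonneg_iff_prime (kA A) M ℓ w
  have key := tres4g_abs hN (tres4gBeta (kA A) M ℓ) hψ t hcusp hp a b ha hrr0 hhh0 hnc hc
    (ℓ + 1) hconst
  have hcoe : tres4rEis ℓ ζ r =
      ((Algebra.norm F (tres4gBeta (kA A) M ℓ rr) * (rr ^ (ℓ + 1))⁻¹ : F) :
        LaurentSeries (kA A)) := by
    rw [tres4rEis, div_eq_mul_inv, ← hNr]
    rfl
  have hub : tres4rEis ℓ ζ r ∈ modularFunctionFieldFullC (kA A) M := by
    rw [hcoe]
    exact Subtype.property _
  refine ⟨hub, fun Q => ?_⟩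
  have e : (⟨tres4rEis ℓ ζ r, hub⟩ : F) =
      Algebra.norm F (tres4gBeta (kA A) M ℓ rr) * (rr ^ (ℓ + 1))⁻¹ := Subtype.ext hcoe
  rw [e]
  exact key Q

end KSide

/-- **FAC-EIS (G)**: the glue.  `StmtFacMono ⇒ StmtFacP`, given the Hecke norm on the `k`-side. -/
theorem stmtFacEis_of (hC : StmtEisNormK) : StmtFacEis := by
  intro hMono M p _ _ _ hp hpM h5 A hA x hx hα hβ hpeu hline ℓ hℓ
  obtain ⟨u, r, h, hr, hh, a, b, hxu, hred, hh0, ha, hnc, hc, hHecke⟩ :=
    hMono M p hp hpM h5 A hA x hx hα hβ hpeu hline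
  haveI : NeZero (ℓ : ℕ) := ⟨ℓ.2.ne_zero⟩
  have hℓMp : ¬ (ℓ : ℕ) ∣ M * p := fun hd => hℓ (Dvd.dvd.mul_right hd p)
  have hℓM : ¬ (ℓ : ℕ) ∣ M := fun hd => hℓMp (Dvd.dvd.mul_right hd p)
  have hℓp : (ℓ : ℕ) ≠ p := fun e => hℓMp (e ▸ Dvd.intro_left M rfl)
  obtain ⟨u', ζb, hζb, hxu', hred'⟩ := tres4r_main hp hA ℓ hℓMp hℓp hxu hred
  obtain ⟨c, hc0, hcH⟩ := hHecke (ℓ : ℕ) ℓ.2 hℓp ζb hζb
  obtain ⟨hub, hdiv⟩ := tres4g_main A hp hA M (ℓ : ℕ) ℓ.2 hℓM hℓp ζb hζb
    (hC M p hp hpM h5 A hA (ℓ : ℕ) ℓ.2 hℓM hℓp ζb hζb) hr hh hred.ne_zero_right hh0 a b ha hnc hc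
    hc0 hcH
  exact ⟨u', tres4rEis (ℓ : ℕ) ζb r, hub, hxu', hred', hdiv⟩

end Fermat.Agent.R38

end


end ZBR38_006_1

/-! ### bundled: `Fermat.Agent.R38.TresTrivOf` -/
section ZBR38_006_2
/-
ROW 38, target S44 (helper44): the state of the top wiring after HOL closed.

Landed inputs: `stmtHolSpanAll` (R38/HolAll.lean, helper83 & co), `stmtHolTriv`
(R38/HolTrivFinal.lean, helper52/helper42), `stmtFacEis_of` (R38/TresEisGlue.lean, helper42),
`stmtTresT0`, `s44_of_tres` (R38/S44Tres.lean), `stmtFacMono_of` (R38/PlanMono.lean).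

THE THREE OPEN PROPS of row 38:
* `StmtEisNormK`  (FAC-EIS (C), `R38/PlanEisK.lean`, helper60);
* `StmtMonoFix`   (ASM-NOCOVER, `R38/PlanMono.lean`, helper47);
* `StmtMonoCover` (ASM-MAIN, `R38/PlanMono.lean`, helper89 / helper92).
-/

set_option autoImplicit false

namespace Fermat.Agent.R38

/-- TRES-TRIV from (FAC-p) alone (HOL is closed). -/
theorem stmtTresTriv_of_fac (hFac : StmtFacP) : StmtTresTriv :=
  stmtTresTriv_of_hol hFac stmtHolSpanAll stmtHolTriv

/-- TRES-TRIV from the three open Props. -/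
theorem stmtTresTriv_of_open (hEisK : StmtEisNormK) (hFix : StmtMonoFix)
    (hCov : StmtMonoCover) : StmtTresTriv :=
  stmtTresTriv_of_fac (stmtFacP_of (stmtFacEis_of hEisK) (stmtFacMono_of stmtTresT0 hFix hCov))

/-- **Row 38 (S44 form) from the three open Props.** -/
theorem s44_of_open (hEisK : StmtEisNormK) (hFix : StmtMonoFix) (hCov : StmtMonoCover) :
    Fermat.Agent.RIB.StmtP :=
  s44_of_tres (stmtTresTriv_of_open hEisK hFix hCov)

end Fermat.Agent.R38


end ZBR38_006_2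

/-! ### bundled: `Fermat.Agent.R38.TresEisFinal` -/
section ZBR38_006_3

/-!
# Row 38, PKG-TRES, piece FAC-EIS: FINAL (helper60)

* `stmtEisNormK : StmtEisNormK` — **(C)**, the Hecke norm on the residue side:
  `N_{F̄_{Mℓ}/F̄_M} (f(q^ℓ)) = kronHecke ℓ ζ̄ f` for `f ∈ F̄_M = k(X₀(M))`, `k = kA A`, `A ∣ p`,
  `ℓ ∤ M p` (C1 helper83, C2 helper63, C3 helper60);
* `stmtFacEis : StmtFacEis` — **FAC-EIS**: `StmtFacMono → StmtFacP` (glue (G) helper42;
  NF helper47, SEP/CUSP helper64, abstract step (A) and norm–reduction (B) helper60).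
-/

set_option autoImplicit false

namespace Fermat.Agent.R38

/-- **(C)**: the Hecke norm on the residue side -/
theorem stmtEisNormK : StmtEisNormK :=
  stmtEisNormK_of (fun M ℓ _ _ A _ _ h => tres4g_gaussRed_beta M ℓ A h)
    (fun M ℓ _ _ hℓ hℓM A ζA hζ hζb _ _ _ h hy =>
      tres4g_gaussRed_kronHecke M ℓ A hℓ hℓM ζA hζ hζb h hy)

/-- **FAC-EIS**: the Eisenstein step, `StmtFacMono → StmtFacP` -/
theorem stmtFacEis : StmtFacEis :=
  stmtFacEis_of stmtEisNormK

end Fermat.Agent.R38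


end ZBR38_006_3
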