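/- GENERATED FILE (helper35, build-time optimisation, NOTES/ZB.md): verbatim concatenation of the modules
   Fermat.Agent.RIB.MP.FacStmt
   Fermat.Agent.RIB.MP.FacLevel
   Do not edit; do not import together with these modules. -/
import Fermat.Agent.ZB.S34_001
import Fermat.Agent.ZB.UNIP_007
import Fermat.Agent.ZB.STB_003
import Fermat.Agent.ZB.INJ_005
import Fermat.Agent.ZB.RIB_003
import Fermat.Agent.ZB.S36_005

/-! ### bundled: `Fermat.Agent.RIB.MP.FacStmt` -/
section ZBRIB_004_0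
/-
Row 37, Mazur's principle, piece MP-FAC (helper95): THE STATEMENT (F) as a `Prop`
(consumer: MP-RED `stmtRed_of : StmtFac → StmtRed`, MP-FROB).

`A` a valuation subring of `ℚ̄` over `q`, `E₀ = ℚ̄^I = beta0Field A`, `A₀ = A ∩ E₀` (a DVR),
`N = M₁ q`, `q ∤ M₁`, `F = F_N(E₀)`, `t = j`, `V = mgvV hπ ιC hq hqM` (`true ↦ V_∞`, `false ↦ V_0`).

(F): a function `y ≠ 0` of `F` whose divisor over `ℚ̄` is divisible by `m` and which is a unit of
`V_∞` and of `V_0` is, at EVERY closed point `i` of the special fibre of the two charts `j`,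
`1 / j` of the normalisation, a unit of the local ring times an `m`-th power:
`StbFacAt (atO π t i) m y`, i.e. `∃ γ : F, ∃ ε ∈ O_i^×, y = ε γ ^ m`.
-/

set_option autoImplicit false
set_option linter.unusedSectionVars false
set_option linter.unusedVariables false
set_option linter.style.longLine false

noncomputable section

namespace Fermat.Agent.RIB.MP

open ModularCurve AlgebraicCurve Fermat.Agent.INJ Fermat.Agent.UNIP Fermat.Agent.STB
open Fermat.Agent.ES Fermat.Agent.ES.G2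

/-- **MP-FAC at level `M₁ q`, exponent `m`, over `K₀`** (`A ∩ K₀` a discrete valuation ring). -/
def StmtFacOver (M₁ q : ℕ) [NeZero M₁] [NeZero q] [NeZero (M₁ * q)] (m : ℕ)
    (A : ValuationSubring Qb) (K₀ : IntermediateField ℚ Qb) : Prop :=
  ∀ (hq : q.Prime) (hqM : ¬ q ∣ M₁) [IsDiscreteValuationRing ↥(beta0Ring A K₀)]
    (π : ↥(beta0Ring A K₀)) (hπ : Irreducible π) (ιC : ↥K₀ →+* ℂ)
    (y : ↥(modularFunctionFieldFullC ↥K₀ (M₁ * q))), y ≠ 0 →
    (∀ P : Place NfQb (modularFunctionFieldBar (M₁ * q)),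
      (m : ℤ) ∣ P.ord (nfEmb K₀ (M₁ * q) y)) →
    (∀ c, (mgvV hπ ιC hq hqM c).valuation y = 1) →
    ∀ i : AtPt (F := ↥(modularFunctionFieldFullC ↥K₀ (M₁ * q))) π (bgJ ↥K₀ (M₁ * q)) ⊕
        AtPt (F := ↥(modularFunctionFieldFullC ↥K₀ (M₁ * q))) π (bgJ ↥K₀ (M₁ * q))⁻¹,
      StbFacAt (atO π (bgJ ↥K₀ (M₁ * q)) i) m y

/-- **MP-FAC at level `M₁ q`, exponent `m`** (over the inertia field `ℚ̄^I` of `A`). -/
def StmtFacAt (M₁ q : ℕ) [NeZero M₁] [NeZero q] [NeZero (M₁ * q)] (m : ℕ) : Prop :=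
  ∀ A : ValuationSubring Qb, A.LiesOverPrime q → StmtFacOver M₁ q m A (beta0Field A)

/-- **MP-FAC**: (F) for every level `M₁ q` (`q ≠ 2` prime, `q ∤ M₁`, NO rigidity hypothesis) and
every exponent `m` prime to `6`. -/
def StmtFac : Prop :=
  ∀ (M₁ q : ℕ) [NeZero M₁] [NeZero q] [NeZero (M₁ * q)], q.Prime → ¬ q ∣ M₁ → q ≠ 2 →
    ∀ m : ℕ, Nat.Coprime m 6 → StmtFacAt M₁ q m

end Fermat.Agent.RIB.MP

end
end ZBRIB_004_0

/-! ### bundled: `Fermat.Agent.RIB.MP.FacLevel` -/
section ZBRIB_004_1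
/-
Row 37, Mazur's principle, piece MP-FAC (helper95), part 5 (FAC-E): CHANGE OF LEVEL
`M q → M d q` (`q ∤ M d`), over the same field of constants.

`up = ribmpFlUp K M d q : F_{Mq}(K) → F_{Mdq}(K)` the inclusion (of subfields of `K((Q))`).

* `ribmp_fl_al` : the Atkin–Lehner involutions `w_q` of the two levels are compatible,
  `w_q (up x) = up (w_q x)`;
* `ribmp_fl_vtEmbFam` : the two `Q`-expansions (at `∞` and at `0`) of `up x` are those of `x`;
* `ribmp_fl_valuation` : `(mgvV′ c).valuation (up y) = 1 ↔ (mgvV c).valuation y = 1`;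
* `ribmp_fl_descent` : **(F) at level `M d q` ⇒ (F) at level `M q`**, for `m` prime to the degree
  (hypotheses: the degree `hD`, and `hhorUp` = the horizontal hypothesis ascends).
-/

set_option autoImplicit false
set_option linter.unusedSectionVars false
set_option linter.unusedVariables false
set_option linter.style.haveILetI false
set_option linter.style.longLine false
set_option synthInstance.maxHeartbeats 400000
set_option maxHeartbeats 1000000

noncomputable section

namespace Fermat.Agent.RIB.MP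

open ModularCurve Polynomial IntermediateField Fermat.Agent.INJ Fermat.Agent.AL AlgebraicCurve
open Fermat.Agent.ES Fermat.Agent.ES.G2 Fermat.Agent.STB Fermat.Agent.UNIP Fermat.Agent.S36

section AL

variable (K : Type*) [Field K] (ι : K →+* ℂ) {q M d : ℕ} [NeZero q] [NeZero M] [NeZero (M * q)]
  [NeZero (M * d)] [NeZero (M * d * q)] (hq : q.Prime) (hqM : ¬ q ∣ M) (hqMd : ¬ q ∣ M * d)

theorem ribmp_fl_dvd (M d q : ℕ) : M * q ∣ M * d * q := ⟨d, by ring⟩

theorem ribmp_fl_le (M d q : ℕ) :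
    modularFunctionFieldFullC K (M * q) ≤ modularFunctionFieldFullC K (M * d * q) :=
  Fermat.Agent.S28.UB.full_mono K (ribmp_fl_dvd M d q)

/-- the inclusion `F_{Mq}(K) → F_{Mdq}(K)` -/
def ribmpFlUp (M d q : ℕ) :
    modularFunctionFieldFullC K (M * q) →ₐ[K] modularFunctionFieldFullC K (M * d * q) :=
  IntermediateField.inclusion (ribmp_fl_le K M d q)

theorem ribmpFlUp_coe (x : modularFunctionFieldFullC K (M * q)) :
    ((ribmpFlUp K M d q x : modularFunctionFieldFullC K (M * d * q)) : LaurentSeries K) =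
      (x : LaurentSeries K) := IntermediateField.coe_inclusion _ x

theorem ribmpFlUp_bgJ : ribmpFlUp K M d q (bgJ K (M * q)) = bgJ K (M * d * q) :=
  Subtype.ext (ribmpFlUp_coe K _)

/-- **the Atkin–Lehner involutions of the two levels are compatible** -/
theorem ribmp_fl_al (x : modularFunctionFieldFullC K (M * q)) :
    atkinLehner K ι hq hqMd (ribmpFlUp K M d q x) =
      ribmpFlUp K M d q (atkinLehner K ι hq hqM x) := by
  set φ₁ : modularFunctionFieldFullC K (M * q) →+* modularFunctionFieldFullC K (M * d * q) :=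
    (atkinLehner K ι hq hqMd).toRingEquiv.toRingHom.comp (ribmpFlUp K M d q).toRingHom with hφ₁
  set φ₂ : modularFunctionFieldFullC K (M * q) →+* modularFunctionFieldFullC K (M * d * q) :=
    (ribmpFlUp K M d q).toRingHom.comp (atkinLehner K ι hq hqM).toRingEquiv.toRingHom with hφ₂
  have key : φ₁ = φ₂ := by
    apply al_ringHom_ext K (M * q)
    · intro c
      show atkinLehner K ι hq hqMd (ribmpFlUp K M d q (algebraMap K _ c)) =
        ribmpFlUp K M d q (atkinLehner K ι hq hqM (algebraMap K _ c))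
      rw [AlgHom.commutes, AlgEquiv.commutes, AlgEquiv.commutes, AlgHom.commutes]
    · intro e _ he
      show atkinLehner K ι hq hqMd (ribmpFlUp K M d q
          ⟨qExpand K e (jqModC K), jqModCd_mem_full K (M * q) he⟩) =
        ribmpFlUp K M d q (atkinLehner K ι hq hqM
          ⟨qExpand K e (jqModC K), jqModCd_mem_full K (M * q) he⟩)
      have e1 : ribmpFlUp K M d q ⟨qExpand K e (jqModC K), jqModCd_mem_full K (M * q) he⟩ =
          ⟨qExpand K e (jqModC K),
            jqModCd_mem_full K (M * d * q) (he.trans (ribmp_fl_dvd M d q))⟩ :=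
        Subtype.ext (ribmpFlUp_coe K _)
      rw [e1]
      apply Subtype.ext
      rw [ribmpFlUp_coe]
      rcases al_divisor_cases hq hqM he with h | ⟨e', he', rfl⟩
      · haveI : NeZero (e * q) := ⟨Nat.mul_ne_zero (NeZero.ne e) (NeZero.ne q)⟩
        rw [atkinLehner_low K ι hq hqM h]
        exact atkinLehner_low K ι hq hqMd (h.mul_right d)
      · have he'0 : e' ≠ 0 := by
          rintro rfl
          exact NeZero.ne (0 * q) (by simp)
        haveI : NeZero e' := ⟨he'0⟩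
        rw [atkinLehner_high K ι hq hqM he']
        exact atkinLehner_high K ι hq hqMd (he'.mul_right d)
  exact congrArg (fun φ : modularFunctionFieldFullC K (M * q) →+*
    modularFunctionFieldFullC K (M * d * q) => φ x) key

end AL

section Val

variable {A : ValuationSubring Qb} {K₀ : IntermediateField ℚ Qb}
  [IsDiscreteValuationRing ↥(beta0Ring A K₀)] {π : ↥(beta0Ring A K₀)} (hπ : Irreducible π)
  (ιC : ↥K₀ →+* ℂ) {q M d : ℕ} [NeZero q] [NeZero M] [NeZero (M * q)] [NeZero (M * d)]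
  [NeZero (M * d * q)] (hq : q.Prime) (hqM : ¬ q ∣ M) (hqMd : ¬ q ∣ M * d)

/-- the two `Q`-expansions of `up x` are those of `x` -/
theorem ribmp_fl_vtEmbFam (c : Bool) (x : ↥(modularFunctionFieldFullC ↥K₀ (M * q))) :
    vtEmbFam ιC hq hqMd c (ribmpFlUp ↥K₀ M d q x) = vtEmbFam ιC hq hqM c x := by
  cases c
  · show vtEmb0 ιC hq hqMd (ribmpFlUp ↥K₀ M d q x) = vtEmb0 ιC hq hqM x
    rw [vtEmb0_apply, vtEmb0_apply, ribmp_fl_al ↥K₀ ιC hq hqM hqMd, ribmpFlUp_coe]
  · show vtEmb ↥K₀ (M * d * q) (ribmpFlUp ↥K₀ M d q x) = vtEmb ↥K₀ (M * q) x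
    rw [vtEmb_apply, vtEmb_apply, ribmpFlUp_coe]

/-- **hunit ascends and descends** -/
theorem ribmp_fl_valuation (c : Bool) (y : ↥(modularFunctionFieldFullC ↥K₀ (M * q))) :
    (mgvV hπ ιC hq hqMd c).valuation (ribmpFlUp ↥K₀ M d q y) = 1 ↔
      (mgvV hπ ιC hq hqM c).valuation y = 1 := by
  show (vtFam (vtBase_residue hπ) ιC hq hqMd c).valuation _ = 1 ↔
    (vtFam (vtBase_residue hπ) ιC hq hqM c).valuation _ = 1
  rw [vtFam_valuation_eq_one_iff, vtFam_valuation_eq_one_iff,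
    ribmp_fl_vtEmbFam ιC hq hqM hqMd]

end Val

section Descent

variable {A : ValuationSubring Qb} {K₀ : IntermediateField ℚ Qb}
  {q M d : ℕ} [NeZero q] [NeZero M] [NeZero (M * q)] [NeZero (M * d)] [NeZero (M * d * q)]

/-- **(F) at level `M d q` ⇒ (F) at level `M q`** when `m` is prime to `[F_{Mdq} : F_{Mq}]`. -/
theorem ribmp_fl_descent (hqMd : ¬ q ∣ M * d) {m : ℕ} (hm0 : 0 < m)
    (hD : Nat.Coprime m (stbDeg (ribmpFlUp ↥K₀ M d q).toRingHom))
    (hhorUp : ∀ y : ↥(modularFunctionFieldFullC ↥K₀ (M * q)),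
      (∀ P : Place NfQb (modularFunctionFieldBar (M * q)),
        (m : ℤ) ∣ P.ord (nfEmb K₀ (M * q) y)) →
      ∀ P : Place NfQb (modularFunctionFieldBar (M * d * q)),
        (m : ℤ) ∣ P.ord (nfEmb K₀ (M * d * q) (ribmpFlUp ↥K₀ M d q y)))
    (hfac : StmtFacOver (M * d) q m A K₀) : StmtFacOver M q m A K₀ := by
  intro hq hqM _ π hπ ιC y hy hhor hunit
  have hup : ribmpFlUp ↥K₀ M d q y ≠ 0 := fun h0 =>
    hy ((ribmpFlUp ↥K₀ M d q).toRingHom.injective (by rw [AlgHom.toRingHom_eq_coe, RingHom.coe_coe, h0, map_zero]))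
  have h1 := hfac hq hqMd π hπ ιC (ribmpFlUp ↥K₀ M d q y) hup (hhorUp y hhor)
    (fun c => (ribmp_fl_valuation hπ ιC hq hqM hqMd c y).2 (hunit c))
  have key : ∀ (v : ↥(modularFunctionFieldFullC ↥K₀ (M * d * q)))
      (hv : v = bgJ ↥K₀ (M * d * q)),
      ∀ i' : AtPt (F := ↥(modularFunctionFieldFullC ↥K₀ (M * d * q))) π v ⊕
          AtPt (F := ↥(modularFunctionFieldFullC ↥K₀ (M * d * q))) π v⁻¹,
        StbFacAt (atO π v i') m (ribmpFlUp ↥K₀ M d q y) := by
    intro v hv
    subst hv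
    exact h1
  have e := ribmpFlUp_bgJ ↥K₀ (M := M) (d := d) (q := q)
  haveI : FiniteDimensional (↥K₀)⟮ribmpFlUp ↥K₀ M d q (bgJ ↥K₀ (M * q))⟯
      ↥(modularFunctionFieldFullC ↥K₀ (M * d * q)) := by
    rw [e]; exact ribmp_fc_fin (M * d * q)
  haveI : FiniteDimensional (↥K₀)⟮(ribmpFlUp ↥K₀ M d q (bgJ ↥K₀ (M * q)))⁻¹⟯
      ↥(modularFunctionFieldFullC ↥K₀ (M * d * q)) := by
    rw [e]; exact ribmp_fc_fin_inv (M * d * q)
  have ht : Transcendental ↥K₀ (ribmpFlUp ↥K₀ M d q (bgJ ↥K₀ (M * q))) := by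
    rw [e]; exact ribmp_fc_trans (M * d * q)
  exact ribmp_fac_charts (ribmpFlUp ↥K₀ M d q) ht (zch_transcendental_inv ht) hm0 hD hy
    (key _ e)

end Descent

end Fermat.Agent.RIB.MP

end
end ZBRIB_004_1
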