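/- GENERATED FILE (helper35, build-time optimisation, NOTES/ZB.md): verbatim concatenation of the modules
   Fermat.Agent.RIB.MP.RedDict
   Fermat.Agent.R38.TresDictNode
   Fermat.Agent.R38.TresMono
   Fermat.Agent.R38.TresMonoFixAbs
   Fermat.Agent.RIB.MP.RedA
   Fermat.Agent.R38.TresMonoFixRed
   Fermat.Agent.R38.TresMonoOgg
   Fermat.Agent.R38.TresMonoConc
   Fermat.Agent.RIB.MP.RedDictFin
   Fermat.Agent.RIB.MP.RedFinal
   Fermat.Agent.R38.TresMonoI5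
   Fermat.Agent.R38.TresMonoI7
   Do not edit; do not import together with these modules. -/
import Fermat.Agent.ZB.UNIP_007
import Fermat.Agent.ZB.STB_003
import Fermat.Prelude.Def_AlgebraicCurve_DivisorClassGroup
import Fermat.Agent.ZB.S24_007
import Fermat.Agent.ZB.RT_001
import Fermat.Agent.ZB.UNIP_014
import Fermat.Agent.ZB.RIB_001
import Fermat.Agent.ZB.S34_001
import Fermat.Agent.ZB.RIB_004
import Fermat.Agent.ZB.S36_008
import Fermat.Agent.ZB.ES_005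
import Fermat.Agent.ZB.UNIP_015
import Fermat.Agent.ZB.INJ_013
import Fermat.Agent.ZB.ES_002
import Fermat.Agent.ZB.DEU_005
import Fermat.Agent.ZB.S15_001
import Fermat.Agent.ZB.UNIP_006
import Fermat.Agent.ZB.UNIP_036
import Fermat.Agent.ZB.W1_002
import Fermat.Agent.ZB.INJ_005
import Fermat.Agent.ZB.ES_001

/-! ### bundled: `Fermat.Agent.RIB.MP.RedDict` -/
section ZBRIB_002_0
/-
Row 37, MP-RED / RED-a (ii) "CENTRE dictionary" (helper85, for helper91's `StmtRedE`).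

Pure algebra.  `V` a valuation subring of `F` (the vertical valuation `V_∞`), `ρ : V →+* L` its
reduction map (kernel `⊇ 𝔪_V`), `Q` a place of the residue function field `L`.  The composite
`T = {x ∈ V | ρ x ∈ O_Q}` is a valuation subring of `F`; it contains one of the two charts
`B_t`, `B_{t⁻¹}` (integral closures of `A₀[t]`, `A₀[t⁻¹]`), its centre on that chart is a closed
point `𝔫` of the special fibre and `(B_u)_𝔫 ⊆ T`.  Hence a local factorisation `y = ε γ ^ m` at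
`𝔫` (`STB.StbFacAt`) gives `m ∣ ord_Q (ρ y)`.

* `ribmp_rd_comp`     : the composite valuation subring `T`;
* `ribmp_rd_chart`    : the centre of `T` on the chart `u` (`u ∈ T`) is a point `𝔫 : AtPt π u` and
                        `atLoc 𝔫 ⊆ T`;
* `ribmp_rd_fac`      : `StbFacAt O m y`, `O ⊆ T`, `y ∈ V^×` ⇒ `m ∣ ord_Q (ρ y)`;
* `ribmp_rd_dvd_ord`  : **the dictionary**.
-/

set_option autoImplicit false
set_option linter.unusedSectionVars false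
set_option linter.style.haveILetI false

noncomputable section

namespace Fermat.Agent.RIB.MP

open AlgebraicCurve Fermat.Agent.UNIP Fermat.Agent.STB Fermat.Agent.INJ

section Comp

variable {F L : Type*} [Field F] [Field L]

/-- a unit of `V` (as an element with valuation `1`) has nonzero image under `ρ` -/
theorem ribmp_rd_map_inv (V : ValuationSubring F) (ρ : ↥V →+* L) {x : F} (hx : x ∈ V)
    (hxi : x⁻¹ ∈ V) (hx0 : x ≠ 0) : ρ ⟨x⁻¹, hxi⟩ = (ρ ⟨x, hx⟩)⁻¹ := by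
  have h1 : (⟨x, hx⟩ : ↥V) * ⟨x⁻¹, hxi⟩ = 1 := Subtype.ext (mul_inv_cancel₀ hx0)
  have h2 : ρ ⟨x, hx⟩ * ρ ⟨x⁻¹, hxi⟩ = 1 := by rw [← map_mul, h1, map_one]
  exact eq_inv_of_mul_eq_one_right h2

/-- an element of `V` which is not in the kernel of `ρ` is a unit of `V` -/
theorem ribmp_rd_inv_mem (V : ValuationSubring F) (ρ : ↥V →+* L)
    (hker : ∀ x : ↥V, (x : F) ∈ V.nonunits → ρ x = 0) {x : F} (hx : x ∈ V)
    (hρ : ρ ⟨x, hx⟩ ≠ 0) : x⁻¹ ∈ V := by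
  have hnu : x ∉ V.nonunits := fun h => hρ (hker ⟨x, hx⟩ h)
  rw [ValuationSubring.mem_nonunits_iff, not_lt] at hnu
  rw [← V.valuation_le_one_iff, map_inv₀]
  exact inv_le_one_of_one_le₀ hnu

/-- **The composite valuation subring** `T = {x ∈ V | ρ x ∈ O}`. -/
def ribmp_rd_comp (V : ValuationSubring F) (ρ : ↥V →+* L) (O : ValuationSubring L)
    (hker : ∀ x : ↥V, (x : F) ∈ V.nonunits → ρ x = 0) : ValuationSubring F where
  carrier := {x | ∃ hx : x ∈ V, ρ ⟨x, hx⟩ ∈ O}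
  mul_mem' := by
    rintro x y ⟨hx, hx'⟩ ⟨hy, hy'⟩
    refine ⟨V.mul_mem _ _ hx hy, ?_⟩
    have e : (⟨x * y, V.mul_mem _ _ hx hy⟩ : ↥V) = ⟨x, hx⟩ * ⟨y, hy⟩ := rfl
    rw [e, map_mul]
    exact O.mul_mem _ _ hx' hy'
  one_mem' := by
    refine ⟨V.one_mem, ?_⟩
    have e : (⟨1, V.one_mem⟩ : ↥V) = 1 := rfl
    rw [e, map_one]
    exact O.one_mem
  add_mem' := by
    rintro x y ⟨hx, hx'⟩ ⟨hy, hy'⟩
    refine ⟨V.add_mem _ _ hx hy, ?_⟩
    have e : (⟨x + y, V.add_mem _ _ hx hy⟩ : ↥V) = ⟨x, hx⟩ + ⟨y, hy⟩ := rfl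
    rw [e, map_add]
    exact O.add_mem _ _ hx' hy'
  zero_mem' := by
    refine ⟨V.zero_mem, ?_⟩
    have e : (⟨0, V.zero_mem⟩ : ↥V) = 0 := rfl
    rw [e, map_zero]
    exact O.zero_mem
  neg_mem' := by
    rintro x ⟨hx, hx'⟩
    refine ⟨V.neg_mem _ hx, ?_⟩
    have e : (⟨-x, V.neg_mem _ hx⟩ : ↥V) = -⟨x, hx⟩ := rfl
    rw [e, map_neg]
    exact O.neg_mem _ hx'
  mem_or_inv_mem' := by
    intro x
    rcases eq_or_ne x 0 with rfl | hx0
    · left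
      refine ⟨V.zero_mem, ?_⟩
      have e : (⟨0, V.zero_mem⟩ : ↥V) = 0 := rfl
      rw [e, map_zero]
      exact O.zero_mem
    -- reduce to the case `x ∈ V`
    have key : ∀ z : F, z ≠ 0 → z ∈ V →
        (∃ hz : z ∈ V, ρ ⟨z, hz⟩ ∈ O) ∨ (∃ hz : z⁻¹ ∈ V, ρ ⟨z⁻¹, hz⟩ ∈ O) := by
      intro z hz0 hz
      by_cases hρ : ρ ⟨z, hz⟩ ∈ O
      · exact Or.inl ⟨hz, hρ⟩
      · have hρ0 : ρ ⟨z, hz⟩ ≠ 0 := fun h => hρ (h ▸ O.zero_mem)
        have hzi : z⁻¹ ∈ V := ribmp_rd_inv_mem V ρ hker hz hρ0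
        refine Or.inr ⟨hzi, ?_⟩
        rw [ribmp_rd_map_inv V ρ hz hzi hz0]
        exact (O.mem_or_inv_mem _).resolve_left hρ
    rcases V.mem_or_inv_mem x with hx | hx
    · exact key x hx0 hx
    · rcases key x⁻¹ (inv_ne_zero hx0) hx with h | h
      · exact Or.inr h
      · rw [inv_inv] at h
        exact Or.inl h

theorem ribmp_rd_mem_comp {V : ValuationSubring F} {ρ : ↥V →+* L} {O : ValuationSubring L}
    {hker : ∀ x : ↥V, (x : F) ∈ V.nonunits → ρ x = 0} {x : F} :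
    x ∈ ribmp_rd_comp V ρ O hker ↔ ∃ hx : x ∈ V, ρ ⟨x, hx⟩ ∈ O := Iff.rfl

end Comp

section Fac

variable {F L : Type*} [Field F] [Field L] {k : Type*} [Field k] [Algebra k L]

/-- `StbFacAt O m y` with `O` inside the composite of `V` and `Q`, `y` a unit of `V`:
`m ∣ ord_Q (ρ y)`. -/
theorem ribmp_rd_fac (V : ValuationSubring F) (ρ : ↥V →+* L) (Q : Place k L)
    (O : Subring F)
    (hO : ∀ x ∈ O, ∃ hx : x ∈ V, ρ ⟨x, hx⟩ ∈ Q.toValuationSubring)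
    {m : ℕ} (hm : 0 < m) {y : F} (hy : V.valuation y = 1) (hF : StbFacAt O m y) :
    (m : ℤ) ∣ Q.ord (ρ ⟨y, (V.valuation_le_one_iff y).mp hy.le⟩) := by
  obtain ⟨γ, ε, hε, hyε⟩ := hF
  obtain ⟨ε', hεε'⟩ := hε.exists_right_inv
  have hεε'F : (ε : F) * (ε' : F) = 1 := by
    have := congrArg (fun z : ↥O => (z : F)) hεε'
    simpa using this
  obtain ⟨hεV, hεQ⟩ := hO ε ε.2
  obtain ⟨hε'V, hε'Q⟩ := hO ε' ε'.2
  have hρεε' : ρ ⟨ε, hεV⟩ * ρ ⟨ε', hε'V⟩ = 1 := by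
    have e : (⟨(ε : F), hεV⟩ : ↥V) * ⟨(ε' : F), hε'V⟩ = 1 := Subtype.ext hεε'F
    rw [← map_mul, e, map_one]
  -- `ρ ε` is a unit of `O_Q`
  let uQ : (Q.toValuationSubring)ˣ :=
    ⟨⟨ρ ⟨ε, hεV⟩, hεQ⟩, ⟨ρ ⟨ε', hε'V⟩, hε'Q⟩, Subtype.ext hρεε',
      Subtype.ext (by rw [mul_comm]; exact hρεε')⟩
  have hordε : Q.ord (ρ ⟨ε, hεV⟩) = 0 := Q.ord_coe_unit uQ
  -- valuations
  have hvε : V.valuation (ε : F) = 1 := by
    have h1 : V.valuation (ε : F) ≤ 1 := (V.valuation_le_one_iff _).mpr hεV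
    have h2 : V.valuation (ε' : F) ≤ 1 := (V.valuation_le_one_iff _).mpr hε'V
    have h3 : V.valuation (ε : F) * V.valuation (ε' : F) = 1 := by
      rw [← map_mul, hεε'F, map_one]
    refine le_antisymm h1 ?_
    by_contra hlt
    rw [not_le] at hlt
    have : V.valuation (ε : F) * V.valuation (ε' : F) < 1 :=
      calc V.valuation (ε : F) * V.valuation (ε' : F) ≤ V.valuation (ε : F) * 1 := by gcongr
        _ = V.valuation (ε : F) := mul_one _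
        _ < 1 := hlt
    rw [h3] at this
    exact lt_irrefl _ this
  have hvγm : V.valuation γ ^ m = 1 := by
    have := hy
    rw [hyε, map_mul, hvε, one_mul, map_pow] at this
    exact this
  have hvγ : V.valuation γ = 1 := (pow_eq_one_iff.mp hvγm).resolve_right hm.ne'
  have hγV : γ ∈ V := (V.valuation_le_one_iff _).mp hvγ.le
  have hγ0 : γ ≠ 0 := by
    rintro rfl
    rw [map_zero] at hvγ
    exact zero_ne_one hvγ
  have hγiV : γ⁻¹ ∈ V := by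
    rw [← V.valuation_le_one_iff, map_inv₀, hvγ, inv_one]
  have hργ0 : ρ ⟨γ, hγV⟩ ≠ 0 := by
    intro h
    have h1 := ribmp_rd_map_inv V ρ hγV hγiV hγ0
    have h2 : ρ ⟨γ, hγV⟩ * ρ ⟨γ⁻¹, hγiV⟩ = 1 := by
      have e : (⟨γ, hγV⟩ : ↥V) * ⟨γ⁻¹, hγiV⟩ = 1 := Subtype.ext (mul_inv_cancel₀ hγ0)
      rw [← map_mul, e, map_one]
    rw [h, zero_mul] at h2
    exact zero_ne_one h2
  have hρε0 : ρ ⟨ε, hεV⟩ ≠ 0 := by
    intro h
    rw [h, zero_mul] at hρεε'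
    exact zero_ne_one hρεε'
  have hρy : ρ ⟨y, (V.valuation_le_one_iff y).mp hy.le⟩ = ρ ⟨ε, hεV⟩ * ρ ⟨γ, hγV⟩ ^ m := by
    have e : (⟨y, (V.valuation_le_one_iff y).mp hy.le⟩ : ↥V) = ⟨ε, hεV⟩ * ⟨γ, hγV⟩ ^ m :=
      Subtype.ext (by simpa using hyε)
    rw [e, map_mul, map_pow]
  rw [hρy, Q.ord_mul hρε0 (pow_ne_zero _ hργ0), hordε, zero_add]
  have := Q.ord_zpow (ρ ⟨γ, hγV⟩) (m : ℤ)
  rw [zpow_natCast] at this
  rw [this]
  exact Dvd.intro _ rfl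

end Fac

section Chart

variable {A₀ E F : Type*} [CommRing A₀] [IsDomain A₀] [IsDiscreteValuationRing A₀]
  [Field E] [Algebra A₀ E] [IsFractionRing A₀ E] [CharZero E]
  [Field F] [Algebra E F] [Algebra A₀ F] [IsScalarTower A₀ E F]
  {L : Type*} [Field L]

/-- **The centre on a chart.**  If the chart coordinate `u` lies in the composite of `V` and `O`,
the centre of the composite on the chart `B_u` is a closed point `𝔫` of the special fibre, and the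
local ring `(B_u)_𝔫` lies in the composite. -/
theorem ribmp_rd_chart {π : A₀} (V : ValuationSubring F) (ρ : ↥V →+* L)
    (hker : ∀ x : ↥V, (x : F) ∈ V.nonunits → ρ x = 0)
    (hAV : ∀ a : A₀, algebraMap A₀ F a ∈ V)
    (hπ : ρ ⟨algebraMap A₀ F π, hAV π⟩ = 0)
    (O : ValuationSubring L)
    (hAQ : ∀ a : A₀, ρ ⟨algebraMap A₀ F a, hAV a⟩ ∈ O)
    (hfin : ∀ x ∈ O, x ∉ O.nonunits → ∃ n : ℕ, 0 < n ∧ x ^ n - 1 ∈ O.nonunits)
    {u : F} (hu : u ∈ V) (hρu : ρ ⟨u, hu⟩ ∈ O) :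
    ∃ 𝔫 : AtPt (F := F) π u, ∀ x ∈ atLoc 𝔫, ∃ hx : x ∈ V, ρ ⟨x, hx⟩ ∈ O := by
  set T : ValuationSubring F := ribmp_rd_comp V ρ O hker with hT
  -- the chart lies in `T`
  let TA : Subalgebra A₀ F :=
    { T.toSubring with
      algebraMap_mem' := fun a => ⟨hAV a, hAQ a⟩ }
  have hadj : Algebra.adjoin A₀ ({u} : Set F) ≤ TA :=
    Algebra.adjoin_le (Set.singleton_subset_iff.mpr ⟨hu, hρu⟩)
  have hBT : ∀ b : ↥(zchClosure (A₀ := A₀) ({u} : Set F)), (b : F) ∈ T := fun b =>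
    crossing_mem_of_isIntegral T (Algebra.adjoin A₀ ({u} : Set F)) (fun x hx => hadj hx)
      (mem_zchClosure.mp b.2)
  -- the reduction map of the chart
  let incl : ↥(zchClosure (A₀ := A₀) ({u} : Set F)) →+* ↥V :=
    (algebraMap ↥(zchClosure (A₀ := A₀) ({u} : Set F)) F).codRestrict V.toSubring
      (fun b => (hBT b).fst)
  let φ : ↥(zchClosure (A₀ := A₀) ({u} : Set F)) →+* ↥O :=
    (ρ.comp incl).codRestrict O.toSubring (fun b => (hBT b).snd)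
  have hφ : ∀ b, ((φ b : ↥O) : L) = ρ ⟨(b : F), (hBT b).fst⟩ := fun b => rfl
  let 𝔫 : Ideal ↥(zchClosure (A₀ := A₀) ({u} : Set F)) :=
    Ideal.comap φ (IsLocalRing.maximalIdeal ↥O)
  have hmem : ∀ b, b ∈ 𝔫 ↔ ρ ⟨(b : F), (hBT b).fst⟩ ∈ O.nonunits := by
    intro b
    rw [← hφ b, ValuationSubring.coe_mem_nonunits_iff]
    exact Iff.rfl
  have hmax : 𝔫.IsMaximal := by
    rw [Ideal.isMaximal_iff]
    refine ⟨fun h1 => ?_, fun J x hJ hx hxJ => ?_⟩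
    · have : φ 1 ∈ IsLocalRing.maximalIdeal ↥O := h1
      rw [map_one] at this
      exact (IsLocalRing.maximalIdeal.isMaximal ↥O).ne_top
        ((Ideal.eq_top_iff_one _).mpr this)
    · have hx' : ρ ⟨(x : F), (hBT x).fst⟩ ∉ O.nonunits := fun h => hx ((hmem x).mpr h)
      obtain ⟨n, hn, hpow⟩ := hfin _ (hBT x).snd hx'
      have h1 : x ^ n - 1 ∈ 𝔫 := by
        change φ (x ^ n - 1) ∈ IsLocalRing.maximalIdeal ↥O
        rw [← ValuationSubring.coe_mem_nonunits_iff, map_sub, map_pow, map_one]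
        push_cast
        rw [hφ x]
        exact hpow
      have h2 : x ^ n ∈ J := Ideal.pow_mem_of_mem J hxJ n hn
      have h3 : (1 : ↥(zchClosure (A₀ := A₀) ({u} : Set F))) = x ^ n - (x ^ n - 1) := by ring
      rw [h3]
      exact J.sub_mem h2 (hJ h1)
  have hπ𝔫 : algebraMap A₀ ↥(zchClosure (A₀ := A₀) ({u} : Set F)) π ∈ 𝔫 := by
    rw [hmem]
    have e : (⟨((algebraMap A₀ ↥(zchClosure (A₀ := A₀) ({u} : Set F)) π :
        ↥(zchClosure (A₀ := A₀) ({u} : Set F))) : F), (hBT _).fst⟩ : ↥V) =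
        ⟨algebraMap A₀ F π, hAV π⟩ := Subtype.ext rfl
    rw [e, hπ]
    rw [ValuationSubring.mem_nonunits_iff, map_zero]
    exact zero_lt_one
  refine ⟨⟨𝔫, hmax, hπ𝔫⟩, ?_⟩
  rintro x ⟨b, s, hs, hsx⟩
  have hs' : ρ ⟨(s : F), (hBT s).fst⟩ ∉ O.nonunits := fun h => hs ((hmem s).mpr h)
  have hρs0 : ρ ⟨(s : F), (hBT s).fst⟩ ≠ 0 := by
    intro h
    apply hs'
    rw [h, ValuationSubring.mem_nonunits_iff, map_zero]
    exact zero_lt_one
  have hs0 : (s : F) ≠ 0 := by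
    intro h
    apply hρs0
    have e : (⟨(s : F), (hBT s).fst⟩ : ↥V) = 0 := Subtype.ext h
    rw [e, map_zero]
  have hsiV : (s : F)⁻¹ ∈ V := ribmp_rd_inv_mem V ρ hker (hBT s).fst hρs0
  have hρsi : ρ ⟨(s : F)⁻¹, hsiV⟩ ∈ O := by
    rw [ribmp_rd_map_inv V ρ (hBT s).fst hsiV hs0]
    have hv : O.valuation (ρ ⟨(s : F), (hBT s).fst⟩) = 1 := by
      refine le_antisymm ((O.valuation_le_one_iff _).mpr (hBT s).snd) ?_
      rw [ValuationSubring.mem_nonunits_iff, not_lt] at hs'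
      exact hs'
    rw [← O.valuation_le_one_iff, map_inv₀, hv, inv_one]
  have hx : x = (b : F) * (s : F)⁻¹ := by
    have h1 : (s : F) * x = (b : F) := hsx
    rw [← h1]
    field_simp
  have hxT : x ∈ T := by
    rw [hx]
    exact T.mul_mem _ _ (hBT b) ⟨hsiV, hρsi⟩
  exact hxT

end Chart

section Main

variable {A₀ E F : Type*} [CommRing A₀] [IsDomain A₀] [IsDiscreteValuationRing A₀]
  [Field E] [Algebra A₀ E] [IsFractionRing A₀ E] [CharZero E]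
  [Field F] [Algebra E F] [Algebra A₀ F] [IsScalarTower A₀ E F]
  {k L : Type*} [Field k] [Field L] [Algebra k L]

/-- **RED-a (ii), the CENTRE dictionary.**  `V` a valuation subring of `F` with reduction map
`ρ : V →+* L` (`hker`: `ρ` kills the maximal ideal), `t` a unit of `V`, `Q` a place of `L` whose
residue field is "torsion" (`hfin`).  If `y ∈ V^×` has a local factorisation `y = ε γ ^ m` at every
closed point of the special fibres of the two charts `B_t`, `B_{t⁻¹}`, then `m ∣ ord_Q (ρ y)`. -/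
theorem ribmp_rd_dvd_ord {π : A₀} {t : F} (V : ValuationSubring F) (ρ : ↥V →+* L)
    (hker : ∀ x : ↥V, (x : F) ∈ V.nonunits → ρ x = 0)
    (hAV : ∀ a : A₀, algebraMap A₀ F a ∈ V)
    (hπ : ρ ⟨algebraMap A₀ F π, hAV π⟩ = 0)
    (ht : V.valuation t = 1)
    (Q : Place k L)
    (hAQ : ∀ a : A₀, ρ ⟨algebraMap A₀ F a, hAV a⟩ ∈ Q.toValuationSubring)
    (hfin : ∀ x ∈ Q.toValuationSubring, x ∉ Q.toValuationSubring.nonunits →
      ∃ n : ℕ, 0 < n ∧ x ^ n - 1 ∈ Q.toValuationSubring.nonunits)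
    {m : ℕ} (hm : 0 < m) {y : F} (hy : V.valuation y = 1)
    (hF : ∀ i : AtPt (F := F) π t ⊕ AtPt (F := F) π t⁻¹, StbFacAt (atO π t i) m y) :
    (m : ℤ) ∣ Q.ord (ρ ⟨y, (V.valuation_le_one_iff y).mp hy.le⟩) := by
  have htV : t ∈ V := (V.valuation_le_one_iff _).mp ht.le
  have htiV : t⁻¹ ∈ V := by
    rw [← V.valuation_le_one_iff, map_inv₀, ht, inv_one]
  have ht0 : t ≠ 0 := by
    rintro rfl
    rw [map_zero] at ht
    exact zero_ne_one ht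
  rcases Q.toValuationSubring.mem_or_inv_mem (ρ ⟨t, htV⟩) with h | h
  · obtain ⟨𝔫, h𝔫⟩ := ribmp_rd_chart (π := π) V ρ hker hAV hπ Q.toValuationSubring hAQ hfin htV h
    exact ribmp_rd_fac V ρ Q (atLoc 𝔫) h𝔫 hm hy (hF (Sum.inl 𝔫))
  · rw [← ribmp_rd_map_inv V ρ htV htiV ht0] at h
    obtain ⟨𝔫, h𝔫⟩ := ribmp_rd_chart (π := π) V ρ hker hAV hπ Q.toValuationSubring hAQ hfin htiV h
    exact ribmp_rd_fac V ρ Q (atLoc 𝔫) h𝔫 hm hy (hF (Sum.inr 𝔫))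

end Main

end Fermat.Agent.RIB.MP

end
end ZBRIB_002_0

/-! ### bundled: `Fermat.Agent.R38.TresDictNode` -/
section ZBRIB_002_1
/-
Row 38, TRES / FAC-DICT: the abstract NODE dictionary (helper14, for helper90's FACP-TR and
helper44's FAC-ASM).

Pure algebra, on top of `RIB/MP/RedDict.lean` (helper85).  `V` a valuation subring of `F` (a
vertical valuation), `ρ : V →+* L` its reduction map, `Q` a place of the residue function field
`L`, `O ⊆ F` a local ring of a chart contained in the composite of `V` and `Q`.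

* `tresdn_fac` : **the node dictionary**.  If `y = ε · X ^ a · Y ^ b · γ ^ m` with `ε ∈ O^×`,
  `v(y) = v(X) = 1`, `v(Y) < 1` and `v(γ) ∈ v(Y)^ℤ`, then
  `m ∣ ord_Q (ρ y) - a · ord_Q (ρ X)`  (and `m ∣ b`).
  At a thin node `X Y = π · unit` of a chart, `V` the branch `Y = 0`: `ρ X` is a local parameter
  at `Q`, so `ord_Q (ρ y) ≡ a mod m`.
* `tresdn_fac_dvr` : the same when `v(Y)` generates the value group of `V`.
* `tresdn_fac_smooth` : the smooth point `y = ε · ϖ ^ a · γ ^ m` (`v(ϖ) < 1` a generator):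
  `m ∣ ord_Q (ρ y)`.
* `tresdn_chart` : `RIB.MP.ribmp_rd_chart` TOGETHER with the description of the centre:
  `b ∈ 𝔫 ↔ ρ b ∈ 𝔪_Q` for `b` in the chart (places ↔ closed points).
* `tresdn_centre` : the centre of a place on the two charts `t`, `t⁻¹`; `ρ t ∉ O_Q` (a "cusp" for
  `t = j`) forces the chart `t⁻¹` and `t⁻¹ ∈ 𝔫`.
-/

set_option autoImplicit false
set_option linter.unusedSectionVars false
set_option linter.style.haveILetI false

noncomputable section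

namespace Fermat.Agent.R38

open AlgebraicCurve Fermat.Agent.UNIP Fermat.Agent.STB Fermat.Agent.INJ Fermat.Agent.RIB.MP

section Units

variable {F L : Type*} [Field F] [Field L]

theorem tresdn_ne_zero (V : ValuationSubring F) {x : F} (hx : V.valuation x = 1) : x ≠ 0 := by
  rintro rfl
  rw [map_zero] at hx
  exact zero_ne_one hx

theorem tresdn_mem (V : ValuationSubring F) {x : F} (hx : V.valuation x = 1) : x ∈ V :=
  (V.valuation_le_one_iff x).mp hx.le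

theorem tresdn_inv_val (V : ValuationSubring F) {x : F} (hx : V.valuation x = 1) :
    V.valuation x⁻¹ = 1 := by
  rw [map_inv₀, hx, inv_one]

/-- the unit of `V` attached to an element of valuation one -/
def tresdnUnit (V : ValuationSubring F) {x : F} (hx : V.valuation x = 1) : (↥V)ˣ :=
  ⟨⟨x, tresdn_mem V hx⟩, ⟨x⁻¹, tresdn_mem V (tresdn_inv_val V hx)⟩,
    Subtype.ext (mul_inv_cancel₀ (tresdn_ne_zero V hx)),
    Subtype.ext (inv_mul_cancel₀ (tresdn_ne_zero V hx))⟩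

@[simp] theorem tresdnUnit_coe (V : ValuationSubring F) {x : F} (hx : V.valuation x = 1) :
    (((tresdnUnit V hx : (↥V)ˣ) : ↥V) : F) = x := rfl

theorem tresdnUnit_zpow_coe (V : ValuationSubring F) {x : F} (hx : V.valuation x = 1) (n : ℤ) :
    ((((tresdnUnit V hx) ^ n : (↥V)ˣ) : ↥V) : F) = x ^ n := by
  have h := Units.val_zpow_eq_zpow_val
    (Units.map (V.subtype : ↥V →* F) (tresdnUnit V hx)) n
  rw [← map_zpow] at h
  exact h

theorem tresdn_val_zpow (V : ValuationSubring F) {x : F} (hx : V.valuation x = 1) (n : ℤ) :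
    V.valuation (x ^ n) = 1 := by
  rw [map_zpow₀, hx, one_zpow]

/-- `ρ` of an integer power of a unit of `V` -/
theorem tresdn_map_zpow (V : ValuationSubring F) (ρ : ↥V →+* L) {x : F}
    (hx : V.valuation x = 1) (n : ℤ) :
    ρ ⟨x ^ n, tresdn_mem V (tresdn_val_zpow V hx n)⟩ = ρ ⟨x, tresdn_mem V hx⟩ ^ n := by
  have h := Units.val_zpow_eq_zpow_val
    (Units.map (ρ : ↥V →* L) (tresdnUnit V hx)) n
  rw [← map_zpow] at h
  have e : (⟨x ^ n, tresdn_mem V (tresdn_val_zpow V hx n)⟩ : ↥V) =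
      (((tresdnUnit V hx) ^ n : (↥V)ˣ) : ↥V) := Subtype.ext (tresdnUnit_zpow_coe V hx n).symm
  rw [e]
  exact h

theorem tresdn_map_ne_zero (V : ValuationSubring F) (ρ : ↥V →+* L) {x : F}
    (hx : V.valuation x = 1) : ρ ⟨x, tresdn_mem V hx⟩ ≠ 0 := by
  have h : IsUnit (ρ ((tresdnUnit V hx : (↥V)ˣ) : ↥V)) := (Units.isUnit _).map ρ
  exact h.ne_zero

/-- an element of valuation `< 1` (and `≠ 0`) has no nonzero integer power of valuation `1` -/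
theorem tresdn_zpow_eq_one (V : ValuationSubring F) {Y : F} (hY : V.valuation Y < 1)
    (hY0 : Y ≠ 0) {n : ℤ} (h : V.valuation Y ^ n = 1) : n = 0 := by
  have hv0 : V.valuation Y ≠ 0 := (map_ne_zero _).mpr hY0
  have hpos : ∀ k : ℕ, 0 < k → V.valuation Y ^ k < 1 := fun k hk =>
    pow_lt_one₀ zero_le hY hk.ne'
  rcases lt_trichotomy n 0 with hn | hn | hn
  · exfalso
    obtain ⟨k, hk⟩ : ∃ k : ℕ, n = -(k : ℤ) := ⟨n.natAbs, by omega⟩
    have hk0 : 0 < k := by omega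
    rw [hk, zpow_neg, zpow_natCast, inv_eq_one] at h
    exact (hpos k hk0).ne h
  · exact hn
  · exfalso
    obtain ⟨k, hk⟩ : ∃ k : ℕ, n = (k : ℤ) := ⟨n.natAbs, by omega⟩
    have hk0 : 0 < k := by omega
    rw [hk, zpow_natCast] at h
    exact (hpos k hk0).ne h

end Units

section Fac

variable {F L : Type*} [Field F] [Field L] {k : Type*} [Field k] [Algebra k L]

/-- a unit of `O ⊆ comp(V, Q)` has valuation one at `V` and its reduction has order `0` at `Q` -/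
theorem tresdn_unit (V : ValuationSubring F) (ρ : ↥V →+* L) (Q : Place k L) (O : Subring F)
    (hO : ∀ x ∈ O, ∃ hx : x ∈ V, ρ ⟨x, hx⟩ ∈ Q.toValuationSubring)
    (ε : O) (hε : IsUnit ε) :
    ∃ hv : V.valuation (ε : F) = 1, Q.ord (ρ ⟨(ε : F), tresdn_mem V hv⟩) = 0 := by
  obtain ⟨ε', hεε'⟩ := hε.exists_right_inv
  have hεε'F : (ε : F) * (ε' : F) = 1 := by
    have := congrArg (fun z : ↥O => (z : F)) hεε'
    simpa using this
  obtain ⟨hεV, hεQ⟩ := hO ε ε.2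
  obtain ⟨hε'V, hε'Q⟩ := hO ε' ε'.2
  have hρεε' : ρ ⟨ε, hεV⟩ * ρ ⟨ε', hε'V⟩ = 1 := by
    have e : (⟨(ε : F), hεV⟩ : ↥V) * ⟨(ε' : F), hε'V⟩ = 1 := Subtype.ext hεε'F
    rw [← map_mul, e, map_one]
  let uQ : (Q.toValuationSubring)ˣ :=
    ⟨⟨ρ ⟨ε, hεV⟩, hεQ⟩, ⟨ρ ⟨ε', hε'V⟩, hε'Q⟩, Subtype.ext hρεε',
      Subtype.ext (by rw [mul_comm]; exact hρεε')⟩
  have hordε : Q.ord (ρ ⟨ε, hεV⟩) = 0 := Q.ord_coe_unit uQ
  have hvε : V.valuation (ε : F) = 1 := by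
    have h1 : V.valuation (ε : F) ≤ 1 := (V.valuation_le_one_iff _).mpr hεV
    have h2 : V.valuation (ε' : F) ≤ 1 := (V.valuation_le_one_iff _).mpr hε'V
    have h3 : V.valuation (ε : F) * V.valuation (ε' : F) = 1 := by
      rw [← map_mul, hεε'F, map_one]
    refine le_antisymm h1 ?_
    by_contra hlt
    rw [not_le] at hlt
    have : V.valuation (ε : F) * V.valuation (ε' : F) < 1 :=
      calc V.valuation (ε : F) * V.valuation (ε' : F) ≤ V.valuation (ε : F) * 1 := by gcongr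
        _ = V.valuation (ε : F) := mul_one _
        _ < 1 := hlt
    rw [h3] at this
    exact lt_irrefl _ this
  exact ⟨hvε, hordε⟩

/-- **The node dictionary.**  `y = ε · X ^ a · Y ^ b · γ ^ m`, `ε` a unit of `O ⊆ comp(V, Q)`,
`X` and `y` units of `V`, `Y ∈ 𝔪_V`, `v(γ) ∈ v(Y)^ℤ`:
`m ∣ b` and `m ∣ ord_Q (ρ y) - a · ord_Q (ρ X)`. -/
theorem tresdn_fac (V : ValuationSubring F) (ρ : ↥V →+* L) (Q : Place k L) (O : Subring F)
    (hO : ∀ x ∈ O, ∃ hx : x ∈ V, ρ ⟨x, hx⟩ ∈ Q.toValuationSubring)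
    {m : ℕ} {y X Y γ : F} (ε : O) (hε : IsUnit ε) (a b : ℤ)
    (hy : V.valuation y = 1) (hX : V.valuation X = 1)
    (hY : V.valuation Y < 1) (hY0 : Y ≠ 0)
    (hγ : ∃ c : ℤ, V.valuation γ = V.valuation Y ^ c)
    (hfac : y = (ε : F) * X ^ a * Y ^ b * γ ^ m) :
    (m : ℤ) ∣ b ∧
      (m : ℤ) ∣ Q.ord (ρ ⟨y, tresdn_mem V hy⟩) - a * Q.ord (ρ ⟨X, tresdn_mem V hX⟩) := by
  obtain ⟨hvε, hordε⟩ := tresdn_unit V ρ Q O hO ε hε
  obtain ⟨c, hc⟩ := hγ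
  -- `γ' = γ Y^{-c}` is a unit of `V`
  have hvγ' : V.valuation (γ * Y ^ (-c)) = 1 := by
    have hv0 : V.valuation Y ≠ 0 := (map_ne_zero _).mpr hY0
    rw [map_mul, map_zpow₀, hc, ← zpow_add₀ hv0, add_neg_cancel, zpow_zero]
  have hγeq : γ = (γ * Y ^ (-c)) * Y ^ c := by
    rw [mul_assoc, ← zpow_add₀ hY0, neg_add_cancel, zpow_zero, mul_one]
  have hfac' : y = (ε : F) * X ^ a * (γ * Y ^ (-c)) ^ m * Y ^ (b + m * c) := by
    have h1 : γ ^ m = (γ * Y ^ (-c)) ^ m * Y ^ ((m : ℤ) * c) := by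
      conv_lhs => rw [hγeq]
      rw [mul_pow, ← zpow_natCast (Y ^ c) m, ← zpow_mul, mul_comm c (m : ℤ)]
    rw [hfac, h1, zpow_add₀ hY0]
    ring
  -- the exponent of `Y` vanishes
  have hexp : b + m * c = 0 := by
    refine tresdn_zpow_eq_one V hY hY0 ?_
    have h2 := congrArg V.valuation hfac'
    rw [hy, map_mul, map_mul, map_mul, hvε, one_mul, map_zpow₀ _ X, hX, one_zpow, one_mul,
      map_pow, hvγ', one_pow, one_mul, map_zpow₀] at h2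
    exact h2.symm
  have hbm : (m : ℤ) ∣ b := ⟨-c, by linarith⟩
  refine ⟨hbm, ?_⟩
  have hfac'' : y = (ε : F) * X ^ a * (γ * Y ^ (-c)) ^ m := by
    rw [hfac', hexp, zpow_zero, mul_one]
  have hρy : ρ ⟨y, tresdn_mem V hy⟩ = ρ ⟨(ε : F), tresdn_mem V hvε⟩ *
      ρ ⟨X, tresdn_mem V hX⟩ ^ a * ρ ⟨γ * Y ^ (-c), tresdn_mem V hvγ'⟩ ^ m := by
    have e : (⟨y, tresdn_mem V hy⟩ : ↥V) = ⟨(ε : F), tresdn_mem V hvε⟩ *
        ⟨X ^ a, tresdn_mem V (tresdn_val_zpow V hX a)⟩ *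
        ⟨γ * Y ^ (-c), tresdn_mem V hvγ'⟩ ^ m := Subtype.ext (by simpa using hfac'')
    rw [e, map_mul, map_mul, map_pow, tresdn_map_zpow V ρ hX a]
  have h0ε := tresdn_map_ne_zero V ρ hvε
  have h0X := tresdn_map_ne_zero V ρ hX
  have h0γ := tresdn_map_ne_zero V ρ hvγ'
  rw [hρy, Q.ord_mul (mul_ne_zero h0ε (zpow_ne_zero _ h0X)) (pow_ne_zero _ h0γ),
    Q.ord_mul h0ε (zpow_ne_zero _ h0X), hordε, zero_add, Q.ord_zpow]
  have := Q.ord_zpow (ρ ⟨γ * Y ^ (-c), tresdn_mem V hvγ'⟩) (m : ℤ)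
  rw [zpow_natCast] at this
  rw [this]
  exact ⟨Q.ord (ρ ⟨γ * Y ^ (-c), tresdn_mem V hvγ'⟩), by ring⟩

/-- the node dictionary when `v(Y)` generates the value group of `V` -/
theorem tresdn_fac_dvr (V : ValuationSubring F) (ρ : ↥V →+* L) (Q : Place k L) (O : Subring F)
    (hO : ∀ x ∈ O, ∃ hx : x ∈ V, ρ ⟨x, hx⟩ ∈ Q.toValuationSubring)
    {m : ℕ} (hm : 0 < m) {y X Y γ : F} (ε : O) (hε : IsUnit ε) (a b : ℤ)
    (hy : V.valuation y = 1) (hX : V.valuation X = 1)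
    (hY : V.valuation Y < 1) (hY0 : Y ≠ 0)
    (hgen : ∀ z : F, z ≠ 0 → ∃ c : ℤ, V.valuation z = V.valuation Y ^ c)
    (hfac : y = (ε : F) * X ^ a * Y ^ b * γ ^ m) :
    (m : ℤ) ∣ b ∧
      (m : ℤ) ∣ Q.ord (ρ ⟨y, tresdn_mem V hy⟩) - a * Q.ord (ρ ⟨X, tresdn_mem V hX⟩) := by
  have hγ0 : γ ≠ 0 := by
    rintro rfl
    rw [zero_pow hm.ne', mul_zero] at hfac
    exact tresdn_ne_zero V hy hfac
  exact tresdn_fac V ρ Q O hO ε hε a b hy hX hY hY0 (hgen γ hγ0) hfac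

/-- the smooth point: `y = ε · ϖ ^ a · γ ^ m`, `v(ϖ) < 1` a generator of the value group:
`m ∣ a` and `m ∣ ord_Q (ρ y)`. -/
theorem tresdn_fac_smooth (V : ValuationSubring F) (ρ : ↥V →+* L) (Q : Place k L)
    (O : Subring F)
    (hO : ∀ x ∈ O, ∃ hx : x ∈ V, ρ ⟨x, hx⟩ ∈ Q.toValuationSubring)
    {m : ℕ} (hm : 0 < m) {y ϖ γ : F} (ε : O) (hε : IsUnit ε) (a : ℤ)
    (hy : V.valuation y = 1) (hϖ : V.valuation ϖ < 1) (hϖ0 : ϖ ≠ 0)
    (hgen : ∀ z : F, z ≠ 0 → ∃ c : ℤ, V.valuation z = V.valuation ϖ ^ c)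
    (hfac : y = (ε : F) * ϖ ^ a * γ ^ m) :
    (m : ℤ) ∣ a ∧ (m : ℤ) ∣ Q.ord (ρ ⟨y, tresdn_mem V hy⟩) := by
  have h1 : V.valuation (1 : F) = 1 := map_one _
  have hfac' : y = (ε : F) * (1 : F) ^ (0 : ℤ) * ϖ ^ a * γ ^ m := by
    rw [hfac, zpow_zero, mul_one]
  have := tresdn_fac_dvr V ρ Q O hO hm ε hε 0 a hy h1 hϖ hϖ0 hgen hfac'
  rw [zero_mul, sub_zero] at this
  exact this

end Fac

section Chart

variable {A₀ E F : Type*} [CommRing A₀] [IsDomain A₀] [IsDiscreteValuationRing A₀]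
  [Field E] [Algebra A₀ E] [IsFractionRing A₀ E] [CharZero E]
  [Field F] [Algebra E F] [Algebra A₀ F] [IsScalarTower A₀ E F]
  {L : Type*} [Field L]

/-- **The centre on a chart, with its description** (`RIB.MP.ribmp_rd_chart` + `hmem`).  If the
chart coordinate `u` lies in the composite of `V` and `O`, the centre of the composite on the
chart `B_u` is a closed point `𝔫` of the special fibre, `(B_u)_𝔫` lies in the composite, and
`b ∈ 𝔫 ↔ ρ b ∈ 𝔪_O` for `b ∈ B_u`. -/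
theorem tresdn_chart {π : A₀} (V : ValuationSubring F) (ρ : ↥V →+* L)
    (hker : ∀ x : ↥V, (x : F) ∈ V.nonunits → ρ x = 0)
    (hAV : ∀ a : A₀, algebraMap A₀ F a ∈ V)
    (hπ : ρ ⟨algebraMap A₀ F π, hAV π⟩ = 0)
    (O : ValuationSubring L)
    (hAQ : ∀ a : A₀, ρ ⟨algebraMap A₀ F a, hAV a⟩ ∈ O)
    (hfin : ∀ x ∈ O, x ∉ O.nonunits → ∃ n : ℕ, 0 < n ∧ x ^ n - 1 ∈ O.nonunits)
    {u : F} (hu : u ∈ V) (hρu : ρ ⟨u, hu⟩ ∈ O) :
    ∃ 𝔫 : AtPt (F := F) π u, (∀ x ∈ atLoc 𝔫, ∃ hx : x ∈ V, ρ ⟨x, hx⟩ ∈ O) ∧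
      ∀ b : ↥(zchClosure (A₀ := A₀) ({u} : Set F)),
        b ∈ 𝔫.1 ↔ ∃ hb : (b : F) ∈ V, ρ ⟨(b : F), hb⟩ ∈ O.nonunits := by
  set T : ValuationSubring F := ribmp_rd_comp V ρ O hker with hT
  let TA : Subalgebra A₀ F :=
    { T.toSubring with
      algebraMap_mem' := fun a => ⟨hAV a, hAQ a⟩ }
  have hadj : Algebra.adjoin A₀ ({u} : Set F) ≤ TA :=
    Algebra.adjoin_le (Set.singleton_subset_iff.mpr ⟨hu, hρu⟩)
  have hBT : ∀ b : ↥(zchClosure (A₀ := A₀) ({u} : Set F)), (b : F) ∈ T := fun b =>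
    crossing_mem_of_isIntegral T (Algebra.adjoin A₀ ({u} : Set F)) (fun x hx => hadj hx)
      (mem_zchClosure.mp b.2)
  let incl : ↥(zchClosure (A₀ := A₀) ({u} : Set F)) →+* ↥V :=
    (algebraMap ↥(zchClosure (A₀ := A₀) ({u} : Set F)) F).codRestrict V.toSubring
      (fun b => (hBT b).fst)
  let φ : ↥(zchClosure (A₀ := A₀) ({u} : Set F)) →+* ↥O :=
    (ρ.comp incl).codRestrict O.toSubring (fun b => (hBT b).snd)
  have hφ : ∀ b, ((φ b : ↥O) : L) = ρ ⟨(b : F), (hBT b).fst⟩ := fun b => rfl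
  let 𝔫 : Ideal ↥(zchClosure (A₀ := A₀) ({u} : Set F)) :=
    Ideal.comap φ (IsLocalRing.maximalIdeal ↥O)
  have hmem : ∀ b, b ∈ 𝔫 ↔ ρ ⟨(b : F), (hBT b).fst⟩ ∈ O.nonunits := by
    intro b
    rw [← hφ b, ValuationSubring.coe_mem_nonunits_iff]
    exact Iff.rfl
  have hmax : 𝔫.IsMaximal := by
    rw [Ideal.isMaximal_iff]
    refine ⟨fun h1 => ?_, fun J x hJ hx hxJ => ?_⟩
    · have : φ 1 ∈ IsLocalRing.maximalIdeal ↥O := h1
      rw [map_one] at this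
      exact (IsLocalRing.maximalIdeal.isMaximal ↥O).ne_top
        ((Ideal.eq_top_iff_one _).mpr this)
    · have hx' : ρ ⟨(x : F), (hBT x).fst⟩ ∉ O.nonunits := fun h => hx ((hmem x).mpr h)
      obtain ⟨n, hn, hpow⟩ := hfin _ (hBT x).snd hx'
      have h1 : x ^ n - 1 ∈ 𝔫 := by
        change φ (x ^ n - 1) ∈ IsLocalRing.maximalIdeal ↥O
        rw [← ValuationSubring.coe_mem_nonunits_iff, map_sub, map_pow, map_one]
        push_cast
        rw [hφ x]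
        exact hpow
      have h2 : x ^ n ∈ J := Ideal.pow_mem_of_mem J hxJ n hn
      have h3 : (1 : ↥(zchClosure (A₀ := A₀) ({u} : Set F))) = x ^ n - (x ^ n - 1) := by ring
      rw [h3]
      exact J.sub_mem h2 (hJ h1)
  have hπ𝔫 : algebraMap A₀ ↥(zchClosure (A₀ := A₀) ({u} : Set F)) π ∈ 𝔫 := by
    rw [hmem]
    have e : (⟨((algebraMap A₀ ↥(zchClosure (A₀ := A₀) ({u} : Set F)) π :
        ↥(zchClosure (A₀ := A₀) ({u} : Set F))) : F), (hBT _).fst⟩ : ↥V) =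
        ⟨algebraMap A₀ F π, hAV π⟩ := Subtype.ext rfl
    rw [e, hπ]
    rw [ValuationSubring.mem_nonunits_iff, map_zero]
    exact zero_lt_one
  refine ⟨⟨𝔫, hmax, hπ𝔫⟩, ?_, fun b => ⟨fun hb => ⟨(hBT b).fst, (hmem b).mp hb⟩,
    fun ⟨_, hb⟩ => (hmem b).mpr hb⟩⟩
  rintro x ⟨b, s, hs, hsx⟩
  have hs' : ρ ⟨(s : F), (hBT s).fst⟩ ∉ O.nonunits := fun h => hs ((hmem s).mpr h)
  have hρs0 : ρ ⟨(s : F), (hBT s).fst⟩ ≠ 0 := by
    intro h
    apply hs'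
    rw [h, ValuationSubring.mem_nonunits_iff, map_zero]
    exact zero_lt_one
  have hs0 : (s : F) ≠ 0 := by
    intro h
    apply hρs0
    have e : (⟨(s : F), (hBT s).fst⟩ : ↥V) = 0 := Subtype.ext h
    rw [e, map_zero]
  have hsiV : (s : F)⁻¹ ∈ V := ribmp_rd_inv_mem V ρ hker (hBT s).fst hρs0
  have hρsi : ρ ⟨(s : F)⁻¹, hsiV⟩ ∈ O := by
    rw [ribmp_rd_map_inv V ρ (hBT s).fst hsiV hs0]
    have hv : O.valuation (ρ ⟨(s : F), (hBT s).fst⟩) = 1 := by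
      refine le_antisymm ((O.valuation_le_one_iff _).mpr (hBT s).snd) ?_
      rw [ValuationSubring.mem_nonunits_iff, not_lt] at hs'
      exact hs'
    rw [← O.valuation_le_one_iff, map_inv₀, hv, inv_one]
  have hx : x = (b : F) * (s : F)⁻¹ := by
    have h1 : (s : F) * x = (b : F) := hsx
    rw [← h1]
    field_simp
  have hxT : x ∈ T := by
    rw [hx]
    exact T.mul_mem _ _ (hBT b) ⟨hsiV, hρsi⟩
  exact hxT

end Chart

section Centre

variable {A₀ E F : Type*} [CommRing A₀] [IsDomain A₀] [IsDiscreteValuationRing A₀]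
  [Field E] [Algebra A₀ E] [IsFractionRing A₀ E] [CharZero E]
  [Field F] [Algebra E F] [Algebra A₀ F] [IsScalarTower A₀ E F]
  {k L : Type*} [Field k] [Field L] [Algebra k L]

/-- **Places ↔ closed points.**  A place `Q` of the residue function field has a centre on one
of the two charts `t`, `t⁻¹`: on the chart `t` if `ρ t ∈ O_Q`; on the chart `t⁻¹`, at a point
containing the coordinate `t⁻¹`, if `ρ t ∉ O_Q` (the "cusps" for `t = j`). -/
theorem tresdn_centre {π : A₀} {t : F} (V : ValuationSubring F) (ρ : ↥V →+* L)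
    (hker : ∀ x : ↥V, (x : F) ∈ V.nonunits → ρ x = 0)
    (hAV : ∀ a : A₀, algebraMap A₀ F a ∈ V)
    (hπ : ρ ⟨algebraMap A₀ F π, hAV π⟩ = 0)
    (ht : V.valuation t = 1)
    (Q : Place k L)
    (hAQ : ∀ a : A₀, ρ ⟨algebraMap A₀ F a, hAV a⟩ ∈ Q.toValuationSubring)
    (hfin : ∀ x ∈ Q.toValuationSubring, x ∉ Q.toValuationSubring.nonunits →
      ∃ n : ℕ, 0 < n ∧ x ^ n - 1 ∈ Q.toValuationSubring.nonunits) :
    (ρ ⟨t, tresdn_mem V ht⟩ ∈ Q.toValuationSubring →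
      ∃ 𝔫 : AtPt (F := F) π t,
        (∀ x ∈ atLoc 𝔫, ∃ hx : x ∈ V, ρ ⟨x, hx⟩ ∈ Q.toValuationSubring) ∧
        ∀ b : ↥(zchClosure (A₀ := A₀) ({t} : Set F)),
          b ∈ 𝔫.1 ↔ ∃ hb : (b : F) ∈ V, ρ ⟨(b : F), hb⟩ ∈ Q.toValuationSubring.nonunits) ∧
    (ρ ⟨t, tresdn_mem V ht⟩ ∉ Q.toValuationSubring →
      ∃ 𝔫 : AtPt (F := F) π t⁻¹,
        (∀ x ∈ atLoc 𝔫, ∃ hx : x ∈ V, ρ ⟨x, hx⟩ ∈ Q.toValuationSubring) ∧
        (∀ b : ↥(zchClosure (A₀ := A₀) ({t⁻¹} : Set F)),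
          b ∈ 𝔫.1 ↔ ∃ hb : (b : F) ∈ V, ρ ⟨(b : F), hb⟩ ∈ Q.toValuationSubring.nonunits) ∧
        ∀ b : ↥(zchClosure (A₀ := A₀) ({t⁻¹} : Set F)), (b : F) = t⁻¹ → b ∈ 𝔫.1) := by
  have htV : t ∈ V := tresdn_mem V ht
  have htiV : t⁻¹ ∈ V := tresdn_mem V (tresdn_inv_val V ht)
  have ht0 : t ≠ 0 := tresdn_ne_zero V ht
  refine ⟨fun h => ?_, fun h => ?_⟩
  · exact tresdn_chart (π := π) V ρ hker hAV hπ Q.toValuationSubring hAQ hfin htV h
  · have hinv : ρ ⟨t⁻¹, htiV⟩ = (ρ ⟨t, htV⟩)⁻¹ := ribmp_rd_map_inv V ρ htV htiV ht0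
    have hmemi : ρ ⟨t⁻¹, htiV⟩ ∈ Q.toValuationSubring := by
      rw [hinv]
      exact (Q.toValuationSubring.mem_or_inv_mem _).resolve_left h
    obtain ⟨𝔫, h𝔫, hmem⟩ :=
      tresdn_chart (π := π) V ρ hker hAV hπ Q.toValuationSubring hAQ hfin htiV hmemi
    refine ⟨𝔫, h𝔫, hmem, fun b hb => ?_⟩
    have hbV : (b : F) ∈ V := by rw [hb]; exact htiV
    refine (hmem b).mpr ⟨hbV, ?_⟩
    have e : (⟨(b : F), hbV⟩ : ↥V) = ⟨t⁻¹, htiV⟩ := Subtype.ext hb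
    rw [e, hinv, ValuationSubring.mem_nonunits_iff, map_inv₀]
    have h1 : ¬ Q.toValuationSubring.valuation (ρ ⟨t, htV⟩) ≤ 1 := fun h' =>
      h ((Q.toValuationSubring.valuation_le_one_iff _).mp h')
    rw [not_le] at h1
    exact inv_lt_one_of_one_lt₀ h1

end Centre

end Fermat.Agent.R38

end
end ZBRIB_002_1

/-! ### bundled: `Fermat.Agent.R38.TresMono` -/
section ZBRIB_002_2

/-!
# Row 38, TRES, piece FAC-ASM-MAIN (helper89), part M1: the abstract assembly on the residue side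

Frame of `RIB/MP/RedDict.lean` and `R38/TresDictNode.lean`: `A₀` a discrete valuation ring with
uniformizer `π`, `F` a function field over `E = Frac A₀` (here: the function field of the cover
`X′ → X₀(Mp)` over the inertia field), `t ∈ F` (the function `j`), `V` a valuation subring of `F`
(the Gauss sheet), `ρ : V →+* L` its reduction map, `L` the residue function field (`k(C)`).

`y, h ∈ V^×` (`y` = the normalised Kummer function `u″ / ϖ ^ ord_V u″`, `h` = the Ogg unit).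
Local data at the closed points of the special fibre lying on `V` (`TresMonoPt`):

* SMOOTH point: `y = ε γ ^ p` and `h = ε′` (local units `ε`, `ε′`);
* NODE:         `y = ε X ^ a γ ^ p`, `h = ε′ X ^ e`, `X` a unit of `V`, and `a ≡ c mod p`
  (`a = ord_{V₀} u″ − ord_{V_∞} u″`, the same class `c = c̃` at every node by DECK + KUM + COV;
  `e = ord_{V₀} h − ord_{V_∞} h = 12`).

`tresmono_abs` : if every closed point of the chart `t` lying on `V` is of one of these two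
kinds, and `y = ε γ ^ p` at the closed points of the chart `t⁻¹` containing `t⁻¹` (the cusps),
then for every place `Q` of `L`

* `ρ t ∈ O_Q`  (off the cusps)  ⇒  `p ∣ e · ord_Q (ρ y) − c · ord_Q (ρ h)`;
* `ρ t ∉ O_Q`  (at the cusps)   ⇒  `p ∣ ord_Q (ρ y)`.

These are the two clauses of helper60's `StmtFacMono` (thickness never appears).
-/

set_option autoImplicit false
set_option linter.unusedSectionVars false
set_option linter.style.haveILetI false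

noncomputable section

namespace Fermat.Agent.R38

open AlgebraicCurve Fermat.Agent.UNIP Fermat.Agent.STB Fermat.Agent.INJ Fermat.Agent.RIB.MP

section Pt

variable {F L : Type*} [Field F] [Field L] {k : Type*} [Field k] [Algebra k L]

/-- the local data of the pair `(y, h)` at a closed point with local ring `O` lying on `V`:
smooth (`y = ε γ ^ p`, `h = ε′`) or a node (`y = ε X ^ a γ ^ p`, `h = ε′ X ^ e`, `p ∣ a − c`). -/
def TresMonoPt (V : ValuationSubring F) (O : Subring F) (p : ℕ) (c e : ℤ) (y h : F) : Prop :=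
  (StbFacAt O p y ∧ ∃ ε' : O, IsUnit ε' ∧ h = (ε' : F)) ∨
  ∃ (X γ : F) (ε ε' : O) (a : ℤ), IsUnit ε ∧ IsUnit ε' ∧ V.valuation X = 1 ∧ γ ≠ 0 ∧
    y = (ε : F) * X ^ a * γ ^ p ∧ h = (ε' : F) * X ^ e ∧ (p : ℤ) ∣ a - c

/-- in a valuation subring, an element whose `p`-th power has valuation one has valuation one -/
theorem tresmono_val_of_pow (V : ValuationSubring F) {p : ℕ} (hp : 0 < p) {γ : F}
    (h : V.valuation (γ ^ p) = 1) : V.valuation γ = 1 := by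
  rw [map_pow] at h
  rcases lt_trichotomy (V.valuation γ) 1 with h1 | h1 | h1
  · exact absurd h (ne_of_lt (pow_lt_one₀ zero_le h1 hp.ne'))
  · exact h1
  · exact absurd h (ne_of_gt (one_lt_pow₀ h1 hp.ne'))

/-- **the computation at one point**: the local data `TresMonoPt` at a closed point whose local
ring `O` lies in the composite of `V` and `Q` give `p ∣ e · ord_Q (ρ y) − c · ord_Q (ρ h)`. -/
theorem tresmono_pt (V : ValuationSubring F) (ρ : ↥V →+* L) (Q : Place k L) (O : Subring F)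
    (hO : ∀ x ∈ O, ∃ hx : x ∈ V, ρ ⟨x, hx⟩ ∈ Q.toValuationSubring)
    {p : ℕ} (hp : 0 < p) {y h : F} (hy : V.valuation y = 1) (hh : V.valuation h = 1) (c e : ℤ)
    (hpt : TresMonoPt V O p c e y h) :
    (p : ℤ) ∣ e * Q.ord (ρ ⟨y, tresdn_mem V hy⟩) - c * Q.ord (ρ ⟨h, tresdn_mem V hh⟩) := by
  rcases hpt with ⟨hfac, ε', hε', hhε⟩ | ⟨X, γ, ε, ε', a, hε, hε', hX, hγ0, hyfac, hhfac, hdvd⟩
  · -- smooth point
    have h1 : (p : ℤ) ∣ Q.ord (ρ ⟨y, tresdn_mem V hy⟩) := ribmp_rd_fac V ρ Q O hO hp hy hfac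
    obtain ⟨hvε', hordε'⟩ := tresdn_unit V ρ Q O hO ε' hε'
    have h2 : Q.ord (ρ ⟨h, tresdn_mem V hh⟩) = 0 := by
      have e1 : (⟨h, tresdn_mem V hh⟩ : ↥V) = ⟨(ε' : F), tresdn_mem V hvε'⟩ := Subtype.ext hhε
      rw [e1, hordε']
    rw [h2, mul_zero, sub_zero]
    exact Dvd.dvd.mul_left h1 e
  · -- node
    obtain ⟨hvε, hordε⟩ := tresdn_unit V ρ Q O hO ε hε
    obtain ⟨hvε', hordε'⟩ := tresdn_unit V ρ Q O hO ε' hε'
    have hvγp : V.valuation (γ ^ p) = 1 := by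
      have h2 := congrArg V.valuation hyfac
      rw [hy, map_mul, map_mul, hvε, one_mul, map_zpow₀, hX, one_zpow, one_mul] at h2
      exact h2.symm
    have hvγ : V.valuation γ = 1 := tresmono_val_of_pow V hp hvγp
    have h0ε := tresdn_map_ne_zero V ρ hvε
    have h0ε' := tresdn_map_ne_zero V ρ hvε'
    have h0X := tresdn_map_ne_zero V ρ hX
    have h0γ := tresdn_map_ne_zero V ρ hvγ
    have hρy : ρ ⟨y, tresdn_mem V hy⟩ = ρ ⟨(ε : F), tresdn_mem V hvε⟩ *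
        ρ ⟨X, tresdn_mem V hX⟩ ^ a * ρ ⟨γ, tresdn_mem V hvγ⟩ ^ p := by
      have e1 : (⟨y, tresdn_mem V hy⟩ : ↥V) = ⟨(ε : F), tresdn_mem V hvε⟩ *
          ⟨X ^ a, tresdn_mem V (tresdn_val_zpow V hX a)⟩ *
          ⟨γ, tresdn_mem V hvγ⟩ ^ p := Subtype.ext (by simpa using hyfac)
      rw [e1, map_mul, map_mul, map_pow, tresdn_map_zpow V ρ hX a]
    have hρh : ρ ⟨h, tresdn_mem V hh⟩ = ρ ⟨(ε' : F), tresdn_mem V hvε'⟩ *
        ρ ⟨X, tresdn_mem V hX⟩ ^ e := by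
      have e1 : (⟨h, tresdn_mem V hh⟩ : ↥V) = ⟨(ε' : F), tresdn_mem V hvε'⟩ *
          ⟨X ^ e, tresdn_mem V (tresdn_val_zpow V hX e)⟩ := Subtype.ext (by simpa using hhfac)
      rw [e1, map_mul, tresdn_map_zpow V ρ hX e]
    have hγord := Q.ord_zpow (ρ ⟨γ, tresdn_mem V hvγ⟩) (p : ℤ)
    rw [zpow_natCast] at hγord
    rw [hρy, hρh, Q.ord_mul (mul_ne_zero h0ε (zpow_ne_zero _ h0X)) (pow_ne_zero _ h0γ),
      Q.ord_mul h0ε (zpow_ne_zero _ h0X), Q.ord_mul h0ε' (zpow_ne_zero _ h0X), hordε, hordε',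
      zero_add, zero_add, Q.ord_zpow, Q.ord_zpow, hγord]
    obtain ⟨d, hd⟩ := hdvd
    refine ⟨e * Q.ord (ρ ⟨X, tresdn_mem V hX⟩) * d + e * Q.ord (ρ ⟨γ, tresdn_mem V hvγ⟩), ?_⟩
    have ha : a = c + p * d := by linarith
    rw [ha]
    ring

end Pt

section Main

variable {A₀ E F : Type*} [CommRing A₀] [IsDomain A₀] [IsDiscreteValuationRing A₀]
  [Field E] [Algebra A₀ E] [IsFractionRing A₀ E] [CharZero E]
  [Field F] [Algebra E F] [Algebra A₀ F] [IsScalarTower A₀ E F]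
  {k L : Type*} [Field k] [Field L] [Algebra k L]

/-- **FAC-ASM, abstract form (M1).**  `V` a valuation subring of `F` with reduction map
`ρ : V →+* L`, `t` a unit of `V`, `y, h` units of `V`.  If every closed point of the special
fibre of the chart `B_t` lying on `V` is smooth or a node for the pair `(y, h)` (`TresMonoPt`),
and `y = ε γ ^ p` at the closed points of the chart `B_{t⁻¹}` lying on `V` which contain `t⁻¹`,
then for every place `Q` of `L`: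
`p ∣ e · ord_Q (ρ y) − c · ord_Q (ρ h)` if `ρ t ∈ O_Q`, and `p ∣ ord_Q (ρ y)` if `ρ t ∉ O_Q`. -/
theorem tresmono_abs {π : A₀} {t : F} (V : ValuationSubring F) (ρ : ↥V →+* L)
    (hker : ∀ x : ↥V, (x : F) ∈ V.nonunits → ρ x = 0)
    (hAV : ∀ a : A₀, algebraMap A₀ F a ∈ V)
    (hπ : ρ ⟨algebraMap A₀ F π, hAV π⟩ = 0)
    (ht : V.valuation t = 1)
    {p : ℕ} (hp : 0 < p) {y h : F} (hy : V.valuation y = 1) (hh : V.valuation h = 1) (c e : ℤ)
    (hfin : ∀ 𝔫 : AtPt (F := F) π t, (∀ x ∈ atLoc 𝔫, x ∈ V) →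
      TresMonoPt V (atLoc 𝔫) p c e y h)
    (hcusp : ∀ 𝔫 : AtPt (F := F) π t⁻¹, (∀ x ∈ atLoc 𝔫, x ∈ V) →
      (∀ b : ↥(zchClosure (A₀ := A₀) ({t⁻¹} : Set F)), (b : F) = t⁻¹ → b ∈ 𝔫.1) →
      StbFacAt (atLoc 𝔫) p y)
    (Q : Place k L)
    (hAQ : ∀ a : A₀, ρ ⟨algebraMap A₀ F a, hAV a⟩ ∈ Q.toValuationSubring)
    (hfinQ : ∀ x ∈ Q.toValuationSubring, x ∉ Q.toValuationSubring.nonunits →
      ∃ n : ℕ, 0 < n ∧ x ^ n - 1 ∈ Q.toValuationSubring.nonunits) :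
    (ρ ⟨t, tresdn_mem V ht⟩ ∈ Q.toValuationSubring →
      (p : ℤ) ∣ e * Q.ord (ρ ⟨y, tresdn_mem V hy⟩) - c * Q.ord (ρ ⟨h, tresdn_mem V hh⟩)) ∧
    (ρ ⟨t, tresdn_mem V ht⟩ ∉ Q.toValuationSubring →
      (p : ℤ) ∣ Q.ord (ρ ⟨y, tresdn_mem V hy⟩)) := by
  obtain ⟨h1, h2⟩ := tresdn_centre (π := π) V ρ hker hAV hπ ht Q hAQ hfinQ
  refine ⟨fun hin => ?_, fun hout => ?_⟩
  · obtain ⟨𝔫, h𝔫, -⟩ := h1 hin
    exact tresmono_pt V ρ Q (atLoc 𝔫) h𝔫 hp hy hh c e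
      (hfin 𝔫 (fun x hx => (h𝔫 x hx).1))
  · obtain ⟨𝔫, h𝔫, -, hti⟩ := h2 hout
    exact ribmp_rd_fac V ρ Q (atLoc 𝔫) h𝔫 hp hy (hcusp 𝔫 (fun x hx => (h𝔫 x hx).1) hti)

/-- **FAC-ASM, abstract form for the cover (M1′).**  As `tresmono_abs`, but the function of `F`
representing the residue `r ∈ L` may depend on the closed point (helper92's (B8): the reduction
of `u″ / π ^ a` along the Gauss sheet of the cover is, at each closed point `𝔫` of `X`, the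
reduction along `V` of an element `y_𝔫 ∈ F` of the shape `(unit of O_𝔫) · Y ^ (b − a) · g ^ p`). -/
theorem tresmono_cov_abs {π : A₀} {t : F} (V : ValuationSubring F) (ρ : ↥V →+* L)
    (hker : ∀ x : ↥V, (x : F) ∈ V.nonunits → ρ x = 0)
    (hAV : ∀ a : A₀, algebraMap A₀ F a ∈ V)
    (hπ : ρ ⟨algebraMap A₀ F π, hAV π⟩ = 0)
    (ht : V.valuation t = 1)
    {p : ℕ} (hp : 0 < p) {h : F} (hh : V.valuation h = 1) (c e : ℤ) (r : L)
    (hfin : ∀ 𝔫 : AtPt (F := F) π t, (∀ x ∈ atLoc 𝔫, x ∈ V) →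
      ∃ (y : F) (hy : V.valuation y = 1), ρ ⟨y, tresdn_mem V hy⟩ = r ∧
        TresMonoPt V (atLoc 𝔫) p c e y h)
    (hcusp : ∀ 𝔫 : AtPt (F := F) π t⁻¹, (∀ x ∈ atLoc 𝔫, x ∈ V) →
      (∀ b : ↥(zchClosure (A₀ := A₀) ({t⁻¹} : Set F)), (b : F) = t⁻¹ → b ∈ 𝔫.1) →
      ∃ (y : F) (hy : V.valuation y = 1), ρ ⟨y, tresdn_mem V hy⟩ = r ∧
        StbFacAt (atLoc 𝔫) p y)
    (Q : Place k L)
    (hAQ : ∀ a : A₀, ρ ⟨algebraMap A₀ F a, hAV a⟩ ∈ Q.toValuationSubring)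
    (hfinQ : ∀ x ∈ Q.toValuationSubring, x ∉ Q.toValuationSubring.nonunits →
      ∃ n : ℕ, 0 < n ∧ x ^ n - 1 ∈ Q.toValuationSubring.nonunits) :
    (ρ ⟨t, tresdn_mem V ht⟩ ∈ Q.toValuationSubring →
      (p : ℤ) ∣ e * Q.ord r - c * Q.ord (ρ ⟨h, tresdn_mem V hh⟩)) ∧
    (ρ ⟨t, tresdn_mem V ht⟩ ∉ Q.toValuationSubring → (p : ℤ) ∣ Q.ord r) := by
  obtain ⟨h1, h2⟩ := tresdn_centre (π := π) V ρ hker hAV hπ ht Q hAQ hfinQ
  refine ⟨fun hin => ?_, fun hout => ?_⟩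
  · obtain ⟨𝔫, h𝔫, -⟩ := h1 hin
    obtain ⟨y, hy, hyr, hpt⟩ := hfin 𝔫 (fun x hx => (h𝔫 x hx).1)
    rw [← hyr]
    exact tresmono_pt V ρ Q (atLoc 𝔫) h𝔫 hp hy hh c e hpt
  · obtain ⟨𝔫, h𝔫, -, hti⟩ := h2 hout
    obtain ⟨y, hy, hyr, hfac⟩ := hcusp 𝔫 (fun x hx => (h𝔫 x hx).1) hti
    rw [← hyr]
    exact ribmp_rd_fac V ρ Q (atLoc 𝔫) h𝔫 hp hy hfac

end Main

/-! ### The `k`-side: constants and `p`-th powers do not change the two clauses -/

section KSide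

variable {k L : Type*} [Field k] [Field L] [Algebra k L]

/-- `ord_Q` of a constant is `0` -/
theorem tresmono_ord_const (Q : Place k L) (a : k) : Q.ord (algebraMap k L a) = 0 :=
  Fermat.Agent.S24.PlaceAux.ord_algebraMap Q a

/-- `r = a · r″ · s ^ p` (`a` a nonzero constant): `ord_Q r ≡ ord_Q r″ mod p` -/
theorem tresmono_ord_congr (Q : Place k L) (p : ℕ) {a : k} (ha : a ≠ 0) {r r'' s : L}
    (hr'' : r'' ≠ 0) (hs : s ≠ 0) (hr : r = algebraMap k L a * r'' * s ^ p) :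
    Q.ord r = Q.ord r'' + p * Q.ord s := by
  have h1 : algebraMap k L a ≠ 0 := (map_ne_zero _).2 ha
  have hs' := Q.ord_zpow s (p : ℤ)
  rw [zpow_natCast] at hs'
  rw [hr, Q.ord_mul (mul_ne_zero h1 hr'') (pow_ne_zero _ hs), Q.ord_mul h1 hr'',
    tresmono_ord_const Q a, zero_add, hs']

/-- the two clauses for `r″` give the two clauses for `r = a · r″ · s ^ p` -/
theorem tresmono_clauses_congr (Q : Place k L) (p : ℕ) {a : k} (ha : a ≠ 0) {r r'' s : L}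
    (hr'' : r'' ≠ 0) (hs : s ≠ 0) (hr : r = algebraMap k L a * r'' * s ^ p) (c e m : ℤ) :
    ((p : ℤ) ∣ e * Q.ord r'' - c * m → (p : ℤ) ∣ e * Q.ord r - c * m) ∧
    ((p : ℤ) ∣ Q.ord r'' → (p : ℤ) ∣ Q.ord r) := by
  rw [tresmono_ord_congr Q p ha hr'' hs hr]
  refine ⟨fun ⟨d, hd⟩ => ⟨d + e * Q.ord s, by linear_combination hd⟩,
    fun ⟨d, hd⟩ => ⟨d + Q.ord s, by linear_combination hd⟩⟩

end KSide

end Fermat.Agent.R38

end
end ZBRIB_002_2

/-! ### bundled: `Fermat.Agent.R38.TresMonoFixAbs` -/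
section ZBRIB_002_3
/-
Row 38, TRES / FAC-ASM, piece ASM-NOCOVER (helper79): THE ABSTRACT CORE (chart form).

The case "inertia FIXES `x`" of `StmtFacMono` needs no cover: the Kummer function descends to
`F_K` (MP-DESC), and the node formula is applied on `X` itself.  This file is the chart-level
statement, in the setting of `RT/K6/DLFChart.lean` (helper54) and `R38/TresDictNode.lean`
(helper14): `A₀` a DVR (uniformizer `π`), `E = Frac A₀`, `F / E(t)` finite, charts `t`, `t⁻¹`,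
`V : κ → ValuationSubring F` the two vertical valuation rings (`κ = {c₁, c₂}`) with the globals
(SS1), (U), thin nodes (`Rtk6lfThinAt`) at the closed points of the chart `t`, smooth points at
the cusps (`t⁻¹ ∈ 𝔫`), `ρ : V c₁ →+* L` the reduction at `c₁`, `Q` a place of `L`.

For `y` with `m ∣ div y` (horizontal), `v_{c₁}(y) = 1`, `v_{c₂}(y) = v_{c₂}(π) ^ b`, and `g` (the
Ogg unit) with horizontal divisor supported at the cusps, `v_{c₁}(g) = 1`,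
`v_{c₂}(g) = v_{c₂}(π) ^ a`:

* `tresmf_cross`  : at a thin crossing point, `m ∣ a · ord_Q (ρ y) − b · ord_Q (ρ g)`;
* `tresmf_smooth_y`, `tresmf_smooth_g` : at a smooth point of the component `c₁`,
  `m ∣ ord_Q (ρ y)` and `ord_Q (ρ g) = 0`;
* `tresmf_through` : the centre of the composite of `V c₁` and `Q` lies on the component `c₁`;
* **`tresmf_chart`** : for every place `Q` of `L`:
  `ρ t ∈ O_Q → m ∣ a · ord_Q (ρ y) − b · ord_Q (ρ g)`  and  `ρ t ∉ O_Q → m ∣ ord_Q (ρ y)`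
  (the two clauses of `StmtFacMono`, with `t = j`).
No thickness and no `ord_Q (ρ Y)` in the output.
-/

set_option autoImplicit false
set_option linter.unusedSectionVars false
set_option linter.unusedVariables false
set_option linter.style.haveILetI false

namespace Fermat.Agent.R38

open Fermat.Agent.UNIP Fermat.Agent.STB Fermat.Agent.INJ Fermat.Agent.S36 Fermat.Agent.RIB.MP
  Fermat.Agent.RT.K6 IntermediateField AlgebraicCurve

section Pt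

universe u

variable {A₀ E F : Type u} [CommRing A₀] [IsDomain A₀] [IsDiscreteValuationRing A₀]
  [Field E] [Algebra A₀ E] [IsFractionRing A₀ E] [CharZero E]
  [Field F] [Algebra E F] [Algebra A₀ F] [IsScalarTower A₀ E F]
  {π : A₀} {κ : Type*} [Finite κ] {k L : Type*} [Field k] [Field L] [Algebra k L]

/-- two integer powers of an element of valuation `< 1` with the same valuation -/
theorem tresmf_zpow_inj (V : ValuationSubring F) {ϖ : F} (hϖ : ϖ ∈ V.nonunits) (hϖ0 : ϖ ≠ 0)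
    {a b : ℤ} (h : V.valuation ϖ ^ a = V.valuation ϖ ^ b) : a = b := by
  have hv0 : V.valuation ϖ ≠ 0 := (map_ne_zero _).mpr hϖ0
  have hlt : V.valuation ϖ < 1 := (ValuationSubring.mem_nonunits_iff V).mp hϖ
  have h1 : V.valuation ϖ ^ (a - b) = 1 := by
    rw [zpow_sub₀ hv0, h, div_self (zpow_ne_zero _ hv0)]
  have := tresdn_zpow_eq_one V hlt hϖ0 h1
  omega

include E in
/-- **the crossing point**: `m ∣ a · ord_Q (ρ y) − b · ord_Q (ρ g)`. -/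
theorem tresmf_cross (hπ : Irreducible π) {u : F} [FiniteDimensional E⟮u⟯ F]
    [IsNoetherianRing ↥(zchClosure (A₀ := A₀) ({u} : Set F))]
    (V : κ → ValuationSubring F) (c₁ c₂ : κ) (hκ : ∀ c, c = c₁ ∨ c = c₂)
    (hBV : ∀ c (b : F), IsIntegral ↥(Algebra.adjoin A₀ {u}) b → b ∈ V c)
    (hπV : ∀ c, algebraMap A₀ F π ∈ (V c).nonunits)
    (hSS1 : ∀ b : F, IsIntegral ↥(Algebra.adjoin A₀ {u}) b → (∀ c, b ∈ (V c).nonunits) →
      ∃ b' : F, IsIntegral ↥(Algebra.adjoin A₀ {u}) b' ∧ b = algebraMap A₀ F π * b')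
    (hU : ∀ c (x : F), x ∈ (V c).nonunits → ∃ z ∈ V c, x = algebraMap A₀ F π * z)
    (ρ : ↥(V c₁) →+* L) (Q : Place k L) (𝔫 : AtPt (F := F) π u)
    (hO : ∀ x ∈ atLoc 𝔫, ∃ hx : x ∈ V c₁, ρ ⟨x, hx⟩ ∈ Q.toValuationSubring)
    {X Y : ↥(zchClosure (A₀ := A₀) ({u} : Set F))}
    (h : Rtk6lfCrossAt (V c₁) (V c₂) 𝔫 X Y)
    (m : ℕ) {y g : F} (hy0 : y ≠ 0) (hg0 : g ≠ 0)
    (hhor : ∀ P : Place E F, (∀ x ∈ atLoc 𝔫, x ∈ P.toValuationSubring) → (m : ℤ) ∣ P.ord y)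
    (hhor' : ∀ P : Place E F, (∀ x ∈ atLoc 𝔫, x ∈ P.toValuationSubring) → P.ord g = 0)
    (hy₁ : (V c₁).valuation y = 1) (hg₁ : (V c₁).valuation g = 1) (a b : ℤ)
    (hy₂ : (V c₂).valuation y = (V c₂).valuation (algebraMap A₀ F π) ^ b)
    (hg₂ : (V c₂).valuation g = (V c₂).valuation (algebraMap A₀ F π) ^ a) :
    (m : ℤ) ∣ a * Q.ord (ρ ⟨y, tresdn_mem (V c₁) hy₁⟩) -
      b * Q.ord (ρ ⟨g, tresdn_mem (V c₁) hg₁⟩) := by
  haveI := 𝔫.2.1.isPrime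
  have hπ0 : algebraMap A₀ F π ≠ 0 := ei_algebraMap_ne_zero (E := E) hπ
  obtain ⟨γ, ε, a₁, b₁, hε, hfac, hγ0, hγ₁, hγ₂, hv₁, hv₂⟩ :=
    rtk6lfc_cross_fac (E := E) hπ V c₁ c₂ hκ hBV hπV hSS1 hU 𝔫 h m hy0 hhor
  obtain ⟨γ', ε', a₂, b₂, hε', hfac', hγ0', hγ₁', hγ₂', hv₁', hv₂'⟩ :=
    rtk6lfc_cross_fac (E := E) hπ V c₁ c₂ hκ hBV hπV hSS1 hU 𝔫 h 0 hg0
      (fun P hP => by rw [hhor' P hP]; exact dvd_zero _)
  have hb₁ : b₁ = b := tresmf_zpow_inj (V c₂) (hπV c₂) hπ0 (by rw [← hv₂, hy₂])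
  have hb₂ : b₂ = a := tresmf_zpow_inj (V c₂) (hπV c₂) hπ0 (by rw [← hv₂', hg₂])
  obtain ⟨h₁, h₂, hX, hY, ⟨w, hw, hXY⟩, hgen⟩ := h
  -- the valuations of `X`, `Y` at `V c₁`
  have hval := rtk6lfp_cross_val (B := ↥(zchClosure (A₀ := A₀) ({u} : Set F))) 𝔫.1 (V c₁)
    (fun b => hBV c₁ _ b.2) (algebraMap A₀ ↥(zchClosure (A₀ := A₀) ({u} : Set F)) π) (hU c₁) hπ0
    h₁ hw hXY hX
  have hYv : (V c₁).valuation (Y : F) = 1 := hval.1
  have hXlt : (V c₁).valuation (X : F) < 1 := (ValuationSubring.mem_nonunits_iff (V c₁)).mp hX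
  have hX0 : (X : F) ≠ 0 := by
    intro hX0
    have hXv := hval.2
    have e : (V c₁).valuation (X : F) = 0 := by rw [hX0, map_zero]
    have e' : (V c₁).valuation (algebraMap A₀ F π) = 0 := by
      rw [← e]; exact hXv.symm
    exact hπ0 ((map_eq_zero _).mp e')
  -- the node dictionary for `y` and for `g`
  have hfacy : y = (ε : F) * (Y : F) ^ b₁ * (X : F) ^ a₁ * γ ^ m := by rw [hfac]; ring
  have hfacg : g = (ε' : F) * (Y : F) ^ b₂ * (X : F) ^ a₂ * γ' ^ 0 := by rw [hfac']; ring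
  obtain ⟨-, hdy⟩ := tresdn_fac (V c₁) ρ Q (atLoc 𝔫) hO ε hε b₁ a₁ hy₁ hYv hXlt hX0
    ⟨0, by rw [hγ₁, zpow_zero]⟩ hfacy
  obtain ⟨-, hdg⟩ := tresdn_fac (V c₁) ρ Q (atLoc 𝔫) hO ε' hε' b₂ a₂ hg₁ hYv hXlt hX0
    ⟨0, by rw [hγ₁', zpow_zero]⟩ hfacg
  have hg_eq : Q.ord (ρ ⟨g, tresdn_mem (V c₁) hg₁⟩) =
      b₂ * Q.ord (ρ ⟨(Y : F), tresdn_mem (V c₁) hYv⟩) := by
    have := eq_zero_of_zero_dvd (by simpa using hdg)
    linarith
  rw [hg_eq, hb₂]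
  rw [hb₁] at hdy
  obtain ⟨z, hz⟩ := hdy
  refine ⟨a * z, ?_⟩
  have : Q.ord (ρ ⟨y, tresdn_mem (V c₁) hy₁⟩) =
      b * Q.ord (ρ ⟨(Y : F), tresdn_mem (V c₁) hYv⟩) + (m : ℤ) * z := by linarith
  rw [this]
  ring

include E in
/-- **the smooth point, Kummer function**: `m ∣ ord_Q (ρ y)`. -/
theorem tresmf_smooth_y (hπ : Irreducible π) {u : F} [FiniteDimensional E⟮u⟯ F]
    [IsNoetherianRing ↥(zchClosure (A₀ := A₀) ({u} : Set F))]
    (V : κ → ValuationSubring F) (c₁ : κ)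
    (hBV : ∀ c (b : F), IsIntegral ↥(Algebra.adjoin A₀ {u}) b → b ∈ V c)
    (hπV : ∀ c, algebraMap A₀ F π ∈ (V c).nonunits)
    (hSS1 : ∀ b : F, IsIntegral ↥(Algebra.adjoin A₀ {u}) b → (∀ c, b ∈ (V c).nonunits) →
      ∃ b' : F, IsIntegral ↥(Algebra.adjoin A₀ {u}) b' ∧ b = algebraMap A₀ F π * b')
    (hU : ∀ c (x : F), x ∈ (V c).nonunits → ∃ z ∈ V c, x = algebraMap A₀ F π * z)
    (ρ : ↥(V c₁) →+* L) (Q : Place k L) (𝔫 : AtPt (F := F) π u)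
    (hO : ∀ x ∈ atLoc 𝔫, ∃ hx : x ∈ V c₁, ρ ⟨x, hx⟩ ∈ Q.toValuationSubring)
    (hthr : atThrough 𝔫 (V c₁)) (hone : ∀ c', atThrough 𝔫 (V c') → c' = c₁)
    {s : ↥(zchClosure (A₀ := A₀) ({u} : Set F))} (hs : s ∈ 𝔫.1)
    (hgen : NodesLocGen 𝔫.1 {algebraMap A₀ ↥(zchClosure (A₀ := A₀) ({u} : Set F)) π, s})
    {m : ℕ} (hm : 0 < m) {y : F} (hy0 : y ≠ 0)
    (hhor : ∀ P : Place E F, (∀ x ∈ atLoc 𝔫, x ∈ P.toValuationSubring) → (m : ℤ) ∣ P.ord y)
    (hy₁ : (V c₁).valuation y = 1) :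
    (m : ℤ) ∣ Q.ord (ρ ⟨y, tresdn_mem (V c₁) hy₁⟩) := by
  have hπ0 : algebraMap A₀ F π ≠ 0 := ei_algebraMap_ne_zero (E := E) hπ
  obtain ⟨γ, ε, a₁, hε, hfac, hγ0, hγ₁, hv₁⟩ :=
    rtk6lfc_smooth_fac (E := E) hπ V hBV hπV hSS1 hU 𝔫 c₁ hthr hone hs hgen m hy0 hhor
  have ha₁ : a₁ = 0 :=
    tresmf_zpow_inj (V c₁) (hπV c₁) hπ0 (by rw [← hv₁, hy₁, zpow_zero])
  have hF : StbFacAt (atLoc 𝔫) m y := ⟨γ, ε, hε, by rw [hfac, ha₁, zpow_zero, mul_one]⟩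
  exact ribmp_rd_fac (V c₁) ρ Q (atLoc 𝔫) hO hm hy₁ hF

include E in
/-- **the smooth point, the unit with cuspidal divisor**: `ord_Q (ρ g) = 0`. -/
theorem tresmf_smooth_g (hπ : Irreducible π) {u : F} [FiniteDimensional E⟮u⟯ F]
    [IsNoetherianRing ↥(zchClosure (A₀ := A₀) ({u} : Set F))]
    (V : κ → ValuationSubring F) (c₁ : κ)
    (hBV : ∀ c (b : F), IsIntegral ↥(Algebra.adjoin A₀ {u}) b → b ∈ V c)
    (hπV : ∀ c, algebraMap A₀ F π ∈ (V c).nonunits)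
    (hSS1 : ∀ b : F, IsIntegral ↥(Algebra.adjoin A₀ {u}) b → (∀ c, b ∈ (V c).nonunits) →
      ∃ b' : F, IsIntegral ↥(Algebra.adjoin A₀ {u}) b' ∧ b = algebraMap A₀ F π * b')
    (hU : ∀ c (x : F), x ∈ (V c).nonunits → ∃ z ∈ V c, x = algebraMap A₀ F π * z)
    (ρ : ↥(V c₁) →+* L) (Q : Place k L) (𝔫 : AtPt (F := F) π u)
    (hO : ∀ x ∈ atLoc 𝔫, ∃ hx : x ∈ V c₁, ρ ⟨x, hx⟩ ∈ Q.toValuationSubring)
    (hthr : atThrough 𝔫 (V c₁)) (hone : ∀ c', atThrough 𝔫 (V c') → c' = c₁)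
    {s : ↥(zchClosure (A₀ := A₀) ({u} : Set F))} (hs : s ∈ 𝔫.1)
    (hgen : NodesLocGen 𝔫.1 {algebraMap A₀ ↥(zchClosure (A₀ := A₀) ({u} : Set F)) π, s})
    {g : F} (hg0 : g ≠ 0)
    (hhor' : ∀ P : Place E F, (∀ x ∈ atLoc 𝔫, x ∈ P.toValuationSubring) → P.ord g = 0)
    (hg₁ : (V c₁).valuation g = 1) :
    Q.ord (ρ ⟨g, tresdn_mem (V c₁) hg₁⟩) = 0 := by
  have hπ0 : algebraMap A₀ F π ≠ 0 := ei_algebraMap_ne_zero (E := E) hπ
  obtain ⟨γ, ε, a₁, hε, hfac, hγ0, hγ₁, hv₁⟩ :=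
    rtk6lfc_smooth_fac (E := E) hπ V hBV hπV hSS1 hU 𝔫 c₁ hthr hone hs hgen 0 hg0
      (fun P hP => by rw [hhor' P hP]; exact dvd_zero _)
  have ha₁ : a₁ = 0 :=
    tresmf_zpow_inj (V c₁) (hπV c₁) hπ0 (by rw [← hv₁, hg₁, zpow_zero])
  have hgε : g = (ε : F) := by rw [hfac, ha₁, zpow_zero, mul_one, pow_zero, mul_one]
  obtain ⟨hv, hord⟩ := tresdn_unit (V c₁) ρ Q (atLoc 𝔫) hO ε hε
  have e : (⟨g, tresdn_mem (V c₁) hg₁⟩ : ↥(V c₁)) = ⟨(ε : F), tresdn_mem (V c₁) hv⟩ :=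
    Subtype.ext hgε
  rw [e]
  exact hord

/-- the centre of the composite of `V` and `Q` lies on the component `V` -/
theorem tresmf_through (V : ValuationSubring F) (ρ : ↥V →+* L)
    (hker : ∀ x : ↥V, (x : F) ∈ V.nonunits → ρ x = 0) (O : ValuationSubring L) {u : F}
    (𝔫 : AtPt (F := F) π u)
    (h𝔫 : ∀ b : ↥(zchClosure (A₀ := A₀) ({u} : Set F)),
      b ∈ 𝔫.1 ↔ ∃ hb : (b : F) ∈ V, ρ ⟨(b : F), hb⟩ ∈ O.nonunits) :
    atThrough 𝔫 V := by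
  intro b hb
  rw [h𝔫]
  have hbV : (b : F) ∈ V := V.nonunits_le hb
  refine ⟨hbV, ?_⟩
  rw [hker ⟨(b : F), hbV⟩ hb, ValuationSubring.mem_nonunits_iff, map_zero]
  exact zero_lt_one

include E in
/-- **ASM-NOCOVER, abstract chart form.**  Thin nodes on the chart `t`, smooth points at the
cusps: for every place `Q` of the residue function field `L` of `V c₁`,
`m ∣ a · ord_Q (ρ y) − b · ord_Q (ρ g)` off the cusps and `m ∣ ord_Q (ρ y)` at the cusps. -/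
theorem tresmf_chart (hπ : Irreducible π) {t : F} [FiniteDimensional E⟮t⟯ F]
    [FiniteDimensional E⟮t⁻¹⟯ F]
    [IsNoetherianRing ↥(zchClosure (A₀ := A₀) ({t} : Set F))]
    [IsNoetherianRing ↥(zchClosure (A₀ := A₀) ({t⁻¹} : Set F))]
    (V : κ → ValuationSubring F) (c₁ c₂ : κ) (hκ : ∀ c, c = c₁ ∨ c = c₂)
    (hBV : ∀ c (b : F), IsIntegral ↥(Algebra.adjoin A₀ {t}) b → b ∈ V c)
    (hBV' : ∀ c (b : F), IsIntegral ↥(Algebra.adjoin A₀ {t⁻¹}) b → b ∈ V c)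
    (hπV : ∀ c, algebraMap A₀ F π ∈ (V c).nonunits)
    (hSS1 : ∀ b : F, IsIntegral ↥(Algebra.adjoin A₀ {t}) b → (∀ c, b ∈ (V c).nonunits) →
      ∃ b' : F, IsIntegral ↥(Algebra.adjoin A₀ {t}) b' ∧ b = algebraMap A₀ F π * b')
    (hSS1' : ∀ b : F, IsIntegral ↥(Algebra.adjoin A₀ {t⁻¹}) b → (∀ c, b ∈ (V c).nonunits) →
      ∃ b' : F, IsIntegral ↥(Algebra.adjoin A₀ {t⁻¹}) b' ∧ b = algebraMap A₀ F π * b')
    (hU : ∀ c (x : F), x ∈ (V c).nonunits → ∃ z ∈ V c, x = algebraMap A₀ F π * z)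
    (hVloc : ∀ c (x : F), x ∈ V c → ∃ b s : F, IsIntegral ↥(Algebra.adjoin A₀ {t}) b ∧
      IsIntegral ↥(Algebra.adjoin A₀ {t}) s ∧ s ∉ (V c).nonunits ∧ s * x = b)
    (hVloc' : ∀ c (x : F), x ∈ V c → ∃ b s : F, IsIntegral ↥(Algebra.adjoin A₀ {t⁻¹}) b ∧
      IsIntegral ↥(Algebra.adjoin A₀ {t⁻¹}) s ∧ s ∉ (V c).nonunits ∧ s * x = b)
    (hnle : ∀ c c', c ≠ c' → ¬ V c ≤ V c')
    (hthin : ∀ 𝔫 : AtPt (F := F) π t, Rtk6lfThinAt (V c₁) (V c₂) 𝔫)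
    (hcusp : ∀ 𝔫 : AtPt (F := F) π t⁻¹,
      (∀ b : ↥(zchClosure (A₀ := A₀) ({t⁻¹} : Set F)), (b : F) = t⁻¹ → b ∈ 𝔫.1) →
      ∃ s : ↥(zchClosure (A₀ := A₀) ({t⁻¹} : Set F)), s ∈ 𝔫.1 ∧
        NodesLocGen 𝔫.1 {algebraMap A₀ ↥(zchClosure (A₀ := A₀) ({t⁻¹} : Set F)) π, s})
    (ρ : ↥(V c₁) →+* L)
    (hker : ∀ x : ↥(V c₁), (x : F) ∈ (V c₁).nonunits → ρ x = 0)
    (hAV : ∀ a : A₀, algebraMap A₀ F a ∈ V c₁)
    (hρπ : ρ ⟨algebraMap A₀ F π, hAV π⟩ = 0)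
    (ht : (V c₁).valuation t = 1)
    (Q : Place k L)
    (hAQ : ∀ a : A₀, ρ ⟨algebraMap A₀ F a, hAV a⟩ ∈ Q.toValuationSubring)
    (hfin : ∀ x ∈ Q.toValuationSubring, x ∉ Q.toValuationSubring.nonunits →
      ∃ n : ℕ, 0 < n ∧ x ^ n - 1 ∈ Q.toValuationSubring.nonunits)
    {m : ℕ} (hm : 0 < m) {y g : F} (hy0 : y ≠ 0) (hg0 : g ≠ 0)
    (hhor : ∀ P : Place E F, (m : ℤ) ∣ P.ord y)
    (hhor' : ∀ P : Place E F, 0 ≤ P.ord t → P.ord g = 0)
    (hy₁ : (V c₁).valuation y = 1) (hg₁ : (V c₁).valuation g = 1) (a b : ℤ)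
    (hy₂ : (V c₂).valuation y = (V c₂).valuation (algebraMap A₀ F π) ^ b)
    (hg₂ : (V c₂).valuation g = (V c₂).valuation (algebraMap A₀ F π) ^ a) :
    (ρ ⟨t, tresdn_mem (V c₁) ht⟩ ∈ Q.toValuationSubring →
      (m : ℤ) ∣ a * Q.ord (ρ ⟨y, tresdn_mem (V c₁) hy₁⟩) -
        b * Q.ord (ρ ⟨g, tresdn_mem (V c₁) hg₁⟩)) ∧
    (ρ ⟨t, tresdn_mem (V c₁) ht⟩ ∉ Q.toValuationSubring →
      (m : ℤ) ∣ Q.ord (ρ ⟨y, tresdn_mem (V c₁) hy₁⟩)) := by
  obtain ⟨hin, hout⟩ := tresdn_centre (π := π) (V c₁) ρ hker hAV hρπ ht Q hAQ hfin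
  constructor
  · intro htQ
    obtain ⟨𝔫, hO, h𝔫⟩ := hin htQ
    have hthr : atThrough 𝔫 (V c₁) :=
      tresmf_through (V c₁) ρ hker Q.toValuationSubring 𝔫 h𝔫
    -- places centred at `𝔫` are not cusps
    have htO : t ∈ atLoc 𝔫 := by
      haveI := 𝔫.2.1.isPrime
      refine ⟨⟨t, mem_zchClosure.mpr ?_⟩, 1, ?_, ?_⟩
      · exact isIntegral_algebraMap (R := ↥(Algebra.adjoin A₀ ({t} : Set F)))
          (x := ⟨t, Algebra.subset_adjoin (Set.mem_singleton t)⟩)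
      · exact fun h1 => 𝔫.2.1.ne_top ((Ideal.eq_top_iff_one _).mpr h1)
      · simp
    have hhorg : ∀ P : Place E F, (∀ x ∈ atLoc 𝔫, x ∈ P.toValuationSubring) → P.ord g = 0 :=
      fun P hP => hhor' P
        ((Fermat.Agent.S24.PlaceAux.ord_nonneg_iff P (tresdn_ne_zero (V c₁) ht)).mpr (hP t htO))
    rcases hthin 𝔫 with ⟨s, hs, hgen⟩ | ⟨X, Y, hXY⟩
    · obtain ⟨c, hc, hone⟩ := stb_sx_exists_unique V hBV hπV hSS1 hVloc hnle 𝔫 s hs hgen
      have hc₁ : c₁ = c := hone c₁ hthr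
      subst hc₁
      have h1 := tresmf_smooth_y (E := E) hπ V c₁ hBV hπV hSS1 hU ρ Q 𝔫 hO hthr hone hs hgen
        hm hy0 (fun P _ => hhor P) hy₁
      have h2 := tresmf_smooth_g (E := E) hπ V c₁ hBV hπV hSS1 hU ρ Q 𝔫 hO hthr hone hs hgen
        hg0 hhorg hg₁
      rw [h2, mul_zero, sub_zero]
      exact Dvd.dvd.mul_left h1 a
    · exact tresmf_cross (E := E) hπ V c₁ c₂ hκ hBV hπV hSS1 hU ρ Q 𝔫 hO hXY m hy0 hg0
        (fun P _ => hhor P) hhorg hy₁ hg₁ a b hy₂ hg₂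
  · intro htQ
    obtain ⟨𝔫, hO, h𝔫, hcu⟩ := hout htQ
    have hthr : atThrough 𝔫 (V c₁) :=
      tresmf_through (V c₁) ρ hker Q.toValuationSubring 𝔫 h𝔫
    obtain ⟨s, hs, hgen⟩ := hcusp 𝔫 hcu
    obtain ⟨c, hc, hone⟩ := stb_sx_exists_unique V hBV' hπV hSS1' hVloc' hnle 𝔫 s hs hgen
    have hc₁ : c₁ = c := hone c₁ hthr
    subst hc₁
    exact tresmf_smooth_y (E := E) hπ V c₁ hBV' hπV hSS1' hU ρ Q 𝔫 hO hthr hone hs hgen
      hm hy0 (fun P _ => hhor P) hy₁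

end Pt

end Fermat.Agent.R38


end ZBRIB_002_3

/-! ### bundled: `Fermat.Agent.RIB.MP.RedA` -/
section ZBRIB_002_4
/-
Row 37, Mazur's principle, piece MP-RED, part RED-a (helper91; debugged + landed by helper85): THE DICTIONARY.

`N = M₁ q`, `A ⊂ ℚ̄` over `q`, `K₀ ⊂ ℚ̄` with `A ∩ K₀` a DVR, `V_∞ = mgvV … true` the Gauss
valuation ring of `F_N(K₀)`.  For `y₀ ∈ V_∞^×` with local factorisations `y₀ = ε γ ^ m` at all
closed points of the special fibres of the charts `j`, `1 / j` (the statement (F) of MP-FAC):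
the Gauss reduction `ū` of `nfEmb y₀` lies in `F_{M₁}(k)` (K-RES), `ū ≠ 0`, and `m ∣ ord_Q ū` at
every place `Q` of `F_{M₁}(k)` (the CENTRE dictionary `ribmp_rd_dvd_ord`).

* `ribmp_red_gaussRed_incl` : level change `M₁ → M₁ q` for `GaussRed`;
* `ribmpRedK_mem` : the reduction of `V_∞` has values in `F_{M₁}(k)`;
* `ribmpRedF` : the reduction map `V_∞ →+* F_{M₁}(k)`;
* **`ribmp_red_a`**.
-/

set_option autoImplicit false
set_option linter.unusedSectionVars false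
set_option linter.unusedVariables false
set_option linter.style.haveILetI false
set_option linter.style.longLine false
set_option synthInstance.maxHeartbeats 400000
set_option maxHeartbeats 1600000

noncomputable section

namespace Fermat.Agent.RIB.MP

open ModularCurve AlgebraicCurve Fermat.Agent.ES Fermat.Agent.ES.G2 Fermat.Agent.INJ
  Fermat.Agent.UNIP Fermat.Agent.STB Fermat.Agent.ES.M Fermat.Agent.DEU Fermat.Agent.S36
  Fermat.Agent.S24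

section Incl

variable {M₁ q : ℕ} [NeZero M₁] [NeZero q] [NeZero (M₁ * q)] {A : ValuationSubring Qb}

/-- level change for `GaussRed`: it only depends on the `q`-expansion -/
theorem ribmp_red_gaussRed_incl {v : FF M₁} {x : FF (M₁ * q)} {w : LaurentSeries (kA A)}
    (hxv : (x : LaurentSeries Qb) = (v : LaurentSeries Qb)) (h : GaussRed M₁ A v w) :
    GaussRed (M₁ * q) A x w := by
  obtain ⟨Y₁, Y₂, hY₁, hY₂, hY₂0, hYe, hYr⟩ := h
  exact ⟨Y₁, Y₂, hdeg_bar_le M₁ q hY₁, hdeg_bar_le M₁ q hY₂, hY₂0, by rw [hxv]; exact hYe, hYr⟩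

end Incl

section Main

variable {M₁ q : ℕ} [NeZero M₁] [NeZero q] [NeZero (M₁ * q)] (hq : q.Prime) (hqM : ¬ q ∣ M₁)
  {A : ValuationSubring Qb} (hA : A.LiesOverPrime q) {K₀ : IntermediateField ℚ Qb}
  [IsDiscreteValuationRing ↥(beta0Ring A K₀)]
  {π : ↥(beta0Ring A K₀)} (hπ : Irreducible π) (ιC : ↥K₀ →+* ℂ)

include hq hqM hA ιC in
/-- **the reduction of `V_∞` (level `M₁ q`) has values in `F_{M₁}(k)`** -/
theorem ribmpRedK_mem (hRedF : StmtRedF M₁ A)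
    (x : ↥(vtInf (vtBase_residue hπ) (M₁ * q))) :
    ribmpRedK hπ (M₁ * q) x ∈ modularFunctionFieldFullC (kA A) M₁ := by
  haveI : Fact q.Prime := ⟨hq⟩
  haveI : CharP (IsLocalRing.ResidueField ↥(beta0Ring A K₀)) q := mgvl_charP hq hA
  have hxV : (x : modularFunctionFieldFullC ↥K₀ (M₁ * q)) ∈
      vtFam (E := ↥K₀) (vtBase_residue hπ) ιC hq hqM true := x.2
  obtain ⟨c, hc, hxc⟩ := ribmp_red_res (E := ↥K₀) (vtBase_residue hπ) ιC hq hqM x.1 hxV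
  have hc' : ribmpRedIncl ↥K₀ M₁ q c ∈ vtInf (E := ↥K₀) (vtBase_residue hπ) (M₁ * q) := by
    rw [mem_vtInf, ribmpRedIncl_coe]
    exact (mem_vtInf _ M₁).1 hc
  have hxc' : ((x - ⟨ribmpRedIncl ↥K₀ M₁ q c, hc'⟩ : ↥(vtInf (E := ↥K₀) (vtBase_residue hπ) (M₁ * q))) :
      modularFunctionFieldFullC ↥K₀ (M₁ * q)) ∈
      (vtInf (E := ↥K₀) (vtBase_residue hπ) (M₁ * q)).nonunits := hxc
  have h0 : ribmpRedK hπ (M₁ * q) (x - ⟨ribmpRedIncl ↥K₀ M₁ q c, hc'⟩) = 0 :=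
    ribmpRedK_eq_zero_of_mem_nonunits hπ (M₁ * q) _ hxc'
  rw [map_sub, sub_eq_zero] at h0
  rw [h0]
  have h1 : GaussRed M₁ A (nfEmb K₀ M₁ c) (ribmpRedK hπ M₁ ⟨c, hc⟩) :=
    ribmpRedK_spec hπ M₁ ⟨c, hc⟩
  have hcoe : ((nfEmb K₀ (M₁ * q) (ribmpRedIncl ↥K₀ M₁ q c) : FF (M₁ * q)) : LaurentSeries Qb) =
      ((nfEmb K₀ M₁ c : FF M₁) : LaurentSeries Qb) := by
    rw [nfEmb_coe, nfEmb_coe, ribmpRedIncl_coe]
  have h2 : GaussRed (M₁ * q) A (nfEmb K₀ (M₁ * q) (ribmpRedIncl ↥K₀ M₁ q c))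
      (ribmpRedK hπ M₁ ⟨c, hc⟩) := ribmp_red_gaussRed_incl hcoe h1
  rw [ribmpRedK_eq hπ (M₁ * q) (x := ⟨ribmpRedIncl ↥K₀ M₁ q c, hc'⟩) h2]
  exact deuInst_gaussRed_mem M₁ A hRedF h1

include hA in
/-- the reduction map `V_∞ →+* F_{M₁}(k)` -/
def ribmpRedF (hRedF : StmtRedF M₁ A) :
    ↥(mgvV hπ ιC hq hqM true) →+* ↥(modularFunctionFieldFullC (kA A) M₁) :=
  ((ribmpRedK hπ (M₁ * q)).comp
    (ValuationSubring.inclusion _ _ (le_of_eq (mgvV_true hπ ιC hq hqM)))).codRestrict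
      (modularFunctionFieldFullC (kA A) M₁)
      (fun x => ribmpRedK_mem hq hqM hA hπ ιC hRedF _)

include hA in
theorem ribmpRedF_coe (hRedF : StmtRedF M₁ A) (x : ↥(mgvV hπ ιC hq hqM true)) :
    ((ribmpRedF hq hqM hA hπ ιC hRedF x : ↥(modularFunctionFieldFullC (kA A) M₁)) :
      LaurentSeries (kA A)) =
      ribmpRedK hπ (M₁ * q)
        (ValuationSubring.inclusion _ _ (le_of_eq (mgvV_true hπ ιC hq hqM)) x) := rfl

include hA in
/-- **RED-a, the dictionary.** -/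
theorem ribmp_red_a_over (hRedF : StmtRedF M₁ A)
    (hfin : ∀ Q : Place (kA A) ↥(modularFunctionFieldFullC (kA A) M₁),
      ∀ x ∈ Q.toValuationSubring, x ∉ Q.toValuationSubring.nonunits →
        ∃ n : ℕ, 0 < n ∧ x ^ n - 1 ∈ Q.toValuationSubring.nonunits)
    {m : ℕ} (hm : 0 < m) (y₀ : ↥(modularFunctionFieldFullC ↥K₀ (M₁ * q)))
    (hy : (mgvV hπ ιC hq hqM true).valuation y₀ = 1)
    (hF : ∀ i : AtPt (F := ↥(modularFunctionFieldFullC ↥K₀ (M₁ * q))) π (bgJ ↥K₀ (M₁ * q)) ⊕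
        AtPt (F := ↥(modularFunctionFieldFullC ↥K₀ (M₁ * q))) π (bgJ ↥K₀ (M₁ * q))⁻¹,
      StbFacAt (atO π (bgJ ↥K₀ (M₁ * q)) i) m y₀) :
    ∃ (ub : LaurentSeries (kA A)) (hubF : ub ∈ modularFunctionFieldFullC (kA A) M₁), ub ≠ 0 ∧
      GaussRed (M₁ * q) A (nfEmb K₀ (M₁ * q) y₀) ub ∧
      ∀ Q : Place (kA A) ↥(modularFunctionFieldFullC (kA A) M₁),
        (m : ℤ) ∣ Q.ord (⟨ub, hubF⟩ : ↥(modularFunctionFieldFullC (kA A) M₁)) := by
  have hyV : y₀ ∈ mgvV hπ ιC hq hqM true :=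
    ((mgvV hπ ιC hq hqM true).valuation_le_one_iff y₀).mp hy.le
  refine ⟨ribmpRedK hπ (M₁ * q) ⟨y₀, hyV⟩, ribmpRedK_mem hq hqM hA hπ ιC hRedF ⟨y₀, hyV⟩,
    ribmpRedK_ne_zero hπ (M₁ * q) ⟨y₀, hyV⟩ hy, ribmpRedK_spec hπ (M₁ * q) ⟨y₀, hyV⟩, ?_⟩
  intro Q
  have hAV : ∀ a : ↥(beta0Ring A K₀),
      algebraMap ↥(beta0Ring A K₀) ↥(modularFunctionFieldFullC ↥K₀ (M₁ * q)) a ∈
        mgvV hπ ιC hq hqM true :=
    fun a => vtFam_const_mem (vtBase_residue hπ) ιC hq hqM true a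
  have hker : ∀ x : ↥(mgvV hπ ιC hq hqM true),
      (x : ↥(modularFunctionFieldFullC ↥K₀ (M₁ * q))) ∈ (mgvV hπ ιC hq hqM true).nonunits →
        ribmpRedF hq hqM hA hπ ιC hRedF x = 0 := fun x hx =>
    Subtype.ext (ribmpRedK_eq_zero_of_mem_nonunits hπ (M₁ * q) x hx)
  have hπ0 : ribmpRedF hq hqM hA hπ ιC hRedF ⟨_, hAV π⟩ = 0 :=
    hker _ (mgv_hπV hπ ιC hq hqM true)
  have hAQ : ∀ a : ↥(beta0Ring A K₀),
      ribmpRedF hq hqM hA hπ ιC hRedF ⟨_, hAV a⟩ ∈ Q.toValuationSubring := by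
    intro a
    have h1 : ribmpRedF hq hqM hA hπ ιC hRedF ⟨_, hAV a⟩ =
        algebraMap (kA A) ↥(modularFunctionFieldFullC (kA A) M₁)
          (IsLocalRing.residue A ⟨algebraMap ↥K₀ Qb (algebraMap ↥(beta0Ring A K₀) ↥K₀ a),
            stb_mgt_c1 A K₀ a⟩) := by
      apply Subtype.ext
      rw [ribmpRedF_coe]
      exact (ribmpRedK_const hπ (M₁ * q) a (hAV a)).trans (algebraMap_eq_hahnC _).symm
    rw [h1]
    exact Q.algebraMap_mem' _
  exact ribmp_rd_dvd_ord (π := π) (t := bgJ ↥K₀ (M₁ * q)) (mgvV hπ ιC hq hqM true)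
    (ribmpRedF hq hqM hA hπ ιC hRedF) hker hAV hπ0 (mgv_T_valuation hπ ιC hq hqM true) Q hAQ
    (hfin Q) hm hy hF

end Main

section Inertia

variable {M₁ q : ℕ} [NeZero M₁] [NeZero q] [NeZero (M₁ * q)] (hq : q.Prime) (hqM : ¬ q ∣ M₁)
  {A : ValuationSubring Qb} (hA : A.LiesOverPrime q)
  [IsDiscreteValuationRing ↥(beta0Ring A (beta0Field A))]
  {π : ↥(beta0Ring A (beta0Field A))} (hπ : Irreducible π) (ιC : ↥(beta0Field A) →+* ℂ)

include hA in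
/-- **RED-a** over the inertia field. -/
theorem ribmp_red_a (hRedF : StmtRedF M₁ A)
    (hfin : ∀ Q : Place (kA A) ↥(modularFunctionFieldFullC (kA A) M₁),
      ∀ x ∈ Q.toValuationSubring, x ∉ Q.toValuationSubring.nonunits →
        ∃ n : ℕ, 0 < n ∧ x ^ n - 1 ∈ Q.toValuationSubring.nonunits)
    {m : ℕ} (hm : 0 < m) (y₀ : ↥(modularFunctionFieldFullC ↥(beta0Field A) (M₁ * q)))
    (hy : (mgvV hπ ιC hq hqM true).valuation y₀ = 1)
    (hF : ∀ i : AtPt (F := ↥(modularFunctionFieldFullC ↥(beta0Field A) (M₁ * q))) π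
          (bgJ ↥(beta0Field A) (M₁ * q)) ⊕
        AtPt (F := ↥(modularFunctionFieldFullC ↥(beta0Field A) (M₁ * q))) π
          (bgJ ↥(beta0Field A) (M₁ * q))⁻¹,
      StbFacAt (atO π (bgJ ↥(beta0Field A) (M₁ * q)) i) m y₀) :
    ∃ (ub : LaurentSeries (kA A)) (hubF : ub ∈ modularFunctionFieldFullC (kA A) M₁), ub ≠ 0 ∧
      GaussRed (M₁ * q) A (nfEmb (beta0Field A) (M₁ * q) y₀) ub ∧
      ∀ Q : Place (kA A) ↥(modularFunctionFieldFullC (kA A) M₁),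
        (m : ℤ) ∣ Q.ord (⟨ub, hubF⟩ : ↥(modularFunctionFieldFullC (kA A) M₁)) :=
  ribmp_red_a_over hq hqM hA hπ ιC hRedF hfin hm y₀ hy hF

end Inertia

end Fermat.Agent.RIB.MP

end
end ZBRIB_002_4

/-! ### bundled: `Fermat.Agent.R38.TresMonoFixRed` -/
section ZBRIB_002_5

/-!
# Row 38, PKG-TRES, ASM-NOCOVER, LEAF A (helper28, for helper47): the reduction map `ρ = ribmpRedF`

Frame of `RIB/MP/RedA.lean`: `N = M₁ q`, `A ⊂ ℚ̄` over `q`, `K₀ ⊂ ℚ̄` with `A ∩ K₀` a DVR,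
`V_∞ = mgvV hπ ιC hq hqM true` the Gauss valuation ring of `F_N(K₀)`,
`ρ = ribmpRedF hq hqM hA hπ ιC hRedF : V_∞ →+* F_{M₁}(k)`.

* `tresmfr_j`      : `ρ (j) = j̄`;
* `tresmfr_ogg`    : `ρ (Ogg unit) = uInvS k q`  (`= Δ̄^{1-q}`);
* `tresmfr_r38Red` : for a unit `y` of `V_∞`, `ρ y` is a Gauss reduction (`R38Red`) of `nfEmb y`;
* `tresmfr_gaussRed_up`, `tresmfr_up` : the reduction does not depend on the level `M₁ q → M₁ d q`;
* `tresmfr_coe_eq` : `ρ` is characterised by `ES.M.GaussRed`.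
-/

set_option autoImplicit false
set_option linter.unusedSectionVars false
set_option linter.unusedVariables false
set_option linter.style.haveILetI false
set_option linter.style.longLine false
set_option synthInstance.maxHeartbeats 400000
set_option maxHeartbeats 1600000

noncomputable section

namespace Fermat.Agent.R38

open ModularCurve AlgebraicCurve Fermat.Agent.ES Fermat.Agent.ES.G2 Fermat.Agent.INJ
  Fermat.Agent.UNIP Fermat.Agent.STB Fermat.Agent.ES.M Fermat.Agent.DEU Fermat.Agent.S36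
  Fermat.Agent.S24 Fermat.Agent.RIB.MP Fermat.Agent.S28 Fermat.Agent.S15

section Up

variable {M₁ q : ℕ} (d : ℕ) [NeZero (M₁ * q)] [NeZero (M₁ * d * q)] {A : ValuationSubring Qb}

theorem tresmfr_bar_le (M₁ q d : ℕ) :
    modularFunctionFieldBar (M₁ * q) ≤ modularFunctionFieldBar (M₁ * d * q) := by
  rw [Nat.mul_right_comm]
  exact hdeg_bar_le (M₁ * q) d

/-- level change `M₁ q → M₁ d q` for `GaussRed`: it only depends on the `q`-expansion -/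
theorem tresmfr_gaussRed_up {v : FF (M₁ * q)} {x : FF (M₁ * d * q)} {w : LaurentSeries (kA A)}
    (hxv : (x : LaurentSeries Qb) = (v : LaurentSeries Qb)) (h : GaussRed (M₁ * q) A v w) :
    GaussRed (M₁ * d * q) A x w := by
  obtain ⟨Y₁, Y₂, hY₁, hY₂, hY₂0, hYe, hYr⟩ := h
  exact ⟨Y₁, Y₂, tresmfr_bar_le M₁ q d hY₁, tresmfr_bar_le M₁ q d hY₂, hY₂0, by rw [hxv]; exact hYe, hYr⟩

end Up

section Main

variable {M₁ q : ℕ} [NeZero M₁] [NeZero q] [NeZero (M₁ * q)] (hq : q.Prime) (hqM : ¬ q ∣ M₁)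
  {A : ValuationSubring Qb} (hA : A.LiesOverPrime q) {K₀ : IntermediateField ℚ Qb}
  [IsDiscreteValuationRing ↥(beta0Ring A K₀)] {π : ↥(beta0Ring A K₀)} (hπ : Irreducible π)
  (ιC : ↥K₀ →+* ℂ) (hRedF : StmtRedF M₁ A)

/-- `ρ` is characterised by `GaussRed` -/
theorem tresmfr_coe_eq (x : ↥(mgvV hπ ιC hq hqM true)) {w : LaurentSeries (kA A)}
    (h : GaussRed (M₁ * q) A (nfEmb K₀ (M₁ * q) (x : ↥(modularFunctionFieldFullC ↥K₀ (M₁ * q)))) w) :
    ((ribmpRedF hq hqM hA hπ ιC hRedF x : ↥(modularFunctionFieldFullC (kA A) M₁)) :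
      LaurentSeries (kA A)) = w := by
  rw [ribmpRedF_coe]
  exact ribmpRedK_eq hπ (M₁ * q) h

/-- `ρ x` is the `GaussRed` reduction of `x` -/
theorem tresmfr_spec (x : ↥(mgvV hπ ιC hq hqM true)) :
    GaussRed (M₁ * q) A (nfEmb K₀ (M₁ * q) (x : ↥(modularFunctionFieldFullC ↥K₀ (M₁ * q))))
      ((ribmpRedF hq hqM hA hπ ιC hRedF x : ↥(modularFunctionFieldFullC (kA A) M₁)) :
        LaurentSeries (kA A)) := by
  rw [ribmpRedF_coe]
  exact ribmpRedK_spec hπ (M₁ * q) _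

/-- **`ρ (j) = j̄`** -/
theorem tresmfr_j :
    ribmpRedF hq hqM hA hπ ιC hRedF ⟨bgJ ↥K₀ (M₁ * q), mgv_T_mem hπ ιC hq hqM true⟩ =
      ⟨jqModC (kA A), jqModC_mem_full (kA A) M₁⟩ := by
  apply Subtype.ext
  apply tresmfr_coe_eq
  show GaussRed (M₁ * q) A (nfEmb K₀ (M₁ * q) (bgJ ↥K₀ (M₁ * q))) (jqModC (kA A))
  rw [bgRam_nfEmb_bgJ]
  exact Fermat.Agent.S15.LN.pkg_gaussRed_j (M₁ * q) A

/-- **`ρ (Ogg) = uInvS`** -/
theorem tresmfr_ogg (hV : s36tuV ↥K₀ ιC ∈ mgvV hπ ιC hq hqM true) :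
    ((ribmpRedF hq hqM hA hπ ιC hRedF ⟨s36tuV ↥K₀ ιC, hV⟩ :
      ↥(modularFunctionFieldFullC (kA A) M₁)) : LaurentSeries (kA A)) = uInvS (kA A) q := by
  apply tresmfr_coe_eq
  exact tres5o_gaussRed_uInvS ιC

/-- **`R38Red` of a unit of `V_∞`** -/
theorem tresmfr_r38Red (y : ↥(modularFunctionFieldFullC ↥K₀ (M₁ * q)))
    (hy : (mgvV hπ ιC hq hqM true).valuation y = 1) :
    R38Red A ((nfEmb K₀ (M₁ * q) y : modularFunctionFieldBar (M₁ * q)) : LaurentSeries Qb)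
      ((ribmpRedF hq hqM hA hπ ιC hRedF ⟨y, tresdn_mem _ hy⟩ :
        ↥(modularFunctionFieldFullC (kA A) M₁)) : LaurentSeries (kA A)) := by
  refine tresgeo_red_of_gaussRed (tresmfr_spec hq hqM hA hπ ιC hRedF ⟨y, tresdn_mem _ hy⟩) ?_
  rw [ribmpRedF_coe]
  exact ribmpRedK_ne_zero hπ (M₁ * q) _ hy

/-- **the reduction does not depend on the level**: `M₁ q → M₁ d q` -/
theorem tresmfr_up {d : ℕ} [NeZero (M₁ * d)] [NeZero (M₁ * d * q)] (hqMd : ¬ q ∣ M₁ * d)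
    (hRedF' : StmtRedF (M₁ * d) A) (y₀ : ↥(modularFunctionFieldFullC ↥K₀ (M₁ * q)))
    (hy₀ : (mgvV hπ ιC hq hqM true).valuation y₀ = 1)
    (hy : (mgvV hπ ιC hq hqMd true).valuation (ribmpFlUp ↥K₀ M₁ d q y₀) = 1) :
    ((ribmpRedF hq hqMd hA hπ ιC hRedF' ⟨ribmpFlUp ↥K₀ M₁ d q y₀, tresdn_mem _ hy⟩ :
        ↥(modularFunctionFieldFullC (kA A) (M₁ * d))) : LaurentSeries (kA A)) =
      ((ribmpRedF hq hqM hA hπ ιC hRedF ⟨y₀, tresdn_mem _ hy₀⟩ :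
        ↥(modularFunctionFieldFullC (kA A) M₁)) : LaurentSeries (kA A)) := by
  apply tresmfr_coe_eq
  refine tresmfr_gaussRed_up d ?_ (tresmfr_spec hq hqM hA hπ ιC hRedF ⟨y₀, tresdn_mem _ hy₀⟩)
  show ((nfEmb K₀ (M₁ * d * q) (ribmpFlUp ↥K₀ M₁ d q y₀) : FF (M₁ * d * q)) : LaurentSeries Qb) =
    ((nfEmb K₀ (M₁ * q) y₀ : FF (M₁ * q)) : LaurentSeries Qb)
  rw [nfEmb_coe, nfEmb_coe, ribmpFlUp_coe]

end Main

end Fermat.Agent.R38

end


end ZBRIB_002_5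

/-! ### bundled: `Fermat.Agent.R38.TresMonoOgg` -/
section ZBRIB_002_6
/-
Row 38, TRES, piece FAC-ASM-MAIN, half (A′) (helper91, for helper89 / helper26 / helper47):
THE OGG INSTANCE on `X` in the frame of `RIB/MP/RedA.lean`.

`h := S36.s36tuV ↥K₀ ιC` (the Ogg unit `Δ(Q)/Δ(Q^q)` of level `M₁ q` over `K₀`),
`V_∞ = mgvV … true`, `ρ = ribmpRedF : V_∞ →+* F_{M₁}(k)`, `h̄ := Δ̄ · (Δ̄⁻¹)^q`.

* `tresmonog_hecke_uInvS` : `T_ℓ (u⁻¹) = (u⁻¹)^(ℓ+1)` for `u⁻¹ = Δ(Q)/Δ(Q^q)`, `ℓ ∤ q` (any field);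
* `tresmonog_hecke`       : the `hhecke` clause of `tresmono_frame` for `h̄` (`char k = q`);
* `tresmonog_hb_mem`      : `h̄ ∈ F_M(k)` for every `M` (`k = kA A`);
* `tresmonog_hb_ne_zero`  : `h̄ ≠ 0`;
* `tresmonog_red_coe`, **`tresmonog_red`** : `ρ h = h̄`   (the `hρh` of `tresmono_frame`);
* `tresmonog_hecke_kA`    : `hhecke` for `k = kA A`.
-/

set_option autoImplicit false
set_option linter.unusedSectionVars false
set_option linter.unusedVariables false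
set_option linter.style.haveILetI false
set_option linter.style.longLine false
set_option synthInstance.maxHeartbeats 400000
set_option maxHeartbeats 1600000

noncomputable section

namespace Fermat.Agent.R38

open ModularCurve AlgebraicCurve Fermat.Agent.ES Fermat.Agent.ES.G2 Fermat.Agent.INJ
  Fermat.Agent.UNIP Fermat.Agent.STB Fermat.Agent.ES.M Fermat.Agent.DEU Fermat.Agent.S36
  Fermat.Agent.S24 Fermat.Agent.S28 Fermat.Agent.RIB.MP

section Hecke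

variable (k : Type*) [Field k] (q : ℕ) [NeZero q]

/-- `T_ℓ` on the inverse Ogg unit `Δ(Q)/Δ(Q^q)`, `ℓ ∤ q` -/
theorem tresmonog_hecke_uInvS (ℓ : ℕ) [NeZero ℓ] (hℓ : ℓ.Prime) (hℓq : ¬ ℓ ∣ q) (ζ : kˣ)
    (hζ : IsPrimitiveRoot ζ ℓ) :
    kronHecke ℓ ζ (uInvS k q) = uInvS k q ^ (ℓ + 1) := by
  rw [uInvS_eq_inv, tres4o_kronHecke_inv ℓ ζ hζ (uS_ne_zero (k := k) (p := q)),
    tres4o_kronHecke_uS_eq ℓ ζ q hℓ hℓq hζ, inv_pow]

variable [Fact q.Prime] [CharP k q]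

/-- **the Hecke clause for `h̄ = Δ̄ (Δ̄⁻¹)^q`** (shape of `hhecke` in `tresmono_frame`) -/
theorem tresmonog_hecke :
    ∀ (ℓ : ℕ) [NeZero ℓ], ℓ.Prime → ℓ ≠ q → ∀ ζ : kˣ, IsPrimitiveRoot ζ ℓ →
      ∃ c : k, c ≠ 0 ∧ kronHecke ℓ ζ (deltaS k * deltaInvS k ^ q) =
        HahnSeries.C c * (deltaS k * deltaInvS k ^ q) ^ (ℓ + 1) := by
  intro ℓ _ hℓ hℓq ζ hζ
  have hq : q.Prime := Fact.out
  have hndvd : ¬ ℓ ∣ q := fun h => hℓq ((Nat.prime_dvd_prime_iff_eq hℓ hq).1 h)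
  refine ⟨1, one_ne_zero, ?_⟩
  rw [← tres5o_uInvS_eq q k, tresmonog_hecke_uInvS k q ℓ hℓ hndvd ζ hζ, map_one, one_mul]

end Hecke

section Main

variable {M₁ q : ℕ} [NeZero M₁] [NeZero q] [NeZero (M₁ * q)] (hq : q.Prime) (hqM : ¬ q ∣ M₁)
  {A : ValuationSubring Qb} (hA : A.LiesOverPrime q) {K₀ : IntermediateField ℚ Qb}
  [IsDiscreteValuationRing ↥(beta0Ring A K₀)]
  {π : ↥(beta0Ring A K₀)} (hπ : Irreducible π) (ιC : ↥K₀ →+* ℂ)

include hq hA in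
/-- `h̄ ∈ F_M(k)` for every level `M` -/
theorem tresmonog_hb_mem (M : ℕ) :
    deltaS (kA A) * deltaInvS (kA A) ^ q ∈ modularFunctionFieldFullC (kA A) M := by
  haveI : Fact q.Prime := ⟨hq⟩
  haveI : CharP (kA A) q := Fermat.Agent.RED.charP_residueField A hq hA
  exact tres5o_red_mem q (kA A) M

/-- `h̄ ≠ 0` -/
theorem tresmonog_hb_ne_zero (k : Type*) [Field k] (q : ℕ) :
    deltaS k * deltaInvS k ^ q ≠ 0 :=
  mul_ne_zero (deltaS_ne_zero k) (pow_ne_zero _ (deltaInvS_ne_zero k))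

include hq hA in
/-- the Hecke clause for `h̄` over `k = kA A` (the `hhecke` of `tresmono_frame`, `p := q`) -/
theorem tresmonog_hecke_kA :
    ∀ (ℓ : ℕ) [NeZero ℓ], ℓ.Prime → ℓ ≠ q → ∀ ζ : (kA A)ˣ, IsPrimitiveRoot ζ ℓ →
      ∃ c : kA A, c ≠ 0 ∧ kronHecke ℓ ζ (deltaS (kA A) * deltaInvS (kA A) ^ q) =
        HahnSeries.C c * (deltaS (kA A) * deltaInvS (kA A) ^ q) ^ (ℓ + 1) := by
  haveI : Fact q.Prime := ⟨hq⟩
  haveI : CharP (kA A) q := Fermat.Agent.RED.charP_residueField A hq hA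
  exact tresmonog_hecke (kA A) q

include hA in
/-- **the reduction of the Ogg unit along `V_∞`** (as a Laurent series) -/
theorem tresmonog_red_coe (hRedF : StmtRedF M₁ A) :
    ((ribmpRedF hq hqM hA hπ ιC hRedF
        ⟨s36tuV ↥K₀ ιC, tresdn_mem _ (tres5o_val_true hπ ιC hq hqM hA)⟩ :
        ↥(modularFunctionFieldFullC (kA A) M₁)) : LaurentSeries (kA A)) =
      deltaS (kA A) * deltaInvS (kA A) ^ q := by
  rw [ribmpRedF_coe]
  exact ribmpRedK_eq hπ (M₁ * q) (tres5o_gaussRed ιC hq hA)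

include hA in
/-- **the reduction of the Ogg unit along `V_∞`**: `ρ h = h̄` in `F_{M₁}(k)` -/
theorem tresmonog_red (hRedF : StmtRedF M₁ A)
    (hmem : deltaS (kA A) * deltaInvS (kA A) ^ q ∈ modularFunctionFieldFullC (kA A) M₁) :
    ribmpRedF hq hqM hA hπ ιC hRedF
        ⟨s36tuV ↥K₀ ιC, tresdn_mem _ (tres5o_val_true hπ ιC hq hqM hA)⟩ =
      (⟨deltaS (kA A) * deltaInvS (kA A) ^ q, hmem⟩ :
        ↥(modularFunctionFieldFullC (kA A) M₁)) :=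
  Subtype.ext (tresmonog_red_coe hq hqM hA hπ ιC hRedF)

include hA in
/-- `ord_Q (ρ h) = ord_Q h̄` -/
theorem tresmonog_ord (hRedF : StmtRedF M₁ A)
    (hmem : deltaS (kA A) * deltaInvS (kA A) ^ q ∈ modularFunctionFieldFullC (kA A) M₁)
    (Q : Place (kA A) ↥(modularFunctionFieldFullC (kA A) M₁)) :
    Q.ord (ribmpRedF hq hqM hA hπ ιC hRedF
        ⟨s36tuV ↥K₀ ιC, tresdn_mem _ (tres5o_val_true hπ ιC hq hqM hA)⟩) =
      Q.ord (⟨deltaS (kA A) * deltaInvS (kA A) ^ q, hmem⟩ :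
        ↥(modularFunctionFieldFullC (kA A) M₁)) := by
  rw [tresmonog_red hq hqM hA hπ ιC hRedF hmem]

end Main

end Fermat.Agent.R38

end


end ZBRIB_002_6

/-! ### bundled: `Fermat.Agent.R38.TresMonoConc` -/
section ZBRIB_002_7

/-!
# Row 38, TRES, piece FAC-ASM-MAIN, half (A) (helper26; split of helper89): CONCRETE TR ON `X`

Twin of `RIB.MP.ribmp_red_a_over` (`RIB/MP/RedA.lean`, helper91 / helper85) with helper89's
`tresmono_cov_abs` (`R38/TresMono.lean`) in place of `ribmp_rd_dvd_ord`.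

Frame of RedA: `N = M₁ q`, `A ⊂ ℚ̄` over `q`, `K₀ ⊂ ℚ̄` with `A ∩ K₀` a DVR (uniformizer `π`),
`F = F_N(K₀)`, `V = mgvV … true` the Gauss valuation ring, `ρ = ribmpRedF : V →+* F_{M₁}(k)` the
reduction map, `t = bgJ` the function `j`.

* `tresmonoc_red_j` : `ρ j = j̄`;
* `tresmonoc_main`  : per-point representatives `y_𝔫` of one residue `r` with local data
  `TresMonoPt` (closed points of the chart `j`) resp. `StbFacAt` (cusps) give the two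
  `ord`-clauses of `StmtFacMono` (`R38/PlanFac.lean`) for `r` and `ρ h`:
  `p ∣ e · ord_Q r − c · ord_Q (ρ h)` if `0 ≤ ord_Q j̄`, `p ∣ ord_Q r` if `ord_Q j̄ < 0`;
* `tresmonoc_main_one` : the same with ONE global `y` (the case without cover).
-/

set_option autoImplicit false
set_option linter.unusedSectionVars false
set_option linter.unusedVariables false
set_option linter.style.haveILetI false
set_option linter.style.longLine false
set_option synthInstance.maxHeartbeats 400000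
set_option maxHeartbeats 1600000

noncomputable section

namespace Fermat.Agent.R38

open ModularCurve AlgebraicCurve Fermat.Agent.ES Fermat.Agent.ES.G2 Fermat.Agent.INJ
  Fermat.Agent.UNIP Fermat.Agent.STB Fermat.Agent.ES.M Fermat.Agent.DEU Fermat.Agent.S36
  Fermat.Agent.S24 Fermat.Agent.RIB.MP

section Main

variable {M₁ q : ℕ} [NeZero M₁] [NeZero q] [NeZero (M₁ * q)] (hq : q.Prime) (hqM : ¬ q ∣ M₁)
  {A : ValuationSubring Qb} (hA : A.LiesOverPrime q) {K₀ : IntermediateField ℚ Qb}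
  [IsDiscreteValuationRing ↥(beta0Ring A K₀)]
  {π : ↥(beta0Ring A K₀)} (hπ : Irreducible π) (ιC : ↥K₀ →+* ℂ)

include hA in
/-- **the reduction of `j` is `j̄`** -/
theorem tresmonoc_red_j (hRedF : StmtRedF M₁ A) :
    ribmpRedF hq hqM hA hπ ιC hRedF ⟨bgJ ↥K₀ (M₁ * q), mgv_T_mem hπ ιC hq hqM true⟩ =
      (⟨jqModC (kA A), jqModC_mem_full (kA A) M₁⟩ :
        ↥(modularFunctionFieldFullC (kA A) M₁)) := by
  apply Subtype.ext
  rw [ribmpRedF_coe]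
  apply ribmpRedK_eq
  have h1 : nfEmb K₀ (M₁ * q) (bgJ ↥K₀ (M₁ * q)) = jF (M₁ * q) := bgRam_nfEmb_bgJ K₀ (M₁ * q)
  have h2 : GaussRed (M₁ * q) A (jF (M₁ * q)) (jqModC (kA A)) :=
    deuGood_gaussRed_jF (M₁ * q) A
  rw [← h1] at h2
  exact h2

theorem tresmonoc_j_ne_zero :
    (⟨jqModC (kA A), jqModC_mem_full (kA A) M₁⟩ :
        ↥(modularFunctionFieldFullC (kA A) M₁)) ≠ 0 := by
  intro h
  have h1 : (jqModC (kA A)).coeff (-1 : ℤ) = 1 := coeff_jqModC_neg_one (kA A)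
  have h3 : jqModC (kA A) = 0 := congrArg Subtype.val h
  rw [h3, HahnSeries.coeff_zero] at h1
  exact zero_ne_one h1

include hA in
/-- **(A), concrete TR on `X`.** -/
theorem tresmonoc_main (hRedF : StmtRedF M₁ A)
    (hfin : ∀ Q : Place (kA A) ↥(modularFunctionFieldFullC (kA A) M₁),
      ∀ x ∈ Q.toValuationSubring, x ∉ Q.toValuationSubring.nonunits →
        ∃ n : ℕ, 0 < n ∧ x ^ n - 1 ∈ Q.toValuationSubring.nonunits)
    {p : ℕ} (hp : 0 < p) (h : ↥(modularFunctionFieldFullC ↥K₀ (M₁ * q)))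
    (hh : (mgvV hπ ιC hq hqM true).valuation h = 1) (c e : ℤ)
    (r : ↥(modularFunctionFieldFullC (kA A) M₁))
    (hfinpt : ∀ 𝔫 : AtPt (F := ↥(modularFunctionFieldFullC ↥K₀ (M₁ * q))) π (bgJ ↥K₀ (M₁ * q)),
      (∀ x ∈ atLoc 𝔫, x ∈ mgvV hπ ιC hq hqM true) →
      ∃ (y : ↥(modularFunctionFieldFullC ↥K₀ (M₁ * q)))
        (hy : (mgvV hπ ιC hq hqM true).valuation y = 1),
        ribmpRedF hq hqM hA hπ ιC hRedF ⟨y, tresdn_mem _ hy⟩ = r ∧
          TresMonoPt (mgvV hπ ιC hq hqM true) (atLoc 𝔫) p c e y h)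
    (hcusp : ∀ 𝔫 : AtPt (F := ↥(modularFunctionFieldFullC ↥K₀ (M₁ * q))) π
        (bgJ ↥K₀ (M₁ * q))⁻¹,
      (∀ x ∈ atLoc 𝔫, x ∈ mgvV hπ ιC hq hqM true) →
      (∀ b : ↥(zchClosure (A₀ := ↥(beta0Ring A K₀))
          ({(bgJ ↥K₀ (M₁ * q))⁻¹} : Set ↥(modularFunctionFieldFullC ↥K₀ (M₁ * q)))),
        (b : ↥(modularFunctionFieldFullC ↥K₀ (M₁ * q))) = (bgJ ↥K₀ (M₁ * q))⁻¹ → b ∈ 𝔫.1) →
      ∃ (y : ↥(modularFunctionFieldFullC ↥K₀ (M₁ * q)))
        (hy : (mgvV hπ ιC hq hqM true).valuation y = 1),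
        ribmpRedF hq hqM hA hπ ιC hRedF ⟨y, tresdn_mem _ hy⟩ = r ∧
          StbFacAt (atLoc 𝔫) p y) :
    ∀ Q : Place (kA A) ↥(modularFunctionFieldFullC (kA A) M₁),
      (0 ≤ Q.ord (⟨jqModC (kA A), jqModC_mem_full (kA A) M₁⟩ :
          ↥(modularFunctionFieldFullC (kA A) M₁)) →
        (p : ℤ) ∣ e * Q.ord r -
          c * Q.ord (ribmpRedF hq hqM hA hπ ιC hRedF ⟨h, tresdn_mem _ hh⟩)) ∧
      (Q.ord (⟨jqModC (kA A), jqModC_mem_full (kA A) M₁⟩ :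
          ↥(modularFunctionFieldFullC (kA A) M₁)) < 0 → (p : ℤ) ∣ Q.ord r) := by
  intro Q
  have hAV : ∀ a : ↥(beta0Ring A K₀),
      algebraMap ↥(beta0Ring A K₀) ↥(modularFunctionFieldFullC ↥K₀ (M₁ * q)) a ∈
        mgvV hπ ιC hq hqM true :=
    fun a => vtFam_const_mem (vtBase_residue hπ) ιC hq hqM true a
  have hker : ∀ x : ↥(mgvV hπ ιC hq hqM true),
      (x : ↥(modularFunctionFieldFullC ↥K₀ (M₁ * q))) ∈ (mgvV hπ ιC hq hqM true).nonunits →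
        ribmpRedF hq hqM hA hπ ιC hRedF x = 0 := fun x hx =>
    Subtype.ext (ribmpRedK_eq_zero_of_mem_nonunits hπ (M₁ * q) x hx)
  have hπ0 : ribmpRedF hq hqM hA hπ ιC hRedF ⟨_, hAV π⟩ = 0 :=
    hker _ (mgv_hπV hπ ιC hq hqM true)
  have hAQ : ∀ a : ↥(beta0Ring A K₀),
      ribmpRedF hq hqM hA hπ ιC hRedF ⟨_, hAV a⟩ ∈ Q.toValuationSubring := by
    intro a
    have h1 : ribmpRedF hq hqM hA hπ ιC hRedF ⟨_, hAV a⟩ =
        algebraMap (kA A) ↥(modularFunctionFieldFullC (kA A) M₁)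
          (IsLocalRing.residue A ⟨algebraMap ↥K₀ Qb (algebraMap ↥(beta0Ring A K₀) ↥K₀ a),
            stb_mgt_c1 A K₀ a⟩) := by
      apply Subtype.ext
      rw [ribmpRedF_coe]
      exact (ribmpRedK_const hπ (M₁ * q) a (hAV a)).trans (algebraMap_eq_hahnC _).symm
    rw [h1]
    exact Q.algebraMap_mem' _
  obtain ⟨h1, h2⟩ := tresmono_cov_abs (π := π) (t := bgJ ↥K₀ (M₁ * q))
    (mgvV hπ ιC hq hqM true) (ribmpRedF hq hqM hA hπ ιC hRedF) hker hAV hπ0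
    (mgv_T_valuation hπ ιC hq hqM true) hp hh c e r hfinpt hcusp Q hAQ (hfin Q)
  have hj : ribmpRedF hq hqM hA hπ ιC hRedF
      ⟨bgJ ↥K₀ (M₁ * q), tresdn_mem _ (mgv_T_valuation hπ ιC hq hqM true)⟩ =
      (⟨jqModC (kA A), jqModC_mem_full (kA A) M₁⟩ :
        ↥(modularFunctionFieldFullC (kA A) M₁)) :=
    tresmonoc_red_j hq hqM hA hπ ιC hRedF
  rw [hj] at h1 h2
  have hj0 := tresmonoc_j_ne_zero (M₁ := M₁) (A := A)
  refine ⟨fun hpos => h1 ((PlaceAux.ord_nonneg_iff Q hj0).1 hpos), fun hneg => h2 ?_⟩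
  intro hmem
  have := (PlaceAux.ord_nonneg_iff Q hj0).2 hmem
  omega

include hA in
/-- **(A), one global function** (the case without cover). -/
theorem tresmonoc_main_one (hRedF : StmtRedF M₁ A)
    (hfin : ∀ Q : Place (kA A) ↥(modularFunctionFieldFullC (kA A) M₁),
      ∀ x ∈ Q.toValuationSubring, x ∉ Q.toValuationSubring.nonunits →
        ∃ n : ℕ, 0 < n ∧ x ^ n - 1 ∈ Q.toValuationSubring.nonunits)
    {p : ℕ} (hp : 0 < p) (y h : ↥(modularFunctionFieldFullC ↥K₀ (M₁ * q)))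
    (hy : (mgvV hπ ιC hq hqM true).valuation y = 1)
    (hh : (mgvV hπ ιC hq hqM true).valuation h = 1) (c e : ℤ)
    (hfinpt : ∀ 𝔫 : AtPt (F := ↥(modularFunctionFieldFullC ↥K₀ (M₁ * q))) π (bgJ ↥K₀ (M₁ * q)),
      (∀ x ∈ atLoc 𝔫, x ∈ mgvV hπ ιC hq hqM true) →
        TresMonoPt (mgvV hπ ιC hq hqM true) (atLoc 𝔫) p c e y h)
    (hcusp : ∀ 𝔫 : AtPt (F := ↥(modularFunctionFieldFullC ↥K₀ (M₁ * q))) π
        (bgJ ↥K₀ (M₁ * q))⁻¹,
      (∀ x ∈ atLoc 𝔫, x ∈ mgvV hπ ιC hq hqM true) →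
      (∀ b : ↥(zchClosure (A₀ := ↥(beta0Ring A K₀))
          ({(bgJ ↥K₀ (M₁ * q))⁻¹} : Set ↥(modularFunctionFieldFullC ↥K₀ (M₁ * q)))),
        (b : ↥(modularFunctionFieldFullC ↥K₀ (M₁ * q))) = (bgJ ↥K₀ (M₁ * q))⁻¹ → b ∈ 𝔫.1) →
        StbFacAt (atLoc 𝔫) p y) :
    ∃ (ub : LaurentSeries (kA A)) (hubF : ub ∈ modularFunctionFieldFullC (kA A) M₁), ub ≠ 0 ∧
      GaussRed (M₁ * q) A (nfEmb K₀ (M₁ * q) y) ub ∧
      ∀ Q : Place (kA A) ↥(modularFunctionFieldFullC (kA A) M₁),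
        (0 ≤ Q.ord (⟨jqModC (kA A), jqModC_mem_full (kA A) M₁⟩ :
            ↥(modularFunctionFieldFullC (kA A) M₁)) →
          (p : ℤ) ∣ e * Q.ord (⟨ub, hubF⟩ : ↥(modularFunctionFieldFullC (kA A) M₁)) -
            c * Q.ord (ribmpRedF hq hqM hA hπ ιC hRedF ⟨h, tresdn_mem _ hh⟩)) ∧
        (Q.ord (⟨jqModC (kA A), jqModC_mem_full (kA A) M₁⟩ :
            ↥(modularFunctionFieldFullC (kA A) M₁)) < 0 →
          (p : ℤ) ∣ Q.ord (⟨ub, hubF⟩ : ↥(modularFunctionFieldFullC (kA A) M₁))) := by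
  have hyV : y ∈ mgvV hπ ιC hq hqM true := tresdn_mem _ hy
  refine ⟨ribmpRedK hπ (M₁ * q) ⟨y, hyV⟩, ribmpRedK_mem hq hqM hA hπ ιC hRedF ⟨y, hyV⟩,
    ribmpRedK_ne_zero hπ (M₁ * q) ⟨y, hyV⟩ hy, ribmpRedK_spec hπ (M₁ * q) ⟨y, hyV⟩, ?_⟩
  exact tresmonoc_main hq hqM hA hπ ιC hRedF hfin hp h hh c e
    (ribmpRedF hq hqM hA hπ ιC hRedF ⟨y, hyV⟩)
    (fun 𝔫 h𝔫 => ⟨y, hy, rfl, hfinpt 𝔫 h𝔫⟩)
    (fun 𝔫 h𝔫 hti => ⟨y, hy, rfl, hcusp 𝔫 h𝔫 hti⟩)

end Main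

end Fermat.Agent.R38

end


end ZBRIB_002_7

/-! ### bundled: `Fermat.Agent.RIB.MP.RedDictFin` -/
section ZBRIB_002_8
/-
Row 37, MP-RED / RED-a (ii), complement (helper85): the hypothesis `hfin` of `ribmp_rd_dvd_ord`
for a place with residue field `k` whose nonzero elements have finite order
(`k = kA A`, `W1.teich_residue_pow_eq_one`).

* `ribmp_rd_hfin`      : `hfin` from `Function.Surjective (algebraMap k Q.ResidueField)` and the
                         torsion property of `k`;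
* `ribmp_rd_dvd_ord_k` : `ribmp_rd_dvd_ord` with these two hypotheses instead of `hfin`.
-/

set_option autoImplicit false
set_option linter.unusedSectionVars false

noncomputable section

namespace Fermat.Agent.RIB.MP

open AlgebraicCurve Fermat.Agent.UNIP Fermat.Agent.STB Fermat.Agent.INJ

section Fin

variable {k L : Type*} [Field k] [Field L] [Algebra k L]

/-- the units of the valuation ring of a place with residue field `k` are torsion modulo the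
maximal ideal, if the nonzero elements of `k` have finite order -/
theorem ribmp_rd_hfin (Q : Place k L)
    (hres : Function.Surjective (algebraMap k Q.ResidueField))
    (hk : ∀ c : k, c ≠ 0 → ∃ n : ℕ, 0 < n ∧ c ^ n = 1) :
    ∀ x ∈ Q.toValuationSubring, x ∉ Q.toValuationSubring.nonunits →
      ∃ n : ℕ, 0 < n ∧ x ^ n - 1 ∈ Q.toValuationSubring.nonunits := by
  intro x hx hxu
  obtain ⟨c, hc⟩ := hres (IsLocalRing.residue ↥Q.toValuationSubring ⟨x, hx⟩)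
  have hc0 : c ≠ 0 := by
    rintro rfl
    rw [map_zero] at hc
    have h1 : (⟨x, hx⟩ : ↥Q.toValuationSubring) ∈
        IsLocalRing.maximalIdeal ↥Q.toValuationSubring :=
      (IsLocalRing.residue_eq_zero_iff _).mp hc.symm
    exact hxu ((ValuationSubring.coe_mem_nonunits_iff (A := Q.toValuationSubring)).mpr h1)
  obtain ⟨n, hn, hcn⟩ := hk c hc0
  refine ⟨n, hn, ?_⟩
  have h2 : IsLocalRing.residue ↥Q.toValuationSubring ((⟨x, hx⟩ : ↥Q.toValuationSubring) ^ n - 1)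
      = 0 := by
    rw [map_sub, map_pow, map_one, ← hc, ← map_pow, hcn, map_one, sub_self]
  have h3 := (IsLocalRing.residue_eq_zero_iff _).mp h2
  have h4 := (ValuationSubring.coe_mem_nonunits_iff (A := Q.toValuationSubring)).mpr h3
  simpa using h4

end Fin

section Main

variable {A₀ E F : Type*} [CommRing A₀] [IsDomain A₀] [IsDiscreteValuationRing A₀]
  [Field E] [Algebra A₀ E] [IsFractionRing A₀ E] [CharZero E]
  [Field F] [Algebra E F] [Algebra A₀ F] [IsScalarTower A₀ E F]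
  {k L : Type*} [Field k] [Field L] [Algebra k L]

/-- `ribmp_rd_dvd_ord` for a place with residue field `k`, `k` with torsion units. -/
theorem ribmp_rd_dvd_ord_k {π : A₀} {t : F} (V : ValuationSubring F) (ρ : ↥V →+* L)
    (hker : ∀ x : ↥V, (x : F) ∈ V.nonunits → ρ x = 0)
    (hAV : ∀ a : A₀, algebraMap A₀ F a ∈ V)
    (hπ : ρ ⟨algebraMap A₀ F π, hAV π⟩ = 0)
    (ht : V.valuation t = 1)
    (Q : Place k L)
    (hAQ : ∀ a : A₀, ρ ⟨algebraMap A₀ F a, hAV a⟩ ∈ Q.toValuationSubring)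
    (hres : Function.Surjective (algebraMap k Q.ResidueField))
    (hk : ∀ c : k, c ≠ 0 → ∃ n : ℕ, 0 < n ∧ c ^ n = 1)
    {m : ℕ} (hm : 0 < m) {y : F} (hy : V.valuation y = 1)
    (hF : ∀ i : AtPt (F := F) π t ⊕ AtPt (F := F) π t⁻¹, StbFacAt (atO π t i) m y) :
    (m : ℤ) ∣ Q.ord (ρ ⟨y, (V.valuation_le_one_iff y).mp hy.le⟩) :=
  ribmp_rd_dvd_ord V ρ hker hAV hπ ht Q hAQ (ribmp_rd_hfin Q hres hk) hm hy hF

end Main

end Fermat.Agent.RIB.MP

end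
end ZBRIB_002_8

/-! ### bundled: `Fermat.Agent.RIB.MP.RedFinal` -/
section ZBRIB_002_9
/-
Row 37, MP-RED / RED-c "ASSEMBLY" (helper85; RED-a = helper91's `ribmp_red_a`, RED-b =
`RedLiftRed.lean`).

    ribmp_rf_main : StmtRedA → StmtFac → StmtRedE

`StmtRedA` is the exact statement of helper91's deliverable `ribmp_red_a` (`RIB/MP/RedA.lean`):
a unit `y₀` of `V_∞` in `F_N(E₀)` with a local factorisation `y₀ = ε γ ^ m` at every closed point
of the special fibre of the two `j`-charts has a Gauss reduction `ū ∈ F_{M₁}(k)` all of whose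
orders are divisible by `m`.

The assembly: for an inertia-fixed `x ∈ J₀(M₁ q)[p]` and a prime `ℓ ∤ M₁ q p`,
 1. MP-DESC  : a Kummer function `u₀ ∈ F_N(E₀)` of `x`;
 2. MP-VH    : `y₀ = T_ℓ u₀ / u₀ ^ (ℓ + 1) ∈ F_N(E₀)`, a Kummer function of `eisKill ℓ x`, a unit at
               `V_∞` and at `V_0`;  the same for `w_q y₀` (`w_q` commutes with `u ↦ T_ℓ u / u^(ℓ+1)`);
 3. MP-FAC   : (F) for `y₀` and for `w_q y₀`;
 4. the reduction package of `X₀(M₁)` at `A` (`S15.s15red_exists_pkg`, hypothesis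
    `5 ≤ q ∨ (5 - q) ∣ M₁`), `hfin` from its clause `nice_k.hres`;
 5. RED-a, then RED-b (`ribmp_rl_redInf`, `ribmp_rl_redZero`).
-/

set_option autoImplicit false
set_option linter.unusedSectionVars false
set_option linter.unusedVariables false
set_option linter.style.longLine false
set_option linter.style.haveILetI false
set_option synthInstance.maxHeartbeats 400000
set_option maxHeartbeats 1600000

noncomputable section

namespace Fermat.Agent.RIB.MP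

open ModularCurve AlgebraicCurve Fermat.Agent.INJ Fermat.Agent.UNIP Fermat.Agent.STB
open Fermat.Agent.ES Fermat.Agent.ES.G2 Fermat.Agent.ES.M Fermat.Agent.S15 Fermat.Agent.W1
open Fermat.Agent.S24 Fermat.Agent.DEU

/-- **RED-a** (helper91's `ribmp_red_a`, as a `Prop`). -/
def StmtRedA : Prop :=
  ∀ (M₁ q : ℕ) [NeZero M₁] [NeZero q] [NeZero (M₁ * q)] (hq : q.Prime) (hqM : ¬ q ∣ M₁)
    (A : ValuationSubring Qb) (hA : A.LiesOverPrime q)
    [IsDiscreteValuationRing ↥(beta0Ring A (beta0Field A))]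
    (π : ↥(beta0Ring A (beta0Field A))) (hπ : Irreducible π) (ιC : ↥(beta0Field A) →+* ℂ)
    (hRedF : ES.M.StmtRedF M₁ A)
    (hfin : ∀ Q : Place (kA A) ↥(modularFunctionFieldFullC (kA A) M₁),
      ∀ x ∈ Q.toValuationSubring, x ∉ Q.toValuationSubring.nonunits →
        ∃ n : ℕ, 0 < n ∧ x ^ n - 1 ∈ Q.toValuationSubring.nonunits)
    (m : ℕ) (hm : 0 < m) (y₀ : ↥(modularFunctionFieldFullC ↥(beta0Field A) (M₁ * q)))
    (hy : (mgvV hπ ιC hq hqM true).valuation y₀ = 1)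
    (hF : ∀ i : AtPt (F := ↥(modularFunctionFieldFullC ↥(beta0Field A) (M₁ * q))) π
          (bgJ ↥(beta0Field A) (M₁ * q)) ⊕
        AtPt (F := ↥(modularFunctionFieldFullC ↥(beta0Field A) (M₁ * q))) π
          (bgJ ↥(beta0Field A) (M₁ * q))⁻¹,
      StbFacAt (atO π (bgJ ↥(beta0Field A) (M₁ * q)) i) m y₀),
    ∃ (ub : LaurentSeries (kA A)) (hubF : ub ∈ modularFunctionFieldFullC (kA A) M₁), ub ≠ 0 ∧
      ES.M.GaussRed (M₁ * q) A (nfEmb (beta0Field A) (M₁ * q) y₀) ub ∧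
      ∀ Q : Place (kA A) ↥(modularFunctionFieldFullC (kA A) M₁),
        (m : ℤ) ∣ Q.ord (⟨ub, hubF⟩ : ↥(modularFunctionFieldFullC (kA A) M₁))

/-- a prime `p ≥ 5` is prime to `6` -/
theorem ribmp_rf_coprime_six {p : ℕ} (hp : p.Prime) (hp5 : 5 ≤ p) : Nat.Coprime p 6 := by
  rw [Nat.Prime.coprime_iff_not_dvd hp]
  intro h
  have hle : p ≤ 6 := Nat.le_of_dvd (by norm_num) h
  interval_cases p
  · omega
  · exact absurd hp (by decide)

/-- the orders of a Kummer function are divisible by the exponent -/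
theorem ribmp_rf_dvd_ord {N : ℕ} [NeZero N] {m : ℕ} {x : JZero N}
    {u : modularFunctionFieldBar N} (h : KummerRel m x u)
    (P : Place Qb (modularFunctionFieldBar N)) : (m : ℤ) ∣ P.ord u := by
  obtain ⟨D, -, -, hD⟩ := h
  exact Dvd.intro _ (hD P)

section Half

variable {M₁ q : ℕ} [NeZero M₁] [NeZero q] [NeZero (M₁ * q)] {A : ValuationSubring Qb}
  {hq : q.Prime} {hA : A.LiesOverPrime q} {hRedF : StmtRedF M₁ A}
  {r : Place Kb (FF M₁) → Place (kA A) ↥(modularFunctionFieldFullC (kA A) M₁)}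
  {sp : JZero M₁ →+ JZeroC (kA A) M₁} {Pinf : Place Kb (FF M₁)}
  {Qinf : Place (kA A) ↥(modularFunctionFieldFullC (kA A) M₁)}

/-- `hfin` from the reduction package -/
theorem ribmp_rf_hfin (h : ModPRG M₁ A hq hA hRedF r sp Pinf Qinf)
    (Q : Place (kA A) ↥(modularFunctionFieldFullC (kA A) M₁)) :
    ∀ x ∈ Q.toValuationSubring, x ∉ Q.toValuationSubring.nonunits →
      ∃ n : ℕ, 0 < n ∧ x ^ n - 1 ∈ Q.toValuationSubring.nonunits :=
  ribmp_rd_hfin Q (h.modPR.nice_k.hres Q).surjective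
    (fun c hc => teich_residue_pow_eq_one hq hA c hc)

/-- **One half**: a Kummer function `nfEmb y₀` (`y₀ ∈ F_N(E₀)` a unit at `V_∞` and `V_0`) of a
class `x'` of level `M₁ q` has a Gauss reduction in `F_{M₁}(k)` with all orders divisible by
`m`. -/
theorem ribmp_rf_half (hRedA : StmtRedA) (hFac : StmtFac) (hqM : ¬ q ∣ M₁) (hq2 : q ≠ 2)
    (h : ModPRG M₁ A hq hA hRedF r sp Pinf Qinf) {m : ℕ} (hm0 : 0 < m) (hm6 : Nat.Coprime m 6)
    [IsDiscreteValuationRing ↥(beta0Ring A (beta0Field A))]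
    {π : ↥(beta0Ring A (beta0Field A))} (hπ : Irreducible π) (ιC : ↥(beta0Field A) →+* ℂ)
    {x' : JZero (M₁ * q)} (y₀ : ↥(modularFunctionFieldFullC ↥(beta0Field A) (M₁ * q)))
    (hy0 : y₀ ≠ 0) (hK : KummerRel m x' (nfEmb (beta0Field A) (M₁ * q) y₀))
    (hval : ∀ c : Bool, (mgvV hπ ιC hq hqM c).valuation y₀ = 1) :
    ∃ (ub : LaurentSeries (kA A)) (hubF : ub ∈ modularFunctionFieldFullC (kA A) M₁), ub ≠ 0 ∧
      ES.M.GaussRed (M₁ * q) A (nfEmb (beta0Field A) (M₁ * q) y₀) ub ∧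
      ∀ Q : Place (kA A) ↥(modularFunctionFieldFullC (kA A) M₁),
        (m : ℤ) ∣ Q.ord (⟨ub, hubF⟩ : ↥(modularFunctionFieldFullC (kA A) M₁)) := by
  have hF := hFac M₁ q hq hqM hq2 m hm6 A hA hq hqM π hπ ιC y₀ hy0
    (fun P => ribmp_rf_dvd_ord hK P) hval
  exact hRedA M₁ q hq hqM A hA π hπ ιC hRedF (fun Q => ribmp_rf_hfin h Q) m hm0 y₀
    (hval true) hF

end Half

/-- **RED-c, general exponent** `m` prime to `6 q`: for an inertia-fixed `x ∈ J₀(M₁ q)[m]` the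
reductions of `T_ℓ x − (ℓ + 1) x` at `v_∞` and at `v_0` are reductions of classes of
`J₀(M₁)[m]`. -/
theorem ribmp_rf_gen (hRedA : StmtRedA) (hFac : StmtFac)
    (M₁ q : ℕ) [NeZero M₁] [NeZero q] [NeZero (M₁ * q)] (hq : q.Prime) (hqM : ¬ q ∣ M₁)
    (hE : 5 ≤ q ∨ (5 - q) ∣ M₁) (hq2 : q ≠ 2) (m : ℕ) (hm0 : 0 < m) (hm6 : Nat.Coprime m 6)
    (hqm : ¬ q ∣ m) (A : ValuationSubring Qb) (hA : A.LiesOverPrime q)
    (x : JZero (M₁ * q)) (hx : m • x = 0) (hI : InertiaFixed A x)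
    (ℓ : Nat.Primes) (hℓM : ¬ (ℓ : ℕ) ∣ M₁ * q) :
    (∃ y : JZero M₁, m • y = 0 ∧ RedInf A m (eisKill ℓ x) y) ∧
    (∃ y : JZero M₁, m • y = 0 ∧ RedZero hq hqM A m (eisKill ℓ x) y) := by
  haveI : IsDiscreteValuationRing ↥(beta0Ring A (beta0Field A)) := beta0Ring_isDVR_base hq hA
  have hπ := beta0Ring_irreducible_q (A := A) hq hA
  set ιC : ↥(beta0Field A) →+* ℂ := mgdIota (beta0Field A) with hιC
  haveI : NeZero (ℓ : ℕ) := ⟨ℓ.2.ne_zero⟩
  -- 1. descent of a Kummer function to the inertia field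
  obtain ⟨u₀, hu₀, hxu⟩ := ribmp_desc hq hA hm0.ne' hx hI
  -- 2. the Eisenstein-killed Kummer function and its `w`-twin
  obtain ⟨y₀, hy0, hy₀, hval⟩ := ribmp_vh_main hq hqM hA hπ ιC (ℓ : ℕ) ℓ.2 hℓM u₀ hu₀
  have hK : KummerRel m (eisKill ℓ x) (nfEmb (beta0Field A) (M₁ * q) y₀) := by
    rw [hy₀]
    exact ribmp_vh_kummerRel ℓ hxu
  set y₁ : ↥(modularFunctionFieldFullC ↥(beta0Field A) (M₁ * q)) :=
    Fermat.Agent.AL.atkinLehner ↥(beta0Field A) ιC hq hqM y₀ with hy₁def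
  have hy₁ : nfEmb (beta0Field A) (M₁ * q) y₁ =
      atkinLehnerBar hq hqM (nfEmb (beta0Field A) (M₁ * q) y₀) :=
    (stb_mgt_atkinLehnerBar_nfEmb' ιC hq hqM y₀).symm
  have hu : nfEmb (beta0Field A) (M₁ * q) u₀ ≠ 0 := (map_ne_zero _).2 hu₀
  have hy₁E : nfEmb (beta0Field A) (M₁ * q) y₁ =
      ribmpEisFun (M₁ * q) (ℓ : ℕ) (atkinLehnerBar hq hqM (nfEmb (beta0Field A) (M₁ * q) u₀)) := by
    rw [hy₁, hy₀, ribmp_vh_atkinLehnerBar_eisFun hq hqM (ℓ : ℕ) ℓ.2 hℓM]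
  have hval₁ : ∀ c : Bool, (mgvV hπ ιC hq hqM c).valuation y₁ = 1 := fun c =>
    ribmp_vh_valuation hπ ιC hq hqM hA (ℓ : ℕ) ℓ.2 hℓM _ ((map_ne_zero _).2 hu) y₁ hy₁E c
  have hK₁ : KummerRel m (atkinLehnerBar hq hqM • eisKill ℓ x)
      (nfEmb (beta0Field A) (M₁ * q) y₁) := by
    rw [hy₁]
    exact ribmp_w_kummerRel hq hqM hK
  have hy10 : y₁ ≠ 0 := by
    intro h0
    apply hK₁.ne_zero
    rw [h0, map_zero]
  -- 4. the reduction package
  obtain ⟨r, sp, Pinf, Qinf, h⟩ := s15red_exists_pkg M₁ q hq hqM hE A hA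
  -- 5. the two halves
  obtain ⟨ub, hubF, hub, hred, hdvd⟩ :=
    ribmp_rf_half hRedA hFac hqM hq2 h hm0 hm6 hπ ιC y₀ hy0 hK hval
  obtain ⟨ub₁, hubF₁, hub₁, hred₁, hdvd₁⟩ :=
    ribmp_rf_half hRedA hFac hqM hq2 h hm0 hm6 hπ ιC y₁ hy10 hK₁ hval₁
  rw [hy₁] at hred₁
  exact ⟨ribmp_rl_redInf h hqm hK hubF hub hred hdvd,
    ribmp_rl_redZero hqM h hqm hK hubF₁ hub₁ hred₁ hdvd₁⟩

/-- **RED-c at the exponent `p ^ r`** (`RT.K8.StmtRedPow`, helper21's request). -/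
theorem ribmp_red_powE (hRedA : StmtRedA) (hFac : StmtFac)
    (M₁ q : ℕ) [NeZero M₁] [NeZero q] [NeZero (M₁ * q)] (hq : q.Prime) (hqM : ¬ q ∣ M₁)
    (hE : 5 ≤ q ∨ (5 - q) ∣ M₁) (hq2 : q ≠ 2) (p : ℕ) (hp : p.Prime) (hp5 : 5 ≤ p) (hpq : p ≠ q)
    (r : ℕ) (A : ValuationSubring Qb) (hA : A.LiesOverPrime q) (x : JZero (M₁ * q))
    (hx : p ^ r • x = 0) (hI : InertiaFixed A x)
    (ℓ : Nat.Primes) (hℓ : ¬ (ℓ : ℕ) ∣ M₁ * q * p) :
    (∃ y : JZero M₁, p ^ r • y = 0 ∧ RedInf A (p ^ r) (eisKill ℓ x) y) ∧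
    (∃ y : JZero M₁, p ^ r • y = 0 ∧ RedZero hq hqM A (p ^ r) (eisKill ℓ x) y) := by
  have hℓM : ¬ (ℓ : ℕ) ∣ M₁ * q := fun hd => hℓ (Dvd.dvd.mul_right hd p)
  have hqp : ¬ q ∣ p ^ r := fun hd =>
    hpq ((Nat.prime_dvd_prime_iff_eq hq hp).mp (hq.dvd_of_dvd_pow hd)).symm
  exact ribmp_rf_gen hRedA hFac M₁ q hq hqM hE hq2 (p ^ r) (pow_pos hp.pos r)
    (Nat.Coprime.pow_left r (ribmp_rf_coprime_six hp hp5)) hqp A hA x hx hI ℓ hℓM

/-- **RED-c, the assembly**: `StmtRedE` from RED-a and MP-FAC. -/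
theorem ribmp_rf_main (hRedA : StmtRedA) (hFac : StmtFac) : StmtRedE := by
  intro M₁ q _ _ _ hq hqM h5 hq2 p hp hp5 hpq A hA x hx hI ℓ hℓ
  have h := ribmp_red_powE hRedA hFac M₁ q hq hqM h5 hq2 p hp hp5 hpq 1 A hA x
    (by rwa [pow_one]) hI ℓ hℓ
  simpa only [pow_one] using h

end Fermat.Agent.RIB.MP

end
end ZBRIB_002_9

/-! ### bundled: `Fermat.Agent.R38.TresMonoI5` -/
section ZBRIB_002_10

/-!
# Row 38, PKG-TRES, FAC-MONO, input (I5) of `tresmono_frame`  (helper42)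

`A ⊂ ℚ̄` over `p`, `p ∤ M`, `k = kA A`.  The Gauss reduction (at `v_∞`) of `F_{Mp}(ℚ̄)` has values
in `F̄_M = modularFunctionFieldFullC k M` (the `∞`-component of the reduction of `X₀(M p)` is
`X₀(M)_k`; residue degree `f = 1`, `RIB.MP.ribmp_red_res`).

* `tresmi5_redF`  : `StmtRedF` at level `M p` with values in `F̄_M`:
                    `Y ∈ A((q))`, `kronIncl Y ∈ F_{Mp}(ℚ̄)` ⇒ `kronRed Y ∈ F̄_M`;
* `tresmi5_gaussRed_mem` : `GaussRed (M p) A x w ⇒ w ∈ F̄_M`;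
* `tresmi5_main`  : **(I5)** every `u ≠ 0` of `F_{Mp}(ℚ̄)` has a Gauss reduction `r ∈ F̄_M`,
                    `R38Red A u r`;
* `tresmi5_mem`   : every Gauss reduction of `u ∈ F_{Mp}(ℚ̄)` lies in `F̄_M`.

Proof of `tresmi5_redF`: `y = kronIncl Y` is defined over `K₂ = ℚ̄^I · K₁` (`K₁` a Galois number
field), `A ∩ K₂` is a DVR, `y₂ ∈ V_∞(K₂)`, and `ribmpRedK_mem` (= the two-valuation theorem).
-/

set_option autoImplicit false
set_option linter.unusedSectionVars false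
set_option linter.unusedVariables false
set_option linter.style.haveILetI false
set_option linter.style.longLine false
set_option synthInstance.maxHeartbeats 400000
set_option maxHeartbeats 1600000

noncomputable section

namespace Fermat.Agent.R38

open ModularCurve AlgebraicCurve Fermat.Agent.ES Fermat.Agent.ES.G2 Fermat.Agent.INJ
  Fermat.Agent.UNIP Fermat.Agent.STB Fermat.Agent.ES.M Fermat.Agent.DEU Fermat.Agent.S24
  Fermat.Agent.RIB.MP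

variable {M p : ℕ} [NeZero M] [NeZero p] [NeZero (M * p)] {A : ValuationSubring Qb}

/-- **`StmtRedF` at level `M p`, with values in `F̄_M`.** -/
theorem tresmi5_redF (hp : p.Prime) (hpM : ¬ p ∣ M) (hA : A.LiesOverPrime p)
    (Y : LaurentSeries A) (hY : kronIncl A Y ∈ modularFunctionFieldBar (M * p)) :
    kronRed A Y ∈ modularFunctionFieldFullC (kA A) M := by
  classical
  -- a field of definition with a discrete valuation
  obtain ⟨K', hK'fin, -, hK'⟩ := mg_exists_descent (N := M * p) ∅ hY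
  obtain ⟨K₁, hK'K₁, hK₁fin, hK₁gal, -⟩ := rat_exists_stable_finset (N := M * p) ∅ K' hK'fin
  haveI : NumberField K₁ := @NumberField.mk _ _ inferInstance hK₁fin
  haveI : IsGalois ℚ K₁ := hK₁gal
  haveI hdvr : IsDiscreteValuationRing ↥(beta0Ring A (beta0Field A ⊔ K₁)) :=
    beta0Ring_isDVR_sup K₁ hp hA
  obtain ⟨y₂, hy₂⟩ := hK' (beta0Field A ⊔ K₁) (hK'K₁.trans le_sup_right)
  obtain ⟨π, hπ⟩ := IsDiscreteValuationRing.exists_irreducible ↥(beta0Ring A (beta0Field A ⊔ K₁))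
  -- `y₂` is integral over the base
  have hcoe : coeffMap (algebraMap ↥(beta0Field A ⊔ K₁) Qb) (y₂ : LaurentSeries ↥(beta0Field A ⊔ K₁))
      = kronIncl A Y := congrArg Subtype.val hy₂
  have hint : KronInt (beta0Ring A (beta0Field A ⊔ K₁))
      (y₂ : LaurentSeries ↥(beta0Field A ⊔ K₁)) := by
    intro n
    rw [mem_beta0Ring]
    have h1 := congrArg (fun z : LaurentSeries Qb => z.coeff n) hcoe
    simp only [coeffMap_coeff] at h1
    have h2 : A.subtype (Y.coeff n) ∈ A := (Y.coeff n).2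
    rw [← h1] at h2
    exact h2
  obtain ⟨T, hT⟩ := hint.exists_lift
  have hmem : y₂ ∈ vtInf (E := ↥(beta0Field A ⊔ K₁)) (vtBase_residue hπ) (M * p) := by
    rw [mem_vtInf, ← hT]
    exact coeffMap_mem_gaussRing _ _ T
  -- the two reductions agree
  have hG : GaussRed (M * p) A (nfEmb (beta0Field A ⊔ K₁) (M * p) y₂) (kronRed A Y) := by
    rw [hy₂]
    refine ⟨Y, 1, hY, ?_, ?_, ?_, ?_⟩
    · rw [map_one]; exact one_mem _
    · rw [map_one]; exact one_ne_zero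
    · rw [map_one, mul_one]
    · rw [map_one, mul_one]
  have heq := ribmpRedK_eq hπ (M * p) (x := ⟨y₂, hmem⟩) hG
  rw [← heq]
  exact ribmpRedK_mem hp hpM hA hπ (cheapIota.comp (algebraMap ↥(beta0Field A ⊔ K₁) Qb)) (stmtRedF M A p hp hpM hA)
    ⟨y₂, hmem⟩

/-- the fraction-form Gauss reduction at level `M p` has values in `F̄_M` -/
theorem tresmi5_gaussRed_mem (hp : p.Prime) (hpM : ¬ p ∣ M) (hA : A.LiesOverPrime p)
    {x : FF (M * p)} {w : LaurentSeries (kA A)} (h : GaussRed (M * p) A x w) :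
    w ∈ modularFunctionFieldFullC (kA A) M := by
  obtain ⟨Y₁, Y₂, hY₁m, hY₂m, hY₂, -, hw⟩ := h
  have h1 : w = kronRed A Y₁ * (kronRed A Y₂)⁻¹ := by
    rw [← hw, mul_assoc, mul_inv_cancel₀ hY₂, mul_one]
  rw [h1]
  exact mul_mem (tresmi5_redF hp hpM hA Y₁ hY₁m) (inv_mem (tresmi5_redF hp hpM hA Y₂ hY₂m))

/-- **(I5)**: every nonzero function of level `M p` has a Gauss reduction in `F̄_M`. -/
theorem tresmi5_main (hp : p.Prime) (hpM : ¬ p ∣ M) (hA : A.LiesOverPrime p)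
    (u : modularFunctionFieldBar (M * p)) (hu : u ≠ 0) :
    ∃ r : LaurentSeries (kA A), r ∈ modularFunctionFieldFullC (kA A) M ∧
      R38Red A (u : LaurentSeries Qb) r := by
  obtain ⟨c, y₁, y₂, hc, hy₁m, hy₂m, hp₁, hp₂, he⟩ := stmtPrim (M * p) p hp A hA u hu
  obtain ⟨Y₁, rfl⟩ := hp₁.1.exists_lift
  obtain ⟨Y₂, rfl⟩ := hp₂.1.exists_lift
  have h1 := (kronPrim_kronIncl_iff Y₁).1 hp₁
  have h2 := (kronPrim_kronIncl_iff Y₂).1 hp₂
  refine ⟨kronRed A Y₁ * (kronRed A Y₂)⁻¹,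
    mul_mem (tresmi5_redF hp hpM hA Y₁ hy₁m) (inv_mem (tresmi5_redF hp hpM hA Y₂ hy₂m)),
    c, Y₁, Y₂, hc, h1, h2, he, ?_⟩
  rw [mul_assoc, inv_mul_cancel₀ h2, mul_one]

/-- every Gauss reduction of a function of level `M p` lies in `F̄_M` -/
theorem tresmi5_mem (hp : p.Prime) (hpM : ¬ p ∣ M) (hA : A.LiesOverPrime p)
    {u : modularFunctionFieldBar (M * p)} {r : LaurentSeries (kA A)}
    (h : R38Red A (u : LaurentSeries Qb) r) :
    r ∈ modularFunctionFieldFullC (kA A) M := by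
  have hu : u ≠ 0 := fun h0 => h.ne_zero_left (by rw [h0]; rfl)
  obtain ⟨r', hr', h'⟩ := tresmi5_main hp hpM hA u hu
  obtain ⟨a, ha, e⟩ := h'.unique h
  rw [e]
  exact mul_mem (hahnC_mem_intermediateField a _) hr'

end Fermat.Agent.R38

end


end ZBRIB_002_10

/-! ### bundled: `Fermat.Agent.R38.TresMonoI7` -/
section ZBRIB_002_11
/-
ROW 38, TRES, input (I7 OGG) of helper89's frame theorem `tresmono_frame`
(`R38/TresMonoFrame.lean`), helper10 (helper44 RULING 16).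

Frame = `RIB/MP/RedA.lean`, section Main: level `M₁ q` on the `K`-side (`M₁` = the level `M'` of
the frame theorem, `q` = its `p`), `W = V_∞ = mgvV hπ ιC hq hqM true`,
`ρ = ribmpRedF hq hqM hA hπ ιC hRedF : V_∞ →+* F̄_{M₁}`.

The Ogg unit is `h := S36.s36tuV ↥K₀ ιC`, its reduction is `hb := S28.uInvS (kA A) q`
(`= Δ̄ · (Δ̄⁻¹)^q`, `tres5o_uInvS_eq`).  EVERY hypothesis of the frame theorem about `h`, `hb`:

 * `tresmi7_hh`     `hh  : W.valuation h = 1`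
 * `tresmi7_hhb`    `hhb : hb ∈ F̄_M`  for EVERY level `M` (so both `hhb` and `hhb'`)
 * `tresmi7_coe`    `(ρ ⟨h, _⟩ : k((q))) = hb`   (any membership proof)
 * `tresmi7_hρh`    `hρh : ρ ⟨h, tresdn_mem W hh⟩ = ⟨hb, hhb'⟩`
 * `tresmi7_hhecke` `hhecke` (exact shape)
 * `tresmi7_hb_ne_zero`
 * `tresmi7_r38Red` `R38Red A (nfEmb h) hb`
 * `tresmi7_cover`  the same `hρh` for an extension `(F', W', ρ')` of `(F, W, ρ)` (the cover case):
                    from `ρ' ∘ algebraMap = ρ` on the Ogg unit.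
-/

set_option autoImplicit false
set_option linter.unusedSectionVars false
set_option linter.unusedVariables false
set_option linter.style.haveILetI false
set_option linter.style.longLine false
set_option synthInstance.maxHeartbeats 400000
set_option maxHeartbeats 1600000

noncomputable section

namespace Fermat.Agent.R38

open ModularCurve AlgebraicCurve Fermat.Agent.ES Fermat.Agent.ES.G2 Fermat.Agent.INJ
  Fermat.Agent.UNIP Fermat.Agent.STB Fermat.Agent.ES.M Fermat.Agent.DEU Fermat.Agent.S36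
  Fermat.Agent.S24 Fermat.Agent.RIB.MP Fermat.Agent.S28 Fermat.Agent.S33

section I7

variable {M₁ q : ℕ} [NeZero M₁] [NeZero q] [NeZero (M₁ * q)] (hq : q.Prime) (hqM : ¬ q ∣ M₁)
  {A : ValuationSubring Qb} (hA : A.LiesOverPrime q) {K₀ : IntermediateField ℚ Qb}
  [IsDiscreteValuationRing ↥(beta0Ring A K₀)]
  {π : ↥(beta0Ring A K₀)} (hπ : Irreducible π) (ιC : ↥K₀ →+* ℂ)

include hA in
/-- **`hh`** : the Ogg unit is a unit of the Gauss sheet `V_∞`. -/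
theorem tresmi7_hh :
    (mgvV hπ ιC hq hqM true).valuation (s36tuV ↥K₀ ιC (q := q) (M := M₁)) = 1 :=
  tres5o_val_true hπ ιC hq hqM hA

include hq hA in
/-- **`hhb`, `hhb'`** : `h̄ = uInvS k q ∈ F̄_M` for every level `M`. -/
theorem tresmi7_hhb (M : ℕ) : uInvS (kA A) q ∈ modularFunctionFieldFullC (kA A) M := by
  haveI : Fact q.Prime := ⟨hq⟩
  haveI : CharP (kA A) q := Fermat.Agent.RED.charP_residueField A hq hA
  exact tres5o_uInvS_mem q (kA A) M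

/-- `h̄ ≠ 0` -/
theorem tresmi7_hb_ne_zero (A : ValuationSubring Qb) (q : ℕ) [NeZero q] :
    uInvS (kA A) q ≠ 0 :=
  tres5o_uInvS_ne_zero (kA A)

include hA in
/-- **`ρ(h) = h̄`** as a Laurent series, for any proof of `h ∈ V_∞`. -/
theorem tresmi7_coe (hRedF : StmtRedF M₁ A)
    (hV : s36tuV ↥K₀ ιC (q := q) (M := M₁) ∈ mgvV hπ ιC hq hqM true) :
    ((ribmpRedF hq hqM hA hπ ιC hRedF ⟨s36tuV ↥K₀ ιC, hV⟩ :
      ↥(modularFunctionFieldFullC (kA A) M₁)) : LaurentSeries (kA A)) = uInvS (kA A) q := by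
  rw [ribmpRedF_coe]
  exact ribmpRedK_eq hπ (M₁ * q) (tres5o_gaussRed_uInvS ιC)

include hA in
/-- **`hρh`** of `tresmono_frame` (no-cover case `F' = F`, `W = V_∞`, `ρ = ribmpRedF`). -/
theorem tresmi7_hρh (hRedF : StmtRedF M₁ A) :
    ribmpRedF hq hqM hA hπ ιC hRedF
        ⟨s36tuV ↥K₀ ιC, tresdn_mem (mgvV hπ ιC hq hqM true) (tresmi7_hh hq hqM hA hπ ιC)⟩ =
      ⟨uInvS (kA A) q, tresmi7_hhb hq hA M₁⟩ :=
  Subtype.ext (tresmi7_coe hq hqM hA hπ ιC hRedF _)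

/-- **`hhecke`** of `tresmono_frame` for `hb := uInvS (kA A) q`. -/
theorem tresmi7_hhecke (A : ValuationSubring Qb) {q : ℕ} [NeZero q] (hq : q.Prime) :
    ∀ (ℓ : ℕ) [NeZero ℓ], ℓ.Prime → ℓ ≠ q → ∀ ζ : (kA A)ˣ, IsPrimitiveRoot ζ ℓ →
      ∃ c : kA A, c ≠ 0 ∧
        kronHecke ℓ ζ (uInvS (kA A) q) = HahnSeries.C c * uInvS (kA A) q ^ (ℓ + 1) :=
  tres4o_hhecke_uInvS (kA A) q hq

/-- the Gauss reduction of the Ogg unit, `R38Red` form -/
theorem tresmi7_r38Red :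
    R38Red A
      ((nfEmb K₀ (M₁ * q) (s36tuV ↥K₀ ιC (q := q) (M := M₁)) : modularFunctionFieldBar (M₁ * q)) :
        LaurentSeries Qb)
      (uInvS (kA A) q) := by
  rw [tres5o_nfEmb_coe]
  exact tres5o_r38Red_uInvS

end I7

section Cover

variable {F F' kF : Type*} [Field F] [Field F'] [Algebra F F'] [CommRing kF]

/-- **`hρh` in the cover case**: `(F', W', ρ')` extends `(F, W, ρ)` on the element `h`. -/
theorem tresmi7_cover (W : ValuationSubring F) (W' : ValuationSubring F')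
    (ρ : ↥W →+* kF) (ρ' : ↥W' →+* kF) {h : F} (hh : W.valuation h = 1)
    (hh' : W'.valuation (algebraMap F F' h) = 1)
    (hcompat : ∀ (x : F) (hx : x ∈ W) (hx' : algebraMap F F' x ∈ W'),
      ρ' ⟨algebraMap F F' x, hx'⟩ = ρ ⟨x, hx⟩)
    {hb : kF} (hρh : ρ ⟨h, tresdn_mem W hh⟩ = hb) :
    ρ' ⟨algebraMap F F' h, tresdn_mem W' hh'⟩ = hb := by
  rw [hcompat h (tresdn_mem W hh) (tresdn_mem W' hh'), hρh]

/-- a valuation ring `W'` of `F'` over `W` (i.e. `W'.comap = W`) has the same units on `F` -/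
theorem tresmi7_cover_val (W : ValuationSubring F) (W' : ValuationSubring F')
    (hWW' : ∀ x : F, x ∈ W → algebraMap F F' x ∈ W') {h : F} (hh : W.valuation h = 1) :
    W'.valuation (algebraMap F F' h) = 1 := by
  have h0 : h ≠ 0 := by
    rintro rfl
    rw [map_zero] at hh
    exact zero_ne_one hh
  have h1 : algebraMap F F' h ∈ W' := hWW' h (tresdn_mem W hh)
  have h2 : algebraMap F F' h⁻¹ ∈ W' := hWW' h⁻¹ (tresdn_mem W (tresdn_inv_val W hh))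
  have h3 : W'.valuation (algebraMap F F' h) ≤ 1 := (W'.valuation_le_one_iff _).2 h1
  have h4 : W'.valuation (algebraMap F F' h⁻¹) ≤ 1 := (W'.valuation_le_one_iff _).2 h2
  rw [map_inv₀, map_inv₀] at h4
  have h5 : W'.valuation (algebraMap F F' h) ≠ 0 :=
    (Valuation.ne_zero_iff _).2 ((map_ne_zero (algebraMap F F')).2 h0)
  have h6 : 1 ≤ W'.valuation (algebraMap F F' h) := by
    rwa [inv_le_one₀ (zero_lt_iff.2 h5)] at h4
  exact le_antisymm h3 h6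

end Cover

end Fermat.Agent.R38

end


end ZBRIB_002_11
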