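/- GENERATED FILE (helper35, build-time optimisation, NOTES/ZB.md): verbatim concatenation of the modules
   Fermat.Agent.R38.TresCoverLoc
   Fermat.Agent.R38.TresCover
   Fermat.Agent.R38.TresFacTr
   Fermat.Agent.R38.TresMonoCover
   Fermat.Agent.R38.TresMonoFrame
   Fermat.Agent.R38.TresCoverOrd
   Fermat.Agent.R38.TresFacTrCmp
   Fermat.Agent.R38.TresFacTrConc
   Fermat.Agent.R38.TresMonoConcF
   Do not edit; do not import together with these modules. -/
import Mathlib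
import Fermat.Agent.ZB.INJ_003
import Fermat.Agent.ZB.RIB_002
import Fermat.Agent.ZB.S15_001
import Fermat.Agent.ZB.S24_007
import Fermat.Agent.ZB.ES_005
import Fermat.Agent.ZB.INJ_013
import Fermat.Agent.ZB.DEU_005

/-! ### bundled: `Fermat.Agent.R38.TresCoverLoc` -/
section ZBR38_009_0
/-
ROW 38, TRES, piece FAC-COV [T5 (b)] (helper78), part 1: a localisation which is a discrete
valuation ring.  Pure algebra (Mathlib only).

`L` a field, `Λ ⊆ L` a subring, `φ : Λ → κ` a ring homomorphism to a field, `π ∈ ker φ`, `π ≠ 0`,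
* (E)  an element `E ∈ Λ`, `φ E ≠ 0`, with `ker φ · E ⊆ π Λ`   ("`ker φ = π Λ` locally at `ker φ`");
* (fr) every `f ∈ L^×` divides a power of `π` in `Λ`:  `f a = π ^ n`, `a ∈ Λ`.
Then the localisation `W = Λ_{ker φ} = {f | ∃ b ∈ Λ, φ b ≠ 0, f b ∈ Λ}` is a valuation subring of
`L` with uniformizer `π`:
* `Tres5Loc.normal_form` : every `f ≠ 0` is `π ^ n · a / b`, `n ∈ ℤ`, `φ a ≠ 0`, `φ b ≠ 0`;
* `Tres5Loc.val`         : the valuation subring;
* `Tres5Loc.unif`        : `∀ f ≠ 0, ∃ n : ℤ, W.valuation (f / π ^ n) = 1`;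
* `Tres5Loc.mem_nonunits_iff`, `Tres5Loc.ker_mem_nonunits`, `Tres5Loc.unit_of_phi_ne`;
* `Tres5Loc.residue`     : `f ∈ W` is congruent modulo `𝔪_W` to `a₀ / b₀` whenever `a₀, b₀ ∈ Λ` have
  the `φ`-values of a numerator and a denominator of `f`;
* `Tres5Loc.eq_of_le`    : a valuation subring `W′ ⊇ W` with `π⁻¹ ∉ W′` is `W`.
-/

set_option autoImplicit false

namespace Fermat.Agent.R38

/-- A subring `Λ` of a field `L` with a homomorphism `φ` to a field `κ` whose kernel is generated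
by `π` locally at `ker φ`, such that `L = Λ[1/π]`. -/
structure Tres5Loc (L : Type*) [Field L] (κ : Type*) [Field κ] where
  /-- the order -/
  Λ : Subring L
  /-- the point -/
  φ : Λ →+* κ
  /-- the uniformizer -/
  π : Λ
  hπ0 : (π : L) ≠ 0
  hφπ : φ π = 0
  /-- a local generator of the complement -/
  E : Λ
  hE : φ E ≠ 0
  hker : ∀ f : Λ, φ f = 0 → ∃ a : Λ, f * E = π * a
  hfrac : ∀ f : L, f ≠ 0 → ∃ (a : Λ) (n : ℕ), f * (a : L) = (π : L) ^ n

namespace Tres5Loc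

variable {L : Type*} [Field L] {κ : Type*} [Field κ] (D : Tres5Loc L κ)

theorem pi_ne_zero : D.π ≠ 0 := fun h => D.hπ0 (by rw [h]; rfl)

/-- boundedness of the order -/
theorem le_of_mul_eq {f c a b : D.Λ} {ν n : ℕ} (hc : f * c = D.π ^ ν)
    (hb : D.φ b ≠ 0) (h : f * b = D.π ^ n * a) : n ≤ ν := by
  by_contra hlt
  obtain ⟨j, rfl⟩ := Nat.exists_eq_add_of_lt (not_le.mp hlt)
  have h1 : D.π ^ ν * b = D.π ^ ν * (D.π ^ (j + 1) * (c * a)) := by
    calc D.π ^ ν * b = c * (f * b) := by rw [← hc]; ring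
      _ = c * (D.π ^ (ν + j + 1) * a) := by rw [h]
      _ = D.π ^ ν * (D.π ^ (j + 1) * (c * a)) := by ring
  have h2 : b = D.π ^ (j + 1) * (c * a) :=
    mul_left_cancel₀ (pow_ne_zero ν D.pi_ne_zero) h1
  apply hb
  rw [h2, map_mul, map_pow, D.hφπ, zero_pow (Nat.succ_ne_zero j), zero_mul]

/-- the normal form of the nonzero elements of `Λ` -/
theorem normal_form_order {f : D.Λ} (hf : f ≠ 0) :
    ∃ (n : ℕ) (a b : D.Λ), D.φ a ≠ 0 ∧ D.φ b ≠ 0 ∧ f * b = D.π ^ n * a := by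
  have hfL : (f : L) ≠ 0 := fun h => hf (Subtype.ext h)
  obtain ⟨c, ν, hc⟩ := D.hfrac (f : L) hfL
  have hc' : f * c = D.π ^ ν := Subtype.ext (by simpa using hc)
  have key : ∀ k n : ℕ, ∀ a b : D.Λ, ν - n = k → D.φ b ≠ 0 → f * b = D.π ^ n * a →
      ∃ (n' : ℕ) (a' b' : D.Λ), D.φ a' ≠ 0 ∧ D.φ b' ≠ 0 ∧ f * b' = D.π ^ n' * a' := by
    intro k
    induction k with
    | zero =>
      intro n a b hk hb h
      by_cases ha : D.φ a = 0
      · obtain ⟨a₁, ha₁⟩ := D.hker a ha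
        have hbE : D.φ (b * D.E) ≠ 0 := by
          rw [map_mul]
          exact mul_ne_zero hb D.hE
        have h' : f * (b * D.E) = D.π ^ (n + 1) * a₁ := by
          calc f * (b * D.E) = (f * b) * D.E := by ring
            _ = D.π ^ n * (a * D.E) := by rw [h]; ring
            _ = D.π ^ (n + 1) * a₁ := by rw [ha₁]; ring
        have h1 := D.le_of_mul_eq hc' hb h
        have h2 := D.le_of_mul_eq hc' hbE h'
        omega
      · exact ⟨n, a, b, ha, hb, h⟩
    | succ k ih =>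
      intro n a b hk hb h
      by_cases ha : D.φ a = 0
      · obtain ⟨a₁, ha₁⟩ := D.hker a ha
        have hbE : D.φ (b * D.E) ≠ 0 := by
          rw [map_mul]
          exact mul_ne_zero hb D.hE
        have h' : f * (b * D.E) = D.π ^ (n + 1) * a₁ := by
          calc f * (b * D.E) = (f * b) * D.E := by ring
            _ = D.π ^ n * (a * D.E) := by rw [h]; ring
            _ = D.π ^ (n + 1) * a₁ := by rw [ha₁]; ring
        exact ih (n + 1) a₁ (b * D.E) (by omega) hbE h'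
      · exact ⟨n, a, b, ha, hb, h⟩
  exact key (ν - 0) 0 f 1 rfl (by rw [map_one]; exact one_ne_zero) (by ring)

/-- the normal form of the nonzero elements of `L` -/
theorem normal_form {f : L} (hf : f ≠ 0) :
    ∃ (n : ℤ) (a b : D.Λ), D.φ a ≠ 0 ∧ D.φ b ≠ 0 ∧ f * (b : L) = (D.π : L) ^ n * (a : L) := by
  obtain ⟨c, m, hc⟩ := D.hfrac f⁻¹ (inv_ne_zero hf)
  have hc0 : c ≠ 0 := by
    rintro rfl
    have : (D.π : L) ^ m = 0 := by rw [← hc]; simp
    exact pow_ne_zero m D.hπ0 this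
  obtain ⟨n, a, b, ha, hb, h⟩ := D.normal_form_order hc0
  have hL : (c : L) * (b : L) = (D.π : L) ^ n * (a : L) := by
    have := congrArg (Subtype.val : D.Λ → L) h
    simpa using this
  have hfc : (c : L) = f * (D.π : L) ^ m := by
    rw [← hc]
    field_simp
  refine ⟨(n : ℤ) - m, a, b, ha, hb, ?_⟩
  rw [zpow_sub₀ D.hπ0, zpow_natCast, zpow_natCast]
  have hm : (D.π : L) ^ m ≠ 0 := pow_ne_zero m D.hπ0
  rw [hfc] at hL
  field_simp
  linear_combination hL

/-- the localisation of `Λ` at `ker φ`, as a subring of `L` -/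
def ring : Subring L where
  carrier := {f | ∃ b : D.Λ, D.φ b ≠ 0 ∧ f * (b : L) ∈ D.Λ}
  mul_mem' := by
    rintro f f' ⟨b, hb, h⟩ ⟨b', hb', h'⟩
    refine ⟨b * b', by rw [map_mul]; exact mul_ne_zero hb hb', ?_⟩
    have : f * f' * ((b * b' : D.Λ) : L) = (f * b) * (f' * b') := by push_cast; ring
    rw [this]
    exact D.Λ.mul_mem h h'
  one_mem' := ⟨1, by rw [map_one]; exact one_ne_zero, by simp [D.Λ.one_mem]⟩
  add_mem' := by
    rintro f f' ⟨b, hb, h⟩ ⟨b', hb', h'⟩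
    refine ⟨b * b', by rw [map_mul]; exact mul_ne_zero hb hb', ?_⟩
    have : (f + f') * ((b * b' : D.Λ) : L) = (f * b) * b' + (f' * b') * b := by push_cast; ring
    rw [this]
    exact D.Λ.add_mem (D.Λ.mul_mem h b'.2) (D.Λ.mul_mem h' b.2)
  zero_mem' := ⟨1, by rw [map_one]; exact one_ne_zero, by simp [D.Λ.zero_mem]⟩
  neg_mem' := by
    rintro f ⟨b, hb, h⟩
    refine ⟨b, hb, ?_⟩
    rw [neg_mul]
    exact D.Λ.neg_mem h

theorem mem_ring_iff {f : L} : f ∈ D.ring ↔ ∃ b : D.Λ, D.φ b ≠ 0 ∧ f * (b : L) ∈ D.Λ := Iff.rfl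

/-- the valuation subring `Λ_{ker φ}` -/
def val : ValuationSubring L where
  toSubring := D.ring
  mem_or_inv_mem' := by
    intro f
    by_cases hf : f = 0
    · left
      rw [hf]
      exact D.ring.zero_mem
    obtain ⟨n, a, b, ha, hb, h⟩ := D.normal_form hf
    rcases le_total 0 n with hn | hn
    · left
      refine ⟨b, hb, ?_⟩
      rw [h]
      obtain ⟨m, rfl⟩ := Int.eq_ofNat_of_zero_le hn
      rw [zpow_natCast]
      exact D.Λ.mul_mem (D.Λ.pow_mem D.π.2 m) a.2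
    · right
      refine ⟨a, ha, ?_⟩
      obtain ⟨m, hm⟩ := Int.exists_eq_neg_ofNat hn
      have hb0 : (b : L) ≠ 0 := by
        intro hb0
        apply hb
        have : b = 0 := Subtype.ext hb0
        rw [this, map_zero]
      have e : f⁻¹ * (a : L) = (D.π : L) ^ m * (b : L) := by
        rw [hm, zpow_neg, zpow_natCast] at h
        have hm0 : (D.π : L) ^ m ≠ 0 := pow_ne_zero m D.hπ0
        field_simp
        field_simp at h
        linear_combination -h
      rw [e]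
      exact D.Λ.mul_mem (D.Λ.pow_mem D.π.2 m) b.2

theorem mem_val_iff {f : L} : f ∈ D.val ↔ ∃ b : D.Λ, D.φ b ≠ 0 ∧ f * (b : L) ∈ D.Λ := Iff.rfl

theorem le_val {f : L} (hf : f ∈ D.Λ) : f ∈ D.val :=
  ⟨1, by rw [map_one]; exact one_ne_zero, by simpa using hf⟩

theorem coe_ne_zero {b : D.Λ} (hb : D.φ b ≠ 0) : (b : L) ≠ 0 := by
  intro hb0
  apply hb
  have : b = 0 := Subtype.ext hb0
  rw [this, map_zero]

/-- the elements of `Λ` outside `ker φ` are units of `W` -/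
theorem inv_mem_val {b : D.Λ} (hb : D.φ b ≠ 0) : (b : L)⁻¹ ∈ D.val :=
  ⟨b, hb, by rw [inv_mul_cancel₀ (D.coe_ne_zero hb)]; exact D.Λ.one_mem⟩

/-- `π` is not a unit of `W` -/
theorem pi_inv_not_mem : (D.π : L)⁻¹ ∉ D.val := by
  rintro ⟨b, hb, h⟩
  apply hb
  have e : b = D.π * ⟨(D.π : L)⁻¹ * (b : L), h⟩ := by
    apply Subtype.ext
    push_cast
    rw [← mul_assoc, mul_inv_cancel₀ D.hπ0, one_mul]
  rw [e, map_mul, D.hφπ, zero_mul]

theorem pi_mem_nonunits : (D.π : L) ∈ D.val.nonunits := by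
  rw [ValuationSubring.mem_nonunits_iff]
  have h1 : D.val.valuation (D.π : L) ≤ 1 :=
    (ValuationSubring.valuation_le_one_iff _ _).2 (D.le_val D.π.2)
  rcases lt_or_eq_of_le h1 with h | h
  · exact h
  · exfalso
    apply D.pi_inv_not_mem
    rw [← ValuationSubring.valuation_le_one_iff, map_inv₀, h, inv_one]

/-- units of `W` in terms of the valuation -/
theorem valuation_eq_one_iff {f : L} (hf : f ≠ 0) :
    D.val.valuation f = 1 ↔ f ∈ D.val ∧ f⁻¹ ∈ D.val := by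
  constructor
  · intro h
    constructor
    · rw [← ValuationSubring.valuation_le_one_iff, h]
    · rw [← ValuationSubring.valuation_le_one_iff, map_inv₀, h, inv_one]
  · rintro ⟨h1, h2⟩
    rw [← ValuationSubring.valuation_le_one_iff] at h1 h2
    have h0 : D.val.valuation f ≠ 0 := (Valuation.ne_zero_iff _).2 hf
    rw [map_inv₀, inv_le_one₀ (zero_lt_iff.mpr h0)] at h2
    exact le_antisymm h1 h2

/-- **`π` is a uniformizer of `W`.** -/
theorem unif {f : L} (hf : f ≠ 0) : ∃ n : ℤ, D.val.valuation (f / (D.π : L) ^ n) = 1 := by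
  obtain ⟨n, a, b, ha, hb, h⟩ := D.normal_form hf
  have ha0 := D.coe_ne_zero ha
  have hb0 := D.coe_ne_zero hb
  have hπn : (D.π : L) ^ n ≠ 0 := zpow_ne_zero n D.hπ0
  have e : f / (D.π : L) ^ n = (a : L) * (b : L)⁻¹ := by
    field_simp
    linear_combination h
  refine ⟨n, ?_⟩
  rw [e, D.valuation_eq_one_iff (mul_ne_zero ha0 (inv_ne_zero hb0))]
  constructor
  · exact D.val.mul_mem _ _ (D.le_val a.2) (D.inv_mem_val hb)
  · rw [mul_inv, inv_inv]
    exact D.val.mul_mem _ _ (D.inv_mem_val ha) (D.le_val b.2)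

/-- the elements of `ker φ` are multiples of `π` in `W` -/
theorem ker_div_pi_mem {a : D.Λ} (ha : D.φ a = 0) : (a : L) / (D.π : L) ∈ D.val := by
  obtain ⟨a₁, ha₁⟩ := D.hker a ha
  refine ⟨D.E, D.hE, ?_⟩
  have h := congrArg (Subtype.val : D.Λ → L) ha₁
  push_cast at h
  have e : (a : L) / (D.π : L) * (D.E : L) = (a₁ : L) := by
    have := D.hπ0
    field_simp
    linear_combination h
  rw [e]
  exact a₁.2

/-- `𝔪_W` is an ideal of `W` (membership form) -/
theorem mul_mem_nonunits {x y : L} (hx : x ∈ D.val) (hy : y ∈ D.val.nonunits) :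
    x * y ∈ D.val.nonunits := by
  rw [ValuationSubring.mem_nonunits_iff] at hy ⊢
  rw [← ValuationSubring.valuation_le_one_iff] at hx
  rw [map_mul]
  calc D.val.valuation x * D.val.valuation y ≤ 1 * D.val.valuation y := by gcongr
    _ = D.val.valuation y := one_mul _
    _ < 1 := hy

/-- the elements of `ker φ` are non-units of `W` -/
theorem ker_mem_nonunits {a : D.Λ} (ha : D.φ a = 0) : (a : L) ∈ D.val.nonunits := by
  have h := D.mul_mem_nonunits (D.ker_div_pi_mem ha) D.pi_mem_nonunits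
  rwa [div_mul_cancel₀ _ D.hπ0] at h

/-- the elements of `Λ` outside `ker φ` are units of `W` -/
theorem valuation_eq_one_of_phi_ne {b : D.Λ} (hb : D.φ b ≠ 0) : D.val.valuation (b : L) = 1 := by
  rw [D.valuation_eq_one_iff (D.coe_ne_zero hb)]
  exact ⟨D.le_val b.2, D.inv_mem_val hb⟩

/-- the maximal ideal of `W` -/
theorem mem_nonunits_iff {f : L} :
    f ∈ D.val.nonunits ↔ ∃ a b : D.Λ, D.φ a = 0 ∧ D.φ b ≠ 0 ∧ f * (b : L) = (a : L) := by
  constructor
  · intro hf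
    have hfW : f ∈ D.val := by
      rw [← ValuationSubring.valuation_le_one_iff]
      exact le_of_lt ((ValuationSubring.mem_nonunits_iff _).1 hf)
    obtain ⟨b, hb, h⟩ := hfW
    refine ⟨⟨f * b, h⟩, b, ?_, hb, rfl⟩
    by_contra ha
    have h1 := D.valuation_eq_one_of_phi_ne ha
    have h2 := D.valuation_eq_one_of_phi_ne hb
    rw [ValuationSubring.mem_nonunits_iff] at hf
    change D.val.valuation (f * (b : L)) = 1 at h1
    rw [map_mul, h2, mul_one] at h1
    rw [h1] at hf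
    exact lt_irrefl _ hf
  · rintro ⟨a, b, ha, hb, h⟩
    have hb0 := D.coe_ne_zero hb
    have e : f = (b : L)⁻¹ * (a : L) := by
      field_simp
      linear_combination h
    rw [e]
    exact D.mul_mem_nonunits (D.inv_mem_val hb) (D.ker_mem_nonunits ha)

/-- **The residue field of `W` is the image of `φ`**: an element `f = a / b` of `W` is congruent
modulo `𝔪_W` to `a₀ / b₀` whenever `φ a₀ = φ a`, `φ b₀ = φ b`. -/
theorem residue {f : L} {a b a₀ b₀ : D.Λ} (hb : D.φ b ≠ 0) (h : f * (b : L) = (a : L))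
    (ha₀ : D.φ a₀ = D.φ a) (hb₀ : D.φ b₀ = D.φ b) :
    f - (a₀ : L) / (b₀ : L) ∈ D.val.nonunits := by
  have hb₀' : D.φ b₀ ≠ 0 := by rw [hb₀]; exact hb
  rw [D.mem_nonunits_iff]
  refine ⟨a * b₀ - a₀ * b, b * b₀, ?_, ?_, ?_⟩
  · rw [map_sub, map_mul, map_mul, ha₀, hb₀]
    ring
  · rw [map_mul]
    exact mul_ne_zero hb hb₀'
  · have hb0 := D.coe_ne_zero hb₀'
    push_cast
    field_simp
    linear_combination (b₀ : L) * h

/-- a valuation subring containing `W` in which `π` is not invertible is `W` -/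
theorem eq_of_le {W' : ValuationSubring L} (hle : ∀ f ∈ D.val, f ∈ W')
    (hπ : (D.π : L)⁻¹ ∉ W') : W' = D.val := by
  apply le_antisymm
  · intro f hf
    by_contra hfW
    have hf0 : f ≠ 0 := by
      rintro rfl
      exact hfW D.val.zero_mem
    obtain ⟨n, hn⟩ := D.unif hf0
    have hπn : (D.π : L) ^ n ≠ 0 := zpow_ne_zero n D.hπ0
    have hu := (D.valuation_eq_one_iff (div_ne_zero hf0 hπn)).1 hn
    -- `n < 0`
    have hneg : n < 0 := by
      by_contra hn0
      obtain ⟨m, rfl⟩ := Int.eq_ofNat_of_zero_le (not_lt.mp hn0)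
      apply hfW
      have : f = f / (D.π : L) ^ (m : ℤ) * (D.π : L) ^ m := by
        rw [zpow_natCast, div_mul_cancel₀ _ (pow_ne_zero m D.hπ0)]
      rw [this]
      exact D.val.mul_mem _ _ hu.1 (D.val.pow_mem (D.le_val D.π.2) m)
    obtain ⟨m, hm⟩ := Int.exists_eq_neg_ofNat (le_of_lt hneg)
    have hm1 : 1 ≤ m := by omega
    -- `π⁻¹ = f · (f / πⁿ)⁻¹ · π^(m-1)`
    apply hπ
    have e : (D.π : L)⁻¹ = f * (f / (D.π : L) ^ n)⁻¹ * (D.π : L) ^ (m - 1) := by
      rw [hm, zpow_neg, zpow_natCast]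
      have hπm : (D.π : L) ^ m ≠ 0 := pow_ne_zero m D.hπ0
      have hπ0 := D.hπ0
      obtain ⟨k, rfl⟩ : ∃ k, m = k + 1 := ⟨m - 1, by omega⟩
      rw [Nat.add_sub_cancel]
      field_simp
      ring
    rw [e]
    exact W'.mul_mem _ _ (W'.mul_mem _ _ hf (hle _ hu.2))
      (W'.pow_mem (hle _ (D.le_val D.π.2)) _)
  · exact hle

/-- the non-units of `W` are multiples of `π` -/
theorem div_pi_mem_of_nonunit {f : L} (hf : f ∈ D.val.nonunits) : f / (D.π : L) ∈ D.val := by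
  obtain ⟨a, b, ha, hb, h⟩ := D.mem_nonunits_iff.1 hf
  have hb0 := D.coe_ne_zero hb
  have e : f / (D.π : L) = (a : L) / (D.π : L) * (b : L)⁻¹ := by
    have := D.hπ0
    field_simp
    linear_combination h
  rw [e]
  exact D.val.mul_mem _ _ (D.ker_div_pi_mem ha) (D.inv_mem_val hb)

end Tres5Loc

/-! ### Integrality -/

section Integral

variable {L : Type*} [Field L]

/-- a valuation subring is the ring of integers of its valuation -/
theorem tres5_integers (W : ValuationSubring L) : W.valuation.Integers ↥W where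
  hom_inj := Subtype.val_injective
  map_le_one := fun a => (W.valuation_le_one_iff _).2 a.2
  exists_of_le_one := fun {r} h => ⟨⟨r, (W.valuation_le_one_iff r).1 h⟩, rfl⟩

/-- a valuation subring contains the roots of the monic polynomials with coefficients in it -/
theorem tres5_mem_of_root {R : Type*} [CommRing R] (f : R →+* L) (W : ValuationSubring L)
    (hf : ∀ a, f a ∈ W) {Q : Polynomial R} (hQ : Q.Monic) {z : L}
    (h : Polynomial.eval₂ f z Q = 0) : z ∈ W := by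
  let g : R →+* ↥W := f.codRestrict W.toSubring hf
  have hint : IsIntegral ↥W z := by
    refine ⟨Q.map g, hQ.map g, ?_⟩
    rw [Polynomial.eval₂_map]
    exact h
  have := (tres5_integers W).mem_of_integral hint
  exact (W.valuation_le_one_iff z).1 this

/-- units in terms of the valuation -/
theorem tres5_valuation_eq_one_iff (W : ValuationSubring L) {f : L} (hf : f ≠ 0) :
    W.valuation f = 1 ↔ f ∈ W ∧ f⁻¹ ∈ W := by
  constructor
  · intro h
    constructor
    · rw [← ValuationSubring.valuation_le_one_iff, h]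
    · rw [← ValuationSubring.valuation_le_one_iff, map_inv₀, h, inv_one]
  · rintro ⟨h1, h2⟩
    rw [← ValuationSubring.valuation_le_one_iff] at h1 h2
    have h0 : W.valuation f ≠ 0 := (Valuation.ne_zero_iff _).2 hf
    rw [map_inv₀, inv_le_one₀ (zero_lt_iff.mpr h0)] at h2
    exact le_antisymm h1 h2

/-- `𝔪_W + W^× ⊆ W^×` -/
theorem tres5_valuation_add_eq_one (W : ValuationSubring L) {x y : L}
    (hx : x ∈ W.nonunits) (hy : W.valuation y = 1) : W.valuation (x + y) = 1 := by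
  rw [ValuationSubring.mem_nonunits_iff] at hx
  rw [Valuation.map_add_eq_of_lt_right _ (by rw [hy]; exact hx), hy]

/-- `W · 𝔪_W ⊆ 𝔪_W` -/
theorem tres5_mul_mem_nonunits (W : ValuationSubring L) {x y : L} (hx : x ∈ W)
    (hy : y ∈ W.nonunits) : x * y ∈ W.nonunits := by
  rw [ValuationSubring.mem_nonunits_iff] at hy ⊢
  rw [← ValuationSubring.valuation_le_one_iff] at hx
  rw [map_mul]
  calc W.valuation x * W.valuation y ≤ 1 * W.valuation y := by gcongr
    _ = W.valuation y := one_mul _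
    _ < 1 := hy

/-- non-units in terms of membership -/
theorem tres5_mem_nonunits_iff (W : ValuationSubring L) {x : L} :
    x ∈ W.nonunits ↔ x = 0 ∨ x⁻¹ ∉ W := by
  rw [ValuationSubring.mem_nonunits_iff]
  by_cases hx : x = 0
  · simp [hx]
  · have h0 : W.valuation x ≠ 0 := (Valuation.ne_zero_iff _).2 hx
    rw [← ValuationSubring.valuation_le_one_iff, map_inv₀,
      inv_le_one₀ (zero_lt_iff.mpr h0), not_le]
    simp [hx]

/-- the non-units of a pull-back -/
theorem tres5_mem_nonunits_comap {K : Type*} [Field K] (W : ValuationSubring L) (f : K →+* L)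
    {x : K} : x ∈ (W.comap f).nonunits ↔ f x ∈ W.nonunits := by
  rw [tres5_mem_nonunits_iff, tres5_mem_nonunits_iff, ValuationSubring.mem_comap, map_inv₀,
    map_eq_zero]

end Integral

end Fermat.Agent.R38


end ZBR38_009_0

/-! ### bundled: `Fermat.Agent.R38.TresCover` -/
section ZBR38_009_1
/-
ROW 38, TRES, piece FAC-COV [T5 (b)] (helper78), part 2: A SPLIT (ÉTALE) MONOGENIC EXTENSION OF A
DISCRETE VALUATION RING, abstract form.  Pure algebra (Mathlib only).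

Setting (`Tres5Gen F L V n`): `F ⊆ L` fields, `[L : F] = n ≥ 1`, `L = F(z)`;
`V` a DISCRETE valuation subring of `F` with uniformizer `π`
(`hunif : ∀ x ≠ 0, ∃ m : ℤ, V.valuation (x / π ^ m) = 1`);
`c : ℕ → V` with `c i − c j ∈ V^×` for `i ≠ j < n`, `R ∈ V[X]` of degree `< n`, and
      `P(z) = 0`   for   `P = ∏_{i < n} (X − c i) + π R`
(`z` is a root of a monic polynomial over `V` of degree `[L : F]` which splits into distinct
linear factors modulo `𝔪_V`).

Main results: the valuation subrings `S.W k` of `L` (`k : ℕ`, used for `k < n`), with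
* `W_comap`    : `W k ∩ F = V`;
* `W_z_mem`    : `z − c k ∈ 𝔪(W k)`;  `W_z_unit` : `z − c j` is a unit of `W k` (`j ≠ k`);
                 `W_injOn` : the `W k`, `k < n`, are pairwise distinct;
* `W_unif`     : `e = 1`: `∀ f ≠ 0, ∃ m : ℤ, (W k).valuation (f / π ^ m) = 1`;
* `W_residue`  : `f = 1`: `∀ f ∈ W k, ∃ a ∈ V, f − a ∈ 𝔪(W k)`;
* `W_dense`    : `∀ f ∈ W k, ∀ m, ∃ a ∈ V, (f − a) / π ^ m ∈ W k`;
* `W_unique`   : every valuation subring `W′` of `L` with `W′ ∩ F = V` is `W k`, `k < n`;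
* `W_deck`     : for `ρ : L →ₐ[F] L` with `ρ z − c m ∈ 𝔪(W k)`, `m < n`: `(W k).comap ρ = W m`;
* `mem_W_iff`  : `f ∈ W k ↔ ∃ Q₁ Q₂ ∈ V[X], Q₂(c k) ∈ V^×, f · Q₂(z) = Q₁(z)`.
The Kummer case (`z = (w^{1/p} / g − 1) / (ζ − 1)`) is `R38/TresCoverKum.lean`.
-/

set_option autoImplicit false
set_option linter.style.haveILetI false

namespace Fermat.Agent.R38

open Polynomial

/-! ### The maps -/

section Maps

variable {F : Type*} [Field F] (V : ValuationSubring F) (L : Type*) [Field L] [Algebra F L]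

/-- the embedding of `V` in `L` -/
noncomputable def tres5Iota : ↥V →+* L := (algebraMap F L).comp V.subtype

theorem tres5Iota_apply (a : ↥V) : tres5Iota V L a = algebraMap F L (a : F) := rfl

theorem tres5Iota_injective : Function.Injective (tres5Iota V L) :=
  (algebraMap F L).injective.comp Subtype.val_injective

/-- the reduction of polynomials over `V` at `a` -/
noncomputable def tres5Chi (a : ↥V) : (↥V)[X] →+* IsLocalRing.ResidueField ↥V :=
  (IsLocalRing.residue ↥V).comp (evalRingHom a)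

theorem tres5Chi_apply (a : ↥V) (Q : (↥V)[X]) :
    tres5Chi V a Q = IsLocalRing.residue ↥V (Q.eval a) := rfl

@[simp] theorem tres5Chi_X (a : ↥V) : tres5Chi V a X = IsLocalRing.residue ↥V a := by
  rw [tres5Chi_apply, eval_X]

@[simp] theorem tres5Chi_C (a b : ↥V) : tres5Chi V a (C b) = IsLocalRing.residue ↥V b := by
  rw [tres5Chi_apply, eval_C]

end Maps

/-! ### The data -/

/-- A monogenic extension `L = F(z)` which is split at the discrete valuation subring `V`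
of `F`. -/
structure Tres5Gen (F L : Type*) [Field F] [Field L] [Algebra F L] (V : ValuationSubring F)
    (n : ℕ) where
  hn : n ≠ 0
  hfin : Module.finrank F L = n
  /-- a uniformizer of `V` -/
  π : F
  hπ : π ∈ V.nonunits
  hπ0 : π ≠ 0
  hunif : ∀ x : F, x ≠ 0 → ∃ m : ℤ, V.valuation (x / π ^ m) = 1
  /-- the generator -/
  z : L
  htop : IntermediateField.adjoin F {z} = ⊤
  /-- the roots modulo `𝔪_V` -/
  c : ℕ → ↥V
  hc : ∀ i < n, ∀ j < n, i ≠ j → IsLocalRing.residue ↥V (c i - c j) ≠ 0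
  /-- the error term -/
  R : (↥V)[X]
  hR : R.degree < (n : WithBot ℕ)
  hz : eval₂ (tres5Iota V L) z
    (∏ i ∈ Finset.range n, (X - C (c i)) + C (⟨π, by
      rw [← V.valuation_le_one_iff]
      exact le_of_lt ((V.mem_nonunits_iff).1 hπ)⟩ : ↥V) * R) = 0

namespace Tres5Gen

variable {F L : Type*} [Field F] [Field L] [Algebra F L] {V : ValuationSubring F} {n : ℕ}
  (S : Tres5Gen F L V n)

theorem π_mem : S.π ∈ V := by
  rw [← V.valuation_le_one_iff]
  exact le_of_lt ((V.mem_nonunits_iff).1 S.hπ)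

/-- the uniformizer, as an element of `V` -/
noncomputable def πV : ↥V := ⟨S.π, S.π_mem⟩

theorem residue_πV : IsLocalRing.residue ↥V S.πV = 0 := by
  rw [IsLocalRing.residue_eq_zero_iff, V.valuation_lt_one_iff]
  exact (V.mem_nonunits_iff).1 S.hπ

/-- the evaluation at `z` -/
noncomputable def ψ : (↥V)[X] →+* L := eval₂RingHom (tres5Iota V L) S.z

theorem ψ_apply (Q : (↥V)[X]) : S.ψ Q = eval₂ (tres5Iota V L) S.z Q := rfl

@[simp] theorem ψ_X : S.ψ X = S.z := by rw [ψ_apply, eval₂_X]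

@[simp] theorem ψ_C (a : ↥V) : S.ψ (C a) = tres5Iota V L a := by
  rw [ψ_apply, eval₂_C]

theorem ψ_πV : S.ψ (C S.πV) = algebraMap F L S.π := by
  rw [ψ_C]
  rfl

theorem ψ_eq_aeval (Q : (↥V)[X]) : S.ψ Q = aeval S.z (Q.map V.subtype) := by
  rw [ψ_apply, aeval_def, eval₂_map]
  rfl

/-- the minimal polynomial of `z` over `V` -/
noncomputable def P : (↥V)[X] := ∏ i ∈ Finset.range n, (X - C (S.c i)) + C S.πV * S.R

theorem ψ_P : S.ψ S.P = 0 := S.hz

include S in
theorem natDegree_prod :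
    (∏ i ∈ Finset.range n, (X - C (S.c i))).natDegree = n := by
  rw [natDegree_prod_of_monic _ _ (fun j _ => monic_X_sub_C _)]
  simp

theorem degree_prod :
    (∏ i ∈ Finset.range n, (X - C (S.c i))).degree = (n : WithBot ℕ) := by
  rw [degree_eq_natDegree (monic_prod_X_sub_C _ _).ne_zero, S.natDegree_prod]

theorem degree_πR : (C S.πV * S.R).degree < (n : WithBot ℕ) :=
  lt_of_le_of_lt (degree_mul_le _ _)
    (by
      calc (C S.πV).degree + S.R.degree ≤ 0 + S.R.degree := by gcongr; exact degree_C_le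
        _ = S.R.degree := zero_add _
        _ < n := S.hR)

theorem P_monic : S.P.Monic := by
  unfold P
  refine (monic_prod_X_sub_C _ _).add_of_left ?_
  rw [S.degree_prod]
  exact S.degree_πR

theorem degree_P : S.P.degree = (n : WithBot ℕ) := by
  unfold P
  rw [degree_add_eq_left_of_degree_lt (by rw [S.degree_prod]; exact S.degree_πR), S.degree_prod]

/-! ### The degree of `L / F` -/

include S in
theorem finiteDimensional : FiniteDimensional F L :=
  Module.finite_of_finrank_pos (by rw [S.hfin]; exact Nat.pos_of_ne_zero S.hn)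

theorem natDegree_minpoly : (minpoly F S.z).natDegree = n := by
  haveI := S.finiteDimensional
  rw [(Field.primitive_element_iff_minpoly_natDegree_eq F S.z).1 S.htop, S.hfin]

theorem isIntegral_z : IsIntegral F S.z := by
  haveI := S.finiteDimensional
  exact IsIntegral.of_finite F _

/-- every element of `L` is a polynomial in `z` -/
theorem exists_aeval (f : L) : ∃ Q : F[X], aeval S.z Q = f := by
  have h1 : (IntermediateField.adjoin F {S.z}).toSubalgebra = Algebra.adjoin F {S.z} :=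
    IntermediateField.adjoin_simple_toSubalgebra_of_isAlgebraic S.isIntegral_z.isAlgebraic
  have h2 : f ∈ Algebra.adjoin F {S.z} := by
    rw [← h1, S.htop]
    exact Algebra.mem_top
  rw [Algebra.adjoin_singleton_eq_range_aeval] at h2
  exact h2

/-- the kernel of the evaluation at `z` is generated by `P` -/
theorem ψ_eq_zero {Q : (↥V)[X]} (hQ : S.ψ Q = 0) : ∃ q : (↥V)[X], Q = S.P * q := by
  have hdiv := modByMonic_add_div Q S.P
  have hr : S.ψ (Q %ₘ S.P) = 0 := by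
    have := congrArg S.ψ hdiv
    rw [map_add, map_mul, S.ψ_P, zero_mul, add_zero, hQ] at this
    exact this
  have hr0 : Q %ₘ S.P = 0 := by
    by_contra hne
    have hinj : Function.Injective (V.subtype : ↥V →+* F) := Subtype.val_injective
    have hne' : (Q %ₘ S.P).map V.subtype ≠ 0 := (Polynomial.map_ne_zero_iff hinj).2 hne
    have h1 := minpoly.degree_le_of_ne_zero F S.z hne' (by rw [← S.ψ_eq_aeval, hr])
    rw [degree_map_eq_of_injective hinj] at h1
    have h2 := degree_modByMonic_lt Q S.P_monic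
    have h3 : (minpoly F S.z).degree = (n : WithBot ℕ) := by
      rw [degree_eq_natDegree (minpoly.ne_zero S.isIntegral_z), S.natDegree_minpoly]
    rw [h3] at h1
    rw [S.degree_P] at h2
    exact absurd (lt_of_le_of_lt h1 h2) (lt_irrefl _)
  rw [hr0, zero_add] at hdiv
  exact ⟨Q /ₘ S.P, hdiv.symm⟩

theorem χ_P {k : ℕ} (hk : k < n) : tres5Chi V (S.c k) S.P = 0 := by
  unfold P
  rw [map_add, map_mul, map_prod, tres5Chi_C, S.residue_πV, zero_mul, add_zero]
  refine Finset.prod_eq_zero (i := k) (Finset.mem_range.2 hk) ?_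
  rw [map_sub, tres5Chi_X, tres5Chi_C, sub_self]

theorem ker_le {k : ℕ} (hk : k < n) :
    RingHom.ker S.ψ.rangeRestrict ≤ RingHom.ker (tres5Chi V (S.c k)) := by
  intro Q hQ
  rw [RingHom.mem_ker] at hQ ⊢
  have hQ' : S.ψ Q = 0 := by
    have := congrArg Subtype.val hQ
    simpa using this
  obtain ⟨q, rfl⟩ := S.ψ_eq_zero hQ'
  rw [map_mul, S.χ_P hk, zero_mul]

/-- the point `z = c k, π = 0` of `V[z]` -/
noncomputable def φ {k : ℕ} (hk : k < n) : S.ψ.range →+* IsLocalRing.ResidueField ↥V :=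
  RingHom.liftOfSurjective S.ψ.rangeRestrict S.ψ.rangeRestrict_surjective
    ⟨tres5Chi V (S.c k), S.ker_le hk⟩

theorem φ_ψ {k : ℕ} (hk : k < n) (Q : (↥V)[X]) :
    S.φ hk (S.ψ.rangeRestrict Q) = tres5Chi V (S.c k) Q :=
  RingHom.liftOfRightInverse_comp_apply _ _ _ ⟨tres5Chi V (S.c k), S.ker_le hk⟩ Q

/-! ### The maximal ideal of `V` and denominators -/

/-- the maximal ideal of `V` is generated by `π` -/
theorem exists_eq_π_mul {a : ↥V} (ha : IsLocalRing.residue ↥V a = 0) :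
    ∃ b : ↥V, a = S.πV * b := by
  rw [IsLocalRing.residue_eq_zero_iff, V.valuation_lt_one_iff] at ha
  by_cases ha0 : (a : F) = 0
  · exact ⟨0, by rw [mul_zero]; exact Subtype.ext ha0⟩
  obtain ⟨m, hm⟩ := S.hunif (a : F) ha0
  have hπv : V.valuation S.π < 1 := (V.mem_nonunits_iff).1 S.hπ
  have hmem : (a : F) / S.π ∈ V := by
    rcases le_or_gt m 0 with hm0 | hm0
    · exfalso
      obtain ⟨r, hr⟩ := Int.exists_eq_neg_ofNat hm0
      rw [hr, zpow_neg, zpow_natCast, div_inv_eq_mul, map_mul, map_pow] at hm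
      have h1 : V.valuation S.π ^ r ≤ 1 := pow_le_one₀ zero_le (le_of_lt hπv)
      have h2 : V.valuation (a : F) * V.valuation S.π ^ r < 1 := by
        calc V.valuation (a : F) * V.valuation S.π ^ r ≤ V.valuation (a : F) * 1 := by gcongr
          _ = V.valuation (a : F) := mul_one _
          _ < 1 := ha
      rw [hm] at h2
      exact lt_irrefl _ h2
    · obtain ⟨r, hr⟩ : ∃ r : ℕ, m = r + 1 := ⟨(m - 1).toNat, by omega⟩
      have e : (a : F) / S.π = (a : F) / S.π ^ m * S.π ^ r := by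
        rw [hr, zpow_add_one₀ S.hπ0, zpow_natCast]
        have := pow_ne_zero r S.hπ0
        have := S.hπ0
        field_simp
      rw [e]
      refine V.mul_mem _ _ ?_ (V.pow_mem S.π_mem r)
      rw [← V.valuation_le_one_iff, hm]
  refine ⟨⟨(a : F) / S.π, hmem⟩, Subtype.ext ?_⟩
  change (a : F) = S.π * ((a : F) / S.π)
  rw [mul_div_cancel₀ _ S.hπ0]

/-- clearing denominators -/
theorem exists_clear (Q : F[X]) :
    ∃ (m : ℕ) (Q' : (↥V)[X]), Q'.map V.subtype = C (S.π ^ m) * Q := by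
  induction Q using Polynomial.induction_on' with
  | add Q₁ Q₂ h₁ h₂ =>
    obtain ⟨n₁, Q₁', h₁⟩ := h₁
    obtain ⟨n₂, Q₂', h₂⟩ := h₂
    refine ⟨n₁ + n₂, C (S.πV ^ n₂) * Q₁' + C (S.πV ^ n₁) * Q₂', ?_⟩
    have e : ∀ m : ℕ, V.subtype (S.πV ^ m) = S.π ^ m := fun m => by
      rw [map_pow]
      rfl
    rw [Polynomial.map_add, Polynomial.map_mul, Polynomial.map_mul, h₁, h₂, map_C, map_C,
      e, e, pow_add, C_mul]
    ring
  | monomial i a =>
    by_cases ha0 : a = 0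
    · exact ⟨0, 0, by simp [ha0]⟩
    obtain ⟨m, hm⟩ := S.hunif a ha0
    have hmem : S.π ^ (-m).toNat * a ∈ V := by
      have e : S.π ^ (-m).toNat * a = a / S.π ^ m * S.π ^ ((-m).toNat + m).toNat := by
        have h1 : (S.π ^ ((-m).toNat + m).toNat : F) = S.π ^ (((-m).toNat : ℤ) + m) := by
          rw [← zpow_natCast]
          congr 1
          omega
        rw [h1, zpow_add₀ S.hπ0, zpow_natCast]
        have := zpow_ne_zero m S.hπ0
        field_simp
      rw [e]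
      refine V.mul_mem _ _ ?_ (V.pow_mem S.π_mem _)
      rw [← V.valuation_le_one_iff, hm]
    refine ⟨(-m).toNat, monomial i ⟨_, hmem⟩, ?_⟩
    rw [map_monomial, C_mul_monomial]
    rfl

/-! ### The local datum at `z = c k` -/

/-- the complement of `z − c k` -/
noncomputable def Epoly (k : ℕ) : (↥V)[X] :=
  ∏ i ∈ (Finset.range n).erase k, (X - C (S.c i))

theorem X_mul_Epoly {k : ℕ} (hk : k < n) :
    (X - C (S.c k)) * S.Epoly k = S.P - C S.πV * S.R := by
  unfold Epoly P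
  rw [add_sub_cancel_right]
  exact Finset.mul_prod_erase (Finset.range n) (fun j => (X - C (S.c j) : (↥V)[X]))
    (Finset.mem_range.2 hk)

theorem χ_Epoly {k : ℕ} (hk : k < n) : tres5Chi V (S.c k) (S.Epoly k) ≠ 0 := by
  unfold Epoly
  rw [map_prod, Finset.prod_ne_zero_iff]
  intro j hj
  rw [Finset.mem_erase, Finset.mem_range] at hj
  rw [map_sub, tres5Chi_X, tres5Chi_C, ← map_sub]
  exact S.hc k hk j hj.2 (Ne.symm hj.1)

/-- the local datum at `z = c k` -/
noncomputable def loc {k : ℕ} (hk : k < n) : Tres5Loc L (IsLocalRing.ResidueField ↥V) where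
  Λ := S.ψ.range
  φ := S.φ hk
  π := S.ψ.rangeRestrict (C S.πV)
  hπ0 := by
    change S.ψ (C S.πV) ≠ 0
    rw [S.ψ_πV]
    exact (_root_.map_ne_zero _).2 S.hπ0
  hφπ := by rw [S.φ_ψ hk, tres5Chi_C, S.residue_πV]
  E := S.ψ.rangeRestrict (S.Epoly k)
  hE := by
    rw [S.φ_ψ hk]
    exact S.χ_Epoly hk
  hker := by
    intro f hf
    obtain ⟨Q, rfl⟩ := S.ψ.rangeRestrict_surjective f
    rw [S.φ_ψ hk, tres5Chi_apply] at hf
    obtain ⟨b, hb⟩ := S.exists_eq_π_mul hf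
    refine ⟨S.ψ.rangeRestrict (C b * S.Epoly k - (Q /ₘ (X - C (S.c k))) * S.R), ?_⟩
    rw [← map_mul, ← map_mul]
    apply Subtype.ext
    change S.ψ (Q * S.Epoly k) =
      S.ψ (C S.πV * (C b * S.Epoly k - (Q /ₘ (X - C (S.c k))) * S.R))
    have hQ : Q = (X - C (S.c k)) * (Q /ₘ (X - C (S.c k))) + C (S.πV * b) := by
      rw [← hb, ← modByMonic_X_sub_C_eq_C_eval, add_comm]
      exact (modByMonic_add_div Q _).symm
    have e : Q * S.Epoly k = (Q /ₘ (X - C (S.c k))) * S.P +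
        C S.πV * (C b * S.Epoly k - (Q /ₘ (X - C (S.c k))) * S.R) := by
      have h1 : Q * S.Epoly k =
          (Q /ₘ (X - C (S.c k))) * ((X - C (S.c k)) * S.Epoly k) +
            C (S.πV * b) * S.Epoly k := by
        conv_lhs => rw [hQ]
        ring
      rw [h1, S.X_mul_Epoly hk, C_mul]
      ring
    rw [e, map_add, map_mul S.ψ (Q /ₘ (X - C (S.c k))), S.ψ_P, mul_zero, zero_add]
  hfrac := by
    intro f hf
    obtain ⟨Q, hQ⟩ := S.exists_aeval f⁻¹
    obtain ⟨m, Q', hQ'⟩ := S.exists_clear Q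
    refine ⟨S.ψ.rangeRestrict Q', m, ?_⟩
    change f * S.ψ Q' = (S.ψ (C S.πV)) ^ m
    rw [S.ψ_eq_aeval, hQ', map_mul, hQ, aeval_C, S.ψ_πV, map_pow]
    field_simp

open Classical in
/-- **The valuation subrings of `L` over `V`** (`W k` for `k < n`; junk `⊤` otherwise). -/
noncomputable def W (k : ℕ) : ValuationSubring L :=
  if hk : k < n then (S.loc hk).val else ⊤

theorem W_eq {k : ℕ} (hk : k < n) : S.W k = (S.loc hk).val := dif_pos hk

theorem loc_π {k : ℕ} (hk : k < n) : ((S.loc hk).π : L) = algebraMap F L S.π := S.ψ_πV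

/-! ### Properties of `W k` -/

theorem ψ_mem_loc {k : ℕ} (hk : k < n) (Q : (↥V)[X]) : S.ψ Q ∈ (S.loc hk).Λ :=
  ⟨Q, rfl⟩

theorem mem_W_iff {k : ℕ} (hk : k < n) {f : L} :
    f ∈ S.W k ↔ ∃ Q₁ Q₂ : (↥V)[X],
      IsLocalRing.residue ↥V (Q₂.eval (S.c k)) ≠ 0 ∧ f * S.ψ Q₂ = S.ψ Q₁ := by
  rw [S.W_eq hk, Tres5Loc.mem_val_iff]
  constructor
  · rintro ⟨b, hb, h⟩
    obtain ⟨Q₂, rfl⟩ := S.ψ.rangeRestrict_surjective b
    obtain ⟨Q₁, hQ₁⟩ := h
    refine ⟨Q₁, Q₂, ?_, hQ₁.symm⟩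
    have := hb
    change S.φ hk _ ≠ 0 at this
    rwa [S.φ_ψ hk, tres5Chi_apply] at this
  · rintro ⟨Q₁, Q₂, hQ₂, h⟩
    refine ⟨S.ψ.rangeRestrict Q₂, ?_, ?_⟩
    · change S.φ hk _ ≠ 0
      rwa [S.φ_ψ hk, tres5Chi_apply]
    · change f * S.ψ Q₂ ∈ S.ψ.range
      rw [h]
      exact ⟨Q₁, rfl⟩

theorem ψ_mem_W {k : ℕ} (hk : k < n) (Q : (↥V)[X]) : S.ψ Q ∈ S.W k := by
  rw [S.W_eq hk]
  exact (S.loc hk).le_val (S.ψ_mem_loc hk Q)

/-- `ψ Q` is a non-unit of `W k` if `Q (c k) ∈ 𝔪_V` -/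
theorem ψ_mem_nonunits {k : ℕ} (hk : k < n) {Q : (↥V)[X]}
    (hQ : IsLocalRing.residue ↥V (Q.eval (S.c k)) = 0) : S.ψ Q ∈ (S.W k).nonunits := by
  rw [S.W_eq hk]
  have h := (S.loc hk).ker_mem_nonunits (a := S.ψ.rangeRestrict Q)
    (by change S.φ hk _ = 0; rw [S.φ_ψ hk, tres5Chi_apply, hQ])
  exact h

/-- `ψ Q` is a unit of `W k` if `Q (c k) ∈ V^×` -/
theorem ψ_valuation_eq_one {k : ℕ} (hk : k < n) {Q : (↥V)[X]}
    (hQ : IsLocalRing.residue ↥V (Q.eval (S.c k)) ≠ 0) : (S.W k).valuation (S.ψ Q) = 1 := by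
  rw [S.W_eq hk]
  have h := (S.loc hk).valuation_eq_one_of_phi_ne (b := S.ψ.rangeRestrict Q)
    (by change S.φ hk _ ≠ 0; rw [S.φ_ψ hk, tres5Chi_apply]; exact hQ)
  exact h

theorem ι_mem_W {k : ℕ} (hk : k < n) (a : ↥V) : tres5Iota V L a ∈ S.W k := by
  rw [← S.ψ_C]
  exact S.ψ_mem_W hk _

theorem ι_mem_nonunits {k : ℕ} (hk : k < n) {a : ↥V} (ha : IsLocalRing.residue ↥V a = 0) :
    tres5Iota V L a ∈ (S.W k).nonunits := by
  rw [← S.ψ_C]
  exact S.ψ_mem_nonunits hk (by rwa [eval_C])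

theorem ι_valuation_eq_one {k : ℕ} (hk : k < n) {a : ↥V} (ha : IsLocalRing.residue ↥V a ≠ 0) :
    (S.W k).valuation (tres5Iota V L a) = 1 := by
  rw [← S.ψ_C]
  exact S.ψ_valuation_eq_one hk (by rwa [eval_C])

/-- **(a)** `W k ∩ F = V` -/
theorem W_comap {k : ℕ} (hk : k < n) : (S.W k).comap (algebraMap F L) = V := by
  ext x
  rw [ValuationSubring.mem_comap]
  constructor
  · intro hx
    by_contra hxV
    have hx0 : x ≠ 0 := by
      rintro rfl
      exact hxV V.zero_mem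
    have hinv : x⁻¹ ∈ V := (V.mem_or_inv_mem x).resolve_left hxV
    have hres : IsLocalRing.residue ↥V ⟨x⁻¹, hinv⟩ = 0 := by
      rw [IsLocalRing.residue_eq_zero_iff, V.valuation_lt_one_iff]
      change V.valuation x⁻¹ < 1
      have h1 : V.valuation x⁻¹ ≤ 1 := (V.valuation_le_one_iff _).2 hinv
      rcases lt_or_eq_of_le h1 with h | h
      · exact h
      · exfalso
        apply hxV
        rw [← V.valuation_le_one_iff]
        rw [map_inv₀, inv_eq_one] at h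
        rw [h]
    have h2 := S.ι_mem_nonunits hk hres
    rw [tres5Iota_apply, ValuationSubring.mem_nonunits_iff] at h2
    change (S.W k).valuation (algebraMap F L x⁻¹) < 1 at h2
    rw [map_inv₀, map_inv₀] at h2
    have h3 : (S.W k).valuation (algebraMap F L x) ≤ 1 :=
      (ValuationSubring.valuation_le_one_iff _ _).2 hx
    have h4 : (S.W k).valuation (algebraMap F L x) ≠ 0 :=
      (Valuation.ne_zero_iff _).2 ((_root_.map_ne_zero _).2 hx0)
    rw [inv_lt_one₀ (zero_lt_iff.2 h4)] at h2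
    exact absurd (lt_of_lt_of_le h2 h3) (lt_irrefl _)
  · intro hx
    exact S.ι_mem_W hk ⟨x, hx⟩

/-- **(b)** `z − c k ∈ 𝔪(W k)` -/
theorem W_z_mem {k : ℕ} (hk : k < n) : S.z - tres5Iota V L (S.c k) ∈ (S.W k).nonunits := by
  have h := S.ψ_mem_nonunits hk (Q := X - C (S.c k)) (by simp)
  rwa [map_sub, S.ψ_X, S.ψ_C] at h

/-- `z − c j` is a unit of `W k` for `j ≠ k` -/
theorem W_z_unit {j k : ℕ} (hj : j < n) (hk : k < n) (hjk : j ≠ k) :
    (S.W k).valuation (S.z - tres5Iota V L (S.c j)) = 1 := by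
  have h := S.ψ_valuation_eq_one hk (Q := X - C (S.c j))
    (by rw [eval_sub, eval_X, eval_C]; exact S.hc k hk j hj (Ne.symm hjk))
  rwa [map_sub, S.ψ_X, S.ψ_C] at h

/-- the `W k`, `k < n`, are pairwise distinct -/
theorem W_inj {j k : ℕ} (hj : j < n) (hk : k < n) (h : S.W j = S.W k) : j = k := by
  by_contra hjk
  have h1 := S.W_z_mem hj
  rw [h, ValuationSubring.mem_nonunits_iff, S.W_z_unit hj hk hjk] at h1
  exact lt_irrefl _ h1

/-- **(c)** `e = 1`: `π` is a uniformizer of `W k` -/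
theorem W_unif {k : ℕ} (hk : k < n) {f : L} (hf : f ≠ 0) :
    ∃ m : ℤ, (S.W k).valuation (f / algebraMap F L S.π ^ m) = 1 := by
  obtain ⟨m, hm⟩ := (S.loc hk).unif hf
  rw [S.loc_π hk] at hm
  exact ⟨m, by rw [S.W_eq hk]; exact hm⟩

theorem π_mem_nonunits {k : ℕ} (hk : k < n) : algebraMap F L S.π ∈ (S.W k).nonunits := by
  rw [S.W_eq hk, ← S.loc_π hk]
  exact (S.loc hk).pi_mem_nonunits

/-- the non-units of `W k` are multiples of `π` -/
theorem div_π_mem {k : ℕ} (hk : k < n) {f : L} (hf : f ∈ (S.W k).nonunits) :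
    f / algebraMap F L S.π ∈ S.W k := by
  rw [S.W_eq hk] at hf ⊢
  rw [← S.loc_π hk]
  exact (S.loc hk).div_pi_mem_of_nonunit hf

/-- **(d)** `f = 1`: the residue field of `W k` is the residue field of `V` -/
theorem W_residue {k : ℕ} (hk : k < n) {f : L} (hf : f ∈ S.W k) :
    ∃ a : ↥V, f - tres5Iota V L a ∈ (S.W k).nonunits := by
  obtain ⟨Q₁, Q₂, hQ₂, h⟩ := (S.mem_W_iff hk).1 hf
  -- the value of the denominator at `c k` is a unit of `V`
  have hu : IsUnit (Q₂.eval (S.c k)) := by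
    by_contra hnu
    exact hQ₂ ((IsLocalRing.residue_eq_zero_iff _).2 ((IsLocalRing.mem_maximalIdeal _).2 hnu))
  obtain ⟨u, hu⟩ := hu
  refine ⟨Q₁.eval (S.c k) * ((u⁻¹ : (↥V)ˣ) : ↥V), ?_⟩
  have hres := (S.loc hk).residue (f := f) (a := S.ψ.rangeRestrict Q₁)
    (b := S.ψ.rangeRestrict Q₂) (a₀ := S.ψ.rangeRestrict (C (Q₁.eval (S.c k))))
    (b₀ := S.ψ.rangeRestrict (C (Q₂.eval (S.c k))))
    (by change S.φ hk _ ≠ 0; rw [S.φ_ψ hk, tres5Chi_apply]; exact hQ₂) h
    (by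
      change S.φ hk _ = S.φ hk _
      rw [S.φ_ψ hk, S.φ_ψ hk, tres5Chi_C, tres5Chi_apply])
    (by
      change S.φ hk _ = S.φ hk _
      rw [S.φ_ψ hk, S.φ_ψ hk, tres5Chi_C, tres5Chi_apply])
  rw [S.W_eq hk]
  have e : tres5Iota V L (Q₁.eval (S.c k) * ((u⁻¹ : (↥V)ˣ) : ↥V)) =
      ((S.ψ.rangeRestrict (C (Q₁.eval (S.c k))) : S.ψ.range) : L) /
        ((S.ψ.rangeRestrict (C (Q₂.eval (S.c k))) : S.ψ.range) : L) := by
    change _ = S.ψ (C (Q₁.eval (S.c k))) / S.ψ (C (Q₂.eval (S.c k)))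
    rw [S.ψ_C, S.ψ_C, map_mul, ← hu, div_eq_mul_inv]
    congr 1
    have h1 : tres5Iota V L ((u : ↥V)) * tres5Iota V L (((u⁻¹ : (↥V)ˣ) : ↥V)) = 1 := by
      rw [← map_mul, Units.mul_inv, map_one]
    exact eq_inv_of_mul_eq_one_right h1
  rw [e]
  exact hres

/-- **(d′)** `F` is dense in `W k` -/
theorem W_dense {k : ℕ} (hk : k < n) {f : L} (hf : f ∈ S.W k) (m : ℕ) :
    ∃ a : ↥V, (f - tres5Iota V L a) / algebraMap F L S.π ^ m ∈ S.W k := by
  induction m with
  | zero =>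
    refine ⟨0, ?_⟩
    rw [map_zero, sub_zero, pow_zero, div_one]
    exact hf
  | succ m ih =>
    obtain ⟨a, ha⟩ := ih
    obtain ⟨b, hb⟩ := S.W_residue hk ha
    have h := S.div_π_mem hk hb
    refine ⟨a + S.πV ^ m * b, ?_⟩
    have hπ : algebraMap F L S.π ≠ 0 := (_root_.map_ne_zero _).2 S.hπ0
    have e : (f - tres5Iota V L (a + S.πV ^ m * b)) / algebraMap F L S.π ^ (m + 1) =
        ((f - tres5Iota V L a) / algebraMap F L S.π ^ m - tres5Iota V L b) /
          algebraMap F L S.π := by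
      rw [map_add, map_mul, map_pow]
      have : tres5Iota V L S.πV = algebraMap F L S.π := rfl
      rw [this]
      field_simp
      ring
    rw [e]
    exact h

/-! ### Uniqueness -/

/-- the roots of `P` -/
theorem prod_z_sub :
    ∏ i ∈ Finset.range n, (S.z - tres5Iota V L (S.c i)) =
      -(algebraMap F L S.π * S.ψ S.R) := by
  have h := S.ψ_P
  unfold P at h
  rw [map_add, map_prod, map_mul, S.ψ_πV] at h
  simp only [map_sub, S.ψ_X, S.ψ_C] at h
  exact eq_neg_of_add_eq_zero_left h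

/-- **(e)** every valuation subring of `L` over `V` is one of the `W k` -/
theorem W_unique {W' : ValuationSubring L} (hW' : W'.comap (algebraMap F L) = V) :
    ∃ k < n, W' = S.W k := by
  have hV : ∀ a : ↥V, tres5Iota V L a ∈ W' := by
    intro a
    have : (a : F) ∈ W'.comap (algebraMap F L) := by rw [hW']; exact a.2
    exact this
  have hπinv : (algebraMap F L S.π)⁻¹ ∉ W' := by
    intro h
    have h1 : S.π⁻¹ ∈ W'.comap (algebraMap F L) := by
      rw [ValuationSubring.mem_comap, map_inv₀]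
      exact h
    rw [hW'] at h1
    have h2 := (V.mem_nonunits_iff).1 S.hπ
    rw [← V.valuation_le_one_iff, map_inv₀,
      inv_le_one₀ (zero_lt_iff.2 ((Valuation.ne_zero_iff _).2 S.hπ0))] at h1
    exact absurd (lt_of_le_of_lt h1 h2) (lt_irrefl _)
  have hπW : algebraMap F L S.π ∈ W' := hV S.πV
  have hπnu : algebraMap F L S.π ∈ W'.nonunits := by
    rw [ValuationSubring.mem_nonunits_iff]
    have h1 : W'.valuation (algebraMap F L S.π) ≤ 1 :=
      (ValuationSubring.valuation_le_one_iff _ _).2 hπW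
    rcases lt_or_eq_of_le h1 with h | h
    · exact h
    · exfalso
      apply hπinv
      rw [← ValuationSubring.valuation_le_one_iff, map_inv₀, h, inv_one]
  have hz : S.z ∈ W' := tres5_mem_of_root (tres5Iota V L) W' hV S.P_monic S.ψ_P
  have hψ : ∀ Q : (↥V)[X], S.ψ Q ∈ W' := by
    intro Q
    induction Q using Polynomial.induction_on' with
    | add Q₁ Q₂ h₁ h₂ =>
      rw [map_add]
      exact W'.add_mem _ _ h₁ h₂
    | monomial i a =>
      rw [← C_mul_X_pow_eq_monomial, map_mul, map_pow, S.ψ_C, S.ψ_X]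
      exact W'.mul_mem _ _ (hV a) (W'.pow_mem hz i)
  -- one of the factors is a non-unit
  have hprod : ∏ i ∈ Finset.range n, (S.z - tres5Iota V L (S.c i)) ∈ W'.nonunits := by
    rw [S.prod_z_sub]
    have h := tres5_mul_mem_nonunits W' (hψ S.R) hπnu
    rw [mul_comm] at h
    rw [ValuationSubring.mem_nonunits_iff, Valuation.map_neg]
    exact (ValuationSubring.mem_nonunits_iff _).1 h
  obtain ⟨k, hk, hkz⟩ : ∃ k < n, S.z - tres5Iota V L (S.c k) ∈ W'.nonunits := by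
    by_contra hno
    have hall : ∀ i ∈ Finset.range n, W'.valuation (S.z - tres5Iota V L (S.c i)) = 1 := by
      intro i hi
      have hmem : S.z - tres5Iota V L (S.c i) ∈ W' := sub_mem hz (hV _)
      have h1 : W'.valuation (S.z - tres5Iota V L (S.c i)) ≤ 1 :=
        (ValuationSubring.valuation_le_one_iff _ _).2 hmem
      rcases lt_or_eq_of_le h1 with h | h
      · exact absurd ⟨i, Finset.mem_range.1 hi, (ValuationSubring.mem_nonunits_iff _).2 h⟩ hno
      · exact h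
    rw [ValuationSubring.mem_nonunits_iff, map_prod, Finset.prod_congr rfl hall,
      Finset.prod_const_one] at hprod
    exact lt_irrefl _ hprod
  refine ⟨k, hk, ?_⟩
  rw [S.W_eq hk]
  refine (S.loc hk).eq_of_le ?_ (by rw [S.loc_π hk]; exact hπinv)
  intro f hf
  have hf' : f ∈ S.W k := by rw [S.W_eq hk]; exact hf
  obtain ⟨Q₁, Q₂, hQ₂, h⟩ := (S.mem_W_iff hk).1 hf'
  -- `ψ Q₂` is a unit of `W'`
  have hu : IsUnit (Q₂.eval (S.c k)) := by
    by_contra hnu
    exact hQ₂ ((IsLocalRing.residue_eq_zero_iff _).2 ((IsLocalRing.mem_maximalIdeal _).2 hnu))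
  obtain ⟨u, hu⟩ := hu
  have huval : W'.valuation (tres5Iota V L (u : ↥V)) = 1 := by
    have h1 : tres5Iota V L ((u : ↥V)) * tres5Iota V L (((u⁻¹ : (↥V)ˣ) : ↥V)) = 1 := by
      rw [← map_mul, Units.mul_inv, map_one]
    have hne : tres5Iota V L (u : ↥V) ≠ 0 := left_ne_zero_of_mul_eq_one h1
    rw [tres5_valuation_eq_one_iff W' hne]
    refine ⟨hV _, ?_⟩
    rw [← eq_inv_of_mul_eq_one_right h1]
    exact hV _
  have hdecomp : S.ψ Q₂ = (S.z - tres5Iota V L (S.c k)) * S.ψ (Q₂ /ₘ (X - C (S.c k))) +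
      tres5Iota V L (u : ↥V) := by
    have hQ : Q₂ = (X - C (S.c k)) * (Q₂ /ₘ (X - C (S.c k))) + C (Q₂.eval (S.c k)) := by
      rw [← modByMonic_X_sub_C_eq_C_eval, add_comm]
      exact (modByMonic_add_div Q₂ _).symm
    conv_lhs => rw [hQ]
    rw [map_add, map_mul, map_sub, S.ψ_X, S.ψ_C, S.ψ_C, hu]
  have hval : W'.valuation (S.ψ Q₂) = 1 := by
    rw [hdecomp]
    refine tres5_valuation_add_eq_one W' ?_ huval
    have := tres5_mul_mem_nonunits W' (hψ (Q₂ /ₘ (X - C (S.c k)))) hkz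
    rwa [mul_comm] at this
  have hne : S.ψ Q₂ ≠ 0 := by
    intro h0
    rw [h0, map_zero] at hval
    exact zero_ne_one hval
  have e : f = S.ψ Q₁ * (S.ψ Q₂)⁻¹ := by
    field_simp
    exact h
  rw [e]
  exact W'.mul_mem _ _ (hψ Q₁) ((tres5_valuation_eq_one_iff W' hne).1 hval).2

/-- **(f)** the deck transformations permute the `W k`: if `ρ z ≡ c m` modulo `𝔪(W k)`, then
`ρ⁻¹ (W k) = W m`. -/
theorem W_deck (ρ : L →ₐ[F] L) {k m : ℕ} (hk : k < n) (hm : m < n)
    (h : ρ S.z - tres5Iota V L (S.c m) ∈ (S.W k).nonunits) :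
    (S.W k).comap (ρ : L →+* L) = S.W m := by
  have hcomap : ((S.W k).comap (ρ : L →+* L)).comap (algebraMap F L) = V := by
    ext x
    rw [ValuationSubring.mem_comap, ValuationSubring.mem_comap]
    change ρ (algebraMap F L x) ∈ S.W k ↔ _
    rw [AlgHom.commutes, ← ValuationSubring.mem_comap, S.W_comap hk]
  obtain ⟨m', hm', hW⟩ := S.W_unique hcomap
  rw [hW]
  by_contra hne
  have hmm : m ≠ m' := fun h => hne (by rw [h])
  -- `z − c m'` is a non-unit of `W m' = ρ⁻¹ (W k)`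
  have h1 := S.W_z_mem hm'
  rw [← hW, tres5_mem_nonunits_comap] at h1
  change ρ (S.z - tres5Iota V L (S.c m')) ∈ (S.W k).nonunits at h1
  rw [map_sub, tres5Iota_apply, AlgHom.commutes, ← tres5Iota_apply] at h1
  have h2 := (S.W k).nonunits.sub_mem h1 h
  have e : ρ S.z - tres5Iota V L (S.c m') - (ρ S.z - tres5Iota V L (S.c m)) =
      tres5Iota V L (S.c m - S.c m') := by
    rw [map_sub]
    ring
  rw [e, ValuationSubring.mem_nonunits_iff,
    S.ι_valuation_eq_one hk (S.hc m hm m' hm' hmm)] at h2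
  exact lt_irrefl _ h2

end Tres5Gen

end Fermat.Agent.R38


end ZBR38_009_1

/-! ### bundled: `Fermat.Agent.R38.TresFacTr` -/
section ZBR38_009_2
/-
ROW 38, TRES, piece FAC-TR (helper90), part 1: THE REDUCTION MAP OF A SHEET (abstract).

`F ⊆ F′` fields, `V ⊆ F`, `W ⊆ F′` valuation subrings with `W ∩ F = V` and residue degree `1`
(`hres`: every element of `W` is congruent modulo `𝔪_W` to an element of `V` — the shape of
`Tres5Gen.W_residue`, `R38/TresCover.lean`), `ρ : V →+* L` a reduction map of `V` (kernel `𝔪_V`).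

* `tresft_sheet`        : `ρ` extends to a reduction map `ρ_W : W →+* L` of `W` (kernel `𝔪_W`),
                          with `ρ_W x = ρ a` whenever `x ≡ a mod 𝔪_W`, `a ∈ V`;
* `tresft_sheet_unique` : a ring homomorphism `W →+* L` killing `𝔪_W` and extending `ρ` is `ρ_W`.
So the residue function field of every sheet of the split cover (`Tres5Gen.W k`) is the one of the
vertical valuation downstairs, and the abstract dictionaries `RIB.MP.ribmp_rd_*`, `tresdn_*`
apply to the sheets with the same `L` and the same places `Q`.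
-/

set_option autoImplicit false
set_option linter.unusedSectionVars false
set_option linter.style.haveILetI false

noncomputable section

namespace Fermat.Agent.R38

open Fermat.Agent.UNIP Fermat.Agent.INJ

section Sheet

variable {F F' L : Type*} [Field F] [Field F'] [Field L] [Algebra F F']

/-- `a ∈ 𝔪_V ↔ a ∈ 𝔪_W` for `V = W ∩ F` -/
theorem tresft_mem_nonunits_iff (V : ValuationSubring F) (W : ValuationSubring F')
    (hWV : W.comap (algebraMap F F') = V) (a : F) :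
    algebraMap F F' a ∈ W.nonunits ↔ a ∈ V.nonunits := by
  rw [← hWV, vt_mem_nonunits_comap]

theorem tresft_mem_iff (V : ValuationSubring F) (W : ValuationSubring F')
    (hWV : W.comap (algebraMap F F') = V) (a : F) :
    algebraMap F F' a ∈ W ↔ a ∈ V := by
  rw [← hWV, ValuationSubring.mem_comap]

/-- the value of the sheet reduction at `x`: `ρ a` for any `a ∈ V` with `x ≡ a` at `W` -/
theorem tresft_sheet_wd (V : ValuationSubring F) (W : ValuationSubring F')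
    (hWV : W.comap (algebraMap F F') = V)
    (ρ : ↥V →+* L) (hker : ∀ a : ↥V, (a : F) ∈ V.nonunits → ρ a = 0)
    {x : F'} {a b : F} (ha : a ∈ V) (hb : b ∈ V)
    (hxa : x - algebraMap F F' a ∈ W.nonunits) (hxb : x - algebraMap F F' b ∈ W.nonunits) :
    ρ ⟨a, ha⟩ = ρ ⟨b, hb⟩ := by
  have h1 : algebraMap F F' (a - b) ∈ W.nonunits := by
    have e : algebraMap F F' (a - b) = (x - algebraMap F F' b) - (x - algebraMap F F' a) := by
      rw [map_sub]; ring
    rw [e]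
    exact vt_sub_mem_nonunits W hxb hxa
  have h2 : a - b ∈ V.nonunits := (tresft_mem_nonunits_iff V W hWV _).mp h1
  have h3 : ρ (⟨a, ha⟩ - ⟨b, hb⟩) = 0 := hker _ h2
  rw [map_sub] at h3
  exact sub_eq_zero.mp h3

/-- **(T1) The reduction map of a sheet.**  `W` a valuation subring of `F′` over `V = W ∩ F` with
residue degree `1` (`hres`, the shape of `Tres5Gen.W_residue`), `ρ : V →+* L` a reduction map of
`V` (kernel `𝔪_V`).  Then `ρ` extends to a reduction map `ρ_W : W →+* L` of `W`. -/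
theorem tresft_sheet (V : ValuationSubring F) (W : ValuationSubring F')
    (hWV : W.comap (algebraMap F F') = V)
    (hres : ∀ x ∈ W, ∃ a ∈ V, x - algebraMap F F' a ∈ W.nonunits)
    (ρ : ↥V →+* L) (hρ : ∀ a : ↥V, ρ a = 0 ↔ (a : F) ∈ V.nonunits) :
    ∃ ρW : ↥W →+* L,
      (∀ (a : F) (ha : a ∈ V) (haW : algebraMap F F' a ∈ W),
        ρW ⟨algebraMap F F' a, haW⟩ = ρ ⟨a, ha⟩) ∧
      (∀ (x : F') (hx : x ∈ W) (a : F) (ha : a ∈ V),
        x - algebraMap F F' a ∈ W.nonunits → ρW ⟨x, hx⟩ = ρ ⟨a, ha⟩) ∧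
      ∀ x : ↥W, ρW x = 0 ↔ (x : F') ∈ W.nonunits := by
  classical
  have hker : ∀ a : ↥V, (a : F) ∈ V.nonunits → ρ a = 0 := fun a ha => (hρ a).mpr ha
  -- the choice
  let c : ↥W → F := fun x => Classical.choose (hres x x.2)
  have hcV : ∀ x : ↥W, c x ∈ V := fun x => (Classical.choose_spec (hres x x.2)).1
  have hcx : ∀ x : ↥W, (x : F') - algebraMap F F' (c x) ∈ W.nonunits :=
    fun x => (Classical.choose_spec (hres x x.2)).2
  let f : ↥W → L := fun x => ρ ⟨c x, hcV x⟩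
  have hf : ∀ (x : ↥W) (a : F) (ha : a ∈ V),
      (x : F') - algebraMap F F' a ∈ W.nonunits → f x = ρ ⟨a, ha⟩ :=
    fun x a ha hxa => tresft_sheet_wd V W hWV ρ hker (hcV x) ha (hcx x) hxa
  have hVW : ∀ a : F, a ∈ V → algebraMap F F' a ∈ W :=
    fun a ha => (tresft_mem_iff V W hWV a).mpr ha
  have h0 : (0 : F') ∈ W.nonunits := by
    rw [ValuationSubring.mem_nonunits_iff, map_zero]
    exact zero_lt_one
  have hone : f 1 = 1 := by
    rw [hf 1 1 V.one_mem (by simp [h0])]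
    exact map_one ρ
  have hmul : ∀ x y : ↥W, f (x * y) = f x * f y := by
    intro x y
    have e : ((x * y : ↥W) : F') - algebraMap F F' (c x * c y) =
        ((x : F') - algebraMap F F' (c x)) * (y : F') +
          algebraMap F F' (c x) * ((y : F') - algebraMap F F' (c y)) := by
      rw [MulMemClass.coe_mul, map_mul]
      ring
    have h1 : ((x * y : ↥W) : F') - algebraMap F F' (c x * c y) ∈ W.nonunits := by
      rw [e]
      refine vt_add_mem_nonunits W ?_ ?_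
      · rw [mul_comm]
        exact vt_mul_mem_nonunits W y.2 (hcx x)
      · exact vt_mul_mem_nonunits W (hVW _ (hcV x)) (hcx y)
    rw [hf (x * y) (c x * c y) (V.mul_mem _ _ (hcV x) (hcV y)) h1]
    exact map_mul ρ ⟨c x, hcV x⟩ ⟨c y, hcV y⟩
  have hzero : f 0 = 0 := by
    rw [hf 0 0 V.zero_mem (by simp [h0])]
    exact map_zero ρ
  have hadd : ∀ x y : ↥W, f (x + y) = f x + f y := by
    intro x y
    have e : ((x + y : ↥W) : F') - algebraMap F F' (c x + c y) =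
        ((x : F') - algebraMap F F' (c x)) + ((y : F') - algebraMap F F' (c y)) := by
      rw [AddMemClass.coe_add, map_add]
      ring
    have h1 : ((x + y : ↥W) : F') - algebraMap F F' (c x + c y) ∈ W.nonunits := by
      rw [e]
      exact vt_add_mem_nonunits W (hcx x) (hcx y)
    rw [hf (x + y) (c x + c y) (V.add_mem _ _ (hcV x) (hcV y)) h1]
    exact map_add ρ ⟨c x, hcV x⟩ ⟨c y, hcV y⟩
  let ρW : ↥W →+* L :=
    { toFun := f
      map_one' := hone
      map_mul' := hmul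
      map_zero' := hzero
      map_add' := hadd }
  refine ⟨ρW, fun a ha haW => ?_, fun x hx a ha hxa => hf ⟨x, hx⟩ a ha hxa, fun x => ?_⟩
  · exact hf ⟨algebraMap F F' a, haW⟩ a ha (by simp [h0])
  · show f x = 0 ↔ _
    constructor
    · intro h
      have h1 : (c x : F) ∈ V.nonunits := (hρ ⟨c x, hcV x⟩).mp h
      have h2 : algebraMap F F' (c x) ∈ W.nonunits := (tresft_mem_nonunits_iff V W hWV _).mpr h1
      have e : (x : F') = ((x : F') - algebraMap F F' (c x)) + algebraMap F F' (c x) := by ring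
      rw [e]
      exact vt_add_mem_nonunits W (hcx x) h2
    · intro h
      have e : algebraMap F F' (c x) = (x : F') - ((x : F') - algebraMap F F' (c x)) := by ring
      have h2 : algebraMap F F' (c x) ∈ W.nonunits := by
        rw [e]
        exact vt_sub_mem_nonunits W h (hcx x)
      exact (hρ ⟨c x, hcV x⟩).mpr ((tresft_mem_nonunits_iff V W hWV _).mp h2)

/-- **Uniqueness of the sheet reduction.** -/
theorem tresft_sheet_unique (V : ValuationSubring F) (W : ValuationSubring F')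
    (hres : ∀ x ∈ W, ∃ a ∈ V, x - algebraMap F F' a ∈ W.nonunits)
    (ρ : ↥V →+* L) (ρ₁ ρ₂ : ↥W →+* L)
    (h₁ : ∀ (a : F) (ha : a ∈ V) (haW : algebraMap F F' a ∈ W),
      ρ₁ ⟨algebraMap F F' a, haW⟩ = ρ ⟨a, ha⟩)
    (h₂ : ∀ (a : F) (ha : a ∈ V) (haW : algebraMap F F' a ∈ W),
      ρ₂ ⟨algebraMap F F' a, haW⟩ = ρ ⟨a, ha⟩)
    (hk₁ : ∀ x : ↥W, (x : F') ∈ W.nonunits → ρ₁ x = 0)
    (hk₂ : ∀ x : ↥W, (x : F') ∈ W.nonunits → ρ₂ x = 0) : ρ₁ = ρ₂ := by
  apply RingHom.ext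
  intro x
  obtain ⟨a, ha, hxa⟩ := hres x x.2
  have haW : algebraMap F F' a ∈ W := by
    have e : algebraMap F F' a = (x : F') - ((x : F') - algebraMap F F' a) := by ring
    rw [e]
    exact W.sub_mem x.2 (vt_mem_of_mem_nonunits W hxa)
  have hx : x = (x - ⟨algebraMap F F' a, haW⟩) + ⟨algebraMap F F' a, haW⟩ := by ring
  have hd : ((x - ⟨algebraMap F F' a, haW⟩ : ↥W) : F') ∈ W.nonunits := by
    rw [AddSubgroupClass.coe_sub]
    exact hxa
  rw [hx, map_add, map_add, hk₁ _ hd, hk₂ _ hd, h₁ a ha haW, h₂ a ha haW]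

end Sheet

section Gen

variable {F F' L : Type*} [Field F] [Field F'] [Field L] [Algebra F F']

/-- **The reduction map of the sheet `S.W k` of a split cover** (`Tres5Gen`, helper78). -/
theorem tresft_sheet_gen {V : ValuationSubring F} {n : ℕ} (S : Tres5Gen F F' V n) {k : ℕ}
    (hk : k < n) (ρ : ↥V →+* L) (hρ : ∀ a : ↥V, ρ a = 0 ↔ (a : F) ∈ V.nonunits) :
    ∃ ρW : ↥(S.W k) →+* L,
      (∀ (a : F) (ha : a ∈ V) (haW : algebraMap F F' a ∈ S.W k),
        ρW ⟨algebraMap F F' a, haW⟩ = ρ ⟨a, ha⟩) ∧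
      (∀ (x : F') (hx : x ∈ S.W k) (a : F) (ha : a ∈ V),
        x - algebraMap F F' a ∈ (S.W k).nonunits → ρW ⟨x, hx⟩ = ρ ⟨a, ha⟩) ∧
      ∀ x : ↥(S.W k), ρW x = 0 ↔ (x : F') ∈ (S.W k).nonunits :=
  tresft_sheet V (S.W k) (S.W_comap hk)
    (fun x hx => by
      obtain ⟨a, ha⟩ := S.W_residue hk hx
      exact ⟨(a : F), a.2, ha⟩) ρ hρ

end Gen

end Fermat.Agent.R38

end
end ZBR38_009_2

/-! ### bundled: `Fermat.Agent.R38.TresMonoCover` -/
section ZBR38_009_3

/-!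
# Row 38, TRES, piece FAC-ASM-MAIN (helper89), part M3a: the abstract assembly ON THE COVER

Frame (helper92's ruling v3): `F` the function field of `X` over `K` (charts `t`, `t⁻¹` over the
discrete valuation ring `A₀`, uniformizer `π`), `F'` a finite extension of `F` (the function
field of the cover), `W` a valuation subring of `F'` (the Gauss sheet), `ρ : W →+* L` its
reduction map (helper90's `tresft_sheet`), `L` the residue function field, `Q` a place of `L`.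

There is NO chart of the cover: the "closed points of the cover" are local subrings `O'` of `F'`
(helper28's `O′_k`) lying above the closed points `𝔫` of the charts of `X`; every valuation ring
`T` of `F'` containing `atLoc 𝔫` contains one of them (`tres5n_exists_le`).

`tresmono_cover` : if at every closed point `𝔫` of the chart `t` of `X` and for every valuation
ring `T ⊆ W` of `F'` containing `atLoc 𝔫` there is a local ring `O' ⊆ T` at which the pair
`(y, h)` is smooth or a node (`TresMonoPt W O' p c e y h`), and the same at the cusps of the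
chart `t⁻¹` with `StbFacAt O' p y`, then for every place `Q` of `L`
`p ∣ e · ord_Q (ρ y) − c · ord_Q (ρ h)` if `ρ t ∈ O_Q`, and `p ∣ ord_Q (ρ y)` if `ρ t ∉ O_Q`.
-/

set_option autoImplicit false
set_option linter.unusedSectionVars false
set_option linter.style.haveILetI false

noncomputable section

namespace Fermat.Agent.R38

open AlgebraicCurve Fermat.Agent.UNIP Fermat.Agent.STB Fermat.Agent.INJ Fermat.Agent.RIB.MP

section Cover

variable {A₀ E F : Type*} [CommRing A₀] [IsDomain A₀] [IsDiscreteValuationRing A₀]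
  [Field E] [Algebra A₀ E] [IsFractionRing A₀ E] [CharZero E]
  [Field F] [Algebra E F] [Algebra A₀ F] [IsScalarTower A₀ E F]
  {F' : Type*} [Field F'] [Algebra F F']
  {k L : Type*} [Field k] [Field L] [Algebra k L]

/-- the restriction to `F` of a reduction map of a valuation subring of `F'` -/
def tresmonoRes (W : ValuationSubring F') (ρ : ↥W →+* L) :
    ↥(W.comap (algebraMap F F')) →+* L :=
  ρ.comp ((algebraMap F F').restrict (W.comap (algebraMap F F')).toSubring W.toSubring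
    (fun _ hx => hx))

theorem tresmonoRes_apply (W : ValuationSubring F') (ρ : ↥W →+* L) (x : F)
    (hx : x ∈ W.comap (algebraMap F F')) :
    tresmonoRes (F := F) W ρ ⟨x, hx⟩ = ρ ⟨algebraMap F F' x, hx⟩ := rfl

/-- valuation `1` upstairs is valuation `1` downstairs -/
theorem tresmono_val_comap (W : ValuationSubring F') {x : F}
    (hx : W.valuation (algebraMap F F' x) = 1) :
    (W.comap (algebraMap F F')).valuation x = 1 := by
  have hx0 : x ≠ 0 := by
    rintro rfl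
    rw [map_zero, map_zero] at hx
    exact zero_ne_one hx
  have h1 : x ∈ W.comap (algebraMap F F') := tresdn_mem W hx
  have h2 : x⁻¹ ∈ W.comap (algebraMap F F') := by
    rw [ValuationSubring.mem_comap, map_inv₀]
    exact tresdn_mem W (tresdn_inv_val W hx)
  have e1 := ((W.comap (algebraMap F F')).valuation_le_one_iff x).mpr h1
  have e2 := ((W.comap (algebraMap F F')).valuation_le_one_iff x⁻¹).mpr h2
  rw [map_inv₀] at e2
  have hv0 : (W.comap (algebraMap F F')).valuation x ≠ 0 := (Valuation.ne_zero_iff _).2 hx0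
  exact le_antisymm e1 ((inv_le_one₀ (zero_lt_iff.2 hv0)).1 e2)

/-- **FAC-ASM on the cover, abstract form (M3a).** -/
theorem tresmono_cover {π : A₀} {t : F} (W : ValuationSubring F') (ρ : ↥W →+* L)
    (hker : ∀ x : ↥W, (x : F') ∈ W.nonunits → ρ x = 0)
    (hAW : ∀ a : A₀, algebraMap F F' (algebraMap A₀ F a) ∈ W)
    (hπ : ρ ⟨algebraMap F F' (algebraMap A₀ F π), hAW π⟩ = 0)
    (ht : W.valuation (algebraMap F F' t) = 1)
    {p : ℕ} (hp : 0 < p) {y h : F'} (hy : W.valuation y = 1) (hh : W.valuation h = 1)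
    (c e : ℤ)
    (hfin : ∀ 𝔫 : AtPt (F := F) π t, ∀ T : ValuationSubring F',
      (∀ x ∈ atLoc 𝔫, algebraMap F F' x ∈ T) → (∀ x ∈ T, x ∈ W) →
      ∃ O' : Subring F', (∀ x ∈ O', x ∈ T) ∧ TresMonoPt W O' p c e y h)
    (hcusp : ∀ 𝔫 : AtPt (F := F) π t⁻¹, ∀ T : ValuationSubring F',
      (∀ x ∈ atLoc 𝔫, algebraMap F F' x ∈ T) → (∀ x ∈ T, x ∈ W) →
      (∀ b : ↥(zchClosure (A₀ := A₀) ({t⁻¹} : Set F)), (b : F) = t⁻¹ → b ∈ 𝔫.1) →
      ∃ O' : Subring F', (∀ x ∈ O', x ∈ T) ∧ StbFacAt O' p y)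
    (Q : Place k L)
    (hAQ : ∀ a : A₀, ρ ⟨algebraMap F F' (algebraMap A₀ F a), hAW a⟩ ∈ Q.toValuationSubring)
    (hfinQ : ∀ x ∈ Q.toValuationSubring, x ∉ Q.toValuationSubring.nonunits →
      ∃ n : ℕ, 0 < n ∧ x ^ n - 1 ∈ Q.toValuationSubring.nonunits) :
    (ρ ⟨algebraMap F F' t, tresdn_mem W ht⟩ ∈ Q.toValuationSubring →
      (p : ℤ) ∣ e * Q.ord (ρ ⟨y, tresdn_mem W hy⟩) - c * Q.ord (ρ ⟨h, tresdn_mem W hh⟩)) ∧
    (ρ ⟨algebraMap F F' t, tresdn_mem W ht⟩ ∉ Q.toValuationSubring →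
      (p : ℤ) ∣ Q.ord (ρ ⟨y, tresdn_mem W hy⟩)) := by
  -- the situation downstairs
  set V : ValuationSubring F := W.comap (algebraMap F F') with hV
  set ρF : ↥V →+* L := tresmonoRes (F := F) W ρ with hρF
  have hkerF : ∀ x : ↥V, (x : F) ∈ V.nonunits → ρF x = 0 := by
    intro x hx
    have h1 : algebraMap F F' (x : F) ∈ W.nonunits :=
      (tresft_mem_nonunits_iff V W rfl _).mpr hx
    exact hker ⟨algebraMap F F' (x : F), x.2⟩ h1
  have hAV : ∀ a : A₀, algebraMap A₀ F a ∈ V := fun a => hAW a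
  have htV : V.valuation t = 1 := tresmono_val_comap W ht
  obtain ⟨h1, h2⟩ := tresdn_centre (π := π) V ρF hkerF hAV hπ htV Q hAQ hfinQ
  -- the composite upstairs
  set T : ValuationSubring F' := ribmp_rd_comp W ρ Q.toValuationSubring hker with hT
  have hTW : ∀ x ∈ T, x ∈ W := fun x hx => (ribmp_rd_mem_comp.1 hx).1
  have hTO : ∀ O' : Subring F', (∀ x ∈ O', x ∈ T) →
      ∀ x ∈ O', ∃ hx : x ∈ W, ρ ⟨x, hx⟩ ∈ Q.toValuationSubring :=
    fun O' hO' x hx => ribmp_rd_mem_comp.1 (hO' x hx)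
  refine ⟨fun hin => ?_, fun hout => ?_⟩
  · obtain ⟨𝔫, h𝔫, -⟩ := h1 hin
    have h𝔫T : ∀ x ∈ atLoc 𝔫, algebraMap F F' x ∈ T := by
      intro x hx
      obtain ⟨hxV, hxQ⟩ := h𝔫 x hx
      exact ribmp_rd_mem_comp.2 ⟨hxV, hxQ⟩
    obtain ⟨O', hO', hpt⟩ := hfin 𝔫 T h𝔫T hTW
    exact tresmono_pt W ρ Q O' (hTO O' hO') hp hy hh c e hpt
  · obtain ⟨𝔫, h𝔫, -, hti⟩ := h2 hout
    have h𝔫T : ∀ x ∈ atLoc 𝔫, algebraMap F F' x ∈ T := by
      intro x hx
      obtain ⟨hxV, hxQ⟩ := h𝔫 x hx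
      exact ribmp_rd_mem_comp.2 ⟨hxV, hxQ⟩
    obtain ⟨O', hO', hfac⟩ := hcusp 𝔫 T h𝔫T hTW hti
    exact ribmp_rd_fac W ρ Q O' (hTO O' hO') hp hy hfac

end Cover

end Fermat.Agent.R38

end
end ZBR38_009_3

/-! ### bundled: `Fermat.Agent.R38.TresMonoFrame` -/
section ZBR38_009_4
/-
ROW 38, TRES, piece FAC-ASM-MAIN (helper89), part M3b: THE FRAME THEOREM.

`tresmono_frame` : the conclusion `FacMonoConcl M p A x` of `StmtMonoCover` / `StmtMonoFix`
(`R38/PlanMono.lean`) from the outputs of the pieces, in the abstract frame of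
`R38/TresMonoCover.lean` on the `K`-side and the concrete `k`-side
(`F̄_M = modularFunctionFieldFullC (kA A) M ⊆ F̄_{M'}`, `M'` the rigid level):

 K-SIDE (abstract types)   `A₀` DVR, `π`, `F` (function field of `X` over `K`, level `M' p`),
                           `t = j`, `F'` (function field of the cover over `K`; `F' = F` in the
                           no-cover case), `W` the Gauss sheet, `ρ : W →+* F̄_{M'}`;
 (TR)    `hker hAW hπ ht hρt hAQ hfinQ`   — helper90 (T1) on top of helper91's `ribmpRedF`;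
 (LOC)   `hfin`, `hcusp`                  — helper92 (LF) at `O′_k` + helper87 (M2) + helper14
                                            (MONO) + helper10 (OGG) + helper41 (XK);
 (RED)   `hcmp : r = a · ρ y · s ^ p`     — helper90 (T3, `tresft_compare`);
 (OGG)   `hρh : ρ h = h̄`, `hhecke`        — helper10, helper9;
 (RIG)   `TresRigDescent M M' p A`        — helper35.
-/

set_option autoImplicit false
set_option linter.unusedSectionVars false
set_option linter.style.haveILetI false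
set_option synthInstance.maxHeartbeats 400000
set_option maxHeartbeats 1600000

noncomputable section

namespace Fermat.Agent.R38

open ModularCurve AlgebraicCurve Fermat.Agent.ES Fermat.Agent.ES.G2 Fermat.Agent.STB
  Fermat.Agent.RIB.MP Fermat.Agent.S24 Fermat.Agent.DEU Fermat.Agent.ES.M Fermat.Agent.W1
  Fermat.Agent.S15 Fermat.Agent.RIB Fermat.Agent.UNIP Fermat.Agent.INJ

/-- the two order clauses of `StmtFacMono` at the places of `F̄_N` (`N = M` in the statement,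
`N = M'` rigid in the proof), for Laurent series `r, h ∈ F̄_N`. -/
def FacMonoOrdAt (N p : ℕ) [NeZero N] (A : ValuationSubring Qb)
    (r h : LaurentSeries (kA A)) (hr : r ∈ modularFunctionFieldFullC (kA A) N)
    (hh : h ∈ modularFunctionFieldFullC (kA A) N) (a b : ℤ) : Prop :=
  (∀ Q : Place (kA A) ↥(modularFunctionFieldFullC (kA A) N),
    0 ≤ Q.ord (⟨jqModC (kA A), jqModC_mem_full (kA A) N⟩ :
        ↥(modularFunctionFieldFullC (kA A) N)) →
      (p : ℤ) ∣ a * Q.ord (⟨r, hr⟩ : ↥(modularFunctionFieldFullC (kA A) N)) -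
        b * Q.ord (⟨h, hh⟩ : ↥(modularFunctionFieldFullC (kA A) N))) ∧
  (∀ Q : Place (kA A) ↥(modularFunctionFieldFullC (kA A) N),
    Q.ord (⟨jqModC (kA A), jqModC_mem_full (kA A) N⟩ :
        ↥(modularFunctionFieldFullC (kA A) N)) < 0 →
      (p : ℤ) ∣ Q.ord (⟨r, hr⟩ : ↥(modularFunctionFieldFullC (kA A) N)))

/-- **(RIG)** as a `Prop`: the `k`-side descent of the two order clauses from the rigid level
`M'` to `M` (helper35, `R38/TresRig.lean`). -/
def TresRigDescent (M M' p : ℕ) [NeZero M] [NeZero M'] (A : ValuationSubring Qb) : Prop :=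
  ∀ (r h : LaurentSeries (kA A)) (hr : r ∈ modularFunctionFieldFullC (kA A) M)
    (hh : h ∈ modularFunctionFieldFullC (kA A) M)
    (hr' : r ∈ modularFunctionFieldFullC (kA A) M')
    (hh' : h ∈ modularFunctionFieldFullC (kA A) M') (a b : ℤ),
    FacMonoOrdAt M' p A r h hr' hh' a b → FacMonoOrdAt M p A r h hr hh a b

/-- no descent is needed if `M' = M` -/
theorem tresRigDescent_self (M p : ℕ) [NeZero M] (A : ValuationSubring Qb) :
    TresRigDescent M M p A :=
  fun _ _ _ _ _ _ _ _ H => H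

/-- `FacMonoConcl` from its clauses -/
theorem facMonoConcl_of_ordAt {M p : ℕ} [NeZero M] [NeZero p] [NeZero (M * p)]
    {A : ValuationSubring Qb} {x : JZero (M * p)}
    (u : modularFunctionFieldBar (M * p)) (r h : LaurentSeries (kA A))
    (hr : r ∈ modularFunctionFieldFullC (kA A) M)
    (hh : h ∈ modularFunctionFieldFullC (kA A) M) (a b : ℤ)
    (hK : KummerRel p x u) (hred : R38Red A (u : LaurentSeries Qb) r)
    (hh0 : h ≠ 0) (ha : ¬ (p : ℤ) ∣ a) (hord : FacMonoOrdAt M p A r h hr hh a b)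
    (hhecke : ∀ (ℓ : ℕ) [NeZero ℓ], ℓ.Prime → ℓ ≠ p → ∀ ζ : (kA A)ˣ, IsPrimitiveRoot ζ ℓ →
      ∃ c : kA A, c ≠ 0 ∧ kronHecke ℓ ζ h = HahnSeries.C c * h ^ (ℓ + 1)) :
    FacMonoConcl M p A x :=
  ⟨u, r, h, hr, hh, a, b, hK, hred, hh0, ha, hord.1, hord.2, hhecke⟩

section Frame

variable {A₀ E F : Type*} [CommRing A₀] [IsDomain A₀] [IsDiscreteValuationRing A₀]
  [Field E] [Algebra A₀ E] [IsFractionRing A₀ E] [CharZero E]
  [Field F] [Algebra E F] [Algebra A₀ F] [IsScalarTower A₀ E F]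
  {F' : Type*} [Field F'] [Algebra F F']

/-- **The frame theorem (M3b).** -/
theorem tresmono_frame {M M' p : ℕ} [NeZero M] [NeZero M'] [NeZero p] [NeZero (M * p)]
    {A : ValuationSubring Qb} {x : JZero (M * p)} (hp : 0 < p)
    -- the K-side
    {π : A₀} {t : F} (W : ValuationSubring F')
    (ρ : ↥W →+* ↥(modularFunctionFieldFullC (kA A) M'))
    (hker : ∀ x : ↥W, (x : F') ∈ W.nonunits → ρ x = 0)
    (hAW : ∀ a : A₀, algebraMap F F' (algebraMap A₀ F a) ∈ W)
    (hπ : ρ ⟨algebraMap F F' (algebraMap A₀ F π), hAW π⟩ = 0)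
    (ht : W.valuation (algebraMap F F' t) = 1)
    (hρt : ρ ⟨algebraMap F F' t, tresdn_mem W ht⟩ =
      ⟨jqModC (kA A), jqModC_mem_full (kA A) M'⟩)
    (hAQ : ∀ (Q : Place (kA A) ↥(modularFunctionFieldFullC (kA A) M')) (a : A₀),
      ρ ⟨algebraMap F F' (algebraMap A₀ F a), hAW a⟩ ∈ Q.toValuationSubring)
    (hfinQ : ∀ Q : Place (kA A) ↥(modularFunctionFieldFullC (kA A) M'),
      ∀ x ∈ Q.toValuationSubring, x ∉ Q.toValuationSubring.nonunits →
        ∃ n : ℕ, 0 < n ∧ x ^ n - 1 ∈ Q.toValuationSubring.nonunits)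
    -- the normalised Kummer function of the cover and the Ogg unit
    {y h : F'} (hy : W.valuation y = 1) (hh : W.valuation h = 1) (c e : ℤ)
    (he : ¬ (p : ℤ) ∣ e)
    (hfin : ∀ 𝔫 : AtPt (F := F) π t, ∀ T : ValuationSubring F',
      (∀ x ∈ atLoc 𝔫, algebraMap F F' x ∈ T) → (∀ x ∈ T, x ∈ W) →
      ∃ O' : Subring F', (∀ x ∈ O', x ∈ T) ∧ TresMonoPt W O' p c e y h)
    (hcusp : ∀ 𝔫 : AtPt (F := F) π t⁻¹, ∀ T : ValuationSubring F',
      (∀ x ∈ atLoc 𝔫, algebraMap F F' x ∈ T) → (∀ x ∈ T, x ∈ W) →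
      (∀ b : ↥(zchClosure (A₀ := A₀) ({t⁻¹} : Set F)), (b : F) = t⁻¹ → b ∈ 𝔫.1) →
      ∃ O' : Subring F', (∀ x ∈ O', x ∈ T) ∧ StbFacAt O' p y)
    -- the Kummer function of `x`, its Gauss reduction, the comparison
    (u : modularFunctionFieldBar (M * p)) (hK : KummerRel p x u)
    (r : LaurentSeries (kA A)) (hr : r ∈ modularFunctionFieldFullC (kA A) M)
    (hr' : r ∈ modularFunctionFieldFullC (kA A) M')
    (hred : R38Red A (u : LaurentSeries Qb) r)
    (hcmp : ∃ (a : kA A) (s : ↥(modularFunctionFieldFullC (kA A) M')), a ≠ 0 ∧ s ≠ 0 ∧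
      (⟨r, hr'⟩ : ↥(modularFunctionFieldFullC (kA A) M')) =
        algebraMap (kA A) ↥(modularFunctionFieldFullC (kA A) M') a *
          ρ ⟨y, tresdn_mem W hy⟩ * s ^ p)
    -- the reduction of the Ogg unit
    (hb : LaurentSeries (kA A)) (hhb : hb ∈ modularFunctionFieldFullC (kA A) M)
    (hhb' : hb ∈ modularFunctionFieldFullC (kA A) M')
    (hρh : ρ ⟨h, tresdn_mem W hh⟩ = ⟨hb, hhb'⟩)
    (hhecke : ∀ (ℓ : ℕ) [NeZero ℓ], ℓ.Prime → ℓ ≠ p → ∀ ζ : (kA A)ˣ, IsPrimitiveRoot ζ ℓ →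
      ∃ c : kA A, c ≠ 0 ∧ kronHecke ℓ ζ hb = HahnSeries.C c * hb ^ (ℓ + 1))
    -- the descent to the level `M`
    (hrig : TresRigDescent M M' p A) :
    FacMonoConcl M p A x := by
  have hρy0 : ρ ⟨y, tresdn_mem W hy⟩ ≠ 0 := tresdn_map_ne_zero W ρ hy
  have hρh0 : ρ ⟨h, tresdn_mem W hh⟩ ≠ 0 := tresdn_map_ne_zero W ρ hh
  have hb0 : hb ≠ 0 := by
    rintro rfl
    apply hρh0
    rw [hρh]
    rfl
  obtain ⟨a, s, ha, hs, hrs⟩ := hcmp
  refine facMonoConcl_of_ordAt u r hb hr hhb e c hK hred hb0 he ?_ hhecke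
  refine hrig r hb hr hhb hr' hhb' e c ⟨fun Q hQ => ?_, fun Q hQ => ?_⟩
  · -- off the cusps
    have hmain := (tresmono_cover (π := π) (t := t) W ρ hker hAW hπ ht hp hy hh c e hfin hcusp Q
      (hAQ Q) (hfinQ Q)).1
    have hj0 : (⟨jqModC (kA A), jqModC_mem_full (kA A) M'⟩ :
        ↥(modularFunctionFieldFullC (kA A) M')) ≠ 0 := by
      rw [← hρt]
      exact tresdn_map_ne_zero W ρ ht
    have hin : ρ ⟨algebraMap F F' t, tresdn_mem W ht⟩ ∈ Q.toValuationSubring := by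
      rw [hρt]
      exact (PlaceAux.ord_nonneg_iff Q hj0).1 hQ
    have h1 := hmain hin
    rw [hρh] at h1
    exact (tresmono_clauses_congr Q p ha hρy0 hs hrs c e _).1 h1
  · -- at the cusps
    have hmain := (tresmono_cover (π := π) (t := t) W ρ hker hAW hπ ht hp hy hh c e hfin hcusp Q
      (hAQ Q) (hfinQ Q)).2
    have hj0 : (⟨jqModC (kA A), jqModC_mem_full (kA A) M'⟩ :
        ↥(modularFunctionFieldFullC (kA A) M')) ≠ 0 := by
      rw [← hρt]
      exact tresdn_map_ne_zero W ρ ht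
    have hout : ρ ⟨algebraMap F F' t, tresdn_mem W ht⟩ ∉ Q.toValuationSubring := by
      rw [hρt]
      intro hmem
      have := (PlaceAux.ord_nonneg_iff Q hj0).2 hmem
      omega
    have h1 := hmain hout
    exact (tresmono_clauses_congr Q p ha hρy0 hs hrs c e 0).2 h1

end Frame

end Fermat.Agent.R38

end


end ZBR38_009_4

/-! ### bundled: `Fermat.Agent.R38.TresCoverOrd` -/
section ZBR38_009_5
/-
ROW 38, TRES, piece FAC-COV [T5 (b)] (helper78), part 3: the INTEGER ORDER at a discrete valuation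
subring and the DECK CONGRUENCE.  Pure algebra (Mathlib only).

`W` a valuation subring of a field `L`, `π ∈ 𝔪_W`, `π ≠ 0`.
* `tres5Ord W π f : ℤ` : the `m` with `W.valuation (f / π ^ m) = 1` (`0` if there is none);
* `tres5Ord_eq`, `tres5Ord_spec`, `tres5Ord_mul`, `tres5Ord_pow`, `tres5Ord_inv`, `tres5Ord_unit`,
  `tres5Ord_self`, `tres5Ord_nonneg_iff`;
* `tres5Ord_comap`  : `ord_{ρ⁻¹ W} (f) = ord_W (ρ f)` when `ρ π = π`;
* `tres5Ord_algebraMap` : `ord_W (c) = ord_V (c)` for `c ∈ F` when `W ∩ F = V`;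
* `tres5_deck_congr` : **(DECK)** if `ρ⁻¹ W = W′`, `ρ u = a · u · h ^ p` with `a ∈ F`,
  `p ∣ ord_V a`, then `ord_{W′} u ≡ ord_W u mod p`;
* `Tres5Gen.deck_congr` : the same for the valuation subrings `S.W k`, `S.W m` of a split
  monogenic extension (`R38/TresCover.lean`).
-/

set_option autoImplicit false
set_option linter.style.haveILetI false

namespace Fermat.Agent.R38

section Ord

variable {L : Type*} [Field L]

/-- the integer order of `f` at `W` with respect to the uniformizer `π` -/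
noncomputable def tres5Ord (W : ValuationSubring L) (π f : L) : ℤ :=
  open Classical in
  if h : ∃ m : ℤ, W.valuation (f / π ^ m) = 1 then h.choose else 0

variable {W : ValuationSubring L} {π : L}

theorem tres5_zpow_val_eq_one (hπ : π ∈ W.nonunits) (hπ0 : π ≠ 0) {m : ℤ}
    (h : W.valuation (π ^ m) = 1) : m = 0 := by
  rw [ValuationSubring.mem_nonunits_iff] at hπ
  have h0 : W.valuation π ≠ 0 := (Valuation.ne_zero_iff _).2 hπ0
  rw [map_zpow₀] at h
  by_contra hm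
  rcases lt_or_gt_of_ne hm with hneg | hpos
  · obtain ⟨r, hr⟩ := Int.exists_eq_neg_ofNat (le_of_lt hneg)
    have hr0 : r ≠ 0 := by
      rintro rfl
      simp at hr
      exact hm hr
    rw [hr, zpow_neg, zpow_natCast, inv_eq_one] at h
    have := pow_lt_one₀ zero_le hπ hr0
    rw [h] at this
    exact lt_irrefl _ this
  · obtain ⟨r, hr⟩ := Int.eq_ofNat_of_zero_le (le_of_lt hpos)
    have hr0 : r ≠ 0 := by
      rintro rfl
      simp at hr
      exact hm hr
    rw [hr, zpow_natCast] at h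
    have := pow_lt_one₀ zero_le hπ hr0
    rw [h] at this
    exact lt_irrefl _ this

/-- uniqueness of the order -/
theorem tres5Ord_unique (hπ : π ∈ W.nonunits) (hπ0 : π ≠ 0) {f : L} {m m' : ℤ}
    (h : W.valuation (f / π ^ m) = 1) (h' : W.valuation (f / π ^ m') = 1) : m = m' := by
  have hf : f ≠ 0 := by
    rintro rfl
    rw [zero_div, map_zero] at h
    exact zero_ne_one h
  have e : π ^ (m' - m) = (f / π ^ m) / (f / π ^ m') := by
    rw [zpow_sub₀ hπ0]
    have h1 := zpow_ne_zero m hπ0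
    have h2 := zpow_ne_zero m' hπ0
    field_simp
  have h1 : W.valuation (π ^ (m' - m)) = 1 := by
    rw [e, map_div₀, h, h', div_one]
  have := tres5_zpow_val_eq_one hπ hπ0 h1
  omega

theorem tres5Ord_eq (hπ : π ∈ W.nonunits) (hπ0 : π ≠ 0) {f : L} {m : ℤ}
    (h : W.valuation (f / π ^ m) = 1) : tres5Ord W π f = m := by
  have hex : ∃ m : ℤ, W.valuation (f / π ^ m) = 1 := ⟨m, h⟩
  unfold tres5Ord
  rw [dif_pos hex]
  exact tres5Ord_unique hπ hπ0 hex.choose_spec h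

theorem tres5Ord_spec (hπ : π ∈ W.nonunits) (hπ0 : π ≠ 0) {f : L}
    (h : ∃ m : ℤ, W.valuation (f / π ^ m) = 1) :
    W.valuation (f / π ^ tres5Ord W π f) = 1 := by
  obtain ⟨m, hm⟩ := h
  rw [tres5Ord_eq hπ hπ0 hm]
  exact hm

theorem tres5Ord_mul (hπ : π ∈ W.nonunits) (hπ0 : π ≠ 0) {f g : L}
    (hf : ∃ m : ℤ, W.valuation (f / π ^ m) = 1) (hg : ∃ m : ℤ, W.valuation (g / π ^ m) = 1) :
    tres5Ord W π (f * g) = tres5Ord W π f + tres5Ord W π g := by
  obtain ⟨m, hm⟩ := hf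
  obtain ⟨m', hm'⟩ := hg
  rw [tres5Ord_eq hπ hπ0 hm, tres5Ord_eq hπ hπ0 hm']
  apply tres5Ord_eq hπ hπ0
  have e : f * g / π ^ (m + m') = (f / π ^ m) * (g / π ^ m') := by
    rw [zpow_add₀ hπ0]
    have h1 := zpow_ne_zero m hπ0
    have h2 := zpow_ne_zero m' hπ0
    field_simp
  rw [e, map_mul, hm, hm', one_mul]

theorem tres5Ord_pow (hπ : π ∈ W.nonunits) (hπ0 : π ≠ 0) {f : L}
    (hf : ∃ m : ℤ, W.valuation (f / π ^ m) = 1) (r : ℕ) :
    tres5Ord W π (f ^ r) = r * tres5Ord W π f := by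
  obtain ⟨m, hm⟩ := hf
  rw [tres5Ord_eq hπ hπ0 hm]
  apply tres5Ord_eq hπ hπ0
  have e : f ^ r / π ^ ((r : ℤ) * m) = (f / π ^ m) ^ r := by
    rw [div_pow, ← zpow_natCast (π ^ m) r, ← zpow_mul, mul_comm]
  rw [e, map_pow, hm, one_pow]

theorem tres5Ord_unit (hπ : π ∈ W.nonunits) (hπ0 : π ≠ 0) {f : L}
    (hf : W.valuation f = 1) : tres5Ord W π f = 0 :=
  tres5Ord_eq hπ hπ0 (by rw [zpow_zero, div_one]; exact hf)

theorem tres5Ord_self (hπ : π ∈ W.nonunits) (hπ0 : π ≠ 0) : tres5Ord W π π = 1 :=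
  tres5Ord_eq hπ hπ0 (by rw [zpow_one, div_self hπ0, map_one])

/-- the order at a pull-back -/
theorem tres5Ord_comap (hπ : π ∈ W.nonunits) (hπ0 : π ≠ 0) (ρ : L →+* L) (hρ : ρ π = π) {f : L}
    (hf : ∃ m : ℤ, W.valuation (ρ f / π ^ m) = 1) :
    tres5Ord (W.comap ρ) π f = tres5Ord W π (ρ f) := by
  obtain ⟨m, hm⟩ := hf
  rw [tres5Ord_eq hπ hπ0 hm]
  have hπ' : π ∈ (W.comap ρ).nonunits := by
    rw [tres5_mem_nonunits_comap, hρ]
    exact hπ
  apply tres5Ord_eq hπ' hπ0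
  have hne : ρ f / π ^ m ≠ 0 := by
    intro h0
    rw [h0, map_zero] at hm
    exact zero_ne_one hm
  have hρe : ρ (f / π ^ m) = ρ f / π ^ m := by
    rw [map_div₀, map_zpow₀, hρ]
  have hne' : f / π ^ m ≠ 0 := by
    intro h0
    rw [h0, map_zero] at hρe
    exact hne hρe.symm
  rw [tres5_valuation_eq_one_iff _ hne', ValuationSubring.mem_comap, ValuationSubring.mem_comap,
    map_inv₀, hρe]
  exact (tres5_valuation_eq_one_iff _ hne).1 hm

end Ord

section Base

variable {F L : Type*} [Field F] [Field L] [Algebra F L]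

/-- the order of the elements of the base field -/
theorem tres5Ord_algebraMap {V : ValuationSubring F} {W : ValuationSubring L}
    (hWV : W.comap (algebraMap F L) = V) {π : F} (hπ : π ∈ V.nonunits) (hπ0 : π ≠ 0) {c : F}
    (hc : ∃ m : ℤ, V.valuation (c / π ^ m) = 1) :
    tres5Ord W (algebraMap F L π) (algebraMap F L c) = tres5Ord V π c := by
  obtain ⟨m, hm⟩ := hc
  rw [tres5Ord_eq hπ hπ0 hm]
  have hπ' : algebraMap F L π ∈ W.nonunits := by
    rw [← tres5_mem_nonunits_comap, hWV]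
    exact hπ
  apply tres5Ord_eq hπ' ((_root_.map_ne_zero _).2 hπ0)
  have hne : c / π ^ m ≠ 0 := by
    intro h0
    rw [h0, map_zero] at hm
    exact zero_ne_one hm
  have e : algebraMap F L c / algebraMap F L π ^ m = algebraMap F L (c / π ^ m) := by
    rw [map_div₀, map_zpow₀]
  rw [e, tres5_valuation_eq_one_iff _ ((_root_.map_ne_zero _).2 hne), ← map_inv₀,
    ← ValuationSubring.mem_comap, ← ValuationSubring.mem_comap, hWV]
  exact (tres5_valuation_eq_one_iff _ hne).1 hm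

/-- **(DECK)**, abstract form: if `ρ⁻¹ W = W′` and `ρ u = a · u · h ^ p` with `a ∈ F`,
`p ∣ ord_V a`, then `ord_{W′} u ≡ ord_W u mod p`. -/
theorem tres5_deck_congr {V : ValuationSubring F} {W W' : ValuationSubring L}
    (hWV : W.comap (algebraMap F L) = V) {π : F} (hπ : π ∈ V.nonunits) (hπ0 : π ≠ 0)
    (hunif : ∀ f : L, f ≠ 0 → ∃ m : ℤ, W.valuation (f / algebraMap F L π ^ m) = 1)
    (ρ : L →ₐ[F] L) (hρ : W.comap (ρ : L →+* L) = W') (p : ℕ) {u h : L} {a : F}
    (hu : u ≠ 0) (ha : a ≠ 0) (hh : h ≠ 0)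
    (hVa : ∃ m : ℤ, V.valuation (a / π ^ m) = 1)
    (hρu : ρ u = algebraMap F L a * u * h ^ p) (hpa : (p : ℤ) ∣ tres5Ord V π a) :
    (p : ℤ) ∣ tres5Ord W' (algebraMap F L π) u - tres5Ord W (algebraMap F L π) u := by
  have hπ' : algebraMap F L π ∈ W.nonunits := by
    rw [← tres5_mem_nonunits_comap, hWV]
    exact hπ
  have hπ0' : algebraMap F L π ≠ 0 := (_root_.map_ne_zero _).2 hπ0
  have hρπ : (ρ : L →+* L) (algebraMap F L π) = algebraMap F L π := ρ.commutes π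
  have hρu0 : ρ u ≠ 0 := (_root_.map_ne_zero _).2 hu
  have h1 : tres5Ord W' (algebraMap F L π) u = tres5Ord W (algebraMap F L π) (ρ u) := by
    rw [← hρ]
    exact tres5Ord_comap hπ' hπ0' (ρ : L →+* L) hρπ (hunif _ hρu0)
  have ha' : algebraMap F L a ≠ 0 := (_root_.map_ne_zero _).2 ha
  have h2 : tres5Ord W (algebraMap F L π) (ρ u) =
      tres5Ord V π a + tres5Ord W (algebraMap F L π) u +
        p * tres5Ord W (algebraMap F L π) h := by
    rw [hρu, tres5Ord_mul hπ' hπ0' (hunif _ (mul_ne_zero ha' hu)) (hunif _ (pow_ne_zero p hh)),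
      tres5Ord_mul hπ' hπ0' (hunif _ ha') (hunif _ hu), tres5Ord_pow hπ' hπ0' (hunif _ hh),
      tres5Ord_algebraMap hWV hπ hπ0 hVa]
  rw [h1, h2]
  obtain ⟨k, hk⟩ := hpa
  exact ⟨k + tres5Ord W (algebraMap F L π) h, by rw [hk]; ring⟩

end Base

namespace Tres5Gen

variable {F L : Type*} [Field F] [Field L] [Algebra F L] {V : ValuationSubring F} {n : ℕ}
  (S : Tres5Gen F L V n)

/-- the integer order at `W k` -/
noncomputable def ord (k : ℕ) (f : L) : ℤ := tres5Ord (S.W k) (algebraMap F L S.π) f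

theorem ord_eq {k : ℕ} (hk : k < n) {f : L} {m : ℤ}
    (h : (S.W k).valuation (f / algebraMap F L S.π ^ m) = 1) : S.ord k f = m :=
  tres5Ord_eq (S.π_mem_nonunits hk) ((_root_.map_ne_zero _).2 S.hπ0) h

theorem ord_spec {k : ℕ} (hk : k < n) {f : L} (hf : f ≠ 0) :
    (S.W k).valuation (f / algebraMap F L S.π ^ S.ord k f) = 1 :=
  tres5Ord_spec (S.π_mem_nonunits hk) ((_root_.map_ne_zero _).2 S.hπ0) (S.W_unif hk hf)

theorem ord_mul {k : ℕ} (hk : k < n) {f g : L} (hf : f ≠ 0) (hg : g ≠ 0) :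
    S.ord k (f * g) = S.ord k f + S.ord k g :=
  tres5Ord_mul (S.π_mem_nonunits hk) ((_root_.map_ne_zero _).2 S.hπ0) (S.W_unif hk hf)
    (S.W_unif hk hg)

theorem ord_pow {k : ℕ} (hk : k < n) {f : L} (hf : f ≠ 0) (r : ℕ) :
    S.ord k (f ^ r) = r * S.ord k f :=
  tres5Ord_pow (S.π_mem_nonunits hk) ((_root_.map_ne_zero _).2 S.hπ0) (S.W_unif hk hf) r

theorem ord_algebraMap {k : ℕ} (hk : k < n) {c : F} (hc : c ≠ 0) :
    S.ord k (algebraMap F L c) = tres5Ord V S.π c :=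
  tres5Ord_algebraMap (S.W_comap hk) S.hπ S.hπ0 (S.hunif c hc)

/-- the order at `W k` is `≥ 0` exactly on `W k` -/
theorem ord_nonneg_iff {k : ℕ} (hk : k < n) {f : L} (hf : f ≠ 0) :
    0 ≤ S.ord k f ↔ f ∈ S.W k := by
  have hπ0 : algebraMap F L S.π ≠ 0 := (_root_.map_ne_zero _).2 S.hπ0
  have hs := S.ord_spec hk hf
  have hne : f / algebraMap F L S.π ^ S.ord k f ≠ 0 := div_ne_zero hf (zpow_ne_zero _ hπ0)
  have hu := (tres5_valuation_eq_one_iff _ hne).1 hs
  constructor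
  · intro h
    obtain ⟨r, hr⟩ := Int.eq_ofNat_of_zero_le h
    have e : f = f / algebraMap F L S.π ^ S.ord k f * algebraMap F L S.π ^ r := by
      rw [hr, zpow_natCast, div_mul_cancel₀ _ (pow_ne_zero r hπ0)]
    rw [e]
    exact (S.W k).mul_mem _ _ hu.1 ((S.W k).pow_mem
      (by have := S.ι_mem_W hk S.πV; exact this) r)
  · intro h
    by_contra hneg
    obtain ⟨r, hr⟩ := Int.exists_eq_neg_ofNat (le_of_lt (not_le.1 hneg))
    have hr1 : 1 ≤ r := by omega
    have hπnu := S.π_mem_nonunits hk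
    rw [tres5_mem_nonunits_iff] at hπnu
    rcases hπnu with h0 | hinv
    · exact hπ0 h0
    · apply hinv
      obtain ⟨r', rfl⟩ : ∃ r', r = r' + 1 := ⟨r - 1, by omega⟩
      have e : (algebraMap F L S.π)⁻¹ =
          f * (f / algebraMap F L S.π ^ S.ord k f)⁻¹ * algebraMap F L S.π ^ r' := by
        rw [hr, zpow_neg, zpow_natCast]
        have := pow_ne_zero (r' + 1) hπ0
        field_simp
        ring
      rw [e]
      exact (S.W k).mul_mem _ _ ((S.W k).mul_mem _ _ h hu.2)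
        ((S.W k).pow_mem (by have := S.ι_mem_W hk S.πV; exact this) r')

/-- **(DECK)** for the valuation subrings of a split monogenic extension: if `ρ z ≡ c m`
modulo `𝔪(W k)` and `ρ u = a · u · h ^ p` with `a ∈ F`, `p ∣ ord_V a`, then
`ord_{W m} u ≡ ord_{W k} u mod p`. -/
theorem deck_congr (ρ : L →ₐ[F] L) {k m : ℕ} (hk : k < n) (hm : m < n)
    (hρ : ρ S.z - tres5Iota V L (S.c m) ∈ (S.W k).nonunits) (p : ℕ) {u h : L} {a : F}
    (hu : u ≠ 0) (ha : a ≠ 0) (hh : h ≠ 0)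
    (hρu : ρ u = algebraMap F L a * u * h ^ p) (hpa : (p : ℤ) ∣ tres5Ord V S.π a) :
    (p : ℤ) ∣ S.ord m u - S.ord k u :=
  tres5_deck_congr (S.W_comap hk) S.hπ S.hπ0 (fun _ hf => S.W_unif hk hf) ρ
    (S.W_deck ρ hk hm hρ) p hu ha hh (S.hunif a ha) hρu hpa

end Tres5Gen

end Fermat.Agent.R38


end ZBR38_009_5

/-! ### bundled: `Fermat.Agent.R38.TresFacTrCmp` -/
section ZBR38_009_6
/-
ROW 38, TRES, piece FAC-TR (helper90), part 3 (abstract): BASE CHANGE OF A SPLIT COVER AND THE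
COMPARISON OF THE REDUCTIONS.

Setting: `S : Tres5Gen F L V n` (the split cover over the inertia field `K`, `R38/TresCover.lean`),
`F ⊆ F₂`, `L ⊆ L₂` (the same function fields over a finite extension `K₀` of `K`),
`V₂` a discrete valuation subring of `F₂` with `V₂ ∩ F = V` and uniformizer `π₂`.

* `tresftBC`          : the base change `Tres5Gen F₂ L₂ V₂ n` (same generator `z`, same roots `c i`);
* `tresft_bc_comap`   : `(S₂.W k) ∩ L = S.W k` for every sheet `k < n`;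
* `tresft_bc_red`     : the reduction map of the sheet `S₂.W k` restricts to the one of `S.W k`;
* `tresft_compare`    : **the comparison**.  If `u = b · γ ^ p · u″` with `u ∈ F₂`, `γ ∈ L₂`,
  `u″ ∈ L`, `b` a constant, and `r` is a reduction of `u` at `V₂` (up to constants), then for every
  sheet `k < n`:   `r = a · ρ_k (u″ / π ^ m) · s ^ p`   with `a` a nonzero constant and `s ≠ 0` in
  the residue function field (`m` the order of `u″` on the sheet `k`).
  Hence `p ∣ ord_Q r − ord_Q ρ_k (u″ / π ^ m)` at every place `Q` (`tresft_compare_ord`).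
-/

set_option autoImplicit false
set_option linter.unusedSectionVars false
set_option linter.unusedVariables false
set_option linter.style.haveILetI false
set_option linter.style.longLine false

noncomputable section

namespace Fermat.Agent.R38

open Polynomial Fermat.Agent.UNIP Fermat.Agent.INJ

section BC

variable {F L F₂ L₂ : Type*} [Field F] [Field L] [Field F₂] [Field L₂]
  [Algebra F L] [Algebra F F₂] [Algebra F₂ L₂] [Algebra L L₂] [Algebra F L₂]
  [IsScalarTower F F₂ L₂] [IsScalarTower F L L₂]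
  {V : ValuationSubring F} {V₂ : ValuationSubring F₂} {n : ℕ}

/-- the inclusion `V → V₂` -/
def tresftIncl (hV : V₂.comap (algebraMap F F₂) = V) : ↥V →+* ↥V₂ :=
  ((algebraMap F F₂).comp V.subtype).codRestrict V₂.toSubring (fun a => by
    have h : (a : F) ∈ V₂.comap (algebraMap F F₂) := by rw [hV]; exact a.2
    exact h)

theorem tresftIncl_coe (hV : V₂.comap (algebraMap F F₂) = V) (a : ↥V) :
    ((tresftIncl hV a : ↥V₂) : F₂) = algebraMap F F₂ (a : F) := rfl

theorem tresft_iota_comp (hV : V₂.comap (algebraMap F F₂) = V) :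
    (tres5Iota V₂ L₂).comp (tresftIncl hV) = (algebraMap L L₂).comp (tres5Iota V L) := by
  ext a
  simp only [RingHom.comp_apply, tres5Iota_apply, tresftIncl_coe]
  rw [← IsScalarTower.algebraMap_apply F F₂ L₂, ← IsScalarTower.algebraMap_apply F L L₂]

/-- units of `V` stay units in `V₂` -/
theorem tresftIncl_residue_ne_zero (hV : V₂.comap (algebraMap F F₂) = V) {a : ↥V}
    (ha : IsLocalRing.residue ↥V a ≠ 0) : IsLocalRing.residue ↥V₂ (tresftIncl hV a) ≠ 0 := by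
  intro h
  apply ha
  rw [IsLocalRing.residue_eq_zero_iff, ValuationSubring.valuation_lt_one_iff] at h ⊢
  have h1 : algebraMap F F₂ (a : F) ∈ V₂.nonunits := by
    rw [ValuationSubring.mem_nonunits_iff]
    exact h
  have h2 := (tresft_mem_nonunits_iff V V₂ hV _).mp h1
  rwa [ValuationSubring.mem_nonunits_iff] at h2

/-- a non-unit of `V₂` is a multiple of the uniformizer -/
theorem tresft_div_unif_mem {π₂ : F₂} (hπ₂ : π₂ ∈ V₂.nonunits) (hπ₂0 : π₂ ≠ 0)
    (hunif₂ : ∀ x : F₂, x ≠ 0 → ∃ m : ℤ, V₂.valuation (x / π₂ ^ m) = 1) {x : F₂}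
    (hx : x ∈ V₂.nonunits) : x / π₂ ∈ V₂ := by
  by_cases hx0 : x = 0
  · rw [hx0, zero_div]; exact V₂.zero_mem
  obtain ⟨m, hm⟩ := hunif₂ x hx0
  have hπV : π₂ ∈ V₂ := vt_mem_of_mem_nonunits V₂ hπ₂
  have hu : x / π₂ ^ m ∈ V₂ := (V₂.valuation_le_one_iff _).1 hm.le
  have hm1 : 1 ≤ m := by
    by_contra hlt
    have hle : m ≤ 0 := by omega
    obtain ⟨r, hr⟩ := Int.exists_eq_neg_ofNat hle
    have e : x = (x / π₂ ^ m) * (π₂ ^ r)⁻¹ := by
      rw [hr, zpow_neg, zpow_natCast]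
      field_simp
    have hv : V₂.valuation x = (V₂.valuation π₂ ^ r)⁻¹ := by
      conv_lhs => rw [e]
      rw [map_mul, hm, one_mul, map_inv₀, map_pow]
    have h1 : V₂.valuation π₂ ^ r ≤ 1 :=
      pow_le_one₀ zero_le ((V₂.valuation_le_one_iff _).2 hπV)
    have h0 : V₂.valuation π₂ ^ r ≠ 0 :=
      pow_ne_zero _ ((Valuation.ne_zero_iff _).2 hπ₂0)
    have h2 : 1 ≤ V₂.valuation x := by
      rw [hv]
      exact (one_le_inv₀ (zero_lt_iff.2 h0)).2 h1
    rw [ValuationSubring.mem_nonunits_iff] at hx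
    exact absurd (lt_of_le_of_lt h2 hx) (lt_irrefl _)
  obtain ⟨r, hr⟩ := Int.eq_ofNat_of_zero_le (show 0 ≤ m - 1 by omega)
  have e : x / π₂ = (x / π₂ ^ m) * π₂ ^ r := by
    have hm' : m = r + 1 := by omega
    rw [hm', zpow_add₀ hπ₂0, zpow_natCast, zpow_one]
    field_simp
  rw [e]
  exact mul_mem hu (pow_mem hπV r)

/-- **base change of a split cover** -/
def tresftBC (S : Tres5Gen F L V n) (hV : V₂.comap (algebraMap F F₂) = V)
    (hfin : Module.finrank F₂ L₂ = n)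
    (htop : IntermediateField.adjoin F₂ {algebraMap L L₂ S.z} = ⊤)
    (π₂ : F₂) (hπ₂ : π₂ ∈ V₂.nonunits) (hπ₂0 : π₂ ≠ 0)
    (hunif₂ : ∀ x : F₂, x ≠ 0 → ∃ m : ℤ, V₂.valuation (x / π₂ ^ m) = 1) :
    Tres5Gen F₂ L₂ V₂ n where
  hn := S.hn
  hfin := hfin
  π := π₂
  hπ := hπ₂
  hπ0 := hπ₂0
  hunif := hunif₂
  z := algebraMap L L₂ S.z
  htop := htop
  c := fun i => tresftIncl hV (S.c i)
  hc := fun i hi j hj hij => by
    rw [← map_sub]
    exact tresftIncl_residue_ne_zero hV (S.hc i hi j hj hij)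
  R := C (⟨algebraMap F F₂ S.π / π₂, tresft_div_unif_mem hπ₂ hπ₂0 hunif₂
      ((tresft_mem_nonunits_iff V V₂ hV _).mpr S.hπ)⟩ : ↥V₂) * S.R.map (tresftIncl hV)
  hR := lt_of_le_of_lt (degree_mul_le _ _) (by
    have h1 : (C (⟨algebraMap F F₂ S.π / π₂, tresft_div_unif_mem hπ₂ hπ₂0 hunif₂
      ((tresft_mem_nonunits_iff V V₂ hV _).mpr S.hπ)⟩ : ↥V₂)).degree ≤ 0 := degree_C_le
    have h2 : (S.R.map (tresftIncl hV)).degree ≤ S.R.degree := degree_map_le
    have h3 := S.hR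
    calc (C (⟨algebraMap F F₂ S.π / π₂, _⟩ : ↥V₂)).degree + (S.R.map (tresftIncl hV)).degree
        ≤ 0 + S.R.degree := add_le_add h1 h2
      _ = S.R.degree := zero_add _
      _ < n := h3)
  hz := by
    have h0 := congrArg (algebraMap L L₂) S.hz
    rw [map_zero, Polynomial.hom_eval₂, ← tresft_iota_comp hV, ← Polynomial.eval₂_map] at h0
    rw [← h0]
    congr 1
    rw [Polynomial.map_add, Polynomial.map_mul, Polynomial.map_prod, Polynomial.map_C,
      ← mul_assoc, ← C_mul]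
    congr 1
    · apply Finset.prod_congr rfl
      intro i _
      rw [Polynomial.map_sub, Polynomial.map_X, Polynomial.map_C]
    · congr 2
      apply Subtype.ext
      show π₂ * (algebraMap F F₂ S.π / π₂) = algebraMap F F₂ S.π
      field_simp

/-- the valuation of an image: `W₂ ∩ F = W` -/
theorem tresft_val_one_comap {K K' : Type*} [Field K] [Field K'] (f : K →+* K')
    (W : ValuationSubring K) (W' : ValuationSubring K') (hW : W'.comap f = W) {x : K} :
    W'.valuation (f x) = 1 ↔ W.valuation x = 1 := by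
  by_cases hx : x = 0
  · rw [hx, map_zero, map_zero, map_zero]
    simp
  have hfx : f x ≠ 0 := (map_ne_zero f).2 hx
  rw [tres5_valuation_eq_one_iff W' hfx, tres5_valuation_eq_one_iff W hx, ← hW,
    ValuationSubring.mem_comap, ValuationSubring.mem_comap, map_inv₀]

/-- **the sheets of the base change restrict to the sheets**: `(S₂.W k) ∩ L = S.W k` -/
theorem tresft_bc_comap (S : Tres5Gen F L V n) (S₂ : Tres5Gen F₂ L₂ V₂ n)
    (hV : V₂.comap (algebraMap F F₂) = V) (hz : S₂.z = algebraMap L L₂ S.z)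
    (hc : ∀ i < n, ((S₂.c i : ↥V₂) : F₂) = algebraMap F F₂ (S.c i : F)) {k : ℕ} (hk : k < n) :
    (S₂.W k).comap (algebraMap L L₂) = S.W k := by
  have h1 : ((S₂.W k).comap (algebraMap L L₂)).comap (algebraMap F L) = V := by
    ext x
    rw [ValuationSubring.mem_comap, ValuationSubring.mem_comap,
      ← IsScalarTower.algebraMap_apply F L L₂, IsScalarTower.algebraMap_apply F F₂ L₂,
      ← ValuationSubring.mem_comap, S₂.W_comap hk, ← hV, ValuationSubring.mem_comap]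
  obtain ⟨j, hj, hW'⟩ := S.W_unique h1
  by_cases hjk : j = k
  · rw [hW', hjk]
  exfalso
  have h2 : S.z - tres5Iota V L (S.c k) ∈ ((S₂.W k).comap (algebraMap L L₂)).nonunits := by
    rw [tres5_mem_nonunits_comap, map_sub, ← hz]
    have e : algebraMap L L₂ (tres5Iota V L (S.c k)) = tres5Iota V₂ L₂ (S₂.c k) := by
      rw [tres5Iota_apply, tres5Iota_apply, hc k hk,
        ← IsScalarTower.algebraMap_apply F L L₂, IsScalarTower.algebraMap_apply F F₂ L₂]
    rw [e]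
    exact S₂.W_z_mem hk
  rw [hW', ValuationSubring.mem_nonunits_iff, S.W_z_unit hk hj (Ne.symm hjk)] at h2
  exact lt_irrefl _ h2

/-- **every sheet of the big cover restricts to a sheet of the small one** -/
theorem tresft_exists_sheet {n₂ : ℕ} (S : Tres5Gen F L V n) (S₂ : Tres5Gen F₂ L₂ V₂ n₂)
    (hV : V₂.comap (algebraMap F F₂) = V) {k₂ : ℕ} (hk₂ : k₂ < n₂) :
    ∃ k < n, (S₂.W k₂).comap (algebraMap L L₂) = S.W k := by
  have h1 : ((S₂.W k₂).comap (algebraMap L L₂)).comap (algebraMap F L) = V := by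
    ext x
    rw [ValuationSubring.mem_comap, ValuationSubring.mem_comap,
      ← IsScalarTower.algebraMap_apply F L L₂, IsScalarTower.algebraMap_apply F F₂ L₂,
      ← ValuationSubring.mem_comap, S₂.W_comap hk₂, ← hV, ValuationSubring.mem_comap]
  exact S.W_unique h1

/-- the sheets of `tresftBC` -/
theorem tresftBC_comap (S : Tres5Gen F L V n) (hV : V₂.comap (algebraMap F F₂) = V)
    (hfin : Module.finrank F₂ L₂ = n)
    (htop : IntermediateField.adjoin F₂ {algebraMap L L₂ S.z} = ⊤)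
    (π₂ : F₂) (hπ₂ : π₂ ∈ V₂.nonunits) (hπ₂0 : π₂ ≠ 0)
    (hunif₂ : ∀ x : F₂, x ≠ 0 → ∃ m : ℤ, V₂.valuation (x / π₂ ^ m) = 1) {k : ℕ} (hk : k < n) :
    ((tresftBC S hV hfin htop π₂ hπ₂ hπ₂0 hunif₂).W k).comap (algebraMap L L₂) = S.W k :=
  tresft_bc_comap S _ hV rfl (fun _ _ => rfl) hk

/-- the inclusion of a sheet in the sheet of the base change -/
def tresftInclW {W : ValuationSubring L} {W₂ : ValuationSubring L₂}
    (hW : W₂.comap (algebraMap L L₂) = W) : ↥W →+* ↥W₂ :=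
  ((algebraMap L L₂).comp W.subtype).codRestrict W₂.toSubring (fun a => by
    have h : (a : L) ∈ W₂.comap (algebraMap L L₂) := by rw [hW]; exact a.2
    exact h)

theorem tresftInclW_coe {W : ValuationSubring L} {W₂ : ValuationSubring L₂}
    (hW : W₂.comap (algebraMap L L₂) = W) (a : ↥W) :
    ((tresftInclW hW a : ↥W₂) : L₂) = algebraMap L L₂ (a : L) := rfl

end BC

section Compare

variable {F L F₂ L₂ : Type*} [Field F] [Field L] [Field F₂] [Field L₂]
  [Algebra F L] [Algebra F F₂] [Algebra F₂ L₂] [Algebra L L₂] [Algebra F L₂]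
  [IsScalarTower F F₂ L₂] [IsScalarTower F L L₂]
  {V : ValuationSubring F} {V₂ : ValuationSubring F₂} {n n₂ : ℕ}
  {Lk : Type*} [Field Lk]

/-- **restriction of the reduction map**: the reduction map of the sheet `S₂.W k` of the base
change restricts to the reduction map of the sheet `S.W k`. -/
theorem tresft_bc_red (S : Tres5Gen F L V n) (S₂ : Tres5Gen F₂ L₂ V₂ n₂)
    (hV : V₂.comap (algebraMap F F₂) = V) {k k₂ : ℕ} (hk : k < n) (hk₂ : k₂ < n₂)
    (hW : (S₂.W k₂).comap (algebraMap L L₂) = S.W k)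
    (ρ₂ : ↥V₂ →+* Lk)
    (ρ₂W : ↥(S₂.W k₂) →+* Lk)
    (hρ₂W : ∀ (a : F₂) (ha : a ∈ V₂) (haW : algebraMap F₂ L₂ a ∈ S₂.W k₂),
      ρ₂W ⟨algebraMap F₂ L₂ a, haW⟩ = ρ₂ ⟨a, ha⟩)
    (hρ₂Wker : ∀ x : ↥(S₂.W k₂), (x : L₂) ∈ (S₂.W k₂).nonunits → ρ₂W x = 0)
    (ρW : ↥(S.W k) →+* Lk)
    (hρW : ∀ (a : F) (ha : a ∈ V) (haW : algebraMap F L a ∈ S.W k),
      ρW ⟨algebraMap F L a, haW⟩ = ρ₂ (tresftIncl hV ⟨a, ha⟩))
    (hρWker : ∀ x : ↥(S.W k), (x : L) ∈ (S.W k).nonunits → ρW x = 0) :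
    ρ₂W.comp (tresftInclW hW) = ρW := by
  refine tresft_sheet_unique V (S.W k)
    (fun x hx => by
      obtain ⟨a, ha⟩ := S.W_residue hk hx
      exact ⟨(a : F), a.2, ha⟩)
    (ρ₂.comp (tresftIncl hV)) _ _ ?_ hρW ?_ hρWker
  · intro a ha haW
    have haW₂ : algebraMap F₂ L₂ (algebraMap F F₂ a) ∈ S₂.W k₂ := by
      have h := S₂.ι_mem_W hk₂ (tresftIncl hV ⟨a, ha⟩)
      exact h
    have e : tresftInclW hW ⟨algebraMap F L a, haW⟩ =
        ⟨algebraMap F₂ L₂ (algebraMap F F₂ a), haW₂⟩ := by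
      apply Subtype.ext
      show algebraMap L L₂ (algebraMap F L a) = algebraMap F₂ L₂ (algebraMap F F₂ a)
      rw [← IsScalarTower.algebraMap_apply F L L₂, IsScalarTower.algebraMap_apply F F₂ L₂]
    rw [RingHom.comp_apply, e]
    exact hρ₂W (algebraMap F F₂ a) (tresftIncl hV ⟨a, ha⟩).2 haW₂
  · intro x hx
    rw [RingHom.comp_apply]
    apply hρ₂Wker
    have h := (tres5_mem_nonunits_comap (S₂.W k₂) (algebraMap L L₂) (x := (x : L))).1
      (by rw [hW]; exact hx)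
    exact h

variable {E₂ k₀ : Type*} [Field E₂] [Field k₀] [Algebra E₂ F₂] [Algebra k₀ Lk]

/-- membership from valuation one -/
theorem tresft_mem_of_val {K : Type*} [Field K] (W : ValuationSubring K) {x : K}
    (h : W.valuation x = 1) : x ∈ W :=
  (W.valuation_le_one_iff x).1 h.le

/-- **THE COMPARISON.**  `u = b · γ ^ p · u″` (`u ∈ F₂`, `b` a constant, `γ ∈ L₂`, `u″ ∈ L`),
`r = a₀ · ρ₂ (c₀ u)` a reduction of `u` at `V₂`, `m` the order of `u″` on the sheet `S.W k`: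
then `r = a · ρ_k (u″ / π ^ m) · s ^ p` with a nonzero constant `a` and `s ≠ 0`. -/
theorem tresft_compare (S : Tres5Gen F L V n) (S₂ : Tres5Gen F₂ L₂ V₂ n₂)
    (hV : V₂.comap (algebraMap F F₂) = V) {k k₂ : ℕ} (hk : k < n) (hk₂ : k₂ < n₂)
    (hW : (S₂.W k₂).comap (algebraMap L L₂) = S.W k)
    (ρ₂ : ↥V₂ →+* Lk) (hρ₂ : ∀ a : ↥V₂, ρ₂ a = 0 ↔ (a : F₂) ∈ V₂.nonunits)
    (ρW : ↥(S.W k) →+* Lk)
    (hρW : ∀ (a : F) (ha : a ∈ V) (haW : algebraMap F L a ∈ S.W k),
      ρW ⟨algebraMap F L a, haW⟩ = ρ₂ (tresftIncl hV ⟨a, ha⟩))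
    (hρWker : ∀ x : ↥(S.W k), (x : L) ∈ (S.W k).nonunits → ρW x = 0)
    (hconst : ∀ (c : E₂) (hc : V₂.valuation (algebraMap E₂ F₂ c) = 1),
      ∃ a : k₀, a ≠ 0 ∧ ρ₂ ⟨algebraMap E₂ F₂ c, tresft_mem_of_val V₂ hc⟩ = algebraMap k₀ Lk a)
    (hπ₂c : ∃ c : E₂, S₂.π = algebraMap E₂ F₂ c)
    (hπc : ∃ c : E₂, algebraMap F F₂ S.π = algebraMap E₂ F₂ c)
    {p : ℕ} {u : F₂} {b : E₂} {γ : L₂} {u'' : L} (hu0 : u ≠ 0) (hγ0 : γ ≠ 0)
    (hfac : algebraMap F₂ L₂ u =
      algebraMap F₂ L₂ (algebraMap E₂ F₂ b) * γ ^ p * algebraMap L L₂ u'')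
    {r : Lk} (c₀ : E₂) (hc₀ : V₂.valuation (algebraMap E₂ F₂ c₀ * u) = 1) {a₀ : k₀} (ha₀ : a₀ ≠ 0)
    (hr : r = algebraMap k₀ Lk a₀ * ρ₂ ⟨algebraMap E₂ F₂ c₀ * u, tresft_mem_of_val V₂ hc₀⟩)
    {m : ℤ} (hm : (S.W k).valuation (u'' / algebraMap F L S.π ^ m) = 1) :
    ∃ (a : k₀) (s : Lk), a ≠ 0 ∧ s ≠ 0 ∧
      ρW ⟨u'' / algebraMap F L S.π ^ m, tresft_mem_of_val _ hm⟩ ≠ 0 ∧
      r = algebraMap k₀ Lk a * ρW ⟨u'' / algebraMap F L S.π ^ m, tresft_mem_of_val _ hm⟩ *
        s ^ p := by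
  -- the reduction map of the big sheet
  obtain ⟨ρ₂W, hext, -, hker⟩ := tresft_sheet_gen S₂ hk₂ ρ₂ hρ₂
  have hrestr := tresft_bc_red S S₂ hV hk hk₂ hW ρ₂ ρ₂W hext (fun x hx => (hker x).2 hx) ρW hρW hρWker
  obtain ⟨π₂c, hπ₂c⟩ := hπ₂c
  obtain ⟨πc, hπc⟩ := hπc
  -- nonvanishing
  have hu0' : algebraMap F₂ L₂ u ≠ 0 := (_root_.map_ne_zero _).2 hu0
  have hb0 : b ≠ 0 := by
    rintro rfl
    rw [map_zero, map_zero, zero_mul, zero_mul] at hfac
    exact hu0' hfac
  have hπ0 : algebraMap F L S.π ≠ 0 := (_root_.map_ne_zero _).2 S.hπ0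
  have hπ₂0 : algebraMap F₂ L₂ S₂.π ≠ 0 := (_root_.map_ne_zero _).2 S₂.hπ0
  have hu''0 : u'' ≠ 0 := by
    rintro rfl
    rw [zero_div, map_zero] at hm
    exact zero_ne_one hm
  -- the order of `γ` on the big sheet
  obtain ⟨n₁, hn₁⟩ := S₂.W_unif hk₂ hγ0
  set g₁ : L₂ := γ / algebraMap F₂ L₂ S₂.π ^ n₁ with hg₁
  set y₀ : L := u'' / algebraMap F L S.π ^ m with hy₀
  have hY₀ : (S₂.W k₂).valuation (algebraMap L L₂ y₀) = 1 :=
    (tresft_val_one_comap (algebraMap L L₂) (S.W k) (S₂.W k₂) hW).2 hm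
  have hU₀ : (S₂.W k₂).valuation (algebraMap F₂ L₂ (algebraMap E₂ F₂ c₀ * u)) = 1 :=
    (tresft_val_one_comap (algebraMap F₂ L₂) V₂ (S₂.W k₂) (S₂.W_comap hk₂)).2 hc₀
  -- the constant
  set κ : E₂ := c₀ * b * π₂c ^ ((p : ℤ) * n₁) * πc ^ m with hκ
  have hπcL : algebraMap L L₂ (algebraMap F L S.π) = algebraMap F₂ L₂ (algebraMap E₂ F₂ πc) := by
    rw [← IsScalarTower.algebraMap_apply F L L₂, IsScalarTower.algebraMap_apply F F₂ L₂, hπc]
  have hπc0 : algebraMap F₂ L₂ (algebraMap E₂ F₂ πc) ≠ 0 := by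
    rw [← hπcL]; exact (_root_.map_ne_zero _).2 hπ0
  have hπ₂c0 : algebraMap F₂ L₂ (algebraMap E₂ F₂ π₂c) ≠ 0 := by
    rw [← hπ₂c]; exact hπ₂0
  have hkey : algebraMap F₂ L₂ (algebraMap E₂ F₂ c₀ * u) =
      algebraMap F₂ L₂ (algebraMap E₂ F₂ κ) * g₁ ^ p * algebraMap L L₂ y₀ := by
    rw [map_mul, hfac, hκ, hg₁, hy₀, map_mul, map_mul, map_mul, map_mul, map_mul, map_zpow₀,
      map_zpow₀, map_zpow₀, map_zpow₀, map_div₀, map_zpow₀, hπcL, ← hπ₂c, div_pow,
      ← zpow_natCast (algebraMap F₂ L₂ S₂.π ^ n₁) p, ← zpow_mul, mul_comm n₁ (p : ℤ)]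
    have h1 := zpow_ne_zero ((p : ℤ) * n₁) hπ₂0
    have h2 := zpow_ne_zero m hπc0
    field_simp
    rw [map_mul]
    ring
  have hg₁v : (S₂.W k₂).valuation (g₁ ^ p) = 1 := by rw [map_pow, hn₁, one_pow]
  have hκW : (S₂.W k₂).valuation (algebraMap F₂ L₂ (algebraMap E₂ F₂ κ)) = 1 := by
    have h := congrArg (S₂.W k₂).valuation hkey
    rw [hU₀, map_mul, map_mul, hg₁v, hY₀, mul_one, mul_one] at h
    exact h.symm
  have hκV : V₂.valuation (algebraMap E₂ F₂ κ) = 1 :=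
    (tresft_val_one_comap (algebraMap F₂ L₂) V₂ (S₂.W k₂) (S₂.W_comap hk₂)).1 hκW
  obtain ⟨a', ha', hρκ⟩ := hconst κ hκV
  -- the identity in the big sheet
  have hsub : (⟨algebraMap F₂ L₂ (algebraMap E₂ F₂ c₀ * u), tresft_mem_of_val _ hU₀⟩ :
      ↥(S₂.W k₂)) =
      ⟨algebraMap F₂ L₂ (algebraMap E₂ F₂ κ), tresft_mem_of_val _ hκW⟩ *
        ⟨g₁, tresft_mem_of_val _ hn₁⟩ ^ p *
        tresftInclW hW ⟨y₀, tresft_mem_of_val _ hm⟩ := Subtype.ext hkey
  have e1 : ρ₂W ⟨algebraMap F₂ L₂ (algebraMap E₂ F₂ c₀ * u), tresft_mem_of_val _ hU₀⟩ =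
      ρ₂ ⟨algebraMap E₂ F₂ c₀ * u, tresft_mem_of_val V₂ hc₀⟩ := hext _ _ _
  have e2 : ρ₂W ⟨algebraMap F₂ L₂ (algebraMap E₂ F₂ κ), tresft_mem_of_val _ hκW⟩ =
      ρ₂ ⟨algebraMap E₂ F₂ κ, tresft_mem_of_val V₂ hκV⟩ := hext _ _ _
  have e3 : ρ₂W (tresftInclW hW ⟨y₀, tresft_mem_of_val _ hm⟩) =
      ρW ⟨y₀, tresft_mem_of_val _ hm⟩ := by
    rw [← hrestr]; rfl
  have hred : ρ₂ ⟨algebraMap E₂ F₂ c₀ * u, tresft_mem_of_val V₂ hc₀⟩ =
      algebraMap k₀ Lk a' * ρ₂W ⟨g₁, tresft_mem_of_val _ hn₁⟩ ^ p *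
        ρW ⟨y₀, tresft_mem_of_val _ hm⟩ := by
    rw [← e1, hsub, map_mul, map_mul, map_pow, e2, hρκ, e3]
  have hρ0 : ρ₂ ⟨algebraMap E₂ F₂ c₀ * u, tresft_mem_of_val V₂ hc₀⟩ ≠ 0 := by
    intro h0
    have h1 := (hρ₂ _).1 h0
    rw [ValuationSubring.mem_nonunits_iff, hc₀] at h1
    exact lt_irrefl _ h1
  refine ⟨a₀ * a', ρ₂W ⟨g₁, tresft_mem_of_val _ hn₁⟩, mul_ne_zero ha₀ ha', ?_, ?_, ?_⟩
  · intro h0
    have h1 := (hker _).1 h0
    rw [ValuationSubring.mem_nonunits_iff, hn₁] at h1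
    exact lt_irrefl _ h1
  · intro h0
    rw [h0, mul_zero] at hred
    exact hρ0 hred
  · rw [hr, hred, map_mul]
    ring

end Compare

end Fermat.Agent.R38

end
end ZBR38_009_6

/-! ### bundled: `Fermat.Agent.R38.TresFacTrConc` -/
section ZBR38_009_7
/-
ROW 38, TRES, piece FAC-TR (helper90), part 3 (concrete): THE COMPARISON `r = red(u)` versus the
reduction of `u″` along a sheet of the cover over the inertia field.

Frame of `RIB/MP/RedA.lean`: `A ⊂ ℚ̄` over `q`, `K₀ ≤ K₁` subfields of `ℚ̄` with `A ∩ K₀`, `A ∩ K₁`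
discrete valuation rings (`K₀ = ℚ̄^I`, `K₁` a finite extension containing the constants of the
descent), `F₀ = F_{M₁q}(K₀) ⊆ F₁ = F_{M₁q}(K₁)`, `V₀ ⊆ V₁` the Gauss valuation rings,
`ribmpRedF : V_i →+* F̄_{M₁}(k)` their reduction maps.   The covers `L/F₀`, `L₂/F₁` are abstract
(`Tres5Gen`), with `L ⊆ L₂` compatible with `F₀ ⊆ F₁` (`hsq`).

* `tresftc_redK_incl`, `tresftc_redF_incl` : the reduction maps over `K₁` restrict to those over
  `K₀`;
* `tresftc_const` : the reduction of a constant unit is a nonzero constant;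
* `tresftc_red` : `R38Red A u r` and `c₀ u ∈ V₁^×` ⇒ `r = a₀ · red(c₀ u)`;
* `tresft_main` : **(T3)**  `u = b γ ^ p u″`, `R38Red A u r`  ⇒  `r ∈ F̄_{M₁}(k)` and
  `r = a · ρ_W (u″ / π ^ m) · s ^ p`  for every reduction map `ρ_W` of a sheet `S.W k` of the cover
  over `K₀` extending `ribmpRedF` (`a ∈ k^×`, `s ∈ F̄_{M₁}(k)^×`): the hypothesis of
  `tresmono_clauses_congr`.
-/

set_option autoImplicit false
set_option linter.unusedSectionVars false
set_option linter.unusedVariables false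
set_option linter.style.haveILetI false
set_option linter.style.longLine false
set_option synthInstance.maxHeartbeats 400000
set_option maxHeartbeats 1600000

noncomputable section

namespace Fermat.Agent.R38

open ModularCurve AlgebraicCurve Fermat.Agent.ES Fermat.Agent.ES.G2 Fermat.Agent.INJ
  Fermat.Agent.UNIP Fermat.Agent.STB Fermat.Agent.ES.M Fermat.Agent.DEU Fermat.Agent.S36
  Fermat.Agent.RIB.MP

section Incl

variable {A : ValuationSubring Qb} {K₀ K₁ : IntermediateField ℚ Qb}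
  [IsDiscreteValuationRing ↥(beta0Ring A K₀)] {π₀ : ↥(beta0Ring A K₀)} (hπ₀ : Irreducible π₀)
  [IsDiscreteValuationRing ↥(beta0Ring A K₁)] {π₁ : ↥(beta0Ring A K₁)} (hπ₁ : Irreducible π₁)
  (h : K₀ ≤ K₁)

/-- the Kronecker reduction over `K₁` restricts to the one over `K₀` -/
theorem tresftc_redK_incl (N : ℕ) [NeZero N]
    (x : ↥(vtInf (E := ↥K₀) (vtBase_residue hπ₀) N))
    (hx' : mgaIncl h N (x : modularFunctionFieldFullC ↥K₀ N) ∈
      vtInf (E := ↥K₁) (vtBase_residue hπ₁) N) :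
    ribmpRedK hπ₁ N ⟨mgaIncl h N (x : modularFunctionFieldFullC ↥K₀ N), hx'⟩ =
      ribmpRedK hπ₀ N x := by
  apply ribmpRedK_eq
  show GaussRed N A (nfEmb K₁ N (mgaIncl h N (x : modularFunctionFieldFullC ↥K₀ N))) _
  rw [nfEmb_mgaIncl]
  exact ribmpRedK_spec hπ₀ N x

end Incl

section Main

variable {M₁ q : ℕ} [NeZero M₁] [NeZero q] [NeZero (M₁ * q)] (hq : q.Prime) (hqM : ¬ q ∣ M₁)
  {A : ValuationSubring Qb} (hA : A.LiesOverPrime q) {K₀ K₁ : IntermediateField ℚ Qb}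
  [IsDiscreteValuationRing ↥(beta0Ring A K₀)] {π₀ : ↥(beta0Ring A K₀)} (hπ₀ : Irreducible π₀)
  [IsDiscreteValuationRing ↥(beta0Ring A K₁)] {π₁ : ↥(beta0Ring A K₁)} (hπ₁ : Irreducible π₁)
  (ιC₀ : ↥K₀ →+* ℂ) (ιC₁ : ↥K₁ →+* ℂ) (h : K₀ ≤ K₁)

include hA in
/-- the reduction map over `K₁` restricts to the one over `K₀` -/
theorem tresftc_redF_incl (hRedF : StmtRedF M₁ A) (x : ↥(mgvV hπ₀ ιC₀ hq hqM true))
    (hx' : mgaIncl h (M₁ * q) (x : modularFunctionFieldFullC ↥K₀ (M₁ * q)) ∈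
      mgvV hπ₁ ιC₁ hq hqM true) :
    ribmpRedF hq hqM hA hπ₁ ιC₁ hRedF
        ⟨mgaIncl h (M₁ * q) (x : modularFunctionFieldFullC ↥K₀ (M₁ * q)), hx'⟩ =
      ribmpRedF hq hqM hA hπ₀ ιC₀ hRedF x := by
  apply Subtype.ext
  rw [ribmpRedF_coe, ribmpRedF_coe]
  exact tresftc_redK_incl hπ₀ hπ₁ h (M₁ * q) _ _

include hA in
/-- the kernel of the reduction map is the maximal ideal -/
theorem tresftc_redF_eq_zero_iff (hRedF : StmtRedF M₁ A) (x : ↥(mgvV hπ₁ ιC₁ hq hqM true)) :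
    ribmpRedF hq hqM hA hπ₁ ιC₁ hRedF x = 0 ↔
      (x : modularFunctionFieldFullC ↥K₁ (M₁ * q)) ∈ (mgvV hπ₁ ιC₁ hq hqM true).nonunits := by
  constructor
  · intro h0
    by_contra hx
    have hv : (mgvV hπ₁ ιC₁ hq hqM true).valuation
        (x : modularFunctionFieldFullC ↥K₁ (M₁ * q)) = 1 := by
      have h1 := (ValuationSubring.valuation_le_one_iff _ _).2 x.2
      rw [ValuationSubring.mem_nonunits_iff, not_lt] at hx
      exact le_antisymm h1 hx
    have h2 := ribmpRedK_ne_zero hπ₁ (M₁ * q)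
      (ValuationSubring.inclusion _ _ (le_of_eq (mgvV_true hπ₁ ιC₁ hq hqM)) x) hv
    apply h2
    have h3 := congrArg Subtype.val h0
    rw [ribmpRedF_coe] at h3
    exact h3
  · intro hx
    apply Subtype.ext
    rw [ribmpRedF_coe]
    exact ribmpRedK_eq_zero_of_mem_nonunits hπ₁ (M₁ * q) _ hx

include hA in
/-- **(T3), with the two reduction facts (R1), (R3) as hypotheses.** -/
theorem tresft_main_of (hRedF : StmtRedF M₁ A)
    (hR1 : ∀ (c : ↥K₁) (hc : (mgvV hπ₁ ιC₁ hq hqM true).valuation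
        (algebraMap ↥K₁ ↥(modularFunctionFieldFullC ↥K₁ (M₁ * q)) c) = 1),
      ∃ a : kA A, a ≠ 0 ∧
        ribmpRedF hq hqM hA hπ₁ ιC₁ hRedF
          ⟨algebraMap ↥K₁ ↥(modularFunctionFieldFullC ↥K₁ (M₁ * q)) c, tresft_mem_of_val _ hc⟩ =
        algebraMap (kA A) ↥(modularFunctionFieldFullC (kA A) M₁) a)
    (hR3 : ∀ (u : ↥(modularFunctionFieldFullC ↥K₁ (M₁ * q))) (r : LaurentSeries (kA A)),
      R38Red A ((nfEmb K₁ (M₁ * q) u : modularFunctionFieldBar (M₁ * q)) : LaurentSeries Qb) r →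
      ∀ (c₀ : ↥K₁) (hv : (mgvV hπ₁ ιC₁ hq hqM true).valuation
          (algebraMap ↥K₁ ↥(modularFunctionFieldFullC ↥K₁ (M₁ * q)) c₀ * u) = 1),
      ∃ a₀ : kA A, a₀ ≠ 0 ∧ r = HahnSeries.C a₀ *
        ((ribmpRedF hq hqM hA hπ₁ ιC₁ hRedF
          ⟨algebraMap ↥K₁ ↥(modularFunctionFieldFullC ↥K₁ (M₁ * q)) c₀ * u,
            tresft_mem_of_val _ hv⟩ : ↥(modularFunctionFieldFullC (kA A) M₁)) :
          LaurentSeries (kA A)))
    {L L₂ : Type*} [Field L] [Field L₂]
    [Algebra ↥(modularFunctionFieldFullC ↥K₀ (M₁ * q)) L]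
    [Algebra ↥(modularFunctionFieldFullC ↥K₁ (M₁ * q)) L₂] [Algebra L L₂]
    (hsq : ∀ x : ↥(modularFunctionFieldFullC ↥K₀ (M₁ * q)),
      algebraMap L L₂ (algebraMap ↥(modularFunctionFieldFullC ↥K₀ (M₁ * q)) L x) =
        algebraMap ↥(modularFunctionFieldFullC ↥K₁ (M₁ * q)) L₂ (mgaIncl h (M₁ * q) x))
    {n n₂ : ℕ}
    (S : Tres5Gen ↥(modularFunctionFieldFullC ↥K₀ (M₁ * q)) L (mgvV hπ₀ ιC₀ hq hqM true) n)
    (S₂ : Tres5Gen ↥(modularFunctionFieldFullC ↥K₁ (M₁ * q)) L₂ (mgvV hπ₁ ιC₁ hq hqM true) n₂)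
    (hSπ : ∃ c : ↥K₀, S.π = algebraMap ↥K₀ ↥(modularFunctionFieldFullC ↥K₀ (M₁ * q)) c)
    (hS₂π : ∃ c : ↥K₁, S₂.π = algebraMap ↥K₁ ↥(modularFunctionFieldFullC ↥K₁ (M₁ * q)) c)
    {k k₂ : ℕ} (hk : k < n) (hk₂ : k₂ < n₂)
    (hW : (S₂.W k₂).comap (algebraMap L L₂) = S.W k)
    (ρW : ↥(S.W k) →+* ↥(modularFunctionFieldFullC (kA A) M₁))
    (hρW : ∀ (a : ↥(modularFunctionFieldFullC ↥K₀ (M₁ * q))) (ha : a ∈ mgvV hπ₀ ιC₀ hq hqM true)
      (haW : algebraMap ↥(modularFunctionFieldFullC ↥K₀ (M₁ * q)) L a ∈ S.W k),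
      ρW ⟨algebraMap ↥(modularFunctionFieldFullC ↥K₀ (M₁ * q)) L a, haW⟩ =
        ribmpRedF hq hqM hA hπ₀ ιC₀ hRedF ⟨a, ha⟩)
    (hρWker : ∀ x : ↥(S.W k), (x : L) ∈ (S.W k).nonunits → ρW x = 0)
    {p : ℕ} {u : ↥(modularFunctionFieldFullC ↥K₁ (M₁ * q))} {b : ↥K₁} {γ : L₂} {u'' : L}
    (hu0 : u ≠ 0) (hγ0 : γ ≠ 0)
    (hfac : algebraMap ↥(modularFunctionFieldFullC ↥K₁ (M₁ * q)) L₂ u =
      algebraMap ↥(modularFunctionFieldFullC ↥K₁ (M₁ * q)) L₂
        (algebraMap ↥K₁ ↥(modularFunctionFieldFullC ↥K₁ (M₁ * q)) b) * γ ^ p *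
        algebraMap L L₂ u'')
    {r : LaurentSeries (kA A)}
    (hr : R38Red A
      ((nfEmb K₁ (M₁ * q) u : modularFunctionFieldBar (M₁ * q)) : LaurentSeries Qb) r)
    {m : ℤ}
    (hm : (S.W k).valuation
      (u'' / algebraMap ↥(modularFunctionFieldFullC ↥K₀ (M₁ * q)) L S.π ^ m) = 1) :
    ∃ (hrF : r ∈ modularFunctionFieldFullC (kA A) M₁) (a : kA A)
      (s : ↥(modularFunctionFieldFullC (kA A) M₁)), a ≠ 0 ∧ s ≠ 0 ∧
      ρW ⟨u'' / algebraMap ↥(modularFunctionFieldFullC ↥K₀ (M₁ * q)) L S.π ^ m,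
        tresft_mem_of_val _ hm⟩ ≠ 0 ∧
      (⟨r, hrF⟩ : ↥(modularFunctionFieldFullC (kA A) M₁)) =
        algebraMap (kA A) ↥(modularFunctionFieldFullC (kA A) M₁) a *
          ρW ⟨u'' / algebraMap ↥(modularFunctionFieldFullC ↥K₀ (M₁ * q)) L S.π ^ m,
            tresft_mem_of_val _ hm⟩ * s ^ p := by
  -- the algebra structures
  letI algFF : Algebra ↥(modularFunctionFieldFullC ↥K₀ (M₁ * q))
      ↥(modularFunctionFieldFullC ↥K₁ (M₁ * q)) := (mgaIncl h (M₁ * q)).toAlgebra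
  letI algFL : Algebra ↥(modularFunctionFieldFullC ↥K₀ (M₁ * q)) L₂ :=
    ((algebraMap ↥(modularFunctionFieldFullC ↥K₁ (M₁ * q)) L₂).comp
      (mgaIncl h (M₁ * q))).toAlgebra
  haveI t1 : IsScalarTower ↥(modularFunctionFieldFullC ↥K₀ (M₁ * q))
      ↥(modularFunctionFieldFullC ↥K₁ (M₁ * q)) L₂ :=
    IsScalarTower.of_algebraMap_eq (fun x => rfl)
  haveI t2 : IsScalarTower ↥(modularFunctionFieldFullC ↥K₀ (M₁ * q)) L L₂ :=
    IsScalarTower.of_algebraMap_eq (fun x => (hsq x).symm)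
  have hV : (mgvV hπ₁ ιC₁ hq hqM true).comap
      (algebraMap ↥(modularFunctionFieldFullC ↥K₀ (M₁ * q))
        ↥(modularFunctionFieldFullC ↥K₁ (M₁ * q))) = mgvV hπ₀ ιC₀ hq hqM true :=
    mgv_comap_incl hπ₀ hπ₁ ιC₀ ιC₁ hq hqM h true
  -- (R2): normalisation of `u`
  obtain ⟨c₂, hc₂⟩ := hS₂π
  obtain ⟨m₂, hm₂⟩ := S₂.hunif u hu0
  have hc₀ : (mgvV hπ₁ ιC₁ hq hqM true).valuation
      (algebraMap ↥K₁ ↥(modularFunctionFieldFullC ↥K₁ (M₁ * q)) ((c₂ ^ m₂)⁻¹) * u) = 1 := by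
    have e : algebraMap ↥K₁ ↥(modularFunctionFieldFullC ↥K₁ (M₁ * q)) ((c₂ ^ m₂)⁻¹) * u =
        u / S₂.π ^ m₂ := by
      rw [map_inv₀, map_zpow₀, ← hc₂, div_eq_mul_inv]
      exact mul_comm _ _
    rw [e]
    exact hm₂
  obtain ⟨a₀, ha₀, hra₀⟩ := hR3 u r hr _ hc₀
  have hrF : r ∈ modularFunctionFieldFullC (kA A) M₁ := by
    rw [hra₀]
    exact mul_mem (hahnC_mem_intermediateField _ _) (Subtype.property _)
  have hr' : (⟨r, hrF⟩ : ↥(modularFunctionFieldFullC (kA A) M₁)) =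
      algebraMap (kA A) ↥(modularFunctionFieldFullC (kA A) M₁) a₀ *
        ribmpRedF hq hqM hA hπ₁ ιC₁ hRedF
          ⟨algebraMap ↥K₁ ↥(modularFunctionFieldFullC ↥K₁ (M₁ * q)) ((c₂ ^ m₂)⁻¹) * u,
            tresft_mem_of_val _ hc₀⟩ := by
    apply Subtype.ext
    rw [MulMemClass.coe_mul]
    show r = ((algebraMap (kA A) ↥(modularFunctionFieldFullC (kA A) M₁) a₀ :
      ↥(modularFunctionFieldFullC (kA A) M₁)) : LaurentSeries (kA A)) * _
    rw [hra₀]
    congr 1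
    exact (algebraMap_eq_hahnC a₀).symm
  obtain ⟨a, s, ha, hs, hne, hfin⟩ := tresft_compare (E₂ := ↥K₁) (k₀ := kA A) S S₂ hV hk hk₂ hW
    (ribmpRedF hq hqM hA hπ₁ ιC₁ hRedF)
    (tresftc_redF_eq_zero_iff hq hqM hA hπ₁ ιC₁ hRedF) ρW
    (fun a ha haW => by
      rw [hρW a ha haW]
      exact (tresftc_redF_incl hq hqM hA hπ₀ hπ₁ ιC₀ ιC₁ h hRedF ⟨a, ha⟩ _).symm)
    hρWker hR1 ⟨c₂, hc₂⟩
    (by
      obtain ⟨c, hc⟩ := hSπ
      refine ⟨IntermediateField.inclusion h c, ?_⟩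
      rw [hc]
      exact mgaIncl_mgaConst h (M₁ * q) c)
    hu0 hγ0 hfac ((c₂ ^ m₂)⁻¹) hc₀ ha₀ hr' hm
  exact ⟨hrF, a, s, ha, hs, hne, hfin⟩

end Main

end Fermat.Agent.R38

end
end ZBR38_009_7

/-! ### bundled: `Fermat.Agent.R38.TresMonoConcF` -/
section ZBR38_009_8
/-
ROW 38, TRES, piece FAC-ASM-MAIN (helper89), part M3d: THE FRAME THEOREM IN THE CONCRETE FRAME.

Frame of `RIB/MP/RedA.lean` (helper91) and `R38/TresFacTrConc.lean` (helper90): `A ⊂ ℚ̄` over `p`,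
`K₀ ⊂ ℚ̄` with `A ∩ K₀` a discrete valuation ring (`K₀ = ℚ̄^I`), `F = F_{M₁ p}(K₀)`
(`M₁` the rigid level), `V_∞ = mgvV … true`, `ρ_F = ribmpRedF : V_∞ →+* F̄_{M₁}(k)`, `t = bgJ`.
The cover `L / F` is an abstract field with a valuation ring `W` over `V_∞` and a reduction map
`ρ_W` extending `ρ_F` (helper90's `tresft_sheet_gen`).

* `tresmonof_redF_J`  : `ρ_F (j) = j̄`;
* `tresmonof_frame`   : `tresmono_frame` with the hypotheses (I1) discharged.
-/

set_option autoImplicit false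
set_option linter.unusedSectionVars false
set_option linter.unusedVariables false
set_option linter.style.haveILetI false
set_option linter.style.longLine false
set_option synthInstance.maxHeartbeats 400000
set_option maxHeartbeats 1600000

noncomputable section

namespace Fermat.Agent.R38

open ModularCurve AlgebraicCurve Fermat.Agent.ES Fermat.Agent.ES.G2 Fermat.Agent.INJ
  Fermat.Agent.UNIP Fermat.Agent.STB Fermat.Agent.ES.M Fermat.Agent.DEU Fermat.Agent.S36
  Fermat.Agent.RIB.MP Fermat.Agent.S24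

section X

variable {M₁ q : ℕ} [NeZero M₁] [NeZero q] [NeZero (M₁ * q)] (hq : q.Prime) (hqM : ¬ q ∣ M₁)
  {A : ValuationSubring Qb} (hA : A.LiesOverPrime q) {K₀ : IntermediateField ℚ Qb}
  [IsDiscreteValuationRing ↥(beta0Ring A K₀)] {π : ↥(beta0Ring A K₀)} (hπ : Irreducible π)
  (ιC : ↥K₀ →+* ℂ)

include hA in
/-- **the reduction of `j` is `j̄`** -/
theorem tresmonof_redF_J (hRedF : StmtRedF M₁ A) :
    ribmpRedF hq hqM hA hπ ιC hRedF ⟨bgJ ↥K₀ (M₁ * q), mgv_T_mem hπ ιC hq hqM true⟩ =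
      ⟨jqModC (kA A), jqModC_mem_full (kA A) M₁⟩ := by
  apply Subtype.ext
  rw [ribmpRedF_coe]
  apply ribmpRedK_eq
  show GaussRed (M₁ * q) A (nfEmb K₀ (M₁ * q) (bgJ ↥K₀ (M₁ * q))) _
  rw [bgRam_nfEmb_bgJ]
  exact deuRamInst_gaussRed_jF (M₁ * q) A

include hA in
/-- the constants of `A ∩ K₀` reduce to constants -/
theorem tresmonof_redF_const (hRedF : StmtRedF M₁ A) (a : ↥(beta0Ring A K₀)) :
    ribmpRedF hq hqM hA hπ ιC hRedF
        ⟨algebraMap ↥(beta0Ring A K₀) ↥(modularFunctionFieldFullC ↥K₀ (M₁ * q)) a,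
          vtFam_const_mem (vtBase_residue hπ) ιC hq hqM true a⟩ =
      algebraMap (kA A) ↥(modularFunctionFieldFullC (kA A) M₁)
        (IsLocalRing.residue A ⟨algebraMap ↥K₀ Qb (algebraMap ↥(beta0Ring A K₀) ↥K₀ a),
          stb_mgt_c1 A K₀ a⟩) := by
  apply Subtype.ext
  rw [ribmpRedF_coe]
  exact (ribmpRedK_const hπ (M₁ * q) a
    (vtFam_const_mem (vtBase_residue hπ) ιC hq hqM true a)).trans (algebraMap_eq_hahnC _).symm

end X

section Frame

variable {M M₁ p : ℕ} [NeZero M] [NeZero M₁] [NeZero p] [NeZero (M * p)] [NeZero (M₁ * p)]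
  (hq : p.Prime) (hqM : ¬ p ∣ M₁)
  {A : ValuationSubring Qb} (hA : A.LiesOverPrime p) {K₀ : IntermediateField ℚ Qb}
  [IsDiscreteValuationRing ↥(beta0Ring A K₀)] {π : ↥(beta0Ring A K₀)} (hπ : Irreducible π)
  (ιC : ↥K₀ →+* ℂ)

include hA in
/-- **The frame theorem in the concrete frame (M3d).**  `W` a valuation ring of the cover `L`
over `V_∞`, `ρW` a reduction map of `W` extending `ribmpRedF`. -/
theorem tresmonof_frame (hRedF : StmtRedF M₁ A)
    (hfinQ : ∀ Q : Place (kA A) ↥(modularFunctionFieldFullC (kA A) M₁),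
      ∀ x ∈ Q.toValuationSubring, x ∉ Q.toValuationSubring.nonunits →
        ∃ n : ℕ, 0 < n ∧ x ^ n - 1 ∈ Q.toValuationSubring.nonunits)
    {x : JZero (M * p)}
    {L : Type*} [Field L] [Algebra ↥(modularFunctionFieldFullC ↥K₀ (M₁ * p)) L]
    (W : ValuationSubring L)
    (hWV : W.comap (algebraMap ↥(modularFunctionFieldFullC ↥K₀ (M₁ * p)) L) =
      mgvV hπ ιC hq hqM true)
    (ρW : ↥W →+* ↥(modularFunctionFieldFullC (kA A) M₁))
    (hρW : ∀ (a : ↥(modularFunctionFieldFullC ↥K₀ (M₁ * p))) (ha : a ∈ mgvV hπ ιC hq hqM true)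
      (haW : algebraMap ↥(modularFunctionFieldFullC ↥K₀ (M₁ * p)) L a ∈ W),
      ρW ⟨algebraMap ↥(modularFunctionFieldFullC ↥K₀ (M₁ * p)) L a, haW⟩ =
        ribmpRedF hq hqM hA hπ ιC hRedF ⟨a, ha⟩)
    (hρWker : ∀ x : ↥W, (x : L) ∈ W.nonunits → ρW x = 0)
    -- the normalised Kummer function of the cover and the Ogg unit
    {y h : L} (hy : W.valuation y = 1) (hh : W.valuation h = 1) (c e : ℤ)
    (he : ¬ (p : ℤ) ∣ e)
    (hfin : ∀ 𝔫 : AtPt (F := ↥(modularFunctionFieldFullC ↥K₀ (M₁ * p))) π (bgJ ↥K₀ (M₁ * p)),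
      ∀ T : ValuationSubring L,
      (∀ x ∈ atLoc 𝔫, algebraMap ↥(modularFunctionFieldFullC ↥K₀ (M₁ * p)) L x ∈ T) →
      (∀ x ∈ T, x ∈ W) →
      ∃ O' : Subring L, (∀ x ∈ O', x ∈ T) ∧ TresMonoPt W O' p c e y h)
    (hcusp : ∀ 𝔫 : AtPt (F := ↥(modularFunctionFieldFullC ↥K₀ (M₁ * p))) π
        (bgJ ↥K₀ (M₁ * p))⁻¹,
      ∀ T : ValuationSubring L,
      (∀ x ∈ atLoc 𝔫, algebraMap ↥(modularFunctionFieldFullC ↥K₀ (M₁ * p)) L x ∈ T) →
      (∀ x ∈ T, x ∈ W) →
      (∀ b : ↥(zchClosure (A₀ := ↥(beta0Ring A K₀))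
          ({(bgJ ↥K₀ (M₁ * p))⁻¹} : Set ↥(modularFunctionFieldFullC ↥K₀ (M₁ * p)))),
        (b : ↥(modularFunctionFieldFullC ↥K₀ (M₁ * p))) = (bgJ ↥K₀ (M₁ * p))⁻¹ → b ∈ 𝔫.1) →
      ∃ O' : Subring L, (∀ x ∈ O', x ∈ T) ∧ StbFacAt O' p y)
    -- the Kummer function of `x`, its Gauss reduction, the comparison
    (u : modularFunctionFieldBar (M * p)) (hK : KummerRel p x u)
    (r : LaurentSeries (kA A)) (hr : r ∈ modularFunctionFieldFullC (kA A) M)
    (hr' : r ∈ modularFunctionFieldFullC (kA A) M₁)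
    (hred : R38Red A (u : LaurentSeries Qb) r)
    (hcmp : ∃ (a : kA A) (s : ↥(modularFunctionFieldFullC (kA A) M₁)), a ≠ 0 ∧ s ≠ 0 ∧
      (⟨r, hr'⟩ : ↥(modularFunctionFieldFullC (kA A) M₁)) =
        algebraMap (kA A) ↥(modularFunctionFieldFullC (kA A) M₁) a *
          ρW ⟨y, tresdn_mem W hy⟩ * s ^ p)
    -- the reduction of the Ogg unit
    (hb : LaurentSeries (kA A)) (hhb : hb ∈ modularFunctionFieldFullC (kA A) M)
    (hhb' : hb ∈ modularFunctionFieldFullC (kA A) M₁)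
    (hρh : ρW ⟨h, tresdn_mem W hh⟩ = ⟨hb, hhb'⟩)
    (hhecke : ∀ (ℓ : ℕ) [NeZero ℓ], ℓ.Prime → ℓ ≠ p → ∀ ζ : (kA A)ˣ, IsPrimitiveRoot ζ ℓ →
      ∃ c : kA A, c ≠ 0 ∧ kronHecke ℓ ζ hb = HahnSeries.C c * hb ^ (ℓ + 1))
    -- the descent to the level `M`
    (hrig : TresRigDescent M M₁ p A) :
    FacMonoConcl M p A x := by
  -- (I1)
  have hmemW : ∀ (a : ↥(modularFunctionFieldFullC ↥K₀ (M₁ * p))),
      a ∈ mgvV hπ ιC hq hqM true →
        algebraMap ↥(modularFunctionFieldFullC ↥K₀ (M₁ * p)) L a ∈ W := by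
    intro a ha
    have : a ∈ W.comap (algebraMap ↥(modularFunctionFieldFullC ↥K₀ (M₁ * p)) L) := by
      rw [hWV]; exact ha
    exact this
  have hAV : ∀ a : ↥(beta0Ring A K₀),
      algebraMap ↥(beta0Ring A K₀) ↥(modularFunctionFieldFullC ↥K₀ (M₁ * p)) a ∈
        mgvV hπ ιC hq hqM true :=
    fun a => vtFam_const_mem (vtBase_residue hπ) ιC hq hqM true a
  have hAW : ∀ a : ↥(beta0Ring A K₀),
      algebraMap ↥(modularFunctionFieldFullC ↥K₀ (M₁ * p)) L
        (algebraMap ↥(beta0Ring A K₀) ↥(modularFunctionFieldFullC ↥K₀ (M₁ * p)) a) ∈ W :=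
    fun a => hmemW _ (hAV a)
  have hπW : ρW ⟨algebraMap ↥(modularFunctionFieldFullC ↥K₀ (M₁ * p)) L
      (algebraMap ↥(beta0Ring A K₀) ↥(modularFunctionFieldFullC ↥K₀ (M₁ * p)) π), hAW π⟩ = 0 := by
    apply hρWker
    show algebraMap ↥(modularFunctionFieldFullC ↥K₀ (M₁ * p)) L
      (algebraMap ↥(beta0Ring A K₀) ↥(modularFunctionFieldFullC ↥K₀ (M₁ * p)) π) ∈ W.nonunits
    rw [tresft_mem_nonunits_iff (mgvV hπ ιC hq hqM true) W hWV]
    exact mgv_hπV hπ ιC hq hqM true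
  have ht : W.valuation (algebraMap ↥(modularFunctionFieldFullC ↥K₀ (M₁ * p)) L
      (bgJ ↥K₀ (M₁ * p))) = 1 :=
    (tresft_val_one_comap _ (mgvV hπ ιC hq hqM true) W hWV).2 (mgv_T_valuation hπ ιC hq hqM true)
  have hρt : ρW ⟨algebraMap ↥(modularFunctionFieldFullC ↥K₀ (M₁ * p)) L (bgJ ↥K₀ (M₁ * p)),
      tresdn_mem W ht⟩ = ⟨jqModC (kA A), jqModC_mem_full (kA A) M₁⟩ := by
    rw [hρW _ (mgv_T_mem hπ ιC hq hqM true)]
    exact tresmonof_redF_J hq hqM hA hπ ιC hRedF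
  have hAQ : ∀ (Q : Place (kA A) ↥(modularFunctionFieldFullC (kA A) M₁))
      (a : ↥(beta0Ring A K₀)),
      ρW ⟨algebraMap ↥(modularFunctionFieldFullC ↥K₀ (M₁ * p)) L
        (algebraMap ↥(beta0Ring A K₀) ↥(modularFunctionFieldFullC ↥K₀ (M₁ * p)) a), hAW a⟩ ∈
          Q.toValuationSubring := by
    intro Q a
    rw [hρW _ (hAV a), tresmonof_redF_const hq hqM hA hπ ιC hRedF a]
    exact Q.algebraMap_mem' _
  exact tresmono_frame (A₀ := ↥(beta0Ring A K₀))
    (F := ↥(modularFunctionFieldFullC ↥K₀ (M₁ * p))) (F' := L) (π := π)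
    (t := bgJ ↥K₀ (M₁ * p)) hq.pos W ρW hρWker hAW hπW ht hρt hAQ hfinQ hy hh c e he hfin hcusp
    u hK r hr hr' hred hcmp hb hhb hhb' hρh hhecke hrig

end Frame

end Fermat.Agent.R38

end


end ZBR38_009_8
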