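/- GENERATED FILE (helper35, build-time optimisation, NOTES/ZB.md): verbatim concatenation of the modules
   Fermat.Agent.R38.TresRig
   Fermat.Agent.R38.TresMonoFix
   Fermat.Agent.R38.TresMonoTopA
   Do not edit; do not import together with these modules. -/
import Fermat.Agent.ZB.S28_002
import Fermat.Agent.ZB.S24_007
import Fermat.Agent.ZB.S24_008
import Fermat.Prelude.Def_AlgebraicCurve_DivisorPushPull
import Fermat.Agent.ZB.R38_009
import Fermat.Agent.ZB.RIB_002
import Fermat.Agent.ZB.RT_001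
import Fermat.Agent.ZB.S36_008
import Fermat.Agent.ZB.RIB_005
import Fermat.Agent.ZB.RIB_004
import Fermat.Agent.ZB.STB_001
import Fermat.Agent.ZB.INJ_034

/-! ### bundled: `Fermat.Agent.R38.TresRig` -/
section ZBR38_010_0
/-
ROW 38, piece PKG-TRES / FAC-RIG (helper35): THE k-SIDE DESCENT FROM A RIGID LEVEL.

`k` a field of characteristic `p ≥ 5`, `M ∣ M'` with `M' = 2^a * 3^b * M` (e.g. `M' = lcm (M, 4)`
or `lcm (M, 9)`), `F̄_M = modularFunctionFieldFullC k M ≤ F̄_{M'}` inside `k((q))`.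

If `p ∣ c * ord_{Q'} r - d * ord_{Q'} h` at every place `Q'` of `F̄_{M'}` off the cusps and
`p ∣ ord_{Q'} r` at the cusps (`r, h ∈ F̄_M`), then the same holds at every place `Q` of `F̄_M`.

Route (no sum formula `Σ e f = n`, no norm formula): the tower `F̄_M ⊂ F̄_{ℓ M} ⊂ …` has steps of
degree `≤ ℓ + 1 ≤ 4 < p` (`S28.UB.relrank_step`), so each step is separable, every place extends
(going up in the Dedekind domain `integralClosure O_Q F'`), and its ramification index is
`≤ [F' : F] < p`, hence prime to `p`.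

* `tresrig_isSeparable_of_finrank_lt` : degree `< p` ⇒ separable (characteristic `p`);
* `tresrig_ord_sum_gt`, `tresrig_sum_ne_zero` : ultrametric lemmas for `Place.ord`;
* `tresrig_ramificationIndex_le_finrank` : `e ≤ [F' : F]` (prelude `Place.ramificationIndex`);
* `tresrig_exists_place_over` : going up for a finite separable extension (any characteristic);
* `tresrig_exists_place_coprime` : `[F' : F] < p` ⇒ every place of `F` has a place of `F'` above it
  with ramification index prime to `p`;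
* `tresrig_if_step` : the same for intermediate fields `A ≤ B` of `L/k` (with `relrank`);
* `TresRigUp k p M M'`, `tresrig_up_refl`, `tresrig_up_trans`, `tresrig_up_step`,
  `tresrig_up_pow`, `tresrig_up_two_three`, `tresrig_up_of_eq`, `tresrig_up_mul_four`,
  `tresrig_up_mul_nine`, `tresrig_up_lcm_four`, `tresrig_up_lcm_nine`;
* `tresrig_descent_of_up`, `tresrig_descent`, `tresrig_descent_lcm_four`,
  `tresrig_descent_lcm_nine` : the descent (shape (R2) of helper44's note).
-/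

set_option autoImplicit false
set_option linter.unusedSectionVars false
set_option linter.unusedVariables false
set_option linter.style.haveILetI false

noncomputable section

namespace Fermat.Agent.R38

open AlgebraicCurve ModularCurve IsDedekindDomain Fermat.Agent.S24 Fermat.Agent.S28

section Sep

variable {F F' : Type*} [Field F] [Field F'] [Algebra F F']

/-- A finite extension of degree `< p` in characteristic `p` is separable. -/
theorem tresrig_isSeparable_of_finrank_lt (p : ℕ) (hp : p.Prime) [CharP F p]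
    [FiniteDimensional F F'] (h : Module.finrank F F' < p) : Algebra.IsSeparable F F' := by
  refine ⟨fun x => ?_⟩
  have hint : IsIntegral F x := Algebra.IsIntegral.isIntegral x
  have hirr := minpoly.irreducible hint
  obtain ⟨n, g, hg, hexp⟩ := Polynomial.exists_separable_of_irreducible p hirr hp.ne_zero
  have hdeg : (minpoly F x).natDegree ≤ Module.finrank F F' := minpoly.natDegree_le x
  have hdeg' : (minpoly F x).natDegree = g.natDegree * p ^ n := by
    rw [← hexp, Polynomial.natDegree_expand]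
  have hg0 : g.natDegree ≠ 0 := by
    intro h0
    have : (minpoly F x).natDegree = 0 := by rw [hdeg', h0, zero_mul]
    exact (minpoly.natDegree_pos hint).ne' this
  rcases Nat.eq_zero_or_pos n with rfl | hn
  · have : minpoly F x = g := by
      rw [← hexp, pow_zero, Polynomial.expand_one]
    show (minpoly F x).Separable
    rw [this]
    exact hg
  · exfalso
    have h1 : p ≤ p ^ n := by
      calc p = p ^ 1 := (pow_one p).symm
        _ ≤ p ^ n := Nat.pow_le_pow_right hp.pos hn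
    have h2 : p ^ n ≤ g.natDegree * p ^ n :=
      Nat.le_mul_of_pos_left _ (Nat.pos_of_ne_zero hg0)
    omega

end Sep

section Ord

variable {K F : Type*} [Field K] [Field F] [Algebra K F] (v : Place K F)

/-- a finite sum of terms which are zero or of order `> m` is zero or of order `> m` -/
theorem tresrig_ord_sum_gt {ι : Type*} (s : Finset ι) (f : ι → F) (m : ℤ)
    (h : ∀ i ∈ s, f i = 0 ∨ m < v.ord (f i)) :
    (∑ i ∈ s, f i) = 0 ∨ m < v.ord (∑ i ∈ s, f i) := by
  classical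
  induction s using Finset.induction_on with
  | empty => left; simp
  | insert i s hi ih =>
    rw [Finset.sum_insert hi]
    have ih' := ih (fun j hj => h j (Finset.mem_insert_of_mem hj))
    by_cases hfi : f i = 0
    · rw [hfi, zero_add]; exact ih'
    · have hi1 : m < v.ord (f i) := (h i (Finset.mem_insert_self i s)).resolve_left hfi
      by_cases hs0 : ∑ j ∈ s, f j = 0
      · rw [hs0, add_zero]; exact Or.inr hi1
      · have h1 : m < v.ord (∑ j ∈ s, f j) := ih'.resolve_left hs0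
        by_cases hsum : f i + ∑ j ∈ s, f j = 0
        · exact Or.inl hsum
        · right
          have := PlaceAux.le_ord_add v hfi hs0 hsum
          exact lt_of_lt_of_le (lt_min hi1 h1) this

/-- a finite sum with one nonzero term of strictly smallest order is nonzero -/
theorem tresrig_sum_ne_zero {ι : Type*} (s : Finset ι) (f : ι → F) (i₀ : ι) (hi₀ : i₀ ∈ s)
    (h0 : f i₀ ≠ 0) (h : ∀ i ∈ s, i ≠ i₀ → f i = 0 ∨ v.ord (f i₀) < v.ord (f i)) :
    (∑ i ∈ s, f i) ≠ 0 := by
  classical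
  intro hsum
  rw [← Finset.add_sum_erase s f hi₀] at hsum
  have hrest := tresrig_ord_sum_gt v (s.erase i₀) f (v.ord (f i₀))
    (fun i hi => h i (Finset.mem_of_mem_erase hi) (Finset.ne_of_mem_erase hi))
  have e : f i₀ = -(∑ i ∈ s.erase i₀, f i) := eq_neg_of_add_eq_zero_left hsum
  rcases hrest with hr | hr
  · rw [hr, neg_zero] at e
    exact h0 e
  · have : v.ord (f i₀) = v.ord (∑ i ∈ s.erase i₀, f i) := by
      conv_lhs => rw [e]
      exact PlaceAux.ord_neg v _
    omega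

end Ord

section Ram

variable {K F F' : Type*} [Field K] [Field F] [Field F'] [Algebra K F] [Algebra K F']
  [Algebra F F'] [IsScalarTower K F F']

/-- **`e ≤ n`**: the ramification index of a place of `F'` over `F` is at most `[F' : F]`
(`1, π', …, π'^(e-1)` are linearly independent over `F`). -/
theorem tresrig_ramificationIndex_le_finrank [FiniteDimensional F F'] (w : Place K F') :
    w.ramificationIndex F ≤ Module.finrank F F' := by
  classical
  haveI : Algebra.IsIntegral F F' := Algebra.IsIntegral.of_finite F F'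
  set e := w.ramificationIndex F with he
  have hepos : 0 < e := w.ramificationIndex_pos (F := F)
  obtain ⟨π, hπ⟩ := IsDiscreteValuationRing.exists_irreducible w.toValuationSubring
  have hπord : w.ord (π : F') = 1 := w.ord_coe_irreducible hπ
  have hπ0 : (π : F') ≠ 0 := by
    intro h
    rw [h, w.ord_zero] at hπord
    exact zero_ne_one hπord
  have hli : LinearIndependent F (fun i : Fin e => (π : F') ^ (i : ℕ)) := by
    rw [Fintype.linearIndependent_iff]
    intro g hg
    by_contra hne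
    push Not at hne
    obtain ⟨i₁, hi₁⟩ := hne
    set t : Fin e → F' := fun i => g i • (π : F') ^ (i : ℕ) with ht
    have htne : ∀ i, g i ≠ 0 → t i ≠ 0 := by
      intro i hi
      rw [ht]
      simp only [Algebra.smul_def]
      exact mul_ne_zero ((map_ne_zero _).mpr hi) (pow_ne_zero _ hπ0)
    have htord : ∀ i, g i ≠ 0 →
        w.ord (t i) = (e : ℤ) * (w.restrict F).ord (g i) + ((i : ℕ) : ℤ) := by
      intro i hi
      rw [ht]
      simp only [Algebra.smul_def]
      rw [w.ord_mul ((map_ne_zero _).mpr hi) (pow_ne_zero _ hπ0), w.ord_restrict (g i),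
        ← zpow_natCast, w.ord_zpow, hπord, mul_one]
    set S : Finset (Fin e) := Finset.univ.filter (fun i => g i ≠ 0) with hS
    have hSne : S.Nonempty := ⟨i₁, by simp [hS, hi₁]⟩
    obtain ⟨i₀, hi₀S, hmin⟩ := Finset.exists_min_image S (fun i => w.ord (t i)) hSne
    have hgi₀ : g i₀ ≠ 0 := by simpa [hS] using hi₀S
    refine tresrig_sum_ne_zero w Finset.univ t i₀ (Finset.mem_univ _) (htne i₀ hgi₀) ?_ hg
    intro j _ hj
    by_cases hgj : g j = 0
    · left
      rw [ht]
      simp [hgj]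
    · right
      have hjS : j ∈ S := by simp [hS, hgj]
      have hle := hmin j hjS
      have hneq : w.ord (t i₀) ≠ w.ord (t j) := by
        intro heq
        rw [htord i₀ hgi₀, htord j hgj] at heq
        have h1 : ((i₀ : ℕ) : ℤ) - ((j : ℕ) : ℤ) =
            (e : ℤ) * ((w.restrict F).ord (g j) - (w.restrict F).ord (g i₀)) := by
          linarith
        have h2 : (e : ℤ) ∣ ((i₀ : ℕ) : ℤ) - ((j : ℕ) : ℤ) := ⟨_, h1⟩
        have hi₀lt : ((i₀ : ℕ) : ℤ) < e := by exact_mod_cast i₀.2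
        have hjlt : ((j : ℕ) : ℤ) < e := by exact_mod_cast j.2
        have hi₀nn : (0 : ℤ) ≤ ((i₀ : ℕ) : ℤ) := Int.natCast_nonneg _
        have hjnn : (0 : ℤ) ≤ ((j : ℕ) : ℤ) := Int.natCast_nonneg _
        have h3 : ((i₀ : ℕ) : ℤ) - ((j : ℕ) : ℤ) = 0 := by
          apply Int.eq_zero_of_abs_lt_dvd h2
          rw [abs_lt]
          constructor <;> omega
        have h4 : (i₀ : ℕ) = (j : ℕ) := by omega
        exact hj (Fin.ext h4.symm)
      exact lt_of_le_of_ne hle hneq
  have := hli.fintype_card_le_finrank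
  simpa using this

end Ram

section GoingUp

variable {K F F' : Type*} [Field K] [Field F] [Field F'] [Algebra K F] [Algebra K F']
  [Algebra F F'] [IsScalarTower K F F']

theorem tresrig_hK (v : Place K F) :
    ∀ a : K, ∃ r : integralClosure v.toValuationSubring F',
      algebraMap (integralClosure v.toValuationSubring F') F' r = algebraMap K F' a := by
  intro a
  have h : algebraMap K F' a =
      algebraMap v.toValuationSubring F' (algebraMap K v.toValuationSubring a) := by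
    show _ = algebraMap F F' ((algebraMap K v.toValuationSubring a : v.toValuationSubring) : F)
    rw [Place.coe_algebraMap, ← IsScalarTower.algebraMap_apply]
  exact ⟨⟨algebraMap K F' a, by rw [h]; exact isIntegral_algebraMap⟩, rfl⟩

/-- **going up** (finite separable extension, any characteristic): every place of `F` is the
restriction of a place of `F'`. -/
theorem tresrig_exists_place_over [FiniteDimensional F F'] [Algebra.IsSeparable F F']
    (v : Place K F) : ∃ w : Place K F', w.restrict F = v := by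
  haveI : IsDedekindDomain (integralClosure v.toValuationSubring F') :=
    integralClosure.isDedekindDomain v.toValuationSubring F F'
  haveI : IsFractionRing (integralClosure v.toValuationSubring F') F' :=
    integralClosure.isFractionRing_of_finite_extension F F'
  have hnf : ¬ IsField (integralClosure v.toValuationSubring F') := by
    intro hB
    have hinj : Function.Injective
        (algebraMap v.toValuationSubring (integralClosure v.toValuationSubring F')) := by
      intro a b hab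
      have h1 : algebraMap v.toValuationSubring F' a = algebraMap v.toValuationSubring F' b :=
        congrArg (fun x : integralClosure v.toValuationSubring F' => (x : F')) hab
      exact Subtype.ext ((algebraMap F F').injective h1)
    have hA : IsField v.toValuationSubring := isField_of_isIntegral_of_isField hinj hB
    exact ValuationSubring.not_isField_of_ne_top F v.ne_top' hA
  obtain ⟨M, hM⟩ := Ideal.exists_maximal (integralClosure v.toValuationSubring F')
  have hMbot : M ≠ ⊥ := by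
    intro h
    apply hnf
    rw [h] at hM
    exact Ring.isField_iff_isSimpleOrder_ideal.mpr
      (by
        constructor
        intro I
        by_cases hI : I = ⊥
        · exact Or.inl hI
        · right
          by_contra hIt
          exact hI (hM.eq_of_le hIt bot_le).symm)
  let P : HeightOneSpectrum (integralClosure v.toValuationSubring F') := ⟨M, hM.isPrime, hMbot⟩
  refine ⟨placeOfPrime (tresrig_hK v) P, ?_⟩
  symm
  apply Place.ext
  refine ValuationSubring.eq_of_le_of_ne_top _ ?_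
    ((placeOfPrime (tresrig_hK v) P).restrict F).ne_top'
  intro a ha
  rw [Place.restrict_toValuationSubring, ValuationSubring.mem_comap]
  show algebraMap F F' a ∈ (P.valuation F').valuationSubring
  rw [Valuation.mem_valuationSubring_iff]
  have hint : IsIntegral v.toValuationSubring (algebraMap F F' a) := by
    have : algebraMap F F' a = algebraMap v.toValuationSubring F' ⟨a, ha⟩ := rfl
    rw [this]
    exact isIntegral_algebraMap
  have : algebraMap F F' a =
      algebraMap (integralClosure v.toValuationSubring F') F' ⟨algebraMap F F' a, hint⟩ := rfl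
  rw [this]
  exact P.valuation_le_one _

end GoingUp

section Coprime

variable {K F F' : Type*} [Field K] [Field F] [Field F'] [Algebra K F] [Algebra K F']
  [Algebra F F'] [IsScalarTower K F F']

/-- `[F' : F] < p` (characteristic `p`): every place of `F` has a place of `F'` above it whose
ramification index is prime to `p`. -/
theorem tresrig_exists_place_coprime [FiniteDimensional F F'] (p : ℕ) (hp : p.Prime) [CharP F p]
    (hlt : Module.finrank F F' < p) (v : Place K F) :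
    ∃ w : Place K F', w.restrict F = v ∧ 0 < w.ramificationIndex F ∧
      ¬ p ∣ w.ramificationIndex F := by
  haveI : Algebra.IsSeparable F F' := tresrig_isSeparable_of_finrank_lt p hp hlt
  haveI : Algebra.IsIntegral F F' := Algebra.IsIntegral.of_finite F F'
  obtain ⟨w, hw⟩ := tresrig_exists_place_over (K := K) (F := F) (F' := F') v
  have he := tresrig_ramificationIndex_le_finrank (K := K) (F := F) w
  have hepos := w.ramificationIndex_pos (F := F)
  exact ⟨w, hw, hepos, Nat.not_dvd_of_pos_of_lt hepos (lt_of_le_of_lt he hlt)⟩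

end Coprime

section IF

variable {k L : Type*} [Field k] [Field L] [Algebra k L] {A B : IntermediateField k L}

/-- the identity, as an `A`-linear equivalence `extendScalars hAB ≃ B` -/
def tresrigEquiv (hAB : A ≤ B) :
    letI := (IntermediateField.inclusion hAB).toRingHom.toAlgebra
    (IntermediateField.extendScalars hAB) ≃ₗ[A] B :=
  letI := (IntermediateField.inclusion hAB).toRingHom.toAlgebra
  { toFun := fun x => ⟨x.1, x.2⟩
    invFun := fun y => ⟨y.1, y.2⟩
    map_add' := fun _ _ => rfl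
    map_smul' := fun _ _ => rfl
    left_inv := fun _ => rfl
    right_inv := fun _ => rfl }

/-- **one step**, intermediate field form: `A ≤ B` of finite relative degree `< p` over a field
of characteristic `p`.  Every place `Q` of `A` has a place `Q'` of `B` above it with
`ord_{Q'} x = e * ord_Q x` on `A`, `e > 0` prime to `p`. -/
theorem tresrig_if_step (hAB : A ≤ B) (p : ℕ) (hp : p.Prime) [CharP k p]
    (hfin : A.relrank B < Cardinal.aleph0) (hlt : A.relfinrank B < p) (Q : Place k A) :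
    ∃ (Q' : Place k B) (e : ℕ), 0 < e ∧ ¬ p ∣ e ∧
      ∀ (x : L) (hx : x ∈ A) (hx' : x ∈ B),
        Q'.ord (⟨x, hx'⟩ : B) = (e : ℤ) * Q.ord (⟨x, hx⟩ : A) := by
  letI alg : Algebra A B := (IntermediateField.inclusion hAB).toRingHom.toAlgebra
  haveI : IsScalarTower k A B := IsScalarTower.of_algebraMap_eq (fun x => rfl)
  have hrank : Module.rank A (IntermediateField.extendScalars hAB) < Cardinal.aleph0 := by
    rwa [← IntermediateField.relrank_eq_rank_of_le hAB]
  haveI : FiniteDimensional A (IntermediateField.extendScalars hAB) :=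
    IsNoetherian.iff_fg.mp (IsNoetherian.iff_rank_lt_aleph0.mpr hrank)
  haveI : FiniteDimensional A B := Module.Finite.equiv (tresrigEquiv hAB)
  have hfr : Module.finrank A B = A.relfinrank B := by
    rw [IntermediateField.relfinrank_eq_finrank_of_le hAB]
    exact (tresrigEquiv hAB).finrank_eq.symm
  haveI : CharP A p := charP_of_injective_algebraMap (algebraMap k A).injective p
  haveI : Algebra.IsIntegral A B := Algebra.IsIntegral.of_finite A B
  obtain ⟨w, hw, hepos, hpe⟩ := tresrig_exists_place_coprime (K := k) (F := A) (F' := B) p hp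
    (by rw [hfr]; exact hlt) Q
  refine ⟨w, w.ramificationIndex A, hepos, hpe, ?_⟩
  intro x hx hx'
  have h1 := w.ord_restrict (⟨x, hx⟩ : A)
  rw [hw] at h1
  exact h1

end IF

section Mod

variable (k : Type*) [Field k]

theorem tresrig_psi_ne_zero {M : ℕ} (hM : M ≠ 0) : dedekindPsi M ≠ 0 := by
  unfold dedekindPsi
  have h1 : (1 : ℕ) ∈ M.divisors.filter (fun d => Squarefree d) := by
    simp [hM]
  have := Finset.single_le_sum (f := fun d => M / d) (fun _ _ => Nat.zero_le _) h1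
  have hN : 0 < M := Nat.pos_of_ne_zero hM
  simp only [Nat.div_one] at this
  omega

/-- the degree of one step `M → ℓ M` of the tower is at most `ℓ + 1` -/
theorem tresrig_relrank_step {ℓ M : ℕ} (hℓ : ℓ.Prime) (hM : M ≠ 0)
    (hΦ : ∀ r (hr : r.Prime), r ∣ ℓ * M → @UB.ModEq k _ r ⟨hr.ne_zero⟩) :
    ∃ n : ℕ, n ≤ ℓ + 1 ∧
      (modularFunctionFieldFullC k M).relrank (modularFunctionFieldFullC k (ℓ * M)) = (n : Cardinal) := by
  have hstep := UB.relrank_step k hℓ hM hΦ
  have hψ0 := tresrig_psi_ne_zero hM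
  have hψ : dedekindPsi (ℓ * M) ≤ (ℓ + 1) * dedekindPsi M := by
    by_cases hd : ℓ ∣ M
    · rw [UB.psi_mul_of_dvd hℓ hd hM]
      exact Nat.mul_le_mul_right _ (Nat.le_succ ℓ)
    · rw [UB.psi_mul_of_not_dvd hℓ hd]
  set c := (modularFunctionFieldFullC k M).relrank (modularFunctionFieldFullC k (ℓ * M)) with hc
  have hcle : c ≤ c * (dedekindPsi M : Cardinal) :=
    Cardinal.le_mul_right (Nat.cast_ne_zero.mpr hψ0)
  have hfin : c < Cardinal.aleph0 := (hcle.trans hstep).trans_lt (Cardinal.natCast_lt_aleph0)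
  obtain ⟨n, hn⟩ := Cardinal.lt_aleph0.mp hfin
  refine ⟨n, ?_, hn⟩
  rw [hn] at hstep
  have h2 : n * dedekindPsi M ≤ dedekindPsi (ℓ * M) := by exact_mod_cast hstep
  exact Nat.le_of_mul_le_mul_right (h2.trans hψ) (Nat.pos_of_ne_zero hψ0)

/-- **the lifting property** for places from level `M` to level `M'`: every place `Q` of `F̄_M`
has a place `Q'` of `F̄_{M'}` with `ord_{Q'} = e * ord_Q` on `F̄_M`, `e > 0` prime to `p`. -/
def TresRigUp (p M M' : ℕ) : Prop :=
  ∀ Q : Place k (modularFunctionFieldFullC k M),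
    ∃ (Q' : Place k (modularFunctionFieldFullC k M')) (e : ℕ), 0 < e ∧ ¬ p ∣ e ∧
      ∀ (x : LaurentSeries k) (hx : x ∈ modularFunctionFieldFullC k M)
        (hx' : x ∈ modularFunctionFieldFullC k M'),
        Q'.ord (⟨x, hx'⟩ : modularFunctionFieldFullC k M') =
          (e : ℤ) * Q.ord (⟨x, hx⟩ : modularFunctionFieldFullC k M)

theorem tresrig_up_refl {p : ℕ} (hp : p.Prime) (M : ℕ) : TresRigUp k p M M := fun Q =>
  ⟨Q, 1, one_pos, fun h => hp.one_lt.ne' (Nat.dvd_one.mp h), fun x hx hx' => by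
    rw [Nat.cast_one, one_mul]⟩

theorem tresrig_up_trans {p M M₁ M₂ : ℕ} (hp : p.Prime) (h01 : M ∣ M₁)
    (h1 : TresRigUp k p M M₁) (h2 : TresRigUp k p M₁ M₂) : TresRigUp k p M M₂ := by
  intro Q
  obtain ⟨Q₁, e₁, he₁, hpe₁, h₁⟩ := h1 Q
  obtain ⟨Q₂, e₂, he₂, hpe₂, h₂⟩ := h2 Q₁
  refine ⟨Q₂, e₂ * e₁, Nat.mul_pos he₂ he₁, ?_, ?_⟩
  · intro hdvd
    rcases (Nat.Prime.dvd_mul hp).mp hdvd with h | h
    · exact hpe₂ h
    · exact hpe₁ h
  · intro x hx hx'
    have hx1 : x ∈ modularFunctionFieldFullC k M₁ := UB.full_mono k h01 hx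
    rw [h₂ x hx1 hx', h₁ x hx hx1]
    push_cast
    ring

/-- one step `M → ℓ M` with `ℓ + 1 < p` -/
theorem tresrig_up_step {p ℓ M : ℕ} (hp : p.Prime) [CharP k p] (hℓ : ℓ.Prime) (hℓp : ℓ + 1 < p)
    (hM : M ≠ 0) : TresRigUp k p M (ℓ * M) := by
  intro Q
  have hAB : modularFunctionFieldFullC k M ≤ modularFunctionFieldFullC k (ℓ * M) :=
    UB.full_mono k (Dvd.intro_left ℓ rfl)
  obtain ⟨n, hn, hrel⟩ := tresrig_relrank_step k hℓ hM
    (fun r hr _ => @ub_modEq k _ r ⟨hr.ne_zero⟩ hr)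
  have hfin : (modularFunctionFieldFullC k M).relrank (modularFunctionFieldFullC k (ℓ * M)) <
      Cardinal.aleph0 := by
    rw [hrel]
    exact Cardinal.natCast_lt_aleph0
  have hlt : (modularFunctionFieldFullC k M).relfinrank (modularFunctionFieldFullC k (ℓ * M)) <
      p := by
    rw [IntermediateField.relfinrank_eq_toNat_relrank, hrel, Cardinal.toNat_natCast]
    omega
  exact tresrig_if_step hAB p hp hfin hlt Q

theorem tresrig_up_pow {p ℓ M : ℕ} (hp : p.Prime) [CharP k p] (hℓ : ℓ.Prime) (hℓp : ℓ + 1 < p)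
    (hM : M ≠ 0) (a : ℕ) : TresRigUp k p M (ℓ ^ a * M) := by
  induction a with
  | zero =>
    rw [pow_zero, one_mul]
    exact tresrig_up_refl k hp M
  | succ a ih =>
    have e : ℓ ^ (a + 1) * M = ℓ * (ℓ ^ a * M) := by ring
    rw [e]
    exact tresrig_up_trans k hp (Dvd.intro_left _ rfl) ih
      (tresrig_up_step k hp hℓ hℓp (mul_ne_zero (pow_ne_zero _ hℓ.ne_zero) hM))

/-- **the tower**: `p ≥ 5`, `M' = 2^a * (3^b * M)` -/
theorem tresrig_up_two_three {p M : ℕ} (hp : p.Prime) [CharP k p] (hp5 : 5 ≤ p) (hM : M ≠ 0)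
    (a b : ℕ) : TresRigUp k p M (2 ^ a * (3 ^ b * M)) :=
  tresrig_up_trans k hp (Dvd.intro_left _ rfl)
    (tresrig_up_pow k hp Nat.prime_three (by omega) hM b)
    (tresrig_up_pow k hp Nat.prime_two (by omega)
      (mul_ne_zero (pow_ne_zero _ (by norm_num)) hM) a)

theorem tresrig_up_of_eq {p M M' : ℕ} (hp : p.Prime) [CharP k p] (hp5 : 5 ≤ p) (hM : M ≠ 0)
    (a b : ℕ) (hM' : M' = 2 ^ a * (3 ^ b * M)) : TresRigUp k p M M' :=
  hM' ▸ tresrig_up_two_three k hp hp5 hM a b

theorem tresrig_up_mul_four {p M : ℕ} (hp : p.Prime) [CharP k p] (hp5 : 5 ≤ p) (hM : M ≠ 0) :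
    TresRigUp k p M (M * 4) :=
  tresrig_up_of_eq k hp hp5 hM 2 0 (by ring)

theorem tresrig_up_mul_nine {p M : ℕ} (hp : p.Prime) [CharP k p] (hp5 : 5 ≤ p) (hM : M ≠ 0) :
    TresRigUp k p M (M * 9) :=
  tresrig_up_of_eq k hp hp5 hM 0 2 (by ring)

theorem tresrig_lcm_four (M : ℕ) : ∃ a : ℕ, Nat.lcm M 4 = 2 ^ a * (3 ^ 0 * M) := by
  have hg : Nat.gcd M 4 ∣ 4 := Nat.gcd_dvd_right M 4
  have hmul : Nat.gcd M 4 * Nat.lcm M 4 = M * 4 := Nat.gcd_mul_lcm M 4
  have hle : Nat.gcd M 4 ≤ 4 := Nat.le_of_dvd (by norm_num) hg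
  have hpos : 0 < Nat.gcd M 4 := Nat.gcd_pos_of_pos_right M (by norm_num)
  interval_cases hgv : Nat.gcd M 4
  · exact ⟨2, by rw [pow_zero, one_mul]; omega⟩
  · exact ⟨1, by rw [pow_zero, one_mul]; omega⟩
  · exfalso; omega
  · exact ⟨0, by rw [pow_zero, one_mul, pow_zero, one_mul]; omega⟩

theorem tresrig_lcm_nine (M : ℕ) : ∃ b : ℕ, Nat.lcm M 9 = 2 ^ 0 * (3 ^ b * M) := by
  have hg : Nat.gcd M 9 ∣ 9 := Nat.gcd_dvd_right M 9
  have hmul : Nat.gcd M 9 * Nat.lcm M 9 = M * 9 := Nat.gcd_mul_lcm M 9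
  have hdiv : Nat.gcd M 9 ∈ Nat.divisors 9 := Nat.mem_divisors.mpr ⟨hg, by norm_num⟩
  have h9 : Nat.divisors 9 = {1, 3, 9} := by decide
  rw [h9] at hdiv
  simp only [Finset.mem_insert, Finset.mem_singleton] at hdiv
  rcases hdiv with h | h | h
  · exact ⟨2, by rw [pow_zero, one_mul]; rw [h] at hmul; omega⟩
  · exact ⟨1, by rw [pow_zero, one_mul]; rw [h] at hmul; omega⟩
  · exact ⟨0, by rw [pow_zero, one_mul, pow_zero, one_mul]; rw [h] at hmul; omega⟩

theorem tresrig_up_lcm_four {p M : ℕ} (hp : p.Prime) [CharP k p] (hp5 : 5 ≤ p) (hM : M ≠ 0) :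
    TresRigUp k p M (Nat.lcm M 4) := by
  obtain ⟨a, ha⟩ := tresrig_lcm_four M
  rw [ha]
  exact tresrig_up_two_three k hp hp5 hM a 0

theorem tresrig_up_lcm_nine {p M : ℕ} (hp : p.Prime) [CharP k p] (hp5 : 5 ≤ p) (hM : M ≠ 0) :
    TresRigUp k p M (Nat.lcm M 9) := by
  obtain ⟨b, hb⟩ := tresrig_lcm_nine M
  rw [hb]
  exact tresrig_up_two_three k hp hp5 hM 0 b

/-- **FAC-RIG, abstract descent**: from the lifting property. -/
theorem tresrig_descent_of_up {p M M' : ℕ} (hp : p.Prime) (hMM' : M ∣ M')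
    (hup : TresRigUp k p M M')
    (r h : LaurentSeries k) (hr : r ∈ modularFunctionFieldFullC k M)
    (hh : h ∈ modularFunctionFieldFullC k M) (c d : ℤ)
    (H : ∀ Q' : Place k (modularFunctionFieldFullC k M'),
      0 ≤ Q'.ord (⟨jqModC k, jqModC_mem_full k M'⟩ : modularFunctionFieldFullC k M') →
      (p : ℤ) ∣ c * Q'.ord (⟨r, UB.full_mono k hMM' hr⟩ : modularFunctionFieldFullC k M') -
        d * Q'.ord (⟨h, UB.full_mono k hMM' hh⟩ : modularFunctionFieldFullC k M'))
    (Hc : ∀ Q' : Place k (modularFunctionFieldFullC k M'),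
      Q'.ord (⟨jqModC k, jqModC_mem_full k M'⟩ : modularFunctionFieldFullC k M') < 0 →
      (p : ℤ) ∣ Q'.ord (⟨r, UB.full_mono k hMM' hr⟩ : modularFunctionFieldFullC k M')) :
    (∀ Q : Place k (modularFunctionFieldFullC k M),
      0 ≤ Q.ord (⟨jqModC k, jqModC_mem_full k M⟩ : modularFunctionFieldFullC k M) →
      (p : ℤ) ∣ c * Q.ord (⟨r, hr⟩ : modularFunctionFieldFullC k M) -
        d * Q.ord (⟨h, hh⟩ : modularFunctionFieldFullC k M)) ∧
    (∀ Q : Place k (modularFunctionFieldFullC k M),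
      Q.ord (⟨jqModC k, jqModC_mem_full k M⟩ : modularFunctionFieldFullC k M) < 0 →
      (p : ℤ) ∣ Q.ord (⟨r, hr⟩ : modularFunctionFieldFullC k M)) := by
  have hcop : ∀ e : ℕ, ¬ p ∣ e → IsCoprime (p : ℤ) (e : ℤ) := fun e he =>
    Nat.isCoprime_iff_coprime.mpr ((Nat.Prime.coprime_iff_not_dvd hp).mpr he)
  constructor
  · intro Q hQ
    obtain ⟨Q', e, hepos, hpe, hord⟩ := hup Q
    have hj := hord (jqModC k) (jqModC_mem_full k M) (jqModC_mem_full k M')
    have he0 : (0 : ℤ) < (e : ℤ) := by exact_mod_cast hepos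
    have h1 := H Q' (by rw [hj]; exact mul_nonneg he0.le hQ)
    rw [hord r hr (UB.full_mono k hMM' hr), hord h hh (UB.full_mono k hMM' hh)] at h1
    have h2 : (p : ℤ) ∣ (e : ℤ) * (c * Q.ord (⟨r, hr⟩ : modularFunctionFieldFullC k M) -
        d * Q.ord (⟨h, hh⟩ : modularFunctionFieldFullC k M)) := by
      have e' : (e : ℤ) * (c * Q.ord (⟨r, hr⟩ : modularFunctionFieldFullC k M) -
          d * Q.ord (⟨h, hh⟩ : modularFunctionFieldFullC k M)) =
          c * ((e : ℤ) * Q.ord (⟨r, hr⟩ : modularFunctionFieldFullC k M)) -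
          d * ((e : ℤ) * Q.ord (⟨h, hh⟩ : modularFunctionFieldFullC k M)) := by ring
      rw [e']
      exact h1
    exact (hcop e hpe).dvd_of_dvd_mul_left h2
  · intro Q hQ
    obtain ⟨Q', e, hepos, hpe, hord⟩ := hup Q
    have hj := hord (jqModC k) (jqModC_mem_full k M) (jqModC_mem_full k M')
    have he0 : (0 : ℤ) < (e : ℤ) := by exact_mod_cast hepos
    have h1 := Hc Q' (by rw [hj]; exact mul_neg_of_pos_of_neg he0 hQ)
    rw [hord r hr (UB.full_mono k hMM' hr)] at h1
    exact (hcop e hpe).dvd_of_dvd_mul_left h1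

/-- **FAC-RIG** for `M' = 2^a * (3^b * M)`, characteristic `p ≥ 5`. -/
theorem tresrig_descent {p M M' : ℕ} (hp : p.Prime) [CharP k p] (hp5 : 5 ≤ p) (hM : M ≠ 0)
    (hMM' : M ∣ M') (a b : ℕ) (hM' : M' = 2 ^ a * (3 ^ b * M))
    (r h : LaurentSeries k) (hr : r ∈ modularFunctionFieldFullC k M)
    (hh : h ∈ modularFunctionFieldFullC k M) (c d : ℤ)
    (H : ∀ Q' : Place k (modularFunctionFieldFullC k M'),
      0 ≤ Q'.ord (⟨jqModC k, jqModC_mem_full k M'⟩ : modularFunctionFieldFullC k M') →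
      (p : ℤ) ∣ c * Q'.ord (⟨r, UB.full_mono k hMM' hr⟩ : modularFunctionFieldFullC k M') -
        d * Q'.ord (⟨h, UB.full_mono k hMM' hh⟩ : modularFunctionFieldFullC k M'))
    (Hc : ∀ Q' : Place k (modularFunctionFieldFullC k M'),
      Q'.ord (⟨jqModC k, jqModC_mem_full k M'⟩ : modularFunctionFieldFullC k M') < 0 →
      (p : ℤ) ∣ Q'.ord (⟨r, UB.full_mono k hMM' hr⟩ : modularFunctionFieldFullC k M')) :
    (∀ Q : Place k (modularFunctionFieldFullC k M),
      0 ≤ Q.ord (⟨jqModC k, jqModC_mem_full k M⟩ : modularFunctionFieldFullC k M) →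
      (p : ℤ) ∣ c * Q.ord (⟨r, hr⟩ : modularFunctionFieldFullC k M) -
        d * Q.ord (⟨h, hh⟩ : modularFunctionFieldFullC k M)) ∧
    (∀ Q : Place k (modularFunctionFieldFullC k M),
      Q.ord (⟨jqModC k, jqModC_mem_full k M⟩ : modularFunctionFieldFullC k M) < 0 →
      (p : ℤ) ∣ Q.ord (⟨r, hr⟩ : modularFunctionFieldFullC k M)) :=
  tresrig_descent_of_up k hp hMM' (hM' ▸ tresrig_up_two_three k hp hp5 hM a b)
    r h hr hh c d H Hc

/-- **FAC-RIG** for the rigid level `lcm (M, 4)`. -/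
theorem tresrig_descent_lcm_four {p M : ℕ} (hp : p.Prime) [CharP k p] (hp5 : 5 ≤ p) (hM : M ≠ 0)
    (r h : LaurentSeries k) (hr : r ∈ modularFunctionFieldFullC k M)
    (hh : h ∈ modularFunctionFieldFullC k M) (c d : ℤ)
    (H : ∀ Q' : Place k (modularFunctionFieldFullC k (Nat.lcm M 4)),
      0 ≤ Q'.ord (⟨jqModC k, jqModC_mem_full k _⟩ : modularFunctionFieldFullC k (Nat.lcm M 4)) →
      (p : ℤ) ∣ c * Q'.ord (⟨r, UB.full_mono k (Nat.dvd_lcm_left M 4) hr⟩ :
          modularFunctionFieldFullC k (Nat.lcm M 4)) -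
        d * Q'.ord (⟨h, UB.full_mono k (Nat.dvd_lcm_left M 4) hh⟩ :
          modularFunctionFieldFullC k (Nat.lcm M 4)))
    (Hc : ∀ Q' : Place k (modularFunctionFieldFullC k (Nat.lcm M 4)),
      Q'.ord (⟨jqModC k, jqModC_mem_full k _⟩ : modularFunctionFieldFullC k (Nat.lcm M 4)) < 0 →
      (p : ℤ) ∣ Q'.ord (⟨r, UB.full_mono k (Nat.dvd_lcm_left M 4) hr⟩ :
          modularFunctionFieldFullC k (Nat.lcm M 4))) :
    (∀ Q : Place k (modularFunctionFieldFullC k M),
      0 ≤ Q.ord (⟨jqModC k, jqModC_mem_full k M⟩ : modularFunctionFieldFullC k M) →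
      (p : ℤ) ∣ c * Q.ord (⟨r, hr⟩ : modularFunctionFieldFullC k M) -
        d * Q.ord (⟨h, hh⟩ : modularFunctionFieldFullC k M)) ∧
    (∀ Q : Place k (modularFunctionFieldFullC k M),
      Q.ord (⟨jqModC k, jqModC_mem_full k M⟩ : modularFunctionFieldFullC k M) < 0 →
      (p : ℤ) ∣ Q.ord (⟨r, hr⟩ : modularFunctionFieldFullC k M)) :=
  tresrig_descent_of_up k hp (Nat.dvd_lcm_left M 4) (tresrig_up_lcm_four k hp hp5 hM)
    r h hr hh c d H Hc

/-- **FAC-RIG** for the rigid level `lcm (M, 9)`. -/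
theorem tresrig_descent_lcm_nine {p M : ℕ} (hp : p.Prime) [CharP k p] (hp5 : 5 ≤ p) (hM : M ≠ 0)
    (r h : LaurentSeries k) (hr : r ∈ modularFunctionFieldFullC k M)
    (hh : h ∈ modularFunctionFieldFullC k M) (c d : ℤ)
    (H : ∀ Q' : Place k (modularFunctionFieldFullC k (Nat.lcm M 9)),
      0 ≤ Q'.ord (⟨jqModC k, jqModC_mem_full k _⟩ : modularFunctionFieldFullC k (Nat.lcm M 9)) →
      (p : ℤ) ∣ c * Q'.ord (⟨r, UB.full_mono k (Nat.dvd_lcm_left M 9) hr⟩ :
          modularFunctionFieldFullC k (Nat.lcm M 9)) -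
        d * Q'.ord (⟨h, UB.full_mono k (Nat.dvd_lcm_left M 9) hh⟩ :
          modularFunctionFieldFullC k (Nat.lcm M 9)))
    (Hc : ∀ Q' : Place k (modularFunctionFieldFullC k (Nat.lcm M 9)),
      Q'.ord (⟨jqModC k, jqModC_mem_full k _⟩ : modularFunctionFieldFullC k (Nat.lcm M 9)) < 0 →
      (p : ℤ) ∣ Q'.ord (⟨r, UB.full_mono k (Nat.dvd_lcm_left M 9) hr⟩ :
          modularFunctionFieldFullC k (Nat.lcm M 9))) :
    (∀ Q : Place k (modularFunctionFieldFullC k M),
      0 ≤ Q.ord (⟨jqModC k, jqModC_mem_full k M⟩ : modularFunctionFieldFullC k M) →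
      (p : ℤ) ∣ c * Q.ord (⟨r, hr⟩ : modularFunctionFieldFullC k M) -
        d * Q.ord (⟨h, hh⟩ : modularFunctionFieldFullC k M)) ∧
    (∀ Q : Place k (modularFunctionFieldFullC k M),
      Q.ord (⟨jqModC k, jqModC_mem_full k M⟩ : modularFunctionFieldFullC k M) < 0 →
      (p : ℤ) ∣ Q.ord (⟨r, hr⟩ : modularFunctionFieldFullC k M)) :=
  tresrig_descent_of_up k hp (Nat.dvd_lcm_left M 9) (tresrig_up_lcm_nine k hp hp5 hM)
    r h hr hh c d H Hc

end Mod

end Fermat.Agent.R38

end
end ZBR38_010_0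

/-! ### bundled: `Fermat.Agent.R38.TresMonoFix` -/
section ZBR38_010_1
/-
ROW 38, TRES, piece FAC-ASM-NOCOVER (helper47): THE MODULAR GLUE — `StmtMonoFix`.

The case "the inertia group FIXES `x`" of `StmtFacMono` (`R38/PlanMono.lean`).  No cover:

 1. MP-DESC (`RIB.MP.ribmp_desc`, exponent `p` = residue characteristic): a Kummer function
    `nfEmb u₀` of `x`, `u₀ ∈ F_{Mp}(K)`, `K = ℚ̄^I = beta0Field A`;
 2. normalisation at `V_∞` (`tresmfn_normalise`, helper16): `u₀ = c · y₀`, `v_∞(y₀) = 1`;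
 3. the rigid level `M' = 4 M`: `y = up y₀ ∈ F_{M'p}(K)` (`RIB.MP.ribmpFlUp`), horizontal
    divisibility ascends (`ribmp_fhor`), `v_0(y) = v_0(π) ^ b`;
 4. `tresmf_rigid` : `tresmf_chart` (helper79) on `X₀(M'p) / K` with thin nodes
    (`RT.K6.rtk6lfb0_thinAt_J`, helper54), smooth cusps (`RIB.MP.ribmp_fcu_smooth`, helper81), the
    globals `mgv_*` / `ribmp_fc_*`, the reduction map `ρ = ribmpRedF` of `V_∞` (helper91) and the
    Ogg unit `g = S36.s36tuV` (`v_∞ = 1`, `v_0(g) = v_0(p) ^ 12`, cuspidal divisor; helper10);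
 5. `ρ j = j̄` (`tresmonoc_red_j`, helper26), `ρ y` does not depend on the level (`tresmfr_up`,
    helper28), `ρ g = h̄ = Δ̄ (Δ̄⁻¹)^p` (`tresmonog_red`, helper91);
 6. the `k`-side descent `M' → M` (`TresRigDescent`, FAC-RIG, helper35);
 7. the Hecke clause for `h̄` (`tresmonog_hecke_kA`, helper91; `tres4o_kronHecke_uS`, helper9).

* `tresmf_rigid` : the two order clauses at the places of `F̄_{M}` for a rigid level `M p`, `4 ∣ M`;
* `tresmf_fix`   : `FacMonoConcl M p A x` from `TresRigDescent M (M * 4) p A`;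
* `stmtMonoFix_of` : `StmtMonoFix` from FAC-RIG at `M' = 4 M`.
-/

set_option autoImplicit false
set_option linter.unusedSectionVars false
set_option linter.unusedVariables false
set_option linter.style.haveILetI false
set_option linter.style.longLine false
set_option synthInstance.maxHeartbeats 400000
set_option maxHeartbeats 1600000

noncomputable section

namespace Fermat.Agent.R38

open ModularCurve AlgebraicCurve IntermediateField Fermat.Agent.ES Fermat.Agent.ES.G2
  Fermat.Agent.INJ Fermat.Agent.UNIP Fermat.Agent.STB Fermat.Agent.ES.M Fermat.Agent.DEU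
  Fermat.Agent.S36 Fermat.Agent.S33 Fermat.Agent.S28 Fermat.Agent.S24 Fermat.Agent.S15
  Fermat.Agent.RIB.MP Fermat.Agent.RT.K6 Fermat.Agent.AL Fermat.Agent.W1 Fermat.Agent.RIB
  ExtCitation

/-- a prime `p ≥ 5` does not divide `12` -/
theorem tresmf_not_dvd_twelve {p : ℕ} (hp : p.Prime) (h5 : 5 ≤ p) : ¬ (p : ℤ) ∣ (12 : ℤ) := by
  intro h
  have h' : p ∣ 12 := by exact_mod_cast h
  have hle : p ≤ 12 := Nat.le_of_dvd (by norm_num) h'
  interval_cases p <;> first | omega | (exact absurd hp (by norm_num))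

/-- a prime `p ≥ 5`, `p ∤ M` does not divide `4 M` -/
theorem tresmf_not_dvd_mul_four {p M : ℕ} (hp : p.Prime) (h5 : 5 ≤ p) (hpM : ¬ p ∣ M) :
    ¬ p ∣ M * 4 := by
  intro h
  rcases (Nat.Prime.dvd_mul hp).1 h with h1 | h1
  · exact hpM h1
  · have hle : p ≤ 4 := Nat.le_of_dvd (by norm_num) h1
    omega

section Rigid

variable {A : ValuationSubring Qb} {p M : ℕ} [NeZero p] [NeZero M] [NeZero (M * p)]
  [IsDiscreteValuationRing ↥(beta0Ring A (beta0Field A))]
  {π : ↥(beta0Ring A (beta0Field A))} (hπ : Irreducible π) (ιC : ↥(beta0Field A) →+* ℂ)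
  (hp : p.Prime) (hpM : ¬ p ∣ M)

include hπ ιC hp hpM in
/-- **ASM-NOCOVER on `X₀(M p)` over `K = ℚ̄^I`, rigid level** (`4 ∣ M`, `p ≥ 5`): `tresmf_chart`
with all the geometric hypotheses discharged, `ρ = ribmpRedF`, `g` the Ogg unit. -/
theorem tresmf_rigid (hA : A.LiesOverPrime p) (h5 : 5 ≤ p) (h4 : 4 ∣ M)
    (hRedF : StmtRedF M A)
    (hfin : ∀ Q : Place (kA A) ↥(modularFunctionFieldFullC (kA A) M),
      ∀ x ∈ Q.toValuationSubring, x ∉ Q.toValuationSubring.nonunits →
        ∃ n : ℕ, 0 < n ∧ x ^ n - 1 ∈ Q.toValuationSubring.nonunits)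
    {y : ↥(modularFunctionFieldFullC ↥(beta0Field A) (M * p))} (hy0 : y ≠ 0)
    (hhor : ∀ P : Place ↥(beta0Field A) ↥(modularFunctionFieldFullC ↥(beta0Field A) (M * p)),
      (p : ℤ) ∣ P.ord y)
    (hy₁ : (mgvV hπ ιC hp hpM true).valuation y = 1) (a b : ℤ)
    (hy₂ : (mgvV hπ ιC hp hpM false).valuation y =
      (mgvV hπ ιC hp hpM false).valuation
        (algebraMap ↥(beta0Ring A (beta0Field A))
          ↥(modularFunctionFieldFullC ↥(beta0Field A) (M * p)) π) ^ b)
    (hg₂ : (mgvV hπ ιC hp hpM false).valuation (s36tuV ↥(beta0Field A) ιC) =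
      (mgvV hπ ιC hp hpM false).valuation
        (algebraMap ↥(beta0Ring A (beta0Field A))
          ↥(modularFunctionFieldFullC ↥(beta0Field A) (M * p)) π) ^ a)
    (Q : Place (kA A) ↥(modularFunctionFieldFullC (kA A) M)) :
    (ribmpRedF hp hpM hA hπ ιC hRedF
        ⟨bgJ ↥(beta0Field A) (M * p), tresdn_mem _ (mgv_T_valuation hπ ιC hp hpM true)⟩ ∈
          Q.toValuationSubring →
      (p : ℤ) ∣ a * Q.ord (ribmpRedF hp hpM hA hπ ιC hRedF ⟨y, tresdn_mem _ hy₁⟩) -
        b * Q.ord (ribmpRedF hp hpM hA hπ ιC hRedF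
          ⟨s36tuV ↥(beta0Field A) ιC, tresdn_mem _ (tres5o_val_true hπ ιC hp hpM hA)⟩)) ∧
    (ribmpRedF hp hpM hA hπ ιC hRedF
        ⟨bgJ ↥(beta0Field A) (M * p), tresdn_mem _ (mgv_T_valuation hπ ιC hp hpM true)⟩ ∉
          Q.toValuationSubring →
      (p : ℤ) ∣ Q.ord (ribmpRedF hp hpM hA hπ ιC hRedF ⟨y, tresdn_mem _ hy₁⟩)) := by
  haveI := ribmp_fc_fin (K₀ := beta0Field A) (M * p)
  haveI := ribmp_fc_fin_inv (K₀ := beta0Field A) (M * p)
  haveI := rtk6lfb_noeth_J (A := A) (K₀ := beta0Field A) (M := M) (q := p)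
  haveI := ribmp_fcu_noeth (A := A) (K₀ := beta0Field A) (M := M) (q := p)
  have h2 : p = 2 → 3 ∣ M := fun h => by omega
  have h3 : p = 3 → 2 ∣ M := fun h => by omega
  have rigid : (p ≠ 2 → 4 ∣ M) ∧ (p = 2 → 9 ∣ M) := ⟨fun _ => h4, fun h => by omega⟩
  have hSS1 := ribmp_fc_hSS1 hπ ιC hp hpM hA le_rfl h2 h3
  have hSS1' := ribmp_fc_hSS1_inv hπ ιC hp hpM hA le_rfl h2 h3
  have harch' : ∀ c, StbArch (mgvV hπ ιC hp hpM c) := fun c x a ha => by
    obtain ⟨N, hN⟩ := mgv_harch hπ ιC hp hpM c a x ha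
    exact ⟨N, by rw [mul_comm x (a ^ N)]; exact hN⟩
  have hnle : ∀ c c' : Bool, c ≠ c' → ¬ mgvV hπ ιC hp hpM c ≤ mgvV hπ ιC hp hpM c' :=
    fun c c' hcc' => stb_not_le_of_ne (harch' c) (ribmp_fc_hπ0 hπ) (mgv_hπV hπ ιC hp hpM c')
      (rtk6lfb_hne hπ ιC hp hpM hA c c' hcc')
  obtain ⟨φ, hφF⟩ := Fermat.Agent.Common.exists_isFrobeniusAt_of_liesOverPrime p hp A hA
  have hφ : ∀ x ∈ beta0Field A, φ x ∈ beta0Field A :=
    fun x hx => beta0_decomp_apply_mem hφF.mem_decompositionSubgroup hx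
  -- the reduction map (the block of `ribmp_red_a_over`)
  have hAV : ∀ a : ↥(beta0Ring A (beta0Field A)),
      algebraMap ↥(beta0Ring A (beta0Field A))
        ↥(modularFunctionFieldFullC ↥(beta0Field A) (M * p)) a ∈ mgvV hπ ιC hp hpM true :=
    fun a => vtFam_const_mem (vtBase_residue hπ) ιC hp hpM true a
  have hker : ∀ x : ↥(mgvV hπ ιC hp hpM true),
      (x : ↥(modularFunctionFieldFullC ↥(beta0Field A) (M * p))) ∈
        (mgvV hπ ιC hp hpM true).nonunits → ribmpRedF hp hpM hA hπ ιC hRedF x = 0 :=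
    fun x hx => Subtype.ext (ribmpRedK_eq_zero_of_mem_nonunits hπ (M * p) x hx)
  have hπ0 : ribmpRedF hp hpM hA hπ ιC hRedF ⟨_, hAV π⟩ = 0 :=
    hker _ (mgv_hπV hπ ιC hp hpM true)
  have hAQ : ∀ a : ↥(beta0Ring A (beta0Field A)),
      ribmpRedF hp hpM hA hπ ιC hRedF ⟨_, hAV a⟩ ∈ Q.toValuationSubring := by
    intro a
    have h1 : ribmpRedF hp hpM hA hπ ιC hRedF ⟨_, hAV a⟩ =
        algebraMap (kA A) ↥(modularFunctionFieldFullC (kA A) M)
          (IsLocalRing.residue A ⟨algebraMap ↥(beta0Field A) Qb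
            (algebraMap ↥(beta0Ring A (beta0Field A)) ↥(beta0Field A) a),
            stb_mgt_c1 A (beta0Field A) a⟩) := by
      apply Subtype.ext
      rw [ribmpRedF_coe]
      exact (ribmpRedK_const hπ (M * p) a (hAV a)).trans (Fermat.Agent.ES.M.algebraMap_eq_hahnC _).symm
    rw [h1]
    exact Q.algebraMap_mem' _
  exact tresmf_chart (E := ↥(beta0Field A)) hπ (t := bgJ ↥(beta0Field A) (M * p))
    (mgvV hπ ιC hp hpM) true false mgv_hκ
    (mgv_hBV₁ hπ ιC hp hpM) (mgv_hBV₂ hπ ιC hp hpM) (mgv_hπV hπ ιC hp hpM) hSS1 hSS1'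
    (ribmp_fc_hU hπ ιC hp hpM)
    (mgv_hVloc₁ hπ ιC hp hpM hA hSS1) (mgv_hVloc₂ hπ ιC hp hpM hA hSS1) hnle
    (fun 𝔫 => rtk6lfb0_thinAt_J hπ ιC hp hpM hA rigid 𝔫)
    (fun 𝔫 hcu => ribmp_fcu_smooth hπ hp hpM hA le_rfl hφF hφ h2 h3 𝔫
      (hcu (ribmpFglGen (A₀ := ↥(beta0Ring A (beta0Field A)))
        (bgJ ↥(beta0Field A) (M * p))⁻¹) rfl))
    (ribmpRedF hp hpM hA hπ ιC hRedF) hker hAV hπ0 (mgv_T_valuation hπ ιC hp hpM true) Q hAQ
    (hfin Q) hp.pos hy0 (s36tuV_ne_zero ↥(beta0Field A) ιC) hhor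
    (fun P hP => tres5o_ord_eq_zero (beta0Field A) ιC hp P hP)
    hy₁ (tres5o_val_true hπ ιC hp hpM hA) a b hy₂ hg₂

end Rigid

section Fix

/-- **ASM-NOCOVER for one class**, from the `k`-side descent `4 M → M`. -/
theorem tresmf_fix (M p : ℕ) [NeZero M] [NeZero p] [NeZero (M * p)] [NeZero (M * 4)]
    [NeZero (M * 4 * p)] (hp : p.Prime) (hpM : ¬ p ∣ M) (h5 : 5 ≤ p)
    (A : ValuationSubring Qb) (hA : A.LiesOverPrime p)
    (hrig : TresRigDescent M (M * 4) p A)
    (x : JZero (M * p)) (hx : p • x = 0) (hI : InertiaFixed A x) :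
    FacMonoConcl M p A x := by
  haveI : IsDiscreteValuationRing ↥(beta0Ring A (beta0Field A)) := beta0Ring_isDVR_base hp hA
  haveI : Fact p.Prime := ⟨hp⟩
  haveI : CharP (kA A) p := Fermat.Agent.RED.charP_residueField A hp hA
  have hπ := beta0Ring_irreducible_q (A := A) hp hA
  set ιC : ↥(beta0Field A) →+* ℂ := mgdIota (beta0Field A) with hιC
  have hpM4 : ¬ p ∣ M * 4 := tresmf_not_dvd_mul_four hp h5 hpM
  -- the reduction packages at the levels `M` and `4 M`
  have hRedF : StmtRedF M A := stmtRedF M A p hp hpM hA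
  obtain ⟨rr, sp, Pinf, Qinf, hpkg⟩ := s15red_exists_pkg (M * 4) p hp hpM4 (Or.inl h5) A hA
  have hRedF' : StmtRedF (M * 4) A := stmtRedF (M * 4) A p hp hpM4 hA
  -- 1. descent of a Kummer function to the inertia field
  obtain ⟨u₀, hu₀, hxu⟩ := ribmp_desc hp hA hp.ne_zero hx hI
  -- 2. normalisation at `V_∞`
  obtain ⟨y₀, c, hc, hy₀0, hy₀1, hcy, hord⟩ := tresmfn_normalise hp hpM hπ ιC u₀ hu₀
  -- 3. the rigid level
  set y : ↥(modularFunctionFieldFullC ↥(beta0Field A) (M * 4 * p)) :=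
    ribmpFlUp ↥(beta0Field A) M 4 p y₀ with hydef
  have hy0 : y ≠ 0 := fun h0 => hy₀0
    ((ribmpFlUp ↥(beta0Field A) M 4 p).toRingHom.injective
      (by rw [AlgHom.toRingHom_eq_coe, RingHom.coe_coe, ← hydef, h0, map_zero]))
  have hy1 : (mgvV hπ ιC hp hpM4 true).valuation y = 1 :=
    (ribmp_fl_valuation hπ ιC hp hpM hpM4 true y₀).2 hy₀1
  have hhorBar : ∀ P : Place NfQb (modularFunctionFieldBar (M * p)),
      (p : ℤ) ∣ P.ord (nfEmb (beta0Field A) (M * p) y₀) := fun P => by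
    rw [hord P]
    exact ribmp_rf_dvd_ord hxu P
  have hhor : ∀ P : Place ↥(beta0Field A)
      ↥(modularFunctionFieldFullC ↥(beta0Field A) (M * 4 * p)), (p : ℤ) ∣ P.ord y :=
    fun P => ribmp_fc_hhor (M * 4 * p) p y
      (ribmp_fhor (beta0Field A) M 4 p (ribmp_fl_le ↥(beta0Field A) M 4 p) p y₀ hhorBar) P
  obtain ⟨b, hb⟩ := rtk6lfb_val_zpow_J hπ ιC hp hpM4 false hy0
  have hg₂ : (mgvV hπ ιC hp hpM4 false).valuation (s36tuV ↥(beta0Field A) ιC) =
      (mgvV hπ ιC hp hpM4 false).valuation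
        (algebraMap ↥(beta0Ring A (beta0Field A))
          ↥(modularFunctionFieldFullC ↥(beta0Field A) (M * 4 * p))
            ((p : ℕ) : ↥(beta0Ring A (beta0Field A)))) ^ (12 : ℤ) := by
    rw [tres5o_val_false hπ ιC hp hpM4 hA]
    norm_cast
  -- 5. the reductions
  set r : LaurentSeries (kA A) :=
    ((ribmpRedF hp hpM hA hπ ιC hRedF ⟨y₀, tresdn_mem _ hy₀1⟩ :
      ↥(modularFunctionFieldFullC (kA A) M)) : LaurentSeries (kA A)) with hrdef
  have hr : r ∈ modularFunctionFieldFullC (kA A) M :=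
    (ribmpRedF hp hpM hA hπ ιC hRedF ⟨y₀, tresdn_mem _ hy₀1⟩).2
  have hrup : ((ribmpRedF hp hpM4 hA hπ ιC hRedF' ⟨y, tresdn_mem _ hy1⟩ :
      ↥(modularFunctionFieldFullC (kA A) (M * 4))) : LaurentSeries (kA A)) = r :=
    tresmfr_up hp hpM hA hπ ιC hRedF hpM4 hRedF' y₀ hy₀1 hy1
  have hr' : r ∈ modularFunctionFieldFullC (kA A) (M * 4) := by
    rw [← hrup]
    exact (ribmpRedF hp hpM4 hA hπ ιC hRedF' ⟨y, tresdn_mem _ hy1⟩).2
  have hρy : ribmpRedF hp hpM4 hA hπ ιC hRedF' ⟨y, tresdn_mem _ hy1⟩ = ⟨r, hr'⟩ :=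
    Subtype.ext hrup
  set hbar : LaurentSeries (kA A) := deltaS (kA A) * deltaInvS (kA A) ^ p with hbardef
  have hh : hbar ∈ modularFunctionFieldFullC (kA A) M := tresmonog_hb_mem hp hA M
  have hh' : hbar ∈ modularFunctionFieldFullC (kA A) (M * 4) := tresmonog_hb_mem hp hA (M * 4)
  have hρg : ribmpRedF hp hpM4 hA hπ ιC hRedF'
      ⟨s36tuV ↥(beta0Field A) ιC, tresdn_mem _ (tres5o_val_true hπ ιC hp hpM4 hA)⟩ =
        ⟨hbar, hh'⟩ :=
    tresmonog_red hp hpM4 hA hπ ιC hRedF' hh'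
  have hρj : ribmpRedF hp hpM4 hA hπ ιC hRedF'
      ⟨bgJ ↥(beta0Field A) (M * 4 * p),
        tresdn_mem _ (mgv_T_valuation hπ ιC hp hpM4 true)⟩ =
        ⟨jqModC (kA A), jqModC_mem_full (kA A) (M * 4)⟩ :=
    tresmonoc_red_j hp hpM4 hA hπ ιC hRedF'
  have hj0 : (⟨jqModC (kA A), jqModC_mem_full (kA A) (M * 4)⟩ :
      ↥(modularFunctionFieldFullC (kA A) (M * 4))) ≠ 0 := by
    rw [← hρj]
    exact tresdn_map_ne_zero _ _ (mgv_T_valuation hπ ιC hp hpM4 true)
  -- 4. the clauses at the rigid level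
  have hord' : FacMonoOrdAt (M * 4) p A r hbar hr' hh' 12 b := by
    constructor
    · intro Q hQ
      have hmain := (tresmf_rigid hπ ιC hp hpM4 hA h5 (Dvd.intro_left M rfl) hRedF'
        (fun Q => ribmp_rf_hfin hpkg Q) hy0 hhor hy1 12 b hb hg₂ Q).1
      rw [hρj, hρy, hρg] at hmain
      exact hmain ((PlaceAux.ord_nonneg_iff Q hj0).1 hQ)
    · intro Q hQ
      have hmain := (tresmf_rigid hπ ιC hp hpM4 hA h5 (Dvd.intro_left M rfl) hRedF'
        (fun Q => ribmp_rf_hfin hpkg Q) hy0 hhor hy1 12 b hb hg₂ Q).2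
      rw [hρj, hρy] at hmain
      refine hmain (fun hmem => ?_)
      have := (PlaceAux.ord_nonneg_iff Q hj0).2 hmem
      omega
  -- 6. the descent to the level `M`, 7. the Hecke clause
  have hred : R38Red A
      ((nfEmb (beta0Field A) (M * p) u₀ : modularFunctionFieldBar (M * p)) : LaurentSeries Qb)
      r := by
    rw [hcy]
    have h1 := (R38Red.const (A := A) hc).mul
      (tresmfr_r38Red hp hpM hA hπ ιC hRedF y₀ hy₀1)
    rwa [one_mul] at h1
  exact facMonoConcl_of_ordAt (nfEmb (beta0Field A) (M * p) u₀) r hbar hr hh 12 b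
    hxu hred (tresmonog_hb_ne_zero (kA A) p) (tresmf_not_dvd_twelve hp h5)
    (hrig r hbar hr hh hr' hh' 12 b hord') (tresmonog_hecke_kA hp hA)

/-- **`StmtMonoFix` from FAC-RIG at `M' = 4 M`.** -/
theorem stmtMonoFix_of
    (hrig : ∀ (M p : ℕ) [NeZero M] [NeZero (M * 4)], p.Prime → 5 ≤ p → ¬ p ∣ M →
      ∀ A : ValuationSubring Qb, A.LiesOverPrime p → TresRigDescent M (M * 4) p A) :
    StmtMonoFix := by
  intro M p _ _ _ hp hpM h5 A hA x hx _ _ hI
  haveI : NeZero (M * 4) := ⟨Nat.mul_ne_zero (NeZero.ne M) (by norm_num)⟩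
  haveI : NeZero (M * 4 * p) := ⟨Nat.mul_ne_zero (NeZero.ne (M * 4)) (NeZero.ne p)⟩
  exact tresmf_fix M p hp hpM h5 A hA (hrig M p hp h5 hpM A hA) x hx hI

/-- the adapter of FAC-RIG (helper35) to the frame predicate `TresRigDescent` -/
theorem tresmf_rigDescent_of_up (M M' p : ℕ) [NeZero M] [NeZero M'] (A : ValuationSubring Qb)
    (hp : p.Prime) (hMM' : M ∣ M') (hup : TresRigUp (kA A) p M M') : TresRigDescent M M' p A :=
  fun r h hr hh _ _ a b H => tresrig_descent_of_up (kA A) hp hMM' hup r h hr hh a b H.1 H.2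

/-- **ASM-NOCOVER**: `StmtMonoFix`. -/
theorem stmtMonoFix : StmtMonoFix := by
  refine stmtMonoFix_of (fun M p _ _ hp h5 hpM A hA => ?_)
  haveI : CharP (kA A) p := Fermat.Agent.RED.charP_residueField A hp hA
  exact tresmf_rigDescent_of_up M (M * 4) p A hp (Dvd.intro 4 rfl)
    (tresrig_up_mul_four (kA A) hp h5 (NeZero.ne M))

end Fix

end Fermat.Agent.R38

end


end ZBR38_010_1

/-! ### bundled: `Fermat.Agent.R38.TresMonoTopA` -/
section ZBR38_010_2
/-
ROW 38, TRES, piece FAC-ASM-MAIN (helper89), part M3e: THE TOP OF `StmtMonoCover`.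

* `StmtMonoCoverData` : THE COVER BLOCK as one `Prop` — for a class `x` as in `StmtMonoCover`
  there are a Kummer function `u` of `x` with a Gauss reduction `r`, a field `L` over
  `F = F_{4 M p}(K)` (`K = ℚ̄^I = beta0Field A`, rigid level `4 M`), a valuation ring `W` of `L`
  over the Gauss valuation ring `V_∞ = mgvV … true`, a reduction map `ρ_W : W →+* F̄_{4M}(k)`
  extending `ribmpRedF` with kernel `𝔪_W`, a unit `y` of `W` and `c : ℤ` with the three
  hypotheses (I3) `hfin`, (I4) `hcusp`, (I6) `hcmp` of `tresmonof_frame`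
  (`R38/TresMonoConcF.lean`), for the Ogg unit `h = s36tuV` and `e = 12`;
* `stmtMonoCover_of_data : StmtMonoCoverData → StmtMonoCover` — everything else is plugged in:
  the frame (`beta0Ring_isDVR_base`, `π = p`, `ιC = mgdIota`), `hRedF = stmtRedF`,
  `hfinQ` (`ribmp_rf_hfin`), (I5) `tresmi5_mem` (helper42), (I7) `tresmi7_*` (helper10),
  (I8) `tresrig_up_mul_four` (helper35), `¬ p ∣ 12`.
-/

set_option autoImplicit false
set_option linter.unusedSectionVars false
set_option linter.unusedVariables false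
set_option linter.style.haveILetI false
set_option linter.style.longLine false
set_option synthInstance.maxHeartbeats 400000
set_option maxHeartbeats 1600000

noncomputable section

namespace Fermat.Agent.R38

open ModularCurve AlgebraicCurve IntermediateField Fermat.Agent.ES Fermat.Agent.ES.G2
  Fermat.Agent.INJ Fermat.Agent.UNIP Fermat.Agent.STB Fermat.Agent.ES.M Fermat.Agent.DEU
  Fermat.Agent.S36 Fermat.Agent.S33 Fermat.Agent.S28 Fermat.Agent.S24 Fermat.Agent.S15
  Fermat.Agent.RIB.MP Fermat.Agent.RT.K6 Fermat.Agent.AL Fermat.Agent.W1 Fermat.Agent.RIB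
  ExtCitation

/-- a prime `p ≥ 5` does not divide `12` -/
theorem tresmta_not_dvd_twelve {p : ℕ} (hp : p.Prime) (h5 : 5 ≤ p) : ¬ (p : ℤ) ∣ (12 : ℤ) := by
  intro h
  have h' : p ∣ 12 := by exact_mod_cast h
  have h2 : p ∣ 2 ^ 2 * 3 := by simpa using h'
  rcases (Nat.Prime.dvd_mul hp).1 h2 with h3 | h3
  · have := (Nat.prime_dvd_prime_iff_eq hp Nat.prime_two).1 (hp.dvd_of_dvd_pow h3)
    omega
  · have := (Nat.prime_dvd_prime_iff_eq hp Nat.prime_three).1 h3
    omega

/-- a prime `p ≥ 5` not dividing `M` does not divide `4 M` -/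
theorem tresmta_not_dvd_mul_four {p M : ℕ} (hp : p.Prime) (h5 : 5 ≤ p) (hpM : ¬ p ∣ M) :
    ¬ p ∣ M * 4 := by
  intro h
  rcases (Nat.Prime.dvd_mul hp).1 h with h1 | h1
  · exact hpM h1
  · have hle : p ≤ 4 := Nat.le_of_dvd (by norm_num) h1
    omega

/-- the adapter of FAC-RIG (helper35) to the frame predicate `TresRigDescent` -/
theorem tresmta_rigDescent_of_up (M M' p : ℕ) [NeZero M] [NeZero M'] (A : ValuationSubring Qb)
    (hp : p.Prime) (hMM' : M ∣ M') (hup : TresRigUp (kA A) p M M') : TresRigDescent M M' p A :=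
  fun r h hr hh _ _ a b H => tresrig_descent_of_up (kA A) hp hMM' hup r h hr hh a b H.1 H.2

/-- **THE COVER BLOCK of `StmtMonoCover`.**  Frame: `K = beta0Field A`, `π = p`,
`ιC = mgdIota K`, rigid level `4 M`, `F = F_{4 M p}(K)`, `V_∞ = mgvV … true`,
`ρ_F = ribmpRedF … (stmtRedF …)`. -/
def StmtMonoCoverData : Prop :=
  ∀ (M p : ℕ) [NeZero M] [NeZero p] [NeZero (M * p)] [NeZero (M * 4)] [NeZero (M * 4 * p)]
    [Fact p.Prime] (hp : p.Prime) (hpM : ¬ p ∣ M) (hpM4 : ¬ p ∣ M * 4) (_ : 5 ≤ p)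
    (A : ValuationSubring Qb) (hA : A.LiesOverPrime p)
    [IsDiscreteValuationRing ↥(beta0Ring A (beta0Field A))]
    (x : JZero (M * p)), p • x = 0 → stbPushAlpha M p x = 0 → stbPushBeta M p x = 0 →
      PeuFixed A p x →
    ∀ σ₀ ∈ A.inertiaSubgroupIn ℚ, σ₀ • x - x ≠ 0 → p • (σ₀ • x - x) = 0 →
      stbPushAlpha M p (σ₀ • x - x) = 0 → stbPushBeta M p (σ₀ • x - x) = 0 →
      TrivInf A p (σ₀ • x - x) →
      (∀ τ ∈ A.inertiaSubgroupIn ℚ, τ • (σ₀ • x - x) = cycloExp p τ • (σ₀ • x - x)) →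
      (∀ σ ∈ A.inertiaSubgroupIn ℚ, ∃ k : ℤ, σ • x - x = k • (σ₀ • x - x)) →
    ∃ (u : modularFunctionFieldBar (M * p)) (r : LaurentSeries (kA A))
      (L : Type) (_ : Field L)
      (_ : Algebra ↥(modularFunctionFieldFullC ↥(beta0Field A) (M * 4 * p)) L)
      (W : ValuationSubring L)
      (ρW : ↥W →+* ↥(modularFunctionFieldFullC (kA A) (M * 4)))
      (y : L) (hy : W.valuation y = 1) (c : ℤ),
      KummerRel p x u ∧ R38Red A (u : LaurentSeries Qb) r ∧
      -- `W` lies over `V_∞`, `ρ_W` extends `ρ_F` and kills `𝔪_W`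
      W.comap (algebraMap ↥(modularFunctionFieldFullC ↥(beta0Field A) (M * 4 * p)) L) =
        mgvV (beta0Ring_irreducible_q (A := A) hp hA) (mgdIota (beta0Field A)) hp hpM4 true ∧
      (∀ (a : ↥(modularFunctionFieldFullC ↥(beta0Field A) (M * 4 * p)))
        (ha : a ∈ mgvV (beta0Ring_irreducible_q (A := A) hp hA) (mgdIota (beta0Field A))
          hp hpM4 true)
        (haW : algebraMap ↥(modularFunctionFieldFullC ↥(beta0Field A) (M * 4 * p)) L a ∈ W),
        ρW ⟨algebraMap ↥(modularFunctionFieldFullC ↥(beta0Field A) (M * 4 * p)) L a, haW⟩ =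
          ribmpRedF hp hpM4 hA (beta0Ring_irreducible_q (A := A) hp hA)
            (mgdIota (beta0Field A)) (stmtRedF (M * 4) A p hp hpM4 hA) ⟨a, ha⟩) ∧
      (∀ x : ↥W, (x : L) ∈ W.nonunits → ρW x = 0) ∧
      -- (I3) `hfin` : the closed points of the chart `j`
      (∀ 𝔫 : AtPt (F := ↥(modularFunctionFieldFullC ↥(beta0Field A) (M * 4 * p)))
          ((p : ℕ) : ↥(beta0Ring A (beta0Field A))) (bgJ ↥(beta0Field A) (M * 4 * p)),
        ∀ T : ValuationSubring L,
        (∀ x ∈ atLoc 𝔫,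
          algebraMap ↥(modularFunctionFieldFullC ↥(beta0Field A) (M * 4 * p)) L x ∈ T) →
        (∀ x ∈ T, x ∈ W) →
        ∃ O' : Subring L, (∀ x ∈ O', x ∈ T) ∧
          TresMonoPt W O' p c 12 y
            (algebraMap ↥(modularFunctionFieldFullC ↥(beta0Field A) (M * 4 * p)) L
              (s36tuV ↥(beta0Field A) (mgdIota (beta0Field A)) (q := p) (M := M * 4)))) ∧
      -- (I4) `hcusp` : the cusps (chart `1 / j`)
      (∀ 𝔫 : AtPt (F := ↥(modularFunctionFieldFullC ↥(beta0Field A) (M * 4 * p)))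
          ((p : ℕ) : ↥(beta0Ring A (beta0Field A))) (bgJ ↥(beta0Field A) (M * 4 * p))⁻¹,
        ∀ T : ValuationSubring L,
        (∀ x ∈ atLoc 𝔫,
          algebraMap ↥(modularFunctionFieldFullC ↥(beta0Field A) (M * 4 * p)) L x ∈ T) →
        (∀ x ∈ T, x ∈ W) →
        (∀ b : ↥(zchClosure (A₀ := ↥(beta0Ring A (beta0Field A)))
            ({(bgJ ↥(beta0Field A) (M * 4 * p))⁻¹} :
              Set ↥(modularFunctionFieldFullC ↥(beta0Field A) (M * 4 * p)))),
          (b : ↥(modularFunctionFieldFullC ↥(beta0Field A) (M * 4 * p))) =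
            (bgJ ↥(beta0Field A) (M * 4 * p))⁻¹ → b ∈ 𝔫.1) →
        ∃ O' : Subring L, (∀ x ∈ O', x ∈ T) ∧ StbFacAt O' p y) ∧
      -- (I6) `hcmp` : the comparison of the two reductions
      (∃ (hr' : r ∈ modularFunctionFieldFullC (kA A) (M * 4)) (a : kA A)
        (s : ↥(modularFunctionFieldFullC (kA A) (M * 4))), a ≠ 0 ∧ s ≠ 0 ∧
        (⟨r, hr'⟩ : ↥(modularFunctionFieldFullC (kA A) (M * 4))) =
          algebraMap (kA A) ↥(modularFunctionFieldFullC (kA A) (M * 4)) a *
            ρW ⟨y, tresdn_mem W hy⟩ * s ^ p)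

/-- **`StmtMonoCover` from the cover block.** -/
theorem stmtMonoCover_of_data (H : StmtMonoCoverData) : StmtMonoCover := by
  intro M p _ _ _ _ hpM h5 A hA x hx hα hβ hpeu σ₀ hσ₀ hz hpz hzα hzβ htriv htor hspan
  have hp : p.Prime := Fact.out
  haveI : NeZero (M * 4) := ⟨Nat.mul_ne_zero (NeZero.ne M) (by norm_num)⟩
  haveI : NeZero (M * 4 * p) := ⟨Nat.mul_ne_zero (NeZero.ne (M * 4)) (NeZero.ne p)⟩
  haveI : IsDiscreteValuationRing ↥(beta0Ring A (beta0Field A)) := beta0Ring_isDVR_base hp hA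
  haveI : CharP (kA A) p := Fermat.Agent.RED.charP_residueField A hp hA
  have hπ := beta0Ring_irreducible_q (A := A) hp hA
  have hpM4 : ¬ p ∣ M * 4 := tresmta_not_dvd_mul_four hp h5 hpM
  obtain ⟨rr, sp, Pinf, Qinf, hpkg⟩ := s15red_exists_pkg (M * 4) p hp hpM4 (Or.inl h5) A hA
  obtain ⟨u, r, L, instL, instA, W, ρW, y, hy, c, hK, hred, hWV, hρW, hρWker, hfin, hcusp,
    hr', a, s, ha, hs, hcmp⟩ :=
    H M p hp hpM hpM4 h5 A hA x hx hα hβ hpeu σ₀ hσ₀ hz hpz hzα hzβ htriv htor hspan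
  have hr : r ∈ modularFunctionFieldFullC (kA A) M := tresmi5_mem hp hpM hA hred
  have hhV := tresmi7_hh hp hpM4 hA hπ (mgdIota (beta0Field A))
  have hWle : ∀ a : ↥(modularFunctionFieldFullC ↥(beta0Field A) (M * 4 * p)),
      a ∈ mgvV hπ (mgdIota (beta0Field A)) hp hpM4 true →
        algebraMap ↥(modularFunctionFieldFullC ↥(beta0Field A) (M * 4 * p)) L a ∈ W := by
    intro a ha
    have : a ∈ W.comap (algebraMap ↥(modularFunctionFieldFullC ↥(beta0Field A) (M * 4 * p)) L) := by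
      rw [hWV]; exact ha
    exact this
  have hh : W.valuation
      (algebraMap ↥(modularFunctionFieldFullC ↥(beta0Field A) (M * 4 * p)) L
        (s36tuV ↥(beta0Field A) (mgdIota (beta0Field A)) (q := p) (M := M * 4))) = 1 :=
    tresmi7_cover_val (mgvV hπ (mgdIota (beta0Field A)) hp hpM4 true) W hWle hhV
  have hρh := tresmi7_cover (mgvV hπ (mgdIota (beta0Field A)) hp hpM4 true) W
    (ribmpRedF hp hpM4 hA hπ (mgdIota (beta0Field A)) (stmtRedF (M * 4) A p hp hpM4 hA)) ρW
    hhV hh (fun x hx hx' => hρW x hx hx')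
    (tresmi7_hρh hp hpM4 hA hπ (mgdIota (beta0Field A)) (stmtRedF (M * 4) A p hp hpM4 hA))
  exact tresmonof_frame hp hpM4 hA hπ (mgdIota (beta0Field A))
    (stmtRedF (M * 4) A p hp hpM4 hA) (fun Q => ribmp_rf_hfin hpkg Q) W hWV ρW hρW hρWker
    hy hh c 12 (tresmta_not_dvd_twelve hp h5) hfin hcusp u hK r hr hr' hred
    ⟨a, s, ha, hs, hcmp⟩ (uInvS (kA A) p) (tresmi7_hhb hp hA M) (tresmi7_hhb hp hA (M * 4))
    hρh (tresmi7_hhecke A hp)
    (tresmta_rigDescent_of_up M (M * 4) p A hp (Dvd.intro 4 rfl)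
      (tresrig_up_mul_four (kA A) hp h5 (NeZero.ne M)))

end Fermat.Agent.R38

end


end ZBR38_010_2
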