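/- GENERATED FILE (helper35, build-time optimisation, NOTES/ZB.md): verbatim concatenation of the modules
   Fermat.Agent.R38.TresNodeKrull
   Fermat.Agent.R38.TresNode
   Do not edit; do not import together with these modules. -/
import Mathlib
import Fermat.Agent.ZB.RIB_004
import Fermat.Agent.ZB.RT_001

/-! ### bundled: `Fermat.Agent.R38.TresNodeKrull` -/
section ZBR38_011_0
/-
Row 38, PKG-TRES, MONO, piece FAC-LOC (helper92), part 0: two-generator noetherian local rings.

`A` a noetherian local ring with `𝔪_A = (X, Y)`.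

* `tres5n_krull`      : an element `a ∉ X A` is `a = X a₁ + Y ^ m u` with `u` a unit
  (Krull's intersection theorem for the module `A / X A`).
* `tres5n_prime_of_pow` : if `A` is a domain and no power of `Y` is divisible by `X`, then `X` is
  a prime element of `A`.
* `tres5n_not_mem_of_unit` : for a prime ideal `𝔮 ∋ X`, `𝔮 ∌ Y`: `𝔮 = X A`.
-/

set_option autoImplicit false
set_option linter.unusedSectionVars false
set_option linter.unusedVariables false
set_option linter.style.longLine false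

namespace Fermat.Agent.R38

open IsLocalRing

section Krull

variable {A : Type*} [CommRing A] [IsLocalRing A] [IsNoetherianRing A]

/-- Krull: in a noetherian local ring, `⋂ₘ (X A + 𝔪 ^ m) = X A`. -/
theorem tres5n_mem_of_forall (X : A) {a : A}
    (h : ∀ m : ℕ, ∃ a₁ t : A, t ∈ maximalIdeal A ^ m ∧ a = X * a₁ + t) :
    X ∣ a := by
  have hne : maximalIdeal A ≠ ⊤ := Ideal.IsPrime.ne_top'
  have hK := Ideal.iInf_pow_smul_eq_bot_of_isLocalRing (R := A) (I := maximalIdeal A)
    (M := A ⧸ Ideal.span {X}) hne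
  have hmem : (Ideal.Quotient.mk (Ideal.span {X}) a) ∈
      (⨅ i : ℕ, maximalIdeal A ^ i • ⊤ : Submodule A (A ⧸ Ideal.span {X})) := by
    rw [Submodule.mem_iInf]
    intro m
    obtain ⟨a₁, t, ht, hat⟩ := h m
    have e : Ideal.Quotient.mk (Ideal.span {X}) a
        = t • (Ideal.Quotient.mk (Ideal.span {X}) 1) := by
      rw [hat, map_add, ← Ideal.Quotient.mk_eq_mk, ← Ideal.Quotient.mk_eq_mk]
      have h0 : Ideal.Quotient.mk (Ideal.span {X}) (X * a₁) = 0 :=
        Ideal.Quotient.eq_zero_iff_mem.2 (Ideal.mul_mem_right _ _ (Ideal.mem_span_singleton_self X))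
      rw [Ideal.Quotient.mk_eq_mk, Ideal.Quotient.mk_eq_mk, h0, zero_add]
      rw [Algebra.smul_def, Ideal.Quotient.algebraMap_eq, map_one, mul_one]
    rw [e]
    exact Submodule.smul_mem_smul ht Submodule.mem_top
  rw [hK, Submodule.mem_bot] at hmem
  exact Ideal.mem_span_singleton.1 (Ideal.Quotient.eq_zero_iff_mem.1 hmem)

/-- `Y ^ m t` lies in `(X) + 𝔪 ^ (m + 1)` if `t ∈ 𝔪 = (X, Y)`. -/
theorem tres5n_step (X Y : A) (hm : maximalIdeal A = Ideal.span {X, Y}) {t : A}
    (ht : t ∈ maximalIdeal A) (m : ℕ) :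
    ∃ a₁ t' : A, Y ^ m * t = X * a₁ + Y ^ (m + 1) * t' := by
  rw [hm, Ideal.mem_span_pair] at ht
  obtain ⟨r, s, hrs⟩ := ht
  exact ⟨Y ^ m * r, s, by rw [← hrs]; ring⟩

/-- **Krull, two generators**: `a ∉ X A` is `X a₁ + Y ^ m u`, `u` a unit. -/
theorem tres5n_krull (X Y : A) (hm : maximalIdeal A = Ideal.span {X, Y}) {a : A}
    (ha : ¬ X ∣ a) : ∃ (m : ℕ) (a₁ u : A), IsUnit u ∧ a = X * a₁ + Y ^ m * u := by
  classical
  by_contra hcon
  push Not at hcon
  have hY : Y ∈ maximalIdeal A := by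
    rw [hm]; exact Ideal.subset_span (by simp)
  -- `a ∈ (X) + Y ^ m A` for all `m`
  have key : ∀ m : ℕ, ∃ a₁ t : A, a = X * a₁ + Y ^ m * t := by
    intro m
    induction m with
    | zero => exact ⟨0, a, by ring⟩
    | succ m ih =>
      obtain ⟨a₁, t, hat⟩ := ih
      have ht : t ∈ maximalIdeal A := by
        by_contra htm
        have hu : IsUnit t := by
          by_contra hnu
          exact htm ((mem_maximalIdeal t).2 hnu)
        exact hcon m a₁ t hu hat
      obtain ⟨b₁, t', hbt⟩ := tres5n_step X Y hm ht m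
      exact ⟨a₁ + b₁, t', by rw [hat, hbt]; ring⟩
  apply ha
  refine tres5n_mem_of_forall X (fun m => ?_)
  obtain ⟨a₁, t, hat⟩ := key m
  exact ⟨a₁, Y ^ m * t, Ideal.mul_mem_right _ _ (Ideal.pow_mem_pow hY m), hat⟩

/-- **`X` is prime** in a noetherian local domain with `𝔪 = (X, Y)`, provided no power of `Y`
is divisible by `X`. -/
theorem tres5n_prime_of_pow [IsDomain A] (X Y : A)
    (hm : maximalIdeal A = Ideal.span {X, Y}) (hX0 : X ≠ 0)
    (hpow : ∀ N : ℕ, ¬ X ∣ Y ^ N) : Prime X := by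
  have hXm : X ∈ maximalIdeal A := by
    rw [hm]; exact Ideal.subset_span (by simp)
  refine ⟨hX0, fun hu => (mem_maximalIdeal X).1 hXm hu, fun a b hab => ?_⟩
  by_contra hcon
  rw [not_or] at hcon
  obtain ⟨m, a₁, u, hu, hau⟩ := tres5n_krull X Y hm hcon.1
  obtain ⟨m', b₁, v, hv, hbv⟩ := tres5n_krull X Y hm hcon.2
  apply hpow (m + m')
  obtain ⟨c, hc⟩ := hab
  have e : Y ^ (m + m') * (u * v) = X * (c - a₁ * b - Y ^ m * u * b₁) := by
    have h1 : a * b = X * c := hc
    have h2 : Y ^ (m + m') * (u * v) = a * b - X * (a₁ * b) - X * (Y ^ m * u * b₁) := by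
      rw [pow_add]
      conv_rhs => rw [hau]
      conv_rhs => enter [1, 1]; rw [hbv]
      conv_rhs => enter [1, 2, 2, 2]; rw [hbv]
      ring
    rw [h2, h1]; ring
  have huv : IsUnit (u * v) := hu.mul hv
  obtain ⟨w, hw⟩ := huv.exists_right_inv
  refine ⟨(c - a₁ * b - Y ^ m * u * b₁) * w, ?_⟩
  calc Y ^ (m + m') = Y ^ (m + m') * (u * v * w) := by rw [hw, mul_one]
    _ = Y ^ (m + m') * (u * v) * w := by ring
    _ = X * ((c - a₁ * b - Y ^ m * u * b₁) * w) := by rw [e]; ring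

/-- a prime ideal containing `X` but not `Y` is `X A`. -/
theorem tres5n_dvd_of_mem_prime (X Y : A) (hm : maximalIdeal A = Ideal.span {X, Y})
    (𝔮 : Ideal A) [h𝔮 : 𝔮.IsPrime] (hX : X ∈ 𝔮) (hY : Y ∉ 𝔮) {a : A} (ha : a ∈ 𝔮) : X ∣ a := by
  by_contra hcon
  obtain ⟨m, a₁, u, hu, hau⟩ := tres5n_krull X Y hm hcon
  have h1 : Y ^ m * u ∈ 𝔮 := by
    have : Y ^ m * u = a - X * a₁ := by rw [hau]; ring
    rw [this]
    exact Ideal.sub_mem _ ha (Ideal.mul_mem_right _ _ hX)
  rcases h𝔮.mem_or_mem h1 with h | h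
  · exact hY (h𝔮.mem_of_pow_mem m h)
  · exact h𝔮.ne_top (Ideal.eq_top_of_isUnit_mem _ h hu)

end Krull

end Fermat.Agent.R38


end ZBR38_011_0

/-! ### bundled: `Fermat.Agent.R38.TresNode` -/
section ZBR38_011_1
/-
Row 38, PKG-TRES, MONO, piece FAC-LOC (helper92), part 1: the local factorisation (LF) at a closed
point of the COVER, abstract local form (NOTES/R38-FAC.md, ruling v3).

`O′ ⊆ L` a noetherian local subring of the function field `L` of the cover with fraction field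
`L` (a local ring `O′_k` of `R[z]`, `R = atLoc 𝔫`), `𝔪(O′) = (X, Y)` with `X`, `Y` prime
elements (ET-PRIME), `w ϖ = X Y` with `w` a unit (THIN node).  No chart of the cover, no global
hypothesis on the cover.

* `Tres5nIsLoc O′ f W` : `W` is the valuation ring `O′_(f)`.
* `tres5n_fac`   : **(LF) at a thin node of the cover**: there are valuation rings `W₁ = O′_(X)`,
  `W₂ = O′_(Y)` of `L` such that every `y ∈ L^×` with `m ∣ ord_P y` at the places `P` of `L / E`
  centred on `O′` is `y = ε · X ^ a · Y ^ b · γ ^ m`, `ε ∈ O′^×`, `γ` a unit at `W₁`, `W₂`,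
  `W₁(y) = W₁(ϖ) ^ a`, `W₂(y) = W₂(ϖ) ^ b`.
* `tres5n_fac_smooth` : the same at a smooth point `𝔪(O′) = (ϖ, s)`: `y = ε · ϖ ^ a · γ ^ m`.
* `tres5n_comap` : `O′_(X) ∩ F = V₁` for the vertical valuation ring `V₁ = O_(X)` of `F`.
* `tres5n_unique`: a valuation ring of `L` over `V₁` containing `O′` is `O′_(X)`
  (EXACTLY ONE sheet over each branch passes through a point of the cover).
-/

set_option autoImplicit false
set_option linter.unusedSectionVars false
set_option linter.unusedVariables false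
set_option linter.style.haveILetI false
set_option linter.style.longLine false

noncomputable section

namespace Fermat.Agent.R38

open IsLocalRing AlgebraicCurve Fermat.Agent.S36 Fermat.Agent.RT.K6

section IsLoc

variable {L : Type*} [Field L]

/-- `W` is the localisation `O′_(f)` of `O′` at the prime element `f`. -/
def Tres5nIsLoc (O' : Subring L) (f : O') (W : ValuationSubring L) : Prop :=
  ∀ x : L, x ∈ W ↔ ∃ a b : O', ¬ f ∣ b ∧ x * (b : L) = (a : L)

variable {O' : Subring L} {f : O'} {W : ValuationSubring L}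

theorem Tres5nIsLoc.le (h : Tres5nIsLoc O' f W) (hf : Prime f) {x : L} (hx : x ∈ O') : x ∈ W :=
  (h x).2 ⟨⟨x, hx⟩, 1, hf.not_dvd_one, by simp⟩

theorem Tres5nIsLoc.inv_mem (h : Tres5nIsLoc O' f W) {a : O'} (ha : ¬ f ∣ a) :
    ((a : L))⁻¹ ∈ W := by
  refine (h _).2 ⟨1, a, ha, ?_⟩
  have ha0 : (a : L) ≠ 0 := fun h0 => ha (by
    have : a = 0 := Subtype.ext h0
    rw [this]; exact dvd_zero f)
  simp [inv_mul_cancel₀ ha0]

theorem Tres5nIsLoc.valuation_eq_one (h : Tres5nIsLoc O' f W) (hf : Prime f) {a : O'}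
    (ha : ¬ f ∣ a) : W.valuation (a : L) = 1 := by
  have h1 : W.valuation (a : L) ≤ 1 := (W.valuation_le_one_iff _).2 (h.le hf a.2)
  have h2 : W.valuation ((a : L))⁻¹ ≤ 1 := (W.valuation_le_one_iff _).2 (h.inv_mem ha)
  have ha0 : (a : L) ≠ 0 := fun h0 => ha (by
    have : a = 0 := Subtype.ext h0
    rw [this]; exact dvd_zero f)
  have hv0 : W.valuation (a : L) ≠ 0 := (Valuation.ne_zero_iff _).2 ha0
  rw [map_inv₀, inv_le_one₀ (zero_lt_iff.2 hv0)] at h2
  exact le_antisymm h1 h2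

theorem Tres5nIsLoc.inv_not_mem (h : Tres5nIsLoc O' f W) (hf : Prime f) :
    ((f : L))⁻¹ ∉ W := by
  intro hmem
  obtain ⟨a, b, hb, hab⟩ := (h _).1 hmem
  have hf0 : (f : L) ≠ 0 := fun h0 => hf.ne_zero (Subtype.ext h0)
  apply hb
  refine ⟨a, Subtype.ext ?_⟩
  have : (b : L) = (f : L) * (a : L) := by
    rw [← hab]; field_simp
  simpa using this

theorem Tres5nIsLoc.mem_nonunits (h : Tres5nIsLoc O' f W) (hf : Prime f) :
    (f : L) ∈ W.nonunits := by
  rw [ValuationSubring.mem_nonunits_iff]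
  have h1 : W.valuation (f : L) ≤ 1 := (W.valuation_le_one_iff _).2 (h.le hf f.2)
  refine lt_of_le_of_ne h1 (fun h1' => h.inv_not_mem hf ?_)
  rw [← W.valuation_le_one_iff, map_inv₀, h1', inv_one]

theorem Tres5nIsLoc.mem_nonunits_iff (h : Tres5nIsLoc O' f W) (hf : Prime f) {a : O'} :
    (a : L) ∈ W.nonunits ↔ f ∣ a := by
  constructor
  · intro ha
    by_contra hcon
    rw [ValuationSubring.mem_nonunits_iff, h.valuation_eq_one hf hcon] at ha
    exact lt_irrefl _ ha
  · rintro ⟨t, rfl⟩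
    rw [ValuationSubring.mem_nonunits_iff]
    have h1 := (ValuationSubring.mem_nonunits_iff W).1 (h.mem_nonunits hf)
    have h2 : W.valuation (t : L) ≤ 1 := (W.valuation_le_one_iff _).2 (h.le hf t.2)
    have e : ((f * t : O') : L) = (f : L) * (t : L) := rfl
    rw [e, map_mul]
    calc W.valuation (f : L) * W.valuation (t : L) ≤ W.valuation (f : L) * 1 := by gcongr
      _ = W.valuation (f : L) := mul_one _
      _ < 1 := h1

/-- two valuation rings `O′_(f)` are equal -/
theorem Tres5nIsLoc.eq {W' : ValuationSubring L} (h : Tres5nIsLoc O' f W)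
    (h' : Tres5nIsLoc O' f W') : W = W' := by
  ext x
  rw [h x, h' x]

end IsLoc

section Fac

variable {E L : Type*} [Field E] [Field L] [Algebra E L]
variable (O' : Subring L) [IsLocalRing O'] [IsNoetherianRing O']

/-- `O′_(f)` exists -/
theorem tres5n_isLoc_s36 [UniqueFactorizationMonoid O'] [IsFractionRing O' L] {f : O'}
    (hf : Prime f) : Tres5nIsLoc O' f (s36n2pLoc (F := L) f hf) :=
  fun _ => Iff.rfl

/-- **(LF) at a thin node of the cover.** -/
theorem tres5n_fac (hfrac : ∀ x : L, ∃ a b : O', (b : L) ≠ 0 ∧ x * (b : L) = (a : L))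
    (X Y : O') (hm : maximalIdeal O' = Ideal.span {X, Y}) (hX : Prime X) (hY : Prime Y)
    (hXY : ¬ X ∣ Y) (hYX : ¬ Y ∣ X)
    (ϖ w : O') (hw : IsUnit w) (hϖ : w * ϖ = X * Y)
    (hE : ∀ e : E, ∃ (n : ℕ) (a : O'), algebraMap E L e * (ϖ : L) ^ n = (a : L)) :
    ∃ W₁ W₂ : ValuationSubring L, Tres5nIsLoc O' X W₁ ∧ Tres5nIsLoc O' Y W₂ ∧
      ∀ (m : ℕ) (y : L), y ≠ 0 →
        (∀ P : Place E L, (∀ x ∈ O', x ∈ P.toValuationSubring) → (m : ℤ) ∣ P.ord y) →
        ∃ (γ : L) (ε : O') (a b : ℤ), IsUnit ε ∧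
          y = (ε : L) * (X : L) ^ a * (Y : L) ^ b * γ ^ m ∧ γ ≠ 0 ∧
          W₁.valuation γ = 1 ∧ W₂.valuation γ = 1 ∧
          W₁.valuation y = W₁.valuation (ϖ : L) ^ a ∧
          W₂.valuation y = W₂.valuation (ϖ : L) ^ b := by
  classical
  haveI : UniqueFactorizationMonoid O' := rtk6lf_ufd X Y hm hX
  haveI : IsFractionRing O' L := s36n2p_isFractionRing O' hfrac
  set W₁ : ValuationSubring L := s36n2pLoc (F := L) X hX with hW₁def
  set W₂ : ValuationSubring L := s36n2pLoc (F := L) Y hY with hW₂def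
  have hW₁ : Tres5nIsLoc O' X W₁ := tres5n_isLoc_s36 O' hX
  have hW₂ : Tres5nIsLoc O' Y W₂ := tres5n_isLoc_s36 O' hY
  obtain ⟨w', hww'⟩ := hw.exists_left_inv
  have hϖeq : ϖ = w' * (X * Y) := by
    rw [← hϖ, ← mul_assoc, hww', one_mul]
  have hϖ0 : ϖ ≠ 0 := by
    rw [hϖeq]
    have hw'0 : w' ≠ 0 := fun h0 => by rw [h0, zero_mul] at hww'; exact zero_ne_one hww'
    exact mul_ne_zero hw'0 (mul_ne_zero hX.ne_zero hY.ne_zero)
  have hXϖ : X ∣ ϖ := ⟨w' * Y, by rw [hϖeq]; ring⟩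
  have hYϖ : Y ∣ ϖ := ⟨w' * X, by rw [hϖeq]; ring⟩
  let V : Bool → ValuationSubring L := fun c => if c then W₁ else W₂
  have hOV : ∀ c, True → ∀ x ∈ O', x ∈ V c := by
    intro c _ x hx
    cases c
    · exact hW₂.le hY hx
    · exact hW₁.le hX hx
  have hdict : S36n2pDict E O' (fun _ : Bool => True) V := by
    refine s36n2p_dict_of_KR (E := E) (O := O') (fun _ : Bool => True) V
      (fun c hc x => hOV c hc x x.2) Finset.univ (fun _ _ => trivial) (fun _ => 1) ϖ hϖ0
      ?_ ?_ hE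
    · intro c _
      cases c
      · exact (hW₂.mem_nonunits_iff hY).2 hYϖ
      · exact (hW₁.mem_nonunits_iff hX).2 hXϖ
    · intro y hy
      have h1 : X ∣ y true := (hW₁.mem_nonunits_iff hX).1 (hy true (Finset.mem_univ _))
      have h2 : Y ∣ y false := (hW₂.mem_nonunits_iff hY).1 (hy false (Finset.mem_univ _))
      rw [Fintype.prod_bool, pow_one, pow_one]
      obtain ⟨t₁, ht₁⟩ := h1
      obtain ⟨t₂, ht₂⟩ := h2
      refine ⟨w * t₁ * t₂, ?_⟩
      rw [ht₁, ht₂]
      calc X * t₁ * (Y * t₂) = (X * Y) * (t₁ * t₂) := by ring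
        _ = (w * ϖ) * (t₁ * t₂) := by rw [hϖ]
        _ = ϖ * (w * t₁ * t₂) := by ring
  have hvert : ∀ c, True → (∀ x : O', (x : L) ∈ (V c).nonunits → X ∣ x) ∨
      (∀ x : O', (x : L) ∈ (V c).nonunits → Y ∣ x) := by
    intro c _
    cases c
    · exact Or.inr (fun x hx => (hW₂.mem_nonunits_iff hY).1 hx)
    · exact Or.inl (fun x hx => (hW₁.mem_nonunits_iff hX).1 hx)
  have hw'1 : ∀ W : ValuationSubring L, (∀ x ∈ O', x ∈ W) → W.valuation (w' : L) = 1 := by
    intro W hW
    have h1 : W.valuation (w' : L) ≤ 1 := (W.valuation_le_one_iff _).2 (hW _ w'.2)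
    have h2 : W.valuation (w : L) ≤ 1 := (W.valuation_le_one_iff _).2 (hW _ w.2)
    have h3 : W.valuation (w' : L) * W.valuation (w : L) = 1 := by
      rw [← map_mul]
      have : (w' : L) * (w : L) = 1 := congrArg Subtype.val hww'
      rw [this, map_one]
    refine le_antisymm h1 ?_
    by_contra hlt
    rw [not_le] at hlt
    have : W.valuation (w' : L) * W.valuation (w : L) < 1 :=
      calc W.valuation (w' : L) * W.valuation (w : L) ≤ W.valuation (w' : L) * 1 := by gcongr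
        _ = W.valuation (w' : L) := mul_one _
        _ < 1 := hlt
    rw [h3] at this
    exact lt_irrefl _ this
  have hϖL : (ϖ : L) = (w' : L) * ((X : L) * (Y : L)) := congrArg Subtype.val hϖeq
  have hvϖ₁ : W₁.valuation (ϖ : L) = W₁.valuation (X : L) := by
    rw [hϖL, map_mul, map_mul, hw'1 W₁ (fun x hx => hW₁.le hX hx),
      hW₁.valuation_eq_one hX hXY, one_mul, mul_one]
  have hvϖ₂ : W₂.valuation (ϖ : L) = W₂.valuation (Y : L) := by
    rw [hϖL, map_mul, map_mul, hw'1 W₂ (fun x hx => hW₂.le hY hx),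
      hW₂.valuation_eq_one hY hYX, one_mul, one_mul]
  refine ⟨W₁, W₂, hW₁, hW₂, fun m y hy hhor => ?_⟩
  obtain ⟨γ, ε, a, b, hε, hyε, hγ0, hγ, hval⟩ := rtk6lf_facAt (E := E) O' hfrac
    (fun _ : Bool => True) V hOV hdict hX hY hvert m hy hhor
  refine ⟨γ, ε, a, b, hε, hyε, hγ0, hγ true trivial, hγ false trivial, ?_, ?_⟩
  · have h := hval true trivial
    change W₁.valuation y = W₁.valuation (X : L) ^ a * W₁.valuation (Y : L) ^ b at h
    rw [h, hW₁.valuation_eq_one hX hXY, one_zpow, mul_one, hvϖ₁]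
  · have h := hval false trivial
    change W₂.valuation y = W₂.valuation (X : L) ^ a * W₂.valuation (Y : L) ^ b at h
    rw [h, hW₂.valuation_eq_one hY hYX, one_zpow, one_mul, hvϖ₂]

/-- **(LF) at a smooth point of the cover.** -/
theorem tres5n_fac_smooth (hfrac : ∀ x : L, ∃ a b : O', (b : L) ≠ 0 ∧ x * (b : L) = (a : L))
    (ϖ s : O') (hm : maximalIdeal O' = Ideal.span {ϖ, s}) (hϖ : Prime ϖ)
    (hE : ∀ e : E, ∃ (n : ℕ) (a : O'), algebraMap E L e * (ϖ : L) ^ n = (a : L)) :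
    ∃ W : ValuationSubring L, Tres5nIsLoc O' ϖ W ∧
      ∀ (m : ℕ) (y : L), y ≠ 0 →
        (∀ P : Place E L, (∀ x ∈ O', x ∈ P.toValuationSubring) → (m : ℤ) ∣ P.ord y) →
        ∃ (γ : L) (ε : O') (a : ℤ), IsUnit ε ∧
          y = (ε : L) * (ϖ : L) ^ a * γ ^ m ∧ γ ≠ 0 ∧
          W.valuation γ = 1 ∧ W.valuation y = W.valuation (ϖ : L) ^ a := by
  classical
  haveI : UniqueFactorizationMonoid O' := rtk6lf_ufd ϖ s hm hϖ
  haveI : IsFractionRing O' L := s36n2p_isFractionRing O' hfrac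
  set W : ValuationSubring L := s36n2pLoc (F := L) ϖ hϖ with hWdef
  have hW : Tres5nIsLoc O' ϖ W := tres5n_isLoc_s36 O' hϖ
  let V : Unit → ValuationSubring L := fun _ => W
  have hOV : ∀ c, True → ∀ x ∈ O', x ∈ V c := fun c _ x hx => hW.le hϖ hx
  have hdict : S36n2pDict E O' (fun _ : Unit => True) V := by
    refine s36n2p_dict_of_KR (E := E) (O := O') (fun _ : Unit => True) V
      (fun c hc x => hOV c hc x x.2) Finset.univ (fun _ _ => trivial) (fun _ => 1) ϖ hϖ.ne_zero
      ?_ ?_ hE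
    · intro c _
      exact (hW.mem_nonunits_iff hϖ).2 dvd_rfl
    · intro y hy
      have h1 : ϖ ∣ y () := (hW.mem_nonunits_iff hϖ).1 (hy () (Finset.mem_univ _))
      simpa using h1
  have hvert : ∀ c, True → (∀ x : O', (x : L) ∈ (V c).nonunits → ϖ ∣ x) ∨
      (∀ x : O', (x : L) ∈ (V c).nonunits → ϖ ∣ x) :=
    fun c _ => Or.inl (fun x hx => (hW.mem_nonunits_iff hϖ).1 hx)
  have hϖ0 : (ϖ : L) ≠ 0 := fun h0 => hϖ.ne_zero (Subtype.ext h0)
  refine ⟨W, hW, fun m y hy hhor => ?_⟩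
  obtain ⟨γ, ε, a, b, hε, hyε, hγ0, hγ, hval⟩ := rtk6lf_facAt (E := E) O' hfrac
    (fun _ : Unit => True) V hOV hdict hϖ hϖ hvert m hy hhor
  refine ⟨γ, ε, a + b, hε, ?_, hγ0, hγ () trivial, ?_⟩
  · rw [hyε, zpow_add₀ hϖ0]
    ring
  · have h := hval () trivial
    change W.valuation y = W.valuation (ϖ : L) ^ a * W.valuation (ϖ : L) ^ b at h
    have hϖv : W.valuation (ϖ : L) ≠ 0 := (Valuation.ne_zero_iff _).2 hϖ0
    rw [h, zpow_add₀ hϖv]

end Fac

section Sheet

variable {L : Type*} [Field L]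
variable (O' : Subring L) [IsLocalRing O'] [IsNoetherianRing O']

/-- in a valuation ring, `a / b` with `b` a unit -/
theorem tres5n_div_mem (W : ValuationSubring L) {x a b : L} (ha : a ∈ W) (hb : W.valuation b = 1)
    (h : x * b = a) : x ∈ W := by
  rw [← W.valuation_le_one_iff] at ha ⊢
  have : W.valuation x * W.valuation b = W.valuation a := by rw [← map_mul, h]
  rw [hb, mul_one] at this
  rw [this]; exact ha

theorem tres5n_div_mem_nonunits (W : ValuationSubring L) {x a b : L} (ha : a ∈ W.nonunits)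
    (hb : W.valuation b = 1) (h : x * b = a) : x ∈ W.nonunits := by
  rw [ValuationSubring.mem_nonunits_iff] at ha ⊢
  have : W.valuation x * W.valuation b = W.valuation a := by rw [← map_mul, h]
  rw [hb, mul_one] at this
  rw [this]; exact ha

theorem tres5n_val_eq_one (W : ValuationSubring L) {b : L} (hb : b ∈ W) (hb' : b ∉ W.nonunits) :
    W.valuation b = 1 := by
  refine le_antisymm ((W.valuation_le_one_iff _).2 hb) (not_lt.1 fun h => hb' ?_)
  exact (ValuationSubring.mem_nonunits_iff W).2 h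

/-- **Exactly one sheet through a point of the cover**: a valuation ring `W ⊇ O′` of `L` with
`X ∈ 𝔪(W)`, `Y ∉ 𝔪(W)` is `O′_(X)`. -/
theorem tres5n_unique (X Y : O') (hm : maximalIdeal O' = Ideal.span {X, Y}) (hX : Prime X)
    {W₁ : ValuationSubring L} (hW₁ : Tres5nIsLoc O' X W₁)
    (W : ValuationSubring L) (hO'W : ∀ x ∈ O', x ∈ W)
    (hXW : (X : L) ∈ W.nonunits) (hYW : (Y : L) ∉ W.nonunits) : W = W₁ := by
  have hle : O' ≤ W.toSubring := fun x hx => hO'W x hx
  let 𝔮 : Ideal O' := Ideal.comap (Subring.inclusion hle) (maximalIdeal W)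
  haveI : 𝔮.IsPrime := Ideal.comap_isPrime _ _
  have hmem : ∀ a : O', a ∈ 𝔮 ↔ (a : L) ∈ W.nonunits := fun a => by
    rw [Ideal.mem_comap, ValuationSubring.mem_nonunits_iff_exists_mem_maximalIdeal]
    constructor
    · intro h; exact ⟨hO'W a a.2, h⟩
    · rintro ⟨_, h⟩; exact h
  have hdvd : ∀ a : O', (a : L) ∈ W.nonunits → X ∣ a := fun a ha =>
    tres5n_dvd_of_mem_prime X Y hm 𝔮 ((hmem X).2 hXW) (fun h => hYW ((hmem Y).1 h))
      ((hmem a).2 ha)
  have hunit : ∀ b : O', ¬ X ∣ b → W.valuation (b : L) = 1 := fun b hb =>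
    tres5n_val_eq_one W (hO'W b b.2) (fun h => hb (hdvd b h))
  ext x
  constructor
  · intro hx
    by_contra hxW₁
    have hx0 : x ≠ 0 := fun h0 => hxW₁ (by rw [h0]; exact W₁.zero_mem)
    have hinv : x⁻¹ ∈ W₁ := (W₁.mem_or_inv_mem x).resolve_left hxW₁
    obtain ⟨a, b, hb, hab⟩ := (hW₁ _).1 hinv
    have hXa : X ∣ a := by
      by_contra hXa
      apply hxW₁
      refine (hW₁ x).2 ⟨b, a, hXa, ?_⟩
      rw [← hab]; field_simp
    have ha : (a : L) ∈ W.nonunits := by
      obtain ⟨t, rfl⟩ := hXa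
      have e : ((X * t : O') : L) = (t : L) * (X : L) := by
        show (X : L) * (t : L) = _
        ring
      rw [e]
      rw [ValuationSubring.mem_nonunits_iff] at hXW ⊢
      rw [map_mul]
      have ht : W.valuation (t : L) ≤ 1 := (W.valuation_le_one_iff _).2 (hO'W t t.2)
      calc W.valuation (t : L) * W.valuation (X : L) ≤ 1 * W.valuation (X : L) := by gcongr
        _ = W.valuation (X : L) := one_mul _
        _ < 1 := hXW
    have h1 : x⁻¹ ∈ W.nonunits := tres5n_div_mem_nonunits W ha (hunit b hb) hab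
    rw [ValuationSubring.mem_nonunits_iff, map_inv₀] at h1
    have h2 : W.valuation x ≤ 1 := (W.valuation_le_one_iff _).2 hx
    have hv0 : W.valuation x ≠ 0 := (Valuation.ne_zero_iff _).2 hx0
    have h3 : 1 ≤ (W.valuation x)⁻¹ := (one_le_inv₀ (zero_lt_iff.2 hv0)).2 h2
    exact absurd h1 (not_lt.2 h3)
  · intro hx
    obtain ⟨a, b, hb, hab⟩ := (hW₁ _).1 hx
    exact tres5n_div_mem W (hO'W a a.2) (hunit b hb) hab

end Sheet

section Comap

variable {F L : Type*} [Field F] [Field L] [Algebra F L]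
variable (O : Subring F) (O' : Subring L) (hOO' : ∀ x ∈ O, algebraMap F L x ∈ O')

/-- the map `O → O′` -/
def tres5nInc : O →+* O' :=
  ((algebraMap F L).comp O.subtype).codRestrict O' (fun x => hOO' x x.2)

theorem tres5nInc_coe (x : O) : ((tres5nInc O O' hOO' x : O') : L) = algebraMap F L (x : F) := rfl

/-- **`O′_(X) ∩ F = V₁`** for the vertical valuation ring `V₁ = O_(X)` of `F`. -/
theorem tres5n_comap (X : O) (hX' : Prime (tres5nInc O O' hOO' X))
    {W₁ : ValuationSubring L} (hW₁ : Tres5nIsLoc O' (tres5nInc O O' hOO' X) W₁)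
    (V₁ : ValuationSubring F)
    (hV₁ : ∀ x ∈ V₁, ∃ a b : O, ¬ X ∣ b ∧ x * (b : F) = (a : F))
    (hUX : ∀ x ∈ V₁.nonunits, ∃ v ∈ V₁, x = (X : F) * v)
    (hdown : ∀ b : O, tres5nInc O O' hOO' X ∣ tres5nInc O O' hOO' b → X ∣ b) :
    W₁.comap (algebraMap F L) = V₁ := by
  have hsub : ∀ x ∈ V₁, algebraMap F L x ∈ W₁ := by
    intro x hx
    obtain ⟨a, b, hb, hab⟩ := hV₁ x hx
    refine (hW₁ _).2 ⟨tres5nInc O O' hOO' a, tres5nInc O O' hOO' b, fun h => hb (hdown b h), ?_⟩
    rw [tres5nInc_coe, tres5nInc_coe, ← map_mul, hab]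
  ext x
  rw [ValuationSubring.mem_comap]
  constructor
  · intro hx
    by_contra hxV
    have hx0 : x ≠ 0 := fun h0 => hxV (by rw [h0]; exact V₁.zero_mem)
    have hinv : x⁻¹ ∈ V₁.nonunits := by
      rw [ValuationSubring.mem_nonunits_iff, map_inv₀]
      have h1 : 1 < V₁.valuation x := by
        rw [← not_le, V₁.valuation_le_one_iff]; exact hxV
      exact inv_lt_one_of_one_lt₀ h1
    obtain ⟨v, hv, hxv⟩ := hUX _ hinv
    have hXnu : algebraMap F L (X : F) ∈ W₁.nonunits := by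
      have := hW₁.mem_nonunits hX'
      rwa [tres5nInc_coe] at this
    have h1 : W₁.valuation (algebraMap F L x⁻¹) < 1 := by
      rw [hxv, map_mul, map_mul]
      have hv' : W₁.valuation (algebraMap F L v) ≤ 1 := (W₁.valuation_le_one_iff _).2 (hsub v hv)
      calc W₁.valuation (algebraMap F L (X : F)) * W₁.valuation (algebraMap F L v)
          ≤ W₁.valuation (algebraMap F L (X : F)) * 1 := by gcongr
        _ = W₁.valuation (algebraMap F L (X : F)) := mul_one _
        _ < 1 := (ValuationSubring.mem_nonunits_iff W₁).1 hXnu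
    rw [map_inv₀, map_inv₀] at h1
    have h2 : W₁.valuation (algebraMap F L x) ≤ 1 := (W₁.valuation_le_one_iff _).2 hx
    have hv0 : W₁.valuation (algebraMap F L x) ≠ 0 :=
      (Valuation.ne_zero_iff _).2 ((_root_.map_ne_zero _).2 hx0)
    have h3 : 1 ≤ (W₁.valuation (algebraMap F L x))⁻¹ := (one_le_inv₀ (zero_lt_iff.2 hv0)).2 h2
    exact absurd h1 (not_lt.2 h3)
  · exact hsub x

end Comap

end Fermat.Agent.R38

end
end ZBR38_011_1
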