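/- GENERATED FILE (helper35, build-time optimisation, NOTES/ZB.md): verbatim concatenation of the modules
   Fermat.Agent.R38.TresEtale
   Fermat.Agent.R38.TresEtaleRepr
   Fermat.Agent.R38.TresEtalePrime
   Fermat.Agent.R38.TresEtaleFrac
   Fermat.Agent.R38.TresNodeAt
   Fermat.Agent.R38.TresMonoNorm
   Fermat.Agent.R38.TresMonoZero
   Fermat.Agent.R38.TresMonoPt
   Fermat.Agent.R38.TresMonoZeroK
   Fermat.Agent.R38.TresMonoZeroKum
   Do not edit; do not import together with these modules. -/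
import Mathlib
import Fermat.Agent.ZB.UNIP_007
import Fermat.Agent.ZB.R38_011
import Fermat.Agent.ZB.R38_009
import Fermat.Agent.ZB.RIB_002

/-! ### bundled: `Fermat.Agent.R38.TresEtale` -/
section ZBR38_012_0
/-
R38-TRES, FAC-LOC, pieces (ET1) + (ET2) (helper28): the ÉTALE LOCAL STRUCTURE of `R[z]`.

Abstract setting (Mathlib + `UNIP.ls_localSubring` only).  `R` a LOCAL integrally closed domain
with maximal ideal `𝔫` and fraction field `F` (the local ring `O_𝔫` of a chart of `X`), `L = F[z]`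
a finite extension (the function field of the cover), `P ∈ R[Z]` the minimal polynomial of `z`,
monic, and
      `P ≡ ∏ i, (Z - c i)  mod 𝔫`,   the `c i ∈ R` pairwise distinct mod `𝔫`
(for the cover of R38-TRES: `P ≡ Zᵖ - Z`, `c i = i`).  This is `Tres5eSplit F z P c`
(constructors `tres5e_split_of_natDegree`, `tres5e_split_of_irreducible`).

(ET1)  `tres5e_integral_mem` : `R` integrally closed, `L = F[z]`, `P'(z) ∈ R[z]ˣ`  ⇒  `R[z]` is the
       integral closure of `R` in `L`.   In the split situation: `Tres5eSplit.integral_mem`,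
       `Tres5eSplit.hBic` (shape of `UNIP.ls_isIntegral_mem_localSubring`), `.derivative_isUnit`,
       `.inter_base` (`R[z] ∩ F = R`), `.exists_aeval_lt`, `.eq_zero_of_aeval` (`R[z]` is free).
(ET2)  `tres5eMax R z a = (𝔫, z - a)`, `tres5eRes` the residue map `R[z] → R/𝔫`, `z ↦ a`:
       `tres5e_max_eq_ker`, `tres5e_max_isMaximal`, `tres5e_aeval_mem_max`, `tres5e_max_residue`,
       `tres5e_max_eq_iff`;  `Tres5eSplit.exists_eq_of_isMaximal` (the maximal ideals of `R[z]` are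
       the `(𝔫, z - c i)`), `.max_injective`, `.exists_mem_of_prime`, `.prod_mem`.
       LOCAL RINGS `O'_i = ls_localSubring (tres5eMax R z (c i)) ⊆ L`:
       `.unram`, `.loc_nonunit`   : `𝔪(O'_i) = 𝔫 O'_i`   (unramified);
       `.loc_residue`             : `O'_i = R + 𝔪(O'_i)`  (same residue field);
       `.loc_inter`               : `O'_i ∩ F = R`        (faithfully flat);
       `.loc_normal`, `.loc_isLocalRing`;
       `.val_center`, `.val_center_unique`, `.loc_le_val` : a valuation ring of `L` dominating `R`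
                                    has centre exactly one `(𝔫, z - c i)` and contains `O'_i`;
       `.deck_max`, `.loc_deck`   : `ρ ∈ Aut(L/F)` with `ρ z ≡ c j` mod `(𝔫, z - c i)` maps `O'_j`
                                    onto `O'_i`.
For `O : Subring F`: `tres5e_isFractionRing_subring`, `tres5e_isIntegrallyClosed_subring`,
`tres5e_isIntegral_mem_of_val`, `tres5e_isLocalRing_subring` produce the instances.
-/

set_option autoImplicit false
set_option linter.unusedSectionVars false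
set_option linter.unusedVariables false
set_option linter.style.haveILetI false

namespace Fermat.Agent.R38

open Polynomial IntermediateField Fermat.Agent.UNIP

section ET1

variable {R F L : Type*} [CommRing R] [IsDomain R] [Field F] [Field L]
  [Algebra R F] [IsFractionRing R F] [IsIntegrallyClosed R]
  [Algebra F L] [Algebra R L] [IsScalarTower R F L]

/-- the minimal polynomial over `F` of an integral element is the image of a monic polynomial
over `R` which is irreducible over `F` and kills it. -/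
theorem tres5e_minpoly_of_irreducible {z : L} {P : R[X]} (hPm : P.Monic)
    (hPz : aeval z P = 0) (hirr : Irreducible (P.map (algebraMap R F))) :
    minpoly F z = P.map (algebraMap R F) := by
  refine (minpoly.eq_of_irreducible_of_monic hirr ?_ (hPm.map _)).symm
  rw [aeval_map_algebraMap]; exact hPz

/-- the same from the degree: `deg P = [L : F]` and `L = F[z]`. -/
theorem tres5e_minpoly_of_natDegree {z : L} {P : R[X]} (hPm : P.Monic)
    (hPz : aeval z P = 0) (htop : Algebra.adjoin F ({z} : Set L) = ⊤)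
    (hdeg : P.natDegree = Module.finrank F L) :
    minpoly F z = P.map (algebraMap R F) := by
  have hzR : IsIntegral R z := ⟨P, hPm, hPz⟩
  have hzF : IsIntegral F z := hzR.tower_top
  have hroot : aeval z (P.map (algebraMap R F)) = 0 := by
    rw [aeval_map_algebraMap]; exact hPz
  have hdvd : minpoly F z ∣ P.map (algebraMap R F) := minpoly.dvd F z hroot
  have hfr : Module.finrank F L = (minpoly F z).natDegree := by
    have h1 := (PowerBasis.ofAdjoinEqTop hzF htop).finrank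
    rw [h1]; rfl
  have hd2 : (P.map (algebraMap R F)).natDegree = (minpoly F z).natDegree := by
    rw [hPm.natDegree_map, hdeg, hfr]
  exact (Polynomial.eq_of_monic_of_dvd_of_natDegree_le (minpoly.monic hzF) (hPm.map _) hdvd
    hd2.le).symm

/-- `minpoly R z = P` in the situation above. -/
theorem tres5e_minpoly_eq {z : L} {P : R[X]} (hPm : P.Monic) (hPz : aeval z P = 0)
    (hmin : minpoly F z = P.map (algebraMap R F)) : minpoly R z = P := by
  have hzR : IsIntegral R z := ⟨P, hPm, hPz⟩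
  have h1 := minpoly.isIntegrallyClosed_eq_field_fractions' F hzR
  rw [hmin] at h1
  exact (Polynomial.map_injective _ (IsFractionRing.injective R F) h1).symm

/-- elements of `R[z]` are integral over `R`. -/
theorem tres5e_isIntegral_of_mem {z : L} (hz : IsIntegral R z) {y : L}
    (hy : y ∈ Algebra.adjoin R ({z} : Set L)) : IsIntegral R y :=
  adjoin_le_integralClosure hz hy

/-- `L = F[z]` separable over `F` as soon as the derivative of the minimal polynomial does not
vanish at `z`. -/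
theorem tres5e_isSeparable {z : L} (hzF : IsIntegral F z)
    (htop : Algebra.adjoin F ({z} : Set L) = ⊤)
    (hd : aeval z (derivative (minpoly F z)) ≠ 0) : Algebra.IsSeparable F L := by
  have hsep : IsSeparable F z := by
    rw [IsSeparable, separable_iff_derivative_ne_zero (minpoly.irreducible hzF)]
    intro h0
    apply hd
    rw [h0, map_zero]
  have h1 : Algebra.IsSeparable F ↥F⟮z⟯ :=
    (IntermediateField.isSeparable_adjoin_simple_iff_isSeparable F L).mpr hsep
  have h2 : F⟮z⟯ = ⊤ := IntermediateField.adjoin_eq_top_of_algebra F _ htop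
  rw [h2] at h1
  exact AlgEquiv.Algebra.isSeparable (IntermediateField.topEquiv (F := F) (E := L))

/-- **(ET1)**  `R` an integrally closed domain with fraction field `F`, `L = F[z]` with `z`
integral over `R`, and `P'(z)` a unit of `R[z]` (`P` the minimal polynomial): then `R[z]` is the
integral closure of `R` in `L`. -/
theorem tres5e_integral_mem {z : L} (hz : IsIntegral R z)
    (htop : Algebra.adjoin F ({z} : Set L) = ⊤)
    (hu : ∃ t ∈ Algebra.adjoin R ({z} : Set L), aeval z (derivative (minpoly R z)) * t = 1)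
    {y : L} (hy : IsIntegral R y) : y ∈ Algebra.adjoin R ({z} : Set L) := by
  classical
  obtain ⟨t, ht, hdt⟩ := hu
  have hzF : IsIntegral F z := hz.tower_top
  set d : L := aeval z (derivative (minpoly R z)) with hd
  have hmin : minpoly F z = (minpoly R z).map (algebraMap R F) :=
    minpoly.isIntegrallyClosed_eq_field_fractions' F hz
  have hdF : aeval z (derivative (minpoly F z)) = d := by
    rw [hmin, derivative_map, aeval_map_algebraMap]
  have hd0 : d ≠ 0 := fun h0 => by rw [h0, zero_mul] at hdt; exact zero_ne_one hdt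
  haveI hsep : Algebra.IsSeparable F L := tres5e_isSeparable hzF htop (by rw [hdF]; exact hd0)
  set pb : PowerBasis F L := PowerBasis.ofAdjoinEqTop hzF htop with hpb
  have hgen : pb.gen = z := rfl
  haveI : Module.Finite F L := pb.finite
  -- the norms
  have hdR : IsIntegral R d := by
    rw [hd, aeval_def]
    exact tres5e_isIntegral_of_mem hz (by
      rw [← aeval_def]
      rw [Algebra.adjoin_singleton_eq_range_aeval]
      exact ⟨_, rfl⟩)
  have htR : IsIntegral R t := tres5e_isIntegral_of_mem hz ht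
  obtain ⟨a, ha⟩ := (isIntegrallyClosed_iff F).mp inferInstance
    (Algebra.isIntegral_norm F hdR)
  obtain ⟨b, hb⟩ := (isIntegrallyClosed_iff F).mp inferInstance
    (Algebra.isIntegral_norm F htR)
  have hab : a * b = 1 := by
    apply IsFractionRing.injective R F
    rw [map_mul, ha, hb, ← map_mul, hdt, map_one, map_one]
  -- the discriminant
  have hdisc : Algebra.discr F pb.basis =
      algebraMap R F ((-1) ^ (Module.finrank F L * (Module.finrank F L - 1) / 2) * a) := by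
    rw [Algebra.discr_powerBasis_eq_norm, hgen, hdF, map_mul, map_pow, map_neg, map_one, ha]
  have hmem := Algebra.discr_mul_isIntegral_mem_adjoin (K := F) (R := R) (B := pb)
    (by rw [hgen]; exact hz) hy
  rw [hgen, hdisc, algebraMap_smul] at hmem
  have h2 := Subalgebra.smul_mem _ hmem
    ((-1) ^ (Module.finrank F L * (Module.finrank F L - 1) / 2) * b)
  rw [smul_smul] at h2
  have h3 : ((-1 : R) ^ (Module.finrank F L * (Module.finrank F L - 1) / 2) * b *
      ((-1) ^ (Module.finrank F L * (Module.finrank F L - 1) / 2) * a)) = 1 := by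
    have : ((-1 : R) ^ (Module.finrank F L * (Module.finrank F L - 1) / 2)) *
        ((-1 : R) ^ (Module.finrank F L * (Module.finrank F L - 1) / 2)) = 1 := by
      rw [← mul_pow]; simp
    calc _ = ((-1 : R) ^ (Module.finrank F L * (Module.finrank F L - 1) / 2) *
        (-1 : R) ^ (Module.finrank F L * (Module.finrank F L - 1) / 2)) * (a * b) := by ring
      _ = 1 := by rw [this, hab, mul_one]
  rw [h3, one_smul] at h2
  exact h2

end ET1

section ET2

theorem tres5e_algebraMap_injective (R F L : Type*) [CommRing R] [Field F] [Field L]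
    [Algebra R F] [IsFractionRing R F] [Algebra F L] [Algebra R L] [IsScalarTower R F L] :
    Function.Injective (algebraMap R L) := by
  rw [IsScalarTower.algebraMap_eq R F L]
  exact (algebraMap F L).injective.comp (IsFractionRing.injective R F)

theorem tres5e_faithfulSMul (R F L : Type*) [CommRing R] [Field F] [Field L]
    [Algebra R F] [IsFractionRing R F] [Algebra F L] [Algebra R L] [IsScalarTower R F L] :
    FaithfulSMul R L :=
  (faithfulSMul_iff_algebraMap_injective R L).mpr (tres5e_algebraMap_injective R F L)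

theorem tres5e_torsionFree (R F L : Type*) [CommRing R] [IsDomain R] [Field F] [Field L]
    [Algebra R F] [IsFractionRing R F] [Algebra F L] [Algebra R L] [IsScalarTower R F L] :
    Module.IsTorsionFree R L := by
  haveI := tres5e_faithfulSMul R F L
  infer_instance

variable {R L : Type*} (F : Type*) [CommRing R] [IsDomain R] [Field F] [Field L]
  [Algebra R F] [IsFractionRing R F] [IsIntegrallyClosed R] [IsLocalRing R]
  [Algebra F L] [Algebra R L] [IsScalarTower R F L]

/-- `z` as an element of `R[z]`. -/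
def tres5eGen (R : Type*) {L : Type*} [CommRing R] [Field L] [Algebra R L] (z : L) :
    ↥(Algebra.adjoin R ({z} : Set L)) :=
  ⟨z, Algebra.self_mem_adjoin_singleton R z⟩

@[simp] theorem tres5eGen_coe (R : Type*) {L : Type*} [CommRing R] [Field L] [Algebra R L]
    (z : L) : ((tres5eGen R z : ↥(Algebra.adjoin R ({z} : Set L))) : L) = z := rfl

/-- the ideal `(𝔫, z - a)` of `R[z]`. -/
def tres5eMax (R : Type*) {L : Type*} [CommRing R] [IsLocalRing R] [Field L] [Algebra R L]
    (z : L) (a : R) : Ideal ↥(Algebra.adjoin R ({z} : Set L)) :=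
  (IsLocalRing.maximalIdeal R).map (algebraMap R ↥(Algebra.adjoin R ({z} : Set L))) ⊔
    Ideal.span {tres5eGen R z - algebraMap R _ a}

/-- every element of `R[z]` is a polynomial in `z`. -/
theorem tres5e_coe_aeval (z : L) (q : R[X]) :
    ((aeval (tres5eGen R z) q : ↥(Algebra.adjoin R ({z} : Set L))) : L) = aeval z q :=
  aeval_subalgebra_coe q _ (tres5eGen R z)

theorem tres5e_exists_aeval (z : L) (b : ↥(Algebra.adjoin R ({z} : Set L))) :
    ∃ q : R[X], aeval (tres5eGen R z) q = b := by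
  have hb : (b : L) ∈ (aeval z : R[X] →ₐ[R] L).range := by
    rw [← Algebra.adjoin_singleton_eq_range_aeval]; exact b.2
  obtain ⟨q, hq⟩ := hb
  refine ⟨q, Subtype.ext ?_⟩
  rw [tres5e_coe_aeval]
  exact hq

/-- polynomials with coefficients in `I` take values in `I · R[z]`. -/
theorem tres5e_aeval_mem_map {A : Type*} [CommRing A] [Algebra R A] (I : Ideal R) (b : A)
    (q : R[X]) (hq : ∀ n, q.coeff n ∈ I) : aeval b q ∈ I.map (algebraMap R A) := by
  rw [aeval_eq_sum_range]
  refine Ideal.sum_mem _ fun n _ => ?_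
  rw [Algebra.smul_def]
  exact Ideal.mul_mem_right _ _ (Ideal.mem_map_of_mem _ (hq n))

include F in
/-- the residue homomorphism `R[z] → R/𝔫`, `z ↦ a`, at a root `a` of `P` mod `𝔫`. -/
noncomputable def tres5eRes {z : L} (hz : IsIntegral R z) (a : R)
    (ha : (minpoly R z).eval a ∈ IsLocalRing.maximalIdeal R) :
    ↥(Algebra.adjoin R ({z} : Set L)) →+* R ⧸ IsLocalRing.maximalIdeal R :=
  letI := tres5e_torsionFree R F L
  (AdjoinRoot.lift (Ideal.Quotient.mk (IsLocalRing.maximalIdeal R))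
    (Ideal.Quotient.mk (IsLocalRing.maximalIdeal R) a) (by
      rw [eval₂_at_apply]
      exact Ideal.Quotient.eq_zero_iff_mem.mpr ha)).comp
    (minpoly.equivAdjoin hz).symm.toAlgHom.toRingHom


theorem tres5eRes_aeval {z : L} (hz : IsIntegral R z) (a : R)
    (ha : (minpoly R z).eval a ∈ IsLocalRing.maximalIdeal R) (q : R[X]) :
    tres5eRes F hz a ha (aeval (tres5eGen R z) q) =
      Ideal.Quotient.mk (IsLocalRing.maximalIdeal R) (q.eval a) := by
  letI := tres5e_torsionFree R F L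
  have h1 : (minpoly.equivAdjoin hz).symm (aeval (tres5eGen R z) q) =
      AdjoinRoot.mk (minpoly R z) q := by
    rw [AlgEquiv.symm_apply_eq]
    have h2 : (minpoly.equivAdjoin hz) (AdjoinRoot.mk (minpoly R z) q) =
        AdjoinRoot.Minpoly.toAdjoin R z (AdjoinRoot.mk (minpoly R z) q) := by
      rw [← minpoly.equivAdjoin_toAlgHom hz]; rfl
    rw [h2]
    apply Subtype.ext
    rw [tres5e_coe_aeval]
    have h3 : AdjoinRoot.mk (minpoly R z) q = aeval (AdjoinRoot.root (minpoly R z)) q := by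
      rw [AdjoinRoot.aeval_eq]
    rw [h3, ← aeval_algHom_apply, aeval_subalgebra_coe, ← AdjoinRoot.mk_X,
      AdjoinRoot.Minpoly.coe_toAdjoin_mk_X]
  unfold tres5eRes
  rw [RingHom.comp_apply]
  have h4 : ((minpoly.equivAdjoin hz).symm.toAlgHom.toRingHom) (aeval (tres5eGen R z) q) =
      (minpoly.equivAdjoin hz).symm (aeval (tres5eGen R z) q) := rfl
  rw [h4, h1, AdjoinRoot.lift_mk, eval₂_at_apply]


theorem tres5eRes_algebraMap {z : L} (hz : IsIntegral R z) (a : R)
    (ha : (minpoly R z).eval a ∈ IsLocalRing.maximalIdeal R) (r : R) :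
    tres5eRes F hz a ha (algebraMap R _ r) =
      Ideal.Quotient.mk (IsLocalRing.maximalIdeal R) r := by
  have h := tres5eRes_aeval F hz a ha (C r)
  rwa [aeval_C, eval_C] at h

theorem tres5eRes_gen {z : L} (hz : IsIntegral R z) (a : R)
    (ha : (minpoly R z).eval a ∈ IsLocalRing.maximalIdeal R) :
    tres5eRes F hz a ha (tres5eGen R z) =
      Ideal.Quotient.mk (IsLocalRing.maximalIdeal R) a := by
  have h := tres5eRes_aeval F hz a ha X
  rwa [aeval_X, eval_X] at h

theorem tres5eRes_surjective {z : L} (hz : IsIntegral R z) (a : R)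
    (ha : (minpoly R z).eval a ∈ IsLocalRing.maximalIdeal R) :
    Function.Surjective (tres5eRes F hz a ha) := by
  intro x
  obtain ⟨r, rfl⟩ := Ideal.Quotient.mk_surjective x
  exact ⟨algebraMap R _ r, tres5eRes_algebraMap F hz a ha r⟩

/-- `(𝔫, z - a)` is the kernel of the residue homomorphism. -/
theorem tres5e_max_eq_ker {z : L} (hz : IsIntegral R z) (a : R)
    (ha : (minpoly R z).eval a ∈ IsLocalRing.maximalIdeal R) :
    tres5eMax R z a = RingHom.ker (tres5eRes F hz a ha) := by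
  apply le_antisymm
  · rw [tres5eMax, sup_le_iff]
    constructor
    · rw [Ideal.map_le_iff_le_comap]
      intro r hr
      rw [Ideal.mem_comap, RingHom.mem_ker, tres5eRes_algebraMap]
      exact Ideal.Quotient.eq_zero_iff_mem.mpr hr
    · rw [Ideal.span_le, Set.singleton_subset_iff, SetLike.mem_coe, RingHom.mem_ker, map_sub,
        tres5eRes_gen, tres5eRes_algebraMap, sub_self]
  · intro b hb
    obtain ⟨q, rfl⟩ := tres5e_exists_aeval z b
    rw [RingHom.mem_ker, tres5eRes_aeval, Ideal.Quotient.eq_zero_iff_mem] at hb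
    obtain ⟨g, hg⟩ := X_sub_C_dvd_sub_C_eval (a := a) (p := q)
    have hq : q = C (eval a q) + (X - C a) * g := by rw [← hg]; ring
    rw [hq, map_add, map_mul, map_sub, aeval_X, aeval_C, aeval_C]
    refine Ideal.add_mem _ (Ideal.mem_sup_left (Ideal.mem_map_of_mem _ hb))
      (Ideal.mem_sup_right (Ideal.mul_mem_right _ _ (Ideal.subset_span rfl)))

include F in
/-- `(𝔫, z - a)` is a maximal ideal of `R[z]`. -/
theorem tres5e_max_isMaximal {z : L} (hz : IsIntegral R z) (a : R)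
    (ha : (minpoly R z).eval a ∈ IsLocalRing.maximalIdeal R) :
    (tres5eMax R z a).IsMaximal := by
  rw [tres5e_max_eq_ker F hz a ha]
  letI : Field (R ⧸ IsLocalRing.maximalIdeal R) := Ideal.Quotient.field _
  exact RingHom.ker_isMaximal_of_surjective _ (tres5eRes_surjective F hz a ha)

include F in
/-- membership in `(𝔫, z - a)` of a polynomial in `z`. -/
theorem tres5e_aeval_mem_max {z : L} (hz : IsIntegral R z) (a : R)
    (ha : (minpoly R z).eval a ∈ IsLocalRing.maximalIdeal R) (q : R[X]) :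
    aeval (tres5eGen R z) q ∈ tres5eMax R z a ↔ q.eval a ∈ IsLocalRing.maximalIdeal R := by
  rw [tres5e_max_eq_ker F hz a ha, RingHom.mem_ker, tres5eRes_aeval,
    Ideal.Quotient.eq_zero_iff_mem]

include F in
/-- constants in `(𝔫, z - a)`. -/
theorem tres5e_algebraMap_mem_max {z : L} (hz : IsIntegral R z) (a : R)
    (ha : (minpoly R z).eval a ∈ IsLocalRing.maximalIdeal R) (r : R) :
    algebraMap R ↥(Algebra.adjoin R ({z} : Set L)) r ∈ tres5eMax R z a ↔
      r ∈ IsLocalRing.maximalIdeal R := by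
  have h := tres5e_aeval_mem_max F hz a ha (C r)
  rwa [aeval_C, eval_C] at h

/-- residue field: every element of `R[z]` is congruent to a constant mod `(𝔫, z - a)`. -/
theorem tres5e_max_residue (z : L) (a : R) (b : ↥(Algebra.adjoin R ({z} : Set L))) :
    ∃ r : R, b - algebraMap R _ r ∈ tres5eMax R z a := by
  obtain ⟨q, rfl⟩ := tres5e_exists_aeval z b
  refine ⟨q.eval a, ?_⟩
  obtain ⟨g, hg⟩ := X_sub_C_dvd_sub_C_eval (a := a) (p := q)
  have : aeval (tres5eGen R z) q - algebraMap R _ (q.eval a) =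
      (tres5eGen R z - algebraMap R _ a) * aeval (tres5eGen R z) g := by
    rw [← aeval_C (tres5eGen R z), ← map_sub, hg, map_mul, map_sub, aeval_X, aeval_C]
  rw [this]
  exact Ideal.mem_sup_right (Ideal.mul_mem_right _ _ (Ideal.subset_span rfl))

include F in
/-- `(𝔫, z - a) = (𝔫, z - a')` iff `a ≡ a'` mod `𝔫`. -/
theorem tres5e_max_eq_iff {z : L} (hz : IsIntegral R z) (a a' : R)
    (ha : (minpoly R z).eval a ∈ IsLocalRing.maximalIdeal R)
    (ha' : (minpoly R z).eval a' ∈ IsLocalRing.maximalIdeal R) :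
    tres5eMax R z a = tres5eMax R z a' ↔ a - a' ∈ IsLocalRing.maximalIdeal R := by
  constructor
  · intro h
    have h1 : aeval (tres5eGen R z) (X - C a') ∈ tres5eMax R z a := by
      rw [h, map_sub, aeval_X, aeval_C]
      exact Ideal.mem_sup_right (Ideal.subset_span rfl)
    rw [tres5e_aeval_mem_max F hz a ha, eval_sub, eval_X, eval_C] at h1
    exact h1
  · intro h
    have hle : tres5eMax R z a' ≤ tres5eMax R z a := by
      rw [tres5eMax, sup_le_iff]
      refine ⟨le_sup_left, ?_⟩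
      rw [Ideal.span_le, Set.singleton_subset_iff, SetLike.mem_coe]
      have h1 : aeval (tres5eGen R z) (X - C a') ∈ tres5eMax R z a := by
        rw [tres5e_aeval_mem_max F hz a ha, eval_sub, eval_X, eval_C]
        exact h
      rwa [map_sub, aeval_X, aeval_C] at h1
    exact ((tres5e_max_isMaximal F hz a' ha').eq_of_le
      (tres5e_max_isMaximal F hz a ha).ne_top hle).symm


/-- values of polynomials with coefficients in `I`. -/
theorem tres5e_eval_mem (I : Ideal R) (a : R) (q : R[X]) (hq : ∀ n, q.coeff n ∈ I) :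
    q.eval a ∈ I := by
  rw [eval_eq_sum_range]
  exact Ideal.sum_mem _ fun n _ => Ideal.mul_mem_right _ _ (hq n)

variable {ι : Type*} [Fintype ι]

/-- **The split situation**: `L = F[z]`, `P ∈ R[Z]` the minimal polynomial of `z`, and
`P ≡ ∏ (Z - c i)` mod `𝔫` with the `c i` pairwise distinct mod `𝔫`. -/
structure Tres5eSplit (z : L) (P : R[X]) (c : ι → R) : Prop where
  monic : P.Monic
  root : aeval z P = 0
  minpoly_eq : minpoly F z = P.map (algebraMap R F)
  top : Algebra.adjoin F ({z} : Set L) = ⊤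
  sep : ∀ i j, i ≠ j → IsUnit (c i - c j)
  red : ∀ n, (P - ∏ i, (X - C (c i))).coeff n ∈ IsLocalRing.maximalIdeal R

namespace Tres5eSplit

variable {F} {z : L} {P : R[X]} {c : ι → R}

theorem isIntegral (H : Tres5eSplit F z P c) : IsIntegral R z := ⟨P, H.monic, H.root⟩

theorem minpolyR (H : Tres5eSplit F z P c) : minpoly R z = P := by
  have h1 := minpoly.isIntegrallyClosed_eq_field_fractions' F H.isIntegral
  rw [H.minpoly_eq] at h1
  exact (Polynomial.map_injective _ (IsFractionRing.injective R F) h1).symm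

theorem eval_prod_root (_H : Tres5eSplit F z P c) (i : ι) :
    (∏ j, (X - C (c j))).eval (c i) = 0 := by
  rw [Polynomial.eval_prod]
  exact Finset.prod_eq_zero (Finset.mem_univ i) (by simp)

theorem eval_mem (H : Tres5eSplit F z P c) (i : ι) :
    (minpoly R z).eval (c i) ∈ IsLocalRing.maximalIdeal R := by
  rw [H.minpolyR]
  have h1 := tres5e_eval_mem (IsLocalRing.maximalIdeal R) (c i) _ H.red
  rwa [eval_sub, H.eval_prod_root i, sub_zero] at h1

theorem isMaximal (H : Tres5eSplit F z P c) (i : ι) : (tres5eMax R z (c i)).IsMaximal :=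
  tres5e_max_isMaximal F H.isIntegral (c i) (H.eval_mem i)

theorem isPrime (H : Tres5eSplit F z P c) (i : ι) : (tres5eMax R z (c i)).IsPrime :=
  (H.isMaximal i).isPrime

theorem aeval_gen (H : Tres5eSplit F z P c) : aeval (tres5eGen R z) P = 0 := by
  apply Subtype.ext
  rw [tres5e_coe_aeval]
  exact H.root

/-- `∏ (z - c i) ∈ 𝔫 R[z]`. -/
theorem prod_mem (H : Tres5eSplit F z P c) :
    ∏ i, (tres5eGen R z - algebraMap R _ (c i)) ∈
      (IsLocalRing.maximalIdeal R).map (algebraMap R ↥(Algebra.adjoin R ({z} : Set L))) := by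
  have h1 := tres5e_aeval_mem_map (IsLocalRing.maximalIdeal R) (tres5eGen R z) _ H.red
  rw [map_sub, H.aeval_gen, zero_sub, map_prod] at h1
  have h2 := Ideal.neg_mem_iff _ |>.mp h1
  simpa using h2

theorem max_injective (H : Tres5eSplit F z P c) {i j : ι}
    (h : tres5eMax R z (c i) = tres5eMax R z (c j)) : i = j := by
  by_contra hij
  have h1 := (tres5e_max_eq_iff F H.isIntegral (c i) (c j) (H.eval_mem i) (H.eval_mem j)).mp h
  exact (IsLocalRing.mem_maximalIdeal _).mp h1 (H.sep i j hij)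

/-- a prime of `R[z]` containing `𝔫` contains some `z - c i`. -/
theorem exists_mem_of_prime (H : Tres5eSplit F z P c)
    (𝔮 : Ideal ↥(Algebra.adjoin R ({z} : Set L))) [h𝔮 : 𝔮.IsPrime]
    (hle : (IsLocalRing.maximalIdeal R).map (algebraMap R _) ≤ 𝔮) :
    ∃ i, tres5eMax R z (c i) ≤ 𝔮 := by
  have h1 := hle H.prod_mem
  obtain ⟨i, -, hi⟩ := (Ideal.IsPrime.prod_mem_iff).mp h1
  refine ⟨i, ?_⟩
  rw [tres5eMax, sup_le_iff]
  exact ⟨hle, by rw [Ideal.span_le, Set.singleton_subset_iff]; exact hi⟩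

/-- **(ET2)** the maximal ideals of `R[z]` are the `(𝔫, z - c i)`. -/
theorem exists_eq_of_isMaximal (H : Tres5eSplit F z P c)
    (𝔐 : Ideal ↥(Algebra.adjoin R ({z} : Set L))) [h𝔐 : 𝔐.IsMaximal] :
    ∃ i, 𝔐 = tres5eMax R z (c i) := by
  haveI : Algebra.IsIntegral R ↥(Algebra.adjoin R ({z} : Set L)) :=
    Algebra.IsIntegral.adjoin (by
      intro s hs
      rw [Set.mem_singleton_iff] at hs
      rw [hs]; exact H.isIntegral)
  have h1 : (𝔐.comap (algebraMap R ↥(Algebra.adjoin R ({z} : Set L)))).IsMaximal :=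
    Ideal.isMaximal_comap_of_isIntegral_of_isMaximal 𝔐
  have h2 := IsLocalRing.eq_maximalIdeal h1
  have hle : (IsLocalRing.maximalIdeal R).map (algebraMap R _) ≤ 𝔐 := by
    rw [Ideal.map_le_iff_le_comap, h2]
  obtain ⟨i, hi⟩ := H.exists_mem_of_prime 𝔐 hle
  exact ⟨i, ((H.isMaximal i).eq_of_le h𝔐.ne_top hi).symm⟩


/-- `P'(c i)` is a unit. -/
theorem eval_derivative_isUnit (H : Tres5eSplit F z P c) (i : ι) :
    IsUnit ((derivative P).eval (c i)) := by
  classical
  have h1 : P = (P - ∏ j, (X - C (c j))) + ∏ j, (X - C (c j)) := by ring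
  have h2 : (derivative (P - ∏ j, (X - C (c j)))).eval (c i) ∈ IsLocalRing.maximalIdeal R := by
    refine tres5e_eval_mem _ _ _ fun n => ?_
    rw [coeff_derivative]
    exact Ideal.mul_mem_right _ _ (H.red (n + 1))
  have h3 : (derivative (∏ j, (X - C (c j)))).eval (c i) =
      ∏ j ∈ Finset.univ.erase i, (c i - c j) := by
    rw [derivative_prod_finset, eval_finsetSum]
    rw [Finset.sum_eq_single i]
    · rw [derivative_sub, derivative_X, derivative_C, sub_zero, mul_one, Polynomial.eval_prod]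
      refine Finset.prod_congr rfl fun j _ => ?_
      rw [eval_sub, eval_X, eval_C]
    · intro k _ hki
      rw [eval_mul, Polynomial.eval_prod]
      rw [Finset.prod_eq_zero (Finset.mem_erase.mpr ⟨Ne.symm hki, Finset.mem_univ i⟩) (by simp),
        zero_mul]
    · intro h; exact absurd (Finset.mem_univ i) h
  have h4 : IsUnit (∏ j ∈ Finset.univ.erase i, (c i - c j)) := by
    refine Finset.prod_induction _ IsUnit (fun a b ha hb => ha.mul hb) isUnit_one fun j hj => ?_
    exact H.sep i j (Finset.ne_of_mem_erase hj).symm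
  rw [h1, derivative_add, eval_add, h3]
  by_contra hnu
  have h5 := (IsLocalRing.mem_maximalIdeal _).mpr hnu
  have h6 := (Ideal.add_mem_iff_right _ h2).mp h5
  exact (IsLocalRing.mem_maximalIdeal _).mp h6 h4

/-- `P'(z)` is a unit of `R[z]`. -/
theorem derivative_isUnit (H : Tres5eSplit F z P c) :
    IsUnit (aeval (tres5eGen R z) (derivative P)) := by
  by_contra hnu
  obtain ⟨𝔐, h𝔐, hmem⟩ := exists_max_ideal_of_mem_nonunits hnu
  obtain ⟨i, rfl⟩ := H.exists_eq_of_isMaximal 𝔐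
  rw [tres5e_aeval_mem_max F H.isIntegral (c i) (H.eval_mem i)] at hmem
  exact (IsLocalRing.mem_maximalIdeal _).mp hmem (H.eval_derivative_isUnit i)


/-- **(ET1) in the split situation**: `R[z]` is the integral closure of `R` in `L`. -/
theorem integral_mem (H : Tres5eSplit F z P c) {y : L} (hy : IsIntegral R y) :
    y ∈ Algebra.adjoin R ({z} : Set L) := by
  refine tres5e_integral_mem (F := F) H.isIntegral H.top ?_ hy
  obtain ⟨u, hu⟩ := H.derivative_isUnit
  set t : ↥(Algebra.adjoin R ({z} : Set L)) := ↑u⁻¹ with ht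
  refine ⟨(t : L), t.2, ?_⟩
  have h1 : (aeval (tres5eGen R z) (derivative P)) * t = 1 := by
    rw [← hu, ht]; exact u.mul_inv
  have h2 := congrArg (Subtype.val) h1
  rw [H.minpolyR]
  rw [← tres5e_coe_aeval]
  exact h2

theorem algebraIsIntegral (H : Tres5eSplit F z P c) :
    Algebra.IsIntegral R ↥(Algebra.adjoin R ({z} : Set L)) :=
  Algebra.IsIntegral.adjoin (by
    intro s hs
    rw [Set.mem_singleton_iff] at hs
    rw [hs]; exact H.isIntegral)

/-- `R[z]` is integrally closed in `L` (the hypothesis `hBic` of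
`UNIP.ls_isIntegral_mem_localSubring`). -/
theorem hBic (H : Tres5eSplit F z P c) (y : L)
    (hy : IsIntegral ↥(Algebra.adjoin R ({z} : Set L)) y) :
    y ∈ (algebraMap ↥(Algebra.adjoin R ({z} : Set L)) L).range := by
  haveI := H.algebraIsIntegral
  have h1 : IsIntegral R y := isIntegral_trans (A := ↥(Algebra.adjoin R ({z} : Set L))) y hy
  exact ⟨⟨y, H.integral_mem h1⟩, rfl⟩

/-- `R[z] ∩ F = R`. -/
theorem inter_base (H : Tres5eSplit F z P c) (x : F)
    (hx : algebraMap F L x ∈ Algebra.adjoin R ({z} : Set L)) :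
    ∃ r : R, algebraMap R F r = x := by
  have h1 : IsIntegral R (algebraMap F L x) := tres5e_isIntegral_of_mem H.isIntegral hx
  have h2 : IsIntegral R x := (isIntegral_algebraMap_iff (algebraMap F L).injective).mp h1
  exact (isIntegrallyClosed_iff F).mp inferInstance h2


/-- elements of `R[z]` are polynomials of degree `< deg P` in `z`. -/
theorem exists_aeval_lt (H : Tres5eSplit F z P c) (b : ↥(Algebra.adjoin R ({z} : Set L))) :
    ∃ q : R[X], q.degree < P.degree ∧ aeval (tres5eGen R z) q = b := by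
  haveI : Nontrivial R := inferInstance
  obtain ⟨q, rfl⟩ := tres5e_exists_aeval z b
  refine ⟨q %ₘ P, degree_modByMonic_lt q H.monic, ?_⟩
  exact aeval_modByMonic_eq_self_of_root H.aeval_gen

/-- a polynomial of degree `< deg P` vanishing at `z` is zero. -/
theorem eq_zero_of_aeval (H : Tres5eSplit F z P c) (q : R[X]) (hdeg : q.degree < P.degree)
    (h0 : aeval z q = 0) : q = 0 := by
  haveI := tres5e_torsionFree R F L
  have h1 := minpoly.isIntegrallyClosed_dvd H.isIntegral h0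
  rw [H.minpolyR] at h1
  exact Polynomial.eq_zero_of_dvd_of_degree_lt h1 hdeg

/-- **unramifiedness**: `(𝔫, z - c i)` and `𝔫 R[z]` agree up to a unit at `(𝔫, z - c i)`. -/
theorem unram (H : Tres5eSplit F z P c) (i : ι) {b : ↥(Algebra.adjoin R ({z} : Set L))}
    (hb : b ∈ tres5eMax R z (c i)) :
    ∃ u, u ∉ tres5eMax R z (c i) ∧
      u * b ∈ (IsLocalRing.maximalIdeal R).map
        (algebraMap R ↥(Algebra.adjoin R ({z} : Set L))) := by
  classical
  haveI := H.isPrime i
  set u : ↥(Algebra.adjoin R ({z} : Set L)) :=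
    ∏ j ∈ Finset.univ.erase i, (tres5eGen R z - algebraMap R _ (c j)) with hu
  have hu𝔐 : u ∉ tres5eMax R z (c i) := by
    intro h
    obtain ⟨j, hj, hmem⟩ := (Ideal.IsPrime.prod_mem_iff).mp h
    have h1 : aeval (tres5eGen R z) (X - C (c j)) ∈ tres5eMax R z (c i) := by
      rw [map_sub, aeval_X, aeval_C]; exact hmem
    rw [tres5e_aeval_mem_max F H.isIntegral (c i) (H.eval_mem i), eval_sub, eval_X, eval_C] at h1
    exact (IsLocalRing.mem_maximalIdeal _).mp h1 (H.sep i j (Finset.ne_of_mem_erase hj).symm)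
  have hprod : u * (tres5eGen R z - algebraMap R _ (c i)) ∈
      (IsLocalRing.maximalIdeal R).map (algebraMap R ↥(Algebra.adjoin R ({z} : Set L))) := by
    have := H.prod_mem
    rw [← Finset.mul_prod_erase _ _ (Finset.mem_univ i)] at this
    rw [hu, mul_comm]; exact this
  refine ⟨u, hu𝔐, ?_⟩
  rw [tres5eMax] at hb
  obtain ⟨n, hn, t, ht, rfl⟩ := Submodule.mem_sup.mp hb
  obtain ⟨t', rfl⟩ := Ideal.mem_span_singleton'.mp ht
  rw [mul_add]
  refine Ideal.add_mem _ (Ideal.mul_mem_left _ _ hn) ?_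
  have : u * (t' * (tres5eGen R z - algebraMap R _ (c i))) =
      t' * (u * (tres5eGen R z - algebraMap R _ (c i))) := by ring
  rw [this]
  exact Ideal.mul_mem_left _ _ hprod

/-- `𝔫 R[z] ⊆ (𝔫, z - a)`. -/
theorem _root_.Fermat.Agent.R38.tres5e_map_le_max (z : L) (a : R) :
    (IsLocalRing.maximalIdeal R).map (algebraMap R ↥(Algebra.adjoin R ({z} : Set L))) ≤
      tres5eMax R z a := le_sup_left

/-- **the local rings of `R[z]` dominate `R` with `O' ∩ F = R`** (faithful flatness). -/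
theorem loc_inter (H : Tres5eSplit F z P c) (i : ι) [(tres5eMax R z (c i)).IsPrime] (x : F)
    (hx : algebraMap F L x ∈ ls_localSubring (F := L) (tres5eMax R z (c i))) :
    ∃ r : R, algebraMap R F r = x := by
  obtain ⟨b, s, hs, hbs⟩ := hx
  obtain ⟨B, hBdeg, rfl⟩ := H.exists_aeval_lt b
  obtain ⟨S, hSdeg, rfl⟩ := H.exists_aeval_lt s
  obtain ⟨r₁, r₂, hr₂, rfl⟩ := IsFractionRing.div_surjective (A := R) x
  have hr₂0 : algebraMap R F r₂ ≠ 0 :=
    IsFractionRing.to_map_ne_zero_of_mem_nonZeroDivisors hr₂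
  have hr₂L : algebraMap R L r₂ ≠ 0 := by
    rw [IsScalarTower.algebraMap_eq R F L, RingHom.comp_apply]
    exact (map_ne_zero (algebraMap F L)).mpr hr₂0
  have hbs' : aeval z S * algebraMap F L (algebraMap R F r₁ / algebraMap R F r₂) = aeval z B := by
    have h1 : algebraMap ↥(Algebra.adjoin R ({z} : Set L)) L (aeval (tres5eGen R z) S) =
        aeval z S := tres5e_coe_aeval z S
    have h2 : algebraMap ↥(Algebra.adjoin R ({z} : Set L)) L (aeval (tres5eGen R z) B) =
        aeval z B := tres5e_coe_aeval z B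
    rw [← h1, ← h2]; exact hbs
  have hQ : aeval z (C r₁ * S - C r₂ * B) = 0 := by
    rw [map_sub, map_mul, map_mul, aeval_C, aeval_C, ← hbs', map_div₀,
      ← IsScalarTower.algebraMap_apply R F L, ← IsScalarTower.algebraMap_apply R F L]
    field_simp
    ring
  have hQdeg : (C r₁ * S - C r₂ * B).degree < P.degree := by
    refine lt_of_le_of_lt (degree_sub_le _ _) (max_lt ?_ ?_)
    · exact lt_of_le_of_lt (by rw [C_mul']; exact degree_smul_le _ _) hSdeg
    · exact lt_of_le_of_lt (by rw [C_mul']; exact degree_smul_le _ _) hBdeg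
  have hQ0 := H.eq_zero_of_aeval _ hQdeg hQ
  have hcoeff : ∀ k, r₁ * S.coeff k = r₂ * B.coeff k := by
    intro k
    have := congrArg (fun q => q.coeff k) hQ0
    simp only [coeff_sub, coeff_C_mul, coeff_zero] at this
    exact sub_eq_zero.mp this
  by_cases hall : ∀ k, S.coeff k ∈ IsLocalRing.maximalIdeal R
  · exact absurd (tres5e_map_le_max z (c i)
      (tres5e_aeval_mem_map (IsLocalRing.maximalIdeal R) (tres5eGen R z) S hall)) hs
  · push Not at hall
    obtain ⟨k, hk⟩ := hall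
    have hunit : IsUnit (S.coeff k) := by
      by_contra h; exact hk ((IsLocalRing.mem_maximalIdeal _).mpr h)
    obtain ⟨v, hv⟩ := hunit
    refine ⟨↑v⁻¹ * B.coeff k, ?_⟩
    have h3 : r₁ = r₂ * (↑v⁻¹ * B.coeff k) := by
      have h4 := hcoeff k
      rw [← hv] at h4
      calc r₁ = r₁ * (↑v * ↑v⁻¹) := by rw [v.mul_inv, mul_one]
        _ = (r₁ * ↑v) * ↑v⁻¹ := by ring
        _ = r₂ * (↑v⁻¹ * B.coeff k) := by rw [h4]; ring
    rw [h3, map_mul (algebraMap R F) r₂, mul_div_cancel_left₀ _ hr₂0]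


/-- the maximal ideal of the local ring at `(𝔫, z - c i)` is generated by `𝔫`:
`x = b / s` with `b ∈ (𝔫, z - c i)` can be written `x = n / s'` with `n ∈ 𝔫 R[z]`. -/
theorem loc_nonunit (H : Tres5eSplit F z P c) (i : ι) {x : L}
    {b s : ↥(Algebra.adjoin R ({z} : Set L))} (hb : b ∈ tres5eMax R z (c i))
    (hs : s ∉ tres5eMax R z (c i)) (h : (s : L) * x = b) :
    ∃ n s' : ↥(Algebra.adjoin R ({z} : Set L)),
      n ∈ (IsLocalRing.maximalIdeal R).map
        (algebraMap R ↥(Algebra.adjoin R ({z} : Set L))) ∧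
      s' ∉ tres5eMax R z (c i) ∧ (s' : L) * x = n := by
  haveI := H.isPrime i
  obtain ⟨u, hu, hub⟩ := H.unram i hb
  refine ⟨u * b, u * s, hub, fun hmem => ?_, ?_⟩
  · rcases (H.isPrime i).mem_or_mem hmem with h1 | h1
    · exact hu h1
    · exact hs h1
  · push_cast
    rw [mul_assoc, h]

/-- residue field of the local ring at `(𝔫, z - c i)`: every element is congruent to a
constant of `R`. -/
theorem loc_residue (H : Tres5eSplit F z P c) (i : ι) [(tres5eMax R z (c i)).IsPrime] {x : L}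
    (hx : x ∈ ls_localSubring (F := L) (tres5eMax R z (c i))) :
    ∃ (r : R) (b s : ↥(Algebra.adjoin R ({z} : Set L))), b ∈ tres5eMax R z (c i) ∧
      s ∉ tres5eMax R z (c i) ∧ (s : L) * (x - algebraMap R L r) = b := by
  obtain ⟨b, s, hs, hbs⟩ := hx
  obtain ⟨b₀, hb₀⟩ := tres5e_max_residue z (c i) b
  obtain ⟨s₀, hs₀⟩ := tres5e_max_residue z (c i) s
  have hs₀u : IsUnit s₀ := by
    by_contra hnu
    have h1 := (tres5e_algebraMap_mem_max F H.isIntegral (c i) (H.eval_mem i) s₀).mpr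
      ((IsLocalRing.mem_maximalIdeal _).mpr hnu)
    have h2 := Ideal.add_mem _ hs₀ h1
    rw [sub_add_cancel] at h2
    exact hs h2
  obtain ⟨v, hv⟩ := hs₀u
  refine ⟨↑v⁻¹ * b₀, b - algebraMap R _ b₀ - (s - algebraMap R _ s₀) * algebraMap R _ (↑v⁻¹ * b₀),
    s, ?_, hs, ?_⟩
  · exact Ideal.sub_mem _ hb₀ (Ideal.mul_mem_right _ _ hs₀)
  · have h3 : (b : L) = (s : L) * x := hbs.symm
    have h4 : s₀ * (↑v⁻¹ * b₀) = b₀ := by
      rw [← hv, ← mul_assoc, v.mul_inv, one_mul]
    have h5 : algebraMap R L b₀ = algebraMap R L s₀ * algebraMap R L (↑v⁻¹ * b₀) := by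
      rw [← map_mul, h4]
    have e1 : ((b - algebraMap R _ b₀ - (s - algebraMap R _ s₀) * algebraMap R _ (↑v⁻¹ * b₀) :
        ↥(Algebra.adjoin R ({z} : Set L))) : L) =
        (b : L) - algebraMap R L b₀ -
          ((s : L) - algebraMap R L s₀) * algebraMap R L (↑v⁻¹ * b₀) := rfl
    rw [e1, h3]
    linear_combination h5

/-- **normality of the local rings** of `R[z]`. -/
theorem loc_normal (H : Tres5eSplit F z P c) (i : ι) [(tres5eMax R z (c i)).IsPrime] (y : L)
    (hy : IsIntegral (ls_localSubring (F := L) (tres5eMax R z (c i))) y) :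
    y ∈ ls_localSubring (F := L) (tres5eMax R z (c i)) :=
  ls_isIntegral_mem_localSubring H.hBic _ y hy

/-- the local rings of `R[z]` are local. -/
theorem loc_isLocalRing (H : Tres5eSplit F z P c) (i : ι) [(tres5eMax R z (c i)).IsPrime] :
    IsLocalRing (ls_localSubring (F := L) (tres5eMax R z (c i))) :=
  ls_localSubring_isLocalRing (fun a b h => Subtype.ext h) _


end Tres5eSplit

/-- elements integral over `R` lie in every valuation ring of `L` containing `R`. -/
theorem tres5e_mem_val_of_isIntegral {R L : Type*} [CommRing R] [Field L] [Algebra R L]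
    (W : ValuationSubring L) (hRW : ∀ r : R, algebraMap R L r ∈ W) {y : L}
    (hy : IsIntegral R y) : y ∈ W := by
  obtain ⟨p, hp, hpy⟩ := hy
  set f : R →+* ↥W := (algebraMap R L).codRestrict W.toSubring hRW with hf
  have hcomp : (algebraMap ↥W L).comp f = algebraMap R L := by ext r; rfl
  have hint : IsIntegral ↥W y := by
    refine ⟨p.map f, hp.map f, ?_⟩
    rw [eval₂_map, hcomp]; exact hpy
  obtain ⟨w, hw⟩ := (isIntegrallyClosed_iff L).mp inferInstance hint
  rw [← hw]; exact w.2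

namespace Tres5eSplit

variable {F} {z : L} {P : R[X]} {c : ι → R}

/-- `R[z]` lies in every valuation ring of `L` containing `R`. -/
theorem mem_val (H : Tres5eSplit F z P c) (W : ValuationSubring L)
    (hRW : ∀ r : R, algebraMap R L r ∈ W) (b : ↥(Algebra.adjoin R ({z} : Set L))) :
    (b : L) ∈ W :=
  tres5e_mem_val_of_isIntegral W hRW (tres5e_isIntegral_of_mem H.isIntegral b.2)

/-- **centre of a valuation ring over the closed point**: a valuation ring `W` of `L` which
dominates `R` has centre `(𝔫, z - c i)` on `R[z]` for exactly one `i`. -/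
theorem val_center (H : Tres5eSplit F z P c) (W : ValuationSubring L)
    (hRW : ∀ r : R, algebraMap R L r ∈ W)
    (h𝔫W : ∀ r ∈ IsLocalRing.maximalIdeal R, algebraMap R L r ∈ W.nonunits) :
    ∃ i, ∀ b : ↥(Algebra.adjoin R ({z} : Set L)),
      b ∈ tres5eMax R z (c i) ↔ (b : L) ∈ W.nonunits := by
  set g : ↥(Algebra.adjoin R ({z} : Set L)) →+* ↥W :=
    (Algebra.adjoin R ({z} : Set L)).val.toRingHom.codRestrict W.toSubring
      (fun b => H.mem_val W hRW b) with hg
  set 𝔮 : Ideal ↥(Algebra.adjoin R ({z} : Set L)) :=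
    Ideal.comap g (IsLocalRing.maximalIdeal ↥W) with h𝔮
  haveI : 𝔮.IsPrime := Ideal.IsPrime.comap g
  have hmem : ∀ b : ↥(Algebra.adjoin R ({z} : Set L)), b ∈ 𝔮 ↔ (b : L) ∈ W.nonunits := by
    intro b
    rw [h𝔮, Ideal.mem_comap, ValuationSubring.valuation_lt_one_iff,
      ValuationSubring.mem_nonunits_iff]
    rfl
  have hle : (IsLocalRing.maximalIdeal R).map (algebraMap R _) ≤ 𝔮 := by
    rw [Ideal.map_le_iff_le_comap]
    intro r hr
    rw [Ideal.mem_comap, hmem]
    exact h𝔫W r hr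
  obtain ⟨i, hi⟩ := H.exists_mem_of_prime 𝔮 hle
  have heq := (H.isMaximal i).eq_of_le (Ideal.IsPrime.ne_top inferInstance) hi
  refine ⟨i, fun b => ?_⟩
  rw [heq, hmem]

/-- the centre determines `i`. -/
theorem val_center_unique (H : Tres5eSplit F z P c) (W : ValuationSubring L)
    (hRW : ∀ r : R, algebraMap R L r ∈ W) {i j : ι}
    (hi : z - algebraMap R L (c i) ∈ W.nonunits) (hj : z - algebraMap R L (c j) ∈ W.nonunits) :
    i = j := by
  by_contra hij
  obtain ⟨v, hv⟩ := H.sep i j hij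
  have h1 : algebraMap R L (c i - c j) ∈ W.nonunits := by
    have : algebraMap R L (c i - c j) = (z - algebraMap R L (c j)) - (z - algebraMap R L (c i)) := by
      rw [map_sub]; ring
    rw [this, ValuationSubring.mem_nonunits_iff]
    rw [ValuationSubring.mem_nonunits_iff] at hi hj
    exact lt_of_le_of_lt (Valuation.map_sub _ _ _) (max_lt hj hi)
  have h2 : algebraMap R L (↑v⁻¹ : R) ∈ W := hRW _
  have h3 : algebraMap R L (c i - c j) * algebraMap R L (↑v⁻¹ : R) = 1 := by
    rw [← map_mul, ← hv, v.mul_inv, map_one]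
  rw [ValuationSubring.mem_nonunits_iff] at h1
  have h4 := (ValuationSubring.valuation_le_one_iff W _).mpr h2
  have h5 : W.valuation (1 : L) < 1 := by
    rw [← h3, map_mul]
    calc W.valuation (algebraMap R L (c i - c j)) * W.valuation (algebraMap R L (↑v⁻¹ : R))
        ≤ W.valuation (algebraMap R L (c i - c j)) * 1 := mul_le_mul' le_rfl h4
      _ < 1 := by rw [mul_one]; exact h1
  rw [map_one] at h5
  exact lt_irrefl _ h5

/-- the local ring at the centre lies in the valuation ring, and its non-units are non-units. -/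
theorem loc_le_val (H : Tres5eSplit F z P c) (i : ι) [(tres5eMax R z (c i)).IsPrime]
    (W : ValuationSubring L)
    (hW : ∀ b : ↥(Algebra.adjoin R ({z} : Set L)),
      b ∈ tres5eMax R z (c i) ↔ (b : L) ∈ W.nonunits)
    (hΛW : ∀ b : ↥(Algebra.adjoin R ({z} : Set L)), (b : L) ∈ W) {x : L}
    (hx : x ∈ ls_localSubring (F := L) (tres5eMax R z (c i))) :
    x ∈ W ∧ ((∃ b s : ↥(Algebra.adjoin R ({z} : Set L)), b ∈ tres5eMax R z (c i) ∧
      s ∉ tres5eMax R z (c i) ∧ (s : L) * x = b) → x ∈ W.nonunits) := by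
  have hunit : ∀ s : ↥(Algebra.adjoin R ({z} : Set L)), s ∉ tres5eMax R z (c i) →
      W.valuation (s : L) = 1 := by
    intro s hs
    have h1 : ¬ W.valuation (s : L) < 1 := fun h => hs ((hW s).mpr h)
    exact le_antisymm ((ValuationSubring.valuation_le_one_iff W _).mpr (hΛW s)) (not_lt.mp h1)
  constructor
  · obtain ⟨b, s, hs, hbs⟩ := hx
    have h1 : W.valuation ((s : L) * x) = W.valuation (b : L) := congrArg _ hbs
    rw [map_mul, hunit s hs, one_mul] at h1
    rw [← ValuationSubring.valuation_le_one_iff, h1]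
    exact (ValuationSubring.valuation_le_one_iff W _).mpr (hΛW b)
  · rintro ⟨b, s, hb, hs, hbs⟩
    have h1 : W.valuation ((s : L) * x) = W.valuation (b : L) := congrArg _ hbs
    rw [map_mul, hunit s hs, one_mul] at h1
    rw [ValuationSubring.mem_nonunits_iff, h1]
    exact (hW b).mp hb

/-- an `F`-automorphism of `L` preserves `R[z]`. -/
theorem map_mem (H : Tres5eSplit F z P c) (ρ : L ≃ₐ[F] L)
    (b : ↥(Algebra.adjoin R ({z} : Set L))) : ρ (b : L) ∈ Algebra.adjoin R ({z} : Set L) := by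
  refine H.integral_mem ?_
  have hb : IsIntegral R (b : L) := tres5e_isIntegral_of_mem H.isIntegral b.2
  exact hb.map (ρ.restrictScalars R)

/-- the ring endomorphism of `R[z]` induced by an `F`-automorphism of `L`. -/
noncomputable def mapAdj (H : Tres5eSplit F z P c) (ρ : L ≃ₐ[F] L) :
    ↥(Algebra.adjoin R ({z} : Set L)) →+* ↥(Algebra.adjoin R ({z} : Set L)) :=
  ((ρ : L →+* L).comp (Algebra.adjoin R ({z} : Set L)).val.toRingHom).codRestrict
    (Algebra.adjoin R ({z} : Set L)).toSubring (fun b => H.map_mem ρ b)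

@[simp] theorem mapAdj_coe (H : Tres5eSplit F z P c) (ρ : L ≃ₐ[F] L)
    (b : ↥(Algebra.adjoin R ({z} : Set L))) : ((H.mapAdj ρ b : ↥(Algebra.adjoin R _)) : L) =
      ρ (b : L) := rfl

theorem mapAdj_algebraMap (H : Tres5eSplit F z P c) (ρ : L ≃ₐ[F] L) (r : R) :
    H.mapAdj ρ (algebraMap R _ r) = algebraMap R _ r := by
  apply Subtype.ext
  rw [mapAdj_coe]
  show ρ (algebraMap R L r) = algebraMap R L r
  rw [IsScalarTower.algebraMap_apply R F L, AlgEquiv.commutes]

/-- **deck transformations permute the closed points**: if `ρ z ≡ c j` mod `(𝔫, z - c i)`,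
then `ρ` maps `(𝔫, z - c j)` onto `(𝔫, z - c i)`. -/
theorem deck_max (H : Tres5eSplit F z P c) (i j : ι) (ρ : L ≃ₐ[F] L)
    (hρ : ∃ b ∈ tres5eMax R z (c i), ρ z = algebraMap R L (c j) + (b : L))
    (b : ↥(Algebra.adjoin R ({z} : Set L))) :
    b ∈ tres5eMax R z (c j) ↔ H.mapAdj ρ b ∈ tres5eMax R z (c i) := by
  haveI := H.isPrime i
  set 𝔮 : Ideal ↥(Algebra.adjoin R ({z} : Set L)) :=
    Ideal.comap (H.mapAdj ρ) (tres5eMax R z (c i)) with h𝔮
  haveI : 𝔮.IsPrime := Ideal.IsPrime.comap _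
  have hle : tres5eMax R z (c j) ≤ 𝔮 := by
    rw [tres5eMax, sup_le_iff]
    constructor
    · rw [Ideal.map_le_iff_le_comap]
      intro r hr
      rw [Ideal.mem_comap, h𝔮, Ideal.mem_comap, H.mapAdj_algebraMap]
      exact tres5e_map_le_max z (c i) (Ideal.mem_map_of_mem _ hr)
    · rw [Ideal.span_le, Set.singleton_subset_iff, SetLike.mem_coe, h𝔮, Ideal.mem_comap,
        map_sub, H.mapAdj_algebraMap]
      obtain ⟨b₀, hb₀, hb₀z⟩ := hρ
      have : H.mapAdj ρ (tres5eGen R z) - algebraMap R _ (c j) = b₀ := by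
        apply Subtype.ext
        show ρ z - algebraMap R L (c j) = b₀
        rw [hb₀z]; ring
      rw [this]; exact hb₀
  have heq := (H.isMaximal j).eq_of_le (Ideal.IsPrime.ne_top inferInstance) hle
  rw [heq, h𝔮, Ideal.mem_comap]

/-- **deck transformations permute the local rings** of `R[z]`. -/
theorem loc_deck (H : Tres5eSplit F z P c) (i j : ι) [(tres5eMax R z (c i)).IsPrime]
    [(tres5eMax R z (c j)).IsPrime] (ρ : L ≃ₐ[F] L)
    (hρ : ∃ b ∈ tres5eMax R z (c i), ρ z = algebraMap R L (c j) + (b : L)) (x : L) :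
    x ∈ ls_localSubring (F := L) (tres5eMax R z (c j)) ↔
      ρ x ∈ ls_localSubring (F := L) (tres5eMax R z (c i)) := by
  constructor
  · rintro ⟨b, s, hs, hbs⟩
    refine ⟨H.mapAdj ρ b, H.mapAdj ρ s, fun h => hs ((H.deck_max i j ρ hρ s).mpr h), ?_⟩
    show ρ (s : L) * ρ x = ρ (b : L)
    rw [← map_mul]
    exact congrArg ρ hbs
  · rintro ⟨b, s, hs, hbs⟩
    have h1 : ∀ t : ↥(Algebra.adjoin R ({z} : Set L)),
        H.mapAdj ρ (H.mapAdj ρ.symm t) = t := fun t => by
      apply Subtype.ext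
      rw [mapAdj_coe, mapAdj_coe, AlgEquiv.apply_symm_apply]
    refine ⟨H.mapAdj ρ.symm b, H.mapAdj ρ.symm s, fun h => hs ?_, ?_⟩
    · have := (H.deck_max i j ρ hρ _).mp h
      rwa [h1] at this
    · show ρ.symm (s : L) * x = ρ.symm (b : L)
      have h2 : (s : L) * ρ x = (b : L) := hbs
      rw [← h2, map_mul, AlgEquiv.symm_apply_apply]

end Tres5eSplit

/-- the split situation from the degree: `deg P = [L : F]`. -/
theorem tres5e_split_of_natDegree {z : L} {P : R[X]} {c : ι → R} (hPm : P.Monic)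
    (hPz : aeval z P = 0) (htop : Algebra.adjoin F ({z} : Set L) = ⊤)
    (hdeg : P.natDegree = Module.finrank F L)
    (hsep : ∀ i j, i ≠ j → IsUnit (c i - c j))
    (hred : ∀ n, (P - ∏ i, (X - C (c i))).coeff n ∈ IsLocalRing.maximalIdeal R) :
    Tres5eSplit F z P c :=
  ⟨hPm, hPz, tres5e_minpoly_of_natDegree hPm hPz htop hdeg, htop, hsep, hred⟩

/-- the split situation from irreducibility of `P` over `F`. -/
theorem tres5e_split_of_irreducible {z : L} {P : R[X]} {c : ι → R} (hPm : P.Monic)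
    (hPz : aeval z P = 0) (htop : Algebra.adjoin F ({z} : Set L) = ⊤)
    (hirr : Irreducible (P.map (algebraMap R F)))
    (hsep : ∀ i j, i ≠ j → IsUnit (c i - c j))
    (hred : ∀ n, (P - ∏ i, (X - C (c i))).coeff n ∈ IsLocalRing.maximalIdeal R) :
    Tres5eSplit F z P c :=
  ⟨hPm, hPz, tres5e_minpoly_of_irreducible hPm hPz hirr, htop, hsep, hred⟩

end ET2
section Subring

variable {F : Type*} [Field F]

/-- `F` is the fraction field of the subring `O`. -/
theorem tres5e_isFractionRing_subring (O : Subring F)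
    (h : ∀ x : F, ∃ a ∈ O, ∃ b ∈ O, b ≠ 0 ∧ x * b = a) : IsFractionRing ↥O F := by
  refine IsFractionRing.of_field ↥O F fun x => ?_
  obtain ⟨a, ha, b, hb, hb0, hab⟩ := h x
  refine ⟨⟨a, ha⟩, ⟨b, hb⟩, ?_⟩
  show x = a / b
  rw [← hab, mul_div_assoc, div_self hb0, mul_one]

/-- a subring which is integrally closed in its fraction field `F`. -/
theorem tres5e_isIntegrallyClosed_subring (O : Subring F) [IsFractionRing ↥O F]
    (h : ∀ x : F, IsIntegral ↥O x → x ∈ O) : IsIntegrallyClosed ↥O :=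
  (isIntegrallyClosed_iff F).mpr fun {x} hx => ⟨⟨x, h x hx⟩, rfl⟩

/-- an intersection of valuation rings is integrally closed. -/
theorem tres5e_isIntegral_mem_of_val (O : Subring F) (𝒱 : Set (ValuationSubring F))
    (h : ∀ x : F, x ∈ O ↔ ∀ V ∈ 𝒱, x ∈ V) (x : F) (hx : IsIntegral ↥O x) : x ∈ O := by
  rw [h]
  intro V hV
  exact tres5e_mem_val_of_isIntegral (R := ↥O) V (fun r : ↥O => (h (r : F)).mp r.2 V hV) hx

/-- a subring of `F` whose non-units form an ideal is local. -/
theorem tres5e_isLocalRing_subring (O : Subring F)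
    (h : ∀ x ∈ O, x⁻¹ ∈ O ∨ (1 - x)⁻¹ ∈ O) : IsLocalRing ↥O := by
  refine IsLocalRing.of_isUnit_or_isUnit_one_sub_self fun x => ?_
  have key : ∀ y : ↥O, (y : F) ≠ 0 → (y : F)⁻¹ ∈ O → IsUnit y := fun y hy0 hy =>
    IsUnit.of_mul_eq_one ⟨(y : F)⁻¹, hy⟩ (Subtype.ext (mul_inv_cancel₀ hy0))
  by_cases hx0 : (x : F) = 0
  · right
    have : (1 : ↥O) - x = 1 := by
      apply Subtype.ext
      show (1 : F) - (x : F) = 1
      rw [hx0, sub_zero]
    rw [this]; exact isUnit_one
  by_cases hx1 : (1 : F) - (x : F) = 0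
  · left
    have : x = 1 := by
      apply Subtype.ext
      show (x : F) = 1
      exact (sub_eq_zero.mp hx1).symm
    rw [this]; exact isUnit_one
  rcases h x x.2 with h1 | h1
  · exact Or.inl (key x hx0 h1)
  · exact Or.inr (key (1 - x) hx1 h1)

end Subring

end Fermat.Agent.R38


end ZBR38_012_0

/-! ### bundled: `Fermat.Agent.R38.TresEtaleRepr` -/
section ZBR38_012_1
/-
R38-TRES FAC-ET (helper28): the two statements in the exact shape consumed by FAC-LOC
(NOTES/R38-FAC.md §3):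
* `Tres5eSplit.integral_repr` : `IsIntegral R x → ∃ a : Fin n → R, x = ∑ i, a i • z ^ i`
  (`n = P.natDegree`), and uniqueness `Tres5eSplit.repr_unique`;
* `Tres5eSplit.existsUnique_of_isMaximal` : for a maximal ideal `𝔐` of `R[z]`: `∃! i, z - c i ∈ 𝔐`.
-/

set_option autoImplicit false
set_option linter.unusedSectionVars false
set_option linter.unusedVariables false

namespace Fermat.Agent.R38

open Polynomial

namespace Tres5eSplit

variable {R L : Type*} {F : Type*} [CommRing R] [IsDomain R] [Field F] [Field L]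
  [Algebra R F] [IsFractionRing R F] [IsIntegrallyClosed R] [IsLocalRing R]
  [Algebra F L] [Algebra R L] [IsScalarTower R F L]
  {ι : Type*} [Fintype ι] {z : L} {P : R[X]} {c : ι → R}

/-- a polynomial of degree `< n` is the sum of its first `n` monomials. -/
theorem _root_.Fermat.Agent.R38.tres5e_aeval_eq_sum_fin {A : Type*} [CommRing A] [Algebra R A]
    (q : R[X]) (n : ℕ) (hq : q.degree < n) (b : A) :
    aeval b q = ∑ i : Fin n, q.coeff i • b ^ (i : ℕ) := by
  have h1 : q.natDegree < n ∨ q = 0 := by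
    by_cases h0 : q = 0
    · exact Or.inr h0
    · left
      rw [degree_eq_natDegree h0] at hq
      exact_mod_cast hq
  rw [Fin.sum_univ_eq_sum_range (fun i => q.coeff i • b ^ i) n]
  rcases h1 with h1 | h1
  · rw [aeval_eq_sum_range' h1]
  · subst h1
    simp

/-- **(ET1), basis form**: every element of `L` integral over `R` is an `R`-combination of
`1, z, …, z ^ (n - 1)`, `n = deg P`. -/
theorem integral_repr (H : Tres5eSplit F z P c) {x : L} (hx : IsIntegral R x) :
    ∃ a : Fin P.natDegree → R, x = ∑ i, a i • z ^ (i : ℕ) := by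
  have hmem := H.integral_mem hx
  obtain ⟨q, hqdeg, hq⟩ := H.exists_aeval_lt ⟨x, hmem⟩
  have hq' : aeval z q = x := by
    have := congrArg Subtype.val hq
    rwa [tres5e_coe_aeval] at this
  refine ⟨fun i => q.coeff i, ?_⟩
  rw [← hq']
  refine tres5e_aeval_eq_sum_fin q _ ?_ z
  rw [degree_eq_natDegree H.monic.ne_zero] at hqdeg
  exact hqdeg

/-- the representation is unique. -/
theorem repr_unique (H : Tres5eSplit F z P c) (a b : Fin P.natDegree → R)
    (h : ∑ i, a i • z ^ (i : ℕ) = ∑ i, b i • z ^ (i : ℕ)) : a = b := by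
  classical
  set q : R[X] := ∑ i : Fin P.natDegree, C (a i - b i) * X ^ (i : ℕ) with hq
  have hdeg : q.degree < P.degree := by
    rw [degree_eq_natDegree H.monic.ne_zero]
    refine lt_of_le_of_lt (degree_sum_le _ _) ?_
    rw [Finset.sup_lt_iff (by exact WithBot.bot_lt_coe _)]
    intro i _
    refine lt_of_le_of_lt (degree_C_mul_X_pow_le _ _) ?_
    exact_mod_cast i.2
  have hz : aeval z q = 0 := by
    rw [hq, map_sum]
    have : ∀ i : Fin P.natDegree, aeval z (C (a i - b i) * X ^ (i : ℕ)) =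
        a i • z ^ (i : ℕ) - b i • z ^ (i : ℕ) := by
      intro i
      rw [map_mul, aeval_C, map_pow, aeval_X, map_sub, sub_mul, Algebra.smul_def,
        Algebra.smul_def]
    rw [Finset.sum_congr rfl fun i _ => this i, Finset.sum_sub_distrib, h, sub_self]
  have h0 := H.eq_zero_of_aeval q hdeg hz
  funext i
  have h1 := congrArg (fun r => r.coeff (i : ℕ)) h0
  simp only [hq, finsetSum_coeff, coeff_C_mul, coeff_X_pow, coeff_zero] at h1
  rw [Finset.sum_eq_single i] at h1
  · simpa [sub_eq_zero] using h1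
  · intro j _ hji
    rw [if_neg (fun h => hji (Fin.ext h.symm)), mul_zero]
  · intro h; exact absurd (Finset.mem_univ i) h

/-- **(ET2), in the shape of FAC-LOC**: a maximal ideal of `R[z]` contains exactly one
`z - c i`. -/
theorem existsUnique_of_isMaximal (H : Tres5eSplit F z P c)
    (𝔐 : Ideal ↥(Algebra.adjoin R ({z} : Set L))) [h𝔐 : 𝔐.IsMaximal] :
    ∃! i, tres5eGen R z - algebraMap R _ (c i) ∈ 𝔐 := by
  obtain ⟨i, rfl⟩ := H.exists_eq_of_isMaximal 𝔐
  refine ⟨i, Ideal.mem_sup_right (Ideal.subset_span rfl), fun j hj => ?_⟩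
  have h1 : aeval (tres5eGen R z) (X - C (c j)) ∈ tres5eMax R z (c i) := by
    rw [map_sub, aeval_X, aeval_C]; exact hj
  rw [tres5e_aeval_mem_max F H.isIntegral (c i) (H.eval_mem i), eval_sub, eval_X, eval_C] at h1
  by_contra hji
  exact (IsLocalRing.mem_maximalIdeal _).mp h1 (H.sep i j (Ne.symm hji))

end Tres5eSplit

end Fermat.Agent.R38


end ZBR38_012_1

/-! ### bundled: `Fermat.Agent.R38.TresEtalePrime` -/
section ZBR38_012_2
/-
R38-TRES FAC-LOC, piece ET-PRIME = (B1)–(B5) of helper92's RULING v3 (helper28).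

Setting of `R38/TresEtale.lean`: `H : Tres5eSplit F z P c` over the local normal domain `R`
(`R = atLoc 𝔫`, a closed point of the chart of `X`), `O'_k = ls_localSubring (tres5eMax R z (c k))`
the local ring of `R[z]` at `(𝔫, z - c k)`.  If `R` is noetherian, `𝔪_R = (X, Y)` and `X` is prime
in `R` (thin node `w π = X Y`, or smooth point `(π, s)`), then

* `Tres5eSplit.dvd_of_dvd_loc`   (B1) : `X ∣ b` in `O'_k` ⇒ `X ∣ b` in `R`  (`b ∈ R`);
* `Tres5eSplit.loc_isNoetherianRing` (B2), `Tres5eSplit.adjoin_isNoetherianRing`;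
* `Tres5eSplit.loc_maximalIdeal` (B3) : `𝔪(O'_k) = (X, Y)`;
* `tres5e_krull_normal_form`     (B4) : `a ∉ x A` ⇒ `a = x a₁ + y ^ m u`, `u` a unit;
* `tres5e_prime_of_krull`, `Tres5eSplit.loc_prime` (B5) : `X` is PRIME in `O'_k`;
* `Tres5eSplit.etPrime` : the four statements together (the deliverable of the ruling).
The element of `O'_k` attached to `r : R` is `tres5eBaseToLoc z (c k) r` (coercion to `L`:
`algebraMap R L r`, `tres5eBaseToLoc_coe`).  Also `tres5eToLoc`, `tres5e_isLocalization`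
(`B_𝔫 = ls_localSubring 𝔫` is the localisation), `tres5e_exists_of_nonunit`,
`tres5e_nonunit_of_mem`.
-/

set_option autoImplicit false
set_option linter.unusedSectionVars false
set_option linter.unusedVariables false
set_option linter.style.haveILetI false

namespace Fermat.Agent.R38

open IsLocalRing Polynomial Fermat.Agent.UNIP

section Krull

variable {A : Type*} [CommRing A] [IsDomain A] [IsLocalRing A] [IsNoetherianRing A]

/-- (B4) in a noetherian local ring with `𝔪 = (x, y)`: every `a ∉ x A` is `y ^ m · unit` modulo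
`x`. -/
theorem tres5e_krull_normal_form (x y : A) (hm : maximalIdeal A = Ideal.span {x, y}) {a : A}
    (ha : ¬ x ∣ a) : ∃ (m : ℕ) (u a₁ : A), IsUnit u ∧ a = x * a₁ + y ^ m * u := by
  classical
  set I : Ideal A := Ideal.span {x} with hI
  have hxm : x ∈ maximalIdeal A := by rw [hm]; exact Ideal.subset_span (by simp)
  have hym : y ∈ maximalIdeal A := by rw [hm]; exact Ideal.subset_span (by simp)
  have hItop : I ≠ ⊤ := by
    intro h
    have : (1 : A) ∈ I := by rw [h]; exact Submodule.mem_top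
    rw [hI, Ideal.mem_span_singleton] at this
    exact (mem_maximalIdeal _).mp hxm (isUnit_of_dvd_one this)
  haveI : Nontrivial (A ⧸ I) := Ideal.Quotient.nontrivial_iff.mpr hItop
  haveI : IsLocalRing (A ⧸ I) :=
    IsLocalRing.of_surjective' (Ideal.Quotient.mk I) Ideal.Quotient.mk_surjective
  set J : Ideal (A ⧸ I) := Ideal.span {Ideal.Quotient.mk I y} with hJ
  have hJtop : J ≠ ⊤ := by
    intro h
    have h1 : (1 : A ⧸ I) ∈ J := by rw [h]; exact Submodule.mem_top
    rw [hJ, Ideal.mem_span_singleton] at h1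
    obtain ⟨t, ht⟩ := h1
    obtain ⟨t', rfl⟩ := Ideal.Quotient.mk_surjective t
    rw [← map_mul, ← map_one (Ideal.Quotient.mk I), Ideal.Quotient.eq, hI,
      Ideal.mem_span_singleton] at ht
    obtain ⟨s, hs⟩ := ht
    have h2 : (1 : A) ∈ maximalIdeal A := by
      have : (1 : A) = x * s + y * t' := by linear_combination hs
      rw [this]
      exact Ideal.add_mem _ (Ideal.mul_mem_right _ _ hxm) (Ideal.mul_mem_right _ _ hym)
    exact (mem_maximalIdeal _).mp h2 isUnit_one
  have hkrull := Ideal.iInf_pow_eq_bot_of_isLocalRing J hJtop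
  have ha0 : Ideal.Quotient.mk I a ≠ 0 := by
    rw [Ne, Ideal.Quotient.eq_zero_iff_mem, hI, Ideal.mem_span_singleton]
    exact ha
  have hex : ∃ i : ℕ, Ideal.Quotient.mk I a ∉ J ^ i := by
    by_contra hall
    push Not at hall
    apply ha0
    have : Ideal.Quotient.mk I a ∈ (⨅ i : ℕ, J ^ i) := by
      rw [Ideal.mem_iInf]; exact hall
    rw [hkrull] at this
    exact this
  set i := Nat.find hex with hi
  have hi_spec : Ideal.Quotient.mk I a ∉ J ^ i := Nat.find_spec hex
  have hi0 : i ≠ 0 := by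
    intro h0
    rw [h0, pow_zero, Ideal.one_eq_top] at hi_spec
    exact hi_spec Submodule.mem_top
  obtain ⟨m, hm'⟩ := Nat.exists_eq_succ_of_ne_zero hi0
  have hmem : Ideal.Quotient.mk I a ∈ J ^ m := by
    by_contra hnot
    have := Nat.find_min' hex hnot
    omega
  rw [hJ, Ideal.span_singleton_pow, Ideal.mem_span_singleton] at hmem
  obtain ⟨cbar, hc⟩ := hmem
  obtain ⟨c, rfl⟩ := Ideal.Quotient.mk_surjective cbar
  have hcJ : Ideal.Quotient.mk I c ∉ J := by
    intro hcJ
    apply hi_spec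
    rw [hm', pow_succ, hc]
    exact Ideal.mul_mem_mul (by
      rw [hJ, Ideal.span_singleton_pow]; exact Ideal.subset_span rfl) hcJ
  have hcu : IsUnit c := by
    by_contra hnu
    have hcm : c ∈ maximalIdeal A := (mem_maximalIdeal _).mpr hnu
    rw [hm, Ideal.mem_span_pair] at hcm
    obtain ⟨α, β, hαβ⟩ := hcm
    apply hcJ
    rw [hJ, Ideal.mem_span_singleton]
    refine ⟨Ideal.Quotient.mk I β, ?_⟩
    rw [← map_mul, Ideal.Quotient.eq, hI, Ideal.mem_span_singleton]
    exact ⟨α, by linear_combination -hαβ⟩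
  have hfin : a - y ^ m * c ∈ I := by
    rw [← Ideal.Quotient.eq, hc, map_mul, map_pow]
  rw [hI, Ideal.mem_span_singleton] at hfin
  obtain ⟨a₁, ha₁⟩ := hfin
  exact ⟨m, c, a₁, hcu, by linear_combination ha₁⟩

/-- (B5) `x` is prime if no power of `y` is divisible by `x`. -/
theorem tres5e_prime_of_krull (x y : A) (hm : maximalIdeal A = Ideal.span {x, y}) (hx0 : x ≠ 0)
    (hy : ∀ N : ℕ, ¬ x ∣ y ^ N) : Prime x := by
  have hxm : x ∈ maximalIdeal A := by rw [hm]; exact Ideal.subset_span (by simp)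
  refine ⟨hx0, (mem_maximalIdeal _).mp hxm, fun a b hab => ?_⟩
  by_contra hnot
  push Not at hnot
  obtain ⟨ha, hb⟩ := hnot
  obtain ⟨m, u, a₁, hu, rfl⟩ := tres5e_krull_normal_form x y hm ha
  obtain ⟨m', u', b₁, hu', rfl⟩ := tres5e_krull_normal_form x y hm hb
  apply hy (m + m')
  have h1 : x ∣ y ^ (m + m') * (u * u') := by
    obtain ⟨t, ht⟩ := hab
    refine ⟨t - (a₁ * (x * b₁ + y ^ m' * u') + y ^ m * u * b₁), ?_⟩
    rw [pow_add]
    linear_combination ht
  exact (hu.mul hu').dvd_mul_right.mp h1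

end Krull

section Loc

variable {L : Type*} [Field L] {B : Type*} [CommRing B] [Algebra B L]
variable (𝔫 : Ideal B) [h𝔫 : 𝔫.IsPrime]

/-- the structure map `B → B_𝔫`. -/
def tres5eToLoc : B →+* ls_localSubring (F := L) 𝔫 where
  toFun b := ⟨algebraMap B L b, ls_algebraMap_mem 𝔫 b⟩
  map_one' := Subtype.ext (map_one _)
  map_mul' x y := Subtype.ext (map_mul _ x y)
  map_zero' := Subtype.ext (map_zero _)
  map_add' x y := Subtype.ext (map_add _ x y)

@[simp] theorem tres5eToLoc_coe (b : B) :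
    ((tres5eToLoc (L := L) 𝔫 b : ls_localSubring (F := L) 𝔫) : L) = algebraMap B L b := rfl

/-- `B_𝔫` is the localisation of `B` at `𝔫`. -/
theorem tres5e_isLocalization (hinj : Function.Injective (algebraMap B L)) :
    @IsLocalization B _ 𝔫.primeCompl (ls_localSubring (F := L) 𝔫) _
      (tres5eToLoc (L := L) 𝔫).toAlgebra := by
  letI : Algebra B (ls_localSubring (F := L) 𝔫) := (tres5eToLoc (L := L) 𝔫).toAlgebra
  refine ⟨⟨fun s => ?_, fun z => ?_, fun {x y} hxy => ?_⟩⟩
  · exact ls_isUnit_of_not_mem hinj 𝔫 (tres5eToLoc (L := L) 𝔫 s.1) (b := s.1) (s := 1)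
      s.2 (fun h => h𝔫.ne_top ((Ideal.eq_top_iff_one 𝔫).mpr h)) (by
        rw [map_one, one_mul]; rfl)
  · obtain ⟨b, s, hs, h⟩ := z.2
    refine ⟨(b, ⟨s, hs⟩), Subtype.ext ?_⟩
    show (z : L) * algebraMap B L s = algebraMap B L b
    rw [mul_comm]; exact h
  · refine ⟨1, ?_⟩
    have : algebraMap B L x = algebraMap B L y := congrArg Subtype.val hxy
    rw [hinj this]

theorem tres5e_loc_isNoetherianRing (hinj : Function.Injective (algebraMap B L))
    [IsNoetherianRing B] : IsNoetherianRing (ls_localSubring (F := L) 𝔫) := by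
  letI : Algebra B (ls_localSubring (F := L) 𝔫) := (tres5eToLoc (L := L) 𝔫).toAlgebra
  haveI := tres5e_isLocalization (L := L) 𝔫 hinj
  exact IsLocalization.isNoetherianRing 𝔫.primeCompl (ls_localSubring (F := L) 𝔫) inferInstance

/-- the non-units of `B_𝔫` are the `b / s`, `b ∈ 𝔫`. -/
theorem tres5e_exists_of_nonunit (hinj : Function.Injective (algebraMap B L))
    (r : ls_localSubring (F := L) 𝔫) (hr : ¬ IsUnit r) :
    ∃ b s : B, b ∈ 𝔫 ∧ s ∉ 𝔫 ∧ algebraMap B L s * (r : L) = algebraMap B L b := by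
  obtain ⟨b, s, hs, hbs⟩ := r.2
  refine ⟨b, s, ?_, hs, hbs⟩
  by_contra hb
  exact hr (ls_isUnit_of_not_mem hinj 𝔫 r hb hs hbs)

/-- `b / s` with `b ∈ 𝔫` is a non-unit of `B_𝔫`. -/
theorem tres5e_nonunit_of_mem (hinj : Function.Injective (algebraMap B L))
    (r : ls_localSubring (F := L) 𝔫) {b s : B} (hb : b ∈ 𝔫) (hs : s ∉ 𝔫)
    (h : algebraMap B L s * (r : L) = algebraMap B L b) : ¬ IsUnit r := by
  intro hu
  obtain ⟨r', hr'⟩ := hu.exists_right_inv
  obtain ⟨b', s', hs', hbs'⟩ := r'.2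
  have h1 : (r : L) * (r' : L) = 1 := congrArg Subtype.val hr'
  have h2 : algebraMap B L (s * s') = algebraMap B L (b * b') := by
    rw [map_mul, map_mul, ← h, ← hbs']
    calc algebraMap B L s * algebraMap B L s'
        = algebraMap B L s * algebraMap B L s' * ((r : L) * (r' : L)) := by rw [h1, mul_one]
      _ = _ := by ring
  have h3 := hinj h2
  have h4 : s * s' ∈ 𝔫 := by rw [h3]; exact 𝔫.mul_mem_right _ hb
  rcases h𝔫.mem_or_mem h4 with h5 | h5
  · exact hs h5
  · exact hs' h5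

end Loc

section Main

variable {R L : Type*} {F : Type*} [CommRing R] [IsDomain R] [Field F] [Field L]
  [Algebra R F] [IsFractionRing R F] [IsIntegrallyClosed R] [IsLocalRing R]
  [Algebra F L] [Algebra R L] [IsScalarTower R F L]
  {ι : Type*} [Fintype ι] {z : L} {P : R[X]} {c : ι → R}

/-- the structure map `R → O'`, `O'` the local ring of `R[z]` at `(𝔫, z - a)`. -/
noncomputable def tres5eBaseToLoc (z : L) (a : R) [(tres5eMax R z a).IsPrime] :
    R →+* ls_localSubring (F := L) (tres5eMax R z a) :=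
  (tres5eToLoc (L := L) (tres5eMax R z a)).comp
    (algebraMap R ↥(Algebra.adjoin R ({z} : Set L)))

@[simp] theorem tres5eBaseToLoc_coe (z : L) (a : R) [(tres5eMax R z a).IsPrime] (r : R) :
    ((tres5eBaseToLoc z a r : ls_localSubring (F := L) (tres5eMax R z a)) : L) =
      algebraMap R L r := rfl

theorem tres5e_adjoin_injective (z : L) :
    Function.Injective (algebraMap ↥(Algebra.adjoin R ({z} : Set L)) L) :=
  fun _ _ h => Subtype.ext h

namespace Tres5eSplit

/-- `R[z]` is noetherian. -/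
theorem adjoin_isNoetherianRing (H : Tres5eSplit F z P c) [IsNoetherianRing R] :
    IsNoetherianRing ↥(Algebra.adjoin R ({z} : Set L)) := by
  have hfg : (Algebra.adjoin R ({z} : Set L)).toSubmodule.FG := H.isIntegral.fg_adjoin_singleton
  haveI : Module.Finite R ↥(Algebra.adjoin R ({z} : Set L)) :=
    Module.Finite.iff_fg.mpr hfg
  haveI : IsNoetherian R ↥(Algebra.adjoin R ({z} : Set L)) :=
    isNoetherian_of_isNoetherianRing_of_finite R _
  exact isNoetherian_of_tower R inferInstance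

/-- (B2) `O'_k` is noetherian. -/
theorem loc_isNoetherianRing (H : Tres5eSplit F z P c) [IsNoetherianRing R] (k : ι)
    [(tres5eMax R z (c k)).IsPrime] :
    IsNoetherianRing (ls_localSubring (F := L) (tres5eMax R z (c k))) := by
  haveI := H.adjoin_isNoetherianRing
  exact tres5e_loc_isNoetherianRing _ (tres5e_adjoin_injective z)

/-- (B1) divisibility by `X` descends from `O'_k` to `R`. -/
theorem dvd_of_dvd_loc (H : Tres5eSplit F z P c) (k : ι) [(tres5eMax R z (c k)).IsPrime]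
    {X : R} (hX : Prime X) (b : R)
    (h : tres5eBaseToLoc z (c k) X ∣ tres5eBaseToLoc z (c k) b) : X ∣ b := by
  by_contra hXb
  obtain ⟨r, hr⟩ := h
  obtain ⟨β, s, hs, hβs⟩ := r.2
  have hr' : algebraMap R L b = algebraMap R L X * (r : L) := congrArg Subtype.val hr
  obtain ⟨S, hSdeg, hS⟩ := H.exists_aeval_lt s
  obtain ⟨Bp, hBdeg, hB⟩ := H.exists_aeval_lt β
  have hsL : aeval z S = (s : L) := by rw [← hS, tres5e_coe_aeval]
  have hβL : aeval z Bp = (β : L) := by rw [← hB, tres5e_coe_aeval]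
  have hβs' : (s : L) * (r : L) = (β : L) := hβs
  have hQ : aeval z (C b * S - C X * Bp) = 0 := by
    rw [map_sub, map_mul, map_mul, aeval_C, aeval_C, hsL, hβL, ← hβs', hr']
    ring
  have hQdeg : (C b * S - C X * Bp).degree < P.degree := by
    refine lt_of_le_of_lt (degree_sub_le _ _) (max_lt ?_ ?_)
    · exact lt_of_le_of_lt (by rw [C_mul']; exact degree_smul_le _ _) hSdeg
    · exact lt_of_le_of_lt (by rw [C_mul']; exact degree_smul_le _ _) hBdeg
  have hQ0 := H.eq_zero_of_aeval _ hQdeg hQ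
  have hcoeff : ∀ i, b * S.coeff i = X * Bp.coeff i := by
    intro i
    have := congrArg (fun q => q.coeff i) hQ0
    simp only [coeff_sub, coeff_C_mul, coeff_zero] at this
    exact sub_eq_zero.mp this
  have hXm : X ∈ maximalIdeal R := (mem_maximalIdeal _).mpr hX.not_isUnit
  have hall : ∀ i, S.coeff i ∈ maximalIdeal R := by
    intro i
    have h1 : X ∣ b * S.coeff i := ⟨_, hcoeff i⟩
    rcases hX.dvd_or_dvd h1 with h2 | h2
    · exact absurd h2 hXb
    · obtain ⟨t, ht⟩ := h2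
      rw [ht]; exact Ideal.mul_mem_right _ _ hXm
  apply hs
  rw [← hS]
  exact tres5e_map_le_max z (c k)
    (tres5e_aeval_mem_map (maximalIdeal R) (tres5eGen R z) S hall)

/-- (B3) `𝔪(O'_k) = (X, Y)`. -/
theorem loc_maximalIdeal (H : Tres5eSplit F z P c) (k : ι) [(tres5eMax R z (c k)).IsPrime]
    [IsLocalRing (ls_localSubring (F := L) (tres5eMax R z (c k)))]
    {X Y : R} (hmax : maximalIdeal R = Ideal.span {X, Y}) :
    maximalIdeal (ls_localSubring (F := L) (tres5eMax R z (c k))) =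
      Ideal.span {tres5eBaseToLoc z (c k) X, tres5eBaseToLoc z (c k) Y} := by
  have hinj := tres5e_adjoin_injective (R := R) z
  have h1 : (1 : ↥(Algebra.adjoin R ({z} : Set L))) ∉ tres5eMax R z (c k) := fun h =>
    (H.isPrime k).ne_top ((Ideal.eq_top_iff_one _).mpr h)
  have hgen : ∀ W : R, W ∈ maximalIdeal R →
      tres5eBaseToLoc z (c k) W ∈
        maximalIdeal (ls_localSubring (F := L) (tres5eMax R z (c k))) := by
    intro W hW
    rw [mem_maximalIdeal]
    refine tres5e_nonunit_of_mem _ hinj _ (b := algebraMap R _ W) (s := 1) ?_ h1 ?_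
    · exact (tres5e_algebraMap_mem_max F H.isIntegral (c k) (H.eval_mem k) W).mpr hW
    · rw [map_one, one_mul]; rfl
  apply le_antisymm
  · intro r hr
    obtain ⟨b, s, hb, hs, hbs⟩ := tres5e_exists_of_nonunit _ hinj r ((mem_maximalIdeal _).mp hr)
    obtain ⟨u, hu, hub⟩ := H.unram k hb
    have hmap : (maximalIdeal R).map (algebraMap R ↥(Algebra.adjoin R ({z} : Set L))) =
        Ideal.span {algebraMap R _ X, algebraMap R _ Y} := by
      rw [hmax, Ideal.map_span, Set.image_pair]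
    rw [hmap, Ideal.mem_span_pair] at hub
    obtain ⟨α, β, hαβ⟩ := hub
    have hus : u * s ∉ tres5eMax R z (c k) := fun h => by
      rcases (H.isPrime k).mem_or_mem h with h' | h'
      · exact hu h'
      · exact hs h'
    have hunit : IsUnit (tres5eToLoc (L := L) (tres5eMax R z (c k)) (u * s)) :=
      ls_isUnit_of_not_mem hinj _ _ (b := u * s) (s := 1) hus h1 (by
        rw [map_one, one_mul]; rfl)
    obtain ⟨v, hv⟩ := hunit
    have e : tres5eToLoc (L := L) (tres5eMax R z (c k)) (u * s) * r =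
        tres5eToLoc (L := L) (tres5eMax R z (c k)) α * tres5eBaseToLoc z (c k) X +
          tres5eToLoc (L := L) (tres5eMax R z (c k)) β * tres5eBaseToLoc z (c k) Y := by
      apply Subtype.ext
      show ((u * s : ↥(Algebra.adjoin R ({z} : Set L))) : L) * (r : L) =
        (α : L) * algebraMap R L X + (β : L) * algebraMap R L Y
      have h2 : ((u * s : ↥(Algebra.adjoin R ({z} : Set L))) : L) * (r : L) =
          ((u * b : ↥(Algebra.adjoin R ({z} : Set L))) : L) := by
        have hbs' : (s : L) * (r : L) = (b : L) := hbs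
        push_cast
        rw [mul_assoc, hbs']
      rw [h2, ← hαβ]
      rfl
    have e2 : r = ((v⁻¹ : (ls_localSubring (F := L) (tres5eMax R z (c k)))ˣ) :
        ls_localSubring (F := L) (tres5eMax R z (c k))) *
        (tres5eToLoc (L := L) (tres5eMax R z (c k)) α * tres5eBaseToLoc z (c k) X +
          tres5eToLoc (L := L) (tres5eMax R z (c k)) β * tres5eBaseToLoc z (c k) Y) := by
      rw [← e, ← hv, ← mul_assoc, Units.inv_mul, one_mul]
    rw [e2]
    refine Ideal.mul_mem_left _ _ (Ideal.add_mem _ ?_ ?_)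
    · exact Ideal.mul_mem_left _ _ (Ideal.subset_span (by simp))
    · exact Ideal.mul_mem_left _ _ (Ideal.subset_span (by simp))
  · rw [Ideal.span_le]
    intro w hw
    have hXm : X ∈ maximalIdeal R := by rw [hmax]; exact Ideal.subset_span (by simp)
    have hYm : Y ∈ maximalIdeal R := by rw [hmax]; exact Ideal.subset_span (by simp)
    rcases hw with rfl | rfl
    · exact hgen X hXm
    · exact hgen Y hYm

/-- (B5) `X` is prime in `O'_k`. -/
theorem loc_prime (H : Tres5eSplit F z P c) [IsNoetherianRing R] (k : ι)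
    [(tres5eMax R z (c k)).IsPrime]
    [IsLocalRing (ls_localSubring (F := L) (tres5eMax R z (c k)))]
    {X Y : R} (hmax : maximalIdeal R = Ideal.span {X, Y}) (hX : Prime X) :
    Prime (tres5eBaseToLoc z (c k) X) := by
  haveI := H.loc_isNoetherianRing k
  have hm' := H.loc_maximalIdeal k hmax
  have hX0 : tres5eBaseToLoc z (c k) X ≠ 0 := by
    intro h0
    have h1 : algebraMap R L X = 0 := congrArg Subtype.val h0
    exact hX.ne_zero (tres5e_algebraMap_injective R F L (h1.trans (map_zero _).symm))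
  by_cases hXY : X ∣ Y
  · -- `𝔪 = (X)`
    have hspan : maximalIdeal (ls_localSubring (F := L) (tres5eMax R z (c k))) =
        Ideal.span {tres5eBaseToLoc z (c k) X} := by
      rw [hm']
      apply le_antisymm
      · rw [Ideal.span_le]
        intro w hw
        rcases hw with rfl | rfl
        · exact Ideal.subset_span rfl
        · obtain ⟨t, rfl⟩ := hXY
          rw [map_mul]
          exact Ideal.mul_mem_right _ _ (Ideal.subset_span rfl)
      · exact Ideal.span_mono (by simp)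
    rw [← Ideal.span_singleton_prime hX0, ← hspan]
    exact (maximalIdeal.isMaximal _).isPrime
  · refine tres5e_prime_of_krull _ (tres5eBaseToLoc z (c k) Y) hm' hX0 fun N hN => ?_
    rw [← map_pow] at hN
    exact hXY (hX.dvd_of_dvd_pow (H.dvd_of_dvd_loc k hX _ hN))

/-- **ET-PRIME** (the deliverable of RULING v3): at a point of `X` with `𝔪_R = (X, Y)`, `X`
prime, `R` noetherian, the local ring `O'_k` of the cover is a noetherian local ring with
`𝔪 = (X, Y)` in which `X` is prime, and divisibility by `X` of elements of `R` can be tested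
in `R`. -/
theorem etPrime (H : Tres5eSplit F z P c) [IsNoetherianRing R] (k : ι)
    [(tres5eMax R z (c k)).IsPrime]
    [IsLocalRing (ls_localSubring (F := L) (tres5eMax R z (c k)))]
    {X Y : R} (hmax : maximalIdeal R = Ideal.span {X, Y}) (hX : Prime X) :
    Prime (tres5eBaseToLoc z (c k) X) ∧
    maximalIdeal (ls_localSubring (F := L) (tres5eMax R z (c k))) =
      Ideal.span {tres5eBaseToLoc z (c k) X, tres5eBaseToLoc z (c k) Y} ∧
    IsNoetherianRing (ls_localSubring (F := L) (tres5eMax R z (c k))) ∧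
    ∀ b : R, tres5eBaseToLoc z (c k) X ∣ tres5eBaseToLoc z (c k) b → X ∣ b :=
  ⟨H.loc_prime k hmax hX, H.loc_maximalIdeal k hmax, H.loc_isNoetherianRing k,
    fun b => H.dvd_of_dvd_loc k hX b⟩

end Tres5eSplit

end Main

end Fermat.Agent.R38


end ZBR38_012_2

/-! ### bundled: `Fermat.Agent.R38.TresEtaleFrac` -/
section ZBR38_012_3
/-
R38-TRES FAC-ET (helper28): fractions.  `L` is the fraction field of `R[z]` and of the local
rings `O'_k` (hypothesis `hfrac` of `tres5n_fac`, `RT.K6.rtk6lf_facAt`):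
* `Tres5eSplit.adjoin_frac` : `∀ x : L, ∃ a ∈ R[z], ∃ b : R, b ≠ 0 ∧ x * b = a`;
* `Tres5eSplit.loc_frac`    : `∀ x : L, ∃ a b : O'_k, (b : L) ≠ 0 ∧ x * b = a`;
* `tres5e_toLoc_mem`, `Tres5eSplit.base_mem_loc`, `Tres5eSplit.adjoin_le_loc` : `R ⊆ R[z] ⊆ O'_k`.
-/

set_option autoImplicit false
set_option linter.unusedSectionVars false
set_option linter.unusedVariables false
set_option linter.style.haveILetI false

namespace Fermat.Agent.R38

open IsLocalRing Polynomial Fermat.Agent.UNIP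

namespace Tres5eSplit

variable {R L : Type*} {F : Type*} [CommRing R] [IsDomain R] [Field F] [Field L]
  [Algebra R F] [IsFractionRing R F] [IsIntegrallyClosed R] [IsLocalRing R]
  [Algebra F L] [Algebra R L] [IsScalarTower R F L]
  {ι : Type*} [Fintype ι] {z : L} {P : R[X]} {c : ι → R}

/-- every element of `L = F[z]` is `a / b` with `a ∈ R[z]`, `b ∈ R ∖ 0`. -/
theorem adjoin_frac (H : Tres5eSplit F z P c) (x : L) :
    ∃ (a : ↥(Algebra.adjoin R ({z} : Set L))) (b : R), b ≠ 0 ∧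
      x * algebraMap R L b = (a : L) := by
  have hx : x ∈ (aeval z : F[X] →ₐ[F] L).range := by
    rw [← Algebra.adjoin_singleton_eq_range_aeval, H.top]; exact Algebra.mem_top
  obtain ⟨q, rfl⟩ := hx
  obtain ⟨b, hbM, hb⟩ := IsLocalization.integerNormalization_spec (nonZeroDivisors R) q
  refine ⟨aeval (tres5eGen R z) (IsLocalization.integerNormalization (nonZeroDivisors R) q),
    b, nonZeroDivisors.ne_zero hbM, ?_⟩
  rw [tres5e_coe_aeval]
  have h1 : aeval z ((IsLocalization.integerNormalization (nonZeroDivisors R) q).map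
      (algebraMap R F)) = aeval z (b • q) := by rw [hb]
  rw [aeval_map_algebraMap] at h1
  have h2 : b • q = (algebraMap R F b) • q := by
    rw [algebraMap_smul]
  rw [h1, h2, map_smul, Algebra.smul_def, mul_comm, ← IsScalarTower.algebraMap_apply]
  rfl

/-- `R[z] ⊆ O'_k`. -/
theorem adjoin_le_loc (H : Tres5eSplit F z P c) (k : ι) [(tres5eMax R z (c k)).IsPrime]
    (a : ↥(Algebra.adjoin R ({z} : Set L))) :
    (a : L) ∈ ls_localSubring (F := L) (tres5eMax R z (c k)) :=
  ls_algebraMap_mem (F := L) (tres5eMax R z (c k)) a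

/-- `R ⊆ O'_k`. -/
theorem base_mem_loc (H : Tres5eSplit F z P c) (k : ι) [(tres5eMax R z (c k)).IsPrime]
    (r : R) : algebraMap R L r ∈ ls_localSubring (F := L) (tres5eMax R z (c k)) :=
  (tres5eBaseToLoc z (c k) r).2

/-- **`L` is the fraction field of `O'_k`** (shape `hfrac` of `tres5n_fac`). -/
theorem loc_frac (H : Tres5eSplit F z P c) (k : ι) [(tres5eMax R z (c k)).IsPrime] (x : L) :
    ∃ a b : ls_localSubring (F := L) (tres5eMax R z (c k)),
      (b : L) ≠ 0 ∧ x * (b : L) = (a : L) := by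
  obtain ⟨a, b, hb, hab⟩ := H.adjoin_frac x
  refine ⟨⟨(a : L), H.adjoin_le_loc k a⟩, tres5eBaseToLoc z (c k) b, ?_, hab⟩
  rw [tres5eBaseToLoc_coe]
  intro h0
  exact hb (tres5e_algebraMap_injective R F L (h0.trans (map_zero _).symm))

/-- `¬ X ∣ Y` passes from `R` to `O'_k`. -/
theorem not_dvd_loc (H : Tres5eSplit F z P c) (k : ι) [(tres5eMax R z (c k)).IsPrime]
    {X : R} (hX : Prime X) {Y : R} (hXY : ¬ X ∣ Y) :
    ¬ tres5eBaseToLoc z (c k) X ∣ tres5eBaseToLoc z (c k) Y :=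
  fun h => hXY (H.dvd_of_dvd_loc k hX Y h)

/-- units of `R` are units of `O'_k`. -/
theorem isUnit_loc (H : Tres5eSplit F z P c) (k : ι) [(tres5eMax R z (c k)).IsPrime]
    {w : R} (hw : IsUnit w) : IsUnit (tres5eBaseToLoc z (c k) w) :=
  hw.map _

end Tres5eSplit

end Fermat.Agent.R38


end ZBR38_012_3

/-! ### bundled: `Fermat.Agent.R38.TresNodeAt` -/
section ZBR38_012_4
/-
Row 38, PKG-TRES, MONO, piece FAC-LOC (helper92), part 2: the local factorisation (LF) at the
points `(𝔫, z - c k)` of the cover — the INSTANCE of `R38/TresNode.lean` at helper28's local rings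
`O′_k = ls_localSubring (tres5eMax R z (c k))` (`R38/TresEtale.lean`, ET-PRIME).

Frame of helper28: `R` a noetherian normal local domain (`R = atLoc 𝔫`, `𝔫` a closed point of the
chart of `X` over `K`), `F = Frac R`, `L = F[z]`, `H : Tres5eSplit F z P c`, `k : ι`.

* `tres5n_cross_at`  : **(LF) at a point of the cover above a THIN node** `𝔪_R = (X, Y)`,
  `w ϖ = X Y`: `y = ε · X ^ a · Y ^ b · γ ^ m`, `W₁ = O′_(X)`, `W₂ = O′_(Y)`.
* `tres5n_smooth_at` : the same above a smooth point `𝔪_R = (ϖ, s)`.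
* `tres5n_comap_at`  : `O′_(X) ∩ F = V₁` if `V₁ = R_(X)`.
* `tres5n_unique_at` : a valuation ring `W ⊇ O′_k` of `L` over `V₁` is `O′_(X)`.
* `tres5n_exists_le` : every valuation ring `W ⊇ R` of `L` contains some `O′_k`
  (so every sheet passes through a point above `𝔫`; with `tres5n_unique_at`: every valuation
  ring of `L` over `V₁` is `(O′_k)_(X)` for some `k`).
-/

set_option autoImplicit false
set_option linter.unusedSectionVars false
set_option linter.unusedVariables false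
set_option linter.style.haveILetI false
set_option linter.style.longLine false

noncomputable section

namespace Fermat.Agent.R38

open IsLocalRing AlgebraicCurve Polynomial Fermat.Agent.UNIP

section At

variable {R L : Type*} {F : Type*} [CommRing R] [IsDomain R] [Field F] [Field L]
  [Algebra R F] [IsFractionRing R F] [IsIntegrallyClosed R] [IsLocalRing R]
  [Algebra F L] [Algebra R L] [IsScalarTower R F L]
  {ι : Type*} [Fintype ι] {z : L} {P : R[X]} {c : ι → R}
  {E : Type*} [Field E] [Algebra E F] [Algebra E L] [IsScalarTower E F L]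

/-- the constants lie in `O′_k [1 / ϖ]` -/
theorem tres5n_hE_at (H : Tres5eSplit F z P c) (k : ι) [(tres5eMax R z (c k)).IsPrime]
    (ϖ : R)
    (hE : ∀ e : E, ∃ (n : ℕ) (a : R),
      algebraMap E F e * algebraMap R F ϖ ^ n = algebraMap R F a) (e : E) :
    ∃ (n : ℕ) (a : ls_localSubring (F := L) (tres5eMax R z (c k))),
      algebraMap E L e * ((tres5eBaseToLoc z (c k) ϖ :
        ls_localSubring (F := L) (tres5eMax R z (c k))) : L) ^ n = (a : L) := by
  obtain ⟨n, a, h⟩ := hE e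
  refine ⟨n, tres5eBaseToLoc z (c k) a, ?_⟩
  rw [tres5eBaseToLoc_coe, tres5eBaseToLoc_coe, IsScalarTower.algebraMap_apply E F L,
    IsScalarTower.algebraMap_apply R F L, IsScalarTower.algebraMap_apply R F L a, ← map_pow,
    ← map_mul, h]

/-- **(LF) at a point of the cover above a thin node.** -/
theorem tres5n_cross_at (H : Tres5eSplit F z P c) [IsNoetherianRing R] (k : ι)
    [(tres5eMax R z (c k)).IsPrime]
    {X Y ϖ w : R} (hmax : maximalIdeal R = Ideal.span {X, Y}) (hX : Prime X) (hY : Prime Y)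
    (hXY : ¬ X ∣ Y) (hYX : ¬ Y ∣ X) (hw : IsUnit w) (hϖ : w * ϖ = X * Y)
    (hE : ∀ e : E, ∃ (n : ℕ) (a : R),
      algebraMap E F e * algebraMap R F ϖ ^ n = algebraMap R F a) :
    ∃ W₁ W₂ : ValuationSubring L,
      Tres5nIsLoc (ls_localSubring (F := L) (tres5eMax R z (c k)))
        (tres5eBaseToLoc z (c k) X) W₁ ∧
      Tres5nIsLoc (ls_localSubring (F := L) (tres5eMax R z (c k)))
        (tres5eBaseToLoc z (c k) Y) W₂ ∧
      ∀ (m : ℕ) (y : L), y ≠ 0 →
        (∀ Pl : Place E L, (∀ x ∈ ls_localSubring (F := L) (tres5eMax R z (c k)),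
          x ∈ Pl.toValuationSubring) → (m : ℤ) ∣ Pl.ord y) →
        ∃ (γ : L) (ε : ls_localSubring (F := L) (tres5eMax R z (c k))) (a b : ℤ), IsUnit ε ∧
          y = (ε : L) * algebraMap R L X ^ a * algebraMap R L Y ^ b * γ ^ m ∧ γ ≠ 0 ∧
          W₁.valuation γ = 1 ∧ W₂.valuation γ = 1 ∧
          W₁.valuation y = W₁.valuation (algebraMap R L ϖ) ^ a ∧
          W₂.valuation y = W₂.valuation (algebraMap R L ϖ) ^ b := by
  haveI := H.loc_isLocalRing k
  haveI := H.loc_isNoetherianRing k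
  have hmax' := H.loc_maximalIdeal k hmax
  have hX' := H.loc_prime k hmax hX
  have hmaxY : maximalIdeal R = Ideal.span {Y, X} := by rw [hmax, Set.pair_comm]
  have hY' := H.loc_prime k hmaxY hY
  have hϖ' : tres5eBaseToLoc z (c k) w * tres5eBaseToLoc z (c k) ϖ =
      tres5eBaseToLoc z (c k) X * tres5eBaseToLoc z (c k) Y := by
    rw [← map_mul, ← map_mul, hϖ]
  exact tres5n_fac (E := E) (ls_localSubring (F := L) (tres5eMax R z (c k))) (H.loc_frac k)
    (tres5eBaseToLoc z (c k) X) (tres5eBaseToLoc z (c k) Y) hmax' hX' hY'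
    (H.not_dvd_loc k hX hXY) (H.not_dvd_loc k hY hYX)
    (tres5eBaseToLoc z (c k) ϖ) (tres5eBaseToLoc z (c k) w) (H.isUnit_loc k hw) hϖ'
    (tres5n_hE_at H k ϖ hE)

/-- **(LF) at a point of the cover above a smooth point.** -/
theorem tres5n_smooth_at (H : Tres5eSplit F z P c) [IsNoetherianRing R] (k : ι)
    [(tres5eMax R z (c k)).IsPrime]
    {ϖ s : R} (hmax : maximalIdeal R = Ideal.span {ϖ, s}) (hϖ : Prime ϖ)
    (hE : ∀ e : E, ∃ (n : ℕ) (a : R),
      algebraMap E F e * algebraMap R F ϖ ^ n = algebraMap R F a) :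
    ∃ W : ValuationSubring L,
      Tres5nIsLoc (ls_localSubring (F := L) (tres5eMax R z (c k)))
        (tres5eBaseToLoc z (c k) ϖ) W ∧
      ∀ (m : ℕ) (y : L), y ≠ 0 →
        (∀ Pl : Place E L, (∀ x ∈ ls_localSubring (F := L) (tres5eMax R z (c k)),
          x ∈ Pl.toValuationSubring) → (m : ℤ) ∣ Pl.ord y) →
        ∃ (γ : L) (ε : ls_localSubring (F := L) (tres5eMax R z (c k))) (a : ℤ), IsUnit ε ∧
          y = (ε : L) * algebraMap R L ϖ ^ a * γ ^ m ∧ γ ≠ 0 ∧
          W.valuation γ = 1 ∧ W.valuation y = W.valuation (algebraMap R L ϖ) ^ a := by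
  haveI := H.loc_isLocalRing k
  haveI := H.loc_isNoetherianRing k
  have hmax' := H.loc_maximalIdeal k hmax
  have hϖ' := H.loc_prime k hmax hϖ
  exact tres5n_fac_smooth (E := E) (ls_localSubring (F := L) (tres5eMax R z (c k)))
    (H.loc_frac k) (tres5eBaseToLoc z (c k) ϖ) (tres5eBaseToLoc z (c k) s) hmax' hϖ'
    (tres5n_hE_at H k ϖ hE)

/-- **`O′_(X) ∩ F = V₁`** for the vertical valuation ring `V₁ = R_(X)` of `F`. -/
theorem tres5n_comap_at (H : Tres5eSplit F z P c) (k : ι) [(tres5eMax R z (c k)).IsPrime]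
    {X : R} (hX : Prime X) (hX' : Prime (tres5eBaseToLoc z (c k) X))
    {W₁ : ValuationSubring L}
    (hW₁ : Tres5nIsLoc (ls_localSubring (F := L) (tres5eMax R z (c k)))
      (tres5eBaseToLoc z (c k) X) W₁)
    (V₁ : ValuationSubring F)
    (hV₁ : ∀ x ∈ V₁, ∃ a b : R, ¬ X ∣ b ∧ x * algebraMap R F b = algebraMap R F a)
    (hUX : ∀ x ∈ V₁.nonunits, ∃ v ∈ V₁, x = algebraMap R F X * v) :
    W₁.comap (algebraMap F L) = V₁ := by
  have hsub : ∀ x ∈ V₁, algebraMap F L x ∈ W₁ := by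
    intro x hx
    obtain ⟨a, b, hb, hab⟩ := hV₁ x hx
    refine (hW₁ _).2 ⟨tres5eBaseToLoc z (c k) a, tres5eBaseToLoc z (c k) b,
      fun h => hb (H.dvd_of_dvd_loc k hX b h), ?_⟩
    rw [tres5eBaseToLoc_coe, tres5eBaseToLoc_coe, IsScalarTower.algebraMap_apply R F L,
      IsScalarTower.algebraMap_apply R F L a, ← map_mul, hab]
  ext x
  rw [ValuationSubring.mem_comap]
  constructor
  · intro hx
    by_contra hxV
    have hx0 : x ≠ 0 := fun h0 => hxV (by rw [h0]; exact V₁.zero_mem)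
    have hinv : x⁻¹ ∈ V₁.nonunits := by
      rw [ValuationSubring.mem_nonunits_iff, map_inv₀]
      have h1 : 1 < V₁.valuation x := by
        rw [← not_le, V₁.valuation_le_one_iff]; exact hxV
      exact inv_lt_one_of_one_lt₀ h1
    obtain ⟨v, hv, hxv⟩ := hUX _ hinv
    have hXnu : algebraMap F L (algebraMap R F X) ∈ W₁.nonunits := by
      have := hW₁.mem_nonunits hX'
      rwa [tres5eBaseToLoc_coe, IsScalarTower.algebraMap_apply R F L] at this
    have h1 : W₁.valuation (algebraMap F L x⁻¹) < 1 := by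
      rw [hxv, map_mul, map_mul]
      have hv' : W₁.valuation (algebraMap F L v) ≤ 1 := (W₁.valuation_le_one_iff _).2 (hsub v hv)
      calc W₁.valuation (algebraMap F L (algebraMap R F X)) * W₁.valuation (algebraMap F L v)
          ≤ W₁.valuation (algebraMap F L (algebraMap R F X)) * 1 := by gcongr
        _ = W₁.valuation (algebraMap F L (algebraMap R F X)) := mul_one _
        _ < 1 := (ValuationSubring.mem_nonunits_iff W₁).1 hXnu
    rw [map_inv₀, map_inv₀] at h1
    have h2 : W₁.valuation (algebraMap F L x) ≤ 1 := (W₁.valuation_le_one_iff _).2 hx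
    have hv0 : W₁.valuation (algebraMap F L x) ≠ 0 :=
      (Valuation.ne_zero_iff _).2 ((_root_.map_ne_zero _).2 hx0)
    have h3 : 1 ≤ (W₁.valuation (algebraMap F L x))⁻¹ := (one_le_inv₀ (zero_lt_iff.2 hv0)).2 h2
    exact absurd h1 (not_lt.2 h3)
  · exact hsub x

/-- **One sheet through a point**: a valuation ring `W ⊇ O′_k` of `L` whose restriction `V₁` to
`F` has `X ∈ 𝔪(V₁)`, `Y ∉ 𝔪(V₁)` is `O′_(X)`. -/
theorem tres5n_unique_at (H : Tres5eSplit F z P c) [IsNoetherianRing R] (k : ι)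
    [(tres5eMax R z (c k)).IsPrime]
    {X Y : R} (hmax : maximalIdeal R = Ideal.span {X, Y}) (hX : Prime X)
    {W₁ : ValuationSubring L}
    (hW₁ : Tres5nIsLoc (ls_localSubring (F := L) (tres5eMax R z (c k)))
      (tres5eBaseToLoc z (c k) X) W₁)
    (W : ValuationSubring L)
    (hO'W : ∀ x ∈ ls_localSubring (F := L) (tres5eMax R z (c k)), x ∈ W)
    (V₁ : ValuationSubring F) (hWV : W.comap (algebraMap F L) = V₁)
    (hXV : algebraMap R F X ∈ V₁.nonunits) (hYV : algebraMap R F Y ∉ V₁.nonunits) :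
    W = W₁ := by
  haveI := H.loc_isLocalRing k
  haveI := H.loc_isNoetherianRing k
  have hmax' := H.loc_maximalIdeal k hmax
  have hX' := H.loc_prime k hmax hX
  refine tres5n_unique (ls_localSubring (F := L) (tres5eMax R z (c k)))
    (tres5eBaseToLoc z (c k) X) (tres5eBaseToLoc z (c k) Y) hmax' hX' hW₁ W hO'W ?_ ?_
  · rw [tres5eBaseToLoc_coe, IsScalarTower.algebraMap_apply R F L,
      ← tres5_mem_nonunits_comap, hWV]
    exact hXV
  · rw [tres5eBaseToLoc_coe, IsScalarTower.algebraMap_apply R F L,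
      ← tres5_mem_nonunits_comap, hWV]
    exact hYV

/-- **Every sheet passes through a point above `𝔫`**: a valuation ring `W ⊇ R` of `L` contains
`O′_k` for some `k`. -/
theorem tres5n_exists_le (H : Tres5eSplit F z P c) (W : ValuationSubring L)
    (hRW : ∀ r : R, algebraMap R L r ∈ W) :
    ∃ k : ι, ∀ (_ : (tres5eMax R z (c k)).IsPrime),
      ∀ x ∈ ls_localSubring (F := L) (tres5eMax R z (c k)), x ∈ W := by
  classical
  -- `R[z] ⊆ W`
  have hzW : z ∈ W := tres5e_mem_val_of_isIntegral W hRW H.isIntegral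
  have hΛW : ∀ b : ↥(Algebra.adjoin R ({z} : Set L)), (b : L) ∈ W := by
    intro b
    have hle : Algebra.adjoin R ({z} : Set L) ≤
        { W.toSubring with algebraMap_mem' := hRW } :=
      Algebra.adjoin_le (Set.singleton_subset_iff.2 hzW)
    exact hle b.2
  -- the centre
  let φ : ↥(Algebra.adjoin R ({z} : Set L)) →+* ↥W :=
    (algebraMap ↥(Algebra.adjoin R ({z} : Set L)) L).codRestrict W.toSubring hΛW
  let 𝔮 : Ideal ↥(Algebra.adjoin R ({z} : Set L)) := Ideal.comap φ (maximalIdeal W)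
  have h𝔮 : 𝔮 ≠ ⊤ := (Ideal.comap_isPrime φ (maximalIdeal W)).ne_top
  obtain ⟨𝔐, h𝔐, hle⟩ := Ideal.exists_le_maximal 𝔮 h𝔮
  obtain ⟨k, hk⟩ := H.exists_eq_of_isMaximal 𝔐
  refine ⟨k, fun _ x hx => ?_⟩
  obtain ⟨b, s, hs, hbs⟩ := hx
  -- `s ∉ 𝔮`, so `s` is a unit of `W`
  have hs𝔮 : s ∉ 𝔮 := fun h => hs (hk ▸ hle h)
  have hsW : W.valuation (s : L) = 1 := by
    refine tres5n_val_eq_one W (hΛW s) (fun hnu => hs𝔮 ?_)
    rw [Ideal.mem_comap]
    obtain ⟨hmem, h⟩ := (ValuationSubring.mem_nonunits_iff_exists_mem_maximalIdeal).1 hnu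
    exact h
  refine tres5n_div_mem W (hΛW b) hsW ?_
  rw [mul_comm]; exact hbs

end At

end Fermat.Agent.R38

end
end ZBR38_012_4

/-! ### bundled: `Fermat.Agent.R38.TresMonoNorm` -/
section ZBR38_012_5

/-!
# Row 38, TRES, piece FAC-ASM-MAIN (helper89), part M2: NORMALISATION (helper87)

The raw output of the local factorisation (LF) at a point of the cover (`tres5n_cross_at`,
`tres5n_smooth_at`, `R38/TresNodeAt.lean`) is `u = ε · X ^ a · Y ^ b · γ ^ p` (thin node,
`w ϖ = X Y`) resp. `u = ε · ϖ ^ a · γ ^ p` (smooth point).  The assembly `tresmono_pt`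
(`R38/TresMono.lean`) wants the per-point hypothesis `TresMonoPt W O′ p c e y h` for the
NORMALISED function `y = u / ϖ ^ a` (a unit of the Gauss sheet `W`) and the Ogg unit `h`.

ABSTRACT part (`L` a field, `W : ValuationSubring L` the Gauss sheet, `O′ : Subring L`):

* `tresmn_val`     : `W u = W ϖ ^ a ⇒ W (u / ϖ ^ a) = 1`;
* `tresmn_cross`   : `u = ε X ^ a Y ^ b γ ^ p`, `h = ε′ Y ^ e`, `w ϖ = X Y`, `W Y = 1`,
                     `p ∣ (b − a) − c`  ⇒  `TresMonoPt W O′ p c e (u / ϖ ^ a) h`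
                     (`u / ϖ ^ a = (ε w ^ a) · Y ^ (b − a) · γ ^ p`: node branch with `X := Y`);
* `tresmn_cross'`  : the same with the raw Ogg factorisation `h = ε′ X ^ a′ Y ^ b′` and
                     `W h = 1` (then `a′ = 0`, `e := b′`);
* `tresmn_smooth`  : `u = ε ϖ ^ a γ ^ p`, `h = ε′`  ⇒  `TresMonoPt W O′ p c e (u / ϖ ^ a) h`;
* `tresmn_cusp`    : `u = ε ϖ ^ a γ ^ p`  ⇒  `StbFacAt O′ p (u / ϖ ^ a)`.

INSTANCE part (frame of `R38/TresNodeAt.lean`): `tresmn_cross_at`, `tresmn_smooth_at`,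
`tresmn_cusp_at` call `tres5n_cross_at` / `tres5n_smooth_at` and `tres5n_unique_at`; the second
sheet `W₂` and the exponent `b` stay visible (DECK is plugged by the consumer).
-/

set_option autoImplicit false
set_option linter.unusedSectionVars false
set_option linter.unusedVariables false
set_option linter.style.haveILetI false
set_option linter.style.longLine false

noncomputable section

namespace Fermat.Agent.R38

open IsLocalRing AlgebraicCurve Polynomial Fermat.Agent.UNIP Fermat.Agent.STB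

section Abs

variable {L : Type*} [Field L]

/-- `W u = W ϖ ^ a ⇒ W (u / ϖ ^ a) = 1` -/
theorem tresmn_val (W : ValuationSubring L) {u ϖ : L} (hϖ0 : ϖ ≠ 0) (a : ℤ)
    (h : W.valuation u = W.valuation ϖ ^ a) : W.valuation (u / ϖ ^ a) = 1 := by
  have hv0 : W.valuation ϖ ≠ 0 := (_root_.map_ne_zero _).2 hϖ0
  rw [map_div₀, map_zpow₀, h]
  exact div_self (zpow_ne_zero _ hv0)

/-- the `a`-th power (`a : ℤ`) of a unit of a subring, as an element of the subring -/
theorem tresmn_unit_zpow (O' : Subring L) (w : O') (hw : IsUnit w) (a : ℤ) :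
    ∃ v : O', IsUnit v ∧ (v : L) = (w : L) ^ a := by
  refine ⟨((hw.unit ^ a : O'ˣ) : O'), Units.isUnit _, ?_⟩
  have h1 : ((Units.map (O'.subtype : O' →* L) (hw.unit ^ a) : Lˣ) : L) =
      ((((hw.unit ^ a : O'ˣ)) : O') : L) := rfl
  rw [← h1, map_zpow, Units.val_zpow_eq_zpow_val]
  rfl

/-- **(M2), node.**  `u = ε X ^ a Y ^ b γ ^ p` and `h = ε′ Y ^ e` at a thin node `w ϖ = X Y` on
the sheet `W` where `Y` is a unit: `TresMonoPt` for the normalised `u / ϖ ^ a`. -/
theorem tresmn_cross (W : ValuationSubring L) (O' : Subring L) (ϖ X Y w : O')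
    (hw : IsUnit w) (hϖ : w * ϖ = X * Y) (hYW : W.valuation (Y : L) = 1) (hϖ0 : (ϖ : L) ≠ 0)
    {p : ℕ} (u h γ : L) (ε ε' : O') (hε : IsUnit ε) (hε' : IsUnit ε') (a b e c : ℤ)
    (hγ : γ ≠ 0)
    (hu : u = (ε : L) * (X : L) ^ a * (Y : L) ^ b * γ ^ p)
    (hh : h = (ε' : L) * (Y : L) ^ e)
    (hc : (p : ℤ) ∣ (b - a) - c) :
    TresMonoPt W O' p c e (u / (ϖ : L) ^ a) h := by
  obtain ⟨v, hv, hvw⟩ := tresmn_unit_zpow O' w hw a
  have hY0 : (Y : L) ≠ 0 := by
    intro h0
    rw [h0, map_zero] at hYW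
    exact zero_ne_one hYW
  have hϖL : (w : L) * (ϖ : L) = (X : L) * (Y : L) := by
    have := congrArg (fun z : O' => (z : L)) hϖ
    simpa using this
  have hXeq : (X : L) = (w : L) * (ϖ : L) / (Y : L) := by
    rw [hϖL, mul_div_assoc, div_self hY0, mul_one]
  refine Or.inr ⟨(Y : L), γ, ε * v, ε', b - a, hε.mul hv, hε', hYW, hγ, ?_, hh, hc⟩
  rw [hu, hXeq, Subring.coe_mul, hvw, div_zpow, mul_zpow, zpow_sub₀ hY0]
  have hϖa : (ϖ : L) ^ a ≠ 0 := zpow_ne_zero _ hϖ0
  have hYa : (Y : L) ^ a ≠ 0 := zpow_ne_zero _ hY0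
  field_simp

/-- units of `O′ ⊆ W` have valuation one -/
theorem tresmn_val_unit (W : ValuationSubring L) (O' : Subring L) (hO'W : ∀ x ∈ O', x ∈ W)
    (η : O') (hη : IsUnit η) : W.valuation (η : L) = 1 := by
  obtain ⟨η', hηη'⟩ := hη.exists_right_inv
  have h1 : (η : L) * (η' : L) = 1 := by
    have := congrArg (fun z : O' => (z : L)) hηη'
    simpa using this
  have h2 : W.valuation (η : L) ≤ 1 := (W.valuation_le_one_iff _).2 (hO'W _ η.2)
  have h3 : W.valuation (η' : L) ≤ 1 := (W.valuation_le_one_iff _).2 (hO'W _ η'.2)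
  have h4 : W.valuation (η : L) * W.valuation (η' : L) = 1 := by
    rw [← map_mul, h1, map_one]
  rcases lt_or_eq_of_le h2 with hlt | heq
  · exfalso
    have : W.valuation (η : L) * W.valuation (η' : L) < 1 := by
      calc W.valuation (η : L) * W.valuation (η' : L)
          ≤ W.valuation (η : L) * 1 := by gcongr
        _ = W.valuation (η : L) := mul_one _
        _ < 1 := hlt
    exact absurd h4 (ne_of_lt this)
  · exact heq

/-- at a node `w ϖ = X Y` on a sheet where `Y` is a unit: `W X = W ϖ` -/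
theorem tresmn_val_X (W : ValuationSubring L) (O' : Subring L) (hO'W : ∀ x ∈ O', x ∈ W)
    (ϖ X Y w : O') (hw : IsUnit w) (hϖ : w * ϖ = X * Y) (hYW : W.valuation (Y : L) = 1) :
    W.valuation (X : L) = W.valuation (ϖ : L) := by
  have hϖL : (w : L) * (ϖ : L) = (X : L) * (Y : L) := by
    have := congrArg (fun z : O' => (z : L)) hϖ
    simpa using this
  have h1 := congrArg W.valuation hϖL
  rw [map_mul, map_mul, tresmn_val_unit W O' hO'W w hw, one_mul, hYW, mul_one] at h1
  exact h1.symm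

/-- **the Ogg exponent on the Gauss sheet**: `h = ε′ X ^ a′ Y ^ b′`, `W h = 1`, `X ∈ 𝔪(W)`,
`Y` a unit of `W` ⇒ `a′ = 0`. -/
theorem tresmn_ogg_exp (W : ValuationSubring L) (O' : Subring L) (hO'W : ∀ x ∈ O', x ∈ W)
    (X Y : O') (hYW : W.valuation (Y : L) = 1) (hXW : W.valuation (X : L) < 1)
    (hX0 : (X : L) ≠ 0) (h : L) (ε' : O') (hε' : IsUnit ε') (a' b' : ℤ)
    (hh : h = (ε' : L) * (X : L) ^ a' * (Y : L) ^ b') (hhW : W.valuation h = 1) :
    a' = 0 ∧ h = (ε' : L) * (Y : L) ^ b' := by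
  have ha' : a' = 0 := by
    have h1 := congrArg W.valuation hh
    rw [hhW, map_mul, map_mul, tresmn_val_unit W O' hO'W ε' hε', one_mul, map_zpow₀,
      map_zpow₀, hYW, one_zpow, mul_one] at h1
    exact tresdn_zpow_eq_one W hXW hX0 h1.symm
  exact ⟨ha', by rw [hh, ha', zpow_zero, mul_one]⟩

/-- **(M2), node, raw Ogg factorisation.**  As `tresmn_cross`, with `h = ε′ X ^ a′ Y ^ b′` and
`W h = 1` (then `a′ = 0` by `tresmn_ogg_exp`, and `e := b′`). -/
theorem tresmn_cross' (W : ValuationSubring L) (O' : Subring L) (hO'W : ∀ x ∈ O', x ∈ W)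
    (ϖ X Y w : O')
    (hw : IsUnit w) (hϖ : w * ϖ = X * Y) (hYW : W.valuation (Y : L) = 1)
    (hϖW : W.valuation (ϖ : L) < 1) (hϖ0 : (ϖ : L) ≠ 0)
    {p : ℕ} (u h γ : L) (ε ε' : O') (hε : IsUnit ε) (hε' : IsUnit ε') (a b a' b' c : ℤ)
    (hγ : γ ≠ 0)
    (hu : u = (ε : L) * (X : L) ^ a * (Y : L) ^ b * γ ^ p)
    (hh : h = (ε' : L) * (X : L) ^ a' * (Y : L) ^ b') (hhW : W.valuation h = 1)
    (hc : (p : ℤ) ∣ (b - a) - c) :
    TresMonoPt W O' p c b' (u / (ϖ : L) ^ a) h := by
  have hXW : W.valuation (X : L) < 1 := by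
    rw [tresmn_val_X W O' hO'W ϖ X Y w hw hϖ hYW]
    exact hϖW
  have hX0 : (X : L) ≠ 0 := by
    intro h0
    have h1 := tresmn_val_X W O' hO'W ϖ X Y w hw hϖ hYW
    rw [h0, map_zero] at h1
    exact hϖ0 ((map_eq_zero _).1 h1.symm)
  obtain ⟨-, hh'⟩ := tresmn_ogg_exp W O' hO'W X Y hYW hXW hX0 h ε' hε' a' b' hh hhW
  exact tresmn_cross W O' ϖ X Y w hw hϖ hYW hϖ0 u h γ ε ε' hε hε' a b b' c hγ hu hh' hc

/-- **(M2), cusp / smooth point, the factorisation.**  `u = ε ϖ ^ a γ ^ p` ⇒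
`u / ϖ ^ a = ε γ ^ p`. -/
theorem tresmn_cusp (O' : Subring L) (ϖ : L) (hϖ0 : ϖ ≠ 0) {p : ℕ} (u γ : L) (ε : O')
    (hε : IsUnit ε) (a : ℤ) (hu : u = (ε : L) * ϖ ^ a * γ ^ p) :
    StbFacAt O' p (u / ϖ ^ a) := by
  refine ⟨γ, ε, hε, ?_⟩
  have hϖa : ϖ ^ a ≠ 0 := zpow_ne_zero _ hϖ0
  rw [hu]
  field_simp

/-- **(M2), smooth point.**  `u = ε ϖ ^ a γ ^ p`, `h = ε′` a unit of `O′`. -/
theorem tresmn_smooth (W : ValuationSubring L) (O' : Subring L) (ϖ : L) (hϖ0 : ϖ ≠ 0) {p : ℕ}
    (u h γ : L) (ε ε' : O') (hε : IsUnit ε) (hε' : IsUnit ε') (a e c : ℤ)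
    (hu : u = (ε : L) * ϖ ^ a * γ ^ p) (hh : h = (ε' : L)) :
    TresMonoPt W O' p c e (u / ϖ ^ a) h :=
  Or.inl ⟨tresmn_cusp O' ϖ hϖ0 u γ ε hε a hu, ε', hε', hh⟩

end Abs

/-! ### The instance at helper28's local rings `O′_k` (frame of `R38/TresNodeAt.lean`) -/

section At

variable {R L : Type*} {F : Type*} [CommRing R] [IsDomain R] [Field F] [Field L]
  [Algebra R F] [IsFractionRing R F] [IsIntegrallyClosed R] [IsLocalRing R]
  [Algebra F L] [Algebra R L] [IsScalarTower R F L]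
  {ι : Type*} [Fintype ι] {z : L} {P : R[X]} {c : ι → R}
  {E : Type*} [Field E] [Algebra E F] [Algebra E L] [IsScalarTower E F L]

/-- an element of `R` which is not in `𝔪(V₁)`, `V₁ = W ∩ F`, `W ⊇ O′_k`, is a unit of `W` -/
theorem tresmn_val_base (k : ι) [(tres5eMax R z (c k)).IsPrime] (W : ValuationSubring L)
    (hO'W : ∀ x ∈ ls_localSubring (F := L) (tres5eMax R z (c k)), x ∈ W)
    (V₁ : ValuationSubring F) (hWV : W.comap (algebraMap F L) = V₁)
    {Y : R} (hYV : algebraMap R F Y ∉ V₁.nonunits) : W.valuation (algebraMap R L Y) = 1 := by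
  refine tres5n_val_eq_one W ?_ (fun hnu => hYV ?_)
  · have := hO'W _ (tres5eBaseToLoc z (c k) Y).2
    rwa [tres5eBaseToLoc_coe] at this
  · rw [← hWV, tres5_mem_nonunits_comap, ← IsScalarTower.algebraMap_apply R F L]
    exact hnu

/-- an element of `R` which is in `𝔪(V₁)`, `V₁ = W ∩ F`, is in `𝔪(W)` -/
theorem tresmn_val_base_lt (W : ValuationSubring L)
    (V₁ : ValuationSubring F) (hWV : W.comap (algebraMap F L) = V₁)
    {X : R} (hXV : algebraMap R F X ∈ V₁.nonunits) : W.valuation (algebraMap R L X) < 1 := by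
  rw [← hWV, tres5_mem_nonunits_comap, ← IsScalarTower.algebraMap_apply R F L] at hXV
  exact (ValuationSubring.mem_nonunits_iff W).1 hXV

/-- **(M2), instance at a point of the cover above a THIN node** `𝔪_R = (X, Y)`, `w ϖ = X Y`,
`W` the sheet through the point with `X ∈ 𝔪(W)`, `Y ∉ 𝔪(W)` (the Gauss sheet).  `u` with
`p ∣ ord u` at the horizontal places through the point, `h = ε′ X ^ a′ Y ^ b′` the Ogg unit.
The second sheet `W₂ = O′_(Y)` and the exponent `b = ord_{W₂} u` stay visible. -/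
theorem tresmn_cross_at (H : Tres5eSplit F z P c) [IsNoetherianRing R] (k : ι)
    [(tres5eMax R z (c k)).IsPrime]
    {X Y ϖ w : R} (hmax : maximalIdeal R = Ideal.span {X, Y}) (hX : Prime X) (hY : Prime Y)
    (hXY : ¬ X ∣ Y) (hYX : ¬ Y ∣ X) (hw : IsUnit w) (hϖ : w * ϖ = X * Y)
    (hE : ∀ e : E, ∃ (n : ℕ) (a : R),
      algebraMap E F e * algebraMap R F ϖ ^ n = algebraMap R F a)
    (W : ValuationSubring L)
    (hO'W : ∀ x ∈ ls_localSubring (F := L) (tres5eMax R z (c k)), x ∈ W)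
    (V₁ : ValuationSubring F) (hWV : W.comap (algebraMap F L) = V₁)
    (hXV : algebraMap R F X ∈ V₁.nonunits) (hYV : algebraMap R F Y ∉ V₁.nonunits)
    {p : ℕ} (u h : L) (hu0 : u ≠ 0)
    (hhor : ∀ Pl : Place E L, (∀ x ∈ ls_localSubring (F := L) (tres5eMax R z (c k)),
      x ∈ Pl.toValuationSubring) → (p : ℤ) ∣ Pl.ord u)
    (ε' : ls_localSubring (F := L) (tres5eMax R z (c k))) (hε' : IsUnit ε') (a' b' : ℤ)
    (hh : h = (ε' : L) * algebraMap R L X ^ a' * algebraMap R L Y ^ b')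
    (hhW : W.valuation h = 1) (cc : ℤ) :
    ∃ (W₂ : ValuationSubring L) (a b : ℤ),
      Tres5nIsLoc (ls_localSubring (F := L) (tres5eMax R z (c k)))
        (tres5eBaseToLoc z (c k) Y) W₂ ∧
      W.valuation u = W.valuation (algebraMap R L ϖ) ^ a ∧
      W₂.valuation u = W₂.valuation (algebraMap R L ϖ) ^ b ∧
      a' = 0 ∧
      ((p : ℤ) ∣ (b - a) - cc →
        TresMonoPt W (ls_localSubring (F := L) (tres5eMax R z (c k))) p cc b'
          (u / algebraMap R L ϖ ^ a) h) := by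
  obtain ⟨W₁, W₂, hW₁, hW₂, hLF⟩ :=
    tres5n_cross_at (E := E) H k hmax hX hY hXY hYX hw hϖ hE
  have hWW₁ : W = W₁ := tres5n_unique_at H k hmax hX hW₁ W hO'W V₁ hWV hXV hYV
  subst hWW₁
  obtain ⟨γ, ε, a, b, hε, hy, hγ0, -, -, hv₁, hv₂⟩ := hLF p u hu0 hhor
  have hYW : W.valuation (algebraMap R L Y) = 1 := tresmn_val_base k W hO'W V₁ hWV hYV
  have hXW : W.valuation (algebraMap R L X) < 1 := tresmn_val_base_lt W V₁ hWV hXV
  have hX0 : algebraMap R L X ≠ 0 := by
    rw [IsScalarTower.algebraMap_apply R F L]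
    exact (_root_.map_ne_zero _).2
      ((_root_.map_ne_zero_iff _ (IsFractionRing.injective R F)).2 hX.ne_zero)
  have hϖ' : tres5eBaseToLoc z (c k) w * tres5eBaseToLoc z (c k) ϖ =
      tres5eBaseToLoc z (c k) X * tres5eBaseToLoc z (c k) Y := by
    rw [← map_mul, ← map_mul, hϖ]
  have hϖW : W.valuation (algebraMap R L ϖ) < 1 := by
    have h1 := tresmn_val_X W (ls_localSubring (F := L) (tres5eMax R z (c k))) hO'W
      (tres5eBaseToLoc z (c k) ϖ) (tres5eBaseToLoc z (c k) X) (tres5eBaseToLoc z (c k) Y)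
      (tres5eBaseToLoc z (c k) w) (H.isUnit_loc k hw) hϖ' hYW
    rw [tres5eBaseToLoc_coe, tres5eBaseToLoc_coe] at h1
    rw [← h1]
    exact hXW
  have hϖ0 : algebraMap R L ϖ ≠ 0 := by
    intro h0
    have h1 := tresmn_val_X W (ls_localSubring (F := L) (tres5eMax R z (c k))) hO'W
      (tres5eBaseToLoc z (c k) ϖ) (tres5eBaseToLoc z (c k) X) (tres5eBaseToLoc z (c k) Y)
      (tres5eBaseToLoc z (c k) w) (H.isUnit_loc k hw) hϖ' hYW
    rw [tres5eBaseToLoc_coe, tres5eBaseToLoc_coe, h0, map_zero] at h1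
    exact hX0 ((map_eq_zero _).1 h1)
  obtain ⟨ha', -⟩ := tresmn_ogg_exp W (ls_localSubring (F := L) (tres5eMax R z (c k))) hO'W
    (tres5eBaseToLoc z (c k) X) (tres5eBaseToLoc z (c k) Y) hYW hXW hX0 h ε' hε' a' b' hh hhW
  refine ⟨W₂, a, b, hW₂, hv₁, hv₂, ha', fun hc => ?_⟩
  exact tresmn_cross' W (ls_localSubring (F := L) (tres5eMax R z (c k))) hO'W
    (tres5eBaseToLoc z (c k) ϖ) (tres5eBaseToLoc z (c k) X) (tres5eBaseToLoc z (c k) Y)
    (tres5eBaseToLoc z (c k) w) (H.isUnit_loc k hw) hϖ' hYW hϖW hϖ0 u h γ ε ε' hε hε' a b a' b'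
    cc hγ0 hy hh hhW hc

/-- **(M2), instance at a point of the cover above a smooth point** `𝔪_R = (ϖ, s)`, `W` the
sheet through the point (`ϖ ∈ 𝔪(W)`, `s ∉ 𝔪(W)`): the factorisation of the normalised
`u / ϖ ^ a`, `a = ord_W u`. -/
theorem tresmn_cusp_at (H : Tres5eSplit F z P c) [IsNoetherianRing R] (k : ι)
    [(tres5eMax R z (c k)).IsPrime]
    {ϖ s : R} (hmax : maximalIdeal R = Ideal.span {ϖ, s}) (hϖ : Prime ϖ)
    (hE : ∀ e : E, ∃ (n : ℕ) (a : R),
      algebraMap E F e * algebraMap R F ϖ ^ n = algebraMap R F a)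
    (W : ValuationSubring L)
    (hO'W : ∀ x ∈ ls_localSubring (F := L) (tres5eMax R z (c k)), x ∈ W)
    (V₁ : ValuationSubring F) (hWV : W.comap (algebraMap F L) = V₁)
    (hϖV : algebraMap R F ϖ ∈ V₁.nonunits) (hsV : algebraMap R F s ∉ V₁.nonunits)
    {p : ℕ} (u : L) (hu0 : u ≠ 0)
    (hhor : ∀ Pl : Place E L, (∀ x ∈ ls_localSubring (F := L) (tres5eMax R z (c k)),
      x ∈ Pl.toValuationSubring) → (p : ℤ) ∣ Pl.ord u) :
    ∃ a : ℤ, W.valuation u = W.valuation (algebraMap R L ϖ) ^ a ∧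
      StbFacAt (ls_localSubring (F := L) (tres5eMax R z (c k))) p
        (u / algebraMap R L ϖ ^ a) := by
  obtain ⟨W₁, hW₁, hLF⟩ := tres5n_smooth_at (E := E) H k hmax hϖ hE
  have hWW₁ : W = W₁ := tres5n_unique_at H k hmax hϖ hW₁ W hO'W V₁ hWV hϖV hsV
  subst hWW₁
  obtain ⟨γ, ε, a, hε, hy, hγ0, -, hv⟩ := hLF p u hu0 hhor
  have hϖ0 : algebraMap R L ϖ ≠ 0 := by
    rw [IsScalarTower.algebraMap_apply R F L]
    exact (_root_.map_ne_zero _).2
      ((_root_.map_ne_zero_iff _ (IsFractionRing.injective R F)).2 hϖ.ne_zero)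
  exact ⟨a, hv, tresmn_cusp _ _ hϖ0 u γ ε hε a hy⟩

/-- **(M2), instance above a smooth point, with the Ogg unit** `h = ε′` (a unit of `O′_k`). -/
theorem tresmn_smooth_at (H : Tres5eSplit F z P c) [IsNoetherianRing R] (k : ι)
    [(tres5eMax R z (c k)).IsPrime]
    {ϖ s : R} (hmax : maximalIdeal R = Ideal.span {ϖ, s}) (hϖ : Prime ϖ)
    (hE : ∀ e : E, ∃ (n : ℕ) (a : R),
      algebraMap E F e * algebraMap R F ϖ ^ n = algebraMap R F a)
    (W : ValuationSubring L)
    (hO'W : ∀ x ∈ ls_localSubring (F := L) (tres5eMax R z (c k)), x ∈ W)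
    (V₁ : ValuationSubring F) (hWV : W.comap (algebraMap F L) = V₁)
    (hϖV : algebraMap R F ϖ ∈ V₁.nonunits) (hsV : algebraMap R F s ∉ V₁.nonunits)
    {p : ℕ} (u h : L) (hu0 : u ≠ 0)
    (hhor : ∀ Pl : Place E L, (∀ x ∈ ls_localSubring (F := L) (tres5eMax R z (c k)),
      x ∈ Pl.toValuationSubring) → (p : ℤ) ∣ Pl.ord u)
    (ε' : ls_localSubring (F := L) (tres5eMax R z (c k))) (hε' : IsUnit ε')
    (hh : h = (ε' : L)) (cc e : ℤ) :
    ∃ a : ℤ, W.valuation u = W.valuation (algebraMap R L ϖ) ^ a ∧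
      TresMonoPt W (ls_localSubring (F := L) (tres5eMax R z (c k))) p cc e
        (u / algebraMap R L ϖ ^ a) h := by
  obtain ⟨a, hv, hfac⟩ :=
    tresmn_cusp_at (E := E) H k hmax hϖ hE W hO'W V₁ hWV hϖV hsV u hu0 hhor
  exact ⟨a, hv, Or.inl ⟨hfac, ε', hε', hh⟩⟩

end At

end Fermat.Agent.R38

end
end ZBR38_012_5

/-! ### bundled: `Fermat.Agent.R38.TresMonoZero` -/
section ZBR38_012_6
/-
Row 38, PKG-TRES, MONO, piece MONO-0 (helper14; helper44's ruling 00:34Z = helper92's v5 (1)):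
**all sheets of the cover over one vertical branch have the same order of `u″` modulo `p`.**

Frame of `R38/TresNodeAt.lean`: `R` a noetherian normal local domain (`R = atLoc 𝔫`, `𝔫` ONE thin
node of `X` over `K`, `𝔪_R = (X, Y)`, `w ϖ = X Y`), `F = Frac R`, `L = F[z]`,
`H : Tres5eSplit F z P c`, `O′_k = ls_localSubring (tres5eMax R z (c k))`.
`V₀` a valuation ring of `F` containing `R` with `X ∈ 𝔪(V₀)`, `Y ∉ 𝔪(V₀)` (the branch `X = 0`).

* `tresmz_sheet` : every valuation ring `W` of `L` over `V₀` is `(O′_k)_(X)` for some `k`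
  (`tres5n_exists_le` + `tres5n_unique_at`);
* `tresmz_unif`, `tresmz_sheet_unif` : such a `W` is discrete with uniformizer `ϖ` (`e = 1`);
* `tresmz_isLoc_comap` : an automorphism `ρ` with `ρ⁻¹ O₁ = O₂`, `ρ f₂ = f₁` has
  `ρ⁻¹ (O₁)_(f₁) = (O₂)_(f₂)`;  `tresmz_deck` : `ρ⁻¹ (O′_i)_(X) = (O′_j)_(X)` if `ρ z ≡ c j`
  modulo `(𝔫, z - c i)` (`H.loc_deck`);
* `tresmz_main` : **MONO-0**.  If for all `i j` there is a deck transformation `ρ` with
  `ρ z ≡ c j` mod `(𝔫, z - c i)` and `ρ u = a · u · h ^ p`, `a ∈ F`, `p ∣ ord_{V₀} a`, then for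
  any two valuation rings `W`, `W′` of `L` over `V₀`:  `p ∣ ord_{W′} u − ord_W u`
  (`ord = tres5Ord · ϖ` of `R38/TresCoverOrd.lean`);
* `tresmz_iterate`, `tresmz_main_pow` : the same from ONE `ρ` with `ρ u = a · u · h ^ p` whose
  powers act transitively on the points above `𝔫`;
* `tresmz_pow_of_step` : transitivity from `ρ z ≡ c (σ i)` mod `(𝔫, z - c i)`, `σ` transitive.
-/

set_option autoImplicit false
set_option linter.unusedSectionVars false
set_option linter.unusedVariables false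
set_option linter.style.haveILetI false
set_option linter.style.longLine false

noncomputable section

namespace Fermat.Agent.R38

open IsLocalRing AlgebraicCurve Polynomial Fermat.Agent.UNIP Fermat.Agent.S36 Fermat.Agent.RT.K6

section Abs

variable {L : Type*} [Field L]

/-- `O′_(f)` is discrete with uniformizer `f`: every `x ≠ 0` is `f ^ n · unit`. -/
theorem tresmz_unif (O' : Subring L) [UniqueFactorizationMonoid O']
    (hfrac : ∀ x : L, ∃ a b : O', (b : L) ≠ 0 ∧ x * (b : L) = (a : L))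
    {f : O'} (hf : Prime f) {W : ValuationSubring L} (hW : Tres5nIsLoc O' f W)
    {x : L} (hx : x ≠ 0) : ∃ n : ℤ, W.valuation (x / (f : L) ^ n) = 1 := by
  obtain ⟨a, b, hb0, hab⟩ := hfrac x
  have hb0' : b ≠ 0 := fun h => hb0 (by rw [h]; rfl)
  have ha0 : a ≠ 0 := by
    intro h
    have h1 : (a : L) = 0 := by rw [h]; rfl
    rw [h1] at hab
    rcases mul_eq_zero.mp hab with h2 | h2
    · exact hx h2
    · exact hb0 h2
  obtain ⟨n, a', hn, ha'⟩ := s36n2p_exists_mult hf ha0
  obtain ⟨k, b', hk, hb'⟩ := s36n2p_exists_mult hf hb0'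
  refine ⟨(n : ℤ) - k, ?_⟩
  have hva : W.valuation (a' : L) = 1 := hW.valuation_eq_one hf ha'
  have hvb : W.valuation (b' : L) = 1 := hW.valuation_eq_one hf hb'
  have hf0 : (f : L) ≠ 0 := fun h0 => hf.ne_zero (Subtype.ext h0)
  have hb'0 : (b' : L) ≠ 0 := by
    intro h0
    rw [h0, map_zero] at hvb
    exact zero_ne_one hvb
  have haL : (a : L) = (f : L) ^ n * (a' : L) := by rw [hn]; rfl
  have hbL : (b : L) = (f : L) ^ k * (b' : L) := by rw [hk]; rfl
  have e : x / (f : L) ^ ((n : ℤ) - k) = (a' : L) / (b' : L) := by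
    have hx' : x = (a : L) / (b : L) := by rw [← hab]; field_simp
    rw [hx', haL, hbL, zpow_sub₀ hf0, zpow_natCast, zpow_natCast]
    have h1 := pow_ne_zero n hf0
    have h2 := pow_ne_zero k hf0
    field_simp
  rw [e, map_div₀, hva, hvb, div_one]

/-- transport of `O_(f)` along an automorphism. -/
theorem tresmz_isLoc_comap {O₁ O₂ : Subring L} (ρ : L ≃+* L)
    (hO : ∀ x : L, x ∈ O₂ ↔ ρ x ∈ O₁) {f₁ : O₁} {f₂ : O₂} (hf : ρ (f₂ : L) = (f₁ : L))
    {W₁ : ValuationSubring L} (h₁ : Tres5nIsLoc O₁ f₁ W₁) :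
    Tres5nIsLoc O₂ f₂ (W₁.comap (ρ : L →+* L)) := by
  intro x
  rw [ValuationSubring.mem_comap]
  have hρx : ((ρ : L →+* L) x) = ρ x := rfl
  rw [hρx, h₁ (ρ x)]
  constructor
  · rintro ⟨a, b, hb, hab⟩
    have ha' : ρ.symm (a : L) ∈ O₂ := (hO _).2 (by rw [ρ.apply_symm_apply]; exact a.2)
    have hb' : ρ.symm (b : L) ∈ O₂ := (hO _).2 (by rw [ρ.apply_symm_apply]; exact b.2)
    refine ⟨⟨_, ha'⟩, ⟨_, hb'⟩, ?_, ?_⟩
    · rintro ⟨t, ht⟩
      apply hb
      refine ⟨⟨ρ (t : L), (hO _).1 t.2⟩, Subtype.ext ?_⟩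
      have h1 : ρ.symm (b : L) = (f₂ : L) * (t : L) := congrArg Subtype.val ht
      have h2 : (b : L) = ρ ((f₂ : L) * (t : L)) := by rw [← h1, ρ.apply_symm_apply]
      rw [h2, map_mul, hf]
      rfl
    · apply ρ.injective
      show ρ (x * ρ.symm (b : L)) = ρ (ρ.symm (a : L))
      rw [map_mul, ρ.apply_symm_apply, ρ.apply_symm_apply]
      exact hab
  · rintro ⟨a, b, hb, hab⟩
    refine ⟨⟨ρ (a : L), (hO _).1 a.2⟩, ⟨ρ (b : L), (hO _).1 b.2⟩, ?_, ?_⟩
    · rintro ⟨t, ht⟩
      apply hb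
      have ht' : ρ.symm (t : L) ∈ O₂ := (hO _).2 (by rw [ρ.apply_symm_apply]; exact t.2)
      refine ⟨⟨_, ht'⟩, Subtype.ext ?_⟩
      apply ρ.injective
      show ρ (b : L) = ρ ((f₂ : L) * ρ.symm (t : L))
      rw [map_mul, ρ.apply_symm_apply, hf]
      exact congrArg Subtype.val ht
    · show ρ x * ρ (b : L) = ρ (a : L)
      rw [← map_mul, hab]

end Abs

section Node

variable {R L : Type*} {F : Type*} [CommRing R] [IsDomain R] [Field F] [Field L]
  [Algebra R F] [IsFractionRing R F] [IsIntegrallyClosed R] [IsLocalRing R]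
  [Algebra F L] [Algebra R L] [IsScalarTower R F L]
  {ι : Type*} [Fintype ι] {z : L} {P : R[X]} {c : ι → R}

/-- **every sheet over the branch `X = 0` passes through a point above the node and is the
localisation `(O′_k)_(X)`.** -/
theorem tresmz_sheet (H : Tres5eSplit F z P c) [IsNoetherianRing R] {X Y : R}
    (hmax : maximalIdeal R = Ideal.span {X, Y}) (hX : Prime X)
    (V₀ : ValuationSubring F) (hRV : ∀ r : R, algebraMap R F r ∈ V₀)
    (hXV : algebraMap R F X ∈ V₀.nonunits) (hYV : algebraMap R F Y ∉ V₀.nonunits)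
    (W : ValuationSubring L) (hW : W.comap (algebraMap F L) = V₀) :
    ∃ k : ι, ∀ (_ : (tres5eMax R z (c k)).IsPrime),
      Tres5nIsLoc (ls_localSubring (F := L) (tres5eMax R z (c k)))
        (tres5eBaseToLoc z (c k) X) W := by
  have hRW : ∀ r : R, algebraMap R L r ∈ W := fun r => by
    rw [IsScalarTower.algebraMap_apply R F L, ← ValuationSubring.mem_comap, hW]
    exact hRV r
  obtain ⟨k, hk⟩ := tres5n_exists_le H W hRW
  refine ⟨k, fun inst => ?_⟩
  haveI := inst
  haveI := H.loc_isLocalRing k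
  haveI := H.loc_isNoetherianRing k
  have hmax' := H.loc_maximalIdeal k hmax
  have hX' := H.loc_prime k hmax hX
  haveI : UniqueFactorizationMonoid (ls_localSubring (F := L) (tres5eMax R z (c k))) :=
    rtk6lf_ufd _ _ hmax' hX'
  haveI : IsFractionRing (ls_localSubring (F := L) (tres5eMax R z (c k))) L :=
    s36n2p_isFractionRing _ (H.loc_frac k)
  have hW₁ := tres5n_isLoc_s36 (ls_localSubring (F := L) (tres5eMax R z (c k))) hX'
  have hWeq := tres5n_unique_at H k hmax hX hW₁ W (hk inst) V₀ hW hXV hYV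
  rw [hWeq]
  exact hW₁

/-- `ϖ` is a uniformizer of `V₀`-sheets: `W (ϖ) = W (X)`. -/
theorem tresmz_val_pi (H : Tres5eSplit F z P c) (k : ι) [(tres5eMax R z (c k)).IsPrime]
    {X Y ϖ w : R} (hX : Prime X) (hX' : Prime (tres5eBaseToLoc z (c k) X))
    (hXY : ¬ X ∣ Y) (hw : IsUnit w) (hϖ : w * ϖ = X * Y)
    {W : ValuationSubring L}
    (hW : Tres5nIsLoc (ls_localSubring (F := L) (tres5eMax R z (c k)))
      (tres5eBaseToLoc z (c k) X) W) :
    W.valuation (algebraMap R L ϖ) = W.valuation (algebraMap R L X) := by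
  have hwX : ¬ tres5eBaseToLoc z (c k) X ∣ tres5eBaseToLoc z (c k) w := by
    intro h
    exact hX'.not_isUnit (isUnit_of_dvd_unit h (H.isUnit_loc k hw))
  have h1 : W.valuation (algebraMap R L w) = 1 := by
    have := hW.valuation_eq_one hX' hwX
    rwa [tres5eBaseToLoc_coe] at this
  have h2 : W.valuation (algebraMap R L Y) = 1 := by
    have := hW.valuation_eq_one hX' (H.not_dvd_loc k hX hXY)
    rwa [tres5eBaseToLoc_coe] at this
  have h3 : algebraMap R L w * algebraMap R L ϖ = algebraMap R L X * algebraMap R L Y := by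
    rw [← map_mul, ← map_mul, hϖ]
  have h4 := congrArg W.valuation h3
  rw [map_mul, map_mul, h1, h2, one_mul, mul_one] at h4
  exact h4

/-- **`e = 1`**: every sheet over the branch `X = 0` is discrete with uniformizer `ϖ`. -/
theorem tresmz_sheet_unif (H : Tres5eSplit F z P c) [IsNoetherianRing R] {X Y ϖ w : R}
    (hmax : maximalIdeal R = Ideal.span {X, Y}) (hX : Prime X) (hXY : ¬ X ∣ Y)
    (hw : IsUnit w) (hϖ : w * ϖ = X * Y)
    (V₀ : ValuationSubring F) (hRV : ∀ r : R, algebraMap R F r ∈ V₀)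
    (hXV : algebraMap R F X ∈ V₀.nonunits) (hYV : algebraMap R F Y ∉ V₀.nonunits)
    (W : ValuationSubring L) (hW : W.comap (algebraMap F L) = V₀) {x : L} (hx : x ≠ 0) :
    ∃ n : ℤ, W.valuation (x / algebraMap F L (algebraMap R F ϖ) ^ n) = 1 := by
  obtain ⟨k, hk⟩ := tresmz_sheet H hmax hX V₀ hRV hXV hYV W hW
  haveI := H.isPrime k
  have hWk := hk inferInstance
  haveI := H.loc_isLocalRing k
  haveI := H.loc_isNoetherianRing k
  have hmax' := H.loc_maximalIdeal k hmax
  have hX' := H.loc_prime k hmax hX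
  haveI : UniqueFactorizationMonoid (ls_localSubring (F := L) (tres5eMax R z (c k))) :=
    rtk6lf_ufd _ _ hmax' hX'
  obtain ⟨n, hn⟩ := tresmz_unif _ (H.loc_frac k) hX' hWk hx
  refine ⟨n, ?_⟩
  rw [tres5eBaseToLoc_coe] at hn
  rw [← IsScalarTower.algebraMap_apply R F L]
  rw [map_div₀, map_zpow₀] at hn ⊢
  rw [tresmz_val_pi H k hX hX' hXY hw hϖ hWk]
  exact hn

/-- deck transformations permute the sheets `(O′_k)_(X)`. -/
theorem tresmz_deck (H : Tres5eSplit F z P c) (i j : ι) [(tres5eMax R z (c i)).IsPrime]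
    [(tres5eMax R z (c j)).IsPrime] (ρ : L ≃ₐ[F] L)
    (hρ : ∃ b ∈ tres5eMax R z (c i), ρ z = algebraMap R L (c j) + (b : L)) (X : R)
    {W : ValuationSubring L}
    (hW : Tres5nIsLoc (ls_localSubring (F := L) (tres5eMax R z (c i)))
      (tres5eBaseToLoc z (c i) X) W) :
    Tres5nIsLoc (ls_localSubring (F := L) (tres5eMax R z (c j)))
      (tres5eBaseToLoc z (c j) X) (W.comap ((ρ : L →ₐ[F] L) : L →+* L)) := by
  have h := tresmz_isLoc_comap (O₁ := ls_localSubring (F := L) (tres5eMax R z (c i)))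
    (O₂ := ls_localSubring (F := L) (tres5eMax R z (c j))) (ρ : L ≃+* L)
    (fun x => H.loc_deck i j ρ hρ x)
    (f₁ := tres5eBaseToLoc z (c i) X) (f₂ := tres5eBaseToLoc z (c j) X) (by
      rw [tres5eBaseToLoc_coe, tres5eBaseToLoc_coe]
      show ρ (algebraMap R L X) = algebraMap R L X
      rw [IsScalarTower.algebraMap_apply R F L, AlgEquiv.commutes]) hW
  exact h

/-- `ϖ` is a nonzero non-unit of `V₀`. -/
theorem tresmz_pi_nonunit {X Y ϖ w : R} (hX : Prime X) (hXY : ¬ X ∣ Y)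
    (hw : IsUnit w) (hϖ : w * ϖ = X * Y)
    (V₀ : ValuationSubring F) (hRV : ∀ r : R, algebraMap R F r ∈ V₀)
    (hXV : algebraMap R F X ∈ V₀.nonunits) :
    algebraMap R F ϖ ≠ 0 ∧ algebraMap R F ϖ ∈ V₀.nonunits := by
  have hX0 : X ≠ 0 := hX.ne_zero
  have hY0 : Y ≠ 0 := fun h0 => hXY (by rw [h0]; exact dvd_zero X)
  have hinj : Function.Injective (algebraMap R F) := IsFractionRing.injective R F
  have hϖ0 : ϖ ≠ 0 := by
    rintro rfl
    rw [mul_zero] at hϖ
    exact mul_ne_zero hX0 hY0 hϖ.symm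
  refine ⟨fun h0 => hϖ0 (hinj (h0.trans (map_zero _).symm)), ?_⟩
  obtain ⟨w', hw'⟩ := hw.exists_left_inv
  have e : algebraMap R F ϖ = algebraMap R F (w' * Y) * algebraMap R F X := by
    rw [← map_mul]
    congr 1
    calc ϖ = w' * w * ϖ := by rw [hw', one_mul]
      _ = w' * (w * ϖ) := by ring
      _ = w' * Y * X := by rw [hϖ]; ring
  rw [e]
  rw [ValuationSubring.mem_nonunits_iff] at hXV ⊢
  rw [map_mul]
  have h1 : V₀.valuation (algebraMap R F (w' * Y)) ≤ 1 :=
    (V₀.valuation_le_one_iff _).2 (hRV _)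
  calc V₀.valuation (algebraMap R F (w' * Y)) * V₀.valuation (algebraMap R F X)
      ≤ 1 * V₀.valuation (algebraMap R F X) := by gcongr
    _ = V₀.valuation (algebraMap R F X) := one_mul _
    _ < 1 := hXV

/-- **MONO-0**: the orders of `u` at any two sheets over the branch `X = 0` of ONE thin node
are congruent modulo `p`, if the deck transformations act transitively on the points above the
node and multiply `u` by `a · h ^ p`, `a ∈ F`, `p ∣ ord_{V₀} a`. -/
theorem tresmz_main (H : Tres5eSplit F z P c) [IsNoetherianRing R] {X Y ϖ w : R}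
    (hmax : maximalIdeal R = Ideal.span {X, Y}) (hX : Prime X) (hXY : ¬ X ∣ Y)
    (hw : IsUnit w) (hϖ : w * ϖ = X * Y)
    (V₀ : ValuationSubring F) (hRV : ∀ r : R, algebraMap R F r ∈ V₀)
    (hXV : algebraMap R F X ∈ V₀.nonunits) (hYV : algebraMap R F Y ∉ V₀.nonunits)
    (p : ℕ) {u : L} (hu : u ≠ 0)
    (hdeck : ∀ i j : ι, ∃ (ρ : L ≃ₐ[F] L) (a : F) (h : L),
      (∃ b ∈ tres5eMax R z (c i), ρ z = algebraMap R L (c j) + (b : L)) ∧
      a ≠ 0 ∧ h ≠ 0 ∧ ρ u = algebraMap F L a * u * h ^ p ∧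
      (∃ m : ℤ, V₀.valuation (a / algebraMap R F ϖ ^ m) = 1) ∧
      (p : ℤ) ∣ tres5Ord V₀ (algebraMap R F ϖ) a)
    (W W' : ValuationSubring L) (hW : W.comap (algebraMap F L) = V₀)
    (hW' : W'.comap (algebraMap F L) = V₀) :
    (p : ℤ) ∣ tres5Ord W' (algebraMap F L (algebraMap R F ϖ)) u -
      tres5Ord W (algebraMap F L (algebraMap R F ϖ)) u := by
  obtain ⟨k, hk⟩ := tresmz_sheet H hmax hX V₀ hRV hXV hYV W hW
  obtain ⟨k', hk'⟩ := tresmz_sheet H hmax hX V₀ hRV hXV hYV W' hW'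
  haveI := H.isPrime k
  haveI := H.isPrime k'
  have hWk := hk inferInstance
  have hWk' := hk' inferInstance
  obtain ⟨ρ, a, h, hρz, ha, hh, hρu, hVa, hpa⟩ := hdeck k k'
  have hcomap : W.comap ((ρ : L →ₐ[F] L) : L →+* L) = W' :=
    Tres5nIsLoc.eq (tresmz_deck H k k' ρ hρz X hWk) hWk'
  obtain ⟨hϖF0, hϖnu⟩ := tresmz_pi_nonunit hX hXY hw hϖ V₀ hRV hXV
  exact tres5_deck_congr hW hϖnu hϖF0
    (fun f hf => tresmz_sheet_unif H hmax hX hXY hw hϖ V₀ hRV hXV hYV W hW hf)
    (ρ : L →ₐ[F] L) hcomap p hu ha hh hVa hρu hpa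

/-- iterating `ρ u = a · u · h ^ p`. -/
theorem tresmz_iterate (ρ : L ≃ₐ[F] L) (p : ℕ) {u h : L} {a : F} (hh : h ≠ 0)
    (hρu : ρ u = algebraMap F L a * u * h ^ p) (n : ℕ) :
    ∃ h' : L, h' ≠ 0 ∧ (ρ ^ n) u = algebraMap F L (a ^ n) * u * h' ^ p := by
  induction n with
  | zero => exact ⟨1, one_ne_zero, by simp⟩
  | succ n ih =>
    obtain ⟨h', hh', hn⟩ := ih
    refine ⟨h * ρ h', mul_ne_zero hh ((_root_.map_ne_zero ρ).2 hh'), ?_⟩
    have e1 : (ρ ^ (n + 1)) u = ρ ((ρ ^ n) u) := by rw [pow_succ', AlgEquiv.mul_apply]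
    rw [e1, hn, map_mul, map_mul, map_pow ρ h' p, AlgEquiv.commutes, hρu, map_pow, map_pow,
      mul_pow]
    ring

/-- the powers of a deck transformation with `ρ z ≡ c (σ i)` mod `(𝔫, z - c i)`. -/
theorem tresmz_pow_of_step (H : Tres5eSplit F z P c) (ρ : L ≃ₐ[F] L) (σ : ι → ι)
    (hstep : ∀ i, ∃ b ∈ tres5eMax R z (c i), ρ z = algebraMap R L (c (σ i)) + (b : L))
    (n : ℕ) (i : ι) :
    ∃ b ∈ tres5eMax R z (c i), (ρ ^ n) z = algebraMap R L (c (σ^[n] i)) + (b : L) := by
  induction n with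
  | zero =>
    refine ⟨tres5eGen R z - algebraMap R _ (c i), ?_, ?_⟩
    · exact Ideal.mem_sup_right (Ideal.subset_span rfl)
    · show z = algebraMap R L (c i) + (z - algebraMap R L (c i))
      ring
  | succ n ih =>
    obtain ⟨b', hb', hn⟩ := ih
    obtain ⟨b, hb, hz⟩ := hstep (σ^[n] i)
    refine ⟨H.mapAdj (ρ ^ n) b, (H.deck_max i (σ^[n] i) (ρ ^ n) ⟨b', hb', hn⟩ b).1 hb, ?_⟩
    rw [pow_succ, AlgEquiv.mul_apply, hz, map_add, Tres5eSplit.mapAdj_coe,
      Function.iterate_succ_apply']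
    congr 1
    rw [IsScalarTower.algebraMap_apply R F L, AlgEquiv.commutes]

/-- **MONO-0** for ONE deck transformation whose powers act transitively on the points above
the node. -/
theorem tresmz_main_pow (H : Tres5eSplit F z P c) [IsNoetherianRing R] {X Y ϖ w : R}
    (hmax : maximalIdeal R = Ideal.span {X, Y}) (hX : Prime X) (hXY : ¬ X ∣ Y)
    (hw : IsUnit w) (hϖ : w * ϖ = X * Y)
    (V₀ : ValuationSubring F) (hRV : ∀ r : R, algebraMap R F r ∈ V₀)
    (hXV : algebraMap R F X ∈ V₀.nonunits) (hYV : algebraMap R F Y ∉ V₀.nonunits)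
    (p : ℕ) {u h : L} {a : F} (hu : u ≠ 0) (ha : a ≠ 0) (hh : h ≠ 0)
    (ρ : L ≃ₐ[F] L) (hρu : ρ u = algebraMap F L a * u * h ^ p)
    (hVa : ∃ m : ℤ, V₀.valuation (a / algebraMap R F ϖ ^ m) = 1)
    (hpa : (p : ℤ) ∣ tres5Ord V₀ (algebraMap R F ϖ) a)
    (htr : ∀ i j : ι, ∃ n : ℕ, ∃ b ∈ tres5eMax R z (c i),
      (ρ ^ n) z = algebraMap R L (c j) + (b : L))
    (W W' : ValuationSubring L) (hW : W.comap (algebraMap F L) = V₀)
    (hW' : W'.comap (algebraMap F L) = V₀) :
    (p : ℤ) ∣ tres5Ord W' (algebraMap F L (algebraMap R F ϖ)) u -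
      tres5Ord W (algebraMap F L (algebraMap R F ϖ)) u := by
  obtain ⟨hϖF0, hϖnu⟩ := tresmz_pi_nonunit hX hXY hw hϖ V₀ hRV hXV
  refine tresmz_main H hmax hX hXY hw hϖ V₀ hRV hXV hYV p hu (fun i j => ?_) W W' hW hW'
  obtain ⟨n, hn⟩ := htr i j
  obtain ⟨h', hh', hρn⟩ := tresmz_iterate ρ p hh hρu n
  refine ⟨ρ ^ n, a ^ n, h', hn, pow_ne_zero n ha, hh', hρn, ?_, ?_⟩
  · obtain ⟨m, hm⟩ := hVa
    refine ⟨(n : ℤ) * m, ?_⟩
    have e : a ^ n / algebraMap R F ϖ ^ ((n : ℤ) * m) = (a / algebraMap R F ϖ ^ m) ^ n := by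
      rw [div_pow, ← zpow_natCast (algebraMap R F ϖ ^ m) n, ← zpow_mul, mul_comm]
    rw [e, map_pow, hm, one_pow]
  · rw [tres5Ord_pow hϖnu hϖF0 hVa]
    exact Dvd.dvd.mul_left hpa _

/-- **MONO-0**, step form: `ρ z ≡ c (σ i)` modulo `(𝔫, z - c i)` with `σ` transitive. -/
theorem tresmz_main_step (H : Tres5eSplit F z P c) [IsNoetherianRing R] {X Y ϖ w : R}
    (hmax : maximalIdeal R = Ideal.span {X, Y}) (hX : Prime X) (hXY : ¬ X ∣ Y)
    (hw : IsUnit w) (hϖ : w * ϖ = X * Y)
    (V₀ : ValuationSubring F) (hRV : ∀ r : R, algebraMap R F r ∈ V₀)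
    (hXV : algebraMap R F X ∈ V₀.nonunits) (hYV : algebraMap R F Y ∉ V₀.nonunits)
    (p : ℕ) {u h : L} {a : F} (hu : u ≠ 0) (ha : a ≠ 0) (hh : h ≠ 0)
    (ρ : L ≃ₐ[F] L) (hρu : ρ u = algebraMap F L a * u * h ^ p)
    (hVa : ∃ m : ℤ, V₀.valuation (a / algebraMap R F ϖ ^ m) = 1)
    (hpa : (p : ℤ) ∣ tres5Ord V₀ (algebraMap R F ϖ) a)
    (σ : ι → ι) (hσ : ∀ i j : ι, ∃ n : ℕ, σ^[n] i = j)
    (hstep : ∀ i, ∃ b ∈ tres5eMax R z (c i), ρ z = algebraMap R L (c (σ i)) + (b : L))
    (W W' : ValuationSubring L) (hW : W.comap (algebraMap F L) = V₀)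
    (hW' : W'.comap (algebraMap F L) = V₀) :
    (p : ℤ) ∣ tres5Ord W' (algebraMap F L (algebraMap R F ϖ)) u -
      tres5Ord W (algebraMap F L (algebraMap R F ϖ)) u := by
  refine tresmz_main_pow H hmax hX hXY hw hϖ V₀ hRV hXV hYV p hu ha hh ρ hρu hVa hpa
    (fun i j => ?_) W W' hW hW'
  obtain ⟨n, hn⟩ := hσ i j
  obtain ⟨b, hb, hz⟩ := tresmz_pow_of_step H ρ σ hstep n i
  exact ⟨n, b, hb, by rw [hz, hn]⟩

end Node

end Fermat.Agent.R38

end


end ZBR38_012_6

/-! ### bundled: `Fermat.Agent.R38.TresMonoPt` -/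
section ZBR38_012_7

/-!
# Row 38, TRES, piece FAC-ASM-MAIN (helper89), part M3c: the hypotheses (I3), (I4) at ONE closed point

Frame of `R38/TresNodeAt.lean` (helper92) and `R38/TresMonoNorm.lean` (helper87): `R` a
noetherian normal local domain (`R = atLoc 𝔫`, `𝔫` a closed point of a chart of `X` over `K`),
`F = Frac R`, `L = F[z]` the function field of the cover, `H : Tres5eSplit F z P c`,
`O′_k = ls_localSubring (tres5eMax R z (c k))`, `W` a valuation ring of `L` (the Gauss sheet),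
`V₁ = W ∩ F`.  `u ∈ L` the Kummer function of the cover (`u″`), `m = ord_W u`.

The three theorems have the conclusion of the hypotheses `hfin` / `hcusp` of `tresmono_cover`
and `tresmono_frame` AT THE POINT `𝔫`:

    ∀ T valuation ring of L, R ⊆ T ⊆ W → ∃ O' ⊆ T, TresMonoPt W O' p c e (u / ϖ ^ m) h
                                                    (resp. StbFacAt O' p (u / ϖ ^ m)).

* `tresmono_node_pt`   : `𝔫` a THIN NODE `𝔪_R = (X, Y)`, `w ϖ = X Y`, `X = 0` the branch of `W`;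
  the Ogg unit is `h = ε′ Y ^ e` (helper10), every sheet `W'` over the other branch `V₂`
  (`Y = 0`) has `ord_{W'} u ≡ m₀ mod p` (helper14's MONO-0);  `c = m₀ − m`.
* `tresmono_smooth_pt` : `𝔫` a smooth point `𝔪_R = (ϖ, s)`; `h` a unit of `R`.
* `tresmono_cusp_pt`   : the same without `h`.
-/

set_option autoImplicit false
set_option linter.unusedSectionVars false
set_option linter.unusedVariables false
set_option linter.style.haveILetI false
set_option linter.style.longLine false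

noncomputable section

namespace Fermat.Agent.R38

open IsLocalRing AlgebraicCurve Polynomial Fermat.Agent.UNIP Fermat.Agent.STB

section Pt

variable {R L : Type*} {F : Type*} [CommRing R] [IsDomain R] [Field F] [Field L]
  [Algebra R F] [IsFractionRing R F] [IsIntegrallyClosed R] [IsLocalRing R]
  [Algebra F L] [Algebra R L] [IsScalarTower R F L]
  {ι : Type*} [Fintype ι] {z : L} {P : R[X]} {c : ι → R}
  {E : Type*} [Field E] [Algebra E F] [Algebra E L] [IsScalarTower E F L]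

/-- the exponent of the normalisation is the order on the sheet -/
theorem tresmono_exp_unique (W : ValuationSubring L) {ϖ u : L} (hϖ0 : ϖ ≠ 0)
    (hϖW : W.valuation ϖ < 1) {a m : ℤ} (ha : W.valuation u = W.valuation ϖ ^ a)
    (hm : W.valuation (u / ϖ ^ m) = 1) : a = m :=
  tres5Ord_unique ((ValuationSubring.mem_nonunits_iff W).2 hϖW) hϖ0
    (tresmn_val W hϖ0 a ha) hm

/-- **(I3) at a thin node.** -/
theorem tresmono_node_pt (H : Tres5eSplit F z P c) [IsNoetherianRing R]
    {X Y ϖ w : R} (hmax : maximalIdeal R = Ideal.span {X, Y}) (hX : Prime X) (hY : Prime Y)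
    (hXY : ¬ X ∣ Y) (hYX : ¬ Y ∣ X) (hw : IsUnit w) (hϖ : w * ϖ = X * Y)
    (hE : ∀ e : E, ∃ (n : ℕ) (a : R),
      algebraMap E F e * algebraMap R F ϖ ^ n = algebraMap R F a)
    (W : ValuationSubring L) (V₁ : ValuationSubring F)
    (hWV : W.comap (algebraMap F L) = V₁)
    (hXV : algebraMap R F X ∈ V₁.nonunits) (hYV : algebraMap R F Y ∉ V₁.nonunits)
    {p : ℕ} {u h : L} (hu0 : u ≠ 0)
    (hhor : ∀ (k : ι) [(tres5eMax R z (c k)).IsPrime] (Pl : Place E L),
      (∀ x ∈ ls_localSubring (F := L) (tres5eMax R z (c k)), x ∈ Pl.toValuationSubring) →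
        (p : ℤ) ∣ Pl.ord u)
    -- the Ogg unit
    (ε' : R) (hε' : IsUnit ε') (e : ℤ)
    (hh : h = algebraMap R L ε' * algebraMap R L Y ^ e)
    -- the other branch and MONO-0
    (V₂ : ValuationSubring F)
    (hV₂ : ∀ x ∈ V₂, ∃ a b : R, ¬ Y ∣ b ∧ x * algebraMap R F b = algebraMap R F a)
    (hUY : ∀ x ∈ V₂.nonunits, ∃ v ∈ V₂, x = algebraMap R F Y * v)
    (m₀ : ℤ)
    (hm₀ : ∀ W' : ValuationSubring L, W'.comap (algebraMap F L) = V₂ →
      (p : ℤ) ∣ tres5Ord W' (algebraMap F L (algebraMap R F ϖ)) u - m₀)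
    -- the normalisation
    (m : ℤ) (hm : W.valuation (u / algebraMap R L ϖ ^ m) = 1) :
    ∀ T : ValuationSubring L, (∀ r : R, algebraMap R L r ∈ T) → (∀ x ∈ T, x ∈ W) →
      ∃ O' : Subring L, (∀ x ∈ O', x ∈ T) ∧
        TresMonoPt W O' p (m₀ - m) e (u / algebraMap R L ϖ ^ m) h := by
  intro T hRT hTW
  obtain ⟨k, hk⟩ := tres5n_exists_le H T hRT
  haveI := H.isPrime k
  have hO'T := hk inferInstance
  have hO'W : ∀ x ∈ ls_localSubring (F := L) (tres5eMax R z (c k)), x ∈ W :=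
    fun x hx => hTW x (hO'T x hx)
  haveI := H.loc_isLocalRing k
  -- valuations on `W`
  have hYW : W.valuation (algebraMap R L Y) = 1 := tresmn_val_base k W hO'W V₁ hWV hYV
  have hεW : W.valuation (algebraMap R L ε') = 1 := by
    have := tresmn_val_unit W (ls_localSubring (F := L) (tres5eMax R z (c k))) hO'W
      (tres5eBaseToLoc z (c k) ε') (H.isUnit_loc k hε')
    rwa [tres5eBaseToLoc_coe] at this
  have hhW : W.valuation h = 1 := by
    rw [hh, map_mul, map_zpow₀, hεW, hYW, one_zpow, one_mul]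
  have hh' : h = ((tres5eBaseToLoc z (c k) ε' :
      ls_localSubring (F := L) (tres5eMax R z (c k))) : L) * algebraMap R L X ^ (0 : ℤ) *
        algebraMap R L Y ^ e := by
    rw [tres5eBaseToLoc_coe, zpow_zero, mul_one, hh]
  obtain ⟨W₂, a, b, hW₂, hva, hvb, -, himp⟩ :=
    tresmn_cross_at (E := E) H k hmax hX hY hXY hYX hw hϖ hE W hO'W V₁ hWV hXV hYV u h hu0
      (fun Pl hPl => hhor k Pl hPl) (tres5eBaseToLoc z (c k) ε') (H.isUnit_loc k hε') 0 e hh'
      hhW (m₀ - m)
  -- `ϖ` on `W`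
  have hϖR0 : ϖ ≠ 0 := by
    rintro rfl
    rw [mul_zero] at hϖ
    rcases mul_eq_zero.1 hϖ.symm with h0 | h0
    · exact hX.ne_zero h0
    · exact hY.ne_zero h0
  have hϖ0 : algebraMap R L ϖ ≠ 0 := by
    rw [IsScalarTower.algebraMap_apply R F L]
    exact (_root_.map_ne_zero _).2
      ((_root_.map_ne_zero_iff _ (IsFractionRing.injective R F)).2 hϖR0)
  have hwϖL : algebraMap R L w * algebraMap R L ϖ = algebraMap R L X * algebraMap R L Y := by
    rw [← map_mul, ← map_mul, hϖ]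
  have hwW : W.valuation (algebraMap R L w) = 1 := by
    have := tresmn_val_unit W (ls_localSubring (F := L) (tres5eMax R z (c k))) hO'W
      (tres5eBaseToLoc z (c k) w) (H.isUnit_loc k hw)
    rwa [tres5eBaseToLoc_coe] at this
  have hXW : W.valuation (algebraMap R L X) < 1 := tresmn_val_base_lt W V₁ hWV hXV
  have hϖW : W.valuation (algebraMap R L ϖ) < 1 := by
    have h1 := congrArg W.valuation hwϖL
    rw [map_mul, map_mul, hwW, one_mul, hYW, mul_one] at h1
    rw [h1]
    exact hXW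
  have ham : a = m := tresmono_exp_unique W hϖ0 hϖW hva hm
  subst ham
  -- the other sheet
  haveI := H.loc_isNoetherianRing k
  have hmaxY : maximalIdeal R = Ideal.span {Y, X} := by rw [hmax, Set.pair_comm]
  have hY' : Prime (tres5eBaseToLoc z (c k) Y) := H.loc_prime k hmaxY hY
  have hW₂V : W₂.comap (algebraMap F L) = V₂ := tres5n_comap_at H k hY hY' hW₂ V₂ hV₂ hUY
  have hϖW₂ : algebraMap R L ϖ ∈ W₂.nonunits := by
    have hYnu : algebraMap R L Y ∈ W₂.nonunits := by
      have := hW₂.mem_nonunits hY'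
      rwa [tres5eBaseToLoc_coe] at this
    have hXmem : algebraMap R L X ∈ W₂ := by
      have := hW₂.le hY' (tres5eBaseToLoc z (c k) X).2
      rwa [tres5eBaseToLoc_coe] at this
    have hwW₂ : W₂.valuation (algebraMap R L w) = 1 := by
      have := tresmn_val_unit W₂ (ls_localSubring (F := L) (tres5eMax R z (c k)))
        (fun x hx => hW₂.le hY' hx) (tres5eBaseToLoc z (c k) w) (H.isUnit_loc k hw)
      rwa [tres5eBaseToLoc_coe] at this
    rw [ValuationSubring.mem_nonunits_iff]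
    have h1 := congrArg W₂.valuation hwϖL
    rw [map_mul, map_mul, hwW₂, one_mul] at h1
    rw [h1]
    calc W₂.valuation (algebraMap R L X) * W₂.valuation (algebraMap R L Y)
        ≤ 1 * W₂.valuation (algebraMap R L Y) := by
          gcongr
          exact (W₂.valuation_le_one_iff _).2 hXmem
      _ = W₂.valuation (algebraMap R L Y) := one_mul _
      _ < 1 := (ValuationSubring.mem_nonunits_iff W₂).1 hYnu
  have hb : tres5Ord W₂ (algebraMap F L (algebraMap R F ϖ)) u = b := by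
    rw [← IsScalarTower.algebraMap_apply R F L]
    exact tres5Ord_eq hϖW₂ hϖ0 (tresmn_val W₂ hϖ0 b hvb)
  have hdvd : (p : ℤ) ∣ (b - a) - (m₀ - a) := by
    have := hm₀ W₂ hW₂V
    rw [hb] at this
    have e1 : (b - a) - (m₀ - a) = b - m₀ := by ring
    rw [e1]
    exact this
  exact ⟨ls_localSubring (F := L) (tres5eMax R z (c k)), hO'T, himp hdvd⟩

/-- **(I3) at a smooth point.** -/
theorem tresmono_smooth_pt (H : Tres5eSplit F z P c) [IsNoetherianRing R]
    {ϖ s : R} (hmax : maximalIdeal R = Ideal.span {ϖ, s}) (hϖ : Prime ϖ)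
    (hE : ∀ e : E, ∃ (n : ℕ) (a : R),
      algebraMap E F e * algebraMap R F ϖ ^ n = algebraMap R F a)
    (W : ValuationSubring L) (V₁ : ValuationSubring F)
    (hWV : W.comap (algebraMap F L) = V₁)
    (hϖV : algebraMap R F ϖ ∈ V₁.nonunits) (hsV : algebraMap R F s ∉ V₁.nonunits)
    {p : ℕ} {u h : L} (hu0 : u ≠ 0)
    (hhor : ∀ (k : ι) [(tres5eMax R z (c k)).IsPrime] (Pl : Place E L),
      (∀ x ∈ ls_localSubring (F := L) (tres5eMax R z (c k)), x ∈ Pl.toValuationSubring) →
        (p : ℤ) ∣ Pl.ord u)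
    (ε' : R) (hε' : IsUnit ε') (hh : h = algebraMap R L ε') (cc e : ℤ)
    (m : ℤ) (hm : W.valuation (u / algebraMap R L ϖ ^ m) = 1) :
    ∀ T : ValuationSubring L, (∀ r : R, algebraMap R L r ∈ T) → (∀ x ∈ T, x ∈ W) →
      ∃ O' : Subring L, (∀ x ∈ O', x ∈ T) ∧
        TresMonoPt W O' p cc e (u / algebraMap R L ϖ ^ m) h := by
  intro T hRT hTW
  obtain ⟨k, hk⟩ := tres5n_exists_le H T hRT
  haveI := H.isPrime k
  have hO'T := hk inferInstance
  have hO'W : ∀ x ∈ ls_localSubring (F := L) (tres5eMax R z (c k)), x ∈ W :=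
    fun x hx => hTW x (hO'T x hx)
  obtain ⟨a, hva, hpt⟩ :=
    tresmn_smooth_at (E := E) H k hmax hϖ hE W hO'W V₁ hWV hϖV hsV u h hu0
      (fun Pl hPl => hhor k Pl hPl) (tres5eBaseToLoc z (c k) ε') (H.isUnit_loc k hε')
      (by rw [tres5eBaseToLoc_coe, hh]) cc e
  have hϖ0 : algebraMap R L ϖ ≠ 0 := by
    rw [IsScalarTower.algebraMap_apply R F L]
    exact (_root_.map_ne_zero _).2
      ((_root_.map_ne_zero_iff _ (IsFractionRing.injective R F)).2 hϖ.ne_zero)
  have hϖW : W.valuation (algebraMap R L ϖ) < 1 := tresmn_val_base_lt W V₁ hWV hϖV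
  have ham : a = m := tresmono_exp_unique W hϖ0 hϖW hva hm
  subst ham
  exact ⟨ls_localSubring (F := L) (tres5eMax R z (c k)), hO'T, hpt⟩

/-- **(I4) at a cusp** (a smooth point; no condition on the Ogg unit). -/
theorem tresmono_cusp_pt (H : Tres5eSplit F z P c) [IsNoetherianRing R]
    {ϖ s : R} (hmax : maximalIdeal R = Ideal.span {ϖ, s}) (hϖ : Prime ϖ)
    (hE : ∀ e : E, ∃ (n : ℕ) (a : R),
      algebraMap E F e * algebraMap R F ϖ ^ n = algebraMap R F a)
    (W : ValuationSubring L) (V₁ : ValuationSubring F)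
    (hWV : W.comap (algebraMap F L) = V₁)
    (hϖV : algebraMap R F ϖ ∈ V₁.nonunits) (hsV : algebraMap R F s ∉ V₁.nonunits)
    {p : ℕ} {u : L} (hu0 : u ≠ 0)
    (hhor : ∀ (k : ι) [(tres5eMax R z (c k)).IsPrime] (Pl : Place E L),
      (∀ x ∈ ls_localSubring (F := L) (tres5eMax R z (c k)), x ∈ Pl.toValuationSubring) →
        (p : ℤ) ∣ Pl.ord u)
    (m : ℤ) (hm : W.valuation (u / algebraMap R L ϖ ^ m) = 1) :
    ∀ T : ValuationSubring L, (∀ r : R, algebraMap R L r ∈ T) → (∀ x ∈ T, x ∈ W) →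
      ∃ O' : Subring L, (∀ x ∈ O', x ∈ T) ∧ StbFacAt O' p (u / algebraMap R L ϖ ^ m) := by
  intro T hRT hTW
  obtain ⟨k, hk⟩ := tres5n_exists_le H T hRT
  haveI := H.isPrime k
  have hO'T := hk inferInstance
  have hO'W : ∀ x ∈ ls_localSubring (F := L) (tres5eMax R z (c k)), x ∈ W :=
    fun x hx => hTW x (hO'T x hx)
  obtain ⟨a, hva, hfac⟩ :=
    tresmn_cusp_at (E := E) H k hmax hϖ hE W hO'W V₁ hWV hϖV hsV u hu0
      (fun Pl hPl => hhor k Pl hPl)
  have hϖ0 : algebraMap R L ϖ ≠ 0 := by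
    rw [IsScalarTower.algebraMap_apply R F L]
    exact (_root_.map_ne_zero _).2
      ((_root_.map_ne_zero_iff _ (IsFractionRing.injective R F)).2 hϖ.ne_zero)
  have hϖW : W.valuation (algebraMap R L ϖ) < 1 := tresmn_val_base_lt W V₁ hWV hϖV
  have ham : a = m := tresmono_exp_unique W hϖ0 hϖW hva hm
  subst ham
  exact ⟨ls_localSubring (F := L) (tres5eMax R z (c k)), hO'T, hfac⟩

end Pt

end Fermat.Agent.R38

end
end ZBR38_012_7

/-! ### bundled: `Fermat.Agent.R38.TresMonoZeroK` -/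
section ZBR38_012_8
/-
Row 38, PKG-TRES, MONO, piece DECK-K (helper14): the deck transformation on the K-FORM.

Frame of `R38/TresKFormPt.lean` (helper53): `H : Tres5eSplit F z P c` the split structure of the
cover at a closed point over a BIG field (`R`, `F = Frac R`, `L = F[z]`), `HK : Tres5eSplit FK zK
PK cK` its descent to `K` (`RK`, `FK`, `LK`, output of `tres5kp_descend`), with
`hz : zK ≡ cK i` modulo `𝔐 i = (𝔫, z − c i)` for every `i`.  `ρ` a deck transformation of `L / F`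
with `ρ z ≡ c (σ i)` modulo `𝔐 i`, inducing `ρK` on `LK`.

* `tresmzk_map_base`, `tresmzk_mem_adjoin` : `RK[zK] ⊆ R[z]` inside `L`;
* `tresmzk_comap_max` : `𝔐 i ∩ RK[zK] = (𝔫_K, zK − cK i)`;
* `tresmzk_step`  : **`ρK zK ≡ cK (σ i)` modulo `(𝔫_K, zK − cK i)`** — the hypothesis `hstep` of
  `tresmz_main_step` (R38/TresMonoZero.lean) over `K`;
* `tresmzk_main`, `tresmzk_main_zmod` (sheets indexed by `ZMod p`, `σ i = i + 1`) : MONO-0 over `K` from the big-field deck relation: for a thin node of `X` over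
  `K` (`𝔪_{RK} = (X, Y)`, `w ϖ = X Y`) and `ρK u = a · u · h ^ p`, `p ∣ ord_{V₀} a`, any two valuation
  rings `W`, `W′` of `LK` over the branch `V₀` have `p ∣ ord_{W′} u − ord_W u`.
-/

set_option autoImplicit false
set_option linter.unusedSectionVars false
set_option linter.unusedVariables false
set_option linter.style.haveILetI false
set_option linter.style.longLine false

noncomputable section

namespace Fermat.Agent.R38

open IsLocalRing Polynomial Fermat.Agent.UNIP

section DeckK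

variable {R F L RK FK LK : Type*}
  [CommRing R] [IsDomain R] [Field F] [Field L] [Algebra R F] [IsFractionRing R F]
  [IsIntegrallyClosed R] [IsLocalRing R] [Algebra F L] [Algebra R L] [IsScalarTower R F L]
  [CommRing RK] [IsDomain RK] [Field FK] [Field LK] [Algebra RK FK] [IsFractionRing RK FK]
  [IsIntegrallyClosed RK] [IsLocalRing RK] [Algebra FK LK] [Algebra RK LK]
  [IsScalarTower RK FK LK]
  [Algebra FK F] [Algebra LK L] [Algebra FK L] [IsScalarTower FK LK L] [IsScalarTower FK F L]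
  {ι : Type*} [Fintype ι]

/-- the two structure maps `RK → L` agree. -/
theorem tresmzk_map_base (j₀ : RK →+* R)
    (hj₀ : ∀ r : RK, algebraMap R F (j₀ r) = algebraMap FK F (algebraMap RK FK r)) (r : RK) :
    algebraMap LK L (algebraMap RK LK r) = algebraMap R L (j₀ r) := by
  rw [IsScalarTower.algebraMap_apply RK FK LK, ← IsScalarTower.algebraMap_apply FK LK L,
    IsScalarTower.algebraMap_apply FK F L, ← hj₀, ← IsScalarTower.algebraMap_apply R F L]

/-- `RK[zK] ⊆ R[z]` inside `L`. -/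
theorem tresmzk_mem_adjoin {z : L} {P : R[X]} {c : ι → R} (H : Tres5eSplit F z P c)
    {zK : LK} {PK : RK[X]} {cK : ι → RK} (HK : Tres5eSplit FK zK PK cK) (j₀ : RK →+* R)
    (hj₀ : ∀ r : RK, algebraMap R F (j₀ r) = algebraMap FK F (algebraMap RK FK r))
    (b : ↥(Algebra.adjoin RK ({zK} : Set LK))) :
    algebraMap LK L (b : LK) ∈ Algebra.adjoin R ({z} : Set L) := by
  refine H.integral_mem ?_
  have hb : IsIntegral RK (b : LK) := tres5e_isIntegral_of_mem HK.isIntegral b.2
  exact IsIntegral.map_of_comp_eq j₀ (algebraMap LK L)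
    (by ext r; exact (tresmzk_map_base j₀ hj₀ r).symm) hb

/-- the ring homomorphism `RK[zK] → R[z]`. -/
def tresmzkInc {z : L} {P : R[X]} {c : ι → R} (H : Tres5eSplit F z P c)
    {zK : LK} {PK : RK[X]} {cK : ι → RK} (HK : Tres5eSplit FK zK PK cK) (j₀ : RK →+* R)
    (hj₀ : ∀ r : RK, algebraMap R F (j₀ r) = algebraMap FK F (algebraMap RK FK r)) :
    ↥(Algebra.adjoin RK ({zK} : Set LK)) →+* ↥(Algebra.adjoin R ({z} : Set L)) :=
  ((algebraMap LK L).comp (Algebra.adjoin RK ({zK} : Set LK)).val.toRingHom).codRestrict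
    (Algebra.adjoin R ({z} : Set L)).toSubring (fun b => tresmzk_mem_adjoin H HK j₀ hj₀ b)

theorem tresmzkInc_coe {z : L} {P : R[X]} {c : ι → R} (H : Tres5eSplit F z P c)
    {zK : LK} {PK : RK[X]} {cK : ι → RK} (HK : Tres5eSplit FK zK PK cK) (j₀ : RK →+* R)
    (hj₀ : ∀ r : RK, algebraMap R F (j₀ r) = algebraMap FK F (algebraMap RK FK r))
    (b : ↥(Algebra.adjoin RK ({zK} : Set LK))) :
    ((tresmzkInc H HK j₀ hj₀ b : ↥(Algebra.adjoin R ({z} : Set L))) : L) =
      algebraMap LK L (b : LK) := rfl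

/-- **`𝔐 i ∩ RK[zK] = (𝔫_K, zK − cK i)`.** -/
theorem tresmzk_comap_max {z : L} {P : R[X]} {c : ι → R} (H : Tres5eSplit F z P c)
    {zK : LK} {PK : RK[X]} {cK : ι → RK} (HK : Tres5eSplit FK zK PK cK) (j₀ : RK →+* R)
    (hj₀ : ∀ r : RK, algebraMap R F (j₀ r) = algebraMap FK F (algebraMap RK FK r))
    (hloc : ∀ r ∈ maximalIdeal RK, j₀ r ∈ maximalIdeal R)
    (hz : ∀ i, ∃ b ∈ tres5eMax R z (c i),
      algebraMap LK L zK = algebraMap R L (j₀ (cK i)) + (b : L)) (i : ι) :
    Ideal.comap (tresmzkInc H HK j₀ hj₀) (tres5eMax R z (c i)) = tres5eMax RK zK (cK i) := by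
  haveI := H.isPrime i
  have hne : Ideal.comap (tresmzkInc H HK j₀ hj₀) (tres5eMax R z (c i)) ≠ ⊤ :=
    (Ideal.comap_isPrime _ _).ne_top
  refine ((HK.isMaximal i).eq_of_le hne ?_).symm
  rw [tres5eMax, sup_le_iff]
  constructor
  · rw [Ideal.map_le_iff_le_comap]
    intro r hr
    rw [Ideal.mem_comap, Ideal.mem_comap]
    have e : tresmzkInc H HK j₀ hj₀ (algebraMap RK _ r) = algebraMap R _ (j₀ r) := by
      apply Subtype.ext
      rw [tresmzkInc_coe]
      exact tresmzk_map_base j₀ hj₀ r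
    rw [e]
    exact tres5e_map_le_max z (c i) (Ideal.mem_map_of_mem _ (hloc r hr))
  · rw [Ideal.span_le, Set.singleton_subset_iff, SetLike.mem_coe, Ideal.mem_comap]
    obtain ⟨b, hb, hzb⟩ := hz i
    have e : tresmzkInc H HK j₀ hj₀ (tres5eGen RK zK - algebraMap RK _ (cK i)) = b := by
      apply Subtype.ext
      rw [tresmzkInc_coe]
      show algebraMap LK L (zK - algebraMap RK LK (cK i)) = (b : L)
      rw [map_sub, tresmzk_map_base j₀ hj₀, hzb]
      ring
    rw [e]
    exact hb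

/-- **DECK-K**: `ρK zK ≡ cK (σ i)` modulo `(𝔫_K, zK − cK i)`. -/
theorem tresmzk_step {z : L} {P : R[X]} {c : ι → R} (H : Tres5eSplit F z P c)
    {zK : LK} {PK : RK[X]} {cK : ι → RK} (HK : Tres5eSplit FK zK PK cK) (j₀ : RK →+* R)
    (hj₀ : ∀ r : RK, algebraMap R F (j₀ r) = algebraMap FK F (algebraMap RK FK r))
    (hloc : ∀ r ∈ maximalIdeal RK, j₀ r ∈ maximalIdeal R)
    (hz : ∀ i, ∃ b ∈ tres5eMax R z (c i),
      algebraMap LK L zK = algebraMap R L (j₀ (cK i)) + (b : L))
    (σ : ι → ι) (ρ : L ≃ₐ[F] L)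
    (hρ : ∀ i, ∃ b ∈ tres5eMax R z (c i), ρ z = algebraMap R L (c (σ i)) + (b : L))
    (ρK : LK ≃ₐ[FK] LK) (hρK : ∀ y : LK, algebraMap LK L (ρK y) = ρ (algebraMap LK L y))
    (i : ι) :
    ∃ b ∈ tres5eMax RK zK (cK i), ρK zK = algebraMap RK LK (cK (σ i)) + (b : LK) := by
  set β : ↥(Algebra.adjoin RK ({zK} : Set LK)) :=
    HK.mapAdj ρK (tres5eGen RK zK) - algebraMap RK _ (cK (σ i)) with hβ
  have hβL : (β : LK) = ρK zK - algebraMap RK LK (cK (σ i)) := rfl
  refine ⟨β, ?_, by rw [hβL]; ring⟩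
  rw [← tresmzk_comap_max H HK j₀ hj₀ hloc hz i, Ideal.mem_comap]
  obtain ⟨b', hb', hzb'⟩ := hz (σ i)
  have e : tresmzkInc H HK j₀ hj₀ β = H.mapAdj ρ b' := by
    apply Subtype.ext
    rw [tresmzkInc_coe, Tres5eSplit.mapAdj_coe, hβL, map_sub, hρK, tresmzk_map_base j₀ hj₀, hzb',
      map_add]
    have h1 : ρ (algebraMap R L (j₀ (cK (σ i)))) = algebraMap R L (j₀ (cK (σ i))) := by
      rw [IsScalarTower.algebraMap_apply R F L, AlgEquiv.commutes]
    rw [h1]
    ring
  rw [e]
  exact (H.deck_max i (σ i) ρ (hρ i) b').1 hb'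

/-- **MONO-0 over `K`** from the big-field deck relation. -/
theorem tresmzk_main {z : L} {P : R[X]} {c : ι → R} (H : Tres5eSplit F z P c)
    {zK : LK} {PK : RK[X]} {cK : ι → RK} (HK : Tres5eSplit FK zK PK cK) (j₀ : RK →+* R)
    (hj₀ : ∀ r : RK, algebraMap R F (j₀ r) = algebraMap FK F (algebraMap RK FK r))
    (hloc : ∀ r ∈ maximalIdeal RK, j₀ r ∈ maximalIdeal R)
    (hz : ∀ i, ∃ b ∈ tres5eMax R z (c i),
      algebraMap LK L zK = algebraMap R L (j₀ (cK i)) + (b : L))
    (σ : ι → ι) (hσ : ∀ i j : ι, ∃ n : ℕ, σ^[n] i = j) (ρ : L ≃ₐ[F] L)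
    (hρ : ∀ i, ∃ b ∈ tres5eMax R z (c i), ρ z = algebraMap R L (c (σ i)) + (b : L))
    (ρK : LK ≃ₐ[FK] LK) (hρK : ∀ y : LK, algebraMap LK L (ρK y) = ρ (algebraMap LK L y))
    [IsNoetherianRing RK] {X Y ϖ w : RK}
    (hmax : maximalIdeal RK = Ideal.span {X, Y}) (hX : Prime X) (hXY : ¬ X ∣ Y)
    (hw : IsUnit w) (hϖ : w * ϖ = X * Y)
    (V₀ : ValuationSubring FK) (hRV : ∀ r : RK, algebraMap RK FK r ∈ V₀)
    (hXV : algebraMap RK FK X ∈ V₀.nonunits) (hYV : algebraMap RK FK Y ∉ V₀.nonunits)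
    (p : ℕ) {u h : LK} {a : FK} (hu : u ≠ 0) (ha : a ≠ 0) (hh : h ≠ 0)
    (hρu : ρK u = algebraMap FK LK a * u * h ^ p)
    (hVa : ∃ m : ℤ, V₀.valuation (a / algebraMap RK FK ϖ ^ m) = 1)
    (hpa : (p : ℤ) ∣ tres5Ord V₀ (algebraMap RK FK ϖ) a)
    (W W' : ValuationSubring LK) (hW : W.comap (algebraMap FK LK) = V₀)
    (hW' : W'.comap (algebraMap FK LK) = V₀) :
    (p : ℤ) ∣ tres5Ord W' (algebraMap FK LK (algebraMap RK FK ϖ)) u -
      tres5Ord W (algebraMap FK LK (algebraMap RK FK ϖ)) u :=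
  tresmz_main_step HK hmax hX hXY hw hϖ V₀ hRV hXV hYV p hu ha hh ρK hρu hVa hpa σ hσ
    (tresmzk_step H HK j₀ hj₀ hloc hz σ ρ hρ ρK hρK) W W' hW hW'

/-- the shift by `1` is transitive on `ZMod p`. -/
theorem tresmzk_shift_trans (p : ℕ) [NeZero p] (i j : ZMod p) :
    ∃ n : ℕ, (fun k : ZMod p => k + 1)^[n] i = j := by
  have h : ∀ n : ℕ, (fun k : ZMod p => k + 1)^[n] i = i + n := by
    intro n
    induction n with
    | zero => simp
    | succ n ih => rw [Function.iterate_succ_apply', ih, Nat.cast_succ, add_assoc]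
  refine ⟨(j - i).val, ?_⟩
  rw [h, ZMod.natCast_zmod_val]
  ring

/-- **MONO-0 over `K`**, in the shape of `tres5kp_descend` (sheets indexed by `ZMod p`,
`ρ z ≡ c (i + 1)` modulo `𝔐 i`). -/
theorem tresmzk_main_zmod {p : ℕ} [hp : Fact p.Prime] {z : L} {P : R[X]} {c : ZMod p → R}
    (H : Tres5eSplit F z P c)
    {zK : LK} {PK : RK[X]} {cK : ZMod p → RK} (HK : Tres5eSplit FK zK PK cK) (j₀ : RK →+* R)
    (hj₀ : ∀ r : RK, algebraMap R F (j₀ r) = algebraMap FK F (algebraMap RK FK r))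
    (hloc : ∀ r ∈ maximalIdeal RK, j₀ r ∈ maximalIdeal R)
    (hz : ∀ i, ∃ b ∈ tres5eMax R z (c i),
      algebraMap LK L zK = algebraMap R L (j₀ (cK i)) + (b : L))
    (ρ : L ≃ₐ[F] L)
    (hρ : ∀ i : ZMod p, ∃ b ∈ tres5eMax R z (c i),
      ρ z = algebraMap R L (c (i + 1)) + (b : L))
    (ρK : LK ≃ₐ[FK] LK) (hρK : ∀ y : LK, algebraMap LK L (ρK y) = ρ (algebraMap LK L y))
    [IsNoetherianRing RK] {X Y ϖ w : RK}
    (hmax : maximalIdeal RK = Ideal.span {X, Y}) (hX : Prime X) (hXY : ¬ X ∣ Y)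
    (hw : IsUnit w) (hϖ : w * ϖ = X * Y)
    (V₀ : ValuationSubring FK) (hRV : ∀ r : RK, algebraMap RK FK r ∈ V₀)
    (hXV : algebraMap RK FK X ∈ V₀.nonunits) (hYV : algebraMap RK FK Y ∉ V₀.nonunits)
    (m : ℕ) {u h : LK} {a : FK} (hu : u ≠ 0) (ha : a ≠ 0) (hh : h ≠ 0)
    (hρu : ρK u = algebraMap FK LK a * u * h ^ m)
    (hVa : ∃ k : ℤ, V₀.valuation (a / algebraMap RK FK ϖ ^ k) = 1)
    (hpa : (m : ℤ) ∣ tres5Ord V₀ (algebraMap RK FK ϖ) a)
    (W W' : ValuationSubring LK) (hW : W.comap (algebraMap FK LK) = V₀)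
    (hW' : W'.comap (algebraMap FK LK) = V₀) :
    (m : ℤ) ∣ tres5Ord W' (algebraMap FK LK (algebraMap RK FK ϖ)) u -
      tres5Ord W (algebraMap FK LK (algebraMap RK FK ϖ)) u :=
  haveI : NeZero p := ⟨hp.out.ne_zero⟩
  tresmzk_main H HK j₀ hj₀ hloc hz (fun k : ZMod p => k + 1) (tresmzk_shift_trans p) ρ hρ ρK hρK
    hmax hX hXY hw hϖ V₀ hRV hXV hYV m hu ha hh hρu hVa hpa W W' hW hW'

end DeckK

end Fermat.Agent.R38

end


end ZBR38_012_8

/-! ### bundled: `Fermat.Agent.R38.TresMonoZeroKum` -/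
section ZBR38_012_9
/-
Row 38, PKG-TRES, MONO, piece MONO-0 / KUM adapter (helper14).

helper64's FAC-KUM (`tres5dk_main`, R38/TresKumK.lean) gives the constant of the deck relation
in the shape `a = υ · (ϖ ^ m) ^ p`, `υ` a unit.  This file turns that shape into the two
hypotheses `hVa`, `hpa` of MONO-0 (`tresmz_main_pow`, `tresmz_main_step`, `tresmzk_main`,
`tresmzk_main_zmod`):

* `tresmz_kum_ord`  : `a = υ · (ϖ ^ m) ^ p`, `υ, υ⁻¹ ∈ V₀`  ⇒
      `(∃ k, V₀ (a / ϖ ^ k) = 1) ∧ p ∣ tres5Ord V₀ ϖ a`;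
* `tresmz_main_step_kum`, `tresmzk_main_zmod_kum` : MONO-0 with the KUM shape as hypothesis;
* `tresmz_ref` : the reference form consumed by `tresmono_node_pt` (hypothesis `hm₀`):
      `∃ m₀, ∀ W′ over V₀, p ∣ tres5Ord W′ ϖ u − m₀`   from   `∀ W W′ over V₀, p ∣ ord_{W′} − ord_W`.
-/

set_option autoImplicit false
set_option linter.unusedSectionVars false
set_option linter.unusedVariables false
set_option linter.style.haveILetI false
set_option linter.style.longLine false

noncomputable section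

namespace Fermat.Agent.R38

open IsLocalRing Polynomial Fermat.Agent.UNIP

section Kum

variable {F : Type*} [Field F]

/-- **KUM ⇒ (hVa, hpa).** -/
theorem tresmz_kum_ord (V₀ : ValuationSubring F) {ϖ a υ : F} (hϖ : ϖ ∈ V₀.nonunits)
    (hϖ0 : ϖ ≠ 0) (m : ℤ) (p : ℕ) (ha : a = υ * (ϖ ^ m) ^ p) (hυ0 : υ ≠ 0) (hυ : υ ∈ V₀)
    (hυ' : υ⁻¹ ∈ V₀) :
    (∃ k : ℤ, V₀.valuation (a / ϖ ^ k) = 1) ∧ (p : ℤ) ∣ tres5Ord V₀ ϖ a := by
  have hv : V₀.valuation υ = 1 := by
    have h1 : V₀.valuation υ ≤ 1 := (V₀.valuation_le_one_iff _).2 hυ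
    have h2 : V₀.valuation υ⁻¹ ≤ 1 := (V₀.valuation_le_one_iff _).2 hυ'
    have hv0 : V₀.valuation υ ≠ 0 := (Valuation.ne_zero_iff _).2 hυ0
    rw [map_inv₀, inv_le_one₀ (zero_lt_iff.2 hv0)] at h2
    exact le_antisymm h1 h2
  have hkey : V₀.valuation (a / ϖ ^ ((p : ℤ) * m)) = 1 := by
    have e : a / ϖ ^ ((p : ℤ) * m) = υ := by
      rw [ha, ← zpow_natCast (ϖ ^ m) p, ← zpow_mul, mul_comm m (p : ℤ)]
      exact mul_div_cancel_right₀ _ (zpow_ne_zero _ hϖ0)
    rw [e, hv]
  refine ⟨⟨_, hkey⟩, ?_⟩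
  rw [tres5Ord_eq hϖ hϖ0 hkey]
  exact Dvd.intro _ rfl

end Kum

section Ref

variable {F L : Type*} [Field F] [Field L] [Algebra F L]

/-- the reference form of MONO-0 (hypothesis `hm₀` of `tresmono_node_pt`). -/
theorem tresmz_ref (V₀ : ValuationSubring F) (ϖ : L) (u : L) (p : ℕ)
    (h : ∀ W W' : ValuationSubring L, W.comap (algebraMap F L) = V₀ →
      W'.comap (algebraMap F L) = V₀ → (p : ℤ) ∣ tres5Ord W' ϖ u - tres5Ord W ϖ u) :
    ∃ m₀ : ℤ, ∀ W' : ValuationSubring L, W'.comap (algebraMap F L) = V₀ →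
      (p : ℤ) ∣ tres5Ord W' ϖ u - m₀ := by
  by_cases hex : ∃ W : ValuationSubring L, W.comap (algebraMap F L) = V₀
  · obtain ⟨W, hW⟩ := hex
    exact ⟨tres5Ord W ϖ u, fun W' hW' => h W W' hW hW'⟩
  · exact ⟨0, fun W' hW' => absurd ⟨W', hW'⟩ hex⟩

end Ref

section Main

variable {R L : Type*} {F : Type*} [CommRing R] [IsDomain R] [Field F] [Field L]
  [Algebra R F] [IsFractionRing R F] [IsIntegrallyClosed R] [IsLocalRing R]
  [Algebra F L] [Algebra R L] [IsScalarTower R F L]
  {ι : Type*} [Fintype ι] {z : L} {P : R[X]} {c : ι → R}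

/-- **MONO-0**, step form, with the constant in the KUM shape `a = υ · (ϖ ^ m) ^ p`. -/
theorem tresmz_main_step_kum (H : Tres5eSplit F z P c) [IsNoetherianRing R] {X Y ϖ w : R}
    (hmax : maximalIdeal R = Ideal.span {X, Y}) (hX : Prime X) (hXY : ¬ X ∣ Y)
    (hw : IsUnit w) (hϖ : w * ϖ = X * Y)
    (V₀ : ValuationSubring F) (hRV : ∀ r : R, algebraMap R F r ∈ V₀)
    (hXV : algebraMap R F X ∈ V₀.nonunits) (hYV : algebraMap R F Y ∉ V₀.nonunits)
    (p : ℕ) {u h : L} {a υ : F} (hu : u ≠ 0) (hh : h ≠ 0)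
    (ρ : L ≃ₐ[F] L) (hρu : ρ u = algebraMap F L a * u * h ^ p)
    (m : ℤ) (ha : a = υ * (algebraMap R F ϖ ^ m) ^ p) (hυ0 : υ ≠ 0) (hυ : υ ∈ V₀)
    (hυ' : υ⁻¹ ∈ V₀)
    (σ : ι → ι) (hσ : ∀ i j : ι, ∃ n : ℕ, σ^[n] i = j)
    (hstep : ∀ i, ∃ b ∈ tres5eMax R z (c i), ρ z = algebraMap R L (c (σ i)) + (b : L))
    (W W' : ValuationSubring L) (hW : W.comap (algebraMap F L) = V₀)
    (hW' : W'.comap (algebraMap F L) = V₀) :
    (p : ℤ) ∣ tres5Ord W' (algebraMap F L (algebraMap R F ϖ)) u -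
      tres5Ord W (algebraMap F L (algebraMap R F ϖ)) u := by
  obtain ⟨hϖF0, hϖnu⟩ := tresmz_pi_nonunit hX hXY hw hϖ V₀ hRV hXV
  obtain ⟨hVa, hpa⟩ := tresmz_kum_ord V₀ hϖnu hϖF0 m p ha hυ0 hυ hυ'
  have ha0 : a ≠ 0 := by
    rw [ha]
    exact mul_ne_zero hυ0 (pow_ne_zero _ (zpow_ne_zero _ hϖF0))
  exact tresmz_main_step H hmax hX hXY hw hϖ V₀ hRV hXV hYV p hu ha0 hh ρ hρu hVa hpa σ hσ hstep
    W W' hW hW'

end Main

section MainK

variable {R F L RK FK LK : Type*}
  [CommRing R] [IsDomain R] [Field F] [Field L] [Algebra R F] [IsFractionRing R F]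
  [IsIntegrallyClosed R] [IsLocalRing R] [Algebra F L] [Algebra R L] [IsScalarTower R F L]
  [CommRing RK] [IsDomain RK] [Field FK] [Field LK] [Algebra RK FK] [IsFractionRing RK FK]
  [IsIntegrallyClosed RK] [IsLocalRing RK] [Algebra FK LK] [Algebra RK LK]
  [IsScalarTower RK FK LK]
  [Algebra FK F] [Algebra LK L] [Algebra FK L] [IsScalarTower FK LK L] [IsScalarTower FK F L]

/-- **MONO-0 over `K`** in the shape of `tres5kp_descend` + `tres5dk_main`: sheets indexed by
`ZMod p`, `ρ z ≡ c (i + 1)`, constant `a = υ · (ϖ ^ m) ^ p`; reference form. -/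
theorem tresmzk_main_zmod_kum {p : ℕ} [hp : Fact p.Prime] {z : L} {P : R[X]} {c : ZMod p → R}
    (H : Tres5eSplit F z P c)
    {zK : LK} {PK : RK[X]} {cK : ZMod p → RK} (HK : Tres5eSplit FK zK PK cK) (j₀ : RK →+* R)
    (hj₀ : ∀ r : RK, algebraMap R F (j₀ r) = algebraMap FK F (algebraMap RK FK r))
    (hloc : ∀ r ∈ maximalIdeal RK, j₀ r ∈ maximalIdeal R)
    (hz : ∀ i, ∃ b ∈ tres5eMax R z (c i),
      algebraMap LK L zK = algebraMap R L (j₀ (cK i)) + (b : L))
    (ρ : L ≃ₐ[F] L)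
    (hρ : ∀ i : ZMod p, ∃ b ∈ tres5eMax R z (c i),
      ρ z = algebraMap R L (c (i + 1)) + (b : L))
    (ρK : LK ≃ₐ[FK] LK) (hρK : ∀ y : LK, algebraMap LK L (ρK y) = ρ (algebraMap LK L y))
    [IsNoetherianRing RK] {X Y ϖ w : RK}
    (hmax : maximalIdeal RK = Ideal.span {X, Y}) (hX : Prime X) (hXY : ¬ X ∣ Y)
    (hw : IsUnit w) (hϖ : w * ϖ = X * Y)
    (V₀ : ValuationSubring FK) (hRV : ∀ r : RK, algebraMap RK FK r ∈ V₀)
    (hXV : algebraMap RK FK X ∈ V₀.nonunits) (hYV : algebraMap RK FK Y ∉ V₀.nonunits)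
    (n : ℕ) {u h : LK} {a υ : FK} (hu : u ≠ 0) (hh : h ≠ 0)
    (hρu : ρK u = algebraMap FK LK a * u * h ^ n)
    (m : ℤ) (ha : a = υ * (algebraMap RK FK ϖ ^ m) ^ n) (hυ0 : υ ≠ 0) (hυ : υ ∈ V₀)
    (hυ' : υ⁻¹ ∈ V₀) :
    ∃ m₀ : ℤ, ∀ W' : ValuationSubring LK, W'.comap (algebraMap FK LK) = V₀ →
      (n : ℤ) ∣ tres5Ord W' (algebraMap FK LK (algebraMap RK FK ϖ)) u - m₀ := by
  obtain ⟨hϖF0, hϖnu⟩ := tresmz_pi_nonunit hX hXY hw hϖ V₀ hRV hXV
  obtain ⟨hVa, hpa⟩ := tresmz_kum_ord V₀ hϖnu hϖF0 m n ha hυ0 hυ hυ'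
  have ha0 : a ≠ 0 := by
    rw [ha]
    exact mul_ne_zero hυ0 (pow_ne_zero _ (zpow_ne_zero _ hϖF0))
  exact tresmz_ref V₀ _ u n fun W W' hW hW' =>
    tresmzk_main_zmod H HK j₀ hj₀ hloc hz ρ hρ ρK hρK hmax hX hXY hw hϖ V₀ hRV hXV hYV n hu ha0
      hh hρu hVa hpa W W' hW hW'

end MainK

end Fermat.Agent.R38

end


end ZBR38_012_9
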