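/- GENERATED FILE (helper35, build-time optimisation, NOTES/ZB.md): verbatim concatenation of the modules
   Fermat.Agent.R38.TresNodeV
   Fermat.Agent.R38.TresNodePt
   Do not edit; do not import together with these modules. -/
import Fermat.Agent.ZB.RT_001
import Fermat.Agent.ZB.R38_012

/-! ### bundled: `Fermat.Agent.R38.TresNodeV` -/
section ZBR38_013_0
/-
Row 38, PKG-TRES, MONO, piece FAC-LOC, part (a) of helper92's ruling v4 (helper65): the X-SIDE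
inputs of `tres5n_comap` (`R38/TresNode.lean`), from the chart data of `RT/K6/DLFPt.lean`.

Frame of `rtk6lfp_cross_dvd`: `B` a chart, `𝔫` a prime of `B`, `R = ls_localSubring 𝔫 = B_𝔫 ⊆ F`,
`V : κ → ValuationSubring F` the vertical valuation rings, `ϖ` the uniformizer of the base,
(KR), (U); THIN CROSSING POINT `w ϖ = X Y`, `w ∉ 𝔫`, `X ∈ 𝔪(V c₁)`, `Y ∈ 𝔪(V c₂)`.
`Xr = s36n2pToLoc 𝔫 X : R`.

* `tres5nv_loc_gen`  : GENERIC: `R ⊆ V` a subring with fraction field `F`, `WfDvdMonoid R`,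
  `Xr ∈ R` nonzero, not a unit, with `𝔪(V) ∩ R = Xr R`: every `x ∈ V` is `a / b`, `a, b ∈ R`,
  `Xr ∤ b` (`V = R_(Xr)`).
* `tres5nv_loc`   : `∀ x ∈ V c₁, ∃ a b : R, ¬ Xr ∣ b ∧ x * b = a`            (hypothesis `hV₁`);
* `tres5nv_unif`  : `∀ x ∈ 𝔪(V c₁), ∃ v ∈ V c₁, x = Xr * v`                   (hypothesis `hUX`);
* `tres5nv_Y`     : `v_{c₁}(Y) = 1`;   `tres5nv_X₂` : `v_{c₂}(X) = 1`;
* `tres5nv_isLoc` : the form `x ∈ V c₁ ↔ ∃ a b : R, ¬ Xr ∣ b ∧ x * b = a`.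
* SMOOTH POINT (frame of `rtk6lfp_smooth_dvd`, `X := ϖ`): `tres5nv_smooth_loc`,
  `tres5nv_smooth_unif`, `tres5nv_smooth_isLoc`, and `tres5nv_smooth_s` (`v_c(s) = 1` if
  `ϖ ∤ s` in `R`).
-/

set_option autoImplicit false
set_option linter.unusedSectionVars false
set_option linter.unusedVariables false
set_option linter.style.haveILetI false
set_option linter.style.longLine false

namespace Fermat.Agent.R38

open Fermat.Agent.UNIP Fermat.Agent.STB Fermat.Agent.S36 Fermat.Agent.RT.K6 AlgebraicCurve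
  IsLocalRing

section Gen

variable {F : Type*} [Field F]

/-- an element of `R ⊆ V` which is not divisible by `Xr` is a unit of `V`, if
`𝔪(V) ∩ R ⊆ Xr R` -/
theorem tres5nv_val_eq_one (R : Subring F) (V : ValuationSubring F) (hRV : ∀ x ∈ R, x ∈ V)
    (Xr : R) (hdvd : ∀ y : R, (y : F) ∈ V.nonunits → Xr ∣ y) {a : R} (ha : ¬ Xr ∣ a) :
    V.valuation (a : F) = 1 :=
  stb_gc_val_eq_one V (hRV a a.2) (fun h => ha (hdvd a h))

/-- **GENERIC `V = R_(Xr)`**: `R ⊆ V` with fraction field `F`, divisibility well founded on `R`,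
`Xr ∈ 𝔪(V)` nonzero and not a unit of `R`, `𝔪(V) ∩ R ⊆ Xr R`.  Then every element of `V` is a
fraction with denominator prime to `Xr`. -/
theorem tres5nv_loc_gen (R : Subring F) [WfDvdMonoid R] (V : ValuationSubring F)
    (hRV : ∀ x ∈ R, x ∈ V)
    (hfrac : ∀ x : F, ∃ a b : R, (b : F) ≠ 0 ∧ x * (b : F) = (a : F))
    (Xr : R) (hX0 : Xr ≠ 0) (hXu : ¬ IsUnit Xr) (hXnu : (Xr : F) ∈ V.nonunits)
    (hdvd : ∀ y : R, (y : F) ∈ V.nonunits → Xr ∣ y) :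
    ∀ x ∈ V, ∃ a b : R, ¬ Xr ∣ b ∧ x * (b : F) = (a : F) := by
  intro x hx
  have hX1 : ¬ Xr ∣ (1 : R) := fun h => hXu (isUnit_of_dvd_one h)
  obtain ⟨a, b, hb0, hab⟩ := hfrac x
  by_cases hx0 : x = 0
  · exact ⟨0, 1, hX1, by rw [hx0]; simp⟩
  have hb0' : b ≠ 0 := fun h => hb0 (by rw [h]; rfl)
  have ha0 : a ≠ 0 := by
    intro h
    rw [h] at hab
    have : x * (b : F) = 0 := by rw [hab]; rfl
    rcases mul_eq_zero.1 this with h' | h'
    · exact hx0 h'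
    · exact hb0 h'
  obtain ⟨i, a', ha', rfl⟩ := WfDvdMonoid.max_power_factor' ha0 hXu
  obtain ⟨j, b', hb', rfl⟩ := WfDvdMonoid.max_power_factor' hb0' hXu
  have hva := tres5nv_val_eq_one R V hRV Xr hdvd ha'
  have hvb := tres5nv_val_eq_one R V hRV Xr hdvd hb'
  have hXF0 : (Xr : F) ≠ 0 := fun h0 => hX0 (Subtype.ext h0)
  have hvX : V.valuation (Xr : F) < 1 := (ValuationSubring.mem_nonunits_iff V).1 hXnu
  have hvX0 : V.valuation (Xr : F) ≠ 0 := (Valuation.ne_zero_iff _).2 hXF0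
  have hvx : V.valuation x ≤ 1 := (V.valuation_le_one_iff x).2 hx
  have hab' : x * ((Xr : F) ^ j * (b' : F)) = (Xr : F) ^ i * (a' : F) := hab
  rcases le_or_gt j i with hji | hij
  · refine ⟨Xr ^ (i - j) * a', b', hb', ?_⟩
    have e : (Xr : F) ^ i = (Xr : F) ^ j * (Xr : F) ^ (i - j) := by
      rw [← pow_add, Nat.add_sub_cancel' hji]
    rw [e] at hab'
    have h2 : (Xr : F) ^ j * (x * (b' : F)) = (Xr : F) ^ j * ((Xr : F) ^ (i - j) * (a' : F)) := by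
      linear_combination hab'
    have h3 := mul_left_cancel₀ (pow_ne_zero j hXF0) h2
    rw [h3]
    rfl
  · exfalso
    have e : (Xr : F) ^ j = (Xr : F) ^ i * (Xr : F) ^ (j - i) := by
      rw [← pow_add, Nat.add_sub_cancel' hij.le]
    rw [e] at hab'
    have h2 : (Xr : F) ^ i * (x * (Xr : F) ^ (j - i) * (b' : F)) = (Xr : F) ^ i * (a' : F) := by
      linear_combination hab'
    have h3 := mul_left_cancel₀ (pow_ne_zero i hXF0) h2
    have h4 := congrArg V.valuation h3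
    rw [map_mul, map_mul, map_pow, hva, hvb, mul_one] at h4
    have hpos : 0 < j - i := Nat.sub_pos_of_lt hij
    have h5 : V.valuation (Xr : F) ^ (j - i) < 1 := pow_lt_one₀ zero_le hvX hpos.ne'
    have h6 : V.valuation x * V.valuation (Xr : F) ^ (j - i) < 1 :=
      lt_of_le_of_lt (mul_le_mul' hvx le_rfl) (by rwa [one_mul])
    exact absurd h4 h6.ne

/-- the converse: a fraction with denominator prime to `Xr` lies in `V` -/
theorem tres5nv_mem_gen (R : Subring F) (V : ValuationSubring F) (hRV : ∀ x ∈ R, x ∈ V)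
    (Xr : R) (hdvd : ∀ y : R, (y : F) ∈ V.nonunits → Xr ∣ y) {x : F} {a b : R}
    (hb : ¬ Xr ∣ b) (hab : x * (b : F) = (a : F)) : x ∈ V := by
  have hvb := tres5nv_val_eq_one R V hRV Xr hdvd hb
  have hva : V.valuation (a : F) ≤ 1 := (V.valuation_le_one_iff _).2 (hRV a a.2)
  rw [← V.valuation_le_one_iff]
  have h := congrArg V.valuation hab
  rw [map_mul, hvb, mul_one] at h
  rw [h]
  exact hva

end Gen

section Core

variable {F : Type*} [Field F] {B : Type*} [CommRing B] [Algebra B F]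
variable (hinj : Function.Injective (algebraMap B F)) (𝔫 : Ideal B) [h𝔫 : 𝔫.IsPrime]
variable {κ : Type*}

include hinj in
/-- divisibility is well founded on `B_𝔫` (`B` noetherian) -/
theorem tres5nv_wf [IsNoetherianRing B] : WfDvdMonoid (ls_localSubring (F := F) 𝔫) := by
  haveI := s36n2p_isNoetherianRing (F := F) hinj 𝔫
  infer_instance

include hinj in
/-- `F` is the fraction field of `B_𝔫` -/
theorem tres5nv_frac
    (hfrac : ∀ x : F, ∃ a b : B, b ≠ 0 ∧ x * algebraMap B F b = algebraMap B F a) :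
    ∀ x : F, ∃ a b : ls_localSubring (F := F) 𝔫, (b : F) ≠ 0 ∧ x * (b : F) = (a : F) := by
  intro x
  obtain ⟨a, b, hb, h⟩ := hfrac x
  exact ⟨s36n2pToLoc (F := F) 𝔫 a, s36n2pToLoc (F := F) 𝔫 b,
    fun h0 => hb (hinj (by rw [map_zero]; exact h0)), h⟩

/-! ### thin crossing points -/

/-- **`v_{c₁}(Y) = 1`** at a thin crossing point. -/
theorem tres5nv_Y (V : κ → ValuationSubring F)
    (hBV : ∀ c (b : B), algebraMap B F b ∈ V c) (ϖ : B)
    (hU : ∀ c (x : F), x ∈ (V c).nonunits → ∃ z ∈ V c, x = algebraMap B F ϖ * z)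
    (hϖ0 : algebraMap B F ϖ ≠ 0) (c₁ : κ)
    (hthr₁ : ∀ b : B, algebraMap B F b ∈ (V c₁).nonunits → b ∈ 𝔫)
    {X Y w : B} (hw : w ∉ 𝔫) (hXY : w * ϖ = X * Y)
    (hX : algebraMap B F X ∈ (V c₁).nonunits) :
    (V c₁).valuation ((s36n2pToLoc (F := F) 𝔫 Y : ls_localSubring (F := F) 𝔫) : F) = 1 :=
  (rtk6lfp_cross_val 𝔫 (V c₁) (hBV c₁) ϖ (hU c₁) hϖ0 hthr₁ hw hXY hX).1

/-- **`v_{c₂}(X) = 1`** at a thin crossing point. -/
theorem tres5nv_X₂ (V : κ → ValuationSubring F)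
    (hBV : ∀ c (b : B), algebraMap B F b ∈ V c) (ϖ : B)
    (hU : ∀ c (x : F), x ∈ (V c).nonunits → ∃ z ∈ V c, x = algebraMap B F ϖ * z)
    (hϖ0 : algebraMap B F ϖ ≠ 0) (c₂ : κ)
    (hthr₂ : ∀ b : B, algebraMap B F b ∈ (V c₂).nonunits → b ∈ 𝔫)
    {X Y w : B} (hw : w ∉ 𝔫) (hXY : w * ϖ = X * Y)
    (hY : algebraMap B F Y ∈ (V c₂).nonunits) :
    (V c₂).valuation ((s36n2pToLoc (F := F) 𝔫 X : ls_localSubring (F := F) 𝔫) : F) = 1 :=
  (rtk6lfp_cross_val 𝔫 (V c₂) (hBV c₂) ϖ (hU c₂) hϖ0 hthr₂ hw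
    (by rw [hXY, mul_comm] : w * ϖ = Y * X) hY).1

/-- **`𝔪(V c₁) = X V c₁`** at a thin crossing point (hypothesis `hUX` of `tres5n_comap`). -/
theorem tres5nv_unif (V : κ → ValuationSubring F)
    (hBV : ∀ c (b : B), algebraMap B F b ∈ V c) (ϖ : B)
    (hU : ∀ c (x : F), x ∈ (V c).nonunits → ∃ z ∈ V c, x = algebraMap B F ϖ * z)
    (hϖ0 : algebraMap B F ϖ ≠ 0) (c₁ : κ)
    (hthr₁ : ∀ b : B, algebraMap B F b ∈ (V c₁).nonunits → b ∈ 𝔫)
    {X Y w : B} (hw : w ∉ 𝔫) (hXY : w * ϖ = X * Y)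
    (hX : algebraMap B F X ∈ (V c₁).nonunits) :
    ∀ x ∈ (V c₁).nonunits, ∃ v ∈ V c₁,
      x = ((s36n2pToLoc (F := F) 𝔫 X : ls_localSubring (F := F) 𝔫) : F) * v := by
  intro x hx
  obtain ⟨z, hz, hxz⟩ := hU c₁ x hx
  obtain ⟨z', hz', hXz'⟩ := hU c₁ _ hX
  have hX1 := (rtk6lfp_cross_val 𝔫 (V c₁) (hBV c₁) ϖ (hU c₁) hϖ0 hthr₁ hw hXY hX).2
  have hz'1 : (V c₁).valuation z' = 1 := by
    have h1 := hX1
    rw [hXz', map_mul] at h1
    have hϖv : (V c₁).valuation (algebraMap B F ϖ) ≠ 0 := (Valuation.ne_zero_iff _).2 hϖ0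
    exact mul_left_cancel₀ hϖv (by rw [h1, mul_one])
  have hz'0 : z' ≠ 0 := fun h0 => by
    rw [h0, map_zero] at hz'1
    exact zero_ne_one hz'1
  refine ⟨z'⁻¹ * z, mul_mem (rtk6lfp_inv_mem (V c₁) hz'1) hz, ?_⟩
  show x = algebraMap B F X * (z'⁻¹ * z)
  rw [hxz, hXz']
  field_simp

include hinj in
/-- **`V c₁ ⊆ (B_𝔫)_(X)`** at a thin crossing point (hypothesis `hV₁` of `tres5n_comap`). -/
theorem tres5nv_loc [Finite κ] [IsNoetherianRing B] (V : κ → ValuationSubring F)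
    (hBV : ∀ c (b : B), algebraMap B F b ∈ V c) (ϖ : B)
    (hKR : ∀ x : F, (∃ b : B, algebraMap B F ϖ * x = algebraMap B F b) → (∀ c, x ∈ V c) →
      ∃ b : B, x = algebraMap B F b)
    (hU : ∀ c (x : F), x ∈ (V c).nonunits → ∃ z ∈ V c, x = algebraMap B F ϖ * z)
    (hϖ0 : algebraMap B F ϖ ≠ 0)
    (hfrac : ∀ x : F, ∃ a b : B, b ≠ 0 ∧ x * algebraMap B F b = algebraMap B F a)
    (c₁ c₂ : κ)
    (hκ : ∀ c, (∀ b : B, algebraMap B F b ∈ (V c).nonunits → b ∈ 𝔫) → c = c₁ ∨ c = c₂)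
    (hthr₁ : ∀ b : B, algebraMap B F b ∈ (V c₁).nonunits → b ∈ 𝔫)
    (hthr₂ : ∀ b : B, algebraMap B F b ∈ (V c₂).nonunits → b ∈ 𝔫)
    {X Y w : B} (hw : w ∉ 𝔫) (hXY : w * ϖ = X * Y)
    (hX : algebraMap B F X ∈ (V c₁).nonunits) (hY : algebraMap B F Y ∈ (V c₂).nonunits) :
    ∀ x ∈ V c₁, ∃ a b : ls_localSubring (F := F) 𝔫,
      ¬ s36n2pToLoc (F := F) 𝔫 X ∣ b ∧ x * (b : F) = (a : F) := by
  haveI := tres5nv_wf (F := F) hinj 𝔫
  have hp := rtk6lfp_cross_prime hinj 𝔫 V hBV ϖ hKR hU hϖ0 c₁ c₂ hκ hthr₁ hthr₂ hw hXY hX hY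
  exact tres5nv_loc_gen (ls_localSubring (F := F) 𝔫) (V c₁)
    (stb_gc_le 𝔫 (V c₁) (hBV c₁) hthr₁) (tres5nv_frac hinj 𝔫 hfrac) _ hp.ne_zero hp.not_isUnit hX
    (fun y hy => rtk6lfp_cross_dvd hinj 𝔫 V hBV ϖ hKR hU hϖ0 c₁ c₂ hκ hthr₁ hthr₂ hw hXY hX hY
      y hy)

include hinj in
/-- **`V c₁ = (B_𝔫)_(X)`** at a thin crossing point. -/
theorem tres5nv_isLoc [Finite κ] [IsNoetherianRing B] (V : κ → ValuationSubring F)
    (hBV : ∀ c (b : B), algebraMap B F b ∈ V c) (ϖ : B)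
    (hKR : ∀ x : F, (∃ b : B, algebraMap B F ϖ * x = algebraMap B F b) → (∀ c, x ∈ V c) →
      ∃ b : B, x = algebraMap B F b)
    (hU : ∀ c (x : F), x ∈ (V c).nonunits → ∃ z ∈ V c, x = algebraMap B F ϖ * z)
    (hϖ0 : algebraMap B F ϖ ≠ 0)
    (hfrac : ∀ x : F, ∃ a b : B, b ≠ 0 ∧ x * algebraMap B F b = algebraMap B F a)
    (c₁ c₂ : κ)
    (hκ : ∀ c, (∀ b : B, algebraMap B F b ∈ (V c).nonunits → b ∈ 𝔫) → c = c₁ ∨ c = c₂)
    (hthr₁ : ∀ b : B, algebraMap B F b ∈ (V c₁).nonunits → b ∈ 𝔫)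
    (hthr₂ : ∀ b : B, algebraMap B F b ∈ (V c₂).nonunits → b ∈ 𝔫)
    {X Y w : B} (hw : w ∉ 𝔫) (hXY : w * ϖ = X * Y)
    (hX : algebraMap B F X ∈ (V c₁).nonunits) (hY : algebraMap B F Y ∈ (V c₂).nonunits)
    (x : F) :
    x ∈ V c₁ ↔ ∃ a b : ls_localSubring (F := F) 𝔫,
      ¬ s36n2pToLoc (F := F) 𝔫 X ∣ b ∧ x * (b : F) = (a : F) := by
  constructor
  · exact tres5nv_loc hinj 𝔫 V hBV ϖ hKR hU hϖ0 hfrac c₁ c₂ hκ hthr₁ hthr₂ hw hXY hX hY x
  · rintro ⟨a, b, hb, hab⟩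
    exact tres5nv_mem_gen (ls_localSubring (F := F) 𝔫) (V c₁)
      (stb_gc_le 𝔫 (V c₁) (hBV c₁) hthr₁) _
      (fun y hy => rtk6lfp_cross_dvd hinj 𝔫 V hBV ϖ hKR hU hϖ0 c₁ c₂ hκ hthr₁ hthr₂ hw hXY hX hY
        y hy) hb hab

/-! ### smooth points -/

/-- **`𝔪(V c) = ϖ V c`** (hypothesis `hUX` of `tres5n_comap` at a smooth point). -/
theorem tres5nv_smooth_unif (V : κ → ValuationSubring F) (ϖ : B)
    (hU : ∀ c (x : F), x ∈ (V c).nonunits → ∃ z ∈ V c, x = algebraMap B F ϖ * z) (c : κ) :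
    ∀ x ∈ (V c).nonunits, ∃ v ∈ V c,
      x = ((s36n2pToLoc (F := F) 𝔫 ϖ : ls_localSubring (F := F) 𝔫) : F) * v :=
  fun x hx => hU c x hx

include hinj in
/-- **`V c ⊆ (B_𝔫)_(ϖ)`** at a point with only one component through it (hypothesis `hV₁` of
`tres5n_comap` at a smooth point). -/
theorem tres5nv_smooth_loc [Finite κ] [IsNoetherianRing B] (V : κ → ValuationSubring F)
    (hBV : ∀ c (b : B), algebraMap B F b ∈ V c) (ϖ : B)
    (hKR : ∀ x : F, (∃ b : B, algebraMap B F ϖ * x = algebraMap B F b) → (∀ c, x ∈ V c) →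
      ∃ b : B, x = algebraMap B F b)
    (hU : ∀ c (x : F), x ∈ (V c).nonunits → ∃ z ∈ V c, x = algebraMap B F ϖ * z)
    (hϖ0 : algebraMap B F ϖ ≠ 0) (hϖV : ∀ c, algebraMap B F ϖ ∈ (V c).nonunits)
    (hfrac : ∀ x : F, ∃ a b : B, b ≠ 0 ∧ x * algebraMap B F b = algebraMap B F a)
    (c : κ) (hthr : ∀ b : B, algebraMap B F b ∈ (V c).nonunits → b ∈ 𝔫)
    (hone : ∀ c', (∀ b : B, algebraMap B F b ∈ (V c').nonunits → b ∈ 𝔫) → c' = c) :
    ∀ x ∈ V c, ∃ a b : ls_localSubring (F := F) 𝔫,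
      ¬ s36n2pToLoc (F := F) 𝔫 ϖ ∣ b ∧ x * (b : F) = (a : F) := by
  haveI := tres5nv_wf (F := F) hinj 𝔫
  have hp := rtk6lfp_smooth_prime hinj 𝔫 V hBV ϖ hKR hU hϖ0 hϖV c hthr hone
  exact tres5nv_loc_gen (ls_localSubring (F := F) 𝔫) (V c)
    (stb_gc_le 𝔫 (V c) (hBV c) hthr) (tres5nv_frac hinj 𝔫 hfrac) _ hp.ne_zero hp.not_isUnit
    (hϖV c) (fun y hy => rtk6lfp_smooth_dvd hinj 𝔫 V hBV ϖ hKR hU c hone y hy)

include hinj in
/-- **`V c = (B_𝔫)_(ϖ)`** at a point with only one component through it. -/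
theorem tres5nv_smooth_isLoc [Finite κ] [IsNoetherianRing B] (V : κ → ValuationSubring F)
    (hBV : ∀ c (b : B), algebraMap B F b ∈ V c) (ϖ : B)
    (hKR : ∀ x : F, (∃ b : B, algebraMap B F ϖ * x = algebraMap B F b) → (∀ c, x ∈ V c) →
      ∃ b : B, x = algebraMap B F b)
    (hU : ∀ c (x : F), x ∈ (V c).nonunits → ∃ z ∈ V c, x = algebraMap B F ϖ * z)
    (hϖ0 : algebraMap B F ϖ ≠ 0) (hϖV : ∀ c, algebraMap B F ϖ ∈ (V c).nonunits)
    (hfrac : ∀ x : F, ∃ a b : B, b ≠ 0 ∧ x * algebraMap B F b = algebraMap B F a)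
    (c : κ) (hthr : ∀ b : B, algebraMap B F b ∈ (V c).nonunits → b ∈ 𝔫)
    (hone : ∀ c', (∀ b : B, algebraMap B F b ∈ (V c').nonunits → b ∈ 𝔫) → c' = c)
    (x : F) :
    x ∈ V c ↔ ∃ a b : ls_localSubring (F := F) 𝔫,
      ¬ s36n2pToLoc (F := F) 𝔫 ϖ ∣ b ∧ x * (b : F) = (a : F) := by
  constructor
  · exact tres5nv_smooth_loc hinj 𝔫 V hBV ϖ hKR hU hϖ0 hϖV hfrac c hthr hone x
  · rintro ⟨a, b, hb, hab⟩
    exact tres5nv_mem_gen (ls_localSubring (F := F) 𝔫) (V c)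
      (stb_gc_le 𝔫 (V c) (hBV c) hthr) _
      (fun y hy => rtk6lfp_smooth_dvd hinj 𝔫 V hBV ϖ hKR hU c hone y hy) hb hab

include hinj in
/-- at a smooth point the second coordinate `s` is a unit of `V c`, if `ϖ ∤ s` in `B_𝔫` -/
theorem tres5nv_smooth_s [Finite κ] (V : κ → ValuationSubring F)
    (hBV : ∀ c (b : B), algebraMap B F b ∈ V c) (ϖ : B)
    (hKR : ∀ x : F, (∃ b : B, algebraMap B F ϖ * x = algebraMap B F b) → (∀ c, x ∈ V c) →
      ∃ b : B, x = algebraMap B F b)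
    (hU : ∀ c (x : F), x ∈ (V c).nonunits → ∃ z ∈ V c, x = algebraMap B F ϖ * z)
    (c : κ)
    (hone : ∀ c', (∀ b : B, algebraMap B F b ∈ (V c').nonunits → b ∈ 𝔫) → c' = c)
    {s : B} (hs : ¬ s36n2pToLoc (F := F) 𝔫 ϖ ∣ s36n2pToLoc (F := F) 𝔫 s) :
    (V c).valuation ((s36n2pToLoc (F := F) 𝔫 s : ls_localSubring (F := F) 𝔫) : F) = 1 :=
  stb_gc_val_eq_one (V c) (hBV c s)
    (fun h => hs (rtk6lfp_smooth_dvd hinj 𝔫 V hBV ϖ hKR hU c hone _ h))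

end Core

end Fermat.Agent.R38


end ZBR38_013_0

/-! ### bundled: `Fermat.Agent.R38.TresNodePt` -/
section ZBR38_013_1
/-
Row 38, PKG-TRES, MONO, piece FAC-LOC (helper92), part 3: THE CHART ↔ `R`-FRAME GLUE.

`R38/TresMonoPt.lean` (helper89) proves the hypotheses `hfin` / `hcusp` of `tresmono_frame` at ONE
closed point in the `R`-frame (`R` a noetherian normal local domain with `𝔪_R = (X, Y)`, ...).
Here the `R`-frame hypotheses are DISCHARGED from the chart data of `RT/K6/DLFPt.lean`,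
`RT/K6/DLFChart.lean` (the output of FAC-XK: `Rtk6lfCrossAt`, resp. a smooth point
`NodesLocGen 𝔫 {π, s}` with exactly one component through it), with `R = atLoc 𝔫`:

* `tres5np_node_abs`, `tres5np_smooth_abs`, `tres5np_cusp_abs` : abstract chart `(B, 𝔫)`;
* `tres5np_node`, `tres5np_smooth`, `tres5np_cusp`             : the chart `zchClosure {t}` at
  `𝔫 : AtPt π t` — EXACTLY the shape of `hfin` / `hcusp` of `tresmono_frame` at `𝔫`.

At a smooth point the hypothesis `s ∉ 𝔪(V)` of the `R`-frame is NOT needed: if `ϖ ∣ s` in `R`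
(the degenerate case `R = V`), the sheet through a point of the cover is unique as well
(`tres5np_unique_of_dvd`).
-/

set_option autoImplicit false
set_option linter.unusedSectionVars false
set_option linter.unusedVariables false
set_option linter.style.haveILetI false
set_option linter.style.longLine false

noncomputable section

namespace Fermat.Agent.R38

open IsLocalRing AlgebraicCurve Polynomial Fermat.Agent.UNIP Fermat.Agent.STB Fermat.Agent.INJ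
  Fermat.Agent.S36 Fermat.Agent.RIB.MP Fermat.Agent.RT.K6 IntermediateField

section Sheet

variable {L : Type*} [Field L] (O' : Subring L)

/-- **One sheet through a point, divisibility form**: a valuation ring `W ⊇ O′` of `L` with
`𝔪(W) ∩ O′ ⊆ X O′` is `O′_(X)`. -/
theorem tres5np_unique_of_dvd (X : O') {W₁ : ValuationSubring L} (hW₁ : Tres5nIsLoc O' X W₁)
    (W : ValuationSubring L) (hO'W : ∀ x ∈ O', x ∈ W)
    (hXW : (X : L) ∈ W.nonunits)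
    (hdvd : ∀ a : O', (a : L) ∈ W.nonunits → X ∣ a) : W = W₁ := by
  have hunit : ∀ b : O', ¬ X ∣ b → W.valuation (b : L) = 1 := fun b hb =>
    tres5n_val_eq_one W (hO'W b b.2) (fun h => hb (hdvd b h))
  ext x
  constructor
  · intro hx
    by_contra hxW₁
    have hx0 : x ≠ 0 := fun h0 => hxW₁ (by rw [h0]; exact W₁.zero_mem)
    have hinv : x⁻¹ ∈ W₁ := (W₁.mem_or_inv_mem x).resolve_left hxW₁
    obtain ⟨a, b, hb, hab⟩ := (hW₁ _).1 hinv
    have hXa : X ∣ a := by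
      by_contra hXa
      apply hxW₁
      refine (hW₁ x).2 ⟨b, a, hXa, ?_⟩
      rw [← hab]; field_simp
    have ha : (a : L) ∈ W.nonunits := by
      obtain ⟨t, rfl⟩ := hXa
      have e : ((X * t : O') : L) = (t : L) * (X : L) := by
        show (X : L) * (t : L) = _
        ring
      rw [e]
      rw [ValuationSubring.mem_nonunits_iff] at hXW ⊢
      rw [map_mul]
      have ht : W.valuation (t : L) ≤ 1 := (W.valuation_le_one_iff _).2 (hO'W t t.2)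
      calc W.valuation (t : L) * W.valuation (X : L) ≤ 1 * W.valuation (X : L) := by gcongr
        _ = W.valuation (X : L) := one_mul _
        _ < 1 := hXW
    have h1 : x⁻¹ ∈ W.nonunits := tres5n_div_mem_nonunits W ha (hunit b hb) hab
    rw [ValuationSubring.mem_nonunits_iff, map_inv₀] at h1
    have h2 : W.valuation x ≤ 1 := (W.valuation_le_one_iff _).2 hx
    have hv0 : W.valuation x ≠ 0 := (Valuation.ne_zero_iff _).2 hx0
    have h3 : 1 ≤ (W.valuation x)⁻¹ := (one_le_inv₀ (zero_lt_iff.2 hv0)).2 h2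
    exact absurd h1 (not_lt.2 h3)
  · intro hx
    obtain ⟨a, b, hb, hab⟩ := (hW₁ _).1 hx
    exact tres5n_div_mem W (hO'W a a.2) (hunit b hb) hab

/-- in a local ring with `𝔪 = (X, Y)` and `X ∣ Y`, every non-unit is divisible by `X` -/
theorem tres5np_dvd_of_degenerate [IsLocalRing O'] (X Y : O')
    (hm : maximalIdeal O' = Ideal.span {X, Y}) (hXY : X ∣ Y) {a : O'} (ha : ¬ IsUnit a) :
    X ∣ a := by
  have h1 : a ∈ maximalIdeal O' := (IsLocalRing.mem_maximalIdeal a).2 ha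
  rw [hm, Ideal.mem_span_pair] at h1
  obtain ⟨α, β, rfl⟩ := h1
  exact dvd_add (Dvd.intro_left α rfl) (Dvd.dvd.mul_left hXY β)

end Sheet

section Abs

variable {E F : Type*} [Field E] [Field F] [Algebra E F] {B : Type*} [CommRing B] [Algebra B F]
variable (hinj : Function.Injective (algebraMap B F)) (𝔫 : Ideal B) [h𝔫 : 𝔫.IsPrime]
variable {κ : Type*} [Finite κ]
variable {L : Type*} [Field L] [Algebra F L] [Algebra E L] [IsScalarTower E F L]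
  [IsLocalRing ↥(ls_localSubring (F := F) 𝔫)]
  [Algebra ↥(ls_localSubring (F := F) 𝔫) L] [IsScalarTower ↥(ls_localSubring (F := F) 𝔫) F L]
  {ι : Type*} [Fintype ι] {z : L} {P : (↥(ls_localSubring (F := F) 𝔫))[X]}
  {c : ι → ↥(ls_localSubring (F := F) 𝔫)}

/-- the structure map of `L` over `B_𝔫` is the restriction of `F → L` -/
theorem tres5np_algebraMap (r : ↥(ls_localSubring (F := F) 𝔫)) :
    algebraMap ↥(ls_localSubring (F := F) 𝔫) L r = algebraMap F L (r : F) :=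
  IsScalarTower.algebraMap_apply ↥(ls_localSubring (F := F) 𝔫) F L r

/-- the constants, in the `R`-frame -/
theorem tres5np_hE (ϖ : B)
    (hE : ∀ e : E, ∃ (n : ℕ) (a : B),
      algebraMap E F e * algebraMap B F ϖ ^ n = algebraMap B F a) (e : E) :
    ∃ (n : ℕ) (a : ↥(ls_localSubring (F := F) 𝔫)),
      algebraMap E F e * algebraMap ↥(ls_localSubring (F := F) 𝔫) F
        (s36n2pToLoc (F := F) 𝔫 ϖ) ^ n = algebraMap ↥(ls_localSubring (F := F) 𝔫) F a := by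
  obtain ⟨n, a, h⟩ := hE e
  exact ⟨n, s36n2pToLoc (F := F) 𝔫 a, h⟩

/-- the horizontal hypothesis, in the `R`-frame -/
theorem tres5np_hhor {p : ℕ} {u : L}
    (hhor : ∀ Pl : Place E L, (∀ x ∈ ls_localSubring (F := F) 𝔫,
      algebraMap F L x ∈ Pl.toValuationSubring) → (p : ℤ) ∣ Pl.ord u)
    (k : ι) [(tres5eMax ↥(ls_localSubring (F := F) 𝔫) z (c k)).IsPrime] (Pl : Place E L)
    (hPl : ∀ x ∈ ls_localSubring (F := L) (tres5eMax ↥(ls_localSubring (F := F) 𝔫) z (c k)),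
      x ∈ Pl.toValuationSubring) : (p : ℤ) ∣ Pl.ord u := by
  refine hhor Pl fun x hx => ?_
  have h1 : algebraMap ↥(ls_localSubring (F := F) 𝔫) L ⟨x, hx⟩ ∈ Pl.toValuationSubring :=
    hPl _ (tres5eBaseToLoc z (c k) ⟨x, hx⟩).2
  rwa [tres5np_algebraMap] at h1

include hinj in
/-- **(I3) at a thin node, abstract chart form.** -/
theorem tres5np_node_abs [IsNoetherianRing B] (V : κ → ValuationSubring F)
    (hBV : ∀ c (b : B), algebraMap B F b ∈ V c) (ϖ : B)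
    (hKR : ∀ x : F, (∃ b : B, algebraMap B F ϖ * x = algebraMap B F b) → (∀ c, x ∈ V c) →
      ∃ b : B, x = algebraMap B F b)
    (hU : ∀ c (x : F), x ∈ (V c).nonunits → ∃ z ∈ V c, x = algebraMap B F ϖ * z)
    (hϖ0 : algebraMap B F ϖ ≠ 0)
    (hE : ∀ e : E, ∃ (n : ℕ) (a : B),
      algebraMap E F e * algebraMap B F ϖ ^ n = algebraMap B F a)
    (hfrac : ∀ x : F, ∃ a b : B, b ≠ 0 ∧ x * algebraMap B F b = algebraMap B F a)
    (c₁ c₂ : κ)
    (hκ : ∀ c, (∀ b : B, algebraMap B F b ∈ (V c).nonunits → b ∈ 𝔫) → c = c₁ ∨ c = c₂)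
    (hthr₁ : ∀ b : B, algebraMap B F b ∈ (V c₁).nonunits → b ∈ 𝔫)
    (hthr₂ : ∀ b : B, algebraMap B F b ∈ (V c₂).nonunits → b ∈ 𝔫)
    {X Y w : B} (hw : w ∉ 𝔫) (hXY : w * ϖ = X * Y)
    (hX : algebraMap B F X ∈ (V c₁).nonunits) (hY : algebraMap B F Y ∈ (V c₂).nonunits)
    (hgen : NodesLocGen 𝔫 {ϖ, X, Y})
    -- the cover
    (H : Tres5eSplit F z P c)
    (W : ValuationSubring L) (hWV : W.comap (algebraMap F L) = V c₁)
    {p : ℕ} {u h : L} (hu0 : u ≠ 0)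
    (hhor : ∀ Pl : Place E L, (∀ x ∈ ls_localSubring (F := F) 𝔫,
      algebraMap F L x ∈ Pl.toValuationSubring) → (p : ℤ) ∣ Pl.ord u)
    -- the Ogg unit
    (ε' : ↥(ls_localSubring (F := F) 𝔫)) (hε' : IsUnit ε') (e : ℤ)
    (hh : h = algebraMap F L ((ε' : F) * algebraMap B F Y ^ e))
    -- MONO-0 on the other branch
    (m₀ : ℤ)
    (hm₀ : ∀ W' : ValuationSubring L, W'.comap (algebraMap F L) = V c₂ →
      (p : ℤ) ∣ tres5Ord W' (algebraMap F L (algebraMap B F ϖ)) u - m₀)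
    -- the normalisation
    (m : ℤ) (hm : W.valuation (u / algebraMap F L (algebraMap B F ϖ) ^ m) = 1) :
    ∀ T : ValuationSubring L, (∀ x ∈ ls_localSubring (F := F) 𝔫, algebraMap F L x ∈ T) →
      (∀ x ∈ T, x ∈ W) →
      ∃ O' : Subring L, (∀ x ∈ O', x ∈ T) ∧
        TresMonoPt W O' p (m₀ - m) e (u / algebraMap F L (algebraMap B F ϖ) ^ m) h := by
  intro T hRT hTW
  haveI : IsNoetherianRing ↥(ls_localSubring (F := F) 𝔫) := s36n2p_isNoetherianRing hinj 𝔫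
  haveI : IsFractionRing ↥(ls_localSubring (F := F) 𝔫) F :=
    s36n2p_isFractionRing _ (tres5nv_frac hinj 𝔫 hfrac)
  haveI : UniqueFactorizationMonoid ↥(ls_localSubring (F := F) 𝔫) :=
    rtk6lfp_cross_ufd hinj 𝔫 V hBV ϖ hKR hU hϖ0 c₁ c₂ hκ hthr₁ hthr₂ hw hXY hX hY hgen
  have hXY₂ : w * ϖ = Y * X := by rw [hXY, mul_comm]
  have hκ₂ : ∀ c, (∀ b : B, algebraMap B F b ∈ (V c).nonunits → b ∈ 𝔫) → c = c₂ ∨ c = c₁ :=
    fun c hc => (hκ c hc).symm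
  have hgen₂ : NodesLocGen 𝔫 {ϖ, Y, X} := by
    have e : ({ϖ, Y, X} : Set B) = {ϖ, X, Y} := by
      ext b; simp only [Set.mem_insert_iff, Set.mem_singleton_iff]; tauto
    rw [e]; exact hgen
  have hmax := rtk6lfp_cross_max (F := F) hinj 𝔫 ϖ hw hXY (hthr₁ X hX) (hthr₂ Y hY) hgen
  have hpX := rtk6lfp_cross_prime hinj 𝔫 V hBV ϖ hKR hU hϖ0 c₁ c₂ hκ hthr₁ hthr₂ hw hXY hX hY
  have hpY := rtk6lfp_cross_prime hinj 𝔫 V hBV ϖ hKR hU hϖ0 c₂ c₁ hκ₂ hthr₂ hthr₁ hw hXY₂ hY hX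
  have hYv := tres5nv_Y 𝔫 V hBV ϖ hU hϖ0 c₁ hthr₁ hw hXY hX
  have hXv := tres5nv_X₂ 𝔫 V hBV ϖ hU hϖ0 c₂ hthr₂ hw hXY hY
  have hR₁ := stb_gc_le 𝔫 (V c₁) (hBV c₁) hthr₁
  have hR₂ := stb_gc_le 𝔫 (V c₂) (hBV c₂) hthr₂
  -- `X ∤ Y`, `Y ∤ X`
  have hndvd : ∀ (V₀ : ValuationSubring F) (hRV : ∀ x ∈ ls_localSubring (F := F) 𝔫, x ∈ V₀)
      (a b : ↥(ls_localSubring (F := F) 𝔫)), (a : F) ∈ V₀.nonunits →
      V₀.valuation (b : F) = 1 → ¬ a ∣ b := by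
    rintro V₀ hRV a b ha hb ⟨t, rfl⟩
    have h1 : V₀.valuation ((a * t : ↥(ls_localSubring (F := F) 𝔫)) : F) < 1 := by
      show V₀.valuation ((a : F) * (t : F)) < 1
      rw [map_mul]
      have ht : V₀.valuation (t : F) ≤ 1 := (V₀.valuation_le_one_iff _).2 (hRV t t.2)
      calc V₀.valuation (a : F) * V₀.valuation (t : F) ≤ V₀.valuation (a : F) * 1 := by gcongr
        _ = V₀.valuation (a : F) := mul_one _
        _ < 1 := (ValuationSubring.mem_nonunits_iff V₀).1 ha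
    rw [hb] at h1
    exact lt_irrefl _ h1
  have hXY' : ¬ s36n2pToLoc (F := F) 𝔫 X ∣ s36n2pToLoc (F := F) 𝔫 Y :=
    hndvd (V c₁) hR₁ _ _ hX hYv
  have hYX' : ¬ s36n2pToLoc (F := F) 𝔫 Y ∣ s36n2pToLoc (F := F) 𝔫 X :=
    hndvd (V c₂) hR₂ _ _ hY hXv
  have h1 : (1 : B) ∉ 𝔫 := fun h => h𝔫.ne_top ((Ideal.eq_top_iff_one 𝔫).mpr h)
  have hw' : IsUnit (s36n2pToLoc (F := F) 𝔫 w) :=
    ls_isUnit_of_not_mem hinj 𝔫 _ (b := w) (s := 1) hw h1 (by rw [map_one, one_mul]; rfl)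
  have hϖ' : s36n2pToLoc (F := F) 𝔫 w * s36n2pToLoc (F := F) 𝔫 ϖ =
      s36n2pToLoc (F := F) 𝔫 X * s36n2pToLoc (F := F) 𝔫 Y := by
    rw [← map_mul, ← map_mul, hXY]
  have hYV : algebraMap ↥(ls_localSubring (F := F) 𝔫) F (s36n2pToLoc (F := F) 𝔫 Y) ∉
      (V c₁).nonunits := fun hmem => by
    have h2 := (ValuationSubring.mem_nonunits_iff (V c₁)).1 hmem
    have h3 : (V c₁).valuation ((s36n2pToLoc (F := F) 𝔫 Y : ↥(ls_localSubring (F := F) 𝔫)) : F)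
        < 1 := h2
    rw [hYv] at h3
    exact lt_irrefl _ h3
  have hh' : h = algebraMap ↥(ls_localSubring (F := F) 𝔫) L ε' *
      algebraMap ↥(ls_localSubring (F := F) 𝔫) L (s36n2pToLoc (F := F) 𝔫 Y) ^ e := by
    rw [hh, map_mul, map_zpow₀, tres5np_algebraMap, tres5np_algebraMap]
    rfl
  have hϖL : algebraMap ↥(ls_localSubring (F := F) 𝔫) L (s36n2pToLoc (F := F) 𝔫 ϖ) =
      algebraMap F L (algebraMap B F ϖ) := tres5np_algebraMap 𝔫 _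
  have hres := tresmono_node_pt (E := E) H hmax hpX hpY hXY' hYX' hw' hϖ'
    (tres5np_hE 𝔫 ϖ hE) W (V c₁) hWV hX hYV hu0
    (fun k _ Pl hPl => tres5np_hhor 𝔫 hhor k Pl hPl) ε' hε' e hh' (V c₂)
    (tres5nv_loc hinj 𝔫 V hBV ϖ hKR hU hϖ0 hfrac c₂ c₁ hκ₂ hthr₂ hthr₁ hw hXY₂ hY hX)
    (tres5nv_unif 𝔫 V hBV ϖ hU hϖ0 c₂ hthr₂ hw hXY₂ hY) m₀ hm₀ m
    (by rw [hϖL]; exact hm) T
    (fun r => by rw [tres5np_algebraMap]; exact hRT _ r.2) hTW
  rw [hϖL] at hres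
  exact hres

include hinj in
/-- **the core at a smooth point** (one component `V c₀` through `𝔫`, `𝔫 = (ϖ, s)` locally):
a point `O′` of the cover inside `T` at which `u = ε ϖ ^ m γ ^ p`. -/
theorem tres5np_smooth_core [IsNoetherianRing B] (V : κ → ValuationSubring F)
    (hBV : ∀ c (b : B), algebraMap B F b ∈ V c) (ϖ : B)
    (hKR : ∀ x : F, (∃ b : B, algebraMap B F ϖ * x = algebraMap B F b) → (∀ c, x ∈ V c) →
      ∃ b : B, x = algebraMap B F b)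
    (hU : ∀ c (x : F), x ∈ (V c).nonunits → ∃ z ∈ V c, x = algebraMap B F ϖ * z)
    (hϖ0 : algebraMap B F ϖ ≠ 0) (hϖV : ∀ c, algebraMap B F ϖ ∈ (V c).nonunits)
    (hE : ∀ e : E, ∃ (n : ℕ) (a : B),
      algebraMap E F e * algebraMap B F ϖ ^ n = algebraMap B F a)
    (hfrac : ∀ x : F, ∃ a b : B, b ≠ 0 ∧ x * algebraMap B F b = algebraMap B F a)
    (c₀ : κ) (hthr : ∀ b : B, algebraMap B F b ∈ (V c₀).nonunits → b ∈ 𝔫)
    (hone : ∀ c', (∀ b : B, algebraMap B F b ∈ (V c').nonunits → b ∈ 𝔫) → c' = c₀)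
    {s : B} (hs : s ∈ 𝔫) (hgen : NodesLocGen 𝔫 {ϖ, s})
    -- the cover
    (H : Tres5eSplit F z P c)
    (W : ValuationSubring L) (hWV : W.comap (algebraMap F L) = V c₀)
    {p : ℕ} {u : L} (hu0 : u ≠ 0)
    (hhor : ∀ Pl : Place E L, (∀ x ∈ ls_localSubring (F := F) 𝔫,
      algebraMap F L x ∈ Pl.toValuationSubring) → (p : ℤ) ∣ Pl.ord u)
    (m : ℤ) (hm : W.valuation (u / algebraMap F L (algebraMap B F ϖ) ^ m) = 1)
    (T : ValuationSubring L)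
    (hRT : ∀ x ∈ ls_localSubring (F := F) 𝔫, algebraMap F L x ∈ T) (hTW : ∀ x ∈ T, x ∈ W) :
    ∃ (O' : Subring L) (f : ↥(ls_localSubring (F := F) 𝔫) →+* O') (γ : L) (ε : O'),
      (∀ x ∈ O', x ∈ T) ∧ (∀ r, ((f r : O') : L) = algebraMap F L (r : F)) ∧ IsUnit ε ∧
        u = (ε : L) * algebraMap F L (algebraMap B F ϖ) ^ m * γ ^ p := by
  haveI : IsNoetherianRing ↥(ls_localSubring (F := F) 𝔫) := s36n2p_isNoetherianRing hinj 𝔫
  haveI : IsFractionRing ↥(ls_localSubring (F := F) 𝔫) F :=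
    s36n2p_isFractionRing _ (tres5nv_frac hinj 𝔫 hfrac)
  haveI : UniqueFactorizationMonoid ↥(ls_localSubring (F := F) 𝔫) :=
    rtk6lfp_smooth_ufd hinj 𝔫 V hBV ϖ hKR hU hϖ0 hϖV c₀ hthr hone hs hgen
  have hmax := rtk6lfp_smooth_max (F := F) hinj 𝔫 ϖ (hthr ϖ (hϖV c₀)) hs hgen
  have hpϖ := rtk6lfp_smooth_prime hinj 𝔫 V hBV ϖ hKR hU hϖ0 hϖV c₀ hthr hone
  have hϖL : algebraMap ↥(ls_localSubring (F := F) 𝔫) L (s36n2pToLoc (F := F) 𝔫 ϖ) =
      algebraMap F L (algebraMap B F ϖ) := tres5np_algebraMap 𝔫 _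
  have hϖ0L : algebraMap F L (algebraMap B F ϖ) ≠ 0 := (_root_.map_ne_zero _).2 hϖ0
  have hϖW : algebraMap F L (algebraMap B F ϖ) ∈ W.nonunits := by
    rw [← tres5_mem_nonunits_comap, hWV]
    exact hϖV c₀
  -- the point of the cover
  obtain ⟨k, hk⟩ := tres5n_exists_le H T (fun r => by rw [tres5np_algebraMap]; exact hRT _ r.2)
  haveI := H.isPrime k
  haveI := H.loc_isLocalRing k
  have hO'T := hk inferInstance
  have hO'W : ∀ x ∈ ls_localSubring (F := L)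
      (tres5eMax ↥(ls_localSubring (F := F) 𝔫) z (c k)), x ∈ W :=
    fun x hx => hTW x (hO'T x hx)
  obtain ⟨W₁, hW₁, hLF⟩ := tres5n_smooth_at (E := E) H k hmax hpϖ (tres5np_hE 𝔫 ϖ hE)
  -- the sheet through the point is `W`
  have hWW₁ : W = W₁ := by
    by_cases hdeg : s36n2pToLoc (F := F) 𝔫 ϖ ∣ s36n2pToLoc (F := F) 𝔫 s
    · refine tres5np_unique_of_dvd _ _ hW₁ W hO'W ?_ fun a ha => ?_
      · show algebraMap ↥(ls_localSubring (F := F) 𝔫) L (s36n2pToLoc (F := F) 𝔫 ϖ) ∈ W.nonunits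
        rw [hϖL]
        exact hϖW
      · refine tres5np_dvd_of_degenerate _ _ _ (H.loc_maximalIdeal k hmax)
          (map_dvd (tres5eBaseToLoc z (c k)) hdeg) fun hu => ?_
        obtain ⟨v, hv⟩ := hu.exists_right_inv
        have h1 : (a : L) * (v : L) = 1 := congrArg Subtype.val hv
        have h2 : W.valuation (a : L) * W.valuation (v : L) = 1 := by
          rw [← map_mul, h1, map_one]
        have h3 : W.valuation (v : L) ≤ 1 := (W.valuation_le_one_iff _).2 (hO'W v v.2)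
        have h4 : W.valuation (a : L) < 1 := (ValuationSubring.mem_nonunits_iff W).1 ha
        have h5 : W.valuation (a : L) * W.valuation (v : L) < 1 :=
          mul_lt_one_of_nonneg_of_lt_one_left zero_le h4 h3
        rw [h2] at h5
        exact lt_irrefl _ h5
    · have hsv := tres5nv_smooth_s hinj 𝔫 V hBV ϖ hKR hU c₀ hone hdeg
      refine tres5n_unique_at H k hmax hpϖ hW₁ W hO'W (V c₀) hWV (hϖV c₀) fun hmem => ?_
      have h3 : (V c₀).valuation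
          ((s36n2pToLoc (F := F) 𝔫 s : ↥(ls_localSubring (F := F) 𝔫)) : F) < 1 :=
        (ValuationSubring.mem_nonunits_iff (V c₀)).1 hmem
      rw [hsv] at h3
      exact lt_irrefl _ h3
  subst hWW₁
  obtain ⟨γ, ε, a, hε, hy, hγ0, -, hv⟩ := hLF p u hu0
    (fun Pl hPl => tres5np_hhor 𝔫 hhor k Pl hPl)
  rw [hϖL] at hy hv
  have ham : a = m := tresmono_exp_unique W hϖ0L
    ((ValuationSubring.mem_nonunits_iff W).1 hϖW) hv hm
  subst ham
  exact ⟨_, tres5eBaseToLoc z (c k), γ, ε, hO'T, fun r => tres5np_algebraMap 𝔫 r, hε, hy⟩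

include hinj in
/-- **(I4) at a cusp (a smooth point), abstract chart form.** -/
theorem tres5np_cusp_abs [IsNoetherianRing B] (V : κ → ValuationSubring F)
    (hBV : ∀ c (b : B), algebraMap B F b ∈ V c) (ϖ : B)
    (hKR : ∀ x : F, (∃ b : B, algebraMap B F ϖ * x = algebraMap B F b) → (∀ c, x ∈ V c) →
      ∃ b : B, x = algebraMap B F b)
    (hU : ∀ c (x : F), x ∈ (V c).nonunits → ∃ z ∈ V c, x = algebraMap B F ϖ * z)
    (hϖ0 : algebraMap B F ϖ ≠ 0) (hϖV : ∀ c, algebraMap B F ϖ ∈ (V c).nonunits)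
    (hE : ∀ e : E, ∃ (n : ℕ) (a : B),
      algebraMap E F e * algebraMap B F ϖ ^ n = algebraMap B F a)
    (hfrac : ∀ x : F, ∃ a b : B, b ≠ 0 ∧ x * algebraMap B F b = algebraMap B F a)
    (c₀ : κ) (hthr : ∀ b : B, algebraMap B F b ∈ (V c₀).nonunits → b ∈ 𝔫)
    (hone : ∀ c', (∀ b : B, algebraMap B F b ∈ (V c').nonunits → b ∈ 𝔫) → c' = c₀)
    {s : B} (hs : s ∈ 𝔫) (hgen : NodesLocGen 𝔫 {ϖ, s})
    (H : Tres5eSplit F z P c)
    (W : ValuationSubring L) (hWV : W.comap (algebraMap F L) = V c₀)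
    {p : ℕ} {u : L} (hu0 : u ≠ 0)
    (hhor : ∀ Pl : Place E L, (∀ x ∈ ls_localSubring (F := F) 𝔫,
      algebraMap F L x ∈ Pl.toValuationSubring) → (p : ℤ) ∣ Pl.ord u)
    (m : ℤ) (hm : W.valuation (u / algebraMap F L (algebraMap B F ϖ) ^ m) = 1) :
    ∀ T : ValuationSubring L, (∀ x ∈ ls_localSubring (F := F) 𝔫, algebraMap F L x ∈ T) →
      (∀ x ∈ T, x ∈ W) →
      ∃ O' : Subring L, (∀ x ∈ O', x ∈ T) ∧
        StbFacAt O' p (u / algebraMap F L (algebraMap B F ϖ) ^ m) := by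
  intro T hRT hTW
  obtain ⟨O', f, γ, ε, hO'T, hf, hε, hy⟩ := tres5np_smooth_core (E := E) hinj 𝔫 V hBV ϖ hKR hU
    hϖ0 hϖV hE hfrac c₀ hthr hone hs hgen H W hWV hu0 hhor m hm T hRT hTW
  exact ⟨O', hO'T, tresmn_cusp O' _ ((_root_.map_ne_zero _).2 hϖ0) u γ ε hε m hy⟩

include hinj in
/-- **(I3) at a smooth point, abstract chart form**: the Ogg unit `h` is a unit of `B_𝔫`. -/
theorem tres5np_smooth_abs [IsNoetherianRing B] (V : κ → ValuationSubring F)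
    (hBV : ∀ c (b : B), algebraMap B F b ∈ V c) (ϖ : B)
    (hKR : ∀ x : F, (∃ b : B, algebraMap B F ϖ * x = algebraMap B F b) → (∀ c, x ∈ V c) →
      ∃ b : B, x = algebraMap B F b)
    (hU : ∀ c (x : F), x ∈ (V c).nonunits → ∃ z ∈ V c, x = algebraMap B F ϖ * z)
    (hϖ0 : algebraMap B F ϖ ≠ 0) (hϖV : ∀ c, algebraMap B F ϖ ∈ (V c).nonunits)
    (hE : ∀ e : E, ∃ (n : ℕ) (a : B),
      algebraMap E F e * algebraMap B F ϖ ^ n = algebraMap B F a)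
    (hfrac : ∀ x : F, ∃ a b : B, b ≠ 0 ∧ x * algebraMap B F b = algebraMap B F a)
    (c₀ : κ) (hthr : ∀ b : B, algebraMap B F b ∈ (V c₀).nonunits → b ∈ 𝔫)
    (hone : ∀ c', (∀ b : B, algebraMap B F b ∈ (V c').nonunits → b ∈ 𝔫) → c' = c₀)
    {s : B} (hs : s ∈ 𝔫) (hgen : NodesLocGen 𝔫 {ϖ, s})
    (H : Tres5eSplit F z P c)
    (W : ValuationSubring L) (hWV : W.comap (algebraMap F L) = V c₀)
    {p : ℕ} {u h : L} (hu0 : u ≠ 0)
    (hhor : ∀ Pl : Place E L, (∀ x ∈ ls_localSubring (F := F) 𝔫,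
      algebraMap F L x ∈ Pl.toValuationSubring) → (p : ℤ) ∣ Pl.ord u)
    (ε' : ↥(ls_localSubring (F := F) 𝔫)) (hε' : IsUnit ε') (hh : h = algebraMap F L (ε' : F))
    (cc e : ℤ)
    (m : ℤ) (hm : W.valuation (u / algebraMap F L (algebraMap B F ϖ) ^ m) = 1) :
    ∀ T : ValuationSubring L, (∀ x ∈ ls_localSubring (F := F) 𝔫, algebraMap F L x ∈ T) →
      (∀ x ∈ T, x ∈ W) →
      ∃ O' : Subring L, (∀ x ∈ O', x ∈ T) ∧
        TresMonoPt W O' p cc e (u / algebraMap F L (algebraMap B F ϖ) ^ m) h := by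
  intro T hRT hTW
  obtain ⟨O', f, γ, ε, hO'T, hf, hε, hy⟩ := tres5np_smooth_core (E := E) hinj 𝔫 V hBV ϖ hKR hU
    hϖ0 hϖV hE hfrac c₀ hthr hone hs hgen H W hWV hu0 hhor m hm T hRT hTW
  exact ⟨O', hO'T, tresmn_smooth W O' _ ((_root_.map_ne_zero _).2 hϖ0) u h γ ε (f ε') hε
    (hε'.map f) m e cc hy (by rw [hh, hf])⟩

end Abs

section Chart

universe u

variable {A₀ E F : Type u} [CommRing A₀] [IsDomain A₀] [IsDiscreteValuationRing A₀]
  [Field E] [Algebra A₀ E] [IsFractionRing A₀ E] [CharZero E]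
  [Field F] [Algebra E F] [Algebra A₀ F] [IsScalarTower A₀ E F]
  {π : A₀} {κ : Type*} [Finite κ]
  {L : Type*} [Field L] [Algebra F L] [Algebra E L] [IsScalarTower E F L]

/-- **(I3) at a thin node** `𝔫` of the chart `t` of `X` (the hypothesis `hfin` of
`tresmono_frame` at `𝔫`): `W` the Gauss sheet of the cover, over `V c₁` (`X = 0`); the Ogg unit
is `h = ε′ Y ^ e`; every sheet over the other branch `V c₂` has `ord u ≡ m₀ mod p`. -/
theorem tres5np_node (hπ : Irreducible π) {t : F} [FiniteDimensional E⟮t⟯ F]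
    [IsNoetherianRing ↥(zchClosure (A₀ := A₀) ({t} : Set F))]
    (V : κ → ValuationSubring F) (c₁ c₂ : κ) (hκ : ∀ c, c = c₁ ∨ c = c₂)
    (hBV : ∀ c (b : F), IsIntegral ↥(Algebra.adjoin A₀ {t}) b → b ∈ V c)
    (hπV : ∀ c, algebraMap A₀ F π ∈ (V c).nonunits)
    (hSS1 : ∀ b : F, IsIntegral ↥(Algebra.adjoin A₀ {t}) b → (∀ c, b ∈ (V c).nonunits) →
      ∃ b' : F, IsIntegral ↥(Algebra.adjoin A₀ {t}) b' ∧ b = algebraMap A₀ F π * b')
    (hU : ∀ c (x : F), x ∈ (V c).nonunits → ∃ z ∈ V c, x = algebraMap A₀ F π * z)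
    (𝔫 : AtPt (F := F) π t) {X Y : ↥(zchClosure (A₀ := A₀) ({t} : Set F))}
    (hcross : Rtk6lfCrossAt (V c₁) (V c₂) 𝔫 X Y)
    -- the cover
    [IsLocalRing ↥(atLoc 𝔫)] [Algebra ↥(atLoc 𝔫) L] [IsScalarTower ↥(atLoc 𝔫) F L]
    {ι : Type*} [Fintype ι] {z : L} {P : (↥(atLoc 𝔫))[X]} {c : ι → ↥(atLoc 𝔫)}
    (H : Tres5eSplit F z P c)
    (W : ValuationSubring L) (hWV : W.comap (algebraMap F L) = V c₁)
    {p : ℕ} {u h : L} (hu0 : u ≠ 0)
    (hhor : ∀ Pl : Place E L, (∀ x ∈ atLoc 𝔫, algebraMap F L x ∈ Pl.toValuationSubring) →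
      (p : ℤ) ∣ Pl.ord u)
    -- the Ogg unit
    (ε' : ↥(atLoc 𝔫)) (hε' : IsUnit ε') (e : ℤ)
    (hh : h = algebraMap F L ((ε' : F) * (Y : F) ^ e))
    -- MONO-0 on the other branch
    (m₀ : ℤ)
    (hm₀ : ∀ W' : ValuationSubring L, W'.comap (algebraMap F L) = V c₂ →
      (p : ℤ) ∣ tres5Ord W' (algebraMap F L (algebraMap A₀ F π)) u - m₀)
    -- the normalisation
    (m : ℤ) (hm : W.valuation (u / algebraMap F L (algebraMap A₀ F π) ^ m) = 1) :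
    ∀ T : ValuationSubring L, (∀ x ∈ atLoc 𝔫, algebraMap F L x ∈ T) → (∀ x ∈ T, x ∈ W) →
      ∃ O' : Subring L, (∀ x ∈ O', x ∈ T) ∧
        TresMonoPt W O' p (m₀ - m) e (u / algebraMap F L (algebraMap A₀ F π) ^ m) h := by
  haveI := 𝔫.2.1.isPrime
  haveI : IsLocalRing ↥(ls_localSubring (F := F) 𝔫.1) := ‹IsLocalRing ↥(atLoc 𝔫)›
  letI : Algebra ↥(ls_localSubring (F := F) 𝔫.1) L := ‹Algebra ↥(atLoc 𝔫) L›
  haveI : IsScalarTower ↥(ls_localSubring (F := F) 𝔫.1) F L := ‹IsScalarTower ↥(atLoc 𝔫) F L›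
  obtain ⟨h₁, h₂, hX, hY, ⟨w, hw, hXY⟩, hgen⟩ := hcross
  have hπ0 : algebraMap A₀ F π ≠ 0 := ei_algebraMap_ne_zero (E := E) hπ
  exact tres5np_node_abs (E := E) (B := ↥(zchClosure (A₀ := A₀) ({t} : Set F)))
    Subtype.val_injective 𝔫.1 V (fun c b => hBV c _ b.2)
    (algebraMap A₀ ↥(zchClosure (A₀ := A₀) ({t} : Set F)) π)
    (ribmp_fac_hKR hπ0 V hπV hSS1) hU hπ0 (ribmp_fac_hE hπ t) (ribmp_fac_hfrac (E := E) t)
    c₁ c₂ (fun c _ => hκ c) h₁ h₂ hw hXY hX hY hgen H W hWV hu0 hhor ε' hε' e hh m₀ hm₀ m hm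

/-- **(I3) at a smooth point** `𝔫` of the chart `t` of `X` (only the component `V c₀` of the
Gauss sheet passes through `𝔫`): the Ogg unit is a unit of `atLoc 𝔫`. -/
theorem tres5np_smooth (hπ : Irreducible π) {t : F} [FiniteDimensional E⟮t⟯ F]
    [IsNoetherianRing ↥(zchClosure (A₀ := A₀) ({t} : Set F))]
    (V : κ → ValuationSubring F)
    (hBV : ∀ c (b : F), IsIntegral ↥(Algebra.adjoin A₀ {t}) b → b ∈ V c)
    (hπV : ∀ c, algebraMap A₀ F π ∈ (V c).nonunits)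
    (hSS1 : ∀ b : F, IsIntegral ↥(Algebra.adjoin A₀ {t}) b → (∀ c, b ∈ (V c).nonunits) →
      ∃ b' : F, IsIntegral ↥(Algebra.adjoin A₀ {t}) b' ∧ b = algebraMap A₀ F π * b')
    (hU : ∀ c (x : F), x ∈ (V c).nonunits → ∃ z ∈ V c, x = algebraMap A₀ F π * z)
    (𝔫 : AtPt (F := F) π t) (c₀ : κ) (hthr : atThrough 𝔫 (V c₀))
    (hone : ∀ c', atThrough 𝔫 (V c') → c' = c₀)
    {s : ↥(zchClosure (A₀ := A₀) ({t} : Set F))} (hs : s ∈ 𝔫.1)
    (hgen : NodesLocGen 𝔫.1 {algebraMap A₀ ↥(zchClosure (A₀ := A₀) ({t} : Set F)) π, s})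
    -- the cover
    [IsLocalRing ↥(atLoc 𝔫)] [Algebra ↥(atLoc 𝔫) L] [IsScalarTower ↥(atLoc 𝔫) F L]
    {ι : Type*} [Fintype ι] {z : L} {P : (↥(atLoc 𝔫))[X]} {c : ι → ↥(atLoc 𝔫)}
    (H : Tres5eSplit F z P c)
    (W : ValuationSubring L) (hWV : W.comap (algebraMap F L) = V c₀)
    {p : ℕ} {u h : L} (hu0 : u ≠ 0)
    (hhor : ∀ Pl : Place E L, (∀ x ∈ atLoc 𝔫, algebraMap F L x ∈ Pl.toValuationSubring) →
      (p : ℤ) ∣ Pl.ord u)
    (ε' : ↥(atLoc 𝔫)) (hε' : IsUnit ε') (hh : h = algebraMap F L (ε' : F)) (cc e : ℤ)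
    (m : ℤ) (hm : W.valuation (u / algebraMap F L (algebraMap A₀ F π) ^ m) = 1) :
    ∀ T : ValuationSubring L, (∀ x ∈ atLoc 𝔫, algebraMap F L x ∈ T) → (∀ x ∈ T, x ∈ W) →
      ∃ O' : Subring L, (∀ x ∈ O', x ∈ T) ∧
        TresMonoPt W O' p cc e (u / algebraMap F L (algebraMap A₀ F π) ^ m) h := by
  haveI := 𝔫.2.1.isPrime
  haveI : IsLocalRing ↥(ls_localSubring (F := F) 𝔫.1) := ‹IsLocalRing ↥(atLoc 𝔫)›
  letI : Algebra ↥(ls_localSubring (F := F) 𝔫.1) L := ‹Algebra ↥(atLoc 𝔫) L›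
  haveI : IsScalarTower ↥(ls_localSubring (F := F) 𝔫.1) F L := ‹IsScalarTower ↥(atLoc 𝔫) F L›
  have hπ0 : algebraMap A₀ F π ≠ 0 := ei_algebraMap_ne_zero (E := E) hπ
  exact tres5np_smooth_abs (E := E) (B := ↥(zchClosure (A₀ := A₀) ({t} : Set F)))
    Subtype.val_injective 𝔫.1 V (fun c b => hBV c _ b.2)
    (algebraMap A₀ ↥(zchClosure (A₀ := A₀) ({t} : Set F)) π)
    (ribmp_fac_hKR hπ0 V hπV hSS1) hU hπ0 hπV (ribmp_fac_hE hπ t) (ribmp_fac_hfrac (E := E) t)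
    c₀ hthr hone hs hgen H W hWV hu0 hhor ε' hε' hh cc e m hm

/-- **(I4) at a cusp** `𝔫` (a smooth point of a chart, e.g. the chart `t⁻¹`; the hypothesis
`hcusp` of `tresmono_frame` at `𝔫`). -/
theorem tres5np_cusp (hπ : Irreducible π) {t : F} [FiniteDimensional E⟮t⟯ F]
    [IsNoetherianRing ↥(zchClosure (A₀ := A₀) ({t} : Set F))]
    (V : κ → ValuationSubring F)
    (hBV : ∀ c (b : F), IsIntegral ↥(Algebra.adjoin A₀ {t}) b → b ∈ V c)
    (hπV : ∀ c, algebraMap A₀ F π ∈ (V c).nonunits)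
    (hSS1 : ∀ b : F, IsIntegral ↥(Algebra.adjoin A₀ {t}) b → (∀ c, b ∈ (V c).nonunits) →
      ∃ b' : F, IsIntegral ↥(Algebra.adjoin A₀ {t}) b' ∧ b = algebraMap A₀ F π * b')
    (hU : ∀ c (x : F), x ∈ (V c).nonunits → ∃ z ∈ V c, x = algebraMap A₀ F π * z)
    (𝔫 : AtPt (F := F) π t) (c₀ : κ) (hthr : atThrough 𝔫 (V c₀))
    (hone : ∀ c', atThrough 𝔫 (V c') → c' = c₀)
    {s : ↥(zchClosure (A₀ := A₀) ({t} : Set F))} (hs : s ∈ 𝔫.1)
    (hgen : NodesLocGen 𝔫.1 {algebraMap A₀ ↥(zchClosure (A₀ := A₀) ({t} : Set F)) π, s})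
    -- the cover
    [IsLocalRing ↥(atLoc 𝔫)] [Algebra ↥(atLoc 𝔫) L] [IsScalarTower ↥(atLoc 𝔫) F L]
    {ι : Type*} [Fintype ι] {z : L} {P : (↥(atLoc 𝔫))[X]} {c : ι → ↥(atLoc 𝔫)}
    (H : Tres5eSplit F z P c)
    (W : ValuationSubring L) (hWV : W.comap (algebraMap F L) = V c₀)
    {p : ℕ} {u : L} (hu0 : u ≠ 0)
    (hhor : ∀ Pl : Place E L, (∀ x ∈ atLoc 𝔫, algebraMap F L x ∈ Pl.toValuationSubring) →
      (p : ℤ) ∣ Pl.ord u)
    (m : ℤ) (hm : W.valuation (u / algebraMap F L (algebraMap A₀ F π) ^ m) = 1) :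
    ∀ T : ValuationSubring L, (∀ x ∈ atLoc 𝔫, algebraMap F L x ∈ T) → (∀ x ∈ T, x ∈ W) →
      ∃ O' : Subring L, (∀ x ∈ O', x ∈ T) ∧
        StbFacAt O' p (u / algebraMap F L (algebraMap A₀ F π) ^ m) := by
  haveI := 𝔫.2.1.isPrime
  haveI : IsLocalRing ↥(ls_localSubring (F := F) 𝔫.1) := ‹IsLocalRing ↥(atLoc 𝔫)›
  letI : Algebra ↥(ls_localSubring (F := F) 𝔫.1) L := ‹Algebra ↥(atLoc 𝔫) L›
  haveI : IsScalarTower ↥(ls_localSubring (F := F) 𝔫.1) F L := ‹IsScalarTower ↥(atLoc 𝔫) F L›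
  have hπ0 : algebraMap A₀ F π ≠ 0 := ei_algebraMap_ne_zero (E := E) hπ
  exact tres5np_cusp_abs (E := E) (B := ↥(zchClosure (A₀ := A₀) ({t} : Set F)))
    Subtype.val_injective 𝔫.1 V (fun c b => hBV c _ b.2)
    (algebraMap A₀ ↥(zchClosure (A₀ := A₀) ({t} : Set F)) π)
    (ribmp_fac_hKR hπ0 V hπV hSS1) hU hπ0 hπV (ribmp_fac_hE hπ t) (ribmp_fac_hfrac (E := E) t)
    c₀ hthr hone hs hgen H W hWV hu0 hhor m hm

end Chart

end Fermat.Agent.R38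

end


end ZBR38_013_1
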