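/- GENERATED FILE (helper35, build-time optimisation, NOTES/ZB.md): verbatim concatenation of the modules
   Fermat.Agent.R38.TresOggConc
   Fermat.Agent.R38.TresNodePtConc
   Fermat.Agent.R38.TresNodePtCusp
   Do not edit; do not import together with these modules. -/
import Fermat.Agent.ZB.RT_001
import Fermat.Agent.ZB.S36_005
import Fermat.Agent.ZB.R38_013
import Fermat.Agent.ZB.RIB_005

/-! ### bundled: `Fermat.Agent.R38.TresOggConc` -/
section ZBR38_014_0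

/-!
# Row 38, PKG-TRES, MONO, piece FAC-OGG (helper10), part 1b: concrete forms over `K₀ ⊇ ℚ̄^I`

Frame of `RIB/MP/FacConc.lean`: `hA : A.LiesOverPrime q`, `hE : beta0Field A ≤ K₀`,
`h2 : q = 2 → 3 ∣ M`, `h3 : q = 3 → 2 ∣ M` (regular charts), `q ∼ π ^ e`.

* `tres5o_assoc_q`     : over `K₀ = beta0Field A = ℚ̄^I`: `q ∼ π ^ 1`;
* `tres5o_cross_fac`   : **the node formula** `h = ε · Y ^ (12 e)` (`X ∈ 𝔪(V_∞)`, `Y ∈ 𝔪(V_0)`);
* `tres5o_cross_fac'`  : other orientation, `h = ε · X ^ (12 e)`;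
* `tres5o_smooth_unit` : `h` is a unit of `(B_j)_𝔫` at a smooth point on `V_∞`;
* `tres5o_smooth_fac`  : `h = ε · π ^ (12 e)` at a smooth point on `V_0`.
-/

set_option autoImplicit false
set_option linter.unusedSectionVars false
set_option linter.unusedVariables false
set_option linter.style.haveILetI false
set_option linter.style.longLine false

noncomputable section

namespace Fermat.Agent.R38

open ModularCurve AlgebraicCurve IntermediateField Fermat.Agent.INJ Fermat.Agent.UNIP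
  Fermat.Agent.STB Fermat.Agent.S36 Fermat.Agent.S33 Fermat.Agent.S28 Fermat.Agent.RIB.MP
  Fermat.Agent.RT.K6 Fermat.Agent.AL Fermat.Agent.ES Fermat.Agent.ES.G2 Fermat.Agent.S24

section Base

variable {A : ValuationSubring Qb} [IsDiscreteValuationRing ↥(beta0Ring A (beta0Field A))]
  {π : ↥(beta0Ring A (beta0Field A))} {q : ℕ}

/-- over `ℚ̄^I` the prime `q` is a uniformizer: `q ∼ π ^ 1` -/
theorem tres5o_assoc_q (hπ : Irreducible π) (hq : q.Prime) (hA : A.LiesOverPrime q) :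
    Associated ((q : ℕ) : ↥(beta0Ring A (beta0Field A))) (π ^ 1) := by
  rw [pow_one]
  exact IsDiscreteValuationRing.associated_of_irreducible _ (beta0Ring_irreducible_q hq hA) hπ

end Base

section Mgv

variable {A : ValuationSubring Qb} {K₀ : IntermediateField ℚ Qb}
  [IsDiscreteValuationRing ↥(beta0Ring A K₀)] {π : ↥(beta0Ring A K₀)} (hπ : Irreducible π)
  (ιC : ↥K₀ →+* ℂ) {q M : ℕ} [NeZero q] [NeZero M] [NeZero (M * q)]
  (hq : q.Prime) (hqM : ¬ q ∣ M)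

/-- **The node formula for the Ogg unit**, concrete form. -/
theorem tres5o_cross_fac (hA : A.LiesOverPrime q) (hE : beta0Field A ≤ K₀)
    (h2 : q = 2 → 3 ∣ M) (h3 : q = 3 → 2 ∣ M)
    [IsNoetherianRing ↥(zchClosure (A₀ := ↥(beta0Ring A K₀))
      ({bgJ ↥K₀ (M * q)} : Set ↥(modularFunctionFieldFullC ↥K₀ (M * q))))]
    {e : ℕ} (hqπ : Associated ((q : ℕ) : ↥(beta0Ring A K₀)) (π ^ e))
    (𝔫 : AtPt (F := ↥(modularFunctionFieldFullC ↥K₀ (M * q))) π (bgJ ↥K₀ (M * q)))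
    {X Y : ↥(zchClosure (A₀ := ↥(beta0Ring A K₀))
      ({bgJ ↥K₀ (M * q)} : Set ↥(modularFunctionFieldFullC ↥K₀ (M * q))))}
    (h : Rtk6lfCrossAt (mgvV hπ ιC hq hqM true) (mgvV hπ ιC hq hqM false) 𝔫 X Y) :
    ∃ ε : ↥(atLoc 𝔫), IsUnit ε ∧
      s36tuV ↥K₀ ιC (q := q) (M := M) =
        (ε : ↥(modularFunctionFieldFullC ↥K₀ (M * q))) *
          (Y : ↥(modularFunctionFieldFullC ↥K₀ (M * q))) ^ (12 * e) := by
  haveI := ribmp_fc_fin (K₀ := K₀) (M * q)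
  exact tres5o_cross_fac_of hπ ιC hq hqM hA (ribmp_fc_hSS1 hπ ιC hq hqM hA hE h2 h3)
    (ribmp_fc_hU hπ ιC hq hqM) hqπ 𝔫 h

/-- **The node formula for the Ogg unit**, concrete form, other orientation. -/
theorem tres5o_cross_fac' (hA : A.LiesOverPrime q) (hE : beta0Field A ≤ K₀)
    (h2 : q = 2 → 3 ∣ M) (h3 : q = 3 → 2 ∣ M)
    [IsNoetherianRing ↥(zchClosure (A₀ := ↥(beta0Ring A K₀))
      ({bgJ ↥K₀ (M * q)} : Set ↥(modularFunctionFieldFullC ↥K₀ (M * q))))]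
    {e : ℕ} (hqπ : Associated ((q : ℕ) : ↥(beta0Ring A K₀)) (π ^ e))
    (𝔫 : AtPt (F := ↥(modularFunctionFieldFullC ↥K₀ (M * q))) π (bgJ ↥K₀ (M * q)))
    {X Y : ↥(zchClosure (A₀ := ↥(beta0Ring A K₀))
      ({bgJ ↥K₀ (M * q)} : Set ↥(modularFunctionFieldFullC ↥K₀ (M * q))))}
    (h : Rtk6lfCrossAt (mgvV hπ ιC hq hqM false) (mgvV hπ ιC hq hqM true) 𝔫 X Y) :
    ∃ ε : ↥(atLoc 𝔫), IsUnit ε ∧
      s36tuV ↥K₀ ιC (q := q) (M := M) =
        (ε : ↥(modularFunctionFieldFullC ↥K₀ (M * q))) *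
          (X : ↥(modularFunctionFieldFullC ↥K₀ (M * q))) ^ (12 * e) := by
  haveI := ribmp_fc_fin (K₀ := K₀) (M * q)
  exact tres5o_cross_fac_of' hπ ιC hq hqM hA (ribmp_fc_hSS1 hπ ιC hq hqM hA hE h2 h3)
    (ribmp_fc_hU hπ ιC hq hqM) hqπ 𝔫 h

/-- **The Ogg unit is a unit** at a smooth point on the component `V_∞`, concrete form. -/
theorem tres5o_smooth_unit (hA : A.LiesOverPrime q) (hE : beta0Field A ≤ K₀)
    (h2 : q = 2 → 3 ∣ M) (h3 : q = 3 → 2 ∣ M)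
    [IsNoetherianRing ↥(zchClosure (A₀ := ↥(beta0Ring A K₀))
      ({bgJ ↥K₀ (M * q)} : Set ↥(modularFunctionFieldFullC ↥K₀ (M * q))))]
    (𝔫 : AtPt (F := ↥(modularFunctionFieldFullC ↥K₀ (M * q))) π (bgJ ↥K₀ (M * q)))
    (hthr : atThrough 𝔫 (mgvV hπ ιC hq hqM true))
    (hone : ∀ c', atThrough 𝔫 (mgvV hπ ιC hq hqM c') → c' = true)
    {s : ↥(zchClosure (A₀ := ↥(beta0Ring A K₀))
      ({bgJ ↥K₀ (M * q)} : Set ↥(modularFunctionFieldFullC ↥K₀ (M * q))))} (hs : s ∈ 𝔫.1)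
    (hgen : NodesLocGen 𝔫.1 {algebraMap ↥(beta0Ring A K₀) ↥(zchClosure (A₀ := ↥(beta0Ring A K₀))
      ({bgJ ↥K₀ (M * q)} : Set ↥(modularFunctionFieldFullC ↥K₀ (M * q)))) π, s}) :
    ∃ ε : ↥(atLoc 𝔫), IsUnit ε ∧
      s36tuV ↥K₀ ιC (q := q) (M := M) = (ε : ↥(modularFunctionFieldFullC ↥K₀ (M * q))) := by
  haveI := ribmp_fc_fin (K₀ := K₀) (M * q)
  exact tres5o_smooth_unit_of hπ ιC hq hqM hA (ribmp_fc_hSS1 hπ ιC hq hqM hA hE h2 h3)
    (ribmp_fc_hU hπ ιC hq hqM) 𝔫 hthr hone hs hgen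

/-- **The Ogg unit at a smooth point on the component `V_0`**, concrete form. -/
theorem tres5o_smooth_fac (hA : A.LiesOverPrime q) (hE : beta0Field A ≤ K₀)
    (h2 : q = 2 → 3 ∣ M) (h3 : q = 3 → 2 ∣ M)
    [IsNoetherianRing ↥(zchClosure (A₀ := ↥(beta0Ring A K₀))
      ({bgJ ↥K₀ (M * q)} : Set ↥(modularFunctionFieldFullC ↥K₀ (M * q))))]
    {e : ℕ} (hqπ : Associated ((q : ℕ) : ↥(beta0Ring A K₀)) (π ^ e))
    (𝔫 : AtPt (F := ↥(modularFunctionFieldFullC ↥K₀ (M * q))) π (bgJ ↥K₀ (M * q)))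
    (hthr : atThrough 𝔫 (mgvV hπ ιC hq hqM false))
    (hone : ∀ c', atThrough 𝔫 (mgvV hπ ιC hq hqM c') → c' = false)
    {s : ↥(zchClosure (A₀ := ↥(beta0Ring A K₀))
      ({bgJ ↥K₀ (M * q)} : Set ↥(modularFunctionFieldFullC ↥K₀ (M * q))))} (hs : s ∈ 𝔫.1)
    (hgen : NodesLocGen 𝔫.1 {algebraMap ↥(beta0Ring A K₀) ↥(zchClosure (A₀ := ↥(beta0Ring A K₀))
      ({bgJ ↥K₀ (M * q)} : Set ↥(modularFunctionFieldFullC ↥K₀ (M * q)))) π, s}) :
    ∃ ε : ↥(atLoc 𝔫), IsUnit ε ∧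
      s36tuV ↥K₀ ιC (q := q) (M := M) =
        (ε : ↥(modularFunctionFieldFullC ↥K₀ (M * q))) *
          algebraMap ↥(beta0Ring A K₀) ↥(modularFunctionFieldFullC ↥K₀ (M * q)) π ^ (12 * e) := by
  haveI := ribmp_fc_fin (K₀ := K₀) (M * q)
  exact tres5o_smooth_fac_of hπ ιC hq hqM hA (ribmp_fc_hSS1 hπ ιC hq hqM hA hE h2 h3)
    (ribmp_fc_hU hπ ιC hq hqM) hqπ 𝔫 hthr hone hs hgen

end Mgv

end Fermat.Agent.R38

end
end ZBR38_014_0

/-! ### bundled: `Fermat.Agent.R38.TresNodePtConc` -/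
section ZBR38_014_1
/-
Row 38, PKG-TRES, MONO, piece FAC-LOC (helper92), part 4: THE HYPOTHESIS (I3) `hfin` OF
`tresmono_frame`, CONCRETE FORM on the chart `j` of `X₀(M q)` over `K = ℚ̄^I` (rigid level).

Frame of `RT/K6/DLFConc.lean` (section `Base`): `K = beta0Field A`, `A₀ = beta0Ring A K`,
`F = modularFunctionFieldFullC K (M q)`, `t = bgJ K (M q)`, `V = mgvV hπ ιC hq hqM`
(`true = V_∞`, `false = V_0`), `h = s36tuV K ιC` the Ogg unit (helper10, `R38/TresOgg*.lean`).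
`L ⊇ F` the function field of the cover over `K`, `W` its Gauss sheet (`W ∩ F = V_∞`).

* `tres5npj_through` : a closed point `𝔫` with `atLoc 𝔫 ⊆ T ⊆ W` lies on `V_∞`;
* `tres5npj_hfin_node` : the same as `tres5npj_hfin` with `hm₀` required only at thin nodes;
* `tres5npj_hfin`    : **(I3)** at every closed point of the chart `j`, from
    - the thin dichotomy `rtk6lfb0_thinAt_J` (S36 G-thin, rigid level),
    - `hsplit` : the split situation `Tres5eSplit` over `atLoc 𝔫` at the closed points on `V_∞`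
                 (K-FORM (B), helper48/helper53),
    - `hhor`   : `p ∣ ord_P u` at the places of `L / K` (FAC-HOR),
    - `hm₀`    : MONO-0 on the sheets over `V_0` (helper14),
    - the Ogg node formula (helper10) — `e = 12`.
-/

set_option autoImplicit false
set_option linter.unusedSectionVars false
set_option linter.unusedVariables false
set_option linter.style.haveILetI false
set_option linter.style.longLine false
set_option synthInstance.maxHeartbeats 400000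
set_option maxHeartbeats 1600000

noncomputable section

namespace Fermat.Agent.R38

open ModularCurve AlgebraicCurve IntermediateField Polynomial Fermat.Agent.INJ Fermat.Agent.UNIP
  Fermat.Agent.STB Fermat.Agent.S36 Fermat.Agent.RIB.MP Fermat.Agent.RT.K6 Fermat.Agent.AL
  Fermat.Agent.ES Fermat.Agent.ES.G2

section Through

variable {A₀ F : Type*} [CommRing A₀] [Field F] [Algebra A₀ F]
  {L : Type*} [Field L] [Algebra F L]

/-- a closed point `𝔫` of a chart with `atLoc 𝔫 ⊆ T ⊆ W` lies on the component `W ∩ F` -/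
theorem tres5npj_through {π : A₀} {t : F} (𝔫 : AtPt (F := F) π t) (W T : ValuationSubring L)
    (V : ValuationSubring F) (hWV : W.comap (algebraMap F L) = V)
    (hRT : ∀ x ∈ atLoc 𝔫, algebraMap F L x ∈ T) (hTW : ∀ x ∈ T, x ∈ W) :
    atThrough 𝔫 V := by
  haveI := 𝔫.2.1.isPrime
  intro b hb
  by_contra hb𝔫
  have hb0 : (b : F) ≠ 0 := fun h0 => hb𝔫 (by
    have : b = 0 := Subtype.ext h0
    rw [this]; exact 𝔫.1.zero_mem)
  have hinv : (b : F)⁻¹ ∈ atLoc 𝔫 := by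
    refine ⟨1, b, hb𝔫, ?_⟩
    show (b : F) * (b : F)⁻¹ = ((1 : ↥(zchClosure (A₀ := A₀) ({t} : Set F))) : F)
    rw [mul_inv_cancel₀ hb0]; rfl
  have h1 : (b : F)⁻¹ ∈ V := by
    rw [← hWV, ValuationSubring.mem_comap]
    exact hTW _ (hRT _ hinv)
  have h2 : V.valuation (b : F)⁻¹ ≤ 1 := (V.valuation_le_one_iff _).2 h1
  have h3 : V.valuation (b : F) < 1 := (ValuationSubring.mem_nonunits_iff V).1 hb
  have h4 : V.valuation (b : F) * V.valuation (b : F)⁻¹ = 1 := by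
    rw [← map_mul, mul_inv_cancel₀ hb0, map_one]
  have h5 : V.valuation (b : F) * V.valuation (b : F)⁻¹ < 1 :=
    mul_lt_one_of_nonneg_of_lt_one_left zero_le h3 h2
  rw [h4] at h5
  exact lt_irrefl _ h5

end Through

section Base

variable {A : ValuationSubring Qb} {q M : ℕ} [NeZero q] [NeZero M] [NeZero (M * q)]
  [IsDiscreteValuationRing ↥(beta0Ring A (beta0Field A))]
  {π : ↥(beta0Ring A (beta0Field A))} (hπ : Irreducible π)
  (ιC : ↥(beta0Field A) →+* ℂ) (hq : q.Prime) (hqM : ¬ q ∣ M)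

include hπ ιC hq hqM in
/-- **(I3) of `tresmono_frame` on the chart `j` of `X₀(M q)` over `ℚ̄^I`** (rigid level), with
MONO-0 `hm₀` required ONLY in the presence of a thin node (the shape of helper14's instance
`tresmzi_main`). -/
theorem tres5npj_hfin_node (hA : A.LiesOverPrime q)
    (rigid : (q ≠ 2 → 4 ∣ M) ∧ (q = 2 → 9 ∣ M))
    {L : Type*} [Field L] [Algebra ↥(modularFunctionFieldFullC ↥(beta0Field A) (M * q)) L]
    [Algebra ↥(beta0Field A) L]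
    [IsScalarTower ↥(beta0Field A) ↥(modularFunctionFieldFullC ↥(beta0Field A) (M * q)) L]
    (W : ValuationSubring L)
    (hWV : W.comap (algebraMap ↥(modularFunctionFieldFullC ↥(beta0Field A) (M * q)) L) =
      mgvV hπ ιC hq hqM true)
    {ι : Type*} [Fintype ι]
    (hsplit : ∀ 𝔫 : AtPt (F := ↥(modularFunctionFieldFullC ↥(beta0Field A) (M * q))) π
        (bgJ ↥(beta0Field A) (M * q)),
      atThrough 𝔫 (mgvV hπ ιC hq hqM true) → ∀ [IsLocalRing ↥(atLoc 𝔫)],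
        ∃ (z : L) (P : (↥(atLoc 𝔫))[X]) (c : ι → ↥(atLoc 𝔫)),
          Tres5eSplit ↥(modularFunctionFieldFullC ↥(beta0Field A) (M * q)) z P c)
    {p : ℕ} {u : L} (hu0 : u ≠ 0)
    (hhor : ∀ Pl : Place ↥(beta0Field A) L, (p : ℤ) ∣ Pl.ord u)
    (m₀ : ℤ)
    (hm₀ : ∀ (𝔫 : AtPt (F := ↥(modularFunctionFieldFullC ↥(beta0Field A) (M * q))) π
        (bgJ ↥(beta0Field A) (M * q)))
      (X Y : ↥(zchClosure (A₀ := ↥(beta0Ring A (beta0Field A)))
        ({bgJ ↥(beta0Field A) (M * q)} :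
          Set ↥(modularFunctionFieldFullC ↥(beta0Field A) (M * q))))),
      Rtk6lfCrossAt (mgvV hπ ιC hq hqM true) (mgvV hπ ιC hq hqM false) 𝔫 X Y →
      ∀ W' : ValuationSubring L,
      W'.comap (algebraMap ↥(modularFunctionFieldFullC ↥(beta0Field A) (M * q)) L) =
        mgvV hπ ιC hq hqM false →
      (p : ℤ) ∣ tres5Ord W' (algebraMap ↥(modularFunctionFieldFullC ↥(beta0Field A) (M * q)) L
        (algebraMap ↥(beta0Ring A (beta0Field A))
          ↥(modularFunctionFieldFullC ↥(beta0Field A) (M * q)) π)) u - m₀)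
    (m : ℤ)
    (hm : W.valuation (u / algebraMap ↥(modularFunctionFieldFullC ↥(beta0Field A) (M * q)) L
      (algebraMap ↥(beta0Ring A (beta0Field A))
        ↥(modularFunctionFieldFullC ↥(beta0Field A) (M * q)) π) ^ m) = 1) :
    ∀ 𝔫 : AtPt (F := ↥(modularFunctionFieldFullC ↥(beta0Field A) (M * q))) π
        (bgJ ↥(beta0Field A) (M * q)),
      ∀ T : ValuationSubring L,
      (∀ x ∈ atLoc 𝔫,
        algebraMap ↥(modularFunctionFieldFullC ↥(beta0Field A) (M * q)) L x ∈ T) →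
      (∀ x ∈ T, x ∈ W) →
      ∃ O' : Subring L, (∀ x ∈ O', x ∈ T) ∧
        TresMonoPt W O' p (m₀ - m) 12
          (u / algebraMap ↥(modularFunctionFieldFullC ↥(beta0Field A) (M * q)) L
            (algebraMap ↥(beta0Ring A (beta0Field A))
              ↥(modularFunctionFieldFullC ↥(beta0Field A) (M * q)) π) ^ m)
          (algebraMap ↥(modularFunctionFieldFullC ↥(beta0Field A) (M * q)) L
            (s36tuV ↥(beta0Field A) ιC (q := q) (M := M))) := by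
  intro 𝔫 T hRT hTW
  haveI := 𝔫.2.1.isPrime
  haveI := rtk6lfb_noeth_J (A := A) (K₀ := beta0Field A) (M := M) (q := q)
  haveI := ribmp_fc_fin (K₀ := beta0Field A) (M * q)
  haveI : IsLocalRing ↥(atLoc 𝔫) :=
    ls_localSubring_isLocalRing (F := ↥(modularFunctionFieldFullC ↥(beta0Field A) (M * q)))
      Subtype.val_injective 𝔫.1
  have h2 := rtk6lfb_rigid_h2 rigid
  have h3 := rtk6lfb_rigid_h3 rigid
  have hSS1 := ribmp_fc_hSS1 hπ ιC hq hqM hA (le_refl (beta0Field A)) h2 h3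
  have hthr : atThrough 𝔫 (mgvV hπ ιC hq hqM true) :=
    tres5npj_through 𝔫 W T _ hWV hRT hTW
  obtain ⟨z, P, c, H⟩ := hsplit 𝔫 hthr
  rcases rtk6lfb0_thinAt_J hπ ιC hq hqM hA rigid 𝔫 with ⟨s, hs, hgen⟩ | ⟨X, Y, hcross⟩
  · -- smooth point
    have harch' : ∀ c, StbArch (mgvV hπ ιC hq hqM c) := fun c x a ha => by
      obtain ⟨N, hN⟩ := mgv_harch hπ ιC hq hqM c a x ha
      exact ⟨N, by rw [mul_comm x (a ^ N)]; exact hN⟩
    obtain ⟨c₀, hc₀, hone⟩ := stb_sx_exists_unique (mgvV hπ ιC hq hqM) (mgv_hBV₁ hπ ιC hq hqM)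
      (mgv_hπV hπ ιC hq hqM) hSS1 (mgv_hVloc₁ hπ ιC hq hqM hA hSS1)
      (fun c c' hcc' => stb_not_le_of_ne (harch' c) (ribmp_fc_hπ0 hπ) (mgv_hπV hπ ιC hq hqM c')
        (rtk6lfb_hne hπ ιC hq hqM hA c c' hcc')) 𝔫 s hs hgen
    have hc₀t : c₀ = true := (hone true hthr).symm
    subst hc₀t
    obtain ⟨ε', hε', hh⟩ := tres5o_smooth_unit hπ ιC hq hqM hA (le_refl (beta0Field A)) h2 h3 𝔫
      hthr hone hs hgen
    exact tres5np_smooth (E := ↥(beta0Field A)) hπ (mgvV hπ ιC hq hqM)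
      (mgv_hBV₁ hπ ιC hq hqM) (mgv_hπV hπ ιC hq hqM) hSS1 (ribmp_fc_hU hπ ιC hq hqM) 𝔫 true
      hthr hone hs hgen H W hWV hu0 (fun Pl _ => hhor Pl) ε' hε' (by rw [hh]) (m₀ - m) 12 m hm
      T hRT hTW
  · -- thin node
    obtain ⟨ε', hε', hh⟩ := tres5o_cross_fac hπ ιC hq hqM hA (le_refl (beta0Field A)) h2 h3
      (tres5o_assoc_q hπ hq hA) 𝔫 hcross
    exact tres5np_node (E := ↥(beta0Field A)) hπ (mgvV hπ ιC hq hqM) true false mgv_hκ
      (mgv_hBV₁ hπ ιC hq hqM) (mgv_hπV hπ ιC hq hqM) hSS1 (ribmp_fc_hU hπ ιC hq hqM) 𝔫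
      hcross H W hWV hu0 (fun Pl _ => hhor Pl) ε' hε' 12
      (by rw [hh]; norm_num) m₀ (hm₀ 𝔫 X Y hcross) m hm T hRT hTW

include hπ ιC hq hqM in
/-- **(I3) of `tresmono_frame` on the chart `j`**, with a global MONO-0 hypothesis. -/
theorem tres5npj_hfin (hA : A.LiesOverPrime q)
    (rigid : (q ≠ 2 → 4 ∣ M) ∧ (q = 2 → 9 ∣ M))
    {L : Type*} [Field L] [Algebra ↥(modularFunctionFieldFullC ↥(beta0Field A) (M * q)) L]
    [Algebra ↥(beta0Field A) L]
    [IsScalarTower ↥(beta0Field A) ↥(modularFunctionFieldFullC ↥(beta0Field A) (M * q)) L]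
    (W : ValuationSubring L)
    (hWV : W.comap (algebraMap ↥(modularFunctionFieldFullC ↥(beta0Field A) (M * q)) L) =
      mgvV hπ ιC hq hqM true)
    {ι : Type*} [Fintype ι]
    (hsplit : ∀ 𝔫 : AtPt (F := ↥(modularFunctionFieldFullC ↥(beta0Field A) (M * q))) π
        (bgJ ↥(beta0Field A) (M * q)),
      atThrough 𝔫 (mgvV hπ ιC hq hqM true) → ∀ [IsLocalRing ↥(atLoc 𝔫)],
        ∃ (z : L) (P : (↥(atLoc 𝔫))[X]) (c : ι → ↥(atLoc 𝔫)),
          Tres5eSplit ↥(modularFunctionFieldFullC ↥(beta0Field A) (M * q)) z P c)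
    {p : ℕ} {u : L} (hu0 : u ≠ 0)
    (hhor : ∀ Pl : Place ↥(beta0Field A) L, (p : ℤ) ∣ Pl.ord u)
    (m₀ : ℤ)
    (hm₀ : ∀ W' : ValuationSubring L,
      W'.comap (algebraMap ↥(modularFunctionFieldFullC ↥(beta0Field A) (M * q)) L) =
        mgvV hπ ιC hq hqM false →
      (p : ℤ) ∣ tres5Ord W' (algebraMap ↥(modularFunctionFieldFullC ↥(beta0Field A) (M * q)) L
        (algebraMap ↥(beta0Ring A (beta0Field A))
          ↥(modularFunctionFieldFullC ↥(beta0Field A) (M * q)) π)) u - m₀)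
    (m : ℤ)
    (hm : W.valuation (u / algebraMap ↥(modularFunctionFieldFullC ↥(beta0Field A) (M * q)) L
      (algebraMap ↥(beta0Ring A (beta0Field A))
        ↥(modularFunctionFieldFullC ↥(beta0Field A) (M * q)) π) ^ m) = 1) :
    ∀ 𝔫 : AtPt (F := ↥(modularFunctionFieldFullC ↥(beta0Field A) (M * q))) π
        (bgJ ↥(beta0Field A) (M * q)),
      ∀ T : ValuationSubring L,
      (∀ x ∈ atLoc 𝔫,
        algebraMap ↥(modularFunctionFieldFullC ↥(beta0Field A) (M * q)) L x ∈ T) →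
      (∀ x ∈ T, x ∈ W) →
      ∃ O' : Subring L, (∀ x ∈ O', x ∈ T) ∧
        TresMonoPt W O' p (m₀ - m) 12
          (u / algebraMap ↥(modularFunctionFieldFullC ↥(beta0Field A) (M * q)) L
            (algebraMap ↥(beta0Ring A (beta0Field A))
              ↥(modularFunctionFieldFullC ↥(beta0Field A) (M * q)) π) ^ m)
          (algebraMap ↥(modularFunctionFieldFullC ↥(beta0Field A) (M * q)) L
            (s36tuV ↥(beta0Field A) ιC (q := q) (M := M))) :=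
  tres5npj_hfin_node hπ ιC hq hqM hA rigid W hWV hsplit hu0 hhor m₀
    (fun _ _ _ _ => hm₀) m hm

end Base

end Fermat.Agent.R38

end


end ZBR38_014_1

/-! ### bundled: `Fermat.Agent.R38.TresNodePtCusp` -/
section ZBR38_014_2
/-
Row 38, PKG-TRES, MONO, piece FAC-LOC, leaf (I4)-CONCRETE (helper84): THE HYPOTHESIS `hcusp` OF
`tresmono_frame`, CONCRETE FORM on the chart `1 / j` of `X₀(M q)` (twin of helper92's
`R38/TresNodePtConc.lean`, which does the chart `j`).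

Frame of `RIB/MP/FacCusp.lean`: `A ⊂ ℚ̄` over `q`, `q ∤ M`, `K₀ ⊇ ℚ̄^I` with `A₀ = A ∩ K₀` a DVR
(uniformizer `π`), `F = modularFunctionFieldFullC K₀ (M q)`, `t = bgJ K₀ (M q)`,
`V = mgvV hπ ιC hq hqM` (`true = V_∞`, `false = V_0`).  `L ⊇ F` the function field of the cover
over `K₀`, `W` its Gauss sheet (`W ∩ F = V_∞`).

A CUSP is a closed point `𝔫` of the special fibre of the chart `1 / j` with `1 / j ∈ 𝔫`.

* `tres5npc_gen_mem`   : the cusp condition of `tresmono_frame` gives `ribmpFglGen (1 / j) ∈ 𝔫`;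
* `tres5npc_smooth`    : a cusp is a smooth point, `𝔫 = (π, s)` locally (`ribmp_fcu_smooth`),
                         for `K₀` stable under the decomposition group;
* `tres5npc_unique`    : exactly one of `V_∞`, `V_0` passes through a cusp;
* `tres5npc_hcusp_gen` : **(I4)** at every cusp, `K₀` stable under the decomposition group;
* `tres5npc_hcusp`     : **(I4)** at every cusp for `K₀ = ℚ̄^I = beta0Field A` (frame K), from
    - `hsplit` : the split situation `Tres5eSplit` over `atLoc 𝔫` at the cusps on `V_∞`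
                 (K-FORM (B)),
    - `hhor`   : `p ∣ ord_P u` at the places of `L / K` (FAC-HOR);
  the conclusion is LITERALLY the hypothesis `hcusp` of `tresmono_frame` with
  `y = u / π ^ m`;
* `tres5npc_hcusp_rigid` : the same with the rigidity hypothesis of `tres5npj_hfin`.
-/

set_option autoImplicit false
set_option linter.unusedSectionVars false
set_option linter.unusedVariables false
set_option linter.style.haveILetI false
set_option linter.style.longLine false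
set_option synthInstance.maxHeartbeats 400000
set_option maxHeartbeats 1600000

noncomputable section

namespace Fermat.Agent.R38

open ModularCurve AlgebraicCurve IntermediateField Polynomial Fermat.Agent.INJ Fermat.Agent.UNIP
  Fermat.Agent.STB Fermat.Agent.S36 Fermat.Agent.RIB.MP Fermat.Agent.RT.K6 Fermat.Agent.AL
  Fermat.Agent.ES Fermat.Agent.ES.G2

section Gen

variable {A : ValuationSubring Qb} {K₀ : IntermediateField ℚ Qb}
  [IsDiscreteValuationRing ↥(beta0Ring A K₀)] {π : ↥(beta0Ring A K₀)} (hπ : Irreducible π)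
  (ιC : ↥K₀ →+* ℂ) {q M : ℕ} [NeZero q] [NeZero M] [NeZero (M * q)]
  (hq : q.Prime) (hqM : ¬ q ∣ M)

/-- the cusp condition of `tresmono_frame`, in the form of `RIB/MP/FacCusp.lean` -/
theorem tres5npc_gen_mem
    (𝔫 : AtPt (F := ↥(modularFunctionFieldFullC ↥K₀ (M * q))) π (bgJ ↥K₀ (M * q))⁻¹)
    (hcu : ∀ b : ↥(zchClosure (A₀ := ↥(beta0Ring A K₀))
        ({(bgJ ↥K₀ (M * q))⁻¹} : Set ↥(modularFunctionFieldFullC ↥K₀ (M * q)))),
      (b : ↥(modularFunctionFieldFullC ↥K₀ (M * q))) = (bgJ ↥K₀ (M * q))⁻¹ → b ∈ 𝔫.1) :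
    ribmpFglGen (A₀ := ↥(beta0Ring A K₀)) (bgJ ↥K₀ (M * q))⁻¹ ∈ 𝔫.1 :=
  hcu _ rfl

include hπ hq hqM in
/-- **a cusp is a smooth point** (`K₀` stable under the decomposition group of `A`) -/
theorem tres5npc_smooth (hA : A.LiesOverPrime q) (hE : beta0Field A ≤ K₀)
    (hstab : ∀ τ : Qb ≃ₐ[ℚ] Qb, τ ∈ A.decompositionSubgroup ℚ → ∀ x ∈ K₀, τ x ∈ K₀)
    (h2 : q = 2 → 3 ∣ M) (h3 : q = 3 → 2 ∣ M)
    (𝔫 : AtPt (F := ↥(modularFunctionFieldFullC ↥K₀ (M * q))) π (bgJ ↥K₀ (M * q))⁻¹)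
    (hcu : ∀ b : ↥(zchClosure (A₀ := ↥(beta0Ring A K₀))
        ({(bgJ ↥K₀ (M * q))⁻¹} : Set ↥(modularFunctionFieldFullC ↥K₀ (M * q)))),
      (b : ↥(modularFunctionFieldFullC ↥K₀ (M * q))) = (bgJ ↥K₀ (M * q))⁻¹ → b ∈ 𝔫.1) :
    ∃ s ∈ 𝔫.1, NodesLocGen 𝔫.1
      {algebraMap ↥(beta0Ring A K₀) ↥(zchClosure (A₀ := ↥(beta0Ring A K₀))
        ({(bgJ ↥K₀ (M * q))⁻¹} : Set ↥(modularFunctionFieldFullC ↥K₀ (M * q)))) π, s} := by
  obtain ⟨φ, hφF⟩ := Fermat.Agent.Common.exists_isFrobeniusAt_of_liesOverPrime q hq A hA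
  exact ribmp_fcu_smooth hπ hq hqM hA hE hφF (hstab φ hφF.mem_decompositionSubgroup) h2 h3 𝔫
    (tres5npc_gen_mem 𝔫 hcu)

include hπ ιC hq hqM in
/-- **exactly one vertical component passes through a smooth point of the chart `1 / j`** -/
theorem tres5npc_unique (hA : A.LiesOverPrime q) (hE : beta0Field A ≤ K₀)
    (h2 : q = 2 → 3 ∣ M) (h3 : q = 3 → 2 ∣ M)
    (𝔫 : AtPt (F := ↥(modularFunctionFieldFullC ↥K₀ (M * q))) π (bgJ ↥K₀ (M * q))⁻¹)
    {s : ↥(zchClosure (A₀ := ↥(beta0Ring A K₀))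
      ({(bgJ ↥K₀ (M * q))⁻¹} : Set ↥(modularFunctionFieldFullC ↥K₀ (M * q))))} (hs : s ∈ 𝔫.1)
    (hgen : NodesLocGen 𝔫.1
      {algebraMap ↥(beta0Ring A K₀) ↥(zchClosure (A₀ := ↥(beta0Ring A K₀))
        ({(bgJ ↥K₀ (M * q))⁻¹} : Set ↥(modularFunctionFieldFullC ↥K₀ (M * q)))) π, s}) :
    ∃ c : Bool, atThrough 𝔫 (mgvV hπ ιC hq hqM c) ∧
      ∀ c', atThrough 𝔫 (mgvV hπ ιC hq hqM c') → c' = c := by
  haveI := ribmp_fcu_noeth (A := A) (K₀ := K₀) (q := q) (M := M)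
  have hSS1 := ribmp_fc_hSS1 hπ ιC hq hqM hA hE h2 h3
  have hSS1i := ribmp_fc_hSS1_inv hπ ιC hq hqM hA hE h2 h3
  have harch' : ∀ c, StbArch (mgvV hπ ιC hq hqM c) := fun c x a ha => by
    obtain ⟨N, hN⟩ := mgv_harch hπ ιC hq hqM c a x ha
    exact ⟨N, by rw [mul_comm x (a ^ N)]; exact hN⟩
  exact stb_sx_exists_unique (mgvV hπ ιC hq hqM) (mgv_hBV₂ hπ ιC hq hqM)
    (mgv_hπV hπ ιC hq hqM) hSS1i (mgv_hVloc₂ hπ ιC hq hqM hA hSS1)
    (fun c c' hcc' => stb_not_le_of_ne (harch' c) (ribmp_fc_hπ0 hπ) (mgv_hπV hπ ιC hq hqM c')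
      (rtk6lfb_hne hπ ιC hq hqM hA c c' hcc')) 𝔫 s hs hgen

include hπ ιC hq hqM in
/-- **(I4) of `tresmono_frame` at the cusps of `X₀(M q)` over `K₀`** (`K₀ ⊇ ℚ̄^I` stable under
the decomposition group of `A`). -/
theorem tres5npc_hcusp_gen (hA : A.LiesOverPrime q) (hE : beta0Field A ≤ K₀)
    (hstab : ∀ τ : Qb ≃ₐ[ℚ] Qb, τ ∈ A.decompositionSubgroup ℚ → ∀ x ∈ K₀, τ x ∈ K₀)
    (h2 : q = 2 → 3 ∣ M) (h3 : q = 3 → 2 ∣ M)
    {L : Type*} [Field L] [Algebra ↥(modularFunctionFieldFullC ↥K₀ (M * q)) L]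
    [Algebra ↥K₀ L] [IsScalarTower ↥K₀ ↥(modularFunctionFieldFullC ↥K₀ (M * q)) L]
    (W : ValuationSubring L)
    (hWV : W.comap (algebraMap ↥(modularFunctionFieldFullC ↥K₀ (M * q)) L) =
      mgvV hπ ιC hq hqM true)
    {ι : Type*} [Fintype ι]
    (hsplit : ∀ 𝔫 : AtPt (F := ↥(modularFunctionFieldFullC ↥K₀ (M * q))) π
        (bgJ ↥K₀ (M * q))⁻¹,
      atThrough 𝔫 (mgvV hπ ιC hq hqM true) →
      (∀ b : ↥(zchClosure (A₀ := ↥(beta0Ring A K₀))
          ({(bgJ ↥K₀ (M * q))⁻¹} : Set ↥(modularFunctionFieldFullC ↥K₀ (M * q)))),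
        (b : ↥(modularFunctionFieldFullC ↥K₀ (M * q))) = (bgJ ↥K₀ (M * q))⁻¹ → b ∈ 𝔫.1) →
      ∀ [IsLocalRing ↥(atLoc 𝔫)],
        ∃ (z : L) (P : (↥(atLoc 𝔫))[X]) (c : ι → ↥(atLoc 𝔫)),
          Tres5eSplit ↥(modularFunctionFieldFullC ↥K₀ (M * q)) z P c)
    {p : ℕ} {u : L} (hu0 : u ≠ 0)
    (hhor : ∀ Pl : Place ↥K₀ L, (p : ℤ) ∣ Pl.ord u)
    (m : ℤ)
    (hm : W.valuation (u / algebraMap ↥(modularFunctionFieldFullC ↥K₀ (M * q)) L
      (algebraMap ↥(beta0Ring A K₀) ↥(modularFunctionFieldFullC ↥K₀ (M * q)) π) ^ m) = 1) :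
    ∀ 𝔫 : AtPt (F := ↥(modularFunctionFieldFullC ↥K₀ (M * q))) π (bgJ ↥K₀ (M * q))⁻¹,
      ∀ T : ValuationSubring L,
      (∀ x ∈ atLoc 𝔫, algebraMap ↥(modularFunctionFieldFullC ↥K₀ (M * q)) L x ∈ T) →
      (∀ x ∈ T, x ∈ W) →
      (∀ b : ↥(zchClosure (A₀ := ↥(beta0Ring A K₀))
          ({(bgJ ↥K₀ (M * q))⁻¹} : Set ↥(modularFunctionFieldFullC ↥K₀ (M * q)))),
        (b : ↥(modularFunctionFieldFullC ↥K₀ (M * q))) = (bgJ ↥K₀ (M * q))⁻¹ → b ∈ 𝔫.1) →
      ∃ O' : Subring L, (∀ x ∈ O', x ∈ T) ∧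
        StbFacAt O' p
          (u / algebraMap ↥(modularFunctionFieldFullC ↥K₀ (M * q)) L
            (algebraMap ↥(beta0Ring A K₀) ↥(modularFunctionFieldFullC ↥K₀ (M * q)) π) ^ m) := by
  intro 𝔫 T hRT hTW hcu
  haveI := 𝔫.2.1.isPrime
  haveI := ribmp_fcu_noeth (A := A) (K₀ := K₀) (q := q) (M := M)
  haveI := ribmp_fc_fin_inv (K₀ := K₀) (M * q)
  haveI : IsLocalRing ↥(atLoc 𝔫) :=
    ls_localSubring_isLocalRing (F := ↥(modularFunctionFieldFullC ↥K₀ (M * q)))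
      Subtype.val_injective 𝔫.1
  have hSS1i := ribmp_fc_hSS1_inv hπ ιC hq hqM hA hE h2 h3
  have hthr : atThrough 𝔫 (mgvV hπ ιC hq hqM true) :=
    tres5npj_through 𝔫 W T _ hWV hRT hTW
  obtain ⟨z, P, c, H⟩ := hsplit 𝔫 hthr hcu
  obtain ⟨s, hs, hgen⟩ := tres5npc_smooth hπ hq hqM hA hE hstab h2 h3 𝔫 hcu
  obtain ⟨c₀, hc₀, hone⟩ := tres5npc_unique hπ ιC hq hqM hA hE h2 h3 𝔫 hs hgen
  have hc₀t : c₀ = true := (hone true hthr).symm
  subst hc₀t
  exact tres5np_cusp (E := ↥K₀) hπ (mgvV hπ ιC hq hqM)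
    (mgv_hBV₂ hπ ιC hq hqM) (mgv_hπV hπ ιC hq hqM) hSS1i (ribmp_fc_hU hπ ιC hq hqM) 𝔫 true
    hthr hone hs hgen H W hWV hu0 (fun Pl _ => hhor Pl) m hm T hRT hTW

end Gen

section Base

variable {A : ValuationSubring Qb} {q M : ℕ} [NeZero q] [NeZero M] [NeZero (M * q)]
  [IsDiscreteValuationRing ↥(beta0Ring A (beta0Field A))]
  {π : ↥(beta0Ring A (beta0Field A))} (hπ : Irreducible π)
  (ιC : ↥(beta0Field A) →+* ℂ) (hq : q.Prime) (hqM : ¬ q ∣ M)

include hπ ιC hq hqM in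
/-- **(I4) of `tresmono_frame` at the cusps of `X₀(M q)` over `ℚ̄^I`** (frame K): the
conclusion is the hypothesis `hcusp` of `tresmono_frame` with `y = u / π ^ m`. -/
theorem tres5npc_hcusp (hA : A.LiesOverPrime q)
    (h2 : q = 2 → 3 ∣ M) (h3 : q = 3 → 2 ∣ M)
    {L : Type*} [Field L] [Algebra ↥(modularFunctionFieldFullC ↥(beta0Field A) (M * q)) L]
    [Algebra ↥(beta0Field A) L]
    [IsScalarTower ↥(beta0Field A) ↥(modularFunctionFieldFullC ↥(beta0Field A) (M * q)) L]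
    (W : ValuationSubring L)
    (hWV : W.comap (algebraMap ↥(modularFunctionFieldFullC ↥(beta0Field A) (M * q)) L) =
      mgvV hπ ιC hq hqM true)
    {ι : Type*} [Fintype ι]
    (hsplit : ∀ 𝔫 : AtPt (F := ↥(modularFunctionFieldFullC ↥(beta0Field A) (M * q))) π
        (bgJ ↥(beta0Field A) (M * q))⁻¹,
      atThrough 𝔫 (mgvV hπ ιC hq hqM true) →
      (∀ b : ↥(zchClosure (A₀ := ↥(beta0Ring A (beta0Field A)))
          ({(bgJ ↥(beta0Field A) (M * q))⁻¹} :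
            Set ↥(modularFunctionFieldFullC ↥(beta0Field A) (M * q)))),
        (b : ↥(modularFunctionFieldFullC ↥(beta0Field A) (M * q))) =
          (bgJ ↥(beta0Field A) (M * q))⁻¹ → b ∈ 𝔫.1) →
      ∀ [IsLocalRing ↥(atLoc 𝔫)],
        ∃ (z : L) (P : (↥(atLoc 𝔫))[X]) (c : ι → ↥(atLoc 𝔫)),
          Tres5eSplit ↥(modularFunctionFieldFullC ↥(beta0Field A) (M * q)) z P c)
    {p : ℕ} {u : L} (hu0 : u ≠ 0)
    (hhor : ∀ Pl : Place ↥(beta0Field A) L, (p : ℤ) ∣ Pl.ord u)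
    (m : ℤ)
    (hm : W.valuation (u / algebraMap ↥(modularFunctionFieldFullC ↥(beta0Field A) (M * q)) L
      (algebraMap ↥(beta0Ring A (beta0Field A))
        ↥(modularFunctionFieldFullC ↥(beta0Field A) (M * q)) π) ^ m) = 1) :
    ∀ 𝔫 : AtPt (F := ↥(modularFunctionFieldFullC ↥(beta0Field A) (M * q))) π
        (bgJ ↥(beta0Field A) (M * q))⁻¹,
      ∀ T : ValuationSubring L,
      (∀ x ∈ atLoc 𝔫,
        algebraMap ↥(modularFunctionFieldFullC ↥(beta0Field A) (M * q)) L x ∈ T) →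
      (∀ x ∈ T, x ∈ W) →
      (∀ b : ↥(zchClosure (A₀ := ↥(beta0Ring A (beta0Field A)))
          ({(bgJ ↥(beta0Field A) (M * q))⁻¹} :
            Set ↥(modularFunctionFieldFullC ↥(beta0Field A) (M * q)))),
        (b : ↥(modularFunctionFieldFullC ↥(beta0Field A) (M * q))) =
          (bgJ ↥(beta0Field A) (M * q))⁻¹ → b ∈ 𝔫.1) →
      ∃ O' : Subring L, (∀ x ∈ O', x ∈ T) ∧
        StbFacAt O' p
          (u / algebraMap ↥(modularFunctionFieldFullC ↥(beta0Field A) (M * q)) L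
            (algebraMap ↥(beta0Ring A (beta0Field A))
              ↥(modularFunctionFieldFullC ↥(beta0Field A) (M * q)) π) ^ m) :=
  tres5npc_hcusp_gen hπ ιC hq hqM hA le_rfl (fun τ hτ => stb_stable_beta0 hτ) h2 h3 W hWV
    hsplit hu0 hhor m hm

include hπ ιC hq hqM in
/-- **(I4) at the cusps, rigid level** (the hypotheses of `tres5npj_hfin`). -/
theorem tres5npc_hcusp_rigid (hA : A.LiesOverPrime q)
    (rigid : (q ≠ 2 → 4 ∣ M) ∧ (q = 2 → 9 ∣ M))
    {L : Type*} [Field L] [Algebra ↥(modularFunctionFieldFullC ↥(beta0Field A) (M * q)) L]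
    [Algebra ↥(beta0Field A) L]
    [IsScalarTower ↥(beta0Field A) ↥(modularFunctionFieldFullC ↥(beta0Field A) (M * q)) L]
    (W : ValuationSubring L)
    (hWV : W.comap (algebraMap ↥(modularFunctionFieldFullC ↥(beta0Field A) (M * q)) L) =
      mgvV hπ ιC hq hqM true)
    {ι : Type*} [Fintype ι]
    (hsplit : ∀ 𝔫 : AtPt (F := ↥(modularFunctionFieldFullC ↥(beta0Field A) (M * q))) π
        (bgJ ↥(beta0Field A) (M * q))⁻¹,
      atThrough 𝔫 (mgvV hπ ιC hq hqM true) →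
      (∀ b : ↥(zchClosure (A₀ := ↥(beta0Ring A (beta0Field A)))
          ({(bgJ ↥(beta0Field A) (M * q))⁻¹} :
            Set ↥(modularFunctionFieldFullC ↥(beta0Field A) (M * q)))),
        (b : ↥(modularFunctionFieldFullC ↥(beta0Field A) (M * q))) =
          (bgJ ↥(beta0Field A) (M * q))⁻¹ → b ∈ 𝔫.1) →
      ∀ [IsLocalRing ↥(atLoc 𝔫)],
        ∃ (z : L) (P : (↥(atLoc 𝔫))[X]) (c : ι → ↥(atLoc 𝔫)),
          Tres5eSplit ↥(modularFunctionFieldFullC ↥(beta0Field A) (M * q)) z P c)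
    {p : ℕ} {u : L} (hu0 : u ≠ 0)
    (hhor : ∀ Pl : Place ↥(beta0Field A) L, (p : ℤ) ∣ Pl.ord u)
    (m : ℤ)
    (hm : W.valuation (u / algebraMap ↥(modularFunctionFieldFullC ↥(beta0Field A) (M * q)) L
      (algebraMap ↥(beta0Ring A (beta0Field A))
        ↥(modularFunctionFieldFullC ↥(beta0Field A) (M * q)) π) ^ m) = 1) :
    ∀ 𝔫 : AtPt (F := ↥(modularFunctionFieldFullC ↥(beta0Field A) (M * q))) π
        (bgJ ↥(beta0Field A) (M * q))⁻¹,
      ∀ T : ValuationSubring L,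
      (∀ x ∈ atLoc 𝔫,
        algebraMap ↥(modularFunctionFieldFullC ↥(beta0Field A) (M * q)) L x ∈ T) →
      (∀ x ∈ T, x ∈ W) →
      (∀ b : ↥(zchClosure (A₀ := ↥(beta0Ring A (beta0Field A)))
          ({(bgJ ↥(beta0Field A) (M * q))⁻¹} :
            Set ↥(modularFunctionFieldFullC ↥(beta0Field A) (M * q)))),
        (b : ↥(modularFunctionFieldFullC ↥(beta0Field A) (M * q))) =
          (bgJ ↥(beta0Field A) (M * q))⁻¹ → b ∈ 𝔫.1) →
      ∃ O' : Subring L, (∀ x ∈ O', x ∈ T) ∧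
        StbFacAt O' p
          (u / algebraMap ↥(modularFunctionFieldFullC ↥(beta0Field A) (M * q)) L
            (algebraMap ↥(beta0Ring A (beta0Field A))
              ↥(modularFunctionFieldFullC ↥(beta0Field A) (M * q)) π) ^ m) :=
  tres5npc_hcusp hπ ιC hq hqM hA (rtk6lfb_rigid_h2 rigid) (rtk6lfb_rigid_h3 rigid) W hWV
    hsplit hu0 hhor m hm

end Base

end Fermat.Agent.R38

end


end ZBR38_014_2
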