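/- GENERATED FILE (helper35, build-time optimisation, NOTES/ZB.md): verbatim concatenation of the modules
   Fermat.Agent.R38.TresCoverKum
   Fermat.Agent.R38.TresBigKum
   Fermat.Agent.R38.TresMonoZeroInst
   Fermat.Agent.R38.TresMonoTop
   Do not edit; do not import together with these modules. -/
import Fermat.Agent.ZB.R38_009
import Fermat.Agent.ZB.UNIP_014
import Fermat.Agent.ZB.R38_014
import Fermat.Agent.ZB.R38_012

/-! ### bundled: `Fermat.Agent.R38.TresCoverKum` -/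
section ZBR38_015_0
/-
ROW 38, TRES, piece FAC-COV [T5 (b)] (helper78), part 4: THE SPLIT KUMMER COVER as an instance of
`Tres5Gen` (`R38/TresCover.lean`).  Pure algebra (Mathlib only).

Setting (`Tres5Kum F L V p`): `F ⊆ L` fields, `p` a prime, `ζ ∈ F` a primitive `p`-th root of
unity, `lam := ζ − 1`, `w ∈ F`, `y ∈ L` with `y ^ p = w`, `L = F(y)`, `w` not a `p`-th power in
`F`;  `V` a DISCRETE valuation subring of `F` with uniformizer `π`, at which `w` is SPLIT: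
`g ≠ 0`, `V.valuation (w / g ^ p − 1) ≤ V.valuation (lam ^ p * π)`   (shape (H1) of
`S33.StmtWildFieldAt`).

`tres5T g ζ y k := (y / g − ζ ^ k) / lam ∈ L`;  `∏_{k < p} tres5T k = (w / g ^ p − 1) / lam ^ p
∈ π V`, and `tres5T j − tres5T k = (ζ ^ k − ζ ^ j) / lam ∈ V^×` for `j ≢ k mod p`.

* `Tres5Kum.gen : Tres5Gen F L V p` with `z = tres5T 0 = (y / g − 1) / lam`,
  `c k = (ζ ^ k − 1) / (ζ − 1)`, `R = − (w / g ^ p − 1) / (lam ^ p π)`;
* `Tres5Kum.W k := gen.W (k % p)` (`k : ℕ`), with `W_t_mem : tres5T k ∈ 𝔪(W k)`,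
  `W_comap`, `W_unif`, `W_residue`, `W_dense`, `W_unique`, `W_add : W (k + p) = W k`,
  `W_eq_iff`;
* `Tres5Kum.W_deck` : for `ρ : L →ₐ[F] L` with `ρ y = ζ ^ j · y`:  `(W k).comap ρ = W (k + j)`;
* `Tres5Kum.deck_congr` : `ρ y = ζ ^ j y`, `ρ u = a u h ^ p`, `p ∣ ord_V a` ⇒
  `ord_{W (k + j)} u ≡ ord_{W k} u mod p`;  `Tres5Kum.ord_congr` : if moreover `p ∤ j`, all the
  orders `ord_{W k} u` are congruent modulo `p`.
-/

set_option autoImplicit false
set_option linter.style.haveILetI false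

namespace Fermat.Agent.R38

open Polynomial

/-! ### Roots of unity in a valuation subring -/

section Roots

variable {F : Type*} [Field F] (V : ValuationSubring F) {p : ℕ} {ζ : F}

theorem tres5_val_eq_one_of_mul {x y : F} (hx : x ∈ V) (hy : y ∈ V) (h : x * y = 1) :
    V.valuation x = 1 := by
  have h1 : V.valuation x ≤ 1 := (V.valuation_le_one_iff x).2 hx
  have h2 : V.valuation y ≤ 1 := (V.valuation_le_one_iff y).2 hy
  have h3 : V.valuation x * V.valuation y = 1 := by rw [← map_mul, h, map_one]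
  rcases lt_or_eq_of_le h1 with h4 | h4
  · exfalso
    have h5 : V.valuation x * V.valuation y < 1 := by
      calc V.valuation x * V.valuation y ≤ V.valuation x * 1 := by gcongr
        _ = V.valuation x := mul_one _
        _ < 1 := h4
    rw [h3] at h5
    exact lt_irrefl _ h5
  · exact h4

theorem tres5_zeta_val (hp : p ≠ 0) (hζ : ζ ^ p = 1) : V.valuation ζ = 1 := by
  have h : V.valuation ζ ^ p = 1 := by rw [← map_pow, hζ, map_one]
  exact (pow_eq_one_iff_of_nonneg zero_le hp).mp h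

theorem tres5_zeta_mem (hp : p ≠ 0) (hζ : ζ ^ p = 1) : ζ ∈ V := by
  rw [← V.valuation_le_one_iff, tres5_zeta_val V hp hζ]

theorem tres5_zeta_pow_val (hp : p ≠ 0) (hζ : ζ ^ p = 1) (k : ℕ) : V.valuation (ζ ^ k) = 1 := by
  rw [map_pow, tres5_zeta_val V hp hζ, one_pow]

theorem tres5_geom_mem (hp : p ≠ 0) (hζ : ζ ^ p = 1) (a m : ℕ) :
    ∑ i ∈ Finset.range m, (ζ ^ a) ^ i ∈ V := by
  refine V.toSubring.sum_mem fun i _ => ?_
  exact V.pow_mem (V.pow_mem (tres5_zeta_mem V hp hζ) a) i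

/-- `(ζ ^ m − 1) / (ζ − 1)` is a unit of `V` for `p ∤ m`. -/
theorem tres5_cyc_unit (hp : p.Prime) (hζ : IsPrimitiveRoot ζ p) {m : ℕ} (hm : ¬ p ∣ m) :
    V.valuation ((ζ ^ m - 1) / (ζ - 1)) = 1 := by
  have hp0 : p ≠ 0 := hp.ne_zero
  have hζ1 : ζ ≠ 1 := hζ.ne_one hp.one_lt
  have hζm : ζ ^ m ≠ 1 := fun h => hm ((hζ.pow_eq_one_iff_dvd m).1 h)
  have hcop : Nat.Coprime m p := (Nat.Coprime.symm ((Nat.Prime.coprime_iff_not_dvd hp).2 hm))
  -- `b` with `m * b ≡ 1 mod p`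
  obtain ⟨b, -, hb⟩ := Nat.exists_mul_mod_eq_one_of_coprime hcop hp.one_lt
  have hpow : (ζ ^ m) ^ b = ζ := by
    rw [← pow_mul, pow_eq_pow_mod (m * b) hζ.pow_eq_one, hb, pow_one]
  have e1 : (ζ ^ m - 1) / (ζ - 1) = ∑ i ∈ Finset.range m, ζ ^ i := (geom_sum_eq hζ1 m).symm
  have e2 : (ζ - 1) / (ζ ^ m - 1) = ∑ i ∈ Finset.range b, (ζ ^ m) ^ i := by
    rw [geom_sum_eq hζm b, hpow]
  refine tres5_val_eq_one_of_mul V (y := (ζ - 1) / (ζ ^ m - 1)) ?_ ?_ ?_
  · rw [e1]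
    have := tres5_geom_mem V hp0 hζ.pow_eq_one 1 m
    simpa using this
  · rw [e2]
    exact tres5_geom_mem V hp0 hζ.pow_eq_one m b
  · have h1 : ζ - 1 ≠ 0 := sub_ne_zero.2 hζ1
    have h2 : ζ ^ m - 1 ≠ 0 := sub_ne_zero.2 hζm
    field_simp

/-- `(ζ ^ j − ζ ^ k) / (ζ − 1) ∈ V`. -/
theorem tres5_d_mem (hp : p.Prime) (hζ : IsPrimitiveRoot ζ p) (j k : ℕ) :
    (ζ ^ j - ζ ^ k) / (ζ - 1) ∈ V := by
  have hp0 : p ≠ 0 := hp.ne_zero
  have hζ1 : ζ ≠ 1 := hζ.ne_one hp.one_lt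
  have key : ∀ a m : ℕ, (ζ ^ (a + m) - ζ ^ a) / (ζ - 1) ∈ V := by
    intro a m
    have e : (ζ ^ (a + m) - ζ ^ a) / (ζ - 1) = ζ ^ a * ∑ i ∈ Finset.range m, ζ ^ i := by
      rw [geom_sum_eq hζ1 m, pow_add]
      ring
    rw [e]
    have := tres5_geom_mem V hp0 hζ.pow_eq_one 1 m
    simp only [pow_one] at this
    exact V.mul_mem _ _ (V.pow_mem (tres5_zeta_mem V hp0 hζ.pow_eq_one) a) this
  rcases le_total k j with h | h
  · obtain ⟨m, rfl⟩ := Nat.exists_eq_add_of_le h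
    exact key k m
  · obtain ⟨m, rfl⟩ := Nat.exists_eq_add_of_le h
    have e : (ζ ^ j - ζ ^ (j + m)) / (ζ - 1) = -((ζ ^ (j + m) - ζ ^ j) / (ζ - 1)) := by ring
    rw [e]
    exact V.neg_mem _ (key j m)

/-- `(ζ ^ j − ζ ^ k) / (ζ − 1)` is a unit of `V` for `j ≢ k mod p`. -/
theorem tres5_d_unit (hp : p.Prime) (hζ : IsPrimitiveRoot ζ p) {j k : ℕ}
    (hjk : ¬ j ≡ k [MOD p]) : V.valuation ((ζ ^ j - ζ ^ k) / (ζ - 1)) = 1 := by
  have hp0 : p ≠ 0 := hp.ne_zero
  have key : ∀ a m : ℕ, ¬ p ∣ m → V.valuation ((ζ ^ (a + m) - ζ ^ a) / (ζ - 1)) = 1 := by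
    intro a m hm
    have e : (ζ ^ (a + m) - ζ ^ a) / (ζ - 1) = ζ ^ a * ((ζ ^ m - 1) / (ζ - 1)) := by
      rw [pow_add]
      ring
    rw [e, map_mul, tres5_zeta_pow_val V hp0 hζ.pow_eq_one, one_mul,
      tres5_cyc_unit V hp hζ hm]
  rcases le_total k j with h | h
  · obtain ⟨m, rfl⟩ := Nat.exists_eq_add_of_le h
    refine key k m fun hm => hjk ?_
    exact ((Nat.modEq_iff_dvd' (Nat.le_add_right k m)).2 (by simpa using hm)).symm
  · obtain ⟨m, rfl⟩ := Nat.exists_eq_add_of_le h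
    have e : (ζ ^ j - ζ ^ (j + m)) / (ζ - 1) = -((ζ ^ (j + m) - ζ ^ j) / (ζ - 1)) := by ring
    rw [e, Valuation.map_neg]
    refine key j m fun hm => hjk ?_
    exact (Nat.modEq_iff_dvd' (Nat.le_add_right j m)).2 (by simpa using hm)

end Roots

/-! ### The functions `t_k` -/

section T

variable {F L : Type*} [Field F] [Field L] [Algebra F L]

/-- `t_k = (y / g − ζ ^ k) / (ζ − 1)` -/
noncomputable def tres5T (g ζ : F) (y : L) (k : ℕ) : L :=
  (y / algebraMap F L g - algebraMap F L (ζ ^ k)) / algebraMap F L (ζ - 1)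

theorem tres5T_eq_sub (g : F) {ζ : F} (hζ1 : ζ ≠ 1) (y : L) (j k : ℕ) :
    tres5T g ζ y j = tres5T g ζ y k - algebraMap F L ((ζ ^ j - ζ ^ k) / (ζ - 1)) := by
  have h1 : algebraMap F L (ζ - 1) ≠ 0 := (_root_.map_ne_zero _).2 (sub_ne_zero.2 hζ1)
  unfold tres5T
  rw [map_div₀, map_sub (algebraMap F L) (ζ ^ j) (ζ ^ k)]
  field_simp
  ring

theorem tres5T_mod {p : ℕ} (g : F) {ζ : F} (hζ : ζ ^ p = 1) (y : L) (k : ℕ) :
    tres5T g ζ y (k % p) = tres5T g ζ y k := by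
  unfold tres5T
  rw [← pow_eq_pow_mod k hζ]

theorem tres5T_prod {p : ℕ} (hp : 0 < p) {g ζ w : F} (hζ : IsPrimitiveRoot ζ p)
    {y : L} (hy : y ^ p = algebraMap F L w) :
    ∏ k ∈ Finset.range p, tres5T g ζ y k =
      algebraMap F L ((w / g ^ p - 1) / (ζ - 1) ^ p) := by
  have hinj : Function.Injective (algebraMap F L) := (algebraMap F L).injective
  have hζL : IsPrimitiveRoot (algebraMap F L ζ) p := hζ.map_of_injective hinj
  have h1 := X_pow_sub_C_eq_prod hζL hp (one_pow p : (1 : L) ^ p = 1)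
  have h2 := congrArg (Polynomial.eval (y / algebraMap F L g)) h1
  simp only [eval_sub, eval_pow, eval_X, eval_C, eval_prod, mul_one] at h2
  unfold tres5T
  rw [Finset.prod_div_distrib, Finset.prod_const, Finset.card_range]
  have h3 : ∏ k ∈ Finset.range p, (y / algebraMap F L g - algebraMap F L (ζ ^ k)) =
      (y / algebraMap F L g) ^ p - 1 := by
    rw [h2]
    refine Finset.prod_congr rfl fun k _ => ?_
    rw [map_pow]
  rw [h3, div_pow, hy]
  simp only [map_div₀, map_sub, map_pow, map_one]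

/-- the deck transformation on `t` -/
theorem tres5T_deck (g ζ : F) (y : L) (ρ : L →ₐ[F] L) (j : ℕ)
    (hρ : ρ y = algebraMap F L (ζ ^ j) * y) (k : ℕ) :
    ρ (tres5T g ζ y (k + j)) = algebraMap F L (ζ ^ j) * tres5T g ζ y k := by
  unfold tres5T
  rw [map_div₀, map_sub, map_div₀, hρ, AlgHom.commutes, AlgHom.commutes, AlgHom.commutes,
    pow_add, map_mul]
  ring

end T

/-! ### The data -/

/-- A Kummer extension `L = F(w^{1/p})` which is split at the discrete valuation subring `V`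
of `F`. -/
structure Tres5Kum (F L : Type*) [Field F] [Field L] [Algebra F L] (V : ValuationSubring F)
    (p : ℕ) where
  hp : p.Prime
  /-- a primitive `p`-th root of unity -/
  ζ : F
  hζ : IsPrimitiveRoot ζ p
  /-- a uniformizer of `V` -/
  π : F
  hπ : π ∈ V.nonunits
  hπ0 : π ≠ 0
  hunif : ∀ x : F, x ≠ 0 → ∃ n : ℤ, V.valuation (x / π ^ n) = 1
  /-- the Kummer element -/
  w : F
  /-- a `p`-th root of `w` modulo `(ζ - 1) ^ p * π` -/
  g : F
  hg : g ≠ 0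
  hsplit : V.valuation (w / g ^ p - 1) ≤ V.valuation ((ζ - 1) ^ p * π)
  /-- the Kummer generator -/
  y : L
  hy : y ^ p = algebraMap F L w
  htop : IntermediateField.adjoin F {y} = ⊤
  hw : ∀ c : F, c ^ p ≠ w

namespace Tres5Kum

variable {F L : Type*} [Field F] [Field L] [Algebra F L] {V : ValuationSubring F} {p : ℕ}
  (S : Tres5Kum F L V p)

include S in
theorem hp0 : p ≠ 0 := S.hp.ne_zero

theorem hζ1 : S.ζ ≠ 1 := S.hζ.ne_one S.hp.one_lt

theorem lam_ne_zero : S.ζ - 1 ≠ 0 := sub_ne_zero.2 S.hζ1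

theorem π_mem : S.π ∈ V := by
  rw [← V.valuation_le_one_iff]
  exact le_of_lt ((V.mem_nonunits_iff).1 S.hπ)

/-- the constant `c = (w / g ^ p − 1) / (ζ − 1) ^ p` -/
noncomputable def cst : F := (S.w / S.g ^ p - 1) / (S.ζ - 1) ^ p

/-- `c / π ∈ V` -/
theorem cst_div_mem : S.cst / S.π ∈ V := by
  rw [← V.valuation_le_one_iff]
  have h := S.hsplit
  have e : S.cst / S.π = (S.w / S.g ^ p - 1) / ((S.ζ - 1) ^ p * S.π) := by
    unfold cst
    rw [div_div]
  rw [e, map_div₀]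
  exact div_le_one_of_le₀ h zero_le

/-- the functions `t_k` -/
noncomputable def t (k : ℕ) : L := tres5T S.g S.ζ S.y k

theorem t_prod : ∏ k ∈ Finset.range p, S.t k = algebraMap F L S.cst :=
  tres5T_prod S.hp.pos S.hζ S.hy

theorem t_mod (k : ℕ) : S.t (k % p) = S.t k := tres5T_mod S.g S.hζ.pow_eq_one S.y k

/-- the differences `d j k = (ζ ^ j − ζ ^ k) / (ζ − 1)`, as elements of `V` -/
noncomputable def d (j k : ℕ) : ↥V :=
  ⟨(S.ζ ^ j - S.ζ ^ k) / (S.ζ - 1), tres5_d_mem V S.hp S.hζ j k⟩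

theorem d_mod (k : ℕ) : S.d (k % p) 0 = S.d k 0 := by
  apply Subtype.ext
  simp [d, ← pow_eq_pow_mod k S.hζ.pow_eq_one]

theorem t_eq_sub (j k : ℕ) : S.t j = S.t k - tres5Iota V L (S.d j k) :=
  tres5T_eq_sub S.g S.hζ1 S.y j k

/-! ### The degree of `L / F` -/

theorem isIntegral_y : IsIntegral F S.y :=
  ⟨X ^ p - C S.w, monic_X_pow_sub_C _ S.hp0, by simp [S.hy]⟩

theorem minpoly_y : minpoly F S.y = X ^ p - C S.w :=
  (minpoly.eq_of_irreducible_of_monic (X_pow_sub_C_irreducible_of_prime S.hp S.hw)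
    (by simp [S.hy]) (monic_X_pow_sub_C _ S.hp0)).symm

include S in
theorem finiteDimensional : FiniteDimensional F L := by
  haveI : FiniteDimensional F ↥(IntermediateField.adjoin F {S.y}) :=
    IntermediateField.adjoin.finiteDimensional S.isIntegral_y
  have e : ↥(IntermediateField.adjoin F {S.y}) ≃ₗ[F] L := by
    rw [S.htop]
    exact (IntermediateField.topEquiv (F := F) (E := L)).toLinearEquiv
  exact Module.Finite.equiv e

include S in
theorem finrank_eq : Module.finrank F L = p := by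
  haveI := S.finiteDimensional
  rw [← (Field.primitive_element_iff_minpoly_natDegree_eq F S.y).1 S.htop, S.minpoly_y,
    natDegree_X_pow_sub_C]

theorem y_eq (k : ℕ) :
    S.y = algebraMap F L S.g * (algebraMap F L (S.ζ - 1) * S.t k + algebraMap F L (S.ζ ^ k)) := by
  have h1 : algebraMap F L (S.ζ - 1) ≠ 0 := (_root_.map_ne_zero _).2 S.lam_ne_zero
  have h2 : algebraMap F L S.g ≠ 0 := (_root_.map_ne_zero _).2 S.hg
  unfold t tres5T
  field_simp
  ring

theorem adjoin_t (k : ℕ) : IntermediateField.adjoin F {S.t k} = ⊤ := by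
  rw [eq_top_iff, ← S.htop, IntermediateField.adjoin_simple_le_iff]
  rw [S.y_eq k]
  have ht : S.t k ∈ IntermediateField.adjoin F {S.t k} :=
    IntermediateField.mem_adjoin_simple_self F _
  exact mul_mem (IntermediateField.algebraMap_mem _ _)
    (add_mem (mul_mem (IntermediateField.algebraMap_mem _ _) ht)
      (IntermediateField.algebraMap_mem _ _))

theorem residue_d_ne_zero {j k : ℕ} (hjk : ¬ j ≡ k [MOD p]) :
    IsLocalRing.residue ↥V (S.d j 0 - S.d k 0) ≠ 0 := by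
  rw [Ne, IsLocalRing.residue_eq_zero_iff, V.valuation_lt_one_iff]
  have e : ((S.d j 0 - S.d k 0 : ↥V) : F) = (S.ζ ^ j - S.ζ ^ k) / (S.ζ - 1) := by
    change (S.ζ ^ j - S.ζ ^ 0) / (S.ζ - 1) - (S.ζ ^ k - S.ζ ^ 0) / (S.ζ - 1) = _
    ring
  rw [e, tres5_d_unit V S.hp S.hζ hjk]
  exact lt_irrefl _

/-! ### The instance -/

/-- **The split Kummer cover is a split monogenic extension.** -/
noncomputable def gen : Tres5Gen F L V p where
  hn := S.hp0
  hfin := S.finrank_eq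
  π := S.π
  hπ := S.hπ
  hπ0 := S.hπ0
  hunif := S.hunif
  z := S.t 0
  htop := S.adjoin_t 0
  c := fun k => S.d k 0
  hc := by
    intro i hi j hj hij
    refine S.residue_d_ne_zero fun h => hij ?_
    have h1 : i % p = j % p := h
    rwa [Nat.mod_eq_of_lt hi, Nat.mod_eq_of_lt hj] at h1
  R := -C ⟨S.cst / S.π, S.cst_div_mem⟩
  hR := by
    rw [degree_neg]
    exact lt_of_le_of_lt degree_C_le (by exact_mod_cast S.hp.pos)
  hz := by
    rw [eval₂_add, eval₂_finsetProd, eval₂_mul, eval₂_C, eval₂_neg, eval₂_C]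
    have h1 : ∀ i ∈ Finset.range p,
        eval₂ (tres5Iota V L) (S.t 0) (X - C (S.d i 0)) = S.t i := by
      intro i _
      rw [eval₂_sub, eval₂_X, eval₂_C, ← S.t_eq_sub]
    rw [Finset.prod_congr rfl h1, S.t_prod]
    change algebraMap F L S.cst + algebraMap F L S.π * -algebraMap F L (S.cst / S.π) = 0
    rw [mul_neg, ← map_mul, mul_div_cancel₀ _ S.hπ0, add_neg_cancel]

theorem gen_z : S.gen.z = S.t 0 := rfl

theorem gen_π : S.gen.π = S.π := rfl

theorem gen_c (k : ℕ) : S.gen.c k = S.d k 0 := rfl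

/-- **The valuation subrings of `L` over `V`**, indexed by `k : ℕ` (`p`-periodic). -/
noncomputable def W (k : ℕ) : ValuationSubring L := S.gen.W (k % p)

theorem W_def (k : ℕ) : S.W k = S.gen.W (k % p) := rfl

include S in
theorem mod_lt (k : ℕ) : k % p < p := Nat.mod_lt k S.hp.pos

theorem W_add (k : ℕ) : S.W (k + p) = S.W k := by
  rw [W_def, W_def, Nat.add_mod_right]

theorem W_mod (k : ℕ) : S.W (k % p) = S.W k := by
  rw [W_def, W_def, Nat.mod_mod]

theorem W_comap (k : ℕ) : (S.W k).comap (algebraMap F L) = V :=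
  S.gen.W_comap (S.mod_lt k)

/-- `t_k ∈ 𝔪(W k)` -/
theorem W_t_mem (k : ℕ) : S.t k ∈ (S.W k).nonunits := by
  have h := S.gen.W_z_mem (S.mod_lt k)
  rw [gen_z, gen_c, ← S.t_eq_sub, S.t_mod] at h
  exact h

/-- `t_j` is a unit of `W k` for `j ≢ k mod p` -/
theorem W_t_unit {j k : ℕ} (hjk : ¬ j ≡ k [MOD p]) : (S.W k).valuation (S.t j) = 1 := by
  have h := S.gen.W_z_unit (S.mod_lt j) (S.mod_lt k) hjk
  rw [gen_z, gen_c, ← S.t_eq_sub, S.t_mod] at h
  exact h

theorem W_eq_iff {j k : ℕ} : S.W j = S.W k ↔ j ≡ k [MOD p] := by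
  constructor
  · intro h
    by_contra hjk
    have h1 := S.W_t_mem j
    rw [h, ValuationSubring.mem_nonunits_iff, S.W_t_unit hjk] at h1
    exact lt_irrefl _ h1
  · intro h
    have h1 : j % p = k % p := h
    rw [W_def, W_def, h1]

theorem W_unif (k : ℕ) {f : L} (hf : f ≠ 0) :
    ∃ m : ℤ, (S.W k).valuation (f / algebraMap F L S.π ^ m) = 1 :=
  S.gen.W_unif (S.mod_lt k) hf

theorem W_residue (k : ℕ) {f : L} (hf : f ∈ S.W k) :
    ∃ a : ↥V, f - tres5Iota V L a ∈ (S.W k).nonunits :=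
  S.gen.W_residue (S.mod_lt k) hf

theorem W_dense (k : ℕ) {f : L} (hf : f ∈ S.W k) (m : ℕ) :
    ∃ a : ↥V, (f - tres5Iota V L a) / algebraMap F L S.π ^ m ∈ S.W k :=
  S.gen.W_dense (S.mod_lt k) hf m

theorem W_unique {W' : ValuationSubring L} (hW' : W'.comap (algebraMap F L) = V) :
    ∃ k < p, W' = S.W k := by
  obtain ⟨k, hk, h⟩ := S.gen.W_unique hW'
  exact ⟨k, hk, by rw [h, W_def, Nat.mod_eq_of_lt hk]⟩

/-- **The deck transformations**: if `ρ y = ζ ^ j y` then `ρ⁻¹ (W k) = W (k + j)`. -/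
theorem W_deck (ρ : L →ₐ[F] L) (j : ℕ) (hρ : ρ S.y = algebraMap F L (S.ζ ^ j) * S.y) (k : ℕ) :
    (S.W k).comap (ρ : L →+* L) = S.W (k + j) := by
  refine S.gen.W_deck ρ (S.mod_lt k) (S.mod_lt (k + j)) ?_
  -- `ρ (t 0) − d ((k + j) % p) 0 = ρ (t (k + j)) = ζ ^ j · t k`
  have h1 : ρ (S.t (k + j)) = algebraMap F L (S.ζ ^ j) * S.t k :=
    tres5T_deck S.g S.ζ S.y ρ j hρ k
  have h2 : ρ S.gen.z - tres5Iota V L (S.gen.c ((k + j) % p)) = ρ (S.t (k + j)) := by
    rw [gen_z, gen_c, S.d_mod, S.t_eq_sub (k + j) 0, map_sub, tres5Iota_apply,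
      AlgHom.commutes]
  rw [h2, h1]
  refine tres5_mul_mem_nonunits _ ?_ (S.W_t_mem k)
  have := S.gen.ι_mem_W (S.mod_lt k)
    ⟨S.ζ ^ j, V.pow_mem (tres5_zeta_mem V S.hp0 S.hζ.pow_eq_one) j⟩
  exact this

/-- the integer order at `W k` -/
noncomputable def ord (k : ℕ) (f : L) : ℤ := tres5Ord (S.W k) (algebraMap F L S.π) f

theorem ord_def (k : ℕ) (f : L) : S.ord k f = S.gen.ord (k % p) f := rfl

/-- **(DECK)** for the split Kummer cover. -/
theorem deck_congr (ρ : L →ₐ[F] L) (j : ℕ) (hρ : ρ S.y = algebraMap F L (S.ζ ^ j) * S.y)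
    (k : ℕ) {u h : L} {a : F} (hu : u ≠ 0) (ha : a ≠ 0) (hh : h ≠ 0)
    (hρu : ρ u = algebraMap F L a * u * h ^ p) (hpa : (p : ℤ) ∣ tres5Ord V S.π a) :
    (p : ℤ) ∣ S.ord (k + j) u - S.ord k u :=
  tres5_deck_congr (S.W_comap k) S.hπ S.hπ0 (fun _ hf => S.W_unif k hf) ρ
    (S.W_deck ρ j hρ k) p hu ha hh (S.hunif a ha) hρu hpa

/-- **(DECK)**, all sheets: if `ρ y = ζ y`, `ρ u = a u h ^ p` and `p ∣ ord_V a`, then all the
orders `ord_{W k} u` are congruent modulo `p`. -/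
theorem ord_congr (ρ : L →ₐ[F] L) (hρ : ρ S.y = algebraMap F L S.ζ * S.y)
    {u h : L} {a : F} (hu : u ≠ 0) (ha : a ≠ 0) (hh : h ≠ 0)
    (hρu : ρ u = algebraMap F L a * u * h ^ p) (hpa : (p : ℤ) ∣ tres5Ord V S.π a) (k : ℕ) :
    (p : ℤ) ∣ S.ord k u - S.ord 0 u := by
  induction k with
  | zero => simp
  | succ k ih =>
    have h1 := S.deck_congr ρ 1 (by rw [pow_one]; exact hρ) k hu ha hh hρu hpa
    have e : S.ord (k + 1) u - S.ord 0 u =
        (S.ord (k + 1) u - S.ord k u) + (S.ord k u - S.ord 0 u) := by ring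
    rw [e]
    exact dvd_add h1 ih

end Tres5Kum

end Fermat.Agent.R38


end ZBR38_015_0

/-! ### bundled: `Fermat.Agent.R38.TresBigKum` -/
section ZBR38_015_1
/-
ROW 38, TRES, piece FAC-BIG, packaging (P1) (helper17): THE SPLIT KUMMER DATUM `Tres5Kum` AT THE TWO
VERTICAL VALUATIONS `V_∞`, `V_0` of `F_{Mq}(K₀)`.

Setting of `UNIP/MGVertInertia.lean`: `A ⊂ ℚ̄` a valuation ring, `K₀ ⊂ ℚ̄` with `A ∩ K₀ = beta0Ring A K₀`
a discrete valuation ring with uniformizer `π`, `V = mgvV hπ ιC hq hqM` (`true ↦ V_∞`, `false ↦ V_0`).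
(`K₀ = mgcE A K₁` is the big field `E′` of `S33.wtop_field` / `R38.tres5b_bar`, `K₀ = beta0Field A` is `K`.)

* `tres5bk_vtSub_hunif`, `tres5bk_mgv_hunif` : `hunif` in `ℤ`-form,
  `∀ x ≠ 0, ∃ n : ℤ, (V c).valuation (x / π ^ n) = 1`  (Gauss decomposition `vt_exists_pow_mul`;
  no (SS1), no rigidity hypothesis).
* `tres5bk_hsplit_of_shape` : the shape `u₀ / g ^ p − 1 = (ζ − 1) ^ p · π · y`, `y ∈ V c` of
  `R38.tres5b_bar` / `tres5b_field_vert` gives `Tres5Kum.hsplit`.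
* `tres5bkKum` : **(P1)** `Tres5Kum F L (V c) p` for an abstract `L = F(Y)`, `Y ^ p = u₀`, `u₀` not a
  `p`-th power, from the shape at `V c` (the `g` of the shape is kept: `(tres5bkKum …).g = g`).
  Then `(tres5bkKum …).gen : Tres5Gen F L (V c) p`, `.W k`, `.W_deck`, `.ord_congr` (helper78).
* `tres5bk_exists_kum` : the same from the valuation form (H1) of `S33.StmtWildFieldAt`.
-/

set_option autoImplicit false
set_option linter.unusedSectionVars false
set_option linter.unusedVariables false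
set_option linter.style.haveILetI false

noncomputable section

namespace Fermat.Agent.R38

open ModularCurve Fermat.Agent.INJ Fermat.Agent.ES Fermat.Agent.ES.G2 Fermat.Agent.UNIP
  Fermat.Agent.S33

section Gen

variable {A₀ E k : Type*} [CommRing A₀] [Field E] [Field k]
  {ι : A₀ →+* E} {r : A₀ →+* k} {π : A₀} {F : Type*} [Field F]
  (hB : VtBase ι r π) (e : F →+* LaurentSeries E) (hfrac : ∀ x : F, VtFrac ι (e x))

/-- **`hunif`, `ℤ`-form**, for a vertical valuation: every nonzero `x` is `π ^ n · unit`. -/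
theorem tres5bk_vtSub_hunif {c : F} (hc : e c = HahnSeries.C (ι π)) {x : F} (hx : x ≠ 0) :
    ∃ n : ℤ, (vtSub hB e hfrac).valuation (x / c ^ n) = 1 := by
  have hex : e x ≠ 0 := (map_ne_zero e).mpr hx
  have hCπ := hB.Cιπ_ne
  obtain ⟨d, u, hu, h | h⟩ := vt_exists_pow_mul hB hex (hfrac x)
  · refine ⟨(d : ℤ), ?_⟩
    rw [vtSub_valuation_eq_one_iff, zpow_natCast, map_div₀, map_pow, hc, h,
      mul_div_cancel_left₀ _ (pow_ne_zero d hCπ)]
    exact hu
  · refine ⟨-(d : ℤ), ?_⟩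
    rw [vtSub_valuation_eq_one_iff, zpow_neg, zpow_natCast, div_inv_eq_mul, map_mul, map_pow, hc]
    have hu0 := hu.ne_zero hB.inj
    have h1 : e x = (HahnSeries.C (ι π) ^ d * u)⁻¹ := by rw [← h, inv_inv]
    have h2 : e x * HahnSeries.C (ι π) ^ d = u⁻¹ := by
      rw [h1, mul_inv, mul_comm _ u⁻¹, mul_assoc, inv_mul_cancel₀ (pow_ne_zero d hCπ), mul_one]
    rw [h2]
    exact hu.inv hB.inj

end Gen

section Mgv

variable {A : ValuationSubring Qb} {K₀ : IntermediateField ℚ Qb}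
  [IsDiscreteValuationRing ↥(beta0Ring A K₀)] {π : ↥(beta0Ring A K₀)} (hπ : Irreducible π)
  (ιC : ↥K₀ →+* ℂ) {q M : ℕ} [NeZero q] [NeZero M] [NeZero (M * q)]
  (hq : q.Prime) (hqM : ¬ q ∣ M)

/-- **`hunif`, `ℤ`-form**, for `mgvV`: `π` is a uniformizer of `V_∞`, `V_0`. -/
theorem tres5bk_mgv_hunif (c : Bool) (x : ↥(modularFunctionFieldFullC ↥K₀ (M * q)))
    (hx : x ≠ 0) :
    ∃ n : ℤ, (mgvV hπ ιC hq hqM c).valuation
      (x / algebraMap ↥(beta0Ring A K₀) ↥(modularFunctionFieldFullC ↥K₀ (M * q)) π ^ n) = 1 :=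
  tres5bk_vtSub_hunif (vtBase_residue hπ) (vtEmbFam ιC hq hqM c)
    (vt_frac_fam (vtBase_residue hπ) ιC hq hqM c)
    (vtEmbFam_const ιC hq hqM c (algebraMap ↥(beta0Ring A K₀) ↥K₀ π)) hx

/-- the shape `u₀ / g ^ p − 1 = (ζ − 1) ^ p · π · y`, `y ∈ V c`, gives the split inequality (H1) -/
theorem tres5bk_hsplit_of_shape (V : ValuationSubring ↥(modularFunctionFieldFullC ↥K₀ (M * q)))
    {p : ℕ} {lam ϖ u₀ g y : ↥(modularFunctionFieldFullC ↥K₀ (M * q))} (hy : y ∈ V)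
    (hshape : u₀ / g ^ p - 1 = lam ^ p * ϖ * y) :
    V.valuation (u₀ / g ^ p - 1) ≤ V.valuation (lam ^ p * ϖ) := by
  rw [hshape, map_mul (V.valuation) (lam ^ p * ϖ) y]
  exact mul_le_of_le_one_right zero_le ((V.valuation_le_one_iff y).2 hy)

/-- **FAC-BIG (P1).**  The split Kummer datum at the vertical valuation `V c` (`c = true`: `V_∞`,
`c = false`: `V_0`), for an abstract Kummer extension `L = F(Y)`, `Y ^ p = u₀`, from the Kummer
shape of `u₀` at `V c`. -/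
def tres5bkKum (c : Bool) {p : ℕ} (hp : p.Prime) {ζ : ↥(beta0Ring A K₀)}
    (hζ : IsPrimitiveRoot ζ p)
    {u₀ g y : ↥(modularFunctionFieldFullC ↥K₀ (M * q))} (hg : g ≠ 0)
    (hy : y ∈ mgvV hπ ιC hq hqM c)
    (hshape : u₀ / g ^ p - 1 =
      (algebraMap ↥(beta0Ring A K₀) ↥(modularFunctionFieldFullC ↥K₀ (M * q)) ζ - 1) ^ p *
        algebraMap ↥(beta0Ring A K₀) ↥(modularFunctionFieldFullC ↥K₀ (M * q)) π * y)
    {L : Type*} [Field L] [Algebra ↥(modularFunctionFieldFullC ↥K₀ (M * q)) L]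
    (Y : L) (hY : Y ^ p = algebraMap ↥(modularFunctionFieldFullC ↥K₀ (M * q)) L u₀)
    (htop : IntermediateField.adjoin ↥(modularFunctionFieldFullC ↥K₀ (M * q)) {Y} = ⊤)
    (hw : ∀ a : ↥(modularFunctionFieldFullC ↥K₀ (M * q)), a ^ p ≠ u₀) :
    Tres5Kum ↥(modularFunctionFieldFullC ↥K₀ (M * q)) L (mgvV hπ ιC hq hqM c) p where
  hp := hp
  ζ := algebraMap ↥(beta0Ring A K₀) ↥(modularFunctionFieldFullC ↥K₀ (M * q)) ζ
  hζ := hζ.map_of_injective
    (zch_algebraMap_injective (A₀ := ↥(beta0Ring A K₀)) (E := ↥K₀))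
  π := algebraMap ↥(beta0Ring A K₀) ↥(modularFunctionFieldFullC ↥K₀ (M * q)) π
  hπ := mgv_hπV hπ ιC hq hqM c
  hπ0 := unip_algebraMap_irreducible_ne_zero ↥K₀ hπ
  hunif := fun x hx => tres5bk_mgv_hunif hπ ιC hq hqM c x hx
  w := u₀
  g := g
  hg := hg
  hsplit := tres5bk_hsplit_of_shape _ hy hshape
  y := Y
  hy := hY
  htop := htop
  hw := hw

section Fields

variable (c : Bool) {p : ℕ} (hp : p.Prime) {ζ : ↥(beta0Ring A K₀)}
    (hζ : IsPrimitiveRoot ζ p)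
    {u₀ g y : ↥(modularFunctionFieldFullC ↥K₀ (M * q))} (hg : g ≠ 0)
    (hy : y ∈ mgvV hπ ιC hq hqM c)
    (hshape : u₀ / g ^ p - 1 =
      (algebraMap ↥(beta0Ring A K₀) ↥(modularFunctionFieldFullC ↥K₀ (M * q)) ζ - 1) ^ p *
        algebraMap ↥(beta0Ring A K₀) ↥(modularFunctionFieldFullC ↥K₀ (M * q)) π * y)
    {L : Type*} [Field L] [Algebra ↥(modularFunctionFieldFullC ↥K₀ (M * q)) L]
    (Y : L) (hY : Y ^ p = algebraMap ↥(modularFunctionFieldFullC ↥K₀ (M * q)) L u₀)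
    (htop : IntermediateField.adjoin ↥(modularFunctionFieldFullC ↥K₀ (M * q)) {Y} = ⊤)
    (hw : ∀ a : ↥(modularFunctionFieldFullC ↥K₀ (M * q)), a ^ p ≠ u₀)

@[simp] theorem tres5bkKum_ζ :
    (tres5bkKum hπ ιC hq hqM c hp hζ hg hy hshape Y hY htop hw).ζ =
      algebraMap ↥(beta0Ring A K₀) ↥(modularFunctionFieldFullC ↥K₀ (M * q)) ζ := rfl

@[simp] theorem tres5bkKum_π :
    (tres5bkKum hπ ιC hq hqM c hp hζ hg hy hshape Y hY htop hw).π =
      algebraMap ↥(beta0Ring A K₀) ↥(modularFunctionFieldFullC ↥K₀ (M * q)) π := rfl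

@[simp] theorem tres5bkKum_w :
    (tres5bkKum hπ ιC hq hqM c hp hζ hg hy hshape Y hY htop hw).w = u₀ := rfl

@[simp] theorem tres5bkKum_g :
    (tres5bkKum hπ ιC hq hqM c hp hζ hg hy hshape Y hY htop hw).g = g := rfl

@[simp] theorem tres5bkKum_y :
    (tres5bkKum hπ ιC hq hqM c hp hζ hg hy hshape Y hY htop hw).y = Y := rfl

/-- the generator of the split monogenic structure: `z = (Y / g − 1) / (ζ − 1)` -/
theorem tres5bkKum_gen_z :
    (tres5bkKum hπ ιC hq hqM c hp hζ hg hy hshape Y hY htop hw).gen.z =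
      (Y / algebraMap ↥(modularFunctionFieldFullC ↥K₀ (M * q)) L g - 1) /
        algebraMap ↥(modularFunctionFieldFullC ↥K₀ (M * q)) L
          (algebraMap ↥(beta0Ring A K₀) ↥(modularFunctionFieldFullC ↥K₀ (M * q)) ζ - 1) := by
  rw [Tres5Kum.gen_z]
  show tres5T g (algebraMap ↥(beta0Ring A K₀) ↥(modularFunctionFieldFullC ↥K₀ (M * q)) ζ) Y 0
    = _
  unfold tres5T
  rw [pow_zero, map_one]

end Fields

/-- **FAC-BIG (P1), valuation form.**  From the split hypothesis (H1) of `S33.StmtWildFieldAt`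
at `V c`: a split Kummer datum with `w = u₀`, `y = Y`, `ζ`, `π` the given ones. -/
theorem tres5bk_exists_kum (c : Bool) {p : ℕ} (hp : p.Prime) {ζ : ↥(beta0Ring A K₀)}
    (hζ : IsPrimitiveRoot ζ p)
    {u₀ : ↥(modularFunctionFieldFullC ↥K₀ (M * q))}
    (hsplit : ∃ h : ↥(modularFunctionFieldFullC ↥K₀ (M * q)), h ≠ 0 ∧
      (mgvV hπ ιC hq hqM c).valuation (u₀ / h ^ p - 1) ≤
        (mgvV hπ ιC hq hqM c).valuation
          ((algebraMap ↥(beta0Ring A K₀) ↥(modularFunctionFieldFullC ↥K₀ (M * q)) ζ - 1) ^ p *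
            algebraMap ↥(beta0Ring A K₀) ↥(modularFunctionFieldFullC ↥K₀ (M * q)) π))
    {L : Type*} [Field L] [Algebra ↥(modularFunctionFieldFullC ↥K₀ (M * q)) L]
    (Y : L) (hY : Y ^ p = algebraMap ↥(modularFunctionFieldFullC ↥K₀ (M * q)) L u₀)
    (htop : IntermediateField.adjoin ↥(modularFunctionFieldFullC ↥K₀ (M * q)) {Y} = ⊤)
    (hw : ∀ a : ↥(modularFunctionFieldFullC ↥K₀ (M * q)), a ^ p ≠ u₀) :
    ∃ S : Tres5Kum ↥(modularFunctionFieldFullC ↥K₀ (M * q)) L (mgvV hπ ιC hq hqM c) p,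
      S.ζ = algebraMap ↥(beta0Ring A K₀) ↥(modularFunctionFieldFullC ↥K₀ (M * q)) ζ ∧
      S.π = algebraMap ↥(beta0Ring A K₀) ↥(modularFunctionFieldFullC ↥K₀ (M * q)) π ∧
      S.w = u₀ ∧ S.y = Y := by
  obtain ⟨h, hh0, hle⟩ := hsplit
  exact ⟨{ hp := hp
           ζ := algebraMap ↥(beta0Ring A K₀) ↥(modularFunctionFieldFullC ↥K₀ (M * q)) ζ
           hζ := hζ.map_of_injective
             (zch_algebraMap_injective (A₀ := ↥(beta0Ring A K₀)) (E := ↥K₀))
           π := algebraMap ↥(beta0Ring A K₀) ↥(modularFunctionFieldFullC ↥K₀ (M * q)) π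
           hπ := mgv_hπV hπ ιC hq hqM c
           hπ0 := unip_algebraMap_irreducible_ne_zero ↥K₀ hπ
           hunif := fun x hx => tres5bk_mgv_hunif hπ ιC hq hqM c x hx
           w := u₀
           g := h
           hg := hh0
           hsplit := hle
           y := Y
           hy := hY
           htop := htop
           hw := hw }, rfl, rfl, rfl, rfl⟩

end Mgv

end Fermat.Agent.R38

end


end ZBR38_015_1

/-! ### bundled: `Fermat.Agent.R38.TresMonoZeroInst` -/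
section ZBR38_015_2
/-
Row 38, PKG-TRES, MONO, piece MONO-0 INSTANCE (helper14): the hypothesis `hm₀` of
`tresmono_node_pt` / `tres5np_node` / `tres5npj_hfin` from the K-FORM at ONE thin node.

Frames of helper92's `R38/TresNodePt.lean` (abstract chart `(B, 𝔫)`, chart `zchClosure {t}` at
`𝔫 : AtPt π t`) and `R38/TresNodePtConc.lean` (chart `j` of `X₀(M q)` over `K = ℚ̄^I`).

At a thin crossing point `𝔫` (`Rtk6lfCrossAt (V c₁) (V c₂) 𝔫 X Y`: `X ∈ 𝔪(V c₁)`, `Y ∈ 𝔪(V c₂)`,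
`w π = X Y`), given
  * the split structure `H : Tres5eSplit F z P c` of the cover over `atLoc 𝔫` (K-FORM (B)),
  * a deck transformation `ρ` of `L / F` with `ρ z ≡ c (σ i)` modulo `(𝔫, z − c i)`, `σ` transitive
    (`tresmzk_step`, R38/TresMonoZeroK.lean),
  * DECK `ρ u = a · u · h ^ p` and KUM `p ∣ ord_{V c₂} a`,
any two valuation rings `W`, `W′` of `L` over the OTHER branch `V c₂` have
`p ∣ ord_{W′} u − ord_W u`.

* `tresmzi_node_abs`  : abstract chart `(B, 𝔫)`;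
* `tresmzi_node`      : the chart `zchClosure {t}` at `𝔫 : AtPt π t`;
* `tresmzi_ref`       : the GLOBAL reference `m₀` (`∃ m₀, ∀ node, ∀ W′ over V c₂, p ∣ ord_{W′} u − m₀`);
* `tresmzi_main`      : concrete form on the chart `j` of `X₀(M q)` over `ℚ̄^I`, `V c₂ = V_0 = mgvV false`.
-/

set_option autoImplicit false
set_option linter.unusedSectionVars false
set_option linter.unusedVariables false
set_option linter.style.haveILetI false
set_option linter.style.longLine false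
set_option synthInstance.maxHeartbeats 400000
set_option maxHeartbeats 1600000

noncomputable section

namespace Fermat.Agent.R38

open IsLocalRing AlgebraicCurve Polynomial Fermat.Agent.UNIP Fermat.Agent.STB Fermat.Agent.INJ
  Fermat.Agent.S36 Fermat.Agent.RIB.MP Fermat.Agent.RT.K6 IntermediateField

section Abs

variable {F : Type*} [Field F] {B : Type*} [CommRing B] [Algebra B F]
variable (hinj : Function.Injective (algebraMap B F)) (𝔫 : Ideal B) [h𝔫 : 𝔫.IsPrime]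
variable {κ : Type*} [Finite κ]
variable {L : Type*} [Field L] [Algebra F L]
  [IsLocalRing ↥(ls_localSubring (F := F) 𝔫)]
  [Algebra ↥(ls_localSubring (F := F) 𝔫) L] [IsScalarTower ↥(ls_localSubring (F := F) 𝔫) F L]
  {ι : Type*} [Fintype ι] {z : L} {P : (↥(ls_localSubring (F := F) 𝔫))[X]}
  {c : ι → ↥(ls_localSubring (F := F) 𝔫)}

include hinj in
/-- **MONO-0 at a thin node, abstract chart form.** -/
theorem tresmzi_node_abs [IsNoetherianRing B] (V : κ → ValuationSubring F)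
    (hBV : ∀ c (b : B), algebraMap B F b ∈ V c) (ϖ : B)
    (hKR : ∀ x : F, (∃ b : B, algebraMap B F ϖ * x = algebraMap B F b) → (∀ c, x ∈ V c) →
      ∃ b : B, x = algebraMap B F b)
    (hU : ∀ c (x : F), x ∈ (V c).nonunits → ∃ z ∈ V c, x = algebraMap B F ϖ * z)
    (hϖ0 : algebraMap B F ϖ ≠ 0)
    (hfrac : ∀ x : F, ∃ a b : B, b ≠ 0 ∧ x * algebraMap B F b = algebraMap B F a)
    (c₁ c₂ : κ)
    (hκ : ∀ c, (∀ b : B, algebraMap B F b ∈ (V c).nonunits → b ∈ 𝔫) → c = c₁ ∨ c = c₂)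
    (hthr₁ : ∀ b : B, algebraMap B F b ∈ (V c₁).nonunits → b ∈ 𝔫)
    (hthr₂ : ∀ b : B, algebraMap B F b ∈ (V c₂).nonunits → b ∈ 𝔫)
    {X Y w : B} (hw : w ∉ 𝔫) (hXY : w * ϖ = X * Y)
    (hX : algebraMap B F X ∈ (V c₁).nonunits) (hY : algebraMap B F Y ∈ (V c₂).nonunits)
    (hgen : NodesLocGen 𝔫 {ϖ, X, Y})
    -- the cover
    (H : Tres5eSplit F z P c)
    -- DECK + KUM
    (p : ℕ) {u h : L} {a : F} (hu : u ≠ 0) (ha : a ≠ 0) (hh : h ≠ 0)
    (ρ : L ≃ₐ[F] L) (hρu : ρ u = algebraMap F L a * u * h ^ p)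
    (hVa : ∃ m : ℤ, (V c₂).valuation (a / algebraMap B F ϖ ^ m) = 1)
    (hpa : (p : ℤ) ∣ tres5Ord (V c₂) (algebraMap B F ϖ) a)
    -- the deck transformation at the node
    (σ : ι → ι) (hσ : ∀ i j : ι, ∃ n : ℕ, σ^[n] i = j)
    (hstep : ∀ i, ∃ b ∈ tres5eMax ↥(ls_localSubring (F := F) 𝔫) z (c i),
      ρ z = algebraMap ↥(ls_localSubring (F := F) 𝔫) L (c (σ i)) + (b : L))
    (W W' : ValuationSubring L) (hW : W.comap (algebraMap F L) = V c₂)
    (hW' : W'.comap (algebraMap F L) = V c₂) :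
    (p : ℤ) ∣ tres5Ord W' (algebraMap F L (algebraMap B F ϖ)) u -
      tres5Ord W (algebraMap F L (algebraMap B F ϖ)) u := by
  haveI : IsNoetherianRing ↥(ls_localSubring (F := F) 𝔫) := s36n2p_isNoetherianRing hinj 𝔫
  haveI : IsFractionRing ↥(ls_localSubring (F := F) 𝔫) F :=
    s36n2p_isFractionRing _ (tres5nv_frac hinj 𝔫 hfrac)
  haveI : UniqueFactorizationMonoid ↥(ls_localSubring (F := F) 𝔫) :=
    rtk6lfp_cross_ufd hinj 𝔫 V hBV ϖ hKR hU hϖ0 c₁ c₂ hκ hthr₁ hthr₂ hw hXY hX hY hgen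
  have hXY₂ : w * ϖ = Y * X := by rw [hXY, mul_comm]
  have hκ₂ : ∀ c, (∀ b : B, algebraMap B F b ∈ (V c).nonunits → b ∈ 𝔫) → c = c₂ ∨ c = c₁ :=
    fun c hc => (hκ c hc).symm
  have hgen₂ : NodesLocGen 𝔫 {ϖ, Y, X} := by
    have e : ({ϖ, Y, X} : Set B) = {ϖ, X, Y} := by
      ext b; simp only [Set.mem_insert_iff, Set.mem_singleton_iff]; tauto
    rw [e]; exact hgen
  have hmax := rtk6lfp_cross_max (F := F) hinj 𝔫 ϖ hw hXY₂ (hthr₂ Y hY) (hthr₁ X hX) hgen₂
  have hpY := rtk6lfp_cross_prime hinj 𝔫 V hBV ϖ hKR hU hϖ0 c₂ c₁ hκ₂ hthr₂ hthr₁ hw hXY₂ hY hX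
  have hXv := tres5nv_X₂ 𝔫 V hBV ϖ hU hϖ0 c₂ hthr₂ hw hXY hY
  have hR₂ := stb_gc_le 𝔫 (V c₂) (hBV c₂) hthr₂
  have hYX' : ¬ s36n2pToLoc (F := F) 𝔫 Y ∣ s36n2pToLoc (F := F) 𝔫 X := by
    rintro ⟨t, ht⟩
    have h1 : (V c₂).valuation ((s36n2pToLoc (F := F) 𝔫 Y * t :
        ↥(ls_localSubring (F := F) 𝔫)) : F) < 1 := by
      show (V c₂).valuation (algebraMap B F Y * (t : F)) < 1
      rw [map_mul]
      have ht : (V c₂).valuation (t : F) ≤ 1 := ((V c₂).valuation_le_one_iff _).2 (hR₂ _ t.2)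
      calc (V c₂).valuation (algebraMap B F Y) * (V c₂).valuation (t : F)
          ≤ (V c₂).valuation (algebraMap B F Y) * 1 := by gcongr
        _ = (V c₂).valuation (algebraMap B F Y) := mul_one _
        _ < 1 := (ValuationSubring.mem_nonunits_iff (V c₂)).1 hY
    rw [← ht, hXv] at h1
    exact lt_irrefl _ h1
  have h1 : (1 : B) ∉ 𝔫 := fun h => h𝔫.ne_top ((Ideal.eq_top_iff_one 𝔫).mpr h)
  have hw' : IsUnit (s36n2pToLoc (F := F) 𝔫 w) :=
    ls_isUnit_of_not_mem hinj 𝔫 _ (b := w) (s := 1) hw h1 (by rw [map_one, one_mul]; rfl)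
  have hϖ' : s36n2pToLoc (F := F) 𝔫 w * s36n2pToLoc (F := F) 𝔫 ϖ =
      s36n2pToLoc (F := F) 𝔫 Y * s36n2pToLoc (F := F) 𝔫 X := by
    rw [← map_mul, ← map_mul, hXY₂]
  have hXV : algebraMap ↥(ls_localSubring (F := F) 𝔫) F (s36n2pToLoc (F := F) 𝔫 X) ∉
      (V c₂).nonunits := fun hmem => by
    have h2 := (ValuationSubring.mem_nonunits_iff (V c₂)).1 hmem
    have h3 : (V c₂).valuation ((s36n2pToLoc (F := F) 𝔫 X : ↥(ls_localSubring (F := F) 𝔫)) : F)
        < 1 := h2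
    rw [hXv] at h3
    exact lt_irrefl _ h3
  exact tresmz_main_step H hmax hpY hYX' hw' hϖ' (V c₂) (fun r => hR₂ _ r.2) hY hXV p hu ha hh ρ
    hρu hVa hpa σ hσ hstep W W' hW hW'

end Abs

section Chart

universe u

variable {A₀ E F : Type u} [CommRing A₀] [IsDomain A₀] [IsDiscreteValuationRing A₀]
  [Field E] [Algebra A₀ E] [IsFractionRing A₀ E] [CharZero E]
  [Field F] [Algebra E F] [Algebra A₀ F] [IsScalarTower A₀ E F]
  {π : A₀} {κ : Type*} [Finite κ]
  {L : Type*} [Field L] [Algebra F L]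

/-- **MONO-0 at a thin node** `𝔫` of the chart `t` of `X`: any two valuation rings of the cover
over the branch `V c₂` (`Y = 0`) have the same `ord u` modulo `p`. -/
theorem tresmzi_node (hπ : Irreducible π) {t : F} [FiniteDimensional E⟮t⟯ F]
    [IsNoetherianRing ↥(zchClosure (A₀ := A₀) ({t} : Set F))]
    (V : κ → ValuationSubring F) (c₁ c₂ : κ) (hκ : ∀ c, c = c₁ ∨ c = c₂)
    (hBV : ∀ c (b : F), IsIntegral ↥(Algebra.adjoin A₀ {t}) b → b ∈ V c)
    (hπV : ∀ c, algebraMap A₀ F π ∈ (V c).nonunits)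
    (hSS1 : ∀ b : F, IsIntegral ↥(Algebra.adjoin A₀ {t}) b → (∀ c, b ∈ (V c).nonunits) →
      ∃ b' : F, IsIntegral ↥(Algebra.adjoin A₀ {t}) b' ∧ b = algebraMap A₀ F π * b')
    (hU : ∀ c (x : F), x ∈ (V c).nonunits → ∃ z ∈ V c, x = algebraMap A₀ F π * z)
    (𝔫 : AtPt (F := F) π t) {X Y : ↥(zchClosure (A₀ := A₀) ({t} : Set F))}
    (hcross : Rtk6lfCrossAt (V c₁) (V c₂) 𝔫 X Y)
    -- the cover
    [IsLocalRing ↥(atLoc 𝔫)] [Algebra ↥(atLoc 𝔫) L] [IsScalarTower ↥(atLoc 𝔫) F L]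
    {ι : Type*} [Fintype ι] {z : L} {P : (↥(atLoc 𝔫))[X]} {c : ι → ↥(atLoc 𝔫)}
    (H : Tres5eSplit F z P c)
    -- DECK + KUM
    (p : ℕ) {u h : L} {a : F} (hu : u ≠ 0) (ha : a ≠ 0) (hh : h ≠ 0)
    (ρ : L ≃ₐ[F] L) (hρu : ρ u = algebraMap F L a * u * h ^ p)
    (hVa : ∃ m : ℤ, (V c₂).valuation (a / algebraMap A₀ F π ^ m) = 1)
    (hpa : (p : ℤ) ∣ tres5Ord (V c₂) (algebraMap A₀ F π) a)
    -- the deck transformation at the node
    (σ : ι → ι) (hσ : ∀ i j : ι, ∃ n : ℕ, σ^[n] i = j)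
    (hstep : ∀ i, ∃ b ∈ tres5eMax ↥(atLoc 𝔫) z (c i),
      ρ z = algebraMap ↥(atLoc 𝔫) L (c (σ i)) + (b : L))
    (W W' : ValuationSubring L) (hW : W.comap (algebraMap F L) = V c₂)
    (hW' : W'.comap (algebraMap F L) = V c₂) :
    (p : ℤ) ∣ tres5Ord W' (algebraMap F L (algebraMap A₀ F π)) u -
      tres5Ord W (algebraMap F L (algebraMap A₀ F π)) u := by
  haveI := 𝔫.2.1.isPrime
  haveI : IsLocalRing ↥(ls_localSubring (F := F) 𝔫.1) := ‹IsLocalRing ↥(atLoc 𝔫)›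
  letI : Algebra ↥(ls_localSubring (F := F) 𝔫.1) L := ‹Algebra ↥(atLoc 𝔫) L›
  haveI : IsScalarTower ↥(ls_localSubring (F := F) 𝔫.1) F L := ‹IsScalarTower ↥(atLoc 𝔫) F L›
  obtain ⟨h₁, h₂, hX, hY, ⟨w, hw, hXY⟩, hgen⟩ := hcross
  have hπ0 : algebraMap A₀ F π ≠ 0 := ei_algebraMap_ne_zero (E := E) hπ
  exact tresmzi_node_abs (B := ↥(zchClosure (A₀ := A₀) ({t} : Set F)))
    Subtype.val_injective 𝔫.1 V (fun c b => hBV c _ b.2)
    (algebraMap A₀ ↥(zchClosure (A₀ := A₀) ({t} : Set F)) π)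
    (ribmp_fac_hKR hπ0 V hπV hSS1) hU hπ0 (ribmp_fac_hfrac (E := E) t)
    c₁ c₂ (fun c _ => hκ c) h₁ h₂ hw hXY hX hY hgen H p hu ha hh ρ hρu hVa hpa σ hσ hstep
    W W' hW hW'

end Chart

section Base

open ModularCurve Fermat.Agent.AL Fermat.Agent.ES Fermat.Agent.ES.G2

variable {A : ValuationSubring Qb} {q M : ℕ} [NeZero q] [NeZero M] [NeZero (M * q)]
  [IsDiscreteValuationRing ↥(beta0Ring A (beta0Field A))]
  {π : ↥(beta0Ring A (beta0Field A))} (hπ : Irreducible π)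
  (ιC : ↥(beta0Field A) →+* ℂ) (hq : q.Prime) (hqM : ¬ q ∣ M)

include hπ ιC hq hqM in
/-- **MONO-0 at one thin node of the chart `j` of `X₀(M q)` over `ℚ̄^I`** (rigid level): any two
valuation rings of the cover over `V_0 = mgvV false` have the same `ord u` modulo `p`. -/
theorem tresmzi_node_conc (hA : A.LiesOverPrime q)
    (rigid : (q ≠ 2 → 4 ∣ M) ∧ (q = 2 → 9 ∣ M))
    {L : Type*} [Field L] [Algebra ↥(modularFunctionFieldFullC ↥(beta0Field A) (M * q)) L]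
    (𝔫 : AtPt (F := ↥(modularFunctionFieldFullC ↥(beta0Field A) (M * q))) π
      (bgJ ↥(beta0Field A) (M * q)))
    {X Y : ↥(zchClosure (A₀ := ↥(beta0Ring A (beta0Field A)))
      ({bgJ ↥(beta0Field A) (M * q)} :
        Set ↥(modularFunctionFieldFullC ↥(beta0Field A) (M * q))))}
    (hcross : Rtk6lfCrossAt (mgvV hπ ιC hq hqM true) (mgvV hπ ιC hq hqM false) 𝔫 X Y)
    [IsLocalRing ↥(atLoc 𝔫)]
    {ι : Type*} [Fintype ι] {z : L} {P : (↥(atLoc 𝔫))[X]} {c : ι → ↥(atLoc 𝔫)}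
    (H : Tres5eSplit ↥(modularFunctionFieldFullC ↥(beta0Field A) (M * q)) z P c)
    (p : ℕ) {u h : L} {a : ↥(modularFunctionFieldFullC ↥(beta0Field A) (M * q))}
    (hu : u ≠ 0) (ha : a ≠ 0) (hh : h ≠ 0)
    (ρ : L ≃ₐ[↥(modularFunctionFieldFullC ↥(beta0Field A) (M * q))] L)
    (hρu : ρ u = algebraMap ↥(modularFunctionFieldFullC ↥(beta0Field A) (M * q)) L a * u * h ^ p)
    (hpa : (p : ℤ) ∣ tres5Ord (mgvV hπ ιC hq hqM false)
      (algebraMap ↥(beta0Ring A (beta0Field A))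
        ↥(modularFunctionFieldFullC ↥(beta0Field A) (M * q)) π) a)
    (σ : ι → ι) (hσ : ∀ i j : ι, ∃ n : ℕ, σ^[n] i = j)
    (hstep : ∀ i, ∃ b ∈ tres5eMax ↥(atLoc 𝔫) z (c i),
      ρ z = algebraMap ↥(atLoc 𝔫) L (c (σ i)) + (b : L))
    (W W' : ValuationSubring L)
    (hW : W.comap (algebraMap ↥(modularFunctionFieldFullC ↥(beta0Field A) (M * q)) L) =
      mgvV hπ ιC hq hqM false)
    (hW' : W'.comap (algebraMap ↥(modularFunctionFieldFullC ↥(beta0Field A) (M * q)) L) =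
      mgvV hπ ιC hq hqM false) :
    (p : ℤ) ∣ tres5Ord W' (algebraMap ↥(modularFunctionFieldFullC ↥(beta0Field A) (M * q)) L
        (algebraMap ↥(beta0Ring A (beta0Field A))
          ↥(modularFunctionFieldFullC ↥(beta0Field A) (M * q)) π)) u -
      tres5Ord W (algebraMap ↥(modularFunctionFieldFullC ↥(beta0Field A) (M * q)) L
        (algebraMap ↥(beta0Ring A (beta0Field A))
          ↥(modularFunctionFieldFullC ↥(beta0Field A) (M * q)) π)) u := by
  haveI := 𝔫.2.1.isPrime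
  haveI := rtk6lfb_noeth_J (A := A) (K₀ := beta0Field A) (M := M) (q := q)
  haveI := ribmp_fc_fin (K₀ := beta0Field A) (M * q)
  have h2 := rtk6lfb_rigid_h2 rigid
  have h3 := rtk6lfb_rigid_h3 rigid
  have hSS1 := ribmp_fc_hSS1 hπ ιC hq hqM hA (le_refl (beta0Field A)) h2 h3
  exact tresmzi_node (E := ↥(beta0Field A)) hπ (mgvV hπ ιC hq hqM) true false mgv_hκ
    (mgv_hBV₁ hπ ιC hq hqM) (mgv_hπV hπ ιC hq hqM) hSS1 (ribmp_fc_hU hπ ιC hq hqM) 𝔫
    hcross H p hu ha hh ρ hρu (tres5bk_mgv_hunif hπ ιC hq hqM false a ha) hpa σ hσ hstep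
    W W' hW hW'

include hπ ιC hq hqM in
/-- **MONO-0 INSTANCE** (the hypothesis `hm₀` of `tres5npj_hfin_node`, helper89's shape): a GLOBAL
reference `m₀` such that, as soon as the chart `j` has a thin node, every valuation ring `W′` of
the cover over `V_0` has `ord_{W′} u ≡ m₀` modulo `p`.  Inputs: DECK (`hρu`), KUM at `V_0` (`hpa`),
and at every thin node the K-FORM (B) with the step relation of `ρ` (`hnode`). -/
theorem tresmzi_main (hA : A.LiesOverPrime q)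
    (rigid : (q ≠ 2 → 4 ∣ M) ∧ (q = 2 → 9 ∣ M))
    {L : Type*} [Field L] [Algebra ↥(modularFunctionFieldFullC ↥(beta0Field A) (M * q)) L]
    {ι : Type*} [Fintype ι]
    (p : ℕ) {u h : L} {a : ↥(modularFunctionFieldFullC ↥(beta0Field A) (M * q))}
    (hu : u ≠ 0) (ha : a ≠ 0) (hh : h ≠ 0)
    (ρ : L ≃ₐ[↥(modularFunctionFieldFullC ↥(beta0Field A) (M * q))] L)
    (hρu : ρ u = algebraMap ↥(modularFunctionFieldFullC ↥(beta0Field A) (M * q)) L a * u * h ^ p)
    (hpa : (p : ℤ) ∣ tres5Ord (mgvV hπ ιC hq hqM false)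
      (algebraMap ↥(beta0Ring A (beta0Field A))
        ↥(modularFunctionFieldFullC ↥(beta0Field A) (M * q)) π) a)
    (hnode : ∀ (𝔫 : AtPt (F := ↥(modularFunctionFieldFullC ↥(beta0Field A) (M * q))) π
        (bgJ ↥(beta0Field A) (M * q)))
      (X Y : ↥(zchClosure (A₀ := ↥(beta0Ring A (beta0Field A)))
        ({bgJ ↥(beta0Field A) (M * q)} :
          Set ↥(modularFunctionFieldFullC ↥(beta0Field A) (M * q))))),
      Rtk6lfCrossAt (mgvV hπ ιC hq hqM true) (mgvV hπ ιC hq hqM false) 𝔫 X Y →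
      ∀ [IsLocalRing ↥(atLoc 𝔫)],
        ∃ (z : L) (P : (↥(atLoc 𝔫))[X]) (c : ι → ↥(atLoc 𝔫)) (σ : ι → ι),
          Tres5eSplit ↥(modularFunctionFieldFullC ↥(beta0Field A) (M * q)) z P c ∧
          (∀ i j : ι, ∃ n : ℕ, σ^[n] i = j) ∧
          ∀ i, ∃ b ∈ tres5eMax ↥(atLoc 𝔫) z (c i),
            ρ z = algebraMap ↥(atLoc 𝔫) L (c (σ i)) + (b : L)) :
    ∃ m₀ : ℤ,
      ∀ (𝔫 : AtPt (F := ↥(modularFunctionFieldFullC ↥(beta0Field A) (M * q))) π
        (bgJ ↥(beta0Field A) (M * q)))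
      (X Y : ↥(zchClosure (A₀ := ↥(beta0Ring A (beta0Field A)))
        ({bgJ ↥(beta0Field A) (M * q)} :
          Set ↥(modularFunctionFieldFullC ↥(beta0Field A) (M * q))))),
      Rtk6lfCrossAt (mgvV hπ ιC hq hqM true) (mgvV hπ ιC hq hqM false) 𝔫 X Y →
      ∀ W' : ValuationSubring L,
      W'.comap (algebraMap ↥(modularFunctionFieldFullC ↥(beta0Field A) (M * q)) L) =
        mgvV hπ ιC hq hqM false →
      (p : ℤ) ∣ tres5Ord W' (algebraMap ↥(modularFunctionFieldFullC ↥(beta0Field A) (M * q)) L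
        (algebraMap ↥(beta0Ring A (beta0Field A))
          ↥(modularFunctionFieldFullC ↥(beta0Field A) (M * q)) π)) u - m₀ := by
  by_cases hex : ∃ W₀ : ValuationSubring L,
      W₀.comap (algebraMap ↥(modularFunctionFieldFullC ↥(beta0Field A) (M * q)) L) =
        mgvV hπ ιC hq hqM false
  · obtain ⟨W₀, hW₀⟩ := hex
    refine ⟨tres5Ord W₀ (algebraMap ↥(modularFunctionFieldFullC ↥(beta0Field A) (M * q)) L
      (algebraMap ↥(beta0Ring A (beta0Field A))
        ↥(modularFunctionFieldFullC ↥(beta0Field A) (M * q)) π)) u, ?_⟩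
    intro 𝔫 X Y hcross W' hW'
    haveI := 𝔫.2.1.isPrime
    haveI : IsLocalRing ↥(atLoc 𝔫) :=
      ls_localSubring_isLocalRing (F := ↥(modularFunctionFieldFullC ↥(beta0Field A) (M * q)))
        Subtype.val_injective 𝔫.1
    obtain ⟨z, P, c, σ, H, hσ, hstep⟩ := hnode 𝔫 X Y hcross
    exact tresmzi_node_conc hπ ιC hq hqM hA rigid 𝔫 hcross H p hu ha hh ρ hρu hpa σ hσ hstep
      W₀ W' hW₀ hW'
  · exact ⟨0, fun 𝔫 X Y _ W' hW' => absurd ⟨W', hW'⟩ hex⟩

include hπ ιC hq hqM in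
/-- **MONO-0 INSTANCE**, with the deck transformation given as a bijective algebra endomorphism
(the shape of `tres5kiv_descend`, `tres5c_descend`) and sheets indexed by `ZMod p`, `σ i = i + 1`
(the shape of `tres5ki_point`, `tresmzk_step`). -/
theorem tresmzi_main_zmod (hA : A.LiesOverPrime q)
    (rigid : (q ≠ 2 → 4 ∣ M) ∧ (q = 2 → 9 ∣ M))
    {L : Type*} [Field L] [Algebra ↥(modularFunctionFieldFullC ↥(beta0Field A) (M * q)) L]
    {p : ℕ} [hp : Fact p.Prime] (n : ℕ) {u h : L}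
    {a : ↥(modularFunctionFieldFullC ↥(beta0Field A) (M * q))}
    (hu : u ≠ 0) (ha : a ≠ 0) (hh : h ≠ 0)
    (ρK : L →ₐ[↥(modularFunctionFieldFullC ↥(beta0Field A) (M * q))] L)
    (hbij : Function.Bijective ρK)
    (hρu : ρK u = algebraMap ↥(modularFunctionFieldFullC ↥(beta0Field A) (M * q)) L a * u * h ^ n)
    (hpa : (n : ℤ) ∣ tres5Ord (mgvV hπ ιC hq hqM false)
      (algebraMap ↥(beta0Ring A (beta0Field A))
        ↥(modularFunctionFieldFullC ↥(beta0Field A) (M * q)) π) a)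
    (hnode : ∀ (𝔫 : AtPt (F := ↥(modularFunctionFieldFullC ↥(beta0Field A) (M * q))) π
        (bgJ ↥(beta0Field A) (M * q)))
      (X Y : ↥(zchClosure (A₀ := ↥(beta0Ring A (beta0Field A)))
        ({bgJ ↥(beta0Field A) (M * q)} :
          Set ↥(modularFunctionFieldFullC ↥(beta0Field A) (M * q))))),
      Rtk6lfCrossAt (mgvV hπ ιC hq hqM true) (mgvV hπ ιC hq hqM false) 𝔫 X Y →
      ∀ [IsLocalRing ↥(atLoc 𝔫)],
        ∃ (z : L) (P : (↥(atLoc 𝔫))[X]) (c : ZMod p → ↥(atLoc 𝔫)),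
          Tres5eSplit ↥(modularFunctionFieldFullC ↥(beta0Field A) (M * q)) z P c ∧
          ∀ i : ZMod p, ∃ b ∈ tres5eMax ↥(atLoc 𝔫) z (c i),
            ρK z = algebraMap ↥(atLoc 𝔫) L (c (i + 1)) + (b : L)) :
    ∃ m₀ : ℤ,
      ∀ (𝔫 : AtPt (F := ↥(modularFunctionFieldFullC ↥(beta0Field A) (M * q))) π
        (bgJ ↥(beta0Field A) (M * q)))
      (X Y : ↥(zchClosure (A₀ := ↥(beta0Ring A (beta0Field A)))
        ({bgJ ↥(beta0Field A) (M * q)} :
          Set ↥(modularFunctionFieldFullC ↥(beta0Field A) (M * q))))),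
      Rtk6lfCrossAt (mgvV hπ ιC hq hqM true) (mgvV hπ ιC hq hqM false) 𝔫 X Y →
      ∀ W' : ValuationSubring L,
      W'.comap (algebraMap ↥(modularFunctionFieldFullC ↥(beta0Field A) (M * q)) L) =
        mgvV hπ ιC hq hqM false →
      (n : ℤ) ∣ tres5Ord W' (algebraMap ↥(modularFunctionFieldFullC ↥(beta0Field A) (M * q)) L
        (algebraMap ↥(beta0Ring A (beta0Field A))
          ↥(modularFunctionFieldFullC ↥(beta0Field A) (M * q)) π)) u - m₀ := by
  haveI : NeZero p := ⟨hp.out.ne_zero⟩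
  refine tresmzi_main hπ ιC hq hqM hA rigid (ι := ZMod p) n hu ha hh
    (AlgEquiv.ofBijective ρK hbij) hρu hpa ?_
  intro 𝔫 X Y hcross _
  obtain ⟨z, P, c, H, hstep⟩ := hnode 𝔫 X Y hcross
  exact ⟨z, P, c, fun k => k + 1, H, tresmzk_shift_trans p, hstep⟩

end Base

end Fermat.Agent.R38

end


end ZBR38_015_2

/-! ### bundled: `Fermat.Agent.R38.TresMonoTop` -/
section ZBR38_015_3
/-
ROW 38, TRES, piece FAC-ASM-MAIN, the COVER BLOCK (β) of the top of `StmtMonoCover` (helper41).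

Frame K (`R38/TresNodePtConc.lean`, section `Base`): `K = ℚ̄^I = beta0Field A`,
`A₀ = beta0Ring A K` (a DVR, uniformizer `π`), `F = F_{M q}(K)` (rigid level), `t = bgJ`,
`V = mgvV hπ ιC hq hqM` (`true = V_∞`, `false = V_0`); `q` is the residue characteristic AND the
Kummer exponent.  `L ⊇ F` the function field of the cover over `K`.

* `tresmt_loc` : **the (LOC) half of the cover block**: from
    - `T : Tres5Gen F L V_∞ q` (K-FORM (A), helper53 `tres5kiv_descend`), a sheet `k₀ < q`,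
    - the descended deck transformation `ρK` and the function `w = u″` with
      `ρK w = a · w · h ^ q`, `q ∣ ord_{V_0} a`, `q ∣ ord_P w` at the places of `L / K`
      (helper30 / helper64 `tres5cd_all`, helper30 (L2)),
    - the split structures at the closed points on `V_∞` of the chart `j` together with the
      step of `ρK` (K-FORM (B), helper48 Layer 3 + helper64 (L1)), and at the cusps,
    - `m` with `w / π ^ m` a unit of the sheet `W = T.W k₀`,
  the hypotheses `hfin` and `hcusp` of `tresmonof_frame` (`R38/TresMonoConcF.lean`) for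
  `W = T.W k₀`, `y = w / π ^ m`, `h = s36tuV` (the Ogg unit), `e = 12`, `c = m₀ − m`
  (MONO-0: helper14 `tresmzi_main_zmod`; (I3): helper92 `tres5npj_hfin_node`;
  (I4): helper84 `tres5npc_hcusp_rigid`).
-/

set_option autoImplicit false
set_option linter.unusedSectionVars false
set_option linter.unusedVariables false
set_option linter.style.haveILetI false
set_option linter.style.longLine false
set_option synthInstance.maxHeartbeats 400000
set_option maxHeartbeats 1600000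

noncomputable section

namespace Fermat.Agent.R38

open ModularCurve AlgebraicCurve IntermediateField Polynomial Fermat.Agent.INJ Fermat.Agent.UNIP
  Fermat.Agent.STB Fermat.Agent.S36 Fermat.Agent.RIB.MP Fermat.Agent.RT.K6 Fermat.Agent.AL
  Fermat.Agent.ES Fermat.Agent.ES.G2

section Loc

variable {A : ValuationSubring Qb} {q M : ℕ} [NeZero q] [NeZero M] [NeZero (M * q)]
  [IsDiscreteValuationRing ↥(beta0Ring A (beta0Field A))]
  {π : ↥(beta0Ring A (beta0Field A))} (hπ : Irreducible π)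
  (ιC : ↥(beta0Field A) →+* ℂ) (hq : q.Prime) (hqM : ¬ q ∣ M)

include hπ ιC hq hqM in
/-- **The (LOC) half of the cover block**: `hfin` and `hcusp` of `tresmonof_frame` on a sheet of
the cover over `K = ℚ̄^I`, rigid level. -/
theorem tresmt_loc (hA : A.LiesOverPrime q)
    (rigid : (q ≠ 2 → 4 ∣ M) ∧ (q = 2 → 9 ∣ M))
    {L : Type*} [Field L] [Algebra ↥(modularFunctionFieldFullC ↥(beta0Field A) (M * q)) L]
    [Algebra ↥(beta0Field A) L]
    [IsScalarTower ↥(beta0Field A) ↥(modularFunctionFieldFullC ↥(beta0Field A) (M * q)) L]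
    (T : Tres5Gen ↥(modularFunctionFieldFullC ↥(beta0Field A) (M * q)) L
      (mgvV hπ ιC hq hqM true) q)
    {k₀ : ℕ} (hk₀ : k₀ < q)
    (ρK : L →ₐ[↥(modularFunctionFieldFullC ↥(beta0Field A) (M * q))] L)
    {w h : L} {a : ↥(modularFunctionFieldFullC ↥(beta0Field A) (M * q))}
    (hw0 : w ≠ 0) (ha0 : a ≠ 0) (hh0 : h ≠ 0)
    (hρu : ρK w =
      algebraMap ↥(modularFunctionFieldFullC ↥(beta0Field A) (M * q)) L a * w * h ^ q)
    (hpa : (q : ℤ) ∣ tres5Ord (mgvV hπ ιC hq hqM false)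
      (algebraMap ↥(beta0Ring A (beta0Field A))
        ↥(modularFunctionFieldFullC ↥(beta0Field A) (M * q)) π) a)
    (hhor : ∀ Pl : Place ↥(beta0Field A) L, (q : ℤ) ∣ Pl.ord w)
    (hsplitJ : ∀ 𝔫 : AtPt (F := ↥(modularFunctionFieldFullC ↥(beta0Field A) (M * q))) π
        (bgJ ↥(beta0Field A) (M * q)),
      atThrough 𝔫 (mgvV hπ ιC hq hqM true) → ∀ [IsLocalRing ↥(atLoc 𝔫)],
        ∃ (z : L) (P : (↥(atLoc 𝔫))[X]) (c : ZMod q → ↥(atLoc 𝔫)),
          Tres5eSplit ↥(modularFunctionFieldFullC ↥(beta0Field A) (M * q)) z P c ∧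
          ∀ i : ZMod q, ∃ b ∈ tres5eMax ↥(atLoc 𝔫) z (c i),
            ρK z = algebraMap ↥(atLoc 𝔫) L (c (i + 1)) + (b : L))
    (hsplitC : ∀ 𝔫 : AtPt (F := ↥(modularFunctionFieldFullC ↥(beta0Field A) (M * q))) π
        (bgJ ↥(beta0Field A) (M * q))⁻¹,
      atThrough 𝔫 (mgvV hπ ιC hq hqM true) →
      (∀ b : ↥(zchClosure (A₀ := ↥(beta0Ring A (beta0Field A)))
          ({(bgJ ↥(beta0Field A) (M * q))⁻¹} :
            Set ↥(modularFunctionFieldFullC ↥(beta0Field A) (M * q)))),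
        (b : ↥(modularFunctionFieldFullC ↥(beta0Field A) (M * q))) =
          (bgJ ↥(beta0Field A) (M * q))⁻¹ → b ∈ 𝔫.1) →
      ∀ [IsLocalRing ↥(atLoc 𝔫)],
        ∃ (z : L) (P : (↥(atLoc 𝔫))[X]) (c : ZMod q → ↥(atLoc 𝔫)),
          Tres5eSplit ↥(modularFunctionFieldFullC ↥(beta0Field A) (M * q)) z P c)
    (m : ℤ)
    (hm : (T.W k₀).valuation
      (w / algebraMap ↥(modularFunctionFieldFullC ↥(beta0Field A) (M * q)) L
        (algebraMap ↥(beta0Ring A (beta0Field A))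
          ↥(modularFunctionFieldFullC ↥(beta0Field A) (M * q)) π) ^ m) = 1) :
    ∃ m₀ : ℤ,
      (∀ 𝔫 : AtPt (F := ↥(modularFunctionFieldFullC ↥(beta0Field A) (M * q))) π
          (bgJ ↥(beta0Field A) (M * q)),
        ∀ T' : ValuationSubring L,
        (∀ x ∈ atLoc 𝔫,
          algebraMap ↥(modularFunctionFieldFullC ↥(beta0Field A) (M * q)) L x ∈ T') →
        (∀ x ∈ T', x ∈ T.W k₀) →
        ∃ O' : Subring L, (∀ x ∈ O', x ∈ T') ∧
          TresMonoPt (T.W k₀) O' q (m₀ - m) 12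
            (w / algebraMap ↥(modularFunctionFieldFullC ↥(beta0Field A) (M * q)) L
              (algebraMap ↥(beta0Ring A (beta0Field A))
                ↥(modularFunctionFieldFullC ↥(beta0Field A) (M * q)) π) ^ m)
            (algebraMap ↥(modularFunctionFieldFullC ↥(beta0Field A) (M * q)) L
              (s36tuV ↥(beta0Field A) ιC (q := q) (M := M)))) ∧
      (∀ 𝔫 : AtPt (F := ↥(modularFunctionFieldFullC ↥(beta0Field A) (M * q))) π
          (bgJ ↥(beta0Field A) (M * q))⁻¹,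
        ∀ T' : ValuationSubring L,
        (∀ x ∈ atLoc 𝔫,
          algebraMap ↥(modularFunctionFieldFullC ↥(beta0Field A) (M * q)) L x ∈ T') →
        (∀ x ∈ T', x ∈ T.W k₀) →
        (∀ b : ↥(zchClosure (A₀ := ↥(beta0Ring A (beta0Field A)))
            ({(bgJ ↥(beta0Field A) (M * q))⁻¹} :
              Set ↥(modularFunctionFieldFullC ↥(beta0Field A) (M * q)))),
          (b : ↥(modularFunctionFieldFullC ↥(beta0Field A) (M * q))) =
            (bgJ ↥(beta0Field A) (M * q))⁻¹ → b ∈ 𝔫.1) →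
        ∃ O' : Subring L, (∀ x ∈ O', x ∈ T') ∧
          StbFacAt O' q
            (w / algebraMap ↥(modularFunctionFieldFullC ↥(beta0Field A) (M * q)) L
              (algebraMap ↥(beta0Ring A (beta0Field A))
                ↥(modularFunctionFieldFullC ↥(beta0Field A) (M * q)) π) ^ m)) := by
  haveI : Fact q.Prime := ⟨hq⟩
  have hWV := T.W_comap hk₀
  -- the deck transformation is bijective
  haveI : FiniteDimensional ↥(modularFunctionFieldFullC ↥(beta0Field A) (M * q)) L :=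
    Module.finite_of_finrank_pos (by rw [T.hfin]; exact hq.pos)
  have hbij : Function.Bijective ρK := Algebra.IsAlgebraic.algHom_bijective ρK
  -- MONO-0
  obtain ⟨m₀, hm₀⟩ := tresmzi_main_zmod hπ ιC hq hqM hA rigid (p := q) q hw0 ha0 hh0 ρK hbij hρu
    hpa (fun 𝔫 X Y hcross _ => hsplitJ 𝔫 hcross.1)
  refine ⟨m₀, ?_, ?_⟩
  · exact tres5npj_hfin_node hπ ιC hq hqM hA rigid (T.W k₀) hWV
      (fun 𝔫 hthr _ => by
        obtain ⟨z, P, c, H, -⟩ := hsplitJ 𝔫 hthr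
        exact ⟨z, P, c, H⟩) hw0 hhor m₀ hm₀ m hm
  · exact tres5npc_hcusp_rigid hπ ιC hq hqM hA rigid (T.W k₀) hWV hsplitC hw0 hhor m hm

end Loc

end Fermat.Agent.R38

end
end ZBR38_015_3
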