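/- GENERATED FILE (helper35, build-time optimisation, NOTES/ZB.md): verbatim concatenation of the modules
   Fermat.Agent.R38.TresGRedPS
   Fermat.Agent.R38.TresGRedHensel
   Fermat.Agent.R38.TresGRedCusp
   Fermat.Agent.R38.TresGRedCuspInst
   Fermat.Agent.R38.TresGRedCuspFinal
   Do not edit; do not import together with these modules. -/
import Fermat.Agent.ZB.INJ_003
import Fermat.Prelude.Def_ModularCurve_X0ModL
import Fermat.Agent.ZB.R38_006
import Mathlib
import Fermat.Agent.ZB.UNIP_007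
import Fermat.Agent.ZB.S34_001

/-! ### bundled: `Fermat.Agent.R38.TresGRedPS` -/
section ZBR38_021_0
/-
ROW 38, TRES, piece FAC-GRED (helper24), part 2a: THE SUBRING `A[[q]] ⊆ E((q))`.

`tres5gPS ι` is the image of `A[[q]]` in `E((q))` (power series with coefficients in `ι A`).
It lies in the Gauss ring, and its elements are `VtFrac`.  Interface of the cusp `∞̄`
(`R38/TresGRedCusp.lean`, helper16: `atLoc 𝔫_∞ ⊆ tres5gPS`) and of the Hensel step
(`R38/TresGRedHensel.lean`).
-/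

set_option autoImplicit false
set_option linter.unusedSectionVars false

noncomputable section

namespace Fermat.Agent.R38

open Fermat.Agent.UNIP Fermat.Agent.INJ ModularCurve

section PS

variable {A E k : Type*} [CommRing A] [Field E] [Field k] (ι : A →+* E)

/-- **The subring `A[[q]]` of `E((q))`.** -/
def tres5gPS : Subring (LaurentSeries E) :=
  ((HahnSeries.ofPowerSeries ℤ E).comp (PowerSeries.map ι)).range

variable {ι}

theorem tres5g_mem_PS_iff {x : LaurentSeries E} :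
    x ∈ tres5gPS ι ↔ ∃ T : PowerSeries A, HahnSeries.ofPowerSeries ℤ E (T.map ι) = x :=
  Iff.rfl

theorem tres5g_ofPowerSeries_mem (T : PowerSeries A) :
    HahnSeries.ofPowerSeries ℤ E (T.map ι) ∈ tres5gPS ι := ⟨T, rfl⟩

/-- constants of `A` are in `A[[q]]` -/
theorem tres5g_C_mem (a : A) : (HahnSeries.C (ι a) : LaurentSeries E) ∈ tres5gPS ι :=
  ⟨PowerSeries.C a, by
    show HahnSeries.ofPowerSeries ℤ E ((PowerSeries.C a).map ι) = _
    rw [PowerSeries.map_C, HahnSeries.ofPowerSeries_C]⟩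

/-- `q ∈ A[[q]]` -/
theorem tres5g_single_one_mem : (HahnSeries.single (1 : ℤ) (1 : E) : LaurentSeries E) ∈
    tres5gPS ι :=
  ⟨PowerSeries.X, by
    show HahnSeries.ofPowerSeries ℤ E ((PowerSeries.X : PowerSeries A).map ι) = _
    rw [PowerSeries.map_X, HahnSeries.ofPowerSeries_X]⟩

/-- an element of `A[[q]]` is the coefficientwise image of a series over `A` -/
theorem tres5g_PS_eq_coeffMap {x : LaurentSeries E} (hx : x ∈ tres5gPS ι) :
    ∃ T : PowerSeries A, x = coeffMap ι (HahnSeries.ofPowerSeries ℤ A T) := by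
  obtain ⟨T, rfl⟩ := hx
  exact ⟨T, (coeffMap_ofPowerSeries ι T).symm⟩

/-- `A[[q]]` lies in the Gauss ring -/
theorem tres5g_PS_le_gaussRing (r : A →+* k) : tres5gPS ι ≤ gaussRing ι r := by
  intro x hx
  obtain ⟨T, rfl⟩ := tres5g_PS_eq_coeffMap hx
  exact coeffMap_mem_gaussRing ι r _

/-- the elements of `A[[q]]` are quotients of series over `A` -/
theorem tres5g_PS_vtFrac {x : LaurentSeries E} (hx : x ∈ tres5gPS ι) : VtFrac ι x := by
  obtain ⟨T, rfl⟩ := tres5g_PS_eq_coeffMap hx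
  exact vtFrac_coeffMap _

/-- the coefficients of an element of `A[[q]]` -/
theorem tres5g_PS_coeff {x : LaurentSeries E} (hx : x ∈ tres5gPS ι) (n : ℤ) :
    ∃ a : A, ι a = x.coeff n := by
  obtain ⟨T, rfl⟩ := tres5g_PS_eq_coeffMap hx
  exact ⟨(HahnSeries.ofPowerSeries ℤ A T).coeff n, rfl⟩

/-- the coefficients of negative index of an element of `A[[q]]` vanish -/
theorem tres5g_PS_coeff_neg {x : LaurentSeries E} (hx : x ∈ tres5gPS ι) {n : ℤ} (hn : n < 0) :
    x.coeff n = 0 := by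
  obtain ⟨T, rfl⟩ := hx
  exact ofPowerSeries_coeff_of_neg _ hn

/-- characterisation by coefficients -/
theorem tres5g_mem_PS_of_coeff {x : LaurentSeries E} (hneg : ∀ n : ℤ, n < 0 → x.coeff n = 0)
    (hint : ∀ n : ℕ, ∃ a : A, ι a = x.coeff (n : ℤ)) : x ∈ tres5gPS ι := by
  choose a ha using hint
  refine ⟨PowerSeries.mk a, ?_⟩
  show HahnSeries.ofPowerSeries ℤ E ((PowerSeries.mk a).map ι) = x
  ext n
  rcases le_or_gt 0 n with hn | hn
  · lift n to ℕ using hn
    rw [HahnSeries.ofPowerSeries_apply_coeff, PowerSeries.coeff_map, PowerSeries.coeff_mk, ha]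
  · rw [ofPowerSeries_coeff_of_neg _ hn, hneg n hn]

end PS

end Fermat.Agent.R38

end
end ZBR38_021_0

/-! ### bundled: `Fermat.Agent.R38.TresGRedHensel` -/
section ZBR38_021_1
/-
ROW 38, TRES, piece FAC-GRED (helper24), part 2b: HENSEL AND NORMALITY IN `A[[q]] ⊆ E((q))`.

`A` a local ring with residue map `r : A → k`, integrally closed in its field of fractions `E`
(`ι : A → E`); `A[[q]] = tres5gPS ι ⊆ E((q))` (`R38/TresGRedPS.lean`).

* `tres5gh_hensel`        : a root `Z ∈ E[[q]]` of a polynomial `P` over `A[[q]]` with `Z(0) ∈ A`,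
                            `P′(Z(0))` a unit modulo `q`, lies in `A[[q]]` (Newton, `q`-adically).
* `tres5gh_split`, `tres5gh_split_laurent` : **the form used at the cusp**: `z ∈ E((q))`,
      `∏_{i ∈ s} (z − c_i) = m`, `m ∈ A[[q]]`, `m(0) ∈ 𝔪`, the `c_i ∈ A` pairwise distinct modulo
      `𝔪`  ⇒  `z ∈ A[[q]]`.
      (FALSE without `m ∈ A[[q]]`: `z^p − z = π^p q^{-p}` has a root in `E((q))` which is not even
      a quotient of two series over `A`.)
* `tres5gh_cic_ps`        : `A[[q]]` is completely integrally closed in `E[[q]]` if `A` is in `E`.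
* `tres5gh_normal`        : **normality**: `x ∈ E((q))` integral over `A[[q]]` and a quotient of two
      series over `A` (`VtFrac`) ⇒ `x ∈ A[[q]]`.   (`E[[q]] ∩ gaussRing ≠ A[[q]]`: `π / (π + q)`.)
* `tres5gh_cic`           : the hypothesis `hcic` for a valuation ring with `VtBase`.
-/

set_option autoImplicit false
set_option linter.unusedSectionVars false

namespace Fermat.Agent.R38

open Polynomial Fermat.Agent.UNIP ModularCurve

section Hensel

variable {A E : Type*} [CommRing A] [Field E] (ι : A →+* E)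

/-- divisibility by `X ^ n` descends along an injective coefficient map -/
theorem tres5gh_X_pow_dvd (hι : Function.Injective ι) {n : ℕ} {d : PowerSeries A}
    (h : (PowerSeries.X : PowerSeries E) ^ n ∣ d.map ι) :
    (PowerSeries.X : PowerSeries A) ^ n ∣ d := by
  rw [PowerSeries.X_pow_dvd_iff] at h ⊢
  intro m hm
  have := h m hm
  rw [PowerSeries.coeff_map] at this
  exact hι (by rw [this, map_zero])

theorem tres5gh_constantCoeff_map (t : PowerSeries A) :
    PowerSeries.constantCoeff (t.map ι) = ι (PowerSeries.constantCoeff t) := by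
  rw [← PowerSeries.coeff_zero_eq_constantCoeff_apply, PowerSeries.coeff_map,
    PowerSeries.coeff_zero_eq_constantCoeff_apply]

/-- **Newton step.** -/
theorem tres5gh_step (hι : Function.Injective ι) (P : (PowerSeries A)[X]) (Z : PowerSeries E)
    (hPZ : (P.map (PowerSeries.map ι)).eval Z = 0) (a₀ : A)
    (hD : IsUnit ((derivative (P.map (PowerSeries.constantCoeff (R := A)))).eval a₀))
    {n : ℕ} (hn : 1 ≤ n) (t : PowerSeries A) (ht₀ : PowerSeries.constantCoeff t = a₀)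
    (ht : (PowerSeries.X : PowerSeries E) ^ n ∣ Z - t.map ι) :
    ∃ t' : PowerSeries A, PowerSeries.constantCoeff t' = a₀ ∧
      (PowerSeries.X : PowerSeries E) ^ (n + 1) ∣ Z - t'.map ι := by
  obtain ⟨v, hv⟩ := ht
  have hZ : Z = t.map ι + PowerSeries.X ^ n * v := by rw [← hv]; ring
  obtain ⟨κ, hκ⟩ := binomExpansion (P.map (PowerSeries.map ι)) (t.map ι) (PowerSeries.X ^ n * v)
  rw [← hZ, hPZ] at hκ
  have h1 : (P.map (PowerSeries.map ι)).eval (t.map ι) = (P.eval t).map ι := by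
    rw [eval_map, eval₂_hom]
  have h2 : (derivative (P.map (PowerSeries.map ι))).eval (t.map ι) =
      ((derivative P).eval t).map ι := by
    rw [derivative_map, eval_map, eval₂_hom]
  rw [h1, h2] at hκ
  have h3 : (PowerSeries.X : PowerSeries E) ^ n ∣ (P.eval t).map ι := by
    refine ⟨-(((derivative P).eval t).map ι * v + κ * PowerSeries.X ^ n * v ^ 2), ?_⟩
    linear_combination -hκ
  obtain ⟨b, hb⟩ := tres5gh_X_pow_dvd ι hι h3
  have hX : (PowerSeries.X : PowerSeries E) ^ n ≠ 0 := pow_ne_zero _ PowerSeries.X_ne_zero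
  have h4 : b.map ι = -(((derivative P).eval t).map ι * v + κ * PowerSeries.X ^ n * v ^ 2) := by
    apply mul_left_cancel₀ hX
    have e : (PowerSeries.X : PowerSeries E) ^ n * b.map ι = (P.eval t).map ι := by
      rw [hb, map_mul, map_pow, PowerSeries.map_X]
    rw [e]
    linear_combination -hκ
  have hXn : PowerSeries.constantCoeff ((PowerSeries.X : PowerSeries E) ^ n) = 0 := by
    rw [map_pow, PowerSeries.constantCoeff_X, zero_pow (by omega)]
  have h5 : ι (PowerSeries.constantCoeff b) =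
      -(ι (PowerSeries.constantCoeff ((derivative P).eval t)) * PowerSeries.constantCoeff v) := by
    have := congrArg PowerSeries.constantCoeff h4
    rw [tres5gh_constantCoeff_map, map_neg, map_add, map_mul, map_mul, map_mul,
      tres5gh_constantCoeff_map, hXn] at this
    rw [this]; ring
  have h6 : PowerSeries.constantCoeff ((derivative P).eval t) =
      (derivative (P.map (PowerSeries.constantCoeff (R := A)))).eval a₀ := by
    rw [derivative_map, eval_map, ← ht₀, eval₂_hom]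
  obtain ⟨u, hu⟩ := hD
  rw [h6, ← hu] at h5
  have hcv : PowerSeries.constantCoeff v = ι (-(PowerSeries.constantCoeff b) * ((u⁻¹ : Aˣ) : A)) := by
    have hu1 : ι (u : A) * ι ((u⁻¹ : Aˣ) : A) = 1 := by
      rw [← map_mul, Units.mul_inv, map_one]
    rw [map_mul, map_neg, h5]
    linear_combination (-(PowerSeries.constantCoeff v)) * hu1
  refine ⟨t + PowerSeries.C (-(PowerSeries.constantCoeff b) * ((u⁻¹ : Aˣ) : A)) *
    PowerSeries.X ^ n, ?_, ?_⟩
  · have hXnA : PowerSeries.constantCoeff ((PowerSeries.X : PowerSeries A) ^ n) = 0 := by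
      rw [map_pow, PowerSeries.constantCoeff_X, zero_pow (by omega)]
    rw [map_add, map_mul, hXnA, mul_zero, add_zero, ht₀]
  · have hdvd : (PowerSeries.X : PowerSeries E) ∣
        v - PowerSeries.C (ι (-(PowerSeries.constantCoeff b) * ((u⁻¹ : Aˣ) : A))) := by
      rw [PowerSeries.X_dvd_iff, map_sub, PowerSeries.constantCoeff_C, hcv, sub_self]
    obtain ⟨w, hw⟩ := hdvd
    refine ⟨w, ?_⟩
    rw [map_add, map_mul, map_pow, PowerSeries.map_X, PowerSeries.map_C, pow_succ, mul_assoc,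
      ← hw, hZ]
    ring

/-- **Hensel's lemma in `A[[q]] ⊆ E[[q]]`**: a root `Z ∈ E[[q]]` of a polynomial over `A[[q]]`
whose constant term `a₀` is in `A` and is a simple root modulo `q` (the derivative at `a₀` is a
unit of `A`) has all its coefficients in `A`. -/
theorem tres5gh_hensel (hι : Function.Injective ι) (P : (PowerSeries A)[X]) (Z : PowerSeries E)
    (hPZ : (P.map (PowerSeries.map ι)).eval Z = 0) (a₀ : A)
    (ha₀ : PowerSeries.constantCoeff Z = ι a₀)
    (hD : IsUnit ((derivative (P.map (PowerSeries.constantCoeff (R := A)))).eval a₀)) :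
    ∃ T : PowerSeries A, T.map ι = Z := by
  have key : ∀ n : ℕ, ∃ t : PowerSeries A, PowerSeries.constantCoeff t = a₀ ∧
      (PowerSeries.X : PowerSeries E) ^ (n + 1) ∣ Z - t.map ι := by
    intro n
    induction n with
    | zero =>
      refine ⟨PowerSeries.C a₀, PowerSeries.constantCoeff_C a₀, ?_⟩
      rw [zero_add, pow_one, PowerSeries.X_dvd_iff, map_sub, tres5gh_constantCoeff_map,
        PowerSeries.constantCoeff_C, ha₀, sub_self]
    | succ n ih =>
      obtain ⟨t, ht₀, ht⟩ := ih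
      exact tres5gh_step ι hι P Z hPZ a₀ hD (by omega) t ht₀ ht
  choose t _ ht using key
  refine ⟨PowerSeries.mk fun m => PowerSeries.coeff m (t m), ?_⟩
  ext m
  rw [PowerSeries.coeff_map, PowerSeries.coeff_mk]
  have h := (PowerSeries.X_pow_dvd_iff.mp (ht m)) m (Nat.lt_succ_self m)
  rw [map_sub, PowerSeries.coeff_map, sub_eq_zero] at h
  exact h.symm

variable {k κ : Type*} [Field k]

/-- **Hensel, split form** (power series). -/
theorem tres5gh_split (hι : Function.Injective ι) (r : A →+* k)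
    (hloc : ∀ a : A, r a ≠ 0 → IsUnit a)
    (hic : ∀ (x : E) (p : A[X]), p.Monic → p.eval₂ ι x = 0 → ∃ a, ι a = x)
    (s : Finset κ) (c : κ → A) (hc : ∀ i ∈ s, ∀ j ∈ s, i ≠ j → r (c i) ≠ r (c j))
    (m : PowerSeries A) (hm : r (PowerSeries.constantCoeff m) = 0)
    (Z : PowerSeries E) (hZ : ∏ i ∈ s, (Z - PowerSeries.C (ι (c i))) = m.map ι) :
    ∃ T : PowerSeries A, T.map ι = Z := by
  classical
  -- `s` is not empty
  have hs : s.Nonempty := by
    rw [Finset.nonempty_iff_ne_empty]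
    rintro rfl
    rw [Finset.prod_empty] at hZ
    have h1 := congrArg PowerSeries.constantCoeff hZ
    rw [map_one, tres5gh_constantCoeff_map] at h1
    have h2 : PowerSeries.constantCoeff m = 1 := hι (by rw [← h1, map_one])
    rw [h2, map_one] at hm
    exact one_ne_zero hm
  -- the polynomials
  set P : (PowerSeries A)[X] := Lagrange.nodal s (fun i => PowerSeries.C (c i)) - C m with hP
  have hP₀ : P.map (PowerSeries.constantCoeff (R := A)) =
      Lagrange.nodal s c - C (PowerSeries.constantCoeff m) := by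
    rw [hP, Polynomial.map_sub, Polynomial.map_C, Lagrange.nodal, Lagrange.nodal,
      Polynomial.map_prod]
    congr 1
    refine Finset.prod_congr rfl fun i _ => ?_
    rw [Polynomial.map_sub, Polynomial.map_X, Polynomial.map_C, PowerSeries.constantCoeff_C]
  have hPZ : (P.map (PowerSeries.map ι)).eval Z = 0 := by
    rw [eval_map, hP, eval₂_sub, eval₂_C, Lagrange.nodal, eval₂_finsetProd]
    rw [← hZ, sub_eq_zero]
    refine Finset.prod_congr rfl fun i _ => ?_
    rw [eval₂_sub, eval₂_X, eval₂_C, PowerSeries.map_C]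
  -- the constant term
  have hz₀ : ∏ i ∈ s, (PowerSeries.constantCoeff Z - ι (c i)) =
      ι (PowerSeries.constantCoeff m) := by
    have h1 := congrArg PowerSeries.constantCoeff hZ
    rw [map_prod, tres5gh_constantCoeff_map] at h1
    rw [← h1]
    refine Finset.prod_congr rfl fun i _ => ?_
    rw [map_sub, PowerSeries.constantCoeff_C]
  have hmonic : (Lagrange.nodal s c - C (PowerSeries.constantCoeff m)).Monic := by
    refine (Lagrange.nodal_monic).sub_of_left ?_
    have : Nontrivial A := ⟨⟨0, 1, fun h => by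
      have := congrArg r h; rw [map_zero, map_one] at this; exact zero_ne_one this⟩⟩
    rw [Lagrange.degree_nodal]
    refine lt_of_le_of_lt degree_C_le ?_
    exact_mod_cast hs.card_pos
  obtain ⟨a₀, ha₀⟩ := hic (PowerSeries.constantCoeff Z) _ hmonic (by
    rw [eval₂_sub, eval₂_C, Lagrange.nodal, eval₂_finsetProd, ← hz₀, sub_eq_zero]
    refine Finset.prod_congr rfl fun i _ => ?_
    rw [eval₂_sub, eval₂_X, eval₂_C])
  have ha : ∏ i ∈ s, (a₀ - c i) = PowerSeries.constantCoeff m := by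
    apply hι
    rw [map_prod, ← hz₀, ← ha₀]
    refine Finset.prod_congr rfl fun i _ => ?_
    rw [map_sub]
  obtain ⟨i₀, hi₀, hri₀⟩ : ∃ i₀ ∈ s, r (a₀ - c i₀) = 0 := by
    have h1 := congrArg r ha
    rw [map_prod, hm] at h1
    exact Finset.prod_eq_zero_iff.mp h1
  have hra : r a₀ = r (c i₀) := by
    rw [map_sub, sub_eq_zero] at hri₀
    exact hri₀
  -- the derivative
  have hD : IsUnit ((derivative (P.map (PowerSeries.constantCoeff (R := A)))).eval a₀) := by
    apply hloc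
    rw [hP₀]
    have h1 : r ((derivative (Lagrange.nodal s c - C (PowerSeries.constantCoeff m))).eval a₀) =
        (derivative (Lagrange.nodal s (fun i => r (c i)))).eval (r (c i₀)) := by
      rw [← hra, ← eval₂_hom, ← eval_map, ← derivative_map, Polynomial.map_sub, Polynomial.map_C,
        hm, map_zero, sub_zero, Lagrange.nodal, Lagrange.nodal, Polynomial.map_prod]
      congr 2
      refine Finset.prod_congr rfl fun i _ => ?_
      rw [Polynomial.map_sub, Polynomial.map_X, Polynomial.map_C]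
    rw [h1, Lagrange.eval_nodal_derivative_eval_node_eq (v := fun i => r (c i)) hi₀,
      Lagrange.eval_nodal]
    refine Finset.prod_ne_zero_iff.mpr fun i hi => ?_
    rw [sub_ne_zero]
    exact hc i₀ hi₀ i (Finset.mem_of_mem_erase hi) (Finset.ne_of_mem_erase hi).symm
  exact tres5gh_hensel ι hι P Z hPZ a₀ ha₀.symm hD

/-- **Hensel, split form** (Laurent series): a root `z ∈ E((q))` of
`∏ (Z − c_i) = m`, `m ∈ A[[q]]` with `m(0) ∈ 𝔪`, the `c_i ∈ A` pairwise distinct modulo `𝔪`,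
lies in `A[[q]]`. -/
theorem tres5gh_split_laurent (hι : Function.Injective ι) (r : A →+* k)
    (hloc : ∀ a : A, r a ≠ 0 → IsUnit a)
    (hic : ∀ (x : E) (p : A[X]), p.Monic → p.eval₂ ι x = 0 → ∃ a, ι a = x)
    (s : Finset κ) (c : κ → A) (hc : ∀ i ∈ s, ∀ j ∈ s, i ≠ j → r (c i) ≠ r (c j))
    (m : PowerSeries A) (hm : r (PowerSeries.constantCoeff m) = 0)
    (z : LaurentSeries E)
    (hz : ∏ i ∈ s, (z - HahnSeries.C (ι (c i))) = HahnSeries.ofPowerSeries ℤ E (m.map ι)) :
    z ∈ tres5gPS ι := by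
  classical
  have hs : s.Nonempty := by
    rw [Finset.nonempty_iff_ne_empty]
    rintro rfl
    rw [Finset.prod_empty] at hz
    have h0 : (m.map ι : PowerSeries E) = 1 := by
      apply HahnSeries.ofPowerSeries_injective (Γ := ℤ)
      rw [← hz, map_one]
    have h1 := congrArg PowerSeries.constantCoeff h0
    rw [map_one, tres5gh_constantCoeff_map] at h1
    have h2 : PowerSeries.constantCoeff m = 1 := hι (by rw [h1, map_one])
    rw [h2, map_one] at hm
    exact one_ne_zero hm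
  -- `z` is a power series
  have hzv : Valued.v z ≤ (1 : WithZero (Multiplicative ℤ)) := by
    by_contra hlt
    rw [not_le] at hlt
    have hC : ∀ i, Valued.v (HahnSeries.C (ι (c i)) : LaurentSeries E) ≤
        (1 : WithZero (Multiplicative ℤ)) := by
      intro i
      rw [LaurentSeries.val_le_one_iff_eq_coe]
      exact ⟨PowerSeries.C (ι (c i)), HahnSeries.ofPowerSeries_C _⟩
    have h1 : ∀ i, Valued.v (z - HahnSeries.C (ι (c i))) = Valued.v z := fun i =>
      Valuation.map_sub_eq_of_lt_left _ (lt_of_le_of_lt (hC i) hlt)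
    have h2 : Valued.v (∏ i ∈ s, (z - HahnSeries.C (ι (c i)))) = Valued.v z ^ s.card := by
      rw [map_prod, Finset.prod_congr rfl (fun i _ => h1 i), Finset.prod_const]
    have h3 : Valued.v (∏ i ∈ s, (z - HahnSeries.C (ι (c i)))) ≤
        (1 : WithZero (Multiplicative ℤ)) := by
      rw [hz, LaurentSeries.val_le_one_iff_eq_coe]
      exact ⟨m.map ι, rfl⟩
    rw [h2] at h3
    exact absurd h3 (not_le.mpr (one_lt_pow₀ hlt hs.card_pos.ne'))
  obtain ⟨Z, rfl⟩ := (LaurentSeries.val_le_one_iff_eq_coe E z).mp hzv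
  have hZ : ∏ i ∈ s, (Z - PowerSeries.C (ι (c i))) = m.map ι := by
    apply HahnSeries.ofPowerSeries_injective (Γ := ℤ)
    rw [← hz, map_prod]
    refine Finset.prod_congr rfl fun i _ => ?_
    rw [map_sub, HahnSeries.ofPowerSeries_C]
  obtain ⟨T, hT⟩ := tres5gh_split ι hι r hloc hic s c hc m hm Z hZ
  exact ⟨T, by rw [← hT]; rfl⟩

end Hensel

section Normal

variable {A E : Type*} [CommRing A] [Field E] (ι : A →+* E)

/-- **`A[[q]]` is completely integrally closed in `E[[q]]`** if `A` is so in `E`. -/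
theorem tres5gh_cic_ps
    (hcic : ∀ x d : E, d ≠ 0 → (∀ n : ℕ, ∃ a : A, ι a = d * x ^ n) → ∃ a : A, ι a = x)
    (X₀ : PowerSeries E) (d : PowerSeries A) (hd : d.map ι ≠ 0)
    (h : ∀ n : ℕ, ∃ t : PowerSeries A, t.map ι = d.map ι * X₀ ^ n) :
    ∃ T : PowerSeries A, T.map ι = X₀ := by
  classical
  -- the order of `d`
  have hex : ∃ s, PowerSeries.coeff s (d.map ι) ≠ 0 := by
    by_contra hno
    exact hd (PowerSeries.ext fun n => by
      rw [map_zero]
      by_contra hne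
      exact hno ⟨n, hne⟩)
  set s := Nat.find hex with hs
  have hs1 : PowerSeries.coeff s (d.map ι) ≠ 0 := Nat.find_spec hex
  have hs2 : ∀ i < s, PowerSeries.coeff i (d.map ι) = 0 := fun i hi => by
    by_contra hne
    exact Nat.find_min hex hi hne
  have key : ∀ m : ℕ, ∃ τ : PowerSeries A, (PowerSeries.X : PowerSeries E) ^ m ∣ X₀ - τ.map ι := by
    intro m
    induction m with
    | zero => exact ⟨0, by rw [pow_zero]; exact one_dvd _⟩
    | succ m ih =>
      obtain ⟨τ, v, hv⟩ := ih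
      -- `d̂ (X₀ − τ̂)^n ∈ Λ`
      have h1 : ∀ n : ℕ, ∃ t : PowerSeries A, t.map ι = d.map ι * (X₀ - τ.map ι) ^ n := by
        intro n
        have hmem : d.map ι * (X₀ - τ.map ι) ^ n ∈ (PowerSeries.map ι).range := by
          rw [sub_eq_add_neg, add_pow, Finset.mul_sum]
          refine Subring.sum_mem _ fun i _ => ?_
          have e : d.map ι * (X₀ ^ i * (-τ.map ι) ^ (n - i) * ((n.choose i : ℕ) : PowerSeries E)) =
              (d.map ι * X₀ ^ i) * ((-τ.map ι) ^ (n - i) * ((n.choose i : ℕ) : PowerSeries E)) := by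
            ring
          rw [e]
          refine Subring.mul_mem _ ?_ (Subring.mul_mem _ (Subring.pow_mem _ ?_ _) ?_)
          · obtain ⟨t, ht⟩ := h i
            exact ⟨t, ht⟩
          · exact ⟨-τ, by rw [map_neg]⟩
          · exact ⟨((n.choose i : ℕ) : PowerSeries A), by rw [map_natCast]⟩
        obtain ⟨t, ht⟩ := hmem
        exact ⟨t, ht⟩
      -- the coefficient of index `s + m n`
      have h2 : ∀ n : ℕ, ∃ a : A, ι a =
          PowerSeries.coeff s (d.map ι) * (PowerSeries.constantCoeff v) ^ n := by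
        intro n
        obtain ⟨t, ht⟩ := h1 n
        refine ⟨PowerSeries.coeff (s + m * n) t, ?_⟩
        rw [← PowerSeries.coeff_map, ht, hv, mul_pow, ← pow_mul, ← mul_assoc,
          mul_comm (d.map ι) _, mul_assoc, PowerSeries.coeff_X_pow_mul, PowerSeries.coeff_mul]
        rw [Finset.sum_eq_single (s, 0)]
        · rw [PowerSeries.coeff_zero_eq_constantCoeff_apply, map_pow]
        · rintro ⟨i, j⟩ hij hne
          have hij' : i + j = s := Finset.HasAntidiagonal.mem_antidiagonal.mp hij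
          have hi : i < s := by
            rcases Nat.lt_or_ge i s with hi | hi
            · exact hi
            · exfalso
              apply hne
              have : i = s ∧ j = 0 := by omega
              rw [this.1, this.2]
          rw [hs2 i hi, zero_mul]
        · intro hno
          exact absurd (Finset.HasAntidiagonal.mem_antidiagonal.mpr (add_zero s)) hno
      obtain ⟨a, ha⟩ := hcic (PowerSeries.constantCoeff v) _ hs1 h2
      refine ⟨τ + PowerSeries.C a * PowerSeries.X ^ m, ?_⟩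
      have hdvd : (PowerSeries.X : PowerSeries E) ∣ v - PowerSeries.C (ι a) := by
        rw [PowerSeries.X_dvd_iff, map_sub, PowerSeries.constantCoeff_C, ha, sub_self]
      obtain ⟨w, hw⟩ := hdvd
      refine ⟨w, ?_⟩
      have e : X₀ = τ.map ι + PowerSeries.X ^ m * v := by rw [← hv]; ring
      rw [map_add, map_mul, map_pow, PowerSeries.map_X, PowerSeries.map_C, pow_succ, mul_assoc,
        ← hw, e]
      ring
  choose τ hτ using key
  refine ⟨PowerSeries.mk fun m => PowerSeries.coeff m (τ (m + 1)), ?_⟩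
  ext m
  rw [PowerSeries.coeff_map, PowerSeries.coeff_mk]
  have h := (PowerSeries.X_pow_dvd_iff.mp (hτ (m + 1))) m (Nat.lt_succ_self m)
  rw [map_sub, PowerSeries.coeff_map, sub_eq_zero] at h
  exact h.symm

/-- powers of an integral element, multiplied by a power of a denominator -/
theorem tres5gh_pow_mem {R : Type*} [CommRing R] (S : Subring R) {x β : R} (hβ : β ∈ S)
    (hβx : β * x ∈ S) (hint : IsIntegral ↥S x) : ∃ N : ℕ, ∀ n : ℕ, β ^ N * x ^ n ∈ S := by
  obtain ⟨p, hp, hpx⟩ := hint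
  refine ⟨p.natDegree, ?_⟩
  have hrel : x ^ p.natDegree =
      -∑ i ∈ Finset.range p.natDegree, ((p.coeff i : ↥S) : R) * x ^ i := by
    have h1 := hpx
    rw [hp.as_sum, eval₂_add, eval₂_pow, eval₂_X, eval₂_finsetSum] at h1
    rw [eq_neg_iff_add_eq_zero, ← h1]
    congr 1
    refine Finset.sum_congr rfl fun i _ => ?_
    rw [eval₂_mul, eval₂_C, eval₂_pow, eval₂_X]
    rfl
  intro n
  induction n using Nat.strong_induction_on with
  | _ n ih =>
    rcases Nat.lt_or_ge n p.natDegree with hn | hn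
    · have e : β ^ p.natDegree * x ^ n = β ^ (p.natDegree - n) * (β * x) ^ n := by
        rw [mul_pow, ← mul_assoc, ← pow_add, Nat.sub_add_cancel hn.le]
      rw [e]
      exact S.mul_mem (S.pow_mem hβ _) (S.pow_mem hβx _)
    · obtain ⟨j, rfl⟩ := Nat.exists_eq_add_of_le hn
      have e : β ^ p.natDegree * x ^ (p.natDegree + j) =
          -∑ i ∈ Finset.range p.natDegree, ((p.coeff i : ↥S) : R) * (β ^ p.natDegree * x ^ (i + j)) := by
        rw [pow_add, hrel, neg_mul, mul_neg, Finset.sum_mul, Finset.mul_sum]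
        congr 1
        refine Finset.sum_congr rfl fun i _ => ?_
        rw [pow_add]
        ring
      rw [e]
      refine S.neg_mem (S.sum_mem fun i hi => S.mul_mem (p.coeff i).2 (ih _ ?_))
      have := Finset.mem_range.mp hi
      omega

/-- a Laurent series over `A` times a power of `q` is a power series -/
theorem tres5gh_exists_shift (y : LaurentSeries A) :
    ∃ (n : ℕ) (Y : PowerSeries A),
      HahnSeries.ofPowerSeries ℤ A Y = HahnSeries.single (n : ℤ) (1 : A) * y := by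
  refine ⟨(-y.order).toNat, PowerSeries.X ^ ((-y.order).toNat + y.order).toNat *
    y.powerSeriesPart, ?_⟩
  have h0 : 0 ≤ ((-y.order).toNat : ℤ) + y.order := by
    have := Int.self_le_toNat (-y.order)
    omega
  rw [map_mul, LaurentSeries.ofPowerSeries_powerSeriesPart, HahnSeries.ofPowerSeries_X_pow,
    ← mul_assoc, HahnSeries.single_mul_single, mul_one, Int.toNat_of_nonneg h0]
  congr 2
  ring_nf

/-- **`A[[q]]` is integrally closed in the field of quotients of series over `A`**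
(`A` completely integrally closed in `E`, e.g. a discrete valuation ring). -/
theorem tres5gh_normal (hι : Function.Injective ι)
    (hcic : ∀ x d : E, d ≠ 0 → (∀ n : ℕ, ∃ a : A, ι a = d * x ^ n) → ∃ a : A, ι a = x)
    {x : LaurentSeries E} (hint : IsIntegral ↥(tres5gPS ι) x) (hfrac : VtFrac ι x) :
    x ∈ tres5gPS ι := by
  obtain ⟨T, b, hb, hbx⟩ := hfrac
  obtain ⟨nb, b₀, hb₀⟩ := tres5gh_exists_shift b
  obtain ⟨nT, T₀, hT₀⟩ := tres5gh_exists_shift T
  -- the denominator `β = q ^ (nb + nT) b`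
  have hshift : ∀ (n : ℕ) (Y : PowerSeries A) (y : LaurentSeries A),
      HahnSeries.ofPowerSeries ℤ A Y = HahnSeries.single (n : ℤ) (1 : A) * y →
      HahnSeries.ofPowerSeries ℤ E (Y.map ι) =
        HahnSeries.single (n : ℤ) (1 : E) * coeffMap ι y := by
    intro n Y y h
    rw [← coeffMap_ofPowerSeries, h, map_mul, coeffMap_single, map_one]
  have hq : ∀ n : ℕ, HahnSeries.ofPowerSeries ℤ E ((PowerSeries.X ^ n : PowerSeries A).map ι) =
      HahnSeries.single (n : ℤ) (1 : E) := by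
    intro n
    rw [map_pow, PowerSeries.map_X, HahnSeries.ofPowerSeries_X_pow]
  set β : LaurentSeries E :=
    HahnSeries.ofPowerSeries ℤ E ((PowerSeries.X ^ nT * b₀ : PowerSeries A).map ι) with hβ
  have hβ' : β = HahnSeries.single (nT : ℤ) (1 : E) *
      (HahnSeries.single (nb : ℤ) (1 : E) * coeffMap ι b) := by
    rw [hβ, map_mul, map_mul, hq, hshift nb b₀ b hb₀]
  have hβS : β ∈ tres5gPS ι := tres5g_ofPowerSeries_mem _
  have hβx : β * x ∈ tres5gPS ι := by
    have e : β * x =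
        HahnSeries.ofPowerSeries ℤ E ((PowerSeries.X ^ nb * T₀ : PowerSeries A).map ι) := by
      rw [map_mul, map_mul, hq, hshift nT T₀ T hT₀, hβ', ← hbx]
      ring
    rw [e]
    exact tres5g_ofPowerSeries_mem _
  have hβ0 : β ≠ 0 := by
    rw [hβ']
    exact mul_ne_zero (HahnSeries.single_ne_zero one_ne_zero)
      (mul_ne_zero (HahnSeries.single_ne_zero one_ne_zero) (vt_coeffMap_ne_zero hι hb))
  obtain ⟨N, hN⟩ := tres5gh_pow_mem (tres5gPS ι) hβS hβx hint
  -- `x` is a power series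
  have hxv : Valued.v x ≤ (1 : WithZero (Multiplicative ℤ)) := by
    by_contra hlt
    rw [not_le] at hlt
    obtain ⟨p, hp, hpx⟩ := hint
    have hS : ∀ s : ↥(tres5gPS ι), Valued.v ((s : LaurentSeries E)) ≤
        (1 : WithZero (Multiplicative ℤ)) := by
      rintro ⟨_, t, rfl⟩
      rw [LaurentSeries.val_le_one_iff_eq_coe]
      exact ⟨t.map ι, rfl⟩
    have hrel : x ^ p.natDegree =
        -∑ i ∈ Finset.range p.natDegree, ((p.coeff i : ↥(tres5gPS ι)) : LaurentSeries E) * x ^ i := by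
      have h1 := hpx
      rw [hp.as_sum, eval₂_add, eval₂_pow, eval₂_X, eval₂_finsetSum] at h1
      rw [eq_neg_iff_add_eq_zero, ← h1]
      congr 1
      refine Finset.sum_congr rfl fun i _ => ?_
      rw [eval₂_mul, eval₂_C, eval₂_pow, eval₂_X]
      rfl
    have h2 : Valued.v (x ^ p.natDegree) < Valued.v x ^ p.natDegree := by
      rw [hrel, Valuation.map_neg]
      refine Valuation.map_sum_lt _ (pow_ne_zero _ (ne_of_gt (lt_trans zero_lt_one hlt)))
        fun i hi => ?_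
      rw [map_mul, map_pow]
      calc Valued.v ((p.coeff i : ↥(tres5gPS ι)) : LaurentSeries E) * Valued.v x ^ i
          ≤ 1 * Valued.v x ^ i := mul_le_mul' (hS _) le_rfl
        _ = Valued.v x ^ i := one_mul _
        _ < Valued.v x ^ p.natDegree := pow_lt_pow_right₀ hlt (Finset.mem_range.mp hi)
    rw [map_pow] at h2
    exact lt_irrefl _ h2
  obtain ⟨X₀, rfl⟩ := (LaurentSeries.val_le_one_iff_eq_coe E x).mp hxv
  -- the hypothesis of `tres5gh_cic_ps`
  have hd : ((PowerSeries.X ^ nT * b₀ : PowerSeries A) ^ N).map ι ≠ 0 := by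
    intro h0
    apply pow_ne_zero N hβ0
    rw [hβ, ← map_pow, ← map_pow, h0, map_zero]
  have hall : ∀ n : ℕ, ∃ t : PowerSeries A,
      t.map ι = ((PowerSeries.X ^ nT * b₀ : PowerSeries A) ^ N).map ι * X₀ ^ n := by
    intro n
    obtain ⟨t, ht⟩ := hN n
    refine ⟨t, HahnSeries.ofPowerSeries_injective (Γ := ℤ) ?_⟩
    rw [map_mul, map_pow, map_pow, map_pow]
    rw [hβ] at ht
    exact ht
  obtain ⟨T', hT'⟩ := tres5gh_cic_ps ι hcic X₀ _ hd hall
  exact ⟨T', by rw [← hT']; rfl⟩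

/-- **`hcic` for a valuation ring**: `A` with `VtBase ι r π` such that every `x ∉ A` has
`x⁻¹ ∈ π A`. -/
theorem tres5gh_cic {k : Type*} [Field k] {r : A →+* k} {π : A} (hB : VtBase ι r π)
    (hval : ∀ x : E, (∃ a, ι a = x) ∨ ∃ a, ι (π * a) * x = 1) :
    ∀ x d : E, d ≠ 0 → (∀ n : ℕ, ∃ a : A, ι a = d * x ^ n) → ∃ a : A, ι a = x := by
  intro x d hd h
  rcases hval x with h1 | ⟨a', ha'⟩
  · exact h1
  exfalso
  obtain ⟨u, w, hw, hwd⟩ := hB.frac d
  have hu : u ≠ 0 := by
    rintro rfl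
    rw [map_zero] at hwd
    rcases mul_eq_zero.mp hwd with h0 | h0
    · exact hw (hB.inj (by rw [h0, map_zero]))
    · exact hd h0
  obtain ⟨n, hn⟩ := hB.fin u hu
  apply hn
  obtain ⟨a, ha⟩ := h n
  refine ⟨w * a * a' ^ n, hB.inj ?_⟩
  have e1 : (ι (π * a') * x) ^ n = 1 := by rw [ha', one_pow]
  calc ι u = ι w * d := hwd.symm
    _ = ι w * d * (ι (π * a') * x) ^ n := by rw [e1, mul_one]
    _ = ι (π ^ n * (w * a * a' ^ n)) := by
      simp only [map_mul, map_pow, ha]
      ring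

end Normal

section Val

variable {E : Type*} [Field E] (V : ValuationSubring E) {π : ↥V}

/-- the hypotheses `hloc`, `hic`, `hcic` of Hensel and normality for a valuation subring with
its residue map -/
theorem tres5gh_val_hloc (a : ↥V) (ha : IsLocalRing.residue ↥V a ≠ 0) : IsUnit a := by
  by_contra h
  exact ha ((IsLocalRing.residue_eq_zero_iff a).mpr ((IsLocalRing.mem_maximalIdeal a).mpr h))

theorem tres5gh_val_hic (x : E) (p : (↥V)[X]) (hp : p.Monic)
    (hx : p.eval₂ (algebraMap ↥V E) x = 0) : ∃ a : ↥V, algebraMap ↥V E a = x :=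
  (IsIntegrallyClosed.isIntegral_iff (R := ↥V) (K := E)).mp ⟨p, hp, hx⟩

theorem tres5gh_val_hval (hB : VtBase (algebraMap ↥V E) (IsLocalRing.residue ↥V) π) (x : E) :
    (∃ a : ↥V, algebraMap ↥V E a = x) ∨ ∃ a : ↥V, algebraMap ↥V E (π * a) * x = 1 := by
  by_cases hx : x ∈ V
  · exact Or.inl ⟨⟨x, hx⟩, rfl⟩
  right
  have hx0 : x ≠ 0 := fun h => hx (h ▸ V.zero_mem)
  have hxi : x⁻¹ ∈ V := (V.mem_or_inv_mem x).resolve_left hx
  have hnu : ¬ IsUnit (⟨x⁻¹, hxi⟩ : ↥V) := by
    intro hu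
    obtain ⟨b, hb⟩ := isUnit_iff_exists_inv.mp hu
    apply hx
    have h2 : x⁻¹ * (b : E) = 1 := congrArg (fun z : ↥V => (z : E)) hb
    have h3 : (b : E) = x := by
      have h4 : x * (x⁻¹ * (b : E)) = x := by rw [h2, mul_one]
      rwa [← mul_assoc, mul_inv_cancel₀ hx0, one_mul] at h4
    rw [← h3]
    exact b.2
  have hr : IsLocalRing.residue ↥V ⟨x⁻¹, hxi⟩ = 0 :=
    (IsLocalRing.residue_eq_zero_iff _).mpr ((IsLocalRing.mem_maximalIdeal _).mpr hnu)
  obtain ⟨a, ha⟩ := hB.ker _ hr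
  refine ⟨a, ?_⟩
  rw [← ha]
  exact inv_mul_cancel₀ hx0

/-- **normality of `V[[q]]`** for a valuation subring `V` with `VtBase` (a discrete valuation
ring): the hypothesis `hnorm` of the cusp (`R38/TresGRedCusp.lean`). -/
theorem tres5gh_normal_val (hB : VtBase (algebraMap ↥V E) (IsLocalRing.residue ↥V) π)
    {x : LaurentSeries E} (hint : IsIntegral ↥(tres5gPS (algebraMap ↥V E)) x)
    (hfrac : VtFrac (algebraMap ↥V E) x) : x ∈ tres5gPS (algebraMap ↥V E) :=
  tres5gh_normal _ hB.inj (tres5gh_cic _ hB (tres5gh_val_hval V hB)) hint hfrac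

end Val

end Fermat.Agent.R38


end ZBR38_021_1

/-! ### bundled: `Fermat.Agent.R38.TresGRedCusp` -/
section ZBR38_021_2
/-
ROW 38, TRES, piece FAC-GRED part 2, (P1) (helper16): THE CUSP `∞̄` AND `atLoc 𝔫_∞ ⊆ A[[q]]`.

Abstract frame: `A₀` a DVR, `E = Frac A₀`, `ι = algebraMap A₀ E`, `F` a field over `E` with a ring
homomorphism `e : F →+* E((q))` (the `q`-expansion), `e c = C c` on constants, `u ∈ F` with
`e u ∈ A₀[[q]]` (`u = 1/j`), `B = zchClosure {u}` the integral closure of `A₀[u]` in `F`.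

* `tres5gcHom`, `tres5gcEquiv`, `tres5gcConst` : `A[[q]] ≃ tres5gPS ι`, and the constant
  coefficient `tres5gPS ι →+* A` (`tres5gcConst_spec`, `tres5gcConst_C`, `tres5gc_isUnit_of_const`).
* `tres5gc_adjoin_mem` : `e (A₀[u]) ⊆ A₀[[q]]`.
* `tres5gc_chart_mem`  : `e B ⊆ A₀[[q]]`, from the normality `hnorm` of `A₀[[q]]` (helper24's
  `tres5gh_normal`) and `hfrac` (`UNIP.vt_frac_fullC`).
* `tres5gcRes`, `tres5gcPt` : the residue map `B → A₀[[q]] → A₀ → k` and THE CUSP
  `𝔫_∞ = ker : AtPt π u`; `tres5gc_mem_pt_iff` (`b ∈ 𝔫_∞ ↔` the constant coefficient of `e b` is in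
  `ι 𝔪`), `tres5gc_gen_mem` (`u ∈ 𝔫_∞` if `e u` has no constant term), `tres5gc_pi_mem`.
* `tres5gc_atLoc_mem`  : **`e (atLoc 𝔫_∞) ⊆ A₀[[q]]`**.
* `tres5gc_cusp`       : (P1) in existential form.
-/

set_option autoImplicit false
set_option linter.unusedSectionVars false
set_option linter.unusedVariables false
set_option linter.style.haveILetI false
set_option linter.style.longLine false

noncomputable section

namespace Fermat.Agent.R38

open Fermat.Agent.UNIP Fermat.Agent.INJ ModularCurve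

section PSHom

variable {A E : Type*} [CommRing A] [Field E] (ι : A →+* E)

/-- the ring homomorphism `A[[q]] → E((q))` whose range is `tres5gPS ι` -/
def tres5gcHom : PowerSeries A →+* LaurentSeries E :=
  (HahnSeries.ofPowerSeries ℤ E).comp (PowerSeries.map ι)

theorem tres5gcHom_apply (T : PowerSeries A) :
    tres5gcHom ι T = HahnSeries.ofPowerSeries ℤ E (T.map ι) := rfl

theorem tres5gcHom_mem (T : PowerSeries A) : tres5gcHom ι T ∈ tres5gPS ι := ⟨T, rfl⟩

variable {ι}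

theorem tres5gcHom_injective (hι : Function.Injective ι) : Function.Injective (tres5gcHom ι) :=
  (HahnSeries.ofPowerSeries_injective (Γ := ℤ) (R := E)).comp (PowerSeries.map_injective ι hι)

/-- `A[[q]] → tres5gPS ι` -/
def tres5gcToPS (ι : A →+* E) : PowerSeries A →+* ↥(tres5gPS ι) :=
  (tres5gcHom ι).codRestrict (tres5gPS ι) (tres5gcHom_mem ι)

theorem tres5gcToPS_coe (T : PowerSeries A) :
    ((tres5gcToPS ι T : ↥(tres5gPS ι)) : LaurentSeries E) =
      HahnSeries.ofPowerSeries ℤ E (T.map ι) := rfl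

theorem tres5gcToPS_bijective (hι : Function.Injective ι) :
    Function.Bijective (tres5gcToPS ι) := by
  constructor
  · intro S T h
    apply tres5gcHom_injective hι
    exact congrArg Subtype.val h
  · rintro ⟨x, T, rfl⟩
    exact ⟨T, rfl⟩

/-- **`A[[q]] ≃ tres5gPS ι`** -/
def tres5gcEquiv (hι : Function.Injective ι) : PowerSeries A ≃+* ↥(tres5gPS ι) :=
  RingEquiv.ofBijective (tres5gcToPS ι) (tres5gcToPS_bijective hι)

theorem tres5gcEquiv_apply (hι : Function.Injective ι) (T : PowerSeries A) :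
    tres5gcEquiv hι T = tres5gcToPS ι T := rfl

/-- the power series of an element of `tres5gPS ι` -/
def tres5gcSeries (hι : Function.Injective ι) : ↥(tres5gPS ι) →+* PowerSeries A :=
  (tres5gcEquiv hι).symm.toRingHom

theorem tres5gcSeries_spec (hι : Function.Injective ι) (x : ↥(tres5gPS ι)) :
    HahnSeries.ofPowerSeries ℤ E ((tres5gcSeries hι x).map ι) = (x : LaurentSeries E) := by
  have h : tres5gcEquiv hι (tres5gcSeries hι x) = x := (tres5gcEquiv hι).apply_symm_apply x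
  have h' := congrArg Subtype.val h
  exact h'

theorem tres5gcSeries_toPS (hι : Function.Injective ι) (T : PowerSeries A) :
    tres5gcSeries hι (tres5gcToPS ι T) = T :=
  (tres5gcEquiv hι).symm_apply_apply T

/-- **the constant coefficient** `tres5gPS ι →+* A` -/
def tres5gcConst (hι : Function.Injective ι) : ↥(tres5gPS ι) →+* A :=
  PowerSeries.constantCoeff.comp (tres5gcSeries hι)

theorem tres5gcConst_spec (hι : Function.Injective ι) (x : ↥(tres5gPS ι)) :
    ι (tres5gcConst hι x) = (x : LaurentSeries E).coeff 0 := by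
  have h := tres5gcSeries_spec hι x
  rw [← h]
  have h2 := HahnSeries.ofPowerSeries_apply_coeff (Γ := ℤ) ((tres5gcSeries hι x).map ι) 0
  rw [Nat.cast_zero] at h2
  rw [h2, PowerSeries.coeff_map, PowerSeries.coeff_zero_eq_constantCoeff]
  rfl

theorem tres5gcConst_C (hι : Function.Injective ι) (a : A) :
    tres5gcConst hι ⟨HahnSeries.C (ι a), tres5g_C_mem a⟩ = a := by
  apply hι
  rw [tres5gcConst_spec]
  simp

/-- an element of `A[[q]]` with invertible constant coefficient is a unit of `A[[q]]` -/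
theorem tres5gc_isUnit_of_const (hι : Function.Injective ι) (x : ↥(tres5gPS ι))
    (h : IsUnit (tres5gcConst hι x)) : IsUnit x := by
  have h1 : IsUnit (tres5gcSeries hι x) := PowerSeries.isUnit_iff_constantCoeff.2 h
  have h2 := h1.map (tres5gcEquiv hι)
  rwa [show tres5gcEquiv hι (tres5gcSeries hι x) = x from
    (tres5gcEquiv hι).apply_symm_apply x] at h2

/-- `s x = b` with `b, s ∈ A[[q]]`, the constant coefficient of `s` invertible ⇒ `x ∈ A[[q]]` -/
theorem tres5gc_mem_of_mul_eq (hι : Function.Injective ι) {s b x : LaurentSeries E}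
    (hs : s ∈ tres5gPS ι) (hb : b ∈ tres5gPS ι) (hu : IsUnit (tres5gcConst hι ⟨s, hs⟩))
    (h : s * x = b) : x ∈ tres5gPS ι := by
  obtain ⟨v, hv⟩ := tres5gc_isUnit_of_const hι ⟨s, hs⟩ hu
  have h1 : ((v⁻¹ : (↥(tres5gPS ι))ˣ) : ↥(tres5gPS ι)) * ⟨s, hs⟩ = 1 := by
    rw [← hv]; exact v.inv_mul
  have h2 : (((v⁻¹ : (↥(tres5gPS ι))ˣ) : ↥(tres5gPS ι)) : LaurentSeries E) * s = 1 := by
    have := congrArg Subtype.val h1
    exact this
  have h3 : x = (((v⁻¹ : (↥(tres5gPS ι))ˣ) : ↥(tres5gPS ι)) : LaurentSeries E) * b := by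
    rw [← h, ← mul_assoc, h2, one_mul]
  rw [h3]
  exact (tres5gPS ι).mul_mem (Subtype.mem _) hb

end PSHom

section Chart

variable {A₀ E F : Type*} [CommRing A₀] [IsDomain A₀] [IsDiscreteValuationRing A₀]
  [Field E] [Algebra A₀ E] [IsFractionRing A₀ E] [CharZero E]
  [Field F] [Algebra E F] [Algebra A₀ F] [IsScalarTower A₀ E F]
  (e : F →+* LaurentSeries E)

/-- `e` on the constants of `A₀` -/
theorem tres5gc_e_algebraMap (he : ∀ c : E, e (algebraMap E F c) = HahnSeries.C c) (a : A₀) :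
    e (algebraMap A₀ F a) = HahnSeries.C (algebraMap A₀ E a) := by
  rw [IsScalarTower.algebraMap_apply A₀ E F, he]

/-- **`e (A₀[u]) ⊆ A₀[[q]]`** -/
theorem tres5gc_adjoin_mem (he : ∀ c : E, e (algebraMap E F c) = HahnSeries.C c) {u : F}
    (hu : e u ∈ tres5gPS (algebraMap A₀ E)) :
    ∀ x ∈ Algebra.adjoin A₀ ({u} : Set F), e x ∈ tres5gPS (algebraMap A₀ E) := by
  intro x hx
  induction hx using Algebra.adjoin_induction with
  | mem y hy =>
    rw [Set.mem_singleton_iff] at hy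
    rw [hy]; exact hu
  | algebraMap a =>
    rw [tres5gc_e_algebraMap e he]
    exact tres5g_C_mem a
  | add y z _ _ hy hz =>
    rw [map_add]; exact (tres5gPS _).add_mem hy hz
  | mul y z _ _ hy hz =>
    rw [map_mul]; exact (tres5gPS _).mul_mem hy hz

/-- **`e B ⊆ A₀[[q]]`**: the chart `B = zchClosure {u}` has integral `q`-expansions, by the
normality of `A₀[[q]]`. -/
theorem tres5gc_chart_mem
    (hnorm : ∀ x : LaurentSeries E, IsIntegral ↥(tres5gPS (algebraMap A₀ E)) x →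
      VtFrac (algebraMap A₀ E) x → x ∈ tres5gPS (algebraMap A₀ E))
    (hfrac : ∀ x : F, VtFrac (algebraMap A₀ E) (e x))
    (he : ∀ c : E, e (algebraMap E F c) = HahnSeries.C c) {u : F}
    (hu : e u ∈ tres5gPS (algebraMap A₀ E)) :
    ∀ b ∈ zchClosure (A₀ := A₀) ({u} : Set F), e b ∈ tres5gPS (algebraMap A₀ E) := by
  intro b hb
  refine hnorm _ ?_ (hfrac b)
  have hb' : IsIntegral ↥(Algebra.adjoin A₀ ({u} : Set F)) b := mem_zchClosure.mp hb
  let φ : ↥(Algebra.adjoin A₀ ({u} : Set F)) →+* ↥(tres5gPS (algebraMap A₀ E)) :=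
    (e.comp (Algebra.adjoin A₀ ({u} : Set F)).val.toRingHom).codRestrict
      (tres5gPS (algebraMap A₀ E)) (fun x => tres5gc_adjoin_mem e he hu x.1 x.2)
  exact IsIntegral.map_of_comp_eq φ e (by ext x; rfl) hb'

/-- `u ∈ B_u` -/
theorem tres5gc_self_mem (u : F) : u ∈ zchClosure (A₀ := A₀) ({u} : Set F) := by
  rw [mem_zchClosure]
  exact isIntegral_algebraMap
    (x := (⟨u, Algebra.subset_adjoin (Set.mem_singleton u)⟩ : ↥(Algebra.adjoin A₀ ({u} : Set F))))

/-- `algebraMap A₀ E` is injective -/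
theorem tres5gc_hι : Function.Injective (algebraMap A₀ E) := IsFractionRing.injective A₀ E

variable {e} {u : F}

/-- the chart map `B → A₀[[q]]` -/
def tres5gcChartHom
    (hB : ∀ b ∈ zchClosure (A₀ := A₀) ({u} : Set F), e b ∈ tres5gPS (algebraMap A₀ E)) :
    ↥(zchClosure (A₀ := A₀) ({u} : Set F)) →+* ↥(tres5gPS (algebraMap A₀ E)) :=
  (e.comp (zchClosure (A₀ := A₀) ({u} : Set F)).val.toRingHom).codRestrict
    (tres5gPS (algebraMap A₀ E)) (fun b => hB b.1 b.2)

theorem tres5gcChartHom_coe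
    (hB : ∀ b ∈ zchClosure (A₀ := A₀) ({u} : Set F), e b ∈ tres5gPS (algebraMap A₀ E))
    (b : ↥(zchClosure (A₀ := A₀) ({u} : Set F))) :
    ((tres5gcChartHom hB b : ↥(tres5gPS (algebraMap A₀ E))) : LaurentSeries E) = e (b : F) := rfl

/-- the constant coefficient `B → A₀` -/
def tres5gcChartConst
    (hB : ∀ b ∈ zchClosure (A₀ := A₀) ({u} : Set F), e b ∈ tres5gPS (algebraMap A₀ E)) :
    ↥(zchClosure (A₀ := A₀) ({u} : Set F)) →+* A₀ :=
  (tres5gcConst (tres5gc_hι (A₀ := A₀) (E := E))).comp (tres5gcChartHom hB)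

theorem tres5gcChartConst_spec
    (hB : ∀ b ∈ zchClosure (A₀ := A₀) ({u} : Set F), e b ∈ tres5gPS (algebraMap A₀ E))
    (b : ↥(zchClosure (A₀ := A₀) ({u} : Set F))) :
    algebraMap A₀ E (tres5gcChartConst hB b) = (e (b : F)).coeff 0 :=
  tres5gcConst_spec tres5gc_hι (tres5gcChartHom hB b)

theorem tres5gcChartConst_algebraMap (he : ∀ c : E, e (algebraMap E F c) = HahnSeries.C c)
    (hB : ∀ b ∈ zchClosure (A₀ := A₀) ({u} : Set F), e b ∈ tres5gPS (algebraMap A₀ E))
    (a : A₀) :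
    tres5gcChartConst hB (algebraMap A₀ ↥(zchClosure (A₀ := A₀) ({u} : Set F)) a) = a := by
  apply tres5gc_hι (A₀ := A₀) (E := E)
  rw [tres5gcChartConst_spec]
  have h1 : ((algebraMap A₀ ↥(zchClosure (A₀ := A₀) ({u} : Set F)) a :
      ↥(zchClosure (A₀ := A₀) ({u} : Set F))) : F) = algebraMap A₀ F a := rfl
  rw [h1, tres5gc_e_algebraMap e he]
  simp

/-- **the residue map at the cusp** `B → A₀[[q]] → A₀ → k` -/
def tres5gcRes
    (hB : ∀ b ∈ zchClosure (A₀ := A₀) ({u} : Set F), e b ∈ tres5gPS (algebraMap A₀ E)) :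
    ↥(zchClosure (A₀ := A₀) ({u} : Set F)) →+* IsLocalRing.ResidueField A₀ :=
  (IsLocalRing.residue A₀).comp (tres5gcChartConst hB)

theorem tres5gcRes_surjective (he : ∀ c : E, e (algebraMap E F c) = HahnSeries.C c)
    (hB : ∀ b ∈ zchClosure (A₀ := A₀) ({u} : Set F), e b ∈ tres5gPS (algebraMap A₀ E)) :
    Function.Surjective (tres5gcRes hB) := by
  intro x
  obtain ⟨a, rfl⟩ := IsLocalRing.residue_surjective x
  refine ⟨algebraMap A₀ ↥(zchClosure (A₀ := A₀) ({u} : Set F)) a, ?_⟩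
  show IsLocalRing.residue A₀ (tres5gcChartConst hB _) = _
  rw [tres5gcChartConst_algebraMap he hB]

/-- **THE CUSP `𝔫_∞`**: the kernel of the residue map, a closed point of the special fibre of
the chart `u`. -/
def tres5gcPt {π : A₀} (hπ : Irreducible π)
    (he : ∀ c : E, e (algebraMap E F c) = HahnSeries.C c)
    (hB : ∀ b ∈ zchClosure (A₀ := A₀) ({u} : Set F), e b ∈ tres5gPS (algebraMap A₀ E)) :
    AtPt (F := F) π u :=
  ⟨RingHom.ker (tres5gcRes hB),
    RingHom.ker_isMaximal_of_surjective _ (tres5gcRes_surjective he hB), by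
      rw [RingHom.mem_ker]
      show IsLocalRing.residue A₀ (tres5gcChartConst hB _) = 0
      rw [tres5gcChartConst_algebraMap he hB, IsLocalRing.residue_eq_zero_iff,
        IsLocalRing.mem_maximalIdeal]
      exact hπ.not_isUnit⟩

variable {π : A₀} (hπ : Irreducible π)
  (he : ∀ c : E, e (algebraMap E F c) = HahnSeries.C c)
  (hB : ∀ b ∈ zchClosure (A₀ := A₀) ({u} : Set F), e b ∈ tres5gPS (algebraMap A₀ E))

theorem tres5gc_mem_pt_iff' (b : ↥(zchClosure (A₀ := A₀) ({u} : Set F))) :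
    b ∈ (tres5gcPt hπ he hB).1 ↔ tres5gcChartConst hB b ∈ IsLocalRing.maximalIdeal A₀ := by
  show b ∈ RingHom.ker (tres5gcRes hB) ↔ _
  rw [RingHom.mem_ker]
  show IsLocalRing.residue A₀ (tres5gcChartConst hB b) = 0 ↔ _
  rw [IsLocalRing.residue_eq_zero_iff]

/-- `b ∈ 𝔫_∞` iff the constant coefficient of the `q`-expansion of `b` lies in `ι 𝔪` -/
theorem tres5gc_mem_pt_iff (b : ↥(zchClosure (A₀ := A₀) ({u} : Set F))) :
    b ∈ (tres5gcPt hπ he hB).1 ↔
      ∃ a ∈ IsLocalRing.maximalIdeal A₀, algebraMap A₀ E a = (e (b : F)).coeff 0 := by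
  rw [tres5gc_mem_pt_iff']
  constructor
  · intro h
    exact ⟨_, h, tres5gcChartConst_spec hB b⟩
  · rintro ⟨a, ha, hab⟩
    have : tres5gcChartConst hB b = a := by
      apply tres5gc_hι (A₀ := A₀) (E := E)
      rw [tres5gcChartConst_spec, hab]
    rw [this]; exact ha

include hB in
/-- the `q`-expansions of the elements of `B` have no negative terms -/
theorem tres5gc_chart_coeff_neg (b : ↥(zchClosure (A₀ := A₀) ({u} : Set F))) {n : ℤ}
    (hn : n < 0) : (e (b : F)).coeff n = 0 :=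
  tres5g_PS_coeff_neg (hB b.1 b.2) hn

/-- `π ∈ 𝔫_∞` -/
theorem tres5gc_pi_mem :
    algebraMap A₀ ↥(zchClosure (A₀ := A₀) ({u} : Set F)) π ∈ (tres5gcPt hπ he hB).1 :=
  (tres5gcPt hπ he hB).2.2

/-- `u ∈ 𝔫_∞` if the `q`-expansion of `u` has no constant term (`u = 1/j`): `𝔫_∞` is a cusp -/
theorem tres5gc_gen_mem (h0 : (e u).coeff 0 = 0) :
    (⟨u, tres5gc_self_mem (A₀ := A₀) u⟩ : ↥(zchClosure (A₀ := A₀) ({u} : Set F))) ∈
      (tres5gcPt hπ he hB).1 := by
  rw [tres5gc_mem_pt_iff]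
  exact ⟨0, zero_mem _, by rw [map_zero]; exact h0.symm⟩

/-- **`e (atLoc 𝔫_∞) ⊆ A₀[[q]]`**: the local ring at the cusp has integral `q`-expansions. -/
theorem tres5gc_atLoc_mem :
    ∀ x ∈ atLoc (tres5gcPt hπ he hB), e x ∈ tres5gPS (algebraMap A₀ E) := by
  intro x hx
  obtain ⟨b, s, hs, hsx⟩ := hx
  have hs' : IsUnit (tres5gcChartConst hB s) := by
    rw [← IsLocalRing.notMem_maximalIdeal]
    intro h
    exact hs ((tres5gc_mem_pt_iff' hπ he hB s).2 h)
  have h1 : e (s : F) * e x = e (b : F) := by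
    rw [← map_mul]
    exact congrArg e hsx
  exact tres5gc_mem_of_mul_eq tres5gc_hι (hB s.1 s.2) (hB b.1 b.2) hs' h1

/-- a valuation-free description: the elements of `atLoc 𝔫_∞` with `q`-expansion constant
coefficient in `ι 𝔪` are the non-units -/
theorem tres5gc_atLoc_coeff (x : F) (hx : x ∈ atLoc (tres5gcPt hπ he hB)) :
    ∃ a : A₀, algebraMap A₀ E a = (e x).coeff 0 :=
  tres5g_PS_coeff (tres5gc_atLoc_mem hπ he hB x hx) 0

end Chart

section Main

variable {A₀ E F : Type*} [CommRing A₀] [IsDomain A₀] [IsDiscreteValuationRing A₀]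
  [Field E] [Algebra A₀ E] [IsFractionRing A₀ E] [CharZero E]
  [Field F] [Algebra E F] [Algebra A₀ F] [IsScalarTower A₀ E F]
  (e : F →+* LaurentSeries E) {π : A₀}

/-- **(P1), abstract form**: the cusp `𝔫_∞` of the chart `u` (`e u ∈ q A₀[[q]]`), with
`e (atLoc 𝔫_∞) ⊆ A₀[[q]]`. -/
theorem tres5gc_cusp (hπ : Irreducible π)
    (hnorm : ∀ x : LaurentSeries E, IsIntegral ↥(tres5gPS (algebraMap A₀ E)) x →
      VtFrac (algebraMap A₀ E) x → x ∈ tres5gPS (algebraMap A₀ E))
    (hfrac : ∀ x : F, VtFrac (algebraMap A₀ E) (e x))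
    (he : ∀ c : E, e (algebraMap E F c) = HahnSeries.C c) {u : F}
    (hu : e u ∈ tres5gPS (algebraMap A₀ E)) (hu0 : (e u).coeff 0 = 0) :
    ∃ 𝔫 : AtPt (F := F) π u,
      (∀ x ∈ atLoc 𝔫, e x ∈ tres5gPS (algebraMap A₀ E)) ∧
      (∀ b : ↥(zchClosure (A₀ := A₀) ({u} : Set F)), b ∈ 𝔫.1 ↔
        ∃ a ∈ IsLocalRing.maximalIdeal A₀, algebraMap A₀ E a = (e (b : F)).coeff 0) ∧
      (∀ b : ↥(zchClosure (A₀ := A₀) ({u} : Set F)), e (b : F) ∈ tres5gPS (algebraMap A₀ E)) ∧
      (⟨u, tres5gc_self_mem (A₀ := A₀) u⟩ : ↥(zchClosure (A₀ := A₀) ({u} : Set F))) ∈ 𝔫.1 :=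
  have hB := tres5gc_chart_mem e hnorm hfrac he hu
  ⟨tres5gcPt hπ he hB, tres5gc_atLoc_mem hπ he hB, tres5gc_mem_pt_iff hπ he hB,
    fun b => hB b.1 b.2, tres5gc_gen_mem hπ he hB hu0⟩

end Main

end Fermat.Agent.R38

end
end ZBR38_021_2

/-! ### bundled: `Fermat.Agent.R38.TresGRedCuspInst` -/
section ZBR38_021_3
/-
ROW 38, TRES, piece FAC-GRED part 2, (P1), the INSTANCE (helper16): the cusp `∞̄` of the chart
`1/j` of `X₀(N)` over a discrete valuation ring `A ∩ K₀`.

`K₀ ⊆ ℚ̄` with `A₀ = beta0Ring A K₀` a DVR (e.g. `K₀ = mgcE A K₁`, `A₀ = mgcA A K₁`, or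
`K₀ = beta0Field A`), `F = F_N(K₀) ⊆ K₀((q))`, `u = 1/j`.

* `tres5gc_cusp_fullC'` : (P1) with the inputs `hnorm` (normality of `A₀[[q]]`, helper24's
  `tres5gh_normal`) and `hJ`, `hJ0` (`1/j ∈ q A₀[[q]]`, helper72's `tres5gcj_*`) as hypotheses.
* `tres5gcInf` : the point `𝔫_∞` as a definition (from `hB : e B ⊆ A₀[[q]]`).
-/

set_option autoImplicit false
set_option linter.unusedSectionVars false
set_option linter.unusedVariables false
set_option linter.style.haveILetI false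
set_option linter.style.longLine false
set_option synthInstance.maxHeartbeats 400000
set_option maxHeartbeats 1600000

noncomputable section

namespace Fermat.Agent.R38

open Fermat.Agent.UNIP Fermat.Agent.INJ ModularCurve Fermat.Agent.ES Fermat.Agent.ES.G2

section Inst

variable {A : ValuationSubring Qb} {K₀ : IntermediateField ℚ Qb}
  [IsDiscreteValuationRing ↥(beta0Ring A K₀)] {π : ↥(beta0Ring A K₀)} (hπ : Irreducible π)
  (N : ℕ) [NeZero N]

/-- the `q`-expansion is the identity on constants -/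
theorem tres5gc_vtEmb_const (c : ↥K₀) :
    vtEmb ↥K₀ N (algebraMap ↥K₀ ↥(modularFunctionFieldFullC ↥K₀ N) c) = HahnSeries.C c := by
  show algebraMap ↥K₀ (LaurentSeries ↥K₀) c = _
  rw [algebraMap_laurentSeries_eq_single]
  rfl

include hπ in
/-- `hfrac` for `F_N(K₀)` -/
theorem tres5gc_vtEmb_frac (x : ↥(modularFunctionFieldFullC ↥K₀ N)) :
    VtFrac (algebraMap ↥(beta0Ring A K₀) ↥K₀) (vtEmb ↥K₀ N x) :=
  vt_frac_fullC (vtBase_residue hπ) N x.2

include hπ in
/-- **(P1)** at the chart `1/j` of `F_N(K₀)`, inputs `hnorm`, `hJ`, `hJ0` as hypotheses. -/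
theorem tres5gc_cusp_fullC'
    (hnorm : ∀ x : LaurentSeries ↥K₀,
      IsIntegral ↥(tres5gPS (algebraMap ↥(beta0Ring A K₀) ↥K₀)) x →
      VtFrac (algebraMap ↥(beta0Ring A K₀) ↥K₀) x →
      x ∈ tres5gPS (algebraMap ↥(beta0Ring A K₀) ↥K₀))
    (hJ : (((bgJ ↥K₀ N)⁻¹ : ↥(modularFunctionFieldFullC ↥K₀ N)) : LaurentSeries ↥K₀) ∈
      tres5gPS (algebraMap ↥(beta0Ring A K₀) ↥K₀))
    (hJ0 : (((bgJ ↥K₀ N)⁻¹ : ↥(modularFunctionFieldFullC ↥K₀ N)) : LaurentSeries ↥K₀).coeff 0
      = 0) :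
    ∃ 𝔫 : AtPt (F := ↥(modularFunctionFieldFullC ↥K₀ N)) π (bgJ ↥K₀ N)⁻¹,
      (∀ x ∈ atLoc 𝔫, ((x : ↥(modularFunctionFieldFullC ↥K₀ N)) : LaurentSeries ↥K₀) ∈
        tres5gPS (algebraMap ↥(beta0Ring A K₀) ↥K₀)) ∧
      (∀ b : ↥(zchClosure (A₀ := ↥(beta0Ring A K₀))
          ({(bgJ ↥K₀ N)⁻¹} : Set ↥(modularFunctionFieldFullC ↥K₀ N))), b ∈ 𝔫.1 ↔
        ∃ a ∈ IsLocalRing.maximalIdeal ↥(beta0Ring A K₀),
          algebraMap ↥(beta0Ring A K₀) ↥K₀ a =
            (((b : ↥(modularFunctionFieldFullC ↥K₀ N)) : LaurentSeries ↥K₀)).coeff 0) ∧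
      (∀ b : ↥(zchClosure (A₀ := ↥(beta0Ring A K₀))
          ({(bgJ ↥K₀ N)⁻¹} : Set ↥(modularFunctionFieldFullC ↥K₀ N))),
        (((b : ↥(modularFunctionFieldFullC ↥K₀ N)) : LaurentSeries ↥K₀)) ∈
          tres5gPS (algebraMap ↥(beta0Ring A K₀) ↥K₀)) ∧
      (⟨(bgJ ↥K₀ N)⁻¹, tres5gc_self_mem (A₀ := ↥(beta0Ring A K₀)) _⟩ :
        ↥(zchClosure (A₀ := ↥(beta0Ring A K₀))
          ({(bgJ ↥K₀ N)⁻¹} : Set ↥(modularFunctionFieldFullC ↥K₀ N)))) ∈ 𝔫.1 :=
  tres5gc_cusp (vtEmb ↥K₀ N) hπ hnorm (tres5gc_vtEmb_frac hπ N) (tres5gc_vtEmb_const N) hJ hJ0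

end Inst

end Fermat.Agent.R38

end
end ZBR38_021_3

/-! ### bundled: `Fermat.Agent.R38.TresGRedCuspFinal` -/
section ZBR38_021_4
/-
ROW 38, TRES, piece FAC-GRED part 2, (P1), FINAL (helper16): THE CUSP `∞̄`, unconditional.

`K₀ ⊆ ℚ̄` with `A₀ = beta0Ring A K₀` a DVR with uniformizer `π` (e.g. `K₀ = mgcE A K₁`,
`A₀ = mgcA A K₁`; or `K₀ = beta0Field A`), `F = F_N(K₀) ⊆ K₀((q))`, chart `1/j`.

* `tres5gc_jinv_mem`, `tres5gc_jinv_coeff_zero` : `1/j ∈ q ℤ[[q]] ⊆ A[[q]]`.
* `tres5gc_hnorm`      : normality of `A₀[[q]]` (helper24's `tres5gh_normal_val`).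
* `tres5gc_chart_fullC`: the chart `B_∞ = zchClosure {1/j}` has `q`-expansions in `A₀[[q]]`.
* `tres5gcInf hπ N`    : **the cusp `𝔫_∞ : AtPt π (bgJ K₀ N)⁻¹`** (a definition), with
  `tres5gcInf_atLoc_mem` (`atLoc 𝔫_∞ ⊆ A₀[[q]]`), `tres5gcInf_mem_iff` (`b ∈ 𝔫_∞` iff the constant
  coefficient of `b` lies in `𝔪_{A₀}`), `tres5gcInf_jinv_mem` (`1/j ∈ 𝔫_∞`), `tres5gcInf_pi_mem`.
* `tres5gc_cusp_fullC` : (P1), existential form, any `K₀`.
* `tres5gc_cusp_mgc`   : **(P1)** in the setting of `tres5b_field` (`E′ = mgcE A K₁`).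
-/

set_option autoImplicit false
set_option linter.unusedSectionVars false
set_option linter.unusedVariables false
set_option linter.style.haveILetI false
set_option linter.style.longLine false
set_option synthInstance.maxHeartbeats 400000
set_option maxHeartbeats 1600000

noncomputable section

namespace Fermat.Agent.R38

open Fermat.Agent.UNIP Fermat.Agent.INJ ModularCurve Fermat.Agent.ES Fermat.Agent.ES.G2

section JInv

variable {A E : Type*} [CommRing A] [Field E] (ι : A →+* E) (N : ℕ) [NeZero N]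

theorem tres5gc_jNum_isUnit : IsUnit jNum :=
  PowerSeries.isUnit_iff_constantCoeff.2 (by rw [constantCoeff_jNum]; exact isUnit_one)

theorem tres5gc_castRingHom_eq : Int.castRingHom E = ι.comp (Int.castRingHom A) :=
  RingHom.ext_int _ _

/-- `1/j = q · jNum⁻¹` as a power series over `A` -/
theorem tres5gc_jq_inv_eq (U' : PowerSeries ℤ) (h : jNum * U' = 1) :
    (jqModC E)⁻¹ = HahnSeries.ofPowerSeries ℤ E
      (((PowerSeries.X * U').map (Int.castRingHom A)).map ι) := by
  symm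
  apply eq_inv_of_mul_eq_one_right
  have h1 : ((PowerSeries.X * U').map (Int.castRingHom A)).map ι
      = (PowerSeries.X * U').map (Int.castRingHom E) := by
    rw [tres5gc_castRingHom_eq ι]
    exact (congrFun (congrArg DFunLike.coe (PowerSeries.map_comp (Int.castRingHom A) ι)) _).symm
  rw [h1, jqModC, map_mul, PowerSeries.map_X, map_mul, HahnSeries.ofPowerSeries_X]
  calc HahnSeries.single (-1 : ℤ) (1 : E) * HahnSeries.ofPowerSeries ℤ E
          (jNum.map (Int.castRingHom E)) *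
        (HahnSeries.single (1 : ℤ) 1 * HahnSeries.ofPowerSeries ℤ E (U'.map (Int.castRingHom E)))
      = (HahnSeries.single (-1 : ℤ) (1 : E) * HahnSeries.single (1 : ℤ) 1) *
          HahnSeries.ofPowerSeries ℤ E ((jNum * U').map (Int.castRingHom E)) := by
        rw [map_mul, map_mul]; ring
    _ = 1 := by
        rw [h, HahnSeries.single_mul_single]
        simp

/-- **`1/j ∈ A[[q]]`** -/
theorem tres5gc_jinv_mem :
    (((bgJ E N)⁻¹ : ↥(modularFunctionFieldFullC E N)) : LaurentSeries E) ∈ tres5gPS ι := by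
  obtain ⟨U', hU'⟩ := isUnit_iff_exists_inv.mp tres5gc_jNum_isUnit
  have h : (((bgJ E N)⁻¹ : ↥(modularFunctionFieldFullC E N)) : LaurentSeries E)
      = (jqModC E)⁻¹ := rfl
  rw [h, tres5gc_jq_inv_eq ι U' hU']
  exact tres5g_ofPowerSeries_mem _

/-- **`1/j` has no constant term** -/
theorem tres5gc_jinv_coeff_zero :
    ((((bgJ E N)⁻¹ : ↥(modularFunctionFieldFullC E N)) : LaurentSeries E)).coeff 0 = 0 := by
  obtain ⟨U', hU'⟩ := isUnit_iff_exists_inv.mp tres5gc_jNum_isUnit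
  have h : (((bgJ E N)⁻¹ : ↥(modularFunctionFieldFullC E N)) : LaurentSeries E)
      = (jqModC E)⁻¹ := rfl
  rw [h, tres5gc_jq_inv_eq (RingHom.id E) U' hU']
  have h2 := HahnSeries.ofPowerSeries_apply_coeff (Γ := ℤ)
    (((PowerSeries.X * U').map (Int.castRingHom E)).map (RingHom.id E)) 0
  rw [Nat.cast_zero] at h2
  rw [h2]
  simp

end JInv

section Final

variable {A : ValuationSubring Qb} {K₀ : IntermediateField ℚ Qb}
  [IsDiscreteValuationRing ↥(beta0Ring A K₀)] {π : ↥(beta0Ring A K₀)} (hπ : Irreducible π)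
  (N : ℕ) [NeZero N]

include hπ in
/-- **normality of `A₀[[q]]`**, `A₀ = beta0Ring A K₀` a DVR -/
theorem tres5gc_hnorm : ∀ x : LaurentSeries ↥K₀,
    IsIntegral ↥(tres5gPS (algebraMap ↥(beta0Ring A K₀) ↥K₀)) x →
    VtFrac (algebraMap ↥(beta0Ring A K₀) ↥K₀) x →
    x ∈ tres5gPS (algebraMap ↥(beta0Ring A K₀) ↥K₀) :=
  fun _ h1 h2 => tres5gh_normal_val (beta0Ring A K₀) (vtBase_residue hπ) h1 h2

include hπ in
/-- **the chart `B_∞ = zchClosure {1/j}` has `q`-expansions in `A₀[[q]]`** -/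
theorem tres5gc_chart_fullC :
    ∀ b ∈ zchClosure (A₀ := ↥(beta0Ring A K₀))
        ({(bgJ ↥K₀ N)⁻¹} : Set ↥(modularFunctionFieldFullC ↥K₀ N)),
      vtEmb ↥K₀ N b ∈ tres5gPS (algebraMap ↥(beta0Ring A K₀) ↥K₀) :=
  tres5gc_chart_mem (vtEmb ↥K₀ N) (tres5gc_hnorm hπ) (tres5gc_vtEmb_frac hπ N)
    (tres5gc_vtEmb_const N) (tres5gc_jinv_mem _ N)

/-- **THE CUSP `𝔫_∞`** of the chart `1/j` of `X₀(N)` over `A₀`. -/
def tres5gcInf : AtPt (F := ↥(modularFunctionFieldFullC ↥K₀ N)) π (bgJ ↥K₀ N)⁻¹ :=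
  tres5gcPt hπ (tres5gc_vtEmb_const N) (tres5gc_chart_fullC hπ N)

/-- **`atLoc 𝔫_∞ ⊆ A₀[[q]]`** -/
theorem tres5gcInf_atLoc_mem (x : ↥(modularFunctionFieldFullC ↥K₀ N))
    (hx : x ∈ atLoc (tres5gcInf hπ N)) :
    ((x : ↥(modularFunctionFieldFullC ↥K₀ N)) : LaurentSeries ↥K₀) ∈
      tres5gPS (algebraMap ↥(beta0Ring A K₀) ↥K₀) :=
  tres5gc_atLoc_mem hπ (tres5gc_vtEmb_const N) (tres5gc_chart_fullC hπ N) x hx

/-- `b ∈ 𝔫_∞` iff the constant coefficient of the `q`-expansion of `b` lies in `𝔪_{A₀}` -/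
theorem tres5gcInf_mem_iff (b : ↥(zchClosure (A₀ := ↥(beta0Ring A K₀))
    ({(bgJ ↥K₀ N)⁻¹} : Set ↥(modularFunctionFieldFullC ↥K₀ N)))) :
    b ∈ (tres5gcInf hπ N).1 ↔
      ∃ a ∈ IsLocalRing.maximalIdeal ↥(beta0Ring A K₀),
        algebraMap ↥(beta0Ring A K₀) ↥K₀ a =
          (((b : ↥(modularFunctionFieldFullC ↥K₀ N)) : LaurentSeries ↥K₀)).coeff 0 :=
  tres5gc_mem_pt_iff hπ (tres5gc_vtEmb_const N) (tres5gc_chart_fullC hπ N) b

/-- `1/j ∈ 𝔫_∞`: `𝔫_∞` is a cusp -/
theorem tres5gcInf_jinv_mem :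
    (⟨(bgJ ↥K₀ N)⁻¹, tres5gc_self_mem (A₀ := ↥(beta0Ring A K₀)) _⟩ :
      ↥(zchClosure (A₀ := ↥(beta0Ring A K₀))
        ({(bgJ ↥K₀ N)⁻¹} : Set ↥(modularFunctionFieldFullC ↥K₀ N)))) ∈ (tres5gcInf hπ N).1 :=
  tres5gc_gen_mem hπ (tres5gc_vtEmb_const N) (tres5gc_chart_fullC hπ N)
    (tres5gc_jinv_coeff_zero N)

/-- `π ∈ 𝔫_∞` -/
theorem tres5gcInf_pi_mem :
    algebraMap ↥(beta0Ring A K₀) ↥(zchClosure (A₀ := ↥(beta0Ring A K₀))
      ({(bgJ ↥K₀ N)⁻¹} : Set ↥(modularFunctionFieldFullC ↥K₀ N))) π ∈ (tres5gcInf hπ N).1 :=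
  (tres5gcInf hπ N).2.2

include hπ in
/-- **(P1)**, existential form, any `K₀`. -/
theorem tres5gc_cusp_fullC :
    ∃ 𝔫 : AtPt (F := ↥(modularFunctionFieldFullC ↥K₀ N)) π (bgJ ↥K₀ N)⁻¹,
      (∀ x ∈ atLoc 𝔫, ((x : ↥(modularFunctionFieldFullC ↥K₀ N)) : LaurentSeries ↥K₀) ∈
        tres5gPS (algebraMap ↥(beta0Ring A K₀) ↥K₀)) ∧
      (∀ b : ↥(zchClosure (A₀ := ↥(beta0Ring A K₀))
          ({(bgJ ↥K₀ N)⁻¹} : Set ↥(modularFunctionFieldFullC ↥K₀ N))), b ∈ 𝔫.1 ↔
        ∃ a ∈ IsLocalRing.maximalIdeal ↥(beta0Ring A K₀),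
          algebraMap ↥(beta0Ring A K₀) ↥K₀ a =
            (((b : ↥(modularFunctionFieldFullC ↥K₀ N)) : LaurentSeries ↥K₀)).coeff 0) ∧
      (∀ b : ↥(zchClosure (A₀ := ↥(beta0Ring A K₀))
          ({(bgJ ↥K₀ N)⁻¹} : Set ↥(modularFunctionFieldFullC ↥K₀ N))),
        (((b : ↥(modularFunctionFieldFullC ↥K₀ N)) : LaurentSeries ↥K₀)) ∈
          tres5gPS (algebraMap ↥(beta0Ring A K₀) ↥K₀)) ∧
      (⟨(bgJ ↥K₀ N)⁻¹, tres5gc_self_mem (A₀ := ↥(beta0Ring A K₀)) _⟩ :
        ↥(zchClosure (A₀ := ↥(beta0Ring A K₀))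
          ({(bgJ ↥K₀ N)⁻¹} : Set ↥(modularFunctionFieldFullC ↥K₀ N)))) ∈ 𝔫.1 :=
  tres5gc_cusp_fullC' hπ N (tres5gc_hnorm hπ) (tres5gc_jinv_mem _ N) (tres5gc_jinv_coeff_zero N)

end Final

section Mgc

variable {A : ValuationSubring Qb} {K₁ : IntermediateField ℚ Qb} {M p : ℕ} [NeZero M] [NeZero p]
  [NeZero (M * p)]
  [IsDiscreteValuationRing ↥(mgcA A K₁)] {π : ↥(mgcA A K₁)} (hπ : Irreducible π)

include hπ in
/-- **(P1)** in the setting of `R38.tres5b_field`: the cusp `∞̄` of the chart `1/j` over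
`A′ = mgcA A K₁`, with `atLoc 𝔫_∞ ⊆ A′[[q]]`. -/
theorem tres5gc_cusp_mgc :
    ∃ 𝔫 : AtPt (F := ↥(mgcF A K₁ (M * p))) π (mgcT A K₁ (M * p))⁻¹,
      ∀ x ∈ atLoc 𝔫, ((x : ↥(mgcF A K₁ (M * p))) : LaurentSeries ↥(mgcE A K₁)) ∈
        tres5gPS (algebraMap ↥(mgcA A K₁) ↥(mgcE A K₁)) :=
  ⟨tres5gcInf (K₀ := mgcE A K₁) hπ (M * p), tres5gcInf_atLoc_mem (K₀ := mgcE A K₁) hπ (M * p)⟩

end Mgc

end Fermat.Agent.R38

end
end ZBR38_021_4
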