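/- GENERATED FILE (helper35, build-time optimisation, NOTES/ZB.md): verbatim concatenation of the modules
   Fermat.Agent.R38.TresGRed
   Do not edit; do not import together with these modules. -/
import Fermat.Agent.ZB.RIB_002
import Fermat.Agent.ZB.UNIP_014
import Fermat.Agent.ZB.R38_021

/-! ### bundled: `Fermat.Agent.R38.TresGRed` -/
section ZBR38_020_0
/-
ROW 38, TRES, piece FAC-GRED (helper24), part 1: INERTIA ACTS TRIVIALLY ON GAUSS RESIDUES.

Abstract cores (consumers: helper53's `tres5kp_fixed_of_val`, `tres5kp_descend_of_val`,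
`Tres5Kum.descend`, helper26's `tres5kf_fixed`: the hypotheses `hGW`, `hGW₀`).

* `tres5g_comp_map`, `tres5g_comp_smul` : **(C1)** `V` a valuation ring of `L`, `ρ : V →+* k′`
  killing `𝔪_V`, `Q` a valuation ring of `k′`; a map `σ` of `L` with `σ x − x ∈ 𝔪_V` for `x ∈ V`
  maps the composite `T = comp V ρ Q` (`RIB.MP.ribmp_rd_comp`) into itself.
* `tres5g_red_map`     : `ρ (σ x) = ρ x`.
* `tres5g_nonunits_smul` : a group preserving `W` preserves `𝔪_W`.
* `tres5g_sheet_sub_mem` : **(C2)** a sheet `W` over `V` with residue degree one (`hres`, the shape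
  of `Tres5Gen.W_residue`), stable under `G`, `G` trivial on the residues of `V`
  ⇒ `g x − x ∈ 𝔪_W` for `x ∈ W`.
* `tres5g_gauss_*`     : **the Gauss sheet** `W₀ = vtSub hB e hfrac` of a field `L ⊆ E((q))`
  (`UNIP.vtSub`) on which `G` acts coefficientwise through inertial endomorphisms of the base
  (`UNIP.VtCompat`, e.g. `UNIP.vt_compat_of_inertia`): `W₀` is `G`-stable (`_smul_mem` = `hGW₀`),
  `g x − x ∈ 𝔪_{W₀}` (`_sub_mem`), the Gauss reduction `vtSubRed` is `G`-invariant (`_red`),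
  every composite `comp W₀ ρ Q` is `G`-stable (`_comp`), `W₀ ∩ F = V` (`_comap`).
* `tres5g_frac_of_gen` : the hypothesis `hfrac` for `L = F(z)` from `hfrac` for `F` and for `z`.
-/

set_option autoImplicit false
set_option linter.unusedSectionVars false
set_option linter.style.haveILetI false

noncomputable section

namespace Fermat.Agent.R38

open Fermat.Agent.UNIP Fermat.Agent.INJ Fermat.Agent.RIB.MP ModularCurve

section Abs

variable {L k' : Type*} [Field L] [Field k']

/-- `y ≡ x` modulo `𝔪_V`, `x ∈ V` ⇒ `y ∈ V` -/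
theorem tres5g_mem_of_sub (V : ValuationSubring L) {x y : L} (hx : x ∈ V)
    (h : y - x ∈ V.nonunits) : y ∈ V := by
  have e : y = (y - x) + x := by ring
  rw [e]
  exact V.add_mem _ _ (vt_mem_of_mem_nonunits V h) hx

/-- **the reduction is invariant**: `ρ (σ x) = ρ x` if `σ x ≡ x` modulo `𝔪_V`. -/
theorem tres5g_red_map (V : ValuationSubring L) (ρ : ↥V →+* k')
    (hker : ∀ x : ↥V, (x : L) ∈ V.nonunits → ρ x = 0) {x y : L} (hx : x ∈ V) (hy : y ∈ V)
    (h : y - x ∈ V.nonunits) : ρ ⟨y, hy⟩ = ρ ⟨x, hx⟩ := by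
  have e : (⟨y, hy⟩ : ↥V) = ⟨y - x, vt_mem_of_mem_nonunits V h⟩ + ⟨x, hx⟩ :=
    Subtype.ext (by simp)
  rw [e, map_add, hker _ h, zero_add]

/-- **(C1)**: a map `σ` of `L` which is trivial modulo `𝔪_V` on `V` maps the composite valuation
ring `comp V ρ Q` into itself. -/
theorem tres5g_comp_map (V : ValuationSubring L) (ρ : ↥V →+* k') (Q : ValuationSubring k')
    (hker : ∀ x : ↥V, (x : L) ∈ V.nonunits → ρ x = 0) (σ : L → L)
    (hσ : ∀ x ∈ V, σ x - x ∈ V.nonunits) :
    ∀ x ∈ ribmp_rd_comp V ρ Q hker, σ x ∈ ribmp_rd_comp V ρ Q hker := by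
  rintro x ⟨hx, hxQ⟩
  have hσx : σ x ∈ V := tres5g_mem_of_sub V hx (hσ x hx)
  refine ⟨hσx, ?_⟩
  rw [tres5g_red_map V ρ hker hx hσx (hσ x hx)]
  exact hxQ

variable {G : Type*} [Group G] [MulSemiringAction G L]

/-- **(C1), group form** (the shape of `hGW` of `tres5kp_fixed_of_val`). -/
theorem tres5g_comp_smul (V : ValuationSubring L) (ρ : ↥V →+* k') (Q : ValuationSubring k')
    (hker : ∀ x : ↥V, (x : L) ∈ V.nonunits → ρ x = 0)
    (hG : ∀ (g : G), ∀ x ∈ V, g • x - x ∈ V.nonunits) :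
    ∀ (g : G), ∀ x ∈ ribmp_rd_comp V ρ Q hker, g • x ∈ ribmp_rd_comp V ρ Q hker :=
  fun g => tres5g_comp_map V ρ Q hker (fun x => g • x) (hG g)

/-- a group preserving a valuation ring preserves its maximal ideal -/
theorem tres5g_nonunits_smul (W : ValuationSubring L)
    (hGW : ∀ (g : G), ∀ x ∈ W, g • x ∈ W) (g : G) {x : L} (hx : x ∈ W.nonunits) :
    g • x ∈ W.nonunits := by
  by_contra h
  rw [ValuationSubring.mem_nonunits_iff, not_lt] at h
  have hinv : (g • x)⁻¹ ∈ W := by
    rw [← W.valuation_le_one_iff, map_inv₀]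
    exact inv_le_one_of_one_le₀ h
  have h2 : g⁻¹ • (g • x)⁻¹ ∈ W := hGW _ _ hinv
  rw [smul_inv'', inv_smul_smul] at h2
  have h3 : W.valuation x⁻¹ ≤ 1 := (W.valuation_le_one_iff _).mpr h2
  rw [ValuationSubring.mem_nonunits_iff] at hx
  rcases eq_or_ne x 0 with rfl | hx0
  · rw [smul_zero, map_zero] at h
    exact absurd h (not_le.mpr zero_lt_one)
  · have h4 : W.valuation x * W.valuation x⁻¹ = 1 := by
      rw [← map_mul, mul_inv_cancel₀ hx0, map_one]
    have h5 : W.valuation x * W.valuation x⁻¹ < 1 := by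
      calc W.valuation x * W.valuation x⁻¹ ≤ W.valuation x * 1 := mul_le_mul' le_rfl h3
        _ < 1 := by rw [mul_one]; exact hx
    rw [h4] at h5
    exact lt_irrefl _ h5

end Abs

section Sheet

variable {F F' : Type*} [Field F] [Field F'] [Algebra F F']
  {G : Type*} [Group G] [MulSemiringAction G F']

/-- **(C2)**: a `G`-stable sheet `W` over `V` with residue degree one, `G` trivial on the
residues of `V` ⇒ `G` is trivial on the residues of `W`. -/
theorem tres5g_sheet_sub_mem (V : ValuationSubring F) (W : ValuationSubring F')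
    (hres : ∀ x ∈ W, ∃ a ∈ V, x - algebraMap F F' a ∈ W.nonunits)
    (hGW : ∀ (g : G), ∀ x ∈ W, g • x ∈ W)
    (hGV : ∀ (g : G), ∀ a ∈ V, g • algebraMap F F' a - algebraMap F F' a ∈ W.nonunits) :
    ∀ (g : G), ∀ x ∈ W, g • x - x ∈ W.nonunits := by
  intro g x hx
  obtain ⟨a, ha, hxa⟩ := hres x hx
  have h1 : g • (x - algebraMap F F' a) ∈ W.nonunits := tres5g_nonunits_smul W hGW g hxa
  have e : g • x - x = (g • (x - algebraMap F F' a) - (x - algebraMap F F' a)) +
      (g • algebraMap F F' a - algebraMap F F' a) := by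
    rw [smul_sub]; ring
  rw [e]
  exact vt_add_mem_nonunits W (vt_sub_mem_nonunits W h1 hxa) (hGV g a ha)

/-- **(C1) + (C2)**: the composite of a `G`-stable sheet with any place of the residue field is
`G`-stable. -/
theorem tres5g_sheet_comp_smul {k' : Type*} [Field k'] (V : ValuationSubring F)
    (W : ValuationSubring F')
    (hres : ∀ x ∈ W, ∃ a ∈ V, x - algebraMap F F' a ∈ W.nonunits)
    (hGW : ∀ (g : G), ∀ x ∈ W, g • x ∈ W)
    (hGV : ∀ (g : G), ∀ a ∈ V, g • algebraMap F F' a - algebraMap F F' a ∈ W.nonunits)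
    (ρ : ↥W →+* k') (Q : ValuationSubring k')
    (hker : ∀ x : ↥W, (x : F') ∈ W.nonunits → ρ x = 0) :
    ∀ (g : G), ∀ x ∈ ribmp_rd_comp W ρ Q hker, g • x ∈ ribmp_rd_comp W ρ Q hker :=
  tres5g_comp_smul W ρ Q hker (tres5g_sheet_sub_mem V W hres hGW hGV)

end Sheet

section Gauss

variable {A E k : Type*} [CommRing A] [Field E] [Field k]
  {ι : A →+* E} {r : A →+* k} {π : A} {L : Type*} [Field L]
  (hB : VtBase ι r π) (e : L →+* LaurentSeries E) (hfrac : ∀ x : L, VtFrac ι (e x))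
  {G : Type*} [Group G] [MulSemiringAction G L]

/-- **the Gauss sheet is `G`-stable** (`hGW₀` of `Tres5Kum.descend`, `hGW` of `tres5kf_fixed`). -/
theorem tres5g_gauss_smul_mem
    (hG : ∀ g : G, ∃ s : E →+* E, VtCompat ι r ι r s (RingHom.id k) ∧
      ∀ x : L, e (g • x) = coeffMap s (e x)) :
    ∀ (g : G), ∀ x ∈ vtSub hB e hfrac, g • x ∈ vtSub hB e hfrac := by
  intro g x hx
  obtain ⟨s, hs, hse⟩ := hG g
  exact vtSub_map_mem hB e hfrac hs (MulSemiringAction.toRingHom G L g) hse hx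

/-- **`G` is trivial on the residues of the Gauss sheet.** -/
theorem tres5g_gauss_sub_mem
    (hG : ∀ g : G, ∃ s : E →+* E, VtCompat ι r ι r s (RingHom.id k) ∧
      ∀ x : L, e (g • x) = coeffMap s (e x)) :
    ∀ (g : G), ∀ x ∈ vtSub hB e hfrac, g • x - x ∈ (vtSub hB e hfrac).nonunits := by
  intro g x hx
  obtain ⟨s, hs, hse⟩ := hG g
  exact vtSub_sub_mem_nonunits hB e hfrac hs (MulSemiringAction.toRingHom G L g) hse hx

/-- **the Gauss reduction is `G`-invariant**: `ρ (g x) = ρ x`, `ρ = vtSubRed`. -/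
theorem tres5g_gauss_red
    (hG : ∀ g : G, ∃ s : E →+* E, VtCompat ι r ι r s (RingHom.id k) ∧
      ∀ x : L, e (g • x) = coeffMap s (e x))
    (g : G) (x : L) (hx : x ∈ vtSub hB e hfrac) :
    vtSubRed hB e hfrac ⟨g • x, tres5g_gauss_smul_mem hB e hfrac hG g x hx⟩ =
      vtSubRed hB e hfrac ⟨x, hx⟩ :=
  tres5g_red_map (vtSub hB e hfrac) (vtSubRed hB e hfrac)
    (fun y hy => (vtSubRed_eq_zero_iff hB e hfrac y).mpr hy) hx _
    (tres5g_gauss_sub_mem hB e hfrac hG g x hx)

/-- **FAC-GRED**: every composite of the Gauss sheet with a place `Q` of the residue field is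
`G`-stable (`hGW` of `tres5kp_fixed_of_val` for `W = T′ = comp W₀ ρ Q`). -/
theorem tres5g_gauss_comp {k' : Type*} [Field k']
    (hG : ∀ g : G, ∃ s : E →+* E, VtCompat ι r ι r s (RingHom.id k) ∧
      ∀ x : L, e (g • x) = coeffMap s (e x))
    (ρ : ↥(vtSub hB e hfrac) →+* k') (Q : ValuationSubring k')
    (hker : ∀ x : ↥(vtSub hB e hfrac), (x : L) ∈ (vtSub hB e hfrac).nonunits → ρ x = 0) :
    ∀ (g : G), ∀ x ∈ ribmp_rd_comp (vtSub hB e hfrac) ρ Q hker,
      g • x ∈ ribmp_rd_comp (vtSub hB e hfrac) ρ Q hker :=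
  tres5g_comp_smul _ ρ Q hker (tres5g_gauss_sub_mem hB e hfrac hG)

/-- the Gauss sheet of `L` lies over the Gauss valuation ring of `F` -/
theorem tres5g_gauss_comap {F : Type*} [Field F] [Algebra F L]
    (eF : F →+* LaurentSeries E) (hfracF : ∀ x : F, VtFrac ι (eF x))
    (hcomp : ∀ a : F, e (algebraMap F L a) = eF a) :
    (vtSub hB e hfrac).comap (algebraMap F L) = vtSub hB eF hfracF := by
  ext a
  rw [ValuationSubring.mem_comap, mem_vtSub, mem_vtSub, hcomp]

include hB in
/-- `hfrac` for `L = F(z)` from `hfrac` on `F` and at `z`. -/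
theorem tres5g_frac_of_gen {F : Type*} [Field F] [Algebra F L]
    (hF : ∀ a : F, VtFrac ι (e (algebraMap F L a))) {z : L} (hz : VtFrac ι (e z))
    (hgen : IntermediateField.adjoin F ({z} : Set L) = ⊤) : ∀ x : L, VtFrac ι (e x) := by
  intro x
  have hx : x ∈ IntermediateField.adjoin F ({z} : Set L) := by rw [hgen]; trivial
  induction hx using IntermediateField.adjoin_induction with
  | mem y hy =>
      rw [Set.mem_singleton_iff] at hy
      rw [hy]; exact hz
  | algebraMap a => exact hF a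
  | add x y _ _ hx hy => rw [map_add]; exact hx.add hB.inj hy
  | inv x _ hx => rw [map_inv₀]; exact hx.inv hB.inj
  | mul x y _ _ hx hy => rw [map_mul]; exact hx.mul hB.inj hy

end Gauss

end Fermat.Agent.R38

end
end ZBR38_020_0
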