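/- GENERATED FILE (helper35, build-time optimisation, NOTES/ZB.md): verbatim concatenation of the modules
   Fermat.Agent.R38.TresBigAbs
   Fermat.Agent.R38.TresBig
   Fermat.Agent.R38.TresGRedMain
   Fermat.Agent.R38.TresGRedShape
   Fermat.Agent.R38.TresBigPt
   Do not edit; do not import together with these modules. -/
import Fermat.Agent.ZB.S33_006
import Fermat.Agent.ZB.S33_007
import Fermat.Agent.ZB.R38_020
import Fermat.Agent.ZB.R38_021
import Fermat.Agent.ZB.R38_012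
import Fermat.Agent.ZB.UNIP_007

/-! ### bundled: `Fermat.Agent.R38.TresBigAbs` -/
section ZBR38_016_0

/-!
# ROW 38, TRES, piece FAC-BIG (helper16), part 1: the LOCAL SHAPE of a split function at every
closed point of both charts, abstract form (twin of `S33.wht_main` without the automorphism)

Chart setting of `S33.wht_main` (ramified base `A₀`, uniformizer `π`, `ζ ∈ A₀` a primitive `p`-th
root of unity, `π ∣ ζ − 1`, vertical valuation rings `V c`, point data `WhtPtData` at every closed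
point of the charts `t`, `1 / t`).  `λ := ζ − 1`.

* `tres5b_hloc_main` : for `u ≠ 0` with `p ∣ div u`, finite rational support, split at the
  vertical valuations (`hsplit`, deep form): at EVERY closed point `i` of both charts
  `∃ g ≠ 0, ∃ y ∈ O_i,  u / g ^ p − 1 = λ ^ p · π · y`      (`S33.wab_hloc_point`).
* `tres5b_vert` : the same shape at a valuation ring `V` from `hsplit` (`y ∈ V`).
* `tres5b_root` : **the Kummer generator.**  `L ⊇ F` a field, `Y ∈ L` with `Y ^ p = u`,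
  `u / g ^ p − 1 = λ ^ p · a` in `F` (`a = π y`).  Then `z := (Y / g − 1) / λ` satisfies
  `∏_{k < p} (z − c_k) = a`, `c_k := 1 + ζ + … + ζ^{k−1}` (`= (ζ^k − 1) / (ζ − 1)`).
* `tres5b_c_sub` : `c_k − c_j = ζ ^ j · c_{k − j}` (`j ≤ k`), `tres5b_c_congr` :
  `c_k = k + λ · (…)`, and `tres5b_c_isUnit` : `c_k − c_j` is a unit of every local ring of residue
  characteristic `p` with `λ ∈ 𝔪` (`j < k < p`).
-/

set_option autoImplicit false
set_option linter.style.haveILetI false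
set_option linter.unusedSectionVars false
set_option linter.unusedVariables false

namespace Fermat.Agent.R38

open Polynomial IntermediateField Fermat.Agent.INJ AlgebraicCurve Fermat.Agent.UNIP
  Fermat.Agent.STB Fermat.Agent.S33

section Main

universe u

variable {A₀ E F : Type u} [CommRing A₀] [IsDomain A₀] [IsDiscreteValuationRing A₀]
  [Field E] [Algebra A₀ E] [IsFractionRing A₀ E] [CharZero E]
  [Field F] [Algebra E F] [Algebra A₀ F] [IsScalarTower A₀ E F]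
  {π : A₀} {κ : Type*}

/-- **The local shape at every closed point of both charts**, from the point data. -/
theorem tres5b_hloc_main (hπ : Irreducible π) {t : F} (ht : Transcendental E t)
    [FiniteDimensional E⟮t⟯ F]
    {p : ℕ} (hp : p.Prime) {ζ : A₀} (hζ : IsPrimitiveRoot ζ p)
    (hlam : π ∣ ζ - 1)
    [Finite κ] (V : κ → ValuationSubring F) (c₁ c₂ : κ) (hκ : ∀ c, c = c₁ ∨ c = c₂)
    (hne : V c₁ ≠ V c₂)
    (hBV₁ : ∀ c (b : F), IsIntegral ↥(Algebra.adjoin A₀ {t}) b → b ∈ V c)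
    (hBV₂ : ∀ c (b : F), IsIntegral ↥(Algebra.adjoin A₀ {t⁻¹}) b → b ∈ V c)
    (hπV : ∀ c, algebraMap A₀ F π ∈ (V c).nonunits)
    (hSS1 : ∀ b : F, IsIntegral ↥(Algebra.adjoin A₀ {t}) b → (∀ c, b ∈ (V c).nonunits) →
      ∃ b' : F, IsIntegral ↥(Algebra.adjoin A₀ {t}) b' ∧ b = algebraMap A₀ F π * b')
    (harch : ∀ c (a x : F), a ∈ (V c).nonunits → ∃ N : ℕ, a ^ N * x ∈ (V c).nonunits)
    (hVloc₁ : ∀ c (x : F), x ∈ V c → ∃ b s : F, IsIntegral ↥(Algebra.adjoin A₀ {t}) b ∧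
      IsIntegral ↥(Algebra.adjoin A₀ {t}) s ∧ s ∉ (V c).nonunits ∧ s * x = b)
    (hVloc₂ : ∀ c (x : F), x ∈ V c → ∃ b s : F, IsIntegral ↥(Algebra.adjoin A₀ {t⁻¹}) b ∧
      IsIntegral ↥(Algebra.adjoin A₀ {t⁻¹}) s ∧ s ∉ (V c).nonunits ∧ s * x = b)
    {u : F} (hu : u ≠ 0)
    (hsplit : ∀ c, ∃ h : F, h ≠ 0 ∧ (V c).valuation (u / h ^ p - 1) ≤
      (V c).valuation ((algebraMap A₀ F ζ - 1) ^ p * algebraMap A₀ F π))
    (hfin : {P : Place E F | P.ord u ≠ 0}.Finite)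
    (hm : ∀ P : Place E F, (p : ℤ) ∣ P.ord u)
    (hrat : ∀ P : Place E F, P.ord u ≠ 0 → ∀ f ∈ P.toValuationSubring,
      ∃ c : E, f - algebraMap E F c ∈ P.toValuationSubring.nonunits)
    (hdat₁ : ∀ 𝔫 : AtPt (F := F) π t, WhtPtData V c₁ c₂ 𝔫)
    (hdat₂ : ∀ 𝔫 : AtPt (F := F) π t⁻¹, WhtPtData V c₁ c₂ 𝔫) :
    ∀ i, ∃ g : F, g ≠ 0 ∧ ∃ y ∈ atO π t i,
      u / g ^ p - 1 = (algebraMap A₀ F ζ - 1) ^ p * algebraMap A₀ F π * y := by
  have hπ0 : algebraMap A₀ F π ≠ 0 := unip_algebraMap_irreducible_ne_zero E hπ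
  have ht' : Transcendental E t⁻¹ := zch_transcendental_inv ht
  haveI : FiniteDimensional E⟮t⁻¹⟯ F := at_finiteDimensional_inv t
  haveI : IsNoetherianRing ↥(zchClosure (A₀ := A₀) ({t} : Set F)) :=
    chart_closure_isNoetherianRing (A₀ := A₀) (E := E) ht
  haveI : IsNoetherianRing ↥(zchClosure (A₀ := A₀) ({t⁻¹} : Set F)) :=
    chart_closure_isNoetherianRing (A₀ := A₀) (E := E) ht'
  have hSS1' := ats_SS1_inv ht hπ V hBV₁ hSS1
  have hinj : Function.Injective (algebraMap A₀ F) :=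
    zch_algebraMap_injective (A₀ := A₀) (E := E)
  have hc : c₁ ≠ c₂ := fun h => hne (by rw [h])
  have hne' : ∀ c c', c ≠ c' → V c ≠ V c' := by
    intro c c' hcc' h
    rcases hκ c with rfl | rfl <;> rcases hκ c' with rfl | rfl
    · exact hcc' rfl
    · exact hne h
    · exact hne h.symm
    · exact hcc' rfl
  have hnle := wht_hnle hπ0 V hπV hne' harch
  -- `hsplit` in the weak form
  have hsplit' : ∀ c, ∃ h : F, h ≠ 0 ∧ (V c).valuation (u / h ^ p - 1) < 1 := by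
    intro c
    obtain ⟨h, hh0, hval⟩ := hsplit c
    refine ⟨h, hh0, lt_of_le_of_lt hval ?_⟩
    have h1 : (algebraMap A₀ F ζ - 1) ^ p ∈ V c := by
      have e : (algebraMap A₀ F ζ - 1) ^ p = algebraMap A₀ F ((ζ - 1) ^ p) := by
        rw [map_pow, map_sub, map_one]
      rw [e]
      exact hBV₁ c _ (mem_zchClosure.mp
        (algebraMap A₀ ↥(zchClosure (A₀ := A₀) ({t} : Set F)) ((ζ - 1) ^ p)).2)
    exact wh_val_mul_lt (V c) ((V c).valuation_le_one_iff _ |>.2 h1)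
      ((ValuationSubring.mem_nonunits_iff (V c)).1 (hπV c))
  have hunif : ∀ c, ∀ x ∈ (V c).nonunits, ∃ y ∈ V c, x = algebraMap A₀ F π * y := fun c =>
    stb_sp_princ V hBV₁ hSS1 hVloc₁ c fun c' hc' => hnle c c' (Ne.symm hc')
  have hT4 := wht_hT4 hπ ht V c₁ c₂ hκ hBV₁ hBV₂ hπV hSS1 hVloc₁ hVloc₂ hne' harch hdat₁ hdat₂
    hu hp.ne_zero hfin hm hrat hsplit'
  have hN := wn_hN V hBV₁ hBV₂ hπV hVloc₁ hVloc₂
    (fun 𝔫 => wht_wnPtData V c₁ c₂ hκ 𝔫 (hdat₁ 𝔫))
    (fun 𝔫 => wht_wnPtData V c₁ c₂ hκ 𝔫 (hdat₂ 𝔫)) hp.two_le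
  rintro (𝔫 | 𝔫)
  · exact wab_hloc_point hπ hinj V c₁ c₂ hκ hBV₁ hπV hSS1 hunif hp hζ hlam 𝔫
      (hN (Sum.inl 𝔫))
      (fun h₁ h₂ => wht_hS_point hπ0 V c₁ c₂ hc hBV₁ hπV hSS1 hVloc₁ hne' harch 𝔫 (hdat₁ 𝔫)
        h₁ h₂)
      (hT4 (Sum.inl 𝔫)) hsplit
  · exact wab_hloc_point hπ hinj V c₁ c₂ hκ hBV₂ hπV hSS1' hunif hp hζ hlam 𝔫
      (hN (Sum.inr 𝔫))
      (fun h₁ h₂ => wht_hS_point hπ0 V c₁ c₂ hc hBV₂ hπV hSS1' hVloc₂ hne' harch 𝔫 (hdat₂ 𝔫)
        h₁ h₂)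
      (hT4 (Sum.inr 𝔫)) hsplit

end Main

section Vert

variable {F : Type*} [Field F]

/-- the same shape at a valuation ring, from `hsplit` -/
theorem tres5b_vert (V : ValuationSubring F) {u d : F} (hd : d ≠ 0) {p : ℕ}
    (hsplit : ∃ h : F, h ≠ 0 ∧ V.valuation (u / h ^ p - 1) ≤ V.valuation d) :
    ∃ g : F, g ≠ 0 ∧ ∃ y ∈ V, u / g ^ p - 1 = d * y := by
  obtain ⟨h, hh0, hval⟩ := hsplit
  refine ⟨h, hh0, (u / h ^ p - 1) / d, ?_, ?_⟩
  · rw [← V.valuation_le_one_iff, map_div₀]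
    have hd0 : V.valuation d ≠ 0 := (Valuation.ne_zero_iff _).2 hd
    rw [div_le_iff₀ (lt_of_le_of_ne zero_le hd0.symm), one_mul]
    exact hval
  · rw [mul_div_cancel₀ _ hd]

end Vert

section Kummer

variable {L : Type*} [Field L]

/-- the reduced roots `c_k = 1 + ζ + … + ζ^{k−1} = (ζ^k − 1) / (ζ − 1)` -/
noncomputable def tres5bC {R : Type*} [CommRing R] (ζ : R) (k : ℕ) : R :=
  ∑ j ∈ Finset.range k, ζ ^ j

theorem tres5bC_mul {R : Type*} [CommRing R] (ζ : R) (k : ℕ) :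
    tres5bC ζ k * (ζ - 1) = ζ ^ k - 1 := by
  rw [tres5bC]
  exact geom_sum_mul ζ k

theorem tres5bC_map {R S : Type*} [CommRing R] [CommRing S] (f : R →+* S) (ζ : R) (k : ℕ) :
    f (tres5bC ζ k) = tres5bC (f ζ) k := by
  simp [tres5bC, map_sum, map_pow]

/-- `c_k − c_j = ζ ^ j · c_{k − j}` -/
theorem tres5b_c_sub {R : Type*} [CommRing R] (ζ : R) {j k : ℕ} (hjk : j ≤ k) :
    tres5bC ζ k - tres5bC ζ j = ζ ^ j * tres5bC ζ (k - j) := by
  obtain ⟨m, rfl⟩ := Nat.exists_eq_add_of_le hjk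
  rw [Nat.add_sub_cancel_left, tres5bC, tres5bC, tres5bC, Finset.sum_range_add, add_sub_cancel_left,
    Finset.mul_sum]
  exact Finset.sum_congr rfl fun i _ => pow_add ζ j i

/-- `c_k = k + (ζ − 1) · (…)` -/
theorem tres5b_c_congr {R : Type*} [CommRing R] (ζ : R) (k : ℕ) :
    ∃ r : R, tres5bC ζ k = (k : R) + (ζ - 1) * r := by
  induction k with
  | zero => exact ⟨0, by simp [tres5bC]⟩
  | succ k ih =>
    obtain ⟨r, hr⟩ := ih
    refine ⟨r + tres5bC ζ k, ?_⟩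
    have h1 : tres5bC ζ (k + 1) = tres5bC ζ k + ζ ^ k := by
      rw [tres5bC, tres5bC, Finset.sum_range_succ]
    have h2 := tres5bC_mul ζ k
    rw [h1]
    push_cast
    linear_combination hr - h2

/-- `c_k − c_j` is a unit of a local ring of residue characteristic `p` (`j < k < p`,
`ζ − 1 ∈ 𝔪`): the roots of `∏ (Z − c_k)` are pairwise distinct modulo `𝔪`. -/
theorem tres5b_c_isUnit {R : Type*} [CommRing R] [IsLocalRing R] {p : ℕ} (hp : p.Prime)
    (hpR : (p : R) ∈ IsLocalRing.maximalIdeal R) {ζ : R} (hζ : ζ ^ p = 1)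
    (hlam : ζ - 1 ∈ IsLocalRing.maximalIdeal R) {j k : ℕ} (hjk : j < k) (hk : k < p) :
    IsUnit (tres5bC ζ k - tres5bC ζ j) := by
  rw [tres5b_c_sub ζ hjk.le]
  have hζu : IsUnit ζ := IsUnit.of_pow_eq_one hζ hp.ne_zero
  refine (hζu.pow j).mul ?_
  obtain ⟨r, hr⟩ := tres5b_c_congr ζ (k - j)
  rw [hr]
  -- `k − j` is a unit
  have hm : IsUnit ((k - j : ℕ) : R) := by
    have hcop : Nat.Coprime (k - j) p := by
      refine (Nat.coprime_comm.1 ((Nat.Prime.coprime_iff_not_dvd hp).2 fun hd => ?_))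
      have := Nat.le_of_dvd (by omega) hd
      omega
    by_contra hnu
    have hmem : ((k - j : ℕ) : R) ∈ IsLocalRing.maximalIdeal R :=
      (IsLocalRing.mem_maximalIdeal _).2 hnu
    have h1 : ((Nat.gcd (k - j) p : ℕ) : R) ∈ IsLocalRing.maximalIdeal R := by
      have hb := Nat.gcd_eq_gcd_ab (k - j) p
      have e : ((Nat.gcd (k - j) p : ℕ) : R)
          = ((k - j : ℕ) : R) * ((Nat.gcdA (k - j) p : ℤ) : R)
            + ((p : ℕ) : R) * ((Nat.gcdB (k - j) p : ℤ) : R) := by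
        have := congrArg (fun x : ℤ => (x : R)) hb
        push_cast at this
        exact_mod_cast this
      rw [e]
      exact Ideal.add_mem _ (Ideal.mul_mem_right _ _ hmem) (Ideal.mul_mem_right _ _ hpR)
    rw [hcop, Nat.cast_one] at h1
    exact (IsLocalRing.maximalIdeal.isMaximal R).ne_top ((Ideal.eq_top_iff_one _).2 h1)
  have hnil : (ζ - 1) * r ∈ IsLocalRing.maximalIdeal R := Ideal.mul_mem_right _ _ hlam
  by_contra hnu
  have h2 : ((k - j : ℕ) : R) + (ζ - 1) * r ∈ IsLocalRing.maximalIdeal R :=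
    (IsLocalRing.mem_maximalIdeal _).2 hnu
  have h3 : ((k - j : ℕ) : R) ∈ IsLocalRing.maximalIdeal R := by
    have := Ideal.sub_mem _ h2 hnil
    rwa [add_sub_cancel_right] at this
  exact (IsLocalRing.mem_maximalIdeal _).1 h3 hm

/-- **the Kummer generator**: `∏_{k < p} (z − c_k) · λ ^ p = (1 + λ z) ^ p − 1`. -/
theorem tres5b_prod_mul {p : ℕ} (hp : 0 < p) {ζ : L} (hζ : IsPrimitiveRoot ζ p) (z : L) :
    (∏ k ∈ Finset.range p, (z - tres5bC ζ k)) * (ζ - 1) ^ p = (1 + (ζ - 1) * z) ^ p - 1 := by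
  classical
  have : NeZero p := ⟨hp.ne'⟩
  have h1 : (1 + (ζ - 1) * z) ^ p - 1 = ∏ k ∈ Finset.range p, ((1 + (ζ - 1) * z) - ζ ^ k) := by
    have h2 := hζ.pow_sub_pow_eq_prod_sub_mul (1 + (ζ - 1) * z) 1 hp
    rw [one_pow] at h2
    rw [h2]
    have himg : Polynomial.nthRootsFinset p (1 : L) =
        (Finset.range p).image (fun k => ζ ^ k) := by
      ext x
      rw [Polynomial.mem_nthRootsFinset hp, Finset.mem_image]
      constructor
      · intro hx
        obtain ⟨i, hi, rfl⟩ := hζ.eq_pow_of_pow_eq_one hx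
        exact ⟨i, Finset.mem_range.2 hi, rfl⟩
      · rintro ⟨i, -, rfl⟩
        rw [← pow_mul, mul_comm, pow_mul, hζ.pow_eq_one, one_pow]
    rw [himg, Finset.prod_image]
    · exact Finset.prod_congr rfl fun k _ => by rw [mul_one]
    · intro a ha b hb hab
      exact hζ.pow_inj (Finset.mem_range.1 ha) (Finset.mem_range.1 hb) hab
  rw [h1, ← Finset.card_range p, ← Finset.prod_const, Finset.card_range, ← Finset.prod_mul_distrib]
  refine Finset.prod_congr rfl fun k _ => ?_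
  have h3 := tres5bC_mul ζ k
  linear_combination -h3

/-- **the Kummer generator, root form.**  `Y ^ p = u`, `u / g ^ p − 1 = λ ^ p · a` ⇒
`z := (Y / g − 1) / λ` is a root of `∏_{k<p} (Z − c_k) − a`. -/
theorem tres5b_root {p : ℕ} (hp : 2 ≤ p) {ζ : L} (hζ : IsPrimitiveRoot ζ p)
    {Y u g a : L} (hg : g ≠ 0) (hY : Y ^ p = u) (hu : u / g ^ p - 1 = (ζ - 1) ^ p * a) :
    ∏ k ∈ Finset.range p, ((Y / g - 1) / (ζ - 1) - tres5bC ζ k) = a := by
  have hζ1 : ζ - 1 ≠ 0 := sub_ne_zero.2 (hζ.ne_one (by omega))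
  have h1 := tres5b_prod_mul (by omega : 0 < p) hζ ((Y / g - 1) / (ζ - 1))
  have h2 : 1 + (ζ - 1) * ((Y / g - 1) / (ζ - 1)) = Y / g := by
    rw [mul_div_cancel₀ _ hζ1]
    ring
  rw [h2, div_pow, hY, hu, mul_comm] at h1
  exact mul_left_cancel₀ (pow_ne_zero p hζ1) h1

/-- **the Kummer generator over a base field `F ⊆ L`.**  `Y ^ p = u`, `u / g ^ p − 1 = λ ^ p · a`
in `F` ⇒ `z := (Y / g − 1) / λ ∈ L` is a root of `∏_{k<p} (Z − c_k) − a ∈ F[Z]`;
`Y = g · (1 + λ z)`. -/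
theorem tres5b_root_map {F : Type*} [Field F] [Algebra F L] {p : ℕ} (hp : 2 ≤ p) {ζ : F}
    (hζ : IsPrimitiveRoot ζ p) {Y : L} {u g a : F} (hg : g ≠ 0)
    (hY : Y ^ p = algebraMap F L u) (hu : u / g ^ p - 1 = (ζ - 1) ^ p * a) :
    ∏ k ∈ Finset.range p, ((Y / algebraMap F L g - 1) / (algebraMap F L ζ - 1)
      - algebraMap F L (tres5bC ζ k)) = algebraMap F L a := by
  have hζL : IsPrimitiveRoot (algebraMap F L ζ) p :=
    hζ.map_of_injective (algebraMap F L).injective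
  have hgL : algebraMap F L g ≠ 0 := (_root_.map_ne_zero _).2 hg
  have huL : algebraMap F L u / algebraMap F L g ^ p - 1
      = (algebraMap F L ζ - 1) ^ p * algebraMap F L a := by
    have := congrArg (algebraMap F L) hu
    simpa only [map_sub, map_div₀, map_pow, map_one, map_mul] using this
  have h := tres5b_root hp hζL hgL hY huL
  simpa only [tres5bC_map] using h

/-- `Y = g · (1 + λ z)` for `z = (Y / g − 1) / λ` -/
theorem tres5b_Y_eq {g lam Y : L} (hg : g ≠ 0) (hlam : lam ≠ 0) :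
    Y = g * (1 + lam * ((Y / g - 1) / lam)) := by
  rw [mul_div_cancel₀ _ hlam]
  field_simp
  ring

end Kummer

end Fermat.Agent.R38


end ZBR38_016_0

/-! ### bundled: `Fermat.Agent.R38.TresBig` -/
section ZBR38_016_1

/-!
# ROW 38, TRES, piece FAC-BIG (helper16), part 2: the local shape of a SPLIT function over the big
field `E′`, at every closed point of the two charts and at the two vertical valuations

Setting of `S33.wtop_field` (level `M p`, residue characteristic `p`):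
`E′ = mgcE A K₁ = ℚ̄^I · K₁`, `A′ = mgcA A K₁` (a discrete valuation ring, uniformizer `π`),
`F′ = mgcF A K₁ (M p)`, charts `j = mgcT …`, `1 / j`, `V = mgvV hπ ιC hp hpM`
(`true ↦ V_∞`, `false ↦ V_0`), `ζ ∈ A′` a primitive `p`-th root of unity, `λ = ζ − 1`.

* `tres5b_field` : **E′-level.**  `u₀ ∈ F′^×`, `p ∣ div u₀`, rational support (`MgcRat`), split
  (`hsplit`).  Then at every closed point `i` of the special fibre of both charts
  `∃ g ≠ 0, ∃ y ∈ O_i, u₀ / g ^ p − 1 = λ ^ p · π · y`.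
* `tres5b_field_vert` : the same at `V_∞`, `V_0` (`y ∈ V c`).
* `tres5b_bar` : **ℚ̄-level.**  `u ∈ F̄_{Mp}^×`, `p ∣ div u`, `IsSplitFn hp hpM A u` (the output of
  C3 / of `R38.trest0_split`), `p ≥ 3`, `p = 3 → 2 ∣ M`.  There is a number field `K₀` such that
  for EVERY number field `K₁ ⊇ K₀`, Galois over `ℚ`, with `A′ = mgcA A K₁` discrete, every
  uniformizer `π`, every primitive `p`-th root of unity `ζ ∈ A′` and every model `u₀ ∈ F′` of `u`
  (models exist: `hex`): both shapes hold.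
Together with `tres5b_root` (`R38/TresBigAbs.lean`): in `L = F′(Y)`, `Y ^ p = u₀`, the element
`z = (Y / g − 1) / λ` is a root of `P = ∏_{k<p} (Z − c_k) − π y`, `c_k = 1 + ζ + … + ζ^{k−1} ≡ k`,
monic of degree `p` over `O_i` (resp. `V c`), split with distinct roots modulo the maximal ideal:
the input of FAC-COV (`Tres5Gen`), FAC-ET and K-FORM.
-/

set_option autoImplicit false
set_option linter.style.haveILetI false
set_option linter.unusedSectionVars false
set_option linter.unusedVariables false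

noncomputable section

namespace Fermat.Agent.R38

open ModularCurve AlgebraicCurve Fermat.Agent.ES Fermat.Agent.ES.G2 Fermat.Agent.INJ
open Fermat.Agent.UNIP Fermat.Agent.STB Fermat.Agent.S33 IntermediateField

section Field

variable {A : ValuationSubring Qb} {K₁ : IntermediateField ℚ Qb} {M p : ℕ} [NeZero M] [NeZero p]
  [NeZero (M * p)]
  [IsDiscreteValuationRing ↥(mgcA A K₁)] {π : ↥(mgcA A K₁)} (hπ : Irreducible π)
  (ιC : ↥(mgcE A K₁) →+* ℂ) (hp : p.Prime) (hpM : ¬ p ∣ M)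

variable [NumberField K₁] [IsGalois ℚ K₁]

set_option synthInstance.maxHeartbeats 400000 in
set_option maxHeartbeats 1600000 in
/-- **FAC-BIG, `E′`-level**: the local shape of a split function at every closed point of the
special fibre of both charts. -/
theorem tres5b_field (hA : A.LiesOverPrime p) (h2 : p = 2 → 3 ∣ M) (h3 : p = 3 → 2 ∣ M)
    {ζ : ↥(mgcA A K₁)} (hζ : IsPrimitiveRoot ζ p)
    {u₀ : ↥(mgcF A K₁ (M * p))} (hu₀ : u₀ ≠ 0)
    (hdiv : ∀ P : Place Qb (modularFunctionFieldBar (M * p)),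
      ((p : ℕ) : ℤ) ∣ P.ord (nfEmb (mgcE A K₁) (M * p) u₀))
    (hR : MgcRat A K₁ (M * p) u₀)
    (hsplit : ∀ c, ∃ h : ↥(mgcF A K₁ (M * p)), h ≠ 0 ∧
      (mgvV hπ ιC hp hpM c).valuation (u₀ / h ^ p - 1) ≤
        (mgvV hπ ιC hp hpM c).valuation
          ((algebraMap ↥(mgcA A K₁) ↥(mgcF A K₁ (M * p)) ζ - 1) ^ p *
            algebraMap ↥(mgcA A K₁) ↥(mgcF A K₁ (M * p)) π)) :
    ∀ i, ∃ g : ↥(mgcF A K₁ (M * p)), g ≠ 0 ∧ ∃ y ∈ atO π (mgcT A K₁ (M * p)) i,
      u₀ / g ^ p - 1 =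
        (algebraMap ↥(mgcA A K₁) ↥(mgcF A K₁ (M * p)) ζ - 1) ^ p *
          algebraMap ↥(mgcA A K₁) ↥(mgcF A K₁ (M * p)) π * y := by
  haveI := mgc_finiteDimensional A K₁ (M * p)
  have ht := mgc_transcendental A K₁ (M * p)
  have hSS1 := mgcb_reg_SS1_J (K₀ := mgcE A K₁) hπ ιC hp hpM hA
    (stb_regChart_conc_J M hp hA le_sup_left hπ hpM h2 h3)
  have hrat' : ∀ P : Place ↥(mgcE A K₁) ↥(mgcF A K₁ (M * p)), P.ord u₀ ≠ 0 →
      ∀ f ∈ P.toValuationSubring, ∃ c : ↥(mgcE A K₁),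
        f - algebraMap ↥(mgcE A K₁) ↥(mgcF A K₁ (M * p)) c ∈
          P.toValuationSubring.nonunits := by
    intro P hP f hf
    refine hR P 1 1 (fun a => rfl) ?_ f hf
    rw [map_one, one_smul]
    exact hP
  exact tres5b_hloc_main hπ ht hp hζ (wtop_hlam hπ hp hA hζ.pow_eq_one)
    (mgvV hπ ιC hp hpM) true false (fun c => by cases c <;> simp) (mgvl_hne hπ ιC hp hpM hA)
    (mgv_hBV₁ hπ ιC hp hpM) (mgv_hBV₂ hπ ιC hp hpM) (mgv_hπV hπ ιC hp hpM) hSS1
    (mgv_harch hπ ιC hp hpM) (mgv_hVloc₁ hπ ιC hp hpM hA hSS1)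
    (mgv_hVloc₂ hπ ιC hp hpM hA hSS1) hu₀ hsplit
    (mg_hfin (mgcE A K₁) (M * p) u₀ hu₀) (mg_dvd_ord (mgcE A K₁) (M * p) _ u₀ hdiv) hrat'
    (wpt_pts₁ K₁ hp hpM hA h2 h3 hπ ιC) (wpt_pts₂ K₁ hp hpM hA h2 h3 hπ ιC)

/-- **FAC-BIG, `E′`-level, vertical valuations.** -/
theorem tres5b_field_vert
    {ζ : ↥(mgcA A K₁)} (hζ : IsPrimitiveRoot ζ p)
    {u₀ : ↥(mgcF A K₁ (M * p))}
    (hsplit : ∀ c, ∃ h : ↥(mgcF A K₁ (M * p)), h ≠ 0 ∧
      (mgvV hπ ιC hp hpM c).valuation (u₀ / h ^ p - 1) ≤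
        (mgvV hπ ιC hp hpM c).valuation
          ((algebraMap ↥(mgcA A K₁) ↥(mgcF A K₁ (M * p)) ζ - 1) ^ p *
            algebraMap ↥(mgcA A K₁) ↥(mgcF A K₁ (M * p)) π)) :
    ∀ c, ∃ g : ↥(mgcF A K₁ (M * p)), g ≠ 0 ∧ ∃ y ∈ mgvV hπ ιC hp hpM c,
      u₀ / g ^ p - 1 =
        (algebraMap ↥(mgcA A K₁) ↥(mgcF A K₁ (M * p)) ζ - 1) ^ p *
          algebraMap ↥(mgcA A K₁) ↥(mgcF A K₁ (M * p)) π * y := by
  intro c
  have hπ0 : algebraMap ↥(mgcA A K₁) ↥(mgcF A K₁ (M * p)) π ≠ 0 :=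
    unip_algebraMap_irreducible_ne_zero ↥(mgcE A K₁) hπ
  have hinj : Function.Injective (algebraMap ↥(mgcA A K₁) ↥(mgcF A K₁ (M * p))) :=
    zch_algebraMap_injective (A₀ := ↥(mgcA A K₁)) (E := ↥(mgcE A K₁))
  have hζ1 : algebraMap ↥(mgcA A K₁) ↥(mgcF A K₁ (M * p)) ζ - 1 ≠ 0 := by
    rw [sub_ne_zero]
    exact (hζ.map_of_injective hinj).ne_one hp.one_lt
  exact tres5b_vert (mgvV hπ ιC hp hpM c) (mul_ne_zero (pow_ne_zero p hζ1) hπ0) (hsplit c)

end Field

section Bar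

variable {p M : ℕ} [NeZero p] [NeZero M] [NeZero (M * p)]

set_option synthInstance.maxHeartbeats 400000 in
set_option maxHeartbeats 1600000 in
/-- **FAC-BIG, `ℚ̄`-level.**  For a split function `u` of `F̄_{Mp}` with `p ∣ div u`: over every
sufficiently large number field `K₁`, every model `u₀` of `u` over `E′ = ℚ̄^I K₁` has the Kummer
local shape at the two vertical valuations and at every closed point of both charts. -/
theorem tres5b_bar (hp : p.Prime) (hpM : ¬ p ∣ M) (hp3 : 3 ≤ p) (h3 : p = 3 → 2 ∣ M)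
    (A : ValuationSubring Qb) (hA : A.LiesOverPrime p)
    (u : modularFunctionFieldBar (M * p)) (hu : u ≠ 0)
    (hdiv : ∀ P : Place Qb (modularFunctionFieldBar (M * p)), (p : ℤ) ∣ P.ord u)
    (hsplit : IsSplitFn hp hpM A u) :
    ∃ K₀ : IntermediateField ℚ Qb, FiniteDimensional ℚ K₀ ∧
      ∀ (K₁ : IntermediateField ℚ Qb), K₀ ≤ K₁ → ∀ [NumberField K₁] [IsGalois ℚ K₁]
        [IsDiscreteValuationRing ↥(mgcA A K₁)] {π : ↥(mgcA A K₁)} (hπ : Irreducible π)
        {ζ : ↥(mgcA A K₁)}, IsPrimitiveRoot ζ p →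
        (∃ u₀ : ↥(mgcF A K₁ (M * p)), nfEmb (mgcE A K₁) (M * p) u₀ = u) ∧
        ∀ u₀ : ↥(mgcF A K₁ (M * p)), nfEmb (mgcE A K₁) (M * p) u₀ = u →
          (∀ c, ∃ g : ↥(mgcF A K₁ (M * p)), g ≠ 0 ∧
            ∃ y ∈ mgvV hπ (mgdIota (mgcE A K₁)) hp hpM c,
              u₀ / g ^ p - 1 =
                (algebraMap ↥(mgcA A K₁) ↥(mgcF A K₁ (M * p)) ζ - 1) ^ p *
                  algebraMap ↥(mgcA A K₁) ↥(mgcF A K₁ (M * p)) π * y) ∧
          (∀ i, ∃ g : ↥(mgcF A K₁ (M * p)), g ≠ 0 ∧ ∃ y ∈ atO π (mgcT A K₁ (M * p)) i,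
            u₀ / g ^ p - 1 =
              (algebraMap ↥(mgcA A K₁) ↥(mgcF A K₁ (M * p)) ζ - 1) ^ p *
                algebraMap ↥(mgcA A K₁) ↥(mgcF A K₁ (M * p)) π * y) := by
  have hp2 : p ≠ 2 := by omega
  -- the bridge
  obtain ⟨Kb, hKbfin, hbridge⟩ := wdb_hsplit_of_isSplitFn hp hpM hp3 A hsplit
  -- a number field of definition of `u`
  obtain ⟨K', hK'fin, -, hK'⟩ := mg_exists_descent (N := M * p) ∅ u.2
  haveI := hK'fin
  haveI := hKbfin
  have hE₁fin : FiniteDimensional ℚ ↥(K' ⊔ Kb) := IntermediateField.finiteDimensional_sup K' Kb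
  obtain ⟨K₀, hE₁K₀, hK₀fin, -, hrat⟩ :=
    rat_exists_field_rational (N := M * p) u hu (K' ⊔ Kb) hE₁fin
  refine ⟨K₀, hK₀fin, fun K₁ hK₀₁ _ _ _ π hπ ζ hζ => ?_⟩
  have hK₁E : K₁ ≤ mgcE A K₁ := le_sup_right
  have hK₀E : K₀ ≤ mgcE A K₁ := hK₀₁.trans hK₁E
  have hK'E : K' ≤ mgcE A K₁ := (le_sup_left.trans hE₁K₀).trans hK₀E
  have hKbE : Kb ≤ mgcE A K₁ := (le_sup_right.trans hE₁K₀).trans hK₀E
  refine ⟨hK' (mgcE A K₁) hK'E, fun u₀ hu₀ => ?_⟩
  have hu₀0 : u₀ ≠ 0 := by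
    rintro rfl
    apply hu
    rw [← hu₀, map_zero]
  have hlam : π ∣ ζ - 1 := wtop_hlam hπ hp hA hζ.pow_eq_one
  have hR : MgcRat A K₁ (M * p) u₀ := fun Q s σ' hs hQ f hf =>
    hrat (mgcE A K₁) hK₀E u₀ hu₀ Q s σ' hs hQ f hf
  have hsp := hbridge (mgcE A K₁) hKbE hπ (mgdIota (mgcE A K₁)) hζ hlam u₀ hu₀
  exact ⟨tres5b_field_vert hπ (mgdIota (mgcE A K₁)) hp hpM hζ hsp,
    tres5b_field hπ (mgdIota (mgcE A K₁)) hp hpM hA (fun h => absurd h hp2) h3 hζ hu₀0
      (by rw [hu₀]; exact hdiv) hR hsp⟩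

end Bar

end Fermat.Agent.R38

end
end ZBR38_016_1

/-! ### bundled: `Fermat.Agent.R38.TresGRedMain` -/
section ZBR38_016_2
/-
ROW 38, TRES, piece FAC-GRED (helper24), part 2c: THE KUMMER GENERATOR OF THE COVER IS A QUOTIENT
OF TWO SERIES OVER `A` (`hfracY` of helper53's (A)-instance, `R38/TresKFormInstV.lean`).

`A` a discrete valuation ring with uniformizer `π`, residue characteristic `p`, `E = Frac A`,
`ζ ∈ A` a primitive `p`-th root of unity.  `Y ∈ E((q))` with `Y ^ p = u`, and the LOCAL SHAPE AT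
THE CUSP `∞̄`: `u / g ^ p − 1 = (ζ − 1) ^ p · π · y` with `y ∈ A[[q]]`, `g` a quotient of two
series over `A` (the output (P2) of `R38/TresGRedCuspShape.lean`).  Then
`z = (Y / g − 1) / (ζ − 1)` is a root of `∏_{k<p} (Z − c_k) = π y` (`tres5b_root`), hence
`z ∈ A[[q]]` by Hensel (`tres5gh_split_laurent`), and `Y = g (1 + (ζ − 1) z)` is `VtFrac`.

* `tres5g_dvr_hloc/_hic/_hval/_hcic/_normal` : the hypotheses of `R38/TresGRedHensel.lean` for a
  discrete valuation ring (frame of `UNIP.vtBase_residue`); `tres5g_dvr_normal` = `hnorm` of the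
  cusp (`R38/TresGRedCusp.lean`).
* `tres5g_dvr_hc`       : the roots `c_k` are pairwise distinct modulo `𝔪`.
* `tres5g_kummer_mem`   : `z ∈ A[[q]]`.
* `tres5g_frac_kummer`  : `VtFrac (Y)` (Laurent series level).
* `tres5g_hfracY`       : the same for a cover `L ⊇ F` embedded in `E((q))`.
* `tres5g_hfrac_cover`  : `hfrac` for the whole cover `L = F(Y)`.
-/

set_option autoImplicit false
set_option linter.unusedSectionVars false
set_option linter.style.haveILetI false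

noncomputable section

namespace Fermat.Agent.R38

open Polynomial Fermat.Agent.UNIP Fermat.Agent.INJ ModularCurve

section DVR

variable {A E : Type*} [CommRing A] [IsDomain A] [IsDiscreteValuationRing A]
  [Field E] [Algebra A E] [IsFractionRing A E]

theorem tres5g_dvr_hloc (a : A) (ha : IsLocalRing.residue A a ≠ 0) : IsUnit a := by
  by_contra h
  exact ha ((IsLocalRing.residue_eq_zero_iff a).mpr ((IsLocalRing.mem_maximalIdeal a).mpr h))

theorem tres5g_dvr_hic (x : E) (p : A[X]) (hp : p.Monic)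
    (hx : p.eval₂ (algebraMap A E) x = 0) : ∃ a : A, algebraMap A E a = x :=
  (IsIntegrallyClosed.isIntegral_iff (R := A) (K := E)).mp ⟨p, hp, hx⟩

theorem tres5g_dvr_hval {π : A} (hπ : Irreducible π) (x : E) :
    (∃ a : A, algebraMap A E a = x) ∨ ∃ a : A, algebraMap A E (π * a) * x = 1 := by
  rcases eq_or_ne x 0 with rfl | hx0
  · exact Or.inl ⟨0, map_zero _⟩
  rcases ValuationRing.isInteger_or_isInteger A x with ⟨a, ha⟩ | ⟨b, hb⟩
  · exact Or.inl ⟨a, ha⟩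
  by_cases hbu : IsUnit b
  · left
    obtain ⟨c, hc⟩ := isUnit_iff_exists_inv.mp hbu
    refine ⟨c, ?_⟩
    have h1 : algebraMap A E b * algebraMap A E c = 1 := by rw [← map_mul, hc, map_one]
    rw [hb] at h1
    have h2 : x * (x⁻¹ * algebraMap A E c) = x := by rw [h1, mul_one]
    rwa [← mul_assoc, mul_inv_cancel₀ hx0, one_mul] at h2
  · right
    have hr : IsLocalRing.residue A b = 0 :=
      (IsLocalRing.residue_eq_zero_iff _).mpr ((IsLocalRing.mem_maximalIdeal _).mpr hbu)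
    obtain ⟨a, ha⟩ := (vtBase_residue (E := E) hπ).ker _ hr
    refine ⟨a, ?_⟩
    rw [← ha, hb]
    exact inv_mul_cancel₀ hx0

/-- `A` is completely integrally closed in `E` -/
theorem tres5g_dvr_hcic {π : A} (hπ : Irreducible π) :
    ∀ x d : E, d ≠ 0 → (∀ n : ℕ, ∃ a : A, algebraMap A E a = d * x ^ n) →
      ∃ a : A, algebraMap A E a = x :=
  tres5gh_cic _ (vtBase_residue (E := E) hπ) (tres5g_dvr_hval hπ)

/-- **normality of `A[[q]]`**: the hypothesis `hnorm` of the cusp (`R38/TresGRedCusp.lean`). -/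
theorem tres5g_dvr_normal {π : A} (hπ : Irreducible π) {x : LaurentSeries E}
    (hint : IsIntegral ↥(tres5gPS (algebraMap A E)) x) (hfrac : VtFrac (algebraMap A E) x) :
    x ∈ tres5gPS (algebraMap A E) :=
  tres5gh_normal _ (IsFractionRing.injective A E) (tres5g_dvr_hcic hπ) hint hfrac

/-- the roots `c_k = 1 + ζ + … + ζ^{k-1}`, `k < p`, are pairwise distinct modulo `𝔪` -/
theorem tres5g_dvr_hc {p : ℕ} (hp : p.Prime) (hpA : (p : A) ∈ IsLocalRing.maximalIdeal A)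
    {ζ : A} (hζ : ζ ^ p = 1) (hlam : ζ - 1 ∈ IsLocalRing.maximalIdeal A) :
    ∀ i ∈ Finset.range p, ∀ j ∈ Finset.range p, i ≠ j →
      IsLocalRing.residue A (tres5bC ζ i) ≠ IsLocalRing.residue A (tres5bC ζ j) := by
  intro i hi j hj hij h
  rw [Finset.mem_range] at hi hj
  rcases Nat.lt_or_gt_of_ne hij with hlt | hlt
  · have hu := tres5b_c_isUnit hp hpA hζ hlam hlt hj
    have h0 : IsLocalRing.residue A (tres5bC ζ j - tres5bC ζ i) = 0 := by
      rw [map_sub, h, sub_self]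
    exact ((IsLocalRing.mem_maximalIdeal _).mp ((IsLocalRing.residue_eq_zero_iff _).mp h0)) hu
  · have hu := tres5b_c_isUnit hp hpA hζ hlam hlt hi
    have h0 : IsLocalRing.residue A (tres5bC ζ i - tres5bC ζ j) = 0 := by
      rw [map_sub, h, sub_self]
    exact ((IsLocalRing.mem_maximalIdeal _).mp ((IsLocalRing.residue_eq_zero_iff _).mp h0)) hu

/-- **the split generator at the cusp lies in `A[[q]]`.** -/
theorem tres5g_kummer_mem {π : A} (hπ : Irreducible π) {p : ℕ} (hp : p.Prime)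
    (hpA : (p : A) ∈ IsLocalRing.maximalIdeal A) {ζ : A} (hζ : IsPrimitiveRoot ζ p)
    (hlam : ζ - 1 ∈ IsLocalRing.maximalIdeal A)
    {Y u g : LaurentSeries E} (hg : g ≠ 0) (hY : Y ^ p = u) (y : PowerSeries A)
    (hu : u / g ^ p - 1 = HahnSeries.C (algebraMap A E ((ζ - 1) ^ p * π)) *
      HahnSeries.ofPowerSeries ℤ E (y.map (algebraMap A E))) :
    (Y / g - 1) / (HahnSeries.C (algebraMap A E ζ) - 1) ∈ tres5gPS (algebraMap A E) := by
  have hinj : Function.Injective (algebraMap A E) := IsFractionRing.injective A E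
  have hCinj : Function.Injective ((HahnSeries.C : E →+* LaurentSeries E).comp (algebraMap A E)) :=
    HahnSeries.C_injective.comp hinj
  have hζL : IsPrimitiveRoot (HahnSeries.C (algebraMap A E ζ) : LaurentSeries E) p :=
    hζ.map_of_injective hCinj
  have hu' : u / g ^ p - 1 = ((HahnSeries.C (algebraMap A E ζ) : LaurentSeries E) - 1) ^ p *
      (HahnSeries.C (algebraMap A E π) *
        HahnSeries.ofPowerSeries ℤ E (y.map (algebraMap A E))) := by
    rw [hu, map_mul, map_pow, map_sub, map_one, map_mul, map_pow, map_sub, map_one, mul_assoc]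
  have hroot := tres5b_root hp.two_le hζL hg hY hu'
  have hC : ∀ k : ℕ, tres5bC (HahnSeries.C (algebraMap A E ζ) : LaurentSeries E) k =
      HahnSeries.C (algebraMap A E (tres5bC ζ k)) := fun k =>
    (tres5bC_map ((HahnSeries.C : E →+* LaurentSeries E).comp (algebraMap A E)) ζ k).symm
  have hm : (HahnSeries.C (algebraMap A E π) : LaurentSeries E) *
      HahnSeries.ofPowerSeries ℤ E (y.map (algebraMap A E)) =
      HahnSeries.ofPowerSeries ℤ E ((PowerSeries.C π * y).map (algebraMap A E)) := by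
    rw [map_mul, map_mul, PowerSeries.map_C, HahnSeries.ofPowerSeries_C]
  refine tres5gh_split_laurent (algebraMap A E) hinj (IsLocalRing.residue A) tres5g_dvr_hloc
    tres5g_dvr_hic (Finset.range p) (fun k => tres5bC ζ k)
    (tres5g_dvr_hc hp hpA hζ.pow_eq_one hlam) (PowerSeries.C π * y) ?_ _ ?_
  · rw [map_mul, PowerSeries.constantCoeff_C, map_mul, (vtBase_residue (E := E) hπ).rπ, zero_mul]
  · rw [← hm, ← hroot]
    exact Finset.prod_congr rfl fun k _ => by rw [hC]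

/-- **`VtFrac` for the Kummer generator** (Laurent series level). -/
theorem tres5g_frac_kummer {π : A} (hπ : Irreducible π) {p : ℕ} (hp : p.Prime)
    (hpA : (p : A) ∈ IsLocalRing.maximalIdeal A) {ζ : A} (hζ : IsPrimitiveRoot ζ p)
    (hlam : ζ - 1 ∈ IsLocalRing.maximalIdeal A)
    {Y u g : LaurentSeries E} (hg : g ≠ 0) (hgf : VtFrac (algebraMap A E) g) (hY : Y ^ p = u)
    (y : PowerSeries A)
    (hu : u / g ^ p - 1 = HahnSeries.C (algebraMap A E ((ζ - 1) ^ p * π)) *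
      HahnSeries.ofPowerSeries ℤ E (y.map (algebraMap A E))) :
    VtFrac (algebraMap A E) Y := by
  have hinj : Function.Injective (algebraMap A E) := IsFractionRing.injective A E
  have hz := tres5g_kummer_mem hπ hp hpA hζ hlam hg hY y hu
  have hlam0 : (HahnSeries.C (algebraMap A E ζ) : LaurentSeries E) - 1 ≠ 0 := by
    have hCinj : Function.Injective
        ((HahnSeries.C : E →+* LaurentSeries E).comp (algebraMap A E)) :=
      HahnSeries.C_injective.comp hinj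
    have hζL : IsPrimitiveRoot (HahnSeries.C (algebraMap A E ζ) : LaurentSeries E) p :=
      hζ.map_of_injective hCinj
    exact sub_ne_zero.mpr (hζL.ne_one hp.one_lt)
  have hlamf : VtFrac (algebraMap A E) ((HahnSeries.C (algebraMap A E ζ) : LaurentSeries E) - 1) := by
    have e : (HahnSeries.C (algebraMap A E ζ) : LaurentSeries E) - 1 =
        HahnSeries.C (algebraMap A E (ζ - 1)) := by rw [map_sub, map_one, map_sub, map_one]
    rw [e]
    exact tres5g_PS_vtFrac (tres5g_C_mem _)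
  rw [tres5b_Y_eq (Y := Y) hg hlam0]
  exact hgf.mul hinj (VtFrac.one.add hinj (hlamf.mul hinj (tres5g_PS_vtFrac hz)))

end DVR

section Cover

variable {A E : Type*} [CommRing A] [IsDomain A] [IsDiscreteValuationRing A]
  [Field E] [Algebra A E] [IsFractionRing A E]
  {F L : Type*} [Field F] [Field L] [Algebra F L]
  (eF : F →+* LaurentSeries E) (eL : L →+* LaurentSeries E)

/-- **`hfracY`**: the Kummer generator `Y` of a cover `L ⊇ F` embedded in `E((q))` is a quotient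
of two series over `A`, from the local shape of `u = Y ^ p` at the cusp `∞̄`. -/
theorem tres5g_hfracY (hcomp : ∀ a : F, eL (algebraMap F L a) = eF a)
    (hfracF : ∀ a : F, VtFrac (algebraMap A E) (eF a))
    {π : A} (hπ : Irreducible π) {p : ℕ} (hp : p.Prime)
    (hpA : (p : A) ∈ IsLocalRing.maximalIdeal A) {ζ : A} (hζ : IsPrimitiveRoot ζ p)
    (hlam : ζ - 1 ∈ IsLocalRing.maximalIdeal A)
    {Y : L} {u g : F} (hg : g ≠ 0) (hY : Y ^ p = algebraMap F L u) (y : PowerSeries A)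
    (hu : eF (u / g ^ p - 1) = HahnSeries.C (algebraMap A E ((ζ - 1) ^ p * π)) *
      HahnSeries.ofPowerSeries ℤ E (y.map (algebraMap A E))) :
    VtFrac (algebraMap A E) (eL Y) := by
  refine tres5g_frac_kummer hπ hp hpA hζ hlam (Y := eL Y) (u := eF u) (g := eF g)
    ((map_ne_zero eF).mpr hg) (hfracF g) ?_ y ?_
  · rw [← map_pow, hY, hcomp]
  · rw [← hu, map_sub, map_div₀, map_pow, map_one]

/-- **`hfrac` for the whole cover** `L = F(Y)`. -/
theorem tres5g_hfrac_cover (hcomp : ∀ a : F, eL (algebraMap F L a) = eF a)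
    (hfracF : ∀ a : F, VtFrac (algebraMap A E) (eF a))
    {π : A} (hπ : Irreducible π) {p : ℕ} (hp : p.Prime)
    (hpA : (p : A) ∈ IsLocalRing.maximalIdeal A) {ζ : A} (hζ : IsPrimitiveRoot ζ p)
    (hlam : ζ - 1 ∈ IsLocalRing.maximalIdeal A)
    {Y : L} {u g : F} (hg : g ≠ 0) (hY : Y ^ p = algebraMap F L u) (y : PowerSeries A)
    (hu : eF (u / g ^ p - 1) = HahnSeries.C (algebraMap A E ((ζ - 1) ^ p * π)) *
      HahnSeries.ofPowerSeries ℤ E (y.map (algebraMap A E)))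
    (htop : IntermediateField.adjoin F ({Y} : Set L) = ⊤) :
    ∀ x : L, VtFrac (algebraMap A E) (eL x) :=
  tres5g_frac_of_gen (vtBase_residue (E := E) hπ) eL
    (fun a => by rw [hcomp]; exact hfracF a)
    (tres5g_hfracY eF eL hcomp hfracF hπ hp hpA hζ hlam hg hY y hu) htop

end Cover

end Fermat.Agent.R38

end
end ZBR38_016_2

/-! ### bundled: `Fermat.Agent.R38.TresGRedShape` -/
section ZBR38_016_3
/-
ROW 38, TRES, piece FAC-GRED (helper24), part 3a: THE CUSP SHAPE (P2) AND `hfracY`.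

Setting of `R38.tres5b_field` (`R38/TresBig.lean`): `E′ = mgcE A K₁`, `A′ = mgcA A K₁` a discrete
valuation ring with uniformizer `π`, `F′ = mgcF A K₁ (M p)`, `ζ ∈ A′` a primitive `p`-th root of
unity, `𝔫_∞ = tres5gcInf hπ (M p)` the cusp `∞̄` of the chart `1/j` (helper16).

* `tres5g_shape_of_pt`  : **(P2)** ONE instance of the conclusion of `tres5b_field` / `tres5b_bar`
      (at `i = Sum.inr 𝔫_∞`) gives `u₀ / g ^ p − 1 = (ζ − 1) ^ p π y` with `y ∈ A′[[q]]`.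
* `tres5g_hfracY_of_shape` : **`hfracY`**: for every field `L ⊇ F′` embedded in `E′((q))` and
      `Y ∈ L` with `Y ^ p = u₀`, the series of `Y` is a quotient of two series over `A′`.
* `tres5g_hfrac_cover_of_shape` : `hfrac` of the cover `L = F′(Y)`: the Gauss sheet
      `W₀ = vtSub (vtBase_residue hπ) eL hfrac` exists (`R38/TresGRed.lean`, `tres5g_gauss_*`).
-/

set_option autoImplicit false
set_option linter.style.haveILetI false
set_option linter.unusedSectionVars false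
set_option linter.unusedVariables false

noncomputable section

namespace Fermat.Agent.R38

open ModularCurve AlgebraicCurve Fermat.Agent.ES Fermat.Agent.ES.G2 Fermat.Agent.INJ
open Fermat.Agent.UNIP IntermediateField

section Mgc

variable {A : ValuationSubring Qb} {K₁ : IntermediateField ℚ Qb} {M p : ℕ} [NeZero M] [NeZero p]
  [NeZero (M * p)]
  [IsDiscreteValuationRing ↥(mgcA A K₁)] {π : ↥(mgcA A K₁)} (hπ : Irreducible π)
  (hp : p.Prime)

/-- the `q`-expansion of a constant of `A′` -/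
theorem tres5g_coe_algebraMap_mgc (a : ↥(mgcA A K₁)) :
    ((algebraMap ↥(mgcA A K₁) ↥(mgcF A K₁ (M * p)) a : ↥(mgcF A K₁ (M * p))) :
      LaurentSeries ↥(mgcE A K₁)) = HahnSeries.C (algebraMap ↥(mgcA A K₁) ↥(mgcE A K₁) a) :=
  tres5gc_vtEmb_const (K₀ := mgcE A K₁) (M * p) (algebraMap ↥(mgcA A K₁) ↥(mgcE A K₁) a)

/-- **(P2), from the shape at the point `𝔫_∞`** (one instance of the conclusion of
`tres5b_field` / `tres5b_bar`). -/
theorem tres5g_shape_of_pt {ζ : ↥(mgcA A K₁)} {u₀ : ↥(mgcF A K₁ (M * p))}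
    (hpt : ∃ g : ↥(mgcF A K₁ (M * p)), g ≠ 0 ∧
      ∃ y ∈ atO π (mgcT A K₁ (M * p)) (Sum.inr (tres5gcInf (K₀ := mgcE A K₁) hπ (M * p))),
        u₀ / g ^ p - 1 =
          (algebraMap ↥(mgcA A K₁) ↥(mgcF A K₁ (M * p)) ζ - 1) ^ p *
            algebraMap ↥(mgcA A K₁) ↥(mgcF A K₁ (M * p)) π * y) :
    ∃ g : ↥(mgcF A K₁ (M * p)), g ≠ 0 ∧ ∃ y : PowerSeries ↥(mgcA A K₁),
      (((u₀ / g ^ p - 1 : ↥(mgcF A K₁ (M * p))) : ↥(mgcF A K₁ (M * p))) :
        LaurentSeries ↥(mgcE A K₁)) =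
        HahnSeries.C (algebraMap ↥(mgcA A K₁) ↥(mgcE A K₁) ((ζ - 1) ^ p * π)) *
          HahnSeries.ofPowerSeries ℤ ↥(mgcE A K₁)
            (y.map (algebraMap ↥(mgcA A K₁) ↥(mgcE A K₁))) := by
  obtain ⟨g, hg, y₁, hy₁, hshape⟩ := hpt
  have hy₁' : y₁ ∈ atLoc (tres5gcInf (K₀ := mgcE A K₁) hπ (M * p)) := hy₁
  obtain ⟨y, hy⟩ := tres5gcInf_atLoc_mem (K₀ := mgcE A K₁) hπ (M * p) y₁ hy₁'
  refine ⟨g, hg, y, ?_⟩
  rw [hshape]
  have e : (((algebraMap ↥(mgcA A K₁) ↥(mgcF A K₁ (M * p)) ζ - 1) ^ p *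
      algebraMap ↥(mgcA A K₁) ↥(mgcF A K₁ (M * p)) π * y₁ : ↥(mgcF A K₁ (M * p))) :
        LaurentSeries ↥(mgcE A K₁)) =
      ((algebraMap ↥(mgcA A K₁) ↥(mgcF A K₁ (M * p)) ((ζ - 1) ^ p * π) :
          ↥(mgcF A K₁ (M * p))) : LaurentSeries ↥(mgcE A K₁)) *
        ((y₁ : ↥(mgcF A K₁ (M * p))) : LaurentSeries ↥(mgcE A K₁)) := by
    rw [map_mul, map_pow, map_sub, map_one]
    rfl
  rw [e, tres5g_coe_algebraMap_mgc]
  congr 1
  exact hy.symm

include hπ hp in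
/-- **`hfracY`, from the shape (P2).** -/
theorem tres5g_hfracY_of_shape
    (hpA : ((p : ℕ) : ↥(mgcA A K₁)) ∈ IsLocalRing.maximalIdeal ↥(mgcA A K₁))
    {ζ : ↥(mgcA A K₁)} (hζ : IsPrimitiveRoot ζ p)
    (hlam : ζ - 1 ∈ IsLocalRing.maximalIdeal ↥(mgcA A K₁))
    {u₀ : ↥(mgcF A K₁ (M * p))}
    (hshape : ∃ g : ↥(mgcF A K₁ (M * p)), g ≠ 0 ∧ ∃ y : PowerSeries ↥(mgcA A K₁),
      (((u₀ / g ^ p - 1 : ↥(mgcF A K₁ (M * p))) : ↥(mgcF A K₁ (M * p))) :
        LaurentSeries ↥(mgcE A K₁)) =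
        HahnSeries.C (algebraMap ↥(mgcA A K₁) ↥(mgcE A K₁) ((ζ - 1) ^ p * π)) *
          HahnSeries.ofPowerSeries ℤ ↥(mgcE A K₁)
            (y.map (algebraMap ↥(mgcA A K₁) ↥(mgcE A K₁))))
    {L : Type*} [Field L] [Algebra ↥(mgcF A K₁ (M * p)) L]
    (eL : L →+* LaurentSeries ↥(mgcE A K₁))
    (hcomp : ∀ a : ↥(mgcF A K₁ (M * p)),
      eL (algebraMap ↥(mgcF A K₁ (M * p)) L a) = (a : LaurentSeries ↥(mgcE A K₁)))
    {Y : L} (hY : Y ^ p = algebraMap ↥(mgcF A K₁ (M * p)) L u₀) :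
    VtFrac (algebraMap ↥(mgcA A K₁) ↥(mgcE A K₁)) (eL Y) := by
  obtain ⟨g, hg, y, hy⟩ := hshape
  exact tres5g_hfracY (vtEmb ↥(mgcE A K₁) (M * p)) eL hcomp
    (tres5gc_vtEmb_frac (K₀ := mgcE A K₁) hπ (M * p)) hπ hp hpA hζ hlam hg hY y hy

include hπ hp in
/-- **`hfrac` of the cover, from the shape (P2).** -/
theorem tres5g_hfrac_cover_of_shape
    (hpA : ((p : ℕ) : ↥(mgcA A K₁)) ∈ IsLocalRing.maximalIdeal ↥(mgcA A K₁))
    {ζ : ↥(mgcA A K₁)} (hζ : IsPrimitiveRoot ζ p)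
    (hlam : ζ - 1 ∈ IsLocalRing.maximalIdeal ↥(mgcA A K₁))
    {u₀ : ↥(mgcF A K₁ (M * p))}
    (hshape : ∃ g : ↥(mgcF A K₁ (M * p)), g ≠ 0 ∧ ∃ y : PowerSeries ↥(mgcA A K₁),
      (((u₀ / g ^ p - 1 : ↥(mgcF A K₁ (M * p))) : ↥(mgcF A K₁ (M * p))) :
        LaurentSeries ↥(mgcE A K₁)) =
        HahnSeries.C (algebraMap ↥(mgcA A K₁) ↥(mgcE A K₁) ((ζ - 1) ^ p * π)) *
          HahnSeries.ofPowerSeries ℤ ↥(mgcE A K₁)
            (y.map (algebraMap ↥(mgcA A K₁) ↥(mgcE A K₁))))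
    {L : Type*} [Field L] [Algebra ↥(mgcF A K₁ (M * p)) L]
    (eL : L →+* LaurentSeries ↥(mgcE A K₁))
    (hcomp : ∀ a : ↥(mgcF A K₁ (M * p)),
      eL (algebraMap ↥(mgcF A K₁ (M * p)) L a) = (a : LaurentSeries ↥(mgcE A K₁)))
    {Y : L} (hY : Y ^ p = algebraMap ↥(mgcF A K₁ (M * p)) L u₀)
    (htop : IntermediateField.adjoin ↥(mgcF A K₁ (M * p)) ({Y} : Set L) = ⊤) :
    ∀ x : L, VtFrac (algebraMap ↥(mgcA A K₁) ↥(mgcE A K₁)) (eL x) :=
  tres5g_frac_of_gen (vtBase_residue hπ) eL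
    (fun a => by rw [hcomp]; exact tres5gc_vtEmb_frac (K₀ := mgcE A K₁) hπ (M * p) a)
    (tres5g_hfracY_of_shape hπ hp hpA hζ hlam hshape eL hcomp hY) htop

end Mgc

end Fermat.Agent.R38

end
end ZBR38_016_3

/-! ### bundled: `Fermat.Agent.R38.TresBigPt` -/
section ZBR38_016_4

/-!
# ROW 38, TRES, piece FAC-BIG (helper16), part 3 (P2): the split situation `Tres5eSplit` at a
closed point from the Kummer local shape

Frame of helper28's `R38/TresEtale.lean`: `R` a local integrally closed domain with fraction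
field `F` (the local ring `atLoc 𝔫` of a chart over the big field), `L ⊇ F` a field,
`Y ∈ L`, `Y ^ p = u`, `F(Y) = L`, `u` not a `p`-th power in `F`; `ζ ∈ R` a primitive `p`-th root
of unity, `λ = ζ − 1 ∈ 𝔪_R`, `p ∈ 𝔪_R`, and THE SHAPE (`tres5b_field`, `tres5b_bar`)
      `u / g ^ p − 1 = λ ^ p · a`,   `a ∈ 𝔪_R`   (`a = π y`).

* `tres5bpC p ζ k = 1 + ζ + … + ζ^{k.val − 1}` (`k : ZMod p`), `tres5bpP p ζ a = ∏_k (X − c_k) − a`,
  `tres5bpZ ζ g Y = (Y / g − 1) / λ`.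
* `tres5bp_split` : `Tres5eSplit F (tres5bpZ ζ g Y) (tres5bpP p ζ a) (tres5bpC p ζ)`
  — the input of helper53's `tres5kp_descend` (index type `ZMod p`) and of helper28's ET1/ET2.
* `tres5bp_finrank` : `[L : F] = p`.
* `tres5bp_deck` : a deck transformation `ρ Y = ζ Y` satisfies `ρ z = c_{i+1} + ζ (z − c_i)`:
  the hypothesis `hρ` of `tres5kp_descend` / `Tres5eSplit.deck_max`.
-/

set_option autoImplicit false
set_option linter.style.haveILetI false
set_option linter.unusedSectionVars false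
set_option linter.unusedVariables false

namespace Fermat.Agent.R38

open Polynomial IntermediateField Fermat.Agent.UNIP Fermat.Agent.INJ Fermat.Agent.S33

section Prod

/-- a product over `ZMod p` as a product over `range p` -/
theorem tres5bp_prod_zmod {M : Type*} [CommMonoid M] (p : ℕ) [NeZero p] (f : ℕ → M) :
    ∏ k : ZMod p, f k.val = ∏ k ∈ Finset.range p, f k := by
  cases p with
  | zero => exact absurd rfl (NeZero.ne 0)
  | succ n => exact Fin.prod_univ_eq_prod_range f (n + 1)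

end Prod

section Abs

variable {R F L : Type*} [CommRing R] [IsDomain R] [Field F] [Field L]
  [Algebra R F] [IsFractionRing R F] [IsIntegrallyClosed R] [IsLocalRing R]
  [Algebra F L] [Algebra R L] [IsScalarTower R F L]

/-- the reduced roots, indexed by `ZMod p` -/
noncomputable def tres5bpC (p : ℕ) (ζ : R) (k : ZMod p) : R := tres5bC ζ k.val

/-- the polynomial `∏ (X − c_k) − a` -/
noncomputable def tres5bpP (p : ℕ) [NeZero p] (ζ a : R) : R[X] :=
  ∏ k : ZMod p, (X - C (tres5bpC p ζ k)) - C a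

/-- the generator `(Y / g − 1) / (ζ − 1)` -/
noncomputable def tres5bpZ (ζ : R) (g : F) (Y : L) : L :=
  (Y / algebraMap F L g - 1) / (algebraMap R L ζ - 1)

omit [IsDomain R] [IsFractionRing R F] [IsIntegrallyClosed R] [IsLocalRing R] in
/-- `[L : F] = p` for a Kummer extension of prime degree -/
theorem tres5bp_finrank {p : ℕ} (hp : p.Prime) {u : F} {Y : L} (hY : Y ^ p = algebraMap F L u)
    (htop : IntermediateField.adjoin F {Y} = ⊤) (hw : ∀ b : F, b ^ p ≠ u) :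
    Module.finrank F L = p := by
  have hint : IsIntegral F Y := ⟨X ^ p - C u, monic_X_pow_sub_C _ hp.ne_zero, by simp [hY]⟩
  have hmin : minpoly F Y = X ^ p - C u :=
    (minpoly.eq_of_irreducible_of_monic (X_pow_sub_C_irreducible_of_prime hp hw)
      (by simp [hY]) (monic_X_pow_sub_C _ hp.ne_zero)).symm
  haveI : FiniteDimensional F ↥(IntermediateField.adjoin F {Y}) :=
    IntermediateField.adjoin.finiteDimensional hint
  haveI : FiniteDimensional F L := by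
    have e : ↥(IntermediateField.adjoin F {Y}) ≃ₗ[F] L := by
      rw [htop]
      exact (IntermediateField.topEquiv (F := F) (E := L)).toLinearEquiv
    exact Module.Finite.equiv e
  rw [← (Field.primitive_element_iff_minpoly_natDegree_eq F Y).1 htop, hmin,
    natDegree_X_pow_sub_C]

omit [IsDomain R] [IsFractionRing R F] [IsIntegrallyClosed R] [IsLocalRing R] in
theorem tres5bp_prod_monic (p : ℕ) [NeZero p] (ζ : R) :
    (∏ k : ZMod p, (X - C (tres5bpC p ζ k))).Monic :=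
  monic_prod_of_monic _ _ fun k _ => monic_X_sub_C _

omit [IsDomain R] [IsFractionRing R F] [IsIntegrallyClosed R] [IsLocalRing R] in
theorem tres5bp_prod_natDegree (p : ℕ) [NeZero p] [Nontrivial R] (ζ : R) :
    (∏ k : ZMod p, (X - C (tres5bpC p ζ k))).natDegree = p := by
  rw [natDegree_prod_of_monic _ _ (fun k _ => monic_X_sub_C _)]
  simp

omit [IsFractionRing R F] [IsIntegrallyClosed R] [IsLocalRing R] in
theorem tres5bp_degree_C_lt (p : ℕ) [NeZero p] (hp1 : 0 < p) (ζ a : R) :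
    (C a : R[X]).degree < (∏ k : ZMod p, (X - C (tres5bpC p ζ k))).degree := by
  rw [degree_eq_natDegree (tres5bp_prod_monic p ζ).ne_zero, tres5bp_prod_natDegree p ζ]
  exact lt_of_le_of_lt degree_C_le (by exact_mod_cast hp1)

omit [IsFractionRing R F] [IsIntegrallyClosed R] [IsLocalRing R] in
theorem tres5bpP_monic (p : ℕ) [NeZero p] (hp1 : 0 < p) (ζ a : R) : (tres5bpP p ζ a).Monic :=
  (tres5bp_prod_monic p ζ).sub_of_left (tres5bp_degree_C_lt p hp1 ζ a)

omit [IsFractionRing R F] [IsIntegrallyClosed R] [IsLocalRing R] in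
theorem tres5bpP_natDegree (p : ℕ) [NeZero p] (hp1 : 0 < p) (ζ a : R) :
    (tres5bpP p ζ a).natDegree = p := by
  have h1 := tres5bp_degree_C_lt p hp1 ζ a
  have h2 : (tres5bpP p ζ a).degree = (∏ k : ZMod p, (X - C (tres5bpC p ζ k))).degree := by
    rw [tres5bpP]
    exact degree_sub_eq_left_of_degree_lt h1
  have h3 := natDegree_eq_of_degree_eq h2
  rw [h3, tres5bp_prod_natDegree p ζ]

omit [IsIntegrallyClosed R] [IsLocalRing R] in
/-- `z` is a root of `P` -/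
theorem tres5bpP_aeval (p : ℕ) [NeZero p] (hp : 2 ≤ p) {ζ : R} (hζ : IsPrimitiveRoot ζ p)
    {a : R} {u g : F} (hg : g ≠ 0)
    (hu : u / g ^ p - 1 = (algebraMap R F ζ - 1) ^ p * algebraMap R F a)
    {Y : L} (hY : Y ^ p = algebraMap F L u) :
    aeval (tres5bpZ ζ g Y) (tres5bpP p ζ a) = 0 := by
  have hζF : IsPrimitiveRoot (algebraMap R F ζ) p :=
    hζ.map_of_injective (IsFractionRing.injective R F)
  have h := tres5b_root_map (L := L) hp hζF hg hY hu
  have e1 : ∀ r : R, algebraMap R L r = algebraMap F L (algebraMap R F r) := fun r =>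
    IsScalarTower.algebraMap_apply R F L r
  rw [tres5bpP, map_sub, map_prod, aeval_C, sub_eq_zero, e1 a, ← h,
    ← tres5bp_prod_zmod p (fun k => (Y / algebraMap F L g - 1) /
      (algebraMap F L (algebraMap R F ζ) - 1) - algebraMap F L (tres5bC (algebraMap R F ζ) k))]
  refine Finset.prod_congr rfl fun k _ => ?_
  rw [map_sub, aeval_X, aeval_C, tres5bpZ, tres5bpC, e1, e1, tres5bC_map]

omit [IsDomain R] [IsFractionRing R F] [IsIntegrallyClosed R] [IsLocalRing R] in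
/-- `F[z] = L` -/
theorem tres5bp_adjoin_top {p : ℕ} (hp : p ≠ 0) {ζ : R} (hζ1 : algebraMap R L ζ - 1 ≠ 0)
    {u g : F} (hg : g ≠ 0) {Y : L} (hY : Y ^ p = algebraMap F L u)
    (htop : IntermediateField.adjoin F {Y} = ⊤) :
    Algebra.adjoin F ({tres5bpZ ζ g Y} : Set L) = ⊤ := by
  have hint : IsIntegral F Y := ⟨X ^ p - C u, monic_X_pow_sub_C _ hp, by simp [hY]⟩
  have h1 : Algebra.adjoin F ({Y} : Set L) = ⊤ := by
    rw [← IntermediateField.adjoin_simple_toSubalgebra_of_isAlgebraic hint.isAlgebraic, htop]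
    rfl
  rw [eq_top_iff, ← h1]
  refine Algebra.adjoin_le ?_
  intro x hx
  rw [Set.mem_singleton_iff.1 hx]
  have hgL : algebraMap F L g ≠ 0 := (_root_.map_ne_zero _).2 hg
  have hY' : Y = algebraMap F L g * (1 + (algebraMap R L ζ - 1) * tres5bpZ ζ g Y) :=
    tres5b_Y_eq hgL hζ1
  have hz : tres5bpZ ζ g Y ∈ Algebra.adjoin F ({tres5bpZ ζ g Y} : Set L) :=
    Algebra.self_mem_adjoin_singleton F _
  have hc : ∀ r : R, algebraMap R L r ∈ Algebra.adjoin F ({tres5bpZ ζ g Y} : Set L) := fun r => by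
    rw [IsScalarTower.algebraMap_apply R F L r]
    exact Subalgebra.algebraMap_mem _ _
  have key : algebraMap F L g * (1 + (algebraMap R L ζ - 1) * tres5bpZ ζ g Y) ∈
      Algebra.adjoin F ({tres5bpZ ζ g Y} : Set L) :=
    mul_mem (Subalgebra.algebraMap_mem _ _)
      (add_mem (one_mem _) (mul_mem (sub_mem (hc ζ) (one_mem _)) hz))
  rw [← hY'] at key
  exact key

omit [IsFractionRing R F] [IsIntegrallyClosed R] [IsLocalRing R] in
/-- `c_{i+1} = 1 + ζ c_i` (`i : ZMod p`, cyclically) -/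
theorem tres5bpC_succ (p : ℕ) [hp : Fact p.Prime] {ζ : R} (hζ : IsPrimitiveRoot ζ p)
    (i : ZMod p) : tres5bpC p ζ (i + 1) = 1 + ζ * tres5bpC p ζ i := by
  have hsucc : ∀ k : ℕ, tres5bC ζ (k + 1) = 1 + ζ * tres5bC ζ k := by
    intro k
    rw [tres5bC, tres5bC, Finset.sum_range_succ', Finset.mul_sum, pow_zero, add_comm]
    congr 1
    exact Finset.sum_congr rfl fun j _ => by rw [pow_succ, mul_comm]
  have hζ1 : ζ - 1 ≠ 0 := sub_ne_zero.2 (hζ.ne_one hp.out.one_lt)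
  have hp0 : tres5bC ζ p = 0 := by
    have h := tres5bC_mul ζ p
    rw [hζ.pow_eq_one, sub_self] at h
    exact (mul_eq_zero.1 h).resolve_right hζ1
  rw [tres5bpC, tres5bpC, ← hsucc]
  by_cases h : i.val + 1 = p
  · have h0 : i + 1 = 0 := by
      have : ((i.val + 1 : ℕ) : ZMod p) = 0 := by rw [h]; exact ZMod.natCast_self p
      rwa [Nat.cast_add, ZMod.natCast_zmod_val, Nat.cast_one] at this
    rw [h0, ZMod.val_zero, h, hp0]
    simp [tres5bC]
  · have hlt : i.val + 1 < p := lt_of_le_of_ne (Nat.succ_le_of_lt (ZMod.val_lt i)) h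
    have hv : (i + 1).val = i.val + 1 := by
      have h1 : ((i.val + 1 : ℕ) : ZMod p) = i + 1 := by
        rw [Nat.cast_add, ZMod.natCast_zmod_val, Nat.cast_one]
      rw [← h1, ZMod.val_natCast, Nat.mod_eq_of_lt hlt]
    rw [hv]

omit [IsIntegrallyClosed R] in
/-- **the deck transformation** `ρ Y = ζ Y` in the coordinates `z`, `c`:
`ρ z = c_{i+1} + ζ (z − c_i)`, with `ζ (z − c_i) ∈ (𝔫, z − c_i)`. -/
theorem tres5bp_deck (p : ℕ) [hp : Fact p.Prime] {ζ : R} (hζ : IsPrimitiveRoot ζ p)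
    (g : F) {Y : L} (ρ : L ≃ₐ[F] L) (hρ : ρ Y = algebraMap R L ζ * Y) (i : ZMod p) :
    ∃ b ∈ tres5eMax R (tres5bpZ ζ g Y) (tres5bpC p ζ i),
      ρ (tres5bpZ ζ g Y) = algebraMap R L (tres5bpC p ζ (i + 1)) + (b : L) := by
  have hinjL : Function.Injective (algebraMap R L) := by
    rw [IsScalarTower.algebraMap_eq R F L]
    exact (algebraMap F L).injective.comp (IsFractionRing.injective R F)
  have hζ1 : algebraMap R L ζ - 1 ≠ 0 := by
    rw [sub_ne_zero]
    exact (hζ.map_of_injective hinjL).ne_one hp.out.one_lt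
  have hfix : ∀ r : R, ρ (algebraMap R L r) = algebraMap R L r := fun r => by
    rw [IsScalarTower.algebraMap_apply R F L r]
    exact ρ.commutes _
  refine ⟨algebraMap R _ ζ * (tres5eGen R (tres5bpZ ζ g Y) - algebraMap R _ (tres5bpC p ζ i)),
    Ideal.mul_mem_left _ _ (Ideal.mem_sup_right (Ideal.subset_span rfl)), ?_⟩
  have e1 : ρ (tres5bpZ ζ g Y) =
      (algebraMap R L ζ * Y / algebraMap F L g - 1) / (algebraMap R L ζ - 1) := by
    rw [tres5bpZ, map_div₀, map_sub, map_sub, map_div₀, map_one, hρ, hfix, ρ.commutes]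
  have e2 : ((algebraMap R ↥(Algebra.adjoin R ({tres5bpZ ζ g Y} : Set L)) ζ *
      (tres5eGen R (tres5bpZ ζ g Y) - algebraMap R _ (tres5bpC p ζ i)) :
        ↥(Algebra.adjoin R ({tres5bpZ ζ g Y} : Set L))) : L) =
      algebraMap R L ζ * (tres5bpZ ζ g Y - algebraMap R L (tres5bpC p ζ i)) := rfl
  rw [e1, e2, tres5bpC_succ p hζ i, map_add, map_one, map_mul, tres5bpZ]
  field_simp
  ring

/-- **(P2) the split situation at a closed point from the Kummer local shape.** -/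
theorem tres5bp_split (p : ℕ) [hp : Fact p.Prime]
    (hpR : (p : R) ∈ IsLocalRing.maximalIdeal R)
    {ζ : R} (hζ : IsPrimitiveRoot ζ p) (hlam : ζ - 1 ∈ IsLocalRing.maximalIdeal R)
    {a : R} (ha : a ∈ IsLocalRing.maximalIdeal R)
    {u g : F} (hg : g ≠ 0)
    (hu : u / g ^ p - 1 = (algebraMap R F ζ - 1) ^ p * algebraMap R F a)
    {Y : L} (hY : Y ^ p = algebraMap F L u)
    (htop : IntermediateField.adjoin F {Y} = ⊤) (hw : ∀ b : F, b ^ p ≠ u) :
    Tres5eSplit F (tres5bpZ ζ g Y) (tres5bpP p ζ a) (tres5bpC p ζ) := by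
  have hp' := hp.out
  have hinjL : Function.Injective (algebraMap R L) := by
    rw [IsScalarTower.algebraMap_eq R F L]
    exact (algebraMap F L).injective.comp (IsFractionRing.injective R F)
  have hζ1 : algebraMap R L ζ - 1 ≠ 0 := by
    rw [sub_ne_zero]
    exact (hζ.map_of_injective hinjL).ne_one hp'.one_lt
  refine tres5e_split_of_natDegree F (tres5bpP_monic p hp'.pos ζ a)
    (tres5bpP_aeval p hp'.two_le hζ hg hu hY)
    (tres5bp_adjoin_top hp'.ne_zero hζ1 hg hY htop) ?_ ?_ ?_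
  · rw [tres5bpP_natDegree p hp'.pos ζ a, tres5bp_finrank hp' hY htop hw]
  · intro i j hij
    have hval : i.val ≠ j.val := fun h => hij (ZMod.val_injective p h)
    rcases lt_or_gt_of_ne hval with h | h
    · have h1 := tres5b_c_isUnit hp' hpR hζ.pow_eq_one hlam h (ZMod.val_lt j)
      have e : tres5bpC p ζ i - tres5bpC p ζ j = -(tres5bC ζ j.val - tres5bC ζ i.val) := by
        rw [tres5bpC, tres5bpC]; ring
      rw [e]
      exact h1.neg
    · exact tres5b_c_isUnit hp' hpR hζ.pow_eq_one hlam h (ZMod.val_lt i)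
  · intro n
    have e : tres5bpP p ζ a - ∏ i : ZMod p, (X - C (tres5bpC p ζ i)) = -C a := by
      rw [tres5bpP]; ring
    rw [e, coeff_neg, coeff_C]
    split_ifs
    · exact neg_mem ha
    · rw [neg_zero]; exact zero_mem _

end Abs

section Subring

variable {F L : Type*} [Field F] [Field L] [Algebra F L]

/-- **(P2) for a local subring `O ⊆ F`** (`O = atLoc 𝔫`): the split situation from the shape
`u / g ^ p − 1 = (ζ − 1) ^ p · π · y`, `ζ, π, y ∈ O`, `π ∈ 𝔪_O`, `p ∈ 𝔪_O`, `ζ − 1 ∈ 𝔪_O`. -/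
theorem tres5bp_split_subring (O : Subring F) [IsFractionRing ↥O F] [IsIntegrallyClosed ↥O]
    [IsLocalRing ↥O] [Algebra ↥O L] [IsScalarTower ↥O F L]
    (p : ℕ) [hp : Fact p.Prime] {ζ ϖ y : F} (hζO : ζ ∈ O) (hϖO : ϖ ∈ O) (hyO : y ∈ O)
    (hϖm : (⟨ϖ, hϖO⟩ : ↥O) ∈ IsLocalRing.maximalIdeal ↥O)
    (hpm : ((p : ℕ) : ↥O) ∈ IsLocalRing.maximalIdeal ↥O)
    (hlam : (⟨ζ, hζO⟩ : ↥O) - 1 ∈ IsLocalRing.maximalIdeal ↥O)
    (hζ : IsPrimitiveRoot ζ p) {u g : F} (hg : g ≠ 0)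
    (hu : u / g ^ p - 1 = (ζ - 1) ^ p * ϖ * y)
    {Y : L} (hY : Y ^ p = algebraMap F L u)
    (htop : IntermediateField.adjoin F {Y} = ⊤) (hw : ∀ b : F, b ^ p ≠ u) :
    Tres5eSplit F (tres5bpZ (⟨ζ, hζO⟩ : ↥O) g Y)
      (tres5bpP p (⟨ζ, hζO⟩ : ↥O) (⟨ϖ, hϖO⟩ * ⟨y, hyO⟩)) (tres5bpC p (⟨ζ, hζO⟩ : ↥O)) := by
  have hζ' : IsPrimitiveRoot (⟨ζ, hζO⟩ : ↥O) p :=
    IsPrimitiveRoot.of_map_of_injective (f := O.subtype) hζ Subtype.val_injective
  refine tres5bp_split p hpm hζ' hlam (Ideal.mul_mem_right _ _ hϖm) hg ?_ hY htop hw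
  rw [hu, mul_assoc]
  rfl

end Subring

section Chart

variable {A₀ E F : Type*} [CommRing A₀] [IsDomain A₀] [IsDiscreteValuationRing A₀]
  [Field E] [Algebra A₀ E] [IsFractionRing A₀ E] [CharZero E]
  [Field F] [Algebra E F] [Algebra A₀ F] [IsScalarTower A₀ E F]
  {π : A₀}

/-- the local ring of a closed point is local -/
theorem tres5bp_isLocalRing {u : F} (𝔫 : AtPt (F := F) π u) : IsLocalRing ↥(atLoc 𝔫) :=
  haveI := 𝔫.2.1.isPrime
  ls_localSubring_isLocalRing (F := F) Subtype.val_injective 𝔫.1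

/-- `F` is the fraction field of the local ring of a closed point -/
theorem tres5bp_isFractionRing (u : F) [FiniteDimensional E⟮u⟯ F] (𝔫 : AtPt (F := F) π u) :
    IsFractionRing ↥(atLoc 𝔫) F := by
  haveI := 𝔫.2.1.isPrime
  refine tres5e_isFractionRing_subring (atLoc 𝔫) fun x => ?_
  obtain ⟨y, hy0, hy⟩ := (ad_isAlgebraic (A₀ := A₀) (E := E) u x).exists_integral_multiple
  have hyx : y • x ∈ zchClosure (A₀ := A₀) ({u} : Set F) := mem_zchClosure.mpr hy
  have hyB : (y : F) ∈ zchClosure (A₀ := A₀) ({u} : Set F) :=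
    mem_zchClosure.mpr (isIntegral_algebraMap (x := y))
  refine ⟨y • x, ?_, (y : F), ?_, ?_, ?_⟩
  · exact ls_algebraMap_mem (F := F) 𝔫.1 ⟨y • x, hyx⟩
  · exact ls_algebraMap_mem (F := F) 𝔫.1 ⟨(y : F), hyB⟩
  · intro h0
    exact hy0 (Subtype.ext h0)
  · rw [Algebra.smul_def, mul_comm]
    rfl

/-- the local ring of a closed point is integrally closed -/
theorem tres5bp_isIntegrallyClosed (u : F) [FiniteDimensional E⟮u⟯ F]
    (𝔫 : AtPt (F := F) π u) : IsIntegrallyClosed ↥(atLoc 𝔫) := by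
  haveI := 𝔫.2.1.isPrime
  haveI := tres5bp_isFractionRing (A₀ := A₀) (E := E) u 𝔫
  exact tres5e_isIntegrallyClosed_subring (atLoc 𝔫) fun x hx =>
    ls_isIntegral_mem_localSubring (fun x hx => at_chart_integrallyClosed u x hx) 𝔫.1 x hx

/-- multiples of `π` are in the maximal ideal of the local ring of a closed point -/
theorem tres5bp_pi_mul_mem {u : F} (𝔫 : AtPt (F := F) π u) [IsLocalRing ↥(atLoc 𝔫)]
    (a : A₀) (hπa : π ∣ a) :
    (⟨algebraMap A₀ F a, wab_const_mem_atLoc 𝔫 a⟩ : ↥(atLoc 𝔫)) ∈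
      IsLocalRing.maximalIdeal ↥(atLoc 𝔫) := by
  haveI := 𝔫.2.1.isPrime
  obtain ⟨c, rfl⟩ := hπa
  have hne : ls_localIdeal (F := F) 𝔫.1
      (algebraMap A₀ ↥(zchClosure (A₀ := A₀) ({u} : Set F)) π) ≠ ⊤ :=
    ls_localIdeal_ne_top (F := F) Subtype.val_injective 𝔫.1
      (algebraMap A₀ ↥(zchClosure (A₀ := A₀) ({u} : Set F)) π) 𝔫.2.2
  have hmem : (⟨algebraMap A₀ F (π * c), wab_const_mem_atLoc 𝔫 (π * c)⟩ :
      ↥(ls_localSubring (F := F) 𝔫.1)) ∈
      ls_localIdeal (F := F) 𝔫.1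
        (algebraMap A₀ ↥(zchClosure (A₀ := A₀) ({u} : Set F)) π) :=
    (ls_mem_localIdeal (F := F) 𝔫.1
      (algebraMap A₀ ↥(zchClosure (A₀ := A₀) ({u} : Set F)) π)).2
      ⟨algebraMap A₀ F c, wab_const_mem_atLoc 𝔫 c, by
        show algebraMap A₀ F (π * c) = algebraMap A₀ F π * algebraMap A₀ F c
        rw [map_mul]⟩
  exact IsLocalRing.le_maximalIdeal (R := ↥(atLoc 𝔫)) hne hmem

/-- **(P2) at a closed point of a chart**: the split situation `Tres5eSplit` over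
`R = atLoc 𝔫` from the Kummer local shape (`tres5b_field`, `tres5b_bar`). -/
theorem tres5bp_split_atLoc {t : F} [FiniteDimensional E⟮t⟯ F] (𝔫 : AtPt (F := F) π t)
    {L : Type*} [Field L] [Algebra F L]
    [IsFractionRing ↥(atLoc 𝔫) F] [IsIntegrallyClosed ↥(atLoc 𝔫)] [IsLocalRing ↥(atLoc 𝔫)]
    [Algebra ↥(atLoc 𝔫) L] [IsScalarTower ↥(atLoc 𝔫) F L]
    (p : ℕ) [hp : Fact p.Prime] (hpπ : π ∣ (p : A₀)) {ζ : A₀} (hζ : IsPrimitiveRoot ζ p)
    (hlam : π ∣ ζ - 1)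
    {u g y : F} (hg : g ≠ 0) (hy : y ∈ atLoc 𝔫)
    (hu : u / g ^ p - 1 = (algebraMap A₀ F ζ - 1) ^ p * algebraMap A₀ F π * y)
    {Y : L} (hY : Y ^ p = algebraMap F L u)
    (htop : IntermediateField.adjoin F {Y} = ⊤) (hw : ∀ b : F, b ^ p ≠ u) :
    Tres5eSplit F
      (tres5bpZ (⟨algebraMap A₀ F ζ, wab_const_mem_atLoc 𝔫 ζ⟩ : ↥(atLoc 𝔫)) g Y)
      (tres5bpP p (⟨algebraMap A₀ F ζ, wab_const_mem_atLoc 𝔫 ζ⟩ : ↥(atLoc 𝔫))
        (⟨algebraMap A₀ F π, wab_const_mem_atLoc 𝔫 π⟩ * ⟨y, hy⟩))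
      (tres5bpC p (⟨algebraMap A₀ F ζ, wab_const_mem_atLoc 𝔫 ζ⟩ : ↥(atLoc 𝔫))) := by
  have hinj : Function.Injective (algebraMap A₀ F) :=
    zch_algebraMap_injective (A₀ := A₀) (E := E)
  have h1 := tres5bp_pi_mul_mem 𝔫 π dvd_rfl
  have h2 := tres5bp_pi_mul_mem 𝔫 (p : A₀) hpπ
  have h3 := tres5bp_pi_mul_mem 𝔫 (ζ - 1) hlam
  refine tres5bp_split_subring (atLoc 𝔫) p (wab_const_mem_atLoc 𝔫 ζ) (wab_const_mem_atLoc 𝔫 π)
    hy ?_ ?_ ?_ (hζ.map_of_injective hinj) hg hu hY htop hw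
  · exact h1
  · convert h2 using 1
    apply Subtype.ext
    simp
  · convert h3 using 1
    apply Subtype.ext
    simp

end Chart

end Fermat.Agent.R38


end ZBR38_016_4
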