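/- GENERATED FILE (helper35, build-time optimisation, NOTES/ZB.md): verbatim concatenation of the modules
   Fermat.Agent.R38.TresCoverConc
   Fermat.Agent.R38.TresCoverForm
   Fermat.Agent.R38.TresCoverRetr
   Fermat.Agent.R38.TresCoverFormE
   Fermat.Agent.R38.TresCoverKumL
   Fermat.Agent.R38.TresCoverDeck
   Fermat.Agent.R38.TresFixF
   Fermat.Agent.R38.TresCoverAct
   Fermat.Agent.R38.TresCoverDesc
   Do not edit; do not import together with these modules. -/
import Fermat.Agent.ZB.R38_015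
import Fermat.Prelude.Def_ModularCurve_LaurentCoeff
import Fermat.Agent.ZB.INJ_005
import Fermat.Agent.ZB.UNIP_006
import Fermat.Agent.ZB.UNIP_007
import Mathlib

/-! ### bundled: `Fermat.Agent.R38.TresCoverConc` -/
section ZBR38_017_0

/-!
# R38 TRES, (FAC-p), piece ASM-COV, part 1: the cover as a field (generic part)

Mathlib + `coeffMap` only.

## (A) Kummer theory of a `Tres5Kum`

`S : Tres5Kum F L V p` (`L = F(y)`, `y ^ p = w`, `w` not a `p`-th power, `ζ ∈ F`):

* `S.irreducible`, `S.isSplittingField`, `S.isGalois`;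
* `S.deck : L ≃ₐ[F] L` with `S.deck_y : ρ y = ζ y`, `S.deck_pow : ρ ^ p = 1`,
  `S.deck_pow_y : ρ^m y = ζ^m y`, `S.exists_deck_pow` (every automorphism is a power of `ρ`),
  `S.deck_fixed` (the fixed field of `ρ` is `F`);
* `S.W_deck_one : (W k).comap ρ = W (k + 1)`, `S.ord_deck`.

## (B) the Kummer extension inside an ambient field

`tres5cKum … : Tres5Kum F ↥F⟮y⟯ V p` for `y` in an ambient field `Ω ⊇ F`.

## (C) forms

`tres5cForm ι F₀ Fb′ hF : IntermediateField ↥F₀ (LaurentSeries E)`: the elements of `E((q))` whose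
image under `coeffMap ι` (`ι : E →+* Ω`) lies in the subfield `Fb′` of `Ω((q))` — the `E`-form of
`Fb′`; `tres5cFormEmb`, `tres5cFormIncl`.
-/

set_option autoImplicit false
set_option linter.style.haveILetI false
set_option linter.unusedSectionVars false

noncomputable section

open Polynomial IntermediateField

namespace Fermat.Agent.R38

/-! ### (A) Kummer theory of a `Tres5Kum` -/

namespace Tres5Kum

variable {F L : Type*} [Field F] [Field L] [Algebra F L] {V : ValuationSubring F} {p : ℕ}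
  (S : Tres5Kum F L V p)

theorem irreducible : Irreducible (X ^ p - C S.w) :=
  X_pow_sub_C_irreducible_of_prime S.hp S.hw

include S in
theorem primitiveRoots_nonempty : (primitiveRoots p F).Nonempty :=
  ⟨S.ζ, (mem_primitiveRoots S.hp.pos).2 S.hζ⟩

theorem isSplittingField : IsSplittingField F L (X ^ p - C S.w) := by
  haveI := S.finiteDimensional
  have h := isSplittingField_X_pow_sub_C_of_root_adjoin_eq_top (K := F) (L := L)
    (by rw [S.finrank_eq]; exact S.primitiveRoots_nonempty) (a := S.w) (α := S.y)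
    (by rw [S.finrank_eq]; exact S.hy) S.htop
  rwa [S.finrank_eq] at h

include S in
theorem isGalois : IsGalois F L :=
  haveI := S.isSplittingField
  isGalois_of_isSplittingField_X_pow_sub_C S.primitiveRoots_nonempty S.irreducible L

/-- the deck transformation `ρ`, `ρ y = ζ y` -/
def deck : L ≃ₐ[F] L :=
  haveI := S.isSplittingField
  haveI : NeZero p := ⟨S.hp.ne_zero⟩
  (autEquivZmod S.irreducible L S.hζ).symm (Multiplicative.ofAdd 1)

theorem deck_y : S.deck S.y = algebraMap F L S.ζ * S.y := by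
  haveI := S.isSplittingField
  haveI : NeZero p := ⟨S.hp.ne_zero⟩
  have h := autEquivZmod_symm_apply_natCast S.irreducible L S.hy S.hζ 1
  rw [Nat.cast_one, pow_one, Algebra.smul_def] at h
  exact h

theorem deck_pow_y (m : ℕ) : (S.deck ^ m) S.y = algebraMap F L (S.ζ ^ m) * S.y := by
  induction m with
  | zero => simp
  | succ m ih =>
    rw [pow_succ', AlgEquiv.mul_apply, ih, map_mul, AlgEquiv.commutes, S.deck_y, pow_succ,
      map_mul]
    ring

/-- an automorphism is determined by its value at `y` -/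
theorem aut_ext {σ τ : L ≃ₐ[F] L} (h : σ S.y = τ S.y) : σ = τ := by
  have hy : IsAlgebraic F S.y := S.isIntegral_y.isAlgebraic
  have htop : Algebra.adjoin F ({S.y} : Set L) = ⊤ :=
    (IntermediateField.adjoin_simple_eq_top_iff_of_isAlgebraic hy).1 S.htop
  have h1 : (σ : L →ₐ[F] L) = (τ : L →ₐ[F] L) := by
    apply AlgHom.ext_of_adjoin_eq_top htop
    intro x hx
    rw [Set.mem_singleton_iff] at hx
    subst hx
    exact h
  ext x
  exact DFunLike.congr_fun h1 x

theorem deck_pow : S.deck ^ p = 1 := by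
  apply S.aut_ext
  rw [S.deck_pow_y, S.hζ.pow_eq_one, map_one, one_mul, AlgEquiv.one_apply]

/-- every automorphism is a power of the deck transformation -/
theorem exists_deck_pow (σ : L ≃ₐ[F] L) : ∃ m : ℕ, m < p ∧ σ = S.deck ^ m := by
  haveI : NeZero p := ⟨S.hp.ne_zero⟩
  -- `σ y` is a root of `X ^ p - w`, so `σ y = ζ ^ m y`
  have hy0 : S.y ≠ 0 := by
    intro h0
    have h1 := S.hy
    rw [h0, zero_pow S.hp.ne_zero] at h1
    exact S.hw 0 (by
      rw [zero_pow S.hp.ne_zero]
      exact (FaithfulSMul.algebraMap_injective F L) (by rw [map_zero]; exact h1))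
  have h1 : (σ S.y / S.y) ^ p = 1 := by
    rw [div_pow, ← map_pow, S.hy, AlgEquiv.commutes, div_self]
    rw [← S.hy]
    exact pow_ne_zero p hy0
  have hζL : IsPrimitiveRoot (algebraMap F L S.ζ) p :=
    S.hζ.map_of_injective (FaithfulSMul.algebraMap_injective F L)
  obtain ⟨m, hm, hmeq⟩ := hζL.eq_pow_of_pow_eq_one h1
  refine ⟨m, hm, S.aut_ext ?_⟩
  rw [S.deck_pow_y, map_pow, hmeq, div_mul_cancel₀ _ hy0]

/-- the fixed field of the deck transformation is `F` -/
theorem deck_fixed {x : L} (hx : S.deck x = x) : ∃ a : F, algebraMap F L a = x := by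
  haveI := S.isGalois
  haveI := S.finiteDimensional
  have h1 : ∀ m : ℕ, (S.deck ^ m) x = x := by
    intro m
    induction m with
    | zero => simp
    | succ m ih => rw [pow_succ, AlgEquiv.mul_apply, hx, ih]
  have h2 : x ∈ IntermediateField.fixedField (⊤ : Subgroup (L ≃ₐ[F] L)) := by
    rintro ⟨σ, -⟩
    obtain ⟨m, -, rfl⟩ := S.exists_deck_pow σ
    exact h1 m
  rw [IsGalois.fixedField_top, IntermediateField.mem_bot] at h2
  exact h2

theorem deck_ne_one : S.deck ≠ 1 := by
  intro h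
  have h1 := S.deck_y
  rw [h, AlgEquiv.one_apply] at h1
  have hy0 : S.y ≠ 0 := by
    intro h0
    have h2 := S.hy
    rw [h0, zero_pow S.hp.ne_zero] at h2
    exact S.hw 0 (by
      rw [zero_pow S.hp.ne_zero]
      exact (FaithfulSMul.algebraMap_injective F L) (by rw [map_zero]; exact h2))
  have h3 : algebraMap F L S.ζ = 1 := by
    have h4 : (algebraMap F L S.ζ - 1) * S.y = 0 := by
      rw [sub_mul, one_mul, ← h1, sub_self]
    rcases mul_eq_zero.1 h4 with h5 | h5
    · exact sub_eq_zero.1 h5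
    · exact absurd h5 hy0
  exact S.hζ1 ((FaithfulSMul.algebraMap_injective F L) (by rw [h3, map_one]))

/-- the deck transformation shifts the sheets -/
theorem W_deck_one (k : ℕ) : (S.W k).comap (S.deck : L →+* L) = S.W (k + 1) := by
  have h := S.W_deck (S.deck : L →ₐ[F] L) 1 (by rw [pow_one]; exact S.deck_y) k
  exact h

end Tres5Kum

/-! ### (B) the Kummer extension inside an ambient field -/

section Ambient

variable {F Ω : Type*} [Field F] [Field Ω] [Algebra F Ω]

/-- the generator of `F⟮y⟯` generates -/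
theorem tres5c_adjoin_gen (y : Ω) :
    IntermediateField.adjoin F {AdjoinSimple.gen F y} = (⊤ : IntermediateField F F⟮y⟯) := by
  apply IntermediateField.map_injective F⟮y⟯.val
  rw [IntermediateField.adjoin_map, Set.image_singleton, ← AlgHom.fieldRange_eq_map,
    IntermediateField.fieldRange_val]
  rfl

/-- The Kummer cover `F(y) ⊆ Ω`, `y ^ p = w`, split at `V` (hypothesis (H1)), as a
`Tres5Kum`. -/
def tres5cKum (V : ValuationSubring F) {p : ℕ} (hp : p.Prime) {ζ : F}
    (hζ : IsPrimitiveRoot ζ p) {π : F} (hπ : π ∈ V.nonunits) (hπ0 : π ≠ 0)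
    (hunif : ∀ x : F, x ≠ 0 → ∃ n : ℤ, V.valuation (x / π ^ n) = 1)
    {w g : F} (hg : g ≠ 0)
    (hsplit : V.valuation (w / g ^ p - 1) ≤ V.valuation ((ζ - 1) ^ p * π))
    {y : Ω} (hy : y ^ p = algebraMap F Ω w) (hw : ∀ c : F, c ^ p ≠ w) :
    Tres5Kum F ↥F⟮y⟯ V p where
  hp := hp
  ζ := ζ
  hζ := hζ
  π := π
  hπ := hπ
  hπ0 := hπ0
  hunif := hunif
  w := w
  g := g
  hg := hg
  hsplit := hsplit
  y := AdjoinSimple.gen F y
  hy := Subtype.ext hy
  htop := tres5c_adjoin_gen y
  hw := hw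

end Ambient

/-! ### (C) forms -/

section Form

open ModularCurve

variable {E Ω : Type*} [Field E] [Field Ω] (ι : E →+* Ω)

/-- The `E`-form of a subfield `Fb′` of `Ω((q))`: the Laurent series with coefficients in `E`
whose image in `Ω((q))` lies in `Fb′`; an intermediate field of `E((q)) / F₀` for every
intermediate field `F₀` of `E((q)) / E` which is mapped into `Fb′`. -/
def tres5cForm (F₀ : IntermediateField E (LaurentSeries E)) (Fb' : Subfield (LaurentSeries Ω))
    (hF : ∀ x ∈ F₀, coeffMap ι x ∈ Fb') : IntermediateField ↥F₀ (LaurentSeries E) where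
  carrier := {f | coeffMap ι f ∈ Fb'}
  mul_mem' {a b} ha hb := by
    show coeffMap ι (a * b) ∈ Fb'
    rw [map_mul]
    exact Fb'.mul_mem ha hb
  one_mem' := by
    show coeffMap ι 1 ∈ Fb'
    rw [map_one]
    exact Fb'.one_mem
  add_mem' {a b} ha hb := by
    show coeffMap ι (a + b) ∈ Fb'
    rw [map_add]
    exact Fb'.add_mem ha hb
  zero_mem' := by
    show coeffMap ι 0 ∈ Fb'
    rw [map_zero]
    exact Fb'.zero_mem
  algebraMap_mem' x := hF x x.2
  inv_mem' a ha := by
    show coeffMap ι a⁻¹ ∈ Fb'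
    rw [map_inv₀]
    exact Fb'.inv_mem ha

variable {ι} {F₀ : IntermediateField E (LaurentSeries E)} {Fb' : Subfield (LaurentSeries Ω)}
  {hF : ∀ x ∈ F₀, coeffMap ι x ∈ Fb'}

theorem mem_tres5cForm {f : LaurentSeries E} :
    f ∈ tres5cForm ι F₀ Fb' hF ↔ coeffMap ι f ∈ Fb' := Iff.rfl

theorem tres5cForm_base_mem (x : ↥F₀) : (x : LaurentSeries E) ∈ tres5cForm ι F₀ Fb' hF :=
  hF x x.2

/-- the embedding of the `E`-form into `Fb′` -/
def tres5cFormEmb (ι : E →+* Ω) (F₀ : IntermediateField E (LaurentSeries E))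
    (Fb' : Subfield (LaurentSeries Ω)) (hF : ∀ x ∈ F₀, coeffMap ι x ∈ Fb') :
    ↥(tres5cForm ι F₀ Fb' hF) →+* ↥Fb' where
  toFun f := ⟨coeffMap ι (f : LaurentSeries E), f.2⟩
  map_one' := Subtype.ext (map_one (coeffMap ι))
  map_mul' _ _ := Subtype.ext (map_mul (coeffMap ι) _ _)
  map_zero' := Subtype.ext (map_zero (coeffMap ι))
  map_add' _ _ := Subtype.ext (map_add (coeffMap ι) _ _)

@[simp]
theorem tres5cFormEmb_coe (f : ↥(tres5cForm ι F₀ Fb' hF)) :
    ((tres5cFormEmb ι F₀ Fb' hF f : ↥Fb') : LaurentSeries Ω)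
      = coeffMap ι (f : LaurentSeries E) := rfl

theorem tres5cFormEmb_injective : Function.Injective (tres5cFormEmb ι F₀ Fb' hF) :=
  (tres5cFormEmb ι F₀ Fb' hF).injective

theorem tres5cFormEmb_algebraMap (x : ↥F₀) :
    ((tres5cFormEmb ι F₀ Fb' hF (algebraMap ↥F₀ ↥(tres5cForm ι F₀ Fb' hF) x) : ↥Fb') :
      LaurentSeries Ω) = coeffMap ι (x : LaurentSeries E) := rfl

/-- every element of `Fb′` with coefficients in the image of `E` comes from the `E`-form -/
theorem tres5cForm_exists_of_coeff {f : LaurentSeries Ω} (hf : f ∈ Fb')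
    (hc : ∀ n : ℤ, ∃ c : E, ι c = f.coeff n) :
    ∃ g : ↥(tres5cForm ι F₀ Fb' hF), coeffMap ι (g : LaurentSeries E) = f := by
  classical
  choose c hc using hc
  have hsupp : (Function.support c).IsPWO := by
    refine f.isPWO_support.mono fun n hn => ?_
    rw [Function.mem_support] at hn
    rw [HahnSeries.mem_support]
    intro h0
    apply hn
    apply ι.injective
    rw [hc n, map_zero]
    exact h0
  let g : LaurentSeries E := ⟨c, hsupp⟩
  have hg : coeffMap ι g = f := by
    ext n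
    rw [coeffMap_coeff]
    exact hc n
  exact ⟨⟨g, by rw [mem_tres5cForm, hg]; exact hf⟩, hg⟩

end Form

section FormIncl

open ModularCurve

variable {K E Ω : Type*} [Field K] [Field E] [Field Ω] (κ : K →+* E) (ι : E →+* Ω)
  {F₀ : IntermediateField K (LaurentSeries K)} {F₁ : IntermediateField E (LaurentSeries E)}
  {Fb' : Subfield (LaurentSeries Ω)}
  {hF₀ : ∀ x ∈ F₀, coeffMap (ι.comp κ) x ∈ Fb'} {hF₁ : ∀ x ∈ F₁, coeffMap ι x ∈ Fb'}

/-- the transition map from the `K`-form to the `E`-form, `K ⊆ E` -/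
def tres5cFormIncl (hF₀ : ∀ x ∈ F₀, coeffMap (ι.comp κ) x ∈ Fb')
    (hF₁ : ∀ x ∈ F₁, coeffMap ι x ∈ Fb') :
    ↥(tres5cForm (ι.comp κ) F₀ Fb' hF₀) →+* ↥(tres5cForm ι F₁ Fb' hF₁) where
  toFun f := ⟨coeffMap κ (f : LaurentSeries K), by
    rw [mem_tres5cForm, coeffMap_coeffMap]
    exact f.2⟩
  map_one' := Subtype.ext (map_one (coeffMap κ))
  map_mul' _ _ := Subtype.ext (map_mul (coeffMap κ) _ _)
  map_zero' := Subtype.ext (map_zero (coeffMap κ))
  map_add' _ _ := Subtype.ext (map_add (coeffMap κ) _ _)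

@[simp]
theorem tres5cFormIncl_coe (f : ↥(tres5cForm (ι.comp κ) F₀ Fb' hF₀)) :
    ((tres5cFormIncl κ ι hF₀ hF₁ f : ↥(tres5cForm ι F₁ Fb' hF₁)) : LaurentSeries E)
      = coeffMap κ (f : LaurentSeries K) := rfl

theorem tres5cFormEmb_incl (f : ↥(tres5cForm (ι.comp κ) F₀ Fb' hF₀)) :
    tres5cFormEmb ι F₁ Fb' hF₁ (tres5cFormIncl κ ι hF₀ hF₁ f)
      = tres5cFormEmb (ι.comp κ) F₀ Fb' hF₀ f :=
  Subtype.ext (coeffMap_coeffMap ι κ _)

end FormIncl

end Fermat.Agent.R38

end
end ZBR38_017_0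

/-! ### bundled: `Fermat.Agent.R38.TresCoverForm` -/
section ZBR38_017_1

/-!
# R38 TRES, (FAC-p), piece ASM-COV, part 2 (TresCoverForm): the concrete cover `F′ = F_N(ℚ̄)(y) ⊂ ℚ̄((q))`

* `tres5cField N y : IntermediateField ℚ̄ ℚ̄((q))` — `F′ = F_N(ℚ̄)(y)` (helper30's `Fb′`);
* `tres5cL E N y : IntermediateField ↥F_N(E) E((q))` — the `E`-form `L_E = F′ ∩ E((q))` of the
  cover, for every intermediate field `E` of `ℚ̄ / ℚ`; `L_K` for `K = beta0Field A` is the
  function field of the cover over `K = ℚ̄^I`;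
* `tres5cEmb E N y : L_E →+* F′`, `tres5cIncl h : L_K →+* L_E` (`K ≤ E`).
-/

set_option autoImplicit false
set_option linter.style.haveILetI false
set_option linter.unusedSectionVars false

noncomputable section

open ModularCurve Fermat.Agent.INJ IntermediateField

namespace Fermat.Agent.R38

/-- The cover field `F′ = F_N(ℚ̄)(y) ⊂ ℚ̄((q))`. -/
def tres5cField (N : ℕ) (y : LaurentSeries NfQb) : IntermediateField NfQb (LaurentSeries NfQb) :=
  IntermediateField.adjoin NfQb ((modularFunctionFieldBar N : Set (LaurentSeries NfQb)) ∪ {y})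

theorem tres5c_bar_le (N : ℕ) (y : LaurentSeries NfQb) :
    modularFunctionFieldBar N ≤ tres5cField N y := fun _ hx =>
  IntermediateField.subset_adjoin _ _ (Or.inl hx)

theorem tres5c_y_mem (N : ℕ) (y : LaurentSeries NfQb) : y ∈ tres5cField N y :=
  IntermediateField.subset_adjoin _ _ (Or.inr rfl)

variable (E : IntermediateField ℚ NfQb) (N : ℕ) (y : LaurentSeries NfQb)

/-- **The `E`-form of the cover**: `L_E = F′ ∩ E((q))`, an intermediate field of
`E((q)) / F_N(E)`. -/
def tres5cL : IntermediateField ↥(modularFunctionFieldFullC ↥E N) (LaurentSeries ↥E) :=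
  tres5cForm (algebraMap ↥E NfQb) (modularFunctionFieldFullC ↥E N) (tres5cField N y).toSubfield
    (fun _ hx => tres5c_bar_le N y (nf_coeffMap_mem_bar E N hx))

theorem mem_tres5cL {f : LaurentSeries ↥E} :
    f ∈ tres5cL E N y ↔ coeffMap (algebraMap ↥E NfQb) f ∈ tres5cField N y := Iff.rfl

theorem tres5cL_base_mem (x : ↥(modularFunctionFieldFullC ↥E N)) :
    (x : LaurentSeries ↥E) ∈ tres5cL E N y :=
  tres5c_bar_le N y (nf_coeffMap_mem_bar E N x.2)

/-- the embedding `L_E → F′` (coefficientwise) -/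
def tres5cEmb : ↥(tres5cL E N y) →+* ↥(tres5cField N y) where
  toFun f := ⟨coeffMap (algebraMap ↥E NfQb) (f : LaurentSeries ↥E), f.2⟩
  map_one' := Subtype.ext (map_one (coeffMap (algebraMap ↥E NfQb)))
  map_mul' _ _ := Subtype.ext (map_mul (coeffMap (algebraMap ↥E NfQb)) _ _)
  map_zero' := Subtype.ext (map_zero (coeffMap (algebraMap ↥E NfQb)))
  map_add' _ _ := Subtype.ext (map_add (coeffMap (algebraMap ↥E NfQb)) _ _)

@[simp]
theorem tres5cEmb_coe (f : ↥(tres5cL E N y)) :
    ((tres5cEmb E N y f : ↥(tres5cField N y)) : LaurentSeries NfQb)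
      = coeffMap (algebraMap ↥E NfQb) (f : LaurentSeries ↥E) := rfl

theorem tres5cEmb_injective : Function.Injective (tres5cEmb E N y) :=
  (tres5cEmb E N y).injective

/-- an element of `F′` with coefficients in `E` comes from `L_E` -/
theorem tres5cL_exists_of_coeff {f : LaurentSeries NfQb} (hf : f ∈ tres5cField N y)
    (hc : ∀ n : ℤ, f.coeff n ∈ E) :
    ∃ g : ↥(tres5cL E N y), coeffMap (algebraMap ↥E NfQb) (g : LaurentSeries ↥E) = f :=
  tres5cForm_exists_of_coeff (ι := algebraMap ↥E NfQb) (Fb' := (tres5cField N y).toSubfield)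
    hf (fun n => ⟨⟨f.coeff n, hc n⟩, rfl⟩)

variable {E} in
/-- the transition map `L_K → L_E` for `K ≤ E` -/
def tres5cIncl {K : IntermediateField ℚ NfQb} (h : K ≤ E) :
    ↥(tres5cL K N y) →+* ↥(tres5cL E N y) where
  toFun f := ⟨coeffMap (IntermediateField.inclusion h).toRingHom (f : LaurentSeries ↥K), by
    rw [mem_tres5cL, coeffMap_coeffMap]
    exact f.2⟩
  map_one' := Subtype.ext (map_one (coeffMap _))
  map_mul' _ _ := Subtype.ext (map_mul (coeffMap _) _ _)
  map_zero' := Subtype.ext (map_zero (coeffMap _))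
  map_add' _ _ := Subtype.ext (map_add (coeffMap _) _ _)

variable {E} in
@[simp]
theorem tres5cIncl_coe {K : IntermediateField ℚ NfQb} (h : K ≤ E) (f : ↥(tres5cL K N y)) :
    ((tres5cIncl N y h f : ↥(tres5cL E N y)) : LaurentSeries ↥E)
      = coeffMap (IntermediateField.inclusion h).toRingHom (f : LaurentSeries ↥K) := rfl

variable {E} in
theorem tres5cEmb_incl {K : IntermediateField ℚ NfQb} (h : K ≤ E) (f : ↥(tres5cL K N y)) :
    tres5cEmb E N y (tres5cIncl N y h f) = tres5cEmb K N y f :=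
  Subtype.ext (coeffMap_coeffMap _ _ _)

end Fermat.Agent.R38

end
end ZBR38_017_1

/-! ### bundled: `Fermat.Agent.R38.TresCoverRetr` -/
section ZBR38_017_2

/-!
# R38 TRES, (FAC-p), piece ASM-COV, part 3: forms of generated fields (the retraction trick)

`E ⊆ Ω` fields, `Ω / E` algebraic, `ι = algebraMap E Ω`.  An `E`-linear form `τ : Ω → E` with
`τ ∘ ι = id` gives, coefficientwise, an `E((q))`-linear retraction
`tres5cT τ : Ω((q)) → E((q))` of `coeffMap ι`.

* `tres5cT_coeffMap`, `tres5cT_mul` : `T (coeffMap f) = f`, `T (coeffMap f * g) = f * T g`;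
* **`tres5c_retract_mem`** : `F₁` an intermediate field of `E((q)) / E`; `T` maps the subfield of
  `Ω((q))` generated by `coeffMap F₁` and the constants `Ω` into `F₁`;
* **`tres5c_form_le`** : hence a Laurent series with coefficients in `E` which lies in the field
  generated by `coeffMap F₁` and `Ω` lies in `F₁` ("the `E`-form of `Ω · F₁` is `F₁`").

No Galois theory is used.  Mathlib + `coeffMap` only.
-/

set_option autoImplicit false
set_option linter.style.haveILetI false
set_option linter.unusedSectionVars false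

noncomputable section

open Polynomial IntermediateField ModularCurve

namespace Fermat.Agent.R38

section Retract

variable {E Ω : Type*} [Field E] [Field Ω] [Algebra E Ω]

/-- coefficientwise application of an `E`-linear form `τ : Ω → E` -/
def tres5cT (τ : Ω →ₗ[E] E) : LaurentSeries Ω →+ LaurentSeries E where
  toFun g := g.map τ
  map_zero' := by
    ext n
    simp
  map_add' x y := by
    ext n
    simp

@[simp]
theorem tres5cT_coeff (τ : Ω →ₗ[E] E) (g : LaurentSeries Ω) (n : ℤ) :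
    (tres5cT τ g).coeff n = τ (g.coeff n) := rfl

theorem tres5cT_coeffMap {τ : Ω →ₗ[E] E} (hτ : ∀ c : E, τ (algebraMap E Ω c) = c)
    (f : LaurentSeries E) : tres5cT τ (coeffMap (algebraMap E Ω) f) = f := by
  ext n
  rw [tres5cT_coeff, coeffMap_coeff, hτ]

theorem tres5cT_support (τ : Ω →ₗ[E] E) (g : LaurentSeries Ω) :
    (tres5cT τ g).support ⊆ g.support := by
  intro n hn
  rw [HahnSeries.mem_support] at hn ⊢
  intro h
  apply hn
  rw [tres5cT_coeff, h, map_zero]

theorem tres5c_coeffMap_support {R S : Type*} [CommRing R] [CommRing S] (φ : R →+* S)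
    (f : LaurentSeries R) : (coeffMap φ f).support ⊆ f.support := by
  intro n hn
  rw [HahnSeries.mem_support] at hn ⊢
  intro h
  apply hn
  rw [coeffMap_coeff, h, map_zero]

/-- `T` is `E((q))`-linear -/
theorem tres5cT_mul (τ : Ω →ₗ[E] E) (f : LaurentSeries E) (g : LaurentSeries Ω) :
    tres5cT τ (coeffMap (algebraMap E Ω) f * g) = f * tres5cT τ g := by
  ext n
  rw [tres5cT_coeff,
    HahnSeries.coeff_mul_left' f.isPWO_support (tres5c_coeffMap_support (algebraMap E Ω) f),
    HahnSeries.coeff_mul_right' g.isPWO_support (tres5cT_support τ g), map_sum]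
  refine Finset.sum_congr rfl fun ij _ => ?_
  rw [coeffMap_coeff, tres5cT_coeff, ← Algebra.smul_def, map_smul, smul_eq_mul]

theorem tres5cT_algebraMap (τ : Ω →ₗ[E] E) (e : Ω) :
    tres5cT τ (algebraMap Ω (LaurentSeries Ω) e) = algebraMap E (LaurentSeries E) (τ e) := by
  rw [algebraMap_laurentSeries_eq_single, algebraMap_laurentSeries_eq_single]
  ext n
  rw [tres5cT_coeff]
  rcases eq_or_ne n 0 with rfl | hn
  · rw [HahnSeries.coeff_single_same, HahnSeries.coeff_single_same]
  · rw [HahnSeries.coeff_single_of_ne hn, HahnSeries.coeff_single_of_ne hn, map_zero]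

/-- an `E`-linear retraction of `E → Ω` exists -/
theorem tres5c_exists_tau (E Ω : Type*) [Field E] [Field Ω] [Algebra E Ω] :
    ∃ τ : Ω →ₗ[E] E, ∀ c : E, τ (algebraMap E Ω c) = c := by
  obtain ⟨g, hg⟩ := LinearMap.exists_leftInverse_of_injective (Algebra.linearMap E Ω)
    (LinearMap.ker_eq_bot.2 (FaithfulSMul.algebraMap_injective E Ω))
  exact ⟨g, fun c => by
    have := LinearMap.congr_fun hg c
    simpa using this⟩

theorem tres5c_coeffMap_algebraMap (c : E) :
    coeffMap (algebraMap E Ω) (algebraMap E (LaurentSeries E) c)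
      = algebraMap Ω (LaurentSeries Ω) (algebraMap E Ω c) := by
  rw [algebraMap_laurentSeries_eq_single, algebraMap_laurentSeries_eq_single, coeffMap_single]

variable [Algebra.IsAlgebraic E Ω]

/-- **The retraction maps `Ω · F₁` into `F₁`.** -/
theorem tres5c_retract_mem (F₁ : IntermediateField E (LaurentSeries E)) (τ : Ω →ₗ[E] E)
    {x : LaurentSeries Ω}
    (hx : x ∈ Subfield.closure
      ((coeffMap (algebraMap E Ω) '' (F₁ : Set (LaurentSeries E))) ∪
        Set.range (algebraMap Ω (LaurentSeries Ω)))) :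
    tres5cT τ x ∈ F₁ := by
  classical
  letI alg : Algebra ↥F₁ (LaurentSeries Ω) :=
    ((coeffMap (algebraMap E Ω)).comp (algebraMap ↥F₁ (LaurentSeries E))).toAlgebra
  have halg : ∀ a : ↥F₁, algebraMap ↥F₁ (LaurentSeries Ω) a
      = coeffMap (algebraMap E Ω) (a : LaurentSeries E) := fun a => rfl
  set S : Set (LaurentSeries Ω) := Set.range (algebraMap Ω (LaurentSeries Ω)) with hS
  -- the constants are algebraic over `F₁`
  have hcomp : (algebraMap ↥F₁ (LaurentSeries Ω)).comp (algebraMap E ↥F₁)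
      = (algebraMap Ω (LaurentSeries Ω)).comp (algebraMap E Ω) := by
    ext1 c
    rw [RingHom.comp_apply, RingHom.comp_apply, halg]
    exact tres5c_coeffMap_algebraMap c
  have hSalg : ∀ s ∈ S, IsAlgebraic ↥F₁ s := by
    rintro _ ⟨e, rfl⟩
    obtain ⟨P, hP0, hP⟩ := Algebra.IsAlgebraic.isAlgebraic (R := E) e
    refine ⟨P.map (algebraMap E ↥F₁), ?_, ?_⟩
    · exact (Polynomial.map_ne_zero_iff (FaithfulSMul.algebraMap_injective E ↥F₁)).2 hP0
    · rw [Polynomial.aeval_def, Polynomial.eval₂_map, hcomp, ← Polynomial.hom_eval₂]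
      rw [Polynomial.aeval_def] at hP
      rw [hP, map_zero]
  -- `x` lies in the subalgebra generated by the constants
  have hx1 : x ∈ (IntermediateField.adjoin ↥F₁ S).toSubfield := by
    revert x
    show Subfield.closure _ ≤ (IntermediateField.adjoin ↥F₁ S).toSubfield
    rw [Subfield.closure_le]
    rintro z (⟨f, hf, rfl⟩ | hz)
    · exact (IntermediateField.adjoin ↥F₁ S).algebraMap_mem ⟨f, hf⟩
    · exact IntermediateField.subset_adjoin _ _ hz
  have hx2 : x ∈ Algebra.adjoin ↥F₁ S := by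
    rw [← IntermediateField.adjoin_toSubalgebra_of_isAlgebraic hSalg]
    exact hx1
  have hx3 : x ∈ Submodule.span ↥F₁ ((Submonoid.closure S : Submonoid (LaurentSeries Ω)) :
      Set (LaurentSeries Ω)) := by
    rw [← Algebra.adjoin_eq_span]
    exact hx2
  have hclos : ∀ z ∈ Submonoid.closure S, z ∈ S := by
    intro z hz
    induction hz using Submonoid.closure_induction with
    | mem z hz => exact hz
    | one => exact ⟨1, map_one _⟩
    | mul a b _ _ ha hb =>
      obtain ⟨a', rfl⟩ := ha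
      obtain ⟨b', rfl⟩ := hb
      exact ⟨a' * b', map_mul _ _ _⟩
  have key : ∀ z, z ∈ Submodule.span ↥F₁ ((Submonoid.closure S : Submonoid (LaurentSeries Ω)) :
      Set (LaurentSeries Ω)) → tres5cT τ z ∈ F₁ := by
    intro z hz
    induction hz using Submodule.span_induction with
    | mem z hz =>
      obtain ⟨e, rfl⟩ := hclos z hz
      rw [tres5cT_algebraMap]
      exact F₁.algebraMap_mem _
    | zero =>
      rw [map_zero]
      exact F₁.zero_mem
    | add a b _ _ ha hb =>
      rw [map_add]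
      exact F₁.add_mem ha hb
    | smul a z _ hz =>
      rw [Algebra.smul_def, halg, tres5cT_mul]
      exact F₁.mul_mem a.2 hz
  exact key x hx3

/-- **The `E`-form of `Ω · F₁` is `F₁`.** -/
theorem tres5c_form_le (F₁ : IntermediateField E (LaurentSeries E))
    {f : LaurentSeries E}
    (hf : coeffMap (algebraMap E Ω) f ∈ Subfield.closure
      ((coeffMap (algebraMap E Ω) '' (F₁ : Set (LaurentSeries E))) ∪
        Set.range (algebraMap Ω (LaurentSeries Ω)))) :
    f ∈ F₁ := by
  obtain ⟨τ, hτ⟩ := tres5c_exists_tau E Ω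
  have h := tres5c_retract_mem F₁ τ hf
  rwa [tres5cT_coeffMap hτ] at h

end Retract

end Fermat.Agent.R38

end
end ZBR38_017_2

/-! ### bundled: `Fermat.Agent.R38.TresCoverFormE` -/
section ZBR38_017_3

/-!
# R38 TRES, (FAC-p), piece ASM-COV, part 4: the forms of the cover are generated by `y`

* `tres5cForm_eq_adjoin` (generic) : if `Fb′ ⊆ Ω · F₀(y_E)` and `coeffMap y_E ∈ Fb′` then the
  `E`-form of `Fb′` is `F₀(y_E)`;
* `tres5c_ff_desc` : `F_N(ℚ̄) ∩ E((q)) = F_N(E)` for EVERY intermediate field `E` of `ℚ̄ / ℚ`;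
* `tres5cL_eq_adjoin` : if `y = coeffMap y_E` (`y` has coefficients in `E`) then
  `L_E = F_N(E)(y_E)`;
* `tres5cGenL`, `tres5cL_adjoin_gen` : the generator `y_E` of `L_E`, `F_N(E)⟮y_E⟯ = ⊤`;
* `tres5cKumL` : the `Tres5Kum` structure on `L_E / F_N(E)` at a valuation `V` with (H1).
-/

set_option autoImplicit false
set_option linter.style.haveILetI false
set_option linter.unusedSectionVars false

noncomputable section

open Polynomial IntermediateField ModularCurve Fermat.Agent.INJ

namespace Fermat.Agent.R38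

section Generic

variable {F Ω : Type*} [Field F] [Field Ω] [Algebra F Ω]

/-- a generator of an intermediate field generates it as a field over the base -/
theorem tres5c_adjoin_mk (K : IntermediateField F Ω) {y : Ω} (hy : y ∈ K) (h : K = F⟮y⟯) :
    IntermediateField.adjoin F {(⟨y, hy⟩ : ↥K)} = (⊤ : IntermediateField F ↥K) := by
  apply IntermediateField.map_injective K.val
  rw [IntermediateField.adjoin_map, Set.image_singleton, ← AlgHom.fieldRange_eq_map,
    IntermediateField.fieldRange_val]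
  exact h.symm

end Generic

section GenericForm

variable {E Ω : Type*} [Field E] [Field Ω] [Algebra E Ω] [Algebra.IsAlgebraic E Ω]

/-- **the `E`-form is generated by `y_E`** -/
theorem tres5cForm_eq_adjoin (F₀ : IntermediateField E (LaurentSeries E))
    (Fb' : Subfield (LaurentSeries Ω))
    (hF : ∀ x ∈ F₀, coeffMap (algebraMap E Ω) x ∈ Fb') (yE : LaurentSeries E)
    (h1 : coeffMap (algebraMap E Ω) yE ∈ Fb')
    (h2 : ∀ x ∈ Fb', x ∈ Subfield.closure
      ((coeffMap (algebraMap E Ω) ''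
          ((IntermediateField.restrictScalars E F₀⟮yE⟯ :
            IntermediateField E (LaurentSeries E)) : Set (LaurentSeries E))) ∪
        Set.range (algebraMap Ω (LaurentSeries Ω)))) :
    tres5cForm (algebraMap E Ω) F₀ Fb' hF = F₀⟮yE⟯ := by
  apply le_antisymm
  · intro f hf
    have h3 := tres5c_form_le (IntermediateField.restrictScalars E F₀⟮yE⟯) (h2 _ hf)
    exact h3
  · rw [IntermediateField.adjoin_le_iff]
    intro z hz
    rw [Set.mem_singleton_iff] at hz
    subst hz
    exact h1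

end GenericForm

section Concrete

variable (E : IntermediateField ℚ NfQb) (N : ℕ)

theorem tres5c_isAlgebraic : Algebra.IsAlgebraic ↥E NfQb :=
  haveI : Algebra.IsAlgebraic ℚ NfQb := AlgebraicClosure.isAlgebraic ℚ
  Algebra.IsAlgebraic.tower_top (K := ℚ) ↥E

/-- `F_N(ℚ̄)` lies in the field generated by the image of `F_N(E)` and the constants -/
theorem tres5c_bar_mem_closure (F₁ : IntermediateField ↥E (LaurentSeries ↥E))
    (hF₁ : modularFunctionFieldFullC ↥E N ≤ F₁) {x : LaurentSeries NfQb}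
    (hx : x ∈ modularFunctionFieldBar N) :
    x ∈ Subfield.closure
      ((coeffMap (algebraMap ↥E NfQb) '' (F₁ : Set (LaurentSeries ↥E))) ∪
        Set.range (algebraMap NfQb (LaurentSeries NfQb))) := by
  have hx' : x ∈ Subfield.closure
      (Set.range (algebraMap NfQb (LaurentSeries NfQb)) ∪ divisorExpansionsC NfQb N) :=
    nf_bar_le_fullC N hx
  clear hx
  revert x
  show Subfield.closure _ ≤ Subfield.closure _
  rw [Subfield.closure_le]
  rintro z (hz | ⟨d, hd, hdN, rfl⟩)
  · exact Subfield.subset_closure (Or.inr hz)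
  · refine Subfield.subset_closure (Or.inl ⟨qExpand ↥E d (jqModC ↥E), ?_, ?_⟩)
    · exact hF₁ (jqModCd_mem_full ↥E N hdN)
    · exact coeffMap_jqNModC (algebraMap ↥E NfQb) d

/-- **`F_N(ℚ̄) ∩ E((q)) = F_N(E)`** -/
theorem tres5c_ff_desc {f : LaurentSeries ↥E}
    (hf : coeffMap (algebraMap ↥E NfQb) f ∈ modularFunctionFieldBar N) :
    f ∈ modularFunctionFieldFullC ↥E N :=
  haveI := tres5c_isAlgebraic E
  tres5c_form_le (modularFunctionFieldFullC ↥E N)
    (tres5c_bar_mem_closure E N _ le_rfl hf)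

variable (y : LaurentSeries NfQb)

/-- the cover lies in the field generated by the image of `F₁ ∋ y_E` and the constants -/
theorem tres5c_field_mem_closure (F₁ : IntermediateField ↥E (LaurentSeries ↥E))
    (hF₁ : modularFunctionFieldFullC ↥E N ≤ F₁) {yE : LaurentSeries ↥E} (hyE : yE ∈ F₁)
    (hy : coeffMap (algebraMap ↥E NfQb) yE = y) {x : LaurentSeries NfQb}
    (hx : x ∈ tres5cField N y) :
    x ∈ Subfield.closure
      ((coeffMap (algebraMap ↥E NfQb) '' (F₁ : Set (LaurentSeries ↥E))) ∪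
        Set.range (algebraMap NfQb (LaurentSeries NfQb))) := by
  have hx' : x ∈ Subfield.closure
      (Set.range (algebraMap NfQb (LaurentSeries NfQb)) ∪
        ((modularFunctionFieldBar N : Set (LaurentSeries NfQb)) ∪ {y})) := hx
  clear hx
  revert x
  show Subfield.closure _ ≤ Subfield.closure _
  rw [Subfield.closure_le]
  rintro z (hz | hz | hz)
  · exact Subfield.subset_closure (Or.inr hz)
  · exact tres5c_bar_mem_closure E N F₁ hF₁ hz
  · rw [Set.mem_singleton_iff] at hz
    subst hz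
    exact Subfield.subset_closure (Or.inl ⟨yE, hyE, hy⟩)

/-- **`L_E = F_N(E)(y_E)`** if `y` has coefficients in `E`. -/
theorem tres5cL_eq_adjoin {yE : LaurentSeries ↥E}
    (hy : coeffMap (algebraMap ↥E NfQb) yE = y) :
    tres5cL E N y = (modularFunctionFieldFullC ↥E N)⟮yE⟯ := by
  haveI := tres5c_isAlgebraic E
  refine tres5cForm_eq_adjoin _ _ _ yE ?_ ?_
  · show coeffMap (algebraMap ↥E NfQb) yE ∈ tres5cField N y
    rw [hy]
    exact tres5c_y_mem N y
  · intro x hx
    refine tres5c_field_mem_closure E N y _ ?_ ?_ hy hx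
    · intro z hz
      exact (IntermediateField.adjoin (↥(modularFunctionFieldFullC ↥E N)) {yE}).algebraMap_mem
        ⟨z, hz⟩
    · exact IntermediateField.mem_adjoin_simple_self _ yE

variable {E N y} in
theorem tres5c_gen_mem {yE : LaurentSeries ↥E} (hy : coeffMap (algebraMap ↥E NfQb) yE = y) :
    yE ∈ tres5cL E N y := by
  rw [mem_tres5cL, hy]
  exact tres5c_y_mem N y

/-- the generator `y_E` of `L_E` -/
def tres5cGenL {yE : LaurentSeries ↥E} (hy : coeffMap (algebraMap ↥E NfQb) yE = y) :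
    ↥(tres5cL E N y) := ⟨yE, tres5c_gen_mem hy⟩

@[simp]
theorem tres5cGenL_coe {yE : LaurentSeries ↥E} (hy : coeffMap (algebraMap ↥E NfQb) yE = y) :
    ((tres5cGenL E N y hy : ↥(tres5cL E N y)) : LaurentSeries ↥E) = yE := rfl

/-- **`L_E` is generated by `y_E` over `F_N(E)`** -/
theorem tres5cL_adjoin_gen {yE : LaurentSeries ↥E}
    (hy : coeffMap (algebraMap ↥E NfQb) yE = y) :
    IntermediateField.adjoin ↥(modularFunctionFieldFullC ↥E N) {tres5cGenL E N y hy}
      = (⊤ : IntermediateField ↥(modularFunctionFieldFullC ↥E N) ↥(tres5cL E N y)) :=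
  tres5c_adjoin_mk (tres5cL E N y) (tres5c_gen_mem hy) (tres5cL_eq_adjoin E N y hy)

end Concrete

end Fermat.Agent.R38

end
end ZBR38_017_3

/-! ### bundled: `Fermat.Agent.R38.TresCoverKumL` -/
section ZBR38_017_4

/-!
# R38 TRES, (FAC-p), piece ASM-COV, part 5: the Kummer structure of `L_E / F_N(E)`

* `tres5cKumOf` (generic) : `K = F(y)` an intermediate field of `Ω / F`, `y ^ p = w ∈ F`, (H1) at
  `V` ⇒ `Tres5Kum F ↥K V p` with generator `⟨y, _⟩`;
* `tres5cKumL` : the same for `L_E = tres5cL E N y` over `F_N(E)`, `y = coeffMap y_E`,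
  `y_E ^ p = w`, `w ∈ F_N(E)` not a `p`-th power.
-/

set_option autoImplicit false
set_option linter.style.haveILetI false
set_option linter.unusedSectionVars false

noncomputable section

open Polynomial IntermediateField ModularCurve Fermat.Agent.INJ

namespace Fermat.Agent.R38

section Generic

variable {F Ω : Type*} [Field F] [Field Ω] [Algebra F Ω]

/-- The Kummer structure of an intermediate field `K = F(y)`, `y ^ p = w`, split at `V`. -/
def tres5cKumOf (K : IntermediateField F Ω) (V : ValuationSubring F) {p : ℕ} (hp : p.Prime)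
    {ζ : F} (hζ : IsPrimitiveRoot ζ p) {π : F} (hπ : π ∈ V.nonunits) (hπ0 : π ≠ 0)
    (hunif : ∀ x : F, x ≠ 0 → ∃ n : ℤ, V.valuation (x / π ^ n) = 1)
    {w g : F} (hg : g ≠ 0)
    (hsplit : V.valuation (w / g ^ p - 1) ≤ V.valuation ((ζ - 1) ^ p * π))
    {y : Ω} (hyK : y ∈ K) (hK : K = F⟮y⟯) (hy : y ^ p = algebraMap F Ω w)
    (hw : ∀ c : F, c ^ p ≠ w) : Tres5Kum F ↥K V p where
  hp := hp
  ζ := ζ
  hζ := hζ
  π := π
  hπ := hπ
  hπ0 := hπ0
  hunif := hunif
  w := w
  g := g
  hg := hg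
  hsplit := hsplit
  y := ⟨y, hyK⟩
  hy := Subtype.ext hy
  htop := tres5c_adjoin_mk K hyK hK
  hw := hw

end Generic

section Concrete

variable (E : IntermediateField ℚ NfQb) (N : ℕ) (y : LaurentSeries NfQb)

/-- **The Kummer structure of the cover over `E`** at a valuation `V` of `F_N(E)` with (H1). -/
def tres5cKumL (V : ValuationSubring ↥(modularFunctionFieldFullC ↥E N)) {p : ℕ} (hp : p.Prime)
    {ζ : ↥(modularFunctionFieldFullC ↥E N)} (hζ : IsPrimitiveRoot ζ p)
    {π : ↥(modularFunctionFieldFullC ↥E N)} (hπ : π ∈ V.nonunits) (hπ0 : π ≠ 0)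
    (hunif : ∀ x : ↥(modularFunctionFieldFullC ↥E N), x ≠ 0 →
      ∃ n : ℤ, V.valuation (x / π ^ n) = 1)
    {w g : ↥(modularFunctionFieldFullC ↥E N)} (hg : g ≠ 0)
    (hsplit : V.valuation (w / g ^ p - 1) ≤ V.valuation ((ζ - 1) ^ p * π))
    {yE : LaurentSeries ↥E} (hyE : coeffMap (algebraMap ↥E NfQb) yE = y)
    (hy : yE ^ p = (w : LaurentSeries ↥E)) (hw : ∀ c : ↥(modularFunctionFieldFullC ↥E N), c ^ p ≠ w) :
    Tres5Kum ↥(modularFunctionFieldFullC ↥E N) ↥(tres5cL E N y) V p :=
  tres5cKumOf (tres5cL E N y) V hp hζ hπ hπ0 hunif hg hsplit (tres5c_gen_mem hyE)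
    (tres5cL_eq_adjoin E N y hyE) hy hw

end Concrete

end Fermat.Agent.R38

end
end ZBR38_017_4

/-! ### bundled: `Fermat.Agent.R38.TresCoverDeck` -/
section ZBR38_017_5

/-!
# R38 TRES, (FAC-p), piece ASM-COV, part 7: the deck transformation of `L_E` and of `F′`

`S : Tres5Kum F_N(E) L_E V p` (e.g. `tres5cKumL`), `ρ_E = S.deck`, and a deck transformation
`t : F′ →+* ℚ̄((q))` of the cover over `ℚ̄` (`t = id` on `F_N(ℚ̄)`, `t y = C ζ · y`;
helper30's `tresdesc_comm`, helper64's `tres5ck_exists_deck`).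

* `tres5c_ringHom_ext` : ring homomorphisms on `F(y)` agreeing on `F` and at `y` are equal;
* `tres5c_emb_deck` : `coeffMap (ρ_E f) = t (coeffMap f)` — `ρ_E` is the restriction of `t`;
* `tres5c_deck_comm` : if `t` commutes with the coefficientwise action of `σ ∈ G_ℚ` on `F′`
  (the conclusion of `tresdesc_comm`) and `γ : E →+* E` is the restriction of `σ`, then `ρ_E`
  commutes with the coefficientwise action of `γ` on `L_E` (`hρG` of `tres5c_descend`).
-/

set_option autoImplicit false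
set_option linter.style.haveILetI false
set_option linter.unusedSectionVars false

noncomputable section

open Polynomial IntermediateField ModularCurve Fermat.Agent.INJ

namespace Fermat.Agent.R38

section Generic

variable {F L M : Type*} [Field F] [Field L] [Algebra F L] [Field M]

/-- ring homomorphisms on `F(y)` agreeing on `F` and at `y` are equal -/
theorem tres5c_ringHom_ext {y : L} (htop : IntermediateField.adjoin F {y} = ⊤)
    (φ₁ φ₂ : L →+* M) (hF : ∀ a : F, φ₁ (algebraMap F L a) = φ₂ (algebraMap F L a))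
    (hy : φ₁ y = φ₂ y) (x : L) : φ₁ x = φ₂ x := by
  let K' : IntermediateField F L :=
    { carrier := {x | φ₁ x = φ₂ x}
      mul_mem' := fun {a b} ha hb => by
        show φ₁ (a * b) = φ₂ (a * b)
        rw [map_mul, map_mul, ha, hb]
      one_mem' := by
        show φ₁ 1 = φ₂ 1
        rw [map_one, map_one]
      add_mem' := fun {a b} ha hb => by
        show φ₁ (a + b) = φ₂ (a + b)
        rw [map_add, map_add, ha, hb]
      zero_mem' := by
        show φ₁ 0 = φ₂ 0
        rw [map_zero, map_zero]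
      algebraMap_mem' := hF
      inv_mem' := fun a ha => by
        show φ₁ a⁻¹ = φ₂ a⁻¹
        rw [map_inv₀, map_inv₀, ha] }
  have h1 : IntermediateField.adjoin F {y} ≤ K' := by
    rw [IntermediateField.adjoin_le_iff]
    intro z hz
    rw [Set.mem_singleton_iff] at hz
    subst hz
    exact hy
  have h2 : x ∈ IntermediateField.adjoin F {y} := by
    rw [htop]
    exact IntermediateField.mem_top
  exact h1 h2

end Generic

section GenericDeck

variable {F Ω M : Type*} [Field F] [Field Ω] [Algebra F Ω] [Field M]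
  {L : IntermediateField F Ω} {V : ValuationSubring F} {p : ℕ}

/-- the deck transformation is the restriction of `t'` -/
theorem tres5c_emb_deck_gen (S : Tres5Kum F ↥L V p) (t' t'' : ↥L →+* M)
    (h1 : ∀ a : F, t'' (algebraMap F ↥L a) = t' (algebraMap F ↥L a))
    (h2 : t'' S.y = t' (algebraMap F ↥L S.ζ) * t' S.y) (f : ↥L) :
    t' (S.deck f) = t'' f := by
  refine tres5c_ringHom_ext S.htop (t'.comp (S.deck : ↥L →+* ↥L)) t'' (fun a => ?_) ?_ f
  · rw [RingHom.comp_apply, h1]
    congr 1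
    exact S.deck.commutes a
  · rw [RingHom.comp_apply, h2]
    have h3 := S.deck_y
    show t' (S.deck S.y) = _
    rw [h3, map_mul]

end GenericDeck

section Concrete

variable (E : IntermediateField ℚ NfQb) (N : ℕ) (y : LaurentSeries NfQb) {p : ℕ}
  {V : ValuationSubring ↥(modularFunctionFieldFullC ↥E N)}

/-- **`ρ_E` is the restriction of the deck transformation `t` of `F′`.** -/
theorem tres5c_emb_deck (S : Tres5Kum ↥(modularFunctionFieldFullC ↥E N) ↥(tres5cL E N y) V p)
    (t : ↥(tres5cField N y) →+* LaurentSeries NfQb)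
    (htF : ∀ (f : LaurentSeries NfQb) (hf : f ∈ modularFunctionFieldBar N),
      t ⟨f, tres5c_bar_le N y hf⟩ = f)
    {ζ : NfQb} (hty : t ⟨y, tres5c_y_mem N y⟩ = HahnSeries.C ζ * y)
    (hSy : coeffMap (algebraMap ↥E NfQb) (S.y : LaurentSeries ↥E) = y)
    (hSζ : coeffMap (algebraMap ↥E NfQb) ((S.ζ : ↥(modularFunctionFieldFullC ↥E N)) :
      LaurentSeries ↥E) = HahnSeries.C ζ)
    (f : ↥(tres5cL E N y)) :
    coeffMap (algebraMap ↥E NfQb) ((S.deck f : ↥(tres5cL E N y)) : LaurentSeries ↥E)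
      = t (tres5cEmb E N y f) := by
  have hval : ∀ g : ↥(tres5cL E N y),
      ((algebraMap ↥(tres5cField N y) (LaurentSeries NfQb)).comp (tres5cEmb E N y)) g
        = coeffMap (algebraMap ↥E NfQb) (g : LaurentSeries ↥E) := fun g => rfl
  have key := tres5c_emb_deck_gen S
    ((algebraMap ↥(tres5cField N y) (LaurentSeries NfQb)).comp (tres5cEmb E N y))
    (t.comp (tres5cEmb E N y)) ?_ ?_ f
  · rw [hval] at key
    exact key
  · intro a
    rw [hval, RingHom.comp_apply]
    exact htF _ (nf_coeffMap_mem_bar E N a.2)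
  · rw [hval, hval, RingHom.comp_apply]
    have e1 : tres5cEmb E N y S.y = ⟨y, tres5c_y_mem N y⟩ := Subtype.ext hSy
    rw [e1, hty, hSy]
    congr 1
    rw [← hSζ]
    rfl

/-- **`ρ_E` commutes with the coefficientwise Galois action.**  `γ : E →+* E` is the restriction
of `σ ∈ G_ℚ`, the deck transformation `t` of `F′` commutes with `σ` (conclusion of
`tresdesc_comm`), `x' = γ x` and `d' = γ (ρ_E x)` in `L_E`: then `ρ_E x' = d'`. -/
theorem tres5c_deck_comm (S : Tres5Kum ↥(modularFunctionFieldFullC ↥E N) ↥(tres5cL E N y) V p)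
    (t : ↥(tres5cField N y) →+* LaurentSeries NfQb)
    (htF : ∀ (f : LaurentSeries NfQb) (hf : f ∈ modularFunctionFieldBar N),
      t ⟨f, tres5c_bar_le N y hf⟩ = f)
    {ζ : NfQb} (hty : t ⟨y, tres5c_y_mem N y⟩ = HahnSeries.C ζ * y)
    (hSy : coeffMap (algebraMap ↥E NfQb) (S.y : LaurentSeries ↥E) = y)
    (hSζ : coeffMap (algebraMap ↥E NfQb) ((S.ζ : ↥(modularFunctionFieldFullC ↥E N)) :
      LaurentSeries ↥E) = HahnSeries.C ζ)
    (γ : ↥E →+* ↥E) (σ : NfQb ≃ₐ[ℚ] NfQb)
    (hγσ : ∀ e : ↥E, σ (algebraMap ↥E NfQb e) = algebraMap ↥E NfQb (γ e))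
    (hcomm : ∀ (x : ↥(tres5cField N y))
      (hx : coeffMap ((σ : NfQb ≃ₐ[ℚ] NfQb) : NfQb →+* NfQb) (x : LaurentSeries NfQb) ∈
        tres5cField N y),
      t ⟨_, hx⟩ = coeffMap ((σ : NfQb ≃ₐ[ℚ] NfQb) : NfQb →+* NfQb) (t x))
    {x x' d' : ↥(tres5cL E N y)}
    (hx' : (x' : LaurentSeries ↥E) = coeffMap γ (x : LaurentSeries ↥E))
    (hd' : (d' : LaurentSeries ↥E) = coeffMap γ ((S.deck x : ↥(tres5cL E N y)) :
      LaurentSeries ↥E)) :
    S.deck x' = d' := by
  have hswap : ∀ z : LaurentSeries ↥E,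
      coeffMap (algebraMap ↥E NfQb) (coeffMap γ z)
        = coeffMap ((σ : NfQb ≃ₐ[ℚ] NfQb) : NfQb →+* NfQb)
            (coeffMap (algebraMap ↥E NfQb) z) := by
    intro z
    rw [coeffMap_coeffMap, coeffMap_coeffMap]
    exact coeffMap_congr (RingHom.ext fun e => (hγσ e).symm) z
  apply Subtype.ext
  apply nf_coeffMap_injective (algebraMap ↥E NfQb)
  rw [tres5c_emb_deck E N y S t htF hty hSy hSζ x', hd', hswap,
    tres5c_emb_deck E N y S t htF hty hSy hSζ x]
  have hmem : coeffMap ((σ : NfQb ≃ₐ[ℚ] NfQb) : NfQb →+* NfQb)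
      ((tres5cEmb E N y x : ↥(tres5cField N y)) : LaurentSeries NfQb) ∈ tres5cField N y := by
    rw [tres5cEmb_coe, ← hswap, ← hx']
    exact x'.2
  rw [← hcomm (tres5cEmb E N y x) hmem]
  congr 1
  apply Subtype.ext
  rw [tres5cEmb_coe, hx', hswap]
  rfl

end Concrete

end Fermat.Agent.R38

end
end ZBR38_017_5

/-! ### bundled: `Fermat.Agent.R38.TresFixF` -/
section ZBR38_017_6

/-!
# R38 TRES, (FAC-p), piece FAC-FIXF (helper29): the fixed-field inputs of the K-FORM descent

Inputs `hfixL`, `hfixF` (and the stability / commutation needed for `hGR`, `hρG`) of helper53's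
`tres5kp_descend'` / `Tres5Gen.descend'` for `G = Gal(E / K)` acting COEFFICIENTWISE, `K ≤ E`
intermediate fields of `ℚ̄ / ℚ`, `F_E = modularFunctionFieldFullC E N`, `L_E = tres5cL E N y`.
Everything is stated at the level of `coeffMap`, so that no instance is needed.

## Abstract (any fields `K → E`)
* `tres5ff_exists_coeff` : a Laurent series over `E` fixed coefficientwise by a family of
  endomorphisms of `E` whose fixed field is `κ K` is `coeffMap κ y`.
* `tres5ff_full_le_closure`, `tres5ff_full_form` : **`F_N(E) ∩ K((q)) = F_N(K)`** for `E / K` algebraic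
  (helper78's retraction `tres5c_form_le`; no Galois theory).

## Concrete (`K ≤ E ≤ ℚ̄`)
* `tres5ff_hfixF`, `tres5ff_hfixL` : the two fixed-field statements for `F_N(E)` and `tres5cL E N y`.
* `tres5ff_lift` : `K = beta0Field A = ℚ̄^I`; every ring automorphism of `E` fixing `K` pointwise is
  the restriction of some `σ ∈ I = A.inertiaSubgroupIn ℚ`.
* `tres5ffRes`, `tres5ff_fixed` : for an `I`-stable `E ⊇ K` the restrictions of `σ ∈ I` to `E`
  have fixed field `K` (`= hK` of `tres5ff_hfixF/L` for `G = Gal(E / K)`).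
* `tres5ff_stab` : `F′ = tres5cField N y` stable under `I` (helper30's `tresdesc_stab`) ⇒ `L_E` stable
  under `Gal(E / K)`.
* `tres5ff_comm` : a deck transformation of `F′` commuting with `I` (helper30's `tresdesc_comm`)
  ⇒ its `E`-form commutes with `Gal(E / K)`.
-/

set_option autoImplicit false
set_option linter.style.haveILetI false
set_option linter.unusedSectionVars false

noncomputable section

open ModularCurve Fermat.Agent.INJ Fermat.Agent.UNIP IntermediateField

namespace Fermat.Agent.R38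

section Abs

variable {K E : Type*} [Field K] [Field E]

/-- a Laurent series whose coefficients all come from `K` is `coeffMap κ y` -/
theorem tres5ff_exists_of_coeff (κ : K →+* E) {x : LaurentSeries E}
    (hc : ∀ n : ℤ, ∃ k : K, κ k = x.coeff n) :
    ∃ y : LaurentSeries K, coeffMap κ y = x := by
  classical
  choose c hc using hc
  have hsupp : (Function.support c).IsPWO := by
    refine x.isPWO_support.mono fun n hn => ?_
    rw [Function.mem_support] at hn
    rw [HahnSeries.mem_support]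
    intro h0
    apply hn
    apply κ.injective
    rw [hc n, map_zero]
    exact h0
  refine ⟨⟨c, hsupp⟩, ?_⟩
  ext n
  rw [coeffMap_coeff]
  exact hc n

/-- **coefficientwise fixed ⇒ coefficients in the fixed field.** -/
theorem tres5ff_exists_coeff (κ : K →+* E) {G : Type*} (act : G → E →+* E)
    (hK : ∀ e : E, (∀ g, act g e = e) → ∃ k : K, κ k = e)
    {x : LaurentSeries E} (hx : ∀ g, coeffMap (act g) x = x) :
    ∃ y : LaurentSeries K, coeffMap κ y = x := by
  refine tres5ff_exists_of_coeff κ fun n => hK _ fun g => ?_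
  have := congrArg (fun z : LaurentSeries E => z.coeff n) (hx g)
  simpa only [coeffMap_coeff] using this

variable [Algebra K E]

/-- `F_N(E)` is generated by the image of `F_N(K)` and the constants -/
theorem tres5ff_full_le_closure (N : ℕ) [NeZero N] {x : LaurentSeries E}
    (hx : x ∈ modularFunctionFieldFullC E N) :
    x ∈ Subfield.closure
      ((coeffMap (algebraMap K E) '' (modularFunctionFieldFullC K N : Set (LaurentSeries K))) ∪
        Set.range (algebraMap E (LaurentSeries E))) := by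
  have h1 : x ∈ (modularFunctionFieldFullC E N).toSubfield := hx
  rw [modularFunctionFieldFullC, IntermediateField.adjoin_toSubfield] at h1
  have hle : Subfield.closure
      (Set.range (algebraMap E (LaurentSeries E)) ∪ divisorExpansionsC E N) ≤
      Subfield.closure
        ((coeffMap (algebraMap K E) '' (modularFunctionFieldFullC K N : Set (LaurentSeries K))) ∪
          Set.range (algebraMap E (LaurentSeries E))) := by
    rw [Subfield.closure_le]
    rintro z (hz | ⟨d, hd, hdN, rfl⟩)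
    · exact Subfield.subset_closure (Or.inr hz)
    · refine Subfield.subset_closure (Or.inl ⟨qExpand K d (jqModC K), ?_, ?_⟩)
      · exact jqModCd_mem_full K N hdN
      · have := coeffMap_jqNModC (algebraMap K E) d
        rw [jqNModC, jqNModC] at this
        exact this
  exact hle h1

/-- **`F_N(E) ∩ K((q)) = F_N(K)`** for an algebraic extension `E / K`. -/
theorem tres5ff_full_form [Algebra.IsAlgebraic K E] (N : ℕ) [NeZero N] {f : LaurentSeries K}
    (hf : coeffMap (algebraMap K E) f ∈ modularFunctionFieldFullC E N) :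
    f ∈ modularFunctionFieldFullC K N :=
  tres5c_form_le (modularFunctionFieldFullC K N) (tres5ff_full_le_closure N hf)

end Abs

/-! ### The concrete fields `K ≤ E ≤ ℚ̄` -/

section Concrete

variable {K E : IntermediateField ℚ NfQb} (h : K ≤ E)

theorem tres5ff_algebraMap_eq :
    letI := beta0FieldAlgebra h
    algebraMap ↥K ↥E = (IntermediateField.inclusion h).toRingHom := rfl

theorem tres5ff_isAlgebraic :
    letI := beta0FieldAlgebra h
    Algebra.IsAlgebraic ↥K ↥E := by
  letI := beta0FieldAlgebra h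
  exact ⟨fun x => beta0FieldAlgebra_isAlgebraic h x⟩

/-- **`F_N(E) ∩ K((q)) = F_N(K)`**, concrete form (`hform` of helper64's `tres5ca_fixed_base`). -/
theorem tres5ff_hform (N : ℕ) [NeZero N] (f : LaurentSeries ↥K)
    (hf : coeffMap (IntermediateField.inclusion h).toRingHom f ∈ modularFunctionFieldFullC ↥E N) :
    f ∈ modularFunctionFieldFullC ↥K N := by
  letI := beta0FieldAlgebra h
  haveI := tres5ff_isAlgebraic h
  exact tres5ff_full_form (K := ↥K) (E := ↥E) N hf

/-- **(hfixF), `coeffMap` form.** -/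
theorem tres5ff_hfixF (N : ℕ) [NeZero N] {G : Type*} (act : G → ↥E →+* ↥E)
    (hK : ∀ e : ↥E, (∀ g, act g e = e) → (e : NfQb) ∈ K)
    (x : ↥(modularFunctionFieldFullC ↥E N))
    (hx : ∀ g, coeffMap (act g) (x : LaurentSeries ↥E) = x) :
    ∃ z : ↥(modularFunctionFieldFullC ↥K N),
      coeffMap (IntermediateField.inclusion h).toRingHom (z : LaurentSeries ↥K)
        = (x : LaurentSeries ↥E) := by
  obtain ⟨z, hz⟩ := tres5ff_exists_coeff (IntermediateField.inclusion h).toRingHom act
    (fun e he => ⟨⟨(e : NfQb), hK e he⟩, Subtype.ext rfl⟩) hx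
  exact ⟨⟨z, tres5ff_hform h N z (by rw [hz]; exact x.2)⟩, hz⟩

/-- **(hfixL), `coeffMap` form.** -/
theorem tres5ff_hfixL (N : ℕ) (y : LaurentSeries NfQb) {G : Type*} (act : G → ↥E →+* ↥E)
    (hK : ∀ e : ↥E, (∀ g, act g e = e) → (e : NfQb) ∈ K)
    (x : ↥(tres5cL E N y))
    (hx : ∀ g, coeffMap (act g) (x : LaurentSeries ↥E) = x) :
    ∃ z : ↥(tres5cL K N y), tres5cIncl N y h z = x := by
  obtain ⟨z, hz⟩ := tres5ff_exists_coeff (IntermediateField.inclusion h).toRingHom act
    (fun e he => ⟨⟨(e : NfQb), hK e he⟩, Subtype.ext rfl⟩) hx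
  have hzm : z ∈ tres5cL K N y := by
    rw [mem_tres5cL]
    have h1 : coeffMap (algebraMap ↥K NfQb) z =
        coeffMap (algebraMap ↥E NfQb) (coeffMap (IntermediateField.inclusion h).toRingHom z) := by
      rw [coeffMap_coeffMap]
      rfl
    rw [h1, hz]
    exact x.2
  exact ⟨⟨z, hzm⟩, Subtype.ext hz⟩

/-- **(hGLK), `coeffMap` form.** -/
theorem tres5ff_hGLK (g : ↥E →+* ↥E)
    (hg : ∀ k : ↥K, g (IntermediateField.inclusion h k) = IntermediateField.inclusion h k)
    (z : LaurentSeries ↥K) :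
    coeffMap g (coeffMap (IntermediateField.inclusion h).toRingHom z)
      = coeffMap (IntermediateField.inclusion h).toRingHom z := by
  refine HahnSeries.ext (funext fun n => ?_)
  rw [coeffMap_coeff, coeffMap_coeff]
  exact hg _

/-- the restriction to a stable `E` of an automorphism of `ℚ̄` fixing `K` pointwise, as an element
of `Gal(E / K)` -/
def tres5ffRes (σ : NfQb ≃ₐ[ℚ] NfQb) (hσE : ∀ x ∈ E, σ x ∈ E) (hσK : ∀ x ∈ K, σ x = x) :
    letI := beta0FieldAlgebra h
    ↥E ≃ₐ[↥K] ↥E :=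
  letI := beta0FieldAlgebra h
  AlgEquiv.ofRingEquiv (f := mgaRestrictEquiv E σ hσE) (fun k => Subtype.ext (hσK _ k.2))

theorem tres5ffRes_coe (σ : NfQb ≃ₐ[ℚ] NfQb) (hσE : ∀ x ∈ E, σ x ∈ E) (hσK : ∀ x ∈ K, σ x = x)
    (e : ↥E) : ((tres5ffRes h σ hσE hσK e : ↥E) : NfQb) = σ (e : NfQb) := rfl

end Concrete

/-! ### `K = ℚ̄^I`: lifting `Gal(E / K)` to the inertia group -/

section Inertia

variable {A : ValuationSubring NfQb} {q : ℕ} {E : IntermediateField ℚ NfQb}

/-- **Every automorphism of `E` fixing `K = ℚ̄^I` pointwise is the restriction of some `σ ∈ I`.** -/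
theorem tres5ff_lift (hq : q.Prime) (hA : A.LiesOverPrime q) (h : beta0Field A ≤ E)
    (g : ↥E ≃+* ↥E)
    (hg : ∀ k : ↥(beta0Field A),
      g (IntermediateField.inclusion h k) = IntermediateField.inclusion h k) :
    ∃ σ : NfQb ≃ₐ[ℚ] NfQb, σ ∈ A.inertiaSubgroupIn ℚ ∧
      ∀ e : ↥E, σ (e : NfQb) = ((g e : ↥E) : NfQb) := by
  haveI := Fermat.Agent.Common.isAlgClosure_rat_qbar
  let χ : ↥E ≃ₐ[ℚ] ↥E := AlgEquiv.ofRingEquiv (f := g) (fun r => by
    rw [eq_ratCast, map_ratCast])
  refine ⟨χ.liftNormal NfQb, ?_, fun e => ?_⟩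
  · refine beta0_mem_inertia_of_fixes hq hA _ fun x hx => ?_
    have h1 := AlgEquiv.liftNormal_commutes χ NfQb (IntermediateField.inclusion h ⟨x, hx⟩)
    have h2 : χ (IntermediateField.inclusion h ⟨x, hx⟩) = IntermediateField.inclusion h ⟨x, hx⟩ :=
      hg ⟨x, hx⟩
    rw [h2] at h1
    exact h1
  · exact AlgEquiv.liftNormal_commutes χ NfQb e

/-- **The fixed field of `Gal(E / K)` is `K = ℚ̄^I`** for an `I`-stable `E ⊇ K`
(no finiteness needed). -/
theorem tres5ff_fixed (h : beta0Field A ≤ E)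
    (hE : ∀ σ ∈ A.inertiaSubgroupIn ℚ, ∀ x ∈ E, σ x ∈ E) (e : ↥E)
    (he : letI := beta0FieldAlgebra h
      ∀ g : ↥E ≃ₐ[↥(beta0Field A)] ↥E, g e = e) :
    (e : NfQb) ∈ beta0Field A := by
  rw [mem_beta0Field]
  intro σ hσ
  have := he (tres5ffRes h σ (hE σ hσ) (fun x hx => mem_beta0Field.mp hx σ hσ))
  exact congrArg Subtype.val this

/-- **Stability**: if `F′ = tres5cField N y` is stable under `I` (coefficientwise), then `L_E` is
stable under every automorphism of `E` fixing `K` pointwise. -/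
theorem tres5ff_stab (hq : q.Prime) (hA : A.LiesOverPrime q) (h : beta0Field A ≤ E)
    (N : ℕ) (y : LaurentSeries NfQb)
    (hstabI : ∀ σ ∈ A.inertiaSubgroupIn ℚ, ∀ x ∈ tres5cField N y,
      coeffMap ((σ : NfQb ≃ₐ[ℚ] NfQb) : NfQb →+* NfQb) x ∈ tres5cField N y)
    (g : ↥E ≃+* ↥E)
    (hg : ∀ k : ↥(beta0Field A),
      g (IntermediateField.inclusion h k) = IntermediateField.inclusion h k)
    (f : LaurentSeries ↥E) (hf : coeffMap (algebraMap ↥E NfQb) f ∈ tres5cField N y) :
    coeffMap (algebraMap ↥E NfQb) (coeffMap (g : ↥E →+* ↥E) f) ∈ tres5cField N y := by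
  obtain ⟨σ, hσ, hσg⟩ := tres5ff_lift hq hA h g hg
  have h1 : coeffMap (algebraMap ↥E NfQb) (coeffMap (g : ↥E →+* ↥E) f) =
      coeffMap ((σ : NfQb ≃ₐ[ℚ] NfQb) : NfQb →+* NfQb) (coeffMap (algebraMap ↥E NfQb) f) := by
    ext n
    rw [coeffMap_coeff, coeffMap_coeff, coeffMap_coeff, coeffMap_coeff]
    exact (hσg _).symm
  rw [h1]
  exact hstabI σ hσ _ hf

/-- **Stability, in the shape `hstab` of helper64's `tres5caAct`.** -/
theorem tres5ff_hstab (hq : q.Prime) (hA : A.LiesOverPrime q) (h : beta0Field A ≤ E)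
    (N : ℕ) (y : LaurentSeries NfQb)
    (hstabI : ∀ σ ∈ A.inertiaSubgroupIn ℚ, ∀ x ∈ tres5cField N y,
      coeffMap ((σ : NfQb ≃ₐ[ℚ] NfQb) : NfQb →+* NfQb) x ∈ tres5cField N y) :
    letI := beta0FieldAlgebra h
    ∀ (g : ↥E ≃ₐ[↥(beta0Field A)] ↥E) (f : LaurentSeries ↥E),
      coeffMap (algebraMap ↥E NfQb) f ∈ (tres5cField N y).toSubfield →
      coeffMap (algebraMap ↥E NfQb)
        (coeffMap ((g : ↥E ≃ₐ[↥(beta0Field A)] ↥E) : ↥E →+* ↥E) f) ∈
          (tres5cField N y).toSubfield := by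
  letI := beta0FieldAlgebra h
  intro g f hf
  exact tres5ff_stab hq hA h N y hstabI (g : ↥E ≃+* ↥E) (fun k => g.commutes k) f hf

/-- **Commutation**: a ring homomorphism `t` on `F′` commuting with `I` (helper30's
`tresdesc_comm`), read on the `E`-forms: if `ρx`, `ρx'` are the `E`-forms of `t x`, `t x'` and
`x' = g x`, then `ρx' = g ρx`. -/
theorem tres5ff_comm (hq : q.Prime) (hA : A.LiesOverPrime q) (h : beta0Field A ≤ E)
    (N : ℕ) (y : LaurentSeries NfQb)
    (t : ↥(tres5cField N y) →+* LaurentSeries NfQb)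
    (hcomm : ∀ σ ∈ A.inertiaSubgroupIn ℚ, ∀ (x : ↥(tres5cField N y))
      (hx : coeffMap ((σ : NfQb ≃ₐ[ℚ] NfQb) : NfQb →+* NfQb) (x : LaurentSeries NfQb) ∈
        tres5cField N y),
      t ⟨_, hx⟩ = coeffMap ((σ : NfQb ≃ₐ[ℚ] NfQb) : NfQb →+* NfQb) (t x))
    (g : ↥E ≃+* ↥E)
    (hg : ∀ k : ↥(beta0Field A),
      g (IntermediateField.inclusion h k) = IntermediateField.inclusion h k)
    (x x' : ↥(tres5cL E N y))
    (hx' : (x' : LaurentSeries ↥E) = coeffMap (g : ↥E →+* ↥E) (x : LaurentSeries ↥E))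
    (ρx ρx' : LaurentSeries ↥E)
    (hρx : coeffMap (algebraMap ↥E NfQb) ρx = t (tres5cEmb E N y x))
    (hρx' : coeffMap (algebraMap ↥E NfQb) ρx' = t (tres5cEmb E N y x')) :
    ρx' = coeffMap (g : ↥E →+* ↥E) ρx := by
  obtain ⟨σ, hσ, hσg⟩ := tres5ff_lift hq hA h g hg
  have hsw : ∀ f : LaurentSeries ↥E,
      coeffMap (algebraMap ↥E NfQb) (coeffMap (g : ↥E →+* ↥E) f) =
        coeffMap ((σ : NfQb ≃ₐ[ℚ] NfQb) : NfQb →+* NfQb) (coeffMap (algebraMap ↥E NfQb) f) := by
    intro f
    ext n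
    rw [coeffMap_coeff, coeffMap_coeff, coeffMap_coeff, coeffMap_coeff]
    exact (hσg _).symm
  have hinj : Function.Injective (coeffMap (algebraMap ↥E NfQb)) :=
    (coeffMap (algebraMap ↥E NfQb)).injective
  apply hinj
  rw [hρx', hsw, hρx]
  have hmem : coeffMap ((σ : NfQb ≃ₐ[ℚ] NfQb) : NfQb →+* NfQb)
      ((tres5cEmb E N y x : ↥(tres5cField N y)) : LaurentSeries NfQb) ∈ tres5cField N y := by
    rw [tres5cEmb_coe, ← hsw, ← hx']
    exact x'.2
  rw [← hcomm σ hσ (tres5cEmb E N y x) hmem]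
  congr 1
  apply Subtype.ext
  rw [tres5cEmb_coe, hx', hsw]
  rfl

/-- `tres5ff_lift` for `g ∈ Gal(E / K)`. -/
theorem tres5ff_lift' (hq : q.Prime) (hA : A.LiesOverPrime q) (h : beta0Field A ≤ E) :
    letI := beta0FieldAlgebra h
    ∀ g : ↥E ≃ₐ[↥(beta0Field A)] ↥E,
      ∃ σ : NfQb ≃ₐ[ℚ] NfQb, σ ∈ A.inertiaSubgroupIn ℚ ∧
        ∀ e : ↥E, σ (e : NfQb) = ((g e : ↥E) : NfQb) := by
  letI := beta0FieldAlgebra h
  intro g
  exact tres5ff_lift hq hA h (g : ↥E ≃+* ↥E) (fun k => g.commutes k)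

/-- **(hform)** in the shape of helper64's `tres5ca_fixed_base`. -/
theorem tres5ff_hform' {K : IntermediateField ℚ NfQb} (h : K ≤ E) (N : ℕ) [NeZero N] :
    letI := beta0FieldAlgebra h
    ∀ f : LaurentSeries ↥K,
      coeffMap (algebraMap ↥K ↥E) f ∈ modularFunctionFieldFullC ↥E N →
        f ∈ modularFunctionFieldFullC ↥K N := by
  letI := beta0FieldAlgebra h
  intro f hf
  exact tres5ff_hform h N f hf

/-- **`E / K` is Galois** (`K = ℚ̄^I`, `E ⊇ K` finite over `K` and `I`-stable). -/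
theorem tres5ff_isGalois (h : beta0Field A ≤ E)
    (hE : ∀ σ ∈ A.inertiaSubgroupIn ℚ, ∀ x ∈ E, σ x ∈ E)
    (hfin : letI := beta0FieldAlgebra h
      FiniteDimensional ↥(beta0Field A) ↥E) :
    letI := beta0FieldAlgebra h
    IsGalois ↥(beta0Field A) ↥E := by
  letI := beta0FieldAlgebra h
  haveI := hfin
  refine IsGalois.of_fixedField_eq_bot _ _ ?_
  rw [eq_bot_iff]
  intro e he
  rw [IntermediateField.mem_bot]
  have hK : (e : NfQb) ∈ beta0Field A := by
    refine tres5ff_fixed h hE e fun g => ?_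
    exact he ⟨g, Subgroup.mem_top g⟩
  exact ⟨⟨(e : NfQb), hK⟩, Subtype.ext rfl⟩

end Inertia

/-! ### The big field `E′ = mgcE A K₁ = ℚ̄^I · K₁` -/

section Big

variable {A : ValuationSubring NfQb} {q : ℕ}
  (K₁ : IntermediateField ℚ NfQb) [NumberField K₁] [IsGalois ℚ K₁]

theorem tres5ff_mgcE_stable : ∀ σ ∈ A.inertiaSubgroupIn ℚ, ∀ x ∈ mgcE A K₁, σ x ∈ mgcE A K₁ :=
  fun _ hσ => mga_stable_beta0_sup hσ K₁

/-- `E′ / K` is finite. -/
theorem tres5ff_mgcE_finite (hq : q.Prime) (hA : A.LiesOverPrime q) :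
    letI := beta0FieldAlgebra (le_sup_left : beta0Field A ≤ mgcE A K₁)
    FiniteDimensional ↥(beta0Field A) ↥(mgcE A K₁) := by
  letI := beta0InstAlgebra A K₁
  letI := beta0InstFieldAlgebra A K₁
  obtain ⟨π', -, -, -, -, -, -, -, -, htop, halg⟩ := beta0Inst_main (A := A) K₁ hq hA
  have hint : IsIntegral ↥(beta0Field A) (π' : ↥(beta0Field A ⊔ K₁)) := halg.isIntegral
  have hfin : Module.Finite ↥(beta0Field A)
      ↥(Algebra.adjoin ↥(beta0Field A) ({(π' : ↥(beta0Field A ⊔ K₁))} :
        Set ↥(beta0Field A ⊔ K₁))) :=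
    Algebra.finite_adjoin_simple_of_isIntegral hint
  rw [htop] at hfin
  exact Module.Finite.equiv (Subalgebra.topEquiv (R := ↥(beta0Field A))
    (A := ↥(beta0Field A ⊔ K₁))).toLinearEquiv

/-- `E′ / K` is Galois. -/
theorem tres5ff_mgcE_isGalois (hq : q.Prime) (hA : A.LiesOverPrime q) :
    letI := beta0FieldAlgebra (le_sup_left : beta0Field A ≤ mgcE A K₁)
    IsGalois ↥(beta0Field A) ↥(mgcE A K₁) :=
  tres5ff_isGalois (le_sup_left : beta0Field A ≤ mgcE A K₁) (tres5ff_mgcE_stable K₁)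
    (tres5ff_mgcE_finite K₁ hq hA)

end Big

end Fermat.Agent.R38

end
end ZBR38_017_6

/-! ### bundled: `Fermat.Agent.R38.TresCoverAct` -/
section ZBR38_017_7
/-
ROW 38, TRES, piece ASM-COV (helper64, paired with helper78), part ACT: THE COEFFICIENTWISE
GALOIS ACTION ON THE `E`-FORM OF THE COVER (abstract part; Mathlib + `coeffMap` + `tres5cForm`).

`K ⊆ E` fields, `G = E ≃ₐ[K] E`, `ι : E →+* Ω`, `Fb′` a subfield of `Ω((q))`,
`L_E = tres5cForm ι F₁ Fb′ hF₁` (the `E`-form of `Fb′`), `L_K = tres5cForm (ι ∘ κ) F₀ Fb′ hF₀`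
(the `K`-form, `κ = algebraMap K E`).

* `tres5caLaurent` : the coefficientwise action of `G` on `E((q))` (`g • f = coeffMap g f`);
* `tres5caAct hstab` : the induced action on `L_E`, if `Fb′` is stable (`hstab`);
  `tres5ca_smul_coe`;
* `tres5ca_smul_incl` (= `hGLK`) : `G` fixes the image of `L_K`;
* `tres5ca_fixed` (= `hfixL`) : `E / K` finite Galois: an element of `L_E` fixed by `G` comes from
  `L_K`;
* `tres5ca_fixed_base` (= `hfixF`) : the same for the base field `F₁`, if the `K`-form of `F₁`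
  is `F₀`;
* `tres5ca_coeff_mem` : a Laurent series fixed by `G` has its coefficients in `K`.
-/

set_option autoImplicit false
set_option linter.style.haveILetI false
set_option linter.unusedSectionVars false

noncomputable section

namespace Fermat.Agent.R38

open ModularCurve

section Laurent

variable {K E : Type*} [Field K] [Field E] [Algebra K E]

/-- The coefficientwise action of `Aut(E / K)` on `E((q))`. -/
@[reducible] def tres5caLaurent : MulSemiringAction (E ≃ₐ[K] E) (LaurentSeries E) where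
  smul g f := coeffMap ((g : E ≃ₐ[K] E) : E →+* E) f
  one_smul f := by
    show coeffMap _ f = f
    ext n
    simp
  mul_smul g h f := by
    show coeffMap _ f = coeffMap _ (coeffMap _ f)
    ext n
    simp
  smul_zero g := map_zero (coeffMap ((g : E ≃ₐ[K] E) : E →+* E))
  smul_add g a b := map_add (coeffMap ((g : E ≃ₐ[K] E) : E →+* E)) a b
  smul_one g := map_one (coeffMap ((g : E ≃ₐ[K] E) : E →+* E))
  smul_mul g a b := map_mul (coeffMap ((g : E ≃ₐ[K] E) : E →+* E)) a b

/-- a Laurent series fixed by `Aut(E / K)` coefficientwise has its coefficients in `K`, if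
`E / K` is finite Galois -/
theorem tres5ca_coeff_mem [FiniteDimensional K E] [IsGalois K E] (f : LaurentSeries E)
    (hf : ∀ g : E ≃ₐ[K] E, coeffMap ((g : E ≃ₐ[K] E) : E →+* E) f = f) (n : ℤ) :
    ∃ c : K, algebraMap K E c = f.coeff n := by
  have h : f.coeff n ∈ (⊥ : IntermediateField K E) := by
    rw [IsGalois.mem_bot_iff_fixed]
    intro g
    have := congrArg (fun x : LaurentSeries E => x.coeff n) (hf g)
    simpa using this
  exact IntermediateField.mem_bot.1 h

/-- the image of `K((q))` is fixed by `Aut(E / K)` -/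
theorem tres5ca_coeffMap_fixed (g : E ≃ₐ[K] E) (f : LaurentSeries K) :
    coeffMap ((g : E ≃ₐ[K] E) : E →+* E) (coeffMap (algebraMap K E) f) =
      coeffMap (algebraMap K E) f := by
  ext n
  simp

end Laurent

section Form

variable {K E Ω : Type*} [Field K] [Field E] [Field Ω] [Algebra K E] {ι : E →+* Ω}
  {F₁ : IntermediateField E (LaurentSeries E)} {Fb' : Subfield (LaurentSeries Ω)}
  {hF₁ : ∀ x ∈ F₁, coeffMap ι x ∈ Fb'}

/-- **The action of `Aut(E / K)` on the `E`-form `L_E`** of a subfield `Fb′` of `Ω((q))` which is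
stable under the conjugations (`hstab`). -/
@[reducible] def tres5caAct
    (hstab : ∀ (g : E ≃ₐ[K] E) (f : LaurentSeries E), coeffMap ι f ∈ Fb' →
      coeffMap ι (coeffMap ((g : E ≃ₐ[K] E) : E →+* E) f) ∈ Fb') :
    MulSemiringAction (E ≃ₐ[K] E) ↥(tres5cForm ι F₁ Fb' hF₁) where
  smul g f := ⟨coeffMap ((g : E ≃ₐ[K] E) : E →+* E) (f : LaurentSeries E), hstab g _ f.2⟩
  one_smul f := Subtype.ext (by
    show coeffMap _ (f : LaurentSeries E) = (f : LaurentSeries E)
    ext n
    simp)
  mul_smul g h f := Subtype.ext (by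
    show coeffMap _ (f : LaurentSeries E) = coeffMap _ (coeffMap _ (f : LaurentSeries E))
    ext n
    simp)
  smul_zero g := Subtype.ext (map_zero (coeffMap ((g : E ≃ₐ[K] E) : E →+* E)))
  smul_add g a b := Subtype.ext (map_add (coeffMap ((g : E ≃ₐ[K] E) : E →+* E)) _ _)
  smul_one g := Subtype.ext (map_one (coeffMap ((g : E ≃ₐ[K] E) : E →+* E)))
  smul_mul g a b := Subtype.ext (map_mul (coeffMap ((g : E ≃ₐ[K] E) : E →+* E)) _ _)

theorem tres5ca_smul_coe
    (hstab : ∀ (g : E ≃ₐ[K] E) (f : LaurentSeries E), coeffMap ι f ∈ Fb' →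
      coeffMap ι (coeffMap ((g : E ≃ₐ[K] E) : E →+* E) f) ∈ Fb')
    (g : E ≃ₐ[K] E) (f : ↥(tres5cForm ι F₁ Fb' hF₁)) :
    letI := tres5caAct (hF₁ := hF₁) hstab
    ((g • f : ↥(tres5cForm ι F₁ Fb' hF₁)) : LaurentSeries E) =
      coeffMap ((g : E ≃ₐ[K] E) : E →+* E) (f : LaurentSeries E) := rfl

variable {F₀ : IntermediateField K (LaurentSeries K)}
  {hF₀ : ∀ x ∈ F₀, coeffMap (ι.comp (algebraMap K E)) x ∈ Fb'}

/-- **(hGLK)** `Aut(E / K)` fixes the image of the `K`-form. -/
theorem tres5ca_smul_incl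
    (hstab : ∀ (g : E ≃ₐ[K] E) (f : LaurentSeries E), coeffMap ι f ∈ Fb' →
      coeffMap ι (coeffMap ((g : E ≃ₐ[K] E) : E →+* E) f) ∈ Fb')
    (g : E ≃ₐ[K] E) (y : ↥(tres5cForm (ι.comp (algebraMap K E)) F₀ Fb' hF₀)) :
    letI := tres5caAct (hF₁ := hF₁) hstab
    g • tres5cFormIncl (algebraMap K E) ι hF₀ hF₁ y = tres5cFormIncl (algebraMap K E) ι hF₀ hF₁ y :=
  Subtype.ext (tres5ca_coeffMap_fixed g _)

/-- **(hfixL)** `E / K` finite Galois: an element of the `E`-form fixed by `Aut(E / K)` comes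
from the `K`-form. -/
theorem tres5ca_fixed [FiniteDimensional K E] [IsGalois K E]
    (hstab : ∀ (g : E ≃ₐ[K] E) (f : LaurentSeries E), coeffMap ι f ∈ Fb' →
      coeffMap ι (coeffMap ((g : E ≃ₐ[K] E) : E →+* E) f) ∈ Fb')
    (x : ↥(tres5cForm ι F₁ Fb' hF₁))
    (hx : letI := tres5caAct (hF₁ := hF₁) hstab; ∀ g : E ≃ₐ[K] E, g • x = x) :
    ∃ y : ↥(tres5cForm (ι.comp (algebraMap K E)) F₀ Fb' hF₀),
      tres5cFormIncl (algebraMap K E) ι hF₀ hF₁ y = x := by
  have hfix : ∀ g : E ≃ₐ[K] E,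
      coeffMap ((g : E ≃ₐ[K] E) : E →+* E) (x : LaurentSeries E) = x := fun g =>
    congrArg Subtype.val (hx g)
  obtain ⟨y, hy⟩ := tres5cForm_exists_of_coeff (ι := ι.comp (algebraMap K E)) (F₀ := F₀)
    (hF := hF₀) (f := coeffMap ι (x : LaurentSeries E)) x.2 (fun n => by
      obtain ⟨c, hc⟩ := tres5ca_coeff_mem (x : LaurentSeries E) hfix n
      exact ⟨c, by rw [RingHom.comp_apply, hc, coeffMap_coeff]⟩)
  refine ⟨y, Subtype.ext ?_⟩
  rw [tres5cFormIncl_coe]
  have hinj : Function.Injective (coeffMap ι) := (coeffMap ι).injective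
  apply hinj
  rw [coeffMap_coeffMap]
  exact hy

/-- **(hfixF)** the same for the base field `F₁`, if the `K`-form of `F₁` is `F₀`. -/
theorem tres5ca_fixed_base [FiniteDimensional K E] [IsGalois K E]
    (hform : ∀ f : LaurentSeries K, coeffMap (algebraMap K E) f ∈ F₁ → f ∈ F₀)
    (x : ↥F₁)
    (hx : ∀ g : E ≃ₐ[K] E, coeffMap ((g : E ≃ₐ[K] E) : E →+* E) (x : LaurentSeries E) = x) :
    ∃ y : ↥F₀, coeffMap (algebraMap K E) (y : LaurentSeries K) = x := by
  classical
  have hc := tres5ca_coeff_mem (x : LaurentSeries E) hx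
  choose c hc using hc
  have hsupp : (Function.support c).IsPWO := by
    refine (x : LaurentSeries E).isPWO_support.mono fun n hn => ?_
    rw [Function.mem_support] at hn
    rw [HahnSeries.mem_support]
    intro h0
    apply hn
    apply (algebraMap K E).injective
    rw [hc n, map_zero]
    exact h0
  let g : LaurentSeries K := ⟨c, hsupp⟩
  have hg : coeffMap (algebraMap K E) g = x := by
    ext n
    rw [coeffMap_coeff]
    exact hc n
  exact ⟨⟨g, hform g (by rw [hg]; exact x.2)⟩, hg⟩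

end Form

end Fermat.Agent.R38

end


end ZBR38_017_7

/-! ### bundled: `Fermat.Agent.R38.TresCoverDesc` -/
section ZBR38_017_8
/-
ROW 38, TRES, piece ASM-COV / FAC-HOR (helper64): hgen — THE COVER IS GENERATED OVER `ℚ̄` BY ITS
`K₀`-RATIONAL ELEMENTS (Galois descent by traces; no K-FORM input).

* `tres5cdTr`, `tres5cd_sum_embeddings`, `tres5cd_descent` : abstract descent by traces
  (`E / K` finite separable, `Kb` algebraically closed: every conjugate of `f ∈ E((q))` is a
  `Kb`-linear combination of `K`-rational elements of any subring containing the constants and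
  all the conjugates of `f`);
* `tres5cd_bar_mem` : `F_N(ℚ̄)` lies in the field generated by the `K₀`-rational elements;
* `tres5cd_hgen_of_form` : hgen from a finite extension `E / K₀` carrying the coefficients of `y`
  and the stability of the cover under the embeddings `E → ℚ̄` over `K₀`;
* `tres5cd_exists_sigma` : every embedding `E → ℚ̄` over `K₀` extends to `σ ∈ G_ℚ` fixing `K₀`;
* `tres5cd_hgen` : hgen from: `y` has coefficients in a number field, and `σ y ∈ F′` for all
  `σ ∈ G_ℚ` fixing `K₀`;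
* `tres5cd_hgen_fixed` : the same for `K₀ = ℚ̄^G`, `G` a closed subgroup of `G_ℚ` (e.g. the
  inertia group, `K₀ = beta0Field A`), with `σ y ∈ F′` for `σ ∈ G` only.

The conclusion has the shape asked for by helper61 (R38/TresHorForm.lean):
`∀ f ∈ tres5cField N y, f ∈ IntermediateField.adjoin ℚ̄ {x | x ∈ tres5cField N y ∧
   ∃ g : LaurentSeries ↥K₀, coeffMap (algebraMap ↥K₀ ℚ̄) g = x}`.
-/

set_option autoImplicit false
set_option linter.style.haveILetI false

namespace Fermat.Agent.R38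

open ModularCurve Matrix Fermat.Agent.INJ

section TraceDescent

variable {K E Kb : Type*} [Field K] [Field E] [Field Kb] [Algebra K E] [Algebra K Kb]
  [FiniteDimensional K E] [Algebra.IsSeparable K E] [IsAlgClosed Kb]

/-- the coefficientwise trace `E((q)) → K((q))` -/
noncomputable def tres5cdTr (f : LaurentSeries E) : LaurentSeries K :=
  f.map (Algebra.trace K E)

omit [FiniteDimensional K E] [Algebra.IsSeparable K E] in
@[simp]
theorem tres5cd_tr_coeff (f : LaurentSeries E) (n : ℤ) :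
    (tres5cdTr (K := K) f).coeff n = Algebra.trace K E (f.coeff n) := rfl

/-- the coefficientwise trace is the sum of the conjugates -/
theorem tres5cd_sum_embeddings (f : LaurentSeries E) :
    coeffMap (algebraMap K Kb) (tres5cdTr (K := K) f) =
      ∑ γ : E →ₐ[K] Kb, coeffMap (γ : E →+* Kb) f := by
  ext n
  rw [coeffMap_coeff, tres5cd_tr_coeff, HahnSeries.coeff_sum, trace_eq_sum_embeddings Kb]
  rfl

/-- **Galois descent by traces.**  `f ∈ E((q))`, `E / K` finite separable, `K̄` algebraically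
closed; `Lc` a subring of `K̄((q))` containing the constants and all the conjugates `γ f`,
`γ : E →ₐ[K] K̄`.  Then every conjugate of `f` is a `K̄`-linear combination of elements of
`Lc` with coefficients in `K`. -/
theorem tres5cd_descent (Lc : Subring (LaurentSeries Kb))
    (hC : ∀ c : Kb, (HahnSeries.C c : LaurentSeries Kb) ∈ Lc) (f : LaurentSeries E)
    (hγ : ∀ γ : E →ₐ[K] Kb, coeffMap (γ : E →+* Kb) f ∈ Lc) (γ₀ : E →ₐ[K] Kb) :
    ∃ (n : ℕ) (c : Fin n → Kb) (t : Fin n → LaurentSeries K),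
      (∀ i, coeffMap (algebraMap K Kb) (t i) ∈ Lc) ∧
      coeffMap (γ₀ : E →+* Kb) f =
        ∑ i, (HahnSeries.C (c i) : LaurentSeries Kb) * coeffMap (algebraMap K Kb) (t i) := by
  classical
  let pb : PowerBasis K E := Field.powerBasisOfFiniteOfSeparable K E
  have hcard : Fintype.card (Fin pb.dim) = Fintype.card (E →ₐ[K] Kb) := by
    rw [AlgHom.card, pb.finrank, Fintype.card_fin]
  let e : Fin pb.dim ≃ (E →ₐ[K] Kb) := Fintype.equivOfCardEq hcard
  set N : Matrix (Fin pb.dim) (Fin pb.dim) Kb :=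
    Algebra.embeddingsMatrixReindex K Kb pb.basis e with hN
  have hNapp : ∀ i k, N i k = e k (pb.basis i) := by
    intro i k
    simp [hN, Algebra.embeddingsMatrixReindex, Algebra.embeddingsMatrix]
  have hdet : N.det ≠ 0 := by
    have h1 := Algebra.traceMatrix_eq_embeddingsMatrixReindex_mul_trans K Kb pb.basis e
    have h2 := congrArg Matrix.det h1
    rw [det_mul, det_transpose] at h2
    intro h0
    rw [← hN, h0, mul_zero] at h2
    have h3 : (algebraMap K Kb) (Algebra.traceMatrix K pb.basis).det = 0 := by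
      rw [RingHom.map_det]
      exact h2
    exact det_traceMatrix_ne_zero' pb ((map_eq_zero _).1 h3)
  have hunit : IsUnit N.det := isUnit_iff_ne_zero.2 hdet
  -- the traces
  let t : Fin pb.dim → LaurentSeries K := fun i =>
    tres5cdTr (K := K) ((HahnSeries.C (pb.basis i) : LaurentSeries E) * f)
  have ht : ∀ i, coeffMap (algebraMap K Kb) (t i) =
      ∑ k, (HahnSeries.C (N i k) : LaurentSeries Kb) * coeffMap ((e k : E →ₐ[K] Kb) : E →+* Kb) f := by
    intro i
    rw [tres5cd_sum_embeddings (Kb := Kb), ← Equiv.sum_comp e]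
    refine Finset.sum_congr rfl fun k _ => ?_
    rw [map_mul, hNapp]
    congr 1
    ext m
    simp
  refine ⟨pb.dim, fun i => N⁻¹ (e.symm γ₀) i, t, fun i => ?_, ?_⟩
  · rw [ht i]
    exact Subring.sum_mem _ fun k _ => Subring.mul_mem _ (hC _) (hγ _)
  · have hinv : N⁻¹ * N = 1 := Matrix.nonsing_inv_mul N hunit
    calc coeffMap (γ₀ : E →+* Kb) f
        = ∑ k, (HahnSeries.C ((1 : Matrix (Fin pb.dim) (Fin pb.dim) Kb) (e.symm γ₀) k) :
            LaurentSeries Kb) * coeffMap ((e k : E →ₐ[K] Kb) : E →+* Kb) f := by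
          rw [Finset.sum_eq_single (e.symm γ₀)]
          · rw [Matrix.one_apply_eq, map_one, one_mul, Equiv.apply_symm_apply]
          · intro k _ hk
            rw [Matrix.one_apply_ne' hk, map_zero, zero_mul]
          · intro h
            exact absurd (Finset.mem_univ _) h
      _ = ∑ k, (∑ i, (HahnSeries.C (N⁻¹ (e.symm γ₀) i * N i k) : LaurentSeries Kb)) *
            coeffMap ((e k : E →ₐ[K] Kb) : E →+* Kb) f := by
          refine Finset.sum_congr rfl fun k _ => ?_
          rw [← hinv, Matrix.mul_apply, map_sum]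
      _ = ∑ i, (HahnSeries.C (N⁻¹ (e.symm γ₀) i) : LaurentSeries Kb) *
            coeffMap (algebraMap K Kb) (t i) := by
          simp_rw [ht, Finset.mul_sum, Finset.sum_mul, map_mul]
          rw [Finset.sum_comm]
          refine Finset.sum_congr rfl fun i _ => Finset.sum_congr rfl fun k _ => ?_
          ring

end TraceDescent

section Hgen

variable (K₀ : IntermediateField ℚ NfQb) (N : ℕ) (y : LaurentSeries NfQb)

/-- `F_N(ℚ̄)` lies in the field generated by the `K₀`-rational elements of the cover -/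
theorem tres5cd_bar_mem {x : LaurentSeries NfQb} (hx : x ∈ modularFunctionFieldBar N) :
    x ∈ IntermediateField.adjoin NfQb
      {x | x ∈ tres5cField N y ∧
        ∃ g : LaurentSeries ↥K₀, coeffMap (algebraMap ↥K₀ NfQb) g = x} := by
  revert x
  show laurentBaseChange NfQb (modularFunctionFieldFull N) ≤ _
  rw [laurentBaseChange, IntermediateField.adjoin_le_iff]
  rintro _ ⟨x, hx, rfl⟩
  refine IntermediateField.subset_adjoin _ _
    ⟨tres5c_bar_le N y (coeffEmb_mem_laurentBaseChange NfQb hx),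
      coeffMap (algebraMap ℚ ↥K₀) x, ?_⟩
  rw [coeffMap_coeffMap]
  rfl

/-- **hgen, form with a finite extension `E / K₀` carrying the coefficients of `y`.** -/
theorem tres5cd_hgen_of_form (E : IntermediateField ↥K₀ NfQb) [FiniteDimensional ↥K₀ ↥E]
    (yE : LaurentSeries ↥E) (hyE : coeffMap (algebraMap ↥E NfQb) yE = y)
    (hstab : ∀ γ : ↥E →ₐ[↥K₀] NfQb, coeffMap (γ : ↥E →+* NfQb) yE ∈ tres5cField N y) :
    ∀ f ∈ tres5cField N y, f ∈ IntermediateField.adjoin NfQb
      {x | x ∈ tres5cField N y ∧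
        ∃ g : LaurentSeries ↥K₀, coeffMap (algebraMap ↥K₀ NfQb) g = x} := by
  set T := IntermediateField.adjoin NfQb
      {x | x ∈ tres5cField N y ∧
        ∃ g : LaurentSeries ↥K₀, coeffMap (algebraMap ↥K₀ NfQb) g = x} with hT
  have hC : ∀ (M : IntermediateField NfQb (LaurentSeries NfQb)) (c : NfQb),
      (HahnSeries.C c : LaurentSeries NfQb) ∈ M := by
    intro M c
    have := M.algebraMap_mem c
    rwa [algebraMap_laurentSeries_eq_single, ← HahnSeries.C_apply] at this
  have hy : y ∈ T := by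
    obtain ⟨n, c, t, ht, he⟩ := tres5cd_descent (K := ↥K₀) (E := ↥E) (Kb := NfQb)
      (tres5cField N y).toSubring (hC _) yE hstab E.val
    have he' : y = ∑ i, (HahnSeries.C (c i) : LaurentSeries NfQb) *
        coeffMap (algebraMap ↥K₀ NfQb) (t i) := by
      rw [← he, ← hyE]
      rfl
    rw [he']
    exact sum_mem fun i _ => mul_mem (hC T (c i))
      (IntermediateField.subset_adjoin _ _ ⟨ht i, t i, rfl⟩)
  have hle : tres5cField N y ≤ T := by
    rw [tres5cField, IntermediateField.adjoin_le_iff]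
    rintro z (hz | hz)
    · exact tres5cd_bar_mem K₀ N y hz
    · rw [Set.mem_singleton_iff] at hz
      rw [hz]
      exact hy
  intro f hf
  exact hle hf


/-- extension of an embedding `E → ℚ̄` over `K₀` to an automorphism of `ℚ̄` fixing `K₀` -/
theorem tres5cd_exists_sigma (E : IntermediateField ↥K₀ NfQb) (γ : ↥E →ₐ[↥K₀] NfQb) :
    ∃ σ : NfQb ≃ₐ[ℚ] NfQb, (∀ x ∈ K₀, σ x = x) ∧ ∀ x : ↥E, σ (x : NfQb) = γ x := by
  haveI : Algebra.IsAlgebraic ℚ NfQb := AlgebraicClosure.isAlgebraic ℚ
  haveI : Algebra.IsAlgebraic ↥K₀ NfQb := Algebra.IsAlgebraic.tower_top (K := ℚ) ↥K₀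
  haveI : IsAlgClosure ↥K₀ NfQb := ⟨inferInstance, inferInstance⟩
  haveI : Normal ↥K₀ NfQb := IsAlgClosure.normal ↥K₀ NfQb
  let τ : NfQb →ₐ[↥K₀] NfQb := γ.liftNormal NfQb
  have hτ : ∀ x : ↥E, τ (x : NfQb) = γ x := fun x => γ.liftNormal_commutes NfQb x
  let σ₀ : NfQb ≃ₐ[↥K₀] NfQb :=
    AlgEquiv.ofBijective τ (Algebra.IsAlgebraic.algHom_bijective τ)
  refine ⟨σ₀.restrictScalars ℚ, ?_, ?_⟩
  · intro x hx
    exact σ₀.commutes ⟨x, hx⟩
  · exact hτ

/-- **hgen, form with `Gal(ℚ̄ / K₀)`**: `y` has coefficients in a number field `E₁`, and the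
conjugates of `y` under the automorphisms of `ℚ̄` fixing `K₀` lie in the cover. -/
theorem tres5cd_hgen (E₁ : IntermediateField ℚ NfQb) [FiniteDimensional ℚ ↥E₁]
    (hcoef : ∀ n : ℤ, y.coeff n ∈ E₁)
    (hstab : ∀ σ : NfQb ≃ₐ[ℚ] NfQb, (∀ x ∈ K₀, σ x = x) →
      coeffMap ((σ : NfQb ≃ₐ[ℚ] NfQb) : NfQb →+* NfQb) y ∈ tres5cField N y) :
    ∀ f ∈ tres5cField N y, f ∈ IntermediateField.adjoin NfQb
      {x | x ∈ tres5cField N y ∧
        ∃ g : LaurentSeries ↥K₀, coeffMap (algebraMap ↥K₀ NfQb) g = x} := by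
  classical
  let E : IntermediateField ↥K₀ NfQb := IntermediateField.adjoin ↥K₀ (E₁ : Set NfQb)
  haveI : FiniteDimensional ↥K₀ ↥E := by
    have h1 : Module.rank ↥K₀ ↥E ≤ Module.rank ℚ ↥E₁ :=
      IntermediateField.adjoin_rank_le_of_isAlgebraic_right ↥K₀ E₁
    exact Module.rank_lt_aleph0_iff.1 (lt_of_le_of_lt h1 (Module.rank_lt_aleph0 ℚ ↥E₁))
  have hc : ∀ n : ℤ, ∃ c : ↥E, algebraMap ↥E NfQb c = y.coeff n := fun n =>
    ⟨⟨y.coeff n, IntermediateField.subset_adjoin _ _ (hcoef n)⟩, rfl⟩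
  choose c hc using hc
  have hsupp : (Function.support c).IsPWO := by
    refine y.isPWO_support.mono fun n hn => ?_
    rw [Function.mem_support] at hn
    rw [HahnSeries.mem_support]
    intro h0
    apply hn
    apply (algebraMap ↥E NfQb).injective
    rw [hc n, map_zero]
    exact h0
  let yE : LaurentSeries ↥E := ⟨c, hsupp⟩
  have hyE : coeffMap (algebraMap ↥E NfQb) yE = y := by
    ext n
    rw [coeffMap_coeff]
    exact hc n
  refine tres5cd_hgen_of_form K₀ N y E yE hyE fun γ => ?_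
  obtain ⟨σ, hσK, hσγ⟩ := tres5cd_exists_sigma K₀ E γ
  have h2 : coeffMap (γ : ↥E →+* NfQb) yE =
      coeffMap ((σ : NfQb ≃ₐ[ℚ] NfQb) : NfQb →+* NfQb) y := by
    rw [← hyE, coeffMap_coeffMap]
    ext n
    rw [coeffMap_coeff, coeffMap_coeff]
    exact (hσγ _).symm
  rw [h2]
  exact hstab σ hσK

/-- **hgen, form with a closed subgroup `G` of `G_ℚ`** and `K₀ = ℚ̄^G`. -/
theorem tres5cd_hgen_fixed (G : Subgroup (NfQb ≃ₐ[ℚ] NfQb))
    (hG : IsClosed (G : Set (NfQb ≃ₐ[ℚ] NfQb)))
    (E₁ : IntermediateField ℚ NfQb) [FiniteDimensional ℚ ↥E₁]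
    (hcoef : ∀ n : ℤ, y.coeff n ∈ E₁)
    (hstab : ∀ σ ∈ G,
      coeffMap ((σ : NfQb ≃ₐ[ℚ] NfQb) : NfQb →+* NfQb) y ∈ tres5cField N y) :
    ∀ f ∈ tres5cField N y, f ∈ IntermediateField.adjoin NfQb
      {x | x ∈ tres5cField N y ∧
        ∃ g : LaurentSeries ↥(IntermediateField.fixedField G),
          coeffMap (algebraMap ↥(IntermediateField.fixedField G) NfQb) g = x} := by
  refine tres5cd_hgen (IntermediateField.fixedField G) N y E₁ hcoef fun σ hσ => hstab σ ?_
  haveI : IsAlgClosure ℚ NfQb := ⟨inferInstance, AlgebraicClosure.isAlgebraic ℚ⟩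
  haveI : IsGalois ℚ NfQb := IsAlgClosure.isGalois ℚ NfQb
  have h1 := InfiniteGalois.fixingSubgroup_fixedField (k := ℚ) (K := NfQb) ⟨G, hG⟩
  have h2 : σ ∈ (IntermediateField.fixedField G).fixingSubgroup := by
    rw [IntermediateField.mem_fixingSubgroup_iff]
    exact hσ
  have h3 : σ ∈ (⟨G, hG⟩ : ClosedSubgroup (NfQb ≃ₐ[ℚ] NfQb)).toSubgroup := by
    rw [← h1]
    exact h2
  exact h3

end Hgen

end Fermat.Agent.R38


end ZBR38_017_8
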