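/- GENERATED FILE (helper35, build-time optimisation, NOTES/ZB.md): verbatim concatenation of the modules
   Fermat.Agent.R38.TresFacTrRed
   Do not edit; do not import together with these modules. -/
import Fermat.Agent.ZB.RIB_002
import Fermat.Agent.ZB.ES_005
import Fermat.Agent.ZB.R38_010

/-! ### bundled: `Fermat.Agent.R38.TresFacTrRed` -/
section ZBR38_029_0
/-
ROW 38, TRES, piece FAC-TR, half T3-RED (helper72; pair of helper90, RULING 13 of helper44):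
THE `K₀`-SIDE REDUCTION FACTS.

Frame of `RIB/MP/RedA.lean`: `N = M₁ q`, `A ⊂ ℚ̄` over `q`, `K₀ ⊂ ℚ̄` with `A ∩ K₀` a discrete
valuation ring with uniformizer `π`, `F₂ = F_N(K₀)`, `V₂ = mgvV hπ ιC hq hqM true` the Gauss
valuation ring of `F₂`, `ρ₂ = ribmpRedF …` its reduction map with values in `F_{M₁}(k)`.

* (R1) `tresftr_const` : a constant `c ∈ K₀` which is a unit of `V₂` reduces to a nonzero
  constant of `k`  (and `tresftr_const_val` : `c` is a unit of `A`);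
* (R2) `tresftr_norm`  : every `u ∈ F₂^×` is a unit of `V₂` after multiplication by a constant
  `c₀ ∈ K₀`  (`c₀` a power of `π` or of `π⁻¹`);
* (R3) `tresftr_red`   : a Gauss reduction `r` (`R38Red`) of `u` is a nonzero constant multiple
  of `ρ₂ (c₀ u)` as soon as `c₀ u` is a unit of `V₂`  (`tresftr_red_F` : the same with `ρ₂`);
* (R4) `tresftr_field` : finitely many elements of `F_N(ℚ̄)` are defined over
  `K₀ = mgcE A K₁ = beta0Field A ⊔ K₁`, `K₁/ℚ` finite Galois, `A ∩ K₀` a discrete valuation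
  ring  (`tresftr_field'` : the bare form `∃ K₀ ≥ beta0Field A`).
-/

set_option autoImplicit false
set_option linter.unusedSectionVars false
set_option linter.unusedVariables false
set_option linter.style.haveILetI false
set_option linter.style.longLine false
set_option synthInstance.maxHeartbeats 400000
set_option maxHeartbeats 1600000

noncomputable section

namespace Fermat.Agent.R38

open ModularCurve AlgebraicCurve Fermat.Agent.ES Fermat.Agent.ES.G2 Fermat.Agent.INJ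
  Fermat.Agent.UNIP Fermat.Agent.STB Fermat.Agent.ES.M Fermat.Agent.DEU Fermat.Agent.S36
  Fermat.Agent.S24 Fermat.Agent.RIB.MP

section Main

variable {M₁ q : ℕ} [NeZero M₁] [NeZero q] [NeZero (M₁ * q)] (hq : q.Prime) (hqM : ¬ q ∣ M₁)
  {A : ValuationSubring Qb} (hA : A.LiesOverPrime q) {K₀ : IntermediateField ℚ Qb}
  [IsDiscreteValuationRing ↥(beta0Ring A K₀)]
  {π : ↥(beta0Ring A K₀)} (hπ : Irreducible π) (ιC : ↥K₀ →+* ℂ)

/-- a constant of `A ∩ K₀` which is a unit of `V_∞` is a unit of `A` -/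
theorem tresftr_const_val_of_mem (d : ↥(beta0Ring A K₀))
    (hd : (mgvV hπ ιC hq hqM true).valuation
      (algebraMap ↥K₀ ↥(modularFunctionFieldFullC ↥K₀ (M₁ * q)) (d : ↥K₀)) = 1) :
    A.valuation (((d : ↥K₀) : Qb)) = 1 := by
  have hle : A.valuation (((d : ↥K₀) : Qb)) ≤ 1 := (A.valuation_le_one_iff _).mpr d.2
  refine le_antisymm hle (not_lt.mp fun hlt => ?_)
  have hn : (((d : ↥K₀) : Qb)) ∈ A.nonunits := A.mem_nonunits_iff.mpr hlt
  have h1 := (mgv_const_mem_nonunits_iff hπ ιC hq hqM true d).mpr hn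
  have h2 : (mgvV hπ ιC hq hqM true).valuation
      (algebraMap ↥K₀ ↥(modularFunctionFieldFullC ↥K₀ (M₁ * q)) (d : ↥K₀)) < 1 :=
    (ValuationSubring.mem_nonunits_iff _).mp h1
  rw [hd] at h2
  exact lt_irrefl _ h2

/-- **(R1), the constant.**  A constant `c ∈ K₀` which is a unit of `V_∞` is a unit of `A`. -/
theorem tresftr_const_val (c : ↥K₀)
    (hc : (mgvV hπ ιC hq hqM true).valuation
      (algebraMap ↥K₀ ↥(modularFunctionFieldFullC ↥K₀ (M₁ * q)) c) = 1) :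
    A.valuation ((c : Qb)) = 1 := by
  rcases (beta0Ring A K₀).mem_or_inv_mem c with h | h
  · exact tresftr_const_val_of_mem hq hqM hπ ιC ⟨c, h⟩ hc
  · have hc' : (mgvV hπ ιC hq hqM true).valuation
        (algebraMap ↥K₀ ↥(modularFunctionFieldFullC ↥K₀ (M₁ * q)) c⁻¹) = 1 := by
      rw [map_inv₀, map_inv₀, hc, inv_one]
    have h1 := tresftr_const_val_of_mem hq hqM hπ ιC ⟨c⁻¹, h⟩ hc'
    have h2 : A.valuation (((c⁻¹ : ↥K₀) : Qb)) = (A.valuation ((c : Qb)))⁻¹ := by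
      rw [← map_inv₀]
      rfl
    have h3 : (A.valuation ((c : Qb)))⁻¹ = 1 := by rw [← h2]; exact h1
    exact inv_eq_one.mp h3

include hA in
/-- **(R1)**: a constant `c ∈ K₀` which is a unit of `V_∞` reduces to a nonzero constant. -/
theorem tresftr_const (hRedF : StmtRedF M₁ A) (c : ↥K₀)
    (hc : (mgvV hπ ιC hq hqM true).valuation
      (algebraMap ↥K₀ ↥(modularFunctionFieldFullC ↥K₀ (M₁ * q)) c) = 1) :
    ∃ a : kA A, a ≠ 0 ∧
      ribmpRedF hq hqM hA hπ ιC hRedF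
        ⟨algebraMap ↥K₀ ↥(modularFunctionFieldFullC ↥K₀ (M₁ * q)) c,
          ((mgvV hπ ιC hq hqM true).valuation_le_one_iff _).mp hc.le⟩ =
        algebraMap (kA A) ↥(modularFunctionFieldFullC (kA A) M₁) a := by
  have hv := tresftr_const_val hq hqM hπ ιC c hc
  have hcA : (c : Qb) ∈ A := (A.valuation_le_one_iff _).mp hv.le
  refine ⟨IsLocalRing.residue A ⟨(c : Qb), hcA⟩, ?_, ?_⟩
  · intro h0
    rw [IsLocalRing.residue_eq_zero_iff, IsLocalRing.mem_maximalIdeal, mem_nonunits_iff] at h0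
    exact h0 ((ValuationSubring.valuation_eq_one_iff A ⟨(c : Qb), hcA⟩).2 hv)
  · apply Subtype.ext
    rw [ribmpRedF_coe]
    exact (ribmpRedK_const hπ (M₁ * q) (⟨c, hcA⟩ : ↥(beta0Ring A K₀))
      (((mgvV hπ ιC hq hqM true).valuation_le_one_iff _).mp hc.le)).trans
        (algebraMap_eq_hahnC _).symm

/-- the `Q`-expansion of a constant -/
theorem tresftr_vtEmb_const (c : ↥K₀) :
    vtEmb ↥K₀ (M₁ * q) (algebraMap ↥K₀ ↥(modularFunctionFieldFullC ↥K₀ (M₁ * q)) c) =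
      HahnSeries.C c :=
  algebraMap_laurentSeries_eq_single ↥K₀ _

/-- **(R2), normalisation.**  Every nonzero `u ∈ F_N(K₀)` becomes a unit of `V_∞` after
multiplication by a constant of `K₀` (a power of `π` or of `π⁻¹`). -/
theorem tresftr_norm (u : ↥(modularFunctionFieldFullC ↥K₀ (M₁ * q))) (hu : u ≠ 0) :
    ∃ c₀ : ↥K₀, (mgvV hπ ιC hq hqM true).valuation
      (algebraMap ↥K₀ ↥(modularFunctionFieldFullC ↥K₀ (M₁ * q)) c₀ * u) = 1 := by
  have hB := vtBase_residue (E := ↥K₀) hπ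
  have hex0 : vtEmb ↥K₀ (M₁ * q) u ≠ 0 := (map_ne_zero _).mpr hu
  have hC : (HahnSeries.C (algebraMap ↥(beta0Ring A K₀) ↥K₀ π) : LaurentSeries ↥K₀) ≠ 0 :=
    hB.Cιπ_ne
  obtain ⟨d, w, hw, h | h⟩ := vt_exists_pow_mul hB hex0 (vt_frac_fullC hB (M₁ * q) u.2)
  · refine ⟨((algebraMap ↥(beta0Ring A K₀) ↥K₀ π) ^ d)⁻¹, ?_⟩
    rw [mgvV_true]
    refine (vtSub_valuation_eq_one_iff hB _ _).mpr ?_
    have e1 : vtEmb ↥K₀ (M₁ * q)
        (algebraMap ↥K₀ ↥(modularFunctionFieldFullC ↥K₀ (M₁ * q))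
          ((algebraMap ↥(beta0Ring A K₀) ↥K₀ π) ^ d)⁻¹ * u) = w := by
      rw [map_mul, tresftr_vtEmb_const, h, map_inv₀, map_pow, ← mul_assoc,
        inv_mul_cancel₀ (pow_ne_zero d hC), one_mul]
    rw [e1]
    exact hw
  · refine ⟨(algebraMap ↥(beta0Ring A K₀) ↥K₀ π) ^ d, ?_⟩
    rw [mgvV_true]
    refine (vtSub_valuation_eq_one_iff hB _ _).mpr ?_
    have e1 : vtEmb ↥K₀ (M₁ * q)
        (algebraMap ↥K₀ ↥(modularFunctionFieldFullC ↥K₀ (M₁ * q))
          ((algebraMap ↥(beta0Ring A K₀) ↥K₀ π) ^ d) * u) = w⁻¹ := by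
      rw [map_mul, tresftr_vtEmb_const, map_pow]
      have hw0 : w ≠ 0 := hw.ne_zero hB.inj
      have h2 : (vtEmb ↥K₀ (M₁ * q) u)⁻¹ * vtEmb ↥K₀ (M₁ * q) u = 1 := inv_mul_cancel₀ hex0
      rw [h] at h2
      exact eq_inv_of_mul_eq_one_left (by linear_combination h2)
    rw [e1]
    exact hw.inv hB.inj

/-- the `q`-expansion over `ℚ̄` of a constant of `K₀` -/
theorem tresftr_nfEmb_const (c : ↥K₀) :
    ((nfEmb K₀ (M₁ * q) (algebraMap ↥K₀ ↥(modularFunctionFieldFullC ↥K₀ (M₁ * q)) c) :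
      FF (M₁ * q)) : LaurentSeries Qb) = HahnSeries.C ((c : Qb)) := by
  rw [nfEmb_algebraMap]
  exact tresgeo_coe_algebraMap _

/-- **(R3), the reduction.**  If `c₀ u` is a unit of `V_∞`, every Gauss reduction `r` of (the
`q`-expansion over `ℚ̄` of) `u` is a nonzero constant multiple of the reduction of `c₀ u`. -/
theorem tresftr_red (u : ↥(modularFunctionFieldFullC ↥K₀ (M₁ * q)))
    {r : LaurentSeries (kA A)} (c₀ : ↥K₀)
    (hr : R38Red A ((nfEmb K₀ (M₁ * q) u : FF (M₁ * q)) : LaurentSeries Qb) r)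
    (hv : (mgvV hπ ιC hq hqM true).valuation
      (algebraMap ↥K₀ ↥(modularFunctionFieldFullC ↥K₀ (M₁ * q)) c₀ * u) = 1) :
    ∃ a₀ : kA A, a₀ ≠ 0 ∧
      r = HahnSeries.C a₀ * ribmpRedK hπ (M₁ * q)
        ⟨algebraMap ↥K₀ ↥(modularFunctionFieldFullC ↥K₀ (M₁ * q)) c₀ * u,
          ((mgvV hπ ιC hq hqM true).valuation_le_one_iff _).mp hv.le⟩ := by
  set x : ↥(vtInf (E := ↥K₀) (vtBase_residue hπ) (M₁ * q)) :=
    ⟨algebraMap ↥K₀ ↥(modularFunctionFieldFullC ↥K₀ (M₁ * q)) c₀ * u,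
      ((mgvV hπ ιC hq hqM true).valuation_le_one_iff _).mp hv.le⟩ with hx
  have hc0 : c₀ ≠ 0 := by
    rintro rfl
    rw [map_zero, zero_mul, map_zero] at hv
    exact zero_ne_one hv
  have hc0' : ((c₀ : Qb)) ≠ 0 := fun h => hc0 (Subtype.ext h)
  have hw0 : ribmpRedK hπ (M₁ * q) x ≠ 0 := ribmpRedK_ne_zero hπ (M₁ * q) x hv
  have h1 : R38Red A ((nfEmb K₀ (M₁ * q)
      (algebraMap ↥K₀ ↥(modularFunctionFieldFullC ↥K₀ (M₁ * q)) c₀ * u) : FF (M₁ * q)) :
        LaurentSeries Qb) (ribmpRedK hπ (M₁ * q) x) :=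
    tresgeo_red_of_gaussRed (ribmpRedK_spec hπ (M₁ * q) x) hw0
  have h2 : R38Red A (HahnSeries.C ((c₀ : Qb)) : LaurentSeries Qb) 1 := R38Red.const hc0'
  have hCc : (HahnSeries.C ((c₀ : Qb)) : LaurentSeries Qb) ≠ 0 := r38red_C_ne_zero hc0'
  have e1 : ((nfEmb K₀ (M₁ * q)
      (algebraMap ↥K₀ ↥(modularFunctionFieldFullC ↥K₀ (M₁ * q)) c₀ * u) : FF (M₁ * q)) :
        LaurentSeries Qb) =
      HahnSeries.C ((c₀ : Qb)) *
        ((nfEmb K₀ (M₁ * q) u : FF (M₁ * q)) : LaurentSeries Qb) := by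
    rw [map_mul, MulMemClass.coe_mul, tresftr_nfEmb_const]
  have h3 : R38Red A ((nfEmb K₀ (M₁ * q) u : FF (M₁ * q)) : LaurentSeries Qb)
      (ribmpRedK hπ (M₁ * q) x) := by
    have h4 := h2.inv.mul h1
    rw [e1, ← mul_assoc, inv_mul_cancel₀ hCc, one_mul, inv_one, one_mul] at h4
    exact h4
  exact h3.unique hr

include hA in
/-- **(R3)** with the reduction map `ρ₂ = ribmpRedF` (values in `F_{M₁}(k)`). -/
theorem tresftr_red_F (hRedF : StmtRedF M₁ A)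
    (u : ↥(modularFunctionFieldFullC ↥K₀ (M₁ * q)))
    {r : LaurentSeries (kA A)} (c₀ : ↥K₀)
    (hr : R38Red A ((nfEmb K₀ (M₁ * q) u : FF (M₁ * q)) : LaurentSeries Qb) r)
    (hv : (mgvV hπ ιC hq hqM true).valuation
      (algebraMap ↥K₀ ↥(modularFunctionFieldFullC ↥K₀ (M₁ * q)) c₀ * u) = 1) :
    ∃ a₀ : kA A, a₀ ≠ 0 ∧
      r = HahnSeries.C a₀ *
        ((ribmpRedF hq hqM hA hπ ιC hRedF
          ⟨algebraMap ↥K₀ ↥(modularFunctionFieldFullC ↥K₀ (M₁ * q)) c₀ * u,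
            ((mgvV hπ ιC hq hqM true).valuation_le_one_iff _).mp hv.le⟩ :
              ↥(modularFunctionFieldFullC (kA A) M₁)) : LaurentSeries (kA A)) := by
  obtain ⟨a₀, ha₀, h⟩ := tresftr_red hq hqM hπ ιC u c₀ hr hv
  exact ⟨a₀, ha₀, h⟩

include hq hqM hA hπ ιC in
/-- in particular every Gauss reduction of an element of `F_N(K₀)` lies in `F_{M₁}(k)` -/
theorem tresftr_red_mem (hRedF : StmtRedF M₁ A)
    (u : ↥(modularFunctionFieldFullC ↥K₀ (M₁ * q)))
    {r : LaurentSeries (kA A)}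
    (hr : R38Red A ((nfEmb K₀ (M₁ * q) u : FF (M₁ * q)) : LaurentSeries Qb) r) :
    r ∈ modularFunctionFieldFullC (kA A) M₁ := by
  have hu : u ≠ 0 := by
    rintro rfl
    exact hr.ne_zero_left (by rw [map_zero]; rfl)
  obtain ⟨c₀, hv⟩ := tresftr_norm hq hqM hπ ιC u hu
  obtain ⟨a₀, -, h⟩ := tresftr_red hq hqM hπ ιC u c₀ hr hv
  rw [h]
  exact mul_mem (hahnC_mem_intermediateField _ _) (ribmpRedK_mem hq hqM hA hπ ιC hRedF _)

end Main

section Field

variable {q : ℕ} {A : ValuationSubring Qb}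

/-- **(R4), the field of definition.**  Finitely many elements of `F_N(ℚ̄)` are defined over
`K₀ = mgcE A K₁ = beta0Field A ⊔ K₁` for a finite Galois extension `K₁/ℚ`; `A ∩ K₀` is a
discrete valuation ring. -/
theorem tresftr_field (hq : q.Prime) (hA : A.LiesOverPrime q) (N : ℕ) (Y : Finset (FF N)) :
    ∃ K₁ : IntermediateField ℚ Qb, FiniteDimensional ℚ K₁ ∧ IsGalois ℚ K₁ ∧
      IsDiscreteValuationRing ↥(beta0Ring A (mgcE A K₁)) ∧
      ∀ y ∈ Y, ∃ g : ↥(modularFunctionFieldFullC ↥(mgcE A K₁) N), nfEmb (mgcE A K₁) N g = y := by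
  classical
  obtain ⟨K₀, hK₀, -, hdesc⟩ := nf_exists_descent_finset (N := N) (∅ : Finset NfQb)
    (Y.image fun y : FF N => (y : LaurentSeries NfQb))
    (fun y hy => by
      obtain ⟨z, -, rfl⟩ := Finset.mem_image.mp hy
      exact z.2)
  haveI := hK₀
  haveI := Fermat.Agent.Common.isAlgClosure_rat_qbar
  set K₁ : IntermediateField ℚ Qb := IntermediateField.normalClosure ℚ K₀ Qb with hK₁
  haveI hfin : FiniteDimensional ℚ K₁ := inferInstance
  haveI hnorm : Normal ℚ K₁ := normalClosure.normal ℚ K₀ Qb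
  haveI hgal : IsGalois ℚ K₁ := IsGalois.mk
  haveI hnf : NumberField K₁ := ⟨⟩
  have hle : K₀ ≤ mgcE A K₁ :=
    le_trans (IntermediateField.le_normalClosure K₀) le_sup_right
  refine ⟨K₁, hfin, hgal, beta0Ring_isDVR_sup K₁ hq hA, fun y hy => ?_⟩
  obtain ⟨y₁, hy₁, hy₁'⟩ := hdesc (mgcE A K₁) hle (y : LaurentSeries NfQb)
    (Finset.mem_image.mpr ⟨y, hy, rfl⟩)
  exact ⟨⟨y₁, hy₁⟩, Subtype.ext hy₁'⟩

/-- **(R4)**, bare form. -/
theorem tresftr_field' (hq : q.Prime) (hA : A.LiesOverPrime q) (N : ℕ) (Y : Finset (FF N)) :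
    ∃ K₀ : IntermediateField ℚ Qb, beta0Field A ≤ K₀ ∧
      IsDiscreteValuationRing ↥(beta0Ring A K₀) ∧
      ∀ y ∈ Y, ∃ g : ↥(modularFunctionFieldFullC ↥K₀ N), nfEmb K₀ N g = y := by
  obtain ⟨K₁, -, -, hdvr, h⟩ := tresftr_field hq hA N Y
  exact ⟨mgcE A K₁, le_sup_left, hdvr, h⟩

end Field

end Fermat.Agent.R38

end
end ZBR38_029_0
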