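/- GENERATED FILE (helper35, build-time optimisation, NOTES/ZB.md): verbatim concatenation of the modules
   Fermat.Agent.R38.TresKForm
   Fermat.Agent.R38.TresKFormGen
   Fermat.Agent.R38.TresKFormKum
   Fermat.Agent.R38.TresCoverTower
   Fermat.Agent.R38.TresFixFInst
   Fermat.Agent.R38.TresBigInstPtInv
   Fermat.Agent.R38.TresKFormPt
   Fermat.Agent.R38.TresKFormInstG
   Fermat.Agent.R38.TresKFormInstG2
   Fermat.Agent.R38.TresFixFInst2
   Fermat.Agent.R38.TresFacTrMain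
   Fermat.Agent.R38.TresMonoWire
   Do not edit; do not import together with these modules. -/
import Mathlib
import Fermat.Agent.ZB.R38_009
import Fermat.Agent.ZB.R38_015
import Fermat.Agent.ZB.R38_017
import Fermat.Agent.ZB.R38_016
import Fermat.Agent.ZB.R38_012
import Fermat.Agent.ZB.UNIP_007
import Fermat.Agent.ZB.UNIP_006
import Fermat.Agent.ZB.S05_001
import Fermat.Agent.ZB.R38_028
import Fermat.Agent.ZB.R38_029
import Fermat.Agent.ZB.RIB_002

/-! ### bundled: `Fermat.Agent.R38.TresKForm` -/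
section ZBR38_018_0

/-!
# Row 38, PKG-TRES, FAC-LOC sub-piece "K-FORM" (helper53): descent of the split generator

The cover `F′ = F(w₀^{1/p})` of `X₀(Mp)` is étale and completely split over the special fibre, but
this is only visible over a big field `E′` (roots of unity, `p`-th roots of constants, rational
supports).  FAC-LOC has to be done over `K = ℚ̄^I`, where the supersingular nodes are thin.  This
file contains the abstract algebra which brings a split generator down to `K`, for an ARBITRARY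
finite group `Γ` (the trace `z ↦ −Tr z` only works for groups of order prime to `p`).

* `tres5k_shift_fix` : a self-map of `ZMod p` commuting with the shift by `s ≠ 0` and having a
  fixed point is the identity.
* `tres5k_fixed_all` (K-d) : if `σ` commutes with the deck transformation `ρ`, permutes the sheets
  `𝔫 i` (`ρ` shifts them by `s`) and fixes ONE sheet, it fixes every sheet.
* `tres5k_crt` (K-a) : `Γ` finite acting on `Λ`, the maximal ideals `𝔫 i` are `Γ`-stable, `R ⊆ Λ^Γ`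
  maps onto every residue field: there is `z ∈ Λ^Γ` with prescribed residues in `R` (norms + CRT).
* `tres5kPoly`, `tres5k_poly_monic`, `tres5k_poly_natDegree`, `tres5k_poly_root`,
  `tres5k_poly_map_deck`, `tres5k_poly_map_comm`, `tres5k_poly_map_residue` (K-b) :
  `P = ∏_{m<p} (X − ρ^m z)` is monic of degree `p`, kills `z`, has coefficients fixed by `ρ` and by
  every automorphism commuting with `ρ` and fixing `z`, and reduces to `X ^ p − X` under a residue
  map `χ` with `χ (ρ^m z) = c + m`, `c ^ p = c`.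
* `tres5k_descent` (K-c) : `1, z, …, z^{p-1}` an `F`-basis of `L`, `σ z = z`, `σ F ⊆ F`: an element
  of `L` fixed by all `σ` has coordinates fixed by all `σ`  (`F′^G = F^G[z]`, `G` arbitrary).
* `tres5k_deck_fixed` : Kummer: `ρ y = ζ y`, `1, y, …, y^{p-1}` an `F`-basis: `ρ x = x → x ∈ F`.
* `tres5k_trace` (K-e) : the trace form, for a group of order `≡ −1 mod p` fixing the sheets.
-/

set_option autoImplicit false

open Polynomial

namespace Fermat.Agent.R38

/-! ### (K-d) the sheets -/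

/-- A self-map of `ZMod p` commuting with the shift by `s ≠ 0` and having a fixed point is the
identity. -/
theorem tres5k_shift_fix {p : ℕ} [hp : Fact p.Prime] (f : ZMod p → ZMod p) (s : ZMod p)
    (hs : s ≠ 0) (hf : ∀ i, f (i + s) = f i + s) (i₀ : ZMod p) (h0 : f i₀ = i₀) :
    ∀ i, f i = i := by
  have h1 : ∀ n : ℕ, f (i₀ + n • s) = i₀ + n • s := by
    intro n
    induction n with
    | zero => simpa using h0
    | succ n ih =>
      rw [succ_nsmul, ← add_assoc, hf, ih]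
  intro i
  -- `i = i₀ + n • s` with `n = ((i - i₀) / s).val`
  have hn : i = i₀ + ((i - i₀) * s⁻¹).val • s := by
    rw [nsmul_eq_mul, ZMod.natCast_zmod_val, inv_mul_cancel_right₀ hs]
    ring
  rw [hn]
  exact h1 _

/-- **(K-d)**  `σ` commutes with the deck transformation `ρ`, permutes the sheets, and fixes one
sheet: then it fixes every sheet.  (`ρ` shifts the sheets by `s ≠ 0`.) -/
theorem tres5k_fixed_all {Λ : Type*} [CommRing Λ] {p : ℕ} [hp : Fact p.Prime]
    (𝔫 : ZMod p → Ideal Λ) (hinj : Function.Injective 𝔫)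
    (ρ σ : Λ ≃+* Λ) (hcomm : ∀ x, σ (ρ x) = ρ (σ x))
    (s : ZMod p) (hs : s ≠ 0)
    (hρ : ∀ i x, x ∈ 𝔫 i ↔ ρ x ∈ 𝔫 (i + s))
    (hσ : ∀ i, ∃ j, ∀ x, x ∈ 𝔫 i ↔ σ x ∈ 𝔫 j)
    (i₀ : ZMod p) (h0 : ∀ x, x ∈ 𝔫 i₀ ↔ σ x ∈ 𝔫 i₀) :
    ∀ i x, x ∈ 𝔫 i ↔ σ x ∈ 𝔫 i := by
  choose f hf using hσ
  -- two sheets with the same preimage under `σ` are equal
  have huniq : ∀ i j k, (∀ x, x ∈ 𝔫 i ↔ σ x ∈ 𝔫 j) → (∀ x, x ∈ 𝔫 i ↔ σ x ∈ 𝔫 k) → j = k := by
    intro i j k h1 h2
    apply hinj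
    ext y
    obtain ⟨x, rfl⟩ := σ.surjective y
    rw [← h1 x, ← h2 x]
  have hshift : ∀ i, f (i + s) = f i + s := by
    intro i
    refine huniq (i + s) _ _ (hf (i + s)) ?_
    intro y
    obtain ⟨x, rfl⟩ := ρ.surjective y
    rw [← hρ i x, hf i x, hρ (f i) (σ x), hcomm]
  have hf0 : f i₀ = i₀ := huniq i₀ _ _ (hf i₀) h0
  have hid := tres5k_shift_fix f s hs hshift i₀ hf0
  intro i x
  have := hf i x
  rwa [hid i] at this

/-! ### (K-a) norms and the Chinese remainder theorem -/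

section CRT

variable {Λ : Type*} [CommRing Λ] {G : Type*} [Group G] [Fintype G] [MulSemiringAction G Λ]

/-- the norm `∏_g g • x` -/
noncomputable def tres5kNorm (G : Type*) [Group G] [Fintype G] {Λ : Type*} [CommRing Λ]
    [MulSemiringAction G Λ] (x : Λ) : Λ :=
  ∏ g : G, g • x

theorem tres5k_norm_smul (h : G) (x : Λ) : h • tres5kNorm G x = tres5kNorm G x := by
  unfold tres5kNorm
  rw [Finset.smul_prod']
  exact Fintype.prod_equiv (Equiv.mulLeft h) _ _ (fun g => by simp [mul_smul])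

theorem tres5k_norm_mem (I : Ideal Λ) {x : Λ} (hx : x ∈ I) : tres5kNorm G x ∈ I := by
  unfold tres5kNorm
  obtain ⟨c, hc⟩ := Finset.dvd_prod_of_mem (fun g : G => g • x) (Finset.mem_univ (1 : G))
  rw [hc, one_smul]
  exact I.mul_mem_right _ hx

theorem tres5k_norm_notMem (I : Ideal Λ) [I.IsPrime] (hI : ∀ (g : G) x, x ∈ I → g • x ∈ I)
    {x : Λ} (hx : x ∉ I) : tres5kNorm G x ∉ I := by
  unfold tres5kNorm
  intro h
  obtain ⟨g, -, hg⟩ := (Ideal.IsPrime.prod_mem_iff).mp h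
  apply hx
  have := hI g⁻¹ _ hg
  rwa [inv_smul_smul] at this

/-- **(K-a)**  A finite group `G` acts on `Λ`; the pairwise distinct maximal ideals `𝔫 i` are
`G`-stable; the subring `R` of invariants maps onto every residue field `Λ / 𝔫 i`.  Then there is
an invariant `z` with prescribed residues `c i ∈ R`. -/
theorem tres5k_crt {ι : Type*} [Fintype ι] [DecidableEq ι] (𝔫 : ι → Ideal Λ)
    (hmax : ∀ i, (𝔫 i).IsMaximal) (hinj : Function.Injective 𝔫)
    (hG : ∀ (g : G) i x, x ∈ 𝔫 i → g • x ∈ 𝔫 i)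
    (R : Subring Λ) (hR : ∀ r ∈ R, ∀ g : G, g • r = r)
    (hres : ∀ i (x : Λ), ∃ r ∈ R, x - r ∈ 𝔫 i)
    (c : ι → Λ) (hc : ∀ i, c i ∈ R) :
    ∃ z : Λ, (∀ g : G, g • z = z) ∧ ∀ i, z - c i ∈ 𝔫 i := by
  classical
  -- separating elements
  have hsep : ∀ i j, j ≠ i → ∃ a, a ∈ 𝔫 j ∧ a ∉ 𝔫 i := by
    intro i j hji
    by_contra hcon
    have hle : 𝔫 j ≤ 𝔫 i := fun a ha => by
      by_contra hai
      exact hcon ⟨a, ha, hai⟩
    exact hji (hinj ((hmax j).eq_of_le (hmax i).ne_top hle))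
  have hx : ∀ i, ∃ x, x ∉ 𝔫 i ∧ ∀ j, j ≠ i → x ∈ 𝔫 j := by
    intro i
    choose a ha using fun (j : {j // j ≠ i}) => hsep i j.1 j.2
    refine ⟨∏ j : {j // j ≠ i}, a j, ?_, ?_⟩
    · intro h
      have hpr := (hmax i).isPrime
      obtain ⟨j, -, hj⟩ := (Ideal.IsPrime.prod_mem_iff).mp h
      exact (ha j).2 hj
    · intro j hj
      obtain ⟨c, hc⟩ := Finset.dvd_prod_of_mem (fun j : {j // j ≠ i} => a j)
        (Finset.mem_univ (⟨j, hj⟩ : {j // j ≠ i}))
      rw [hc]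
      exact (𝔫 j).mul_mem_right _ (ha ⟨j, hj⟩).1
  choose x hx1 hx2 using hx
  -- invariant separating elements, normalised
  have hN : ∀ i, ∃ e, (∀ g : G, g • e = e) ∧ e - 1 ∈ 𝔫 i ∧ ∀ j, j ≠ i → e ∈ 𝔫 j := by
    intro i
    have hpr := (hmax i).isPrime
    have h1 : tres5kNorm G (x i) ∉ 𝔫 i := tres5k_norm_notMem (𝔫 i) (fun g y hy => hG g i y hy)
      (hx1 i)
    obtain ⟨y, t, ht, hyt⟩ := (hmax i).exists_inv h1
    have hy : y * tres5kNorm G (x i) - 1 ∈ 𝔫 i := by
      have e0 : y * tres5kNorm G (x i) - 1 = -t := by rw [← hyt]; ring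
      rw [e0]
      exact (𝔫 i).neg_mem ht
    obtain ⟨r, hr, hyr⟩ := hres i y
    refine ⟨r * tres5kNorm G (x i), ?_, ?_, ?_⟩
    · intro g
      rw [smul_mul', hR r hr g, tres5k_norm_smul]
    · have e : r * tres5kNorm G (x i) - 1 =
          (y * tres5kNorm G (x i) - 1) - (y - r) * tres5kNorm G (x i) := by ring
      rw [e]
      exact (𝔫 i).sub_mem hy ((𝔫 i).mul_mem_right _ hyr)
    · intro j hj
      exact (𝔫 j).mul_mem_left _ (tres5k_norm_mem (𝔫 j) (hx2 i j hj))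
  choose e he1 he2 he3 using hN
  refine ⟨∑ i, c i * e i, ?_, ?_⟩
  · intro g
    rw [Finset.smul_sum]
    refine Finset.sum_congr rfl fun i _ => ?_
    rw [smul_mul', hR (c i) (hc i) g, he1 i g]
  · intro i
    have h1 : (i : ι) ∈ (Finset.univ : Finset ι) := Finset.mem_univ _
    rw [← Finset.add_sum_erase _ _ h1]
    have e1 : c i * e i + ∑ j ∈ Finset.univ.erase i, c j * e j - c i =
        c i * (e i - 1) + ∑ j ∈ Finset.univ.erase i, c j * e j := by ring
    rw [e1]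
    refine (𝔫 i).add_mem ((𝔫 i).mul_mem_left _ (he2 i)) ?_
    refine (𝔫 i).sum_mem fun j hj => ?_
    exact (𝔫 i).mul_mem_left _ (he3 j i (Finset.ne_of_mem_erase hj).symm)

end CRT

/-! ### (K-b) the polynomial of the descended generator -/

section Poly

variable {Λ : Type*} [CommRing Λ] {p : ℕ} [hp : Fact p.Prime]

/-- `∏_{m ∈ ZMod p} (X − ρ^m z)` -/
noncomputable def tres5kPoly (ρ : Λ → Λ) (p : ℕ) [NeZero p] (z : Λ) : Λ[X] :=
  ∏ m : ZMod p, (X - C (ρ^[m.val] z))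

omit [CommRing Λ] hp in
private theorem tres5k_iterate_mod (ρ : Λ → Λ) (z : Λ) (hper : ρ^[p] z = z) (n : ℕ) :
    ρ^[n % p] z = ρ^[n] z := by
  have h1 : ∀ k : ℕ, ρ^[p * k] z = z := by
    intro k
    induction k with
    | zero => simp
    | succ k ih =>
      rw [Nat.mul_succ, Function.iterate_add_apply, hper, ih]
  conv_rhs => rw [← Nat.mod_add_div n p, Function.iterate_add_apply, h1]

private theorem tres5k_val_add_one (m : ZMod p) : (m + 1).val = (m.val + 1) % p := by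
  have : Fact (1 < p) := ⟨hp.out.one_lt⟩
  rw [ZMod.val_add, ZMod.val_one]

theorem tres5k_poly_monic (ρ : Λ → Λ) (z : Λ) : (tres5kPoly ρ p z).Monic :=
  monic_prod_of_monic _ _ fun _ _ => monic_X_sub_C _

theorem tres5k_poly_natDegree [Nontrivial Λ] (ρ : Λ → Λ) (z : Λ) :
    (tres5kPoly ρ p z).natDegree = p := by
  unfold tres5kPoly
  rw [natDegree_prod_of_monic _ _ fun _ _ => monic_X_sub_C _]
  simp

theorem tres5k_poly_root (ρ : Λ → Λ) (z : Λ) : (tres5kPoly ρ p z).eval z = 0 := by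
  unfold tres5kPoly
  rw [eval_prod]
  refine Finset.prod_eq_zero (Finset.mem_univ (0 : ZMod p)) ?_
  simp

/-- the coefficients of `P` are fixed by the deck transformation `ρ` -/
theorem tres5k_poly_map_deck (ρ : Λ →+* Λ) (z : Λ) (hper : (⇑ρ)^[p] z = z) :
    (tres5kPoly ρ p z).map ρ = tres5kPoly ρ p z := by
  unfold tres5kPoly
  rw [Polynomial.map_prod]
  refine Fintype.prod_equiv (Equiv.addRight (1 : ZMod p)) _ _ fun m => ?_
  rw [Polynomial.map_sub, map_X, map_C, Equiv.coe_addRight, tres5k_val_add_one,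
    tres5k_iterate_mod (⇑ρ) z hper, Function.iterate_succ_apply']

/-- the coefficients of `P` are fixed by every endomorphism commuting with `ρ` and fixing `z` -/
theorem tres5k_poly_map_comm (ρ : Λ → Λ) (σ : Λ →+* Λ) (z : Λ) (hσz : σ z = z)
    (hcomm : ∀ x, σ (ρ x) = ρ (σ x)) :
    (tres5kPoly ρ p z).map σ = tres5kPoly ρ p z := by
  unfold tres5kPoly
  rw [Polynomial.map_prod]
  refine Finset.prod_congr rfl fun m _ => ?_
  rw [Polynomial.map_sub, map_X, map_C]
  have h : ∀ n : ℕ, σ (ρ^[n] z) = ρ^[n] z := by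
    intro n
    induction n with
    | zero => simpa using hσz
    | succ n ih => rw [Function.iterate_succ_apply', hcomm, ih]
  rw [h]

/-- `∏_{a ∈ 𝔽_p} (X − a) = X ^ p − X` over a ring of characteristic `p` -/
theorem tres5k_prod_X_sub (k : Type*) [CommRing k] [CharP k p] :
    ∏ m : ZMod p, (X - C ((ZMod.castHom (dvd_refl p) k) m)) = (X ^ p - X : k[X]) := by
  have hq : Fintype.card (ZMod p) = p := ZMod.card p
  have hroots := FiniteField.roots_X_pow_card_sub_X (ZMod p)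
  have hdeg := FiniteField.X_pow_card_sub_X_natDegree_eq (ZMod p) (p := Fintype.card (ZMod p))
    (by rw [hq]; exact hp.out.one_lt)
  have hmonic : (X ^ Fintype.card (ZMod p) - X : (ZMod p)[X]).Monic := by
    apply monic_X_pow_sub
    rw [degree_X, hq]
    exact_mod_cast hp.out.one_lt
  have h := prod_multiset_X_sub_C_of_monic_of_roots_card_eq hmonic
    (by rw [hroots, hdeg]; rfl)
  rw [hroots, hq] at h
  have h1 : ∏ m : ZMod p, (X - C m : (ZMod p)[X]) = X ^ p - X := by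
    rw [← h]
    rfl
  have h2 := congrArg (Polynomial.map (ZMod.castHom (dvd_refl p) k)) h1
  rw [Polynomial.map_prod] at h2
  simpa using h2

/-- **(K-b)**  If the residue map `χ` sends `ρ^m z` to `i + m ∈ 𝔽_p` then `P` reduces to
`X ^ p − X`. -/
theorem tres5k_poly_map_residue {k : Type*} [CommRing k] [CharP k p] (ρ : Λ → Λ) (z : Λ)
    (χ : Λ →+* k) (i : ZMod p)
    (hχ : ∀ m : ZMod p, χ (ρ^[m.val] z) = (ZMod.castHom (dvd_refl p) k) (i + m)) :
    (tres5kPoly ρ p z).map χ = X ^ p - X := by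
  unfold tres5kPoly
  rw [Polynomial.map_prod, ← tres5k_prod_X_sub k]
  refine Fintype.prod_equiv (Equiv.addLeft i) _ _ fun m => ?_
  rw [Polynomial.map_sub, map_X, map_C, hχ, Equiv.coe_addLeft]

end Poly

/-! ### (K-c) descent of the field, and the fixed field of the deck transformation -/

section Descent

variable {L : Type*} [CommRing L]

/-- **(K-c)**  `1, z, …, z^{n-1}` are linearly independent over the subring `F`, the
endomorphisms `σ ∈ S` fix `z` and preserve `F`.  If `x = ∑ c i z ^ i` (`c i ∈ F`) is fixed by all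
`σ ∈ S`, so are its coordinates `c i`.   (`F′^G = F^G[z]`.) -/
theorem tres5k_descent {n : ℕ} (F : Subring L) (z : L)
    (hindep : ∀ c : Fin n → L, (∀ i, c i ∈ F) → ∑ i, c i * z ^ (i : ℕ) = 0 → ∀ i, c i = 0)
    (S : Set (L →+* L)) (hz : ∀ σ ∈ S, σ z = z) (hF : ∀ σ ∈ S, ∀ a ∈ F, σ a ∈ F)
    (c : Fin n → L) (hc : ∀ i, c i ∈ F)
    (hx : ∀ σ ∈ S, σ (∑ i, c i * z ^ (i : ℕ)) = ∑ i, c i * z ^ (i : ℕ)) :
    ∀ σ ∈ S, ∀ i, σ (c i) = c i := by
  intro σ hσ i
  have h1 : ∑ i, (σ (c i) - c i) * z ^ (i : ℕ) = 0 := by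
    have h2 := hx σ hσ
    rw [map_sum] at h2
    simp only [map_mul, map_pow, hz σ hσ] at h2
    simp only [sub_mul, Finset.sum_sub_distrib]
    rw [h2, sub_self]
  have h3 := hindep (fun i => σ (c i) - c i)
    (fun i => F.sub_mem (hF σ hσ _ (hc i)) (hc i)) h1 i
  exact sub_eq_zero.mp h3

/-- **Kummer.**  `ρ` fixes `F`, `ρ y = ζ y` with `ζ ∈ F`, `ζ ^ i ≠ 1` for `0 < i < n`, and
`1, y, …, y^{n-1}` are linearly independent over `F`.  If `x = ∑ c i y ^ i` is fixed by `ρ` then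
`x = c 0 ∈ F`. -/
theorem tres5k_deck_fixed [IsDomain L] {n : ℕ} (hn : 0 < n) (F : Subring L) (y ζ : L)
    (hζF : ζ ∈ F) (hζ : ∀ i : ℕ, 0 < i → i < n → ζ ^ i ≠ 1)
    (hindep : ∀ c : Fin n → L, (∀ i, c i ∈ F) → ∑ i, c i * y ^ (i : ℕ) = 0 → ∀ i, c i = 0)
    (ρ : L →+* L) (hρF : ∀ a ∈ F, ρ a = a) (hρy : ρ y = ζ * y)
    (c : Fin n → L) (hc : ∀ i, c i ∈ F)
    (hx : ρ (∑ i, c i * y ^ (i : ℕ)) = ∑ i, c i * y ^ (i : ℕ)) :
    ∑ i, c i * y ^ (i : ℕ) = c ⟨0, hn⟩ := by
  have h1 : ∑ i, (c i * (ζ ^ (i : ℕ) - 1)) * y ^ (i : ℕ) = 0 := by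
    rw [map_sum] at hx
    simp only [map_mul, map_pow, hρy, hρF _ (hc _), mul_pow] at hx
    have e : ∀ i : Fin n, (c i * (ζ ^ (i : ℕ) - 1)) * y ^ (i : ℕ) =
        c i * (ζ ^ (i : ℕ) * y ^ (i : ℕ)) - c i * y ^ (i : ℕ) := fun i => by ring
    simp only [e, Finset.sum_sub_distrib]
    rw [hx, sub_self]
  have h2 := hindep (fun i => c i * (ζ ^ (i : ℕ) - 1))
    (fun i => F.mul_mem (hc i) (F.sub_mem (F.pow_mem hζF _) F.one_mem)) h1
  have h3 : ∀ i : Fin n, i ≠ ⟨0, hn⟩ → c i = 0 := by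
    intro i hi
    have hi0 : 0 < (i : ℕ) := by
      rcases Nat.eq_zero_or_pos (i : ℕ) with h | h
      · exact absurd (Fin.ext h) hi
      · exact h
    rcases mul_eq_zero.mp (h2 i) with h | h
    · exact h
    · exact absurd (sub_eq_zero.mp h) (hζ i hi0 i.2)
  rw [Finset.sum_eq_single (⟨0, hn⟩ : Fin n)]
  · simp
  · intro i _ hi
    rw [h3 i hi, zero_mul]
  · intro h
    exact absurd (Finset.mem_univ _) h

end Descent

/-! ### (K-e) the trace form -/

/-- **(K-e)**  A finite group `G` of order `≡ −1` modulo the ideals `𝔫 i` moves `z` inside every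
`𝔫 i`-class.  Then `−∑_g g • z` is `G`-invariant and congruent to `z` modulo every `𝔫 i`. -/
theorem tres5k_trace {Λ : Type*} [CommRing Λ] {G : Type*} [Group G] [Fintype G]
    [MulSemiringAction G Λ] {ι : Type*} (𝔫 : ι → Ideal Λ) (z : Λ)
    (hG : ∀ (g : G) i, g • z - z ∈ 𝔫 i)
    (hcard : ∀ i, ((Fintype.card G : ℕ) : Λ) + 1 ∈ 𝔫 i) :
    (∀ h : G, h • (-∑ g : G, g • z) = -∑ g : G, g • z) ∧
      ∀ i, (-∑ g : G, g • z) - z ∈ 𝔫 i := by
  constructor
  · intro h
    rw [smul_neg, Finset.smul_sum]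
    congr 1
    exact Fintype.sum_equiv (Equiv.mulLeft h) _ _ (fun g => by simp [mul_smul])
  · intro i
    have e : (-∑ g : G, g • z) - z =
        -(∑ g : G, (g • z - z)) - (((Fintype.card G : ℕ) : Λ) + 1) * z := by
      rw [Finset.sum_sub_distrib, Finset.sum_const, Finset.card_univ, nsmul_eq_mul]
      ring
    rw [e]
    refine (𝔫 i).sub_mem ((𝔫 i).neg_mem ((𝔫 i).sum_mem fun g _ => hG g i)) ?_
    exact (𝔫 i).mul_mem_right _ (hcard i)

end Fermat.Agent.R38


end ZBR38_018_0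

/-! ### bundled: `Fermat.Agent.R38.TresKFormGen` -/
section ZBR38_018_1
/-
ROW 38, TRES, piece FAC-KFORM (helper53), part 2: DESCENT OF A SPLIT GENERATOR.

`S : Tres5Gen F L V p` is a split monogenic extension over a BIG field (`F = F_{E′}`,
`L = F′_{E′}`), `p` prime.  A finite group `G` acts on `L` (coefficientwise Galois action of
`Gal(E′/K)`), fixes every sheet `S.W k`, commutes with the deck transformation `ρ` which permutes
the sheets cyclically.  Then the extension `LK / FK` of the fields of invariants has a split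
generator over `VK = V ∩ FK`, with roots `0, 1, …, p − 1` modulo `𝔪`:

* `tres5k_deck_galois` : `[L : F] = p` prime, `ρ ≠ 1` in `Aut(L/F)`: `ρ ^ p = 1`, and the elements
  fixed by `ρ` are in `F`.
* `tres5k_sheets_fixed` : `G` permutes the sheets, commutes with `ρ`, fixes ONE sheet: it fixes
  every sheet.
* `tres5k_pou` : partition of unity by NORMS (any finite group, no hypothesis on the residue
  fields): `G`-invariant `e k`, `e k ≡ 1` at `W k`, `e k ≡ 0` at `W j`, `j ≠ k`.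
* `tres5k_finrank_of_gen` : `[LK : FK] = p` from a `G`-invariant element moved by `ρ`.
* `Tres5Gen.descend'` : the descended split generator `T : Tres5Gen FK LK VK p`, `T.c = cK`,
  `T.z ≡ cK k` modulo `𝔪(S.W k)`, `T.W k = S.W k ∩ LK`, `[LK : FK] = p`, `F(T.z) = L`.
  (`Tres5Gen.descend` : the same with the redundant hypothesis `[LK : FK] = p`.)
-/

set_option autoImplicit false

namespace Fermat.Agent.R38

open Polynomial

/-! ### Galois theory of a deck transformation of prime order -/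

section Galois

variable {F L : Type*} [Field F] [Field L] [Algebra F L]

/-- `[L : F] = p` prime and `ρ ≠ 1` an `F`-automorphism of `L`: then `ρ ^ p = 1` and the fixed
field of `ρ` is `F`. -/
theorem tres5k_deck_galois {p : ℕ} (hp : p.Prime) (hfin : Module.finrank F L = p)
    (ρ : L ≃ₐ[F] L) (hρ : ρ ≠ 1) :
    ρ ^ p = 1 ∧ ∀ x : L, ρ x = x → ∃ a : F, algebraMap F L a = x := by
  have : FiniteDimensional F L :=
    Module.finite_of_finrank_pos (by rw [hfin]; exact hp.pos)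
  have h1 : Module.finrank (IntermediateField.fixedField (Subgroup.zpowers ρ)) L =
      Nat.card (Subgroup.zpowers ρ) :=
    IntermediateField.finrank_fixedField_eq_card (Subgroup.zpowers ρ)
  have h2 := Module.finrank_mul_finrank F (IntermediateField.fixedField (Subgroup.zpowers ρ)) L
  rw [hfin, h1, Nat.card_zpowers] at h2
  have hdvd : orderOf ρ ∣ p := Dvd.intro_left _ h2
  have hord : orderOf ρ = p := by
    rcases (Nat.dvd_prime hp).1 hdvd with h | h
    · exact absurd (orderOf_eq_one_iff.1 h) hρ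
    · exact h
  refine ⟨by rw [← hord]; exact pow_orderOf_eq_one ρ, ?_⟩
  rw [hord] at h2
  have h3 : Module.finrank F (IntermediateField.fixedField (Subgroup.zpowers ρ)) = 1 := by
    have := hp.pos
    exact Nat.eq_of_mul_eq_mul_right this (by rw [h2, one_mul])
  rw [IntermediateField.finrank_eq_one_iff] at h3
  intro x hx
  have hmem : x ∈ IntermediateField.fixedField (Subgroup.zpowers ρ) := by
    rw [IntermediateField.mem_fixedField_iff]
    intro g hg
    obtain ⟨n, rfl⟩ := Subgroup.mem_zpowers_iff.1 hg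
    have hfix : ∀ m : ℕ, (ρ ^ m) x = x := by
      intro m
      induction m with
      | zero => simp
      | succ m ih => rw [pow_succ, AlgEquiv.mul_apply, hx, ih]
    rcases Int.eq_nat_or_neg n with ⟨m, rfl | rfl⟩
    · rw [zpow_natCast]
      exact hfix m
    · rw [zpow_neg, zpow_natCast]
      have := hfix m
      calc (ρ ^ m)⁻¹ x = (ρ ^ m)⁻¹ ((ρ ^ m) x) := by rw [this]
        _ = x := by
          rw [← AlgEquiv.mul_apply, inv_mul_cancel, AlgEquiv.one_apply]
  rw [h3, IntermediateField.mem_bot] at hmem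
  exact hmem

end Galois

/-! ### The sheets -/

section Sheets

variable {L : Type*} [Field L]

/-- `σ` commutes with the deck transformation `ρ`, which permutes the sheets cyclically; if `σ`
fixes ONE sheet it fixes every sheet. -/
theorem tres5k_sheets_fixed {p : ℕ} (hp : 0 < p) (W : ℕ → ValuationSubring L) (ρ σ : L →+* L)
    (hcomm : ∀ x, ρ (σ x) = σ (ρ x))
    (hρW : ∀ k < p, (W k).comap ρ = W ((k + 1) % p))
    {k₀ : ℕ} (hk₀ : k₀ < p) (h0 : (W k₀).comap σ = W k₀) :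
    ∀ k < p, (W k).comap σ = W k := by
  have h1 : ∀ m : ℕ, (W ((k₀ + m) % p)).comap σ = W ((k₀ + m) % p) := by
    intro m
    induction m with
    | zero =>
      rw [add_zero, Nat.mod_eq_of_lt hk₀]
      exact h0
    | succ m ih =>
      have hlt : (k₀ + m) % p < p := Nat.mod_lt _ hp
      have e : (k₀ + (m + 1)) % p = ((k₀ + m) % p + 1) % p := by
        rw [Nat.mod_add_mod, add_assoc]
      rw [e, ← hρW _ hlt]
      ext x
      rw [ValuationSubring.mem_comap, ValuationSubring.mem_comap, ValuationSubring.mem_comap,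
        hcomm, ← ValuationSubring.mem_comap, ih]
  intro k hk
  have e : (k₀ + (k + p - k₀)) % p = k := by
    have : k₀ + (k + p - k₀) = k + p := by omega
    rw [this, Nat.add_mod_right, Nat.mod_eq_of_lt hk]
  have := h1 (k + p - k₀)
  rwa [e] at this

/-- the group form of `tres5k_sheets_fixed` -/
theorem tres5k_sheets_fixed_smul {G : Type*} [Group G] [MulSemiringAction G L] {p : ℕ}
    (hp : 0 < p) (W : ℕ → ValuationSubring L) (ρ : L →+* L)
    (hcomm : ∀ (g : G) x, ρ (g • x) = g • ρ x)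
    (hρW : ∀ k < p, (W k).comap ρ = W ((k + 1) % p))
    {k₀ : ℕ} (hk₀ : k₀ < p) (h0 : ∀ (g : G), ∀ x ∈ W k₀, g • x ∈ W k₀) :
    ∀ (g : G), ∀ k < p, ∀ x ∈ W k, g • x ∈ W k := by
  intro g k hk x hx
  have h := tres5k_sheets_fixed hp W ρ (MulSemiringAction.toRingHom G L g)
    (fun x => hcomm g x) hρW hk₀ (by
      ext x
      rw [ValuationSubring.mem_comap]
      change g • x ∈ W k₀ ↔ _
      constructor
      · intro h
        have := h0 g⁻¹ _ h
        rwa [inv_smul_smul] at this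
      · exact h0 g x) k hk
  have hx' : x ∈ (W k).comap (MulSemiringAction.toRingHom G L g) := by
    rw [h]
    exact hx
  exact hx'

/-- a group preserving a valuation subring preserves its non-units -/
theorem tres5k_smul_mem_nonunits {G : Type*} [Group G] [MulSemiringAction G L]
    (W : ValuationSubring L) (hW : ∀ (g : G), ∀ x ∈ W, g • x ∈ W) (g : G) {x : L}
    (hx : x ∈ W.nonunits) : g • x ∈ W.nonunits := by
  rw [tres5_mem_nonunits_iff] at hx ⊢
  rcases hx with hx | hx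
  · left
    rw [hx, smul_zero]
  · right
    intro h
    apply hx
    have := hW g⁻¹ _ h
    rwa [← smul_inv'', inv_smul_smul] at this

/-- a group preserving a valuation subring preserves its units -/
theorem tres5k_smul_valuation_eq_one {G : Type*} [Group G] [MulSemiringAction G L]
    (W : ValuationSubring L) (hW : ∀ (g : G), ∀ x ∈ W, g • x ∈ W) (g : G) {x : L}
    (hx : W.valuation x = 1) : W.valuation (g • x) = 1 := by
  have hx0 : x ≠ 0 := by
    rintro rfl
    rw [map_zero] at hx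
    exact zero_ne_one hx
  have hgx0 : g • x ≠ 0 := (smul_ne_zero_iff_ne g).2 hx0
  rw [tres5_valuation_eq_one_iff W hx0] at hx
  rw [tres5_valuation_eq_one_iff W hgx0]
  refine ⟨hW g _ hx.1, ?_⟩
  rw [← smul_inv'']
  exact hW g _ hx.2

/-- **Partition of unity by norms.**  A finite group `G` preserves the valuation subrings `W k`,
`k < p`, which are pairwise independent (`E k` is a unit at `W k` and a non-unit at `W j`,
`j ≠ k`).  Then there are `G`-invariant `e k` with `e k ≡ 1` at `W k` and `e k ≡ 0` at `W j`,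
`j ≠ k`.  (No hypothesis on the order of `G` nor on the residue fields.) -/
theorem tres5k_pou {G : Type*} [Group G] [Finite G] [MulSemiringAction G L] {p : ℕ}
    (W : ℕ → ValuationSubring L)
    (hGW : ∀ (g : G), ∀ k < p, ∀ x ∈ W k, g • x ∈ W k)
    (E : ℕ → L) (hE1 : ∀ k < p, (W k).valuation (E k) = 1)
    (hE0 : ∀ k < p, ∀ j < p, j ≠ k → E k ∈ (W j).nonunits) :
    ∃ e : ℕ → L, (∀ k (g : G), g • e k = e k) ∧
      (∀ k < p, e k - 1 ∈ (W k).nonunits) ∧
      (∀ k < p, ∀ j < p, j ≠ k → e k ∈ (W j).nonunits) := by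
  classical
  cases nonempty_fintype G
  -- the norms
  have hN1 : ∀ k < p, (W k).valuation (tres5kNorm G (E k)) = 1 := by
    intro k hk
    unfold tres5kNorm
    rw [map_prod]
    exact Finset.prod_eq_one fun g _ =>
      tres5k_smul_valuation_eq_one (W k) (fun g => hGW g k hk) g (hE1 k hk)
  have hN0 : ∀ k < p, ∀ j < p, j ≠ k → tres5kNorm G (E k) ∈ (W j).nonunits := by
    intro k hk j hj hjk
    unfold tres5kNorm
    rw [← Finset.mul_prod_erase Finset.univ (fun g : G => g • E k) (Finset.mem_univ (1 : G)),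
      one_smul, mul_comm]
    refine tres5_mul_mem_nonunits (W j) ?_ (hE0 k hk j hj hjk)
    refine prod_mem fun g _ => ?_
    exact (W j).nonunits_subset
      (tres5k_smul_mem_nonunits (W j) (fun g => hGW g j hj) g (hE0 k hk j hj hjk))
  have hrest : ∀ k < p, ∑ j ∈ (Finset.range p).erase k, tres5kNorm G (E j) ∈ (W k).nonunits := by
    intro k hk
    refine sum_mem fun j hj => ?_
    rw [Finset.mem_erase, Finset.mem_range] at hj
    exact hN0 j hj.2 k hk (Ne.symm hj.1)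
  have hsplit : ∀ k < p, ∑ j ∈ Finset.range p, tres5kNorm G (E j) =
      ∑ j ∈ (Finset.range p).erase k, tres5kNorm G (E j) + tres5kNorm G (E k) := by
    intro k hk
    rw [add_comm]
    exact (Finset.add_sum_erase (Finset.range p) (fun j => tres5kNorm G (E j))
      (Finset.mem_range.2 hk)).symm
  have hT1 : ∀ k < p, (W k).valuation (∑ j ∈ Finset.range p, tres5kNorm G (E j)) = 1 := by
    intro k hk
    rw [hsplit k hk]
    exact tres5_valuation_add_eq_one (W k) (hrest k hk) (hN1 k hk)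
  have hTG : ∀ g : G, g • (∑ j ∈ Finset.range p, tres5kNorm G (E j)) =
      ∑ j ∈ Finset.range p, tres5kNorm G (E j) := by
    intro g
    rw [Finset.smul_sum]
    exact Finset.sum_congr rfl fun j _ => tres5k_norm_smul g (E j)
  refine ⟨fun k => tres5kNorm G (E k) / ∑ j ∈ Finset.range p, tres5kNorm G (E j), ?_, ?_, ?_⟩
  · intro k g
    change g • (_ / _) = _ / _
    rw [div_eq_mul_inv, smul_mul', smul_inv'', hTG, tres5k_norm_smul]
  · intro k hk
    have hT0 : ∑ j ∈ Finset.range p, tres5kNorm G (E j) ≠ 0 := by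
      intro h0
      have := hT1 k hk
      rw [h0, map_zero] at this
      exact zero_ne_one this
    have e : tres5kNorm G (E k) / ∑ j ∈ Finset.range p, tres5kNorm G (E j) - 1 =
        -(∑ j ∈ (Finset.range p).erase k, tres5kNorm G (E j)) /
          ∑ j ∈ Finset.range p, tres5kNorm G (E j) := by
      rw [div_sub_one hT0]
      congr 1
      rw [hsplit k hk]
      ring
    change tres5kNorm G (E k) / ∑ j ∈ Finset.range p, tres5kNorm G (E j) - 1 ∈ _
    rw [e, ValuationSubring.mem_nonunits_iff, map_div₀, hT1 k hk, div_one, Valuation.map_neg]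
    exact (ValuationSubring.mem_nonunits_iff _).1 (hrest k hk)
  · intro k hk j hj hjk
    change tres5kNorm G (E k) / ∑ j ∈ Finset.range p, tres5kNorm G (E j) ∈ _
    rw [ValuationSubring.mem_nonunits_iff, map_div₀, hT1 j hj, div_one]
    exact (ValuationSubring.mem_nonunits_iff _).1 (hN0 k hk j hj hjk)

end Sheets

/-! ### Auxiliary lemmas -/

section Aux

/-- the AlgHom form of `tres5k_deck_galois` -/
theorem tres5k_deck_galois' {F L : Type*} [Field F] [Field L] [Algebra F L] {p : ℕ}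
    (hp : p.Prime) (hfin : Module.finrank F L = p) (ρ : L →ₐ[F] L) (hρ : ∃ x, ρ x ≠ x) :
    (∀ x : L, (⇑ρ)^[p] x = x) ∧ ∀ x : L, ρ x = x → ∃ a : F, algebraMap F L a = x := by
  have : FiniteDimensional F L :=
    Module.finite_of_finrank_pos (by rw [hfin]; exact hp.pos)
  have hne : AlgEquiv.ofBijective ρ (AlgHom.bijective ρ) ≠ 1 := by
    intro h
    obtain ⟨x, hx⟩ := hρ
    apply hx
    have := congrArg (fun τ : L ≃ₐ[F] L => τ x) h
    simpa using this
  obtain ⟨h1, h2⟩ := tres5k_deck_galois hp hfin (AlgEquiv.ofBijective ρ (AlgHom.bijective ρ)) hne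
  refine ⟨?_, fun x hx => h2 x (by simpa using hx)⟩
  intro x
  have h3 : ∀ n : ℕ, ((AlgEquiv.ofBijective ρ (AlgHom.bijective ρ)) ^ n) x = (⇑ρ)^[n] x := by
    intro n
    induction n with
    | zero => simp
    | succ n ih =>
      rw [pow_succ', AlgEquiv.mul_apply, ih, Function.iterate_succ_apply']
      rfl
  rw [← h3, h1, AlgEquiv.one_apply]

/-- the non-units of a discrete valuation subring are the multiples of the uniformizer -/
theorem tres5k_div_pi_mem {F : Type*} [Field F] (V : ValuationSubring F) {π : F}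
    (hπ : π ∈ V.nonunits) (hπ0 : π ≠ 0)
    (hunif : ∀ x : F, x ≠ 0 → ∃ m : ℤ, V.valuation (x / π ^ m) = 1) {a : F}
    (ha : a ∈ V.nonunits) : a / π ∈ V := by
  by_cases ha0 : a = 0
  · rw [ha0, zero_div]
    exact V.zero_mem
  rw [ValuationSubring.mem_nonunits_iff] at ha
  obtain ⟨m, hm⟩ := hunif a ha0
  have hπv : V.valuation π < 1 := (V.mem_nonunits_iff).1 hπ
  have hπmem : π ∈ V := V.nonunits_subset hπ
  rcases le_or_gt m 0 with hm0 | hm0
  · exfalso
    obtain ⟨r, hr⟩ := Int.exists_eq_neg_ofNat hm0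
    rw [hr, zpow_neg, zpow_natCast, div_inv_eq_mul, map_mul, map_pow] at hm
    have h1 : V.valuation π ^ r ≤ 1 := pow_le_one₀ zero_le (le_of_lt hπv)
    have h2 : V.valuation a * V.valuation π ^ r < 1 := by
      calc V.valuation a * V.valuation π ^ r ≤ V.valuation a * 1 := by gcongr
        _ = V.valuation a := mul_one _
        _ < 1 := ha
    rw [hm] at h2
    exact lt_irrefl _ h2
  · obtain ⟨r, hr⟩ : ∃ r : ℕ, m = r + 1 := ⟨(m - 1).toNat, by omega⟩
    have e : a / π = a / π ^ m * π ^ r := by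
      rw [hr, zpow_add_one₀ hπ0, zpow_natCast]
      have := pow_ne_zero r hπ0
      field_simp
    rw [e]
    refine V.mul_mem _ _ ?_ (V.pow_mem hπmem r)
    rw [← V.valuation_le_one_iff, hm]

/-- a product over `ZMod p` as a product over `range p` -/
theorem tres5k_prod_zmod {M : Type*} [CommMonoid M] (p : ℕ) [NeZero p] (f : ℕ → M) :
    ∏ m : ZMod p, f m.val = ∏ i ∈ Finset.range p, f i := by
  refine Finset.prod_bij (fun m _ => m.val) (fun m _ => Finset.mem_range.2 (ZMod.val_lt m))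
    (fun a _ b _ h => ZMod.val_injective p h)
    (fun i hi => ⟨(i : ZMod p), Finset.mem_univ _,
      ZMod.val_natCast_of_lt (Finset.mem_range.1 hi)⟩)
    (fun _ _ => rfl)

/-- two monic polynomials of the same degree which agree modulo `π` differ by `π R`,
`deg R < p` -/
theorem tres5k_congr_R {R κ : Type*} [CommRing R] [IsDomain R] [CommRing κ] {π : R}
    (hπ0 : π ≠ 0) (χ : R →+* κ) (hker : ∀ a, χ a = 0 → π ∣ a) {p : ℕ} {P Q : R[X]}
    (hP : P.Monic) (hQ : Q.Monic) (hPd : P.natDegree = p) (hQd : Q.natDegree = p)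
    (h : P.map χ = Q.map χ) :
    ∃ Rr : R[X], Rr.degree < (p : WithBot ℕ) ∧ P = Q + C π * Rr := by
  have hdvd : C π ∣ P - Q := by
    rw [Polynomial.C_dvd_iff_dvd_coeff]
    intro i
    apply hker
    have := congrArg (fun T => T.coeff i) h
    simp only [Polynomial.coeff_map] at this
    rw [Polynomial.coeff_sub, map_sub, this, sub_self]
  obtain ⟨Rr, hRr⟩ := hdvd
  refine ⟨Rr, ?_, by rw [← hRr]; ring⟩
  have hdeg : (P - Q).degree < (p : WithBot ℕ) := by
    by_cases hPQ : P - Q = 0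
    · rw [hPQ, degree_zero]
      exact WithBot.bot_lt_coe _
    have h1 : P.degree = Q.degree := by
      rw [degree_eq_natDegree hP.ne_zero, degree_eq_natDegree hQ.ne_zero, hPd, hQd]
    have h2 := degree_sub_lt_left h1 hP.ne_zero (by rw [hP.leadingCoeff, hQ.leadingCoeff])
    rwa [degree_eq_natDegree hP.ne_zero, hPd] at h2
  rwa [hRr, degree_C_mul hπ0] at hdeg

end Aux

/-! ### The descent -/

section Descend

variable {FK LK F L : Type*} [Field FK] [Field LK] [Field F] [Field L]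
  [Algebra FK LK] [Algebra F L] [Algebra FK F] [Algebra LK L] [Algebra FK L]
  [IsScalarTower FK LK L] [IsScalarTower FK F L]
  {V : ValuationSubring F} {p : ℕ}

/-- **The degree descends.**  `[L : F] = p` prime, `ρ` an `F`-automorphism of `L` commuting with
the group `G`; `LK = L^G`, `FK = F ∩ LK`; `z′ ∈ L` is `G`-invariant and not fixed by `ρ`.  Then
`1, zK, …, zK^{p-1}` is a basis of `LK` over `FK`; in particular `[LK : FK] = p`. -/
theorem tres5k_finrank_of_gen (hp : p.Prime) (hfin : Module.finrank F L = p)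
    {G : Type*} [Group G] [MulSemiringAction G L]
    (hGLK : ∀ (g : G) (y : LK), g • algebraMap LK L y = algebraMap LK L y)
    (hfixL : ∀ x : L, (∀ g : G, g • x = x) → ∃ y : LK, algebraMap LK L y = x)
    (hfixF : ∀ x : F, (∀ g : G, g • algebraMap F L x = algebraMap F L x) →
      ∃ y : FK, algebraMap FK F y = x)
    (ρ : L →ₐ[F] L) (hρG : ∀ (g : G) x, ρ (g • x) = g • ρ x)
    (z' : L) (hz'G : ∀ g : G, g • z' = z') (hz'ρ : ρ z' ≠ z') :
    Module.finrank FK LK = p := by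
  classical
  have hfd : FiniteDimensional F L :=
    Module.finite_of_finrank_pos (by rw [hfin]; exact hp.pos)
  obtain ⟨-, hρfix⟩ := tres5k_deck_galois' hp hfin ρ ⟨z', hz'ρ⟩
  -- `G` preserves `F`
  have hGF : ∀ (g : G) (x : F), ∃ y : F, algebraMap F L y = g • algebraMap F L x := fun g x =>
    hρfix _ (by rw [hρG, AlgHom.commutes])
  -- `z'` generates `L / F`
  have hz'F : z' ∉ (⊥ : IntermediateField F L) := by
    intro h
    rw [IntermediateField.mem_bot] at h
    obtain ⟨a, ha⟩ := h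
    exact hz'ρ (by rw [← ha, AlgHom.commutes])
  have htopI : IntermediateField.adjoin F {z'} = ⊤ := by
    have := IntermediateField.isSimpleOrder_of_finrank_prime F L (by rw [hfin]; exact hp)
    rcases eq_bot_or_eq_top (IntermediateField.adjoin F {z'}) with h | h
    · exfalso
      apply hz'F
      rw [← h]
      exact IntermediateField.mem_adjoin_simple_self F z'
    · exact h
  have hint : IsIntegral F z' := IsIntegral.of_finite F z'
  have htop : Algebra.adjoin F ({z'} : Set L) = ⊤ := by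
    have h1 := IntermediateField.adjoin_simple_toSubalgebra_of_isAlgebraic hint.isAlgebraic
    rw [← h1, htopI, IntermediateField.top_toSubalgebra]
  -- the power basis
  set pb : PowerBasis F L := PowerBasis.ofAdjoinEqTop hint htop with hpb
  have hdim : pb.dim = p := by rw [← pb.finrank, hfin]
  have hbasis : ∀ i : Fin pb.dim, pb.basis i = z' ^ (i : ℕ) := fun i => by
    rw [PowerBasis.coe_basis]
    rfl
  have hindep : ∀ a : Fin pb.dim → F, ∑ i, algebraMap F L (a i) * z' ^ (i : ℕ) = 0 →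
      ∀ i, a i = 0 := by
    intro a h
    have h1 : ∑ i, a i • pb.basis i = 0 := by
      rw [← h]
      refine Finset.sum_congr rfl fun i _ => ?_
      rw [hbasis, Algebra.smul_def]
    exact Fintype.linearIndependent_iff.1 pb.basis.linearIndependent a h1
  obtain ⟨zK, hzK⟩ := hfixL z' hz'G
  -- the coordinates of an invariant element are invariant
  have hcoord : ∀ y : LK, ∃ k : Fin pb.dim → FK,
      y = ∑ i, algebraMap FK LK (k i) * zK ^ (i : ℕ) := by
    intro y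
    obtain ⟨a, hrepr⟩ : ∃ a : Fin pb.dim → F,
        algebraMap LK L y = ∑ i, algebraMap F L (a i) * z' ^ (i : ℕ) := by
      refine ⟨fun i => pb.basis.repr (algebraMap LK L y) i, ?_⟩
      conv_lhs => rw [← pb.basis.sum_repr (algebraMap LK L y)]
      refine Finset.sum_congr rfl fun i _ => ?_
      rw [hbasis, Algebra.smul_def]
    have hfixc : ∀ (g : G) i, g • algebraMap F L (a i) = algebraMap F L (a i) := by
      intro g
      choose φ hφ using hGF g
      have h2 : algebraMap LK L y = ∑ i, algebraMap F L (φ (a i)) * z' ^ (i : ℕ) := by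
        have h3 := congrArg (fun x => g • x) hrepr
        simp only [Finset.smul_sum, smul_mul', smul_pow', hz'G, hGLK] at h3
        rw [h3]
        refine Finset.sum_congr rfl fun i _ => ?_
        rw [hφ]
      have h1 : ∑ i, algebraMap F L (φ (a i) - a i) * z' ^ (i : ℕ) = 0 := by
        simp only [map_sub, sub_mul, Finset.sum_sub_distrib]
        rw [sub_eq_zero, ← hrepr, ← h2]
      intro i
      have h3 := hindep _ h1 i
      rw [← hφ, sub_eq_zero.1 h3]
    choose k hk using fun i => hfixF _ (fun g => hfixc g i)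
    refine ⟨k, (algebraMap LK L).injective ?_⟩
    rw [hrepr, map_sum]
    refine Finset.sum_congr rfl fun i _ => ?_
    rw [map_mul, map_pow, hzK, ← hk i, ← IsScalarTower.algebraMap_apply,
      ← IsScalarTower.algebraMap_apply]
  -- the basis of `LK / FK`
  have hli : LinearIndependent FK (fun i : Fin pb.dim => zK ^ (i : ℕ)) := by
    rw [Fintype.linearIndependent_iff]
    intro k hk i
    have h1 : ∑ i, algebraMap F L (algebraMap FK F (k i)) * z' ^ (i : ℕ) = 0 := by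
      have h2 := congrArg (algebraMap LK L) hk
      rw [map_sum, map_zero] at h2
      rw [← h2]
      refine Finset.sum_congr rfl fun i _ => ?_
      rw [Algebra.smul_def, map_mul, map_pow, hzK, ← IsScalarTower.algebraMap_apply,
        ← IsScalarTower.algebraMap_apply]
    exact (algebraMap FK F).injective (by rw [hindep _ h1 i, map_zero])
  have hsp : ⊤ ≤ Submodule.span FK (Set.range (fun i : Fin pb.dim => zK ^ (i : ℕ))) := by
    intro y _
    obtain ⟨k, hk⟩ := hcoord y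
    rw [hk]
    refine Submodule.sum_mem _ fun i _ => ?_
    rw [← Algebra.smul_def]
    exact Submodule.smul_mem _ _ (Submodule.subset_span ⟨i, rfl⟩)
  rw [Module.finrank_eq_card_basis (Module.Basis.mk hli hsp), Fintype.card_fin, hdim]

/-- **K-FORM, the descent of a split generator.**

`S` is a split monogenic extension `L / F` of prime degree `p` at `V` (over a big field).  A finite
group `G` acts on `L`, with field of invariants `LK`, and `F ∩ LK = FK`; `G` preserves every sheet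
`S.W k` and commutes with the deck transformation `ρ`, which permutes the sheets cyclically.
`VK = V ∩ FK` is discrete with uniformizer `πK`, and `cK k ∈ VK` (`k < p`) are pairwise distinct
modulo `𝔪(VK)`.  Then `LK / FK` (of degree `p`) has a split generator `T.z` at `VK` with
`T.z ≡ cK k` modulo `𝔪(S.W k)`, and the sheets of `T` are the restrictions of the sheets of `S`. -/
theorem Tres5Gen.descend' (S : Tres5Gen F L V p) (hp : p.Prime)
    {G : Type*} [Group G] [Finite G] [MulSemiringAction G L]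
    (VK : ValuationSubring FK) (hVK : VK = V.comap (algebraMap FK F))
    (πK : FK) (hπK : πK ∈ VK.nonunits) (hπK0 : πK ≠ 0)
    (hunifK : ∀ x : FK, x ≠ 0 → ∃ m : ℤ, VK.valuation (x / πK ^ m) = 1)
    (cK : ℕ → ↥VK)
    (hcK : ∀ i < p, ∀ j < p, i ≠ j → IsLocalRing.residue ↥VK (cK i - cK j) ≠ 0)
    (hGLK : ∀ (g : G) (y : LK), g • algebraMap LK L y = algebraMap LK L y)
    (hfixL : ∀ x : L, (∀ g : G, g • x = x) → ∃ y : LK, algebraMap LK L y = x)
    (hfixF : ∀ x : F, (∀ g : G, g • algebraMap F L x = algebraMap F L x) →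
      ∃ y : FK, algebraMap FK F y = x)
    (hGW : ∀ (g : G), ∀ k < p, ∀ x ∈ S.W k, g • x ∈ S.W k)
    (ρ : L →ₐ[F] L) (hρG : ∀ (g : G) x, ρ (g • x) = g • ρ x)
    (hρW : ∀ k < p, (S.W k).comap (ρ : L →+* L) = S.W ((k + 1) % p)) :
    ∃ T : Tres5Gen FK LK VK p, T.π = πK ∧ T.c = cK ∧
      (∀ k < p, algebraMap LK L T.z - algebraMap FK L (cK k : FK) ∈ (S.W k).nonunits) ∧
      (∀ k < p, T.W k = (S.W k).comap (algebraMap LK L)) ∧
      Module.finrank FK LK = p ∧ ρ (algebraMap LK L T.z) ≠ algebraMap LK L T.z ∧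
      IntermediateField.adjoin F {algebraMap LK L T.z} = ⊤ := by
  classical
  have hp2 : 1 < p := hp.one_lt
  have hp0 : 0 < p := hp.pos
  have hpF : Fact p.Prime := ⟨hp⟩
  have hVK' : ∀ x : FK, x ∈ VK ↔ algebraMap FK F x ∈ V := fun x => by
    rw [hVK, ValuationSubring.mem_comap]
  have hVKnu : ∀ x : FK, x ∈ VK.nonunits ↔ algebraMap FK F x ∈ V.nonunits := fun x => by
    rw [hVK]
    exact tres5_mem_nonunits_comap V (algebraMap FK F)
  -- the embedding of `VK`
  set ιK : ↥VK →+* L := (algebraMap FK L).comp VK.subtype with hιK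
  have hιKF : ∀ a : ↥VK, ιK a = algebraMap F L (algebraMap FK F (a : FK)) := fun a =>
    IsScalarTower.algebraMap_apply FK F L _
  have hιKL : ∀ a : ↥VK, ιK a = algebraMap LK L (algebraMap FK LK (a : FK)) := fun a =>
    IsScalarTower.algebraMap_apply FK LK L _
  have hcV : ∀ a : ↥VK, algebraMap FK F (a : FK) ∈ V := fun a => (hVK' _).1 a.2
  have hιW : ∀ (a : ↥VK), ∀ k < p, ιK a ∈ S.W k := fun a k hk => by
    rw [hιKF]
    exact S.ι_mem_W hk ⟨_, hcV a⟩
  have hιG : ∀ (g : G) (a : ↥VK), g • ιK a = ιK a := fun g a => by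
    rw [hιKL]
    exact hGLK g _
  have hιnu : ∀ (a : ↥VK), ∀ k < p, ιK a ∈ (S.W k).nonunits →
      IsLocalRing.residue ↥VK a = 0 := by
    intro a k hk h
    rw [hιKF] at h
    have h1 := (tres5_mem_nonunits_comap (S.W k) (algebraMap F L)).2 h
    rw [S.W_comap hk] at h1
    have h2 : (a : FK) ∈ VK.nonunits := (hVKnu _).2 h1
    rw [IsLocalRing.residue_eq_zero_iff]
    exact ValuationSubring.coe_mem_nonunits_iff.1 h2
  have hzW : ∀ k < p, S.z ∈ S.W k := fun k hk => by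
    have := S.ψ_mem_W hk X
    rwa [S.ψ_X] at this
  -- the partition of unity
  obtain ⟨e, heG, he1, he0⟩ := tres5k_pou (G := G) (p := p) S.W hGW
    (fun k => ∏ j ∈ (Finset.range p).erase k, (S.z - tres5Iota V L (S.c j)))
    (by
      intro k hk
      rw [map_prod]
      refine Finset.prod_eq_one fun j hj => ?_
      rw [Finset.mem_erase, Finset.mem_range] at hj
      exact S.W_z_unit hj.2 hk hj.1)
    (by
      intro k hk j hj hjk
      rw [← Finset.mul_prod_erase ((Finset.range p).erase k) _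
        (Finset.mem_erase.2 ⟨hjk, Finset.mem_range.2 hj⟩), mul_comm]
      refine tres5_mul_mem_nonunits (S.W j) ?_ (S.W_z_mem hj)
      refine prod_mem fun i _ => ?_
      exact sub_mem (hzW j hj) (S.ι_mem_W hj _))
  -- the invariant generator
  set z' : L := ∑ k ∈ Finset.range p, ιK (cK k) * e k with hz'
  have hz'G : ∀ g : G, g • z' = z' := by
    intro g
    rw [hz', Finset.smul_sum]
    refine Finset.sum_congr rfl fun k _ => ?_
    rw [smul_mul', hιG, heG]
  have hz'nu : ∀ k < p, z' - ιK (cK k) ∈ (S.W k).nonunits := by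
    intro k hk
    have e1 : z' - ιK (cK k) = ιK (cK k) * (e k - 1) +
        ∑ j ∈ (Finset.range p).erase k, ιK (cK j) * e j := by
      rw [hz', ← Finset.add_sum_erase (Finset.range p) _ (Finset.mem_range.2 hk)]
      ring
    rw [e1]
    refine add_mem (tres5_mul_mem_nonunits _ (hιW _ k hk) (he1 k hk)) (sum_mem fun j hj => ?_)
    rw [Finset.mem_erase, Finset.mem_range] at hj
    exact tres5_mul_mem_nonunits _ (hιW _ k hk) (he0 j hj.2 k hk (Ne.symm hj.1))
  have hz'W : ∀ k < p, z' ∈ S.W k := by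
    intro k hk
    have h1 : z' = (z' - ιK (cK k)) + ιK (cK k) := by ring
    rw [h1]
    exact add_mem ((S.W k).nonunits_subset (hz'nu k hk)) (hιW _ k hk)
  obtain ⟨zK, hzK⟩ := hfixL z' hz'G
  -- the deck transformation
  have hρne : ∃ x, ρ x ≠ x := by
    by_contra hno
    have hid : ∀ x, ρ x = x := fun x => by
      by_contra h
      exact hno ⟨x, h⟩
    have h01 := hρW 0 hp0
    rw [Nat.mod_eq_of_lt (by omega : 0 + 1 < p)] at h01
    have h00 : (S.W 0).comap (ρ : L →+* L) = S.W 0 := by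
      ext x
      rw [ValuationSubring.mem_comap]
      change ρ x ∈ _ ↔ _
      rw [hid]
    rw [h00] at h01
    exact absurd (S.W_inj hp0 hp2 h01) (by omega)
  obtain ⟨hρp, hρfix⟩ := tres5k_deck_galois' hp S.hfin ρ hρne
  have hρmem : ∀ x : L, (∀ k < p, x ∈ S.W k) → ∀ k < p, ρ x ∈ S.W k := by
    intro x hx k hk
    have : x ∈ (S.W k).comap (ρ : L →+* L) := by
      rw [hρW k hk]
      exact hx _ (Nat.mod_lt _ hp0)
    exact this
  have hρiter_mem : ∀ m : ℕ, ∀ k < p, (⇑ρ)^[m] z' ∈ S.W k := by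
    intro m
    induction m with
    | zero => exact hz'W
    | succ m ih =>
      intro k hk
      rw [Function.iterate_succ_apply']
      exact hρmem _ ih k hk
  have hρnu : ∀ k, k + 1 < p → ∀ x : L, x ∈ (S.W (k + 1)).nonunits →
      ρ x ∈ (S.W k).nonunits := by
    intro k hk x hx
    have h1 := hρW k (by omega)
    rw [Nat.mod_eq_of_lt hk] at h1
    rw [← h1] at hx
    exact (tres5_mem_nonunits_comap (S.W k) (ρ : L →+* L)).1 hx
  have hρiter_nu : ∀ m : ℕ, ∀ k, m + k < p → ∀ x : L, x ∈ (S.W (m + k)).nonunits →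
      (⇑ρ)^[m] x ∈ (S.W k).nonunits := by
    intro m
    induction m with
    | zero =>
      intro k _ x hx
      simpa using hx
    | succ m ih =>
      intro k hk x hx
      rw [Function.iterate_succ_apply']
      have h1 : m + 1 + k = m + (k + 1) := by omega
      rw [h1] at hx
      exact hρnu k (by omega) _ (ih (k + 1) (by omega) x hx)
  have hρsub : ∀ (a : ↥VK) (n : ℕ) (x : L), (⇑ρ)^[n] (x - ιK a) = (⇑ρ)^[n] x - ιK a := by
    intro a n x
    induction n with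
    | zero => rfl
    | succ n ih =>
      rw [Function.iterate_succ_apply', ih, Function.iterate_succ_apply', map_sub, hιKF,
        AlgHom.commutes]
  have hρz : ∀ m < p, (⇑ρ)^[m] z' - ιK (cK m) ∈ (S.W 0).nonunits := by
    intro m hm
    have h1 := hρiter_nu m 0 (by omega) (z' - ιK (cK m)) (by simpa using hz'nu m hm)
    rwa [hρsub] at h1
  -- the degree
  have hz'ρ : ρ z' ≠ z' := by
    intro h2
    have h1 := hρz 1 hp2
    rw [Function.iterate_one, h2] at h1
    have h3 := (S.W 0).nonunits.sub_mem (hz'nu 0 hp0) h1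
    have e : z' - ιK (cK 0) - (z' - ιK (cK 1)) = ιK (cK 1 - cK 0) := by
      rw [map_sub]
      ring
    rw [e] at h3
    exact hcK 1 hp2 0 hp0 (by omega) (hιnu _ 0 hp0 h3)
  have hfinK : Module.finrank FK LK = p :=
    tres5k_finrank_of_gen hp S.hfin hGLK hfixL hfixF ρ hρG z' hz'G hz'ρ
  have hz'top : IntermediateField.adjoin F {z'} = ⊤ := by
    have := IntermediateField.isSimpleOrder_of_finrank_prime F L (by rw [S.hfin]; exact hp)
    rcases eq_bot_or_eq_top (IntermediateField.adjoin F {z'}) with h | h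
    · exfalso
      have h1 : z' ∈ (⊥ : IntermediateField F L) := by
        rw [← h]
        exact IntermediateField.mem_adjoin_simple_self F z'
      rw [IntermediateField.mem_bot] at h1
      obtain ⟨a, ha⟩ := h1
      exact hz'ρ (by rw [← ha, AlgHom.commutes])
    · exact h
  -- the polynomial
  have hPLmonic : (tres5kPoly (⇑ρ) p z').Monic := tres5k_poly_monic _ _
  have hPLroot : (tres5kPoly (⇑ρ) p z').eval z' = 0 := tres5k_poly_root _ _
  have hPLρ : (tres5kPoly (⇑ρ) p z').map (ρ : L →+* L) = tres5kPoly (⇑ρ) p z' :=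
    tres5k_poly_map_deck (ρ : L →+* L) z' (hρp z')
  have hPLG : ∀ g : G, (tres5kPoly (⇑ρ) p z').map (MulSemiringAction.toRingHom G L g) =
      tres5kPoly (⇑ρ) p z' := fun g =>
    tres5k_poly_map_comm (⇑ρ) (MulSemiringAction.toRingHom G L g) z' (hz'G g)
      (fun x => (hρG g x).symm)
  have hcoefρ : ∀ i, ρ ((tres5kPoly (⇑ρ) p z').coeff i) = (tres5kPoly (⇑ρ) p z').coeff i := by
    intro i
    have := congrArg (fun Q => Q.coeff i) hPLρ
    simp only [Polynomial.coeff_map] at this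
    exact this
  have hcoefG : ∀ (g : G) i, g • (tres5kPoly (⇑ρ) p z').coeff i =
      (tres5kPoly (⇑ρ) p z').coeff i := by
    intro g i
    have := congrArg (fun Q => Q.coeff i) (hPLG g)
    simp only [Polynomial.coeff_map] at this
    exact this
  -- the polynomial over `W 0`
  set P₀ : (↥(S.W 0))[X] :=
    ∏ m : ZMod p, (X - C (⟨(⇑ρ)^[m.val] z', hρiter_mem m.val 0 hp0⟩ : ↥(S.W 0))) with hP₀
  have hP₀map : P₀.map (S.W 0).subtype = tres5kPoly (⇑ρ) p z' := by
    rw [hP₀, Polynomial.map_prod]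
    unfold tres5kPoly
    refine Finset.prod_congr rfl fun m _ => ?_
    rw [Polynomial.map_sub, map_X, map_C]
    rfl
  have hcoefW : ∀ i, (tres5kPoly (⇑ρ) p z').coeff i ∈ S.W 0 := by
    intro i
    rw [← hP₀map, Polynomial.coeff_map]
    exact (P₀.coeff i).2
  have hcoefK : ∀ i, (tres5kPoly (⇑ρ) p z').coeff i ∈ Set.range ιK := by
    intro i
    obtain ⟨b, hb⟩ := hρfix _ (hcoefρ i)
    obtain ⟨c, hc⟩ := hfixF b (fun g => by rw [hb]; exact hcoefG g i)
    have hcVK : c ∈ VK := by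
      rw [hVK', hc, ← S.W_comap hp0, ValuationSubring.mem_comap, hb]
      exact hcoefW i
    refine ⟨⟨c, hcVK⟩, ?_⟩
    rw [hιKF]
    change algebraMap F L (algebraMap FK F c) = _
    rw [hc, hb]
  obtain ⟨PK, hPKmap, hPKdeg, hPKmonic⟩ := Polynomial.lifts_and_natDegree_eq_and_monic
    ((Polynomial.lifts_iff_coeff_lifts _).2 hcoefK) hPLmonic
  rw [tres5k_poly_natDegree] at hPKdeg
  -- the reduction
  set j₀ : ↥VK →+* ↥(S.W 0) :=
    ιK.codRestrict (S.W 0).toSubring (fun a => hιW a 0 hp0) with hj₀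
  have hPKj : PK.map j₀ = P₀ := by
    apply Polynomial.map_injective (S.W 0).subtype Subtype.val_injective
    rw [Polynomial.map_map, hP₀map]
    exact hPKmap
  have hχker : ∀ a : ↥VK, (IsLocalRing.residue ↥(S.W 0)).comp j₀ a = 0 →
      IsLocalRing.residue ↥VK a = 0 := by
    intro a ha
    rw [RingHom.comp_apply, IsLocalRing.residue_eq_zero_iff] at ha
    exact hιnu a 0 hp0 (ValuationSubring.coe_mem_nonunits_iff.2 ha)
  have hPKχ : PK.map ((IsLocalRing.residue ↥(S.W 0)).comp j₀) =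
      (∏ i ∈ Finset.range p, (X - C (cK i))).map ((IsLocalRing.residue ↥(S.W 0)).comp j₀) := by
    have hA : (∏ i ∈ Finset.range p, (X - C (cK i))).map
        ((IsLocalRing.residue ↥(S.W 0)).comp j₀) =
        ∏ m : ZMod p, (X - C (((IsLocalRing.residue ↥(S.W 0)).comp j₀) (cK m.val))) := by
      rw [Polynomial.map_prod]
      rw [tres5k_prod_zmod p (fun i : ℕ =>
        (X - C (((IsLocalRing.residue ↥(S.W 0)).comp j₀) (cK i)) :
          (IsLocalRing.ResidueField ↥(S.W 0))[X]))]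
      refine Finset.prod_congr rfl fun i _ => ?_
      rw [Polynomial.map_sub, map_X, map_C]
    rw [hA, ← Polynomial.map_map, hPKj, hP₀, Polynomial.map_prod]
    refine Finset.prod_congr rfl fun m _ => ?_
    rw [Polynomial.map_sub, map_X, map_C]
    congr 2
    rw [← sub_eq_zero, RingHom.comp_apply, ← map_sub, IsLocalRing.residue_eq_zero_iff]
    exact ValuationSubring.coe_mem_nonunits_iff.1 (hρz m.val (ZMod.val_lt m))
  have hπKmem : πK ∈ VK := VK.nonunits_subset hπK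
  have hπV0 : (⟨πK, hπKmem⟩ : ↥VK) ≠ 0 := fun h => hπK0 (congrArg Subtype.val h)
  have hker : ∀ a : ↥VK, (IsLocalRing.residue ↥(S.W 0)).comp j₀ a = 0 →
      (⟨πK, hπKmem⟩ : ↥VK) ∣ a := by
    intro a ha
    have h1 := hχker a ha
    rw [IsLocalRing.residue_eq_zero_iff] at h1
    have h2 : (a : FK) ∈ VK.nonunits := ValuationSubring.coe_mem_nonunits_iff.2 h1
    refine ⟨⟨(a : FK) / πK, tres5k_div_pi_mem VK hπK hπK0 hunifK h2⟩, Subtype.ext ?_⟩
    change (a : FK) = πK * ((a : FK) / πK)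
    rw [mul_div_cancel₀ _ hπK0]
  have hQmonic : (∏ i ∈ Finset.range p, (X - C (cK i))).Monic :=
    monic_prod_of_monic _ _ fun _ _ => monic_X_sub_C _
  have hQdeg : (∏ i ∈ Finset.range p, (X - C (cK i))).natDegree = p := by
    rw [natDegree_prod_of_monic _ _ (fun j _ => monic_X_sub_C _)]
    simp
  obtain ⟨Rr, hRrdeg, hPKeq⟩ := tres5k_congr_R hπV0 _ hker hPKmonic hQmonic hPKdeg hQdeg hPKχ
  -- the generator generates
  have hzKρ : ρ z' - ιK (cK 1) ∈ (S.W 0).nonunits := by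
    have := hρz 1 hp2
    simpa using this
  have hzKnot : zK ∉ (⊥ : IntermediateField FK LK) := by
    intro h
    rw [IntermediateField.mem_bot] at h
    obtain ⟨a, ha⟩ := h
    have h1 : z' = algebraMap F L (algebraMap FK F a) := by
      rw [← hzK, ← ha, ← IsScalarTower.algebraMap_apply, ← IsScalarTower.algebraMap_apply]
    have h2 : ρ z' = z' := by rw [h1, AlgHom.commutes]
    rw [h2] at hzKρ
    have h3 := (S.W 0).nonunits.sub_mem (hz'nu 0 hp0) hzKρ
    have e : z' - ιK (cK 0) - (z' - ιK (cK 1)) = ιK (cK 1 - cK 0) := by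
      rw [map_sub]
      ring
    rw [e] at h3
    exact hcK 1 hp2 0 hp0 (by omega) (hιnu _ 0 hp0 h3)
  have htop : IntermediateField.adjoin FK {zK} = ⊤ := by
    have := IntermediateField.isSimpleOrder_of_finrank_prime FK LK (by rw [hfinK]; exact hp)
    rcases eq_bot_or_eq_top (IntermediateField.adjoin FK {zK}) with h | h
    · exfalso
      apply hzKnot
      rw [← h]
      exact IntermediateField.mem_adjoin_simple_self FK zK
    · exact h
  have hcomp : (algebraMap LK L).comp (tres5Iota VK LK) = ιK := by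
    ext a
    exact (hιKL a).symm
  -- the structure
  obtain ⟨T, hTπ, hTc, hTz⟩ : ∃ T : Tres5Gen FK LK VK p, T.π = πK ∧ T.c = cK ∧ T.z = zK :=
    ⟨{hn := hp.ne_zero
      hfin := hfinK
      π := πK
      hπ := hπK
      hπ0 := hπK0
      hunif := hunifK
      z := zK
      htop := htop
      c := cK
      hc := hcK
      R := Rr
      hR := hRrdeg
      hz := by
        apply (algebraMap LK L).injective
        rw [map_zero, Polynomial.hom_eval₂, hzK, hcomp]
        have : (∏ i ∈ Finset.range p, (X - C (cK i)) + C (⟨πK, hπKmem⟩ : ↥VK) * Rr) = PK :=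
          hPKeq.symm
        rw [this, ← Polynomial.eval_map, hPKmap]
        exact hPLroot }, rfl, rfl, rfl⟩
  refine ⟨T, hTπ, hTc, ?_, ?_, hfinK, by rw [hTz, hzK]; exact hz'ρ,
    by rw [hTz, hzK]; exact hz'top⟩
  · intro k hk
    rw [hTz, hzK]
    exact hz'nu k hk
  · intro k hk
    have hcomap : ((S.W k).comap (algebraMap LK L)).comap (algebraMap FK LK) = VK := by
      ext x
      rw [ValuationSubring.mem_comap, ValuationSubring.mem_comap, hVK',
        ← IsScalarTower.algebraMap_apply, IsScalarTower.algebraMap_apply FK F L,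
        ← ValuationSubring.mem_comap, S.W_comap hk]
    obtain ⟨k', hk', hW⟩ := T.W_unique hcomap
    rw [hW]
    by_contra hne
    have hkk : k ≠ k' := fun h => hne (by rw [h])
    have h1 := T.W_z_mem hk'
    rw [← hW, tres5_mem_nonunits_comap, map_sub, hTz, hzK, hTc] at h1
    have h1' : z' - ιK (cK k') ∈ (S.W k).nonunits := by
      rw [← hcomp]
      exact h1
    have h2 := (S.W k).nonunits.sub_mem (hz'nu k hk) h1'
    have e : z' - ιK (cK k) - (z' - ιK (cK k')) = ιK (cK k' - cK k) := by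
      rw [map_sub]
      ring
    rw [e] at h2
    exact hcK k' hk' k hk (Ne.symm hkk) (hιnu _ k hk h2)


/-- `Tres5Gen.descend'` with the (redundant) hypothesis `finrank FK LK = p`, and the short
conclusion. -/
theorem Tres5Gen.descend (S : Tres5Gen F L V p) (hp : p.Prime)
    {G : Type*} [Group G] [Finite G] [MulSemiringAction G L]
    (VK : ValuationSubring FK) (hVK : VK = V.comap (algebraMap FK F))
    (πK : FK) (hπK : πK ∈ VK.nonunits) (hπK0 : πK ≠ 0)
    (hunifK : ∀ x : FK, x ≠ 0 → ∃ m : ℤ, VK.valuation (x / πK ^ m) = 1)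
    (cK : ℕ → ↥VK)
    (hcK : ∀ i < p, ∀ j < p, i ≠ j → IsLocalRing.residue ↥VK (cK i - cK j) ≠ 0)
    (_hfinK : Module.finrank FK LK = p)
    (hGLK : ∀ (g : G) (y : LK), g • algebraMap LK L y = algebraMap LK L y)
    (hfixL : ∀ x : L, (∀ g : G, g • x = x) → ∃ y : LK, algebraMap LK L y = x)
    (hfixF : ∀ x : F, (∀ g : G, g • algebraMap F L x = algebraMap F L x) →
      ∃ y : FK, algebraMap FK F y = x)
    (hGW : ∀ (g : G), ∀ k < p, ∀ x ∈ S.W k, g • x ∈ S.W k)
    (ρ : L →ₐ[F] L) (hρG : ∀ (g : G) x, ρ (g • x) = g • ρ x)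
    (hρW : ∀ k < p, (S.W k).comap (ρ : L →+* L) = S.W ((k + 1) % p)) :
    ∃ T : Tres5Gen FK LK VK p, T.π = πK ∧ T.c = cK ∧
      (∀ k < p, algebraMap LK L T.z - algebraMap FK L (cK k : FK) ∈ (S.W k).nonunits) ∧
      (∀ k < p, T.W k = (S.W k).comap (algebraMap LK L)) := by
  obtain ⟨T, h1, h2, h3, h4, -⟩ := S.descend' hp VK hVK πK hπK hπK0 hunifK cK hcK hGLK hfixL
    hfixF hGW ρ hρG hρW
  exact ⟨T, h1, h2, h3, h4⟩

/-- **The deck transformation descends**: `ρ` commutes with `G`, so it preserves the field of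
invariants `LK`. -/
theorem tres5k_deck_descend {G : Type*} [Group G] [MulSemiringAction G L]
    (hGLK : ∀ (g : G) (y : LK), g • algebraMap LK L y = algebraMap LK L y)
    (hfixL : ∀ x : L, (∀ g : G, g • x = x) → ∃ y : LK, algebraMap LK L y = x)
    (ρ : L →ₐ[F] L) (hρG : ∀ (g : G) x, ρ (g • x) = g • ρ x) :
    ∃ ρK : LK →ₐ[FK] LK, ∀ y : LK, algebraMap LK L (ρK y) = ρ (algebraMap LK L y) := by
  have hex : ∀ y : LK, ∃ y' : LK, algebraMap LK L y' = ρ (algebraMap LK L y) := fun y =>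
    hfixL _ (fun g => by rw [← hρG, hGLK])
  choose f hf using hex
  have hinj : Function.Injective (algebraMap LK L) := (algebraMap LK L).injective
  refine ⟨{ toFun := f
            map_one' := hinj (by rw [hf, map_one, map_one])
            map_mul' := fun x y => hinj (by rw [hf, map_mul, map_mul, map_mul, hf, hf])
            map_zero' := hinj (by rw [hf, map_zero, map_zero])
            map_add' := fun x y => hinj (by rw [hf, map_add, map_add, map_add, hf, hf])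
            commutes' := fun a => hinj (by
              rw [hf, ← IsScalarTower.algebraMap_apply, IsScalarTower.algebraMap_apply FK F L,
                AlgHom.commutes]) }, hf⟩

omit [Algebra FK F] [Algebra FK L] [IsScalarTower FK LK L] [IsScalarTower FK F L] in
/-- the descended deck transformation permutes the descended sheets -/
theorem tres5k_deck_sheets {VK : ValuationSubring FK} (S : Tres5Gen F L V p)
    (T : Tres5Gen FK LK VK p)
    (hT : ∀ k < p, T.W k = (S.W k).comap (algebraMap LK L)) (hp : 0 < p)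
    (ρ : L →ₐ[F] L) (ρK : LK →ₐ[FK] LK)
    (hρK : ∀ y : LK, algebraMap LK L (ρK y) = ρ (algebraMap LK L y))
    (hρW : ∀ k < p, (S.W k).comap (ρ : L →+* L) = S.W ((k + 1) % p)) :
    ∀ k < p, (T.W k).comap (ρK : LK →+* LK) = T.W ((k + 1) % p) := by
  intro k hk
  ext x
  rw [ValuationSubring.mem_comap, hT k hk, hT _ (Nat.mod_lt _ hp), ValuationSubring.mem_comap,
    ValuationSubring.mem_comap, ← hρW k hk, ValuationSubring.mem_comap]
  change algebraMap LK L (ρK x) ∈ _ ↔ ρ (algebraMap LK L x) ∈ _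
  rw [hρK]

/-- residue characteristic `p`: the integers `0, …, p − 1` are pairwise distinct modulo the
maximal ideal -/
theorem tres5k_natCast_distinct (VK : ValuationSubring FK) (hp : p.Prime)
    (hpV : (p : FK) ∈ VK.nonunits) :
    ∀ i < p, ∀ j < p, i ≠ j →
      IsLocalRing.residue ↥VK (((i : ℕ) : ↥VK) - ((j : ℕ) : ↥VK)) ≠ 0 := by
  have hp0 : IsLocalRing.residue ↥VK ((p : ℕ) : ↥VK) = 0 := by
    rw [IsLocalRing.residue_eq_zero_iff]
    refine ValuationSubring.coe_mem_nonunits_iff.1 ?_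
    simpa using hpV
  have hchar : CharP (IsLocalRing.ResidueField ↥VK) p := by
    have hpF : Fact p.Prime := ⟨hp⟩
    refine (CharP.charP_iff_prime_eq_zero hp).2 ?_
    rw [← map_natCast (IsLocalRing.residue ↥VK)]
    exact hp0
  intro i hi j hj hij h
  rw [map_sub, map_natCast, map_natCast, sub_eq_zero] at h
  have h1 := (CharP.natCast_eq_natCast (IsLocalRing.ResidueField ↥VK) p).1 h
  have h2 : i % p = j % p := h1
  rw [Nat.mod_eq_of_lt hi, Nat.mod_eq_of_lt hj] at h2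
  exact hij h2

end Descend

end Fermat.Agent.R38


end ZBR38_018_1

/-! ### bundled: `Fermat.Agent.R38.TresKFormKum` -/
section ZBR38_018_2
/-
ROW 38, TRES, piece FAC-KFORM (helper53), part 4: THE DESCENT OF THE SPLIT KUMMER COVER.

Packaging of `Tres5Gen.descend'` (`R38/TresKFormGen.lean`) for helper78's Kummer instance
`S : Tres5Kum F L V p` (`R38/TresCoverKum.lean`) over the big field, in the shape in which the
assembly has its inputs:
* a finite group `G` acting on `L` with `L^G = LK`, `F ∩ L^G = FK`;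
* ONE `G`-stable valuation subring `W₀` of `L` over `V` (the GAUSS SHEET);
* the deck transformation `ρ y = ζ y`, commuting with `G`;
* `VK = V ∩ FK` discrete with uniformizer `πK`, residue characteristic `p`.
Output: the split generator `T : Tres5Gen FK LK VK p` with roots `0, …, p − 1`, its sheets
`T.W k = S.gen.W k ∩ LK` (one of them is `W₀ ∩ LK`), the descended deck transformation `ρK`
permuting them cyclically, `[LK : FK] = p`, `F(T.z) = L`.
-/

set_option autoImplicit false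

namespace Fermat.Agent.R38

open Polynomial

section KumDescend

variable {FK LK F L : Type*} [Field FK] [Field LK] [Field F] [Field L]
  [Algebra FK LK] [Algebra F L] [Algebra FK F] [Algebra LK L] [Algebra FK L]
  [IsScalarTower FK LK L] [IsScalarTower FK F L]
  {V : ValuationSubring F} {p : ℕ}

/-- the deck transformation `ρ y = ζ y` permutes the sheets of the Kummer cover cyclically -/
theorem Tres5Kum.gen_W_deck (S : Tres5Kum F L V p) (ρ : L →ₐ[F] L)
    (hρ : ρ S.y = algebraMap F L S.ζ * S.y) :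
    ∀ k < p, (S.gen.W k).comap (ρ : L →+* L) = S.gen.W ((k + 1) % p) := by
  intro k hk
  have h := S.W_deck ρ 1 (by rw [pow_one]; exact hρ) k
  rwa [Tres5Kum.W_def, Tres5Kum.W_def, Nat.mod_eq_of_lt hk] at h

/-- **K-FORM for the split Kummer cover.** -/
theorem Tres5Kum.descend (S : Tres5Kum F L V p)
    {G : Type*} [Group G] [Finite G] [MulSemiringAction G L]
    (VK : ValuationSubring FK) (hVK : VK = V.comap (algebraMap FK F))
    (πK : FK) (hπK : πK ∈ VK.nonunits) (hπK0 : πK ≠ 0)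
    (hunifK : ∀ x : FK, x ≠ 0 → ∃ m : ℤ, VK.valuation (x / πK ^ m) = 1)
    (hpK : (p : FK) ∈ VK.nonunits)
    (hGLK : ∀ (g : G) (y : LK), g • algebraMap LK L y = algebraMap LK L y)
    (hfixL : ∀ x : L, (∀ g : G, g • x = x) → ∃ y : LK, algebraMap LK L y = x)
    (hfixF : ∀ x : F, (∀ g : G, g • algebraMap F L x = algebraMap F L x) →
      ∃ y : FK, algebraMap FK F y = x)
    (W₀ : ValuationSubring L) (hW₀ : W₀.comap (algebraMap F L) = V)
    (hGW₀ : ∀ (g : G), ∀ x ∈ W₀, g • x ∈ W₀)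
    (ρ : L →ₐ[F] L) (hρ : ρ S.y = algebraMap F L S.ζ * S.y)
    (hρG : ∀ (g : G) x, ρ (g • x) = g • ρ x) :
    ∃ (T : Tres5Gen FK LK VK p) (ρK : LK →ₐ[FK] LK),
      T.π = πK ∧ (∀ k, T.c k = ((k : ℕ) : ↥VK)) ∧
      (∀ k < p, algebraMap LK L T.z - ((k : ℕ) : L) ∈ (S.gen.W k).nonunits) ∧
      (∀ k < p, T.W k = (S.gen.W k).comap (algebraMap LK L)) ∧
      (∃ k₀ < p, W₀ = S.gen.W k₀ ∧ T.W k₀ = W₀.comap (algebraMap LK L)) ∧
      (∀ y : LK, algebraMap LK L (ρK y) = ρ (algebraMap LK L y)) ∧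
      (∀ k < p, (T.W k).comap (ρK : LK →+* LK) = T.W ((k + 1) % p)) ∧
      Module.finrank FK LK = p ∧
      IntermediateField.adjoin F {algebraMap LK L T.z} = ⊤ := by
  have hp := S.hp
  have hρW := S.gen_W_deck ρ hρ
  obtain ⟨k₀, hk₀, hWk₀⟩ := S.gen.W_unique hW₀
  have hGW : ∀ (g : G), ∀ k < p, ∀ x ∈ S.gen.W k, g • x ∈ S.gen.W k :=
    tres5k_sheets_fixed_smul hp.pos S.gen.W (ρ : L →+* L) hρG hρW hk₀
      (fun g x hx => by
        rw [← hWk₀] at hx ⊢
        exact hGW₀ g x hx)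
  obtain ⟨T, hTπ, hTc, hTz, hTW, hfinK, -, htop⟩ := S.gen.descend' hp VK hVK πK hπK hπK0 hunifK
    (fun k => ((k : ℕ) : ↥VK)) (tres5k_natCast_distinct VK hp hpK) hGLK hfixL hfixF hGW ρ hρG hρW
  obtain ⟨ρK, hρK⟩ := tres5k_deck_descend (FK := FK) hGLK hfixL ρ hρG
  refine ⟨T, ρK, hTπ, fun k => by rw [hTc], ?_, hTW, ⟨k₀, hk₀, hWk₀, by rw [hTW k₀ hk₀, hWk₀]⟩,
    hρK, tres5k_deck_sheets S.gen T hTW hp.pos ρ ρK hρK hρW, hfinK, htop⟩
  intro k hk
  have h := hTz k hk
  simpa using h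

end KumDescend

end Fermat.Agent.R38


end ZBR38_018_2

/-! ### bundled: `Fermat.Agent.R38.TresCoverTower` -/
section ZBR38_018_3

/-!
# R38 TRES, (FAC-p), piece ASM-COV, part 6: the tower `L_K → L_E` and the K-FORM descent on it

`K ≤ E` intermediate fields of `ℚ̄ / ℚ`.

* `tres5cBaseIncl N h : F_N(K) →+* F_N(E)` (coefficientwise inclusion);
* `tres5cAlgFF`, `tres5cAlgLL`, `tres5cAlgFL` : the algebra structures `F_N(K) → F_N(E)`,
  `L_K → L_E`, `F_N(K) → L_E` (reducible defs, NOT instances: pass them explicitly),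
  `tres5c_tower_FFL`, `tres5c_tower_FLL` : the two scalar towers;
* **`tres5c_descend`** : helper53's `Tres5Kum.descend` with these instances plugged in: from a
  `Tres5Kum` structure on `L_E / F_N(E)` at `V`, a finite group `G` acting on `L_E` with
  `L_E^G = L_K`, `F_N(E) ∩ L_K = F_N(K)`, one `G`-stable sheet and `ρ ∘ g = g ∘ ρ`, a
  `Tres5Gen F_N(K) L_K V_K p` (`V_K = V ∩ F_N(K)`) with sheets `T.W k = S.gen.W k ∩ L_K`, the
  descended deck transformation `ρ_K` and `[L_K : F_N(K)] = p`.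
-/

set_option autoImplicit false
set_option linter.style.haveILetI false
set_option linter.unusedSectionVars false

noncomputable section

open Polynomial IntermediateField ModularCurve Fermat.Agent.INJ

namespace Fermat.Agent.R38

section Tower

variable {K E : IntermediateField ℚ NfQb} (N : ℕ) (y : LaurentSeries NfQb) (h : K ≤ E)

/-- the inclusion `F_N(K) → F_N(E)`, `K ≤ E` -/
def tres5cBaseIncl :
    ↥(modularFunctionFieldFullC ↥K N) →+* ↥(modularFunctionFieldFullC ↥E N) where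
  toFun x := ⟨coeffMap (IntermediateField.inclusion h).toRingHom (x : LaurentSeries ↥K),
    nf_coeffMap_mem_fullC _ N x.2⟩
  map_one' := Subtype.ext (map_one (coeffMap _))
  map_mul' _ _ := Subtype.ext (map_mul (coeffMap _) _ _)
  map_zero' := Subtype.ext (map_zero (coeffMap _))
  map_add' _ _ := Subtype.ext (map_add (coeffMap _) _ _)

@[simp]
theorem tres5cBaseIncl_coe (x : ↥(modularFunctionFieldFullC ↥K N)) :
    ((tres5cBaseIncl N h x : ↥(modularFunctionFieldFullC ↥E N)) : LaurentSeries ↥E)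
      = coeffMap (IntermediateField.inclusion h).toRingHom (x : LaurentSeries ↥K) := rfl

/-- `Algebra F_N(K) F_N(E)` -/
@[reducible] def tres5cAlgFF :
    Algebra ↥(modularFunctionFieldFullC ↥K N) ↥(modularFunctionFieldFullC ↥E N) :=
  (tres5cBaseIncl N h).toAlgebra

/-- `Algebra L_K L_E` -/
@[reducible] def tres5cAlgLL : Algebra ↥(tres5cL K N y) ↥(tres5cL E N y) :=
  (tres5cIncl N y h).toAlgebra

/-- `Algebra F_N(K) L_E` -/
@[reducible] def tres5cAlgFL : Algebra ↥(modularFunctionFieldFullC ↥K N) ↥(tres5cL E N y) :=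
  ((algebraMap ↥(modularFunctionFieldFullC ↥E N) ↥(tres5cL E N y)).comp
    (tres5cBaseIncl N h)).toAlgebra

theorem tres5c_tower_FFL :
    @IsScalarTower ↥(modularFunctionFieldFullC ↥K N) ↥(modularFunctionFieldFullC ↥E N)
      ↥(tres5cL E N y) (tres5cAlgFF N h).toSMul Algebra.toSMul (tres5cAlgFL N y h).toSMul := by
  letI := tres5cAlgFF N h
  letI := tres5cAlgFL N y h
  exact @IsScalarTower.of_algebraMap_eq _ _ _ _ _ _ (tres5cAlgFF N h) _ (tres5cAlgFL N y h)
    fun x => rfl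

theorem tres5c_tower_FLL :
    @IsScalarTower ↥(modularFunctionFieldFullC ↥K N) ↥(tres5cL K N y) ↥(tres5cL E N y)
      Algebra.toSMul (tres5cAlgLL N y h).toSMul (tres5cAlgFL N y h).toSMul := by
  exact @IsScalarTower.of_algebraMap_eq _ _ _ _ _ _ _ (tres5cAlgLL N y h) (tres5cAlgFL N y h)
    fun x => Subtype.ext rfl

/-- **K-FORM on the concrete tower** (`Tres5Kum.descend` with the instances plugged in). -/
theorem tres5c_descend {p : ℕ} {V : ValuationSubring ↥(modularFunctionFieldFullC ↥E N)}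
    (S : Tres5Kum ↥(modularFunctionFieldFullC ↥E N) ↥(tres5cL E N y) V p)
    {G : Type*} [Group G] [Finite G] [MulSemiringAction G ↥(tres5cL E N y)]
    (VK : ValuationSubring ↥(modularFunctionFieldFullC ↥K N))
    (hVK : VK = V.comap (tres5cBaseIncl N h))
    (πK : ↥(modularFunctionFieldFullC ↥K N)) (hπK : πK ∈ VK.nonunits) (hπK0 : πK ≠ 0)
    (hunifK : ∀ x : ↥(modularFunctionFieldFullC ↥K N), x ≠ 0 →
      ∃ m : ℤ, VK.valuation (x / πK ^ m) = 1)
    (hpK : (p : ↥(modularFunctionFieldFullC ↥K N)) ∈ VK.nonunits)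
    (hGLK : ∀ (g : G) (f : ↥(tres5cL K N y)), g • tres5cIncl N y h f = tres5cIncl N y h f)
    (hfixL : ∀ x : ↥(tres5cL E N y), (∀ g : G, g • x = x) →
      ∃ f : ↥(tres5cL K N y), tres5cIncl N y h f = x)
    (hfixF : ∀ x : ↥(modularFunctionFieldFullC ↥E N),
      (∀ g : G, g • algebraMap ↥(modularFunctionFieldFullC ↥E N) ↥(tres5cL E N y) x
        = algebraMap ↥(modularFunctionFieldFullC ↥E N) ↥(tres5cL E N y) x) →
      ∃ a : ↥(modularFunctionFieldFullC ↥K N), tres5cBaseIncl N h a = x)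
    (W₀ : ValuationSubring ↥(tres5cL E N y))
    (hW₀ : W₀.comap (algebraMap ↥(modularFunctionFieldFullC ↥E N) ↥(tres5cL E N y)) = V)
    (hGW₀ : ∀ (g : G), ∀ x ∈ W₀, g • x ∈ W₀)
    (hρG : ∀ (g : G) (x : ↥(tres5cL E N y)), S.deck (g • x) = g • S.deck x) :
    ∃ (T : Tres5Gen ↥(modularFunctionFieldFullC ↥K N) ↥(tres5cL K N y) VK p)
      (ρK : ↥(tres5cL K N y) →ₐ[↥(modularFunctionFieldFullC ↥K N)] ↥(tres5cL K N y)),
      T.π = πK ∧ (∀ k, T.c k = ((k : ℕ) : ↥VK)) ∧
      (∀ k < p, tres5cIncl N y h T.z - ((k : ℕ) : ↥(tres5cL E N y)) ∈ (S.gen.W k).nonunits) ∧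
      (∀ k < p, T.W k = (S.gen.W k).comap (tres5cIncl N y h)) ∧
      (∃ k₀ < p, W₀ = S.gen.W k₀ ∧ T.W k₀ = W₀.comap (tres5cIncl N y h)) ∧
      (∀ f : ↥(tres5cL K N y), tres5cIncl N y h (ρK f) = S.deck (tres5cIncl N y h f)) ∧
      (∀ k < p, (T.W k).comap (ρK : ↥(tres5cL K N y) →+* ↥(tres5cL K N y))
        = T.W ((k + 1) % p)) ∧
      Module.finrank ↥(modularFunctionFieldFullC ↥K N) ↥(tres5cL K N y) = p ∧
      IntermediateField.adjoin ↥(modularFunctionFieldFullC ↥E N) {tres5cIncl N y h T.z} = ⊤ :=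
  @Tres5Kum.descend ↥(modularFunctionFieldFullC ↥K N) ↥(tres5cL K N y)
    ↥(modularFunctionFieldFullC ↥E N) ↥(tres5cL E N y) _ _ _ _ _ _
    (tres5cAlgFF N h) (tres5cAlgLL N y h) (tres5cAlgFL N y h)
    (tres5c_tower_FLL N y h) (tres5c_tower_FFL N y h) V p S G _ _ _ VK hVK πK hπK hπK0 hunifK
    hpK hGLK hfixL hfixF W₀ hW₀ hGW₀ (S.deck : ↥(tres5cL E N y) →ₐ[_] ↥(tres5cL E N y)) S.deck_y
    hρG

end Tower

end Fermat.Agent.R38

end
end ZBR38_018_3

/-! ### bundled: `Fermat.Agent.R38.TresFixFInst` -/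
section ZBR38_018_4

/-!
# R38 TRES, (FAC-p), piece FAC-FIXF (helper29), part 2: the INSTANCE for `G = Gal(E / K)`

`K = beta0Field A = ℚ̄^I`, `E ⊇ K` an `I`-stable intermediate field of `ℚ̄ / ℚ` (e.g.
`E′ = mgcE A K₁`), `G = ↥E ≃ₐ[↥K] ↥E` (algebra structure `beta0FieldAlgebra h`), acting
coefficientwise on `L_E = tres5cL E N y` (helper64's `tres5caAct`); the cover `F′ = tres5cField N y`
is `I`-stable (`hstabI`, helper30's `tresdesc_stab`).

* `tres5ffAct` : the action of `G` on `L_E`; `tres5ffAct_coe`;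
* `tres5ff_inst_hGLK`, `tres5ff_inst_hfixL`, `tres5ff_inst_hfixF` : EXACTLY the hypotheses
  `hGLK`, `hfixL`, `hfixF` of helper78's `tres5c_descend` (and, with the algebra structures
  `tres5cAlgFF/LL/FL`, of helper53's `tres5kp_descend'`);
* `tres5ff_inst_hρG` : `hρG` from a bridge `ρ_E ↔ t` and helper30's `tresdesc_comm`;
* `tres5ff_inst_hGF` : `G` preserves `F_N(E)` (for `hGR`);
* `tres5ff_inst_finite` : `Finite G` for `E / K` finite;
* `tres5ff_descend` : `tres5c_descend` with all the field-level hypotheses discharged.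
-/

set_option autoImplicit false
set_option linter.style.haveILetI false
set_option linter.unusedSectionVars false

noncomputable section

open ModularCurve Fermat.Agent.INJ Fermat.Agent.UNIP IntermediateField

namespace Fermat.Agent.R38

section Generic

variable {E Ω : Type*} [Field E] [Field Ω]

/-- the algebra map `F₀ → L_E` is the inclusion -/
theorem tres5ff_form_algebraMap_coe (ι : E →+* Ω) (F₀ : IntermediateField E (LaurentSeries E))
    (Fb' : Subfield (LaurentSeries Ω)) (hF : ∀ x ∈ F₀, coeffMap ι x ∈ Fb') (x : ↥F₀) :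
    ((algebraMap ↥F₀ ↥(tres5cForm ι F₀ Fb' hF) x : ↥(tres5cForm ι F₀ Fb' hF)) :
      LaurentSeries E) = (x : LaurentSeries E) := rfl

end Generic

section Inst

variable {A : ValuationSubring NfQb} {q : ℕ} {E : IntermediateField ℚ NfQb}

theorem tres5ff_L_algebraMap_coe (N : ℕ) (y : LaurentSeries NfQb)
    (x : ↥(modularFunctionFieldFullC ↥E N)) :
    ((algebraMap ↥(modularFunctionFieldFullC ↥E N) ↥(tres5cL E N y) x : ↥(tres5cL E N y)) :
      LaurentSeries ↥E) = (x : LaurentSeries ↥E) :=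
  tres5ff_form_algebraMap_coe _ _ _ _ x

variable (hq : q.Prime) (hA : A.LiesOverPrime q) (h : beta0Field A ≤ E) (N : ℕ)
  (y : LaurentSeries NfQb)
  (hstabI : ∀ σ ∈ A.inertiaSubgroupIn ℚ, ∀ x ∈ tres5cField N y,
    coeffMap ((σ : NfQb ≃ₐ[ℚ] NfQb) : NfQb →+* NfQb) x ∈ tres5cField N y)

/-- **The coefficientwise action of `G = Gal(E / K)` on `L_E`.** -/
@[reducible] def tres5ffAct :
    letI := beta0FieldAlgebra h
    MulSemiringAction (↥E ≃ₐ[↥(beta0Field A)] ↥E) ↥(tres5cL E N y) :=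
  letI := beta0FieldAlgebra h
  tres5caAct (K := ↥(beta0Field A)) (E := ↥E) (ι := algebraMap ↥E NfQb)
    (F₁ := modularFunctionFieldFullC ↥E N) (Fb' := (tres5cField N y).toSubfield)
    (hF₁ := fun _ hx => tres5c_bar_le N y (nf_coeffMap_mem_bar E N hx))
    (tres5ff_hstab hq hA h N y hstabI)

theorem tres5ffAct_coe :
    letI := beta0FieldAlgebra h
    letI := tres5ffAct hq hA h N y hstabI
    ∀ (g : ↥E ≃ₐ[↥(beta0Field A)] ↥E) (x : ↥(tres5cL E N y)),
      ((g • x : ↥(tres5cL E N y)) : LaurentSeries ↥E) =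
        coeffMap ((g : ↥E ≃ₐ[↥(beta0Field A)] ↥E) : ↥E →+* ↥E) (x : LaurentSeries ↥E) :=
  fun _ _ => rfl

/-- **(hGLK)** of `tres5c_descend`. -/
theorem tres5ff_inst_hGLK :
    letI := beta0FieldAlgebra h
    letI := tres5ffAct hq hA h N y hstabI
    ∀ (g : ↥E ≃ₐ[↥(beta0Field A)] ↥E) (f : ↥(tres5cL (beta0Field A) N y)),
      g • tres5cIncl N y h f = tres5cIncl N y h f := by
  letI := beta0FieldAlgebra h
  letI := tres5ffAct hq hA h N y hstabI
  intro g f
  apply Subtype.ext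
  rw [tres5ffAct_coe hq hA h N y hstabI g, tres5cIncl_coe]
  exact tres5ff_hGLK h (g : ↥E →+* ↥E) (fun k => g.commutes k) _

/-- **(hfixL)** of `tres5c_descend`. -/
theorem tres5ff_inst_hfixL (hE : ∀ σ ∈ A.inertiaSubgroupIn ℚ, ∀ x ∈ E, σ x ∈ E) :
    letI := beta0FieldAlgebra h
    letI := tres5ffAct hq hA h N y hstabI
    ∀ x : ↥(tres5cL E N y), (∀ g : ↥E ≃ₐ[↥(beta0Field A)] ↥E, g • x = x) →
      ∃ f : ↥(tres5cL (beta0Field A) N y), tres5cIncl N y h f = x := by
  letI := beta0FieldAlgebra h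
  letI := tres5ffAct hq hA h N y hstabI
  intro x hx
  refine tres5ff_hfixL h N y
    (fun g : ↥E ≃ₐ[↥(beta0Field A)] ↥E => ((g : ↥E ≃ₐ[↥(beta0Field A)] ↥E) : ↥E →+* ↥E))
    (fun e he => tres5ff_fixed h hE e he) x fun g => ?_
  have := congrArg Subtype.val (hx g)
  rw [tres5ffAct_coe hq hA h N y hstabI g] at this
  exact this

/-- **(hfixF)** of `tres5c_descend`. -/
theorem tres5ff_inst_hfixF [NeZero N] (hE : ∀ σ ∈ A.inertiaSubgroupIn ℚ, ∀ x ∈ E, σ x ∈ E) :
    letI := beta0FieldAlgebra h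
    letI := tres5ffAct hq hA h N y hstabI
    ∀ x : ↥(modularFunctionFieldFullC ↥E N),
      (∀ g : ↥E ≃ₐ[↥(beta0Field A)] ↥E,
        g • algebraMap ↥(modularFunctionFieldFullC ↥E N) ↥(tres5cL E N y) x
          = algebraMap ↥(modularFunctionFieldFullC ↥E N) ↥(tres5cL E N y) x) →
      ∃ a : ↥(modularFunctionFieldFullC ↥(beta0Field A) N), tres5cBaseIncl N h a = x := by
  letI := beta0FieldAlgebra h
  letI := tres5ffAct hq hA h N y hstabI
  intro x hx
  obtain ⟨z, hz⟩ := tres5ff_hfixF h N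
    (fun g : ↥E ≃ₐ[↥(beta0Field A)] ↥E => ((g : ↥E ≃ₐ[↥(beta0Field A)] ↥E) : ↥E →+* ↥E))
    (fun e he => tres5ff_fixed h hE e he) x (fun g => by
      have := congrArg Subtype.val (hx g)
      rw [tres5ffAct_coe hq hA h N y hstabI g, tres5ff_L_algebraMap_coe] at this
      exact this)
  exact ⟨z, Subtype.ext hz⟩

/-- `G` preserves the base field `F_N(E)` (input of `hGR`). -/
theorem tres5ff_inst_hGF :
    letI := beta0FieldAlgebra h
    letI := tres5ffAct hq hA h N y hstabI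
    ∀ (g : ↥E ≃ₐ[↥(beta0Field A)] ↥E) (x : ↥(modularFunctionFieldFullC ↥E N)),
      ∃ x' : ↥(modularFunctionFieldFullC ↥E N),
        g • algebraMap ↥(modularFunctionFieldFullC ↥E N) ↥(tres5cL E N y) x
          = algebraMap ↥(modularFunctionFieldFullC ↥E N) ↥(tres5cL E N y) x' ∧
        (x' : LaurentSeries ↥E) =
          coeffMap ((g : ↥E ≃ₐ[↥(beta0Field A)] ↥E) : ↥E →+* ↥E) (x : LaurentSeries ↥E) := by
  letI := beta0FieldAlgebra h
  letI := tres5ffAct hq hA h N y hstabI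
  intro g x
  refine ⟨⟨coeffMap ((g : ↥E ≃ₐ[↥(beta0Field A)] ↥E) : ↥E →+* ↥E) (x : LaurentSeries ↥E),
    nf_coeffMap_mem_fullC _ N x.2⟩, Subtype.ext ?_, rfl⟩
  rw [tres5ffAct_coe hq hA h N y hstabI g, tres5ff_L_algebraMap_coe, tres5ff_L_algebraMap_coe]

/-- **(hρG)** from a bridge between `ρ` on `L_E` and a ring homomorphism `t` on `F′` commuting
with `I` (helper30's `tresdesc_comm`). -/
theorem tres5ff_inst_hρG
    (t : ↥(tres5cField N y) →+* LaurentSeries NfQb)
    (hcomm : ∀ σ ∈ A.inertiaSubgroupIn ℚ, ∀ (x : ↥(tres5cField N y))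
      (hx : coeffMap ((σ : NfQb ≃ₐ[ℚ] NfQb) : NfQb →+* NfQb) (x : LaurentSeries NfQb) ∈
        tres5cField N y),
      t ⟨_, hx⟩ = coeffMap ((σ : NfQb ≃ₐ[ℚ] NfQb) : NfQb →+* NfQb) (t x))
    (ρ : ↥(tres5cL E N y) → ↥(tres5cL E N y))
    (hρ : ∀ x : ↥(tres5cL E N y),
      coeffMap (algebraMap ↥E NfQb) ((ρ x : ↥(tres5cL E N y)) : LaurentSeries ↥E)
        = t (tres5cEmb E N y x)) :
    letI := beta0FieldAlgebra h
    letI := tres5ffAct hq hA h N y hstabI
    ∀ (g : ↥E ≃ₐ[↥(beta0Field A)] ↥E) (x : ↥(tres5cL E N y)), ρ (g • x) = g • ρ x := by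
  letI := beta0FieldAlgebra h
  letI := tres5ffAct hq hA h N y hstabI
  intro g x
  apply Subtype.ext
  rw [tres5ffAct_coe hq hA h N y hstabI g]
  exact tres5ff_comm hq hA h N y t hcomm (g : ↥E ≃+* ↥E) (fun k => g.commutes k) x (g • x)
    (tres5ffAct_coe hq hA h N y hstabI g x) _ _ (hρ x) (hρ (g • x))

/-- `G = Gal(E / K)` is finite if `E / K` is. -/
theorem tres5ff_inst_finite
    (hfin : letI := beta0FieldAlgebra h
      FiniteDimensional ↥(beta0Field A) ↥E) :
    letI := beta0FieldAlgebra h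
    Finite (↥E ≃ₐ[↥(beta0Field A)] ↥E) := by
  letI := beta0FieldAlgebra h
  haveI := hfin
  infer_instance

/-- **K-FORM at a vertical valuation, field-level hypotheses discharged**: helper78's
`tres5c_descend` for `G = Gal(E / K)`, `K = ℚ̄^I`.  What is left: one `G`-stable sheet `W₀`
(FAC-GRED) and `hρG` (`tres5ff_inst_hρG`). -/
theorem tres5ff_descend [NeZero N] (hE : ∀ σ ∈ A.inertiaSubgroupIn ℚ, ∀ x ∈ E, σ x ∈ E)
    (hfin : letI := beta0FieldAlgebra h
      FiniteDimensional ↥(beta0Field A) ↥E)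
    {p : ℕ} {V : ValuationSubring ↥(modularFunctionFieldFullC ↥E N)}
    (S : Tres5Kum ↥(modularFunctionFieldFullC ↥E N) ↥(tres5cL E N y) V p)
    (VK : ValuationSubring ↥(modularFunctionFieldFullC ↥(beta0Field A) N))
    (hVK : VK = V.comap (tres5cBaseIncl N h))
    (πK : ↥(modularFunctionFieldFullC ↥(beta0Field A) N)) (hπK : πK ∈ VK.nonunits)
    (hπK0 : πK ≠ 0)
    (hunifK : ∀ x : ↥(modularFunctionFieldFullC ↥(beta0Field A) N), x ≠ 0 →
      ∃ m : ℤ, VK.valuation (x / πK ^ m) = 1)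
    (hpK : (p : ↥(modularFunctionFieldFullC ↥(beta0Field A) N)) ∈ VK.nonunits)
    (W₀ : ValuationSubring ↥(tres5cL E N y))
    (hW₀ : W₀.comap (algebraMap ↥(modularFunctionFieldFullC ↥E N) ↥(tres5cL E N y)) = V)
    (hGW₀ : letI := beta0FieldAlgebra h
      letI := tres5ffAct hq hA h N y hstabI
      ∀ (g : ↥E ≃ₐ[↥(beta0Field A)] ↥E), ∀ x ∈ W₀, g • x ∈ W₀)
    (hρG : letI := beta0FieldAlgebra h
      letI := tres5ffAct hq hA h N y hstabI
      ∀ (g : ↥E ≃ₐ[↥(beta0Field A)] ↥E) (x : ↥(tres5cL E N y)),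
        S.deck (g • x) = g • S.deck x) :
    ∃ (T : Tres5Gen ↥(modularFunctionFieldFullC ↥(beta0Field A) N)
        ↥(tres5cL (beta0Field A) N y) VK p)
      (ρK : ↥(tres5cL (beta0Field A) N y) →ₐ[↥(modularFunctionFieldFullC ↥(beta0Field A) N)]
        ↥(tres5cL (beta0Field A) N y)),
      T.π = πK ∧ (∀ k, T.c k = ((k : ℕ) : ↥VK)) ∧
      (∀ k < p, tres5cIncl N y h T.z - ((k : ℕ) : ↥(tres5cL E N y)) ∈ (S.gen.W k).nonunits) ∧
      (∀ k < p, T.W k = (S.gen.W k).comap (tres5cIncl N y h)) ∧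
      (∃ k₀ < p, W₀ = S.gen.W k₀ ∧ T.W k₀ = W₀.comap (tres5cIncl N y h)) ∧
      (∀ f : ↥(tres5cL (beta0Field A) N y),
        tres5cIncl N y h (ρK f) = S.deck (tres5cIncl N y h f)) ∧
      (∀ k < p, (T.W k).comap
        (ρK : ↥(tres5cL (beta0Field A) N y) →+* ↥(tres5cL (beta0Field A) N y))
          = T.W ((k + 1) % p)) ∧
      Module.finrank ↥(modularFunctionFieldFullC ↥(beta0Field A) N)
        ↥(tres5cL (beta0Field A) N y) = p ∧
      IntermediateField.adjoin ↥(modularFunctionFieldFullC ↥E N) {tres5cIncl N y h T.z} = ⊤ := by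
  letI := beta0FieldAlgebra h
  letI := tres5ffAct hq hA h N y hstabI
  haveI := tres5ff_inst_finite h hfin
  exact tres5c_descend N y h S VK hVK πK hπK hπK0 hunifK hpK
    (tres5ff_inst_hGLK hq hA h N y hstabI) (tres5ff_inst_hfixL hq hA h N y hstabI hE)
    (tres5ff_inst_hfixF hq hA h N y hstabI hE) W₀ hW₀ hGW₀ hρG

end Inst

end Fermat.Agent.R38

end
end ZBR38_018_4

/-! ### bundled: `Fermat.Agent.R38.TresBigInstPtInv` -/
section ZBR38_018_5
/-
ROW 38, TRES, piece (B-big-pt) (helper13; paired with helper26, `R38/TresBigInstPt.lean`):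
FAC-BIG AT THE CLOSED POINTS OF BOTH CHARTS, in the concrete frame of helper53's `TresKFormInstV`,
helper16's `TresBig` / `TresBigInstV` (`tres5biv_frame`) and helper48's `tres5kd_point`.

Frame: `A ⊂ ℚ̄` a valuation ring over `p`, `K₁` a number field, `E = mgcE A K₁ = ℚ̄^I K₁`,
`A′ = mgcA A K₁` a discrete valuation ring with uniformizer `π`, `ζ ∈ A′` a primitive `p`-th
root of unity, `F_E = mgcF A K₁ (M p)`, `L ⊇ F_E` a Kummer extension `L = F_E(Y)`, `Y ^ p = u₀`,
`u₀` not a `p`-th power, `ρ` an automorphism with `ρ Y = ζ Y`.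

* `tres5bipi_split_deck_abs` : (abstract chart) at a closed point `𝔫` of ANY chart `t'`, from the
  Kummer shape `u / g ^ p − 1 = (ζ − 1) ^ p π y`, `y ∈ atLoc 𝔫`:
  `∃ z P c, Tres5eSplit F z P c ∧ ∀ i, ∃ b ∈ (𝔫, z − c i), ρ z = c (i + 1) + b`
  (= the hypotheses `H`, `hρ` of `tres5kd_point` / `tres5ki_point`);
* `tres5bipi_split_of_shape` : the same in the concrete frame, at the closed points of a chart
  `t'` with `ht' : t' = mgcT A K₁ N ∨ t' = (mgcT A K₁ N)⁻¹` (so that the consumer may take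
  `t' = algebraMap F_K F_E t`, `t = bgJ K N` or `t = (bgJ K N)⁻¹`, WITHOUT transporting `𝔫`),
  from the closed-point clause of `tres5b_bar` / `tres5biv_frame`;
* `tres5bipi_split_kum` : the same for `Y = S.y`, `ρ = S.deck` of a `S : Tres5Kum F_E L V p`
  with `S.ζ = ζ` (`S.w` the model);
* `tres5bipi_split` : the same directly from the hypotheses of `tres5b_bar`
  (`∃ K₀, ∀ K₁ ≥ K₀`);
* `tres5bipi_chart`, `tres5bip_chart_inv` : `tres5cBaseIncl N h` maps `bgJ K N` to `bgJ E N` and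
  `(bgJ K N)⁻¹` to `(bgJ E N)⁻¹` (`K ≤ E`); `tres5bipi_chart_mgc`, `tres5bipi_chart_inv_mgc` : the
  same with values `mgcT A K₁ N`, `(mgcT A K₁ N)⁻¹`; `tres5bipi_chart_or` : the disjunction `ht'`.
-/

set_option autoImplicit false
set_option linter.style.haveILetI false
set_option linter.unusedSectionVars false
set_option linter.unusedVariables false

/- the algebra structure of a subring `O ⊆ F` on `F`: found first (the default search needs
about 9 s per occurrence in the concrete frame; the instance found is the same). -/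
attribute [local instance 100000] Algebra.ofSubsemiring

noncomputable section

namespace Fermat.Agent.R38

open Polynomial IntermediateField ModularCurve AlgebraicCurve
open Fermat.Agent.ES Fermat.Agent.ES.G2 Fermat.Agent.UNIP Fermat.Agent.INJ Fermat.Agent.S33
  Fermat.Agent.STB

/-! ### The abstract chart -/

section Abs

variable {A₀ E F : Type*} [CommRing A₀] [IsDomain A₀] [IsDiscreteValuationRing A₀]
  [Field E] [Algebra A₀ E] [IsFractionRing A₀ E] [CharZero E]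
  [Field F] [Algebra E F] [Algebra A₀ F] [IsScalarTower A₀ E F]
  {π : A₀}

/-- **(B-big-pt), abstract chart.**  At a closed point `𝔫` of the special fibre of a chart `t'`,
the Kummer local shape gives the split situation over `atLoc 𝔫` together with the formula for
a deck transformation `ρ Y = ζ Y`. -/
theorem tres5bipi_split_deck_abs {t' : F} [FiniteDimensional E⟮t'⟯ F] (𝔫 : AtPt (F := F) π t')
    {L : Type*} [Field L] [Algebra F L]
    [IsLocalRing ↥(atLoc 𝔫)] [IsFractionRing ↥(atLoc 𝔫) F] [IsIntegrallyClosed ↥(atLoc 𝔫)]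
    [Algebra ↥(atLoc 𝔫) L] [IsScalarTower ↥(atLoc 𝔫) F L]
    (p : ℕ) [hp : Fact p.Prime] (hpπ : π ∣ (p : A₀)) {ζ : A₀} (hζ : IsPrimitiveRoot ζ p)
    (hlam : π ∣ ζ - 1) {u : F}
    (hshape : ∃ g : F, g ≠ 0 ∧ ∃ y ∈ atLoc 𝔫,
      u / g ^ p - 1 = (algebraMap A₀ F ζ - 1) ^ p * algebraMap A₀ F π * y)
    {Y : L} (hY : Y ^ p = algebraMap F L u)
    (htop : IntermediateField.adjoin F {Y} = ⊤) (hw : ∀ b : F, b ^ p ≠ u)
    (ρ : L ≃ₐ[F] L) (hρ : ρ Y = algebraMap F L (algebraMap A₀ F ζ) * Y) :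
    ∃ (z : L) (P : (↥(atLoc 𝔫))[X]) (c : ZMod p → ↥(atLoc 𝔫)), Tres5eSplit F z P c ∧
      ∀ i : ZMod p, ∃ b ∈ tres5eMax ↥(atLoc 𝔫) z (c i),
        ρ z = algebraMap ↥(atLoc 𝔫) L (c (i + 1)) + (b : L) := by
  obtain ⟨g, hg, y, hy, hu⟩ := hshape
  have hinj : Function.Injective (algebraMap A₀ F) :=
    zch_algebraMap_injective (A₀ := A₀) (E := E)
  have hζ' : IsPrimitiveRoot (⟨algebraMap A₀ F ζ, wab_const_mem_atLoc 𝔫 ζ⟩ : ↥(atLoc 𝔫)) p :=
    IsPrimitiveRoot.of_map_of_injective (f := (atLoc 𝔫).subtype)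
      (hζ.map_of_injective hinj) Subtype.val_injective
  refine ⟨_, _, _, tres5bp_split_atLoc (E := E) 𝔫 p hpπ hζ hlam hg hy hu hY htop hw,
    fun i => ?_⟩
  refine tres5bp_deck p hζ' g ρ ?_ i
  rw [hρ, IsScalarTower.algebraMap_apply ↥(atLoc 𝔫) F L]
  rfl

end Abs

/-! ### The chart coordinates -/

section Chart

variable {K E : IntermediateField ℚ NfQb} (N : ℕ) (h : K ≤ E)

/-- the base change `F_N(K) → F_N(E)` maps `j` to `j` -/
theorem tres5bipi_chart : tres5cBaseIncl N h (bgJ ↥K N) = bgJ ↥E N :=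
  Subtype.ext (map_jqModC _)

/-- the base change `F_N(K) → F_N(E)` maps `1 / j` to `1 / j` -/
theorem tres5bip_chart_inv : tres5cBaseIncl N h (bgJ ↥K N)⁻¹ = (bgJ ↥E N)⁻¹ := by
  rw [map_inv₀, tres5bipi_chart]

end Chart

section ChartMgc

variable (A : ValuationSubring Qb) (K₁ : IntermediateField ℚ Qb) (N : ℕ)
  {K : IntermediateField ℚ Qb} (h : K ≤ mgcE A K₁)

/-- the base change `F_N(K) → F_N(E′)`, `E′ = mgcE A K₁`, maps `j` to the chart coordinate
`mgcT A K₁ N` over `E′`. -/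
theorem tres5bipi_chart_mgc : tres5cBaseIncl N h (bgJ ↥K N) = mgcT A K₁ N :=
  tres5bipi_chart N h

/-- the base change `F_N(K) → F_N(E′)`, `E′ = mgcE A K₁`, maps `1 / j` to the chart coordinate
`(mgcT A K₁ N)⁻¹` of the inverse chart over `E′`. -/
theorem tres5bipi_chart_inv_mgc : tres5cBaseIncl N h (bgJ ↥K N)⁻¹ = (mgcT A K₁ N)⁻¹ :=
  tres5bip_chart_inv N h

/-- the hypothesis `ht'` of `tres5bipi_split_of_shape` for the image of a chart coordinate
`t = j` or `t = 1 / j` of `F_N(K)`. -/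
theorem tres5bipi_chart_or {t : ↥(modularFunctionFieldFullC ↥K N)}
    (ht : t = bgJ ↥K N ∨ t = (bgJ ↥K N)⁻¹) :
    tres5cBaseIncl N h t = mgcT A K₁ N ∨ tres5cBaseIncl N h t = (mgcT A K₁ N)⁻¹ := by
  rcases ht with rfl | rfl
  · exact Or.inl (tres5bipi_chart_mgc A K₁ N h)
  · exact Or.inr (tres5bipi_chart_inv_mgc A K₁ N h)

end ChartMgc

/-! ### The concrete frame -/

section Conc

variable {A : ValuationSubring Qb} {K₁ : IntermediateField ℚ Qb} {M p : ℕ} [NeZero M] [NeZero p]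
  [NeZero (M * p)] [hpF : Fact p.Prime]
  [IsDiscreteValuationRing ↥(mgcA A K₁)] {π : ↥(mgcA A K₁)} (hπ : Irreducible π)

set_option synthInstance.maxHeartbeats 400000 in
set_option maxHeartbeats 1600000 in
include hπ in
/-- **(B-big-pt), both charts, from the shape.**  `hshape` is the closed-point clause of
`tres5b_bar` / `tres5b_field` / `tres5biv_frame`. -/
theorem tres5bipi_split_of_shape (hA : A.LiesOverPrime p)
    {ζ : ↥(mgcA A K₁)} (hζ : IsPrimitiveRoot ζ p)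
    {u₀ : ↥(mgcF A K₁ (M * p))}
    (hshape : ∀ i, ∃ g : ↥(mgcF A K₁ (M * p)), g ≠ 0 ∧ ∃ y ∈ atO π (mgcT A K₁ (M * p)) i,
      u₀ / g ^ p - 1 =
        (algebraMap ↥(mgcA A K₁) ↥(mgcF A K₁ (M * p)) ζ - 1) ^ p *
          algebraMap ↥(mgcA A K₁) ↥(mgcF A K₁ (M * p)) π * y)
    {L : Type*} [Field L] [Algebra ↥(mgcF A K₁ (M * p)) L]
    {Y : L} (hY : Y ^ p = algebraMap ↥(mgcF A K₁ (M * p)) L u₀)
    (htop : IntermediateField.adjoin ↥(mgcF A K₁ (M * p)) {Y} = ⊤)
    (hw : ∀ b : ↥(mgcF A K₁ (M * p)), b ^ p ≠ u₀)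
    (ρ : L ≃ₐ[↥(mgcF A K₁ (M * p))] L)
    (hρ : ρ Y = algebraMap ↥(mgcF A K₁ (M * p)) L
      (algebraMap ↥(mgcA A K₁) ↥(mgcF A K₁ (M * p)) ζ) * Y)
    {t' : ↥(mgcF A K₁ (M * p))}
    (ht' : t' = mgcT A K₁ (M * p) ∨ t' = (mgcT A K₁ (M * p))⁻¹)
    (𝔫 : AtPt (F := ↥(mgcF A K₁ (M * p))) π t')
    [IsLocalRing ↥(atLoc 𝔫)] [IsFractionRing ↥(atLoc 𝔫) ↥(mgcF A K₁ (M * p))]
    [IsIntegrallyClosed ↥(atLoc 𝔫)] [Algebra ↥(atLoc 𝔫) L]
    [IsScalarTower ↥(atLoc 𝔫) ↥(mgcF A K₁ (M * p)) L] :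
    ∃ (z : L) (P : (↥(atLoc 𝔫))[X]) (c : ZMod p → ↥(atLoc 𝔫)),
      Tres5eSplit ↥(mgcF A K₁ (M * p)) z P c ∧
      ∀ i : ZMod p, ∃ b ∈ tres5eMax ↥(atLoc 𝔫) z (c i),
        ρ z = algebraMap ↥(atLoc 𝔫) L (c (i + 1)) + (b : L) := by
  haveI := mgc_finiteDimensional A K₁ (M * p)
  haveI : FiniteDimensional (↥(mgcE A K₁))⟮(mgcT A K₁ (M * p))⁻¹⟯ ↥(mgcF A K₁ (M * p)) :=
    at_finiteDimensional_inv (mgcT A K₁ (M * p))
  rcases ht' with ht' | ht'
  · subst ht'
    exact tres5bipi_split_deck_abs (E := ↥(mgcE A K₁)) 𝔫 p (wmg_dvd_p hπ hA) hζ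
      (wtop_hlam hπ hpF.out hA hζ.pow_eq_one) (hshape (Sum.inl 𝔫)) hY htop hw ρ hρ
  · subst ht'
    exact tres5bipi_split_deck_abs (E := ↥(mgcE A K₁)) 𝔫 p (wmg_dvd_p hπ hA) hζ
      (wtop_hlam hπ hpF.out hA hζ.pow_eq_one) (hshape (Sum.inr 𝔫)) hY htop hw ρ hρ

set_option synthInstance.maxHeartbeats 400000 in
set_option maxHeartbeats 1600000 in
include hπ in
/-- **(B-big-pt), both charts, for a Kummer datum** `S` with `S.ζ = ζ`: `u₀ = S.w`, `Y = S.y`,
`ρ = S.deck`. -/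
theorem tres5bipi_split_kum (hA : A.LiesOverPrime p)
    {ζ : ↥(mgcA A K₁)} (hζ : IsPrimitiveRoot ζ p)
    {L : Type*} [Field L] [Algebra ↥(mgcF A K₁ (M * p)) L]
    {V : ValuationSubring ↥(mgcF A K₁ (M * p))}
    (S : Tres5Kum ↥(mgcF A K₁ (M * p)) L V p)
    (hSζ : S.ζ = algebraMap ↥(mgcA A K₁) ↥(mgcF A K₁ (M * p)) ζ)
    (hshape : ∀ i, ∃ g : ↥(mgcF A K₁ (M * p)), g ≠ 0 ∧ ∃ y ∈ atO π (mgcT A K₁ (M * p)) i,
      S.w / g ^ p - 1 =
        (algebraMap ↥(mgcA A K₁) ↥(mgcF A K₁ (M * p)) ζ - 1) ^ p *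
          algebraMap ↥(mgcA A K₁) ↥(mgcF A K₁ (M * p)) π * y)
    {t' : ↥(mgcF A K₁ (M * p))}
    (ht' : t' = mgcT A K₁ (M * p) ∨ t' = (mgcT A K₁ (M * p))⁻¹)
    (𝔫 : AtPt (F := ↥(mgcF A K₁ (M * p))) π t')
    [IsLocalRing ↥(atLoc 𝔫)] [IsFractionRing ↥(atLoc 𝔫) ↥(mgcF A K₁ (M * p))]
    [IsIntegrallyClosed ↥(atLoc 𝔫)] [Algebra ↥(atLoc 𝔫) L]
    [IsScalarTower ↥(atLoc 𝔫) ↥(mgcF A K₁ (M * p)) L] :
    ∃ (z : L) (P : (↥(atLoc 𝔫))[X]) (c : ZMod p → ↥(atLoc 𝔫)),
      Tres5eSplit ↥(mgcF A K₁ (M * p)) z P c ∧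
      ∀ i : ZMod p, ∃ b ∈ tres5eMax ↥(atLoc 𝔫) z (c i),
        S.deck z = algebraMap ↥(atLoc 𝔫) L (c (i + 1)) + (b : L) :=
  tres5bipi_split_of_shape hπ hA hζ hshape S.hy S.htop S.hw S.deck
    (by rw [S.deck_y, hSζ]) ht' 𝔫

end Conc

/-! ### Directly from the hypotheses of `tres5b_bar` -/

section Bar

variable {p M : ℕ} [NeZero p] [NeZero M] [NeZero (M * p)] [hpF : Fact p.Prime]

set_option synthInstance.maxHeartbeats 400000 in
set_option maxHeartbeats 1600000 in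
/-- **(B-big-pt), both charts, `ℚ̄`-level.**  For a split function `u` of `F̄_{Mp}` with
`p ∣ div u`: over every sufficiently large number field `K₁`, for every model `u₀` of `u` over
`E′ = ℚ̄^I K₁`, every Kummer extension `L = F′(Y)`, `Y ^ p = u₀`, and every deck transformation
`ρ Y = ζ Y`: the split situation and the deck formula at every closed point of the special fibre
of the charts `j` and `1 / j`. -/
theorem tres5bipi_split (hpM : ¬ p ∣ M) (hp3 : 3 ≤ p) (h3 : p = 3 → 2 ∣ M)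
    (A : ValuationSubring Qb) (hA : A.LiesOverPrime p)
    (u : modularFunctionFieldBar (M * p)) (hu : u ≠ 0)
    (hdiv : ∀ P : Place Qb (modularFunctionFieldBar (M * p)), (p : ℤ) ∣ P.ord u)
    (hsplit : IsSplitFn hpF.out hpM A u) :
    ∃ K₀ : IntermediateField ℚ Qb, FiniteDimensional ℚ K₀ ∧
      ∀ (K₁ : IntermediateField ℚ Qb), K₀ ≤ K₁ → ∀ [NumberField K₁] [IsGalois ℚ K₁]
        [IsDiscreteValuationRing ↥(mgcA A K₁)] {π : ↥(mgcA A K₁)} (_ : Irreducible π)
        {ζ : ↥(mgcA A K₁)}, IsPrimitiveRoot ζ p →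
        (∃ u₀ : ↥(mgcF A K₁ (M * p)), nfEmb (mgcE A K₁) (M * p) u₀ = u) ∧
        ∀ u₀ : ↥(mgcF A K₁ (M * p)), nfEmb (mgcE A K₁) (M * p) u₀ = u →
        ∀ {L : Type*} [Field L] [Algebra ↥(mgcF A K₁ (M * p)) L] {Y : L},
          Y ^ p = algebraMap ↥(mgcF A K₁ (M * p)) L u₀ →
          IntermediateField.adjoin ↥(mgcF A K₁ (M * p)) {Y} = ⊤ →
          (∀ b : ↥(mgcF A K₁ (M * p)), b ^ p ≠ u₀) →
        ∀ ρ : L ≃ₐ[↥(mgcF A K₁ (M * p))] L,
          ρ Y = algebraMap ↥(mgcF A K₁ (M * p)) L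
            (algebraMap ↥(mgcA A K₁) ↥(mgcF A K₁ (M * p)) ζ) * Y →
        ∀ {t' : ↥(mgcF A K₁ (M * p))},
          t' = mgcT A K₁ (M * p) ∨ t' = (mgcT A K₁ (M * p))⁻¹ →
        ∀ (𝔫 : AtPt (F := ↥(mgcF A K₁ (M * p))) π t')
          [IsLocalRing ↥(atLoc 𝔫)] [IsFractionRing ↥(atLoc 𝔫) ↥(mgcF A K₁ (M * p))]
          [IsIntegrallyClosed ↥(atLoc 𝔫)] [Algebra ↥(atLoc 𝔫) L]
          [IsScalarTower ↥(atLoc 𝔫) ↥(mgcF A K₁ (M * p)) L],
          ∃ (z : L) (P : (↥(atLoc 𝔫))[X]) (c : ZMod p → ↥(atLoc 𝔫)),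
            Tres5eSplit ↥(mgcF A K₁ (M * p)) z P c ∧
            ∀ i : ZMod p, ∃ b ∈ tres5eMax ↥(atLoc 𝔫) z (c i),
              ρ z = algebraMap ↥(atLoc 𝔫) L (c (i + 1)) + (b : L) := by
  obtain ⟨K₀, hK₀, hbar⟩ := tres5b_bar hpF.out hpM hp3 h3 A hA u hu hdiv hsplit
  refine ⟨K₀, hK₀, fun K₁ hK₁ _ _ _ π hπ ζ hζ => ?_⟩
  obtain ⟨hex, hall⟩ := hbar K₁ hK₁ hπ hζ
  refine ⟨hex, fun u₀ hu₀ L _ _ Y hY htop hw ρ hρ t' ht' 𝔫 _ _ _ _ _ => ?_⟩
  exact tres5bipi_split_of_shape hπ hA hζ (hall u₀ hu₀).2 hY htop hw ρ hρ ht' 𝔫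

end Bar

end Fermat.Agent.R38

end


end ZBR38_018_5

/-! ### bundled: `Fermat.Agent.R38.TresKFormPt` -/
section ZBR38_018_6
/-
ROW 38, TRES, piece FAC-KFORM (helper53), part 3: DESCENT OF THE SPLIT STRUCTURE AT A CLOSED POINT.

`H : Tres5eSplit F z P c` (helper28, `R38/TresEtale.lean`) is the split structure of the cover at a
closed point over a BIG field: `R` local normal with fraction field `F`, `L = F[z]` of prime degree
`p`, `R[z]` the integral closure, with maximal ideals `𝔐 i = (𝔫, z − c i)`, `i ∈ ZMod p`.  A finite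
group `G` acts on `L`, preserves `R`, fixes ONE `𝔐 i₀` and commutes with the deck transformation
`ρ` (`ρ z ≡ c (i + 1)` mod `𝔐 i`).  `LK = L^G`, `FK = F ∩ LK`, `RK = R ∩ FK`.  Then `LK / FK` has the
split structure `Tres5eSplit FK zK PK cK` at `RK`, for any `cK : ZMod p → RK` pairwise distinct
modulo `𝔫_K`.

* `tres5kp_pou`        : partition of unity by norms in a semi-local ring (any finite group).
* `tres5kp_poly_congr` : `∏ (X − ρ^m z′) ≡ ∏ (X − ĉ m)` modulo `I` if `ρ^m z′ ≡ ĉ m`.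
* `tres5kp_descend'`   : the descent (`tres5kp_descend`: with the redundant hypothesis
  `[LK : FK] = p`).
* `tres5kp_fixed_of_val` : a `G`-stable valuation ring of `L` dominating `R` gives the fixed `𝔐 i₀`.
* `tres5kp_fixed_of_center` : a `G`-stable valuation ring whose centre on `R[z]` lies in exactly
  one `𝔐 i₀` gives the fixed `𝔐 i₀` (glue for FAC-FIX, the Gauss sheet).
-/

set_option autoImplicit false
set_option linter.style.haveILetI false

namespace Fermat.Agent.R38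

open Polynomial

/-! ### Partition of unity in a semi-local ring -/

section Pou

variable {Λ : Type*} [CommRing Λ] {G : Type*} [Group G] [Finite G] [MulSemiringAction G Λ]

/-- **Partition of unity by norms.**  `Λ` is semi-local with maximal ideals `𝔫 i`, all stable under
the finite group `G`.  Then there are `G`-invariant `e i` with `e i ≡ 1` mod `𝔫 i` and
`e i ∈ 𝔫 j` for `j ≠ i`. -/
theorem tres5kp_pou {ι : Type*} [Fintype ι] (𝔫 : ι → Ideal Λ)
    (hmax : ∀ i, (𝔫 i).IsMaximal) (hinj : Function.Injective 𝔫)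
    (hall : ∀ 𝔐 : Ideal Λ, 𝔐.IsMaximal → ∃ i, 𝔐 = 𝔫 i)
    (hG : ∀ (g : G) i x, x ∈ 𝔫 i → g • x ∈ 𝔫 i) :
    ∃ e : ι → Λ, (∀ i (g : G), g • e i = e i) ∧ (∀ i, e i - 1 ∈ 𝔫 i) ∧
      (∀ i j, j ≠ i → e i ∈ 𝔫 j) := by
  classical
  cases nonempty_fintype G
  have hprime : ∀ i, (𝔫 i).IsPrime := fun i => (hmax i).isPrime
  -- separating elements
  have hsep : ∀ i j, j ≠ i → ∃ a, a ∈ 𝔫 j ∧ a ∉ 𝔫 i := by
    intro i j hji
    by_contra hno
    have hle : 𝔫 j ≤ 𝔫 i := by
      intro a ha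
      by_contra hai
      exact hno ⟨a, ha, hai⟩
    exact hji (hinj ((hmax j).eq_of_le (hmax i).ne_top hle))
  choose a ha1 ha2 using hsep
  -- `E i = ∏_{j ≠ i} a i j`
  set E : ι → Λ := fun i => ∏ j ∈ Finset.univ.erase i, (if h : j ≠ i then a i j h else 1)
    with hE
  have hE1 : ∀ i, E i ∉ 𝔫 i := by
    intro i h
    haveI := hprime i
    obtain ⟨j, hj, hj'⟩ := (Ideal.IsPrime.prod_mem_iff).mp h
    have hji : j ≠ i := (Finset.mem_erase.1 hj).1
    rw [dif_pos hji] at hj'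
    exact ha2 i j hji hj'
  have hE0 : ∀ i j, j ≠ i → E i ∈ 𝔫 j := by
    intro i j hji
    rw [hE]
    change ∏ k ∈ Finset.univ.erase i, (if h : k ≠ i then a i k h else 1) ∈ 𝔫 j
    obtain ⟨d, hd⟩ := Finset.dvd_prod_of_mem (fun k => if h : k ≠ i then a i k h else 1)
      (Finset.mem_erase.2 ⟨hji, Finset.mem_univ j⟩)
    rw [hd, dif_pos hji]
    exact (𝔫 j).mul_mem_right _ (ha1 i j hji)
  have hN1 : ∀ i, tres5kNorm G (E i) ∉ 𝔫 i := fun i => by
    haveI := hprime i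
    exact tres5k_norm_notMem (𝔫 i) (fun g x hx => hG g i x hx) (hE1 i)
  have hN0 : ∀ i j, j ≠ i → tres5kNorm G (E i) ∈ 𝔫 j := fun i j hji =>
    tres5k_norm_mem (𝔫 j) (hE0 i j hji)
  have hrest : ∀ i, ∑ j ∈ Finset.univ.erase i, tres5kNorm G (E j) ∈ 𝔫 i := by
    intro i
    refine (𝔫 i).sum_mem fun j hj => ?_
    exact hN0 j i (Ne.symm (Finset.mem_erase.1 hj).1)
  have hsplit : ∀ i, ∑ j, tres5kNorm G (E j) =
      tres5kNorm G (E i) + ∑ j ∈ Finset.univ.erase i, tres5kNorm G (E j) := fun i =>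
    (Finset.add_sum_erase Finset.univ (fun j => tres5kNorm G (E j)) (Finset.mem_univ i)).symm
  have hT1 : ∀ i, ∑ j, tres5kNorm G (E j) ∉ 𝔫 i := by
    intro i h
    rw [hsplit i] at h
    exact hN1 i ((Ideal.add_mem_iff_left _ (hrest i)).1 h)
  have hTu : IsUnit (∑ j, tres5kNorm G (E j)) := by
    by_contra hnu
    obtain ⟨𝔐, h𝔐, hmem⟩ := exists_max_ideal_of_mem_nonunits hnu
    obtain ⟨i, rfl⟩ := hall 𝔐 h𝔐
    exact hT1 i hmem
  obtain ⟨u, hu⟩ := hTu
  have hTG : ∀ g : G, g • (∑ j, tres5kNorm G (E j)) = ∑ j, tres5kNorm G (E j) := by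
    intro g
    rw [Finset.smul_sum]
    exact Finset.sum_congr rfl fun j _ => tres5k_norm_smul g (E j)
  have huG : ∀ g : G, g • ((u⁻¹ : Λˣ) : Λ) = ((u⁻¹ : Λˣ) : Λ) := by
    intro g
    have h1 : (u : Λ) * (g • ((u⁻¹ : Λˣ) : Λ)) = 1 := by
      have := congrArg (fun x => g • x) (Units.mul_inv u)
      simp only [smul_mul', smul_one] at this
      rwa [hu, hTG, ← hu] at this
    calc g • ((u⁻¹ : Λˣ) : Λ) = ((u⁻¹ : Λˣ) : Λ) * ((u : Λ) * (g • ((u⁻¹ : Λˣ) : Λ))) := by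
          rw [← mul_assoc, Units.inv_mul, one_mul]
      _ = ((u⁻¹ : Λˣ) : Λ) := by rw [h1, mul_one]
  refine ⟨fun i => tres5kNorm G (E i) * ((u⁻¹ : Λˣ) : Λ), ?_, ?_, ?_⟩
  · intro i g
    change g • (_ * _) = _ * _
    rw [smul_mul', tres5k_norm_smul, huG]
  · intro i
    have e : tres5kNorm G (E i) * ((u⁻¹ : Λˣ) : Λ) - 1 =
        -(∑ j ∈ Finset.univ.erase i, tres5kNorm G (E j)) * ((u⁻¹ : Λˣ) : Λ) := by
      have h1 : (1 : Λ) = (∑ j, tres5kNorm G (E j)) * ((u⁻¹ : Λˣ) : Λ) := by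
        rw [← hu, Units.mul_inv]
      conv_lhs => rw [h1, hsplit i]
      ring
    change tres5kNorm G (E i) * ((u⁻¹ : Λˣ) : Λ) - 1 ∈ 𝔫 i
    rw [e]
    exact (𝔫 i).mul_mem_right _ ((𝔫 i).neg_mem (hrest i))
  · intro i j hji
    exact (𝔫 j).mul_mem_right _ (hN0 i j hji)

end Pou

/-! ### The polynomial modulo an ideal -/

section Congr

variable {Λ : Type*} [CommRing Λ] {p : ℕ} [hp : Fact p.Prime]

/-- `∏ (X − ρ^m z′) ≡ ∏ (X − ĉ m)` modulo `I` if `ρ^m z′ ≡ ĉ m` modulo `I`. -/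
theorem tres5kp_poly_congr (I : Ideal Λ) (ρ : Λ → Λ) (z' : Λ) (c' : ZMod p → Λ)
    (h : ∀ m : ZMod p, ρ^[m.val] z' - c' m ∈ I) (n : ℕ) :
    (tres5kPoly ρ p z' - ∏ m : ZMod p, (X - C (c' m))).coeff n ∈ I := by
  rw [← Ideal.Quotient.eq_zero_iff_mem, ← Polynomial.coeff_map, Polynomial.map_sub]
  have e : (tres5kPoly ρ p z').map (Ideal.Quotient.mk I) =
      (∏ m : ZMod p, (X - C (c' m))).map (Ideal.Quotient.mk I) := by
    unfold tres5kPoly
    rw [Polynomial.map_prod, Polynomial.map_prod]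
    refine Finset.prod_congr rfl fun m _ => ?_
    rw [Polynomial.map_sub, Polynomial.map_sub, map_X, map_C, map_C]
    congr 2
    rw [← sub_eq_zero, ← map_sub, Ideal.Quotient.eq_zero_iff_mem]
    exact h m
  rw [e, sub_self, coeff_zero]

end Congr

/-! ### The descent at a closed point -/

section Descend

variable {R F L RK FK LK : Type*}
  [CommRing R] [IsDomain R] [Field F] [Field L] [Algebra R F] [IsFractionRing R F]
  [IsIntegrallyClosed R] [IsLocalRing R] [Algebra F L] [Algebra R L] [IsScalarTower R F L]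
  [CommRing RK] [IsDomain RK] [Field FK] [Field LK] [Algebra RK FK] [IsFractionRing RK FK]
  [IsIntegrallyClosed RK] [IsLocalRing RK] [Algebra FK LK] [Algebra RK LK]
  [IsScalarTower RK FK LK]
  [Algebra FK F] [Algebra LK L] [Algebra FK L] [IsScalarTower FK LK L] [IsScalarTower FK F L]
  {ι : Type*} [Fintype ι] {p : ℕ}

omit [IsDomain RK] [IsFractionRing RK FK] [IsIntegrallyClosed RK] [IsLocalRing RK]
  [CommRing RK] [Field FK] [Field LK] [Algebra RK FK] [Algebra FK LK] [Algebra RK LK]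
  [IsScalarTower RK FK LK] [Algebra FK F] [Algebra LK L] [Algebra FK L] [IsScalarTower FK LK L]
  [IsScalarTower FK F L] in
/-- a group preserving `R` preserves `R[z]` (the integral closure of `R` in `L`) -/
theorem tres5kp_smul_mem {G : Type*} [Group G] [MulSemiringAction G L] {z : L} {P : R[X]}
    {c : ι → R} (H : Tres5eSplit F z P c)
    (hGR : ∀ (g : G) (r : R), ∃ r' : R, g • algebraMap R L r = algebraMap R L r')
    (g : G) {x : L} (hx : x ∈ Algebra.adjoin R ({z} : Set L)) :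
    g • x ∈ Algebra.adjoin R ({z} : Set L) := by
  refine H.integral_mem ?_
  have hxi : IsIntegral R x := tres5e_isIntegral_of_mem H.isIntegral hx
  choose φ hφ using hGR g
  have hinj : Function.Injective (algebraMap R L) := tres5e_algebraMap_injective R F L
  let φr : R →+* R :=
    { toFun := φ
      map_one' := hinj (by rw [← hφ, map_one, smul_one])
      map_mul' := fun a b => hinj (by rw [← hφ, map_mul, map_mul, smul_mul', hφ, hφ])
      map_zero' := hinj (by rw [← hφ, map_zero, smul_zero])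
      map_add' := fun a b => hinj (by rw [← hφ, map_add, map_add, smul_add, hφ, hφ]) }
  exact IsIntegral.map_of_comp_eq φr (MulSemiringAction.toRingHom G L g)
    (by
      ext r
      exact (hφ r).symm) hxi

variable [hp : Fact p.Prime]

/-- **K-FORM at a closed point: the descent of the split structure.** -/
theorem tres5kp_descend' {z : L} {P : R[X]} {c : ZMod p → R} (H : Tres5eSplit F z P c)
    (hfin : Module.finrank F L = p)
    {G : Type*} [Group G] [Finite G] [MulSemiringAction G L]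
    (j₀ : RK →+* R)
    (hj₀ : ∀ r : RK, algebraMap R F (j₀ r) = algebraMap FK F (algebraMap RK FK r))
    (hRK : ∀ (x : FK) (r : R), algebraMap R F r = algebraMap FK F x →
      ∃ rK : RK, algebraMap RK FK rK = x)
    (cK : ZMod p → RK) (hcK : ∀ i j, i ≠ j → IsUnit (cK i - cK j))
    (hGLK : ∀ (g : G) (y : LK), g • algebraMap LK L y = algebraMap LK L y)
    (hfixL : ∀ x : L, (∀ g : G, g • x = x) → ∃ y : LK, algebraMap LK L y = x)
    (hfixF : ∀ x : F, (∀ g : G, g • algebraMap F L x = algebraMap F L x) →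
      ∃ y : FK, algebraMap FK F y = x)
    (hGR : ∀ (g : G) (r : R), ∃ r' : R, g • algebraMap R L r = algebraMap R L r')
    (i₀ : ZMod p)
    (hG0 : ∀ (g : G) (b : ↥(Algebra.adjoin R ({z} : Set L))), b ∈ tres5eMax R z (c i₀) →
      ∃ b' ∈ tres5eMax R z (c i₀), (b' : L) = g • (b : L))
    (ρ : L ≃ₐ[F] L) (hρG : ∀ (g : G) x, ρ (g • x) = g • ρ x)
    (hρ : ∀ i : ZMod p, ∃ b ∈ tres5eMax R z (c i),
      ρ z = algebraMap R L (c (i + 1)) + (b : L)) :
    ∃ (zK : LK) (PK : RK[X]), Tres5eSplit FK zK PK cK ∧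
      (∀ i, ∃ b ∈ tres5eMax R z (c i),
        algebraMap LK L zK = algebraMap R L (j₀ (cK i)) + (b : L)) ∧
      Module.finrank FK LK = p ∧ ρ (algebraMap LK L zK) ≠ algebraMap LK L zK := by
  classical
  have hp1 : Fact (1 < p) := ⟨hp.out.one_lt⟩
  have hp0 : 0 < p := hp.out.pos
  have hGΛ : ∀ (g : G) {x : L}, x ∈ Algebra.adjoin R ({z} : Set L) →
      g • x ∈ Algebra.adjoin R ({z} : Set L) := fun g x hx => tres5kp_smul_mem H hGR g hx
  -- the action on `R[z]`
  letI actΛ : MulSemiringAction G ↥(Algebra.adjoin R ({z} : Set L)) :=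
    { smul := fun g b => ⟨g • (b : L), hGΛ g b.2⟩
      one_smul := fun b => Subtype.ext (one_smul G (b : L))
      mul_smul := fun g h b => Subtype.ext (mul_smul g h (b : L))
      smul_zero := fun g => Subtype.ext (smul_zero g)
      smul_add := fun g a b => Subtype.ext (smul_add g (a : L) (b : L))
      smul_one := fun g => Subtype.ext (smul_one g)
      smul_mul := fun g a b => Subtype.ext (smul_mul' g (a : L) (b : L)) }
  have hact : ∀ (g : G) (b : ↥(Algebra.adjoin R ({z} : Set L))),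
      ((g • b : ↥(Algebra.adjoin R ({z} : Set L))) : L) = g • (b : L) := fun _ _ => rfl
  -- the deck transformation on `R[z]`
  have hdeck : ∀ (i : ZMod p) (b : ↥(Algebra.adjoin R ({z} : Set L))),
      b ∈ tres5eMax R z (c (i + 1)) ↔ H.mapAdj ρ b ∈ tres5eMax R z (c i) := fun i b =>
    H.deck_max i (i + 1) ρ (hρ i) b
  have hρΛG : ∀ (g : G) (b : ↥(Algebra.adjoin R ({z} : Set L))),
      H.mapAdj ρ (g • b) = g • H.mapAdj ρ b := fun g b => Subtype.ext (hρG g (b : L))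
  -- `G` fixes every maximal ideal
  have hG0' : ∀ (g : G) (b : ↥(Algebra.adjoin R ({z} : Set L))),
      b ∈ tres5eMax R z (c i₀) → g • b ∈ tres5eMax R z (c i₀) := by
    intro g b hb
    obtain ⟨b', hb', hbb⟩ := hG0 g b hb
    have : g • b = b' := Subtype.ext hbb.symm
    rw [this]
    exact hb'
  have hGn : ∀ (n : ℕ) (g : G) (b : ↥(Algebra.adjoin R ({z} : Set L))),
      b ∈ tres5eMax R z (c (i₀ + n)) → g • b ∈ tres5eMax R z (c (i₀ + n)) := by
    intro n
    induction n with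
    | zero =>
      intro g b hb
      rw [Nat.cast_zero, add_zero] at hb ⊢
      exact hG0' g b hb
    | succ n ih =>
      intro g b hb
      rw [Nat.cast_succ, ← add_assoc] at hb ⊢
      rw [hdeck] at hb ⊢
      rw [hρΛG]
      exact ih g _ hb
  have hGall : ∀ (g : G) (i : ZMod p) (b : ↥(Algebra.adjoin R ({z} : Set L))),
      b ∈ tres5eMax R z (c i) → g • b ∈ tres5eMax R z (c i) := by
    intro g i b hb
    have e : i = i₀ + (((i - i₀).val : ℕ) : ZMod p) := by
      rw [ZMod.natCast_zmod_val]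
      ring
    rw [e] at hb ⊢
    exact hGn _ g b hb
  -- the partition of unity
  obtain ⟨e, heG, he1, he0⟩ := tres5kp_pou (G := G) (fun i : ZMod p => tres5eMax R z (c i))
    H.isMaximal (fun i j h => H.max_injective h)
    (fun 𝔐' h => by
      haveI := h
      exact H.exists_eq_of_isMaximal 𝔐') hGall
  -- the embedding of `RK`
  set jΛ : RK →+* ↥(Algebra.adjoin R ({z} : Set L)) :=
    (algebraMap R ↥(Algebra.adjoin R ({z} : Set L))).comp j₀ with hjΛ
  have hjΛR : ∀ r : RK, ((jΛ r : ↥(Algebra.adjoin R ({z} : Set L))) : L) =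
      algebraMap R L (j₀ r) := fun r => rfl
  have hjΛF : ∀ r : RK, ((jΛ r : ↥(Algebra.adjoin R ({z} : Set L))) : L) =
      algebraMap F L (algebraMap FK F (algebraMap RK FK r)) := fun r => by
    rw [hjΛR, IsScalarTower.algebraMap_apply R F L, hj₀]
  have hjΛL : ∀ r : RK, ((jΛ r : ↥(Algebra.adjoin R ({z} : Set L))) : L) =
      algebraMap LK L (algebraMap RK LK r) := fun r => by
    rw [hjΛF, ← IsScalarTower.algebraMap_apply FK F L, IsScalarTower.algebraMap_apply FK LK L,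
      ← IsScalarTower.algebraMap_apply RK FK LK]
  have hjΛG : ∀ (g : G) (r : RK), g • jΛ r = jΛ r := fun g r =>
    Subtype.ext (by rw [hact, hjΛL]; exact hGLK g _)
  have hjΛρ : ∀ r : RK, H.mapAdj ρ (jΛ r) = jΛ r := fun r => H.mapAdj_algebraMap ρ (j₀ r)
  have hjΛmem : ∀ (i : ZMod p) (r : RK), jΛ r ∈ tres5eMax R z (c i) →
      j₀ r ∈ IsLocalRing.maximalIdeal R := fun i r h =>
    (tres5e_algebraMap_mem_max F H.isIntegral (c i) (H.eval_mem i) (j₀ r)).1 h
  -- the invariant generator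
  set z' : ↥(Algebra.adjoin R ({z} : Set L)) := ∑ i, jΛ (cK i) * e i with hz'
  have hz'G : ∀ g : G, g • z' = z' := by
    intro g
    rw [hz', Finset.smul_sum]
    refine Finset.sum_congr rfl fun k _ => ?_
    rw [smul_mul', hjΛG, heG]
  have hz'𝔐 : ∀ i, z' - jΛ (cK i) ∈ tres5eMax R z (c i) := by
    intro i
    have e1 : z' - jΛ (cK i) = jΛ (cK i) * (e i - 1) +
        ∑ j ∈ Finset.univ.erase i, jΛ (cK j) * e j := by
      rw [hz', ← Finset.add_sum_erase Finset.univ _ (Finset.mem_univ i)]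
      ring
    rw [e1]
    refine Ideal.add_mem _ (Ideal.mul_mem_left _ _ (he1 i)) (Ideal.sum_mem _ fun j hj => ?_)
    exact Ideal.mul_mem_left _ _ (he0 j i (Ne.symm (Finset.mem_erase.1 hj).1))
  obtain ⟨zK, hzK⟩ := hfixL (z' : L) (fun g => congrArg Subtype.val (hz'G g))
  -- Galois theory of `ρ`
  have hρne : ρ ≠ 1 := by
    intro h1
    have h2 : tres5eMax R z (c ((0 : ZMod p) + 1)) = tres5eMax R z (c 0) := by
      ext b
      rw [hdeck 0 b]
      have : H.mapAdj ρ b = b := Subtype.ext (by rw [Tres5eSplit.mapAdj_coe, h1]; rfl)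
      rw [this]
    have h3 := H.max_injective h2
    rw [zero_add] at h3
    exact one_ne_zero h3
  obtain ⟨hρp, hρfix⟩ := tres5k_deck_galois hp.out hfin ρ hρne
  have hρiter : ∀ (n : ℕ) (b : ↥(Algebra.adjoin R ({z} : Set L))),
      (((⇑(H.mapAdj ρ))^[n] b : ↥(Algebra.adjoin R ({z} : Set L))) : L) = (ρ ^ n) (b : L) := by
    intro n b
    induction n with
    | zero => simp
    | succ n ih =>
      rw [Function.iterate_succ_apply', Tres5eSplit.mapAdj_coe, ih, pow_succ',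
        AlgEquiv.mul_apply]
  have hρper : (⇑(H.mapAdj ρ))^[p] z' = z' :=
    Subtype.ext (by rw [hρiter, hρp, AlgEquiv.one_apply])
  have hρΛiter : ∀ (n : ℕ) (i : ZMod p) (b : ↥(Algebra.adjoin R ({z} : Set L))),
      b ∈ tres5eMax R z (c (i + n)) → (⇑(H.mapAdj ρ))^[n] b ∈ tres5eMax R z (c i) := by
    intro n
    induction n with
    | zero =>
      intro i b hb
      rw [Nat.cast_zero, add_zero] at hb
      exact hb
    | succ n ih =>
      intro i b hb
      rw [Function.iterate_succ_apply', ← hdeck]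
      refine ih (i + 1) b ?_
      rw [Nat.cast_succ] at hb
      have e : i + 1 + (n : ZMod p) = i + ((n : ZMod p) + 1) := by ring
      rw [e]
      exact hb
  have hρsub : ∀ (r : RK) (n : ℕ) (x : ↥(Algebra.adjoin R ({z} : Set L))),
      (⇑(H.mapAdj ρ))^[n] (x - jΛ r) = (⇑(H.mapAdj ρ))^[n] x - jΛ r := by
    intro r n x
    induction n with
    | zero => rfl
    | succ n ih =>
      rw [Function.iterate_succ_apply', ih, Function.iterate_succ_apply', map_sub, hjΛρ]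
  have hρz : ∀ m : ZMod p, (⇑(H.mapAdj ρ))^[m.val] z' - jΛ (cK m) ∈ tres5eMax R z (c 0) := by
    intro m
    have h1 := hρΛiter m.val 0 (z' - jΛ (cK m))
      (by rw [zero_add, ZMod.natCast_zmod_val]; exact hz'𝔐 m)
    rwa [hρsub] at h1
  -- the degree
  have hz'ρ : ρ (z' : L) ≠ (z' : L) := by
    intro h1
    have h2 : H.mapAdj ρ z' = z' := Subtype.ext (by rw [Tres5eSplit.mapAdj_coe, h1])
    have h3 := hρz 1
    rw [ZMod.val_one, Function.iterate_one, h2] at h3
    have h6 := Ideal.sub_mem _ (hz'𝔐 0) h3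
    have e : z' - jΛ (cK 0) - (z' - jΛ (cK 1)) = jΛ (cK 1 - cK 0) := by
      rw [map_sub]
      ring
    rw [e] at h6
    have h7 := hjΛmem 0 _ h6
    exact (IsLocalRing.mem_maximalIdeal _).1 h7 ((hcK 1 0 one_ne_zero).map j₀)
  have hfinK : Module.finrank FK LK = p :=
    tres5k_finrank_of_gen hp.out hfin hGLK hfixL hfixF (ρ : L →ₐ[F] L)
      (fun g x => hρG g x) (z' : L) (fun g => congrArg Subtype.val (hz'G g)) hz'ρ
  -- the polynomial
  have hPLmonic : (tres5kPoly (⇑(H.mapAdj ρ)) p z').Monic := tres5k_poly_monic _ _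
  have hPLroot : (tres5kPoly (⇑(H.mapAdj ρ)) p z').eval z' = 0 := tres5k_poly_root _ _
  have hPLρ : (tres5kPoly (⇑(H.mapAdj ρ)) p z').map (H.mapAdj ρ) =
      tres5kPoly (⇑(H.mapAdj ρ)) p z' := tres5k_poly_map_deck (H.mapAdj ρ) z' hρper
  have hPLG : ∀ g : G, (tres5kPoly (⇑(H.mapAdj ρ)) p z').map
      (MulSemiringAction.toRingHom G ↥(Algebra.adjoin R ({z} : Set L)) g) =
      tres5kPoly (⇑(H.mapAdj ρ)) p z' := fun g =>
    tres5k_poly_map_comm (⇑(H.mapAdj ρ)) (MulSemiringAction.toRingHom G _ g) z' (hz'G g)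
      (fun x => (hρΛG g x).symm)
  have hcoefρ : ∀ n, H.mapAdj ρ ((tres5kPoly (⇑(H.mapAdj ρ)) p z').coeff n) =
      (tres5kPoly (⇑(H.mapAdj ρ)) p z').coeff n := by
    intro n
    have := congrArg (fun Q => Q.coeff n) hPLρ
    simp only [Polynomial.coeff_map] at this
    exact this
  have hcoefG : ∀ (g : G) n, g • (tres5kPoly (⇑(H.mapAdj ρ)) p z').coeff n =
      (tres5kPoly (⇑(H.mapAdj ρ)) p z').coeff n := by
    intro g n
    have := congrArg (fun Q => Q.coeff n) (hPLG g)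
    simp only [Polynomial.coeff_map] at this
    exact this
  have hcoefK : ∀ n, (tres5kPoly (⇑(H.mapAdj ρ)) p z').coeff n ∈ Set.range jΛ := by
    intro n
    obtain ⟨f, hf⟩ := hρfix _ (congrArg Subtype.val (hcoefρ n))
    obtain ⟨k, hk⟩ := hfixF f (fun g => by
      rw [hf]
      exact congrArg Subtype.val (hcoefG g n))
    obtain ⟨r, hr⟩ := H.inter_base f (by
      rw [hf]
      exact ((tres5kPoly (⇑(H.mapAdj ρ)) p z').coeff n).2)
    obtain ⟨rK, hrK⟩ := hRK k r (hr.trans hk.symm)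
    refine ⟨rK, Subtype.ext ?_⟩
    rw [hjΛF, hrK, hk, hf]
    rfl
  obtain ⟨PK, hPKmap, hPKdeg, hPKmonic⟩ := Polynomial.lifts_and_natDegree_eq_and_monic
    ((Polynomial.lifts_iff_coeff_lifts _).2 hcoefK) hPLmonic
  rw [tres5k_poly_natDegree] at hPKdeg
  -- the reduction
  have hred : ∀ n, (PK - ∏ i, (X - C (cK i))).coeff n ∈ IsLocalRing.maximalIdeal RK := by
    intro n
    have h1 := tres5kp_poly_congr (tres5eMax R z (c 0)) (⇑(H.mapAdj ρ)) z'
      (fun m => jΛ (cK m)) hρz n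
    have h2 : jΛ ((PK - ∏ i, (X - C (cK i))).coeff n) =
        (tres5kPoly (⇑(H.mapAdj ρ)) p z' - ∏ m : ZMod p, (X - C (jΛ (cK m)))).coeff n := by
      rw [← Polynomial.coeff_map, Polynomial.map_sub, hPKmap, Polynomial.map_prod]
      congr 2
      refine Finset.prod_congr rfl fun m _ => ?_
      rw [Polynomial.map_sub, map_X, map_C]
    rw [← h2] at h1
    have h3 := hjΛmem 0 _ h1
    by_contra hnot
    have hu : IsUnit ((PK - ∏ i, (X - C (cK i))).coeff n) := by
      by_contra hnu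
      exact hnot ((IsLocalRing.mem_maximalIdeal _).2 hnu)
    exact (IsLocalRing.mem_maximalIdeal _).1 h3 (hu.map j₀)
  -- the root
  have hcompL : (algebraMap LK L).comp (algebraMap RK LK) =
      ((Algebra.adjoin R ({z} : Set L)).val : _ →+* L).comp jΛ := by
    ext r
    exact (hjΛL r).symm
  have hroot : aeval zK PK = 0 := by
    apply (algebraMap LK L).injective
    rw [map_zero, aeval_def, Polynomial.hom_eval₂, hzK, hcompL]
    have h1 : (z' : L) = ((Algebra.adjoin R ({z} : Set L)).val : _ →+* L) z' := rfl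
    rw [h1, ← Polynomial.hom_eval₂, ← Polynomial.eval_map, hPKmap, hPLroot, map_zero]
  -- the generator generates
  have hzKnot : zK ∉ (⊥ : IntermediateField FK LK) := by
    intro h
    rw [IntermediateField.mem_bot] at h
    obtain ⟨a, ha⟩ := h
    have h1 : (z' : L) = algebraMap F L (algebraMap FK F a) := by
      rw [← hzK, ← ha, ← IsScalarTower.algebraMap_apply, ← IsScalarTower.algebraMap_apply]
    have h2 : H.mapAdj ρ z' = z' :=
      Subtype.ext (by rw [Tres5eSplit.mapAdj_coe, h1, AlgEquiv.commutes])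
    have h3 := hρz 1
    rw [ZMod.val_one, Function.iterate_one, h2] at h3
    have h5 := hz'𝔐 0
    have h6 := Ideal.sub_mem _ h5 h3
    have e : z' - jΛ (cK 0) - (z' - jΛ (cK 1)) = jΛ (cK 1 - cK 0) := by
      rw [map_sub]
      ring
    rw [e] at h6
    have h7 := hjΛmem 0 _ h6
    exact (IsLocalRing.mem_maximalIdeal _).1 h7 ((hcK 1 0 one_ne_zero).map j₀)
  have hfd : FiniteDimensional FK LK :=
    Module.finite_of_finrank_pos (by rw [hfinK]; exact hp0)
  have htopI : IntermediateField.adjoin FK {zK} = ⊤ := by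
    have := IntermediateField.isSimpleOrder_of_finrank_prime FK LK (by rw [hfinK]; exact hp.out)
    rcases eq_bot_or_eq_top (IntermediateField.adjoin FK {zK}) with h | h
    · exfalso
      apply hzKnot
      rw [← h]
      exact IntermediateField.mem_adjoin_simple_self FK zK
    · exact h
  have htop : Algebra.adjoin FK ({zK} : Set LK) = ⊤ := by
    have h1 := IntermediateField.adjoin_simple_toSubalgebra_of_isAlgebraic
      (Algebra.IsAlgebraic.isAlgebraic (R := FK) zK)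
    rw [← h1, htopI, IntermediateField.top_toSubalgebra]
  refine ⟨zK, PK, tres5e_split_of_natDegree FK hPKmonic hroot htop (by rw [hPKdeg, hfinK])
    hcK hred, fun i => ⟨z' - jΛ (cK i), hz'𝔐 i, ?_⟩, hfinK, by rw [hzK]; exact hz'ρ⟩
  rw [hzK, ← hjΛR]
  change (z' : L) = (jΛ (cK i) : L) + ((z' : L) - (jΛ (cK i) : L))
  ring

/-- `tres5kp_descend'` with the (redundant) hypothesis `finrank FK LK = p`, and the short
conclusion. -/
theorem tres5kp_descend {z : L} {P : R[X]} {c : ZMod p → R} (H : Tres5eSplit F z P c)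
    (hfin : Module.finrank F L = p)
    {G : Type*} [Group G] [Finite G] [MulSemiringAction G L]
    (j₀ : RK →+* R)
    (hj₀ : ∀ r : RK, algebraMap R F (j₀ r) = algebraMap FK F (algebraMap RK FK r))
    (hRK : ∀ (x : FK) (r : R), algebraMap R F r = algebraMap FK F x →
      ∃ rK : RK, algebraMap RK FK rK = x)
    (cK : ZMod p → RK) (hcK : ∀ i j, i ≠ j → IsUnit (cK i - cK j))
    (_hfinK : Module.finrank FK LK = p)
    (hGLK : ∀ (g : G) (y : LK), g • algebraMap LK L y = algebraMap LK L y)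
    (hfixL : ∀ x : L, (∀ g : G, g • x = x) → ∃ y : LK, algebraMap LK L y = x)
    (hfixF : ∀ x : F, (∀ g : G, g • algebraMap F L x = algebraMap F L x) →
      ∃ y : FK, algebraMap FK F y = x)
    (hGR : ∀ (g : G) (r : R), ∃ r' : R, g • algebraMap R L r = algebraMap R L r')
    (i₀ : ZMod p)
    (hG0 : ∀ (g : G) (b : ↥(Algebra.adjoin R ({z} : Set L))), b ∈ tres5eMax R z (c i₀) →
      ∃ b' ∈ tres5eMax R z (c i₀), (b' : L) = g • (b : L))
    (ρ : L ≃ₐ[F] L) (hρG : ∀ (g : G) x, ρ (g • x) = g • ρ x)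
    (hρ : ∀ i : ZMod p, ∃ b ∈ tres5eMax R z (c i),
      ρ z = algebraMap R L (c (i + 1)) + (b : L)) :
    ∃ (zK : LK) (PK : RK[X]), Tres5eSplit FK zK PK cK ∧
      ∀ i, ∃ b ∈ tres5eMax R z (c i),
        algebraMap LK L zK = algebraMap R L (j₀ (cK i)) + (b : L) := by
  obtain ⟨zK, PK, h1, h2, -⟩ := tres5kp_descend' H hfin j₀ hj₀ hRK cK hcK hGLK hfixL hfixF hGR
    i₀ hG0 ρ hρG hρ
  exact ⟨zK, PK, h1, h2⟩


omit [IsDomain RK] [IsFractionRing RK FK] [IsIntegrallyClosed RK] [IsLocalRing RK]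
  [CommRing RK] [Field FK] [Field LK] [Algebra RK FK] [Algebra FK LK] [Algebra RK LK]
  [IsScalarTower RK FK LK] [Algebra FK F] [Algebra LK L] [Algebra FK L] [IsScalarTower FK LK L]
  [IsScalarTower FK F L] hp in
/-- **The fixed point above the closed point.**  A `G`-stable valuation ring `W` of `L` dominating
`R` (the Gauss sheet) has a `G`-stable centre `(𝔫, z − c i₀)` on `R[z]`. -/
theorem tres5kp_fixed_of_val {G : Type*} [Group G] [MulSemiringAction G L] {z : L} {P : R[X]}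
    {c : ι → R} (H : Tres5eSplit F z P c)
    (hGR : ∀ (g : G) (r : R), ∃ r' : R, g • algebraMap R L r = algebraMap R L r')
    (W : ValuationSubring L) (hRW : ∀ r : R, algebraMap R L r ∈ W)
    (h𝔫W : ∀ r ∈ IsLocalRing.maximalIdeal R, algebraMap R L r ∈ W.nonunits)
    (hGW : ∀ (g : G), ∀ x ∈ W, g • x ∈ W) :
    ∃ i₀, (∀ b : ↥(Algebra.adjoin R ({z} : Set L)),
        b ∈ tres5eMax R z (c i₀) ↔ (b : L) ∈ W.nonunits) ∧
      ∀ (g : G) (b : ↥(Algebra.adjoin R ({z} : Set L))), b ∈ tres5eMax R z (c i₀) →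
        ∃ b' ∈ tres5eMax R z (c i₀), (b' : L) = g • (b : L) := by
  obtain ⟨i, hi⟩ := H.val_center W hRW h𝔫W
  refine ⟨i, hi, fun g b hb => ?_⟩
  refine ⟨⟨g • (b : L), tres5kp_smul_mem H hGR g b.2⟩, ?_, rfl⟩
  rw [hi]
  exact tres5k_smul_mem_nonunits W hGW g ((hi b).1 hb)

omit [IsDomain RK] [IsFractionRing RK FK] [IsIntegrallyClosed RK] [IsLocalRing RK]
  [CommRing RK] [Field FK] [Field LK] [Algebra RK FK] [Algebra FK LK] [Algebra RK LK]
  [IsScalarTower RK FK LK] [Algebra FK F] [Algebra LK L] [Algebra FK L] [IsScalarTower FK LK L]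
  [IsScalarTower FK F L] hp in
/-- **The fixed point from the centre of a sheet** (glue for FAC-FIX).  `W` is a `G`-stable
valuation ring of `L` whose non-units in `R[z]` lie in exactly one maximal ideal `(𝔫, z − c i₀)`
(the sheet passes through ONE point above `𝔫`).  Then `G` fixes `(𝔫, z − c i₀)`. -/
theorem tres5kp_fixed_of_center {G : Type*} [Group G] [MulSemiringAction G L] {z : L}
    {P : R[X]} {c : ι → R} (H : Tres5eSplit F z P c)
    (hGR : ∀ (g : G) (r : R), ∃ r' : R, g • algebraMap R L r = algebraMap R L r')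
    (W : ValuationSubring L) (hGW : ∀ (g : G), ∀ x ∈ W, g • x ∈ W) (i₀ : ι)
    (hcen : ∀ b : ↥(Algebra.adjoin R ({z} : Set L)), (b : L) ∈ W.nonunits →
      b ∈ tres5eMax R z (c i₀))
    (huniq : ∀ i, (∀ b : ↥(Algebra.adjoin R ({z} : Set L)), (b : L) ∈ W.nonunits →
      b ∈ tres5eMax R z (c i)) → i = i₀) :
    ∀ (g : G) (b : ↥(Algebra.adjoin R ({z} : Set L))), b ∈ tres5eMax R z (c i₀) →
      ∃ b' ∈ tres5eMax R z (c i₀), (b' : L) = g • (b : L) := by
  intro g b hb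
  set γ : ↥(Algebra.adjoin R ({z} : Set L)) →+* ↥(Algebra.adjoin R ({z} : Set L)) :=
    ((MulSemiringAction.toRingHom G L g).comp
      (Algebra.adjoin R ({z} : Set L)).val.toRingHom).codRestrict
      (Algebra.adjoin R ({z} : Set L)).toSubring (fun b => tres5kp_smul_mem H hGR g b.2)
    with hγ
  have hγcoe : ∀ b : ↥(Algebra.adjoin R ({z} : Set L)), ((γ b : ↥(Algebra.adjoin R _)) : L) =
      g • (b : L) := fun _ => rfl
  have hγsurj : Function.Surjective γ := by
    intro b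
    refine ⟨⟨g⁻¹ • (b : L), tres5kp_smul_mem H hGR g⁻¹ b.2⟩, Subtype.ext ?_⟩
    rw [hγcoe]
    exact smul_inv_smul g (b : L)
  haveI := H.isMaximal i₀
  have hJmax : (Ideal.comap γ (tres5eMax R z (c i₀))).IsMaximal :=
    Ideal.comap_isMaximal_of_surjective γ hγsurj
  obtain ⟨j, hj⟩ := H.exists_eq_of_isMaximal (Ideal.comap γ (tres5eMax R z (c i₀)))
  have hji : j = i₀ := by
    refine huniq j fun b' hb' => ?_
    rw [← hj, Ideal.mem_comap]
    apply hcen
    rw [hγcoe]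
    exact tres5k_smul_mem_nonunits W hGW g hb'
  rw [hji] at hj
  refine ⟨γ b, ?_, hγcoe b⟩
  rw [← Ideal.mem_comap, hj]
  exact hb


omit [IsDomain RK] [IsFractionRing RK FK] [IsIntegrallyClosed RK] [Field FK] [Field LK]
  [Algebra RK FK] [Algebra FK LK] [Algebra RK LK] [IsScalarTower RK FK LK] in
/-- residue characteristic `p`: the integers `0, …, p − 1` are pairwise distinct modulo `𝔫_K` -/
theorem tres5kp_sep_natCast (hpR : (p : RK) ∈ IsLocalRing.maximalIdeal RK) :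
    ∀ i j : ZMod p, i ≠ j → IsUnit (((i.val : ℕ) : RK) - ((j.val : ℕ) : RK)) := by
  intro i j hij
  by_contra hnu
  have hmem := (IsLocalRing.mem_maximalIdeal _).2 hnu
  have h1 : IsLocalRing.residue RK ((i.val : ℕ) : RK) = IsLocalRing.residue RK ((j.val : ℕ) : RK) := by
    rw [← sub_eq_zero, ← map_sub]
    exact (IsLocalRing.residue_eq_zero_iff _).2 hmem
  have hchar : CharP (IsLocalRing.ResidueField RK) p := by
    refine (CharP.charP_iff_prime_eq_zero hp.out).2 ?_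
    rw [← map_natCast (IsLocalRing.residue RK)]
    exact (IsLocalRing.residue_eq_zero_iff _).2 hpR
  rw [map_natCast, map_natCast] at h1
  have h2 := (CharP.natCast_eq_natCast (IsLocalRing.ResidueField RK) p).1 h1
  have h3 : i.val % p = j.val % p := h2
  rw [Nat.mod_eq_of_lt (ZMod.val_lt i), Nat.mod_eq_of_lt (ZMod.val_lt j)] at h3
  exact hij (ZMod.val_injective p h3)

/-- **K-FORM at a closed point**, Artin–Schreier form with the Gauss sheet: residue
characteristic `p`, roots `0, …, p − 1`, and the fixed point given by a `G`-stable valuation ring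
of `L` dominating `R`. -/
theorem tres5kp_descend_of_val {z : L} {P : R[X]} {c : ZMod p → R} (H : Tres5eSplit F z P c)
    (hfin : Module.finrank F L = p)
    {G : Type*} [Group G] [Finite G] [MulSemiringAction G L]
    (j₀ : RK →+* R)
    (hj₀ : ∀ r : RK, algebraMap R F (j₀ r) = algebraMap FK F (algebraMap RK FK r))
    (hRK : ∀ (x : FK) (r : R), algebraMap R F r = algebraMap FK F x →
      ∃ rK : RK, algebraMap RK FK rK = x)
    (hpR : (p : RK) ∈ IsLocalRing.maximalIdeal RK)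
    (hfinK : Module.finrank FK LK = p)
    (hGLK : ∀ (g : G) (y : LK), g • algebraMap LK L y = algebraMap LK L y)
    (hfixL : ∀ x : L, (∀ g : G, g • x = x) → ∃ y : LK, algebraMap LK L y = x)
    (hfixF : ∀ x : F, (∀ g : G, g • algebraMap F L x = algebraMap F L x) →
      ∃ y : FK, algebraMap FK F y = x)
    (hGR : ∀ (g : G) (r : R), ∃ r' : R, g • algebraMap R L r = algebraMap R L r')
    (W : ValuationSubring L) (hRW : ∀ r : R, algebraMap R L r ∈ W)
    (h𝔫W : ∀ r ∈ IsLocalRing.maximalIdeal R, algebraMap R L r ∈ W.nonunits)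
    (hGW : ∀ (g : G), ∀ x ∈ W, g • x ∈ W)
    (ρ : L ≃ₐ[F] L) (hρG : ∀ (g : G) x, ρ (g • x) = g • ρ x)
    (hρ : ∀ i : ZMod p, ∃ b ∈ tres5eMax R z (c i),
      ρ z = algebraMap R L (c (i + 1)) + (b : L)) :
    ∃ (zK : LK) (PK : RK[X]),
      Tres5eSplit FK zK PK (fun k : ZMod p => ((k.val : ℕ) : RK)) ∧
      ∀ i : ZMod p, ∃ b ∈ tres5eMax R z (c i),
        algebraMap LK L zK = ((i.val : ℕ) : L) + (b : L) := by
  obtain ⟨i₀, -, hG0⟩ := tres5kp_fixed_of_val H hGR W hRW h𝔫W hGW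
  obtain ⟨zK, PK, hT, hz⟩ := tres5kp_descend H hfin j₀ hj₀ hRK
    (fun k : ZMod p => ((k.val : ℕ) : RK)) (tres5kp_sep_natCast hpR) hfinK hGLK hfixL hfixF hGR
    i₀ hG0 ρ hρG hρ
  refine ⟨zK, PK, hT, fun i => ?_⟩
  obtain ⟨b, hb, hzb⟩ := hz i
  refine ⟨b, hb, ?_⟩
  rw [hzb, map_natCast, map_natCast]

end Descend

end Fermat.Agent.R38


end ZBR38_018_6

/-! ### bundled: `Fermat.Agent.R38.TresKFormInstG` -/
section ZBR38_018_7

/-!
# R38 TRES, (FAC-p), piece FAC-KFORM, the INSTANCE (helper52): the constant rings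

Concrete frame of helper48's `tres5ki_point` (`R38/TresKFormInst.lean`, Layer 2):
`A` a valuation subring of `ℚ̄`, `K = beta0Field A = ℚ̄^I`, `E ⊇ K` an intermediate field
(`h : beta0Field A ≤ E`; in the application `E = mgcE A K₁ = beta0Field A ⊔ K₁`,
`h = le_sup_left`),

* `AK = ↥(beta0Ring A (beta0Field A))`, `AE = ↥(beta0Ring A E)` (`= ↥(mgcA A K₁)`),
* `FK = ↥(modularFunctionFieldFullC ↥(beta0Field A) N)`, `FE = ↥(modularFunctionFieldFullC ↥E N)`,
* `Algebra AK FK`, `Algebra AE FE`, `Algebra K FK`, `Algebra E FE`, `IsScalarTower AK K FK`, …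
  are the fast INSTANCES of `UNIP/MGConcrete.lean` (`mgcInstAlgebraA`, `mgcInstAlgebra`,
  `mgcInstTower`),
* `Algebra FK FE` is helper78's `tres5cAlgFF N h` (`R38/TresCoverTower.lean`).

This file supplies the remaining instance arguments of `tres5ki_point` (reducible defs, NOT
instances: pass them explicitly / with `letI`):

* `tres5kigAlgAA h     : Algebra AK AE`  (`= (beta0RingIncl h).toAlgebra`; for `h = le_sup_left`
  it is DEFINITIONALLY `beta0InstAlgebra A K₁`, see `tres5kig_algAA_eq`),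
* `tres5kigAlgAF h N   : Algebra AK FE`  (through `AE`),
* `tres5kig_tower_AAF  : IsScalarTower AK AE FE`,
* `tres5kig_tower_AFF  : IsScalarTower AK FK FE`,
* `tres5kig_isIntegral_sup : Algebra.IsIntegral AK ↥(mgcA A K₁)` (`K₁ / ℚ` finite Galois),

together with the coercion lemmas `tres5kig_algAA_coe`, `tres5kig_algAF_coe`,
`tres5kig_algFF_algebraMap`, `tres5kig_algAF_eq`.
-/

set_option autoImplicit false
set_option linter.style.haveILetI false
set_option linter.unusedSectionVars false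

noncomputable section

open ModularCurve Fermat.Agent.INJ Fermat.Agent.UNIP IntermediateField

namespace Fermat.Agent.R38

section Consts

variable {A : ValuationSubring NfQb} {E : IntermediateField ℚ NfQb}
  (h : beta0Field A ≤ E) (N : ℕ)

/-- `Algebra A_K A_E`, `A_K = A ∩ K ⊆ A_E = A ∩ E` -/
@[reducible] def tres5kigAlgAA :
    Algebra ↥(beta0Ring A (beta0Field A)) ↥(beta0Ring A E) :=
  (beta0RingIncl (A := A) h).toAlgebra

/-- `Algebra A_K F_N(E)` (through `A_E`) -/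
@[reducible] def tres5kigAlgAF :
    Algebra ↥(beta0Ring A (beta0Field A)) ↥(modularFunctionFieldFullC ↥E N) :=
  ((algebraMap ↥(beta0Ring A E) ↥(modularFunctionFieldFullC ↥E N)).comp
    (beta0RingIncl (A := A) h)).toAlgebra

theorem tres5kig_algAA_apply (a : ↥(beta0Ring A (beta0Field A))) :
    @algebraMap ↥(beta0Ring A (beta0Field A)) ↥(beta0Ring A E) _ _ (tres5kigAlgAA h) a
      = beta0RingIncl (A := A) h a := rfl

/-- the algebra map `A_K → A_E` is the inclusion -/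
theorem tres5kig_algAA_coe (a : ↥(beta0Ring A (beta0Field A))) :
    (((@algebraMap ↥(beta0Ring A (beta0Field A)) ↥(beta0Ring A E) _ _ (tres5kigAlgAA h) a :
      ↥(beta0Ring A E)) : ↥E) : NfQb) = ((a : ↥(beta0Field A)) : NfQb) := rfl

theorem tres5kig_algAF_apply (a : ↥(beta0Ring A (beta0Field A))) :
    @algebraMap ↥(beta0Ring A (beta0Field A)) ↥(modularFunctionFieldFullC ↥E N) _ _
        (tres5kigAlgAF h N) a
      = algebraMap ↥(beta0Ring A E) ↥(modularFunctionFieldFullC ↥E N)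
          (beta0RingIncl (A := A) h a) := rfl

/-- the algebra map `A_K → F_N(E)`: the constant series -/
theorem tres5kig_algAF_coe (a : ↥(beta0Ring A (beta0Field A))) :
    ((@algebraMap ↥(beta0Ring A (beta0Field A)) ↥(modularFunctionFieldFullC ↥E N) _ _
        (tres5kigAlgAF h N) a : ↥(modularFunctionFieldFullC ↥E N)) : LaurentSeries ↥E)
      = HahnSeries.single 0 (IntermediateField.inclusion h (a : ↥(beta0Field A))) := by
  rw [tres5kig_algAF_apply, mgcAlgAGen_algebraMap]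
  show algebraMap ↥E (LaurentSeries ↥E) _ = _
  rw [algebraMap_laurentSeries_eq_single]
  rfl

/-- the algebra map `F_N(K) → F_N(E)` of `tres5cAlgFF` is `tres5cBaseIncl` -/
theorem tres5kig_algFF_algebraMap (x : ↥(modularFunctionFieldFullC ↥(beta0Field A) N)) :
    @algebraMap ↥(modularFunctionFieldFullC ↥(beta0Field A) N)
        ↥(modularFunctionFieldFullC ↥E N) _ _ (tres5cAlgFF N h) x
      = tres5cBaseIncl N h x := rfl

/-- `A_K → A_E → F_N(E)` -/
theorem tres5kig_tower_AAF :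
    @IsScalarTower ↥(beta0Ring A (beta0Field A)) ↥(beta0Ring A E)
      ↥(modularFunctionFieldFullC ↥E N)
      (tres5kigAlgAA h).toSMul Algebra.toSMul (tres5kigAlgAF h N).toSMul :=
  @IsScalarTower.of_algebraMap_eq _ _ _ _ _ _ (tres5kigAlgAA h) _ (tres5kigAlgAF h N)
    fun _ => rfl

/-- the two ways `A_K → F_N(K) → F_N(E)` and `A_K → A_E → F_N(E)` agree -/
theorem tres5kig_algAF_eq (a : ↥(beta0Ring A (beta0Field A))) :
    @algebraMap ↥(beta0Ring A (beta0Field A)) ↥(modularFunctionFieldFullC ↥E N) _ _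
        (tres5kigAlgAF h N) a
      = tres5cBaseIncl N h
          (algebraMap ↥(beta0Ring A (beta0Field A))
            ↥(modularFunctionFieldFullC ↥(beta0Field A) N) a) := by
  apply Subtype.ext
  rw [tres5kig_algAF_coe, tres5cBaseIncl_coe, mgcAlgAGen_algebraMap]
  have e : ((algebraMap ↥(beta0Field A) ↥(modularFunctionFieldFullC ↥(beta0Field A) N)
      (a : ↥(beta0Field A)) : ↥(modularFunctionFieldFullC ↥(beta0Field A) N)) :
        LaurentSeries ↥(beta0Field A))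
      = algebraMap ↥(beta0Field A) (LaurentSeries ↥(beta0Field A)) (a : ↥(beta0Field A)) := rfl
  rw [e, algebraMap_laurentSeries_eq_single, coeffMap_single]
  rfl

/-- `A_K → F_N(K) → F_N(E)` -/
theorem tres5kig_tower_AFF :
    @IsScalarTower ↥(beta0Ring A (beta0Field A)) ↥(modularFunctionFieldFullC ↥(beta0Field A) N)
      ↥(modularFunctionFieldFullC ↥E N)
      Algebra.toSMul (tres5cAlgFF N h).toSMul (tres5kigAlgAF h N).toSMul :=
  @IsScalarTower.of_algebraMap_eq _ _ _ _ _ _ _ (tres5cAlgFF N h) (tres5kigAlgAF h N)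
    fun a => tres5kig_algAF_eq h N a

end Consts

section Sup

variable (A : ValuationSubring NfQb) (K₁ : IntermediateField ℚ NfQb)

/-- for `E = mgcE A K₁` the structure `tres5kigAlgAA` is `beta0InstAlgebra` -/
theorem tres5kig_algAA_eq :
    (tres5kigAlgAA (A := A) (E := mgcE A K₁) le_sup_left) = beta0InstAlgebra A K₁ := rfl

variable {A} [NumberField ↥K₁] [IsGalois ℚ ↥K₁] {q : ℕ}

/-- **`A_E = mgcA A K₁` is integral over `A_K`** (`K₁ / ℚ` a finite Galois extension). -/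
theorem tres5kig_isIntegral_sup (hq : q.Prime) (hA : A.LiesOverPrime q) :
    @Algebra.IsIntegral ↥(beta0Ring A (beta0Field A)) ↥(mgcA A K₁) _ _
      (tres5kigAlgAA (A := A) (E := mgcE A K₁) le_sup_left) :=
  beta0Inst_isIntegral (A := A) K₁ hq hA

end Sup

end Fermat.Agent.R38

end
end ZBR38_018_7

/-! ### bundled: `Fermat.Agent.R38.TresKFormInstG2` -/
section ZBR38_018_8

/-!
# R38 TRES, (FAC-p), piece FAC-KFORM, the INSTANCE (helper52), part 2: integrality for every `E`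

`A` a valuation subring of `ℚ̄` over the prime `q`, `K = beta0Field A = ℚ̄^I`.
The valuation ring `A ∩ K` has a UNIQUE extension to `ℚ̄`, so for EVERY intermediate field
`E ⊇ K` the ring `A_E = A ∩ E` is integral over `A_K = A ∩ K`:

* `tres5kig_normal`            : `ℚ̄ / K` is normal;
* `tres5kig_conj_mem`          : the `K`-conjugates of an element of `A` lie in `A`
  (`Gal(ℚ̄ / K) = I`, `beta0_mem_inertia_of_fixes`);
* `tres5kig_minpoly_coeff_mem` : the minimal polynomial over `K` of an element of `A` has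
  coefficients in `A` (Vieta);
* **`tres5kig_isIntegral hq hA h`** : `Algebra.IsIntegral A_K A_E` for the algebra structure
  `tres5kigAlgAA h` of `R38/TresKFormInstG.lean` — no finiteness, no Galois hypothesis on `E`.
-/

set_option autoImplicit false
set_option linter.style.haveILetI false
set_option linter.unusedSectionVars false

noncomputable section

open ModularCurve Fermat.Agent.INJ Fermat.Agent.UNIP IntermediateField Polynomial

namespace Fermat.Agent.R38

section GenInt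

variable {A : ValuationSubring NfQb} {q : ℕ}

/-- `ℚ̄ / K` is normal, `K = ℚ̄^I` -/
theorem tres5kig_normal (A : ValuationSubring NfQb) : Normal ↥(beta0Field A) NfQb := by
  haveI hnormQ : Normal ℚ NfQb := by
    have h1 : @Normal ℚ (AlgebraicClosure ℚ) _ _ (AlgebraicClosure.instAlgebra ℚ) := inferInstance
    convert h1
    exact Subsingleton.elim _ _
  exact Normal.tower_top_of_normal ℚ ↥(beta0Field A) NfQb

/-- the conjugates over `K = ℚ̄^I` of an element of `A` lie in `A` -/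
theorem tres5kig_conj_mem (hq : q.Prime) (hA : A.LiesOverPrime q) {ξ y : NfQb} (hξ : ξ ∈ A)
    (hy : Polynomial.aeval y (minpoly ↥(beta0Field A) ξ) = 0) : y ∈ A := by
  haveI hnorm : Normal ↥(beta0Field A) NfQb := tres5kig_normal A
  have halg : IsAlgebraic ↥(beta0Field A) ξ := hnorm.isAlgebraic ξ
  obtain ⟨σ, hσ⟩ := minpoly.exists_algEquiv_of_root' halg hy
  have hσI : (σ.restrictScalars ℚ) ∈ A.inertiaSubgroupIn ℚ :=
    beta0_mem_inertia_of_fixes hq hA _ (fun k hk => σ.commutes ⟨k, hk⟩)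
  have h1 : (σ.restrictScalars ℚ) ξ - ξ ∈ A.nonunits :=
    Fermat.Agent.S05.inertia_apply_sub_mem_nonunits hσI hξ
  have h2 : (σ.restrictScalars ℚ) ξ - ξ ∈ A := A.nonunits_le h1
  have h3 := A.add_mem _ _ h2 hξ
  rw [sub_add_cancel] at h3
  rw [← hσ]
  exact h3

/-- the minimal polynomial over `K = ℚ̄^I` of an element of `A` has coefficients in `A` -/
theorem tres5kig_minpoly_coeff_mem (hq : q.Prime) (hA : A.LiesOverPrime q) {ξ : NfQb}
    (hξ : ξ ∈ A) (n : ℕ) :
    (((minpoly ↥(beta0Field A) ξ).coeff n : ↥(beta0Field A)) : NfQb) ∈ A := by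
  haveI hnorm : Normal ↥(beta0Field A) NfQb := tres5kig_normal A
  have hint : IsIntegral ↥(beta0Field A) ξ := hnorm.isIntegral ξ
  set m := minpoly ↥(beta0Field A) ξ with hm
  have hmon : (m.map (algebraMap ↥(beta0Field A) NfQb)).Monic := (minpoly.monic hint).map _
  have hsplit : (m.map (algebraMap ↥(beta0Field A) NfQb)).Splits := IsAlgClosed.splits _
  have hlift : m.map (algebraMap ↥(beta0Field A) NfQb) ∈ Polynomial.lifts A.subtype := by
    rw [hsplit.eq_prod_roots_of_monic hmon]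
    apply multiset_prod_mem
    intro p hp
    obtain ⟨r, hr, rfl⟩ := Multiset.mem_map.1 hp
    have hr0 : Polynomial.aeval r m = 0 := by
      have h1 := (Polynomial.mem_roots'.1 hr).2
      rwa [Polynomial.IsRoot, Polynomial.eval_map, ← Polynomial.aeval_def] at h1
    have hrA : r ∈ A := tres5kig_conj_mem hq hA hξ hr0
    rw [Polynomial.mem_lifts]
    refine ⟨X - C ⟨r, hrA⟩, ?_⟩
    simp
  rw [Polynomial.lifts_iff_coeff_lifts] at hlift
  obtain ⟨a, ha⟩ := hlift n
  rw [Polynomial.coeff_map] at ha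
  have : (((m.coeff n : ↥(beta0Field A)) : NfQb)) = (a : NfQb) := ha.symm
  rw [this]
  exact a.2

variable {E : IntermediateField ℚ NfQb}

/-- **`A_E = A ∩ E` is integral over `A_K = A ∩ K`, `K = ℚ̄^I`, for EVERY `E ⊇ K`**
(the valuation ring `A ∩ K` has a unique extension to `ℚ̄`). -/
theorem tres5kig_isIntegral (hq : q.Prime) (hA : A.LiesOverPrime q) (h : beta0Field A ≤ E) :
    @Algebra.IsIntegral ↥(beta0Ring A (beta0Field A)) ↥(beta0Ring A E) _ _
      (tres5kigAlgAA h) := by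
  letI := tres5kigAlgAA (A := A) h
  refine ⟨fun x => ?_⟩
  have hξ : ((x : ↥E) : NfQb) ∈ A := x.2
  haveI hnorm : Normal ↥(beta0Field A) NfQb := tres5kig_normal A
  have hint : IsIntegral ↥(beta0Field A) ((x : ↥E) : NfQb) := hnorm.isIntegral _
  set m := minpoly ↥(beta0Field A) ((x : ↥E) : NfQb) with hm
  have hlift : m ∈ Polynomial.lifts (beta0Ring A (beta0Field A)).subtype := by
    rw [Polynomial.lifts_iff_coeff_lifts]
    intro n
    exact ⟨⟨m.coeff n, tres5kig_minpoly_coeff_mem hq hA hξ n⟩, rfl⟩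
  obtain ⟨g, hg, -, hgmon⟩ := Polynomial.lifts_and_natDegree_eq_and_monic hlift (minpoly.monic hint)
  refine ⟨g, hgmon, ?_⟩
  -- push to `ℚ̄`
  let ιE : ↥(beta0Ring A E) →+* NfQb := (algebraMap ↥E NfQb).comp (beta0Ring A E).subtype
  have hιE : Function.Injective ιE := fun a b hab => Subtype.ext (Subtype.ext hab)
  apply hιE
  rw [map_zero, Polynomial.hom_eval₂]
  have e1 : ιE.comp (algebraMap ↥(beta0Ring A (beta0Field A)) ↥(beta0Ring A E))
      = (algebraMap ↥(beta0Field A) NfQb).comp (beta0Ring A (beta0Field A)).subtype := rfl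
  rw [e1, ← Polynomial.eval₂_map, hg]
  exact minpoly.aeval _ _

end GenInt

end Fermat.Agent.R38

end
end ZBR38_018_8

/-! ### bundled: `Fermat.Agent.R38.TresFixFInst2` -/
section ZBR38_018_9

/-!
# R38 TRES, (FAC-p), piece FAC-FIXF (helper29), part 3: more inputs of the K-FORM instance

Setting of `R38/TresFixFInst.lean` (`G = Gal(E / K)`, `K = ℚ̄^I`, acting on `L_E = tres5cL E N y`).
Further hypotheses of helper48's `tres5ki_point` (`R38/TresKFormInst.lean`):

* `tres5ff_gal_mem_A`  : `g ∈ G` preserves `A ∩ E`;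
* `tres5ff_inst_hGA`   : `hGA` (the constants `A_E = beta0Ring A E` are preserved);
* `tres5ff_inst_hGt`   : `hGt` (the elements of `F_N(K)` are fixed);
* `tres5ff_hGn`        : `hG𝔫`, abstract: a maximal ideal `𝔫` of a `G`-stable ring `B` which is the
  centre of a `G`-stable valuation ring is `G`-stable.
-/

set_option autoImplicit false
set_option linter.style.haveILetI false
set_option linter.unusedSectionVars false

noncomputable section

open ModularCurve Fermat.Agent.INJ Fermat.Agent.UNIP IntermediateField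

namespace Fermat.Agent.R38

section Abs

variable {B L : Type*} [CommRing B] [Field L] {G : Type*} [Group G] [MulSemiringAction G L]

/-- **(hG𝔫), abstract.**  `W` a `G`-stable valuation ring of `L`, `φ : B → L` with image in `W`,
`𝔫` a maximal ideal of `B` whose elements are non-units of `W`: if `g • φ b = φ b'` and `b ∈ 𝔫`
then `b' ∈ 𝔫`. -/
theorem tres5ff_hGn (φ : B →+* L) (𝔫 : Ideal B) [h𝔫 : 𝔫.IsMaximal] (W : ValuationSubring L)
    (hBW : ∀ b : B, φ b ∈ W) (hWmax : ∀ b ∈ 𝔫, φ b ∈ W.nonunits)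
    (hGW : ∀ (g : G), ∀ x ∈ W, g • x ∈ W)
    (g : G) (b b' : B) (hb' : g • φ b = φ b') (hb : b ∈ 𝔫) : b' ∈ 𝔫 := by
  -- the centre of `W` on `B`
  let 𝔠 : Ideal B :=
    { carrier := {x | φ x ∈ W.nonunits}
      add_mem' := fun {x y} hx hy => by
        have hx' : φ x ∈ W.nonunits := hx
        have hy' : φ y ∈ W.nonunits := hy
        show φ (x + y) ∈ W.nonunits
        rw [map_add]
        rw [ValuationSubring.mem_nonunits_iff] at hx' hy' ⊢
        exact lt_of_le_of_lt (W.valuation.map_add _ _) (max_lt hx' hy')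
      zero_mem' := by
        show φ 0 ∈ W.nonunits
        rw [map_zero, ValuationSubring.mem_nonunits_iff, map_zero]
        exact zero_lt_one
      smul_mem' := fun c x hx => by
        have hx' : φ x ∈ W.nonunits := hx
        show φ (c • x) ∈ W.nonunits
        rw [smul_eq_mul, map_mul]
        rw [ValuationSubring.mem_nonunits_iff] at hx' ⊢
        rw [map_mul]
        have hc : W.valuation (φ c) ≤ 1 := (W.valuation_le_one_iff _).2 (hBW c)
        calc W.valuation (φ c) * W.valuation (φ x) ≤ 1 * W.valuation (φ x) :=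
              mul_le_mul' hc le_rfl
          _ = W.valuation (φ x) := one_mul _
          _ < 1 := hx' }
  have hle : 𝔫 ≤ 𝔠 := fun x hx => hWmax x hx
  have hne : 𝔠 ≠ ⊤ := by
    intro h
    have h1 : (1 : B) ∈ 𝔠 := by rw [h]; trivial
    have h2 : φ 1 ∈ W.nonunits := h1
    rw [map_one, ValuationSubring.mem_nonunits_iff, map_one] at h2
    exact lt_irrefl _ h2
  have heq : 𝔫 = 𝔠 := h𝔫.eq_of_le hne hle
  rw [heq]
  show φ b' ∈ W.nonunits
  rw [← hb']
  -- `g` preserves the non-units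
  have hx : φ b ∈ W.nonunits := hWmax b hb
  by_contra h
  rw [ValuationSubring.mem_nonunits_iff, not_lt] at h
  have hinv : (g • φ b)⁻¹ ∈ W := by
    rw [← W.valuation_le_one_iff, map_inv₀]
    exact inv_le_one_of_one_le₀ h
  have h2 : g⁻¹ • (g • φ b)⁻¹ ∈ W := hGW _ _ hinv
  rw [smul_inv'', inv_smul_smul] at h2
  have h3 : W.valuation (φ b)⁻¹ ≤ 1 := (W.valuation_le_one_iff _).mpr h2
  rw [ValuationSubring.mem_nonunits_iff] at hx
  rcases eq_or_ne (φ b) 0 with h0 | hx0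
  · rw [h0, smul_zero, map_zero] at h
    exact absurd h (not_le.mpr zero_lt_one)
  · have h4 : W.valuation (φ b) * W.valuation (φ b)⁻¹ = 1 := by
      rw [← map_mul, mul_inv_cancel₀ hx0, map_one]
    have h5 : W.valuation (φ b) * W.valuation (φ b)⁻¹ < 1 := by
      calc W.valuation (φ b) * W.valuation (φ b)⁻¹ ≤ W.valuation (φ b) * 1 :=
            mul_le_mul' le_rfl h3
        _ < 1 := by rw [mul_one]; exact hx
    rw [h4] at h5
    exact lt_irrefl _ h5

end Abs

section Inst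

variable {A : ValuationSubring NfQb} {q : ℕ} {E : IntermediateField ℚ NfQb}
  (hq : q.Prime) (hA : A.LiesOverPrime q) (h : beta0Field A ≤ E)

include hq hA in
/-- every automorphism of `E` fixing `K = ℚ̄^I` pointwise preserves `A ∩ E` -/
theorem tres5ff_gal_mem_A (g : ↥E ≃+* ↥E)
    (hg : ∀ k : ↥(beta0Field A),
      g (IntermediateField.inclusion h k) = IntermediateField.inclusion h k)
    {a : ↥E} (ha : (a : NfQb) ∈ A) : ((g a : ↥E) : NfQb) ∈ A := by
  obtain ⟨σ, hσ, hσg⟩ := tres5ff_lift hq hA h g hg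
  rw [← hσg]
  have h1 : σ (a : NfQb) - a ∈ A.nonunits :=
    Fermat.Agent.S05.inertia_apply_sub_mem_nonunits hσ ha
  have h2 : σ (a : NfQb) - a ∈ A := A.nonunits_le h1
  have h3 := A.add_mem _ _ h2 ha
  rwa [sub_add_cancel] at h3

variable (N : ℕ) (y : LaurentSeries NfQb)
  (hstabI : ∀ σ ∈ A.inertiaSubgroupIn ℚ, ∀ x ∈ tres5cField N y,
    coeffMap ((σ : NfQb ≃ₐ[ℚ] NfQb) : NfQb →+* NfQb) x ∈ tres5cField N y)

/-- **(hGt)**: `G` fixes the image of `F_N(K)` in `L_E`. -/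
theorem tres5ff_inst_hGt :
    letI := beta0FieldAlgebra h
    letI := tres5ffAct hq hA h N y hstabI
    ∀ (g : ↥E ≃ₐ[↥(beta0Field A)] ↥E) (t : ↥(modularFunctionFieldFullC ↥(beta0Field A) N)),
      g • algebraMap ↥(modularFunctionFieldFullC ↥E N) ↥(tres5cL E N y) (tres5cBaseIncl N h t)
        = algebraMap ↥(modularFunctionFieldFullC ↥E N) ↥(tres5cL E N y)
            (tres5cBaseIncl N h t) := by
  letI := beta0FieldAlgebra h
  letI := tres5ffAct hq hA h N y hstabI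
  intro g t
  apply Subtype.ext
  rw [tres5ffAct_coe hq hA h N y hstabI g, tres5ff_L_algebraMap_coe, tres5cBaseIncl_coe]
  exact tres5ff_hGLK h (g : ↥E →+* ↥E) (fun k => g.commutes k) _

/-- **(hGA)**: `G` preserves the constants `A_E = A ∩ E`. -/
theorem tres5ff_inst_hGA :
    letI := beta0FieldAlgebra h
    letI := tres5ffAct hq hA h N y hstabI
    ∀ (g : ↥E ≃ₐ[↥(beta0Field A)] ↥E) (a : ↥(beta0Ring A E)),
      ∃ a' : ↥(beta0Ring A E),
        g • algebraMap ↥(modularFunctionFieldFullC ↥E N) ↥(tres5cL E N y)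
            (algebraMap ↥(beta0Ring A E) ↥(modularFunctionFieldFullC ↥E N) a)
          = algebraMap ↥(modularFunctionFieldFullC ↥E N) ↥(tres5cL E N y)
            (algebraMap ↥(beta0Ring A E) ↥(modularFunctionFieldFullC ↥E N) a') ∧
        (a' : ↥E) = g (a : ↥E) := by
  letI := beta0FieldAlgebra h
  letI := tres5ffAct hq hA h N y hstabI
  intro g a
  have hmem : ((g (a : ↥E) : ↥E) : NfQb) ∈ A :=
    tres5ff_gal_mem_A hq hA h (g : ↥E ≃+* ↥E) (fun k => g.commutes k) a.2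
  refine ⟨⟨g (a : ↥E), hmem⟩, Subtype.ext ?_, rfl⟩
  rw [tres5ffAct_coe hq hA h N y hstabI g, tres5ff_L_algebraMap_coe, tres5ff_L_algebraMap_coe]
  show coeffMap ((g : ↥E ≃ₐ[↥(beta0Field A)] ↥E) : ↥E →+* ↥E)
      (algebraMap ↥E (LaurentSeries ↥E) (a : ↥E)) = algebraMap ↥E (LaurentSeries ↥E) (g (a : ↥E))
  exact coeffMap_algebraMap _ _

end Inst

end Fermat.Agent.R38

end
end ZBR38_018_9

/-! ### bundled: `Fermat.Agent.R38.TresFacTrMain` -/
section ZBR38_018_10
/-
ROW 38, TRES, piece FAC-TR (helper90), part 5: (T3), final form.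

* `tresft_main` : `tresft_main_of` (`R38/TresFacTrConc.lean`) with the reduction facts (R1), (R3)
  of helper72 (`R38/TresFacTrRed.lean`) plugged in: for abstract covers `L / F_N(K₀)`,
  `L₂ / F_N(K₁)`;
* `tresft_main_conc` : the same on helper78's concrete tower `L_K = tres5cL K₀ N y`,
  `L_E = tres5cL K₁ N y`, `tres5cIncl N y h : L_K →+* L_E` (`R38/TresCoverTower.lean`).
Output = hypothesis `hcmp` (I6) of helper89's `tresmono_frame`.
-/

set_option autoImplicit false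
set_option linter.unusedSectionVars false
set_option linter.unusedVariables false
set_option linter.style.haveILetI false
set_option linter.style.longLine false
set_option synthInstance.maxHeartbeats 400000
set_option maxHeartbeats 1600000

noncomputable section

namespace Fermat.Agent.R38

open ModularCurve AlgebraicCurve Fermat.Agent.ES Fermat.Agent.ES.G2 Fermat.Agent.INJ
  Fermat.Agent.UNIP Fermat.Agent.STB Fermat.Agent.ES.M Fermat.Agent.DEU Fermat.Agent.S36
  Fermat.Agent.RIB.MP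

section Main

variable {M₁ q : ℕ} [NeZero M₁] [NeZero q] [NeZero (M₁ * q)] (hq : q.Prime) (hqM : ¬ q ∣ M₁)
  {A : ValuationSubring Qb} (hA : A.LiesOverPrime q) {K₀ K₁ : IntermediateField ℚ Qb}
  [IsDiscreteValuationRing ↥(beta0Ring A K₀)] {π₀ : ↥(beta0Ring A K₀)} (hπ₀ : Irreducible π₀)
  [IsDiscreteValuationRing ↥(beta0Ring A K₁)] {π₁ : ↥(beta0Ring A K₁)} (hπ₁ : Irreducible π₁)
  (ιC₀ : ↥K₀ →+* ℂ) (ιC₁ : ↥K₁ →+* ℂ) (h : K₀ ≤ K₁)

include hA in
/-- **(T3)**: `u = b γ ^ p u″` over `K₁`, `R38Red A u r` ⇒ `r ∈ F̄_{M₁}(k)` and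
`r = a · ρ_W (u″ / π ^ m) · s ^ p`. -/
theorem tresft_main (hRedF : StmtRedF M₁ A)
    {L L₂ : Type*} [Field L] [Field L₂]
    [Algebra ↥(modularFunctionFieldFullC ↥K₀ (M₁ * q)) L]
    [Algebra ↥(modularFunctionFieldFullC ↥K₁ (M₁ * q)) L₂] [Algebra L L₂]
    (hsq : ∀ x : ↥(modularFunctionFieldFullC ↥K₀ (M₁ * q)),
      algebraMap L L₂ (algebraMap ↥(modularFunctionFieldFullC ↥K₀ (M₁ * q)) L x) =
        algebraMap ↥(modularFunctionFieldFullC ↥K₁ (M₁ * q)) L₂ (mgaIncl h (M₁ * q) x))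
    {n n₂ : ℕ}
    (S : Tres5Gen ↥(modularFunctionFieldFullC ↥K₀ (M₁ * q)) L (mgvV hπ₀ ιC₀ hq hqM true) n)
    (S₂ : Tres5Gen ↥(modularFunctionFieldFullC ↥K₁ (M₁ * q)) L₂ (mgvV hπ₁ ιC₁ hq hqM true) n₂)
    (hSπ : ∃ c : ↥K₀, S.π = algebraMap ↥K₀ ↥(modularFunctionFieldFullC ↥K₀ (M₁ * q)) c)
    (hS₂π : ∃ c : ↥K₁, S₂.π = algebraMap ↥K₁ ↥(modularFunctionFieldFullC ↥K₁ (M₁ * q)) c)
    {k k₂ : ℕ} (hk : k < n) (hk₂ : k₂ < n₂)
    (hW : (S₂.W k₂).comap (algebraMap L L₂) = S.W k)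
    (ρW : ↥(S.W k) →+* ↥(modularFunctionFieldFullC (kA A) M₁))
    (hρW : ∀ (a : ↥(modularFunctionFieldFullC ↥K₀ (M₁ * q))) (ha : a ∈ mgvV hπ₀ ιC₀ hq hqM true)
      (haW : algebraMap ↥(modularFunctionFieldFullC ↥K₀ (M₁ * q)) L a ∈ S.W k),
      ρW ⟨algebraMap ↥(modularFunctionFieldFullC ↥K₀ (M₁ * q)) L a, haW⟩ =
        ribmpRedF hq hqM hA hπ₀ ιC₀ hRedF ⟨a, ha⟩)
    (hρWker : ∀ x : ↥(S.W k), (x : L) ∈ (S.W k).nonunits → ρW x = 0)
    {p : ℕ} {u : ↥(modularFunctionFieldFullC ↥K₁ (M₁ * q))} {b : ↥K₁} {γ : L₂} {u'' : L}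
    (hu0 : u ≠ 0) (hγ0 : γ ≠ 0)
    (hfac : algebraMap ↥(modularFunctionFieldFullC ↥K₁ (M₁ * q)) L₂ u =
      algebraMap ↥(modularFunctionFieldFullC ↥K₁ (M₁ * q)) L₂
        (algebraMap ↥K₁ ↥(modularFunctionFieldFullC ↥K₁ (M₁ * q)) b) * γ ^ p *
        algebraMap L L₂ u'')
    {r : LaurentSeries (kA A)}
    (hr : R38Red A
      ((nfEmb K₁ (M₁ * q) u : modularFunctionFieldBar (M₁ * q)) : LaurentSeries Qb) r)
    {m : ℤ}
    (hm : (S.W k).valuation
      (u'' / algebraMap ↥(modularFunctionFieldFullC ↥K₀ (M₁ * q)) L S.π ^ m) = 1) :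
    ∃ (hrF : r ∈ modularFunctionFieldFullC (kA A) M₁) (a : kA A)
      (s : ↥(modularFunctionFieldFullC (kA A) M₁)), a ≠ 0 ∧ s ≠ 0 ∧
      ρW ⟨u'' / algebraMap ↥(modularFunctionFieldFullC ↥K₀ (M₁ * q)) L S.π ^ m,
        tresft_mem_of_val _ hm⟩ ≠ 0 ∧
      (⟨r, hrF⟩ : ↥(modularFunctionFieldFullC (kA A) M₁)) =
        algebraMap (kA A) ↥(modularFunctionFieldFullC (kA A) M₁) a *
          ρW ⟨u'' / algebraMap ↥(modularFunctionFieldFullC ↥K₀ (M₁ * q)) L S.π ^ m,
            tresft_mem_of_val _ hm⟩ * s ^ p :=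
  tresft_main_of hq hqM hA hπ₀ hπ₁ ιC₀ ιC₁ h hRedF
    (fun c hc => tresftr_const hq hqM hA hπ₁ ιC₁ hRedF c hc)
    (fun u r hr c₀ hv => tresftr_red_F hq hqM hA hπ₁ ιC₁ hRedF u c₀ hr hv)
    hsq S S₂ hSπ hS₂π hk hk₂ hW ρW hρW hρWker hu0 hγ0 hfac hr hm

include hA in
/-- **(T3) on the concrete tower** `L_K = tres5cL K₀ N y ⊆ L_E = tres5cL K₁ N y`. -/
theorem tresft_main_conc (hRedF : StmtRedF M₁ A) (y : LaurentSeries Qb)
    {n n₂ : ℕ}
    (S : Tres5Gen ↥(modularFunctionFieldFullC ↥K₀ (M₁ * q)) ↥(tres5cL K₀ (M₁ * q) y)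
      (mgvV hπ₀ ιC₀ hq hqM true) n)
    (S₂ : Tres5Gen ↥(modularFunctionFieldFullC ↥K₁ (M₁ * q)) ↥(tres5cL K₁ (M₁ * q) y)
      (mgvV hπ₁ ιC₁ hq hqM true) n₂)
    (hSπ : ∃ c : ↥K₀, S.π = algebraMap ↥K₀ ↥(modularFunctionFieldFullC ↥K₀ (M₁ * q)) c)
    (hS₂π : ∃ c : ↥K₁, S₂.π = algebraMap ↥K₁ ↥(modularFunctionFieldFullC ↥K₁ (M₁ * q)) c)
    {k k₂ : ℕ} (hk : k < n) (hk₂ : k₂ < n₂)
    (hW : (S₂.W k₂).comap (tres5cIncl (M₁ * q) y h) = S.W k)
    (ρW : ↥(S.W k) →+* ↥(modularFunctionFieldFullC (kA A) M₁))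
    (hρW : ∀ (a : ↥(modularFunctionFieldFullC ↥K₀ (M₁ * q))) (ha : a ∈ mgvV hπ₀ ιC₀ hq hqM true)
      (haW : algebraMap ↥(modularFunctionFieldFullC ↥K₀ (M₁ * q)) ↥(tres5cL K₀ (M₁ * q) y) a ∈
        S.W k),
      ρW ⟨algebraMap ↥(modularFunctionFieldFullC ↥K₀ (M₁ * q)) ↥(tres5cL K₀ (M₁ * q) y) a, haW⟩ =
        ribmpRedF hq hqM hA hπ₀ ιC₀ hRedF ⟨a, ha⟩)
    (hρWker : ∀ x : ↥(S.W k), (x : ↥(tres5cL K₀ (M₁ * q) y)) ∈ (S.W k).nonunits → ρW x = 0)
    {p : ℕ} {u : ↥(modularFunctionFieldFullC ↥K₁ (M₁ * q))} {b : ↥K₁}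
    {γ : ↥(tres5cL K₁ (M₁ * q) y)} {u'' : ↥(tres5cL K₀ (M₁ * q) y)}
    (hu0 : u ≠ 0) (hγ0 : γ ≠ 0)
    (hfac : algebraMap ↥(modularFunctionFieldFullC ↥K₁ (M₁ * q)) ↥(tres5cL K₁ (M₁ * q) y) u =
      algebraMap ↥(modularFunctionFieldFullC ↥K₁ (M₁ * q)) ↥(tres5cL K₁ (M₁ * q) y)
        (algebraMap ↥K₁ ↥(modularFunctionFieldFullC ↥K₁ (M₁ * q)) b) * γ ^ p *
        tres5cIncl (M₁ * q) y h u'')
    {r : LaurentSeries (kA A)}
    (hr : R38Red A
      ((nfEmb K₁ (M₁ * q) u : modularFunctionFieldBar (M₁ * q)) : LaurentSeries Qb) r)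
    {m : ℤ}
    (hm : (S.W k).valuation (u'' /
      algebraMap ↥(modularFunctionFieldFullC ↥K₀ (M₁ * q)) ↥(tres5cL K₀ (M₁ * q) y) S.π ^ m) =
        1) :
    ∃ (hrF : r ∈ modularFunctionFieldFullC (kA A) M₁) (a : kA A)
      (s : ↥(modularFunctionFieldFullC (kA A) M₁)), a ≠ 0 ∧ s ≠ 0 ∧
      ρW ⟨u'' / algebraMap ↥(modularFunctionFieldFullC ↥K₀ (M₁ * q))
        ↥(tres5cL K₀ (M₁ * q) y) S.π ^ m, tresft_mem_of_val _ hm⟩ ≠ 0 ∧
      (⟨r, hrF⟩ : ↥(modularFunctionFieldFullC (kA A) M₁)) =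
        algebraMap (kA A) ↥(modularFunctionFieldFullC (kA A) M₁) a *
          ρW ⟨u'' / algebraMap ↥(modularFunctionFieldFullC ↥K₀ (M₁ * q))
            ↥(tres5cL K₀ (M₁ * q) y) S.π ^ m, tresft_mem_of_val _ hm⟩ * s ^ p := by
  letI algLL : Algebra ↥(tres5cL K₀ (M₁ * q) y) ↥(tres5cL K₁ (M₁ * q) y) :=
    tres5cAlgLL (M₁ * q) y h
  exact tresft_main hq hqM hA hπ₀ hπ₁ ιC₀ ιC₁ h hRedF (fun x => Subtype.ext rfl) S S₂ hSπ hS₂π
    hk hk₂ hW ρW hρW hρWker hu0 hγ0 hfac hr hm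

end Main

end Fermat.Agent.R38

end
end ZBR38_018_10

/-! ### bundled: `Fermat.Agent.R38.TresMonoWire` -/
section ZBR38_018_11
/-
ROW 38, TRES, piece FAC-ASM-MAIN, M3 frame wiring, the block "ρW + hcmp" (helper90).

Frame of helper89's `tresmonof_frame` (`R38/TresMonoConcF.lean`) at the cover
`L = L_K = tres5cL K₀ (M₁ p) y` (helper78), `W = T.W k` a sheet of `T : Tres5Gen F_K L_K V_∞ n`
(helper53's `tres5kiv_descend`), `K₀ ≤ K₁`, `S₂ : Tres5Gen F_E L_E V_∞ n₂` the cover over the big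
field `E = K₁` (FAC-BIG), with `T.W k = (S₂.W k₂).comap (tres5cIncl …)`.

* `tresmw_rho`   : `hWV`, `ρW`, `hρW`, `hρWker` of `tresmonof_frame` for `W = T.W k`
                   (= `tresft_sheet_gen`);
* `tresmw_cmp`   : `ρW`, `hρW`, `hρWker` **and** `hcmp` (I6) for `y := w / π ^ m`:
                   from `U = nfEmb v`, `v = b · g ^ p · w` in `L_E` (helper30's `tresftf_main`),
                   `R38Red A U r`, `v_W (w / π ^ m) = 1`:
                   `r ∈ F̄_{M₁}` and `r = a · ρW (w / π ^ m) · s ^ p`;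
* `tresmw_cmp_exists` : the same, with the exponent `m` produced by `T.W_unif`.
-/

set_option autoImplicit false
set_option linter.unusedSectionVars false
set_option linter.unusedVariables false
set_option linter.style.haveILetI false
set_option linter.style.longLine false
set_option synthInstance.maxHeartbeats 400000
set_option maxHeartbeats 1600000

noncomputable section

namespace Fermat.Agent.R38

open ModularCurve AlgebraicCurve Fermat.Agent.ES Fermat.Agent.ES.G2 Fermat.Agent.INJ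
  Fermat.Agent.UNIP Fermat.Agent.STB Fermat.Agent.ES.M Fermat.Agent.DEU Fermat.Agent.S36
  Fermat.Agent.RIB.MP

section Rho

variable {M₁ q : ℕ} [NeZero M₁] [NeZero q] [NeZero (M₁ * q)] (hq : q.Prime) (hqM : ¬ q ∣ M₁)
  {A : ValuationSubring Qb} (hA : A.LiesOverPrime q) {K₀ : IntermediateField ℚ Qb}
  [IsDiscreteValuationRing ↥(beta0Ring A K₀)] {π₀ : ↥(beta0Ring A K₀)} (hπ₀ : Irreducible π₀)
  (ιC₀ : ↥K₀ →+* ℂ)

include hA in
/-- **`hWV`, `ρW`, `hρW`, `hρWker`** of `tresmonof_frame` for a sheet `W = T.W k` of an abstract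
cover `L / F_{M₁ q}(K₀)`. -/
theorem tresmw_rho (hRedF : StmtRedF M₁ A) {L : Type*} [Field L]
    [Algebra ↥(modularFunctionFieldFullC ↥K₀ (M₁ * q)) L] {n : ℕ}
    (T : Tres5Gen ↥(modularFunctionFieldFullC ↥K₀ (M₁ * q)) L (mgvV hπ₀ ιC₀ hq hqM true) n)
    {k : ℕ} (hk : k < n) :
    (T.W k).comap (algebraMap ↥(modularFunctionFieldFullC ↥K₀ (M₁ * q)) L) =
        mgvV hπ₀ ιC₀ hq hqM true ∧
    ∃ ρW : ↥(T.W k) →+* ↥(modularFunctionFieldFullC (kA A) M₁),
      (∀ (a : ↥(modularFunctionFieldFullC ↥K₀ (M₁ * q))) (ha : a ∈ mgvV hπ₀ ιC₀ hq hqM true)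
        (haW : algebraMap ↥(modularFunctionFieldFullC ↥K₀ (M₁ * q)) L a ∈ T.W k),
        ρW ⟨algebraMap ↥(modularFunctionFieldFullC ↥K₀ (M₁ * q)) L a, haW⟩ =
          ribmpRedF hq hqM hA hπ₀ ιC₀ hRedF ⟨a, ha⟩) ∧
      (∀ x : ↥(T.W k), (x : L) ∈ (T.W k).nonunits → ρW x = 0) ∧
      (∀ x : ↥(T.W k), ρW x = 0 → (x : L) ∈ (T.W k).nonunits) := by
  obtain ⟨ρ, hext, -, hker⟩ := tresft_sheet_gen T hk (ribmpRedF hq hqM hA hπ₀ ιC₀ hRedF)
    (tresftc_redF_eq_zero_iff hq hqM hA hπ₀ ιC₀ hRedF)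
  exact ⟨T.W_comap hk, ρ, hext, fun x hx => (hker x).2 hx, fun x hx => (hker x).1 hx⟩

end Rho

section Cmp

variable {M₁ q : ℕ} [NeZero M₁] [NeZero q] [NeZero (M₁ * q)] (hq : q.Prime) (hqM : ¬ q ∣ M₁)
  {A : ValuationSubring Qb} (hA : A.LiesOverPrime q) {K₀ K₁ : IntermediateField ℚ Qb}
  [IsDiscreteValuationRing ↥(beta0Ring A K₀)] {π₀ : ↥(beta0Ring A K₀)} (hπ₀ : Irreducible π₀)
  [IsDiscreteValuationRing ↥(beta0Ring A K₁)] {π₁ : ↥(beta0Ring A K₁)} (hπ₁ : Irreducible π₁)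
  (ιC₀ : ↥K₀ →+* ℂ) (ιC₁ : ↥K₁ →+* ℂ) (h : K₀ ≤ K₁)

include hA in
/-- **`ρW` + `hcmp` (I6)** of `tresmonof_frame` at `L = tres5cL K₀ (M₁ q) y`, `W = T.W k`,
`y := w / π ^ m`. -/
theorem tresmw_cmp (hRedF : StmtRedF M₁ A) (y : LaurentSeries Qb)
    {n n₂ : ℕ}
    (T : Tres5Gen ↥(modularFunctionFieldFullC ↥K₀ (M₁ * q)) ↥(tres5cL K₀ (M₁ * q) y)
      (mgvV hπ₀ ιC₀ hq hqM true) n)
    (S₂ : Tres5Gen ↥(modularFunctionFieldFullC ↥K₁ (M₁ * q)) ↥(tres5cL K₁ (M₁ * q) y)
      (mgvV hπ₁ ιC₁ hq hqM true) n₂)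
    (hTπ : ∃ c : ↥K₀, T.π = algebraMap ↥K₀ ↥(modularFunctionFieldFullC ↥K₀ (M₁ * q)) c)
    (hS₂π : ∃ c : ↥K₁, S₂.π = algebraMap ↥K₁ ↥(modularFunctionFieldFullC ↥K₁ (M₁ * q)) c)
    {k k₂ : ℕ} (hk : k < n) (hk₂ : k₂ < n₂)
    (hW : (S₂.W k₂).comap (tres5cIncl (M₁ * q) y h) = T.W k)
    {p : ℕ} {U : LaurentSeries Qb} {v : ↥(modularFunctionFieldFullC ↥K₁ (M₁ * q))}
    (hv : ((nfEmb K₁ (M₁ * q) v : modularFunctionFieldBar (M₁ * q)) : LaurentSeries Qb) = U)
    (hU0 : U ≠ 0)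
    {b : ↥K₁} {g : ↥(tres5cL K₁ (M₁ * q) y)} {w : ↥(tres5cL K₀ (M₁ * q) y)} (hg0 : g ≠ 0)
    (hfac : algebraMap ↥(modularFunctionFieldFullC ↥K₁ (M₁ * q)) ↥(tres5cL K₁ (M₁ * q) y) v =
      algebraMap ↥(modularFunctionFieldFullC ↥K₁ (M₁ * q)) ↥(tres5cL K₁ (M₁ * q) y)
        (algebraMap ↥K₁ ↥(modularFunctionFieldFullC ↥K₁ (M₁ * q)) b) * g ^ p *
        tres5cIncl (M₁ * q) y h w)
    {r : LaurentSeries (kA A)} (hr : R38Red A U r)
    {m : ℤ}
    (hm : (T.W k).valuation (w /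
      algebraMap ↥(modularFunctionFieldFullC ↥K₀ (M₁ * q)) ↥(tres5cL K₀ (M₁ * q) y) T.π ^ m) =
        1) :
    ∃ ρW : ↥(T.W k) →+* ↥(modularFunctionFieldFullC (kA A) M₁),
      (∀ (a : ↥(modularFunctionFieldFullC ↥K₀ (M₁ * q))) (ha : a ∈ mgvV hπ₀ ιC₀ hq hqM true)
        (haW : algebraMap ↥(modularFunctionFieldFullC ↥K₀ (M₁ * q)) ↥(tres5cL K₀ (M₁ * q) y) a ∈
          T.W k),
        ρW ⟨algebraMap ↥(modularFunctionFieldFullC ↥K₀ (M₁ * q)) ↥(tres5cL K₀ (M₁ * q) y) a,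
            haW⟩ = ribmpRedF hq hqM hA hπ₀ ιC₀ hRedF ⟨a, ha⟩) ∧
      (∀ x : ↥(T.W k), (x : ↥(tres5cL K₀ (M₁ * q) y)) ∈ (T.W k).nonunits → ρW x = 0) ∧
      ∃ (hr' : r ∈ modularFunctionFieldFullC (kA A) M₁) (a : kA A)
        (s : ↥(modularFunctionFieldFullC (kA A) M₁)), a ≠ 0 ∧ s ≠ 0 ∧
        (⟨r, hr'⟩ : ↥(modularFunctionFieldFullC (kA A) M₁)) =
          algebraMap (kA A) ↥(modularFunctionFieldFullC (kA A) M₁) a *
            ρW ⟨w / algebraMap ↥(modularFunctionFieldFullC ↥K₀ (M₁ * q))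
              ↥(tres5cL K₀ (M₁ * q) y) T.π ^ m, tresdn_mem (T.W k) hm⟩ * s ^ p := by
  obtain ⟨-, ρW, hρW, hρWker, -⟩ := tresmw_rho hq hqM hA hπ₀ ιC₀ hRedF T hk
  have hv0 : v ≠ 0 := by
    rintro rfl
    apply hU0
    rw [← hv, map_zero]
    rfl
  have hr₁ : R38Red A
      ((nfEmb K₁ (M₁ * q) v : modularFunctionFieldBar (M₁ * q)) : LaurentSeries Qb) r := by
    rw [hv]
    exact hr
  obtain ⟨hrF, a, s, ha, hs, -, hrs⟩ :=
    tresft_main_conc hq hqM hA hπ₀ hπ₁ ιC₀ ιC₁ h hRedF y T S₂ hTπ hS₂π hk hk₂ hW ρW hρW hρWker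
      hv0 hg0 hfac hr₁ hm
  exact ⟨ρW, hρW, hρWker, hrF, a, s, ha, hs, hrs⟩

include hA in
/-- **`ρW` + `hcmp`**, with the exponent `m` produced by the sheet (`T.W_unif`). -/
theorem tresmw_cmp_exists (hRedF : StmtRedF M₁ A) (y : LaurentSeries Qb)
    {n n₂ : ℕ}
    (T : Tres5Gen ↥(modularFunctionFieldFullC ↥K₀ (M₁ * q)) ↥(tres5cL K₀ (M₁ * q) y)
      (mgvV hπ₀ ιC₀ hq hqM true) n)
    (S₂ : Tres5Gen ↥(modularFunctionFieldFullC ↥K₁ (M₁ * q)) ↥(tres5cL K₁ (M₁ * q) y)
      (mgvV hπ₁ ιC₁ hq hqM true) n₂)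
    (hTπ : ∃ c : ↥K₀, T.π = algebraMap ↥K₀ ↥(modularFunctionFieldFullC ↥K₀ (M₁ * q)) c)
    (hS₂π : ∃ c : ↥K₁, S₂.π = algebraMap ↥K₁ ↥(modularFunctionFieldFullC ↥K₁ (M₁ * q)) c)
    {k k₂ : ℕ} (hk : k < n) (hk₂ : k₂ < n₂)
    (hW : (S₂.W k₂).comap (tres5cIncl (M₁ * q) y h) = T.W k)
    {p : ℕ} {U : LaurentSeries Qb} {v : ↥(modularFunctionFieldFullC ↥K₁ (M₁ * q))}
    (hv : ((nfEmb K₁ (M₁ * q) v : modularFunctionFieldBar (M₁ * q)) : LaurentSeries Qb) = U)
    (hU0 : U ≠ 0)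
    {b : ↥K₁} {g : ↥(tres5cL K₁ (M₁ * q) y)} {w : ↥(tres5cL K₀ (M₁ * q) y)} (hg0 : g ≠ 0)
    (hw0 : w ≠ 0)
    (hfac : algebraMap ↥(modularFunctionFieldFullC ↥K₁ (M₁ * q)) ↥(tres5cL K₁ (M₁ * q) y) v =
      algebraMap ↥(modularFunctionFieldFullC ↥K₁ (M₁ * q)) ↥(tres5cL K₁ (M₁ * q) y)
        (algebraMap ↥K₁ ↥(modularFunctionFieldFullC ↥K₁ (M₁ * q)) b) * g ^ p *
        tres5cIncl (M₁ * q) y h w)
    {r : LaurentSeries (kA A)} (hr : R38Red A U r) :
    ∃ (m : ℤ) (hm : (T.W k).valuation (w /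
        algebraMap ↥(modularFunctionFieldFullC ↥K₀ (M₁ * q)) ↥(tres5cL K₀ (M₁ * q) y) T.π ^ m) =
          1)
      (ρW : ↥(T.W k) →+* ↥(modularFunctionFieldFullC (kA A) M₁)),
      (∀ (a : ↥(modularFunctionFieldFullC ↥K₀ (M₁ * q))) (ha : a ∈ mgvV hπ₀ ιC₀ hq hqM true)
        (haW : algebraMap ↥(modularFunctionFieldFullC ↥K₀ (M₁ * q)) ↥(tres5cL K₀ (M₁ * q) y) a ∈
          T.W k),
        ρW ⟨algebraMap ↥(modularFunctionFieldFullC ↥K₀ (M₁ * q)) ↥(tres5cL K₀ (M₁ * q) y) a,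
            haW⟩ = ribmpRedF hq hqM hA hπ₀ ιC₀ hRedF ⟨a, ha⟩) ∧
      (∀ x : ↥(T.W k), (x : ↥(tres5cL K₀ (M₁ * q) y)) ∈ (T.W k).nonunits → ρW x = 0) ∧
      ∃ (hr' : r ∈ modularFunctionFieldFullC (kA A) M₁) (a : kA A)
        (s : ↥(modularFunctionFieldFullC (kA A) M₁)), a ≠ 0 ∧ s ≠ 0 ∧
        (⟨r, hr'⟩ : ↥(modularFunctionFieldFullC (kA A) M₁)) =
          algebraMap (kA A) ↥(modularFunctionFieldFullC (kA A) M₁) a *
            ρW ⟨w / algebraMap ↥(modularFunctionFieldFullC ↥K₀ (M₁ * q))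
              ↥(tres5cL K₀ (M₁ * q) y) T.π ^ m, tresdn_mem (T.W k) hm⟩ * s ^ p := by
  obtain ⟨m, hm⟩ := T.W_unif hk hw0
  exact ⟨m, hm, tresmw_cmp hq hqM hA hπ₀ hπ₁ ιC₀ ιC₁ h hRedF y T S₂ hTπ hS₂π hk hk₂ hW hv hU0
    hg0 hfac hr hm⟩

include hA in
/-- **`ρW` + `hcmp`, in the literal shape of `tresmonof_frame`**: `Y` a variable with
`Y = w / π′ ^ m`, `T.π = π′` (helper74's `tresm2_pack`, helper53's `tres5kiv_descend`). -/
theorem tresmw_cmp_y (hRedF : StmtRedF M₁ A) (y : LaurentSeries Qb)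
    {n n₂ : ℕ}
    (T : Tres5Gen ↥(modularFunctionFieldFullC ↥K₀ (M₁ * q)) ↥(tres5cL K₀ (M₁ * q) y)
      (mgvV hπ₀ ιC₀ hq hqM true) n)
    (S₂ : Tres5Gen ↥(modularFunctionFieldFullC ↥K₁ (M₁ * q)) ↥(tres5cL K₁ (M₁ * q) y)
      (mgvV hπ₁ ιC₁ hq hqM true) n₂)
    (hTπ : ∃ c : ↥K₀, T.π = algebraMap ↥K₀ ↥(modularFunctionFieldFullC ↥K₀ (M₁ * q)) c)
    (hS₂π : ∃ c : ↥K₁, S₂.π = algebraMap ↥K₁ ↥(modularFunctionFieldFullC ↥K₁ (M₁ * q)) c)
    {k k₂ : ℕ} (hk : k < n) (hk₂ : k₂ < n₂)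
    (hW : (S₂.W k₂).comap (tres5cIncl (M₁ * q) y h) = T.W k)
    {p : ℕ} {U : LaurentSeries Qb} {v : ↥(modularFunctionFieldFullC ↥K₁ (M₁ * q))}
    (hv : ((nfEmb K₁ (M₁ * q) v : modularFunctionFieldBar (M₁ * q)) : LaurentSeries Qb) = U)
    (hU0 : U ≠ 0)
    {b : ↥K₁} {g : ↥(tres5cL K₁ (M₁ * q) y)} {w : ↥(tres5cL K₀ (M₁ * q) y)} (hg0 : g ≠ 0)
    (hfac : algebraMap ↥(modularFunctionFieldFullC ↥K₁ (M₁ * q)) ↥(tres5cL K₁ (M₁ * q) y) v =
      algebraMap ↥(modularFunctionFieldFullC ↥K₁ (M₁ * q)) ↥(tres5cL K₁ (M₁ * q) y)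
        (algebraMap ↥K₁ ↥(modularFunctionFieldFullC ↥K₁ (M₁ * q)) b) * g ^ p *
        tres5cIncl (M₁ * q) y h w)
    {r : LaurentSeries (kA A)} (hr : R38Red A U r)
    {π' : ↥(modularFunctionFieldFullC ↥K₀ (M₁ * q))} (hT : T.π = π') {m : ℤ}
    {Y : ↥(tres5cL K₀ (M₁ * q) y)}
    (hY : Y = w /
      algebraMap ↥(modularFunctionFieldFullC ↥K₀ (M₁ * q)) ↥(tres5cL K₀ (M₁ * q) y) π' ^ m)
    (hy : (T.W k).valuation Y = 1) :
    ∃ ρW : ↥(T.W k) →+* ↥(modularFunctionFieldFullC (kA A) M₁),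
      (∀ (a : ↥(modularFunctionFieldFullC ↥K₀ (M₁ * q))) (ha : a ∈ mgvV hπ₀ ιC₀ hq hqM true)
        (haW : algebraMap ↥(modularFunctionFieldFullC ↥K₀ (M₁ * q)) ↥(tres5cL K₀ (M₁ * q) y) a ∈
          T.W k),
        ρW ⟨algebraMap ↥(modularFunctionFieldFullC ↥K₀ (M₁ * q)) ↥(tres5cL K₀ (M₁ * q) y) a,
            haW⟩ = ribmpRedF hq hqM hA hπ₀ ιC₀ hRedF ⟨a, ha⟩) ∧
      (∀ x : ↥(T.W k), (x : ↥(tres5cL K₀ (M₁ * q) y)) ∈ (T.W k).nonunits → ρW x = 0) ∧
      ∃ (hr' : r ∈ modularFunctionFieldFullC (kA A) M₁) (a : kA A)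
        (s : ↥(modularFunctionFieldFullC (kA A) M₁)), a ≠ 0 ∧ s ≠ 0 ∧
        (⟨r, hr'⟩ : ↥(modularFunctionFieldFullC (kA A) M₁)) =
          algebraMap (kA A) ↥(modularFunctionFieldFullC (kA A) M₁) a *
            ρW ⟨Y, tresdn_mem (T.W k) hy⟩ * s ^ p := by
  subst hT
  subst hY
  exact tresmw_cmp hq hqM hA hπ₀ hπ₁ ιC₀ ιC₁ h hRedF y T S₂ hTπ hS₂π hk hk₂ hW hv hU0
    hg0 hfac hr hy

include hA in
/-- **`ρW` + `hcmp` WITHOUT any compatibility between `T` and `S₂`**: `T` any split generator of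
the cover over `K₀`, `S₂` any split generator of the cover over `K₁ ⊇ K₀` (e.g. FAC-BIG over the
field `K₁` produced by `tresftf_main`).  The sheet `W = T.W k` is the one below the sheet `0` of
`S₂` (`tresft_sheet_below`); the hypotheses (I3), (I4) hold on every sheet. -/
theorem tresmw_cmp_below (hRedF : StmtRedF M₁ A) (y : LaurentSeries Qb)
    {n n₂ : ℕ}
    (T : Tres5Gen ↥(modularFunctionFieldFullC ↥K₀ (M₁ * q)) ↥(tres5cL K₀ (M₁ * q) y)
      (mgvV hπ₀ ιC₀ hq hqM true) n)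
    (S₂ : Tres5Gen ↥(modularFunctionFieldFullC ↥K₁ (M₁ * q)) ↥(tres5cL K₁ (M₁ * q) y)
      (mgvV hπ₁ ιC₁ hq hqM true) n₂)
    (hTπ : ∃ c : ↥K₀, T.π = algebraMap ↥K₀ ↥(modularFunctionFieldFullC ↥K₀ (M₁ * q)) c)
    (hS₂π : ∃ c : ↥K₁, S₂.π = algebraMap ↥K₁ ↥(modularFunctionFieldFullC ↥K₁ (M₁ * q)) c)
    {p : ℕ} {U : LaurentSeries Qb} {v : ↥(modularFunctionFieldFullC ↥K₁ (M₁ * q))}
    (hv : ((nfEmb K₁ (M₁ * q) v : modularFunctionFieldBar (M₁ * q)) : LaurentSeries Qb) = U)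
    (hU0 : U ≠ 0)
    {b : ↥K₁} {g : ↥(tres5cL K₁ (M₁ * q) y)} {w : ↥(tres5cL K₀ (M₁ * q) y)} (hg0 : g ≠ 0)
    (hw0 : w ≠ 0)
    (hfac : algebraMap ↥(modularFunctionFieldFullC ↥K₁ (M₁ * q)) ↥(tres5cL K₁ (M₁ * q) y) v =
      algebraMap ↥(modularFunctionFieldFullC ↥K₁ (M₁ * q)) ↥(tres5cL K₁ (M₁ * q) y)
        (algebraMap ↥K₁ ↥(modularFunctionFieldFullC ↥K₁ (M₁ * q)) b) * g ^ p *
        tres5cIncl (M₁ * q) y h w)
    {r : LaurentSeries (kA A)} (hr : R38Red A U r) :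
    ∃ k < n,
      (T.W k).comap (algebraMap ↥(modularFunctionFieldFullC ↥K₀ (M₁ * q))
        ↥(tres5cL K₀ (M₁ * q) y)) = mgvV hπ₀ ιC₀ hq hqM true ∧
      ∃ (m : ℤ) (hm : (T.W k).valuation (w /
        algebraMap ↥(modularFunctionFieldFullC ↥K₀ (M₁ * q)) ↥(tres5cL K₀ (M₁ * q) y) T.π ^ m) =
          1)
      (ρW : ↥(T.W k) →+* ↥(modularFunctionFieldFullC (kA A) M₁)),
      (∀ (a : ↥(modularFunctionFieldFullC ↥K₀ (M₁ * q))) (ha : a ∈ mgvV hπ₀ ιC₀ hq hqM true)
        (haW : algebraMap ↥(modularFunctionFieldFullC ↥K₀ (M₁ * q)) ↥(tres5cL K₀ (M₁ * q) y) a ∈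
          T.W k),
        ρW ⟨algebraMap ↥(modularFunctionFieldFullC ↥K₀ (M₁ * q)) ↥(tres5cL K₀ (M₁ * q) y) a,
            haW⟩ = ribmpRedF hq hqM hA hπ₀ ιC₀ hRedF ⟨a, ha⟩) ∧
      (∀ x : ↥(T.W k), (x : ↥(tres5cL K₀ (M₁ * q) y)) ∈ (T.W k).nonunits → ρW x = 0) ∧
      ∃ (hr' : r ∈ modularFunctionFieldFullC (kA A) M₁) (a : kA A)
        (s : ↥(modularFunctionFieldFullC (kA A) M₁)), a ≠ 0 ∧ s ≠ 0 ∧
        (⟨r, hr'⟩ : ↥(modularFunctionFieldFullC (kA A) M₁)) =
          algebraMap (kA A) ↥(modularFunctionFieldFullC (kA A) M₁) a *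
            ρW ⟨w / algebraMap ↥(modularFunctionFieldFullC ↥K₀ (M₁ * q))
              ↥(tres5cL K₀ (M₁ * q) y) T.π ^ m, tresdn_mem (T.W k) hm⟩ * s ^ p := by
  have hn₂ : 0 < n₂ := Nat.pos_of_ne_zero S₂.hn
  obtain ⟨k, hk, hW⟩ : ∃ k < n, (S₂.W 0).comap (tres5cIncl (M₁ * q) y h) = T.W k := by
    letI algLL : Algebra ↥(tres5cL K₀ (M₁ * q) y) ↥(tres5cL K₁ (M₁ * q) y) :=
      tres5cAlgLL (M₁ * q) y h
    exact tresft_sheet_below hq hqM hπ₀ hπ₁ ιC₀ ιC₁ h (fun x => Subtype.ext rfl) T S₂ hn₂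
  obtain ⟨m, hm, H⟩ := tresmw_cmp_exists hq hqM hA hπ₀ hπ₁ ιC₀ ιC₁ h hRedF y T S₂ hTπ hS₂π
    hk hn₂ hW hv hU0 hg0 hw0 hfac hr
  exact ⟨k, hk, T.W_comap hk, m, hm, H⟩

include hA in
/-- **`ρW` + `hcmp`, plug-and-play form**: `tresmw_cmp_below` with the uniformizers in the shape
delivered by helper53's `tres5kiv_descend` (`T.π = algebraMap A₀ F π₀`) and helper16's
`tres5biv_kum` (`S.π = algebraMap A₁ F₁ π₁`), and the conclusion in the shape `hm`, `y` of
helper41's `tresmt_loc`. -/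
theorem tresmw_cmp_inst (hRedF : StmtRedF M₁ A) (y : LaurentSeries Qb)
    {n n₂ : ℕ}
    (T : Tres5Gen ↥(modularFunctionFieldFullC ↥K₀ (M₁ * q)) ↥(tres5cL K₀ (M₁ * q) y)
      (mgvV hπ₀ ιC₀ hq hqM true) n)
    (S₂ : Tres5Gen ↥(modularFunctionFieldFullC ↥K₁ (M₁ * q)) ↥(tres5cL K₁ (M₁ * q) y)
      (mgvV hπ₁ ιC₁ hq hqM true) n₂)
    {ϖ₀ : ↥(beta0Ring A K₀)} {ϖ₁ : ↥(beta0Ring A K₁)}
    (hT : T.π = algebraMap ↥(beta0Ring A K₀) ↥(modularFunctionFieldFullC ↥K₀ (M₁ * q)) ϖ₀)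
    (hS₂ : S₂.π = algebraMap ↥(beta0Ring A K₁) ↥(modularFunctionFieldFullC ↥K₁ (M₁ * q)) ϖ₁)
    {p : ℕ} {U : LaurentSeries Qb} {v : ↥(modularFunctionFieldFullC ↥K₁ (M₁ * q))}
    (hv : ((nfEmb K₁ (M₁ * q) v : modularFunctionFieldBar (M₁ * q)) : LaurentSeries Qb) = U)
    (hU0 : U ≠ 0)
    {b : ↥K₁} {g : ↥(tres5cL K₁ (M₁ * q) y)} {w : ↥(tres5cL K₀ (M₁ * q) y)} (hg0 : g ≠ 0)
    (hw0 : w ≠ 0)
    (hfac : algebraMap ↥(modularFunctionFieldFullC ↥K₁ (M₁ * q)) ↥(tres5cL K₁ (M₁ * q) y) v =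
      algebraMap ↥(modularFunctionFieldFullC ↥K₁ (M₁ * q)) ↥(tres5cL K₁ (M₁ * q) y)
        (algebraMap ↥K₁ ↥(modularFunctionFieldFullC ↥K₁ (M₁ * q)) b) * g ^ p *
        tres5cIncl (M₁ * q) y h w)
    {r : LaurentSeries (kA A)} (hr : R38Red A U r) :
    ∃ k < n,
      (T.W k).comap (algebraMap ↥(modularFunctionFieldFullC ↥K₀ (M₁ * q))
        ↥(tres5cL K₀ (M₁ * q) y)) = mgvV hπ₀ ιC₀ hq hqM true ∧
      ∃ (m : ℤ) (hm : (T.W k).valuation (w /
        algebraMap ↥(modularFunctionFieldFullC ↥K₀ (M₁ * q)) ↥(tres5cL K₀ (M₁ * q) y)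
          (algebraMap ↥(beta0Ring A K₀) ↥(modularFunctionFieldFullC ↥K₀ (M₁ * q)) ϖ₀) ^ m) = 1)
      (ρW : ↥(T.W k) →+* ↥(modularFunctionFieldFullC (kA A) M₁)),
      (∀ (a : ↥(modularFunctionFieldFullC ↥K₀ (M₁ * q))) (ha : a ∈ mgvV hπ₀ ιC₀ hq hqM true)
        (haW : algebraMap ↥(modularFunctionFieldFullC ↥K₀ (M₁ * q)) ↥(tres5cL K₀ (M₁ * q) y) a ∈
          T.W k),
        ρW ⟨algebraMap ↥(modularFunctionFieldFullC ↥K₀ (M₁ * q)) ↥(tres5cL K₀ (M₁ * q) y) a,
            haW⟩ = ribmpRedF hq hqM hA hπ₀ ιC₀ hRedF ⟨a, ha⟩) ∧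
      (∀ x : ↥(T.W k), (x : ↥(tres5cL K₀ (M₁ * q) y)) ∈ (T.W k).nonunits → ρW x = 0) ∧
      ∃ (hr' : r ∈ modularFunctionFieldFullC (kA A) M₁) (a : kA A)
        (s : ↥(modularFunctionFieldFullC (kA A) M₁)), a ≠ 0 ∧ s ≠ 0 ∧
        (⟨r, hr'⟩ : ↥(modularFunctionFieldFullC (kA A) M₁)) =
          algebraMap (kA A) ↥(modularFunctionFieldFullC (kA A) M₁) a *
            ρW ⟨w / algebraMap ↥(modularFunctionFieldFullC ↥K₀ (M₁ * q))
              ↥(tres5cL K₀ (M₁ * q) y)
                (algebraMap ↥(beta0Ring A K₀) ↥(modularFunctionFieldFullC ↥K₀ (M₁ * q)) ϖ₀) ^ m,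
              tresdn_mem (T.W k) hm⟩ * s ^ p := by
  have hTπ : ∃ c : ↥K₀, T.π = algebraMap ↥K₀ ↥(modularFunctionFieldFullC ↥K₀ (M₁ * q)) c :=
    ⟨algebraMap ↥(beta0Ring A K₀) ↥K₀ ϖ₀, by
      rw [hT]
      exact IsScalarTower.algebraMap_apply ↥(beta0Ring A K₀) ↥K₀
        ↥(modularFunctionFieldFullC ↥K₀ (M₁ * q)) ϖ₀⟩
  have hS₂π : ∃ c : ↥K₁, S₂.π = algebraMap ↥K₁ ↥(modularFunctionFieldFullC ↥K₁ (M₁ * q)) c :=
    ⟨algebraMap ↥(beta0Ring A K₁) ↥K₁ ϖ₁, by
      rw [hS₂]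
      exact IsScalarTower.algebraMap_apply ↥(beta0Ring A K₁) ↥K₁
        ↥(modularFunctionFieldFullC ↥K₁ (M₁ * q)) ϖ₁⟩
  obtain ⟨k, hk, hWV, m, hm, ρW, h1, h2, hr', a, s, ha, hs, hrs⟩ :=
    tresmw_cmp_below hq hqM hA hπ₀ hπ₁ ιC₀ ιC₁ h hRedF y T S₂ hTπ hS₂π hv hU0 hg0 hw0 hfac hr
  have hm' : (T.W k).valuation (w /
      algebraMap ↥(modularFunctionFieldFullC ↥K₀ (M₁ * q)) ↥(tres5cL K₀ (M₁ * q) y)
        (algebraMap ↥(beta0Ring A K₀) ↥(modularFunctionFieldFullC ↥K₀ (M₁ * q)) ϖ₀) ^ m) = 1 := by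
    rw [← hT]
    exact hm
  refine ⟨k, hk, hWV, m, hm', ρW, h1, h2, hr', a, s, ha, hs, ?_⟩
  have e : (⟨w / algebraMap ↥(modularFunctionFieldFullC ↥K₀ (M₁ * q))
        ↥(tres5cL K₀ (M₁ * q) y)
          (algebraMap ↥(beta0Ring A K₀) ↥(modularFunctionFieldFullC ↥K₀ (M₁ * q)) ϖ₀) ^ m,
        tresdn_mem (T.W k) hm'⟩ : ↥(T.W k)) =
      ⟨w / algebraMap ↥(modularFunctionFieldFullC ↥K₀ (M₁ * q))
        ↥(tres5cL K₀ (M₁ * q) y) T.π ^ m, tresdn_mem (T.W k) hm⟩ :=
    Subtype.ext (congrArg (fun z : ↥(modularFunctionFieldFullC ↥K₀ (M₁ * q)) =>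
      w / algebraMap ↥(modularFunctionFieldFullC ↥K₀ (M₁ * q)) ↥(tres5cL K₀ (M₁ * q) y) z ^ m)
      hT.symm)
  rw [e]
  exact hrs

end Cmp

end Fermat.Agent.R38

end


end ZBR38_018_11
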