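/- GENERATED FILE (helper35, build-time optimisation, NOTES/ZB.md): verbatim concatenation of the modules
   Fermat.Agent.R38.TresLevelUp
   Fermat.Agent.R38.TresBigInstInC
   Do not edit; do not import together with these modules. -/
import Fermat.Agent.ZB.STB_001
import Fermat.Agent.ZB.INJ_025
import Fermat.Agent.ZB.S34_001
import Fermat.Agent.ZB.ES_005
import Fermat.Agent.ZB.R38_013
import Fermat.Agent.ZB.S33_001

/-! ### bundled: `Fermat.Agent.R38.TresLevelUp` -/
section ZBR38_022_0

/-!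
# Row 38, PKG-TRES, piece FAC-LEVELUP (helper28): functions of level `M p` at the level `M q' p`

`M p q' : ℕ`, `p` prime, `p ∤ M`, `p ∤ M q'` (`q'` ANY positive integer, e.g. `M q' = lcm (M, 4)`),
`A ⊂ ℚ̄` a valuation ring, `ι = STB.stbdUp M p q' : F_{M p} →ₐ[ℚ̄] F_{M q' p}` the inclusion (of
subfields of `ℚ̄((q))`, `STB.coe_stbdUp`).

* `treslu_atkinLehner_full`, `treslu_atkinLehnerBar` : the Atkin–Lehner involution `w_p` of level
  `M q' p` restricts to `w_p` of level `M p`:  `w_p (ι u) = ι (w_p u)`;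
* `treslu_congrOneMod`, `treslu_depthInf`, `treslu_depthZero`, `treslu_split` (a) :
  `S33.CongrOneMod`, `S33.DepthInf`, `S33.DepthZero`, `S33.IsSplitFn` ascend along `ι`;
* `treslu_div` (b) : `m ∣ div u` ascends (any `q'`, from `S36.s36aux_dvd_ord`);
* `treslu_reducesToOne`, `treslu_gaussConst`, `treslu_gaussConst_iff`, `treslu_gaussConst_al_iff`
  (c) : `ES.G2.ReducesToOne` ascends, `ES.G2.GaussConst A (M p) u ↔ GaussConst A (M q' p) (ι u)`
  (also for `w_p u`); `treslu_red` : the Gauss reductions `R38Red` of `u` and of `ι u` are the same;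
* `treslu_smul`, `treslu_gcInertiaOp` (d) : the arithmetic Galois action and the operator
  `σ u / u` commute with `ι`.
-/

set_option autoImplicit false
set_option linter.unusedSectionVars false

noncomputable section

namespace Fermat.Agent.R38

open ModularCurve AlgebraicCurve Fermat.Agent.ES Fermat.Agent.ES.G2 Fermat.Agent.STB
  Fermat.Agent.UNIP Fermat.Agent.S33

/-! ### The Atkin–Lehner involution restricts -/

section AL

variable {p M : ℕ} (q' : ℕ) [NeZero p] [NeZero M] [NeZero (M * p)] [NeZero (M * q')]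
  [NeZero (M * q' * p)] (hp : p.Prime) (hpM : ¬ p ∣ M) (hpM' : ¬ p ∣ M * q')

theorem treslu_level_dvd (M p q' : ℕ) : M * p ∣ M * q' * p :=
  Nat.mul_dvd_mul_right (Dvd.intro q' rfl) p

/-- `w_p` at level `M q' p` restricts to `w_p` at level `M p` (full-field form). -/
theorem treslu_atkinLehner_full (y : modularFunctionFieldFullC Qb (M * p)) :
    ((Fermat.Agent.AL.atkinLehner Qb cheapIota hp hpM'
        ⟨(y : LaurentSeries Qb), full_degeneracyC_le Qb (treslu_level_dvd M p q') y.2⟩ :
        modularFunctionFieldFullC Qb (M * q' * p)) : LaurentSeries Qb) =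
      ((Fermat.Agent.AL.atkinLehner Qb cheapIota hp hpM y :
        modularFunctionFieldFullC Qb (M * p)) : LaurentSeries Qb) := by
  set φ₁ : modularFunctionFieldFullC Qb (M * p) →+* LaurentSeries Qb :=
    ((modularFunctionFieldFullC Qb (M * q' * p)).val : _ →+* LaurentSeries Qb).comp
      ((Fermat.Agent.AL.atkinLehner Qb cheapIota hp hpM').toRingEquiv.toRingHom.comp
        (IntermediateField.inclusion (full_degeneracyC_le Qb (treslu_level_dvd M p q')) :
          modularFunctionFieldFullC Qb (M * p) →ₐ[Qb]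
            modularFunctionFieldFullC Qb (M * q' * p)).toRingHom) with hφ₁
  set φ₂ : modularFunctionFieldFullC Qb (M * p) →+* LaurentSeries Qb :=
    ((modularFunctionFieldFullC Qb (M * p)).val : _ →+* LaurentSeries Qb).comp
      (Fermat.Agent.AL.atkinLehner Qb cheapIota hp hpM).toRingEquiv.toRingHom with hφ₂
  have key : φ₁ = φ₂ := by
    apply Fermat.Agent.AL.al_ringHom_ext Qb (M * p)
    · intro c
      show ((Fermat.Agent.AL.atkinLehner Qb cheapIota hp hpM' (algebraMap Qb _ c) :
          modularFunctionFieldFullC Qb (M * q' * p)) : LaurentSeries Qb) =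
        ((Fermat.Agent.AL.atkinLehner Qb cheapIota hp hpM (algebraMap Qb _ c) :
          modularFunctionFieldFullC Qb (M * p)) : LaurentSeries Qb)
      rw [AlgEquiv.commutes, AlgEquiv.commutes]
      rfl
    · intro d _ hd
      rcases Fermat.Agent.AL.al_divisor_cases hp hpM hd with h | ⟨d', hd', rfl⟩
      · have : NeZero (d * p) := ⟨Nat.mul_ne_zero (NeZero.ne d) (NeZero.ne p)⟩
        show ((Fermat.Agent.AL.atkinLehner Qb cheapIota hp hpM'
            ⟨qExpand Qb d (jqModC Qb), _⟩ :
            modularFunctionFieldFullC Qb (M * q' * p)) : LaurentSeries Qb) =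
          ((Fermat.Agent.AL.atkinLehner Qb cheapIota hp hpM ⟨qExpand Qb d (jqModC Qb), _⟩ :
            modularFunctionFieldFullC Qb (M * p)) : LaurentSeries Qb)
        rw [Fermat.Agent.AL.atkinLehner_low Qb cheapIota hp hpM h]
        exact Fermat.Agent.AL.atkinLehner_low Qb cheapIota hp hpM' (h.mul_right q')
      · have hd0 : d' ≠ 0 := fun h0 => NeZero.ne M (by rw [h0, zero_dvd_iff] at hd'; exact hd')
        have : NeZero d' := ⟨hd0⟩
        show ((Fermat.Agent.AL.atkinLehner Qb cheapIota hp hpM'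
            ⟨qExpand Qb (d' * p) (jqModC Qb), _⟩ :
            modularFunctionFieldFullC Qb (M * q' * p)) : LaurentSeries Qb) =
          ((Fermat.Agent.AL.atkinLehner Qb cheapIota hp hpM
            ⟨qExpand Qb (d' * p) (jqModC Qb), _⟩ :
            modularFunctionFieldFullC Qb (M * p)) : LaurentSeries Qb)
        rw [Fermat.Agent.AL.atkinLehner_high Qb cheapIota hp hpM hd']
        exact Fermat.Agent.AL.atkinLehner_high Qb cheapIota hp hpM' (hd'.mul_right q')
  exact congrArg (fun φ : modularFunctionFieldFullC Qb (M * p) →+* LaurentSeries Qb => φ y) key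

/-- **`w_p` at level `M q' p` restricts to `w_p` at level `M p`**: `w_p (ι u) = ι (w_p u)`. -/
theorem treslu_atkinLehnerBar (u : modularFunctionFieldBar (M * p)) :
    atkinLehnerBar hp hpM' (stbdUp M p q' u) = stbdUp M p q' (atkinLehnerBar hp hpM u) := by
  apply Subtype.ext
  rw [coe_stbdUp, atkinLehnerBar_coe, atkinLehnerBar_coe]
  exact treslu_atkinLehner_full q' hp hpM hpM' ⟨(u : LaurentSeries Qb), cheap_mem_fullC u.2⟩

/-- the same, on `q`-expansions -/
theorem treslu_atkinLehnerBar_coe (u : modularFunctionFieldBar (M * p)) :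
    ((atkinLehnerBar hp hpM' (stbdUp M p q' u) : modularFunctionFieldBar (M * q' * p)) :
      LaurentSeries Qb) =
      ((atkinLehnerBar hp hpM u : modularFunctionFieldBar (M * p)) : LaurentSeries Qb) := by
  rw [treslu_atkinLehnerBar q' hp hpM hpM', coe_stbdUp]

end AL

/-! ### Monotonicity in the level -/

section Mono

variable (M p q' : ℕ) [NeZero (M * p)] [NeZero (M * q' * p)] (A : ValuationSubring Qb)

theorem treslu_ne_zero {u : modularFunctionFieldBar (M * p)} :
    stbdUp M p q' u ≠ 0 ↔ u ≠ 0 :=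
  map_ne_zero_iff _ (stbdUp_injective M p q')

theorem treslu_map_const_mul (c : Qb) (u : modularFunctionFieldBar (M * p)) :
    stbdUp M p q' (algebraMap Qb (modularFunctionFieldBar (M * p)) c * u) =
      algebraMap Qb (modularFunctionFieldBar (M * q' * p)) c * stbdUp M p q' u := by
  rw [map_mul, AlgHom.commutes]

/-- `CongrOneMod` ascends -/
theorem treslu_congrOneMod {ϖ : Qb} {u : modularFunctionFieldBar (M * p)}
    (h : CongrOneMod A (M * p) ϖ u) : CongrOneMod A (M * q' * p) ϖ (stbdUp M p q' u) := by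
  obtain ⟨y₁, y₂, h1, h2, hp1, hp2, hc, he⟩ := h
  exact ⟨y₁, y₂, stb_d_le M p q' h1, stb_d_le M p q' h2, hp1, hp2, hc,
    by rw [coe_stbdUp]; exact he⟩

/-- `DepthInf` ascends (any exponent `n`) -/
theorem treslu_depthInf {n : ℕ} {ϖ : Qb} {u : modularFunctionFieldBar (M * p)}
    (h : DepthInf A (M * p) n ϖ u) : DepthInf A (M * q' * p) n ϖ (stbdUp M p q' u) := by
  obtain ⟨c, g, hc, hg, hcong⟩ := h
  refine ⟨c, stbdUp M p q' g, hc, (treslu_ne_zero M p q').mpr hg, ?_⟩
  have h1 := treslu_congrOneMod M p q' A hcong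
  rwa [map_div₀, map_mul, map_pow, AlgHom.commutes] at h1

/-- `ReducesToOne` ascends -/
theorem treslu_reducesToOne {u : modularFunctionFieldBar (M * p)}
    (h : ReducesToOne A (M * p) u) : ReducesToOne A (M * q' * p) (stbdUp M p q' u) := by
  obtain ⟨y₁, y₂, h1, h2, hp1, hp2, hc, he⟩ := h
  exact ⟨y₁, y₂, stb_d_le M p q' h1, stb_d_le M p q' h2, hp1, hp2, hc,
    by rw [coe_stbdUp]; exact he⟩

/-- (c), `→` : `GaussConst` ascends (no hypothesis on `A`) -/
theorem treslu_gaussConst {u : modularFunctionFieldBar (M * p)}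
    (h : GaussConst A (M * p) u) : GaussConst A (M * q' * p) (stbdUp M p q' u) := by
  obtain ⟨c, hc, hred⟩ := h
  refine ⟨c, hc, ?_⟩
  have h1 := treslu_reducesToOne M p q' A hred
  rwa [treslu_map_const_mul] at h1

/-- the Gauss reductions of `u` and of `ι u` are the same (`R38Red` only sees the `q`-expansion) -/
theorem treslu_red (u : modularFunctionFieldBar (M * p))
    (r : LaurentSeries (IsLocalRing.ResidueField A)) :
    R38Red A ((stbdUp M p q' u : modularFunctionFieldBar (M * q' * p)) : LaurentSeries Qb) r ↔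
      R38Red A (u : LaurentSeries Qb) r := by
  rw [coe_stbdUp]

/-- **(c)** : `GaussConst A (M p) u ↔ GaussConst A (M q' p) (ι u)`. -/
theorem treslu_gaussConst_iff {ℓ : ℕ} (hℓ : ℓ.Prime) (hA : A.LiesOverPrime ℓ)
    (u : modularFunctionFieldBar (M * p)) :
    GaussConst A (M * p) u ↔ GaussConst A (M * q' * p) (stbdUp M p q' u) := by
  refine ⟨treslu_gaussConst M p q' A, fun h => ?_⟩
  have hu' : stbdUp M p q' u ≠ 0 := h.ne_zero
  have hu : u ≠ 0 := (treslu_ne_zero M p q').mp hu'
  obtain ⟨a, ha⟩ := (tresgeo_gaussConst_iff hℓ hA hu').mp h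
  exact (tresgeo_gaussConst_iff hℓ hA hu).mpr ⟨a, (treslu_red M p q' A u _).mp ha⟩

end Mono

/-! ### (a) : split functions ascend -/

section Split

variable {p M : ℕ} (q' : ℕ) [NeZero p] [NeZero M] [NeZero (M * p)] [NeZero (M * q')]
  [NeZero (M * q' * p)] (hp : p.Prime) (hpM : ¬ p ∣ M) (hpM' : ¬ p ∣ M * q')
  (A : ValuationSubring Qb)

/-- `DepthZero` ascends -/
theorem treslu_depthZero {ϖ : Qb} {u : modularFunctionFieldBar (M * p)}
    (h : DepthZero hp hpM A ϖ u) : DepthZero hp hpM' A ϖ (stbdUp M p q' u) := by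
  unfold DepthZero at h ⊢
  rw [treslu_atkinLehnerBar q' hp hpM hpM']
  exact treslu_depthInf M p q' A h

/-- **(a)** : a split function of level `M p` is split at level `M q' p`. -/
theorem treslu_split {u : modularFunctionFieldBar (M * p)} (h : IsSplitFn hp hpM A u) :
    IsSplitFn hp hpM' A (stbdUp M p q' u) := fun k =>
  ⟨treslu_depthInf M p q' A (h k).1, treslu_depthZero q' hp hpM hpM' A (h k).2⟩

/-- (c) at `v_0` : `GaussConst` of `w_p u` at both levels -/
theorem treslu_gaussConst_al_iff {ℓ : ℕ} (hℓ : ℓ.Prime) (hA : A.LiesOverPrime ℓ)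
    (u : modularFunctionFieldBar (M * p)) :
    GaussConst A (M * p) (atkinLehnerBar hp hpM u) ↔
      GaussConst A (M * q' * p) (atkinLehnerBar hp hpM' (stbdUp M p q' u)) := by
  rw [treslu_atkinLehnerBar q' hp hpM hpM']
  exact treslu_gaussConst_iff M p q' A hℓ hA _

end Split

/-! ### (b), (d) : divisors and the Galois action -/

section Galois

variable (M p q' : ℕ) [NeZero M] [NeZero p] [NeZero q'] [NeZero (M * p)] [NeZero (M * q' * p)]

/-- the inclusion `ι` is integral (any `q'`) -/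
theorem treslu_isIntegral : (stbdUp M p q').toRingHom.IsIntegral :=
  Fermat.Agent.S36.s36aux_up_isIntegral M p q'

/-- **(b)** : `m ∣ div u` ascends (any `q' ≥ 1`). -/
theorem treslu_div (m : ℕ) (u : modularFunctionFieldBar (M * p))
    (hdvd : ∀ P : Place Qb (modularFunctionFieldBar (M * p)), (m : ℤ) ∣ P.ord u)
    (P' : Place Qb (modularFunctionFieldBar (M * q' * p))) :
    (m : ℤ) ∣ P'.ord (stbdUp M p q' u) :=
  Fermat.Agent.S36.s36aux_dvd_ord M p q' m u hdvd P'

/-- **(d)** : the arithmetic Galois action commutes with `ι`. -/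
theorem treslu_smul (σ : Qb ≃ₐ[ℚ] Qb) (u : modularFunctionFieldBar (M * p)) :
    arithmeticGalois (modularFunctionFieldFull (M * q' * p)) σ • stbdUp M p q' u =
      stbdUp M p q' (arithmeticGalois (modularFunctionFieldFull (M * p)) σ • u) :=
  Fermat.Agent.S36.s36aux_up_smul M p q' σ u

/-- (d) : the operator `σ u / u` commutes with `ι`. -/
theorem treslu_gcInertiaOp (σ : Qb ≃ₐ[ℚ] Qb) (u : modularFunctionFieldBar (M * p)) :
    gcInertiaOp (M * q' * p) σ (stbdUp M p q' u) =
      stbdUp M p q' (gcInertiaOp (M * p) σ u) := by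
  unfold gcInertiaOp
  rw [map_div₀, treslu_smul]

end Galois

end Fermat.Agent.R38

end


end ZBR38_022_0

/-! ### bundled: `Fermat.Agent.R38.TresBigInstInC` -/
section ZBR38_022_1

/-!
# Row 38, TRES, FAC-BIG instance, the INPUT (IN) (c) `hsplit` (helper69)

Frame of `R38/TresBigInstV.lean` / `R38/TresBigInstT.lean` (`tres5biv_kum`, `tres5bit_descend`,
helper16): `u := STB.stbdUp M p q' w₀ = ⟨w₀, hle w₀.2⟩` at the level `M q' p`
(`M q' = lcm (M, 4)`), `w₀` ANY Kummer function (exponent `p`) of a class `z ∈ J₀(M p)[p]` with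
`α_* z = 0 = β_* z`, `TrivInf A p z`.  [(IN) (d) `hw` is helper16's `R38/TresBigInstInD.lean`.]

* `tres5binc_depthInf_mul`, `tres5binc_split_mul` : `S33.DepthInf`, `S33.IsSplitFn` are invariant
  under `ℚ̄^× · F^{× p}`;
* `tres5binc_kummer_eq` : two Kummer functions of the same class differ by `ℚ̄^× · F^{× p}`;
* `tres5binc_split` : **(c) at the level `M p`**: every Kummer function of `z` is split
  (`TrivInf` gives ONE Gauss-constant Kummer function, `trest0_split`);
* `tres5binc_split_up` : **(c)**: `IsSplitFn … (stbdUp M p q' w₀)` (`treslu_split`);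
* `tres5binc_up_eq`, `tres5binc_hsplit` : **(c)** in the subtype form `⟨w₀, hle w₀.2⟩` of
  `tres5bit_descend` (hypothesis `hsplit`).
-/

set_option autoImplicit false
set_option linter.unusedSectionVars false
set_option linter.unusedVariables false
set_option linter.style.haveILetI false

noncomputable section

namespace Fermat.Agent.R38

open ModularCurve AlgebraicCurve Fermat.Agent.ES Fermat.Agent.ES.G2 Fermat.Agent.STB
  Fermat.Agent.UNIP Fermat.Agent.S33 Fermat.Agent.RIB.MP

/-! ### invariance of the depth under `ℚ̄^× · F^{× p}` -/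

section Inv

variable {N : ℕ} [NeZero N] (A : ValuationSubring Qb)

/-- `DepthInf` is invariant under `ℚ̄^× · F^{× n}` -/
theorem tres5binc_depthInf_mul {n : ℕ} {ϖ : Qb} {u : modularFunctionFieldBar N} {a : Qb}
    (ha : a ≠ 0) {f : modularFunctionFieldBar N} (hf : f ≠ 0) (h : DepthInf A N n ϖ u) :
    DepthInf A N n ϖ (algebraMap Qb (modularFunctionFieldBar N) a * f ^ n * u) := by
  obtain ⟨c, g, hc, hg, hcong⟩ := h
  refine ⟨a * c, f * g, mul_ne_zero ha hc, mul_ne_zero hf hg, ?_⟩
  have ha' : algebraMap Qb (modularFunctionFieldBar N) a ≠ 0 := (map_ne_zero _).mpr ha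
  have hc' : algebraMap Qb (modularFunctionFieldBar N) c ≠ 0 := (map_ne_zero _).mpr hc
  have hfn : f ^ n ≠ 0 := pow_ne_zero _ hf
  have hgn : g ^ n ≠ 0 := pow_ne_zero _ hg
  have e : algebraMap Qb (modularFunctionFieldBar N) a * f ^ n * u /
      (algebraMap Qb (modularFunctionFieldBar N) (a * c) * (f * g) ^ n) =
      u / (algebraMap Qb (modularFunctionFieldBar N) c * g ^ n) := by
    rw [map_mul, mul_pow, div_eq_div_iff (mul_ne_zero (mul_ne_zero ha' hc') (mul_ne_zero hfn hgn))
      (mul_ne_zero hc' hgn)]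
    ring
  rw [e]
  exact hcong

end Inv

section InvSplit

variable {p M : ℕ} [NeZero p] [NeZero M] [NeZero (M * p)] (hp : p.Prime) (hpM : ¬ p ∣ M)
  (A : ValuationSubring Qb)

/-- `IsSplitFn` is invariant under `ℚ̄^× · F^{× p}` -/
theorem tres5binc_split_mul {u : modularFunctionFieldBar (M * p)} {a : Qb} (ha : a ≠ 0)
    {f : modularFunctionFieldBar (M * p)} (hf : f ≠ 0) (h : IsSplitFn hp hpM A u) :
    IsSplitFn hp hpM A (algebraMap Qb (modularFunctionFieldBar (M * p)) a * f ^ p * u) := by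
  intro k
  refine ⟨tres5binc_depthInf_mul A ha hf (h k).1, ?_⟩
  unfold DepthZero
  rw [map_mul, map_mul, map_pow, AlgEquiv.commutes]
  exact tres5binc_depthInf_mul A ha ((map_ne_zero _).mpr hf) (h k).2

end InvSplit

/-! ### (c) `hsplit` -/

section C

variable (M p : ℕ) [NeZero M] [hpF : Fact p.Prime]

/-- two Kummer functions of the same class differ by `ℚ̄^× · F^{× p}` -/
theorem tres5binc_kummer_eq :
    haveI : NeZero p := ⟨hpF.out.ne_zero⟩
    ∀ (z : JZero (M * p)) (w₀ w₁ : modularFunctionFieldBar (M * p)),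
      KummerRel p z w₀ → KummerRel p z w₁ →
      ∃ (a : Qb) (f : modularFunctionFieldBar (M * p)), a ≠ 0 ∧ f ≠ 0 ∧
        w₀ = algebraMap Qb (modularFunctionFieldBar (M * p)) a * f ^ p * w₁ := by
  haveI : NeZero p := ⟨hpF.out.ne_zero⟩
  intro z w₀ w₁ h₀ h₁
  have h := h₀.sub h₁
  rw [sub_self] at h
  obtain ⟨a, f, haf⟩ := s33nc_const_pow_of_kummerRel_zero (M * p) p h
  have hw₁ : w₁ ≠ 0 := h₁.ne_zero
  have hq : w₀ / w₁ ≠ 0 := div_ne_zero h₀.ne_zero hw₁
  rw [haf] at hq
  have ha : a ≠ 0 := by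
    rintro rfl
    rw [map_zero, zero_mul] at hq
    exact hq rfl
  have hf : f ≠ 0 := by
    rintro rfl
    rw [zero_pow hpF.out.ne_zero, mul_zero] at hq
    exact hq rfl
  refine ⟨a, f, ha, hf, ?_⟩
  rw [← haf, div_mul_cancel₀ _ hw₁]

/-- **(c) at the level `M p`**: every Kummer function of a new class which is trivial at `v_∞`
is split. -/
theorem tres5binc_split (hpM : ¬ p ∣ M) (A : ValuationSubring Qb) (hA : A.LiesOverPrime p) :
    haveI : NeZero p := ⟨hpF.out.ne_zero⟩
    ∀ (z : JZero (M * p)), stbPushAlpha M p z = 0 → stbPushBeta M p z = 0 → TrivInf A p z →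
      ∀ w₀ : modularFunctionFieldBar (M * p), KummerRel p z w₀ →
        IsSplitFn hpF.out hpM A w₀ := by
  haveI : NeZero p := ⟨hpF.out.ne_zero⟩
  intro z hα hβ htriv w₀ hw₀
  obtain ⟨w₁, hw₁, hG⟩ := htriv
  have hs := trest0_split M p hpM A hA z hα hβ w₁ hw₁ (Or.inl hG)
  obtain ⟨a, f, ha, hf, e⟩ := tres5binc_kummer_eq M p z w₀ w₁ hw₀ hw₁
  rw [e]
  exact tres5binc_split_mul hpF.out hpM A ha hf hs

/-- **(c)** `hsplit` of `tres5biv_kum` for `u = stbdUp M p q' w₀`. -/
theorem tres5binc_split_up (q' : ℕ) [NeZero (M * q')] (hpM : ¬ p ∣ M) (hpM' : ¬ p ∣ M * q')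
    (A : ValuationSubring Qb) (hA : A.LiesOverPrime p) :
    haveI : NeZero p := ⟨hpF.out.ne_zero⟩
    ∀ (z : JZero (M * p)), stbPushAlpha M p z = 0 → stbPushBeta M p z = 0 → TrivInf A p z →
      ∀ w₀ : modularFunctionFieldBar (M * p), KummerRel p z w₀ →
        IsSplitFn hpF.out hpM' A (stbdUp M p q' w₀) := by
  haveI : NeZero p := ⟨hpF.out.ne_zero⟩
  intro z hα hβ htriv w₀ hw₀
  exact treslu_split q' hpF.out hpM hpM' A (tres5binc_split M p hpM A hA z hα hβ htriv w₀ hw₀)

end C

/-! ### (c) in the form of `tres5bit_descend` (subtype form) -/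

section Sub

variable (M p : ℕ) [NeZero M] [hpF : Fact p.Prime]

/-- `stbdUp M p q' w₀` is `⟨w₀, hle w₀.2⟩` -/
theorem tres5binc_up_eq (q' : ℕ) (w₀ : modularFunctionFieldBar (M * p))
    (hle : modularFunctionFieldBar (M * p) ≤ modularFunctionFieldBar (M * q' * p)) :
    (⟨(w₀ : LaurentSeries Qb), hle w₀.2⟩ : modularFunctionFieldBar (M * q' * p)) =
      stbdUp M p q' w₀ :=
  Subtype.ext (coe_stbdUp M p q' w₀).symm

/-- **(c)** in the form of `tres5bit_descend` -/
theorem tres5binc_hsplit (q' : ℕ) [NeZero (M * q')] (hpM : ¬ p ∣ M) (hpM' : ¬ p ∣ M * q')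
    (A : ValuationSubring Qb) (hA : A.LiesOverPrime p)
    (hle : modularFunctionFieldBar (M * p) ≤ modularFunctionFieldBar (M * q' * p)) :
    haveI : NeZero p := ⟨hpF.out.ne_zero⟩
    ∀ (z : JZero (M * p)), stbPushAlpha M p z = 0 → stbPushBeta M p z = 0 → TrivInf A p z →
      ∀ w₀ : modularFunctionFieldBar (M * p), KummerRel p z w₀ →
        IsSplitFn hpF.out hpM' A
          (⟨(w₀ : LaurentSeries Qb), hle w₀.2⟩ : modularFunctionFieldBar (M * q' * p)) := by
  haveI : NeZero p := ⟨hpF.out.ne_zero⟩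
  intro z hα hβ htriv w₀ hw₀
  rw [tres5binc_up_eq M p q' w₀ hle]
  exact tres5binc_split_up M p q' hpM hpM' A hA z hα hβ htriv w₀ hw₀

end Sub

end Fermat.Agent.R38

end
end ZBR38_022_1
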