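/- GENERATED FILE (helper35, build-time optimisation, NOTES/ZB.md): verbatim concatenation of the modules
   Fermat.Agent.R38.TresDesc
   Fermat.Agent.R38.TresDescJ
   Fermat.Agent.R38.TresCoverBridge
   Fermat.Agent.R38.TresFacTrFld
   Fermat.Agent.R38.TresBigInstV
   Fermat.Agent.R38.TresFixFUp
   Fermat.Agent.R38.TresDeckEx
   Fermat.Agent.R38.TresFixFRho
   Fermat.Agent.R38.TresKFormInstV
   Fermat.Agent.R38.TresFixFV
   Fermat.Agent.R38.TresBigInstT
   Fermat.Agent.R38.TresBigInstInD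
   Fermat.Agent.R38.TresMonoTopC0
   Fermat.Agent.R38.TresMonoChain
   Fermat.Agent.R38.TresMonoChainH
   Do not edit; do not import together with these modules. -/
import Fermat.Agent.ZB.S36_001
import Fermat.Agent.ZB.RIB_001
import Fermat.Agent.ZB.R38_018
import Fermat.Agent.ZB.R38_017
import Fermat.Agent.ZB.INJ_005
import Fermat.Agent.ZB.UNIP_007
import Fermat.Agent.ZB.R38_016
import Fermat.Agent.ZB.R38_015
import Fermat.Agent.ZB.ES_016
import Fermat.Agent.ZB.ES_036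
import Fermat.Agent.ZB.R38_020
import Fermat.Agent.ZB.INJ_025
import Fermat.Agent.ZB.R38_010

/-! ### bundled: `Fermat.Agent.R38.TresDesc` -/
section ZBR38_019_0

/-!
# R38-TRES, piece FAC-DESC [T5 (a)]: descent to the cover and the deck relation (abstract core)

`L = ℚ̄((Q))` with the coefficientwise action of `G ≤ Gal(ℚ̄/ℚ)`; `Fb ⊂ L` a `G`-stable
intermediate field (in the application the cover `F′ = F_N(ℚ̄)(w₀^{1/p}) ⊂ ℚ̄((Q))`,
`G = I ∩ ker ω`).

* `tresdesc_root`  : `x ^ m = C a · y ^ m` ⇒ `x = C c · y`, `c ^ m = a`;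
* `tresdesc_desc`  : **(DESC′)** `U ∈ Fb` with finite Galois orbit and `σ U = C a_σ · h_σ ^ m · U`
  (`h_σ ∈ Fb`, `σ ∈ G`) is `C (lc U) · γ ^ m · u″` with `u″ ∈ Fb` fixed by `G`;
* `tresdesc_deck`  : **(DECK)** `t : Fb → Fb` a ring endomorphism fixing the constants and
  commuting with `G`, `t U = U`, `U = C b · γ ^ m · u″`, `u″` fixed by `G`.  Then
  `t u″ = C (α ^ m) · h ^ m · u″` with `h ∈ Fb` fixed by `G`, `α ∈ ℚ̄ˣ`, `α ^ m` fixed by `G`, and
  `α` is fixed by every `σ ∈ G` for which `σ U = C a · g ^ m · U` with `g` fixed by `t`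
  (i.e. by every `σ ∈ G` fixing the class of `U` downstairs).
-/

set_option autoImplicit false
set_option linter.unusedSectionVars false
set_option linter.unusedVariables false
set_option linter.style.haveILetI false

noncomputable section

open ModularCurve Fermat.Agent.INJ Fermat.Agent.UNIP Fermat.Agent.S36

namespace Fermat.Agent.R38

section Root

variable {K : Type*} [Field K]

/-- normalisation commutes with powers -/
theorem tresdesc_norm_pow (x : LaurentSeries K) (m : ℕ) :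
    s36dNorm (x ^ m) = s36dNorm x ^ m := by
  rw [s36dNorm, s36dNorm, s36d_leadingCoeff_pow, map_pow, div_pow]

/-- normalisation kills nonzero constants -/
theorem tresdesc_norm_C_mul {a : K} (ha : a ≠ 0) {x : LaurentSeries K} (hx : x ≠ 0) :
    s36dNorm (HahnSeries.C a * x) = s36dNorm x := by
  have h1 := s36d_C_ne_zero ha
  have h2 := s36d_C_ne_zero (HahnSeries.leadingCoeff_ne_zero.mpr hx)
  rw [s36dNorm, s36dNorm, HahnSeries.leadingCoeff_mul, s36d_leadingCoeff_C, map_mul]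
  field_simp

/-- `x ^ m = C a · y ^ m` ⇒ `x = C c · y` with `c ^ m = a` -/
theorem tresdesc_root {x y : LaurentSeries K} {a : K} {m : ℕ} (hm : (m : K) ≠ 0)
    (ha : a ≠ 0) (hy : y ≠ 0) (h : x ^ m = HahnSeries.C a * y ^ m) :
    ∃ c : K, c ≠ 0 ∧ c ^ m = a ∧ x = HahnSeries.C c * y := by
  have hm0 : m ≠ 0 := by
    rintro rfl
    exact hm Nat.cast_zero
  have hx : x ≠ 0 := by
    rintro rfl
    rw [zero_pow hm0] at h
    exact mul_ne_zero (s36d_C_ne_zero ha) (pow_ne_zero m hy) h.symm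
  have hlx : x.leadingCoeff ≠ 0 := HahnSeries.leadingCoeff_ne_zero.mpr hx
  have hly : y.leadingCoeff ≠ 0 := HahnSeries.leadingCoeff_ne_zero.mpr hy
  have h1 : s36dNorm x ^ m = s36dNorm y ^ m := by
    rw [← tresdesc_norm_pow, ← tresdesc_norm_pow, h, tresdesc_norm_C_mul ha (pow_ne_zero m hy)]
  have h2 : s36dNorm x = s36dNorm y :=
    s36d_root_unique (s36dNorm_leadingCoeff hx) (s36dNorm_leadingCoeff hy) hm h1
  have hlc : x.leadingCoeff ^ m = a * y.leadingCoeff ^ m := by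
    have := congrArg HahnSeries.leadingCoeff h
    rwa [s36d_leadingCoeff_pow, HahnSeries.leadingCoeff_mul, s36d_leadingCoeff_C,
      s36d_leadingCoeff_pow] at this
  refine ⟨x.leadingCoeff / y.leadingCoeff, div_ne_zero hlx hly, ?_, ?_⟩
  · rw [div_pow, hlc, mul_div_assoc, div_self (pow_ne_zero m hly), mul_one]
  · have e1 := s36dNorm_mul_C hx
    have e2 := s36dNorm_mul_C hy
    have hCy := s36d_C_ne_zero hly
    rw [map_div₀]
    calc x = HahnSeries.C x.leadingCoeff * s36dNorm y := by rw [← h2, e1]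
      _ = HahnSeries.C x.leadingCoeff / HahnSeries.C y.leadingCoeff *
            (HahnSeries.C y.leadingCoeff * s36dNorm y) := by
          field_simp
      _ = HahnSeries.C x.leadingCoeff / HahnSeries.C y.leadingCoeff * y := by rw [e2]

end Root

section Alg

variable {E : Type*} [Field E]

theorem tresdesc_alg1 {cb g tg u tu : E} {m : ℕ} (hcb : cb ≠ 0) (htg : tg ≠ 0)
    (h1 : cb * tg ^ m * tu = cb * g ^ m * u) : tu = (g / tg) ^ m * u := by
  have htgm : tg ^ m ≠ 0 := pow_ne_zero m htg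
  have h3 : cb * (tg ^ m * tu) = cb * (g ^ m * u) := by
    rw [← mul_assoc, ← mul_assoc]
    exact h1
  have h4 : tg ^ m * tu = g ^ m * u := mul_left_cancel₀ hcb h3
  rw [div_pow, div_mul_eq_mul_div, eq_div_iff htgm, mul_comm, h4]

theorem tresdesc_alg2 {ca cb csb sg g γ u : E} {m : ℕ} (hcsb : csb ≠ 0) (hu : u ≠ 0)
    (h : ca * g ^ m * (cb * γ ^ m * u) = csb * sg ^ m * u) :
    sg ^ m = ca * cb / csb * (g * γ) ^ m := by
  have h1 : (ca * cb * (g * γ) ^ m) * u = (csb * sg ^ m) * u := by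
    rw [← h, mul_pow]
    ring
  have h2 : ca * cb * (g * γ) ^ m = csb * sg ^ m := mul_right_cancel₀ hu h1
  rw [div_mul_eq_mul_div, eq_div_iff hcsb, mul_comm, ← h2]

theorem tresdesc_alg3 {cc g γ tγ : E} (hcc : cc ≠ 0) (hg : g ≠ 0) :
    cc * (g * γ) / (cc * (g * tγ)) = γ / tγ := by
  rw [mul_div_mul_left _ _ hcc, mul_div_mul_left _ _ hg]

theorem tresdesc_alg4 {ρ u tu : E} {m : ℕ} (hu : u ≠ 0) (h : tu = ρ ^ m * u) :
    ρ ^ m = tu / u := by
  rw [h, mul_div_assoc, div_self hu, mul_one]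

end Alg

section Core

variable {G : Subgroup (NfQb ≃ₐ[ℚ] NfQb)}
  {Fb : IntermediateField NfQb (LaurentSeries NfQb)}

/-- constants lie in every intermediate field -/
theorem tresdesc_C_mem (Fb : IntermediateField NfQb (LaurentSeries NfQb)) (a : NfQb) :
    (HahnSeries.C a : LaurentSeries NfQb) ∈ Fb := by
  rw [← s36d_algebraMap_eq_C]
  exact Fb.algebraMap_mem a

theorem tresdesc_norm_mem {x : LaurentSeries NfQb} (hx : x ∈ Fb) : s36dNorm x ∈ Fb :=
  Fb.div_mem hx (tresdesc_C_mem Fb _)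

/-- the Galois orbit of the normalisation is finite if that of the series is -/
theorem tresdesc_orbit_norm {U : LaurentSeries NfQb}
    (horb : Set.Finite {z : LaurentSeries NfQb | ∃ σ : NfQb ≃ₐ[ℚ] NfQb,
      z = coeffMap ((σ : NfQb ≃ₐ[ℚ] NfQb) : NfQb →+* NfQb) U}) :
    Set.Finite {z : LaurentSeries NfQb | ∃ σ : NfQb ≃ₐ[ℚ] NfQb,
      z = coeffMap ((σ : NfQb ≃ₐ[ℚ] NfQb) : NfQb →+* NfQb) (s36dNorm U)} := by
  refine (horb.image s36dNorm).subset ?_
  rintro z ⟨σ, rfl⟩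
  exact ⟨_, ⟨σ, rfl⟩, (s36dNorm_coeffMap _ U).symm⟩

/-- **(DESC′), abstract form.**  `U ∈ Fb` with finite Galois orbit whose class modulo constants
and `m`-th powers of `Fb` is `G`-invariant is `C (lc U) · γ ^ m · u″` with `u″ ∈ Fb` fixed by
`G`. -/
theorem tresdesc_desc (hstab : ∀ σ ∈ G, ∀ x ∈ Fb,
      coeffMap ((σ : NfQb ≃ₐ[ℚ] NfQb) : NfQb →+* NfQb) x ∈ Fb)
    {m : ℕ} (hm : m ≠ 0) {U : LaurentSeries NfQb} (hU : U ≠ 0) (hUF : U ∈ Fb)
    (horb : Set.Finite {z : LaurentSeries NfQb | ∃ σ : NfQb ≃ₐ[ℚ] NfQb,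
      z = coeffMap ((σ : NfQb ≃ₐ[ℚ] NfQb) : NfQb →+* NfQb) U})
    (hI : ∀ σ ∈ G, ∃ (a : NfQb) (h : LaurentSeries NfQb), h ∈ Fb ∧
      coeffMap ((σ : NfQb ≃ₐ[ℚ] NfQb) : NfQb →+* NfQb) U = HahnSeries.C a * h ^ m * U) :
    ∃ u'' γ : LaurentSeries NfQb, u'' ∈ Fb ∧ γ ∈ Fb ∧ u'' ≠ 0 ∧ γ ≠ 0 ∧
      U = HahnSeries.C U.leadingCoeff * γ ^ m * u'' ∧
      ∀ σ ∈ G, coeffMap ((σ : NfQb ≃ₐ[ℚ] NfQb) : NfQb →+* NfQb) u'' = u'' := by
  classical
  set ũ : LaurentSeries NfQb := s36dNorm U with hũ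
  have hũ0 : ũ ≠ 0 := s36dNorm_ne_zero hU
  have hũF : ũ ∈ Fb := tresdesc_norm_mem hUF
  have hI' : ∀ σ ∈ G, ∃ g : LaurentSeries NfQb, g ∈ Fb ∧ S36Monic g ∧
      g ^ m * ũ = coeffMap ((σ : NfQb ≃ₐ[ℚ] NfQb) : NfQb →+* NfQb) ũ := by
    intro σ hσ
    obtain ⟨a, h, hhF, e1⟩ := hI σ hσ
    have hσU0 : coeffMap ((σ : NfQb ≃ₐ[ℚ] NfQb) : NfQb →+* NfQb) U ≠ 0 :=
      fun h0 => hU ((s36d_coeffMap_eq_zero_iff _ U).mp h0)
    have ha : a ≠ 0 := by
      rintro rfl
      apply hσU0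
      rw [e1, map_zero, zero_mul, zero_mul]
    have hh : h ≠ 0 := by
      intro h0
      apply hσU0
      rw [e1, h0, zero_pow hm, mul_zero, zero_mul]
    have e2 := s36dNorm_eq ha hh hU e1
    rw [← s36dNorm_coeffMap] at e2
    refine ⟨s36dNorm h, tresdesc_norm_mem hhF, ⟨?_, s36dNorm_leadingCoeff hh⟩, e2.symm⟩
    have e3 : (coeffMap ((σ : NfQb ≃ₐ[ℚ] NfQb) : NfQb →+* NfQb) U).order = U.order :=
      s36d_order_coeffMap _ U
    rw [e1, HahnSeries.order_mul (mul_ne_zero (s36d_C_ne_zero ha) (pow_ne_zero m hh)) hU,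
      HahnSeries.order_mul (s36d_C_ne_zero ha) (pow_ne_zero m hh), s36d_order_C,
      s36d_order_pow hh, zero_add] at e3
    rw [s36dNorm_order hh]
    have e4 : (m : ℤ) * h.order = 0 := by
      have : m • h.order = 0 := by linarith
      simpa [nsmul_eq_mul] using this
    rcases mul_eq_zero.mp e4 with h5 | h5
    · exact absurd (Nat.cast_eq_zero.mp h5) hm
    · exact h5
  obtain ⟨γ, hγF, hγ0, hfix⟩ :=
    s36d_hilbert (G := G) (Fb := Fb) hstab hm hũ0 (tresdesc_orbit_norm horb) hI'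
  have hγm : γ ^ m ≠ 0 := pow_ne_zero m hγ0
  refine ⟨ũ * γ ^ m, γ⁻¹, Fb.mul_mem hũF (Fb.pow_mem hγF m), Fb.inv_mem hγF,
    mul_ne_zero hũ0 hγm, inv_ne_zero hγ0, ?_, hfix⟩
  have := s36dNorm_mul_C hU
  rw [inv_pow, hũ]
  field_simp
  exact this.symm

/-- **(DECK), abstract form.** -/
theorem tresdesc_deck {m : ℕ} (hm : m ≠ 0) (t : Fb →+* LaurentSeries NfQb)
    (htC : ∀ (a : NfQb) (ha : (HahnSeries.C a : LaurentSeries NfQb) ∈ Fb),
      t ⟨HahnSeries.C a, ha⟩ = HahnSeries.C a)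
    (htmem : ∀ y : Fb, t y ∈ Fb)
    (htG : ∀ σ ∈ G, ∀ (y : Fb)
      (hy : coeffMap ((σ : NfQb ≃ₐ[ℚ] NfQb) : NfQb →+* NfQb) (y : LaurentSeries NfQb) ∈ Fb),
      t ⟨_, hy⟩ = coeffMap ((σ : NfQb ≃ₐ[ℚ] NfQb) : NfQb →+* NfQb) (t y))
    {U u'' γ : LaurentSeries NfQb} {b : NfQb} (hUF : U ∈ Fb) (hu''F : u'' ∈ Fb) (hγF : γ ∈ Fb)
    (hb : b ≠ 0) (hγ : γ ≠ 0) (hu'' : u'' ≠ 0)
    (hUt : t ⟨U, hUF⟩ = U) (hU : U = HahnSeries.C b * γ ^ m * u'')
    (hfix : ∀ σ ∈ G, coeffMap ((σ : NfQb ≃ₐ[ℚ] NfQb) : NfQb →+* NfQb) u'' = u'') :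
    ∃ (α : NfQb) (h : LaurentSeries NfQb), α ≠ 0 ∧ h ∈ Fb ∧ h ≠ 0 ∧
      (∀ σ ∈ G, coeffMap ((σ : NfQb ≃ₐ[ℚ] NfQb) : NfQb →+* NfQb) h = h) ∧
      t ⟨u'', hu''F⟩ = HahnSeries.C (α ^ m) * h ^ m * u'' ∧
      (∀ σ ∈ G, σ (α ^ m) = α ^ m) ∧
      ∀ σ ∈ G, (∃ (a : NfQb) (g : LaurentSeries NfQb) (hg : g ∈ Fb), t ⟨g, hg⟩ = g ∧
        coeffMap ((σ : NfQb ≃ₐ[ℚ] NfQb) : NfQb →+* NfQb) U = HahnSeries.C a * g ^ m * U) →
        σ α = α := by
  classical
  have hmK : ((m : ℕ) : NfQb) ≠ 0 := Nat.cast_ne_zero.mpr hm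
  have hCb : (HahnSeries.C b : LaurentSeries NfQb) ≠ 0 := s36d_C_ne_zero hb
  have hγm : γ ^ m ≠ 0 := pow_ne_zero m hγ
  have tne : ∀ (x : LaurentSeries NfQb) (hx : x ∈ Fb), x ≠ 0 → t ⟨x, hx⟩ ≠ 0 := by
    intro x hx hx0
    exact (map_ne_zero t).mpr fun h => hx0 (congrArg Subtype.val h)
  obtain ⟨tγ, htγ⟩ : ∃ tγ : LaurentSeries NfQb, tγ = t ⟨γ, hγF⟩ := ⟨_, rfl⟩
  obtain ⟨tu, htu⟩ : ∃ tu : LaurentSeries NfQb, tu = t ⟨u'', hu''F⟩ := ⟨_, rfl⟩
  have htγ0 : tγ ≠ 0 := htγ ▸ tne γ hγF hγ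
  have htu0 : tu ≠ 0 := htu ▸ tne u'' hu''F hu''
  have htγF : tγ ∈ Fb := htγ ▸ htmem _
  have htuF : tu ∈ Fb := htu ▸ htmem _
  -- `U = C b · tγ ^ m · tu`
  have e1 : U = HahnSeries.C b * tγ ^ m * tu := by
    have h1 : (⟨U, hUF⟩ : Fb) = ⟨HahnSeries.C b, tresdesc_C_mem Fb b⟩ *
        ⟨γ, hγF⟩ ^ m * ⟨u'', hu''F⟩ := Subtype.ext hU
    have h2 := congrArg t h1
    rw [hUt, map_mul, map_mul, map_pow, htC, ← htγ, ← htu] at h2
    exact h2
  -- `ρ = γ / tγ`, `tu = ρ ^ m · u″`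
  obtain ⟨ρ, hρ⟩ : ∃ ρ : LaurentSeries NfQb, ρ = γ / tγ := ⟨_, rfl⟩
  have hρ0 : ρ ≠ 0 := hρ ▸ div_ne_zero hγ htγ0
  have hρF : ρ ∈ Fb := hρ ▸ Fb.div_mem hγF htγF
  have e2 : tu = ρ ^ m * u'' := by
    rw [hρ]
    exact tresdesc_alg1 hCb htγ0 (e1.symm.trans hU)
  obtain ⟨α, hα⟩ : ∃ α : NfQb, α = ρ.leadingCoeff := ⟨_, rfl⟩
  have hα0 : α ≠ 0 := hα ▸ HahnSeries.leadingCoeff_ne_zero.mpr hρ0
  obtain ⟨h, hh⟩ : ∃ h : LaurentSeries NfQb, h = s36dNorm ρ := ⟨_, rfl⟩
  have hh0 : h ≠ 0 := hh ▸ s36dNorm_ne_zero hρ0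
  have hhF : h ∈ Fb := hh ▸ tresdesc_norm_mem hρF
  have hρh : ρ = HahnSeries.C α * h := by
    rw [hα, hh]
    exact (s36dNorm_mul_C hρ0).symm
  -- `ρ ^ m` is fixed by `G`
  have hρm : ∀ σ ∈ G, coeffMap ((σ : NfQb ≃ₐ[ℚ] NfQb) : NfQb →+* NfQb) (ρ ^ m) = ρ ^ m := by
    intro σ hσ
    have h1 : ρ ^ m = tu / u'' := tresdesc_alg4 hu'' e2
    have h2 : coeffMap ((σ : NfQb ≃ₐ[ℚ] NfQb) : NfQb →+* NfQb) tu = tu := by
      have hy : coeffMap ((σ : NfQb ≃ₐ[ℚ] NfQb) : NfQb →+* NfQb)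
          ((⟨u'', hu''F⟩ : Fb) : LaurentSeries NfQb) ∈ Fb := by
        show coeffMap ((σ : NfQb ≃ₐ[ℚ] NfQb) : NfQb →+* NfQb) u'' ∈ Fb
        rw [hfix σ hσ]
        exact hu''F
      have h3 := htG σ hσ ⟨u'', hu''F⟩ hy
      have h4 : (⟨coeffMap ((σ : NfQb ≃ₐ[ℚ] NfQb) : NfQb →+* NfQb)
          ((⟨u'', hu''F⟩ : Fb) : LaurentSeries NfQb), hy⟩ : Fb) = ⟨u'', hu''F⟩ :=
        Subtype.ext (hfix σ hσ)
      rw [h4, ← htu] at h3
      exact h3.symm
    rw [h1, map_div₀, h2, hfix σ hσ]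
  refine ⟨α, h, hα0, hhF, hh0, ?_, ?_, ?_, ?_⟩
  · intro σ hσ
    apply s36d_root_unique _ (hh ▸ s36dNorm_leadingCoeff hρ0) hmK
    · rw [← map_pow, hh, ← tresdesc_norm_pow, s36dNorm_coeffMap, hρm σ hσ]
    · rw [s36d_leadingCoeff_coeffMap, hh, s36dNorm_leadingCoeff hρ0, map_one]
  · rw [← htu, e2, hρh, mul_pow, map_pow]
  · intro σ hσ
    have h1 := congrArg HahnSeries.leadingCoeff (hρm σ hσ)
    rw [s36d_leadingCoeff_coeffMap, s36d_leadingCoeff_pow, ← hα] at h1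
    exact h1
  · rintro σ hσ ⟨a, g, hgF, htg, hσU⟩
    -- `σ γ = C c · g · γ`
    have hU0 : U ≠ 0 := by
      rw [hU]
      exact mul_ne_zero (mul_ne_zero hCb hγm) hu''
    have hσU0 : coeffMap ((σ : NfQb ≃ₐ[ℚ] NfQb) : NfQb →+* NfQb) U ≠ 0 :=
      fun h0 => hU0 ((s36d_coeffMap_eq_zero_iff _ U).mp h0)
    have ha : a ≠ 0 := by
      rintro rfl
      apply hσU0
      rw [hσU, map_zero, zero_mul, zero_mul]
    have hg : g ≠ 0 := by
      intro h0
      apply hσU0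
      rw [hσU, h0, zero_pow hm, mul_zero, zero_mul]
    have hσb : σ b ≠ 0 := (map_ne_zero _).mpr hb
    have hCσb : (HahnSeries.C (σ b) : LaurentSeries NfQb) ≠ 0 := s36d_C_ne_zero hσb
    have e3 : (coeffMap ((σ : NfQb ≃ₐ[ℚ] NfQb) : NfQb →+* NfQb) γ) ^ m =
        HahnSeries.C (a * b / σ b) * (g * γ) ^ m := by
      have h1 : coeffMap ((σ : NfQb ≃ₐ[ℚ] NfQb) : NfQb →+* NfQb) U =
          HahnSeries.C (σ b) * (coeffMap ((σ : NfQb ≃ₐ[ℚ] NfQb) : NfQb →+* NfQb) γ) ^ m *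
            u'' := by
        conv_lhs => rw [hU]
        rw [map_mul, map_mul, map_pow, s36d_coeffMap_C', hfix σ hσ]
        rfl
      have h2 : HahnSeries.C a * g ^ m * (HahnSeries.C b * γ ^ m * u'') =
          HahnSeries.C (σ b) * (coeffMap ((σ : NfQb ≃ₐ[ℚ] NfQb) : NfQb →+* NfQb) γ) ^ m *
            u'' := by
        rw [← hU, ← hσU]
        exact h1
      rw [map_div₀, map_mul]
      exact tresdesc_alg2 hCσb hu'' h2
    obtain ⟨c, hc0, -, hσγ⟩ := tresdesc_root hmK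
      (div_ne_zero (mul_ne_zero ha hb) hσb) (mul_ne_zero hg hγ) e3
    -- `σ (tγ) = C c · g · tγ`
    have hσγF : coeffMap ((σ : NfQb ≃ₐ[ℚ] NfQb) : NfQb →+* NfQb)
        ((⟨γ, hγF⟩ : Fb) : LaurentSeries NfQb) ∈ Fb := by
      show coeffMap ((σ : NfQb ≃ₐ[ℚ] NfQb) : NfQb →+* NfQb) γ ∈ Fb
      rw [hσγ]
      exact Fb.mul_mem (tresdesc_C_mem Fb c) (Fb.mul_mem hgF hγF)
    have e4 : coeffMap ((σ : NfQb ≃ₐ[ℚ] NfQb) : NfQb →+* NfQb) tγ =
        HahnSeries.C c * (g * tγ) := by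
      have h1 := htG σ hσ ⟨γ, hγF⟩ hσγF
      have h2 : (⟨coeffMap ((σ : NfQb ≃ₐ[ℚ] NfQb) : NfQb →+* NfQb)
          ((⟨γ, hγF⟩ : Fb) : LaurentSeries NfQb), hσγF⟩ : Fb) =
          ⟨HahnSeries.C c, tresdesc_C_mem Fb c⟩ * (⟨g, hgF⟩ * ⟨γ, hγF⟩) := Subtype.ext hσγ
      rw [h2, map_mul, map_mul, htC, htg, ← htγ] at h1
      exact h1.symm
    have e5 : coeffMap ((σ : NfQb ≃ₐ[ℚ] NfQb) : NfQb →+* NfQb) ρ = ρ := by
      rw [hρ, map_div₀, hσγ, e4]
      exact tresdesc_alg3 (s36d_C_ne_zero hc0) hg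
    have h1 := congrArg HahnSeries.leadingCoeff e5
    rw [s36d_leadingCoeff_coeffMap, ← hα] at h1
    exact h1

end Core

end Fermat.Agent.R38

end


end ZBR38_019_0

/-! ### bundled: `Fermat.Agent.R38.TresDescJ` -/
section ZBR38_019_1

/-!
# R38-TRES, piece FAC-DESC [T5 (a)]: descent to the cover `F_N(ℚ̄)(y)`, `y ^ m = w₀`

`x, z₀ ∈ J₀(N)`, `u, w₀ ∈ F_N(ℚ̄)` Kummer functions (exponent `m`) of `x, z₀`, `y ∈ ℚ̄((Q))` with
`y ^ m = w₀`, `G ≤ G_ℚ` a subgroup with `σ x − x ∈ ℤ z₀` and `σ z₀ ∈ ℤ z₀` for `σ ∈ G`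
(application: `G` = the inertia group of `A`, `z₀` toric, the line hypothesis of `StmtTresP5`).

* `tresdesc_kummer_zsmul` : `w ^ k` is a Kummer function of `k • z` (`k : ℤ`);
* `tresdesc_cocycle`   : `σ u = C a · h ^ m · (u · w₀ ^ k)` if `σ x − x = k z₀`;
* `tresCov N y`        : the cover `F′ = F_N(ℚ̄)(y) ⊂ ℚ̄((Q))`;
* `tresdesc_sigma_y`   : `σ y = C c · (h · y ^ g)` if `σ z₀ = g z₀`;
* `tresdesc_stab`      : `F′` is stable under such `σ`;
* `tresdesc_comm`      : a ring homomorphism `t : F′ → ℚ̄((Q))` fixing `F_N(ℚ̄)` with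
  `t y = C ζ · y` commutes with every `σ` such that `σ z₀ = g z₀`, `σ ζ = ζ ^ g`;
* **`tresdesc_main`**  : (DESC′) `u = C (lc u) · γ ^ m · u″`, `u″ ∈ F′` fixed by `G`;
* **`tresdesc_main_deck`** : (DECK) `t u″ = C (α ^ m) · h ^ m · u″`, `h ∈ F′` and `α ^ m` fixed
  by `G`, and `α` fixed by every `σ ∈ G` with `σ x = x`.
-/

set_option autoImplicit false
set_option linter.unusedSectionVars false
set_option linter.unusedVariables false
set_option linter.style.haveILetI false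

noncomputable section

open ModularCurve AlgebraicCurve Fermat.Agent.ES Fermat.Agent.ES.G2 Fermat.Agent.INJ
  Fermat.Agent.UNIP Fermat.Agent.S36 Fermat.Agent.RIB.MP

namespace Fermat.Agent.R38

section Kummer

variable {K F : Type*} [Field K] [Field F] [Algebra K F]

/-- `w ^ k` is a Kummer function of `k • z` -/
theorem tresdesc_kummer_zsmul {n : ℕ} {z : Pic0 K F} {w : F} (hw : KummerRel n z w) (k : ℤ) :
    KummerRel n (k • z) (w ^ k) := by
  have hnat : ∀ j : ℕ, KummerRel n (j • z) (w ^ j) := by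
    intro j
    induction j with
    | zero =>
      rw [zero_nsmul, pow_zero]
      exact KummerRel.zero
    | succ j ih =>
      rw [succ_nsmul, pow_succ]
      exact ih.add hw
  obtain ⟨j, rfl | rfl⟩ := Int.eq_nat_or_neg k
  · rw [natCast_zsmul, zpow_natCast]
    exact hnat j
  · rw [neg_smul, natCast_zsmul, zpow_neg, zpow_natCast]
    exact (hnat j).neg

end Kummer

section Adjoin

variable {s : Set (LaurentSeries NfQb)}

/-- a ring endomorphism of `ℚ̄((Q))` mapping the constants and the generators into `E` maps the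
generated field into `E` -/
theorem tresdesc_adjoin_map {E : IntermediateField NfQb (LaurentSeries NfQb)}
    (ψ : LaurentSeries NfQb →+* LaurentSeries NfQb)
    (hC : ∀ a : NfQb, ψ (algebraMap NfQb (LaurentSeries NfQb) a) ∈ E)
    (hs : ∀ x ∈ s, ψ x ∈ E) :
    ∀ x ∈ IntermediateField.adjoin NfQb s, ψ x ∈ E := by
  intro x hx
  induction hx using IntermediateField.adjoin_induction with
  | mem x hx => exact hs x hx
  | algebraMap a => exact hC a
  | add x y _ _ hx hy =>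
    rw [map_add]
    exact E.add_mem hx hy
  | inv x _ hx =>
    rw [map_inv₀]
    exact E.inv_mem hx
  | mul x y _ _ hx hy =>
    rw [map_mul]
    exact E.mul_mem hx hy

/-- two ring homomorphisms on the generated field which agree on the constants and on the
generators are equal -/
theorem tresdesc_adjoin_ext
    (φ₁ φ₂ : ↥(IntermediateField.adjoin NfQb s) →+* LaurentSeries NfQb)
    (hC : ∀ a : NfQb, φ₁ (algebraMap NfQb _ a) = φ₂ (algebraMap NfQb _ a))
    (hs : ∀ (x : LaurentSeries NfQb) (hx : x ∈ s),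
      φ₁ ⟨x, IntermediateField.subset_adjoin _ _ hx⟩ =
        φ₂ ⟨x, IntermediateField.subset_adjoin _ _ hx⟩) :
    ∀ (x : LaurentSeries NfQb) (hx : x ∈ IntermediateField.adjoin NfQb s),
      φ₁ ⟨x, hx⟩ = φ₂ ⟨x, hx⟩ := by
  intro x hx
  induction hx using IntermediateField.adjoin_induction with
  | mem x hx => exact hs x hx
  | algebraMap a => exact hC a
  | add x y hx hy h1 h2 =>
    have e : (⟨x + y, add_mem hx hy⟩ : ↥(IntermediateField.adjoin NfQb s)) =
        ⟨x, hx⟩ + ⟨y, hy⟩ := rfl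
    rw [e, map_add, map_add, h1, h2]
  | inv x hx h1 =>
    have e : (⟨x⁻¹, inv_mem hx⟩ : ↥(IntermediateField.adjoin NfQb s)) =
        (⟨x, hx⟩ : ↥(IntermediateField.adjoin NfQb s))⁻¹ := rfl
    rw [e, map_inv₀, map_inv₀, h1]
  | mul x y hx hy h1 h2 =>
    have e : (⟨x * y, mul_mem hx hy⟩ : ↥(IntermediateField.adjoin NfQb s)) =
        ⟨x, hx⟩ * ⟨y, hy⟩ := rfl
    rw [e, map_mul, map_mul, h1, h2]

end Adjoin

section J

variable {N : ℕ} [NeZero N]

/-- the cocycle of a class moved along the line `ℤ z₀` -/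
theorem tresdesc_cocycle {m : ℕ} {x z₀ : JZero N} {u w₀ : modularFunctionFieldBar N}
    (hu : KummerRel m x u) (hw : KummerRel m z₀ w₀) {σ : NfQb ≃ₐ[ℚ] NfQb} {k : ℤ}
    (hσ : σ • x - x = k • z₀) :
    ∃ (a : NfQb) (h : modularFunctionFieldBar N), a ≠ 0 ∧ h ≠ 0 ∧
      arithmeticGalois (modularFunctionFieldFull N) σ • u =
        algebraMap NfQb (modularFunctionFieldBar N) a * h ^ m * (u * w₀ ^ k) := by
  have h1 : KummerRel m (arithmeticGalois (modularFunctionFieldFull N) σ • x)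
      (arithmeticGalois (modularFunctionFieldFull N) σ • u) := hu.smul _
  have h2 : arithmeticGalois (modularFunctionFieldFull N) σ • x = x + k • z₀ := by
    have h3 : σ • x = x + k • z₀ := by
      rw [← hσ]
      abel
    exact h3
  rw [h2] at h1
  have h3 : KummerRel m (x + k • z₀) (u * w₀ ^ k) := hu.add (tresdesc_kummer_zsmul hw k)
  obtain ⟨g, c, hg, hc0, hc, he⟩ := h3.exists_eq_mul_pow h1
  obtain ⟨c₀, rfl⟩ := mu_exists_const_of_ord_eq_zero c hc
  refine ⟨c₀, g, fun h0 => hc0 (by rw [h0, map_zero]), hg, ?_⟩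
  rw [he]
  ring

/-- the same for a class mapped into the line `ℤ z₀` -/
theorem tresdesc_cocycle' {m : ℕ} {z₀ : JZero N} {w₀ : modularFunctionFieldBar N}
    (hw : KummerRel m z₀ w₀) {σ : NfQb ≃ₐ[ℚ] NfQb} {g : ℤ} (hσ : σ • z₀ = g • z₀) :
    ∃ (a : NfQb) (h : modularFunctionFieldBar N), a ≠ 0 ∧ h ≠ 0 ∧
      arithmeticGalois (modularFunctionFieldFull N) σ • w₀ =
        algebraMap NfQb (modularFunctionFieldBar N) a * h ^ m * w₀ ^ g := by
  have h1 : KummerRel m (arithmeticGalois (modularFunctionFieldFull N) σ • z₀)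
      (arithmeticGalois (modularFunctionFieldFull N) σ • w₀) := hw.smul _
  have h2 : arithmeticGalois (modularFunctionFieldFull N) σ • z₀ = g • z₀ := hσ
  rw [h2] at h1
  obtain ⟨k, c, hk, hc0, hc, he⟩ := (tresdesc_kummer_zsmul hw g).exists_eq_mul_pow h1
  obtain ⟨c₀, rfl⟩ := mu_exists_const_of_ord_eq_zero c hc
  refine ⟨c₀, k, fun h0 => hc0 (by rw [h0, map_zero]), hk, ?_⟩
  rw [he]
  ring

variable (N) in
/-- the cover `F′ = F_N(ℚ̄)(y) ⊂ ℚ̄((Q))` -/
def tresCov (y : LaurentSeries NfQb) : IntermediateField NfQb (LaurentSeries NfQb) :=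
  IntermediateField.adjoin NfQb
    ((modularFunctionFieldBar N : Set (LaurentSeries NfQb)) ∪ {y})

theorem tresCov_mem_of_mem (y : LaurentSeries NfQb) {f : LaurentSeries NfQb}
    (hf : f ∈ modularFunctionFieldBar N) : f ∈ tresCov N y :=
  IntermediateField.subset_adjoin _ _ (Or.inl hf)

theorem tresCov_self_mem (y : LaurentSeries NfQb) : y ∈ tresCov N y :=
  IntermediateField.subset_adjoin _ _ (Or.inr rfl)

/-- the Galois conjugate of the root `y` of `w₀` -/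
theorem tresdesc_sigma_y {m : ℕ} (hm : m ≠ 0) {z₀ : JZero N}
    {w₀ : modularFunctionFieldBar N} (hw : KummerRel m z₀ w₀) {y : LaurentSeries NfQb}
    (hy : y ^ m = (w₀ : LaurentSeries NfQb)) {σ : NfQb ≃ₐ[ℚ] NfQb} {g : ℤ}
    (hσ : σ • z₀ = g • z₀) :
    ∃ (c : NfQb) (h : modularFunctionFieldBar N), c ≠ 0 ∧ h ≠ 0 ∧
      coeffMap ((σ : NfQb ≃ₐ[ℚ] NfQb) : NfQb →+* NfQb) y =
        HahnSeries.C c * ((h : LaurentSeries NfQb) * y ^ g) := by
  obtain ⟨a, h, ha, hh, he⟩ := tresdesc_cocycle' hw hσ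
  have hmK : ((m : ℕ) : NfQb) ≠ 0 := Nat.cast_ne_zero.mpr hm
  have hw0 : (w₀ : LaurentSeries NfQb) ≠ 0 := fun h0 => hw.ne_zero (Subtype.ext h0)
  have hy0 : y ≠ 0 := by
    rintro rfl
    rw [zero_pow hm] at hy
    exact hw0 hy.symm
  have hhL : (h : LaurentSeries NfQb) ≠ 0 := fun h0 => hh (Subtype.ext h0)
  have e1 : coeffMap ((σ : NfQb ≃ₐ[ℚ] NfQb) : NfQb →+* NfQb) (w₀ : LaurentSeries NfQb) =
      HahnSeries.C a * (h : LaurentSeries NfQb) ^ m * (w₀ : LaurentSeries NfQb) ^ g := by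
    have := congrArg (fun z : modularFunctionFieldBar N => (z : LaurentSeries NfQb)) he
    simp only [coe_arithmeticGalois_smul] at this
    rw [this, ← s36d_algebraMap_eq_C]
    rfl
  have e2 : (coeffMap ((σ : NfQb ≃ₐ[ℚ] NfQb) : NfQb →+* NfQb) y) ^ m =
      HahnSeries.C a * ((h : LaurentSeries NfQb) * y ^ g) ^ m := by
    rw [← map_pow, hy, e1, mul_pow, ← hy, mul_assoc]
    congr 2
    rw [← zpow_natCast (y ^ g) m, ← zpow_mul, mul_comm g (m : ℤ), zpow_mul, zpow_natCast]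
  obtain ⟨c, hc, -, hc2⟩ := tresdesc_root hmK ha (mul_ne_zero hhL (zpow_ne_zero g hy0)) e2
  exact ⟨c, h, hc, hh, hc2⟩

/-- the cover is stable under every `σ` mapping `z₀` into `ℤ z₀` -/
theorem tresdesc_stab {m : ℕ} (hm : m ≠ 0) {z₀ : JZero N}
    {w₀ : modularFunctionFieldBar N} (hw : KummerRel m z₀ w₀) {y : LaurentSeries NfQb}
    (hy : y ^ m = (w₀ : LaurentSeries NfQb)) {σ : NfQb ≃ₐ[ℚ] NfQb} {g : ℤ}
    (hσ : σ • z₀ = g • z₀) :
    ∀ x ∈ tresCov N y, coeffMap ((σ : NfQb ≃ₐ[ℚ] NfQb) : NfQb →+* NfQb) x ∈ tresCov N y := by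
  refine tresdesc_adjoin_map _ (fun a => ?_) ?_
  · rw [coeffMap_algebraMap]
    exact (tresCov N y).algebraMap_mem _
  · rintro x (hx | hx)
    · exact tresCov_mem_of_mem y (coeffMap_mem_laurentBaseChange σ hx)
    · rw [Set.mem_singleton_iff] at hx
      subst hx
      obtain ⟨c, h, -, -, he⟩ := tresdesc_sigma_y hm hw hy hσ
      rw [he]
      exact (tresCov N x).mul_mem (tresdesc_C_mem _ c)
        ((tresCov N x).mul_mem (tresCov_mem_of_mem x h.2)
          (zpow_mem (tresCov_self_mem x) g))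

/-- a deck transformation commutes with the Galois action -/
theorem tresdesc_comm {m : ℕ} (hm : m ≠ 0) {z₀ : JZero N}
    {w₀ : modularFunctionFieldBar N} (hw : KummerRel m z₀ w₀) {y : LaurentSeries NfQb}
    (hy : y ^ m = (w₀ : LaurentSeries NfQb))
    (t : ↥(tresCov N y) →+* LaurentSeries NfQb)
    (htF : ∀ (f : LaurentSeries NfQb) (hf : f ∈ modularFunctionFieldBar N),
      t ⟨f, tresCov_mem_of_mem y hf⟩ = f)
    {ζ : NfQb} (hζ : ζ ≠ 0) (hty : t ⟨y, tresCov_self_mem y⟩ = HahnSeries.C ζ * y)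
    {σ : NfQb ≃ₐ[ℚ] NfQb} {g : ℤ} (hσ : σ • z₀ = g • z₀) (hσζ : σ ζ = ζ ^ g) :
    ∀ (x : ↥(tresCov N y))
      (hx : coeffMap ((σ : NfQb ≃ₐ[ℚ] NfQb) : NfQb →+* NfQb) (x : LaurentSeries NfQb) ∈
        tresCov N y),
      t ⟨_, hx⟩ = coeffMap ((σ : NfQb ≃ₐ[ℚ] NfQb) : NfQb →+* NfQb) (t x) := by
  have hstab := tresdesc_stab hm hw hy hσ
  -- the restricted action
  set act : ↥(tresCov N y) →+* ↥(tresCov N y) :=
    ((coeffMap ((σ : NfQb ≃ₐ[ℚ] NfQb) : NfQb →+* NfQb)).comp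
      (algebraMap ↥(tresCov N y) (LaurentSeries NfQb))).codRestrict (tresCov N y)
      (fun x => hstab x x.2) with hact
  have hact_coe : ∀ x : ↥(tresCov N y), ((act x : ↥(tresCov N y)) : LaurentSeries NfQb) =
      coeffMap ((σ : NfQb ≃ₐ[ℚ] NfQb) : NfQb →+* NfQb) (x : LaurentSeries NfQb) := fun x => rfl
  have hCmem : ∀ a : NfQb, (HahnSeries.C a : LaurentSeries NfQb) ∈ modularFunctionFieldBar N :=
    fun a => s36d_C_mem N a
  have htC : ∀ (a : NfQb) (ha : (HahnSeries.C a : LaurentSeries NfQb) ∈ tresCov N y),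
      t ⟨HahnSeries.C a, ha⟩ = HahnSeries.C a := fun a ha => htF _ (hCmem a)
  have key := tresdesc_adjoin_ext (s := (modularFunctionFieldBar N : Set (LaurentSeries NfQb)) ∪ {y})
    (t.comp act) ((coeffMap ((σ : NfQb ≃ₐ[ℚ] NfQb) : NfQb →+* NfQb)).comp t) ?_ ?_
  · intro x hx
    have h1 := key (x : LaurentSeries NfQb) x.2
    have h2 : t (act x) = coeffMap ((σ : NfQb ≃ₐ[ℚ] NfQb) : NfQb →+* NfQb) (t x) := h1
    rw [← h2]
    congr 1
  · intro a
    show t (act (algebraMap NfQb _ a)) =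
      coeffMap ((σ : NfQb ≃ₐ[ℚ] NfQb) : NfQb →+* NfQb) (t (algebraMap NfQb _ a))
    have e1 : (algebraMap NfQb ↥(tresCov N y) a) =
        ⟨HahnSeries.C a, tresdesc_C_mem _ a⟩ := Subtype.ext (s36d_algebraMap_eq_C a)
    have e2 : act (algebraMap NfQb ↥(tresCov N y) a) =
        ⟨HahnSeries.C (σ a), tresdesc_C_mem _ (σ a)⟩ := by
      apply Subtype.ext
      rw [hact_coe, e1]
      exact s36d_coeffMap_C' ((σ : NfQb ≃ₐ[ℚ] NfQb) : NfQb →+* NfQb) a
    rw [e2, htC, e1, htC]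
    exact (s36d_coeffMap_C' ((σ : NfQb ≃ₐ[ℚ] NfQb) : NfQb →+* NfQb) a).symm
  · rintro x (hx | hx)
    · show t (act ⟨x, _⟩) = coeffMap ((σ : NfQb ≃ₐ[ℚ] NfQb) : NfQb →+* NfQb) (t ⟨x, _⟩)
      have e2 : act ⟨x, tresCov_mem_of_mem y hx⟩ =
          ⟨coeffMap ((σ : NfQb ≃ₐ[ℚ] NfQb) : NfQb →+* NfQb) x,
            tresCov_mem_of_mem y (coeffMap_mem_laurentBaseChange σ hx)⟩ := Subtype.ext rfl
      rw [e2, htF _ (coeffMap_mem_laurentBaseChange σ hx), htF _ hx]
    · rw [Set.mem_singleton_iff] at hx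
      subst hx
      show t (act ⟨x, _⟩) = coeffMap ((σ : NfQb ≃ₐ[ℚ] NfQb) : NfQb →+* NfQb) (t ⟨x, _⟩)
      obtain ⟨c, h, hc, hh, he⟩ := tresdesc_sigma_y hm hw hy hσ
      have e2 : act ⟨x, tresCov_self_mem x⟩ =
          ⟨HahnSeries.C c, tresdesc_C_mem _ c⟩ *
            (⟨(h : LaurentSeries NfQb), tresCov_mem_of_mem x h.2⟩ *
              (⟨x, tresCov_self_mem x⟩ : ↥(tresCov N x)) ^ g) := by
        apply Subtype.ext
        rw [hact_coe]
        exact he
      have hσζ' : ((σ : NfQb ≃ₐ[ℚ] NfQb) : NfQb →+* NfQb) ζ = ζ ^ g := hσζ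
      rw [e2, map_mul, map_mul, map_zpow₀, htC, htF _ h.2, hty, map_mul, s36d_coeffMap_C', he,
        hσζ', mul_zpow, map_zpow₀]
      ring

/-- the coercion of a cocycle relation to `ℚ̄((Q))`, on the cover -/
theorem tresdesc_cocycle_cov {m : ℕ} (hm : m ≠ 0) {x z₀ : JZero N}
    {u w₀ : modularFunctionFieldBar N} (hu : KummerRel m x u) (hw : KummerRel m z₀ w₀)
    {y : LaurentSeries NfQb} (hy : y ^ m = (w₀ : LaurentSeries NfQb))
    {σ : NfQb ≃ₐ[ℚ] NfQb} {k : ℤ} (hσ : σ • x - x = k • z₀) :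
    ∃ (a : NfQb) (h : LaurentSeries NfQb), h ∈ tresCov N y ∧
      coeffMap ((σ : NfQb ≃ₐ[ℚ] NfQb) : NfQb →+* NfQb) (u : LaurentSeries NfQb) =
        HahnSeries.C a * h ^ m * (u : LaurentSeries NfQb) := by
  obtain ⟨a, h, ha, hh, he⟩ := tresdesc_cocycle hu hw hσ
  refine ⟨a, (h : LaurentSeries NfQb) * y ^ k,
    (tresCov N y).mul_mem (tresCov_mem_of_mem y h.2)
      (zpow_mem (tresCov_self_mem y) k), ?_⟩
  have e1 : coeffMap ((σ : NfQb ≃ₐ[ℚ] NfQb) : NfQb →+* NfQb) (u : LaurentSeries NfQb) =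
      HahnSeries.C a * (h : LaurentSeries NfQb) ^ m *
        ((u : LaurentSeries NfQb) * (w₀ : LaurentSeries NfQb) ^ k) := by
    have := congrArg (fun z : modularFunctionFieldBar N => (z : LaurentSeries NfQb)) he
    simp only [coe_arithmeticGalois_smul] at this
    rw [this, ← s36d_algebraMap_eq_C]
    rfl
  rw [e1, ← hy, mul_pow]
  have e2 : (y ^ k) ^ m = (y ^ m) ^ k := by
    rw [← zpow_natCast (y ^ k) m, ← zpow_mul, mul_comm k (m : ℤ), zpow_mul, zpow_natCast]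
  rw [e2]
  ring

/-- **(DESC′).**  `x` moved by `G` along the line `ℤ z₀`, `z₀` mapped by `G` into `ℤ z₀`: a
Kummer function `u` of `x` is, on the cover `F′ = F_N(ℚ̄)(y)`, `y ^ m = w₀`, a constant times an
`m`-th power times a function `u″ ∈ F′` fixed by `G`. -/
theorem tresdesc_main {m : ℕ} (hm : m ≠ 0) (G : Subgroup (NfQb ≃ₐ[ℚ] NfQb))
    {x z₀ : JZero N} {u w₀ : modularFunctionFieldBar N} (hu : KummerRel m x u)
    (hw : KummerRel m z₀ w₀) {y : LaurentSeries NfQb}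
    (hy : y ^ m = (w₀ : LaurentSeries NfQb))
    (hline : ∀ σ ∈ G, ∃ k : ℤ, σ • x - x = k • z₀)
    (htor : ∀ σ ∈ G, ∃ g : ℤ, σ • z₀ = g • z₀) :
    ∃ u'' γ : LaurentSeries NfQb, u'' ∈ tresCov N y ∧ γ ∈ tresCov N y ∧ u'' ≠ 0 ∧ γ ≠ 0 ∧
      (u : LaurentSeries NfQb) =
        HahnSeries.C (u : LaurentSeries NfQb).leadingCoeff * γ ^ m * u'' ∧
      ∀ σ ∈ G, coeffMap ((σ : NfQb ≃ₐ[ℚ] NfQb) : NfQb →+* NfQb) u'' = u'' := by
  have hU0 : (u : LaurentSeries NfQb) ≠ 0 := fun h0 => hu.ne_zero (Subtype.ext h0)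
  refine tresdesc_desc (G := G) (Fb := tresCov N y) ?_ hm hU0 (tresCov_mem_of_mem y u.2)
    (s36d_orbit_finite N u.2) ?_
  · intro σ hσ
    obtain ⟨g, hg⟩ := htor σ hσ
    exact tresdesc_stab hm hw hy hg
  · intro σ hσ
    obtain ⟨k, hk⟩ := hline σ hσ
    exact tresdesc_cocycle_cov hm hu hw hy hk

/-- **(DECK).**  `t` a ring homomorphism of the cover `F′ = F_N(ℚ̄)(y)` into itself fixing
`F_N(ℚ̄)` with `t y = C ζ · y` (a deck transformation), `G` acting on `z₀` and on `ζ` through the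
same exponents.  For a decomposition `u = C b · γ ^ m · u″` with `u″ ∈ F′` fixed by `G`:
`t u″ = C (α ^ m) · h ^ m · u″` with `h ∈ F′` fixed by `G`, `α ^ m` fixed by `G`, and `α` fixed
by every `σ ∈ G` fixing the class `x`. -/
theorem tresdesc_main_deck {m : ℕ} (hm : m ≠ 0) (G : Subgroup (NfQb ≃ₐ[ℚ] NfQb))
    {x z₀ : JZero N} {u w₀ : modularFunctionFieldBar N} (hu : KummerRel m x u)
    (hw : KummerRel m z₀ w₀) {y : LaurentSeries NfQb}
    (hy : y ^ m = (w₀ : LaurentSeries NfQb))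
    (t : ↥(tresCov N y) →+* LaurentSeries NfQb) (htmem : ∀ z, t z ∈ tresCov N y)
    (htF : ∀ (f : LaurentSeries NfQb) (hf : f ∈ modularFunctionFieldBar N),
      t ⟨f, tresCov_mem_of_mem y hf⟩ = f)
    {ζ : NfQb} (hζ : ζ ≠ 0) (hty : t ⟨y, tresCov_self_mem y⟩ = HahnSeries.C ζ * y)
    (htor : ∀ σ ∈ G, ∃ g : ℤ, σ • z₀ = g • z₀ ∧ σ ζ = ζ ^ g)
    {u'' γ : LaurentSeries NfQb} {b : NfQb} (hu''F : u'' ∈ tresCov N y)
    (hγF : γ ∈ tresCov N y) (hb : b ≠ 0) (hγ : γ ≠ 0) (hu'' : u'' ≠ 0)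
    (hU : (u : LaurentSeries NfQb) = HahnSeries.C b * γ ^ m * u'')
    (hfix : ∀ σ ∈ G, coeffMap ((σ : NfQb ≃ₐ[ℚ] NfQb) : NfQb →+* NfQb) u'' = u'') :
    ∃ (α : NfQb) (h : LaurentSeries NfQb), α ≠ 0 ∧ h ∈ tresCov N y ∧ h ≠ 0 ∧
      (∀ σ ∈ G, coeffMap ((σ : NfQb ≃ₐ[ℚ] NfQb) : NfQb →+* NfQb) h = h) ∧
      t ⟨u'', hu''F⟩ = HahnSeries.C (α ^ m) * h ^ m * u'' ∧
      (∀ σ ∈ G, σ (α ^ m) = α ^ m) ∧
      ∀ σ ∈ G, σ • x = x → σ α = α := by
  have htC : ∀ (a : NfQb) (ha : (HahnSeries.C a : LaurentSeries NfQb) ∈ tresCov N y),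
      t ⟨HahnSeries.C a, ha⟩ = HahnSeries.C a := fun a ha => htF _ (s36d_C_mem N a)
  have htG : ∀ σ ∈ G, ∀ (z : ↥(tresCov N y))
      (hz : coeffMap ((σ : NfQb ≃ₐ[ℚ] NfQb) : NfQb →+* NfQb) (z : LaurentSeries NfQb) ∈
        tresCov N y),
      t ⟨_, hz⟩ = coeffMap ((σ : NfQb ≃ₐ[ℚ] NfQb) : NfQb →+* NfQb) (t z) := by
    intro σ hσ
    obtain ⟨g, hg, hgζ⟩ := htor σ hσ
    exact tresdesc_comm hm hw hy t htF hζ hty hg hgζ
  obtain ⟨α, h, hα, hhF, hh0, hhfix, hth, hαm, hαfix⟩ :=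
    tresdesc_deck (G := G) (Fb := tresCov N y) hm t htC htmem htG
      (tresCov_mem_of_mem y u.2) hu''F hγF hb hγ hu'' (htF _ u.2) hU hfix
  refine ⟨α, h, hα, hhF, hh0, hhfix, hth, hαm, ?_⟩
  intro σ hσ hσx
  apply hαfix σ hσ
  have hk : σ • x - x = (0 : ℤ) • z₀ := by
    rw [hσx, sub_self, zero_zsmul]
  obtain ⟨a, g, ha, hg, he⟩ := tresdesc_cocycle hu hw hk
  refine ⟨a, (g : LaurentSeries NfQb), tresCov_mem_of_mem y g.2, htF _ g.2, ?_⟩
  have := congrArg (fun z : modularFunctionFieldBar N => (z : LaurentSeries NfQb)) he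
  simp only [coe_arithmeticGalois_smul] at this
  rw [this, ← s36d_algebraMap_eq_C, zpow_zero, mul_one]
  rfl

/-- **FAC-DESC** ((DESC′) + (DECK) in one statement). -/
theorem tresdesc_final {m : ℕ} (hm : m ≠ 0) (G : Subgroup (NfQb ≃ₐ[ℚ] NfQb))
    {x z₀ : JZero N} {u w₀ : modularFunctionFieldBar N} (hu : KummerRel m x u)
    (hw : KummerRel m z₀ w₀) {y : LaurentSeries NfQb}
    (hy : y ^ m = (w₀ : LaurentSeries NfQb))
    (hline : ∀ σ ∈ G, ∃ k : ℤ, σ • x - x = k • z₀)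
    (t : ↥(tresCov N y) →+* LaurentSeries NfQb) (htmem : ∀ z, t z ∈ tresCov N y)
    (htF : ∀ (f : LaurentSeries NfQb) (hf : f ∈ modularFunctionFieldBar N),
      t ⟨f, tresCov_mem_of_mem y hf⟩ = f)
    {ζ : NfQb} (hζ : ζ ≠ 0) (hty : t ⟨y, tresCov_self_mem y⟩ = HahnSeries.C ζ * y)
    (htor : ∀ σ ∈ G, ∃ g : ℤ, σ • z₀ = g • z₀ ∧ σ ζ = ζ ^ g) :
    ∃ (u'' γ h : LaurentSeries NfQb) (α : NfQb) (hu''F : u'' ∈ tresCov N y),
      γ ∈ tresCov N y ∧ h ∈ tresCov N y ∧ u'' ≠ 0 ∧ γ ≠ 0 ∧ h ≠ 0 ∧ α ≠ 0 ∧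
      (u : LaurentSeries NfQb) =
        HahnSeries.C (u : LaurentSeries NfQb).leadingCoeff * γ ^ m * u'' ∧
      (∀ σ ∈ G, coeffMap ((σ : NfQb ≃ₐ[ℚ] NfQb) : NfQb →+* NfQb) u'' = u'') ∧
      (∀ σ ∈ G, coeffMap ((σ : NfQb ≃ₐ[ℚ] NfQb) : NfQb →+* NfQb) h = h) ∧
      t ⟨u'', hu''F⟩ = HahnSeries.C (α ^ m) * h ^ m * u'' ∧
      (∀ σ ∈ G, σ (α ^ m) = α ^ m) ∧
      ∀ σ ∈ G, σ • x = x → σ α = α := by
  have hU0 : (u : LaurentSeries NfQb) ≠ 0 := fun h0 => hu.ne_zero (Subtype.ext h0)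
  obtain ⟨u'', γ, hu''F, hγF, hu'', hγ, hU, hfix⟩ :=
    tresdesc_main hm G hu hw hy hline (fun σ hσ => (htor σ hσ).imp fun g hg => hg.1)
  obtain ⟨α, h, hα, hhF, hh0, hhfix, hth, hαm, hαfix⟩ :=
    tresdesc_main_deck hm G hu hw hy t htmem htF hζ hty htor hu''F hγF
      (HahnSeries.leadingCoeff_ne_zero.mpr hU0) hγ hu'' hU hfix
  exact ⟨u'', γ, h, α, hu''F, hγF, hhF, hu'', hγ, hh0, hα, hU, hfix, hhfix, hth, hαm, hαfix⟩

end J

end Fermat.Agent.R38

end


end ZBR38_019_1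

/-! ### bundled: `Fermat.Agent.R38.TresCoverBridge` -/
section ZBR38_019_2

/-!
# R38 TRES, (FAC-p), piece ASM-COV, part 8: bridges to the other vocabularies

* `tres5cField_eq_tresCov` : `tres5cField N y = tresCov N y` (helper30, `R38/TresDescJ.lean`);
* `tres5cBaseIncl_eq_mgaIncl` : `tres5cBaseIncl N h = mgaIncl h N` (`UNIP/MGGalAct.lean`);
* `tres5c_hw_of_bar` : `w` is not a `p`-th power in `F_N(E)` if its image is not a `p`-th power
  in `F_N(ℚ̄)`;
* `tres5c_deck_comm_of_toric` : `hρG` for the restriction `γ` of `σ ∈ G_ℚ` with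
  `σ z₀ = g z₀`, `σ ζ = ζ ^ g` (`tresdesc_comm` + `tres5c_deck_comm`).
-/

set_option autoImplicit false
set_option linter.style.haveILetI false
set_option linter.unusedSectionVars false

noncomputable section

open Polynomial IntermediateField ModularCurve AlgebraicCurve Fermat.Agent.INJ Fermat.Agent.UNIP
  Fermat.Agent.ES Fermat.Agent.ES.G2

namespace Fermat.Agent.R38

theorem tres5cField_eq_tresCov (N : ℕ) (y : LaurentSeries NfQb) :
    tres5cField N y = tresCov N y := rfl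

theorem tres5cBaseIncl_eq_mgaIncl {K E : IntermediateField ℚ NfQb} (N : ℕ) (h : K ≤ E) :
    tres5cBaseIncl N h = mgaIncl h N :=
  RingHom.ext fun _ => Subtype.ext rfl

/-- `w` is not a `p`-th power in `F_N(E)` if its image is not a `p`-th power in `F_N(ℚ̄)` -/
theorem tres5c_hw_of_bar (E : IntermediateField ℚ NfQb) (N : ℕ) {p : ℕ}
    {w : ↥(modularFunctionFieldFullC ↥E N)}
    (hw : ∀ c : ↥(modularFunctionFieldBar N), c ^ p ≠ nfEmb E N w) :
    ∀ c : ↥(modularFunctionFieldFullC ↥E N), c ^ p ≠ w := by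
  intro c hc
  apply hw (nfEmb E N c)
  rw [← map_pow, hc]

section Comm

variable {N : ℕ} [NeZero N] (E : IntermediateField ℚ NfQb) {p : ℕ}
  {V : ValuationSubring ↥(modularFunctionFieldFullC ↥E N)}

/-- **`hρG` from the toric line.**  `z₀ ∈ J₀(N)` with Kummer function `w₀`, `y ^ m = w₀`, `t` a
deck transformation of `F′ = F_N(ℚ̄)(y)` with `t y = C ζ · y`; `σ ∈ G_ℚ` with `σ z₀ = g z₀`,
`σ ζ = ζ ^ g`, and `γ : E →+* E` its restriction.  Then `ρ_E = S.deck` commutes with the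
coefficientwise action of `γ` on `L_E`. -/
theorem tres5c_deck_comm_of_toric {m : ℕ} (hm : m ≠ 0) {z₀ : JZero N}
    {w₀ : modularFunctionFieldBar N} (hw : KummerRel m z₀ w₀) {y : LaurentSeries NfQb}
    (hy : y ^ m = (w₀ : LaurentSeries NfQb))
    (S : Tres5Kum ↥(modularFunctionFieldFullC ↥E N) ↥(tres5cL E N y) V p)
    (t : ↥(tres5cField N y) →+* LaurentSeries NfQb)
    (htF : ∀ (f : LaurentSeries NfQb) (hf : f ∈ modularFunctionFieldBar N),
      t ⟨f, tres5c_bar_le N y hf⟩ = f)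
    {ζ : NfQb} (hζ : ζ ≠ 0) (hty : t ⟨y, tres5c_y_mem N y⟩ = HahnSeries.C ζ * y)
    (hSy : coeffMap (algebraMap ↥E NfQb) (S.y : LaurentSeries ↥E) = y)
    (hSζ : coeffMap (algebraMap ↥E NfQb) ((S.ζ : ↥(modularFunctionFieldFullC ↥E N)) :
      LaurentSeries ↥E) = HahnSeries.C ζ)
    (γ : ↥E →+* ↥E) (σ : NfQb ≃ₐ[ℚ] NfQb)
    (hγσ : ∀ e : ↥E, σ (algebraMap ↥E NfQb e) = algebraMap ↥E NfQb (γ e))
    {g : ℤ} (hσ : σ • z₀ = g • z₀) (hσζ : σ ζ = ζ ^ g)
    {x x' d' : ↥(tres5cL E N y)}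
    (hx' : (x' : LaurentSeries ↥E) = coeffMap γ (x : LaurentSeries ↥E))
    (hd' : (d' : LaurentSeries ↥E) = coeffMap γ ((S.deck x : ↥(tres5cL E N y)) :
      LaurentSeries ↥E)) :
    S.deck x' = d' :=
  tres5c_deck_comm E N y S t htF hty hSy hSζ γ σ hγσ
    (tresdesc_comm hm hw hy t htF hζ hty hσ hσζ) hx' hd'

end Comm

end Fermat.Agent.R38

end
end ZBR38_019_2

/-! ### bundled: `Fermat.Agent.R38.TresFacTrFld` -/
section ZBR38_019_3

/-!
# R38 TRES, (FAC-p), piece T3-FLD: the cover over a finite extension of the inertia field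

`F′ = tres5cField N y = F_N(ℚ̄)(y) ⊂ ℚ̄((q))`, `y ^ p ∈ F_N(ℚ̄)`, `y ≠ 0`.

* `TresftfNF f` : the coefficients of `f ∈ ℚ̄((q))` lie in a number field;
* `tresftf_coeff` (F1) : every `f ∈ F′` has its coefficients in a number field;
* `tresftf_exists` (F2) : finitely many constants, elements of `F_N(ℚ̄)` and elements of `F′` are
  defined over `E″ = mgcE A K₁ = ℚ̄^I · K₁` for one number field `K₁`, Galois over `ℚ`,
  containing a given number field;
* `tresftf_transport` (F3) : an identity `u = C b · γ ^ p · u″` of `ℚ̄((q))` between elements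
  defined over `E″` (resp. `K ≤ E″` for `u″`) holds in `L_{E″} = tres5cL E″ N y`
  (= hypothesis `hfac` of `tresft_compare`).
-/

set_option autoImplicit false
set_option linter.unusedSectionVars false
set_option linter.unusedVariables false
set_option linter.style.haveILetI false

noncomputable section

open ModularCurve Fermat.Agent.INJ Fermat.Agent.UNIP Fermat.Agent.S36

namespace Fermat.Agent.R38

section NF

/-- the coefficients of `f` lie in a number field -/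
def TresftfNF (f : LaurentSeries NfQb) : Prop :=
  ∃ K₁ : IntermediateField ℚ NfQb, FiniteDimensional ℚ K₁ ∧
    ∃ g : LaurentSeries K₁, coeffMap (algebraMap K₁ NfQb) g = f

/-- a Laurent series with coefficients in `E` comes from `E((q))` -/
theorem tresftf_exists_of_coeff (E : IntermediateField ℚ NfQb) {f : LaurentSeries NfQb}
    (hc : ∀ n : ℤ, f.coeff n ∈ E) :
    ∃ g : LaurentSeries E, coeffMap (algebraMap E NfQb) g = f := by
  classical
  have hsupp : (Function.support fun n : ℤ => (⟨f.coeff n, hc n⟩ : E)).IsPWO := by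
    refine f.isPWO_support.mono fun n hn => ?_
    rw [Function.mem_support] at hn
    rw [HahnSeries.mem_support]
    intro h0
    exact hn (Subtype.ext h0)
  refine ⟨⟨fun n => ⟨f.coeff n, hc n⟩, hsupp⟩, ?_⟩
  ext n
  rfl

theorem tresftf_nf_iff (f : LaurentSeries NfQb) :
    TresftfNF f ↔ ∃ K₁ : IntermediateField ℚ NfQb, FiniteDimensional ℚ K₁ ∧
      ∀ n : ℤ, f.coeff n ∈ K₁ := by
  constructor
  · rintro ⟨K₁, hK₁, g, rfl⟩
    exact ⟨K₁, hK₁, fun n => (g.coeff n).2⟩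
  · rintro ⟨K₁, hK₁, hc⟩
    exact ⟨K₁, hK₁, tresftf_exists_of_coeff K₁ hc⟩

theorem TresftfNF.mono {f : LaurentSeries NfQb} {K₁ K₂ : IntermediateField ℚ NfQb}
    (h : K₁ ≤ K₂) {g : LaurentSeries K₁} (hg : coeffMap (algebraMap K₁ NfQb) g = f) :
    coeffMap (algebraMap K₂ NfQb) (coeffMap (IntermediateField.inclusion h).toRingHom g) = f := by
  rw [nf_coeffMap_inclusion h g, hg]

theorem TresftfNF.add {f f' : LaurentSeries NfQb} (hf : TresftfNF f) (hf' : TresftfNF f') :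
    TresftfNF (f + f') := by
  obtain ⟨K₁, hK₁, g, hg⟩ := hf
  obtain ⟨K₂, hK₂, g', hg'⟩ := hf'
  refine ⟨K₁ ⊔ K₂, IntermediateField.finiteDimensional_sup K₁ K₂,
    coeffMap (IntermediateField.inclusion (le_sup_left : K₁ ≤ K₁ ⊔ K₂)).toRingHom g +
      coeffMap (IntermediateField.inclusion (le_sup_right : K₂ ≤ K₁ ⊔ K₂)).toRingHom g', ?_⟩
  rw [map_add, TresftfNF.mono le_sup_left hg, TresftfNF.mono le_sup_right hg']

theorem TresftfNF.mul {f f' : LaurentSeries NfQb} (hf : TresftfNF f) (hf' : TresftfNF f') :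
    TresftfNF (f * f') := by
  obtain ⟨K₁, hK₁, g, hg⟩ := hf
  obtain ⟨K₂, hK₂, g', hg'⟩ := hf'
  refine ⟨K₁ ⊔ K₂, IntermediateField.finiteDimensional_sup K₁ K₂,
    coeffMap (IntermediateField.inclusion (le_sup_left : K₁ ≤ K₁ ⊔ K₂)).toRingHom g *
      coeffMap (IntermediateField.inclusion (le_sup_right : K₂ ≤ K₁ ⊔ K₂)).toRingHom g', ?_⟩
  rw [map_mul, TresftfNF.mono le_sup_left hg, TresftfNF.mono le_sup_right hg']

theorem TresftfNF.inv {f : LaurentSeries NfQb} (hf : TresftfNF f) : TresftfNF f⁻¹ := by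
  obtain ⟨K₁, hK₁, g, hg⟩ := hf
  exact ⟨K₁, hK₁, g⁻¹, by rw [map_inv₀, hg]⟩

theorem tresftf_nf_const (a : NfQb) :
    TresftfNF (algebraMap NfQb (LaurentSeries NfQb) a) := by
  have ha : IsIntegral ℚ a := (AlgebraicClosure.isAlgebraic ℚ).isIntegral.isIntegral a
  refine ⟨IntermediateField.adjoin ℚ {a}, IntermediateField.adjoin.finiteDimensional ha,
    algebraMap _ _
      (⟨a, IntermediateField.mem_adjoin_simple_self ℚ a⟩ : IntermediateField.adjoin ℚ {a}), ?_⟩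
  rw [nf_coeffMap_algebraMap]
  rfl

variable {N : ℕ} [NeZero N]

theorem tresftf_nf_bar {f : LaurentSeries NfQb} (hf : f ∈ modularFunctionFieldBar N) :
    TresftfNF f := by
  obtain ⟨K₀, hK₀, y₀, -, hy₀⟩ := nf_exists_descent hf
  exact ⟨K₀, hK₀, y₀, hy₀⟩

/-- a root of a series with coefficients in a number field has coefficients in a number
field -/
theorem tresftf_nf_root {p : ℕ} (hp : p ≠ 0) {y : LaurentSeries NfQb} (hy0 : y ≠ 0)
    (hy : TresftfNF (y ^ p)) : TresftfNF y := by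
  classical
  obtain ⟨K₀, hK₀, w₀, hw₀⟩ := hy
  have hc : IsIntegral ℚ y.leadingCoeff :=
    (AlgebraicClosure.isAlgebraic ℚ).isIntegral.isIntegral _
  haveI : FiniteDimensional ℚ (IntermediateField.adjoin ℚ {y.leadingCoeff}) :=
    IntermediateField.adjoin.finiteDimensional hc
  haveI := hK₀
  set K₁ : IntermediateField ℚ NfQb := K₀ ⊔ IntermediateField.adjoin ℚ {y.leadingCoeff} with hK₁
  have hK₁fin : FiniteDimensional ℚ K₁ := IntermediateField.finiteDimensional_sup _ _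
  have hcK₁ : y.leadingCoeff ∈ K₁ :=
    (le_sup_right : IntermediateField.adjoin ℚ {y.leadingCoeff} ≤ K₁)
      (IntermediateField.mem_adjoin_simple_self ℚ _)
  rw [tresftf_nf_iff]
  refine ⟨K₁, hK₁fin, fun n => ?_⟩
  haveI := Fermat.Agent.Common.isAlgClosure_rat_qbar
  have hmem : y.coeff n ∈ IntermediateField.fixedField K₁.fixingSubgroup := by
    rw [IntermediateField.mem_fixedField_iff]
    intro σ hσ
    have hσK : ∀ x ∈ K₁, σ x = x := fun x hx =>
      (IntermediateField.mem_fixingSubgroup_iff K₁ σ).mp hσ x hx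
    -- `σ` fixes `y ^ p`
    have h1 : coeffMap ((σ : NfQb ≃ₐ[ℚ] NfQb) : NfQb →+* NfQb) (y ^ p) = y ^ p := by
      rw [← hw₀, coeffMap_coeffMap]
      refine coeffMap_congr (RingHom.ext fun c => ?_) w₀
      exact hσK _ ((le_sup_left : K₀ ≤ K₁) c.2)
    have hmK : ((p : ℕ) : NfQb) ≠ 0 := Nat.cast_ne_zero.mpr hp
    have h2 : (coeffMap ((σ : NfQb ≃ₐ[ℚ] NfQb) : NfQb →+* NfQb) y) ^ p =
        HahnSeries.C (1 : NfQb) * y ^ p := by
      rw [← map_pow, h1, map_one, one_mul]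
    obtain ⟨c, hc0, -, hc2⟩ := tresdesc_root hmK one_ne_zero hy0 h2
    have h3 := congrArg HahnSeries.leadingCoeff hc2
    rw [s36d_leadingCoeff_coeffMap, HahnSeries.leadingCoeff_mul, s36d_leadingCoeff_C] at h3
    have h4 : ((σ : NfQb ≃ₐ[ℚ] NfQb) : NfQb →+* NfQb) y.leadingCoeff = y.leadingCoeff :=
      hσK _ hcK₁
    rw [h4] at h3
    have hlc : y.leadingCoeff ≠ 0 := HahnSeries.leadingCoeff_ne_zero.mpr hy0
    have hc1 : c = 1 := by
      have h5 : c * y.leadingCoeff = 1 * y.leadingCoeff := by rw [one_mul]; exact h3.symm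
      exact mul_right_cancel₀ hlc h5
    rw [hc1, map_one, one_mul] at hc2
    have h6 := congrArg (fun z : LaurentSeries NfQb => z.coeff n) hc2
    exact h6
  rwa [InfiniteGalois.fixedField_fixingSubgroup] at hmem

/-- **(F1)** every element of the cover `F′ = F_N(ℚ̄)(y)` has its coefficients in a number
field. -/
theorem tresftf_coeff {p : ℕ} (hp : p ≠ 0) {y : LaurentSeries NfQb} (hy0 : y ≠ 0)
    (hy : y ^ p ∈ modularFunctionFieldBar N) {f : LaurentSeries NfQb}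
    (hf : f ∈ tres5cField N y) :
    ∃ K₁ : IntermediateField ℚ NfQb, FiniteDimensional ℚ K₁ ∧ ∀ n : ℤ, f.coeff n ∈ K₁ := by
  rw [← tresftf_nf_iff]
  have hyNF : TresftfNF y := tresftf_nf_root hp hy0 (tresftf_nf_bar hy)
  rw [tres5cField] at hf
  induction hf using IntermediateField.adjoin_induction with
  | mem x hx =>
    rcases hx with hx | hx
    · exact tresftf_nf_bar hx
    · rw [Set.mem_singleton_iff] at hx
      rw [hx]
      exact hyNF
  | algebraMap a => exact tresftf_nf_const a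
  | add x z _ _ hx hz => exact hx.add hz
  | inv x _ hx => exact hx.inv
  | mul x z _ _ hx hz => exact hx.mul hz

/-- finitely many elements of the cover have their coefficients in one number field -/
theorem tresftf_coeff_finset {p : ℕ} (hp : p ≠ 0) {y : LaurentSeries NfQb} (hy0 : y ≠ 0)
    (hy : y ^ p ∈ modularFunctionFieldBar N) (Fs : Finset (LaurentSeries NfQb))
    (hFs : ∀ f ∈ Fs, f ∈ tres5cField N y) :
    ∃ K₁ : IntermediateField ℚ NfQb, FiniteDimensional ℚ K₁ ∧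
      ∀ f ∈ Fs, ∀ n : ℤ, f.coeff n ∈ K₁ := by
  classical
  induction Fs using Finset.induction_on with
  | empty => exact ⟨⊥, inferInstance, fun f hf => absurd hf (Finset.notMem_empty f)⟩
  | insert a s ha ih =>
    obtain ⟨K₁, hK₁, h1⟩ := ih fun f hf => hFs f (Finset.mem_insert_of_mem hf)
    obtain ⟨K₂, hK₂, h2⟩ := tresftf_coeff hp hy0 hy (hFs a (Finset.mem_insert_self a s))
    haveI := hK₁
    haveI := hK₂
    refine ⟨K₁ ⊔ K₂, IntermediateField.finiteDimensional_sup K₁ K₂, fun f hf n => ?_⟩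
    rcases Finset.mem_insert.mp hf with rfl | hf
    · exact (le_sup_right : K₂ ≤ K₁ ⊔ K₂) (h2 n)
    · exact (le_sup_left : K₁ ≤ K₁ ⊔ K₂) (h1 f hf n)

/-- **(F2)** finitely many constants, elements of `F_N(ℚ̄)` and elements of the cover are
defined over `E″ = ℚ̄^I · K₁` for one number field `K₁ ⊇ K⁰`, Galois over `ℚ`. -/
theorem tresftf_exists {p : ℕ} (hp : p ≠ 0) {y : LaurentSeries NfQb} (hy0 : y ≠ 0)
    (hy : y ^ p ∈ modularFunctionFieldBar N) (A : ValuationSubring NfQb)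
    (K0 : IntermediateField ℚ NfQb) (hK0 : FiniteDimensional ℚ K0)
    (Cs : Finset NfQb) (Us : Finset (LaurentSeries NfQb))
    (hUs : ∀ u ∈ Us, u ∈ modularFunctionFieldBar N)
    (Fs : Finset (LaurentSeries NfQb)) (hFs : ∀ f ∈ Fs, f ∈ tres5cField N y) :
    ∃ K₁ : IntermediateField ℚ NfQb, K0 ≤ K₁ ∧ FiniteDimensional ℚ K₁ ∧ IsGalois ℚ K₁ ∧
      (∀ c ∈ Cs, c ∈ K₁) ∧
      (∀ u ∈ Us, ∃ v : ↥(modularFunctionFieldFullC ↥(mgcE A K₁) N),
        coeffMap (algebraMap ↥(mgcE A K₁) NfQb) (v : LaurentSeries ↥(mgcE A K₁)) = u) ∧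
      (∀ f ∈ Fs, ∃ g : ↥(tres5cL (mgcE A K₁) N y),
        coeffMap (algebraMap ↥(mgcE A K₁) NfQb) (g : LaurentSeries ↥(mgcE A K₁)) = f) := by
  classical
  obtain ⟨K₀, hK₀, hCs, hdesc⟩ := nf_exists_descent_finset (N := N) Cs Us hUs
  obtain ⟨K₂, hK₂, hcoeff⟩ := tresftf_coeff_finset hp hy0 hy Fs hFs
  haveI := hK0
  haveI := hK₀
  haveI := hK₂
  set K₃ : IntermediateField ℚ NfQb := K0 ⊔ K₀ ⊔ K₂ with hK₃
  haveI h3a : FiniteDimensional ℚ (K0 ⊔ K₀ : IntermediateField ℚ NfQb) :=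
    IntermediateField.finiteDimensional_sup K0 K₀
  haveI hK₃fin : FiniteDimensional ℚ K₃ := IntermediateField.finiteDimensional_sup _ K₂
  set K₁ : IntermediateField ℚ NfQb := IntermediateField.normalClosure ℚ K₃ NfQb with hK₁
  have hle : K₃ ≤ K₁ := IntermediateField.le_normalClosure K₃
  haveI hK₁fin : FiniteDimensional ℚ K₁ := normalClosure.is_finiteDimensional ℚ K₃ NfQb
  haveI := Fermat.Agent.Common.isAlgClosure_rat_qbar
  haveI : Normal ℚ K₁ := normalClosure.normal ℚ K₃ NfQb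
  have hgal : IsGalois ℚ K₁ := IsGalois.mk
  have hE : K₁ ≤ mgcE A K₁ := le_sup_right
  have h0 : K0 ≤ K₃ := le_sup_of_le_left le_sup_left
  have h1 : K₀ ≤ K₃ := le_sup_of_le_left le_sup_right
  have h2 : K₂ ≤ K₃ := le_sup_right
  refine ⟨K₁, h0.trans hle, hK₁fin, hgal, fun c hc => hle (h1 (hCs c hc)), ?_, ?_⟩
  · intro u hu
    obtain ⟨v, hv, hvu⟩ := hdesc (mgcE A K₁) ((h1.trans hle).trans hE) u hu
    exact ⟨⟨v, hv⟩, hvu⟩
  · intro f hf
    exact tres5cL_exists_of_coeff (mgcE A K₁) N y (hFs f hf)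
      (fun n => hE (hle (h2 (hcoeff f hf n))))

end NF

section Transport

variable {E Ω : Type*} [Field E] [Field Ω] (ι : E →+* Ω)
  {F₀ : IntermediateField E (LaurentSeries E)} {S : IntermediateField ↥F₀ (LaurentSeries E)}

/-- **(F3), generic form**: an identity in `Ω((q))` between images of elements of `E((q))` holds
in `E((q))`. -/
theorem tresftf_transport_gen {p : ℕ} {v : ↥F₀} {b' : E} {g w : ↥S}
    (hfac : coeffMap ι (v : LaurentSeries E) =
      HahnSeries.C (ι b') * (coeffMap ι (g : LaurentSeries E)) ^ p *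
        coeffMap ι (w : LaurentSeries E)) :
    algebraMap ↥F₀ ↥S v = algebraMap ↥F₀ ↥S (algebraMap E ↥F₀ b') * g ^ p * w := by
  apply Subtype.ext
  apply nf_coeffMap_injective ι
  show coeffMap ι (v : LaurentSeries E) =
    coeffMap ι ((algebraMap E (LaurentSeries E) b') * (g : LaurentSeries E) ^ p *
      (w : LaurentSeries E))
  rw [hfac, map_mul, map_mul, map_pow, s36d_algebraMap_eq_C, s36d_coeffMap_C']

end Transport

section TransportConc

variable {N : ℕ} [NeZero N]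

/-- **(F3)** transport of the identity `u = C b · γ ^ p · u″` to `L_{E}`: `u = nfEmb v`,
`γ = coeffMap g`, `g ∈ L_E`, `u″ = coeffMap w`, `w ∈ L_K`, `K ≤ E`, `b ∈ E`.  The conclusion is
the hypothesis `hfac` of `tresft_compare` for `L = L_K`, `L₂ = L_E`, `F₂ = F_N(E)`. -/
theorem tresftf_transport {E K : IntermediateField ℚ NfQb} (h : K ≤ E)
    (y : LaurentSeries NfQb) {p : ℕ}
    {v : ↥(modularFunctionFieldFullC ↥E N)} {b' : ↥E} {g : ↥(tres5cL E N y)}
    {w : ↥(tres5cL K N y)}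
    (hfac : coeffMap (algebraMap ↥E NfQb) (v : LaurentSeries ↥E) =
      HahnSeries.C (algebraMap ↥E NfQb b') *
        (coeffMap (algebraMap ↥E NfQb) (g : LaurentSeries ↥E)) ^ p *
        coeffMap (algebraMap ↥K NfQb) (w : LaurentSeries ↥K)) :
    algebraMap ↥(modularFunctionFieldFullC ↥E N) ↥(tres5cL E N y) v =
      algebraMap ↥(modularFunctionFieldFullC ↥E N) ↥(tres5cL E N y)
        (algebraMap ↥E ↥(modularFunctionFieldFullC ↥E N) b') * g ^ p * tres5cIncl N y h w := by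
  refine tresftf_transport_gen (algebraMap ↥E NfQb) ?_
  rw [tres5cIncl_coe, nf_coeffMap_inclusion h]
  exact hfac

/-- **T3-FLD, main form.**  A decomposition `u = C b · γ ^ p · u″` in `ℚ̄((q))` with
`u ∈ F_N(ℚ̄)`, `γ ∈ F′`, `u″ = coeffMap w`, `w ∈ L_K` (`K = ℚ̄^I`) is defined over
`E″ = ℚ̄^I · K₁` for a number field `K₁ ⊇ K⁰`, Galois over `ℚ`, and holds in `L_{E″}`. -/
theorem tresftf_main {p : ℕ} (hp : p ≠ 0) {y : LaurentSeries NfQb} (hy0 : y ≠ 0)
    (hy : y ^ p ∈ modularFunctionFieldBar N) (A : ValuationSubring NfQb)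
    (K0 : IntermediateField ℚ NfQb) (hK0 : FiniteDimensional ℚ K0)
    {u : ↥(modularFunctionFieldBar N)} {b : NfQb} {γ : LaurentSeries NfQb}
    (hγ : γ ∈ tres5cField N y) (w : ↥(tres5cL (beta0Field A) N y))
    (hfac : (u : LaurentSeries NfQb) = HahnSeries.C b * γ ^ p *
      coeffMap (algebraMap ↥(beta0Field A) NfQb) (w : LaurentSeries ↥(beta0Field A))) :
    ∃ K₁ : IntermediateField ℚ NfQb, K0 ≤ K₁ ∧ FiniteDimensional ℚ K₁ ∧ IsGalois ℚ K₁ ∧
      ∃ (v : ↥(modularFunctionFieldFullC ↥(mgcE A K₁) N)) (b' : ↥(mgcE A K₁))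
        (g : ↥(tres5cL (mgcE A K₁) N y)),
        nfEmb (mgcE A K₁) N v = u ∧ algebraMap ↥(mgcE A K₁) NfQb b' = b ∧
        coeffMap (algebraMap ↥(mgcE A K₁) NfQb) (g : LaurentSeries ↥(mgcE A K₁)) = γ ∧
        algebraMap ↥(modularFunctionFieldFullC ↥(mgcE A K₁) N) ↥(tres5cL (mgcE A K₁) N y) v =
          algebraMap ↥(modularFunctionFieldFullC ↥(mgcE A K₁) N) ↥(tres5cL (mgcE A K₁) N y)
            (algebraMap ↥(mgcE A K₁) ↥(modularFunctionFieldFullC ↥(mgcE A K₁) N) b') * g ^ p *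
            tres5cIncl N y (le_sup_left : beta0Field A ≤ mgcE A K₁) w := by
  classical
  obtain ⟨K₁, hK0le, hK₁, hgal, hCs, hUs, hFs⟩ :=
    tresftf_exists hp hy0 hy A K0 hK0 {b} {(u : LaurentSeries NfQb)}
      (fun x hx => by rw [Finset.mem_singleton.mp hx]; exact u.2) {γ}
      (fun x hx => by rw [Finset.mem_singleton.mp hx]; exact hγ)
  obtain ⟨v, hv⟩ := hUs _ (Finset.mem_singleton_self _)
  obtain ⟨g, hg⟩ := hFs _ (Finset.mem_singleton_self _)
  have hb : b ∈ mgcE A K₁ := (le_sup_right : K₁ ≤ mgcE A K₁) (hCs b (Finset.mem_singleton_self b))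
  refine ⟨K₁, hK0le, hK₁, hgal, v, ⟨b, hb⟩, g, Subtype.ext hv, rfl, hg, ?_⟩
  refine tresftf_transport (le_sup_left : beta0Field A ≤ mgcE A K₁) y ?_
  rw [hv, hg]
  exact hfac

end TransportConc

end Fermat.Agent.R38

end


end ZBR38_019_3

/-! ### bundled: `Fermat.Agent.R38.TresBigInstV` -/
section ZBR38_019_4

/-!
# ROW 38, TRES, piece FAC-BIG (helper16), part 4: THE INSTANCE over the big field `E′`

The frame of the K-FORM descent (helper53's `tres5kiv_descend`, helper48's `tres5ki_point`):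
`u ∈ F̄_{Mq}^×` a SPLIT function with `q ∣ div u`, not a `q`-th power, `y ∈ ℚ̄((Q))` with
`y ^ q = u`, the cover `F′ = tres5cField (M q) y`, its `E`-forms `L_E = tres5cL E (M q) y`.

* `tres5biv_mgvV_indep` : the vertical valuations `mgvV hπ ιC hq hqM c` do not depend on the
  uniformizer `π` nor on the embedding `ιC`;
* `tres5biv_frame` : **the frame.**  There is a number field `K₀` such that for every number field
  `K₁ ⊇ K₀`, Galois over `ℚ`, with `A′ = mgcA A K₁` discrete, `E = mgcE A K₁ = ℚ̄^I K₁`: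
  `u` has a model `u₀ ∈ F_{Mq}(E)`, `y` has a model `y_E ∈ E((Q))` (`coeffMap y_E = y`),
  `y_E ^ q = u₀`, and `u₀` has the Kummer shape `u₀ / g ^ q − 1 = (ζ − 1) ^ q π y′` at the two
  vertical valuations (`y′ ∈ V c`, ANY `ιC`) and at every closed point of both charts
  (`y′ ∈ atO π j i`);
* `tres5bivKum` : the split Kummer datum `Tres5Kum F_E L_E (V c) q` of the frame, with
  `.ζ = ζ`, `.π = π`, `.w = u₀`, `.g = g`, `.y = tres5cGenL E (M q) y hyE` (all `rfl`);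
* `tres5biv_kum` : **FAC-BIG INSTANCE at `V_∞`, `V_0`** = the hypothesis `S` of
  `tres5kiv_descend`, together with the equations its consumers use
  (`hSy : coeffMap S.y = y`, `hSζ`, `nfEmb S.w = u`) and the shape at the closed points for the
  SAME model `u₀`.
-/

set_option autoImplicit false
set_option linter.style.haveILetI false
set_option linter.unusedSectionVars false
set_option linter.unusedVariables false

noncomputable section

namespace Fermat.Agent.R38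

open ModularCurve AlgebraicCurve Fermat.Agent.ES Fermat.Agent.ES.G2 Fermat.Agent.INJ
open Fermat.Agent.UNIP Fermat.Agent.STB Fermat.Agent.S33 IntermediateField

section Indep

variable {A : ValuationSubring Qb} {K₀ : IntermediateField ℚ Qb}
  [IsDiscreteValuationRing ↥(beta0Ring A K₀)] {π π' : ↥(beta0Ring A K₀)}
  (hπ : Irreducible π) (hπ' : Irreducible π')
  (ιC ιC' : ↥K₀ →+* ℂ) {q M : ℕ} [NeZero q] [NeZero M] [NeZero (M * q)]
  (hq : q.Prime) (hqM : ¬ q ∣ M)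

theorem tres5biv_mgaIncl_refl (N : ℕ) (x : ↥(modularFunctionFieldFullC ↥K₀ N)) :
    mgaIncl (le_refl K₀) N x = x := by
  apply Subtype.ext
  rw [mgaIncl_coe]
  ext n
  rfl

/-- the vertical valuations do not depend on the uniformizer nor on the complex embedding -/
theorem tres5biv_mgvV_indep (c : Bool) :
    mgvV hπ ιC hq hqM c = mgvV hπ' ιC' hq hqM c := by
  rw [← mgv_comap_incl hπ hπ' ιC ιC' hq hqM (le_refl K₀) c]
  ext x
  rw [ValuationSubring.mem_comap, tres5biv_mgaIncl_refl]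

end Indep

section Frame

variable {q M : ℕ} [NeZero q] [NeZero M] [NeZero (M * q)]

set_option synthInstance.maxHeartbeats 400000 in
set_option maxHeartbeats 1600000 in
/-- **FAC-BIG, the frame over `E′`.**  A split function `u` with `q ∣ div u` and a `q`-th root
`y` of its `Q`-expansion: over every sufficiently large number field `K₁` (`E = ℚ̄^I K₁`), `u` and
`y` have models `u₀ ∈ F_{Mq}(E)`, `y_E ∈ E((Q))`, `y_E ^ q = u₀`, and `u₀` has the Kummer shape at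
the two vertical valuations and at every closed point of both charts. -/
theorem tres5biv_frame (hq : q.Prime) (hqM : ¬ q ∣ M) (hq3 : 3 ≤ q) (h3 : q = 3 → 2 ∣ M)
    (A : ValuationSubring Qb) (hA : A.LiesOverPrime q)
    (u : modularFunctionFieldBar (M * q)) (hu : u ≠ 0)
    (hdiv : ∀ P : Place Qb (modularFunctionFieldBar (M * q)), (q : ℤ) ∣ P.ord u)
    (hsplit : IsSplitFn hq hqM A u)
    {y : LaurentSeries NfQb} (hy : y ^ q = (u : LaurentSeries NfQb)) :
    ∃ K₀ : IntermediateField ℚ Qb, FiniteDimensional ℚ K₀ ∧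
      ∀ (K₁ : IntermediateField ℚ Qb), K₀ ≤ K₁ → ∀ [NumberField K₁] [IsGalois ℚ K₁]
        [IsDiscreteValuationRing ↥(mgcA A K₁)] {π : ↥(mgcA A K₁)} (hπ : Irreducible π)
        {ζ : ↥(mgcA A K₁)}, IsPrimitiveRoot ζ q →
        ∃ (u₀ : ↥(mgcF A K₁ (M * q))) (yE : LaurentSeries ↥(mgcE A K₁)),
          nfEmb (mgcE A K₁) (M * q) u₀ = u ∧
          coeffMap (algebraMap ↥(mgcE A K₁) NfQb) yE = y ∧
          yE ^ q = (u₀ : LaurentSeries ↥(mgcE A K₁)) ∧
          (∀ (ιC : ↥(mgcE A K₁) →+* ℂ) (c : Bool), ∃ g : ↥(mgcF A K₁ (M * q)), g ≠ 0 ∧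
            ∃ y' ∈ mgvV hπ ιC hq hqM c,
              u₀ / g ^ q - 1 =
                (algebraMap ↥(mgcA A K₁) ↥(mgcF A K₁ (M * q)) ζ - 1) ^ q *
                  algebraMap ↥(mgcA A K₁) ↥(mgcF A K₁ (M * q)) π * y') ∧
          (∀ i, ∃ g : ↥(mgcF A K₁ (M * q)), g ≠ 0 ∧ ∃ y' ∈ atO π (mgcT A K₁ (M * q)) i,
            u₀ / g ^ q - 1 =
              (algebraMap ↥(mgcA A K₁) ↥(mgcF A K₁ (M * q)) ζ - 1) ^ q *
                algebraMap ↥(mgcA A K₁) ↥(mgcF A K₁ (M * q)) π * y') := by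
  have hu0 : (u : LaurentSeries NfQb) ≠ 0 := fun h => hu (Subtype.ext h)
  have hy0 : y ≠ 0 := by
    rintro rfl
    rw [zero_pow hq.ne_zero] at hy
    exact hu0 hy.symm
  obtain ⟨Kb, hKbfin, hbar⟩ := tres5b_bar hq hqM hq3 h3 A hA u hu hdiv hsplit
  obtain ⟨Ky, hKyfin, hcy⟩ := tresftf_coeff (N := M * q) hq.ne_zero hy0
    (by rw [hy]; exact u.2) (tres5c_y_mem (M * q) y)
  haveI := hKbfin
  haveI := hKyfin
  refine ⟨Kb ⊔ Ky, IntermediateField.finiteDimensional_sup Kb Ky,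
    fun K₁ hK₁ _ _ _ π hπ ζ hζ => ?_⟩
  have hKyE : Ky ≤ mgcE A K₁ := (le_sup_right.trans hK₁).trans le_sup_right
  obtain ⟨⟨u₀, hu₀⟩, hsh⟩ := hbar K₁ (le_sup_left.trans hK₁) hπ hζ
  obtain ⟨yE, hyE⟩ := tresftf_exists_of_coeff (mgcE A K₁) fun n => hKyE (hcy n)
  have hyu : yE ^ q = (u₀ : LaurentSeries ↥(mgcE A K₁)) := by
    apply nf_coeffMap_injective (algebraMap ↥(mgcE A K₁) NfQb)
    rw [map_pow, hyE, hy, ← hu₀, nfEmb_coe]
  obtain ⟨hv, hpt⟩ := hsh u₀ hu₀
  refine ⟨u₀, yE, hu₀, hyE, hyu, fun ιC c => ?_, hpt⟩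
  obtain ⟨g, hg, y', hy', hs⟩ := hv c
  refine ⟨g, hg, y', ?_, hs⟩
  rw [tres5biv_mgvV_indep hπ hπ ιC (mgdIota (mgcE A K₁)) hq hqM c]
  exact hy'

end Frame

section Kum

variable {A : ValuationSubring Qb} {K₁ : IntermediateField ℚ Qb} {q M : ℕ} [NeZero q] [NeZero M]
  [NeZero (M * q)]
  [IsDiscreteValuationRing ↥(mgcA A K₁)] {π : ↥(mgcA A K₁)} (hπ : Irreducible π)
  (ιC : ↥(mgcE A K₁) →+* ℂ) (hq : q.Prime) (hqM : ¬ q ∣ M)
  {ζ : ↥(mgcA A K₁)} (hζ : IsPrimitiveRoot ζ q) (c : Bool)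
  {y : LaurentSeries NfQb} {u₀ g y' : ↥(mgcF A K₁ (M * q))}
  {yE : LaurentSeries ↥(mgcE A K₁)}
  (hyE : coeffMap (algebraMap ↥(mgcE A K₁) NfQb) yE = y)
  (hyu : yE ^ q = (u₀ : LaurentSeries ↥(mgcE A K₁)))
  (hg : g ≠ 0) (hy' : y' ∈ mgvV hπ ιC hq hqM c)
  (hs : u₀ / g ^ q - 1 =
    (algebraMap ↥(mgcA A K₁) ↥(mgcF A K₁ (M * q)) ζ - 1) ^ q *
      algebraMap ↥(mgcA A K₁) ↥(mgcF A K₁ (M * q)) π * y')
  (hw : ∀ a : ↥(mgcF A K₁ (M * q)), a ^ q ≠ u₀)

/-- **The split Kummer datum of the frame** on `L_E = tres5cL E (M q) y` at the vertical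
valuation `V c`. -/
def tres5bivKum :
    Tres5Kum ↥(mgcF A K₁ (M * q)) ↥(tres5cL (mgcE A K₁) (M * q) y) (mgvV hπ ιC hq hqM c) q :=
  tres5bkKum hπ ιC hq hqM c hq hζ hg hy' hs (tres5cGenL (mgcE A K₁) (M * q) y hyE)
    (Subtype.ext hyu) (tres5cL_adjoin_gen (mgcE A K₁) (M * q) y hyE) hw

@[simp] theorem tres5bivKum_ζ :
    (tres5bivKum hπ ιC hq hqM hζ c hyE hyu hg hy' hs hw).ζ =
      algebraMap ↥(mgcA A K₁) ↥(mgcF A K₁ (M * q)) ζ := rfl

@[simp] theorem tres5bivKum_π :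
    (tres5bivKum hπ ιC hq hqM hζ c hyE hyu hg hy' hs hw).π =
      algebraMap ↥(mgcA A K₁) ↥(mgcF A K₁ (M * q)) π := rfl

@[simp] theorem tres5bivKum_w :
    (tres5bivKum hπ ιC hq hqM hζ c hyE hyu hg hy' hs hw).w = u₀ := rfl

@[simp] theorem tres5bivKum_g :
    (tres5bivKum hπ ιC hq hqM hζ c hyE hyu hg hy' hs hw).g = g := rfl

@[simp] theorem tres5bivKum_y :
    (tres5bivKum hπ ιC hq hqM hζ c hyE hyu hg hy' hs hw).y =
      tres5cGenL (mgcE A K₁) (M * q) y hyE := rfl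

/-- `hSy` of the consumers -/
theorem tres5bivKum_coeffMap_y :
    coeffMap (algebraMap ↥(mgcE A K₁) NfQb)
      (((tres5bivKum hπ ιC hq hqM hζ c hyE hyu hg hy' hs hw).y :
        ↥(tres5cL (mgcE A K₁) (M * q) y)) : LaurentSeries ↥(mgcE A K₁)) = y := hyE

/-- `hSζ` of the consumers -/
theorem tres5bivKum_coeffMap_ζ :
    coeffMap (algebraMap ↥(mgcE A K₁) NfQb)
      (((tres5bivKum hπ ιC hq hqM hζ c hyE hyu hg hy' hs hw).ζ : ↥(mgcF A K₁ (M * q))) :
        LaurentSeries ↥(mgcE A K₁)) = HahnSeries.C (((ζ : ↥(mgcE A K₁)) : Qb)) := by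
  show coeffMap (algebraMap ↥(mgcE A K₁) NfQb)
    (algebraMap ↥(mgcE A K₁) (LaurentSeries ↥(mgcE A K₁)) (ζ : ↥(mgcE A K₁))) = _
  rw [nf_coeffMap_algebraMap, algebraMap_laurentSeries_eq_single, ← HahnSeries.C_apply]
  rfl

end Kum

section Main

variable {q M : ℕ} [NeZero q] [NeZero M] [NeZero (M * q)]

set_option synthInstance.maxHeartbeats 400000 in
set_option maxHeartbeats 1600000 in
/-- **FAC-BIG INSTANCE at the vertical valuations** (`c = true`: `V_∞`, the hypothesis `S` of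
helper53's `tres5kiv_descend`).  For a split function `u`, `q ∣ div u`, `u` not a `q`-th power,
`y ^ q = u`: over every sufficiently large number field `K₁`, `E = ℚ̄^I K₁`, there are models
`u₀`, `y_E` and, for every `ιC` and `c`, a split Kummer datum `S` of `L_E / F_{Mq}(E)` at `V c`
with `S.w = u₀`, `S.y = y_E`, `S.ζ = ζ`, `S.π = π`; moreover `u₀` has the Kummer shape at every
closed point of both charts. -/
theorem tres5biv_kum (hq : q.Prime) (hqM : ¬ q ∣ M) (hq3 : 3 ≤ q) (h3 : q = 3 → 2 ∣ M)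
    (A : ValuationSubring Qb) (hA : A.LiesOverPrime q)
    (u : modularFunctionFieldBar (M * q)) (hu : u ≠ 0)
    (hdiv : ∀ P : Place Qb (modularFunctionFieldBar (M * q)), (q : ℤ) ∣ P.ord u)
    (hsplit : IsSplitFn hq hqM A u)
    (hw : ∀ c : ↥(modularFunctionFieldBar (M * q)), c ^ q ≠ u)
    {y : LaurentSeries NfQb} (hy : y ^ q = (u : LaurentSeries NfQb)) :
    ∃ K₀ : IntermediateField ℚ Qb, FiniteDimensional ℚ K₀ ∧
      ∀ (K₁ : IntermediateField ℚ Qb), K₀ ≤ K₁ → ∀ [NumberField K₁] [IsGalois ℚ K₁]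
        [IsDiscreteValuationRing ↥(mgcA A K₁)] {π : ↥(mgcA A K₁)} (hπ : Irreducible π)
        {ζ : ↥(mgcA A K₁)}, IsPrimitiveRoot ζ q →
        ∃ (u₀ : ↥(mgcF A K₁ (M * q))) (yE : LaurentSeries ↥(mgcE A K₁))
          (hyE : coeffMap (algebraMap ↥(mgcE A K₁) NfQb) yE = y),
          nfEmb (mgcE A K₁) (M * q) u₀ = u ∧
          yE ^ q = (u₀ : LaurentSeries ↥(mgcE A K₁)) ∧
          (∀ a : ↥(mgcF A K₁ (M * q)), a ^ q ≠ u₀) ∧
          (∀ (ιC : ↥(mgcE A K₁) →+* ℂ) (c : Bool),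
            ∃ S : Tres5Kum ↥(mgcF A K₁ (M * q)) ↥(tres5cL (mgcE A K₁) (M * q) y)
                (mgvV hπ ιC hq hqM c) q,
              S.ζ = algebraMap ↥(mgcA A K₁) ↥(mgcF A K₁ (M * q)) ζ ∧
              S.π = algebraMap ↥(mgcA A K₁) ↥(mgcF A K₁ (M * q)) π ∧
              S.w = u₀ ∧
              S.y = tres5cGenL (mgcE A K₁) (M * q) y hyE ∧
              coeffMap (algebraMap ↥(mgcE A K₁) NfQb)
                ((S.y : ↥(tres5cL (mgcE A K₁) (M * q) y)) : LaurentSeries ↥(mgcE A K₁)) = y ∧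
              coeffMap (algebraMap ↥(mgcE A K₁) NfQb)
                ((S.ζ : ↥(mgcF A K₁ (M * q))) : LaurentSeries ↥(mgcE A K₁)) =
                  HahnSeries.C (((ζ : ↥(mgcE A K₁)) : Qb)) ∧
              ∃ y' ∈ mgvV hπ ιC hq hqM c,
                u₀ / S.g ^ q - 1 =
                  (algebraMap ↥(mgcA A K₁) ↥(mgcF A K₁ (M * q)) ζ - 1) ^ q *
                    algebraMap ↥(mgcA A K₁) ↥(mgcF A K₁ (M * q)) π * y') ∧
          (∀ i, ∃ g : ↥(mgcF A K₁ (M * q)), g ≠ 0 ∧ ∃ y' ∈ atO π (mgcT A K₁ (M * q)) i,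
            u₀ / g ^ q - 1 =
              (algebraMap ↥(mgcA A K₁) ↥(mgcF A K₁ (M * q)) ζ - 1) ^ q *
                algebraMap ↥(mgcA A K₁) ↥(mgcF A K₁ (M * q)) π * y') := by
  obtain ⟨K₀, hK₀, hfr⟩ := tres5biv_frame hq hqM hq3 h3 A hA u hu hdiv hsplit hy
  refine ⟨K₀, hK₀, fun K₁ hK₁ _ _ _ π hπ ζ hζ => ?_⟩
  obtain ⟨u₀, yE, hu₀, hyE, hyu, hv, hpt⟩ := hfr K₁ hK₁ hπ hζ
  have hw' : ∀ a : ↥(mgcF A K₁ (M * q)), a ^ q ≠ u₀ :=
    tres5c_hw_of_bar (mgcE A K₁) (M * q) (by rw [hu₀]; exact hw)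
  refine ⟨u₀, yE, hyE, hu₀, hyu, hw', fun ιC c => ?_, hpt⟩
  obtain ⟨g, hg, y', hy', hs⟩ := hv ιC c
  exact ⟨tres5bivKum hπ ιC hq hqM hζ c hyE hyu hg hy' hs hw', rfl, rfl, rfl, rfl, hyE,
    tres5bivKum_coeffMap_ζ hπ ιC hq hqM hζ c hyE hyu hg hy' hs hw', y', hy', hs⟩

end Main

end Fermat.Agent.R38

end


end ZBR38_019_4

/-! ### bundled: `Fermat.Agent.R38.TresFixFUp` -/
section ZBR38_019_5

/-!
# R38 TRES, (FAC-p), piece FAC-FIXF (helper29), part 4: LEVEL-UP of stability and commutation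

The class `z₀` and its Kummer function `w₀` live at the level `N = M p`; the cover of FAC-MONO is
taken at a RIGID level `N′` (`N ∣ N′`): `F′ = F_{N′}(ℚ̄)(y)`, `y ^ p = w₀`.  helper30's
`tresdesc_stab` / `tresdesc_comm` are statements at the level `N`.  Here:

* `tres5ff_cov_le`        : `F_N(y) ≤ F_{N′}(y)`;
* `tres5ff_stab_of_y`     : `σ y ∈ F_{N′}(y)` ⇒ `F_{N′}(y)` is `σ`-stable (any level);
* `tres5ff_hstabI_toric`  : **`hstabI` at the level `N′`** from the toric line at the level `N`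
                            (= the hypothesis `hstabI` of `tres5ffAct`, `tres5ff_descend`, …);
* `tres5ff_comm_of_y`     : a deck transformation `t` of `F_{N′}(y)` (`t = id` on `F_{N′}`,
                            `t y = C ζ · y`) commutes with `σ` if `σ y = C c · h · y ^ g`,
                            `h ∈ F_{N′}`, `σ ζ = ζ ^ g`;
* `tres5ff_hcomm_toric`   : **`hcomm` at the level `N′`** from the toric line at the level `N`
                            (= the hypothesis `hcomm` of `tres5ff_inst_hρG`).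
-/

set_option autoImplicit false
set_option linter.style.haveILetI false
set_option linter.unusedSectionVars false

noncomputable section

open ModularCurve AlgebraicCurve Fermat.Agent.INJ Fermat.Agent.UNIP IntermediateField
  Fermat.Agent.ES Fermat.Agent.ES.G2

namespace Fermat.Agent.R38

section Up

variable {N N' : ℕ} [NeZero N] [NeZero N']

/-- `F_N(y) ≤ F_{N′}(y)` -/
theorem tres5ff_cov_le (hle : modularFunctionFieldBar N ≤ modularFunctionFieldBar N')
    (y : LaurentSeries NfQb) : tres5cField N y ≤ tres5cField N' y := by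
  rw [tres5cField, IntermediateField.adjoin_le_iff]
  rintro x (hx | hx)
  · exact tres5c_bar_le N' y (hle hx)
  · rw [Set.mem_singleton_iff] at hx
    subst hx
    exact tres5c_y_mem N' x

/-- the cover is `σ`-stable as soon as `σ y` lies in it -/
theorem tres5ff_stab_of_y (N' : ℕ) [NeZero N'] (y : LaurentSeries NfQb) (σ : NfQb ≃ₐ[ℚ] NfQb)
    (hσy : coeffMap ((σ : NfQb ≃ₐ[ℚ] NfQb) : NfQb →+* NfQb) y ∈ tres5cField N' y) :
    ∀ x ∈ tres5cField N' y,
      coeffMap ((σ : NfQb ≃ₐ[ℚ] NfQb) : NfQb →+* NfQb) x ∈ tres5cField N' y := by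
  refine tresdesc_adjoin_map _ (fun a => ?_) ?_
  · rw [coeffMap_algebraMap]
    exact (tres5cField N' y).algebraMap_mem _
  · rintro x (hx | hx)
    · exact tres5c_bar_le N' y (coeffMap_mem_laurentBaseChange σ hx)
    · rw [Set.mem_singleton_iff] at hx
      subst hx
      exact hσy

/-- **`hstabI` at the level `N′`** from the toric line at the level `N`. -/
theorem tres5ff_hstabI_toric {m : ℕ} (hm : m ≠ 0) {z₀ : JZero N}
    {w₀ : modularFunctionFieldBar N} (hw : KummerRel m z₀ w₀) {y : LaurentSeries NfQb}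
    (hy : y ^ m = (w₀ : LaurentSeries NfQb))
    (hle : modularFunctionFieldBar N ≤ modularFunctionFieldBar N')
    {A : ValuationSubring NfQb}
    (htor : ∀ τ ∈ A.inertiaSubgroupIn ℚ, ∃ g : ℤ, τ • z₀ = g • z₀) :
    ∀ σ ∈ A.inertiaSubgroupIn ℚ, ∀ x ∈ tres5cField N' y,
      coeffMap ((σ : NfQb ≃ₐ[ℚ] NfQb) : NfQb →+* NfQb) x ∈ tres5cField N' y := by
  intro σ hσ
  obtain ⟨g, hg⟩ := htor σ hσ
  exact tres5ff_stab_of_y N' y σ
    (tres5ff_cov_le hle y (tresdesc_stab hm hw hy hg y (tresCov_self_mem y)))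

/-- a deck transformation of `F_{N′}(y)` commutes with `σ` if `σ y = C c · h · y ^ g`,
`h ∈ F_{N′}` and `σ ζ = ζ ^ g` -/
theorem tres5ff_comm_of_y (N' : ℕ) [NeZero N'] (y : LaurentSeries NfQb)
    (t : ↥(tres5cField N' y) →+* LaurentSeries NfQb)
    (htF : ∀ (f : LaurentSeries NfQb) (hf : f ∈ modularFunctionFieldBar N'),
      t ⟨f, tres5c_bar_le N' y hf⟩ = f)
    {ζ : NfQb} (hty : t ⟨y, tres5c_y_mem N' y⟩ = HahnSeries.C ζ * y)
    {σ : NfQb ≃ₐ[ℚ] NfQb} {g : ℤ} {c : NfQb} {h : LaurentSeries NfQb}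
    (hh : h ∈ modularFunctionFieldBar N')
    (hσy : coeffMap ((σ : NfQb ≃ₐ[ℚ] NfQb) : NfQb →+* NfQb) y =
      HahnSeries.C c * (h * y ^ g))
    (hσζ : σ ζ = ζ ^ g) :
    ∀ (x : ↥(tres5cField N' y))
      (hx : coeffMap ((σ : NfQb ≃ₐ[ℚ] NfQb) : NfQb →+* NfQb) (x : LaurentSeries NfQb) ∈
        tres5cField N' y),
      t ⟨_, hx⟩ = coeffMap ((σ : NfQb ≃ₐ[ℚ] NfQb) : NfQb →+* NfQb) (t x) := by
  have hymem : coeffMap ((σ : NfQb ≃ₐ[ℚ] NfQb) : NfQb →+* NfQb) y ∈ tres5cField N' y := by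
    rw [hσy]
    exact (tres5cField N' y).mul_mem (tresdesc_C_mem _ c)
      ((tres5cField N' y).mul_mem (tres5c_bar_le N' y hh) (zpow_mem (tres5c_y_mem N' y) g))
  have hstab := tres5ff_stab_of_y N' y σ hymem
  -- the restricted action
  set act : ↥(tres5cField N' y) →+* ↥(tres5cField N' y) :=
    ((coeffMap ((σ : NfQb ≃ₐ[ℚ] NfQb) : NfQb →+* NfQb)).comp
      (algebraMap ↥(tres5cField N' y) (LaurentSeries NfQb))).codRestrict (tres5cField N' y)
      (fun x => hstab x x.2) with hact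
  have hact_coe : ∀ x : ↥(tres5cField N' y), ((act x : ↥(tres5cField N' y)) : LaurentSeries NfQb) =
      coeffMap ((σ : NfQb ≃ₐ[ℚ] NfQb) : NfQb →+* NfQb) (x : LaurentSeries NfQb) := fun x => rfl
  have hCmem : ∀ a : NfQb, (HahnSeries.C a : LaurentSeries NfQb) ∈ modularFunctionFieldBar N' :=
    fun a => Fermat.Agent.S36.s36d_C_mem N' a
  have htC : ∀ (a : NfQb) (ha : (HahnSeries.C a : LaurentSeries NfQb) ∈ tres5cField N' y),
      t ⟨HahnSeries.C a, ha⟩ = HahnSeries.C a := fun a ha => htF _ (hCmem a)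
  have key := tresdesc_adjoin_ext
    (s := (modularFunctionFieldBar N' : Set (LaurentSeries NfQb)) ∪ {y})
    (t.comp act) ((coeffMap ((σ : NfQb ≃ₐ[ℚ] NfQb) : NfQb →+* NfQb)).comp t) ?_ ?_
  · intro x hx
    have h1 := key (x : LaurentSeries NfQb) x.2
    have h2 : t (act x) = coeffMap ((σ : NfQb ≃ₐ[ℚ] NfQb) : NfQb →+* NfQb) (t x) := h1
    rw [← h2]
    congr 1
  · intro a
    show t (act (algebraMap NfQb _ a)) =
      coeffMap ((σ : NfQb ≃ₐ[ℚ] NfQb) : NfQb →+* NfQb) (t (algebraMap NfQb _ a))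
    have e1 : (algebraMap NfQb ↥(tres5cField N' y) a) =
        ⟨HahnSeries.C a, tresdesc_C_mem _ a⟩ :=
      Subtype.ext (Fermat.Agent.S36.s36d_algebraMap_eq_C a)
    have e2 : act (algebraMap NfQb ↥(tres5cField N' y) a) =
        ⟨HahnSeries.C (σ a), tresdesc_C_mem _ (σ a)⟩ := by
      apply Subtype.ext
      rw [hact_coe, e1]
      exact Fermat.Agent.S36.s36d_coeffMap_C' ((σ : NfQb ≃ₐ[ℚ] NfQb) : NfQb →+* NfQb) a
    rw [e2, htC, e1, htC]
    exact (Fermat.Agent.S36.s36d_coeffMap_C' ((σ : NfQb ≃ₐ[ℚ] NfQb) : NfQb →+* NfQb) a).symm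
  · rintro x (hx | hx)
    · show t (act ⟨x, _⟩) = coeffMap ((σ : NfQb ≃ₐ[ℚ] NfQb) : NfQb →+* NfQb) (t ⟨x, _⟩)
      have e2 : act ⟨x, tres5c_bar_le N' y hx⟩ =
          ⟨coeffMap ((σ : NfQb ≃ₐ[ℚ] NfQb) : NfQb →+* NfQb) x,
            tres5c_bar_le N' y (coeffMap_mem_laurentBaseChange σ hx)⟩ := Subtype.ext rfl
      rw [e2, htF _ (coeffMap_mem_laurentBaseChange σ hx), htF _ hx]
    · rw [Set.mem_singleton_iff] at hx
      subst hx
      show t (act ⟨x, _⟩) = coeffMap ((σ : NfQb ≃ₐ[ℚ] NfQb) : NfQb →+* NfQb) (t ⟨x, _⟩)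
      have e2 : act ⟨x, tres5c_y_mem N' x⟩ =
          ⟨HahnSeries.C c, tresdesc_C_mem _ c⟩ *
            (⟨h, tres5c_bar_le N' x hh⟩ *
              (⟨x, tres5c_y_mem N' x⟩ : ↥(tres5cField N' x)) ^ g) := by
        apply Subtype.ext
        rw [hact_coe]
        exact hσy
      have hσζ' : ((σ : NfQb ≃ₐ[ℚ] NfQb) : NfQb →+* NfQb) ζ = ζ ^ g := hσζ
      rw [e2, map_mul, map_mul, map_zpow₀, htC, htF _ hh, hty, map_mul,
        Fermat.Agent.S36.s36d_coeffMap_C', hσy, hσζ', mul_zpow, map_zpow₀]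
      ring

/-- **`hcomm` at the level `N′`** from the toric line at the level `N`
(= the hypothesis `hcomm` of `tres5ff_inst_hρG`). -/
theorem tres5ff_hcomm_toric {m : ℕ} (hm : m ≠ 0) {z₀ : JZero N}
    {w₀ : modularFunctionFieldBar N} (hw : KummerRel m z₀ w₀) {y : LaurentSeries NfQb}
    (hy : y ^ m = (w₀ : LaurentSeries NfQb))
    (hle : modularFunctionFieldBar N ≤ modularFunctionFieldBar N')
    (t : ↥(tres5cField N' y) →+* LaurentSeries NfQb)
    (htF : ∀ (f : LaurentSeries NfQb) (hf : f ∈ modularFunctionFieldBar N'),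
      t ⟨f, tres5c_bar_le N' y hf⟩ = f)
    {ζ : NfQb} (hty : t ⟨y, tres5c_y_mem N' y⟩ = HahnSeries.C ζ * y)
    {A : ValuationSubring NfQb}
    (htor : ∀ τ ∈ A.inertiaSubgroupIn ℚ, ∃ g : ℤ, τ • z₀ = g • z₀ ∧ τ ζ = ζ ^ g) :
    ∀ σ ∈ A.inertiaSubgroupIn ℚ, ∀ (x : ↥(tres5cField N' y))
      (hx : coeffMap ((σ : NfQb ≃ₐ[ℚ] NfQb) : NfQb →+* NfQb) (x : LaurentSeries NfQb) ∈
        tres5cField N' y),
      t ⟨_, hx⟩ = coeffMap ((σ : NfQb ≃ₐ[ℚ] NfQb) : NfQb →+* NfQb) (t x) := by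
  intro σ hσ
  obtain ⟨g, hg, hgζ⟩ := htor σ hσ
  obtain ⟨c, h, -, -, he⟩ := tresdesc_sigma_y hm hw hy hg
  exact tres5ff_comm_of_y N' y t htF hty (hle h.2) he hgζ

/-! ### The toric line in the shape of `StmtMonoCover` (`τ z₀ = cycloExp p τ • z₀`) -/

/-- the cyclotomic exponent describes the action on `p`-th roots of unity -/
theorem tres5ff_cycloExp_spec (p : ℕ) [Fact p.Prime] (σ : NfQb ≃ₐ[ℚ] NfQb) {ζ : NfQb}
    (hζ : ζ ^ p = 1) : σ ζ = ζ ^ (ExtCitation.cycloExp p σ) := by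
  have : NeZero p := ⟨(Fact.out : p.Prime).ne_zero⟩
  have hζu : IsUnit ζ := IsUnit.of_pow_eq_one hζ (NeZero.ne p)
  obtain ⟨t, rfl⟩ := hζu
  have ht : t ∈ rootsOfUnity p (AlgebraicClosure ℚ) := by
    rw [mem_rootsOfUnity]
    exact Units.ext (by simpa using hζ)
  have := modularCyclotomicCharacter.spec (AlgebraicClosure ℚ)
    (ExtCitation.card_rootsOfUnity_eq_self p)
    (σ : AlgebraicClosure ℚ ≃+* AlgebraicClosure ℚ) ht
  simpa [ExtCitation.cycloExp] using this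

/-- **`hstabI` at the level `N′`**, toric hypothesis as in `StmtMonoCover`. -/
theorem tres5ff_hstabI_cyclo {p : ℕ} [Fact p.Prime] {z₀ : JZero N}
    {w₀ : modularFunctionFieldBar N} (hw : KummerRel p z₀ w₀) {y : LaurentSeries NfQb}
    (hy : y ^ p = (w₀ : LaurentSeries NfQb))
    (hle : modularFunctionFieldBar N ≤ modularFunctionFieldBar N')
    {A : ValuationSubring NfQb}
    (htor : ∀ τ ∈ A.inertiaSubgroupIn ℚ, τ • z₀ = ExtCitation.cycloExp p τ • z₀) :
    ∀ σ ∈ A.inertiaSubgroupIn ℚ, ∀ x ∈ tres5cField N' y,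
      coeffMap ((σ : NfQb ≃ₐ[ℚ] NfQb) : NfQb →+* NfQb) x ∈ tres5cField N' y :=
  tres5ff_hstabI_toric (Fact.out : p.Prime).ne_zero hw hy hle fun τ hτ =>
    ⟨(ExtCitation.cycloExp p τ : ℤ), by rw [natCast_zsmul]; exact htor τ hτ⟩

/-- **`hcomm` at the level `N′`**, toric hypothesis as in `StmtMonoCover`. -/
theorem tres5ff_hcomm_cyclo {p : ℕ} [Fact p.Prime] {z₀ : JZero N}
    {w₀ : modularFunctionFieldBar N} (hw : KummerRel p z₀ w₀) {y : LaurentSeries NfQb}
    (hy : y ^ p = (w₀ : LaurentSeries NfQb))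
    (hle : modularFunctionFieldBar N ≤ modularFunctionFieldBar N')
    (t : ↥(tres5cField N' y) →+* LaurentSeries NfQb)
    (htF : ∀ (f : LaurentSeries NfQb) (hf : f ∈ modularFunctionFieldBar N'),
      t ⟨f, tres5c_bar_le N' y hf⟩ = f)
    {ζ : NfQb} (hζ : ζ ^ p = 1) (hty : t ⟨y, tres5c_y_mem N' y⟩ = HahnSeries.C ζ * y)
    {A : ValuationSubring NfQb}
    (htor : ∀ τ ∈ A.inertiaSubgroupIn ℚ, τ • z₀ = ExtCitation.cycloExp p τ • z₀) :
    ∀ σ ∈ A.inertiaSubgroupIn ℚ, ∀ (x : ↥(tres5cField N' y))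
      (hx : coeffMap ((σ : NfQb ≃ₐ[ℚ] NfQb) : NfQb →+* NfQb) (x : LaurentSeries NfQb) ∈
        tres5cField N' y),
      t ⟨_, hx⟩ = coeffMap ((σ : NfQb ≃ₐ[ℚ] NfQb) : NfQb →+* NfQb) (t x) :=
  tres5ff_hcomm_toric (Fact.out : p.Prime).ne_zero hw hy hle t htF hty fun τ hτ =>
    ⟨(ExtCitation.cycloExp p τ : ℤ), by rw [natCast_zsmul]; exact htor τ hτ, by
      rw [zpow_natCast]; exact tres5ff_cycloExp_spec p τ hζ⟩

end Up

end Fermat.Agent.R38

end
end ZBR38_019_5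

/-! ### bundled: `Fermat.Agent.R38.TresDeckEx` -/
section ZBR38_019_6

/-!
# R38-TRES, piece FAC-DESC [T5 (a)]: existence of the root `y` and of the deck transformation

* `tresdesc_not_pow`     : a Kummer function of a nonzero class is not an `m`-th power;
* `tresdesc_exists_root` : a Kummer function `w₀` (exponent `m`) has an `m`-th root in `ℚ̄((Q))`;
* `tresdesc_exists_deck` : `p` prime, `w₀ ∈ F_N(ℚ̄)` not a `p`-th power, `y ^ p = w₀`, `ζ ^ p = 1`:
  there is a ring homomorphism `t` of the cover `F′ = F_N(ℚ̄)(y)` into itself fixing `F_N(ℚ̄)`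
  with `t y = C ζ · y`;
* `tresdesc_exists` : everything together: for `x` moved by `G` along the line `ℤ z₀`, `z₀ ≠ 0`
  toric for `G`, the cover, the deck transformation and the output of FAC-DESC.
-/

set_option autoImplicit false
set_option linter.unusedSectionVars false
set_option linter.unusedVariables false
set_option linter.style.haveILetI false

noncomputable section

open ModularCurve AlgebraicCurve Fermat.Agent.ES Fermat.Agent.ES.G2 Fermat.Agent.INJ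
  Fermat.Agent.UNIP Fermat.Agent.S36 Fermat.Agent.RIB.MP

namespace Fermat.Agent.R38

section Ex

variable {N : ℕ} [NeZero N]

/-- a Kummer function of a nonzero class is not an `m`-th power -/
theorem tresdesc_not_pow {m : ℕ} (hm : m ≠ 0) {z₀ : JZero N}
    {w₀ : modularFunctionFieldBar N} (hw : KummerRel m z₀ w₀) (hz : z₀ ≠ 0) :
    ∀ b : modularFunctionFieldBar N, b ^ m ≠ w₀ := by
  intro b hb
  apply hz
  have h1 : KummerRel m z₀ (1 * b ^ m) := by
    rw [one_mul, hb]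
    exact hw
  exact KummerRel.eq_zero_of_pow hm (fun v => v.ord_one) h1

/-- a Kummer function has a root in `ℚ̄((Q))` -/
theorem tresdesc_exists_root {m : ℕ} (hm : m ≠ 0) {z₀ : JZero N}
    {w₀ : modularFunctionFieldBar N} (hw : KummerRel m z₀ w₀) :
    ∃ y : LaurentSeries NfQb, y ^ m = (w₀ : LaurentSeries NfQb) := by
  obtain ⟨P₀, hP₀, -⟩ := s37_exists_cusp_place N
  obtain ⟨D, -, hw0, hD⟩ := hw
  have h1 := hD P₀
  rw [hP₀ w₀ hw0] at h1
  exact Fermat.Agent.ES.LaurentRoot.exists_pow_eq_laurentSeries (Nat.pos_of_ne_zero hm) _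
    (fun h => hw0 (Subtype.ext h)) ⟨_, h1.symm⟩

/-- **existence of the deck transformation** -/
theorem tresdesc_exists_deck {p : ℕ} (hp : p.Prime) {w₀ : modularFunctionFieldBar N}
    (hw : ∀ b : modularFunctionFieldBar N, b ^ p ≠ w₀) {y : LaurentSeries NfQb}
    (hy : y ^ p = (w₀ : LaurentSeries NfQb)) {ζ : NfQb} (hζ : ζ ^ p = 1) :
    ∃ t : ↥(tresCov N y) →+* LaurentSeries NfQb, (∀ z, t z ∈ tresCov N y) ∧
      (∀ (f : LaurentSeries NfQb) (hf : f ∈ modularFunctionFieldBar N),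
        t ⟨f, tresCov_mem_of_mem y hf⟩ = f) ∧
      t ⟨y, tresCov_self_mem y⟩ = HahnSeries.C ζ * y := by
  classical
  have hirr : Irreducible
      (Polynomial.X ^ p - Polynomial.C w₀ : Polynomial (modularFunctionFieldBar N)) :=
    X_pow_sub_C_irreducible_of_prime hp hw
  have hmonic :
      (Polynomial.X ^ p - Polynomial.C w₀ : Polynomial (modularFunctionFieldBar N)).Monic :=
    Polynomial.monic_X_pow_sub_C w₀ hp.ne_zero
  have hwL : algebraMap (modularFunctionFieldBar N) (LaurentSeries NfQb) w₀ =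
      (w₀ : LaurentSeries NfQb) := rfl
  have haeval : Polynomial.aeval y
      (Polynomial.X ^ p - Polynomial.C w₀ : Polynomial (modularFunctionFieldBar N)) = 0 := by
    rw [map_sub, map_pow, Polynomial.aeval_X, Polynomial.aeval_C, hwL, hy, sub_self]
  have hint : IsIntegral (modularFunctionFieldBar N) y := ⟨_, hmonic, haeval⟩
  have hmin : minpoly (modularFunctionFieldBar N) y = Polynomial.X ^ p - Polynomial.C w₀ :=
    (minpoly.eq_of_irreducible_of_monic hirr haeval hmonic).symm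
  have hroot : HahnSeries.C ζ * y ∈
      (minpoly (modularFunctionFieldBar N) y).aroots (LaurentSeries NfQb) := by
    rw [Polynomial.mem_aroots', hmin]
    refine ⟨(hmonic.map _).ne_zero, ?_⟩
    rw [map_sub, map_pow, Polynomial.aeval_X, Polynomial.aeval_C, hwL, mul_pow, hy, ← map_pow,
      hζ, map_one, one_mul, sub_self]
  set φ : ↥(IntermediateField.adjoin (modularFunctionFieldBar N) {y}) →ₐ[modularFunctionFieldBar N] LaurentSeries NfQb :=
    (IntermediateField.algHomAdjoinIntegralEquiv (modularFunctionFieldBar N) hint).symm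
      ⟨_, hroot⟩ with hφ
  have hφgen : φ (IntermediateField.AdjoinSimple.gen (modularFunctionFieldBar N) y) =
      HahnSeries.C ζ * y :=
    IntermediateField.algHomAdjoinIntegralEquiv_symm_apply_gen (modularFunctionFieldBar N) hint
      ⟨_, hroot⟩
  -- the carriers agree
  have hcar : ∀ z : LaurentSeries NfQb, z ∈ tresCov N y ↔ z ∈ IntermediateField.adjoin (modularFunctionFieldBar N) {y} := by
    intro z
    have h1 := IntermediateField.restrictScalars_adjoin (F := NfQb) (modularFunctionFieldBar N)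
      ({y} : Set (LaurentSeries NfQb))
    have h2 : z ∈ IntermediateField.restrictScalars NfQb (IntermediateField.adjoin (modularFunctionFieldBar N) {y}) ↔
        z ∈ IntermediateField.adjoin (modularFunctionFieldBar N) {y} := Iff.rfl
    rw [← h2, h1]
    rfl
  have hCmem : ∀ a : NfQb, (HahnSeries.C a : LaurentSeries NfQb) ∈
      IntermediateField.adjoin (modularFunctionFieldBar N) {y} := fun a =>
    (hcar _).1 (tresdesc_C_mem _ a)
  -- `φ` maps the cover into itself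
  have hφmem : ∀ (x : LaurentSeries NfQb) (hx : x ∈ IntermediateField.adjoin (modularFunctionFieldBar N) {y}),
      φ ⟨x, hx⟩ ∈ IntermediateField.adjoin (modularFunctionFieldBar N) {y} := by
    intro x hx
    induction hx using IntermediateField.adjoin_induction with
    | mem x hx =>
      rw [Set.mem_singleton_iff] at hx
      subst hx
      have : φ ⟨x, IntermediateField.subset_adjoin _ _ rfl⟩ = HahnSeries.C ζ * x := hφgen
      rw [this]
      exact mul_mem (hCmem ζ) (IntermediateField.mem_adjoin_simple_self _ x)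
    | algebraMap f =>
      have : φ ⟨algebraMap (modularFunctionFieldBar N) (LaurentSeries NfQb) f,
          IntermediateField.algebraMap_mem _ f⟩ =
          algebraMap (modularFunctionFieldBar N) (LaurentSeries NfQb) f :=
        φ.commutes f
      rw [this]
      exact IntermediateField.algebraMap_mem _ f
    | add x z hx hz h1 h2 =>
      have e : (⟨x + z, add_mem hx hz⟩ : ↥(IntermediateField.adjoin (modularFunctionFieldBar N) {y})) =
          ⟨x, hx⟩ + ⟨z, hz⟩ := rfl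
      rw [e, map_add]
      exact add_mem h1 h2
    | inv x hx h1 =>
      have e : (⟨x⁻¹, inv_mem hx⟩ : ↥(IntermediateField.adjoin (modularFunctionFieldBar N) {y})) =
          (⟨x, hx⟩ : ↥(IntermediateField.adjoin (modularFunctionFieldBar N) {y}))⁻¹ := rfl
      rw [e, map_inv₀]
      exact inv_mem h1
    | mul x z hx hz h1 h2 =>
      have e : (⟨x * z, mul_mem hx hz⟩ : ↥(IntermediateField.adjoin (modularFunctionFieldBar N) {y})) =
          ⟨x, hx⟩ * ⟨z, hz⟩ := rfl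
      rw [e, map_mul]
      exact mul_mem h1 h2
  set e : ↥(tresCov N y) →+* ↥(IntermediateField.adjoin (modularFunctionFieldBar N) {y}) :=
    RingHom.codRestrict (algebraMap ↥(tresCov N y) (LaurentSeries NfQb))
      (IntermediateField.adjoin (modularFunctionFieldBar N) {y}) (fun z => (hcar _).1 z.2) with he
  refine ⟨(φ : ↥(IntermediateField.adjoin (modularFunctionFieldBar N) {y}) →+* LaurentSeries NfQb).comp e, ?_, ?_, ?_⟩
  · intro z
    exact (hcar _).2 (hφmem _ (e z).2)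
  · intro f hf
    show φ (e ⟨f, _⟩) = f
    have e1 : e ⟨f, tresCov_mem_of_mem y hf⟩ =
        algebraMap (modularFunctionFieldBar N) ↥(IntermediateField.adjoin (modularFunctionFieldBar N) {y}) ⟨f, hf⟩ :=
      Subtype.ext rfl
    rw [e1, φ.commutes]
    rfl
  · show φ (e ⟨y, _⟩) = HahnSeries.C ζ * y
    have e1 : e ⟨y, tresCov_self_mem y⟩ =
        IntermediateField.AdjoinSimple.gen (modularFunctionFieldBar N) y := Subtype.ext rfl
    rw [e1, hφgen]

/-- **FAC-DESC, existence form.**  `p` prime, `x ∈ J₀(N)` with Kummer function `u`, moved by `G`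
along the line `ℤ z₀`, `z₀ ≠ 0` with Kummer function `w₀`, `G` acting on `z₀` and on the
`p`-th root of unity `ζ` through the same exponents.  Then there are a root `y` of `w₀`, a deck
transformation `t` of `F′ = F_N(ℚ̄)(y)` with `t y = C ζ · y`, and `u″, γ, h ∈ F′`, `α ∈ ℚ̄ˣ` with
`u = C (lc u) · γ ^ p · u″`, `u″, h, α ^ p` fixed by `G`, `t u″ = C (α ^ p) · h ^ p · u″`, and
`α` fixed by every `σ ∈ G` fixing `x`. -/
theorem tresdesc_exists {p : ℕ} (hp : p.Prime) (G : Subgroup (NfQb ≃ₐ[ℚ] NfQb))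
    {x z₀ : JZero N} {u w₀ : modularFunctionFieldBar N} (hu : KummerRel p x u)
    (hw : KummerRel p z₀ w₀) (hz : z₀ ≠ 0)
    (hline : ∀ σ ∈ G, ∃ k : ℤ, σ • x - x = k • z₀)
    {ζ : NfQb} (hζ : ζ ^ p = 1)
    (htor : ∀ σ ∈ G, ∃ g : ℤ, σ • z₀ = g • z₀ ∧ σ ζ = ζ ^ g) :
    ∃ (y : LaurentSeries NfQb) (t : ↥(tresCov N y) →+* LaurentSeries NfQb)
      (u'' γ h : LaurentSeries NfQb) (α : NfQb) (hu''F : u'' ∈ tresCov N y),
      y ^ p = (w₀ : LaurentSeries NfQb) ∧ (∀ z, t z ∈ tresCov N y) ∧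
      (∀ (f : LaurentSeries NfQb) (hf : f ∈ modularFunctionFieldBar N),
        t ⟨f, tresCov_mem_of_mem y hf⟩ = f) ∧
      t ⟨y, tresCov_self_mem y⟩ = HahnSeries.C ζ * y ∧
      γ ∈ tresCov N y ∧ h ∈ tresCov N y ∧ u'' ≠ 0 ∧ γ ≠ 0 ∧ h ≠ 0 ∧ α ≠ 0 ∧
      (u : LaurentSeries NfQb) =
        HahnSeries.C (u : LaurentSeries NfQb).leadingCoeff * γ ^ p * u'' ∧
      (∀ σ ∈ G, coeffMap ((σ : NfQb ≃ₐ[ℚ] NfQb) : NfQb →+* NfQb) u'' = u'') ∧
      (∀ σ ∈ G, coeffMap ((σ : NfQb ≃ₐ[ℚ] NfQb) : NfQb →+* NfQb) h = h) ∧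
      t ⟨u'', hu''F⟩ = HahnSeries.C (α ^ p) * h ^ p * u'' ∧
      (∀ σ ∈ G, σ (α ^ p) = α ^ p) ∧
      ∀ σ ∈ G, σ • x = x → σ α = α := by
  have hp0 : p ≠ 0 := hp.ne_zero
  obtain ⟨y, hy⟩ := tresdesc_exists_root hp0 hw
  obtain ⟨t, htmem, htF, hty⟩ :=
    tresdesc_exists_deck hp (tresdesc_not_pow hp0 hw hz) hy hζ
  have hζ0 : ζ ≠ 0 := by
    rintro rfl
    rw [zero_pow hp0] at hζ
    exact zero_ne_one hζ
  obtain ⟨u'', γ, h, α, hu''F, hγF, hhF, hu'', hγ, hh, hα, hU, hfix, hhfix, hth, hαm, hαfix⟩ :=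
    tresdesc_final hp0 G hu hw hy hline t htmem htF hζ0 hty htor
  exact ⟨y, t, u'', γ, h, α, hu''F, hy, htmem, htF, hty, hγF, hhF, hu'', hγ, hh, hα, hU, hfix,
    hhfix, hth, hαm, hαfix⟩

end Ex

end Fermat.Agent.R38

end


end ZBR38_019_6

/-! ### bundled: `Fermat.Agent.R38.TresFixFRho` -/
section ZBR38_019_7

/-!
# R38 TRES, (FAC-p), piece FAC-FIXF (helper29), part 5: `hρG` for the concrete cover

`z₀ ∈ J₀(N)` (level `N = M p`) with Kummer function `w₀`, `y ^ p = w₀`, toric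
(`τ z₀ = cycloExp p τ • z₀` for `τ ∈ I`).  `S : Tres5Kum F_{N′}(E) L_E V p` the Kummer structure
of the `E`-form `L_E = tres5cL E N′ y` of the cover at the RIGID level `N′` (`F_N ≤ F_{N′}`), with
generator `S.y = y_E` (`coeffMap y_E = y`) and root of unity `S.ζ = ζ`.

* `tres5ff_not_pow_bar`  : `w₀` is not a `p`-th power in `F_{N′}(ℚ̄)` (from `S.hw`: it is not one
                           in `F_{N′}(E)`, and `F_{N′}(ℚ̄) ∩ E((q)) = F_{N′}(E)`);
* `tres5ff_exists_deck`  : the deck transformation `t` of `F′ = F_{N′}(ℚ̄)(y)`, `t y = C ζ · y`;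
* `tres5ff_hρG_cyclo`    : **`hρG`**: `S.deck (g • x) = g • S.deck x` for `g ∈ Gal(E / K)`,
                           `K = ℚ̄^I` — the last field-level hypothesis of `tres5ff_descend` /
                           `tres5c_descend` / `tres5kiv_descend` / `tres5ki_point`.
-/

set_option autoImplicit false
set_option linter.style.haveILetI false
set_option linter.unusedSectionVars false

noncomputable section

open ModularCurve AlgebraicCurve Fermat.Agent.INJ Fermat.Agent.UNIP IntermediateField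
  Fermat.Agent.ES Fermat.Agent.ES.G2

namespace Fermat.Agent.R38

section Rho

variable {N' : ℕ} [NeZero N'] {E : IntermediateField ℚ NfQb} {p : ℕ}
  {V : ValuationSubring ↥(modularFunctionFieldFullC ↥E N')} {y : LaurentSeries NfQb}

/-- the Kummer element of `S` is `y ^ p` -/
theorem tres5ff_coeffMap_w (S : Tres5Kum ↥(modularFunctionFieldFullC ↥E N') ↥(tres5cL E N' y) V p)
    (hSy : coeffMap (algebraMap ↥E NfQb) (S.y : LaurentSeries ↥E) = y) :
    coeffMap (algebraMap ↥E NfQb) ((S.w : ↥(modularFunctionFieldFullC ↥E N')) :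
      LaurentSeries ↥E) = y ^ p := by
  have h1 := congrArg (fun z : ↥(tres5cL E N' y) => (z : LaurentSeries ↥E)) S.hy
  have h2 : ((S.y ^ p : ↥(tres5cL E N' y)) : LaurentSeries ↥E) =
      (S.y : LaurentSeries ↥E) ^ p := rfl
  have h3 : ((algebraMap ↥(modularFunctionFieldFullC ↥E N') ↥(tres5cL E N' y) S.w :
      ↥(tres5cL E N' y)) : LaurentSeries ↥E) = (S.w : LaurentSeries ↥E) :=
    tres5ff_L_algebraMap_coe N' y S.w
  have h4 : (S.y : LaurentSeries ↥E) ^ p = (S.w : LaurentSeries ↥E) := by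
    rw [← h2, ← h3]
    exact h1
  rw [← h4, map_pow, hSy]

/-- **`w₀` is not a `p`-th power in `F_{N′}(ℚ̄)`.** -/
theorem tres5ff_not_pow_bar (S : Tres5Kum ↥(modularFunctionFieldFullC ↥E N') ↥(tres5cL E N' y) V p)
    (hSy : coeffMap (algebraMap ↥E NfQb) (S.y : LaurentSeries ↥E) = y)
    {w₀ : modularFunctionFieldBar N'} (hy : y ^ p = (w₀ : LaurentSeries NfQb)) :
    ∀ b : modularFunctionFieldBar N', b ^ p ≠ w₀ := by
  intro b hb
  have hp0 : p ≠ 0 := S.hp.ne_zero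
  have hpK : ((p : ℕ) : NfQb) ≠ 0 := Nat.cast_ne_zero.mpr hp0
  have hw0 : S.w ≠ 0 := by
    intro h0
    exact S.hw 0 (by rw [zero_pow hp0, h0])
  have hy0 : y ≠ 0 := by
    intro h0
    have h1 := tres5ff_coeffMap_w S hSy
    have h1' : y ^ p = 0 := by rw [h0, zero_pow hp0]
    have h2 : (S.w : LaurentSeries ↥E) = 0 :=
      (coeffMap (algebraMap ↥E NfQb)).injective ((h1.trans h1').trans (map_zero _).symm)
    exact hw0 (Subtype.ext h2)
  have hbL : (b : LaurentSeries NfQb) ^ p = HahnSeries.C (1 : NfQb) * y ^ p := by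
    have h1 := congrArg (fun z : modularFunctionFieldBar N' => (z : LaurentSeries NfQb)) hb
    have h2 : ((b ^ p : modularFunctionFieldBar N') : LaurentSeries NfQb) =
        (b : LaurentSeries NfQb) ^ p := rfl
    rw [map_one, one_mul, hy, ← h2]
    exact h1
  obtain ⟨c, hc0, -, hbc⟩ := tresdesc_root hpK one_ne_zero hy0 hbL
  -- `y ∈ F_{N′}(ℚ̄)`
  have hyF : y ∈ modularFunctionFieldBar N' := by
    have h1 : y = HahnSeries.C c⁻¹ * (b : LaurentSeries NfQb) := by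
      rw [hbc, ← mul_assoc, ← map_mul, inv_mul_cancel₀ hc0, map_one, one_mul]
    rw [h1]
    exact (modularFunctionFieldBar N').mul_mem (Fermat.Agent.S36.s36d_C_mem N' c⁻¹) b.2
  -- `y_E ∈ F_{N′}(E)`
  have hyE : (S.y : LaurentSeries ↥E) ∈ modularFunctionFieldFullC ↥E N' :=
    tres5c_ff_desc E N' (by rw [hSy]; exact hyF)
  refine S.hw ⟨(S.y : LaurentSeries ↥E), hyE⟩ (Subtype.ext ?_)
  have h1 := congrArg (fun z : ↥(tres5cL E N' y) => (z : LaurentSeries ↥E)) S.hy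
  have h3 : ((algebraMap ↥(modularFunctionFieldFullC ↥E N') ↥(tres5cL E N' y) S.w :
      ↥(tres5cL E N' y)) : LaurentSeries ↥E) = (S.w : LaurentSeries ↥E) :=
    tres5ff_L_algebraMap_coe N' y S.w
  rw [← h3]
  exact h1

/-- **The deck transformation of `F′ = F_{N′}(ℚ̄)(y)`.** -/
theorem tres5ff_exists_deck
    (S : Tres5Kum ↥(modularFunctionFieldFullC ↥E N') ↥(tres5cL E N' y) V p)
    (hSy : coeffMap (algebraMap ↥E NfQb) (S.y : LaurentSeries ↥E) = y)
    {w₀ : modularFunctionFieldBar N'} (hy : y ^ p = (w₀ : LaurentSeries NfQb))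
    {ζ : NfQb} (hζ : ζ ^ p = 1) :
    ∃ t : ↥(tres5cField N' y) →+* LaurentSeries NfQb, (∀ z, t z ∈ tres5cField N' y) ∧
      (∀ (f : LaurentSeries NfQb) (hf : f ∈ modularFunctionFieldBar N'),
        t ⟨f, tres5c_bar_le N' y hf⟩ = f) ∧
      t ⟨y, tres5c_y_mem N' y⟩ = HahnSeries.C ζ * y :=
  tresdesc_exists_deck S.hp (tres5ff_not_pow_bar S hSy hy) hy hζ

variable {N : ℕ} [NeZero N] {A : ValuationSubring NfQb} {q : ℕ}

/-- **(hρG)**: the deck transformation of `L_E` commutes with `Gal(E / K)`, `K = ℚ̄^I`. -/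
theorem tres5ff_hρG_cyclo [Fact p.Prime] (hq : q.Prime) (hA : A.LiesOverPrime q)
    (h : beta0Field A ≤ E)
    {z₀ : JZero N} {w₀ : modularFunctionFieldBar N} (hw : KummerRel p z₀ w₀)
    (hy : y ^ p = (w₀ : LaurentSeries NfQb))
    (hle : modularFunctionFieldBar N ≤ modularFunctionFieldBar N')
    (htor : ∀ τ ∈ A.inertiaSubgroupIn ℚ, τ • z₀ = ExtCitation.cycloExp p τ • z₀)
    (S : Tres5Kum ↥(modularFunctionFieldFullC ↥E N') ↥(tres5cL E N' y) V p)
    (hSy : coeffMap (algebraMap ↥E NfQb) (S.y : LaurentSeries ↥E) = y)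
    {ζ : NfQb}
    (hSζ : coeffMap (algebraMap ↥E NfQb) ((S.ζ : ↥(modularFunctionFieldFullC ↥E N')) :
      LaurentSeries ↥E) = HahnSeries.C ζ) :
    letI := beta0FieldAlgebra h
    letI := tres5ffAct hq hA h N' y (tres5ff_hstabI_cyclo hw hy hle htor)
    ∀ (g : ↥E ≃ₐ[↥(beta0Field A)] ↥E) (x : ↥(tres5cL E N' y)),
      S.deck (g • x) = g • S.deck x := by
  -- `ζ ^ p = 1`
  have hζ : ζ ^ p = 1 := by
    have h1 : (S.ζ : ↥(modularFunctionFieldFullC ↥E N')) ^ p = 1 := S.hζ.pow_eq_one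
    have h2 := congrArg (fun z : ↥(modularFunctionFieldFullC ↥E N') =>
      coeffMap (algebraMap ↥E NfQb) (z : LaurentSeries ↥E)) h1
    have h3 : coeffMap (algebraMap ↥E NfQb)
        (((S.ζ ^ p : ↥(modularFunctionFieldFullC ↥E N')) : LaurentSeries ↥E)) =
        (HahnSeries.C ζ : LaurentSeries NfQb) ^ p := by
      rw [← hSζ, ← map_pow]
      rfl
    have h4 : (HahnSeries.C ζ : LaurentSeries NfQb) ^ p = 1 := by
      rw [← h3]
      exact h2.trans (map_one _)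
    rw [← map_pow] at h4
    have h5 : (HahnSeries.C (ζ ^ p) : LaurentSeries NfQb) = HahnSeries.C (1 : NfQb) := by
      rw [h4, map_one]
    exact HahnSeries.C_injective h5
  have hy' : y ^ p = ((⟨(w₀ : LaurentSeries NfQb), hle w₀.2⟩ : modularFunctionFieldBar N') :
      LaurentSeries NfQb) := hy
  obtain ⟨t, -, htF, hty⟩ := tres5ff_exists_deck S hSy hy' hζ
  exact tres5ff_inst_hρG hq hA h N' y (tres5ff_hstabI_cyclo hw hy hle htor) t
    (tres5ff_hcomm_cyclo hw hy hle t htF hζ hty htor) (fun x => S.deck x)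
    (fun x => tres5c_emb_deck E N' y S t htF hty hSy hSζ x)

end Rho

end Fermat.Agent.R38

end
end ZBR38_019_7

/-! ### bundled: `Fermat.Agent.R38.TresKFormInstV` -/
section ZBR38_019_8
/-
ROW 38, TRES, piece FAC-KFORM (helper53), part 5: THE (A)-INSTANCE AT `V_∞`.

The K-FORM descent (`Tres5Kum.descend`, in the concrete shape `tres5ff_descend` of helper29 on
helper78's frame `L_E = tres5cL E N y`) at the vertical valuation `V_∞ = mgvV … true`
(Gauss valuation of the `q`-expansion), `K = beta0Field A = ℚ̄^I`, `E ⊇ K` finite and `I`-stable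
(`E = mgcE A K₁`), level `N = M q`, `q` the residue characteristic and the Kummer exponent.

* `tres5kiv_hVK`, `tres5kiv_hπK`, `tres5kiv_hπK0`, `tres5kiv_hunifK`, `tres5kiv_hpK` :
  the formal inputs of the descent at `V_∞`;
* `tres5kivW` : the GAUSS SHEET of `L_E` (`UNIP.vtSub` on `L_E ⊆ E((q))`), defined as soon as the
  Kummer generator is a quotient of two series over `A ∩ E` (`hfracY`, helper24's FAC-GRED part 2),
  `tres5kivW_comap` (= `hW₀`), `tres5kivW_smul_mem` (= `hGW₀`), `tres5kivW_sub_mem`;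
* **`tres5kiv_descend`** : the descended split generator `T : Tres5Gen F_K L_K V_∞ q`.
-/

set_option autoImplicit false
set_option linter.unusedSectionVars false
set_option linter.style.haveILetI false

noncomputable section

namespace Fermat.Agent.R38

open ModularCurve Fermat.Agent.INJ Fermat.Agent.UNIP IntermediateField

section Formal

variable {A : ValuationSubring NfQb} {K₀ K₁ : IntermediateField ℚ NfQb}
  [IsDiscreteValuationRing ↥(beta0Ring A K₀)] {π₀ : ↥(beta0Ring A K₀)} (hπ₀ : Irreducible π₀)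
  [IsDiscreteValuationRing ↥(beta0Ring A K₁)] {π₁ : ↥(beta0Ring A K₁)} (hπ₁ : Irreducible π₁)
  (ιC₀ : ↥K₀ →+* ℂ) (ιC₁ : ↥K₁ →+* ℂ) {q M : ℕ} [NeZero q] [NeZero M] [NeZero (M * q)]
  (hq : q.Prime) (hqM : ¬ q ∣ M)

/-- **(hVK)** the vertical valuations of `F_{Mq}(K₁)` restrict to those of `F_{Mq}(K₀)`. -/
theorem tres5kiv_hVK (h : K₀ ≤ K₁) (c : Bool) :
    mgvV hπ₀ ιC₀ hq hqM c = (mgvV hπ₁ ιC₁ hq hqM c).comap (tres5cBaseIncl (M * q) h) := by
  rw [tres5cBaseIncl_eq_mgaIncl, mgv_comap_incl hπ₀ hπ₁ ιC₀ ιC₁ hq hqM h c]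

/-- **(hπK)** -/
theorem tres5kiv_hπK (c : Bool) :
    algebraMap ↥(beta0Ring A K₀) ↥(modularFunctionFieldFullC ↥K₀ (M * q)) π₀ ∈
      (mgvV hπ₀ ιC₀ hq hqM c).nonunits :=
  mgv_hπV hπ₀ ιC₀ hq hqM c

include hπ₀ in
/-- **(hπK0)** -/
theorem tres5kiv_hπK0 :
    algebraMap ↥(beta0Ring A K₀) ↥(modularFunctionFieldFullC ↥K₀ (M * q)) π₀ ≠ 0 :=
  unip_algebraMap_irreducible_ne_zero ↥K₀ hπ₀

/-- **(hunifK)** -/
theorem tres5kiv_hunifK (c : Bool) (x : ↥(modularFunctionFieldFullC ↥K₀ (M * q))) (hx : x ≠ 0) :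
    ∃ m : ℤ, (mgvV hπ₀ ιC₀ hq hqM c).valuation
      (x / algebraMap ↥(beta0Ring A K₀) ↥(modularFunctionFieldFullC ↥K₀ (M * q)) π₀ ^ m) = 1 :=
  tres5bk_mgv_hunif hπ₀ ιC₀ hq hqM c x hx

/-- **(hpK)** the residue characteristic is a non-unit of `V c`. -/
theorem tres5kiv_hpK (hA : A.LiesOverPrime q) (c : Bool) :
    ((q : ℕ) : ↥(modularFunctionFieldFullC ↥K₀ (M * q))) ∈ (mgvV hπ₀ ιC₀ hq hqM c).nonunits := by
  have h1 := (mgv_const_mem_nonunits_iff hπ₀ ιC₀ hq hqM c ((q : ℕ) : ↥(beta0Ring A K₀))).mpr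
    (by
      have : ((((q : ℕ) : ↥(beta0Ring A K₀)) : ↥K₀) : NfQb) = ((q : ℕ) : NfQb) := by
        simp
      rw [this]
      exact hA)
  rwa [map_natCast] at h1

end Formal

/-! ### The Gauss sheet of `L_E` -/

section Gauss

variable {A : ValuationSubring NfQb} {E : IntermediateField ℚ NfQb}
  [IsDiscreteValuationRing ↥(beta0Ring A E)] {π : ↥(beta0Ring A E)} (hπ : Irreducible π)
  (N : ℕ) (y : LaurentSeries NfQb)

/-- the inclusion `L_E → E((q))` -/
def tres5kivEmb : ↥(tres5cL E N y) →+* LaurentSeries ↥E :=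
  ((tres5cL E N y).val : ↥(tres5cL E N y) →+* LaurentSeries ↥E)

@[simp]
theorem tres5kivEmb_apply (x : ↥(tres5cL E N y)) :
    tres5kivEmb (E := E) N y x = (x : LaurentSeries ↥E) := rfl

theorem tres5kivEmb_algebraMap (a : ↥(modularFunctionFieldFullC ↥E N)) :
    tres5kivEmb (E := E) N y (algebraMap ↥(modularFunctionFieldFullC ↥E N) ↥(tres5cL E N y) a)
      = vtEmb ↥E N a := rfl

include hπ in
/-- **`hfrac` of the cover** from `hfrac` of a generator: every element of `L_E = F_N(E)(z)` is a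
quotient of two series over `A ∩ E` as soon as `z` is. -/
theorem tres5kiv_frac {z : ↥(tres5cL E N y)}
    (htop : IntermediateField.adjoin ↥(modularFunctionFieldFullC ↥E N)
      ({z} : Set ↥(tres5cL E N y)) = ⊤)
    (hz : VtFrac (algebraMap ↥(beta0Ring A E) ↥E) (z : LaurentSeries ↥E)) :
    ∀ x : ↥(tres5cL E N y),
      VtFrac (algebraMap ↥(beta0Ring A E) ↥E) (tres5kivEmb (E := E) N y x) :=
  tres5g_frac_of_gen (vtBase_residue hπ) (tres5kivEmb (E := E) N y)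
    (fun a => vt_frac_fullC (vtBase_residue hπ) N a.2) hz htop

/-- **The Gauss sheet of `L_E`**: the elements of `L_E ⊆ E((q))` lying in the Gauss ring. -/
def tres5kivW
    (hfrac : ∀ x : ↥(tres5cL E N y),
      VtFrac (algebraMap ↥(beta0Ring A E) ↥E) (tres5kivEmb (E := E) N y x)) :
    ValuationSubring ↥(tres5cL E N y) :=
  vtSub (vtBase_residue hπ) (tres5kivEmb (E := E) N y) hfrac

theorem mem_tres5kivW
    (hfrac : ∀ x : ↥(tres5cL E N y),
      VtFrac (algebraMap ↥(beta0Ring A E) ↥E) (tres5kivEmb (E := E) N y x))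
    {x : ↥(tres5cL E N y)} :
    x ∈ tres5kivW hπ N y hfrac ↔
      (x : LaurentSeries ↥E) ∈ gaussRing (algebraMap ↥(beta0Ring A E) ↥E)
        (IsLocalRing.residue ↥(beta0Ring A E)) := Iff.rfl

/-- the Gauss sheet lies over the Gauss valuation ring `vtInf` of `F_N(E)` -/
theorem tres5kivW_comap_vtInf
    (hfrac : ∀ x : ↥(tres5cL E N y),
      VtFrac (algebraMap ↥(beta0Ring A E) ↥E) (tres5kivEmb (E := E) N y x)) :
    (tres5kivW hπ N y hfrac).comap
      (algebraMap ↥(modularFunctionFieldFullC ↥E N) ↥(tres5cL E N y)) =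
      vtInf (vtBase_residue hπ) N :=
  tres5g_gauss_comap (vtBase_residue hπ) (tres5kivEmb (E := E) N y) hfrac (vtEmb ↥E N)
    (fun x => vt_frac_fullC (vtBase_residue hπ) N x.2) (fun _ => rfl)

end Gauss

/-! ### The action of `G = Gal(E / K)`, `K = ℚ̄^I`, on the Gauss sheet -/

section Action

variable {A : ValuationSubring NfQb} {q : ℕ} {E : IntermediateField ℚ NfQb}
  [IsDiscreteValuationRing ↥(beta0Ring A E)] {π : ↥(beta0Ring A E)} (hπ : Irreducible π)
  (hq : q.Prime) (hA : A.LiesOverPrime q) (h : beta0Field A ≤ E) (N : ℕ)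
  (y : LaurentSeries NfQb)
  (hstabI : ∀ σ ∈ A.inertiaSubgroupIn ℚ, ∀ x ∈ tres5cField N y,
    coeffMap ((σ : NfQb ≃ₐ[ℚ] NfQb) : NfQb →+* NfQb) x ∈ tres5cField N y)

/-- **every `g ∈ Gal(E / K)` is inertial**: it preserves `A ∩ E`, acts trivially on the residue
field, and acts coefficientwise on `L_E` (the hypothesis `hG` of helper24's `tres5g_gauss_*`). -/
theorem tres5kiv_hG :
    letI := beta0FieldAlgebra h
    letI := tres5ffAct hq hA h N y hstabI
    ∀ g : ↥E ≃ₐ[↥(beta0Field A)] ↥E, ∃ s : ↥E →+* ↥E,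
      VtCompat (algebraMap ↥(beta0Ring A E) ↥E) (IsLocalRing.residue ↥(beta0Ring A E))
        (algebraMap ↥(beta0Ring A E) ↥E) (IsLocalRing.residue ↥(beta0Ring A E)) s
        (RingHom.id _) ∧
      ∀ x : ↥(tres5cL E N y),
        tres5kivEmb (E := E) N y (g • x) = coeffMap s (tres5kivEmb (E := E) N y x) := by
  letI := beta0FieldAlgebra h
  letI := tres5ffAct hq hA h N y hstabI
  intro g
  obtain ⟨σ, hσ, hσg⟩ := tres5ff_lift' hq hA h g
  have hK : ∀ x ∈ E, σ x ∈ E := fun x hx => by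
    rw [hσg ⟨x, hx⟩]
    exact (g ⟨x, hx⟩).2
  have hs : mgRestrict E σ hK = ((g : ↥E ≃ₐ[↥(beta0Field A)] ↥E) : ↥E →+* ↥E) :=
    RingHom.ext fun e => Subtype.ext (hσg e)
  refine ⟨((g : ↥E ≃ₐ[↥(beta0Field A)] ↥E) : ↥E →+* ↥E), ?_, fun x => rfl⟩
  rw [← hs]
  exact vt_compat_of_inertia E hσ hK

variable (hfrac : ∀ x : ↥(tres5cL E N y),
  VtFrac (algebraMap ↥(beta0Ring A E) ↥E) (tres5kivEmb (E := E) N y x))

/-- **(hGW₀)** the Gauss sheet of `L_E` is stable under `Gal(E / K)`. -/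
theorem tres5kivW_smul_mem :
    letI := beta0FieldAlgebra h
    letI := tres5ffAct hq hA h N y hstabI
    ∀ (g : ↥E ≃ₐ[↥(beta0Field A)] ↥E), ∀ x ∈ tres5kivW hπ N y hfrac,
      g • x ∈ tres5kivW hπ N y hfrac := by
  letI := beta0FieldAlgebra h
  letI := tres5ffAct hq hA h N y hstabI
  exact tres5g_gauss_smul_mem (vtBase_residue hπ) (tres5kivEmb (E := E) N y) hfrac
    (tres5kiv_hG hq hA h N y hstabI)

/-- `Gal(E / K)` is trivial on the residues of the Gauss sheet. -/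
theorem tres5kivW_sub_mem :
    letI := beta0FieldAlgebra h
    letI := tres5ffAct hq hA h N y hstabI
    ∀ (g : ↥E ≃ₐ[↥(beta0Field A)] ↥E), ∀ x ∈ tres5kivW hπ N y hfrac,
      g • x - x ∈ (tres5kivW hπ N y hfrac).nonunits := by
  letI := beta0FieldAlgebra h
  letI := tres5ffAct hq hA h N y hstabI
  exact tres5g_gauss_sub_mem (vtBase_residue hπ) (tres5kivEmb (E := E) N y) hfrac
    (tres5kiv_hG hq hA h N y hstabI)

/-- every reduction map of the Gauss sheet is `Gal(E / K)`-invariant: `ρ (g x) = ρ x`. -/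
theorem tres5kivW_red {k' : Type*} [Field k'] (ρ : ↥(tres5kivW hπ N y hfrac) →+* k')
    (hker : ∀ x : ↥(tres5kivW hπ N y hfrac),
      (x : ↥(tres5cL E N y)) ∈ (tres5kivW hπ N y hfrac).nonunits → ρ x = 0) :
    letI := beta0FieldAlgebra h
    letI := tres5ffAct hq hA h N y hstabI
    ∀ (g : ↥E ≃ₐ[↥(beta0Field A)] ↥E) (x : ↥(tres5cL E N y))
      (hx : x ∈ tres5kivW hπ N y hfrac),
      ρ ⟨g • x, tres5kivW_smul_mem hπ hq hA h N y hstabI hfrac g x hx⟩ = ρ ⟨x, hx⟩ := by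
  letI := beta0FieldAlgebra h
  letI := tres5ffAct hq hA h N y hstabI
  intro g x hx
  exact tres5g_red_map (tres5kivW hπ N y hfrac) ρ hker hx _
    (tres5kivW_sub_mem hπ hq hA h N y hstabI hfrac g x hx)

/-- **FAC-GRED on the cover**: every composite `comp(W^∞_E, Q)` of the Gauss sheet with a place
`Q` of its residue field is stable under `Gal(E / K)` (the hypothesis `hGW` of
`tres5kp_fixed_of_val` / `tres5kp_descend_of_val` at the closed points). -/
theorem tres5kivW_comp {k' : Type*} [Field k'] (ρ : ↥(tres5kivW hπ N y hfrac) →+* k')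
    (Q : ValuationSubring k')
    (hker : ∀ x : ↥(tres5kivW hπ N y hfrac),
      (x : ↥(tres5cL E N y)) ∈ (tres5kivW hπ N y hfrac).nonunits → ρ x = 0) :
    letI := beta0FieldAlgebra h
    letI := tres5ffAct hq hA h N y hstabI
    ∀ (g : ↥E ≃ₐ[↥(beta0Field A)] ↥E),
      ∀ x ∈ Fermat.Agent.RIB.MP.ribmp_rd_comp (tres5kivW hπ N y hfrac) ρ Q hker,
        g • x ∈ Fermat.Agent.RIB.MP.ribmp_rd_comp (tres5kivW hπ N y hfrac) ρ Q hker := by
  letI := beta0FieldAlgebra h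
  letI := tres5ffAct hq hA h N y hstabI
  exact tres5g_comp_smul (tres5kivW hπ N y hfrac) ρ Q hker
    (tres5kivW_sub_mem hπ hq hA h N y hstabI hfrac)

end Action

/-! ### The descent at `V_∞` -/

section Main

variable {A : ValuationSubring NfQb} {q M : ℕ} [NeZero q] [NeZero M] [NeZero (M * q)]
  {E : IntermediateField ℚ NfQb}
  [IsDiscreteValuationRing ↥(beta0Ring A (beta0Field A))]
  {π₀ : ↥(beta0Ring A (beta0Field A))} (hπ₀ : Irreducible π₀)
  [IsDiscreteValuationRing ↥(beta0Ring A E)] {π : ↥(beta0Ring A E)} (hπ : Irreducible π)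
  (ιC₀ : ↥(beta0Field A) →+* ℂ) (ιC : ↥E →+* ℂ)
  (hq : q.Prime) (hqM : ¬ q ∣ M) (hA : A.LiesOverPrime q) (h : beta0Field A ≤ E)
  (y : LaurentSeries NfQb)
  (hstabI : ∀ σ ∈ A.inertiaSubgroupIn ℚ, ∀ x ∈ tres5cField (M * q) y,
    coeffMap ((σ : NfQb ≃ₐ[ℚ] NfQb) : NfQb →+* NfQb) x ∈ tres5cField (M * q) y)

/-- **K-FORM (A) at `V_∞`, instance.**  `K = ℚ̄^I`, `E ⊇ K` finite and `I`-stable,
`S` the split Kummer datum of the cover `L_E / F_{Mq}(E)` at `V_∞` (FAC-BIG), whose Kummer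
generator is a quotient of two series over `A ∩ E` (`hfracY`, FAC-GRED), `ρ_E = S.deck`
commuting with `Gal(E / K)` (`hρG`).  Then the cover `L_K / F_{Mq}(K)` is split at
`V_∞ = mgvV … true` over `K`: a `Tres5Gen` with uniformizer the constant `π₀`, roots
`0, …, q − 1`, sheets `T.W k = S.gen.W k ∩ L_K`, one of which is the Gauss sheet. -/
theorem tres5kiv_descend (hE : ∀ σ ∈ A.inertiaSubgroupIn ℚ, ∀ x ∈ E, σ x ∈ E)
    (hfin : letI := beta0FieldAlgebra h
      FiniteDimensional ↥(beta0Field A) ↥E)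
    (S : Tres5Kum ↥(modularFunctionFieldFullC ↥E (M * q)) ↥(tres5cL E (M * q) y)
      (mgvV hπ ιC hq hqM true) q)
    (hfracY : VtFrac (algebraMap ↥(beta0Ring A E) ↥E)
      ((S.y : ↥(tres5cL E (M * q) y)) : LaurentSeries ↥E))
    (hρG : letI := beta0FieldAlgebra h
      letI := tres5ffAct hq hA h (M * q) y hstabI
      ∀ (g : ↥E ≃ₐ[↥(beta0Field A)] ↥E) (x : ↥(tres5cL E (M * q) y)),
        S.deck (g • x) = g • S.deck x) :
    ∃ (T : Tres5Gen ↥(modularFunctionFieldFullC ↥(beta0Field A) (M * q))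
        ↥(tres5cL (beta0Field A) (M * q) y) (mgvV hπ₀ ιC₀ hq hqM true) q)
      (ρK : ↥(tres5cL (beta0Field A) (M * q) y) →ₐ[↥(modularFunctionFieldFullC
        ↥(beta0Field A) (M * q))] ↥(tres5cL (beta0Field A) (M * q) y)),
      T.π = algebraMap ↥(beta0Ring A (beta0Field A))
        ↥(modularFunctionFieldFullC ↥(beta0Field A) (M * q)) π₀ ∧
      (∀ k, T.c k = ((k : ℕ) : ↥(mgvV hπ₀ ιC₀ hq hqM true))) ∧
      (∀ k < q, tres5cIncl (M * q) y h T.z - ((k : ℕ) : ↥(tres5cL E (M * q) y)) ∈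
        (S.gen.W k).nonunits) ∧
      (∀ k < q, T.W k = (S.gen.W k).comap (tres5cIncl (M * q) y h)) ∧
      (∃ k₀ < q, tres5kivW hπ (M * q) y (tres5kiv_frac hπ (M * q) y S.htop hfracY) = S.gen.W k₀ ∧
        T.W k₀ = (tres5kivW hπ (M * q) y (tres5kiv_frac hπ (M * q) y S.htop hfracY)).comap
          (tres5cIncl (M * q) y h)) ∧
      (∀ f : ↥(tres5cL (beta0Field A) (M * q) y),
        tres5cIncl (M * q) y h (ρK f) = S.deck (tres5cIncl (M * q) y h f)) ∧
      (∀ k < q, (T.W k).comap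
        (ρK : ↥(tres5cL (beta0Field A) (M * q) y) →+* ↥(tres5cL (beta0Field A) (M * q) y))
          = T.W ((k + 1) % q)) ∧
      Module.finrank ↥(modularFunctionFieldFullC ↥(beta0Field A) (M * q))
        ↥(tres5cL (beta0Field A) (M * q) y) = q ∧
      IntermediateField.adjoin ↥(modularFunctionFieldFullC ↥E (M * q))
        {tres5cIncl (M * q) y h T.z} = ⊤ :=
  tres5ff_descend hq hA h (M * q) y hstabI hE hfin S (mgvV hπ₀ ιC₀ hq hqM true)
    (tres5kiv_hVK hπ₀ hπ ιC₀ ιC hq hqM h true) _ (tres5kiv_hπK hπ₀ ιC₀ hq hqM true)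
    (tres5kiv_hπK0 hπ₀) (tres5kiv_hunifK hπ₀ ιC₀ hq hqM true) (tres5kiv_hpK hπ₀ ιC₀ hq hqM hA true)
    (tres5kivW hπ (M * q) y (tres5kiv_frac hπ (M * q) y S.htop hfracY))
    (tres5kivW_comap_vtInf hπ (M * q) y _)
    (tres5kivW_smul_mem hπ hq hA h (M * q) y hstabI _) hρG

end Main

end Fermat.Agent.R38

end
end ZBR38_019_8

/-! ### bundled: `Fermat.Agent.R38.TresFixFV` -/
section ZBR38_019_9

/-!
# R38 TRES, (FAC-p), piece FAC-FIXF (helper29), part 6: the (A)-instance with the Galois inputs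
discharged

helper53's `tres5kiv_descend` (K-FORM (A) at `V_∞`) with `hstabI` and `hρG` discharged from the
toric line (`tres5ff_hstabI_cyclo`, `tres5ff_hρG_cyclo`): the hypotheses left are the Kummer
datum `S` over the big field (FAC-BIG), `hSy`, `hSζ`, `hfracY` (FAC-GRED) and the finiteness /
stability of `E`.
-/

set_option autoImplicit false
set_option linter.style.haveILetI false
set_option linter.unusedSectionVars false

noncomputable section

open ModularCurve AlgebraicCurve Fermat.Agent.INJ Fermat.Agent.UNIP IntermediateField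
  Fermat.Agent.ES Fermat.Agent.ES.G2

namespace Fermat.Agent.R38

section Main

variable {A : ValuationSubring NfQb} {q M : ℕ} [NeZero q] [NeZero M] [NeZero (M * q)]
  {E : IntermediateField ℚ NfQb}
  [IsDiscreteValuationRing ↥(beta0Ring A (beta0Field A))]
  {π₀ : ↥(beta0Ring A (beta0Field A))} (hπ₀ : Irreducible π₀)
  [IsDiscreteValuationRing ↥(beta0Ring A E)] {π : ↥(beta0Ring A E)} (hπ : Irreducible π)
  (ιC₀ : ↥(beta0Field A) →+* ℂ) (ιC : ↥E →+* ℂ)
  (hq : q.Prime) (hqM : ¬ q ∣ M) (hA : A.LiesOverPrime q) (h : beta0Field A ≤ E)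
  {y : LaurentSeries NfQb} {N : ℕ} [NeZero N]

include hA in
/-- **K-FORM (A) at `V_∞` from the toric line.** -/
theorem tres5ff_kiv_descend_cyclo [Fact q.Prime]
    {z₀ : JZero N} {w₀ : modularFunctionFieldBar N} (hw : KummerRel q z₀ w₀)
    (hy : y ^ q = (w₀ : LaurentSeries NfQb))
    (hle : modularFunctionFieldBar N ≤ modularFunctionFieldBar (M * q))
    (htor : ∀ τ ∈ A.inertiaSubgroupIn ℚ, τ • z₀ = ExtCitation.cycloExp q τ • z₀)
    (hE : ∀ σ ∈ A.inertiaSubgroupIn ℚ, ∀ x ∈ E, σ x ∈ E)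
    (hfin : letI := beta0FieldAlgebra h
      FiniteDimensional ↥(beta0Field A) ↥E)
    (S : Tres5Kum ↥(modularFunctionFieldFullC ↥E (M * q)) ↥(tres5cL E (M * q) y)
      (mgvV hπ ιC hq hqM true) q)
    (hSy : coeffMap (algebraMap ↥E NfQb) (S.y : LaurentSeries ↥E) = y)
    {ζ : NfQb}
    (hSζ : coeffMap (algebraMap ↥E NfQb)
      ((S.ζ : ↥(modularFunctionFieldFullC ↥E (M * q))) : LaurentSeries ↥E) = HahnSeries.C ζ)
    (hfracY : VtFrac (algebraMap ↥(beta0Ring A E) ↥E)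
      ((S.y : ↥(tres5cL E (M * q) y)) : LaurentSeries ↥E)) :
    ∃ (T : Tres5Gen ↥(modularFunctionFieldFullC ↥(beta0Field A) (M * q))
        ↥(tres5cL (beta0Field A) (M * q) y) (mgvV hπ₀ ιC₀ hq hqM true) q)
      (ρK : ↥(tres5cL (beta0Field A) (M * q) y) →ₐ[↥(modularFunctionFieldFullC
        ↥(beta0Field A) (M * q))] ↥(tres5cL (beta0Field A) (M * q) y)),
      T.π = algebraMap ↥(beta0Ring A (beta0Field A))
        ↥(modularFunctionFieldFullC ↥(beta0Field A) (M * q)) π₀ ∧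
      (∀ k, T.c k = ((k : ℕ) : ↥(mgvV hπ₀ ιC₀ hq hqM true))) ∧
      (∀ k < q, tres5cIncl (M * q) y h T.z - ((k : ℕ) : ↥(tres5cL E (M * q) y)) ∈
        (S.gen.W k).nonunits) ∧
      (∀ k < q, T.W k = (S.gen.W k).comap (tres5cIncl (M * q) y h)) ∧
      (∃ k₀ < q, tres5kivW hπ (M * q) y (tres5kiv_frac hπ (M * q) y S.htop hfracY) = S.gen.W k₀ ∧
        T.W k₀ = (tres5kivW hπ (M * q) y (tres5kiv_frac hπ (M * q) y S.htop hfracY)).comap
          (tres5cIncl (M * q) y h)) ∧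
      (∀ f : ↥(tres5cL (beta0Field A) (M * q) y),
        tres5cIncl (M * q) y h (ρK f) = S.deck (tres5cIncl (M * q) y h f)) ∧
      (∀ k < q, (T.W k).comap
        (ρK : ↥(tres5cL (beta0Field A) (M * q) y) →+* ↥(tres5cL (beta0Field A) (M * q) y))
          = T.W ((k + 1) % q)) ∧
      Module.finrank ↥(modularFunctionFieldFullC ↥(beta0Field A) (M * q))
        ↥(tres5cL (beta0Field A) (M * q) y) = q ∧
      IntermediateField.adjoin ↥(modularFunctionFieldFullC ↥E (M * q))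
        {tres5cIncl (M * q) y h T.z} = ⊤ :=
  tres5kiv_descend hπ₀ hπ ιC₀ ιC hq hqM hA h y (tres5ff_hstabI_cyclo hw hy hle htor) hE hfin S
    hfracY (tres5ff_hρG_cyclo hq hA h hw hy hle htor S hSy hSζ)

end Main

end Fermat.Agent.R38

end
end ZBR38_019_9

/-! ### bundled: `Fermat.Agent.R38.TresBigInstT` -/
section ZBR38_019_10

/-!
# ROW 38, TRES, piece FAC-BIG (helper16), part 5: THE `T`-INSTANCE at `V_∞`

helper29 / helper53's K-FORM descent at `V_∞` (`tres5ff_kiv_descend_cyclo`, `tres5kiv_descend`)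
with ALL its inputs over the big field `E = mgcE A K₁ = ℚ̄^I K₁` discharged:

* `S`, `hSy`, `hSζ` : FAC-BIG instance (`tres5biv_frame`, `tres5bivKum`, `R38/TresBigInstV.lean`);
* `hfracY` : helper24's `tres5g_hfracY_of_shape` at the cusp `𝔫_∞ = tres5gcInf` of the chart
  `1 / j` (`tres5bit_hfracY`);
* `hE`, `hfin` : `tres5ff_mgcE_stable`, `tres5ff_mgcE_finite` (helper29).

* `tres5bit_descend` : for a Kummer function `w₀` of a toric class `z₀` (`τ z₀ = χ(τ) z₀` on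
  inertia), `y ^ q = w₀`, with the four facts (IN) at the frame level `M q` (`q ∣ div w₀`, `w₀`
  split, `w₀` not a `q`-th power): there is a number field `K₀` such that over every number field
  `K₁ ⊇ K₀`, Galois over `ℚ`, for all uniformizers `π` of `A ∩ E`, `π₀` of `A ∩ K`, all
  `ιC`, `ιC₀` and every primitive `q`-th root of unity `ζ ∈ A ∩ E`:
  the split Kummer datum `S` of `L_E / F_{Mq}(E)` at `V_∞`, and the descended split generator
  `T : Tres5Gen F_K L_K V_∞ q` with the nine conclusions of `tres5kiv_descend`; moreover the model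
  `u₀ = S.w` has the Kummer shape at every closed point of both `E`-charts.
* `tres5bit_exists` : such `K₁` and `ζ` exist (above any given number field).
-/

set_option autoImplicit false
set_option linter.style.haveILetI false
set_option linter.unusedSectionVars false
set_option linter.unusedVariables false

noncomputable section

namespace Fermat.Agent.R38

open ModularCurve AlgebraicCurve Fermat.Agent.ES Fermat.Agent.ES.G2 Fermat.Agent.INJ
open Fermat.Agent.UNIP Fermat.Agent.STB Fermat.Agent.S33 IntermediateField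

section Frac

variable {A : ValuationSubring Qb} {K₁ : IntermediateField ℚ Qb} {q M : ℕ} [NeZero q] [NeZero M]
  [NeZero (M * q)]
  [IsDiscreteValuationRing ↥(mgcA A K₁)] {π : ↥(mgcA A K₁)} (hπ : Irreducible π)
  (hq : q.Prime) (hA : A.LiesOverPrime q)
  {ζ : ↥(mgcA A K₁)} (hζ : IsPrimitiveRoot ζ q)
  {y : LaurentSeries NfQb} {u₀ : ↥(mgcF A K₁ (M * q))}

include hπ hq hA hζ in
/-- **`hfracY`** for every `q`-th root `Y ∈ L_E` of `u₀`, from the Kummer shape of `u₀` at the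
cusp `𝔫_∞` of the chart `1 / j`. -/
theorem tres5bit_hfracY
    (hpt : ∃ g : ↥(mgcF A K₁ (M * q)), g ≠ 0 ∧
      ∃ y' ∈ atO π (mgcT A K₁ (M * q)) (Sum.inr (tres5gcInf (K₀ := mgcE A K₁) hπ (M * q))),
        u₀ / g ^ q - 1 =
          (algebraMap ↥(mgcA A K₁) ↥(mgcF A K₁ (M * q)) ζ - 1) ^ q *
            algebraMap ↥(mgcA A K₁) ↥(mgcF A K₁ (M * q)) π * y')
    {Y : ↥(tres5cL (mgcE A K₁) (M * q) y)}
    (hY : Y ^ q = algebraMap ↥(mgcF A K₁ (M * q)) ↥(tres5cL (mgcE A K₁) (M * q) y) u₀) :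
    VtFrac (algebraMap ↥(mgcA A K₁) ↥(mgcE A K₁)) (Y : LaurentSeries ↥(mgcE A K₁)) := by
  have hpA : ((q : ℕ) : ↥(mgcA A K₁)) ∈ IsLocalRing.maximalIdeal ↥(mgcA A K₁) := by
    rw [hπ.maximalIdeal_eq]
    exact Ideal.mem_span_singleton.2 (wmg_dvd_p hπ hA)
  have hlam : ζ - 1 ∈ IsLocalRing.maximalIdeal ↥(mgcA A K₁) := by
    rw [hπ.maximalIdeal_eq]
    exact Ideal.mem_span_singleton.2 (wtop_hlam hπ hq hA hζ.pow_eq_one)
  exact tres5g_hfracY_of_shape hπ hq hpA hζ hlam (tres5g_shape_of_pt hπ hpt)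
    (tres5kivEmb (E := mgcE A K₁) (M * q) y) (fun a => rfl) hY

end Frac

section Main

variable {q M : ℕ} [NeZero q] [NeZero M] [NeZero (M * q)]

set_option synthInstance.maxHeartbeats 400000 in
set_option maxHeartbeats 1600000 in
/-- **THE `T`-INSTANCE at `V_∞`.**  The K-FORM descent of the cover `F′ = F̄_{Mq}(y)`,
`y ^ q = w₀`, at `V_∞`, all inputs over the big field discharged. -/
theorem tres5bit_descend [Fact q.Prime] (hq : q.Prime) (hqM : ¬ q ∣ M) (hq3 : 3 ≤ q)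
    (h3 : q = 3 → 2 ∣ M) (A : ValuationSubring Qb) (hA : A.LiesOverPrime q)
    {N : ℕ} [NeZero N] {z₀ : JZero N} {w₀ : modularFunctionFieldBar N}
    (hw : KummerRel q z₀ w₀) {y : LaurentSeries NfQb}
    (hy : y ^ q = (w₀ : LaurentSeries NfQb))
    (hle : modularFunctionFieldBar N ≤ modularFunctionFieldBar (M * q))
    (htor : ∀ τ ∈ A.inertiaSubgroupIn ℚ, τ • z₀ = ExtCitation.cycloExp q τ • z₀)
    (hdiv : ∀ P : Place Qb (modularFunctionFieldBar (M * q)),
      (q : ℤ) ∣ P.ord (⟨(w₀ : LaurentSeries NfQb), hle w₀.2⟩ : modularFunctionFieldBar (M * q)))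
    (hsplit : IsSplitFn hq hqM A
      (⟨(w₀ : LaurentSeries NfQb), hle w₀.2⟩ : modularFunctionFieldBar (M * q)))
    (hnp : ∀ c : ↥(modularFunctionFieldBar (M * q)),
      c ^ q ≠ (⟨(w₀ : LaurentSeries NfQb), hle w₀.2⟩ : modularFunctionFieldBar (M * q))) :
    ∃ K₀ : IntermediateField ℚ Qb, FiniteDimensional ℚ K₀ ∧
      ∀ (K₁ : IntermediateField ℚ Qb), K₀ ≤ K₁ → ∀ [NumberField K₁] [IsGalois ℚ K₁]
        [IsDiscreteValuationRing ↥(mgcA A K₁)]
        [IsDiscreteValuationRing ↥(beta0Ring A (beta0Field A))]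
        {π : ↥(mgcA A K₁)} (hπ : Irreducible π)
        {π₀ : ↥(beta0Ring A (beta0Field A))} (hπ₀ : Irreducible π₀)
        (ιC : ↥(mgcE A K₁) →+* ℂ) (ιC₀ : ↥(beta0Field A) →+* ℂ)
        {ζ : ↥(mgcA A K₁)}, IsPrimitiveRoot ζ q →
        ∃ (u₀ : ↥(mgcF A K₁ (M * q))) (yE : LaurentSeries ↥(mgcE A K₁))
          (hyE : coeffMap (algebraMap ↥(mgcE A K₁) NfQb) yE = y)
          (S : Tres5Kum ↥(mgcF A K₁ (M * q)) ↥(tres5cL (mgcE A K₁) (M * q) y)
            (mgvV hπ ιC hq hqM true) q)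
          (hfracY : VtFrac (algebraMap ↥(mgcA A K₁) ↥(mgcE A K₁))
            ((S.y : ↥(tres5cL (mgcE A K₁) (M * q) y)) : LaurentSeries ↥(mgcE A K₁)))
          (T : Tres5Gen ↥(modularFunctionFieldFullC ↥(beta0Field A) (M * q))
            ↥(tres5cL (beta0Field A) (M * q) y) (mgvV hπ₀ ιC₀ hq hqM true) q)
          (ρK : ↥(tres5cL (beta0Field A) (M * q) y) →ₐ[↥(modularFunctionFieldFullC
            ↥(beta0Field A) (M * q))] ↥(tres5cL (beta0Field A) (M * q) y)),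
          -- the Kummer datum over `E`
          (((nfEmb (mgcE A K₁) (M * q) u₀ : modularFunctionFieldBar (M * q)) :
              LaurentSeries NfQb) = (w₀ : LaurentSeries NfQb) ∧
            yE ^ q = (u₀ : LaurentSeries ↥(mgcE A K₁)) ∧
            (∀ a : ↥(mgcF A K₁ (M * q)), a ^ q ≠ u₀) ∧
            S.ζ = algebraMap ↥(mgcA A K₁) ↥(mgcF A K₁ (M * q)) ζ ∧
            S.π = algebraMap ↥(mgcA A K₁) ↥(mgcF A K₁ (M * q)) π ∧
            S.w = u₀ ∧
            S.y = tres5cGenL (mgcE A K₁) (M * q) y hyE ∧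
            ∃ y' ∈ mgvV hπ ιC hq hqM true,
              u₀ / S.g ^ q - 1 =
                (algebraMap ↥(mgcA A K₁) ↥(mgcF A K₁ (M * q)) ζ - 1) ^ q *
                  algebraMap ↥(mgcA A K₁) ↥(mgcF A K₁ (M * q)) π * y') ∧
          -- the nine conclusions of `tres5kiv_descend`
          (T.π = algebraMap ↥(beta0Ring A (beta0Field A))
              ↥(modularFunctionFieldFullC ↥(beta0Field A) (M * q)) π₀ ∧
            (∀ k, T.c k = ((k : ℕ) : ↥(mgvV hπ₀ ιC₀ hq hqM true))) ∧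
            (∀ k < q, tres5cIncl (M * q) y (le_sup_left : beta0Field A ≤ mgcE A K₁) T.z -
                ((k : ℕ) : ↥(tres5cL (mgcE A K₁) (M * q) y)) ∈ (S.gen.W k).nonunits) ∧
            (∀ k < q, T.W k = (S.gen.W k).comap
              (tres5cIncl (M * q) y (le_sup_left : beta0Field A ≤ mgcE A K₁))) ∧
            (∃ k₀ < q,
              tres5kivW hπ (M * q) y (tres5kiv_frac hπ (M * q) y S.htop hfracY) = S.gen.W k₀ ∧
              T.W k₀ = (tres5kivW hπ (M * q) y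
                (tres5kiv_frac hπ (M * q) y S.htop hfracY)).comap
                  (tres5cIncl (M * q) y (le_sup_left : beta0Field A ≤ mgcE A K₁))) ∧
            (∀ f : ↥(tres5cL (beta0Field A) (M * q) y),
              tres5cIncl (M * q) y (le_sup_left : beta0Field A ≤ mgcE A K₁) (ρK f) =
                S.deck (tres5cIncl (M * q) y (le_sup_left : beta0Field A ≤ mgcE A K₁) f)) ∧
            (∀ k < q, (T.W k).comap
              (ρK : ↥(tres5cL (beta0Field A) (M * q) y) →+*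
                ↥(tres5cL (beta0Field A) (M * q) y)) = T.W ((k + 1) % q)) ∧
            Module.finrank ↥(modularFunctionFieldFullC ↥(beta0Field A) (M * q))
              ↥(tres5cL (beta0Field A) (M * q) y) = q ∧
            IntermediateField.adjoin ↥(mgcF A K₁ (M * q))
              {tres5cIncl (M * q) y (le_sup_left : beta0Field A ≤ mgcE A K₁) T.z} = ⊤) ∧
          -- the Kummer shape of the SAME model at the closed points of both charts
          (∀ i, ∃ g : ↥(mgcF A K₁ (M * q)), g ≠ 0 ∧ ∃ y' ∈ atO π (mgcT A K₁ (M * q)) i,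
            u₀ / g ^ q - 1 =
              (algebraMap ↥(mgcA A K₁) ↥(mgcF A K₁ (M * q)) ζ - 1) ^ q *
                algebraMap ↥(mgcA A K₁) ↥(mgcF A K₁ (M * q)) π * y') := by
  have hu : (⟨(w₀ : LaurentSeries NfQb), hle w₀.2⟩ : modularFunctionFieldBar (M * q)) ≠ 0 := by
    intro h0
    have h1 : (w₀ : LaurentSeries NfQb) = 0 :=
      congrArg (fun z : modularFunctionFieldBar (M * q) => (z : LaurentSeries NfQb)) h0
    exact hw.ne_zero (Subtype.ext h1)
  obtain ⟨K₀, hK₀, hfr⟩ := tres5biv_frame hq hqM hq3 h3 A hA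
    (⟨(w₀ : LaurentSeries NfQb), hle w₀.2⟩ : modularFunctionFieldBar (M * q)) hu hdiv hsplit
    (y := y) hy
  refine ⟨K₀, hK₀, fun K₁ hK₁ _ _ _ _ π hπ π₀ hπ₀ ιC ιC₀ ζ hζ => ?_⟩
  obtain ⟨u₀, yE, hu₀, hyE, hyu, hv, hpt⟩ := hfr K₁ hK₁ hπ hζ
  have hw' : ∀ a : ↥(mgcF A K₁ (M * q)), a ^ q ≠ u₀ :=
    tres5c_hw_of_bar (mgcE A K₁) (M * q) (by rw [hu₀]; exact hnp)
  obtain ⟨g, hg, y', hy', hs⟩ := hv ιC true
  have hfracY : VtFrac (algebraMap ↥(mgcA A K₁) ↥(mgcE A K₁))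
      (((tres5bivKum hπ ιC hq hqM hζ true hyE hyu hg hy' hs hw').y :
        ↥(tres5cL (mgcE A K₁) (M * q) y)) : LaurentSeries ↥(mgcE A K₁)) :=
    tres5bit_hfracY hπ hq hA hζ (hpt (Sum.inr (tres5gcInf (K₀ := mgcE A K₁) hπ (M * q))))
      (tres5bivKum hπ ιC hq hqM hζ true hyE hyu hg hy' hs hw').hy
  obtain ⟨T, ρK, hT⟩ := tres5ff_kiv_descend_cyclo hπ₀ hπ ιC₀ ιC hq hqM hA
    (le_sup_left : beta0Field A ≤ mgcE A K₁) hw hy hle htor (tres5ff_mgcE_stable K₁)
    (tres5ff_mgcE_finite K₁ hq hA) (tres5bivKum hπ ιC hq hqM hζ true hyE hyu hg hy' hs hw')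
    hyE (tres5bivKum_coeffMap_ζ hπ ιC hq hqM hζ true hyE hyu hg hy' hs hw') hfracY
  exact ⟨u₀, yE, hyE, tres5bivKum hπ ιC hq hqM hζ true hyE hyu hg hy' hs hw', hfracY, T, ρK,
    ⟨congrArg Subtype.val hu₀, hyu, hw', rfl, rfl, rfl, rfl, y', hy', hs⟩, hT, hpt⟩

end Main

section Exists

variable {q : ℕ}

/-- **The big field exists**: above every number field `Kz` there is a number field `K₁`,
Galois over `ℚ`, with a primitive `q`-th root of unity `ζ ∈ A ∩ E`, `E = mgcE A K₁`; `A ∩ E` and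
`A ∩ K` are discrete valuation rings. -/
theorem tres5bit_exists (hq : q.Prime) (A : ValuationSubring Qb) (hA : A.LiesOverPrime q)
    (Kz : IntermediateField ℚ Qb) (hKz : FiniteDimensional ℚ Kz) :
    ∃ (K₁ : IntermediateField ℚ Qb) (_ : NumberField K₁) (_ : IsGalois ℚ K₁)
      (_ : IsDiscreteValuationRing ↥(mgcA A K₁))
      (_ : IsDiscreteValuationRing ↥(beta0Ring A (beta0Field A)))
      (ζ : ↥(mgcA A K₁)), Kz ≤ K₁ ∧ IsPrimitiveRoot ζ q := by
  classical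
  haveI := Fermat.Agent.Common.isAlgClosure_rat_qbar
  haveI : NeZero ((q : ℕ) : Qb) := ⟨Nat.cast_ne_zero.mpr hq.ne_zero⟩
  obtain ⟨ζ', hζ'⟩ : ∃ ζ' : Qb, IsPrimitiveRoot ζ' q :=
    HasEnoughRootsOfUnity.exists_primitiveRoot Qb q
  have hζint : IsIntegral ℚ ζ' := (AlgebraicClosure.isAlgebraic ℚ).isIntegral.isIntegral ζ'
  haveI : FiniteDimensional ℚ (IntermediateField.adjoin ℚ {ζ'}) :=
    IntermediateField.adjoin.finiteDimensional hζint
  haveI := hKz
  set K₃ : IntermediateField ℚ Qb := Kz ⊔ IntermediateField.adjoin ℚ {ζ'} with hK₃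
  haveI hK₃fin : FiniteDimensional ℚ K₃ := IntermediateField.finiteDimensional_sup _ _
  set K₁ : IntermediateField ℚ Qb := IntermediateField.normalClosure ℚ K₃ Qb with hK₁
  have hle : K₃ ≤ K₁ := IntermediateField.le_normalClosure K₃
  haveI hK₁fin : FiniteDimensional ℚ K₁ := normalClosure.is_finiteDimensional ℚ K₃ Qb
  haveI : Normal ℚ K₁ := normalClosure.normal ℚ K₃ Qb
  have hgal : IsGalois ℚ K₁ := IsGalois.mk
  have hnf : NumberField K₁ := @NumberField.mk _ _ inferInstance hK₁fin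
  have hζK : ζ' ∈ mgcE A K₁ :=
    (le_sup_right : K₁ ≤ mgcE A K₁)
      (hle ((le_sup_right : IntermediateField.adjoin ℚ {ζ'} ≤ K₃)
        (IntermediateField.mem_adjoin_simple_self ℚ ζ')))
  exact ⟨K₁, hnf, hgal, beta0Ring_isDVR_sup K₁ hq hA, beta0Ring_isDVR_base hq hA,
    wmgZeta (A := A) hq.ne_zero hζ'.pow_eq_one hζK, le_sup_left.trans hle,
    wmg_zeta_prim hq hζ' hζK⟩

end Exists

end Fermat.Agent.R38

end


end ZBR38_019_10

/-! ### bundled: `Fermat.Agent.R38.TresBigInstInD` -/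
section ZBR38_019_11

/-!
# ROW 38, TRES, piece FAC-BIG (helper16), part 6: input (IN d) of the instance — a Kummer function
of a nonzero class is not an `m`-th power at the rigid level

The frame of the K-FORM descent lives at the rigid level `N′ = lcm (M, 4) · p = 2 ^ a · (M p)`;
the Kummer function `w₀` of `z₀ ∈ J₀(M p)` lives at level `N = M p`.

* `tres5bind_psi_pow_two` : `ψ (2 ^ a X) = c ψ (X)` with `c ∣ 6 ^ a`;
* `tres5bind_relfinrank_bar` : `ψ (N) · [F̄_{N′} : F̄_N] = ψ (N′)` for `N ∣ N′` (Igusa + tower law);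
* `tres5bind_descent` : for `N′ = 2 ^ a N` and `gcd (6, m) = 1`, an element of `F̄_N` which is an
  `m`-th power in `F̄_{N′}` is an `m`-th power in `F̄_N` (norm descent);
* `tres5bind_hw` : **(IN d)** a Kummer function `w₀` (exponent `m`, `gcd (6, m) = 1`) of a nonzero
  class `z₀ ∈ J₀(N)` is not an `m`-th power in `F̄_{N′}`, `N′ = 2 ^ a N`;
* `tres5bind_hw_lcm_four` : the same at `N = M p`, `N′ = lcm (M, 4) · p`, `m = p ≥ 5` prime
  (= the hypothesis `hnp` of `tres5bit_descend`, `hw` of `tres5biv_kum`).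
-/

set_option autoImplicit false
set_option linter.style.haveILetI false
set_option linter.unusedSectionVars false
set_option linter.unusedVariables false

noncomputable section

namespace Fermat.Agent.R38

open ModularCurve AlgebraicCurve IntermediateField Fermat.Agent.ES Fermat.Agent.ES.G2
  Fermat.Agent.INJ Fermat.Agent.UNIP

section Psi

theorem tres5bind_psi_pow_two (a X : ℕ) (hX : X ≠ 0) :
    ∃ c : ℕ, c ∣ 6 ^ a ∧ dedekindPsi (2 ^ a * X) = c * dedekindPsi X := by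
  induction a with
  | zero => exact ⟨1, by simp, by simp⟩
  | succ a ih =>
    obtain ⟨c, hc, h⟩ := ih
    have e : 2 ^ (a + 1) * X = 2 * (2 ^ a * X) := by ring
    have hX' : 2 ^ a * X ≠ 0 := mul_ne_zero (pow_ne_zero _ two_ne_zero) hX
    have e6 : (6 : ℕ) ^ (a + 1) = 6 * 6 ^ a := by ring
    by_cases hd : 2 ∣ 2 ^ a * X
    · refine ⟨2 * c, ?_, ?_⟩
      · rw [e6]
        exact Nat.mul_dvd_mul (by norm_num) hc
      · rw [e, Fermat.Agent.S28.UB.psi_mul_of_dvd Nat.prime_two hd hX', h, mul_assoc]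
    · refine ⟨3 * c, ?_, ?_⟩
      · rw [e6]
        exact Nat.mul_dvd_mul (by norm_num) hc
      · rw [e, Fermat.Agent.S28.UB.psi_mul_of_not_dvd Nat.prime_two hd, h, mul_assoc]

end Psi

section Degree

/-- Igusa + tower law over any field of characteristic `0` -/
theorem tres5bind_relfinrank_mul (K : Type*) [Field K] [CharZero K] {N N' : ℕ} [NeZero N]
    [NeZero N'] (h : N ∣ N') :
    dedekindPsi N *
      (modularFunctionFieldFullC K N).relfinrank (modularFunctionFieldFullC K N') =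
        dedekindPsi N' := by
  have hN : ((N : ℕ) : K) ≠ 0 := Nat.cast_ne_zero.mpr (NeZero.ne N)
  have hN' : ((N' : ℕ) : K) ≠ 0 := Nat.cast_ne_zero.mpr (NeZero.ne N')
  have h1 := Fermat.Agent.S28.relfinrank_full_eq_dedekindPsi K N hN
  have h2 := Fermat.Agent.S28.relfinrank_full_eq_dedekindPsi K N' hN'
  have hle1 : adjoin K {jqModC K} ≤ modularFunctionFieldFullC K N :=
    Fermat.Agent.S28.UB.K0_le_full K N
  have h3 := relfinrank_mul_relfinrank hle1 (Fermat.Agent.S28.UB.full_mono K h)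
  rw [h1, h2] at h3
  exact h3

/-- Igusa + tower law for `F̄_N ≤ F̄_{N′}` -/
theorem tres5bind_relfinrank_bar {N N' : ℕ} [NeZero N] [NeZero N'] (h : N ∣ N') :
    dedekindPsi N *
      (modularFunctionFieldBar N).relfinrank (modularFunctionFieldBar N') =
        dedekindPsi N' := by
  show dedekindPsi N *
    (laurentBaseChange (AlgebraicClosure ℚ) (modularFunctionFieldFull N)).relfinrank
      (laurentBaseChange (AlgebraicClosure ℚ) (modularFunctionFieldFull N')) = _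
  rw [hdeg_laurentBaseChange_full, hdeg_laurentBaseChange_full]
  exact tres5bind_relfinrank_mul (AlgebraicClosure ℚ) h

/-- the degree of `F̄_{2^a N} / F̄_N` divides `6 ^ a` -/
theorem tres5bind_relfinrank_dvd {N N' : ℕ} [NeZero N] [NeZero N'] (a : ℕ)
    (hN' : N' = 2 ^ a * N) :
    (modularFunctionFieldBar N).relfinrank (modularFunctionFieldBar N') ∣ 6 ^ a := by
  obtain ⟨c, hc, hψ⟩ := tres5bind_psi_pow_two a N (NeZero.ne N)
  have hdvd : N ∣ N' := hN' ▸ Dvd.intro_left _ rfl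
  have h1 := tres5bind_relfinrank_bar hdvd
  have hψ0 : dedekindPsi N ≠ 0 := tresrig_psi_ne_zero (NeZero.ne N)
  have h2 : dedekindPsi N *
      (modularFunctionFieldBar N).relfinrank (modularFunctionFieldBar N') =
        dedekindPsi N * c := by
    rw [h1, hN', hψ, Nat.mul_comm]
  rw [Nat.eq_of_mul_eq_mul_left (Nat.pos_of_ne_zero hψ0) h2]
  exact hc

end Degree

section Descent

/-- **norm descent along `F̄_N ≤ F̄_{2^a N}`** for exponents prime to `6` -/
theorem tres5bind_descent {N N' : ℕ} [NeZero N] [NeZero N'] (a : ℕ) (hN' : N' = 2 ^ a * N)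
    {m : ℕ} (hm : Nat.Coprime 6 m)
    (hle : modularFunctionFieldBar N ≤ modularFunctionFieldBar N')
    (w h' : LaurentSeries Qb) (hw : w ∈ modularFunctionFieldBar N)
    (hh : h' ∈ modularFunctionFieldBar N') (hwh : w = h' ^ m) :
    ∃ g ∈ modularFunctionFieldBar N, w = g ^ m := by
  have hdvd := tres5bind_relfinrank_dvd (N := N) (N' := N') a hN'
  have h0 : (modularFunctionFieldBar N).relfinrank (modularFunctionFieldBar N') ≠ 0 := by
    intro h
    rw [h, zero_dvd_iff] at hdvd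
    exact absurd hdvd (pow_ne_zero a (by norm_num))
  have hcop : Nat.Coprime
      ((modularFunctionFieldBar N).relfinrank (modularFunctionFieldBar N')) m :=
    Nat.Coprime.coprime_dvd_left hdvd (Nat.Coprime.pow_left a hm)
  exact unip_descent_generic hle h0 hcop w h' hw hh hwh

variable {N N' : ℕ} [NeZero N] [NeZero N']

/-- **(IN d)** a Kummer function of a nonzero class of `J₀(N)` is not an `m`-th power at the
level `N′ = 2 ^ a N` (`gcd (6, m) = 1`). -/
theorem tres5bind_hw (a : ℕ) (hN' : N' = 2 ^ a * N) {m : ℕ} (hm : Nat.Coprime 6 m)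
    (hm0 : m ≠ 0) {z₀ : JZero N} {w₀ : modularFunctionFieldBar N} (hw : KummerRel m z₀ w₀)
    (hz : z₀ ≠ 0) (hle : modularFunctionFieldBar N ≤ modularFunctionFieldBar N') :
    ∀ c : ↥(modularFunctionFieldBar N'),
      c ^ m ≠ (⟨(w₀ : LaurentSeries Qb), hle w₀.2⟩ : modularFunctionFieldBar N') := by
  intro c hc
  have h1 : (w₀ : LaurentSeries Qb) = (c : LaurentSeries Qb) ^ m := by
    have h2 := congrArg (fun z : modularFunctionFieldBar N' => (z : LaurentSeries Qb)) hc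
    exact h2.symm
  obtain ⟨g, hg, hwg⟩ := tres5bind_descent a hN' hm hle _ _ w₀.2 c.2 h1
  exact tresdesc_not_pow hm0 hw hz ⟨g, hg⟩ (Subtype.ext hwg.symm)

end Descent

section LcmFour

variable {M p : ℕ} [NeZero M] [NeZero p] [NeZero (M * p)] [NeZero (Nat.lcm M 4 * p)]

theorem tres5bind_lcm_four_eq (M p : ℕ) : ∃ a : ℕ, Nat.lcm M 4 * p = 2 ^ a * (M * p) := by
  obtain ⟨a, ha⟩ := tresrig_lcm_four M
  refine ⟨a, ?_⟩
  rw [ha]
  ring

/-- `F̄_{Mp} ≤ F̄_{lcm(M,4) p}` -/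
theorem tres5bind_bar_le (M p : ℕ) :
    modularFunctionFieldBar (M * p) ≤ modularFunctionFieldBar (Nat.lcm M 4 * p) := by
  show laurentBaseChange (AlgebraicClosure ℚ) (modularFunctionFieldFull (M * p)) ≤
    laurentBaseChange (AlgebraicClosure ℚ) (modularFunctionFieldFull (Nat.lcm M 4 * p))
  rw [hdeg_laurentBaseChange_full, hdeg_laurentBaseChange_full]
  exact Fermat.Agent.S28.UB.full_mono (AlgebraicClosure ℚ)
    (Nat.mul_dvd_mul_right (Nat.dvd_lcm_left M 4) p)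

/-- **(IN d) at the rigid level `lcm (M, 4) · p`**, `p ≥ 5` prime. -/
theorem tres5bind_hw_lcm_four (hp : p.Prime) (hp5 : 5 ≤ p) {z₀ : JZero (M * p)}
    {w₀ : modularFunctionFieldBar (M * p)} (hw : KummerRel p z₀ w₀) (hz : z₀ ≠ 0)
    (hle : modularFunctionFieldBar (M * p) ≤ modularFunctionFieldBar (Nat.lcm M 4 * p)) :
    ∀ c : ↥(modularFunctionFieldBar (Nat.lcm M 4 * p)),
      c ^ p ≠ (⟨(w₀ : LaurentSeries Qb), hle w₀.2⟩ :
        modularFunctionFieldBar (Nat.lcm M 4 * p)) := by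
  obtain ⟨a, ha⟩ := tres5bind_lcm_four_eq M p
  have hcop : Nat.Coprime 6 p := by
    have h2 : Nat.Coprime 2 p := (Nat.coprime_primes Nat.prime_two hp).mpr (by omega)
    have h3 : Nat.Coprime 3 p := (Nat.coprime_primes Nat.prime_three hp).mpr (by omega)
    have : (6 : ℕ) = 2 * 3 := by norm_num
    rw [this]
    exact Nat.Coprime.mul_left h2 h3
  exact tres5bind_hw a ha hcop hp.ne_zero hw hz hle

end LcmFour

end Fermat.Agent.R38

end


end ZBR38_019_11

/-! ### bundled: `Fermat.Agent.R38.TresMonoTopC0` -/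
section ZBR38_019_12

/-!
# ROW 38, TRES, the cover block (β): the inputs `hρG`, `hBig` of the K-FORM (B) instance
(Layer 3, both charts) from the OUTPUT clauses of `tres5bit_descend` (helper47)

Frame of helper16's `tres5bit_descend` (`R38/TresBigInstT.lean`): `A ⊂ ℚ̄` over `q`,
`K = beta0Field A = ℚ̄^I`, `E = mgcE A K₁ = K · K₁`, `S : Tres5Kum F_E L_E V_∞ q` the Kummer datum
over the big field, `L_E = tres5cL E (M q) y`, `L_K = tres5cL K (M q) y`.

* `tresmtc_hρG`        : `S.deck` commutes with `Gal(E / K)` (`tres5ff_hρG_cyclo`, helper29), from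
                         the clauses `S.ζ = ζ`, `S.y = tres5cGenL …` of `tres5bit_descend`;
* `tresmtc_hBig_inv`   : the split structure and the deck formula at every closed point of the
                         `E`-chart `1 / j` (helper13's `tres5bipi_split_kum`), from the shape clause;
* `tresmtc_hBig_j`     : the same at the `E`-chart `j`.
-/

set_option autoImplicit false
set_option linter.style.haveILetI false
set_option linter.unusedSectionVars false
set_option linter.unusedVariables false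
set_option linter.style.longLine false
set_option synthInstance.maxHeartbeats 400000
set_option maxHeartbeats 1600000

/- the algebra structure of a subring `O ⊆ F` on an extension of `F`: found first (the default
search is slow in the concrete frame; the instance found is the same). -/
attribute [local instance 100000] Algebra.ofSubsemiring

noncomputable section

namespace Fermat.Agent.R38

open ModularCurve AlgebraicCurve IntermediateField Polynomial Fermat.Agent.INJ Fermat.Agent.UNIP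
  Fermat.Agent.STB Fermat.Agent.ES Fermat.Agent.ES.G2 Fermat.Agent.S33 Fermat.Agent.RIB.MP

section Bit

variable {q M : ℕ} [NeZero q] [NeZero M] [NeZero (M * q)]
  {A : ValuationSubring Qb} {K₁ : IntermediateField ℚ Qb}
  [IsDiscreteValuationRing ↥(mgcA A K₁)]
  [IsDiscreteValuationRing ↥(beta0Ring A (beta0Field A))]
  {π : ↥(mgcA A K₁)} (hπ : Irreducible π)
  {π₀ : ↥(beta0Ring A (beta0Field A))} (hπ₀ : Irreducible π₀)
  (ιC : ↥(mgcE A K₁) →+* ℂ) (ιC₀ : ↥(beta0Field A) →+* ℂ)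
  (hq : q.Prime) (hqM : ¬ q ∣ M) (hA : A.LiesOverPrime q)
  {y : LaurentSeries NfQb}

/-- `hSζ` of the consumers from the clause `S.ζ = ζ` of `tres5bit_descend` -/
theorem tresmtc_coeffMap_ζ {ζ : ↥(mgcA A K₁)}
    (S : Tres5Kum ↥(mgcF A K₁ (M * q)) ↥(tres5cL (mgcE A K₁) (M * q) y)
      (mgvV hπ ιC hq hqM true) q)
    (hSζ : S.ζ = algebraMap ↥(mgcA A K₁) ↥(mgcF A K₁ (M * q)) ζ) :
    coeffMap (algebraMap ↥(mgcE A K₁) NfQb)
      ((S.ζ : ↥(mgcF A K₁ (M * q))) : LaurentSeries ↥(mgcE A K₁)) =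
        HahnSeries.C (((ζ : ↥(mgcE A K₁)) : Qb)) := by
  rw [hSζ]
  show coeffMap (algebraMap ↥(mgcE A K₁) NfQb)
    (algebraMap ↥(mgcE A K₁) (LaurentSeries ↥(mgcE A K₁)) (ζ : ↥(mgcE A K₁))) = _
  rw [nf_coeffMap_algebraMap, algebraMap_laurentSeries_eq_single, ← HahnSeries.C_apply]
  rfl

/-- `hSy` of the consumers from the clause `S.y = tres5cGenL …` of `tres5bit_descend` -/
theorem tresmtc_coeffMap_y {yE : LaurentSeries ↥(mgcE A K₁)}
    (hyE : coeffMap (algebraMap ↥(mgcE A K₁) NfQb) yE = y)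
    (S : Tres5Kum ↥(mgcF A K₁ (M * q)) ↥(tres5cL (mgcE A K₁) (M * q) y)
      (mgvV hπ ιC hq hqM true) q)
    (hSy : S.y = tres5cGenL (mgcE A K₁) (M * q) y hyE) :
    coeffMap (algebraMap ↥(mgcE A K₁) NfQb)
      ((S.y : ↥(tres5cL (mgcE A K₁) (M * q) y)) : LaurentSeries ↥(mgcE A K₁)) = y := by
  rw [hSy]
  exact hyE

include hA in
/-- **`hρG`**: the deck transformation of the Kummer datum of `tres5bit_descend` commutes with
`Gal(E / K)`. -/
theorem tresmtc_hρG [Fact q.Prime] {N : ℕ} [NeZero N] {z₀ : JZero N}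
    {w₀ : modularFunctionFieldBar N} (hw : KummerRel q z₀ w₀)
    (hy : y ^ q = (w₀ : LaurentSeries NfQb))
    (hle : modularFunctionFieldBar N ≤ modularFunctionFieldBar (M * q))
    (htor : ∀ τ ∈ A.inertiaSubgroupIn ℚ, τ • z₀ = ExtCitation.cycloExp q τ • z₀)
    {ζ : ↥(mgcA A K₁)} {yE : LaurentSeries ↥(mgcE A K₁)}
    (hyE : coeffMap (algebraMap ↥(mgcE A K₁) NfQb) yE = y)
    (S : Tres5Kum ↥(mgcF A K₁ (M * q)) ↥(tres5cL (mgcE A K₁) (M * q) y)
      (mgvV hπ ιC hq hqM true) q)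
    (hSζ : S.ζ = algebraMap ↥(mgcA A K₁) ↥(mgcF A K₁ (M * q)) ζ)
    (hSy : S.y = tres5cGenL (mgcE A K₁) (M * q) y hyE) :
    letI := beta0FieldAlgebra (le_sup_left : beta0Field A ≤ mgcE A K₁)
    letI := tres5ffAct hq hA (le_sup_left : beta0Field A ≤ mgcE A K₁) (M * q) y
      (tres5ff_hstabI_cyclo hw hy hle htor)
    ∀ (g : ↥(mgcE A K₁) ≃ₐ[↥(beta0Field A)] ↥(mgcE A K₁))
      (x : ↥(tres5cL (mgcE A K₁) (M * q) y)), S.deck (g • x) = g • S.deck x :=
  tres5ff_hρG_cyclo hq hA (le_sup_left : beta0Field A ≤ mgcE A K₁) hw hy hle htor S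
    (tresmtc_coeffMap_y hπ ιC hq hqM hyE S hSy) (tresmtc_coeffMap_ζ hπ ιC hq hqM S hSζ)

include hA in
/-- **`hBig` at the chart `1 / j`**: the split structure and the deck formula at every closed
point of the `E`-chart `1 / j`, from the shape clause of `tres5bit_descend`. -/
theorem tresmtc_hBig_inv [Fact q.Prime] {ζ : ↥(mgcA A K₁)} (hζ : IsPrimitiveRoot ζ q)
    {u₀ : ↥(mgcF A K₁ (M * q))}
    (S : Tres5Kum ↥(mgcF A K₁ (M * q)) ↥(tres5cL (mgcE A K₁) (M * q) y)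
      (mgvV hπ ιC hq hqM true) q)
    (hSζ : S.ζ = algebraMap ↥(mgcA A K₁) ↥(mgcF A K₁ (M * q)) ζ)
    (hSw : S.w = u₀)
    (hpt : ∀ i, ∃ g : ↥(mgcF A K₁ (M * q)), g ≠ 0 ∧ ∃ y' ∈ atO π (mgcT A K₁ (M * q)) i,
      u₀ / g ^ q - 1 =
        (algebraMap ↥(mgcA A K₁) ↥(mgcF A K₁ (M * q)) ζ - 1) ^ q *
          algebraMap ↥(mgcA A K₁) ↥(mgcF A K₁ (M * q)) π * y')
    (𝔫E : AtPt (F := ↥(mgcF A K₁ (M * q))) π (bgJ ↥(mgcE A K₁) (M * q))⁻¹)
    [IsLocalRing ↥(atLoc 𝔫E)] [IsFractionRing ↥(atLoc 𝔫E) ↥(mgcF A K₁ (M * q))]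
    [IsIntegrallyClosed ↥(atLoc 𝔫E)] [Algebra ↥(atLoc 𝔫E) ↥(tres5cL (mgcE A K₁) (M * q) y)]
    [IsScalarTower ↥(atLoc 𝔫E) ↥(mgcF A K₁ (M * q)) ↥(tres5cL (mgcE A K₁) (M * q) y)] :
    ∃ (z : ↥(tres5cL (mgcE A K₁) (M * q) y)) (P : (↥(atLoc 𝔫E))[X])
      (c : ZMod q → ↥(atLoc 𝔫E)),
      Tres5eSplit ↥(mgcF A K₁ (M * q)) z P c ∧
      ∀ i : ZMod q, ∃ b ∈ tres5eMax ↥(atLoc 𝔫E) z (c i),
        S.deck z = algebraMap ↥(atLoc 𝔫E) ↥(tres5cL (mgcE A K₁) (M * q) y) (c (i + 1)) +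
          (b : ↥(tres5cL (mgcE A K₁) (M * q) y)) := by
  subst hSw
  exact tres5bipi_split_kum hπ hA hζ S hSζ hpt (t' := (bgJ ↥(mgcE A K₁) (M * q))⁻¹)
    (Or.inr rfl) 𝔫E

include hA in
/-- **`hBig` at the chart `j`**. -/
theorem tresmtc_hBig_j [Fact q.Prime] {ζ : ↥(mgcA A K₁)} (hζ : IsPrimitiveRoot ζ q)
    {u₀ : ↥(mgcF A K₁ (M * q))}
    (S : Tres5Kum ↥(mgcF A K₁ (M * q)) ↥(tres5cL (mgcE A K₁) (M * q) y)
      (mgvV hπ ιC hq hqM true) q)
    (hSζ : S.ζ = algebraMap ↥(mgcA A K₁) ↥(mgcF A K₁ (M * q)) ζ)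
    (hSw : S.w = u₀)
    (hpt : ∀ i, ∃ g : ↥(mgcF A K₁ (M * q)), g ≠ 0 ∧ ∃ y' ∈ atO π (mgcT A K₁ (M * q)) i,
      u₀ / g ^ q - 1 =
        (algebraMap ↥(mgcA A K₁) ↥(mgcF A K₁ (M * q)) ζ - 1) ^ q *
          algebraMap ↥(mgcA A K₁) ↥(mgcF A K₁ (M * q)) π * y')
    (𝔫E : AtPt (F := ↥(mgcF A K₁ (M * q))) π (bgJ ↥(mgcE A K₁) (M * q)))
    [IsLocalRing ↥(atLoc 𝔫E)] [IsFractionRing ↥(atLoc 𝔫E) ↥(mgcF A K₁ (M * q))]
    [IsIntegrallyClosed ↥(atLoc 𝔫E)] [Algebra ↥(atLoc 𝔫E) ↥(tres5cL (mgcE A K₁) (M * q) y)]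
    [IsScalarTower ↥(atLoc 𝔫E) ↥(mgcF A K₁ (M * q)) ↥(tres5cL (mgcE A K₁) (M * q) y)] :
    ∃ (z : ↥(tres5cL (mgcE A K₁) (M * q) y)) (P : (↥(atLoc 𝔫E))[X])
      (c : ZMod q → ↥(atLoc 𝔫E)),
      Tres5eSplit ↥(mgcF A K₁ (M * q)) z P c ∧
      ∀ i : ZMod q, ∃ b ∈ tres5eMax ↥(atLoc 𝔫E) z (c i),
        S.deck z = algebraMap ↥(atLoc 𝔫E) ↥(tres5cL (mgcE A K₁) (M * q) y) (c (i + 1)) +
          (b : ↥(tres5cL (mgcE A K₁) (M * q) y)) := by
  subst hSw
  exact tres5bipi_split_kum hπ hA hζ S hSζ hpt (t' := bgJ ↥(mgcE A K₁) (M * q))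
    (Or.inl rfl) 𝔫E

end Bit

end Fermat.Agent.R38

end
end ZBR38_019_12

/-! ### bundled: `Fermat.Agent.R38.TresMonoChain` -/
section ZBR38_019_13
/-
ROW 38, TRES, piece FAC-ASM-MAIN, the cover block (β), step 4 = THE `K₁`-CHAIN (helper3, for
helper41's `R38/TresMonoTopB.lean`).

Frame: `A ⊂ ℚ̄` over `q` (residue characteristic = Kummer exponent), `K = ℚ̄^I = beta0Field A`,
frame level `M q` (`M` = the rigid level `M₁`), `F_K = F_{M q}(K)`, `L_K = tres5cL K (M q) y` the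
`K`-form of the cover `F′ = F̄_{M q}(y)`, `y ^ q = w₀`.

The chain:
  1. helper30's `tresftf_main`: the decomposition `u′ = C b · γ ^ q · coeffMap w` (`w ∈ L_K`,
     `γ ∈ F′`) is defined over `E″ = ℚ̄^I · K₁` for ONE number field `K₁`, Galois over `ℚ`,
     above any given number field (here: above the field `K₀` of helper16's `tres5bit_descend`
     and the `q`-th roots of unity);
  2. helper16's `tres5bit_descend` AT THIS `K₁`: the split Kummer datum `S` of `L_{E″} / F_{E″}`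
     at `V_∞`, `S₂ := S.gen`;
  3. helper90's `tresmw_cmp_inst` (`tresmw_cmp_below`) for `(T, S₂)`: the sheet `k`, the
     normalisation `m`, the reduction map `ρW` of `W = T.W k` and the comparison `hcmp`.

* `tresmch_field` : step 1 + 2 (the field `K₁`, the datum `S`, the transported decomposition);
* **`tresmch_main`** : hypotheses = those of `tres5bit_descend` + `T`, `hT`, `hRedF`, `hfac`,
  `hr`;  conclusion = the conclusion of `tresmw_cmp_inst` VERBATIM (`ϖ₀ := π₀`):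
  `∃ k < n, hWV ∧ ∃ m hm ρW, hρW ∧ hρWker ∧ ∃ hr′ a s, a ≠ 0 ∧ s ≠ 0 ∧ r = a · ρW (w / π₀ ^ m) · s ^ q`;
* `tresmch_below` : the same with the conclusion of `tresmw_cmp_below` VERBATIM (in terms of
  `T.π`, hypothesis `hTπ : ∃ c : K, T.π = algebraMap K F_K c`).
-/

set_option autoImplicit false
set_option linter.unusedSectionVars false
set_option linter.unusedVariables false
set_option linter.style.haveILetI false
set_option linter.style.longLine false
set_option synthInstance.maxHeartbeats 400000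
set_option maxHeartbeats 1600000

noncomputable section

namespace Fermat.Agent.R38

open ModularCurve AlgebraicCurve Fermat.Agent.ES Fermat.Agent.ES.G2 Fermat.Agent.INJ
  Fermat.Agent.UNIP Fermat.Agent.STB Fermat.Agent.ES.M Fermat.Agent.DEU Fermat.Agent.S36
  Fermat.Agent.RIB.MP Fermat.Agent.S33 IntermediateField

section Chain

variable {q M : ℕ} [NeZero q] [NeZero M] [NeZero (M * q)]

/-- **Steps 1 + 2 of the chain**: the number field `K₁` of `tresftf_main` above the field of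
`tres5bit_descend` and the `q`-th roots of unity, the split Kummer datum `S` over
`E″ = ℚ̄^I · K₁` at `V_∞`, and the decomposition transported to `L_{E″}`. -/
theorem tresmch_field [Fact q.Prime] (hq : q.Prime) (hqM : ¬ q ∣ M) (hq3 : 3 ≤ q)
    (h3 : q = 3 → 2 ∣ M) (A : ValuationSubring Qb) (hA : A.LiesOverPrime q)
    {N : ℕ} [NeZero N] {z₀ : JZero N} {w₀ : modularFunctionFieldBar N}
    (hw : KummerRel q z₀ w₀) {y : LaurentSeries NfQb}
    (hy : y ^ q = (w₀ : LaurentSeries NfQb))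
    (hle : modularFunctionFieldBar N ≤ modularFunctionFieldBar (M * q))
    (htor : ∀ τ ∈ A.inertiaSubgroupIn ℚ, τ • z₀ = ExtCitation.cycloExp q τ • z₀)
    (hdiv : ∀ P : Place Qb (modularFunctionFieldBar (M * q)),
      (q : ℤ) ∣ P.ord (⟨(w₀ : LaurentSeries NfQb), hle w₀.2⟩ : modularFunctionFieldBar (M * q)))
    (hsplit : IsSplitFn hq hqM A
      (⟨(w₀ : LaurentSeries NfQb), hle w₀.2⟩ : modularFunctionFieldBar (M * q)))
    (hnp : ∀ c : ↥(modularFunctionFieldBar (M * q)),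
      c ^ q ≠ (⟨(w₀ : LaurentSeries NfQb), hle w₀.2⟩ : modularFunctionFieldBar (M * q)))
    (Kz : IntermediateField ℚ Qb) (hKz : FiniteDimensional ℚ Kz)
    {u' : ↥(modularFunctionFieldBar (M * q))} {b : NfQb} {γ : LaurentSeries NfQb}
    (hγF : γ ∈ tres5cField (M * q) y) (w : ↥(tres5cL (beta0Field A) (M * q) y))
    (hfac : (u' : LaurentSeries NfQb) = HahnSeries.C b * γ ^ q *
      coeffMap (algebraMap ↥(beta0Field A) NfQb) (w : LaurentSeries ↥(beta0Field A))) :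
    ∃ (K₁ : IntermediateField ℚ Qb) (_ : NumberField K₁) (_ : IsGalois ℚ K₁)
      (_ : IsDiscreteValuationRing ↥(mgcA A K₁)) (π₁ : ↥(mgcA A K₁)) (hπ₁ : Irreducible π₁)
      (S : Tres5Kum ↥(mgcF A K₁ (M * q)) ↥(tres5cL (mgcE A K₁) (M * q) y)
        (mgvV hπ₁ (mgdIota (mgcE A K₁)) hq hqM true) q)
      (v : ↥(mgcF A K₁ (M * q))) (b' : ↥(mgcE A K₁))
      (g : ↥(tres5cL (mgcE A K₁) (M * q) y)),
      Kz ≤ K₁ ∧
      S.π = algebraMap ↥(mgcA A K₁) ↥(mgcF A K₁ (M * q)) π₁ ∧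
      nfEmb (mgcE A K₁) (M * q) v = u' ∧ algebraMap ↥(mgcE A K₁) NfQb b' = b ∧
      coeffMap (algebraMap ↥(mgcE A K₁) NfQb) (g : LaurentSeries ↥(mgcE A K₁)) = γ ∧
      algebraMap ↥(mgcF A K₁ (M * q)) ↥(tres5cL (mgcE A K₁) (M * q) y) v =
        algebraMap ↥(mgcF A K₁ (M * q)) ↥(tres5cL (mgcE A K₁) (M * q) y)
          (algebraMap ↥(mgcE A K₁) ↥(mgcF A K₁ (M * q)) b') * g ^ q *
          tres5cIncl (M * q) y (le_sup_left : beta0Field A ≤ mgcE A K₁) w := by
  classical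
  haveI := Fermat.Agent.Common.isAlgClosure_rat_qbar
  haveI : NeZero ((q : ℕ) : Qb) := ⟨Nat.cast_ne_zero.mpr hq.ne_zero⟩
  haveI hdvr₀ : IsDiscreteValuationRing ↥(beta0Ring A (beta0Field A)) :=
    beta0Ring_isDVR_base hq hA
  -- the field of FAC-BIG
  obtain ⟨K₀, hK₀, hbit⟩ := tres5bit_descend hq hqM hq3 h3 A hA hw hy hle htor hdiv hsplit hnp
  -- a primitive `q`-th root of unity
  obtain ⟨ζ', hζ'⟩ : ∃ ζ' : Qb, IsPrimitiveRoot ζ' q :=
    HasEnoughRootsOfUnity.exists_primitiveRoot Qb q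
  have hζint : IsIntegral ℚ ζ' := (AlgebraicClosure.isAlgebraic ℚ).isIntegral.isIntegral ζ'
  haveI : FiniteDimensional ℚ (IntermediateField.adjoin ℚ {ζ'}) :=
    IntermediateField.adjoin.finiteDimensional hζint
  haveI := hKz
  haveI := hK₀
  haveI hK₂fin : FiniteDimensional ℚ ↥(Kz ⊔ K₀) := IntermediateField.finiteDimensional_sup _ _
  haveI hK₃fin : FiniteDimensional ℚ ↥((Kz ⊔ K₀) ⊔ IntermediateField.adjoin ℚ {ζ'}) :=
    IntermediateField.finiteDimensional_sup _ _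
  -- the field of T3-FLD
  have hw0 : (w₀ : LaurentSeries NfQb) ≠ 0 := fun h0 => hw.ne_zero (Subtype.ext h0)
  have hy0 : y ≠ 0 := by
    rintro rfl
    rw [zero_pow hq.ne_zero] at hy
    exact hw0 hy.symm
  have hy' : y ^ q ∈ modularFunctionFieldBar (M * q) := by
    rw [hy]
    exact hle w₀.2
  obtain ⟨K₁, hK₁le, hK₁fin, hgal, v, b', g, hv, hb', hg, hfac'⟩ :=
    tresftf_main (N := M * q) hq.ne_zero hy0 hy' A
      ((Kz ⊔ K₀) ⊔ IntermediateField.adjoin ℚ {ζ'}) hK₃fin hγF w hfac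
  haveI := hK₁fin
  haveI := hgal
  haveI hnf : NumberField ↥K₁ := @NumberField.mk _ _ inferInstance hK₁fin
  haveI hdvr₁ : IsDiscreteValuationRing ↥(mgcA A K₁) := beta0Ring_isDVR_sup K₁ hq hA
  have hKzle : Kz ≤ K₁ := (le_sup_left.trans le_sup_left).trans hK₁le
  have hK₀le : K₀ ≤ K₁ := (le_sup_right.trans le_sup_left).trans hK₁le
  have hζK : ζ' ∈ mgcE A K₁ :=
    (le_sup_right : K₁ ≤ mgcE A K₁)
      (hK₁le ((le_sup_right : IntermediateField.adjoin ℚ {ζ'} ≤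
        (Kz ⊔ K₀) ⊔ IntermediateField.adjoin ℚ {ζ'})
        (IntermediateField.mem_adjoin_simple_self ℚ ζ')))
  obtain ⟨π₁, hπ₁⟩ := IsDiscreteValuationRing.exists_irreducible ↥(mgcA A K₁)
  obtain ⟨π₀, hπ₀⟩ := IsDiscreteValuationRing.exists_irreducible ↥(beta0Ring A (beta0Field A))
  obtain ⟨u₀, yE, hyE, S, hfracY, T₂, ρK₂, ⟨-, -, -, -, hSπ, -, -, -⟩, -, -⟩ :=
    hbit K₁ hK₀le hπ₁ hπ₀ (mgdIota (mgcE A K₁)) (mgdIota (beta0Field A))
      (wmg_zeta_prim (A := A) hq hζ' hζK)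
  exact ⟨K₁, hnf, hgal, hdvr₁, π₁, hπ₁, S, v, b', g, hKzle, hSπ, hv, hb', hg, hfac'⟩

/-- **THE `K₁`-CHAIN** (step 4 of the cover block): `ρW` and `hcmp` on a sheet of `T`, from the
hypotheses of `tres5bit_descend` and the decomposition `u′ = C b · γ ^ q · coeffMap w`.
Conclusion = the conclusion of `tresmw_cmp_inst` verbatim (`ϖ₀ := π₀`). -/
theorem tresmch_main [Fact q.Prime] (hq : q.Prime) (hqM : ¬ q ∣ M) (hq3 : 3 ≤ q)
    (h3 : q = 3 → 2 ∣ M) (A : ValuationSubring Qb) (hA : A.LiesOverPrime q)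
    {N : ℕ} [NeZero N] {z₀ : JZero N} {w₀ : modularFunctionFieldBar N}
    (hw : KummerRel q z₀ w₀) {y : LaurentSeries NfQb}
    (hy : y ^ q = (w₀ : LaurentSeries NfQb))
    (hle : modularFunctionFieldBar N ≤ modularFunctionFieldBar (M * q))
    (htor : ∀ τ ∈ A.inertiaSubgroupIn ℚ, τ • z₀ = ExtCitation.cycloExp q τ • z₀)
    (hdiv : ∀ P : Place Qb (modularFunctionFieldBar (M * q)),
      (q : ℤ) ∣ P.ord (⟨(w₀ : LaurentSeries NfQb), hle w₀.2⟩ : modularFunctionFieldBar (M * q)))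
    (hsplit : IsSplitFn hq hqM A
      (⟨(w₀ : LaurentSeries NfQb), hle w₀.2⟩ : modularFunctionFieldBar (M * q)))
    (hnp : ∀ c : ↥(modularFunctionFieldBar (M * q)),
      c ^ q ≠ (⟨(w₀ : LaurentSeries NfQb), hle w₀.2⟩ : modularFunctionFieldBar (M * q)))
    [IsDiscreteValuationRing ↥(beta0Ring A (beta0Field A))]
    {π₀ : ↥(beta0Ring A (beta0Field A))} (hπ₀ : Irreducible π₀) (ιC₀ : ↥(beta0Field A) →+* ℂ)
    (hRedF : StmtRedF M A) {n : ℕ}
    (T : Tres5Gen ↥(modularFunctionFieldFullC ↥(beta0Field A) (M * q))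
      ↥(tres5cL (beta0Field A) (M * q) y) (mgvV hπ₀ ιC₀ hq hqM true) n)
    (hT : T.π = algebraMap ↥(beta0Ring A (beta0Field A))
      ↥(modularFunctionFieldFullC ↥(beta0Field A) (M * q)) π₀)
    {u' : ↥(modularFunctionFieldBar (M * q))} (hu0 : (u' : LaurentSeries NfQb) ≠ 0)
    {b : NfQb} {γ : LaurentSeries NfQb}
    (hγF : γ ∈ tres5cField (M * q) y) (hγ : γ ≠ 0)
    {w : ↥(tres5cL (beta0Field A) (M * q) y)} (hw0 : w ≠ 0)
    (hfac : (u' : LaurentSeries NfQb) = HahnSeries.C b * γ ^ q *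
      coeffMap (algebraMap ↥(beta0Field A) NfQb) (w : LaurentSeries ↥(beta0Field A)))
    {r : LaurentSeries (kA A)} (hr : R38Red A (u' : LaurentSeries Qb) r) :
    ∃ k < n,
      (T.W k).comap (algebraMap ↥(modularFunctionFieldFullC ↥(beta0Field A) (M * q))
        ↥(tres5cL (beta0Field A) (M * q) y)) = mgvV hπ₀ ιC₀ hq hqM true ∧
      ∃ (m : ℤ) (hm : (T.W k).valuation (w /
        algebraMap ↥(modularFunctionFieldFullC ↥(beta0Field A) (M * q))
          ↥(tres5cL (beta0Field A) (M * q) y)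
          (algebraMap ↥(beta0Ring A (beta0Field A))
            ↥(modularFunctionFieldFullC ↥(beta0Field A) (M * q)) π₀) ^ m) = 1)
      (ρW : ↥(T.W k) →+* ↥(modularFunctionFieldFullC (kA A) M)),
      (∀ (a : ↥(modularFunctionFieldFullC ↥(beta0Field A) (M * q)))
        (ha : a ∈ mgvV hπ₀ ιC₀ hq hqM true)
        (haW : algebraMap ↥(modularFunctionFieldFullC ↥(beta0Field A) (M * q))
          ↥(tres5cL (beta0Field A) (M * q) y) a ∈ T.W k),
        ρW ⟨algebraMap ↥(modularFunctionFieldFullC ↥(beta0Field A) (M * q))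
          ↥(tres5cL (beta0Field A) (M * q) y) a, haW⟩ =
            ribmpRedF hq hqM hA hπ₀ ιC₀ hRedF ⟨a, ha⟩) ∧
      (∀ x : ↥(T.W k), (x : ↥(tres5cL (beta0Field A) (M * q) y)) ∈ (T.W k).nonunits →
        ρW x = 0) ∧
      ∃ (hr' : r ∈ modularFunctionFieldFullC (kA A) M) (a : kA A)
        (s : ↥(modularFunctionFieldFullC (kA A) M)), a ≠ 0 ∧ s ≠ 0 ∧
        (⟨r, hr'⟩ : ↥(modularFunctionFieldFullC (kA A) M)) =
          algebraMap (kA A) ↥(modularFunctionFieldFullC (kA A) M) a *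
            ρW ⟨w / algebraMap ↥(modularFunctionFieldFullC ↥(beta0Field A) (M * q))
              ↥(tres5cL (beta0Field A) (M * q) y)
                (algebraMap ↥(beta0Ring A (beta0Field A))
                  ↥(modularFunctionFieldFullC ↥(beta0Field A) (M * q)) π₀) ^ m,
              tresdn_mem (T.W k) hm⟩ * s ^ q := by
  obtain ⟨K₁, hnf, hgal, hdvr₁, π₁, hπ₁, S, v, b', g, -, hSπ, hv, hb', hg, hfac'⟩ :=
    tresmch_field hq hqM hq3 h3 A hA hw hy hle htor hdiv hsplit hnp ⊥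
      (by
        haveI : FiniteDimensional ℚ ↥(⊥ : IntermediateField ℚ Qb) :=
          IntermediateField.instFiniteSubtypeMemBot ℚ
        infer_instance) hγF w hfac
  haveI := hdvr₁
  have hg0 : g ≠ 0 := by
    rintro rfl
    apply hγ
    rw [← hg]
    exact map_zero _
  have hvU : ((nfEmb (mgcE A K₁) (M * q) v : modularFunctionFieldBar (M * q)) :
      LaurentSeries Qb) = (u' : LaurentSeries Qb) := congrArg Subtype.val hv
  exact tresmw_cmp_inst hq hqM hA hπ₀ hπ₁ ιC₀ (mgdIota (mgcE A K₁))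
    (le_sup_left : beta0Field A ≤ mgcE A K₁) hRedF y T S.gen hT hSπ hvU hu0 hg0 hw0 hfac' hr

end Chain

end Fermat.Agent.R38

end


end ZBR38_019_13

/-! ### bundled: `Fermat.Agent.R38.TresMonoChainH` -/
section ZBR38_019_14
/-
ROW 38, TRES, (β) step 4: THE `K₁`-CHAIN (helper90; twin of helper3's `TresMonoChain.lean`).

Inputs: the hypotheses of helper16's `tres5bit_descend` (FAC-BIG at `V_∞`), ANY split generator
`T : Tres5Gen F_K L_K V_∞ n` of the cover over `K = ℚ̄^I` with `T.π = algebraMap ϖ₀`, and a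
decomposition `U = C b · γ ^ q · coeffMap w` in `ℚ̄((q))` (helper30's `tresdesckv_entry`),
`U ∈ F_{Mq}(ℚ̄)`, `γ ∈ F′ = F̄_{Mq}(y)`, `w ∈ L_K`, together with a Gauss reduction `R38Red A U r`.

Output: the conclusion of `tresmw_cmp_inst` VERBATIM (`K₀ := beta0Field A`, `p := q`): a sheet
`k < n` of `T`, `hWV`, an exponent `m`, `ρW`, `hρW`, `hρWker` and `hcmp`.

Chain: `tres5bit_descend` gives `Kb`; `tresftf_main` above `Kb(ζ_q)` gives the number field `K₁`,
Galois over `ℚ`, over which the decomposition is defined; `tres5bit_descend` at `K₁` gives the split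
Kummer datum `S` of `L_E / F_{Mq}(E)`, `E = ℚ̄^I K₁`; `tresmw_cmp_inst` for `T` and `S.gen`.
-/

set_option autoImplicit false
set_option linter.unusedSectionVars false
set_option linter.unusedVariables false
set_option linter.style.haveILetI false
set_option linter.style.longLine false
set_option synthInstance.maxHeartbeats 400000
set_option maxHeartbeats 1600000

noncomputable section

namespace Fermat.Agent.R38

open ModularCurve AlgebraicCurve Fermat.Agent.ES Fermat.Agent.ES.G2 Fermat.Agent.INJ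
  Fermat.Agent.UNIP Fermat.Agent.STB Fermat.Agent.ES.M Fermat.Agent.DEU Fermat.Agent.S36
  Fermat.Agent.RIB.MP Fermat.Agent.S33 IntermediateField

section Chain

variable {q M : ℕ} [NeZero q] [NeZero M] [NeZero (M * q)]

/-- **THE `K₁`-CHAIN** ((β) step 4): `ρW` + `hcmp` for ANY split generator `T` of the cover over
`K = ℚ̄^I`, from the hypotheses of `tres5bit_descend` and a decomposition
`U = C b · γ ^ q · coeffMap w` in `ℚ̄((q))`. -/
theorem tresmchh_main [Fact q.Prime] (hq : q.Prime) (hqM : ¬ q ∣ M) (hq3 : 3 ≤ q)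
    (h3 : q = 3 → 2 ∣ M) (A : ValuationSubring Qb) (hA : A.LiesOverPrime q)
    [IsDiscreteValuationRing ↥(beta0Ring A (beta0Field A))]
    {π₀ : ↥(beta0Ring A (beta0Field A))} (hπ₀ : Irreducible π₀)
    (ιC₀ : ↥(beta0Field A) →+* ℂ)
    {N : ℕ} [NeZero N] {z₀ : JZero N} {w₀ : modularFunctionFieldBar N}
    (hw : KummerRel q z₀ w₀) {y : LaurentSeries NfQb}
    (hy : y ^ q = (w₀ : LaurentSeries NfQb))
    (hle : modularFunctionFieldBar N ≤ modularFunctionFieldBar (M * q))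
    (htor : ∀ τ ∈ A.inertiaSubgroupIn ℚ, τ • z₀ = ExtCitation.cycloExp q τ • z₀)
    (hdiv : ∀ P : Place Qb (modularFunctionFieldBar (M * q)),
      (q : ℤ) ∣ P.ord (⟨(w₀ : LaurentSeries NfQb), hle w₀.2⟩ : modularFunctionFieldBar (M * q)))
    (hsplit : IsSplitFn hq hqM A
      (⟨(w₀ : LaurentSeries NfQb), hle w₀.2⟩ : modularFunctionFieldBar (M * q)))
    (hnp : ∀ c : ↥(modularFunctionFieldBar (M * q)),
      c ^ q ≠ (⟨(w₀ : LaurentSeries NfQb), hle w₀.2⟩ : modularFunctionFieldBar (M * q)))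
    (hRedF : StmtRedF M A) {n : ℕ}
    (T : Tres5Gen ↥(modularFunctionFieldFullC ↥(beta0Field A) (M * q))
      ↥(tres5cL (beta0Field A) (M * q) y) (mgvV hπ₀ ιC₀ hq hqM true) n)
    {ϖ₀ : ↥(beta0Ring A (beta0Field A))}
    (hT : T.π = algebraMap ↥(beta0Ring A (beta0Field A))
      ↥(modularFunctionFieldFullC ↥(beta0Field A) (M * q)) ϖ₀)
    {U : LaurentSeries NfQb} (hU : U ∈ modularFunctionFieldBar (M * q)) (hU0 : U ≠ 0)
    {b : NfQb} {γ : LaurentSeries NfQb} (hγ : γ ∈ tres5cField (M * q) y) (hγ0 : γ ≠ 0)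
    {w : ↥(tres5cL (beta0Field A) (M * q) y)} (hw0 : w ≠ 0)
    (hfac : U = HahnSeries.C b * γ ^ q *
      coeffMap (algebraMap ↥(beta0Field A) NfQb) (w : LaurentSeries ↥(beta0Field A)))
    {r : LaurentSeries (kA A)} (hr : R38Red A U r) :
    ∃ k < n,
      (T.W k).comap (algebraMap ↥(modularFunctionFieldFullC ↥(beta0Field A) (M * q))
        ↥(tres5cL (beta0Field A) (M * q) y)) = mgvV hπ₀ ιC₀ hq hqM true ∧
      ∃ (m : ℤ) (hm : (T.W k).valuation (w /
        algebraMap ↥(modularFunctionFieldFullC ↥(beta0Field A) (M * q))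
          ↥(tres5cL (beta0Field A) (M * q) y)
          (algebraMap ↥(beta0Ring A (beta0Field A))
            ↥(modularFunctionFieldFullC ↥(beta0Field A) (M * q)) ϖ₀) ^ m) = 1)
      (ρW : ↥(T.W k) →+* ↥(modularFunctionFieldFullC (kA A) M)),
      (∀ (a : ↥(modularFunctionFieldFullC ↥(beta0Field A) (M * q)))
        (ha : a ∈ mgvV hπ₀ ιC₀ hq hqM true)
        (haW : algebraMap ↥(modularFunctionFieldFullC ↥(beta0Field A) (M * q))
          ↥(tres5cL (beta0Field A) (M * q) y) a ∈ T.W k),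
        ρW ⟨algebraMap ↥(modularFunctionFieldFullC ↥(beta0Field A) (M * q))
            ↥(tres5cL (beta0Field A) (M * q) y) a, haW⟩ =
          ribmpRedF hq hqM hA hπ₀ ιC₀ hRedF ⟨a, ha⟩) ∧
      (∀ x : ↥(T.W k), (x : ↥(tres5cL (beta0Field A) (M * q) y)) ∈ (T.W k).nonunits →
        ρW x = 0) ∧
      ∃ (hr' : r ∈ modularFunctionFieldFullC (kA A) M) (a : kA A)
        (s : ↥(modularFunctionFieldFullC (kA A) M)), a ≠ 0 ∧ s ≠ 0 ∧
        (⟨r, hr'⟩ : ↥(modularFunctionFieldFullC (kA A) M)) =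
          algebraMap (kA A) ↥(modularFunctionFieldFullC (kA A) M) a *
            ρW ⟨w / algebraMap ↥(modularFunctionFieldFullC ↥(beta0Field A) (M * q))
              ↥(tres5cL (beta0Field A) (M * q) y)
                (algebraMap ↥(beta0Ring A (beta0Field A))
                  ↥(modularFunctionFieldFullC ↥(beta0Field A) (M * q)) ϖ₀) ^ m,
              tresdn_mem (T.W k) hm⟩ * s ^ q := by
  classical
  -- step 1: the number field `Kb` of FAC-BIG
  obtain ⟨Kb, hKb, hbig⟩ :=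
    tres5bit_descend hq hqM hq3 h3 A hA hw hy hle htor hdiv hsplit hnp
  -- step 2: a primitive `q`-th root of unity
  haveI := Fermat.Agent.Common.isAlgClosure_rat_qbar
  haveI : NeZero ((q : ℕ) : Qb) := ⟨Nat.cast_ne_zero.mpr hq.ne_zero⟩
  obtain ⟨ζ', hζ'⟩ : ∃ ζ' : Qb, IsPrimitiveRoot ζ' q :=
    HasEnoughRootsOfUnity.exists_primitiveRoot Qb q
  have hζint : IsIntegral ℚ ζ' := (AlgebraicClosure.isAlgebraic ℚ).isIntegral.isIntegral ζ'
  haveI : FiniteDimensional ℚ (IntermediateField.adjoin ℚ {ζ'}) :=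
    IntermediateField.adjoin.finiteDimensional hζint
  haveI := hKb
  have hKzfin : FiniteDimensional ℚ ↥(Kb ⊔ IntermediateField.adjoin ℚ {ζ'}) :=
    IntermediateField.finiteDimensional_sup _ _
  -- step 3: the decomposition is defined over `E = ℚ̄^I K₁`
  have hy0 : y ≠ 0 := by
    intro h0
    apply hw.ne_zero
    apply Subtype.ext
    rw [← hy, h0, zero_pow hq.ne_zero]
    rfl
  have hyN : y ^ q ∈ modularFunctionFieldBar (M * q) := by
    rw [hy]
    exact hle w₀.2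
  obtain ⟨K₁, hKz, hK₁fin, hgal, v, b', g, hv, hb', hg, hfacE⟩ :=
    tresftf_main (N := M * q) hq.ne_zero hy0 hyN A
      (Kb ⊔ IntermediateField.adjoin ℚ {ζ'}) hKzfin
      (u := (⟨U, hU⟩ : ↥(modularFunctionFieldBar (M * q)))) hγ w hfac
  -- step 4: the instances over `K₁`
  haveI := hgal
  haveI hnf : NumberField K₁ := @NumberField.mk _ _ inferInstance hK₁fin
  haveI hdvr : IsDiscreteValuationRing ↥(mgcA A K₁) := beta0Ring_isDVR_sup K₁ hq hA
  obtain ⟨π₁, hπ₁⟩ := IsDiscreteValuationRing.exists_irreducible ↥(mgcA A K₁)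
  have hζK : ζ' ∈ mgcE A K₁ :=
    (le_sup_right : K₁ ≤ mgcE A K₁)
      (hKz ((le_sup_right : IntermediateField.adjoin ℚ {ζ'} ≤
        Kb ⊔ IntermediateField.adjoin ℚ {ζ'})
        (IntermediateField.mem_adjoin_simple_self ℚ ζ')))
  -- step 5: the split Kummer datum over `E`
  obtain ⟨u₀, yE, hyE, S, hfracY, T', ρK, ⟨-, -, -, -, hSπ, -, -, -⟩, -, -⟩ :=
    hbig K₁ ((le_sup_left : Kb ≤ Kb ⊔ IntermediateField.adjoin ℚ {ζ'}).trans hKz) hπ₁ hπ₀
      (mgdIota (mgcE A K₁)) ιC₀ (ζ := wmgZeta (A := A) hq.ne_zero hζ'.pow_eq_one hζK)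
      (wmg_zeta_prim hq hζ' hζK)
  -- step 6: the comparison
  have hvU : ((nfEmb (mgcE A K₁) (M * q) v : modularFunctionFieldBar (M * q)) :
      LaurentSeries Qb) = U :=
    congrArg (fun z : ↥(modularFunctionFieldBar (M * q)) => (z : LaurentSeries Qb)) hv
  have hg0 : g ≠ 0 := by
    intro h0
    apply hγ0
    rw [← hg, h0]
    exact map_zero _
  exact tresmw_cmp_inst hq hqM hA hπ₀ hπ₁ ιC₀ (mgdIota (mgcE A K₁))
    (le_sup_left : beta0Field A ≤ mgcE A K₁) hRedF y T S.gen hT hSπ hvU hU0 hg0 hw0 hfacE hr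

end Chain

end Fermat.Agent.R38

end


end ZBR38_019_14
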