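/- GENERATED FILE (helper35, build-time optimisation, NOTES/ZB.md): verbatim concatenation of the modules
   Fermat.Agent.R38.TresPts
   Fermat.Agent.R38.TresKFormInst
   Fermat.Agent.R38.TresKFormPts
   Fermat.Agent.R38.TresKFormInstA
   Fermat.Agent.R38.TresPtsInst
   Fermat.Agent.R38.TresKFormPtsInst
   Fermat.Agent.R38.TresKFormInstCInv
   Do not edit; do not import together with these modules. -/
import Fermat.Agent.ZB.UNIP_007
import Fermat.Agent.ZB.R38_018
import Fermat.Agent.ZB.R38_016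
import Fermat.Agent.ZB.RIB_002
import Fermat.Agent.ZB.INJ_003
import Fermat.Agent.ZB.R38_024
import Fermat.Agent.ZB.S36_005
import Fermat.Agent.ZB.R38_019

/-! ### bundled: `Fermat.Agent.R38.TresPts` -/
section ZBR38_023_0

/-!
# Row 38, TRES, piece FAC-PTS (helper87): local rings of the `K`-chart vs the `E″`-chart

Abstract norm argument for helper92's assembly recipe (inputs `hRK`, `hGR` of helper53's
`tres5kp_descend`, `R38/TresKFormPt.lean`).

Frame: `G` a finite group acting on a field `L` by ring automorphisms, `F ⊆ L` a subfield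
(`[Algebra F L]`), `FK ⊆ F` the field of the `G`-fixed elements of `F` (`hfixF`),
`B → F` a `G`-stable ring (`hGB`), `BK → FK` with `B ∩ FK = BK` (`hBK`), `𝔫` a `G`-stable prime of
`B` (`hG𝔫`), `𝔫K` a prime of `BK` lying under `𝔫` (`h𝔫K`).  Local rings as subrings of the
fields: `ls_localSubring 𝔫 ⊆ F`, `ls_localSubring 𝔫K ⊆ FK` (`UNIP/LocalShape.lean`; `atLoc` is of
this form).

* `tres5p_norm`  : the norm `N s = ∏ g • s` of `s ∉ 𝔫` is `n = s c`, `n ∉ 𝔫`, `G`-invariant;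
* `tres5p_hRK'`, `tres5p_hRK` : `B_𝔫 ∩ FK ⊆ (BK)_𝔫K`;
* `tres5p_hGR'`, `tres5p_hGR` : `G` preserves `B_𝔫`;
* `tres5p_isIntegral_inter`, `tres5p_zch_inter` : the instance `B = zchClosure {t}`:
  `x ∈ FK` integral over `A_E[t]` is integral over `A_K[t]` (`A_E` integral over `A_K`);
* `tres5p_isIntegral_smul`, `tres5p_zch_smul` : `zchClosure {t}` is stable under a ring
  automorphism of `L` preserving `A₀` and fixing `t`.
-/

set_option autoImplicit false
set_option linter.unusedSectionVars false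
set_option linter.unusedVariables false
set_option linter.style.haveILetI false
set_option linter.style.longLine false

noncomputable section

namespace Fermat.Agent.R38

open Fermat.Agent.UNIP Fermat.Agent.INJ

section Norm

variable {G : Type*} [Group G] [Finite G] {L : Type*} [Field L] [MulSemiringAction G L]
  {F : Type*} [Field F] [Algebra F L] {B : Type*} [CommRing B] [Algebra B F]

/-- **The norm.**  `B` a `G`-stable ring, `𝔫` a `G`-stable prime, `s ∉ 𝔫`: there are `n, c : B`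
with `n ∉ 𝔫`, `n = s c` in `L`, and the image of `n` in `L` is `G`-invariant. -/
theorem tres5p_norm
    (hGB : ∀ (g : G) (b : B), ∃ b' : B,
      g • algebraMap F L (algebraMap B F b) = algebraMap F L (algebraMap B F b'))
    (𝔫 : Ideal B) [h𝔫 : 𝔫.IsPrime]
    (hG𝔫 : ∀ (g : G) (b b' : B),
      g • algebraMap F L (algebraMap B F b) = algebraMap F L (algebraMap B F b') →
      b ∈ 𝔫 → b' ∈ 𝔫)
    (s : B) (hs : s ∉ 𝔫) :
    ∃ n c : B, n ∉ 𝔫 ∧
      algebraMap F L (algebraMap B F n) =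
        algebraMap F L (algebraMap B F s) * algebraMap F L (algebraMap B F c) ∧
      ∀ g : G, g • algebraMap F L (algebraMap B F n) = algebraMap F L (algebraMap B F n) := by
  classical
  haveI : Fintype G := Fintype.ofFinite G
  set ι : B →+* L := (algebraMap F L).comp (algebraMap B F) with hι
  have hιa : ∀ b : B, algebraMap F L (algebraMap B F b) = ι b := fun _ => rfl
  simp only [hιa] at hGB hG𝔫 ⊢
  -- the translates of `s`
  choose φ hφ using fun g : G => hGB g s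
  have hφ𝔫 : ∀ g : G, φ g ∉ 𝔫 := by
    intro g hmem
    refine hs (hG𝔫 g⁻¹ (φ g) s ?_ hmem)
    rw [← hφ g, inv_smul_smul]
  -- the products
  have hprod : ∀ T : Finset G, (∏ g ∈ T, g • ι s) = ι (∏ g ∈ T, φ g) := by
    intro T
    rw [map_prod]
    exact Finset.prod_congr rfl fun g _ => hφ g
  have hnot : ∀ T : Finset G, (∏ g ∈ T, φ g) ∉ 𝔫 := by
    intro T
    induction T using Finset.induction_on with
    | empty =>
      rw [Finset.prod_empty]
      exact fun h => h𝔫.ne_top ((Ideal.eq_top_iff_one 𝔫).2 h)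
    | insert a T ha ih =>
      rw [Finset.prod_insert ha]
      exact fun h => (h𝔫.mem_or_mem h).elim (hφ𝔫 a) ih
  refine ⟨∏ g ∈ (Finset.univ : Finset G), φ g, ∏ g ∈ (Finset.univ : Finset G).erase 1, φ g,
    hnot _, ?_, fun g => ?_⟩
  · rw [← hprod, ← hprod, ← Finset.mul_prod_erase Finset.univ (fun g : G => g • ι s)
      (Finset.mem_univ (1 : G)), one_smul]
  · rw [← hprod]
    exact Finset.smul_prod_perm (ι s) g

variable {FK : Type*} [Field FK] [Algebra FK F] {BK : Type*} [CommRing BK] [Algebra BK FK]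

/-- **`hRK`, membership form**: `B_𝔫 ∩ FK ⊆ (BK)_𝔫K`. -/
theorem tres5p_hRK'
    (hGB : ∀ (g : G) (b : B), ∃ b' : B,
      g • algebraMap F L (algebraMap B F b) = algebraMap F L (algebraMap B F b'))
    (𝔫 : Ideal B) [h𝔫 : 𝔫.IsPrime]
    (hG𝔫 : ∀ (g : G) (b b' : B),
      g • algebraMap F L (algebraMap B F b) = algebraMap F L (algebraMap B F b') →
      b ∈ 𝔫 → b' ∈ 𝔫)
    (hfixF : ∀ x : F, (∀ g : G, g • algebraMap F L x = algebraMap F L x) →
      ∃ y : FK, algebraMap FK F y = x)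
    (hBK : ∀ (x : FK) (b : B), algebraMap B F b = algebraMap FK F x →
      ∃ bK : BK, algebraMap BK FK bK = x)
    (𝔫K : Ideal BK) [h𝔫K' : 𝔫K.IsPrime]
    (h𝔫K : ∀ (bK : BK) (b : B), algebraMap B F b = algebraMap FK F (algebraMap BK FK bK) →
      bK ∈ 𝔫K → b ∈ 𝔫)
    (x : FK) (hx : algebraMap FK F x ∈ ls_localSubring (F := F) 𝔫) :
    x ∈ ls_localSubring (F := FK) 𝔫K := by
  obtain ⟨b, s, hs, hsx⟩ := hx
  obtain ⟨n, c, hn, hnsc, hfix⟩ := tres5p_norm (G := G) (L := L) hGB 𝔫 hG𝔫 s hs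
  have hinjL : Function.Injective (algebraMap F L) := (algebraMap F L).injective
  have hnsc' : algebraMap B F n = algebraMap B F s * algebraMap B F c :=
    hinjL (by rw [hnsc, map_mul])
  obtain ⟨ν, hν⟩ := hfixF (algebraMap B F n) hfix
  obtain ⟨nK, hnK⟩ := hBK ν n hν.symm
  have hnK𝔫 : nK ∉ 𝔫K := fun h => hn (h𝔫K nK n (by rw [hnK, hν]) h)
  have h1 : algebraMap B F (c * b) = algebraMap FK F (ν * x) := by
    rw [map_mul, map_mul, hν, hnsc', ← hsx]
    ring
  obtain ⟨bK, hbK⟩ := hBK (ν * x) (c * b) h1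
  exact ⟨bK, nK, hnK𝔫, by rw [hnK, hbK]⟩

/-- **`hRK`** in the shape of `tres5kp_descend` (`R := ls_localSubring 𝔫`,
`RK := ls_localSubring 𝔫K`). -/
theorem tres5p_hRK
    (hGB : ∀ (g : G) (b : B), ∃ b' : B,
      g • algebraMap F L (algebraMap B F b) = algebraMap F L (algebraMap B F b'))
    (𝔫 : Ideal B) [h𝔫 : 𝔫.IsPrime]
    (hG𝔫 : ∀ (g : G) (b b' : B),
      g • algebraMap F L (algebraMap B F b) = algebraMap F L (algebraMap B F b') →
      b ∈ 𝔫 → b' ∈ 𝔫)
    (hfixF : ∀ x : F, (∀ g : G, g • algebraMap F L x = algebraMap F L x) →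
      ∃ y : FK, algebraMap FK F y = x)
    (hBK : ∀ (x : FK) (b : B), algebraMap B F b = algebraMap FK F x →
      ∃ bK : BK, algebraMap BK FK bK = x)
    (𝔫K : Ideal BK) [h𝔫K' : 𝔫K.IsPrime]
    (h𝔫K : ∀ (bK : BK) (b : B), algebraMap B F b = algebraMap FK F (algebraMap BK FK bK) →
      bK ∈ 𝔫K → b ∈ 𝔫)
    (x : FK) (r : ↥(ls_localSubring (F := F) 𝔫)) (hr : (r : F) = algebraMap FK F x) :
    ∃ rK : ↥(ls_localSubring (F := FK) 𝔫K), (rK : FK) = x :=
  ⟨⟨x, tres5p_hRK' (G := G) (L := L) hGB 𝔫 hG𝔫 hfixF hBK 𝔫K h𝔫K x (hr ▸ r.2)⟩, rfl⟩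

omit [Finite G] in
/-- **`hGR`, membership form**: `G` preserves the local ring `B_𝔫`. -/
theorem tres5p_hGR' (hinj : Function.Injective (algebraMap B F))
    (hGB : ∀ (g : G) (b : B), ∃ b' : B,
      g • algebraMap F L (algebraMap B F b) = algebraMap F L (algebraMap B F b'))
    (𝔫 : Ideal B) [h𝔫 : 𝔫.IsPrime]
    (hG𝔫 : ∀ (g : G) (b b' : B),
      g • algebraMap F L (algebraMap B F b) = algebraMap F L (algebraMap B F b') →
      b ∈ 𝔫 → b' ∈ 𝔫)
    (g : G) (r : F) (hr : r ∈ ls_localSubring (F := F) 𝔫) :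
    ∃ r' ∈ ls_localSubring (F := F) 𝔫, g • algebraMap F L r = algebraMap F L r' := by
  obtain ⟨b, s, hs, hsr⟩ := hr
  obtain ⟨s', hs'⟩ := hGB g s
  obtain ⟨b', hb'⟩ := hGB g b
  have hs'𝔫 : s' ∉ 𝔫 := by
    intro hmem
    refine hs (hG𝔫 g⁻¹ s' s ?_ hmem)
    rw [← hs', inv_smul_smul]
  have hs'0 : algebraMap B F s' ≠ 0 := by
    intro h0
    apply hs'𝔫
    rw [hinj (h0.trans (map_zero _).symm)]
    exact 𝔫.zero_mem
  refine ⟨algebraMap B F b' / algebraMap B F s', ⟨b', s', hs'𝔫, ?_⟩, ?_⟩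
  · field_simp
  · have h1 : g • (algebraMap F L (algebraMap B F s) * algebraMap F L r) =
        g • algebraMap F L (algebraMap B F b) := by
      rw [← map_mul, hsr]
    rw [smul_mul', hs', hb'] at h1
    have hs'L : algebraMap F L (algebraMap B F s') ≠ 0 :=
      (map_ne_zero (algebraMap F L)).2 hs'0
    rw [map_div₀, eq_div_iff hs'L, mul_comm]
    exact h1

omit [Finite G] in
/-- **`hGR`** in the shape of `tres5kp_descend` (`R := ls_localSubring 𝔫`). -/
theorem tres5p_hGR (hinj : Function.Injective (algebraMap B F))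
    (hGB : ∀ (g : G) (b : B), ∃ b' : B,
      g • algebraMap F L (algebraMap B F b) = algebraMap F L (algebraMap B F b'))
    (𝔫 : Ideal B) [h𝔫 : 𝔫.IsPrime]
    (hG𝔫 : ∀ (g : G) (b b' : B),
      g • algebraMap F L (algebraMap B F b) = algebraMap F L (algebraMap B F b') →
      b ∈ 𝔫 → b' ∈ 𝔫)
    (g : G) (r : ↥(ls_localSubring (F := F) 𝔫)) :
    ∃ r' : ↥(ls_localSubring (F := F) 𝔫),
      g • algebraMap F L (r : F) = algebraMap F L (r' : F) := by
  obtain ⟨r', hr', h⟩ := tres5p_hGR' (G := G) (L := L) hinj hGB 𝔫 hG𝔫 g (r : F) r.2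
  exact ⟨⟨r', hr'⟩, h⟩

end Norm

/-! ### The instance `B = zchClosure {t}` -/

section Inst

variable {AK AE FK FE : Type*} [CommRing AK] [CommRing AE] [Field FK] [Field FE]
  [Algebra AK AE] [Algebra AK FK] [Algebra AE FE] [Algebra FK FE] [Algebra AK FE]
  [IsScalarTower AK AE FE] [IsScalarTower AK FK FE]

/-- `A_E[t]` is integral over `A_K[t]` if `A_E` is integral over `A_K`: every element of
`A_E[t] ⊆ FE` is integral over `A_K[t] ⊆ FE`. -/
theorem tres5p_adjoin_isIntegral [Algebra.IsIntegral AK AE] (t : FE) (y : FE)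
    (hy : y ∈ Algebra.adjoin AE ({t} : Set FE)) :
    IsIntegral (Algebra.adjoin AK ({t} : Set FE)) y := by
  refine Algebra.adjoin_induction (p := fun y _ => IsIntegral (Algebra.adjoin AK ({t} : Set FE)) y)
    ?_ ?_ ?_ ?_ hy
  · intro x hx
    rw [Set.mem_singleton_iff] at hx
    subst hx
    have : x ∈ Algebra.adjoin AK ({x} : Set FE) := Algebra.subset_adjoin (Set.mem_singleton x)
    exact (isIntegral_algebraMap (R := ↥(Algebra.adjoin AK ({x} : Set FE))) (A := FE)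
      (x := ⟨x, this⟩))
  · intro a
    have h1 : IsIntegral AK a := Algebra.IsIntegral.isIntegral a
    have h2 : IsIntegral AK (algebraMap AE FE a) := h1.map (IsScalarTower.toAlgHom AK AE FE)
    exact h2.tower_top
  · intro x y _ _ hx hy
    exact hx.add hy
  · intro x y _ _ hx hy
    exact hx.mul hy

/-- **`B_E ∩ FK = B_K`, integrality form.**  `x ∈ FK` whose image in `FE` is integral over
`A_E[t]` is integral over `A_K[t]`. -/
theorem tres5p_isIntegral_inter [Algebra.IsIntegral AK AE] (t x : FK)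
    (hx : IsIntegral (Algebra.adjoin AE ({algebraMap FK FE t} : Set FE)) (algebraMap FK FE x)) :
    IsIntegral (Algebra.adjoin AK ({t} : Set FK)) x := by
  classical
  -- Step 1: integral over `A_K[t] ⊆ FE`
  have h1 : IsIntegral (Algebra.adjoin AK ({algebraMap FK FE t} : Set FE))
      (algebraMap FK FE x) := by
    have hC : ∀ y ∈ Algebra.adjoin AE ({algebraMap FK FE t} : Set FE),
        y ∈ integralClosure (Algebra.adjoin AK ({algebraMap FK FE t} : Set FE)) FE :=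
      fun y hy => tres5p_adjoin_isIntegral (AK := AK) (algebraMap FK FE t) y hy
    obtain ⟨q, hq, hqx⟩ := hx
    let f : ↥(Algebra.adjoin AE ({algebraMap FK FE t} : Set FE)) →+*
        ↥(integralClosure (Algebra.adjoin AK ({algebraMap FK FE t} : Set FE)) FE) :=
      { toFun := fun b => ⟨b.1, hC b.1 b.2⟩
        map_one' := rfl
        map_mul' := fun _ _ => rfl
        map_zero' := rfl
        map_add' := fun _ _ => rfl }
    have h2 : IsIntegral
        ↥(integralClosure (Algebra.adjoin AK ({algebraMap FK FE t} : Set FE)) FE)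
        (algebraMap FK FE x) := by
      refine ⟨q.map f, hq.map f, ?_⟩
      rw [Polynomial.eval₂_map]
      exact hqx
    exact isIntegral_trans _ h2
  -- Step 2: pull the equation back to `FK`
  obtain ⟨q, hq, hqx⟩ := h1
  let ψ : FK →ₐ[AK] FE := IsScalarTower.toAlgHom AK FK FE
  have hmap : (Algebra.adjoin AK ({t} : Set FK)).map ψ =
      Algebra.adjoin AK ({algebraMap FK FE t} : Set FE) := by
    rw [AlgHom.map_adjoin, Set.image_singleton]
    rfl
  have hmem : ∀ b : ↥(Algebra.adjoin AK ({t} : Set FK)),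
      ψ b.1 ∈ Algebra.adjoin AK ({algebraMap FK FE t} : Set FE) := by
    intro b
    rw [← hmap]
    exact ⟨b.1, b.2, rfl⟩
  let h : ↥(Algebra.adjoin AK ({t} : Set FK)) →+*
      ↥(Algebra.adjoin AK ({algebraMap FK FE t} : Set FE)) :=
    { toFun := fun b => ⟨ψ b.1, hmem b⟩
      map_one' := Subtype.ext (map_one ψ)
      map_mul' := fun a b => Subtype.ext (map_mul ψ a.1 b.1)
      map_zero' := Subtype.ext (map_zero ψ)
      map_add' := fun a b => Subtype.ext (map_add ψ a.1 b.1) }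
  have hsurj : Function.Surjective h := by
    rintro ⟨y, hy⟩
    rw [← hmap] at hy
    obtain ⟨b, hb, hby⟩ := hy
    exact ⟨⟨b, hb⟩, Subtype.ext hby⟩
  obtain ⟨q', hq'⟩ := Polynomial.map_surjective h hsurj q
  obtain ⟨q'', hq''map, -, hq''monic⟩ :=
    Polynomial.lifts_and_natDegree_eq_and_monic ((Polynomial.mem_lifts q).2 ⟨q', hq'⟩) hq
  refine ⟨q'', hq''monic, ?_⟩
  apply (algebraMap FK FE).injective
  rw [map_zero, Polynomial.hom_eval₂]
  have hcomp : (algebraMap FK FE).comp (algebraMap ↥(Algebra.adjoin AK ({t} : Set FK)) FK) =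
      (algebraMap ↥(Algebra.adjoin AK ({algebraMap FK FE t} : Set FE)) FE).comp h := by
    ext b
    rfl
  rw [hcomp, ← Polynomial.eval₂_map, hq''map]
  exact hqx

end Inst

/-! ### `zchClosure` form -/

section Zch

variable {AK AE EK EE FK FE : Type*}
  [CommRing AK] [IsDomain AK] [IsDiscreteValuationRing AK]
  [CommRing AE] [IsDomain AE] [IsDiscreteValuationRing AE]
  [Field EK] [Algebra AK EK] [IsFractionRing AK EK] [CharZero EK]
  [Field EE] [Algebra AE EE] [IsFractionRing AE EE] [CharZero EE]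
  [Field FK] [Algebra EK FK] [Algebra AK FK] [IsScalarTower AK EK FK]
  [Field FE] [Algebra EE FE] [Algebra AE FE] [IsScalarTower AE EE FE]
  [Algebra AK AE] [Algebra FK FE] [Algebra AK FE]
  [IsScalarTower AK AE FE] [IsScalarTower AK FK FE]

/-- **`B_E ∩ FK = B_K` for the charts `B = zchClosure {t}`.** -/
theorem tres5p_zch_inter [Algebra.IsIntegral AK AE] (t x : FK)
    (hx : algebraMap FK FE x ∈ zchClosure (A₀ := AE) ({algebraMap FK FE t} : Set FE)) :
    x ∈ zchClosure (A₀ := AK) ({t} : Set FK) :=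
  mem_zchClosure.2 (tres5p_isIntegral_inter (AK := AK) (AE := AE) t x (mem_zchClosure.1 hx))

/-- the converse inclusion `B_K ⊆ B_E` -/
theorem tres5p_zch_le (t x : FK) (hx : x ∈ zchClosure (A₀ := AK) ({t} : Set FK)) :
    algebraMap FK FE x ∈ zchClosure (A₀ := AE) ({algebraMap FK FE t} : Set FE) := by
  rw [mem_zchClosure] at hx ⊢
  obtain ⟨q, hq, hqx⟩ := hx
  let ψ : FK →ₐ[AK] FE := IsScalarTower.toAlgHom AK FK FE
  have hmem : ∀ b : ↥(Algebra.adjoin AK ({t} : Set FK)),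
      ψ b.1 ∈ Algebra.adjoin AE ({algebraMap FK FE t} : Set FE) := by
    intro b
    have h1 : ψ b.1 ∈ (Algebra.adjoin AK ({t} : Set FK)).map ψ := ⟨b.1, b.2, rfl⟩
    rw [AlgHom.map_adjoin, Set.image_singleton] at h1
    have h2 : (Algebra.adjoin AK ({ψ t} : Set FE) : Set FE) ⊆
        (Algebra.adjoin AE ({algebraMap FK FE t} : Set FE) : Set FE) := by
      intro y hy
      refine Algebra.adjoin_induction
        (p := fun y _ => y ∈ Algebra.adjoin AE ({algebraMap FK FE t} : Set FE))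
        ?_ ?_ ?_ ?_ hy
      · intro z hz
        exact Algebra.subset_adjoin hz
      · intro a
        rw [IsScalarTower.algebraMap_apply AK AE FE]
        exact Subalgebra.algebraMap_mem _ _
      · intro _ _ _ _ h1 h2
        exact Subalgebra.add_mem _ h1 h2
      · intro _ _ _ _ h1 h2
        exact Subalgebra.mul_mem _ h1 h2
    exact h2 h1
  let h : ↥(Algebra.adjoin AK ({t} : Set FK)) →+*
      ↥(Algebra.adjoin AE ({algebraMap FK FE t} : Set FE)) :=
    { toFun := fun b => ⟨ψ b.1, hmem b⟩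
      map_one' := Subtype.ext (map_one ψ)
      map_mul' := fun a b => Subtype.ext (map_mul ψ a.1 b.1)
      map_zero' := Subtype.ext (map_zero ψ)
      map_add' := fun a b => Subtype.ext (map_add ψ a.1 b.1) }
  refine ⟨q.map h, hq.map h, ?_⟩
  rw [Polynomial.eval₂_map]
  have hcomp : (algebraMap ↥(Algebra.adjoin AE ({algebraMap FK FE t} : Set FE)) FE).comp h =
      (algebraMap FK FE).comp (algebraMap ↥(Algebra.adjoin AK ({t} : Set FK)) FK) := by
    ext b
    rfl
  rw [hcomp, ← Polynomial.hom_eval₂, hqx, map_zero]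

end Zch

/-! ### Stability of a chart under an automorphism -/

section Stab

variable {A₀ L : Type*} [CommRing A₀] [Field L] [Algebra A₀ L]

/-- a ring endomorphism `σ` of `L` which maps `A₀` into `A₀` and fixes `t` maps `A₀[t]` into
`A₀[t]` -/
theorem tres5p_adjoin_smul (σ : L →+* L)
    (hσA : ∀ a : A₀, ∃ a' : A₀, σ (algebraMap A₀ L a) = algebraMap A₀ L a')
    (t : L) (hσt : σ t = t) (y : L) (hy : y ∈ Algebra.adjoin A₀ ({t} : Set L)) :
    σ y ∈ Algebra.adjoin A₀ ({t} : Set L) := by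
  refine Algebra.adjoin_induction (p := fun y _ => σ y ∈ Algebra.adjoin A₀ ({t} : Set L))
    ?_ ?_ ?_ ?_ hy
  · intro z hz
    rw [Set.mem_singleton_iff] at hz
    rw [hz, hσt]
    exact Algebra.subset_adjoin (Set.mem_singleton t)
  · intro a
    obtain ⟨a', ha'⟩ := hσA a
    rw [ha']
    exact Subalgebra.algebraMap_mem _ _
  · intro _ _ _ _ h1 h2
    rw [map_add]
    exact Subalgebra.add_mem _ h1 h2
  · intro _ _ _ _ h1 h2
    rw [map_mul]
    exact Subalgebra.mul_mem _ h1 h2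

/-- **`hGB` for a chart**: a ring endomorphism `σ` of `L` which maps `A₀` into `A₀` and fixes
`t` maps the integral closure of `A₀[t]` into itself. -/
theorem tres5p_isIntegral_smul (σ : L →+* L)
    (hσA : ∀ a : A₀, ∃ a' : A₀, σ (algebraMap A₀ L a) = algebraMap A₀ L a')
    (t : L) (hσt : σ t = t) (x : L) (hx : IsIntegral (Algebra.adjoin A₀ ({t} : Set L)) x) :
    IsIntegral (Algebra.adjoin A₀ ({t} : Set L)) (σ x) := by
  let φ : ↥(Algebra.adjoin A₀ ({t} : Set L)) →+* ↥(Algebra.adjoin A₀ ({t} : Set L)) :=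
    { toFun := fun b => ⟨σ b.1, tres5p_adjoin_smul σ hσA t hσt b.1 b.2⟩
      map_one' := Subtype.ext (map_one σ)
      map_mul' := fun a b => Subtype.ext (map_mul σ a.1 b.1)
      map_zero' := Subtype.ext (map_zero σ)
      map_add' := fun a b => Subtype.ext (map_add σ a.1 b.1) }
  exact IsIntegral.map_of_comp_eq φ σ (by ext b; rfl) hx

end Stab



/-! ### The charts: `B = zchClosure {t}`, local rings `atLoc 𝔫` -/

section Chart

variable {G : Type*} [Group G] {L : Type*} [Field L] [MulSemiringAction G L]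
  {AE EE FE : Type*} [CommRing AE] [IsDomain AE] [IsDiscreteValuationRing AE]
  [Field EE] [Algebra AE EE] [IsFractionRing AE EE] [CharZero EE]
  [Field FE] [Algebra EE FE] [Algebra AE FE] [IsScalarTower AE EE FE] [Algebra FE L]

/-- **`hGB` for the chart `zchClosure {t}`**: `G` acts on `L ⊇ FE`, preserves `FE` and `A_E`, and
fixes `t`. -/
theorem tres5p_hGB_zch
    (hGF : ∀ (g : G) (x : FE), ∃ x' : FE, g • algebraMap FE L x = algebraMap FE L x')
    (hGA : ∀ (g : G) (a : AE), ∃ a' : AE,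
      g • algebraMap FE L (algebraMap AE FE a) = algebraMap FE L (algebraMap AE FE a'))
    (t : FE) (hGt : ∀ g : G, g • algebraMap FE L t = algebraMap FE L t)
    (g : G) (b : ↥(zchClosure (A₀ := AE) ({t} : Set FE))) :
    ∃ b' : ↥(zchClosure (A₀ := AE) ({t} : Set FE)),
      g • algebraMap FE L (algebraMap ↥(zchClosure (A₀ := AE) ({t} : Set FE)) FE b) =
        algebraMap FE L (algebraMap ↥(zchClosure (A₀ := AE) ({t} : Set FE)) FE b') := by
  have hinj : Function.Injective (algebraMap FE L) := (algebraMap FE L).injective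
  choose φ hφ using hGF g
  let σ : FE →+* FE :=
    { toFun := φ
      map_one' := hinj (by rw [← hφ, map_one, smul_one])
      map_mul' := fun a b => hinj (by rw [← hφ, map_mul, map_mul, smul_mul', hφ, hφ])
      map_zero' := hinj (by rw [← hφ, map_zero, smul_zero])
      map_add' := fun a b => hinj (by rw [← hφ, map_add, map_add, smul_add, hφ, hφ]) }
  have hσ : ∀ x : FE, algebraMap FE L (σ x) = g • algebraMap FE L x := fun x => (hφ x).symm
  have hσA : ∀ a : AE, ∃ a' : AE, σ (algebraMap AE FE a) = algebraMap AE FE a' := by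
    intro a
    obtain ⟨a', ha'⟩ := hGA g a
    exact ⟨a', hinj (by rw [hσ, ha'])⟩
  have hσt : σ t = t := hinj (by rw [hσ, hGt])
  have hb : IsIntegral (Algebra.adjoin AE ({t} : Set FE)) (σ (b : FE)) :=
    tres5p_isIntegral_smul σ hσA t hσt (b : FE) (mem_zchClosure.1 b.2)
  refine ⟨⟨σ (b : FE), mem_zchClosure.2 hb⟩, ?_⟩
  exact (hσ (b : FE)).symm

variable [Finite G]
  {AK EK FK : Type*} [CommRing AK] [IsDomain AK] [IsDiscreteValuationRing AK]
  [Field EK] [Algebra AK EK] [IsFractionRing AK EK] [CharZero EK]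
  [Field FK] [Algebra EK FK] [Algebra AK FK] [IsScalarTower AK EK FK]
  [Algebra AK AE] [Algebra FK FE] [Algebra AK FE]
  [IsScalarTower AK AE FE] [IsScalarTower AK FK FE]

/-- **FAC-PTS, `hRK` at closed points of the charts.**  `𝔫E` a `G`-stable closed point of the chart
`t` over `A_E`, `𝔫K` a closed point of the chart `t` over `A_K` lying under it:
`(B_E)_{𝔫E} ∩ FK ⊆ (B_K)_{𝔫K}`. -/
theorem tres5p_atLoc_hRK [Algebra.IsIntegral AK AE]
    (hGF : ∀ (g : G) (x : FE), ∃ x' : FE, g • algebraMap FE L x = algebraMap FE L x')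
    (hGA : ∀ (g : G) (a : AE), ∃ a' : AE,
      g • algebraMap FE L (algebraMap AE FE a) = algebraMap FE L (algebraMap AE FE a'))
    (hfixF : ∀ x : FE, (∀ g : G, g • algebraMap FE L x = algebraMap FE L x) →
      ∃ y : FK, algebraMap FK FE y = x)
    (t : FK) (hGt : ∀ g : G, g • algebraMap FE L (algebraMap FK FE t) =
      algebraMap FE L (algebraMap FK FE t))
    {πE : AE} {πK : AK}
    (𝔫E : AtPt (F := FE) πE (algebraMap FK FE t)) (𝔫K : AtPt (F := FK) πK t)
    (hG𝔫 : ∀ (g : G) (b b' : ↥(zchClosure (A₀ := AE) ({algebraMap FK FE t} : Set FE))),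
      g • algebraMap FE L (b : FE) = algebraMap FE L (b' : FE) → b ∈ 𝔫E.1 → b' ∈ 𝔫E.1)
    (h𝔫K : ∀ (bK : ↥(zchClosure (A₀ := AK) ({t} : Set FK)))
      (b : ↥(zchClosure (A₀ := AE) ({algebraMap FK FE t} : Set FE))),
      (b : FE) = algebraMap FK FE (bK : FK) → bK ∈ 𝔫K.1 → b ∈ 𝔫E.1)
    (x : FK) (hx : algebraMap FK FE x ∈ atLoc 𝔫E) : x ∈ atLoc 𝔫K := by
  haveI := 𝔫E.2.1.isPrime
  haveI := 𝔫K.2.1.isPrime
  refine tres5p_hRK' (G := G) (L := L) (F := FE) (FK := FK)
    (B := ↥(zchClosure (A₀ := AE) ({algebraMap FK FE t} : Set FE)))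
    (BK := ↥(zchClosure (A₀ := AK) ({t} : Set FK)))
    (tres5p_hGB_zch hGF hGA (algebraMap FK FE t) hGt) 𝔫E.1 hG𝔫 hfixF ?_ 𝔫K.1 h𝔫K x hx
  intro y b hb
  have hy : algebraMap FK FE y ∈ zchClosure (A₀ := AE) ({algebraMap FK FE t} : Set FE) := by
    have hb' : (b : FE) = algebraMap FK FE y := hb
    rw [← hb']
    exact b.2
  exact ⟨⟨y, tres5p_zch_inter (AK := AK) (AE := AE) t y hy⟩, rfl⟩

omit [Finite G] in
/-- **FAC-PTS, `hGR` at a closed point of the chart.**  `G` preserves the local ring of a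
`G`-stable closed point. -/
theorem tres5p_atLoc_hGR
    (hGF : ∀ (g : G) (x : FE), ∃ x' : FE, g • algebraMap FE L x = algebraMap FE L x')
    (hGA : ∀ (g : G) (a : AE), ∃ a' : AE,
      g • algebraMap FE L (algebraMap AE FE a) = algebraMap FE L (algebraMap AE FE a'))
    (t : FE) (hGt : ∀ g : G, g • algebraMap FE L t = algebraMap FE L t)
    {πE : AE} (𝔫E : AtPt (F := FE) πE t)
    (hG𝔫 : ∀ (g : G) (b b' : ↥(zchClosure (A₀ := AE) ({t} : Set FE))),
      g • algebraMap FE L (b : FE) = algebraMap FE L (b' : FE) → b ∈ 𝔫E.1 → b' ∈ 𝔫E.1)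
    (g : G) (r : ↥(atLoc 𝔫E)) :
    ∃ r' : ↥(atLoc 𝔫E), g • algebraMap FE L (r : FE) = algebraMap FE L (r' : FE) := by
  haveI := 𝔫E.2.1.isPrime
  exact tres5p_hGR (G := G) (L := L) (F := FE)
    (B := ↥(zchClosure (A₀ := AE) ({t} : Set FE)))
    (fun _ _ h => Subtype.ext h) (tres5p_hGB_zch hGF hGA t hGt) 𝔫E.1 hG𝔫 g r

end Chart

end Fermat.Agent.R38

end
end ZBR38_023_0

/-! ### bundled: `Fermat.Agent.R38.TresKFormInst` -/
section ZBR38_023_1
/-
ROW 38, TRES, piece FAC-KFORM, the INSTANCE at closed points (helper48), layer 1: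
THE COMPOSITE OF STEPS 3–4 of the assembly recipe of the cover case (abstract frame of helper53's
`tres5kp_descend'`, `R38/TresKFormPt.lean`).

`H : Tres5eSplit F z P c` the split structure over the BIG field at the local ring `R` of a closed
point, `G` a finite group acting on `L` with `L^G = LK`, `F ∩ L^G = FK`, `RK = R ∩ FK`, and
`W` a `G`-STABLE valuation ring of `L` DOMINATING `R` (the composite of the Gauss sheet with a
place `Q` of the residue function field).  Then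

* `tres5ki_j0_local`     : `j₀ : RK → R` is local (from `hRK`);
* `tres5ki_comap_dom`    : `W ∩ LK` dominates `RK`;
* `tres5ki_descend`      : the split structure `HK : Tres5eSplit FK zK PK (0, …, p − 1)` at `RK`,
  `[LK : FK] = p`, `ρ zK ≠ zK`, and ONE point `k` above the closed point of `RK` such that
  `W ∩ LK` has centre `(𝔫_K, zK − k)` on `RK[zK]` and contains the local ring `O′_k`.
-/

set_option autoImplicit false
set_option linter.style.haveILetI false
set_option linter.unusedSectionVars false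

namespace Fermat.Agent.R38

open Polynomial Fermat.Agent.UNIP

section Layer1

variable {R F L RK FK LK : Type*}
  [CommRing R] [IsDomain R] [Field F] [Field L] [Algebra R F] [IsFractionRing R F]
  [IsIntegrallyClosed R] [IsLocalRing R] [Algebra F L] [Algebra R L] [IsScalarTower R F L]
  [CommRing RK] [IsDomain RK] [Field FK] [Field LK] [Algebra RK FK] [IsFractionRing RK FK]
  [IsIntegrallyClosed RK] [IsLocalRing RK] [Algebra FK LK] [Algebra RK LK]
  [IsScalarTower RK FK LK]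
  [Algebra FK F] [Algebra LK L] [Algebra FK L] [IsScalarTower FK LK L] [IsScalarTower FK F L]
  {p : ℕ}

/-- the two ways from `RK` to `L` agree -/
theorem tres5ki_map_eq (j₀ : RK →+* R)
    (hj₀ : ∀ r : RK, algebraMap R F (j₀ r) = algebraMap FK F (algebraMap RK FK r)) (r : RK) :
    algebraMap LK L (algebraMap RK LK r) = algebraMap R L (j₀ r) := by
  rw [IsScalarTower.algebraMap_apply R F L, hj₀, IsScalarTower.algebraMap_apply RK FK LK,
    ← IsScalarTower.algebraMap_apply FK LK L, ← IsScalarTower.algebraMap_apply FK F L]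

/-- `j₀ : RK → R` is a local homomorphism: `RK = R ∩ FK`. -/
theorem tres5ki_j0_local (j₀ : RK →+* R)
    (hj₀ : ∀ r : RK, algebraMap R F (j₀ r) = algebraMap FK F (algebraMap RK FK r))
    (hRK : ∀ (x : FK) (r : R), algebraMap R F r = algebraMap FK F x →
      ∃ rK : RK, algebraMap RK FK rK = x)
    {r : RK} (hr : r ∈ IsLocalRing.maximalIdeal RK) : j₀ r ∈ IsLocalRing.maximalIdeal R := by
  rw [IsLocalRing.mem_maximalIdeal, mem_nonunits_iff] at hr ⊢
  intro hu
  apply hr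
  obtain ⟨u, hu⟩ := hu
  -- `1 / r ∈ FK` comes from `R`
  have hinjK : Function.Injective (algebraMap RK FK) := IsFractionRing.injective RK FK
  have hr0 : r ≠ 0 := by
    rintro rfl
    rw [map_zero] at hu
    exact u.ne_zero hu
  have hrK0 : algebraMap RK FK r ≠ 0 := fun h => hr0 (hinjK (by rw [h, map_zero]))
  have h1 : algebraMap R F ((u⁻¹ : Rˣ) : R) = algebraMap FK F (algebraMap RK FK r)⁻¹ := by
    have h2 : algebraMap R F ((u⁻¹ : Rˣ) : R) * algebraMap FK F (algebraMap RK FK r) = 1 := by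
      rw [← hj₀, ← hu, ← map_mul, Units.inv_mul, map_one]
    rw [map_inv₀]
    exact eq_inv_of_mul_eq_one_left h2
  obtain ⟨s, hs⟩ := hRK _ _ h1
  refine IsUnit.of_mul_eq_one s (hinjK ?_)
  rw [map_mul, hs, map_one, mul_inv_cancel₀ hrK0]

/-- `W ∩ LK` dominates `RK` -/
theorem tres5ki_comap_dom (j₀ : RK →+* R)
    (hj₀ : ∀ r : RK, algebraMap R F (j₀ r) = algebraMap FK F (algebraMap RK FK r))
    (hRK : ∀ (x : FK) (r : R), algebraMap R F r = algebraMap FK F x →
      ∃ rK : RK, algebraMap RK FK rK = x)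
    (W : ValuationSubring L) (hRW : ∀ r : R, algebraMap R L r ∈ W)
    (h𝔫W : ∀ r ∈ IsLocalRing.maximalIdeal R, algebraMap R L r ∈ W.nonunits) :
    (∀ r : RK, algebraMap RK LK r ∈ W.comap (algebraMap LK L)) ∧
    ∀ r ∈ IsLocalRing.maximalIdeal RK,
      algebraMap RK LK r ∈ (W.comap (algebraMap LK L)).nonunits := by
  refine ⟨fun r => ?_, fun r hr => ?_⟩
  · rw [ValuationSubring.mem_comap, tres5ki_map_eq (LK := LK) j₀ hj₀]
    exact hRW _
  · have h1 := h𝔫W _ (tres5ki_j0_local j₀ hj₀ hRK hr)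
    rw [← tres5ki_map_eq (LK := LK) j₀ hj₀] at h1
    exact (vt_mem_nonunits_comap W (algebraMap LK L) _).2 h1

variable [hp : Fact p.Prime]

/-- **K-FORM at a closed point, steps 3–4 of the recipe.**  The split structure over the big
field at `R`, a finite group `G` with `L^G = LK`, `F ∩ L^G = FK`, `RK = R ∩ FK`, and a `G`-stable
valuation ring `W` of `L` dominating `R` give: the split structure at `RK` with roots
`0, …, p − 1`, and a point `k` above the closed point of `RK` through which `W ∩ LK` passes. -/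
theorem tres5ki_descend {z : L} {P : R[X]} {c : ZMod p → R} (H : Tres5eSplit F z P c)
    (hfin : Module.finrank F L = p)
    {G : Type*} [Group G] [Finite G] [MulSemiringAction G L]
    (j₀ : RK →+* R)
    (hj₀ : ∀ r : RK, algebraMap R F (j₀ r) = algebraMap FK F (algebraMap RK FK r))
    (hRK : ∀ (x : FK) (r : R), algebraMap R F r = algebraMap FK F x →
      ∃ rK : RK, algebraMap RK FK rK = x)
    (hpR : (p : RK) ∈ IsLocalRing.maximalIdeal RK)
    (hGLK : ∀ (g : G) (y : LK), g • algebraMap LK L y = algebraMap LK L y)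
    (hfixL : ∀ x : L, (∀ g : G, g • x = x) → ∃ y : LK, algebraMap LK L y = x)
    (hfixF : ∀ x : F, (∀ g : G, g • algebraMap F L x = algebraMap F L x) →
      ∃ y : FK, algebraMap FK F y = x)
    (hGR : ∀ (g : G) (r : R), ∃ r' : R, g • algebraMap R L r = algebraMap R L r')
    (W : ValuationSubring L) (hRW : ∀ r : R, algebraMap R L r ∈ W)
    (h𝔫W : ∀ r ∈ IsLocalRing.maximalIdeal R, algebraMap R L r ∈ W.nonunits)
    (hGW : ∀ (g : G), ∀ x ∈ W, g • x ∈ W)
    (ρ : L ≃ₐ[F] L) (hρG : ∀ (g : G) x, ρ (g • x) = g • ρ x)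
    (hρ : ∀ i : ZMod p, ∃ b ∈ tres5eMax R z (c i),
      ρ z = algebraMap R L (c (i + 1)) + (b : L)) :
    ∃ (zK : LK) (PK : RK[X]),
      Tres5eSplit FK zK PK (fun k : ZMod p => ((k.val : ℕ) : RK)) ∧
      Module.finrank FK LK = p ∧
      ρ (algebraMap LK L zK) ≠ algebraMap LK L zK ∧
      (∀ i : ZMod p, ∃ b ∈ tres5eMax R z (c i),
        algebraMap LK L zK = ((i.val : ℕ) : L) + (b : L)) ∧
      ∃ k : ZMod p,
        (∀ b : ↥(Algebra.adjoin RK ({zK} : Set LK)),
          b ∈ tres5eMax RK zK ((k.val : ℕ) : RK) ↔ algebraMap LK L (b : LK) ∈ W.nonunits) ∧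
        ∀ (_ : (tres5eMax RK zK ((k.val : ℕ) : RK)).IsPrime),
          ∀ x ∈ ls_localSubring (F := LK) (tres5eMax RK zK ((k.val : ℕ) : RK)),
            algebraMap LK L x ∈ W := by
  obtain ⟨i₀, -, hG0⟩ := tres5kp_fixed_of_val H hGR W hRW h𝔫W hGW
  obtain ⟨zK, PK, hT, hz, hfinK, hρz⟩ := tres5kp_descend' H hfin j₀ hj₀ hRK
    (fun k : ZMod p => ((k.val : ℕ) : RK)) (tres5kp_sep_natCast hpR) hGLK hfixL hfixF hGR
    i₀ hG0 ρ hρG hρ
  obtain ⟨hdom1, hdom2⟩ := tres5ki_comap_dom (LK := LK) j₀ hj₀ hRK W hRW h𝔫W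
  obtain ⟨k, hk⟩ := hT.val_center (W.comap (algebraMap LK L)) hdom1 hdom2
  have hk' : ∀ b : ↥(Algebra.adjoin RK ({zK} : Set LK)),
      b ∈ tres5eMax RK zK ((k.val : ℕ) : RK) ↔ algebraMap LK L (b : LK) ∈ W.nonunits := by
    intro b
    rw [hk b]
    exact vt_mem_nonunits_comap W (algebraMap LK L) _
  refine ⟨zK, PK, hT, hfinK, hρz, fun i => ?_, k, hk', fun _ x hx => ?_⟩
  · obtain ⟨b, hb, hzb⟩ := hz i
    refine ⟨b, hb, ?_⟩
    rw [hzb, map_natCast, map_natCast]
  · have h1 := (hT.loc_le_val k (W.comap (algebraMap LK L)) hk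
      (fun b => hT.mem_val (W.comap (algebraMap LK L)) hdom1 b) hx).1
    exact h1

end Layer1

/-! ### Layer 2: the charts (frame of FAC-PTS, `R38/TresPts.lean`) -/

section Layer2

open Fermat.Agent.INJ Fermat.Agent.RIB.MP

variable {G : Type*} [Group G] {L : Type*} [Field L] [MulSemiringAction G L]
  {AE EE FE : Type*} [CommRing AE] [IsDomain AE] [IsDiscreteValuationRing AE]
  [Field EE] [Algebra AE EE] [IsFractionRing AE EE] [CharZero EE]
  [Field FE] [Algebra EE FE] [Algebra AE FE] [IsScalarTower AE EE FE] [Algebra FE L]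
  {AK EK FK : Type*} [CommRing AK] [IsDomain AK] [IsDiscreteValuationRing AK]
  [Field EK] [Algebra AK EK] [IsFractionRing AK EK] [CharZero EK]
  [Field FK] [Algebra EK FK] [Algebra AK FK] [IsScalarTower AK EK FK]
  [Algebra AK AE] [Algebra FK FE] [Algebra AK FE]
  [IsScalarTower AK AE FE] [IsScalarTower AK FK FE]
  {t : FK} {πE : AE} {πK : AK}

/-- the transition map `B_K → B_E` of the charts -/
noncomputable def tres5kiChart (t : FK) :
    ↥(zchClosure (A₀ := AK) ({t} : Set FK)) →+*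
      ↥(zchClosure (A₀ := AE) ({algebraMap FK FE t} : Set FE)) where
  toFun b := ⟨algebraMap FK FE (b : FK), tres5p_zch_le (AK := AK) (AE := AE) t (b : FK) b.2⟩
  map_one' := Subtype.ext (by simp)
  map_mul' a b := Subtype.ext (by simp)
  map_zero' := Subtype.ext (by simp)
  map_add' a b := Subtype.ext (by simp)

theorem tres5kiChart_coe (t : FK) (b : ↥(zchClosure (A₀ := AK) ({t} : Set FK))) :
    ((tres5kiChart (AK := AK) (AE := AE) (FE := FE) t b :
      ↥(zchClosure (A₀ := AE) ({algebraMap FK FE t} : Set FE))) : FE) =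
      algebraMap FK FE (b : FK) := rfl

/-- **`𝔫K = 𝔫E ∩ B_K`**: a closed point of the `K`-chart lying under `𝔫E` is the contraction of
`𝔫E` (maximality). -/
theorem tres5ki_under (𝔫E : AtPt (F := FE) πE (algebraMap FK FE t)) (𝔫K : AtPt (F := FK) πK t)
    (h𝔫K : ∀ (bK : ↥(zchClosure (A₀ := AK) ({t} : Set FK)))
      (b : ↥(zchClosure (A₀ := AE) ({algebraMap FK FE t} : Set FE))),
      (b : FE) = algebraMap FK FE (bK : FK) → bK ∈ 𝔫K.1 → b ∈ 𝔫E.1)
    (bK : ↥(zchClosure (A₀ := AK) ({t} : Set FK)))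
    (b : ↥(zchClosure (A₀ := AE) ({algebraMap FK FE t} : Set FE)))
    (hb : (b : FE) = algebraMap FK FE (bK : FK)) : bK ∈ 𝔫K.1 ↔ b ∈ 𝔫E.1 := by
  refine ⟨h𝔫K bK b hb, fun hbE => ?_⟩
  haveI := 𝔫E.2.1.isPrime
  have hle : 𝔫K.1 ≤ Ideal.comap (tres5kiChart (AK := AK) (AE := AE) (FE := FE) t) 𝔫E.1 := by
    intro x hx
    rw [Ideal.mem_comap]
    exact h𝔫K x _ (tres5kiChart_coe (AK := AK) (AE := AE) (FE := FE) t x) hx
  have hne : Ideal.comap (tres5kiChart (AK := AK) (AE := AE) (FE := FE) t) 𝔫E.1 ≠ ⊤ :=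
    (Ideal.comap_isPrime (tres5kiChart (AK := AK) (AE := AE) (FE := FE) t) 𝔫E.1).ne_top
  have heq := 𝔫K.2.1.eq_of_le hne hle
  rw [heq, Ideal.mem_comap]
  have e : tres5kiChart (AK := AK) (AE := AE) (FE := FE) t bK = b := Subtype.ext hb.symm
  rw [e]
  exact hbE

/-- the local ring of the `K`-chart at `𝔫K` lies in the local ring of the `E`-chart at `𝔫E` -/
theorem tres5ki_loc_le (𝔫E : AtPt (F := FE) πE (algebraMap FK FE t)) (𝔫K : AtPt (F := FK) πK t)
    (h𝔫K : ∀ (bK : ↥(zchClosure (A₀ := AK) ({t} : Set FK)))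
      (b : ↥(zchClosure (A₀ := AE) ({algebraMap FK FE t} : Set FE))),
      (b : FE) = algebraMap FK FE (bK : FK) → bK ∈ 𝔫K.1 → b ∈ 𝔫E.1)
    {x : FK} (hx : x ∈ atLoc 𝔫K) : algebraMap FK FE x ∈ atLoc 𝔫E := by
  obtain ⟨b, s, hs, hsx⟩ := hx
  refine ⟨tres5kiChart (AK := AK) (AE := AE) (FE := FE) t b, tres5kiChart (AK := AK) (AE := AE) (FE := FE) t s,
    fun h => hs ((tres5ki_under 𝔫E 𝔫K h𝔫K s _ (tres5kiChart_coe (AK := AK) (AE := AE) (FE := FE) t s)).2 h), ?_⟩
  have h1 : algebraMap FK FE ((s : FK) * x) = algebraMap FK FE (b : FK) := congrArg _ hsx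
  rw [map_mul] at h1
  exact h1

/-- a valuation ring containing the local ring of a closed point, in which the elements of the
point are non-units, dominates the local ring -/
theorem tres5ki_dom {F : Type*} [Field F] {B : Type*} [CommRing B] [Algebra B F]
    (hinj : Function.Injective (algebraMap B F)) (𝔫 : Ideal B) [𝔫.IsPrime]
    [IsLocalRing ↥(ls_localSubring (F := F) 𝔫)]
    {L : Type*} [Field L] [Algebra F L] (W : ValuationSubring L)
    (hWdom : ∀ x ∈ ls_localSubring (F := F) 𝔫, algebraMap F L x ∈ W)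
    (hWmax : ∀ b : B, b ∈ 𝔫 → algebraMap F L (algebraMap B F b) ∈ W.nonunits)
    (r : ↥(ls_localSubring (F := F) 𝔫))
    (hr : r ∈ IsLocalRing.maximalIdeal ↥(ls_localSubring (F := F) 𝔫)) :
    algebraMap F L (r : F) ∈ W.nonunits := by
  obtain ⟨b, s, hs, hsr⟩ := r.2
  have hb : b ∈ 𝔫 := by
    by_contra hb
    exact (IsLocalRing.mem_maximalIdeal _).1 hr (ls_isUnit_of_not_mem hinj 𝔫 r hb hs hsr)
  have h1 := hWmax b hb
  rw [← hsr, map_mul] at h1
  -- `s` is a unit of `W`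
  have hs1 : (algebraMap B F s)⁻¹ ∈ ls_localSubring (F := F) 𝔫 :=
    (ls_unit_mem_localSubring hinj 𝔫 (ε := algebraMap B F s) (s := 1) (t := s)
      (fun h => (inferInstance : 𝔫.IsPrime).ne_top ((Ideal.eq_top_iff_one 𝔫).mpr h)) hs
      (by rw [map_one, one_mul])).2
  have hs2 := hWdom _ hs1
  rw [map_inv₀] at hs2
  have hs0 : algebraMap F L (algebraMap B F s) ≠ 0 := by
    intro h0
    rw [h0, zero_mul] at h1
    have hsB : algebraMap B F s = 0 := (map_eq_zero (algebraMap F L)).1 h0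
    apply hs
    rw [hinj (hsB.trans (map_zero _).symm)]
    exact 𝔫.zero_mem
  rw [ValuationSubring.mem_nonunits_iff] at h1 ⊢
  rw [map_mul] at h1
  have hs3 : W.valuation (algebraMap F L (algebraMap B F s))⁻¹ ≤ 1 :=
    (W.valuation_le_one_iff _).2 hs2
  rw [map_inv₀] at hs3
  have hs4 : 1 ≤ W.valuation (algebraMap F L (algebraMap B F s)) := by
    have hv0 : W.valuation (algebraMap F L (algebraMap B F s)) ≠ 0 :=
      (Valuation.ne_zero_iff _).2 hs0
    exact (inv_le_one₀ (zero_lt_iff.2 hv0)).1 hs3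
  calc W.valuation (algebraMap F L (r : F))
      = 1 * W.valuation (algebraMap F L (r : F)) := (one_mul _).symm
    _ ≤ W.valuation (algebraMap F L (algebraMap B F s)) * W.valuation (algebraMap F L (r : F)) :=
        mul_le_mul' hs4 le_rfl
    _ < 1 := h1

variable [Finite G]
  {LK : Type*} [Field LK] [Algebra FK LK] [Algebra LK L] [Algebra FK L]
  [IsScalarTower FK LK L] [IsScalarTower FK FE L]
  {p : ℕ} [hp : Fact p.Prime]

/-- **K-FORM at a closed point of the chart (the instance, abstract charts).**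
`𝔫E` a closed point of the chart `t` over `A_E` (big field), `G`-stable; `𝔫K` the closed point of
the chart `t` over `A_K` under it; `W` a `G`-stable valuation ring of `L = L_E` dominating
`(B_E)_{𝔫E}`; `H` the split structure of FAC-BIG at `𝔫E`.  Then the cover `LK / FK` has the split
structure at `(B_K)_{𝔫K}` with roots `0, …, p − 1`, `[LK : FK] = p`, and `W ∩ LK` contains the
local ring `O′_k` of ONE point `(𝔫K, zK − k)` above `𝔫K`. -/
theorem tres5ki_point (𝔫E : AtPt (F := FE) πE (algebraMap FK FE t)) (𝔫K : AtPt (F := FK) πK t)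
    [IsLocalRing ↥(atLoc 𝔫E)] [IsFractionRing ↥(atLoc 𝔫E) FE] [IsIntegrallyClosed ↥(atLoc 𝔫E)]
    [Algebra ↥(atLoc 𝔫E) L] [IsScalarTower ↥(atLoc 𝔫E) FE L]
    [IsLocalRing ↥(atLoc 𝔫K)] [IsFractionRing ↥(atLoc 𝔫K) FK] [IsIntegrallyClosed ↥(atLoc 𝔫K)]
    [Algebra ↥(atLoc 𝔫K) LK] [IsScalarTower ↥(atLoc 𝔫K) FK LK]
    [Algebra.IsIntegral AK AE]
    {z : L} {P : (↥(atLoc 𝔫E))[X]} {c : ZMod p → ↥(atLoc 𝔫E)}
    (H : Tres5eSplit FE z P c) (hfin : Module.finrank FE L = p)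
    (hpK : πK ∣ (p : AK))
    (hGF : ∀ (g : G) (x : FE), ∃ x' : FE, g • algebraMap FE L x = algebraMap FE L x')
    (hGA : ∀ (g : G) (a : AE), ∃ a' : AE,
      g • algebraMap FE L (algebraMap AE FE a) = algebraMap FE L (algebraMap AE FE a'))
    (hGt : ∀ g : G, g • algebraMap FE L (algebraMap FK FE t) =
      algebraMap FE L (algebraMap FK FE t))
    (hGLK : ∀ (g : G) (y : LK), g • algebraMap LK L y = algebraMap LK L y)
    (hfixL : ∀ x : L, (∀ g : G, g • x = x) → ∃ y : LK, algebraMap LK L y = x)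
    (hfixF : ∀ x : FE, (∀ g : G, g • algebraMap FE L x = algebraMap FE L x) →
      ∃ y : FK, algebraMap FK FE y = x)
    (hG𝔫 : ∀ (g : G) (b b' : ↥(zchClosure (A₀ := AE) ({algebraMap FK FE t} : Set FE))),
      g • algebraMap FE L (b : FE) = algebraMap FE L (b' : FE) → b ∈ 𝔫E.1 → b' ∈ 𝔫E.1)
    (h𝔫K : ∀ (bK : ↥(zchClosure (A₀ := AK) ({t} : Set FK)))
      (b : ↥(zchClosure (A₀ := AE) ({algebraMap FK FE t} : Set FE))),
      (b : FE) = algebraMap FK FE (bK : FK) → bK ∈ 𝔫K.1 → b ∈ 𝔫E.1)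
    (W : ValuationSubring L)
    (hWdom : ∀ x ∈ atLoc 𝔫E, algebraMap FE L x ∈ W)
    (hWmax : ∀ b : ↥(zchClosure (A₀ := AE) ({algebraMap FK FE t} : Set FE)), b ∈ 𝔫E.1 →
      algebraMap FE L (b : FE) ∈ W.nonunits)
    (hGW : ∀ (g : G), ∀ x ∈ W, g • x ∈ W)
    (ρ : L ≃ₐ[FE] L) (hρG : ∀ (g : G) x, ρ (g • x) = g • ρ x)
    (hρ : ∀ i : ZMod p, ∃ b ∈ tres5eMax ↥(atLoc 𝔫E) z (c i),
      ρ z = algebraMap ↥(atLoc 𝔫E) L (c (i + 1)) + (b : L)) :
    ∃ (zK : LK) (PK : (↥(atLoc 𝔫K))[X]),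
      Tres5eSplit FK zK PK (fun k : ZMod p => ((k.val : ℕ) : ↥(atLoc 𝔫K))) ∧
      Module.finrank FK LK = p ∧
      ρ (algebraMap LK L zK) ≠ algebraMap LK L zK ∧
      (∀ i : ZMod p, ∃ b ∈ tres5eMax ↥(atLoc 𝔫E) z (c i),
        algebraMap LK L zK = ((i.val : ℕ) : L) + (b : L)) ∧
      ∃ k : ZMod p,
        (∀ b : ↥(Algebra.adjoin ↥(atLoc 𝔫K) ({zK} : Set LK)),
          b ∈ tres5eMax ↥(atLoc 𝔫K) zK ((k.val : ℕ) : ↥(atLoc 𝔫K)) ↔
            algebraMap LK L (b : LK) ∈ W.nonunits) ∧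
        ∀ (_ : (tres5eMax ↥(atLoc 𝔫K) zK ((k.val : ℕ) : ↥(atLoc 𝔫K))).IsPrime),
          ∀ x ∈ ls_localSubring (F := LK) (tres5eMax ↥(atLoc 𝔫K) zK ((k.val : ℕ) : ↥(atLoc 𝔫K))),
            algebraMap LK L x ∈ W := by
  haveI := 𝔫E.2.1.isPrime
  haveI := 𝔫K.2.1.isPrime
  have hRL : ∀ r : ↥(atLoc 𝔫E), algebraMap ↥(atLoc 𝔫E) L r = algebraMap FE L (r : FE) :=
    fun r => IsScalarTower.algebraMap_apply ↥(atLoc 𝔫E) FE L r
  -- `j₀`
  let j₀ : ↥(atLoc 𝔫K) →+* ↥(atLoc 𝔫E) :=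
    ((algebraMap FK FE).comp (atLoc 𝔫K).subtype).codRestrict (atLoc 𝔫E)
      (fun x => tres5ki_loc_le 𝔫E 𝔫K h𝔫K x.2)
  have hj₀ : ∀ r : ↥(atLoc 𝔫K), algebraMap ↥(atLoc 𝔫E) FE (j₀ r) =
      algebraMap FK FE (algebraMap ↥(atLoc 𝔫K) FK r) := fun r => rfl
  have hRK : ∀ (x : FK) (r : ↥(atLoc 𝔫E)), algebraMap ↥(atLoc 𝔫E) FE r = algebraMap FK FE x →
      ∃ rK : ↥(atLoc 𝔫K), algebraMap ↥(atLoc 𝔫K) FK rK = x := by
    intro x r hrx
    have hx : algebraMap FK FE x ∈ atLoc 𝔫E := by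
      rw [← hrx]
      exact r.2
    exact ⟨⟨x, tres5p_atLoc_hRK (G := G) (L := L) hGF hGA hfixF t hGt 𝔫E 𝔫K hG𝔫 h𝔫K x hx⟩, rfl⟩
  have hpR : ((p : ℕ) : ↥(atLoc 𝔫K)) ∈ IsLocalRing.maximalIdeal ↥(atLoc 𝔫K) := by
    have h2 := tres5bp_pi_mul_mem 𝔫K (p : AK) hpK
    convert h2 using 1
    apply Subtype.ext
    simp
  have hGR : ∀ (g : G) (r : ↥(atLoc 𝔫E)), ∃ r' : ↥(atLoc 𝔫E),
      g • algebraMap ↥(atLoc 𝔫E) L r = algebraMap ↥(atLoc 𝔫E) L r' := by
    intro g r
    obtain ⟨r', hr'⟩ := tres5p_atLoc_hGR (G := G) (L := L) hGF hGA (algebraMap FK FE t) hGt 𝔫E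
      hG𝔫 g r
    exact ⟨r', by rw [hRL, hRL, hr']⟩
  have hRW : ∀ r : ↥(atLoc 𝔫E), algebraMap ↥(atLoc 𝔫E) L r ∈ W := fun r => by
    rw [hRL]
    exact hWdom _ r.2
  have hinjB : Function.Injective
      (algebraMap ↥(zchClosure (A₀ := AE) ({algebraMap FK FE t} : Set FE)) FE) :=
    Subtype.val_injective
  have h𝔫W : ∀ r ∈ IsLocalRing.maximalIdeal ↥(atLoc 𝔫E),
      algebraMap ↥(atLoc 𝔫E) L r ∈ W.nonunits := by
    intro r hr
    rw [hRL]
    haveI hloc : IsLocalRing ↥(ls_localSubring (F := FE) 𝔫E.1) :=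
      (inferInstance : IsLocalRing ↥(atLoc 𝔫E))
    exact tres5ki_dom hinjB 𝔫E.1 W hWdom hWmax r hr
  exact tres5ki_descend H hfin j₀ hj₀ hRK hpR hGLK hfixL hfixF hGR W hRW h𝔫W hGW ρ hρG hρ

end Layer2

end Fermat.Agent.R38


end ZBR38_023_1

/-! ### bundled: `Fermat.Agent.R38.TresKFormPts` -/
section ZBR38_023_2

/-!
# Row 38, TRES, K-FORM (B) instance, leaf (B-pts) (helper47): lying over for the charts

Frame of FAC-PTS (`R38/TresPts.lean`, section `Chart`) and of helper48's `tres5ki_point`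
(`R38/TresKFormInst.lean`, Layer 2): `A_K ⊆ A_E` discrete valuation rings, `A_E` integral over
`A_K`, `F_K ⊆ F_E` the function fields, `t ∈ F_K`, charts `B_K = zchClosure {t} ⊆ F_K`,
`B_E = zchClosure {t} ⊆ F_E`.

* `tres5kqChart`           : the transition map `B_K → B_E` (own copy of `tres5kiChart`);
* `tres5kq_isIntegral_adjoin` : `y ∈ F_E` integral over `A_E[u]` is integral over `A_K[u]`;
* `tres5kqChart_isIntegral` : `B_E` is integral over `B_K`;
* `tres5kq_pi_mem`         : a prime of `B_E` containing the image of `π_K` contains `π_E`;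
* `tres5kq_exists_comap`   : **lying over**: every closed point `𝔫K` of the `K`-chart is the
  contraction of a closed point `𝔫E` of the `E`-chart;
* `tres5kq_exists`         : the same in the EXACT shape `h𝔫K` of `tres5p_atLoc_hRK` /
  `tres5ki_point`;
* `tres5kq_exists_iff`     : with `bK ∈ 𝔫K ↔ b ∈ 𝔫E`;
* `tres5kq_exists_comap_ge`, `tres5kq_exists_through'`, `tres5kq_exists_through` : **going-up
  with a base ideal** (helper92's ruling): `𝔫E` over `𝔫K` ON the component `V_E`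
  (`atThrough 𝔫E V_E`);
* `tres5kq_loc_le`         : `atLoc 𝔫E ⊆ V_E` for a point on `V_E`;
* `tres5kq_stable`         : (bonus) `hG𝔫` from triviality mod `π_E`.
-/

set_option autoImplicit false
set_option linter.unusedSectionVars false
set_option linter.unusedVariables false
set_option linter.style.haveILetI false
set_option linter.style.longLine false

noncomputable section

namespace Fermat.Agent.R38

open Fermat.Agent.UNIP Fermat.Agent.INJ

section Adjoin

variable {AK AE FE : Type*} [CommRing AK] [CommRing AE] [Field FE]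
  [Algebra AK AE] [Algebra AE FE] [Algebra AK FE] [IsScalarTower AK AE FE]

/-- `y ∈ F_E` integral over `A_E[u]` is integral over `A_K[u]` (`A_E` integral over `A_K`). -/
theorem tres5kq_isIntegral_adjoin [Algebra.IsIntegral AK AE] (u y : FE)
    (hy : IsIntegral (Algebra.adjoin AE ({u} : Set FE)) y) :
    IsIntegral (Algebra.adjoin AK ({u} : Set FE)) y := by
  classical
  have hC : ∀ z ∈ Algebra.adjoin AE ({u} : Set FE),
      z ∈ integralClosure (Algebra.adjoin AK ({u} : Set FE)) FE :=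
    fun z hz => tres5p_adjoin_isIntegral (AK := AK) u z hz
  obtain ⟨q, hq, hqx⟩ := hy
  let f : ↥(Algebra.adjoin AE ({u} : Set FE)) →+*
      ↥(integralClosure (Algebra.adjoin AK ({u} : Set FE)) FE) :=
    { toFun := fun b => ⟨b.1, hC b.1 b.2⟩
      map_one' := rfl
      map_mul' := fun _ _ => rfl
      map_zero' := rfl
      map_add' := fun _ _ => rfl }
  have h2 : IsIntegral ↥(integralClosure (Algebra.adjoin AK ({u} : Set FE)) FE) y := by
    refine ⟨q.map f, hq.map f, ?_⟩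
    rw [Polynomial.eval₂_map]
    exact hqx
  exact isIntegral_trans _ h2

end Adjoin

section Pts

variable {AE EE FE : Type*} [CommRing AE] [IsDomain AE] [IsDiscreteValuationRing AE]
  [Field EE] [Algebra AE EE] [IsFractionRing AE EE] [CharZero EE]
  [Field FE] [Algebra EE FE] [Algebra AE FE] [IsScalarTower AE EE FE]
  {AK EK FK : Type*} [CommRing AK] [IsDomain AK] [IsDiscreteValuationRing AK]
  [Field EK] [Algebra AK EK] [IsFractionRing AK EK] [CharZero EK]
  [Field FK] [Algebra EK FK] [Algebra AK FK] [IsScalarTower AK EK FK]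
  [Algebra AK AE] [Algebra FK FE] [Algebra AK FE]
  [IsScalarTower AK AE FE] [IsScalarTower AK FK FE]

/-- the transition map `B_K → B_E` of the charts -/
def tres5kqChart (t : FK) :
    ↥(zchClosure (A₀ := AK) ({t} : Set FK)) →+*
      ↥(zchClosure (A₀ := AE) ({algebraMap FK FE t} : Set FE)) where
  toFun b := ⟨algebraMap FK FE (b : FK), tres5p_zch_le (AK := AK) (AE := AE) t (b : FK) b.2⟩
  map_one' := Subtype.ext (by simp)
  map_mul' a b := Subtype.ext (by simp)
  map_zero' := Subtype.ext (by simp)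
  map_add' a b := Subtype.ext (by simp)

theorem tres5kqChart_coe (t : FK) (b : ↥(zchClosure (A₀ := AK) ({t} : Set FK))) :
    ((tres5kqChart (AK := AK) (AE := AE) (FE := FE) t b :
      ↥(zchClosure (A₀ := AE) ({algebraMap FK FE t} : Set FE))) : FE) =
      algebraMap FK FE (b : FK) := rfl

theorem tres5kqChart_injective (t : FK) :
    Function.Injective (tres5kqChart (AK := AK) (AE := AE) (FE := FE) t) := by
  intro a b hab
  have h1 : algebraMap FK FE (a : FK) = algebraMap FK FE (b : FK) := congrArg Subtype.val hab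
  exact Subtype.ext ((algebraMap FK FE).injective h1)

/-- the transition map is compatible with the constants -/
theorem tres5kqChart_algebraMap (t : FK) (a : AK) :
    tres5kqChart (AK := AK) (AE := AE) (FE := FE) t
        (algebraMap AK ↥(zchClosure (A₀ := AK) ({t} : Set FK)) a) =
      algebraMap AE ↥(zchClosure (A₀ := AE) ({algebraMap FK FE t} : Set FE))
        (algebraMap AK AE a) := by
  apply Subtype.ext
  show algebraMap FK FE (algebraMap AK FK a) = algebraMap AE FE (algebraMap AK AE a)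
  rw [← IsScalarTower.algebraMap_apply AK FK FE, ← IsScalarTower.algebraMap_apply AK AE FE]

/-- **`B_E` is integral over `B_K`.** -/
theorem tres5kqChart_isIntegral [Algebra.IsIntegral AK AE] (t : FK) :
    (tres5kqChart (AK := AK) (AE := AE) (FE := FE) t).IsIntegral := by
  classical
  intro b
  -- Step 1: `b` is integral over `A_K[t] ⊆ FE`
  have h1 : IsIntegral (Algebra.adjoin AK ({algebraMap FK FE t} : Set FE)) (b : FE) :=
    tres5kq_isIntegral_adjoin (AK := AK) (AE := AE) (algebraMap FK FE t) (b : FE)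
      (mem_zchClosure.1 b.2)
  obtain ⟨q, hq, hqx⟩ := h1
  -- Step 2: lift the equation to `A_K[t] ⊆ FK`
  let ψ : FK →ₐ[AK] FE := IsScalarTower.toAlgHom AK FK FE
  have hmap : (Algebra.adjoin AK ({t} : Set FK)).map ψ =
      Algebra.adjoin AK ({algebraMap FK FE t} : Set FE) := by
    rw [AlgHom.map_adjoin, Set.image_singleton]
    rfl
  have hmem : ∀ x : ↥(Algebra.adjoin AK ({t} : Set FK)),
      ψ x.1 ∈ Algebra.adjoin AK ({algebraMap FK FE t} : Set FE) := by
    intro x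
    rw [← hmap]
    exact ⟨x.1, x.2, rfl⟩
  let h : ↥(Algebra.adjoin AK ({t} : Set FK)) →+*
      ↥(Algebra.adjoin AK ({algebraMap FK FE t} : Set FE)) :=
    { toFun := fun x => ⟨ψ x.1, hmem x⟩
      map_one' := Subtype.ext (map_one ψ)
      map_mul' := fun a b => Subtype.ext (map_mul ψ a.1 b.1)
      map_zero' := Subtype.ext (map_zero ψ)
      map_add' := fun a b => Subtype.ext (map_add ψ a.1 b.1) }
  have hsurj : Function.Surjective h := by
    rintro ⟨y, hy⟩
    rw [← hmap] at hy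
    obtain ⟨x, hx, hxy⟩ := hy
    exact ⟨⟨x, hx⟩, Subtype.ext hxy⟩
  obtain ⟨q', hq'⟩ := Polynomial.map_surjective h hsurj q
  obtain ⟨q'', hq''map, -, hq''monic⟩ :=
    Polynomial.lifts_and_natDegree_eq_and_monic ((Polynomial.mem_lifts q).2 ⟨q', hq'⟩) hq
  -- Step 3: `A_K[t] ⊆ B_K`
  let ι : ↥(Algebra.adjoin AK ({t} : Set FK)) →+* ↥(zchClosure (A₀ := AK) ({t} : Set FK)) :=
    { toFun := fun x => ⟨x.1, mem_zchClosure.2
        (isIntegral_algebraMap (R := ↥(Algebra.adjoin AK ({t} : Set FK))) (A := FK) (x := x))⟩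
      map_one' := rfl
      map_mul' := fun _ _ => rfl
      map_zero' := rfl
      map_add' := fun _ _ => rfl }
  refine ⟨q''.map ι, hq''monic.map ι, ?_⟩
  rw [Polynomial.eval₂_map]
  apply Subtype.val_injective
  have hval : ∀ x : ↥(zchClosure (A₀ := AE) ({algebraMap FK FE t} : Set FE)),
      (x : FE) = algebraMap ↥(zchClosure (A₀ := AE) ({algebraMap FK FE t} : Set FE)) FE x :=
    fun _ => rfl
  rw [hval, Polynomial.hom_eval₂, ← hval]
  have hcomp : (algebraMap ↥(zchClosure (A₀ := AE) ({algebraMap FK FE t} : Set FE)) FE).comp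
        ((tres5kqChart (AK := AK) (AE := AE) (FE := FE) t).comp ι) =
      (algebraMap ↥(Algebra.adjoin AK ({algebraMap FK FE t} : Set FE)) FE).comp h := by
    ext x
    rfl
  rw [hcomp, ← Polynomial.eval₂_map, hq''map]
  exact hqx

/-- a prime of `B_E` containing the image of `π_K` contains `π_E` -/
theorem tres5kq_pi_mem {u : FE} {πE : AE} (hπE : Irreducible πE) {a : AE} (ha : a ≠ 0)
    (Q : Ideal ↥(zchClosure (A₀ := AE) ({u} : Set FE))) [hQ : Q.IsPrime]
    (haQ : algebraMap AE ↥(zchClosure (A₀ := AE) ({u} : Set FE)) a ∈ Q) :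
    algebraMap AE ↥(zchClosure (A₀ := AE) ({u} : Set FE)) πE ∈ Q := by
  -- `a = πE ^ n * unit`
  obtain ⟨n, w, hw⟩ := IsDiscreteValuationRing.eq_unit_mul_pow_irreducible ha hπE
  have h1 : algebraMap AE ↥(zchClosure (A₀ := AE) ({u} : Set FE)) πE ^ n ∈ Q := by
    have h2 : algebraMap AE ↥(zchClosure (A₀ := AE) ({u} : Set FE)) ((w⁻¹ : AEˣ) : AE) *
        algebraMap AE ↥(zchClosure (A₀ := AE) ({u} : Set FE)) a ∈ Q := Q.mul_mem_left _ haQ
    rw [← map_mul, hw, ← mul_assoc, Units.inv_mul, one_mul, map_pow] at h2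
    exact h2
  exact hQ.mem_of_pow_mem n h1

variable {t : FK} {πE : AE} {πK : AK}

/-- **(B-pts), lying over.**  Every closed point `𝔫K` of the `K`-chart is the contraction of a
closed point `𝔫E` of the `E`-chart. -/
theorem tres5kq_exists_comap [Algebra.IsIntegral AK AE] (hπE : Irreducible πE)
    (hπK : algebraMap AK AE πK ≠ 0) (𝔫K : AtPt (F := FK) πK t) :
    ∃ 𝔫E : AtPt (F := FE) πE (algebraMap FK FE t),
      Ideal.comap (tres5kqChart (AK := AK) (AE := AE) (FE := FE) t) 𝔫E.1 = 𝔫K.1 := by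
  classical
  letI : Algebra ↥(zchClosure (A₀ := AK) ({t} : Set FK))
      ↥(zchClosure (A₀ := AE) ({algebraMap FK FE t} : Set FE)) :=
    (tres5kqChart (AK := AK) (AE := AE) (FE := FE) t).toAlgebra
  haveI : Algebra.IsIntegral ↥(zchClosure (A₀ := AK) ({t} : Set FK))
      ↥(zchClosure (A₀ := AE) ({algebraMap FK FE t} : Set FE)) :=
    ⟨tres5kqChart_isIntegral (AK := AK) (AE := AE) (FE := FE) t⟩
  haveI := 𝔫K.2.1
  have hker : RingHom.ker (algebraMap ↥(zchClosure (A₀ := AK) ({t} : Set FK))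
      ↥(zchClosure (A₀ := AE) ({algebraMap FK FE t} : Set FE))) ≤ 𝔫K.1 := by
    intro x hx
    rw [RingHom.mem_ker] at hx
    have hx0 : x = 0 :=
      tres5kqChart_injective (AK := AK) (AE := AE) (FE := FE) t (hx.trans (map_zero _).symm)
    rw [hx0]
    exact 𝔫K.1.zero_mem
  obtain ⟨Q, hQmax, hQ⟩ := Ideal.exists_ideal_over_maximal_of_isIntegral 𝔫K.1 hker
  haveI := hQmax.isPrime
  have hπQ : algebraMap AE ↥(zchClosure (A₀ := AE) ({algebraMap FK FE t} : Set FE))
      (algebraMap AK AE πK) ∈ Q := by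
    rw [← tres5kqChart_algebraMap (AK := AK) (AE := AE) (FE := FE) t πK]
    have h1 : algebraMap AK ↥(zchClosure (A₀ := AK) ({t} : Set FK)) πK ∈
        Q.comap (algebraMap ↥(zchClosure (A₀ := AK) ({t} : Set FK))
          ↥(zchClosure (A₀ := AE) ({algebraMap FK FE t} : Set FE))) := by
      rw [hQ]
      exact 𝔫K.2.2
    exact h1
  exact ⟨⟨Q, hQmax, tres5kq_pi_mem hπE hπK Q hπQ⟩, hQ⟩

/-- **(B-pts), `h𝔫K`** in the EXACT shape of `tres5p_atLoc_hRK` / `tres5ki_point`. -/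
theorem tres5kq_exists [Algebra.IsIntegral AK AE] (hπE : Irreducible πE)
    (hπK : algebraMap AK AE πK ≠ 0) (𝔫K : AtPt (F := FK) πK t) :
    ∃ 𝔫E : AtPt (F := FE) πE (algebraMap FK FE t),
      ∀ (bK : ↥(zchClosure (A₀ := AK) ({t} : Set FK)))
        (b : ↥(zchClosure (A₀ := AE) ({algebraMap FK FE t} : Set FE))),
        (b : FE) = algebraMap FK FE (bK : FK) → bK ∈ 𝔫K.1 → b ∈ 𝔫E.1 := by
  obtain ⟨𝔫E, h𝔫E⟩ := tres5kq_exists_comap (AE := AE) (FE := FE) hπE hπK 𝔫K
  refine ⟨𝔫E, fun bK b hb hbK => ?_⟩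
  have h1 : bK ∈ Ideal.comap (tres5kqChart (AK := AK) (AE := AE) (FE := FE) t) 𝔫E.1 := by
    rw [h𝔫E]
    exact hbK
  rw [Ideal.mem_comap] at h1
  have e : tres5kqChart (AK := AK) (AE := AE) (FE := FE) t bK = b := Subtype.ext hb.symm
  rw [e] at h1
  exact h1

/-- **(B-pts)**, with the equivalence `bK ∈ 𝔫K ↔ b ∈ 𝔫E`. -/
theorem tres5kq_exists_iff [Algebra.IsIntegral AK AE] (hπE : Irreducible πE)
    (hπK : algebraMap AK AE πK ≠ 0) (𝔫K : AtPt (F := FK) πK t) :
    ∃ 𝔫E : AtPt (F := FE) πE (algebraMap FK FE t),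
      ∀ (bK : ↥(zchClosure (A₀ := AK) ({t} : Set FK)))
        (b : ↥(zchClosure (A₀ := AE) ({algebraMap FK FE t} : Set FE))),
        (b : FE) = algebraMap FK FE (bK : FK) → (bK ∈ 𝔫K.1 ↔ b ∈ 𝔫E.1) := by
  obtain ⟨𝔫E, h𝔫E⟩ := tres5kq_exists_comap (AE := AE) (FE := FE) hπE hπK 𝔫K
  refine ⟨𝔫E, fun bK b hb => ?_⟩
  have e : tres5kqChart (AK := AK) (AE := AE) (FE := FE) t bK = b := Subtype.ext hb.symm
  rw [← h𝔫E, Ideal.mem_comap, e]

/-! ### Going-up with a base ideal: the point `𝔫E` on a prescribed component -/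

/-- non-units of a valuation ring and of its restriction -/
theorem tres5kq_nonunits_comap (VE : ValuationSubring FE) (x : FK)
    (hx : algebraMap FK FE x ∈ VE.nonunits) :
    x ∈ (VE.comap (algebraMap FK FE)).nonunits := by
  rw [ValuationSubring.mem_nonunits_iff]
  by_contra hcon
  rw [not_lt] at hcon
  have hx0 : x ≠ 0 := by
    rintro rfl
    rw [map_zero] at hcon
    exact absurd hcon (not_le.mpr zero_lt_one)
  have hv0 : (VE.comap (algebraMap FK FE)).valuation x ≠ 0 :=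
    (Valuation.ne_zero_iff _).2 hx0
  have h1 : (VE.comap (algebraMap FK FE)).valuation x⁻¹ ≤ 1 := by
    rw [map_inv₀]
    exact inv_le_one_of_one_le₀ hcon
  have h2 : x⁻¹ ∈ VE.comap (algebraMap FK FE) :=
    ((VE.comap (algebraMap FK FE)).valuation_le_one_iff _).1 h1
  rw [ValuationSubring.mem_comap, map_inv₀] at h2
  have h3 : VE.valuation (algebraMap FK FE x)⁻¹ ≤ 1 := (VE.valuation_le_one_iff _).2 h2
  have h4 : VE.valuation (algebraMap FK FE x) < 1 := (ValuationSubring.mem_nonunits_iff VE).1 hx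
  have hy0 : algebraMap FK FE x ≠ 0 := (map_ne_zero (algebraMap FK FE)).2 hx0
  have h5 : VE.valuation (algebraMap FK FE x) * VE.valuation (algebraMap FK FE x)⁻¹ = 1 := by
    rw [← map_mul, mul_inv_cancel₀ hy0, map_one]
  have h6 : VE.valuation (algebraMap FK FE x) * VE.valuation (algebraMap FK FE x)⁻¹ < 1 :=
    mul_lt_one_of_nonneg_of_lt_one_left zero_le h4 h3
  rw [h5] at h6
  exact lt_irrefl _ h6

/-- **(B-pts″), going-up with a base ideal, contraction form.**  `I` an ideal of `B_E` whose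
contraction to `B_K` lies in the closed point `𝔫K`: there is a closed point `𝔫E ⊇ I` of the
`E`-chart over `𝔫K`. -/
theorem tres5kq_exists_comap_ge [Algebra.IsIntegral AK AE] (hπE : Irreducible πE)
    (hπK : algebraMap AK AE πK ≠ 0) (𝔫K : AtPt (F := FK) πK t)
    (I : Ideal ↥(zchClosure (A₀ := AE) ({algebraMap FK FE t} : Set FE)))
    (hI : Ideal.comap (tres5kqChart (AK := AK) (AE := AE) (FE := FE) t) I ≤ 𝔫K.1) :
    ∃ 𝔫E : AtPt (F := FE) πE (algebraMap FK FE t), I ≤ 𝔫E.1 ∧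
      Ideal.comap (tres5kqChart (AK := AK) (AE := AE) (FE := FE) t) 𝔫E.1 = 𝔫K.1 := by
  classical
  letI : Algebra ↥(zchClosure (A₀ := AK) ({t} : Set FK))
      ↥(zchClosure (A₀ := AE) ({algebraMap FK FE t} : Set FE)) :=
    (tres5kqChart (AK := AK) (AE := AE) (FE := FE) t).toAlgebra
  haveI : Algebra.IsIntegral ↥(zchClosure (A₀ := AK) ({t} : Set FK))
      ↥(zchClosure (A₀ := AE) ({algebraMap FK FE t} : Set FE)) :=
    ⟨tres5kqChart_isIntegral (AK := AK) (AE := AE) (FE := FE) t⟩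
  haveI := 𝔫K.2.1
  haveI := 𝔫K.2.1.isPrime
  obtain ⟨Q, hIQ, hQprime, hQ⟩ := Ideal.exists_ideal_over_prime_of_isIntegral 𝔫K.1 I hI
  haveI := hQprime
  have hQmax : Q.IsMaximal :=
    Ideal.isMaximal_of_isIntegral_of_isMaximal_comap (R := ↥(zchClosure (A₀ := AK) ({t} : Set FK)))
      Q (by rw [hQ]; exact 𝔫K.2.1)
  have hπQ : algebraMap AE ↥(zchClosure (A₀ := AE) ({algebraMap FK FE t} : Set FE))
      (algebraMap AK AE πK) ∈ Q := by
    rw [← tres5kqChart_algebraMap (AK := AK) (AE := AE) (FE := FE) t πK]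
    have h1 : algebraMap AK ↥(zchClosure (A₀ := AK) ({t} : Set FK)) πK ∈
        Q.comap (algebraMap ↥(zchClosure (A₀ := AK) ({t} : Set FK))
          ↥(zchClosure (A₀ := AE) ({algebraMap FK FE t} : Set FE))) := by
      rw [hQ]
      exact 𝔫K.2.2
    exact h1
  exact ⟨⟨Q, hQmax, tres5kq_pi_mem hπE hπK Q hπQ⟩, hIQ, hQ⟩

/-- **(B-pts″), going-up with a base ideal** (helper92's ruling): a closed point `𝔫K` of the
`K`-chart on the component `V_K` lies under a closed point `𝔫E` of the `E`-chart ON the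
component `V_E` (`V_E ∩ F_K = V_K`, weak form `hVV`).  Conclusion = `h𝔫K` in the EXACT shape of
`tres5p_atLoc_hRK` / `tres5ki_point`, and `atThrough 𝔫E V_E`. -/
theorem tres5kq_exists_through' [Algebra.IsIntegral AK AE] (hπE : Irreducible πE)
    (hπK : algebraMap AK AE πK ≠ 0)
    (VE : ValuationSubring FE) (VK : ValuationSubring FK)
    (hBV : ∀ x : FE, IsIntegral (Algebra.adjoin AE ({algebraMap FK FE t} : Set FE)) x → x ∈ VE)
    (hVV : ∀ x : FK, algebraMap FK FE x ∈ VE.nonunits → x ∈ VK.nonunits)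
    (𝔫K : AtPt (F := FK) πK t) (hthr : atThrough 𝔫K VK) :
    ∃ 𝔫E : AtPt (F := FE) πE (algebraMap FK FE t),
      (∀ (bK : ↥(zchClosure (A₀ := AK) ({t} : Set FK)))
        (b : ↥(zchClosure (A₀ := AE) ({algebraMap FK FE t} : Set FE))),
        (b : FE) = algebraMap FK FE (bK : FK) → bK ∈ 𝔫K.1 → b ∈ 𝔫E.1) ∧
      atThrough 𝔫E VE := by
  have hI : Ideal.comap (tres5kqChart (AK := AK) (AE := AE) (FE := FE) t)
      (crossingIdeal (A₀ := AE) ({algebraMap FK FE t} : Set FE) VE hBV) ≤ 𝔫K.1 := by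
    intro x hx
    rw [Ideal.mem_comap, mem_crossingIdeal] at hx
    exact hthr x (hVV (x : FK) hx)
  obtain ⟨𝔫E, hI𝔫, h𝔫E⟩ := tres5kq_exists_comap_ge (AE := AE) (FE := FE) hπE hπK 𝔫K _ hI
  refine ⟨𝔫E, fun bK b hb hbK => ?_, fun b hb => hI𝔫 (mem_crossingIdeal.2 hb)⟩
  have h1 : bK ∈ Ideal.comap (tres5kqChart (AK := AK) (AE := AE) (FE := FE) t) 𝔫E.1 := by
    rw [h𝔫E]
    exact hbK
  rw [Ideal.mem_comap] at h1
  have e : tres5kqChart (AK := AK) (AE := AE) (FE := FE) t bK = b := Subtype.ext hb.symm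
  rw [e] at h1
  exact h1

/-- **(B-pts″)** with `V_K = V_E ∩ F_K` in the shape of helper53's `tres5kiv_hVK`. -/
theorem tres5kq_exists_through [Algebra.IsIntegral AK AE] (hπE : Irreducible πE)
    (hπK : algebraMap AK AE πK ≠ 0)
    (VE : ValuationSubring FE) (VK : ValuationSubring FK)
    (hBV : ∀ x : FE, IsIntegral (Algebra.adjoin AE ({algebraMap FK FE t} : Set FE)) x → x ∈ VE)
    (hVK : VK = VE.comap (algebraMap FK FE))
    (𝔫K : AtPt (F := FK) πK t) (hthr : atThrough 𝔫K VK) :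
    ∃ 𝔫E : AtPt (F := FE) πE (algebraMap FK FE t),
      (∀ (bK : ↥(zchClosure (A₀ := AK) ({t} : Set FK)))
        (b : ↥(zchClosure (A₀ := AE) ({algebraMap FK FE t} : Set FE))),
        (b : FE) = algebraMap FK FE (bK : FK) → bK ∈ 𝔫K.1 → b ∈ 𝔫E.1) ∧
      atThrough 𝔫E VE :=
  tres5kq_exists_through' hπE hπK VE VK hBV
    (fun x hx => by rw [hVK]; exact tres5kq_nonunits_comap VE x hx) 𝔫K hthr

/-- the local ring of a closed point on the component `V` lies in `V` -/
theorem tres5kq_loc_le {u : FE} (VE : ValuationSubring FE)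
    (hBV : ∀ x : FE, IsIntegral (Algebra.adjoin AE ({u} : Set FE)) x → x ∈ VE)
    (𝔫E : AtPt (F := FE) πE u) (hthr : atThrough 𝔫E VE) {x : FE} (hx : x ∈ atLoc 𝔫E) :
    x ∈ VE := by
  obtain ⟨b, s, hs, hsx⟩ := hx
  have hsx' : (s : FE) * x = (b : FE) := hsx
  have hsV : (s : FE) ∈ VE := hBV _ (mem_zchClosure.1 s.2)
  have hbV : (b : FE) ∈ VE := hBV _ (mem_zchClosure.1 b.2)
  have hsn : (s : FE) ∉ VE.nonunits := fun h => hs (hthr s h)
  rw [ValuationSubring.mem_nonunits_iff, not_lt] at hsn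
  have hs1 : VE.valuation (s : FE) = 1 :=
    le_antisymm ((VE.valuation_le_one_iff _).2 hsV) hsn
  rw [← VE.valuation_le_one_iff]
  have h1 : VE.valuation ((s : FE) * x) ≤ 1 := by
    rw [hsx']
    exact (VE.valuation_le_one_iff _).2 hbV
  rwa [map_mul, hs1, one_mul] at h1

end Pts

/-! ### (bonus) `hG𝔫` from triviality modulo `π_E` -/

section Stable

variable {G : Type*} [Group G] {L : Type*} [Field L] [MulSemiringAction G L]
  {AE EE FE : Type*} [CommRing AE] [IsDomain AE] [IsDiscreteValuationRing AE]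
  [Field EE] [Algebra AE EE] [IsFractionRing AE EE] [CharZero EE]
  [Field FE] [Algebra EE FE] [Algebra AE FE] [IsScalarTower AE EE FE] [Algebra FE L]

/-- **`hG𝔫` from triviality mod `π_E`.**  If every `g ∈ G` moves every `b ∈ B_E` by an element of
`π_E B_E`, every closed point of the special fibre of the chart is `G`-stable. -/
theorem tres5kq_stable {u : FE} {πE : AE} (𝔫E : AtPt (F := FE) πE u)
    (htriv : ∀ (g : G) (b : ↥(zchClosure (A₀ := AE) ({u} : Set FE))),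
      ∃ c : ↥(zchClosure (A₀ := AE) ({u} : Set FE)),
        g • algebraMap FE L (b : FE) =
          algebraMap FE L ((b : FE) + algebraMap AE FE πE * (c : FE)))
    (g : G) (b b' : ↥(zchClosure (A₀ := AE) ({u} : Set FE)))
    (hbb' : g • algebraMap FE L (b : FE) = algebraMap FE L (b' : FE)) (hb : b ∈ 𝔫E.1) :
    b' ∈ 𝔫E.1 := by
  obtain ⟨c, hc⟩ := htriv g b
  have h1 : (b' : FE) = (b : FE) + algebraMap AE FE πE * (c : FE) :=
    (algebraMap FE L).injective (hbb'.symm.trans hc)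
  have h2 : b' = b + algebraMap AE ↥(zchClosure (A₀ := AE) ({u} : Set FE)) πE * c :=
    Subtype.ext h1
  rw [h2]
  exact 𝔫E.1.add_mem hb (𝔫E.1.mul_mem_right _ 𝔫E.2.2)

end Stable

end Fermat.Agent.R38

end
end ZBR38_023_2

/-! ### bundled: `Fermat.Agent.R38.TresKFormInstA` -/
section ZBR38_023_3
/-
ROW 38, TRES, piece FAC-KFORM, the INSTANCE at closed points (helper48), layer 2c:
`hsplit` OF (I3) (`tres5npj_hfin`, `R38/TresNodePtConc.lean`) IN THE ABSTRACT CHART FRAME.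

Frame of FAC-PTS / `tres5ki_point`: charts over `A_K ⊂ A_E`, `FK ⊂ FE`, `LK ⊂ L = L_E`, finite
group `G` on `L`.  Inputs:
* `VE`, `VK = VE ∩ FK` the vertical valuations (`V_∞`), `W₀` the GAUSS SHEET of `L` over `VE`,
  `G`-stable, `G` trivial on its residues (helper53's (A)-instance, helper24's FAC-GRED);
* `hBig` : the split structure over the big field at every closed point of the `E`-chart on `VE`,
  with the deck congruences (FAC-BIG, helper16/helper26);
* the field-level inputs of helper29 (`hGF`, `hGA`, `hGt`, `hGLK`, `hfixL`, `hfixF`, `hρG`).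
Output (`tres5ki_hsplit_abs`): at EVERY closed point `𝔫K` of the `K`-chart on `VK`, the cover
`LK / FK` has the split structure with roots `0, …, p − 1`, `[LK : FK] = p`, and one of the points
above `𝔫K` lies on the sheet `W₀ ∩ LK`.

Route (helper92's ruling): going-up with base ideal (helper47 `tres5kq_exists_through`) ⇒ `𝔫E`;
composite (helper26 `tres5kd_atLoc`) ⇒ a `G`-stable `W ≤ W₀` dominating `(B_E)_{𝔫E}`;
`tres5ff_hGn`-type argument ⇒ `𝔫E` is `G`-stable; `tres5ki_point`.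
-/

set_option autoImplicit false
set_option linter.style.haveILetI false
set_option linter.unusedSectionVars false

noncomputable section

namespace Fermat.Agent.R38

open Polynomial Fermat.Agent.UNIP Fermat.Agent.INJ Fermat.Agent.RIB.MP IntermediateField

section Stab

variable {G : Type*} [Group G] {L : Type*} [Field L] [MulSemiringAction G L]

/-- a group preserving a valuation ring preserves its maximal ideal -/
theorem tres5ki_nonunits_smul (W : ValuationSubring L)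
    (hGW : ∀ (g : G), ∀ x ∈ W, g • x ∈ W) (g : G) {x : L} (hx : x ∈ W.nonunits) :
    g • x ∈ W.nonunits := by
  rw [tres5_mem_nonunits_iff] at hx ⊢
  rcases hx with rfl | hx
  · exact Or.inl (smul_zero g)
  · refine Or.inr fun h => hx ?_
    have h2 : g⁻¹ • (g • x)⁻¹ ∈ W := hGW _ _ h
    rwa [smul_inv'', inv_smul_smul] at h2

variable {AE EE FE : Type*} [CommRing AE] [IsDomain AE] [IsDiscreteValuationRing AE]
  [Field EE] [Algebra AE EE] [IsFractionRing AE EE] [CharZero EE]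
  [Field FE] [Algebra EE FE] [Algebra AE FE] [IsScalarTower AE EE FE] [Algebra FE L]

/-- **`hG𝔫`**: a closed point which is the centre of a `G`-stable valuation ring containing the
chart is `G`-stable. -/
theorem tres5ki_stable {u : FE} {πE : AE} (𝔫E : AtPt (F := FE) πE u) (W : ValuationSubring L)
    (hWdom : ∀ x ∈ atLoc 𝔫E, algebraMap FE L x ∈ W)
    (hWmax : ∀ b : ↥(zchClosure (A₀ := AE) ({u} : Set FE)), b ∈ 𝔫E.1 →
      algebraMap FE L (b : FE) ∈ W.nonunits)
    (hGW : ∀ (g : G), ∀ x ∈ W, g • x ∈ W)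
    (g : G) (b b' : ↥(zchClosure (A₀ := AE) ({u} : Set FE)))
    (hbb' : g • algebraMap FE L (b : FE) = algebraMap FE L (b' : FE)) (hb : b ∈ 𝔫E.1) :
    b' ∈ 𝔫E.1 := by
  haveI := 𝔫E.2.1.isPrime
  by_contra hb'
  -- `b'` is a unit of the local ring, hence of `W`
  have hinv : (b' : FE)⁻¹ ∈ atLoc 𝔫E :=
    (ls_unit_mem_localSubring (F := FE) Subtype.val_injective 𝔫E.1
      (ε := (b' : FE)) (s := 1) (t := b')
      (fun h => 𝔫E.2.1.ne_top ((Ideal.eq_top_iff_one _).mpr h)) hb'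
      (by
        show ((1 : ↥(zchClosure (A₀ := AE) ({u} : Set FE))) : FE) * (b' : FE) = (b' : FE)
        rw [OneMemClass.coe_one, one_mul])).2
  have h1 : algebraMap FE L (b' : FE)⁻¹ ∈ W := hWdom _ hinv
  rw [map_inv₀] at h1
  have h2 : algebraMap FE L (b' : FE) ∈ W.nonunits := by
    rw [← hbb']
    exact tres5ki_nonunits_smul W hGW g (hWmax b hb)
  rw [tres5_mem_nonunits_iff] at h2
  rcases h2 with h0 | h2
  · apply hb'
    have : (b' : FE) = 0 := (map_eq_zero (algebraMap FE L)).1 h0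
    have e : b' = 0 := Subtype.ext this
    rw [e]
    exact 𝔫E.1.zero_mem
  · exact h2 h1

end Stab

section Layer2c

variable {G : Type*} [Group G] [Finite G] {L : Type*} [Field L] [MulSemiringAction G L]
  {AE EE FE : Type*} [CommRing AE] [IsDomain AE] [IsDiscreteValuationRing AE]
  [Field EE] [Algebra AE EE] [IsFractionRing AE EE] [CharZero EE]
  [Field FE] [Algebra EE FE] [Algebra AE FE] [IsScalarTower AE EE FE] [Algebra FE L]
  {AK EK FK : Type*} [CommRing AK] [IsDomain AK] [IsDiscreteValuationRing AK]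
  [Field EK] [Algebra AK EK] [IsFractionRing AK EK] [CharZero EK]
  [Field FK] [Algebra EK FK] [Algebra AK FK] [IsScalarTower AK EK FK]
  [Algebra AK AE] [Algebra FK FE] [Algebra AK FE]
  [IsScalarTower AK AE FE] [IsScalarTower AK FK FE]
  {t : FK} {πE : AE} {πK : AK}
  {LK : Type*} [Field LK] [Algebra FK LK] [Algebra LK L] [Algebra FK L]
  [IsScalarTower FK LK L] [IsScalarTower FK FE L]
  {p : ℕ} [hp : Fact p.Prime]

/-- **`hsplit`, abstract chart frame.**  At every closed point `𝔫K` of the `K`-chart on the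
component `VK`, the cover `LK / FK` has the split structure with roots `0, …, p − 1`. -/
theorem tres5ki_hsplit_abs [Algebra.IsIntegral AK AE]
    [FiniteDimensional EE⟮algebraMap FK FE t⟯ FE]
    (hπE : Irreducible πE) (hπK : algebraMap AK AE πK ≠ 0) (hpK : πK ∣ (p : AK))
    (VE : ValuationSubring FE) (VK : ValuationSubring FK)
    (hBV : ∀ x : FE, IsIntegral (Algebra.adjoin AE ({algebraMap FK FE t} : Set FE)) x → x ∈ VE)
    (hVK : VK = VE.comap (algebraMap FK FE))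
    (W₀ : ValuationSubring L) (hW₀V : ∀ x ∈ VE, algebraMap FE L x ∈ W₀)
    (hGW₀ : ∀ (g : G), ∀ x ∈ W₀, g • x ∈ W₀)
    (hGsub : ∀ (g : G), ∀ x ∈ W₀, g • x - x ∈ W₀.nonunits)
    (hGF : ∀ (g : G) (x : FE), ∃ x' : FE, g • algebraMap FE L x = algebraMap FE L x')
    (hGA : ∀ (g : G) (a : AE), ∃ a' : AE,
      g • algebraMap FE L (algebraMap AE FE a) = algebraMap FE L (algebraMap AE FE a'))
    (hGt : ∀ g : G, g • algebraMap FE L (algebraMap FK FE t) =
      algebraMap FE L (algebraMap FK FE t))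
    (hGLK : ∀ (g : G) (y : LK), g • algebraMap LK L y = algebraMap LK L y)
    (hfixL : ∀ x : L, (∀ g : G, g • x = x) → ∃ y : LK, algebraMap LK L y = x)
    (hfixF : ∀ x : FE, (∀ g : G, g • algebraMap FE L x = algebraMap FE L x) →
      ∃ y : FK, algebraMap FK FE y = x)
    (hfin : Module.finrank FE L = p)
    (ρ : L ≃ₐ[FE] L) (hρG : ∀ (g : G) x, ρ (g • x) = g • ρ x)
    (hBig : ∀ 𝔫E : AtPt (F := FE) πE (algebraMap FK FE t), atThrough 𝔫E VE →
      ∀ [IsLocalRing ↥(atLoc 𝔫E)] [IsFractionRing ↥(atLoc 𝔫E) FE]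
        [IsIntegrallyClosed ↥(atLoc 𝔫E)] [Algebra ↥(atLoc 𝔫E) L]
        [IsScalarTower ↥(atLoc 𝔫E) FE L],
        ∃ (z : L) (P : (↥(atLoc 𝔫E))[X]) (c : ZMod p → ↥(atLoc 𝔫E)),
          Tres5eSplit FE z P c ∧
          ∀ i : ZMod p, ∃ b ∈ tres5eMax ↥(atLoc 𝔫E) z (c i),
            ρ z = algebraMap ↥(atLoc 𝔫E) L (c (i + 1)) + (b : L))
    (𝔫K : AtPt (F := FK) πK t) (hthr : atThrough 𝔫K VK)
    [IsLocalRing ↥(atLoc 𝔫K)] [IsFractionRing ↥(atLoc 𝔫K) FK] [IsIntegrallyClosed ↥(atLoc 𝔫K)]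
    [Algebra ↥(atLoc 𝔫K) LK] [IsScalarTower ↥(atLoc 𝔫K) FK LK] :
    ∃ (zK : LK) (PK : (↥(atLoc 𝔫K))[X]),
      Tres5eSplit FK zK PK (fun k : ZMod p => ((k.val : ℕ) : ↥(atLoc 𝔫K))) ∧
      Module.finrank FK LK = p ∧
      ρ (algebraMap LK L zK) ≠ algebraMap LK L zK ∧
      ∃ k : ZMod p,
        ∀ (_ : (tres5eMax ↥(atLoc 𝔫K) zK ((k.val : ℕ) : ↥(atLoc 𝔫K))).IsPrime),
          ∀ x ∈ ls_localSubring (F := LK) (tres5eMax ↥(atLoc 𝔫K) zK ((k.val : ℕ) : ↥(atLoc 𝔫K))),
            algebraMap LK L x ∈ W₀ := by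
  -- the point over the big field
  obtain ⟨𝔫E, h𝔫K, hthrE⟩ := tres5kq_exists_through (AE := AE) (FE := FE) hπE hπK VE VK hBV hVK
    𝔫K hthr
  haveI hlocE : IsLocalRing ↥(atLoc 𝔫E) := tres5bp_isLocalRing 𝔫E
  haveI hfrE : IsFractionRing ↥(atLoc 𝔫E) FE :=
    tres5bp_isFractionRing (A₀ := AE) (E := EE) (algebraMap FK FE t) 𝔫E
  haveI hicE : IsIntegrallyClosed ↥(atLoc 𝔫E) :=
    tres5bp_isIntegrallyClosed (A₀ := AE) (E := EE) (algebraMap FK FE t) 𝔫E
  letI algE : Algebra ↥(atLoc 𝔫E) L := ((algebraMap FE L).comp (atLoc 𝔫E).subtype).toAlgebra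
  haveI towE : IsScalarTower ↥(atLoc 𝔫E) FE L := IsScalarTower.of_algebraMap_eq fun _ => rfl
  obtain ⟨z, P, c, H, hρ⟩ := hBig 𝔫E hthrE
  -- the Gauss sheet contains the local ring
  have hW₀ : ∀ x ∈ atLoc 𝔫E, algebraMap FE L x ∈ W₀ := fun x hx =>
    hW₀V x (tres5kq_loc_le VE hBV 𝔫E hthrE hx)
  -- a `G`-stable valuation ring dominating the local ring
  obtain ⟨W, hle, hWdom, hWmax, hGW⟩ := tres5kd_atLoc 𝔫E W₀ hGW₀ hGsub hW₀
  have hG𝔫 := tres5ki_stable 𝔫E W hWdom hWmax hGW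
  obtain ⟨zK, PK, hT, hfinK, hρz, -, k, -, hk2⟩ :=
    tres5ki_point 𝔫E 𝔫K H hfin hpK hGF hGA hGt hGLK hfixL hfixF hG𝔫 h𝔫K W hWdom hWmax hGW
      ρ hρG hρ
  exact ⟨zK, PK, hT, hfinK, hρz, k, fun h x hx => hle (hk2 h x hx)⟩

end Layer2c

end Fermat.Agent.R38

end


end ZBR38_023_3

/-! ### bundled: `Fermat.Agent.R38.TresPtsInst` -/
section ZBR38_023_4

/-!
# R38 TRES, (FAC-p), K-FORM (B) instance, leaf (B-pts), `G`-stability half (helper90)

`A` a valuation subring of `ℚ̄` over `q`, `K = beta0Field A = ℚ̄^I`, `E ⊇ K` with `A ∩ E` a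
discrete valuation ring with uniformizer `π`, `G = Gal(E / K)` acting coefficientwise on
`L_E = tres5cL E (M q) y` (helper29's `tres5ffAct`), `F_E = F_{Mq}(E)`,
`B_E = zchClosure {t}` the chart `t = j` (or `t = 1 / j`) over `A ∩ E`.

* `tres5pi_smul_eq_mgAct` : on `F_E`, `g ∈ G` acts as `mgAct E (M q) σ` for a lift `σ ∈ I`;
* `tres5pi_trivMod_j`, `tres5pi_trivMod_jinv` : **`G` is trivial modulo `π` on the charts**:
  `g b = b + π c` with `c ∈ B_E` (inertia is trivial modulo `𝔪(V c)`, `mgv_hτV`, and (SS1),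
  `ribmp_fc_hSS1`);
* `tres5pi_hGn_j`, `tres5pi_hGn_jinv` : **(hG𝔫)** of helper48's `tres5ki_point` / helper87's
  `tres5p_atLoc_hRK`, `tres5p_atLoc_hGR`, at EVERY closed point `𝔫E` of the special fibre of the
  chart (`t` is a variable with `ht : t = j`, so that the consumer can take
  `t := algebraMap F_K F_E j_K`).
-/

set_option autoImplicit false
set_option linter.style.haveILetI false
set_option linter.unusedSectionVars false
set_option linter.unusedVariables false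
set_option linter.style.longLine false
set_option synthInstance.maxHeartbeats 400000
set_option maxHeartbeats 1000000

noncomputable section

open ModularCurve Fermat.Agent.INJ Fermat.Agent.UNIP IntermediateField Fermat.Agent.RIB.MP

namespace Fermat.Agent.R38

section Inst

variable {A : ValuationSubring NfQb} {q M : ℕ} [NeZero q] [NeZero M] [NeZero (M * q)]
  {E : IntermediateField ℚ NfQb} [IsDiscreteValuationRing ↥(beta0Ring A E)]
  {π : ↥(beta0Ring A E)} (hπ : Irreducible π) (ιC : ↥E →+* ℂ)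
  (hq : q.Prime) (hqM : ¬ q ∣ M) (hA : A.LiesOverPrime q) (h : beta0Field A ≤ E)
  (h2 : q = 2 → 3 ∣ M) (h3 : q = 3 → 2 ∣ M)
  (y : LaurentSeries NfQb)
  (hstabI : ∀ σ ∈ A.inertiaSubgroupIn ℚ, ∀ x ∈ tres5cField (M * q) y,
    coeffMap ((σ : NfQb ≃ₐ[ℚ] NfQb) : NfQb →+* NfQb) x ∈ tres5cField (M * q) y)

/-- on `F_E`, `g ∈ Gal(E / K)` acts as `mgAct E (M q) σ` for any lift `σ` of `g` -/
theorem tres5pi_smul_eq_mgAct :
    letI := beta0FieldAlgebra h
    letI := tres5ffAct hq hA h (M * q) y hstabI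
    ∀ (g : ↥E ≃ₐ[↥(beta0Field A)] ↥E) (σ : NfQb ≃ₐ[ℚ] NfQb)
      (hσg : ∀ e : ↥E, σ (e : NfQb) = ((g e : ↥E) : NfQb))
      (hσE : ∀ x ∈ E, σ x ∈ E) (x : ↥(modularFunctionFieldFullC ↥E (M * q))),
      g • algebraMap ↥(modularFunctionFieldFullC ↥E (M * q)) ↥(tres5cL E (M * q) y) x
        = algebraMap ↥(modularFunctionFieldFullC ↥E (M * q)) ↥(tres5cL E (M * q) y)
            (mgAct E (M * q) σ hσE x) := by
  letI := beta0FieldAlgebra h
  letI := tres5ffAct hq hA h (M * q) y hstabI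
  intro g σ hσg hσE x
  have hg : ((g : ↥E ≃ₐ[↥(beta0Field A)] ↥E) : ↥E →+* ↥E) = mgRestrict E σ hσE :=
    RingHom.ext fun e => Subtype.ext (hσg e).symm
  apply Subtype.ext
  rw [tres5ffAct_coe hq hA h (M * q) y hstabI g, tres5ff_L_algebraMap_coe,
    tres5ff_L_algebraMap_coe, mgAct_coe, hg]

include hq hA in
/-- a lift `σ ∈ I` of `g ∈ Gal(E / K)` stabilises `E` -/
theorem tres5pi_lift :
    letI := beta0FieldAlgebra h
    ∀ g : ↥E ≃ₐ[↥(beta0Field A)] ↥E,
      ∃ σ : NfQb ≃ₐ[ℚ] NfQb, σ ∈ A.inertiaSubgroupIn ℚ ∧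
        (∀ e : ↥E, σ (e : NfQb) = ((g e : ↥E) : NfQb)) ∧ ∀ x ∈ E, σ x ∈ E := by
  letI := beta0FieldAlgebra h
  intro g
  obtain ⟨σ, hσ, hσg⟩ := tres5ff_lift' hq hA h g
  refine ⟨σ, hσ, hσg, fun x hx => ?_⟩
  rw [hσg ⟨x, hx⟩]
  exact (g ⟨x, hx⟩).2

/-- `mgAct` of an inertial `σ` preserves the constants `A ∩ E` -/
theorem tres5pi_mgAct_const {σ : NfQb ≃ₐ[ℚ] NfQb} (hσ : σ ∈ A.inertiaSubgroupIn ℚ)
    (hσE : ∀ x ∈ E, σ x ∈ E) (N : ℕ) (a : ↥(beta0Ring A E)) :
    ∃ a' : ↥(beta0Ring A E),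
      mgAct E N σ hσE (algebraMap ↥(beta0Ring A E) ↥(modularFunctionFieldFullC ↥E N) a)
        = algebraMap ↥(beta0Ring A E) ↥(modularFunctionFieldFullC ↥E N) a' := by
  refine ⟨⟨mgRestrict E σ hσE (a : ↥E),
    (Fermat.Agent.S05.inertia_apply_mem_iff hσ _).2 a.2⟩, ?_⟩
  rw [IsScalarTower.algebraMap_apply ↥(beta0Ring A E) ↥E ↥(modularFunctionFieldFullC ↥E N),
    mgAct_algebraMap]
  rfl

/-- `mgAct` fixes `j` -/
theorem tres5pi_mgAct_bgJ (σ : NfQb ≃ₐ[ℚ] NfQb) (hσE : ∀ x ∈ E, σ x ∈ E) (N : ℕ) :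
    mgAct E N σ hσE (bgJ ↥E N) = bgJ ↥E N :=
  Subtype.ext (coeffMap_jqModC (mgRestrict E σ hσE))

include hπ ιC hqM h2 h3 in
/-- **`G = Gal(E / K)` is trivial modulo `π` on the chart `j`** of `F_{Mq}(E)` over `A ∩ E`. -/
theorem tres5pi_trivMod_j :
    letI := beta0FieldAlgebra h
    letI := tres5ffAct hq hA h (M * q) y hstabI
    ∀ (g : ↥E ≃ₐ[↥(beta0Field A)] ↥E) (b : ↥(modularFunctionFieldFullC ↥E (M * q))),
      IsIntegral ↥(Algebra.adjoin ↥(beta0Ring A E)
        ({bgJ ↥E (M * q)} : Set ↥(modularFunctionFieldFullC ↥E (M * q)))) b →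
      ∃ c : ↥(modularFunctionFieldFullC ↥E (M * q)),
        IsIntegral ↥(Algebra.adjoin ↥(beta0Ring A E)
          ({bgJ ↥E (M * q)} : Set ↥(modularFunctionFieldFullC ↥E (M * q)))) c ∧
        g • algebraMap ↥(modularFunctionFieldFullC ↥E (M * q)) ↥(tres5cL E (M * q) y) b
          = algebraMap ↥(modularFunctionFieldFullC ↥E (M * q)) ↥(tres5cL E (M * q) y)
              (b + algebraMap ↥(beta0Ring A E) ↥(modularFunctionFieldFullC ↥E (M * q)) π * c) := by
  letI := beta0FieldAlgebra h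
  letI := tres5ffAct hq hA h (M * q) y hstabI
  intro g b hb
  obtain ⟨σ, hσ, hσg, hσE⟩ := tres5pi_lift hq hA h g
  have hact := tres5pi_smul_eq_mgAct hq hA h y hstabI g σ hσg hσE b
  have hb' : IsIntegral ↥(Algebra.adjoin ↥(beta0Ring A E)
      ({bgJ ↥E (M * q)} : Set ↥(modularFunctionFieldFullC ↥E (M * q))))
      (mgAct E (M * q) σ hσE b) :=
    tres5p_isIntegral_smul (mgAct E (M * q) σ hσE)
      (fun a => tres5pi_mgAct_const hσ hσE (M * q) a) _
      (tres5pi_mgAct_bgJ σ hσE (M * q)) b hb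
  have hd : IsIntegral ↥(Algebra.adjoin ↥(beta0Ring A E)
      ({bgJ ↥E (M * q)} : Set ↥(modularFunctionFieldFullC ↥E (M * q))))
      (mgAct E (M * q) σ hσE b - b) := IsIntegral.sub hb' hb
  have hdV : ∀ c, mgAct E (M * q) σ hσE b - b ∈ (mgvV hπ ιC hq hqM c).nonunits := fun c =>
    mgv_hτV hπ ιC hq hqM hσ hσE c b (mgv_hBV₁ hπ ιC hq hqM c b hb)
  obtain ⟨d', hd', hdd'⟩ := ribmp_fc_hSS1 hπ ιC hq hqM hA h h2 h3 _ hd hdV
  refine ⟨d', hd', ?_⟩
  rw [hact, ← hdd', add_sub_cancel]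

include hπ ιC hqM h2 h3 in
/-- **`G = Gal(E / K)` is trivial modulo `π` on the chart `1 / j`** of `F_{Mq}(E)` over
`A ∩ E`. -/
theorem tres5pi_trivMod_jinv :
    letI := beta0FieldAlgebra h
    letI := tres5ffAct hq hA h (M * q) y hstabI
    ∀ (g : ↥E ≃ₐ[↥(beta0Field A)] ↥E) (b : ↥(modularFunctionFieldFullC ↥E (M * q))),
      IsIntegral ↥(Algebra.adjoin ↥(beta0Ring A E)
        ({(bgJ ↥E (M * q))⁻¹} : Set ↥(modularFunctionFieldFullC ↥E (M * q)))) b →
      ∃ c : ↥(modularFunctionFieldFullC ↥E (M * q)),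
        IsIntegral ↥(Algebra.adjoin ↥(beta0Ring A E)
          ({(bgJ ↥E (M * q))⁻¹} : Set ↥(modularFunctionFieldFullC ↥E (M * q)))) c ∧
        g • algebraMap ↥(modularFunctionFieldFullC ↥E (M * q)) ↥(tres5cL E (M * q) y) b
          = algebraMap ↥(modularFunctionFieldFullC ↥E (M * q)) ↥(tres5cL E (M * q) y)
              (b + algebraMap ↥(beta0Ring A E) ↥(modularFunctionFieldFullC ↥E (M * q)) π * c) := by
  letI := beta0FieldAlgebra h
  letI := tres5ffAct hq hA h (M * q) y hstabI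
  intro g b hb
  obtain ⟨σ, hσ, hσg, hσE⟩ := tres5pi_lift hq hA h g
  have hact := tres5pi_smul_eq_mgAct hq hA h y hstabI g σ hσg hσE b
  have hb' : IsIntegral ↥(Algebra.adjoin ↥(beta0Ring A E)
      ({(bgJ ↥E (M * q))⁻¹} : Set ↥(modularFunctionFieldFullC ↥E (M * q))))
      (mgAct E (M * q) σ hσE b) :=
    tres5p_isIntegral_smul (mgAct E (M * q) σ hσE)
      (fun a => tres5pi_mgAct_const hσ hσE (M * q) a) _
      (by rw [map_inv₀, tres5pi_mgAct_bgJ σ hσE (M * q)]) b hb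
  have hd : IsIntegral ↥(Algebra.adjoin ↥(beta0Ring A E)
      ({(bgJ ↥E (M * q))⁻¹} : Set ↥(modularFunctionFieldFullC ↥E (M * q))))
      (mgAct E (M * q) σ hσE b - b) := IsIntegral.sub hb' hb
  have hdV : ∀ c, mgAct E (M * q) σ hσE b - b ∈ (mgvV hπ ιC hq hqM c).nonunits := fun c =>
    mgv_hτV hπ ιC hq hqM hσ hσE c b (mgv_hBV₂ hπ ιC hq hqM c b hb)
  obtain ⟨d', hd', hdd'⟩ := ribmp_fc_hSS1_inv hπ ιC hq hqM hA h h2 h3 _ hd hdV
  refine ⟨d', hd', ?_⟩
  rw [hact, ← hdd', add_sub_cancel]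

/-- the base change `F_N(K) → F_N(E)` maps `j` to `j` -/
theorem tres5pi_baseIncl_bgJ {K : IntermediateField ℚ NfQb} (hKE : K ≤ E) (N : ℕ) :
    tres5cBaseIncl N hKE (bgJ ↥K N) = bgJ ↥E N :=
  Subtype.ext (coeffMap_jqModC (IntermediateField.inclusion hKE).toRingHom)

/-- the base change `F_N(K) → F_N(E)` maps `1 / j` to `1 / j` -/
theorem tres5pi_baseIncl_bgJ_inv {K : IntermediateField ℚ NfQb} (hKE : K ≤ E) (N : ℕ) :
    tres5cBaseIncl N hKE (bgJ ↥K N)⁻¹ = (bgJ ↥E N)⁻¹ := by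
  rw [map_inv₀, tres5pi_baseIncl_bgJ]

include hπ ιC hqM h2 h3 in
/-- **(hG𝔫), chart `j`**: EVERY closed point `𝔫E` of the special fibre of the chart `j` of
`F_{Mq}(E)` over `A ∩ E` is stable under `G = Gal(E / K)`. -/
theorem tres5pi_hGn_j (t : ↥(modularFunctionFieldFullC ↥E (M * q)))
    (ht : t = bgJ ↥E (M * q))
    (𝔫E : AtPt (F := ↥(modularFunctionFieldFullC ↥E (M * q))) π t) :
    letI := beta0FieldAlgebra h
    letI := tres5ffAct hq hA h (M * q) y hstabI
    ∀ (g : ↥E ≃ₐ[↥(beta0Field A)] ↥E)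
      (b b' : ↥(zchClosure (A₀ := ↥(beta0Ring A E))
        ({t} : Set ↥(modularFunctionFieldFullC ↥E (M * q))))),
      g • algebraMap ↥(modularFunctionFieldFullC ↥E (M * q)) ↥(tres5cL E (M * q) y)
          (b : ↥(modularFunctionFieldFullC ↥E (M * q)))
        = algebraMap ↥(modularFunctionFieldFullC ↥E (M * q)) ↥(tres5cL E (M * q) y)
          (b' : ↥(modularFunctionFieldFullC ↥E (M * q))) →
      b ∈ 𝔫E.1 → b' ∈ 𝔫E.1 := by
  letI := beta0FieldAlgebra h
  letI := tres5ffAct hq hA h (M * q) y hstabI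
  subst ht
  intro g b b' hgb hb
  obtain ⟨c, hc, hgc⟩ := tres5pi_trivMod_j hπ ιC hq hqM hA h h2 h3 y hstabI g
    (b : ↥(modularFunctionFieldFullC ↥E (M * q))) (mem_zchClosure.1 b.2)
  have hinj : Function.Injective
      (algebraMap ↥(modularFunctionFieldFullC ↥E (M * q)) ↥(tres5cL E (M * q) y)) :=
    (algebraMap ↥(modularFunctionFieldFullC ↥E (M * q)) ↥(tres5cL E (M * q) y)).injective
  have e1 : (b' : ↥(modularFunctionFieldFullC ↥E (M * q))) =
      (b : ↥(modularFunctionFieldFullC ↥E (M * q))) +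
        algebraMap ↥(beta0Ring A E) ↥(modularFunctionFieldFullC ↥E (M * q)) π * c :=
    hinj (hgb.symm.trans hgc)
  have e2 : b' = b + algebraMap ↥(beta0Ring A E) ↥(zchClosure (A₀ := ↥(beta0Ring A E))
      ({bgJ ↥E (M * q)} : Set ↥(modularFunctionFieldFullC ↥E (M * q)))) π *
        ⟨c, mem_zchClosure.2 hc⟩ := Subtype.ext e1
  rw [e2]
  exact 𝔫E.1.add_mem hb (𝔫E.1.mul_mem_right _ 𝔫E.2.2)

include hπ ιC hqM h2 h3 in
/-- **(hG𝔫), chart `1 / j`**: EVERY closed point `𝔫E` of the special fibre of the chart `1 / j`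
of `F_{Mq}(E)` over `A ∩ E` is stable under `G = Gal(E / K)`. -/
theorem tres5pi_hGn_jinv (t : ↥(modularFunctionFieldFullC ↥E (M * q)))
    (ht : t = (bgJ ↥E (M * q))⁻¹)
    (𝔫E : AtPt (F := ↥(modularFunctionFieldFullC ↥E (M * q))) π t) :
    letI := beta0FieldAlgebra h
    letI := tres5ffAct hq hA h (M * q) y hstabI
    ∀ (g : ↥E ≃ₐ[↥(beta0Field A)] ↥E)
      (b b' : ↥(zchClosure (A₀ := ↥(beta0Ring A E))
        ({t} : Set ↥(modularFunctionFieldFullC ↥E (M * q))))),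
      g • algebraMap ↥(modularFunctionFieldFullC ↥E (M * q)) ↥(tres5cL E (M * q) y)
          (b : ↥(modularFunctionFieldFullC ↥E (M * q)))
        = algebraMap ↥(modularFunctionFieldFullC ↥E (M * q)) ↥(tres5cL E (M * q) y)
          (b' : ↥(modularFunctionFieldFullC ↥E (M * q))) →
      b ∈ 𝔫E.1 → b' ∈ 𝔫E.1 := by
  letI := beta0FieldAlgebra h
  letI := tres5ffAct hq hA h (M * q) y hstabI
  subst ht
  intro g b b' hgb hb
  obtain ⟨c, hc, hgc⟩ := tres5pi_trivMod_jinv hπ ιC hq hqM hA h h2 h3 y hstabI g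
    (b : ↥(modularFunctionFieldFullC ↥E (M * q))) (mem_zchClosure.1 b.2)
  have hinj : Function.Injective
      (algebraMap ↥(modularFunctionFieldFullC ↥E (M * q)) ↥(tres5cL E (M * q) y)) :=
    (algebraMap ↥(modularFunctionFieldFullC ↥E (M * q)) ↥(tres5cL E (M * q) y)).injective
  have e1 : (b' : ↥(modularFunctionFieldFullC ↥E (M * q))) =
      (b : ↥(modularFunctionFieldFullC ↥E (M * q))) +
        algebraMap ↥(beta0Ring A E) ↥(modularFunctionFieldFullC ↥E (M * q)) π * c :=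
    hinj (hgb.symm.trans hgc)
  have e2 : b' = b + algebraMap ↥(beta0Ring A E) ↥(zchClosure (A₀ := ↥(beta0Ring A E))
      ({(bgJ ↥E (M * q))⁻¹} : Set ↥(modularFunctionFieldFullC ↥E (M * q)))) π *
        ⟨c, mem_zchClosure.2 hc⟩ := Subtype.ext e1
  rw [e2]
  exact 𝔫E.1.add_mem hb (𝔫E.1.mul_mem_right _ 𝔫E.2.2)

end Inst

end Fermat.Agent.R38

end
end ZBR38_023_4

/-! ### bundled: `Fermat.Agent.R38.TresKFormPtsInst` -/
section ZBR38_023_5

/-!
# Row 38, TRES, K-FORM (B) instance, leaf (B-pts″), CONCRETE FORM (helper47)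

Concrete frame of helper52 (`R38/TresKFormInstG.lean`), helper53 (`R38/TresKFormInstV.lean`) and
helper90 (`R38/TresPtsInst.lean`): `A` a valuation subring of `ℚ̄` over `q`,
`K = beta0Field A = ℚ̄^I`, `E ⊇ K`, `A_K = beta0Ring A K`, `A_E = beta0Ring A E` discrete valuation
rings, `F_K = F_{Mq}(K)`, `F_E = F_{Mq}(E)`, vertical valuations `mgvV … c`.

* `tres5kqi_exists`      : **going-up with a base ideal**, any chart `t ∈ F_K`: a closed point
  `𝔫K` of the `K`-chart on `V_K c` lies under a closed point `𝔫E` of the `E`-chart on `V_E c`;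
* `tres5kqi_exists_j`    : the chart `t = j`;
* `tres5kqi_exists_jinv` : the chart `t = 1 / j`;
* `tres5kqi_point_j`, `tres5kqi_point_jinv` : the same together with `hG𝔫` (helper90's
  `tres5pi_hGn_j`, `tres5pi_hGn_jinv`) at the point `𝔫E` found.

The algebra structures are helper52's `tres5kigAlgAA h`, `tres5kigAlgAF h N` and helper78's
`tres5cAlgFF N h` (`letI`).
-/

set_option autoImplicit false
set_option linter.style.haveILetI false
set_option linter.unusedSectionVars false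
set_option linter.unusedVariables false
set_option linter.style.longLine false
set_option synthInstance.maxHeartbeats 400000
set_option maxHeartbeats 1000000

noncomputable section

open ModularCurve Fermat.Agent.INJ Fermat.Agent.UNIP IntermediateField Fermat.Agent.RIB.MP

namespace Fermat.Agent.R38

section Conc

variable {A : ValuationSubring NfQb} {q M : ℕ} [NeZero q] [NeZero M] [NeZero (M * q)]
  {E : IntermediateField ℚ NfQb}
  [IsDiscreteValuationRing ↥(beta0Ring A (beta0Field A))]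
  {π₀ : ↥(beta0Ring A (beta0Field A))} (hπ₀ : Irreducible π₀)
  [IsDiscreteValuationRing ↥(beta0Ring A E)] {π₁ : ↥(beta0Ring A E)} (hπ₁ : Irreducible π₁)
  (ιC₀ : ↥(beta0Field A) →+* ℂ) (ιC₁ : ↥E →+* ℂ)
  (hq : q.Prime) (hqM : ¬ q ∣ M) (hA : A.LiesOverPrime q) (h : beta0Field A ≤ E)

include hπ₀ in
/-- the image of `π_K` in `A_E` is not zero -/
theorem tres5kqi_pi_ne_zero :
    @algebraMap ↥(beta0Ring A (beta0Field A)) ↥(beta0Ring A E) _ _ (tres5kigAlgAA h) π₀ ≠ 0 := by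
  intro h0
  apply hπ₀.ne_zero
  apply beta0RingIncl_injective (A := A) h
  rw [map_zero]
  exact h0

include hπ₀ hπ₁ hq hA in
/-- **(B-pts″), concrete, any chart.**  `t ∈ F_K` a chart coordinate whose `E`-chart lies in
`V_E c` (`hBV`): every closed point `𝔫K` of the `K`-chart on `V_K c` lies under a closed point
`𝔫E` of the `E`-chart on `V_E c`. -/
theorem tres5kqi_exists (c : Bool)
    (t : ↥(modularFunctionFieldFullC ↥(beta0Field A) (M * q)))
    (hBV : ∀ x : ↥(modularFunctionFieldFullC ↥E (M * q)),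
      IsIntegral ↥(Algebra.adjoin ↥(beta0Ring A E)
        ({tres5cBaseIncl (M * q) h t} : Set ↥(modularFunctionFieldFullC ↥E (M * q)))) x →
      x ∈ mgvV hπ₁ ιC₁ hq hqM c)
    (𝔫K : AtPt (F := ↥(modularFunctionFieldFullC ↥(beta0Field A) (M * q))) π₀ t)
    (hthr : atThrough 𝔫K (mgvV hπ₀ ιC₀ hq hqM c)) :
    letI := tres5cAlgFF (M * q) h
    letI := tres5kigAlgAA (A := A) h
    letI := tres5kigAlgAF (A := A) h (M * q)
    ∃ 𝔫E : AtPt (F := ↥(modularFunctionFieldFullC ↥E (M * q))) π₁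
        (algebraMap ↥(modularFunctionFieldFullC ↥(beta0Field A) (M * q))
          ↥(modularFunctionFieldFullC ↥E (M * q)) t),
      (∀ (bK : ↥(zchClosure (A₀ := ↥(beta0Ring A (beta0Field A)))
          ({t} : Set ↥(modularFunctionFieldFullC ↥(beta0Field A) (M * q)))))
        (b : ↥(zchClosure (A₀ := ↥(beta0Ring A E))
          ({algebraMap ↥(modularFunctionFieldFullC ↥(beta0Field A) (M * q))
            ↥(modularFunctionFieldFullC ↥E (M * q)) t} :
            Set ↥(modularFunctionFieldFullC ↥E (M * q))))),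
        (b : ↥(modularFunctionFieldFullC ↥E (M * q))) =
          algebraMap ↥(modularFunctionFieldFullC ↥(beta0Field A) (M * q))
            ↥(modularFunctionFieldFullC ↥E (M * q))
            (bK : ↥(modularFunctionFieldFullC ↥(beta0Field A) (M * q))) →
        bK ∈ 𝔫K.1 → b ∈ 𝔫E.1) ∧
      atThrough 𝔫E (mgvV hπ₁ ιC₁ hq hqM c) := by
  letI := tres5cAlgFF (M * q) h
  letI := tres5kigAlgAA (A := A) h
  letI := tres5kigAlgAF (A := A) h (M * q)
  haveI := tres5kig_tower_AAF (A := A) h (M * q)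
  haveI := tres5kig_tower_AFF (A := A) h (M * q)
  haveI := tres5kig_isIntegral hq hA h
  exact tres5kq_exists_through hπ₁ (tres5kqi_pi_ne_zero hπ₀ h)
    (mgvV hπ₁ ιC₁ hq hqM c) (mgvV hπ₀ ιC₀ hq hqM c) hBV
    (tres5kiv_hVK hπ₀ hπ₁ ιC₀ ιC₁ hq hqM h c) 𝔫K hthr

include hπ₀ hπ₁ hq hA in
/-- **(B-pts″), concrete, chart `j`.** -/
theorem tres5kqi_exists_j (c : Bool)
    (𝔫K : AtPt (F := ↥(modularFunctionFieldFullC ↥(beta0Field A) (M * q))) π₀
      (bgJ ↥(beta0Field A) (M * q)))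
    (hthr : atThrough 𝔫K (mgvV hπ₀ ιC₀ hq hqM c)) :
    letI := tres5cAlgFF (M * q) h
    letI := tres5kigAlgAA (A := A) h
    letI := tres5kigAlgAF (A := A) h (M * q)
    ∃ 𝔫E : AtPt (F := ↥(modularFunctionFieldFullC ↥E (M * q))) π₁
        (algebraMap ↥(modularFunctionFieldFullC ↥(beta0Field A) (M * q))
          ↥(modularFunctionFieldFullC ↥E (M * q)) (bgJ ↥(beta0Field A) (M * q))),
      (∀ (bK : ↥(zchClosure (A₀ := ↥(beta0Ring A (beta0Field A)))
          ({bgJ ↥(beta0Field A) (M * q)} :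
            Set ↥(modularFunctionFieldFullC ↥(beta0Field A) (M * q)))))
        (b : ↥(zchClosure (A₀ := ↥(beta0Ring A E))
          ({algebraMap ↥(modularFunctionFieldFullC ↥(beta0Field A) (M * q))
            ↥(modularFunctionFieldFullC ↥E (M * q)) (bgJ ↥(beta0Field A) (M * q))} :
            Set ↥(modularFunctionFieldFullC ↥E (M * q))))),
        (b : ↥(modularFunctionFieldFullC ↥E (M * q))) =
          algebraMap ↥(modularFunctionFieldFullC ↥(beta0Field A) (M * q))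
            ↥(modularFunctionFieldFullC ↥E (M * q))
            (bK : ↥(modularFunctionFieldFullC ↥(beta0Field A) (M * q))) →
        bK ∈ 𝔫K.1 → b ∈ 𝔫E.1) ∧
      atThrough 𝔫E (mgvV hπ₁ ιC₁ hq hqM c) := by
  refine tres5kqi_exists hπ₀ hπ₁ ιC₀ ιC₁ hq hqM hA h c (bgJ ↥(beta0Field A) (M * q)) ?_ 𝔫K hthr
  intro x hx
  rw [tres5pi_baseIncl_bgJ h (M * q)] at hx
  exact mgv_hBV₁ hπ₁ ιC₁ hq hqM c x hx

include hπ₀ hπ₁ hq hA in
/-- **(B-pts″), concrete, chart `1 / j`.** -/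
theorem tres5kqi_exists_jinv (c : Bool)
    (𝔫K : AtPt (F := ↥(modularFunctionFieldFullC ↥(beta0Field A) (M * q))) π₀
      (bgJ ↥(beta0Field A) (M * q))⁻¹)
    (hthr : atThrough 𝔫K (mgvV hπ₀ ιC₀ hq hqM c)) :
    letI := tres5cAlgFF (M * q) h
    letI := tres5kigAlgAA (A := A) h
    letI := tres5kigAlgAF (A := A) h (M * q)
    ∃ 𝔫E : AtPt (F := ↥(modularFunctionFieldFullC ↥E (M * q))) π₁
        (algebraMap ↥(modularFunctionFieldFullC ↥(beta0Field A) (M * q))
          ↥(modularFunctionFieldFullC ↥E (M * q)) (bgJ ↥(beta0Field A) (M * q))⁻¹),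
      (∀ (bK : ↥(zchClosure (A₀ := ↥(beta0Ring A (beta0Field A)))
          ({(bgJ ↥(beta0Field A) (M * q))⁻¹} :
            Set ↥(modularFunctionFieldFullC ↥(beta0Field A) (M * q)))))
        (b : ↥(zchClosure (A₀ := ↥(beta0Ring A E))
          ({algebraMap ↥(modularFunctionFieldFullC ↥(beta0Field A) (M * q))
            ↥(modularFunctionFieldFullC ↥E (M * q)) (bgJ ↥(beta0Field A) (M * q))⁻¹} :
            Set ↥(modularFunctionFieldFullC ↥E (M * q))))),
        (b : ↥(modularFunctionFieldFullC ↥E (M * q))) =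
          algebraMap ↥(modularFunctionFieldFullC ↥(beta0Field A) (M * q))
            ↥(modularFunctionFieldFullC ↥E (M * q))
            (bK : ↥(modularFunctionFieldFullC ↥(beta0Field A) (M * q))) →
        bK ∈ 𝔫K.1 → b ∈ 𝔫E.1) ∧
      atThrough 𝔫E (mgvV hπ₁ ιC₁ hq hqM c) := by
  refine tres5kqi_exists hπ₀ hπ₁ ιC₀ ιC₁ hq hqM hA h c (bgJ ↥(beta0Field A) (M * q))⁻¹ ?_ 𝔫K hthr
  intro x hx
  rw [tres5pi_baseIncl_bgJ_inv h (M * q)] at hx
  exact mgv_hBV₂ hπ₁ ιC₁ hq hqM c x hx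

/-! ### One stop: `𝔫E` with `h𝔫K`, `atThrough` and `hG𝔫` -/

section Point

variable (h2 : q = 2 → 3 ∣ M) (h3 : q = 3 → 2 ∣ M)
  (y : LaurentSeries NfQb)
  (hstabI : ∀ σ ∈ A.inertiaSubgroupIn ℚ, ∀ x ∈ tres5cField (M * q) y,
    coeffMap ((σ : NfQb ≃ₐ[ℚ] NfQb) : NfQb →+* NfQb) x ∈ tres5cField (M * q) y)

include hπ₀ hπ₁ hq hA ιC₁ hqM h2 h3 in
/-- **(B-pts), concrete, chart `j`, both halves**: a closed point `𝔫K` of the `K`-chart on
`V_K c` lies under a closed point `𝔫E` of the `E`-chart ON `V_E c`, with `h𝔫K` and `hG𝔫`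
(helper90's `tres5pi_hGn_j`) in the EXACT shapes of `tres5ki_point` / `tres5kd_point`. -/
theorem tres5kqi_point_j (c : Bool)
    (𝔫K : AtPt (F := ↥(modularFunctionFieldFullC ↥(beta0Field A) (M * q))) π₀
      (bgJ ↥(beta0Field A) (M * q)))
    (hthr : atThrough 𝔫K (mgvV hπ₀ ιC₀ hq hqM c)) :
    letI := tres5cAlgFF (M * q) h
    letI := tres5kigAlgAA (A := A) h
    letI := tres5kigAlgAF (A := A) h (M * q)
    letI := beta0FieldAlgebra h
    letI := tres5ffAct hq hA h (M * q) y hstabI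
    ∃ 𝔫E : AtPt (F := ↥(modularFunctionFieldFullC ↥E (M * q))) π₁
        (algebraMap ↥(modularFunctionFieldFullC ↥(beta0Field A) (M * q))
          ↥(modularFunctionFieldFullC ↥E (M * q)) (bgJ ↥(beta0Field A) (M * q))),
      (∀ (bK : ↥(zchClosure (A₀ := ↥(beta0Ring A (beta0Field A)))
          ({bgJ ↥(beta0Field A) (M * q)} :
            Set ↥(modularFunctionFieldFullC ↥(beta0Field A) (M * q)))))
        (b : ↥(zchClosure (A₀ := ↥(beta0Ring A E))
          ({algebraMap ↥(modularFunctionFieldFullC ↥(beta0Field A) (M * q))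
            ↥(modularFunctionFieldFullC ↥E (M * q)) (bgJ ↥(beta0Field A) (M * q))} :
            Set ↥(modularFunctionFieldFullC ↥E (M * q))))),
        (b : ↥(modularFunctionFieldFullC ↥E (M * q))) =
          algebraMap ↥(modularFunctionFieldFullC ↥(beta0Field A) (M * q))
            ↥(modularFunctionFieldFullC ↥E (M * q))
            (bK : ↥(modularFunctionFieldFullC ↥(beta0Field A) (M * q))) →
        bK ∈ 𝔫K.1 → b ∈ 𝔫E.1) ∧
      atThrough 𝔫E (mgvV hπ₁ ιC₁ hq hqM c) ∧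
      ∀ (g : ↥E ≃ₐ[↥(beta0Field A)] ↥E)
        (b b' : ↥(zchClosure (A₀ := ↥(beta0Ring A E))
          ({algebraMap ↥(modularFunctionFieldFullC ↥(beta0Field A) (M * q))
            ↥(modularFunctionFieldFullC ↥E (M * q)) (bgJ ↥(beta0Field A) (M * q))} :
            Set ↥(modularFunctionFieldFullC ↥E (M * q))))),
        g • algebraMap ↥(modularFunctionFieldFullC ↥E (M * q)) ↥(tres5cL E (M * q) y)
            (b : ↥(modularFunctionFieldFullC ↥E (M * q)))
          = algebraMap ↥(modularFunctionFieldFullC ↥E (M * q)) ↥(tres5cL E (M * q) y)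
            (b' : ↥(modularFunctionFieldFullC ↥E (M * q))) →
        b ∈ 𝔫E.1 → b' ∈ 𝔫E.1 := by
  letI := tres5cAlgFF (M * q) h
  letI := tres5kigAlgAA (A := A) h
  letI := tres5kigAlgAF (A := A) h (M * q)
  letI := beta0FieldAlgebra h
  letI := tres5ffAct hq hA h (M * q) y hstabI
  obtain ⟨𝔫E, h𝔫K, hthrE⟩ := tres5kqi_exists_j hπ₀ hπ₁ ιC₀ ιC₁ hq hqM hA h c 𝔫K hthr
  exact ⟨𝔫E, h𝔫K, hthrE,
    tres5pi_hGn_j hπ₁ ιC₁ hq hqM hA h h2 h3 y hstabI _ (tres5pi_baseIncl_bgJ h (M * q)) 𝔫E⟩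

include hπ₀ hπ₁ hq hA ιC₁ hqM h2 h3 in
/-- **(B-pts), concrete, chart `1 / j`, both halves.** -/
theorem tres5kqi_point_jinv (c : Bool)
    (𝔫K : AtPt (F := ↥(modularFunctionFieldFullC ↥(beta0Field A) (M * q))) π₀
      (bgJ ↥(beta0Field A) (M * q))⁻¹)
    (hthr : atThrough 𝔫K (mgvV hπ₀ ιC₀ hq hqM c)) :
    letI := tres5cAlgFF (M * q) h
    letI := tres5kigAlgAA (A := A) h
    letI := tres5kigAlgAF (A := A) h (M * q)
    letI := beta0FieldAlgebra h
    letI := tres5ffAct hq hA h (M * q) y hstabI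
    ∃ 𝔫E : AtPt (F := ↥(modularFunctionFieldFullC ↥E (M * q))) π₁
        (algebraMap ↥(modularFunctionFieldFullC ↥(beta0Field A) (M * q))
          ↥(modularFunctionFieldFullC ↥E (M * q)) (bgJ ↥(beta0Field A) (M * q))⁻¹),
      (∀ (bK : ↥(zchClosure (A₀ := ↥(beta0Ring A (beta0Field A)))
          ({(bgJ ↥(beta0Field A) (M * q))⁻¹} :
            Set ↥(modularFunctionFieldFullC ↥(beta0Field A) (M * q)))))
        (b : ↥(zchClosure (A₀ := ↥(beta0Ring A E))
          ({algebraMap ↥(modularFunctionFieldFullC ↥(beta0Field A) (M * q))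
            ↥(modularFunctionFieldFullC ↥E (M * q)) (bgJ ↥(beta0Field A) (M * q))⁻¹} :
            Set ↥(modularFunctionFieldFullC ↥E (M * q))))),
        (b : ↥(modularFunctionFieldFullC ↥E (M * q))) =
          algebraMap ↥(modularFunctionFieldFullC ↥(beta0Field A) (M * q))
            ↥(modularFunctionFieldFullC ↥E (M * q))
            (bK : ↥(modularFunctionFieldFullC ↥(beta0Field A) (M * q))) →
        bK ∈ 𝔫K.1 → b ∈ 𝔫E.1) ∧
      atThrough 𝔫E (mgvV hπ₁ ιC₁ hq hqM c) ∧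
      ∀ (g : ↥E ≃ₐ[↥(beta0Field A)] ↥E)
        (b b' : ↥(zchClosure (A₀ := ↥(beta0Ring A E))
          ({algebraMap ↥(modularFunctionFieldFullC ↥(beta0Field A) (M * q))
            ↥(modularFunctionFieldFullC ↥E (M * q)) (bgJ ↥(beta0Field A) (M * q))⁻¹} :
            Set ↥(modularFunctionFieldFullC ↥E (M * q))))),
        g • algebraMap ↥(modularFunctionFieldFullC ↥E (M * q)) ↥(tres5cL E (M * q) y)
            (b : ↥(modularFunctionFieldFullC ↥E (M * q)))
          = algebraMap ↥(modularFunctionFieldFullC ↥E (M * q)) ↥(tres5cL E (M * q) y)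
            (b' : ↥(modularFunctionFieldFullC ↥E (M * q))) →
        b ∈ 𝔫E.1 → b' ∈ 𝔫E.1 := by
  letI := tres5cAlgFF (M * q) h
  letI := tres5kigAlgAA (A := A) h
  letI := tres5kigAlgAF (A := A) h (M * q)
  letI := beta0FieldAlgebra h
  letI := tres5ffAct hq hA h (M * q) y hstabI
  obtain ⟨𝔫E, h𝔫K, hthrE⟩ := tres5kqi_exists_jinv hπ₀ hπ₁ ιC₀ ιC₁ hq hqM hA h c 𝔫K hthr
  exact ⟨𝔫E, h𝔫K, hthrE,
    tres5pi_hGn_jinv hπ₁ ιC₁ hq hqM hA h h2 h3 y hstabI _
      (tres5pi_baseIncl_bgJ_inv h (M * q)) 𝔫E⟩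

end Point

end Conc

end Fermat.Agent.R38

end
end ZBR38_023_5

/-! ### bundled: `Fermat.Agent.R38.TresKFormInstCInv` -/
section ZBR38_023_6

/-!
# Row 38, TRES, K-FORM (B) instance, LAYER 3 at the chart `1 / j` (helper52): `hsplitC`

Concrete frame of helper47's `R38/TresKFormPtsInst.lean`: `A` over `q`, `K = beta0Field A = ℚ̄^I`,
`E ⊇ K` finite and `I`-stable, `A_K ⊂ A_E` discrete valuation rings, `F_K = F_{Mq}(K)`,
`F_E = F_{Mq}(E)`, covers `L_K = tres5cL K (Mq) y ⊂ L_E = tres5cL E (Mq) y`, `G = Gal(E / K)`,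
`V_∞ = mgvV … true`, Gauss sheet `W₀ = tres5kivW` of `L_E`.

* `tres5kicv_hsplit_gen` : helper48's `tres5ki_hsplit_abs` (`R38/TresKFormInstA.lean`) in this
  frame, for ANY chart coordinate `t ∈ F_K` with `E`-model `tE = tres5cBaseIncl t`: all instance
  arguments and the inputs `hπK`, `hpK`, `hVK`, `hW₀V`, `hGW₀`, `hGsub`, `hGF`, `hGA`, `hGt`,
  `hGLK`, `hfixL`, `hfixF` are discharged (helper29, helper53, helper24, helper52).
  LEFT as hypotheses: `hBV` (the `E`-chart lies in `V_∞`), `hfrac` (the Gauss sheet exists),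
  `hfin`, `ρ`, `hρG`, and `hBig` (FAC-BIG at the closed points of the `E`-chart).
* **`tres5kicv_hsplitC`** : the chart `t = 1 / j`: the hypothesis `hsplitC` of helper41's
  `tresmt_loc` (without using the cusp condition) from `hBig` at `(bgJ ↥E (M q))⁻¹`.
* `tres5kicv_hsplitJ0` : the chart `t = j`, split structure only (no step relation).
-/

set_option autoImplicit false
set_option linter.style.haveILetI false
set_option linter.unusedSectionVars false
set_option linter.unusedVariables false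
set_option linter.style.longLine false
set_option synthInstance.maxHeartbeats 400000
set_option maxHeartbeats 1000000

noncomputable section

open ModularCurve Fermat.Agent.INJ Fermat.Agent.UNIP IntermediateField Fermat.Agent.RIB.MP
  Polynomial

namespace Fermat.Agent.R38

/-! ### The generic instances `Algebra ↥S L`, `IsScalarTower ↥S F L` for a subring `S ⊆ F`

In the concrete frame the instance problem `Algebra ↥(atLoc 𝔫) ↥(tres5cL K N y)` TIMES OUT; the
consumers (`tresmt_loc`, `tres5npc_hcusp`, …) are stated for an abstract `L`, where Lean finds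
`Algebra.ofSubsemiring`.  We name that instance and pass it explicitly. -/

section GenericInst

variable {F L : Type*} [Field F] [Field L] [Algebra F L]

/-- the `S`-algebra structure of `L` Lean finds for a subring `S ⊆ F` (`Algebra.ofSubsemiring`) -/
@[reducible] def tres5kicvAlg (S : Subring F) : Algebra ↥S L := inferInstance

theorem tres5kicv_tower (S : Subring F) : IsScalarTower ↥S F L := inferInstance

end GenericInst

section Conc

variable {A : ValuationSubring NfQb} {q M : ℕ} [NeZero q] [NeZero M] [NeZero (M * q)]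
  {E : IntermediateField ℚ NfQb}
  [IsDiscreteValuationRing ↥(beta0Ring A (beta0Field A))]
  {π₀ : ↥(beta0Ring A (beta0Field A))} (hπ₀ : Irreducible π₀)
  [IsDiscreteValuationRing ↥(beta0Ring A E)] {π₁ : ↥(beta0Ring A E)} (hπ₁ : Irreducible π₁)
  (ιC₀ : ↥(beta0Field A) →+* ℂ) (ιC₁ : ↥E →+* ℂ)
  (hq : q.Prime) (hqM : ¬ q ∣ M) (hA : A.LiesOverPrime q) (h : beta0Field A ≤ E)
  (y : LaurentSeries NfQb)
  (hstabI : ∀ σ ∈ A.inertiaSubgroupIn ℚ, ∀ x ∈ tres5cField (M * q) y,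
    coeffMap ((σ : NfQb ≃ₐ[ℚ] NfQb) : NfQb →+* NfQb) x ∈ tres5cField (M * q) y)

include hπ₀ hq hA in
/-- **(hpK)** the uniformizer of `A_K` divides the residue characteristic -/
theorem tres5kicv_hpK : π₀ ∣ ((q : ℕ) : ↥(beta0Ring A (beta0Field A))) :=
  (IsDiscreteValuationRing.associated_of_irreducible _ hπ₀
    (beta0Ring_irreducible_q hq hA)).dvd

include hπ₀ hπ₁ hq hA in
/-- **Layer 3, chart-generic, concrete frame.** -/
theorem tres5kicv_hsplit_gen
    (t : ↥(modularFunctionFieldFullC ↥(beta0Field A) (M * q)))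
    (tE : ↥(modularFunctionFieldFullC ↥E (M * q)))
    (ht : tres5cBaseIncl (M * q) h t = tE)
    [FiniteDimensional (↥(beta0Field A))⟮t⟯ ↥(modularFunctionFieldFullC ↥(beta0Field A) (M * q))]
    [FiniteDimensional (↥E)⟮tE⟯ ↥(modularFunctionFieldFullC ↥E (M * q))]
    (hBV : ∀ x : ↥(modularFunctionFieldFullC ↥E (M * q)),
      IsIntegral ↥(Algebra.adjoin ↥(beta0Ring A E)
        ({tE} : Set ↥(modularFunctionFieldFullC ↥E (M * q)))) x →
      x ∈ mgvV hπ₁ ιC₁ hq hqM true)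
    (hE : ∀ σ ∈ A.inertiaSubgroupIn ℚ, ∀ x ∈ E, σ x ∈ E)
    (hfinE : letI := beta0FieldAlgebra h
      FiniteDimensional ↥(beta0Field A) ↥E)
    (hfrac : ∀ x : ↥(tres5cL E (M * q) y),
      VtFrac (algebraMap ↥(beta0Ring A E) ↥E) (tres5kivEmb (E := E) (M * q) y x))
    (hfin : Module.finrank ↥(modularFunctionFieldFullC ↥E (M * q)) ↥(tres5cL E (M * q) y) = q)
    (ρ : ↥(tres5cL E (M * q) y) ≃ₐ[↥(modularFunctionFieldFullC ↥E (M * q))]
      ↥(tres5cL E (M * q) y))
    (hρG : letI := beta0FieldAlgebra h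
      letI := tres5ffAct hq hA h (M * q) y hstabI
      ∀ (g : ↥E ≃ₐ[↥(beta0Field A)] ↥E) (x : ↥(tres5cL E (M * q) y)), ρ (g • x) = g • ρ x)
    (hBig : ∀ 𝔫E : AtPt (F := ↥(modularFunctionFieldFullC ↥E (M * q))) π₁ tE,
      atThrough 𝔫E (mgvV hπ₁ ιC₁ hq hqM true) →
      ∀ [IsLocalRing ↥(atLoc 𝔫E)]
        [IsFractionRing ↥(atLoc 𝔫E) ↥(modularFunctionFieldFullC ↥E (M * q))]
        [IsIntegrallyClosed ↥(atLoc 𝔫E)] [Algebra ↥(atLoc 𝔫E) ↥(tres5cL E (M * q) y)]
        [IsScalarTower ↥(atLoc 𝔫E) ↥(modularFunctionFieldFullC ↥E (M * q))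
          ↥(tres5cL E (M * q) y)],
        ∃ (z : ↥(tres5cL E (M * q) y)) (P : (↥(atLoc 𝔫E))[X]) (c : ZMod q → ↥(atLoc 𝔫E)),
          Tres5eSplit ↥(modularFunctionFieldFullC ↥E (M * q)) z P c ∧
          ∀ i : ZMod q, ∃ b ∈ tres5eMax ↥(atLoc 𝔫E) z (c i),
            ρ z = algebraMap ↥(atLoc 𝔫E) ↥(tres5cL E (M * q) y) (c (i + 1)) +
              (b : ↥(tres5cL E (M * q) y)))
    (𝔫K : AtPt (F := ↥(modularFunctionFieldFullC ↥(beta0Field A) (M * q))) π₀ t)
    (hthr : atThrough 𝔫K (mgvV hπ₀ ιC₀ hq hqM true))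
    [IsLocalRing ↥(atLoc 𝔫K)]
    [Algebra ↥(atLoc 𝔫K) ↥(tres5cL (beta0Field A) (M * q) y)]
    [IsScalarTower ↥(atLoc 𝔫K) ↥(modularFunctionFieldFullC ↥(beta0Field A) (M * q))
      ↥(tres5cL (beta0Field A) (M * q) y)] :
    ∃ (zK : ↥(tres5cL (beta0Field A) (M * q) y)) (PK : (↥(atLoc 𝔫K))[X]),
      Tres5eSplit ↥(modularFunctionFieldFullC ↥(beta0Field A) (M * q)) zK PK
        (fun k : ZMod q => ((k.val : ℕ) : ↥(atLoc 𝔫K))) ∧
      Module.finrank ↥(modularFunctionFieldFullC ↥(beta0Field A) (M * q))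
        ↥(tres5cL (beta0Field A) (M * q) y) = q ∧
      ρ (tres5cIncl (M * q) y h zK) ≠ tres5cIncl (M * q) y h zK ∧
      ∃ k : ZMod q,
        ∀ (_ : (tres5eMax ↥(atLoc 𝔫K) zK ((k.val : ℕ) : ↥(atLoc 𝔫K))).IsPrime),
          ∀ x ∈ ls_localSubring (F := ↥(tres5cL (beta0Field A) (M * q) y))
              (tres5eMax ↥(atLoc 𝔫K) zK ((k.val : ℕ) : ↥(atLoc 𝔫K))),
            tres5cIncl (M * q) y h x ∈ tres5kivW hπ₁ (M * q) y hfrac := by
  subst ht
  haveI : Fact q.Prime := ⟨hq⟩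
  letI := tres5cAlgFF (M * q) h
  letI := tres5kigAlgAA (A := A) h
  letI := tres5kigAlgAF (A := A) h (M * q)
  letI := tres5cAlgLL (M * q) y h
  letI := tres5cAlgFL (M * q) y h
  haveI := tres5kig_tower_AAF (A := A) h (M * q)
  haveI := tres5kig_tower_AFF (A := A) h (M * q)
  haveI := tres5c_tower_FFL (M * q) y h
  haveI := tres5c_tower_FLL (M * q) y h
  haveI := tres5kig_isIntegral hq hA h
  letI := beta0FieldAlgebra h
  letI := tres5ffAct hq hA h (M * q) y hstabI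
  haveI : Finite (↥E ≃ₐ[↥(beta0Field A)] ↥E) := tres5ff_inst_finite h hfinE
  haveI hfdE : FiniteDimensional
      (↥E)⟮algebraMap ↥(modularFunctionFieldFullC ↥(beta0Field A) (M * q))
        ↥(modularFunctionFieldFullC ↥E (M * q)) t⟯ ↥(modularFunctionFieldFullC ↥E (M * q)) :=
    ‹FiniteDimensional (↥E)⟮tres5cBaseIncl (M * q) h t⟯ ↥(modularFunctionFieldFullC ↥E (M * q))›
  haveI hfrK : IsFractionRing ↥(atLoc 𝔫K) ↥(modularFunctionFieldFullC ↥(beta0Field A) (M * q)) :=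
    tres5bp_isFractionRing (A₀ := ↥(beta0Ring A (beta0Field A))) (E := ↥(beta0Field A)) t 𝔫K
  haveI hicK : IsIntegrallyClosed ↥(atLoc 𝔫K) :=
    tres5bp_isIntegrallyClosed (A₀ := ↥(beta0Ring A (beta0Field A))) (E := ↥(beta0Field A)) t 𝔫K
  have hW₀V : ∀ x ∈ mgvV hπ₁ ιC₁ hq hqM true,
      algebraMap ↥(modularFunctionFieldFullC ↥E (M * q)) ↥(tres5cL E (M * q) y) x ∈
        tres5kivW hπ₁ (M * q) y hfrac := by
    intro x hx
    have h1 : x ∈ (tres5kivW hπ₁ (M * q) y hfrac).comap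
        (algebraMap ↥(modularFunctionFieldFullC ↥E (M * q)) ↥(tres5cL E (M * q) y)) := by
      rw [tres5kivW_comap_vtInf hπ₁ (M * q) y hfrac]
      exact hx
    exact h1
  exact tres5ki_hsplit_abs (G := ↥E ≃ₐ[↥(beta0Field A)] ↥E)
    (L := ↥(tres5cL E (M * q) y))
    (AE := ↥(beta0Ring A E)) (EE := ↥E) (FE := ↥(modularFunctionFieldFullC ↥E (M * q)))
    (AK := ↥(beta0Ring A (beta0Field A)))
    (FK := ↥(modularFunctionFieldFullC ↥(beta0Field A) (M * q)))
    (LK := ↥(tres5cL (beta0Field A) (M * q) y)) (t := t) (πE := π₁) (πK := π₀) (p := q)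
    hπ₁ (tres5kqi_pi_ne_zero hπ₀ h) (tres5kicv_hpK hπ₀ hq hA)
    (mgvV hπ₁ ιC₁ hq hqM true) (mgvV hπ₀ ιC₀ hq hqM true) hBV
    (tres5kiv_hVK hπ₀ hπ₁ ιC₀ ιC₁ hq hqM h true)
    (tres5kivW hπ₁ (M * q) y hfrac) hW₀V
    (tres5kivW_smul_mem hπ₁ hq hA h (M * q) y hstabI hfrac)
    (tres5kivW_sub_mem hπ₁ hq hA h (M * q) y hstabI hfrac)
    (fun g x => (tres5ff_inst_hGF hq hA h (M * q) y hstabI g x).imp fun _ hx => hx.1)
    (fun g a => (tres5ff_inst_hGA hq hA h (M * q) y hstabI g a).imp fun _ ha => ha.1)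
    (fun g => tres5ff_inst_hGt hq hA h (M * q) y hstabI g t)
    (tres5ff_inst_hGLK hq hA h (M * q) y hstabI)
    (tres5ff_inst_hfixL hq hA h (M * q) y hstabI hE)
    (tres5ff_inst_hfixF hq hA h (M * q) y hstabI hE)
    hfin ρ hρG hBig 𝔫K hthr

include hπ₀ hπ₁ hq hA in
/-- **Layer 3 at the chart `1 / j`: `hsplitC`.**  At EVERY closed point `𝔫` of the chart `1 / j`
of `F_{Mq}(K)` on `V_∞`, the cover `L_K / F_{Mq}(K)` has the split structure (roots
`0, …, q − 1`), from FAC-BIG at the closed points of the chart `1 / j` over `E`. -/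
theorem tres5kicv_hsplitC
    (hE : ∀ σ ∈ A.inertiaSubgroupIn ℚ, ∀ x ∈ E, σ x ∈ E)
    (hfinE : letI := beta0FieldAlgebra h
      FiniteDimensional ↥(beta0Field A) ↥E)
    (hfrac : ∀ x : ↥(tres5cL E (M * q) y),
      VtFrac (algebraMap ↥(beta0Ring A E) ↥E) (tres5kivEmb (E := E) (M * q) y x))
    (hfin : Module.finrank ↥(modularFunctionFieldFullC ↥E (M * q)) ↥(tres5cL E (M * q) y) = q)
    (ρ : ↥(tres5cL E (M * q) y) ≃ₐ[↥(modularFunctionFieldFullC ↥E (M * q))]
      ↥(tres5cL E (M * q) y))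
    (hρG : letI := beta0FieldAlgebra h
      letI := tres5ffAct hq hA h (M * q) y hstabI
      ∀ (g : ↥E ≃ₐ[↥(beta0Field A)] ↥E) (x : ↥(tres5cL E (M * q) y)), ρ (g • x) = g • ρ x)
    (hBig : ∀ 𝔫E : AtPt (F := ↥(modularFunctionFieldFullC ↥E (M * q))) π₁
        (bgJ ↥E (M * q))⁻¹,
      atThrough 𝔫E (mgvV hπ₁ ιC₁ hq hqM true) →
      ∀ [IsLocalRing ↥(atLoc 𝔫E)]
        [IsFractionRing ↥(atLoc 𝔫E) ↥(modularFunctionFieldFullC ↥E (M * q))]
        [IsIntegrallyClosed ↥(atLoc 𝔫E)] [Algebra ↥(atLoc 𝔫E) ↥(tres5cL E (M * q) y)]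
        [IsScalarTower ↥(atLoc 𝔫E) ↥(modularFunctionFieldFullC ↥E (M * q))
          ↥(tres5cL E (M * q) y)],
        ∃ (z : ↥(tres5cL E (M * q) y)) (P : (↥(atLoc 𝔫E))[X]) (c : ZMod q → ↥(atLoc 𝔫E)),
          Tres5eSplit ↥(modularFunctionFieldFullC ↥E (M * q)) z P c ∧
          ∀ i : ZMod q, ∃ b ∈ tres5eMax ↥(atLoc 𝔫E) z (c i),
            ρ z = algebraMap ↥(atLoc 𝔫E) ↥(tres5cL E (M * q) y) (c (i + 1)) +
              (b : ↥(tres5cL E (M * q) y))) :
    ∀ 𝔫 : AtPt (F := ↥(modularFunctionFieldFullC ↥(beta0Field A) (M * q))) π₀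
        (bgJ ↥(beta0Field A) (M * q))⁻¹,
      atThrough 𝔫 (mgvV hπ₀ ιC₀ hq hqM true) →
      ∀ [IsLocalRing ↥(atLoc 𝔫)],
        letI := tres5kicvAlg (L := ↥(tres5cL (beta0Field A) (M * q) y)) (atLoc 𝔫)
        ∃ (z : ↥(tres5cL (beta0Field A) (M * q) y)) (P : (↥(atLoc 𝔫))[X])
          (c : ZMod q → ↥(atLoc 𝔫)),
          Tres5eSplit ↥(modularFunctionFieldFullC ↥(beta0Field A) (M * q)) z P c := by
  intro 𝔫 hthr _
  letI := tres5kicvAlg (L := ↥(tres5cL (beta0Field A) (M * q) y)) (atLoc 𝔫)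
  haveI := tres5kicv_tower (L := ↥(tres5cL (beta0Field A) (M * q) y)) (atLoc 𝔫)
  haveI hfdK : FiniteDimensional (↥(beta0Field A))⟮bgJ ↥(beta0Field A) (M * q)⟯
      ↥(modularFunctionFieldFullC ↥(beta0Field A) (M * q)) :=
    bgFin_finiteDimensional_full (E := ↥(beta0Field A)) (N := M * q)
  haveI hfdK' : FiniteDimensional (↥(beta0Field A))⟮(bgJ ↥(beta0Field A) (M * q))⁻¹⟯
      ↥(modularFunctionFieldFullC ↥(beta0Field A) (M * q)) :=
    at_finiteDimensional_inv _
  haveI hfdE : FiniteDimensional (↥E)⟮bgJ ↥E (M * q)⟯ ↥(modularFunctionFieldFullC ↥E (M * q)) :=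
    bgFin_finiteDimensional_full (E := ↥E) (N := M * q)
  haveI hfdE' : FiniteDimensional (↥E)⟮(bgJ ↥E (M * q))⁻¹⟯
      ↥(modularFunctionFieldFullC ↥E (M * q)) :=
    at_finiteDimensional_inv _
  obtain ⟨zK, PK, hT, -⟩ := tres5kicv_hsplit_gen hπ₀ hπ₁ ιC₀ ιC₁ hq hqM hA h y hstabI
    (bgJ ↥(beta0Field A) (M * q))⁻¹ (bgJ ↥E (M * q))⁻¹ (tres5pi_baseIncl_bgJ_inv h (M * q))
    (fun x hx => mgv_hBV₂ hπ₁ ιC₁ hq hqM true x hx) hE hfinE hfrac hfin ρ hρG hBig 𝔫 hthr
  exact ⟨zK, PK, _, hT⟩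

include hπ₀ hπ₁ hq hA in
/-- **Layer 3 at the chart `j`, split structure only** (the step relation of `hsplitJ` is
helper14's `tresmzi_kd_node` / `tresmzi_hsplit_step_abs`). -/
theorem tres5kicv_hsplitJ0
    (hE : ∀ σ ∈ A.inertiaSubgroupIn ℚ, ∀ x ∈ E, σ x ∈ E)
    (hfinE : letI := beta0FieldAlgebra h
      FiniteDimensional ↥(beta0Field A) ↥E)
    (hfrac : ∀ x : ↥(tres5cL E (M * q) y),
      VtFrac (algebraMap ↥(beta0Ring A E) ↥E) (tres5kivEmb (E := E) (M * q) y x))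
    (hfin : Module.finrank ↥(modularFunctionFieldFullC ↥E (M * q)) ↥(tres5cL E (M * q) y) = q)
    (ρ : ↥(tres5cL E (M * q) y) ≃ₐ[↥(modularFunctionFieldFullC ↥E (M * q))]
      ↥(tres5cL E (M * q) y))
    (hρG : letI := beta0FieldAlgebra h
      letI := tres5ffAct hq hA h (M * q) y hstabI
      ∀ (g : ↥E ≃ₐ[↥(beta0Field A)] ↥E) (x : ↥(tres5cL E (M * q) y)), ρ (g • x) = g • ρ x)
    (hBig : ∀ 𝔫E : AtPt (F := ↥(modularFunctionFieldFullC ↥E (M * q))) π₁
        (bgJ ↥E (M * q)),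
      atThrough 𝔫E (mgvV hπ₁ ιC₁ hq hqM true) →
      ∀ [IsLocalRing ↥(atLoc 𝔫E)]
        [IsFractionRing ↥(atLoc 𝔫E) ↥(modularFunctionFieldFullC ↥E (M * q))]
        [IsIntegrallyClosed ↥(atLoc 𝔫E)] [Algebra ↥(atLoc 𝔫E) ↥(tres5cL E (M * q) y)]
        [IsScalarTower ↥(atLoc 𝔫E) ↥(modularFunctionFieldFullC ↥E (M * q))
          ↥(tres5cL E (M * q) y)],
        ∃ (z : ↥(tres5cL E (M * q) y)) (P : (↥(atLoc 𝔫E))[X]) (c : ZMod q → ↥(atLoc 𝔫E)),
          Tres5eSplit ↥(modularFunctionFieldFullC ↥E (M * q)) z P c ∧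
          ∀ i : ZMod q, ∃ b ∈ tres5eMax ↥(atLoc 𝔫E) z (c i),
            ρ z = algebraMap ↥(atLoc 𝔫E) ↥(tres5cL E (M * q) y) (c (i + 1)) +
              (b : ↥(tres5cL E (M * q) y))) :
    ∀ 𝔫 : AtPt (F := ↥(modularFunctionFieldFullC ↥(beta0Field A) (M * q))) π₀
        (bgJ ↥(beta0Field A) (M * q)),
      atThrough 𝔫 (mgvV hπ₀ ιC₀ hq hqM true) →
      ∀ [IsLocalRing ↥(atLoc 𝔫)],
        letI := tres5kicvAlg (L := ↥(tres5cL (beta0Field A) (M * q) y)) (atLoc 𝔫)
        ∃ (z : ↥(tres5cL (beta0Field A) (M * q) y)) (P : (↥(atLoc 𝔫))[X])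
          (c : ZMod q → ↥(atLoc 𝔫)),
          Tres5eSplit ↥(modularFunctionFieldFullC ↥(beta0Field A) (M * q)) z P c := by
  intro 𝔫 hthr _
  letI := tres5kicvAlg (L := ↥(tres5cL (beta0Field A) (M * q) y)) (atLoc 𝔫)
  haveI := tres5kicv_tower (L := ↥(tres5cL (beta0Field A) (M * q) y)) (atLoc 𝔫)
  haveI hfdK : FiniteDimensional (↥(beta0Field A))⟮bgJ ↥(beta0Field A) (M * q)⟯
      ↥(modularFunctionFieldFullC ↥(beta0Field A) (M * q)) :=
    bgFin_finiteDimensional_full (E := ↥(beta0Field A)) (N := M * q)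
  haveI hfdE : FiniteDimensional (↥E)⟮bgJ ↥E (M * q)⟯ ↥(modularFunctionFieldFullC ↥E (M * q)) :=
    bgFin_finiteDimensional_full (E := ↥E) (N := M * q)
  obtain ⟨zK, PK, hT, -⟩ := tres5kicv_hsplit_gen hπ₀ hπ₁ ιC₀ ιC₁ hq hqM hA h y hstabI
    (bgJ ↥(beta0Field A) (M * q)) (bgJ ↥E (M * q)) (tres5pi_baseIncl_bgJ h (M * q))
    (fun x hx => mgv_hBV₁ hπ₁ ιC₁ hq hqM true x hx) hE hfinE hfrac hfin ρ hρG hBig 𝔫 hthr
  exact ⟨zK, PK, _, hT⟩

end Conc

end Fermat.Agent.R38

end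
end ZBR38_023_6
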