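/- GENERATED FILE (helper35, build-time optimisation, NOTES/ZB.md): verbatim concatenation of the modules
   Fermat.Agent.R38.TresKum
   Fermat.Agent.R38.TresKumK
   Fermat.Agent.R38.TresDescK
   Do not edit; do not import together with these modules. -/
import Mathlib
import Fermat.Agent.ZB.ES_001
import Fermat.Agent.ZB.PT_003
import Fermat.Agent.ZB.Common_001
import Fermat.Agent.ZB.TW_001
import Fermat.Agent.ZB.EC_007
import Fermat.Agent.ZB.R38_019
import Fermat.Agent.ZB.R38_017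
import Fermat.Agent.ZB.R38_009

/-! ### bundled: `Fermat.Agent.R38.TresKum` -/
section ZBR38_025_0
/-
ROW 38, piece PKG-TRES / FAC-KUM [T5 (d)] (helper64): KUMMER THEORY FOR THE PEU RAMIFIÉ SUBGROUP.

Notation: `A ⊂ ℚ̄` a valuation subring, `I` its inertia group, `K = ℚ̄^I`, `K₁ = K(μ_p)`,
`I₁ = Gal(ℚ̄/K₁) = {τ ∈ I : τ ζ = ζ for all ζ ∈ μ_p}` (`tres5dI1`),
`U` = the units of `A` fixed by `I`, `Y = {y : y^p ∈ U}` (`tres5dY`),
`H = peuSubgroup A p = {σ ∈ I : σ y = y for all y ∈ Y}`.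

MAIN RESULT (`stmtTresKum : StmtTresKum`, and the `υ b^p` form `tres5d_unit_mul_pow`):
  if `α ≠ 0`, `α^p ∈ K₁` and `α` is fixed by `H`, then `α = y * b` with `y ∈ Y`, `y ≠ 0` and
  `b ∈ K₁`;  hence `α^p = υ * b^p` with `υ = y^p ∈ U`, `b ∈ K₁`: "`α^p` is a UNIT up to `p`-th
  powers of `K₁`" (so its valuation is divisible by `p` in the value group of `K₁`).
No hypothesis on `A` (any valuation subring), none on `p` beyond primality.

Proof: (1) `I` is closed in `G_ℚ` (Krull topology), so `{τ ∈ I : τ α ≠ α}` is compact; it is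
covered by the open sets `{τ : τ y ≠ y}`, `y ∈ Y` (as `α` is `H`-fixed): finitely many
`y₁, …, y_r ∈ Y` suffice.  (2) Induction on `r` (finite Kummer theory by hand): if some `g ∈ I₁`
fixes `y₂, …, y_r` and moves `y₁`, then `g y₁ = ξ y₁`, `ξ` a primitive `p`-th root of unity,
`g α = ξ^e α`, and `α / y₁^e` is fixed by every `τ ∈ I₁` fixing `y₂, …, y_r`.
-/

set_option autoImplicit false
set_option linter.style.haveILetI false

noncomputable section

namespace Fermat.Agent.R38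

open scoped Pointwise
open Fermat.Agent.ES

/-! ### Definitions -/

/-- `Y`: the elements `y` of `ℚ̄` whose `p`-th power is a unit of `A` fixed by the inertia group
(exactly the elements which the peu ramifié subgroup has to fix). -/
def tres5dY (A : ValuationSubring Qb) (p : ℕ) : Set Qb :=
  {y | y ^ p ∈ A ∧ (y ^ p)⁻¹ ∈ A ∧ ∀ τ ∈ A.inertiaSubgroupIn ℚ, τ (y ^ p) = y ^ p}

/-- `I₁ = Gal(ℚ̄ / K₁)`: the elements of the inertia group fixing the `p`-th roots of unity. -/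
def tres5dI1 (A : ValuationSubring Qb) (p : ℕ) : Subgroup GQ where
  carrier := {τ | τ ∈ A.inertiaSubgroupIn ℚ ∧ ∀ ζ : Qb, ζ ^ p = 1 → τ ζ = ζ}
  mul_mem' := by
    rintro σ τ ⟨hσ, hσ'⟩ ⟨hτ, hτ'⟩
    refine ⟨mul_mem hσ hτ, fun ζ hζ => ?_⟩
    rw [AlgEquiv.mul_apply, hτ' ζ hζ, hσ' ζ hζ]
  one_mem' := ⟨one_mem _, fun _ _ => rfl⟩
  inv_mem' := by
    rintro σ ⟨hσ, hσ'⟩
    refine ⟨inv_mem hσ, fun ζ hζ => ?_⟩
    have h := hσ' ζ hζ
    calc σ⁻¹ ζ = σ⁻¹ (σ ζ) := by rw [h]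
      _ = ζ := by rw [← AlgEquiv.mul_apply, inv_mul_cancel, AlgEquiv.one_apply]

/-- **FAC-KUM** (Kummer theory for the peu ramifié subgroup). -/
def StmtTresKum : Prop :=
  ∀ (p : ℕ) [Fact p.Prime] (A : ValuationSubring Qb) (α : Qb), α ≠ 0 →
    (∀ τ ∈ tres5dI1 A p, τ (α ^ p) = α ^ p) →
    (∀ σ ∈ peuSubgroup A p, σ α = α) →
    ∃ y b : Qb, α = y * b ∧ y ≠ 0 ∧ y ∈ tres5dY A p ∧ ∀ τ ∈ tres5dI1 A p, τ b = b

/-! ### Topology: the inertia group is closed -/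

theorem tres5d_isAlgebraic : Algebra.IsAlgebraic ℚ Qb :=
  haveI := Common.isAlgClosure_rat_qbar
  IsAlgClosure.isAlgebraic

theorem tres5d_isGalois : IsGalois ℚ Qb :=
  haveI := Common.isAlgClosure_rat_qbar
  inferInstance

/-- the set of `σ` with `σ x = y` is open -/
theorem tres5d_isOpen_eq (x y : Qb) : IsOpen {σ : GQ | σ x = y} := by
  haveI := tres5d_isAlgebraic
  by_cases h : ∃ σ₀ : GQ, σ₀ x = y
  · obtain ⟨σ₀, h0⟩ := h
    have hst : IsOpen (MulAction.stabilizer GQ x : Set GQ) :=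
      stabilizer_isOpen_of_isIntegral (K := ℚ) (L := Qb) x
    have h2 : {σ : GQ | σ x = y} = σ₀ • (MulAction.stabilizer GQ x : Set GQ) := by
      ext σ
      rw [Set.mem_smul_set_iff_inv_smul_mem]
      simp only [Set.mem_ofPred_eq, SetLike.mem_coe, MulAction.mem_stabilizer_iff, smul_eq_mul]
      rw [mul_smul]
      constructor
      · intro h
        show σ₀⁻¹ (σ x) = x
        rw [h, ← h0, ← AlgEquiv.mul_apply, inv_mul_cancel, AlgEquiv.one_apply]
      · intro h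
        have h' : σ₀⁻¹ (σ x) = x := h
        have := congrArg σ₀ h'
        rw [← AlgEquiv.mul_apply, mul_inv_cancel, AlgEquiv.one_apply] at this
        rw [this, h0]
    rw [h2]
    exact hst.smul σ₀
  · have : {σ : GQ | σ x = y} = ∅ := by
      ext σ
      simp only [Set.mem_ofPred_eq, Set.mem_empty_iff_false, iff_false]
      exact fun h' => h ⟨σ, h'⟩
    rw [this]
    exact isOpen_empty

theorem tres5d_isOpen_mem (x : Qb) (T : Set Qb) : IsOpen {σ : GQ | σ x ∈ T} := by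
  have : {σ : GQ | σ x ∈ T} = ⋃ y ∈ T, {σ : GQ | σ x = y} := by
    ext σ
    simp
  rw [this]
  exact isOpen_biUnion fun y _ => tres5d_isOpen_eq x y

theorem tres5d_isClosed_mem (x : Qb) (T : Set Qb) : IsClosed {σ : GQ | σ x ∈ T} := by
  rw [← isOpen_compl_iff]
  exact tres5d_isOpen_mem x Tᶜ

/-- **The inertia group is closed** in `G_ℚ`. -/
theorem tres5d_isClosed_inertia (A : ValuationSubring Qb) :
    IsClosed ((A.inertiaSubgroupIn ℚ : Subgroup GQ) : Set GQ) := by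
  have h : ((A.inertiaSubgroupIn ℚ : Subgroup GQ) : Set GQ) =
      (⋂ x : Qb, {σ : GQ | σ⁻¹ x ∈ {y : Qb | y ∈ A ↔ x ∈ A}}) ∩
        (⋂ x : Qb, {σ : GQ | σ x ∈ {y : Qb | x ∈ A → y - x ∈ A.nonunits}}) := by
    ext σ
    rw [SetLike.mem_coe, PT.B.mem_inertiaSubgroupIn_iff]
    simp only [Set.mem_inter_iff, Set.mem_iInter, Set.mem_ofPred_eq]
    constructor
    · rintro ⟨hD, hI⟩
      refine ⟨fun x => ?_, fun x hx => hI x hx⟩
      have h1 : σ • A = A := MulAction.mem_stabilizer_iff.mp hD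
      rw [← PT.B.mem_smul_valuationSubring_iff (K := ℚ), h1]
    · rintro ⟨h1, h2⟩
      refine ⟨?_, fun x hx => h2 x hx⟩
      refine MulAction.mem_stabilizer_iff.mpr ?_
      ext x
      rw [PT.B.mem_smul_valuationSubring_iff (K := ℚ)]
      exact h1 x
  rw [h]
  refine IsClosed.inter (isClosed_iInter fun x => ?_)
    (isClosed_iInter fun x => tres5d_isClosed_mem x _)
  exact (tres5d_isClosed_mem x {y : Qb | y ∈ A ↔ x ∈ A}).preimage continuous_inv

/-! ### Step 1: finitely many unit roots suffice -/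

theorem tres5d_mem_peu_iff (A : ValuationSubring Qb) (p : ℕ) (σ : GQ) :
    σ ∈ peuSubgroup A p ↔ σ ∈ A.inertiaSubgroupIn ℚ ∧ ∀ y ∈ tres5dY A p, σ y = y :=
  ⟨fun h => ⟨h.1, fun y hy => h.2 y hy.1 hy.2.1 hy.2.2⟩,
    fun h => ⟨h.1, fun y h1 h2 h3 => h.2 y ⟨h1, h2, h3⟩⟩⟩

/-- **Compactness**: an element fixed by the peu ramifié subgroup is fixed by every element of
the inertia group fixing finitely many suitable `y ∈ Y`. -/
theorem tres5d_finite (A : ValuationSubring Qb) (p : ℕ) (α : Qb)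
    (hα : ∀ σ ∈ peuSubgroup A p, σ α = α) :
    ∃ ys : List Qb, (∀ y ∈ ys, y ∈ tres5dY A p) ∧
      ∀ τ ∈ A.inertiaSubgroupIn ℚ, (∀ y ∈ ys, τ y = y) → τ α = α := by
  classical
  haveI := tres5d_isGalois
  let C : Set GQ := ((A.inertiaSubgroupIn ℚ : Subgroup GQ) : Set GQ) ∩
    {τ : GQ | τ α ∈ {z : Qb | z ≠ α}}
  have hC : IsCompact C :=
    (IsClosed.inter (tres5d_isClosed_inertia A) (tres5d_isClosed_mem α _)).isCompact
  let U : tres5dY A p → Set GQ := fun y => {τ : GQ | τ (y : Qb) ∈ {z : Qb | z ≠ (y : Qb)}}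
  have hU : ∀ y, IsOpen (U y) := fun y => tres5d_isOpen_mem _ _
  have hcov : C ⊆ ⋃ y, U y := by
    intro τ hτ
    by_contra hn
    simp only [Set.mem_iUnion, not_exists] at hn
    refine hτ.2 (hα τ ((tres5d_mem_peu_iff A p τ).2 ⟨hτ.1, fun y hy => ?_⟩))
    by_contra hne
    exact hn ⟨y, hy⟩ hne
  obtain ⟨t, ht⟩ := hC.elim_finite_subcover U hU hcov
  refine ⟨t.toList.map Subtype.val, ?_, ?_⟩
  · intro y hy
    obtain ⟨z, -, rfl⟩ := List.mem_map.1 hy
    exact z.2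
  · intro τ hτ hfix
    by_contra hne
    have hmem : τ ∈ C := ⟨hτ, hne⟩
    have := ht hmem
    simp only [Set.mem_iUnion] at this
    obtain ⟨z, hz, hτz⟩ := this
    exact hτz (hfix z (List.mem_map.2 ⟨z, Finset.mem_toList.2 hz, rfl⟩))

/-! ### Step 2: finite Kummer theory by hand -/

section Kummer

variable {p : ℕ} {A : ValuationSubring Qb}

theorem tres5d_I1_le : tres5dI1 A p ≤ A.inertiaSubgroupIn ℚ := fun _ h => h.1

/-- if `g x = c x` and `g c = c` then `g^j x = c^j x` -/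
theorem tres5d_pow_apply (g : GQ) {c x : Qb} (hc : g c = c) (hx : g x = c * x) (j : ℕ) :
    (g ^ j) x = c ^ j * x := by
  induction j with
  | zero => simp
  | succ j ih =>
    rw [pow_succ', AlgEquiv.mul_apply, ih, map_mul, map_pow, hc, hx]
    ring

/-- the Kummer symbol `τ x / x` is a `p`-th root of unity -/
theorem tres5d_symbol_pow (τ : GQ) {x : Qb} (hx0 : x ≠ 0) (hx : τ (x ^ p) = x ^ p) :
    (τ x / x) ^ p = 1 := by
  rw [div_pow, ← map_pow, hx, div_self (pow_ne_zero _ hx0)]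

theorem tres5d_one_mem_Y : (1 : Qb) ∈ tres5dY A p := by
  refine ⟨?_, ?_, fun τ _ => ?_⟩
  · rw [one_pow]
    exact one_mem _
  · rw [one_pow, inv_one]
    exact one_mem _
  · rw [one_pow, map_one]

theorem tres5d_mul_pow_mem_Y {y y₀ : Qb} (hy : y ∈ tres5dY A p) (hy₀ : y₀ ∈ tres5dY A p)
    (e : ℕ) : y * y₀ ^ e ∈ tres5dY A p := by
  have h1 : (y * y₀ ^ e) ^ p = y ^ p * (y₀ ^ p) ^ e := by ring
  refine ⟨?_, ?_, fun τ hτ => ?_⟩
  · rw [h1]
    exact mul_mem hy.1 (pow_mem hy₀.1 e)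
  · have h2 : (y ^ p * (y₀ ^ p) ^ e)⁻¹ = (y ^ p)⁻¹ * ((y₀ ^ p)⁻¹) ^ e := by
      rw [mul_inv, inv_pow]
    rw [h1, h2]
    exact mul_mem hy.2.1 (pow_mem hy₀.2.1 e)
  · rw [h1, map_mul, hy.2.2 τ hτ, map_pow, hy₀.2.2 τ hτ]

/-- **Finite Kummer theory**, by induction on the number of generators. -/
theorem tres5d_induct (A : ValuationSubring Qb) (p : ℕ) [Fact p.Prime] :
    ∀ ys : List Qb, (∀ y ∈ ys, y ∈ tres5dY A p) →
    ∀ α : Qb, α ≠ 0 → (∀ τ ∈ tres5dI1 A p, τ (α ^ p) = α ^ p) →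
      (∀ τ ∈ tres5dI1 A p, (∀ y ∈ ys, τ y = y) → τ α = α) →
      ∃ y b : Qb, α = y * b ∧ y ≠ 0 ∧ y ∈ tres5dY A p ∧ ∀ τ ∈ tres5dI1 A p, τ b = b := by
  intro ys
  induction ys with
  | nil =>
    intro _ α hα0 hαp hfix
    exact ⟨1, α, (one_mul α).symm, one_ne_zero, tres5d_one_mem_Y,
      fun τ hτ => hfix τ hτ (by simp)⟩
  | cons y₀ ys ih =>
    intro hys α hα0 hαp hfix
    have hys' : ∀ y ∈ ys, y ∈ tres5dY A p := fun y hy => hys y (List.mem_cons_of_mem _ hy)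
    have hy₀ : y₀ ∈ tres5dY A p := hys y₀ List.mem_cons_self
    by_cases hB : ∃ g ∈ tres5dI1 A p, (∀ y ∈ ys, g y = y) ∧ g y₀ ≠ y₀
    · obtain ⟨g, hg, hgys, hgy₀⟩ := hB
      have hpp : p.Prime := Fact.out
      haveI : NeZero p := ⟨hpp.ne_zero⟩
      have hy0 : y₀ ≠ 0 := by
        rintro rfl
        exact hgy₀ (map_zero g)
      have hξp : (g y₀ / y₀) ^ p = 1 := tres5d_symbol_pow g hy0 (hy₀.2.2 g hg.1)
      have hξ1 : g y₀ / y₀ ≠ 1 := by
        intro h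
        exact hgy₀ ((div_eq_one_iff_eq hy0).1 h)
      have hprim : IsPrimitiveRoot (g y₀ / y₀) p := by
        have := IsPrimitiveRoot.orderOf (g y₀ / y₀)
        rwa [orderOf_eq_prime hξp hξ1] at this
      obtain ⟨ξ, hξ⟩ : ∃ ξ : Qb, ξ = g y₀ / y₀ := ⟨_, rfl⟩
      rw [← hξ] at hξp hξ1 hprim
      have hξ0 : ξ ≠ 0 := hprim.ne_zero hpp.ne_zero
      have hgξ : g ξ = ξ := hg.2 ξ hξp
      have hgy : g y₀ = ξ * y₀ := by
        rw [hξ]
        field_simp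
      obtain ⟨e, -, he⟩ := hprim.eq_pow_of_pow_eq_one (tres5d_symbol_pow g hα0 (hαp g hg))
      have hgα : g α = ξ ^ e * α := by
        rw [he]
        field_simp
      have hgξe : g (ξ ^ e) = ξ ^ e := by rw [map_pow, hgξ]
      -- the new element
      have hα'0 : α * (y₀ ^ e)⁻¹ ≠ 0 := mul_ne_zero hα0 (inv_ne_zero (pow_ne_zero _ hy0))
      have hα'p : ∀ τ ∈ tres5dI1 A p,
          τ ((α * (y₀ ^ e)⁻¹) ^ p) = (α * (y₀ ^ e)⁻¹) ^ p := by
        intro τ hτ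
        have h1 := hαp τ hτ
        have h2 := hy₀.2.2 τ hτ.1
        have h3 : (α * (y₀ ^ e)⁻¹) ^ p = α ^ p * ((y₀ ^ p) ^ e)⁻¹ := by
          rw [mul_pow, inv_pow, ← pow_mul, ← pow_mul, mul_comm e p]
        rw [h3, map_mul, map_inv₀, h1, map_pow, h2]
      have key : ∀ τ ∈ tres5dI1 A p, (∀ y ∈ ys, τ y = y) →
          τ (α * (y₀ ^ e)⁻¹) = α * (y₀ ^ e)⁻¹ := by
        intro τ hτ hτys
        obtain ⟨j, -, hj⟩ :=
          hprim.eq_pow_of_pow_eq_one (tres5d_symbol_pow τ hy0 (hy₀.2.2 τ hτ.1))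
        have hτy : τ y₀ = ξ ^ j * y₀ := by
          rw [hj]
          field_simp
        have hgj : (g ^ j) y₀ = ξ ^ j * y₀ := tres5d_pow_apply g hgξ hgy j
        have hgjα : (g ^ j) α = (ξ ^ e) ^ j * α := tres5d_pow_apply g hgξe hgα j
        have hσ : (g ^ j)⁻¹ * τ ∈ tres5dI1 A p := mul_mem (inv_mem (pow_mem hg j)) hτ
        have hσys : ∀ y ∈ y₀ :: ys, ((g ^ j)⁻¹ * τ) y = y := by
          intro y hy
          rcases List.mem_cons.1 hy with h | hy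
          · rw [h, AlgEquiv.mul_apply, hτy, ← hgj, ← AlgEquiv.mul_apply, inv_mul_cancel,
              AlgEquiv.one_apply]
          · rw [AlgEquiv.mul_apply, hτys y hy]
            have h1 : (g ^ j) y = y := by
              have := tres5d_pow_apply g (map_one g)
                (show g y = 1 * y by rw [one_mul]; exact hgys y hy) j
              simpa using this
            calc (g ^ j)⁻¹ y = (g ^ j)⁻¹ ((g ^ j) y) := by rw [h1]
              _ = y := by rw [← AlgEquiv.mul_apply, inv_mul_cancel, AlgEquiv.one_apply]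
        have h1 := hfix _ hσ hσys
        have hτα : τ α = (ξ ^ e) ^ j * α := by
          rw [← hgjα]
          have := congrArg (g ^ j) h1
          rw [← AlgEquiv.mul_apply, ← mul_assoc, mul_inv_cancel, one_mul] at this
          exact this
        rw [map_mul, map_inv₀, map_pow, hτα, hτy]
        field_simp
        ring
      obtain ⟨y, b, h1, h2, h3, h4⟩ := ih hys' (α * (y₀ ^ e)⁻¹) hα'0 hα'p key
      refine ⟨y * y₀ ^ e, b, ?_, mul_ne_zero h2 (pow_ne_zero _ hy0),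
        tres5d_mul_pow_mem_Y h3 hy₀ e, h4⟩
      have h5 : α = (α * (y₀ ^ e)⁻¹) * y₀ ^ e := by
        field_simp
      rw [h5, h1]
      ring
    · simp only [not_exists, not_and, not_not] at hB
      refine ih hys' α hα0 hαp (fun τ hτ h => hfix τ hτ (fun y hy => ?_))
      rcases List.mem_cons.1 hy with h' | hy
      · rw [h']
        exact hB τ hτ h
      · exact h y hy

end Kummer

/-! ### The main results -/

/-- **FAC-KUM** [T5 (d)]: an element `α` with `α^p ∈ K₁`, fixed by the peu ramifié subgroup, is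
the product of a `p`-th root of an inertia-fixed unit and an element of `K₁`. -/
theorem stmtTresKum : StmtTresKum := by
  intro p _ A α hα0 hαp hαH
  obtain ⟨ys, hys, hfix⟩ := tres5d_finite A p α hαH
  exact tres5d_induct A p ys hys α hα0 hαp (fun τ hτ h => hfix τ hτ.1 h)

/-- The same in the form `α^p = υ * b^p`, `υ` a unit of `A` fixed by inertia, `b ∈ K₁ˣ`:
"**`a = α^p` is a unit up to `p`-th powers of `K₁`**". -/
theorem tres5d_unit_mul_pow (p : ℕ) [Fact p.Prime] (A : ValuationSubring Qb) (α : Qb)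
    (hα0 : α ≠ 0) (hαp : ∀ τ ∈ tres5dI1 A p, τ (α ^ p) = α ^ p)
    (hαH : ∀ σ ∈ peuSubgroup A p, σ α = α) :
    ∃ υ b : Qb, α ^ p = υ * b ^ p ∧ υ ≠ 0 ∧ υ ∈ A ∧ υ⁻¹ ∈ A ∧
      (∀ τ ∈ A.inertiaSubgroupIn ℚ, τ υ = υ) ∧ b ≠ 0 ∧ ∀ τ ∈ tres5dI1 A p, τ b = b := by
  obtain ⟨y, b, h1, h2, h3, h4⟩ := stmtTresKum p A α hα0 hαp hαH
  refine ⟨y ^ p, b, ?_, pow_ne_zero _ h2, h3.1, h3.2.1, h3.2.2, ?_, h4⟩
  · rw [h1, mul_pow]
  · rintro rfl
    rw [mul_zero] at h1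
    exact hα0 h1

/-! ### Dictionary for `I₁` -/

section Dict

open ExtCitation

/-- the peu ramifié subgroup lies in `I₁` -/
theorem tres5d_peu_le_I1 {p : ℕ} {A : ValuationSubring Qb} :
    peuSubgroup A p ≤ tres5dI1 A p := by
  intro σ hσ
  refine ⟨hσ.1, fun ζ hζ => hσ.2 ζ ?_ ?_ ?_⟩
  · rw [hζ]
    exact one_mem _
  · rw [hζ, inv_one]
    exact one_mem _
  · intro τ _
    rw [hζ, map_one]

variable {p : ℕ} [Fact p.Prime] {A : ValuationSubring Qb}

/-- `I₁ = I ∩ ker ω` -/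
theorem tres5d_mem_I1_iff_cycloExp (τ : GQ) :
    τ ∈ tres5dI1 A p ↔ τ ∈ A.inertiaSubgroupIn ℚ ∧ cycloExp p τ = 1 := by
  haveI : Fact (1 < p) := ⟨(Fact.out : p.Prime).one_lt⟩
  haveI : NeZero p := ⟨(Fact.out : p.Prime).ne_zero⟩
  have key : (∀ ζ : Qb, ζ ^ p = 1 → τ ζ = ζ) ↔ cycloExp p τ = 1 := by
    rw [← PT.B.mem_fixingSubgroup_cycloField_iff, ← PT.B.cycloChar_eq_one_iff, ← val_cycloChar]
    constructor
    · intro h
      rw [h, Units.val_one, ZMod.val_one]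
    · intro h
      refine Units.ext (ZMod.val_injective p ?_)
      rw [h, Units.val_one, ZMod.val_one]
  exact ⟨fun h => ⟨h.1, key.1 h.2⟩, fun h => ⟨h.1, key.2 h.2⟩⟩

/-- `τ ∈ I` fixing ONE primitive `p`-th root of unity lies in `I₁` -/
theorem tres5d_mem_I1_of_fix {τ : GQ} (hτ : τ ∈ A.inertiaSubgroupIn ℚ) {ζ : Qb}
    (hζp : ζ ^ p = 1) (hζ1 : ζ ≠ 1) (h : τ ζ = ζ) : τ ∈ tres5dI1 A p := by
  have hpp : p.Prime := Fact.out
  haveI : NeZero p := ⟨hpp.ne_zero⟩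
  have hprim : IsPrimitiveRoot ζ p := by
    have := IsPrimitiveRoot.orderOf ζ
    rwa [orderOf_eq_prime hζp hζ1] at this
  refine ⟨hτ, fun ξ hξ => ?_⟩
  obtain ⟨i, -, rfl⟩ := hprim.eq_pow_of_pow_eq_one hξ
  rw [map_pow, h]

/-- **FAC-KUM, `cycloExp` form**: `α ≠ 0`, `α^p` fixed by `I ∩ ker ω`, `α` fixed by the peu
ramifié subgroup ⇒ `α^p = υ b^p`, `υ` an inertia-fixed unit of `A`, `b` fixed by `I ∩ ker ω`. -/
theorem tres5d_unit_mul_pow_cyclo (A : ValuationSubring Qb) (α : Qb) (hα0 : α ≠ 0)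
    (hαp : ∀ τ ∈ A.inertiaSubgroupIn ℚ, cycloExp p τ = 1 → τ (α ^ p) = α ^ p)
    (hαH : ∀ σ ∈ peuSubgroup A p, σ α = α) :
    ∃ υ b : Qb, α ^ p = υ * b ^ p ∧ υ ≠ 0 ∧ υ ∈ A ∧ υ⁻¹ ∈ A ∧
      (∀ τ ∈ A.inertiaSubgroupIn ℚ, τ υ = υ) ∧ b ≠ 0 ∧
      ∀ τ ∈ A.inertiaSubgroupIn ℚ, cycloExp p τ = 1 → τ b = b := by
  obtain ⟨υ, b, h1, h2, h3, h4, h5, h6, h7⟩ := tres5d_unit_mul_pow p A α hα0
    (fun τ hτ => hαp τ hτ.1 ((tres5d_mem_I1_iff_cycloExp τ).1 hτ).2) hαH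
  exact ⟨υ, b, h1, h2, h3, h4, h5, h6,
    fun τ hτ hc => h7 τ ((tres5d_mem_I1_iff_cycloExp τ).2 ⟨hτ, hc⟩)⟩

end Dict

end Fermat.Agent.R38

end


end ZBR38_025_0

/-! ### bundled: `Fermat.Agent.R38.TresKumK` -/
section ZBR38_025_1
/-
ROW 38, piece PKG-TRES / FAC-KUM [T5 (d)], `K`-FORM (helper64).

`K = ℚ̄^I` (inertia field of `A | p`), `U` = units of `A` in `K`.
MAIN RESULT `tres5dk_main`:
  if `α ≠ 0`, `α^p ∈ K` and `α` is fixed by the peu ramifié subgroup of `A`, then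
  `α^p = υ * (p^m)^p` with `m : ℤ` and `υ ∈ U`:  **`p ∣ v_p(α^p)`**.
[très ramifié ⇔ `v_p(α^p) ≢ 0 mod p`.]

Proof: `R38/TresKum.lean` gives `α^p = υ₀ b^p`, `υ₀ ∈ U`, `b ∈ K₁ = K(μ_p)`.  Locally at `p`:
`‖α^p‖ ∈ p^ℤ` (`K` is unramified: `TW.W.wgr_unr`), `‖b‖^(p-1) ∈ p^ℤ` (norm from `K₁` to `K`,
as in `R38/EPVal.lean`), hence `‖b‖ = ‖b‖^p / ‖b‖^(p-1) ∈ p^ℤ`.

* `tres5dk_norm_pow` : local, `y` fixed by `I ∩ ker ω` ⇒ `‖y‖^(p-1) ∈ p^ℤ`;
* `tres5dk_padic`    : the statement at `padicPlace p`;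
* `tres5dk_main`     : at every place `A` over `p` (conjugation).
-/

set_option autoImplicit false
set_option linter.unusedSectionVars false
set_option linter.style.haveILetI false

noncomputable section

namespace Fermat.Agent.R38

open Fermat.Agent.PT Fermat.Agent.PT.L Fermat.Agent.PT.B Fermat.Agent.TW.L Fermat.Agent.TW.W
  ExtCitation
open scoped Pointwise

section Local

variable (p : ℕ) [Fact p.Prime]

/-- **The value group of `K₁`**: an element of `ℚ̄_p` fixed by `I ∩ ker ω` has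
`‖y‖^(p-1) ∈ p^ℤ`. -/
theorem tres5dk_norm_pow {ζ y : PadicAlgCl p} (hζp : ζ ^ p = 1) (hy0 : y ≠ 0)
    (hfix : ∀ τ ∈ inertiaQ p, τ ζ = ζ → τ y = y) :
    ∃ k : ℤ, ‖y‖ ^ (p - 1) = (p : ℝ) ^ k := by
  have hpp : p.Prime := Fact.out
  haveI : NeZero p := ⟨hpp.ne_zero⟩
  choose g hgI hgω using r38epv_exists_omega p
  set N : PadicAlgCl p := ∏ a : (ZMod p)ˣ, g a y with hN
  have hN0 : N ≠ 0 := by
    rw [hN, Finset.prod_ne_zero_iff]
    intro a _
    rwa [Ne, map_eq_zero_iff _ (g a).injective]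
  have hNfix : ∀ τ ∈ inertiaQ p, τ N = N := by
    intro τ hτ
    have hmove : ∀ a : (ZMod p)ˣ, τ (g a y) = g (gbOmega p τ * a) y := by
      intro a
      set b := gbOmega p τ * a with hb
      have hγI : (g b)⁻¹ * τ * g a ∈ inertiaQ p :=
        mul_mem (mul_mem (inv_mem (hgI b)) hτ) (hgI a)
      have hγω : gbOmega p ((g b)⁻¹ * τ * g a) = 1 := by
        rw [map_mul, map_mul, map_inv, hgω, hgω, hb]
        group
      have h1 := hfix _ hγI (r38epv_fix_zeta p hζp hγω)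
      have h2 : ((g b)⁻¹ * τ * g a) y = (g b)⁻¹ (τ (g a y)) := rfl
      rw [h2] at h1
      have h3 : g b ((g b)⁻¹ (τ (g a y))) = τ (g a y) := by
        have : (g b * (g b)⁻¹) (τ (g a y)) = τ (g a y) := by rw [mul_inv_cancel]; rfl
        exact this
      rw [← h3, h1]
    rw [hN, map_prod]
    rw [Finset.prod_congr rfl (fun a _ => hmove a)]
    exact Fintype.prod_equiv (Equiv.mulLeft (gbOmega p τ)) _ _ (fun a => rfl)
  obtain ⟨m, hm⟩ := wgr_unr p hN0 hNfix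
  have hNn : ‖N‖ = ‖y‖ ^ (p - 1) := by
    rw [hN, norm_prod, Finset.prod_congr rfl (fun a _ => wgr_norm_map p (g a) y),
      Finset.prod_const, Finset.card_univ, ZMod.card_units_eq_totient, Nat.totient_prime hpp]
  exact ⟨m, by rw [← hNn, hm]⟩

end Local

section Padic

variable (p : ℕ) [Fact p.Prime]

/-- membership in `padicPlace p` in terms of the norm -/
theorem tres5dk_mem_iff (x : Qb) : x ∈ padicPlace p ↔ ‖padicEmbedding p x‖ ≤ 1 := by
  rw [mem_padicPlace_iff]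
  exact Iff.rfl

/-- **FAC-KUM, `K`-form, at `padicPlace p`.** -/
theorem tres5dk_padic (α : Qb) (hα0 : α ≠ 0)
    (hαp : ∀ τ ∈ (padicPlace p).inertiaSubgroupIn ℚ, τ (α ^ p) = α ^ p)
    (hαH : ∀ σ ∈ peuSubgroup (padicPlace p) p, σ α = α) :
    ∃ (m : ℤ) (υ : Qb), α ^ p = υ * ((p : Qb) ^ m) ^ p ∧ υ ≠ 0 ∧ υ ∈ padicPlace p ∧
      υ⁻¹ ∈ padicPlace p ∧ ∀ τ ∈ (padicPlace p).inertiaSubgroupIn ℚ, τ υ = υ := by
  have hpp : p.Prime := Fact.out
  haveI : NeZero p := ⟨hpp.ne_zero⟩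
  have hp1 : (1 : ℝ) < p := by exact_mod_cast hpp.one_lt
  have hp0 : (0 : ℝ) < p := by linarith
  have hinj : Function.Injective (padicEmbedding p) := (padicEmbedding p).toRingHom.injective
  obtain ⟨υ₀, b, hc, hυ0, hυA, hυA', hυI, hb0, hbI⟩ := tres5d_unit_mul_pow p (padicPlace p) α hα0
    (fun τ hτ => hαp τ hτ.1) hαH
  -- the root of unity
  obtain ⟨ζ₀, hζ₀⟩ := cycloField_exists_primitiveRoot p
  set ζ : PadicAlgCl p := padicEmbedding p ζ₀ with hζdef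
  have hζp : ζ ^ p = 1 := by
    rw [hζdef, ← map_pow, hζ₀.pow_eq_one, map_one]
  -- `‖ι (α^p)‖ ∈ p^ℤ`
  have hιc0 : padicEmbedding p (α ^ p) ≠ 0 := by
    rw [Ne, map_eq_zero_iff _ hinj]
    exact pow_ne_zero _ hα0
  obtain ⟨n, hn⟩ := wgr_unr p hιc0 (fun τ hτ => by
    rw [← padicEmbedding_localGaloisToGlobal, hαp _ ((mem_inertiaQ p τ).1 hτ)])
  -- `‖ι b‖^(p-1) ∈ p^ℤ`
  have hιb0 : padicEmbedding p b ≠ 0 := by
    rw [Ne, map_eq_zero_iff _ hinj]
    exact hb0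
  obtain ⟨k, hk⟩ := tres5dk_norm_pow p (ζ := ζ) (y := padicEmbedding p b) hζp hιb0
    (fun τ hτ hτζ => by
      have hσI : localGaloisToGlobal p τ ∈ (padicPlace p).inertiaSubgroupIn ℚ :=
        (mem_inertiaQ p τ).1 hτ
      have hσζ : localGaloisToGlobal p τ ζ₀ = ζ₀ := by
        apply hinj
        rw [padicEmbedding_localGaloisToGlobal]
        exact hτζ
      have hσ1 : localGaloisToGlobal p τ ∈ tres5dI1 (padicPlace p) p :=
        tres5d_mem_I1_of_fix hσI hζ₀.pow_eq_one (hζ₀.ne_one hpp.one_lt) hσζ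
      rw [← padicEmbedding_localGaloisToGlobal, hbI _ hσ1])
  -- `‖ι υ₀‖ = 1`
  have hυn : ‖padicEmbedding p υ₀‖ = 1 := by
    have h1 : ‖padicEmbedding p υ₀‖ ≤ 1 := (tres5dk_mem_iff p υ₀).1 hυA
    have h2 : ‖padicEmbedding p υ₀⁻¹‖ ≤ 1 := (tres5dk_mem_iff p υ₀⁻¹).1 hυA'
    rw [map_inv₀, norm_inv] at h2
    have h3 : 0 < ‖padicEmbedding p υ₀‖ := by
      rw [norm_pos_iff, Ne, map_eq_zero_iff _ hinj]
      exact hυ0
    have h4 : 1 ≤ ‖padicEmbedding p υ₀‖ := by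
      rw [inv_le_one₀ h3] at h2
      exact h2
    exact le_antisymm h1 h4
  -- `‖ι b‖^p = p^n`
  have hbp : ‖padicEmbedding p b‖ ^ p = (p : ℝ) ^ n := by
    rw [← hn, hc, map_mul, norm_mul, hυn, one_mul, map_pow, norm_pow]
  -- `‖ι b‖ = p^(n - k)`
  have hbpos : 0 < ‖padicEmbedding p b‖ := norm_pos_iff.2 hιb0
  have hbn : ‖padicEmbedding p b‖ = (p : ℝ) ^ (n - k) := by
    have h1 : ‖padicEmbedding p b‖ ^ p =
        ‖padicEmbedding p b‖ ^ (p - 1) * ‖padicEmbedding p b‖ := by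
      rw [← pow_succ]
      congr 1
      have := hpp.one_lt
      omega
    rw [hbp, hk] at h1
    rw [zpow_sub₀ hp0.ne']
    field_simp
    rw [h1]
    ring
  -- the unit
  have hpQ0 : (p : Qb) ≠ 0 := by exact_mod_cast hpp.ne_zero
  have hιp : ‖padicEmbedding p ((p : Qb) ^ (k - n))‖ = (p : ℝ) ^ (n - k) := by
    rw [map_zpow₀, map_natCast, norm_zpow, r38epv_norm_p, inv_zpow', neg_sub]
  have hden : ‖padicEmbedding p (((p : Qb) ^ (k - n)) ^ p)‖ = (p : ℝ) ^ n := by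
    rw [map_pow (padicEmbedding p) ((p : Qb) ^ (k - n)) p, norm_pow, hιp, ← hbn, hbp]
  have hpn0 : ((p : ℝ) ^ n) ≠ 0 := zpow_ne_zero _ hp0.ne'
  have hnorm : ‖padicEmbedding p (α ^ p / ((p : Qb) ^ (k - n)) ^ p)‖ = 1 := by
    rw [map_div₀, norm_div, hn, hden, div_self hpn0]
  have hnorm' : ‖padicEmbedding p (α ^ p / ((p : Qb) ^ (k - n)) ^ p)⁻¹‖ = 1 := by
    rw [map_inv₀, norm_inv, hnorm, inv_one]
  refine ⟨k - n, α ^ p / ((p : Qb) ^ (k - n)) ^ p, ?_, ?_, ?_, ?_, ?_⟩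
  · rw [div_mul_cancel₀]
    exact pow_ne_zero _ (zpow_ne_zero _ hpQ0)
  · exact div_ne_zero (pow_ne_zero _ hα0) (pow_ne_zero _ (zpow_ne_zero _ hpQ0))
  · rw [tres5dk_mem_iff, hnorm]
  · rw [tres5dk_mem_iff, hnorm']
  · intro τ hτ
    rw [map_div₀, hαp τ hτ, map_pow, map_zpow₀, map_natCast]

end Padic

/-- **FAC-KUM, `K`-form**: `α ≠ 0`, `α^p` fixed by the inertia group of `A | p`, `α` fixed by the
peu ramifié subgroup of `A`  ⇒  `α^p = υ * (p^m)^p`, `υ` a unit of `A` fixed by inertia: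
`p ∣ v_p(α^p)`. -/
theorem tres5dk_main (p : ℕ) [Fact p.Prime] (A : ValuationSubring Qb) (hA : A.LiesOverPrime p)
    (α : Qb) (hα0 : α ≠ 0) (hαp : ∀ τ ∈ A.inertiaSubgroupIn ℚ, τ (α ^ p) = α ^ p)
    (hαH : ∀ σ ∈ peuSubgroup A p, σ α = α) :
    ∃ (m : ℤ) (υ : Qb), α ^ p = υ * ((p : Qb) ^ m) ^ p ∧ υ ≠ 0 ∧ υ ∈ A ∧ υ⁻¹ ∈ A ∧
      ∀ τ ∈ A.inertiaSubgroupIn ℚ, τ υ = υ := by
  have hp : p.Prime := Fact.out
  obtain ⟨g, hg⟩ := Fermat.Agent.TW.S.sconjp_exists_smul_eq p hp (padicPlace p) A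
    (lfrobex_liesOverPrime p) hA
  subst hg
  have hgg : ∀ x : Qb, g (g⁻¹ x) = x := fun x => g.apply_symm_apply x
  have hgg' : ∀ x : Qb, g⁻¹ (g x) = x := fun x => g.symm_apply_apply x
  have h1 : ∀ τ ∈ (padicPlace p).inertiaSubgroupIn ℚ, τ ((g⁻¹ α) ^ p) = (g⁻¹ α) ^ p := by
    intro τ hτ
    have h := hαp _ (conj_mem_inertiaSubgroupIn (padicPlace p) g τ hτ)
    have e : (g * τ * g⁻¹) (α ^ p) = g (τ (g⁻¹ (α ^ p))) := rfl
    rw [e] at h
    have h' := congrArg (g⁻¹ : GQ) h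
    rw [hgg'] at h'
    rw [← map_pow]
    exact h'
  have h2 : ∀ σ ∈ peuSubgroup (padicPlace p) p, σ (g⁻¹ α) = g⁻¹ α := by
    intro σ hσ
    have hσ' : σ ∈ peuSubgroup (g⁻¹ • (g • padicPlace p)) p := by
      rw [inv_smul_smul]
      exact hσ
    have hc := r38ep_conj_mem_peu (p := p) (g • padicPlace p) g⁻¹ σ hσ'
    rw [inv_inv] at hc
    have h := hαH _ hc
    have e : (g * σ * g⁻¹) α = g (σ (g⁻¹ α)) := rfl
    rw [e] at h
    have h' := congrArg (g⁻¹ : GQ) h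
    rw [hgg'] at h'
    exact h'
  have hα0' : g⁻¹ α ≠ 0 := by
    rw [Ne, map_eq_zero_iff _ (g⁻¹ : GQ).injective]
    exact hα0
  obtain ⟨m, υ, e1, e2, e3, e4, e5⟩ := tres5dk_padic p (g⁻¹ α) hα0' h1 h2
  refine ⟨m, g υ, ?_, ?_, ?_, ?_, ?_⟩
  · have h := congrArg g e1
    rw [map_pow, hgg, map_mul, map_pow, map_zpow₀, map_natCast] at h
    exact h
  · rw [Ne, map_eq_zero_iff _ g.injective]
    exact e2
  · rw [mem_smul_valuationSubring_iff, hgg']
    exact e3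
  · rw [← map_inv₀, mem_smul_valuationSubring_iff, hgg']
    exact e4
  · intro τ hτ
    have hτ' := conj_mem_inertiaSubgroupIn (g • padicPlace p) g⁻¹ τ hτ
    rw [inv_smul_smul, inv_inv] at hτ'
    have h := e5 _ hτ'
    have e : (g⁻¹ * τ * g) υ = g⁻¹ (τ (g υ)) := rfl
    rw [e] at h
    have h' := congrArg g h
    rw [hgg] at h'
    exact h'

end Fermat.Agent.R38

end


end ZBR38_025_1

/-! ### bundled: `Fermat.Agent.R38.TresDescK` -/
section ZBR38_025_2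

/-!
# R38-TRES, step 4 (DESC / DECK / KUM): the `K`-LEVEL GLUE (helper30)

`K = ℚ̄^I = beta0Field A` (inertia field of `A | p`), `F′ = tres5cField N y = F_N(ℚ̄)(y)`,
`y ^ p = w₀`, `L_K = tres5cL K N y = F′ ∩ K((q))`, `F_K = modularFunctionFieldFullC K N`,
`ι = coeffMap (algebraMap K ℚ̄)`.

* `tresdesck_ord_dvd` (abstract, **`hpa`**) : `a = υ · c ^ p`, `υ` a unit of `V`
  ⇒ `p ∣ tres5Ord V π a`;
* `tresdesck_coeff_mem` : a Laurent series fixed coefficientwise by the inertia group has its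
  coefficients in `K`;
* **`tresdesck_main`** : FAC-DESC (`tresdesc_final`, `G = I`) + FAC-KUM (`tres5dk_main`) over `K`:
  `w, h ∈ L_K`, `a, υ ∈ K`, `γ ∈ F′`, `m : ℤ` with
  `u = C (lc u) · γ ^ p · ι w`,  `t (ι w) = C a · ι w · (ι h) ^ p`,  `a = υ · (p ^ m) ^ p`,
  `υ` a unit of `A`;
* **`tresdesck_deck`** (**`hρu`**) : for every ring endomorphism `ρ_K` of `L_K` with
  `ι (ρ_K f) = t (ι f)` (the descended deck transformation, `tres5c_descend` +
  `tres5c_emb_deck`): `ρ_K w = algebraMap (algebraMap a) · w · h ^ p`;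
* `tresdesck_const_ord` (**`hpa`** for the constant `a`) : `p ∣ tres5Ord V_K π_K (algebraMap a)`
  at every discrete valuation subring `V_K` of `F_K` in which the units of `A ∩ K` are units;
* **`tresdesck_final`** : everything in one statement.
-/

set_option autoImplicit false
set_option linter.unusedSectionVars false
set_option linter.unusedVariables false
set_option linter.style.haveILetI false

noncomputable section

open ModularCurve AlgebraicCurve Fermat.Agent.ES Fermat.Agent.ES.G2 Fermat.Agent.INJ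
  Fermat.Agent.UNIP Fermat.Agent.S36 Fermat.Agent.RIB.MP

namespace Fermat.Agent.R38

section Ord

variable {F : Type*} [Field F]

/-- **(`hpa`), abstract**: `a = υ · c ^ p` with `υ` a unit of `V` ⇒ `p ∣ ord_V a`. -/
theorem tresdesck_ord_dvd {V : ValuationSubring F} {π : F} (hπ : π ∈ V.nonunits) (hπ0 : π ≠ 0)
    (hunif : ∀ x : F, x ≠ 0 → ∃ m : ℤ, V.valuation (x / π ^ m) = 1) (p : ℕ)
    {a υ c : F} (hυ : V.valuation υ = 1) (hc : c ≠ 0) (ha : a = υ * c ^ p) :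
    (p : ℤ) ∣ tres5Ord V π a := by
  have hυ0 : υ ≠ 0 := by
    rintro rfl
    rw [map_zero] at hυ
    exact zero_ne_one hυ
  rw [ha, tres5Ord_mul hπ hπ0 (hunif _ hυ0) (hunif _ (pow_ne_zero p hc)),
    tres5Ord_unit hπ hπ0 hυ, zero_add, tres5Ord_pow hπ hπ0 (hunif _ hc)]
  exact dvd_mul_right _ _

end Ord

section Coeff

/-- a Laurent series fixed coefficientwise by the inertia group has its coefficients in the
inertia field -/
theorem tresdesck_coeff_mem (A : ValuationSubring Qb) {f : LaurentSeries NfQb}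
    (hf : ∀ σ ∈ A.inertiaSubgroupIn ℚ,
      coeffMap ((σ : NfQb ≃ₐ[ℚ] NfQb) : NfQb →+* NfQb) f = f) (n : ℤ) :
    f.coeff n ∈ beta0Field A := by
  rw [mem_beta0Field]
  intro σ hσ
  have h := congrArg (fun z : LaurentSeries NfQb => z.coeff n) (hf σ hσ)
  simp only [coeffMap_coeff] at h
  exact h

end Coeff

section Main

variable {N : ℕ} [NeZero N]

/-- **Step 4 over `K = ℚ̄^I`** (FAC-DESC + FAC-KUM). -/
theorem tresdesck_main {p : ℕ} [Fact p.Prime] (A : ValuationSubring Qb)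
    (hA : A.LiesOverPrime p)
    {x z₀ : JZero N} {u w₀ : modularFunctionFieldBar N} (hu : KummerRel p x u)
    (hw : KummerRel p z₀ w₀) {y : LaurentSeries NfQb}
    (hy : y ^ p = (w₀ : LaurentSeries NfQb))
    (hline : ∀ σ ∈ A.inertiaSubgroupIn ℚ, ∃ k : ℤ, σ • x - x = k • z₀)
    (hpeu : ∀ σ ∈ peuSubgroup A p, σ • x = x)
    (t : ↥(tres5cField N y) →+* LaurentSeries NfQb) (htmem : ∀ z, t z ∈ tres5cField N y)
    (htF : ∀ (f : LaurentSeries NfQb) (hf : f ∈ modularFunctionFieldBar N),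
      t ⟨f, tres5c_bar_le N y hf⟩ = f)
    {ζ : NfQb} (hζ : ζ ≠ 0) (hty : t ⟨y, tres5c_y_mem N y⟩ = HahnSeries.C ζ * y)
    (htor : ∀ σ ∈ A.inertiaSubgroupIn ℚ, ∃ g : ℤ, σ • z₀ = g • z₀ ∧ σ ζ = ζ ^ g) :
    ∃ (w h : ↥(tres5cL (beta0Field A) N y)) (γ : LaurentSeries NfQb)
      (a υ : ↥(beta0Field A)) (m : ℤ),
      w ≠ 0 ∧ h ≠ 0 ∧ a ≠ 0 ∧ υ ≠ 0 ∧ γ ∈ tres5cField N y ∧ γ ≠ 0 ∧
      (u : LaurentSeries NfQb) =
        HahnSeries.C (u : LaurentSeries NfQb).leadingCoeff * γ ^ p *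
          coeffMap (algebraMap ↥(beta0Field A) NfQb) (w : LaurentSeries ↥(beta0Field A)) ∧
      t (tres5cEmb (beta0Field A) N y w) =
        HahnSeries.C (a : NfQb) *
          coeffMap (algebraMap ↥(beta0Field A) NfQb) (w : LaurentSeries ↥(beta0Field A)) *
          coeffMap (algebraMap ↥(beta0Field A) NfQb) (h : LaurentSeries ↥(beta0Field A)) ^ p ∧
      a = υ * ((p : ↥(beta0Field A)) ^ m) ^ p ∧ (υ : Qb) ∈ A ∧ ((υ : Qb))⁻¹ ∈ A := by
  have hp : p.Prime := Fact.out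
  obtain ⟨u'', γ, h, α, hu''F, hγF, hhF, hu'', hγ, hh0, hα, hU, hfix, hhfix, hth, hαm, hαfix⟩ :=
    tresdesc_final (N := N) hp.ne_zero (A.inertiaSubgroupIn ℚ) hu hw hy hline t htmem htF hζ hty
      htor
  obtain ⟨m, υ, hαυ, hυ0, hυA, hυA', hυfix⟩ :=
    tres5dk_main p A hA α hα hαm
      (fun σ hσ => hαfix σ (peuSubgroup_le A p hσ) (hpeu σ hσ))
  obtain ⟨w, hw'⟩ := tres5cL_exists_of_coeff (beta0Field A) N y hu''F
    (tresdesck_coeff_mem A hfix)
  obtain ⟨hK, hhK⟩ := tres5cL_exists_of_coeff (beta0Field A) N y hhF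
    (tresdesck_coeff_mem A hhfix)
  have hαK : α ^ p ∈ beta0Field A := mem_beta0Field.2 hαm
  have hυK : υ ∈ beta0Field A := mem_beta0Field.2 hυfix
  refine ⟨w, hK, γ, ⟨α ^ p, hαK⟩, ⟨υ, hυK⟩, m, ?_, ?_, ?_, ?_, hγF, hγ, ?_, ?_, ?_, hυA, hυA'⟩
  · rintro rfl
    apply hu''
    rw [← hw']
    exact map_zero _
  · rintro rfl
    apply hh0
    rw [← hhK]
    exact map_zero _
  · intro h0
    have := congrArg (fun z : ↥(beta0Field A) => (z : NfQb)) h0
    exact pow_ne_zero p hα this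
  · intro h0
    have := congrArg (fun z : ↥(beta0Field A) => (z : NfQb)) h0
    exact hυ0 this
  · rw [hw']
    exact hU
  · have e : tres5cEmb (beta0Field A) N y w = ⟨u'', hu''F⟩ := Subtype.ext hw'
    rw [e, hw', hhK]
    refine hth.trans ?_
    show HahnSeries.C (α ^ p) * h ^ p * u'' = HahnSeries.C (α ^ p) * u'' * h ^ p
    ring
  · apply Subtype.ext
    show α ^ p = _
    rw [hαυ]
    push_cast
    rfl

end Main

section Deck

variable {N : ℕ} [NeZero N] (K : IntermediateField ℚ NfQb) {y : LaurentSeries NfQb}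

/-- the constant `a ∈ K` as an element of `L_K` -/
theorem tresdesck_coe_const (a : ↥K) :
    ((algebraMap ↥(modularFunctionFieldFullC ↥K N) ↥(tres5cL K N y)
      (algebraMap ↥K ↥(modularFunctionFieldFullC ↥K N) a) : ↥(tres5cL K N y)) :
        LaurentSeries ↥K) = HahnSeries.C a := by
  rw [← s36d_algebraMap_eq_C]
  rfl

/-- **(`hρu`)**: the deck relation for the descended deck transformation `ρ_K` of `L_K`. -/
theorem tresdesck_deck {p : ℕ} (t : ↥(tres5cField N y) →+* LaurentSeries NfQb)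
    (ρK : ↥(tres5cL K N y) →+* ↥(tres5cL K N y))
    (hρK : ∀ f : ↥(tres5cL K N y),
      coeffMap (algebraMap ↥K NfQb) ((ρK f : ↥(tres5cL K N y)) : LaurentSeries ↥K) =
        t (tres5cEmb K N y f))
    {w h : ↥(tres5cL K N y)} {a : ↥K}
    (hth : t (tres5cEmb K N y w) =
      HahnSeries.C (a : NfQb) * coeffMap (algebraMap ↥K NfQb) (w : LaurentSeries ↥K) *
        coeffMap (algebraMap ↥K NfQb) (h : LaurentSeries ↥K) ^ p) :
    ρK w = algebraMap ↥(modularFunctionFieldFullC ↥K N) ↥(tres5cL K N y)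
      (algebraMap ↥K ↥(modularFunctionFieldFullC ↥K N) a) * w * h ^ p := by
  apply Subtype.ext
  apply nf_coeffMap_injective (algebraMap ↥K NfQb)
  rw [hρK, hth]
  have e1 : ((algebraMap ↥(modularFunctionFieldFullC ↥K N) ↥(tres5cL K N y)
      (algebraMap ↥K ↥(modularFunctionFieldFullC ↥K N) a) * w * h ^ p : ↥(tres5cL K N y)) :
        LaurentSeries ↥K) =
      HahnSeries.C a * (w : LaurentSeries ↥K) * (h : LaurentSeries ↥K) ^ p := by
    rw [← tresdesck_coe_const (N := N) (y := y) K a]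
    rfl
  rw [e1, map_mul, map_mul, map_pow, s36d_coeffMap_C' (algebraMap ↥K NfQb) a]
  rfl

/-- **(`hpa`)** for a constant `a = υ · (p ^ m) ^ p`, `υ` a unit: `p ∣ ord a` at every discrete
valuation subring of `F_K` in which `υ` is a unit. -/
theorem tresdesck_const_ord {p : ℕ} (hp0 : p ≠ 0)
    (VK : ValuationSubring ↥(modularFunctionFieldFullC ↥K N))
    {πK : ↥(modularFunctionFieldFullC ↥K N)} (hπK : πK ∈ VK.nonunits) (hπK0 : πK ≠ 0)
    (hunifK : ∀ x : ↥(modularFunctionFieldFullC ↥K N), x ≠ 0 →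
      ∃ m : ℤ, VK.valuation (x / πK ^ m) = 1)
    {a υ : ↥K} {m : ℤ} (ha : a = υ * ((p : ↥K) ^ m) ^ p)
    (hυ : VK.valuation (algebraMap ↥K ↥(modularFunctionFieldFullC ↥K N) υ) = 1) :
    (p : ℤ) ∣ tres5Ord VK πK (algebraMap ↥K ↥(modularFunctionFieldFullC ↥K N) a) := by
  have hpK : (p : ↥K) ≠ 0 := Nat.cast_ne_zero.2 hp0
  refine tresdesck_ord_dvd hπK hπK0 hunifK p hυ
    (c := algebraMap ↥K ↥(modularFunctionFieldFullC ↥K N) ((p : ↥K) ^ m)) ?_ ?_
  · exact (_root_.map_ne_zero _).2 (zpow_ne_zero m hpK)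
  · rw [ha, map_mul, map_pow]

end Deck

section Final

variable {N : ℕ} [NeZero N]

/-- **Step 4 over `K = ℚ̄^I`, final form**: the function `w = u″ ∈ L_K`, the decomposition
`u = C (lc u) · γ ^ p · ι w`, the deck relation `ρ_K w = a · w · h ^ p` for every descended deck
transformation `ρ_K` of `t`, and `p ∣ ord a` at every discrete valuation subring of `F_K` in
which the units of `A ∩ K` are units. -/
theorem tresdesck_final {p : ℕ} [Fact p.Prime] (A : ValuationSubring Qb)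
    (hA : A.LiesOverPrime p)
    {x z₀ : JZero N} {u w₀ : modularFunctionFieldBar N} (hu : KummerRel p x u)
    (hw : KummerRel p z₀ w₀) {y : LaurentSeries NfQb}
    (hy : y ^ p = (w₀ : LaurentSeries NfQb))
    (hline : ∀ σ ∈ A.inertiaSubgroupIn ℚ, ∃ k : ℤ, σ • x - x = k • z₀)
    (hpeu : ∀ σ ∈ peuSubgroup A p, σ • x = x)
    (t : ↥(tres5cField N y) →+* LaurentSeries NfQb) (htmem : ∀ z, t z ∈ tres5cField N y)
    (htF : ∀ (f : LaurentSeries NfQb) (hf : f ∈ modularFunctionFieldBar N),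
      t ⟨f, tres5c_bar_le N y hf⟩ = f)
    {ζ : NfQb} (hζ : ζ ≠ 0) (hty : t ⟨y, tres5c_y_mem N y⟩ = HahnSeries.C ζ * y)
    (htor : ∀ σ ∈ A.inertiaSubgroupIn ℚ, ∃ g : ℤ, σ • z₀ = g • z₀ ∧ σ ζ = ζ ^ g) :
    ∃ (w h : ↥(tres5cL (beta0Field A) N y)) (γ : LaurentSeries NfQb)
      (a : ↥(modularFunctionFieldFullC ↥(beta0Field A) N)),
      w ≠ 0 ∧ h ≠ 0 ∧ a ≠ 0 ∧ γ ∈ tres5cField N y ∧ γ ≠ 0 ∧
      (u : LaurentSeries NfQb) =
        HahnSeries.C (u : LaurentSeries NfQb).leadingCoeff * γ ^ p *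
          coeffMap (algebraMap ↥(beta0Field A) NfQb) (w : LaurentSeries ↥(beta0Field A)) ∧
      (∀ ρK : ↥(tres5cL (beta0Field A) N y) →+* ↥(tres5cL (beta0Field A) N y),
        (∀ f : ↥(tres5cL (beta0Field A) N y),
          coeffMap (algebraMap ↥(beta0Field A) NfQb)
            ((ρK f : ↥(tres5cL (beta0Field A) N y)) : LaurentSeries ↥(beta0Field A)) =
              t (tres5cEmb (beta0Field A) N y f)) →
        ρK w = algebraMap ↥(modularFunctionFieldFullC ↥(beta0Field A) N)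
          ↥(tres5cL (beta0Field A) N y) a * w * h ^ p) ∧
      (∀ (VK : ValuationSubring ↥(modularFunctionFieldFullC ↥(beta0Field A) N))
        (πK : ↥(modularFunctionFieldFullC ↥(beta0Field A) N)), πK ∈ VK.nonunits → πK ≠ 0 →
        (∀ x : ↥(modularFunctionFieldFullC ↥(beta0Field A) N), x ≠ 0 →
          ∃ m : ℤ, VK.valuation (x / πK ^ m) = 1) →
        (∀ υ : ↥(beta0Field A), (υ : Qb) ∈ A → ((υ : Qb))⁻¹ ∈ A →
          VK.valuation
            (algebraMap ↥(beta0Field A) ↥(modularFunctionFieldFullC ↥(beta0Field A) N) υ) = 1) →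
        (p : ℤ) ∣ tres5Ord VK πK a) := by
  have hp : p.Prime := Fact.out
  obtain ⟨w, h, γ, a, υ, m, hw0, hh0, ha0, hυ0, hγF, hγ, hU, hth, ha, hυA, hυA'⟩ :=
    tresdesck_main A hA hu hw hy hline hpeu t htmem htF hζ hty htor
  refine ⟨w, h, γ, algebraMap ↥(beta0Field A) ↥(modularFunctionFieldFullC ↥(beta0Field A) N) a,
    hw0, hh0, (_root_.map_ne_zero _).2 ha0, hγF, hγ, hU, ?_, ?_⟩
  · intro ρK hρK
    exact tresdesck_deck (beta0Field A) t ρK hρK hth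
  · intro VK πK hπK hπK0 hunifK hunit
    exact tresdesck_const_ord (beta0Field A) hp.ne_zero VK hπK hπK0 hunifK ha
      (hunit υ hυA hυA')

end Final

end Fermat.Agent.R38

end


end ZBR38_025_2
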