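/- GENERATED FILE (helper35, build-time optimisation, NOTES/ZB.md): verbatim concatenation of the modules
   Fermat.Agent.R38.TresHor
   Do not edit; do not import together with these modules. -/
import Fermat.Agent.ZB.INJ_009
import Fermat.Prelude.Def_AlgebraicCurve_Correspondence
import Fermat.Agent.ZB.R38_024

/-! ### bundled: `Fermat.Agent.R38.TresHor` -/
section ZBR38_026_0
/-
ROW 38, TRES, piece FAC-HOR (helper61): THE HORIZONTAL DIVISOR OF THE DESCENDED KUMMER FUNCTION
ON THE COVER IS DIVISIBLE BY `p`.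

Abstract setting:  `K ⊆ K̄` fields of characteristic `0`, `K̄ / K` algebraic;
`F̄ / K̄` a function field (`F_N(ℚ̄)`), `L̄ / K̄` a function field with an integral
`φ : F̄ →ₐ[K̄] L̄` (the cover `F′ = F̄(y)`), `L_K / K` a function field with `L_K ⊆ L̄`,
`L̄ = K̄ · L_K` (`hgen`).
`u ∈ F̄` with `m ∣ ord_Q u` at all places `Q` of `F̄ / K̄`,  `φ u = c · H ^ m · u″` with
`c ∈ K̄ˣ`, `H ∈ L̄ˣ`, `u″ ∈ L_K`.   Then `m ∣ ord_P u″` at ALL places `P` of `L_K / K`.

* `tres5h_dvd_ord_map`  : `m ∣ ord_P̄ (φ u)` at the places `P̄` of `L̄ / K̄`;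
* `tres5h_dvd_ord_bar`  : `m ∣ ord_P̄ u″` at the places `P̄` of `L̄ / K̄`;
* `tres5h_dvd_ord_desc` : descent of the divisibility along `L̄ = K̄ · L_K` (constant field
                          extensions are unramified: `INJ.PlaceExt.exists_place_extend_charZero`);
* `tres5h_main`         : the statement above.
-/

set_option autoImplicit false
set_option linter.style.haveILetI false
set_option linter.unusedSectionVars false
set_option linter.unusedVariables false

namespace Fermat.Agent.R38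

open AlgebraicCurve Fermat.Agent.INJ

section Bar

variable {Kb Fb Lb : Type*} [Field Kb] [Field Fb] [Field Lb] [Algebra Kb Fb] [Algebra Kb Lb]

/-- the orders on the cover of a function of `F̄` whose divisor is divisible by `m` -/
theorem tres5h_dvd_ord_map (φ : Fb →ₐ[Kb] Lb) (hφ : φ.toRingHom.IsIntegral) (m : ℤ) (u : Fb)
    (hu : ∀ Q : Place Kb Fb, m ∣ Q.ord u) (P : Place Kb Lb) : m ∣ P.ord (φ u) := by
  rw [Place.ord_restrictAlong φ hφ P u]
  exact Dvd.dvd.mul_left (hu _) _

/-- the orders of the constants -/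
theorem tres5h_ord_const (P : Place Kb Lb) (c : Kb) : P.ord (algebraMap Kb Lb c) = 0 :=
  Fermat.Agent.S24.PlaceAux.ord_algebraMap P c

/-- the orders of `u″` on the cover over `K̄` -/
theorem tres5h_dvd_ord_bar (φ : Fb →ₐ[Kb] Lb) (hφ : φ.toRingHom.IsIntegral) (m : ℕ) (u : Fb)
    (hu : ∀ Q : Place Kb Fb, (m : ℤ) ∣ Q.ord u) {c : Kb} (hc : c ≠ 0) {H u'' : Lb}
    (hH : H ≠ 0) (h : φ u = algebraMap Kb Lb c * H ^ m * u'') (P : Place Kb Lb) :
    (m : ℤ) ∣ P.ord u'' := by
  rcases eq_or_ne u'' 0 with rfl | hu''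
  · rw [Place.ord_zero]
    exact dvd_zero _
  have hc' : algebraMap Kb Lb c ≠ 0 := (map_ne_zero _).2 hc
  have hHm : H ^ m ≠ 0 := pow_ne_zero _ hH
  have h1 := tres5h_dvd_ord_map φ hφ (m : ℤ) u hu P
  rw [h, Place.ord_mul P (mul_ne_zero hc' hHm) hu'', Place.ord_mul P hc' hHm,
    tres5h_ord_const, zero_add] at h1
  have h2 : P.ord (H ^ m) = (m : ℤ) * P.ord H := by
    have := Place.ord_zpow P H (m : ℤ)
    rwa [zpow_natCast] at this
  rw [h2] at h1
  exact (Int.dvd_add_right (Dvd.intro _ rfl)).1 h1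

end Bar

section Desc

variable {K Kb Lb LK : Type*} [Field K] [Field Kb] [Field Lb] [Field LK]
  [Algebra K Kb] [Algebra Kb Lb] [Algebra K LK] [Algebra LK Lb] [Algebra K Lb]
  [IsScalarTower K LK Lb] [IsScalarTower K Kb Lb]

/-- divisibility of the divisor descends along a constant field extension -/
theorem tres5h_dvd_ord_desc [CharZero K] [Algebra.IsAlgebraic K Kb]
    (hgen : IntermediateField.adjoin Kb (Set.range (algebraMap LK Lb)) = ⊤)
    (m : ℤ) (x : LK) (h : ∀ P : Place Kb Lb, m ∣ P.ord (algebraMap LK Lb x))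
    (P : Place K LK) : m ∣ P.ord x := by
  obtain ⟨v, hv⟩ := PlaceExt.exists_place_extend_charZero (E := K) (K := Kb) (L' := Lb) hgen P
  rw [← hv x]
  exact h v

/-- divisibility of the divisor ascends along a constant field extension -/
theorem tres5h_dvd_ord_asc [CharZero K] [Algebra.IsAlgebraic K Kb]
    (hgen : IntermediateField.adjoin Kb (Set.range (algebraMap LK Lb)) = ⊤)
    (m : ℤ) (x : LK) (h : ∀ P : Place K LK, m ∣ P.ord x)
    (P : Place Kb Lb) : m ∣ P.ord (algebraMap LK Lb x) := by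
  obtain ⟨Q, hQ⟩ := PlaceExt.exists_place_restrict_const (E := K) (K := Kb) (L' := Lb)
    (PlaceExt.adjoin_range_swap hgen) P
  rw [hQ x]
  exact h Q

end Desc

section Main

variable {K Kb Fb Lb LK : Type*} [Field K] [Field Kb] [Field Fb] [Field Lb] [Field LK]
  [Algebra K Kb] [Algebra Kb Fb] [Algebra Kb Lb] [Algebra K LK] [Algebra LK Lb] [Algebra K Lb]
  [IsScalarTower K LK Lb] [IsScalarTower K Kb Lb]

/-- **FAC-HOR, abstract form.**  The horizontal divisor of the descended Kummer function `u″`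
on the `K`-form of the cover is divisible by `m`. -/
theorem tres5h_main [CharZero K] [Algebra.IsAlgebraic K Kb]
    (hgen : IntermediateField.adjoin Kb (Set.range (algebraMap LK Lb)) = ⊤)
    (φ : Fb →ₐ[Kb] Lb) (hφ : φ.toRingHom.IsIntegral) (m : ℕ) (u : Fb)
    (hu : ∀ Q : Place Kb Fb, (m : ℤ) ∣ Q.ord u) {c : Kb} (hc : c ≠ 0) {H : Lb} (hH : H ≠ 0)
    (u'' : LK) (h : φ u = algebraMap Kb Lb c * H ^ m * algebraMap LK Lb u'')
    (P : Place K LK) : (m : ℤ) ∣ P.ord u'' :=
  tres5h_dvd_ord_desc hgen (m : ℤ) u''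
    (fun P' => tres5h_dvd_ord_bar φ hφ m u hu hc hH h P') P

end Main

end Fermat.Agent.R38


end ZBR38_026_0
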