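/- GENERATED FILE (helper35, build-time optimisation, NOTES/ZB.md): verbatim concatenation of the modules
   Fermat.Agent.R38.TresCoverConcK
   Fermat.Agent.R38.TresHorForm
   Fermat.Agent.R38.TresDescKHor
   Fermat.Agent.R38.TresCoverDescK
   Fermat.Agent.R38.TresDescKAll
   Fermat.Agent.R38.TresHorInst
   Fermat.Agent.R38.TresHorInstW
   Do not edit; do not import together with these modules. -/
import Mathlib
import Fermat.Agent.ZB.R38_026
import Fermat.Agent.ZB.R38_017
import Fermat.Agent.ZB.R38_025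
import Fermat.Agent.ZB.R38_019
import Fermat.Agent.ZB.UNIP_006
import Fermat.Agent.ZB.R38_014

/-! ### bundled: `Fermat.Agent.R38.TresCoverConcK` -/
section ZBR38_027_0
/-
ROW 38, TRES, piece ASM-COV (helper64, paired with helper78), part K1: ABSTRACT KUMMER THEORY of
the cover `F′ = F(y)`, `y ^ p = w ∈ F`, `w` not a `p`-th power in `F`, inside a big field `Ω`
(`Ω = ℚ̄((q))`, `F = F_N(ℚ̄)`, `adjoin k (F ∪ {y})` = helper30's `tresCov N y` = helper78's
`tres5cField N y`).  Mathlib only.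

* `tres5ck_minpoly`      : `minpoly F y = X ^ p − w`;
* `tres5ck_finrank`      : `[F(y) : F] = p`;
* `tres5ck_exists_deck`  : the deck transformation `ρ : F(y) ≃ₐ[F] F(y)`, `ρ y = ζ y`;
* `tres5ck_restrictScalars`, `tres5ck_mem_iff` : `adjoin k (F ∪ {y}) = F(y)` as sets;
* `tres5ck_exists_repr`  : every element of the cover is `∑_{i<p} aᵢ yⁱ`, `aᵢ ∈ F`;
* `tres5ck_repr_unique`  : `1, y, …, y^{p−1}` are linearly independent over `F`.
-/

set_option autoImplicit false

namespace Fermat.Agent.R38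

open Polynomial IntermediateField

section Kummer

variable {k Ω : Type*} [Field k] [Field Ω] [Algebra k Ω]

/-- the Kummer polynomial kills the Kummer generator -/
theorem tres5ck_aeval (F : IntermediateField k Ω) {p : ℕ} (y : Ω) (w : F)
    (hy : y ^ p = (w : Ω)) : aeval y (X ^ p - C w : F[X]) = 0 := by
  rw [map_sub, map_pow, aeval_X, aeval_C, hy]
  exact sub_self _

/-- a Kummer generator is integral -/
theorem tres5ck_isIntegral (F : IntermediateField k Ω) {p : ℕ} (hp : p ≠ 0) (y : Ω) (w : F)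
    (hy : y ^ p = (w : Ω)) : IsIntegral F y :=
  ⟨X ^ p - C w, monic_X_pow_sub_C w hp, tres5ck_aeval F y w hy⟩

/-- the minimal polynomial of a Kummer generator -/
theorem tres5ck_minpoly (F : IntermediateField k Ω) {p : ℕ} (hp : p.Prime) (y : Ω) (w : F)
    (hy : y ^ p = (w : Ω)) (hw : ∀ c : F, c ^ p ≠ w) : minpoly F y = X ^ p - C w :=
  (minpoly.eq_of_irreducible_of_monic (X_pow_sub_C_irreducible_of_prime hp hw)
    (tres5ck_aeval F y w hy) (monic_X_pow_sub_C w hp.ne_zero)).symm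

/-- `[F(y) : F] = p` -/
theorem tres5ck_finrank (F : IntermediateField k Ω) {p : ℕ} (hp : p.Prime) (y : Ω) (w : F)
    (hy : y ^ p = (w : Ω)) (hw : ∀ c : F, c ^ p ≠ w) : Module.finrank F F⟮y⟯ = p := by
  rw [adjoin.finrank (tres5ck_isIntegral F hp.ne_zero y w hy), tres5ck_minpoly F hp y w hy hw,
    natDegree_X_pow_sub_C]

/-- **the deck transformation** of the Kummer extension `F(y) / F`, `ρ y = ζ y`. -/
theorem tres5ck_exists_deck (F : IntermediateField k Ω) {p : ℕ} (hp : p.Prime) (y : Ω) (w : F)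
    (hy : y ^ p = (w : Ω)) (hw : ∀ c : F, c ^ p ≠ w) (ζ : F) (hζ : ζ ^ p = 1) :
    ∃ ρ : F⟮y⟯ ≃ₐ[F] F⟮y⟯, ρ (AdjoinSimple.gen F y) = ζ • AdjoinSimple.gen F y := by
  have hint := tres5ck_isIntegral F hp.ne_zero y w hy
  have : FiniteDimensional F F⟮y⟯ := adjoin.finiteDimensional hint
  let pb := adjoin.powerBasis hint
  have hgen : pb.gen = AdjoinSimple.gen F y := rfl
  have hmin : minpoly F pb.gen = X ^ p - C w := by
    rw [hgen, minpoly_gen, tres5ck_minpoly F hp y w hy hw]
  have hgp : (AdjoinSimple.gen F y) ^ p = algebraMap F F⟮y⟯ w := by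
    apply Subtype.ext
    rw [SubmonoidClass.coe_pow, AdjoinSimple.coe_gen, hy]
    rfl
  have hroot : aeval (ζ • AdjoinSimple.gen F y) (minpoly F pb.gen) = 0 := by
    rw [hmin, map_sub, map_pow, aeval_X, aeval_C, _root_.smul_pow, hζ, one_smul, hgp]
    exact sub_self _
  let ρ₀ : F⟮y⟯ →ₐ[F] F⟮y⟯ := pb.lift _ hroot
  refine ⟨AlgEquiv.ofBijective ρ₀ (AlgHom.bijective ρ₀), ?_⟩
  show ρ₀ (AdjoinSimple.gen F y) = _
  rw [← hgen]
  exact pb.lift_gen _ hroot

/-- the cover, as an intermediate field over `k` -/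
theorem tres5ck_restrictScalars (F : IntermediateField k Ω) (y : Ω) :
    (F⟮y⟯).restrictScalars k = adjoin k (↑F ∪ {y}) :=
  restrictScalars_adjoin (F := k) F ({y} : Set Ω)

theorem tres5ck_mem_iff (F : IntermediateField k Ω) (y x : Ω) :
    x ∈ adjoin k ((F : Set Ω) ∪ {y}) ↔ x ∈ F⟮y⟯ := by
  rw [← tres5ck_restrictScalars]
  rfl

/-- coordinates in the power basis `1, y, …, y ^ (p - 1)` -/
theorem tres5ck_exists_repr (F : IntermediateField k Ω) {p : ℕ} (hp : p.Prime) (y : Ω) (w : F)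
    (hy : y ^ p = (w : Ω)) (hw : ∀ c : F, c ^ p ≠ w) (x : Ω)
    (hx : x ∈ adjoin k ((F : Set Ω) ∪ {y})) :
    ∃ a : Fin p → F, x = ∑ i, (a i : Ω) * y ^ (i : ℕ) := by
  rw [tres5ck_mem_iff] at hx
  have hint := tres5ck_isIntegral F hp.ne_zero y w hy
  let pb := adjoin.powerBasis hint
  have hdim : pb.dim = p := by
    show (minpoly F y).natDegree = p
    rw [tres5ck_minpoly F hp y w hy hw, natDegree_X_pow_sub_C]
  have h1 := pb.basis.sum_repr ⟨x, hx⟩
  refine ⟨fun i => pb.basis.repr ⟨x, hx⟩ (Fin.cast hdim.symm i), ?_⟩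
  have h2 : x = ((∑ i, pb.basis.repr ⟨x, hx⟩ i • pb.basis i : F⟮y⟯) : Ω) :=
    (congrArg (fun z : F⟮y⟯ => (z : Ω)) h1).symm
  refine h2.trans ?_
  rw [AddSubmonoidClass.coe_finsetSum]
  rw [← Equiv.sum_comp (finCongr hdim.symm)]
  refine Finset.sum_congr rfl fun i _ => ?_
  rw [PowerBasis.coe_basis]
  simp only [finCongr_apply, Fin.val_cast]
  show _ = ((pb.basis.repr ⟨x, hx⟩ (Fin.cast hdim.symm i) • (pb.gen ^ (i : ℕ)) : F⟮y⟯) : Ω)
  rw [IntermediateField.coe_smul, SubmonoidClass.coe_pow]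

/-- linear independence of `1, y, …, y ^ (p - 1)` over `F` -/
theorem tres5ck_repr_unique (F : IntermediateField k Ω) {p : ℕ} (hp : p.Prime) (y : Ω) (w : F)
    (hy : y ^ p = (w : Ω)) (hw : ∀ c : F, c ^ p ≠ w) (a : Fin p → F)
    (h : ∑ i, (a i : Ω) * y ^ (i : ℕ) = 0) : a = 0 := by
  -- the polynomial `∑ a i X ^ i` of degree `< p` kills `y`
  set Q : F[X] := ∑ i : Fin p, C (a i) * X ^ (i : ℕ) with hQ
  have hQy : aeval y Q = 0 := by
    rw [hQ, map_sum, ← h]
    refine Finset.sum_congr rfl fun i _ => ?_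
    rw [map_mul, map_pow, aeval_X, aeval_C]
    rfl
  have hdeg : Q.degree < (p : WithBot ℕ) := by
    rw [hQ]
    refine lt_of_le_of_lt (degree_sum_le _ _) ?_
    rw [Finset.sup_lt_iff (by exact WithBot.bot_lt_coe p)]
    intro i _
    refine lt_of_le_of_lt (degree_C_mul_X_pow_le _ _) ?_
    exact_mod_cast i.2
  have hQ0 : Q = 0 := by
    by_contra hne
    have h1 := minpoly.degree_le_of_ne_zero F y hne hQy
    rw [tres5ck_minpoly F hp y w hy hw, degree_X_pow_sub_C hp.pos] at h1
    exact absurd (lt_of_le_of_lt h1 hdeg) (lt_irrefl _)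
  funext i
  have h2 := congrArg (fun P : F[X] => P.coeff (i : ℕ)) hQ0
  simp only [hQ, finsetSum_coeff, coeff_C_mul, coeff_X_pow, coeff_zero] at h2
  rw [Finset.sum_eq_single i] at h2
  · simpa using h2
  · intro j _ hji
    have : (i : ℕ) ≠ (j : ℕ) := fun e => hji (Fin.ext e.symm)
    simp [this]
  · intro hi
    exact absurd (Finset.mem_univ i) hi

end Kummer

end Fermat.Agent.R38


end ZBR38_027_0

/-! ### bundled: `Fermat.Agent.R38.TresHorForm` -/
section ZBR38_027_1
/-
ROW 38, TRES, piece FAC-HOR (helper61), part 3: THE INSTANCE ON THE FORMS OF helper78.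

`E ⊆ Ω` fields of characteristic `0`, `Ω / E` algebraic (`E = K = ℚ̄^I`, `Ω = ℚ̄`);
`Fb ≤ L′` intermediate fields of `Ω((q)) / Ω` (`Fb = F_N(ℚ̄)`, `L′ = tres5cField N y` the cover),
`L′ / Fb` integral;  `F₀` an intermediate field of `E((q)) / E` mapped into `L′` (`F₀ = F_N(E)`);
`L_E := tres5cForm (algebraMap E Ω) F₀ L′.toSubfield hF` the `E`-form of the cover
(`R38/TresCoverConc.lean`).

* `tres5hEmb`       : the embedding `L_E → L′` (`coeffMap`);
* `tres5h_form_gen` : the ambient generation statement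
                      `L′ ≤ adjoin Ω {x ∈ L′ | x has coefficients in E}`
                      gives the hypothesis `hgen` of `tres5h_main`;
* `tres5h_form`     : **FAC-HOR on the form**: `u ∈ Fb` with `m ∣ div u`,
                      `u = C c · H ^ m · coeffMap g`, `c ≠ 0`, `H ∈ L′ ∖ 0`, `g ∈ L_E`
                      ⇒  `m ∣ ord_P g` at every place `P` of `L_E / E`.
                      The `E`-algebra structure on `L_E` is ANY instance `alg` with
                      `hconst : ↑(algebraMap E L_E c) = algebraMap E E((q)) c`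
                      (instance search for `Algebra ↥E ↥(tres5cL E N y)` times out, so the
                      consumer fixes the instance; `hconst` is `fun _ => rfl` for the usual ones);
* `tres5h_cover`    : the same for `L′ = tres5cField N y`, `L_E = tres5cL E N y`,
                      `Fb = modularFunctionFieldBar N`, `y ^ p ∈ Fb`;
* `tres5hAlgEL`     : the algebra structure `E → F_N(E) → L_E` (reducible def, not an instance),
                      `tres5hAlgEL_const`, and `tres5h_cover_std` for it.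
-/

set_option autoImplicit false
set_option linter.style.haveILetI false
set_option linter.unusedSectionVars false
set_option linter.unusedVariables false

noncomputable section

namespace Fermat.Agent.R38

open AlgebraicCurve ModularCurve

section Form

variable {E Ω : Type*} [Field E] [Field Ω] [Algebra E Ω]
variable (L' : IntermediateField Ω (LaurentSeries Ω))
variable (F₀ : IntermediateField E (LaurentSeries E))
variable (hF : ∀ x ∈ F₀, coeffMap (algebraMap E Ω) x ∈ L'.toSubfield)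

/-- the embedding of the `E`-form of the cover into the cover -/
def tres5hEmb : ↥(tres5cForm (algebraMap E Ω) F₀ L'.toSubfield hF) →+* ↥L' where
  toFun f := ⟨coeffMap (algebraMap E Ω) (f : LaurentSeries E), f.2⟩
  map_one' := Subtype.ext (map_one (coeffMap (algebraMap E Ω)))
  map_mul' _ _ := Subtype.ext (map_mul (coeffMap (algebraMap E Ω)) _ _)
  map_zero' := Subtype.ext (map_zero (coeffMap (algebraMap E Ω)))
  map_add' _ _ := Subtype.ext (map_add (coeffMap (algebraMap E Ω)) _ _)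

@[simp]
theorem tres5hEmb_coe (f : ↥(tres5cForm (algebraMap E Ω) F₀ L'.toSubfield hF)) :
    ((tres5hEmb L' F₀ hF f : ↥L') : LaurentSeries Ω)
      = coeffMap (algebraMap E Ω) (f : LaurentSeries E) := rfl

/-- the ambient generation statement gives `hgen` -/
theorem tres5h_form_gen
    (hgen : ∀ f ∈ L', f ∈ IntermediateField.adjoin Ω
      {x : LaurentSeries Ω | x ∈ L' ∧ ∃ g : LaurentSeries E, coeffMap (algebraMap E Ω) g = x}) :
    IntermediateField.adjoin Ω (Set.range (tres5hEmb L' F₀ hF)) = ⊤ := by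
  apply IntermediateField.lift_injective
  rw [IntermediateField.lift_top, IntermediateField.lift_adjoin]
  apply le_antisymm
  · rw [IntermediateField.adjoin_le_iff]
    rintro _ ⟨x, -, rfl⟩
    exact x.2
  · intro f hf
    have h1 := hgen f hf
    refine IntermediateField.adjoin.mono Ω _ _ ?_ h1
    rintro x ⟨hx, g, hg⟩
    refine ⟨⟨x, hx⟩, ⟨⟨g, ?_⟩, ?_⟩, rfl⟩
    · show coeffMap (algebraMap E Ω) g ∈ L'.toSubfield
      rw [hg]
      exact hx
    · apply Subtype.ext
      exact hg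

variable (Fb : IntermediateField Ω (LaurentSeries Ω))
variable [alg : Algebra E ↥(tres5cForm (algebraMap E Ω) F₀ L'.toSubfield hF)]

/-- the constants of `E` in the cover, for an `E`-algebra structure of the form which is
compatible with the constant series -/
theorem tres5hEmb_const
    (hconst : ∀ c : E, ((algebraMap E ↥(tres5cForm (algebraMap E Ω) F₀ L'.toSubfield hF) c :
      ↥(tres5cForm (algebraMap E Ω) F₀ L'.toSubfield hF)) : LaurentSeries E)
        = algebraMap E (LaurentSeries E) c) (c : E) :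
    tres5hEmb L' F₀ hF (algebraMap E ↥(tres5cForm (algebraMap E Ω) F₀ L'.toSubfield hF) c)
      = algebraMap Ω ↥L' (algebraMap E Ω c) := by
  apply Subtype.ext
  show coeffMap (algebraMap E Ω)
      ((algebraMap E ↥(tres5cForm (algebraMap E Ω) F₀ L'.toSubfield hF) c :
        ↥(tres5cForm (algebraMap E Ω) F₀ L'.toSubfield hF)) : LaurentSeries E)
    = algebraMap Ω (LaurentSeries Ω) (algebraMap E Ω c)
  rw [hconst, algebraMap_laurentSeries_eq_single, algebraMap_laurentSeries_eq_single,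
    coeffMap_single]

/-- **FAC-HOR on the `E`-form of the cover** (any `E`-algebra structure on the form which is
compatible with the constant series). -/
theorem tres5h_form [CharZero E] [Algebra.IsAlgebraic E Ω]
    (hconst : ∀ c : E, ((algebraMap E ↥(tres5cForm (algebraMap E Ω) F₀ L'.toSubfield hF) c :
      ↥(tres5cForm (algebraMap E Ω) F₀ L'.toSubfield hF)) : LaurentSeries E)
        = algebraMap E (LaurentSeries E) c)
    (hle : Fb ≤ L') (hint : ∀ x : ↥L', IsIntegral ↥Fb (x : LaurentSeries Ω))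
    (hgen : ∀ f ∈ L', f ∈ IntermediateField.adjoin Ω
      {x : LaurentSeries Ω | x ∈ L' ∧ ∃ g : LaurentSeries E, coeffMap (algebraMap E Ω) g = x})
    (m : ℕ) (u : ↥Fb) (hu : ∀ Q : Place Ω ↥Fb, (m : ℤ) ∣ Q.ord u)
    {c : Ω} (hc : c ≠ 0) {H : LaurentSeries Ω} (hH : H ∈ L') (hH0 : H ≠ 0)
    (g : ↥(tres5cForm (algebraMap E Ω) F₀ L'.toSubfield hF))
    (h : (u : LaurentSeries Ω)
      = algebraMap Ω (LaurentSeries Ω) c * H ^ m * coeffMap (algebraMap E Ω) (g : LaurentSeries E))
    (P : Place E ↥(tres5cForm (algebraMap E Ω) F₀ L'.toSubfield hF)) : (m : ℤ) ∣ P.ord g := by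
  letI : Algebra ↥(tres5cForm (algebraMap E Ω) F₀ L'.toSubfield hF) ↥L' :=
    (tres5hEmb L' F₀ hF).toAlgebra
  letI : Algebra E ↥L' := ((algebraMap Ω ↥L').comp (algebraMap E Ω)).toAlgebra
  haveI : IsScalarTower E Ω ↥L' := IsScalarTower.of_algebraMap_eq (fun _ => rfl)
  haveI : IsScalarTower E ↥(tres5cForm (algebraMap E Ω) F₀ L'.toSubfield hF) ↥L' :=
    IsScalarTower.of_algebraMap_eq (fun c => (tres5hEmb_const L' F₀ hF hconst c).symm)
  let φ : ↥Fb →ₐ[Ω] ↥L' := IntermediateField.inclusion hle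
  have hφ : φ.toRingHom.IsIntegral := by
    intro x
    obtain ⟨q, hq, hqx⟩ := hint x
    refine ⟨q, hq, ?_⟩
    apply (algebraMap ↥L' (LaurentSeries Ω)).injective
    rw [map_zero, Polynomial.hom_eval₂]
    exact hqx
  have hgen' : IntermediateField.adjoin Ω
      (Set.range (algebraMap ↥(tres5cForm (algebraMap E Ω) F₀ L'.toSubfield hF) ↥L')) = ⊤ :=
    tres5h_form_gen L' F₀ hF hgen
  have hH0' : (⟨H, hH⟩ : ↥L') ≠ 0 := fun h0 => hH0 (congrArg Subtype.val h0)
  refine tres5h_main (K := E) (Kb := Ω) (Fb := ↥Fb) (Lb := ↥L')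
    (LK := ↥(tres5cForm (algebraMap E Ω) F₀ L'.toSubfield hF)) hgen' φ hφ m u hu hc
    (H := ⟨H, hH⟩) hH0' g ?_ P
  apply Subtype.ext
  show (u : LaurentSeries Ω) = _
  rw [h]
  rfl

end Form

/-! ### The concrete cover -/

section Cover

open Fermat.Agent.INJ IntermediateField

variable (E : IntermediateField ℚ NfQb) (N : ℕ) (y : LaurentSeries NfQb)

/-- the cover is integral over `F_N(ℚ̄)` -/
theorem tres5h_cover_isIntegral {p : ℕ} (hp : p ≠ 0)
    (hy : y ^ p ∈ modularFunctionFieldBar N) (x : ↥(tres5cField N y)) :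
    IsIntegral ↥(modularFunctionFieldBar N) (x : LaurentSeries NfQb) := by
  have hyint : IsIntegral ↥(modularFunctionFieldBar N) y :=
    tres5ck_isIntegral (modularFunctionFieldBar N) hp y ⟨y ^ p, hy⟩ rfl
  have hx : (x : LaurentSeries NfQb) ∈ (modularFunctionFieldBar N)⟮y⟯ :=
    (tres5ck_mem_iff (modularFunctionFieldBar N) y _).1 x.2
  haveI : FiniteDimensional ↥(modularFunctionFieldBar N) ↥(modularFunctionFieldBar N)⟮y⟯ :=
    adjoin.finiteDimensional hyint
  have h1 : IsIntegral ↥(modularFunctionFieldBar N)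
      (⟨(x : LaurentSeries NfQb), hx⟩ : ↥(modularFunctionFieldBar N)⟮y⟯) :=
    IsIntegral.of_finite _ _
  exact h1.map ((modularFunctionFieldBar N)⟮y⟯.val)

/-- **FAC-HOR for the cover** `F′ = F_N(ℚ̄)(y)`, `y ^ p ∈ F_N(ℚ̄)`, and its `E`-form
`L_E = tres5cL E N y` (with any `E`-algebra structure compatible with the constant series):
if `u ∈ F_N(ℚ̄)` has `m ∣ div u` and `u = C c · H ^ m · coeffMap g` with
`c ≠ 0`, `H ∈ F′ ∖ 0`, `g ∈ L_E`, then `m ∣ ord_P g` at every place `P` of `L_E / E`. -/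
theorem tres5h_cover [alg : Algebra ↥E ↥(tres5cL E N y)]
    (hconst : ∀ c : ↥E, ((algebraMap ↥E ↥(tres5cL E N y) c : ↥(tres5cL E N y)) :
      LaurentSeries ↥E) = algebraMap ↥E (LaurentSeries ↥E) c)
    {p : ℕ} (hp : p ≠ 0) (hy : y ^ p ∈ modularFunctionFieldBar N)
    (hgen : ∀ f ∈ tres5cField N y, f ∈ IntermediateField.adjoin NfQb
      {x : LaurentSeries NfQb | x ∈ tres5cField N y ∧
        ∃ g : LaurentSeries ↥E, coeffMap (algebraMap ↥E NfQb) g = x})
    (m : ℕ) (u : ↥(modularFunctionFieldBar N))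
    (hu : ∀ Q : Place NfQb ↥(modularFunctionFieldBar N), (m : ℤ) ∣ Q.ord u)
    {c : NfQb} (hc : c ≠ 0) {H : LaurentSeries NfQb} (hH : H ∈ tres5cField N y) (hH0 : H ≠ 0)
    (g : ↥(tres5cL E N y))
    (h : (u : LaurentSeries NfQb) = algebraMap NfQb (LaurentSeries NfQb) c * H ^ m *
      coeffMap (algebraMap ↥E NfQb) (g : LaurentSeries ↥E))
    (P : Place ↥E ↥(tres5cL E N y)) : (m : ℤ) ∣ P.ord g := by
  haveI : Algebra.IsAlgebraic ℚ NfQb := AlgebraicClosure.isAlgebraic ℚ
  haveI : Algebra.IsAlgebraic ↥E NfQb := Algebra.IsAlgebraic.tower_top (K := ℚ) ↥E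
  exact @tres5h_form ↥E NfQb _ _ _ (tres5cField N y) (modularFunctionFieldFullC ↥E N)
    (fun _ hx => tres5c_bar_le N y (nf_coeffMap_mem_bar E N hx)) (modularFunctionFieldBar N)
    alg _ _ hconst (tres5c_bar_le N y) (tres5h_cover_isIntegral N y hp hy) hgen m u hu c hc H
    hH hH0 g h P

set_option synthInstance.maxHeartbeats 400000 in
/-- the `E`-algebra structure of the `E`-form of the cover through `F_N(E)` (a reducible def,
NOT an instance: pass it explicitly, as `tres5cAlgFF` etc. of `R38/TresCoverTower.lean`) -/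
@[reducible] def tres5hAlgEL : Algebra ↥E ↥(tres5cL E N y) :=
  ((algebraMap ↥(modularFunctionFieldFullC ↥E N) ↥(tres5cL E N y)).comp
    (algebraMap ↥E ↥(modularFunctionFieldFullC ↥E N))).toAlgebra

set_option synthInstance.maxHeartbeats 400000 in
theorem tres5hAlgEL_const :
    letI := tres5hAlgEL E N y
    ∀ c : ↥E, ((algebraMap ↥E ↥(tres5cL E N y) c : ↥(tres5cL E N y)) : LaurentSeries ↥E)
      = algebraMap ↥E (LaurentSeries ↥E) c := by
  letI := tres5hAlgEL E N y
  intro c
  rfl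

/-- **FAC-HOR for the cover**, with the algebra structure `tres5hAlgEL`. -/
theorem tres5h_cover_std {p : ℕ} (hp : p ≠ 0) (hy : y ^ p ∈ modularFunctionFieldBar N)
    (hgen : ∀ f ∈ tres5cField N y, f ∈ IntermediateField.adjoin NfQb
      {x : LaurentSeries NfQb | x ∈ tres5cField N y ∧
        ∃ g : LaurentSeries ↥E, coeffMap (algebraMap ↥E NfQb) g = x})
    (m : ℕ) (u : ↥(modularFunctionFieldBar N))
    (hu : ∀ Q : Place NfQb ↥(modularFunctionFieldBar N), (m : ℤ) ∣ Q.ord u)
    {c : NfQb} (hc : c ≠ 0) {H : LaurentSeries NfQb} (hH : H ∈ tres5cField N y) (hH0 : H ≠ 0)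
    (g : ↥(tres5cL E N y))
    (h : (u : LaurentSeries NfQb) = algebraMap NfQb (LaurentSeries NfQb) c * H ^ m *
      coeffMap (algebraMap ↥E NfQb) (g : LaurentSeries ↥E)) :
    letI := tres5hAlgEL E N y
    ∀ P : Place ↥E ↥(tres5cL E N y), (m : ℤ) ∣ P.ord g := by
  letI := tres5hAlgEL E N y
  intro P
  exact tres5h_cover E N y (tres5hAlgEL_const E N y) hp hy hgen m u hu hc hH hH0 g h P

end Cover

end Fermat.Agent.R38

end


end ZBR38_027_1

/-! ### bundled: `Fermat.Agent.R38.TresDescKHor` -/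
section ZBR38_027_2

/-!
# R38-TRES, step 4 + step 5 (HOR), `K`-LEVEL GLUE, part 3 (helper30)

`K = ℚ̄^I = beta0Field A`, `L_K = tres5cL K N y`, `F_K = modularFunctionFieldFullC K N`.

* `tresdesck_kummer_dvd` : `KummerRel p x u` ⇒ `p ∣ ord_Q u` at every place `Q` of `F_N(ℚ̄)`;
* `tresdesck_hor` (**`hhor`** of `tres5npj_hfin`) : for a decomposition
  `u = C c · γ ^ p · coeffMap w`, `w ∈ L_K` (any `K`), `u` a Kummer function:
  `p ∣ ord_P w` at every place `P` of `L_K / K` (helper61's `tres5h_cover`);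
* **`tresdesck_all`** : ONE function `w = u″ ∈ L_K` with
  (1) `u = C (lc u) · γ ^ p · coeffMap w`   (`hfac`),
  (2) `ρ_K w = algebraMap a · w · h ^ p`     (`hρu`),
  (3) `p ∣ tres5Ord V_K π_K a`               (`hpa`),
  (4) `p ∣ ord_P w` at every place `P` of `L_K / K` (`hhor`).
-/

set_option autoImplicit false
set_option linter.unusedSectionVars false
set_option linter.unusedVariables false
set_option linter.style.haveILetI false

noncomputable section

open ModularCurve AlgebraicCurve Fermat.Agent.ES Fermat.Agent.ES.G2 Fermat.Agent.INJ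
  Fermat.Agent.UNIP Fermat.Agent.S36 Fermat.Agent.RIB.MP

namespace Fermat.Agent.R38

section Hor

variable {N : ℕ} [NeZero N]

/-- a Kummer function has divisor divisible by `p` -/
theorem tresdesck_kummer_dvd {p : ℕ} {x : JZero N} {u : modularFunctionFieldBar N}
    (hu : KummerRel p x u) (Q : Place NfQb ↥(modularFunctionFieldBar N)) :
    (p : ℤ) ∣ Q.ord u := by
  obtain ⟨D, _, _, hD⟩ := hu
  exact ⟨_, (hD Q).symm⟩

/-- **(`hhor`)**: `p ∣ ord_P w` at every place `P` of `L_K / K`. -/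
theorem tresdesck_hor (K : IntermediateField ℚ NfQb) {y : LaurentSeries NfQb}
    [alg : Algebra ↥K ↥(tres5cL K N y)]
    (hconst : ∀ c : ↥K, ((algebraMap ↥K ↥(tres5cL K N y) c : ↥(tres5cL K N y)) :
      LaurentSeries ↥K) = algebraMap ↥K (LaurentSeries ↥K) c)
    {p : ℕ} (hp : p ≠ 0) (hy : y ^ p ∈ modularFunctionFieldBar N)
    (hgen : ∀ f ∈ tres5cField N y, f ∈ IntermediateField.adjoin NfQb
      {x : LaurentSeries NfQb | x ∈ tres5cField N y ∧
        ∃ g : LaurentSeries ↥K, coeffMap (algebraMap ↥K NfQb) g = x})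
    {x : JZero N} {u : modularFunctionFieldBar N} (hu : KummerRel p x u)
    {c : NfQb} (hc : c ≠ 0) {γ : LaurentSeries NfQb} (hγF : γ ∈ tres5cField N y) (hγ : γ ≠ 0)
    (w : ↥(tres5cL K N y))
    (hfac : (u : LaurentSeries NfQb) = HahnSeries.C c * γ ^ p *
      coeffMap (algebraMap ↥K NfQb) (w : LaurentSeries ↥K))
    (P : Place ↥K ↥(tres5cL K N y)) : (p : ℤ) ∣ P.ord w := by
  refine tres5h_cover K N y hconst hp hy hgen p u (fun Q => tresdesck_kummer_dvd hu Q) hc hγF hγ
    w ?_ P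
  rw [s36d_algebraMap_eq_C]
  exact hfac

end Hor

section All

variable {N : ℕ} [NeZero N]

/-- **Steps 4 + 5 over `K = ℚ̄^I`, ONE function `w = u″ ∈ L_K`**: `hfac`, `hρu`, `hpa`, `hhor`. -/
theorem tresdesck_all {p : ℕ} [Fact p.Prime] (A : ValuationSubring Qb)
    (hA : A.LiesOverPrime p)
    {x z₀ : JZero N} {u w₀ : modularFunctionFieldBar N} (hu : KummerRel p x u)
    (hw : KummerRel p z₀ w₀) {y : LaurentSeries NfQb}
    (hy : y ^ p = (w₀ : LaurentSeries NfQb))
    (hline : ∀ σ ∈ A.inertiaSubgroupIn ℚ, ∃ k : ℤ, σ • x - x = k • z₀)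
    (hpeu : ∀ σ ∈ peuSubgroup A p, σ • x = x)
    (t : ↥(tres5cField N y) →+* LaurentSeries NfQb) (htmem : ∀ z, t z ∈ tres5cField N y)
    (htF : ∀ (f : LaurentSeries NfQb) (hf : f ∈ modularFunctionFieldBar N),
      t ⟨f, tres5c_bar_le N y hf⟩ = f)
    {ζ : NfQb} (hζ : ζ ≠ 0) (hty : t ⟨y, tres5c_y_mem N y⟩ = HahnSeries.C ζ * y)
    (htor : ∀ σ ∈ A.inertiaSubgroupIn ℚ, ∃ g : ℤ, σ • z₀ = g • z₀ ∧ σ ζ = ζ ^ g)
    (hgen : ∀ f ∈ tres5cField N y, f ∈ IntermediateField.adjoin NfQb
      {x : LaurentSeries NfQb | x ∈ tres5cField N y ∧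
        ∃ g : LaurentSeries ↥(beta0Field A), coeffMap (algebraMap ↥(beta0Field A) NfQb) g = x}) :
    ∃ (w h : ↥(tres5cL (beta0Field A) N y)) (γ : LaurentSeries NfQb)
      (a : ↥(modularFunctionFieldFullC ↥(beta0Field A) N)),
      w ≠ 0 ∧ h ≠ 0 ∧ a ≠ 0 ∧ γ ∈ tres5cField N y ∧ γ ≠ 0 ∧
      (u : LaurentSeries NfQb) =
        HahnSeries.C (u : LaurentSeries NfQb).leadingCoeff * γ ^ p *
          coeffMap (algebraMap ↥(beta0Field A) NfQb) (w : LaurentSeries ↥(beta0Field A)) ∧
      (∀ ρK : ↥(tres5cL (beta0Field A) N y) →+* ↥(tres5cL (beta0Field A) N y),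
        (∀ f : ↥(tres5cL (beta0Field A) N y),
          coeffMap (algebraMap ↥(beta0Field A) NfQb)
            ((ρK f : ↥(tres5cL (beta0Field A) N y)) : LaurentSeries ↥(beta0Field A)) =
              t (tres5cEmb (beta0Field A) N y f)) →
        ρK w = algebraMap ↥(modularFunctionFieldFullC ↥(beta0Field A) N)
          ↥(tres5cL (beta0Field A) N y) a * w * h ^ p) ∧
      (∀ (VK : ValuationSubring ↥(modularFunctionFieldFullC ↥(beta0Field A) N))
        (πK : ↥(modularFunctionFieldFullC ↥(beta0Field A) N)), πK ∈ VK.nonunits → πK ≠ 0 →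
        (∀ x : ↥(modularFunctionFieldFullC ↥(beta0Field A) N), x ≠ 0 →
          ∃ m : ℤ, VK.valuation (x / πK ^ m) = 1) →
        (∀ υ : ↥(beta0Field A), (υ : Qb) ∈ A → ((υ : Qb))⁻¹ ∈ A →
          VK.valuation
            (algebraMap ↥(beta0Field A) ↥(modularFunctionFieldFullC ↥(beta0Field A) N) υ) = 1) →
        (p : ℤ) ∣ tres5Ord VK πK a) ∧
      (∀ (alg : Algebra ↥(beta0Field A) ↥(tres5cL (beta0Field A) N y)),
        (∀ c : ↥(beta0Field A),
          ((@algebraMap ↥(beta0Field A) ↥(tres5cL (beta0Field A) N y) _ _ alg c :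
            ↥(tres5cL (beta0Field A) N y)) : LaurentSeries ↥(beta0Field A)) =
              algebraMap ↥(beta0Field A) (LaurentSeries ↥(beta0Field A)) c) →
        ∀ P : @Place ↥(beta0Field A) ↥(tres5cL (beta0Field A) N y) _ _ alg,
          (p : ℤ) ∣ @Place.ord ↥(beta0Field A) ↥(tres5cL (beta0Field A) N y) _ _ alg P w) := by
  have hp : p.Prime := Fact.out
  obtain ⟨w, h, γ, a, hw0, hh0, ha0, hγF, hγ, hU, hdeck, hord⟩ :=
    tresdesck_final A hA hu hw hy hline hpeu t htmem htF hζ hty htor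
  refine ⟨w, h, γ, a, hw0, hh0, ha0, hγF, hγ, hU, hdeck, hord, ?_⟩
  intro alg hconst P
  have hU0 : (u : LaurentSeries NfQb) ≠ 0 := fun h0 => hu.ne_zero (Subtype.ext h0)
  have hy' : y ^ p ∈ modularFunctionFieldBar N := by
    rw [hy]
    exact w₀.2
  exact @tresdesck_hor N _ (beta0Field A) y alg hconst p hp.ne_zero hy' hgen x u hu _
    (HahnSeries.leadingCoeff_ne_zero.mpr hU0) γ hγF hγ w hU P

end All

end Fermat.Agent.R38

end


end ZBR38_027_2

/-! ### bundled: `Fermat.Agent.R38.TresCoverDescK` -/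
section ZBR38_027_3
/-
ROW 38, TRES, piece ASM-COV / FAC-HOR (helper64): hgen FOR THE INERTIA FIELD `K = beta0Field A`.

The cover `F′ = tres5cField N y = F_N(ℚ̄)(y)`, `y ^ p ∈ F_N(ℚ̄)`, is generated over `ℚ̄` by its
elements with coefficients in `K = ℚ̄^I` (`I` the inertia group of `A`), as soon as `σ y ∈ F′`
for `σ ∈ I`:

* `tres5cd_hgen_inertia` : from `hstab : ∀ σ ∈ I, σ y ∈ F′`;
* `tres5cd_hgen_kummer`  : for a root `y` of a Kummer function `w₀` of `z₀ ∈ J₀(N)` with
  `σ z₀ ∈ ℤ z₀` for `σ ∈ I` (helper30's `tresdesc_stab`).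

The conclusion is EXACTLY the hypothesis `hgen` of helper61's `tres5h_cover` (R38/TresHorForm.lean)
at `E := beta0Field A`.

* `tres5cd_hor_kummer` : **FAC-HOR over the inertia field, `hgen` discharged** = helper61's
  `tres5h_cover` at `E := beta0Field A`, `m := p`, for Kummer functions `u` (of `x`) and `w₀`
  (of `z₀`): if `u = C c · H ^ p · coeffMap g`, `H ∈ F′ ∖ 0`, `g ∈ L_K`, then `p ∣ ord_P g` at
  every place `P` of `L_K / K`.

Inputs: `tres5cd_hgen_fixed` (R38/TresCoverDesc.lean, descent by traces), `tresftf_coeff`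
(helper30, the coefficients of `y` lie in a number field), `tres5d_isClosed_inertia`
(R38/TresKum.lean) and the Galois correspondence for closed subgroups.
-/

set_option autoImplicit false
set_option linter.unusedSectionVars false
set_option linter.unusedVariables false
set_option linter.style.haveILetI false

namespace Fermat.Agent.R38

open ModularCurve AlgebraicCurve Fermat.Agent.INJ Fermat.Agent.UNIP Fermat.Agent.ES
  Fermat.Agent.ES.G2 Fermat.Agent.S36 Fermat.Agent.RIB.MP

variable {N : ℕ} [NeZero N]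

/-- **hgen for the inertia field**, from the stability of the cover under the inertia group. -/
theorem tres5cd_hgen_inertia (A : ValuationSubring NfQb) {p : ℕ} (hp : p ≠ 0)
    {y : LaurentSeries NfQb} (hy0 : y ≠ 0) (hy : y ^ p ∈ modularFunctionFieldBar N)
    (hstab : ∀ σ ∈ A.inertiaSubgroupIn ℚ,
      coeffMap ((σ : NfQb ≃ₐ[ℚ] NfQb) : NfQb →+* NfQb) y ∈ tres5cField N y) :
    ∀ f ∈ tres5cField N y, f ∈ IntermediateField.adjoin NfQb
      {x : LaurentSeries NfQb | x ∈ tres5cField N y ∧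
        ∃ g : LaurentSeries ↥(beta0Field A),
          coeffMap (algebraMap ↥(beta0Field A) NfQb) g = x} := by
  obtain ⟨E₁, hE₁, hc⟩ := tresftf_coeff hp hy0 hy (tres5c_y_mem N y)
  haveI := hE₁
  exact tres5cd_hgen_fixed N y (A.inertiaSubgroupIn ℚ) (tres5d_isClosed_inertia A) E₁ hc hstab

/-- **hgen for the inertia field**, for a root `y` of a Kummer function `w₀` of a class `z₀`
mapped into `ℤ z₀` by the inertia group. -/
theorem tres5cd_hgen_kummer (A : ValuationSubring NfQb) {m : ℕ} (hm : m ≠ 0) {z₀ : JZero N}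
    {w₀ : modularFunctionFieldBar N} (hw : KummerRel m z₀ w₀) {y : LaurentSeries NfQb}
    (hy : y ^ m = (w₀ : LaurentSeries NfQb))
    (htor : ∀ σ ∈ A.inertiaSubgroupIn ℚ, ∃ g : ℤ, σ • z₀ = g • z₀) :
    ∀ f ∈ tres5cField N y, f ∈ IntermediateField.adjoin NfQb
      {x : LaurentSeries NfQb | x ∈ tres5cField N y ∧
        ∃ g : LaurentSeries ↥(beta0Field A),
          coeffMap (algebraMap ↥(beta0Field A) NfQb) g = x} := by
  have hw0 : (w₀ : LaurentSeries NfQb) ≠ 0 := fun h0 => hw.ne_zero (Subtype.ext h0)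
  have hy0 : y ≠ 0 := by
    rintro rfl
    rw [zero_pow hm] at hy
    exact hw0 hy.symm
  refine tres5cd_hgen_inertia A hm hy0 (by rw [hy]; exact w₀.2) fun σ hσ => ?_
  obtain ⟨g, hg⟩ := htor σ hσ
  exact tresdesc_stab hm hw hy hg y (tresCov_self_mem y)

/-- the divisor of a Kummer function is divisible by the exponent -/
theorem tres5cd_kummer_dvd {K F : Type*} [Field K] [Field F] [Algebra K F] {n : ℕ}
    {x : Pic0 K F} {u : F} (hu : KummerRel n x u) (Q : Place K F) : (n : ℤ) ∣ Q.ord u := by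
  obtain ⟨D, -, -, h⟩ := hu
  exact ⟨_, (h Q).symm⟩

/-- **FAC-HOR over the inertia field** (`hgen` discharged): the horizontal divisor of the
descended Kummer function on the `K`-form of the cover is divisible by `p`. -/
theorem tres5cd_hor_kummer (A : ValuationSubring NfQb) {y : LaurentSeries NfQb}
    [alg : Algebra ↥(beta0Field A) ↥(tres5cL (beta0Field A) N y)]
    (hconst : ∀ c : ↥(beta0Field A),
      ((algebraMap ↥(beta0Field A) ↥(tres5cL (beta0Field A) N y) c :
        ↥(tres5cL (beta0Field A) N y)) : LaurentSeries ↥(beta0Field A)) =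
        algebraMap ↥(beta0Field A) (LaurentSeries ↥(beta0Field A)) c)
    {p : ℕ} (hp : p ≠ 0) {x z₀ : JZero N} {u w₀ : modularFunctionFieldBar N}
    (hu : KummerRel p x u) (hw : KummerRel p z₀ w₀)
    (hy : y ^ p = (w₀ : LaurentSeries NfQb))
    (htor : ∀ σ ∈ A.inertiaSubgroupIn ℚ, ∃ g : ℤ, σ • z₀ = g • z₀)
    {c : NfQb} (hc : c ≠ 0) {H : LaurentSeries NfQb} (hH : H ∈ tres5cField N y) (hH0 : H ≠ 0)
    (g : ↥(tres5cL (beta0Field A) N y))
    (h : (u : LaurentSeries NfQb) = algebraMap NfQb (LaurentSeries NfQb) c * H ^ p *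
      coeffMap (algebraMap ↥(beta0Field A) NfQb) (g : LaurentSeries ↥(beta0Field A)))
    (P : Place ↥(beta0Field A) ↥(tres5cL (beta0Field A) N y)) : (p : ℤ) ∣ P.ord g :=
  tres5h_cover (beta0Field A) N y hconst hp (by rw [hy]; exact w₀.2)
    (tres5cd_hgen_kummer A hp hw hy htor) p u (fun Q => tres5cd_kummer_dvd hu Q) hc hH hH0 g h P

end Fermat.Agent.R38


end ZBR38_027_3

/-! ### bundled: `Fermat.Agent.R38.TresDescKAll` -/
section ZBR38_027_4
/-
ROW 38, TRES, steps 4 + 5 over `K = ℚ̄^I` WITHOUT the hypothesis `hgen` (helper64):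
`tres5cd_all` = helper30's `tresdesck_all` (R38/TresDescKHor.lean) with `hgen` discharged by
`tres5cd_hgen_kummer` (R38/TresCoverDescK.lean).  The hypotheses are exactly those of
`tresdesc_final` (+ `hA`, `hpeu`).
-/

set_option autoImplicit false
set_option linter.unusedSectionVars false
set_option linter.unusedVariables false
set_option linter.style.haveILetI false

noncomputable section

open ModularCurve AlgebraicCurve Fermat.Agent.ES Fermat.Agent.ES.G2 Fermat.Agent.INJ
  Fermat.Agent.UNIP Fermat.Agent.S36 Fermat.Agent.RIB.MP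

namespace Fermat.Agent.R38

variable {N : ℕ} [NeZero N]

/-- **Steps 4 + 5 over `K = ℚ̄^I`, ONE function `w = u″ ∈ L_K`**: `hfac`, `hρu`, `hpa`, `hhor`;
no hypothesis `hgen`. -/
theorem tres5cd_all {p : ℕ} [Fact p.Prime] (A : ValuationSubring Qb)
    (hA : A.LiesOverPrime p)
    {x z₀ : JZero N} {u w₀ : modularFunctionFieldBar N} (hu : KummerRel p x u)
    (hw : KummerRel p z₀ w₀) {y : LaurentSeries NfQb}
    (hy : y ^ p = (w₀ : LaurentSeries NfQb))
    (hline : ∀ σ ∈ A.inertiaSubgroupIn ℚ, ∃ k : ℤ, σ • x - x = k • z₀)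
    (hpeu : ∀ σ ∈ peuSubgroup A p, σ • x = x)
    (t : ↥(tres5cField N y) →+* LaurentSeries NfQb) (htmem : ∀ z, t z ∈ tres5cField N y)
    (htF : ∀ (f : LaurentSeries NfQb) (hf : f ∈ modularFunctionFieldBar N),
      t ⟨f, tres5c_bar_le N y hf⟩ = f)
    {ζ : NfQb} (hζ : ζ ≠ 0) (hty : t ⟨y, tres5c_y_mem N y⟩ = HahnSeries.C ζ * y)
    (htor : ∀ σ ∈ A.inertiaSubgroupIn ℚ, ∃ g : ℤ, σ • z₀ = g • z₀ ∧ σ ζ = ζ ^ g) :
    ∃ (w h : ↥(tres5cL (beta0Field A) N y)) (γ : LaurentSeries NfQb)
      (a : ↥(modularFunctionFieldFullC ↥(beta0Field A) N)),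
      w ≠ 0 ∧ h ≠ 0 ∧ a ≠ 0 ∧ γ ∈ tres5cField N y ∧ γ ≠ 0 ∧
      (u : LaurentSeries NfQb) =
        HahnSeries.C (u : LaurentSeries NfQb).leadingCoeff * γ ^ p *
          coeffMap (algebraMap ↥(beta0Field A) NfQb) (w : LaurentSeries ↥(beta0Field A)) ∧
      (∀ ρK : ↥(tres5cL (beta0Field A) N y) →+* ↥(tres5cL (beta0Field A) N y),
        (∀ f : ↥(tres5cL (beta0Field A) N y),
          coeffMap (algebraMap ↥(beta0Field A) NfQb)
            ((ρK f : ↥(tres5cL (beta0Field A) N y)) : LaurentSeries ↥(beta0Field A)) =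
              t (tres5cEmb (beta0Field A) N y f)) →
        ρK w = algebraMap ↥(modularFunctionFieldFullC ↥(beta0Field A) N)
          ↥(tres5cL (beta0Field A) N y) a * w * h ^ p) ∧
      (∀ (VK : ValuationSubring ↥(modularFunctionFieldFullC ↥(beta0Field A) N))
        (πK : ↥(modularFunctionFieldFullC ↥(beta0Field A) N)), πK ∈ VK.nonunits → πK ≠ 0 →
        (∀ x : ↥(modularFunctionFieldFullC ↥(beta0Field A) N), x ≠ 0 →
          ∃ m : ℤ, VK.valuation (x / πK ^ m) = 1) →
        (∀ υ : ↥(beta0Field A), (υ : Qb) ∈ A → ((υ : Qb))⁻¹ ∈ A →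
          VK.valuation
            (algebraMap ↥(beta0Field A) ↥(modularFunctionFieldFullC ↥(beta0Field A) N) υ) = 1) →
        (p : ℤ) ∣ tres5Ord VK πK a) ∧
      (∀ (alg : Algebra ↥(beta0Field A) ↥(tres5cL (beta0Field A) N y)),
        (∀ c : ↥(beta0Field A),
          ((@algebraMap ↥(beta0Field A) ↥(tres5cL (beta0Field A) N y) _ _ alg c :
            ↥(tres5cL (beta0Field A) N y)) : LaurentSeries ↥(beta0Field A)) =
              algebraMap ↥(beta0Field A) (LaurentSeries ↥(beta0Field A)) c) →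
        ∀ P : @Place ↥(beta0Field A) ↥(tres5cL (beta0Field A) N y) _ _ alg,
          (p : ℤ) ∣ @Place.ord ↥(beta0Field A) ↥(tres5cL (beta0Field A) N y) _ _ alg P w) :=
  tresdesck_all A hA hu hw hy hline hpeu t htmem htF hζ hty htor
    (tres5cd_hgen_kummer A (Fact.out : p.Prime).ne_zero hw hy
      (fun σ hσ => (htor σ hσ).imp fun g hg => hg.1))

end Fermat.Agent.R38

end


end ZBR38_027_4

/-! ### bundled: `Fermat.Agent.R38.TresHorInst` -/
section ZBR38_027_5
/-
ROW 38, TRES, StmtMonoCover, piece HHOR-WIRE (helper10; helper44 RULING 01:40Z).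

THE LITERAL hypothesis `hhor` of (I3) `tres5npj_hfin` (`R38/TresNodePtConc.lean`, helper92) and of
(I4) `tres5npc_hcusp` / `tres5npc_hcusp_rigid` (`R38/TresNodePtCusp.lean`, helper84) for

    K = beta0Field A = ℚ̄^I,   L = ↥(tres5cL K N y)   (the `K`-form of the cover `F_N(ℚ̄)(y)`),
    `Algebra F_N(K) L`  = the `IntermediateField` instance,
    `Algebra K L`       = `tres5hAlgEL K N y` (helper61; reducible def, passed by `letI`),
    `IsScalarTower K F_N(K) L` = `tres5hi_tower K N y`,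

from helper61's `tres5h_cover`, helper64's `tres5cd_hgen_kummer` / `tres5cd_all` and helper30's
`tresdesck_final`.

* `tres5hi_tower`      : the scalar tower `K → F_N(K) → L_K` for `tres5hAlgEL`;
* `tres5hi_of_forall`  : the 4th clause of `tres5cd_all` / `tresdesck_all`
                         (`∀ alg, hconst → ∀ P, p ∣ ord_P w`)  ⇒  the literal `hhor`;
* `tres5hi_hhor`       : the literal `hhor` from a decomposition `u = C c · H ^ p · ι g`
                         (`hgen` discharged: `tres5cd_hor_kummer`);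
* `tres5hi_all`        : `tres5cd_all` with its 4th clause in the literal form;
USAGE in a consumer (no global instance `Algebra K L_K` exists, the search times out):
    letI := tres5hAlgEL K N y
    haveI := tres5hi_tower K N y
    ... (tres5hi_of_forall K N y w hhor4) ...
The wrappers of (I3)/(I4) themselves are in `R38/TresHorInstW.lean`.
-/

set_option autoImplicit false
set_option linter.unusedSectionVars false
set_option linter.unusedVariables false
set_option linter.style.haveILetI false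
set_option linter.style.longLine false
set_option synthInstance.maxHeartbeats 400000
set_option maxHeartbeats 1600000

noncomputable section

namespace Fermat.Agent.R38

open ModularCurve AlgebraicCurve Fermat.Agent.ES Fermat.Agent.ES.G2 Fermat.Agent.INJ
  Fermat.Agent.UNIP Fermat.Agent.S36 Fermat.Agent.RIB.MP

section Tower

variable (E : IntermediateField ℚ NfQb) (N : ℕ) (y : LaurentSeries NfQb)

/-- the scalar tower `E → F_N(E) → L_E` for the algebra structure `tres5hAlgEL` -/
theorem tres5hi_tower :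
    @IsScalarTower ↥E ↥(modularFunctionFieldFullC ↥E N) ↥(tres5cL E N y) _ _
      (tres5hAlgEL E N y).toSMul := by
  letI := tres5hAlgEL E N y
  exact IsScalarTower.of_algebraMap_eq (fun _ => rfl)

/-- the 4th clause of `tres5cd_all` gives the literal `hhor` -/
theorem tres5hi_of_forall {p : ℕ} (w : ↥(tres5cL E N y))
    (H : ∀ (alg : Algebra ↥E ↥(tres5cL E N y)),
      (∀ c : ↥E, ((@algebraMap ↥E ↥(tres5cL E N y) _ _ alg c : ↥(tres5cL E N y)) :
        LaurentSeries ↥E) = algebraMap ↥E (LaurentSeries ↥E) c) →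
      ∀ P : @Place ↥E ↥(tres5cL E N y) _ _ alg,
        (p : ℤ) ∣ @Place.ord ↥E ↥(tres5cL E N y) _ _ alg P w) :
    letI := tres5hAlgEL E N y
    ∀ Pl : Place ↥E ↥(tres5cL E N y), (p : ℤ) ∣ Pl.ord w :=
  H (tres5hAlgEL E N y) (tres5hAlgEL_const E N y)

end Tower

section Hor

variable {N : ℕ} [NeZero N]

/-- **the literal `hhor`** from a decomposition `u = C c · H ^ p · ι g` of a Kummer function. -/
theorem tres5hi_hhor (A : ValuationSubring Qb) {y : LaurentSeries NfQb}
    {p : ℕ} (hp : p ≠ 0) {x z₀ : JZero N} {u w₀ : modularFunctionFieldBar N}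
    (hu : KummerRel p x u) (hw : KummerRel p z₀ w₀)
    (hy : y ^ p = (w₀ : LaurentSeries NfQb))
    (htor : ∀ σ ∈ A.inertiaSubgroupIn ℚ, ∃ g : ℤ, σ • z₀ = g • z₀)
    {c : NfQb} (hc : c ≠ 0) {H : LaurentSeries NfQb} (hH : H ∈ tres5cField N y) (hH0 : H ≠ 0)
    (g : ↥(tres5cL (beta0Field A) N y))
    (h : (u : LaurentSeries NfQb) = HahnSeries.C c * H ^ p *
      coeffMap (algebraMap ↥(beta0Field A) NfQb) (g : LaurentSeries ↥(beta0Field A))) :
    letI := tres5hAlgEL (beta0Field A) N y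
    ∀ Pl : Place ↥(beta0Field A) ↥(tres5cL (beta0Field A) N y), (p : ℤ) ∣ Pl.ord g := by
  letI := tres5hAlgEL (beta0Field A) N y
  intro Pl
  refine tres5cd_hor_kummer A (tres5hAlgEL_const (beta0Field A) N y) hp hu hw hy htor hc hH hH0
    g ?_ Pl
  rw [s36d_algebraMap_eq_C]
  exact h

/-- **Steps 4 + 5 over `K = ℚ̄^I`** (`tres5cd_all`) with `hhor` in the LITERAL form of
`tres5npj_hfin` / `tres5npc_hcusp`. -/
theorem tres5hi_all {p : ℕ} [Fact p.Prime] (A : ValuationSubring Qb)
    (hA : A.LiesOverPrime p)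
    {x z₀ : JZero N} {u w₀ : modularFunctionFieldBar N} (hu : KummerRel p x u)
    (hw : KummerRel p z₀ w₀) {y : LaurentSeries NfQb}
    (hy : y ^ p = (w₀ : LaurentSeries NfQb))
    (hline : ∀ σ ∈ A.inertiaSubgroupIn ℚ, ∃ k : ℤ, σ • x - x = k • z₀)
    (hpeu : ∀ σ ∈ peuSubgroup A p, σ • x = x)
    (t : ↥(tres5cField N y) →+* LaurentSeries NfQb) (htmem : ∀ z, t z ∈ tres5cField N y)
    (htF : ∀ (f : LaurentSeries NfQb) (hf : f ∈ modularFunctionFieldBar N),
      t ⟨f, tres5c_bar_le N y hf⟩ = f)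
    {ζ : NfQb} (hζ : ζ ≠ 0) (hty : t ⟨y, tres5c_y_mem N y⟩ = HahnSeries.C ζ * y)
    (htor : ∀ σ ∈ A.inertiaSubgroupIn ℚ, ∃ g : ℤ, σ • z₀ = g • z₀ ∧ σ ζ = ζ ^ g) :
    ∃ (w h : ↥(tres5cL (beta0Field A) N y)) (γ : LaurentSeries NfQb)
      (a : ↥(modularFunctionFieldFullC ↥(beta0Field A) N)),
      w ≠ 0 ∧ h ≠ 0 ∧ a ≠ 0 ∧ γ ∈ tres5cField N y ∧ γ ≠ 0 ∧
      (u : LaurentSeries NfQb) =
        HahnSeries.C (u : LaurentSeries NfQb).leadingCoeff * γ ^ p *
          coeffMap (algebraMap ↥(beta0Field A) NfQb) (w : LaurentSeries ↥(beta0Field A)) ∧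
      (∀ ρK : ↥(tres5cL (beta0Field A) N y) →+* ↥(tres5cL (beta0Field A) N y),
        (∀ f : ↥(tres5cL (beta0Field A) N y),
          coeffMap (algebraMap ↥(beta0Field A) NfQb)
            ((ρK f : ↥(tres5cL (beta0Field A) N y)) : LaurentSeries ↥(beta0Field A)) =
              t (tres5cEmb (beta0Field A) N y f)) →
        ρK w = algebraMap ↥(modularFunctionFieldFullC ↥(beta0Field A) N)
          ↥(tres5cL (beta0Field A) N y) a * w * h ^ p) ∧
      (∀ (VK : ValuationSubring ↥(modularFunctionFieldFullC ↥(beta0Field A) N))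
        (πK : ↥(modularFunctionFieldFullC ↥(beta0Field A) N)), πK ∈ VK.nonunits → πK ≠ 0 →
        (∀ x : ↥(modularFunctionFieldFullC ↥(beta0Field A) N), x ≠ 0 →
          ∃ m : ℤ, VK.valuation (x / πK ^ m) = 1) →
        (∀ υ : ↥(beta0Field A), (υ : Qb) ∈ A → ((υ : Qb))⁻¹ ∈ A →
          VK.valuation
            (algebraMap ↥(beta0Field A) ↥(modularFunctionFieldFullC ↥(beta0Field A) N) υ) = 1) →
        (p : ℤ) ∣ tres5Ord VK πK a) ∧
      (letI := tres5hAlgEL (beta0Field A) N y
       ∀ Pl : Place ↥(beta0Field A) ↥(tres5cL (beta0Field A) N y), (p : ℤ) ∣ Pl.ord w) := by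
  obtain ⟨w, h, γ, a, hw0, hh0, ha0, hγF, hγ, hU, hdeck, hord, hhor⟩ :=
    tres5cd_all A hA hu hw hy hline hpeu t htmem htF hζ hty htor
  exact ⟨w, h, γ, a, hw0, hh0, ha0, hγF, hγ, hU, hdeck, hord,
    tres5hi_of_forall (beta0Field A) N y w hhor⟩

end Hor

end Fermat.Agent.R38

end


end ZBR38_027_5

/-! ### bundled: `Fermat.Agent.R38.TresHorInstW` -/
section ZBR38_027_6
/-
ROW 38, TRES, StmtMonoCover, piece HHOR-WIRE, part 2 (helper10): the wrappers of (I3) / (I4)
ON THE `K`-FORM OF THE COVER.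

    K = beta0Field A = ℚ̄^I,   L = ↥(tres5cL K (M q) y),
    `Algebra K L` = `tres5hAlgEL K (M q) y`, tower = `tres5hi_tower` (`R38/TresHorInst.lean`).

* `tres5hi_hfin_node`  : (I3) `tres5npj_hfin_node` (helper92) at `L = tres5cL K (M q) y`, with `hhor`
                         replaced by the 4th clause of `tres5cd_all` / `tresdesck(v)_all`
                         (`∀ alg, hconst → ∀ P, p ∣ ord_P u`);
* `tres5hi_hfin`       : the same for `tres5npj_hfin`;
* `tres5hi_hcusp`      : (I4) `tres5npc_hcusp_rigid` (helper84) likewise.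
The statements do not mention the `K`-algebra structure of `L` any more.

INSTANCES.  `Tres5eSplit F z P c` needs `Algebra ↥(atLoc 𝔫) L`; for abstract `L` the search finds
`Algebra.ofSubsemiring (atLoc 𝔫)`, for the concrete `L` the default search times out; with the
local priority below the SAME instance is found first.
-/

set_option autoImplicit false
set_option linter.unusedSectionVars false
set_option linter.unusedVariables false
set_option linter.style.haveILetI false
set_option linter.style.longLine false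
set_option synthInstance.maxHeartbeats 400000
set_option maxHeartbeats 1600000

attribute [local instance 100000] Algebra.ofSubsemiring

noncomputable section

namespace Fermat.Agent.R38

open ModularCurve AlgebraicCurve IntermediateField Polynomial Fermat.Agent.INJ Fermat.Agent.UNIP
  Fermat.Agent.STB Fermat.Agent.S36 Fermat.Agent.RIB.MP Fermat.Agent.RT.K6 Fermat.Agent.AL
  Fermat.Agent.ES Fermat.Agent.ES.G2

section Frame

variable {A : ValuationSubring Qb} {q M : ℕ} [NeZero q] [NeZero M] [NeZero (M * q)]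
  [IsDiscreteValuationRing ↥(beta0Ring A (beta0Field A))]
  {π : ↥(beta0Ring A (beta0Field A))} (hπ : Irreducible π)
  (ιC : ↥(beta0Field A) →+* ℂ) (hq : q.Prime) (hqM : ¬ q ∣ M)

include hπ ιC hq hqM in
/-- **(I3) `tres5npj_hfin_node` on the `K`-form of the cover**, `hhor` in the shape of the 4th
clause of `tres5cd_all`. -/
theorem tres5hi_hfin_node (hA : A.LiesOverPrime q)
    (rigid : (q ≠ 2 → 4 ∣ M) ∧ (q = 2 → 9 ∣ M)) (y : LaurentSeries NfQb)
    (W : ValuationSubring ↥(tres5cL (beta0Field A) (M * q) y))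
    (hWV : W.comap (algebraMap ↥(modularFunctionFieldFullC ↥(beta0Field A) (M * q))
      ↥(tres5cL (beta0Field A) (M * q) y)) = mgvV hπ ιC hq hqM true)
    {ι : Type*} [Fintype ι]
    (hsplit : ∀ 𝔫 : AtPt (F := ↥(modularFunctionFieldFullC ↥(beta0Field A) (M * q))) π
        (bgJ ↥(beta0Field A) (M * q)),
      atThrough 𝔫 (mgvV hπ ιC hq hqM true) → ∀ [IsLocalRing ↥(atLoc 𝔫)],
        ∃ (z : ↥(tres5cL (beta0Field A) (M * q) y)) (P : (↥(atLoc 𝔫))[X])
          (c : ι → ↥(atLoc 𝔫)),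
          Tres5eSplit ↥(modularFunctionFieldFullC ↥(beta0Field A) (M * q)) z P c)
    {p : ℕ} {u : ↥(tres5cL (beta0Field A) (M * q) y)} (hu0 : u ≠ 0)
    (hhor : ∀ (alg : Algebra ↥(beta0Field A) ↥(tres5cL (beta0Field A) (M * q) y)),
      (∀ c : ↥(beta0Field A),
        ((@algebraMap ↥(beta0Field A) ↥(tres5cL (beta0Field A) (M * q) y) _ _ alg c :
          ↥(tres5cL (beta0Field A) (M * q) y)) : LaurentSeries ↥(beta0Field A)) =
            algebraMap ↥(beta0Field A) (LaurentSeries ↥(beta0Field A)) c) →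
      ∀ P : @Place ↥(beta0Field A) ↥(tres5cL (beta0Field A) (M * q) y) _ _ alg,
        (p : ℤ) ∣ @Place.ord ↥(beta0Field A) ↥(tres5cL (beta0Field A) (M * q) y) _ _ alg P u)
    (m₀ : ℤ)
    (hm₀ : ∀ (𝔫 : AtPt (F := ↥(modularFunctionFieldFullC ↥(beta0Field A) (M * q))) π
        (bgJ ↥(beta0Field A) (M * q)))
      (X Y : ↥(zchClosure (A₀ := ↥(beta0Ring A (beta0Field A)))
        ({bgJ ↥(beta0Field A) (M * q)} :
          Set ↥(modularFunctionFieldFullC ↥(beta0Field A) (M * q))))),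
      Rtk6lfCrossAt (mgvV hπ ιC hq hqM true) (mgvV hπ ιC hq hqM false) 𝔫 X Y →
      ∀ W' : ValuationSubring ↥(tres5cL (beta0Field A) (M * q) y),
      W'.comap (algebraMap ↥(modularFunctionFieldFullC ↥(beta0Field A) (M * q))
        ↥(tres5cL (beta0Field A) (M * q) y)) = mgvV hπ ιC hq hqM false →
      (p : ℤ) ∣ tres5Ord W' (algebraMap ↥(modularFunctionFieldFullC ↥(beta0Field A) (M * q))
        ↥(tres5cL (beta0Field A) (M * q) y)
        (algebraMap ↥(beta0Ring A (beta0Field A))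
          ↥(modularFunctionFieldFullC ↥(beta0Field A) (M * q)) π)) u - m₀)
    (m : ℤ)
    (hm : W.valuation (u / algebraMap ↥(modularFunctionFieldFullC ↥(beta0Field A) (M * q))
      ↥(tres5cL (beta0Field A) (M * q) y)
      (algebraMap ↥(beta0Ring A (beta0Field A))
        ↥(modularFunctionFieldFullC ↥(beta0Field A) (M * q)) π) ^ m) = 1) :
    ∀ 𝔫 : AtPt (F := ↥(modularFunctionFieldFullC ↥(beta0Field A) (M * q))) π
        (bgJ ↥(beta0Field A) (M * q)),
      ∀ T : ValuationSubring ↥(tres5cL (beta0Field A) (M * q) y),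
      (∀ x ∈ atLoc 𝔫,
        algebraMap ↥(modularFunctionFieldFullC ↥(beta0Field A) (M * q))
          ↥(tres5cL (beta0Field A) (M * q) y) x ∈ T) →
      (∀ x ∈ T, x ∈ W) →
      ∃ O' : Subring ↥(tres5cL (beta0Field A) (M * q) y), (∀ x ∈ O', x ∈ T) ∧
        TresMonoPt W O' p (m₀ - m) 12
          (u / algebraMap ↥(modularFunctionFieldFullC ↥(beta0Field A) (M * q))
            ↥(tres5cL (beta0Field A) (M * q) y)
            (algebraMap ↥(beta0Ring A (beta0Field A))
              ↥(modularFunctionFieldFullC ↥(beta0Field A) (M * q)) π) ^ m)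
          (algebraMap ↥(modularFunctionFieldFullC ↥(beta0Field A) (M * q))
            ↥(tres5cL (beta0Field A) (M * q) y)
            (s36tuV ↥(beta0Field A) ιC (q := q) (M := M))) := by
  letI := tres5hAlgEL (beta0Field A) (M * q) y
  haveI := tres5hi_tower (beta0Field A) (M * q) y
  exact tres5npj_hfin_node hπ ιC hq hqM hA rigid W hWV hsplit hu0
    (tres5hi_of_forall (beta0Field A) (M * q) y u hhor) m₀ hm₀ m hm

include hπ ιC hq hqM in
/-- **(I3) `tres5npj_hfin` on the `K`-form of the cover**, `hhor` in the shape of the 4th clause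
of `tres5cd_all`. -/
theorem tres5hi_hfin (hA : A.LiesOverPrime q)
    (rigid : (q ≠ 2 → 4 ∣ M) ∧ (q = 2 → 9 ∣ M)) (y : LaurentSeries NfQb)
    (W : ValuationSubring ↥(tres5cL (beta0Field A) (M * q) y))
    (hWV : W.comap (algebraMap ↥(modularFunctionFieldFullC ↥(beta0Field A) (M * q))
      ↥(tres5cL (beta0Field A) (M * q) y)) = mgvV hπ ιC hq hqM true)
    {ι : Type*} [Fintype ι]
    (hsplit : ∀ 𝔫 : AtPt (F := ↥(modularFunctionFieldFullC ↥(beta0Field A) (M * q))) π
        (bgJ ↥(beta0Field A) (M * q)),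
      atThrough 𝔫 (mgvV hπ ιC hq hqM true) → ∀ [IsLocalRing ↥(atLoc 𝔫)],
        ∃ (z : ↥(tres5cL (beta0Field A) (M * q) y)) (P : (↥(atLoc 𝔫))[X])
          (c : ι → ↥(atLoc 𝔫)),
          Tres5eSplit ↥(modularFunctionFieldFullC ↥(beta0Field A) (M * q)) z P c)
    {p : ℕ} {u : ↥(tres5cL (beta0Field A) (M * q) y)} (hu0 : u ≠ 0)
    (hhor : ∀ (alg : Algebra ↥(beta0Field A) ↥(tres5cL (beta0Field A) (M * q) y)),
      (∀ c : ↥(beta0Field A),
        ((@algebraMap ↥(beta0Field A) ↥(tres5cL (beta0Field A) (M * q) y) _ _ alg c :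
          ↥(tres5cL (beta0Field A) (M * q) y)) : LaurentSeries ↥(beta0Field A)) =
            algebraMap ↥(beta0Field A) (LaurentSeries ↥(beta0Field A)) c) →
      ∀ P : @Place ↥(beta0Field A) ↥(tres5cL (beta0Field A) (M * q) y) _ _ alg,
        (p : ℤ) ∣ @Place.ord ↥(beta0Field A) ↥(tres5cL (beta0Field A) (M * q) y) _ _ alg P u)
    (m₀ : ℤ)
    (hm₀ : ∀ W' : ValuationSubring ↥(tres5cL (beta0Field A) (M * q) y),
      W'.comap (algebraMap ↥(modularFunctionFieldFullC ↥(beta0Field A) (M * q))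
        ↥(tres5cL (beta0Field A) (M * q) y)) = mgvV hπ ιC hq hqM false →
      (p : ℤ) ∣ tres5Ord W' (algebraMap ↥(modularFunctionFieldFullC ↥(beta0Field A) (M * q))
        ↥(tres5cL (beta0Field A) (M * q) y)
        (algebraMap ↥(beta0Ring A (beta0Field A))
          ↥(modularFunctionFieldFullC ↥(beta0Field A) (M * q)) π)) u - m₀)
    (m : ℤ)
    (hm : W.valuation (u / algebraMap ↥(modularFunctionFieldFullC ↥(beta0Field A) (M * q))
      ↥(tres5cL (beta0Field A) (M * q) y)
      (algebraMap ↥(beta0Ring A (beta0Field A))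
        ↥(modularFunctionFieldFullC ↥(beta0Field A) (M * q)) π) ^ m) = 1) :
    ∀ 𝔫 : AtPt (F := ↥(modularFunctionFieldFullC ↥(beta0Field A) (M * q))) π
        (bgJ ↥(beta0Field A) (M * q)),
      ∀ T : ValuationSubring ↥(tres5cL (beta0Field A) (M * q) y),
      (∀ x ∈ atLoc 𝔫,
        algebraMap ↥(modularFunctionFieldFullC ↥(beta0Field A) (M * q))
          ↥(tres5cL (beta0Field A) (M * q) y) x ∈ T) →
      (∀ x ∈ T, x ∈ W) →
      ∃ O' : Subring ↥(tres5cL (beta0Field A) (M * q) y), (∀ x ∈ O', x ∈ T) ∧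
        TresMonoPt W O' p (m₀ - m) 12
          (u / algebraMap ↥(modularFunctionFieldFullC ↥(beta0Field A) (M * q))
            ↥(tres5cL (beta0Field A) (M * q) y)
            (algebraMap ↥(beta0Ring A (beta0Field A))
              ↥(modularFunctionFieldFullC ↥(beta0Field A) (M * q)) π) ^ m)
          (algebraMap ↥(modularFunctionFieldFullC ↥(beta0Field A) (M * q))
            ↥(tres5cL (beta0Field A) (M * q) y)
            (s36tuV ↥(beta0Field A) ιC (q := q) (M := M))) :=
  tres5hi_hfin_node hπ ιC hq hqM hA rigid y W hWV hsplit hu0 hhor m₀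
    (fun _ _ _ _ => hm₀) m hm

include hπ ιC hq hqM in
/-- **(I4) `tres5npc_hcusp_rigid` on the `K`-form of the cover**, `hhor` in the shape of the 4th
clause of `tres5cd_all`. -/
theorem tres5hi_hcusp (hA : A.LiesOverPrime q)
    (rigid : (q ≠ 2 → 4 ∣ M) ∧ (q = 2 → 9 ∣ M)) (y : LaurentSeries NfQb)
    (W : ValuationSubring ↥(tres5cL (beta0Field A) (M * q) y))
    (hWV : W.comap (algebraMap ↥(modularFunctionFieldFullC ↥(beta0Field A) (M * q))
      ↥(tres5cL (beta0Field A) (M * q) y)) = mgvV hπ ιC hq hqM true)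
    {ι : Type*} [Fintype ι]
    (hsplit : ∀ 𝔫 : AtPt (F := ↥(modularFunctionFieldFullC ↥(beta0Field A) (M * q))) π
        (bgJ ↥(beta0Field A) (M * q))⁻¹,
      atThrough 𝔫 (mgvV hπ ιC hq hqM true) →
      (∀ b : ↥(zchClosure (A₀ := ↥(beta0Ring A (beta0Field A)))
          ({(bgJ ↥(beta0Field A) (M * q))⁻¹} :
            Set ↥(modularFunctionFieldFullC ↥(beta0Field A) (M * q)))),
        (b : ↥(modularFunctionFieldFullC ↥(beta0Field A) (M * q))) =
          (bgJ ↥(beta0Field A) (M * q))⁻¹ → b ∈ 𝔫.1) →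
      ∀ [IsLocalRing ↥(atLoc 𝔫)],
        ∃ (z : ↥(tres5cL (beta0Field A) (M * q) y)) (P : (↥(atLoc 𝔫))[X])
          (c : ι → ↥(atLoc 𝔫)),
          Tres5eSplit ↥(modularFunctionFieldFullC ↥(beta0Field A) (M * q)) z P c)
    {p : ℕ} {u : ↥(tres5cL (beta0Field A) (M * q) y)} (hu0 : u ≠ 0)
    (hhor : ∀ (alg : Algebra ↥(beta0Field A) ↥(tres5cL (beta0Field A) (M * q) y)),
      (∀ c : ↥(beta0Field A),
        ((@algebraMap ↥(beta0Field A) ↥(tres5cL (beta0Field A) (M * q) y) _ _ alg c :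
          ↥(tres5cL (beta0Field A) (M * q) y)) : LaurentSeries ↥(beta0Field A)) =
            algebraMap ↥(beta0Field A) (LaurentSeries ↥(beta0Field A)) c) →
      ∀ P : @Place ↥(beta0Field A) ↥(tres5cL (beta0Field A) (M * q) y) _ _ alg,
        (p : ℤ) ∣ @Place.ord ↥(beta0Field A) ↥(tres5cL (beta0Field A) (M * q) y) _ _ alg P u)
    (m : ℤ)
    (hm : W.valuation (u / algebraMap ↥(modularFunctionFieldFullC ↥(beta0Field A) (M * q))
      ↥(tres5cL (beta0Field A) (M * q) y)
      (algebraMap ↥(beta0Ring A (beta0Field A))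
        ↥(modularFunctionFieldFullC ↥(beta0Field A) (M * q)) π) ^ m) = 1) :
    ∀ 𝔫 : AtPt (F := ↥(modularFunctionFieldFullC ↥(beta0Field A) (M * q))) π
        (bgJ ↥(beta0Field A) (M * q))⁻¹,
      ∀ T : ValuationSubring ↥(tres5cL (beta0Field A) (M * q) y),
      (∀ x ∈ atLoc 𝔫,
        algebraMap ↥(modularFunctionFieldFullC ↥(beta0Field A) (M * q))
          ↥(tres5cL (beta0Field A) (M * q) y) x ∈ T) →
      (∀ x ∈ T, x ∈ W) →
      (∀ b : ↥(zchClosure (A₀ := ↥(beta0Ring A (beta0Field A)))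
          ({(bgJ ↥(beta0Field A) (M * q))⁻¹} :
            Set ↥(modularFunctionFieldFullC ↥(beta0Field A) (M * q)))),
        (b : ↥(modularFunctionFieldFullC ↥(beta0Field A) (M * q))) =
          (bgJ ↥(beta0Field A) (M * q))⁻¹ → b ∈ 𝔫.1) →
      ∃ O' : Subring ↥(tres5cL (beta0Field A) (M * q) y), (∀ x ∈ O', x ∈ T) ∧
        StbFacAt O' p
          (u / algebraMap ↥(modularFunctionFieldFullC ↥(beta0Field A) (M * q))
            ↥(tres5cL (beta0Field A) (M * q) y)
            (algebraMap ↥(beta0Ring A (beta0Field A))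
              ↥(modularFunctionFieldFullC ↥(beta0Field A) (M * q)) π) ^ m) := by
  letI := tres5hAlgEL (beta0Field A) (M * q) y
  haveI := tres5hi_tower (beta0Field A) (M * q) y
  exact tres5npc_hcusp_rigid hπ ιC hq hqM hA rigid W hWV hsplit hu0
    (tres5hi_of_forall (beta0Field A) (M * q) y u hhor) m hm

end Frame

end Fermat.Agent.R38

end


end ZBR38_027_6
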