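/- GENERATED FILE (helper35, build-time optimisation, NOTES/ZB.md): verbatim concatenation of the modules
   Fermat.Agent.R38.TresDescKDeck
   Fermat.Agent.R38.TresDescKEntry
   Fermat.Agent.R38.TresMonoTopCore
   Do not edit; do not import together with these modules. -/
import Fermat.Agent.ZB.R38_025
import Fermat.Agent.ZB.R38_017
import Fermat.Agent.ZB.R38_030
import Fermat.Agent.ZB.R38_019
import Fermat.Agent.ZB.R38_015
import Fermat.Agent.ZB.R38_018
import Fermat.Agent.ZB.R38_027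

/-! ### bundled: `Fermat.Agent.R38.TresDescKDeck` -/
section ZBR38_031_0

/-!
# R38-TRES, step 4, `K`-LEVEL GLUE, part 2 (helper30): the hypothesis `hρK` of `tresdesck_deck`

`K ≤ E`, `S : Tres5Kum F_N(E) L_E V p` (e.g. `tres5cKumL`), `t` the deck transformation of
`F′ = tres5cField N y`, `ρ_K` a ring endomorphism of `L_K` with
`tres5cIncl (ρ_K f) = S.deck (tres5cIncl f)` (a clause of `tres5c_descend`).

* `tresdesck_hρK` : `coeffMap (ρ_K f) = t (tres5cEmb K N y f)` (= `hρK` of `tresdesck_deck`,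
  `tresdesck_final`);
* `tresdesck_deck_of_descend` : the deck relation `ρ_K w = algebraMap a · w · h ^ p` directly
  from that clause.
-/

set_option autoImplicit false
set_option linter.unusedSectionVars false
set_option linter.unusedVariables false
set_option linter.style.haveILetI false

noncomputable section

open ModularCurve AlgebraicCurve Fermat.Agent.ES Fermat.Agent.ES.G2 Fermat.Agent.INJ
  Fermat.Agent.UNIP Fermat.Agent.S36 Fermat.Agent.RIB.MP

namespace Fermat.Agent.R38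

section DeckK

variable {K E : IntermediateField ℚ NfQb} (N : ℕ) [NeZero N] (y : LaurentSeries NfQb) {p : ℕ}
  {V : ValuationSubring ↥(modularFunctionFieldFullC ↥E N)}

/-- **`hρK`**: the descended deck transformation is the restriction of `t`. -/
theorem tresdesck_hρK (h : K ≤ E)
    (S : Tres5Kum ↥(modularFunctionFieldFullC ↥E N) ↥(tres5cL E N y) V p)
    (t : ↥(tres5cField N y) →+* LaurentSeries NfQb)
    (htF : ∀ (f : LaurentSeries NfQb) (hf : f ∈ modularFunctionFieldBar N),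
      t ⟨f, tres5c_bar_le N y hf⟩ = f)
    {ζ : NfQb} (hty : t ⟨y, tres5c_y_mem N y⟩ = HahnSeries.C ζ * y)
    (hSy : coeffMap (algebraMap ↥E NfQb) (S.y : LaurentSeries ↥E) = y)
    (hSζ : coeffMap (algebraMap ↥E NfQb) ((S.ζ : ↥(modularFunctionFieldFullC ↥E N)) :
      LaurentSeries ↥E) = HahnSeries.C ζ)
    (ρK : ↥(tres5cL K N y) →+* ↥(tres5cL K N y))
    (hρ : ∀ f : ↥(tres5cL K N y), tres5cIncl N y h (ρK f) = S.deck (tres5cIncl N y h f))
    (f : ↥(tres5cL K N y)) :
    coeffMap (algebraMap ↥K NfQb) ((ρK f : ↥(tres5cL K N y)) : LaurentSeries ↥K) =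
      t (tres5cEmb K N y f) := by
  have h1 := tres5c_emb_deck E N y S t htF hty hSy hSζ (tres5cIncl N y h f)
  rw [← hρ, tres5cEmb_incl] at h1
  rw [← h1]
  have h2 := congrArg (fun z : ↥(tres5cField N y) => (z : LaurentSeries NfQb))
    (tres5cEmb_incl N y h (ρK f))
  exact h2.symm

/-- the deck relation over `K` from the clause of `tres5c_descend` -/
theorem tresdesck_deck_of_descend (h : K ≤ E)
    (S : Tres5Kum ↥(modularFunctionFieldFullC ↥E N) ↥(tres5cL E N y) V p)
    (t : ↥(tres5cField N y) →+* LaurentSeries NfQb)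
    (htF : ∀ (f : LaurentSeries NfQb) (hf : f ∈ modularFunctionFieldBar N),
      t ⟨f, tres5c_bar_le N y hf⟩ = f)
    {ζ : NfQb} (hty : t ⟨y, tres5c_y_mem N y⟩ = HahnSeries.C ζ * y)
    (hSy : coeffMap (algebraMap ↥E NfQb) (S.y : LaurentSeries ↥E) = y)
    (hSζ : coeffMap (algebraMap ↥E NfQb) ((S.ζ : ↥(modularFunctionFieldFullC ↥E N)) :
      LaurentSeries ↥E) = HahnSeries.C ζ)
    (ρK : ↥(tres5cL K N y) →ₐ[↥(modularFunctionFieldFullC ↥K N)] ↥(tres5cL K N y))
    (hρ : ∀ f : ↥(tres5cL K N y), tres5cIncl N y h (ρK f) = S.deck (tres5cIncl N y h f))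
    {w hh : ↥(tres5cL K N y)} {a : ↥K}
    (hth : t (tres5cEmb K N y w) =
      HahnSeries.C (a : NfQb) * coeffMap (algebraMap ↥K NfQb) (w : LaurentSeries ↥K) *
        coeffMap (algebraMap ↥K NfQb) (hh : LaurentSeries ↥K) ^ p) :
    ρK w = algebraMap ↥(modularFunctionFieldFullC ↥K N) ↥(tres5cL K N y)
      (algebraMap ↥K ↥(modularFunctionFieldFullC ↥K N) a) * w * hh ^ p :=
  tresdesck_deck K t (ρK : ↥(tres5cL K N y) →+* ↥(tres5cL K N y))
    (tresdesck_hρK N y h S t htF hty hSy hSζ (ρK : ↥(tres5cL K N y) →+* ↥(tres5cL K N y)) hρ)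
    hth

end DeckK

end Fermat.Agent.R38

end


end ZBR38_031_0

/-! ### bundled: `Fermat.Agent.R38.TresDescKEntry` -/
section ZBR38_031_1

/-!
# R38-TRES, steps 4 + 5, `K`-LEVEL GLUE, part 6 (helper30): THE ENTRY POINT FOR THE COVER BLOCK

Inputs = the hypotheses of `StmtMonoCover` on `x`, `z₀` (toric line in the `cycloExp` shape) and
the outputs of FAC-BIG / K-FORM (A):  `S : Tres5Kum F_{N′}(E) L_E V p` with `coeffMap S.y = y`,
`coeffMap S.ζ = C ζ`, and the descended deck transformation `ρ_K` of `L_K` with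
`tres5cIncl (ρ_K f) = S.deck (tres5cIncl f)` (clause of `tres5c_descend` / `tres5kiv_descend` /
`tres5ff_kiv_descend_cyclo`).  `N′ = M′ p` the rigid level, `K = ℚ̄^I`.

* `tresdesck_zeta_pow` : `ζ ^ p = 1`;
* **`tresdesckv_entry`** : ONE `w = u″ ∈ L_K` with
  `hfac`, `ρ_K w = algebraMap a · w · h ^ p`, (`hVa` ∧ `hpa`) at `V_∞` and `V_0`, `hhor`
  — no deck transformation `t`, no `hgen` in the hypotheses;
* `tresdesckv_entry_lcm` : the same for `N = M p`, `N′ = M q' p` (`hdiv` and `hle` discharged).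
-/

set_option autoImplicit false
set_option linter.unusedSectionVars false
set_option linter.unusedVariables false
set_option linter.style.haveILetI false

noncomputable section

open ModularCurve AlgebraicCurve Fermat.Agent.ES Fermat.Agent.ES.G2 Fermat.Agent.INJ
  Fermat.Agent.UNIP Fermat.Agent.S36 Fermat.Agent.RIB.MP

namespace Fermat.Agent.R38

section Zeta

variable {N' : ℕ} [NeZero N'] {E : IntermediateField ℚ NfQb} {p : ℕ}
  {V : ValuationSubring ↥(modularFunctionFieldFullC ↥E N')} {y : LaurentSeries NfQb}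

/-- the root of unity of a Kummer structure: `ζ ^ p = 1` -/
theorem tresdesck_zeta_pow
    (S : Tres5Kum ↥(modularFunctionFieldFullC ↥E N') ↥(tres5cL E N' y) V p) {ζ : NfQb}
    (hSζ : coeffMap (algebraMap ↥E NfQb) ((S.ζ : ↥(modularFunctionFieldFullC ↥E N')) :
      LaurentSeries ↥E) = HahnSeries.C ζ) : ζ ^ p = 1 := by
  have h1 : (S.ζ : ↥(modularFunctionFieldFullC ↥E N')) ^ p = 1 := S.hζ.pow_eq_one
  have h2 := congrArg (fun z : ↥(modularFunctionFieldFullC ↥E N') =>
    coeffMap (algebraMap ↥E NfQb) (z : LaurentSeries ↥E)) h1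
  have h3 : coeffMap (algebraMap ↥E NfQb)
      (((S.ζ ^ p : ↥(modularFunctionFieldFullC ↥E N')) : LaurentSeries ↥E)) =
      (HahnSeries.C ζ : LaurentSeries NfQb) ^ p := by
    rw [← hSζ, ← map_pow]
    rfl
  have h4 : (HahnSeries.C ζ : LaurentSeries NfQb) ^ p = 1 := by
    rw [← h3]
    exact h2.trans (map_one _)
  rw [← map_pow] at h4
  have h5 : (HahnSeries.C (ζ ^ p) : LaurentSeries NfQb) = HahnSeries.C (1 : NfQb) := by
    rw [h4, map_one]
  exact HahnSeries.C_injective h5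

end Zeta

section Entry

variable {N : ℕ} [NeZero N] {p M' : ℕ} [NeZero p] [NeZero M'] [NeZero (M' * p)]

/-- **The entry point of steps 4 + 5 for the cover block.** -/
theorem tresdesckv_entry [Fact p.Prime] (A : ValuationSubring Qb) (hA : A.LiesOverPrime p)
    [IsDiscreteValuationRing ↥(beta0Ring A (beta0Field A))]
    {π : ↥(beta0Ring A (beta0Field A))} (hπ : Irreducible π) (ιC : ↥(beta0Field A) →+* ℂ)
    (hp : p.Prime) (hpM : ¬ p ∣ M')
    {x z₀ : JZero N} {u w₀ : modularFunctionFieldBar N} (hu : KummerRel p x u)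
    (hw : KummerRel p z₀ w₀) {y : LaurentSeries NfQb}
    (hy : y ^ p = (w₀ : LaurentSeries NfQb))
    (hle : modularFunctionFieldBar N ≤ modularFunctionFieldBar (M' * p))
    (hline : ∀ σ ∈ A.inertiaSubgroupIn ℚ, ∃ k : ℤ, σ • x - x = k • z₀)
    (hpeu : ∀ σ ∈ peuSubgroup A p, σ • x = x)
    (htor : ∀ τ ∈ A.inertiaSubgroupIn ℚ, τ • z₀ = ExtCitation.cycloExp p τ • z₀)
    (hdiv : ∀ Q : Place NfQb ↥(modularFunctionFieldBar (M' * p)),
      (p : ℤ) ∣ Q.ord (⟨(u : LaurentSeries NfQb), hle u.2⟩ :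
        ↥(modularFunctionFieldBar (M' * p))))
    {E : IntermediateField ℚ NfQb} (h : beta0Field A ≤ E)
    {V : ValuationSubring ↥(modularFunctionFieldFullC ↥E (M' * p))}
    (S : Tres5Kum ↥(modularFunctionFieldFullC ↥E (M' * p)) ↥(tres5cL E (M' * p) y) V p)
    (hSy : coeffMap (algebraMap ↥E NfQb) (S.y : LaurentSeries ↥E) = y)
    {ζ : NfQb}
    (hSζ : coeffMap (algebraMap ↥E NfQb)
      ((S.ζ : ↥(modularFunctionFieldFullC ↥E (M' * p))) : LaurentSeries ↥E) = HahnSeries.C ζ)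
    (ρK : ↥(tres5cL (beta0Field A) (M' * p) y) →ₐ[↥(modularFunctionFieldFullC
      ↥(beta0Field A) (M' * p))] ↥(tres5cL (beta0Field A) (M' * p) y))
    (hρ : ∀ f : ↥(tres5cL (beta0Field A) (M' * p) y),
      tres5cIncl (M' * p) y h (ρK f) = S.deck (tres5cIncl (M' * p) y h f)) :
    ∃ (w h' : ↥(tres5cL (beta0Field A) (M' * p) y)) (γ : LaurentSeries NfQb)
      (a : ↥(modularFunctionFieldFullC ↥(beta0Field A) (M' * p))),
      w ≠ 0 ∧ h' ≠ 0 ∧ a ≠ 0 ∧ γ ∈ tres5cField (M' * p) y ∧ γ ≠ 0 ∧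
      (u : LaurentSeries NfQb) =
        HahnSeries.C (u : LaurentSeries NfQb).leadingCoeff * γ ^ p *
          coeffMap (algebraMap ↥(beta0Field A) NfQb) (w : LaurentSeries ↥(beta0Field A)) ∧
      ρK w = algebraMap ↥(modularFunctionFieldFullC ↥(beta0Field A) (M' * p))
          ↥(tres5cL (beta0Field A) (M' * p) y) a * w * h' ^ p ∧
      (∀ c : Bool,
        (∃ m : ℤ, (mgvV hπ ιC hp hpM c).valuation
          (a / algebraMap ↥(beta0Ring A (beta0Field A))
            ↥(modularFunctionFieldFullC ↥(beta0Field A) (M' * p)) π ^ m) = 1) ∧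
        (p : ℤ) ∣ tres5Ord (mgvV hπ ιC hp hpM c)
          (algebraMap ↥(beta0Ring A (beta0Field A))
            ↥(modularFunctionFieldFullC ↥(beta0Field A) (M' * p)) π) a) ∧
      (∀ (alg : Algebra ↥(beta0Field A) ↥(tres5cL (beta0Field A) (M' * p) y)),
        (∀ c : ↥(beta0Field A),
          ((@algebraMap ↥(beta0Field A) ↥(tres5cL (beta0Field A) (M' * p) y) _ _ alg c :
            ↥(tres5cL (beta0Field A) (M' * p) y)) : LaurentSeries ↥(beta0Field A)) =
              algebraMap ↥(beta0Field A) (LaurentSeries ↥(beta0Field A)) c) →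
        ∀ P : @Place ↥(beta0Field A) ↥(tres5cL (beta0Field A) (M' * p) y) _ _ alg,
          (p : ℤ) ∣
            @Place.ord ↥(beta0Field A) ↥(tres5cL (beta0Field A) (M' * p) y) _ _ alg P w) := by
  have hζ : ζ ^ p = 1 := tresdesck_zeta_pow S hSζ
  have hy' : y ^ p = ((⟨(w₀ : LaurentSeries NfQb), hle w₀.2⟩ :
      modularFunctionFieldBar (M' * p)) : LaurentSeries NfQb) := hy
  obtain ⟨t, htmem, htF, hty⟩ := tres5ff_exists_deck S hSy hy' hζ
  obtain ⟨w, h', γ, a, hw0, hh0, ha0, hγF, hγ, hU, hdeck, hV, hhor⟩ :=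
    tresdesckv_all (N := N) (M' := M') A hA hπ ιC hp hpM hu hw hy hle hline hpeu t htmem htF hty
      (tresdesck_htor_cyclo hζ htor) hdiv
  refine ⟨w, h', γ, a, hw0, hh0, ha0, hγF, hγ, hU, ?_, hV, hhor⟩
  exact hdeck (ρK : ↥(tres5cL (beta0Field A) (M' * p) y) →+* ↥(tres5cL (beta0Field A) (M' * p) y))
    (tresdesck_hρK (M' * p) y h S t htF hty hSy hSζ
      (ρK : ↥(tres5cL (beta0Field A) (M' * p) y) →+* ↥(tres5cL (beta0Field A) (M' * p) y)) hρ)

end Entry

section Lcm

variable {p : ℕ} [NeZero p]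

/-- **The entry point for `N = M p`, `N′ = M q' p`** (`hle`, `hdiv` discharged). -/
theorem tresdesckv_entry_lcm (M q' : ℕ) [NeZero M] [NeZero q'] [NeZero (M * p)]
    [NeZero (M * q')] [NeZero (M * q' * p)] [Fact p.Prime]
    (A : ValuationSubring Qb) (hA : A.LiesOverPrime p)
    [IsDiscreteValuationRing ↥(beta0Ring A (beta0Field A))]
    {π : ↥(beta0Ring A (beta0Field A))} (hπ : Irreducible π) (ιC : ↥(beta0Field A) →+* ℂ)
    (hp : p.Prime) (hpM : ¬ p ∣ M * q')
    {x z₀ : JZero (M * p)} {u w₀ : modularFunctionFieldBar (M * p)} (hu : KummerRel p x u)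
    (hw : KummerRel p z₀ w₀) {y : LaurentSeries NfQb}
    (hy : y ^ p = (w₀ : LaurentSeries NfQb))
    (hline : ∀ σ ∈ A.inertiaSubgroupIn ℚ, ∃ k : ℤ, σ • x - x = k • z₀)
    (hpeu : ∀ σ ∈ peuSubgroup A p, σ • x = x)
    (htor : ∀ τ ∈ A.inertiaSubgroupIn ℚ, τ • z₀ = ExtCitation.cycloExp p τ • z₀)
    {E : IntermediateField ℚ NfQb} (h : beta0Field A ≤ E)
    {V : ValuationSubring ↥(modularFunctionFieldFullC ↥E (M * q' * p))}
    (S : Tres5Kum ↥(modularFunctionFieldFullC ↥E (M * q' * p)) ↥(tres5cL E (M * q' * p) y) V p)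
    (hSy : coeffMap (algebraMap ↥E NfQb) (S.y : LaurentSeries ↥E) = y)
    {ζ : NfQb}
    (hSζ : coeffMap (algebraMap ↥E NfQb)
      ((S.ζ : ↥(modularFunctionFieldFullC ↥E (M * q' * p))) : LaurentSeries ↥E) = HahnSeries.C ζ)
    (ρK : ↥(tres5cL (beta0Field A) (M * q' * p) y) →ₐ[↥(modularFunctionFieldFullC
      ↥(beta0Field A) (M * q' * p))] ↥(tres5cL (beta0Field A) (M * q' * p) y))
    (hρ : ∀ f : ↥(tres5cL (beta0Field A) (M * q' * p) y),
      tres5cIncl (M * q' * p) y h (ρK f) = S.deck (tres5cIncl (M * q' * p) y h f)) :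
    ∃ (w h' : ↥(tres5cL (beta0Field A) (M * q' * p) y)) (γ : LaurentSeries NfQb)
      (a : ↥(modularFunctionFieldFullC ↥(beta0Field A) (M * q' * p))),
      w ≠ 0 ∧ h' ≠ 0 ∧ a ≠ 0 ∧ γ ∈ tres5cField (M * q' * p) y ∧ γ ≠ 0 ∧
      (u : LaurentSeries NfQb) =
        HahnSeries.C (u : LaurentSeries NfQb).leadingCoeff * γ ^ p *
          coeffMap (algebraMap ↥(beta0Field A) NfQb) (w : LaurentSeries ↥(beta0Field A)) ∧
      ρK w = algebraMap ↥(modularFunctionFieldFullC ↥(beta0Field A) (M * q' * p))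
          ↥(tres5cL (beta0Field A) (M * q' * p) y) a * w * h' ^ p ∧
      (∀ c : Bool,
        (∃ m : ℤ, (mgvV hπ ιC hp hpM c).valuation
          (a / algebraMap ↥(beta0Ring A (beta0Field A))
            ↥(modularFunctionFieldFullC ↥(beta0Field A) (M * q' * p)) π ^ m) = 1) ∧
        (p : ℤ) ∣ tres5Ord (mgvV hπ ιC hp hpM c)
          (algebraMap ↥(beta0Ring A (beta0Field A))
            ↥(modularFunctionFieldFullC ↥(beta0Field A) (M * q' * p)) π) a) ∧
      (∀ (alg : Algebra ↥(beta0Field A) ↥(tres5cL (beta0Field A) (M * q' * p) y)),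
        (∀ c : ↥(beta0Field A),
          ((@algebraMap ↥(beta0Field A) ↥(tres5cL (beta0Field A) (M * q' * p) y) _ _ alg c :
            ↥(tres5cL (beta0Field A) (M * q' * p) y)) : LaurentSeries ↥(beta0Field A)) =
              algebraMap ↥(beta0Field A) (LaurentSeries ↥(beta0Field A)) c) →
        ∀ P : @Place ↥(beta0Field A) ↥(tres5cL (beta0Field A) (M * q' * p) y) _ _ alg,
          (p : ℤ) ∣
            @Place.ord ↥(beta0Field A) ↥(tres5cL (beta0Field A) (M * q' * p) y) _ _ alg P w) :=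
  tresdesckv_entry (N := M * p) (M' := M * q') A hA hπ ιC hp hpM hu hw hy
    (Fermat.Agent.STB.stb_d_le M p q') hline hpeu htor
    (fun Q => tresdesck_up_hdiv M p q' hu (Fermat.Agent.STB.stb_d_le M p q') Q) h S hSy hSζ ρK hρ

end Lcm

end Fermat.Agent.R38

end


end ZBR38_031_1

/-! ### bundled: `Fermat.Agent.R38.TresMonoTopCore` -/
section ZBR38_031_2
/-
ROW 38, TRES, piece FAC-ASM-MAIN, the COVER BLOCK (β) of the top of `StmtMonoCover` (helper41),
part 2: THE CORE OF THE ASSEMBLY (file R38/TresMonoTopCore.lean).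

Frame: `A ⊂ ℚ̄` over `p`, `K = ℚ̄^I = beta0Field A`, frame level `M' p` (rigid), `x ∈ J₀(N)` with
Kummer function `u`, `z₀` with Kummer function `w₀`, `y ^ p = w₀`, the cover
`L_K = tres5cL K (M' p) y` of `F_K = F_{M' p}(K)`.

* `tresmtb_core` : from the Kummer datum `S` over a big field `E`, the descended split generator
  `T` of `L_K / F_K` at `V_∞` with its deck transformation `ρK` (outputs of helper16's
  `tres5bit_descend`), the local splittings `hsplitJ`, `hsplitC` (Layer 3) and a provider of split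
  generators over all big fields (`hS₂`):
  the cover block `∃ W hWV ρW hρW hρWker y hy c, hfin ∧ hcusp ∧ hcmp` of `tresmonof_frame`.

Wiring: `tresdesckv_entry` (helper30: `w`, `γ`, `hfac`, `hρu`, `hpa`, `hhor`) →
`tresftf_main` (helper30: the field of definition) → `tresmw_cmp_inst` (helper90: the sheet `k`,
`m`, `ρW`, `hcmp`) → `tresmt_loc` (`hfin`, `hcusp` on the sheet `k`).
-/

set_option autoImplicit false
set_option linter.unusedSectionVars false
set_option linter.unusedVariables false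
set_option linter.style.haveILetI false
set_option linter.style.longLine false
set_option synthInstance.maxHeartbeats 400000
set_option maxHeartbeats 12800000

noncomputable section

namespace Fermat.Agent.R38

open ModularCurve AlgebraicCurve IntermediateField Polynomial Fermat.Agent.INJ Fermat.Agent.UNIP
  Fermat.Agent.STB Fermat.Agent.S36 Fermat.Agent.RIB.MP Fermat.Agent.RT.K6 Fermat.Agent.AL
  Fermat.Agent.ES Fermat.Agent.ES.G2 Fermat.Agent.ES.M

/- The algebra structure of the cover `L_K` over a local ring `atLoc 𝔫 ⊆ F`: instance search is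
slow in the concrete frame, so the instance found over an abstract `L` is given priority (the
same device as in `R38/TresMonoTopC.lean`). -/
attribute [local instance 100000] Algebra.ofSubsemiring

section Core

variable {N : ℕ} [NeZero N] {p M' : ℕ} [NeZero p] [NeZero M'] [NeZero (M' * p)]

/-- **The core of the cover block (β).** -/
theorem tresmtb_core [Fact p.Prime] (A : ValuationSubring Qb) (hA : A.LiesOverPrime p)
    [IsDiscreteValuationRing ↥(beta0Ring A (beta0Field A))]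
    {π : ↥(beta0Ring A (beta0Field A))} (hπ : Irreducible π) (ιC : ↥(beta0Field A) →+* ℂ)
    (hp : p.Prime) (hpM : ¬ p ∣ M')
    (rigid : (p ≠ 2 → 4 ∣ M') ∧ (p = 2 → 9 ∣ M'))
    (hRedF : StmtRedF M' A)
    {x z₀ : JZero N} {u w₀ : modularFunctionFieldBar N} (hu : KummerRel p x u)
    (hw : KummerRel p z₀ w₀) {y : LaurentSeries NfQb}
    (hy : y ^ p = (w₀ : LaurentSeries NfQb))
    (hle : modularFunctionFieldBar N ≤ modularFunctionFieldBar (M' * p))
    (hline : ∀ σ ∈ A.inertiaSubgroupIn ℚ, ∃ k : ℤ, σ • x - x = k • z₀)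
    (hpeu : ∀ σ ∈ peuSubgroup A p, σ • x = x)
    (htor : ∀ τ ∈ A.inertiaSubgroupIn ℚ, τ • z₀ = ExtCitation.cycloExp p τ • z₀)
    (hdiv : ∀ Q : Place NfQb ↥(modularFunctionFieldBar (M' * p)),
      (p : ℤ) ∣ Q.ord (⟨(u : LaurentSeries NfQb), hle u.2⟩ :
        ↥(modularFunctionFieldBar (M' * p))))
    -- the Kummer datum over the big field and the descended deck transformation
    {E : IntermediateField ℚ NfQb} (h : beta0Field A ≤ E)
    {V : ValuationSubring ↥(modularFunctionFieldFullC ↥E (M' * p))}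
    (S : Tres5Kum ↥(modularFunctionFieldFullC ↥E (M' * p)) ↥(tres5cL E (M' * p) y) V p)
    (hSy : coeffMap (algebraMap ↥E NfQb) (S.y : LaurentSeries ↥E) = y)
    {ζ : NfQb}
    (hSζ : coeffMap (algebraMap ↥E NfQb)
      ((S.ζ : ↥(modularFunctionFieldFullC ↥E (M' * p))) : LaurentSeries ↥E) = HahnSeries.C ζ)
    (ρK : ↥(tres5cL (beta0Field A) (M' * p) y) →ₐ[↥(modularFunctionFieldFullC
      ↥(beta0Field A) (M' * p))] ↥(tres5cL (beta0Field A) (M' * p) y))
    (hρ : ∀ f : ↥(tres5cL (beta0Field A) (M' * p) y),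
      tres5cIncl (M' * p) y h (ρK f) = S.deck (tres5cIncl (M' * p) y h f))
    -- the split generator over `K`
    (T : Tres5Gen ↥(modularFunctionFieldFullC ↥(beta0Field A) (M' * p))
      ↥(tres5cL (beta0Field A) (M' * p) y) (mgvV hπ ιC hp hpM true) p)
    (hTπ : T.π = algebraMap ↥(beta0Ring A (beta0Field A))
      ↥(modularFunctionFieldFullC ↥(beta0Field A) (M' * p)) π)
    -- Layer 3
    (hsplitJ : ∀ 𝔫 : AtPt (F := ↥(modularFunctionFieldFullC ↥(beta0Field A) (M' * p))) π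
        (bgJ ↥(beta0Field A) (M' * p)),
      atThrough 𝔫 (mgvV hπ ιC hp hpM true) → ∀ [IsLocalRing ↥(atLoc 𝔫)],
        ∃ (z : ↥(tres5cL (beta0Field A) (M' * p) y)) (P : (↥(atLoc 𝔫))[X])
          (c : ZMod p → ↥(atLoc 𝔫)),
          Tres5eSplit ↥(modularFunctionFieldFullC ↥(beta0Field A) (M' * p)) z P c ∧
          ∀ i : ZMod p, ∃ b ∈ tres5eMax ↥(atLoc 𝔫) z (c i),
            ρK z = algebraMap ↥(atLoc 𝔫) ↥(tres5cL (beta0Field A) (M' * p) y) (c (i + 1)) +
              (b : ↥(tres5cL (beta0Field A) (M' * p) y)))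
    (hsplitC : ∀ 𝔫 : AtPt (F := ↥(modularFunctionFieldFullC ↥(beta0Field A) (M' * p))) π
        (bgJ ↥(beta0Field A) (M' * p))⁻¹,
      atThrough 𝔫 (mgvV hπ ιC hp hpM true) →
      (∀ b : ↥(zchClosure (A₀ := ↥(beta0Ring A (beta0Field A)))
          ({(bgJ ↥(beta0Field A) (M' * p))⁻¹} :
            Set ↥(modularFunctionFieldFullC ↥(beta0Field A) (M' * p)))),
        (b : ↥(modularFunctionFieldFullC ↥(beta0Field A) (M' * p))) =
          (bgJ ↥(beta0Field A) (M' * p))⁻¹ → b ∈ 𝔫.1) →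
      ∀ [IsLocalRing ↥(atLoc 𝔫)],
        ∃ (z : ↥(tres5cL (beta0Field A) (M' * p) y)) (P : (↥(atLoc 𝔫))[X])
          (c : ZMod p → ↥(atLoc 𝔫)),
          Tres5eSplit ↥(modularFunctionFieldFullC ↥(beta0Field A) (M' * p)) z P c)
    -- split generators over all big fields
    (K0 : IntermediateField ℚ NfQb) (hK0 : FiniteDimensional ℚ K0)
    (hS₂ : ∀ K₁ : IntermediateField ℚ NfQb, K0 ≤ K₁ → FiniteDimensional ℚ K₁ → IsGalois ℚ K₁ →
      ∃ (_ : IsDiscreteValuationRing ↥(beta0Ring A (mgcE A K₁)))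
        (π₁ : ↥(beta0Ring A (mgcE A K₁))) (hπ₁ : Irreducible π₁) (ιC₁ : ↥(mgcE A K₁) →+* ℂ)
        (n₂ : ℕ)
        (S₂ : Tres5Gen ↥(modularFunctionFieldFullC ↥(mgcE A K₁) (M' * p))
          ↥(tres5cL (mgcE A K₁) (M' * p) y) (mgvV hπ₁ ιC₁ hp hpM true) n₂),
        S₂.π = algebraMap ↥(beta0Ring A (mgcE A K₁))
          ↥(modularFunctionFieldFullC ↥(mgcE A K₁) (M' * p)) π₁)
    -- the Gauss reduction of `u`
    {r : LaurentSeries (kA A)} (hr : R38Red A (u : LaurentSeries Qb) r) :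
    ∃ (W : ValuationSubring ↥(tres5cL (beta0Field A) (M' * p) y))
      (hWV : W.comap (algebraMap ↥(modularFunctionFieldFullC ↥(beta0Field A) (M' * p))
        ↥(tres5cL (beta0Field A) (M' * p) y)) = mgvV hπ ιC hp hpM true)
      (ρW : ↥W →+* ↥(modularFunctionFieldFullC (kA A) M'))
      (hρW : ∀ (a : ↥(modularFunctionFieldFullC ↥(beta0Field A) (M' * p)))
        (ha : a ∈ mgvV hπ ιC hp hpM true)
        (haW : algebraMap ↥(modularFunctionFieldFullC ↥(beta0Field A) (M' * p))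
          ↥(tres5cL (beta0Field A) (M' * p) y) a ∈ W),
        ρW ⟨algebraMap ↥(modularFunctionFieldFullC ↥(beta0Field A) (M' * p))
          ↥(tres5cL (beta0Field A) (M' * p) y) a, haW⟩ =
          ribmpRedF hp hpM hA hπ ιC hRedF ⟨a, ha⟩)
      (hρWker : ∀ x : ↥W, (x : ↥(tres5cL (beta0Field A) (M' * p) y)) ∈ W.nonunits → ρW x = 0)
      (Y : ↥(tres5cL (beta0Field A) (M' * p) y)) (hY : W.valuation Y = 1) (c : ℤ),
      (∀ 𝔫 : AtPt (F := ↥(modularFunctionFieldFullC ↥(beta0Field A) (M' * p))) π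
          (bgJ ↥(beta0Field A) (M' * p)),
        ∀ T' : ValuationSubring ↥(tres5cL (beta0Field A) (M' * p) y),
        (∀ x ∈ atLoc 𝔫,
          algebraMap ↥(modularFunctionFieldFullC ↥(beta0Field A) (M' * p))
            ↥(tres5cL (beta0Field A) (M' * p) y) x ∈ T') →
        (∀ x ∈ T', x ∈ W) →
        ∃ O' : Subring ↥(tres5cL (beta0Field A) (M' * p) y), (∀ x ∈ O', x ∈ T') ∧
          TresMonoPt W O' p c 12 Y
            (algebraMap ↥(modularFunctionFieldFullC ↥(beta0Field A) (M' * p))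
              ↥(tres5cL (beta0Field A) (M' * p) y)
              (s36tuV ↥(beta0Field A) ιC (q := p) (M := M')))) ∧
      (∀ 𝔫 : AtPt (F := ↥(modularFunctionFieldFullC ↥(beta0Field A) (M' * p))) π
          (bgJ ↥(beta0Field A) (M' * p))⁻¹,
        ∀ T' : ValuationSubring ↥(tres5cL (beta0Field A) (M' * p) y),
        (∀ x ∈ atLoc 𝔫,
          algebraMap ↥(modularFunctionFieldFullC ↥(beta0Field A) (M' * p))
            ↥(tres5cL (beta0Field A) (M' * p) y) x ∈ T') →
        (∀ x ∈ T', x ∈ W) →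
        (∀ b : ↥(zchClosure (A₀ := ↥(beta0Ring A (beta0Field A)))
            ({(bgJ ↥(beta0Field A) (M' * p))⁻¹} :
              Set ↥(modularFunctionFieldFullC ↥(beta0Field A) (M' * p)))),
          (b : ↥(modularFunctionFieldFullC ↥(beta0Field A) (M' * p))) =
            (bgJ ↥(beta0Field A) (M' * p))⁻¹ → b ∈ 𝔫.1) →
        ∃ O' : Subring ↥(tres5cL (beta0Field A) (M' * p) y), (∀ x ∈ O', x ∈ T') ∧
          StbFacAt O' p Y) ∧
      ∃ (hr' : r ∈ modularFunctionFieldFullC (kA A) M') (a : kA A)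
        (s : ↥(modularFunctionFieldFullC (kA A) M')), a ≠ 0 ∧ s ≠ 0 ∧
        (⟨r, hr'⟩ : ↥(modularFunctionFieldFullC (kA A) M')) =
          algebraMap (kA A) ↥(modularFunctionFieldFullC (kA A) M') a *
            ρW ⟨Y, tresdn_mem W hY⟩ * s ^ p := by
  classical
  -- step 3: the descended Kummer function of `x`
  obtain ⟨w, h', γ, a, hw0, hh0, ha0, hγF, hγ0, hfac, hρu, hV, hhor⟩ :=
    tresdesckv_entry (N := N) (M' := M') A hA hπ ιC hp hpM hu hw hy hle hline hpeu htor hdiv h S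
      hSy hSζ ρK hρ
  -- step 4: the field of definition, the split generator over it, the comparison
  have hy0 : y ≠ 0 := by
    intro h0
    have h1 : (w₀ : LaurentSeries NfQb) = 0 := by
      rw [← hy, h0, zero_pow hp.ne_zero]
    exact hw.ne_zero (Subtype.ext h1)
  have hyF : y ^ p ∈ modularFunctionFieldBar (M' * p) := by
    rw [hy]; exact hle w₀.2
  have hu0 : (u : LaurentSeries NfQb) ≠ 0 := fun h0 => hu.ne_zero (Subtype.ext h0)
  obtain ⟨K₁, hK₁le, hK₁fd, hK₁gal, v, b', g, hv, hb', hg, hfacE⟩ :=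
    tresftf_main (N := M' * p) hp.ne_zero hy0 hyF A K0 hK0
      (u := (⟨(u : LaurentSeries NfQb), hle u.2⟩ : ↥(modularFunctionFieldBar (M' * p))))
      hγF w hfac
  obtain ⟨iDVR, π₁, hπ₁, ιC₁, n₂, S₂, hS₂π⟩ := hS₂ K₁ hK₁le hK₁fd hK₁gal
  have hg0 : g ≠ 0 := by
    intro h0
    apply hγ0
    rw [← hg, h0]
    exact map_zero _
  have hv' : ((nfEmb (mgcE A K₁) (M' * p) v : modularFunctionFieldBar (M' * p)) :
      LaurentSeries Qb) = (u : LaurentSeries Qb) := by
    rw [hv]
  obtain ⟨k, hk, hWV, m, hm, ρW, hρW, hρWker, hr', a', s, ha', hs, hcmp⟩ :=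
    tresmw_cmp_inst hp hpM hA hπ hπ₁ ιC ιC₁ (le_sup_left : beta0Field A ≤ mgcE A K₁) hRedF y T S₂
      hTπ hS₂π (p := p) (U := (u : LaurentSeries Qb)) (v := v) hv' hu0 (b := b') (g := g)
      (w := w) hg0 hw0 hfacE (r := r) hr
  -- step 6: the local conditions on the sheet `k`
  letI algKL : Algebra ↥(beta0Field A) ↥(tres5cL (beta0Field A) (M' * p) y) :=
    tres5hAlgEL (beta0Field A) (M' * p) y
  haveI : IsScalarTower ↥(beta0Field A) ↥(modularFunctionFieldFullC ↥(beta0Field A) (M' * p))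
      ↥(tres5cL (beta0Field A) (M' * p) y) := tres5hi_tower (beta0Field A) (M' * p) y
  obtain ⟨m₀, hfin, hcusp⟩ := tresmt_loc hπ ιC hp hpM hA rigid T hk ρK hw0 ha0 hh0 hρu (hV false).2
    (hhor algKL (tres5hAlgEL_const (beta0Field A) (M' * p) y)) hsplitJ hsplitC m hm
  exact ⟨T.W k, hWV, ρW, hρW, hρWker, _, hm, m₀ - m, hfin, hcusp, hr', a', s, ha', hs, hcmp⟩

end Core

end Fermat.Agent.R38

end


end ZBR38_031_2
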