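/- GENERATED FILE (helper35, build-time optimisation, NOTES/ZB.md): verbatim concatenation of the modules
   Fermat.Agent.R38.TresMonoZeroPt
   Fermat.Agent.R38.TresKFormInstN
   Fermat.Agent.R38.TresKFormInstC
   Fermat.Agent.R38.TresMonoTopJ
   Fermat.Agent.R38.TresMonoTopB
   Do not edit; do not import together with these modules. -/
import Fermat.Agent.ZB.R38_023
import Fermat.Agent.ZB.R38_012
import Fermat.Agent.ZB.R38_018
import Fermat.Agent.ZB.R38_019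
import Fermat.Agent.ZB.R38_015
import Fermat.Agent.ZB.R38_031
import Fermat.Agent.ZB.R38_010
import Fermat.Agent.ZB.R38_022
import Fermat.Agent.ZB.R38_032
import Fermat.Agent.ZB.STB_002

/-! ### bundled: `Fermat.Agent.R38.TresMonoZeroPt` -/
section ZBR38_033_0
/-
ROW 38, TRES, MONO-0 INSTANCE, leaf (L1) (helper64, for helper14's R38/TresMonoZeroInst.lean):
THE K-FORM AT A CLOSED POINT OF THE CHART, WITH THE STEP RELATION OF THE DESCENDED DECK MAP.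

`tresmzi_point_step` = helper48's `tres5ki_point` (R38/TresKFormInst.lean, same binders) with one
more input, the descended deck transformation `ρK : LK ≃ₐ[FK] LK`
(`hρK : algebraMap LK L (ρK y) = ρ (algebraMap LK L y)`), and one more conclusion,
the step relation of `ρK` at the closed point `𝔫K` of the `K`-chart:

  `∀ i : ZMod p, ∃ b ∈ tres5eMax ↥(atLoc 𝔫K) zK (i.val : ↥(atLoc 𝔫K)),
      ρK zK = algebraMap ↥(atLoc 𝔫K) LK ((i + 1).val : ↥(atLoc 𝔫K)) + b`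

(= `hstep` of `tresmzi_node_abs` / `tresmz_main_step`), by helper14's `tresmzk_step`.

* `tresmzi_step_of_point` (POST-HOC form): from `H`, `hρ` at `𝔫E` and ANY `(zK, PK, HK, hz)` as
  output by `tres5ki_point` or `tres5kd_point`, and `ρK`, `hρK`: the step relation of `ρK`;
* `tresmzi_step_of_point_hom` : the same for `ρK : LK →ₐ[FK] LK` (needs `[LK : FK] = p`);
* `tresmzi_point_step`, `tresmzi_point_step_hom` : `tres5ki_point` + the step relation.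
-/

set_option autoImplicit false
set_option linter.style.haveILetI false
set_option linter.unusedSectionVars false
set_option linter.unusedVariables false
set_option linter.style.longLine false

namespace Fermat.Agent.R38

open Polynomial Fermat.Agent.UNIP Fermat.Agent.INJ Fermat.Agent.RIB.MP

section PointStep

variable {G : Type*} [Group G] {L : Type*} [Field L] [MulSemiringAction G L]
  {AE EE FE : Type*} [CommRing AE] [IsDomain AE] [IsDiscreteValuationRing AE]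
  [Field EE] [Algebra AE EE] [IsFractionRing AE EE] [CharZero EE]
  [Field FE] [Algebra EE FE] [Algebra AE FE] [IsScalarTower AE EE FE] [Algebra FE L]
  {AK EK FK : Type*} [CommRing AK] [IsDomain AK] [IsDiscreteValuationRing AK]
  [Field EK] [Algebra AK EK] [IsFractionRing AK EK] [CharZero EK]
  [Field FK] [Algebra EK FK] [Algebra AK FK] [IsScalarTower AK EK FK]
  [Algebra AK AE] [Algebra FK FE] [Algebra AK FE]
  [IsScalarTower AK AE FE] [IsScalarTower AK FK FE]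
  {t : FK} {πE : AE} {πK : AK}

variable [Finite G]
  {LK : Type*} [Field LK] [Algebra FK LK] [Algebra LK L] [Algebra FK L]
  [IsScalarTower FK LK L] [IsScalarTower FK FE L]
  {p : ℕ} [hp : Fact p.Prime]

/-- **The step relation of the descended deck map, post-hoc form.**  `H`, `hρ` the split
structure and the step relation of `ρ` at the closed point `𝔫E` of the big chart; `(zK, PK, HK,
hz)` ANY output of `tres5ki_point` / `tres5kd_point` at the closed point `𝔫K` under `𝔫E`; `ρK`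
induced by `ρ` on `LK`. -/
theorem tresmzi_step_of_point (𝔫E : AtPt (F := FE) πE (algebraMap FK FE t))
    (𝔫K : AtPt (F := FK) πK t)
    [IsLocalRing ↥(atLoc 𝔫E)] [IsFractionRing ↥(atLoc 𝔫E) FE] [IsIntegrallyClosed ↥(atLoc 𝔫E)]
    [Algebra ↥(atLoc 𝔫E) L] [IsScalarTower ↥(atLoc 𝔫E) FE L]
    [IsLocalRing ↥(atLoc 𝔫K)] [IsFractionRing ↥(atLoc 𝔫K) FK] [IsIntegrallyClosed ↥(atLoc 𝔫K)]
    [Algebra ↥(atLoc 𝔫K) LK] [IsScalarTower ↥(atLoc 𝔫K) FK LK]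
    [Algebra.IsIntegral AK AE]
    {z : L} {P : (↥(atLoc 𝔫E))[X]} {c : ZMod p → ↥(atLoc 𝔫E)}
    (H : Tres5eSplit FE z P c)
    (hGF : ∀ (g : G) (x : FE), ∃ x' : FE, g • algebraMap FE L x = algebraMap FE L x')
    (hGA : ∀ (g : G) (a : AE), ∃ a' : AE,
      g • algebraMap FE L (algebraMap AE FE a) = algebraMap FE L (algebraMap AE FE a'))
    (hGt : ∀ g : G, g • algebraMap FE L (algebraMap FK FE t) =
      algebraMap FE L (algebraMap FK FE t))
    (hfixF : ∀ x : FE, (∀ g : G, g • algebraMap FE L x = algebraMap FE L x) →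
      ∃ y : FK, algebraMap FK FE y = x)
    (hG𝔫 : ∀ (g : G) (b b' : ↥(zchClosure (A₀ := AE) ({algebraMap FK FE t} : Set FE))),
      g • algebraMap FE L (b : FE) = algebraMap FE L (b' : FE) → b ∈ 𝔫E.1 → b' ∈ 𝔫E.1)
    (h𝔫K : ∀ (bK : ↥(zchClosure (A₀ := AK) ({t} : Set FK)))
      (b : ↥(zchClosure (A₀ := AE) ({algebraMap FK FE t} : Set FE))),
      (b : FE) = algebraMap FK FE (bK : FK) → bK ∈ 𝔫K.1 → b ∈ 𝔫E.1)
    (ρ : L ≃ₐ[FE] L)
    (hρ : ∀ i : ZMod p, ∃ b ∈ tres5eMax ↥(atLoc 𝔫E) z (c i),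
      ρ z = algebraMap ↥(atLoc 𝔫E) L (c (i + 1)) + (b : L))
    {zK : LK} {PK : (↥(atLoc 𝔫K))[X]}
    (HK : Tres5eSplit FK zK PK (fun k : ZMod p => ((k.val : ℕ) : ↥(atLoc 𝔫K))))
    (hz : ∀ i : ZMod p, ∃ b ∈ tres5eMax ↥(atLoc 𝔫E) z (c i),
      algebraMap LK L zK = ((i.val : ℕ) : L) + (b : L))
    (ρK : LK ≃ₐ[FK] LK) (hρK : ∀ y : LK, algebraMap LK L (ρK y) = ρ (algebraMap LK L y))
    (i : ZMod p) :
    ∃ b ∈ tres5eMax ↥(atLoc 𝔫K) zK ((i.val : ℕ) : ↥(atLoc 𝔫K)),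
      ρK zK = algebraMap ↥(atLoc 𝔫K) LK (((i + 1).val : ℕ) : ↥(atLoc 𝔫K)) + (b : LK) := by
  haveI := 𝔫E.2.1.isPrime
  haveI := 𝔫K.2.1.isPrime
  -- `j₀`
  let j₀ : ↥(atLoc 𝔫K) →+* ↥(atLoc 𝔫E) :=
    ((algebraMap FK FE).comp (atLoc 𝔫K).subtype).codRestrict (atLoc 𝔫E)
      (fun x => tres5ki_loc_le 𝔫E 𝔫K h𝔫K x.2)
  have hj₀ : ∀ r : ↥(atLoc 𝔫K), algebraMap ↥(atLoc 𝔫E) FE (j₀ r) =
      algebraMap FK FE (algebraMap ↥(atLoc 𝔫K) FK r) := fun r => rfl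
  have hRK : ∀ (x : FK) (r : ↥(atLoc 𝔫E)), algebraMap ↥(atLoc 𝔫E) FE r = algebraMap FK FE x →
      ∃ rK : ↥(atLoc 𝔫K), algebraMap ↥(atLoc 𝔫K) FK rK = x := by
    intro x r hrx
    have hx : algebraMap FK FE x ∈ atLoc 𝔫E := by
      rw [← hrx]
      exact r.2
    exact ⟨⟨x, tres5p_atLoc_hRK (G := G) (L := L) hGF hGA hfixF t hGt 𝔫E 𝔫K hG𝔫 h𝔫K x hx⟩, rfl⟩
  have hloc : ∀ r ∈ IsLocalRing.maximalIdeal ↥(atLoc 𝔫K),
      j₀ r ∈ IsLocalRing.maximalIdeal ↥(atLoc 𝔫E) := fun r hr =>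
    tres5ki_j0_local j₀ hj₀ hRK hr
  have hz' : ∀ i : ZMod p, ∃ b ∈ tres5eMax ↥(atLoc 𝔫E) z (c i),
      algebraMap LK L zK =
        algebraMap ↥(atLoc 𝔫E) L (j₀ (((i.val : ℕ) : ↥(atLoc 𝔫K)))) + (b : L) := by
    intro i
    obtain ⟨b, hb, hzb⟩ := hz i
    refine ⟨b, hb, ?_⟩
    rw [hzb, map_natCast, map_natCast]
  exact tresmzk_step H HK j₀ hj₀ hloc hz' (fun k : ZMod p => k + 1) ρ hρ ρK hρK i

/-- the post-hoc form for `ρK` an algebra HOMOMORPHISM (`[LK : FK] = p` makes it bijective) -/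
theorem tresmzi_step_of_point_hom (𝔫E : AtPt (F := FE) πE (algebraMap FK FE t))
    (𝔫K : AtPt (F := FK) πK t)
    [IsLocalRing ↥(atLoc 𝔫E)] [IsFractionRing ↥(atLoc 𝔫E) FE] [IsIntegrallyClosed ↥(atLoc 𝔫E)]
    [Algebra ↥(atLoc 𝔫E) L] [IsScalarTower ↥(atLoc 𝔫E) FE L]
    [IsLocalRing ↥(atLoc 𝔫K)] [IsFractionRing ↥(atLoc 𝔫K) FK] [IsIntegrallyClosed ↥(atLoc 𝔫K)]
    [Algebra ↥(atLoc 𝔫K) LK] [IsScalarTower ↥(atLoc 𝔫K) FK LK]
    [Algebra.IsIntegral AK AE]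
    {z : L} {P : (↥(atLoc 𝔫E))[X]} {c : ZMod p → ↥(atLoc 𝔫E)}
    (H : Tres5eSplit FE z P c)
    (hGF : ∀ (g : G) (x : FE), ∃ x' : FE, g • algebraMap FE L x = algebraMap FE L x')
    (hGA : ∀ (g : G) (a : AE), ∃ a' : AE,
      g • algebraMap FE L (algebraMap AE FE a) = algebraMap FE L (algebraMap AE FE a'))
    (hGt : ∀ g : G, g • algebraMap FE L (algebraMap FK FE t) =
      algebraMap FE L (algebraMap FK FE t))
    (hfixF : ∀ x : FE, (∀ g : G, g • algebraMap FE L x = algebraMap FE L x) →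
      ∃ y : FK, algebraMap FK FE y = x)
    (hG𝔫 : ∀ (g : G) (b b' : ↥(zchClosure (A₀ := AE) ({algebraMap FK FE t} : Set FE))),
      g • algebraMap FE L (b : FE) = algebraMap FE L (b' : FE) → b ∈ 𝔫E.1 → b' ∈ 𝔫E.1)
    (h𝔫K : ∀ (bK : ↥(zchClosure (A₀ := AK) ({t} : Set FK)))
      (b : ↥(zchClosure (A₀ := AE) ({algebraMap FK FE t} : Set FE))),
      (b : FE) = algebraMap FK FE (bK : FK) → bK ∈ 𝔫K.1 → b ∈ 𝔫E.1)
    (ρ : L ≃ₐ[FE] L)
    (hρ : ∀ i : ZMod p, ∃ b ∈ tres5eMax ↥(atLoc 𝔫E) z (c i),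
      ρ z = algebraMap ↥(atLoc 𝔫E) L (c (i + 1)) + (b : L))
    {zK : LK} {PK : (↥(atLoc 𝔫K))[X]}
    (HK : Tres5eSplit FK zK PK (fun k : ZMod p => ((k.val : ℕ) : ↥(atLoc 𝔫K))))
    (hfinK : Module.finrank FK LK = p)
    (hz : ∀ i : ZMod p, ∃ b ∈ tres5eMax ↥(atLoc 𝔫E) z (c i),
      algebraMap LK L zK = ((i.val : ℕ) : L) + (b : L))
    (ρK : LK →ₐ[FK] LK) (hρK : ∀ y : LK, algebraMap LK L (ρK y) = ρ (algebraMap LK L y))
    (i : ZMod p) :
    ∃ b ∈ tres5eMax ↥(atLoc 𝔫K) zK ((i.val : ℕ) : ↥(atLoc 𝔫K)),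
      ρK zK = algebraMap ↥(atLoc 𝔫K) LK (((i + 1).val : ℕ) : ↥(atLoc 𝔫K)) + (b : LK) := by
  haveI : FiniteDimensional FK LK :=
    Module.finite_of_finrank_pos (by rw [hfinK]; exact hp.out.pos)
  let ρK' : LK ≃ₐ[FK] LK := AlgEquiv.ofBijective ρK (Algebra.IsAlgebraic.algHom_bijective ρK)
  exact tresmzi_step_of_point 𝔫E 𝔫K H hGF hGA hGt hfixF hG𝔫 h𝔫K ρ hρ HK hz ρK'
    (fun y => hρK y) i

/-- **K-FORM at a closed point of the chart, with the step relation of `ρK`.** -/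
theorem tresmzi_point_step (𝔫E : AtPt (F := FE) πE (algebraMap FK FE t)) (𝔫K : AtPt (F := FK) πK t)
    [IsLocalRing ↥(atLoc 𝔫E)] [IsFractionRing ↥(atLoc 𝔫E) FE] [IsIntegrallyClosed ↥(atLoc 𝔫E)]
    [Algebra ↥(atLoc 𝔫E) L] [IsScalarTower ↥(atLoc 𝔫E) FE L]
    [IsLocalRing ↥(atLoc 𝔫K)] [IsFractionRing ↥(atLoc 𝔫K) FK] [IsIntegrallyClosed ↥(atLoc 𝔫K)]
    [Algebra ↥(atLoc 𝔫K) LK] [IsScalarTower ↥(atLoc 𝔫K) FK LK]
    [Algebra.IsIntegral AK AE]
    {z : L} {P : (↥(atLoc 𝔫E))[X]} {c : ZMod p → ↥(atLoc 𝔫E)}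
    (H : Tres5eSplit FE z P c) (hfin : Module.finrank FE L = p)
    (hpK : πK ∣ (p : AK))
    (hGF : ∀ (g : G) (x : FE), ∃ x' : FE, g • algebraMap FE L x = algebraMap FE L x')
    (hGA : ∀ (g : G) (a : AE), ∃ a' : AE,
      g • algebraMap FE L (algebraMap AE FE a) = algebraMap FE L (algebraMap AE FE a'))
    (hGt : ∀ g : G, g • algebraMap FE L (algebraMap FK FE t) =
      algebraMap FE L (algebraMap FK FE t))
    (hGLK : ∀ (g : G) (y : LK), g • algebraMap LK L y = algebraMap LK L y)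
    (hfixL : ∀ x : L, (∀ g : G, g • x = x) → ∃ y : LK, algebraMap LK L y = x)
    (hfixF : ∀ x : FE, (∀ g : G, g • algebraMap FE L x = algebraMap FE L x) →
      ∃ y : FK, algebraMap FK FE y = x)
    (hG𝔫 : ∀ (g : G) (b b' : ↥(zchClosure (A₀ := AE) ({algebraMap FK FE t} : Set FE))),
      g • algebraMap FE L (b : FE) = algebraMap FE L (b' : FE) → b ∈ 𝔫E.1 → b' ∈ 𝔫E.1)
    (h𝔫K : ∀ (bK : ↥(zchClosure (A₀ := AK) ({t} : Set FK)))
      (b : ↥(zchClosure (A₀ := AE) ({algebraMap FK FE t} : Set FE))),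
      (b : FE) = algebraMap FK FE (bK : FK) → bK ∈ 𝔫K.1 → b ∈ 𝔫E.1)
    (W : ValuationSubring L)
    (hWdom : ∀ x ∈ atLoc 𝔫E, algebraMap FE L x ∈ W)
    (hWmax : ∀ b : ↥(zchClosure (A₀ := AE) ({algebraMap FK FE t} : Set FE)), b ∈ 𝔫E.1 →
      algebraMap FE L (b : FE) ∈ W.nonunits)
    (hGW : ∀ (g : G), ∀ x ∈ W, g • x ∈ W)
    (ρ : L ≃ₐ[FE] L) (hρG : ∀ (g : G) x, ρ (g • x) = g • ρ x)
    (hρ : ∀ i : ZMod p, ∃ b ∈ tres5eMax ↥(atLoc 𝔫E) z (c i),
      ρ z = algebraMap ↥(atLoc 𝔫E) L (c (i + 1)) + (b : L))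
    (ρK : LK ≃ₐ[FK] LK) (hρK : ∀ y : LK, algebraMap LK L (ρK y) = ρ (algebraMap LK L y)) :
    ∃ (zK : LK) (PK : (↥(atLoc 𝔫K))[X]),
      Tres5eSplit FK zK PK (fun k : ZMod p => ((k.val : ℕ) : ↥(atLoc 𝔫K))) ∧
      Module.finrank FK LK = p ∧
      ρ (algebraMap LK L zK) ≠ algebraMap LK L zK ∧
      (∀ i : ZMod p, ∃ b ∈ tres5eMax ↥(atLoc 𝔫E) z (c i),
        algebraMap LK L zK = ((i.val : ℕ) : L) + (b : L)) ∧
      (∃ k : ZMod p,
        (∀ b : ↥(Algebra.adjoin ↥(atLoc 𝔫K) ({zK} : Set LK)),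
          b ∈ tres5eMax ↥(atLoc 𝔫K) zK ((k.val : ℕ) : ↥(atLoc 𝔫K)) ↔
            algebraMap LK L (b : LK) ∈ W.nonunits) ∧
        ∀ (_ : (tres5eMax ↥(atLoc 𝔫K) zK ((k.val : ℕ) : ↥(atLoc 𝔫K))).IsPrime),
          ∀ x ∈ ls_localSubring (F := LK) (tres5eMax ↥(atLoc 𝔫K) zK ((k.val : ℕ) : ↥(atLoc 𝔫K))),
            algebraMap LK L x ∈ W) ∧
      ∀ i : ZMod p, ∃ b ∈ tres5eMax ↥(atLoc 𝔫K) zK ((i.val : ℕ) : ↥(atLoc 𝔫K)),
        ρK zK = algebraMap ↥(atLoc 𝔫K) LK (((i + 1).val : ℕ) : ↥(atLoc 𝔫K)) + (b : LK) := by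
  obtain ⟨zK, PK, HK, hfinK, hρz, hz, hk⟩ :=
    tres5ki_point 𝔫E 𝔫K H hfin hpK hGF hGA hGt hGLK hfixL hfixF hG𝔫 h𝔫K W hWdom hWmax hGW ρ
      hρG hρ
  exact ⟨zK, PK, HK, hfinK, hρz, hz, hk, fun i =>
    tresmzi_step_of_point 𝔫E 𝔫K H hGF hGA hGt hfixF hG𝔫 h𝔫K ρ hρ HK hz ρK hρK i⟩

/-- the same for a descended deck map `ρK` given as an algebra HOMOMORPHISM (the shape of
`tres5c_descend` / `tres5kiv_descend`): `[LK : FK] = p` makes it bijective. -/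
theorem tresmzi_point_step_hom (𝔫E : AtPt (F := FE) πE (algebraMap FK FE t)) (𝔫K : AtPt (F := FK) πK t)
    [IsLocalRing ↥(atLoc 𝔫E)] [IsFractionRing ↥(atLoc 𝔫E) FE] [IsIntegrallyClosed ↥(atLoc 𝔫E)]
    [Algebra ↥(atLoc 𝔫E) L] [IsScalarTower ↥(atLoc 𝔫E) FE L]
    [IsLocalRing ↥(atLoc 𝔫K)] [IsFractionRing ↥(atLoc 𝔫K) FK] [IsIntegrallyClosed ↥(atLoc 𝔫K)]
    [Algebra ↥(atLoc 𝔫K) LK] [IsScalarTower ↥(atLoc 𝔫K) FK LK]
    [Algebra.IsIntegral AK AE]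
    {z : L} {P : (↥(atLoc 𝔫E))[X]} {c : ZMod p → ↥(atLoc 𝔫E)}
    (H : Tres5eSplit FE z P c) (hfin : Module.finrank FE L = p)
    (hpK : πK ∣ (p : AK))
    (hGF : ∀ (g : G) (x : FE), ∃ x' : FE, g • algebraMap FE L x = algebraMap FE L x')
    (hGA : ∀ (g : G) (a : AE), ∃ a' : AE,
      g • algebraMap FE L (algebraMap AE FE a) = algebraMap FE L (algebraMap AE FE a'))
    (hGt : ∀ g : G, g • algebraMap FE L (algebraMap FK FE t) =
      algebraMap FE L (algebraMap FK FE t))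
    (hGLK : ∀ (g : G) (y : LK), g • algebraMap LK L y = algebraMap LK L y)
    (hfixL : ∀ x : L, (∀ g : G, g • x = x) → ∃ y : LK, algebraMap LK L y = x)
    (hfixF : ∀ x : FE, (∀ g : G, g • algebraMap FE L x = algebraMap FE L x) →
      ∃ y : FK, algebraMap FK FE y = x)
    (hG𝔫 : ∀ (g : G) (b b' : ↥(zchClosure (A₀ := AE) ({algebraMap FK FE t} : Set FE))),
      g • algebraMap FE L (b : FE) = algebraMap FE L (b' : FE) → b ∈ 𝔫E.1 → b' ∈ 𝔫E.1)
    (h𝔫K : ∀ (bK : ↥(zchClosure (A₀ := AK) ({t} : Set FK)))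
      (b : ↥(zchClosure (A₀ := AE) ({algebraMap FK FE t} : Set FE))),
      (b : FE) = algebraMap FK FE (bK : FK) → bK ∈ 𝔫K.1 → b ∈ 𝔫E.1)
    (W : ValuationSubring L)
    (hWdom : ∀ x ∈ atLoc 𝔫E, algebraMap FE L x ∈ W)
    (hWmax : ∀ b : ↥(zchClosure (A₀ := AE) ({algebraMap FK FE t} : Set FE)), b ∈ 𝔫E.1 →
      algebraMap FE L (b : FE) ∈ W.nonunits)
    (hGW : ∀ (g : G), ∀ x ∈ W, g • x ∈ W)
    (ρ : L ≃ₐ[FE] L) (hρG : ∀ (g : G) x, ρ (g • x) = g • ρ x)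
    (hρ : ∀ i : ZMod p, ∃ b ∈ tres5eMax ↥(atLoc 𝔫E) z (c i),
      ρ z = algebraMap ↥(atLoc 𝔫E) L (c (i + 1)) + (b : L))
    (ρK : LK →ₐ[FK] LK) (hρK : ∀ y : LK, algebraMap LK L (ρK y) = ρ (algebraMap LK L y)) :
    ∃ (zK : LK) (PK : (↥(atLoc 𝔫K))[X]),
      Tres5eSplit FK zK PK (fun k : ZMod p => ((k.val : ℕ) : ↥(atLoc 𝔫K))) ∧
      Module.finrank FK LK = p ∧
      ρ (algebraMap LK L zK) ≠ algebraMap LK L zK ∧
      (∀ i : ZMod p, ∃ b ∈ tres5eMax ↥(atLoc 𝔫E) z (c i),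
        algebraMap LK L zK = ((i.val : ℕ) : L) + (b : L)) ∧
      (∃ k : ZMod p,
        (∀ b : ↥(Algebra.adjoin ↥(atLoc 𝔫K) ({zK} : Set LK)),
          b ∈ tres5eMax ↥(atLoc 𝔫K) zK ((k.val : ℕ) : ↥(atLoc 𝔫K)) ↔
            algebraMap LK L (b : LK) ∈ W.nonunits) ∧
        ∀ (_ : (tres5eMax ↥(atLoc 𝔫K) zK ((k.val : ℕ) : ↥(atLoc 𝔫K))).IsPrime),
          ∀ x ∈ ls_localSubring (F := LK) (tres5eMax ↥(atLoc 𝔫K) zK ((k.val : ℕ) : ↥(atLoc 𝔫K))),
            algebraMap LK L x ∈ W) ∧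
      ∀ i : ZMod p, ∃ b ∈ tres5eMax ↥(atLoc 𝔫K) zK ((i.val : ℕ) : ↥(atLoc 𝔫K)),
        ρK zK = algebraMap ↥(atLoc 𝔫K) LK (((i + 1).val : ℕ) : ↥(atLoc 𝔫K)) + (b : LK) := by
  obtain ⟨zK, PK, HK, hfinK, hρz, hz, hk⟩ :=
    tres5ki_point 𝔫E 𝔫K H hfin hpK hGF hGA hGt hGLK hfixL hfixF hG𝔫 h𝔫K W hWdom hWmax hGW ρ
      hρG hρ
  exact ⟨zK, PK, HK, hfinK, hρz, hz, hk, fun i =>
    tresmzi_step_of_point_hom 𝔫E 𝔫K H hGF hGA hGt hfixF hG𝔫 h𝔫K ρ hρ HK hfinK hz ρK hρK i⟩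

end PointStep

end Fermat.Agent.R38


end ZBR38_033_0

/-! ### bundled: `Fermat.Agent.R38.TresKFormInstN` -/
section ZBR38_033_1
/-
ROW 38, TRES, piece FAC-KFORM, Layer 3, `hnode` (helper64; twin of helper48's
`tres5ki_hsplit_abs`, R38/TresKFormInstA.lean): `hsplit` WITH THE STEP RELATION OF THE DESCENDED
DECK TRANSFORMATION `ρK`, abstract chart frame.

`tres5kin_hnode_abs` has EXACTLY the binders of `tres5ki_hsplit_abs` followed by
`(ρK : LK →ₐ[FK] LK) (hρK : ∀ y, algebraMap LK L (ρK y) = ρ (algebraMap LK L y))`, and its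
conclusion is the conclusion of `tres5ki_hsplit_abs` (the last clause in parentheses) together with

  `∀ i : ZMod p, ∃ b ∈ tres5eMax ↥(atLoc 𝔫K) zK (i.val : ↥(atLoc 𝔫K)),
      ρK zK = algebraMap ↥(atLoc 𝔫K) LK ((i + 1).val : ↥(atLoc 𝔫K)) + b`.

`tres5kin_hsplitJ_abs` : the same in the EXACT shape of the body of `hsplitJ` of helper41's
`tresmt_loc` (R38/TresMonoTop.lean) / `hnode` of helper14's `tresmzi_main_zmod`:
`∃ z P c, Tres5eSplit FK z P c ∧ ∀ i, ∃ b ∈ tres5eMax _ z (c i), ρK z = algebraMap _ LK (c (i+1)) + b`.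
-/

set_option autoImplicit false
set_option linter.style.haveILetI false
set_option linter.unusedSectionVars false
set_option linter.unusedVariables false
set_option linter.style.longLine false

noncomputable section

namespace Fermat.Agent.R38

open Polynomial Fermat.Agent.UNIP Fermat.Agent.INJ Fermat.Agent.RIB.MP IntermediateField

section Layer3N

variable {G : Type*} [Group G] [Finite G] {L : Type*} [Field L] [MulSemiringAction G L]
  {AE EE FE : Type*} [CommRing AE] [IsDomain AE] [IsDiscreteValuationRing AE]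
  [Field EE] [Algebra AE EE] [IsFractionRing AE EE] [CharZero EE]
  [Field FE] [Algebra EE FE] [Algebra AE FE] [IsScalarTower AE EE FE] [Algebra FE L]
  {AK EK FK : Type*} [CommRing AK] [IsDomain AK] [IsDiscreteValuationRing AK]
  [Field EK] [Algebra AK EK] [IsFractionRing AK EK] [CharZero EK]
  [Field FK] [Algebra EK FK] [Algebra AK FK] [IsScalarTower AK EK FK]
  [Algebra AK AE] [Algebra FK FE] [Algebra AK FE]
  [IsScalarTower AK AE FE] [IsScalarTower AK FK FE]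
  {t : FK} {πE : AE} {πK : AK}
  {LK : Type*} [Field LK] [Algebra FK LK] [Algebra LK L] [Algebra FK L]
  [IsScalarTower FK LK L] [IsScalarTower FK FE L]
  {p : ℕ} [hp : Fact p.Prime]

/-- **`hnode`, abstract chart frame**: `hsplit` with the step relation of `ρK`. -/
theorem tres5kin_hnode_abs [Algebra.IsIntegral AK AE]
    [FiniteDimensional EE⟮algebraMap FK FE t⟯ FE]
    (hπE : Irreducible πE) (hπK : algebraMap AK AE πK ≠ 0) (hpK : πK ∣ (p : AK))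
    (VE : ValuationSubring FE) (VK : ValuationSubring FK)
    (hBV : ∀ x : FE, IsIntegral (Algebra.adjoin AE ({algebraMap FK FE t} : Set FE)) x → x ∈ VE)
    (hVK : VK = VE.comap (algebraMap FK FE))
    (W₀ : ValuationSubring L) (hW₀V : ∀ x ∈ VE, algebraMap FE L x ∈ W₀)
    (hGW₀ : ∀ (g : G), ∀ x ∈ W₀, g • x ∈ W₀)
    (hGsub : ∀ (g : G), ∀ x ∈ W₀, g • x - x ∈ W₀.nonunits)
    (hGF : ∀ (g : G) (x : FE), ∃ x' : FE, g • algebraMap FE L x = algebraMap FE L x')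
    (hGA : ∀ (g : G) (a : AE), ∃ a' : AE,
      g • algebraMap FE L (algebraMap AE FE a) = algebraMap FE L (algebraMap AE FE a'))
    (hGt : ∀ g : G, g • algebraMap FE L (algebraMap FK FE t) =
      algebraMap FE L (algebraMap FK FE t))
    (hGLK : ∀ (g : G) (y : LK), g • algebraMap LK L y = algebraMap LK L y)
    (hfixL : ∀ x : L, (∀ g : G, g • x = x) → ∃ y : LK, algebraMap LK L y = x)
    (hfixF : ∀ x : FE, (∀ g : G, g • algebraMap FE L x = algebraMap FE L x) →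
      ∃ y : FK, algebraMap FK FE y = x)
    (hfin : Module.finrank FE L = p)
    (ρ : L ≃ₐ[FE] L) (hρG : ∀ (g : G) x, ρ (g • x) = g • ρ x)
    (hBig : ∀ 𝔫E : AtPt (F := FE) πE (algebraMap FK FE t), atThrough 𝔫E VE →
      ∀ [IsLocalRing ↥(atLoc 𝔫E)] [IsFractionRing ↥(atLoc 𝔫E) FE]
        [IsIntegrallyClosed ↥(atLoc 𝔫E)] [Algebra ↥(atLoc 𝔫E) L]
        [IsScalarTower ↥(atLoc 𝔫E) FE L],
        ∃ (z : L) (P : (↥(atLoc 𝔫E))[X]) (c : ZMod p → ↥(atLoc 𝔫E)),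
          Tres5eSplit FE z P c ∧
          ∀ i : ZMod p, ∃ b ∈ tres5eMax ↥(atLoc 𝔫E) z (c i),
            ρ z = algebraMap ↥(atLoc 𝔫E) L (c (i + 1)) + (b : L))
    (𝔫K : AtPt (F := FK) πK t) (hthr : atThrough 𝔫K VK)
    [IsLocalRing ↥(atLoc 𝔫K)] [IsFractionRing ↥(atLoc 𝔫K) FK] [IsIntegrallyClosed ↥(atLoc 𝔫K)]
    [Algebra ↥(atLoc 𝔫K) LK] [IsScalarTower ↥(atLoc 𝔫K) FK LK]
    (ρK : LK →ₐ[FK] LK) (hρK : ∀ y : LK, algebraMap LK L (ρK y) = ρ (algebraMap LK L y)) :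
    ∃ (zK : LK) (PK : (↥(atLoc 𝔫K))[X]),
      Tres5eSplit FK zK PK (fun k : ZMod p => ((k.val : ℕ) : ↥(atLoc 𝔫K))) ∧
      Module.finrank FK LK = p ∧
      ρ (algebraMap LK L zK) ≠ algebraMap LK L zK ∧
      (∃ k : ZMod p,
        ∀ (_ : (tres5eMax ↥(atLoc 𝔫K) zK ((k.val : ℕ) : ↥(atLoc 𝔫K))).IsPrime),
          ∀ x ∈ ls_localSubring (F := LK) (tres5eMax ↥(atLoc 𝔫K) zK ((k.val : ℕ) : ↥(atLoc 𝔫K))),
            algebraMap LK L x ∈ W₀) ∧
      ∀ i : ZMod p, ∃ b ∈ tres5eMax ↥(atLoc 𝔫K) zK ((i.val : ℕ) : ↥(atLoc 𝔫K)),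
        ρK zK = algebraMap ↥(atLoc 𝔫K) LK (((i + 1).val : ℕ) : ↥(atLoc 𝔫K)) + (b : LK) := by
  -- the point over the big field
  obtain ⟨𝔫E, h𝔫K, hthrE⟩ := tres5kq_exists_through (AE := AE) (FE := FE) hπE hπK VE VK hBV hVK
    𝔫K hthr
  haveI hlocE : IsLocalRing ↥(atLoc 𝔫E) := tres5bp_isLocalRing 𝔫E
  haveI hfrE : IsFractionRing ↥(atLoc 𝔫E) FE :=
    tres5bp_isFractionRing (A₀ := AE) (E := EE) (algebraMap FK FE t) 𝔫E
  haveI hicE : IsIntegrallyClosed ↥(atLoc 𝔫E) :=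
    tres5bp_isIntegrallyClosed (A₀ := AE) (E := EE) (algebraMap FK FE t) 𝔫E
  letI algE : Algebra ↥(atLoc 𝔫E) L := ((algebraMap FE L).comp (atLoc 𝔫E).subtype).toAlgebra
  haveI towE : IsScalarTower ↥(atLoc 𝔫E) FE L := IsScalarTower.of_algebraMap_eq fun _ => rfl
  obtain ⟨z, P, c, H, hρ⟩ := hBig 𝔫E hthrE
  -- the Gauss sheet contains the local ring
  have hW₀ : ∀ x ∈ atLoc 𝔫E, algebraMap FE L x ∈ W₀ := fun x hx =>
    hW₀V x (tres5kq_loc_le VE hBV 𝔫E hthrE hx)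
  -- a `G`-stable valuation ring dominating the local ring
  obtain ⟨W, hle, hWdom, hWmax, hGW⟩ := tres5kd_atLoc 𝔫E W₀ hGW₀ hGsub hW₀
  have hG𝔫 := tres5ki_stable 𝔫E W hWdom hWmax hGW
  obtain ⟨zK, PK, hT, hfinK, hρz, -, ⟨k, -, hk2⟩, hstep⟩ :=
    tresmzi_point_step_hom 𝔫E 𝔫K H hfin hpK hGF hGA hGt hGLK hfixL hfixF hG𝔫 h𝔫K W hWdom hWmax
      hGW ρ hρG hρ ρK hρK
  exact ⟨zK, PK, hT, hfinK, hρz, ⟨k, fun h x hx => hle (hk2 h x hx)⟩, hstep⟩

/-- **`hsplitJ`, abstract chart frame**, in the shape of `tresmt_loc` / `tresmzi_main_zmod`. -/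
theorem tres5kin_hsplitJ_abs [Algebra.IsIntegral AK AE]
    [FiniteDimensional EE⟮algebraMap FK FE t⟯ FE]
    (hπE : Irreducible πE) (hπK : algebraMap AK AE πK ≠ 0) (hpK : πK ∣ (p : AK))
    (VE : ValuationSubring FE) (VK : ValuationSubring FK)
    (hBV : ∀ x : FE, IsIntegral (Algebra.adjoin AE ({algebraMap FK FE t} : Set FE)) x → x ∈ VE)
    (hVK : VK = VE.comap (algebraMap FK FE))
    (W₀ : ValuationSubring L) (hW₀V : ∀ x ∈ VE, algebraMap FE L x ∈ W₀)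
    (hGW₀ : ∀ (g : G), ∀ x ∈ W₀, g • x ∈ W₀)
    (hGsub : ∀ (g : G), ∀ x ∈ W₀, g • x - x ∈ W₀.nonunits)
    (hGF : ∀ (g : G) (x : FE), ∃ x' : FE, g • algebraMap FE L x = algebraMap FE L x')
    (hGA : ∀ (g : G) (a : AE), ∃ a' : AE,
      g • algebraMap FE L (algebraMap AE FE a) = algebraMap FE L (algebraMap AE FE a'))
    (hGt : ∀ g : G, g • algebraMap FE L (algebraMap FK FE t) =
      algebraMap FE L (algebraMap FK FE t))
    (hGLK : ∀ (g : G) (y : LK), g • algebraMap LK L y = algebraMap LK L y)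
    (hfixL : ∀ x : L, (∀ g : G, g • x = x) → ∃ y : LK, algebraMap LK L y = x)
    (hfixF : ∀ x : FE, (∀ g : G, g • algebraMap FE L x = algebraMap FE L x) →
      ∃ y : FK, algebraMap FK FE y = x)
    (hfin : Module.finrank FE L = p)
    (ρ : L ≃ₐ[FE] L) (hρG : ∀ (g : G) x, ρ (g • x) = g • ρ x)
    (hBig : ∀ 𝔫E : AtPt (F := FE) πE (algebraMap FK FE t), atThrough 𝔫E VE →
      ∀ [IsLocalRing ↥(atLoc 𝔫E)] [IsFractionRing ↥(atLoc 𝔫E) FE]
        [IsIntegrallyClosed ↥(atLoc 𝔫E)] [Algebra ↥(atLoc 𝔫E) L]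
        [IsScalarTower ↥(atLoc 𝔫E) FE L],
        ∃ (z : L) (P : (↥(atLoc 𝔫E))[X]) (c : ZMod p → ↥(atLoc 𝔫E)),
          Tres5eSplit FE z P c ∧
          ∀ i : ZMod p, ∃ b ∈ tres5eMax ↥(atLoc 𝔫E) z (c i),
            ρ z = algebraMap ↥(atLoc 𝔫E) L (c (i + 1)) + (b : L))
    (𝔫K : AtPt (F := FK) πK t) (hthr : atThrough 𝔫K VK)
    [IsLocalRing ↥(atLoc 𝔫K)] [IsFractionRing ↥(atLoc 𝔫K) FK] [IsIntegrallyClosed ↥(atLoc 𝔫K)]
    [Algebra ↥(atLoc 𝔫K) LK] [IsScalarTower ↥(atLoc 𝔫K) FK LK]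
    (ρK : LK →ₐ[FK] LK) (hρK : ∀ y : LK, algebraMap LK L (ρK y) = ρ (algebraMap LK L y)) :
    ∃ (z : LK) (P : (↥(atLoc 𝔫K))[X]) (c : ZMod p → ↥(atLoc 𝔫K)),
      Tres5eSplit FK z P c ∧
      ∀ i : ZMod p, ∃ b ∈ tres5eMax ↥(atLoc 𝔫K) z (c i),
        ρK z = algebraMap ↥(atLoc 𝔫K) LK (c (i + 1)) + (b : LK) := by
  obtain ⟨zK, PK, hT, -, -, -, hstep⟩ :=
    tres5kin_hnode_abs (EE := EE) hπE hπK hpK VE VK hBV hVK W₀ hW₀V hGW₀ hGsub hGF hGA hGt hGLK hfixL hfixF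
      hfin ρ hρG hBig 𝔫K hthr ρK hρK
  exact ⟨zK, PK, fun k : ZMod p => ((k.val : ℕ) : ↥(atLoc 𝔫K)), hT, hstep⟩

end Layer3N

end Fermat.Agent.R38

end


end ZBR38_033_1

/-! ### bundled: `Fermat.Agent.R38.TresKFormInstC` -/
section ZBR38_033_2
/-
ROW 38, TRES, piece FAC-KFORM, Layer 3 (helper48): THE CONCRETE `hsplitJ` — the split structure
of the cover `L_K / F_{Mq}(K)`, `K = ℚ̄^I = beta0Field A`, at EVERY closed point of a chart of
`X₀(M q)` over `A ∩ K` lying on the component `V_∞`, WITH the step relation of the descended deck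
transformation `ρK`.

Concrete frame of helper47's `R38/TresKFormPtsInst.lean`: `E ⊇ K` (`h : beta0Field A ≤ E`),
`A_K = beta0Ring A K`, `A_E = beta0Ring A E` discrete valuation rings, `F_K = F_{Mq}(K)`,
`F_E = F_{Mq}(E)`, `L_K = tres5cL K (M q) y`, `L_E = tres5cL E (M q) y` (helper78),
`G = Gal(E / K)` acting coefficientwise on `L_E` (helper29 `tres5ffAct`), Gauss sheet
`W₀ = tres5kivW` (helper53).

* `tres5kic_pi_dvd`      : `hpK`, the uniformizer of `A_K` divides the residue characteristic;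
* `tres5kic_hsplit_chart`: **Layer 3, any chart** `tK ∈ F_K` with `E`-chart `tE = incl tK`:
     from `hBig` (the split structure over `E` at the closed points of the `E`-chart on `V_∞`,
     with the deck congruences, FAC-BIG at the points) the body of `hsplitJ` of `tresmt_loc`
     at every closed point of the `K`-chart on `V_∞`
     (= helper64's `tres5kin_hsplitJ_abs` = `tres5ki_hsplit_abs` + step, all instances plugged in);
* `tres5kic_hsplitJ`     : the chart `j` — VERBATIM `hsplitJ` of helper41's `tresmt_loc` /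
     `hKF` of helper92's `tres5npa_all` at `L := L_K`;
* `tres5kic_hsplitJinv`  : the chart `1 / j` (all closed points on `V_∞`, with the step).
-/

set_option autoImplicit false
set_option linter.style.haveILetI false
set_option linter.unusedSectionVars false
set_option linter.unusedVariables false
set_option linter.style.longLine false
set_option synthInstance.maxHeartbeats 400000
set_option maxHeartbeats 1600000

noncomputable section

open ModularCurve Polynomial Fermat.Agent.INJ Fermat.Agent.UNIP IntermediateField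
  Fermat.Agent.RIB.MP

namespace Fermat.Agent.R38


section Conc

variable {A : ValuationSubring NfQb} {q M : ℕ} [NeZero q] [NeZero M] [NeZero (M * q)]
  {E : IntermediateField ℚ NfQb}
  [IsDiscreteValuationRing ↥(beta0Ring A (beta0Field A))]
  {π₀ : ↥(beta0Ring A (beta0Field A))} (hπ₀ : Irreducible π₀)
  [IsDiscreteValuationRing ↥(beta0Ring A E)] {π₁ : ↥(beta0Ring A E)} (hπ₁ : Irreducible π₁)
  (ιC₀ : ↥(beta0Field A) →+* ℂ) (ιC₁ : ↥E →+* ℂ)
  (hq : q.Prime) (hqM : ¬ q ∣ M) (hA : A.LiesOverPrime q) (h : beta0Field A ≤ E)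
  (y : LaurentSeries NfQb)
  (hstabI : ∀ σ ∈ A.inertiaSubgroupIn ℚ, ∀ x ∈ tres5cField (M * q) y,
    coeffMap ((σ : NfQb ≃ₐ[ℚ] NfQb) : NfQb →+* NfQb) x ∈ tres5cField (M * q) y)

include hπ₀ hA in
/-- **(hpK)** the uniformizer of `A ∩ K` divides the residue characteristic -/
theorem tres5kic_pi_dvd : π₀ ∣ ((q : ℕ) : ↥(beta0Ring A (beta0Field A))) := by
  have hmem : ((q : ℕ) : ↥(beta0Ring A (beta0Field A))) ∈
      IsLocalRing.maximalIdeal ↥(beta0Ring A (beta0Field A)) := by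
    rw [beta0Ring_mem_maximalIdeal_iff]
    have : ((((q : ℕ) : ↥(beta0Ring A (beta0Field A))) : ↥(beta0Field A)) : NfQb)
        = ((q : ℕ) : NfQb) := by simp
    rw [this]
    exact hA
  rw [(IsDiscreteValuationRing.irreducible_iff_uniformizer π₀).1 hπ₀] at hmem
  exact Ideal.mem_span_singleton.1 hmem

include hπ₀ hπ₁ hq hA in
/-- **Layer 3, any chart.**  `tK ∈ F_K` a chart coordinate with `E`-chart `tE = incl tK` lying in
`V_∞` (`hBV`), `F_E / E(tE)` finite; `ρ` an automorphism of `L_E / F_E` commuting with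
`G = Gal(E / K)`, `ρK` its descent to `L_K`; `hBig` : the split structure with the congruences of
`ρ` at every closed point of the `E`-chart on `V_∞`.  Then at every closed point of the `K`-chart
on `V_∞` the cover `L_K / F_K` has the split structure, with the step relation of `ρK`. -/
theorem tres5kic_hsplit_chart [Fact q.Prime]
    (tK : ↥(modularFunctionFieldFullC ↥(beta0Field A) (M * q)))
    (tE : ↥(modularFunctionFieldFullC ↥E (M * q)))
    (ht : tres5cBaseIncl (M * q) h tK = tE)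
    (hfdK : FiniteDimensional (↥(beta0Field A))⟮tK⟯
      ↥(modularFunctionFieldFullC ↥(beta0Field A) (M * q)))
    (hfd : FiniteDimensional (↥E)⟮tE⟯ ↥(modularFunctionFieldFullC ↥E (M * q)))
    (hBV : ∀ x : ↥(modularFunctionFieldFullC ↥E (M * q)),
      IsIntegral ↥(Algebra.adjoin ↥(beta0Ring A E)
        ({tE} : Set ↥(modularFunctionFieldFullC ↥E (M * q)))) x →
      x ∈ mgvV hπ₁ ιC₁ hq hqM true)
    (hE : ∀ σ ∈ A.inertiaSubgroupIn ℚ, ∀ x ∈ E, σ x ∈ E)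
    (hfinE : letI := beta0FieldAlgebra h
      FiniteDimensional ↥(beta0Field A) ↥E)
    (hfrac : ∀ x : ↥(tres5cL E (M * q) y),
      VtFrac (algebraMap ↥(beta0Ring A E) ↥E) (tres5kivEmb (E := E) (M * q) y x))
    (hfin : Module.finrank ↥(modularFunctionFieldFullC ↥E (M * q)) ↥(tres5cL E (M * q) y) = q)
    (ρ : ↥(tres5cL E (M * q) y) ≃ₐ[↥(modularFunctionFieldFullC ↥E (M * q))]
      ↥(tres5cL E (M * q) y))
    (hρG : letI := beta0FieldAlgebra h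
      letI := tres5ffAct hq hA h (M * q) y hstabI
      ∀ (g : ↥E ≃ₐ[↥(beta0Field A)] ↥E) (x : ↥(tres5cL E (M * q) y)), ρ (g • x) = g • ρ x)
    (hBig : ∀ 𝔫E : AtPt (F := ↥(modularFunctionFieldFullC ↥E (M * q))) π₁ tE,
      atThrough 𝔫E (mgvV hπ₁ ιC₁ hq hqM true) →
      ∀ [IsLocalRing ↥(atLoc 𝔫E)]
        [IsFractionRing ↥(atLoc 𝔫E) ↥(modularFunctionFieldFullC ↥E (M * q))]
        [IsIntegrallyClosed ↥(atLoc 𝔫E)] [Algebra ↥(atLoc 𝔫E) ↥(tres5cL E (M * q) y)]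
        [IsScalarTower ↥(atLoc 𝔫E) ↥(modularFunctionFieldFullC ↥E (M * q))
          ↥(tres5cL E (M * q) y)],
        ∃ (z : ↥(tres5cL E (M * q) y)) (P : (↥(atLoc 𝔫E))[X]) (c : ZMod q → ↥(atLoc 𝔫E)),
          Tres5eSplit ↥(modularFunctionFieldFullC ↥E (M * q)) z P c ∧
          ∀ i : ZMod q, ∃ b ∈ tres5eMax ↥(atLoc 𝔫E) z (c i),
            ρ z = algebraMap ↥(atLoc 𝔫E) ↥(tres5cL E (M * q) y) (c (i + 1)) +
              (b : ↥(tres5cL E (M * q) y)))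
    (ρK : ↥(tres5cL (beta0Field A) (M * q) y) →ₐ[↥(modularFunctionFieldFullC
      ↥(beta0Field A) (M * q))] ↥(tres5cL (beta0Field A) (M * q) y))
    (hρK : ∀ f : ↥(tres5cL (beta0Field A) (M * q) y),
      tres5cIncl (M * q) y h (ρK f) = ρ (tres5cIncl (M * q) y h f)) :
    ∀ 𝔫 : AtPt (F := ↥(modularFunctionFieldFullC ↥(beta0Field A) (M * q))) π₀ tK,
      atThrough 𝔫 (mgvV hπ₀ ιC₀ hq hqM true) → ∀ [IsLocalRing ↥(atLoc 𝔫)],
        letI : Algebra ↥(atLoc 𝔫) ↥(tres5cL (beta0Field A) (M * q) y) :=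
          Algebra.ofSubsemiring (atLoc 𝔫)
        ∃ (z : ↥(tres5cL (beta0Field A) (M * q) y)) (P : (↥(atLoc 𝔫))[X])
          (c : ZMod q → ↥(atLoc 𝔫)),
          Tres5eSplit ↥(modularFunctionFieldFullC ↥(beta0Field A) (M * q)) z P c ∧
          ∀ i : ZMod q, ∃ b ∈ tres5eMax ↥(atLoc 𝔫) z (c i),
            ρK z = algebraMap ↥(atLoc 𝔫) ↥(tres5cL (beta0Field A) (M * q) y) (c (i + 1)) +
              (b : ↥(tres5cL (beta0Field A) (M * q) y)) := by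
  intro 𝔫 hthr iloc
  subst ht
  letI iAK : Algebra ↥(atLoc 𝔫) ↥(tres5cL (beta0Field A) (M * q) y) :=
    Algebra.ofSubsemiring (atLoc 𝔫)
  letI := tres5cAlgFF (K := beta0Field A) (E := E) (M * q) h
  letI := tres5kigAlgAA (A := A) h
  letI := tres5kigAlgAF (A := A) h (M * q)
  letI := beta0FieldAlgebra h
  letI := tres5ffAct hq hA h (M * q) y hstabI
  letI := tres5cAlgLL (K := beta0Field A) (E := E) (M * q) y h
  letI := tres5cAlgFL (K := beta0Field A) (E := E) (M * q) y h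
  haveI := tres5kig_tower_AAF (A := A) h (M * q)
  haveI := tres5kig_tower_AFF (A := A) h (M * q)
  haveI := tres5kig_isIntegral hq hA h
  haveI := tres5c_tower_FFL (K := beta0Field A) (E := E) (M * q) y h
  haveI := tres5c_tower_FLL (K := beta0Field A) (E := E) (M * q) y h
  haveI := tres5ff_inst_finite h hfinE
  haveI : FiniteDimensional
      (↥E)⟮algebraMap ↥(modularFunctionFieldFullC ↥(beta0Field A) (M * q))
        ↥(modularFunctionFieldFullC ↥E (M * q)) tK⟯ ↥(modularFunctionFieldFullC ↥E (M * q)) := hfd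
  haveI : FiniteDimensional (↥(beta0Field A))⟮tK⟯
      ↥(modularFunctionFieldFullC ↥(beta0Field A) (M * q)) := hfdK
  -- the Gauss sheet lies over `V_∞`
  have hW₀V : ∀ x ∈ mgvV hπ₁ ιC₁ hq hqM true,
      algebraMap ↥(modularFunctionFieldFullC ↥E (M * q)) ↥(tres5cL E (M * q) y) x ∈
        tres5kivW hπ₁ (M * q) y hfrac := by
    intro x hx
    have hc : (tres5kivW hπ₁ (M * q) y hfrac).comap
        (algebraMap ↥(modularFunctionFieldFullC ↥E (M * q)) ↥(tres5cL E (M * q) y)) =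
        mgvV hπ₁ ιC₁ hq hqM true := tres5kivW_comap_vtInf hπ₁ (M * q) y hfrac
    rw [← hc] at hx
    exact hx
  haveI hfrK : IsFractionRing ↥(atLoc 𝔫) ↥(modularFunctionFieldFullC ↥(beta0Field A) (M * q)) :=
    tres5bp_isFractionRing (A₀ := ↥(beta0Ring A (beta0Field A))) (E := ↥(beta0Field A)) tK 𝔫
  haveI hicK : IsIntegrallyClosed ↥(atLoc 𝔫) :=
    tres5bp_isIntegrallyClosed (A₀ := ↥(beta0Ring A (beta0Field A))) (E := ↥(beta0Field A)) tK 𝔫
  haveI towK : IsScalarTower ↥(atLoc 𝔫) ↥(modularFunctionFieldFullC ↥(beta0Field A) (M * q))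
      ↥(tres5cL (beta0Field A) (M * q) y) := IsScalarTower.of_algebraMap_eq fun _ => rfl
  exact tres5kin_hsplitJ_abs (G := ↥E ≃ₐ[↥(beta0Field A)] ↥E) (EE := ↥E)
    (AE := ↥(beta0Ring A E)) (AK := ↥(beta0Ring A (beta0Field A)))
    (FE := ↥(modularFunctionFieldFullC ↥E (M * q)))
    (FK := ↥(modularFunctionFieldFullC ↥(beta0Field A) (M * q)))
    (L := ↥(tres5cL E (M * q) y)) (LK := ↥(tres5cL (beta0Field A) (M * q) y)) (p := q)
    hπ₁ (tres5kqi_pi_ne_zero hπ₀ h) (tres5kic_pi_dvd hπ₀ hA)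
    (mgvV hπ₁ ιC₁ hq hqM true) (mgvV hπ₀ ιC₀ hq hqM true) hBV
    (tres5kiv_hVK hπ₀ hπ₁ ιC₀ ιC₁ hq hqM h true)
    (tres5kivW hπ₁ (M * q) y hfrac) hW₀V
    (tres5kivW_smul_mem hπ₁ hq hA h (M * q) y hstabI hfrac)
    (tres5kivW_sub_mem hπ₁ hq hA h (M * q) y hstabI hfrac)
    (fun g x => (tres5ff_inst_hGF hq hA h (M * q) y hstabI g x).imp fun _ hx => hx.1)
    (fun g a => (tres5ff_inst_hGA hq hA h (M * q) y hstabI g a).imp fun _ ha => ha.1)
    (fun g => tres5ff_inst_hGt hq hA h (M * q) y hstabI g tK)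
    (tres5ff_inst_hGLK hq hA h (M * q) y hstabI)
    (tres5ff_inst_hfixL hq hA h (M * q) y hstabI hE)
    (tres5ff_inst_hfixF hq hA h (M * q) y hstabI hE)
    hfin ρ hρG hBig 𝔫 hthr ρK hρK

include hπ₀ hπ₁ hq hA in
/-- **Layer 3, chart `j`** = `hsplitJ` of `tresmt_loc` (helper41) / `hKF` of `tres5npa_all`
(helper92), VERBATIM at `L := L_K`. -/
theorem tres5kic_hsplitJ [Fact q.Prime]
    (hE : ∀ σ ∈ A.inertiaSubgroupIn ℚ, ∀ x ∈ E, σ x ∈ E)
    (hfinE : letI := beta0FieldAlgebra h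
      FiniteDimensional ↥(beta0Field A) ↥E)
    (hfrac : ∀ x : ↥(tres5cL E (M * q) y),
      VtFrac (algebraMap ↥(beta0Ring A E) ↥E) (tres5kivEmb (E := E) (M * q) y x))
    (hfin : Module.finrank ↥(modularFunctionFieldFullC ↥E (M * q)) ↥(tres5cL E (M * q) y) = q)
    (ρ : ↥(tres5cL E (M * q) y) ≃ₐ[↥(modularFunctionFieldFullC ↥E (M * q))]
      ↥(tres5cL E (M * q) y))
    (hρG : letI := beta0FieldAlgebra h
      letI := tres5ffAct hq hA h (M * q) y hstabI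
      ∀ (g : ↥E ≃ₐ[↥(beta0Field A)] ↥E) (x : ↥(tres5cL E (M * q) y)), ρ (g • x) = g • ρ x)
    (hBig : ∀ 𝔫E : AtPt (F := ↥(modularFunctionFieldFullC ↥E (M * q))) π₁ (bgJ ↥E (M * q)),
      atThrough 𝔫E (mgvV hπ₁ ιC₁ hq hqM true) →
      ∀ [IsLocalRing ↥(atLoc 𝔫E)]
        [IsFractionRing ↥(atLoc 𝔫E) ↥(modularFunctionFieldFullC ↥E (M * q))]
        [IsIntegrallyClosed ↥(atLoc 𝔫E)] [Algebra ↥(atLoc 𝔫E) ↥(tres5cL E (M * q) y)]
        [IsScalarTower ↥(atLoc 𝔫E) ↥(modularFunctionFieldFullC ↥E (M * q))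
          ↥(tres5cL E (M * q) y)],
        ∃ (z : ↥(tres5cL E (M * q) y)) (P : (↥(atLoc 𝔫E))[X]) (c : ZMod q → ↥(atLoc 𝔫E)),
          Tres5eSplit ↥(modularFunctionFieldFullC ↥E (M * q)) z P c ∧
          ∀ i : ZMod q, ∃ b ∈ tres5eMax ↥(atLoc 𝔫E) z (c i),
            ρ z = algebraMap ↥(atLoc 𝔫E) ↥(tres5cL E (M * q) y) (c (i + 1)) +
              (b : ↥(tres5cL E (M * q) y)))
    (ρK : ↥(tres5cL (beta0Field A) (M * q) y) →ₐ[↥(modularFunctionFieldFullC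
      ↥(beta0Field A) (M * q))] ↥(tres5cL (beta0Field A) (M * q) y))
    (hρK : ∀ f : ↥(tres5cL (beta0Field A) (M * q) y),
      tres5cIncl (M * q) y h (ρK f) = ρ (tres5cIncl (M * q) y h f)) :
    ∀ 𝔫 : AtPt (F := ↥(modularFunctionFieldFullC ↥(beta0Field A) (M * q))) π₀ (bgJ ↥(beta0Field A) (M * q)),
      atThrough 𝔫 (mgvV hπ₀ ιC₀ hq hqM true) → ∀ [IsLocalRing ↥(atLoc 𝔫)],
        letI : Algebra ↥(atLoc 𝔫) ↥(tres5cL (beta0Field A) (M * q) y) :=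
          Algebra.ofSubsemiring (atLoc 𝔫)
        ∃ (z : ↥(tres5cL (beta0Field A) (M * q) y)) (P : (↥(atLoc 𝔫))[X])
          (c : ZMod q → ↥(atLoc 𝔫)),
          Tres5eSplit ↥(modularFunctionFieldFullC ↥(beta0Field A) (M * q)) z P c ∧
          ∀ i : ZMod q, ∃ b ∈ tres5eMax ↥(atLoc 𝔫) z (c i),
            ρK z = algebraMap ↥(atLoc 𝔫) ↥(tres5cL (beta0Field A) (M * q) y) (c (i + 1)) +
              (b : ↥(tres5cL (beta0Field A) (M * q) y)) :=
  tres5kic_hsplit_chart hπ₀ hπ₁ ιC₀ ιC₁ hq hqM hA h y hstabI _ _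
    (tres5pi_baseIncl_bgJ h (M * q)) (ribmp_fc_fin (K₀ := beta0Field A) (M * q))
    (ribmp_fc_fin (K₀ := E) (M * q)) (mgv_hBV₁ hπ₁ ιC₁ hq hqM true)
    hE hfinE hfrac hfin ρ hρG hBig ρK hρK

include hπ₀ hπ₁ hq hA in
/-- **Layer 3, chart `1 / j`**, all closed points on `V_∞`, with the step relation of `ρK`. -/
theorem tres5kic_hsplitJinv [Fact q.Prime]
    (hE : ∀ σ ∈ A.inertiaSubgroupIn ℚ, ∀ x ∈ E, σ x ∈ E)
    (hfinE : letI := beta0FieldAlgebra h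
      FiniteDimensional ↥(beta0Field A) ↥E)
    (hfrac : ∀ x : ↥(tres5cL E (M * q) y),
      VtFrac (algebraMap ↥(beta0Ring A E) ↥E) (tres5kivEmb (E := E) (M * q) y x))
    (hfin : Module.finrank ↥(modularFunctionFieldFullC ↥E (M * q)) ↥(tres5cL E (M * q) y) = q)
    (ρ : ↥(tres5cL E (M * q) y) ≃ₐ[↥(modularFunctionFieldFullC ↥E (M * q))]
      ↥(tres5cL E (M * q) y))
    (hρG : letI := beta0FieldAlgebra h
      letI := tres5ffAct hq hA h (M * q) y hstabI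
      ∀ (g : ↥E ≃ₐ[↥(beta0Field A)] ↥E) (x : ↥(tres5cL E (M * q) y)), ρ (g • x) = g • ρ x)
    (hBig : ∀ 𝔫E : AtPt (F := ↥(modularFunctionFieldFullC ↥E (M * q))) π₁ (bgJ ↥E (M * q))⁻¹,
      atThrough 𝔫E (mgvV hπ₁ ιC₁ hq hqM true) →
      ∀ [IsLocalRing ↥(atLoc 𝔫E)]
        [IsFractionRing ↥(atLoc 𝔫E) ↥(modularFunctionFieldFullC ↥E (M * q))]
        [IsIntegrallyClosed ↥(atLoc 𝔫E)] [Algebra ↥(atLoc 𝔫E) ↥(tres5cL E (M * q) y)]
        [IsScalarTower ↥(atLoc 𝔫E) ↥(modularFunctionFieldFullC ↥E (M * q))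
          ↥(tres5cL E (M * q) y)],
        ∃ (z : ↥(tres5cL E (M * q) y)) (P : (↥(atLoc 𝔫E))[X]) (c : ZMod q → ↥(atLoc 𝔫E)),
          Tres5eSplit ↥(modularFunctionFieldFullC ↥E (M * q)) z P c ∧
          ∀ i : ZMod q, ∃ b ∈ tres5eMax ↥(atLoc 𝔫E) z (c i),
            ρ z = algebraMap ↥(atLoc 𝔫E) ↥(tres5cL E (M * q) y) (c (i + 1)) +
              (b : ↥(tres5cL E (M * q) y)))
    (ρK : ↥(tres5cL (beta0Field A) (M * q) y) →ₐ[↥(modularFunctionFieldFullC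
      ↥(beta0Field A) (M * q))] ↥(tres5cL (beta0Field A) (M * q) y))
    (hρK : ∀ f : ↥(tres5cL (beta0Field A) (M * q) y),
      tres5cIncl (M * q) y h (ρK f) = ρ (tres5cIncl (M * q) y h f)) :
    ∀ 𝔫 : AtPt (F := ↥(modularFunctionFieldFullC ↥(beta0Field A) (M * q))) π₀ (bgJ ↥(beta0Field A) (M * q))⁻¹,
      atThrough 𝔫 (mgvV hπ₀ ιC₀ hq hqM true) → ∀ [IsLocalRing ↥(atLoc 𝔫)],
        letI : Algebra ↥(atLoc 𝔫) ↥(tres5cL (beta0Field A) (M * q) y) :=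
          Algebra.ofSubsemiring (atLoc 𝔫)
        ∃ (z : ↥(tres5cL (beta0Field A) (M * q) y)) (P : (↥(atLoc 𝔫))[X])
          (c : ZMod q → ↥(atLoc 𝔫)),
          Tres5eSplit ↥(modularFunctionFieldFullC ↥(beta0Field A) (M * q)) z P c ∧
          ∀ i : ZMod q, ∃ b ∈ tres5eMax ↥(atLoc 𝔫) z (c i),
            ρK z = algebraMap ↥(atLoc 𝔫) ↥(tres5cL (beta0Field A) (M * q) y) (c (i + 1)) +
              (b : ↥(tres5cL (beta0Field A) (M * q) y)) :=
  tres5kic_hsplit_chart hπ₀ hπ₁ ιC₀ ιC₁ hq hqM hA h y hstabI _ _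
    (tres5pi_baseIncl_bgJ_inv h (M * q)) (ribmp_fc_fin_inv (K₀ := beta0Field A) (M * q))
    (ribmp_fc_fin_inv (K₀ := E) (M * q)) (mgv_hBV₂ hπ₁ ιC₁ hq hqM true)
    hE hfinE hfrac hfin ρ hρG hBig ρK hρK

end Conc

end Fermat.Agent.R38

end


end ZBR38_033_2

/-! ### bundled: `Fermat.Agent.R38.TresMonoTopJ` -/
section ZBR38_033_3

/-!
# ROW 38, TRES, the cover block (β): the hypothesis `hsplitJ` of `tresmt_loc` from the OUTPUT
clauses of `tres5bit_descend` (helper47)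

Frame of helper16's `tres5bit_descend` (`R38/TresBigInstT.lean`): `A ⊂ ℚ̄` over `q`,
`K = beta0Field A = ℚ̄^I`, `E = mgcE A K₁ = K · K₁`, `S : Tres5Kum F_E L_E V_∞ q` the Kummer datum
over the big field, `L_E = tres5cL E (M q) y`, `L_K = tres5cL K (M q) y`, `ρK` the descended deck
transformation (`tres5cIncl (ρK f) = S.deck (tres5cIncl f)`).

* `tresmtc_hsplitJ_bit`: **`hsplitJ` of `tresmt_loc` VERBATIM** at
                         `L := ↥(tres5cL (beta0Field A) (M * q) y)` (helper48's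
                         `tres5kic_hsplitJ`), hypotheses = output clauses of `tres5bit_descend`
                         and the toric line (`hw hy hle htor`);
* `tresmtc_hsplitJinv_bit`: the same at the chart `1 / j` (with the step).
-/

set_option autoImplicit false
set_option linter.style.haveILetI false
set_option linter.unusedSectionVars false
set_option linter.unusedVariables false
set_option linter.style.longLine false
set_option synthInstance.maxHeartbeats 400000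
set_option maxHeartbeats 1600000

/- the algebra structure of a subring `O ⊆ F` on an extension of `F`: found first (the default
search is slow in the concrete frame; the instance found is the same). -/
attribute [local instance 100000] Algebra.ofSubsemiring

noncomputable section

namespace Fermat.Agent.R38

open ModularCurve AlgebraicCurve IntermediateField Polynomial Fermat.Agent.INJ Fermat.Agent.UNIP
  Fermat.Agent.STB Fermat.Agent.ES Fermat.Agent.ES.G2 Fermat.Agent.S33 Fermat.Agent.RIB.MP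

section BitJ

variable {q M : ℕ} [NeZero q] [NeZero M] [NeZero (M * q)]
  {A : ValuationSubring Qb} {K₁ : IntermediateField ℚ Qb}
  [IsDiscreteValuationRing ↥(mgcA A K₁)]
  [IsDiscreteValuationRing ↥(beta0Ring A (beta0Field A))]
  {π : ↥(mgcA A K₁)} (hπ : Irreducible π)
  {π₀ : ↥(beta0Ring A (beta0Field A))} (hπ₀ : Irreducible π₀)
  (ιC : ↥(mgcE A K₁) →+* ℂ) (ιC₀ : ↥(beta0Field A) →+* ℂ)
  (hq : q.Prime) (hqM : ¬ q ∣ M) (hA : A.LiesOverPrime q)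
  {y : LaurentSeries NfQb}

include hπ hπ₀ hA in
/-- **`hsplitJ` of `tresmt_loc`, VERBATIM**, at `L := ↥(tres5cL (beta0Field A) (M * q) y)`:
hypotheses = the toric line and the output clauses of `tres5bit_descend`. -/
theorem tresmtc_hsplitJ_bit [Fact q.Prime] [NumberField K₁] [IsGalois ℚ K₁]
    {N : ℕ} [NeZero N] {z₀ : JZero N}
    {w₀ : modularFunctionFieldBar N} (hw : KummerRel q z₀ w₀)
    (hy : y ^ q = (w₀ : LaurentSeries NfQb))
    (hle : modularFunctionFieldBar N ≤ modularFunctionFieldBar (M * q))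
    (htor : ∀ τ ∈ A.inertiaSubgroupIn ℚ, τ • z₀ = ExtCitation.cycloExp q τ • z₀)
    {ζ : ↥(mgcA A K₁)} (hζ : IsPrimitiveRoot ζ q)
    {u₀ : ↥(mgcF A K₁ (M * q))} {yE : LaurentSeries ↥(mgcE A K₁)}
    (hyE : coeffMap (algebraMap ↥(mgcE A K₁) NfQb) yE = y)
    (S : Tres5Kum ↥(mgcF A K₁ (M * q)) ↥(tres5cL (mgcE A K₁) (M * q) y)
      (mgvV hπ ιC hq hqM true) q)
    (hfracY : VtFrac (algebraMap ↥(mgcA A K₁) ↥(mgcE A K₁))
      ((S.y : ↥(tres5cL (mgcE A K₁) (M * q) y)) : LaurentSeries ↥(mgcE A K₁)))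
    (hSζ : S.ζ = algebraMap ↥(mgcA A K₁) ↥(mgcF A K₁ (M * q)) ζ)
    (hSw : S.w = u₀)
    (hSy : S.y = tres5cGenL (mgcE A K₁) (M * q) y hyE)
    (hpt : ∀ i, ∃ g : ↥(mgcF A K₁ (M * q)), g ≠ 0 ∧ ∃ y' ∈ atO π (mgcT A K₁ (M * q)) i,
      u₀ / g ^ q - 1 =
        (algebraMap ↥(mgcA A K₁) ↥(mgcF A K₁ (M * q)) ζ - 1) ^ q *
          algebraMap ↥(mgcA A K₁) ↥(mgcF A K₁ (M * q)) π * y')
    (ρK : ↥(tres5cL (beta0Field A) (M * q) y) →ₐ[↥(modularFunctionFieldFullC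
      ↥(beta0Field A) (M * q))] ↥(tres5cL (beta0Field A) (M * q) y))
    (hρ : ∀ f : ↥(tres5cL (beta0Field A) (M * q) y),
      tres5cIncl (M * q) y (le_sup_left : beta0Field A ≤ mgcE A K₁) (ρK f) =
        S.deck (tres5cIncl (M * q) y (le_sup_left : beta0Field A ≤ mgcE A K₁) f)) :
    ∀ 𝔫 : AtPt (F := ↥(modularFunctionFieldFullC ↥(beta0Field A) (M * q))) π₀
        (bgJ ↥(beta0Field A) (M * q)),
      atThrough 𝔫 (mgvV hπ₀ ιC₀ hq hqM true) → ∀ [IsLocalRing ↥(atLoc 𝔫)],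
        ∃ (z : ↥(tres5cL (beta0Field A) (M * q) y)) (P : (↥(atLoc 𝔫))[X])
          (c : ZMod q → ↥(atLoc 𝔫)),
          Tres5eSplit ↥(modularFunctionFieldFullC ↥(beta0Field A) (M * q)) z P c ∧
          ∀ i : ZMod q, ∃ b ∈ tres5eMax ↥(atLoc 𝔫) z (c i),
            ρK z = algebraMap ↥(atLoc 𝔫) ↥(tres5cL (beta0Field A) (M * q) y) (c (i + 1)) +
              (b : ↥(tres5cL (beta0Field A) (M * q) y)) := by
  intro 𝔫 hthr _
  exact tres5kic_hsplitJ hπ₀ hπ ιC₀ ιC hq hqM hA (le_sup_left : beta0Field A ≤ mgcE A K₁) y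
    (tres5ff_hstabI_cyclo hw hy hle htor) (tres5ff_mgcE_stable K₁)
    (tres5ff_mgcE_finite K₁ hq hA) (tres5kiv_frac hπ (M * q) y S.htop hfracY) S.finrank_eq
    S.deck (tresmtc_hρG hπ ιC hq hqM hA hw hy hle htor hyE S hSζ hSy)
    (fun 𝔫E _ _ _ _ _ _ => tresmtc_hBig_j hπ ιC hq hqM hA hζ S hSζ hSw hpt 𝔫E) ρK hρ 𝔫 hthr

include hπ hπ₀ hA in
/-- the same at the chart `1 / j` (all closed points on `V_∞`, with the step of `ρK`) -/
theorem tresmtc_hsplitJinv_bit [Fact q.Prime] [NumberField K₁] [IsGalois ℚ K₁]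
    {N : ℕ} [NeZero N] {z₀ : JZero N}
    {w₀ : modularFunctionFieldBar N} (hw : KummerRel q z₀ w₀)
    (hy : y ^ q = (w₀ : LaurentSeries NfQb))
    (hle : modularFunctionFieldBar N ≤ modularFunctionFieldBar (M * q))
    (htor : ∀ τ ∈ A.inertiaSubgroupIn ℚ, τ • z₀ = ExtCitation.cycloExp q τ • z₀)
    {ζ : ↥(mgcA A K₁)} (hζ : IsPrimitiveRoot ζ q)
    {u₀ : ↥(mgcF A K₁ (M * q))} {yE : LaurentSeries ↥(mgcE A K₁)}
    (hyE : coeffMap (algebraMap ↥(mgcE A K₁) NfQb) yE = y)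
    (S : Tres5Kum ↥(mgcF A K₁ (M * q)) ↥(tres5cL (mgcE A K₁) (M * q) y)
      (mgvV hπ ιC hq hqM true) q)
    (hfracY : VtFrac (algebraMap ↥(mgcA A K₁) ↥(mgcE A K₁))
      ((S.y : ↥(tres5cL (mgcE A K₁) (M * q) y)) : LaurentSeries ↥(mgcE A K₁)))
    (hSζ : S.ζ = algebraMap ↥(mgcA A K₁) ↥(mgcF A K₁ (M * q)) ζ)
    (hSw : S.w = u₀)
    (hSy : S.y = tres5cGenL (mgcE A K₁) (M * q) y hyE)
    (hpt : ∀ i, ∃ g : ↥(mgcF A K₁ (M * q)), g ≠ 0 ∧ ∃ y' ∈ atO π (mgcT A K₁ (M * q)) i,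
      u₀ / g ^ q - 1 =
        (algebraMap ↥(mgcA A K₁) ↥(mgcF A K₁ (M * q)) ζ - 1) ^ q *
          algebraMap ↥(mgcA A K₁) ↥(mgcF A K₁ (M * q)) π * y')
    (ρK : ↥(tres5cL (beta0Field A) (M * q) y) →ₐ[↥(modularFunctionFieldFullC
      ↥(beta0Field A) (M * q))] ↥(tres5cL (beta0Field A) (M * q) y))
    (hρ : ∀ f : ↥(tres5cL (beta0Field A) (M * q) y),
      tres5cIncl (M * q) y (le_sup_left : beta0Field A ≤ mgcE A K₁) (ρK f) =
        S.deck (tres5cIncl (M * q) y (le_sup_left : beta0Field A ≤ mgcE A K₁) f)) :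
    ∀ 𝔫 : AtPt (F := ↥(modularFunctionFieldFullC ↥(beta0Field A) (M * q))) π₀
        (bgJ ↥(beta0Field A) (M * q))⁻¹,
      atThrough 𝔫 (mgvV hπ₀ ιC₀ hq hqM true) → ∀ [IsLocalRing ↥(atLoc 𝔫)],
        ∃ (z : ↥(tres5cL (beta0Field A) (M * q) y)) (P : (↥(atLoc 𝔫))[X])
          (c : ZMod q → ↥(atLoc 𝔫)),
          Tres5eSplit ↥(modularFunctionFieldFullC ↥(beta0Field A) (M * q)) z P c ∧
          ∀ i : ZMod q, ∃ b ∈ tres5eMax ↥(atLoc 𝔫) z (c i),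
            ρK z = algebraMap ↥(atLoc 𝔫) ↥(tres5cL (beta0Field A) (M * q) y) (c (i + 1)) +
              (b : ↥(tres5cL (beta0Field A) (M * q) y)) := by
  intro 𝔫 hthr _
  exact tres5kic_hsplitJinv hπ₀ hπ ιC₀ ιC hq hqM hA (le_sup_left : beta0Field A ≤ mgcE A K₁) y
    (tres5ff_hstabI_cyclo hw hy hle htor) (tres5ff_mgcE_stable K₁)
    (tres5ff_mgcE_finite K₁ hq hA) (tres5kiv_frac hπ (M * q) y S.htop hfracY) S.finrank_eq
    S.deck (tresmtc_hρG hπ ιC hq hqM hA hw hy hle htor hyE S hSζ hSy)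
    (fun 𝔫E _ _ _ _ _ _ => tresmtc_hBig_inv hπ ιC hq hqM hA hζ S hSζ hSw hpt 𝔫E) ρK hρ 𝔫 hthr

end BitJ

end Fermat.Agent.R38

end
end ZBR38_033_3

/-! ### bundled: `Fermat.Agent.R38.TresMonoTopB` -/
section ZBR38_033_4
/-
ROW 38, TRES, piece FAC-ASM-MAIN, the COVER BLOCK (β) of the top of `StmtMonoCover` (helper41),
part 3: **`stmtMonoCoverData : StmtMonoCoverData`**.

Frame of helper89's `StmtMonoCoverData` (`R38/TresMonoTopA.lean`): rigid level `4 M`,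
`K = beta0Field A`, `π = p`, `ιC = mgdIota K`, `hRedF = stmtRedF`.

Wiring: `u` := a Kummer function of `x`, `r` := its Gauss reduction (`tresmi5_main`),
`z₀ := σ₀ x − x`, `w₀ := σ₀ u / u` (`tresline_kummer`), `y ^ p = w₀` (`tresdesc_exists_root`),
(IN) (helper9), the `T`-instance (helper16's `tres5bit_descend`, `tres5bit_exists`),
Layer 3 (helper48 / helper47 / helper52), and the core `tresmtb_core`.
-/

set_option autoImplicit false
set_option linter.unusedSectionVars false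
set_option linter.unusedVariables false
set_option linter.style.haveILetI false
set_option linter.style.longLine false
set_option synthInstance.maxHeartbeats 400000
set_option maxHeartbeats 12800000

attribute [local instance 100000] Algebra.ofSubsemiring

noncomputable section

namespace Fermat.Agent.R38

open ModularCurve AlgebraicCurve IntermediateField Polynomial Fermat.Agent.INJ Fermat.Agent.UNIP
  Fermat.Agent.STB Fermat.Agent.S36 Fermat.Agent.S33 Fermat.Agent.RIB.MP Fermat.Agent.RT.K6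
  Fermat.Agent.AL Fermat.Agent.ES Fermat.Agent.ES.G2 Fermat.Agent.ES.M
  Fermat.Agent.DEU Fermat.Agent.S24 ExtCitation

/-- **THE COVER BLOCK of `StmtMonoCover`.** -/
theorem stmtMonoCoverData : StmtMonoCoverData := by
  intro M p _ _ _ _ _ _ hp hpM hpM4 h5 A hA _ x hx hα hβ hpeu σ₀ hσ₀ hz hpz hzα hzβ htriv htor
    hspan
  classical
  have hπ₀ := beta0Ring_irreducible_q (A := A) hp hA
  -- the Kummer function of `x` and its Gauss reduction
  obtain ⟨u, hu⟩ := exists_kummerRel (n := p) hx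
  obtain ⟨r, -, hred⟩ := tresmi5_main hp hpM hA u hu.ne_zero
  -- the Kummer function of `z₀ = σ₀ x − x` and its `p`-th root
  have hw : KummerRel p (σ₀ • x - x) (gcInertiaOp (M * p) σ₀ u) := tresline_kummer hu σ₀
  obtain ⟨y, hy⟩ := tresdesc_exists_root hp.ne_zero hw
  have hle : modularFunctionFieldBar (M * p) ≤ modularFunctionFieldBar (M * 4 * p) :=
    stb_d_le M p 4
  -- (IN)
  have hdivw : ∀ P : Place Qb (modularFunctionFieldBar (M * 4 * p)),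
      (p : ℤ) ∣ P.ord (⟨((gcInertiaOp (M * p) σ₀ u : modularFunctionFieldBar (M * p)) :
        LaurentSeries NfQb), hle (gcInertiaOp (M * p) σ₀ u).2⟩ :
          modularFunctionFieldBar (M * 4 * p)) :=
    fun P => tresdesck_up_hdiv M p 4 hw hle P
  have hsplit : IsSplitFn hp hpM4 A
      (⟨((gcInertiaOp (M * p) σ₀ u : modularFunctionFieldBar (M * p)) : LaurentSeries NfQb),
        hle (gcInertiaOp (M * p) σ₀ u).2⟩ : modularFunctionFieldBar (M * 4 * p)) :=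
    tres5binc_hsplit M p 4 hpM hpM4 A hA hle (σ₀ • x - x) hzα hzβ htriv
      (gcInertiaOp (M * p) σ₀ u) hw
  have hnp : ∀ c : ↥(modularFunctionFieldBar (M * 4 * p)),
      c ^ p ≠ (⟨((gcInertiaOp (M * p) σ₀ u : modularFunctionFieldBar (M * p)) :
        LaurentSeries NfQb), hle (gcInertiaOp (M * p) σ₀ u).2⟩ :
          modularFunctionFieldBar (M * 4 * p)) := by
    have hcop : Nat.Coprime 6 p := by
      have h2 : Nat.Coprime 2 p := (Nat.coprime_primes Nat.prime_two hp).mpr (by omega)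
      have h3 : Nat.Coprime 3 p := (Nat.coprime_primes Nat.prime_three hp).mpr (by omega)
      have : (6 : ℕ) = 2 * 3 := by norm_num
      rw [this]
      exact Nat.Coprime.mul_left h2 h3
    exact tres5bind_hw 2 (by ring : M * 4 * p = 2 ^ 2 * (M * p)) hcop hp.ne_zero hw hz hle
  -- the `T`-instance
  obtain ⟨K₀', hK₀', hdesc⟩ := tres5bit_descend hp hpM4 (by omega) (fun h3 => by omega) A hA hw hy
    hle htor hdivw hsplit hnp
  obtain ⟨K₁, nf, gal, dvr1, dvr0, ζ, hK₁le, hζ⟩ := tres5bit_exists hp A hA K₀' hK₀'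
  haveI := nf
  haveI := gal
  haveI := dvr1
  obtain ⟨π₁, hπ₁⟩ := IsDiscreteValuationRing.exists_irreducible ↥(mgcA A K₁)
  obtain ⟨u₀, yE, hyE, S, hfracY, T, ρK, hKum, hnine, hshape⟩ :=
    hdesc K₁ hK₁le hπ₁ hπ₀ (mgdIota (mgcE A K₁)) (mgdIota (beta0Field A)) hζ
  obtain ⟨hu₀, hyu, hw', hSζ, hSπ, hSw, hSy, hsh⟩ := hKum
  obtain ⟨hTπ, hTc, hTz, hTW, hGauss, hρ, hWρ, hfinrank, htop⟩ := hnine
  -- Layer 3
  have hsplitJ := tresmtc_hsplitJ_bit hπ₁ hπ₀ (mgdIota (mgcE A K₁)) (mgdIota (beta0Field A)) hp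
    hpM4 hA hw hy hle htor hζ hyE S hfracY hSζ hSw hSy hshape ρK hρ
  have hsplitC := tresmtc_hsplitC_bit hπ₁ hπ₀ (mgdIota (mgcE A K₁)) (mgdIota (beta0Field A)) hp
    hpM4 hA hw hy hle htor hζ hyE S hfracY hSζ hSw hSy hshape
  -- the inputs of the core
  have hSy' := tresmtc_coeffMap_y hπ₁ (mgdIota (mgcE A K₁)) hp hpM4 hyE S hSy
  have hSζ' := tresmtc_coeffMap_ζ hπ₁ (mgdIota (mgcE A K₁)) hp hpM4 S hSζ
  have hζQ : IsPrimitiveRoot (((ζ : ↥(mgcE A K₁)) : Qb)) p :=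
    hζ.map_of_injective (f := (algebraMap ↥(mgcE A K₁) Qb).comp (mgcA A K₁).subtype)
      (fun a b hab => wmg_coe_injective hab)
  have hK₁fd : FiniteDimensional ℚ K₁ := inferInstance
  -- split generators over all bigger fields
  have hS₂ : ∀ K₂ : IntermediateField ℚ NfQb, K₁ ≤ K₂ → FiniteDimensional ℚ K₂ →
      IsGalois ℚ K₂ →
      ∃ (_ : IsDiscreteValuationRing ↥(beta0Ring A (mgcE A K₂)))
        (π₂ : ↥(beta0Ring A (mgcE A K₂))) (hπ₂ : Irreducible π₂) (ιC₂ : ↥(mgcE A K₂) →+* ℂ)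
        (n₂ : ℕ)
        (S₂ : Tres5Gen ↥(modularFunctionFieldFullC ↥(mgcE A K₂) (M * 4 * p))
          ↥(tres5cL (mgcE A K₂) (M * 4 * p) y)
          (mgvV hπ₂ ιC₂ hp hpM4 true) n₂),
        S₂.π = algebraMap ↥(beta0Ring A (mgcE A K₂))
          ↥(modularFunctionFieldFullC ↥(mgcE A K₂) (M * 4 * p)) π₂ := by
    intro K₂ hK₂le hK₂fd hK₂gal
    haveI : NumberField K₂ := @NumberField.mk _ _ inferInstance hK₂fd
    haveI := hK₂gal
    haveI dvr2 : IsDiscreteValuationRing ↥(mgcA A K₂) := beta0Ring_isDVR_sup K₂ hp hA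
    obtain ⟨π₂, hπ₂⟩ := IsDiscreteValuationRing.exists_irreducible ↥(mgcA A K₂)
    have hmem : (((ζ : ↥(mgcE A K₁)) : Qb)) ∈ mgcE A K₂ :=
      (sup_le_sup_left hK₂le (beta0Field A)) (ζ : ↥(mgcE A K₁)).2
    obtain ⟨u₀', yE', hyE', S', hfracY', T', ρK', hKum', -, -⟩ :=
      hdesc K₂ (hK₁le.trans hK₂le) hπ₂ hπ₀ (mgdIota (mgcE A K₂)) (mgdIota (beta0Field A))
        (wmg_zeta_prim hp hζQ hmem)
    exact ⟨dvr2, π₂, hπ₂, mgdIota (mgcE A K₂), p, S'.gen, hKum'.2.2.2.2.1⟩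
  -- the core
  obtain ⟨W, hWV, ρW, hρW, hρWker, Y, hY, c, hfin, hcusp, hcmp⟩ :=
    tresmtb_core (N := M * p) (M' := M * 4) A hA hπ₀ (mgdIota (beta0Field A)) hp hpM4
      ⟨fun _ => Dvd.intro_left M rfl, fun h2 => absurd h2 (by omega)⟩
      (stmtRedF (M * 4) A p hp hpM4 hA) hu hw hy hle hspan hpeu htor
      (fun Q => tresdesck_up_hdiv M p 4 hu hle Q)
      (le_sup_left : beta0Field A ≤ mgcE A K₁) S hSy' hSζ' ρK hρ T hTπ hsplitJ hsplitC
      K₁ hK₁fd hS₂ hred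
  exact ⟨u, r, ↥(tres5cL (beta0Field A) (M * 4 * p) y), inferInstance, inferInstance, W, ρW, Y,
    hY, c, hu, hred, hWV, hρW, hρWker, hfin, hcusp, hcmp⟩

end Fermat.Agent.R38

end


end ZBR38_033_4
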