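/- GENERATED FILE (helper35, build-time optimisation, NOTES/ZB.md): verbatim concatenation of the modules
   Fermat.Agent.PET.Eigen
   Fermat.Agent.S58.GlueChi
   Do not edit; do not import together with these modules. -/
import Fermat.Agent.ZB.PET_002
import Fermat.Agent.ZB.S49_001
import Mathlib

/-! ### bundled: `Fermat.Agent.PET.Eigen` -/
section ZBPET_003_0

/-!
# PET: simultaneous eigenbasis for the anemic Hecke algebra

`exists_eigenbasis`: `S_k(Γ₀(N))` has a basis of simultaneous eigenvectors of all elements of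
`CuspForm.heckeAlgebra N k S` (`S ⊇ {primes dividing N}`).
`exists_eigenchar_ne_zero`: the eigencharacters separate the points of the Hecke algebra.
-/

namespace Fermat.Agent.PET

open MeasureTheory Set UpperHalfPlane ModularGroup Matrix.SpecialLinearGroup CongruenceSubgroup
open scoped Pointwise Modular MatrixGroups ENNReal NNReal ComplexConjugate ModularForm

variable (N : ℕ) [NeZero N] (k : ℤ)

/-- The Petersson product as an `InnerProductSpace.Core`. -/
noncomputable def cpetCore : InnerProductSpace.Core ℂ (CuspForm (Gamma0 N) k) where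
  inner := cpet
  conj_inner_symm x y := (cpet_conj_symm y x).symm
  re_inner_nonneg x := by
    obtain ⟨c, hc, h⟩ := cpet_self_nonneg x
    rw [h]
    simpa using hc
  add_left := cpet_add_left
  smul_left x y r := cpet_smul_left r x y
  definite _ := eq_zero_of_cpet_self_eq_zero

theorem exists_eigenbasis {S : Set ℕ} (hS : ∀ q : ℕ, q.Prime → q ∣ N → q ∈ S) :
    ∃ (ι : Type) (_ : Fintype ι) (b : Module.Basis ι ℂ (CuspForm (Gamma0 N) k)),
      ∀ t ∈ CuspForm.heckeAlgebra N k S, ∀ i, ∃ c : ℂ, t (b i) = c • b i := by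
  classical
  letI core : InnerProductSpace.Core ℂ (CuspForm (Gamma0 N) k) := cpetCore N k
  letI : NormedAddCommGroup (CuspForm (Gamma0 N) k) := core.toNormedAddCommGroup
  letI : InnerProductSpace ℂ (CuspForm (Gamma0 N) k) := InnerProductSpace.ofCore core.toCore
  haveI : FiniteDimensional ℂ (CuspForm (Gamma0 N) k) := S49.finiteDimensional_cuspForm N k
  let T : CuspForm.heckeAlgebra N k S → Module.End ℂ (CuspForm (Gamma0 N) k) := fun t => t.1
  have hT : ∀ t, (T t).IsSymmetric := fun t x y =>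
    isPetSymm_of_mem_heckeAlgebra N k hS t.2 x y
  have hC : Pairwise (Function.onFun Commute T) := fun s t _ =>
    congrArg Subtype.val (mul_comm s t)
  have hint := LinearMap.IsSymmetric.directSum_isInternal_of_pairwise_commute hT hC
  let v : ∀ χ : CuspForm.heckeAlgebra N k S → ℂ,
      Module.Basis (Module.Basis.ofVectorSpaceIndex ℂ
        (⨅ j, Module.End.eigenspace (T j) (χ j) : Submodule ℂ (CuspForm (Gamma0 N) k))) ℂ
        (⨅ j, Module.End.eigenspace (T j) (χ j) : Submodule ℂ (CuspForm (Gamma0 N) k)) :=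
    fun χ => Module.Basis.ofVectorSpace ℂ _
  let b := hint.collectedBasis v
  refine ⟨_, FiniteDimensional.fintypeBasisIndex b, b, fun t ht i => ⟨i.1 ⟨t, ht⟩, ?_⟩⟩
  have hmem := hint.collectedBasis_mem v i
  have h2 := (Submodule.mem_iInf _).1 hmem ⟨t, ht⟩
  exact Module.End.mem_eigenspace_iff.1 h2

end Fermat.Agent.PET

namespace Fermat.Agent.PET

open CongruenceSubgroup

section eigenchar

variable {V : Type*} [AddCommGroup V] [Module ℂ V]

/-- The eigencharacter of a common eigenvector of a subalgebra of `End V`. -/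
noncomputable def eigenChar (A : Subalgebra ℤ (Module.End ℂ V)) (f : V) (hf : f ≠ 0)
    (h : ∀ s ∈ A, ∃ c : ℂ, s f = c • f) : A →+* ℂ where
  toFun s := (h s.1 s.2).choose
  map_one' := by
    have h1 := (h (1 : A).1 (1 : A).2).choose_spec
    show (h (1 : A).1 (1 : A).2).choose = 1
    generalize (h (1 : A).1 (1 : A).2).choose = c1 at h1 ⊢
    refine smul_left_injective ℂ hf ?_
    show c1 • f = (1 : ℂ) • f
    rw [← h1]; simp
  map_mul' s t := by
    have h1 := (h (s * t).1 (s * t).2).choose_spec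
    have hs := (h s.1 s.2).choose_spec
    have ht := (h t.1 t.2).choose_spec
    show (h (s * t).1 (s * t).2).choose = (h s.1 s.2).choose * (h t.1 t.2).choose
    generalize (h (s * t).1 (s * t).2).choose = cst at h1 ⊢
    generalize (h s.1 s.2).choose = cs at hs ⊢
    generalize (h t.1 t.2).choose = ct at ht ⊢
    refine smul_left_injective ℂ hf ?_
    show cst • f = (cs * ct) • f
    rw [← h1, Subalgebra.coe_mul, Module.End.mul_apply, ht, map_smul, hs, smul_smul, mul_comm]
  map_zero' := by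
    have h1 := (h (0 : A).1 (0 : A).2).choose_spec
    show (h (0 : A).1 (0 : A).2).choose = 0
    generalize (h (0 : A).1 (0 : A).2).choose = c0 at h1 ⊢
    refine smul_left_injective ℂ hf ?_
    show c0 • f = (0 : ℂ) • f
    rw [← h1]; simp
  map_add' s t := by
    have h1 := (h (s + t).1 (s + t).2).choose_spec
    have hs := (h s.1 s.2).choose_spec
    have ht := (h t.1 t.2).choose_spec
    show (h (s + t).1 (s + t).2).choose = (h s.1 s.2).choose + (h t.1 t.2).choose
    generalize (h (s + t).1 (s + t).2).choose = cst at h1 ⊢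
    generalize (h s.1 s.2).choose = cs at hs ⊢
    generalize (h t.1 t.2).choose = ct at ht ⊢
    refine smul_left_injective ℂ hf ?_
    show cst • f = (cs + ct) • f
    rw [← h1, Subalgebra.coe_add, LinearMap.add_apply, hs, ht, add_smul]

theorem eigenChar_spec (A : Subalgebra ℤ (Module.End ℂ V)) (f : V) (hf : f ≠ 0)
    (h : ∀ s ∈ A, ∃ c : ℂ, s f = c • f) (s : A) : (s : Module.End ℂ V) f = eigenChar A f hf h s • f :=
  (h s.1 s.2).choose_spec

end eigenchar

variable (N : ℕ) [NeZero N] (k : ℤ)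

/-- The eigencharacters of simultaneous eigenforms separate the points of the anemic Hecke
algebra: for `t ≠ 0` there are an eigenform `f ≠ 0` and a ring homomorphism `χ` to `ℂ` with
`s f = χ s • f` for all `s` and `χ t ≠ 0`. -/
theorem exists_eigenchar_ne_zero {S : Set ℕ} (hS : ∀ q : ℕ, q.Prime → q ∣ N → q ∈ S)
    {t : CuspForm.heckeAlgebra N k S} (ht : t ≠ 0) :
    ∃ (f : CuspForm (Gamma0 N) k) (χ : CuspForm.heckeAlgebra N k S →+* ℂ), f ≠ 0 ∧
      (∀ s : CuspForm.heckeAlgebra N k S,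
        (s : Module.End ℂ (CuspForm (Gamma0 N) k)) f = χ s • f) ∧ χ t ≠ 0 := by
  obtain ⟨ι, _, b, hb⟩ := exists_eigenbasis N k hS
  have hex : ∃ i, (t : Module.End ℂ (CuspForm (Gamma0 N) k)) (b i) ≠ 0 := by
    by_contra hcon
    push Not at hcon
    refine ht (Subtype.ext ?_)
    exact b.ext fun i => by simpa using hcon i
  obtain ⟨i, hi⟩ := hex
  have hbi : b i ≠ 0 := b.ne_zero i
  refine ⟨b i, eigenChar _ (b i) hbi fun s hs => hb s hs i, hbi,
    eigenChar_spec _ (b i) hbi _, fun h0 => hi ?_⟩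
  rw [eigenChar_spec _ (b i) hbi (fun s hs => hb s hs i) t, h0, zero_smul]

end Fermat.Agent.PET


end ZBPET_003_0

/-! ### bundled: `Fermat.Agent.S58.GlueChi` -/
section ZBPET_003_1

/-!
# S58 GLUE, brick CHI (helper66): the eigencharacter of a normalised eigenform

For a normalised eigenform `g` of level `M` and a set `S` containing the primes dividing `M`,
the Hecke algebra away from `S` acts on `g` through a ring homomorphism `chig` to `ℂ` with
`chig T_ℓ = a_ℓ(g)`, and the range of `chig` lies in every subring of `ℂ` containing the `a_ℓ(g)`,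
`ℓ ∉ S`.
-/

set_option autoImplicit false

namespace Fermat.Agent.S58

open CongruenceSubgroup ModularFormClass

variable {M : ℕ} [NeZero M]

/-- every element of the Hecke algebra away from `S ⊇ primes(M)` acts on a normalised eigenform
by a scalar from any subring containing the eigenvalues `a_ℓ`, `ℓ ∉ S` -/
theorem s58g_eigen (g : CuspForm (Gamma0 M) 2) (hg : g.IsNormalizedEigenform) (S : Set ℕ)
    (hMS : ∀ q : ℕ, q.Prime → q ∣ M → q ∈ S) (R : Subring ℂ)
    (hR : ∀ ℓ : ℕ, ℓ.Prime → ¬ ℓ ∣ M → ℓ ∉ S → qCoeff ⇑g ℓ ∈ R)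
    (s : Module.End ℂ (CuspForm (Gamma0 M) 2)) (hs : s ∈ CuspForm.heckeAlgebra M 2 S) :
    ∃ c : ℂ, c ∈ R ∧ s g = c • g := by
  unfold CuspForm.heckeAlgebra at hs
  induction hs using Algebra.adjoin_induction with
  | mem x hx =>
    rcases hx with ⟨ℓ, hℓ, hℓM, hℓS, rfl⟩ | ⟨q, hqM, hq, hqS, rfl⟩
    · exact ⟨qCoeff ⇑g ℓ, hR ℓ hℓ hℓM hℓS,
        Fermat.Agent.S42.heckeTLin_apply_eq_smul g hg hℓ hℓM⟩
    · exact absurd (hMS q hq hqM) hqS
  | algebraMap r =>
    refine ⟨(r : ℂ), intCast_mem R r, ?_⟩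
    rw [Algebra.algebraMap_eq_smul_one, LinearMap.smul_apply, Module.End.one_apply,
      Int.cast_smul_eq_zsmul]
  | add x y _ _ hx hy =>
    obtain ⟨c, hc, hxc⟩ := hx
    obtain ⟨d, hd, hyd⟩ := hy
    exact ⟨c + d, R.add_mem hc hd, by rw [LinearMap.add_apply, hxc, hyd, add_smul]⟩
  | mul x y _ _ hx hy =>
    obtain ⟨c, hc, hxc⟩ := hx
    obtain ⟨d, hd, hyd⟩ := hy
    exact ⟨c * d, R.mul_mem hc hd, by
      rw [Module.End.mul_apply, hyd, map_smul, hxc, smul_smul, mul_comm]⟩

/-- **CHI**: the eigencharacter. -/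
theorem s58g_exists_chig (g : CuspForm (Gamma0 M) 2) (hg : g.IsNormalizedEigenform)
    (S : Finset ℕ) (hMS : ∀ q : ℕ, q.Prime → q ∣ M → q ∈ S) (R : Subring ℂ)
    (hR : ∀ ℓ : ℕ, ℓ.Prime → ¬ ℓ ∣ M → ℓ ∉ (↑S : Set ℕ) → qCoeff ⇑g ℓ ∈ R) :
    ∃ chig : CuspForm.heckeAlgebra M 2 (↑S : Set ℕ) →+* ℂ,
      (∀ (ℓ : ℕ) (hℓ : ℓ.Prime) (hℓM : ¬ ℓ ∣ M) (hℓS : ℓ ∉ (↑S : Set ℕ)),
        chig (CuspForm.heckeAlgebra.T hℓ hℓM hℓS) = qCoeff ⇑g ℓ) ∧
      ∀ x ∈ chig.range, x ∈ R := by
  have hg0 : g ≠ 0 := Fermat.Agent.S42.normalizedEigenform_ne_zero g hg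
  have hMS' : ∀ q : ℕ, q.Prime → q ∣ M → q ∈ (↑S : Set ℕ) := fun q hq hqM =>
    Finset.mem_coe.mpr (hMS q hq hqM)
  have key := s58g_eigen g hg (↑S : Set ℕ) hMS' R hR
  have hex : ∀ s ∈ CuspForm.heckeAlgebra M 2 (↑S : Set ℕ), ∃ c : ℂ, s g = c • g :=
    fun s hs => (key s hs).imp fun c hc => hc.2
  refine ⟨Fermat.Agent.PET.eigenChar _ g hg0 hex, ?_, ?_⟩
  · intro ℓ hℓ hℓM hℓS
    have h1 := Fermat.Agent.PET.eigenChar_spec _ g hg0 hex (CuspForm.heckeAlgebra.T hℓ hℓM hℓS)
    rw [CuspForm.heckeAlgebra.coe_T, Fermat.Agent.S42.heckeTLin_apply_eq_smul g hg hℓ hℓM] at h1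
    exact (smul_left_injective ℂ hg0 h1).symm
  · rintro x ⟨s, rfl⟩
    obtain ⟨c, hc, hsc⟩ := key s.1 s.2
    have h1 := Fermat.Agent.PET.eigenChar_spec _ g hg0 hex s
    rw [hsc] at h1
    rw [← smul_left_injective ℂ hg0 h1]
    exact hc

/-- a ring homomorphism from a subring of `ℂ` sends integers to integers -/
theorem s58g_iota_int {O' : Type*} [Ring O'] (R : Subring ℂ) (iota : R →+* O') (x : R) (n : ℤ)
    (hx : (x : ℂ) = (n : ℂ)) : iota x = (n : O') := by
  have : x = ((n : ℤ) : R) := Subtype.ext (by rw [hx]; simp)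
  rw [this, map_intCast]

end Fermat.Agent.S58


end ZBPET_003_1
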