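/- GENERATED FILE (helper35, build-time optimisation, NOTES/ZB.md): verbatim concatenation of the modules
   Fermat.Agent.RIB.MP.FrobJ
   Fermat.Agent.RIB.MP.FrobMG
   Fermat.Agent.RIB.MP.FrobFinal
   Do not edit; do not import together with these modules. -/
import Fermat.Agent.ZB.RIB_001
import Fermat.Agent.ZB.ES_001
import Fermat.Agent.ZB.ES_007
import Fermat.Agent.ZB.STB_007
import Fermat.Agent.ZB.STB_008
import Fermat.Agent.ZB.RIB_004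
import Fermat.Agent.ZB.STB_009
import Fermat.Agent.ZB.STB_003
import Fermat.Agent.ZB.UNIP_035
import Fermat.Agent.ZB.STB_001
import Fermat.Agent.ZB.UNIP_014

/-! ### bundled: `Fermat.Agent.RIB.MP.FrobJ` -/
section ZBRIB_012_0
/-
Row 37, Mazur's principle, piece **MP-FROB** (helper3), part 1 (FROB-J): the reduction of
`StmtFrobToric` (classes of `J₀(M₁ q)`) to a statement on Kummer functions.

* `StmtFrobToricKummerAt`, `StmtFrobToricKummer` : for `y₀ ∈ F_N(E₀)^×` (`N = M₁ q`, `E₀` the inertia field of `A`) with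
  `p ^ r ∣ div y₀`, `v_∞(y₀) = v_0(y₀) = 0` and `y₀ ≡ t ^ (p ^ r)` at `v_∞`,
  `y₀ ≡ t' ^ (p ^ r)` at `v_0` (`t, t' ∈ F_N(ℚ̄)`): `σ (w y₀) · y₀ ^ q` is a `p ^ r`-th power
  in `F_N(ℚ̄)`, for every Frobenius element `σ` at `A`.
* `ribmp_frob_pow_of_kummer` : `StmtFrobToricKummer ⇒` `StmtFrobToric` for the exponent `p ^ r`
  (the form `StmtFrobToricPow` needed by K8);
* `ribmp_frob_of_kummer` : `StmtFrobToricKummer → StmtFrobToric`.
-/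

set_option autoImplicit false
set_option linter.unusedSectionVars false
set_option linter.unusedVariables false
set_option linter.style.haveILetI false

noncomputable section

namespace Fermat.Agent.RIB.MP

open ModularCurve AlgebraicCurve Fermat.Agent.ES Fermat.Agent.ES.G2 Fermat.Agent.INJ
  Fermat.Agent.UNIP

/-- **MP-FROB, Kummer form, at `(M₁, q, m, A, σ)`.** -/
def StmtFrobToricKummerAt (M₁ q : ℕ) [NeZero M₁] [NeZero q] [NeZero (M₁ * q)] (hq : q.Prime)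
    (hqM : ¬ q ∣ M₁) (m : ℕ) (A : ValuationSubring Qb) (σ : Qb ≃ₐ[ℚ] Qb) : Prop :=
  ∀ y₀ : modularFunctionFieldFullC (beta0Field A) (M₁ * q), y₀ ≠ 0 →
    (∀ P : Place Qb (modularFunctionFieldBar (M₁ * q)),
      (m : ℤ) ∣ P.ord (nfEmb (beta0Field A) (M₁ * q) y₀)) →
    RibmpGaussUnit (M₁ * q) A (nfEmb (beta0Field A) (M₁ * q) y₀) →
    RibmpGaussUnit (M₁ * q) A
      (atkinLehnerBar hq hqM (nfEmb (beta0Field A) (M₁ * q) y₀)) →
    ∀ t t' : modularFunctionFieldBar (M₁ * q),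
      ReducesToOne A (M₁ * q) (nfEmb (beta0Field A) (M₁ * q) y₀ / t ^ m) →
      ReducesToOne A (M₁ * q)
        (atkinLehnerBar hq hqM (nfEmb (beta0Field A) (M₁ * q) y₀ / t' ^ m)) →
      ∃ h : modularFunctionFieldBar (M₁ * q),
        h ^ m = (arithmeticGalois (modularFunctionFieldFull (M₁ * q)) σ •
          atkinLehnerBar hq hqM (nfEmb (beta0Field A) (M₁ * q) y₀)) *
            nfEmb (beta0Field A) (M₁ * q) y₀ ^ q

/-- **MP-FROB, Kummer form.** -/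
def StmtFrobToricKummer : Prop :=
  ∀ (M₁ q : ℕ) [NeZero M₁] [NeZero q] [NeZero (M₁ * q)] (hq : q.Prime) (hqM : ¬ q ∣ M₁),
    q ≠ 2 → ∀ p : ℕ, p.Prime → 5 ≤ p → p ≠ q → ∀ r : ℕ,
    ∀ A : ValuationSubring Qb, A.LiesOverPrime q →
    ∀ σ : Qb ≃ₐ[ℚ] Qb, A.IsFrobeniusAt σ q →
      StmtFrobToricKummerAt M₁ q hq hqM (p ^ r) A σ

section J

variable {M₁ q : ℕ} [NeZero M₁] [NeZero q] [NeZero (M₁ * q)]

/-- the divisor of a Kummer function is divisible by the exponent -/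
theorem ribmp_frob_dvd_ord {m : ℕ} {x : JZero (M₁ * q)} {u : modularFunctionFieldBar (M₁ * q)}
    (h : KummerRel m x u) (P : Place Qb (modularFunctionFieldBar (M₁ * q))) :
    (m : ℤ) ∣ P.ord u := by
  obtain ⟨D, -, -, hD⟩ := h
  exact ⟨_, (hD P).symm⟩

/-- `eisKill ℓ x` is inertia-fixed when `x` is -/
theorem ribmp_frob_inertiaFixed_eisKill {A : ValuationSubring Qb} {x : JZero (M₁ * q)}
    (hI : InertiaFixed A x) (ℓ : Nat.Primes) : InertiaFixed A (eisKill ℓ x) := by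
  intro σ hσ
  unfold eisKill
  have h1 : σ • (((ℓ : ℕ) + 1) • x) = ((ℓ : ℕ) + 1) • (σ • x) :=
    map_nsmul (DistribSMul.toAddMonoidHom (JZero (M₁ * q)) σ) _ x
  rw [smul_sub, galois_heckeOperatorBar, h1, hI σ hσ]

/-- a Gauss-constant Kummer function gives the toric datum `t` for any other Kummer function -/
theorem ribmp_frob_exists_t {m : ℕ} (hm : m ≠ 0)
    {y : JZero (M₁ * q)} {Y u : modularFunctionFieldBar (M₁ * q)}
    (hY : KummerRel m y Y) (hu : KummerRel m y u) {c : Qb} (hc : c ≠ 0) :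
    ∃ t : modularFunctionFieldBar (M₁ * q), t ≠ 0 ∧
      Y / t ^ m = algebraMap Qb (modularFunctionFieldBar (M₁ * q)) c * u := by
  obtain ⟨k, e, hk, he, hec, hYe⟩ := hu.exists_eq_mul_pow hY
  obtain ⟨a, rfl⟩ := mu_exists_const_of_ord_eq_zero e hec
  have ha : a ≠ 0 := by
    rintro rfl
    exact he (map_zero _)
  obtain ⟨d, hd⟩ := IsAlgClosed.exists_pow_nat_eq (a / c) (Nat.pos_of_ne_zero hm)
  have hd0 : d ≠ 0 := by
    rintro rfl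
    rw [zero_pow hm] at hd
    exact div_ne_zero ha hc hd.symm
  have hd' : algebraMap Qb (modularFunctionFieldBar (M₁ * q)) d ≠ 0 := (map_ne_zero _).2 hd0
  have hc' : algebraMap Qb (modularFunctionFieldBar (M₁ * q)) c ≠ 0 := (map_ne_zero _).2 hc
  refine ⟨algebraMap Qb (modularFunctionFieldBar (M₁ * q)) d * k, mul_ne_zero hd' hk, ?_⟩
  have hkm : k ^ m ≠ 0 := pow_ne_zero m hk
  have hdm : algebraMap Qb (modularFunctionFieldBar (M₁ * q)) d ^ m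
      = algebraMap Qb (modularFunctionFieldBar (M₁ * q)) a /
          algebraMap Qb (modularFunctionFieldBar (M₁ * q)) c := by
    rw [← map_pow, hd, map_div₀]
  rw [hYe, mul_pow, hdm]
  have ha' : algebraMap Qb (modularFunctionFieldBar (M₁ * q)) a ≠ 0 := (map_ne_zero _).2 ha
  field_simp

end J

/-- **FROB-J, local form.**  `StmtFrobToric` at `(M₁, q, p ^ r, A, σ)` from the Kummer form
at `(M₁, q, p ^ r, A, σ)`. -/
theorem ribmp_frob_pow_of_kummerAt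
    (M₁ q : ℕ) [NeZero M₁] [NeZero q] [NeZero (M₁ * q)] (hq : q.Prime) (hqM : ¬ q ∣ M₁)
    (p : ℕ) (hp : p.Prime) (r : ℕ)
    (A : ValuationSubring Qb) (hA : A.LiesOverPrime q)
    (σ : Qb ≃ₐ[ℚ] Qb) (hK : StmtFrobToricKummerAt M₁ q hq hqM (p ^ r) A σ)
    (x : JZero (M₁ * q)) (hx : p ^ r • x = 0) (hI : InertiaFixed A x)
    (ℓ : Nat.Primes) (hℓ : ¬ (ℓ : ℕ) ∣ M₁ * q * p)
    (htor : IsToric hq hqM A (p ^ r) (eisKill ℓ x)) :
    σ • (atkinLehnerBar hq hqM • eisKill ℓ x) + q • eisKill ℓ x = 0 := by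
  haveI : NeZero (ℓ : ℕ) := ⟨ℓ.2.ne_zero⟩
  have hm : p ^ r ≠ 0 := pow_ne_zero r hp.ne_zero
  have hℓN : ¬ (ℓ : ℕ) ∣ M₁ * q := fun h => hℓ (Dvd.dvd.mul_right h p)
  obtain ⟨u₀, hu₀, hxu⟩ := ribmp_desc hq hA hm hx hI
  have hu₀' : nfEmb (beta0Field A) (M₁ * q) u₀ ≠ 0 := (map_ne_zero _).2 hu₀
  obtain ⟨y₀, hy₀⟩ := ribmp_vh_exists_desc hq hA (M₁ * q) (ℓ : ℕ) ℓ.2 hℓN u₀
  have hY : KummerRel (p ^ r) (eisKill ℓ x) (nfEmb (beta0Field A) (M₁ * q) y₀) := by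
    rw [hy₀]
    exact ribmp_vh_kummerRel ℓ hxu
  have hy₀0 : y₀ ≠ 0 := by
    rintro rfl
    exact hY.ne_zero (map_zero _)
  have hU₁ : RibmpGaussUnit (M₁ * q) A (nfEmb (beta0Field A) (M₁ * q) y₀) := by
    rw [hy₀]
    exact ribmp_vh_gaussUnit hq hA (ℓ : ℕ) ℓ.2 hℓN _ hu₀'
  have hU₂ : RibmpGaussUnit (M₁ * q) A
      (atkinLehnerBar hq hqM (nfEmb (beta0Field A) (M₁ * q) y₀)) := by
    rw [hy₀, ribmp_vh_atkinLehnerBar_eisFun hq hqM (ℓ : ℕ) ℓ.2 hℓN]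
    exact ribmp_vh_gaussUnit hq hA (ℓ : ℕ) ℓ.2 hℓN _ ((map_ne_zero _).2 hu₀')
  obtain ⟨⟨u₁, hu₁, c₁, hc₁, hR₁⟩, ⟨u₂, hu₂, c₂, hc₂, hR₂⟩⟩ := htor
  obtain ⟨t, ht0, ht⟩ := ribmp_frob_exists_t hm hY hu₁ hc₁
  obtain ⟨t', ht'0, ht'⟩ := ribmp_frob_exists_t hm hY hu₂ hc₂
  have hT : ReducesToOne A (M₁ * q) (nfEmb (beta0Field A) (M₁ * q) y₀ / t ^ (p ^ r)) := by
    rw [ht]
    exact hR₁
  have hT' : ReducesToOne A (M₁ * q)
      (atkinLehnerBar hq hqM (nfEmb (beta0Field A) (M₁ * q) y₀ / t' ^ (p ^ r))) := by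
    rw [ht', map_mul, AlgEquiv.commutes]
    exact hR₂
  obtain ⟨h, hh⟩ := hK y₀ hy₀0 (ribmp_frob_dvd_ord hY) hU₁ hU₂ t t' hT hT'
  have h1 : KummerRel (p ^ r) (σ • (atkinLehnerBar hq hqM • eisKill ℓ x))
      (arithmeticGalois (modularFunctionFieldFull (M₁ * q)) σ •
        atkinLehnerBar hq hqM (nfEmb (beta0Field A) (M₁ * q) y₀)) :=
    KummerRel.galois σ (ribmp_w_kummerRel hq hqM hY)
  have h2 : KummerRel (p ^ r) (q • eisKill ℓ x) (nfEmb (beta0Field A) (M₁ * q) y₀ ^ q) :=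
    ribmp_vh_kummerRel_nsmul hY q
  have h3 := h1.add h2
  rw [← hh, ← one_mul (h ^ (p ^ r))] at h3
  exact KummerRel.eq_zero_of_pow hm (fun v => v.ord_one) h3

/-- **FROB-J.**  `StmtFrobToric` for the exponent `p ^ r` from the Kummer form. -/
theorem ribmp_frob_pow_of_kummer (hK : StmtFrobToricKummer)
    (M₁ q : ℕ) [NeZero M₁] [NeZero q] [NeZero (M₁ * q)] (hq : q.Prime) (hqM : ¬ q ∣ M₁)
    (hq2 : q ≠ 2) (p : ℕ) (hp : p.Prime) (hp5 : 5 ≤ p) (hpq : p ≠ q) (r : ℕ)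
    (A : ValuationSubring Qb) (hA : A.LiesOverPrime q)
    (σ : Qb ≃ₐ[ℚ] Qb) (hσ : A.IsFrobeniusAt σ q)
    (x : JZero (M₁ * q)) (hx : p ^ r • x = 0) (hI : InertiaFixed A x)
    (ℓ : Nat.Primes) (hℓ : ¬ (ℓ : ℕ) ∣ M₁ * q * p)
    (htor : IsToric hq hqM A (p ^ r) (eisKill ℓ x)) :
    σ • (atkinLehnerBar hq hqM • eisKill ℓ x) + q • eisKill ℓ x = 0 :=
  ribmp_frob_pow_of_kummerAt M₁ q hq hqM p hp r A hA σ
    (hK M₁ q hq hqM hq2 p hp hp5 hpq r A hA σ hσ) x hx hI ℓ hℓ htor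

/-- **FROB-J.**  `StmtFrobToric` from the Kummer form. -/
theorem ribmp_frob_of_kummer (hK : StmtFrobToricKummer) : StmtFrobToric := by
  intro M₁ q _ _ _ hq hqM hq2 p hp hp5 hpq A hA σ hσ x hx hI ℓ hℓ htor
  have hx' : p ^ 1 • x = 0 := by rwa [pow_one]
  have htor' : IsToric hq hqM A (p ^ 1) (eisKill ℓ x) := by rwa [pow_one]
  exact ribmp_frob_pow_of_kummer hK M₁ q hq hqM hq2 p hp hp5 hpq 1 A hA σ hσ x hx' hI ℓ hℓ htor'

end Fermat.Agent.RIB.MP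

end
end ZBRIB_012_0

/-! ### bundled: `Fermat.Agent.RIB.MP.FrobMG` -/
section ZBRIB_012_1
/-
Row 37, Mazur's principle, piece **MP-FROB** (helper3), part 4: the concrete assembly.

`ribmp_frob_kummerAt` : (F) (`StmtFac`, helper95) ⇒ the Kummer form of MP-FROB at the level
`M₁ q` (`q ≠ 2`, `q = 3 → 2 ∣ M₁`), by `STB.stbsw_c_main` (helper45) over the ramified base
`E′ = ℚ̄^I · K₁`, `K₁` a number field of definition of the toric data.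
-/

set_option autoImplicit false
set_option linter.style.haveILetI false
set_option linter.unusedSectionVars false
set_option linter.unusedVariables false
set_option linter.style.longLine false

noncomputable section

namespace Fermat.Agent.RIB.MP

open ModularCurve AlgebraicCurve Fermat.Agent.ES Fermat.Agent.ES.G2 Fermat.Agent.INJ
  Fermat.Agent.UNIP Fermat.Agent.STB Fermat.Agent.AL
open IntermediateField

section Base

variable {A : ValuationSubring Qb} (K₁ : IntermediateField ℚ Qb) {q : ℕ} [NeZero q]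

/-- the residue field of `A′ = A ∩ (E₀ ⊔ K₁)` is the residue field of `A₀ = A ∩ E₀` -/
theorem ribmp_frob_hres (hq : q.Prime) (hA : A.LiesOverPrime q)
    [IsDiscreteValuationRing ↥(mgcA A K₁)] {π' : ↥(mgcA A K₁)} (hπ' : Irreducible π')
    (a' : ↥(mgcA A K₁)) :
    ∃ a : ↥(beta0Ring A (beta0Field A)),
      π' ∣ a' - beta0RingIncl (A := A) (le_sup_left : beta0Field A ≤ beta0Field A ⊔ K₁) a := by
  have ha' : (((a' : ↥(mgcE A K₁)) : Qb)) ∈ A := a'.2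
  obtain ⟨b, hbE, hbA, hb⟩ := beta0_exists_residue hq hA ha'
  refine ⟨⟨⟨b, hbE⟩, hbA⟩, ?_⟩
  have h1 : a' - beta0RingIncl (A := A) (le_sup_left : beta0Field A ≤ beta0Field A ⊔ K₁)
      ⟨⟨b, hbE⟩, hbA⟩ ∈ IsLocalRing.maximalIdeal ↥(mgcA A K₁) := by
    rw [beta0Ring_mem_maximalIdeal_iff]
    exact hb
  rw [hπ'.maximalIdeal_eq, Ideal.mem_span_singleton] at h1
  exact h1

/-- `π′ ∣ q` -/
theorem ribmp_frob_hdvd (hA : A.LiesOverPrime q)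
    [IsDiscreteValuationRing ↥(mgcA A K₁)] {π' : ↥(mgcA A K₁)} (hπ' : Irreducible π') :
    π' ∣ beta0RingIncl (A := A) (le_sup_left : beta0Field A ≤ beta0Field A ⊔ K₁)
      ((q : ℕ) : ↥(beta0Ring A (beta0Field A))) := by
  rw [map_natCast]
  exact stbd_dvd_natCast hπ' hA

end Base

section Emb

variable {A : ValuationSubring Qb} (K₁ : IntermediateField ℚ Qb) (N : ℕ) [NeZero N]

/-- the embedding `F_N(E₀) → F_N(E′)` -/
def ribmpFrobUp :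
    ↥(modularFunctionFieldFullC ↥(beta0Field A) N) →+* ↥(mgcF A K₁ N) :=
  letI := beta0InstFieldAlgebra A K₁
  mgcEmb ↥(beta0Field A) ↥(beta0Field A ⊔ K₁) N

theorem ribmpFrobUp_coe (x : ↥(modularFunctionFieldFullC ↥(beta0Field A) N)) :
    ((ribmpFrobUp K₁ N x : ↥(mgcF A K₁ N)) : LaurentSeries ↥(mgcE A K₁)) =
      coeffMap (letI := beta0InstFieldAlgebra A K₁
        algebraMap ↥(beta0Field A) ↥(beta0Field A ⊔ K₁)) (x : LaurentSeries ↥(beta0Field A)) :=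
  rfl

/-- compatibility with the embeddings into `F_N(ℚ̄)` -/
theorem nfEmb_ribmpFrobUp (x : ↥(modularFunctionFieldFullC ↥(beta0Field A) N)) :
    nfEmb (mgcE A K₁) N (ribmpFrobUp K₁ N x) = nfEmb (beta0Field A) N x := by
  apply Subtype.ext
  rw [nfEmb_coe, nfEmb_coe, ribmpFrobUp_coe, coeffMap_coeffMap]
  rfl

/-- `j ↦ j` -/
theorem ribmpFrobUp_J :
    ribmpFrobUp K₁ N (bgJ ↥(beta0Field A) N) = mgcT A K₁ N :=
  Subtype.ext (coeffMap_jqModC _)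

/-- constants -/
theorem ribmpFrobUp_algebraMap (a : ↥(beta0Ring A (beta0Field A))) :
    ribmpFrobUp K₁ N
        (algebraMap ↥(beta0Ring A (beta0Field A))
          ↥(modularFunctionFieldFullC ↥(beta0Field A) N) a) =
      algebraMap ↥(mgcA A K₁) ↥(mgcF A K₁ N)
        (beta0RingIncl (A := A) (le_sup_left : beta0Field A ≤ beta0Field A ⊔ K₁) a) := by
  letI := beta0InstFieldAlgebra A K₁
  rw [mgcAlgAGen_algebraMap, mgcAlgAGen_algebraMap]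
  exact mgcEmb_algebraMap ↥(beta0Field A) ↥(beta0Field A ⊔ K₁) N _

end Emb

section Fac

variable {A : ValuationSubring Qb} (K₁ : IntermediateField ℚ Qb)
  {M₁ q : ℕ} [NeZero M₁] [NeZero q] [NeZero (M₁ * q)]

/-- **(F) over the ramified base** `E′ = E₀ ⊔ K₁`, for the image of a function of `F_N(E₀)`. -/
theorem ribmp_frob_fac_mgc (hq : q.Prime) (hqM : ¬ q ∣ M₁) (hA : A.LiesOverPrime q)
    [IsDiscreteValuationRing ↥(mgcA A K₁)] {π' : ↥(mgcA A K₁)} (hπ' : Irreducible π')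
    {m : ℕ} (hF : StmtFacOver M₁ q m A (beta0Field A))
    (y₀ : ↥(modularFunctionFieldFullC ↥(beta0Field A) (M₁ * q))) (hy₀ : y₀ ≠ 0)
    (hhor : ∀ P : Place NfQb (modularFunctionFieldBar (M₁ * q)),
      (m : ℤ) ∣ P.ord (nfEmb (beta0Field A) (M₁ * q) y₀))
    (hU₁ : RibmpGaussUnit (M₁ * q) A (nfEmb (beta0Field A) (M₁ * q) y₀))
    (hU₂ : RibmpGaussUnit (M₁ * q) A
      (atkinLehnerBar hq hqM (nfEmb (beta0Field A) (M₁ * q) y₀))) :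
    ∀ i' : AtPt (F := ↥(mgcF A K₁ (M₁ * q))) π' (mgcT A K₁ (M₁ * q)) ⊕
        AtPt (F := ↥(mgcF A K₁ (M₁ * q))) π' (mgcT A K₁ (M₁ * q))⁻¹,
      StbFacAt (atO π' (mgcT A K₁ (M₁ * q)) i') m (ribmpFrobUp K₁ (M₁ * q) y₀) := by
  haveI := beta0Ring_isDVR_base (A := A) hq hA
  haveI : IsAlgClosed (IsLocalRing.ResidueField ↥(mgcA A K₁)) :=
    stb_isAlgClosed_residue hq hA (le_sup_left : beta0Field A ≤ mgcE A K₁)
  have hπ₀ : Irreducible ((q : ℕ) : ↥(beta0Ring A (beta0Field A))) :=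
    beta0Ring_irreducible_q hq hA
  let ιC₀ : ↥(beta0Field A) →+* ℂ := cheapIota.comp (algebraMap ↥(beta0Field A) Qb)
  have hunit : ∀ c, (mgvV hπ₀ ιC₀ hq hqM c).valuation y₀ = 1 := by
    intro c
    cases c
    · exact ribmp_vh_valuation_zero hπ₀ ιC₀ hq hqM y₀ hU₂
    · exact ribmp_vh_valuation_inf hπ₀ ιC₀ hq hqM y₀ hU₁
  have hy := hF hq hqM _ hπ₀ ιC₀ y₀ hy₀ hhor hunit
  exact ribmp_frob_fac_up_charts (ribmpFrobUp K₁ (M₁ * q))
    (beta0RingIncl (A := A) (le_sup_left : beta0Field A ≤ beta0Field A ⊔ K₁))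
    (ribmpFrobUp_algebraMap K₁ (M₁ * q)) hπ₀ hπ' (ribmp_frob_hdvd K₁ hA hπ')
    (ribmp_frob_hres K₁ hq hA hπ') (ribmpFrobUp_J K₁ (M₁ * q)) hy

end Fac

section Main

variable {M₁ q : ℕ} [NeZero M₁] [NeZero q] [NeZero (M₁ * q)]

set_option maxHeartbeats 3200000 in
/-- **MP-FROB, Kummer form, at `(M₁, q, p ^ r, A, σ)`**, from (F) over the inertia field. -/
theorem ribmp_frob_kummerAt (hq : q.Prime) (hqM : ¬ q ∣ M₁) (h2 : q = 2 → 3 ∣ M₁)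
    (h3 : q = 3 → 2 ∣ M₁) {p : ℕ} (hp : p.Prime) (hpq : p ≠ q) (r : ℕ)
    {A : ValuationSubring Qb} (hA : A.LiesOverPrime q)
    (hF : StmtFacOver M₁ q (p ^ r) A (beta0Field A))
    {σ : Qb ≃ₐ[ℚ] Qb} (hσ : A.IsFrobeniusAt σ q)
    (y₀ : ↥(modularFunctionFieldFullC ↥(beta0Field A) (M₁ * q))) (hy₀ : y₀ ≠ 0)
    (hhor : ∀ P : Place NfQb (modularFunctionFieldBar (M₁ * q)),
      ((p ^ r : ℕ) : ℤ) ∣ P.ord (nfEmb (beta0Field A) (M₁ * q) y₀))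
    (hU₁ : RibmpGaussUnit (M₁ * q) A (nfEmb (beta0Field A) (M₁ * q) y₀))
    (hU₂ : RibmpGaussUnit (M₁ * q) A
      (atkinLehnerBar hq hqM (nfEmb (beta0Field A) (M₁ * q) y₀)))
    (t t' : modularFunctionFieldBar (M₁ * q))
    (hT : ReducesToOne A (M₁ * q) (nfEmb (beta0Field A) (M₁ * q) y₀ / t ^ (p ^ r)))
    (hT' : ReducesToOne A (M₁ * q)
      (atkinLehnerBar hq hqM (nfEmb (beta0Field A) (M₁ * q) y₀ / t' ^ (p ^ r)))) :
    ∃ h : modularFunctionFieldBar (M₁ * q),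
      h ^ (p ^ r) = (arithmeticGalois (modularFunctionFieldFull (M₁ * q)) σ •
        atkinLehnerBar hq hqM (nfEmb (beta0Field A) (M₁ * q) y₀)) *
          nfEmb (beta0Field A) (M₁ * q) y₀ ^ q := by
  have hY0 : nfEmb (beta0Field A) (M₁ * q) y₀ ≠ 0 := (map_ne_zero _).2 hy₀
  obtain ⟨K', hK'fin, hK'⟩ := stb_exists_descent₃ (M₁ * q) t t' 1
  obtain ⟨K₁, hK'K₁, hK₁fin, hK₁gal, -⟩ :=
    rat_exists_field_rational (M₁ * q) (nfEmb (beta0Field A) (M₁ * q) y₀) hY0 K' hK'fin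
  haveI : NumberField K₁ := @NumberField.mk _ _ inferInstance hK₁fin
  haveI : IsGalois ℚ K₁ := hK₁gal
  haveI : Normal ℚ K₁ := hK₁gal.to_normal
  haveI : IsDiscreteValuationRing ↥(mgcA A K₁) := beta0Ring_isDVR_sup K₁ hq hA
  have hK₁E : K₁ ≤ mgcE A K₁ := le_sup_right
  obtain ⟨t₀, t₀', -, ht₀, ht₀', -⟩ := hK' (mgcE A K₁) (hK'K₁.trans hK₁E)
  have hφ : ∀ x ∈ mgcE A K₁, σ x ∈ mgcE A K₁ := fun x hx =>
    beta0_sup_decomp_apply_mem K₁ hσ.mem_decompositionSubgroup hx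
  obtain ⟨π, hπ⟩ := IsDiscreteValuationRing.exists_irreducible ↥(mgcA A K₁)
  let ιC : ↥(mgcE A K₁) →+* ℂ := cheapIota.comp (algebraMap ↥(mgcE A K₁) Qb)
  have hy'e : nfEmb (mgcE A K₁) (M₁ * q) (ribmpFrobUp K₁ (M₁ * q) y₀)
      = nfEmb (beta0Field A) (M₁ * q) y₀ := nfEmb_ribmpFrobUp K₁ (M₁ * q) y₀
  haveI := mgc_finiteDimensional A K₁ (M₁ * q)
  have ht := mgc_transcendental A K₁ (M₁ * q)
  have ht' : Transcendental ↥(mgcE A K₁) (mgcT A K₁ (M₁ * q))⁻¹ := zch_transcendental_inv ht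
  haveI : FiniteDimensional (↥(mgcE A K₁))⟮(mgcT A K₁ (M₁ * q))⁻¹⟯ ↥(mgcF A K₁ (M₁ * q)) :=
    at_finiteDimensional_inv (mgcT A K₁ (M₁ * q))
  haveI : IsNoetherianRing ↥(zchClosure (A₀ := ↥(mgcA A K₁))
      ({mgcT A K₁ (M₁ * q)} : Set ↥(mgcF A K₁ (M₁ * q)))) :=
    chart_closure_isNoetherianRing (A₀ := ↥(mgcA A K₁)) (E := ↥(mgcE A K₁)) ht
  haveI : IsNoetherianRing ↥(zchClosure (A₀ := ↥(mgcA A K₁))
      ({(mgcT A K₁ (M₁ * q))⁻¹} : Set ↥(mgcF A K₁ (M₁ * q)))) :=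
    chart_closure_isNoetherianRing (A₀ := ↥(mgcA A K₁)) (E := ↥(mgcE A K₁)) ht'
  have hSS1 := mgcb_all_SS1 (K₁ := K₁) hq hqM hA h2 h3 hπ ιC
  have hne := mgvl_hne hπ ιC hq hqM hA
  obtain ⟨R₁, _, j₁, p₁, hram₁, -, hnode₁⟩ := stbmn_hnode₁ K₁ hq hqM hA h2 h3 hπ ιC
  obtain ⟨R₂, _, j₂, p₂, hram₂, -, hnode₂⟩ := stbmn_hnode₂ K₁ hq hqM hA h2 h3 hπ ιC
  let tt : Bool → ↥(mgcF A K₁ (M₁ * q)) := fun c => if c then t₀ else t₀'
  have htoric : ∀ c, ribmpFrobUp K₁ (M₁ * q) y₀ / tt c ^ (p ^ r) - 1 ∈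
      (mgvV hπ ιC hq hqM c).nonunits := by
    apply stb_mgt_htoric_mgv hπ ιC hq hqM tt (p ^ r)
    · show ReducesToOne A (M₁ * q) (nfEmb (mgcE A K₁) (M₁ * q) (ribmpFrobUp K₁ (M₁ * q) y₀) /
        nfEmb (mgcE A K₁) (M₁ * q) t₀ ^ (p ^ r))
      rw [hy'e, ht₀]
      exact hT
    · show ReducesToOne A (M₁ * q) (atkinLehnerBar hq hqM
        (nfEmb (mgcE A K₁) (M₁ * q) (ribmpFrobUp K₁ (M₁ * q) y₀) /
          nfEmb (mgcE A K₁) (M₁ * q) t₀' ^ (p ^ r)))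
      rw [hy'e, ht₀']
      exact hT'
  have hfac := ribmp_frob_fac_mgc K₁ hq hqM hA hπ hF y₀ hy₀ hhor hU₁ hU₂
  have hfrob : ∀ i : AtPt (F := ↥(mgcF A K₁ (M₁ * q))) π (mgcT A K₁ (M₁ * q)) ⊕
        AtPt (F := ↥(mgcF A K₁ (M₁ * q))) π (mgcT A K₁ (M₁ * q))⁻¹,
      atInc π (mgcT A K₁ (M₁ * q)) (mgvV hπ ιC hq hqM) i true →
      atInc π (mgcT A K₁ (M₁ * q)) (mgvV hπ ιC hq hqM) i false →
      ∀ x : atO π (mgcT A K₁ (M₁ * q)) i, ∃ z : atO π (mgcT A K₁ (M₁ * q)) i, ¬ IsUnit z ∧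
        (z : ↥(mgcF A K₁ (M₁ * q))) = stbswG ιC hq hqM σ hφ (x : ↥(mgcF A K₁ (M₁ * q))) -
          (x : ↥(mgcF A K₁ (M₁ * q))) ^ q := by
    rintro (𝔫 | 𝔫) h1 h2' x
    · exact stbsw_mf_hfrob_J hπ ιC hq hqM hA h2 h3 hσ hφ 𝔫 h1 h2' x
    · exact stbsw_mf_hfrob_Jinv hπ ιC hq hqM hA h2 h3 hσ hφ 𝔫 h1 h2' x
  have hpts := ribmp_frob_hpts hπ ht (mgvV hπ ιC hq hqM) hne (mgv_hBV₁ hπ ιC hq hqM)
    (mgv_hBV₂ hπ ιC hq hqM) (mgv_hπV hπ ιC hq hqM) hSS1 (mgv_harch hπ ιC hq hqM)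
    (mgv_hVloc₁ hπ ιC hq hqM hA hSS1) (mgv_hVloc₂ hπ ιC hq hqM hA hSS1) j₁ p₁ hram₁ j₂ p₂ hram₂
    hnode₁ hnode₂ (stbswG ιC hq hqM σ hφ) q (p ^ r) hfrob
    (fun i c hc honly => stbsw_mf_geom hπ ιC hq hqM hA h2 h3 hσ hφ i c hc honly) hfac
  obtain ⟨h₀, hh₀⟩ := stbsw_c_main hq hA hπ hp hpq (mgvV hπ ιC hq hqM) true false
    (fun c => by cases c <;> simp) hne (mgv_hBV₁ hπ ιC hq hqM) (mgv_hBV₂ hπ ιC hq hqM)
    (mgv_hπV hπ ιC hq hqM) hSS1 (mgv_harch hπ ιC hq hqM) (stbswG ιC hq hqM σ hφ)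
    (fun c => !c) rfl rfl (stbsw_mf_hgV hπ ιC hq hqM hσ.mem_decompositionSubgroup hφ) q r tt
    htoric hpts
  refine ⟨nfEmb (mgcE A K₁) (M₁ * q) h₀, ?_⟩
  rw [← map_pow, hh₀, map_mul, map_pow, nfEmb_stbswG, hy'e]

end Main

end Fermat.Agent.RIB.MP

end
end ZBRIB_012_1

/-! ### bundled: `Fermat.Agent.RIB.MP.FrobFinal` -/
section ZBRIB_012_2
/-
Row 37, Mazur's principle, piece **MP-FROB** (helper3), part 5: the final statements.

* `ribmp_frob_powE` : (F) (`StmtFac`, MP-FAC) ⇒ `StmtFrobToric` at the exponent `p ^ r`, under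
  the hypothesis `5 ≤ q ∨ (5 - q) ∣ M₁` of `RIB/MP/PlanE.lean` (the form `StmtFrobToricPow` of
  K8);
* `stmtFrobToricE_of_fac : StmtFac → StmtFrobToricE`.
-/

set_option autoImplicit false
set_option linter.style.haveILetI false
set_option linter.unusedSectionVars false
set_option linter.unusedVariables false

noncomputable section

namespace Fermat.Agent.RIB.MP

open ModularCurve AlgebraicCurve Fermat.Agent.ES Fermat.Agent.ES.G2 Fermat.Agent.INJ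
  Fermat.Agent.UNIP

/-- `p ^ r` is prime to `6` for a prime `p ≥ 5` -/
theorem ribmp_frob_coprime_six {p : ℕ} (hp : p.Prime) (hp5 : 5 ≤ p) (r : ℕ) :
    Nat.Coprime (p ^ r) 6 := by
  apply Nat.Coprime.pow_left
  have h2 : Nat.Coprime p 2 := by
    rw [Nat.coprime_primes hp Nat.prime_two]
    omega
  have h3 : Nat.Coprime p 3 := by
    rw [Nat.coprime_primes hp Nat.prime_three]
    omega
  exact Nat.Coprime.mul_right h2 h3

/-- the Kummer form of MP-FROB at `(M₁, q, p ^ r, A, σ)` from (F) -/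
theorem ribmp_frob_kummerAt_of_fac (hFac : StmtFac)
    (M₁ q : ℕ) [NeZero M₁] [NeZero q] [NeZero (M₁ * q)] (hq : q.Prime) (hqM : ¬ q ∣ M₁)
    (hE : 5 ≤ q ∨ (5 - q) ∣ M₁) (hq2 : q ≠ 2) (p : ℕ) (hp : p.Prime) (hp5 : 5 ≤ p)
    (hpq : p ≠ q) (r : ℕ) (A : ValuationSubring Qb) (hA : A.LiesOverPrime q)
    (σ : Qb ≃ₐ[ℚ] Qb) (hσ : A.IsFrobeniusAt σ q) :
    StmtFrobToricKummerAt M₁ q hq hqM (p ^ r) A σ := by
  have h2 : q = 2 → 3 ∣ M₁ := fun h => absurd h hq2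
  have h3 : q = 3 → 2 ∣ M₁ := by
    intro h
    subst h
    rcases hE with h | h
    · omega
    · exact h
  intro y₀ hy₀ hhor hU₁ hU₂ t t' hT hT'
  exact ribmp_frob_kummerAt hq hqM h2 h3 hp hpq r hA
    (hFac M₁ q hq hqM hq2 (p ^ r) (ribmp_frob_coprime_six hp hp5 r) A hA) hσ y₀ hy₀ hhor hU₁ hU₂
    t t' hT hT'

/-- **MP-FROB at the exponent `p ^ r`** (restricted form), from (F). -/
theorem ribmp_frob_powE (hFac : StmtFac)
    (M₁ q : ℕ) [NeZero M₁] [NeZero q] [NeZero (M₁ * q)] (hq : q.Prime) (hqM : ¬ q ∣ M₁)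
    (hE : 5 ≤ q ∨ (5 - q) ∣ M₁) (hq2 : q ≠ 2) (p : ℕ) (hp : p.Prime) (hp5 : 5 ≤ p)
    (hpq : p ≠ q) (r : ℕ) (A : ValuationSubring Qb) (hA : A.LiesOverPrime q)
    (σ : Qb ≃ₐ[ℚ] Qb) (hσ : A.IsFrobeniusAt σ q)
    (x : JZero (M₁ * q)) (hx : p ^ r • x = 0) (hI : InertiaFixed A x)
    (ℓ : Nat.Primes) (hℓ : ¬ (ℓ : ℕ) ∣ M₁ * q * p)
    (htor : IsToric hq hqM A (p ^ r) (eisKill ℓ x)) :
    σ • (atkinLehnerBar hq hqM • eisKill ℓ x) + q • eisKill ℓ x = 0 :=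
  ribmp_frob_pow_of_kummerAt M₁ q hq hqM p hp r A hA σ
    (ribmp_frob_kummerAt_of_fac hFac M₁ q hq hqM hE hq2 p hp hp5 hpq r A hA σ hσ)
    x hx hI ℓ hℓ htor

/-- **MP-FROB** (restricted form `StmtFrobToricE` of `RIB/MP/PlanE.lean`), from (F). -/
theorem stmtFrobToricE_of_fac (hFac : StmtFac) : StmtFrobToricE := by
  intro M₁ q _ _ _ hq hqM hE hq2 p hp hp5 hpq A hA σ hσ x hx hI ℓ hℓ htor
  have hx' : p ^ 1 • x = 0 := by rwa [pow_one]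
  have htor' : IsToric hq hqM A (p ^ 1) (eisKill ℓ x) := by rwa [pow_one]
  exact ribmp_frob_powE hFac M₁ q hq hqM hE hq2 p hp hp5 hpq 1 A hA σ hσ x hx' hI ℓ hℓ htor'

end Fermat.Agent.RIB.MP

end
end ZBRIB_012_2
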