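/- GENERATED FILE (helper35, build-time optimisation, NOTES/ZB.md): verbatim concatenation of the modules
   Fermat.Agent.RT.K2.Defs
   Fermat.Agent.RT.PlanTW
   Fermat.Agent.RT.PlanTWE
   Fermat.Agent.RIB.TR
   Fermat.Agent.RT.K2.Cramer
   Fermat.Agent.RT.Prod.HaLift
   Do not edit; do not import together with these modules. -/
import Mathlib
import Fermat.Agent.ZB.RIB_001
import Fermat.Agent.ZB.RT_024

/-! ### bundled: `Fermat.Agent.RT.K2.Defs` -/
section ZBRT_003_0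

/-!
# K-machine (row 37 / S59), piece K2: the local lifting rings at the trivial primes — definitions

`ι` is the (finite) set of trivial primes (`r ≡ 1 mod p`, `ρ̄(Frob_r) = ±1`), `τ` indexes the free
variables `x_1, …, x_g`.  Everything lives in ONE power series ring
`P = O[[a_i, b_i, c_i, X_i, Y_i, Z_i (i ∈ ι), x_t (t ∈ τ)]]`:

* the inertia generator is `Σ_i = t_i + (a_i b_i; c_i −a_i)`
  (type `χ`: `a_i² + b_i c_i = δ_i²` with `δ_i = (ζ_i − ζ_i⁻¹)/2`; type `1`: `Σ_i = 1 + N_i`,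
  `a_i² + b_i c_i = 0`);
* the Frobenius is the Cayley transform `Φ_i = s_i·((1 + ν_i) + 2 Ψ_i)/(1 − ν_i)`,
  `Ψ_i = (X_i Y_i; Z_i −X_i)`, `ν_i = X_i² + Y_i Z_i` (so `det Φ_i = s_i²`, no square root).

`rtk2Ichi δ` is the ideal of the type-`χ` relations (`Σ₀² = δ²`, `[Ψ, Σ₀] = 0`), `rtk2Ione q` the
ideal of the unipotent relations (`N² = 0`, `Φ' N = q N Φ'` for `Φ' = (1 + ν) + 2Ψ`).
-/

set_option autoImplicit false

namespace Fermat.Agent.RT.K2

open MvPowerSeries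

/-- The index type of the variables: six for every trivial prime, and the free ones. -/
abbrev Rtk2Var (ι τ : Type*) := (ι × Fin 6) ⊕ τ

/-- The ambient power series ring. -/
abbrev Rtk2P (O : Type*) [CommRing O] (ι τ : Type*) := MvPowerSeries (Rtk2Var ι τ) O

section

variable {O : Type*} [CommRing O] {ι τ : Type*}

/-- The index of the `k`-th variable of the prime `i`. -/
def rtk2ix (i : ι) (k : Fin 6) : Rtk2Var ι τ := Sum.inl (i, k)

/-- The index of the free variable `t`. -/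
def rtk2jx (t : τ) : Rtk2Var ι τ := Sum.inr t

theorem rtk2ix_injective : Function.Injective (fun p : ι × Fin 6 => (rtk2ix p.1 p.2 : Rtk2Var ι τ)) :=
  fun _ _ h => Sum.inl_injective h

/-- `a_i` (upper left entry of `Σ₀`). -/
noncomputable def rtk2a (i : ι) : Rtk2P O ι τ := X (rtk2ix i 0)
/-- `b_i` (upper right entry of `Σ₀`). -/
noncomputable def rtk2b (i : ι) : Rtk2P O ι τ := X (rtk2ix i 1)
/-- `c_i` (lower left entry of `Σ₀`). -/
noncomputable def rtk2c (i : ι) : Rtk2P O ι τ := X (rtk2ix i 2)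
/-- `X_i` (upper left entry of `Ψ`). -/
noncomputable def rtk2X (i : ι) : Rtk2P O ι τ := X (rtk2ix i 3)
/-- `Y_i` (upper right entry of `Ψ`). -/
noncomputable def rtk2Y (i : ι) : Rtk2P O ι τ := X (rtk2ix i 4)
/-- `Z_i` (lower left entry of `Ψ`). -/
noncomputable def rtk2Z (i : ι) : Rtk2P O ι τ := X (rtk2ix i 5)

/-- `f_i = a_i² + b_i c_i − δ_i²`. -/
noncomputable def rtk2f (δ : ι → O) (i : ι) : Rtk2P O ι τ :=
  rtk2a i ^ 2 + rtk2b i * rtk2c i - C (δ i ^ 2)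

/-- `g_i = a_i² + b_i c_i`. -/
noncomputable def rtk2g (i : ι) : Rtk2P O ι τ := rtk2a i ^ 2 + rtk2b i * rtk2c i

/-- first minor `b X − a Y`. -/
noncomputable def rtk2m1 (i : ι) : Rtk2P O ι τ := rtk2b i * rtk2X i - rtk2a i * rtk2Y i
/-- second minor `c X − a Z`. -/
noncomputable def rtk2m2 (i : ι) : Rtk2P O ι τ := rtk2c i * rtk2X i - rtk2a i * rtk2Z i
/-- third minor `c Y − b Z`. -/
noncomputable def rtk2m3 (i : ι) : Rtk2P O ι τ := rtk2c i * rtk2Y i - rtk2b i * rtk2Z i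

/-- `ν_i = X_i² + Y_i Z_i = −det Ψ_i`. -/
noncomputable def rtk2nu (i : ι) : Rtk2P O ι τ := rtk2X i ^ 2 + rtk2Y i * rtk2Z i

/-- Entries of the Cayley numerator `Φ' = (1 + ν) + 2Ψ = (A B; C D)`. -/
noncomputable def rtk2A (i : ι) : Rtk2P O ι τ := 1 + rtk2nu i + 2 * rtk2X i
/-- Entry `B` of the Cayley numerator. -/
noncomputable def rtk2B (i : ι) : Rtk2P O ι τ := 2 * rtk2Y i
/-- Entry `C` of the Cayley numerator. -/
noncomputable def rtk2C (i : ι) : Rtk2P O ι τ := 2 * rtk2Z i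
/-- Entry `D` of the Cayley numerator. -/
noncomputable def rtk2D (i : ι) : Rtk2P O ι τ := 1 + rtk2nu i - 2 * rtk2X i

/-- Entry `(1,1)` of `Φ' N − q N Φ'`, `N = (a b; c −a)`. -/
noncomputable def rtk2E11 (q : ι → O) (i : ι) : Rtk2P O ι τ :=
  (1 - C (q i)) * rtk2A i * rtk2a i - C (q i) * rtk2C i * rtk2b i + rtk2B i * rtk2c i
/-- Entry `(1,2)` of `Φ' N − q N Φ'`. -/
noncomputable def rtk2E12 (q : ι → O) (i : ι) : Rtk2P O ι τ :=
  -((1 + C (q i)) * rtk2B i * rtk2a i) + (rtk2A i - C (q i) * rtk2D i) * rtk2b i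
/-- Entry `(2,1)` of `Φ' N − q N Φ'`. -/
noncomputable def rtk2E21 (q : ι → O) (i : ι) : Rtk2P O ι τ :=
  (1 + C (q i)) * rtk2C i * rtk2a i + (rtk2D i - C (q i) * rtk2A i) * rtk2c i
/-- Entry `(2,2)` of `Φ' N − q N Φ'`. -/
noncomputable def rtk2E22 (q : ι → O) (i : ι) : Rtk2P O ι τ :=
  -((1 - C (q i)) * rtk2D i * rtk2a i) + rtk2C i * rtk2b i - C (q i) * rtk2B i * rtk2c i

/-- The generators of the type-`χ` ideal. -/
noncomputable def rtk2genChi (δ : ι → O) (p : ι × Fin 4) : Rtk2P O ι τ :=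
  ![rtk2f δ p.1, rtk2m1 p.1, rtk2m2 p.1, rtk2m3 p.1] p.2

/-- The generators of the unipotent ideal. -/
noncomputable def rtk2genOne (q : ι → O) (p : ι × Fin 5) : Rtk2P O ι τ :=
  ![rtk2g p.1, rtk2E11 q p.1, rtk2E12 q p.1, rtk2E21 q p.1, rtk2E22 q p.1] p.2

/-- The generators `a_i, b_i, c_i` of the unramified ideal. -/
noncomputable def rtk2genUr (p : ι × Fin 3) : Rtk2P O ι τ :=
  ![rtk2a p.1, rtk2b p.1, rtk2c p.1] p.2

variable (τ) in
/-- The ideal of the type-`χ` relations. -/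
noncomputable def rtk2Ichi (δ : ι → O) : Ideal (Rtk2P O ι τ) :=
  Ideal.span (Set.range (rtk2genChi δ))

variable (τ) in
/-- The ideal of the unipotent relations. -/
noncomputable def rtk2Ione (q : ι → O) : Ideal (Rtk2P O ι τ) :=
  Ideal.span (Set.range (rtk2genOne q))

variable (O ι τ) in
/-- The ideal `(a_i, b_i, c_i : i)` cutting out the unramified locus `N = 0`. -/
noncomputable def rtk2Iur : Ideal (Rtk2P O ι τ) :=
  Ideal.span (Set.range rtk2genUr)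

variable (ι τ) in
/-- The prime `𝔮_ur = (λ, a_i, b_i, c_i : i)`: the unramified locus of the special fibre. -/
noncomputable def rtk2Qur (lam : O) : Ideal (Rtk2P O ι τ) :=
  Ideal.span {C lam} ⊔ rtk2Iur O ι τ

/-- The Cramer element `D_i = A_i·((1 + q)²(1 − ν_i)² − 4 q (1 + ν_i)²)`. -/
noncomputable def rtk2Cramer (q : ι → O) (i : ι) : Rtk2P O ι τ :=
  rtk2A i * ((1 + C (q i)) ^ 2 * (1 - rtk2nu i) ^ 2 - 4 * C (q i) * (1 + rtk2nu i) ^ 2)

variable (τ) in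
/-- The type-`χ` local ring `R^χ_∞`. -/
abbrev Rtk2Rchi (δ : ι → O) := Rtk2P O ι τ ⧸ rtk2Ichi τ δ

variable (τ) in
/-- The unipotent local ring `R¹_∞`. -/
abbrev Rtk2Rone (q : ι → O) := Rtk2P O ι τ ⧸ rtk2Ione τ q

end

end Fermat.Agent.RT.K2


end ZBRT_003_0

/-! ### bundled: `Fermat.Agent.RT.PlanTW` -/
section ZBRT_003_1
/-
K-machine (row 37 / S59): THE PRODUCER CONTRACT of the algebraic core.   Captain: helper43.

The algebraic core (patching `RT/P`, support argument `RT/K4`, local rings `RT/K2*`) is closed: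
what it consumes is, for every `n`, a LEVEL DATUM.  This file fixes its two Lean forms

* `TWLevelP n ρ1 ρχ`  (glue-facing): two `O`-algebra homomorphisms
  `ρ1, ρχ : P → M_d(S ⧸ 𝔪_S ^ n)` from helper27's power series ring `P = Rtk2P O ι τ`;
* `TWSide`, `TWDatum n` (producer-facing): the (framed) Hecke rings `T¹`, `T^χ` acting on the free
  modules `(S ⧸ 𝔪 ^ n)^d`, with the matrices `Σ_i, Φ_i ∈ GL₂(T)` at the trivial primes and the
  further generators `x_t`;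

and the statements of the two glue pieces

* `StmtOutTW` : `(∀ n, ∃ ρ1 ρχ, TWLevelP n ρ1 ρχ)` and the facts on the local rings give a prime
  `𝔓` of the base Hecke ring `T0` with `λ ∉ 𝔓` and `Σ⁰_i ≡ 1 mod 𝔓` for all trivial primes `i`;
* `StmtG2`    : `TWDatum n → ∃ ρ1 ρχ, TWLevelP n ρ1 ρχ`.

Conventions.  `S = O[[w_1, …, w_m]]` (`m = h + 4|ι|`: the `h` Taylor–Wiles variables and ALL
`4|ι|` framing variables), `𝔞 = (w_1, …, w_m)`, `𝔩 = (λ)`, `I = 𝔪_S = (λ, w)`; `τ` indexes the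
`g = h + |ι|` free variables of `P`, so that `3|ι| + |τ| = m`.  Mathlib-only.
-/

set_option autoImplicit false

namespace Fermat.Agent.RT

open Fermat.Agent.RT.K2 MvPowerSeries IsLocalRing

/-! ## The coefficient ring `S` and its ideals -/

/-- `S = O[[w_1, …, w_m]]`. -/
abbrev RttwS (O : Type*) [CommRing O] (m : ℕ) := MvPowerSeries (Fin m) O

section Ideals

variable (O : Type*) [CommRing O] (m : ℕ)

/-- `𝔞 = (w_1, …, w_m)`, the kernel of the constant coefficient. -/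
noncomputable def rttwAug : Ideal (RttwS O m) :=
  RingHom.ker (constantCoeff (σ := Fin m) (R := O))

variable {O} in
/-- `𝔩 = (λ)`. -/
noncomputable def rttwLam (lam : O) : Ideal (RttwS O m) :=
  Ideal.span {(C lam : RttwS O m)}

end Ideals

section Level

variable {O : Type*} [CommRing O] [IsLocalRing O] {ι τ : Type*}

/-- The reduction `M_d(O) → M_d(S ⧸ (𝔞 ⊔ I ^ n))` of base matrices. -/
noncomputable def rttwBaseRed (m d n : ℕ) (t : Matrix (Fin d) (Fin d) O) :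
    Matrix (Fin d) (Fin d) (RttwS O m ⧸ (rttwAug O m ⊔ maximalIdeal (RttwS O m) ^ n)) :=
  t.map (algebraMap O (RttwS O m ⧸ (rttwAug O m ⊔ maximalIdeal (RttwS O m) ^ n)))

/-- **The level datum, glue-facing form.**
* `kills1`, `killsχ` : `ρ1` factors through `R¹_∞ = P ⧸ rtk2Ione`, `ρχ` through `R^χ_∞ = P ⧸ rtk2Ichi`;
* `cong`     : `ρ1 ≡ ρχ` modulo `λ`;
* `scal1`, `scalχ` : `S` acts through `P`;
* `base_loc` : modulo `𝔞` the six variables of the trivial prime `i` act as the fixed base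
  matrices `B (i, k)` (`k = 0, 1, 2`: the entries `a, b, c` of `Σ⁰_i − 1`; `k = 3, 4, 5`: the
  entries `X, Y, Z` of the Cayley parameter of `Φ⁰_i / s_i`);
* `base_T0`  : modulo `𝔞` everything acts through the base Hecke ring `T0 ⊆ M_d(O)`. -/
structure TWLevelP (q δ : ι → O) (lam : O) (m d : ℕ)
    (B : ι × Fin 6 → Matrix (Fin d) (Fin d) O) (T0 : Set (Matrix (Fin d) (Fin d) O)) (n : ℕ)
    (ρ1 ρχ : Rtk2P O ι τ →ₐ[O]
      Matrix (Fin d) (Fin d) (RttwS O m ⧸ maximalIdeal (RttwS O m) ^ n)) : Prop where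
  kills1 : ∀ u ∈ rtk2Ione τ q, ρ1 u = 0
  killsχ : ∀ u ∈ rtk2Ichi τ δ, ρχ u = 0
  cong : ∀ u : Rtk2P O ι τ,
    (ρ1 u).map (Ideal.Quotient.factor
        (le_sup_right : maximalIdeal (RttwS O m) ^ n ≤ rttwLam m lam ⊔ maximalIdeal (RttwS O m) ^ n)) =
      (ρχ u).map (Ideal.Quotient.factor
        (le_sup_right : maximalIdeal (RttwS O m) ^ n ≤ rttwLam m lam ⊔ maximalIdeal (RttwS O m) ^ n))
  scal1 : ∀ c : RttwS O m, ∃ u : Rtk2P O ι τ,
    ρ1 u = algebraMap (RttwS O m)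
      (Matrix (Fin d) (Fin d) (RttwS O m ⧸ maximalIdeal (RttwS O m) ^ n)) c
  scalχ : ∀ c : RttwS O m, ∃ u : Rtk2P O ι τ,
    ρχ u = algebraMap (RttwS O m)
      (Matrix (Fin d) (Fin d) (RttwS O m ⧸ maximalIdeal (RttwS O m) ^ n)) c
  base_loc : ∀ (i : ι) (k : Fin 6),
    (ρ1 (X (rtk2ix i k))).map (Ideal.Quotient.factor
        (le_sup_right : maximalIdeal (RttwS O m) ^ n ≤ rttwAug O m ⊔ maximalIdeal (RttwS O m) ^ n)) =
      rttwBaseRed m d n (B (i, k))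
  base_T0 : ∀ u : Rtk2P O ι τ, ∃ t ∈ T0,
    (ρ1 u).map (Ideal.Quotient.factor
        (le_sup_right : maximalIdeal (RttwS O m) ^ n ≤ rttwAug O m ⊔ maximalIdeal (RttwS O m) ^ n)) =
      rttwBaseRed m d n t

/-- **GLUE 1 (`rttw_out`), statement.**  `O` a complete discrete valuation ring with finite
residue field and uniformiser `λ`, `2 ∈ Oˣ`, `q_i ≡ 1`, `q_i ≠ 1`, `δ_i ≡ 0 mod λ`;
the facts of K2 (`R^χ_∞` is a domain, `𝔮_ur` is prime and does not contain the Cramer elements);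
`T0` the base Hecke ring (commutative, finite over `O`) acting faithfully on `O^d`, `d > 0`;
`B (i, k) ∈ T0` the base values of the six variables of `i`.
If every level is inhabited, there is a prime `𝔓` of `T0` with `λ ∉ 𝔓` containing
`B (i, 0), B (i, 1), B (i, 2)` (the entries of `Σ⁰_i − 1`) for every trivial prime `i`. -/
def StmtOutTW : Prop :=
  ∀ (O : Type) [CommRing O] [IsDomain O] [IsDiscreteValuationRing O]
    [IsAdicComplete (maximalIdeal O) O] [Finite (ResidueField O)]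
    (lam : O), maximalIdeal O = Ideal.span {lam} → IsUnit (2 : O) →
    ∀ (ι τ : Type) [Fintype ι] [Fintype τ] (q δ : ι → O),
    (∀ i, ∃ r, q i = 1 + lam * r) → (∀ i, q i ≠ 1) → (∀ i, ∃ r, δ i = lam * r) →
    ∀ (m d : ℕ), 3 * Fintype.card ι + Fintype.card τ ≤ m → 0 < d →
    (rtk2Ichi τ δ).IsPrime → (rtk2Qur ι τ lam).IsPrime →
    (∀ i, (rtk2Cramer q i : Rtk2P O ι τ) ∉ rtk2Qur ι τ lam) →
    ∀ (T0 : Type) [CommRing T0] [Algebra O T0] [Module.Finite O T0]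
      (j : T0 →ₐ[O] Matrix (Fin d) (Fin d) O), Function.Injective j →
    ∀ B : ι × Fin 6 → T0,
    (∀ n : ℕ, ∃ ρ1 ρχ, TWLevelP (τ := τ) q δ lam m d (fun x => j (B x)) (Set.range j) n ρ1 ρχ) →
    ∃ 𝔓 : Ideal T0, 𝔓.IsPrime ∧ algebraMap O T0 lam ∉ 𝔓 ∧
      ∀ i, B (i, 0) ∈ 𝔓 ∧ B (i, 1) ∈ 𝔓 ∧ B (i, 2) ∈ 𝔓

end Level

/-! ## The producer-facing form -/

section Datum

variable {O : Type*} [CommRing O] {ι τ : Type*}

/-- The entries of a family of `2 × 2` matrices, as a subset of the ring. -/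
def rttwEntries {T : Type*} (M : ι → Matrix (Fin 2) (Fin 2) T) : Set T :=
  {y | ∃ (i : ι) (a b : Fin 2), y = M i a b}

/-- The Cayley parameter `Ψ = (2U − tr U)/(2 + tr U)` of `U = Φ/s`, written without division:
`Ψ` is the Cayley parameter of `Φ` with respect to `s` if `(2 s + tr Φ) Ψ = 2 Φ − tr Φ`.
(Then `tr Ψ = 0` and `Φ = s ((1 + ν) + 2Ψ)/(1 − ν)`, `ν = −det Ψ`, when `det Φ = s²`.) -/
def IsCayleyParam {T : Type*} [CommRing T] (s : T) (Phi Psi : Matrix (Fin 2) (Fin 2) T) : Prop :=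
  (2 * s + Phi.trace) • Psi = 2 • Phi - Phi.trace • (1 : Matrix (Fin 2) (Fin 2) T)

/-- **One side of a Taylor–Wiles datum** (type `1` or type `χ`), at a finite level.
`Sn` is the coefficient ring (`S ⧸ 𝔪 ^ n`), `T` the framed Hecke ring (commutative), `j` its
action on the free module `Sn^d`; `Sig i`, `Phi i ∈ M₂(T)` are the (framed) images of the
generator of tame inertia and of the Frobenius at the trivial prime `i`; `x t` are the further
generators.  `t i` is half the trace of `Sig i` (`1` for type `1`, `(ζ_i + ζ_i⁻¹)/2` for type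
`χ`), `s i` the chosen square root of `q_i` (`≡ ρ̄(Frob_i)`).
* `gen` : `Sn` acts through the `O`-subalgebra generated by the entries of `Sig`, `Phi` and
  the `x t` (this is K3 together with the local–global compatibility at the Taylor–Wiles primes). -/
structure TWSide {Sn : Type*} [CommRing Sn] [Algebra O Sn] {d : ℕ} (t s : ι → O)
    {T : Type*} [CommRing T] [Algebra O T] (j : T →ₐ[O] Matrix (Fin d) (Fin d) Sn)
    (Sig Phi : ι → Matrix (Fin 2) (Fin 2) T) (x : τ → T) : Prop where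
  tr_sig : ∀ i, (Sig i).trace = algebraMap O T (2 * t i)
  det_sig : ∀ i, (Sig i).det = 1
  det_phi : ∀ i, (Phi i).det = algebraMap O T (s i ^ 2)
  nil_sig : ∀ i a b, IsNilpotent ((Sig i - algebraMap O T (t i) • (1 : Matrix (Fin 2) (Fin 2) T)) a b)
  nil_phi : ∀ i a b, IsNilpotent ((Phi i - algebraMap O T (s i) • (1 : Matrix (Fin 2) (Fin 2) T)) a b)
  nil_x : ∀ k, IsNilpotent (x k)
  gen : ∀ c : Sn, ∃ u ∈ Algebra.adjoin O (rttwEntries Sig ∪ rttwEntries Phi ∪ Set.range x),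
    j u = algebraMap Sn (Matrix (Fin d) (Fin d) Sn) c

end Datum

section DatumN

variable {O : Type*} [CommRing O] [IsLocalRing O] {ι τ : Type*}

/-- **The Taylor–Wiles datum at level `n`, producer-facing form** (matrix form; what
K3 + K5 + K6 + K7 deliver together).  `q i = s i ^ 2` is the image of the `i`-th trivial prime
in `O`, `tχ i = (ζ_i + ζ_i⁻¹)/2`, `δ i = (ζ_i − ζ_i⁻¹)/2` (so `tχ_i² − δ_i² = 1`).
Base: `T0`, `j0`, `Sig0`, `Phi0` (the level `N` itself).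
* type `1`: `tr Σ = 2`, `Φ (Σ − 1) = q (Σ − 1) Φ`;   type `χ`: `tr Σ = 2 tχ`, `Φ Σ = Σ Φ`;
* `cong_*` : the two sides agree modulo `λ`, entry by entry;
* `base_*` : modulo `𝔞` the type `1` side is the base. -/
structure TWDatum (q s tχ : ι → O) (lam : O) (m d : ℕ)
    {T0 : Type*} [CommRing T0] [Algebra O T0] (j0 : T0 →ₐ[O] Matrix (Fin d) (Fin d) O)
    (Sig0 Phi0 : ι → Matrix (Fin 2) (Fin 2) T0) (n : ℕ)
    {T1 : Type*} [CommRing T1] [Algebra O T1]
    (j1 : T1 →ₐ[O] Matrix (Fin d) (Fin d) (RttwS O m ⧸ maximalIdeal (RttwS O m) ^ n))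
    (Sig1 Phi1 : ι → Matrix (Fin 2) (Fin 2) T1) (x1 : τ → T1)
    {Tχ : Type*} [CommRing Tχ] [Algebra O Tχ]
    (jχ : Tχ →ₐ[O] Matrix (Fin d) (Fin d) (RttwS O m ⧸ maximalIdeal (RttwS O m) ^ n))
    (Sigχ Phiχ : ι → Matrix (Fin 2) (Fin 2) Tχ) (xχ : τ → Tχ) : Prop where
  side1 : TWSide (fun _ => (1 : O)) s j1 Sig1 Phi1 x1
  sideχ : TWSide tχ s jχ Sigχ Phiχ xχ
  rel1 : ∀ i, Phi1 i * (Sig1 i - 1) = algebraMap O T1 (q i) • ((Sig1 i - 1) * Phi1 i)
  relχ : ∀ i, Phiχ i * Sigχ i = Sigχ i * Phiχ i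
  cong_sig : ∀ i a b,
    (j1 (Sig1 i a b)).map (Ideal.Quotient.factor
        (le_sup_right : maximalIdeal (RttwS O m) ^ n ≤ rttwLam m lam ⊔ maximalIdeal (RttwS O m) ^ n)) =
      (jχ (Sigχ i a b)).map (Ideal.Quotient.factor
        (le_sup_right : maximalIdeal (RttwS O m) ^ n ≤ rttwLam m lam ⊔ maximalIdeal (RttwS O m) ^ n))
  cong_phi : ∀ i a b,
    (j1 (Phi1 i a b)).map (Ideal.Quotient.factor
        (le_sup_right : maximalIdeal (RttwS O m) ^ n ≤ rttwLam m lam ⊔ maximalIdeal (RttwS O m) ^ n)) =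
      (jχ (Phiχ i a b)).map (Ideal.Quotient.factor
        (le_sup_right : maximalIdeal (RttwS O m) ^ n ≤ rttwLam m lam ⊔ maximalIdeal (RttwS O m) ^ n))
  cong_x : ∀ k,
    (j1 (x1 k)).map (Ideal.Quotient.factor
        (le_sup_right : maximalIdeal (RttwS O m) ^ n ≤ rttwLam m lam ⊔ maximalIdeal (RttwS O m) ^ n)) =
      (jχ (xχ k)).map (Ideal.Quotient.factor
        (le_sup_right : maximalIdeal (RttwS O m) ^ n ≤ rttwLam m lam ⊔ maximalIdeal (RttwS O m) ^ n))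
  base_sig : ∀ i a b,
    (j1 (Sig1 i a b)).map (Ideal.Quotient.factor
        (le_sup_right : maximalIdeal (RttwS O m) ^ n ≤ rttwAug O m ⊔ maximalIdeal (RttwS O m) ^ n)) =
      rttwBaseRed m d n (j0 (Sig0 i a b))
  base_phi : ∀ i a b,
    (j1 (Phi1 i a b)).map (Ideal.Quotient.factor
        (le_sup_right : maximalIdeal (RttwS O m) ^ n ≤ rttwAug O m ⊔ maximalIdeal (RttwS O m) ^ n)) =
      rttwBaseRed m d n (j0 (Phi0 i a b))
  base_T0 : ∀ u : T1, ∃ t0 : T0,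
    (j1 u).map (Ideal.Quotient.factor
        (le_sup_right : maximalIdeal (RttwS O m) ^ n ≤ rttwAug O m ⊔ maximalIdeal (RttwS O m) ^ n)) =
      rttwBaseRed m d n (j0 t0)

/-- The base values of the six variables of the trivial prime `i`:
`a, b, c` = entries `(0,0), (0,1), (1,0)` of `Σ⁰_i − 1`, `X, Y, Z` = the same entries of the
Cayley parameter `Ψ⁰_i`. -/
def rttwBaseVal {T0 : Type*} [CommRing T0] (Sig0 Psi0 : ι → Matrix (Fin 2) (Fin 2) T0)
    (p : ι × Fin 6) : T0 :=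
  ![(Sig0 p.1 - 1) 0 0, (Sig0 p.1 - 1) 0 1, (Sig0 p.1 - 1) 1 0,
    Psi0 p.1 0 0, Psi0 p.1 0 1, Psi0 p.1 1 0] p.2

/-- **GLUE 2 (G2), statement.**  A Taylor–Wiles datum at level `n` gives a level datum
`TWLevelP n`, with base values `rttwBaseVal Sig0 Psi0` (`Psi0 i` the Cayley parameter of
`Phi0 i`).  [Universal property of `P` for commuting nilpotent images, Cayley transform,
`2 × 2` identities: the relations of `rtk2Ione`, `rtk2Ichi` hold.] -/
def StmtG2 : Prop :=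
  ∀ (O : Type) [CommRing O] [IsDomain O] [IsDiscreteValuationRing O]
    [IsAdicComplete (maximalIdeal O) O] [Finite (ResidueField O)]
    (lam : O), maximalIdeal O = Ideal.span {lam} → IsUnit (2 : O) →
    ∀ (ι τ : Type) [Fintype ι] [Fintype τ] (q s tχ δ : ι → O),
    (∀ i, s i ^ 2 = q i) → (∀ i, ∃ r, s i = 1 + lam * r ∨ s i = -1 + lam * r) →
    (∀ i, tχ i ^ 2 - δ i ^ 2 = 1) → (∀ i, ∃ r, tχ i = 1 + lam * r) → (∀ i, ∃ r, δ i = lam * r) →
    ∀ (m d : ℕ) (T0 : Type) [CommRing T0] [Algebra O T0]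
      (j0 : T0 →ₐ[O] Matrix (Fin d) (Fin d) O)
      (Sig0 Phi0 Psi0 : ι → Matrix (Fin 2) (Fin 2) T0),
    (∀ i, IsCayleyParam (algebraMap O T0 (s i)) (Phi0 i) (Psi0 i)) →
    ∀ (n : ℕ) (T1 : Type) [CommRing T1] [Algebra O T1]
      (j1 : T1 →ₐ[O] Matrix (Fin d) (Fin d) (RttwS O m ⧸ maximalIdeal (RttwS O m) ^ n))
      (Sig1 Phi1 : ι → Matrix (Fin 2) (Fin 2) T1) (x1 : τ → T1)
      (Tχ : Type) [CommRing Tχ] [Algebra O Tχ]
      (jχ : Tχ →ₐ[O] Matrix (Fin d) (Fin d) (RttwS O m ⧸ maximalIdeal (RttwS O m) ^ n))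
      (Sigχ Phiχ : ι → Matrix (Fin 2) (Fin 2) Tχ) (xχ : τ → Tχ),
    TWDatum q s tχ lam m d j0 Sig0 Phi0 n j1 Sig1 Phi1 x1 jχ Sigχ Phiχ xχ →
    ∃ ρ1 ρχ, TWLevelP (τ := τ) q δ lam m d (fun x => j0 (rttwBaseVal Sig0 Psi0 x))
      (Set.range j0) n ρ1 ρχ

end DatumN

end Fermat.Agent.RT


end ZBRT_003_1

/-! ### bundled: `Fermat.Agent.RT.PlanTWE` -/
section ZBRT_003_2
/-
K-machine (row 37 / S59): THE PRODUCER CONTRACT, SYMMETRIC ("EVEN") FORM.   Captain: helper43.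

Why.  At a Taylor–Wiles prime `q` the traces of the Hecke-side representation only see
`[δ] + [δ]⁻¹` (`δ ∈ Δ_q`): without choosing one of the two Frobenius eigenlines (which would need
a local–global statement for `U_q`) the image of the deformation ring does not contain the group
ring `O[Δ_q]` but only its part invariant under inversion.  In the coordinate
`Y_q = [δ_q]^{1/2} − [δ_q]^{−1/2}` inversion is `Y ↦ −Y`, and `tr ρ(σ_q) − 2 = Y_q²`.
So `S = O[[Y_1, …, Y_h, z]]` acts on the level modules as before (free, with the fixed base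
modulo `𝔞`), but only the series that are EVEN in `Y_1, …, Y_h` act through `P`.

This file is `RT/PlanTW.lean` with the clauses `scal1`, `scalχ`, `gen` restricted to the even
series:
* `rttwEven O m h`  : the series even in each of the first `h` variables;
* `TWLevelE`, `StmtOutTWE`  (glue-facing; `TWLevelP → TWLevelE`, `StmtOutTWE → StmtOutTW`);
* `TWSideE`, `TWDatumE`, `StmtG2E`  (producer-facing).
Mathlib-only.
-/

set_option autoImplicit false

namespace Fermat.Agent.RT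

open Fermat.Agent.RT.K2 MvPowerSeries IsLocalRing

/-- The power series in `w_1, …, w_m` that are even in each of the first `h` variables. -/
def rttwEven (O : Type*) [CommRing O] (m h : ℕ) : Set (RttwS O m) :=
  {f | ∀ e : Fin m →₀ ℕ, MvPowerSeries.coeff e f ≠ 0 → ∀ i : Fin m, (i : ℕ) < h → Even (e i)}

theorem rttwEven_zero_right (O : Type*) [CommRing O] (m : ℕ) (f : RttwS O m) :
    f ∈ rttwEven O m 0 := fun _ _ _ hi => absurd hi (Nat.not_lt_zero _)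

section Level

variable {O : Type*} [CommRing O] [IsLocalRing O] {ι τ : Type*}

/-- **The level datum, glue-facing form, even scalars.**  As `TWLevelP`, but only the series
even in the first `h` variables are asked to act through `P`. -/
structure TWLevelE (q δ : ι → O) (lam : O) (m h d : ℕ)
    (B : ι × Fin 6 → Matrix (Fin d) (Fin d) O) (T0 : Set (Matrix (Fin d) (Fin d) O)) (n : ℕ)
    (ρ1 ρχ : Rtk2P O ι τ →ₐ[O]
      Matrix (Fin d) (Fin d) (RttwS O m ⧸ maximalIdeal (RttwS O m) ^ n)) : Prop where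
  kills1 : ∀ u ∈ rtk2Ione τ q, ρ1 u = 0
  killsχ : ∀ u ∈ rtk2Ichi τ δ, ρχ u = 0
  cong : ∀ u : Rtk2P O ι τ,
    (ρ1 u).map (Ideal.Quotient.factor
        (le_sup_right : maximalIdeal (RttwS O m) ^ n ≤ rttwLam m lam ⊔ maximalIdeal (RttwS O m) ^ n)) =
      (ρχ u).map (Ideal.Quotient.factor
        (le_sup_right : maximalIdeal (RttwS O m) ^ n ≤ rttwLam m lam ⊔ maximalIdeal (RttwS O m) ^ n))
  scal1 : ∀ c ∈ rttwEven O m h, ∃ u : Rtk2P O ι τ,
    ρ1 u = algebraMap (RttwS O m)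
      (Matrix (Fin d) (Fin d) (RttwS O m ⧸ maximalIdeal (RttwS O m) ^ n)) c
  scalχ : ∀ c ∈ rttwEven O m h, ∃ u : Rtk2P O ι τ,
    ρχ u = algebraMap (RttwS O m)
      (Matrix (Fin d) (Fin d) (RttwS O m ⧸ maximalIdeal (RttwS O m) ^ n)) c
  base_loc : ∀ (i : ι) (k : Fin 6),
    (ρ1 (X (rtk2ix i k))).map (Ideal.Quotient.factor
        (le_sup_right : maximalIdeal (RttwS O m) ^ n ≤ rttwAug O m ⊔ maximalIdeal (RttwS O m) ^ n)) =
      rttwBaseRed m d n (B (i, k))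
  base_T0 : ∀ u : Rtk2P O ι τ, ∃ t ∈ T0,
    (ρ1 u).map (Ideal.Quotient.factor
        (le_sup_right : maximalIdeal (RttwS O m) ^ n ≤ rttwAug O m ⊔ maximalIdeal (RttwS O m) ^ n)) =
      rttwBaseRed m d n t

/-- The old level datum is an even one (for every `h`). -/
theorem TWLevelP.toE {q δ : ι → O} {lam : O} {m d : ℕ}
    {B : ι × Fin 6 → Matrix (Fin d) (Fin d) O} {T0 : Set (Matrix (Fin d) (Fin d) O)} {n : ℕ}
    {ρ1 ρχ : Rtk2P O ι τ →ₐ[O]
      Matrix (Fin d) (Fin d) (RttwS O m ⧸ maximalIdeal (RttwS O m) ^ n)}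
    (H : TWLevelP q δ lam m d B T0 n ρ1 ρχ) (h : ℕ) :
    TWLevelE q δ lam m h d B T0 n ρ1 ρχ where
  kills1 := H.kills1
  killsχ := H.killsχ
  cong := H.cong
  scal1 := fun c _ => H.scal1 c
  scalχ := fun c _ => H.scalχ c
  base_loc := H.base_loc
  base_T0 := H.base_T0

/-- **GLUE 1, even form (piece EVEN), statement.**  Exactly `StmtOutTW`, with `TWLevelE` (for
some fixed `h`) in place of `TWLevelP`.
Proof (helper97's short route): patch as in `RT/Out.lean` (the scalars are treated one by one);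
apply `rtk4_out_weak_of_dim` to the module `S^d` over `S″ = O[[w]]` acting through
`sq : w_i ↦ w_i ^ 2` (`i < h`), `w_i ↦ w_i` (`h ≤ i`) — `S` is finite over `S″` —; the kernel of the
action on `S^d ⧸ 𝔞 S^d` is nilpotent modulo the kernel of the action on `S^d ⧸ sq(𝔞″) S^d`
because `𝔞 ^ (h + 1) ≤ sq(𝔞″) S`. -/
def StmtOutTWE : Prop :=
  ∀ (O : Type) [CommRing O] [IsDomain O] [IsDiscreteValuationRing O]
    [IsAdicComplete (maximalIdeal O) O] [Finite (ResidueField O)]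
    (lam : O), maximalIdeal O = Ideal.span {lam} → IsUnit (2 : O) →
    ∀ (ι τ : Type) [Fintype ι] [Fintype τ] (q δ : ι → O),
    (∀ i, ∃ r, q i = 1 + lam * r) → (∀ i, q i ≠ 1) → (∀ i, ∃ r, δ i = lam * r) →
    ∀ (m h d : ℕ), 3 * Fintype.card ι + Fintype.card τ ≤ m → 0 < d →
    (rtk2Ichi τ δ).IsPrime → (rtk2Qur ι τ lam).IsPrime →
    (∀ i, (rtk2Cramer q i : Rtk2P O ι τ) ∉ rtk2Qur ι τ lam) →
    ∀ (T0 : Type) [CommRing T0] [Algebra O T0] [Module.Finite O T0]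
      (j : T0 →ₐ[O] Matrix (Fin d) (Fin d) O), Function.Injective j →
    ∀ B : ι × Fin 6 → T0,
    (∀ n : ℕ, ∃ ρ1 ρχ,
      TWLevelE (τ := τ) q δ lam m h d (fun x => j (B x)) (Set.range j) n ρ1 ρχ) →
    ∃ 𝔓 : Ideal T0, 𝔓.IsPrime ∧ algebraMap O T0 lam ∉ 𝔓 ∧
      ∀ i, B (i, 0) ∈ 𝔓 ∧ B (i, 1) ∈ 𝔓 ∧ B (i, 2) ∈ 𝔓

/-- The even form implies the old one. -/
theorem stmtOutTW_of_E (H : StmtOutTWE) : StmtOutTW := by
  intro O _ _ _ _ _ lam hlam h2 ι τ _ _ q δ hq hq1 hδ m d hm hd hχ hQ hCr T0 _ _ _ j hj B hlev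
  refine H O lam hlam h2 ι τ q δ hq hq1 hδ m 0 d hm hd hχ hQ hCr T0 j hj B fun n => ?_
  obtain ⟨ρ1, ρχ, hρ⟩ := hlev n
  exact ⟨ρ1, ρχ, hρ.toE 0⟩

end Level

/-! ## The producer-facing form -/

section Datum

variable {O : Type*} [CommRing O] {ι τ : Type*}

/-- **One side of a Taylor–Wiles datum, even form**: as `TWSide`, but only the elements of
`E ⊆ Sn` (the even part) are asked to act through the subalgebra generated by the entries of
`Sig`, `Phi` and the `x t`. -/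
structure TWSideE {Sn : Type*} [CommRing Sn] [Algebra O Sn] (E : Set Sn) {d : ℕ} (t s : ι → O)
    {T : Type*} [CommRing T] [Algebra O T] (j : T →ₐ[O] Matrix (Fin d) (Fin d) Sn)
    (Sig Phi : ι → Matrix (Fin 2) (Fin 2) T) (x : τ → T) : Prop where
  tr_sig : ∀ i, (Sig i).trace = algebraMap O T (2 * t i)
  det_sig : ∀ i, (Sig i).det = 1
  det_phi : ∀ i, (Phi i).det = algebraMap O T (s i ^ 2)
  nil_sig : ∀ i a b, IsNilpotent ((Sig i - algebraMap O T (t i) • (1 : Matrix (Fin 2) (Fin 2) T)) a b)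
  nil_phi : ∀ i a b, IsNilpotent ((Phi i - algebraMap O T (s i) • (1 : Matrix (Fin 2) (Fin 2) T)) a b)
  nil_x : ∀ k, IsNilpotent (x k)
  gen : ∀ c ∈ E, ∃ u ∈ Algebra.adjoin O (rttwEntries Sig ∪ rttwEntries Phi ∪ Set.range x),
    j u = algebraMap Sn (Matrix (Fin d) (Fin d) Sn) c

theorem TWSide.toE {Sn : Type*} [CommRing Sn] [Algebra O Sn] {d : ℕ} {t s : ι → O}
    {T : Type*} [CommRing T] [Algebra O T] {j : T →ₐ[O] Matrix (Fin d) (Fin d) Sn}
    {Sig Phi : ι → Matrix (Fin 2) (Fin 2) T} {x : τ → T} (H : TWSide t s j Sig Phi x)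
    (E : Set Sn) : TWSideE E t s j Sig Phi x where
  tr_sig := H.tr_sig
  det_sig := H.det_sig
  det_phi := H.det_phi
  nil_sig := H.nil_sig
  nil_phi := H.nil_phi
  nil_x := H.nil_x
  gen := fun c _ => H.gen c

end Datum

section DatumN

variable {O : Type*} [CommRing O] [IsLocalRing O] {ι τ : Type*}

/-- The image of the even series in `S ⧸ 𝔪 ^ n`. -/
def rttwEvenQ (O : Type*) [CommRing O] [IsLocalRing O] (m h n : ℕ) :
    Set (RttwS O m ⧸ maximalIdeal (RttwS O m) ^ n) :=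
  {c | ∃ f ∈ rttwEven O m h, c = Ideal.Quotient.mk (maximalIdeal (RttwS O m) ^ n) f}

/-- **The Taylor–Wiles datum at level `n`, producer-facing form, even scalars.**
As `TWDatum`; the first `h` variables of `S` are the Taylor–Wiles variables `Y_q`. -/
structure TWDatumE (q s tχ : ι → O) (lam : O) (m h d : ℕ)
    {T0 : Type*} [CommRing T0] [Algebra O T0] (j0 : T0 →ₐ[O] Matrix (Fin d) (Fin d) O)
    (Sig0 Phi0 : ι → Matrix (Fin 2) (Fin 2) T0) (n : ℕ)
    {T1 : Type*} [CommRing T1] [Algebra O T1]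
    (j1 : T1 →ₐ[O] Matrix (Fin d) (Fin d) (RttwS O m ⧸ maximalIdeal (RttwS O m) ^ n))
    (Sig1 Phi1 : ι → Matrix (Fin 2) (Fin 2) T1) (x1 : τ → T1)
    {Tχ : Type*} [CommRing Tχ] [Algebra O Tχ]
    (jχ : Tχ →ₐ[O] Matrix (Fin d) (Fin d) (RttwS O m ⧸ maximalIdeal (RttwS O m) ^ n))
    (Sigχ Phiχ : ι → Matrix (Fin 2) (Fin 2) Tχ) (xχ : τ → Tχ) : Prop where
  side1 : TWSideE (rttwEvenQ O m h n) (fun _ => (1 : O)) s j1 Sig1 Phi1 x1
  sideχ : TWSideE (rttwEvenQ O m h n) tχ s jχ Sigχ Phiχ xχ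
  rel1 : ∀ i, Phi1 i * (Sig1 i - 1) = algebraMap O T1 (q i) • ((Sig1 i - 1) * Phi1 i)
  relχ : ∀ i, Phiχ i * Sigχ i = Sigχ i * Phiχ i
  cong_sig : ∀ i a b,
    (j1 (Sig1 i a b)).map (Ideal.Quotient.factor
        (le_sup_right : maximalIdeal (RttwS O m) ^ n ≤ rttwLam m lam ⊔ maximalIdeal (RttwS O m) ^ n)) =
      (jχ (Sigχ i a b)).map (Ideal.Quotient.factor
        (le_sup_right : maximalIdeal (RttwS O m) ^ n ≤ rttwLam m lam ⊔ maximalIdeal (RttwS O m) ^ n))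
  cong_phi : ∀ i a b,
    (j1 (Phi1 i a b)).map (Ideal.Quotient.factor
        (le_sup_right : maximalIdeal (RttwS O m) ^ n ≤ rttwLam m lam ⊔ maximalIdeal (RttwS O m) ^ n)) =
      (jχ (Phiχ i a b)).map (Ideal.Quotient.factor
        (le_sup_right : maximalIdeal (RttwS O m) ^ n ≤ rttwLam m lam ⊔ maximalIdeal (RttwS O m) ^ n))
  cong_x : ∀ k,
    (j1 (x1 k)).map (Ideal.Quotient.factor
        (le_sup_right : maximalIdeal (RttwS O m) ^ n ≤ rttwLam m lam ⊔ maximalIdeal (RttwS O m) ^ n)) =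
      (jχ (xχ k)).map (Ideal.Quotient.factor
        (le_sup_right : maximalIdeal (RttwS O m) ^ n ≤ rttwLam m lam ⊔ maximalIdeal (RttwS O m) ^ n))
  base_sig : ∀ i a b,
    (j1 (Sig1 i a b)).map (Ideal.Quotient.factor
        (le_sup_right : maximalIdeal (RttwS O m) ^ n ≤ rttwAug O m ⊔ maximalIdeal (RttwS O m) ^ n)) =
      rttwBaseRed m d n (j0 (Sig0 i a b))
  base_phi : ∀ i a b,
    (j1 (Phi1 i a b)).map (Ideal.Quotient.factor
        (le_sup_right : maximalIdeal (RttwS O m) ^ n ≤ rttwAug O m ⊔ maximalIdeal (RttwS O m) ^ n)) =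
      rttwBaseRed m d n (j0 (Phi0 i a b))
  base_T0 : ∀ u : T1, ∃ t0 : T0,
    (j1 u).map (Ideal.Quotient.factor
        (le_sup_right : maximalIdeal (RttwS O m) ^ n ≤ rttwAug O m ⊔ maximalIdeal (RttwS O m) ^ n)) =
      rttwBaseRed m d n (j0 t0)

/-- **GLUE 2, even form (G2E), statement.**  Exactly `StmtG2` with `TWDatumE`, `TWLevelE`. -/
def StmtG2E : Prop :=
  ∀ (O : Type) [CommRing O] [IsDomain O] [IsDiscreteValuationRing O]
    [IsAdicComplete (maximalIdeal O) O] [Finite (ResidueField O)]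
    (lam : O), maximalIdeal O = Ideal.span {lam} → IsUnit (2 : O) →
    ∀ (ι τ : Type) [Fintype ι] [Fintype τ] (q s tχ δ : ι → O),
    (∀ i, s i ^ 2 = q i) → (∀ i, ∃ r, s i = 1 + lam * r ∨ s i = -1 + lam * r) →
    (∀ i, tχ i ^ 2 - δ i ^ 2 = 1) → (∀ i, ∃ r, tχ i = 1 + lam * r) → (∀ i, ∃ r, δ i = lam * r) →
    ∀ (m h d : ℕ) (T0 : Type) [CommRing T0] [Algebra O T0]
      (j0 : T0 →ₐ[O] Matrix (Fin d) (Fin d) O)
      (Sig0 Phi0 Psi0 : ι → Matrix (Fin 2) (Fin 2) T0),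
    (∀ i, IsCayleyParam (algebraMap O T0 (s i)) (Phi0 i) (Psi0 i)) →
    ∀ (n : ℕ) (T1 : Type) [CommRing T1] [Algebra O T1]
      (j1 : T1 →ₐ[O] Matrix (Fin d) (Fin d) (RttwS O m ⧸ maximalIdeal (RttwS O m) ^ n))
      (Sig1 Phi1 : ι → Matrix (Fin 2) (Fin 2) T1) (x1 : τ → T1)
      (Tχ : Type) [CommRing Tχ] [Algebra O Tχ]
      (jχ : Tχ →ₐ[O] Matrix (Fin d) (Fin d) (RttwS O m ⧸ maximalIdeal (RttwS O m) ^ n))
      (Sigχ Phiχ : ι → Matrix (Fin 2) (Fin 2) Tχ) (xχ : τ → Tχ),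
    TWDatumE q s tχ lam m h d j0 Sig0 Phi0 n j1 Sig1 Phi1 x1 jχ Sigχ Phiχ xχ →
    ∃ ρ1 ρχ, TWLevelE (τ := τ) q δ lam m h d (fun x => j0 (rttwBaseVal Sig0 Psi0 x))
      (Set.range j0) n ρ1 ρχ

end DatumN

end Fermat.Agent.RT


end ZBRT_003_2

/-! ### bundled: `Fermat.Agent.RIB.TR` -/
section ZBRT_003_3
/-
Row 37, the K-machine at the trivial primes: TOP-LEVEL WIRING of `StmtTR`.   Captain: helper43.

`ProdData P N q` is everything the arithmetic side (K1, K3, K5, K6, K7, K8, INTERP; see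
NOTES/RT-TW.md) has to produce for a Frey package `P` and a level `N` all of whose odd primes are
trivial:
* the coefficient ring `O` and the numerical data of the trivial primes `ι`;
* the base Hecke ring `T0 ↪ M_d(O)` with the matrices `Σ⁰_i`, `Φ⁰_i`;
* `level`  : a Taylor–Wiles datum `RT.TWDatum n` for EVERY `n`;
* `interp` : a prime `𝔓` of `T0` with `λ ∉ 𝔓` and `Σ⁰_i ≡ 1 mod 𝔓` gives `Lowered P N q`.

`stmtTR_of` : `StmtTR` from `StmtProd`, the two algebraic glue statements `RT.StmtG2`,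
`RT.StmtOutTW` and the facts on the local rings (`StmtK2Facts`).
-/

set_option autoImplicit false

open WeierstrassCurve WeierstrassCurve.Affine WeierstrassCurve.Affine.Point

namespace Fermat.Agent.RIB

open Fermat.Agent.RT Fermat.Agent.RT.K2 IsLocalRing

/-- **The product of the arithmetic side** for `(P, N, q)`. -/
structure ProdData (P : FreyPackage) (N q : ℕ) : Type 1 where
  /-- the coefficient ring (`ℤ_p[ζ_p]`) -/
  O : Type
  [instCommRing : CommRing O]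
  [instIsDomain : IsDomain O]
  [instDVR : IsDiscreteValuationRing O]
  [instComplete : IsAdicComplete (maximalIdeal O) O]
  [instFinite : Finite (ResidueField O)]
  lam : O
  hlam : maximalIdeal O = Ideal.span {lam}
  h2 : IsUnit (2 : O)
  /-- the trivial primes -/
  ι : Type
  /-- the free variables -/
  τ : Type
  [instFintypeι : Fintype ι]
  [instFintypeτ : Fintype τ]
  /-- `qq i` = the `i`-th trivial prime in `O`, `s i ^ 2 = qq i`, `tχ i = (ζ + ζ⁻¹)/2`,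
  `δ i = (ζ − ζ⁻¹)/2` -/
  qq : ι → O
  s : ι → O
  tχ : ι → O
  δ : ι → O
  hs : ∀ i, s i ^ 2 = qq i
  hs1 : ∀ i, ∃ r, s i = 1 + lam * r ∨ s i = -1 + lam * r
  hqq : ∀ i, ∃ r, qq i = 1 + lam * r
  hqq1 : ∀ i, qq i ≠ 1
  htδ : ∀ i, tχ i ^ 2 - δ i ^ 2 = 1
  htχ : ∀ i, ∃ r, tχ i = 1 + lam * r
  hδ : ∀ i, ∃ r, δ i = lam * r
  hδ0 : ∀ i, δ i ≠ 0
  m : ℕ
  d : ℕ
  hm : 3 * Fintype.card ι + Fintype.card τ ≤ m
  hd : 0 < d
  /-- the base Hecke ring -/
  T0 : Type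
  [instCommRingT0 : CommRing T0]
  [instAlgebraT0 : Algebra O T0]
  [instFiniteT0 : Module.Finite O T0]
  j0 : T0 →ₐ[O] Matrix (Fin d) (Fin d) O
  hj0 : Function.Injective j0
  Sig0 : ι → Matrix (Fin 2) (Fin 2) T0
  Phi0 : ι → Matrix (Fin 2) (Fin 2) T0
  Psi0 : ι → Matrix (Fin 2) (Fin 2) T0
  hPsi0 : ∀ i, IsCayleyParam (algebraMap O T0 (s i)) (Phi0 i) (Psi0 i)
  level : ∀ n : ℕ, ∃ (T1 : Type) (_ : CommRing T1) (_ : Algebra O T1)
      (j1 : T1 →ₐ[O] Matrix (Fin d) (Fin d) (RttwS O m ⧸ maximalIdeal (RttwS O m) ^ n))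
      (Sig1 Phi1 : ι → Matrix (Fin 2) (Fin 2) T1) (x1 : τ → T1)
      (Tχ : Type) (_ : CommRing Tχ) (_ : Algebra O Tχ)
      (jχ : Tχ →ₐ[O] Matrix (Fin d) (Fin d) (RttwS O m ⧸ maximalIdeal (RttwS O m) ^ n))
      (Sigχ Phiχ : ι → Matrix (Fin 2) (Fin 2) Tχ) (xχ : τ → Tχ),
      TWDatum qq s tχ lam m d j0 Sig0 Phi0 n j1 Sig1 Phi1 x1 jχ Sigχ Phiχ xχ
  interp : ∀ 𝔓 : Ideal T0, 𝔓.IsPrime → algebraMap O T0 lam ∉ 𝔓 →
    (∀ i, (Sig0 i - 1) 0 0 ∈ 𝔓 ∧ (Sig0 i - 1) 0 1 ∈ 𝔓 ∧ (Sig0 i - 1) 1 0 ∈ 𝔓) → Lowered P N q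

attribute [instance] ProdData.instCommRing ProdData.instIsDomain ProdData.instDVR
  ProdData.instComplete ProdData.instFinite ProdData.instFintypeι ProdData.instFintypeτ
  ProdData.instCommRingT0 ProdData.instAlgebraT0 ProdData.instFiniteT0

/-- **PROD**: the arithmetic side delivers `ProdData` in the situation of `StmtTR`. -/
def StmtProd : Prop :=
  ∀ (P : FreyPackage) (N q : ℕ), P.IsConductorLevel N → ¬ P.p ∣ N → q.Prime → q ≠ 2 →
    q ∣ N → GaloisRepIsIrreducible (K := AlgebraicClosure ℚ) ℚ P.freyCurve P.p →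
    P.ModularRepOfLevel N →
    (∀ r : ℕ, r.Prime → r ≠ 2 → r ∣ N → IsTrivialPrime P r) →
    Nonempty (ProdData P N q)

/-- **K2, the domain theorem** (helper27): `R^χ_∞ = P ⧸ rtk2Ichi` is a domain. -/
def StmtK2Dom : Prop :=
  ∀ (O : Type) [CommRing O] [IsDomain O] [IsDiscreteValuationRing O]
    (lam : O), maximalIdeal O = Ideal.span {lam} → IsUnit (2 : O) →
    ∀ (ι τ : Type) [Fintype ι] [Fintype τ] (δ : ι → O),
    (∀ i, ∃ r, δ i = lam * r) → (∀ i, δ i ≠ 0) → (rtk2Ichi τ δ).IsPrime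

/-- **K2-e** (helper97, landed as `rtk2b_Qur_isPrime`, `rtk2b_cramer_not_mem`): `𝔮_ur` is prime
and does not contain the Cramer elements. -/
def StmtK2Qur : Prop :=
  ∀ (O : Type) [CommRing O] [IsDomain O] [IsDiscreteValuationRing O]
    (lam : O), maximalIdeal O = Ideal.span {lam} → IsUnit (2 : O) →
    ∀ (ι τ : Type) [Fintype ι] [Fintype τ] (q : ι → O), (∀ i, ∃ r, q i = 1 + lam * r) →
    (rtk2Qur ι τ lam).IsPrime ∧ ∀ i, (rtk2Cramer q i : Rtk2P O ι τ) ∉ rtk2Qur ι τ lam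

/-- **TR-wiring.** -/
theorem stmtTR_of (hprod : StmtProd) (hG2 : StmtG2) (hout : StmtOutTW) (hdom : StmtK2Dom)
    (hqur : StmtK2Qur) : StmtTR := by
  intro P N q hcond hpN hq hq2 hqN hirr hmod hall
  obtain ⟨D⟩ := hprod P N q hcond hpN hq hq2 hqN hirr hmod hall
  have hχ : (rtk2Ichi D.τ D.δ).IsPrime :=
    hdom D.O D.lam D.hlam D.h2 D.ι D.τ D.δ D.hδ D.hδ0
  obtain ⟨hQ, hCr⟩ := hqur D.O D.lam D.hlam D.h2 D.ι D.τ D.qq D.hqq
  have hlev : ∀ n : ℕ, ∃ ρ1 ρχ, TWLevelP (τ := D.τ) D.qq D.δ D.lam D.m D.d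
      (fun x => D.j0 (rttwBaseVal D.Sig0 D.Psi0 x)) (Set.range D.j0) n ρ1 ρχ := by
    intro n
    obtain ⟨T1, i1, i2, j1, Sig1, Phi1, x1, Tχ, i3, i4, jχ, Sigχ, Phiχ, xχ, hdat⟩ := D.level n
    exact hG2 D.O D.lam D.hlam D.h2 D.ι D.τ D.qq D.s D.tχ D.δ D.hs D.hs1 D.htδ D.htχ D.hδ
      D.m D.d D.T0 D.j0 D.Sig0 D.Phi0 D.Psi0 D.hPsi0 n T1 j1 Sig1 Phi1 x1 Tχ jχ Sigχ Phiχ xχ hdat
  obtain ⟨𝔓, h𝔓, hlam𝔓, hB⟩ := hout D.O D.lam D.hlam D.h2 D.ι D.τ D.qq D.δ D.hqq D.hqq1 D.hδ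
    D.m D.d D.hm D.hd hχ hQ hCr D.T0 D.j0 D.hj0 (rttwBaseVal D.Sig0 D.Psi0) hlev
  refine D.interp 𝔓 h𝔓 hlam𝔓 fun i => ?_
  obtain ⟨h0, h1, h2⟩ := hB i
  exact ⟨h0, h1, h2⟩

end Fermat.Agent.RIB


end ZBRT_003_3

/-! ### bundled: `Fermat.Agent.RT.K2.Cramer` -/
section ZBRT_003_4

/-!
# RT-K2: the Cramer identity and the equality of the special fibres

* `rtk2_cramer_a/b/c` : `(1 − q_i)·D_i·a_i ∈ I_1` (and the same for `b_i`, `c_i`);
* `rtk2_Ione_sup_eq` : `I_1 + (λ) = I_χ + (λ)` when `q_i ≡ 1`, `δ_i ≡ 0 mod λ` and `2` is a unit.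
-/

set_option autoImplicit false

namespace Fermat.Agent.RT.K2

open MvPowerSeries

variable {O : Type*} [CommRing O] {ι τ : Type*}

theorem rtk2_g_mem_Ione (q : ι → O) (i : ι) : (rtk2g i : Rtk2P O ι τ) ∈ rtk2Ione τ q :=
  Ideal.subset_span ⟨(i, 0), rfl⟩

theorem rtk2_E11_mem_Ione (q : ι → O) (i : ι) : (rtk2E11 q i : Rtk2P O ι τ) ∈ rtk2Ione τ q :=
  Ideal.subset_span ⟨(i, 1), rfl⟩

theorem rtk2_E12_mem_Ione (q : ι → O) (i : ι) : (rtk2E12 q i : Rtk2P O ι τ) ∈ rtk2Ione τ q :=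
  Ideal.subset_span ⟨(i, 2), rfl⟩

theorem rtk2_E21_mem_Ione (q : ι → O) (i : ι) : (rtk2E21 q i : Rtk2P O ι τ) ∈ rtk2Ione τ q :=
  Ideal.subset_span ⟨(i, 3), rfl⟩

theorem rtk2_E22_mem_Ione (q : ι → O) (i : ι) : (rtk2E22 q i : Rtk2P O ι τ) ∈ rtk2Ione τ q :=
  Ideal.subset_span ⟨(i, 4), rfl⟩

theorem rtk2_f_mem_Ichi (δ : ι → O) (i : ι) : (rtk2f δ i : Rtk2P O ι τ) ∈ rtk2Ichi τ δ :=
  Ideal.subset_span ⟨(i, 0), rfl⟩

theorem rtk2_m1_mem_Ichi (δ : ι → O) (i : ι) : (rtk2m1 i : Rtk2P O ι τ) ∈ rtk2Ichi τ δ :=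
  Ideal.subset_span ⟨(i, 1), rfl⟩

theorem rtk2_m2_mem_Ichi (δ : ι → O) (i : ι) : (rtk2m2 i : Rtk2P O ι τ) ∈ rtk2Ichi τ δ :=
  Ideal.subset_span ⟨(i, 2), rfl⟩

theorem rtk2_m3_mem_Ichi (δ : ι → O) (i : ι) : (rtk2m3 i : Rtk2P O ι τ) ∈ rtk2Ichi τ δ :=
  Ideal.subset_span ⟨(i, 3), rfl⟩

theorem rtk2_a_mem_Iur (i : ι) : (rtk2a i : Rtk2P O ι τ) ∈ rtk2Iur O ι τ :=
  Ideal.subset_span ⟨(i, 0), rfl⟩

theorem rtk2_b_mem_Iur (i : ι) : (rtk2b i : Rtk2P O ι τ) ∈ rtk2Iur O ι τ :=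
  Ideal.subset_span ⟨(i, 1), rfl⟩

theorem rtk2_c_mem_Iur (i : ι) : (rtk2c i : Rtk2P O ι τ) ∈ rtk2Iur O ι τ :=
  Ideal.subset_span ⟨(i, 2), rfl⟩

/-- A membership criterion: to show `span (range gen) ≤ J` check the generators. -/
theorem rtk2_Ichi_le {δ : ι → O} {J : Ideal (Rtk2P O ι τ)}
    (h : ∀ i, rtk2f δ i ∈ J ∧ rtk2m1 i ∈ J ∧ rtk2m2 i ∈ J ∧ rtk2m3 i ∈ J) :
    rtk2Ichi τ δ ≤ J := by
  refine Ideal.span_le.mpr ?_
  rintro _ ⟨⟨i, k⟩, rfl⟩
  obtain ⟨h0, h1, h2, h3⟩ := h i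
  fin_cases k
  · exact h0
  · exact h1
  · exact h2
  · exact h3

theorem rtk2_Ione_le {q : ι → O} {J : Ideal (Rtk2P O ι τ)}
    (h : ∀ i, rtk2g i ∈ J ∧ rtk2E11 q i ∈ J ∧ rtk2E12 q i ∈ J ∧ rtk2E21 q i ∈ J ∧
      rtk2E22 q i ∈ J) :
    rtk2Ione τ q ≤ J := by
  refine Ideal.span_le.mpr ?_
  rintro _ ⟨⟨i, k⟩, rfl⟩
  obtain ⟨h0, h1, h2, h3, h4⟩ := h i
  fin_cases k
  · exact h0
  · exact h1
  · exact h2
  · exact h3
  · exact h4

theorem rtk2_Iur_le {J : Ideal (Rtk2P O ι τ)}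
    (h : ∀ i, (rtk2a i : Rtk2P O ι τ) ∈ J ∧ rtk2b i ∈ J ∧ rtk2c i ∈ J) :
    rtk2Iur O ι τ ≤ J := by
  refine Ideal.span_le.mpr ?_
  rintro _ ⟨⟨i, k⟩, rfl⟩
  obtain ⟨h0, h1, h2⟩ := h i
  fin_cases k
  · exact h0
  · exact h1
  · exact h2

/-- The unipotent relations lie in the unramified ideal `(a_i, b_i, c_i)`. -/
theorem rtk2_Ione_le_Iur (q : ι → O) : rtk2Ione τ q ≤ rtk2Iur O ι τ := by
  refine rtk2_Ione_le fun i => ⟨?_, ?_, ?_, ?_, ?_⟩
  · have : (rtk2g i : Rtk2P O ι τ) = rtk2a i * rtk2a i + rtk2c i * rtk2b i := by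
      unfold rtk2g; ring
    rw [this]
    exact Ideal.add_mem _ (Ideal.mul_mem_left _ _ (rtk2_a_mem_Iur i))
      (Ideal.mul_mem_left _ _ (rtk2_b_mem_Iur i))
  · unfold rtk2E11
    exact Ideal.add_mem _ (Ideal.sub_mem _ (Ideal.mul_mem_left _ _ (rtk2_a_mem_Iur i))
      (Ideal.mul_mem_left _ _ (rtk2_b_mem_Iur i))) (Ideal.mul_mem_left _ _ (rtk2_c_mem_Iur i))
  · unfold rtk2E12
    exact Ideal.add_mem _ (neg_mem (Ideal.mul_mem_left _ _ (rtk2_a_mem_Iur i)))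
      (Ideal.mul_mem_left _ _ (rtk2_b_mem_Iur i))
  · unfold rtk2E21
    exact Ideal.add_mem _ (Ideal.mul_mem_left _ _ (rtk2_a_mem_Iur i))
      (Ideal.mul_mem_left _ _ (rtk2_c_mem_Iur i))
  · unfold rtk2E22
    exact Ideal.sub_mem _ (Ideal.add_mem _ (neg_mem (Ideal.mul_mem_left _ _
      (rtk2_a_mem_Iur i))) (Ideal.mul_mem_left _ _ (rtk2_b_mem_Iur i)))
      (Ideal.mul_mem_left _ _ (rtk2_c_mem_Iur i))

/-- **Cramer identity**, first row. -/
theorem rtk2_cramer_a (q : ι → O) (i : ι) :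
    (1 - C (q i)) * rtk2Cramer q i * rtk2a i ∈ rtk2Ione τ q := by
  have key : (1 - C (q i)) * rtk2Cramer q i * (rtk2a i : Rtk2P O ι τ) =
      ((rtk2A i - C (q i) * rtk2D i) * (rtk2D i - C (q i) * rtk2A i)) * rtk2E11 q i +
      (C (q i) * rtk2C i * (rtk2D i - C (q i) * rtk2A i)) * rtk2E12 q i +
      (-(rtk2B i * (rtk2A i - C (q i) * rtk2D i))) * rtk2E21 q i := by
    unfold rtk2Cramer rtk2E11 rtk2E12 rtk2E21 rtk2A rtk2B rtk2C rtk2D rtk2nu
    ring
  rw [key]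
  exact Ideal.add_mem _ (Ideal.add_mem _ (Ideal.mul_mem_left _ _ (rtk2_E11_mem_Ione q i))
    (Ideal.mul_mem_left _ _ (rtk2_E12_mem_Ione q i)))
    (Ideal.mul_mem_left _ _ (rtk2_E21_mem_Ione q i))

/-- **Cramer identity**, second row. -/
theorem rtk2_cramer_b (q : ι → O) (i : ι) :
    (1 - C (q i)) * rtk2Cramer q i * rtk2b i ∈ rtk2Ione τ q := by
  have key : (1 - C (q i)) * rtk2Cramer q i * (rtk2b i : Rtk2P O ι τ) =
      ((1 + C (q i)) * rtk2B i * (rtk2D i - C (q i) * rtk2A i)) * rtk2E11 q i +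
      ((1 - C (q i)) * rtk2A i * (rtk2D i - C (q i) * rtk2A i) -
        (1 + C (q i)) * rtk2B i * rtk2C i) * rtk2E12 q i +
      (-((1 + C (q i)) * rtk2B i ^ 2)) * rtk2E21 q i := by
    unfold rtk2Cramer rtk2E11 rtk2E12 rtk2E21 rtk2A rtk2B rtk2C rtk2D rtk2nu
    ring
  rw [key]
  exact Ideal.add_mem _ (Ideal.add_mem _ (Ideal.mul_mem_left _ _ (rtk2_E11_mem_Ione q i))
    (Ideal.mul_mem_left _ _ (rtk2_E12_mem_Ione q i)))
    (Ideal.mul_mem_left _ _ (rtk2_E21_mem_Ione q i))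

/-- **Cramer identity**, third row. -/
theorem rtk2_cramer_c (q : ι → O) (i : ι) :
    (1 - C (q i)) * rtk2Cramer q i * rtk2c i ∈ rtk2Ione τ q := by
  have key : (1 - C (q i)) * rtk2Cramer q i * (rtk2c i : Rtk2P O ι τ) =
      (-((1 + C (q i)) * rtk2C i * (rtk2A i - C (q i) * rtk2D i))) * rtk2E11 q i +
      (-(C (q i) * (1 + C (q i)) * rtk2C i ^ 2)) * rtk2E12 q i +
      ((1 - C (q i)) * rtk2A i * (rtk2A i - C (q i) * rtk2D i) -
        C (q i) * (1 + C (q i)) * rtk2B i * rtk2C i) * rtk2E21 q i := by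
    unfold rtk2Cramer rtk2E11 rtk2E12 rtk2E21 rtk2A rtk2B rtk2C rtk2D rtk2nu
    ring
  rw [key]
  exact Ideal.add_mem _ (Ideal.add_mem _ (Ideal.mul_mem_left _ _ (rtk2_E11_mem_Ione q i))
    (Ideal.mul_mem_left _ _ (rtk2_E12_mem_Ione q i)))
    (Ideal.mul_mem_left _ _ (rtk2_E21_mem_Ione q i))

/-- **Cramer**, in the form consumed by `rtk4_unique_minimal`: the element `(1 − q_i)·D_i` kills
the image of the unramified generators of the prime `i` in `R¹ = P/I_1`. -/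
theorem rtk2_cramer (q : ι → O) (i : ι) (k : Fin 3) :
    (1 - C (q i)) * rtk2Cramer q i * rtk2genUr (i, k) ∈ rtk2Ione τ q := by
  fin_cases k
  · exact rtk2_cramer_a q i
  · exact rtk2_cramer_b q i
  · exact rtk2_cramer_c q i

section SpecialFibre

variable (lam : O) {q δ : ι → O}

private theorem rtk2_lam_mem (J : Ideal (Rtk2P O ι τ)) (x : Rtk2P O ι τ) :
    C lam * x ∈ J ⊔ Ideal.span {(C lam : Rtk2P O ι τ)} :=
  Ideal.mem_sup_right (Ideal.mul_mem_right _ _ (Ideal.mem_span_singleton_self _))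

/-- `I_1 + (λ) ≤ I_χ + (λ)`. -/
theorem rtk2_Ione_le_Ichi_sup (hq : ∀ i, ∃ r, q i = 1 + lam * r) (hδ : ∀ i, ∃ r, δ i = lam * r) :
    rtk2Ione τ q ≤ rtk2Ichi τ δ ⊔ Ideal.span {(C lam : Rtk2P O ι τ)} := by
  refine rtk2_Ione_le fun i => ?_
  obtain ⟨r, hr⟩ := hq i
  obtain ⟨s, hs⟩ := hδ i
  have hCq : (C (q i) : Rtk2P O ι τ) = 1 + C lam * C r := by rw [hr]; simp
  have hCδ : (C (δ i ^ 2) : Rtk2P O ι τ) = C lam * (C lam * C s ^ 2) := by
    rw [hs]; simp; ring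
  refine ⟨?_, ?_, ?_, ?_, ?_⟩
  · have : (rtk2g i : Rtk2P O ι τ) = rtk2f δ i + C lam * (C lam * C s ^ 2) := by
      simp only [rtk2g, rtk2f]; rw [hCδ]; ring
    rw [this]
    exact Ideal.add_mem _ (Ideal.mem_sup_left (rtk2_f_mem_Ichi δ i)) (rtk2_lam_mem lam _ _)
  · have : (rtk2E11 q i : Rtk2P O ι τ) = 2 * rtk2m3 i +
        C lam * (-(C r * rtk2A i * rtk2a i) - C r * rtk2C i * rtk2b i) := by
      simp only [rtk2E11, rtk2m3, rtk2A, rtk2B, rtk2C, rtk2nu]; rw [hCq]; ring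
    rw [this]
    exact Ideal.add_mem _ (Ideal.mem_sup_left (Ideal.mul_mem_left _ _ (rtk2_m3_mem_Ichi δ i)))
      (rtk2_lam_mem lam _ _)
  · have : (rtk2E12 q i : Rtk2P O ι τ) = 4 * rtk2m1 i +
        C lam * (-(C r * rtk2B i * rtk2a i) - C r * rtk2D i * rtk2b i) := by
      simp only [rtk2E12, rtk2m1, rtk2A, rtk2B, rtk2D, rtk2nu]; rw [hCq]; ring
    rw [this]
    exact Ideal.add_mem _ (Ideal.mem_sup_left (Ideal.mul_mem_left _ _ (rtk2_m1_mem_Ichi δ i)))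
      (rtk2_lam_mem lam _ _)
  · have : (rtk2E21 q i : Rtk2P O ι τ) = (-4) * rtk2m2 i +
        C lam * (C r * rtk2C i * rtk2a i - C r * rtk2A i * rtk2c i) := by
      simp only [rtk2E21, rtk2m2, rtk2A, rtk2C, rtk2D, rtk2nu]; rw [hCq]; ring
    rw [this]
    exact Ideal.add_mem _ (Ideal.mem_sup_left (Ideal.mul_mem_left _ _ (rtk2_m2_mem_Ichi δ i)))
      (rtk2_lam_mem lam _ _)
  · have : (rtk2E22 q i : Rtk2P O ι τ) = (-2) * rtk2m3 i +
        C lam * (C r * rtk2D i * rtk2a i - C r * rtk2B i * rtk2c i) := by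
      simp only [rtk2E22, rtk2m3, rtk2B, rtk2C, rtk2D, rtk2nu]; rw [hCq]; ring
    rw [this]
    exact Ideal.add_mem _ (Ideal.mem_sup_left (Ideal.mul_mem_left _ _ (rtk2_m3_mem_Ichi δ i)))
      (rtk2_lam_mem lam _ _)

/-- `I_χ + (λ) ≤ I_1 + (λ)` (here `2` must be a unit). -/
theorem rtk2_Ichi_le_Ione_sup (h2 : IsUnit (2 : O)) (hq : ∀ i, ∃ r, q i = 1 + lam * r)
    (hδ : ∀ i, ∃ r, δ i = lam * r) :
    rtk2Ichi τ δ ≤ rtk2Ione τ q ⊔ Ideal.span {(C lam : Rtk2P O ι τ)} := by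
  obtain ⟨u, hu⟩ := h2.exists_left_inv
  have hCu : (C u : Rtk2P O ι τ) * 2 = 1 := by
    have : (C (u * 2) : Rtk2P O ι τ) = C (1 : O) := by rw [hu]
    rw [map_mul, map_one] at this
    rw [← this]; congr 1
  refine rtk2_Ichi_le fun i => ?_
  obtain ⟨r, hr⟩ := hq i
  obtain ⟨s, hs⟩ := hδ i
  have hCq : (C (q i) : Rtk2P O ι τ) = 1 + C lam * C r := by rw [hr]; simp
  have hCδ : (C (δ i ^ 2) : Rtk2P O ι τ) = C lam * (C lam * C s ^ 2) := by
    rw [hs]; simp; ring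
  refine ⟨?_, ?_, ?_, ?_⟩
  · have : (rtk2f δ i : Rtk2P O ι τ) = rtk2g i + C lam * (-(C lam * C s ^ 2)) := by
      simp only [rtk2g, rtk2f]; rw [hCδ]; ring
    rw [this]
    exact Ideal.add_mem _ (Ideal.mem_sup_left (rtk2_g_mem_Ione q i)) (rtk2_lam_mem lam _ _)
  · have : (rtk2m1 i : Rtk2P O ι τ) = (C u * C u) * rtk2E12 q i +
        C lam * ((C u * C u) * (C r * rtk2B i * rtk2a i + C r * rtk2D i * rtk2b i)) := by
      have e : (rtk2E12 q i : Rtk2P O ι τ) = 4 * rtk2m1 i +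
          C lam * (-(C r * rtk2B i * rtk2a i) - C r * rtk2D i * rtk2b i) := by
        simp only [rtk2E12, rtk2m1, rtk2A, rtk2B, rtk2D, rtk2nu]; rw [hCq]; ring
      rw [e]
      have h4 : (C u * C u : Rtk2P O ι τ) * 4 = 1 := by
        have : (C u * C u : Rtk2P O ι τ) * 4 = (C u * 2) * (C u * 2) := by ring
        rw [this, hCu, one_mul]
      linear_combination (-(rtk2m1 i : Rtk2P O ι τ)) * h4
    rw [this]
    exact Ideal.add_mem _ (Ideal.mem_sup_left (Ideal.mul_mem_left _ _ (rtk2_E12_mem_Ione q i)))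
      (rtk2_lam_mem lam _ _)
  · have : (rtk2m2 i : Rtk2P O ι τ) = (-(C u * C u)) * rtk2E21 q i +
        C lam * ((C u * C u) * (C r * rtk2C i * rtk2a i - C r * rtk2A i * rtk2c i)) := by
      have e : (rtk2E21 q i : Rtk2P O ι τ) = (-4) * rtk2m2 i +
          C lam * (C r * rtk2C i * rtk2a i - C r * rtk2A i * rtk2c i) := by
        simp only [rtk2E21, rtk2m2, rtk2A, rtk2C, rtk2D, rtk2nu]; rw [hCq]; ring
      rw [e]
      have h4 : (C u * C u : Rtk2P O ι τ) * 4 = 1 := by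
        have : (C u * C u : Rtk2P O ι τ) * 4 = (C u * 2) * (C u * 2) := by ring
        rw [this, hCu, one_mul]
      linear_combination (-(rtk2m2 i : Rtk2P O ι τ)) * h4
    rw [this]
    exact Ideal.add_mem _ (Ideal.mem_sup_left (Ideal.mul_mem_left _ _ (rtk2_E21_mem_Ione q i)))
      (rtk2_lam_mem lam _ _)
  · have : (rtk2m3 i : Rtk2P O ι τ) = (C u) * rtk2E11 q i +
        C lam * (C u * (C r * rtk2A i * rtk2a i + C r * rtk2C i * rtk2b i)) := by
      have e : (rtk2E11 q i : Rtk2P O ι τ) = 2 * rtk2m3 i +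
          C lam * (-(C r * rtk2A i * rtk2a i) - C r * rtk2C i * rtk2b i) := by
        simp only [rtk2E11, rtk2m3, rtk2A, rtk2B, rtk2C, rtk2nu]; rw [hCq]; ring
      rw [e]
      linear_combination (-(rtk2m3 i : Rtk2P O ι τ)) * hCu
    rw [this]
    exact Ideal.add_mem _ (Ideal.mem_sup_left (Ideal.mul_mem_left _ _ (rtk2_E11_mem_Ione q i)))
      (rtk2_lam_mem lam _ _)

/-- **The special fibres agree**: `I_1 + (λ) = I_χ + (λ)`. -/
theorem rtk2_Ione_sup_eq (h2 : IsUnit (2 : O)) (hq : ∀ i, ∃ r, q i = 1 + lam * r)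
    (hδ : ∀ i, ∃ r, δ i = lam * r) :
    rtk2Ione τ q ⊔ Ideal.span {(C lam : Rtk2P O ι τ)} =
      rtk2Ichi τ δ ⊔ Ideal.span {(C lam : Rtk2P O ι τ)} :=
  le_antisymm (sup_le (rtk2_Ione_le_Ichi_sup lam hq hδ) le_sup_right)
    (sup_le (rtk2_Ichi_le_Ione_sup lam h2 hq hδ) le_sup_right)

end SpecialFibre

end Fermat.Agent.RT.K2


end ZBRT_003_4

/-! ### bundled: `Fermat.Agent.RT.Prod.HaLift` -/
section ZBRT_003_5
/-
K-machine, PROD / HECKE-asm, piece HA-lift (helper97).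

* `rthl_exists_lift` : an algebra homomorphism `φ : A₀ → M` (`M` not necessarily commutative)
  extends to the framing ring `RthaFr A₀ κ N = A₀[z_k] ⧸ (z) ^ N` with `z_k ↦` the scalar `v k`,
  as soon as the monomials of degree `N` in the `v k` vanish.
* `rthl_prod_eq_zero` : a monomial of degree `≥ n` in the variables is `0` in `S ⧸ 𝔪 ^ n`.
-/

set_option autoImplicit false
set_option linter.unusedSectionVars false
set_option linter.unusedVariables false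
set_option linter.style.haveILetI false

noncomputable section

namespace Fermat.Agent.RT.Prod

open IsLocalRing MvPolynomial TensorProduct

section lift

variable {O A₀ R M : Type*} [CommRing O] [CommRing A₀] [Algebra O A₀] [CommRing R]
  [Algebra O R] [Ring M] [Algebra O M] [Algebra R M] [IsScalarTower O R M] {κ : Type*}

/-- the scalar part `O[z] → R → M`, `z_k ↦ v k` -/
def rthlScal (M : Type*) [Ring M] [Algebra O M] [Algebra R M] [IsScalarTower O R M]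
    (v : κ → R) : MvPolynomial κ O →ₐ[O] M :=
  (IsScalarTower.toAlgHom O R M).comp (MvPolynomial.aeval v)

theorem rthlScal_apply (v : κ → R) (f : MvPolynomial κ O) :
    rthlScal M v f = algebraMap R M (MvPolynomial.aeval v f) := rfl

/-- the extension of `φ` to `A₀[z]`, `z_k ↦ v k` -/
def rthlPre (φ : A₀ →ₐ[O] M) (v : κ → R) : MvPolynomial κ A₀ →ₐ[O] M :=
  (Algebra.TensorProduct.lift φ (rthlScal M v) (fun x y => by
      rw [rthlScal_apply]
      exact Algebra.commute_algebraMap_right _ _)).comp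
    ((MvPolynomial.algebraTensorAlgEquiv O A₀).symm.toAlgHom.restrictScalars O)

theorem rthlPre_monomial (φ : A₀ →ₐ[O] M) (v : κ → R) (e : κ →₀ ℕ) (a : A₀) :
    rthlPre φ v (monomial e a) = φ a * algebraMap R M (e.prod fun k i => v k ^ i) := by
  have h : rthlPre φ v (monomial e a) =
      Algebra.TensorProduct.lift φ (rthlScal M v) (fun x y => by
        rw [rthlScal_apply]
        exact Algebra.commute_algebraMap_right _ _)
        ((MvPolynomial.algebraTensorAlgEquiv O A₀).symm (monomial e a)) := rfl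
  rw [h, MvPolynomial.algebraTensorAlgEquiv_symm_monomial, Algebra.TensorProduct.lift_tmul,
    rthlScal_apply, MvPolynomial.aeval_monomial, map_one, one_mul]

theorem rthlPre_C (φ : A₀ →ₐ[O] M) (v : κ → R) (a : A₀) :
    rthlPre φ v (C a) = φ a := by
  have h : (C a : MvPolynomial κ A₀) = monomial 0 a := rfl
  rw [h, rthlPre_monomial, Finsupp.prod_zero_index, map_one, mul_one]

theorem rthlPre_X (φ : A₀ →ₐ[O] M) (v : κ → R) (k : κ) :
    rthlPre φ v (X k) = algebraMap R M (v k) := by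
  have h : (X k : MvPolynomial κ A₀) = monomial (Finsupp.single k 1) 1 := rfl
  rw [h, rthlPre_monomial, map_one, one_mul, Finsupp.prod_single_index (by rw [pow_zero]),
    pow_one]

theorem rthlPre_eq_zero (φ : A₀ →ₐ[O] M) (v : κ → R) {N : ℕ}
    (hv : ∀ e : κ →₀ ℕ, Finsupp.degree e = N → e.prod (fun k i => v k ^ i) = 0)
    (p : MvPolynomial κ A₀) (hp : p ∈ idealOfVars κ A₀ ^ N) : rthlPre φ v p = 0 := by
  have hle : idealOfVars κ A₀ ^ N ≤ RingHom.ker (rthlPre φ v).toRingHom := by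
    rw [pow_idealOfVars_eq_span, Ideal.span_le]
    rintro _ ⟨e, he, rfl⟩
    rw [SetLike.mem_coe, RingHom.mem_ker]
    show rthlPre φ v (monomial e 1) = 0
    rw [rthlPre_monomial, hv e he, map_zero, mul_zero]
  exact (RingHom.mem_ker).1 (hle hp)

/-- **HA-lift.** -/
theorem rthl_exists_lift {N : ℕ} (φ : A₀ →ₐ[O] M) (v : κ → R)
    (hv : ∀ e : κ →₀ ℕ, Finsupp.degree e = N → e.prod (fun k i => v k ^ i) = 0) :
    ∃ π : RthaFr A₀ κ N →ₐ[O] M,
      (∀ a, π (algebraMap A₀ (RthaFr A₀ κ N) a) = φ a) ∧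
        (∀ k, π (rthaZ A₀ N k) = algebraMap R M (v k)) := by
  refine ⟨Ideal.Quotient.liftₐ (idealOfVars κ A₀ ^ N) (rthlPre φ v)
    (rthlPre_eq_zero φ v hv), fun a => ?_, fun k => ?_⟩
  · have h : algebraMap A₀ (RthaFr A₀ κ N) a = Ideal.Quotient.mk _ (C a) := rfl
    rw [h]
    exact (Ideal.Quotient.lift_mk _ _ _).trans (rthlPre_C φ v a)
  · unfold rthaZ
    exact (Ideal.Quotient.lift_mk _ _ _).trans (rthlPre_X φ v k)

end lift

/-! ### monomials of high degree vanish in `S ⧸ 𝔪 ^ n` -/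

section prod

variable (O : Type*) [CommRing O] [IsLocalRing O]

theorem rthl_X_mem (m : ℕ) (i : Fin m) :
    (MvPowerSeries.X i : RttwS O m) ∈ maximalIdeal (RttwS O m) := by
  rw [mem_maximalIdeal, mem_nonunits_iff, MvPowerSeries.isUnit_iff_constantCoeff,
    MvPowerSeries.constantCoeff_X]
  exact not_isUnit_zero

omit [IsLocalRing O] in
/-- a monomial of degree `d` in elements of an ideal `I` lies in `I ^ d` -/
theorem rthl_prod_mem_pow {B : Type*} [CommRing B] (I : Ideal B) {κ : Type*} (x : κ → B)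
    (hx : ∀ k, x k ∈ I) (e : κ →₀ ℕ) :
    e.prod (fun k i => x k ^ i) ∈ I ^ Finsupp.degree e := by
  classical
  have key : ∀ s : Finset κ, (∏ k ∈ s, x k ^ e k) ∈ I ^ (∑ k ∈ s, e k) := by
    intro s
    induction s using Finset.induction_on with
    | empty => simp
    | insert a s ha ih =>
      rw [Finset.prod_insert ha, Finset.sum_insert ha, pow_add]
      exact Ideal.mul_mem_mul (Ideal.pow_mem_pow (hx a) _) ih
  exact key e.support

/-- **A monomial of degree `≥ n` in the variables is `0` in `S ⧸ 𝔪 ^ n`.** -/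
theorem rthl_prod_eq_zero (m n : ℕ) {κ : Type*} (ev : κ → Fin m) (e : κ →₀ ℕ)
    (he : n ≤ Finsupp.degree e) :
    e.prod (fun k i => (Ideal.Quotient.mk (maximalIdeal (RttwS O m) ^ n)
      (MvPowerSeries.X (ev k))) ^ i) = 0 := by
  set π := Ideal.Quotient.mk (maximalIdeal (RttwS O m) ^ n) with hπ
  set J := (maximalIdeal (RttwS O m)).map π with hJ
  have hJn : J ^ n = ⊥ := by
    rw [hJ, ← Ideal.map_pow]
    exact Ideal.map_quotient_self _
  have h1 := rthl_prod_mem_pow J (fun k => π (MvPowerSeries.X (ev k)))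
    (fun k => Ideal.mem_map_of_mem π (rthl_X_mem O m (ev k))) e
  have h2 : J ^ Finsupp.degree e ≤ ⊥ := (Ideal.pow_le_pow_right he).trans hJn.le
  exact (Ideal.mem_bot).1 (h2 h1)

/-- the hypothesis of `rthl_exists_lift` for `N = n` (or any `N ≥ n`) and the variables of
`S ⧸ 𝔪 ^ n` -/
theorem rthl_prod_eq_zero' (m n N : ℕ) (hN : n ≤ N) {κ : Type*} (ev : κ → Fin m) :
    ∀ e : κ →₀ ℕ, Finsupp.degree e = N →
      e.prod (fun k i => (Ideal.Quotient.mk (maximalIdeal (RttwS O m) ^ n)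
        (MvPowerSeries.X (ev k))) ^ i) = 0 :=
  fun e he => rthl_prod_eq_zero O m n ev e (he ▸ hN)

end prod

end Fermat.Agent.RT.Prod

end


end ZBRT_003_5
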