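/- GENERATED FILE (helper35, build-time optimisation, NOTES/ZB.md): verbatim concatenation of the modules
   Fermat.Agent.RT.Prod.Rel
   Fermat.Agent.RT.Prod.Pre
   Fermat.Agent.RT.Prod.Datum
   Fermat.Agent.RT.Prod.PreE
   Do not edit; do not import together with these modules. -/
import Mathlib
import Fermat.Agent.ZB.RT_003

/-! ### bundled: `Fermat.Agent.RT.Prod.Rel` -/
section ZBRT_004_0

/-!
# K-machine, PROD-asm, algebraic part: the relations at the trivial primes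

`Σ`, `Φ` are `2 × 2` matrices over a commutative ring `T` with `Φ Σ = Σ ^ r Φ`
(`Φ` the image of a Frobenius lift, `Σ` the image of a generator of the tame inertia, `r` the
prime).

* `rtprod_unip_pow` : `tr Σ = 2`, `det Σ = 1` ⇒ `Σ ^ r = 1 + r (Σ − 1)`;
* `rtprod_rel1`     : then `Φ (Σ − 1) = r (Σ − 1) Φ`;
* `rtprod_chi_pow`  : `tr Σ = ζ + ζ⁻¹`, `det Σ = 1`, `ζ ^ p = 1`, `ζ ≠ ζ⁻¹` ⇒ `Σ ^ p = 1`;
* `rtprod_relchi`   : then `Φ Σ = Σ Φ` when `p ∣ r − 1`;
* `rtprod_one_add_pow_sub_one_mem` : `(1 + a) ^ (p ^ n) − 1 ∈ I ^ (n + 1)` for `a, p ∈ I`.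
-/

set_option autoImplicit false

namespace Fermat.Agent.RT.Prod

section Unip

variable {T : Type*} [CommRing T]

/-- Cayley–Hamilton for `2 × 2` matrices. -/
theorem rtprod_cayley_hamilton (S : Matrix (Fin 2) (Fin 2) T) :
    S * S = S.trace • S - S.det • (1 : Matrix (Fin 2) (Fin 2) T) := by
  ext i j
  fin_cases i <;> fin_cases j <;>
    simp [Matrix.mul_apply, Fin.sum_univ_two, Matrix.trace_fin_two, Matrix.det_fin_two] <;> ring

/-- `tr Σ = 2`, `det Σ = 1` ⇒ `(Σ − 1)² = 0`. -/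
theorem rtprod_unip_sq (S : Matrix (Fin 2) (Fin 2) T) (htr : S.trace = 2) (hdet : S.det = 1) :
    (S - 1) * (S - 1) = 0 := by
  have h := rtprod_cayley_hamilton S
  rw [htr, hdet, one_smul] at h
  have : (S - 1) * (S - 1) = S * S - (2 : T) • S + 1 := by
    rw [two_smul]; noncomm_ring
  rw [this, h]
  abel

/-- `tr Σ = 2`, `det Σ = 1` ⇒ `Σ ^ r = 1 + r (Σ − 1)`. -/
theorem rtprod_unip_pow (S : Matrix (Fin 2) (Fin 2) T) (htr : S.trace = 2) (hdet : S.det = 1)
    (r : ℕ) : S ^ r = 1 + (r : T) • (S - 1) := by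
  have hN := rtprod_unip_sq S htr hdet
  induction r with
  | zero => simp
  | succ k ih =>
    rw [pow_succ, ih]
    have e : (1 + (k : T) • (S - 1)) * S = (1 + (k : T) • (S - 1)) * (1 + (S - 1)) := by
      congr 1; abel
    rw [e, add_mul, one_mul, smul_mul_assoc, mul_add, mul_one, hN, add_zero, Nat.cast_succ,
      add_smul, one_smul]
    abel

/-- **The unipotent relation**: `Φ Σ = Σ ^ r Φ`, `tr Σ = 2`, `det Σ = 1` ⇒
`Φ (Σ − 1) = r (Σ − 1) Φ`. -/
theorem rtprod_rel1 (S Φ : Matrix (Fin 2) (Fin 2) T) (htr : S.trace = 2) (hdet : S.det = 1)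
    (r : ℕ) (h : Φ * S = S ^ r * Φ) :
    Φ * (S - 1) = (r : T) • ((S - 1) * Φ) := by
  rw [rtprod_unip_pow S htr hdet r, add_mul, one_mul, smul_mul_assoc] at h
  rw [mul_sub, mul_one, h]
  abel

end Unip

section Chi

open Polynomial

variable {O : Type*} [CommRing O] [IsDomain O]

/-- `(X − ζ)(X − ζ')` divides `X ^ p − 1` when `ζ ≠ ζ'` are roots. -/
theorem rtprod_quad_dvd (z z' : O) (p : ℕ) (hz : z ^ p = 1) (hz' : z' ^ p = 1) (hne : z ≠ z') :
    (X - C z) * (X - C z') ∣ (X ^ p - 1 : O[X]) := by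
  have h1 : (X - C z) ∣ (X ^ p - 1 : O[X]) := by
    rw [dvd_iff_isRoot]
    simp [hz]
  obtain ⟨g, hg⟩ := h1
  have h2 : (X - C z') ∣ g := by
    rw [dvd_iff_isRoot]
    have : (X ^ p - 1 : O[X]).eval z' = 0 := by simp [hz']
    rw [hg, eval_mul] at this
    rcases mul_eq_zero.mp this with h | h
    · exfalso
      simp only [eval_sub, eval_X, eval_C] at h
      exact hne (sub_eq_zero.mp h).symm
    · exact h
  obtain ⟨g', hg'⟩ := h2
  exact ⟨g', by rw [hg, hg', mul_assoc]⟩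

variable {T : Type*} [CommRing T] [Algebra O T]

/-- `tr Σ = ζ + ζ'`, `det Σ = 1 = ζ ζ'`, `ζ ^ p = 1`, `ζ ≠ ζ'` ⇒ `Σ ^ p = 1`. -/
theorem rtprod_chi_pow (z z' : O) (p : ℕ) (hz : z ^ p = 1) (hzz : z * z' = 1) (hne : z ≠ z')
    (S : Matrix (Fin 2) (Fin 2) T) (htr : S.trace = algebraMap O T (z + z'))
    (hdet : S.det = 1) : S ^ p = 1 := by
  have hz' : z' ^ p = 1 := by
    have : (z * z') ^ p = 1 := by rw [hzz, one_pow]
    rwa [mul_pow, hz, one_mul] at this
  obtain ⟨g, hg⟩ := rtprod_quad_dvd z z' p hz hz' hne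
  have hq : aeval S ((X - C z) * (X - C z') : O[X]) = 0 := by
    have e : ((X - C z) * (X - C z') : O[X]) = X ^ 2 - C (z + z') * X + C (z * z') := by
      rw [map_add, map_mul]; ring
    rw [e, hzz]
    generalize z + z' = w at htr
    rw [map_add, map_sub, map_mul, map_pow, aeval_X, aeval_C, aeval_C, map_one]
    have h := rtprod_cayley_hamilton S
    rw [htr, hdet, one_smul] at h
    rw [pow_two, h, Algebra.algebraMap_eq_smul_one (A := Matrix (Fin 2) (Fin 2) T) w,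
      smul_mul_assoc, one_mul, algebraMap_smul]
    abel
  have := congrArg (aeval S) hg
  rw [map_mul, hq, zero_mul, map_sub, map_pow, aeval_X, map_one, sub_eq_zero] at this
  exact this

/-- **The relation of type `χ`**: `Φ Σ = Σ ^ r Φ`, `Σ ^ p = 1`, `p ∣ r − 1` ⇒ `Φ Σ = Σ Φ`. -/
theorem rtprod_relchi_of_pow {R : Type*} [Monoid R] (S Φ : R) (p r : ℕ) (hS : S ^ p = 1)
    (hr : p ∣ r - 1) (hr1 : 1 ≤ r) (h : Φ * S = S ^ r * Φ) : Φ * S = S * Φ := by
  obtain ⟨k, hk⟩ := hr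
  have e : r = p * k + 1 := by omega
  rw [h, e, pow_succ, pow_mul, hS, one_pow, one_mul]

/-- **The relation of type `χ`.** -/
theorem rtprod_relchi (z z' : O) (p r : ℕ) (hz : z ^ p = 1) (hzz : z * z' = 1) (hne : z ≠ z')
    (hr : p ∣ r - 1) (hr1 : 1 ≤ r)
    (S Φ : Matrix (Fin 2) (Fin 2) T) (htr : S.trace = algebraMap O T (z + z'))
    (hdet : S.det = 1) (h : Φ * S = S ^ r * Φ) : Φ * S = S * Φ :=
  rtprod_relchi_of_pow S Φ p r (rtprod_chi_pow z z' p hz hzz hne S htr hdet) hr hr1 h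

end Chi

section Pow

variable {R : Type*} [CommRing R]

/-- `x ≡ 1 mod I ^ k` (`k ≥ 1`), `p ∈ I` ⇒ `x ^ p ≡ 1 mod I ^ (k + 1)`. -/
theorem rtprod_pow_sub_one_mem (I : Ideal R) (p : ℕ) (hp : (p : R) ∈ I) {k : ℕ} (hk : 1 ≤ k)
    {x : R} (hx : x - 1 ∈ I ^ k) : x ^ p - 1 ∈ I ^ (k + 1) := by
  -- `x ^ p − 1 = (x − 1) (1 + x + ⋯ + x ^ (p − 1))` and the second factor is `≡ p mod I`
  have hI : x - 1 ∈ I := Ideal.pow_le_self (by omega) hx
  have hgeom : x ^ p - 1 = (x - 1) * ∑ i ∈ Finset.range p, x ^ i := by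
    rw [mul_comm, geom_sum_mul]
  have hsum : (∑ i ∈ Finset.range p, x ^ i) ∈ I := by
    have h1 : ∀ i : ℕ, x ^ i - 1 ∈ I := by
      intro i
      have : x ^ i - 1 = (x - 1) * ∑ j ∈ Finset.range i, x ^ j := by
        rw [mul_comm, geom_sum_mul]
      rw [this]
      exact Ideal.mul_mem_right _ _ hI
    have e : (∑ i ∈ Finset.range p, x ^ i) = (∑ i ∈ Finset.range p, (x ^ i - 1)) + (p : R) := by
      rw [Finset.sum_sub_distrib]
      simp
    rw [e]
    exact Ideal.add_mem _ (Ideal.sum_mem _ fun i _ => h1 i) hp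
  rw [hgeom, pow_succ]
  exact Ideal.mul_mem_mul hx hsum

/-- `(1 + a) ^ (p ^ n) − 1 ∈ I ^ (n + 1)` for `a, p ∈ I`. -/
theorem rtprod_one_add_pow_sub_one_mem (I : Ideal R) (p : ℕ) (hp : (p : R) ∈ I) {a : R}
    (ha : a ∈ I) (n : ℕ) : (1 + a) ^ (p ^ n) - 1 ∈ I ^ (n + 1) := by
  induction n with
  | zero => simpa using ha
  | succ k ih =>
    rw [show p ^ (k + 1) = p ^ k * p from pow_succ p k, pow_mul]
    exact rtprod_pow_sub_one_mem I p hp (by omega) ih

end Pow

end Fermat.Agent.RT.Prod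


end ZBRT_004_0

/-! ### bundled: `Fermat.Agent.RT.Prod.Pre` -/
section ZBRT_004_1

/-!
# K-machine, PROD-asm, algebraic core: ONE ring with two actions gives a Taylor–Wiles datum

`TWPre` is what the arithmetic side (HECKE + K3 + LOC-gen) has to deliver at level `n`:
ONE commutative `O`-algebra `A` (the image of the framed Hecke ring in `T¹ × T^χ`) with its two
actions `π1`, `πχ` on `(S ⧸ 𝔪 ^ n)^d`, the framed matrices `Σ_i`, `Φ_i ∈ M₂(A)` with
`Φ Σ = Σ ^ r Φ`, and the further generators `x`.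

`rtprod_datum : TWPre → TWDatum` with `T¹ = A ⧸ ker π1`, `T^χ = A ⧸ ker πχ`; the relations
`rel1`, `relχ` are derived (`RT/Prod/Rel.lean`).
-/

set_option autoImplicit false
set_option linter.style.haveILetI false

namespace Fermat.Agent.RT.Prod

open MvPowerSeries IsLocalRing Fermat.Agent.RT

section Pre

variable {O : Type*} [CommRing O] [IsLocalRing O] {ι τ : Type*}

/-- **The algebraic datum at level `n`**: one ring `A`, two actions.
`r i` is the `i`-th trivial prime, `s i` the chosen square root of its image in `O`,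
`tχ i = (ζ_i + ζ_i⁻¹)/2`. -/
structure TWPre (r : ι → ℕ) (s tχ : ι → O) (lam : O) (m d : ℕ)
    {T0 : Type*} [CommRing T0] [Algebra O T0] (j0 : T0 →ₐ[O] Matrix (Fin d) (Fin d) O)
    (Sig0 Phi0 : ι → Matrix (Fin 2) (Fin 2) T0) (n : ℕ)
    {A : Type*} [CommRing A] [Algebra O A]
    (π1 πχ : A →ₐ[O] Matrix (Fin d) (Fin d) (RttwS O m ⧸ maximalIdeal (RttwS O m) ^ n))
    (Sig Phi : ι → Matrix (Fin 2) (Fin 2) A) (x : τ → A) : Prop where
  tr1 : ∀ i, π1 (Sig i).trace = 2
  trχ : ∀ i, πχ (Sig i).trace = algebraMap O _ (2 * tχ i)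
  det_sig : ∀ i, (Sig i).det = 1
  det_phi : ∀ i, (Phi i).det = algebraMap O A (s i ^ 2)
  nil_sig : ∀ i a b, IsNilpotent ((Sig i - 1) a b)
  nil_phi : ∀ i a b,
    IsNilpotent ((Phi i - algebraMap O A (s i) • (1 : Matrix (Fin 2) (Fin 2) A)) a b)
  nil_x : ∀ k, IsNilpotent (x k)
  conj : ∀ i, Phi i * Sig i = Sig i ^ r i * Phi i
  gen1 : ∀ c : RttwS O m ⧸ maximalIdeal (RttwS O m) ^ n,
    ∃ u ∈ Algebra.adjoin O (rttwEntries Sig ∪ rttwEntries Phi ∪ Set.range x),
      π1 u = algebraMap _ (Matrix (Fin d) (Fin d) (RttwS O m ⧸ maximalIdeal (RttwS O m) ^ n)) c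
  genχ : ∀ c : RttwS O m ⧸ maximalIdeal (RttwS O m) ^ n,
    ∃ u ∈ Algebra.adjoin O (rttwEntries Sig ∪ rttwEntries Phi ∪ Set.range x),
      πχ u = algebraMap _ (Matrix (Fin d) (Fin d) (RttwS O m ⧸ maximalIdeal (RttwS O m) ^ n)) c
  cong : ∀ u : A,
    (π1 u).map (Ideal.Quotient.factor
        (le_sup_right : maximalIdeal (RttwS O m) ^ n ≤
          rttwLam m lam ⊔ maximalIdeal (RttwS O m) ^ n)) =
      (πχ u).map (Ideal.Quotient.factor
        (le_sup_right : maximalIdeal (RttwS O m) ^ n ≤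
          rttwLam m lam ⊔ maximalIdeal (RttwS O m) ^ n))
  base_sig : ∀ i a b,
    (π1 (Sig i a b)).map (Ideal.Quotient.factor
        (le_sup_right : maximalIdeal (RttwS O m) ^ n ≤
          rttwAug O m ⊔ maximalIdeal (RttwS O m) ^ n)) =
      rttwBaseRed m d n (j0 (Sig0 i a b))
  base_phi : ∀ i a b,
    (π1 (Phi i a b)).map (Ideal.Quotient.factor
        (le_sup_right : maximalIdeal (RttwS O m) ^ n ≤
          rttwAug O m ⊔ maximalIdeal (RttwS O m) ^ n)) =
      rttwBaseRed m d n (j0 (Phi0 i a b))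
  base_T0 : ∀ u : A, ∃ t0 : T0,
    (π1 u).map (Ideal.Quotient.factor
        (le_sup_right : maximalIdeal (RttwS O m) ^ n ≤
          rttwAug O m ⊔ maximalIdeal (RttwS O m) ^ n)) =
      rttwBaseRed m d n (j0 t0)

end Pre

section Quot

variable {O : Type*} [CommRing O] {A : Type*} [CommRing A] [Algebra O A]
  {M : Type*} [Ring M] [Algebra O M]

/-- The quotient of `A` acting faithfully. -/
abbrev RtprodQ (π : A →ₐ[O] M) : Type _ := A ⧸ RingHom.ker (π : A →+* M)

/-- The action of the quotient. -/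
noncomputable def rtprodJ (π : A →ₐ[O] M) : RtprodQ π →ₐ[O] M :=
  Ideal.Quotient.liftₐ (RingHom.ker (π : A →+* M)) π fun _ ha => ha

@[simp] theorem rtprodJ_mk (π : A →ₐ[O] M) (a : A) :
    rtprodJ π (Ideal.Quotient.mk _ a) = π a := rfl

theorem rtprodJ_injective (π : A →ₐ[O] M) : Function.Injective (rtprodJ π) := by
  rw [injective_iff_map_eq_zero]
  intro u hu
  obtain ⟨a, rfl⟩ := Ideal.Quotient.mk_surjective u
  rw [rtprodJ_mk] at hu
  exact Ideal.Quotient.eq_zero_iff_mem.mpr hu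

/-- The image of a family of matrices in the quotient. -/
noncomputable def rtprodMat {ι : Type*} (π : A →ₐ[O] M)
    (S : ι → Matrix (Fin 2) (Fin 2) A) (i : ι) : Matrix (Fin 2) (Fin 2) (RtprodQ π) :=
  (S i).map (Ideal.Quotient.mk (RingHom.ker (π : A →+* M)))

theorem rtprodMat_apply {ι : Type*} (π : A →ₐ[O] M) (S : ι → Matrix (Fin 2) (Fin 2) A) (i : ι)
    (a b : Fin 2) : rtprodMat π S i a b = Ideal.Quotient.mk _ (S i a b) := rfl

theorem rtprodMat_eq {ι : Type*} (π : A →ₐ[O] M) (S : ι → Matrix (Fin 2) (Fin 2) A) (i : ι) :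
    rtprodMat π S i = (Ideal.Quotient.mk (RingHom.ker (π : A →+* M))).mapMatrix (S i) := rfl

theorem rtprodMat_trace {ι : Type*} (π : A →ₐ[O] M) (S : ι → Matrix (Fin 2) (Fin 2) A)
    (i : ι) : (rtprodMat π S i).trace = Ideal.Quotient.mk _ (S i).trace := by
  rw [Matrix.trace_fin_two, Matrix.trace_fin_two, map_add]
  rfl

theorem rtprodMat_det {ι : Type*} (π : A →ₐ[O] M) (S : ι → Matrix (Fin 2) (Fin 2) A)
    (i : ι) : (rtprodMat π S i).det = Ideal.Quotient.mk _ (S i).det := by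
  rw [Matrix.det_fin_two, Matrix.det_fin_two, map_sub, map_mul, map_mul]
  rfl

/-- The image of a family of elements in the quotient. -/
noncomputable def rtprodX {τ : Type*} (π : A →ₐ[O] M) (x : τ → A) (k : τ) : RtprodQ π :=
  Ideal.Quotient.mk (RingHom.ker (π : A →+* M)) (x k)

theorem rtprodX_apply {τ : Type*} (π : A →ₐ[O] M) (x : τ → A) (k : τ) :
    rtprodX π x k = Ideal.Quotient.mk _ (x k) := rfl

/-- The image of the generated subalgebra. -/
theorem rtprod_mk_mem_adjoin {ι τ : Type*} (π : A →ₐ[O] M)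
    (Sig Phi : ι → Matrix (Fin 2) (Fin 2) A) (x : τ → A) {u : A}
    (hu : u ∈ Algebra.adjoin O (rttwEntries Sig ∪ rttwEntries Phi ∪ Set.range x)) :
    Ideal.Quotient.mk (RingHom.ker (π : A →+* M)) u ∈
      Algebra.adjoin O (rttwEntries (rtprodMat π Sig) ∪ rttwEntries (rtprodMat π Phi) ∪
        Set.range (rtprodX π x)) := by
  have h1 : (Ideal.Quotient.mkₐ O (RingHom.ker (π : A →+* M))) u ∈
      (Algebra.adjoin O (rttwEntries Sig ∪ rttwEntries Phi ∪ Set.range x)).map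
        (Ideal.Quotient.mkₐ O (RingHom.ker (π : A →+* M))) :=
    Subalgebra.mem_map.mpr ⟨u, hu, rfl⟩
  rw [AlgHom.map_adjoin] at h1
  refine Algebra.adjoin_mono ?_ h1
  rintro _ ⟨y, ((⟨i, a, b, rfl⟩ | ⟨i, a, b, rfl⟩) | ⟨k, rfl⟩), rfl⟩
  · exact Or.inl (Or.inl ⟨i, a, b, rfl⟩)
  · exact Or.inl (Or.inr ⟨i, a, b, rfl⟩)
  · exact Or.inr ⟨k, rfl⟩

end Quot

end Fermat.Agent.RT.Prod


end ZBRT_004_1

/-! ### bundled: `Fermat.Agent.RT.Prod.Datum` -/
section ZBRT_004_2

/-!
# K-machine, PROD-asm, algebraic core: `TWPre → TWDatum`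

* `rtprod_side`  : one action `π` of `A` gives a `TWSide` over `A ⧸ ker π`;
* `rtprod_datum` : `TWPre → TWDatum` (with `T¹ = A ⧸ ker π1`, `T^χ = A ⧸ ker πχ`).
-/

set_option autoImplicit false
set_option linter.style.haveILetI false

namespace Fermat.Agent.RT.Prod

open MvPowerSeries IsLocalRing Fermat.Agent.RT

section Side

variable {O : Type*} [CommRing O] {ι τ : Type*} {A : Type*} [CommRing A] [Algebra O A]
  {Sn : Type*} [CommRing Sn] [Algebra O Sn] {d : ℕ}

/-- **One side.** -/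
theorem rtprod_side (π : A →ₐ[O] Matrix (Fin d) (Fin d) Sn) (t s : ι → O)
    (Sig Phi : ι → Matrix (Fin 2) (Fin 2) A) (x : τ → A)
    (htr : ∀ i, π (Sig i).trace = algebraMap O _ (2 * t i))
    (hdet_sig : ∀ i, (Sig i).det = 1)
    (hdet_phi : ∀ i, (Phi i).det = algebraMap O A (s i ^ 2))
    (hnil_t : ∀ i, IsNilpotent (algebraMap O (RtprodQ π) (t i) - 1))
    (hnil_sig : ∀ i a b, IsNilpotent ((Sig i - 1) a b))
    (hnil_phi : ∀ i a b,
      IsNilpotent ((Phi i - algebraMap O A (s i) • (1 : Matrix (Fin 2) (Fin 2) A)) a b))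
    (hnil_x : ∀ k, IsNilpotent (x k))
    (hgen : ∀ c : Sn, ∃ u ∈ Algebra.adjoin O (rttwEntries Sig ∪ rttwEntries Phi ∪ Set.range x),
      π u = algebraMap Sn (Matrix (Fin d) (Fin d) Sn) c) :
    TWSide t s (rtprodJ π) (rtprodMat π Sig) (rtprodMat π Phi) (rtprodX π x) := by
  refine ⟨?_, ?_, ?_, ?_, ?_, ?_, ?_⟩
  · intro i
    apply rtprodJ_injective π
    rw [rtprodMat_trace, rtprodJ_mk, htr, AlgHom.commutes]
  · intro i
    rw [rtprodMat_det, hdet_sig, map_one]
  · intro i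
    rw [rtprodMat_det, hdet_phi]
    rfl
  · intro i a b
    have h1 : IsNilpotent (Ideal.Quotient.mk (RingHom.ker (π : A →+* Matrix (Fin d) (Fin d) Sn))
        ((Sig i - 1) a b)) := (hnil_sig i a b).map _
    by_cases hab : a = b
    · subst hab
      have e : (rtprodMat π Sig i - algebraMap O (RtprodQ π) (t i) •
          (1 : Matrix (Fin 2) (Fin 2) (RtprodQ π))) a a =
          Ideal.Quotient.mk _ ((Sig i - 1) a a) - (algebraMap O (RtprodQ π) (t i) - 1) := by
        rw [Matrix.sub_apply, Matrix.smul_apply, Matrix.one_apply_eq, smul_eq_mul, mul_one,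
          rtprodMat_apply, Matrix.sub_apply, Matrix.one_apply_eq, map_sub, map_one]
        ring
      rw [e]
      exact (Commute.all _ _).isNilpotent_sub h1 (hnil_t i)
    · have e : (rtprodMat π Sig i - algebraMap O (RtprodQ π) (t i) •
          (1 : Matrix (Fin 2) (Fin 2) (RtprodQ π))) a b =
          Ideal.Quotient.mk _ ((Sig i - 1) a b) := by
        rw [Matrix.sub_apply, Matrix.smul_apply, Matrix.one_apply_ne hab, smul_zero, sub_zero,
          rtprodMat_apply, Matrix.sub_apply, Matrix.one_apply_ne hab, sub_zero]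
      rw [e]
      exact h1
  · intro i a b
    have h1 : IsNilpotent (Ideal.Quotient.mk (RingHom.ker (π : A →+* Matrix (Fin d) (Fin d) Sn))
        ((Phi i - algebraMap O A (s i) • (1 : Matrix (Fin 2) (Fin 2) A)) a b)) :=
      (hnil_phi i a b).map _
    have e : (rtprodMat π Phi i - algebraMap O (RtprodQ π) (s i) •
        (1 : Matrix (Fin 2) (Fin 2) (RtprodQ π))) a b =
        Ideal.Quotient.mk _
          ((Phi i - algebraMap O A (s i) • (1 : Matrix (Fin 2) (Fin 2) A)) a b) := by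
      by_cases hab : a = b
      · subst hab
        rw [Matrix.sub_apply, Matrix.smul_apply, Matrix.one_apply_eq, smul_eq_mul, mul_one,
          rtprodMat_apply, Matrix.sub_apply, Matrix.smul_apply, Matrix.one_apply_eq, smul_eq_mul,
          mul_one, map_sub]
        rfl
      · rw [Matrix.sub_apply, Matrix.smul_apply, Matrix.one_apply_ne hab, smul_zero, sub_zero,
          rtprodMat_apply, Matrix.sub_apply, Matrix.smul_apply, Matrix.one_apply_ne hab,
          smul_zero, sub_zero]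
    rw [e]
    exact h1
  · intro k
    exact (hnil_x k).map _
  · intro c
    obtain ⟨u, hu, hπ⟩ := hgen c
    exact ⟨Ideal.Quotient.mk _ u, rtprod_mk_mem_adjoin π Sig Phi x hu, by rw [rtprodJ_mk, hπ]⟩

end Side

section Datum

variable {O : Type*} [CommRing O] [IsDomain O] [IsLocalRing O] {ι τ : Type*}

omit [IsDomain O] in
/-- `λ ^ n` acts as `0` on `(S ⧸ 𝔪 ^ n)^d`. -/
theorem rtprod_lam_pow_eq_zero {lam : O} (hlam : lam ∈ maximalIdeal O) (m d n : ℕ) :
    algebraMap O (Matrix (Fin d) (Fin d) (RttwS O m ⧸ maximalIdeal (RttwS O m) ^ n))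
      (lam ^ n) = 0 := by
  have h0 : algebraMap O (RttwS O m ⧸ maximalIdeal (RttwS O m) ^ n) (lam ^ n) = 0 := by
    have e : algebraMap O (RttwS O m ⧸ maximalIdeal (RttwS O m) ^ n) (lam ^ n) =
        Ideal.Quotient.mk _ ((C lam : RttwS O m) ^ n) := by
      rw [← map_pow]; rfl
    rw [e, Ideal.Quotient.eq_zero_iff_mem]
    refine Ideal.pow_mem_pow ?_ n
    rw [IsLocalRing.mem_maximalIdeal, mem_nonunits_iff, MvPowerSeries.isUnit_iff_constantCoeff,
      MvPowerSeries.constantCoeff_C]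
    exact hlam
  ext a b
  rw [Matrix.algebraMap_matrix_apply, h0]
  simp

/-- **PROD-asm, algebraic core.**  `q i = r i` in `O`, `p ∣ r i − 1`,
`ζ_i = tχ i + δ i` a `p`-th root of unity with `ζ_i ≠ ζ_i⁻¹ = tχ i − δ i`, `tχ i ≡ 1 mod λ`. -/
theorem rtprod_datum (p : ℕ) (r : ι → ℕ) (q s tχ δ : ι → O) (lam : O)
    (hlam : lam ∈ maximalIdeal O)
    (hq : ∀ i, q i = (r i : O)) (hr : ∀ i, p ∣ r i - 1) (hr1 : ∀ i, 1 ≤ r i)
    (htδ : ∀ i, tχ i ^ 2 - δ i ^ 2 = 1) (hζ : ∀ i, (tχ i + δ i) ^ p = 1)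
    (hδ0 : ∀ i, 2 * δ i ≠ 0) (htχ : ∀ i, ∃ c, tχ i = 1 + lam * c)
    (m d : ℕ) {T0 : Type*} [CommRing T0] [Algebra O T0]
    (j0 : T0 →ₐ[O] Matrix (Fin d) (Fin d) O)
    (Sig0 Phi0 : ι → Matrix (Fin 2) (Fin 2) T0) (n : ℕ)
    {A : Type*} [CommRing A] [Algebra O A]
    (π1 πχ : A →ₐ[O] Matrix (Fin d) (Fin d) (RttwS O m ⧸ maximalIdeal (RttwS O m) ^ n))
    (Sig Phi : ι → Matrix (Fin 2) (Fin 2) A) (x : τ → A)
    (h : TWPre r s tχ lam m d j0 Sig0 Phi0 n π1 πχ Sig Phi x) :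
    TWDatum q s tχ lam m d j0 Sig0 Phi0 n
      (rtprodJ π1) (rtprodMat π1 Sig) (rtprodMat π1 Phi) (rtprodX π1 x)
      (rtprodJ πχ) (rtprodMat πχ Sig) (rtprodMat πχ Phi) (rtprodX πχ x) := by
  have hs1 : TWSide (fun _ => (1 : O)) s (rtprodJ π1) (rtprodMat π1 Sig) (rtprodMat π1 Phi)
      (rtprodX π1 x) := by
    refine rtprod_side π1 _ s Sig Phi x (fun i => ?_) h.det_sig h.det_phi (fun i => ?_)
      h.nil_sig h.nil_phi h.nil_x h.gen1
    · rw [h.tr1, mul_one, map_ofNat]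
    · rw [map_one, sub_self]; exact IsNilpotent.zero
  have hsχ : TWSide tχ s (rtprodJ πχ) (rtprodMat πχ Sig) (rtprodMat πχ Phi)
      (rtprodX πχ x) := by
    refine rtprod_side πχ _ s Sig Phi x h.trχ h.det_sig h.det_phi (fun i => ?_)
      h.nil_sig h.nil_phi h.nil_x h.genχ
    obtain ⟨c, hc⟩ := htχ i
    have hl : IsNilpotent (algebraMap O (RtprodQ πχ) lam) := by
      refine ⟨n, ?_⟩
      have e0 : rtprodJ πχ (algebraMap O (RtprodQ πχ) lam ^ n) = rtprodJ πχ 0 := by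
        rw [← map_pow, AlgHom.commutes, map_zero]
        exact rtprod_lam_pow_eq_zero hlam m d n
      exact rtprodJ_injective πχ e0
    have e : algebraMap O (RtprodQ πχ) (tχ i) - 1 =
        algebraMap O (RtprodQ πχ) lam * algebraMap O (RtprodQ πχ) c := by
      rw [hc, map_add, map_one, map_mul]; ring
    rw [e]
    exact (Commute.all _ _).isNilpotent_mul_right hl
  refine ⟨hs1, hsχ, ?_, ?_, ?_, ?_, ?_, ?_, ?_, ?_⟩
  · -- rel1
    intro i
    have htr : (rtprodMat π1 Sig i).trace = 2 := by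
      have := hs1.tr_sig i
      rwa [mul_one, map_ofNat] at this
    have hc : rtprodMat π1 Phi i * rtprodMat π1 Sig i =
        rtprodMat π1 Sig i ^ r i * rtprodMat π1 Phi i := by
      rw [rtprodMat_eq, rtprodMat_eq, ← map_mul, h.conj i, map_mul, map_pow]
    have := rtprod_rel1 _ _ htr (hs1.det_sig i) (r i) hc
    rw [this, hq i, map_natCast]
  · -- relχ
    intro i
    have hc : rtprodMat πχ Phi i * rtprodMat πχ Sig i =
        rtprodMat πχ Sig i ^ r i * rtprodMat πχ Phi i := by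
      rw [rtprodMat_eq, rtprodMat_eq, ← map_mul, h.conj i, map_mul, map_pow]
    refine rtprod_relchi (tχ i + δ i) (tχ i - δ i) p (r i) (hζ i) ?_ ?_ (hr i) (hr1 i) _ _ ?_
      (hsχ.det_sig i) hc
    · linear_combination htδ i
    · intro e
      apply hδ0 i
      linear_combination e
    · rw [hsχ.tr_sig i]
      congr 1
      ring
  · intro i a b
    exact h.cong (Sig i a b)
  · intro i a b
    exact h.cong (Phi i a b)
  · intro k
    exact h.cong (x k)
  · intro i a b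
    exact h.base_sig i a b
  · intro i a b
    exact h.base_phi i a b
  · intro u
    obtain ⟨a, rfl⟩ := Ideal.Quotient.mk_surjective u
    exact h.base_T0 a

end Datum

end Fermat.Agent.RT.Prod


end ZBRT_004_2

/-! ### bundled: `Fermat.Agent.RT.Prod.PreE` -/
section ZBRT_004_3

/-!
# K-machine, PROD-asm, algebraic core, EVEN form: `TWPreE → TWDatumE`

`RT/Prod/Pre.lean`, `RT/Prod/Datum.lean` (helper97) with the scalars restricted to a set `E`
(symmetric design, `RT/PlanTWE.lean`): `TWPreE`, `rtprod_sideE`, `rtprod_datumE`.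
The proofs are helper97's, verbatim.   (helper70)
-/

set_option autoImplicit false
set_option linter.style.haveILetI false

namespace Fermat.Agent.RT.Prod

open MvPowerSeries IsLocalRing Fermat.Agent.RT

section Pre

variable {O : Type*} [CommRing O] [IsLocalRing O] {ι τ : Type*}

/-- **The algebraic datum at level `n`, scalars in `E`**: one ring `A`, two actions
(`TWPre` with `gen1`, `genχ` only for `c ∈ E`).
`r i` is the `i`-th trivial prime, `s i` the chosen square root of its image in `O`,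
`tχ i = (ζ_i + ζ_i⁻¹)/2`. -/
structure TWPreE (r : ι → ℕ) (s tχ : ι → O) (lam : O) (m d : ℕ)
    {T0 : Type*} [CommRing T0] [Algebra O T0] (j0 : T0 →ₐ[O] Matrix (Fin d) (Fin d) O)
    (Sig0 Phi0 : ι → Matrix (Fin 2) (Fin 2) T0) (n : ℕ)
    (E : Set (RttwS O m ⧸ maximalIdeal (RttwS O m) ^ n))
    {A : Type*} [CommRing A] [Algebra O A]
    (π1 πχ : A →ₐ[O] Matrix (Fin d) (Fin d) (RttwS O m ⧸ maximalIdeal (RttwS O m) ^ n))
    (Sig Phi : ι → Matrix (Fin 2) (Fin 2) A) (x : τ → A) : Prop where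
  tr1 : ∀ i, π1 (Sig i).trace = 2
  trχ : ∀ i, πχ (Sig i).trace = algebraMap O _ (2 * tχ i)
  det_sig : ∀ i, (Sig i).det = 1
  det_phi : ∀ i, (Phi i).det = algebraMap O A (s i ^ 2)
  nil_sig : ∀ i a b, IsNilpotent ((Sig i - 1) a b)
  nil_phi : ∀ i a b,
    IsNilpotent ((Phi i - algebraMap O A (s i) • (1 : Matrix (Fin 2) (Fin 2) A)) a b)
  nil_x : ∀ k, IsNilpotent (x k)
  conj : ∀ i, Phi i * Sig i = Sig i ^ r i * Phi i
  gen1 : ∀ c ∈ E,
    ∃ u ∈ Algebra.adjoin O (rttwEntries Sig ∪ rttwEntries Phi ∪ Set.range x),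
      π1 u = algebraMap _ (Matrix (Fin d) (Fin d) (RttwS O m ⧸ maximalIdeal (RttwS O m) ^ n)) c
  genχ : ∀ c ∈ E,
    ∃ u ∈ Algebra.adjoin O (rttwEntries Sig ∪ rttwEntries Phi ∪ Set.range x),
      πχ u = algebraMap _ (Matrix (Fin d) (Fin d) (RttwS O m ⧸ maximalIdeal (RttwS O m) ^ n)) c
  cong : ∀ u : A,
    (π1 u).map (Ideal.Quotient.factor
        (le_sup_right : maximalIdeal (RttwS O m) ^ n ≤
          rttwLam m lam ⊔ maximalIdeal (RttwS O m) ^ n)) =
      (πχ u).map (Ideal.Quotient.factor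
        (le_sup_right : maximalIdeal (RttwS O m) ^ n ≤
          rttwLam m lam ⊔ maximalIdeal (RttwS O m) ^ n))
  base_sig : ∀ i a b,
    (π1 (Sig i a b)).map (Ideal.Quotient.factor
        (le_sup_right : maximalIdeal (RttwS O m) ^ n ≤
          rttwAug O m ⊔ maximalIdeal (RttwS O m) ^ n)) =
      rttwBaseRed m d n (j0 (Sig0 i a b))
  base_phi : ∀ i a b,
    (π1 (Phi i a b)).map (Ideal.Quotient.factor
        (le_sup_right : maximalIdeal (RttwS O m) ^ n ≤
          rttwAug O m ⊔ maximalIdeal (RttwS O m) ^ n)) =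
      rttwBaseRed m d n (j0 (Phi0 i a b))
  base_T0 : ∀ u : A, ∃ t0 : T0,
    (π1 u).map (Ideal.Quotient.factor
        (le_sup_right : maximalIdeal (RttwS O m) ^ n ≤
          rttwAug O m ⊔ maximalIdeal (RttwS O m) ^ n)) =
      rttwBaseRed m d n (j0 t0)


/-- `TWPre` is `TWPreE` for every `E`. -/
theorem TWPre.toE {r : ι → ℕ} {s tχ : ι → O} {lam : O} {m d : ℕ}
    {T0 : Type*} [CommRing T0] [Algebra O T0] {j0 : T0 →ₐ[O] Matrix (Fin d) (Fin d) O}
    {Sig0 Phi0 : ι → Matrix (Fin 2) (Fin 2) T0} {n : ℕ}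
    {A : Type*} [CommRing A] [Algebra O A]
    {π1 πχ : A →ₐ[O] Matrix (Fin d) (Fin d) (RttwS O m ⧸ maximalIdeal (RttwS O m) ^ n)}
    {Sig Phi : ι → Matrix (Fin 2) (Fin 2) A} {x : τ → A}
    (H : TWPre r s tχ lam m d j0 Sig0 Phi0 n π1 πχ Sig Phi x)
    (E : Set (RttwS O m ⧸ maximalIdeal (RttwS O m) ^ n)) :
    TWPreE r s tχ lam m d j0 Sig0 Phi0 n E π1 πχ Sig Phi x where
  tr1 := H.tr1
  trχ := H.trχ
  det_sig := H.det_sig
  det_phi := H.det_phi
  nil_sig := H.nil_sig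
  nil_phi := H.nil_phi
  nil_x := H.nil_x
  conj := H.conj
  gen1 := fun c _ => H.gen1 c
  genχ := fun c _ => H.genχ c
  cong := H.cong
  base_sig := H.base_sig
  base_phi := H.base_phi
  base_T0 := H.base_T0

end Pre

section Side

variable {O : Type*} [CommRing O] {ι τ : Type*} {A : Type*} [CommRing A] [Algebra O A]
  {Sn : Type*} [CommRing Sn] [Algebra O Sn] {d : ℕ}

/-- **One side.** -/
theorem rtprod_sideE (E : Set Sn) (π : A →ₐ[O] Matrix (Fin d) (Fin d) Sn) (t s : ι → O)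
    (Sig Phi : ι → Matrix (Fin 2) (Fin 2) A) (x : τ → A)
    (htr : ∀ i, π (Sig i).trace = algebraMap O _ (2 * t i))
    (hdet_sig : ∀ i, (Sig i).det = 1)
    (hdet_phi : ∀ i, (Phi i).det = algebraMap O A (s i ^ 2))
    (hnil_t : ∀ i, IsNilpotent (algebraMap O (RtprodQ π) (t i) - 1))
    (hnil_sig : ∀ i a b, IsNilpotent ((Sig i - 1) a b))
    (hnil_phi : ∀ i a b,
      IsNilpotent ((Phi i - algebraMap O A (s i) • (1 : Matrix (Fin 2) (Fin 2) A)) a b))
    (hnil_x : ∀ k, IsNilpotent (x k))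
    (hgen : ∀ c ∈ E, ∃ u ∈ Algebra.adjoin O (rttwEntries Sig ∪ rttwEntries Phi ∪ Set.range x),
      π u = algebraMap Sn (Matrix (Fin d) (Fin d) Sn) c) :
    TWSideE E t s (rtprodJ π) (rtprodMat π Sig) (rtprodMat π Phi) (rtprodX π x) := by
  refine ⟨?_, ?_, ?_, ?_, ?_, ?_, ?_⟩
  · intro i
    apply rtprodJ_injective π
    rw [rtprodMat_trace, rtprodJ_mk, htr, AlgHom.commutes]
  · intro i
    rw [rtprodMat_det, hdet_sig, map_one]
  · intro i
    rw [rtprodMat_det, hdet_phi]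
    rfl
  · intro i a b
    have h1 : IsNilpotent (Ideal.Quotient.mk (RingHom.ker (π : A →+* Matrix (Fin d) (Fin d) Sn))
        ((Sig i - 1) a b)) := (hnil_sig i a b).map _
    by_cases hab : a = b
    · subst hab
      have e : (rtprodMat π Sig i - algebraMap O (RtprodQ π) (t i) •
          (1 : Matrix (Fin 2) (Fin 2) (RtprodQ π))) a a =
          Ideal.Quotient.mk _ ((Sig i - 1) a a) - (algebraMap O (RtprodQ π) (t i) - 1) := by
        rw [Matrix.sub_apply, Matrix.smul_apply, Matrix.one_apply_eq, smul_eq_mul, mul_one,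
          rtprodMat_apply, Matrix.sub_apply, Matrix.one_apply_eq, map_sub, map_one]
        ring
      rw [e]
      exact (Commute.all _ _).isNilpotent_sub h1 (hnil_t i)
    · have e : (rtprodMat π Sig i - algebraMap O (RtprodQ π) (t i) •
          (1 : Matrix (Fin 2) (Fin 2) (RtprodQ π))) a b =
          Ideal.Quotient.mk _ ((Sig i - 1) a b) := by
        rw [Matrix.sub_apply, Matrix.smul_apply, Matrix.one_apply_ne hab, smul_zero, sub_zero,
          rtprodMat_apply, Matrix.sub_apply, Matrix.one_apply_ne hab, sub_zero]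
      rw [e]
      exact h1
  · intro i a b
    have h1 : IsNilpotent (Ideal.Quotient.mk (RingHom.ker (π : A →+* Matrix (Fin d) (Fin d) Sn))
        ((Phi i - algebraMap O A (s i) • (1 : Matrix (Fin 2) (Fin 2) A)) a b)) :=
      (hnil_phi i a b).map _
    have e : (rtprodMat π Phi i - algebraMap O (RtprodQ π) (s i) •
        (1 : Matrix (Fin 2) (Fin 2) (RtprodQ π))) a b =
        Ideal.Quotient.mk _
          ((Phi i - algebraMap O A (s i) • (1 : Matrix (Fin 2) (Fin 2) A)) a b) := by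
      by_cases hab : a = b
      · subst hab
        rw [Matrix.sub_apply, Matrix.smul_apply, Matrix.one_apply_eq, smul_eq_mul, mul_one,
          rtprodMat_apply, Matrix.sub_apply, Matrix.smul_apply, Matrix.one_apply_eq, smul_eq_mul,
          mul_one, map_sub]
        rfl
      · rw [Matrix.sub_apply, Matrix.smul_apply, Matrix.one_apply_ne hab, smul_zero, sub_zero,
          rtprodMat_apply, Matrix.sub_apply, Matrix.smul_apply, Matrix.one_apply_ne hab,
          smul_zero, sub_zero]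
    rw [e]
    exact h1
  · intro k
    exact (hnil_x k).map _
  · intro c hc
    obtain ⟨u, hu, hπ⟩ := hgen c hc
    exact ⟨Ideal.Quotient.mk _ u, rtprod_mk_mem_adjoin π Sig Phi x hu, by rw [rtprodJ_mk, hπ]⟩

end Side

section Datum

variable {O : Type*} [CommRing O] [IsDomain O] [IsLocalRing O] {ι τ : Type*}

/-- **PROD-asm, algebraic core.**  `q i = r i` in `O`, `p ∣ r i − 1`,
`ζ_i = tχ i + δ i` a `p`-th root of unity with `ζ_i ≠ ζ_i⁻¹ = tχ i − δ i`, `tχ i ≡ 1 mod λ`. -/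
theorem rtprod_datumE (p : ℕ) (r : ι → ℕ) (q s tχ δ : ι → O) (lam : O)
    (hlam : lam ∈ maximalIdeal O)
    (hq : ∀ i, q i = (r i : O)) (hr : ∀ i, p ∣ r i - 1) (hr1 : ∀ i, 1 ≤ r i)
    (htδ : ∀ i, tχ i ^ 2 - δ i ^ 2 = 1) (hζ : ∀ i, (tχ i + δ i) ^ p = 1)
    (hδ0 : ∀ i, 2 * δ i ≠ 0) (htχ : ∀ i, ∃ c, tχ i = 1 + lam * c)
    (m h d : ℕ) {T0 : Type*} [CommRing T0] [Algebra O T0]
    (j0 : T0 →ₐ[O] Matrix (Fin d) (Fin d) O)
    (Sig0 Phi0 : ι → Matrix (Fin 2) (Fin 2) T0) (n : ℕ)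
    {A : Type*} [CommRing A] [Algebra O A]
    (π1 πχ : A →ₐ[O] Matrix (Fin d) (Fin d) (RttwS O m ⧸ maximalIdeal (RttwS O m) ^ n))
    (Sig Phi : ι → Matrix (Fin 2) (Fin 2) A) (x : τ → A)
    (H : TWPreE r s tχ lam m d j0 Sig0 Phi0 n (rttwEvenQ O m h n) π1 πχ Sig Phi x) :
    TWDatumE q s tχ lam m h d j0 Sig0 Phi0 n
      (rtprodJ π1) (rtprodMat π1 Sig) (rtprodMat π1 Phi) (rtprodX π1 x)
      (rtprodJ πχ) (rtprodMat πχ Sig) (rtprodMat πχ Phi) (rtprodX πχ x) := by
  have hs1 : TWSideE (rttwEvenQ O m h n) (fun _ => (1 : O)) s (rtprodJ π1) (rtprodMat π1 Sig) (rtprodMat π1 Phi)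
      (rtprodX π1 x) := by
    refine rtprod_sideE _ π1 _ s Sig Phi x (fun i => ?_) H.det_sig H.det_phi (fun i => ?_)
      H.nil_sig H.nil_phi H.nil_x H.gen1
    · rw [H.tr1, mul_one, map_ofNat]
    · rw [map_one, sub_self]; exact IsNilpotent.zero
  have hsχ : TWSideE (rttwEvenQ O m h n) tχ s (rtprodJ πχ) (rtprodMat πχ Sig) (rtprodMat πχ Phi)
      (rtprodX πχ x) := by
    refine rtprod_sideE _ πχ _ s Sig Phi x H.trχ H.det_sig H.det_phi (fun i => ?_)
      H.nil_sig H.nil_phi H.nil_x H.genχ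
    obtain ⟨c, hc⟩ := htχ i
    have hl : IsNilpotent (algebraMap O (RtprodQ πχ) lam) := by
      refine ⟨n, ?_⟩
      have e0 : rtprodJ πχ (algebraMap O (RtprodQ πχ) lam ^ n) = rtprodJ πχ 0 := by
        rw [← map_pow, AlgHom.commutes, map_zero]
        exact rtprod_lam_pow_eq_zero hlam m d n
      exact rtprodJ_injective πχ e0
    have e : algebraMap O (RtprodQ πχ) (tχ i) - 1 =
        algebraMap O (RtprodQ πχ) lam * algebraMap O (RtprodQ πχ) c := by
      rw [hc, map_add, map_one, map_mul]; ring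
    rw [e]
    exact (Commute.all _ _).isNilpotent_mul_right hl
  refine ⟨hs1, hsχ, ?_, ?_, ?_, ?_, ?_, ?_, ?_, ?_⟩
  · -- rel1
    intro i
    have htr : (rtprodMat π1 Sig i).trace = 2 := by
      have := hs1.tr_sig i
      rwa [mul_one, map_ofNat] at this
    have hc : rtprodMat π1 Phi i * rtprodMat π1 Sig i =
        rtprodMat π1 Sig i ^ r i * rtprodMat π1 Phi i := by
      rw [rtprodMat_eq, rtprodMat_eq, ← map_mul, H.conj i, map_mul, map_pow]
    have := rtprod_rel1 _ _ htr (hs1.det_sig i) (r i) hc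
    rw [this, hq i, map_natCast]
  · -- relχ
    intro i
    have hc : rtprodMat πχ Phi i * rtprodMat πχ Sig i =
        rtprodMat πχ Sig i ^ r i * rtprodMat πχ Phi i := by
      rw [rtprodMat_eq, rtprodMat_eq, ← map_mul, H.conj i, map_mul, map_pow]
    refine rtprod_relchi (tχ i + δ i) (tχ i - δ i) p (r i) (hζ i) ?_ ?_ (hr i) (hr1 i) _ _ ?_
      (hsχ.det_sig i) hc
    · linear_combination htδ i
    · intro e
      apply hδ0 i
      linear_combination e
    · rw [hsχ.tr_sig i]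
      congr 1
      ring
  · intro i a b
    exact H.cong (Sig i a b)
  · intro i a b
    exact H.cong (Phi i a b)
  · intro k
    exact H.cong (x k)
  · intro i a b
    exact H.base_sig i a b
  · intro i a b
    exact H.base_phi i a b
  · intro u
    obtain ⟨a, rfl⟩ := Ideal.Quotient.mk_surjective u
    exact H.base_T0 a

end Datum

end Fermat.Agent.RT.Prod


end ZBRT_004_3
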