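/- GENERATED FILE (helper35, build-time optimisation, NOTES/ZB.md): verbatim concatenation of the modules
   Fermat.Agent.RT.K3.AlgCot
   Fermat.Agent.RT.K3.AlgMat
   Fermat.Agent.RT.K3.AlgRep
   Fermat.Agent.RT.K3.Alg
   Do not edit; do not import together with these modules. -/
import Fermat.Agent.ZB.S53_002
import Fermat.Prelude.Def_GaloisRep_ResidualEquiv
import Fermat.Prelude.Def_GaloisRep_Adic
import Fermat.Prelude.Def_FLTPrelim_Ramification
import Fermat.Agent.ZB.TW_007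
import Fermat.Agent.ZB.TW_008

/-! ### bundled: `Fermat.Agent.RT.K3.AlgCot` -/
section ZBRT_006_0
/-
K-machine, piece K3-Alg (framed generation), part 1: pure commutative algebra.   Owner: helper53.

`A` a local `𝒪`-algebra with residue field `k = 𝒪/𝔪` (`S53.IsResAlg`), `𝔪_A` nilpotent.

* `rtk3a_adjoin_eq_top` : a set `s ⊆ A` whose image spans the relative cotangent space
  `S53.TangentCot 𝒪 A` over `k` generates `A` as an `𝒪`-algebra;
* `rtk3a_exists_gen`    : if `E ⊆ A` spans a subspace `L` of the cotangent space with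
  `dim (cot / L) ≤ N`, then `E` together with `N` elements of `𝔪_A` generates `A`;
* `rtk3a_count`         : the counting step: if every family of NONZERO functionals on `V`
  vanishing on `L`, with the same values at the points `c i` (`i : ι`), has at most `G` members,
  then `|k| ^ dim (V / L) ≤ |k| ^ |ι| * G + 1`;
* `rtk3a_finrank_le`    : hence `dim (V / L) ≤ |ι| + g` if `G = |k| ^ g` and `|k| > 2`.
-/

set_option autoImplicit false

namespace Fermat.Agent.RT

open IsLocalRing Fermat.Agent.S53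

section Gen

variable {𝒪 : Type} [CommRing 𝒪] [IsLocalRing 𝒪]
variable {A : Type} [CommRing A] [IsLocalRing A] [Algebra 𝒪 A]

/-- The elements of the subalgebra generated by `s` cover the `k`-span of the image of `s` in the
relative cotangent space. -/
theorem rtk3a_cover (s : Set A) (v : TangentCot 𝒪 A)
    (hv : v ∈ Submodule.span (ResidueField 𝒪) (tangentMk 𝒪 A '' s)) :
    ∃ b ∈ Algebra.adjoin 𝒪 s, tangentMk 𝒪 A b = v := by
  induction hv using Submodule.span_induction with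
  | mem x hx =>
    obtain ⟨a, ha, rfl⟩ := hx
    exact ⟨a, Algebra.subset_adjoin ha, rfl⟩
  | zero => exact ⟨0, Subalgebra.zero_mem _, map_zero _⟩
  | add x y _ _ hx hy =>
    obtain ⟨b₁, hb₁, rfl⟩ := hx
    obtain ⟨b₂, hb₂, rfl⟩ := hy
    exact ⟨b₁ + b₂, Subalgebra.add_mem _ hb₁ hb₂, map_add _ _ _⟩
  | smul c x _ hx =>
    obtain ⟨b, hb, rfl⟩ := hx
    obtain ⟨c', rfl⟩ := residue_surjective c
    refine ⟨c' • b, Subalgebra.smul_mem _ hb c', ?_⟩
    rw [map_smul, tangentCot_residue_smul]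

/-- A set whose image spans the relative cotangent space generates `A`, if `𝔪_A` is nilpotent. -/
theorem rtk3a_adjoin_eq_top (hA : IsResAlg 𝒪 A) {n : ℕ} (hn : maximalIdeal A ^ n = ⊥)
    (s : Set A) (hs : Submodule.span (ResidueField 𝒪) (tangentMk 𝒪 A '' s) = ⊤) :
    Algebra.adjoin 𝒪 s = ⊤ := by
  have h := tangent_adjoin_eq_top hA hn
    (fun b : (Algebra.adjoin 𝒪 s : Subalgebra 𝒪 A) => (b : A)) (fun v => by
      obtain ⟨b, hb, hbv⟩ := rtk3a_cover s v (by rw [hs]; exact Submodule.mem_top)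
      exact ⟨⟨b, hb⟩, hbv⟩)
  have h2 : Set.range (fun b : (Algebra.adjoin 𝒪 s : Subalgebra 𝒪 A) => (b : A)) =
      ((Algebra.adjoin 𝒪 s : Subalgebra 𝒪 A) : Set A) := Subtype.range_coe
  rw [h2, Algebra.adjoin_eq] at h
  exact h

/-- If the image of `E` spans a subspace of codimension `≤ N` of the relative cotangent space,
then `E` together with `N` elements of `𝔪_A` generates `A`. -/
theorem rtk3a_exists_gen (hA : IsResAlg 𝒪 A) [Finite A] {n : ℕ} (hn : maximalIdeal A ^ n = ⊥)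
    (E : Set A) (N : ℕ)
    (hN : Module.finrank (ResidueField 𝒪)
      (TangentCot 𝒪 A ⧸ Submodule.span (ResidueField 𝒪) (tangentMk 𝒪 A '' E)) ≤ N) :
    ∃ x : Fin N → A, (∀ i, x i ∈ maximalIdeal A) ∧
      Algebra.adjoin 𝒪 (E ∪ Set.range x) = ⊤ := by
  classical
  have : Finite (TangentCot 𝒪 A) :=
    Finite.of_surjective _ (tangentMk_surjective (𝒪 := 𝒪) (A := A))
  have : Module.Finite (ResidueField 𝒪) (TangentCot 𝒪 A) := Module.Finite.of_finite
  set L : Submodule (ResidueField 𝒪) (TangentCot 𝒪 A) :=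
    Submodule.span (ResidueField 𝒪) (tangentMk 𝒪 A '' E) with hL
  let bq := Module.finBasis (ResidueField 𝒪) (TangentCot 𝒪 A ⧸ L)
  -- lifts of the basis vectors
  have hlift : ∀ w : TangentCot 𝒪 A ⧸ L, ∃ a ∈ maximalIdeal A, L.mkQ (tangentMk 𝒪 A a) = w := by
    intro w
    obtain ⟨v, rfl⟩ := L.mkQ_surjective w
    obtain ⟨a, ha, rfl⟩ := tangent_exists_rep hA v
    exact ⟨a, ha, rfl⟩
  choose rep hrep hrep' using hlift
  let x : Fin N → A := fun i =>
    if h : i.val < Module.finrank (ResidueField 𝒪) (TangentCot 𝒪 A ⧸ L) then rep (bq ⟨i.val, h⟩)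
    else 0
  refine ⟨x, fun i => ?_, ?_⟩
  · show (if h : i.val < Module.finrank (ResidueField 𝒪) (TangentCot 𝒪 A ⧸ L)
      then rep (bq ⟨i.val, h⟩) else 0) ∈ maximalIdeal A
    split_ifs with h
    · exact hrep _
    · exact Ideal.zero_mem _
  · refine rtk3a_adjoin_eq_top hA hn _ ?_
    set W : Submodule (ResidueField 𝒪) (TangentCot 𝒪 A) :=
      Submodule.span (ResidueField 𝒪) (tangentMk 𝒪 A '' (E ∪ Set.range x)) with hW
    have hLW : L ≤ W := Submodule.span_mono (Set.image_mono Set.subset_union_left)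
    have hmap : W.map L.mkQ = ⊤ := by
      rw [eq_top_iff, ← bq.span_eq, Submodule.span_le]
      rintro _ ⟨i, rfl⟩
      refine ⟨tangentMk 𝒪 A (x ⟨i.val, lt_of_lt_of_le i.2 hN⟩), ?_, ?_⟩
      · exact Submodule.subset_span ⟨_, Or.inr ⟨_, rfl⟩, rfl⟩
      · show L.mkQ (tangentMk 𝒪 A (if h : i.val <
          Module.finrank (ResidueField 𝒪) (TangentCot 𝒪 A ⧸ L) then rep (bq ⟨i.val, h⟩) else 0)) = _
        rw [dif_pos i.2, hrep']
    have h3 : L ⊔ W = ⊤ := (Submodule.map_mkQ_eq_top L W).1 hmap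
    rw [sup_eq_right.2 hLW] at h3
    exact h3

end Gen

section Count

variable {k V : Type} [Field k] [Finite k] [AddCommGroup V] [Module k V] [Module.Finite k V]

omit [Finite k] in
/-- The number of functionals vanishing on `L`. -/
theorem rtk3a_card_dualAnnihilator (L : Submodule k V) :
    Nat.card L.dualAnnihilator = Nat.card k ^ Module.finrank k (V ⧸ L) := by
  rw [← Nat.card_congr (Submodule.dualQuotEquivDualAnnihilator L).toEquiv,
    Module.natCard_eq_pow_finrank (K := k), Subspace.dual_finrank_eq]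

/-- **Counting step.**  If every family of nonzero functionals vanishing on `L` with the same
values at the `c i` has at most `G` members, then `|k| ^ dim (V/L) ≤ |k| ^ |ι| * G + 1`. -/
theorem rtk3a_count (L : Submodule k V) {ι : Type} [Fintype ι] (c : ι → V) (G : ℕ)
    (hG : ∀ Λ : Set (Module.Dual k V), (∀ ℓ ∈ Λ, ℓ ≠ 0 ∧ ℓ ∈ L.dualAnnihilator) →
      (∀ ℓ ∈ Λ, ∀ ℓ' ∈ Λ, ∀ i, ℓ (c i) = ℓ' (c i)) → Nat.card Λ ≤ G) :
    Nat.card k ^ Module.finrank k (V ⧸ L) ≤ Nat.card k ^ Fintype.card ι * G + 1 := by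
  classical
  have : Finite (Module.Dual k V) := Module.finite_of_finite k
  have : Fintype (Module.Dual k V) := Fintype.ofFinite _
  have : Fintype k := Fintype.ofFinite _
  rw [← rtk3a_card_dualAnnihilator L]
  -- the finite set of nonzero functionals vanishing on `L`
  let s : Finset (Module.Dual k V) :=
    Finset.univ.filter fun ℓ => ℓ ≠ 0 ∧ ℓ ∈ L.dualAnnihilator
  let Φ : Module.Dual k V → (ι → k) := fun ℓ i => ℓ (c i)
  have h1 : s.card ≤ G * (s.image Φ).card := by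
    refine Finset.card_le_mul_card_image s G fun a _ => ?_
    have := hG {ℓ | ℓ ∈ s.filter fun x => Φ x = a} (fun ℓ hℓ => by
      have h := (Finset.mem_filter.1 (Finset.mem_filter.1 hℓ).1).2
      exact h) (fun ℓ hℓ ℓ' hℓ' i => by
      have h := (Finset.mem_filter.1 hℓ).2
      have h' := (Finset.mem_filter.1 hℓ').2
      exact (congrFun h i).trans (congrFun h' i).symm)
    rwa [Set.coe_ofPred, Nat.card_eq_fintype_card, Fintype.card_coe] at this
  have h2 : (s.image Φ).card ≤ Nat.card k ^ Fintype.card ι := by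
    refine le_trans (Finset.card_le_univ _) ?_
    rw [Fintype.card_fun, Nat.card_eq_fintype_card]
  have h3 : Nat.card L.dualAnnihilator ≤ s.card + 1 := by
    rw [Nat.card_eq_fintype_card, ← Finset.card_univ]
    have h4 : (Finset.univ : Finset L.dualAnnihilator).card ≤
        (insert (0 : Module.Dual k V) s).card := by
      refine Finset.card_le_card_of_injOn (fun ℓ => (ℓ : Module.Dual k V)) ?_ ?_
      · intro ℓ _
        by_cases h0 : (ℓ : Module.Dual k V) = 0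
        · exact Finset.mem_insert.2 (Or.inl h0)
        · exact Finset.mem_insert.2 (Or.inr (Finset.mem_filter.2
            ⟨Finset.mem_univ _, h0, ℓ.2⟩))
      · intro a _ b _ hab
        exact Subtype.ext hab
    exact h4.trans (Finset.card_insert_le _ _)
  calc Nat.card L.dualAnnihilator ≤ s.card + 1 := h3
    _ ≤ G * (s.image Φ).card + 1 := Nat.add_le_add_right h1 1
    _ ≤ G * Nat.card k ^ Fintype.card ι + 1 :=
        Nat.add_le_add_right (Nat.mul_le_mul_left G h2) 1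
    _ = Nat.card k ^ Fintype.card ι * G + 1 := by rw [mul_comm]

/-- **Dimension bound** from the counting step. -/
theorem rtk3a_finrank_le (hk : 2 < Nat.card k) (L : Submodule k V) {ι : Type} [Fintype ι]
    (c : ι → V) (g : ℕ)
    (hG : ∀ Λ : Set (Module.Dual k V), (∀ ℓ ∈ Λ, ℓ ≠ 0 ∧ ℓ ∈ L.dualAnnihilator) →
      (∀ ℓ ∈ Λ, ∀ ℓ' ∈ Λ, ∀ i, ℓ (c i) = ℓ' (c i)) → Nat.card Λ ≤ Nat.card k ^ g) :
    Module.finrank k (V ⧸ L) ≤ g + Fintype.card ι := by
  have h := rtk3a_count L c (Nat.card k ^ g) hG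
  rw [← pow_add] at h
  by_contra hlt
  have hlt' : Fintype.card ι + g + 1 ≤ Module.finrank k (V ⧸ L) := by omega
  have h3 : Nat.card k ^ (Fintype.card ι + g + 1) ≤ Nat.card k ^ Module.finrank k (V ⧸ L) :=
    Nat.pow_le_pow_right (by omega) hlt'
  have h4 : 0 < Nat.card k ^ (Fintype.card ι + g) := Nat.pow_pos (by omega)
  have h5 : 3 * Nat.card k ^ (Fintype.card ι + g) ≤ Nat.card k ^ (Fintype.card ι + g + 1) := by
    rw [pow_succ, mul_comm]
    exact Nat.mul_le_mul_left _ hk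
  omega

end Count

end Fermat.Agent.RT


end ZBRT_006_0

/-! ### bundled: `Fermat.Agent.RT.K3.AlgMat` -/
section ZBRT_006_1
/-
K-machine, piece K3-Alg (framed generation), part 2: matrices and tangent vectors.
Owner: helper53.

* `rtk3a_mapMatrix_intCast` : KEY matrix step.  `ℓ` a functional on the relative cotangent space
  of `A`, `u_ℓ : A → k[ε]` its tangent vector.  If the entries of the framed matrix `β⁻¹ M β`
  are killed by `ℓ` and `M ≡ z mod 𝔪_A` for an integer `z`, then `u_ℓ(M) = z`.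
* `rtk3a_baseChange_eq_intCast`, `rtk3a_mapMatrix_of_baseChange` : base change of an endomorphism
  versus its matrix;  `rtk3a_equiv_intCast` : transport along an equivalence of residual
  representations.
-/

set_option autoImplicit false

namespace Fermat.Agent.RT

open IsLocalRing Fermat.Agent.S53
open scoped TensorProduct

section Aux

theorem rtk3a_exists_pow_eq_bot (A : Type) [CommRing A] [IsLocalRing A] [Finite A] :
    ∃ n : ℕ, maximalIdeal A ^ n = ⊥ := by
  have h := IsArtinianRing.isNilpotent_jacobson_bot (R := A)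
  rw [IsLocalRing.jacobson_eq_maximalIdeal ⊥ bot_ne_top] at h
  exact h

variable {A B : Type} [CommRing A] [CommRing B] [Algebra A B]
variable {V : Type} [AddCommGroup V] [Module A V]

/-- matrix of an integer scalar -/
theorem rtk3a_toMatrix_intCast (b : Module.Basis (Fin 2) A V) (z : ℤ) :
    LinearMap.toMatrix b b ((z : Module.End A V)) = (z : Matrix (Fin 2) (Fin 2) A) :=
  map_intCast (LinearMap.toMatrixAlgEquiv b) z

/-- A base change whose matrix is an integer scalar is that scalar. -/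
theorem rtk3a_baseChange_eq_intCast (b : Module.Basis (Fin 2) A V) (f : V →ₗ[A] V) (z : ℤ)
    (h : (algebraMap A B).mapMatrix (LinearMap.toMatrix b b f) =
      (z : Matrix (Fin 2) (Fin 2) B)) :
    f.baseChange B = (z : Module.End B (B ⊗[A] V)) := by
  apply (LinearMap.toMatrix (Algebra.TensorProduct.basis B b) (Algebra.TensorProduct.basis B b)).injective
  rw [LinearMap.toMatrix_baseChange, rtk3a_toMatrix_intCast]
  exact h

/-- Conversely. -/
theorem rtk3a_mapMatrix_of_baseChange (b : Module.Basis (Fin 2) A V) (f : V →ₗ[A] V) (z : ℤ)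
    (h : f.baseChange B = (z : Module.End B (B ⊗[A] V))) :
    (algebraMap A B).mapMatrix (LinearMap.toMatrix b b f) = (z : Matrix (Fin 2) (Fin 2) B) := by
  have h2 := congrArg (LinearMap.toMatrix (Algebra.TensorProduct.basis B b) (Algebra.TensorProduct.basis B b)) h
  rw [LinearMap.toMatrix_baseChange, rtk3a_toMatrix_intCast] at h2
  exact h2

/-- base change of an integer scalar -/
theorem rtk3a_baseChange_intCast (z : ℤ) :
    ((z : Module.End A V)).baseChange B = (z : Module.End B (B ⊗[A] V)) :=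
  map_intCast (Module.End.baseChangeHom A B V) z

end Aux

section Tangent

variable {𝒪 : Type} [CommRing 𝒪] [IsLocalRing 𝒪]
variable {A : Type} [CommRing A] [IsLocalRing A] [Algebra 𝒪 A]

/-- The trivial tangent vector `A → k → k[ε]`. -/
noncomputable def rtk3aTriv (hA : IsResAlg 𝒪 A) : A →+* DualNumber (ResidueField 𝒪) :=
  (TrivSqZeroExt.inlHom (ResidueField 𝒪) (ResidueField 𝒪)).comp (tangentRes hA)

theorem rtk3a_tangentOfDual_apply (hA : IsResAlg 𝒪 A)
    (ℓ : Module.Dual (ResidueField 𝒪) (TangentCot 𝒪 A)) (a : A) :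
    (tangentOfDual hA ℓ).1 a = TrivSqZeroExt.inl (tangentRes hA a) +
      TrivSqZeroExt.inr (ℓ (tangentMk 𝒪 A a)) := rfl

theorem rtk3a_tangentOfDual_eq_triv (hA : IsResAlg 𝒪 A)
    (ℓ : Module.Dual (ResidueField 𝒪) (TangentCot 𝒪 A)) {a : A}
    (ha : ℓ (tangentMk 𝒪 A a) = 0) : (tangentOfDual hA ℓ).1 a = rtk3aTriv hA a := by
  rw [rtk3a_tangentOfDual_apply, ha, TrivSqZeroExt.inr_zero, add_zero]
  rfl

theorem rtk3a_mapMatrix_eq_triv (hA : IsResAlg 𝒪 A)
    (ℓ : Module.Dual (ResidueField 𝒪) (TangentCot 𝒪 A)) {N : Matrix (Fin 2) (Fin 2) A}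
    (hN : ∀ i j, ℓ (tangentMk 𝒪 A (N i j)) = 0) :
    (tangentOfDual hA ℓ).1.mapMatrix N = (rtk3aTriv hA).mapMatrix N := by
  refine Matrix.ext fun i j => ?_
  rw [RingHom.mapMatrix_apply, RingHom.mapMatrix_apply, Matrix.map_apply, Matrix.map_apply]
  exact rtk3a_tangentOfDual_eq_triv hA ℓ (hN i j)

/-- A framing `β ≡ 1 mod 𝔪` reduces to `1`. -/
theorem rtk3a_res_framing (hA : IsResAlg 𝒪 A) {β : Matrix (Fin 2) (Fin 2) A}
    (hβ1 : ∀ i j, (β - 1) i j ∈ maximalIdeal A) : (tangentRes hA).mapMatrix β = 1 := by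
  have h : (tangentRes hA).mapMatrix (β - 1) = 0 := by
    refine Matrix.ext fun i j => ?_
    rw [RingHom.mapMatrix_apply, Matrix.map_apply, Matrix.zero_apply]
    exact (tangentRes_eq_zero_iff hA _).2 (hβ1 i j)
  rw [map_sub, map_one, sub_eq_zero] at h
  exact h

theorem rtk3a_res_framing_inv (hA : IsResAlg 𝒪 A) {β βi : Matrix (Fin 2) (Fin 2) A}
    (hβ : β * βi = 1) (hβ1 : ∀ i j, (β - 1) i j ∈ maximalIdeal A) :
    (tangentRes hA).mapMatrix βi = 1 := by
  have h := congrArg (tangentRes hA).mapMatrix hβ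
  rw [map_mul, rtk3a_res_framing hA hβ1, one_mul, map_one] at h
  exact h

theorem rtk3a_res_intCast (hA : IsResAlg 𝒪 A) {M : Matrix (Fin 2) (Fin 2) A} (z : ℤ)
    (hM : (residue A).mapMatrix M = (z : Matrix (Fin 2) (Fin 2) (ResidueField A))) :
    (tangentRes hA).mapMatrix M = (z : Matrix (Fin 2) (Fin 2) (ResidueField 𝒪)) := by
  have h := congrArg ((tangentResEquiv hA).symm : ResidueField A →+* ResidueField 𝒪).mapMatrix hM
  rw [map_intCast] at h
  rw [← h]
  rfl

/-- **Key matrix step.**  If the framed matrix `β⁻¹ M β` has entries killed by `ℓ` and `M`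
is the integer scalar `z` modulo `𝔪_A`, then the tangent vector of `ℓ` maps `M` to `z`. -/
theorem rtk3a_mapMatrix_intCast (hA : IsResAlg 𝒪 A)
    (ℓ : Module.Dual (ResidueField 𝒪) (TangentCot 𝒪 A)) {M β βi : Matrix (Fin 2) (Fin 2) A}
    (hβ : β * βi = 1) (hβ1 : ∀ i j, (β - 1) i j ∈ maximalIdeal A) (z : ℤ)
    (hM : (residue A).mapMatrix M = (z : Matrix (Fin 2) (Fin 2) (ResidueField A)))
    (hℓ : ∀ i j, ℓ (tangentMk 𝒪 A ((βi * M * β) i j)) = 0) :
    (tangentOfDual hA ℓ).1.mapMatrix M =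
      (z : Matrix (Fin 2) (Fin 2) (DualNumber (ResidueField 𝒪))) := by
  have hβ' : βi * β = 1 := mul_eq_one_comm.1 hβ
  have h1 : (tangentOfDual hA ℓ).1.mapMatrix (βi * M * β) =
      (z : Matrix (Fin 2) (Fin 2) (DualNumber (ResidueField 𝒪))) := by
    rw [rtk3a_mapMatrix_eq_triv hA ℓ hℓ]
    have h2 : (tangentRes hA).mapMatrix (βi * M * β) =
        (z : Matrix (Fin 2) (Fin 2) (ResidueField 𝒪)) := by
      rw [map_mul, map_mul, rtk3a_res_framing hA hβ1, rtk3a_res_framing_inv hA hβ hβ1,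
        rtk3a_res_intCast hA z hM, one_mul, mul_one]
    have h3 := congrArg (TrivSqZeroExt.inlHom (ResidueField 𝒪) (ResidueField 𝒪)).mapMatrix h2
    rw [map_intCast] at h3
    rw [← h3]
    rfl
  have h4 : M = β * (βi * M * β) * βi := by
    rw [← mul_assoc, ← mul_assoc, hβ, one_mul, mul_assoc, hβ, mul_one]
  have h5 := congrArg (tangentOfDual hA ℓ).1.mapMatrix hβ
  rw [map_mul, map_one] at h5
  rw [h4, map_mul, map_mul, h1, (Int.cast_commute z _).eq.symm, mul_assoc, h5, mul_one]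

end Tangent

section Rep

/-- Equivalent residual representations are integer scalars at the same elements. -/
theorem rtk3a_equiv_intCast {k : Type} [Field k] {ρ₁ ρ₂ : ResidualGaloisRep k}
    (e : ResidualGaloisRep.Equiv ρ₁ ρ₂) (σ : AlgebraicClosure ℚ ≃ₐ[ℚ] AlgebraicClosure ℚ) (z : ℤ)
    (h : ρ₂.ρ σ = (z : Module.End k ρ₂.V)) : ρ₁.ρ σ = (z : Module.End k ρ₁.V) := by
  refine LinearMap.ext fun x => ?_
  apply e.toLinearEquiv.injective
  rw [e.map_apply, h, Module.End.intCast_apply, Module.End.intCast_apply, map_zsmul]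

/-- `1 ∨ -1` as integer scalars. -/
theorem rtk3a_sign_cases {R : Type} [Ring R] {x : R} (h : x = 1 ∨ x = -1) :
    ∃ z : ℤ, (z = 1 ∨ z = -1) ∧ x = (z : R) := by
  rcases h with h | h
  · exact ⟨1, Or.inl rfl, by rw [h, Int.cast_one]⟩
  · exact ⟨-1, Or.inr rfl, by rw [h, Int.cast_neg, Int.cast_one]⟩

theorem rtk3a_sign_of {R : Type} [Ring R] {x : R} {z : ℤ} (hz : z = 1 ∨ z = -1)
    (h : x = (z : R)) : x = 1 ∨ x = -1 := by
  rcases hz with hz | hz
  · left; rw [h, hz, Int.cast_one]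
  · right; rw [h, hz, Int.cast_neg, Int.cast_one]

end Rep

end Fermat.Agent.RT


end ZBRT_006_1

/-! ### bundled: `Fermat.Agent.RT.K3.AlgRep` -/
section ZBRT_006_2
/-
K-machine, piece K3-Alg (framed generation), part 3: representations.   Owner: helper53.

* `rtk3aEntries`                  : the framed local entries `β_r⁻¹ ρ(σ) β_r`, `σ ∈ Dr r`, `r ∈ T`,
                                    for arbitrary sets `Dr r` of Galois elements;
* `rtk3a_baseChangeAlong_intCast` : KEY step: if `ℓ` kills the framed entries at `σ` and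
                                    `ρ̄(σ) = z` (an integer scalar), then the deformation
                                    `u_ℓ ∘ ρ` to `k[ε]` is `z` at `σ`;
* small facts: residual representations and integer scalars, `2 ≠ 0`, traces of equivalent
  representations, inertia inside decomposition.
-/

set_option autoImplicit false

namespace Fermat.Agent.RT

open IsLocalRing Fermat.Agent.S53
open scoped TensorProduct

section RepLevel

variable {𝒪 : Type} [CommRing 𝒪] [IsLocalRing 𝒪]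
variable {A : Type} [CommRing A] [IsLocalRing A] [Algebra 𝒪 A]

/-- The framed local entries `β_r⁻¹ ρ(σ) β_r` for `σ` in given sets `Dr r`, `r ∈ T`. -/
def rtk3aEntries (ρ : GaloisRepAdic A) (b : Module.Basis (Fin 2) A ρ.V) (T : Finset ℕ)
    (β βi : ℕ → Matrix (Fin 2) (Fin 2) A)
    (Dr : ℕ → Set (AlgebraicClosure ℚ ≃ₐ[ℚ] AlgebraicClosure ℚ)) : Set A :=
  {y | ∃ r ∈ T, ∃ σ ∈ Dr r, ∃ i j : Fin 2,
    y = (βi r * LinearMap.toMatrix b b (ρ.ρ σ) * β r) i j}

/-- The matrix of `ρ(σ)` modulo `𝔪_A`, if the residual representation is an integer scalar. -/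
theorem rtk3a_residue_mapMatrix (ρ : GaloisRepAdic A) (b : Module.Basis (Fin 2) A ρ.V)
    (σ : AlgebraicClosure ℚ ≃ₐ[ℚ] AlgebraicClosure ℚ) (z : ℤ)
    (h : ρ.residual.ρ σ = (z : Module.End (ResidueField A) ρ.residual.V)) :
    (residue A).mapMatrix (LinearMap.toMatrix b b (ρ.ρ σ)) =
      (z : Matrix (Fin 2) (Fin 2) (ResidueField A)) :=
  rtk3a_mapMatrix_of_baseChange (B := ResidueField A) b (ρ.ρ σ) z h

/-- **Key step, representation form.** -/
theorem rtk3a_baseChangeAlong_intCast (hA : IsResAlg 𝒪 A) (ρ : GaloisRepAdic A)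
    (b : Module.Basis (Fin 2) A ρ.V) {β βi : Matrix (Fin 2) (Fin 2) A}
    (hβ : β * βi = 1) (hβ1 : ∀ i j, (β - 1) i j ∈ maximalIdeal A)
    (ℓ : Module.Dual (ResidueField 𝒪) (TangentCot 𝒪 A))
    (σ : AlgebraicClosure ℚ ≃ₐ[ℚ] AlgebraicClosure ℚ) (z : ℤ)
    (hσ : ρ.residual.ρ σ = (z : Module.End (ResidueField A) ρ.residual.V))
    (hℓ : ∀ i j, ℓ (tangentMk 𝒪 A ((βi * LinearMap.toMatrix b b (ρ.ρ σ) * β) i j)) = 0)
    (q : A →+* DualNumber (ResidueField 𝒪)) (hq : IsLocalHom q)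
    (hqu : q = (tangentOfDual hA ℓ).1) :
    (ρ.baseChangeAlong q hq).ρ σ =
      (z : Module.End (DualNumber (ResidueField 𝒪)) (ρ.baseChangeAlong q hq).V) := by
  subst hqu
  have h := rtk3a_mapMatrix_intCast hA ℓ hβ hβ1 z (rtk3a_residue_mapMatrix ρ b σ z hσ) hℓ
  exact @rtk3a_baseChange_eq_intCast A (DualNumber (ResidueField 𝒪)) _ _
    (tangentOfDual hA ℓ).1.toAlgebra ρ.V _ _ b (ρ.ρ σ) z h

/-- The residual representation of a deformation of `ρbar` is an integer scalar where `ρbar`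
is. -/
theorem rtk3a_residual_intCast {k K : Type} [Field k] [Field K] (ι : k →+* K)
    (ρbar : ResidualGaloisRep k) (ρ' : ResidualGaloisRep K)
    (h : ρ'.IsEquiv (ρbar.baseChangeAlong ι))
    (σ : AlgebraicClosure ℚ ≃ₐ[ℚ] AlgebraicClosure ℚ) (z : ℤ)
    (hz : ρbar.ρ σ = (z : Module.End k ρbar.V)) : ρ'.ρ σ = (z : Module.End K ρ'.V) := by
  obtain ⟨e⟩ := h
  refine rtk3a_equiv_intCast e σ z ?_
  show (letI : Algebra k K := ι.toAlgebra; (ρbar.ρ σ).baseChange K) = _
  rw [hz]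
  exact @rtk3a_baseChange_intCast k K _ _ ι.toAlgebra ρbar.V _ _ z

/-- The residual representation of an integer scalar. -/
theorem rtk3a_residual_of_intCast (ρ : GaloisRepAdic A)
    (σ : AlgebraicClosure ℚ ≃ₐ[ℚ] AlgebraicClosure ℚ) (z : ℤ)
    (h : ρ.ρ σ = (z : Module.End A ρ.V)) :
    ρ.residual.ρ σ = (z : Module.End (ResidueField A) ρ.residual.V) := by
  show (ρ.ρ σ).baseChange (ResidueField A) = _
  rw [h]
  exact rtk3a_baseChange_intCast z

theorem rtk3a_ne_of_dvd_pred {p r : ℕ} (h : p ∣ r - 1) (hr : r.Prime) :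
    r ≠ p := by
  rintro rfl
  have h2 := hr.two_le
  have := Nat.le_of_dvd (by omega) h
  omega

theorem rtk3a_inertia_le (P : ValuationSubring (AlgebraicClosure ℚ)) :
    P.inertiaSubgroupIn ℚ ≤ P.decompositionSubgroup ℚ := by
  rintro σ ⟨τ, -, rfl⟩
  exact τ.2

/-- In odd residue characteristic `2 ≠ 0`. -/
theorem rtk3a_two_ne_zero (p : ℕ) [hp : Fact p.Prime] (hp2 : p ≠ 2)
    (hp𝒪 : (p : 𝒪) ∈ maximalIdeal 𝒪) {K : Type} [Field K] (ι : ResidueField 𝒪 →+* K) :
    (2 : K) ≠ 0 := by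
  have h0 : ((p : ℕ) : ResidueField 𝒪) = 0 := by
    have h1 : residue 𝒪 (p : 𝒪) = 0 := (residue_eq_zero_iff _).2 hp𝒪
    rw [map_natCast] at h1
    exact h1
  have : CharP (ResidueField 𝒪) p := (CharP.charP_iff_prime_eq_zero hp.out).2 h0
  intro h2
  have h3 : ι ((2 : ℕ) : ResidueField 𝒪) = 0 := by
    rw [map_natCast]
    exact_mod_cast h2
  have h4 : ((2 : ℕ) : ResidueField 𝒪) = 0 := (map_eq_zero ι).1 h3
  have h5 : p ∣ 2 := (CharP.cast_eq_zero_iff (ResidueField 𝒪) p 2).1 h4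
  exact hp2 ((Nat.prime_dvd_prime_iff_eq hp.out Nat.prime_two).1 h5)

/-- An integer scalar `±1` which is `1` on a nonzero space in characteristic `≠ 2` is `1`. -/
theorem rtk3a_sign_eq_one {K V : Type} [Field K] [AddCommGroup V] [Module K V]
    (hV : Module.finrank K V = 2) (h2 : (2 : K) ≠ 0) {z : ℤ} (hz : z = 1 ∨ z = -1)
    (h : (z : Module.End K V) = ((1 : ℤ) : Module.End K V)) : z = 1 := by
  rcases hz with hz | hz
  · exact hz
  · exfalso
    subst hz
    have : Nontrivial V := Module.nontrivial_of_finrank_pos (R := K) (by rw [hV]; norm_num)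
    obtain ⟨x, hx⟩ := exists_ne (0 : V)
    have h3 := congrArg (fun f : Module.End K V => f x) h
    simp only [Module.End.intCast_apply, neg_smul, one_smul] at h3
    have h4 : (2 : K) • x = 0 := by
      rw [two_smul]
      nth_rewrite 1 [← h3]
      exact neg_add_cancel x
    rcases smul_eq_zero.1 h4 with h5 | h5
    · exact h2 h5
    · exact hx h5

/-- Equivalent representations have the same traces. -/
theorem rtk3a_trace_eq_of_equiv {ρ₁ ρ₂ : GaloisRepAdic A} (e : GaloisRepAdic.Equiv ρ₁ ρ₂)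
    (σ : AlgebraicClosure ℚ ≃ₐ[ℚ] AlgebraicClosure ℚ) :
    LinearMap.trace A ρ₁.V (ρ₁.ρ σ) = LinearMap.trace A ρ₂.V (ρ₂.ρ σ) := by
  have hconj : ρ₂.ρ σ = e.toLinearEquiv.conj (ρ₁.ρ σ) := by
    refine LinearMap.ext fun x => ?_
    rw [LinearEquiv.conj_apply_apply, e.map_apply, LinearEquiv.apply_symm_apply]
  rw [hconj, LinearMap.trace_conj']

end RepLevel

end Fermat.Agent.RT


end ZBRT_006_2

/-! ### bundled: `Fermat.Agent.RT.K3.Alg` -/
section ZBRT_006_3
/-
K-machine, piece K3-Alg (framed generation): `StmtK3Alg` of `RT/PlanK3.lean`.   Owner: helper53.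

* `rtk3a_main_gen` : GENERAL form.  `Dr r ⊆ G_ℚ` (`r ∈ T`) arbitrary sets with `ρ̄ = ±1` on `Dr r`
  and such that a base change `ρ'` of `ρ` to `k[ε]` which is `±1` on `Dr r` is `±1` on all
  decomposition groups over `r` (`rtk3TrivAt`).  Then `A` is generated over `𝒪` by the framed
  local entries `β_r⁻¹ ρ(σ) β_r` (`σ ∈ Dr r`, `r ∈ T`) and `g + 4|T|` elements of `𝔪_A`.
* `stmtK3Alg`      : `StmtK3Alg 𝒪` (all decomposition groups over `r`).

Proof: `L` := span of the framed local entries in the relative cotangent space `t*` of `A`.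
A nonzero functional `ℓ` on `t*` killing `L` gives the tangent vector `u_ℓ : A → k[ε]` (surjective)
and the deformation `ρ_ℓ = u_ℓ ∘ ρ`, which is of type `rtk3Flat` (key matrix step:
`u_ℓ(β⁻¹ρ(σ)β)` is a constant matrix congruent to `±1`, hence `= ±1`, hence `ρ_ℓ(σ) = ±1`;
flatness passes to the base change along the surjection `u_ℓ`).  `ℓ` is determined by the class of
`ρ_ℓ` (traces) and its values at the entries of the `β_r`; so
`|k|^dim(t*/L) − 1 ≤ |k|^(4|T|) · |k|^g`, hence `dim (t*/L) ≤ g + 4|T|` (`|k| > 2`); Nakayama.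
-/

set_option autoImplicit false

namespace Fermat.Agent.RT

open IsLocalRing Fermat.Agent.TW Fermat.Agent.S53
open scoped TensorProduct

section Inj

variable {𝒪 : Type} [CommRing 𝒪] [IsLocalRing 𝒪]
variable {A : Type} [CommRing A] [IsLocalRing A] [Algebra 𝒪 A]

/-- the trace of a base change along a ring homomorphism -/
theorem rtk3a_trace_baseChangeAlong {B : Type} [CommRing B] [IsLocalRing B]
    (ρ : GaloisRepAdic A) (q : A →+* B) (hq : IsLocalHom q)
    (σ : AlgebraicClosure ℚ ≃ₐ[ℚ] AlgebraicClosure ℚ) :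
    LinearMap.trace B (ρ.baseChangeAlong q hq).V ((ρ.baseChangeAlong q hq).ρ σ) =
      q (LinearMap.trace A ρ.V (ρ.ρ σ)) :=
  @LinearMap.trace_baseChange A _ ρ.V _ _ _ _ (ρ.ρ σ) B _ q.toAlgebra

/-- **Injectivity.**  Two functionals with equivalent deformations and the same values at the
entries of the framings are equal, if the traces and the entries of the framings generate `A`. -/
theorem rtk3a_eq_of_isEquiv (hA : IsResAlg 𝒪 A) (ρ : GaloisRepAdic A) (T : Finset ℕ)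
    (β : ℕ → Matrix (Fin 2) (Fin 2) A)
    (hgen : Algebra.adjoin 𝒪 ({y | ∃ σ, y = LinearMap.trace A ρ.V (ρ.ρ σ)} ∪
      {y | ∃ r ∈ T, ∃ i j, y = β r i j}) = ⊤)
    (ℓ ℓ' : Module.Dual (ResidueField 𝒪) (TangentCot 𝒪 A))
    (q q' : A →+* DualNumber (ResidueField 𝒪)) (hq : IsLocalHom q) (hq' : IsLocalHom q')
    (hqu : q = (tangentOfDual hA ℓ).1) (hqu' : q' = (tangentOfDual hA ℓ').1)
    (he : (ρ.baseChangeAlong q hq).IsEquiv (ρ.baseChangeAlong q' hq'))
    (hc : ∀ r ∈ T, ∀ i j, ℓ (tangentMk 𝒪 A (β r i j)) = ℓ' (tangentMk 𝒪 A (β r i j))) :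
    ℓ = ℓ' := by
  apply tangentOfDual_injective hA
  apply tangentHom_ext_of_adjoin hgen
  rintro a (⟨σ, rfl⟩ | ⟨r, hr, i, j, rfl⟩)
  · obtain ⟨e⟩ := he
    have h1 := rtk3a_trace_baseChangeAlong ρ q hq σ
    have h2 := rtk3a_trace_baseChangeAlong ρ q' hq' σ
    rw [← hqu, ← hqu', ← h1, ← h2]
    exact rtk3a_trace_eq_of_equiv e σ
  · rw [rtk3a_tangentOfDual_apply, rtk3a_tangentOfDual_apply, hc r hr i j]

end Inj

section Main

variable {𝒪 : Type} [CommRing 𝒪] [IsDomain 𝒪] [IsDiscreteValuationRing 𝒪]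
  [IsAdicComplete (maximalIdeal 𝒪) 𝒪] [Finite (ResidueField 𝒪)]

omit [IsAdicComplete (maximalIdeal 𝒪) 𝒪] in
/-- The deformation to `k[ε]` of type `rtk3Flat` attached to a nonzero functional on the relative
cotangent space of `A` which kills the framed local entries. -/
theorem rtk3a_exists_tangentSub (p : ℕ) [Fact p.Prime]
    (ρbar : ResidualGaloisRep (ResidueField 𝒪)) (S Smin T Q : Finset ℕ)
    (hyp : TWHyp 𝒪 p ρbar S Smin) (hT : IsTrivSet p ρbar Smin T)
    {A : Type} [CommRing A] [IsLocalRing A] [Algebra 𝒪 A] (hA : IsResAlg 𝒪 A)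
    (ιA : ResidueField 𝒪 →+* ResidueField A)
    (hιA : ∀ x : 𝒪, ιA (residue 𝒪 x) = residue A (algebraMap 𝒪 A x))
    (ρ : GaloisRepAdic A) (hflat : twFlat 𝒪 p Smin (Q ∪ T) ρ)
    (hres : ρ.residual.IsEquiv (ρbar.baseChangeAlong ιA))
    (b : Module.Basis (Fin 2) A ρ.V) (β βi : ℕ → Matrix (Fin 2) (Fin 2) A)
    (hβ : ∀ r ∈ T, β r * βi r = 1 ∧ ∀ i j, (β r - 1) i j ∈ maximalIdeal A)
    (Dr : ℕ → Set (AlgebraicClosure ℚ ≃ₐ[ℚ] AlgebraicClosure ℚ))
    (hDr1 : ∀ r ∈ T, ∀ σ ∈ Dr r, ρbar.ρ σ = 1 ∨ ρbar.ρ σ = -1)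
    (hDr2 : ∀ r ∈ T, ∀ (q : A →+* DualNumber (ResidueField 𝒪)) (hq : IsLocalHom q),
      (∀ σ ∈ Dr r, (ρ.baseChangeAlong q hq).ρ σ = 1 ∨ (ρ.baseChangeAlong q hq).ρ σ = -1) →
        rtk3TrivAt (ρ.baseChangeAlong q hq) r)
    (ℓ : Module.Dual (ResidueField 𝒪) (TangentCot 𝒪 A)) (hℓ0 : ℓ ≠ 0)
    (hℓ : ∀ y ∈ rtk3aEntries ρ b T β βi Dr, ℓ (tangentMk 𝒪 A y) = 0) :
    ∃ (t : TangentSub 𝒪 ρbar (rtk3Flat 𝒪 p Smin Q T))
      (hq : IsLocalHom ((tangentAlgHom (tangentOfDual hA ℓ) :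
        @AlgHom 𝒪 A (DualNumber (ResidueField 𝒪)) _ _ _ _ (dnAlg 𝒪)) :
          A →+* DualNumber (ResidueField 𝒪))),
      t.1 = ρ.baseChangeAlong ((tangentAlgHom (tangentOfDual hA ℓ) :
        @AlgHom 𝒪 A (DualNumber (ResidueField 𝒪)) _ _ _ _ (dnAlg 𝒪)) :
          A →+* DualNumber (ResidueField 𝒪)) hq := by
  let _ : Algebra 𝒪 (DualNumber (ResidueField 𝒪)) := dnAlg 𝒪
  let _ : Algebra (ResidueField 𝒪) (ResidueField (DualNumber (ResidueField 𝒪))) := dnResAlg 𝒪
  have hε : IsTestRing 𝒪 (DualNumber (ResidueField 𝒪)) := isTestRing_dualNumber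
  have hεR : IsResAlg 𝒪 (DualNumber (ResidueField 𝒪)) := hε.isResAlg
  set q : A →ₐ[𝒪] DualNumber (ResidueField 𝒪) := tangentAlgHom (tangentOfDual hA ℓ) with hqdef
  have hq : IsLocalHom (q : A →+* DualNumber (ResidueField 𝒪)) := hεR.isLocalHom_ringHom q
  have hqu : (q : A →+* DualNumber (ResidueField 𝒪)) = (tangentOfDual hA ℓ).1 := rfl
  have hsurj : Function.Surjective (q : A →+* DualNumber (ResidueField 𝒪)) :=
    twtan_tangentOfDual_surjective hA ℓ hℓ0
  obtain ⟨D⟩ := nonempty_rigidDatum (𝒪 := 𝒪) ρbar hyp.habs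
  set ιB : ResidueField 𝒪 →+* ResidueField (DualNumber (ResidueField 𝒪)) :=
    (IsLocalRing.residue (DualNumber (ResidueField 𝒪))).comp
      (algebraMap (ResidueField 𝒪) (DualNumber (ResidueField 𝒪))) with hιB
  -- residual
  have hres' : (ρ.baseChangeAlong (q : A →+* DualNumber (ResidueField 𝒪)) hq).residual.IsEquiv
      (ρbar.baseChangeAlong ιB) :=
    twtan_residual_baseChange (A := A) (B := DualNumber (ResidueField 𝒪)) D ιA hιA ιB
      (fun _ => rfl) q hq ρ hres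
  -- signs on `Dr`
  have hsign : ∀ r ∈ T, ∀ σ ∈ Dr r,
      (ρ.baseChangeAlong (q : A →+* DualNumber (ResidueField 𝒪)) hq).ρ σ = 1 ∨
        (ρ.baseChangeAlong (q : A →+* DualNumber (ResidueField 𝒪)) hq).ρ σ = -1 := by
    intro r hr σ hσ
    obtain ⟨z, hz, hzρ⟩ := rtk3a_sign_cases (hDr1 r hr σ hσ)
    have h1 := rtk3a_residual_intCast ιA ρbar ρ.residual hres σ z hzρ
    have h2 := rtk3a_baseChangeAlong_intCast hA ρ b (hβ r hr).1 (hβ r hr).2 ℓ σ z h1
      (fun i j => hℓ _ ⟨r, hr, σ, hσ, i, j, rfl⟩) (q : A →+* DualNumber (ResidueField 𝒪)) hq hqu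
    exact rtk3a_sign_of hz h2
  have htriv : ∀ r ∈ T,
      rtk3TrivAt (ρ.baseChangeAlong (q : A →+* DualNumber (ResidueField 𝒪)) hq) r :=
    fun r hr => hDr2 r hr _ hq (hsign r hr)
  -- unramified at `T`
  have hunr : ∀ r ∈ T,
      (ρ.baseChangeAlong (q : A →+* DualNumber (ResidueField 𝒪)) hq).IsUnramifiedAt r := by
    intro r hr P hP σ hσ
    obtain ⟨hrp, hrS, hpr, -⟩ := hT r hr
    have hrne : r ≠ p := rtk3a_ne_of_dvd_pred hpr hrp
    have hunr0 : ρbar.IsUnramifiedAt r := not_not.1 (fun h => hrS ((hyp.hmin r hrp hrne).2 h))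
    have h0 : ρbar.ρ σ = ((1 : ℤ) : Module.End (ResidueField 𝒪) ρbar.V) := by
      rw [hunr0 P hP σ hσ, Int.cast_one]
    obtain ⟨z, hz, hzρ⟩ := rtk3a_sign_cases (htriv r hr P hP σ (rtk3a_inertia_le P hσ))
    have h1 := rtk3a_residual_intCast ιB ρbar _ hres' σ 1 h0
    have h2 := rtk3a_residual_of_intCast _ σ z hzρ
    have h3 : z = 1 := rtk3a_sign_eq_one
      (ρ.baseChangeAlong (q : A →+* DualNumber (ResidueField 𝒪)) hq).residual.finrank_eq
      (rtk3a_two_ne_zero p hyp.hp2 hyp.hp𝒪 ιB) hz (h2.symm.trans h1)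
    rw [hzρ, h3, Int.cast_one]
  -- the flat condition
  have hfl := twbc_flatCondition 𝒪 (q : A →+* DualNumber (ResidueField 𝒪)) hq hsurj p
    (Smin ∪ (Q ∪ T)) ρ hflat.1
  have h𝒟 : rtk3Flat 𝒪 p Smin Q T
      (ρ.baseChangeAlong (q : A →+* DualNumber (ResidueField 𝒪)) hq) := by
    refine ⟨⟨⟨hfl.1, hfl.2.1, fun l hl hlS => ?_⟩, fun l hl hlp hlne =>
      twbc_isUnipotentOnInertiaAt _ hq ρ l (hflat.2 l hl hlp hlne)⟩, htriv⟩
    by_cases hlT : l ∈ T
    · exact hunr l hlT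
    · refine hfl.2.2 l hl fun h => ?_
      rcases Finset.mem_union.1 h with h | h
      · exact hlS (Finset.mem_union_left _ h)
      · rcases Finset.mem_union.1 h with h | h
        · exact hlS (Finset.mem_union_right _ h)
        · exact hlT h
  exact ⟨⟨_, h𝒟, hres'⟩, hq, rfl⟩

end Main

section Final

variable {𝒪 : Type} [CommRing 𝒪] [IsDomain 𝒪] [IsDiscreteValuationRing 𝒪]
  [IsAdicComplete (maximalIdeal 𝒪) 𝒪] [Finite (ResidueField 𝒪)]

/-- **K3-Alg, general form.** -/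
theorem rtk3a_main_gen (p : ℕ) [Fact p.Prime]
    (ρbar : ResidualGaloisRep (ResidueField 𝒪)) (S Smin T Q : Finset ℕ)
    (hyp : TWHyp 𝒪 p ρbar S Smin) (hT : IsTrivSet p ρbar Smin T) (g : ℕ)
    (hcard : TwTanCard 𝒪 ρbar (rtk3Flat 𝒪 p Smin Q T) (Nat.card (ResidueField 𝒪) ^ g))
    (A : Type) [CommRing A] [IsLocalRing A] [Algebra 𝒪 A] [Finite A] (hA : IsResAlg 𝒪 A)
    (ιA : ResidueField 𝒪 →+* ResidueField A)
    (hιA : ∀ x : 𝒪, ιA (residue 𝒪 x) = residue A (algebraMap 𝒪 A x))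
    (ρ : GaloisRepAdic A) (hflat : twFlat 𝒪 p Smin (Q ∪ T) ρ)
    (hres : ρ.residual.IsEquiv (ρbar.baseChangeAlong ιA))
    (b : Module.Basis (Fin 2) A ρ.V) (β βi : ℕ → Matrix (Fin 2) (Fin 2) A)
    (hβ : ∀ r ∈ T, β r * βi r = 1 ∧ ∀ i j, (β r - 1) i j ∈ maximalIdeal A)
    (Dr : ℕ → Set (AlgebraicClosure ℚ ≃ₐ[ℚ] AlgebraicClosure ℚ))
    (hDr1 : ∀ r ∈ T, ∀ σ ∈ Dr r, ρbar.ρ σ = 1 ∨ ρbar.ρ σ = -1)
    (hDr2 : ∀ r ∈ T, ∀ (q : A →+* DualNumber (ResidueField 𝒪)) (hq : IsLocalHom q),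
      (∀ σ ∈ Dr r, (ρ.baseChangeAlong q hq).ρ σ = 1 ∨ (ρ.baseChangeAlong q hq).ρ σ = -1) →
        rtk3TrivAt (ρ.baseChangeAlong q hq) r)
    (hgen : Algebra.adjoin 𝒪 ({y | ∃ σ, y = LinearMap.trace A ρ.V (ρ.ρ σ)} ∪
      {y | ∃ r ∈ T, ∃ i j, y = β r i j}) = ⊤) :
    ∃ x : Fin (g + 4 * T.card) → A, (∀ k, x k ∈ maximalIdeal A) ∧
      Algebra.adjoin 𝒪 (rtk3aEntries ρ b T β βi Dr ∪ Set.range x) = ⊤ := by
  classical
  obtain ⟨n, hn⟩ := rtk3a_exists_pow_eq_bot A
  have hk : 2 < Nat.card (ResidueField 𝒪) := twtan_two_lt_card p hyp.hp2 hyp.hp𝒪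
  have : Finite (TangentCot 𝒪 A) :=
    Finite.of_surjective _ (tangentMk_surjective (𝒪 := 𝒪) (A := A))
  have : Module.Finite (ResidueField 𝒪) (TangentCot 𝒪 A) := Module.Finite.of_finite
  have : Finite (Module.Dual (ResidueField 𝒪) (TangentCot 𝒪 A)) :=
    Module.finite_of_finite (ResidueField 𝒪)
  refine rtk3a_exists_gen hA hn (rtk3aEntries ρ b T β βi Dr) _ ?_
  have hc : Fintype.card (T × Fin 2 × Fin 2) = 4 * T.card := by
    rw [Fintype.card_prod, Fintype.card_prod, Fintype.card_coe, Fintype.card_fin]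
    ring
  rw [← hc]
  refine rtk3a_finrank_le hk _ (ι := T × Fin 2 × Fin 2)
    (fun x => tangentMk 𝒪 A (β x.1 x.2.1 x.2.2)) g ?_
  intro Λ hΛ hΛc
  have key := fun ℓ : Λ => rtk3a_exists_tangentSub p ρbar S Smin T Q hyp hT hA ιA hιA ρ hflat
    hres b β βi hβ Dr hDr1 hDr2 ℓ.1 (hΛ ℓ.1 ℓ.2).1 (fun y hy =>
      (Submodule.mem_dualAnnihilator _).1 (hΛ ℓ.1 ℓ.2).2 _ (Submodule.subset_span ⟨y, hy, rfl⟩))
  choose t hq ht using key
  refine hcard Λ t (fun i j hij => ?_)
  rw [ht i, ht j] at hij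
  exact Subtype.ext (rtk3a_eq_of_isEquiv hA ρ T β hgen i.1 j.1 _ _ (hq i) (hq j) rfl rfl hij
    (fun r hr a c => hΛc i.1 i.2 j.1 j.2 (⟨r, hr⟩, a, c)))

variable (𝒪) in
/-- **K3-Alg.**  Tangent bound ⇒ framed generation (`StmtK3Alg` of `RT/PlanK3.lean`). -/
theorem stmtK3Alg : StmtK3Alg 𝒪 := by
  intro p _ ρbar S Smin T Q hyp hT g hcard A _ _ _ _ hloc hsurj ρ hflat hres b β βi hβ hgen
  have hA : IsResAlg 𝒪 A := ⟨hloc, hsurj⟩
  obtain ⟨x, hx, hadj⟩ := rtk3a_main_gen p ρbar S Smin T Q hyp hT g hcard A hA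
    (algebraMap (ResidueField 𝒪) (ResidueField A)) (fun _ => rfl) ρ hflat hres b β βi hβ
    (fun r => {σ | ∃ P : ValuationSubring (AlgebraicClosure ℚ), P.LiesOverPrime r ∧
      σ ∈ P.decompositionSubgroup ℚ})
    (fun r hr σ hσ => by
      obtain ⟨P, hP, hσP⟩ := hσ
      exact (hT r hr).2.2.2 P hP σ hσP)
    (fun r _ q hq h P hP σ hσ => h σ ⟨P, hP, hσ⟩) hgen
  refine ⟨x, hx, ?_⟩
  have hE : rtk3LocalEntries ρ b T β βi = rtk3aEntries ρ b T β βi
      (fun r => {σ | ∃ P : ValuationSubring (AlgebraicClosure ℚ), P.LiesOverPrime r ∧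
        σ ∈ P.decompositionSubgroup ℚ}) := by
    ext y
    constructor
    · rintro ⟨r, hr, P, hP, σ, hσ, i, j, rfl⟩
      exact ⟨r, hr, σ, ⟨P, hP, hσ⟩, i, j, rfl⟩
    · rintro ⟨r, hr, σ, ⟨P, hP, hσ⟩, i, j, rfl⟩
      exact ⟨r, hr, P, hP, σ, hσ, i, j, rfl⟩
  rw [hE]
  exact hadj

end Final

end Fermat.Agent.RT


end ZBRT_006_3
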