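/- GENERATED FILE (helper35, build-time optimisation, NOTES/ZB.md): verbatim concatenation of the modules
   Fermat.Agent.S05
   Do not edit; do not import together with these modules. -/
import Fermat.Statements.S05
import Fermat.Agent.ZB.S05_002
import Fermat.Agent.ZB.S05_004

/-! ### bundled: `Fermat.Agent.S05` -/
section ZBS05_006_0
-- Statement S05 (row 5): the mod-p Galois representation of the Frey curve is unramified at
-- every prime q with q ≠ 2 and q ≠ p.
-- Proof (elementary, no Tate curve; helper5/helper13/helper63/helper99/helper45):
--   kernel of reduction has no p-torsion (Kernel), "same reduction ⇒ difference in the kernel"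
--   (Key), tropical step at the node (Tropical), inertia plumbing (Inertia), Frey arithmetic
--   (FreyArith), assembly (LocalFix, FreyFix).

set_option autoImplicit false
open WeierstrassCurve WeierstrassCurve.Affine WeierstrassCurve.Affine.Point
open CuspForm ModularFormClass UpperHalfPlane
open FreyPackage

namespace Fermat.Agent.S05

theorem result (P : FreyPackage) {q : ℕ} (hq : q.Prime) (hq2 : q ≠ 2) (hqp : q ≠ P.p) : P.GaloisRepUnramifiedAt q := by
  refine frey_unramified_of_tropical P hq hq2 hqp ?_
  intro A hA r₁ e₂ e₃ hr hr₁ he₃ he₂ he₂0 x y h htors hx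
  exact tropical_torsion A.valuation hr.hb₂ hr.hb₄ hr.hb₆ (valuation_two_eq_one A hq hA hq2)
    he₃ he₂ he₂0 P.hp_odd h htors hx

end Fermat.Agent.S05


end ZBS05_006_0
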